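/- GENERATED FILE (helper35, build-time optimisation, NOTES/ZB.md): verbatim concatenation of the modules
   Fermat.Agent.TW.L.FrobExistsFinal
   Fermat.Agent.TW.G.Wire.Loc
   Fermat.Agent.TW.W.StrSqrt
   Fermat.Agent.TW.W.GBCharT
   Fermat.Agent.TW.W.GBCharTStmt
   Fermat.Agent.TW.W.GBTame
   Fermat.Agent.TW.W.GBTameFinal
   Do not edit; do not import together with these modules. -/
import Fermat.Agent.ZB.PT_003
import Fermat.Agent.ZB.TW_018
import Fermat.Agent.ZB.S05_001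
import Fermat.Agent.ZB.Common_003
import Fermat.Agent.ZB.S05_002
import Fermat.Agent.ZB.TW_009
import Fermat.Agent.ZB.TW_001
import Fermat.Agent.ZB.TW_006
import Fermat.Agent.ZB.TW_004
import Fermat.Agent.ZB.TW_071
import Fermat.Agent.ZB.PT_004

/-! ### bundled: `Fermat.Agent.TW.L.FrobExistsFinal` -/
section ZBTW_010_0
/-
TW-L / L-frobex, unconditional form (helper32): `stmtFrobExists : StmtFrobExists`
(`stmtFrobExists_of` of `FrobExists.lean` + `stmtDecFull` of `DecFull.lean`).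
-/

set_option autoImplicit false

namespace Fermat.Agent.TW.L

/-- **L-frobex**: `G_{ℚ_q}` contains a Frobenius element. -/
theorem stmtFrobExists : StmtFrobExists := stmtFrobExists_of stmtDecFull

end Fermat.Agent.TW.L


end ZBTW_010_0

/-! ### bundled: `Fermat.Agent.TW.G.Wire.Loc` -/
section ZBTW_010_1
/-
TW-G / G-wire piece W4 (helper35): a class whose restriction to `G_{ℚ_q}` vanishes is trivial at
the Frobenius elements over `q`.

`stmtWLoc : StmtWLoc`.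

Proof.  `G_ℚ` is transitive on the places of `ℚ̄` over `q` (`gwl_exists_smul_eq`, from
`S14.exists_fixing_smul_eq` with `F = ℚ`: a rational number lies in a place over `q` iff `q` does
not divide its denominator).  So `A = g • padicPlace q`, and a Frobenius `τ` at `A` is
`g u g⁻¹` with `u` in the decomposition group of `padicPlace q`, i.e. `u = r_q(x)`
(`TW.L.stmtDecFull`).  The cocycle identity gives `c(τ) = τ m' - m'` for `m' = g m - c(g)`.
No continuity of the cocycle is needed.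
-/

set_option autoImplicit false

namespace Fermat.Agent.TW.G.Wire

open CategoryTheory groupCohomology
open Fermat.Agent.PT Fermat.Agent.PT.B Fermat.Agent.TW.S Fermat.Agent.TW.L ExtCitation
open scoped Pointwise

/-- a rational number lies in a place over `q` iff `q` does not divide its denominator -/
theorem gwl_rat_mem_iff {q : ℕ} (hq : q.Prime) (A : ValuationSubring (AlgebraicClosure ℚ))
    (hA : A.LiesOverPrime q) (x : ℚ) :
    algebraMap ℚ (AlgebraicClosure ℚ) x ∈ A ↔ ¬ (q : ℤ) ∣ (x.den : ℤ) := by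
  constructor
  · exact Fermat.Agent.S13.Minkowski.not_dvd_den_of_mem hq A hA x
  · intro h
    have hv : A.valuation (((x.den : ℤ) : ℤ) : AlgebraicClosure ℚ) = 1 :=
      (Fermat.Agent.S05.valuation_intCast_eq_one_iff A hq hA _).mpr h
    have hnum : A.valuation ((x.num : ℤ) : AlgebraicClosure ℚ) ≤ 1 :=
      (A.valuation_le_one_iff _).mpr (intCast_mem A x.num)
    rw [← A.valuation_le_one_iff, eq_ratCast, Rat.cast_def, map_div₀]
    rw [Int.cast_natCast] at hv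
    rw [hv, div_one]
    exact hnum

/-- **`G_ℚ` is transitive on the places of `ℚ̄` over a prime.** -/
theorem gwl_exists_smul_eq {q : ℕ} (hq : q.Prime) (A A' : ValuationSubring (AlgebraicClosure ℚ))
    (hA : A.LiesOverPrime q) (hA' : A'.LiesOverPrime q) : ∃ g : GQ, g • A = A' := by
  obtain ⟨ρ, -, h⟩ := Fermat.Agent.S14.exists_fixing_smul_eq ⊥ A A' (by
    intro x hx
    obtain ⟨r, rfl⟩ := IntermediateField.mem_bot.1 hx
    rw [gwl_rat_mem_iff hq A hA, gwl_rat_mem_iff hq A' hA'])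
  exact ⟨ρ, h⟩

/-- every element of the decomposition group of a place `A` over `q` is conjugate to the image of
an element of `G_{ℚ_q}` -/
theorem gwl_exists_conj (q : ℕ) [Fact q.Prime] (A : ValuationSubring (AlgebraicClosure ℚ))
    (hA : A.LiesOverPrime q) (τ : GQ) (hτ : τ ∈ A.decompositionSubgroup ℚ) :
    ∃ (g : GQ) (x : GQq q), τ = g * localGaloisToGlobal q x * g⁻¹ := by
  have hq : q.Prime := Fact.out
  obtain ⟨g, hg⟩ := gwl_exists_smul_eq hq (padicPlace q) A (lfrobex_liesOverPrime q) hA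
  have hu : g⁻¹ * τ * g ∈ (padicPlace q).decompositionSubgroup ℚ := by
    rw [MulAction.mem_stabilizer_iff] at hτ ⊢
    rw [mul_smul, mul_smul, hg, hτ, ← hg, inv_smul_smul]
  obtain ⟨x, hx⟩ := stmtDecFull q _ hu
  refine ⟨g, x, ?_⟩
  rw [hx]
  group

/-- the cocycle identity under conjugation -/
theorem gwl_coc_conj {k : Type} [CommRing k] (B : Rep.{0} k GQ) (c : cocycles₁ B) (g u : GQ)
    (m : B.V) (hu : c u = B.ρ u m - m) :
    c (g * u * g⁻¹) = B.ρ (g * u * g⁻¹) (B.ρ g m - c g) - (B.ρ g m - c g) := by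
  have hmul : ∀ a b : GQ, c (a * b) = B.ρ a (c b) + c a := (mem_cocycles₁_iff c).1 c.2
  have hinv : B.ρ g (c g⁻¹) = - c g := cocycles₁_map_inv c g
  have h1 : c (g * u * g⁻¹) = B.ρ (g * u) (c g⁻¹) + (B.ρ g (c u) + c g) := by
    rw [hmul (g * u) g⁻¹, hmul g u]
  have h2 : B.ρ (g * u * g⁻¹) (c g) = - B.ρ (g * u) (c g⁻¹) := by
    have e : B.ρ (g * u * g⁻¹) (c g) = B.ρ (g * u) (B.ρ g⁻¹ (c g)) := by
      rw [map_mul (B.ρ) (g * u) g⁻¹]; rfl
    have e2 : B.ρ g⁻¹ (c g) = - c g⁻¹ := by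
      have := cocycles₁_map_inv c g⁻¹
      rwa [inv_inv] at this
    rw [e, e2, map_neg]
  have h3 : B.ρ (g * u * g⁻¹) (B.ρ g m) = B.ρ g (B.ρ u m) := by
    have e : B.ρ (g * u * g⁻¹) (B.ρ g m) = B.ρ (g * u * g⁻¹ * g) m := by
      rw [map_mul (B.ρ) (g * u * g⁻¹) g]; rfl
    rw [e, inv_mul_cancel_right, map_mul (B.ρ) g u]; rfl
  rw [h1, hu, map_sub, map_sub, h2, h3]
  abel

/-- **W4**. -/
theorem stmtWLoc : StmtWLoc := by
  intro k _ p _ _ ρbar q _ c hloc A hA τ hτ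
  obtain ⟨m, hm⟩ := hloc
  obtain ⟨g, x, hgx⟩ := gwl_exists_conj q A hA τ hτ.mem_decompositionSubgroup
  refine ⟨(adTw p ρbar).ρ g m - c g, ?_⟩
  have h := gwl_coc_conj (adTw p ρbar) c g (localGaloisToGlobal q x) m (hm x)
  rw [← hgx] at h
  exact h

end Fermat.Agent.TW.G.Wire


end ZBTW_010_1

/-! ### bundled: `Fermat.Agent.TW.W.StrSqrt` -/
section ZBTW_010_2
/-
TW-W / STR-sqrt (helper86): `stmtNoSqrt : StmtNoSqrt`.

No smooth character `η : G_p → kˣ` (`char k = p` odd) satisfies `η² = ω` on the inertia group.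

Proof.  `η(G_p)` is a finite subgroup of `kˣ`, of order `n` prime to `p`.  By `stmtTameGen` the
restriction of `η` to inertia has values in the powers of `η(t)`, and `η(φ t φ⁻¹) = η(t) ^ p` for
a Frobenius `φ`; `kˣ` is commutative, so `η(t) ^ (p - 1) = 1` and `η(x) ^ (p - 1) = 1` for every
`x` in inertia (`wstr_char_inertia_pow`).  If `η² = ω` on inertia then `ω(x) ^ ((p - 1)/2) = 1`
for all such `x`; but `ω` maps inertia onto `𝔽_pˣ` (`stmtCycloRamFull` + `stmtDecFull`), which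
contains an element of order `p - 1`.
-/

set_option autoImplicit false
set_option linter.style.haveILetI false

noncomputable section

namespace Fermat.Agent.TW.W

open Fermat.Agent.PT Fermat.Agent.PT.B Fermat.Agent.TW.L ExtCitation

/-- The units of a field of characteristic `p` contain no element of order `p`. -/
theorem wstr_unit_eq_one_of_pow_char {k : Type*} [Field k] (p : ℕ) [hp : Fact p.Prime]
    [CharP k p] (x : kˣ) (h : x ^ p = 1) : x = 1 := by
  have h1 : ((x : k) - 1) ^ p = 0 := by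
    rw [sub_pow_char, one_pow, ← Units.val_pow_eq_pow_val, h, Units.val_one, sub_self]
  have h2 : (x : k) - 1 = 0 := (pow_eq_zero_iff hp.out.ne_zero).mp h1
  exact Units.ext (sub_eq_zero.mp h2)

/-- A finite subgroup of the units of a field of characteristic `p` has order prime to `p`. -/
theorem wstr_coprime_card {k : Type*} [Field k] (p : ℕ) [hp : Fact p.Prime] [CharP k p]
    (H : Subgroup kˣ) [Finite H] : Nat.Coprime p (Nat.card H) := by
  rw [Nat.Prime.coprime_iff_not_dvd hp.out]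
  intro hdvd
  obtain ⟨x, hx⟩ := exists_prime_orderOf_dvd_card' p hdvd
  have h1 : x ^ p = 1 := by
    rw [← hx]
    exact pow_orderOf_eq_one x
  have h2 : (x : kˣ) ^ p = 1 := by
    have := congrArg (fun z : H => (z : kˣ)) h1
    simpa using this
  have h3 : x = 1 := Subtype.ext (wstr_unit_eq_one_of_pow_char p _ h2)
  rw [h3, orderOf_one] at hx
  exact hp.out.one_lt.ne hx

/-- **Characters of `G_p` on inertia.**  A smooth character of `G_p` with values in a field of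
characteristic `p` has, on the inertia group, values of order dividing `p - 1`. -/
theorem wstr_char_inertia_pow (p : ℕ) [hp : Fact p.Prime] (k : Type) [Field k] [CharP k p]
    (η : GQq p →* kˣ) (hη : ∃ U ∈ (towerLoc p).lev, ∀ s ∈ U, η s = 1) :
    ∀ σ ∈ inertiaQ p, η σ ^ (p - 1) = 1 := by
  obtain ⟨U, hU, hUη⟩ := hη
  haveI : U.FiniteIndex := (towerLoc p).finiteIndex U hU
  have hle : U ≤ η.ker := fun s hs => (MonoidHom.mem_ker).mpr (hUη s hs)
  haveI : η.ker.FiniteIndex := Subgroup.finiteIndex_of_le hle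
  haveI : Finite (GQq p ⧸ η.ker) := Subgroup.finite_quotient_of_finiteIndex
  haveI : Finite η.range := Finite.of_equiv _ (QuotientGroup.quotientKerEquivRange η).toEquiv
  have hcop : Nat.Coprime p (Nat.card η.range) := wstr_coprime_card p η.range
  obtain ⟨t, ht⟩ := stmtTameGen p (Nat.card η.range) hcop U hU
  let h : ↥(inertiaQ p) →* η.range := η.rangeRestrict.comp (inertiaQ p).subtype
  have hval : ∀ x : ↥(inertiaQ p), ((h x : η.range) : kˣ) = η (x : GQq p) := fun _ => rfl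
  obtain ⟨h1, h2⟩ := ht η.range h (fun a => pow_card_eq_one') (fun x hx => by
    apply Subtype.ext
    rw [hval]
    exact hUη _ hx)
  obtain ⟨φ, hφ⟩ := stmtFrobExists p
  have h3 := h2 φ hφ (ltw_conj_mem_inertiaQ φ t.2)
  have h4 : η (t : GQq p) ^ p = η (t : GQq p) := by
    have e := congrArg (fun z : η.range => (z : kˣ)) h3
    simp only [SubmonoidClass.coe_pow, hval] at e
    rw [← e, map_mul, map_mul, map_inv, mul_comm (η φ), mul_assoc, mul_inv_cancel, mul_one]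
  have h5 : η (t : GQq p) ^ (p - 1) = 1 := by
    have e : η (t : GQq p) ^ (p - 1) * η (t : GQq p) = 1 * η (t : GQq p) := by
      rw [← pow_succ, Nat.sub_add_cancel hp.out.one_le, h4, one_mul]
    exact mul_right_cancel e
  intro σ hσ
  obtain ⟨m, hm⟩ := h1 ⟨σ, hσ⟩
  have e := congrArg (fun z : η.range => (z : kˣ)) hm
  simp only [SubmonoidClass.coe_pow, hval] at e
  show η σ ^ (p - 1) = 1
  have e' : η σ = η (t : GQq p) ^ m := e
  rw [e', ← pow_mul, mul_comm, pow_mul, h5, one_pow]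

/-- `ω` maps the inertia group of `G_p` onto `𝔽_pˣ`. -/
theorem wstr_cyclo_inertiaQ_surjective (p : ℕ) [Fact p.Prime] (a : (ZMod p)ˣ) :
    ∃ τ ∈ inertiaQ p, cycloChar p (localGaloisToGlobal p τ) = a := by
  obtain ⟨σ, hσI, hσa⟩ := stmtCycloRamFull p a
  obtain ⟨τ, hτ⟩ := stmtDecFull p σ ((mem_inertiaSubgroupIn_iff _ σ).mp hσI).1
  refine ⟨τ, ?_, ?_⟩
  · rw [mem_inertiaQ, hτ]
    exact hσI
  · rw [hτ, hσa]

/-- **STR-sqrt.** -/
theorem stmtNoSqrt : StmtNoSqrt := by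
  intro p hpF hp2 k _ _ _ η hη hsq
  have hp : p.Prime := Fact.out
  have hpow := wstr_char_inertia_pow p k η hη
  -- a generator of `𝔽_pˣ`
  obtain ⟨a, ha⟩ := IsCyclic.exists_generator (α := (ZMod p)ˣ)
  have horda : orderOf a = p - 1 := by
    rw [orderOf_eq_card_of_forall_mem_zpowers ha, Nat.card_eq_fintype_card, ZMod.card_units]
  obtain ⟨τ, hτI, hτa⟩ := wstr_cyclo_inertiaQ_surjective p a
  have h1 := hsq τ hτI
  rw [hτa] at h1
  have hodd : p % 2 = 1 := hp.eq_two_or_odd.resolve_left hp2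
  have hhalf : 2 * ((p - 1) / 2) = p - 1 := by omega
  have h2 : algebraMap (ZMod p) k (((a : (ZMod p)ˣ) : ZMod p) ^ ((p - 1) / 2)) = 1 := by
    rw [map_pow, ← h1, ← pow_mul, hhalf, ← Units.val_pow_eq_pow_val, hpow τ hτI, Units.val_one]
  have h3 : ((a : (ZMod p)ˣ) : ZMod p) ^ ((p - 1) / 2) = 1 := by
    apply (algebraMap (ZMod p) k).injective
    rw [h2, map_one]
  have h4 : a ^ ((p - 1) / 2) = 1 := by
    apply Units.ext
    rw [Units.val_pow_eq_pow_val, h3, Units.val_one]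
  have h5 := orderOf_dvd_of_pow_eq_one h4
  rw [horda] at h5
  have h2le : 2 ≤ p := hp.two_le
  have h6 := Nat.le_of_dvd (by omega) h5
  omega

end Fermat.Agent.TW.W

end


end ZBTW_010_2

/-! ### bundled: `Fermat.Agent.TW.W.GBCharT` -/
section ZBTW_010_3
/-
TW-W / CHAR-T (helper48): the good field cut out by a level character `ψ : G_p → kˣ` and the
mod `p` cyclotomic character `ω`.

`wgbctT p ψ := ` the fixed field of `ker ψ ⊓ ker ω`.  For `ψ` level (trivial on a member of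
`towerLoc p`), `k` finite of characteristic `p`:

* `wgbct_fixingSubgroup`  : `G_T = ker ψ ⊓ ker ω`;
* `wgbct_isGoodField`     : `T` is a good field (finite Galois of degree prime to `p`, `ζ_p ∈ T`);
* `wgbct_rho_eq_one`      : `G_T` acts trivially on `k(ψ) = charRep p ψ`;
* `wgbct_smooth`, `wgbct_finiteDimensional` : `k(ψ)` is smooth and finite-dimensional;
* `wgbct_pow_pred`        : `ψ(σ)^(p-1) = 1` for `σ` in inertia (from `StmtTameGen`);
* `wgbct_pow_mem`         : `σ^(p-1) ∈ G_T` for `σ` in inertia (so `e(T/ℚ_p) ∣ p - 1`);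
* `wgbct_invariants_eq_bot`, `wgbct_invariants_of_cyc` : `h⁰(k(ψ)) = 0` if `ψ ≠ 1`, e.g. if
  `ψ = ω` on inertia (`p` odd);
* `wgbct_exists_inertia_om` : `ω ≠ 1` on `inertiaQ p` (`p` odd).
-/

set_option autoImplicit false
set_option linter.style.haveILetI false
set_option linter.unusedSectionVars false

noncomputable section

namespace Fermat.Agent.TW.W

open CategoryTheory groupCohomology
open Fermat.Agent.PT Fermat.Agent.PT.B Fermat.Agent.TW.L Fermat.Agent.TW.S ExtCitation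

section

variable (p : ℕ) [Fact p.Prime]

/-- the mod `p` cyclotomic character on `G_p` -/
def wgbctOm : GQq p →* (ZMod p)ˣ := (cycloChar p).comp (localGaloisToGlobal p)

lemma wgbctOm_apply (σ : GQq p) : wgbctOm p σ = cycloChar p (localGaloisToGlobal p σ) := rfl

variable {k : Type} [Field k]

/-- `ker ψ ⊓ ker ω` -/
def wgbctH (ψ : GQq p →* kˣ) : Subgroup (GQq p) := ψ.ker ⊓ (wgbctOm p).ker

lemma wgbct_mem_H (ψ : GQq p →* kˣ) (σ : GQq p) :
    σ ∈ wgbctH p ψ ↔ ψ σ = 1 ∧ cycloChar p (localGaloisToGlobal p σ) = 1 := Iff.rfl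

instance wgbctH_normal (ψ : GQq p →* kˣ) : (wgbctH p ψ).Normal := by
  unfold wgbctH
  infer_instance

/-- the field cut out by `ψ` and `ω` -/
def wgbctT (ψ : GQq p →* kˣ) : IntermediateField ℚ_[p] (PadicAlgCl p) :=
  IntermediateField.fixedField (wgbctH p ψ)

/-- `ker ψ ⊓ ker ω` contains `Gal(ℚ̄_p/E)` for a finite extension `E/ℚ_p`. -/
theorem wgbct_exists_le (ψ : GQq p →* kˣ)
    (hψ : ∃ U ∈ (towerLoc p).lev, ∀ s ∈ U, ψ s = 1) :
    ∃ E : IntermediateField ℚ_[p] (PadicAlgCl p), FiniteDimensional ℚ_[p] E ∧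
      E.fixingSubgroup ≤ wgbctH p ψ := by
  obtain ⟨_, ⟨F, hF, rfl⟩, hU⟩ := hψ
  haveI := hF
  haveI : NeZero p := ⟨(Fact.out : p.Prime).ne_zero⟩
  refine ⟨localField p (F ⊔ cycloField p),
    stmtLocalFinite p _ (IntermediateField.finiteDimensional_sup F (cycloField p)),
    fun σ hσ => ?_⟩
  have h1 : localGaloisToGlobal p σ ∈ (F ⊔ cycloField p).fixingSubgroup :=
    (stmtLocalLevel p _ σ).2 hσ
  rw [IntermediateField.fixingSubgroup_sup] at h1
  exact ⟨MonoidHom.mem_ker.2 (hU σ h1.1),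
    MonoidHom.mem_ker.2 ((cycloChar_eq_one_iff p _).2 h1.2)⟩

/-- `G_T = ker ψ ⊓ ker ω`. -/
theorem wgbct_fixingSubgroup (ψ : GQq p →* kˣ)
    (hψ : ∃ U ∈ (towerLoc p).lev, ∀ s ∈ U, ψ s = 1) :
    (wgbctT p ψ).fixingSubgroup = wgbctH p ψ := by
  obtain ⟨E, hE, hle⟩ := wgbct_exists_le p ψ hψ
  haveI := hE
  have hopen : IsOpen (wgbctH p ψ : Set (GQq p)) :=
    Subgroup.isOpen_mono hle E.fixingSubgroup_isOpen
  have hclosed : IsClosed (wgbctH p ψ : Set (GQq p)) := Subgroup.isClosed_of_isOpen _ hopen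
  exact InfiniteGalois.fixingSubgroup_fixedField ⟨wgbctH p ψ, hclosed⟩

lemma wgbct_mem_fixingSubgroup (ψ : GQq p →* kˣ)
    (hψ : ∃ U ∈ (towerLoc p).lev, ∀ s ∈ U, ψ s = 1) (σ : GQq p) :
    σ ∈ (wgbctT p ψ).fixingSubgroup ↔
      ψ σ = 1 ∧ cycloChar p (localGaloisToGlobal p σ) = 1 := by
  rw [wgbct_fixingSubgroup p ψ hψ]
  exact wgbct_mem_H p ψ σ

/-- `p ∤ |k| - 1`. -/
theorem wgbct_not_dvd_card_units [CharP k p] [Finite k] : ¬ p ∣ Nat.card kˣ := by
  classical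
  letI : Fintype k := Fintype.ofFinite k
  obtain ⟨n, hn⟩ := FiniteField.card k p
  have hcard : Nat.card kˣ = Fintype.card k - 1 := by
    rw [Nat.card_eq_fintype_card, Fintype.card_units]
  rw [hcard, hn.2]
  intro h
  have hpos : 0 < p ^ (n : ℕ) := pow_pos (Fact.out : p.Prime).pos _
  have h1 : p ∣ p ^ (n : ℕ) := dvd_pow_self p n.ne_zero
  have h2 : p ∣ p ^ (n : ℕ) - (p ^ (n : ℕ) - 1) := Nat.dvd_sub h1 h
  have h3 : p ^ (n : ℕ) - (p ^ (n : ℕ) - 1) = 1 := by omega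
  rw [h3] at h2
  exact (Fact.out : p.Prime).one_lt.ne' (Nat.dvd_one.1 h2)

/-- `p ∤ [G_p : ker ψ ⊓ ker ω]`. -/
theorem wgbct_not_dvd_index [CharP k p] [Finite k] (ψ : GQq p →* kˣ) :
    ¬ p ∣ (wgbctH p ψ).index := by
  have hker : wgbctH p ψ = (ψ.prod (wgbctOm p)).ker := (MonoidHom.ker_prod _ _).symm
  rw [hker, Subgroup.index_ker]
  intro h
  have h1 : Nat.card ↥(ψ.prod (wgbctOm p)).range ∣ Nat.card (kˣ × (ZMod p)ˣ) :=
    Subgroup.card_subgroup_dvd_card _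
  have h2 : Nat.card (kˣ × (ZMod p)ˣ) = Nat.card kˣ * (p - 1) := by
    rw [Nat.card_prod]
    congr 1
    rw [Nat.card_eq_fintype_card, ZMod.card_units]
  rw [h2] at h1
  rcases (Nat.Prime.dvd_mul (Fact.out : p.Prime)).1 (h.trans h1) with h3 | h3
  · exact wgbct_not_dvd_card_units p h3
  · have hp1 : 1 < p := (Fact.out : p.Prime).one_lt
    have := Nat.le_of_dvd (by omega) h3
    omega

/-- **(1)** `T` is a good field. -/
theorem wgbct_isGoodField [CharP k p] [Finite k] (ψ : GQq p →* kˣ)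
    (hψ : ∃ U ∈ (towerLoc p).lev, ∀ s ∈ U, ψ s = 1) : IsGoodField p (wgbctT p ψ) := by
  obtain ⟨E, hE, hle⟩ := wgbct_exists_le p ψ hψ
  haveI := hE
  have hfix := wgbct_fixingSubgroup p ψ hψ
  have hTE : wgbctT p ψ ≤ E := by
    have h1 : IntermediateField.fixedField (wgbctH p ψ) ≤
        IntermediateField.fixedField E.fixingSubgroup := IntermediateField.fixedField_le hle
    rwa [InfiniteGalois.fixedField_fixingSubgroup] at h1
  have hfin : FiniteDimensional ℚ_[p] (wgbctT p ψ) :=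
    FiniteDimensional.of_injective (IntermediateField.inclusion hTE).toLinearMap
      (IntermediateField.inclusion hTE).injective
  have hnormal : ((wgbctT p ψ).fixingSubgroup : Subgroup (GQq p)).Normal := by
    rw [hfix]
    infer_instance
  refine ⟨hfin, (InfiniteGalois.normal_iff_isGalois _).1 hnormal, ?_, ?_⟩
  · rw [IntermediateField.finrank_eq_fixingSubgroup_index (PadicAlgCl p) (wgbctT p ψ), hfix]
    exact wgbct_not_dvd_index p ψ
  · haveI : NeZero p := ⟨(Fact.out : p.Prime).ne_zero⟩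
    obtain ⟨ζ₀, hζ₀⟩ := cycloField_exists_primitiveRoot p
    refine ⟨padicEmbedding p ζ₀, ?_, ?_, ?_⟩
    · rw [wgbctT, IntermediateField.mem_fixedField_iff]
      intro σ hσ
      have h2 := (cycloChar_eq_one_iff p _).1 ((wgbct_mem_H p ψ σ).1 hσ).2
      have h3 := (mem_fixingSubgroup_cycloField_iff _).1 h2 ζ₀ hζ₀.pow_eq_one
      rw [← padicEmbedding_localGaloisToGlobal, h3]
    · intro h
      have hinj : Function.Injective (padicEmbedding p) := (padicEmbedding p).toRingHom.injective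
      have h1 : ζ₀ = 1 := hinj (by rw [h, map_one])
      exact hζ₀.ne_one (Fact.out : p.Prime).one_lt h1
    · rw [← map_pow, hζ₀.pow_eq_one, map_one]

variable [Algebra (ZMod p) k]

/-- **(2)** `G_T` acts trivially on `k(ψ)`. -/
theorem wgbct_rho_eq_one (ψ : GQq p →* kˣ)
    (hψ : ∃ U ∈ (towerLoc p).lev, ∀ s ∈ U, ψ s = 1) :
    ∀ σ ∈ (wgbctT p ψ).fixingSubgroup, (charRep p ψ).ρ σ = 1 := by
  intro σ hσ
  have h1 : ψ σ = 1 := ((wgbct_mem_fixingSubgroup p ψ hψ σ).1 hσ).1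
  refine LinearMap.ext fun x => ?_
  have h2 : ∀ y : k, (charRep p ψ).ρ σ y = y := by
    intro y
    rw [charRep_ρ_apply, h1, Units.val_one, one_mul]
  exact h2 x

/-- **(3a)** `k(ψ)` is smooth. -/
theorem wgbct_smooth (ψ : GQq p →* kˣ)
    (hψ : ∃ U ∈ (towerLoc p).lev, ∀ s ∈ U, ψ s = 1) : IsSmoothQ p (charRep p ψ) := by
  obtain ⟨U, hU, h⟩ := hψ
  refine ⟨U, hU, fun s hs => LinearMap.ext fun x => ?_⟩
  have h2 : ∀ y : k, (charRep p ψ).ρ s y = y := by
    intro y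
    rw [charRep_ρ_apply, h s hs, Units.val_one, one_mul]
  exact h2 x

/-- **(3b)** `k(ψ)` is finite-dimensional. -/
theorem wgbct_finiteDimensional [Finite k] (ψ : GQq p →* kˣ) :
    FiniteDimensional (ZMod p) (charRep p ψ) :=
  (Module.Finite.of_finite : Module.Finite (ZMod p) k)

/-- **(4)** `ψ^(p-1) = 1` on inertia. -/
theorem wgbct_pow_pred [CharP k p] [Finite k] (hTG : StmtTameGen) (ψ : GQq p →* kˣ)
    (hψ : ∃ U ∈ (towerLoc p).lev, ∀ s ∈ U, ψ s = 1) :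
    ∀ σ ∈ inertiaQ p, ψ σ ^ (p - 1) = 1 := by
  obtain ⟨V, hV, hψV⟩ := hψ
  have hcop : Nat.Coprime p (Nat.card kˣ) :=
    (Nat.Prime.coprime_iff_not_dvd (Fact.out : p.Prime)).2 (wgbct_not_dvd_card_units p)
  obtain ⟨t, ht⟩ := hTG p (Nat.card kˣ) hcop V hV
  obtain ⟨h1, h2⟩ := ht kˣ (ψ.comp (inertiaQ p).subtype) (fun a => pow_card_eq_one')
    (fun x hx => hψV x hx)
  obtain ⟨φ, hφ⟩ := stmtFrobExists p
  have h3 : ψ (φ * (t : GQq p) * φ⁻¹) = ψ (t : GQq p) ^ p :=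
    h2 φ hφ (ltw_conj_mem_inertiaQ φ t.2)
  have h4 : ψ (φ * (t : GQq p) * φ⁻¹) = ψ (t : GQq p) := by
    rw [map_mul, map_mul, map_inv, mul_comm (ψ φ), mul_assoc, mul_inv_cancel, mul_one]
  have hp1 : p = (p - 1) + 1 := by
    have := (Fact.out : p.Prime).one_lt
    omega
  have h5 : ψ (t : GQq p) ^ (p - 1) = 1 := by
    have h6 : ψ (t : GQq p) ^ (p - 1) * ψ (t : GQq p) = 1 * ψ (t : GQq p) := by
      rw [← pow_succ, ← hp1, ← h3, h4, one_mul]
    exact mul_right_cancel h6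
  intro σ hσ
  obtain ⟨m, hm⟩ := h1 ⟨σ, hσ⟩
  have hm' : ψ σ = ψ (t : GQq p) ^ m := hm
  rw [hm', ← pow_mul, mul_comm, pow_mul, h5, one_pow]

/-- **(4′)** `σ^(p-1) ∈ G_T` for `σ` in inertia: the ramification index of `T/ℚ_p` divides
`p - 1`. -/
theorem wgbct_pow_mem [CharP k p] [Finite k] (hTG : StmtTameGen) (ψ : GQq p →* kˣ)
    (hψ : ∃ U ∈ (towerLoc p).lev, ∀ s ∈ U, ψ s = 1) :
    ∀ σ ∈ inertiaQ p, σ ^ (p - 1) ∈ (wgbctT p ψ).fixingSubgroup := by
  intro σ hσ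
  rw [wgbct_mem_fixingSubgroup p ψ hψ]
  refine ⟨by rw [map_pow]; exact wgbct_pow_pred p hTG ψ hψ σ hσ, ?_⟩
  rw [map_pow, map_pow]
  have h1 : Nat.card (ZMod p)ˣ = p - 1 := by
    rw [Nat.card_eq_fintype_card, ZMod.card_units]
  rw [← h1]
  exact pow_card_eq_one'

/-- **(5)** `h⁰(k(ψ)) = 0` if `ψ ≠ 1`. -/
theorem wgbct_invariants_eq_bot (ψ : GQq p →* kˣ) {σ : GQq p} (hσ : ψ σ ≠ 1) :
    (charRep p ψ).ρ.invariants = ⊥ := by
  rw [Submodule.eq_bot_iff]
  intro x hx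
  have h1 : (charRep p ψ).ρ σ x = x := hx σ
  have key : ∀ y : k, (charRep p ψ).ρ σ y = y → y = 0 := by
    intro y hy
    rw [charRep_ρ_apply] at hy
    by_contra hy0
    have h3 : ((ψ σ : kˣ) : k) = 1 := mul_right_cancel₀ hy0 (hy.trans (one_mul y).symm)
    exact hσ (Units.ext h3)
  exact key x h1

/-- `ω ≠ 1` on `inertiaQ p` (`p` odd). -/
theorem wgbct_exists_inertia_om (hp2 : p ≠ 2) :
    ∃ σ ∈ inertiaQ p, cycloChar p (localGaloisToGlobal p σ) ≠ 1 := by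
  obtain ⟨σ, hσ, hne⟩ := stmtCycloRam p hp2
  have hdec : σ ∈ (padicPlace p).decompositionSubgroup ℚ := by
    obtain ⟨τ', _, rfl⟩ := hσ
    exact τ'.2
  obtain ⟨τ, rfl⟩ := stmtDecFull p σ hdec
  exact ⟨τ, hσ, hne⟩

/-- **(5′)** `h⁰(k(ψ)) = 0` if `ψ = ω` on inertia (`p` odd). -/
theorem wgbct_invariants_of_cyc (hp2 : p ≠ 2) (ψ : GQq p →* kˣ) (hcyc : IsCycOnInertia p ψ) :
    (charRep p ψ).ρ.invariants = ⊥ := by
  obtain ⟨σ, hσ, hne⟩ := wgbct_exists_inertia_om p hp2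
  refine wgbct_invariants_eq_bot p ψ (σ := σ) (fun h => hne ?_)
  have h1 := hcyc σ hσ
  rw [h, Units.val_one] at h1
  have hinj : Function.Injective (algebraMap (ZMod p) k) := (algebraMap (ZMod p) k).injective
  have h2 : ((cycloChar p (localGaloisToGlobal p σ) : (ZMod p)ˣ) : ZMod p) = 1 :=
    hinj (by rw [← h1, map_one])
  exact Units.ext h2

end

end Fermat.Agent.TW.W

end


end ZBTW_010_3

/-! ### bundled: `Fermat.Agent.TW.W.GBCharTStmt` -/
section ZBTW_010_4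
/-
TW-W / CHAR-T (helper48): `stmtGBCharT : StmtGBCharT` (interface `TW/W/GBPlan.lean`), assembled from
`TW/W/GBCharT.lean` (`wgbct_*`) and `stmtTameGen` (helper86, `TW/W/StrTame.lean`).
-/

set_option autoImplicit false
set_option linter.style.haveILetI false

noncomputable section

namespace Fermat.Agent.TW.W

open CategoryTheory groupCohomology
open Fermat.Agent.PT Fermat.Agent.PT.B Fermat.Agent.TW.L Fermat.Agent.TW.S ExtCitation

/-- **CHAR-T**. -/
theorem stmtGBCharT : StmtGBCharT := by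
  intro p _ hp2 k _ _ _ _ ψ hψ
  refine ⟨⟨wgbctT p ψ, wgbct_isGoodField p ψ hψ, wgbct_rho_eq_one p ψ hψ⟩, wgbct_smooth p ψ hψ,
    wgbct_finiteDimensional p ψ, fun σ hσ => ?_, fun hcyc => ?_⟩
  · have h := wgbct_pow_pred p stmtTameGen ψ hψ σ hσ
    rw [← Units.val_pow_eq_pow_val, h, Units.val_one]
  · rw [wgbct_invariants_of_cyc p hp2 ψ hcyc]
    exact finrank_bot _ _

end Fermat.Agent.TW.W

end


end ZBTW_010_4

/-! ### bundled: `Fermat.Agent.TW.W.GBTame` -/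
section ZBTW_010_5
/-
TW-W, block (GB), piece K4 (helper65): `stmtGBTame_of : (ω-θ) → StmtGBTame`
(the final `stmtGBTame : StmtGBTame` is in `TW/W/GBTameFinal.lean`).

`F` := the residue field of `𝒪_T` (`UE.OV p stmtWAdd T`), `wgtRes : ℚ̄_p → F` the residue map
(`0` outside `𝒪_T`), `actF` the action of `G_p` through `Gal(T/ℚ_p)`, `π` a uniformiser,
`u γ = res(γ π / π)`, `r t x = res(x / π ^ t)`.
-/

set_option autoImplicit false
set_option linter.unusedSectionVars false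
set_option linter.style.haveILetI false

noncomputable section

namespace Fermat.Agent.TW.W

open Fermat.Agent.PT.L Fermat.Agent.PT.B Fermat.Agent.TW.L
open scoped Pointwise

section Res

variable (p : ℕ) [Fact p.Prime] (T : IntermediateField ℚ_[p] (PadicAlgCl p))
  [FiniteDimensional ℚ_[p] T]

/-- the valuation ring of `T` -/
abbrev wgtO : ValuationSubring T := UE.OV p stmtWAdd T

/-- the residue field of `T` -/
abbrev wgtF : Type := IsLocalRing.ResidueField (wgtO p T)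

theorem wgt_mem_O (z : T) : z ∈ wgtO p T ↔ ‖(z : PadicAlgCl p)‖ ≤ 1 :=
  (wgr_norm_le_one_iff p T z).symm

theorem wgt_mem_max (z : wgtO p T) :
    z ∈ IsLocalRing.maximalIdeal (wgtO p T) ↔ ‖((z : T) : PadicAlgCl p)‖ < 1 := by
  rw [UE.mem_maximalIdeal_iff]
  by_cases h0 : (z : T) = 0
  · rw [h0]
    simp
  · rw [wgr_norm_lt_one_iff _ h0]
    constructor
    · rintro (h | h)
      · exact absurd h h0
      · omega
    · intro h
      exact Or.inr (by omega)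

/-- the residue map `𝒪_T → F`, extended by `0` to `ℚ̄_p` -/
def wgtRes (z : PadicAlgCl p) : wgtF p T :=
  open Classical in
  if h : z ∈ T ∧ ‖z‖ ≤ 1 then
    IsLocalRing.residue (wgtO p T) ⟨⟨z, h.1⟩, (wgt_mem_O p T ⟨z, h.1⟩).2 h.2⟩
  else 0

variable {p T}

theorem wgtRes_eq {z : PadicAlgCl p} (hz : z ∈ T) (hz1 : ‖z‖ ≤ 1) :
    wgtRes p T z = IsLocalRing.residue (wgtO p T) ⟨⟨z, hz⟩, (wgt_mem_O p T ⟨z, hz⟩).2 hz1⟩ := by
  unfold wgtRes
  rw [dif_pos ⟨hz, hz1⟩]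

theorem wgtRes_coe (a : wgtO p T) :
    wgtRes p T (((a : T) : PadicAlgCl p)) = IsLocalRing.residue (wgtO p T) a := by
  rw [wgtRes_eq (a : T).2 ((wgt_mem_O p T a).1 a.2)]

theorem wgtRes_surj (a : wgtF p T) : ∃ z : PadicAlgCl p, z ∈ T ∧ ‖z‖ ≤ 1 ∧ wgtRes p T z = a := by
  obtain ⟨x, rfl⟩ := IsLocalRing.residue_surjective a
  exact ⟨((x : T) : PadicAlgCl p), (x : T).2, (wgt_mem_O p T x).1 x.2, wgtRes_coe x⟩

theorem wgtRes_add {x y : PadicAlgCl p} (hx : x ∈ T) (hx1 : ‖x‖ ≤ 1) (hy : y ∈ T)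
    (hy1 : ‖y‖ ≤ 1) : wgtRes p T (x + y) = wgtRes p T x + wgtRes p T y := by
  have hxy1 : ‖x + y‖ ≤ 1 := (wgr_norm_add_le p x y).trans (max_le hx1 hy1)
  rw [wgtRes_eq hx hx1, wgtRes_eq hy hy1, wgtRes_eq (add_mem hx hy) hxy1, ← map_add]
  rfl

theorem wgtRes_mul {x y : PadicAlgCl p} (hx : x ∈ T) (hx1 : ‖x‖ ≤ 1) (hy : y ∈ T)
    (hy1 : ‖y‖ ≤ 1) : wgtRes p T (x * y) = wgtRes p T x * wgtRes p T y := by
  have hxy1 : ‖x * y‖ ≤ 1 := by
    rw [norm_mul]
    exact mul_le_one₀ hx1 (norm_nonneg _) hy1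
  rw [wgtRes_eq hx hx1, wgtRes_eq hy hy1, wgtRes_eq (mul_mem hx hy) hxy1, ← map_mul]
  rfl

theorem wgtRes_one : wgtRes p T 1 = 1 := by
  rw [wgtRes_eq (one_mem T) (by rw [norm_one]), ← map_one (IsLocalRing.residue (wgtO p T))]
  rfl

theorem wgtRes_zero : wgtRes p T 0 = 0 := by
  rw [wgtRes_eq (zero_mem T) (by rw [norm_zero]; exact zero_le_one),
    ← map_zero (IsLocalRing.residue (wgtO p T))]
  rfl

theorem wgtRes_pow {x : PadicAlgCl p} (hx : x ∈ T) (hx1 : ‖x‖ ≤ 1) (n : ℕ) :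
    wgtRes p T (x ^ n) = wgtRes p T x ^ n := by
  induction n with
  | zero => rw [pow_zero, pow_zero, wgtRes_one]
  | succ n ih =>
    have h1 : ‖x ^ n‖ ≤ 1 := by
      rw [norm_pow]
      exact pow_le_one₀ (norm_nonneg _) hx1
    rw [pow_succ, pow_succ, wgtRes_mul (pow_mem hx n) h1 hx hx1, ih]

theorem wgtRes_eq_zero_iff {x : PadicAlgCl p} (hx : x ∈ T) (hx1 : ‖x‖ ≤ 1) :
    wgtRes p T x = 0 ↔ ‖x‖ < 1 := by
  rw [wgtRes_eq hx hx1, IsLocalRing.residue_eq_zero_iff, wgt_mem_max]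

theorem wgtRes_neg {x : PadicAlgCl p} (hx : x ∈ T) (hx1 : ‖x‖ ≤ 1) :
    wgtRes p T (-x) = - wgtRes p T x := by
  have h1 : ‖-x‖ ≤ 1 := by rwa [norm_neg]
  have h2 := wgtRes_add hx hx1 (neg_mem hx) h1
  rw [add_neg_cancel, wgtRes_zero] at h2
  exact (neg_eq_of_add_eq_zero_right h2.symm).symm

theorem wgtRes_eq_iff {x y : PadicAlgCl p} (hx : x ∈ T) (hx1 : ‖x‖ ≤ 1) (hy : y ∈ T)
    (hy1 : ‖y‖ ≤ 1) : wgtRes p T x = wgtRes p T y ↔ ‖x - y‖ < 1 := by
  have hxy1 : ‖x - y‖ ≤ 1 := (wgr_norm_sub_le p x y).trans (max_le hx1 hy1)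
  rw [← wgtRes_eq_zero_iff (sub_mem hx hy) hxy1, sub_eq_add_neg,
    wgtRes_add hx hx1 (neg_mem hy) (by rwa [norm_neg]), wgtRes_neg hy hy1, ← sub_eq_add_neg,
    sub_eq_zero]

theorem wgt_norm_p_lt_one : ‖(p : PadicAlgCl p)‖ < 1 := by
  have h : (p : PadicAlgCl p) = algebraMap ℚ_[p] (PadicAlgCl p) (p : ℚ_[p]) := by
    rw [map_natCast]
  rw [h, norm_algebraMap', Padic.norm_p]
  have hp1 : (1 : ℝ) < p := by exact_mod_cast (Fact.out : p.Prime).one_lt
  exact inv_lt_one_of_one_lt₀ hp1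

theorem wgt_norm_natCast_le (n : ℕ) : ‖(n : PadicAlgCl p)‖ ≤ 1 := by
  have h : (n : PadicAlgCl p) = algebraMap ℚ_[p] (PadicAlgCl p) (n : ℚ_[p]) := by
    rw [map_natCast]
  rw [h, norm_algebraMap']
  have := Padic.norm_int_le_one (p := p) (n : ℤ)
  simpa using this

theorem wgtRes_natCast (n : ℕ) : wgtRes p T (n : PadicAlgCl p) = (n : wgtF p T) := by
  induction n with
  | zero => rw [Nat.cast_zero, Nat.cast_zero, wgtRes_zero]
  | succ n ih =>
    rw [Nat.cast_succ, Nat.cast_succ,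
      wgtRes_add (natCast_mem T n) (wgt_norm_natCast_le n) (one_mem T) (by rw [norm_one]), ih,
      wgtRes_one]

variable (p T) in
/-- the residue field has characteristic `p` -/
theorem wgt_charP : CharP (wgtF p T) p := by
  rw [CharP.charP_iff_prime_eq_zero (Fact.out : p.Prime)]
  rw [← wgtRes_natCast (T := T), wgtRes_eq_zero_iff (natCast_mem T p) (wgt_norm_natCast_le p)]
  exact wgt_norm_p_lt_one

variable (p T) in
/-- the residue field is finite -/
theorem wgt_finite : Finite (wgtF p T) := UE.finite_residueField p stmtWAdd stmtWFinite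

end Res

section Act

variable (p : ℕ) [Fact p.Prime] (T : IntermediateField ℚ_[p] (PadicAlgCl p))
  [FiniteDimensional ℚ_[p] T] [Normal ℚ_[p] T]

theorem wgt_mem_decomp (γ₀ : T ≃ₐ[ℚ_[p]] T) :
    γ₀ ∈ (wgtO p T).decompositionSubgroup ℚ_[p] := by
  rw [MulAction.mem_stabilizer_iff]
  apply SetLike.ext
  intro x
  rw [ValuationSubring.mem_pointwise_smul_iff_inv_smul_mem, AlgEquiv.smul_def]
  show IsInt p (γ₀⁻¹ x) ↔ IsInt p x
  unfold IsInt
  rw [wv_algEquiv, map_eq_zero_iff _ (γ₀⁻¹).injective]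

/-- the action of `G_p` on the residue field of `T` -/
def wgtAct : GQq p →* RingAut (wgtF p T) :=
  (MulSemiringAction.toRingAut ((wgtO p T).decompositionSubgroup ℚ_[p]) (wgtF p T)).comp
    ((AlgEquiv.restrictNormalHom T).codRestrict _ (fun _ => wgt_mem_decomp p T _))

variable {p T}

theorem wgt_restrict_coe (γ : GQq p) (x : T) :
    ((AlgEquiv.restrictNormalHom T γ x : T) : PadicAlgCl p) = γ (x : PadicAlgCl p) :=
  AlgEquiv.restrictNormal_commutes γ T x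

theorem wgt_map_mem (γ : GQq p) {x : PadicAlgCl p} (hx : x ∈ T) : γ x ∈ T := by
  rw [← wgt_restrict_coe γ ⟨x, hx⟩]
  exact (AlgEquiv.restrictNormalHom T γ ⟨x, hx⟩).2

/-- the residue map is equivariant -/
theorem wgtRes_map (γ : GQq p) {z : PadicAlgCl p} (hz : z ∈ T) (hz1 : ‖z‖ ≤ 1) :
    wgtRes p T (γ z) = wgtAct p T γ (wgtRes p T z) := by
  have hγz1 : ‖γ z‖ ≤ 1 := by rwa [wgr_norm_map]
  rw [wgtRes_eq (wgt_map_mem γ hz) hγz1, wgtRes_eq hz hz1]
  show _ = (⟨AlgEquiv.restrictNormalHom T γ, wgt_mem_decomp p T _⟩ :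
    (wgtO p T).decompositionSubgroup ℚ_[p]) • (IsLocalRing.residue (wgtO p T) _)
  rw [← IsLocalRing.ResidueField.residue_smul]
  congr 1
  apply Subtype.ext
  apply Subtype.ext
  show γ z = _
  exact (wgt_restrict_coe γ ⟨z, hz⟩).symm

/-- inertia acts trivially on the residue field -/
theorem wgtAct_inert {σ : GQq p} (hσ : σ ∈ inertiaQ p) : wgtAct p T σ = 1 := by
  ext a
  obtain ⟨z, hz, hz1, rfl⟩ := wgtRes_surj a
  rw [← wgtRes_map σ hz hz1]
  show wgtRes p T (σ z) = wgtRes p T z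
  rw [wgtRes_eq_iff (wgt_map_mem σ hz) (by rwa [wgr_norm_map]) hz hz1]
  exact (wgr_inert_iff p σ).1 hσ z hz1

/-- Frobenius elements act by `a ↦ a ^ p` -/
theorem wgtAct_frob {φ : GQq p} (hφ : IsFrobQ p φ) (a : wgtF p T) : wgtAct p T φ a = a ^ p := by
  obtain ⟨z, hz, hz1, rfl⟩ := wgtRes_surj a
  rw [← wgtRes_map φ hz hz1, ← wgtRes_pow hz hz1,
    wgtRes_eq_iff (wgt_map_mem φ hz) (by rwa [wgr_norm_map]) (pow_mem hz p)
      (by rw [norm_pow]; exact pow_le_one₀ (norm_nonneg _) hz1)]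
  exact wgr_frob_dict p hφ z hz1

end Act

section Tame

variable (p : ℕ) [Fact p.Prime] (T : IntermediateField ℚ_[p] (PadicAlgCl p))
  [FiniteDimensional ℚ_[p] T] [Normal ℚ_[p] T]

/-- `u γ = γ π / π mod 𝔪` -/
def wgtU (π : PadicAlgCl p) (γ : GQq p) : wgtF p T := wgtRes p T (γ π / π)

/-- `r t x = x / π ^ t mod 𝔪` -/
def wgtR (π : PadicAlgCl p) (t : ℕ) (x : PadicAlgCl p) : wgtF p T := wgtRes p T (x / π ^ t)

variable {p T} {π : PadicAlgCl p} (hπ : wgrIsUnif p T π)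

include hπ

theorem wgt_div_mem {t : ℕ} {x : PadicAlgCl p} (hx : x ∈ gbBall p T (π ^ t)) :
    x / π ^ t ∈ T ∧ ‖x / π ^ t‖ ≤ 1 := by
  obtain ⟨hxT, hxn⟩ := hx
  refine ⟨div_mem hxT (pow_mem hπ.1 t), ?_⟩
  rw [norm_div]
  exact div_le_one_of_le₀ hxn (norm_nonneg _)

theorem wgt_u_mem (γ : GQq p) : γ π / π ∈ T ∧ ‖γ π / π‖ ≤ 1 := by
  refine ⟨div_mem (wgt_map_mem γ hπ.1) hπ.1, ?_⟩
  rw [norm_div, wgr_norm_map, div_self (norm_ne_zero_iff.2 hπ.2.1)]

theorem wgt_anti (t : ℕ) : gbBall p T (π ^ (t + 1)) ≤ gbBall p T (π ^ t) := by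
  rintro x ⟨hxT, hxn⟩
  refine ⟨hxT, hxn.trans ?_⟩
  rw [norm_pow, norm_pow, pow_succ]
  exact mul_le_of_le_one_right (pow_nonneg (norm_nonneg _) _) hπ.2.2.1.le

theorem wgt_stable (γ : GQq p) (t : ℕ) {x : PadicAlgCl p} (hx : x ∈ gbBall p T (π ^ t)) :
    γ • x ∈ gbBall p T (π ^ t) := by
  obtain ⟨hxT, hxn⟩ := hx
  refine ⟨wgt_map_mem γ hxT, ?_⟩
  rw [AlgEquiv.smul_def, wgr_norm_map]
  exact hxn

theorem wgt_r_add (t : ℕ) {x y : PadicAlgCl p} (hx : x ∈ gbBall p T (π ^ t))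
    (hy : y ∈ gbBall p T (π ^ t)) :
    wgtR p T π t (x + y) = wgtR p T π t x + wgtR p T π t y := by
  obtain ⟨h1, h2⟩ := wgt_div_mem hπ hx
  obtain ⟨h3, h4⟩ := wgt_div_mem hπ hy
  unfold wgtR
  rw [add_div, wgtRes_add h1 h2 h3 h4]

theorem wgt_r_ker (t : ℕ) {x : PadicAlgCl p} (hx : x ∈ gbBall p T (π ^ t)) :
    wgtR p T π t x = 0 ↔ x ∈ gbBall p T (π ^ (t + 1)) := by
  obtain ⟨h1, h2⟩ := wgt_div_mem hπ hx
  have hπ0 : 0 < ‖π‖ := norm_pos_iff.2 hπ.2.1
  have hπt : 0 < ‖π‖ ^ t := pow_pos hπ0 t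
  unfold wgtR
  rw [wgtRes_eq_zero_iff h1 h2, mem_gbBall]
  have hx' : ‖x‖ = ‖x / π ^ t‖ * ‖π‖ ^ t := by
    rw [norm_div, norm_pow, div_mul_cancel₀ _ hπt.ne']
  constructor
  · intro h
    refine ⟨hx.1, ?_⟩
    have h5 := hπ.2.2.2 _ h1 h
    rw [hx', norm_pow, pow_succ, mul_comm (‖π‖ ^ t)]
    exact mul_le_mul_of_nonneg_right h5 hπt.le
  · rintro ⟨-, h⟩
    rw [norm_pow, pow_succ, hx', mul_comm (‖π‖ ^ t)] at h
    have h5 : ‖x / π ^ t‖ ≤ ‖π‖ := le_of_mul_le_mul_right h hπt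
    exact lt_of_le_of_lt h5 hπ.2.2.1

theorem wgt_r_surj (t : ℕ) (a : wgtF p T) : ∃ x ∈ gbBall p T (π ^ t), wgtR p T π t x = a := by
  obtain ⟨z, hz, hz1, rfl⟩ := wgtRes_surj a
  have hπt : π ^ t ≠ 0 := pow_ne_zero _ hπ.2.1
  refine ⟨z * π ^ t, ⟨mul_mem hz (pow_mem hπ.1 t), ?_⟩, ?_⟩
  · rw [norm_mul]
    exact mul_le_of_le_one_left (norm_nonneg _) hz1
  · unfold wgtR
    rw [mul_div_assoc, div_self hπt, mul_one]

theorem wgt_r_smul (γ : GQq p) (t : ℕ) {x : PadicAlgCl p} (hx : x ∈ gbBall p T (π ^ t)) :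
    wgtR p T π t (γ • x) = wgtU p T π γ ^ t * wgtAct p T γ (wgtR p T π t x) := by
  obtain ⟨h1, h2⟩ := wgt_div_mem hπ hx
  obtain ⟨h3, h4⟩ := wgt_u_mem hπ γ
  have hπ0 : π ≠ 0 := hπ.2.1
  have hγπ : γ π ≠ 0 := by rwa [Ne, map_eq_zero_iff _ γ.injective]
  unfold wgtR wgtU
  rw [← wgtRes_map γ h1 h2, ← wgtRes_pow h3 h4,
    ← wgtRes_mul (pow_mem h3 t) (by rw [norm_pow]; exact pow_le_one₀ (norm_nonneg _) h4)
      (wgt_map_mem γ h1) (by rwa [wgr_norm_map])]
  congr 1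
  rw [AlgEquiv.smul_def, map_div₀, map_pow, div_pow]
  field_simp

end Tame

section Final

variable (p : ℕ) [Fact p.Prime]

/-- the lemma (ω-θ): `(σ π / π) ^ e' ≡ ω(σ) mod 𝔪` on inertia -/
def StmtOmegaTheta : Prop :=
  ∀ {ζ π : PadicAlgCl p}, ζ ≠ 1 → ζ ^ p = 1 → π ≠ 0 → ∀ {e' : ℕ}, ‖π‖ ^ e' = ‖ζ - 1‖ →
    ∀ {σ : GQq p}, σ ∈ inertiaQ p →
    ‖(σ π / π) ^ e' - ((((gbOmega p σ : (ZMod p)ˣ) : ZMod p).val : ℕ) : PadicAlgCl p)‖ < 1

variable {p}

theorem wgt_algebraMap {F : Type} [Field F] [Algebra (ZMod p) F] (c : ZMod p) :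
    algebraMap (ZMod p) F c = ((c.val : ℕ) : F) := by
  haveI : NeZero p := ⟨(Fact.out : p.Prime).ne_zero⟩
  conv_lhs => rw [← ZMod.natCast_zmod_val c]
  rw [map_natCast]

/-- **K4** for one good field, from (ω-θ). -/
theorem wgt_tame_of (hω : StmtOmegaTheta p) (T : IntermediateField ℚ_[p] (PadicAlgCl p))
    (hT : IsGoodField p T) {ζ : PadicAlgCl p} (hζT : ζ ∈ T) (hζ1 : ζ ≠ 1) (hζp : ζ ^ p = 1) :
    ∃ (F : Type) (_ : Field F) (_ : Algebra (ZMod p) F) (actF : GQq p →* RingAut F)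
      (u : GQq p → F) (e' : ℕ) (π : PadicAlgCl p) (r : ℕ → PadicAlgCl p → F),
      GBAbsTame p T.fixingSubgroup (inertiaQ p) (gbOmega p) F actF u e'
        (fun t => gbBall p T (π ^ t)) r ∧
      ‖π‖ ^ e' = ‖ζ - 1‖ ∧
      (∀ t : ℕ, 0 < t → t < (p - 1) * e' → ∃ σ ∈ inertiaQ p, u σ ^ t ≠ 1) ∧
      (∀ φ : GQq p, IsFrobQ p φ → ∀ a : F, actF φ a = a ^ p) := by
  haveI := hT.finite
  haveI := hT.galois
  haveI : Normal ℚ_[p] T := hT.galois.to_normal
  have hp : p.Prime := Fact.out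
  obtain ⟨π, hπ⟩ := wgr_exists_unif p T
  have hπ0 : π ≠ 0 := hπ.2.1
  have hπpos : 0 < ‖π‖ := norm_pos_iff.2 hπ0
  obtain ⟨hlp, hl0, hl1⟩ := wgr_norm_zeta_sub_one p T hζT hζ1 hζp
  have hlT : ζ - 1 ∈ T := sub_mem hζT (one_mem T)
  have hlne : ζ - 1 ≠ 0 := sub_ne_zero.2 hζ1
  -- `e'`
  obtain ⟨k, hk⟩ := wgr_unif_norm hπ hlT hlne
  have hkpos : 0 < k := by
    by_contra hcon
    have hk0 : k ≤ 0 := not_lt.1 hcon
    have h1 : (1 : ℝ) ≤ ‖π‖ ^ k := by
      have h2 : ‖π‖ ^ k = (‖π‖ ^ (-k).toNat)⁻¹ := by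
        rw [← zpow_natCast, Int.toNat_of_nonneg (by omega), zpow_neg, inv_inv]
      rw [h2]
      exact (one_le_inv₀ (pow_pos hπpos _)).2 (pow_le_one₀ hπpos.le hπ.2.2.1.le)
    rw [← hk] at h1
    exact absurd hl1 (not_lt.2 h1)
  set e' : ℕ := k.toNat with he'
  have hke : ‖π‖ ^ e' = ‖ζ - 1‖ := by
    rw [hk, ← zpow_natCast, he', Int.toNat_of_nonneg hkpos.le]
  have hee : ‖π‖ ^ ((p - 1) * e') = ‖(p : PadicAlgCl p)‖ := by
    rw [mul_comm, pow_mul, hke, hlp]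
  letI : CharP (wgtF p T) p := wgt_charP p T
  letI : Algebra (ZMod p) (wgtF p T) := ZMod.algebra (wgtF p T) p
  refine ⟨wgtF p T, inferInstance, inferInstance, wgtAct p T, wgtU p T π, e', π, wgtR p T π,
    ?_, hke, ?_, fun φ hφ a => wgtAct_frob hφ a⟩
  · refine
      { finite := wgt_finite p T
        anti := fun t => wgt_anti hπ t
        stable := fun γ t x hx => wgt_stable hπ γ t hx
        fixN := ?_
        p_smul := ?_
        r_add := fun t _ x hx y hy => wgt_r_add hπ t hx hy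
        r_ker := fun t _ x hx => wgt_r_ker hπ t hx
        r_surj := fun t _ a => wgt_r_surj hπ t a
        r_smul := fun γ t _ x hx => wgt_r_smul hπ γ t hx
        act_inert := fun σ hσ => wgtAct_inert hσ
        act_fix := ?_
        omega := ?_
        omegaN := ?_ }
    · -- fixN
      intro γ hγ x hx
      rw [AlgEquiv.smul_def]
      exact (IntermediateField.mem_fixingSubgroup_iff _ _).1 hγ x hx.1
    · -- p_smul
      intro x hx
      obtain ⟨hxT, hxn⟩ := hx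
      rw [pow_zero, norm_one] at hxn
      refine ⟨nsmul_mem hxT p, ?_⟩
      rw [nsmul_eq_mul, norm_mul, norm_pow, hke, ← hlp]
      have h1 : ‖ζ - 1‖ ^ (p - 1) ≤ ‖ζ - 1‖ := by
        have h2 : p - 1 ≠ 0 := by have := hp.two_le; omega
        exact pow_le_of_le_one hl0.le hl1.le h2
      calc ‖ζ - 1‖ ^ (p - 1) * ‖x‖ ≤ ‖ζ - 1‖ ^ (p - 1) * 1 :=
            mul_le_mul_of_nonneg_left hxn (pow_nonneg hl0.le _)
        _ ≤ ‖ζ - 1‖ := by rw [mul_one]; exact h1
    · -- act_fix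
      intro a ha
      obtain ⟨φ, hφ⟩ := stmtFrobExists p
      have h1 := wgtAct_frob (T := T) hφ a
      rw [ha φ] at h1
      exact wk3_frob_fixed p a h1.symm
    · -- omega
      intro σ hσ
      rw [wgt_algebraMap, ← wgtRes_natCast (T := T)]
      obtain ⟨h3, h4⟩ := wgt_u_mem hπ σ
      unfold wgtU
      rw [← wgtRes_pow h3 h4, eq_comm,
        wgtRes_eq_iff (pow_mem h3 e') (by rw [norm_pow]; exact pow_le_one₀ (norm_nonneg _) h4)
          (natCast_mem T _) (wgt_norm_natCast_le _)]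
      exact hω hζ1 hζp hπ0 hke hσ
    · -- omegaN
      intro γ hγ
      have h1 := twk_omega_spec (p := p) hζp γ
      have h2 : γ ζ = ζ := (IntermediateField.mem_fixingSubgroup_iff _ _).1 hγ ζ hζT
      rw [h2] at h1
      have h3 : ζ ^ (1 : ZMod p).val = ζ ^ ((gbOmega p γ : (ZMod p)ˣ) : ZMod p).val := by
        haveI : Fact (1 < p) := ⟨hp.one_lt⟩
        rw [ZMod.val_one, pow_one]
        exact h1
      have h4 := wgr_zeta_pow_val_inj hζ1 hζp _ _ h3
      exact Units.ext h4.symm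
  · -- (θ3)
    intro t ht0 htlt
    by_contra hcon
    simp only [not_exists, not_and, not_not] at hcon
    have h1 : (p - 1) * e' ∣ t := by
      apply wgr_theta3 p T hT.tame hπ hee t
      intro σ hσ
      obtain ⟨h3, h4⟩ := wgt_u_mem hπ σ
      have h5 := hcon σ hσ
      unfold wgtU at h5
      rw [← wgtRes_pow h3 h4, ← wgtRes_one (p := p) (T := T),
        wgtRes_eq_iff (pow_mem h3 t) (by rw [norm_pow]; exact pow_le_one₀ (norm_nonneg _) h4)
          (one_mem T) (by rw [norm_one])] at h5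
      have h6 : σ (π ^ t) - π ^ t = π ^ t * ((σ π / π) ^ t - 1) := by
        rw [map_pow, div_pow]
        field_simp
      rw [h6, norm_mul, norm_pow]
      calc ‖π‖ ^ t * ‖(σ π / π) ^ t - 1‖ < ‖π‖ ^ t * 1 :=
            mul_lt_mul_of_pos_left h5 (pow_pos hπpos t)
        _ = ‖π‖ ^ t := mul_one _
    exact absurd (Nat.le_of_dvd ht0 h1) (not_le.2 htlt)

end Final

/-- **K4** = `StmtGBTame`, from the lemma (ω-θ) (`wgr_omega_theta`, `TW/W/GrOmega.lean`). -/
theorem stmtGBTame_of (hω : ∀ (p : ℕ) [Fact p.Prime], StmtOmegaTheta p) : StmtGBTame := by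
  intro p _ _ T hT ζ hζT hζ1 hζp
  exact wgt_tame_of (hω p) T hT hζT hζ1 hζp

end Fermat.Agent.TW.W

end


end ZBTW_010_5

/-! ### bundled: `Fermat.Agent.TW.W.GBTameFinal` -/
section ZBTW_010_6
/-
TW-W, block (GB), piece K4 (helper65): `stmtGBTame : StmtGBTame`
(`stmtGBTame_of` of `GBTame.lean` + the lemma (ω-θ) `wgr_omega_theta` of helper57, `GrOmega.lean`).
-/

set_option autoImplicit false

namespace Fermat.Agent.TW.W

/-- **K4**: θ-theory for a good field. -/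
theorem stmtGBTame : StmtGBTame :=
  stmtGBTame_of (fun p _ => fun hζ1 hζp hπ _ he' _ hσ => wgr_omega_theta p hζ1 hζp hπ he' hσ)

end Fermat.Agent.TW.W


end ZBTW_010_6
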