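/- GENERATED FILE (helper35, build-time optimisation, NOTES/ZB.md): verbatim concatenation of the modules
   Fermat.Agent.RT.K1.TameGenPlan
   Fermat.Agent.RT.Prod.AsmPlan
   Fermat.Agent.RT.K1.TameGenRep
   Fermat.Agent.RT.Prod.AsmFr
   Fermat.Agent.RT.Prod.Asm
   Fermat.Agent.RT.Prod.Unram
   Fermat.Agent.RT.K1.TameGen
   Fermat.Agent.RT.K1.TameGenLoc
   Fermat.Agent.RT.K1.TameGenFinal
   Fermat.Agent.RT.Prod.HypFrey
   Do not edit; do not import together with these modules. -/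
import Fermat.Agent.ZB.TW_001
import Fermat.Agent.ZB.RT_004
import Fermat.Agent.ZB.RT_003
import Fermat.Agent.ZB.TW_007
import Fermat.Agent.ZB.RT_006
import Fermat.Agent.ZB.PT_003
import Fermat.Agent.ZB.S05_001
import Fermat.Agent.ZB.TW_009
import Fermat.Agent.ZB.TW_006
import Fermat.Agent.ZB.TW_004
import Fermat.Agent.ZB.TW_011
import Fermat.Agent.ZB.TW_010
import Mathlib
import Fermat.Agent.ZB.EC_008
import Fermat.Agent.ZB.S13_009
import Fermat.Agent.ZB.RIB_001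
import Fermat.Agent.ZB.S05_006
import Fermat.Agent.ZB.S04_001

/-! ### bundled: `Fermat.Agent.RT.K1.TameGenPlan` -/
section ZBRT_005_0
/-
K-machine, piece LOC-gen (helper65): INTERFACE.

For a prime `r ≠ p` there are `σ_r` in the inertia group and a Frobenius element `φ_r` in the
decomposition group of `padicPlace r` (a fixed place of `ℚ̄` over `r`) such that for EVERY
homomorphism `h` from `G_ℚ` to a monoid, trivial on some `Gal(ℚ̄/L)` (`L/ℚ` finite) and mapping the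
inertia group at `padicPlace r` to elements of `p`-power order:

* `h(I_r)` consists of powers of `h σ_r`;
* `h(D_r)` is contained in the submonoid generated by `h σ_r` and `h φ_r`
  (in the group version: the subgroup generated by them);
* `h φ_r * h σ_r = h σ_r ^ r * h φ_r`.

`σ_r`, `φ_r` do NOT depend on `h` (compactness of the inertia group + `TW.W.stmtTameGen`).

Use for `ρ : GaloisRepAdic A`, `A` a finite local ring of residue characteristic `p`, whose
residual representation is trivial on `I_r`: `h := ρ.ρ`, `L` from `ρ.isAdicContinuous n` with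
`𝔪 ^ n = 0`, and `ρ(τ) ≡ 1 mod 𝔪` gives `ρ(τ) ^ p ^ k = 1`.
-/

set_option autoImplicit false

namespace Fermat.Agent.RT.K1

open Fermat.Agent.PT Fermat.Agent.PT.B Fermat.Agent.TW.L ExtCitation

/-- **LOC-gen, local core** (helper57): uniform generators of the images of `I_r` and `G_{ℚ_r}`
in every finite-level quotient in which the image of inertia is a `p`-group. -/
def StmtLocGenLocal : Prop :=
  ∀ (r p : ℕ) [Fact r.Prime] [Fact p.Prime], r ≠ p →
    ∃ σ ∈ inertiaQ r, ∃ φ : GQq r, IsFrobQ r φ ∧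
      ∀ (B : Type) [Group B] (h : GQq r →* B), (∃ V ∈ (towerLoc r).lev, ∀ v ∈ V, h v = 1) →
        (∀ x ∈ inertiaQ r, ∃ k : ℕ, h x ^ (p ^ k) = 1) →
        (∀ x ∈ inertiaQ r, ∃ m : ℕ, h x = h σ ^ m) ∧
        (∀ x : GQq r, ∃ j m : ℕ, h x = h φ ^ j * h σ ^ m) ∧
        h φ * h σ * (h φ)⁻¹ = h σ ^ r

/-- the hypotheses on `h` in LOC-gen: smooth, and of `p`-power order on the inertia group at
`padicPlace r`. -/
def IsTameP (r p : ℕ) [Fact r.Prime] {M : Type} [Monoid M]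
    (h : (AlgebraicClosure ℚ ≃ₐ[ℚ] AlgebraicClosure ℚ) →* M) : Prop :=
  (∃ L : IntermediateField ℚ (AlgebraicClosure ℚ), FiniteDimensional ℚ L ∧
    ∀ g : AlgebraicClosure ℚ ≃ₐ[ℚ] AlgebraicClosure ℚ, (∀ x ∈ L, g x = x) → h g = 1) ∧
  ∀ τ ∈ (padicPlace r).inertiaSubgroupIn ℚ, ∃ k : ℕ, h τ ^ p ^ k = 1

/-- **LOC-gen**, monoid form (targets `Module.End A V`). -/
def StmtLocGen : Prop :=
  ∀ (r p : ℕ) [Fact r.Prime] [Fact p.Prime], r ≠ p →
    ∃ σ ∈ (padicPlace r).inertiaSubgroupIn ℚ,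
    ∃ φ : AlgebraicClosure ℚ ≃ₐ[ℚ] AlgebraicClosure ℚ, (padicPlace r).IsFrobeniusAt φ r ∧
      ∀ (M : Type) [Monoid M] (h : (AlgebraicClosure ℚ ≃ₐ[ℚ] AlgebraicClosure ℚ) →* M),
        IsTameP r p h →
        (∀ τ ∈ (padicPlace r).inertiaSubgroupIn ℚ, ∃ m : ℕ, h τ = h σ ^ m) ∧
        (∀ τ ∈ (padicPlace r).decompositionSubgroup ℚ,
          ∃ m n : ℕ, h τ = h σ ^ m * h φ ^ n) ∧
        h φ * h σ = h σ ^ r * h φ

end Fermat.Agent.RT.K1


end ZBRT_005_0

/-! ### bundled: `Fermat.Agent.RT.Prod.AsmPlan` -/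
section ZBRT_005_1

/-!
# K-machine, PROD-asm (helper70): the GALOIS-SIDE CONTRACT at level `n`

`TWGal` is what the Hecke side (K5 + K6 + K7 + FLAT, for the Taylor–Wiles set `Q = Q_n`) has to
deliver at level `n`, in matrix form and BEFORE any choice of generators:

* a finite local `O`-algebra `A` with residue field `k` (`S53.IsResAlg`), a representation
  `ρ : GaloisRepAdic A` of type `twFlat O p Smin (Q ∪ T)` lifting `ρ̄`, a basis `b` of `ρ.V`;
* framings `β_r ∈ 1 + M₂(𝔪_A)` (`r ∈ T`), such that `A` is generated over `O` by the traces of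
  `ρ` and the entries of the `β_r`;
* the two actions `π1`, `πχ : A →ₐ[O] M_d(S ⧸ 𝔪 ^ n)` (the specialisations `Δ_T → 1`,
  `Δ_T → ζ`), congruent modulo `λ`, with the scalars `c ∈ E ⊆ S ⧸ 𝔪 ^ n` in their images
  (`E = rttwEvenQ O m h n`, the even part, in the symmetric design `RT/PlanTWE.lean`);
* the traces of the fixed inertia generators `σ_i` (`LOC-gen`): `π1 (tr ρ(σ_i)) = 2`,
  `πχ (tr ρ(σ_i)) = 2 tχ_i`;
* the base: modulo `𝔞` the action `π1` is through `T0`, and the framed local matrices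
  `β⁻¹ ρ(σ_i) β`, `β⁻¹ ρ(φ_i) β` reduce to `Σ⁰_i`, `Φ⁰_i`.

`RT/Prod/Asm.lean` : `rtpa_pre : TWGal + LOC-gen + K3-Alg ⇒ ∃ x, Prod.TWPreE`, and
`rtprod_datumE : TWPreE → TWDatumE`.
-/

set_option autoImplicit false

namespace Fermat.Agent.RT.Prod

open IsLocalRing Fermat.Agent.TW Fermat.Agent.RT Fermat.Agent.RT.K1 ExtCitation

/-- The Galois group of `ℚ`. -/
abbrev RtpaG : Type := AlgebraicClosure ℚ ≃ₐ[ℚ] AlgebraicClosure ℚ

/-- **LOC-gen at `r`** for a fixed pair `(σ, φ)`: the conclusion of `K1.StmtLocGen`. -/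
structure IsLocGenAt (p r : ℕ) [Fact r.Prime] (σ φ : RtpaG) : Prop where
  inertia : σ ∈ (padicPlace r).inertiaSubgroupIn ℚ
  frob : (padicPlace r).IsFrobeniusAt φ r
  univ : ∀ (M : Type) [Monoid M] (h : RtpaG →* M), IsTameP r p h →
    (∀ τ ∈ (padicPlace r).inertiaSubgroupIn ℚ, ∃ m : ℕ, h τ = h σ ^ m) ∧
    (∀ τ ∈ (padicPlace r).decompositionSubgroup ℚ, ∃ m n : ℕ, h τ = h σ ^ m * h φ ^ n) ∧
    h φ * h σ = h σ ^ r * h φ

theorem exists_isLocGenAt (hloc : StmtLocGen) (p r : ℕ) [Fact r.Prime] [Fact p.Prime]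
    (hrp : r ≠ p) : ∃ σ φ : RtpaG, IsLocGenAt p r σ φ := by
  obtain ⟨σ, hσ, φ, hφ, h⟩ := hloc r p hrp
  exact ⟨σ, φ, ⟨hσ, hφ, h⟩⟩

/-- **Tameness from residual triviality** (helper65's convenience lemma, as a `Prop`):
a representation over a finite local ring of residue characteristic `p` which is trivial modulo
`𝔪` on the inertia group at `padicPlace r` satisfies `IsTameP r p`. -/
def StmtTameOfRes : Prop :=
  ∀ (r p : ℕ) [Fact r.Prime] [Fact p.Prime] (A : Type) [CommRing A] [IsLocalRing A] [Finite A]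
    (ρ : GaloisRepAdic A), (p : A) ∈ maximalIdeal A →
    (∀ τ ∈ (padicPlace r).inertiaSubgroupIn ℚ, ∀ v : ρ.V,
      ρ.ρ τ v - v ∈ maximalIdeal A • (⊤ : Submodule A ρ.V)) →
    IsTameP r p ρ.ρ

section Gal

variable {O : Type} [CommRing O] [IsLocalRing O] {ι : Type}

/-- The framed local matrix `β_r⁻¹ ρ(g) β_r`. -/
noncomputable def rtpaFr {A : Type} [CommRing A] [IsLocalRing A] (ρ : GaloisRepAdic A)
    (b : Module.Basis (Fin 2) A ρ.V) (β βi : ℕ → Matrix (Fin 2) (Fin 2) A) (r : ℕ) (g : RtpaG) :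
    Matrix (Fin 2) (Fin 2) A :=
  βi r * LinearMap.toMatrix b b (ρ.ρ g) * β r

/-- **The Galois-side datum at level `n`** (matrix form).
`r i` = the `i`-th trivial prime, `σ i`, `φ i` = the LOC-gen generators at `padicPlace (r i)`,
`T = Finset.univ.image r`. -/
structure TWGal [Fintype ι] (p : ℕ) (ρbar : ResidualGaloisRep (ResidueField O))
    (Smin Q : Finset ℕ) (r : ι → ℕ) (σ φ : ι → RtpaG) (tχ : ι → O) (lam : O) (m d : ℕ)
    {T0 : Type} [CommRing T0] [Algebra O T0] (j0 : T0 →ₐ[O] Matrix (Fin d) (Fin d) O)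
    (Sig0 Phi0 : ι → Matrix (Fin 2) (Fin 2) T0) (n : ℕ)
    (E : Set (RttwS O m ⧸ maximalIdeal (RttwS O m) ^ n))
    {A : Type} [CommRing A] [IsLocalRing A] [Algebra O A]
    (ιA : ResidueField O →+* ResidueField A)
    (ρ : GaloisRepAdic A) (b : Module.Basis (Fin 2) A ρ.V)
    (β βi : ℕ → Matrix (Fin 2) (Fin 2) A)
    (π1 πχ : A →ₐ[O] Matrix (Fin d) (Fin d) (RttwS O m ⧸ maximalIdeal (RttwS O m) ^ n)) :
    Prop where
  finite : Finite A
  resAlg : Fermat.Agent.S53.IsResAlg O A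
  hιA : ∀ x : O, ιA (residue O x) = residue A (algebraMap O A x)
  flat : twFlat O p Smin (Q ∪ Finset.univ.image r) ρ
  res : ρ.residual.IsEquiv (ρbar.baseChangeAlong ιA)
  framing : ∀ ℓ ∈ Finset.univ.image r,
    β ℓ * βi ℓ = 1 ∧ ∀ a c, (β ℓ - 1) a c ∈ maximalIdeal A
  gen : Algebra.adjoin O ({y | ∃ g, y = LinearMap.trace A ρ.V (ρ.ρ g)} ∪
    {y | ∃ ℓ ∈ Finset.univ.image r, ∃ a c, y = β ℓ a c}) = ⊤
  scal1 : ∀ c ∈ E, ∃ u : A,
    π1 u = algebraMap _ (Matrix (Fin d) (Fin d) (RttwS O m ⧸ maximalIdeal (RttwS O m) ^ n)) c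
  scalχ : ∀ c ∈ E, ∃ u : A,
    πχ u = algebraMap _ (Matrix (Fin d) (Fin d) (RttwS O m ⧸ maximalIdeal (RttwS O m) ^ n)) c
  tr1 : ∀ i, π1 (LinearMap.trace A ρ.V (ρ.ρ (σ i))) = 2
  trχ : ∀ i, πχ (LinearMap.trace A ρ.V (ρ.ρ (σ i))) = algebraMap O _ (2 * tχ i)
  cong : ∀ u : A,
    (π1 u).map (Ideal.Quotient.factor
        (le_sup_right : maximalIdeal (RttwS O m) ^ n ≤
          rttwLam m lam ⊔ maximalIdeal (RttwS O m) ^ n)) =
      (πχ u).map (Ideal.Quotient.factor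
        (le_sup_right : maximalIdeal (RttwS O m) ^ n ≤
          rttwLam m lam ⊔ maximalIdeal (RttwS O m) ^ n))
  base_sig : ∀ i a c,
    (π1 (rtpaFr ρ b β βi (r i) (σ i) a c)).map (Ideal.Quotient.factor
        (le_sup_right : maximalIdeal (RttwS O m) ^ n ≤
          rttwAug O m ⊔ maximalIdeal (RttwS O m) ^ n)) =
      rttwBaseRed m d n (j0 (Sig0 i a c))
  base_phi : ∀ i a c,
    (π1 (rtpaFr ρ b β βi (r i) (φ i) a c)).map (Ideal.Quotient.factor
        (le_sup_right : maximalIdeal (RttwS O m) ^ n ≤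
          rttwAug O m ⊔ maximalIdeal (RttwS O m) ^ n)) =
      rttwBaseRed m d n (j0 (Phi0 i a c))
  base_T0 : ∀ u : A, ∃ t0 : T0,
    (π1 u).map (Ideal.Quotient.factor
        (le_sup_right : maximalIdeal (RttwS O m) ^ n ≤
          rttwAug O m ⊔ maximalIdeal (RttwS O m) ^ n)) =
      rttwBaseRed m d n (j0 t0)

end Gal

end Fermat.Agent.RT.Prod


end ZBRT_005_1

/-! ### bundled: `Fermat.Agent.RT.K1.TameGenRep` -/
section ZBRT_005_2
/-
K-machine, piece LOC-gen (helper65): the hypothesis `IsTameP` for representations.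

* `rtk1w_pow_sub_one`   : `u ≡ 1 mod 𝔪`, `p ∈ 𝔪` ⇒ `u ^ p ^ k ≡ 1 mod 𝔪 ^ (k + 1)` (endomorphisms).
* `rtk1w_isTameP`       : `ρ : GaloisRepAdic A`, `𝔪_A` nilpotent, `p ∈ 𝔪_A`, `ρ(τ) ≡ 1 mod 𝔪_A` for
                          `τ` in the inertia group at `padicPlace r` ⇒ `IsTameP r p ρ.ρ`.
* `rtk1w_isTameP_artinian` : the same for an artinian (e.g. finite) local ring `A`.
-/

set_option autoImplicit false
set_option linter.unusedSectionVars false
set_option linter.style.haveILetI false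

namespace Fermat.Agent.RT.K1

open Fermat.Agent.PT Fermat.Agent.PT.B Fermat.Agent.TW.L ExtCitation

section Endo

variable {A : Type*} [CommRing A] {V : Type*} [AddCommGroup V] [Module A V]

/-- endomorphisms with image in `I V`. -/
def rtk1wJ (I : Ideal A) : Set (Module.End A V) :=
  {f | ∀ v : V, f v ∈ I • (⊤ : Submodule A V)}

theorem rtk1wJ_mono {I I' : Ideal A} (h : I ≤ I') {f : Module.End A V}
    (hf : f ∈ rtk1wJ I) : f ∈ rtk1wJ I' :=
  fun v => Submodule.smul_mono_left h (hf v)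

theorem rtk1wJ_add {I : Ideal A} {f g : Module.End A V} (hf : f ∈ rtk1wJ I)
    (hg : g ∈ rtk1wJ I) : f + g ∈ rtk1wJ I :=
  fun v => add_mem (hf v) (hg v)

theorem rtk1wJ_zero (I : Ideal A) : (0 : Module.End A V) ∈ rtk1wJ I :=
  fun _ => zero_mem _

theorem rtk1wJ_sum {I : Ideal A} {ι : Type*} (s : Finset ι) (f : ι → Module.End A V)
    (hf : ∀ i ∈ s, f i ∈ rtk1wJ I) : ∑ i ∈ s, f i ∈ rtk1wJ I := by
  classical
  induction s using Finset.induction_on with
  | empty => simpa using rtk1wJ_zero I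
  | insert a s ha ih =>
    rw [Finset.sum_insert ha]
    exact rtk1wJ_add (hf a (Finset.mem_insert_self a s))
      (ih (fun i hi => hf i (Finset.mem_insert_of_mem hi)))

/-- `g (I V) ⊆ (I I') V` for `g` with image in `I' V`. -/
theorem rtk1wJ_map_smul {I I' : Ideal A} {g : Module.End A V} (hg : g ∈ rtk1wJ I')
    {x : V} (hx : x ∈ I • (⊤ : Submodule A V)) : g x ∈ (I * I') • (⊤ : Submodule A V) := by
  refine Submodule.smul_induction_on hx (fun a ha m _ => ?_) (fun x y hx hy => ?_)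
  · rw [map_smul, Submodule.mul_smul]
    exact Submodule.smul_mem_smul ha (hg m)
  · rw [map_add]
    exact add_mem hx hy

theorem rtk1wJ_mul {I I' : Ideal A} {f g : Module.End A V} (hf : f ∈ rtk1wJ I)
    (hg : g ∈ rtk1wJ I') : g * f ∈ rtk1wJ (I * I') :=
  fun v => rtk1wJ_map_smul hg (hf v)

/-- left multiplication preserves `J I` -/
theorem rtk1wJ_mul_left {I : Ideal A} (g : Module.End A V) {f : Module.End A V}
    (hf : f ∈ rtk1wJ I) : g * f ∈ rtk1wJ I := by
  have hg : g ∈ rtk1wJ (⊤ : Ideal A) := fun v => by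
    rw [Submodule.top_smul]
    exact Submodule.mem_top
  have := rtk1wJ_mul hf hg
  rwa [Ideal.mul_top] at this

theorem rtk1wJ_pow_sub_one {I : Ideal A} {w : Module.End A V} (hw : w - 1 ∈ rtk1wJ I) (i : ℕ) :
    w ^ i - 1 ∈ rtk1wJ I := by
  induction i with
  | zero =>
    rw [pow_zero, sub_self]
    exact rtk1wJ_zero I
  | succ i ih =>
    have e : w ^ (i + 1) - 1 = w ^ i * (w - 1) + (w ^ i - 1) := by
      rw [pow_succ]
      noncomm_ring
    rw [e]
    exact rtk1wJ_add (rtk1wJ_mul_left _ hw) ih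

/-- `u ≡ 1 mod 𝔪`, `p ∈ 𝔪` ⇒ `u ^ p ^ k ≡ 1 mod 𝔪 ^ (k + 1)`. -/
theorem rtk1w_pow_sub_one {I : Ideal A} {p : ℕ} (hp : (p : A) ∈ I) {u : Module.End A V}
    (hu : u - 1 ∈ rtk1wJ I) (k : ℕ) : u ^ p ^ k - 1 ∈ rtk1wJ (I ^ (k + 1)) := by
  induction k with
  | zero =>
    rw [pow_zero, pow_one, pow_one]
    exact hu
  | succ k ih =>
    set w := u ^ p ^ k with hw
    have hw1 : w - 1 ∈ rtk1wJ I := rtk1wJ_mono (Ideal.pow_le_self (Nat.succ_ne_zero k)) ih
    have hS : (∑ i ∈ Finset.range p, w ^ i) ∈ rtk1wJ I := by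
      have e : (∑ i ∈ Finset.range p, w ^ i) =
          (∑ i ∈ Finset.range p, (w ^ i - 1)) + (p : Module.End A V) := by
        rw [Finset.sum_sub_distrib, Finset.sum_const, Finset.card_range, nsmul_eq_mul, mul_one]
        abel
      rw [e]
      refine rtk1wJ_add (rtk1wJ_sum _ _ (fun i _ => rtk1wJ_pow_sub_one hw1 i)) (fun v => ?_)
      have e2 : (p : Module.End A V) v = (p : A) • v := by
        rw [Module.End.natCast_apply, Nat.cast_smul_eq_nsmul]
      rw [e2]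
      exact Submodule.smul_mem_smul hp Submodule.mem_top
    have e : u ^ p ^ (k + 1) - 1 = (∑ i ∈ Finset.range p, w ^ i) * (w - 1) := by
      rw [geom_sum_mul, hw, ← pow_mul, pow_succ]
    rw [e, pow_succ I (k + 1)]
    exact rtk1wJ_mul ih hS

end Endo

section Rep

variable {A : Type} [CommRing A] [IsLocalRing A]

/-- `IsTameP` for a representation over a local ring with nilpotent maximal ideal containing `p`,
residually trivial on the inertia group at `padicPlace r`. -/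
theorem rtk1w_isTameP (r p : ℕ) [Fact r.Prime] (hpA : (p : A) ∈ IsLocalRing.maximalIdeal A)
    (hnil : ∃ n : ℕ, IsLocalRing.maximalIdeal A ^ n = ⊥) (ρ : GaloisRepAdic A)
    (hres : ∀ τ ∈ (padicPlace r).inertiaSubgroupIn ℚ, ∀ v : ρ.V,
      ρ.ρ τ v - v ∈ IsLocalRing.maximalIdeal A • (⊤ : Submodule A ρ.V)) :
    IsTameP r p ρ.ρ := by
  obtain ⟨n, hn⟩ := hnil
  refine ⟨?_, ?_⟩
  · obtain ⟨L, hL, hLρ⟩ := ρ.isAdicContinuous n
    refine ⟨L, hL, fun g hg => ?_⟩
    apply LinearMap.ext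
    intro v
    have := hLρ g hg v
    rw [hn, Submodule.bot_smul, Submodule.mem_bot, sub_eq_zero] at this
    exact this
  · intro τ hτ
    refine ⟨n, ?_⟩
    have h1 : ρ.ρ τ - 1 ∈ rtk1wJ (IsLocalRing.maximalIdeal A) := fun v => hres τ hτ v
    have h2 := rtk1w_pow_sub_one hpA h1 n
    have h3 : IsLocalRing.maximalIdeal A ^ (n + 1) = ⊥ := by
      rw [pow_succ, hn, Ideal.bot_mul]
    rw [h3] at h2
    apply LinearMap.ext
    intro v
    have h4 := h2 v
    rw [Submodule.bot_smul, Submodule.mem_bot] at h4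
    have h5 : (ρ.ρ τ ^ p ^ n - 1) v = (ρ.ρ τ ^ p ^ n) v - v := rfl
    rw [h5, sub_eq_zero] at h4
    rw [h4]
    rfl

/-- the same for an artinian (e.g. finite) local ring. -/
theorem rtk1w_isTameP_artinian [IsArtinianRing A] (r p : ℕ) [Fact r.Prime]
    (hpA : (p : A) ∈ IsLocalRing.maximalIdeal A) (ρ : GaloisRepAdic A)
    (hres : ∀ τ ∈ (padicPlace r).inertiaSubgroupIn ℚ, ∀ v : ρ.V,
      ρ.ρ τ v - v ∈ IsLocalRing.maximalIdeal A • (⊤ : Submodule A ρ.V)) :
    IsTameP r p ρ.ρ := by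
  refine rtk1w_isTameP r p hpA ?_ ρ hres
  have h := IsArtinianRing.isNilpotent_jacobson_bot (R := A)
  rw [IsLocalRing.jacobson_eq_maximalIdeal (⊥ : Ideal A) bot_ne_top] at h
  obtain ⟨n, hn⟩ := h
  exact ⟨n, hn⟩

end Rep

end Fermat.Agent.RT.K1


end ZBRT_005_2

/-! ### bundled: `Fermat.Agent.RT.Prod.AsmFr` -/
section ZBRT_005_3
/-
K-machine, PROD-asm (helper70): framing and residual lemmas for `rtpa_pre` (RT/Prod/Asm.lean).
-/

set_option autoImplicit false
set_option linter.style.haveILetI false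

namespace Fermat.Agent.RT.Prod

open IsLocalRing Fermat.Agent.TW Fermat.Agent.RT Fermat.Agent.RT.K1 ExtCitation
open scoped TensorProduct

/-! ### Framing: conjugation by `β` -/

section Framing

variable {A : Type*} [CommRing A] {β βi : Matrix (Fin 2) (Fin 2) A}

theorem rtpa_inv_mul (h : β * βi = 1) : βi * β = 1 :=
  (Matrix.mul_eq_one_comm_of_card_eq (Fin 2) (Fin 2) A rfl).mp h

theorem rtpa_fr_mul (h : β * βi = 1) (M N : Matrix (Fin 2) (Fin 2) A) :
    (βi * M * β) * (βi * N * β) = βi * (M * N) * β := by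
  calc (βi * M * β) * (βi * N * β) = βi * M * (β * βi) * N * β := by
        simp only [Matrix.mul_assoc]
    _ = βi * (M * N) * β := by rw [h, Matrix.mul_one]; simp only [Matrix.mul_assoc]

theorem rtpa_fr_one (h : β * βi = 1) : βi * (1 : Matrix (Fin 2) (Fin 2) A) * β = 1 := by
  rw [Matrix.mul_one, rtpa_inv_mul h]

theorem rtpa_fr_pow (h : β * βi = 1) (M : Matrix (Fin 2) (Fin 2) A) (k : ℕ) :
    (βi * M * β) ^ k = βi * M ^ k * β := by
  induction k with
  | zero => rw [pow_zero, pow_zero, rtpa_fr_one h]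
  | succ k ih => rw [pow_succ, ih, rtpa_fr_mul h, pow_succ]

theorem rtpa_fr_det (h : β * βi = 1) (M : Matrix (Fin 2) (Fin 2) A) :
    (βi * M * β).det = M.det := by
  have h1 : βi.det * β.det = 1 := by rw [← Matrix.det_mul, rtpa_inv_mul h, Matrix.det_one]
  rw [Matrix.det_mul, Matrix.det_mul]
  calc βi.det * M.det * β.det = (βi.det * β.det) * M.det := by ring
    _ = M.det := by rw [h1, one_mul]

theorem rtpa_fr_trace (h : β * βi = 1) (M : Matrix (Fin 2) (Fin 2) A) :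
    (βi * M * β).trace = M.trace := by
  rw [Matrix.trace_mul_comm, ← Matrix.mul_assoc, h, Matrix.one_mul]

theorem rtpa_fr_sub_smul (h : β * βi = 1) (M : Matrix (Fin 2) (Fin 2) A) (c : A) :
    βi * M * β - c • (1 : Matrix (Fin 2) (Fin 2) A) =
      βi * (M - c • (1 : Matrix (Fin 2) (Fin 2) A)) * β := by
  rw [Matrix.mul_sub, Matrix.sub_mul, Matrix.mul_smul, Matrix.smul_mul, rtpa_fr_one h]

/-- conjugation preserves "all entries in the ideal `I`" -/
theorem rtpa_fr_mem (I : Ideal A) (N : Matrix (Fin 2) (Fin 2) A) (hN : ∀ a c, N a c ∈ I)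
    (X Y : Matrix (Fin 2) (Fin 2) A) (a c : Fin 2) : (X * N * Y) a c ∈ I := by
  rw [Matrix.mul_apply]
  refine Ideal.sum_mem _ fun k _ => ?_
  refine Ideal.mul_mem_right _ _ ?_
  rw [Matrix.mul_apply]
  refine Ideal.sum_mem _ fun l _ => ?_
  exact Ideal.mul_mem_left _ _ (hN l k)

end Framing

/-! ### Residual scalars and entries -/

section Res

variable {A : Type} [CommRing A] [IsLocalRing A]

/-- the entries of `ρ(g) − z` are in `𝔪_A` if the residual representation is the scalar `z` -/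
theorem rtpa_entries_mem (ρ : GaloisRepAdic A) (b : Module.Basis (Fin 2) A ρ.V) (g : RtpaG)
    (z : ℤ) (h : ρ.residual.ρ g = (z : Module.End (ResidueField A) ρ.residual.V))
    (a c : Fin 2) :
    (LinearMap.toMatrix b b (ρ.ρ g) - (z : Matrix (Fin 2) (Fin 2) A)) a c ∈ maximalIdeal A := by
  have h1 := rtk3a_residue_mapMatrix ρ b g z h
  have h2 : (residue A).mapMatrix
      (LinearMap.toMatrix b b (ρ.ρ g) - (z : Matrix (Fin 2) (Fin 2) A)) = 0 := by
    rw [map_sub, h1, map_intCast, sub_self]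
  have h3 := congrFun (congrFun h2 a) c
  rw [RingHom.mapMatrix_apply, Matrix.map_apply, Matrix.zero_apply] at h3
  exact (residue_eq_zero_iff _).mp h3

omit [IsLocalRing A] in
/-- `f V ⊆ 𝔪 V` if the entries of the matrix of `f` are in `𝔪`. -/
theorem rtpa_mem_smul_top {V : Type} [AddCommGroup V] [Module A V]
    (b : Module.Basis (Fin 2) A V) (f : V →ₗ[A] V) (I : Ideal A)
    (h : ∀ a c, LinearMap.toMatrix b b f a c ∈ I) (v : V) :
    f v ∈ I • (⊤ : Submodule A V) := by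
  have hb : ∀ j, f (b j) ∈ I • (⊤ : Submodule A V) := by
    intro j
    rw [← b.sum_repr (f (b j))]
    refine Submodule.sum_mem _ fun i _ => ?_
    have := h i j
    rw [LinearMap.toMatrix_apply] at this
    exact Submodule.smul_mem_smul this Submodule.mem_top
  rw [← b.sum_repr v, map_sum]
  refine Submodule.sum_mem _ fun j _ => ?_
  rw [map_smul]
  exact Submodule.smul_mem _ _ (hb j)

/-- residually trivial ⇒ `(ρ(g) − 1) V ⊆ 𝔪 V` -/
theorem rtpa_resTriv (ρ : GaloisRepAdic A) (g : RtpaG)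
    (h : ρ.residual.ρ g = 1) (v : ρ.V) :
    ρ.ρ g v - v ∈ maximalIdeal A • (⊤ : Submodule A ρ.V) := by
  obtain ⟨b⟩ : Nonempty (Module.Basis (Fin 2) A ρ.V) :=
    ⟨Module.finBasisOfFinrankEq A ρ.V ρ.finrank_eq⟩
  have h' : ρ.residual.ρ g = ((1 : ℤ) : Module.End (ResidueField A) ρ.residual.V) := by
    rw [h, Int.cast_one]
  have key := rtpa_mem_smul_top b (ρ.ρ g - 1) (maximalIdeal A) (fun a c => by
    have := rtpa_entries_mem ρ b g 1 h' a c
    rw [Int.cast_one] at this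
    have e : LinearMap.toMatrix b b (ρ.ρ g - 1) =
        LinearMap.toMatrix b b (ρ.ρ g) - 1 := by
      rw [map_sub]
      congr 1
      exact LinearMap.toMatrix_one b
    rw [e]
    exact this) v
  simpa using key

/-- base change along a local homomorphism preserves `(ρ(g) − 1) V ⊆ 𝔪 V` -/
theorem rtpa_resTriv_baseChange {B : Type} [CommRing B] [IsLocalRing B] (q : A →+* B)
    (hq : IsLocalHom q) (ρ : GaloisRepAdic A) (g : RtpaG)
    (h : ∀ v : ρ.V, ρ.ρ g v - v ∈ maximalIdeal A • (⊤ : Submodule A ρ.V))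
    (w : (ρ.baseChangeAlong q hq).V) :
    (ρ.baseChangeAlong q hq).ρ g w - w ∈
      maximalIdeal B • (⊤ : Submodule B (ρ.baseChangeAlong q hq).V) := by
  letI : Algebra A B := q.toAlgebra
  have hmap : ∀ a ∈ maximalIdeal A, q a ∈ maximalIdeal B := fun a ha =>
    (haveI := hq; map_nonunit q a ha)
  have hpure : ∀ (c : B) (v : ρ.V),
      (ρ.ρ g).baseChange B (c ⊗ₜ[A] v) - c ⊗ₜ[A] v ∈
        maximalIdeal B • (⊤ : Submodule B (TensorProduct A B ρ.V)) := by
    intro c v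
    rw [LinearMap.baseChange_tmul, ← TensorProduct.tmul_sub]
    refine Submodule.smul_induction_on (p := fun x => c ⊗ₜ[A] x ∈
      maximalIdeal B • (⊤ : Submodule B (TensorProduct A B ρ.V))) (h v) ?_ ?_
    · intro a ha x _
      rw [TensorProduct.tmul_smul, TensorProduct.smul_tmul', Algebra.smul_def, ← smul_eq_mul,
        ← TensorProduct.smul_tmul']
      exact Submodule.smul_mem_smul (hmap a ha) Submodule.mem_top
    · intro x y hx hy
      rw [TensorProduct.tmul_add]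
      exact Submodule.add_mem _ hx hy
  have hall : ∀ w : TensorProduct A B ρ.V, (ρ.ρ g).baseChange B w - w ∈
      maximalIdeal B • (⊤ : Submodule B (TensorProduct A B ρ.V)) := by
    intro w
    induction w using TensorProduct.induction_on with
    | zero => simp
    | tmul c v => exact hpure c v
    | add x y hx hy =>
      rw [map_add, add_sub_add_comm]
      exact Submodule.add_mem _ hx hy
  exact hall w

end Res

end Fermat.Agent.RT.Prod


end ZBRT_005_3

/-! ### bundled: `Fermat.Agent.RT.Prod.Asm` -/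
section ZBRT_005_4
/-
K-machine, PROD-asm (helper70): **`rtpa_pre` : `TWGal` + LOC-gen + K3-Alg ⇒ `∃ x, TWPreE`**.

Input: the Galois-side datum `TWGal` of `RT/Prod/AsmPlan.lean` (delivered by the Hecke side at
level `n` for the Taylor–Wiles set `Q`), the LOC-gen generators `σ_i`, `φ_i` at the trivial primes
`r_i` (`IsLocGenAt`), the hypotheses `TWHyp`, `IsTrivSet` of K3 and the tangent bound
`TwTanCard (rtk3Flat …) |k|^g` of K3-Sel.
Output: `x : Fin (g + 4|T|) → A` with `TWPreE` for `Σ_i = β⁻¹ ρ(σ_i) β`, `Φ_i = β⁻¹ ρ(φ_i) β`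
(`rtpaFr`); then `rtprod_datumE` (`RT/Prod/PreE.lean`) gives the `TWDatumE`.

Steps: determinants from `DetIsCyclotomic` (`A` finite: `p^n = 0`), nilpotency from the residual
values (`ρ̄(σ_i) = 1`, `ρ̄(φ_i) = ±1 ≡ s_i`), the relation `Φ Σ = Σ^r Φ` from LOC-gen (tameness:
`K1.rtk1w_isTameP_artinian`), generation from `rtk3a_main_gen` with `Dr r = {σ_i, φ_i}`
(its hypothesis `hDr2`: a deformation to `k[ε]` which is `±1` at `σ_i`, `φ_i` is `±1` on all
decomposition groups over `r_i` — LOC-gen normal form + conjugacy of the places).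
-/

set_option autoImplicit false
set_option linter.style.haveILetI false

namespace Fermat.Agent.RT.Prod

open IsLocalRing Fermat.Agent.TW Fermat.Agent.RT Fermat.Agent.RT.K1 ExtCitation
open scoped TensorProduct Pointwise

/-! ### Determinants -/

section Det

variable {A : Type} [CommRing A] [IsLocalRing A] [Finite A]

/-- over a finite local ring the determinant of a representation with cyclotomic determinant is
determined by the action on the `p`-power roots of unity -/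
theorem rtpa_det_eq (p : ℕ) (ρ : GaloisRepAdic A) (hdet : ρ.DetIsCyclotomic p) (g : RtpaG)
    (a : ℕ) (h : ∀ (n : ℕ) (μ : AlgebraicClosure ℚ), μ ^ p ^ n = 1 → g μ = μ ^ a) :
    LinearMap.det (ρ.ρ g) = (a : A) := by
  obtain ⟨n, hn⟩ := rtk3a_exists_pow_eq_bot A
  have h1 := hdet.2 n g a (h n)
  have h2 : ((p ^ n : ℕ) : A) = 0 := by
    have h3 : ((p ^ n : ℕ) : A) ∈ maximalIdeal A ^ n := by
      rw [Nat.cast_pow]
      exact Ideal.pow_mem_pow hdet.1 n
    rw [hn] at h3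
    exact h3
  rw [h2, Ideal.span_singleton_eq_bot.mpr rfl] at h1
  exact sub_eq_zero.mp h1

theorem rtpa_det_inertia (p r : ℕ) [hp : Fact p.Prime] [hr : Fact r.Prime] (hrp : r ≠ p)
    (ρ : GaloisRepAdic A) (hdet : ρ.DetIsCyclotomic p) (g : RtpaG)
    (hg : g ∈ (padicPlace r).inertiaSubgroupIn ℚ) :
    LinearMap.det (ρ.ρ g) = 1 := by
  have := rtpa_det_eq p ρ hdet g 1 (fun n _ hμ => by
    rw [pow_one]
    exact Fermat.Agent.S31.inertia_rootOfUnity (padicPlace r)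
      (Fermat.Agent.S31.natCast_pow_not_mem_nonunits (padicPlace r) hp.out hr.out hrp
        (Fermat.Agent.TW.L.lfrobex_liesOverPrime r) n)
      (pow_ne_zero n hp.out.ne_zero) hg hμ)
  rw [this, Nat.cast_one]

theorem rtpa_det_frob (p r : ℕ) [hp : Fact p.Prime] [hr : Fact r.Prime] (hrp : r ≠ p)
    (ρ : GaloisRepAdic A) (hdet : ρ.DetIsCyclotomic p) (g : RtpaG)
    (hg : (padicPlace r).IsFrobeniusAt g r) :
    LinearMap.det (ρ.ρ g) = (r : A) :=
  rtpa_det_eq p ρ hdet g r (fun n _ hμ =>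
    Fermat.Agent.S31.frob_rootOfUnity (padicPlace r)
      (Fermat.Agent.S31.natCast_pow_not_mem_nonunits (padicPlace r) hp.out hr.out hrp
        (Fermat.Agent.TW.L.lfrobex_liesOverPrime r) n)
      (pow_ne_zero n hp.out.ne_zero) hg hμ)

omit [Finite A] [IsLocalRing A] in
theorem rtpa_fr_det' {V : Type} [AddCommGroup V] [Module A V] (b : Module.Basis (Fin 2) A V)
    {β βi : Matrix (Fin 2) (Fin 2) A} (h : β * βi = 1) (f : V →ₗ[A] V) :
    (βi * LinearMap.toMatrix b b f * β).det = LinearMap.det f := by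
  rw [rtpa_fr_det h, LinearMap.det_toMatrix]

omit [Finite A] [IsLocalRing A] in
theorem rtpa_fr_trace' {V : Type} [AddCommGroup V] [Module A V] (b : Module.Basis (Fin 2) A V)
    {β βi : Matrix (Fin 2) (Fin 2) A} (h : β * βi = 1) (f : V →ₗ[A] V) :
    (βi * LinearMap.toMatrix b b f * β).trace = LinearMap.trace A V f := by
  rw [rtpa_fr_trace h, LinearMap.trace_eq_matrix_trace A b f]

/-- elements of the maximal ideal of a finite local ring are nilpotent -/
theorem rtpa_isNilpotent {x : A} (hx : x ∈ maximalIdeal A) : IsNilpotent x := by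
  obtain ⟨n, hn⟩ := rtk3a_exists_pow_eq_bot A
  refine ⟨n, ?_⟩
  have := Ideal.pow_mem_pow hx n
  rw [hn] at this
  exact this

end Det

/-! ### `±1` on all decomposition groups from the generators -/

section Triv

variable {M : Type} [Ring M]

theorem rtpa_pm_pow {x : M} (h : x = 1 ∨ x = -1) (n : ℕ) : x ^ n = 1 ∨ x ^ n = -1 := by
  rcases h with rfl | rfl
  · left; rw [one_pow]
  · rcases Nat.even_or_odd n with hn | hn
    · left; exact hn.neg_one_pow
    · right; exact hn.neg_one_pow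

theorem rtpa_pm_mul {x y : M} (hx : x = 1 ∨ x = -1) (hy : y = 1 ∨ y = -1) :
    x * y = 1 ∨ x * y = -1 := by
  rcases hx with rfl | rfl <;> rcases hy with rfl | rfl
  · left; rw [one_mul]
  · right; rw [one_mul]
  · right; rw [mul_one]
  · left; rw [neg_mul_neg, one_mul]

/-- conjugation of decomposition groups -/
theorem rtpa_conj_mem_decomp (P : ValuationSubring (AlgebraicClosure ℚ)) (g τ : RtpaG)
    (hτ : τ ∈ (g • P).decompositionSubgroup ℚ) :
    g⁻¹ * τ * g ∈ P.decompositionSubgroup ℚ := by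
  have h1 : τ • (g • P) = g • P := hτ
  show (g⁻¹ * τ * g) • P = P
  rw [mul_smul, mul_smul, h1, inv_smul_smul]

/-- **`±1` on the decomposition group of one place ⇒ `±1` on all of them.** -/
theorem rtpa_trivAt_of_place (h : RtpaG →* M) (r : ℕ) (hr : r.Prime)
    (P0 : ValuationSubring (AlgebraicClosure ℚ)) (hP0 : P0.LiesOverPrime r)
    (h0 : ∀ τ ∈ P0.decompositionSubgroup ℚ, h τ = 1 ∨ h τ = -1)
    (P : ValuationSubring (AlgebraicClosure ℚ)) (hP : P.LiesOverPrime r)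
    (τ : RtpaG) (hτ : τ ∈ P.decompositionSubgroup ℚ) : h τ = 1 ∨ h τ = -1 := by
  obtain ⟨g, hg⟩ := Fermat.Agent.TW.S.sconjp_exists_smul_eq r hr P0 P hP0 hP
  rw [← hg] at hτ
  have h1 := h0 _ (rtpa_conj_mem_decomp P0 g τ hτ)
  have e : h τ = h g * h (g⁻¹ * τ * g) * h g⁻¹ := by
    rw [← map_mul, ← map_mul]
    congr 1
    group
  have e1 : h g * h g⁻¹ = 1 := by rw [← map_mul, mul_inv_cancel, map_one]
  rcases h1 with h1 | h1
  · left
    rw [e, h1, mul_one, e1]
  · right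
    rw [e, h1, mul_neg, mul_one, neg_mul, e1]

/-- **`±1` at the two generators ⇒ `±1` on all decomposition groups over `r`.** -/
theorem rtpa_trivAt_of_gen (p r : ℕ) [hr : Fact r.Prime] (σ φ : RtpaG)
    (hloc : IsLocGenAt p r σ φ) (h : RtpaG →* M) (htame : IsTameP r p h)
    (hσ : h σ = 1 ∨ h σ = -1) (hφ : h φ = 1 ∨ h φ = -1)
    (P : ValuationSubring (AlgebraicClosure ℚ)) (hP : P.LiesOverPrime r)
    (τ : RtpaG) (hτ : τ ∈ P.decompositionSubgroup ℚ) : h τ = 1 ∨ h τ = -1 := by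
  refine rtpa_trivAt_of_place h r hr.out (padicPlace r)
    (Fermat.Agent.TW.L.lfrobex_liesOverPrime r) (fun τ' hτ' => ?_) P hP τ hτ
  obtain ⟨m, n, hmn⟩ := (hloc.univ M h htame).2.1 τ' hτ'
  rw [hmn]
  exact rtpa_pm_mul (rtpa_pm_pow hσ m) (rtpa_pm_pow hφ n)

end Triv

/-! ### Nilpotent entries, the relation -/

section Nil

variable {A : Type} [CommRing A] [IsLocalRing A] [Finite A]

theorem rtpa_nil_entries (ρ : GaloisRepAdic A) (b : Module.Basis (Fin 2) A ρ.V)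
    {β βi : Matrix (Fin 2) (Fin 2) A} (hβ : β * βi = 1) (g : RtpaG) (z : ℤ) (c : A)
    (hc : c - (z : A) ∈ maximalIdeal A)
    (h : ρ.residual.ρ g = (z : Module.End (ResidueField A) ρ.residual.V)) (a d : Fin 2) :
    IsNilpotent ((βi * LinearMap.toMatrix b b (ρ.ρ g) * β -
      c • (1 : Matrix (Fin 2) (Fin 2) A)) a d) := by
  rw [rtpa_fr_sub_smul hβ]
  refine rtpa_isNilpotent (rtpa_fr_mem (maximalIdeal A) _ (fun a' c' => ?_) βi β a d)
  have h1 := rtpa_entries_mem ρ b g z h a' c'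
  have e : (LinearMap.toMatrix b b (ρ.ρ g) - c • (1 : Matrix (Fin 2) (Fin 2) A)) a' c' =
      (LinearMap.toMatrix b b (ρ.ρ g) - (z : Matrix (Fin 2) (Fin 2) A)) a' c' -
        (c - (z : A)) * (1 : Matrix (Fin 2) (Fin 2) A) a' c' := by
    have hz : (z : Matrix (Fin 2) (Fin 2) A) a' c' = (z : A) * (1 : Matrix (Fin 2) (Fin 2) A) a' c' := by
      by_cases hac : a' = c'
      · subst hac
        rw [Matrix.one_apply_eq, mul_one]
        exact Matrix.diagonal_apply_eq _ _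
      · rw [Matrix.one_apply_ne hac, mul_zero]
        exact Matrix.diagonal_apply_ne _ hac
    rw [Matrix.sub_apply, Matrix.sub_apply, Matrix.smul_apply, smul_eq_mul, hz]
    ring
  rw [e]
  exact Ideal.sub_mem _ h1 (Ideal.mul_mem_right _ _ hc)

omit [Finite A] [IsLocalRing A] in
/-- the relation `Φ Σ = Σ^r Φ` in framed matrix form -/
theorem rtpa_conj {V : Type} [AddCommGroup V] [Module A V] (b : Module.Basis (Fin 2) A V)
    {β βi : Matrix (Fin 2) (Fin 2) A} (hβ : β * βi = 1) (f g : V →ₗ[A] V) (r : ℕ)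
    (h : g * f = f ^ r * g) :
    (βi * LinearMap.toMatrix b b g * β) * (βi * LinearMap.toMatrix b b f * β) =
      (βi * LinearMap.toMatrix b b f * β) ^ r * (βi * LinearMap.toMatrix b b g * β) := by
  rw [rtpa_fr_pow hβ, rtpa_fr_mul hβ, rtpa_fr_mul hβ, ← LinearMap.toMatrix_mul, h,
    LinearMap.toMatrix_mul, LinearMap.toMatrix_pow]

end Nil

/-! ### The main theorem -/

section Main

variable {O : Type} [CommRing O] [IsDomain O] [IsDiscreteValuationRing O]
  [IsAdicComplete (maximalIdeal O) O] [Finite (ResidueField O)]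
  {ι : Type} [Fintype ι]

/-- **PROD-asm**: the Galois-side datum `TWGal` (Hecke side) + LOC-gen + K3-Alg give the
algebraic datum `TWPreE`: the framed local matrices `Σ_i = β⁻¹ ρ(σ_i) β`, `Φ_i = β⁻¹ ρ(φ_i) β`
and `g + 4|T|` further generators `x` in the maximal ideal. -/
theorem rtpa_pre (p : ℕ) [Fact p.Prime] (ρbar : ResidualGaloisRep (ResidueField O))
    (S Smin Q : Finset ℕ) (r : ι → ℕ) (σ φ : ι → RtpaG) (s tχ : ι → O) (lam : O) (m d : ℕ)
    {T0 : Type} [CommRing T0] [Algebra O T0] (j0 : T0 →ₐ[O] Matrix (Fin d) (Fin d) O)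
    (Sig0 Phi0 : ι → Matrix (Fin 2) (Fin 2) T0) (n : ℕ)
    (E : Set (RttwS O m ⧸ maximalIdeal (RttwS O m) ^ n))
    {A : Type} [CommRing A] [IsLocalRing A] [Algebra O A]
    (ιA : ResidueField O →+* ResidueField A)
    (ρ : GaloisRepAdic A) (b : Module.Basis (Fin 2) A ρ.V)
    (β βi : ℕ → Matrix (Fin 2) (Fin 2) A)
    (π1 πχ : A →ₐ[O] Matrix (Fin d) (Fin d) (RttwS O m ⧸ maximalIdeal (RttwS O m) ^ n))
    (hyp : TWHyp O p ρbar S Smin) (hT : IsTrivSet p ρbar Smin (Finset.univ.image r))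
    (g : ℕ) (hcard : TwTanCard O ρbar (rtk3Flat O p Smin Q (Finset.univ.image r))
      (Nat.card (ResidueField O) ^ g))
    (hloc : ∀ i, ∀ [Fact (r i).Prime], IsLocGenAt p (r i) (σ i) (φ i))
    (hs2 : ∀ i, s i ^ 2 = (r i : O))
    (hs : ∀ i, (ρbar.ρ (φ i) = 1 ∧ s i - 1 ∈ maximalIdeal O) ∨
      (ρbar.ρ (φ i) = -1 ∧ s i + 1 ∈ maximalIdeal O))
    (H : TWGal p ρbar Smin Q r σ φ tχ lam m d j0 Sig0 Phi0 n E ιA ρ b β βi π1 πχ) :
    ∃ x : Fin (g + 4 * (Finset.univ.image r).card) → A,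
      TWPreE r s tχ lam m d j0 Sig0 Phi0 n E π1 πχ
        (fun i => rtpaFr ρ b β βi (r i) (σ i)) (fun i => rtpaFr ρ b β βi (r i) (φ i)) x := by
  classical
  haveI := H.finite
  have hmem : ∀ i, r i ∈ Finset.univ.image r := fun i =>
    Finset.mem_image_of_mem r (Finset.mem_univ i)
  have hprime : ∀ i, (r i).Prime := fun i => (hT (r i) (hmem i)).1
  haveI hfact : ∀ i, Fact (r i).Prime := fun i => ⟨hprime i⟩
  have hrp : ∀ i, r i ≠ p := by
    intro i hi
    have h1 := (hT (r i) (hmem i)).2.2.1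
    have h2 := (hprime i).two_le
    rw [hi] at h1 h2
    have h3 := Nat.le_of_dvd (by omega) h1
    omega
  have hβ : ∀ i, β (r i) * βi (r i) = 1 := fun i => (H.framing (r i) (hmem i)).1
  have hdetc : ρ.DetIsCyclotomic p := H.flat.1.1
  have hpA : (p : A) ∈ maximalIdeal A := hdetc.1
  have hlocmap : ∀ a ∈ maximalIdeal O, algebraMap O A a ∈ maximalIdeal A := fun a ha =>
    (haveI := H.resAlg.1; map_nonunit (algebraMap O A) a ha)
  -- residual values
  have hunr : ∀ i, ρbar.IsUnramifiedAt (r i) := by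
    intro i
    by_contra h
    exact (hT _ (hmem i)).2.1 ((hyp.hmin (r i) (hprime i) (hrp i)).mpr h)
  have hresI : ∀ i, ∀ τ ∈ (padicPlace (r i)).inertiaSubgroupIn ℚ, ρ.residual.ρ τ = 1 := by
    intro i τ hτ
    have h1 : ρbar.ρ τ = ((1 : ℤ) : Module.End (ResidueField O) ρbar.V) := by
      rw [Int.cast_one]
      exact hunr i (padicPlace (r i)) (Fermat.Agent.TW.L.lfrobex_liesOverPrime (r i)) τ hτ
    have h2 := rtk3a_residual_intCast ιA ρbar ρ.residual H.res τ 1 h1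
    rw [h2, Int.cast_one]
  have hσI : ∀ i, σ i ∈ (padicPlace (r i)).inertiaSubgroupIn ℚ := fun i =>
    (hloc i).inertia
  have hresσ : ∀ i, ρ.residual.ρ (σ i) =
      ((1 : ℤ) : Module.End (ResidueField A) ρ.residual.V) := by
    intro i
    rw [hresI i (σ i) (hσI i), Int.cast_one]
  have hresφ : ∀ i, ∃ z : ℤ, ρ.residual.ρ (φ i) =
      (z : Module.End (ResidueField A) ρ.residual.V) ∧
      algebraMap O A (s i) - (z : A) ∈ maximalIdeal A := by
    intro i
    rcases hs i with ⟨h1, h2⟩ | ⟨h1, h2⟩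
    · refine ⟨1, rtk3a_residual_intCast ιA ρbar ρ.residual H.res (φ i) 1 ?_, ?_⟩
      · rw [h1, Int.cast_one]
      · have := hlocmap _ h2
        rwa [map_sub, map_one, ← Int.cast_one (R := A)] at this
    · refine ⟨-1, rtk3a_residual_intCast ιA ρbar ρ.residual H.res (φ i) (-1) ?_, ?_⟩
      · rw [h1, Int.cast_neg, Int.cast_one]
      · have := hlocmap _ h2
        rw [map_add, map_one] at this
        rw [Int.cast_neg, Int.cast_one, sub_neg_eq_add]
        exact this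
  -- tameness of `ρ`
  have htame : ∀ i, IsTameP (r i) p ρ.ρ := by
    intro i
    exact rtk1w_isTameP_artinian (r i) p hpA ρ
      (fun τ hτ v => rtpa_resTriv ρ τ (hresI i τ hτ) v)
  -- K3-Alg
  obtain ⟨x, hx, hadj⟩ := rtk3a_main_gen p ρbar S Smin (Finset.univ.image r) Q hyp hT g hcard A
    H.resAlg ιA H.hιA ρ H.flat H.res b β βi H.framing
    (fun ℓ => {g | ∃ i, r i = ℓ ∧ (g = σ i ∨ g = φ i)})
    (by
      rintro ℓ - g ⟨i, -, rfl | rfl⟩
      · left
        exact hunr i (padicPlace (r i)) (Fermat.Agent.TW.L.lfrobex_liesOverPrime (r i)) _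
          (hσI i)
      · rcases hs i with ⟨h1, -⟩ | ⟨h1, -⟩
        · exact Or.inl h1
        · exact Or.inr h1)
    (by
      intro ℓ hℓ q hq hg P hP τ hτ
      obtain ⟨i, -, rfl⟩ := Finset.mem_image.mp hℓ
      haveI : Finite (DualNumber (ResidueField O)) :=
        Fermat.Agent.S53.tangent_finite_dualNumber _
      have hpB : (p : DualNumber (ResidueField O)) ∈
          maximalIdeal (DualNumber (ResidueField O)) := by
        have := (haveI := hq; map_nonunit q (p : A) hpA)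
        rwa [map_natCast] at this
      have htame' : IsTameP (r i) p (ρ.baseChangeAlong q hq).ρ :=
        rtk1w_isTameP_artinian (r i) p hpB _ (fun τ' hτ' w =>
          rtpa_resTriv_baseChange q hq ρ τ' (rtpa_resTriv ρ τ' (hresI i τ' hτ')) w)
      exact rtpa_trivAt_of_gen p (r i) (σ i) (φ i) (hloc i) _ htame'
        (hg _ ⟨i, rfl, Or.inl rfl⟩) (hg _ ⟨i, rfl, Or.inr rfl⟩) P hP τ hτ)
    H.gen
  have hsub : rtk3aEntries ρ b (Finset.univ.image r) β βi
      (fun ℓ => {g | ∃ i, r i = ℓ ∧ (g = σ i ∨ g = φ i)}) ⊆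
      rttwEntries (fun i => rtpaFr ρ b β βi (r i) (σ i)) ∪
        rttwEntries (fun i => rtpaFr ρ b β βi (r i) (φ i)) := by
    rintro y ⟨ℓ, -, g, ⟨i, rfl, rfl | rfl⟩, a, c, rfl⟩
    · exact Or.inl ⟨i, a, c, rfl⟩
    · exact Or.inr ⟨i, a, c, rfl⟩
  have htop : Algebra.adjoin O (rttwEntries (fun i => rtpaFr ρ b β βi (r i) (σ i)) ∪
      rttwEntries (fun i => rtpaFr ρ b β βi (r i) (φ i)) ∪ Set.range x) = ⊤ := by
    refine top_le_iff.mp ?_
    rw [← hadj]
    exact Algebra.adjoin_mono (Set.union_subset_union_left _ hsub)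
  refine ⟨x, ?_⟩
  refine
    { tr1 := fun i => ?_
      trχ := fun i => ?_
      det_sig := fun i => ?_
      det_phi := fun i => ?_
      nil_sig := fun i a c => ?_
      nil_phi := fun i a c => ?_
      nil_x := fun k => rtpa_isNilpotent (hx k)
      conj := fun i => ?_
      gen1 := fun c hc => ?_
      genχ := fun c hc => ?_
      cong := H.cong
      base_sig := H.base_sig
      base_phi := H.base_phi
      base_T0 := H.base_T0 }
  · show π1 (βi (r i) * LinearMap.toMatrix b b (ρ.ρ (σ i)) * β (r i)).trace = 2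
    rw [rtpa_fr_trace' b (hβ i)]
    exact H.tr1 i
  · show πχ (βi (r i) * LinearMap.toMatrix b b (ρ.ρ (σ i)) * β (r i)).trace = _
    rw [rtpa_fr_trace' b (hβ i)]
    exact H.trχ i
  · show (βi (r i) * LinearMap.toMatrix b b (ρ.ρ (σ i)) * β (r i)).det = 1
    rw [rtpa_fr_det' b (hβ i)]
    exact rtpa_det_inertia p (r i) (hrp i) ρ hdetc (σ i) (hσI i)
  · show (βi (r i) * LinearMap.toMatrix b b (ρ.ρ (φ i)) * β (r i)).det = _
    rw [rtpa_fr_det' b (hβ i), rtpa_det_frob p (r i) (hrp i) ρ hdetc (φ i) (hloc i).frob, hs2,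
      map_natCast]
  · have h1 := rtpa_nil_entries ρ b (hβ i) (σ i) 1 1 (by rw [Int.cast_one, sub_self]; exact zero_mem _)
      (hresσ i) a c
    rw [one_smul] at h1
    exact h1
  · obtain ⟨z, hz1, hz2⟩ := hresφ i
    exact rtpa_nil_entries ρ b (hβ i) (φ i) z _ hz2 hz1 a c
  · exact rtpa_conj b (hβ i) _ _ (r i) ((hloc i).univ _ ρ.ρ (htame i)).2.2
  · obtain ⟨u, hu⟩ := H.scal1 c hc
    exact ⟨u, by rw [htop]; exact Algebra.mem_top, hu⟩
  · obtain ⟨u, hu⟩ := H.scalχ c hc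
    exact ⟨u, by rw [htop]; exact Algebra.mem_top, hu⟩

end Main

end Fermat.Agent.RT.Prod


end ZBRT_005_4

/-! ### bundled: `Fermat.Agent.RT.Prod.Unram` -/
section ZBRT_005_5
/-
K-machine, PROD (helper27, sub-lemma of helper70's PROD-asm): PROD-unram.

From "`ρ(σ_r) ≡ 1 mod 𝔓`" (the output of `stmtOutTWE`, for the fixed LOC-gen generator `σ_r` of
the inertia at `padicPlace r`) to the `hunr` input of helper46's adapter `rtint_point_of_quot`
(`RT/Interp/Quot.lean`): for every `n`, the inertia groups at ALL places over `r` act trivially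
modulo `𝔓 + 𝔪 ^ n`.

* `rtpuQ ρ I`        : the action of `G_ℚ` on `V ⧸ I V` (a monoid homomorphism to
                       `Module.End T (V ⧸ I V)`);
* `rtpu_resTriv`     : `ρ.residual.ρ g = 1 ⇒ (ρ g − 1) V ⊆ 𝔪 V`;
* `rtpu_isTameP`     : `rtpuQ ρ I` satisfies `K1.IsTameP r p` when `𝔪 ^ n ≤ I`, `p ∈ 𝔪` and `ρ` is
                       residually trivial on the inertia group at `padicPlace r`;
* `rtpu_hunr`        : **PROD-unram**;
* `rtpu_fourth`, `rtpu_all_entries` : the fourth entry of `Σ − 1` lies in the prime `𝔓` if the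
                       other three do and `det Σ = 1`.
No base change to `T ⧸ (𝔓 + 𝔪 ^ n)` is needed: the quotient MODULE `V ⧸ I V` does the job.
-/

set_option autoImplicit false
set_option linter.unusedSectionVars false
set_option linter.style.haveILetI false

namespace Fermat.Agent.RT.Prod

open IsLocalRing Fermat.Agent.RT.K1 ExtCitation
open scoped TensorProduct Pointwise

section Quot

variable {A : Type*} [CommRing A] {V : Type*} [AddCommGroup V] [Module A V]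

/-- a linear map preserves `I V` -/
theorem rtpu_map_mem (I : Ideal A) (f : V →ₗ[A] V) {x : V}
    (hx : x ∈ (I • ⊤ : Submodule A V)) : f x ∈ (I • ⊤ : Submodule A V) := by
  induction hx using Submodule.smul_induction_on' with
  | smul a ha w _ =>
    rw [map_smul]
    exact Submodule.smul_mem_smul ha Submodule.mem_top
  | add x _ y _ hx hy =>
    rw [map_add]
    exact Submodule.add_mem _ hx hy

/-- the endomorphism of `V ⧸ I V` induced by an endomorphism of `V` -/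
noncomputable def rtpuQEnd (I : Ideal A) (f : V →ₗ[A] V) :
    Module.End A (V ⧸ (I • ⊤ : Submodule A V)) :=
  (I • ⊤ : Submodule A V).mapQ (I • ⊤) f fun _ hx => rtpu_map_mem I f hx

theorem rtpuQEnd_mk (I : Ideal A) (f : V →ₗ[A] V) (v : V) :
    rtpuQEnd I f (Submodule.Quotient.mk v) = Submodule.Quotient.mk (f v) := rfl

theorem rtpuQEnd_one (I : Ideal A) : rtpuQEnd I (1 : Module.End A V) = 1 := by
  apply LinearMap.ext
  intro x
  obtain ⟨v, rfl⟩ := Submodule.Quotient.mk_surjective _ x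
  rfl

theorem rtpuQEnd_mul (I : Ideal A) (f g : Module.End A V) :
    rtpuQEnd I (f * g) = rtpuQEnd I f * rtpuQEnd I g := by
  apply LinearMap.ext
  intro x
  obtain ⟨v, rfl⟩ := Submodule.Quotient.mk_surjective _ x
  rfl

theorem rtpuQEnd_eq_one_iff (I : Ideal A) (f : Module.End A V) :
    rtpuQEnd I f = 1 ↔ ∀ v : V, f v - v ∈ (I • ⊤ : Submodule A V) := by
  constructor
  · intro h v
    have := LinearMap.congr_fun h (Submodule.Quotient.mk v)
    rw [rtpuQEnd_mk, Module.End.one_apply] at this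
    exact (Submodule.Quotient.eq _).mp this
  · intro h
    apply LinearMap.ext
    intro x
    obtain ⟨v, rfl⟩ := Submodule.Quotient.mk_surjective _ x
    rw [rtpuQEnd_mk, Module.End.one_apply]
    exact (Submodule.Quotient.eq _).mpr (h v)

/-- an endomorphism whose matrix has entries in `I` maps `V` into `I V` -/
theorem rtpu_mem_of_entries {κ : Type*} [Fintype κ] [DecidableEq κ] (b : Module.Basis κ A V)
    (I : Ideal A) (f : Module.End A V) (hf : ∀ a c, LinearMap.toMatrix b b f a c ∈ I) (v : V) :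
    f v ∈ (I • ⊤ : Submodule A V) := by
  rw [← b.sum_repr (f v)]
  refine Submodule.sum_mem _ fun a _ => Submodule.smul_mem_smul ?_ Submodule.mem_top
  rw [← LinearMap.toMatrix_mulVec_repr b b f v, Matrix.mulVec, dotProduct]
  exact Ideal.sum_mem _ fun c _ => Ideal.mul_mem_right _ _ (hf a c)

end Quot

section Rep

variable {T : Type} [CommRing T] [IsLocalRing T]

/-- The action of `G_ℚ` on `V ⧸ I V`. -/
noncomputable def rtpuQ (ρ : GaloisRepAdic T) (I : Ideal T) :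
    RtpaG →* Module.End T (ρ.V ⧸ (I • ⊤ : Submodule T ρ.V)) where
  toFun g := rtpuQEnd I (ρ.ρ g)
  map_one' := by rw [map_one, rtpuQEnd_one]
  map_mul' g g' := by rw [map_mul, rtpuQEnd_mul]

theorem rtpuQ_apply (ρ : GaloisRepAdic T) (I : Ideal T) (g : RtpaG) :
    rtpuQ ρ I g = rtpuQEnd I (ρ.ρ g) := rfl

theorem rtpuQ_eq_one_iff (ρ : GaloisRepAdic T) (I : Ideal T) (g : RtpaG) :
    rtpuQ ρ I g = 1 ↔ ∀ v : ρ.V, ρ.ρ g v - v ∈ (I • ⊤ : Submodule T ρ.V) :=
  rtpuQEnd_eq_one_iff I (ρ.ρ g)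

/-- residual triviality: `ρ.residual.ρ g = 1 ⇒ (ρ g − 1) V ⊆ 𝔪 V` -/
theorem rtpu_resTriv (ρ : GaloisRepAdic T) (g : RtpaG) (h : ρ.residual.ρ g = 1) (v : ρ.V) :
    ρ.ρ g v - v ∈ (maximalIdeal T • ⊤ : Submodule T ρ.V) := by
  have h1 : (ρ.ρ g).baseChange (ResidueField T) ((1 : ResidueField T) ⊗ₜ[T] v) =
      (1 : ResidueField T) ⊗ₜ[T] v := LinearMap.congr_fun h _
  rw [LinearMap.baseChange_tmul] at h1
  have h2 : (1 : T ⧸ maximalIdeal T) ⊗ₜ[T] (ρ.ρ g v - v) = 0 := by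
    rw [TensorProduct.tmul_sub]
    exact sub_eq_zero.mpr h1
  have h3 := congrArg (TensorProduct.quotTensorEquivQuotSMul ρ.V (maximalIdeal T)) h2
  rw [TensorProduct.quotTensorEquivQuotSMul_mk_one_tmul, map_zero] at h3
  exact (Submodule.Quotient.mk_eq_zero _).mp h3

/-- **Tameness of the action on `V ⧸ I V`**, `𝔪 ^ n ≤ I`. -/
theorem rtpu_isTameP (r p : ℕ) [Fact r.Prime] (hpT : (p : T) ∈ maximalIdeal T)
    (ρ : GaloisRepAdic T)
    (hres : ∀ τ ∈ (padicPlace r).inertiaSubgroupIn ℚ, ρ.residual.ρ τ = 1)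
    (I : Ideal T) (n : ℕ) (hI : maximalIdeal T ^ n ≤ I) : IsTameP r p (rtpuQ ρ I) := by
  refine ⟨?_, ?_⟩
  · obtain ⟨L, hL, hLρ⟩ := ρ.isAdicContinuous n
    refine ⟨L, hL, fun g hg => ?_⟩
    rw [rtpuQ_eq_one_iff]
    intro v
    exact Submodule.smul_mono_left hI (hLρ g hg v)
  · intro τ hτ
    refine ⟨n, ?_⟩
    have h1 : ρ.ρ τ - 1 ∈ rtk1wJ (maximalIdeal T) := fun v => rtpu_resTriv ρ τ (hres τ hτ) v
    have h2 := rtk1w_pow_sub_one hpT h1 n
    rw [← map_pow, rtpuQ_eq_one_iff]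
    intro v
    have h3 := h2 v
    rw [map_pow]
    have hle : maximalIdeal T ^ (n + 1) ≤ I :=
      (Ideal.pow_le_pow_right (Nat.le_succ n)).trans hI
    exact Submodule.smul_mono_left hle h3

/-- **PROD-unram.**  If the fixed generator `σ` of the tame inertia at `padicPlace r` acts
trivially modulo `𝔓` (in a basis `b`), then for every `n` the inertia groups at all the places
over `r` act trivially modulo `𝔓 + 𝔪 ^ n`. -/
theorem rtpu_hunr (p r : ℕ) [Fact p.Prime] [Fact r.Prime] (hpT : (p : T) ∈ maximalIdeal T)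
    (σ φ : RtpaG) (hloc : IsLocGenAt p r σ φ)
    (ρ : GaloisRepAdic T) (b : Module.Basis (Fin 2) T ρ.V)
    (hres : ∀ τ ∈ (padicPlace r).inertiaSubgroupIn ℚ, ρ.residual.ρ τ = 1)
    (𝔓 : Ideal T)
    (hσ : ∀ a c, (LinearMap.toMatrix b b (ρ.ρ σ) - 1) a c ∈ 𝔓) :
    ∀ n : ℕ, ∀ 𝔄 : ValuationSubring (AlgebraicClosure ℚ), 𝔄.LiesOverPrime r →
      ∀ τ ∈ 𝔄.inertiaSubgroupIn ℚ, ∀ v : ρ.V,
        ρ.ρ τ v - v ∈ ((𝔓 ⊔ maximalIdeal T ^ n) • ⊤ : Submodule T ρ.V) := by
  intro n 𝔄 h𝔄 τ hτ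
  rw [← rtpuQ_eq_one_iff]
  have htame : IsTameP r p (rtpuQ ρ (𝔓 ⊔ maximalIdeal T ^ n)) :=
    rtpu_isTameP r p hpT ρ hres _ n le_sup_right
  obtain ⟨hpow, -, -⟩ := hloc.univ _ (rtpuQ ρ (𝔓 ⊔ maximalIdeal T ^ n)) htame
  -- `σ` acts trivially
  have hσ1 : rtpuQ ρ (𝔓 ⊔ maximalIdeal T ^ n) σ = 1 := by
    rw [rtpuQ_eq_one_iff]
    intro v
    have h1 : (ρ.ρ σ - 1) v ∈ (𝔓 • ⊤ : Submodule T ρ.V) := by
      refine rtpu_mem_of_entries b 𝔓 (ρ.ρ σ - 1) (fun a c => ?_) v
      have e : LinearMap.toMatrix b b (ρ.ρ σ - 1) = LinearMap.toMatrix b b (ρ.ρ σ) - 1 := by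
        rw [map_sub, LinearMap.toMatrix_one]
      rw [e]
      exact hσ a c
    exact Submodule.smul_mono_left le_sup_left h1
  -- the inertia group at `padicPlace r` acts trivially
  have hI : ∀ τ' ∈ (padicPlace r).inertiaSubgroupIn ℚ,
      rtpuQ ρ (𝔓 ⊔ maximalIdeal T ^ n) τ' = 1 := by
    intro τ' hτ'
    obtain ⟨m, hm⟩ := hpow τ' hτ'
    rw [hm, hσ1, one_pow]
  -- the other places are conjugate
  obtain ⟨g, hg⟩ := Fermat.Agent.TW.S.sconjp_exists_smul_eq r (Fact.out : r.Prime) 𝔄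
    (padicPlace r) h𝔄 (Fermat.Agent.TW.L.lfrobex_liesOverPrime r)
  have h1 : g * τ * g⁻¹ ∈ (g • 𝔄).inertiaSubgroupIn ℚ :=
    Fermat.Agent.PT.B.conj_mem_inertiaSubgroupIn 𝔄 g τ hτ
  rw [hg] at h1
  have h2 := hI _ h1
  rw [map_mul, map_mul] at h2
  have h3 : rtpuQ ρ (𝔓 ⊔ maximalIdeal T ^ n) g⁻¹ * rtpuQ ρ (𝔓 ⊔ maximalIdeal T ^ n) g = 1 := by
    rw [← map_mul, inv_mul_cancel, map_one]
  have h4 : rtpuQ ρ (𝔓 ⊔ maximalIdeal T ^ n) g * rtpuQ ρ (𝔓 ⊔ maximalIdeal T ^ n) g⁻¹ = 1 := by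
    rw [← map_mul, mul_inv_cancel, map_one]
  calc rtpuQ ρ (𝔓 ⊔ maximalIdeal T ^ n) τ
      = (rtpuQ ρ (𝔓 ⊔ maximalIdeal T ^ n) g⁻¹ * rtpuQ ρ (𝔓 ⊔ maximalIdeal T ^ n) g) *
          rtpuQ ρ (𝔓 ⊔ maximalIdeal T ^ n) τ *
          (rtpuQ ρ (𝔓 ⊔ maximalIdeal T ^ n) g⁻¹ * rtpuQ ρ (𝔓 ⊔ maximalIdeal T ^ n) g) := by
        rw [h3, one_mul, mul_one]
    _ = rtpuQ ρ (𝔓 ⊔ maximalIdeal T ^ n) g⁻¹ *
          (rtpuQ ρ (𝔓 ⊔ maximalIdeal T ^ n) g * rtpuQ ρ (𝔓 ⊔ maximalIdeal T ^ n) τ *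
            rtpuQ ρ (𝔓 ⊔ maximalIdeal T ^ n) g⁻¹) * rtpuQ ρ (𝔓 ⊔ maximalIdeal T ^ n) g := by
        simp only [mul_assoc]
    _ = 1 := by rw [h2, mul_one, h3]

end Rep

section Fourth

variable {R : Type*} [CommRing R]

/-- **The fourth entry.**  `det Σ = 1` and three entries of `Σ − 1` in the prime `𝔓` ⇒ the
fourth entry lies in `𝔓`. -/
theorem rtpu_fourth (𝔓 : Ideal R) [𝔓.IsPrime] (Sig : Matrix (Fin 2) (Fin 2) R)
    (hdet : Sig.det = 1) (h00 : (Sig - 1) 0 0 ∈ 𝔓) (h01 : (Sig - 1) 0 1 ∈ 𝔓)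
    (_h10 : (Sig - 1) 1 0 ∈ 𝔓) : (Sig - 1) 1 1 ∈ 𝔓 := by
  rw [Matrix.det_fin_two] at hdet
  simp only [Matrix.sub_apply, Matrix.one_apply_eq, Matrix.one_apply_ne, ne_eq, zero_ne_one,
    not_false_eq_true, sub_zero] at h00 h01 ⊢
  have key : (Sig 1 1 - 1) * Sig 0 0 = Sig 0 1 * Sig 1 0 - (Sig 0 0 - 1) := by
    linear_combination hdet
  have hmem : (Sig 1 1 - 1) * Sig 0 0 ∈ 𝔓 := by
    rw [key]
    exact Ideal.sub_mem _ (Ideal.mul_mem_right _ _ h01) h00
  rcases Ideal.IsPrime.mem_or_mem inferInstance hmem with h | h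
  · exact h
  · exfalso
    apply (inferInstance : 𝔓.IsPrime).ne_top
    rw [Ideal.eq_top_iff_one]
    have : (1 : R) = Sig 0 0 - (Sig 0 0 - 1) := by ring
    rw [this]
    exact Ideal.sub_mem _ h h00

/-- all four entries -/
theorem rtpu_all_entries (𝔓 : Ideal R) [𝔓.IsPrime] (Sig : Matrix (Fin 2) (Fin 2) R)
    (hdet : Sig.det = 1) (h00 : (Sig - 1) 0 0 ∈ 𝔓) (h01 : (Sig - 1) 0 1 ∈ 𝔓)
    (h10 : (Sig - 1) 1 0 ∈ 𝔓) : ∀ a c, (Sig - 1) a c ∈ 𝔓 := by
  intro a c
  fin_cases a <;> fin_cases c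
  · exact h00
  · exact h01
  · exact h10
  · exact rtpu_fourth 𝔓 Sig hdet h00 h01 h10

end Fourth

end Fermat.Agent.RT.Prod


end ZBRT_005_5

/-! ### bundled: `Fermat.Agent.RT.K1.TameGen` -/
section ZBRT_005_6
/-
K-machine, piece LOC-gen (helper65): the wrapper `stmtLocGen_of : StmtLocGenLocal → StmtLocGen`
(local core ⇒ global monoid form at `padicPlace r`).
-/

set_option autoImplicit false
set_option linter.unusedSectionVars false
set_option linter.style.haveILetI false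

namespace Fermat.Agent.RT.K1

open Fermat.Agent.PT Fermat.Agent.PT.B Fermat.Agent.TW.L ExtCitation

section Grp

variable {B : Type} [Group B]

/-- `F S F⁻¹ = S ^ r` ⇒ `F S^m F⁻¹ = S^(r m)`. -/
theorem rtk1w_conj_pow {F S : B} {r : ℕ} (h : F * S * F⁻¹ = S ^ r) (m : ℕ) :
    F * S ^ m * F⁻¹ = S ^ (r * m) := by
  rw [pow_mul, ← h, conj_pow]

/-- `F S F⁻¹ = S ^ r` ⇒ `F^j S^m = S^(r^j m) F^j`. -/
theorem rtk1w_pow_mul_pow {F S : B} {r : ℕ} (h : F * S * F⁻¹ = S ^ r) (j m : ℕ) :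
    F ^ j * S ^ m = S ^ (r ^ j * m) * F ^ j := by
  induction j generalizing m with
  | zero => simp
  | succ j ih =>
    have h1 : F * S ^ (r ^ j * m) = S ^ (r * (r ^ j * m)) * F := by
      have := rtk1w_conj_pow h (r ^ j * m)
      rw [← this]
      group
    calc F ^ (j + 1) * S ^ m = F * (F ^ j * S ^ m) := by rw [pow_succ']; group
      _ = F * (S ^ (r ^ j * m) * F ^ j) := by rw [ih]
      _ = (F * S ^ (r ^ j * m)) * F ^ j := by group
      _ = S ^ (r * (r ^ j * m)) * F * F ^ j := by rw [h1]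
      _ = S ^ (r ^ (j + 1) * m) * F ^ (j + 1) := by
          rw [pow_succ' F, pow_succ' r, mul_assoc, mul_assoc]

end Grp

/-- **LOC-gen** from its local core. -/
theorem stmtLocGen_of (hloc : StmtLocGenLocal) : StmtLocGen := by
  intro r p _ _ hrp
  obtain ⟨σ', hσ', φ', hφ', huniv⟩ := hloc r p hrp
  refine ⟨localGaloisToGlobal r σ', (mem_inertiaQ r σ').1 hσ', localGaloisToGlobal r φ', hφ', ?_⟩
  intro M _ h ⟨⟨L, hL, hLh⟩, hp⟩
  set hB : GQq r →* Mˣ := h.toHomUnits.comp (localGaloisToGlobal r) with hBdef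
  have hBval : ∀ x : GQq r, ((hB x : Mˣ) : M) = h (localGaloisToGlobal r x) := fun x => rfl
  have hlev : ∃ V ∈ (towerLoc r).lev, ∀ v ∈ V, hB v = 1 := by
    refine ⟨L.fixingSubgroup.comap (localGaloisToGlobal r), ⟨L, hL, rfl⟩, fun v hv => ?_⟩
    apply Units.ext
    rw [hBval, Units.val_one]
    apply hLh
    intro x hx
    exact (IntermediateField.mem_fixingSubgroup_iff L _).1 hv x hx
  have hpow : ∀ x ∈ inertiaQ r, ∃ k : ℕ, hB x ^ (p ^ k) = 1 := by
    intro x hx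
    obtain ⟨k, hk⟩ := hp _ ((mem_inertiaQ r x).1 hx)
    refine ⟨k, Units.ext ?_⟩
    rw [Units.val_pow_eq_pow_val, hBval, hk, Units.val_one]
  obtain ⟨h1, h2, h3⟩ := huniv Mˣ hB hlev hpow
  have hID : (padicPlace r).inertiaSubgroupIn ℚ ≤ (padicPlace r).decompositionSubgroup ℚ := by
    rintro τ ⟨x, -, rfl⟩
    exact x.2
  refine ⟨fun τ hτ => ?_, fun τ hτ => ?_, ?_⟩
  · obtain ⟨τ', rfl⟩ := stmtDecFull r τ (hID hτ)
    obtain ⟨m, hm⟩ := h1 τ' hτ
    refine ⟨m, ?_⟩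
    rw [← hBval, hm, Units.val_pow_eq_pow_val, hBval]
  · obtain ⟨τ', rfl⟩ := stmtDecFull r τ hτ
    obtain ⟨j, m, hjm⟩ := h2 τ'
    refine ⟨r ^ j * m, j, ?_⟩
    rw [← hBval, hjm, rtk1w_pow_mul_pow h3, Units.val_mul, Units.val_pow_eq_pow_val,
      Units.val_pow_eq_pow_val, hBval, hBval]
  · have h4 : hB φ' * hB σ' = hB σ' ^ r * hB φ' := by
      rw [← h3]
      group
    have h5 := congrArg (Units.val) h4
    rw [Units.val_mul, Units.val_mul, Units.val_pow_eq_pow_val, hBval, hBval] at h5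
    exact h5

end Fermat.Agent.RT.K1


end ZBRT_005_6

/-! ### bundled: `Fermat.Agent.RT.K1.TameGenLoc` -/
section ZBRT_005_7
/-
K-machine, piece LOC-gen, LOCAL CORE (helper57): `stmtLocGenLocal : StmtLocGenLocal`.

For primes `r ≠ p`: `σ` := ANY element of the inertia group `I_r ⊂ G_{ℚ_r}` which moves a `p`-th
root `ϖ` of `r` (exists because an element of `ℚ̄_r` fixed by `I_r` has norm in `r^ℤ`,
`TW.W.wgr_unr`), `φ` := any Frobenius element.  No compactness is needed: for a homomorphism `h`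
of finite level with `h(I_r)` a `p`-group, the joint homomorphism
`H = (h, x ↦ x ϖ / ϖ) : I_r → B × μ_p` has finite exponent `p ^ K`; `TW.W.stmtTameGen` gives a
level generator `t` with `H(I_r) = ⟨H t⟩`; `H σ = (H t) ^ m₀` with `p ∤ m₀` since `σ ϖ ≠ ϖ`, so
`H t ∈ ⟨H σ⟩`.  The Frobenius relation is transported from `t` to `σ`, and `G_{ℚ_r}` is generated
by `φ` and `I_r` modulo every level (`TW.L.stmtFrobGen`).
-/

set_option autoImplicit false
set_option linter.unusedSectionVars false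
set_option linter.style.haveILetI false

noncomputable section

namespace Fermat.Agent.RT.K1

open Fermat.Agent.PT Fermat.Agent.PT.B Fermat.Agent.PT.L Fermat.Agent.TW.L Fermat.Agent.TW.W
  ExtCitation

section Core

variable (r : ℕ) [Fact r.Prime]

/-- a prime `p ≠ r` is a unit of `ℚ̄_r` -/
theorem rtk1t_norm_prime {p : ℕ} (hp : p.Prime) (hrp : r ≠ p) : ¬ ‖(p : PadicAlgCl r)‖ < 1 := by
  have h : (p : PadicAlgCl r) = algebraMap ℚ_[r] (PadicAlgCl r) ((p : ℤ) : ℚ_[r]) := by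
    rw [Int.cast_natCast, map_natCast]
  rw [h, norm_algebraMap', Padic.norm_intCast_lt_one_iff]
  intro hdvd
  have h1 : r ∣ p := by exact_mod_cast hdvd
  exact hrp ((Nat.prime_dvd_prime_iff_eq (Fact.out : r.Prime) hp).1 h1)

/-- `‖r‖ = r⁻¹` in `ℚ̄_r` -/
theorem rtk1t_norm_r : ‖(r : PadicAlgCl r)‖ = (r : ℝ)⁻¹ := by
  have h : (r : PadicAlgCl r) = algebraMap ℚ_[r] (PadicAlgCl r) (r : ℚ_[r]) := by
    rw [map_natCast]
  rw [h, norm_algebraMap', Padic.norm_p]

/-- a root of unity of `ℚ̄_r` has norm `1` -/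
theorem rtk1t_norm_root {n : ℕ} (hn : n ≠ 0) {u : PadicAlgCl r} (hu : u ^ n = 1) : ‖u‖ = 1 := by
  have h : ‖u‖ ^ n = 1 := by rw [← norm_pow, hu, norm_one]
  exact (pow_eq_one_iff_of_nonneg (norm_nonneg _) hn).1 h

/-- the `p`-th roots of unity are distinct modulo the maximal ideal of `ℚ̄_r` (`p ≠ r`) -/
theorem rtk1t_root_eq_one {p : ℕ} (hp : p.Prime) (hrp : r ≠ p) {u : PadicAlgCl r}
    (hu : u ^ p = 1) (hu1 : ‖u - 1‖ < 1) : u = 1 := by
  by_contra hne
  have hun : ‖u‖ ≤ 1 := (rtk1t_norm_root r hp.ne_zero hu).le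
  have hsum : ∑ i ∈ Finset.range p, u ^ i = 0 := by
    have h1 := mul_geom_sum u p
    rw [hu, sub_self] at h1
    rcases mul_eq_zero.1 h1 with h | h
    · exact absurd (sub_eq_zero.1 h) hne
    · exact h
  have h2 := wgr_omega_geom r hun hu1 p
  rw [hsum, zero_sub, norm_neg] at h2
  exact rtk1t_norm_prime r hp hrp h2

/-- the inertia group at `r` fixes the `p`-th roots of unity (`p ≠ r`) -/
theorem rtk1t_inert_fix_root {p : ℕ} (hp : p.Prime) (hrp : r ≠ p) {η : PadicAlgCl r}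
    (hη : η ^ p = 1) {x : GQq r} (hx : x ∈ inertiaQ r) : x η = η := by
  have hηn : ‖η‖ = 1 := rtk1t_norm_root r hp.ne_zero hη
  have hη0 : η ≠ 0 := by
    intro h
    rw [h, norm_zero] at hηn
    exact zero_ne_one hηn
  have h1 := (wgr_inert_iff r x).1 hx η hηn.le
  have hu : (x η / η) ^ p = 1 := by
    rw [div_pow, ← map_pow, hη, map_one, div_one]
  have hu1 : ‖x η / η - 1‖ < 1 := by
    have e : x η / η - 1 = (x η - η) / η := by field_simp
    rw [e, norm_div, hηn, div_one]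
    exact h1
  exact (div_eq_one_iff_eq hη0).1 (rtk1t_root_eq_one r hp hrp hu hu1)

/-- some element of the inertia group moves a `p`-th root of `r` -/
theorem rtk1t_exists_sigma {p : ℕ} (hp : p.Prime) {ϖ : PadicAlgCl r}
    (hϖ : ϖ ^ p = (r : PadicAlgCl r)) : ∃ σ ∈ inertiaQ r, σ ϖ ≠ ϖ := by
  by_contra hcon
  have hfix : ∀ τ ∈ inertiaQ r, τ ϖ = ϖ := fun τ hτ => by
    by_contra h
    exact hcon ⟨τ, hτ, h⟩
  have hr : r.Prime := Fact.out
  have hr0 : (r : PadicAlgCl r) ≠ 0 := by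
    intro h
    have := rtk1t_norm_r r
    rw [h, norm_zero] at this
    have hpos : (0 : ℝ) < (r : ℝ)⁻¹ := inv_pos.2 (by exact_mod_cast hr.pos)
    exact (ne_of_gt hpos) this.symm
  have hϖ0 : ϖ ≠ 0 := by
    intro h
    rw [h, zero_pow hp.ne_zero] at hϖ
    exact hr0 hϖ.symm
  obtain ⟨m, hm⟩ := wgr_unr r hϖ0 hfix
  have h1 : ‖ϖ‖ ^ p = (r : ℝ)⁻¹ := by rw [← norm_pow, hϖ, rtk1t_norm_r]
  have hr1 : (1 : ℝ) < r := by exact_mod_cast hr.one_lt
  have h2 : ((r : ℝ)) ^ (m * (p : ℤ)) = (r : ℝ) ^ (-1 : ℤ) := by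
    rw [zpow_mul, zpow_natCast, ← hm, h1, zpow_neg_one]
  have h3 : m * (p : ℤ) = -1 := zpow_right_injective₀ (by linarith) hr1.ne' h2
  have h4 : (p : ℤ) ∣ 1 := ⟨-m, by linear_combination h3⟩
  have h5 : (p : ℤ) ≤ 1 := Int.le_of_dvd one_pos h4
  have h6 : 2 ≤ p := hp.two_le
  omega

/-- the Kummer character `x ↦ x ϖ / ϖ` of the inertia group, `ϖ ^ p = r` -/
def rtk1tKum {p : ℕ} (hp : p.Prime) (hrp : r ≠ p) (ϖ : PadicAlgCl r) (hϖ0 : ϖ ≠ 0)
    (hϖ : ϖ ^ p = (r : PadicAlgCl r)) : ↥(inertiaQ r) →* (PadicAlgCl r)ˣ where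
  toFun x := Units.mk0 ((x : GQq r) ϖ / ϖ)
    (div_ne_zero ((map_ne_zero_iff _ (x : GQq r).injective).2 hϖ0) hϖ0)
  map_one' := by
    apply Units.ext
    show ((1 : GQq r)) ϖ / ϖ = 1
    rw [AlgEquiv.one_apply, div_self hϖ0]
  map_mul' x y := by
    apply Units.ext
    show ((x : GQq r) * (y : GQq r)) ϖ / ϖ = ((x : GQq r) ϖ / ϖ) * ((y : GQq r) ϖ / ϖ)
    have hy : ((y : GQq r) ϖ / ϖ) ^ p = 1 := by
      rw [div_pow, ← map_pow, hϖ, map_natCast, ← hϖ, div_self (pow_ne_zero _ hϖ0)]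
    have hfix := rtk1t_inert_fix_root r hp hrp hy x.2
    have e : (y : GQq r) ϖ = ((y : GQq r) ϖ / ϖ) * ϖ := by field_simp
    rw [AlgEquiv.mul_apply]
    conv_lhs => rw [e, map_mul, hfix]
    field_simp

theorem rtk1tKum_apply {p : ℕ} (hp : p.Prime) (hrp : r ≠ p) (ϖ : PadicAlgCl r) (hϖ0 : ϖ ≠ 0)
    (hϖ : ϖ ^ p = (r : PadicAlgCl r)) (x : ↥(inertiaQ r)) :
    ((rtk1tKum r hp hrp ϖ hϖ0 hϖ x : (PadicAlgCl r)ˣ) : PadicAlgCl r) = (x : GQq r) ϖ / ϖ := rfl

theorem rtk1tKum_pow {p : ℕ} (hp : p.Prime) (hrp : r ≠ p) (ϖ : PadicAlgCl r) (hϖ0 : ϖ ≠ 0)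
    (hϖ : ϖ ^ p = (r : PadicAlgCl r)) (x : ↥(inertiaQ r)) :
    (rtk1tKum r hp hrp ϖ hϖ0 hϖ x) ^ p = 1 := by
  apply Units.ext
  rw [Units.val_pow_eq_pow_val, rtk1tKum_apply, Units.val_one, div_pow, ← map_pow, hϖ,
    map_natCast, ← hϖ, div_self (pow_ne_zero _ hϖ0)]

theorem rtk1tKum_eq_one_iff {p : ℕ} (hp : p.Prime) (hrp : r ≠ p) (ϖ : PadicAlgCl r)
    (hϖ0 : ϖ ≠ 0) (hϖ : ϖ ^ p = (r : PadicAlgCl r)) (x : ↥(inertiaQ r)) :
    rtk1tKum r hp hrp ϖ hϖ0 hϖ x = 1 ↔ (x : GQq r) ϖ = ϖ := by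
  constructor
  · intro h
    have h1 := congrArg (fun u : (PadicAlgCl r)ˣ => (u : PadicAlgCl r)) h
    simp only [rtk1tKum_apply, Units.val_one] at h1
    exact (div_eq_one_iff_eq hϖ0).1 h1
  · intro h
    apply Units.ext
    rw [rtk1tKum_apply, h, div_self hϖ0, Units.val_one]

end Core

/-- in a group: `a = b ^ m₀`, `b ^ N = 1`, `m₀` prime to `N` ⇒ `b` is a power of `a` -/
theorem rtk1t_pow_of_coprime {A : Type*} [Group A] {a b : A} {m₀ N : ℕ} (hab : a = b ^ m₀)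
    (hb : b ^ N = 1) (hcop : Nat.Coprime m₀ N) : ∃ m₁ : ℕ, b = a ^ m₁ := by
  rcases Nat.lt_or_ge 1 N with h1 | h1
  · obtain ⟨m₁, -, hm₁⟩ := Nat.exists_mul_mod_eq_one_of_coprime hcop h1
    refine ⟨m₁, ?_⟩
    rw [hab, ← pow_mul, pow_eq_pow_mod (m₀ * m₁) hb, hm₁, pow_one]
  · rcases Nat.eq_zero_or_pos N with h0 | h0
    · rw [h0, Nat.coprime_zero_right] at hcop
      exact ⟨1, by rw [hab, hcop, pow_one, pow_one]⟩
    · have hN : N = 1 := by omega
      rw [hN, pow_one] at hb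
      exact ⟨0, by rw [pow_zero, hb]⟩

/-- **LOC-gen, local core.** -/
theorem stmtLocGenLocal : StmtLocGenLocal := by
  intro r p _ _ hrp
  have hr : r.Prime := Fact.out
  have hp : p.Prime := Fact.out
  -- a `p`-th root of `r`, coming from `ℚ̄`
  obtain ⟨ϖ₀, hϖ₀⟩ := IsAlgClosed.exists_pow_nat_eq ((r : ℕ) : AlgebraicClosure ℚ) hp.pos
  have hϖ : (padicEmbedding r ϖ₀) ^ p = (r : PadicAlgCl r) := by
    rw [← map_pow, hϖ₀, map_natCast]
  have hr0 : (r : PadicAlgCl r) ≠ 0 := by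
    intro h
    have h1 := rtk1t_norm_r r
    rw [h, norm_zero] at h1
    have hpos : (0 : ℝ) < (r : ℝ)⁻¹ := inv_pos.2 (by exact_mod_cast hr.pos)
    exact (ne_of_gt hpos) h1.symm
  have hϖ0 : padicEmbedding r ϖ₀ ≠ 0 := by
    intro h
    rw [h, zero_pow hp.ne_zero] at hϖ
    exact hr0 hϖ.symm
  obtain ⟨σ, hσ, hσϖ⟩ := rtk1t_exists_sigma r hp hϖ
  obtain ⟨φ, hφ⟩ := stmtFrobExists r
  refine ⟨σ, hσ, φ, hφ, ?_⟩
  intro B _ h hlev hpg
  obtain ⟨V, hV, hVh⟩ := hlev
  -- the level of `ϖ`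
  have hint : IsIntegral ℚ ϖ₀ :=
    ((AlgebraicClosure.isAlgebraic ℚ).isAlgebraic ϖ₀).isIntegral
  haveI hfd : FiniteDimensional ℚ (IntermediateField.adjoin ℚ {ϖ₀}) :=
    IntermediateField.adjoin.finiteDimensional hint
  have hV₁ : (IntermediateField.adjoin ℚ {ϖ₀}).fixingSubgroup.comap (localGaloisToGlobal r) ∈
      (towerLoc r).lev := ⟨_, hfd, rfl⟩
  have hV₁fix : ∀ x : GQq r,
      x ∈ (IntermediateField.adjoin ℚ {ϖ₀}).fixingSubgroup.comap (localGaloisToGlobal r) →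
      x (padicEmbedding r ϖ₀) = padicEmbedding r ϖ₀ := by
    intro x hx
    have h1 := (IntermediateField.mem_fixingSubgroup_iff _ _).1 (Subgroup.mem_comap.1 hx) ϖ₀
      (IntermediateField.mem_adjoin_simple_self ℚ ϖ₀)
    rw [← padicEmbedding_localGaloisToGlobal]
    exact congrArg _ h1
  have hV' := (towerLoc r).inf_mem _ _ hV hV₁
  -- the joint homomorphism
  let g : ↥(inertiaQ r) →* (PadicAlgCl r)ˣ := rtk1tKum r hp hrp (padicEmbedding r ϖ₀) hϖ0 hϖ
  let H : ↥(inertiaQ r) →* B × (PadicAlgCl r)ˣ := (h.comp (inertiaQ r).subtype).prod g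
  have hH1 : ∀ x : ↥(inertiaQ r), (H x).1 = h (x : GQq r) := fun x => rfl
  have hH2 : ∀ x : ↥(inertiaQ r), (H x).2 = g x := fun x => rfl
  have hHtriv : ∀ x : ↥(inertiaQ r), (x : GQq r) ∈
      V ⊓ (IntermediateField.adjoin ℚ {ϖ₀}).fixingSubgroup.comap (localGaloisToGlobal r) →
      H x = 1 := by
    intro x hx
    refine Prod.ext ?_ ?_
    · rw [hH1]
      exact hVh _ hx.1
    · rw [hH2]
      exact (rtk1tKum_eq_one_iff r hp hrp _ hϖ0 hϖ x).2 (hV₁fix _ hx.2)
  -- the range is a finite `p`-group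
  haveI hfi : (V ⊓ (IntermediateField.adjoin ℚ {ϖ₀}).fixingSubgroup.comap
      (localGaloisToGlobal r)).FiniteIndex := (towerLoc r).finiteIndex _ hV'
  haveI hfi2 : ((V ⊓ (IntermediateField.adjoin ℚ {ϖ₀}).fixingSubgroup.comap
      (localGaloisToGlobal r)).subgroupOf (inertiaQ r)).FiniteIndex := inferInstance
  have hle : (V ⊓ (IntermediateField.adjoin ℚ {ϖ₀}).fixingSubgroup.comap
      (localGaloisToGlobal r)).subgroupOf (inertiaQ r) ≤ H.ker := by
    intro x hx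
    rw [MonoidHom.mem_ker]
    exact hHtriv x (Subgroup.mem_subgroupOf.1 hx)
  haveI hfi3 : H.ker.FiniteIndex := Subgroup.finiteIndex_of_le hle
  haveI hfinq : Finite (↥(inertiaQ r) ⧸ H.ker) := inferInstance
  haveI hfinA : Finite H.range :=
    Finite.of_equiv _ (QuotientGroup.quotientKerEquivRange H).toEquiv
  have hpgA : IsPGroup p H.range := by
    rintro ⟨a, x, rfl⟩
    obtain ⟨k, hk⟩ := hpg (x : GQq r) x.2
    refine ⟨k + 1, Subtype.ext ?_⟩
    show (H x) ^ p ^ (k + 1) = 1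
    refine Prod.ext ?_ ?_
    · show (H x).1 ^ p ^ (k + 1) = 1
      rw [hH1, pow_succ, pow_mul, hk, one_pow]
    · show (H x).2 ^ p ^ (k + 1) = 1
      rw [hH2, pow_succ, mul_comm, pow_mul, rtk1tKum_pow, one_pow]
  obtain ⟨K, hK⟩ := IsPGroup.iff_card.1 hpgA
  have hexp : ∀ a : H.range, a ^ p ^ K = 1 := fun a => by
    rw [← hK]
    exact pow_card_eq_one'
  have hcopr : Nat.Coprime r (p ^ K) := Nat.Coprime.pow_right K ((Nat.coprime_primes hr hp).2 hrp)
  obtain ⟨t, ht⟩ := stmtTameGen r (p ^ K) hcopr _ hV'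
  obtain ⟨hgen, hfrob⟩ := ht H.range H.rangeRestrict hexp (fun x hx => by
    apply Subtype.ext
    show H x = 1
    exact hHtriv x hx)
  -- `σ` against the level generator `t`
  obtain ⟨m₀, hm₀⟩ := hgen ⟨σ, hσ⟩
  have hm₀' : H ⟨σ, hσ⟩ = H t ^ m₀ := by
    have := congrArg (fun a : H.range => (a : B × (PadicAlgCl r)ˣ)) hm₀
    simpa using this
  have hpm₀ : ¬ p ∣ m₀ := by
    rintro ⟨c, hc⟩
    have h1 : g ⟨σ, hσ⟩ = 1 := by
      have h2 := congrArg Prod.snd hm₀'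
      rw [hH2, Prod.pow_snd, hH2, hc, pow_mul, rtk1tKum_pow, one_pow] at h2
      exact h2
    exact hσϖ ((rtk1tKum_eq_one_iff r hp hrp _ hϖ0 hϖ ⟨σ, hσ⟩).1 h1)
  have hcop : Nat.Coprime m₀ (p ^ K) :=
    Nat.Coprime.pow_right K ((Nat.Prime.coprime_iff_not_dvd hp).2 hpm₀).symm
  obtain ⟨m₁, hm₁⟩ := rtk1t_pow_of_coprime hm₀ (hexp _) hcop
  -- (i)
  have hI : ∀ x ∈ inertiaQ r, ∃ m : ℕ, h x = h σ ^ m := by
    intro x hx
    obtain ⟨m, hm⟩ := hgen ⟨x, hx⟩
    refine ⟨m₁ * m, ?_⟩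
    rw [hm₁, ← pow_mul] at hm
    have h1 : (H ⟨x, hx⟩).1 = (H ⟨σ, hσ⟩).1 ^ (m₁ * m) := by
      have := congrArg (fun a : H.range => (a : B × (PadicAlgCl r)ˣ).1) hm
      simpa using this
    exact h1
  refine ⟨hI, ?_, ?_⟩
  · -- (ii)
    intro x
    obtain ⟨j, i, v, hi, hv, hx⟩ := stmtFrobGen r φ hφ V hV x
    obtain ⟨m, hm⟩ := hI i hi
    refine ⟨j, m, ?_⟩
    rw [hx, map_mul, map_mul, map_pow, hVh v hv, mul_one, hm]
  · -- (iii)
    have hmem : φ * (t : GQq r) * φ⁻¹ ∈ inertiaQ r :=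
      (wgr_inertiaQ_normal r).conj_mem _ t.2 φ
    have h1 := hfrob φ hφ hmem
    have h2 : h (φ * (t : GQq r) * φ⁻¹) = h (t : GQq r) ^ r := by
      have h2' : (H ⟨φ * (t : GQq r) * φ⁻¹, hmem⟩).1 = (H t).1 ^ r := by
        have := congrArg (fun a : H.range => (a : B × (PadicAlgCl r)ˣ).1) h1
        simpa using this
      exact h2'
    have h3 : h σ = h (t : GQq r) ^ m₀ := by
      have h3' : (H ⟨σ, hσ⟩).1 = (H t).1 ^ m₀ := by
        have := congrArg Prod.fst hm₀'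
        simpa using this
      exact h3'
    rw [h3, ← conj_pow, ← map_inv, ← map_mul, ← map_mul, h2, ← pow_mul, ← pow_mul, mul_comm]

end Fermat.Agent.RT.K1

end
end ZBRT_005_7

/-! ### bundled: `Fermat.Agent.RT.K1.TameGenFinal` -/
section ZBRT_005_8
/-
K-machine, piece LOC-gen, FINAL (helper65 + helper57): `stmtLocGen : StmtLocGen`, unconditional.

`stmtLocGen_of` (RT/K1/TameGen.lean, helper65) transports the local statement to `GQ`;
`stmtLocGenLocal` (RT/K1/TameGenLoc.lean, helper57) is the local core.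
-/

set_option autoImplicit false

namespace Fermat.Agent.RT.K1

/-- LOC-gen: for primes `r ≠ p` there are `σ ∈ I_r` and a Frobenius `φ` which generate, modulo
every finite level with `p`-group inertia image, the image of the decomposition group, with the
tame relation `φ σ φ⁻¹ = σ ^ r`. -/
theorem stmtLocGen : StmtLocGen := stmtLocGen_of stmtLocGenLocal

end Fermat.Agent.RT.K1


end ZBRT_005_8

/-! ### bundled: `Fermat.Agent.RT.Prod.HypFrey` -/
section ZBRT_005_9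

/-!
# K-machine, PROD-hyp (helper69), part FREY: ramification of the residual Frey representation

`P` a Frey package, `ρ̄₁ = (tateRepInt P.freyCurveInt _ P.p).residual` (over the residue field of
`ℤ_p`):

* `rtph_frey_one_iff`, `rtph_frey_neg_one_iff` : `ρ̄₁(σ) = ±1` iff `σ` acts as `±1` on `E[p]`;
* `rtph_frey_unram` : `ρ̄₁` is unramified at the odd primes `q ≠ p` (S05);
* `rtph_frey_ram2`  : `ρ̄₁` is RAMIFIED at `2` (helper85's `ribmp_aux_ramified_two`);
* `rtph_frey_hmin`  : the field `hmin` of `TWHyp` for `Smin = {2, p}`;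
* `rtph_frey_triv`  : at a trivial prime `r` (`RIB.IsTrivialPrime`), every element of every
  decomposition group over `r` acts as `±1` (LOC-gen + conjugacy of the places over `r`).
-/

set_option autoImplicit false

namespace Fermat.Agent.RT.Prod

open WeierstrassCurve WeierstrassCurve.Affine WeierstrassCurve.Affine.Point Fermat.Agent.EC
open Fermat.Agent.S04 ExtCitation
open scoped Pointwise

/-- `ℚ̄` -/
local notation "Qbar" => AlgebraicClosure ℚ
/-- `G_ℚ` -/
local notation "GQ" => (AlgebraicClosure ℚ ≃ₐ[ℚ] AlgebraicClosure ℚ)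

/-- transport of a statement on `E[p]` along an equality of curves -/
theorem rtph_transport {E E' : WeierstrassCurve ℚ} (h : E = E') (p : ℕ) (σ : GQ) (c : ℤ) :
    (∀ x : Submodule.torsionBy ℤ (E⁄Qbar).Point (p : ℤ), σ • x = c • x) ↔
      ∀ x : Submodule.torsionBy ℤ (E'⁄Qbar).Point (p : ℤ), σ • x = c • x := by
  subst h
  rfl

section Frey

variable (P : FreyPackage) [hpF : Fact P.p.Prime]

/-- the residual representation of the Frey curve (over the residue field of `ℤ_p`) -/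
noncomputable abbrev rtphRho : ResidualGaloisRep (IsLocalRing.ResidueField ℤ_[P.p]) :=
  (tateRepInt P.freyCurveInt (freyCurveInt_Δ_ne_zero P) P.p).residual

theorem rtph_frey_one_iff (σ : GQ) :
    (rtphRho P).ρ σ = 1 ↔
      ∀ x : Submodule.torsionBy ℤ (P.freyCurve⁄Qbar).Point (P.p : ℤ), σ • x = x := by
  have h := rtph_res_eq_one_iff (P.freyCurveInt.map (Int.castRingHom ℚ))
    (tate_map_Δ_ne_zero _ (freyCurveInt_Δ_ne_zero P)) P.p σ
  have h' := rtph_transport (freyCurveInt_map P) P.p σ 1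
  simp only [one_smul] at h'
  exact h.trans h'

theorem rtph_frey_neg_one_iff (σ : GQ) :
    (rtphRho P).ρ σ = -1 ↔
      ∀ x : Submodule.torsionBy ℤ (P.freyCurve⁄Qbar).Point (P.p : ℤ), σ • x = -x := by
  have h := rtph_res_eq_neg_one_iff (P.freyCurveInt.map (Int.castRingHom ℚ))
    (tate_map_Δ_ne_zero _ (freyCurveInt_Δ_ne_zero P)) P.p σ
  have h' := rtph_transport (freyCurveInt_map P) P.p σ (-1)
  simp only [neg_smul, one_smul] at h'
  exact h.trans h'

/-- `ρ̄₁` is unramified at the odd primes `q ≠ p`. -/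
theorem rtph_frey_unram {q : ℕ} (hq : q.Prime) (hq2 : q ≠ 2) (hqp : q ≠ P.p) :
    (rtphRho P).IsUnramifiedAt q := by
  intro A hA σ hσ
  rw [rtph_frey_one_iff]
  exact fun x => Fermat.Agent.S05.result P hq hq2 hqp A hA σ hσ x

/-- `ρ̄₁` is ramified at `2`. -/
theorem rtph_frey_ram2 : ¬ (rtphRho P).IsUnramifiedAt 2 := by
  intro h
  obtain ⟨A, hA⟩ := Fermat.Agent.Common.exists_liesOverPrime 2 Nat.prime_two
  obtain ⟨σ, hσ, x, hx⟩ := Fermat.Agent.RIB.MP.ribmp_aux_ramified_two P A hA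
  exact hx ((rtph_frey_one_iff P σ).1 (h A hA σ hσ) x)

/-- the field `hmin` of `TWHyp` for `Smin = {2, p}`. -/
theorem rtph_frey_hmin (q : ℕ) (hq : q.Prime) (hqp : q ≠ P.p) :
    q ∈ ({2, P.p} : Finset ℕ) ↔ ¬ (rtphRho P).IsUnramifiedAt q := by
  constructor
  · intro h
    rw [Finset.mem_insert, Finset.mem_singleton] at h
    rcases h with rfl | h
    · exact rtph_frey_ram2 P
    · exact absurd h hqp
  · intro h
    by_contra hq2
    rw [Finset.mem_insert, Finset.mem_singleton, not_or] at hq2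
    exact h (rtph_frey_unram P hq hq2.1 hqp)

/-- conjugates of elements of a decomposition group -/
theorem rtph_conj_mem_decomp (A : ValuationSubring Qbar) (g σ : GQ)
    (hσ : σ ∈ A.decompositionSubgroup ℚ) : g * σ * g⁻¹ ∈ (g • A).decompositionSubgroup ℚ := by
  have h1 : σ • A = A := hσ
  show (g * σ * g⁻¹) • (g • A) = g • A
  rw [mul_smul, mul_smul, inv_smul_smul, h1]

/-- At a trivial prime, every element of every decomposition group acts as `±1`. -/
theorem rtph_frey_triv {r : ℕ} (hr : Fermat.Agent.RIB.IsTrivialPrime P r) (hr2 : r ≠ 2)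
    (A : ValuationSubring Qbar) (hA : A.LiesOverPrime r) (σ : GQ)
    (hσ : σ ∈ A.decompositionSubgroup ℚ) :
    (rtphRho P).ρ σ = 1 ∨ (rtphRho P).ρ σ = -1 := by
  obtain ⟨hrp, hrne, -, ε, hε, hfrob⟩ := hr
  have : Fact r.Prime := ⟨hrp⟩
  have hlies := Fermat.Agent.TW.L.lfrobex_liesOverPrime r
  obtain ⟨σ₀, hσ₀, φ, hφ, huniv⟩ := Fermat.Agent.RT.K1.stmtLocGen r P.p hrne
  have hunr := rtph_frey_unram P hrp hr2 hrne
  have htame : Fermat.Agent.RT.K1.IsTameP r P.p (rtphRho P).ρ :=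
    ⟨(rtphRho P).factorsThroughFiniteLevel, fun τ hτ =>
      ⟨0, by rw [pow_zero, pow_one]; exact hunr _ hlies τ hτ⟩⟩
  obtain ⟨-, hD, -⟩ := huniv _ (rtphRho P).ρ htame
  have hσ₀1 : (rtphRho P).ρ σ₀ = 1 := hunr _ hlies σ₀ hσ₀
  have hφε : (rtphRho P).ρ φ = 1 ∨ (rtphRho P).ρ φ = -1 := by
    rcases hε with rfl | rfl
    · left
      rw [rtph_frey_one_iff]
      intro x
      have := hfrob _ hlies φ hφ x
      rwa [one_smul] at this
    · right
      rw [rtph_frey_neg_one_iff]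
      intro x
      have := hfrob _ hlies φ hφ x
      rwa [neg_smul, one_smul] at this
  obtain ⟨g, hg⟩ := Fermat.Agent.TW.S.sconjp_exists_smul_eq r hrp A (padicPlace r) hA hlies
  have hτ : g * σ * g⁻¹ ∈ (padicPlace r).decompositionSubgroup ℚ := by
    have := rtph_conj_mem_decomp A g σ hσ
    rwa [hg] at this
  obtain ⟨m, n, hmn⟩ := hD _ hτ
  rw [hσ₀1, one_pow, one_mul] at hmn
  have hpm : (rtphRho P).ρ (g * σ * g⁻¹) = 1 ∨ (rtphRho P).ρ (g * σ * g⁻¹) = -1 := by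
    rw [hmn]
    rcases hφε with h | h
    · left; rw [h, one_pow]
    · rw [h]
      rcases neg_one_pow_eq_or
          (Module.End (IsLocalRing.ResidueField ℤ_[P.p]) (rtphRho P).V) n with h' | h'
      · left; exact h'
      · right; exact h'
  have hσeq : (rtphRho P).ρ σ
      = (rtphRho P).ρ g⁻¹ * (rtphRho P).ρ (g * σ * g⁻¹) * (rtphRho P).ρ g := by
    rw [← map_mul, ← map_mul]
    congr 1
    group
  have hinv : (rtphRho P).ρ g⁻¹ * (rtphRho P).ρ g = 1 := by
    rw [← map_mul, inv_mul_cancel, map_one]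
  rcases hpm with h | h
  · left
    rw [hσeq, h, mul_one, hinv]
  · right
    rw [hσeq, h, mul_neg, mul_one, neg_mul, hinv]

end Frey

end Fermat.Agent.RT.Prod


end ZBRT_005_9
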