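/- GENERATED FILE (helper35, build-time optimisation, NOTES/ZB.md): verbatim concatenation of the modules
   Fermat.Agent.RT.K7.PseudoFam
   Fermat.Agent.RT.K7.PlanInst
   Fermat.Agent.RT.K7.Transfer
   Fermat.Agent.RT.K7.TransferFin
   Fermat.Agent.RT.K7.Flat32
   Fermat.Agent.RT.K7.PlanMain
   Fermat.Agent.RT.K7.Inst
   Fermat.Agent.RT.K7.Uniq
   Fermat.Agent.RT.K7.Fin
   Fermat.Agent.RT.K7.Main
   Fermat.Agent.RT.K7.MainFinal
   Fermat.Agent.RT.Hecke.Compat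
   Fermat.Agent.RT.Prod.HaBase
   Do not edit; do not import together with these modules. -/
import Mathlib
import Fermat.Agent.ZB.S30_001
import Fermat.Agent.ZB.Cheb_001
import Fermat.Agent.ZB.S36_010
import Fermat.Agent.ZB.S32_002
import Fermat.Agent.ZB.S32_003
import Fermat.Agent.ZB.Cheb_002
import Fermat.Agent.ZB.S53_001
import Fermat.Agent.ZB.TW_007

/-! ### bundled: `Fermat.Agent.RT.K7.PseudoFam` -/
section ZBRT_018_0

/-!
# K-machine, piece K7b (abstract part): the pseudo-character of a compatible family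

Abstract form of `S30/PseudoChar.lean`, with a determinant which is an operator (diamonds).

* `G` a group, `𝕋` a commutative ring ("Hecke–diamond polynomials"), `J` an abelian group with
  commuting actions of `G` and `𝕋`; the levels are `J[pⁿ] = {x | pⁿ • x = 0}`.
* `B ⊆ 𝕋` the subring of the allowed polynomials (good variables), `D n g ∈ B` the determinant of
  `g` at level `n` (in the application `D n g = cycE p n g · δ_{c(g)}⁻¹`).
* `Rtk7bApprox p J D n g h` : `h` represents `g + D(g) g⁻¹` on `J[pⁿ]`.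
* `Rtk7bFam` : the axioms of the family (every `g` has a representative in `B` at every level).
* `π : 𝕋 →+* T`, `T` `I`-adically complete, `p ∈ I`; `Rtk7bGood` : faithfulness at precision `k`.

`rtk7b_exists` : there is `t : G → T`, the limit of the `π`-values of the representatives;
`rtk7b_pseudo` : `t 1 = 2`, `t (x y) = t (y x)`, `t (x y) + ε y · t (x y⁻¹) = t x · t y`;
`rtk7b_same`, `rtk7b_value` : the two principles by which the consumer computes `t`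
(Frobenius values, invariance under inertia, continuity).

Mathlib only.
-/

set_option autoImplicit false

namespace Fermat.Agent.RT

section Approx

variable (p : ℕ) {G 𝕋 : Type*} [Group G] [CommRing 𝕋] (J : Type*) [AddCommGroup J]
  [Module 𝕋 J] [DistribMulAction G J] (D : ℕ → G → 𝕋)

/-- `h` represents the operator `g + D(g) g⁻¹` on `J[pⁿ]`. -/
def Rtk7bApprox (n : ℕ) (g : G) (h : 𝕋) : Prop :=
  ∀ x : J, p ^ n • x = 0 → g • x + D n g • g⁻¹ • x = h • x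

/-- **The axioms of a compatible family.** -/
structure Rtk7bFam (B : Subring 𝕋) : Prop where
  /-- the two actions commute -/
  smul_comm : ∀ (g : G) (h : 𝕋) (x : J), g • h • x = h • g • x
  D_mem : ∀ n g, D n g ∈ B
  D_one : ∀ (n : ℕ) (x : J), p ^ n • x = 0 → D n 1 • x = x
  D_mul : ∀ (n : ℕ) (g h : G) (x : J), p ^ n • x = 0 → D n (g * h) • x = D n g • D n h • x
  D_restrict : ∀ (n n' : ℕ), n' ≤ n → ∀ (g : G) (x : J), p ^ n' • x = 0 →
    D n g • x = D n' g • x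
  /-- every `g` has a representative at every level -/
  approx : ∀ (n : ℕ) (g : G), ∃ h ∈ B, Rtk7bApprox p J D n g h

variable {p J D}

omit [DistribMulAction G J] in
theorem rtk7b_tors_hecke (n : ℕ) (h : 𝕋) {x : J} (hx : p ^ n • x = 0) :
    p ^ n • (h • x) = 0 := by
  rw [smul_comm, hx, smul_zero]

omit [Module 𝕋 J] in
theorem rtk7b_tors_gal (n : ℕ) (g : G) {x : J} (hx : p ^ n • x = 0) :
    p ^ n • (g • x) = 0 := by
  rw [smul_comm, hx, smul_zero]

omit [Module 𝕋 J] [DistribMulAction G J] in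
theorem rtk7b_tors_le {n' n : ℕ} (h : n' ≤ n) {x : J} (hx : p ^ n' • x = 0) :
    p ^ n • x = 0 := by
  obtain ⟨d, rfl⟩ := Nat.exists_eq_add_of_le h
  rw [pow_add, mul_comm, mul_smul, hx, smul_zero]

theorem rtk7b_approx_one {B : Subring 𝕋} (hF : Rtk7bFam p J D B) (n : ℕ) :
    Rtk7bApprox p J D n (1 : G) 2 := by
  intro x hx
  rw [one_smul, inv_one, one_smul, hF.D_one n x hx, two_smul]

theorem rtk7b_approx_restrict {B : Subring 𝕋} (hF : Rtk7bFam p J D B) {n' n : ℕ}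
    (hn : n' ≤ n) {g : G} {h : 𝕋} (H : Rtk7bApprox p J D n g h) :
    Rtk7bApprox p J D n' g h := by
  intro x hx
  rw [← H x (rtk7b_tors_le hn hx), hF.D_restrict n n' hn g _ (rtk7b_tors_gal n' g⁻¹ hx)]

/-- `D n` is invariant under conjugation, on `J[pⁿ]` -/
theorem rtk7b_D_conj {B : Subring 𝕋} (hF : Rtk7bFam p J D B) (n : ℕ) (y g : G) {x : J}
    (hx : p ^ n • x = 0) : D n (y * g * y⁻¹) • x = D n g • x := by
  have h1 : D n y • D n y⁻¹ • x = x := by
    rw [← hF.D_mul n y y⁻¹ x hx, mul_inv_cancel, hF.D_one n x hx]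
  calc D n (y * g * y⁻¹) • x = D n y • D n g • D n y⁻¹ • x := by
        rw [hF.D_mul n (y * g) y⁻¹ x hx, hF.D_mul n y g _ (rtk7b_tors_hecke n _ hx)]
    _ = D n g • D n y • D n y⁻¹ • x := by
        rw [smul_smul, smul_smul, smul_smul, smul_smul]
        congr 1; ring
    _ = D n g • x := by rw [h1]

/-- `D n y · D n (x y⁻¹) = D n x` on `J[pⁿ]` -/
theorem rtk7b_D_cancel {B : Subring 𝕋} (hF : Rtk7bFam p J D B) (n : ℕ) (x y : G) {z : J}
    (hz : p ^ n • z = 0) : D n y • D n (x * y⁻¹) • z = D n x • z := by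
  have h1 : D n y • D n y⁻¹ • z = z := by
    rw [← hF.D_mul n y y⁻¹ z hz, mul_inv_cancel, hF.D_one n z hz]
  calc D n y • D n (x * y⁻¹) • z = D n y • D n x • D n y⁻¹ • z := by
        rw [hF.D_mul n x y⁻¹ z hz]
    _ = D n x • D n y • D n y⁻¹ • z := by
        rw [smul_smul, smul_smul, smul_smul, smul_smul]
        congr 1; ring
    _ = D n x • z := by rw [h1]

theorem rtk7b_approx_conj {B : Subring 𝕋} (hF : Rtk7bFam p J D B) {n : ℕ} {g : G} {h : 𝕋}
    (H : Rtk7bApprox p J D n g h) (y : G) : Rtk7bApprox p J D n (y * g * y⁻¹) h := by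
  intro x hx
  have h1 := H (y⁻¹ • x) (rtk7b_tors_gal n y⁻¹ hx)
  have h2 := congrArg (fun w => y • w) h1
  simp only [smul_add] at h2
  rw [hF.smul_comm y h, smul_inv_smul, hF.smul_comm y (D n g)] at h2
  rw [← h2, rtk7b_D_conj hF n y g (rtk7b_tors_gal n _ hx), mul_inv_rev, mul_inv_rev, inv_inv,
    mul_smul, mul_smul, mul_smul, mul_smul]

/-- if `σ` acts trivially on `J[pⁿ]` and `D n σ` acts trivially, then `σ g` and `g` have the
same representatives -/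
theorem rtk7b_approx_mul_left_of_trivial {B : Subring 𝕋} (hF : Rtk7bFam p J D B) {n : ℕ}
    {σ g : G} {h : 𝕋} (hσ : ∀ x : J, p ^ n • x = 0 → σ • x = x)
    (hσD : ∀ x : J, p ^ n • x = 0 → D n σ • x = x)
    (H : Rtk7bApprox p J D n g h) : Rtk7bApprox p J D n (σ * g) h := by
  intro x hx
  have hσinv : σ⁻¹ • x = x := by
    have := hσ x hx
    rw [← this, inv_smul_smul, this]
  rw [mul_smul, hσ _ (rtk7b_tors_gal n g hx), mul_inv_rev, mul_smul, hσinv,
    hF.D_mul n σ g _ (rtk7b_tors_gal n g⁻¹ hx),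
    hσD _ (rtk7b_tors_hecke n _ (rtk7b_tors_gal n g⁻¹ hx))]
  exact H x hx

/-- the pseudo-character identity at finite level -/
theorem rtk7b_approx_mul {B : Subring 𝕋} (hF : Rtk7bFam p J D B) {n : ℕ} {x y : G}
    {hx hy hxy hxy' : 𝕋}
    (Hx : Rtk7bApprox p J D n x hx) (Hy : Rtk7bApprox p J D n y hy)
    (Hxy : Rtk7bApprox p J D n (x * y) hxy) (Hxy' : Rtk7bApprox p J D n (x * y⁻¹) hxy')
    (z : J) (hz : p ^ n • z = 0) :
    (hxy + D n y * hxy' - hx * hy) • z = 0 := by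
  have e1 : hxy • z = x • y • z + D n x • D n y • (y⁻¹ • x⁻¹ • z) := by
    rw [← Hxy z hz, mul_smul, mul_inv_rev, mul_smul,
      hF.D_mul n x y _ (rtk7b_tors_gal n _ (rtk7b_tors_gal n _ hz))]
  have e2 : (D n y * hxy') • z = D n y • (x • y⁻¹ • z) + D n x • (y • x⁻¹ • z) := by
    rw [mul_smul, ← Hxy' z hz, smul_add, mul_smul, mul_inv_rev, inv_inv, mul_smul,
      rtk7b_D_cancel hF n x y (rtk7b_tors_gal n _ (rtk7b_tors_gal n _ hz))]
  have e3 : (hx * hy) • z = x • y • z + D n y • (x • y⁻¹ • z)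
      + D n x • (y • x⁻¹ • z + D n y • (y⁻¹ • x⁻¹ • z)) := by
    rw [mul_smul, ← Hx (hy • z) (rtk7b_tors_hecke n hy hz), hF.smul_comm x⁻¹ hy z,
      ← Hy (x⁻¹ • z) (rtk7b_tors_gal n _ hz), ← Hy z hz, smul_add, hF.smul_comm x (D n y)]
  rw [sub_smul, add_smul, e1, e2, e3, smul_add]
  abel

end Approx

/-! ### faithfulness and the limit -/

section Limit

variable (p : ℕ) {G 𝕋 : Type*} [Group G] [CommRing 𝕋] (J : Type*) [AddCommGroup J]
  [Module 𝕋 J] [DistribMulAction G J] (D : ℕ → G → 𝕋) (B : Subring 𝕋)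
  {T : Type*} [CommRing T] (π : 𝕋 →+* T)

/-- level `n` is good for the precision `k`: an allowed polynomial killing `J[pⁿ]` has
`π`-value divisible by `pᵏ` -/
def Rtk7bGood (k n : ℕ) : Prop :=
  ∀ h ∈ B, (∀ x : J, p ^ n • x = 0 → h • x = 0) → π h ∈ Ideal.span {(p : T) ^ k}

variable {p J D B π}

omit [Group G] [DistribMulAction G J] in
theorem Rtk7bGood.mono_level {k n n' : ℕ} (h : Rtk7bGood p J B π k n) (hn : n ≤ n') :
    Rtk7bGood p J B π k n' :=
  fun t ht hkill => h t ht (fun x hx => hkill x (rtk7b_tors_le hn hx))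

omit [Group G] [DistribMulAction G J] in
theorem Rtk7bGood.mono_prec {k k' n : ℕ} (h : Rtk7bGood p J B π k n) (hk : k' ≤ k) :
    Rtk7bGood p J B π k' n := by
  intro t ht hkill
  exact (Ideal.span_singleton_le_span_singleton.mpr (pow_dvd_pow _ hk)) (h t ht hkill)

/-- two representatives of `g` at good levels have the same `π`-value modulo `pᵏ` -/
theorem rtk7b_approx_unique (hF : Rtk7bFam p J D B) {k n n' : ℕ}
    (hn : Rtk7bGood p J B π k n) (hn' : Rtk7bGood p J B π k n') {g : G} {h h' : 𝕋}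
    (hh : h ∈ B) (hh' : h' ∈ B) (H : Rtk7bApprox p J D n g h)
    (H' : Rtk7bApprox p J D n' g h') : π h - π h' ∈ Ideal.span {(p : T) ^ k} := by
  rw [← map_sub]
  rcases le_total n n' with hle | hle
  · apply hn _ (sub_mem hh hh')
    intro x hx
    rw [sub_smul, ← H x hx, ← rtk7b_approx_restrict hF hle H' x hx, sub_self]
  · apply hn' _ (sub_mem hh hh')
    intro x hx
    rw [sub_smul, ← H' x hx, ← rtk7b_approx_restrict hF hle H x hx, sub_self]

omit [Group G] [CommRing 𝕋] in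
theorem rtk7b_span_pow_le (I : Ideal T) (hpI : (p : T) ∈ I) (k : ℕ) :
    Ideal.span {(p : T) ^ k} ≤ I ^ k := by
  rw [Ideal.span_singleton_le_iff_mem]
  exact Ideal.pow_mem_pow hpI k

/-- the specification of the trace function -/
def Rtk7bSpec (p : ℕ) (J : Type*) [AddCommGroup J] [Module 𝕋 J] [DistribMulAction G J]
    (D : ℕ → G → 𝕋) (B : Subring 𝕋) (π : 𝕋 →+* T) (I : Ideal T) (t : G → T) : Prop :=
  ∀ (g : G) (k n : ℕ) (h : 𝕋), Rtk7bGood p J B π k n → h ∈ B → Rtk7bApprox p J D n g h →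
    t g - π h ∈ I ^ k

/-- **the trace function**: `t g` is the limit of the `π`-values of the representatives. -/
theorem rtk7b_exists (hF : Rtk7bFam p J D B) (I : Ideal T) [IsAdicComplete I T]
    (hpI : (p : T) ∈ I) (hfaith : ∀ k : ℕ, ∃ n : ℕ, k ≤ n ∧ Rtk7bGood p J B π k n) :
    ∃ t : G → T, Rtk7bSpec p J D B π I t := by
  choose lvl hlvl_ge hlvl using hfaith
  have hex : ∀ (g : G) (k : ℕ), ∃ h ∈ B, Rtk7bApprox p J D (lvl k) g h :=
    fun g k => hF.approx (lvl k) g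
  choose H hHsupp hHapprox using hex
  have hcauchy : ∀ g : G, ∃ L : T, ∀ k : ℕ,
      π (H g k) ≡ L [SMOD (I ^ k • ⊤ : Submodule T T)] := by
    intro g
    apply IsPrecomplete.prec (I := I) (M := T) inferInstance
    intro m n hmn
    rw [SModEq.sub_mem, smul_eq_mul, Ideal.mul_top]
    exact rtk7b_span_pow_le I hpI m (rtk7b_approx_unique hF (hlvl m) ((hlvl n).mono_prec hmn)
      (hHsupp g m) (hHsupp g n) (hHapprox g m) (hHapprox g n))
  choose t ht using hcauchy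
  refine ⟨t, fun g k n h hG hh hA => ?_⟩
  have h1 := ht g k
  rw [SModEq.sub_mem, smul_eq_mul, Ideal.mul_top] at h1
  have h2 := rtk7b_span_pow_le I hpI k
    (rtk7b_approx_unique hF (hlvl k) hG (hHsupp g k) hh (hHapprox g k) hA)
  have : t g - π h = -(π (H g k) - t g) + (π (H g k) - π h) := by ring
  rw [this]
  exact add_mem (neg_mem h1) h2

omit [Group G] [CommRing 𝕋] in
theorem rtk7b_eq_of_forall_sub_mem (I : Ideal T) [IsAdicComplete I T] {a b : T}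
    (h : ∀ k : ℕ, a - b ∈ I ^ k) : a = b := by
  rw [← sub_eq_zero]
  apply IsHausdorff.haus (I := I) (M := T) inferInstance
  intro k
  rw [SModEq.sub_mem, sub_zero, smul_eq_mul, Ideal.mul_top]
  exact h k

/-- same representative at a good level ⇒ congruent values -/
theorem rtk7b_same {I : Ideal T} {t : G → T} (ht : Rtk7bSpec p J D B π I t) {k n : ℕ}
    {g g' : G} {h : 𝕋} (hG : Rtk7bGood p J B π k n) (hh : h ∈ B)
    (H : Rtk7bApprox p J D n g h) (H' : Rtk7bApprox p J D n g' h) : t g' - t g ∈ I ^ k := by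
  have h1 := ht g k n h hG hh H
  have h2 := ht g' k n h hG hh H'
  have : t g' - t g = (t g' - π h) - (t g - π h) := by ring
  rw [this]
  exact sub_mem h2 h1

/-- if `h` represents `g` at every level, then `t g = π h` -/
theorem rtk7b_value (I : Ideal T) [IsAdicComplete I T]
    (hfaith : ∀ k : ℕ, ∃ n : ℕ, k ≤ n ∧ Rtk7bGood p J B π k n) {t : G → T}
    (ht : Rtk7bSpec p J D B π I t) {g : G} {h : 𝕋} (hh : h ∈ B)
    (H : ∀ n, Rtk7bApprox p J D n g h) : t g = π h := by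
  apply rtk7b_eq_of_forall_sub_mem I
  intro k
  obtain ⟨n, -, hn⟩ := hfaith k
  exact ht g k n h hn hh (H n)

/-- **The pseudo-character identities.**  `ε : G →* T` is the limit of the determinants:
`ε g ≡ π (D n g)` modulo `pⁿ`. -/
theorem rtk7b_pseudo (hF : Rtk7bFam p J D B) (I : Ideal T) [IsAdicComplete I T]
    (hpI : (p : T) ∈ I) (hfaith : ∀ k : ℕ, ∃ n : ℕ, k ≤ n ∧ Rtk7bGood p J B π k n)
    (ε : G →* T) (hε : ∀ (n : ℕ) (g : G), ε g - π (D n g) ∈ Ideal.span {(p : T) ^ n})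
    {t : G → T} (ht : Rtk7bSpec p J D B π I t) :
    t 1 = 2 ∧ (∀ x y : G, t (x * y) = t (y * x)) ∧
      ∀ x y : G, t (x * y) + ε y * t (x * y⁻¹) = t x * t y := by
  refine ⟨?_, ?_, ?_⟩
  · have := rtk7b_value I hfaith ht (g := (1 : G)) (h := 2) (ofNat_mem B 2)
      (fun n => rtk7b_approx_one hF n)
    rwa [map_ofNat] at this
  · intro x y
    apply rtk7b_eq_of_forall_sub_mem I
    intro k
    obtain ⟨n, -, hn⟩ := hfaith k
    obtain ⟨h, hh, H⟩ := hF.approx n (y * x)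
    have H' := rtk7b_approx_conj hF H y⁻¹
    have e : y⁻¹ * (y * x) * y⁻¹⁻¹ = x * y := by group
    rw [e] at H'
    exact rtk7b_same ht hn hh H H'
  · intro x y
    apply rtk7b_eq_of_forall_sub_mem I
    intro k
    obtain ⟨n, hkn, hn⟩ := hfaith k
    obtain ⟨hx, hhx, Hx⟩ := hF.approx n x
    obtain ⟨hy, hhy, Hy⟩ := hF.approx n y
    obtain ⟨hxy, hhxy, Hxy⟩ := hF.approx n (x * y)
    obtain ⟨hxy', hhxy', Hxy'⟩ := hF.approx n (x * y⁻¹)
    have hD := rtk7b_approx_mul hF Hx Hy Hxy Hxy'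
    have hDsupp : hxy + D n y * hxy' - hx * hy ∈ B :=
      sub_mem (add_mem hhxy (mul_mem (hF.D_mem n y) hhxy')) (mul_mem hhx hhy)
    have h0 := rtk7b_span_pow_le I hpI k (hn _ hDsupp hD)
    rw [map_sub, map_add, map_mul, map_mul] at h0
    have h1 := ht x k n hx hn hhx Hx
    have h2 := ht y k n hy hn hhy Hy
    have h3 := ht (x * y) k n hxy hn hhxy Hxy
    have h4 := ht (x * y⁻¹) k n hxy' hn hhxy' Hxy'
    have h5 : ε y - π (D n y) ∈ I ^ k :=
      Ideal.pow_le_pow_right hkn (rtk7b_span_pow_le I hpI n (hε n y))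
    rw [← Ideal.Quotient.eq_zero_iff_mem] at h0 h1 h2 h3 h4 h5 ⊢
    rw [map_sub, sub_eq_zero] at h1 h2 h3 h4 h5
    simp only [map_sub, map_add, map_mul] at h0 ⊢
    rw [h1, h2, h3, h4, h5]
    exact h0

end Limit

end Fermat.Agent.RT


end ZBRT_018_0

/-! ### bundled: `Fermat.Agent.RT.K7.PlanInst` -/
section ZBRT_018_1

/-!
# K-machine, piece K7b-inst: the compatible family of an (abstract, twisted) `p`-adic package

Sub-captain helper59, `NOTES/RT-K7.md`.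

`Rtk7bPkg p L J Tr` : the `p`-adic Eichler–Shimura package in TWISTED form, over an ABSTRACT
commutative ring `𝕋` acting on `J`:  `τ² − Tr ℓ · τ + ℓ = 0` on `J[p^∞]` for the Frobenius
elements at `ℓ ∤ L p`, inertia at `ℓ ∤ L p` acts trivially, open stabilisers (uniformly on
`J[pⁿ]`), the two actions commute.  (Application: `J = JH L M H` with the action
`σ ∗ x = δ_{c(σ)}^e (σ x)`, `2e ≡ 1` modulo the order of the diamond group, `𝕋 = HDAlg M`,
`Tr ℓ = δ_ℓ^{e−1} T_ℓ`.)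

`StmtK7bInst` : weak Chebotarev + `Rtk7bPkg` ⇒ the axioms `Rtk7bFam` of K7b for the determinant
`D n g = cycE p n g` and every subring `B` containing the `Tr ℓ` (`ℓ ∉ S`), together with the
three principles by which the consumer computes the trace function (`rtk7b_value`,
`rtk7b_same`): Frobenius, inertia, continuity; and `D n c = −1` for a complex conjugation.

Proof: abstract fork of `S30/PseudoChar.lean` (`approx_frob`, `exists_approx`,
`exists_field_approx`, `approx_inertia`) and of `S31.lucas_galois` (`S31.lucas_smul` and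
`S31.lucasS` are already generic).
-/

set_option autoImplicit false

namespace Fermat.Agent.RT

open Fermat.Agent.ES Fermat.Agent.S30

/-- **The twisted `p`-adic package, abstract form.** -/
structure Rtk7bPkg (p L : ℕ) {𝕋 : Type*} [CommRing 𝕋] (J : Type*) [AddCommGroup J]
    [Module 𝕋 J] [DistribMulAction GQ J] (Tr : ℕ → 𝕋) : Prop where
  smul_comm : ∀ (σ : GQ) (t : 𝕋) (x : J), σ • t • x = t • σ • x
  finite_level : ∀ n : ℕ, ∃ E : IntermediateField ℚ (AlgebraicClosure ℚ),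
    FiniteDimensional ℚ E ∧ ∀ σ : GQ, (∀ a ∈ E, σ a = a) → ∀ x : J, p ^ n • x = 0 → σ • x = x
  frob : ∀ ℓ : ℕ, ℓ.Prime → ¬ ℓ ∣ L * p →
    ∀ A : ValuationSubring (AlgebraicClosure ℚ), A.LiesOverPrime ℓ →
      ∀ τ : GQ, A.IsFrobeniusAt τ ℓ → ∀ (n : ℕ) (x : J), p ^ n • x = 0 →
        τ • τ • x - Tr ℓ • (τ • x) + ℓ • x = 0
  unram : ∀ ℓ : ℕ, ℓ.Prime → ¬ ℓ ∣ L * p →
    ∀ A : ValuationSubring (AlgebraicClosure ℚ), A.LiesOverPrime ℓ →
      ∀ σ ∈ A.inertiaSubgroupIn ℚ, ∀ (n : ℕ) (x : J), p ^ n • x = 0 → σ • x = x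

/-- **K7b-inst.** -/
def StmtK7bInst : Prop :=
  Cheb.WeakChebotarev →
  ∀ (p L : ℕ) [Fact p.Prime] (𝕋 : Type) [CommRing 𝕋] (J : Type) [AddCommGroup J] [Module 𝕋 J]
    [DistribMulAction GQ J] (Tr : ℕ → 𝕋), Rtk7bPkg p L J Tr →
  ∀ (S : Finset ℕ), (∀ r : ℕ, r.Prime → r ∉ S → ¬ r ∣ L * p) →
  ∀ (B : Subring 𝕋), (∀ ℓ : ℕ, ℓ.Prime → ℓ ∉ S → Tr ℓ ∈ B) →
    Rtk7bFam p J (fun n g => ((cycE p n g : ℕ) : 𝕋)) B ∧
    (∀ (n ℓ : ℕ), ℓ.Prime → ¬ ℓ ∣ L * p →
      ∀ A : ValuationSubring (AlgebraicClosure ℚ), A.LiesOverPrime ℓ →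
        ∀ τ : GQ, A.IsFrobeniusAt τ ℓ →
          Rtk7bApprox p J (fun n g => ((cycE p n g : ℕ) : 𝕋)) n τ (Tr ℓ)) ∧
    (∀ (n q : ℕ), q.Prime → ¬ q ∣ L * p →
      ∀ P : ValuationSubring (AlgebraicClosure ℚ), P.LiesOverPrime q →
        ∀ σ ∈ P.inertiaSubgroupIn ℚ, ∀ (g : GQ) (h : 𝕋),
          Rtk7bApprox p J (fun n g => ((cycE p n g : ℕ) : 𝕋)) n g h →
          Rtk7bApprox p J (fun n g => ((cycE p n g : ℕ) : 𝕋)) n (σ * g) h) ∧
    (∀ n : ℕ, ∃ E : IntermediateField ℚ (AlgebraicClosure ℚ), FiniteDimensional ℚ E ∧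
      ∀ σ : GQ, (∀ a ∈ E, σ a = a) → ∀ (g : GQ) (h : 𝕋),
        Rtk7bApprox p J (fun n g => ((cycE p n g : ℕ) : 𝕋)) n g h →
        Rtk7bApprox p J (fun n g => ((cycE p n g : ℕ) : 𝕋)) n (σ * g) h) ∧
    (∀ (n : ℕ) (x : J), p ^ n • x = 0 →
      ((cycE p n complexConjugation : ℕ) : 𝕋) • x = -x)

/-- **K7b-inst, consumer form**: the pseudo-character over a complete ring. -/
def StmtK7bChar : Prop :=
  Cheb.WeakChebotarev →
  ∀ (p L : ℕ) [Fact p.Prime] (𝕋 : Type) [CommRing 𝕋] (J : Type) [AddCommGroup J] [Module 𝕋 J]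
    [DistribMulAction GQ J] (Tr : ℕ → 𝕋), Rtk7bPkg p L J Tr →
  ∀ (S : Finset ℕ), (∀ r : ℕ, r.Prime → r ∉ S → ¬ r ∣ L * p) →
  ∀ (B : Subring 𝕋), (∀ ℓ : ℕ, ℓ.Prime → ℓ ∉ S → Tr ℓ ∈ B) →
  ∀ (T : Type) [CommRing T] (π : 𝕋 →+* T) (I : Ideal T) [IsAdicComplete I T]
    (hpI : (p : T) ∈ I),
    (∀ k : ℕ, ∃ n : ℕ, k ≤ n ∧ Rtk7bGood p J B π k n) →
    ∃ t : GQ → T, Rtk7bSpec p J (fun n g => ((cycE p n g : ℕ) : 𝕋)) B π I t ∧
      t 1 = 2 ∧ (∀ x y, t (x * y) = t (y * x)) ∧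
      (∀ x y, t (x * y) + ((cycloCharO p I hpI y : Tˣ) : T) * t (x * y⁻¹) = t x * t y) ∧
      (∀ ℓ : ℕ, ℓ.Prime → ℓ ∉ S →
        ∀ A : ValuationSubring (AlgebraicClosure ℚ), A.LiesOverPrime ℓ →
          ∀ τ : GQ, A.IsFrobeniusAt τ ℓ → t τ = π (Tr ℓ)) ∧
      (∀ q : ℕ, q.Prime → ¬ q ∣ L * p → ∀ P : ValuationSubring (AlgebraicClosure ℚ),
        P.LiesOverPrime q → ∀ σ ∈ P.inertiaSubgroupIn ℚ, ∀ g : GQ, t (σ * g) = t g) ∧
      (∀ k : ℕ, ∃ E : IntermediateField ℚ (AlgebraicClosure ℚ), FiniteDimensional ℚ E ∧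
        ∀ σ : GQ, (∀ a ∈ E, σ a = a) → ∀ g : GQ, t (σ * g) - t g ∈ I ^ k)

end Fermat.Agent.RT


end ZBRT_018_1

/-! ### bundled: `Fermat.Agent.RT.K7.Transfer` -/
section ZBRT_018_2

/-!
# K-machine, piece K7: the TRANSFER lemma (Carayol's lemma in explicit form)

`J[pⁿ]` is a module over the Cayley–Hamilton algebra of the pseudo-character, hence "isotypic":
with the doubled idempotents `P = 1 + c`, `Q = 1 − c` one has `P g P = A(g) P`,
`P g Q h P = Ξ(g, h) P` (`S36/WilesRing.lean`).  Therefore a linear relation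
`Σ kᵢ gᵢ = 0` between the operators `gᵢ ∈ G` on `J[pⁿ]` (coefficients `kᵢ` Hecke polynomials) gives
the same relation between the matrices of Wiles' representation, up to the factor `2 Ξ'(x, y)`
and up to the annihilator of `J[pⁿ]`:

* `rtk7t_entries` : (generic) the four doubled entries of `Σ kᵢ mat(gᵢ)` kill `P` (resp. `Q`);
* `rtk7t_of_smul_P`, `rtk7t_of_smul_Q` : `k • P = 0 ⇒ 2 k Ξ'(x, y) = 0` on the whole module;
* `rtk7t_transfer` : for a compatible family (`PseudoFam.lean`) with faithfulness, a relation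
  `Σ kᵢ gᵢ = 0` on all `J[pⁿ]` gives `Σ π(kᵢ) ρ(gᵢ) = 0` in `M₂(T)` for the representation
  `ρ = rtk7Mat t c i2 σ₀ τ₀ u` of K7a.

No localisation and no inverse is used at finite level.
-/

set_option autoImplicit false

namespace Fermat.Agent.RT

open Fermat.Agent.S36 Matrix

section Generic

variable {G R E : Type*} [Group G] [CommRing R] [Ring E] [Algebra R E]
  {r : G →* E} {ε t : G → R} {c : G}

/-- the doubled entries of a linear relation between the `r (g i)` -/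
theorem rtk7t_entries (h : S36CH r ε t c) {ι : Type*} (s : Finset ι) (k : ι → R) (g : ι → G)
    (hrel : ∑ i ∈ s, k i • r (g i) = 0) :
    (∑ i ∈ s, k i * s36A t c (g i)) • s36P r c = 0 ∧
    (∑ i ∈ s, k i * s36D t c (g i)) • s36Q r c = 0 ∧
    (∀ y : G, (∑ i ∈ s, k i * s36Xi t c (g i) y) • s36P r c = 0) ∧
    (∀ x : G, (∑ i ∈ s, k i * s36Xi t c x (g i)) • s36P r c = 0) := by
  refine ⟨?_, ?_, ?_, ?_⟩
  · have : s36P r c * (∑ i ∈ s, k i • r (g i)) * s36P r c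
        = (∑ i ∈ s, k i * s36A t c (g i)) • s36P r c := by
      rw [Finset.mul_sum, Finset.sum_mul, Finset.sum_smul]
      refine Finset.sum_congr rfl fun i _ => ?_
      rw [mul_smul_comm, smul_mul_assoc, h.PxP, smul_smul]
    rw [← this, hrel, mul_zero, zero_mul]
  · have : s36Q r c * (∑ i ∈ s, k i • r (g i)) * s36Q r c
        = (∑ i ∈ s, k i * s36D t c (g i)) • s36Q r c := by
      rw [Finset.mul_sum, Finset.sum_mul, Finset.sum_smul]
      refine Finset.sum_congr rfl fun i _ => ?_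
      rw [mul_smul_comm, smul_mul_assoc, h.QxQ, smul_smul]
    rw [← this, hrel, mul_zero, zero_mul]
  · intro y
    have : s36P r c * (∑ i ∈ s, k i • r (g i)) * s36Q r c * r y * s36P r c
        = (∑ i ∈ s, k i * s36Xi t c (g i) y) • s36P r c := by
      rw [Finset.mul_sum, Finset.sum_mul, Finset.sum_mul, Finset.sum_mul, Finset.sum_smul]
      refine Finset.sum_congr rfl fun i _ => ?_
      rw [mul_smul_comm, smul_mul_assoc, smul_mul_assoc, smul_mul_assoc, h.PxQyP, smul_smul]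
    rw [← this, hrel, mul_zero, zero_mul, zero_mul, zero_mul]
  · intro x
    have : s36P r c * r x * s36Q r c * (∑ i ∈ s, k i • r (g i)) * s36P r c
        = (∑ i ∈ s, k i * s36Xi t c x (g i)) • s36P r c := by
      rw [Finset.mul_sum, Finset.sum_mul, Finset.sum_smul]
      refine Finset.sum_congr rfl fun i _ => ?_
      rw [mul_smul_comm, smul_mul_assoc, h.PxQyP, smul_smul]
    rw [← this, hrel, mul_zero, zero_mul]

/-- `k • P = 0` implies `2 k Ξ'(x, y) = 0` in `E` -/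
theorem rtk7t_of_smul_P (h : S36CH r ε t c) {k : R} (hk : k • s36P r c = 0) (x y : G) :
    (2 * k * s36Xi' t c x y) • (1 : E) = 0 := by
  have hQ : (k * s36Xi' t c x y) • s36Q r c = 0 := by
    rw [mul_smul, ← h.QxPyQ x y]
    have : k • (s36Q r c * r x * s36P r c * r y * s36Q r c)
        = s36Q r c * r x * (k • s36P r c) * r y * s36Q r c := by
      simp only [mul_smul_comm, smul_mul_assoc]
    rw [this, hk, mul_zero, zero_mul, zero_mul]
  have hP : (k * s36Xi' t c x y) • s36P r c = 0 := by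
    rw [mul_comm, mul_smul, hk, smul_zero]
  have h2 : (k * s36Xi' t c x y) • (s36P r c + s36Q r c) = 0 := by
    rw [smul_add, hP, hQ, add_zero]
  rw [S36CH.P_add_Q (R := R) (r := r) (c := c), smul_smul] at h2
  rw [← h2]
  congr 1
  ring

/-- `k • Q = 0` implies `2 k Ξ(x, y) = 0` in `E` -/
theorem rtk7t_of_smul_Q (h : S36CH r ε t c) {k : R} (hk : k • s36Q r c = 0) (x y : G) :
    (2 * k * s36Xi t c x y) • (1 : E) = 0 := by
  have hP : (k * s36Xi t c x y) • s36P r c = 0 := by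
    rw [mul_smul, ← h.PxQyP x y]
    have : k • (s36P r c * r x * s36Q r c * r y * s36P r c)
        = s36P r c * r x * (k • s36Q r c) * r y * s36P r c := by
      simp only [mul_smul_comm, smul_mul_assoc]
    rw [this, hk, mul_zero, zero_mul, zero_mul]
  have hQ : (k * s36Xi t c x y) • s36Q r c = 0 := by
    rw [mul_comm, mul_smul, hk, smul_zero]
  have h2 : (k * s36Xi t c x y) • (s36P r c + s36Q r c) = 0 := by
    rw [smul_add, hP, hQ, add_zero]
  rw [S36CH.P_add_Q (R := R) (r := r) (c := c), smul_smul] at h2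
  rw [← h2]
  congr 1
  ring

end Generic

/-! ### compatibility of the entries with ring homomorphisms -/

section Map

variable {G R R' : Type*} [Group G] [CommRing R] [CommRing R'] (φ : R →+* R') (t : G → R)
  (c : G)

theorem rtk7t_map_A (x : G) : φ (s36A t c x) = s36A (fun g => φ (t g)) c x := by
  simp only [s36A, map_add]

theorem rtk7t_map_D (x : G) : φ (s36D t c x) = s36D (fun g => φ (t g)) c x := by
  simp only [s36D, map_sub]

theorem rtk7t_map_Xi (x y : G) : φ (s36Xi t c x y) = s36Xi (fun g => φ (t g)) c x y := by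
  simp only [s36Xi, s36A, map_sub, map_mul, map_add, map_ofNat]

theorem rtk7t_map_Xi' (x y : G) : φ (s36Xi' t c x y) = s36Xi' (fun g => φ (t g)) c x y := by
  simp only [s36Xi', s36D, map_sub, map_mul, map_ofNat]

end Map

/-! ### the finite levels of a compatible family as Cayley–Hamilton modules -/

section Level

variable (p : ℕ) {G 𝕋 : Type*} [Group G] [CommRing 𝕋] (J : Type*) [AddCommGroup J]
  [Module 𝕋 J] [DistribMulAction G J]

/-- `J[pⁿ]` as a `𝕋`-submodule -/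
def rtk7tW (n : ℕ) : Submodule 𝕋 J where
  carrier := {x | p ^ n • x = 0}
  add_mem' {a b} ha hb := by
    change p ^ n • a = 0 at ha
    change p ^ n • b = 0 at hb
    change p ^ n • (a + b) = 0
    rw [smul_add, ha, hb, add_zero]
  zero_mem' := by
    change p ^ n • (0 : J) = 0
    rw [smul_zero]
  smul_mem' h x hx := by
    change p ^ n • x = 0 at hx
    change p ^ n • (h • x) = 0
    exact rtk7b_tors_hecke n h hx

variable {p J}

theorem rtk7t_mem_W {n : ℕ} {x : J} : x ∈ rtk7tW (𝕋 := 𝕋) p J n ↔ p ^ n • x = 0 := Iff.rfl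

/-- the action of `G` on `J[pⁿ]` -/
def rtk7tRep (hcomm : ∀ (g : G) (h : 𝕋) (x : J), g • h • x = h • g • x) (n : ℕ) :
    G →* Module.End 𝕋 (rtk7tW (𝕋 := 𝕋) p J n) where
  toFun g :=
    { toFun := fun x => ⟨g • (x : J), rtk7b_tors_gal n g x.2⟩
      map_add' := fun x y => Subtype.ext (by simp only [Submodule.coe_add, smul_add])
      map_smul' := fun h x => Subtype.ext (by
        simp only [Submodule.coe_smul, RingHom.id_apply]
        exact hcomm g h x) }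
  map_one' := by
    ext x
    simp only [LinearMap.coe_mk, AddHom.coe_mk, one_smul, Module.End.one_apply]
  map_mul' a b := by
    ext x
    simp only [LinearMap.coe_mk, AddHom.coe_mk, mul_smul, Module.End.mul_apply]

@[simp] theorem rtk7tRep_apply (hcomm : ∀ (g : G) (h : 𝕋) (x : J), g • h • x = h • g • x)
    (n : ℕ) (g : G) (x : rtk7tW (𝕋 := 𝕋) p J n) :
    ((rtk7tRep hcomm n g x : rtk7tW (𝕋 := 𝕋) p J n) : J) = g • (x : J) := rfl

/-- the Cayley–Hamilton datum at level `n` -/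
theorem rtk7t_ch {D : ℕ → G → 𝕋} {B : Subring 𝕋} (hF : Rtk7bFam p J D B) (n : ℕ)
    (tn : G → 𝕋) (htn : ∀ g, Rtk7bApprox p J D n g (tn g)) (c : G) (hc : c * c = 1)
    (hDc : ∀ x : J, p ^ n • x = 0 → D n c • x = -x) :
    S36CH (rtk7tRep (p := p) hF.smul_comm n) (D n) tn c where
  ch σ := by
    ext x
    simp only [LinearMap.add_apply, LinearMap.smul_apply, Module.End.one_apply,
      Submodule.coe_add, Submodule.coe_smul, rtk7tRep_apply]
    exact htn σ x x.2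
  ε_mul x y e := by
    ext w
    simp only [LinearMap.smul_apply, Submodule.coe_smul]
    rw [hF.D_mul n x y _ (e w).2, mul_smul]
  c_sq := hc
  ε_c e := by
    ext w
    simp only [LinearMap.smul_apply, Submodule.coe_smul, LinearMap.neg_apply,
      Submodule.coe_neg]
    exact hDc _ (e w).2

/-- an element of `𝕋` which is zero in `End(J[pⁿ])` kills `J[pⁿ]` -/
theorem rtk7t_kills_of_smul_one {n : ℕ} {h : 𝕋}
    (hh : h • (1 : Module.End 𝕋 (rtk7tW (𝕋 := 𝕋) p J n)) = 0) (x : J) (hx : p ^ n • x = 0) :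
    h • x = 0 := by
  have := congrArg (fun f : Module.End 𝕋 (rtk7tW (𝕋 := 𝕋) p J n) =>
    ((f ⟨x, hx⟩ : rtk7tW (𝕋 := 𝕋) p J n) : J)) hh
  simpa using this

end Level

/-! ### the transfer -/

section Transfer

variable {p : ℕ} {G 𝕋 : Type*} [Group G] [CommRing 𝕋] {J : Type*} [AddCommGroup J]
  [Module 𝕋 J] [DistribMulAction G J] {D : ℕ → G → 𝕋} {B : Subring 𝕋}
  {T : Type*} [CommRing T] {π : 𝕋 →+* T}

/-- `ε c = −1` from `D n c = −1` on `J[pⁿ]` -/
theorem rtk7t_eps_c (hF : Rtk7bFam p J D B) (I : Ideal T) [IsAdicComplete I T]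
    (hpI : (p : T) ∈ I) (hfaith : ∀ k : ℕ, ∃ n : ℕ, k ≤ n ∧ Rtk7bGood p J B π k n)
    (ε : G →* T) (hε : ∀ (n : ℕ) (g : G), ε g - π (D n g) ∈ Ideal.span {(p : T) ^ n})
    (c : G) (hDc : ∀ (n : ℕ) (x : J), p ^ n • x = 0 → D n c • x = -x) : ε c = -1 := by
  apply rtk7b_eq_of_forall_sub_mem I
  intro k
  obtain ⟨n, hkn, hn⟩ := hfaith k
  have h1 : π (D n c + 1) ∈ Ideal.span {(p : T) ^ k} := by
    apply hn _ (add_mem (hF.D_mem n c) (one_mem B))
    intro x hx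
    rw [add_smul, hDc n x hx, one_smul, neg_add_cancel]
  have h2 := rtk7b_span_pow_le I hpI k h1
  have h3 : ε c - π (D n c) ∈ I ^ k :=
    Ideal.pow_le_pow_right hkn (rtk7b_span_pow_le I hpI n (hε n c))
  have : ε c - -1 = (ε c - π (D n c)) + π (D n c + 1) := by
    rw [map_add, map_one]; ring
  rw [this]
  exact add_mem h3 h2

/-- **Transfer, entries.**  A relation `Σ kᵢ gᵢ = 0` on all `J[pⁿ]` gives the vanishing of the
four doubled entries of `Σ π(kᵢ) mat(gᵢ)`, multiplied by `2 Ξ'(x, y)` (resp. `2 Ξ(x, y)`). -/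
theorem rtk7t_transfer_entries (hF : Rtk7bFam p J D B) (I : Ideal T) [IsAdicComplete I T]
    (hpI : (p : T) ∈ I) (hfaith : ∀ k : ℕ, ∃ n : ℕ, k ≤ n ∧ Rtk7bGood p J B π k n)
    {t : G → T} (ht : Rtk7bSpec p J D B π I t)
    (c : G) (hc : c * c = 1) (hDc : ∀ (n : ℕ) (x : J), p ^ n • x = 0 → D n c • x = -x)
    {ι : Type*} (s : Finset ι) (k : ι → 𝕋) (hk : ∀ i ∈ s, k i ∈ B) (g : ι → G)
    (hrel : ∀ (n : ℕ) (x : J), p ^ n • x = 0 → ∑ i ∈ s, k i • g i • x = 0) (x y : G) :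
    2 * (∑ i ∈ s, π (k i) * s36A t c (g i)) * s36Xi' t c x y = 0 ∧
    2 * (∑ i ∈ s, π (k i) * s36D t c (g i)) * s36Xi t c x y = 0 ∧
    (∀ z : G, 2 * (∑ i ∈ s, π (k i) * s36Xi t c (g i) z) * s36Xi' t c x y = 0) ∧
    (∀ z : G, 2 * (∑ i ∈ s, π (k i) * s36Xi t c z (g i)) * s36Xi' t c x y = 0) := by
  -- the finite level statement
  have key : ∀ kk : ℕ, ∃ (n : ℕ) (tn : G → 𝕋), Rtk7bGood p J B π kk n ∧ (∀ g, tn g ∈ B) ∧
      (∀ g, t g - π (tn g) ∈ I ^ kk) ∧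
      S36CH (rtk7tRep (p := p) hF.smul_comm n) (D n) tn c ∧
      ∑ i ∈ s, k i • rtk7tRep (p := p) hF.smul_comm n (g i) = 0 := by
    intro kk
    obtain ⟨n, -, hn⟩ := hfaith kk
    choose tn htnB htn using fun g => hF.approx n g
    refine ⟨n, tn, hn, htnB, fun g => ht g kk n (tn g) hn (htnB g) (htn g),
      rtk7t_ch hF n tn htn c hc (hDc n), ?_⟩
    ext w
    simp only [LinearMap.sum_apply, LinearMap.smul_apply, Submodule.coe_sum,
      Submodule.coe_smul, rtk7tRep_apply, LinearMap.zero_apply, Submodule.coe_zero]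
    exact hrel n _ w.2
  -- membership in `B`
  have hA : ∀ (tn : G → 𝕋), (∀ g, tn g ∈ B) → ∀ z, s36A tn c z ∈ B := fun tn h z =>
    add_mem (h _) (h _)
  have hD : ∀ (tn : G → 𝕋), (∀ g, tn g ∈ B) → ∀ z, s36D tn c z ∈ B := fun tn h z =>
    sub_mem (h _) (h _)
  have hXi : ∀ (tn : G → 𝕋), (∀ g, tn g ∈ B) → ∀ z w, s36Xi tn c z w ∈ B := fun tn h z w =>
    sub_mem (mul_mem (ofNat_mem B 2) (hA tn h _)) (mul_mem (hA tn h _) (hA tn h _))
  have hXi' : ∀ (tn : G → 𝕋), (∀ g, tn g ∈ B) → ∀ z w, s36Xi' tn c z w ∈ B := fun tn h z w =>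
    sub_mem (mul_mem (ofNat_mem B 2) (hD tn h _)) (mul_mem (hD tn h _) (hD tn h _))
  have hsum : ∀ (f : ι → 𝕋), (∀ i, f i ∈ B) → ∑ i ∈ s, k i * f i ∈ B := fun f hf =>
    sum_mem fun i hi => mul_mem (hk i hi) (hf i)
  -- the comparison of the two expressions modulo `I ^ kk`
  have cmp : ∀ (kk : ℕ) (tn : G → 𝕋), (∀ g, t g - π (tn g) ∈ I ^ kk) →
      (fun g => Ideal.Quotient.mk (I ^ kk) (t g)) =
        fun g => Ideal.Quotient.mk (I ^ kk) (π (tn g)) := by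
    intro kk tn h
    funext g
    exact Ideal.Quotient.eq.mpr (h g)
  refine ⟨?_, ?_, ?_, ?_⟩
  · apply rtk7b_eq_of_forall_sub_mem I
    intro kk
    rw [sub_zero]
    obtain ⟨n, tn, hn, htnB, htn, hCH, hR⟩ := key kk
    have e := (rtk7t_entries hCH s k g hR).1
    have e2 := rtk7t_of_smul_P hCH e x y
    have e3 := rtk7b_span_pow_le I hpI kk (hn _ (mul_mem (mul_mem (ofNat_mem B 2)
      (hsum _ (fun i => hA tn htnB (g i)))) (hXi' tn htnB x y)) (rtk7t_kills_of_smul_one e2))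
    rw [← Ideal.Quotient.eq_zero_iff_mem] at e3 ⊢
    simp only [map_mul, map_sum, map_ofNat, rtk7t_map_A, rtk7t_map_Xi'] at e3 ⊢
    rw [cmp kk tn htn]
    exact e3
  · apply rtk7b_eq_of_forall_sub_mem I
    intro kk
    rw [sub_zero]
    obtain ⟨n, tn, hn, htnB, htn, hCH, hR⟩ := key kk
    have e := (rtk7t_entries hCH s k g hR).2.1
    have e2 := rtk7t_of_smul_Q hCH e x y
    have e3 := rtk7b_span_pow_le I hpI kk (hn _ (mul_mem (mul_mem (ofNat_mem B 2)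
      (hsum _ (fun i => hD tn htnB (g i)))) (hXi tn htnB x y)) (rtk7t_kills_of_smul_one e2))
    rw [← Ideal.Quotient.eq_zero_iff_mem] at e3 ⊢
    simp only [map_mul, map_sum, map_ofNat, rtk7t_map_D, rtk7t_map_Xi] at e3 ⊢
    rw [cmp kk tn htn]
    exact e3
  · intro z
    apply rtk7b_eq_of_forall_sub_mem I
    intro kk
    rw [sub_zero]
    obtain ⟨n, tn, hn, htnB, htn, hCH, hR⟩ := key kk
    have e := (rtk7t_entries hCH s k g hR).2.2.1 z
    have e2 := rtk7t_of_smul_P hCH e x y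
    have e3 := rtk7b_span_pow_le I hpI kk (hn _ (mul_mem (mul_mem (ofNat_mem B 2)
      (hsum _ (fun i => hXi tn htnB (g i) z))) (hXi' tn htnB x y))
      (rtk7t_kills_of_smul_one e2))
    rw [← Ideal.Quotient.eq_zero_iff_mem] at e3 ⊢
    simp only [map_mul, map_sum, map_ofNat, rtk7t_map_Xi, rtk7t_map_Xi'] at e3 ⊢
    rw [cmp kk tn htn]
    exact e3
  · intro z
    apply rtk7b_eq_of_forall_sub_mem I
    intro kk
    rw [sub_zero]
    obtain ⟨n, tn, hn, htnB, htn, hCH, hR⟩ := key kk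
    have e := (rtk7t_entries hCH s k g hR).2.2.2 z
    have e2 := rtk7t_of_smul_P hCH e x y
    have e3 := rtk7b_span_pow_le I hpI kk (hn _ (mul_mem (mul_mem (ofNat_mem B 2)
      (hsum _ (fun i => hXi tn htnB z (g i)))) (hXi' tn htnB x y))
      (rtk7t_kills_of_smul_one e2))
    rw [← Ideal.Quotient.eq_zero_iff_mem] at e3 ⊢
    simp only [map_mul, map_sum, map_ofNat, rtk7t_map_Xi, rtk7t_map_Xi'] at e3 ⊢
    rw [cmp kk tn htn]
    exact e3

/-- **Transfer, matrix form.**  A relation `Σ kᵢ gᵢ = 0` on all `J[pⁿ]` (coefficients `kᵢ ∈ B`)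
gives the relation `Σ π(kᵢ) ρ(gᵢ) = 0` for Wiles' representation
`ρ = rtk7Mat t c i2 σ₀ τ₀ u` of K7a. -/
theorem rtk7t_transfer (hF : Rtk7bFam p J D B) (I : Ideal T) [IsAdicComplete I T]
    (hpI : (p : T) ∈ I) (hfaith : ∀ k : ℕ, ∃ n : ℕ, k ≤ n ∧ Rtk7bGood p J B π k n)
    (ε : G →* T) (hε : ∀ (n : ℕ) (g : G), ε g - π (D n g) ∈ Ideal.span {(p : T) ^ n})
    {t : G → T} (ht : Rtk7bSpec p J D B π I t)
    (c : G) (hc : c * c = 1) (hDc : ∀ (n : ℕ) (x : J), p ^ n • x = 0 → D n c • x = -x)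
    (i2 : T) (hi2 : 2 * i2 = 1) (σ₀ τ₀ : G) (u : T) (hu : u * rtk7Xi t c i2 σ₀ τ₀ = 1)
    {ι : Type*} (s : Finset ι) (k : ι → 𝕋) (hk : ∀ i ∈ s, k i ∈ B) (g : ι → G)
    (hrel : ∀ (n : ℕ) (x : J), p ^ n • x = 0 → ∑ i ∈ s, k i • g i • x = 0) :
    ∑ i ∈ s, π (k i) • rtk7Mat t c i2 σ₀ τ₀ u (g i) = 0 := by
  obtain ⟨-, h2, h3⟩ := rtk7b_pseudo hF I hpI hfaith ε hε ht
  have hεc := rtk7t_eps_c hF I hpI hfaith ε hε c hDc
  have hX : s36Xi' t c τ₀ σ₀ = s36Xi t c σ₀ τ₀ := rtk7_xi'_eq ε t c h2 h3 hc hεc τ₀ σ₀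
  have hu' : u * (i2 * i2 * s36Xi t c σ₀ τ₀) = 1 := by
    rw [← rtk7Xi_eq t c i2 hi2]; exact hu
  -- cancellation of `2 Ξ₀`
  have cancel : ∀ m : T, 2 * m * s36Xi t c σ₀ τ₀ = 0 → m = 0 := by
    intro m hm
    have : m = (i2 * (u * i2 * i2)) * (2 * m * s36Xi t c σ₀ τ₀) := by
      linear_combination (-m) * hi2 + (-2 * i2 * m) * hu'
    rw [this, hm, mul_zero]
  obtain ⟨eA, -, eB, eC⟩ :=
    rtk7t_transfer_entries hF I hpI hfaith ht c hc hDc s k hk g hrel τ₀ σ₀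
  obtain ⟨-, eD, -, -⟩ :=
    rtk7t_transfer_entries hF I hpI hfaith ht c hc hDc s k hk g hrel σ₀ τ₀
  rw [hX] at eA
  have eB' := fun z => (by have := eB z; rwa [hX] at this :
    2 * (∑ i ∈ s, π (k i) * s36Xi t c (g i) z) * s36Xi t c σ₀ τ₀ = 0)
  have eC' := fun z => (by have := eC z; rwa [hX] at this :
    2 * (∑ i ∈ s, π (k i) * s36Xi t c z (g i)) * s36Xi t c σ₀ τ₀ = 0)
  have hA := cancel _ eA
  have hD := cancel _ eD
  have hB := cancel _ (eB' τ₀)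
  have hC := cancel _ (eC' σ₀)
  ext a b
  rw [Matrix.sum_apply, Matrix.zero_apply]
  fin_cases a <;> fin_cases b
  · have : ∀ i, (π (k i) • rtk7Mat t c i2 σ₀ τ₀ u (g i)) 0 0
        = i2 * (π (k i) * s36A t c (g i)) := fun i => by
      simp only [rtk7Mat, Matrix.smul_apply, Matrix.of_apply, Matrix.cons_val_zero,
        smul_eq_mul, rtk7A_eq]
      ring
    simp only [Fin.zero_eta, this]
    rw [← Finset.mul_sum, hA, mul_zero]
  · have : ∀ i, (π (k i) • rtk7Mat t c i2 σ₀ τ₀ u (g i)) 0 1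
        = (i2 * i2 * u) * (π (k i) * s36Xi t c (g i) τ₀) := fun i => by
      simp only [rtk7Mat, Matrix.smul_apply, Matrix.of_apply, Matrix.cons_val_zero,
        Matrix.cons_val_one, smul_eq_mul, rtk7Xi_eq t c i2 hi2]
      ring
    simp only [Fin.zero_eta, Fin.mk_one, this]
    rw [← Finset.mul_sum, hB, mul_zero]
  · have : ∀ i, (π (k i) • rtk7Mat t c i2 σ₀ τ₀ u (g i)) 1 0
        = (i2 * i2) * (π (k i) * s36Xi t c σ₀ (g i)) := fun i => by
      simp only [rtk7Mat, Matrix.smul_apply, Matrix.of_apply, Matrix.cons_val_zero,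
        Matrix.cons_val_one, smul_eq_mul, rtk7Xi_eq t c i2 hi2]
      ring
    simp only [Fin.zero_eta, Fin.mk_one, this]
    rw [← Finset.mul_sum, hC, mul_zero]
  · have : ∀ i, (π (k i) • rtk7Mat t c i2 σ₀ τ₀ u (g i)) 1 1
        = i2 * (π (k i) * s36D t c (g i)) := fun i => by
      simp only [rtk7Mat, Matrix.smul_apply, Matrix.of_apply, Matrix.cons_val_one,
        Matrix.cons_val_fin_one, smul_eq_mul, rtk7D_eq]
      ring
    simp only [Fin.mk_one, this]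
    rw [← Finset.mul_sum, hD, mul_zero]

end Transfer

end Fermat.Agent.RT


end ZBRT_018_2

/-! ### bundled: `Fermat.Agent.RT.K7.TransferFin` -/
section ZBRT_018_3

/-!
# K-machine, piece K7: the TRANSFER lemma at FINITE LEVEL

`rtk7tf_transfer` : if the level `n` is good for the precision `kk` (`Rtk7bGood`), a relation
`Σ kᵢ gᵢ = 0` on `J[pⁿ]` (coefficients `kᵢ ∈ B`) gives `Σ π(kᵢ) ρ(gᵢ) ≡ 0` modulo `I ^ kk`,
entry by entry, for Wiles' representation `ρ = rtk7Mat t c i2 σ₀ τ₀ u`.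

`rtk7tf_ann` : the same for integer coefficients, in the form consumed by the sub-quotient
lemma (`S32.StmtSubquot`): every element of `ℤ[G]` which kills `J[pⁿ]` maps `T²` into
`I ^ kk T²`.
-/

set_option autoImplicit false

namespace Fermat.Agent.RT

open Fermat.Agent.S36 Matrix

section TransferFin

variable {p : ℕ} {G 𝕋 : Type*} [Group G] [CommRing 𝕋] {J : Type*} [AddCommGroup J]
  [Module 𝕋 J] [DistribMulAction G J] {D : ℕ → G → 𝕋} {B : Subring 𝕋}
  {T : Type*} [CommRing T] {π : 𝕋 →+* T}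

/-- **Transfer at finite level, entries.** -/
theorem rtk7tf_entries (hF : Rtk7bFam p J D B) (I : Ideal T) (hpI : (p : T) ∈ I)
    {t : G → T} (ht : Rtk7bSpec p J D B π I t)
    (c : G) (hc : c * c = 1) {kk n : ℕ} (hn : Rtk7bGood p J B π kk n)
    (hDc : ∀ x : J, p ^ n • x = 0 → D n c • x = -x)
    {ι : Type*} (s : Finset ι) (k : ι → 𝕋) (hk : ∀ i ∈ s, k i ∈ B) (g : ι → G)
    (hrel : ∀ x : J, p ^ n • x = 0 → ∑ i ∈ s, k i • g i • x = 0) (x y : G) :
    2 * (∑ i ∈ s, π (k i) * s36A t c (g i)) * s36Xi' t c x y ∈ I ^ kk ∧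
    2 * (∑ i ∈ s, π (k i) * s36D t c (g i)) * s36Xi t c x y ∈ I ^ kk ∧
    (∀ z : G, 2 * (∑ i ∈ s, π (k i) * s36Xi t c (g i) z) * s36Xi' t c x y ∈ I ^ kk) ∧
    (∀ z : G, 2 * (∑ i ∈ s, π (k i) * s36Xi t c z (g i)) * s36Xi' t c x y ∈ I ^ kk) := by
  choose tn htnB htn' using fun g => hF.approx n g
  have htn : ∀ g, t g - π (tn g) ∈ I ^ kk := fun g => ht g kk n (tn g) hn (htnB g) (htn' g)
  have hCH : S36CH (rtk7tRep (p := p) hF.smul_comm n) (D n) tn c :=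
    rtk7t_ch hF n tn htn' c hc hDc
  have hR : ∑ i ∈ s, k i • rtk7tRep (p := p) hF.smul_comm n (g i) = 0 := by
    ext w
    simp only [LinearMap.sum_apply, LinearMap.smul_apply, Submodule.coe_sum,
      Submodule.coe_smul, rtk7tRep_apply, LinearMap.zero_apply, Submodule.coe_zero]
    exact hrel _ w.2
  -- membership in `B`
  have hA : ∀ z, s36A tn c z ∈ B := fun z => add_mem (htnB _) (htnB _)
  have hD : ∀ z, s36D tn c z ∈ B := fun z => sub_mem (htnB _) (htnB _)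
  have hXi : ∀ z w, s36Xi tn c z w ∈ B := fun z w =>
    sub_mem (mul_mem (ofNat_mem B 2) (hA _)) (mul_mem (hA _) (hA _))
  have hXi' : ∀ z w, s36Xi' tn c z w ∈ B := fun z w =>
    sub_mem (mul_mem (ofNat_mem B 2) (hD _)) (mul_mem (hD _) (hD _))
  have hsum : ∀ (f : ι → 𝕋), (∀ i, f i ∈ B) → ∑ i ∈ s, k i * f i ∈ B := fun f hf =>
    sum_mem fun i hi => mul_mem (hk i hi) (hf i)
  have cmp : (fun g => Ideal.Quotient.mk (I ^ kk) (t g)) =
      fun g => Ideal.Quotient.mk (I ^ kk) (π (tn g)) := by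
    funext g
    exact Ideal.Quotient.eq.mpr (htn g)
  refine ⟨?_, ?_, ?_, ?_⟩
  · have e := (rtk7t_entries hCH s k g hR).1
    have e2 := rtk7t_of_smul_P hCH e x y
    have e3 := rtk7b_span_pow_le I hpI kk (hn _ (mul_mem (mul_mem (ofNat_mem B 2)
      (hsum _ (fun i => hA (g i)))) (hXi' x y)) (rtk7t_kills_of_smul_one e2))
    rw [← Ideal.Quotient.eq_zero_iff_mem] at e3 ⊢
    simp only [map_mul, map_sum, map_ofNat, rtk7t_map_A, rtk7t_map_Xi'] at e3 ⊢
    rw [cmp]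
    exact e3
  · have e := (rtk7t_entries hCH s k g hR).2.1
    have e2 := rtk7t_of_smul_Q hCH e x y
    have e3 := rtk7b_span_pow_le I hpI kk (hn _ (mul_mem (mul_mem (ofNat_mem B 2)
      (hsum _ (fun i => hD (g i)))) (hXi x y)) (rtk7t_kills_of_smul_one e2))
    rw [← Ideal.Quotient.eq_zero_iff_mem] at e3 ⊢
    simp only [map_mul, map_sum, map_ofNat, rtk7t_map_D, rtk7t_map_Xi] at e3 ⊢
    rw [cmp]
    exact e3
  · intro z
    have e := (rtk7t_entries hCH s k g hR).2.2.1 z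
    have e2 := rtk7t_of_smul_P hCH e x y
    have e3 := rtk7b_span_pow_le I hpI kk (hn _ (mul_mem (mul_mem (ofNat_mem B 2)
      (hsum _ (fun i => hXi (g i) z))) (hXi' x y)) (rtk7t_kills_of_smul_one e2))
    rw [← Ideal.Quotient.eq_zero_iff_mem] at e3 ⊢
    simp only [map_mul, map_sum, map_ofNat, rtk7t_map_Xi, rtk7t_map_Xi'] at e3 ⊢
    rw [cmp]
    exact e3
  · intro z
    have e := (rtk7t_entries hCH s k g hR).2.2.2 z
    have e2 := rtk7t_of_smul_P hCH e x y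
    have e3 := rtk7b_span_pow_le I hpI kk (hn _ (mul_mem (mul_mem (ofNat_mem B 2)
      (hsum _ (fun i => hXi z (g i)))) (hXi' x y)) (rtk7t_kills_of_smul_one e2))
    rw [← Ideal.Quotient.eq_zero_iff_mem] at e3 ⊢
    simp only [map_mul, map_sum, map_ofNat, rtk7t_map_Xi, rtk7t_map_Xi'] at e3 ⊢
    rw [cmp]
    exact e3

/-- **Transfer at finite level, matrix form.** -/
theorem rtk7tf_transfer (hF : Rtk7bFam p J D B) (I : Ideal T) (hpI : (p : T) ∈ I)
    (ε : G →* T) {t : G → T} (ht : Rtk7bSpec p J D B π I t)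
    (h2 : ∀ x y, t (x * y) = t (y * x))
    (h3 : ∀ x y, t (x * y) + ε y * t (x * y⁻¹) = t x * t y)
    (c : G) (hc : c * c = 1) (hεc : ε c = -1)
    (i2 : T) (hi2 : 2 * i2 = 1) (σ₀ τ₀ : G) (u : T) (hu : u * rtk7Xi t c i2 σ₀ τ₀ = 1)
    {kk n : ℕ} (hn : Rtk7bGood p J B π kk n)
    (hDc : ∀ x : J, p ^ n • x = 0 → D n c • x = -x)
    {ι : Type*} (s : Finset ι) (k : ι → 𝕋) (hk : ∀ i ∈ s, k i ∈ B) (g : ι → G)
    (hrel : ∀ x : J, p ^ n • x = 0 → ∑ i ∈ s, k i • g i • x = 0) (a b : Fin 2) :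
    (∑ i ∈ s, π (k i) • rtk7Mat t c i2 σ₀ τ₀ u (g i)) a b ∈ I ^ kk := by
  have hX : s36Xi' t c τ₀ σ₀ = s36Xi t c σ₀ τ₀ := rtk7_xi'_eq ε t c h2 h3 hc hεc τ₀ σ₀
  have hu' : u * (i2 * i2 * s36Xi t c σ₀ τ₀) = 1 := by
    rw [← rtk7Xi_eq t c i2 hi2]; exact hu
  -- cancellation of `2 Ξ₀`
  have cancel : ∀ m : T, 2 * m * s36Xi t c σ₀ τ₀ ∈ I ^ kk → m ∈ I ^ kk := by
    intro m hm
    have : m = (i2 * (u * i2 * i2)) * (2 * m * s36Xi t c σ₀ τ₀) := by
      linear_combination (-m) * hi2 + (-2 * i2 * m) * hu'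
    rw [this]
    exact Ideal.mul_mem_left _ _ hm
  obtain ⟨eA, -, eB, eC⟩ := rtk7tf_entries hF I hpI ht c hc hn hDc s k hk g hrel τ₀ σ₀
  obtain ⟨-, eD, -, -⟩ := rtk7tf_entries hF I hpI ht c hc hn hDc s k hk g hrel σ₀ τ₀
  rw [hX] at eA
  have eB' := fun z => (by have := eB z; rwa [hX] at this :
    2 * (∑ i ∈ s, π (k i) * s36Xi t c (g i) z) * s36Xi t c σ₀ τ₀ ∈ I ^ kk)
  have eC' := fun z => (by have := eC z; rwa [hX] at this :
    2 * (∑ i ∈ s, π (k i) * s36Xi t c z (g i)) * s36Xi t c σ₀ τ₀ ∈ I ^ kk)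
  have hA := cancel _ eA
  have hD := cancel _ eD
  have hB := cancel _ (eB' τ₀)
  have hC := cancel _ (eC' σ₀)
  rw [Matrix.sum_apply]
  fin_cases a <;> fin_cases b
  · have : ∀ i, (π (k i) • rtk7Mat t c i2 σ₀ τ₀ u (g i)) 0 0
        = i2 * (π (k i) * s36A t c (g i)) := fun i => by
      simp only [rtk7Mat, Matrix.smul_apply, Matrix.of_apply, Matrix.cons_val_zero,
        smul_eq_mul, rtk7A_eq]
      ring
    simp only [Fin.zero_eta, this]
    rw [← Finset.mul_sum]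
    exact Ideal.mul_mem_left _ _ hA
  · have : ∀ i, (π (k i) • rtk7Mat t c i2 σ₀ τ₀ u (g i)) 0 1
        = (i2 * i2 * u) * (π (k i) * s36Xi t c (g i) τ₀) := fun i => by
      simp only [rtk7Mat, Matrix.smul_apply, Matrix.of_apply, Matrix.cons_val_zero,
        Matrix.cons_val_one, smul_eq_mul, rtk7Xi_eq t c i2 hi2]
      ring
    simp only [Fin.zero_eta, Fin.mk_one, this]
    rw [← Finset.mul_sum]
    exact Ideal.mul_mem_left _ _ hB
  · have : ∀ i, (π (k i) • rtk7Mat t c i2 σ₀ τ₀ u (g i)) 1 0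
        = (i2 * i2) * (π (k i) * s36Xi t c σ₀ (g i)) := fun i => by
      simp only [rtk7Mat, Matrix.smul_apply, Matrix.of_apply, Matrix.cons_val_zero,
        Matrix.cons_val_one, smul_eq_mul, rtk7Xi_eq t c i2 hi2]
      ring
    simp only [Fin.zero_eta, Fin.mk_one, this]
    rw [← Finset.mul_sum]
    exact Ideal.mul_mem_left _ _ hC
  · have : ∀ i, (π (k i) • rtk7Mat t c i2 σ₀ τ₀ u (g i)) 1 1
        = i2 * (π (k i) * s36D t c (g i)) := fun i => by
      simp only [rtk7Mat, Matrix.smul_apply, Matrix.of_apply, Matrix.cons_val_one,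
        Matrix.cons_val_fin_one, smul_eq_mul, rtk7D_eq]
      ring
    simp only [Fin.mk_one, this]
    rw [← Finset.mul_sum]
    exact Ideal.mul_mem_left _ _ hD

/-- **Transfer at finite level, integer coefficients.**  Every element of `ℤ[G]` which kills
`J[pⁿ]` has image `≡ 0` modulo `I ^ kk` under Wiles' representation. -/
theorem rtk7tf_int (hF : Rtk7bFam p J D B) (I : Ideal T) (hpI : (p : T) ∈ I)
    (ε : G →* T) {t : G → T} (ht : Rtk7bSpec p J D B π I t)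
    (h2 : ∀ x y, t (x * y) = t (y * x))
    (h3 : ∀ x y, t (x * y) + ε y * t (x * y⁻¹) = t x * t y)
    (c : G) (hc : c * c = 1) (hεc : ε c = -1)
    (i2 : T) (hi2 : 2 * i2 = 1) (σ₀ τ₀ : G) (u : T) (hu : u * rtk7Xi t c i2 σ₀ τ₀ = 1)
    {kk n : ℕ} (hn : Rtk7bGood p J B π kk n)
    (hDc : ∀ x : J, p ^ n • x = 0 → D n c • x = -x)
    (e : G →₀ ℤ) (hrel : ∀ x : J, p ^ n • x = 0 → (e.sum fun g z => z • g • x) = 0)
    (a b : Fin 2) :
    (e.sum fun g z => z • rtk7Mat t c i2 σ₀ τ₀ u g) a b ∈ I ^ kk := by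
  have key := rtk7tf_transfer hF I hpI ε ht h2 h3 c hc hεc i2 hi2 σ₀ τ₀ u hu hn hDc
    e.support (fun g => ((e g : ℤ) : 𝕋)) (fun g _ => intCast_mem B _) (fun g => g)
    (fun x hx => by
      have := hrel x hx
      rw [Finsupp.sum] at this
      rw [← this]
      refine Finset.sum_congr rfl fun g _ => ?_
      rw [Int.cast_smul_eq_zsmul]) a b
  rw [Finsupp.sum]
  convert key using 3
  rename_i g _
  rw [map_intCast, Int.cast_smul_eq_zsmul]

end TransferFin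

end Fermat.Agent.RT


end ZBRT_018_3

/-! ### bundled: `Fermat.Agent.RT.K7.Flat32` -/
section ZBRT_018_4

/-!
# K-machine, piece K7-FL32: flatness at `p` of the representation over the Hecke ring

* `Rtk7fAnn p r` : the ANNIHILATOR PROPERTY of a family of `2 × 2` matrices `r g` over a local
  ring `T`: for every `k` there is a finite `G_ℚ`-module `X` with a finite flat model over
  `ℤ_(p)` such that every element of `ℤ[G_ℚ]` which kills `X` maps to `0` modulo `𝔪 ^ k` under `r`.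
* `rtk7f_ann_map` : the property passes to `φ ∘ r` for a local homomorphism `φ`.
* `rtk7f_isFlatAt` : a `GaloisRepAdic` over a noetherian local ring with finite residue field
  whose matrices (in some basis) have the annihilator property is flat at `p`
  (`S32.stmtSubquot`).
* `rtk7f_ann_of_family` : Wiles' matrices `rtk7Mat t c i2 σ₀ τ₀ u` of a compatible family
  (`PseudoFam.lean`) have the annihilator property, if every `J[pⁿ]` has a finite flat model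
  (finite level TRANSFER, `rtk7tf_int`).
-/

set_option autoImplicit false
set_option linter.style.haveILetI false

namespace Fermat.Agent.RT

open Fermat.Agent.ES Fermat.Agent.W1 IsLocalRing

/-- **The annihilator property.** -/
def Rtk7fAnn {T : Type} [CommRing T] [IsLocalRing T] (p : ℕ)
    (r : GQ → Matrix (Fin 2) (Fin 2) T) : Prop :=
  ∀ k : ℕ, ∃ (X : Type) (_ : AddCommGroup X) (_ : Finite X) (act : GQ → X → X),
    (∀ σ x x', act σ (x + x') = act σ x + act σ x') ∧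
    (∀ σ τ x, act (σ * τ) x = act σ (act τ x)) ∧
    HasFiniteFlatModel (GaloisRep.ratLocalizedAt p) X act ∧
    ∀ e : GQ →₀ ℤ, (∀ x : X, (e.sum fun g z => z • act g x) = 0) →
      ∀ a b : Fin 2, (e.sum fun g z => z • r g) a b ∈ maximalIdeal T ^ k

theorem rtk7f_ann_map {T A : Type} [CommRing T] [IsLocalRing T] [CommRing A] [IsLocalRing A]
    (φ : T →+* A) [IsLocalHom φ] {p : ℕ} {r : GQ → Matrix (Fin 2) (Fin 2) T}
    (h : Rtk7fAnn p r) : Rtk7fAnn p (fun g => (r g).map φ) := by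
  intro k
  obtain ⟨X, i1, i2, act, h1, h2, h3, h4⟩ := h k
  refine ⟨X, i1, i2, act, h1, h2, h3, fun e he a b => ?_⟩
  have key := h4 e he a b
  have hmap : (e.sum fun g z => z • (r g).map φ) a b = φ ((e.sum fun g z => z • r g) a b) := by
    rw [Finsupp.sum, Finsupp.sum, Matrix.sum_apply, Matrix.sum_apply, map_sum]
    refine Finset.sum_congr rfl fun g _ => ?_
    rw [Matrix.smul_apply, Matrix.smul_apply, Matrix.map_apply, map_zsmul]
  rw [hmap]
  have hle : (maximalIdeal T ^ k).map φ ≤ maximalIdeal A ^ k := by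
    rw [Ideal.map_pow]
    exact Ideal.pow_right_mono (Ideal.map_le_iff_le_comap.mpr fun x hx =>
      Ideal.mem_comap.mpr (map_nonunit φ x hx)) k
  exact hle (Ideal.mem_map_of_mem φ key)

section Flat

variable {T : Type} [CommRing T] [IsLocalRing T]

omit [IsLocalRing T] in
/-- an endomorphism whose matrix has entries in `I` maps `V` into `I V` -/
theorem rtk7f_mem_smul_top {V : Type} [AddCommGroup V] [Module T V]
    (b : Module.Basis (Fin 2) T V) (f : V →ₗ[T] V) (I : Ideal T)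
    (h : ∀ i j, LinearMap.toMatrix b b f i j ∈ I) (v : V) :
    f v ∈ I • (⊤ : Submodule T V) := by
  rw [← b.sum_repr (f v)]
  refine Submodule.sum_mem _ fun i _ => ?_
  refine Submodule.smul_mem_smul ?_ Submodule.mem_top
  have h1 := congrFun (LinearMap.toMatrix_mulVec_repr b b f v) i
  rw [← h1, Matrix.mulVec, dotProduct]
  exact Ideal.sum_mem _ fun j _ => Ideal.mul_mem_right _ _ (h i j)

/-- **K7-FL32.**  A representation whose matrices have the annihilator property is flat. -/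
theorem rtk7f_isFlatAt [IsNoetherianRing T] [Finite (ResidueField T)] (p : ℕ) [Fact p.Prime]
    (ρ : GaloisRepAdic T) (b : Module.Basis (Fin 2) T ρ.V)
    (h : Rtk7fAnn p (fun g => LinearMap.toMatrix b b (ρ.ρ g))) : ρ.IsFlatAt p := by
  classical
  rw [sq_isFlatAt_iff]
  refine ⟨inferInstance, fun I hI => ?_⟩
  haveI := hI
  obtain ⟨k, hk⟩ := Fermat.Agent.S32.exists_pow_le_of_finite_quotient I
  obtain ⟨X, i1, i2, act, h1, h2, h3, h4⟩ := h k
  haveI hfinY : Finite (ρ.V ⧸ (I • (⊤ : Submodule T ρ.V))) := by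
    have : Module.Finite (T ⧸ I) (ρ.V ⧸ (I • (⊤ : Submodule T ρ.V))) :=
      Module.Finite.of_restrictScalars_finite T _ _
    exact Module.finite_of_finite (T ⧸ I)
  refine Fermat.Agent.S32.stmtSubquot (GaloisRep.ratLocalizedAt p) inferInstance inferInstance
    X i1 i2 act (ρ.V ⧸ (I • (⊤ : Submodule T ρ.V))) inferInstance hfinY
    (fun σ => ρ.levelAction I σ) h1 h2 ?_ ?_ ?_ ?_ h3
  · intro σ y y'
    exact map_add _ y y'
  · intro σ τ y
    exact Fermat.Agent.S32.levelAction_mul ρ I σ τ y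
  · intro y
    exact Fermat.Agent.S32.levelAction_one ρ I y
  · intro e he y
    obtain ⟨v, rfl⟩ := Submodule.Quotient.mk_surjective _ y
    have hent := h4 e he
    have hmat : LinearMap.toMatrix b b (e.sum fun g z => z • ρ.ρ g) =
        e.sum fun g z => z • LinearMap.toMatrix b b (ρ.ρ g) := by
      rw [Finsupp.sum, Finsupp.sum, map_sum]
      refine Finset.sum_congr rfl fun g _ => ?_
      rw [map_zsmul]
    have hmem : (e.sum fun g z => z • ρ.ρ g) v ∈ (maximalIdeal T ^ k) • (⊤ : Submodule T ρ.V) :=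
      rtk7f_mem_smul_top b _ _ (fun i j => by rw [hmat]; exact hent i j) v
    have hmem' : (e.sum fun g z => z • ρ.ρ g) v ∈ I • (⊤ : Submodule T ρ.V) :=
      Submodule.smul_mono_left hk hmem
    have e1 : (e.sum fun g z => z • ρ.levelAction I g (Submodule.Quotient.mk v)) =
        (I • (⊤ : Submodule T ρ.V)).mkQ ((e.sum fun g z => z • ρ.ρ g) v) := by
      rw [Finsupp.sum, Finsupp.sum, LinearMap.sum_apply, map_sum]
      refine Finset.sum_congr rfl fun g _ => ?_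
      rw [LinearMap.smul_apply, map_zsmul]
      rfl
    rw [e1, Submodule.mkQ_apply]
    exact (Submodule.Quotient.mk_eq_zero _).mpr hmem'

end Flat

section Family

variable {p : ℕ} {𝕋 : Type*} [CommRing 𝕋] {J : Type} [AddCommGroup J]
  [Module 𝕋 J] [DistribMulAction GQ J] {D : ℕ → GQ → 𝕋} {B : Subring 𝕋}
  {T : Type} [CommRing T] [IsLocalRing T] {π : 𝕋 →+* T}

/-- **Wiles' matrices of a compatible family have the annihilator property**, if every `J[pⁿ]`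
is dominated by a finite `G_ℚ`-module with a finite flat model (e.g. `J[pⁿ]` itself, or the
`pⁿ`-torsion of a bigger module in which `J` is a Galois-stable subgroup). -/
theorem rtk7f_ann_of_family (hF : Rtk7bFam p J D B) (hpI : (p : T) ∈ maximalIdeal T)
    (hfaith : ∀ k : ℕ, ∃ n : ℕ, k ≤ n ∧ Rtk7bGood p J B π k n)
    (ε : GQ →* T) {t : GQ → T} (ht : Rtk7bSpec p J D B π (maximalIdeal T) t)
    (h2 : ∀ x y, t (x * y) = t (y * x))
    (h3 : ∀ x y, t (x * y) + ε y * t (x * y⁻¹) = t x * t y)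
    (c : GQ) (hc : c * c = 1) (hεc : ε c = -1)
    (i2 : T) (hi2 : 2 * i2 = 1) (σ₀ τ₀ : GQ) (u : T) (hu : u * rtk7Xi t c i2 σ₀ τ₀ = 1)
    (hDc : ∀ (n : ℕ) (x : J), p ^ n • x = 0 → D n c • x = -x)
    (hmodel : ∀ n : ℕ, ∃ (X : Type) (_ : AddCommGroup X) (_ : Finite X) (act : GQ → X → X),
      (∀ σ x x', act σ (x + x') = act σ x + act σ x') ∧
      (∀ σ τ x, act (σ * τ) x = act σ (act τ x)) ∧
      HasFiniteFlatModel (GaloisRep.ratLocalizedAt p) X act ∧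
      ∀ e : GQ →₀ ℤ, (∀ x : X, (e.sum fun g z => z • act g x) = 0) →
        ∀ x : J, p ^ n • x = 0 → (e.sum fun g z => z • g • x) = 0) :
    Rtk7fAnn p (rtk7Mat t c i2 σ₀ τ₀ u) := by
  intro k
  obtain ⟨n, -, hn⟩ := hfaith k
  obtain ⟨X, i1, i2', act, h1, h2', h3', h4⟩ := hmodel n
  refine ⟨X, i1, i2', act, h1, h2', h3', fun e he a b => ?_⟩
  exact rtk7tf_int hF (maximalIdeal T) hpI ε ht h2 h3 c hc hεc i2 hi2 σ₀ τ₀ u hu hn
    (hDc n) e (h4 e he) a b

/-- the special case `X = J[pⁿ]` -/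
theorem rtk7f_ann_of_family_self (hF : Rtk7bFam p J D B) (hpI : (p : T) ∈ maximalIdeal T)
    (hfaith : ∀ k : ℕ, ∃ n : ℕ, k ≤ n ∧ Rtk7bGood p J B π k n)
    (ε : GQ →* T) {t : GQ → T} (ht : Rtk7bSpec p J D B π (maximalIdeal T) t)
    (h2 : ∀ x y, t (x * y) = t (y * x))
    (h3 : ∀ x y, t (x * y) + ε y * t (x * y⁻¹) = t x * t y)
    (c : GQ) (hc : c * c = 1) (hεc : ε c = -1)
    (i2 : T) (hi2 : 2 * i2 = 1) (σ₀ τ₀ : GQ) (u : T) (hu : u * rtk7Xi t c i2 σ₀ τ₀ = 1)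
    (hDc : ∀ (n : ℕ) (x : J), p ^ n • x = 0 → D n c • x = -x)
    (hfin : ∀ n : ℕ, Finite (rtk7tW (𝕋 := 𝕋) p J n))
    (hmodel : ∀ n : ℕ, HasFiniteFlatModel (GaloisRep.ratLocalizedAt p)
      (rtk7tW (𝕋 := 𝕋) p J n)
      (fun σ x => ⟨σ • (x : J), rtk7b_tors_gal n σ x.2⟩)) :
    Rtk7fAnn p (rtk7Mat t c i2 σ₀ τ₀ u) := by
  refine rtk7f_ann_of_family hF hpI hfaith ε ht h2 h3 c hc hεc i2 hi2 σ₀ τ₀ u hu hDc
    (fun n => ⟨rtk7tW (𝕋 := 𝕋) p J n, inferInstance, hfin n,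
      (fun σ x => ⟨σ • (x : J), rtk7b_tors_gal n σ x.2⟩), ?_, ?_, hmodel n, ?_⟩)
  · intro σ x x'
    apply Subtype.ext
    simp only [Submodule.coe_add, smul_add]
  · intro σ τ x
    apply Subtype.ext
    simp only [mul_smul]
  · intro e he x hx
    have := congrArg (fun w : rtk7tW (𝕋 := 𝕋) p J n => (w : J)) (he ⟨x, hx⟩)
    simp only [Finsupp.sum, Submodule.coe_sum, Submodule.coe_zero] at this
    rw [Finsupp.sum, ← this]
    refine Finset.sum_congr rfl fun g _ => ?_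
    rfl

end Family

end Fermat.Agent.RT


end ZBRT_018_4

/-! ### bundled: `Fermat.Agent.RT.K7.PlanMain` -/
section ZBRT_018_5

/-!
# K-machine, piece K7: the MAIN statement (the representation over a finite Hecke ring)

Sub-captain helper59, `NOTES/RT-K7.md`.

* `StmtK7Uniq` (K7-UNIQ): two pseudo-characters `G_ℚ → A` with the same determinant, both
  invariant modulo `I` under an open subgroup, which agree modulo `I` on the Frobenius elements
  at the primes `ℓ ∉ S`, agree modulo `I`.  [weak Chebotarev: `g = τᵐ` on a Galois field;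
  `t (τ ^ (k+1)) = t (τ ^ k) t τ − ε τ · t (τ ^ (k−1))`.]
* `StmtK7Main` (K7-MAIN): the abstract twisted package `Rtk7bPkg p L J Tr` (with finite flat
  models dominating the `J[pⁿ]`), a FINITE local ring `A` with `π : 𝕋 → A` faithful at some
  level (`h ∈ B` kills `J[p^{n₀}]` ⇒ `π h = 0`), and an irreducible `ρbar` with the right
  Frobenius traces and base point `σ₀, τ₀` give `t : G_ℚ → A` and `ρ : GaloisRepAdic A` with
  Wiles' matrices, `tr ρ(Frob_ℓ) = π (Tr ℓ)`, cyclotomic determinant, flat at `p`, unramified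
  outside `L p`, residual representation `≅ ρbar`; and `t g = π h` whenever `h ∈ B` represents
  `g` at every level (consumed by K6: `tr ρ(σ) = π (δ^e + δ^{−e})` for `σ` in the inertia at the
  Taylor–Wiles and at the trivial primes).
  [glue: `StmtK7bChar` (helper86), `StmtK7GRAFix` (helper74), K7-FIN (helper27), K7-UNIQ for
  `residue ∘ t = tr ρbar`, `rtk7f_ann_of_family`, `rtk7f_isFlatAt`.]
-/

set_option autoImplicit false

namespace Fermat.Agent.RT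

open Fermat.Agent.ES Fermat.Agent.S30 Fermat.Agent.W1 IsLocalRing

/-- **K7-UNIQ.** -/
def StmtK7Uniq : Prop :=
  Cheb.WeakChebotarev →
  ∀ (A : Type) [CommRing A] (I : Ideal A) (S : Finset ℕ) (ε : GQ →* A) (t t' : GQ → A),
    t 1 = 2 → t' 1 = 2 →
    (∀ x y, t (x * y) + ε y * t (x * y⁻¹) = t x * t y) →
    (∀ x y, t' (x * y) + ε y * t' (x * y⁻¹) = t' x * t' y) →
    (∃ E : IntermediateField ℚ (AlgebraicClosure ℚ), FiniteDimensional ℚ E ∧
      ∀ σ : GQ, (∀ a ∈ E, σ a = a) → ∀ g, t (σ * g) - t g ∈ I ∧ t' (σ * g) - t' g ∈ I) →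
    (∀ ℓ : ℕ, ℓ.Prime → ℓ ∉ S →
      ∀ P : ValuationSubring (AlgebraicClosure ℚ), P.LiesOverPrime ℓ →
        ∀ τ : GQ, P.IsFrobeniusAt τ ℓ → t τ - t' τ ∈ I) →
    ∀ g, t g - t' g ∈ I

/-- **K7-MAIN.** -/
def StmtK7Main : Prop :=
  Cheb.WeakChebotarev →
  ∀ (p L : ℕ) [Fact p.Prime], p ≠ 2 →
  ∀ (𝕋 : Type) [CommRing 𝕋] (J : Type) [AddCommGroup J] [Module 𝕋 J] [DistribMulAction GQ J]
    (Tr : ℕ → 𝕋), Rtk7bPkg p L J Tr →
  ∀ (S : Finset ℕ), (∀ r : ℕ, r.Prime → r ∉ S → ¬ r ∣ L * p) →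
  ∀ (B : Subring 𝕋), (∀ ℓ : ℕ, ℓ.Prime → ℓ ∉ S → Tr ℓ ∈ B) →
  (∀ n : ℕ, ∃ (X : Type) (_ : AddCommGroup X) (_ : Finite X) (act : GQ → X → X),
      (∀ σ x x', act σ (x + x') = act σ x + act σ x') ∧
      (∀ σ τ x, act (σ * τ) x = act σ (act τ x)) ∧
      HasFiniteFlatModel (GaloisRep.ratLocalizedAt p) X act ∧
      ∀ e : GQ →₀ ℤ, (∀ x : X, (e.sum fun g z => z • act g x) = 0) →
        ∀ x : J, p ^ n • x = 0 → (e.sum fun g z => z • g • x) = 0) →
  ∀ (A : Type) [CommRing A] [IsLocalRing A] [Finite A], (p : A) ∈ maximalIdeal A →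
  ∀ (i2 : A), 2 * i2 = 1 →
  ∀ (π : 𝕋 →+* A),
    (∃ n₀ : ℕ, ∀ h ∈ B, (∀ x : J, p ^ n₀ • x = 0 → h • x = 0) → π h = 0) →
  ∀ (ρbar : ResidualGaloisRep (ResidueField A)), ρbar.IsIrreducible →
    (∀ (σ : GQ) (a : ℕ), (∀ μ : AlgebraicClosure ℚ, μ ^ p = 1 → σ μ = μ ^ a) →
      LinearMap.det (ρbar.ρ σ) = (a : ResidueField A)) →
    (∀ ℓ : ℕ, ℓ.Prime → ℓ ∉ S →
      ∀ P : ValuationSubring (AlgebraicClosure ℚ), P.LiesOverPrime ℓ →
        ∀ τ : GQ, P.IsFrobeniusAt τ ℓ →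
          residue A (π (Tr ℓ)) = LinearMap.trace (ResidueField A) ρbar.V (ρbar.ρ τ)) →
  ∀ (σ₀ τ₀ : GQ),
    rtk7Xi (fun g => LinearMap.trace (ResidueField A) ρbar.V (ρbar.ρ g)) complexConjugation
      (residue A i2) σ₀ τ₀ ≠ 0 →
  ∃ (t : GQ → A) (u : A) (ρ : GaloisRepAdic A) (b : Module.Basis (Fin 2) A ρ.V),
    u * rtk7Xi t complexConjugation i2 σ₀ τ₀ = 1 ∧
    (∀ g, LinearMap.toMatrix b b (ρ.ρ g) = rtk7Mat t complexConjugation i2 σ₀ τ₀ u g) ∧
    (∀ g, LinearMap.trace A ρ.V (ρ.ρ g) = t g) ∧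
    (∀ ℓ : ℕ, ℓ.Prime → ℓ ∉ S →
      ∀ P : ValuationSubring (AlgebraicClosure ℚ), P.LiesOverPrime ℓ →
        ∀ τ : GQ, P.IsFrobeniusAt τ ℓ → t τ = π (Tr ℓ)) ∧
    (∀ (g : GQ) (h : 𝕋), h ∈ B →
      (∀ n, Rtk7bApprox p J (fun n g => ((cycE p n g : ℕ) : 𝕋)) n g h) → t g = π h) ∧
    (∀ σ : GQ, residue A (t σ) = LinearMap.trace (ResidueField A) ρbar.V (ρbar.ρ σ)) ∧
    ρ.DetIsCyclotomic p ∧
    Rtk7fAnn p (fun g => LinearMap.toMatrix b b (ρ.ρ g)) ∧
    ρ.IsFlatAt p ∧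
    (∀ q : ℕ, q.Prime → ¬ q ∣ L * p → ρ.IsUnramifiedAt q) ∧
    ρ.residual.IsEquiv ρbar

end Fermat.Agent.RT


end ZBRT_018_5

/-! ### bundled: `Fermat.Agent.RT.K7.Inst` -/
section ZBRT_018_6
/-
RT-K7 / K7b-inst (helper86): `stmtK7bInst : StmtK7bInst`, `stmtK7bChar : StmtK7bChar`.

Abstract fork of `S30/PseudoChar.lean` (`approx_frob`, `exists_approx`, `exists_field_approx`,
`approx_inertia`) and of `S31.lucas_galois` over the twisted package `Rtk7bPkg` (abstract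
commutative ring `𝕋`, operators `Tr ℓ`), with the determinant `D n g = cycE p n g`.
-/

set_option autoImplicit false
set_option linter.unusedSectionVars false

namespace Fermat.Agent.RT

open Fermat.Agent.ES Fermat.Agent.S30 Fermat.Agent.S31

section Inst

variable {p L : ℕ} [Fact p.Prime] {𝕋 : Type} [CommRing 𝕋] {J : Type} [AddCommGroup J]
  [Module 𝕋 J] [DistribMulAction GQ J] {Tr : ℕ → 𝕋}

/-- the determinant of the family: the cyclotomic character modulo `p ^ n` -/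
noncomputable abbrev rtk7iD (p : ℕ) [Fact p.Prime] (𝕋 : Type) [CommRing 𝕋] : ℕ → GQ → 𝕋 :=
  fun n g => ((cycE p n g : ℕ) : 𝕋)

theorem rtk7i_D_smul (n : ℕ) (g : GQ) (x : J) :
    rtk7iD p 𝕋 n g • x = cycE p n g • x := Nat.cast_smul_eq_nsmul 𝕋 _ x

theorem rtk7i_D_smul_of_modEq {n : ℕ} {g : GQ} {a : ℕ} (h : cycE p n g ≡ a [MOD p ^ n])
    {x : J} (hx : p ^ n • x = 0) : rtk7iD p 𝕋 n g • x = a • x := by
  rw [rtk7i_D_smul, nsmul_eq_of_modEq h hx]

theorem rtk7i_lucasS_mem (B : Subring 𝕋) {a d : 𝕋} (ha : a ∈ B) (hd : d ∈ B) (m : ℕ) :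
    lucasS a d m ∈ B := by
  induction m using Nat.twoStepInduction with
  | zero =>
    rw [lucasS_zero]
    exact ofNat_mem B 2
  | one => rw [lucasS_one]; exact ha
  | more j h0 h1 =>
    rw [lucasS_add_two]
    exact sub_mem (mul_mem ha h1) (mul_mem hd h0)

theorem rtk7i_ne_of_not_dvd_mul {r : ℕ} (hr : ¬ r ∣ L * p) : r ≠ p := by
  rintro rfl
  exact hr (dvd_mul_left _ _)

/-- `g + ℓᵐ g⁻¹ = s_m(Tr ℓ, ℓ)` on `J[pⁿ]` if `g = τᵐ` on a field of definition of `J[pⁿ]`,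
`τ` a Frobenius at `ℓ ∤ L p`. -/
theorem rtk7i_lucas_galois (hP : Rtk7bPkg p L J Tr) (n : ℕ)
    (F : IntermediateField ℚ (AlgebraicClosure ℚ))
    (hF : ∀ σ : GQ, (∀ a ∈ F, σ a = a) → ∀ x : J, p ^ n • x = 0 → σ • x = x)
    {ℓ : ℕ} (hℓ : ℓ.Prime) (hℓLp : ¬ ℓ ∣ L * p)
    {A : ValuationSubring (AlgebraicClosure ℚ)} (hA : A.LiesOverPrime ℓ)
    {τ : GQ} (hτ : A.IsFrobeniusAt τ ℓ) (m : ℕ) (g : GQ) (hg : ∀ a ∈ F, (τ ^ m) a = g a)
    {x : J} (hx : p ^ n • x = 0) :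
    g • x + (ℓ ^ m) • (g⁻¹ • x) = lucasS (Tr ℓ) (ℓ : 𝕋) m • x := by
  have hES : ∀ y : J, p ^ n • y = 0 →
      τ • τ • y - Tr ℓ • (τ • y) + (ℓ : 𝕋) • y = 0 := by
    intro y hy
    rw [Nat.cast_smul_eq_nsmul]
    exact hP.frob ℓ hℓ hℓLp A hA τ hτ n y hy
  have hL := lucas_smul (G := GQ) τ (Tr ℓ) (ℓ : 𝕋) (fun y : J => p ^ n • y = 0)
    (fun g y hy => rtk7b_tors_gal n g hy) hES x hx m
  set u : GQ := (τ ^ m)⁻¹ * g with hu
  have huF : ∀ a ∈ F, u a = a := by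
    intro a ha
    rw [hu, AlgEquiv.mul_apply, ← hg a ha, ← AlgEquiv.mul_apply, inv_mul_cancel,
      AlgEquiv.one_apply]
  have hux : ∀ y : J, p ^ n • y = 0 → u • y = y := hF u huF
  have e1 : (τ ^ m) • x = g • x := by
    have : g = τ ^ m * u := by rw [hu, mul_inv_cancel_left]
    rw [this, mul_smul, hux x hx]
  have e2 : (τ⁻¹) ^ m • x = g⁻¹ • x := by
    have : (τ⁻¹) ^ m = u * g⁻¹ := by rw [hu, inv_pow, mul_assoc, mul_inv_cancel, mul_one]
    rw [this, mul_smul, hux _ (rtk7b_tors_gal n g⁻¹ hx)]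
  rw [e1, e2, ← Nat.cast_pow, Nat.cast_smul_eq_nsmul] at hL
  exact hL

/-- a field of definition of `J[pⁿ]` and of `μ_{pⁿ}`, finite and Galois over `ℚ` -/
theorem rtk7i_exists_field (hP : Rtk7bPkg p L J Tr) (n : ℕ) :
    ∃ (F : IntermediateField ℚ (AlgebraicClosure ℚ)) (ζ : AlgebraicClosure ℚ),
      FiniteDimensional ℚ F ∧ IsGalois ℚ F ∧ IsPrimitiveRoot ζ (p ^ n) ∧ ζ ∈ F ∧
      ∀ σ : GQ, (∀ a ∈ F, σ a = a) → ∀ x : J, p ^ n • x = 0 → σ • x = x := by
  have hp : p.Prime := Fact.out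
  obtain ⟨E, hEfin, hE⟩ := hP.finite_level n
  have hM0 : p ^ n ≠ 0 := pow_ne_zero n hp.ne_zero
  have : NeZero ((p ^ n : ℕ) : AlgebraicClosure ℚ) := ⟨Nat.cast_ne_zero.mpr hM0⟩
  obtain ⟨ζ, hζ⟩ := HasEnoughRootsOfUnity.exists_primitiveRoot (AlgebraicClosure ℚ) (p ^ n)
  have hζfin : FiniteDimensional ℚ (IntermediateField.adjoin ℚ {ζ}) :=
    IntermediateField.adjoin.finiteDimensional ((hζ.isIntegral (Nat.pos_of_ne_zero hM0)).tower_top)
  obtain ⟨F, hFfin, hFgal, hEF, -, hζF⟩ :=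
    exists_galois_hull E E (IntermediateField.adjoin ℚ {ζ})
  exact ⟨F, ζ, hFfin, hFgal, hζ, hζF (IntermediateField.mem_adjoin_simple_self ℚ ζ),
    fun σ h => hE σ fun a ha => h a (hEF ha)⟩

/-- a Frobenius `τ` at `ℓ ∤ L p` is represented by `Tr ℓ` -/
theorem rtk7i_approx_frob (hP : Rtk7bPkg p L J Tr) (n : ℕ) {ℓ : ℕ} (hℓ : ℓ.Prime)
    (hℓLp : ¬ ℓ ∣ L * p) {A : ValuationSubring (AlgebraicClosure ℚ)} (hA : A.LiesOverPrime ℓ)
    {τ : GQ} (hτ : A.IsFrobeniusAt τ ℓ) : Rtk7bApprox p J (rtk7iD p 𝕋) n τ (Tr ℓ) := by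
  intro x hx
  have h := hP.frob ℓ hℓ hℓLp A hA τ hτ n (τ⁻¹ • x) (rtk7b_tors_gal n τ⁻¹ hx)
  rw [smul_inv_smul] at h
  have he : cycE p n τ ≡ ℓ [MOD p ^ n] := by
    rw [cycE_modEq_iff, padicCyclo_frob p ℓ hℓ (rtk7i_ne_of_not_dvd_mul hℓLp) A hA τ hτ,
      map_natCast]
  rw [rtk7i_D_smul_of_modEq he (rtk7b_tors_gal n τ⁻¹ hx)]
  have h2 : τ • x + ℓ • τ⁻¹ • x - Tr ℓ • x = 0 := by
    rw [← h]; abel
  exact sub_eq_zero.mp h2

/-- every `g` has a representative at every level (weak Chebotarev + Lucas) -/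
theorem rtk7i_exists_approx (hcheb : Cheb.WeakChebotarev) (hP : Rtk7bPkg p L J Tr)
    (S : Finset ℕ) (hgood : ∀ r : ℕ, r.Prime → r ∉ S → ¬ r ∣ L * p)
    (B : Subring 𝕋) (hB : ∀ ℓ : ℕ, ℓ.Prime → ℓ ∉ S → Tr ℓ ∈ B) (n : ℕ) (g : GQ) :
    ∃ h ∈ B, Rtk7bApprox p J (rtk7iD p 𝕋) n g h := by
  have hp : p.Prime := Fact.out
  have hM0 : p ^ n ≠ 0 := pow_ne_zero n hp.ne_zero
  obtain ⟨F, ζ, hFfin, hFgal, hζ, hζF, hF⟩ := rtk7i_exists_field hP n
  obtain ⟨ℓ, A, τ, m, hℓ, hℓS, hA, hτ, hg⟩ := hcheb F S g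
  have hℓLp := hgood ℓ hℓ hℓS
  refine ⟨lucasS (Tr ℓ) (ℓ : 𝕋) m, rtk7i_lucasS_mem B (hB ℓ hℓ hℓS) (natCast_mem B ℓ) m, ?_⟩
  intro x hx
  have h1 := rtk7i_lucas_galois hP n F hF hℓ hℓLp hA hτ m g hg hx
  have hζ1 : ζ ^ (p ^ n) = 1 := hζ.pow_eq_one
  have h2 : (τ ^ m) ζ = ζ ^ (ℓ ^ m) :=
    frob_pow_rootOfUnity A
      (natCast_pow_not_mem_nonunits A hp hℓ (rtk7i_ne_of_not_dvd_mul hℓLp) hA n) hM0 hτ hζ1 m
  have h3 : g ζ = ζ ^ (ℓ ^ m) := by rw [← hg ζ hζF, h2]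
  have he : cycE p n g ≡ ℓ ^ m [MOD p ^ n] := cycE_of_apply p n g _ hζ h3
  rw [rtk7i_D_smul_of_modEq he (rtk7b_tors_gal n g⁻¹ hx)]
  exact h1

/-- **the family** -/
theorem rtk7i_fam (hcheb : Cheb.WeakChebotarev) (hP : Rtk7bPkg p L J Tr)
    (S : Finset ℕ) (hgood : ∀ r : ℕ, r.Prime → r ∉ S → ¬ r ∣ L * p)
    (B : Subring 𝕋) (hB : ∀ ℓ : ℕ, ℓ.Prime → ℓ ∉ S → Tr ℓ ∈ B) :
    Rtk7bFam p J (rtk7iD p 𝕋) B where
  smul_comm := hP.smul_comm
  D_mem := fun n g => natCast_mem B _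
  D_one := fun n x hx => by
    rw [rtk7i_D_smul_of_modEq (cycE_one p n) hx, one_smul]
  D_mul := fun n g h x hx => by
    rw [rtk7i_D_smul_of_modEq (cycE_mul p n g h) hx, rtk7i_D_smul, rtk7i_D_smul, mul_smul]
  D_restrict := fun n n' hn g x hx => by
    rw [rtk7i_D_smul, rtk7i_D_smul, nsmul_eq_of_modEq (cycE_restrict p hn g) hx]
  approx := fun n g => rtk7i_exists_approx hcheb hP S hgood B hB n g

/-- `σ` trivial on `J[pⁿ]` and on `μ_{pⁿ}`: `σ g` and `g` have the same representatives -/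
theorem rtk7i_approx_mul_left {B : Subring 𝕋} (hF : Rtk7bFam p J (rtk7iD p 𝕋) B) {n : ℕ}
    {σ g : GQ} {h : 𝕋} (hσ : ∀ x : J, p ^ n • x = 0 → σ • x = x)
    (hσe : cycE p n σ ≡ 1 [MOD p ^ n])
    (H : Rtk7bApprox p J (rtk7iD p 𝕋) n g h) : Rtk7bApprox p J (rtk7iD p 𝕋) n (σ * g) h :=
  rtk7b_approx_mul_left_of_trivial hF hσ
    (fun x hx => by rw [rtk7i_D_smul_of_modEq hσe hx, one_smul]) H

/-- inertia at `q ∤ L p`: `σ g` and `g` have the same representatives -/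
theorem rtk7i_approx_inertia {B : Subring 𝕋} (hF : Rtk7bFam p J (rtk7iD p 𝕋) B)
    (hP : Rtk7bPkg p L J Tr) (n : ℕ) {q : ℕ} (hq : q.Prime)
    (hqLp : ¬ q ∣ L * p) {P : ValuationSubring (AlgebraicClosure ℚ)} (hPq : P.LiesOverPrime q)
    {σ : GQ} (hσ : σ ∈ P.inertiaSubgroupIn ℚ) {g : GQ} {h : 𝕋}
    (H : Rtk7bApprox p J (rtk7iD p 𝕋) n g h) : Rtk7bApprox p J (rtk7iD p 𝕋) n (σ * g) h :=
  rtk7i_approx_mul_left hF (fun x hx => hP.unram q hq hqLp P hPq σ hσ n x hx)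
    (cycE_of_eq_one p n σ
      (padicCyclo_inertia p q hq (rtk7i_ne_of_not_dvd_mul hqLp) P hPq σ hσ)) H

/-- adic continuity at finite level -/
theorem rtk7i_exists_field_approx {B : Subring 𝕋} (hF : Rtk7bFam p J (rtk7iD p 𝕋) B)
    (hP : Rtk7bPkg p L J Tr) (n : ℕ) :
    ∃ E : IntermediateField ℚ (AlgebraicClosure ℚ), FiniteDimensional ℚ E ∧
      ∀ σ : GQ, (∀ a ∈ E, σ a = a) → ∀ (g : GQ) (h : 𝕋),
        Rtk7bApprox p J (rtk7iD p 𝕋) n g h → Rtk7bApprox p J (rtk7iD p 𝕋) n (σ * g) h := by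
  obtain ⟨F, ζ, hFfin, -, hζ, hζF, hFJ⟩ := rtk7i_exists_field hP n
  refine ⟨F, hFfin, fun σ hσ g h H => ?_⟩
  apply rtk7i_approx_mul_left hF (hFJ σ hσ) _ H
  apply cycE_of_apply p n σ 1 hζ
  rw [pow_one]
  exact hσ ζ hζF

/-- complex conjugation has determinant `-1` -/
theorem rtk7i_conj (n : ℕ) {x : J} (hx : p ^ n • x = 0) :
    rtk7iD p 𝕋 n complexConjugation • x = -x := by
  have hp : p.Prime := Fact.out
  have hpos : 0 < p ^ n := pow_pos hp.pos n
  have he : cycE p n complexConjugation ≡ p ^ n - 1 [MOD p ^ n] := by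
    rw [cycE_modEq_iff, padicCyclo_conj p complexConjugation
      (fun m ζ hm hζ => complexConj_root m ζ hm hζ), map_neg, map_one, Nat.cast_sub hpos]
    simp
  rw [rtk7i_D_smul_of_modEq he hx, eq_neg_iff_add_eq_zero, ← succ_nsmul,
    Nat.sub_add_cancel hpos, hx]

/-- **K7b-inst.** -/
theorem stmtK7bInst : StmtK7bInst := by
  intro hcheb p L _ 𝕋 _ J _ _ _ Tr hP S hgood B hB
  have hF := rtk7i_fam hcheb hP S hgood B hB
  refine ⟨hF, ?_, ?_, ?_, ?_⟩
  · intro n ℓ hℓ hℓLp A hA τ hτ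
    exact rtk7i_approx_frob hP n hℓ hℓLp hA hτ
  · intro n q hq hqLp P hPq σ hσ g h H
    exact rtk7i_approx_inertia hF hP n hq hqLp hPq hσ H
  · intro n
    exact rtk7i_exists_field_approx hF hP n
  · intro n x hx
    exact rtk7i_conj n hx

end Inst

section Char

variable {p L : ℕ} [Fact p.Prime] {𝕋 : Type} [CommRing 𝕋] {J : Type} [AddCommGroup J]
  [Module 𝕋 J] [DistribMulAction GQ J] {Tr : ℕ → 𝕋}

/-- **K7b-inst, consumer form.** -/
theorem stmtK7bChar : StmtK7bChar := by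
  intro hcheb p L _ 𝕋 _ J _ _ _ Tr hP S hgood B hB T _ π I _ hpI hfaith
  have hF := rtk7i_fam hcheb hP S hgood B hB
  obtain ⟨t, ht⟩ := rtk7b_exists hF I hpI hfaith
  have hε : ∀ (n : ℕ) (g : GQ),
      ((Units.coeHom T).comp (cycloCharO p I hpI)) g - π (rtk7iD p 𝕋 n g) ∈
        Ideal.span {(p : T) ^ n} := by
    intro n g
    have e : π (rtk7iD p 𝕋 n g) = ((cycE p n g : ℕ) : T) := map_natCast π _
    show ((cycloCharO p I hpI g : Tˣ) : T) - π (rtk7iD p 𝕋 n g) ∈ _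
    rw [e]
    exact cycloCharO_sub_cycE p I hpI n g
  obtain ⟨h1, h2, h3⟩ := rtk7b_pseudo hF I hpI hfaith
    ((Units.coeHom T).comp (cycloCharO p I hpI)) hε ht
  refine ⟨t, ht, h1, h2, h3, ?_, ?_, ?_⟩
  · intro ℓ hℓ hℓS A hA τ hτ
    exact rtk7b_value I hfaith ht (hB ℓ hℓ hℓS)
      (fun n => rtk7i_approx_frob hP n hℓ (hgood ℓ hℓ hℓS) hA hτ)
  · intro q hq hqLp P hPq σ hσ g
    apply rtk7b_eq_of_forall_sub_mem I
    intro k
    obtain ⟨n, -, hn⟩ := hfaith k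
    obtain ⟨h, hh, H⟩ := hF.approx n g
    exact rtk7b_same ht hn hh H (rtk7i_approx_inertia hF hP n hq hqLp hPq hσ H)
  · intro k
    obtain ⟨n, -, hn⟩ := hfaith k
    obtain ⟨E, hEfin, hE⟩ := rtk7i_exists_field_approx hF hP n
    refine ⟨E, hEfin, fun σ hσ g => ?_⟩
    obtain ⟨h, hh, H⟩ := hF.approx n g
    exact rtk7b_same ht hn hh H (hE σ hσ g h H)

end Char

end Fermat.Agent.RT


end ZBRT_018_6

/-! ### bundled: `Fermat.Agent.RT.K7.Uniq` -/
section ZBRT_018_7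

/-!
# K-machine, piece K7-UNIQ (helper46): uniqueness of continuous pseudo-characters

Two continuous pseudo-characters `t, t' : G_ℚ → T` with the same determinant `ε` which agree on
the Frobenius elements at the primes outside a finite set `S` are equal.

* `rtk7uq_pow` : `t (τ ^ m) = s_m(t τ, ε τ)` (Lucas sequence) for a pseudo-character `t`;
* `rtk7uq_central` : `t (x y) = t (y x)` follows from the other two identities;
* `rtk7uq_congr` : the congruence form (modulo an ideal `𝔞`; `t`, `t'` locally constant modulo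
  `𝔞`; `t ≡ t'` and `ε ≡ ε'` modulo `𝔞` at the Frobenius elements);
* **`stmtK7Uniq : StmtK7Uniq`** (the Prop of `RT/K7/PlanMain.lean`);
* `rtk7uq_eq` : the equality for `I`-adically separated `T`;
* `rtk7uq_eq_of_finite` : the equality for pseudo-characters which factor through finite
  extensions (finite level: no topology on `T`).

Proof: weak Chebotarev (a hypothesis here; `Cheb.weakChebotarev_holds` proves it) + Lucas.
-/

set_option autoImplicit false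

namespace Fermat.Agent.RT

open Fermat.Agent.S31 Fermat.Agent.ES

section pow

variable {G T : Type*} [Group G] [CommRing T]

/-- the values of a pseudo-character on the powers of an element -/
theorem rtk7uq_pow (ε : G → T) (t : G → T) (h1 : t 1 = 2)
    (h3 : ∀ x y : G, t (x * y) + ε y * t (x * y⁻¹) = t x * t y) (τ : G) (m : ℕ) :
    t (τ ^ m) = lucasS (t τ) (ε τ) m := by
  induction m using Nat.twoStepInduction with
  | zero => rw [pow_zero, lucasS_zero, h1]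
  | one => rw [pow_one, lucasS_one]
  | more j h0 h1' =>
    have h := h3 (τ ^ (j + 1)) τ
    have e1 : τ ^ (j + 1) * τ = τ ^ (j + 2) := (pow_succ τ (j + 1)).symm
    have e2 : τ ^ (j + 1) * τ⁻¹ = τ ^ j := by
      rw [pow_succ, mul_assoc, mul_inv_cancel, mul_one]
    rw [e1, e2, h0, h1'] at h
    rw [lucasS_add_two]
    linear_combination h

/-- a pseudo-character is central -/
theorem rtk7uq_central (ε : G →* T) (t : G → T) (h1 : t 1 = 2)
    (h3 : ∀ x y : G, t (x * y) + ε y * t (x * y⁻¹) = t x * t y) (x y : G) :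
    t (x * y) = t (y * x) := by
  have hinv : ∀ z : G, ε z * t z⁻¹ = t z := by
    intro z
    have h := h3 1 z
    rw [one_mul, one_mul, h1] at h
    linear_combination h
  have hεy : ε y * ε y⁻¹ = 1 := by rw [← map_mul, mul_inv_cancel, map_one]
  have hεx : ε x * ε x⁻¹ = 1 := by rw [← map_mul, mul_inv_cancel, map_one]
  have e1 := h3 x y
  have e2 := h3 y x
  have e3 := hinv (x * y⁻¹)
  rw [mul_inv_rev, inv_inv, map_mul] at e3
  -- `ε x · ε y⁻¹ · t (y x⁻¹) = t (x y⁻¹)`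
  have e4 : ε x * t (y * x⁻¹) = ε y * t (x * y⁻¹) := by
    calc ε x * t (y * x⁻¹) = (ε y * ε y⁻¹) * (ε x * t (y * x⁻¹)) := by rw [hεy, one_mul]
      _ = ε y * (ε x * ε y⁻¹ * t (y * x⁻¹)) := by ring
      _ = ε y * t (x * y⁻¹) := by rw [e3]
  linear_combination e1 - e2 + e4

/-- the Lucas sequence respects congruences in both arguments -/
theorem rtk7uq_lucasS_congr (I : Ideal T) {a a' d d' : T} (ha : a - a' ∈ I) (hd : d - d' ∈ I)
    (m : ℕ) : lucasS a d m - lucasS a' d' m ∈ I := by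
  rw [← Ideal.Quotient.eq, ← RingHom.coe_coe, lucasS_map, lucasS_map]
  rw [RingHom.coe_coe, Ideal.Quotient.eq.mpr ha, Ideal.Quotient.eq.mpr hd]

end pow

section uniq

variable {T : Type*} [CommRing T]

/-- **K7-UNIQ, congruence form.**  `t`, `t'` satisfy the pseudo-character identities with
determinants `ε`, `ε'`, are locally constant modulo the ideal `𝔞`, and `t ≡ t'`, `ε ≡ ε'`
modulo `𝔞` at the Frobenius elements of the primes outside `S`.  Then `t ≡ t'` modulo `𝔞`. -/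
theorem rtk7uq_congr (hcheb : Cheb.WeakChebotarev) (𝔞 : Ideal T) (ε ε' : GQ → T)
    (t t' : GQ → T)
    (h1 : t 1 = 2) (h3 : ∀ x y : GQ, t (x * y) + ε y * t (x * y⁻¹) = t x * t y)
    (h1' : t' 1 = 2) (h3' : ∀ x y : GQ, t' (x * y) + ε' y * t' (x * y⁻¹) = t' x * t' y)
    (hcont : ∃ L : IntermediateField ℚ (AlgebraicClosure ℚ), FiniteDimensional ℚ L ∧
      ∀ g h : GQ, (∀ x ∈ L, g x = h x) → t g - t h ∈ 𝔞)
    (hcont' : ∃ L : IntermediateField ℚ (AlgebraicClosure ℚ), FiniteDimensional ℚ L ∧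
      ∀ g h : GQ, (∀ x ∈ L, g x = h x) → t' g - t' h ∈ 𝔞)
    (S : Finset ℕ)
    (hfrob : ∀ ℓ : ℕ, ℓ.Prime → ℓ ∉ S →
      ∀ 𝔄 : ValuationSubring (AlgebraicClosure ℚ), 𝔄.LiesOverPrime ℓ →
        ∀ τ : GQ, 𝔄.IsFrobeniusAt τ ℓ → t τ - t' τ ∈ 𝔞 ∧ ε τ - ε' τ ∈ 𝔞)
    (g : GQ) : t g - t' g ∈ 𝔞 := by
  obtain ⟨L, hLfin, hL⟩ := hcont
  obtain ⟨L', hLfin', hL'⟩ := hcont'
  obtain ⟨F, hFfin, hFgal, hLF, hLF', -⟩ := exists_galois_hull L L' L
  obtain ⟨ℓ, 𝔄, τ, m, hℓ, hℓS, h𝔄, hτ, hg⟩ := hcheb F S g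
  obtain ⟨hf1, hf2⟩ := hfrob ℓ hℓ hℓS 𝔄 h𝔄 τ hτ
  have e1 : t g - t (τ ^ m) ∈ 𝔞 := hL g (τ ^ m) fun x hx => (hg x (hLF hx)).symm
  have e2 : t' g - t' (τ ^ m) ∈ 𝔞 := hL' g (τ ^ m) fun x hx => (hg x (hLF' hx)).symm
  have e3 : t (τ ^ m) - t' (τ ^ m) ∈ 𝔞 := by
    rw [rtk7uq_pow ε t h1 h3, rtk7uq_pow ε' t' h1' h3']
    exact rtk7uq_lucasS_congr 𝔞 hf1 hf2 m
  have : t g - t' g = (t g - t (τ ^ m)) + (t (τ ^ m) - t' (τ ^ m)) - (t' g - t' (τ ^ m)) := by
    ring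
  rw [this]
  exact sub_mem (add_mem e1 e3) e2

/-- left-invariance under an open subgroup gives local constancy (centrality of `t`) -/
theorem rtk7uq_locConst (𝔞 : Ideal T) (ε : GQ →* T) (t : GQ → T) (h1 : t 1 = 2)
    (h3 : ∀ x y : GQ, t (x * y) + ε y * t (x * y⁻¹) = t x * t y)
    (E : IntermediateField ℚ (AlgebraicClosure ℚ))
    (hE : ∀ σ : GQ, (∀ a ∈ E, σ a = a) → ∀ g, t (σ * g) - t g ∈ 𝔞)
    (g h : GQ) (hgh : ∀ x ∈ E, g x = h x) : t g - t h ∈ 𝔞 := by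
  -- `g = h u`, `u = h⁻¹ g` fixes `E`
  have hu : ∀ a ∈ E, (h⁻¹ * g) a = a := by
    intro a ha
    rw [AlgEquiv.mul_apply, hgh a ha, ← AlgEquiv.mul_apply, inv_mul_cancel, AlgEquiv.one_apply]
  have e : g = h * (h⁻¹ * g) := by group
  have h2 := hE (h⁻¹ * g) hu h
  rw [rtk7uq_central ε t h1 h3 (h⁻¹ * g) h, ← e] at h2
  exact h2

/-- **K7-UNIQ.** -/
theorem stmtK7Uniq : StmtK7Uniq := by
  intro hcheb A _ I S ε t t' h1 h1' h3 h3' hcont hfrob g
  obtain ⟨E, hEfin, hE⟩ := hcont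
  refine rtk7uq_congr hcheb I ε ε t t' h1 h3 h1' h3'
    ⟨E, hEfin, rtk7uq_locConst I ε t h1 h3 E fun σ hσ g => (hE σ hσ g).1⟩
    ⟨E, hEfin, rtk7uq_locConst I ε t' h1' h3' E fun σ hσ g => (hE σ hσ g).2⟩ S ?_ g
  intro ℓ hℓ hℓS 𝔄 h𝔄 τ hτ
  refine ⟨hfrob ℓ hℓ hℓS 𝔄 h𝔄 τ hτ, ?_⟩
  rw [sub_self]
  exact Ideal.zero_mem _

/-- **K7-UNIQ** for pseudo-characters continuous for the `I`-adic topology of an `I`-adically
separated ring. -/
theorem rtk7uq_eq (hcheb : Cheb.WeakChebotarev) (I : Ideal T) [IsHausdorff I T] (ε : GQ → T)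
    (t t' : GQ → T)
    (h1 : t 1 = 2) (h3 : ∀ x y : GQ, t (x * y) + ε y * t (x * y⁻¹) = t x * t y)
    (h1' : t' 1 = 2) (h3' : ∀ x y : GQ, t' (x * y) + ε y * t' (x * y⁻¹) = t' x * t' y)
    (hcont : ∀ k : ℕ, ∃ L : IntermediateField ℚ (AlgebraicClosure ℚ), FiniteDimensional ℚ L ∧
      ∀ g h : GQ, (∀ x ∈ L, g x = h x) → t g - t h ∈ I ^ k)
    (hcont' : ∀ k : ℕ, ∃ L : IntermediateField ℚ (AlgebraicClosure ℚ), FiniteDimensional ℚ L ∧
      ∀ g h : GQ, (∀ x ∈ L, g x = h x) → t' g - t' h ∈ I ^ k)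
    (S : Finset ℕ)
    (hfrob : ∀ ℓ : ℕ, ℓ.Prime → ℓ ∉ S →
      ∀ 𝔄 : ValuationSubring (AlgebraicClosure ℚ), 𝔄.LiesOverPrime ℓ →
        ∀ τ : GQ, 𝔄.IsFrobeniusAt τ ℓ → t τ = t' τ) :
    t = t' := by
  funext g
  rw [← sub_eq_zero]
  apply IsHausdorff.haus (I := I) (M := T) inferInstance
  intro k
  rw [SModEq.zero, smul_eq_mul, Ideal.mul_top]
  refine rtk7uq_congr hcheb (I ^ k) ε ε t t' h1 h3 h1' h3' (hcont k) (hcont' k) S ?_ g
  intro ℓ hℓ hℓS 𝔄 h𝔄 τ hτ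
  rw [hfrob ℓ hℓ hℓS 𝔄 h𝔄 τ hτ, sub_self, sub_self]
  exact ⟨Ideal.zero_mem _, Ideal.zero_mem _⟩

/-- **K7-UNIQ** at finite level: pseudo-characters which factor through finite extensions. -/
theorem rtk7uq_eq_of_finite (hcheb : Cheb.WeakChebotarev) (ε : GQ → T) (t t' : GQ → T)
    (h1 : t 1 = 2) (h3 : ∀ x y : GQ, t (x * y) + ε y * t (x * y⁻¹) = t x * t y)
    (h1' : t' 1 = 2) (h3' : ∀ x y : GQ, t' (x * y) + ε y * t' (x * y⁻¹) = t' x * t' y)
    (hcont : ∃ L : IntermediateField ℚ (AlgebraicClosure ℚ), FiniteDimensional ℚ L ∧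
      ∀ g h : GQ, (∀ x ∈ L, g x = h x) → t g = t h)
    (hcont' : ∃ L : IntermediateField ℚ (AlgebraicClosure ℚ), FiniteDimensional ℚ L ∧
      ∀ g h : GQ, (∀ x ∈ L, g x = h x) → t' g = t' h)
    (S : Finset ℕ)
    (hfrob : ∀ ℓ : ℕ, ℓ.Prime → ℓ ∉ S →
      ∀ 𝔄 : ValuationSubring (AlgebraicClosure ℚ), 𝔄.LiesOverPrime ℓ →
        ∀ τ : GQ, 𝔄.IsFrobeniusAt τ ℓ → t τ = t' τ) :
    t = t' := by
  funext g
  rw [← sub_eq_zero, ← Ideal.mem_bot]
  obtain ⟨L, hLfin, hL⟩ := hcont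
  obtain ⟨L', hLfin', hL'⟩ := hcont'
  refine rtk7uq_congr hcheb ⊥ ε ε t t' h1 h3 h1' h3'
    ⟨L, hLfin, fun g h hgh => by rw [Ideal.mem_bot, sub_eq_zero]; exact hL g h hgh⟩
    ⟨L', hLfin', fun g h hgh => by rw [Ideal.mem_bot, sub_eq_zero]; exact hL' g h hgh⟩ S ?_ g
  intro ℓ hℓ hℓS 𝔄 h𝔄 τ hτ
  rw [hfrob ℓ hℓ hℓS 𝔄 h𝔄 τ hτ, sub_self, sub_self]
  exact ⟨Ideal.zero_mem _, Ideal.zero_mem _⟩

end uniq

end Fermat.Agent.RT


end ZBRT_018_7

/-! ### bundled: `Fermat.Agent.RT.K7.Fin` -/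
section ZBRT_018_8
/-
K-machine, piece K7-FIN (helper27): the pseudo-character machine `RT/K7/PseudoFam.lean` over a
FINITE local ring (the finite-level design of HECKE-asm, helper59).

* `rtk7fin_isAdicComplete_of_pow_eq_bot` : `I ^ n = ⊥ ⇒ IsAdicComplete I A`;
* `rtk7fin_exists_pow_eq_bot`, `rtk7fin_isAdicComplete` : a finite (or artinian) local ring has
  nilpotent maximal ideal and is `𝔪`-adically complete;
* `rtk7fin_natCast_pow_eq_zero` : `p ∈ 𝔪 ⇒ p ^ N = 0`;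
* `rtk7fin_good`, `rtk7fin_hfaith` : if every allowed polynomial killing `J[p ^ n₀]` has
  `π`-value `0`, all levels `n ≥ n₀` are good for every precision;
* `rtk7fin_good_iff` : conversely, if `p ^ N = 0` in `T`, goodness for the precision `N` means
  that the `π`-value is `0`;
* `rtk7fin_exists` : the trace function `t : G → T` with EXACT values: `t g = π h` for every
  representative `h ∈ B` of `g` at a level `n ≥ n₀`;
* `rtk7fin_pseudo` : the pseudo-character identities, with `ε g = π (D n g)` exactly.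
Mathlib-only (on top of `RT/K7/PseudoFam.lean`).
-/

set_option autoImplicit false
set_option linter.style.haveILetI false

namespace Fermat.Agent.RT

open IsLocalRing

section Complete

variable {A : Type*} [CommRing A]

/-- A ring is complete for a nilpotent ideal. -/
theorem rtk7fin_isAdicComplete_of_pow_eq_bot (I : Ideal A) {n : ℕ} (hn : I ^ n = ⊥) :
    IsAdicComplete I A := by
  have hbot : ∀ x y : A, x ≡ y [SMOD (I ^ n • ⊤ : Submodule A A)] → x = y := by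
    intro x y h
    rw [SModEq.sub_mem, smul_eq_mul, Ideal.mul_top, hn, Ideal.mem_bot, sub_eq_zero] at h
    exact h
  haveI : IsHausdorff I A := ⟨fun x hx => hbot x 0 (hx n)⟩
  haveI : IsPrecomplete I A := ⟨fun f hf => ⟨f n, fun k => by
    rcases le_total k n with hkn | hnk
    · exact hf hkn
    · rw [hbot _ _ (hf hnk)]⟩⟩
  exact ⟨⟩

/-- The maximal ideal of an artinian local ring is nilpotent. -/
theorem rtk7fin_exists_pow_eq_bot [IsLocalRing A] [IsArtinianRing A] :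
    ∃ n : ℕ, maximalIdeal A ^ n = ⊥ := by
  have h := IsArtinianRing.isNilpotent_jacobson_bot (R := A)
  rw [IsLocalRing.jacobson_eq_maximalIdeal (⊥ : Ideal A) bot_ne_top] at h
  obtain ⟨n, hn⟩ := h
  exact ⟨n, hn⟩

/-- **An artinian (e.g. finite) local ring is `𝔪`-adically complete.** -/
theorem rtk7fin_isAdicComplete [IsLocalRing A] [IsArtinianRing A] :
    IsAdicComplete (maximalIdeal A) A := by
  obtain ⟨n, hn⟩ := rtk7fin_exists_pow_eq_bot (A := A)
  exact rtk7fin_isAdicComplete_of_pow_eq_bot _ hn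

/-- the same for a finite local ring -/
theorem rtk7fin_isAdicComplete_of_finite [IsLocalRing A] [Finite A] :
    IsAdicComplete (maximalIdeal A) A :=
  rtk7fin_isAdicComplete

/-- `p ∈ 𝔪 ⇒ p ^ N = 0` in an artinian local ring. -/
theorem rtk7fin_natCast_pow_eq_zero [IsLocalRing A] [IsArtinianRing A] {p : ℕ}
    (hp : (p : A) ∈ maximalIdeal A) : ∃ N : ℕ, (p : A) ^ N = 0 := by
  obtain ⟨n, hn⟩ := rtk7fin_exists_pow_eq_bot (A := A)
  refine ⟨n, ?_⟩
  have := Ideal.pow_mem_pow hp n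
  rwa [hn, Ideal.mem_bot] at this

end Complete

section Good

variable {p : ℕ} {G 𝕋 : Type*} [Group G] [CommRing 𝕋] {J : Type*} [AddCommGroup J]
  [Module 𝕋 J] [DistribMulAction G J] {D : ℕ → G → 𝕋} {B : Subring 𝕋}
  {T : Type*} [CommRing T] {π : 𝕋 →+* T}

omit [Group G] [DistribMulAction G J] in
/-- exact faithfulness at level `n₀` ⇒ every level `n ≥ n₀` is good for every precision -/
theorem rtk7fin_good {n₀ : ℕ}
    (hkill : ∀ h ∈ B, (∀ x : J, p ^ n₀ • x = 0 → h • x = 0) → π h = 0) (k : ℕ) {n : ℕ}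
    (hn : n₀ ≤ n) : Rtk7bGood p J B π k n := by
  have h0 : Rtk7bGood p J B π k n₀ := fun h hh hx => by
    rw [hkill h hh hx]
    exact Ideal.zero_mem _
  exact h0.mono_level hn

omit [Group G] [DistribMulAction G J] in
/-- the hypothesis `hfaith` of `rtk7b_exists` from exact faithfulness at one level -/
theorem rtk7fin_hfaith {n₀ : ℕ}
    (hkill : ∀ h ∈ B, (∀ x : J, p ^ n₀ • x = 0 → h • x = 0) → π h = 0) :
    ∀ k : ℕ, ∃ n : ℕ, k ≤ n ∧ Rtk7bGood p J B π k n :=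
  fun k => ⟨max k n₀, le_max_left _ _, rtk7fin_good hkill k (le_max_right _ _)⟩

omit [Group G] [DistribMulAction G J] in
/-- if `p ^ N = 0` in `T`, goodness for the precision `N` is exact faithfulness -/
theorem rtk7fin_good_iff {N : ℕ} (hN : (p : T) ^ N = 0) (n : ℕ) :
    Rtk7bGood p J B π N n ↔
      ∀ h ∈ B, (∀ x : J, p ^ n • x = 0 → h • x = 0) → π h = 0 := by
  constructor
  · intro hG h hh hx
    have := hG h hh hx
    rwa [hN, Ideal.span_singleton_eq_bot.mpr rfl, Ideal.mem_bot] at this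
  · intro hkill
    exact rtk7fin_good hkill N le_rfl

/-- **The trace function over a ring with nilpotent `I ∋ p`**, with exact values. -/
theorem rtk7fin_exists (hF : Rtk7bFam p J D B) (I : Ideal T) {m : ℕ} (hI : I ^ m = ⊥)
    (hpI : (p : T) ∈ I) {n₀ : ℕ}
    (hkill : ∀ h ∈ B, (∀ x : J, p ^ n₀ • x = 0 → h • x = 0) → π h = 0) :
    ∃ t : G → T, Rtk7bSpec p J D B π I t ∧
      ∀ (g : G) (n : ℕ) (h : 𝕋), n₀ ≤ n → h ∈ B → Rtk7bApprox p J D n g h → t g = π h := by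
  haveI : IsAdicComplete I T := rtk7fin_isAdicComplete_of_pow_eq_bot I hI
  obtain ⟨t, ht⟩ := rtk7b_exists hF I hpI (rtk7fin_hfaith hkill)
  refine ⟨t, ht, fun g n h hn hh H => ?_⟩
  have := ht g m n h (rtk7fin_good hkill m hn) hh H
  rwa [hI, Ideal.mem_bot, sub_eq_zero] at this

/-- **The pseudo-character identities** in the finite situation: `ε g = π (D n g)` for
`n ≥ n₁`. -/
theorem rtk7fin_pseudo (hF : Rtk7bFam p J D B) (I : Ideal T) {m : ℕ} (hI : I ^ m = ⊥)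
    (hpI : (p : T) ∈ I) {n₀ : ℕ}
    (hkill : ∀ h ∈ B, (∀ x : J, p ^ n₀ • x = 0 → h • x = 0) → π h = 0)
    (ε : G →* T) (hε : ∀ (n : ℕ) (g : G), ε g - π (D n g) ∈ Ideal.span {(p : T) ^ n})
    {t : G → T} (ht : Rtk7bSpec p J D B π I t) :
    t 1 = 2 ∧ (∀ x y : G, t (x * y) = t (y * x)) ∧
      ∀ x y : G, t (x * y) + ε y * t (x * y⁻¹) = t x * t y := by
  haveI : IsAdicComplete I T := rtk7fin_isAdicComplete_of_pow_eq_bot I hI
  exact rtk7b_pseudo hF I hpI (rtk7fin_hfaith hkill) ε hε ht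

end Good

section Local

variable {p : ℕ} {G 𝕋 : Type*} [Group G] [CommRing 𝕋] {J : Type*} [AddCommGroup J]
  [Module 𝕋 J] [DistribMulAction G J] {D : ℕ → G → 𝕋} {B : Subring 𝕋}
  {T : Type*} [CommRing T] [IsLocalRing T] [IsArtinianRing T] {π : 𝕋 →+* T}

/-- **The trace function over an artinian (e.g. finite) local ring**, with exact values. -/
theorem rtk7fin_exists_local (hF : Rtk7bFam p J D B) (hpT : (p : T) ∈ maximalIdeal T) {n₀ : ℕ}
    (hkill : ∀ h ∈ B, (∀ x : J, p ^ n₀ • x = 0 → h • x = 0) → π h = 0) :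
    ∃ t : G → T, Rtk7bSpec p J D B π (maximalIdeal T) t ∧
      ∀ (g : G) (n : ℕ) (h : 𝕋), n₀ ≤ n → h ∈ B → Rtk7bApprox p J D n g h → t g = π h := by
  obtain ⟨m, hm⟩ := rtk7fin_exists_pow_eq_bot (A := T)
  exact rtk7fin_exists hF _ hm hpT hkill

end Local

end Fermat.Agent.RT


end ZBRT_018_8

/-! ### bundled: `Fermat.Agent.RT.K7.Main` -/
section ZBRT_018_9
/-
RT-K7 / K7-MAIN (helper27): the glue.

`StmtK7MainAdic` : the ADIC form of `StmtK7Main` (`A` a complete noetherian local ring with finite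
residue field, faithfulness at every precision), and
`stmtK7MainAdic_of : StmtK7GRAFix → StmtK7MainAdic`, `stmtK7Main_of : StmtK7GRAFix → StmtK7Main`.
-/

/-!
# K-machine, piece K7-MAIN: the representation over a Hecke ring (glue)

Sub-captain helper59, `NOTES/RT-K7.md`.

* `rtk7m_mat_pseudo`, `rtk7m_trace_pseudo` : the trace of a `2`-dimensional representation is a
  pseudo-character with determinant `det`.
* `rtk7m_residue_det` : `ε mod 𝔪 = det ρbar` from the action on `μ_p`.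
* `rtk7m_cyc` : the congruences `ε σ ≡ a mod pⁿ` of the cyclotomic character (the hypothesis
  `hcyc` of `StmtK7GRAFix`).
* `rtk7m_residue_trace` : `t mod 𝔪 = tr ρbar` (K7-UNIQ).
* `StmtK7MainAdic`, `stmtK7MainAdic_of`, `stmtK7Main_of`.
-/

set_option autoImplicit false

namespace Fermat.Agent.RT

open Fermat.Agent.ES Fermat.Agent.S30 Fermat.Agent.W1 IsLocalRing

section Aux

/-- the pseudo-character identity for `2 × 2` matrices -/
theorem rtk7m_mat_pseudo {k : Type*} [CommRing k] (X Y Y' : Matrix (Fin 2) (Fin 2) k)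
    (h : Y * Y' = 1) :
    (X * Y).trace + Y.det * (X * Y').trace = X.trace * Y.trace := by
  have h1 : Y.adjugate = Y.det • Y' := by
    calc Y.adjugate = Y.adjugate * (Y * Y') := by rw [h, mul_one]
      _ = (Y.adjugate * Y) * Y' := by rw [mul_assoc]
      _ = Y.det • Y' := by rw [Matrix.adjugate_mul, Matrix.smul_mul, one_mul]
  have h2 : Y.det * (X * Y').trace = (X * Y.adjugate).trace := by
    rw [h1, Matrix.mul_smul, Matrix.trace_smul, smul_eq_mul]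
  rw [h2, Matrix.adjugate_fin_two]
  simp only [Matrix.trace_fin_two, Matrix.mul_apply, Fin.sum_univ_two, Matrix.of_apply,
    Matrix.cons_val', Matrix.cons_val_zero, Matrix.cons_val_one, Matrix.cons_val_fin_one]
  ring

/-- the trace of a `2`-dimensional representation is a pseudo-character -/
theorem rtk7m_trace_pseudo {G k V : Type*} [Group G] [Field k] [AddCommGroup V] [Module k V]
    (hV : Module.finrank k V = 2) (r : G →* Module.End k V) (x y : G) :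
    LinearMap.trace k V (r (x * y)) + LinearMap.det (r y) * LinearMap.trace k V (r (x * y⁻¹))
      = LinearMap.trace k V (r x) * LinearMap.trace k V (r y) := by
  classical
  haveI : Module.Finite k V := Module.finite_of_finrank_eq_succ hV
  let b : Module.Basis (Fin 2) k V := Module.finBasisOfFinrankEq k V hV
  have hyy : LinearMap.toMatrix b b (r y) * LinearMap.toMatrix b b (r y⁻¹) = 1 := by
    rw [← LinearMap.toMatrix_mul, ← map_mul, mul_inv_cancel, map_one]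
    exact LinearMap.toMatrix_one b
  have key := rtk7m_mat_pseudo (LinearMap.toMatrix b b (r x)) _ _ hyy
  rw [LinearMap.trace_eq_matrix_trace k b, LinearMap.trace_eq_matrix_trace k b,
    LinearMap.trace_eq_matrix_trace k b, LinearMap.trace_eq_matrix_trace k b,
    ← LinearMap.det_toMatrix b, map_mul r x y, map_mul r x y⁻¹, LinearMap.toMatrix_mul,
    LinearMap.toMatrix_mul]
  exact key

/-- `Ξ` commutes with ring homomorphisms -/
theorem rtk7m_map_Xi {G R R' : Type*} [Group G] [CommRing R] [CommRing R'] (φ : R →+* R')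
    (t : G → R) (c : G) (i2 : R) (x y : G) :
    φ (rtk7Xi t c i2 x y) = rtk7Xi (fun g => φ (t g)) c (φ i2) x y := by
  simp only [rtk7Xi, rtk7A, map_sub, map_mul, map_add]

/-- the trace of Wiles' matrix is `t` -/
theorem rtk7m_trace_mat {G R : Type*} [Group G] [CommRing R] (t : G → R) (c : G) (i2 : R)
    (hi2 : 2 * i2 = 1) (σ₀ τ₀ : G) (u : R) (g : G) :
    (rtk7Mat t c i2 σ₀ τ₀ u g).trace = t g := by
  rw [rtk7Mat, Matrix.trace_fin_two]
  simp only [Matrix.of_apply, Matrix.cons_val', Matrix.cons_val_zero, Matrix.cons_val_one,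
    Matrix.cons_val_fin_one]
  exact rtk7A_add_D t c i2 g hi2

end Aux

section Cyclo

variable {p : ℕ} [Fact p.Prime]

/-- **The congruences of the cyclotomic character** (hypothesis `hcyc` of `StmtK7GRAFix`). -/
theorem rtk7m_cyc {A : Type*} [CommRing A] (I : Ideal A) [IsAdicComplete I A]
    (hpI : (p : A) ∈ I) (n : ℕ) (σ : GQ) (a : ℕ)
    (h : ∀ μ : AlgebraicClosure ℚ, μ ^ p ^ n = 1 → σ μ = μ ^ a) :
    ((cycloCharO p I hpI σ : Aˣ) : A) - (a : A) ∈ Ideal.span {((p ^ n : ℕ) : A)} := by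
  have hpp : p.Prime := Fact.out
  haveI : NeZero ((p ^ n : ℕ) : AlgebraicClosure ℚ) :=
    ⟨Nat.cast_ne_zero.mpr (pow_ne_zero _ hpp.ne_zero)⟩
  obtain ⟨ζ, hζ⟩ := HasEnoughRootsOfUnity.exists_primitiveRoot (AlgebraicClosure ℚ) (p ^ n)
  have hmod : cycE p n σ ≡ a [MOD p ^ n] := cycE_of_apply p n σ a hζ (h ζ hζ.pow_eq_one)
  have h1 := cycloCharO_sub_cycE p I hpI n σ
  rw [Nat.cast_pow]
  have h2 : ((cycE p n σ : ℕ) : A) - (a : A) ∈ Ideal.span {(p : A) ^ n} := by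
    have hdvd : ((p ^ n : ℕ) : ℤ) ∣ (a : ℤ) - (cycE p n σ : ℤ) := (Nat.modEq_iff_dvd).mp hmod
    obtain ⟨d, hd⟩ := hdvd
    rw [Ideal.mem_span_singleton]
    refine ⟨-(d : A), ?_⟩
    have := congrArg (Int.cast : ℤ → A) hd
    push_cast at this
    linear_combination -this
  have e : ((cycloCharO p I hpI σ : Aˣ) : A) - (a : A)
      = (((cycloCharO p I hpI σ : Aˣ) : A) - ((cycE p n σ : ℕ) : A))
        + (((cycE p n σ : ℕ) : A) - (a : A)) := by ring
  rw [e]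
  exact add_mem h1 h2

/-- `ε mod 𝔪 = det ρbar`, from the action on `μ_p`. -/
theorem rtk7m_residue_det {A : Type} [CommRing A] [IsLocalRing A]
    [IsAdicComplete (maximalIdeal A) A] (hpA : (p : A) ∈ maximalIdeal A)
    (ρbar : ResidualGaloisRep (ResidueField A))
    (hdet : ∀ (σ : GQ) (a : ℕ), (∀ μ : AlgebraicClosure ℚ, μ ^ p = 1 → σ μ = μ ^ a) →
      LinearMap.det (ρbar.ρ σ) = (a : ResidueField A)) (σ : GQ) :
    residue A ((cycloCharO p (maximalIdeal A) hpA σ : Aˣ) : A) = LinearMap.det (ρbar.ρ σ) := by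
  obtain ⟨k, hk, hmem⟩ := cycloCharO_spec p (maximalIdeal A) hpA σ 1
  rw [hdet σ k (fun μ hμ => hk μ (by rwa [pow_one]))]
  have h1 : ((cycloCharO p (maximalIdeal A) hpA σ : Aˣ) : A) - (k : A) ∈ maximalIdeal A := by
    have hle : Ideal.span {(p : A) ^ 1} ≤ maximalIdeal A := by
      rw [Ideal.span_singleton_le_iff_mem, pow_one]
      exact hpA
    exact hle hmem
  have h2 := (residue_eq_zero_iff _).mpr h1
  rw [map_sub, sub_eq_zero, map_natCast] at h2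
  exact h2

end Cyclo

section Resid

/-- **`t mod 𝔪 = tr ρbar`** (K7-UNIQ over the residue field). -/
theorem rtk7m_residue_trace (hcheb : Cheb.WeakChebotarev) {A : Type} [CommRing A]
    [IsLocalRing A] (S : Finset ℕ) (ε : GQ →* A) (t : GQ → A)
    (h1 : t 1 = 2) (h3 : ∀ x y, t (x * y) + ε y * t (x * y⁻¹) = t x * t y)
    (hcont : ∃ E : IntermediateField ℚ (AlgebraicClosure ℚ), FiniteDimensional ℚ E ∧
        ∀ σ : GQ, (∀ a ∈ E, σ a = a) → ∀ g : GQ, t (σ * g) - t g ∈ maximalIdeal A)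
    (ρbar : ResidualGaloisRep (ResidueField A))
    (hεdet : ∀ σ, residue A (ε σ) = LinearMap.det (ρbar.ρ σ))
    (hfrob : ∀ ℓ : ℕ, ℓ.Prime → ℓ ∉ S →
      ∀ P : ValuationSubring (AlgebraicClosure ℚ), P.LiesOverPrime ℓ →
        ∀ τ : GQ, P.IsFrobeniusAt τ ℓ →
          residue A (t τ) = LinearMap.trace (ResidueField A) ρbar.V (ρbar.ρ τ)) (σ : GQ) :
    residue A (t σ) = LinearMap.trace (ResidueField A) ρbar.V (ρbar.ρ σ) := by
  have hh1 : (fun g => residue A (t g)) 1 = 2 := by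
    show residue A (t 1) = 2
    rw [h1]
    exact map_ofNat _ 2
  have hh3 : ∀ x y : GQ, (fun g => residue A (t g)) (x * y)
      + (fun g => residue A (ε g)) y * (fun g => residue A (t g)) (x * y⁻¹)
      = (fun g => residue A (t g)) x * (fun g => residue A (t g)) y := by
    intro x y
    show residue A (t (x * y)) + residue A (ε y) * residue A (t (x * y⁻¹))
      = residue A (t x) * residue A (t y)
    rw [← map_mul, ← map_add, h3, map_mul]
  have hh1' : (fun g => LinearMap.trace (ResidueField A) ρbar.V (ρbar.ρ g)) 1 = 2 := by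
    show LinearMap.trace (ResidueField A) ρbar.V (ρbar.ρ 1) = 2
    rw [map_one, LinearMap.trace_one, ρbar.finrank_eq]
    norm_num
  have hh3' : ∀ x y : GQ,
      (fun g => LinearMap.trace (ResidueField A) ρbar.V (ρbar.ρ g)) (x * y)
      + (fun g => residue A (ε g)) y
        * (fun g => LinearMap.trace (ResidueField A) ρbar.V (ρbar.ρ g)) (x * y⁻¹)
      = (fun g => LinearMap.trace (ResidueField A) ρbar.V (ρbar.ρ g)) x
        * (fun g => LinearMap.trace (ResidueField A) ρbar.V (ρbar.ρ g)) y := by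
    intro x y
    show LinearMap.trace (ResidueField A) ρbar.V (ρbar.ρ (x * y))
      + residue A (ε y) * LinearMap.trace (ResidueField A) ρbar.V (ρbar.ρ (x * y⁻¹))
      = LinearMap.trace (ResidueField A) ρbar.V (ρbar.ρ x)
        * LinearMap.trace (ResidueField A) ρbar.V (ρbar.ρ y)
    rw [hεdet]
    exact rtk7m_trace_pseudo ρbar.finrank_eq ρbar.ρ x y
  have hc1 : ∃ L : IntermediateField ℚ (AlgebraicClosure ℚ), FiniteDimensional ℚ L ∧
      ∀ g h : GQ, (∀ x ∈ L, g x = h x) →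
        (fun g => residue A (t g)) g = (fun g => residue A (t g)) h := by
    obtain ⟨E, hEfin, hE⟩ := hcont
    refine ⟨E, hEfin, fun g h hgh => ?_⟩
    have hmem := rtk7uq_locConst (maximalIdeal A) ε t h1 h3 E hE g h hgh
    have h0 := (residue_eq_zero_iff _).mpr hmem
    rw [map_sub, sub_eq_zero] at h0
    exact h0
  have hc2 : ∃ L : IntermediateField ℚ (AlgebraicClosure ℚ), FiniteDimensional ℚ L ∧
      ∀ g h : GQ, (∀ x ∈ L, g x = h x) →
        (fun g => LinearMap.trace (ResidueField A) ρbar.V (ρbar.ρ g)) g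
          = (fun g => LinearMap.trace (ResidueField A) ρbar.V (ρbar.ρ g)) h := by
    obtain ⟨L, hLfin, hker⟩ := ρbar.factorsThroughFiniteLevel
    refine ⟨L, hLfin, fun g h hgh => ?_⟩
    have hu : ∀ a ∈ L, (h⁻¹ * g) a = a := by
      intro a ha
      rw [AlgEquiv.mul_apply, hgh a ha, ← AlgEquiv.mul_apply, inv_mul_cancel,
        AlgEquiv.one_apply]
    have e : ρbar.ρ g = ρbar.ρ h := by
      calc ρbar.ρ g = ρbar.ρ (h * (h⁻¹ * g)) := by rw [mul_inv_cancel_left]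
        _ = ρbar.ρ h * ρbar.ρ (h⁻¹ * g) := map_mul _ _ _
        _ = ρbar.ρ h := by rw [hker _ hu, mul_one]
    show LinearMap.trace (ResidueField A) ρbar.V (ρbar.ρ g)
      = LinearMap.trace (ResidueField A) ρbar.V (ρbar.ρ h)
    rw [e]
  have key := rtk7uq_eq_of_finite hcheb (fun g => residue A (ε g))
    (fun g => residue A (t g))
    (fun g => LinearMap.trace (ResidueField A) ρbar.V (ρbar.ρ g)) hh1 hh3 hh1' hh3' hc1 hc2 S
    hfrob
  exact congrFun key σ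

end Resid

/-- **K7-MAIN, adic form.**  `A` a complete noetherian local ring with finite residue field,
`π : 𝕋 → A` faithful at every precision (`∀ k ∃ n ≥ k, Rtk7bGood p J B π k n`). -/
def StmtK7MainAdic : Prop :=
  Cheb.WeakChebotarev →
  ∀ (p L : ℕ) [Fact p.Prime], p ≠ 2 →
  ∀ (𝕋 : Type) [CommRing 𝕋] (J : Type) [AddCommGroup J] [Module 𝕋 J] [DistribMulAction GQ J]
    (Tr : ℕ → 𝕋), Rtk7bPkg p L J Tr →
  ∀ (S : Finset ℕ), (∀ r : ℕ, r.Prime → r ∉ S → ¬ r ∣ L * p) →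
  ∀ (B : Subring 𝕋), (∀ ℓ : ℕ, ℓ.Prime → ℓ ∉ S → Tr ℓ ∈ B) →
  (∀ n : ℕ, ∃ (X : Type) (_ : AddCommGroup X) (_ : Finite X) (act : GQ → X → X),
      (∀ σ x x', act σ (x + x') = act σ x + act σ x') ∧
      (∀ σ τ x, act (σ * τ) x = act σ (act τ x)) ∧
      HasFiniteFlatModel (GaloisRep.ratLocalizedAt p) X act ∧
      ∀ e : GQ →₀ ℤ, (∀ x : X, (e.sum fun g z => z • act g x) = 0) →
        ∀ x : J, p ^ n • x = 0 → (e.sum fun g z => z • g • x) = 0) →
  ∀ (A : Type) [CommRing A] [IsLocalRing A] [IsNoetherianRing A]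
    [IsAdicComplete (maximalIdeal A) A] [Finite (ResidueField A)],
    (p : A) ∈ maximalIdeal A →
  ∀ (i2 : A), 2 * i2 = 1 →
  ∀ (π : 𝕋 →+* A),
    (∀ k : ℕ, ∃ n : ℕ, k ≤ n ∧ Rtk7bGood p J B π k n) →
  ∀ (ρbar : ResidualGaloisRep (ResidueField A)), ρbar.IsIrreducible →
    (∀ (σ : GQ) (a : ℕ), (∀ μ : AlgebraicClosure ℚ, μ ^ p = 1 → σ μ = μ ^ a) →
      LinearMap.det (ρbar.ρ σ) = (a : ResidueField A)) →
    (∀ ℓ : ℕ, ℓ.Prime → ℓ ∉ S →
      ∀ P : ValuationSubring (AlgebraicClosure ℚ), P.LiesOverPrime ℓ →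
        ∀ τ : GQ, P.IsFrobeniusAt τ ℓ →
          residue A (π (Tr ℓ)) = LinearMap.trace (ResidueField A) ρbar.V (ρbar.ρ τ)) →
  ∀ (σ₀ τ₀ : GQ),
    rtk7Xi (fun g => LinearMap.trace (ResidueField A) ρbar.V (ρbar.ρ g)) complexConjugation
      (residue A i2) σ₀ τ₀ ≠ 0 →
  ∃ (t : GQ → A) (u : A) (ρ : GaloisRepAdic A) (b : Module.Basis (Fin 2) A ρ.V),
    u * rtk7Xi t complexConjugation i2 σ₀ τ₀ = 1 ∧
    (∀ g, LinearMap.toMatrix b b (ρ.ρ g) = rtk7Mat t complexConjugation i2 σ₀ τ₀ u g) ∧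
    (∀ g, LinearMap.trace A ρ.V (ρ.ρ g) = t g) ∧
    (∀ ℓ : ℕ, ℓ.Prime → ℓ ∉ S →
      ∀ P : ValuationSubring (AlgebraicClosure ℚ), P.LiesOverPrime ℓ →
        ∀ τ : GQ, P.IsFrobeniusAt τ ℓ → t τ = π (Tr ℓ)) ∧
    (∀ (g : GQ) (h : 𝕋), h ∈ B →
      (∀ n, Rtk7bApprox p J (fun n g => ((cycE p n g : ℕ) : 𝕋)) n g h) → t g = π h) ∧
    (∀ σ : GQ, residue A (t σ) = LinearMap.trace (ResidueField A) ρbar.V (ρbar.ρ σ)) ∧
    ρ.DetIsCyclotomic p ∧
    Rtk7fAnn p (fun g => LinearMap.toMatrix b b (ρ.ρ g)) ∧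
    ρ.IsFlatAt p ∧
    (∀ q : ℕ, q.Prime → ¬ q ∣ L * p → ρ.IsUnramifiedAt q) ∧
    ρ.residual.IsEquiv ρbar

/-- **K7-MAIN, adic form**, from K7-GRA. -/
theorem stmtK7MainAdic_of (hGRA : StmtK7GRAFix) : StmtK7MainAdic := by
  intro hcheb p L _ hp2 𝕋 _ J _ _ _ Tr hP S hgood B hB hmodel A _ _ _ _ _ hpA i2 hi2 π hfaith
    ρbar hirr hdet hfrob σ₀ τ₀ hξ
  have hpp : p.Prime := Fact.out
  obtain ⟨hF, -, -, -, hDc⟩ := stmtK7bInst hcheb p L 𝕋 J Tr hP S hgood B hB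
  obtain ⟨t, ht, h1, h2, h3, htfrob, htin, htcont⟩ :=
    stmtK7bChar hcheb p L 𝕋 J Tr hP S hgood B hB A π (maximalIdeal A) hpA hfaith
  have hc : complexConjugation * complexConjugation = 1 := complexConjugation_mul_self
  have hεc : ((Units.coeHom A).comp (cycloCharO p (maximalIdeal A) hpA)) complexConjugation
      = -1 := cycloCharO_conj p (maximalIdeal A) hpA
  -- `ε mod 𝔪 = det ρbar`
  have hεdet : ∀ σ, residue A (((Units.coeHom A).comp (cycloCharO p (maximalIdeal A) hpA)) σ)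
      = LinearMap.det (ρbar.ρ σ) := fun σ => rtk7m_residue_det hpA ρbar hdet σ
  -- `t mod 𝔪 = tr ρbar`
  have httr : ∀ σ, residue A (t σ) = LinearMap.trace (ResidueField A) ρbar.V (ρbar.ρ σ) := by
    obtain ⟨E, hEfin, hE⟩ := htcont 1
    refine rtk7m_residue_trace hcheb S ((Units.coeHom A).comp (cycloCharO p (maximalIdeal A) hpA))
      t h1 h3 ⟨E, hEfin, fun σ hσ g => ?_⟩ ρbar hεdet ?_
    · have := hE σ hσ g
      rwa [pow_one] at this
    · intro ℓ hℓ hℓS P hPℓ τ hτ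
      rw [htfrob ℓ hℓ hℓS P hPℓ τ hτ]
      exact hfrob ℓ hℓ hℓS P hPℓ τ hτ
  -- the unit
  have hunit : IsUnit (rtk7Xi t complexConjugation i2 σ₀ τ₀) := by
    rw [← residue_ne_zero_iff_isUnit, rtk7m_map_Xi]
    have e : (fun g => residue A (t g))
        = fun g => LinearMap.trace (ResidueField A) ρbar.V (ρbar.ρ g) := funext httr
    rw [e]
    exact hξ
  obtain ⟨u, hu⟩ := hunit.exists_left_inv
  -- K7-GRA
  obtain ⟨ρ, b, hmat, hdetcyc, hresid, htriv⟩ := hGRA p hpp hp2 A hpA ρbar hirr t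
    ((Units.coeHom A).comp (cycloCharO p (maximalIdeal A) hpA)) complexConjugation i2 h1 h2 h3
    hc hεc hi2 (fun n σ a h => rtk7m_cyc (maximalIdeal A) hpA n σ a h) httr hεdet htcont
    σ₀ τ₀ u hu
  have hann : Rtk7fAnn p (fun g => LinearMap.toMatrix b b (ρ.ρ g)) := by
    have e : (fun g => LinearMap.toMatrix b b (ρ.ρ g))
        = rtk7Mat t complexConjugation i2 σ₀ τ₀ u := funext hmat
    rw [e]
    exact rtk7f_ann_of_family hF hpA hfaith
      ((Units.coeHom A).comp (cycloCharO p (maximalIdeal A) hpA)) ht h2 h3 complexConjugation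
      hc hεc i2 hi2 σ₀ τ₀ u hu hDc hmodel
  refine ⟨t, u, ρ, b, hu, hmat, ?_, htfrob, ?_, httr, hdetcyc, hann, rtk7f_isFlatAt p ρ b hann,
    ?_, hresid⟩
  · intro g
    rw [LinearMap.trace_eq_matrix_trace A b, hmat g]
    exact rtk7m_trace_mat t complexConjugation i2 hi2 σ₀ τ₀ u g
  · intro g h hh H
    exact rtk7b_value (maximalIdeal A) hfaith ht hh H
  · intro q hq hqLp P hPq σ hσ
    exact htriv σ (fun g => htin q hq hqLp P hPq σ hσ g)

/-- **K7-MAIN** (finite `A`), from K7-GRA. -/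
theorem stmtK7Main_of (hGRA : StmtK7GRAFix) : StmtK7Main := by
  intro hcheb p L _ hp2 𝕋 _ J _ _ _ Tr hP S hgood B hB hmodel A _ _ _ hpA i2 hi2 π hfaith
    ρbar hirr hdet hfrob σ₀ τ₀ hξ
  haveI : IsAdicComplete (maximalIdeal A) A := rtk7fin_isAdicComplete_of_finite
  haveI : Finite (ResidueField A) := Finite.of_surjective (residue A) residue_surjective
  obtain ⟨n₀, hn₀⟩ := hfaith
  exact stmtK7MainAdic_of hGRA hcheb p L hp2 𝕋 J Tr hP S hgood B hB hmodel A hpA i2 hi2 π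
    (rtk7fin_hfaith hn₀) ρbar hirr hdet hfrob σ₀ τ₀ hξ

end Fermat.Agent.RT


end ZBRT_018_9

/-! ### bundled: `Fermat.Agent.RT.K7.MainFinal` -/
section ZBRT_018_10
/-
RT-K7 / K7-MAIN (helper27): the unconditional forms.
-/

/-!
# K-machine, piece K7-MAIN: unconditional forms

`stmtK7MainAdic : StmtK7MainAdic`, `stmtK7Main : StmtK7Main` (with `stmtK7GRAFix`).
Consumers discharge weak Chebotarev with `Cheb.weakChebotarev_holds` (`Cheb/Final.lean`).
-/

set_option autoImplicit false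

namespace Fermat.Agent.RT

/-- **K7-MAIN, adic form.** -/
theorem stmtK7MainAdic : StmtK7MainAdic := stmtK7MainAdic_of stmtK7GRAFix

/-- **K7-MAIN.** -/
theorem stmtK7Main : StmtK7Main := stmtK7Main_of stmtK7GRAFix

end Fermat.Agent.RT


end ZBRT_018_10

/-! ### bundled: `Fermat.Agent.RT.Hecke.Compat` -/
section ZBRT_018_11

/-!
# K-machine, HECKE-asm, piece HK-COMPAT (helper46): base compatibility from Frobenius values

`R` a ring (NOT necessarily commutative; in the application `R = M_d(O / λⁿ)`), `A₀`, `T0`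
commutative rings, `f : A₀ →+* R`, `g : T0 →+* R`, pseudo-characters `t : G_ℚ → A₀`,
`t0 : G_ℚ → T0` with determinants `εA`, `ε0`, `f ∘ εA = g ∘ ε0`, `f ∘ t` and `g ∘ t0` invariant
under an open subgroup, and `f (t τ) = g (t0 τ)` at the Frobenius elements `τ` of the primes
outside a finite set `S`.

* `rthk_c_lucas` : `f (s_m(a, d)) = g (s_m(a', d'))` if `f a = g a'`, `f d = g d'`;
* `rthk_c_trace` (CLAIM (a)) : `f (t x) = g (t0 x)` for all `x` (weak Chebotarev + Lucas);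
* `rthk_c_i2`, `rthk_c_u`, `rthk_c_A`, `rthk_c_D`, `rthk_c_Xi` : the constants and the entries;
* `rthk_c_mat` (CLAIM (b)) : `f (rtk7Mat t … x a b) = g (rtk7Mat t0 … x a b)`;
* `rthk_c_exists` (CLAIM (c)) : if `A₀` is generated over `O` by the values of `t` (`f`, `g`
  `O`-linear) then every `f a` is a `g b`.

The forms `rthk_c_trace'`, `rthk_c_mat'`, `rthk_c_exists'` take the weak Chebotarev theorem as a
hypothesis (they do not depend on `Cheb/`).
-/

set_option autoImplicit false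
set_option linter.unusedSectionVars false

namespace Fermat.Agent.RT

open Fermat.Agent.S31 Fermat.Agent.ES Fermat.Agent.S36 Matrix

section Lucas

variable {R A₀ T0 : Type*} [Ring R] [CommRing A₀] [CommRing T0] (f : A₀ →+* R) (g : T0 →+* R)

/-- the Lucas sequence and a pair of homomorphisms to a (non-commutative) ring -/
theorem rthk_c_lucas {a d : A₀} {a' d' : T0} (ha : f a = g a') (hd : f d = g d') (m : ℕ) :
    f (lucasS a d m) = g (lucasS a' d' m) := by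
  induction m using Nat.twoStepInduction with
  | zero => rw [lucasS_zero, lucasS_zero, map_ofNat, map_ofNat]
  | one => rw [lucasS_one, lucasS_one, ha]
  | more j h0 h1 =>
    rw [lucasS_add_two, lucasS_add_two, map_sub, map_mul, map_mul, map_sub, map_mul, map_mul,
      h0, h1, ha, hd]

end Lucas

section Trace

variable {R A₀ T0 : Type*} [Ring R] [CommRing A₀] [CommRing T0] (f : A₀ →+* R) (g : T0 →+* R)
  (εA : GQ →* A₀) (ε0 : GQ →* T0) (t : GQ → A₀) (t0 : GQ → T0)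
  (h1 : t 1 = 2) (h3 : ∀ x y : GQ, t (x * y) + εA y * t (x * y⁻¹) = t x * t y)
  (h1' : t0 1 = 2) (h3' : ∀ x y : GQ, t0 (x * y) + ε0 y * t0 (x * y⁻¹) = t0 x * t0 y)
  (hε : ∀ x, f (εA x) = g (ε0 x))
  (hcont : ∃ E : IntermediateField ℚ (AlgebraicClosure ℚ), FiniteDimensional ℚ E ∧
    ∀ σ : GQ, (∀ a ∈ E, σ a = a) → ∀ x, f (t (σ * x)) = f (t x) ∧ g (t0 (σ * x)) = g (t0 x))
  (S : Finset ℕ)
  (hfrob : ∀ ℓ : ℕ, ℓ.Prime → ℓ ∉ S →
    ∀ 𝔄 : ValuationSubring (AlgebraicClosure ℚ), 𝔄.LiesOverPrime ℓ →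
      ∀ τ : GQ, 𝔄.IsFrobeniusAt τ ℓ → f (t τ) = g (t0 τ))

include h1 h3 in
/-- left-invariance under an open subgroup gives local constancy, after a homomorphism -/
theorem rthk_c_locConst (E : IntermediateField ℚ (AlgebraicClosure ℚ))
    (hE : ∀ σ : GQ, (∀ a ∈ E, σ a = a) → ∀ x, f (t (σ * x)) = f (t x))
    (x y : GQ) (hxy : ∀ a ∈ E, x a = y a) : f (t x) = f (t y) := by
  have h := rtk7uq_locConst (RingHom.ker f) εA t h1 h3 E
    (fun σ hσ z => by rw [RingHom.mem_ker, map_sub, hE σ hσ z, sub_self]) x y hxy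
  rw [RingHom.mem_ker, map_sub, sub_eq_zero] at h
  exact h

include h1 h3 h1' h3' hε hcont hfrob in
/-- **HK-COMPAT (a)**, with the weak Chebotarev theorem as a hypothesis. -/
theorem rthk_c_trace' (hcheb : Cheb.WeakChebotarev) (x : GQ) : f (t x) = g (t0 x) := by
  obtain ⟨E, hEfin, hE⟩ := hcont
  obtain ⟨F, hFfin, hFgal, hEF, -, -⟩ := exists_galois_hull E E E
  obtain ⟨ℓ, 𝔄, τ, m, hℓ, hℓS, h𝔄, hτ, hx⟩ := hcheb F S x
  have e1 : f (t x) = f (t (τ ^ m)) :=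
    rthk_c_locConst f εA t h1 h3 E (fun σ hσ z => (hE σ hσ z).1) x (τ ^ m)
      fun a ha => (hx a (hEF ha)).symm
  have e2 : g (t0 x) = g (t0 (τ ^ m)) :=
    rthk_c_locConst g ε0 t0 h1' h3' E (fun σ hσ z => (hE σ hσ z).2) x (τ ^ m)
      fun a ha => (hx a (hEF ha)).symm
  rw [e1, e2, rtk7uq_pow εA t h1 h3, rtk7uq_pow ε0 t0 h1' h3']
  exact rthk_c_lucas f g (hfrob ℓ hℓ hℓS 𝔄 h𝔄 τ hτ) (hε τ) m

include h1 h3 h1' h3' hε hcont hfrob in
/-- **HK-COMPAT (a)**: `f ∘ t = g ∘ t0`. -/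
theorem rthk_c_trace (x : GQ) : f (t x) = g (t0 x) :=
  rthk_c_trace' f g εA ε0 t t0 h1 h3 h1' h3' hε hcont S hfrob
    Fermat.Agent.Cheb.weakChebotarev_holds x

end Trace

section Entries

variable {G R A₀ T0 : Type*} [Group G] [Ring R] [CommRing A₀] [CommRing T0]
  (f : A₀ →+* R) (g : T0 →+* R) (t : G → A₀) (t0 : G → T0) (c : G)
  (htr : ∀ x, f (t x) = g (t0 x))
  (i2 : A₀) (i2₀ : T0) (hi2 : 2 * i2 = 1) (hi2₀ : 2 * i2₀ = 1)
  (σ₀ τ₀ : G) (u : A₀) (u0 : T0) (hu : u * rtk7Xi t c i2 σ₀ τ₀ = 1)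
  (hu0 : u0 * rtk7Xi t0 c i2₀ σ₀ τ₀ = 1)

include hi2 hi2₀ in
theorem rthk_c_i2 : f i2 = g i2₀ := by
  have e1 : f i2 * 2 = 1 := by
    rw [← map_ofNat f 2, ← map_mul, mul_comm, hi2, map_one]
  have e2 : (2 : R) * g i2₀ = 1 := by
    rw [← map_ofNat g 2, ← map_mul, hi2₀, map_one]
  calc f i2 = f i2 * (2 * g i2₀) := by rw [e2, mul_one]
    _ = (f i2 * 2) * g i2₀ := by rw [mul_assoc]
    _ = g i2₀ := by rw [e1, one_mul]

include htr hi2 hi2₀ in
theorem rthk_c_A (x : G) : f (rtk7A t c i2 x) = g (rtk7A t0 c i2₀ x) := by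
  rw [rtk7A, rtk7A, map_mul, map_add, map_mul, map_add, htr, htr,
    rthk_c_i2 f g i2 i2₀ hi2 hi2₀]

include htr hi2 hi2₀ in
theorem rthk_c_D (x : G) : f (rtk7D t c i2 x) = g (rtk7D t0 c i2₀ x) := by
  rw [rtk7D, rtk7D, map_mul, map_sub, map_mul, map_sub, htr, htr,
    rthk_c_i2 f g i2 i2₀ hi2 hi2₀]

include htr hi2 hi2₀ in
theorem rthk_c_Xi (x y : G) : f (rtk7Xi t c i2 x y) = g (rtk7Xi t0 c i2₀ x y) := by
  rw [rtk7Xi, rtk7Xi, map_sub, map_mul, map_sub, map_mul,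
    rthk_c_A f g t t0 c htr i2 i2₀ hi2 hi2₀, rthk_c_A f g t t0 c htr i2 i2₀ hi2 hi2₀,
    rthk_c_A f g t t0 c htr i2 i2₀ hi2 hi2₀]

include htr hi2 hi2₀ hu hu0 in
theorem rthk_c_u : f u = g u0 := by
  have e1 : f u * g (rtk7Xi t0 c i2₀ σ₀ τ₀) = 1 := by
    rw [← rthk_c_Xi f g t t0 c htr i2 i2₀ hi2 hi2₀, ← map_mul, hu, map_one]
  have e2 : g (rtk7Xi t0 c i2₀ σ₀ τ₀) * g u0 = 1 := by
    rw [← map_mul, mul_comm, hu0, map_one]
  calc f u = f u * (g (rtk7Xi t0 c i2₀ σ₀ τ₀) * g u0) := by rw [e2, mul_one]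
    _ = (f u * g (rtk7Xi t0 c i2₀ σ₀ τ₀)) * g u0 := by rw [mul_assoc]
    _ = g u0 := by rw [e1, one_mul]

include htr hi2 hi2₀ hu hu0 in
/-- **HK-COMPAT (b)**, from `f ∘ t = g ∘ t0`: the entries of Wiles' matrices. -/
theorem rthk_c_mat_of_trace (x : G) (a b : Fin 2) :
    f (rtk7Mat t c i2 σ₀ τ₀ u x a b) = g (rtk7Mat t0 c i2₀ σ₀ τ₀ u0 x a b) := by
  have hA := rthk_c_A f g t t0 c htr i2 i2₀ hi2 hi2₀ x
  have hD := rthk_c_D f g t t0 c htr i2 i2₀ hi2 hi2₀ x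
  have hX1 := rthk_c_Xi f g t t0 c htr i2 i2₀ hi2 hi2₀ x τ₀
  have hX2 := rthk_c_Xi f g t t0 c htr i2 i2₀ hi2 hi2₀ σ₀ x
  have hU := rthk_c_u f g t t0 c htr i2 i2₀ hi2 hi2₀ σ₀ τ₀ u u0 hu hu0
  fin_cases a <;> fin_cases b
  · simpa [rtk7Mat] using hA
  · simp only [rtk7Mat, Fin.zero_eta, Fin.isValue, Fin.mk_one, of_apply, cons_val', cons_val_one,
      cons_val_fin_one, cons_val_zero, map_mul, hX1, hU]
  · simpa [rtk7Mat] using hX2
  · simpa [rtk7Mat] using hD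

end Entries

section Mat

variable {R A₀ T0 : Type*} [Ring R] [CommRing A₀] [CommRing T0] (f : A₀ →+* R) (g : T0 →+* R)
  (εA : GQ →* A₀) (ε0 : GQ →* T0) (t : GQ → A₀) (t0 : GQ → T0)
  (h1 : t 1 = 2) (h3 : ∀ x y : GQ, t (x * y) + εA y * t (x * y⁻¹) = t x * t y)
  (h1' : t0 1 = 2) (h3' : ∀ x y : GQ, t0 (x * y) + ε0 y * t0 (x * y⁻¹) = t0 x * t0 y)
  (hε : ∀ x, f (εA x) = g (ε0 x))
  (hcont : ∃ E : IntermediateField ℚ (AlgebraicClosure ℚ), FiniteDimensional ℚ E ∧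
    ∀ σ : GQ, (∀ a ∈ E, σ a = a) → ∀ x, f (t (σ * x)) = f (t x) ∧ g (t0 (σ * x)) = g (t0 x))
  (S : Finset ℕ)
  (hfrob : ∀ ℓ : ℕ, ℓ.Prime → ℓ ∉ S →
    ∀ 𝔄 : ValuationSubring (AlgebraicClosure ℚ), 𝔄.LiesOverPrime ℓ →
      ∀ τ : GQ, 𝔄.IsFrobeniusAt τ ℓ → f (t τ) = g (t0 τ))
  (c : GQ) (i2 : A₀) (i2₀ : T0) (hi2 : 2 * i2 = 1) (hi2₀ : 2 * i2₀ = 1)
  (σ₀ τ₀ : GQ) (u : A₀) (u0 : T0) (hu : u * rtk7Xi t c i2 σ₀ τ₀ = 1)
  (hu0 : u0 * rtk7Xi t0 c i2₀ σ₀ τ₀ = 1)

include h1 h3 h1' h3' hε hcont hfrob hi2 hi2₀ hu hu0 in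
/-- **HK-COMPAT (b)**, with the weak Chebotarev theorem as a hypothesis. -/
theorem rthk_c_mat' (hcheb : Cheb.WeakChebotarev) (x : GQ) (a b : Fin 2) :
    f (rtk7Mat t c i2 σ₀ τ₀ u x a b) = g (rtk7Mat t0 c i2₀ σ₀ τ₀ u0 x a b) :=
  rthk_c_mat_of_trace f g t t0 c
    (rthk_c_trace' f g εA ε0 t t0 h1 h3 h1' h3' hε hcont S hfrob hcheb)
    i2 i2₀ hi2 hi2₀ σ₀ τ₀ u u0 hu hu0 x a b

include h1 h3 h1' h3' hε hcont hfrob hi2 hi2₀ hu hu0 in
/-- **HK-COMPAT (b)**: the entries of Wiles' matrices are compatible. -/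
theorem rthk_c_mat (x : GQ) (a b : Fin 2) :
    f (rtk7Mat t c i2 σ₀ τ₀ u x a b) = g (rtk7Mat t0 c i2₀ σ₀ τ₀ u0 x a b) :=
  rthk_c_mat' f g εA ε0 t t0 h1 h3 h1' h3' hε hcont S hfrob c i2 i2₀ hi2 hi2₀ σ₀ τ₀ u u0 hu hu0
    Fermat.Agent.Cheb.weakChebotarev_holds x a b

end Mat

section Gen

variable {O R A₀ T0 : Type*} [CommRing O] [Ring R] [Algebra O R] [CommRing A₀] [Algebra O A₀]
  [CommRing T0] [Algebra O T0] (f : A₀ →ₐ[O] R) (g : T0 →ₐ[O] R)

/-- **HK-COMPAT (c)**, algebra: if `f` maps a set of generators of `A₀` into the image of `g`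
then it maps `A₀` into the image of `g`. -/
theorem rthk_c_exists_of_gen {G : Type*} (t : G → A₀) (t0 : G → T0)
    (htr : ∀ x, f (t x) = g (t0 x)) (hgen : Algebra.adjoin O (Set.range t) = ⊤) (a : A₀) :
    ∃ b : T0, f a = g b := by
  have hle : Algebra.adjoin O (Set.range t) ≤ g.range.comap f := by
    refine Algebra.adjoin_le ?_
    rintro _ ⟨x, rfl⟩
    exact ⟨t0 x, (htr x).symm⟩
  have ha : a ∈ g.range.comap f := hle (hgen ▸ Algebra.mem_top)
  obtain ⟨b, hb⟩ := ha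
  exact ⟨b, hb.symm⟩

variable (εA : GQ →* A₀) (ε0 : GQ →* T0) (t : GQ → A₀) (t0 : GQ → T0)
  (h1 : t 1 = 2) (h3 : ∀ x y : GQ, t (x * y) + εA y * t (x * y⁻¹) = t x * t y)
  (h1' : t0 1 = 2) (h3' : ∀ x y : GQ, t0 (x * y) + ε0 y * t0 (x * y⁻¹) = t0 x * t0 y)
  (hε : ∀ x, f (εA x) = g (ε0 x))
  (hcont : ∃ E : IntermediateField ℚ (AlgebraicClosure ℚ), FiniteDimensional ℚ E ∧
    ∀ σ : GQ, (∀ a ∈ E, σ a = a) → ∀ x, f (t (σ * x)) = f (t x) ∧ g (t0 (σ * x)) = g (t0 x))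
  (S : Finset ℕ)
  (hfrob : ∀ ℓ : ℕ, ℓ.Prime → ℓ ∉ S →
    ∀ 𝔄 : ValuationSubring (AlgebraicClosure ℚ), 𝔄.LiesOverPrime ℓ →
      ∀ τ : GQ, 𝔄.IsFrobeniusAt τ ℓ → f (t τ) = g (t0 τ))
  (hgen : Algebra.adjoin O (Set.range t) = ⊤)

include h1 h3 h1' h3' hε hcont hfrob hgen in
/-- **HK-COMPAT (c)**, with the weak Chebotarev theorem as a hypothesis. -/
theorem rthk_c_exists' (hcheb : Cheb.WeakChebotarev) (a : A₀) : ∃ b : T0, f a = g b :=
  rthk_c_exists_of_gen f g t t0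
    (rthk_c_trace' (f : A₀ →+* R) (g : T0 →+* R) εA ε0 t t0 h1 h3 h1' h3' hε hcont S hfrob hcheb)
    hgen a

include h1 h3 h1' h3' hε hcont hfrob hgen in
/-- **HK-COMPAT (c)**: if `A₀` is generated over `O` by the values of `t`, every `f a` is a
`g b`. -/
theorem rthk_c_exists (a : A₀) : ∃ b : T0, f a = g b :=
  rthk_c_exists' f g εA ε0 t t0 h1 h3 h1' h3' hε hcont S hfrob hgen
    Fermat.Agent.Cheb.weakChebotarev_holds a

end Gen

end Fermat.Agent.RT


end ZBRT_018_11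

/-! ### bundled: `Fermat.Agent.RT.Prod.HaBase` -/
section ZBRT_018_12
/-
K-machine, HECKE-PACK (helper70): base change of a `GaloisRepAdic` along a local homomorphism of
finite local rings, in MATRIX form, keeps the type `twFlat` (given the annihilator property
`Rtk7fAnn`, `RT/K7/Flat32.lean`) and the residual representation.

* `rthbRep ψ hψ ρ₀ b₀` : the representation `g ↦ ([ρ₀ g]_{b₀}).map ψ` on `Fin 2 → A`,
  `rthbBasis` its standard basis, `rthb_toMatrix`, `rthb_trace`;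
* `rthb_isEquiv` : it is equivalent to `ρ₀.baseChangeAlong ψ hψ`;
* `rthb_det`, `rthb_unram`, `rthb_unip`, `rthb_flatAt`, `rthb_twFlat`, `rthb_res`.
-/

set_option autoImplicit false
set_option linter.unusedSectionVars false
set_option linter.unusedVariables false
set_option linter.style.haveILetI false

noncomputable section

namespace Fermat.Agent.RT.Prod

open IsLocalRing Fermat.Agent.TW Fermat.Agent.RT

section base

variable {A₀ A : Type} [CommRing A₀] [IsLocalRing A₀] [CommRing A] [IsLocalRing A]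

/-- the base change in matrix form: `g ↦ ([ρ₀ g]_{b₀}).map ψ` on `Fin 2 → A` -/
abbrev rthbRep (ψ : A₀ →+* A) (hψ : IsLocalHom ψ) (ρ₀ : GaloisRepAdic A₀)
    (b₀ : Module.Basis (Fin 2) A₀ ρ₀.V) : GaloisRepAdic A :=
  S53.ofMatrix (S53.mapRep ψ (S53.matOfBasis ρ₀ b₀)) ((S53.matOfBasis_cont ρ₀ b₀).map ψ hψ)

/-- the standard basis of `rthbRep` -/
abbrev rthbBasis (ψ : A₀ →+* A) (hψ : IsLocalHom ψ) (ρ₀ : GaloisRepAdic A₀)
    (b₀ : Module.Basis (Fin 2) A₀ ρ₀.V) : Module.Basis (Fin 2) A (rthbRep ψ hψ ρ₀ b₀).V :=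
  Pi.basisFun A (Fin 2)

variable (ψ : A₀ →+* A) (hψ : IsLocalHom ψ) (ρ₀ : GaloisRepAdic A₀)
  (b₀ : Module.Basis (Fin 2) A₀ ρ₀.V)

theorem rthbRep_apply (g : S53.Gal) :
    (rthbRep ψ hψ ρ₀ b₀).ρ g =
      Matrix.toLin' ((LinearMap.toMatrix b₀ b₀ (ρ₀.ρ g)).map ψ) := rfl

theorem rthb_toMatrix (g : S53.Gal) :
    LinearMap.toMatrix (rthbBasis ψ hψ ρ₀ b₀) (rthbBasis ψ hψ ρ₀ b₀) ((rthbRep ψ hψ ρ₀ b₀).ρ g) =
      (LinearMap.toMatrix b₀ b₀ (ρ₀.ρ g)).map ψ := by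
  show LinearMap.toMatrix (Pi.basisFun A (Fin 2)) (Pi.basisFun A (Fin 2))
    (Matrix.toLin' ((LinearMap.toMatrix b₀ b₀ (ρ₀.ρ g)).map ψ)) = _
  rw [LinearMap.toMatrix_eq_toMatrix', LinearMap.toMatrix'_toLin']

theorem rthb_trace (g : S53.Gal) :
    LinearMap.trace A (rthbRep ψ hψ ρ₀ b₀).V ((rthbRep ψ hψ ρ₀ b₀).ρ g) =
      ψ (LinearMap.trace A₀ ρ₀.V (ρ₀.ρ g)) := by
  rw [LinearMap.trace_eq_matrix_trace A (rthbBasis ψ hψ ρ₀ b₀), rthb_toMatrix,
    LinearMap.trace_eq_matrix_trace A₀ b₀, Matrix.trace_fin_two, Matrix.trace_fin_two, map_add]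
  rfl

theorem rthb_det_eq (g : S53.Gal) :
    LinearMap.det ((rthbRep ψ hψ ρ₀ b₀).ρ g) = ψ (LinearMap.det (ρ₀.ρ g)) := by
  rw [← LinearMap.det_toMatrix (rthbBasis ψ hψ ρ₀ b₀), rthb_toMatrix,
    ← LinearMap.det_toMatrix b₀, ← RingHom.mapMatrix_apply, ← RingHom.map_det]

theorem rthb_charpoly (g : S53.Gal) :
    LinearMap.charpoly ((rthbRep ψ hψ ρ₀ b₀).ρ g) =
      (LinearMap.charpoly (ρ₀.ρ g)).map ψ := by
  rw [← LinearMap.charpoly_toMatrix _ (rthbBasis ψ hψ ρ₀ b₀), rthb_toMatrix,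
    ← LinearMap.charpoly_toMatrix _ b₀, Matrix.charpoly_map]

/-- `rthbRep` is the base change of `ρ₀`. -/
theorem rthb_isEquiv : (ρ₀.baseChangeAlong ψ hψ).IsEquiv (rthbRep ψ hψ ρ₀ b₀) :=
  ⟨((S53.equivOfBasis ρ₀ b₀).baseChangeAlong ψ hψ).trans
    (S53.ofMatrixBaseChangeEquiv ψ hψ _ _)⟩

theorem rthb_det (p : ℕ) (h : ρ₀.DetIsCyclotomic p) :
    (rthbRep ψ hψ ρ₀ b₀).DetIsCyclotomic p := by
  haveI := hψ
  refine ⟨?_, fun n σ a ha => ?_⟩
  · have h1 := map_nonunit ψ _ h.1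
    rwa [map_natCast] at h1
  · have h1 := h.2 n σ a ha
    rw [rthb_det_eq]
    obtain ⟨c, hc⟩ := Ideal.mem_span_singleton'.1 h1
    refine Ideal.mem_span_singleton'.2 ⟨ψ c, ?_⟩
    rw [← map_natCast ψ (p ^ n), ← map_mul, hc, map_sub, map_natCast]

theorem rthb_unram (q : ℕ) (h : ρ₀.IsUnramifiedAt q) :
    (rthbRep ψ hψ ρ₀ b₀).IsUnramifiedAt q := by
  intro P hP σ hσ
  rw [rthbRep_apply, h P hP σ hσ]
  have h1 : LinearMap.toMatrix b₀ b₀ (1 : Module.End A₀ ρ₀.V) = 1 := LinearMap.toMatrix_one b₀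
  rw [h1, Matrix.map_one _ (map_zero ψ) (map_one ψ), Matrix.toLin'_one]
  rfl

theorem rthb_unip (q : ℕ) (h : ρ₀.IsUnipotentOnInertiaAt q) :
    (rthbRep ψ hψ ρ₀ b₀).IsUnipotentOnInertiaAt q := by
  intro P hP σ hσ
  rw [rthb_charpoly, h P hP σ hσ]
  simp

theorem rthb_flatAt [Finite A] (p : ℕ) [Fact p.Prime]
    (hann : Rtk7fAnn p (fun g => LinearMap.toMatrix b₀ b₀ (ρ₀.ρ g))) :
    (rthbRep ψ hψ ρ₀ b₀).IsFlatAt p := by
  haveI := hψ
  haveI : IsNoetherianRing A := inferInstance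
  haveI : Finite (ResidueField A) := Finite.of_surjective _ (residue_surjective (R := A))
  refine rtk7f_isFlatAt p (rthbRep ψ hψ ρ₀ b₀) (rthbBasis ψ hψ ρ₀ b₀) ?_
  have h1 := rtk7f_ann_map ψ hann
  have h2 : (fun g => LinearMap.toMatrix (rthbBasis ψ hψ ρ₀ b₀) (rthbBasis ψ hψ ρ₀ b₀)
      ((rthbRep ψ hψ ρ₀ b₀).ρ g)) = fun g => (LinearMap.toMatrix b₀ b₀ (ρ₀.ρ g)).map ψ :=
    funext fun g => rthb_toMatrix ψ hψ ρ₀ b₀ g
  rw [h2]
  exact h1

end base

section alg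

variable {O : Type} [CommRing O] [IsLocalRing O]
  {A₀ A : Type} [CommRing A₀] [IsLocalRing A₀] [Algebra O A₀] [CommRing A] [IsLocalRing A]
  [Algebra O A]

/-- **Base change keeps `twFlat`.** -/
theorem rthb_twFlat [Finite A] (ψ : A₀ →ₐ[O] A) (hψ : IsLocalHom (ψ : A₀ →+* A))
    (ρ₀ : GaloisRepAdic A₀) (b₀ : Module.Basis (Fin 2) A₀ ρ₀.V) (p : ℕ) [Fact p.Prime]
    (Smin Q : Finset ℕ) (h : twFlat O p Smin Q ρ₀)
    (hann : Rtk7fAnn p (fun g => LinearMap.toMatrix b₀ b₀ (ρ₀.ρ g))) :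
    twFlat O p Smin Q (rthbRep (ψ : A₀ →+* A) hψ ρ₀ b₀) := by
  obtain ⟨⟨hdet, -, hun⟩, hu⟩ := h
  exact ⟨⟨rthb_det _ hψ ρ₀ b₀ p hdet, rthb_flatAt _ hψ ρ₀ b₀ p hann,
    fun q hq hqS => rthb_unram _ hψ ρ₀ b₀ q (hun q hq hqS)⟩,
    fun q hq hqp hqp' => rthb_unip _ hψ ρ₀ b₀ q (hu q hq hqp hqp')⟩

/-- **Base change keeps the residual representation.** -/
theorem rthb_res (ρbar : ResidualGaloisRep (ResidueField O))
    (habs : ρbar.IsAbsolutelyIrreducible)
    (ιA₀ : ResidueField O →+* ResidueField A₀)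
    (hιA₀ : ∀ x : O, ιA₀ (residue O x) = residue A₀ (algebraMap O A₀ x))
    (ιA : ResidueField O →+* ResidueField A)
    (hιA : ∀ x : O, ιA (residue O x) = residue A (algebraMap O A x))
    (ψ : A₀ →ₐ[O] A) (hψ : IsLocalHom (ψ : A₀ →+* A))
    (ρ₀ : GaloisRepAdic A₀) (b₀ : Module.Basis (Fin 2) A₀ ρ₀.V)
    (h : ρ₀.residual.IsEquiv (ρbar.baseChangeAlong ιA₀)) :
    (rthbRep (ψ : A₀ →+* A) hψ ρ₀ b₀).residual.IsEquiv (ρbar.baseChangeAlong ιA) := by
  obtain ⟨D⟩ := S53.nonempty_rigidDatum (𝒪 := O) ρbar habs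
  obtain ⟨e1⟩ := twtan_residual_baseChange D ιA₀ hιA₀ ιA hιA ψ hψ ρ₀ h
  obtain ⟨e2⟩ := rthb_isEquiv (ψ : A₀ →+* A) hψ ρ₀ b₀
  exact ⟨e2.residual.symm.trans e1⟩

end alg

end Fermat.Agent.RT.Prod

end


end ZBRT_018_12
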