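/- GENERATED FILE (helper35, build-time optimisation, NOTES/ZB.md): verbatim concatenation of the modules
   Fermat.Agent.RIB.MP.HKFinal
   Fermat.Agent.RT.K8.GeoRed
   Do not edit; do not import together with these modules. -/
import Fermat.Agent.ZB.RIB_001
import Fermat.Agent.ZB.ES_007

/-! ### bundled: `Fermat.Agent.RIB.MP.HKFinal` -/
section ZBRIB_008_0

/-!
# MP-HK and MP-W: the statements of the interface `RIB/MP/Plan.lean`

* `stmtRedHecke : StmtRedHecke` (from `ribmp_hk_redInf`, `ribmp_hk_redZero`);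
* `stmtWHecke : StmtWHecke` (from `ribmp_w_hecke`, which holds for all classes).
-/

set_option autoImplicit false

namespace Fermat.Agent.RIB.MP

open ModularCurve AlgebraicCurve Fermat.Agent.ES Fermat.Agent.ES.G2

/-- **MP-HK.** -/
theorem stmtRedHecke : StmtRedHecke := by
  intro M₁ q _ _ _ hq hqM p _ _ A _ x y ℓ hℓ
  have hℓM : ¬ (ℓ : ℕ) ∣ M₁ * q := fun h => hℓ (h.mul_right p)
  exact ⟨ribmp_hk_redInf A p ℓ hℓM, ribmp_hk_redZero hq hqM A p ℓ hℓM⟩

/-- **MP-W.** -/
theorem stmtWHecke : StmtWHecke := by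
  intro M₁ q _ _ _ hq hqM ℓ hℓ x
  exact ribmp_w_hecke hq hqM ℓ hℓ x

end Fermat.Agent.RIB.MP


end ZBRIB_008_0

/-! ### bundled: `Fermat.Agent.RT.K8.GeoRed` -/
section ZBRIB_008_1
/-
RT-K8 (helper21), clause (G): the algebra of the reduction relations `RedInf`, `RedZero` of
`RIB/MP/Plan.lean`, for a GENERAL exponent `m`.

* `rtk8gRedInf A m`, `rtk8gRedZero hq hqM A m` : the relations are additive subgroups of
  `J₀(M₁ q) × J₀(M₁)`;
* `rtk8g_trivInf_of_redInf`, `rtk8g_trivZero_of_redZero` : a class with the reduction of `0` is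
  trivial at the corresponding vertical valuation (`m ≠ 0`);
* `rtk8g_w_w`, `rtk8g_w_galois` : `w` is an involution of `J₀(M₁ q)` and commutes with the Galois
  action on torsion classes.
-/

set_option autoImplicit false
set_option linter.unusedSectionVars false
set_option linter.style.haveILetI false

noncomputable section

namespace Fermat.Agent.RT.K8

open ModularCurve AlgebraicCurve Fermat.Agent.ES Fermat.Agent.ES.G2 Fermat.Agent.RIB.MP
  Fermat.Agent.UNIP

variable {M₁ q : ℕ} [NeZero M₁] [NeZero q] [NeZero (M₁ * q)]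

/-- the relation `RedInf A m` as an additive subgroup -/
def rtk8gRedInf (A : ValuationSubring Qb) (m : ℕ) :
    AddSubgroup (JZero (M₁ * q) × JZero M₁) where
  carrier := {z | RedInf A m z.1 z.2}
  zero_mem' := by
    refine ⟨1, 1, KummerRel.zero, KummerRel.zero, ?_⟩
    rw [map_one, div_one]
    exact GaussConst.one
  add_mem' := by
    rintro ⟨x, y⟩ ⟨x', y'⟩ ⟨u, v, hu, hv, hG⟩ ⟨u', v', hu', hv', hG'⟩
    refine ⟨u * u', v * v', hu.add hu', hv.add hv', ?_⟩
    rw [map_mul, mul_div_mul_comm]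
    exact hG.mul hG'
  neg_mem' := by
    rintro ⟨x, y⟩ ⟨u, v, hu, hv, hG⟩
    refine ⟨u⁻¹, v⁻¹, hu.neg, hv.neg, ?_⟩
    rw [map_inv₀, inv_div_inv, ← inv_div]
    exact hG.inv

theorem mem_rtk8gRedInf {A : ValuationSubring Qb} {m : ℕ} {z : JZero (M₁ * q) × JZero M₁} :
    z ∈ rtk8gRedInf A m ↔ RedInf A m z.1 z.2 := Iff.rfl

/-- the relation `RedZero hq hqM A m` as an additive subgroup -/
def rtk8gRedZero (hq : q.Prime) (hqM : ¬ q ∣ M₁) (A : ValuationSubring Qb) (m : ℕ) :
    AddSubgroup (JZero (M₁ * q) × JZero M₁) where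
  carrier := {z | RedZero hq hqM A m z.1 z.2}
  zero_mem' := by
    refine ⟨1, 1, KummerRel.zero, KummerRel.zero, ?_⟩
    rw [map_one, map_one, div_one]
    exact GaussConst.one
  add_mem' := by
    rintro ⟨x, y⟩ ⟨x', y'⟩ ⟨u, v, hu, hv, hG⟩ ⟨u', v', hu', hv', hG'⟩
    refine ⟨u * u', v * v', hu.add hu', hv.add hv', ?_⟩
    rw [map_mul, map_mul, mul_div_mul_comm]
    exact hG.mul hG'
  neg_mem' := by
    rintro ⟨x, y⟩ ⟨u, v, hu, hv, hG⟩
    refine ⟨u⁻¹, v⁻¹, hu.neg, hv.neg, ?_⟩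
    rw [map_inv₀, map_inv₀, inv_div_inv, ← inv_div]
    exact hG.inv

theorem mem_rtk8gRedZero {hq : q.Prime} {hqM : ¬ q ∣ M₁} {A : ValuationSubring Qb} {m : ℕ}
    {z : JZero (M₁ * q) × JZero M₁} :
    z ∈ rtk8gRedZero hq hqM A m ↔ RedZero hq hqM A m z.1 z.2 := Iff.rfl

/-- a Kummer function of the zero class is a constant times an `m`-th power -/
theorem rtk8g_kummer_zero {N : ℕ} [NeZero N] {m : ℕ} {v : modularFunctionFieldBar N}
    (hv : KummerRel m (0 : JZero N) v) :
    ∃ (c : Qb) (k : modularFunctionFieldBar N), c ≠ 0 ∧ k ≠ 0 ∧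
      v = algebraMap Qb (modularFunctionFieldBar N) c * k ^ m := by
  obtain ⟨k, c, hk, hc0, hc, he⟩ := (KummerRel.zero (n := m)).exists_eq_mul_pow hv
  obtain ⟨c₀, rfl⟩ := mu_exists_const_of_ord_eq_zero c hc
  refine ⟨c₀, k, fun h => hc0 (by rw [h, map_zero]), hk, ?_⟩
  rw [he, mul_one]

/-- a class with the reduction of `0` at `v_∞` is trivial at `v_∞` -/
theorem rtk8g_trivInf_of_redInf {A : ValuationSubring Qb} {m : ℕ} (hm : m ≠ 0)
    {x : JZero (M₁ * q)} (h : RedInf A m x 0) : TrivInf A m x := by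
  obtain ⟨u, v, hu, hv, hG⟩ := h
  obtain ⟨c, k, hc, hk, rfl⟩ := rtk8g_kummer_zero hv
  have hαk : heckeAlphaBar Qb M₁ q k ≠ 0 :=
    (map_ne_zero_iff _ (heckeAlphaBar Qb M₁ q).toRingHom.injective).mpr hk
  have hu0 := hu.ne_zero
  refine ⟨u / heckeAlphaBar Qb M₁ q k ^ m, ?_, ?_⟩
  · refine ribmp_desc_kummerRel_of_eq (b := 1) (g := heckeAlphaBar Qb M₁ q k) hm hu one_ne_zero
      hαk (div_ne_zero hu0 (pow_ne_zero m hαk)) ?_
    rw [map_one, one_mul]
    field_simp
  · have e : u / heckeAlphaBar Qb M₁ q k ^ m =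
        algebraMap Qb (modularFunctionFieldBar (M₁ * q)) c *
          (u / heckeAlphaBar Qb M₁ q
            (algebraMap Qb (modularFunctionFieldBar M₁) c * k ^ m)) := by
      have hc' : algebraMap Qb (modularFunctionFieldBar (M₁ * q)) c ≠ 0 :=
        (map_ne_zero _).2 hc
      rw [map_mul, map_pow, AlgHom.commutes]
      field_simp
    rw [e]
    exact hG.const_mul hc

/-- a class with the reduction of `0` at `v_0` is trivial at `v_0` -/
theorem rtk8g_trivZero_of_redZero (hq : q.Prime) (hqM : ¬ q ∣ M₁) {A : ValuationSubring Qb}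
    {m : ℕ} (hm : m ≠ 0) {x : JZero (M₁ * q)} (h : RedZero hq hqM A m x 0) :
    TrivZero hq hqM A m x := by
  obtain ⟨u, v, hu, hv, hG⟩ := h
  obtain ⟨c, k, hc, hk, rfl⟩ := rtk8g_kummer_zero hv
  have hαk : heckeAlphaBar Qb M₁ q k ≠ 0 :=
    (map_ne_zero_iff _ (heckeAlphaBar Qb M₁ q).toRingHom.injective).mpr hk
  set g : modularFunctionFieldBar (M₁ * q) :=
    atkinLehnerBar hq hqM (heckeAlphaBar Qb M₁ q k) with hg
  have hg0 : g ≠ 0 := (map_ne_zero_iff _ (atkinLehnerBar hq hqM).injective).mpr hαk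
  have hwg : atkinLehnerBar hq hqM g = heckeAlphaBar Qb M₁ q k := atkinLehnerBar_invol hq hqM _
  have hu0 := hu.ne_zero
  refine ⟨u / g ^ m, ?_, ?_⟩
  · refine ribmp_desc_kummerRel_of_eq (b := 1) (g := g) hm hu one_ne_zero
      hg0 (div_ne_zero hu0 (pow_ne_zero m hg0)) ?_
    rw [map_one, one_mul]
    field_simp
  · have e : atkinLehnerBar hq hqM (u / g ^ m) =
        algebraMap Qb (modularFunctionFieldBar (M₁ * q)) c *
          (atkinLehnerBar hq hqM u / heckeAlphaBar Qb M₁ q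
            (algebraMap Qb (modularFunctionFieldBar M₁) c * k ^ m)) := by
      have hc' : algebraMap Qb (modularFunctionFieldBar (M₁ * q)) c ≠ 0 :=
        (map_ne_zero _).2 hc
      rw [map_div₀, map_pow, hwg, map_mul, map_pow, AlgHom.commutes]
      field_simp
    rw [e]
    exact hG.const_mul hc

/-- `w` is an involution of `J₀(M₁ q)` -/
theorem rtk8g_w_w (hq : q.Prime) (hqM : ¬ q ∣ M₁) (x : JZero (M₁ * q)) :
    atkinLehnerBar hq hqM • atkinLehnerBar hq hqM • x = x := by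
  rw [← mul_smul]
  have h1 : atkinLehnerBar hq hqM * atkinLehnerBar hq hqM = 1 :=
    AlgEquiv.ext fun y => atkinLehnerBar_invol hq hqM y
  rw [h1, one_smul]

/-- `w` commutes with the Galois action on the torsion classes of `J₀(M₁ q)` -/
theorem rtk8g_w_galois (hq : q.Prime) (hqM : ¬ q ∣ M₁) (σ : GQ) {m : ℕ} (hm : m ≠ 0)
    {x : JZero (M₁ * q)} (hx : m • x = 0) :
    atkinLehnerBar hq hqM • σ • x = σ • atkinLehnerBar hq hqM • x := by
  obtain ⟨u, hu⟩ := exists_kummerRel hx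
  have h1 : KummerRel m (atkinLehnerBar hq hqM • σ • x)
      (atkinLehnerBar hq hqM (arithmeticGalois (modularFunctionFieldFull (M₁ * q)) σ • u)) :=
    ribmp_w_kummerRel hq hqM (hu.galois σ)
  have h2 : KummerRel m (σ • atkinLehnerBar hq hqM • x)
      (arithmeticGalois (modularFunctionFieldFull (M₁ * q)) σ • atkinLehnerBar hq hqM u) :=
    (ribmp_w_kummerRel hq hqM hu).galois σ
  rw [atkinLehnerBar_smul] at h1
  exact h1.unique hm h2

end Fermat.Agent.RT.K8

end


end ZBRIB_008_1
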