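/- GENERATED FILE (helper35, build-time optimisation, NOTES/ZB.md): verbatim concatenation of the modules
   Fermat.Agent.S41.PD.Shapiro
   Fermat.Agent.S41.PD.NormalForm
   Fermat.Agent.S41.PD.UP
   Fermat.Agent.S41.PD.CocExt
   Fermat.Agent.S41.PD.Pairing
   Fermat.Agent.S41.PD.Surj
   Fermat.Agent.RIB.MP.ParLift
   Fermat.Agent.RIB.MP.TorsDiv
   Fermat.Agent.S41.PD.Perfect
   Fermat.Agent.S41.PD.ResCores
   Fermat.Agent.S41.PD.Transfer
   Do not edit; do not import together with these modules. -/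
import Fermat.Agent.ZB.S41_001
import Fermat.Agent.ZB.S21_002
import Fermat.Agent.ZB.ES_009
import Fermat.Agent.ZB.STB_002
import Fermat.Agent.ZB.S41_002

/-! ### bundled: `Fermat.Agent.S41.PD.Shapiro` -/
section ZBS41_003_0

/-!
# S41 R6, piece PD-B (part 1): Shapiro's lemma in degree one, explicitly

For `Γ ≤ G`, `Q = G ⧸ Γ`, a section `r : Q → G` and `χ : Γ → R` the function
`shap r χ g q = χ (r(q)⁻¹ g r(g⁻¹ q))` is a cocycle representing `χ`; a cocycle representing `0`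
is a coboundary; every cocycle represents a homomorphism.  Also the *cyclic lemma*: if
`c (t ^ m) q = 0` whenever `t ^ m • q = q` then `c t` is a `t`-coboundary.
-/

set_option autoImplicit false

namespace Fermat.Agent.S41.PD

variable {G : Type*} [Group G] (Γ : Subgroup G) {R : Type*} [AddCommGroup R]

/-- `r` is a section of `G → G ⧸ Γ`. -/
def IsSection (r : G ⧸ Γ → G) : Prop := ∀ q, ((r q : G) : G ⧸ Γ) = q

theorem isSection_out : IsSection Γ (Quotient.out : G ⧸ Γ → G) :=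
  fun q => QuotientGroup.out_eq' q

variable {Γ}

theorem IsSection.smul_mk_one {r : G ⧸ Γ → G} (hr : IsSection Γ r) (q : G ⧸ Γ) :
    r q • ((1 : G) : G ⧸ Γ) = q := by
  conv_rhs => rw [← hr q]
  show (((r q * 1 : G) : G) : G ⧸ Γ) = _
  rw [mul_one]

theorem IsSection.inv_smul {r : G ⧸ Γ → G} (hr : IsSection Γ r) (q : G ⧸ Γ) :
    (r q)⁻¹ • q = ((1 : G) : G ⧸ Γ) := by
  rw [inv_smul_eq_iff, hr.smul_mk_one]

theorem smul_mk_one_of_mem {γ : G} (hγ : γ ∈ Γ) : γ • ((1 : G) : G ⧸ Γ) = ((1 : G) : G ⧸ Γ) := by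
  show (((γ * 1 : G) : G) : G ⧸ Γ) = _
  rw [mul_one, QuotientGroup.eq, mul_one]
  exact inv_mem hγ

theorem mem_of_smul_mk_one {γ : G} (h : γ • ((1 : G) : G ⧸ Γ) = ((1 : G) : G ⧸ Γ)) : γ ∈ Γ := by
  have h' : (((γ * 1 : G) : G) : G ⧸ Γ) = ((1 : G) : G ⧸ Γ) := h
  rw [mul_one, QuotientGroup.eq, mul_one] at h'
  exact inv_mem_iff.1 h'

theorem IsSection.mem {r : G ⧸ Γ → G} (hr : IsSection Γ r) (g : G) (q : G ⧸ Γ) :
    (r q)⁻¹ * g * r (g⁻¹ • q) ∈ Γ := by
  apply mem_of_smul_mk_one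
  rw [mul_smul, mul_smul, hr.smul_mk_one, smul_inv_smul, hr.inv_smul]

/-- `k(g, q) = r(q)⁻¹ g r(g⁻¹ q) ∈ Γ`. -/
def kEl {r : G ⧸ Γ → G} (hr : IsSection Γ r) (g : G) (q : G ⧸ Γ) : Γ :=
  ⟨(r q)⁻¹ * g * r (g⁻¹ • q), hr.mem g q⟩

theorem kEl_coe {r : G ⧸ Γ → G} (hr : IsSection Γ r) (g : G) (q : G ⧸ Γ) :
    (kEl hr g q : G) = (r q)⁻¹ * g * r (g⁻¹ • q) := rfl

theorem kEl_mul {r : G ⧸ Γ → G} (hr : IsSection Γ r) (g h : G) (q : G ⧸ Γ) :
    kEl hr (g * h) q = kEl hr g q * kEl hr h (g⁻¹ • q) := by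
  apply Subtype.ext
  rw [Subgroup.coe_mul, kEl_coe, kEl_coe, kEl_coe, mul_inv_rev, mul_smul]
  group

theorem kEl_of_smul_eq {r : G ⧸ Γ → G} (hr : IsSection Γ r) {g : G} {q : G ⧸ Γ}
    (h : g • q = q) : (kEl hr g q : G) = (r q)⁻¹ * g * r q := by
  have : g⁻¹ • q = q := by rw [inv_smul_eq_iff, h]
  rw [kEl_coe, this]

/-- The Shapiro cocycle of `χ` with respect to the section `r`. -/
def shap {r : G ⧸ Γ → G} (hr : IsSection Γ r) (χ : Additive Γ →+ R) : G → (G ⧸ Γ) → R :=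
  fun g q => χ (Additive.ofMul (kEl hr g q))

theorem shap_apply {r : G ⧸ Γ → G} (hr : IsSection Γ r) (χ : Additive Γ →+ R) (g : G)
    (q : G ⧸ Γ) : shap hr χ g q = χ (Additive.ofMul (kEl hr g q)) := rfl

theorem isCoc_shap {r : G ⧸ Γ → G} (hr : IsSection Γ r) (χ : Additive Γ →+ R) :
    IsCoc (shap hr χ) := by
  intro g h
  funext q
  rw [Pi.add_apply, rho_apply, shap_apply, shap_apply, shap_apply, kEl_mul, ofMul_mul, map_add]

theorem represents_shap {r : G ⧸ Γ → G} (hr : IsSection Γ r) (χ : Additive Γ →+ R) :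
    Represents Γ (shap hr χ) χ := by
  refine ⟨isCoc_shap hr χ, fun γ => ?_⟩
  set q₀ : G ⧸ Γ := ((1 : G) : G ⧸ Γ) with hq₀
  have hr₀ : r q₀ ∈ Γ := by
    apply mem_of_smul_mk_one
    rw [hr.smul_mk_one]
  have hγ : (γ : G) • q₀ = q₀ := smul_mk_one_of_mem γ.2
  have h2 : kEl hr (γ : G) q₀ = (⟨r q₀, hr₀⟩ : Γ)⁻¹ * γ * ⟨r q₀, hr₀⟩ := by
    apply Subtype.ext
    rw [kEl_of_smul_eq hr hγ]
    simp only [Subgroup.coe_mul, Subgroup.coe_inv]
  rw [shap_apply, h2, ofMul_mul, ofMul_mul, ofMul_inv, map_add, map_add, map_neg]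
  abel

/-- Shapiro, existence. -/
theorem exists_represents (χ : Additive Γ →+ R) : ∃ c : G → (G ⧸ Γ) → R, Represents Γ c χ :=
  ⟨shap (isSection_out Γ) χ, represents_shap _ χ⟩

theorem Represents.isCoc {c : G → (G ⧸ Γ) → R} {χ : Additive Γ →+ R} (h : Represents Γ c χ) :
    IsCoc c := h.1

theorem Represents.add {c d : G → (G ⧸ Γ) → R} {χ ψ : Additive Γ →+ R}
    (hc : Represents Γ c χ) (hd : Represents Γ d ψ) : Represents Γ (c + d) (χ + ψ) := by
  refine ⟨hc.1.add hd.1, fun γ => ?_⟩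
  rw [Pi.add_apply, Pi.add_apply, hc.2, hd.2, AddMonoidHom.add_apply]

theorem Represents.neg {c : G → (G ⧸ Γ) → R} {χ : Additive Γ →+ R}
    (hc : Represents Γ c χ) : Represents Γ (-c) (-χ) := by
  refine ⟨hc.1.neg, fun γ => ?_⟩
  rw [Pi.neg_apply, Pi.neg_apply, hc.2, AddMonoidHom.neg_apply]

theorem Represents.sub {c d : G → (G ⧸ Γ) → R} {χ ψ : Additive Γ →+ R}
    (hc : Represents Γ c χ) (hd : Represents Γ d ψ) : Represents Γ (c - d) (χ - ψ) := by
  rw [sub_eq_add_neg, sub_eq_add_neg]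
  exact hc.add hd.neg

theorem represents_cobdry (ξ : (G ⧸ Γ) → R) : Represents Γ (cobdry ξ) 0 := by
  refine ⟨isCoc_cobdry ξ, fun γ => ?_⟩
  have hγ : ((γ : G))⁻¹ • ((1 : G) : G ⧸ Γ) = ((1 : G) : G ⧸ Γ) :=
    smul_mk_one_of_mem (inv_mem γ.2)
  rw [cobdry_apply, Pi.sub_apply, rho_apply, hγ, sub_self, AddMonoidHom.zero_apply]

theorem Represents.add_cobdry {c : G → (G ⧸ Γ) → R} {χ : Additive Γ →+ R}
    (hc : Represents Γ c χ) (ξ : (G ⧸ Γ) → R) : Represents Γ (c + cobdry ξ) χ := by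
  have := hc.add (represents_cobdry ξ)
  rwa [add_zero] at this

/-- Shapiro, injectivity: a cocycle representing `0` is a coboundary. -/
theorem Represents.exists_cobdry_of_zero {c : G → (G ⧸ Γ) → R}
    (hc : Represents Γ c (0 : Additive Γ →+ R)) : ∃ ξ : (G ⧸ Γ) → R, c = cobdry ξ := by
  obtain ⟨hcoc, h0⟩ := hc
  have hr := isSection_out Γ
  set r : G ⧸ Γ → G := Quotient.out with hrdef
  refine ⟨fun q => -c (r q) q, ?_⟩
  funext h q
  rw [cobdry_apply, Pi.sub_apply, rho_apply]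
  -- `h⁻¹ r(q) = r(h⁻¹ q) γ`
  have hmem : (r (h⁻¹ • q))⁻¹ * h⁻¹ * r q ∈ Γ := by
    apply mem_of_smul_mk_one
    rw [mul_smul, mul_smul, hr.smul_mk_one, hr.inv_smul]
  set γ : Γ := ⟨(r (h⁻¹ • q))⁻¹ * h⁻¹ * r q, hmem⟩ with hγ
  have e1 : h⁻¹ * r q = r (h⁻¹ • q) * (γ : G) := by
    rw [hγ]; simp only; group
  have e2 : c (h⁻¹ * r q) (h⁻¹ • q) = c (r (h⁻¹ • q)) (h⁻¹ • q) := by
    rw [e1, hcoc, Pi.add_apply, rho_apply, hr.inv_smul, h0 γ, AddMonoidHom.zero_apply, add_zero]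
  have e3 : c (h⁻¹ * r q) (h⁻¹ • q) = c h⁻¹ (h⁻¹ • q) + c (r q) q := by
    rw [hcoc, Pi.add_apply, rho_apply, inv_inv, smul_inv_smul]
  have e4 : c h⁻¹ (h⁻¹ • q) = -c h q := by
    rw [hcoc.map_inv, Pi.neg_apply, rho_apply, inv_inv, smul_inv_smul]
  rw [← e2, e3, e4]
  abel

/-- Two cocycles representing the same homomorphism differ by a coboundary. -/
theorem Represents.exists_cobdry {c d : G → (G ⧸ Γ) → R} {χ : Additive Γ →+ R}
    (hc : Represents Γ c χ) (hd : Represents Γ d χ) :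
    ∃ ξ : (G ⧸ Γ) → R, d = c + cobdry ξ := by
  have h := hd.sub hc
  rw [sub_self] at h
  obtain ⟨ξ, hξ⟩ := h.exists_cobdry_of_zero
  exact ⟨ξ, by rw [← hξ]; abel⟩

/-- Every cocycle represents a homomorphism. -/
theorem IsCoc.exists_represents {c : G → (G ⧸ Γ) → R} (hc : IsCoc c) :
    ∃ χ : Additive Γ →+ R, Represents Γ c χ := by
  refine ⟨⟨⟨fun γ => c ((Additive.toMul γ : Γ) : G) ((1 : G) : G ⧸ Γ), ?_⟩, ?_⟩, hc, fun γ => rfl⟩
  · show c ((1 : Γ) : G) _ = 0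
    rw [Subgroup.coe_one, hc.map_one, Pi.zero_apply]
  · intro γ δ
    show c (((Additive.toMul γ * Additive.toMul δ : Γ) : Γ) : G) _ = _
    rw [Subgroup.coe_mul, hc, Pi.add_apply, rho_apply,
      smul_mk_one_of_mem (inv_mem (Additive.toMul γ).2)]

/-- A representing cocycle determines the homomorphism. -/
theorem Represents.unique {c : G → (G ⧸ Γ) → R} {χ ψ : Additive Γ →+ R}
    (h1 : Represents Γ c χ) (h2 : Represents Γ c ψ) : χ = ψ := by
  refine AddMonoidHom.ext fun γ => ?_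
  obtain ⟨γ, rfl⟩ : ∃ γ' : Γ, Additive.ofMul γ' = γ := ⟨Additive.toMul γ, rfl⟩
  rw [← h1.2, ← h2.2]

section Cyclic

variable {Q : Type*} [MulAction G Q]

theorem IsCoc.map_zpow_smul_fixed {c : G → Q → R} (hc : IsCoc c) (t : G)
    (hfix : ∀ (m : ℤ) (q : Q), t ^ m • q = q → c (t ^ m) q = 0) {i j : ℤ} {q₁ : Q}
    (h : t ^ i • q₁ = t ^ j • q₁) : c (t ^ i) (t ^ i • q₁) = c (t ^ j) (t ^ j • q₁) := by
  have hfx : t ^ (i - j) • q₁ = q₁ := by
    have h1 : t ^ (i - j) • q₁ = (t ^ j)⁻¹ • (t ^ i • q₁) := by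
      rw [← mul_smul, ← zpow_neg, ← zpow_add]
      congr 2
      ring
    rw [h1, h, inv_smul_smul]
  have e : t ^ i = t ^ j * t ^ (i - j) := by
    rw [← zpow_add]; congr 1; ring
  have h2 : c (t ^ i) (t ^ i • q₁) =
      c (t ^ j) (t ^ i • q₁) + c (t ^ (i - j)) ((t ^ j)⁻¹ • (t ^ i • q₁)) := by
    have h3 := congrFun (hc (t ^ j) (t ^ (i - j))) (t ^ i • q₁)
    rw [← e] at h3
    exact h3
  rw [h2, h, inv_smul_smul, hfix _ _ hfx, add_zero]

/-- The cyclic lemma: if the cocycle `c` vanishes at `(t ^ m, q)` whenever `t ^ m` fixes `q`,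
then `c t` is a `t`-coboundary. -/
theorem IsCoc.exists_cobdry_at {c : G → Q → R} (hc : IsCoc c) (t : G)
    (hfix : ∀ (m : ℤ) (q : Q), t ^ m • q = q → c (t ^ m) q = 0) :
    ∃ ξ : Q → R, c t + (rho t ξ - ξ) = 0 := by
  classical
  -- the orbit relation of `⟨t⟩`
  let s : Setoid Q :=
    { r := fun a b => ∃ m : ℤ, t ^ m • b = a
      iseqv :=
        { refl := fun a => ⟨0, by simp⟩
          symm := by
            rintro a b ⟨m, hm⟩
            refine ⟨-m, ?_⟩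
            rw [← hm, ← mul_smul, ← zpow_add]
            simp
          trans := by
            rintro a b d ⟨m, hm⟩ ⟨n, hn⟩
            refine ⟨m + n, ?_⟩
            rw [zpow_add, mul_smul, hn, hm] } }
  let rep : Q → Q := fun q => (Quotient.mk s q).out
  have hrep : ∀ q, ∃ m : ℤ, t ^ m • rep q = q := by
    intro q
    have h : s.r (rep q) q := Quotient.mk_out (s := s) q
    obtain ⟨m, hm⟩ := h
    refine ⟨-m, ?_⟩
    rw [← hm, ← mul_smul, ← zpow_add]
    simp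
  have hrep_t : ∀ q, rep (t⁻¹ • q) = rep q := by
    intro q
    have : Quotient.mk s (t⁻¹ • q) = Quotient.mk s q :=
      Quotient.sound ⟨-1, by simp⟩
    show (Quotient.mk s (t⁻¹ • q)).out = (Quotient.mk s q).out
    rw [this]
  choose j hj using hrep
  refine ⟨fun q => c (t ^ j q) q, ?_⟩
  funext q
  rw [Pi.add_apply, Pi.sub_apply, rho_apply, Pi.zero_apply]
  -- `q₁ = rep q`, `t ^ (j q) q₁ = q`, `t ^ (j' + 1) q₁ = q`
  have h1 : t ^ (j (t⁻¹ • q) + 1) • rep q = q := by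
    have h := hj (t⁻¹ • q)
    rw [hrep_t] at h
    rw [add_comm, zpow_add, zpow_one, mul_smul, h, smul_inv_smul]
  have h2 : c (t ^ j q) (t ^ j q • rep q) =
      c (t ^ (j (t⁻¹ • q) + 1)) (t ^ (j (t⁻¹ • q) + 1) • rep q) :=
    hc.map_zpow_smul_fixed t hfix ((hj q).trans h1.symm)
  rw [hj q, h1] at h2
  have h3 : c (t ^ (j (t⁻¹ • q) + 1)) q = c t q + c (t ^ j (t⁻¹ • q)) (t⁻¹ • q) := by
    have h4 := congrFun (hc t (t ^ j (t⁻¹ • q))) q
    rw [← zpow_one_add, add_comm] at h4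
    exact h4
  rw [h2, h3]
  abel

end Cyclic

end Fermat.Agent.S41.PD


end ZBS41_003_0

/-! ### bundled: `Fermat.Agent.S41.PD.NormalForm` -/
section ZBS41_003_1

/-!
# S41 R6, piece PD-B (part 2): normal forms of parabolic classes, orthogonality

`G = SL(2, ℤ)`, `Γ ≤ G` with `-1 ∈ Γ`, `Q = G ⧸ Γ`.
* `exists_NF1`: a parabolic `x` is represented by a cocycle `b` with `b T = 0`;
* `exists_NF2`: a parabolic `x` (coefficients without torsion) is represented by `a` with `a U = 0`;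
* `sum_NF_eq`: `∑ a_S b_S` does not depend on the normal forms chosen.
-/

set_option autoImplicit false

namespace Fermat.Agent.S41.PD

open scoped MatrixGroups
open ModularGroup (S T)
open ModularCurve.Period (IsParabolicHom)
open Matrix

theorem S_mul_S : S * S = (-1 : SL(2, ℤ)) := by
  ext i j
  fin_cases i <;> fin_cases j <;> simp [ModularGroup.coe_S]

theorem U_mul_U_mul_U : U * U * U = (-1 : SL(2, ℤ)) := by
  ext i j
  fin_cases i <;> fin_cases j <;>
    simp [U, ModularGroup.coe_S, ModularGroup.coe_T, Matrix.mul_apply, Fin.sum_univ_two]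

theorem S_inv_eq : S⁻¹ = -1 * S := by
  rw [inv_eq_iff_mul_eq_one]
  have : S * (-1 * S) = -1 * (S * S) := by simp
  rw [this, S_mul_S]
  simp

theorem T_eq : T = -1 * S * U := by
  rw [U, ← mul_assoc, mul_assoc (-1) S S, S_mul_S]
  simp

theorem neg_one_mul_neg_one : (-1 : SL(2, ℤ)) * -1 = 1 := by simp

theorem U_pow_six : U ^ 6 = 1 := by
  have h : U ^ 6 = (U * U * U) * (U * U * U) := by
    simp only [pow_succ, pow_zero, one_mul, mul_assoc]
  rw [h, U_mul_U_mul_U, neg_one_mul_neg_one]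

theorem trace_conj_eq (x g : SL(2, ℤ)) :
    ((x⁻¹ * g * x : SL(2, ℤ)) : Matrix (Fin 2) (Fin 2) ℤ).trace =
      (g : Matrix (Fin 2) (Fin 2) ℤ).trace := by
  rw [Matrix.SpecialLinearGroup.coe_mul, Matrix.trace_mul_comm,
    ← Matrix.SpecialLinearGroup.coe_mul, mul_inv_cancel_left]

theorem trace_T_zpow (n : ℤ) : ((T ^ n : SL(2, ℤ)) : Matrix (Fin 2) (Fin 2) ℤ).trace = 2 := by
  rw [ModularGroup.coe_T_zpow]
  simp [Matrix.trace_fin_two]

section

variable {Γ : Subgroup SL(2, ℤ)} {R : Type*}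

theorem neg_one_smul_eq (hneg : (-1 : SL(2, ℤ)) ∈ Γ) (q : SL(2, ℤ) ⧸ Γ) :
    (-1 : SL(2, ℤ)) • q = q := by
  induction q using QuotientGroup.induction_on with
  | H g =>
    show (((-1 * g : SL(2, ℤ)) : SL(2, ℤ)) : SL(2, ℤ) ⧸ Γ) = _
    rw [QuotientGroup.eq]
    have : (-1 * g)⁻¹ * g = -1 := by
      rw [_root_.mul_inv_rev, mul_assoc]
      simp
    rw [this]
    exact hneg

theorem rho_neg_one (hneg : (-1 : SL(2, ℤ)) ∈ Γ) (v : (SL(2, ℤ) ⧸ Γ) → R) :
    rho (-1 : SL(2, ℤ)) v = v := by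
  funext q
  rw [rho_apply]
  have : (-1 : SL(2, ℤ))⁻¹ = -1 := by simp
  rw [this, neg_one_smul_eq hneg]

theorem rho_S_rho_S (hneg : (-1 : SL(2, ℤ)) ∈ Γ) (v : (SL(2, ℤ) ⧸ Γ) → R) :
    rho S (rho S v) = v := by
  rw [← rho_mul, S_mul_S, rho_neg_one hneg]

theorem rho_U_rho_U_rho_U (hneg : (-1 : SL(2, ℤ)) ∈ Γ) (v : (SL(2, ℤ) ⧸ Γ) → R) :
    rho U (rho U (rho U v)) = v := by
  rw [← rho_mul, ← rho_mul, U_mul_U_mul_U, rho_neg_one hneg]

theorem rho_T_eq (hneg : (-1 : SL(2, ℤ)) ∈ Γ) (v : (SL(2, ℤ) ⧸ Γ) → R) :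
    rho T v = rho S (rho U v) := by
  conv_lhs => rw [T_eq, mul_assoc, rho_mul, rho_neg_one hneg, rho_mul]

theorem rho_U_eq (v : (SL(2, ℤ) ⧸ Γ) → R) : rho U v = rho S (rho T v) := by
  rw [U, rho_mul]

theorem rho_S_inv (hneg : (-1 : SL(2, ℤ)) ∈ Γ) (v : (SL(2, ℤ) ⧸ Γ) → R) :
    rho S⁻¹ v = rho S v := by
  rw [S_inv_eq, rho_mul, rho_neg_one hneg]

end

section cocycle

variable {Γ : Subgroup SL(2, ℤ)} {R : Type*} [AddCommGroup R]

/-- For a cocycle `c`, `c (-1)` is an invariant function. -/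
theorem IsCoc.rho_map_neg_one (hneg : (-1 : SL(2, ℤ)) ∈ Γ) {c : SL(2, ℤ) → (SL(2, ℤ) ⧸ Γ) → R}
    (hc : IsCoc c) (g : SL(2, ℤ)) : rho g (c (-1)) = c (-1) := by
  have h1 := hc g (-1)
  have h2 := hc (-1) g
  have e : g * -1 = -1 * g := by simp
  rw [e, h2, rho_neg_one hneg] at h1
  have := add_left_cancel (a := c g) (b := c (-1)) (c := rho g (c (-1)))
    (by rw [← h1]; abel)
  exact this.symm

theorem Represents.map_neg_one (hneg : (-1 : SL(2, ℤ)) ∈ Γ)
    {c : SL(2, ℤ) → (SL(2, ℤ) ⧸ Γ) → R} {χ : Additive Γ →+ R} (hc : Represents Γ c χ)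
    (hχ : χ (Additive.ofMul (⟨-1, hneg⟩ : Γ)) = 0) : c (-1) = 0 := by
  funext q
  induction q using QuotientGroup.induction_on with
  | H g =>
    have h1 := congrFun (hc.1.rho_map_neg_one hneg g⁻¹) ((1 : SL(2, ℤ)) : SL(2, ℤ) ⧸ Γ)
    rw [rho_apply, inv_inv] at h1
    have h2 : g • ((1 : SL(2, ℤ)) : SL(2, ℤ) ⧸ Γ) = ((g : SL(2, ℤ)) : SL(2, ℤ) ⧸ Γ) := by
      show (((g * 1 : SL(2, ℤ)) : SL(2, ℤ)) : SL(2, ℤ) ⧸ Γ) = _
      rw [mul_one]
    rw [h2] at h1
    rw [h1, Pi.zero_apply]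
    exact (hc.2 ⟨-1, hneg⟩).trans hχ

/-- A cocycle with `c (-1) = 0`: `c S ∈ ker (1 + S)`. -/
theorem IsCoc.map_S_add {c : SL(2, ℤ) → (SL(2, ℤ) ⧸ Γ) → R}
    (hc : IsCoc c) (h1 : c (-1) = 0) : c S + rho S (c S) = 0 := by
  rw [← hc, S_mul_S, h1]

/-- A cocycle with `c (-1) = 0`: `c U ∈ ker (1 + U + U²)`. -/
theorem IsCoc.map_U_add {c : SL(2, ℤ) → (SL(2, ℤ) ⧸ Γ) → R}
    (hc : IsCoc c) (h1 : c (-1) = 0) : c U + rho U (c U) + rho U (rho U (c U)) = 0 := by
  have h := hc (U * U) U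
  rw [hc U U, U_mul_U_mul_U, h1, rho_mul] at h
  rw [h]

theorem IsCoc.map_S_inv (hneg : (-1 : SL(2, ℤ)) ∈ Γ) {c : SL(2, ℤ) → (SL(2, ℤ) ⧸ Γ) → R}
    (hc : IsCoc c) (h1 : c (-1) = 0) : c S⁻¹ = c S := by
  rw [S_inv_eq, hc, h1, rho_neg_one hneg, zero_add]

/-- `T`-normal form: `b T = 0` gives `b U = b S`. -/
theorem IsCoc.map_U_of_map_T {c : SL(2, ℤ) → (SL(2, ℤ) ⧸ Γ) → R}
    (hc : IsCoc c) (hT : c T = 0) : c U = c S := by
  rw [U, hc, hT, rho_zero, add_zero]

/-- `U`-normal form: `a U = 0` gives `a T = a S`. -/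
theorem IsCoc.map_T_of_map_U (hneg : (-1 : SL(2, ℤ)) ∈ Γ)
    {c : SL(2, ℤ) → (SL(2, ℤ) ⧸ Γ) → R} (hc : IsCoc c) (h1 : c (-1) = 0) (hU : c U = 0) :
    c T = c S := by
  rw [T_eq, mul_assoc, hc, h1, rho_neg_one hneg, zero_add, hc, hU, rho_zero, add_zero]

end cocycle

section existence

variable {Γ : Subgroup SL(2, ℤ)} {R : Type*} [AddCommGroup R]

/-- NF1 exists: a parabolic `x` is represented by a cocycle vanishing at `T`. -/
theorem exists_NF1 (x : Additive Γ →+ R) (hx : IsParabolicHom Γ x) :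
    ∃ b : SL(2, ℤ) → (SL(2, ℤ) ⧸ Γ) → R, Represents Γ b x ∧ b T = 0 := by
  have hr := isSection_out Γ
  have hfix : ∀ (m : ℤ) (q : SL(2, ℤ) ⧸ Γ), T ^ m • q = q → shap hr x (T ^ m) q = 0 := by
    intro m q hq
    rw [shap_apply]
    apply hx
    rw [kEl_of_smul_eq hr hq, trace_conj_eq, trace_T_zpow]
    norm_num
  obtain ⟨ξ, hξ⟩ := (isCoc_shap hr x).exists_cobdry_at T hfix
  exact ⟨shap hr x + cobdry ξ, (represents_shap hr x).add_cobdry ξ, hξ⟩

/-- NF2 exists: a homomorphism `x` killing the elements of finite order is represented by a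
cocycle vanishing at `U`. -/
theorem exists_NF2 (x : Additive Γ →+ R)
    (hx : ∀ γ : Γ, γ ^ 6 = 1 → x (Additive.ofMul γ) = 0) :
    ∃ a : SL(2, ℤ) → (SL(2, ℤ) ⧸ Γ) → R, Represents Γ a x ∧ a U = 0 := by
  have hr := isSection_out Γ
  have hfix : ∀ (m : ℤ) (q : SL(2, ℤ) ⧸ Γ), U ^ m • q = q → shap hr x (U ^ m) q = 0 := by
    intro m q hq
    rw [shap_apply]
    apply hx
    apply Subtype.ext
    rw [Subgroup.coe_pow, kEl_of_smul_eq hr hq, Subgroup.coe_one]
    have h6 : (U ^ m) ^ 6 = 1 := by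
      rw [← zpow_natCast, ← _root_.zpow_mul, mul_comm, _root_.zpow_mul, zpow_natCast, U_pow_six,
        _root_.one_zpow]
    have : ((Quotient.out q)⁻¹ * U ^ m * Quotient.out q) ^ 6 =
        (Quotient.out q)⁻¹ * (U ^ m) ^ 6 * Quotient.out q := by
      have := conj_pow (i := 6) (a := (Quotient.out q)⁻¹) (b := U ^ m)
      rw [inv_inv] at this
      exact this
    rw [this, h6]
    group
  obtain ⟨ξ, hξ⟩ := (isCoc_shap hr x).exists_cobdry_at U hfix
  exact ⟨shap hr x + cobdry ξ, (represents_shap hr x).add_cobdry ξ, hξ⟩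

end existence

section dot

variable {G : Type*} [Group G] {Q : Type*} [MulAction G Q] [Fintype Q] {R : Type*} [CommRing R]

theorem dot_rho_rho (g : G) (u v : Q → R) : rho g u ⬝ᵥ rho g v = u ⬝ᵥ v :=
  sum_rho_mul_rho g u v

theorem dot_rho_left (g : G) (u v : Q → R) : rho g u ⬝ᵥ v = u ⬝ᵥ rho g⁻¹ v :=
  sum_rho_mul g u v

theorem dot_rho_right (g : G) (u v : Q → R) : u ⬝ᵥ rho g v = rho g⁻¹ u ⬝ᵥ v :=
  sum_mul_rho g u v

theorem dot_cobdry_left_of_fixed (g : G) (m η : Q → R) (hη : rho g η = η) :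
    (rho g m - m) ⬝ᵥ η = 0 := by
  rw [sub_dotProduct, dot_rho_left]
  have : rho g⁻¹ η = η := by
    conv_lhs => rw [← hη]
    rw [rho_inv_rho]
  rw [this, sub_self]

theorem dot_cobdry_right_of_fixed (g : G) (m η : Q → R) (hη : rho g η = η) :
    η ⬝ᵥ (rho g m - m) = 0 := by
  rw [dotProduct_comm, dot_cobdry_left_of_fixed g m η hη]

end dot

section orth

variable {Γ : Subgroup SL(2, ℤ)} [Fintype (SL(2, ℤ) ⧸ Γ)] {R : Type*} [CommRing R]

/-- `⟨Z*, B⟩ = 0`: for `e ∈ ker(1+S) ∩ (T-1)M` and `η` `T`-invariant, `⟨e, (S-1)η⟩ = 0`. -/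
theorem dot_Zs_B (hneg : (-1 : SL(2, ℤ)) ∈ Γ) (e m η : (SL(2, ℤ) ⧸ Γ) → R)
    (he : e + rho S e = 0) (hm : e = rho T m - m) (hη : rho T η = η) :
    e ⬝ᵥ (rho S η - η) = 0 := by
  have h1 : e ⬝ᵥ η = 0 := by rw [hm]; exact dot_cobdry_left_of_fixed T m η hη
  have h2 : rho S e = -e := eq_neg_of_add_eq_zero_right he
  rw [dotProduct_sub, dot_rho_right, rho_S_inv hneg, h2, neg_dotProduct, h1]
  simp

/-- `⟨B*, Z⟩ = 0`: for `ξ` `U`-invariant and `e ∈ ker(1+S) ∩ ker(1+U+U²)`, `⟨(S-1)ξ, e⟩ = 0`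
(no 3-torsion). -/
theorem dot_Bs_Z (hneg : (-1 : SL(2, ℤ)) ∈ Γ) (h3 : ∀ r : R, 3 * r = 0 → r = 0)
    (ξ e : (SL(2, ℤ) ⧸ Γ) → R) (hξ : rho U ξ = ξ)
    (he : e + rho S e = 0) (heU : e + rho U e + rho U (rho U e) = 0) :
    (rho S ξ - ξ) ⬝ᵥ e = 0 := by
  have hξ' : rho U⁻¹ ξ = ξ := by
    conv_lhs => rw [← hξ]
    rw [rho_inv_rho]
  have h1 : ξ ⬝ᵥ rho U e = ξ ⬝ᵥ e := by rw [dot_rho_right, hξ']
  have h2 : ξ ⬝ᵥ rho U (rho U e) = ξ ⬝ᵥ e := by rw [dot_rho_right, hξ', h1]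
  have h4 : ξ ⬝ᵥ e = 0 := by
    apply h3
    have := congrArg (fun w => ξ ⬝ᵥ w) heU
    simp only [dotProduct_add, dotProduct_zero, h1, h2] at this
    linear_combination this
  have h5 : rho S e = -e := eq_neg_of_add_eq_zero_right he
  rw [sub_dotProduct, dot_rho_left, rho_S_inv hneg, h5, dotProduct_neg, h4]
  simp

/-- `⟨B*, B⟩ = 0`. -/
theorem dot_Bs_B (hneg : (-1 : SL(2, ℤ)) ∈ Γ) (ξ η : (SL(2, ℤ) ⧸ Γ) → R)
    (hξ : rho U ξ = ξ) (hη : rho T η = η) : (rho S ξ - ξ) ⬝ᵥ (rho S η - η) = 0 := by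
  have hξ' : rho U⁻¹ ξ = ξ := by
    conv_lhs => rw [← hξ]
    rw [rho_inv_rho]
  have h1 : rho S η = rho U η := by
    have := congrArg (rho S) hη
    rw [rho_T_eq hneg, rho_S_rho_S hneg] at this
    exact this.symm
  have h2 : ξ ⬝ᵥ rho S η = ξ ⬝ᵥ η := by rw [h1, dot_rho_right, hξ']
  have h3 : rho S ξ ⬝ᵥ η = ξ ⬝ᵥ η := by rw [dot_rho_left, rho_S_inv hneg, h2]
  rw [sub_dotProduct, dotProduct_sub, dotProduct_sub, dot_rho_rho, h2, h3]
  ring

end orth

end Fermat.Agent.S41.PD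


end ZBS41_003_1

/-! ### bundled: `Fermat.Agent.S41.PD.UP` -/
section ZBS41_003_2

/-!
# S41 R6, piece PD-A1: the universal property of `PSL₂(ℤ) = C₂ * C₃`

Ping-pong on `ℍ` (`X₀ = {Re z > 0}`, `X₁ = {Re z < 0}`) shows that
`C₂ * C₃ → Perm ℍ` is injective; `SL(2, ℤ) = ⟨S, T⟩` maps into its range.
-/

set_option autoImplicit false

namespace Fermat.Agent.S41.PD

open scoped MatrixGroups UpperHalfPlane Pointwise
open ModularGroup (S T)
open UpperHalfPlane Monoid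

/-- The homomorphism `C_n → G` attached to `g` with `g ^ n = 1`. -/
noncomputable def cycHom {G : Type*} [Group G] (n : ℕ) (g : G) (hg : g ^ n = 1) :
    Multiplicative (ZMod n) →* G :=
  AddMonoidHom.toMultiplicativeLeft
    (ZMod.lift n ⟨zmultiplesHom (Additive G) (Additive.ofMul g), by
      show (n : ℤ) • Additive.ofMul g = 0
      rw [natCast_zsmul, ← ofMul_pow, hg, ofMul_one]⟩)

theorem cycHom_apply_intCast {G : Type*} [Group G] (n : ℕ) (g : G) (hg : g ^ n = 1) (k : ℤ) :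
    cycHom n g hg (Multiplicative.ofAdd (k : ZMod n)) = g ^ k := by
  show Additive.toMul (ZMod.lift n _ (k : ZMod n)) = g ^ k
  rw [ZMod.lift_coe]
  rfl

theorem cycHom_apply_one {G : Type*} [Group G] (n : ℕ) (g : G) (hg : g ^ n = 1) :
    cycHom n g hg (Multiplicative.ofAdd (1 : ZMod n)) = g := by
  have := cycHom_apply_intCast n g hg 1
  rwa [Int.cast_one, zpow_one] at this

/-- the orders of the two cyclic factors -/
def cycN (b : Bool) : ℕ := cond b 3 2

/-- the two cyclic factors `C₂` (`false`) and `C₃` (`true`) -/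
abbrev CycH (b : Bool) : Type := Multiplicative (ZMod (cycN b))

/-- the action of `SL(2, ℤ)` on `ℍ` as a homomorphism to `Perm ℍ` -/
noncomputable def theta : SL(2, ℤ) →* Equiv.Perm ℍ := MulAction.toPermHom SL(2, ℤ) ℍ

theorem theta_apply (g : SL(2, ℤ)) (z : ℍ) : theta g z = g • z := rfl

theorem neg_one_smul_uhp (z : ℍ) : (-1 : SL(2, ℤ)) • z = z := by
  rw [ModularGroup.SL_neg_smul, one_smul]

theorem theta_neg_one : theta (-1) = 1 := by
  ext1 z
  rw [theta_apply, neg_one_smul_uhp]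
  rfl

theorem theta_S_sq : theta S ^ 2 = 1 := by
  rw [← map_pow, pow_two, S_mul_S, theta_neg_one]

theorem theta_U_cube : theta U ^ 3 = 1 := by
  rw [← map_pow]
  have : U ^ 3 = U * U * U := by simp only [pow_succ, pow_zero, one_mul]
  rw [this, U_mul_U_mul_U, theta_neg_one]

/-- the two homomorphisms `C₂, C₃ → Perm ℍ` -/
noncomputable def thetaCyc : ∀ b : Bool, CycH b →* Equiv.Perm ℍ
  | false => cycHom 2 (theta S) theta_S_sq
  | true => cycHom 3 (theta U) theta_U_cube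

/-- the ping-pong sets -/
def ppSet : Bool → Set ℍ
  | false => {z | 0 < z.re}
  | true => {z | z.re < 0}

theorem re_S_smul (z : ℍ) : (S • z).re = -z.re / Complex.normSq (z : ℂ) := by
  rw [modular_S_smul]
  show ((-(z : ℂ))⁻¹).re = _
  rw [Complex.inv_re]
  simp [Complex.normSq_neg]

theorem re_T_smul (z : ℍ) : (T • z).re = z.re + 1 := by
  rw [modular_T_smul]
  simp [add_comm]

theorem re_T_inv_smul (z : ℍ) : (T⁻¹ • z).re = z.re - 1 := by
  have := modular_T_zpow_smul z (-1)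
  rw [zpow_neg_one] at this
  rw [this]
  simp
  ring

theorem normSq_pos (z : ℍ) : 0 < Complex.normSq (z : ℂ) :=
  Complex.normSq_pos.2 z.ne_zero

theorem U_smul (z : ℍ) : U • z = S • (T • z) := by rw [U, mul_smul]

theorem U_mul_U_eq : U * U = T⁻¹ * S := by
  have h : U * U * U = -1 := U_mul_U_mul_U
  have h2 : U * U = -1 * U⁻¹ := by
    rw [← h]; group
  rw [h2, U, _root_.mul_inv_rev, S_inv_eq]
  have : T⁻¹ * (-1 * S) = -1 * (T⁻¹ * S) := by simp
  rw [this, ← mul_assoc, neg_one_mul_neg_one, one_mul]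

theorem re_U_smul_neg {z : ℍ} (hz : 0 < z.re) : (U • z).re < 0 := by
  rw [U_smul, re_S_smul, re_T_smul]
  apply div_neg_of_neg_of_pos _ (normSq_pos _)
  linarith

theorem re_U_U_smul_neg {z : ℍ} (hz : 0 < z.re) : ((U * U) • z).re < 0 := by
  rw [U_mul_U_eq, mul_smul, re_T_inv_smul, re_S_smul]
  have : -z.re / Complex.normSq (z : ℂ) < 0 :=
    div_neg_of_neg_of_pos (by linarith) (normSq_pos _)
  linarith

theorem re_S_smul_pos {z : ℍ} (hz : z.re < 0) : 0 < (S • z).re := by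
  rw [re_S_smul]
  exact div_pos (by linarith) (normSq_pos _)

theorem thetaCyc_false (h : CycH false) (hh : h ≠ 1) : thetaCyc false h = theta S := by
  have key : ∀ k : ZMod 2, (Multiplicative.ofAdd k : Multiplicative (ZMod 2)) ≠ 1 →
      cycHom 2 (theta S) theta_S_sq (Multiplicative.ofAdd k) = theta S := by
    intro k hk
    fin_cases k
    · exact absurd rfl hk
    · exact cycHom_apply_one 2 (theta S) theta_S_sq
  exact key (Multiplicative.toAdd h) hh

theorem thetaCyc_true (h : CycH true) (hh : h ≠ 1) :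
    thetaCyc true h = theta U ∨ thetaCyc true h = theta (U * U) := by
  have key : ∀ k : ZMod 3, (Multiplicative.ofAdd k : Multiplicative (ZMod 3)) ≠ 1 →
      cycHom 3 (theta U) theta_U_cube (Multiplicative.ofAdd k) = theta U ∨
        cycHom 3 (theta U) theta_U_cube (Multiplicative.ofAdd k) = theta (U * U) := by
    intro k hk
    fin_cases k
    · exact absurd rfl hk
    · exact Or.inl (cycHom_apply_one 3 (theta U) theta_U_cube)
    · right
      have := cycHom_apply_intCast 3 (theta U) theta_U_cube 2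
      rw [map_mul, ← pow_two]
      exact this
  exact key (Multiplicative.toAdd h) hh

theorem ppSet_nonempty (b : Bool) : (ppSet b).Nonempty := by
  cases b
  · refine ⟨⟨⟨1, 1⟩, by simp⟩, ?_⟩
    show (0 : ℝ) < 1
    norm_num
  · refine ⟨⟨⟨-1, 1⟩, by simp⟩, ?_⟩
    show (-1 : ℝ) < 0
    norm_num

theorem ppSet_disjoint : Pairwise (Function.onFun Disjoint ppSet) := by
  intro i j hij
  rw [Function.onFun, Set.disjoint_left]
  cases i <;> cases j
  · exact absurd rfl hij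
  · intro z (h1 : 0 < z.re) (h2 : z.re < 0)
    linarith
  · intro z (h1 : z.re < 0) (h2 : 0 < z.re)
    linarith
  · exact absurd rfl hij

theorem ppSet_pp : Pairwise fun i j => ∀ h : CycH i, h ≠ 1 → thetaCyc i h • ppSet j ⊆ ppSet i := by
  intro i j hij h hh
  cases i <;> cases j
  · exact absurd rfl hij
  · rintro _ ⟨z, hz, rfl⟩
    show 0 < ((thetaCyc false h) z).re
    rw [thetaCyc_false h hh, theta_apply]
    exact re_S_smul_pos hz
  · rintro _ ⟨z, hz, rfl⟩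
    show ((thetaCyc true h) z).re < 0
    rcases thetaCyc_true h hh with e | e
    · rw [e, theta_apply]
      exact re_U_smul_neg hz
    · rw [e, theta_apply]
      exact re_U_U_smul_neg hz
  · exact absurd rfl hij

theorem lift_thetaCyc_injective : Function.Injective (CoprodI.lift thetaCyc) := by
  refine CoprodI.lift_injective_of_ping_pong thetaCyc (Or.inr ⟨true, ?_⟩) ppSet ppSet_nonempty
    ppSet_disjoint ppSet_pp
  show (3 : Cardinal) ≤ Cardinal.mk (Multiplicative (ZMod 3))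
  rw [Cardinal.mk_fintype, Fintype.card_multiplicative, ZMod.card]
  norm_num

/-- the generator of `C₂` inside `C₂ * C₃` -/
noncomputable def genS : CoprodI CycH := CoprodI.of (i := false) (Multiplicative.ofAdd (1 : ZMod 2))

/-- the generator of `C₃` inside `C₂ * C₃` -/
noncomputable def genU : CoprodI CycH := CoprodI.of (i := true) (Multiplicative.ofAdd (1 : ZMod 3))

theorem lift_genS : CoprodI.lift thetaCyc genS = theta S := by
  rw [genS, CoprodI.lift_of]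
  exact cycHom_apply_one 2 (theta S) theta_S_sq

theorem lift_genU : CoprodI.lift thetaCyc genU = theta U := by
  rw [genU, CoprodI.lift_of]
  exact cycHom_apply_one 3 (theta U) theta_U_cube

theorem theta_mem_range (g : SL(2, ℤ)) : theta g ∈ (CoprodI.lift thetaCyc).range := by
  have hg : g ∈ Subgroup.closure ({S, T} : Set SL(2, ℤ)) := by
    rw [SpecialLinearGroup.SL2Z_generators]
    exact Subgroup.mem_top g
  have hS : theta S ∈ (CoprodI.lift thetaCyc).range := ⟨genS, lift_genS⟩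
  have hU : theta U ∈ (CoprodI.lift thetaCyc).range := ⟨genU, lift_genU⟩
  induction hg using Subgroup.closure_induction with
  | mem x hx =>
    rcases hx with rfl | rfl
    · exact hS
    · have : T = S⁻¹ * U := by rw [U]; group
      rw [this, map_mul, map_inv]
      exact mul_mem (inv_mem hS) hU
  | one => rw [map_one]; exact one_mem _
  | mul x y _ _ hx hy => rw [map_mul]; exact mul_mem hx hy
  | inv x _ hx => rw [map_inv]; exact inv_mem hx

/-- `SL(2, ℤ) → C₂ * C₃`. -/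
noncomputable def toCoprod : SL(2, ℤ) →* CoprodI CycH :=
  (MonoidHom.ofInjective lift_thetaCyc_injective).symm.toMonoidHom.comp
    (theta.codRestrict (CoprodI.lift thetaCyc).range theta_mem_range)

theorem lift_toCoprod (g : SL(2, ℤ)) : CoprodI.lift thetaCyc (toCoprod g) = theta g := by
  have := (MonoidHom.ofInjective lift_thetaCyc_injective).apply_symm_apply
    (theta.codRestrict (CoprodI.lift thetaCyc).range theta_mem_range g)
  exact congrArg Subtype.val this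

theorem toCoprod_S : toCoprod S = genS :=
  lift_thetaCyc_injective ((lift_toCoprod S).trans lift_genS.symm)

theorem toCoprod_U : toCoprod U = genU :=
  lift_thetaCyc_injective ((lift_toCoprod U).trans lift_genU.symm)

/-- the pair of homomorphisms `C₂, C₃ → H` attached to `s² = 1`, `u³ = 1` -/
noncomputable def pairHom {H : Type*} [Group H] (s u : H) (hs : s ^ 2 = 1) (hu : u ^ 3 = 1) :
    ∀ b : Bool, CycH b →* H
  | false => cycHom 2 s hs
  | true => cycHom 3 u hu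

/-- **PD-A1**: the universal property of `PSL₂(ℤ) = C₂ * C₃`. -/
theorem exists_hom_of_sq_cube {H : Type*} [Group H] (s u : H) (hs : s ^ 2 = 1) (hu : u ^ 3 = 1) :
    ∃ φ : SL(2, ℤ) →* H, φ S = s ∧ φ U = u := by
  refine ⟨(CoprodI.lift (pairHom s u hs hu)).comp toCoprod, ?_, ?_⟩
  · rw [MonoidHom.comp_apply, toCoprod_S, genS, CoprodI.lift_of]
    exact cycHom_apply_one 2 s hs
  · rw [MonoidHom.comp_apply, toCoprod_U, genU, CoprodI.lift_of]
    exact cycHom_apply_one 3 u hu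

theorem stmtUP : StmtUP := fun _ _ s u hs hu => exists_hom_of_sq_cube s u hs hu

end Fermat.Agent.S41.PD


end ZBS41_003_2

/-! ### bundled: `Fermat.Agent.S41.PD.CocExt` -/
section ZBS41_003_3

/-!
# S41 R6, piece PD-A2: cocycle extension

A cocycle `c : SL(2, ℤ) → M` for `ρ` is the same as the homomorphism
`g ↦ ((m, n) ↦ (ρ(g) m + n • c(g), n))` into `Aut(M × ℤ)`; so the universal property PD-A1 gives
cocycles with prescribed values at `S` and `U`.
-/

set_option autoImplicit false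

namespace Fermat.Agent.S41.PD

open scoped MatrixGroups
open ModularGroup (S T)

section aff

variable {M : Type*} [AddCommGroup M]

/-- the affine map `(m, n) ↦ (A m + n • c, n)` of `M × ℤ` -/
def aff (A : AddMonoid.End M) (c : M) : AddMonoid.End (M × ℤ) where
  toFun x := (A x.1 + x.2 • c, x.2)
  map_zero' := by simp
  map_add' x y := by
    ext
    · simp only [Prod.fst_add, Prod.snd_add, map_add, add_smul]
      abel
    · simp

theorem end_mul_apply (A B : AddMonoid.End M) (m : M) : (A * B) m = A (B m) := rfl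

@[simp] theorem aff_apply (A : AddMonoid.End M) (c : M) (x : M × ℤ) :
    aff A c x = (A x.1 + x.2 • c, x.2) := rfl

theorem aff_mul (A B : AddMonoid.End M) (c d : M) : aff A c * aff B d = aff (A * B) (c + A d) := by
  ext x
  · simp only [end_mul_apply, aff_apply, map_add, map_zsmul, smul_add]
    abel
  · simp [end_mul_apply]

theorem aff_one : aff (1 : AddMonoid.End M) 0 = 1 := by
  ext x <;> simp

theorem aff_snd_eq {A B : AddMonoid.End M} {c d : M} (h : aff A c = aff B d) : c = d := by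
  have := congrArg (fun f : AddMonoid.End (M × ℤ) => (f (0, 1)).1) h
  simpa using this

end aff

/-- **PD-A2**: cocycle extension. -/
theorem exists_cocycle_of_UP (hUP : StmtUP) (M : Type) [AddCommGroup M]
    (ρ : SL(2, ℤ) →* AddMonoid.End M) (hneg : ρ (-1) = 1) (cS cU : M)
    (hS : cS + ρ S cS = 0) (hU : cU + ρ U cU + ρ U (ρ U cU) = 0) :
    ∃ c : SL(2, ℤ) → M, (∀ g h, c (g * h) = c g + ρ g (c h)) ∧ c S = cS ∧ c U = cU := by
  have eS : aff (ρ S) cS * aff (ρ S) cS = 1 := by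
    rw [aff_mul, ← map_mul, S_mul_S, hneg, hS, aff_one]
  have eU : aff (ρ U) cU * aff (ρ U) cU * aff (ρ U) cU = 1 := by
    rw [aff_mul, aff_mul, ← map_mul, ← map_mul, U_mul_U_mul_U, hneg]
    have : cU + ρ U cU + (ρ (U * U)) cU = 0 := by
      rw [map_mul, end_mul_apply]; exact hU
    rw [this, aff_one]
  let s : (AddMonoid.End (M × ℤ))ˣ := ⟨aff (ρ S) cS, aff (ρ S) cS, eS, eS⟩
  let u : (AddMonoid.End (M × ℤ))ˣ :=
    ⟨aff (ρ U) cU, aff (ρ U) cU * aff (ρ U) cU, by rw [← mul_assoc]; exact eU, eU⟩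
  have hs : s ^ 2 = 1 := by
    apply Units.ext
    rw [Units.val_pow_eq_pow_val, pow_two]
    exact eS
  have hu : u ^ 3 = 1 := by
    apply Units.ext
    rw [Units.val_pow_eq_pow_val]
    have : (u : AddMonoid.End (M × ℤ)) ^ 3 = aff (ρ U) cU * aff (ρ U) cU * aff (ρ U) cU := by
      simp only [pow_succ, pow_zero, one_mul]
      rfl
    rw [this]
    exact eU
  obtain ⟨φ, hφS, hφU⟩ := hUP _ s u hs hu
  -- every `φ g` is affine over `ρ g`
  have haff : ∀ g : SL(2, ℤ), ∃ c : M, (φ g : AddMonoid.End (M × ℤ)) = aff (ρ g) c := by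
    intro g
    have hg : g ∈ Subgroup.closure ({S, T} : Set SL(2, ℤ)) := by
      rw [SpecialLinearGroup.SL2Z_generators]
      exact Subgroup.mem_top g
    have hinv : ∀ x : SL(2, ℤ), (∃ c : M, (φ x : AddMonoid.End (M × ℤ)) = aff (ρ x) c) →
        ∃ c : M, (φ x⁻¹ : AddMonoid.End (M × ℤ)) = aff (ρ x⁻¹) c := by
      rintro x ⟨c, hc⟩
      refine ⟨-ρ x⁻¹ c, ?_⟩
      rw [map_inv]
      have h1 : (φ x : AddMonoid.End (M × ℤ)) * aff (ρ x⁻¹) (-ρ x⁻¹ c) = 1 := by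
        rw [hc, aff_mul, ← map_mul, mul_inv_cancel, map_one, map_neg,
          ← end_mul_apply, ← map_mul, mul_inv_cancel, map_one]
        have : c + -((1 : AddMonoid.End M) c) = 0 := by
          show c + -c = 0
          abel
        rw [this, aff_one]
      exact Units.inv_eq_of_mul_eq_one_right h1
    have hmul : ∀ x y : SL(2, ℤ), (∃ c : M, (φ x : AddMonoid.End (M × ℤ)) = aff (ρ x) c) →
        (∃ c : M, (φ y : AddMonoid.End (M × ℤ)) = aff (ρ y) c) →
        ∃ c : M, (φ (x * y) : AddMonoid.End (M × ℤ)) = aff (ρ (x * y)) c := by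
      rintro x y ⟨c, hc⟩ ⟨d, hd⟩
      exact ⟨c + ρ x d, by rw [map_mul, Units.val_mul, hc, hd, aff_mul, map_mul]⟩
    have hSaff : ∃ c : M, (φ S : AddMonoid.End (M × ℤ)) = aff (ρ S) c := ⟨cS, by rw [hφS]⟩
    have hUaff : ∃ c : M, (φ U : AddMonoid.End (M × ℤ)) = aff (ρ U) c := ⟨cU, by rw [hφU]⟩
    induction hg using Subgroup.closure_induction with
    | mem x hx =>
      rcases hx with rfl | rfl
      · exact hSaff
      · have hT : T = S⁻¹ * U := by rw [U]; group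
        rw [hT]
        exact hmul _ _ (hinv _ hSaff) hUaff
    | one => exact ⟨0, by rw [map_one, map_one, aff_one]; rfl⟩
    | mul x y _ _ hx hy => exact hmul x y hx hy
    | inv x _ hx => exact hinv x hx
  choose c hc using haff
  refine ⟨c, ?_, ?_, ?_⟩
  · intro g h
    have h1 : (φ (g * h) : AddMonoid.End (M × ℤ)) = aff (ρ (g * h)) (c g + ρ g (c h)) := by
      rw [map_mul, Units.val_mul, hc g, hc h, aff_mul, map_mul]
    exact aff_snd_eq ((hc (g * h)).symm.trans h1)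
  · have h1 : (φ S : AddMonoid.End (M × ℤ)) = aff (ρ S) cS := by rw [hφS]
    exact aff_snd_eq ((hc S).symm.trans h1)
  · have h1 : (φ U : AddMonoid.End (M × ℤ)) = aff (ρ U) cU := by rw [hφU]
    exact aff_snd_eq ((hc U).symm.trans h1)

theorem stmtCocExt : StmtCocExt := fun M _ ρ hneg cS cU hS hU =>
  exists_cocycle_of_UP stmtUP M ρ hneg cS cU hS hU

end Fermat.Agent.S41.PD


end ZBS41_003_3

/-! ### bundled: `Fermat.Agent.S41.PD.Pairing` -/
section ZBS41_003_4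

/-!
# S41 R6, piece PD-B (part 3): the pairing is well defined and bilinear

`IsPairing Γ x y v` determines `v` for parabolic `x`, `y`; over `ℤ` a value exists; `pairFun` is
biadditive on parabolic homomorphisms.
-/

set_option autoImplicit false

namespace Fermat.Agent.S41.PD

open scoped MatrixGroups
open ModularGroup (S T)
open ModularCurve.Period (IsParabolicHom)
open Matrix

section basic

variable {Γ : Subgroup SL(2, ℤ)} {R : Type*} [CommRing R] [IsDomain R] [CharZero R]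

theorem two_mul_cancel {r : R} (h : 2 * r = 0) : r = 0 := by
  rcases mul_eq_zero.1 h with h | h
  · exact absurd h two_ne_zero
  · exact h

theorem three_mul_cancel (r : R) (h : 3 * r = 0) : r = 0 := by
  rcases mul_eq_zero.1 h with h | h
  · exact absurd h (by norm_num)
  · exact h

/-- A homomorphism to a torsion-free ring kills the elements of finite order. -/
theorem hom_finOrder_eq_zero (x : Additive Γ →+ R) (γ : Γ) (h : γ ^ 6 = 1) :
    x (Additive.ofMul γ) = 0 := by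
  have h1 : (6 : ℕ) • x (Additive.ofMul γ) = 0 := by
    rw [← map_nsmul, ← ofMul_pow, h, ofMul_one, map_zero]
  rw [nsmul_eq_mul] at h1
  rcases mul_eq_zero.1 h1 with h2 | h2
  · exact absurd h2 (by norm_num)
  · exact h2

theorem parabolic_neg_one (hneg : (-1 : SL(2, ℤ)) ∈ Γ) {A : Type*} [AddCommGroup A]
    (x : Additive Γ →+ A) (hx : IsParabolicHom Γ x) :
    x (Additive.ofMul (⟨-1, hneg⟩ : Γ)) = 0 := by
  apply hx
  simp

end basic

section pre

variable {Γ : Subgroup SL(2, ℤ)} {R : Type*} [CommRing R]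

/-- A `U`-normal form of a parabolic class has `a S ∈ (T - 1) M`. -/
theorem exists_eq_cobdry_T (hneg : (-1 : SL(2, ℤ)) ∈ Γ) (x : Additive Γ →+ R)
    (hx : IsParabolicHom Γ x) {a : SL(2, ℤ) → (SL(2, ℤ) ⧸ Γ) → R} (ha : Represents Γ a x)
    (haU : a U = 0) : ∃ m : (SL(2, ℤ) ⧸ Γ) → R, a S = rho T m - m := by
  obtain ⟨b₀, hb₀, hb₀T⟩ := exists_NF1 x hx
  obtain ⟨ζ, hζ⟩ := ha.exists_cobdry hb₀
  have h1 : a (-1) = 0 := ha.map_neg_one hneg (parabolic_neg_one hneg x hx)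
  have h2 : a T = a S := ha.1.map_T_of_map_U hneg h1 haU
  have h3 : a T + (rho T ζ - ζ) = 0 := by
    have := congrFun hζ T
    rw [hb₀T, Pi.add_apply, cobdry_apply] at this
    exact this.symm
  refine ⟨-ζ, ?_⟩
  rw [← h2, rho_neg]
  have : a T = -(rho T ζ - ζ) := eq_neg_of_add_eq_zero_left h3
  rw [this]
  abel

end pre

section main

variable {Γ : Subgroup SL(2, ℤ)} [Fintype (SL(2, ℤ) ⧸ Γ)]
  {R : Type*} [CommRing R] [IsDomain R] [CharZero R]

/-- The sum `∑ a_S b_S` does not depend on the normal forms. -/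
theorem sum_NF_eq (hneg : (-1 : SL(2, ℤ)) ∈ Γ) (x y : Additive Γ →+ R)
    (hx : IsParabolicHom Γ x) (hy : IsParabolicHom Γ y)
    {a a' b b' : SL(2, ℤ) → (SL(2, ℤ) ⧸ Γ) → R}
    (ha : Represents Γ a x) (haU : a U = 0) (ha' : Represents Γ a' x) (ha'U : a' U = 0)
    (hb : Represents Γ b y) (hbT : b T = 0) (hb' : Represents Γ b' y) (hb'T : b' T = 0) :
    a' S ⬝ᵥ b' S = a S ⬝ᵥ b S := by
  obtain ⟨ξ, hξ⟩ := ha.exists_cobdry ha'
  obtain ⟨η, hη⟩ := hb.exists_cobdry hb'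
  have hξU : rho U ξ = ξ := by
    have := congrFun hξ U
    rw [ha'U, Pi.add_apply, haU, zero_add, cobdry_apply] at this
    exact (sub_eq_zero.1 this.symm)
  have hηT : rho T η = η := by
    have := congrFun hη T
    rw [hb'T, Pi.add_apply, hbT, zero_add, cobdry_apply] at this
    exact (sub_eq_zero.1 this.symm)
  have ea : a' S = a S + (rho S ξ - ξ) := by
    have := congrFun hξ S
    rwa [Pi.add_apply, cobdry_apply] at this
  have eb : b' S = b S + (rho S η - η) := by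
    have := congrFun hη S
    rwa [Pi.add_apply, cobdry_apply] at this
  have ha1 : a (-1) = 0 := ha.map_neg_one hneg (parabolic_neg_one hneg x hx)
  have hb1 : b (-1) = 0 := hb.map_neg_one hneg (parabolic_neg_one hneg y hy)
  have haS : a S + rho S (a S) = 0 := ha.1.map_S_add ha1
  have hbS : b S + rho S (b S) = 0 := hb.1.map_S_add hb1
  have hbU : b S + rho U (b S) + rho U (rho U (b S)) = 0 := by
    have := hb.1.map_U_add hb1
    rwa [hb.1.map_U_of_map_T hbT] at this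
  obtain ⟨m, hm⟩ := exists_eq_cobdry_T hneg x hx ha haU
  have t1 : a S ⬝ᵥ (rho S η - η) = 0 := dot_Zs_B hneg (a S) m η haS hm hηT
  have t2 : (rho S ξ - ξ) ⬝ᵥ b S = 0 :=
    dot_Bs_Z hneg three_mul_cancel ξ (b S) hξU hbS hbU
  have t3 : (rho S ξ - ξ) ⬝ᵥ (rho S η - η) = 0 := dot_Bs_B hneg ξ η hξU hηT
  rw [ea, eb, add_dotProduct, dotProduct_add, dotProduct_add, t1, t2, t3]
  simp

theorem IsPairing.eq_of_NF (hneg : (-1 : SL(2, ℤ)) ∈ Γ) {x y : Additive Γ →+ R}
    (hx : IsParabolicHom Γ x) (hy : IsParabolicHom Γ y) {v : R} (h : IsPairing Γ x y v)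
    {a b : SL(2, ℤ) → (SL(2, ℤ) ⧸ Γ) → R}
    (ha : Represents Γ a x) (haU : a U = 0) (hb : Represents Γ b y) (hbT : b T = 0) :
    2 * v = a S ⬝ᵥ b S := by
  obtain ⟨a', b', ha', ha'U, hb', hb'T, hv⟩ := h
  rw [hv]
  exact sum_NF_eq hneg x y hx hy ha haU ha' ha'U hb hbT hb' hb'T

theorem IsPairing.unique (hneg : (-1 : SL(2, ℤ)) ∈ Γ) {x y : Additive Γ →+ R}
    (hx : IsParabolicHom Γ x) (hy : IsParabolicHom Γ y) {v v' : R}
    (h : IsPairing Γ x y v) (h' : IsPairing Γ x y v') : v = v' := by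
  obtain ⟨a, b, ha, haU, hb, hbT, hv⟩ := h
  have := h'.eq_of_NF hneg hx hy ha haU hb hbT
  have h2 : 2 * (v - v') = 0 := by
    rw [mul_sub, hv, this]
    exact sub_self _
  exact sub_eq_zero.1 (two_mul_cancel h2)

theorem pairFun_eq (hneg : (-1 : SL(2, ℤ)) ∈ Γ) {x y : Additive Γ →+ R}
    (hx : IsParabolicHom Γ x) (hy : IsParabolicHom Γ y) {v : R}
    (h : IsPairing Γ x y v) : pairFun Γ x y = v := by
  have hex : ∃ v, IsPairing Γ x y v := ⟨v, h⟩
  rw [pairFun, dif_pos hex]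
  exact hex.choose_spec.unique hneg hx hy h

theorem IsPairing.add_left (hneg : (-1 : SL(2, ℤ)) ∈ Γ) {x x' y : Additive Γ →+ R}
    (hx : IsParabolicHom Γ x) (hx' : IsParabolicHom Γ x') (hy : IsParabolicHom Γ y) {v v' : R}
    (h : IsPairing Γ x y v) (h' : IsPairing Γ x' y v') : IsPairing Γ (x + x') y (v + v') := by
  obtain ⟨a, b, ha, haU, hb, hbT, hv⟩ := h
  obtain ⟨a', -, ha', ha'U, -, -, -⟩ := id h'
  have e := IsPairing.eq_of_NF hneg hx' hy h' ha' ha'U hb hbT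
  refine ⟨a + a', b, ha.add ha', ?_, hb, hbT, ?_⟩
  · rw [Pi.add_apply, haU, ha'U, add_zero]
  · show 2 * (v + v') = (a + a') S ⬝ᵥ b S
    rw [Pi.add_apply, add_dotProduct, mul_add, e]
    congr 1

theorem IsPairing.add_right (hneg : (-1 : SL(2, ℤ)) ∈ Γ) {x y y' : Additive Γ →+ R}
    (hx : IsParabolicHom Γ x) (hy : IsParabolicHom Γ y) (hy' : IsParabolicHom Γ y') {v v' : R}
    (h : IsPairing Γ x y v) (h' : IsPairing Γ x y' v') : IsPairing Γ x (y + y') (v + v') := by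
  obtain ⟨a, b, ha, haU, hb, hbT, hv⟩ := h
  obtain ⟨-, b', -, -, hb', hb'T, -⟩ := id h'
  have e := IsPairing.eq_of_NF hneg hx hy' h' ha haU hb' hb'T
  refine ⟨a, b + b', ha, haU, hb.add hb', ?_, ?_⟩
  · rw [Pi.add_apply, hbT, hb'T, add_zero]
  · show 2 * (v + v') = a S ⬝ᵥ (b + b') S
    rw [Pi.add_apply, dotProduct_add, mul_add, e]
    congr 1

end main

section int

variable {Γ : Subgroup SL(2, ℤ)} [Fintype (SL(2, ℤ) ⧸ Γ)]

/-- `⟨e₁, e₂⟩` is even for `e₁, e₂ ∈ ker (1 + S)`. -/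
theorem even_dot_of_S (hneg : (-1 : SL(2, ℤ)) ∈ Γ) (e₁ e₂ : (SL(2, ℤ) ⧸ Γ) → ℤ)
    (h₁ : e₁ + rho S e₁ = 0) (h₂ : e₂ + rho S e₂ = 0) : (2 : ℤ) ∣ e₁ ⬝ᵥ e₂ := by
  have hS1 : ∀ q, e₁ (S⁻¹ • q) = -e₁ q := by
    intro q
    have := congrFun h₁ q
    rw [Pi.add_apply, rho_apply, Pi.zero_apply] at this
    linarith
  have hS2 : ∀ q, e₂ (S⁻¹ • q) = -e₂ q := by
    intro q
    have := congrFun h₂ q
    rw [Pi.add_apply, rho_apply, Pi.zero_apply] at this
    linarith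
  have hinv : ∀ q : SL(2, ℤ) ⧸ Γ, S⁻¹ • (S⁻¹ • q) = q := by
    intro q
    rw [← mul_smul, ← _root_.mul_inv_rev, S_mul_S]
    have : (-1 : SL(2, ℤ))⁻¹ = -1 := by simp
    rw [this, neg_one_smul_eq hneg]
  have hcast : ((e₁ ⬝ᵥ e₂ : ℤ) : ZMod 2) = 0 → (2 : ℤ) ∣ e₁ ⬝ᵥ e₂ := fun h =>
    (ZMod.intCast_zmod_eq_zero_iff_dvd (e₁ ⬝ᵥ e₂) 2).1 h
  apply hcast
  show ((∑ q, e₁ q * e₂ q : ℤ) : ZMod 2) = 0
  rw [Int.cast_sum]
  refine Finset.sum_involution (fun q _ => S⁻¹ • q) ?_ ?_ (fun _ _ => Finset.mem_univ _)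
    (fun q _ => hinv q)
  · intro q _
    rw [hS1, hS2]
    push_cast
    have h2 : (2 : ZMod 2) = 0 := rfl
    linear_combination ((e₁ q : ZMod 2) * (e₂ q : ZMod 2)) * h2
  · intro q _ hq hfix
    apply hq
    have := hS1 q
    rw [hfix] at this
    have h0 : e₁ q = 0 := by linarith
    rw [h0]
    simp

/-- Over `ℤ` the pairing of two parabolic homomorphisms exists. -/
theorem exists_isPairing_int (hneg : (-1 : SL(2, ℤ)) ∈ Γ) (x y : Additive Γ →+ ℤ)
    (hx : IsParabolicHom Γ x) (hy : IsParabolicHom Γ y) : ∃ v : ℤ, IsPairing Γ x y v := by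
  obtain ⟨a, ha, haU⟩ := exists_NF2 x (hom_finOrder_eq_zero x)
  obtain ⟨b, hb, hbT⟩ := exists_NF1 y hy
  have ha1 : a (-1) = 0 := ha.map_neg_one hneg (parabolic_neg_one hneg x hx)
  have hb1 : b (-1) = 0 := hb.map_neg_one hneg (parabolic_neg_one hneg y hy)
  obtain ⟨v, hv⟩ := even_dot_of_S hneg (a S) (b S) (ha.1.map_S_add ha1) (hb.1.map_S_add hb1)
  exact ⟨v, a, b, ha, haU, hb, hbT, hv.symm⟩

theorem isPairing_pairFun_int (hneg : (-1 : SL(2, ℤ)) ∈ Γ) (x y : Additive Γ →+ ℤ)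
    (hx : IsParabolicHom Γ x) (hy : IsParabolicHom Γ y) : IsPairing Γ x y (pairFun Γ x y) := by
  have hex := exists_isPairing_int hneg x y hx hy
  rw [pairFun, dif_pos hex]
  exact hex.choose_spec

theorem two_mul_pairFun_int (hneg : (-1 : SL(2, ℤ)) ∈ Γ) {x y : Additive Γ →+ ℤ}
    (hx : IsParabolicHom Γ x) (hy : IsParabolicHom Γ y)
    {a b : SL(2, ℤ) → (SL(2, ℤ) ⧸ Γ) → ℤ}
    (ha : Represents Γ a x) (haU : a U = 0) (hb : Represents Γ b y) (hbT : b T = 0) :
    2 * pairFun Γ x y = a S ⬝ᵥ b S :=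
  (isPairing_pairFun_int hneg x y hx hy).eq_of_NF hneg hx hy ha haU hb hbT

omit [Fintype (SL(2, ℤ) ⧸ Γ)] in
theorem isParabolicHom_add {A : Type*} [AddCommGroup A] {x y : Additive Γ →+ A}
    (hx : IsParabolicHom Γ x) (hy : IsParabolicHom Γ y) : IsParabolicHom Γ (x + y) := by
  intro γ hγ
  rw [AddMonoidHom.add_apply, hx γ hγ, hy γ hγ, add_zero]

theorem pairFun_add_left (hneg : (-1 : SL(2, ℤ)) ∈ Γ) (x x' y : Additive Γ →+ ℤ)
    (hx : IsParabolicHom Γ x) (hx' : IsParabolicHom Γ x') (hy : IsParabolicHom Γ y) :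
    pairFun Γ (x + x') y = pairFun Γ x y + pairFun Γ x' y :=
  pairFun_eq hneg (isParabolicHom_add hx hx') hy
    ((isPairing_pairFun_int hneg x y hx hy).add_left hneg hx hx' hy
      (isPairing_pairFun_int hneg x' y hx' hy))

theorem pairFun_add_right (hneg : (-1 : SL(2, ℤ)) ∈ Γ) (x y y' : Additive Γ →+ ℤ)
    (hx : IsParabolicHom Γ x) (hy : IsParabolicHom Γ y) (hy' : IsParabolicHom Γ y') :
    pairFun Γ x (y + y') = pairFun Γ x y + pairFun Γ x y' :=
  pairFun_eq hneg hx (isParabolicHom_add hy hy')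
    ((isPairing_pairFun_int hneg x y hx hy).add_right hneg hx hy hy'
      (isPairing_pairFun_int hneg x y' hx hy'))

end int

end Fermat.Agent.S41.PD


end ZBS41_003_4

/-! ### bundled: `Fermat.Agent.S41.PD.Surj` -/
section ZBS41_003_5

/-!
# S41 R6, piece PD-S: the normal forms are onto `Z` and `Z*`

From `e ∈ Z` (resp. `Z*`) the cocycle extension PD-A2 builds a parabolic homomorphism whose
`T`-normal form (resp. `U`-normal form) has value `e` at `S`.
-/

set_option autoImplicit false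

namespace Fermat.Agent.S41.PD

open scoped MatrixGroups
open ModularGroup (S T)
open ModularCurve.Period (IsParabolicHom)
open Matrix

/-- `rho` as a homomorphism to the endomorphism monoid. -/
def rhoHom (G : Type*) [Group G] (Q : Type*) [MulAction G Q] (R : Type*) [AddCommGroup R] :
    G →* AddMonoid.End (Q → R) where
  toFun g :=
    { toFun := rho g
      map_zero' := rho_zero g
      map_add' := rho_add g }
  map_one' := by
    ext v q
    show rho (1 : G) v q = v q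
    rw [rho_one]
  map_mul' g h := by
    ext v q
    show rho (g * h) v q = rho g (rho h v) q
    rw [rho_mul]

@[simp] theorem rhoHom_apply {G : Type*} [Group G] {Q : Type*} [MulAction G Q] {R : Type*}
    [AddCommGroup R] (g : G) (v : Q → R) : rhoHom G Q R g v = rho g v := rfl

/-- An upper triangular element of `SL(2, ℤ)` is `± T ^ n`. -/
theorem upper_eq (β : SL(2, ℤ)) (hc : β 1 0 = 0) : ∃ n : ℤ, β = T ^ n ∨ β = -1 * T ^ n := by
  have had := β.det_coe
  replace had : β 0 0 * β 1 1 = 1 := by rw [det_fin_two, hc] at had; lia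
  rcases Int.eq_one_or_neg_one_of_mul_eq_one' had with (⟨ha, hd⟩ | ⟨ha, hd⟩)
  · refine ⟨β 0 1, Or.inl ?_⟩
    ext i j; fin_cases i <;> fin_cases j <;>
      simp [ha, hc, hd, ModularGroup.coe_T_zpow, show (1 : Fin (0 + 2)) = (1 : Fin 2) from rfl]
  · refine ⟨-(β 0 1), Or.inr ?_⟩
    ext i j; fin_cases i <;> fin_cases j <;>
      simp [ha, hc, hd, ModularGroup.coe_T_zpow, show (1 : Fin (0 + 2)) = (1 : Fin 2) from rfl]

section

variable {Γ : Subgroup SL(2, ℤ)} {R : Type*} [AddCommGroup R]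

theorem IsCoc.map_zpow_of_map_eq_zero {G : Type*} [Group G] {Q : Type*} [MulAction G Q]
    {c : G → Q → R} (hc : IsCoc c) {t : G} (ht : c t = 0) (n : ℤ) : c (t ^ n) = 0 := by
  have hnat : ∀ k : ℕ, c (t ^ k) = 0 := by
    intro k
    induction k with
    | zero => rw [pow_zero, hc.map_one]
    | succ k ih => rw [pow_succ, hc, ih, ht, rho_zero, add_zero]
  cases n with
  | ofNat k => simpa using hnat k
  | negSucc k =>
    rw [zpow_negSucc, hc.map_inv, hnat, rho_zero, neg_zero]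

/-- A cocycle vanishing at `T` and at `-1` represents a parabolic homomorphism. -/
theorem Represents.isParabolicHom (hneg : (-1 : SL(2, ℤ)) ∈ Γ)
    {c : SL(2, ℤ) → (SL(2, ℤ) ⧸ Γ) → R} {y : Additive Γ →+ R} (hy : Represents Γ c y)
    (h1 : c (-1) = 0) (hT : c T = 0) : IsParabolicHom Γ y := by
  intro γ hγ
  obtain ⟨δ, β, hβ, hγδ⟩ := Fermat.Agent.S21.parabolic_exists_conj_upper (γ : SL(2, ℤ)) hγ
  have hcβ : c β = 0 := by
    obtain ⟨n, rfl | rfl⟩ := upper_eq β hβ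
    · exact hy.1.map_zpow_of_map_eq_zero hT n
    · rw [hy.1, h1, rho_neg_one hneg, hy.1.map_zpow_of_map_eq_zero hT n, add_zero]
  have e1 : (γ : SL(2, ℤ)) = δ * β * δ⁻¹ := by
    rw [← hγδ]; group
  have e2 : c (γ : SL(2, ℤ)) = c δ - rho (γ : SL(2, ℤ)) (c δ) := by
    conv_lhs => rw [e1, hy.1, hy.1, hcβ, rho_zero, add_zero, hy.1.map_inv, rho_neg, ← rho_mul]
    rw [← e1]
    abel
  rw [← hy.2 γ, e2, Pi.sub_apply, rho_apply, smul_mk_one_of_mem (inv_mem γ.2), sub_self]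

end

section surj

variable {Γ : Subgroup SL(2, ℤ)}

theorem rhoHom_neg_one (hneg : (-1 : SL(2, ℤ)) ∈ Γ) (R : Type*) [AddCommGroup R] :
    rhoHom SL(2, ℤ) (SL(2, ℤ) ⧸ Γ) R (-1) = 1 := by
  ext v q
  show rho (-1 : SL(2, ℤ)) v q = v q
  rw [rho_neg_one hneg]

/-- Cocycle extension in the permutation module. -/
theorem exists_isCoc (hneg : (-1 : SL(2, ℤ)) ∈ Γ) (R : Type) [AddCommGroup R]
    (cS cU : (SL(2, ℤ) ⧸ Γ) → R) (hS : cS + rho S cS = 0)
    (hU : cU + rho U cU + rho U (rho U cU) = 0) :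
    ∃ c : SL(2, ℤ) → (SL(2, ℤ) ⧸ Γ) → R, IsCoc c ∧ c S = cS ∧ c U = cU :=
  stmtCocExt ((SL(2, ℤ) ⧸ Γ) → R) (rhoHom SL(2, ℤ) (SL(2, ℤ) ⧸ Γ) R) (rhoHom_neg_one hneg R)
    cS cU hS hU

/-- **PD-S (1)**: every `e ∈ Z` is the value at `S` of a `T`-normal form of a parabolic
homomorphism. -/
theorem exists_NF1_of_isZ (hneg : (-1 : SL(2, ℤ)) ∈ Γ) (e : (SL(2, ℤ) ⧸ Γ) → ℤ) (he : IsZ e) :
    ∃ y : Additive Γ →+ ℤ, IsParabolicHom Γ y ∧
      ∃ b : SL(2, ℤ) → (SL(2, ℤ) ⧸ Γ) → ℤ, Represents Γ b y ∧ b T = 0 ∧ b S = e := by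
  obtain ⟨b, hb, hbS, hbU⟩ := exists_isCoc hneg ℤ e e he.1 he.2
  have h1 : b (-1) = 0 := by rw [← S_mul_S, hb, hbS]; exact he.1
  have hT : b T = 0 := by
    rw [T_eq, mul_assoc, hb, h1, rho_neg_one hneg, zero_add, hb, hbS, hbU]
    exact he.1
  obtain ⟨y, hy⟩ := hb.exists_represents (Γ := Γ)
  exact ⟨y, hy.isParabolicHom hneg h1 hT, b, hy, hT, hbS⟩

/-- **PD-S (2)**: every `e ∈ Z*` is the value at `S` of a `U`-normal form of a parabolic
homomorphism. -/
theorem exists_NF2_of_isZs (hneg : (-1 : SL(2, ℤ)) ∈ Γ) (e : (SL(2, ℤ) ⧸ Γ) → ℤ)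
    (he : IsZs e) :
    ∃ x : Additive Γ →+ ℤ, IsParabolicHom Γ x ∧
      ∃ a : SL(2, ℤ) → (SL(2, ℤ) ⧸ Γ) → ℤ, Represents Γ a x ∧ a U = 0 ∧ a S = e := by
  obtain ⟨a, ha, haS, haU⟩ := exists_isCoc hneg ℤ e 0 he.1 (by simp)
  have h1 : a (-1) = 0 := by rw [← S_mul_S, ha, haS]; exact he.1
  have hT : a T = e := by rw [ha.map_T_of_map_U hneg h1 haU, haS]
  obtain ⟨x, hx⟩ := ha.exists_represents (Γ := Γ)
  obtain ⟨m, hm⟩ := he.2
  -- the cohomologous cocycle `a - ∂m` vanishes at `T`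
  set a' : SL(2, ℤ) → (SL(2, ℤ) ⧸ Γ) → ℤ := a + cobdry (-m) with ha'
  have hx' : Represents Γ a' x := hx.add_cobdry (-m)
  have h1' : a' (-1) = 0 := by
    rw [ha', Pi.add_apply, h1, cobdry_apply, rho_neg_one hneg, sub_self, add_zero]
  have hT' : a' T = 0 := by
    rw [ha', Pi.add_apply, hT, cobdry_apply, hm, rho_neg]
    abel
  exact ⟨x, hx'.isParabolicHom hneg h1' hT', a, hx, haU, haS⟩

end surj

end Fermat.Agent.S41.PD


end ZBS41_003_5

/-! ### bundled: `Fermat.Agent.RIB.MP.ParLift` -/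
section ZBS41_003_6
/-
RIB-MP, piece MP-DIV / PAR (helper15): `stmtParLift_of : StmtLatLift → StmtParLift`.

For `n` prime to `6`, a parabolic character `χ : Γ → ℤ/n` of a subgroup `Γ ≤ SL₂(ℤ)` of finite
index containing `-1` is the reduction of a parabolic homomorphism `φ : Γ → ℤ`.

Proof.  `χ` kills the elements of finite order (`6` is invertible), so it has a `U`-normal form
`a'` (`S41.PD.exists_NF2`) and a `T`-normal form `b'` (`exists_NF1`); `a' = b' + ∂ξ`, hence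
`ē := a' S = a' T = (T - 1) ξ` lies in `Z*(ℤ/n)`.  `StmtLatLift` gives `e ∈ Z*(ℤ)` over `ē`, and
`exists_NF2_of_isZs` a parabolic `φ` with `U`-normal form `a`, `a S = e`.  The reduction of `a`
and `a'` are cocycles which agree at `S` and `T`, hence everywhere.
-/

set_option autoImplicit false

namespace Fermat.Agent.RIB.MP

open scoped MatrixGroups
open ModularGroup (S T)
open ModularCurve.Period (IsParabolicHom)
open Fermat.Agent.S41.PD

/-- a cocycle which vanishes at `S` and at `T` vanishes -/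
theorem ribmp_td_coc_eq_zero {R : Type*} [AddCommGroup R] {Q : Type*} [MulAction SL(2, ℤ) Q]
    {c : SL(2, ℤ) → Q → R} (hc : IsCoc c) (hS : c S = 0) (hT : c T = 0) : c = 0 := by
  have key : ∀ g : SL(2, ℤ), c g = (0 : Q → R) := by
    intro g
    have hg : g ∈ Subgroup.closure ({S, T} : Set SL(2, ℤ)) := by
      rw [SpecialLinearGroup.SL2Z_generators]; exact Subgroup.mem_top g
    induction hg using Subgroup.closure_induction with
    | mem x hx =>
      rcases hx with rfl | hx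
      · exact hS
      · rw [Set.mem_singleton_iff] at hx
        rw [hx]; exact hT
    | one => exact hc.map_one
    | mul x y _ _ hx hy => rw [hc, hx, hy, rho_zero, add_zero]
    | inv x _ hx => rw [hc.map_inv, hx, rho_zero, neg_zero]
  funext g
  exact key g

/-- reduction mod `n` of an integral cocycle -/
theorem ribmp_td_isCoc_cast {Q : Type*} [MulAction SL(2, ℤ) Q] (n : ℕ)
    {a : SL(2, ℤ) → Q → ℤ} (ha : IsCoc a) :
    IsCoc (fun g q => ((a g q : ℤ) : ZMod n)) := by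
  intro g h
  funext q
  show ((a (g * h) q : ℤ) : ZMod n) = ((a g q : ℤ) : ZMod n) + ((a h (g⁻¹ • q) : ℤ) : ZMod n)
  rw [ha g h, Pi.add_apply, rho_apply, Int.cast_add]

/-- the trace of `-1` -/
theorem ribmp_td_trace_neg_one :
    (((-1 : SL(2, ℤ)) : Matrix (Fin 2) (Fin 2) ℤ)).trace ^ 2 = 4 := by
  rw [Matrix.SpecialLinearGroup.coe_neg, Matrix.SpecialLinearGroup.coe_one, Matrix.trace_neg,
    Matrix.trace_one]
  simp

/-- **MP-DIV / PAR** from the lattice lemma. -/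
theorem stmtParLift_of (hL : StmtLatLift) : StmtParLift := by
  intro Γ _ hneg n hn χ hχ
  have hodd : Odd n := by
    rw [← Nat.not_even_iff_odd]
    intro h2
    have : 2 ∣ Nat.gcd n 6 := Nat.dvd_gcd h2.two_dvd (by norm_num)
    rw [Nat.Coprime] at hn
    rw [hn] at this
    exact absurd this (by norm_num)
  -- `χ` kills the elements of finite order
  have hx6 : ∀ γ : Γ, γ ^ 6 = 1 → χ (Additive.ofMul γ) = 0 := by
    intro γ hγ
    have h6 : (6 : ℕ) • χ (Additive.ofMul γ) = 0 := by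
      rw [← map_nsmul, ← ofMul_pow, hγ, ofMul_one, map_zero]
    have hu : IsUnit ((6 : ℕ) : ZMod n) := (ZMod.isUnit_iff_coprime 6 n).mpr hn.symm
    rw [nsmul_eq_mul] at h6
    exact (hu.mul_right_eq_zero).mp h6
  have hχ1 : χ (Additive.ofMul (⟨-1, hneg⟩ : Γ)) = 0 := hχ ⟨-1, hneg⟩ ribmp_td_trace_neg_one
  obtain ⟨a', ha', haU'⟩ := exists_NF2 χ hx6
  obtain ⟨b', hb', hbT'⟩ := exists_NF1 χ hχ
  have h1' : a' (-1) = 0 := ha'.map_neg_one hneg hχ1
  have haT' : a' T = a' S := ha'.1.map_T_of_map_U hneg h1' haU'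
  have hSS : a' S + rho S (a' S) = 0 := ha'.1.map_S_add h1'
  obtain ⟨ξ, hξ⟩ := hb'.exists_cobdry ha'
  have hZs : a' S = rho T ξ - ξ := by
    rw [← haT', hξ, Pi.add_apply, hbT', zero_add, cobdry_apply]
  obtain ⟨e, he, hee⟩ := hL (SL(2, ℤ) ⧸ Γ) (fun q => neg_one_smul_eq hneg q) n hodd (a' S) ξ
    hSS hZs
  obtain ⟨x, hx, a, hax, haU, haS⟩ := exists_NF2_of_isZs hneg e he
  have hx1 : x (Additive.ofMul (⟨-1, hneg⟩ : Γ)) = 0 := hx ⟨-1, hneg⟩ ribmp_td_trace_neg_one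
  have h1 : a (-1) = 0 := hax.map_neg_one hneg hx1
  have haT : a T = a S := hax.1.map_T_of_map_U hneg h1 haU
  refine ⟨x, hx, ?_⟩
  have hā := ribmp_td_isCoc_cast n hax.1
  have hd := ribmp_td_coc_eq_zero (hā.sub ha'.1)
    (by
      funext q
      show ((a S q : ℤ) : ZMod n) - a' S q = 0
      rw [haS, hee, sub_self])
    (by
      funext q
      show ((a T q : ℤ) : ZMod n) - a' T q = 0
      rw [haT, haS, haT', hee, sub_self])
  intro γ
  obtain ⟨γ, rfl⟩ : ∃ γ' : Γ, Additive.ofMul γ' = γ := ⟨Additive.toMul γ, rfl⟩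
  have h2 := congrFun (congrFun hd (γ : SL(2, ℤ))) ((1 : SL(2, ℤ)) : SL(2, ℤ) ⧸ Γ)
  have h3 : ((a (γ : SL(2, ℤ)) ((1 : SL(2, ℤ)) : SL(2, ℤ) ⧸ Γ) : ℤ) : ZMod n) -
      a' (γ : SL(2, ℤ)) ((1 : SL(2, ℤ)) : SL(2, ℤ) ⧸ Γ) = 0 := h2
  rw [hax.2 γ, ha'.2 γ, sub_eq_zero] at h3
  exact h3

end Fermat.Agent.RIB.MP


end ZBS41_003_6

/-! ### bundled: `Fermat.Agent.RIB.MP.TorsDiv` -/
section ZBS41_003_7
/-
RIB-MP, piece MP-DIV (helper15): `stmtTorsDivMP_of : StmtParLift → StmtTorsDivMP`.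

For `p ≥ 5` every `p`-power torsion class `y` of `J₀(M)(ℚ̄)` lies in the `p`-divisible part
`PDiv M p`.  Proof: `μ y` is a parabolic character of `Γ₀(M)` of order dividing `pᵃ`
(`STB.stb_p2_muMap_par`), hence (`StmtParLift`, `pᵃ` prime to `6`) of the form `e(φ / pᵃ)` with
`φ` integral parabolic; `MultData.surj_pDiv` gives `x ∈ PDiv` with `μ x = e(φ / pᵃ)`, and
`x = y` by the injectivity of `μ`.
-/

set_option autoImplicit false
set_option linter.style.haveILetI false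

noncomputable section

namespace Fermat.Agent.RIB.MP

open scoped MatrixGroups
open ModularCurve ModularCurve.Period CongruenceSubgroup
open Fermat.Agent.ES Fermat.Agent.STB

/-- a character of order dividing `n` with values in `ℂˣ` is `e(χ / n)` for a character `χ` with
values in `ℤ/n` -/
theorem ribmp_td_zmod {G : Type*} [AddGroup G] {n : ℕ} (hn : n ≠ 0)
    (ψ : G →+ Additive ℂˣ) (hψ : n • ψ = 0) :
    ∃ χ : G →+ ZMod n, ∀ (g : G) (k : ℤ), (k : ZMod n) = χ g → ψ g = expHom n k := by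
  have hex : ∀ g : G, ∃ k : ℤ, expHom n k = ψ g := fun g =>
    stb_p2_expHom_surj hn (ψ g) (by rw [← AddMonoidHom.nsmul_apply, hψ, AddMonoidHom.zero_apply])
  choose κ hκ using hex
  have hiff : ∀ k l : ℤ, expHom n k = expHom n l ↔ ((k : ZMod n) = (l : ZMod n)) := by
    intro k l
    rw [← sub_eq_zero, ← map_sub, expHom_eq_zero_iff hn, ← sub_eq_zero (a := (k : ZMod n)),
      ← Int.cast_sub, ZMod.intCast_zmod_eq_zero_iff_dvd]
  refine ⟨AddMonoidHom.mk' (fun g => ((κ g : ℤ) : ZMod n)) ?_, ?_⟩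
  · intro g h
    rw [← Int.cast_add, ← hiff, map_add, hκ, hκ, hκ, map_add]
  · intro g k hk
    rw [← hκ g]
    exact ((hiff k (κ g)).mpr hk).symm

/-- **MP-DIV** from the lifting of parabolic characters. -/
theorem stmtTorsDivMP_of (hP : StmtParLift) : StmtTorsDivMP := by
  intro M p _ hp h5 y hy
  obtain ⟨a, ha⟩ := hy
  have hD := stb_p2_unifData M p hp.pos
  have hm := multData_of_torsionUnifData hp.ne_zero hD
  have hyt : IsPPowerTorsion p y := ⟨a, ha⟩
  have hpar : IsParabolicHom (Gamma0 M) (muMap M y) := stb_p2_muMap_par M p hp.pos ha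
  have htor : p ^ a • muMap M y = 0 := by
    rw [← hm.map_nsmul hyt, ha, hm.map_zero]
  have hn0 : p ^ a ≠ 0 := pow_ne_zero a hp.ne_zero
  obtain ⟨χ, hχ⟩ := ribmp_td_zmod hn0 (muMap M y) htor
  -- `χ` is parabolic
  have hχpar : IsParabolicHom (Gamma0 M) χ := by
    intro γ hγ
    obtain ⟨k, hk⟩ := ZMod.intCast_surjective (χ (Additive.ofMul γ))
    have h1 := hχ (Additive.ofMul γ) k hk
    rw [hpar γ hγ] at h1
    rw [← hk]
    exact (ZMod.intCast_zmod_eq_zero_iff_dvd k (p ^ a)).mpr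
      ((expHom_eq_zero_iff hn0 k).mp h1.symm)
  -- `pᵃ` is prime to `6`
  have hc2 : Nat.Coprime p 2 := (Nat.coprime_primes hp Nat.prime_two).mpr (by omega)
  have hc3 : Nat.Coprime p 3 := (Nat.coprime_primes hp Nat.prime_three).mpr (by omega)
  have hc6 : Nat.Coprime (p ^ a) 6 := by
    apply Nat.Coprime.pow_left
    have : (6 : ℕ) = 2 * 3 := rfl
    rw [this]
    exact Nat.Coprime.mul_right hc2 hc3
  have hneg : (-1 : SL(2, ℤ)) ∈ Gamma0 M := by
    rw [Gamma0_mem]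
    simp
  haveI : Fintype (SL(2, ℤ) ⧸ Gamma0 M) := Fintype.ofFinite _
  obtain ⟨φ, hφ, hφχ⟩ := hP (Gamma0 M) hneg (p ^ a) hc6 χ hχpar
  have hμ : muMap M y = (expHom (p ^ a)).comp φ := by
    refine DFunLike.ext _ _ fun γ => ?_
    rw [AddMonoidHom.comp_apply]
    exact hχ γ (φ γ) (hφχ γ)
  obtain ⟨x, hx, hxa, hμx⟩ := hm.surj_pDiv φ hφ a
  have hxy : x = y := hm.eq_of_eq (isPPowerTorsion_of_pow_smul hxa) hyt (by rw [hμx, hμ])
  rw [← hxy]
  exact hx

end Fermat.Agent.RIB.MP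

end


end ZBS41_003_7

/-! ### bundled: `Fermat.Agent.S41.PD.Perfect` -/
section ZBS41_003_8

/-!
# S41 R6, piece PD-P: the pairing on `Hom_par(Γ, ℤ)` is perfect

Given the lattice lemma (PD-D1, PD-D2) the map `y ↦ [·, y]` is a bijection from
`Hom_par(Γ, ℤ)` onto its `ℤ`-dual.
-/

set_option autoImplicit false

namespace Fermat.Agent.S41.PD

open scoped MatrixGroups
open ModularGroup (S T)
open ModularCurve.Period (IsParabolicHom parabolicHoms)
open Matrix

section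

variable {Γ : Subgroup SL(2, ℤ)} {R : Type*} [AddCommGroup R]

/-- A cocycle is determined by its values at `S` and `U`. -/
theorem IsCoc.ext_SU {Q : Type*} [MulAction SL(2, ℤ) Q] {c d : SL(2, ℤ) → Q → R}
    (hc : IsCoc c) (hd : IsCoc d) (hS : c S = d S) (hU : c U = d U) : c = d := by
  have key : ∀ g : SL(2, ℤ), (c - d) g = 0 := by
    have hcd : IsCoc (c - d) := hc.sub hd
    have h0S : (c - d) S = 0 := by rw [Pi.sub_apply, hS, sub_self]
    have h0U : (c - d) U = 0 := by rw [Pi.sub_apply, hU, sub_self]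
    intro g
    have hg : g ∈ Subgroup.closure ({S, T} : Set SL(2, ℤ)) := by
      rw [SpecialLinearGroup.SL2Z_generators]
      exact Subgroup.mem_top g
    induction hg using Subgroup.closure_induction with
    | mem x hx =>
      rcases hx with rfl | rfl
      · exact h0S
      · have hT : T = S⁻¹ * U := by rw [U]; group
        rw [hT, hcd, hcd.map_inv, h0S, h0U]
        simp
    | one => exact hcd.map_one
    | mul x y _ _ hx hy => rw [hcd, hx, hy]; simp
    | inv x _ hx => rw [hcd.map_inv, hx]; simp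
  funext g
  have := key g
  rw [Pi.sub_apply] at this
  exact sub_eq_zero.1 this

end

section perfect

variable {Γ : Subgroup SL(2, ℤ)}

/-- the value at `S` of a `U`-normal form of a parabolic `x` lies in `Z*` -/
theorem isZs_of_NF2 (hneg : (-1 : SL(2, ℤ)) ∈ Γ) {x : Additive Γ →+ ℤ}
    (hx : IsParabolicHom Γ x) {a : SL(2, ℤ) → (SL(2, ℤ) ⧸ Γ) → ℤ} (ha : Represents Γ a x)
    (haU : a U = 0) : IsZs (a S) :=
  ⟨ha.1.map_S_add (ha.map_neg_one hneg (parabolic_neg_one hneg x hx)),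
    exists_eq_cobdry_T hneg x hx ha haU⟩

/-- the value at `S` of a `T`-normal form of a parabolic `y` lies in `Z` -/
theorem isZ_of_NF1 (hneg : (-1 : SL(2, ℤ)) ∈ Γ) {y : Additive Γ →+ ℤ}
    (hy : IsParabolicHom Γ y) {b : SL(2, ℤ) → (SL(2, ℤ) ⧸ Γ) → ℤ} (hb : Represents Γ b y)
    (hbT : b T = 0) : IsZ (b S) := by
  have h1 := hb.map_neg_one hneg (parabolic_neg_one hneg y hy)
  refine ⟨hb.1.map_S_add h1, ?_⟩
  have := hb.1.map_U_add h1
  rwa [hb.1.map_U_of_map_T hbT] at this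

/-- the parabolic homomorphism attached to `e ∈ Z*` -/
theorem exists_unique_of_isZs (hneg : (-1 : SL(2, ℤ)) ∈ Γ) (e : (SL(2, ℤ) ⧸ Γ) → ℤ)
    (he : IsZs e) :
    ∃ x : Additive Γ →+ ℤ, IsParabolicHom Γ x ∧
      ∀ a : SL(2, ℤ) → (SL(2, ℤ) ⧸ Γ) → ℤ, IsCoc a → a U = 0 → a S = e → Represents Γ a x := by
  obtain ⟨x, hx, a, ha, haU, haS⟩ := exists_NF2_of_isZs hneg e he
  refine ⟨x, hx, fun a' ha' ha'U ha'S => ?_⟩
  have : a' = a := ha'.ext_SU ha.1 (ha'S.trans haS.symm) (ha'U.trans haU.symm)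
  rw [this]
  exact ha

variable [Fintype (SL(2, ℤ) ⧸ Γ)]

open Classical in
/-- the functional on `Z*` induced by a functional on `Hom(Γ, ℤ)` -/
noncomputable def zsFun (hneg : (-1 : SL(2, ℤ)) ∈ Γ) (φ : (Additive Γ →+ ℤ) → ℤ)
    (e : (SL(2, ℤ) ⧸ Γ) → ℤ) : ℤ :=
  if he : IsZs e then φ (exists_unique_of_isZs hneg e he).choose else 0

theorem zsFun_eq (hneg : (-1 : SL(2, ℤ)) ∈ Γ) (φ : (Additive Γ →+ ℤ) → ℤ)
    {x : Additive Γ →+ ℤ} {a : SL(2, ℤ) → (SL(2, ℤ) ⧸ Γ) → ℤ} (ha : Represents Γ a x)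
    (haU : a U = 0) (hZs : IsZs (a S)) : zsFun hneg φ (a S) = φ x := by
  rw [zsFun, dif_pos hZs]
  have h := (exists_unique_of_isZs hneg (a S) hZs).choose_spec.2 a ha.1 haU rfl
  rw [h.unique ha]

theorem isZs_add {Q : Type} [MulAction SL(2, ℤ) Q] {e e' : Q → ℤ} (he : IsZs e)
    (he' : IsZs e') : IsZs (e + e') := by
  obtain ⟨h1, m, hm⟩ := he
  obtain ⟨h1', m', hm'⟩ := he'
  refine ⟨?_, m + m', ?_⟩
  · rw [rho_add]
    calc e + e' + (rho S e + rho S e') = (e + rho S e) + (e' + rho S e') := by abel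
      _ = 0 := by rw [h1, h1', add_zero]
  · rw [hm, hm', rho_add]
    abel

/-- **PD-P**: the pairing is perfect (on the right). -/
theorem pairFun_perfect_right (hLE : StmtLatticeEx) (hLU : StmtLatticeUniq)
    (hneg : (-1 : SL(2, ℤ)) ∈ Γ) (φ : (Additive Γ →+ ℤ) → ℤ)
    (hφ : ∀ x x', IsParabolicHom Γ x → IsParabolicHom Γ x' → φ (x + x') = φ x + φ x') :
    ∃ y : Additive Γ →+ ℤ, IsParabolicHom Γ y ∧
      (∀ x, IsParabolicHom Γ x → pairFun Γ x y = φ x) ∧
      ∀ y', IsParabolicHom Γ y' → (∀ x, IsParabolicHom Γ x → pairFun Γ x y' = φ x) → y' = y := by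
  have hφ0 : φ 0 = 0 := by
    have := hφ 0 0 (fun _ _ => rfl) (fun _ _ => rfl)
    rw [add_zero] at this
    linarith
  have htr : ∀ q : SL(2, ℤ) ⧸ Γ, (-1 : SL(2, ℤ)) • q = q := neg_one_smul_eq hneg
  -- existence
  have hadd : ∀ e e', IsZs e → IsZs e' →
      zsFun hneg φ (e + e') = zsFun hneg φ e + zsFun hneg φ e' := by
    intro e e' he he'
    obtain ⟨x, hx, a, ha, haU, rfl⟩ := exists_NF2_of_isZs hneg e he
    obtain ⟨x', hx', a', ha', ha'U, rfl⟩ := exists_NF2_of_isZs hneg e' he'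
    have h1 := zsFun_eq hneg φ ha haU he
    have h2 := zsFun_eq hneg φ ha' ha'U he'
    have haa : Represents Γ (a + a') (x + x') := ha.add ha'
    have haaU : (a + a') U = 0 := by rw [Pi.add_apply, haU, ha'U, add_zero]
    have h3 := zsFun_eq hneg φ haa haaU (by rw [Pi.add_apply]; exact isZs_add he he')
    rw [Pi.add_apply] at h3
    rw [h1, h2, h3, hφ x x' hx hx']
  have hB : ∀ ξ : (SL(2, ℤ) ⧸ Γ) → ℤ, rho U ξ = ξ → zsFun hneg φ (rho S ξ - ξ) = 0 := by
    intro ξ hξ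
    have hrep : Represents Γ (cobdry (G := SL(2, ℤ)) ξ) (0 : Additive Γ →+ ℤ) :=
      represents_cobdry ξ
    have hU0 : cobdry (G := SL(2, ℤ)) ξ U = 0 := by rw [cobdry_apply, hξ, sub_self]
    have hZs : IsZs (cobdry (G := SL(2, ℤ)) ξ S) :=
      isZs_of_NF2 hneg (fun _ _ => rfl) hrep hU0
    have := zsFun_eq hneg φ hrep hU0 hZs
    rw [cobdry_apply] at this
    rw [this, hφ0]
  obtain ⟨e, heZ, he⟩ := hLE (SL(2, ℤ) ⧸ Γ) htr (zsFun hneg φ) hadd hB
  obtain ⟨y, hy, b, hb, hbT, hbS⟩ := exists_NF1_of_isZ hneg e heZ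
  have hyφ : ∀ x, IsParabolicHom Γ x → pairFun Γ x y = φ x := by
    intro x hx
    obtain ⟨a, ha, haU⟩ := exists_NF2 x (hom_finOrder_eq_zero x)
    have hZs := isZs_of_NF2 hneg hx ha haU
    have h1 := he (a S) hZs
    rw [zsFun_eq hneg φ ha haU hZs] at h1
    have h2 := two_mul_pairFun_int hneg hx hy ha haU hb hbT
    rw [hbS] at h2
    have h3 : (2 : ℤ) * pairFun Γ x y = 2 * φ x := by rw [h2, h1]; rfl
    linarith
  refine ⟨y, hy, hyφ, ?_⟩
  -- uniqueness
  intro y' hy' hy'φ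
  obtain ⟨b', hb', hb'T⟩ := exists_NF1 y' hy'
  have hZ' := isZ_of_NF1 hneg hy' hb' hb'T
  have hZ := isZ_of_NF1 hneg hy hb hbT
  -- the difference `b' - b` pairs to zero with `Z*`
  have hd : ∀ e', IsZs e' → ∑ q, e' q * (b' S - b S) q = 0 := by
    intro e' he'
    obtain ⟨x, hx, a, ha, haU, rfl⟩ := exists_NF2_of_isZs hneg e' he'
    have h1 := two_mul_pairFun_int hneg hx hy ha haU hb hbT
    have h2 := two_mul_pairFun_int hneg hx hy' ha haU hb' hb'T
    rw [hyφ x hx] at h1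
    rw [hy'φ x hx] at h2
    have : a S ⬝ᵥ (b' S - b S) = 0 := by rw [dotProduct_sub, ← h1, ← h2, sub_self]
    exact this
  have hZd : IsZ (b' S - b S) := by
    obtain ⟨h1, h2⟩ := hZ
    obtain ⟨h1', h2'⟩ := hZ'
    refine ⟨?_, ?_⟩
    · rw [rho_sub]
      calc b' S - b S + (rho S (b' S) - rho S (b S))
          = (b' S + rho S (b' S)) - (b S + rho S (b S)) := by abel
        _ = 0 := by rw [h1, h1', sub_zero]
    · rw [rho_sub, rho_sub]
      calc b' S - b S + (rho U (b' S) - rho U (b S)) +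
            (rho U (rho U (b' S)) - rho U (rho U (b S)))
          = (b' S + rho U (b' S) + rho U (rho U (b' S))) -
              (b S + rho U (b S) + rho U (rho U (b S))) := by abel
        _ = 0 := by rw [h2, h2', sub_zero]
  obtain ⟨ξ, hξT, hξ⟩ := hLU (SL(2, ℤ) ⧸ Γ) htr (b' S - b S) hZd hd
  -- `b' = b + ∂ξ`
  have hbb : b' = b + cobdry ξ := by
    apply hb'.1.ext_SU (hb.1.add (isCoc_cobdry ξ))
    · rw [Pi.add_apply, cobdry_apply, ← hξ]; abel
    · rw [Pi.add_apply, cobdry_apply, hb'.1.map_U_of_map_T hb'T, hb.1.map_U_of_map_T hbT,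
        rho_U_eq, hξT, ← hξ]
      abel
  have : Represents Γ b' y := by rw [hbb]; exact hb.add_cobdry ξ
  exact hb'.unique this

end perfect

end Fermat.Agent.S41.PD


end ZBS41_003_8

/-! ### bundled: `Fermat.Agent.S41.PD.ResCores` -/
section ZBS41_003_9

/-!
# S41 R6, piece PD-H: restriction and corestriction are adjoint

For `Γ₁ ≤ Γ ≤ SL(2, ℤ)`: `pull` (composition with `G ⧸ Γ₁ → G ⧸ Γ`) carries cocycles
representing `x` to cocycles representing `x|Γ₁`; `push` (sum over the fibres) carries cocycles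
representing `w` to cocycles representing the transfer of `w`.  Both preserve the two normal forms
and are adjoint for the standard forms, hence `[x|Γ₁, w] = [x, tr w]` and `[w, x|Γ₁] = [tr w, x]`.
-/

set_option autoImplicit false

namespace Fermat.Agent.S41.PD

open scoped MatrixGroups
open ModularGroup (S T)
open ModularCurve.Period (IsParabolicHom)
open Matrix

section pushpull

variable {G : Type*} [Group G] {Γ₁ Γ : Subgroup G} (h : Γ₁ ≤ Γ) {R : Type*}

theorem proj_smul (g : G) (q : G ⧸ Γ₁) :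
    Subgroup.quotientMapOfLE h (g • q) = g • Subgroup.quotientMapOfLE h q := by
  induction q using QuotientGroup.induction_on with
  | H x => rfl

theorem proj_mk_one :
    Subgroup.quotientMapOfLE h (((1 : G) : G ⧸ Γ₁)) = (((1 : G) : G ⧸ Γ)) := rfl

/-- pull-back of functions along `G ⧸ Γ₁ → G ⧸ Γ` -/
def pull (v : G ⧸ Γ → R) : G ⧸ Γ₁ → R := fun q => v (Subgroup.quotientMapOfLE h q)

@[simp] theorem pull_apply (v : G ⧸ Γ → R) (q : G ⧸ Γ₁) :
    pull h v q = v (Subgroup.quotientMapOfLE h q) := rfl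

theorem rho_pull (g : G) (v : G ⧸ Γ → R) : rho g (pull h v) = pull h (rho g v) := by
  funext q
  rw [rho_apply, pull_apply, pull_apply, rho_apply, proj_smul]

theorem pull_add [Add R] (v w : G ⧸ Γ → R) : pull h (v + w) = pull h v + pull h w := rfl

theorem pull_zero [Zero R] : pull h (0 : G ⧸ Γ → R) = 0 := rfl

variable [Fintype (G ⧸ Γ₁)]

open Classical in
/-- push-forward (sum over the fibres) of functions along `G ⧸ Γ₁ → G ⧸ Γ` -/
noncomputable def push [AddCommMonoid R] (w : G ⧸ Γ₁ → R) : G ⧸ Γ → R :=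
  fun q => ∑ q₁ ∈ Finset.univ.filter (fun q₁ => Subgroup.quotientMapOfLE h q₁ = q), w q₁

theorem push_add [AddCommMonoid R] (v w : G ⧸ Γ₁ → R) :
    push h (v + w) = push h v + push h w := by
  funext q
  simp only [push, Pi.add_apply, Finset.sum_add_distrib]

theorem push_zero [AddCommMonoid R] : push h (0 : G ⧸ Γ₁ → R) = 0 := by
  funext q
  simp [push]

theorem push_neg [AddCommGroup R] (v : G ⧸ Γ₁ → R) : push h (-v) = -push h v := by
  funext q
  simp only [push, Pi.neg_apply, Finset.sum_neg_distrib]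

theorem push_sub [AddCommGroup R] (v w : G ⧸ Γ₁ → R) :
    push h (v - w) = push h v - push h w := by
  rw [sub_eq_add_neg, push_add, push_neg, sub_eq_add_neg]

theorem rho_push [AddCommMonoid R] (g : G) (w : G ⧸ Γ₁ → R) :
    rho g (push h w) = push h (rho g w) := by
  classical
  funext q
  rw [rho_apply]
  simp only [push, rho_apply]
  refine Finset.sum_bij (fun q₁ _ => g • q₁) ?_ ?_ ?_ ?_
  · intro q₁ hq₁
    rw [Finset.mem_filter] at hq₁ ⊢
    refine ⟨Finset.mem_univ _, ?_⟩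
    rw [proj_smul, hq₁.2, smul_inv_smul]
  · intro a _ b _ hab
    exact smul_left_cancel g hab
  · intro q₁ hq₁
    rw [Finset.mem_filter] at hq₁
    refine ⟨g⁻¹ • q₁, ?_, smul_inv_smul g q₁⟩
    rw [Finset.mem_filter]
    exact ⟨Finset.mem_univ _, by rw [proj_smul, hq₁.2]⟩
  · intro q₁ _
    rw [inv_smul_smul]

variable [Fintype (G ⧸ Γ)]

/-- `pull` and `push` are adjoint. -/
theorem dot_pull_left [CommRing R] (v : G ⧸ Γ → R) (w : G ⧸ Γ₁ → R) :
    pull h v ⬝ᵥ w = v ⬝ᵥ push h w := by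
  classical
  show ∑ q₁, pull h v q₁ * w q₁ = ∑ q, v q * push h w q
  simp only [push, Finset.mul_sum, pull_apply]
  rw [← Finset.sum_fiberwise (s := Finset.univ) (g := Subgroup.quotientMapOfLE h)]
  refine Finset.sum_congr rfl fun q _ => ?_
  refine Finset.sum_congr rfl fun q₁ hq₁ => ?_
  rw [Finset.mem_filter] at hq₁
  rw [hq₁.2]

theorem dot_pull_right [CommRing R] (v : G ⧸ Γ → R) (w : G ⧸ Γ₁ → R) :
    w ⬝ᵥ pull h v = push h w ⬝ᵥ v := by
  rw [dotProduct_comm, dot_pull_left, dotProduct_comm]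

end pushpull

section cocycles

variable {G : Type*} [Group G] {Γ₁ Γ : Subgroup G} (h : Γ₁ ≤ Γ) {R : Type*} [AddCommGroup R]

theorem IsCoc.pull {c : G → (G ⧸ Γ) → R} (hc : IsCoc c) : IsCoc (fun g => pull h (c g)) := by
  intro g k
  show PD.pull h (c (g * k)) = PD.pull h (c g) + rho g (PD.pull h (c k))
  rw [hc, pull_add, rho_pull]

theorem IsCoc.push [Fintype (G ⧸ Γ₁)] {c : G → (G ⧸ Γ₁) → R} (hc : IsCoc c) :
    IsCoc (fun g => push h (c g)) := by
  intro g k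
  show PD.push h (c (g * k)) = PD.push h (c g) + rho g (PD.push h (c k))
  rw [hc, push_add, rho_push]

/-- `pull` of a cocycle representing `x` represents the restriction of `x`. -/
theorem Represents.pull {c : G → (G ⧸ Γ) → R} {x : Additive Γ →+ R} (hc : Represents Γ c x) :
    Represents Γ₁ (fun g => pull h (c g))
      (x.comp (MonoidHom.toAdditive (Subgroup.inclusion h))) := by
  refine ⟨hc.1.pull h, fun γ => ?_⟩
  show c (γ : G) (Subgroup.quotientMapOfLE h ((1 : G) : G ⧸ Γ₁)) = _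
  rw [proj_mk_one]
  exact hc.2 (Subgroup.inclusion h γ)

/-- the cocycle `push ∘ (∂ξ)` is the coboundary of `push ξ` -/
theorem push_cobdry [Fintype (G ⧸ Γ₁)] (ξ : (G ⧸ Γ₁) → R) (g : G) :
    push h (cobdry ξ g) = cobdry (push h ξ) g := by
  rw [cobdry_apply, cobdry_apply, push_sub, rho_push]

/-- If `push ∘ b` represents `z` for one cocycle `b` representing `w`, then for every such. -/
theorem Represents.push_indep [Fintype (G ⧸ Γ₁)] {b b' : G → (G ⧸ Γ₁) → R}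
    {w : Additive Γ₁ →+ R} {z : Additive Γ →+ R} (hb : Represents Γ₁ b w)
    (hb' : Represents Γ₁ b' w) (hz : Represents Γ (fun g => push h (b g)) z) :
    Represents Γ (fun g => push h (b' g)) z := by
  obtain ⟨ξ, hξ⟩ := hb.exists_cobdry hb'
  have : (fun g => PD.push h (b' g)) = (fun g => PD.push h (b g)) + cobdry (PD.push h ξ) := by
    funext g
    rw [hξ, Pi.add_apply, Pi.add_apply, push_add, push_cobdry]
  rw [this]
  exact hz.add_cobdry _

end cocycles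

section adjoint

variable {Γ₁ Γ : Subgroup SL(2, ℤ)} (h : Γ₁ ≤ Γ) [Fintype (SL(2, ℤ) ⧸ Γ₁)]
  [Fintype (SL(2, ℤ) ⧸ Γ)]

omit [Fintype (SL(2, ℤ) ⧸ Γ₁)] [Fintype (SL(2, ℤ) ⧸ Γ)] in
theorem isParabolicHom_comp_inclusion {A : Type*} [AddCommGroup A] {x : Additive Γ →+ A}
    (hx : IsParabolicHom Γ x) :
    IsParabolicHom Γ₁ (x.comp (MonoidHom.toAdditive (Subgroup.inclusion h))) :=
  fun γ hγ => hx (Subgroup.inclusion h γ) hγ

omit [Fintype (SL(2, ℤ) ⧸ Γ)] in
/-- The transfer of a parabolic homomorphism is parabolic. -/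
theorem isParabolicHom_of_push (hneg : (-1 : SL(2, ℤ)) ∈ Γ₁) {w : Additive Γ₁ →+ ℤ}
    (hw : IsParabolicHom Γ₁ w) {b : SL(2, ℤ) → (SL(2, ℤ) ⧸ Γ₁) → ℤ} (hb : Represents Γ₁ b w)
    {z : Additive Γ →+ ℤ} (hz : Represents Γ (fun g => push h (b g)) z) :
    IsParabolicHom Γ z := by
  obtain ⟨b', hb', hb'T⟩ := exists_NF1 w hw
  have hz' := hb.push_indep h hb' hz
  have h1 : b' (-1) = 0 := hb'.map_neg_one hneg (parabolic_neg_one hneg w hw)
  refine hz'.isParabolicHom (h hneg) ?_ ?_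
  · show push h (b' (-1)) = 0
    rw [h1, push_zero]
  · show push h (b' T) = 0
    rw [hb'T, push_zero]

/-- **PD-H (right)**: `[x|Γ₁, w] = [x, tr w]`. -/
theorem pairFun_res_right (hneg : (-1 : SL(2, ℤ)) ∈ Γ₁) {x : Additive Γ →+ ℤ}
    (hx : IsParabolicHom Γ x) {w : Additive Γ₁ →+ ℤ} (hw : IsParabolicHom Γ₁ w)
    {b : SL(2, ℤ) → (SL(2, ℤ) ⧸ Γ₁) → ℤ} (hb : Represents Γ₁ b w)
    {z : Additive Γ →+ ℤ} (hz : Represents Γ (fun g => push h (b g)) z) :
    pairFun Γ₁ (x.comp (MonoidHom.toAdditive (Subgroup.inclusion h))) w = pairFun Γ x z := by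
  have hzp := isParabolicHom_of_push h hneg hw hb hz
  obtain ⟨a, ha, haU⟩ := exists_NF2 x (hom_finOrder_eq_zero x)
  obtain ⟨b', hb', hb'T⟩ := exists_NF1 w hw
  have hz' := hb.push_indep h hb' hz
  have e1 := two_mul_pairFun_int hneg (isParabolicHom_comp_inclusion h hx) hw (ha.pull h)
    (show pull h (a U) = 0 by rw [haU, pull_zero]) hb' hb'T
  have e2 := two_mul_pairFun_int (h hneg) hx hzp ha haU hz'
    (show push h (b' T) = 0 by rw [hb'T, push_zero])
  have e3 : pull h (a S) ⬝ᵥ b' S = a S ⬝ᵥ push h (b' S) := dot_pull_left h _ _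
  have : (2 : ℤ) * pairFun Γ₁ (x.comp (MonoidHom.toAdditive (Subgroup.inclusion h))) w =
      2 * pairFun Γ x z := by rw [e1, e2]; exact e3
  linarith

/-- **PD-H (left)**: `[w, x|Γ₁] = [tr w, x]`. -/
theorem pairFun_res_left (hneg : (-1 : SL(2, ℤ)) ∈ Γ₁) {x : Additive Γ →+ ℤ}
    (hx : IsParabolicHom Γ x) {w : Additive Γ₁ →+ ℤ} (hw : IsParabolicHom Γ₁ w)
    {b : SL(2, ℤ) → (SL(2, ℤ) ⧸ Γ₁) → ℤ} (hb : Represents Γ₁ b w)
    {z : Additive Γ →+ ℤ} (hz : Represents Γ (fun g => push h (b g)) z) :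
    pairFun Γ₁ w (x.comp (MonoidHom.toAdditive (Subgroup.inclusion h))) = pairFun Γ z x := by
  have hzp := isParabolicHom_of_push h hneg hw hb hz
  obtain ⟨a', ha', ha'U⟩ := exists_NF2 w (hom_finOrder_eq_zero w)
  obtain ⟨b₀, hb₀, hb₀T⟩ := exists_NF1 x hx
  have hz' := hb.push_indep h ha' hz
  have e1 := two_mul_pairFun_int hneg hw (isParabolicHom_comp_inclusion h hx) ha' ha'U
    (hb₀.pull h) (show pull h (b₀ T) = 0 by rw [hb₀T, pull_zero])
  have e2 := two_mul_pairFun_int (h hneg) hzp hx hz'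
    (show push h (a' U) = 0 by rw [ha'U, push_zero]) hb₀ hb₀T
  have e3 : a' S ⬝ᵥ pull h (b₀ S) = push h (a' S) ⬝ᵥ b₀ S := dot_pull_right h _ _
  have : (2 : ℤ) * pairFun Γ₁ w (x.comp (MonoidHom.toAdditive (Subgroup.inclusion h))) =
      2 * pairFun Γ z x := by rw [e1, e2]; exact e3
  linarith

end adjoint

end Fermat.Agent.S41.PD


end ZBS41_003_9

/-! ### bundled: `Fermat.Agent.S41.PD.Transfer` -/
section ZBS41_003_10

/-!
# S41 R6, piece PD-T: `push` of a representing cocycle represents the Mathlib transfer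

`Γ ≤ G`, `f : H →* Γ` injective with finite-index range, `Γ₁ ≤ G` the image of `f` in `G`,
`ψ₁ : Γ₁ → A` with `ψ₁ (f h) = ψ h`.  If the cocycle `b : G → (G ⧸ Γ₁ → A)` represents `ψ₁` then
`push ∘ b` represents `S41.transferAlong A f hf ψ`.
-/

set_option autoImplicit false

namespace Fermat.Agent.S41.PD

open Fermat.Agent.S41 (transferAlong transferAlong_eq_sum tRep tCoc f_tCoc tRep_mk)

section

variable {G : Type*} [Group G] {Γ₁ Γ : Subgroup G} (hle : Γ₁ ≤ Γ) {H : Type*} [Group H]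
  (f : H →* Γ) (hf : Function.Injective f) [f.range.FiniteIndex]
  (hΓ₁ : ∀ γ : Γ, γ ∈ f.range ↔ (γ : G) ∈ Γ₁)
  {A : Type*} [AddCommGroup A] [Fintype (G ⧸ Γ₁)]

include hΓ₁ in
theorem mk_tRep_injective :
    Function.Injective (fun q' : Γ ⧸ f.range => (((tRep f q' : Γ) : G) : G ⧸ Γ₁)) := by
  intro q₁ q₂ h12
  have h1 : ((tRep f q₁ : Γ) : G)⁻¹ * ((tRep f q₂ : Γ) : G) ∈ Γ₁ := QuotientGroup.eq.1 h12
  have h2 : (tRep f q₁)⁻¹ * tRep f q₂ ∈ f.range := (hΓ₁ _).2 h1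
  have h3 : (QuotientGroup.mk (tRep f q₁) : Γ ⧸ f.range) = QuotientGroup.mk (tRep f q₂) :=
    QuotientGroup.eq.2 h2
  rwa [tRep_mk, tRep_mk] at h3

include hΓ₁ in
/-- the fibre of `G ⧸ Γ₁ → G ⧸ Γ` over the base coset is `Γ ⧸ f.range` -/
theorem sum_fibre_eq (v : G ⧸ Γ₁ → A) :
    push hle v ((1 : G) : G ⧸ Γ) =
      (@Finset.univ (Γ ⧸ f.range) f.range.fintypeQuotientOfFiniteIndex).sum
        fun q' => v (((tRep f q' : Γ) : G) : G ⧸ Γ₁) := by
  classical
  letI := f.range.fintypeQuotientOfFiniteIndex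
  unfold push
  symm
  refine Finset.sum_bij (fun q' _ => (((tRep f q' : Γ) : G) : G ⧸ Γ₁)) ?_ ?_ ?_ ?_
  · intro q' _
    rw [Finset.mem_filter]
    refine ⟨Finset.mem_univ _, ?_⟩
    rw [Subgroup.quotientMapOfLE_apply_mk, QuotientGroup.eq, mul_one]
    exact inv_mem (tRep f q').2
  · intro q₁ _ q₂ _ h12
    exact mk_tRep_injective f hΓ₁ h12
  · intro q₁ hq₁
    rw [Finset.mem_filter] at hq₁
    induction q₁ using QuotientGroup.induction_on with
    | H g =>
      have hg : g ∈ Γ := by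
        have := hq₁.2
        rw [Subgroup.quotientMapOfLE_apply_mk, QuotientGroup.eq, mul_one] at this
        exact inv_mem_iff.1 this
      refine ⟨(QuotientGroup.mk (⟨g, hg⟩ : Γ) : Γ ⧸ f.range), Finset.mem_univ _, ?_⟩
      rw [QuotientGroup.eq]
      have h1 : (QuotientGroup.mk (tRep f (QuotientGroup.mk (⟨g, hg⟩ : Γ) : Γ ⧸ f.range)) :
          Γ ⧸ f.range) = QuotientGroup.mk (⟨g, hg⟩ : Γ) := tRep_mk f _
      have h2 := QuotientGroup.eq.1 h1
      exact (hΓ₁ _).1 h2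
  · intro q' _
    rfl

end

section bridge

variable {G : Type*} [Group G] {Γ₁ Γ : Subgroup G} (hle : Γ₁ ≤ Γ) {H : Type*} [Group H]
  (f : H →* Γ) (hf : Function.Injective f) [f.range.FiniteIndex]
  (hΓ₁ : ∀ γ : Γ, γ ∈ f.range ↔ (γ : G) ∈ Γ₁)
  {A : Type*} [AddCommGroup A] [Fintype (G ⧸ Γ₁)]

include hΓ₁ in
/-- **PD-T**: `push ∘ b` represents the transfer. -/
theorem represents_transferAlong (ψ : Additive H →+ A) (ψ₁ : Additive Γ₁ →+ A)
    (hψ : ∀ (h : H) (hh : ((f h : Γ) : G) ∈ Γ₁), ψ₁ (Additive.ofMul ⟨((f h : Γ) : G), hh⟩) =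
      ψ (Additive.ofMul h))
    {b : G → (G ⧸ Γ₁) → A} (hb : Represents Γ₁ b ψ₁) :
    Represents Γ (fun g => push hle (b g)) (transferAlong A f hf ψ) := by
  classical
  letI := f.range.fintypeQuotientOfFiniteIndex
  refine ⟨hb.1.push hle, fun γ => ?_⟩
  show push hle (b (γ : G)) ((1 : G) : G ⧸ Γ) = _
  rw [sum_fibre_eq hle f hΓ₁, transferAlong_eq_sum]
  -- the auxiliary function `F q' = b (t q') (t q' Γ₁)`
  set F : Γ ⧸ f.range → A :=
    fun q' => b ((tRep f q' : Γ) : G) ((((tRep f q' : Γ) : G)) : G ⧸ Γ₁) with hF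
  have key : ∀ q' : Γ ⧸ f.range,
      ψ (Additive.ofMul (tCoc f hf q' γ)) =
        b (γ : G) ((((tRep f q' : Γ) : G)) : G ⧸ Γ₁) - F q' + F (γ⁻¹ • q') := by
    intro q'
    set t : Γ := tRep f q' with ht
    set t' : Γ := tRep f (γ⁻¹ • q') with ht'
    have e1 : f (tCoc f hf q' γ) = t⁻¹ * γ * t' := f_tCoc f hf q' γ
    have hmem : ((f (tCoc f hf q' γ) : Γ) : G) ∈ Γ₁ := (hΓ₁ _).1 ⟨_, rfl⟩
    have e2 := hψ (tCoc f hf q' γ) hmem
    rw [← e2, ← hb.2 ⟨_, hmem⟩]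
    show b ((f (tCoc f hf q' γ) : Γ) : G) _ = _
    rw [e1]
    have e3 : (((t⁻¹ * γ * t' : Γ) : Γ) : G) = (t : G)⁻¹ * ((γ : G) * (t' : G)) := by
      simp only [Subgroup.coe_mul, Subgroup.coe_inv, mul_assoc]
    rw [e3, hb.1, hb.1, hb.1.map_inv]
    simp only [Pi.add_apply, Pi.neg_apply, rho_apply, inv_inv]
    -- identify the cosets
    have c1 : (t : G) • (((1 : G) : G ⧸ Γ₁)) = (((t : G)) : G ⧸ Γ₁) := by
      show ((((t : G) * 1 : G)) : G ⧸ Γ₁) = _
      rw [mul_one]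
    have c2 : (γ : G)⁻¹ • ((((t : G)) : G ⧸ Γ₁)) = (((t' : G)) : G ⧸ Γ₁) := by
      show (((((γ : G)⁻¹ * (t : G) : G)) : G ⧸ Γ₁)) = _
      rw [QuotientGroup.eq]
      have h1 : (QuotientGroup.mk t' : Γ ⧸ f.range) = γ⁻¹ • (QuotientGroup.mk t : Γ ⧸ f.range) := by
        rw [ht', ht, tRep_mk, tRep_mk]
      have h2 : (QuotientGroup.mk (γ⁻¹ * t) : Γ ⧸ f.range) = QuotientGroup.mk t' := h1.symm
      have h3 := (hΓ₁ _).1 (QuotientGroup.eq.1 h2)
      simpa using h3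
    rw [c1, c2, hF]
    abel
  simp only [key]
  rw [Finset.sum_add_distrib, Finset.sum_sub_distrib]
  have h2 : ∑ q' : Γ ⧸ f.range, F (γ⁻¹ • q') = ∑ q' : Γ ⧸ f.range, F q' :=
    Equiv.sum_comp (MulAction.toPerm γ⁻¹ : Equiv.Perm (Γ ⧸ f.range)) F
  rw [h2]
  abel

end bridge

end Fermat.Agent.S41.PD


end ZBS41_003_10
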