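/- GENERATED FILE (helper35, build-time optimisation, NOTES/ZB.md): verbatim concatenation of the modules
   Fermat.Agent.S41.PD.LatticeUniq
   Fermat.Agent.RIB.MP.LatLift
   Fermat.Agent.RIB.MP.TorsDivFinal
   Fermat.Agent.RIB.MP.DivEis
   Do not edit; do not import together with these modules. -/
import Fermat.Agent.ZB.S41_001
import Fermat.Agent.ZB.ES_009
import Fermat.Agent.ZB.S41_003
import Fermat.Agent.ZB.RIB_001

/-! ### bundled: `Fermat.Agent.S41.PD.LatticeUniq` -/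
section ZBS41_004_0

/-!
# S41, piece R6, PD-D2: `(Z*)^⊥ ∩ Z = B = (S - 1) M^T`

A vector `e ∈ ker (1 + S)` which is orthogonal to all of `Z* = ker (1 + S) ∩ (T - 1) M` is of the
form `ρ(S) ξ - ξ` with `ξ` invariant under `T`.

Route: over `ℚ` a vector outside the subspace `B_ℚ` is separated from it by a linear functional
(i.e. by a vector `e''`); its `S`-antisymmetrisation is orthogonal to all `T`-invariant vectors, so
(after clearing denominators) a multiple of it is in `(T - 1) M` by the explicit formula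
`(ρ(T) - 1) ∑_{j<n} j ρ(T)^j f = n f - ∑_{j<n} ρ(T)^j f`.  Saturation of `B`: if
`k e = ρ(S) ξ - ξ` then `ξ mod k` is invariant under `S` and `T`, hence constant.
-/

set_option autoImplicit false
set_option linter.unusedSectionVars false

namespace Fermat.Agent.S41.PD

open scoped MatrixGroups
open ModularGroup (S T)

section General

variable {Q : Type} [MulAction SL(2, ℤ) Q]

/-- A function invariant under `S` and `T` is invariant under `SL(2, ℤ)`. -/
theorem pdu_inv_of_inv_S_T {X : Type*} (h : Q → X) (hS : ∀ q, h (S • q) = h q)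
    (hT : ∀ q, h (T • q) = h q) (g : SL(2, ℤ)) : ∀ q : Q, h (g • q) = h q := by
  have hg : g ∈ Subgroup.closure ({S, T} : Set SL(2, ℤ)) := by
    rw [SpecialLinearGroup.SL2Z_generators]; trivial
  induction hg using Subgroup.closure_induction with
  | mem x hx =>
    rcases hx with rfl | rfl
    · exact hS
    · exact hT
  | one => intro q; simp
  | mul x y _ _ hx hy => intro q; rw [mul_smul, hx, hy]
  | inv x _ hx =>
    intro q
    have := hx (x⁻¹ • q)
    rw [smul_inv_smul] at this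
    exact this.symm

/-- `S⁻¹` acts as `S` when `-1` acts trivially. -/
theorem pdu_S_inv_smul (hneg : ∀ q : Q, (-1 : SL(2, ℤ)) • q = q) (q : Q) :
    (S⁻¹ : SL(2, ℤ)) • q = S • q := by
  have hS2 : (S * S : SL(2, ℤ)) = -1 := by
    ext i j; fin_cases i <;> fin_cases j <;> simp [ModularGroup.coe_S]
  have h1 : S • (S • q) = q := by rw [← mul_smul, hS2, hneg]
  calc (S⁻¹ : SL(2, ℤ)) • q = S⁻¹ • (S • (S • q)) := by rw [h1]
    _ = S • q := by rw [inv_smul_smul]

theorem pdu_rho_S_inv {R : Type*} (hneg : ∀ q : Q, (-1 : SL(2, ℤ)) • q = q) (v : Q → R) :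
    rho (S⁻¹ : SL(2, ℤ)) v = rho S v := by
  funext q
  simp only [rho_apply, inv_inv]
  rw [← pdu_S_inv_smul hneg q]

theorem pdu_rho_S_rho_S {R : Type*} (hneg : ∀ q : Q, (-1 : SL(2, ℤ)) • q = q) (v : Q → R) :
    rho S (rho S v) = v := by
  conv_lhs => rw [← pdu_rho_S_inv hneg (rho S v)]
  exact rho_inv_rho S v

end General

section StepA

variable {Q : Type} [Fintype Q] [MulAction SL(2, ℤ) Q]

theorem pdu_rho_sum {ι : Type*} {R : Type*} [AddCommMonoid R] (s : Finset ι) (g : SL(2, ℤ))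
    (v : ι → Q → R) : rho g (∑ i ∈ s, v i) = ∑ i ∈ s, rho g (v i) := by
  funext q
  simp [rho, Finset.sum_apply]

theorem pdu_rho_zsmul (g : SL(2, ℤ)) (c : ℤ) (v : Q → ℤ) : rho g (c • v) = c • rho g v := by
  funext q
  simp [rho]

theorem pdu_rho_T_pow (f : Q → ℤ) (j : ℕ) :
    rho T (rho (T ^ j) f) = rho (T ^ (j + 1)) f := by
  rw [← rho_mul, ← pow_succ']

/-- The telescoping identity `(ρ(T) - 1) ∑_{j<n} j ρ(T)^j f = n ρ(T)^n f - ρ(T) ∑_{j<n} ρ(T)^j f`. -/
theorem pdu_telescope (f : Q → ℤ) (n : ℕ) :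
    rho T (∑ j ∈ Finset.range n, (j : ℤ) • rho (T ^ j) f)
        - ∑ j ∈ Finset.range n, (j : ℤ) • rho (T ^ j) f
      = (n : ℤ) • rho (T ^ n) f - rho T (∑ j ∈ Finset.range n, rho (T ^ j) f) := by
  induction n with
  | zero => simp
  | succ n ih =>
    rw [Finset.sum_range_succ, Finset.sum_range_succ, rho_add, rho_add, pdu_rho_zsmul,
      pdu_rho_T_pow]
    have e1 : rho T (∑ j ∈ Finset.range n, (j : ℤ) • rho (T ^ j) f)
        = ∑ j ∈ Finset.range n, (j : ℤ) • rho (T ^ j) f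
          + ((n : ℤ) • rho (T ^ n) f - rho T (∑ j ∈ Finset.range n, rho (T ^ j) f)) := by
      rw [← ih]; abel
    rw [e1]
    push_cast
    rw [add_smul, one_smul]
    abel

theorem pdu_exists_pow_T_trivial (Q : Type) [Fintype Q] [MulAction SL(2, ℤ) Q] :
    ∃ n : ℕ, 0 < n ∧ ∀ q : Q, (T ^ n : SL(2, ℤ)) • q = q := by
  classical
  let σ : Equiv.Perm Q := MulAction.toPerm T
  refine ⟨orderOf σ, orderOf_pos σ, fun q => ?_⟩
  have h : σ ^ orderOf σ = 1 := pow_orderOf_eq_one σ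
  have h2 : (MulAction.toPerm (T ^ orderOf σ) : Equiv.Perm Q) = σ ^ orderOf σ :=
    map_pow (MulAction.toPermHom SL(2, ℤ) Q) T _
  have := congrArg (fun τ : Equiv.Perm Q => τ q) (h2.trans h)
  simpa using this

theorem pdu_rho_eq_self_of_trivial {R : Type*} (g : SL(2, ℤ)) (hg : ∀ q : Q, g • q = q)
    (f : Q → R) : rho g f = f := by
  funext q
  rw [rho_apply]
  congr 1
  calc g⁻¹ • q = g⁻¹ • (g • q) := by rw [hg]
    _ = q := inv_smul_smul g q

theorem pdu_rho_pow_eq_self {R : Type*} (g : SL(2, ℤ)) (v : Q → R) (hv : rho g v = v) (j : ℕ) :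
    rho (g ^ j) v = v := by
  induction j with
  | zero => simp
  | succ j ih => rw [pow_succ', rho_mul, ih, hv]

/-- Step A: an integral vector orthogonal to all `T`-invariant vectors has a positive multiple
in `(ρ(T) - 1) M`. -/
theorem pdu_exists_mul_eq (f : Q → ℤ)
    (hf : ∀ ξ : Q → ℤ, rho T ξ = ξ → ∑ q, f q * ξ q = 0) :
    ∃ (n : ℕ) (m : Q → ℤ), 0 < n ∧ (n : ℤ) • f = rho T m - m := by
  obtain ⟨n, hn, hT⟩ := pdu_exists_pow_T_trivial Q
  have hfn : rho (T ^ n) f = f := pdu_rho_eq_self_of_trivial _ hT f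
  set N : Q → ℤ := ∑ j ∈ Finset.range n, rho (T ^ j) f with hN
  have hNT : rho T N = N := by
    rw [hN, pdu_rho_sum]
    have e1 : ∀ j ∈ Finset.range n, rho T (rho (T ^ j) f) = rho (T ^ (j + 1)) f :=
      fun j _ => pdu_rho_T_pow f j
    rw [Finset.sum_congr rfl e1]
    have e2 := Finset.sum_range_succ' (fun j => rho (T ^ j) f) n
    have e3 := Finset.sum_range_succ (fun j => rho (T ^ j) f) n
    simp only [pow_zero, rho_one] at e2
    rw [e3, hfn] at e2
    exact (add_right_cancel e2).symm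
  have hNN : ∑ q, N q * N q = 0 := by
    have e1 : ∀ q, N q * N q = ∑ j ∈ Finset.range n, rho (T ^ j) f q * N q := by
      intro q
      rw [hN, Finset.sum_apply, Finset.sum_mul]
    simp_rw [e1]
    rw [Finset.sum_comm]
    refine Finset.sum_eq_zero fun j _ => ?_
    rw [sum_rho_mul]
    have e2 : rho (T ^ j)⁻¹ N = N := by
      have := pdu_rho_pow_eq_self T N hNT j
      calc rho (T ^ j)⁻¹ N = rho (T ^ j)⁻¹ (rho (T ^ j) N) := by rw [this]
        _ = N := rho_inv_rho _ _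
    rw [e2]
    exact hf N hNT
  have hN0 : N = 0 := by
    funext q
    have h1 : ∀ q ∈ (Finset.univ : Finset Q), 0 ≤ N q * N q := fun q _ => mul_self_nonneg _
    have h2 := (Finset.sum_eq_zero_iff_of_nonneg h1).1 hNN q (Finset.mem_univ q)
    exact mul_self_eq_zero.1 h2
  refine ⟨n, ∑ j ∈ Finset.range n, (j : ℤ) • rho (T ^ j) f, hn, ?_⟩
  rw [pdu_telescope f n, hfn, ← hN, hN0]
  simp

end StepA

section StepB

variable {Q : Type} [Fintype Q] [MulAction SL(2, ℤ) Q]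

/-- Step B (saturation of `B`): if `k e = ρ(S) ξ - ξ` with `ξ` invariant under `T` and `k ≠ 0`,
then `e = ρ(S) ξ' - ξ'` with `ξ'` invariant under `T`. -/
theorem pdu_saturated [MulAction.IsPretransitive SL(2, ℤ) Q]
    (hneg : ∀ q : Q, (-1 : SL(2, ℤ)) • q = q) (e ξ : Q → ℤ) (k : ℤ) (hk : k ≠ 0)
    (hξ : rho T ξ = ξ) (he : k • e = rho S ξ - ξ) :
    ∃ ξ' : Q → ℤ, rho T ξ' = ξ' ∧ e = rho S ξ' - ξ' := by
  rcases isEmpty_or_nonempty Q with hQ | ⟨⟨q₀⟩⟩
  · exact ⟨0, Subsingleton.elim _ _, Subsingleton.elim _ _⟩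
  -- `ξ mod k` is invariant under `S` and `T`
  let h : Q → ZMod k.natAbs := fun q => ((ξ q : ℤ) : ZMod k.natAbs)
  have hT : ∀ q, h (T • q) = h q := by
    intro q
    have := congrFun hξ (T • q)
    simp only [rho_apply, inv_smul_smul] at this
    simp only [h, this]
  have hS : ∀ q, h (S • q) = h q := by
    intro q
    have h1 := congrFun he q
    simp only [Pi.smul_apply, Pi.sub_apply, rho_apply, smul_eq_mul] at h1
    rw [pdu_S_inv_smul hneg] at h1
    simp only [h]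
    rw [eq_comm, ZMod.intCast_eq_intCast_iff_dvd_sub]
    rw [← h1]
    exact (Int.natAbs_dvd).2 (dvd_mul_right k (e q))
  have hconst : ∀ q, h q = h q₀ := by
    intro q
    obtain ⟨g, rfl⟩ := MulAction.exists_smul_eq SL(2, ℤ) q₀ q
    exact pdu_inv_of_inv_S_T h hS hT g q₀
  have hdvd : ∀ q, k ∣ ξ q - ξ q₀ := by
    intro q
    have := hconst q
    simp only [h] at this
    rw [eq_comm, ZMod.intCast_eq_intCast_iff_dvd_sub] at this
    exact (Int.natAbs_dvd).1 this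
  choose ξ' hξ' using hdvd
  have hξT : ∀ q, ξ (T⁻¹ • q) = ξ q := fun q => congrFun hξ q
  refine ⟨ξ', ?_, ?_⟩
  · funext q
    rw [rho_apply]
    have h1 := hξ' (T⁻¹ • q)
    have h2 := hξ' q
    rw [hξT q, h2] at h1
    exact (mul_left_cancel₀ hk h1).symm
  · funext q
    have h1 := congrFun he q
    simp only [Pi.smul_apply, Pi.sub_apply, rho_apply, smul_eq_mul] at h1 ⊢
    have h2 := hξ' (S⁻¹ • q)
    have h3 := hξ' q
    have h4 : k * e q = k * (ξ' (S⁻¹ • q) - ξ' q) := by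
      rw [mul_sub, ← h2, ← h3, h1]; ring
    exact mul_left_cancel₀ hk h4

end StepB

section Main

variable (Q : Type) [MulAction SL(2, ℤ) Q]

theorem pdu_rho_qsmul {Q : Type} [MulAction SL(2, ℤ) Q] (g : SL(2, ℤ)) (c : ℚ) (v : Q → ℚ) :
    rho g (c • v) = c • rho g v := by
  funext q
  simp [rho]

/-- The rational span `B_ℚ = (ρ(S) - 1) M_ℚ^T`. -/
def pdu_W : Submodule ℚ (Q → ℚ) where
  carrier := {v | ∃ ξ : Q → ℚ, rho T ξ = ξ ∧ v = rho S ξ - ξ}
  add_mem' := by
    rintro _ _ ⟨ξ, h1, rfl⟩ ⟨η, h2, rfl⟩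
    exact ⟨ξ + η, by rw [rho_add, h1, h2], by rw [rho_add]; abel⟩
  zero_mem' := ⟨0, by simp, by simp⟩
  smul_mem' := by
    rintro c _ ⟨ξ, h1, rfl⟩
    exact ⟨c • ξ, by rw [pdu_rho_qsmul, h1], by rw [pdu_rho_qsmul, smul_sub]⟩

theorem pdu_clear_denoms {Q : Type} [Finite Q] (v : Q → ℚ) :
    ∃ (d : ℤ) (w : Q → ℤ), d ≠ 0 ∧ ∀ q, (w q : ℚ) = d * v q := by
  obtain ⟨b, hb⟩ := IsLocalization.exist_integer_multiples_of_finite (nonZeroDivisors ℤ) v
  choose w hw using hb
  refine ⟨b, w, nonZeroDivisors.coe_ne_zero b, fun q => ?_⟩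
  have := hw q
  simpa [Algebra.smul_def] using this

end Main

/-- **PD-D2.**  `(Z*)^⊥ ∩ Z = B = (S - 1) M^T`. -/
theorem stmtLatticeUniq : StmtLatticeUniq := by
  intro Q _ _ _ hneg e he horth
  classical
  have heS : ∀ q, e q + e (S⁻¹ • q) = 0 := fun q => congrFun he.1 q
  let eQ : Q → ℚ := fun q => (e q : ℚ)
  have heQS : rho S eQ = -eQ := by
    funext q
    simp only [rho_apply, Pi.neg_apply, eQ]
    have := heS q
    have h2 : (e q : ℚ) + (e (S⁻¹ • q) : ℚ) = 0 := by exact_mod_cast this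
    linarith
  have key : eQ ∈ pdu_W Q := by
    by_contra hnot
    obtain ⟨f, hfe, hWf⟩ := Submodule.exists_le_ker_of_notMem hnot
    let e2 : Q → ℚ := fun i => f (fun j => if i = j then 1 else 0)
    have hf_eq : ∀ x : Q → ℚ, f x = ∑ i, x i * e2 i := by
      intro x
      rw [LinearMap.pi_apply_eq_sum_univ f x]
      simp [e2, smul_eq_mul]
    let e1 : Q → ℚ := e2 - rho S e2
    -- (i)
    have h_i : ∑ q, eQ q * e1 q = 2 * f eQ := by
      have e1' : ∀ q, eQ q * e1 q = eQ q * e2 q - eQ q * rho S e2 q := by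
        intro q; simp only [e1, Pi.sub_apply]; ring
      simp_rw [e1']
      rw [Finset.sum_sub_distrib, sum_mul_rho, pdu_rho_S_inv hneg, heQS, ← hf_eq]
      simp only [Pi.neg_apply, neg_mul, Finset.sum_neg_distrib]
      rw [← hf_eq]
      ring
    -- (ii)
    have h_ii : ∀ ξ : Q → ℚ, rho T ξ = ξ → ∑ q, e1 q * ξ q = 0 := by
      intro ξ hξ
      have hmem : rho S ξ - ξ ∈ pdu_W Q := ⟨ξ, hξ, rfl⟩
      have h0 : f (rho S ξ - ξ) = 0 := hWf hmem
      rw [map_sub, hf_eq, hf_eq] at h0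
      have e1' : ∀ q, e1 q * ξ q = ξ q * e2 q - rho S e2 q * ξ q := by
        intro q; simp only [e1, Pi.sub_apply]; ring
      simp_rw [e1']
      rw [Finset.sum_sub_distrib, sum_rho_mul, pdu_rho_S_inv hneg]
      have e3 : ∑ q, e2 q * rho S ξ q = ∑ q, rho S ξ q * e2 q :=
        Finset.sum_congr rfl fun q _ => mul_comm _ _
      rw [e3]
      linarith
    have h_anti : ∀ q, e1 q + e1 (S⁻¹ • q) = 0 := by
      intro q
      have h1 : rho S (rho S e2) = e2 := pdu_rho_S_rho_S hneg e2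
      have h2 := congrFun h1 q
      simp only [rho_apply] at h2
      simp only [e1, Pi.sub_apply, rho_apply]
      rw [h2]; ring
    -- (iii) clear denominators
    obtain ⟨d, w, hd, hw⟩ := pdu_clear_denoms e1
    have hwS : w + rho S w = 0 := by
      funext q
      simp only [Pi.add_apply, rho_apply, Pi.zero_apply]
      have h1 : ((w q + w (S⁻¹ • q) : ℤ) : ℚ) = 0 := by
        push_cast
        rw [hw q, hw (S⁻¹ • q), ← mul_add, h_anti q, mul_zero]
      exact_mod_cast h1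
    have hwT : ∀ ξ : Q → ℤ, rho T ξ = ξ → ∑ q, w q * ξ q = 0 := by
      intro ξ hξ
      have hξQ : rho T (fun q => (ξ q : ℚ)) = fun q => (ξ q : ℚ) := by
        funext q
        have := congrFun hξ q
        simp only [rho_apply] at this ⊢
        rw [this]
      have h1 := h_ii _ hξQ
      have h2 : ((∑ q, w q * ξ q : ℤ) : ℚ) = 0 := by
        push_cast
        simp_rw [hw, mul_assoc]
        rw [← Finset.mul_sum, h1, mul_zero]
      exact_mod_cast h2
    -- (iv)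
    obtain ⟨n, m, hn, hnm⟩ := pdu_exists_mul_eq w hwT
    have hZs : IsZs ((n : ℤ) • w) := by
      refine ⟨?_, m, hnm⟩
      rw [pdu_rho_zsmul, ← smul_add, hwS, smul_zero]
    -- (v)
    have h5 := horth _ hZs
    have h6 : ((∑ q, ((n : ℤ) • w) q * e q : ℤ) : ℚ) = 0 := by rw [h5]; simp
    push_cast at h6
    simp only [Pi.smul_apply, smul_eq_mul] at h6
    push_cast at h6
    simp_rw [hw] at h6
    have h7 : ∀ q, (n : ℚ) * ((d : ℚ) * e1 q) * (e q : ℚ) = ((n : ℚ) * d) * (eQ q * e1 q) := by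
      intro q; simp only [eQ]; ring
    simp_rw [h7] at h6
    rw [← Finset.mul_sum, h_i] at h6
    have hn' : (n : ℚ) ≠ 0 := by exact_mod_cast hn.ne'
    have hd' : (d : ℚ) ≠ 0 := by exact_mod_cast hd
    have : f eQ = 0 := by
      rcases mul_eq_zero.1 h6 with h | h
      · exact absurd h (mul_ne_zero hn' hd')
      · linarith
    exact hfe this
  obtain ⟨ξQ, hξT, heq⟩ := key
  obtain ⟨k, ξ₁, hk, hξ₁⟩ := pdu_clear_denoms ξQ
  have hξ₁T : rho T ξ₁ = ξ₁ := by
    funext q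
    have := congrFun hξT q
    simp only [rho_apply] at this ⊢
    have h1 : ((ξ₁ (T⁻¹ • q) : ℤ) : ℚ) = ξ₁ q := by rw [hξ₁, hξ₁, this]
    exact_mod_cast h1
  have hke : k • e = rho S ξ₁ - ξ₁ := by
    funext q
    have := congrFun heq q
    simp only [Pi.sub_apply, rho_apply, Pi.smul_apply, smul_eq_mul, eQ] at this ⊢
    have h1 : ((k * e q : ℤ) : ℚ) = ((ξ₁ (S⁻¹ • q) - ξ₁ q : ℤ) : ℚ) := by
      push_cast
      rw [hξ₁, hξ₁, this]; ring
    exact_mod_cast h1
  exact pdu_saturated hneg e ξ₁ k hk hξ₁T hke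

end Fermat.Agent.S41.PD


end ZBS41_004_0

/-! ### bundled: `Fermat.Agent.RIB.MP.LatLift` -/
section ZBS41_004_1
/-
RIB-MP, piece MP-DIV / LAT (helper30): `stmtLatLift : StmtLatLift`.

PURE ALGEBRA on a finite transitive `SL₂(ℤ)`-set `Q` on which `-1` acts trivially, `n` odd,
`M = (Q → ℤ)`, `M̄ = (Q → ℤ/n)`:  `ker (1 + S) ∩ (T - 1) M → ker (1 + S̄) ∩ (T̄ - 1) M̄` is onto.

Proof.  Lift `m̄` to `m₀`, `e₀ := T m₀ - m₀`; `(1 + S) e₀ = n f` with `f` `S`-invariant, even at the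
fixed points of `S` (`n` odd), of total sum `0`; so `f = (1 + S) k` (`ribmp_lat_halve`) with
`∑ k = 0`; `ker ∑ ⊆ ker (1 + S) + (T - 1) M` (`ribmp_lat_sum_zero`: `⟨S, T⟩` is transitive);
`k = a + g`, `g ∈ (T - 1) M`, and `e := e₀ - n g`.
-/

set_option autoImplicit false

namespace Fermat.Agent.RIB.MP

open scoped MatrixGroups
open ModularGroup (S T)
open Fermat.Agent.S41.PD

/-- an involution `s`, `f` invariant under `s` and even at the fixed points of `s`:
`f = k + k ∘ s`. -/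
theorem ribmp_lat_halve {Q : Type} (s : Q → Q) (hs : ∀ q, s (s q) = q) (f : Q → ℤ)
    (hf : ∀ q, f (s q) = f q) (heven : ∀ q, s q = q → Even (f q)) :
    ∃ k : Q → ℤ, ∀ q, k q + k (s q) = f q := by
  classical
  obtain ⟨_, _⟩ := exists_wellFoundedLT Q
  refine ⟨fun q => if s q = q then f q / 2 else if q < s q then f q else 0, fun q => ?_⟩
  show (if s q = q then f q / 2 else if q < s q then f q else 0) +
    (if s (s q) = s q then f (s q) / 2 else if s q < s (s q) then f (s q) else 0) = f q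
  rw [hs q, hf q]
  by_cases h : s q = q
  · have h' : q = s q := h.symm
    rw [if_pos h, if_pos h']
    obtain ⟨c, hc⟩ := heven q h
    rw [hc]
    omega
  · have h' : ¬ q = s q := fun e => h e.symm
    rw [if_neg h, if_neg h']
    rcases lt_or_gt_of_ne h' with hlt | hgt
    · rw [if_pos hlt, if_neg (not_lt.2 hlt.le), add_zero]
    · rw [if_neg (not_lt.2 hgt.le), if_pos hgt, zero_add]

section Sum

variable {Q : Type} [Fintype Q] [MulAction SL(2, ℤ) Q]

/-- the subgroup `ker (1 + S) + (T - 1) M` -/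
def ribmp_latN (Q : Type) [MulAction SL(2, ℤ) Q] : AddSubgroup (Q → ℤ) where
  carrier := {k | ∃ a m : Q → ℤ, a + rho S a = 0 ∧ k = a + (rho T m - m)}
  zero_mem' := ⟨0, 0, by simp, by simp⟩
  add_mem' := by
    rintro _ _ ⟨a, m, ha, rfl⟩ ⟨a', m', ha', rfl⟩
    refine ⟨a + a', m + m', ?_, ?_⟩
    · rw [rho_add]
      calc a + a' + (rho S a + rho S a') = (a + rho S a) + (a' + rho S a') := by abel
        _ = 0 := by rw [ha, ha', add_zero]
    · rw [rho_add]
      abel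
  neg_mem' := by
    rintro _ ⟨a, m, ha, rfl⟩
    refine ⟨-a, -m, ?_, ?_⟩
    · rw [rho_neg, ← neg_add, ha, neg_zero]
    · rw [rho_neg]
      abel

omit [Fintype Q] in
lemma ribmp_lat_mem_N {k : Q → ℤ} :
    k ∈ ribmp_latN Q ↔ ∃ a m : Q → ℤ, a + rho S a = 0 ∧ k = a + (rho T m - m) := Iff.rfl

omit [Fintype Q] in
lemma ribmp_lat_rho_single [DecidableEq Q] (g : SL(2, ℤ)) (q : Q) :
    rho g (Pi.single q (1 : ℤ)) = Pi.single (g • q) (1 : ℤ) := by
  funext x
  rw [rho_apply, Pi.single_apply, Pi.single_apply]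
  by_cases h : x = g • q
  · rw [if_pos h, if_pos (by rw [h, inv_smul_smul])]
  · rw [if_neg h, if_neg (fun e => h (by rw [← e, smul_inv_smul]))]

/-- `ker ∑ ⊆ ker (1 + S) + (T - 1) M`. -/
theorem ribmp_lat_sum_zero [MulAction.IsPretransitive SL(2, ℤ) Q]
    (hneg : ∀ q : Q, (-1 : SL(2, ℤ)) • q = q) (k : Q → ℤ) (hk : ∑ q, k q = 0) :
    ∃ a m : Q → ℤ, a + rho S a = 0 ∧ k = a + (rho T m - m) := by
  classical
  rw [← ribmp_lat_mem_N]
  rcases isEmpty_or_nonempty Q with hE | ⟨⟨q₀⟩⟩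
  · have : k = 0 := funext fun q => (hE.false q).elim
    rw [this]
    exact (ribmp_latN Q).zero_mem
  -- the classes of the `δ_q`
  let h : Q → (Q → ℤ) ⧸ ribmp_latN Q := fun q => QuotientAddGroup.mk (Pi.single q (1 : ℤ))
  have hS : ∀ q, h (S • q) = h q := by
    intro q
    apply (QuotientAddGroup.eq_iff_sub_mem).2
    refine ⟨Pi.single (S • q) (1 : ℤ) - Pi.single q (1 : ℤ), 0, ?_, by simp⟩
    have hSS : S • (S • q) = q := by
      have := pdu_S_inv_smul hneg (S • q)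
      rw [inv_smul_smul] at this
      exact this.symm
    rw [rho_sub, ribmp_lat_rho_single, ribmp_lat_rho_single, hSS]
    abel
  have hT : ∀ q, h (T • q) = h q := by
    intro q
    apply (QuotientAddGroup.eq_iff_sub_mem).2
    refine ⟨0, Pi.single q (1 : ℤ), by simp, ?_⟩
    rw [ribmp_lat_rho_single, zero_add]
  have hconst : ∀ q, h q = h q₀ := by
    intro q
    obtain ⟨g, rfl⟩ := MulAction.exists_smul_eq SL(2, ℤ) q₀ q
    exact pdu_inv_of_inv_S_T h hS hT g q₀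
  -- `k = ∑ k q • δ_q`
  have hksum : k = ∑ q, k q • (Pi.single q (1 : ℤ) : Q → ℤ) := by
    funext x
    rw [Finset.sum_apply]
    simp only [Pi.smul_apply, Pi.single_apply, smul_eq_mul, mul_ite, mul_one, mul_zero]
    rw [Finset.sum_ite_eq]
    simp
  have hmk : (QuotientAddGroup.mk k : (Q → ℤ) ⧸ ribmp_latN Q) = 0 := by
    have e1 : (QuotientAddGroup.mk k : (Q → ℤ) ⧸ ribmp_latN Q) =
        QuotientAddGroup.mk' (ribmp_latN Q) (∑ q, k q • (Pi.single q (1 : ℤ) : Q → ℤ)) := by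
      rw [← hksum]
      rfl
    rw [e1, map_sum]
    have e2 : ∀ q ∈ (Finset.univ : Finset Q), QuotientAddGroup.mk' (ribmp_latN Q)
        (k q • (Pi.single q (1 : ℤ) : Q → ℤ)) = k q • h q₀ := by
      intro q _
      rw [map_zsmul]
      exact congrArg (fun x => k q • x) (hconst q)
    rw [Finset.sum_congr rfl e2, ← Finset.sum_smul, hk, zero_smul]
  exact (QuotientAddGroup.eq_zero_iff k).1 hmk

end Sum

/-- **MP-DIV / LAT.** -/
theorem stmtLatLift : StmtLatLift := by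
  intro Q _ _ _ hneg n hn e' m' he' hm'
  classical
  have hn0 : (n : ℤ) ≠ 0 := by
    have : n ≠ 0 := hn.pos.ne'
    exact_mod_cast this
  have hnodd : ¬ Even (n : ℤ) := by
    rw [Int.not_even_iff_odd]
    exact_mod_cast hn
  -- the involution
  have hs : ∀ q : Q, (S⁻¹ : SL(2, ℤ)) • ((S⁻¹ : SL(2, ℤ)) • q) = q := by
    intro q
    rw [pdu_S_inv_smul hneg q, inv_smul_smul]
  -- lift `m'`
  have hsurj : ∀ q, ∃ z : ℤ, (z : ZMod n) = m' q := fun q => ZMod.intCast_surjective (m' q)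
  choose m₀ hm₀ using hsurj
  have hcast : ∀ q, (((rho T m₀ - m₀) q : ℤ) : ZMod n) = e' q := by
    intro q
    rw [hm']
    show ((m₀ (T⁻¹ • q) - m₀ q : ℤ) : ZMod n) = m' (T⁻¹ • q) - m' q
    rw [Int.cast_sub, hm₀, hm₀]
  -- `(1 + S) e₀ = n f`
  have hdiv : ∀ q, (n : ℤ) ∣ (rho T m₀ - m₀) q + (rho T m₀ - m₀) (S⁻¹ • q) := by
    intro q
    rw [← ZMod.intCast_zmod_eq_zero_iff_dvd, Int.cast_add, hcast, hcast]
    exact congrFun he' q
  choose f hf using hdiv
  have hfS : ∀ q, f ((S⁻¹ : SL(2, ℤ)) • q) = f q := by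
    intro q
    have h1 := hf ((S⁻¹ : SL(2, ℤ)) • q)
    rw [hs q] at h1
    have h2 := hf q
    have : (n : ℤ) * f ((S⁻¹ : SL(2, ℤ)) • q) = (n : ℤ) * f q := by
      rw [← h1, ← h2]
      ring
    exact mul_left_cancel₀ hn0 this
  have hfeven : ∀ q, (S⁻¹ : SL(2, ℤ)) • q = q → Even (f q) := by
    intro q hq
    have h2 := hf q
    rw [hq] at h2
    have : Even ((n : ℤ) * f q) := by
      rw [← h2]
      exact ⟨_, rfl⟩
    rcases Int.even_mul.1 this with h | h
    · exact (hnodd h).elim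
    · exact h
  have hfsum : ∑ q, f q = 0 := by
    have h1 : ∑ q, ((rho T m₀ - m₀) q + (rho T m₀ - m₀) ((S⁻¹ : SL(2, ℤ)) • q)) = 0 := by
      rw [Finset.sum_add_distrib]
      have e1 : ∑ q, (rho T m₀ - m₀) ((S⁻¹ : SL(2, ℤ)) • q) = ∑ q, (rho T m₀ - m₀) q :=
        sum_rho S (rho T m₀ - m₀)
      have e2 : ∑ q, (rho T m₀ - m₀) q = 0 := by
        simp only [Pi.sub_apply]
        rw [Finset.sum_sub_distrib, sum_rho T m₀, sub_self]
      rw [e1, e2, add_zero]
    have h2 : (n : ℤ) * ∑ q, f q = 0 := by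
      rw [Finset.mul_sum, ← h1]
      exact Finset.sum_congr rfl (fun q _ => (hf q).symm)
    rcases mul_eq_zero.1 h2 with h | h
    · exact (hn0 h).elim
    · exact h
  -- `f = (1 + S) k`, `∑ k = 0`
  obtain ⟨k, hk⟩ := ribmp_lat_halve (fun q : Q => (S⁻¹ : SL(2, ℤ)) • q) hs f hfS hfeven
  have hksum : ∑ q, k q = 0 := by
    have h1 : ∑ q, (k q + k ((S⁻¹ : SL(2, ℤ)) • q)) = 0 := by
      rw [Finset.sum_congr rfl (fun q _ => hk q), hfsum]
    rw [Finset.sum_add_distrib] at h1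
    have e1 : ∑ q, k ((S⁻¹ : SL(2, ℤ)) • q) = ∑ q, k q := sum_rho S k
    rw [e1] at h1
    omega
  obtain ⟨a, m₁, ha, hka⟩ := ribmp_lat_sum_zero hneg k hksum
  -- the lift
  refine ⟨rho T (m₀ - (n : ℤ) • m₁) - (m₀ - (n : ℤ) • m₁), ⟨?_, _, rfl⟩, fun q => ?_⟩
  · funext q
    have h1 := hf q
    have h2 := hk q
    have h3 := congrFun ha q
    have h4 := congrFun hka q
    have h5 := congrFun hka ((S⁻¹ : SL(2, ℤ)) • q)
    simp only [Pi.add_apply, Pi.sub_apply, Pi.smul_apply, Pi.zero_apply, rho_apply,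
      smul_eq_mul] at h1 h2 h3 h4 h5 ⊢
    have e : m₀ (T⁻¹ • q) - ↑n * m₁ (T⁻¹ • q) - (m₀ q - ↑n * m₁ q) +
        (m₀ (T⁻¹ • S⁻¹ • q) - ↑n * m₁ (T⁻¹ • S⁻¹ • q) - (m₀ (S⁻¹ • q) - ↑n * m₁ (S⁻¹ • q))) =
        (m₀ (T⁻¹ • q) - m₀ q + (m₀ (T⁻¹ • S⁻¹ • q) - m₀ (S⁻¹ • q))) -
        ↑n * ((m₁ (T⁻¹ • q) - m₁ q) + (m₁ (T⁻¹ • S⁻¹ • q) - m₁ (S⁻¹ • q))) := by ring
    rw [e, h1]
    have e2 : (m₁ (T⁻¹ • q) - m₁ q) + (m₁ (T⁻¹ • S⁻¹ • q) - m₁ (S⁻¹ • q)) = f q := by
      rw [← h2, h4, h5]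
      linarith
    rw [e2, sub_self]
  · have h1 := hcast q
    simp only [Pi.sub_apply, Pi.smul_apply, rho_apply, smul_eq_mul, Int.cast_sub, Int.cast_mul,
      Int.cast_natCast, ZMod.natCast_self, zero_mul, sub_zero] at h1 ⊢
    exact h1

end Fermat.Agent.RIB.MP


end ZBS41_004_1

/-! ### bundled: `Fermat.Agent.RIB.MP.TorsDivFinal` -/
section ZBS41_004_2
/-
RIB-MP, piece MP-DIV (helper15, lattice lemma by helper30): for `p ≥ 5` the `p`-power torsion of
`J₀(M)(ℚ̄)` is `p`-divisible (`J₀(M)[p^∞] = PDiv M p`), UNCONDITIONAL.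

* `stmtParLift   : StmtParLift`   (parabolic characters mod `n`, `n` prime to `6`, lift to `ℤ`);
* `stmtTorsDivMP : StmtTorsDivMP`;
* `ribmp_torsDiv` : the same, as a lemma.
-/

set_option autoImplicit false

namespace Fermat.Agent.RIB.MP

open ModularCurve Fermat.Agent.ES

/-- **MP-DIV / PAR**, unconditional. -/
theorem stmtParLift : StmtParLift := stmtParLift_of stmtLatLift

/-- **MP-DIV**, unconditional. -/
theorem stmtTorsDivMP : StmtTorsDivMP := stmtTorsDivMP_of stmtParLift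

/-- for `p ≥ 5` every `p`-power torsion class of `J₀(M)(ℚ̄)` lies in the `p`-divisible part -/
theorem ribmp_torsDiv (M p : ℕ) [NeZero M] (hp : p.Prime) (h5 : 5 ≤ p) (x : JZero M)
    (hx : IsPPowerTorsion p x) : x ∈ pDivTors p (JZero M) :=
  stmtTorsDivMP M p hp h5 x hx

end Fermat.Agent.RIB.MP


end ZBS41_004_2

/-! ### bundled: `Fermat.Agent.RIB.MP.DivEis` -/
section ZBS41_004_3
/-
RIB-MP, piece MP-DIV (helper15): `stmtDivEis : StmtDivEis` (MP plan v2), from the strong form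
`stmtTorsDivMP` (all the `p`-power torsion of `J₀(M)(ℚ̄)` is `p`-divisible, `p ≥ 5`).
-/

set_option autoImplicit false

namespace Fermat.Agent.RIB.MP

open ModularCurve Fermat.Agent.ES

/-- `T_ℓ x − (ℓ + 1) x` is `p`-power torsion if `x` is -/
theorem ribmp_td_eisKill_tors {M p : ℕ} [NeZero M] (ℓ : Nat.Primes) {x : JZero M}
    (hx : IsPPowerTorsion p x) : IsPPowerTorsion p (eisKill ℓ x) := by
  obtain ⟨a, ha⟩ := hx
  refine ⟨a, ?_⟩
  show p ^ a • (heckeOperatorBar M ℓ x - ((ℓ : ℕ) + 1) • x) = 0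
  rw [nsmul_sub, ← map_nsmul, ha, map_zero, smul_comm, ha, smul_zero, sub_zero]

/-- **MP-DIV** (`StmtDivEis` of the MP plan v2), unconditional (the hypothesis `Squarefree M` is
not used). -/
theorem stmtDivEis : StmtDivEis :=
  fun M p _ _ hp h5 ℓ _ x hx =>
    stmtTorsDivMP M p hp h5 (eisKill ℓ x) (ribmp_td_eisKill_tors ℓ hx)

end Fermat.Agent.RIB.MP


end ZBS41_004_3
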