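/- GENERATED FILE (helper35, build-time optimisation, NOTES/ZB.md): verbatim concatenation of the modules
   Fermat.Agent.RT.K8.PlanGeo
   Fermat.Agent.RT.K8.GeoAlg
   Do not edit; do not import together with these modules. -/
import Fermat.Agent.ZB.RIB_001
import Fermat.Agent.ZB.ES_009
import Fermat.Agent.ZB.RIB_008
import Fermat.Agent.ZB.S41_003
import Fermat.Agent.ZB.S41_004
import Fermat.Agent.ZB.STB_002

/-! ### bundled: `Fermat.Agent.RT.K8.PlanGeo` -/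
section ZBRT_026_0
/-
RT-K8 (helper21): the GEOMETRIC CLAUSE (G) of K8 = Mazur's principle at the exponents `p ^ n`.
INTERFACE (definitions and statements only; the algebra is in `RT/K8/GeoAlg.lean`).

Setting of `RIB/MP/Plan.lean`: `N = M₁ q`, `q ∤ M₁` an odd prime, `p ≥ 5` a prime `≠ q`,
`A ⊂ ℚ̄` a valuation ring over `q`, `σ` a Frobenius element at `A`, `w = w_q`.
All the statements carry the hypothesis `5 ≤ q ∨ (5 - q) ∣ M₁` of `RIB/MP/PlanE.lean`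
(for `q = 3` the level `M₁` is even), under which the reduction package of `X₀(M₁)` exists.

* `StmtRedPow`       : `RIB.MP.StmtRed` for the exponents `p ^ n` (all `n`);
* `StmtFrobToricPow` : `RIB.MP.StmtFrobToric` for the exponents `p ^ n` (all `n`);
* `StmtGeoJ`         : the `J`-form of (G): for an inertia-fixed `x ∈ PDiv (M₁ q) p`, a Hecke
  polynomial `t₀` in the good variables which vanishes on `S₂(Γ₀(M₁))` and a prime `ℓ ∤ M₁ q p`,
  `z = t₀ (T_ℓ − ℓ − 1) x` satisfies `σ² z = q² z`.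

`stmtGeoJ_of : StmtRedPow → StmtFrobToricPow → StmtGeoJ` is proved in `RT/K8/GeoAlg.lean`
(MP-HK, MP-W, PKG-OLD, MP-DIV are landed and used there).
-/

set_option autoImplicit false

noncomputable section

namespace Fermat.Agent.RT.K8

open ModularCurve AlgebraicCurve Fermat.Agent.ES Fermat.Agent.ES.G2 Fermat.Agent.RIB.MP

/-- **MP-RED at the exponents `p ^ n`.**  For an inertia-fixed `x ∈ J₀(M₁ q)[p ^ n]` the
reductions of `T_ℓ x − (ℓ+1) x` at `v_∞` and at `v_0` are reductions of classes of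
`J₀(M₁)[p ^ n]`. -/
def StmtRedPow : Prop :=
  ∀ (M₁ q : ℕ) [NeZero M₁] [NeZero q] [NeZero (M₁ * q)] (hq : q.Prime) (hqM : ¬ q ∣ M₁),
    (5 ≤ q ∨ (5 - q) ∣ M₁) →
    q ≠ 2 → ∀ p : ℕ, p.Prime → 5 ≤ p → p ≠ q →
    ∀ A : ValuationSubring Qb, A.LiesOverPrime q →
    ∀ (n : ℕ) (x : JZero (M₁ * q)), p ^ n • x = 0 → InertiaFixed A x →
    ∀ ℓ : Nat.Primes, ¬ (ℓ : ℕ) ∣ M₁ * q * p →
      (∃ y : JZero M₁, p ^ n • y = 0 ∧ RedInf A (p ^ n) (eisKill ℓ x) y) ∧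
      (∃ y : JZero M₁, p ^ n • y = 0 ∧ RedZero hq hqM A (p ^ n) (eisKill ℓ x) y)

/-- **MP-FROB at the exponents `p ^ n`.**  For an inertia-fixed `x ∈ J₀(M₁ q)[p ^ n]`: if
`y = T_ℓ x − (ℓ+1) x` is toric then `σ (w y) + q y = 0` for every Frobenius element `σ` at
`A`. -/
def StmtFrobToricPow : Prop :=
  ∀ (M₁ q : ℕ) [NeZero M₁] [NeZero q] [NeZero (M₁ * q)] (hq : q.Prime) (hqM : ¬ q ∣ M₁),
    (5 ≤ q ∨ (5 - q) ∣ M₁) →
    q ≠ 2 → ∀ p : ℕ, p.Prime → 5 ≤ p → p ≠ q →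
    ∀ A : ValuationSubring Qb, A.LiesOverPrime q →
    ∀ σ : Qb ≃ₐ[ℚ] Qb, A.IsFrobeniusAt σ q →
    ∀ (n : ℕ) (x : JZero (M₁ * q)), p ^ n • x = 0 → InertiaFixed A x →
    ∀ ℓ : Nat.Primes, ¬ (ℓ : ℕ) ∣ M₁ * q * p →
      IsToric hq hqM A (p ^ n) (eisKill ℓ x) →
        σ • (Fermat.Agent.UNIP.atkinLehnerBar hq hqM • eisKill ℓ x) + q • eisKill ℓ x = 0

/-- **(G), `J`-form.**  On the inertia-fixed part of `PDiv (M₁ q) p` the square of a Frobenius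
element at `q` is `q²` after multiplication by `t₀ (T_ℓ − ℓ − 1)`, `t₀` a Hecke polynomial in the
good variables which vanishes on the cusp forms of level `M₁`. -/
def StmtGeoJ : Prop :=
  ∀ (M₁ q : ℕ) [NeZero M₁] [NeZero q] [NeZero (M₁ * q)], q.Prime → ¬ q ∣ M₁ →
    (5 ≤ q ∨ (5 - q) ∣ M₁) →
    q ≠ 2 → ∀ p : ℕ, p.Prime → 5 ≤ p → p ≠ q →
    ∀ A : ValuationSubring Qb, A.LiesOverPrime q →
    ∀ σ : Qb ≃ₐ[ℚ] Qb, A.IsFrobeniusAt σ q →
    ∀ t₀ ∈ MvPolynomial.supported ℤ (goodPrimes (M₁ * q) p),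
      CuspForm.heckeEvalForms M₁ 2 t₀ = 0 →
    ∀ ℓ : Nat.Primes, ¬ (ℓ : ℕ) ∣ M₁ * q * p →
    ∀ x : PDiv (M₁ * q) p, InertiaFixed A (x : JZero (M₁ * q)) →
      letI := pDivModule (M₁ * q) p
      letI := pDivGalois (M₁ * q) p
      (σ * σ) • ((t₀ * (heckeGen ℓ - (((ℓ : ℕ) : HeckeAlg) + 1))) • x) =
        (q ^ 2) • ((t₀ * (heckeGen ℓ - (((ℓ : ℕ) : HeckeAlg) + 1))) • x)

end Fermat.Agent.RT.K8

end


end ZBRT_026_0

/-! ### bundled: `Fermat.Agent.RT.K8.GeoAlg` -/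
section ZBRT_026_1
/-
RT-K8 (helper21), clause (G): THE ALGEBRA.

`stmtGeoJ_of : StmtRedPow → StmtFrobToricPow → StmtGeoJ`.

`x ∈ PDiv (M₁ q) p` inertia-fixed, `p ^ n x = 0`, `E = T_ℓ − ℓ − 1`, `t₀` a good Hecke polynomial
vanishing on `S₂(Γ₀(M₁))`.
1. MP-RED (exponent `p ^ n`): `E x` has the reductions of `y_∞, y_0 ∈ J₀(M₁)[p ^ n]`;
2. MP-DIV (landed): `y_∞, y_0 ∈ PDiv M₁ p`;
3. MP-HK (landed) + additivity: the reduction relations are stable under `t₀`;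
   PKG-OLD (`STB.stb_p2_kills`): `t₀ y = 0`, so `t₀ E x` is toric;
4. `t₀ E x = E (t₀ x)` and `t₀ x` is inertia-fixed: MP-FROB (exponent `p ^ n`) gives
   `σ w z = − q z` for `z = t₀ E x`;
5. `w` is an involution commuting with `σ`: `σ² z = (σ w)² z = q² z`.
-/

set_option autoImplicit false
set_option linter.unusedSectionVars false
set_option linter.style.haveILetI false

noncomputable section

namespace Fermat.Agent.RT.K8

open ModularCurve AlgebraicCurve Fermat.Agent.ES Fermat.Agent.ES.G2 Fermat.Agent.RIB.MP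
  Fermat.Agent.UNIP Fermat.Agent.STB

section Poly

variable {N M₁ p : ℕ} [NeZero N] [NeZero M₁]

/-- the coercion of `T_ℓ x`, `x ∈ PDiv N p`, `ℓ ∤ N p` -/
theorem rtk8g_coe_heckeGen_smul (hp : p.Prime) {ℓ : Nat.Primes} (hℓ : ¬ (ℓ : ℕ) ∣ N * p)
    (x : PDiv N p) :
    ((letI := pDivModule N p; heckeGen ℓ • x : PDiv N p) : JZero N) =
      heckeOperatorBar N ℓ (x : JZero N) := by
  letI := pDivModule N p
  have hm := multData_of_torsionUnifData hp.ne_zero (stb_p2_unifData N p hp.pos)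
  rw [hm.heckeGen_smul, pDivOp_of_good hℓ]

/-- **a relation between `J₀(N)` and `J₀(M₁)` which is additive and stable under the good Hecke
operators is stable under the Hecke polynomials in the good variables** (on the `p`-divisible
torsion) -/
theorem rtk8g_poly_stable (hp : p.Prime) (hsub : ∀ ℓ : Nat.Primes, ¬ (ℓ : ℕ) ∣ N * p →
      ¬ (ℓ : ℕ) ∣ M₁ * p)
    (R : AddSubgroup (JZero N × JZero M₁))
    (hR : ∀ ℓ : Nat.Primes, ¬ (ℓ : ℕ) ∣ N * p → ∀ z ∈ R,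
      (heckeOperatorBar N ℓ z.1, heckeOperatorBar M₁ ℓ z.2) ∈ R)
    {t : HeckeAlg} (ht : t ∈ MvPolynomial.supported ℤ (goodPrimes N p))
    (x : PDiv N p) (y : PDiv M₁ p) (h : ((x : JZero N), (y : JZero M₁)) ∈ R) :
    (((letI := pDivModule N p; t • x : PDiv N p) : JZero N),
      ((letI := pDivModule M₁ p; t • y : PDiv M₁ p) : JZero M₁)) ∈ R := by
  letI := pDivModule N p
  letI := pDivModule M₁ p
  rw [MvPolynomial.supported_eq_adjoin_X] at ht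
  induction ht using Algebra.adjoin_induction generalizing x y with
  | mem t ht =>
    obtain ⟨ℓ, hℓ, rfl⟩ := ht
    have hℓ' : ¬ (ℓ : ℕ) ∣ N * p := hℓ
    have e1 := rtk8g_coe_heckeGen_smul hp hℓ' x
    have e2 := rtk8g_coe_heckeGen_smul hp (hsub ℓ hℓ') y
    change (((heckeGen ℓ • x : PDiv N p) : JZero N),
      ((heckeGen ℓ • y : PDiv M₁ p) : JZero M₁)) ∈ R
    rw [e1, e2]
    exact hR ℓ hℓ' _ h
  | algebraMap r =>
    rw [algebraMap_smul, algebraMap_smul, AddSubgroup.coe_zsmul, AddSubgroup.coe_zsmul]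
    exact R.zsmul_mem h r
  | add s t _ _ hs ht =>
    rw [add_smul, add_smul, AddSubgroup.coe_add, AddSubgroup.coe_add]
    exact R.add_mem (hs x y h) (ht x y h)
  | mul s t _ _ hs ht =>
    rw [mul_smul, mul_smul]
    exact hs _ _ (ht x y h)

end Poly

section Main

variable {M₁ q : ℕ} [NeZero M₁] [NeZero q] [NeZero (M₁ * q)]

/-- MP-DIV, proved (helper15): for `p ≥ 5` the `p`-power torsion of `J₀(M)(ℚ̄)` is
`p`-divisible -/
theorem rtk8g_torsDiv : StmtTorsDivMP := stmtTorsDivMP_of (stmtParLift_of stmtLatLift)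

/-- the coercion of `(T_ℓ − ℓ − 1) x` is `eisKill ℓ x` -/
theorem rtk8g_coe_eis {N p : ℕ} [NeZero N] (hp : p.Prime) {ℓ : Nat.Primes}
    (hℓ : ¬ (ℓ : ℕ) ∣ N * p) (x : PDiv N p) :
    ((letI := pDivModule N p; (heckeGen ℓ - (((ℓ : ℕ) : HeckeAlg) + 1)) • x : PDiv N p) :
      JZero N) = eisKill ℓ (x : JZero N) := by
  letI := pDivModule N p
  have e : (((ℓ : ℕ) : HeckeAlg) + 1) = (((ℓ : ℕ) + 1 : ℕ) : HeckeAlg) := by push_cast; rfl
  rw [sub_smul, e, Nat.cast_smul_eq_nsmul, AddSubgroup.coe_sub, coe_nsmul_pDiv,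
    rtk8g_coe_heckeGen_smul hp hℓ]
  rfl

/-- **(G), `J`-form, from MP-RED and MP-FROB at the exponents `p ^ n`.** -/
theorem stmtGeoJ_of (hRed : StmtRedPow) (hFrob : StmtFrobToricPow) : StmtGeoJ := by
  intro M₁ q _ _ _ hq hqM hqE hq2 p hp hp5 hpq A hA σ hσ t₀ ht₀ hK ℓ hℓ x hI
  letI := pDivModule (M₁ * q) p
  letI := pDivGalois (M₁ * q) p
  have hmN := multData_of_torsionUnifData hp.ne_zero (stb_p2_unifData (M₁ * q) p hp.pos)
  have hℓN : ¬ (ℓ : ℕ) ∣ M₁ * q * p := hℓ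
  have hℓNq : ¬ (ℓ : ℕ) ∣ M₁ * q := fun h => hℓ (h.mul_right p)
  have hsub : ∀ r : Nat.Primes, ¬ (r : ℕ) ∣ M₁ * q * p → ¬ (r : ℕ) ∣ M₁ * p := by
    intro r hr h
    apply hr
    rcases (Nat.Prime.dvd_mul r.2).mp h with h | h
    · exact (h.mul_right q).mul_right p
    · exact h.mul_left (M₁ * q)
  obtain ⟨n, hn⟩ := isPPowerTorsion_coe x
  have hpn : p ^ n ≠ 0 := pow_ne_zero n hp.ne_zero
  set E : HeckeAlg := heckeGen ℓ - (((ℓ : ℕ) : HeckeAlg) + 1) with hE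
  -- the Hecke polynomials commute with the Galois action
  have hgal : ∀ (t : HeckeAlg) (y : PDiv (M₁ * q) p),
      InertiaFixed A (y : JZero (M₁ * q)) → InertiaFixed A ((t • y : PDiv (M₁ * q) p) :
        JZero (M₁ * q)) := by
    intro t y hy τ hτ
    have h1 := hmN.pDiv_smul_comm τ t y
    have h2 : τ • y = y := Subtype.ext (hy τ hτ)
    rw [h2] at h1
    exact congrArg Subtype.val h1
  have htors : ∀ (t : HeckeAlg) (y : PDiv (M₁ * q) p), p ^ n • (y : JZero (M₁ * q)) = 0 →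
      p ^ n • ((t • y : PDiv (M₁ * q) p) : JZero (M₁ * q)) = 0 := by
    intro t y hy
    rw [← coe_nsmul_pDiv, smul_comm, (pDiv_smul_eq_zero_iff _ _).mpr hy, smul_zero]
    rfl
  -- 1. MP-RED
  obtain ⟨⟨yi, hyi, hRi⟩, ⟨yz, hyz, hRz⟩⟩ :=
    hRed M₁ q hq hqM hqE hq2 p hp hp5 hpq A hA n (x : JZero (M₁ * q)) hn hI ℓ hℓ
  -- 2. MP-DIV
  have hyi' : yi ∈ pDivTors p (JZero M₁) := rtk8g_torsDiv M₁ p hp hp5 yi ⟨n, hyi⟩
  have hyz' : yz ∈ pDivTors p (JZero M₁) := rtk8g_torsDiv M₁ p hp hp5 yz ⟨n, hyz⟩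
  have hEx := rtk8g_coe_eis hp hℓN x
  rw [← hE] at hEx
  -- 3. stability under `t₀`, and `t₀ y = 0`
  have ht₀M : t₀ ∈ MvPolynomial.supported ℤ (goodPrimes M₁ p) :=
    MvPolynomial.supported_mono (fun r hr => hsub r hr) ht₀
  have hSi := rtk8g_poly_stable hp hsub (rtk8gRedInf A (p ^ n))
    (fun r hr z hz => ribmp_hk_redInf A (p ^ n) r (fun h => hr (h.mul_right p)) hz) ht₀
    (E • x) ⟨yi, hyi'⟩ (by rw [mem_rtk8gRedInf, hEx]; exact hRi)
  have hSz := rtk8g_poly_stable hp hsub (rtk8gRedZero hq hqM A (p ^ n))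
    (fun r hr z hz => ribmp_hk_redZero hq hqM A (p ^ n) r (fun h => hr (h.mul_right p)) hz) ht₀
    (E • x) ⟨yz, hyz'⟩ (by rw [mem_rtk8gRedZero, hEx]; exact hRz)
  rw [stb_p2_kills hp t₀ ht₀M hK] at hSi hSz
  have hTi : TrivInf A (p ^ n) ((t₀ • E • x : PDiv (M₁ * q) p) : JZero (M₁ * q)) :=
    rtk8g_trivInf_of_redInf hpn hSi
  have hTz : TrivZero hq hqM A (p ^ n) ((t₀ • E • x : PDiv (M₁ * q) p) : JZero (M₁ * q)) :=
    rtk8g_trivZero_of_redZero hq hqM hpn hSz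
  -- 4. `t₀ E x = E (t₀ x)`
  have hcomm : t₀ • E • x = E • t₀ • x := by
    rw [← mul_smul, ← mul_smul, mul_comm t₀ E]
  have hz : ((t₀ • E • x : PDiv (M₁ * q) p) : JZero (M₁ * q)) =
      eisKill ℓ ((t₀ • x : PDiv (M₁ * q) p) : JZero (M₁ * q)) := by
    rw [hcomm, hE]
    exact rtk8g_coe_eis hp hℓN (t₀ • x)
  rw [hz] at hTi hTz
  have hF := hFrob M₁ q hq hqM hqE hq2 p hp hp5 hpq A hA σ hσ n
    ((t₀ • x : PDiv (M₁ * q) p) : JZero (M₁ * q)) (htors t₀ x hn) (hgal t₀ x hI) ℓ hℓ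
    ⟨hTi, hTz⟩
  rw [← hz] at hF
  -- 5. conclusion
  set Z : JZero (M₁ * q) := ((t₀ • E • x : PDiv (M₁ * q) p) : JZero (M₁ * q)) with hZ
  have hZt : p ^ n • Z = 0 := htors t₀ (E • x) (htors E x hn)
  have hF' : σ • atkinLehnerBar hq hqM • Z = -(q • Z) := eq_neg_of_add_eq_zero_left hF
  let fσ : JZero (M₁ * q) →+ JZero (M₁ * q) := DistribSMul.toAddMonoidHom (JZero (M₁ * q)) σ
  let fw : JZero (M₁ * q) →+ JZero (M₁ * q) :=
    DistribSMul.toAddMonoidHom (JZero (M₁ * q)) (atkinLehnerBar hq hqM)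
  have hwZt : p ^ n • fw Z = 0 := by rw [← map_nsmul, hZt, map_zero]
  have h0 : fσ (fw Z) = -(q • Z) := hF'
  have h1 : fσ Z = -(q • fw Z) := by
    have ha : fw (fσ (fw Z)) = fσ (fw (fw Z)) := rtk8g_w_galois hq hqM σ hpn hwZt
    have hb : fw (fw Z) = Z := rtk8g_w_w hq hqM Z
    rw [hb] at ha
    rw [← ha, h0, map_neg, map_nsmul]
  have h2 : fσ (fσ Z) = q ^ 2 • Z := by
    rw [h1, map_neg, map_nsmul, h0, neg_nsmul, neg_neg, pow_two, mul_nsmul]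
  apply Subtype.ext
  have e1 : (((σ * σ) • ((t₀ * E) • x) : PDiv (M₁ * q) p) : JZero (M₁ * q)) = fσ (fσ Z) := by
    rw [mul_smul σ σ, mul_smul t₀ E]
    rfl
  have e2 : ((q ^ 2 • ((t₀ * E) • x) : PDiv (M₁ * q) p) : JZero (M₁ * q)) = q ^ 2 • Z := by
    rw [coe_nsmul_pDiv, mul_smul t₀ E]
  rw [e1, e2, h2]

end Main

end Fermat.Agent.RT.K8

end


end ZBRT_026_1
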