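/- GENERATED FILE (helper35, build-time optimisation, NOTES/ZB.md): verbatim concatenation of the modules
   Fermat.Agent.RT.Interp.Model
   Fermat.Agent.RT.Interp.Plan
   Fermat.Agent.RT.Prod.FinalPlan
   Fermat.Agent.RT.Prod.FinalNum
   Fermat.Agent.RT.Hecke.Plan
   Fermat.Agent.RT.Hecke.PlanFinal
   Fermat.Agent.RT.Hecke.Down
   Fermat.Agent.RT.Hecke.Final
   Fermat.Agent.RT.Hecke.AbsLPlan
   Fermat.Agent.RT.Hecke.AbsLSmall
   Fermat.Agent.RT.Interp.K8Glue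
   Fermat.Agent.RT.K8.GeoFinal
   Fermat.Agent.RT.Hecke.Sub
   Fermat.Agent.RT.Hecke.ConcAlg
   Fermat.Agent.RT.Hecke.ConcBaseAbs
   Fermat.Agent.RT.Hecke.ConcInst
   Do not edit; do not import together with these modules. -/
import Mathlib
import Fermat.Prelude.Def_FLTPrelim_Modularity
import Fermat.Agent.ZB.EC_003
import Fermat.Agent.ZB.STB_006
import Fermat.Agent.ZB.RIB_001
import Fermat.Agent.ZB.S58_002
import Fermat.Agent.ZB.RT_005
import Fermat.Agent.ZB.RT_003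
import Fermat.Agent.ZB.RT_018
import Fermat.Agent.ZB.Cheb_001
import Fermat.Agent.ZB.S36_011
import Fermat.Agent.ZB.S53_001
import Fermat.Agent.ZB.S32_002
import Fermat.Agent.ZB.PET_003
import Fermat.Agent.ZB.Cheb_002
import Fermat.Agent.ZB.RT_026
import Fermat.Agent.ZB.STB_010
import Fermat.Agent.ZB.Common_003
import Fermat.Agent.ZB.RIB_012
import Fermat.Agent.ZB.ES1_001

/-! ### bundled: `Fermat.Agent.RT.Interp.Model` -/
section ZBRT_002_0

/-!
# K-machine, piece INTERP (helper46), layer A1: an integral model that is bad at prescribed primes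

`ModularRepOfLevel M` asks for the congruence `a_ℓ(f) ≡ a_ℓ(W)` at all primes `ℓ ∤ M p` that are
GOOD for the chosen integral model `W`.  When the level is lowered from `N` to `M ∣ N` the
congruence at the primes `ℓ ∣ N`, `ℓ ∤ M` is not known a priori; it is avoided by replacing `W` by
the model `rtintScale W u` (`a_i ↦ u^i a_i`, `Δ ↦ u¹² Δ`) with `u = N`: it is again an integral
model of the same curve, all primes dividing `u` are bad for it, and at its good primes `ℓ` the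
number `a_ℓ` is unchanged (the reductions differ by the change of variables `ū`).

* `rtintScale_Δ`, `rtintScale_map`, `rtintScale_isIntegralModelOf`
* `rtintScale_isGoodPrimeFor_iff`, `rtintScale_apOfModel`
-/

set_option autoImplicit false

namespace Fermat.Agent.RT.Interp

open WeierstrassCurve

/-- the model `y² + u a₁ x y + u³ a₃ y = x³ + u² a₂ x² + u⁴ a₄ x + u⁶ a₆`. -/
def rtintScale (W : WeierstrassCurve ℤ) (u : ℤ) : WeierstrassCurve ℤ :=
  ⟨u * W.a₁, u ^ 2 * W.a₂, u ^ 3 * W.a₃, u ^ 4 * W.a₄, u ^ 6 * W.a₆⟩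

theorem rtintScale_Δ (W : WeierstrassCurve ℤ) (u : ℤ) :
    (rtintScale W u).Δ = u ^ 12 * W.Δ := by
  simp only [WeierstrassCurve.Δ, WeierstrassCurve.b₂, WeierstrassCurve.b₄, WeierstrassCurve.b₆,
    WeierstrassCurve.b₈, rtintScale]
  ring

/-- the change of variables `(x, y) ↦ (v² x, v³ y)` with `v = 1/φ(u)`. -/
noncomputable def rtintVC {F : Type*} [Field F] (φ : ℤ →+* F) (u : ℤ) (hu : φ u ≠ 0) :
    VariableChange F :=
  ⟨(Units.mk0 (φ u) hu)⁻¹, 0, 0, 0⟩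

theorem rtintScale_map {F : Type*} [Field F] (W : WeierstrassCurve ℤ) (u : ℤ) (φ : ℤ →+* F)
    (hu : φ u ≠ 0) :
    (rtintScale W u).map φ = rtintVC φ u hu • W.map φ := by
  ext <;>
    simp [rtintScale, rtintVC, WeierstrassCurve.map, variableChange_a₁, variableChange_a₂,
      variableChange_a₃, variableChange_a₄, variableChange_a₆]

theorem rtintScale_isIntegralModelOf {W : WeierstrassCurve ℤ} {E : WeierstrassCurve ℚ} {u : ℤ}
    (hu : u ≠ 0) (h : W.IsIntegralModelOf E) : (rtintScale W u).IsIntegralModelOf E := by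
  obtain ⟨C, hC⟩ := h
  have hu' : (Int.castRingHom ℚ) u ≠ 0 := by simpa using hu
  refine ⟨rtintVC (Int.castRingHom ℚ) u hu' * C, ?_⟩
  rw [mul_smul, hC, rtintScale_map W u _ hu']

theorem rtintScale_isGoodPrimeFor_iff (W : WeierstrassCurve ℤ) (u : ℤ) {ℓ : ℕ} (hℓ : ℓ.Prime) :
    (rtintScale W u).IsGoodPrimeFor ℓ ↔ ¬ (ℓ : ℤ) ∣ u ∧ W.IsGoodPrimeFor ℓ := by
  unfold WeierstrassCurve.IsGoodPrimeFor
  rw [rtintScale_Δ]
  have hp : Prime (ℓ : ℤ) := Nat.prime_iff_prime_int.mp hℓ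
  constructor
  · intro h
    exact ⟨fun hd => h (Dvd.dvd.mul_right (dvd_pow hd (by norm_num)) _),
      fun hd => h (Dvd.dvd.mul_left hd _)⟩
  · rintro ⟨h1, h2⟩ hd
    rcases hp.dvd_or_dvd hd with h | h
    · exact h1 (hp.dvd_of_dvd_pow h)
    · exact h2 h

/-- at a prime `ℓ ∤ u` the reductions of `W` and of `rtintScale W u` have the same number of
points, hence the same `a_ℓ`. -/
theorem rtintScale_apOfModel (W : WeierstrassCurve ℤ) (u : ℤ) {ℓ : ℕ} (hℓ : ℓ.Prime)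
    (hu : ¬ (ℓ : ℤ) ∣ u) : (rtintScale W u).apOfModel ℓ = W.apOfModel ℓ := by
  have : Fact ℓ.Prime := ⟨hℓ⟩
  have hu' : (Int.castRingHom (ZMod ℓ)) u ≠ 0 := by
    simpa [ZMod.intCast_zmod_eq_zero_iff_dvd] using hu
  have hred : (rtintScale W u).reductionMod ℓ =
      rtintVC (Int.castRingHom (ZMod ℓ)) u hu' • W.reductionMod ℓ :=
    rtintScale_map W u _ hu'
  unfold WeierstrassCurve.apOfModel WeierstrassCurve.traceOfFrobenius WeierstrassCurve.card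
  rw [hred]
  rw [Nat.card_congr (Fermat.Agent.EC.vcEquiv (W.reductionMod ℓ)
    (rtintVC (Int.castRingHom (ZMod ℓ)) u hu')).toEquiv]

end Fermat.Agent.RT.Interp


end ZBRT_002_0

/-! ### bundled: `Fermat.Agent.RT.Interp.Plan` -/
section ZBRT_002_1

/-!
# K-machine, piece INTERP (helper46): from the characteristic-zero point to `StmtTR`

The algebraic core of the K-machine ends with a prime `𝔓` of the base Hecke ring `T₀` with
`λ ∉ 𝔓` and `Σ_r ≡ 1 mod 𝔓` at the trivial primes.  INTERP turns this into the conclusion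
`RIB.Lowered P N q` of `RIB.StmtTR`.  The interface:

* `RtintPoint P N q` (INPUT, delivered by K7 + OUT): a CHARACTERISTIC-ZERO POINT of level `N`:
  a local Noetherian domain `A` of characteristic zero with `p ∈ 𝔪_A` (think `A = T₀ ⧸ 𝔓`),
  eigenvalues `a ℓ ∈ A` (`ℓ ∉ S`) which OCCUR in `S₂(Γ₀(N))`, are congruent to `a_ℓ(W)` modulo
  `𝔪_A`, and a representation `ρ : G_ℚ → GL₂(A)` with `charpoly ρ(Frob_ℓ) = X² − a_ℓ X + ℓ`,
  residually absolutely irreducible, UNRAMIFIED at `q`.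
* `StmtK8` (INPUT, helper21): a newform `g` of level `M`, `q ∥ M`, `q ≠ p`, `q ≠ 2`, `5 ≤ p`: NO representation `ρ`
  over such an `A` whose eigenvalues are a specialisation of those of `g` is unramified at `q`.
* `StmtBase` : in the situation of `RIB.StmtTR` there is an `RtintPoint`.
* `rtint_lowered` (PROVED): `StmtK8` + an `RtintPoint P N q` ⇒ `RIB.Lowered P N q`.
* `rtint_stmtTR` (PROVED): `StmtK8 → StmtBase → RIB.StmtTR`.
* RESTRICTED FORMS (`5 ≤ q`, the forms which are USED): `StmtK8E`, `rtint_loweredE`,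
  `rtint_stmtTRE : StmtK8E → StmtBase → RIB.StmtTR` (a trivial prime is `≥ 5`:
  `rtint_five_le_of_trivial`); `K8At p q` is the common body, `rtint_lowered_at` the common proof.

Proof of `rtint_lowered`: `rtint_point` gives a normalised eigenform `f` of level `N` and a
maximal ideal `𝔪'` of `ℤ̄`; `nf_exists_newform` gives the newform `g₀` of level `N₀ ∣ N` of `f`;
`StmtK8` gives `q ∤ N₀`; the witness of `ModularRepOfLevel N₀` is `(g₀, rtintScale W u, 𝔪')` with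
`u` the product of the primes in `S` (all of them are bad for `rtintScale W u`, so the congruence
is only needed at the primes outside `S`).
-/

set_option autoImplicit false

noncomputable section

namespace Fermat.Agent.RT.Interp

open ModularCurve Fermat.Agent.S31 Fermat.Agent.ES ModularFormClass CongruenceSubgroup Polynomial
  WeierstrassCurve WeierstrassCurve.Affine WeierstrassCurve.Affine.Point

/-- **K8, consumer shape** (new at `q ∥ M` ⇒ ramified at `q`). -/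
def StmtK8 : Prop :=
  ∀ (p : ℕ), p.Prime → 5 ≤ p → ∀ (M : ℕ) [NeZero M] (g : CuspForm (Gamma0 M) 2), g.IsNewform →
    ∀ q : ℕ, q.Prime → q ≠ p → q ≠ 2 → q ∣ M → ¬ q ^ 2 ∣ M →
    ∀ S : Finset ℕ, p ∈ S → (∀ r : ℕ, r.Prime → r ∣ M → r ∈ S) →
    ∀ (A : Type) [CommRing A] [IsLocalRing A] [IsDomain A] [CharZero A] [IsNoetherianRing A],
      (p : A) ∈ IsLocalRing.maximalIdeal A →
    ∀ (a : Nat.Primes → A),
      (∀ t ∈ MvPolynomial.supported ℤ (outsideVars (↑S : Set ℕ)),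
        heckeValue g t = 0 ↔ MvPolynomial.aeval a t = 0) →
    ∀ ρ : GaloisRepAdic A,
      (∀ ℓ : Nat.Primes, (ℓ : ℕ) ∉ S →
        ∀ 𝔄 : ValuationSubring (AlgebraicClosure ℚ), 𝔄.LiesOverPrime ℓ →
          ∀ σ : AlgebraicClosure ℚ ≃ₐ[ℚ] AlgebraicClosure ℚ, 𝔄.IsFrobeniusAt σ ℓ →
            LinearMap.charpoly (ρ.ρ σ) = X ^ 2 - C (a ℓ) * X + C (((ℓ : ℕ) : A))) →
      ρ.residual.IsAbsolutelyIrreducible →
      ¬ ρ.IsUnramifiedAt q

/-- **A characteristic-zero point of level `N` whose representation is unramified at `q`.** -/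
structure RtintPoint (P : FreyPackage) (N : ℕ) [NeZero N] (q : ℕ) : Type 1 where
  /-- an integral model of the Frey curve -/
  W : WeierstrassCurve ℤ
  isModel : W.IsIntegralModelOf P.freyCurve
  /-- the finite set of excluded primes -/
  S : Finset ℕ
  p_mem : P.p ∈ S
  level_mem : ∀ r : ℕ, r.Prime → r ∣ N → r ∈ S
  /-- the coefficient ring (`T₀ ⧸ 𝔓`) -/
  A : Type
  [instCommRing : CommRing A]
  [instIsLocalRing : IsLocalRing A]
  [instIsDomain : IsDomain A]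
  [instCharZero : CharZero A]
  [instIsNoetherianRing : IsNoetherianRing A]
  p_mem_max : (P.p : A) ∈ IsLocalRing.maximalIdeal A
  /-- the Hecke eigenvalues -/
  a : Nat.Primes → A
  occurs : ∀ t ∈ MvPolynomial.supported ℤ (outsideVars (↑S : Set ℕ)),
    CuspForm.heckeEvalForms N 2 t = 0 → MvPolynomial.aeval a t = 0
  cong : ∀ ℓ : Nat.Primes, (ℓ : ℕ) ∉ S → W.IsGoodPrimeFor ℓ →
    a ℓ - ((W.apOfModel ℓ : ℤ) : A) ∈ IsLocalRing.maximalIdeal A
  /-- the Galois representation -/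
  ρ : GaloisRepAdic A
  charpoly_frob : ∀ ℓ : Nat.Primes, (ℓ : ℕ) ∉ S →
    ∀ 𝔄 : ValuationSubring (AlgebraicClosure ℚ), 𝔄.LiesOverPrime ℓ →
      ∀ σ : AlgebraicClosure ℚ ≃ₐ[ℚ] AlgebraicClosure ℚ, 𝔄.IsFrobeniusAt σ ℓ →
        LinearMap.charpoly (ρ.ρ σ) = X ^ 2 - C (a ℓ) * X + C (((ℓ : ℕ) : A))
  absIrr : ρ.residual.IsAbsolutelyIrreducible
  unram : ρ.IsUnramifiedAt q

attribute [instance] RtintPoint.instCommRing RtintPoint.instIsLocalRing RtintPoint.instIsDomain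
  RtintPoint.instCharZero RtintPoint.instIsNoetherianRing

/-- **The base contract** (K2–K7 + P + K4 + G2 + OUT): in the situation of `RIB.StmtTR` there is
a characteristic-zero point of level `N` whose representation is unramified at `q`. -/
def StmtBase : Prop :=
  ∀ (P : FreyPackage) (N q : ℕ) [NeZero N], P.IsConductorLevel N → ¬ P.p ∣ N → q.Prime →
    q ≠ 2 → q ∣ N → GaloisRepIsIrreducible (K := AlgebraicClosure ℚ) ℚ P.freyCurve P.p →
    P.ModularRepOfLevel N →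
    (∀ r : ℕ, r.Prime → r ≠ 2 → r ∣ N → Fermat.Agent.RIB.IsTrivialPrime P r) →
    Nonempty (RtintPoint P N q)

/-- the product of the primes of a finite set, as an integer -/
def rtintProd (S : Finset ℕ) : ℤ := ∏ s ∈ S.filter Nat.Prime, (s : ℤ)

theorem rtintProd_ne_zero (S : Finset ℕ) : rtintProd S ≠ 0 := by
  unfold rtintProd
  refine Finset.prod_ne_zero_iff.mpr fun s hs => ?_
  exact_mod_cast (Finset.mem_filter.mp hs).2.ne_zero

theorem rtint_dvd_rtintProd {S : Finset ℕ} {ℓ : ℕ} (hℓ : ℓ.Prime) (hℓS : ℓ ∈ S) :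
    (ℓ : ℤ) ∣ rtintProd S :=
  Finset.dvd_prod_of_mem (fun s : ℕ => (s : ℤ)) (Finset.mem_filter.mpr ⟨hℓS, hℓ⟩)

/-- **K8 at one pair `(p, q)`**: the body of `StmtK8` (and of `StmtK8E`). -/
def K8At (p q : ℕ) : Prop :=
  ∀ (M : ℕ) [NeZero M] (g : CuspForm (Gamma0 M) 2), g.IsNewform → q ∣ M → ¬ q ^ 2 ∣ M →
    ∀ S : Finset ℕ, p ∈ S → (∀ r : ℕ, r.Prime → r ∣ M → r ∈ S) →
    ∀ (A : Type) [CommRing A] [IsLocalRing A] [IsDomain A] [CharZero A] [IsNoetherianRing A],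
      (p : A) ∈ IsLocalRing.maximalIdeal A →
    ∀ (a : Nat.Primes → A),
      (∀ t ∈ MvPolynomial.supported ℤ (outsideVars (↑S : Set ℕ)),
        heckeValue g t = 0 ↔ MvPolynomial.aeval a t = 0) →
    ∀ ρ : GaloisRepAdic A,
      (∀ ℓ : Nat.Primes, (ℓ : ℕ) ∉ S →
        ∀ 𝔄 : ValuationSubring (AlgebraicClosure ℚ), 𝔄.LiesOverPrime ℓ →
          ∀ σ : AlgebraicClosure ℚ ≃ₐ[ℚ] AlgebraicClosure ℚ, 𝔄.IsFrobeniusAt σ ℓ →
            LinearMap.charpoly (ρ.ρ σ) = X ^ 2 - C (a ℓ) * X + C (((ℓ : ℕ) : A))) →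
      ρ.residual.IsAbsolutelyIrreducible →
      ¬ ρ.IsUnramifiedAt q

/-- **INTERP**, from K8 at the pair `(p, q)`. -/
theorem rtint_lowered_at (P : FreyPackage) {N q : ℕ} [NeZero N] (hK8 : K8At P.p q)
    (hsq : Squarefree N) (hq : q.Prime) (pt : RtintPoint P N q) :
    Fermat.Agent.RIB.Lowered P N q := by
  classical
  obtain ⟨f, 𝔪', hf, hmax, hp𝔪', hconj, hcong⟩ :=
    rtint_point (N := N) (↑pt.S : Set ℕ) (fun ℓ hℓ hℓN => pt.level_mem ℓ hℓ hℓN) P.pp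
      pt.p_mem_max pt.a pt.occurs
  obtain ⟨N₀, hN₀, g₀, hg₀, hg₀q⟩ := Fermat.Agent.S58.nf_exists_newform (NeZero.ne N) f hf
  have hN₀0 : N₀ ≠ 0 := fun h => NeZero.ne N (Nat.eq_zero_of_zero_dvd (h ▸ hN₀))
  have : NeZero N₀ := ⟨hN₀0⟩
  have hout : ∀ ℓ ∈ outsideVars (↑pt.S : Set ℕ), qCoeff ⇑g₀ (ℓ : ℕ) = qCoeff ⇑f (ℓ : ℕ) := by
    intro ℓ hℓ
    have hℓS : (ℓ : ℕ) ∉ (↑pt.S : Set ℕ) := hℓ
    exact hg₀q ℓ ℓ.2 (fun h => hℓS (pt.level_mem ℓ ℓ.2 h))
  have hqN₀ : ¬ q ∣ N₀ := by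
    intro hqN₀
    have hq2 : ¬ q ^ 2 ∣ N₀ := by
      intro h
      have h2 : q * q ∣ N := by
        rw [← pow_two]
        exact h.trans hN₀
      exact hq.not_isUnit (hsq q h2)
    refine hK8 N₀ g₀ hg₀ hqN₀ hq2 pt.S pt.p_mem
      (fun r hr hrN₀ => pt.level_mem r hr (hrN₀.trans hN₀)) pt.A pt.p_mem_max pt.a ?_ pt.ρ
      pt.charpoly_frob pt.absIrr pt.unram
    intro t ht
    rw [← hconj t ht, Fermat.Agent.STB.stb_p1_heckeValue_congr f g₀ hout ht]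
  refine ⟨N₀, hN₀, hqN₀, g₀, rtintScale pt.W (rtintProd pt.S), 𝔪', hg₀.1,
    rtintScale_isIntegralModelOf (rtintProd_ne_zero pt.S) pt.isModel, hmax, hp𝔪', ?_⟩
  intro ℓ hℓ hgood hℓN₀ hℓp
  obtain ⟨hℓu, hℓW⟩ := (rtintScale_isGoodPrimeFor_iff pt.W (rtintProd pt.S) hℓ).mp hgood
  have hℓS : ℓ ∉ pt.S := fun h => hℓu (rtint_dvd_rtintProd hℓ h)
  have hℓN : ¬ ℓ ∣ N := fun h => hℓS (pt.level_mem ℓ hℓ h)
  have hint : IsIntegral ℤ (qCoeff ⇑f ℓ) :=
    Fermat.Agent.S42.isIntegral_qCoeff_prime f hf hℓ hℓN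
  obtain ⟨ℓ', rfl⟩ : ∃ ℓ' : Nat.Primes, (ℓ' : ℕ) = ℓ := ⟨⟨ℓ, hℓ⟩, rfl⟩
  refine ⟨⟨qCoeff ⇑f (ℓ' : ℕ), hint⟩, ?_, ?_⟩
  · exact (hg₀q ℓ' hℓ hℓN).symm
  · rw [rtintScale_apOfModel pt.W (rtintProd pt.S) hℓ hℓu]
    have hX : (MvPolynomial.X ℓ' - MvPolynomial.C (pt.W.apOfModel ℓ') : HeckeAlg) ∈
        MvPolynomial.supported ℤ (outsideVars (↑pt.S : Set ℕ)) := by
      refine Subalgebra.sub_mem _ ?_ ?_
      · exact (MvPolynomial.X_mem_supported (R := ℤ)).mpr (by exact_mod_cast hℓS)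
      · exact Subalgebra.algebraMap_mem _ _
    refine hcong _ hX ?_ _ ?_
    · rw [map_sub, MvPolynomial.aeval_X, MvPolynomial.aeval_C, eq_intCast]
      exact pt.cong ℓ' (by exact_mod_cast hℓS) hℓW
    · rw [Fermat.Agent.STB.stb_p1_heckeValue_sub, Fermat.Agent.STB.stb_p1_heckeValue_X]
      have : heckeValue f (MvPolynomial.C (pt.W.apOfModel ℓ') : HeckeAlg) =
          ((pt.W.apOfModel ℓ' : ℤ) : ℂ) :=
        Fermat.Agent.STB.stb_p1_heckeValue_algebraMap f _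
      rw [this]
      push_cast
      rfl

/-- **INTERP.** -/
theorem rtint_lowered (hK8 : StmtK8) (P : FreyPackage) {N q : ℕ} [NeZero N]
    (hsq : Squarefree N) (hq : q.Prime) (hqp : q ≠ P.p) (hq2' : q ≠ 2) (pt : RtintPoint P N q) :
    Fermat.Agent.RIB.Lowered P N q :=
  rtint_lowered_at P (fun M _ g hg hqM hq2 => hK8 P.p P.pp P.hp5 M g hg q hq hqp hq2' hqM hq2)
    hsq hq pt

/-- **K8, consumer shape, restricted to `5 ≤ q`** (the reduction package of `X₀(M / q)` at `q`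
exists for `5 ≤ q`; in `RIB.StmtTR` the prime `q` is trivial, hence `q ≡ 1 mod p`, `q ≥ 11`). -/
def StmtK8E : Prop :=
  ∀ (p : ℕ), p.Prime → 5 ≤ p → ∀ (M : ℕ) [NeZero M] (g : CuspForm (Gamma0 M) 2), g.IsNewform →
    ∀ q : ℕ, q.Prime → q ≠ p → q ≠ 2 → q ∣ M → ¬ q ^ 2 ∣ M → 5 ≤ q →
    ∀ S : Finset ℕ, p ∈ S → (∀ r : ℕ, r.Prime → r ∣ M → r ∈ S) →
    ∀ (A : Type) [CommRing A] [IsLocalRing A] [IsDomain A] [CharZero A] [IsNoetherianRing A],
      (p : A) ∈ IsLocalRing.maximalIdeal A →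
    ∀ (a : Nat.Primes → A),
      (∀ t ∈ MvPolynomial.supported ℤ (outsideVars (↑S : Set ℕ)),
        heckeValue g t = 0 ↔ MvPolynomial.aeval a t = 0) →
    ∀ ρ : GaloisRepAdic A,
      (∀ ℓ : Nat.Primes, (ℓ : ℕ) ∉ S →
        ∀ 𝔄 : ValuationSubring (AlgebraicClosure ℚ), 𝔄.LiesOverPrime ℓ →
          ∀ σ : AlgebraicClosure ℚ ≃ₐ[ℚ] AlgebraicClosure ℚ, 𝔄.IsFrobeniusAt σ ℓ →
            LinearMap.charpoly (ρ.ρ σ) = X ^ 2 - C (a ℓ) * X + C (((ℓ : ℕ) : A))) →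
      ρ.residual.IsAbsolutelyIrreducible →
      ¬ ρ.IsUnramifiedAt q

theorem stmtK8E_of_stmtK8 (h : StmtK8) : StmtK8E :=
  fun p hp hp5 M _ g hg q hq hqp hq2 hqM hq2M _ => h p hp hp5 M g hg q hq hqp hq2 hqM hq2M

/-- **INTERP, restricted form** (`5 ≤ q`). -/
theorem rtint_loweredE (hK8 : StmtK8E) (P : FreyPackage) {N q : ℕ} [NeZero N]
    (hsq : Squarefree N) (hq : q.Prime) (hqp : q ≠ P.p) (hq2' : q ≠ 2) (hq5 : 5 ≤ q)
    (pt : RtintPoint P N q) :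
    Fermat.Agent.RIB.Lowered P N q :=
  rtint_lowered_at P
    (fun M _ g hg hqM hq2 => hK8 P.p P.pp P.hp5 M g hg q hq hqp hq2' hqM hq2 hq5) hsq hq pt

/-- a trivial prime is `≥ 5` (indeed `≡ 1 mod p`, `p ≥ 5`) -/
theorem rtint_five_le_of_trivial {P : FreyPackage} {q : ℕ}
    (h : Fermat.Agent.RIB.IsTrivialPrime P q) : 5 ≤ q := by
  obtain ⟨hq, -, hdvd, -⟩ := h
  have h1 : 0 < q - 1 := Nat.sub_pos_of_lt hq.one_lt
  have h2 : P.p ≤ q - 1 := Nat.le_of_dvd h1 hdvd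
  have h3 := P.hp5
  omega

/-- **`StmtTR` from K8 and the base contract.** -/
theorem rtint_stmtTR (hK8 : StmtK8) (hBase : StmtBase) : Fermat.Agent.RIB.StmtTR := by
  intro P N q hcond hpN hq hq2 hqN hirr hmod htriv
  have : NeZero N := ⟨hcond.pos.ne'⟩
  obtain ⟨pt⟩ := hBase P N q hcond hpN hq hq2 hqN hirr hmod htriv
  exact rtint_lowered hK8 P hcond.squarefree hq (fun h => hpN (h ▸ hqN)) hq2 pt

/-- **`StmtTR` from K8 (restricted form, `5 ≤ q`) and the base contract.** -/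
theorem rtint_stmtTRE (hK8 : StmtK8E) (hBase : StmtBase) : Fermat.Agent.RIB.StmtTR := by
  intro P N q hcond hpN hq hq2 hqN hirr hmod htriv
  have : NeZero N := ⟨hcond.pos.ne'⟩
  obtain ⟨pt⟩ := hBase P N q hcond hpN hq hq2 hqN hirr hmod htriv
  exact rtint_loweredE hK8 P hcond.squarefree hq (fun h => hpN (h ▸ hqN)) hq2
    (rtint_five_le_of_trivial (htriv q hq hq2 hqN)) pt

end Fermat.Agent.RT.Interp

end
end ZBRT_002_1

/-! ### bundled: `Fermat.Agent.RT.Prod.FinalPlan` -/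
section ZBRT_002_2
/-
K-machine, PROD (helper70): THE TOP-LEVEL CONTRACTS of the arithmetic side and the target of the
final assembly.

* `KSetup P N q`    : the SITUATION of the K-machine for `(P, N, q)`: the coefficient ring `O`
  (K1-O2), a primitive `p`-th root of unity `ζ`, the residual representation `ρbar` over
  `k = ResidueField O` with the hypotheses `TWHyp`, `IsTrivSet` of K3 (PROD-hyp), the trivial
  primes `r : ι → ℕ` (= the odd primes of `N`), the LOC-gen generators `σ i`, `φ i` at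
  `padicPlace (r i)`, the square roots `s i` of `r i` with `s i ≡ ρbar(φ i) = ±1`, and the link
  of `ρbar` with the Frey curve (characteristic polynomials of Frobenius).
* `HeckeData Y h`   : what the HECKE side (K5 + K6 + K7 + FLAT + BASE-BRIDGE) delivers over a
  setup `X` for a number `h` of Taylor–Wiles primes: the base (`d`, `T0`, `j0`, `ρ0`, `b0`,
  eigenvalues `a ℓ`) and, for every `n` and every Taylor–Wiles family `qv : Fin h → ℕ` of level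
  `n`, a Galois-side datum `TWGal` (`RT/Prod/AsmPlan.lean`) with `m = h + 4 |ι|`,
  `Σ⁰_i = [ρ0(σ i)]_{b0}`, `Φ⁰_i = [ρ0(φ i)]_{b0}`, `E = rttwEvenQ O m h n`.
  `d`, `T0`, `j0` may depend on `h` (e.g. `d = 2^h d₀`, `j0` diagonal).
* `StmtKSetup`, `StmtHecke` : the two contracts.
* `RT/Prod/Final.lean` : `StmtKSetup → StmtHecke → (K3-Sel) → StmtK8 → RIB.StmtProdE`.
-/

set_option autoImplicit false

namespace Fermat.Agent.RT.Prod

open IsLocalRing Fermat.Agent.TW Fermat.Agent.RT Fermat.Agent.RT.K1 ExtCitation Polynomial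
open WeierstrassCurve WeierstrassCurve.Affine WeierstrassCurve.Affine.Point

/-- **The situation of the K-machine** for `(P, N, q)`. -/
structure KSetup (P : FreyPackage) (N q : ℕ) : Type 1 where
  /-- the coefficient ring -/
  O : Type
  [instCommRing : CommRing O]
  [instIsDomain : IsDomain O]
  [instDVR : IsDiscreteValuationRing O]
  [instComplete : IsAdicComplete (maximalIdeal O) O]
  [instFinite : Finite (ResidueField O)]
  [instCharZero : CharZero O]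
  lam : O
  hlam : maximalIdeal O = Ideal.span {lam}
  h2 : IsUnit (2 : O)
  /-- a primitive `p`-th root of unity -/
  ζ : O
  hζ : IsPrimitiveRoot ζ P.p
  /-- the residual representation -/
  ρbar : ResidualGaloisRep (ResidueField O)
  Smin : Finset ℕ
  hSmin : Smin = {2, P.p}
  /-- the trivial primes = the odd primes of `N` -/
  ι : Type
  [instFintype : Fintype ι]
  r : ι → ℕ
  r_inj : Function.Injective r
  hr : ∀ ℓ : ℕ, ℓ ∈ Finset.univ.image r ↔ ℓ.Prime ∧ ℓ ≠ 2 ∧ ℓ ∣ N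
  hyp : TWHyp O P.p ρbar (Smin ∪ Finset.univ.image r) Smin
  hT : IsTrivSet P.p ρbar Smin (Finset.univ.image r)
  /-- the LOC-gen generators -/
  σ : ι → RtpaG
  φ : ι → RtpaG
  hloc : ∀ i, ∀ [Fact (r i).Prime], IsLocGenAt P.p (r i) (σ i) (φ i)
  /-- the square roots of the trivial primes -/
  s : ι → O
  hs2 : ∀ i, s i ^ 2 = (r i : O)
  hs : ∀ i, (ρbar.ρ (φ i) = 1 ∧ s i - 1 ∈ maximalIdeal O) ∨
    (ρbar.ρ (φ i) = -1 ∧ s i + 1 ∈ maximalIdeal O)
  /-- the link with the Frey curve -/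
  W : WeierstrassCurve ℤ
  hW : W.IsIntegralModelOf P.freyCurve
  hbar : ∀ ℓ : ℕ, ℓ.Prime → ℓ ≠ P.p → W.IsGoodPrimeFor ℓ →
    ∀ 𝔄 : ValuationSubring (AlgebraicClosure ℚ), 𝔄.LiesOverPrime ℓ →
      ∀ τ : RtpaG, 𝔄.IsFrobeniusAt τ ℓ →
        LinearMap.charpoly (ρbar.ρ τ) =
          X ^ 2 - C (((W.apOfModel ℓ : ℤ) : ResidueField O)) * X + C ((ℓ : ResidueField O))
  /-- `ρbar` is unipotent on the inertia groups at `2` (the Frey curve is multiplicative at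
  `2`; field added by helper97 for HK-RES (R2)) -/
  hunip2 : ∀ 𝔄 : ValuationSubring (AlgebraicClosure ℚ), 𝔄.LiesOverPrime 2 →
    ∀ s ∈ 𝔄.inertiaSubgroupIn ℚ, LinearMap.charpoly (ρbar.ρ s) = (X - 1) ^ 2

attribute [instance] KSetup.instCommRing KSetup.instIsDomain KSetup.instDVR KSetup.instComplete
  KSetup.instFinite KSetup.instCharZero KSetup.instFintype

namespace KSetup

variable {P : FreyPackage} {N q : ℕ} (Y : KSetup P N q)

/-- `1/2` -/
noncomputable def half : Y.O := ((Y.h2.unit⁻¹ : Y.Oˣ) : Y.O)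

/-- `tχ = (ζ + ζ⁻¹)/2` (the same for all trivial primes) -/
noncomputable def tχ : Y.ι → Y.O := fun _ => Y.half * (Y.ζ + Y.ζ ^ (P.p - 1))

/-- `δ = (ζ − ζ⁻¹)/2` -/
noncomputable def δ : Y.ι → Y.O := fun _ => Y.half * (Y.ζ - Y.ζ ^ (P.p - 1))

/-- the set `T` of trivial primes -/
def T : Finset ℕ := Finset.univ.image Y.r

/-- the number of variables of `S`: `h` Taylor–Wiles variables and `4` framing variables for
every trivial prime -/
def m (h : ℕ) : ℕ := h + 4 * Fintype.card Y.ι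

end KSetup

/-- **What the Hecke side delivers** over a setup `Y`, for `h` Taylor–Wiles primes. -/
structure HeckeData {P : FreyPackage} {N q : ℕ} [NeZero N] (Y : KSetup P N q) (h : ℕ) :
    Type 1 where
  d : ℕ
  hd : 0 < d
  /-- the base Hecke ring -/
  T0 : Type
  [instCommRingT0 : CommRing T0]
  [instIsLocalRingT0 : IsLocalRing T0]
  [instAlgebraT0 : Algebra Y.O T0]
  [instFiniteT0 : Module.Finite Y.O T0]
  j0 : T0 →ₐ[Y.O] Matrix (Fin d) (Fin d) Y.O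
  hj0 : Function.Injective j0
  /-- the base representation -/
  ρ0 : GaloisRepAdic T0
  b0 : Module.Basis (Fin 2) T0 ρ0.V
  hdet0 : ρ0.DetIsCyclotomic P.p
  ι0 : ResidueField Y.O →+* ResidueField T0
  hres0 : ρ0.residual.IsEquiv (Y.ρbar.baseChangeAlong ι0)
  habs0 : ρ0.residual.IsAbsolutelyIrreducible
  /-- the excluded primes and the Hecke eigenvalues -/
  S' : Finset ℕ
  hpS' : P.p ∈ S'
  hNS' : ∀ ℓ : ℕ, ℓ.Prime → ℓ ∣ N → ℓ ∈ S'
  a : Nat.Primes → T0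
  hocc : ∀ t ∈ MvPolynomial.supported ℤ (Fermat.Agent.S31.outsideVars (↑S' : Set ℕ)),
    CuspForm.heckeEvalForms N 2 t = 0 → MvPolynomial.aeval a t = 0
  hcong : ∀ ℓ : Nat.Primes, (ℓ : ℕ) ∉ S' → Y.W.IsGoodPrimeFor ℓ →
    a ℓ - ((Y.W.apOfModel ℓ : ℤ) : T0) ∈ maximalIdeal T0
  hfrob : ∀ ℓ : Nat.Primes, (ℓ : ℕ) ∉ S' →
    ∀ 𝔄 : ValuationSubring (AlgebraicClosure ℚ), 𝔄.LiesOverPrime ℓ →
      ∀ τ : RtpaG, 𝔄.IsFrobeniusAt τ ℓ →
        LinearMap.charpoly (ρ0.ρ τ) = X ^ 2 - C (a ℓ) * X + C (((ℓ : ℕ) : T0))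
  /-- the levels -/
  level : ∀ (n : ℕ) (qv : Fin h → ℕ),
    IsTWFamily P.p Y.ρbar (Y.Smin ∪ Finset.univ.image Y.r) n h qv →
    ∃ (A : Type) (_ : CommRing A) (_ : IsLocalRing A) (_ : Algebra Y.O A)
      (ιA : ResidueField Y.O →+* ResidueField A) (ρ : GaloisRepAdic A)
      (b : Module.Basis (Fin 2) A ρ.V) (β βi : ℕ → Matrix (Fin 2) (Fin 2) A)
      (π1 πχ : A →ₐ[Y.O] Matrix (Fin d) (Fin d)
        (RttwS Y.O (Y.m h) ⧸ maximalIdeal (RttwS Y.O (Y.m h)) ^ n)),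
      TWGal P.p Y.ρbar Y.Smin (Finset.univ.image qv) Y.r Y.σ Y.φ Y.tχ Y.lam (Y.m h) d j0
        (fun i => LinearMap.toMatrix b0 b0 (ρ0.ρ (Y.σ i)))
        (fun i => LinearMap.toMatrix b0 b0 (ρ0.ρ (Y.φ i))) n (rttwEvenQ Y.O (Y.m h) h n)
        ιA ρ b β βi π1 πχ

attribute [instance] HeckeData.instCommRingT0 HeckeData.instIsLocalRingT0
  HeckeData.instAlgebraT0 HeckeData.instFiniteT0

/-- **SETUP** (K1-O2 + PROD-hyp + LOC-gen): in the situation of `RIB.StmtTR` there is a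
setup. -/
def StmtKSetup : Prop :=
  ∀ (P : FreyPackage) (N q : ℕ), P.IsConductorLevel N → ¬ P.p ∣ N → q.Prime → q ≠ 2 →
    q ∣ N → GaloisRepIsIrreducible (K := AlgebraicClosure ℚ) ℚ P.freyCurve P.p →
    P.ModularRepOfLevel N →
    (∀ r : ℕ, r.Prime → r ≠ 2 → r ∣ N → Fermat.Agent.RIB.IsTrivialPrime P r) →
    Nonempty (KSetup P N q)

/-- **HECKE** (K5 + K6 + K7 + FLAT + BASE-BRIDGE): over every setup, for every number `h` of
Taylor–Wiles primes, the Hecke side delivers its data. -/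
def StmtHecke : Prop :=
  ∀ (P : FreyPackage) (N q : ℕ) [NeZero N], P.IsConductorLevel N → ¬ P.p ∣ N → q.Prime →
    q ≠ 2 → q ∣ N → GaloisRepIsIrreducible (K := AlgebraicClosure ℚ) ℚ P.freyCurve P.p →
    P.ModularRepOfLevel N →
    (∀ r : ℕ, r.Prime → r ≠ 2 → r ∣ N → Fermat.Agent.RIB.IsTrivialPrime P r) →
    ∀ (Y : KSetup P N q) (h : ℕ), Nonempty (HeckeData Y h)

end Fermat.Agent.RT.Prod


end ZBRT_002_2

/-! ### bundled: `Fermat.Agent.RT.Prod.FinalNum` -/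
section ZBRT_002_3
/-
K-machine, PROD (helper70): the numerics of a setup `KSetup` (`RT/Prod/FinalPlan.lean`):
`tχ² − δ² = 1`, `tχ + δ = ζ`, `δ ≠ 0`, `tχ ≡ 1`, `δ ≡ 0`, `s ≡ ±1`, `r ≡ 1`, `r ≠ 1`.
-/

set_option autoImplicit false
set_option linter.style.haveILetI false
set_option linter.unusedSectionVars false

namespace Fermat.Agent.RT.Prod

open IsLocalRing Fermat.Agent.TW Fermat.Agent.RT Fermat.Agent.RT.K1 ExtCitation Polynomial
open WeierstrassCurve WeierstrassCurve.Affine WeierstrassCurve.Affine.Point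

/-! ### Numerics -/

section Num

variable {O : Type*} [CommRing O] [IsDomain O] [IsLocalRing O]

/-- a `p`-th root of unity is `≡ 1` modulo the maximal ideal of a local ring of residue
characteristic `p` -/
theorem rtpf_zeta_sub_one_mem {p : ℕ} (hp : p.Prime) (hpO : (p : O) ∈ maximalIdeal O) {ζ : O}
    (hζ : ζ ^ p = 1) : ζ - 1 ∈ maximalIdeal O := by
  haveI : Fact p.Prime := ⟨hp⟩
  have hp0 : ((p : ℕ) : ResidueField O) = 0 := by
    rw [← map_natCast (residue O)]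
    exact (residue_eq_zero_iff _).mpr hpO
  haveI : CharP (ResidueField O) p := (CharP.charP_iff_prime_eq_zero hp).mpr hp0
  rw [← residue_eq_zero_iff]
  have h1 : (residue O ζ - 1) ^ p = 0 := by
    rw [sub_pow_char, one_pow, ← map_pow, hζ, map_one, sub_self]
  rw [map_sub, map_one]
  exact (pow_eq_zero_iff hp.ne_zero).mp h1

variable (half ζ : O) (p : ℕ)

theorem rtpf_num_sq (h2 : 2 * half = 1) (hζ : ζ * ζ ^ (p - 1) = 1) :
    (half * (ζ + ζ ^ (p - 1))) ^ 2 - (half * (ζ - ζ ^ (p - 1))) ^ 2 = 1 := by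
  have : (half * (ζ + ζ ^ (p - 1))) ^ 2 - (half * (ζ - ζ ^ (p - 1))) ^ 2 =
      (2 * half) ^ 2 * (ζ * ζ ^ (p - 1)) := by ring
  rw [this, h2, hζ]
  ring

theorem rtpf_num_add (h2 : 2 * half = 1) :
    half * (ζ + ζ ^ (p - 1)) + half * (ζ - ζ ^ (p - 1)) = ζ := by
  have : half * (ζ + ζ ^ (p - 1)) + half * (ζ - ζ ^ (p - 1)) = (2 * half) * ζ := by ring
  rw [this, h2, one_mul]

theorem rtpf_num_two_delta (h2 : 2 * half = 1) :
    2 * (half * (ζ - ζ ^ (p - 1))) = ζ - ζ ^ (p - 1) := by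
  have : 2 * (half * (ζ - ζ ^ (p - 1))) = (2 * half) * (ζ - ζ ^ (p - 1)) := by ring
  rw [this, h2, one_mul]

theorem rtpf_num_delta_ne {p : ℕ} (hp : p.Prime) (hp2 : p ≠ 2) {ζ : O}
    (hζ : IsPrimitiveRoot ζ p) : ζ - ζ ^ (p - 1) ≠ 0 := by
  intro h
  have h1 : ζ = ζ ^ (p - 1) := sub_eq_zero.mp h
  have h2 : ζ ^ 2 = 1 := by
    have : ζ * ζ ^ (p - 1) = 1 := by
      rw [← pow_succ', Nat.sub_add_cancel hp.one_le, hζ.pow_eq_one]
    rw [← h1] at this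
    rw [pow_two, this]
  have h3 := (hζ.pow_eq_one_iff_dvd 2).mp h2
  have h4 := (Nat.prime_dvd_prime_iff_eq hp Nat.prime_two).mp h3
  exact hp2 h4

theorem rtpf_exists_of_mem {lam : O} (hlam : maximalIdeal O = Ideal.span {lam}) {x y : O}
    (h : x - y ∈ maximalIdeal O) : ∃ c, x = y + lam * c := by
  rw [hlam, Ideal.mem_span_singleton'] at h
  obtain ⟨c, hc⟩ := h
  exact ⟨c, by rw [mul_comm, hc]; ring⟩

end Num

namespace KSetup

variable {P : FreyPackage} {N q : ℕ} (Y : KSetup P N q)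

theorem two_mul_half : 2 * Y.half = 1 := by
  have h := Y.h2.unit.mul_inv
  rw [IsUnit.unit_spec] at h
  exact h

theorem zeta_mul : Y.ζ * Y.ζ ^ (P.p - 1) = 1 := by
  rw [← pow_succ', Nat.sub_add_cancel P.pp.one_le, Y.hζ.pow_eq_one]

theorem zeta_sub_one_mem : Y.ζ - 1 ∈ maximalIdeal Y.O :=
  rtpf_zeta_sub_one_mem P.pp Y.hyp.hp𝒪 Y.hζ.pow_eq_one

theorem zeta_inv_sub_one_mem : Y.ζ ^ (P.p - 1) - 1 ∈ maximalIdeal Y.O :=
  rtpf_zeta_sub_one_mem P.pp Y.hyp.hp𝒪 (by rw [← pow_mul, mul_comm, pow_mul, Y.hζ.pow_eq_one,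
    one_pow])

theorem htδ (i : Y.ι) : Y.tχ i ^ 2 - Y.δ i ^ 2 = 1 :=
  rtpf_num_sq Y.half Y.ζ P.p Y.two_mul_half Y.zeta_mul

theorem tχ_add_δ (i : Y.ι) : Y.tχ i + Y.δ i = Y.ζ :=
  rtpf_num_add Y.half Y.ζ P.p Y.two_mul_half

theorem two_mul_δ_ne (i : Y.ι) : 2 * Y.δ i ≠ 0 := by
  show 2 * (Y.half * (Y.ζ - Y.ζ ^ (P.p - 1))) ≠ 0
  rw [rtpf_num_two_delta Y.half Y.ζ P.p Y.two_mul_half]
  exact rtpf_num_delta_ne P.pp Y.hyp.hp2 Y.hζ

theorem δ_ne (i : Y.ι) : Y.δ i ≠ 0 := fun h => Y.two_mul_δ_ne i (by rw [h, mul_zero])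

theorem tχ_sub_one_mem (i : Y.ι) : Y.tχ i - 1 ∈ maximalIdeal Y.O := by
  have e : Y.tχ i - 1 = Y.half * ((Y.ζ - 1) + (Y.ζ ^ (P.p - 1) - 1)) := by
    show Y.half * (Y.ζ + Y.ζ ^ (P.p - 1)) - 1 = _
    have := Y.two_mul_half
    linear_combination this
  rw [e]
  exact Ideal.mul_mem_left _ _ (Ideal.add_mem _ Y.zeta_sub_one_mem Y.zeta_inv_sub_one_mem)

theorem δ_mem (i : Y.ι) : Y.δ i ∈ maximalIdeal Y.O := by
  have e : Y.δ i = Y.half * ((Y.ζ - 1) - (Y.ζ ^ (P.p - 1) - 1)) := by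
    show Y.half * (Y.ζ - Y.ζ ^ (P.p - 1)) = _
    ring
  rw [e]
  exact Ideal.mul_mem_left _ _ (Ideal.sub_mem _ Y.zeta_sub_one_mem Y.zeta_inv_sub_one_mem)

theorem mem_T (i : Y.ι) : Y.r i ∈ Finset.univ.image Y.r :=
  Finset.mem_image_of_mem Y.r (Finset.mem_univ i)

theorem r_prime (i : Y.ι) : (Y.r i).Prime := (Y.hT (Y.r i) (Y.mem_T i)).1

theorem p_dvd (i : Y.ι) : P.p ∣ Y.r i - 1 := (Y.hT (Y.r i) (Y.mem_T i)).2.2.1

theorem r_ne_p (i : Y.ι) : Y.r i ≠ P.p := by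
  intro hi
  have h1 := Y.p_dvd i
  have h2 := (Y.r_prime i).two_le
  rw [hi] at h1 h2
  have h3 := Nat.le_of_dvd (by omega) h1
  omega

theorem card_T : (Finset.univ.image Y.r).card = Fintype.card Y.ι := by
  rw [Finset.card_image_of_injective _ Y.r_inj, Finset.card_univ]

theorem s_mem (i : Y.ι) : Y.s i - 1 ∈ maximalIdeal Y.O ∨ Y.s i + 1 ∈ maximalIdeal Y.O := by
  rcases Y.hs i with ⟨-, h⟩ | ⟨-, h⟩
  · exact Or.inl h
  · exact Or.inr h

theorem hs1 (i : Y.ι) : ∃ c, Y.s i = 1 + Y.lam * c ∨ Y.s i = -1 + Y.lam * c := by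
  rcases Y.s_mem i with h | h
  · obtain ⟨c, hc⟩ := rtpf_exists_of_mem Y.hlam h
    exact ⟨c, Or.inl hc⟩
  · have h' : Y.s i - (-1) ∈ maximalIdeal Y.O := by rwa [sub_neg_eq_add]
    obtain ⟨c, hc⟩ := rtpf_exists_of_mem Y.hlam h'
    exact ⟨c, Or.inr hc⟩

theorem hqq (i : Y.ι) : ∃ c, (Y.r i : Y.O) = 1 + Y.lam * c := by
  apply rtpf_exists_of_mem Y.hlam
  have e : (Y.r i : Y.O) - 1 = (Y.s i - 1) * (Y.s i + 1) := by
    rw [← Y.hs2 i]
    ring
  rw [e]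
  rcases Y.s_mem i with h | h
  · exact Ideal.mul_mem_right _ _ h
  · exact Ideal.mul_mem_left _ _ h

theorem hqq1 (i : Y.ι) : (Y.r i : Y.O) ≠ 1 := by
  intro h
  have h1 : (Y.r i : Y.O) = ((1 : ℕ) : Y.O) := by rw [h, Nat.cast_one]
  have h2 := Nat.cast_injective h1
  exact (Y.r_prime i).one_lt.ne' h2

end KSetup

end Fermat.Agent.RT.Prod


end ZBRT_002_3

/-! ### bundled: `Fermat.Agent.RT.Hecke.Plan` -/
section ZBRT_002_4

/-!
# K-machine, HECKE-asm (owner helper59): the contracts between the module side and the Galois side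

Target: `Prod.StmtHecke` (`RT/Prod/FinalPlan.lean`).  The chain is

  K5 + K6 + ES₁-inf-tw + K7F  ──(HK-CONC)──▶  `HkBase`, `HkLevel`        (module side, concrete)
  `HkLevel`  ──(HK-ABS-L : `StmtHkAbsL`)──▶  `HkOut`                      (K7-MAIN, K7-U2, HK-COMPAT)
  `HkBase`   ──(HK-ABS-B : `StmtHkAbsB`)──▶  `HkBaseOut`                  (K7-MAIN adic, BASE-AR)
  `HkOut`    ──(HECKE-PACK, helper70)────▶  `Prod.TWGal`                  (framing)

## The abstract situation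

`𝕋` is ANY commutative ring (in the application a subring of `HDAlg M`), acting on `J` (the
`p`-divisible torsion of the twisted Jacobian) with the twisted package `Rtk7bPkg p L J Tr`;
the Hecke MODULE enters only through two ring homomorphisms
`Φ1, Φχ : 𝕋 →+* M_d(S ⧸ 𝔪 ^ n)`: the matrices of the operators on the two specialisations
(`Δ_T → 1`, `Δ_T → ζ`) of the free module of level `Q`, pushed along `Λ → S ⧸ 𝔪 ^ n`
(`[δ_q]^e ↦ u_q`, `u_q − u_q⁻¹ = w_q`; HK-MAT + TW-unit).  The Hecke ring is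
`A₀ = 𝒪[(Φ1 x, Φχ x) : x ∈ 𝕋] ⊆ M_d(S ⧸ 𝔪 ^ n)²`.

* `faith`  : an `x ∈ 𝕋` which kills `J[p^{n₀}]` has `Φ1 x = 0 = Φχ x`  (HK-FAITH);
* `nil`    : every `Φ x − c` (some `c ∈ 𝒪`) is nilpotent, for both `Φ` with the SAME `c`
             (K5-LOC: then `A₀` is local with the residue field of `𝒪`);
* `resid`  : for `x = Tr ℓ` the constant `c` lifts `tr ρ̄(Frob_ℓ)`;
* `gen`    : `𝕋` is generated by elements with an EXACT representative `g ∈ G_ℚ`
             (`Tr ℓ ↔ Frob_ℓ`; `δ_c^e + δ_c^{−e} ↔ σ ∈ I_q`, K6), so that `A₀` is generated by traces;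
* `trT`, `trQ` : K6 at the trivial primes (`σ i` the LOC-gen generators) and at the Taylor–Wiles
             primes (`w_j² = (tr ρ(g_j))² − 4`);
* `cong`   : `Φ1 ≡ Φχ` modulo `λ`;
* `base`   : modulo `𝔞` the operator `Φ1 (Tr ℓ)` is the base matrix `a0 ℓ` of `T_ℓ`.
-/

set_option autoImplicit false

namespace Fermat.Agent.RT

open IsLocalRing Fermat.Agent.ES Fermat.Agent.S30 Fermat.Agent.W1 Fermat.Agent.TW
open Fermat.Agent.RT.Prod ExtCitation
open WeierstrassCurve WeierstrassCurve.Affine WeierstrassCurve.Affine.Point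

/-- `S ⧸ 𝔪 ^ n`, `S = 𝒪[[w_1, …, w_m]]`. -/
abbrev RthkSn (O : Type) [CommRing O] [IsLocalRing O] (m n : ℕ) : Type :=
  RttwS O m ⧸ maximalIdeal (RttwS O m) ^ n

section Level

variable {O : Type} [CommRing O] [IsLocalRing O]

/-- **The module side at level `n`** (abstract form; `n ≥ 1` in the application, the level `n`
of `Prod.TWGal` is obtained from the level `n + 1` here). -/
structure HkLevel (p : ℕ) [Fact p.Prime] (lam : O) (ρbar : ResidualGaloisRep (ResidueField O))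
    (Sbad : Finset ℕ) {ι : Type} (σ : ι → GQ) (tχ : ι → O) (m h d n : ℕ)
    (a0 : ℕ → Matrix (Fin d) (Fin d) O)
    (L : ℕ) {𝕋 : Type} [CommRing 𝕋] (J : Type) [AddCommGroup J] [Module 𝕋 J]
    [DistribMulAction GQ J] (Tr : ℕ → 𝕋)
    (Φ1 Φχ : 𝕋 →+* Matrix (Fin d) (Fin d) (RthkSn O m n)) : Prop where
  /-- the twisted Eichler–Shimura package -/
  pkg : Rtk7bPkg p L J Tr
  /-- the primes of the level are bad -/
  primes : ∀ q : ℕ, q.Prime → q ∉ Sbad → ¬ q ∣ L * p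
  /-- finite flat models dominating the `J[pᵏ]` -/
  model : ∀ k : ℕ, ∃ (X : Type) (_ : AddCommGroup X) (_ : Finite X) (act : GQ → X → X),
      (∀ s x x', act s (x + x') = act s x + act s x') ∧
      (∀ s s' x, act (s * s') x = act s (act s' x)) ∧
      HasFiniteFlatModel (GaloisRep.ratLocalizedAt p) X act ∧
      ∀ e : GQ →₀ ℤ, (∀ x : X, (e.sum fun g z => z • act g x) = 0) →
        ∀ x : J, p ^ k • x = 0 → (e.sum fun g z => z • g • x) = 0
  /-- `𝕋` is generated by elements with an exact representative -/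
  gen : Subring.closure {x : 𝕋 | ∃ g : GQ,
      ∀ k, Rtk7bApprox p J (fun n g => ((cycE p n g : ℕ) : 𝕋)) k g x} = ⊤
  /-- faithfulness -/
  faith : ∃ n₀ : ℕ, ∀ x : 𝕋, (∀ y : J, p ^ n₀ • y = 0 → x • y = 0) → Φ1 x = 0 ∧ Φχ x = 0
  /-- locality -/
  nil : ∀ x : 𝕋, ∃ c : O,
    IsNilpotent (Φ1 x - algebraMap O (Matrix (Fin d) (Fin d) (RthkSn O m n)) c) ∧
    IsNilpotent (Φχ x - algebraMap O (Matrix (Fin d) (Fin d) (RthkSn O m n)) c)
  /-- the residual Frobenius traces -/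
  resid : ∀ ℓ : ℕ, ℓ.Prime → ¬ ℓ ∣ L * p →
    ∀ P : ValuationSubring (AlgebraicClosure ℚ), P.LiesOverPrime ℓ →
      ∀ τ : GQ, P.IsFrobeniusAt τ ℓ → ∃ c : O,
        residue O c = LinearMap.trace (ResidueField O) ρbar.V (ρbar.ρ τ) ∧
        IsNilpotent (Φ1 (Tr ℓ) - algebraMap O (Matrix (Fin d) (Fin d) (RthkSn O m n)) c)
  /-- the two sides are congruent modulo `λ` -/
  cong : ∀ x : 𝕋,
    (Φ1 x).map (Ideal.Quotient.factor
        (le_sup_right : maximalIdeal (RttwS O m) ^ n ≤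
          rttwLam m lam ⊔ maximalIdeal (RttwS O m) ^ n)) =
      (Φχ x).map (Ideal.Quotient.factor
        (le_sup_right : maximalIdeal (RttwS O m) ^ n ≤
          rttwLam m lam ⊔ maximalIdeal (RttwS O m) ^ n))
  /-- K6 at the trivial primes -/
  trT : ∀ i, ∃ x : 𝕋, (∀ k, Rtk7bApprox p J (fun n g => ((cycE p n g : ℕ) : 𝕋)) k (σ i) x) ∧
    Φ1 x = 2 ∧ Φχ x = algebraMap O (Matrix (Fin d) (Fin d) (RthkSn O m n)) (2 * tχ i)
  /-- K6 at the Taylor–Wiles primes: `w_j² = (tr ρ(g_j))² − 4` -/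
  trQ : ∀ j : Fin m, (j : ℕ) < h → ∃ (g : GQ) (x : 𝕋),
    (∀ k, Rtk7bApprox p J (fun n g => ((cycE p n g : ℕ) : 𝕋)) k g x) ∧
    Φ1 x ^ 2 - 4 = algebraMap (RthkSn O m n) (Matrix (Fin d) (Fin d) (RthkSn O m n))
      (Ideal.Quotient.mk _ (MvPowerSeries.X j) ^ 2) ∧
    Φχ x ^ 2 - 4 = algebraMap (RthkSn O m n) (Matrix (Fin d) (Fin d) (RthkSn O m n))
      (Ideal.Quotient.mk _ (MvPowerSeries.X j) ^ 2)
  /-- the base: modulo `𝔞` the operator `Tr ℓ` is the base matrix `a0 ℓ` of `T_ℓ` -/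
  base : ∀ ℓ : ℕ, ℓ.Prime → ¬ ℓ ∣ L * p →
    (Φ1 (Tr ℓ)).map (Ideal.Quotient.factor
      (le_sup_right : maximalIdeal (RttwS O m) ^ n ≤
        rttwAug O m ⊔ maximalIdeal (RttwS O m) ^ n)) = rttwBaseRed m d n (a0 ℓ)

/-- **What the Galois side delivers at level `n`** (= the inputs (I1)–(I3) of HECKE-PACK):
a finite local `𝒪`-algebra `A₀` generated by traces, the representation over `A₀` with Wiles'
matrices, of type `twFlat`, with the annihilator property (flatness survives base change), and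
the two actions `φ1`, `φχ`. -/
structure HkOut (p : ℕ) [Fact p.Prime] (lam : O) (ρbar : ResidualGaloisRep (ResidueField O))
    (Smin QT : Finset ℕ) {ι : Type} (σ φ : ι → GQ) (tχ : ι → O) (m h d n : ℕ)
    {T0 : Type} [CommRing T0] [Algebra O T0] (j0 : T0 →ₐ[O] Matrix (Fin d) (Fin d) O)
    (Sig0 Phi0 : ι → Matrix (Fin 2) (Fin 2) T0)
    {A₀ : Type} [CommRing A₀] [IsLocalRing A₀] [Algebra O A₀]
    (ιA : ResidueField O →+* ResidueField A₀)
    (ρ : GaloisRepAdic A₀) (b : Module.Basis (Fin 2) A₀ ρ.V)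
    (φ1 φχ : A₀ →ₐ[O] Matrix (Fin d) (Fin d) (RthkSn O m n)) : Prop where
  finite : Finite A₀
  resAlg : Fermat.Agent.S53.IsResAlg O A₀
  hιA : ∀ x : O, ιA (residue O x) = residue A₀ (algebraMap O A₀ x)
  flat : twFlat O p Smin QT ρ
  ann : Rtk7fAnn p (fun g => LinearMap.toMatrix b b (ρ.ρ g))
  res : ρ.residual.IsEquiv (ρbar.baseChangeAlong ιA)
  gen : Algebra.adjoin O {y | ∃ g, y = LinearMap.trace A₀ ρ.V (ρ.ρ g)} = ⊤
  scalY1 : ∀ j : Fin m, (j : ℕ) < h → ∃ a : A₀,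
    φ1 a = algebraMap (RthkSn O m n) (Matrix (Fin d) (Fin d) (RthkSn O m n))
      (Ideal.Quotient.mk _ (MvPowerSeries.X j) ^ 2)
  scalYχ : ∀ j : Fin m, (j : ℕ) < h → ∃ a : A₀,
    φχ a = algebraMap (RthkSn O m n) (Matrix (Fin d) (Fin d) (RthkSn O m n))
      (Ideal.Quotient.mk _ (MvPowerSeries.X j) ^ 2)
  tr1 : ∀ i, φ1 (LinearMap.trace A₀ ρ.V (ρ.ρ (σ i))) = 2
  trχ : ∀ i, φχ (LinearMap.trace A₀ ρ.V (ρ.ρ (σ i))) = algebraMap O _ (2 * tχ i)
  cong : ∀ u : A₀,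
    (φ1 u).map (Ideal.Quotient.factor
        (le_sup_right : maximalIdeal (RttwS O m) ^ n ≤
          rttwLam m lam ⊔ maximalIdeal (RttwS O m) ^ n)) =
      (φχ u).map (Ideal.Quotient.factor
        (le_sup_right : maximalIdeal (RttwS O m) ^ n ≤
          rttwLam m lam ⊔ maximalIdeal (RttwS O m) ^ n))
  base_sig : ∀ i a c,
    (φ1 (LinearMap.toMatrix b b (ρ.ρ (σ i)) a c)).map (Ideal.Quotient.factor
        (le_sup_right : maximalIdeal (RttwS O m) ^ n ≤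
          rttwAug O m ⊔ maximalIdeal (RttwS O m) ^ n)) =
      rttwBaseRed m d n (j0 (Sig0 i a c))
  base_phi : ∀ i a c,
    (φ1 (LinearMap.toMatrix b b (ρ.ρ (φ i)) a c)).map (Ideal.Quotient.factor
        (le_sup_right : maximalIdeal (RttwS O m) ^ n ≤
          rttwAug O m ⊔ maximalIdeal (RttwS O m) ^ n)) =
      rttwBaseRed m d n (j0 (Phi0 i a c))
  base_T0 : ∀ u : A₀, ∃ t0 : T0,
    (φ1 u).map (Ideal.Quotient.factor
        (le_sup_right : maximalIdeal (RttwS O m) ^ n ≤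
          rttwAug O m ⊔ maximalIdeal (RttwS O m) ^ n)) =
      rttwBaseRed m d n (j0 t0)

end Level

/-- **HK-ABS-L**: the module side at level `n` gives the Galois side at level `n`.
[`stmtK7Main` with `B = ⊤`, `A₀ = 𝒪[(Φ1 x, Φχ x)] ⊆ M_d(S ⧸ 𝔪 ^ n)²` (finite; local by `nil`,
K5's `stmtLocRing`), `π x = (Φ1 x, Φχ x)`; `gen` + "`t g = π x` for exact representatives" ⇒
`A₀` is generated by traces; `stmtK7U2` at the primes of `Smin`; HK-COMPAT for `base_*`.] -/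
def StmtHkAbsL : Prop :=
  Cheb.WeakChebotarev →
  ∀ (p : ℕ) [Fact p.Prime], p ≠ 2 →
  ∀ (O : Type) [CommRing O] [IsDomain O] [IsDiscreteValuationRing O]
    [IsAdicComplete (maximalIdeal O) O] [Finite (ResidueField O)]
    (lam half : O), maximalIdeal O = Ideal.span {lam} → (p : O) ∈ maximalIdeal O →
    2 * half = 1 →
  ∀ (ρbar : ResidualGaloisRep (ResidueField O)), ρbar.IsAbsolutelyIrreducible →
    (GaloisRepAdic.ofResidualGaloisRep ρbar).DetIsCyclotomic p →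
  ∀ (Smin QT : Finset ℕ),
    (∀ q ∈ Smin, q.Prime → q ≠ p → ¬ p ∣ q ^ 2 - 1 ∧
      ∀ P : ValuationSubring (AlgebraicClosure ℚ), P.LiesOverPrime q →
        ∀ s ∈ P.inertiaSubgroupIn ℚ,
          LinearMap.charpoly (ρbar.ρ s) = (Polynomial.X - 1) ^ 2) →
  ∀ (ι : Type) [Fintype ι] (σ φ : ι → GQ) (tχ : ι → O) (m h d n : ℕ), 0 < d → 0 < n →
  ∀ (σ₀ τ₀ : GQ),
    rtk7Xi (fun g => LinearMap.trace (ResidueField O) ρbar.V (ρbar.ρ g)) complexConjugation
      (residue O half) σ₀ τ₀ ≠ 0 →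
  ∀ (T0 : Type) [CommRing T0] [IsLocalRing T0] [Algebra O T0] [Module.Finite O T0]
    (j0 : T0 →ₐ[O] Matrix (Fin d) (Fin d) O) (ρ0 : GaloisRepAdic T0)
    (b0 : Module.Basis (Fin 2) T0 ρ0.V) (u0 : T0),
    ρ0.DetIsCyclotomic p →
    (∀ g, LinearMap.toMatrix b0 b0 (ρ0.ρ g) =
      rtk7Mat (fun g => LinearMap.trace T0 ρ0.V (ρ0.ρ g)) complexConjugation
        (algebraMap O T0 half) σ₀ τ₀ u0 g) →
    u0 * rtk7Xi (fun g => LinearMap.trace T0 ρ0.V (ρ0.ρ g)) complexConjugation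
        (algebraMap O T0 half) σ₀ τ₀ = 1 →
  ∀ (S' : Finset ℕ) (a0 : ℕ → Matrix (Fin d) (Fin d) O),
    (∀ ℓ : ℕ, ℓ.Prime → ℓ ∉ S' →
      ∀ P : ValuationSubring (AlgebraicClosure ℚ), P.LiesOverPrime ℓ →
        ∀ τ : GQ, P.IsFrobeniusAt τ ℓ → j0 (LinearMap.trace T0 ρ0.V (ρ0.ρ τ)) = a0 ℓ) →
  ∀ (L : ℕ) (𝕋 : Type) [CommRing 𝕋] (J : Type) [AddCommGroup J] [Module 𝕋 J]
    [DistribMulAction GQ J] (Tr : ℕ → 𝕋)
    (Φ1 Φχ : 𝕋 →+* Matrix (Fin d) (Fin d) (RthkSn O m n)),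
    HkLevel p lam ρbar (Smin ∪ QT) σ tχ m h d n a0 L J Tr Φ1 Φχ →
    ∃ (A₀ : Type) (_ : CommRing A₀) (_ : IsLocalRing A₀) (_ : Algebra O A₀)
      (ιA : ResidueField O →+* ResidueField A₀) (ρ : GaloisRepAdic A₀)
      (b : Module.Basis (Fin 2) A₀ ρ.V)
      (φ1 φχ : A₀ →ₐ[O] Matrix (Fin d) (Fin d) (RthkSn O m n)),
      HkOut p lam ρbar Smin QT σ φ tχ m h d n j0
        (fun i => LinearMap.toMatrix b0 b0 (ρ0.ρ (σ i)))
        (fun i => LinearMap.toMatrix b0 b0 (ρ0.ρ (φ i))) ιA ρ b φ1 φχ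

section Base

variable {O : Type} [CommRing O] [IsLocalRing O]

/-- **The module side of the base** (level `N`, coefficients `𝒪`): the matrices
`Φ0 : 𝕋 →+* M_d(𝒪)` of the Hecke operators on the base module `M₀ ^ (2 ^ h)` in a fixed basis.
* `faith` : an `x` which kills `J[p^{n₀}]` has `Φ0 x ∈ pᵏ M_d(𝒪)`  (HK-FAITH, adic form);
* `nil`, `resid` : locality and the residual Frobenius traces (a power of `Φ0 x − c` has entries
  in `𝔪`);
* `occ` : BASE-BRIDGE (helper22): a Hecke polynomial outside `S'` which kills `S₂(Γ₀(N))` kills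
  the base module. -/
structure HkBase (p : ℕ) [Fact p.Prime] (ρbar : ResidualGaloisRep (ResidueField O)) (N : ℕ)
    [NeZero N] (S' : Finset ℕ) (d : ℕ) {𝕋 : Type} [CommRing 𝕋] (J : Type) [AddCommGroup J] [Module 𝕋 J]
    [DistribMulAction GQ J] (Tr : ℕ → 𝕋) (Φ0 : 𝕋 →+* Matrix (Fin d) (Fin d) O) : Prop where
  pkg : Rtk7bPkg p N J Tr
  primes : ∀ q : ℕ, q.Prime → q ∉ S' → ¬ q ∣ N * p
  model : ∀ k : ℕ, ∃ (X : Type) (_ : AddCommGroup X) (_ : Finite X) (act : GQ → X → X),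
      (∀ s x x', act s (x + x') = act s x + act s x') ∧
      (∀ s s' x, act (s * s') x = act s (act s' x)) ∧
      HasFiniteFlatModel (GaloisRep.ratLocalizedAt p) X act ∧
      ∀ e : GQ →₀ ℤ, (∀ x : X, (e.sum fun g z => z • act g x) = 0) →
        ∀ x : J, p ^ k • x = 0 → (e.sum fun g z => z • g • x) = 0
  faith : ∀ k : ℕ, ∃ n₀ : ℕ, ∀ x : 𝕋, (∀ y : J, p ^ n₀ • y = 0 → x • y = 0) →
    ∀ i j, Φ0 x i j ∈ Ideal.span {(p : O) ^ k}
  nil : ∀ x : 𝕋, ∃ (c : O) (e : ℕ), ∀ i j,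
    ((Φ0 x - algebraMap O (Matrix (Fin d) (Fin d) O) c) ^ e) i j ∈ maximalIdeal O
  resid : ∀ ℓ : ℕ, ℓ.Prime → ℓ ∉ S' →
    ∀ P : ValuationSubring (AlgebraicClosure ℚ), P.LiesOverPrime ℓ →
      ∀ τ : GQ, P.IsFrobeniusAt τ ℓ → ∃ (c : O) (e : ℕ),
        residue O c = LinearMap.trace (ResidueField O) ρbar.V (ρbar.ρ τ) ∧
        ∀ i j, ((Φ0 (Tr ℓ) - algebraMap O (Matrix (Fin d) (Fin d) O) c) ^ e) i j ∈ maximalIdeal O
  occ : ∀ t ∈ MvPolynomial.supported ℤ (Fermat.Agent.S31.outsideVars (↑S' : Set ℕ)),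
    CuspForm.heckeEvalForms N 2 t = 0 →
      Φ0 (MvPolynomial.aeval (fun ℓ : Nat.Primes => Tr (ℓ : ℕ)) t) = 0

end Base

/-- **What the Galois side delivers at the base**: the base fields of `Prod.HeckeData` together
with the Wiles form of `ρ0` in the basis `b0` for the base point `σ₀, τ₀` and the link
`j0 (a ℓ) = a0 ℓ` with the matrices of the module side. -/
structure HkBaseOut {P : FreyPackage} {N q : ℕ} [NeZero N] (Y : KSetup P N q) (d : ℕ)
    (σ₀ τ₀ : GQ) (S' : Finset ℕ) (a0 : ℕ → Matrix (Fin d) (Fin d) Y.O) : Type 1 where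
  /-- the base Hecke ring -/
  T0 : Type
  [instCommRingT0 : CommRing T0]
  [instIsLocalRingT0 : IsLocalRing T0]
  [instAlgebraT0 : Algebra Y.O T0]
  [instFiniteT0 : Module.Finite Y.O T0]
  j0 : T0 →ₐ[Y.O] Matrix (Fin d) (Fin d) Y.O
  hj0 : Function.Injective j0
  /-- the base representation -/
  ρ0 : GaloisRepAdic T0
  b0 : Module.Basis (Fin 2) T0 ρ0.V
  hdet0 : ρ0.DetIsCyclotomic P.p
  ι0 : ResidueField Y.O →+* ResidueField T0
  hres0 : ρ0.residual.IsEquiv (Y.ρbar.baseChangeAlong ι0)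
  habs0 : ρ0.residual.IsAbsolutelyIrreducible
  hpS' : P.p ∈ S'
  hNS' : ∀ ℓ : ℕ, ℓ.Prime → ℓ ∣ N → ℓ ∈ S'
  a : Nat.Primes → T0
  hocc : ∀ t ∈ MvPolynomial.supported ℤ (Fermat.Agent.S31.outsideVars (↑S' : Set ℕ)),
    CuspForm.heckeEvalForms N 2 t = 0 → MvPolynomial.aeval a t = 0
  hcong : ∀ ℓ : Nat.Primes, (ℓ : ℕ) ∉ S' → Y.W.IsGoodPrimeFor ℓ →
    a ℓ - ((Y.W.apOfModel ℓ : ℤ) : T0) ∈ maximalIdeal T0
  hfrob : ∀ ℓ : Nat.Primes, (ℓ : ℕ) ∉ S' →
    ∀ 𝔄 : ValuationSubring (AlgebraicClosure ℚ), 𝔄.LiesOverPrime ℓ →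
      ∀ τ : RtpaG, 𝔄.IsFrobeniusAt τ ℓ →
        LinearMap.charpoly (ρ0.ρ τ) =
          Polynomial.X ^ 2 - Polynomial.C (a ℓ) * Polynomial.X
            + Polynomial.C (((ℓ : ℕ) : T0))
  /-- the Wiles form -/
  u0 : T0
  hu0 : u0 * rtk7Xi (fun g => LinearMap.trace T0 ρ0.V (ρ0.ρ g)) complexConjugation
    (algebraMap Y.O T0 Y.half) σ₀ τ₀ = 1
  hmat : ∀ g, LinearMap.toMatrix b0 b0 (ρ0.ρ g) =
    rtk7Mat (fun g => LinearMap.trace T0 ρ0.V (ρ0.ρ g)) complexConjugation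
      (algebraMap Y.O T0 Y.half) σ₀ τ₀ u0 g
  /-- the link with the module side -/
  ha0 : ∀ ℓ : Nat.Primes, (ℓ : ℕ) ∉ S' → j0 (a ℓ) = a0 ℓ

attribute [instance] HkBaseOut.instCommRingT0 HkBaseOut.instIsLocalRingT0
  HkBaseOut.instAlgebraT0 HkBaseOut.instFiniteT0

/-- **HK-ABS-B**: the module side of the base gives the Galois side of the base.
[`T0 = 𝒪[Φ0 x] ⊆ M_d(𝒪)` (BASE-AR: commutative, finite, local, `𝔪`-adically = `p`-adically
complete; faith in the form `Rtk7bGood`), `stmtK7MainAdic` with `B = ⊤`, `Y.hbar` for `hcong`.] -/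
def StmtHkAbsB : Prop :=
  Cheb.WeakChebotarev →
  ∀ (P : FreyPackage) (N q : ℕ) [NeZero N] (Y : KSetup P N q) (d : ℕ), 0 < d →
  ∀ (σ₀ τ₀ : GQ),
    rtk7Xi (fun g => LinearMap.trace (ResidueField Y.O) Y.ρbar.V (Y.ρbar.ρ g))
      complexConjugation (residue Y.O Y.half) σ₀ τ₀ ≠ 0 →
  ∀ (S' : Finset ℕ), P.p ∈ S' → (∀ ℓ : ℕ, ℓ.Prime → ℓ ∣ N → ℓ ∈ S') →
  ∀ (𝕋 : Type) [CommRing 𝕋] (J : Type) [AddCommGroup J] [Module 𝕋 J]
    [DistribMulAction GQ J] (Tr : ℕ → 𝕋) (Φ0 : 𝕋 →+* Matrix (Fin d) (Fin d) Y.O),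
    haveI : Fact P.p.Prime := ⟨P.pp⟩
    HkBase P.p Y.ρbar N S' d J Tr Φ0 →
    Nonempty (HkBaseOut Y d σ₀ τ₀ S' (fun ℓ => Φ0 (Tr ℓ)))

/-- **HECKE-final** (assembly, helper59): if over every setup `Y` and for every `h` the module
side delivers a base and, for every Taylor–Wiles family of level `n`, a level datum at level
`n + 1` with the same `d` and the same base matrices `a0`, then `Prod.StmtHecke`.
[`StmtHkAbsB`, `StmtHkAbsL`, HECKE-PACK (helper70), HK-RES (helper97).] -/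
def StmtHkModSide : Prop :=
  ∀ (P : FreyPackage) (N q : ℕ) [NeZero N], P.IsConductorLevel N → ¬ P.p ∣ N → q.Prime →
    q ≠ 2 → q ∣ N → GaloisRepIsIrreducible (K := AlgebraicClosure ℚ) ℚ P.freyCurve P.p →
    P.ModularRepOfLevel N →
    (∀ r : ℕ, r.Prime → r ≠ 2 → r ∣ N → Fermat.Agent.RIB.IsTrivialPrime P r) →
    ∀ (Y : KSetup P N q) (h : ℕ),
      haveI : Fact P.p.Prime := ⟨P.pp⟩
      ∃ (d : ℕ) (_ : 0 < d) (S' : Finset ℕ) (_ : P.p ∈ S')
        (_ : ∀ ℓ : ℕ, ℓ.Prime → ℓ ∣ N → ℓ ∈ S')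
        (𝕋₀ : Type) (_ : CommRing 𝕋₀) (J₀ : Type) (_ : AddCommGroup J₀) (_ : Module 𝕋₀ J₀)
        (_ : DistribMulAction GQ J₀) (Tr₀ : ℕ → 𝕋₀)
        (Φ0 : 𝕋₀ →+* Matrix (Fin d) (Fin d) Y.O),
        HkBase P.p Y.ρbar N S' d J₀ Tr₀ Φ0 ∧
        ∀ (n : ℕ) (qv : Fin h → ℕ),
          IsTWFamily P.p Y.ρbar (Y.Smin ∪ Finset.univ.image Y.r) n h qv →
          ∃ (L : ℕ) (𝕋 : Type) (_ : CommRing 𝕋) (J : Type) (_ : AddCommGroup J)
            (_ : Module 𝕋 J) (_ : DistribMulAction GQ J) (Tr : ℕ → 𝕋)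
            (Φ1 Φχ : 𝕋 →+* Matrix (Fin d) (Fin d) (RthkSn Y.O (Y.m h) (n + 1))),
            HkLevel P.p Y.lam Y.ρbar
              (Y.Smin ∪ (Finset.univ.image qv ∪ Finset.univ.image Y.r)) Y.σ Y.tχ (Y.m h) h d
              (n + 1) (fun ℓ => Φ0 (Tr₀ ℓ)) L J Tr Φ1 Φχ

end Fermat.Agent.RT


end ZBRT_002_4

/-! ### bundled: `Fermat.Agent.RT.Hecke.PlanFinal` -/
section ZBRT_002_5

/-!
# K-machine, HECKE-asm: the two remaining contracts of the final assembly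

* `StmtHkPack` (HECKE-PACK, helper70): `HkOut` at level `n` (actions on `S ⧸ 𝔪 ^ n`,
  `m = h + 4 |ι|` variables) gives `Prod.TWGal` at level `n`: framing ring
  `A = A₀[z]/(z)^(n+1)`, `β_r = 1 + Z_r`, base change of `ρ` (flat by `rtk7f_ann_map`),
  `π1, πχ` = the extensions of `φ1, φχ` with `z ↦ w`.
* `StmtHkRes` (HK-RES, helper97): the residual inputs from a setup: a base point `σ₀, τ₀` with
  `ξ(σ₀, τ₀) ≠ 0` and unipotency of `ρ̄` on the inertia groups at `2`.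
-/

set_option autoImplicit false

namespace Fermat.Agent.RT

open IsLocalRing Fermat.Agent.ES Fermat.Agent.S30 Fermat.Agent.W1 Fermat.Agent.TW
open Fermat.Agent.RT.Prod ExtCitation
open WeierstrassCurve WeierstrassCurve.Affine WeierstrassCurve.Affine.Point

/-- **HECKE-PACK.** -/
def StmtHkPack : Prop :=
  ∀ (P : FreyPackage) (N q : ℕ) [NeZero N] (Y : KSetup P N q) (h d n : ℕ) (Q : Finset ℕ)
    (T0 : Type) [CommRing T0] [Algebra Y.O T0]
    (j0 : T0 →ₐ[Y.O] Matrix (Fin d) (Fin d) Y.O)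
    (Sig0 Phi0 : Y.ι → Matrix (Fin 2) (Fin 2) T0)
    (A₀ : Type) [CommRing A₀] [IsLocalRing A₀] [Algebra Y.O A₀]
    (ιA : ResidueField Y.O →+* ResidueField A₀)
    (ρ : GaloisRepAdic A₀) (b : Module.Basis (Fin 2) A₀ ρ.V)
    (φ1 φχ : A₀ →ₐ[Y.O] Matrix (Fin d) (Fin d) (RthkSn Y.O (Y.m h) n)),
    haveI : Fact P.p.Prime := ⟨P.pp⟩
    HkOut P.p Y.lam Y.ρbar Y.Smin (Q ∪ Finset.univ.image Y.r) Y.σ Y.φ Y.tχ (Y.m h) h d n j0
      Sig0 Phi0 ιA ρ b φ1 φχ →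
    ∃ (A : Type) (_ : CommRing A) (_ : IsLocalRing A) (_ : Algebra Y.O A)
      (ιA' : ResidueField Y.O →+* ResidueField A) (ρ' : GaloisRepAdic A)
      (b' : Module.Basis (Fin 2) A ρ'.V) (β βi : ℕ → Matrix (Fin 2) (Fin 2) A)
      (π1 πχ : A →ₐ[Y.O] Matrix (Fin d) (Fin d)
        (RttwS Y.O (Y.m h) ⧸ maximalIdeal (RttwS Y.O (Y.m h)) ^ n)),
      TWGal P.p Y.ρbar Y.Smin Q Y.r Y.σ Y.φ Y.tχ Y.lam (Y.m h) d j0 Sig0 Phi0 n
        (rttwEvenQ Y.O (Y.m h) h n) ιA' ρ' b' β βi π1 πχ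

/-- **HK-RES.** -/
def StmtHkRes : Prop :=
  ∀ (P : FreyPackage) (N q : ℕ) [NeZero N] (Y : KSetup P N q),
    (∃ σ₀ τ₀ : GQ,
      rtk7Xi (fun g => LinearMap.trace (ResidueField Y.O) Y.ρbar.V (Y.ρbar.ρ g))
        complexConjugation (residue Y.O Y.half) σ₀ τ₀ ≠ 0) ∧
    ∀ A : ValuationSubring (AlgebraicClosure ℚ), A.LiesOverPrime 2 →
      ∀ s ∈ A.inertiaSubgroupIn ℚ,
        LinearMap.charpoly (Y.ρbar.ρ s) = (Polynomial.X - 1) ^ 2

end Fermat.Agent.RT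


end ZBRT_002_5

/-! ### bundled: `Fermat.Agent.RT.Hecke.Down` -/
section ZBRT_002_6

/-!
# K-machine, HECKE-asm: from level `n + 1` to level `n`

`HkOut` at level `n'` gives `HkOut` at every level `n ≤ n'` (compose `φ1`, `φχ` with the
projection `S ⧸ 𝔪 ^ n' → S ⧸ 𝔪 ^ n`): `rthk_d_out`.  (The Hecke ring of level `n + 1` is local
also for `n = 0`; `Prod.TWGal` wants the actions on `S ⧸ 𝔪 ^ n`.)
-/

set_option autoImplicit false

namespace Fermat.Agent.RT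

open IsLocalRing Fermat.Agent.ES Fermat.Agent.TW Fermat.Agent.RT.Prod

section Down

variable {O : Type} [CommRing O] [IsLocalRing O] (m : ℕ) {n n' : ℕ} (hn : n ≤ n')

/-- the projection `S ⧸ 𝔪 ^ n' → S ⧸ 𝔪 ^ n` -/
noncomputable def rthkdProj : RthkSn O m n' →ₐ[O] RthkSn O m n :=
  Ideal.Quotient.factorₐ O (Ideal.pow_le_pow_right hn)

/-- the projection on matrices -/
noncomputable def rthkdProjM (d : ℕ) :
    Matrix (Fin d) (Fin d) (RthkSn O m n') →ₐ[O] Matrix (Fin d) (Fin d) (RthkSn O m n) :=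
  (rthkdProj (O := O) m hn).mapMatrix

theorem rthkdProj_mk (f : RttwS O m) :
    rthkdProj (O := O) m hn (Ideal.Quotient.mk _ f) = Ideal.Quotient.mk _ f := rfl

theorem rthkdProjM_apply (d : ℕ) (M : Matrix (Fin d) (Fin d) (RthkSn O m n')) (i j : Fin d) :
    rthkdProjM (O := O) m hn d M i j = rthkdProj (O := O) m hn (M i j) := rfl

theorem rthkdProjM_scalar (d : ℕ) (c : RthkSn O m n') :
    rthkdProjM (O := O) m hn d (algebraMap (RthkSn O m n') _ c)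
      = algebraMap (RthkSn O m n) (Matrix (Fin d) (Fin d) (RthkSn O m n))
          (rthkdProj (O := O) m hn c) := by
  ext i j
  rw [rthkdProjM_apply, Matrix.algebraMap_matrix_apply, Matrix.algebraMap_matrix_apply]
  split_ifs
  · rfl
  · exact map_zero _

/-- compatibility of the projections with a further quotient -/
theorem rthkd_factor (I : Ideal (RttwS O m)) (d : ℕ)
    (M : Matrix (Fin d) (Fin d) (RthkSn O m n')) :
    (rthkdProjM (O := O) m hn d M).map (Ideal.Quotient.factor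
        (le_sup_right : maximalIdeal (RttwS O m) ^ n ≤ I ⊔ maximalIdeal (RttwS O m) ^ n))
      = (M.map (Ideal.Quotient.factor
        (le_sup_right : maximalIdeal (RttwS O m) ^ n' ≤ I ⊔ maximalIdeal (RttwS O m) ^ n'))).map
          (Ideal.Quotient.factor
            (sup_le_sup_left (Ideal.pow_le_pow_right hn) I :
              I ⊔ maximalIdeal (RttwS O m) ^ n' ≤ I ⊔ maximalIdeal (RttwS O m) ^ n)) := by
  ext i j
  simp only [Matrix.map_apply, rthkdProjM_apply]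
  obtain ⟨f, hf⟩ := Ideal.Quotient.mk_surjective (M i j)
  rw [← hf]
  rfl

theorem rthkd_baseRed (d : ℕ) (t : Matrix (Fin d) (Fin d) O) :
    (rttwBaseRed m d n' t).map (Ideal.Quotient.factor
        (sup_le_sup_left (Ideal.pow_le_pow_right hn) (rttwAug O m) :
          rttwAug O m ⊔ maximalIdeal (RttwS O m) ^ n' ≤
            rttwAug O m ⊔ maximalIdeal (RttwS O m) ^ n))
      = rttwBaseRed m d n t := by
  ext i j
  simp only [Matrix.map_apply, rttwBaseRed]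
  rfl

end Down

section Out

variable {O : Type} [CommRing O] [IsLocalRing O]

/-- **`HkOut` at level `n'` gives `HkOut` at level `n ≤ n'`.** -/
theorem rthk_d_out {p : ℕ} [Fact p.Prime] {lam : O}
    {ρbar : ResidualGaloisRep (ResidueField O)} {Smin QT : Finset ℕ} {ι : Type}
    {σ φ : ι → GQ} {tχ : ι → O} {m h d n n' : ℕ} (hn : n ≤ n')
    {T0 : Type} [CommRing T0] [Algebra O T0] {j0 : T0 →ₐ[O] Matrix (Fin d) (Fin d) O}
    {Sig0 Phi0 : ι → Matrix (Fin 2) (Fin 2) T0}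
    {A₀ : Type} [CommRing A₀] [IsLocalRing A₀] [Algebra O A₀]
    {ιA : ResidueField O →+* ResidueField A₀}
    {ρ : GaloisRepAdic A₀} {b : Module.Basis (Fin 2) A₀ ρ.V}
    {φ1 φχ : A₀ →ₐ[O] Matrix (Fin d) (Fin d) (RthkSn O m n')}
    (H : HkOut p lam ρbar Smin QT σ φ tχ m h d n' j0 Sig0 Phi0 ιA ρ b φ1 φχ) :
    HkOut p lam ρbar Smin QT σ φ tχ m h d n j0 Sig0 Phi0 ιA ρ b
      ((rthkdProjM (O := O) m hn d).comp φ1) ((rthkdProjM (O := O) m hn d).comp φχ) where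
  finite := H.finite
  resAlg := H.resAlg
  hιA := H.hιA
  flat := H.flat
  ann := H.ann
  res := H.res
  gen := H.gen
  scalY1 j hj := by
    obtain ⟨a, ha⟩ := H.scalY1 j hj
    refine ⟨a, ?_⟩
    rw [AlgHom.comp_apply, ha, rthkdProjM_scalar, map_pow, rthkdProj_mk]
  scalYχ j hj := by
    obtain ⟨a, ha⟩ := H.scalYχ j hj
    refine ⟨a, ?_⟩
    rw [AlgHom.comp_apply, ha, rthkdProjM_scalar, map_pow, rthkdProj_mk]
  tr1 i := by
    rw [AlgHom.comp_apply, H.tr1 i, map_ofNat]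
  trχ i := by
    rw [AlgHom.comp_apply, H.trχ i, AlgHom.commutes]
  cong u := by
    rw [AlgHom.comp_apply, AlgHom.comp_apply, rthkd_factor, rthkd_factor, H.cong u]
  base_sig i a c := by
    rw [AlgHom.comp_apply, rthkd_factor, H.base_sig i a c, rthkd_baseRed m hn]
  base_phi i a c := by
    rw [AlgHom.comp_apply, rthkd_factor, H.base_phi i a c, rthkd_baseRed m hn]
  base_T0 u := by
    obtain ⟨t0, ht0⟩ := H.base_T0 u
    refine ⟨t0, ?_⟩
    rw [AlgHom.comp_apply, rthkd_factor, ht0, rthkd_baseRed m hn]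

end Out

end Fermat.Agent.RT


end ZBRT_002_6

/-! ### bundled: `Fermat.Agent.RT.Hecke.Final` -/
section ZBRT_002_7

/-!
# K-machine, HECKE-asm: the final assembly

`rthk_final : WeakChebotarev → StmtHkAbsB → StmtHkAbsL → StmtHkPack → StmtHkRes →
  StmtHkModSide → Prod.StmtHecke`.
-/

set_option autoImplicit false

namespace Fermat.Agent.RT

open IsLocalRing Fermat.Agent.ES Fermat.Agent.S30 Fermat.Agent.W1 Fermat.Agent.TW
open Fermat.Agent.RT.Prod ExtCitation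
open WeierstrassCurve WeierstrassCurve.Affine WeierstrassCurve.Affine.Point

/-- `2 * (1/2) = 1` in a setup -/
theorem rthk_f_half {P : FreyPackage} {N q : ℕ} (Y : KSetup P N q) : 2 * Y.half = 1 := by
  have h := Y.h2.unit.mul_inv
  rw [IsUnit.unit_spec] at h
  exact h

/-- **HECKE-final.** -/
theorem rthk_final (hcheb : Cheb.WeakChebotarev) (hB : StmtHkAbsB) (hL : StmtHkAbsL)
    (hPack : StmtHkPack) (hRes : StmtHkRes) (hMod : StmtHkModSide) : Prod.StmtHecke := by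
  intro P N q _ hN hpN hq hq2 hqN hirr hmod htriv Y h
  have : Fact P.p.Prime := ⟨P.pp⟩
  obtain ⟨⟨σ₀, τ₀, hξ⟩, hunip⟩ := hRes P N q Y
  obtain ⟨d, hd, S', hpS', hNS', 𝕋₀, i1, J₀, i2, i3, i4, Tr₀, Φ0, hbase, hlev⟩ :=
    hMod P N q hN hpN hq hq2 hqN hirr hmod htriv Y h
  obtain ⟨B⟩ := hB hcheb P N q Y d hd σ₀ τ₀ hξ S' hpS' hNS' 𝕋₀ J₀ Tr₀ Φ0 hbase
  refine ⟨{ d := d, hd := hd, T0 := B.T0, j0 := B.j0, hj0 := B.hj0, ρ0 := B.ρ0, b0 := B.b0,
            hdet0 := B.hdet0, ι0 := B.ι0, hres0 := B.hres0, habs0 := B.habs0, S' := S',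
            hpS' := B.hpS', hNS' := B.hNS', a := B.a, hocc := B.hocc, hcong := B.hcong,
            hfrob := B.hfrob, level := ?_ }⟩
  intro n qv hqv
  obtain ⟨L, 𝕋, j1, J, j2, j3, j4, Tr, Φ1, Φχ, hlevel⟩ := hlev n qv hqv
  -- the hypotheses of HK-ABS-L
  have hunip' : ∀ r ∈ Y.Smin, r.Prime → r ≠ P.p → ¬ P.p ∣ r ^ 2 - 1 ∧
      ∀ A : ValuationSubring (AlgebraicClosure ℚ), A.LiesOverPrime r →
        ∀ s ∈ A.inertiaSubgroupIn ℚ,
          LinearMap.charpoly (Y.ρbar.ρ s) = (Polynomial.X - 1) ^ 2 := by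
    intro r hr _ hrp
    rw [Y.hSmin, Finset.mem_insert, Finset.mem_singleton] at hr
    rcases hr with rfl | rfl
    · refine ⟨fun hdvd => ?_, hunip⟩
      have h5 := P.hp5
      have := Nat.le_of_dvd (by norm_num) hdvd
      omega
    · exact absurd rfl hrp
  have htrace : ∀ ℓ : ℕ, ℓ.Prime → ℓ ∉ S' →
      ∀ A : ValuationSubring (AlgebraicClosure ℚ), A.LiesOverPrime ℓ →
        ∀ τ : GQ, A.IsFrobeniusAt τ ℓ →
          B.j0 (LinearMap.trace B.T0 B.ρ0.V (B.ρ0.ρ τ)) = Φ0 (Tr₀ ℓ) := by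
    intro ℓ hℓ hℓS A hA τ hτ
    have h1 := B.hfrob ⟨ℓ, hℓ⟩ hℓS A hA τ hτ
    rw [Fermat.Agent.S31.trace_of_charpoly B.ρ0.finrank_eq (B.ρ0.ρ τ) _ _ h1]
    exact B.ha0 ⟨ℓ, hℓ⟩ hℓS
  obtain ⟨A₀, k1, k2, k3, ιA, ρ, b, φ1, φχ, hout⟩ :=
    hL hcheb P.p Y.hyp.hp2 Y.O Y.lam Y.half Y.hlam Y.hyp.hp𝒪 (rthk_f_half Y) Y.ρbar
      Y.hyp.habs Y.hyp.hdet Y.Smin (Finset.univ.image qv ∪ Finset.univ.image Y.r) hunip'
      Y.ι Y.σ Y.φ Y.tχ (Y.m h) h d (n + 1) hd (Nat.succ_pos n) σ₀ τ₀ hξ B.T0 B.j0 B.ρ0 B.b0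
      B.u0 B.hdet0 B.hmat B.hu0 S' (fun ℓ => Φ0 (Tr₀ ℓ)) htrace L 𝕋 J Tr Φ1 Φχ hlevel
  have hdown := rthk_d_out (n := n) (Nat.le_succ n) hout
  exact hPack P N q Y h d n (Finset.univ.image qv) B.T0 B.j0 _ _ A₀ ιA ρ b _ _ hdown

end Fermat.Agent.RT


end ZBRT_002_7

/-! ### bundled: `Fermat.Agent.RT.Hecke.AbsLPlan` -/
section ZBRT_002_8

/-!
# K-machine, HECKE-asm, piece HK-ABS-L (helper46): sub-pieces (interface)

`StmtHkAbsL` (`RT/Hecke/Plan.lean`) is assembled in `RT/Hecke/AbsL.lean` from `stmtK7Main`,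
`stmtK7U2`, HK-COMPAT (`RT/Hecke/Compat.lean`), the ring `A₀ = 𝒪[(Φ1 x, Φχ x)]`
(`RT/Hecke/AbsLRing.lean`) and the following small independent pieces.

* `StmtHkLRes`   : the base change `ρbar.baseChangeAlong ι` of a residual representation along a
  homomorphism of fields: irreducible if `ρbar` is absolutely irreducible; trace, determinant
  and characteristic polynomial are the images under `ι`.
* `StmtHkLTrCont` : the trace of a `GaloisRepAdic A` is left-invariant modulo `𝔪 ^ k` under an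
  open subgroup.
* `StmtHkLPowLe` : `T0` local, finite over the discrete valuation ring `𝒪` with uniformizer
  `lam`: for every `n` some power of `𝔪_{T0}` lies in `lamⁿ T0`.
* `StmtHkLNilp`  : the maximal ideal of a finite local ring is nilpotent.
-/

set_option autoImplicit false

namespace Fermat.Agent.RT

open IsLocalRing Fermat.Agent.ES

/-- **HK-L-RES**: base change of a residual representation along a homomorphism of fields. -/
def StmtHkLRes : Prop :=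
  ∀ (k K : Type) [Field k] [Field K] (ι : k →+* K) (ρbar : ResidualGaloisRep k),
    (ρbar.IsAbsolutelyIrreducible → (ρbar.baseChangeAlong ι).IsIrreducible) ∧
    (∀ g : GQ, LinearMap.trace K (ρbar.baseChangeAlong ι).V ((ρbar.baseChangeAlong ι).ρ g)
      = ι (LinearMap.trace k ρbar.V (ρbar.ρ g))) ∧
    (∀ g : GQ, LinearMap.det ((ρbar.baseChangeAlong ι).ρ g) = ι (LinearMap.det (ρbar.ρ g))) ∧
    (∀ g : GQ, LinearMap.charpoly ((ρbar.baseChangeAlong ι).ρ g)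
      = (LinearMap.charpoly (ρbar.ρ g)).map ι)

/-- **HK-L-TRCONT**: the trace of an adic representation is left-invariant modulo `𝔪 ^ k` under
an open subgroup. -/
def StmtHkLTrCont : Prop :=
  ∀ (A : Type) [CommRing A] [IsLocalRing A] (ρ : GaloisRepAdic A) (k : ℕ),
    ∃ E : IntermediateField ℚ (AlgebraicClosure ℚ), FiniteDimensional ℚ E ∧
      ∀ σ : GQ, (∀ a ∈ E, σ a = a) → ∀ x : GQ,
        LinearMap.trace A ρ.V (ρ.ρ (σ * x)) - LinearMap.trace A ρ.V (ρ.ρ x)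
          ∈ maximalIdeal A ^ k

/-- **HK-L-POWLE**: `T0` local and finite over a discrete valuation ring `𝒪`: for every `n` some
power of the maximal ideal of `T0` lies in `lamⁿ T0`. -/
def StmtHkLPowLe : Prop :=
  ∀ (O : Type) [CommRing O] [IsDomain O] [IsDiscreteValuationRing O] (lam : O),
    maximalIdeal O = Ideal.span {lam} →
  ∀ (T0 : Type) [CommRing T0] [IsLocalRing T0] [Algebra O T0] [Module.Finite O T0] (n : ℕ),
    ∃ k : ℕ, maximalIdeal T0 ^ k ≤ Ideal.span {algebraMap O T0 (lam ^ n)}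

/-- **HK-L-NILP**: the maximal ideal of a finite local ring is nilpotent. -/
def StmtHkLNilp : Prop :=
  ∀ (A : Type) [CommRing A] [IsLocalRing A] [Finite A], ∃ k : ℕ, maximalIdeal A ^ k = ⊥

end Fermat.Agent.RT


end ZBRT_002_8

/-! ### bundled: `Fermat.Agent.RT.Hecke.AbsLSmall` -/
section ZBRT_002_9

/-!
# K-machine, HECKE-asm, HK-ABS-L small pieces (helper15)

* `stmtHkLNilp`   : the maximal ideal of a finite local ring is nilpotent (Artinian);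
* `stmtHkLPowLe`  : `T0` local, finite over a discrete valuation ring `𝒪`: a power of `𝔪_{T0}` lies
  in `lamⁿ T0` (every prime over `lam` is maximal by integrality, `𝔪_{T0}` is finitely
  generated);
* `stmtHkLTrCont` : the trace of an adic representation is left-invariant modulo `𝔪 ^ k` under
  an open subgroup (`ρ(σ) − 1` maps `V` into `𝔪ᵏ V`).
-/

set_option autoImplicit false
set_option linter.style.haveILetI false

namespace Fermat.Agent.RT

open IsLocalRing Fermat.Agent.ES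

/-- **HK-L-NILP.** -/
theorem stmtHkLNilp : StmtHkLNilp := by
  intro A _ _ _
  have h := IsArtinianRing.isNilpotent_jacobson_bot (R := A)
  rw [IsLocalRing.jacobson_eq_maximalIdeal (⊥ : Ideal A) bot_ne_top] at h
  obtain ⟨k, hk⟩ := h
  exact ⟨k, hk⟩

/-- **HK-L-POWLE.** -/
theorem stmtHkLPowLe : StmtHkLPowLe := by
  intro O _ _ _ lam hlam T0 _ _ _ _ n
  have hlam0 : lam ≠ 0 := by
    rintro rfl
    apply IsDiscreteValuationRing.not_a_field O
    rw [hlam]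
    simp
  haveI : IsNoetherianRing T0 :=
    isNoetherian_of_tower O (isNoetherian_of_isNoetherianRing_of_finite O T0)
  haveI : Algebra.IsIntegral O T0 := Algebra.IsIntegral.of_finite O T0
  refine Ideal.exists_pow_le_of_le_radical_of_fg ?_ (IsNoetherian.noetherian _)
  rw [Ideal.radical_eq_sInf]
  refine le_sInf ?_
  rintro P ⟨hP, hPprime⟩
  haveI := hPprime
  -- `lam ∈ P ∩ 𝒪`
  have hlamP : algebraMap O T0 lam ∈ P := by
    rcases Nat.eq_zero_or_pos n with rfl | hn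
    · exfalso
      apply hPprime.ne_top
      rw [Ideal.eq_top_iff_one]
      apply hP
      rw [pow_zero, map_one]
      exact Ideal.subset_span rfl
    · have h1 : algebraMap O T0 (lam ^ n) ∈ P := hP (Ideal.subset_span rfl)
      rw [map_pow] at h1
      exact hPprime.mem_of_pow_mem n h1
  -- the contraction of `P` is the maximal ideal of `𝒪`
  have hcomap : (Ideal.comap (algebraMap O T0) P).IsMaximal := by
    have hprime : (Ideal.comap (algebraMap O T0) P).IsPrime := Ideal.comap_isPrime _ P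
    refine hprime.isMaximal ?_
    intro hbot
    have : lam ∈ Ideal.comap (algebraMap O T0) P := hlamP
    rw [hbot] at this
    exact hlam0 this
  have hmax : P.IsMaximal := Ideal.isMaximal_of_isIntegral_of_isMaximal_comap P hcomap
  exact (IsLocalRing.eq_maximalIdeal hmax).ge

/-- a linear form maps `I V` into `I` -/
theorem rthkls_form_mem {A V : Type*} [CommRing A] [AddCommGroup V] [Module A V] (I : Ideal A)
    (f : V →ₗ[A] A) {v : V} (hv : v ∈ I • (⊤ : Submodule A V)) : f v ∈ I := by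
  refine Submodule.smul_induction_on hv (fun r hr w _ => ?_) (fun x y hx hy => ?_)
  · rw [map_smul, smul_eq_mul]
    exact I.mul_mem_right _ hr
  · rw [map_add]
    exact I.add_mem hx hy

/-- the trace of an endomorphism with image in `I V` lies in `I` -/
theorem rthkls_trace_mem {A V : Type*} [CommRing A] [AddCommGroup V] [Module A V]
    [Module.Free A V] [Module.Finite A V] (I : Ideal A) (f : V →ₗ[A] V)
    (hf : ∀ v, f v ∈ I • (⊤ : Submodule A V)) : LinearMap.trace A V f ∈ I := by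
  classical
  let b := Module.Free.chooseBasis A V
  rw [LinearMap.trace_eq_matrix_trace A b f, Matrix.trace]
  refine Ideal.sum_mem _ fun i _ => ?_
  rw [Matrix.diag_apply, LinearMap.toMatrix_apply]
  exact rthkls_form_mem I (b.coord i) (hf (b i))

/-- **HK-L-TRCONT.** -/
theorem stmtHkLTrCont : StmtHkLTrCont := by
  intro A _ _ ρ k
  obtain ⟨E, hE, h⟩ := ρ.isAdicContinuous k
  refine ⟨E, hE, fun σ hσ x => ?_⟩
  have e : LinearMap.trace A ρ.V (ρ.ρ (σ * x)) - LinearMap.trace A ρ.V (ρ.ρ x)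
      = LinearMap.trace A ρ.V ((ρ.ρ σ - 1) * ρ.ρ x) := by
    rw [map_mul, sub_mul, one_mul, map_sub]
  rw [e]
  refine rthkls_trace_mem _ _ fun v => ?_
  show (ρ.ρ σ - 1) (ρ.ρ x v) ∈ _
  rw [LinearMap.sub_apply, Module.End.one_apply]
  exact h σ hσ (ρ.ρ x v)

end Fermat.Agent.RT


end ZBRT_002_9

/-! ### bundled: `Fermat.Agent.RT.Interp.K8Glue` -/
section ZBRT_002_10

/-!
# K-machine, piece INTERP (helper46): K8-GLUE

`rtint_k8_of_geo : StmtK8Geo → StmtK8` (the abstract theorem `K8.stmtK8Abs` of helper21 and the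
weak Chebotarev theorem `Cheb.weakChebotarev_holds` are PROVED, so **(G)** is the only input).

* `K8.StmtK8Abs` (helper21, `RT/K8/Abs.lean`): the abstract theorem on trace functions.
* `StmtK8Geo` : the geometric clause **(G)** for a newform `g` of level `M`, `q ∥ M`, in terms of
  `g` only: a `G_ℚ × Hecke`-module `J` with the faithful `p`-adic Eichler–Shimura package of level
  `M`, a place `A ∣ q` with a Frobenius `φ`, and a Hecke polynomial `C₀` (variables outside `S`)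
  with `heckeValue g C₀ ≠ 0` and `φ² (C₀ x) = q² (C₀ x)` for all `x ∈ J[p^∞]` fixed by inertia.
  Available to the proof of **(G)**: `5 ≤ p`, `q ≠ 2`, and a prime `ℓ₀ ∉ S` at which `g` is not
  Eisenstein: `a_ℓ₀(g) ≠ ℓ₀ + 1` (`rtint_exists_nonEis`, from the absolute irreducibility).
* `StmtK8` : the consumer form of `RT/Interp/Plan.lean`.
* RESTRICTED FORMS (`5 ≤ q`, THE FORMS WHICH ARE USED): `StmtK8GeoE` (= `StmtK8Geo` with the extra
  hypothesis `5 ≤ q` after `¬ q ^ 2 ∣ M`), `rtint_k8E_of_geoE : StmtK8GeoE → StmtK8E`,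
  `rtint_stmtTR_of_geoE : StmtK8GeoE → StmtBase → RIB.StmtTR`.  `K8GeoAt p M g q S` is the
  conclusion of (G), `rtint_k8_at` the common proof.

Steps: `rtint_exists_chi` (the character `χ` of the Hecke algebra with `χ T_ℓ = a ℓ`),
`rtint_trace_spec` (the trace of `ρ` satisfies the specification of the trace function of S30:
weak Chebotarev + Lucas, as in S31), `S32.exists_unit_trace` (non-reducibility).
-/

set_option autoImplicit false

noncomputable section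

namespace Fermat.Agent.RT.Interp

open ModularCurve Fermat.Agent.ES Fermat.Agent.S31 Fermat.Agent.S30 ModularFormClass
  CongruenceSubgroup Polynomial

/-- **(G)**, the geometric clause of K8, in terms of the newform. -/
def StmtK8Geo : Prop :=
  ∀ (p : ℕ) [Fact p.Prime], 5 ≤ p → ∀ (M : ℕ) [NeZero M] (g : CuspForm (Gamma0 M) 2),
    g.IsNewform →
    ∀ q : ℕ, q.Prime → q ≠ p → q ≠ 2 → q ∣ M → ¬ q ^ 2 ∣ M →
    ∀ S : Finset ℕ, p ∈ S → (∀ r : ℕ, r.Prime → r ∣ M → r ∈ S) →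
    ∀ ℓ₀ : Nat.Primes, (ℓ₀ : ℕ) ∉ S →
      heckeValue g (MvPolynomial.X ℓ₀ - MvPolynomial.C (((ℓ₀ : ℕ) : ℤ) + 1)) ≠ 0 →
    ∃ (J : Type) (_ : AddCommGroup J) (_ : Module HeckeAlg J) (_ : DistribMulAction GQ J),
      ESDataInf M p J ∧ ESFaith M p J ∧
      ∃ (A : ValuationSubring (AlgebraicClosure ℚ)) (φ : GQ),
        A.LiesOverPrime q ∧ A.IsFrobeniusAt φ q ∧
        ∃ C₀ ∈ MvPolynomial.supported ℤ (outsideVars (↑S : Set ℕ)), heckeValue g C₀ ≠ 0 ∧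
          ∀ x : J, IsPPowerTorsion p x → (∀ σ ∈ A.inertiaSubgroupIn ℚ, σ • x = x) →
            (φ * φ) • (C₀ • x) = (q ^ 2) • (C₀ • x)

/-- the conclusion of **(G)** at one `(p, M, g, q, S)` -/
def K8GeoAt (p : ℕ) [Fact p.Prime] (M : ℕ) [NeZero M] (g : CuspForm (Gamma0 M) 2) (q : ℕ)
    (S : Finset ℕ) : Prop :=
  ∃ (J : Type) (_ : AddCommGroup J) (_ : Module HeckeAlg J) (_ : DistribMulAction GQ J),
    ESDataInf M p J ∧ ESFaith M p J ∧
    ∃ (A : ValuationSubring (AlgebraicClosure ℚ)) (φ : GQ),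
      A.LiesOverPrime q ∧ A.IsFrobeniusAt φ q ∧
      ∃ C₀ ∈ MvPolynomial.supported ℤ (outsideVars (↑S : Set ℕ)), heckeValue g C₀ ≠ 0 ∧
        ∀ x : J, IsPPowerTorsion p x → (∀ σ ∈ A.inertiaSubgroupIn ℚ, σ • x = x) →
          (φ * φ) • (C₀ • x) = (q ^ 2) • (C₀ • x)

/-- **(G), restricted to `5 ≤ q`** (THE FORM TO PROVE: the reduction package of `X₀(M / q)` at
`q` exists for `5 ≤ q`; the consumer `rtint_stmtTRE` has `q` trivial, hence `q ≥ 11`). -/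
def StmtK8GeoE : Prop :=
  ∀ (p : ℕ) [Fact p.Prime], 5 ≤ p → ∀ (M : ℕ) [NeZero M] (g : CuspForm (Gamma0 M) 2),
    g.IsNewform →
    ∀ q : ℕ, q.Prime → q ≠ p → q ≠ 2 → q ∣ M → ¬ q ^ 2 ∣ M → 5 ≤ q →
    ∀ S : Finset ℕ, p ∈ S → (∀ r : ℕ, r.Prime → r ∣ M → r ∈ S) →
    ∀ ℓ₀ : Nat.Primes, (ℓ₀ : ℕ) ∉ S →
      heckeValue g (MvPolynomial.X ℓ₀ - MvPolynomial.C (((ℓ₀ : ℕ) : ℤ) + 1)) ≠ 0 →
    ∃ (J : Type) (_ : AddCommGroup J) (_ : Module HeckeAlg J) (_ : DistribMulAction GQ J),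
      ESDataInf M p J ∧ ESFaith M p J ∧
      ∃ (A : ValuationSubring (AlgebraicClosure ℚ)) (φ : GQ),
        A.LiesOverPrime q ∧ A.IsFrobeniusAt φ q ∧
        ∃ C₀ ∈ MvPolynomial.supported ℤ (outsideVars (↑S : Set ℕ)), heckeValue g C₀ ≠ 0 ∧
          ∀ x : J, IsPPowerTorsion p x → (∀ σ ∈ A.inertiaSubgroupIn ℚ, σ • x = x) →
            (φ * φ) • (C₀ • x) = (q ^ 2) • (C₀ • x)

theorem stmtK8GeoE_of_stmtK8Geo (h : StmtK8Geo) : StmtK8GeoE :=
  fun p _ hp5 M _ g hg q hq hqp hq2 hqM hq2M _ => h p hp5 M g hg q hq hqp hq2 hqM hq2M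

section spec

variable {p : ℕ} [Fact p.Prime] {N : ℕ} [NeZero N] {J : Type} [AddCommGroup J]
  [Module HeckeAlg J] [DistribMulAction GQ J] {S : Finset ℕ}
  {A : Type} [CommRing A] [IsLocalRing A]

/-- **The trace of a representation with the Eichler–Shimura characteristic polynomials
satisfies the specification of the trace function of S30.** -/
theorem rtint_trace_spec (hcheb : Cheb.WeakChebotarev) (hJ : ESDataInf N p J)
    (hgoodN : ∀ r : ℕ, r.Prime → r ∉ S → ¬ r ∣ N)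
    (hgood : ∀ r : ℕ, r.Prime → r ∉ S → ¬ r ∣ N * p)
    (hpA : (p : A) ∈ IsLocalRing.maximalIdeal A)
    (χ : CuspForm.heckeAlgebra N 2 (↑S : Set ℕ) →+* A) (ρ : GaloisRepAdic A)
    (hfrob : ∀ (ℓ : ℕ) (hℓ : ℓ.Prime) (hℓN : ¬ ℓ ∣ N) (hℓS : ℓ ∉ (↑S : Set ℕ)),
      ∀ 𝔄 : ValuationSubring (AlgebraicClosure ℚ), 𝔄.LiesOverPrime ℓ →
        ∀ σ : GQ, 𝔄.IsFrobeniusAt σ ℓ →
          LinearMap.charpoly (ρ.ρ σ) =
            X ^ 2 - C (χ (CuspForm.heckeAlgebra.T hℓ hℓN hℓS)) * X + C ((ℓ : A)))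
    (g : GQ) (k n : ℕ) (h : HeckeAlg) (hG : Good p J S χ k n)
    (hh : h ∈ MvPolynomial.supported ℤ (outsideVars (↑S : Set ℕ))) (hA : Approx p J n g h) :
    LinearMap.trace A ρ.V (ρ.ρ g) - chiHom S χ h ∈ IsLocalRing.maximalIdeal A ^ k := by
  have hp : p.Prime := Fact.out
  obtain ⟨E, hEfin, hE⟩ := exists_common_field hJ n
  obtain ⟨L, hLfin, hL⟩ := ρ.isAdicContinuous k
  have hM0 : p ^ n ≠ 0 := pow_ne_zero n hp.ne_zero
  have : NeZero ((p ^ n : ℕ) : AlgebraicClosure ℚ) := ⟨Nat.cast_ne_zero.mpr hM0⟩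
  obtain ⟨ζ, hζ⟩ := HasEnoughRootsOfUnity.exists_primitiveRoot (AlgebraicClosure ℚ) (p ^ n)
  have hζfin : FiniteDimensional ℚ (IntermediateField.adjoin ℚ {ζ}) :=
    IntermediateField.adjoin.finiteDimensional ((hζ.isIntegral (Nat.pos_of_ne_zero hM0)).tower_top)
  obtain ⟨F, hFfin, hFgal, hEF, hLF, hζF⟩ :=
    exists_galois_hull E L (IntermediateField.adjoin ℚ {ζ})
  have hζF' : ζ ∈ F := hζF (IntermediateField.mem_adjoin_simple_self ℚ ζ)
  have hF : ∀ σ : GQ, (∀ a ∈ F, σ a = a) → ∀ x : J, p ^ n • x = 0 → σ • x = x :=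
    fun σ h => hE σ fun a ha => h a (hEF ha)
  obtain ⟨ℓ, 𝔄, τ, m, hℓ, hℓS, h𝔄, hτ, hg⟩ := hcheb F S g
  have hℓNp := hgood ℓ hℓ hℓS
  have hℓN := hgoodN ℓ hℓ hℓS
  have hℓS' : ℓ ∉ (↑S : Set ℕ) := hℓS
  -- the Lucas polynomial represents `g`
  have hh' : lucasS (heckeGen ⟨ℓ, hℓ⟩) (ℓ : HeckeAlg) m ∈
      MvPolynomial.supported ℤ (outsideVars (↑S : Set ℕ)) := by
    refine lucasS_mem_subalgebra _ ?_ (natCast_mem _ ℓ) m
    exact (MvPolynomial.X_mem_supported (R := ℤ)).mpr hℓS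
  have hA' : Approx p J n g (lucasS (heckeGen ⟨ℓ, hℓ⟩) (ℓ : HeckeAlg) m) := by
    intro x hx
    have h1 := lucas_galois hJ n F hF hℓ hℓNp h𝔄 hτ m g hg hx
    have hζ1 : ζ ^ (p ^ n) = 1 := hζ.pow_eq_one
    have h2 : (τ ^ m) ζ = ζ ^ (ℓ ^ m) :=
      frob_pow_rootOfUnity 𝔄 (natCast_pow_not_mem_nonunits 𝔄 hp hℓ (ne_of_not_dvd_mul hℓNp) h𝔄 n)
        hM0 hτ hζ1 m
    have h3 : g ζ = ζ ^ (ℓ ^ m) := by rw [← hg ζ hζF', h2]
    have he : cycE p n g ≡ ℓ ^ m [MOD p ^ n] := cycE_of_apply p n g _ hζ h3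
    rw [nsmul_eq_of_modEq he (torsion_smul n g⁻¹ hx)]
    exact h1
  have huniq := approx_unique hG hG hh hh' hA hA'
  have huniq' : chiHom S χ h - chiHom S χ (lucasS (heckeGen ⟨ℓ, hℓ⟩) (ℓ : HeckeAlg) m) ∈
      IsLocalRing.maximalIdeal A ^ k := span_pow_le _ hpA k huniq
  -- the value of the Lucas polynomial
  have hval : chiHom S χ (lucasS (heckeGen ⟨ℓ, hℓ⟩) (ℓ : HeckeAlg) m) =
      lucasS (χ (CuspForm.heckeAlgebra.T hℓ hℓN hℓS')) (ℓ : A) m := by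
    have := lucasS_map (chiHom S χ) (heckeGen ⟨ℓ, hℓ⟩) (ℓ : HeckeAlg) m
    rw [map_natCast, chiHom_heckeGen S χ hℓ hℓN hℓS'] at this
    exact this
  have htr : LinearMap.trace A ρ.V (ρ.ρ (τ ^ m)) =
      lucasS (χ (CuspForm.heckeAlgebra.T hℓ hℓN hℓS')) (ℓ : A) m := by
    rw [map_pow]
    exact trace_pow_eq_lucasS ρ.finrank_eq (ρ.ρ τ) _ _ (hfrob ℓ hℓ hℓN hℓS' 𝔄 h𝔄 τ hτ) m
  have hc := trace_congr_of_agree ρ k L hL (τ ^ m) g fun a ha => hg a (hLF ha)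
  rw [htr, ← hval] at hc
  have hfinal : LinearMap.trace A ρ.V (ρ.ρ g) - chiHom S χ h =
      (LinearMap.trace A ρ.V (ρ.ρ g) -
          chiHom S χ (lucasS (heckeGen ⟨ℓ, hℓ⟩) (ℓ : HeckeAlg) m)) -
        (chiHom S χ h - chiHom S χ (lucasS (heckeGen ⟨ℓ, hℓ⟩) (ℓ : HeckeAlg) m)) := by
    ring
  rw [hfinal]
  exact sub_mem hc huniq'

end spec

section chi

variable {M : ℕ} [NeZero M]

/-- the evaluation of the Hecke polynomials in the variables outside `S ⊇ primes(M)` is onto the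
Hecke algebra away from `S` -/
theorem rtint_evalS_surjective (S : Set ℕ) (hMS : ∀ q : ℕ, q.Prime → q ∣ M → q ∈ S)
    (x : CuspForm.heckeAlgebra M 2 S) :
    ∃ t ∈ MvPolynomial.supported ℤ (outsideVars S), evalS M S t = x := by
  obtain ⟨x, hx⟩ := x
  have key : ∃ t ∈ MvPolynomial.supported ℤ (outsideVars S),
      ((evalS M S t : CuspForm.heckeAlgebra M 2 S) :
        Module.End ℂ (CuspForm (Gamma0 M) 2)) = x := by
    unfold CuspForm.heckeAlgebra at hx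
    induction hx using Algebra.adjoin_induction with
    | mem y hy =>
      rcases hy with ⟨ℓ, hℓ, hℓM, hℓS, rfl⟩ | ⟨r, hrM, hr, hrS, rfl⟩
      · refine ⟨heckeGen ⟨ℓ, hℓ⟩, (MvPolynomial.X_mem_supported (R := ℤ)).mpr hℓS, ?_⟩
        rw [evalS_heckeGen hℓ hℓM hℓS]
        rfl
      · exact absurd (hMS r hr hrM) hrS
    | algebraMap r =>
      refine ⟨algebraMap ℤ HeckeAlg r, Subalgebra.algebraMap_mem _ r, ?_⟩
      rw [AlgHom.commutes]
      rfl
    | add y z _ _ hy hz =>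
      obtain ⟨t, ht, hty⟩ := hy
      obtain ⟨u, hu, huz⟩ := hz
      refine ⟨t + u, Subalgebra.add_mem _ ht hu, ?_⟩
      rw [map_add, ← hty, ← huz]
      rfl
    | mul y z _ _ hy hz =>
      obtain ⟨t, ht, hty⟩ := hy
      obtain ⟨u, hu, huz⟩ := hz
      refine ⟨t * u, Subalgebra.mul_mem _ ht hu, ?_⟩
      rw [map_mul, ← hty, ← huz]
      rfl
  obtain ⟨t, ht, htx⟩ := key
  exact ⟨t, ht, Subtype.ext htx⟩

/-- **the character of the Hecke algebra with prescribed values**: a system of values `a ℓ` in a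
ring `A` which kills the kernel of the evaluation is the system of values of a ring
homomorphism `χ : 𝕋 → A` -/
theorem rtint_exists_chi {A : Type*} [CommRing A] (S : Finset ℕ)
    (hMS : ∀ q : ℕ, q.Prime → q ∣ M → q ∈ S) (a : Nat.Primes → A)
    (hker : ∀ t ∈ MvPolynomial.supported ℤ (outsideVars (↑S : Set ℕ)),
      evalS M (↑S : Set ℕ) t = 0 → MvPolynomial.aeval a t = 0) :
    ∃ χ : CuspForm.heckeAlgebra M 2 (↑S : Set ℕ) →+* A,
      ∀ t ∈ MvPolynomial.supported ℤ (outsideVars (↑S : Set ℕ)),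
        chiHom S χ t = MvPolynomial.aeval a t := by
  set R₀ : Subalgebra ℤ HeckeAlg := MvPolynomial.supported ℤ (outsideVars (↑S : Set ℕ)) with hR₀
  set e : R₀ →+* CuspForm.heckeAlgebra M 2 (↑S : Set ℕ) :=
    (evalS M (↑S : Set ℕ)).toRingHom.comp R₀.val.toRingHom with he
  set g₀ : R₀ →+* A := (MvPolynomial.aeval a : HeckeAlg →ₐ[ℤ] A).toRingHom.comp R₀.val.toRingHom
    with hg₀
  have hsurj : Function.Surjective e := by
    intro x
    obtain ⟨t, ht, htx⟩ := rtint_evalS_surjective (↑S : Set ℕ)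
      (fun q hq hqM => Finset.mem_coe.mpr (hMS q hq hqM)) x
    exact ⟨⟨t, ht⟩, htx⟩
  have hk : RingHom.ker e ≤ RingHom.ker g₀ := by
    intro t ht
    rw [RingHom.mem_ker] at ht ⊢
    exact hker t.1 t.2 ht
  refine ⟨e.liftOfSurjective hsurj ⟨g₀, hk⟩, fun t ht => ?_⟩
  exact RingHom.liftOfSurjective_comp_apply e hsurj ⟨g₀, hk⟩ ⟨t, ht⟩

end chi

section nonEis

/-- the Lucas sequence of `(x + 1, x)` -/
theorem rtint_lucasS_eis {R : Type*} [CommRing R] (x : R) (m : ℕ) :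
    lucasS (x + 1) x m = 1 + x ^ m := by
  induction m using Nat.twoStepInduction with
  | zero => rw [lucasS_zero, pow_zero]; norm_num
  | one => rw [lucasS_one, pow_one, add_comm]
  | more j h0 h1 =>
    rw [lucasS_add_two, h0, h1]
    ring

/-- the Lucas sequence respects congruences in the first argument -/
theorem rtint_lucasS_congr {R : Type*} [CommRing R] (I : Ideal R) {a a' : R} (h : a - a' ∈ I)
    (d : R) (m : ℕ) : lucasS a d m - lucasS a' d m ∈ I := by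
  rw [← Ideal.Quotient.eq, ← RingHom.coe_coe, lucasS_map, lucasS_map]
  rw [RingHom.coe_coe, Ideal.Quotient.eq.mpr h]

/-- congruent natural numbers have congruent images -/
theorem rtint_natCast_sub_mem {R : Type*} [CommRing R] (I : Ideal R) {n : ℕ} (hn : (n : R) ∈ I)
    {a b : ℕ} (h : a ≡ b [MOD n]) : (a : R) - (b : R) ∈ I := by
  have h1 : (n : ℤ) ∣ (a : ℤ) - (b : ℤ) := (Int.natCast_modEq_iff.mpr h).symm.dvd
  obtain ⟨c, hc⟩ := h1
  have h2 : (a : R) - (b : R) = (n : R) * (c : R) := by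
    have := congrArg (fun z : ℤ => (z : R)) hc
    simpa using this
  rw [h2]
  exact I.mul_mem_right _ hn

variable {p : ℕ} [Fact p.Prime] {S : Finset ℕ} {A : Type} [CommRing A] [IsLocalRing A]

/-- if all the eigenvalues outside `S` are Eisenstein modulo `𝔪`, the trace is `1 + ε` modulo
`𝔪` -/
theorem rtint_trace_eis (hpS : p ∈ S) (hpA : (p : A) ∈ IsLocalRing.maximalIdeal A)
    (a : Nat.Primes → A) (ρ : GaloisRepAdic A)
    (hfrob : ∀ ℓ : Nat.Primes, (ℓ : ℕ) ∉ S →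
      ∀ 𝔄 : ValuationSubring (AlgebraicClosure ℚ), 𝔄.LiesOverPrime ℓ →
        ∀ σ : GQ, 𝔄.IsFrobeniusAt σ ℓ →
          LinearMap.charpoly (ρ.ρ σ) = X ^ 2 - C (a ℓ) * X + C (((ℓ : ℕ) : A)))
    (heis : ∀ ℓ : Nat.Primes, (ℓ : ℕ) ∉ S →
      a ℓ - (((ℓ : ℕ) : A) + 1) ∈ IsLocalRing.maximalIdeal A) (g : GQ) :
    LinearMap.trace A ρ.V (ρ.ρ g) - (1 + ((cycE p 1 g : ℕ) : A)) ∈
      IsLocalRing.maximalIdeal A := by
  have hp : p.Prime := Fact.out
  obtain ⟨L, hLfin, hL⟩ := ρ.isAdicContinuous 1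
  have hM0 : p ^ 1 ≠ 0 := pow_ne_zero 1 hp.ne_zero
  have : NeZero ((p ^ 1 : ℕ) : AlgebraicClosure ℚ) := ⟨Nat.cast_ne_zero.mpr hM0⟩
  obtain ⟨ζ, hζ⟩ := HasEnoughRootsOfUnity.exists_primitiveRoot (AlgebraicClosure ℚ) (p ^ 1)
  have hζfin : FiniteDimensional ℚ (IntermediateField.adjoin ℚ {ζ}) :=
    IntermediateField.adjoin.finiteDimensional ((hζ.isIntegral (Nat.pos_of_ne_zero hM0)).tower_top)
  obtain ⟨F, hFfin, hFgal, hLF, hζF, -⟩ :=
    exists_galois_hull L (IntermediateField.adjoin ℚ {ζ}) (IntermediateField.adjoin ℚ {ζ})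
  have hζF' : ζ ∈ F := hζF (IntermediateField.mem_adjoin_simple_self ℚ ζ)
  obtain ⟨ℓ, 𝔄, τ, m, hℓ, hℓS, h𝔄, hτ, hg⟩ := Fermat.Agent.Cheb.exists_frobenius_pow_eq F S g
  have hℓp : ℓ ≠ p := fun h => hℓS (h ▸ hpS)
  have h2 : (τ ^ m) ζ = ζ ^ (ℓ ^ m) :=
    frob_pow_rootOfUnity 𝔄 (natCast_pow_not_mem_nonunits 𝔄 hp hℓ hℓp h𝔄 1) hM0 hτ
      hζ.pow_eq_one m
  have h3 : g ζ = ζ ^ (ℓ ^ m) := by rw [← hg ζ hζF', h2]
  have he : cycE p 1 g ≡ ℓ ^ m [MOD p ^ 1] := cycE_of_apply p 1 g _ hζ h3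
  have hp1 : ((p ^ 1 : ℕ) : A) ∈ IsLocalRing.maximalIdeal A := by
    rw [pow_one]
    exact hpA
  have hcyc : ((cycE p 1 g : ℕ) : A) - ((ℓ ^ m : ℕ) : A) ∈ IsLocalRing.maximalIdeal A :=
    rtint_natCast_sub_mem _ hp1 he
  have htr : LinearMap.trace A ρ.V (ρ.ρ (τ ^ m)) = lucasS (a ⟨ℓ, hℓ⟩) (ℓ : A) m := by
    rw [map_pow]
    exact trace_pow_eq_lucasS ρ.finrank_eq (ρ.ρ τ) _ _ (hfrob ⟨ℓ, hℓ⟩ hℓS 𝔄 h𝔄 τ hτ) m
  have hc := trace_congr_of_agree ρ 1 L hL (τ ^ m) g fun x hx => hg x (hLF hx)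
  rw [pow_one, htr] at hc
  have hl : lucasS (a ⟨ℓ, hℓ⟩) (ℓ : A) m - (1 + (ℓ : A) ^ m) ∈ IsLocalRing.maximalIdeal A := by
    rw [← rtint_lucasS_eis (ℓ : A) m]
    exact rtint_lucasS_congr _ (heis ⟨ℓ, hℓ⟩ hℓS) _ m
  have hfinal : LinearMap.trace A ρ.V (ρ.ρ g) - (1 + ((cycE p 1 g : ℕ) : A)) =
      (LinearMap.trace A ρ.V (ρ.ρ g) - lucasS (a ⟨ℓ, hℓ⟩) (ℓ : A) m) +
        (lucasS (a ⟨ℓ, hℓ⟩) (ℓ : A) m - (1 + (ℓ : A) ^ m)) -
        (((cycE p 1 g : ℕ) : A) - ((ℓ ^ m : ℕ) : A)) := by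
    push_cast
    ring
  rw [hfinal]
  exact sub_mem (add_mem hc hl) hcyc

/-- **non-Eisenstein**: a representation with the Eichler–Shimura characteristic polynomials
whose residual representation is absolutely irreducible has an eigenvalue `a ℓ₀`, `ℓ₀ ∉ S`, with
`a ℓ₀ - (ℓ₀ + 1)` a unit -/
theorem rtint_exists_nonEis (hpS : p ∈ S) (hpA : (p : A) ∈ IsLocalRing.maximalIdeal A)
    (a : Nat.Primes → A) (ρ : GaloisRepAdic A)
    (hfrob : ∀ ℓ : Nat.Primes, (ℓ : ℕ) ∉ S →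
      ∀ 𝔄 : ValuationSubring (AlgebraicClosure ℚ), 𝔄.LiesOverPrime ℓ →
        ∀ σ : GQ, 𝔄.IsFrobeniusAt σ ℓ →
          LinearMap.charpoly (ρ.ρ σ) = X ^ 2 - C (a ℓ) * X + C (((ℓ : ℕ) : A)))
    (habs : ρ.residual.IsAbsolutelyIrreducible) :
    ∃ ℓ₀ : Nat.Primes, (ℓ₀ : ℕ) ∉ S ∧
      a ℓ₀ - (((ℓ₀ : ℕ) : A) + 1) ∉ IsLocalRing.maximalIdeal A := by
  by_contra hcon
  have heis : ∀ ℓ : Nat.Primes, (ℓ : ℕ) ∉ S →
      a ℓ - (((ℓ : ℕ) : A) + 1) ∈ IsLocalRing.maximalIdeal A := by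
    intro ℓ hℓ
    by_contra h
    exact hcon ⟨ℓ, hℓ, h⟩
  obtain ⟨g₁, g₂, g₃, hU⟩ := Fermat.Agent.S32.exists_unit_trace ρ habs
  apply hU
  have h1 := rtint_trace_eis hpS hpA a ρ hfrob heis (g₁ * g₂ * g₃)
  have h2 := rtint_trace_eis hpS hpA a ρ hfrob heis (g₂ * g₁ * g₃)
  have hc : cycE p 1 (g₁ * g₂ * g₃) = cycE p 1 (g₂ * g₁ * g₃) := by
    unfold cycE
    rw [map_mul, map_mul, map_mul, map_mul, mul_comm (padicCyclo p g₁)]
  rw [hc] at h1
  have := sub_mem h1 h2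
  rwa [sub_sub_sub_cancel_right] at this

end nonEis

/-- **K8-GLUE at one `(p, M, g, q, S)`**: K8 from the geometric clause **(G)** there. -/
theorem rtint_k8_at {p : ℕ} [Fact p.Prime] {M : ℕ} [NeZero M] {g : CuspForm (Gamma0 M) 2}
    (hg : g.IsNewform) {q : ℕ} (hq : q.Prime) (hqp : q ≠ p) {S : Finset ℕ} (hpS : p ∈ S)
    (hMS : ∀ r : ℕ, r.Prime → r ∣ M → r ∈ S)
    (hgeo : ∀ ℓ₀ : Nat.Primes, (ℓ₀ : ℕ) ∉ S →
      heckeValue g (MvPolynomial.X ℓ₀ - MvPolynomial.C (((ℓ₀ : ℕ) : ℤ) + 1)) ≠ 0 →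
      K8GeoAt p M g q S)
    {A : Type} [CommRing A] [IsLocalRing A] [IsDomain A] [CharZero A] [IsNoetherianRing A]
    (hpA : (p : A) ∈ IsLocalRing.maximalIdeal A) (a : Nat.Primes → A)
    (hconj : ∀ t ∈ MvPolynomial.supported ℤ (outsideVars (↑S : Set ℕ)),
      heckeValue g t = 0 ↔ MvPolynomial.aeval a t = 0)
    (ρ : GaloisRepAdic A)
    (hfrob : ∀ ℓ : Nat.Primes, (ℓ : ℕ) ∉ S →
      ∀ 𝔄 : ValuationSubring (AlgebraicClosure ℚ), 𝔄.LiesOverPrime ℓ →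
        ∀ σ : AlgebraicClosure ℚ ≃ₐ[ℚ] AlgebraicClosure ℚ, 𝔄.IsFrobeniusAt σ ℓ →
          LinearMap.charpoly (ρ.ρ σ) = X ^ 2 - C (a ℓ) * X + C (((ℓ : ℕ) : A)))
    (habs : ρ.residual.IsAbsolutelyIrreducible) :
    ¬ ρ.IsUnramifiedAt q := by
  intro hunr
  have hp : p.Prime := Fact.out
  -- `g` is not Eisenstein
  obtain ⟨ℓ₀, hℓ₀S, hℓ₀⟩ := rtint_exists_nonEis hpS hpA a ρ hfrob habs
  have hℓ₀X : (MvPolynomial.X ℓ₀ - MvPolynomial.C (((ℓ₀ : ℕ) : ℤ) + 1) : HeckeAlg) ∈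
      MvPolynomial.supported ℤ (outsideVars (↑S : Set ℕ)) :=
    Subalgebra.sub_mem _ ((MvPolynomial.X_mem_supported (R := ℤ)).mpr
      (by exact_mod_cast hℓ₀S)) (Subalgebra.algebraMap_mem _ _)
  have hℓ₀g : heckeValue g (MvPolynomial.X ℓ₀ - MvPolynomial.C (((ℓ₀ : ℕ) : ℤ) + 1)) ≠ 0 := by
    intro h0
    have h1 := (hconj _ hℓ₀X).mp h0
    rw [map_sub, MvPolynomial.aeval_X, MvPolynomial.aeval_C, eq_intCast] at h1
    apply hℓ₀
    have h2 : a ℓ₀ - (((ℓ₀ : ℕ) : A) + 1) = 0 := by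
      rw [← h1]
      push_cast
      ring
    rw [h2]
    exact Ideal.zero_mem _
  obtain ⟨J, _, _, _, hJ, hF, 𝔄, φ, h𝔄, hφ, C₀, hC₀, hC₀g, hC₀x⟩ := hgeo ℓ₀ hℓ₀S hℓ₀g
  have hgoodN : ∀ r : ℕ, r.Prime → r ∉ S → ¬ r ∣ M := fun r hr hrS h => hrS (hMS r hr h)
  have hgood : ∀ r : ℕ, r.Prime → r ∉ S → ¬ r ∣ M * p := by
    intro r hr hrS h
    rcases (Nat.Prime.dvd_mul hr).mp h with h | h
    · exact hrS (hMS r hr h)
    · rw [(Nat.prime_dvd_prime_iff_eq hr hp).mp h] at hrS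
      exact hrS hpS
  -- the eigencharacter of `g`
  obtain ⟨chig, hchig, -⟩ := Fermat.Agent.S58.s58g_exists_chig g hg.1 S hMS ⊤
    (fun _ _ _ _ => Subring.mem_top _)
  have hchigeq : ∀ t ∈ MvPolynomial.supported ℤ (outsideVars (↑S : Set ℕ)),
      chig (evalS M (↑S : Set ℕ) t) = heckeValue g t := fun t ht =>
    Fermat.Agent.STB.stb_p1_chig_eq (↑S : Set ℕ) (fun ℓ hℓ hℓS => hgoodN ℓ hℓ hℓS) chig hchig ht
  -- the character `χ` with values `a`
  obtain ⟨χ, hχ⟩ := rtint_exists_chi (M := M) S hMS a (fun t ht h0 =>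
    (hconj t ht).mp (by rw [← hchigeq t ht, h0, map_zero]))
  have hχT : ∀ (ℓ : ℕ) (hℓ : ℓ.Prime) (hℓM : ¬ ℓ ∣ M) (hℓS : ℓ ∉ (↑S : Set ℕ)),
      χ (CuspForm.heckeAlgebra.T hℓ hℓM hℓS) = a ⟨ℓ, hℓ⟩ := by
    intro ℓ hℓ hℓM hℓS
    rw [← chiHom_heckeGen S χ hℓ hℓM hℓS]
    exact (hχ (heckeGen ⟨ℓ, hℓ⟩) ((MvPolynomial.X_mem_supported (R := ℤ)).mpr hℓS)).trans
      (MvPolynomial.aeval_X a _)
  have hfrob' : ∀ (ℓ : ℕ) (hℓ : ℓ.Prime) (hℓN : ¬ ℓ ∣ M) (hℓS : ℓ ∉ (↑S : Set ℕ)),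
      ∀ 𝔅 : ValuationSubring (AlgebraicClosure ℚ), 𝔅.LiesOverPrime ℓ →
        ∀ σ : GQ, 𝔅.IsFrobeniusAt σ ℓ →
          LinearMap.charpoly (ρ.ρ σ) =
            X ^ 2 - C (χ (CuspForm.heckeAlgebra.T hℓ hℓN hℓS)) * X + C ((ℓ : A)) := by
    intro ℓ hℓ hℓN hℓS 𝔅 h𝔅 σ hσ
    rw [hχT ℓ hℓ hℓN hℓS]
    exact hfrob ⟨ℓ, hℓ⟩ hℓS 𝔅 h𝔅 σ hσ
  -- (U′)
  obtain ⟨g₁, g₂, g₃, hU⟩ := Fermat.Agent.S32.exists_unit_trace ρ habs
  have hU' : LinearMap.trace A ρ.V (ρ.ρ (g₁ * g₂ * g₃)) ≠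
      LinearMap.trace A ρ.V (ρ.ρ (g₂ * g₁ * g₃)) := by
    intro h
    rw [h, sub_self] at hU
    exact hU (Ideal.zero_mem _)
  -- (G)
  have hG : Fermat.Agent.RT.K8.GeoClause p J S χ q 𝔄 φ := by
    refine ⟨C₀, hC₀, ?_, hC₀x⟩
    rw [hχ C₀ hC₀]
    exact fun h => hC₀g ((hconj C₀ hC₀).mpr h)
  obtain ⟨σ, hσ, γ, hne⟩ := Fermat.Agent.RT.K8.stmtK8Abs p M J S A χ hpA
    Fermat.Agent.Cheb.weakChebotarev_holds hJ hF hgoodN hgood
    (fun γ => LinearMap.trace A ρ.V (ρ.ρ γ))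
    (fun γ k n h hGd hh hA =>
      rtint_trace_spec Fermat.Agent.Cheb.weakChebotarev_holds hJ hgoodN hgood hpA χ ρ hfrob'
        γ k n h hGd hh hA)
    ⟨g₁, g₂, g₃, hU'⟩ q hq hqp 𝔄 h𝔄 φ hφ hG
  apply hne
  show LinearMap.trace A ρ.V (ρ.ρ (γ * σ)) = LinearMap.trace A ρ.V (ρ.ρ γ)
  rw [map_mul, hunr 𝔄 h𝔄 σ hσ, mul_one]

/-- **K8-GLUE**: the consumer form of K8 from the geometric clause **(G)**. -/
theorem rtint_k8_of_geo (hgeo : StmtK8Geo) : StmtK8 := by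
  intro p hp hp5 M _ g hg q hq hqp hq2' hqM hq2 S hpS hMS A _ _ _ _ _ hpA a hconj ρ hfrob habs
  have : Fact p.Prime := ⟨hp⟩
  exact rtint_k8_at hg hq hqp hpS hMS
    (fun ℓ₀ hℓ₀S hℓ₀g => hgeo p hp5 M g hg q hq hqp hq2' hqM hq2 S hpS hMS ℓ₀ hℓ₀S hℓ₀g)
    hpA a hconj ρ hfrob habs

/-- **K8-GLUE, restricted form** (`5 ≤ q`): `StmtK8GeoE → StmtK8E`. -/
theorem rtint_k8E_of_geoE (hgeo : StmtK8GeoE) : StmtK8E := by
  intro p hp hp5 M _ g hg q hq hqp hq2' hqM hq2 hq5 S hpS hMS A _ _ _ _ _ hpA a hconj ρ hfrob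
    habs
  have : Fact p.Prime := ⟨hp⟩
  exact rtint_k8_at hg hq hqp hpS hMS
    (fun ℓ₀ hℓ₀S hℓ₀g => hgeo p hp5 M g hg q hq hqp hq2' hqM hq2 hq5 S hpS hMS ℓ₀ hℓ₀S hℓ₀g)
    hpA a hconj ρ hfrob habs

/-- **`StmtTR` from (G) (restricted form) and the base contract.** -/
theorem rtint_stmtTR_of_geoE (hgeo : StmtK8GeoE) (hBase : StmtBase) :
    Fermat.Agent.RIB.StmtTR :=
  rtint_stmtTRE (rtint_k8E_of_geoE hgeo) hBase

end Fermat.Agent.RT.Interp

end
end ZBRT_002_10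

/-! ### bundled: `Fermat.Agent.RT.K8.GeoFinal` -/
section ZBRT_002_11
/-
RT-K8 (helper21), clause (G): THE CONSUMER SHAPE.

Target: `RT.Interp.StmtK8GeoE` (helper46, `RT/Interp/K8Glue.lean`) = (G) for a newform with the
hypothesis `5 ≤ q` (ruling of helper43: in `RIB.StmtTR` every odd prime of the level is trivial,
so `q ≥ 11`).

* `stmtK8GeoE_of_geoJ : StmtGeoJ → StmtK8GeoE` : `J = PDiv M p` with the Eichler–Shimura package
  (`S35.stmtESIn_proved`), `C₀ = t₀ (T_ℓ₀ − ℓ₀ − 1)`, `t₀` from `STB.stb_p1` (a Hecke polynomial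
  which vanishes on `S₂(Γ₀(M / q))` and not on the newform `g`);
* `stmtK8GeoE_of : StmtRedPow → StmtFrobToricPow → StmtK8GeoE`;
* `rtk8g_stmtTR : StmtRedPow → StmtFrobToricPow → StmtBase → RIB.StmtTR`;
* `stmtFrobToricPow_of_fac : RIB.MP.StmtFac → StmtFrobToricPow` (helper3's `ribmp_frob_powE`);
* `stmtK8GeoE_of_fac : RIB.MP.StmtFac → StmtRedPow → StmtK8GeoE`.
-/

set_option autoImplicit false
set_option linter.unusedSectionVars false
set_option linter.style.haveILetI false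

noncomputable section

namespace Fermat.Agent.RT.K8

open ModularCurve AlgebraicCurve Fermat.Agent.ES Fermat.Agent.ES.G2 Fermat.Agent.RIB.MP
  Fermat.Agent.UNIP Fermat.Agent.STB Fermat.Agent.S31 CongruenceSubgroup

/-- MP-FROB at the exponents `p ^ n` from the local factorisation (F) (helper3's
`ribmp_frob_powE`) -/
theorem stmtFrobToricPow_of_fac (hFac : StmtFac) : StmtFrobToricPow :=
  fun M₁ q _ _ _ hq hqM hE hq2 p hp hp5 hpq A hA σ hσ n x hx hI ℓ hℓ htor =>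
    ribmp_frob_powE hFac M₁ q hq hqM hE hq2 p hp hp5 hpq n A hA σ hσ x hx hI ℓ hℓ htor

/-- **(G) in the consumer shape from the `J`-form.** -/
theorem stmtK8GeoE_of_geoJ (hJ : StmtGeoJ) : Fermat.Agent.RT.Interp.StmtK8GeoE := by
  intro p _ hp5 M _ g hg q hq hqp hq2 hqM hq2M hq5 S hpS hMS ℓ₀ hℓ₀S hℓ₀g
  have hp : p.Prime := Fact.out
  have hp0 : p ≠ 0 := hp.ne_zero
  obtain ⟨M₁, hM₁⟩ := hqM
  have hMeq : M = M₁ * q := by rw [hM₁, mul_comm]
  subst hMeq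
  have hM₁0 : M₁ ≠ 0 := fun h => NeZero.ne (M₁ * q) (by rw [h, zero_mul])
  haveI : NeZero M₁ := ⟨hM₁0⟩
  haveI : NeZero q := ⟨hq.ne_zero⟩
  have hqM' : ¬ q ∣ M₁ := by
    rintro ⟨c, rfl⟩
    exact hq2M ⟨c, by ring⟩
  have hqE : 5 ≤ q ∨ (5 - q) ∣ M₁ := Or.inl hq5
  -- the Eichler–Shimura package
  obtain ⟨⟨μ, hμd⟩, hlev, hfrob, hunr'⟩ := Fermat.Agent.S35.stmtESIn_proved (M₁ * q) p hp
  have hm := multData_of_torsionUnifData hp0 hμd
  have hJd : letI := pDivModule (M₁ * q) p; letI := pDivGalois (M₁ * q) p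
      ESDataInf (M₁ * q) p (PDiv (M₁ * q) p) := hm.esDataInf hlev hfrob hunr'
  have hfaith : letI := pDivModule (M₁ * q) p; letI := pDivGalois (M₁ * q) p
      ESFaith (M₁ * q) p (PDiv (M₁ * q) p) := hm.esFaith hp0
  -- a place over `q` and a Frobenius element
  obtain ⟨A, φ, hA, hφ⟩ := Fermat.Agent.Common.exists_isFrobeniusAt q hq
  -- the Hecke polynomial `t₀`
  have hne : M₁ ≠ M₁ * q := by
    intro h
    have h1 : M₁ * 1 = M₁ * q := by rw [mul_one]; exact h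
    exact hq.one_lt.ne (Nat.eq_of_mul_eq_mul_left (Nat.pos_of_ne_zero hM₁0) h1)
  obtain ⟨t₀, ht₀, ht₀0, ht₀g⟩ := stb_p1
    (fun N p _ hp => esPkgFaith_of_inputs Fermat.Agent.INJ.injAll_stmtINJAll hp
      (torsionUnif_proved N p hp.pos))
    hg (Dvd.intro q rfl) hne S hMS
  have hgood : ∀ r : Nat.Primes, (r : ℕ) ∉ S → ¬ (r : ℕ) ∣ M₁ * q * p := by
    intro r hrS h
    rcases (Nat.Prime.dvd_mul r.2).mp h with h | h
    · exact hrS (hMS r r.2 h)
    · rw [(Nat.prime_dvd_prime_iff_eq r.2 hp).mp h] at hrS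
      exact hrS hpS
  have ht₀' : t₀ ∈ MvPolynomial.supported ℤ (goodPrimes (M₁ * q) p) :=
    MvPolynomial.supported_mono (fun r hr => hgood r hr) ht₀
  have hE : (MvPolynomial.X ℓ₀ - MvPolynomial.C (((ℓ₀ : ℕ) : ℤ) + 1) : HeckeAlg) =
      heckeGen ℓ₀ - (((ℓ₀ : ℕ) : HeckeAlg) + 1) := by
    rw [map_add, map_one, map_natCast]
    rfl
  refine ⟨PDiv (M₁ * q) p, inferInstance, pDivModule (M₁ * q) p, pDivGalois (M₁ * q) p,
    hJd, hfaith, A, φ, hA, hφ,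
    t₀ * (MvPolynomial.X ℓ₀ - MvPolynomial.C (((ℓ₀ : ℕ) : ℤ) + 1)), ?_, ?_, ?_⟩
  · refine Subalgebra.mul_mem _ ht₀ (Subalgebra.sub_mem _ ?_ ?_)
    · exact (MvPolynomial.X_mem_supported (R := ℤ)).mpr hℓ₀S
    · exact Subalgebra.algebraMap_mem _ _
  · rw [stb_p1_heckeValue_mul]
    exact mul_ne_zero ht₀g hℓ₀g
  · intro x _ hI
    rw [hE]
    exact hJ M₁ q hq hqM' hqE hq2 p hp hp5 hqp.symm A hA φ hφ t₀ ht₀' ht₀0 ℓ₀
      (hgood ℓ₀ hℓ₀S) x (fun σ hσ => congrArg Subtype.val (hI σ hσ))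

/-- **(G) in the consumer shape from MP-RED and MP-FROB at the exponents `p ^ n`.** -/
theorem stmtK8GeoE_of (hRed : StmtRedPow) (hFrob : StmtFrobToricPow) :
    Fermat.Agent.RT.Interp.StmtK8GeoE :=
  stmtK8GeoE_of_geoJ (stmtGeoJ_of hRed hFrob)

/-- **(G) in the consumer shape from (F) and MP-RED at the exponents `p ^ n`.** -/
theorem stmtK8GeoE_of_fac (hFac : StmtFac) (hRed : StmtRedPow) :
    Fermat.Agent.RT.Interp.StmtK8GeoE :=
  stmtK8GeoE_of hRed (stmtFrobToricPow_of_fac hFac)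

/-- **`RIB.StmtTR` from MP-RED and MP-FROB at the exponents `p ^ n` and the base contract of the
K-machine.** -/
theorem rtk8g_stmtTR (hRed : StmtRedPow) (hFrob : StmtFrobToricPow)
    (hBase : Fermat.Agent.RT.Interp.StmtBase) : Fermat.Agent.RIB.StmtTR :=
  Fermat.Agent.RT.Interp.rtint_stmtTR_of_geoE (stmtK8GeoE_of hRed hFrob) hBase

end Fermat.Agent.RT.K8

end


end ZBRT_002_11

/-! ### bundled: `Fermat.Agent.RT.Hecke.Sub` -/
section ZBRT_002_12

/-!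
# K-machine, HECKE-asm: restriction to the subring of the elements with exact representatives

The concrete Hecke ring `𝕋 = HDAlg M` is too big for `HkLevel.gen`.  `rthksE p J` is the subring
generated by the elements `x` with an exact representative `g` (`g + D(g) g⁻¹ = x` on every
`J[pᵏ]`).  `HkLevelW` is `HkLevel` WITHOUT `gen`, with `faith`, `nil`, `cong` asked only on
`rthksE p J`; `rthk_sub : HkLevelW … 𝕋 … → HkLevel … ↥(rthksE p J) …`.
-/

set_option autoImplicit false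

namespace Fermat.Agent.RT

open IsLocalRing Fermat.Agent.ES Fermat.Agent.S30 Fermat.Agent.W1 Fermat.Agent.TW
open Fermat.Agent.RT.Prod

section Sub

variable (p : ℕ) [Fact p.Prime] {𝕋 : Type} [CommRing 𝕋] (J : Type) [AddCommGroup J]
  [Module 𝕋 J] [DistribMulAction GQ J]

/-- the subring generated by the elements with an exact representative -/
def rthksE : Subring 𝕋 :=
  Subring.closure {x : 𝕋 | ∃ g : GQ,
    ∀ k, Rtk7bApprox p J (fun n g => ((cycE p n g : ℕ) : 𝕋)) k g x}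

variable {p J}

/-- approximation over the subring -/
theorem rthks_approx_iff (E : Subring 𝕋) (k : ℕ) (g : GQ) (x : E) :
    Rtk7bApprox p J (fun n g => ((cycE p n g : ℕ) : E)) k g x ↔
      Rtk7bApprox p J (fun n g => ((cycE p n g : ℕ) : 𝕋)) k g (x : 𝕋) := by
  unfold Rtk7bApprox
  refine forall_congr' fun y => imp_congr_right fun _ => ?_
  have h1 : ((cycE p k g : ℕ) : E) • g⁻¹ • y = ((cycE p k g : ℕ) : 𝕋) • g⁻¹ • y := by
    rw [Nat.cast_smul_eq_nsmul, Nat.cast_smul_eq_nsmul]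
  rw [h1]
  rfl

/-- the closure of the preimage of the generators is everything -/
theorem rthks_closure_top (s : Set 𝕋) :
    Subring.closure {x : Subring.closure s | (x : 𝕋) ∈ s} = ⊤ := by
  rw [eq_top_iff]
  rintro ⟨x, hx⟩ -
  induction hx using Subring.closure_induction with
  | mem x hx => exact Subring.subset_closure hx
  | zero => exact Subring.zero_mem _
  | one => exact Subring.one_mem _
  | add x y hx hy ihx ihy => exact Subring.add_mem _ ihx ihy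
  | neg x hx ihx => exact Subring.neg_mem _ ihx
  | mul x y hx hy ihx ihy => exact Subring.mul_mem _ ihx ihy

variable (p J) in
/-- the restricted `Tr` -/
noncomputable def rthksTr (Tr : ℕ → 𝕋) (ℓ : ℕ) : rthksE p J (𝕋 := 𝕋) := by
  classical
  exact if h : Tr ℓ ∈ rthksE p J then ⟨Tr ℓ, h⟩ else 0

/-- the good `Tr ℓ` have exact representatives -/
theorem rthks_Tr_mem {L : ℕ} {Tr : ℕ → 𝕋} (hP : Rtk7bPkg p L J Tr) {ℓ : ℕ} (hℓ : ℓ.Prime)
    (hℓL : ¬ ℓ ∣ L * p) : Tr ℓ ∈ rthksE p J := by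
  obtain ⟨A, τ, hA, hτ⟩ := Fermat.Agent.Common.exists_isFrobeniusAt ℓ hℓ
  exact Subring.subset_closure ⟨τ, fun k => rtk7i_approx_frob hP k hℓ hℓL hA hτ⟩

theorem rthksTr_coe {L : ℕ} {Tr : ℕ → 𝕋} (hP : Rtk7bPkg p L J Tr) {ℓ : ℕ} (hℓ : ℓ.Prime)
    (hℓL : ¬ ℓ ∣ L * p) : ((rthksTr p J Tr ℓ : rthksE p J) : 𝕋) = Tr ℓ := by
  rw [rthksTr, dif_pos (rthks_Tr_mem hP hℓ hℓL)]

/-- the package over the subring -/
theorem rthks_pkg {L : ℕ} {Tr : ℕ → 𝕋} (hP : Rtk7bPkg p L J Tr) :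
    Rtk7bPkg p L J (rthksTr p J Tr) where
  smul_comm σ t x := hP.smul_comm σ (t : 𝕋) x
  finite_level := hP.finite_level
  frob ℓ hℓ hℓL A hA τ hτ n x hx := by
    have h := hP.frob ℓ hℓ hℓL A hA τ hτ n x hx
    have e : rthksTr p J Tr ℓ • (τ • x) = Tr ℓ • (τ • x) := by
      show ((rthksTr p J Tr ℓ : rthksE p J) : 𝕋) • (τ • x) = _
      rw [rthksTr_coe hP hℓ hℓL]
    rw [e]
    exact h
  unram := hP.unram

end Sub

section Level

variable {O : Type} [CommRing O] [IsLocalRing O]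

/-- **The module side at level `n`, weak form** (no `gen`; `faith`, `nil`, `cong` only on the
subring `rthksE p J` generated by the elements with exact representatives). -/
structure HkLevelW (p : ℕ) [Fact p.Prime] (lam : O) (ρbar : ResidualGaloisRep (ResidueField O))
    (Sbad : Finset ℕ) {ι : Type} (σ : ι → GQ) (tχ : ι → O) (m h d n : ℕ)
    (a0 : ℕ → Matrix (Fin d) (Fin d) O)
    (L : ℕ) {𝕋 : Type} [CommRing 𝕋] (J : Type) [AddCommGroup J] [Module 𝕋 J]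
    [DistribMulAction GQ J] (Tr : ℕ → 𝕋)
    (Φ1 Φχ : 𝕋 →+* Matrix (Fin d) (Fin d) (RthkSn O m n)) : Prop where
  pkg : Rtk7bPkg p L J Tr
  primes : ∀ q : ℕ, q.Prime → q ∉ Sbad → ¬ q ∣ L * p
  model : ∀ k : ℕ, ∃ (X : Type) (_ : AddCommGroup X) (_ : Finite X) (act : GQ → X → X),
      (∀ s x x', act s (x + x') = act s x + act s x') ∧
      (∀ s s' x, act (s * s') x = act s (act s' x)) ∧
      HasFiniteFlatModel (GaloisRep.ratLocalizedAt p) X act ∧
      ∀ e : GQ →₀ ℤ, (∀ x : X, (e.sum fun g z => z • act g x) = 0) →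
        ∀ x : J, p ^ k • x = 0 → (e.sum fun g z => z • g • x) = 0
  faith : ∃ n₀ : ℕ, ∀ x ∈ rthksE p J (𝕋 := 𝕋), (∀ y : J, p ^ n₀ • y = 0 → x • y = 0) →
    Φ1 x = 0 ∧ Φχ x = 0
  nil : ∀ x ∈ rthksE p J (𝕋 := 𝕋), ∃ c : O,
    IsNilpotent (Φ1 x - algebraMap O (Matrix (Fin d) (Fin d) (RthkSn O m n)) c) ∧
    IsNilpotent (Φχ x - algebraMap O (Matrix (Fin d) (Fin d) (RthkSn O m n)) c)
  resid : ∀ ℓ : ℕ, ℓ.Prime → ¬ ℓ ∣ L * p →
    ∀ P : ValuationSubring (AlgebraicClosure ℚ), P.LiesOverPrime ℓ →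
      ∀ τ : GQ, P.IsFrobeniusAt τ ℓ → ∃ c : O,
        residue O c = LinearMap.trace (ResidueField O) ρbar.V (ρbar.ρ τ) ∧
        IsNilpotent (Φ1 (Tr ℓ) - algebraMap O (Matrix (Fin d) (Fin d) (RthkSn O m n)) c)
  cong : ∀ x ∈ rthksE p J (𝕋 := 𝕋),
    (Φ1 x).map (Ideal.Quotient.factor
        (le_sup_right : maximalIdeal (RttwS O m) ^ n ≤
          rttwLam m lam ⊔ maximalIdeal (RttwS O m) ^ n)) =
      (Φχ x).map (Ideal.Quotient.factor
        (le_sup_right : maximalIdeal (RttwS O m) ^ n ≤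
          rttwLam m lam ⊔ maximalIdeal (RttwS O m) ^ n))
  trT : ∀ i, ∃ x : 𝕋, (∀ k, Rtk7bApprox p J (fun n g => ((cycE p n g : ℕ) : 𝕋)) k (σ i) x) ∧
    Φ1 x = 2 ∧ Φχ x = algebraMap O (Matrix (Fin d) (Fin d) (RthkSn O m n)) (2 * tχ i)
  trQ : ∀ j : Fin m, (j : ℕ) < h → ∃ (g : GQ) (x : 𝕋),
    (∀ k, Rtk7bApprox p J (fun n g => ((cycE p n g : ℕ) : 𝕋)) k g x) ∧
    Φ1 x ^ 2 - 4 = algebraMap (RthkSn O m n) (Matrix (Fin d) (Fin d) (RthkSn O m n))
      (Ideal.Quotient.mk _ (MvPowerSeries.X j) ^ 2) ∧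
    Φχ x ^ 2 - 4 = algebraMap (RthkSn O m n) (Matrix (Fin d) (Fin d) (RthkSn O m n))
      (Ideal.Quotient.mk _ (MvPowerSeries.X j) ^ 2)
  base : ∀ ℓ : ℕ, ℓ.Prime → ¬ ℓ ∣ L * p →
    (Φ1 (Tr ℓ)).map (Ideal.Quotient.factor
      (le_sup_right : maximalIdeal (RttwS O m) ^ n ≤
        rttwAug O m ⊔ maximalIdeal (RttwS O m) ^ n)) = rttwBaseRed m d n (a0 ℓ)

/-- **Restriction to the subring of exact representatives.** -/
theorem rthk_sub {p : ℕ} [Fact p.Prime] {lam : O}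
    {ρbar : ResidualGaloisRep (ResidueField O)} {Sbad : Finset ℕ} {ι : Type} {σ : ι → GQ}
    {tχ : ι → O} {m h d n : ℕ} {a0 : ℕ → Matrix (Fin d) (Fin d) O} {L : ℕ} {𝕋 : Type}
    [CommRing 𝕋] {J : Type} [AddCommGroup J] [Module 𝕋 J] [DistribMulAction GQ J]
    {Tr : ℕ → 𝕋} {Φ1 Φχ : 𝕋 →+* Matrix (Fin d) (Fin d) (RthkSn O m n)}
    (W : HkLevelW p lam ρbar Sbad σ tχ m h d n a0 L J Tr Φ1 Φχ) :
    HkLevel p lam ρbar Sbad σ tχ m h d n a0 L J (rthksTr p J Tr)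
      (Φ1.comp (rthksE p J (𝕋 := 𝕋)).subtype) (Φχ.comp (rthksE p J (𝕋 := 𝕋)).subtype) where
  pkg := rthks_pkg W.pkg
  primes := W.primes
  model := W.model
  gen := by
    have h := rthks_closure_top {x : 𝕋 | ∃ g : GQ,
      ∀ k, Rtk7bApprox p J (fun n g => ((cycE p n g : ℕ) : 𝕋)) k g x}
    have e : {x : rthksE p J (𝕋 := 𝕋) | ∃ g : GQ, ∀ k,
          Rtk7bApprox p J (fun n g => ((cycE p n g : ℕ) : rthksE p J (𝕋 := 𝕋))) k g x}
        = {x : rthksE p J (𝕋 := 𝕋) | (x : 𝕋) ∈ {x : 𝕋 | ∃ g : GQ,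
            ∀ k, Rtk7bApprox p J (fun n g => ((cycE p n g : ℕ) : 𝕋)) k g x}} := by
      ext x
      constructor
      · rintro ⟨g, hg⟩
        exact ⟨g, fun k => (rthks_approx_iff _ k g x).mp (hg k)⟩
      · rintro ⟨g, hg⟩
        exact ⟨g, fun k => (rthks_approx_iff _ k g x).mpr (hg k)⟩
    rw [e]
    exact h
  faith := by
    obtain ⟨n₀, hn₀⟩ := W.faith
    exact ⟨n₀, fun x hx => hn₀ (x : 𝕋) x.2 hx⟩
  nil x := W.nil (x : 𝕋) x.2
  resid ℓ hℓ hℓL P hP τ hτ := by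
    obtain ⟨c, hc1, hc2⟩ := W.resid ℓ hℓ hℓL P hP τ hτ
    refine ⟨c, hc1, ?_⟩
    rw [RingHom.comp_apply, Subring.coe_subtype, rthksTr_coe W.pkg hℓ hℓL]
    exact hc2
  cong x := W.cong (x : 𝕋) x.2
  trT i := by
    obtain ⟨x, hx, h1, h2⟩ := W.trT i
    have hxE : x ∈ rthksE p J := Subring.subset_closure ⟨σ i, hx⟩
    exact ⟨⟨x, hxE⟩, fun k => (rthks_approx_iff _ k (σ i) ⟨x, hxE⟩).mpr (hx k), h1, h2⟩
  trQ j hj := by
    obtain ⟨g, x, hx, h1, h2⟩ := W.trQ j hj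
    have hxE : x ∈ rthksE p J := Subring.subset_closure ⟨g, hx⟩
    exact ⟨g, ⟨x, hxE⟩, fun k => (rthks_approx_iff _ k g ⟨x, hxE⟩).mpr (hx k), h1, h2⟩
  base ℓ hℓ hℓL := by
    rw [RingHom.comp_apply, Subring.coe_subtype, rthksTr_coe W.pkg hℓ hℓL]
    exact W.base ℓ hℓ hℓL

end Level

end Fermat.Agent.RT


end ZBRT_002_12

/-! ### bundled: `Fermat.Agent.RT.Hecke.ConcAlg` -/
section ZBRT_002_13

/-!
# K-machine, HECKE-asm, HK-CONC: the coefficient ring `C = 𝒪 ⧸ 𝔪 ^ n` as a ring under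
`S ⧸ 𝔪_S ^ n`

`HkConc` (RT/Hecke/Conc.lean) takes a coefficient ring `C` with `[Algebra O C]`,
`[Algebra C (RthkSn O m n)]`, `[IsScalarTower O C (RthkSn O m n)]`.  For the concrete
`C = 𝒪 ⧸ 𝔪 ^ n` (`Algebra O C` = the quotient algebra of Mathlib):

* `rthkcaHom O m n : 𝒪 ⧸ 𝔪 ^ n →+* RthkSn O m n`, induced by the constants `𝒪 → S`;
* `rthkcaAlg O m n : Algebra (𝒪 ⧸ 𝔪 ^ n) (RthkSn O m n)` (a `def`, to be installed with `letI`);
* `rthkca_tower O m n : IsScalarTower O (𝒪 ⧸ 𝔪 ^ n) (RthkSn O m n)` for this structure;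
* `rthkca_algebraMap_mk` : `algebraMap C Sn (mk c) = algebraMap O Sn c`.
-/

set_option autoImplicit false

namespace Fermat.Agent.RT

open IsLocalRing

section ConcAlg

variable (O : Type) [CommRing O] [IsLocalRing O] (m n : ℕ)

/-- the constants map the maximal ideal of `𝒪` into the maximal ideal of `S` -/
theorem rthkca_algebraMap_mem {a : O} (ha : a ∈ maximalIdeal O) :
    algebraMap O (RttwS O m) a ∈ maximalIdeal (RttwS O m) := by
  rw [mem_maximalIdeal, mem_nonunits_iff] at ha ⊢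
  intro hu
  apply ha
  have h1 : IsUnit (MvPowerSeries.constantCoeff (algebraMap O (RttwS O m) a)) :=
    hu.map MvPowerSeries.constantCoeff
  rwa [MvPowerSeries.algebraMap_apply, Algebra.algebraMap_self, RingHom.id_apply,
    MvPowerSeries.constantCoeff_C] at h1

/-- `𝔪 ^ n` goes into `𝔪_S ^ n` -/
theorem rthkca_le_comap :
    maximalIdeal O ^ n ≤ (maximalIdeal (RttwS O m) ^ n).comap (algebraMap O (RttwS O m)) := by
  rw [← Ideal.map_le_iff_le_comap, Ideal.map_pow]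
  apply Ideal.pow_right_mono
  rw [Ideal.map_le_iff_le_comap]
  intro a ha
  exact rthkca_algebraMap_mem O m ha

/-- the ring homomorphism `𝒪 ⧸ 𝔪 ^ n → S ⧸ 𝔪_S ^ n` -/
noncomputable def rthkcaHom : (O ⧸ maximalIdeal O ^ n) →+* RthkSn O m n :=
  Ideal.quotientMap (maximalIdeal (RttwS O m) ^ n) (algebraMap O (RttwS O m))
    (rthkca_le_comap O m n)

@[simp] theorem rthkcaHom_mk (c : O) :
    rthkcaHom O m n (Ideal.Quotient.mk _ c)
      = Ideal.Quotient.mk _ (algebraMap O (RttwS O m) c) := by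
  rw [rthkcaHom, Ideal.quotientMap_mk]

/-- the algebra structure of `S ⧸ 𝔪_S ^ n` over `𝒪 ⧸ 𝔪 ^ n` (install with `letI`) -/
@[reducible] noncomputable def rthkcaAlg : Algebra (O ⧸ maximalIdeal O ^ n) (RthkSn O m n) :=
  (rthkcaHom O m n).toAlgebra

theorem rthkca_algebraMap_mk (c : O) :
    letI := rthkcaAlg O m n
    algebraMap (O ⧸ maximalIdeal O ^ n) (RthkSn O m n) (Ideal.Quotient.mk _ c)
      = algebraMap O (RthkSn O m n) c := by
  letI := rthkcaAlg O m n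
  show rthkcaHom O m n (Ideal.Quotient.mk _ c) = _
  rw [rthkcaHom_mk]
  rfl

/-- the tower `𝒪 → 𝒪 ⧸ 𝔪 ^ n → S ⧸ 𝔪_S ^ n` -/
theorem rthkca_tower :
    letI := rthkcaAlg O m n
    IsScalarTower O (O ⧸ maximalIdeal O ^ n) (RthkSn O m n) := by
  letI := rthkcaAlg O m n
  refine IsScalarTower.of_algebraMap_eq fun c => ?_
  rw [Ideal.Quotient.algebraMap_eq, rthkca_algebraMap_mk]

end ConcAlg

end Fermat.Agent.RT


end ZBRT_002_13

/-! ### bundled: `Fermat.Agent.RT.Hecke.ConcBaseAbs` -/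
section ZBRT_002_14

/-!
# K-machine, HECKE-asm, HK-CONC, the BASE side (helper22): abstract half

`HkBase` (`RT/Hecke/Plan.lean`) from the module side of the base in its NATURAL form.

* `X` an `𝒪`-module with a basis `b : Basis (Fin r) 𝒪 X` (the base module `X_P(N; 𝒪)`, the
  `Θ`-part of `Hom(Γ₀(N), 𝒪)`), `act : 𝕋 →+* End_𝒪 X` the Hecke action;
* `rthkcbBlock 𝒪 h r` : `M_r(𝒪) →+* M_{2^h r}(𝒪)`, the block-diagonal embedding (`2 ^ h` equal
  blocks), with the indexing `finProdFinEquiv (s, i)`, `s : Fin (2 ^ h)` the block, `i : Fin r`;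
* `rthkcbPhi b h act : 𝕋 →+* M_{2^h r}(𝒪)` : `x ↦` the block-diagonal matrix of `act x` in the
  basis `b`;  `rthkcbPhi_apply` : its entries
  `Φ0 x (s, i) (s', j) = if s = s' then (b.repr (act x (b j))) i else 0`;
  `rthkcb_act_eq` : `act x (b j) = ∑ i, Φ0 x (s, i) (s, j) • b i`;
* `HkBaseSide` : the fields of `HkBase` as statements about `(X, act)`;
* `rthkcb_base : HkBaseSide … act → HkBase … (rthkcbPhi b h act)`.
-/

set_option autoImplicit false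
set_option linter.unusedSectionVars false
set_option linter.style.haveILetI false

noncomputable section

namespace Fermat.Agent.RT

open IsLocalRing Fermat.Agent.ES Fermat.Agent.S30 Fermat.Agent.W1 Fermat.Agent.TW
open Fermat.Agent.RT.Prod ExtCitation

section Block

variable (O : Type) [CommRing O] (h r : ℕ)

/-- the index equivalence `Fin r × Fin (2 ^ h) ≃ Fin (2 ^ h * r)`, `(i, s) ↦ (s, i)` -/
def rthkcbIdx : Fin r × Fin (2 ^ h) ≃ Fin (2 ^ h * r) :=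
  (Equiv.prodComm (Fin r) (Fin (2 ^ h))).trans finProdFinEquiv

/-- the block-diagonal embedding `M_r(𝒪) →+* M_{2^h r}(𝒪)` -/
def rthkcbBlock : Matrix (Fin r) (Fin r) O →+* Matrix (Fin (2 ^ h * r)) (Fin (2 ^ h * r)) O :=
  ((Matrix.reindexAlgEquiv O O (rthkcbIdx h r)).toAlgHom.toRingHom).comp
    ((Matrix.blockDiagonalRingHom (Fin r) (Fin (2 ^ h)) O).comp
      (Pi.constRingHom (Fin (2 ^ h)) (Matrix (Fin r) (Fin r) O)))

variable {O h r}

theorem rthkcbBlock_apply (A : Matrix (Fin r) (Fin r) O) (s s' : Fin (2 ^ h)) (i j : Fin r) :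
    rthkcbBlock O h r A (finProdFinEquiv (s, i)) (finProdFinEquiv (s', j)) =
      if s = s' then A i j else 0 := by
  show (Matrix.reindex (rthkcbIdx h r) (rthkcbIdx h r)
    (Matrix.blockDiagonal fun _ : Fin (2 ^ h) => A)) _ _ = _
  rw [Matrix.reindex_apply, Matrix.submatrix_apply]
  have e1 : ∀ (t : Fin (2 ^ h)) (k : Fin r),
      (rthkcbIdx h r).symm (finProdFinEquiv (t, k)) = (k, t) := by
    intro t k
    rw [Equiv.symm_apply_eq]
    rfl
  rw [e1, e1, Matrix.blockDiagonal_apply]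

/-- every entry of the block-diagonal matrix is an entry of the block or zero -/
theorem rthkcbBlock_entry (A : Matrix (Fin r) (Fin r) O) (a b : Fin (2 ^ h * r)) :
    rthkcbBlock O h r A a b = 0 ∨ ∃ i j, rthkcbBlock O h r A a b = A i j := by
  obtain ⟨⟨s, i⟩, rfl⟩ := finProdFinEquiv.surjective a
  obtain ⟨⟨s', j⟩, rfl⟩ := finProdFinEquiv.surjective b
  rw [rthkcbBlock_apply]
  by_cases hs : s = s'
  · rw [if_pos hs]
    exact Or.inr ⟨i, j, rfl⟩
  · rw [if_neg hs]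
    exact Or.inl rfl

/-- the entries of the block-diagonal matrix lie in every ideal containing the entries of the
block -/
theorem rthkcbBlock_mem (I : Ideal O) (A : Matrix (Fin r) (Fin r) O) (hA : ∀ i j, A i j ∈ I)
    (a b : Fin (2 ^ h * r)) : rthkcbBlock O h r A a b ∈ I := by
  rcases rthkcbBlock_entry A a b with h0 | ⟨i, j, hij⟩
  · rw [h0]
    exact I.zero_mem
  · rw [hij]
    exact hA i j

theorem rthkcbBlock_algebraMap (c : O) :
    rthkcbBlock O h r (algebraMap O (Matrix (Fin r) (Fin r) O) c) =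
      algebraMap O (Matrix (Fin (2 ^ h * r)) (Fin (2 ^ h * r)) O) c := by
  ext a b
  obtain ⟨⟨s, i⟩, rfl⟩ := finProdFinEquiv.surjective a
  obtain ⟨⟨s', j⟩, rfl⟩ := finProdFinEquiv.surjective b
  rw [rthkcbBlock_apply, Matrix.algebraMap_matrix_apply, Matrix.algebraMap_matrix_apply]
  by_cases hs : s = s'
  · subst hs
    by_cases hij : i = j
    · subst hij
      simp
    · have : finProdFinEquiv (s, i) ≠ finProdFinEquiv (s, j) := fun hh =>
        hij (Prod.mk.inj (finProdFinEquiv.injective hh)).2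
      simp [hij, this]
  · have : finProdFinEquiv (s, i) ≠ finProdFinEquiv (s', j) := fun hh =>
      hs (Prod.mk.inj (finProdFinEquiv.injective hh)).1
    simp [hs, this]

end Block

section Phi

variable {O : Type} [CommRing O] {𝕋 : Type} [CommRing 𝕋] {X : Type} [AddCommGroup X]
  [Module O X] {r : ℕ}

/-- the matrices of the base: `x ↦` the block-diagonal matrix (`2 ^ h` blocks) of `act x` in the
basis `b` -/
def rthkcbPhi (b : Module.Basis (Fin r) O X) (h : ℕ) (act : 𝕋 →+* Module.End O X) :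
    𝕋 →+* Matrix (Fin (2 ^ h * r)) (Fin (2 ^ h * r)) O :=
  (rthkcbBlock O h r).comp ((LinearMap.toMatrixAlgEquiv b).toAlgHom.toRingHom.comp act)

theorem rthkcbPhi_eq (b : Module.Basis (Fin r) O X) (h : ℕ) (act : 𝕋 →+* Module.End O X)
    (x : 𝕋) : rthkcbPhi b h act x = rthkcbBlock O h r (LinearMap.toMatrix b b (act x)) := rfl

theorem rthkcbPhi_apply (b : Module.Basis (Fin r) O X) (h : ℕ) (act : 𝕋 →+* Module.End O X)
    (x : 𝕋) (s s' : Fin (2 ^ h)) (i j : Fin r) :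
    rthkcbPhi b h act x (finProdFinEquiv (s, i)) (finProdFinEquiv (s', j)) =
      if s = s' then b.repr (act x (b j)) i else 0 := by
  rw [rthkcbPhi_eq, rthkcbBlock_apply, LinearMap.toMatrix_apply]

/-- the defining property of the base matrices: `act x (b j) = ∑ i, Φ0 x (s, i) (s, j) • b i` -/
theorem rthkcb_act_eq (b : Module.Basis (Fin r) O X) (h : ℕ) (act : 𝕋 →+* Module.End O X)
    (x : 𝕋) (s : Fin (2 ^ h)) (j : Fin r) :
    act x (b j) = ∑ i, rthkcbPhi b h act x (finProdFinEquiv (s, i)) (finProdFinEquiv (s, j)) • b i := by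
  conv_lhs => rw [← b.sum_repr (act x (b j))]
  refine Finset.sum_congr rfl fun i _ => ?_
  rw [rthkcbPhi_apply, if_pos rfl]

/-- `(Φ0 x − c) ^ e` is the block-diagonal matrix of `(act x − c) ^ e` -/
theorem rthkcbPhi_sub_pow (b : Module.Basis (Fin r) O X) (h : ℕ) (act : 𝕋 →+* Module.End O X)
    (x : 𝕋) (c : O) (e : ℕ) :
    (rthkcbPhi b h act x - algebraMap O (Matrix (Fin (2 ^ h * r)) (Fin (2 ^ h * r)) O) c) ^ e =
      rthkcbBlock O h r
        (LinearMap.toMatrix b b ((act x - algebraMap O (Module.End O X) c) ^ e)) := by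
  have h1 : LinearMap.toMatrix b b ((act x - algebraMap O (Module.End O X) c) ^ e) =
      (LinearMap.toMatrix b b (act x) - algebraMap O (Matrix (Fin r) (Fin r) O) c) ^ e := by
    have := map_pow (LinearMap.toMatrixAlgEquiv b) (act x - algebraMap O (Module.End O X) c) e
    rw [map_sub, AlgEquiv.commutes] at this
    exact this
  rw [h1, map_pow, map_sub, rthkcbBlock_algebraMap, rthkcbPhi_eq]

/-- the coordinates of an element of `I • X` lie in `I` -/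
theorem rthkcb_repr_mem (b : Module.Basis (Fin r) O X) (I : Ideal O) {v : X}
    (hv : v ∈ (I • ⊤ : Submodule O X)) (i : Fin r) : b.repr v i ∈ I := by
  refine Submodule.smul_induction_on hv (fun a ha w _ => ?_) (fun u w hu hw => ?_)
  · rw [map_smul, Finsupp.smul_apply, smul_eq_mul]
    exact I.mul_mem_right _ ha
  · rw [map_add, Finsupp.add_apply]
    exact I.add_mem hu hw

end Phi

section Side

variable {O : Type} [CommRing O] [IsLocalRing O]

/-- **The module side of the base in its natural form**: the fields of `HkBase` as statements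
about the Hecke action `act : 𝕋 →+* End_𝒪 X` on the base module. -/
structure HkBaseSide (p : ℕ) [Fact p.Prime] (ρbar : ResidualGaloisRep (ResidueField O)) (N : ℕ)
    [NeZero N] (S' : Finset ℕ) {𝕋 : Type} [CommRing 𝕋] (J : Type) [AddCommGroup J] [Module 𝕋 J]
    [DistribMulAction GQ J] (Tr : ℕ → 𝕋) {X : Type} [AddCommGroup X] [Module O X]
    (act : 𝕋 →+* Module.End O X) : Prop where
  pkg : Rtk7bPkg p N J Tr
  primes : ∀ q : ℕ, q.Prime → q ∉ S' → ¬ q ∣ N * p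
  model : ∀ k : ℕ, ∃ (X : Type) (_ : AddCommGroup X) (_ : Finite X) (act : GQ → X → X),
      (∀ s x x', act s (x + x') = act s x + act s x') ∧
      (∀ s s' x, act (s * s') x = act s (act s' x)) ∧
      HasFiniteFlatModel (GaloisRep.ratLocalizedAt p) X act ∧
      ∀ e : GQ →₀ ℤ, (∀ x : X, (e.sum fun g z => z • act g x) = 0) →
        ∀ x : J, p ^ k • x = 0 → (e.sum fun g z => z • g • x) = 0
  /-- HK-FAITH, adic form: `x` kills `J[p^{n₀}]` ⇒ `x X ⊆ pᵏ X` -/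
  faith : ∀ k : ℕ, ∃ n₀ : ℕ, ∀ x : 𝕋, (∀ y : J, p ^ n₀ • y = 0 → x • y = 0) →
    ∀ v : X, ∃ v' : X, act x v = (p : O) ^ k • v'
  /-- K5-LOC: a power of `x − c` maps `X` into `𝔪 X` -/
  nil : ∀ x : 𝕋, ∃ (c : O) (e : ℕ), ∀ v : X,
    ((act x - algebraMap O (Module.End O X) c) ^ e) v ∈ (maximalIdeal O • ⊤ : Submodule O X)
  /-- the residual Frobenius traces -/
  resid : ∀ ℓ : ℕ, ℓ.Prime → ℓ ∉ S' →
    ∀ P : ValuationSubring (AlgebraicClosure ℚ), P.LiesOverPrime ℓ →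
      ∀ τ : GQ, P.IsFrobeniusAt τ ℓ → ∃ (c : O) (e : ℕ),
        residue O c = LinearMap.trace (ResidueField O) ρbar.V (ρbar.ρ τ) ∧
        ∀ v : X, ((act (Tr ℓ) - algebraMap O (Module.End O X) c) ^ e) v
          ∈ (maximalIdeal O • ⊤ : Submodule O X)
  /-- BASE-BRIDGE -/
  occ : ∀ t ∈ MvPolynomial.supported ℤ (Fermat.Agent.S31.outsideVars (↑S' : Set ℕ)),
    CuspForm.heckeEvalForms N 2 t = 0 →
      act (MvPolynomial.aeval (fun ℓ : Nat.Primes => Tr (ℓ : ℕ)) t) = 0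

variable {p : ℕ} [Fact p.Prime] {ρbar : ResidualGaloisRep (ResidueField O)} {N : ℕ}
  [NeZero N] {S' : Finset ℕ} {𝕋 : Type} [CommRing 𝕋] {J : Type} [AddCommGroup J] [Module 𝕋 J]
  [DistribMulAction GQ J] {Tr : ℕ → 𝕋} {X : Type} [AddCommGroup X] [Module O X]
  {act : 𝕋 →+* Module.End O X} {r : ℕ}

/-- **HK-CONC, base side (abstract half).** -/
theorem rthkcb_base (b : Module.Basis (Fin r) O X) (h : ℕ)
    (H : HkBaseSide p ρbar N S' J Tr act) :
    HkBase p ρbar N S' (2 ^ h * r) J Tr (rthkcbPhi b h act) where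
  pkg := H.pkg
  primes := H.primes
  model := H.model
  faith := fun k => by
    obtain ⟨n₀, hn₀⟩ := H.faith k
    refine ⟨n₀, fun x hx i j => ?_⟩
    rw [rthkcbPhi_eq]
    refine rthkcbBlock_mem _ _ (fun i' j' => ?_) i j
    obtain ⟨v', hv'⟩ := hn₀ x hx (b j')
    rw [LinearMap.toMatrix_apply, hv', map_smul, Finsupp.smul_apply, smul_eq_mul]
    exact Ideal.mul_mem_right _ _ (Ideal.subset_span rfl)
  nil := fun x => by
    obtain ⟨c, e, hce⟩ := H.nil x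
    refine ⟨c, e, fun i j => ?_⟩
    rw [rthkcbPhi_sub_pow]
    refine rthkcbBlock_mem _ _ (fun i' j' => ?_) i j
    rw [LinearMap.toMatrix_apply]
    exact rthkcb_repr_mem b _ (hce (b j')) i'
  resid := fun ℓ hℓ hℓS P hP τ hτ => by
    obtain ⟨c, e, hc, hce⟩ := H.resid ℓ hℓ hℓS P hP τ hτ
    refine ⟨c, e, hc, fun i j => ?_⟩
    rw [rthkcbPhi_sub_pow]
    refine rthkcbBlock_mem _ _ (fun i' j' => ?_) i j
    rw [LinearMap.toMatrix_apply]
    exact rthkcb_repr_mem b _ (hce (b j')) i'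
  occ := fun t ht h0 => by
    show rthkcbBlock O h r (LinearMap.toMatrixAlgEquiv b (act _)) = 0
    rw [H.occ t ht h0, map_zero, map_zero]

end Side

end Fermat.Agent.RT

end
end ZBRT_002_14

/-! ### bundled: `Fermat.Agent.RT.Hecke.ConcInst` -/
section ZBRT_002_15

/-!
# K-machine, HK-CONC, layer (B) (helper9): the concrete arithmetic over a setup `Y`

`Y : KSetup P N q`, `qv : Fin h → ℕ` a Taylor–Wiles family of level `n` for
`S = Y.Smin ∪ image Y.r`.  Index type `κ = Fin h ⊕ Y.ι`.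

* `rthkdYv Y qv = Sum.elim qv Y.r` : the primes of the diamonds;
  `rthkdYv_prime`, `rthkdYv_inj`, `rthkdY_pow_dvd : p ^ k x ∣ v x − 1` for
  `k = Sum.elim (fun _ => n + 1) (fun _ => 1)` (`= rthkciExp h Y.ι (n + 1)`, by `rfl`);
* `rthkdYM Y qv = ∏ v x` (the modulus), `rthkdYL N qv = N * ∏ qv j` (the level);
  `rthkdYM_dvd_L`, `rthkdYL_ne_zero`, `rthkdYM_ne_zero`, `rthkdY_p_not_dvd_L`;
* `rthkdY_primes` : the field `primes` of `HkConc` / `HkLevel` for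
  `Sbad = Y.Smin ∪ (image qv ∪ image Y.r)`.
-/

set_option autoImplicit false
set_option linter.unusedSectionVars false

namespace Fermat.Agent.RT

open IsLocalRing Fermat.Agent.TW Fermat.Agent.RT.Prod

section inst

variable {P : FreyPackage} {N q : ℕ} (Y : KSetup P N q) {h : ℕ} (qv : Fin h → ℕ)

/-- the primes of the diamonds: the Taylor–Wiles primes and the trivial primes -/
def rthkdYv : Fin h ⊕ Y.ι → ℕ := Sum.elim qv Y.r

/-- the exponents: `ν` at the Taylor–Wiles primes, `1` at the trivial primes -/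
def rthkdYk (ν : ℕ) : Fin h ⊕ Y.ι → ℕ := Sum.elim (fun _ => ν) (fun _ => 1)

/-- the modulus `M = (∏ qv j) * ∏ r i` -/
def rthkdYM : ℕ := rthkdM (rthkdYv Y qv)

/-- the level `L = N * ∏ qv j` -/
def rthkdYL (N : ℕ) (qv : Fin h → ℕ) : ℕ := N * rthkdM qv

theorem rthkdYk_le (ν : ℕ) (hν : 1 ≤ ν) (x : Fin h ⊕ Y.ι) : rthkdYk Y (h := h) ν x ≤ ν := by
  rcases x with j | i
  · exact le_rfl
  · exact hν

variable {Y qv}

theorem rthkdY_r_prime (i : Y.ι) : (Y.r i).Prime :=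
  ((Y.hr (Y.r i)).mp (Finset.mem_image_of_mem _ (Finset.mem_univ i))).1

theorem rthkdY_r_ne_two (i : Y.ι) : Y.r i ≠ 2 :=
  ((Y.hr (Y.r i)).mp (Finset.mem_image_of_mem _ (Finset.mem_univ i))).2.1

theorem rthkdY_r_dvd (i : Y.ι) : Y.r i ∣ N :=
  ((Y.hr (Y.r i)).mp (Finset.mem_image_of_mem _ (Finset.mem_univ i))).2.2

theorem rthkdY_r_mem (i : Y.ι) : Y.r i ∈ Finset.univ.image Y.r :=
  Finset.mem_image_of_mem _ (Finset.mem_univ i)

variable {n : ℕ}

theorem rthkdYv_prime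
    (hqv : IsTWFamily P.p Y.ρbar (Y.Smin ∪ Finset.univ.image Y.r) n h qv)
    (x : Fin h ⊕ Y.ι) : (rthkdYv Y qv x).Prime := by
  rcases x with j | i
  · exact (hqv.2.1 j).1
  · exact rthkdY_r_prime i

theorem rthkdYv_inj
    (hqv : IsTWFamily P.p Y.ρbar (Y.Smin ∪ Finset.univ.image Y.r) n h qv) :
    Function.Injective (rthkdYv Y qv) := by
  rintro (j | i) (j' | i') hxy
  · exact congrArg Sum.inl (hqv.1 hxy)
  · exfalso
    apply (hqv.2.1 j).2.1
    have : qv j = Y.r i' := hxy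
    rw [this]
    exact Finset.mem_union_right _ (rthkdY_r_mem i')
  · exfalso
    apply (hqv.2.1 j').2.1
    have : Y.r i = qv j' := hxy
    rw [← this]
    exact Finset.mem_union_right _ (rthkdY_r_mem i)
  · exact congrArg Sum.inr (Y.r_inj hxy)

theorem rthkdY_pow_dvd
    (hqv : IsTWFamily P.p Y.ρbar (Y.Smin ∪ Finset.univ.image Y.r) n h qv)
    (x : Fin h ⊕ Y.ι) : P.p ^ rthkdYk Y (h := h) (n + 1) x ∣ rthkdYv Y qv x - 1 := by
  rcases x with j | i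
  · exact (hqv.2.1 j).2.2
  · have := (Y.hT (Y.r i) (rthkdY_r_mem i)).2.2.1
    show P.p ^ 1 ∣ Y.r i - 1
    rwa [pow_one]

theorem rthkdYM_eq : rthkdYM Y qv = rthkdM qv * rthkdM Y.r :=
  rthkdM_sum qv Y.r

theorem rthkdY_r_prod_dvd : rthkdM Y.r ∣ N :=
  rthkdM_dvd_of_primes Y.r (fun i => rthkdY_r_prime i) Y.r_inj (fun i => rthkdY_r_dvd i)

theorem rthkdYM_dvd_L : rthkdYM Y qv ∣ rthkdYL N qv := by
  rw [rthkdYM_eq, rthkdYL, mul_comm]
  exact Nat.mul_dvd_mul_right rthkdY_r_prod_dvd _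

theorem rthkdYv_dvd_M (x : Fin h ⊕ Y.ι) : rthkdYv Y qv x ∣ rthkdYM Y qv :=
  rthkd_dvd_M _ x

theorem rthkdYM_ne_zero
    (hqv : IsTWFamily P.p Y.ρbar (Y.Smin ∪ Finset.univ.image Y.r) n h qv) :
    rthkdYM Y qv ≠ 0 :=
  rthkdM_ne_zero _ fun x => (rthkdYv_prime hqv x).ne_zero

theorem rthkdYL_ne_zero (hN : N ≠ 0)
    (hqv : IsTWFamily P.p Y.ρbar (Y.Smin ∪ Finset.univ.image Y.r) n h qv) :
    rthkdYL N qv ≠ 0 :=
  Nat.mul_ne_zero hN (rthkdM_ne_zero _ fun j => (hqv.2.1 j).1.ne_zero)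

/-- a prime dividing `∏ qv j` is one of the `qv j` -/
theorem rthkdY_dvd_prod_qv
    (hqv : IsTWFamily P.p Y.ρbar (Y.Smin ∪ Finset.univ.image Y.r) n h qv)
    {ℓ : ℕ} (hℓ : ℓ.Prime) (hd : ℓ ∣ rthkdM qv) : ℓ ∈ Finset.univ.image qv := by
  rw [rthkdM] at hd
  obtain ⟨j, -, hj⟩ := (Prime.dvd_finsetProd_iff hℓ.prime qv).mp hd
  have : ℓ = qv j := (Nat.prime_dvd_prime_iff_eq hℓ (hqv.2.1 j).1).mp hj
  rw [this]
  exact Finset.mem_image_of_mem _ (Finset.mem_univ j)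

/-- the field `primes` -/
theorem rthkdY_primes
    (hqv : IsTWFamily P.p Y.ρbar (Y.Smin ∪ Finset.univ.image Y.r) n h qv)
    (ℓ : ℕ) (hℓ : ℓ.Prime)
    (hS : ℓ ∉ Y.Smin ∪ (Finset.univ.image qv ∪ Finset.univ.image Y.r)) :
    ¬ ℓ ∣ rthkdYL N qv * P.p := by
  intro hd
  apply hS
  rcases (Nat.Prime.dvd_mul hℓ).mp hd with h1 | h1
  · rcases (Nat.Prime.dvd_mul hℓ).mp h1 with h2 | h2
    · by_cases h3 : ℓ = 2
      · refine Finset.mem_union_left _ ?_
        rw [Y.hSmin, h3]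
        exact Finset.mem_insert_self _ _
      · exact Finset.mem_union_right _ (Finset.mem_union_right _
          ((Y.hr ℓ).mpr ⟨hℓ, h3, h2⟩))
    · exact Finset.mem_union_right _ (Finset.mem_union_left _ (rthkdY_dvd_prod_qv hqv hℓ h2))
  · have : ℓ = P.p := (Nat.prime_dvd_prime_iff_eq hℓ P.pp).mp h1
    refine Finset.mem_union_left _ ?_
    rw [Y.hSmin, this]
    exact Finset.mem_insert_of_mem (Finset.mem_singleton_self _)

/-- `p ∤ L` -/
theorem rthkdY_p_not_dvd_L (hpN : ¬ P.p ∣ N)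
    (hqv : IsTWFamily P.p Y.ρbar (Y.Smin ∪ Finset.univ.image Y.r) n h qv) :
    ¬ P.p ∣ rthkdYL N qv := by
  intro hd
  rcases (Nat.Prime.dvd_mul P.pp).mp hd with h1 | h1
  · exact hpN h1
  · have h2 := rthkdY_dvd_prod_qv hqv P.pp h1
    obtain ⟨j, -, hj⟩ := Finset.mem_image.mp h2
    apply (hqv.2.1 j).2.1
    refine Finset.mem_union_left _ ?_
    rw [Y.hSmin, hj]
    exact Finset.mem_insert_of_mem (Finset.mem_singleton_self _)

end inst

end Fermat.Agent.RT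


end ZBRT_002_15
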