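/- GENERATED FILE (helper35, build-time optimisation, NOTES/ZB.md): verbatim concatenation of the modules
   Fermat.Agent.S07.Index
   Do not edit; do not import together with these modules. -/
import Mathlib.NumberTheory.ModularForms.QExpansion
import Mathlib.NumberTheory.ModularForms.CongruenceSubgroups
import Fermat.Prelude.Thm_ModularForm_sturm_bound_Gamma0

/-! ### bundled: `Fermat.Agent.S07.Index` -/
section ZBS07_001_0

set_option autoImplicit false

open UpperHalfPlane
open scoped MatrixGroups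

namespace Fermat.Agent.S07

/-- The matrix `S = !![0, -1; 1, 0]` of `SL(2, ℤ)`. -/
def gS : SL(2, ℤ) := ⟨!![0, -1; 1, 0], by simp [Matrix.det_fin_two]⟩

/-- The matrix `!![1, 0; 1, 1]` of `SL(2, ℤ)`. -/
def gL : SL(2, ℤ) := ⟨!![1, 0; 1, 1], by simp [Matrix.det_fin_two]⟩

lemma gS_inv_mul_apply (A : SL(2, ℤ)) : (gS⁻¹ * A) 1 0 = - A 0 0 := by
  rw [Matrix.SpecialLinearGroup.coe_mul, Matrix.SpecialLinearGroup.coe_inv]
  simp [gS, Matrix.adjugate_fin_two_of, Matrix.mul_apply, Fin.sum_univ_two]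

lemma gL_inv_mul_apply (A : SL(2, ℤ)) : (gL⁻¹ * A) 1 0 = A 1 0 - A 0 0 := by
  rw [Matrix.SpecialLinearGroup.coe_mul, Matrix.SpecialLinearGroup.coe_inv]
  simp [gL, Matrix.adjugate_fin_two_of, Matrix.mul_apply, Fin.sum_univ_two]
  ring

/-- The three coset representatives of `Γ₀(2)` in `SL(2, ℤ)`. -/
def cosetRep : Fin 3 → SL(2, ℤ) := ![1, gS, gL]

lemma exists_cosetRep (A : SL(2, ℤ)) :
    ∃ i : Fin 3, (cosetRep i)⁻¹ * A ∈ CongruenceSubgroup.Gamma0 2 := by
  have hdet : A 0 0 * A 1 1 - A 0 1 * A 1 0 = 1 := by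
    have := A.det_coe
    rwa [Matrix.det_fin_two] at this
  rcases Int.emod_two_eq_zero_or_one (A 1 0) with hc | hc
  · refine ⟨0, ?_⟩
    rw [CongruenceSubgroup.Gamma0_mem]
    simp only [cosetRep, Matrix.cons_val_zero, inv_one, one_mul]
    rw [ZMod.intCast_zmod_eq_zero_iff_dvd]
    exact Int.dvd_of_emod_eq_zero hc
  · rcases Int.emod_two_eq_zero_or_one (A 0 0) with ha | ha
    · refine ⟨1, ?_⟩
      rw [CongruenceSubgroup.Gamma0_mem]
      have : ((cosetRep 1)⁻¹ * A) 1 0 = - A 0 0 := gS_inv_mul_apply A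
      rw [this, ZMod.intCast_zmod_eq_zero_iff_dvd]
      exact (Int.dvd_of_emod_eq_zero ha).neg_right
    · refine ⟨2, ?_⟩
      rw [CongruenceSubgroup.Gamma0_mem]
      have : ((cosetRep 2)⁻¹ * A) 1 0 = A 1 0 - A 0 0 := gL_inv_mul_apply A
      rw [this, ZMod.intCast_zmod_eq_zero_iff_dvd]
      omega

lemma index_Gamma0_two_le : (CongruenceSubgroup.Gamma0 2).index ≤ 3 := by
  have hsurj : Function.Surjective
      (fun i : Fin 3 => (cosetRep i : SL(2, ℤ) ⧸ CongruenceSubgroup.Gamma0 2)) := by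
    intro x
    induction x using QuotientGroup.induction_on with
    | H A =>
      obtain ⟨i, hi⟩ := exists_cosetRep A
      exact ⟨i, QuotientGroup.eq.mpr hi⟩
  have := Nat.card_le_card_of_surjective _ hsurj
  simpa [Subgroup.index] using this

end Fermat.Agent.S07


end ZBS07_001_0
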