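/- GENERATED FILE (helper35, build-time optimisation, NOTES/ZB.md): verbatim concatenation of the modules
   Fermat.Agent.RIB.MP.GlueTr
   Fermat.Agent.RIB.MP.GlueAbs
   Do not edit; do not import together with these modules. -/
import Fermat.Agent.ZB.EC_003
import Fermat.Agent.ZB.EC_001
import Fermat.Agent.ZB.S04_001
import Fermat.Prelude.Def_FLTPrelim_Modularity
import Fermat.Prelude.Def_FLTPrelim_ModularRep
import Fermat.Prelude.Def_FLTPrelim_Ramification
import Fermat.Agent.ZB.RIB_001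
import Fermat.Agent.ZB.S07_002
import Fermat.Agent.ZB.RED_001
import Fermat.Agent.ZB.Common_003
import Fermat.Agent.ZB.RT_002
import Fermat.Agent.ZB.Cheb_001

/-! ### bundled: `Fermat.Agent.RIB.MP.GlueTr` -/
section ZBRIB_006_0
/-
Row 37, Mazur's principle, piece MP-5 (helper43), part 1: TRANSPORT between the Frey curve and an
integral model (change of variables), for irreducibility, unramifiedness and scalar Frobenius.
-/

set_option autoImplicit false

noncomputable section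

namespace Fermat.Agent.RIB.MP

open WeierstrassCurve WeierstrassCurve.Affine WeierstrassCurve.Affine.Point Fermat.Agent.EC
open Fermat.Agent.EC.DetChar
open scoped WeierstrassCurve.Affine

local notation "Qbar" => AlgebraicClosure ℚ
local notation "GQ'" => (AlgebraicClosure ℚ ≃ₐ[ℚ] AlgebraicClosure ℚ)

/-- the discriminant of an integral model of a curve with `Δ ≠ 0` is nonzero -/
theorem ribmp_model_Δ_ne_zero (E : WeierstrassCurve ℚ) (hE : E.Δ ≠ 0) (W : WeierstrassCurve ℤ)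
    (hW : W.IsIntegralModelOf E) : W.Δ ≠ 0 := by
  obtain ⟨C, hC⟩ := hW
  intro h0
  have h1 : (C • E).Δ = 0 := by
    rw [hC, WeierstrassCurve.map_Δ, h0, _root_.map_zero]
  rw [WeierstrassCurve.variableChange_Δ] at h1
  have hu : ((C.u⁻¹ : ℚˣ) : ℚ) ^ 12 ≠ 0 := pow_ne_zero _ (Units.ne_zero _)
  exact hE ((mul_eq_zero.1 h1).resolve_left hu)

theorem ribmp_freyCurve_Δ_ne_zero (P : FreyPackage) : P.freyCurve.Δ ≠ 0 := by
  rw [← Fermat.Agent.S04.freyCurveInt_map, WeierstrassCurve.map_Δ]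
  have := Fermat.Agent.S04.freyCurveInt_Δ_ne_zero P
  simpa using this

/-- **Transport of the torsion.**  If `C • E = W₁` the `n`-torsion modules are isomorphic,
compatibly with `G_ℚ`. -/
theorem ribmp_tors_transport (E W₁ : WeierstrassCurve ℚ) (C : VariableChange ℚ) (h : C • E = W₁)
    (n : ℕ) :
    ∃ e : TorsQbar W₁ n ≃+ TorsQbar E n, ∀ (σ : GQ') (x : TorsQbar W₁ n), e (σ • x) = σ • e x := by
  obtain ⟨e, he⟩ := Fermat.Agent.EC.vc_transport (K := Qbar) W₁ E C h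
  have hmem : ∀ x : (W₁⁄Qbar).toAffine.Point,
      x ∈ Submodule.torsionBy ℤ (W₁⁄Qbar).toAffine.Point n ↔
        e x ∈ Submodule.torsionBy ℤ (E⁄Qbar).toAffine.Point n := by
    intro x
    rw [Submodule.mem_torsionBy_iff, Submodule.mem_torsionBy_iff, ← map_zsmul]
    constructor
    · intro hx; rw [hx, _root_.map_zero]
    · intro hx; exact e.injective (by rw [hx, _root_.map_zero])
  refine ⟨{ toFun := fun x => ⟨e x.1, (hmem x.1).1 x.2⟩
            invFun := fun y => ⟨e.symm y.1, (hmem _).2 (by rw [e.apply_symm_apply]; exact y.2)⟩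
            left_inv := fun x => Subtype.ext (e.symm_apply_apply _)
            right_inv := fun y => Subtype.ext (e.apply_symm_apply _)
            map_add' := fun x y => Subtype.ext (map_add e _ _) }, ?_⟩
  intro σ x
  exact Subtype.ext (he σ x.1)

/-- **Transport of irreducibility.** -/
theorem ribmp_irr_transport (E W₁ : WeierstrassCurve ℚ) (C : VariableChange ℚ) (h : C • E = W₁)
    (n : ℕ) (hirr : GaloisRepIsIrreducible (K := Qbar) ℚ E n) :
    GaloisRepIsIrreducible (K := Qbar) ℚ W₁ n := by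
  obtain ⟨e, he⟩ := ribmp_tors_transport E W₁ C h n
  obtain ⟨hnt, hN⟩ := hirr
  refine ⟨e.symm.injective.nontrivial, fun N hstab => ?_⟩
  let f : TorsQbar W₁ n →ₗ[ZMod n] TorsQbar E n := e.toAddMonoidHom.toZModLinearMap n
  have hf : ∀ x, f x = e x := fun _ => rfl
  rcases hN (N.map f) (by
      intro σ y hy
      obtain ⟨x, hx, rfl⟩ := Submodule.mem_map.1 hy
      exact Submodule.mem_map.2 ⟨σ • x, hstab σ x hx, by rw [hf, hf, he]⟩) with h0 | h1
  · left
    rw [eq_bot_iff]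
    intro x hx
    have : f x ∈ N.map f := Submodule.mem_map_of_mem hx
    rw [h0, Submodule.mem_bot, hf] at this
    rw [Submodule.mem_bot]
    exact e.injective (by rw [this, _root_.map_zero])
  · right
    rw [eq_top_iff]
    intro y _
    have : f y ∈ N.map f := by rw [h1]; trivial
    obtain ⟨x, hx, hxy⟩ := Submodule.mem_map.1 this
    rw [hf, hf] at hxy
    rwa [← e.injective hxy]

/-- **An involution commuting with `G_ℚ` on an irreducible `E[n]` is `± 1`.** -/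
theorem ribmp_involution (W₁ : WeierstrassCurve ℚ) (n : ℕ)
    (hirr : GaloisRepIsIrreducible (K := Qbar) ℚ W₁ n)
    (ψ : TorsQbar W₁ n →+ TorsQbar W₁ n) (hψ2 : ∀ y, ψ (ψ y) = y)
    (hψσ : ∀ (σ : GQ') (y : TorsQbar W₁ n), ψ (σ • y) = σ • ψ y) :
    (∀ y, ψ y = y) ∨ (∀ y, ψ y = -y) := by
  let f : TorsQbar W₁ n →ₗ[ZMod n] TorsQbar W₁ n := ψ.toZModLinearMap n
  have hf : ∀ x, f x = ψ x := fun _ => rfl
  let N : Submodule (ZMod n) (TorsQbar W₁ n) := LinearMap.ker (f - LinearMap.id)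
  have hN : ∀ x, x ∈ N ↔ ψ x = x := by
    intro x
    rw [LinearMap.mem_ker, LinearMap.sub_apply, LinearMap.id_apply, hf, sub_eq_zero]
  rcases hirr.2 N (by
      intro σ x hx
      rw [hN] at hx ⊢
      rw [hψσ, hx]) with h0 | h1
  · right
    intro y
    have : y + ψ y ∈ N := by
      rw [hN, map_add, hψ2, add_comm]
    rw [h0, Submodule.mem_bot] at this
    exact (eq_neg_of_add_eq_zero_right this)
  · left
    intro y
    exact (hN y).1 (by rw [h1]; trivial)

end Fermat.Agent.RIB.MP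

end
end ZBRIB_006_0

/-! ### bundled: `Fermat.Agent.RIB.MP.GlueAbs` -/
section ZBRIB_006_1
/-
Row 37, Mazur's principle, piece MP-5 (helper43): THE GLUE, in abstract form.

`AtQCore M₁ q p J` : what the geometry of `J₀(M₁ q)` at `q` has to deliver (in the shape of
`R38.AtPCore`): a `p`-adic Eichler–Shimura module `J` of level `M₁ q` with an involution `w`
commuting with `G_ℚ`, such that every inertia-fixed, non-Eisenstein, `q`-new (in the Hecke
sense) eigen-class `x ∈ J[p]` satisfies `σ (w x) + q x = 0` for every Frobenius `σ` at `q`.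

`ribmp_glue : R38.StmtLift → StmtRepN → StmtPkgQ → RIB.StmtMP`.
`ribmp_glue_even : R38.StmtLift → StmtRepN → StmtPkgQe → RIB.StmtMPe` (EVEN levels, `2 ∣ M₁`: the
form used by the final wiring `RIB.s43_of_even_parts`; the packages at `q = 3` need `2 ∣ M₁`).

Proof.  `N = M₁ q`.  OLD case (the eigen-system of `E` mod `p` kills every good Hecke polynomial
killing the forms of level `M₁`): `StmtLift` gives an eigenform of level `M₁`; with the model
scaled by `N` this is `ModularRepOfLevel M₁`.  NEW case: there is `t₀` killing level `M₁` and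
acting on `E[p]`-eigenvectors through a unit; `StmtRepN` gives `V₀ ≅ E[p]` inside `J[p]`; `V₀` is
inertia-fixed at `q` (`ρ̄` is unramified at `q`), so `σ (w x) = − q x` on `V₀`; hence `w V₀ = V₀`,
`w = ε = ± 1` on `V₀` (irreducibility), and every Frobenius at `q` acts on `E[p]` through the
scalar `− ε q`.  The determinant is cyclotomic: `q² = q` in `𝔽_p`, `q ≡ 1`, and `q` is a trivial
prime.
-/

set_option autoImplicit false

noncomputable section

namespace Fermat.Agent.RIB.MP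

open ModularCurve Fermat.Agent.ES ExtCitation Fermat.Agent.R38 Fermat.Agent.EC
open WeierstrassCurve WeierstrassCurve.Affine WeierstrassCurve.Affine.Point
open scoped WeierstrassCurve.Affine

/-- **The structure of `J₀(M₁ q)[p]` at `q`, minimal form** — what the glue consumes. -/
structure AtQCore (M₁ q p : ℕ) [NeZero M₁] (J : Type) [AddCommGroup J] [Module HeckeAlg J]
    [DistribMulAction GQ J] : Prop where
  /-- the Eichler–Shimura package at level `M₁ * q` -/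
  es : ESDataInf (M₁ * q) p J
  /-- **Mazur's principle at `q`** -/
  atq : ∃ w : J →+ J, (∀ x, w (w x) = x) ∧ (∀ (σ : GQ) (x : J), w (σ • x) = σ • w x) ∧
    ∀ A : ValuationSubring Qb, A.LiesOverPrime q → ∀ σ : GQ, A.IsFrobeniusAt σ q →
      ∀ x : J, p • x = 0 → (∀ τ ∈ A.inertiaSubgroupIn ℚ, τ • x = x) →
      ∀ t₀ ∈ MvPolynomial.supported ℤ (goodPrimes (M₁ * q) p), KillsForms M₁ t₀ →
        ∀ n₀ : ℤ, t₀ • x = n₀ • x → ¬ (p : ℤ) ∣ n₀ →
      ∀ ℓ₁ ∈ goodPrimes (M₁ * q) p, ∀ n₁ : ℤ, heckeGen ℓ₁ • x = n₁ • x →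
        ¬ (p : ℤ) ∣ n₁ - ((ℓ₁ : ℕ) + 1) →
        σ • w x + q • x = 0

/-- **MP-PKG** on the pairs `(M₁, q)` satisfying `C`. -/
def StmtPkgQOn (C : ℕ → ℕ → Prop) : Prop :=
  ∀ (M₁ q p : ℕ) [NeZero M₁], C M₁ q → p.Prime → 5 ≤ p → q.Prime → q ≠ 2 → q ≠ p → ¬ q ∣ M₁ →
    ¬ p ∣ M₁ → Squarefree (M₁ * q) →
    ∃ (J : Type) (_ : AddCommGroup J) (_ : Module HeckeAlg J) (_ : DistribMulAction GQ J),
      AtQCore M₁ q p J

/-- **MP-PKG at EVEN levels** (`2 ∣ M₁`): this is all that row 37 needs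
(`RIB/PlanEven.lean`), and the reduction packages at `q = 3` exist for even `M₁` only. -/
def StmtPkgQe : Prop := StmtPkgQOn (fun M₁ _ => 2 ∣ M₁)

/-- **MP-PKG**: the package exists. -/
def StmtPkgQ : Prop :=
  ∀ (M₁ q p : ℕ) [NeZero M₁], p.Prime → 5 ≤ p → q.Prime → q ≠ 2 → q ≠ p → ¬ q ∣ M₁ →
    ¬ p ∣ M₁ → Squarefree (M₁ * q) →
    ∃ (J : Type) (_ : AddCommGroup J) (_ : Module HeckeAlg J) (_ : DistribMulAction GQ J),
      AtQCore M₁ q p J

theorem goodAt_subset (W : WeierstrassCurve ℤ) (N p : ℕ) : goodAt W N p ⊆ goodPrimes N p :=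
  fun _ h => h.1

/-- the eigenform of the hypothesis gives an eigen-vector in `J[p]` -/
theorem ribmp_exists_eigenvector (W : WeierstrassCurve ℤ) {N p : ℕ} {J : Type} [AddCommGroup J]
    [Module HeckeAlg J] [DistribMulAction GQ J] (hes : ESDataInf N p J)
    (f : CuspForm (CongruenceSubgroup.Gamma0 N) 2) (hf : f.IsNormalizedEigenform)
    (𝔪 : Ideal Zbar) (hm : 𝔪.IsMaximal) (hpm : (p : Zbar) ∈ 𝔪)
    (hcong : ∀ ℓ : ℕ, ℓ.Prime → W.IsGoodPrimeFor ℓ → ¬ ℓ ∣ N → ℓ ≠ p →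
      ∃ a : Zbar, (a : ℂ) = ModularFormClass.qCoeff f ℓ ∧
        a - ((W.apOfModel ℓ : ℤ) : Zbar) ∈ 𝔪) :
    ∃ v : J, v ≠ 0 ∧ p • v = 0 ∧
      ∀ ℓ ∈ goodAt W N p, heckeGen ℓ • v = (W.apOfModel ℓ : ℤ) • v := by
  obtain ⟨v, hv0, hpv, hv⟩ := hes.supp f hf 𝔪 hm hpm
  refine ⟨v, hv0, hpv, fun ℓ hℓ => ?_⟩
  have hℓN : ¬ (ℓ : ℕ) ∣ N := fun h => hℓ.1 (Dvd.dvd.mul_right h p)
  have hℓp : (ℓ : ℕ) ≠ p := by
    intro h
    apply hℓ.1
    rw [h]
    exact dvd_mul_left _ _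
  obtain ⟨z, hz, hzm⟩ := hcong ℓ ℓ.2 hℓ.2 hℓN hℓp
  have h0 : (heckeGen ℓ - MvPolynomial.C (W.apOfModel ℓ)) • v = 0 := by
    refine hv _ ?_ ⟨_, hzm, ?_⟩
    · refine Subalgebra.sub_mem _ ?_ (Subalgebra.algebraMap_mem _ _)
      exact MvPolynomial.X_mem_supported.2 (goodAt_subset W N p hℓ)
    · rw [heckeValue, map_sub, aeval_heckeGen, MvPolynomial.aeval_C]
      push_cast
      rw [hz]
      simp
  rw [sub_smul, sub_eq_zero] at h0
  rw [h0, ← MvPolynomial.algebraMap_eq, algebraMap_smul]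

open Fermat.Agent.EC.DetChar in
/-- a Frobenius at `q ≠ p` acting on `E[p]` through the integer `c` forces `c² = q` in `𝔽_p` -/
theorem ribmp_scalar_sq (W : WeierstrassCurve ℤ) (hΔ : W.Δ ≠ 0) (p : ℕ) [Fact p.Prime]
    (hirr : W.ModRepIsIrreducible p) {q : ℕ} (hq : q.Prime) (hqp : q ≠ p)
    (A : ValuationSubring Qb) (hA : A.LiesOverPrime q) (σ : GQ) (hσ : A.IsFrobeniusAt σ q)
    (c : ℤ) (hc : ∀ y : ETors W p, σ • y = c • y) : ((c : ZMod p)) ^ 2 = (q : ZMod p) := by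
  have hp : p.Prime := Fact.out
  have hdet := Fermat.Agent.RED.det_of_model W hΔ hirr σ
  rw [Fermat.Agent.S42.cycloChar_frob p hp q hq hqp A hA σ hσ] at hdet
  have hsc : rhoBar (W.map (Int.castRingHom ℚ)) p σ =
      (c : ZMod p) • (LinearMap.id : TorsQbar (W.map (Int.castRingHom ℚ)) p →ₗ[ZMod p] _) := by
    refine LinearMap.ext fun y => ?_
    rw [rhoBar_apply, LinearMap.smul_apply, LinearMap.id_apply, Int.cast_smul_eq_zsmul]
    exact hc y
  rw [hsc, LinearMap.det_smul, LinearMap.det_id, mul_one,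
    finrank_of_card (Fermat.Agent.RED.card_torsQbar W hΔ hp.ne_zero)] at hdet
  exact hdet

/-- **MP-5, the glue (abstract form)**, on the pairs `(N / q, q)` satisfying `C`. -/
theorem ribmp_glue_on (Cq : ℕ → ℕ → Prop) (hLift : StmtLift) (hRep : StmtRepN)
    (hPkg : StmtPkgQOn Cq) (P : FreyPackage) (N q : ℕ) (hCq : Cq (N / q) q)
    (hcond : P.IsConductorLevel N) (hpN : ¬ P.p ∣ N) (hq : q.Prime) (hq2 : q ≠ 2)
    (hqp : q ≠ P.p) (hqN : q ∣ N)
    (hirr : GaloisRepIsIrreducible (K := AlgebraicClosure ℚ) ℚ P.freyCurve P.p)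
    (hmod : P.ModularRepOfLevel N) (hunr : P.GaloisRepUnramifiedAt q) :
    Fermat.Agent.RIB.Lowered P N q ∨ Fermat.Agent.RIB.IsTrivialPrime P q := by
  obtain ⟨M₁, rfl⟩ : ∃ M₁, N = M₁ * q := ⟨N / q, (Nat.div_mul_cancel hqN).symm⟩
  rw [Nat.mul_div_cancel M₁ hq.pos] at hCq
  have hNpos : 0 < M₁ * q := hcond.pos
  have hM₁ : 0 < M₁ := Nat.pos_of_ne_zero (by rintro rfl; simp at hNpos)
  have : NeZero M₁ := ⟨hM₁.ne'⟩
  have hqM₁ : ¬ q ∣ M₁ := by
    rintro ⟨k, rfl⟩
    exact hcond.sq_not_dvd hq ⟨k, by ring⟩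
  have hpM₁ : ¬ P.p ∣ M₁ := fun h => hpN (Dvd.dvd.mul_right h q)
  have hp2 : P.p ≠ 2 := by have := P.hp5; omega
  have : Fact P.p.Prime := ⟨P.pp⟩
  obtain ⟨f, W, 𝔪, hf, hW, hm, hpm, hcong⟩ := hmod
  have hΔ : W.Δ ≠ 0 := ribmp_model_Δ_ne_zero _ (ribmp_freyCurve_Δ_ne_zero P) W hW
  obtain ⟨C, hC⟩ := id hW
  have hirrW : W.ModRepIsIrreducible P.p := ribmp_irr_transport _ _ C hC _ hirr
  by_cases hold : ∀ t ∈ MvPolynomial.supported ℤ (goodAt W (M₁ * q) P.p), KillsForms M₁ t →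
      (P.p : ℤ) ∣ MvPolynomial.aeval (fun ℓ : Nat.Primes => W.apOfModel ℓ) t
  · -- OLD case
    left
    obtain ⟨g, 𝔪', hg, hm', hpm', hcong'⟩ := hLift M₁ P.p P.pp (goodAt W (M₁ * q) P.p) _
      (fun ℓ hℓ h => hℓ.1 (Dvd.dvd.mul_right (Dvd.dvd.mul_right h q) P.p)) hold
    have hu : ((M₁ * q : ℕ) : ℤ) ≠ 0 := by exact_mod_cast hNpos.ne'
    refine ⟨M₁, dvd_mul_right _ _, hqM₁, g,
      Fermat.Agent.RT.Interp.rtintScale W ((M₁ * q : ℕ) : ℤ), 𝔪', hg,
      Fermat.Agent.RT.Interp.rtintScale_isIntegralModelOf hu hW, hm', hpm', ?_⟩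
    intro ℓ hℓ hgood hℓM hℓp
    obtain ⟨hℓu, hℓW⟩ :=
      (Fermat.Agent.RT.Interp.rtintScale_isGoodPrimeFor_iff W _ hℓ).mp hgood
    have hℓN : ¬ ℓ ∣ M₁ * q := fun h => hℓu (Int.natCast_dvd_natCast.mpr h)
    have hℓNp : ¬ ℓ ∣ M₁ * q * P.p := by
      intro h
      rcases (Nat.Prime.dvd_mul hℓ).1 h with h | h
      · exact hℓN h
      · exact hℓp ((Nat.prime_dvd_prime_iff_eq hℓ P.pp).1 h)
    obtain ⟨z, hz, hzm⟩ := hcong' ⟨ℓ, hℓ⟩ ⟨hℓNp, hℓW⟩
    refine ⟨z, hz, ?_⟩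
    rw [Fermat.Agent.RT.Interp.rtintScale_apOfModel W _ hℓ hℓu]
    exact hzm
  · -- NEW case
    right
    push Not at hold
    obtain ⟨t₀, ht₀S, ht₀K, hn₀⟩ := hold
    obtain ⟨J, _, _, _, hJ⟩ := hPkg M₁ q P.p hCq P.pp P.hp5 hq hq2 hqp hqM₁ hpM₁ hcond.squarefree
    obtain ⟨v, hv0, hpv, hv⟩ := ribmp_exists_eigenvector W hJ.es f hf 𝔪 hm hpm hcong
    obtain ⟨V₀, e, hV₀p, hV₀eig, hst, he⟩ :=
      hRep W hΔ P.p P.pp hp2 hirrW (M₁ * q) hNpos J _ _ _ hJ.es v hv0 hpv hv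
    have ht₀g : t₀ ∈ MvPolynomial.supported ℤ (goodPrimes (M₁ * q) P.p) :=
      MvPolynomial.supported_mono (goodAt_subset W (M₁ * q) P.p) ht₀S
    have hpoly := glue_poly_eigen V₀ (goodAt W (M₁ * q) P.p)
      (fun ℓ : Nat.Primes => W.apOfModel ℓ) hV₀eig
    set n₀ : ℤ := MvPolynomial.aeval (fun ℓ : Nat.Primes => W.apOfModel ℓ) t₀ with hn₀def
    -- a non-Eisenstein prime
    obtain ⟨ℓ, hℓ, hℓS, -, hℓp, hℓg, -, hℓE⟩ :=
      Fermat.Agent.RED.exists_prime_not_dvd_of_model W hΔ hp2 hirrW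
        (M₁ * q * P.p).primeFactors (M := 1) one_pos
    have hℓmem : (⟨ℓ, hℓ⟩ : Nat.Primes) ∈ goodAt W (M₁ * q) P.p := by
      refine ⟨fun h => hℓS ?_, hℓg⟩
      rw [Nat.mem_primeFactors]
      exact ⟨hℓ, h, (Nat.mul_pos hNpos P.pp.pos).ne'⟩
    -- `E[p]` of the model is unramified at `q`
    obtain ⟨eT, heT⟩ := ribmp_tors_transport P.freyCurve (W.map (Int.castRingHom ℚ)) C hC P.p
    have hunrW : ∀ A : ValuationSubring Qb, A.LiesOverPrime q →
        ∀ τ ∈ A.inertiaSubgroupIn ℚ, ∀ y : ETors W P.p, τ • y = y := by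
      intro A hA τ hτ y
      apply eT.injective
      rw [heT]
      exact hunr A hA τ hτ (eT y)
    have hunrV : ∀ A : ValuationSubring Qb, A.LiesOverPrime q →
        ∀ τ ∈ A.inertiaSubgroupIn ℚ, ∀ x ∈ V₀, τ • x = x := by
      intro A hA τ hτ x hx
      have h := hunrW A hA τ hτ (e ⟨x, hx⟩)
      rw [← he τ ⟨x, hx⟩] at h
      exact congrArg Subtype.val (e.injective h)
    obtain ⟨w, hw2, hwσ, hatq⟩ := hJ.atq
    have hkey : ∀ A : ValuationSubring Qb, A.LiesOverPrime q → ∀ σ : GQ, A.IsFrobeniusAt σ q →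
        ∀ x ∈ V₀, σ • w x + q • x = 0 := by
      intro A hA σ hσ x hx
      exact hatq A hA σ hσ x (hV₀p x hx) (fun τ hτ => hunrV A hA τ hτ x hx) t₀ ht₀g ht₀K n₀
        (hpoly t₀ ht₀S x hx) hn₀ ⟨ℓ, hℓ⟩ (goodAt_subset W (M₁ * q) P.p hℓmem) (W.apOfModel ℓ)
        (hV₀eig x hx _ hℓmem) hℓE
    -- a Frobenius at `q`
    obtain ⟨A₀, hA₀⟩ := Fermat.Agent.Common.exists_liesOverPrime q hq
    obtain ⟨σ₀, hσ₀⟩ := Fermat.Agent.Common.exists_isFrobeniusAt_of_liesOverPrime q hq A₀ hA₀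
    -- `w` preserves `V₀`
    have hwV : ∀ x ∈ V₀, w x ∈ V₀ := by
      intro x hx
      have h := hkey A₀ hA₀ σ₀ hσ₀ x hx
      have h2 : w x = σ₀⁻¹ • (-(q • x)) := by
        rw [← eq_neg_iff_add_eq_zero] at h
        rw [← h, inv_smul_smul]
      rw [h2]
      exact hst σ₀⁻¹ _ (V₀.neg_mem (V₀.nsmul_mem hx q))
    -- the involution on `E[p]`
    have hesymm : ∀ (σ : GQ) (y : ETors W P.p),
        ((e.symm (σ • y) : V₀) : J) = σ • ((e.symm y : V₀) : J) := by
      intro σ y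
      have h := he σ (e.symm y)
      rw [e.apply_symm_apply] at h
      rw [← h, e.symm_apply_apply]
    let ψ : ETors W P.p →+ ETors W P.p :=
      AddMonoidHom.mk' (fun y => e ⟨w (e.symm y : V₀), hwV _ (e.symm y).2⟩) (by
        intro a b
        rw [← map_add]
        congr 1
        apply Subtype.ext
        simp only [map_add, AddSubgroup.coe_add])
    have hψdef : ∀ y, ψ y = e ⟨w (e.symm y : V₀), hwV _ (e.symm y).2⟩ := fun _ => rfl
    have hψ2 : ∀ y, ψ (ψ y) = y := by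
      intro y
      rw [hψdef (ψ y)]
      have : (e.symm (ψ y) : V₀) = ⟨w (e.symm y : V₀), hwV _ (e.symm y).2⟩ := by
        rw [hψdef, e.symm_apply_apply]
      have h3 : (⟨w (e.symm (ψ y) : V₀), hwV _ (e.symm (ψ y)).2⟩ : V₀) = e.symm y := by
        apply Subtype.ext
        show w ((e.symm (ψ y) : V₀) : J) = _
        rw [this]
        exact hw2 _
      rw [h3, e.apply_symm_apply]
    have hψσ : ∀ (σ : GQ) (y : ETors W P.p), ψ (σ • y) = σ • ψ y := by
      intro σ y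
      rw [hψdef, hψdef, ← he σ ⟨w (e.symm y : V₀), hwV _ (e.symm y).2⟩]
      congr 1
      apply Subtype.ext
      show w ((e.symm (σ • y) : V₀) : J) = σ • w ((e.symm y : V₀) : J)
      rw [hesymm, hwσ]
    -- `w = ε` on `V₀`
    obtain ⟨ε, hε, hwε⟩ : ∃ ε : ℤ, (ε = 1 ∨ ε = -1) ∧ ∀ x ∈ V₀, w x = ε • x := by
      rcases ribmp_involution (W.map (Int.castRingHom ℚ)) P.p hirrW ψ hψ2 hψσ with h1 | h1
      · refine ⟨1, Or.inl rfl, fun x hx => ?_⟩
        have h := h1 (e ⟨x, hx⟩)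
        rw [hψdef] at h
        have h' := congrArg Subtype.val (e.injective h)
        simp only [e.symm_apply_apply] at h'
        rw [one_smul]
        exact h'
      · refine ⟨-1, Or.inr rfl, fun x hx => ?_⟩
        have h := h1 (e ⟨x, hx⟩)
        rw [hψdef, ← map_neg] at h
        have h' := congrArg Subtype.val (e.injective h)
        simp only [e.symm_apply_apply] at h'
        rw [neg_smul, one_smul]
        exact h'
    have hε2 : ε * ε = 1 := by rcases hε with rfl | rfl <;> norm_num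
    -- every Frobenius at `q` acts on `V₀` through `c = - ε q`
    have hscV : ∀ A : ValuationSubring Qb, A.LiesOverPrime q → ∀ σ : GQ, A.IsFrobeniusAt σ q →
        ∀ x ∈ V₀, σ • x = (-(ε * (q : ℤ))) • x := by
      intro A hA σ hσ x hx
      have h := hkey A hA σ hσ x hx
      rw [hwε x hx, ← eq_neg_iff_add_eq_zero] at h
      have h1 : σ • (ε • x) = ε • (σ • x) :=
        map_zsmul (DistribSMul.toAddMonoidHom J σ) ε x
      rw [h1] at h
      calc σ • x = (ε * ε) • (σ • x) := by rw [hε2, one_smul]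
        _ = ε • (ε • (σ • x)) := by rw [mul_smul]
        _ = ε • (-(q • x)) := by rw [h]
        _ = (-(ε * (q : ℤ))) • x := by
          rw [neg_smul, mul_smul, smul_neg, natCast_zsmul]
    have hscE : ∀ A : ValuationSubring Qb, A.LiesOverPrime q → ∀ σ : GQ, A.IsFrobeniusAt σ q →
        ∀ y : ETors W P.p, σ • y = (-(ε * (q : ℤ))) • y := by
      intro A hA σ hσ y
      obtain ⟨x, rfl⟩ := e.surjective y
      rw [← he σ x, ← map_zsmul]
      congr 1
      exact Subtype.ext (hscV A hA σ hσ x x.2)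
    -- `q ≡ 1 mod p`
    have hsq := ribmp_scalar_sq W hΔ P.p hirrW hq hqp A₀ hA₀ σ₀ hσ₀ _ (hscE A₀ hA₀ σ₀ hσ₀)
    have hq0 : (q : ZMod P.p) ≠ 0 := by
      rw [Ne, ZMod.natCast_eq_zero_iff]
      exact fun h => hqp ((Nat.prime_dvd_prime_iff_eq P.pp hq).1 h).symm
    have hq1 : (q : ZMod P.p) = 1 := by
      have h : (q : ZMod P.p) * (q : ZMod P.p) = (q : ZMod P.p) * 1 := by
        have hε' : ((ε : ZMod P.p)) * (ε : ZMod P.p) = 1 := by exact_mod_cast congrArg (Int.cast : ℤ → ZMod P.p) hε2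
        push_cast at hsq
        calc (q : ZMod P.p) * (q : ZMod P.p)
            = ((ε : ZMod P.p) * (ε : ZMod P.p)) * ((q : ZMod P.p) * (q : ZMod P.p)) := by
              rw [hε', one_mul]
          _ = (-((ε : ZMod P.p) * (q : ZMod P.p))) ^ 2 := by ring
          _ = (q : ZMod P.p) * 1 := by rw [hsq, mul_one]
      exact mul_left_cancel₀ hq0 h
    have hpq : P.p ∣ q - 1 := by
      have h1 : ((q : ℕ) : ZMod P.p) = ((1 : ℕ) : ZMod P.p) := by rw [hq1, Nat.cast_one]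
      rw [ZMod.natCast_eq_natCast_iff] at h1
      exact (Nat.modEq_iff_dvd' hq.one_le).1 h1.symm
    -- the scalar is `- ε` on `p`-torsion
    have hscE' : ∀ A : ValuationSubring Qb, A.LiesOverPrime q → ∀ σ : GQ, A.IsFrobeniusAt σ q →
        ∀ y : ETors W P.p, σ • y = (-ε) • y := by
      intro A hA σ hσ y
      rw [hscE A hA σ hσ y]
      obtain ⟨k, hk⟩ := hpq
      have hqk : (q : ℤ) = 1 + (P.p : ℤ) * k := by
        have : q = 1 + P.p * k := by have := hq.one_le; omega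
        exact_mod_cast this
      have hpy : (P.p : ℤ) • y = 0 := Submodule.smul_torsionBy _ y
      have h0 : ((ε * k) * (P.p : ℤ)) • y = 0 := by rw [mul_smul, hpy, smul_zero]
      have h1 : -(ε * (1 + (P.p : ℤ) * k)) = -ε + -((ε * k) * (P.p : ℤ)) := by ring
      rw [hqk, h1, add_smul, neg_smul ((ε * k) * (P.p : ℤ)), h0, _root_.neg_zero, _root_.add_zero]
    refine ⟨hq, hqp, hpq, -ε, by rcases hε with rfl | rfl <;> simp, ?_⟩
    intro A hA τ hτ x
    have h := hscE' A hA τ hτ (eT.symm x)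
    have h2 := congrArg eT h
    rw [heT, eT.apply_symm_apply, map_zsmul, eT.apply_symm_apply] at h2
    exact h2

/-- **MP-5, the glue (abstract form).** -/
theorem ribmp_glue (hLift : StmtLift) (hRep : StmtRepN) (hPkg : StmtPkgQ) :
    Fermat.Agent.RIB.StmtMP :=
  fun P N q hcond hpN hq hq2 hqp hqN hirr hmod hunr =>
    ribmp_glue_on (fun _ _ => True) hLift hRep (fun M₁ q p _ _ => hPkg M₁ q p) P N q trivial
      hcond hpN hq hq2 hqp hqN hirr hmod hunr

/-- **MP-5, the glue at EVEN levels**: this is the form consumed by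
`RIB.s43_of_even_parts`. -/
theorem ribmp_glue_even (hLift : StmtLift) (hRep : StmtRepN) (hPkg : StmtPkgQe) :
    Fermat.Agent.RIB.StmtMPe := by
  intro P N q hcond h2 hpN hq hq2 hqp hqN hirr hmod hunr
  refine ribmp_glue_on _ hLift hRep hPkg P N q ?_ hcond hpN hq hq2 hqp hqN hirr hmod hunr
  obtain ⟨M₁, rfl⟩ := hqN
  rw [Nat.mul_div_cancel_left M₁ hq.pos]
  have hco : Nat.Coprime 2 q := by
    rw [Nat.coprime_primes Nat.prime_two hq]
    exact fun h => hq2 h.symm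
  exact hco.dvd_of_dvd_mul_left h2

end Fermat.Agent.RIB.MP

end
end ZBRIB_006_1
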