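/- GENERATED FILE (helper35, build-time optimisation, NOTES/ZB.md): verbatim concatenation of the modules
   Fermat.Agent.RIB.MP.AtQ
   Do not edit; do not import together with these modules. -/
import Fermat.Agent.ZB.RIB_001
import Fermat.Agent.ZB.ES_009
import Fermat.Agent.ZB.ES_005
import Fermat.Agent.ZB.ES_007
import Fermat.Agent.ZB.STB_002

/-! ### bundled: `Fermat.Agent.RIB.MP.AtQ` -/
section ZBRIB_007_0
/-
Row 37, Mazur's principle, piece MP-ATQ (helper2): the ALGEBRA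
  `stmtAtQOf : StmtRed → StmtRedHecke → StmtFrobToric → StmtOldLevel → StmtDivEis → StmtAtQ`.

`x ∈ PDiv (M₁ q) p`, `p x = 0`, inertia-fixed, `T_ℓ₁ x = n₁ x` with `d = n₁ − ℓ₁ − 1` a unit
mod `p`, `t₀` a good Hecke polynomial killing level `M₁` with `t₀ x = n₀ x`, `n₀` a unit mod `p`.

* `E x = d x` (`E = eisKill ℓ₁`); MP-RED gives `y ∈ J₀(M₁)[p]` with `RedInf (E x) y`;
* MP-HK + additivity: `RedInf (E E x) (E y)`, and `E y ∈ PDiv M₁ p` (MP-DIV);
* MP-HK, induction on the polynomial: `RedInf (t₀ E E x) (t₀ E y)`, `t₀ E y = 0` (PKG-OLD),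
  `t₀ E E x = n₀ d d x`; hence `n₀ d d x` is trivial at `v_∞`, hence `E x = d x` is;
* the same at `v_0`; so `E x` is toric and MP-FROB gives `σ w (E x) + q (E x) = 0`; divide by `d`.

The relations `RedInf`, `RedZero`, `TrivInf`, `TrivZero` are treated uniformly as
`ribmpRed g`, `ribmpTriv g` for a ring automorphism `g` of `F_N` (`g = 1` resp. `g = w_q`).
-/

set_option autoImplicit false
set_option linter.unusedSectionVars false
set_option linter.unusedVariables false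
set_option linter.style.haveILetI false

noncomputable section

namespace Fermat.Agent.RIB.MP

open ModularCurve AlgebraicCurve Fermat.Agent.ES Fermat.Agent.ES.G2 Fermat.Agent.STB

/-! ### Generic: relations compatible with a commuting family -/

section Generic

variable {J J' : Type} [AddCommGroup J] [AddCommGroup J']

/-- an additive relation which is compatible with two commuting families for the variables in `G`
is compatible with all Hecke polynomials supported in `G` -/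
theorem ribmp_atq_rel_tfEval {T : Nat.Primes → Module.End ℤ J}
    {T' : Nat.Primes → Module.End ℤ J'} (h : TfComm T) (h' : TfComm T')
    (S : AddSubgroup (J × J'))
    (G : Set Nat.Primes) (hT : ∀ ℓ ∈ G, ∀ z : J × J', z ∈ S → (T ℓ z.1, T' ℓ z.2) ∈ S)
    (t : HeckeAlg) (ht : t ∈ MvPolynomial.supported ℤ G) (z : J × J') (hz : z ∈ S) :
    (tfEval h t z.1, tfEval h' t z.2) ∈ S := by
  rw [MvPolynomial.supported_eq_adjoin_X] at ht
  induction ht using Algebra.adjoin_induction generalizing z with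
  | mem t ht =>
    obtain ⟨ℓ, hℓ, rfl⟩ := ht
    rw [tfEval_X, tfEval_X]
    exact hT ℓ hℓ z hz
  | algebraMap r =>
    rw [MvPolynomial.algebraMap_eq, tfEval_C, tfEval_C, Module.End.intCast_apply,
      Module.End.intCast_apply]
    have := S.zsmul_mem hz r
    exact this
  | add s t _ _ hs ht =>
    rw [map_add, map_add, LinearMap.add_apply, LinearMap.add_apply]
    have := S.add_mem (hs z hz) (ht z hz)
    exact this
  | mul s t _ _ hs ht =>
    rw [map_mul, map_mul, Module.End.mul_apply, Module.End.mul_apply]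
    exact hs _ (ht z hz)

/-- Bezout: a class killed by `p` and by an integer prime to `p` is zero -/
theorem ribmp_atq_eq_zero_of_smul {p : ℕ} (hp : p.Prime) {c : ℤ} (hc : ¬ (p : ℤ) ∣ c) {z : J}
    (hpz : p • z = 0) (hcz : c • z = 0) : z = 0 := by
  have hcop : IsCoprime c (p : ℤ) :=
    (Int.isCoprime_iff_gcd_eq_one.2 (by
      have h1 := (Nat.Prime.coprime_iff_not_dvd hp).2 (fun h : p ∣ c.natAbs =>
        hc (Int.natCast_dvd.2 h))
      rw [Int.gcd_comm]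
      simpa [Int.gcd, Nat.coprime_iff_gcd_eq_one] using h1))
  obtain ⟨a, b, hab⟩ := hcop
  have h1 : z = (a * c + b * (p : ℤ)) • z := by rw [hab, one_smul]
  rw [h1, add_smul, mul_smul, mul_smul, hcz, smul_zero, natCast_zsmul, hpz, smul_zero, add_zero]

/-- Bezout: membership in a subgroup descends from `c • z` to `z` if `p z = 0`, `p ∤ c` -/
theorem ribmp_atq_mem_of_smul_mem {p : ℕ} (hp : p.Prime) {c : ℤ} (hc : ¬ (p : ℤ) ∣ c)
    (S : AddSubgroup J) {z : J} (hpz : p • z = 0) (hcz : c • z ∈ S) : z ∈ S := by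
  have hcop : IsCoprime c (p : ℤ) :=
    (Int.isCoprime_iff_gcd_eq_one.2 (by
      have h1 := (Nat.Prime.coprime_iff_not_dvd hp).2 (fun h : p ∣ c.natAbs =>
        hc (Int.natCast_dvd.2 h))
      rw [Int.gcd_comm]
      simpa [Int.gcd, Nat.coprime_iff_gcd_eq_one] using h1))
  obtain ⟨a, b, hab⟩ := hcop
  have h1 : z = a • (c • z) := by
    have h2 : z = (a * c + b * (p : ℤ)) • z := by rw [hab, one_smul]
    rw [add_smul, mul_smul, mul_smul, natCast_zsmul, hpz, smul_zero, add_zero] at h2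
    exact h2
  rw [h1]
  exact S.zsmul_mem hcz a

end Generic

/-! ### The reduction relations as subgroups -/

section Rel

variable {M₁ q : ℕ} [NeZero M₁] [NeZero q] [NeZero (M₁ * q)]

/-- `x` and `y` have the same reduction at the Gauss valuation transported by `g` -/
def ribmpRed (g : modularFunctionFieldBar (M₁ * q) ≃+* modularFunctionFieldBar (M₁ * q))
    (A : ValuationSubring Qb) (m : ℕ) : AddSubgroup (JZero (M₁ * q) × JZero M₁) where
  carrier := {z | ∃ (u : modularFunctionFieldBar (M₁ * q)) (v : modularFunctionFieldBar M₁),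
    KummerRel m z.1 u ∧ KummerRel m z.2 v ∧
      GaussConst A (M₁ * q) (g u / heckeAlphaBar Qb M₁ q v)}
  zero_mem' := ⟨1, 1, KummerRel.zero, KummerRel.zero, by
    rw [map_one, map_one, div_one]; exact GaussConst.one⟩
  add_mem' := by
    rintro z z' ⟨u, v, hu, hv, hG⟩ ⟨u', v', hu', hv', hG'⟩
    refine ⟨u * u', v * v', hu.add hu', hv.add hv', ?_⟩
    rw [map_mul, map_mul, mul_div_mul_comm]
    exact hG.mul hG'
  neg_mem' := by
    rintro z ⟨u, v, hu, hv, hG⟩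
    refine ⟨u⁻¹, v⁻¹, hu.neg, hv.neg, ?_⟩
    rw [map_inv₀, map_inv₀, inv_div_inv, ← inv_div]
    exact hG.inv

/-- `x` is trivial at the Gauss valuation transported by `g` -/
def ribmpTriv (g : modularFunctionFieldBar (M₁ * q) ≃+* modularFunctionFieldBar (M₁ * q))
    (A : ValuationSubring Qb) (m : ℕ) : AddSubgroup (JZero (M₁ * q)) where
  carrier := {x | ∃ u : modularFunctionFieldBar (M₁ * q),
    KummerRel m x u ∧ GaussConst A (M₁ * q) (g u)}
  zero_mem' := ⟨1, KummerRel.zero, by rw [map_one]; exact GaussConst.one⟩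
  add_mem' := by
    rintro z z' ⟨u, hu, hG⟩ ⟨u', hu', hG'⟩
    refine ⟨u * u', hu.add hu', ?_⟩
    rw [map_mul]
    exact hG.mul hG'
  neg_mem' := by
    rintro z ⟨u, hu, hG⟩
    refine ⟨u⁻¹, hu.neg, ?_⟩
    rw [map_inv₀]
    exact hG.inv

theorem ribmp_atq_redInf_iff (A : ValuationSubring Qb) (m : ℕ) (x : JZero (M₁ * q))
    (y : JZero M₁) :
    RedInf A m x y ↔ (x, y) ∈ ribmpRed (M₁ := M₁) (q := q) (RingEquiv.refl _) A m :=
  Iff.rfl

theorem ribmp_atq_redZero_iff (hq : q.Prime) (hqM : ¬ q ∣ M₁) (A : ValuationSubring Qb) (m : ℕ)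
    (x : JZero (M₁ * q)) (y : JZero M₁) :
    RedZero hq hqM A m x y ↔
      (x, y) ∈ ribmpRed (M₁ := M₁) (q := q)
        (Fermat.Agent.UNIP.atkinLehnerBar hq hqM).toRingEquiv A m :=
  Iff.rfl

theorem ribmp_atq_trivInf_iff (A : ValuationSubring Qb) (m : ℕ) (x : JZero (M₁ * q)) :
    TrivInf A m x ↔ x ∈ ribmpTriv (M₁ := M₁) (q := q) (RingEquiv.refl _) A m :=
  Iff.rfl

theorem ribmp_atq_trivZero_iff (hq : q.Prime) (hqM : ¬ q ∣ M₁) (A : ValuationSubring Qb) (m : ℕ)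
    (x : JZero (M₁ * q)) :
    TrivZero hq hqM A m x ↔
      x ∈ ribmpTriv (M₁ := M₁) (q := q)
        (Fermat.Agent.UNIP.atkinLehnerBar hq hqM).toRingEquiv A m :=
  Iff.rfl

/-- a class with the same reduction as `0` is trivial -/
theorem ribmp_atq_triv_of_red_zero
    (g : modularFunctionFieldBar (M₁ * q) ≃+* modularFunctionFieldBar (M₁ * q))
    (hgc : ∀ c : Qb, g (algebraMap Qb (modularFunctionFieldBar (M₁ * q)) c) =
      algebraMap Qb (modularFunctionFieldBar (M₁ * q)) c)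
    (A : ValuationSubring Qb) {m : ℕ} (hm : m ≠ 0) {x : JZero (M₁ * q)}
    (h : (x, (0 : JZero M₁)) ∈ ribmpRed g A m) : x ∈ ribmpTriv g A m := by
  obtain ⟨u, v, hu, hv, hG⟩ := h
  have hu : KummerRel m x u := hu
  have hv : KummerRel m (0 : JZero M₁) v := hv
  obtain ⟨k, c, hk, hc0, hc, he⟩ := (KummerRel.zero (n := m)).exists_eq_mul_pow hv
  obtain ⟨c₀, rfl⟩ := mu_exists_const_of_ord_eq_zero c hc
  have hc₀ : c₀ ≠ 0 := fun h0 => hc0 (by rw [h0, map_zero])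
  -- `k' = g⁻¹ (α k)`
  set k' : modularFunctionFieldBar (M₁ * q) := g.symm (heckeAlphaBar Qb M₁ q k) with hk'
  have hαk : heckeAlphaBar Qb M₁ q k ≠ 0 := (map_ne_zero _).2 hk
  have hk'0 : k' ≠ 0 := (map_ne_zero _).2 hαk
  have hu0 : u ≠ 0 := hu.ne_zero
  have hu'0 : u / k' ^ m ≠ 0 := div_ne_zero hu0 (pow_ne_zero m hk'0)
  have hKu' : KummerRel m x (u / k' ^ m) := by
    refine ribmp_desc_kummerRel_of_eq hm hu (one_ne_zero) hk'0 hu'0 ?_
    rw [map_one, one_mul]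
    field_simp
  refine ⟨u / k' ^ m, hKu', ?_⟩
  have hgk : g k' = heckeAlphaBar Qb M₁ q k := g.apply_symm_apply _
  have e : g (u / k' ^ m) =
      (g u / heckeAlphaBar Qb M₁ q v) * algebraMap Qb (modularFunctionFieldBar (M₁ * q)) c₀ := by
    rw [map_div₀, map_pow, hgk, he, mul_one, map_mul, map_pow, AlgHom.commutes]
    have h1 : algebraMap Qb (modularFunctionFieldBar (M₁ * q)) c₀ ≠ 0 := (map_ne_zero _).2 hc₀
    have h2 : heckeAlphaBar Qb M₁ q k ^ m ≠ 0 := pow_ne_zero m hαk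
    field_simp
  rw [e]
  exact hG.mul (GaussConst.const hc₀)

end Rel

/-! ### The algebra -/

section Main

variable {M₁ q : ℕ} [NeZero M₁] [NeZero q] [NeZero (M₁ * q)]

/-- `E x = d x` for an eigen-vector -/
theorem ribmp_atq_eisKill_eigen {N : ℕ} [NeZero N] (ℓ : Nat.Primes) (X : JZero N) (n₁ : ℤ)
    (h : heckeOperatorBar N ℓ X = n₁ • X) :
    eisKill ℓ X = (n₁ - (((ℓ : ℕ) : ℤ) + 1)) • X := by
  have e : ((ℓ : ℕ) + 1) • X = ((((ℓ : ℕ) : ℤ) + 1)) • X := by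
    have := (natCast_zsmul X ((ℓ : ℕ) + 1)).symm
    rw [this]
    push_cast
    rfl
  rw [eisKill, h, e]
  exact (sub_smul _ _ X).symm

/-- `E (d X) = d E X` -/
theorem ribmp_atq_eisKill_zsmul {N : ℕ} [NeZero N] (ℓ : Nat.Primes) (X : JZero N) (d : ℤ) :
    eisKill ℓ (d • X) = d • eisKill ℓ X := by
  rw [eisKill, eisKill, map_zsmul, smul_comm ((ℓ : ℕ) + 1) d X]
  exact (smul_sub d _ _).symm

/-- the reduction relation is stable under `E = T_ℓ − (ℓ + 1)` -/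
theorem ribmp_atq_red_eisKill
    (g : modularFunctionFieldBar (M₁ * q) ≃+* modularFunctionFieldBar (M₁ * q))
    (A : ValuationSubring Qb) (m : ℕ) (ℓ : Nat.Primes)
    (hT : ∀ z : JZero (M₁ * q) × JZero M₁, z ∈ ribmpRed g A m →
      (heckeOperatorBar (M₁ * q) ℓ z.1, heckeOperatorBar M₁ ℓ z.2) ∈ ribmpRed g A m)
    {z : JZero (M₁ * q) × JZero M₁} (hz : z ∈ ribmpRed g A m) :
    (eisKill ℓ z.1, eisKill ℓ z.2) ∈ ribmpRed g A m := by
  have h1 := hT z hz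
  have h2 := (ribmpRed g A m).nsmul_mem hz ((ℓ : ℕ) + 1)
  have h3 := (ribmpRed g A m).sub_mem h1 h2
  exact h3

/-- **polynomial stability** (general exponent `m`): the reduction relation between
`PDiv (M₁ q) p` and `PDiv M₁ p` is stable under every Hecke polynomial supported in the good
primes of level `M₁ q`, as soon as it is stable under the good `T_ℓ`. -/
theorem ribmp_atq_red_poly {p : ℕ} (hp : p.Prime)
    (g : modularFunctionFieldBar (M₁ * q) ≃+* modularFunctionFieldBar (M₁ * q))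
    (A : ValuationSubring Qb) (m : ℕ)
    (hT : ∀ ℓ : Nat.Primes, ¬ (ℓ : ℕ) ∣ M₁ * q * p →
      ∀ z : JZero (M₁ * q) × JZero M₁, z ∈ ribmpRed g A m →
        (heckeOperatorBar (M₁ * q) ℓ z.1, heckeOperatorBar M₁ ℓ z.2) ∈ ribmpRed g A m)
    (t₀ : HeckeAlg) (ht₀ : t₀ ∈ MvPolynomial.supported ℤ (goodPrimes (M₁ * q) p))
    (x : PDiv (M₁ * q) p) (y : PDiv M₁ p)
    (h : ((x : JZero (M₁ * q)), (y : JZero M₁)) ∈ ribmpRed g A m) :
    ((((letI := pDivModule (M₁ * q) p; t₀ • x) : PDiv (M₁ * q) p) : JZero (M₁ * q)),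
      (((letI := pDivModule M₁ p; t₀ • y) : PDiv M₁ p) : JZero M₁)) ∈ ribmpRed g A m := by
  let S : AddSubgroup (PDiv (M₁ * q) p × PDiv M₁ p) :=
    (ribmpRed g A m).comap
      ((AddSubgroup.subtype (pDivTors p (JZero (M₁ * q)))).prodMap
        (AddSubgroup.subtype (pDivTors p (JZero M₁))))
  have hmemS : ∀ z : PDiv (M₁ * q) p × PDiv M₁ p,
      z ∈ S ↔ ((z.1 : JZero (M₁ * q)), (z.2 : JZero M₁)) ∈ ribmpRed g A m := fun z => Iff.rfl
  have hTS : ∀ ℓ ∈ goodPrimes (M₁ * q) p, ∀ z : PDiv (M₁ * q) p × PDiv M₁ p, z ∈ S →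
      (pDivOp (M₁ * q) p ℓ z.1, pDivOp M₁ p ℓ z.2) ∈ S := by
    intro ℓ hℓ z hz
    rw [hmemS] at hz ⊢
    have hℓ' : ¬ (ℓ : ℕ) ∣ M₁ * q * p := hℓ
    have h1 := hT ℓ hℓ' _ hz
    show (((pDivOp (M₁ * q) p ℓ z.1 : PDiv (M₁ * q) p) : JZero (M₁ * q)),
      ((pDivOp M₁ p ℓ z.2 : PDiv M₁ p) : JZero M₁)) ∈ ribmpRed g A m
    rw [pDivOp_of_good hℓ, pDivOp_of_good (stb_good_of_good hℓ)]
    exact h1
  have hpoly := ribmp_atq_rel_tfEval (stb_tfComm (M₁ * q) hp) (stb_tfComm M₁ hp) S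
    (goodPrimes (M₁ * q) p) hTS t₀ ht₀ (x, y) ((hmemS (x, y)).2 h)
  rw [hmemS] at hpoly
  rw [stb_pDiv_smul_def (M₁ * q) hp, stb_pDiv_smul_def M₁ hp]
  exact hpoly

/-- **the core of MP-ATQ**, uniformly at `v_∞` (`g = 1`) and `v_0` (`g = w_q`): the class
`E x = d x` is trivial at the Gauss valuation transported by `g`. -/
theorem ribmp_atq_triv (hOld : StmtOldLevel) (hDiv : StmtDivEis)
    (hq : q.Prime) (hqM : ¬ q ∣ M₁) (hsq : Squarefree (M₁ * q)) {p : ℕ} (hp : p.Prime)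
    (h5 : 5 ≤ p)
    (g : modularFunctionFieldBar (M₁ * q) ≃+* modularFunctionFieldBar (M₁ * q))
    (hgc : ∀ c : Qb, g (algebraMap Qb (modularFunctionFieldBar (M₁ * q)) c) =
      algebraMap Qb (modularFunctionFieldBar (M₁ * q)) c)
    (A : ValuationSubring Qb)
    (hT : ∀ ℓ : Nat.Primes, ¬ (ℓ : ℕ) ∣ M₁ * q * p →
      ∀ z : JZero (M₁ * q) × JZero M₁, z ∈ ribmpRed g A p →
        (heckeOperatorBar (M₁ * q) ℓ z.1, heckeOperatorBar M₁ ℓ z.2) ∈ ribmpRed g A p)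
    (x : PDiv (M₁ * q) p) (hpx : p • x = 0)
    (ℓ₁ : Nat.Primes) (n₁ : ℤ) (hℓ₁ : ¬ (ℓ₁ : ℕ) ∣ M₁ * q * p)
    (hn₁ : heckeOperatorBar (M₁ * q) ℓ₁ (x : JZero (M₁ * q)) = n₁ • (x : JZero (M₁ * q)))
    (hd : ¬ (p : ℤ) ∣ n₁ - ((ℓ₁ : ℕ) + 1))
    (t₀ : HeckeAlg) (ht₀ : t₀ ∈ MvPolynomial.supported ℤ (goodPrimes (M₁ * q) p))
    (hK : Fermat.Agent.R38.KillsLevel M₁ t₀)
    (n₀ : ℤ) (hn₀ : (letI := pDivModule (M₁ * q) p; t₀ • x) = n₀ • x) (hpn₀ : ¬ (p : ℤ) ∣ n₀)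
    (y : JZero M₁) (hy : p • y = 0)
    (hR : (eisKill ℓ₁ (x : JZero (M₁ * q)), y) ∈ ribmpRed g A p) :
    eisKill ℓ₁ (x : JZero (M₁ * q)) ∈ ribmpTriv g A p := by
  set X : JZero (M₁ * q) := (x : JZero (M₁ * q)) with hX
  set d : ℤ := n₁ - (((ℓ₁ : ℕ) : ℤ) + 1) with hdd
  have hd' : ¬ (p : ℤ) ∣ d := hd
  have hEX : eisKill ℓ₁ X = d • X := ribmp_atq_eisKill_eigen ℓ₁ X n₁ hn₁
  have hpX : p • X = 0 := (pDiv_smul_eq_zero_iff p x).1 hpx
  -- level `M₁`: `ℓ₁` is good, `M₁` is squarefree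
  have hℓM : ¬ (ℓ₁ : ℕ) ∣ M₁ * p := stb_good_of_good (M₁ := M₁) (q := q) (p := p) hℓ₁
  have hsqM : Squarefree M₁ := hsq.squarefree_of_dvd (Dvd.intro _ rfl)
  have hyt : IsPPowerTorsion p y := ⟨1, by rw [pow_one]; exact hy⟩
  have hEy : eisKill ℓ₁ y ∈ pDivTors p (JZero M₁) := hDiv M₁ p hsqM hp h5 ℓ₁ hℓM y hyt
  -- the pair `(E E X, E y)`
  have hR2 := ribmp_atq_red_eisKill g A p ℓ₁ (hT ℓ₁ hℓ₁) hR
  have hEEX : eisKill ℓ₁ (eisKill ℓ₁ X) = (d * d) • X := by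
    rw [hEX, ribmp_atq_eisKill_zsmul, hEX, mul_smul]
  -- as elements of the `p`-divisible torsion
  set x₂ : PDiv (M₁ * q) p := (d * d) • x with hx₂
  set Y : PDiv M₁ p := ⟨eisKill ℓ₁ y, hEy⟩ with hY
  have hx₂c : ((x₂ : PDiv (M₁ * q) p) : JZero (M₁ * q)) = eisKill ℓ₁ (eisKill ℓ₁ X) := by
    rw [hEEX, hx₂, AddSubgroup.coe_zsmul]
  have hz₂ : (((x₂ : PDiv (M₁ * q) p) : JZero (M₁ * q)), ((Y : PDiv M₁ p) : JZero M₁)) ∈
      ribmpRed g A p := by
    show (((x₂ : PDiv (M₁ * q) p) : JZero (M₁ * q)), eisKill ℓ₁ y) ∈ ribmpRed g A p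
    rw [hx₂c]
    exact hR2
  have hpoly := ribmp_atq_red_poly hp g A p hT t₀ ht₀ x₂ Y hz₂
  -- `t₀ Y = 0`
  have ht₀M : t₀ ∈ MvPolynomial.supported ℤ (goodPrimes M₁ p) :=
    MvPolynomial.supported_mono (fun ℓ hℓ => stb_good_of_good hℓ) ht₀
  have hY0 : (letI := pDivModule M₁ p; t₀ • Y) = 0 := hOld M₁ p hp t₀ ht₀M hK Y
  -- `t₀ x₂ = (d d n₀) x`
  have hx0 : (letI := pDivModule (M₁ * q) p; t₀ • x₂) = (d * d * n₀) • x := by
    rw [stb_pDiv_smul_def (M₁ * q) hp, hx₂, map_zsmul, ← stb_pDiv_smul_def (M₁ * q) hp, hn₀,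
      ← mul_smul]
  rw [hY0, hx0] at hpoly
  have hpoly' : ((d * d * n₀) • X, (0 : JZero M₁)) ∈ ribmpRed g A p := by
    have e1 : (((d * d * n₀) • x : PDiv (M₁ * q) p) : JZero (M₁ * q)) = (d * d * n₀) • X :=
      AddSubgroup.coe_zsmul _ _ _
    have e2 : (((0 : PDiv M₁ p)) : JZero M₁) = 0 := rfl
    rw [← e1, ← e2]
    exact hpoly
  have htriv := ribmp_atq_triv_of_red_zero g hgc A hp.ne_zero hpoly'
  -- descend to `d X`
  rw [hEX]
  have hpdX : p • (d • X) = 0 := by rw [smul_comm, hpX, smul_zero]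
  have hc : ¬ (p : ℤ) ∣ d * n₀ := by
    intro h
    rcases (Nat.prime_iff_prime_int.1 hp).dvd_or_dvd h with h1 | h1
    · exact hd' h1
    · exact hpn₀ h1
  refine ribmp_atq_mem_of_smul_mem hp hc _ hpdX ?_
  have e3 : (d * n₀) • (d • X) = (d * d * n₀) • X := by
    rw [← mul_smul]
    congr 1
    ring
  rw [e3]
  exact htriv

/-- **MP-ATQ.**  The `J`-form of Mazur's principle from the geometric pieces. -/
theorem stmtAtQOf : StmtAtQOf := by
  intro hRed hHK hFrob hOld hDiv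
  intro M₁ q _ _ _ hq hqM hsq hq2 p hp h5 hpq A hA σ hσ x hpx hI ℓ₁ n₁ hℓ₁ hn₁ hd t₀ ht₀ hK n₀
    hn₀ hpn₀
  set X : JZero (M₁ * q) := (x : JZero (M₁ * q)) with hX
  have hpX : p • X = 0 := (pDiv_smul_eq_zero_iff p x).1 hpx
  obtain ⟨⟨yI, hyI, hRI⟩, ⟨y0, hy0, hR0⟩⟩ :=
    hRed M₁ q hq hqM hq2 p hp h5 hpq A hA X hpX hI ℓ₁ hℓ₁
  -- triviality at `v_∞`
  have hTI : eisKill ℓ₁ X ∈ ribmpTriv (M₁ := M₁) (q := q) (RingEquiv.refl _) A p := by
    refine ribmp_atq_triv hOld hDiv hq hqM hsq hp h5 (RingEquiv.refl _) (fun c => rfl) A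
      (fun ℓ hℓ z hz => ?_) x hpx ℓ₁ n₁ hℓ₁ hn₁ hd t₀ ht₀ hK n₀ hn₀ hpn₀ yI hyI
      ((ribmp_atq_redInf_iff A p _ _).1 hRI)
    exact (ribmp_atq_redInf_iff A p _ _).1
      ((hHK M₁ q hq hqM p hp hpq A hA z.1 z.2 ℓ hℓ).1 ((ribmp_atq_redInf_iff A p _ _).2 hz))
  -- triviality at `v_0`
  have h0 : eisKill ℓ₁ X ∈ ribmpTriv (M₁ := M₁) (q := q)
      (Fermat.Agent.UNIP.atkinLehnerBar hq hqM).toRingEquiv A p := by
    refine ribmp_atq_triv hOld hDiv hq hqM hsq hp h5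
      (Fermat.Agent.UNIP.atkinLehnerBar hq hqM).toRingEquiv
      (fun c => (Fermat.Agent.UNIP.atkinLehnerBar hq hqM).commutes c) A
      (fun ℓ hℓ z hz => ?_) x hpx ℓ₁ n₁ hℓ₁ hn₁ hd t₀ ht₀ hK n₀ hn₀ hpn₀ y0 hy0
      ((ribmp_atq_redZero_iff hq hqM A p _ _).1 hR0)
    exact (ribmp_atq_redZero_iff hq hqM A p _ _).1
      ((hHK M₁ q hq hqM p hp hpq A hA z.1 z.2 ℓ hℓ).2
        ((ribmp_atq_redZero_iff hq hqM A p _ _).2 hz))
  have htoric : IsToric hq hqM A p (eisKill ℓ₁ X) :=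
    ⟨(ribmp_atq_trivInf_iff A p _).2 hTI, (ribmp_atq_trivZero_iff hq hqM A p _).2 h0⟩
  have hF := hFrob M₁ q hq hqM hq2 p hp h5 hpq A hA σ hσ X hpX hI ℓ₁ hℓ₁ htoric
  -- divide by `d`
  have hEX : eisKill ℓ₁ X = (n₁ - (((ℓ₁ : ℕ) : ℤ) + 1)) • X :=
    ribmp_atq_eisKill_eigen ℓ₁ X n₁ hn₁
  rw [hEX] at hF
  set d : ℤ := n₁ - (((ℓ₁ : ℕ) : ℤ) + 1) with hdd
  set Z : JZero (M₁ * q) := σ • (Fermat.Agent.UNIP.atkinLehnerBar hq hqM • X) + q • X with hZ
  have hdZ : d • Z = 0 := by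
    have hcomm : d • (q • X) = q • (d • X) := by
      rw [← natCast_zsmul X q, ← natCast_zsmul (d • X) q, smul_comm]
    rw [hZ, zsmul_add, smul_comm d σ, smul_comm d (Fermat.Agent.UNIP.atkinLehnerBar hq hqM) X,
      hcomm]
    exact hF
  have hpZ : p • Z = 0 := by
    have h1 : p • (σ • (Fermat.Agent.UNIP.atkinLehnerBar hq hqM • X)) = 0 := by
      rw [smul_comm p σ, smul_comm p (Fermat.Agent.UNIP.atkinLehnerBar hq hqM) X, hpX,
        smul_zero]
      exact smul_zero (A := JZero (M₁ * q)) σ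
    have h2 : p • (q • X) = 0 := by
      rw [smul_comm p q X, hpX, smul_zero]
    rw [hZ, nsmul_add, h1, h2, add_zero]
  exact ribmp_atq_eq_zero_of_smul hp hd hpZ hdZ

/-- `E x` is `p`-power torsion if `x` is -/
theorem ribmp_atq_eisKill_tors {N : ℕ} [NeZero N] {p : ℕ} (ℓ : Nat.Primes) {x : JZero N}
    (hx : IsPPowerTorsion p x) : IsPPowerTorsion p (eisKill ℓ x) := by
  obtain ⟨n, hn⟩ := hx
  refine ⟨n, ?_⟩
  have h1 : p ^ n • heckeOperatorBar N ℓ x = 0 := by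
    rw [← map_nsmul, hn, map_zero]
  have h2 : p ^ n • (((ℓ : ℕ) + 1) • x) = 0 := by
    rw [smul_comm, hn, smul_zero]
  have h3 : p ^ n • (heckeOperatorBar N ℓ x - ((ℓ : ℕ) + 1) • x) =
      p ^ n • heckeOperatorBar N ℓ x - p ^ n • (((ℓ : ℕ) + 1) • x) := nsmul_sub _ _ _
  rw [eisKill, h3, h1, h2, sub_zero]

/-- MP-DIV in the form consumed by MP-ATQ follows from the strong form of helper15. -/
theorem stmtDivEis_of_torsDiv (h : StmtTorsDivMP) : StmtDivEis := by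
  intro M p _ _ hp h5 ℓ _ x hx
  exact h M p hp h5 (eisKill ℓ x) (ribmp_atq_eisKill_tors ℓ hx)

/-- **MP-ATQ** from the geometric pieces and the strong form of MP-DIV. -/
theorem stmtAtQ_of_torsDiv (hRed : StmtRed) (hHK : StmtRedHecke) (hFrob : StmtFrobToric)
    (hOld : StmtOldLevel) (hDiv : StmtTorsDivMP) : StmtAtQ :=
  stmtAtQOf hRed hHK hFrob hOld (stmtDivEis_of_torsDiv hDiv)

end Main

end Fermat.Agent.RIB.MP

end


end ZBRIB_007_0
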