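/- GENERATED FILE (helper35, build-time optimisation, NOTES/ZB.md): verbatim concatenation of the modules
   Fermat.Agent.RIB.MP.OldLevel
   Fermat.Agent.RIB.MP.OldLevelFinal
   Fermat.Agent.RIB.MP.AtQFinal
   Fermat.Agent.RIB.MP.AtQE
   Do not edit; do not import together with these modules. -/
import Fermat.Agent.ZB.S49_003
import Fermat.Agent.ZB.STB_002
import Fermat.Agent.ZB.RIB_001
import Fermat.Agent.ZB.RIB_007
import Fermat.Agent.ZB.RIB_008
import Fermat.Agent.ZB.S41_004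

/-! ### bundled: `Fermat.Agent.RIB.MP.OldLevel` -/
section ZBRIB_009_0
/-
RIB-MP, piece PKG-OLD (helper15): a Hecke polynomial in the good variables which vanishes on the
eigen-systems of all normalised eigenforms of level `M` kills the `p`-divisible torsion
`PDiv M p` of `J₀(M)(ℚ̄)`.  (`R38.r38pkg_forms_eq_zero` + `STB.stb_p2_kills`.)
This is `StmtOldLevel` of the MP plan v2.
-/

set_option autoImplicit false
set_option linter.style.haveILetI false

noncomputable section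

namespace Fermat.Agent.RIB.MP

open ModularCurve Fermat.Agent.ES Fermat.Agent.STB

/-- **PKG-OLD** (MP plan v2, `StmtOldLevel`). -/
theorem ribmp_old_pdiv (M p : ℕ) [NeZero M] (hp : p.Prime) (t : HeckeAlg)
    (ht : t ∈ MvPolynomial.supported ℤ (goodPrimes M p)) (hK : Fermat.Agent.R38.KillsLevel M t)
    (y : PDiv M p) : (letI := pDivModule M p; t • y) = 0 := by
  have hG : ∀ ℓ ∈ goodPrimes M p, ¬ (ℓ : ℕ) ∣ M := fun ℓ hℓ h =>
    hℓ (Dvd.dvd.mul_right h p)
  exact stb_p2_kills hp t ht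
    (Fermat.Agent.R38.r38pkg_forms_eq_zero (goodPrimes M p) hG t ht hK) y

end Fermat.Agent.RIB.MP

end


end ZBRIB_009_0

/-! ### bundled: `Fermat.Agent.RIB.MP.OldLevelFinal` -/
section ZBRIB_009_1
/-
RIB-MP, piece PKG-OLD (helper15): `stmtOldLevel : StmtOldLevel` (MP plan v2).
-/

set_option autoImplicit false

namespace Fermat.Agent.RIB.MP

/-- **PKG-OLD**, unconditional. -/
theorem stmtOldLevel : StmtOldLevel :=
  fun M p _ hp t ht hK y => ribmp_old_pdiv M p hp t ht hK y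

end Fermat.Agent.RIB.MP


end ZBRIB_009_1

/-! ### bundled: `Fermat.Agent.RIB.MP.AtQFinal` -/
section ZBRIB_009_2
/-
Row 37, Mazur's principle: MP-ATQ with the landed pieces plugged in (helper2).

`stmtAtQ_of_geom : StmtRed → StmtFrobToric → StmtAtQ`
(MP-HK = `stmtRedHecke` of helper85, PKG-OLD = `stmtOldLevel` and MP-DIV = `stmtDivEis` of
helper15 are on main).
-/

set_option autoImplicit false

namespace Fermat.Agent.RIB.MP

/-- **MP-ATQ** from the two open geometric pieces MP-RED and MP-FROB. -/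
theorem stmtAtQ_of_geom (hRed : StmtRed) (hFrob : StmtFrobToric) : StmtAtQ :=
  stmtAtQOf hRed stmtRedHecke hFrob stmtOldLevel stmtDivEis

end Fermat.Agent.RIB.MP


end ZBRIB_009_2

/-! ### bundled: `Fermat.Agent.RIB.MP.AtQE` -/
section ZBRIB_009_3
/-
Row 37, Mazur's principle: MP-ATQ in the RESTRICTED form (helper2), see `PlanE.lean`.

`stmtAtQE_of : StmtRedE → StmtRedHecke → StmtFrobToricE → StmtOldLevel → StmtDivEis → StmtAtQE`
`stmtAtQE_of_geom : StmtRedE → StmtFrobToricE → StmtAtQE` (landed pieces plugged in).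
Same proof as `stmtAtQOf` (`AtQ.lean`): the pieces MP-RED and MP-FROB are used at the given
`(M₁, q)` only.
-/

set_option autoImplicit false

noncomputable section

namespace Fermat.Agent.RIB.MP

open ModularCurve AlgebraicCurve Fermat.Agent.ES Fermat.Agent.ES.G2

/-- **MP-ATQ, restricted form**, from the geometric pieces. -/
theorem stmtAtQE_of (hRed : StmtRedE) (hHK : StmtRedHecke) (hFrob : StmtFrobToricE)
    (hOld : StmtOldLevel) (hDiv : StmtDivEis) : StmtAtQE := by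
  intro M₁ q _ _ _ hq hqM hE hsq hq2 p hp h5 hpq A hA σ hσ x hpx hI ℓ₁ n₁ hℓ₁ hn₁ hd t₀ ht₀ hK n₀
    hn₀ hpn₀
  set X : JZero (M₁ * q) := (x : JZero (M₁ * q)) with hX
  have hpX : p • X = 0 := (pDiv_smul_eq_zero_iff p x).1 hpx
  obtain ⟨⟨yI, hyI, hRI⟩, ⟨y0, hy0, hR0⟩⟩ :=
    hRed M₁ q hq hqM hE hq2 p hp h5 hpq A hA X hpX hI ℓ₁ hℓ₁
  -- triviality at `v_∞`
  have hTI : eisKill ℓ₁ X ∈ ribmpTriv (M₁ := M₁) (q := q) (RingEquiv.refl _) A p := by
    refine ribmp_atq_triv hOld hDiv hq hqM hsq hp h5 (RingEquiv.refl _) (fun c => rfl) A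
      (fun ℓ hℓ z hz => ?_) x hpx ℓ₁ n₁ hℓ₁ hn₁ hd t₀ ht₀ hK n₀ hn₀ hpn₀ yI hyI
      ((ribmp_atq_redInf_iff A p _ _).1 hRI)
    exact (ribmp_atq_redInf_iff A p _ _).1
      ((hHK M₁ q hq hqM p hp hpq A hA z.1 z.2 ℓ hℓ).1 ((ribmp_atq_redInf_iff A p _ _).2 hz))
  -- triviality at `v_0`
  have h0 : eisKill ℓ₁ X ∈ ribmpTriv (M₁ := M₁) (q := q)
      (Fermat.Agent.UNIP.atkinLehnerBar hq hqM).toRingEquiv A p := by
    refine ribmp_atq_triv hOld hDiv hq hqM hsq hp h5
      (Fermat.Agent.UNIP.atkinLehnerBar hq hqM).toRingEquiv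
      (fun c => (Fermat.Agent.UNIP.atkinLehnerBar hq hqM).commutes c) A
      (fun ℓ hℓ z hz => ?_) x hpx ℓ₁ n₁ hℓ₁ hn₁ hd t₀ ht₀ hK n₀ hn₀ hpn₀ y0 hy0
      ((ribmp_atq_redZero_iff hq hqM A p _ _).1 hR0)
    exact (ribmp_atq_redZero_iff hq hqM A p _ _).1
      ((hHK M₁ q hq hqM p hp hpq A hA z.1 z.2 ℓ hℓ).2
        ((ribmp_atq_redZero_iff hq hqM A p _ _).2 hz))
  have htoric : IsToric hq hqM A p (eisKill ℓ₁ X) :=
    ⟨(ribmp_atq_trivInf_iff A p _).2 hTI, (ribmp_atq_trivZero_iff hq hqM A p _).2 h0⟩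
  have hF := hFrob M₁ q hq hqM hE hq2 p hp h5 hpq A hA σ hσ X hpX hI ℓ₁ hℓ₁ htoric
  -- divide by `d`
  have hEX : eisKill ℓ₁ X = (n₁ - (((ℓ₁ : ℕ) : ℤ) + 1)) • X :=
    ribmp_atq_eisKill_eigen ℓ₁ X n₁ hn₁
  rw [hEX] at hF
  set d : ℤ := n₁ - (((ℓ₁ : ℕ) : ℤ) + 1) with hdd
  set Z : JZero (M₁ * q) := σ • (Fermat.Agent.UNIP.atkinLehnerBar hq hqM • X) + q • X with hZ
  have hdZ : d • Z = 0 := by
    have hcomm : d • (q • X) = q • (d • X) := by
      rw [← natCast_zsmul X q, ← natCast_zsmul (d • X) q, smul_comm]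
    rw [hZ, zsmul_add, smul_comm d σ, smul_comm d (Fermat.Agent.UNIP.atkinLehnerBar hq hqM) X,
      hcomm]
    exact hF
  have hpZ : p • Z = 0 := by
    have h1 : p • (σ • (Fermat.Agent.UNIP.atkinLehnerBar hq hqM • X)) = 0 := by
      rw [smul_comm p σ, smul_comm p (Fermat.Agent.UNIP.atkinLehnerBar hq hqM) X, hpX,
        smul_zero]
      exact smul_zero (A := JZero (M₁ * q)) σ
    have h2 : p • (q • X) = 0 := by
      rw [smul_comm p q X, hpX, smul_zero]
    rw [hZ, nsmul_add, h1, h2, add_zero]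
  exact ribmp_atq_eq_zero_of_smul hp hd hpZ hdZ

/-- **MP-ATQ, restricted form**, from the two open geometric pieces MP-RED and MP-FROB. -/
theorem stmtAtQE_of_geom (hRed : StmtRedE) (hFrob : StmtFrobToricE) : StmtAtQE :=
  stmtAtQE_of hRed stmtRedHecke hFrob stmtOldLevel stmtDivEis

end Fermat.Agent.RIB.MP

end


end ZBRIB_009_3
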