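/- GENERATED FILE (helper35, build-time optimisation, NOTES/ZB.md): verbatim concatenation of the modules
   Fermat.Agent.ES1.RCNorm
   Fermat.Agent.ES1.RCAllAlg
   Fermat.Agent.ES1.RCAllPt
   Fermat.Agent.ES1.G1.HKbEmb
   Fermat.Agent.ES1.G1.HKbNorm
   Do not edit; do not import together with these modules. -/
import Fermat.Agent.ZB.ES1_003
import Fermat.Agent.ZB.S24_001
import Fermat.Agent.ZB.S24_003
import Fermat.Agent.ZB.S24_017
import Fermat.Agent.ZB.ES1_013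
import Fermat.Agent.ZB.ES1_001
import Fermat.Agent.ZB.ES1_007
import Fermat.Agent.ZB.ES1_018
import Fermat.Agent.ZB.ES_001

/-! ### bundled: `Fermat.Agent.ES1.RCNorm` -/
section ZBES1_015_0
/-
ES₁ / F3 = RC-Γ, piece RC-norm (helper81): the norm polynomial over `ℂ[J]` for an arbitrary
subgroup `Γ ≤ SL(2, ℤ)` of finite index.

* `es1rcnorm_comp_conj` : if `δ Γ' δ⁻¹ ≤ Γ` and `f` is a modular function for `Γ`, then `f ∘ δ`
  is a modular function for `Γ'`.
* `es1rcnorm_poly_of_invariant` : a modular function (of any finite-index level) which is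
  invariant under `SL(2, ℤ)` is a polynomial in `J`.
* `stmtNormPolyG Γ : StmtNormPolyG Γ` : every modular function `f` for `Γ` is a root of a monic
  polynomial of degree `[SL(2, ℤ) : Γ]` with coefficients in `ℂ[J]`, namely of
  `∏_{q ∈ SL(2, ℤ) / Γ} (X - f ∘ q⁻¹)`.
-/

set_option autoImplicit false
set_option linter.style.haveILetI false

noncomputable section

open UpperHalfPlane ModularForm CongruenceSubgroup Filter Topology Polynomial
open scoped MatrixGroups Manifold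

namespace Fermat.Agent.ES1

open Fermat.Agent.S23 Fermat.Agent.S24 Fermat.Agent.S28 Fermat.Agent.ES

local notation "Δ" => ModularForm.discriminant

variable {Γ Γ' : Subgroup SL(2, ℤ)}

/-- conjugation: if `δ Γ' δ⁻¹ ≤ Γ` and `f` is a modular function for `Γ`, then `f ∘ δ` is a
modular function for `Γ'` -/
theorem es1rcnorm_comp_conj [Γ.FiniteIndex] [Γ'.FiniteIndex] {f : ℍ → ℂ} (hf : IsModFunG Γ f)
    (δ : SL(2, ℤ)) (hδ : ∀ γ ∈ Γ', δ * γ * δ⁻¹ ∈ Γ) :
    IsModFunG Γ' (fun z => f (δ • z)) := by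
  obtain ⟨m, F, hF⟩ := hf
  have hΔ : MDiff (fun z : ℍ => Δ z ^ m) := by
    have h : MDiff (CuspForm.discriminant : ℍ → ℂ) := CuspForm.discriminant.holo'
    exact h.pow m
  have hfm : MDiff f := IsModFunG.mdiff ⟨m, F, hF⟩
  refine ⟨m, ⟨{ toFun := fun z => f (δ • z) * Δ z ^ m
                slash_action_eq' := ?_
                holo' := (mdiff_comp_SL hfm δ).mul hΔ
                bdd_at_cusps' := ?_ }, rfl⟩⟩
  · rintro _ ⟨γ, hγ, rfl⟩
    have h1 := slash_mul_discPow (fun z => f (δ • z)) m γ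
    rw [SL_slash] at h1
    refine h1.trans ?_
    funext τ
    have h2 : IsModFunG Γ f := ⟨m, F, hF⟩
    have h3 := h2.comp_smul (hδ γ hγ) (δ • τ)
    have h4 : (δ * γ * δ⁻¹) • (δ • τ) = δ • (γ • τ) := by
      rw [← mul_smul, ← mul_smul]
      congr 1
      group
    rw [h4] at h3
    show f (δ • (γ • τ)) * Δ τ ^ m = f (δ • τ) * Δ τ ^ m
    rw [h3]
  · intro c hc
    rw [Subgroup.IsArithmetic.isCusp_iff_isCusp_SL2Z] at hc
    rw [OnePoint.isBoundedAt_iff_forall_SL2Z hc]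
    intro γ _
    rw [slash_mul_discPow]
    have h1 : IsBoundedAtImInfty ((F : ℍ → ℂ) ∣[(12 * (m : ℤ))] (δ * γ)) :=
      ModularFormClass.bdd_at_infty_slash F (δ * γ)
    rw [hF, slash_mul_discPow] at h1
    refine h1.congr_left fun z => ?_
    simp only [mul_smul]

/-- a modular function of some finite-index level which is invariant under `SL(2, ℤ)` is a
polynomial in `J` -/
theorem es1rcnorm_poly_of_invariant [Γ.FiniteIndex] {g : ℍ → ℂ} (hg : IsModFunG Γ g)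
    (hinv : ∀ (γ : SL(2, ℤ)) (τ : ℍ), g (γ • τ) = g τ) :
    ∃ P : ℂ[X], ∀ τ : ℍ, g τ = P.eval (Jfun τ) := by
  have hol : MDiff g := hg.mdiff
  obtain ⟨m, F, hF⟩ := hg
  have hb : IsBoundedAtImInfty (fun τ => Δ τ ^ m * g τ) := by
    have h1 : IsBoundedAtImInfty ((F : ℍ → ℂ) ∣[(12 * (m : ℤ))] (1 : SL(2, ℤ))) :=
      ModularFormClass.bdd_at_infty_slash F 1
    rw [hF, slash_mul_discPow] at h1
    refine h1.congr_left fun z => ?_
    simp only [one_smul]
    ring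
  obtain ⟨P, -, hP⟩ := exists_poly_of_invariant g hol hinv m hb
  exact ⟨P, hP⟩

section Conj

variable (Γ)

/-- the conjugate `f ∘ (out q)⁻¹` attached to the coset `q = δ Γ` -/
def es1rcnormConj (f : ℍ → ℂ) (q : SL(2, ℤ) ⧸ Γ) : ℍ → ℂ :=
  fun z => f ((Quotient.out q)⁻¹ • z)

variable {Γ}

theorem es1rcnormConj_apply (f : ℍ → ℂ) (q : SL(2, ℤ) ⧸ Γ) (z : ℍ) :
    es1rcnormConj Γ f q z = f ((Quotient.out q)⁻¹ • z) := rfl

/-- the conjugates are permuted by `SL(2, ℤ)` -/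
theorem es1rcnormConj_smul {f : ℍ → ℂ} (hf : IsModFunG Γ f) (g : SL(2, ℤ))
    (q : SL(2, ℤ) ⧸ Γ) (z : ℍ) :
    es1rcnormConj Γ f q (g • z) = es1rcnormConj Γ f (g⁻¹ • q) z := by
  rw [es1rcnormConj_apply, es1rcnormConj_apply]
  have h1 : ((g⁻¹ * Quotient.out q : SL(2, ℤ)) : SL(2, ℤ) ⧸ Γ)
      = ((Quotient.out (g⁻¹ • q) : SL(2, ℤ)) : SL(2, ℤ) ⧸ Γ) := by
    rw [QuotientGroup.out_eq']
    exact MulAction.Quotient.mk_smul_out Γ g⁻¹ q
  have h2 : (g⁻¹ * Quotient.out q)⁻¹ * Quotient.out (g⁻¹ • q) ∈ Γ := QuotientGroup.eq.mp h1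
  have h3 := hf.comp_smul (Γ.inv_mem h2) ((Quotient.out q)⁻¹ • (g • z))
  rw [← h3, ← mul_smul, ← mul_smul]
  congr 1
  group

/-- the conjugate attached to the trivial coset is `f` -/
theorem es1rcnormConj_one {f : ℍ → ℂ} (hf : IsModFunG Γ f) (z : ℍ) :
    es1rcnormConj Γ f ((1 : SL(2, ℤ)) : SL(2, ℤ) ⧸ Γ) z = f z := by
  rw [es1rcnormConj_apply]
  have h1 : ((1 : SL(2, ℤ)) : SL(2, ℤ) ⧸ Γ)
      = ((Quotient.out ((1 : SL(2, ℤ)) : SL(2, ℤ) ⧸ Γ) : SL(2, ℤ)) : SL(2, ℤ) ⧸ Γ) :=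
    (QuotientGroup.out_eq' _).symm
  have h2 := QuotientGroup.eq.mp h1
  rw [inv_one, one_mul] at h2
  exact hf.comp_smul (Γ.inv_mem h2) z

/-- the conjugates are modular functions for the normal core of `Γ` -/
theorem es1rcnormConj_isModFunG [Γ.FiniteIndex] {f : ℍ → ℂ} (hf : IsModFunG Γ f)
    (q : SL(2, ℤ) ⧸ Γ) : IsModFunG Γ.normalCore (es1rcnormConj Γ f q) := by
  haveI : Γ.normalCore.FiniteIndex := inferInstance
  refine es1rcnorm_comp_conj hf (Quotient.out q)⁻¹ fun γ hγ => ?_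
  have h1 : (Quotient.out q)⁻¹ * γ * ((Quotient.out q)⁻¹)⁻¹ ∈ Γ.normalCore :=
    (Subgroup.normalCore_normal Γ).conj_mem γ hγ _
  exact Subgroup.normalCore_le Γ h1

end Conj

/-- evaluation at `J`, as a ring homomorphism `ℂ[X] → (ℍ → ℂ)` -/
def es1rcnormEvalJ : ℂ[X] →+* (ℍ → ℂ) :=
  RingHom.pi fun τ => evalRingHom (Jfun τ)

theorem es1rcnormEvalJ_apply (P : ℂ[X]) (τ : ℍ) : es1rcnormEvalJ P τ = P.eval (Jfun τ) := rfl

theorem es1rcnorm_eval_comp (τ : ℍ) :
    (Pi.evalRingHom (fun _ : ℍ => ℂ) τ).comp es1rcnormEvalJ = evalRingHom (Jfun τ) := rfl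

/-- **Piece RC-norm.**  Every modular function for `Γ` is a root of a monic polynomial of degree
`[SL(2, ℤ) : Γ]` with coefficients in `ℂ[J]`. -/
theorem stmtNormPolyG (Γ : Subgroup SL(2, ℤ)) [Γ.FiniteIndex] : StmtNormPolyG Γ := by
  classical
  intro f hf
  haveI : Γ.normalCore.FiniteIndex := inferInstance
  letI : Fintype (SL(2, ℤ) ⧸ Γ) := Fintype.ofFinite _
  -- the conjugates, in the algebra of modular functions for the normal core
  let c : SL(2, ℤ) ⧸ Γ → modFunAlgG Γ.normalCore := fun q =>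
    ⟨es1rcnormConj Γ f q, es1rcnormConj_isModFunG hf q⟩
  let Ψ' : (modFunAlgG Γ.normalCore)[X] := ∏ q : SL(2, ℤ) ⧸ Γ, (X - C (c q))
  let Ψ : (ℍ → ℂ)[X] := ∏ q : SL(2, ℤ) ⧸ Γ, (X - C (es1rcnormConj Γ f q))
  have hΨ : Ψ'.map (modFunAlgG Γ.normalCore).val.toRingHom = Ψ := by
    simp only [Ψ', Ψ, Polynomial.map_prod, Polynomial.map_sub, Polynomial.map_X,
      Polynomial.map_C]
    rfl
  have hmonic : Ψ.Monic := monic_prod_of_monic _ _ fun q _ => monic_X_sub_C _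
  have hdeg : Ψ.natDegree = Γ.index := by
    rw [natDegree_prod_of_monic _ _ fun q _ => monic_X_sub_C _]
    simp only [natDegree_X_sub_C, Finset.sum_const, Finset.card_univ, smul_eq_mul, mul_one]
    rw [Subgroup.index_eq_card, Nat.card_eq_fintype_card]
  -- invariance of `Ψ` under `SL(2, ℤ)`
  have hinv : ∀ g : SL(2, ℤ), Ψ.map (compSmul g) = Ψ := by
    intro g
    simp only [Ψ, Polynomial.map_prod, Polynomial.map_sub, Polynomial.map_X, Polynomial.map_C]
    have h1 : ∀ q : SL(2, ℤ) ⧸ Γ,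
        compSmul g (es1rcnormConj Γ f q) = es1rcnormConj Γ f (g⁻¹ • q) := by
      intro q
      funext z
      exact es1rcnormConj_smul hf g q z
    simp only [h1]
    exact Equiv.prod_comp (MulAction.toPerm g⁻¹)
      (fun q : SL(2, ℤ) ⧸ Γ => (X - C (es1rcnormConj Γ f q) : (ℍ → ℂ)[X]))
  -- the coefficients are polynomials in `J`
  have hlift : Ψ ∈ lifts es1rcnormEvalJ := by
    rw [lifts_iff_coeff_lifts]
    intro j
    have h1 : IsModFunG Γ.normalCore (Ψ.coeff j) := by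
      rw [← hΨ, coeff_map]
      exact (Ψ'.coeff j).2
    have h2 : ∀ (g : SL(2, ℤ)) (τ : ℍ), Ψ.coeff j (g • τ) = Ψ.coeff j τ := by
      intro g τ
      have h3 := congrArg (fun P : (ℍ → ℂ)[X] => P.coeff j) (hinv g)
      simp only [coeff_map] at h3
      exact congrFun h3 τ
    obtain ⟨P, hP⟩ := es1rcnorm_poly_of_invariant h1 h2
    exact ⟨P, funext fun τ => (hP τ).symm⟩
  obtain ⟨Φ, hΦ, hΦdeg, hΦmonic⟩ := lifts_and_natDegree_eq_and_monic hlift hmonic
  refine ⟨Φ, hΦmonic, hΦdeg.trans hdeg, fun τ => ?_⟩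
  rw [← eval_map, ← es1rcnorm_eval_comp τ, ← Polynomial.map_map, hΦ]
  simp only [Ψ, Polynomial.map_prod, Polynomial.map_sub, Polynomial.map_X, Polynomial.map_C,
    eval_prod, eval_sub, eval_X, eval_C]
  refine Finset.prod_eq_zero (Finset.mem_univ ((1 : SL(2, ℤ)) : SL(2, ℤ) ⧸ Γ)) ?_
  show f τ - es1rcnormConj Γ f ((1 : SL(2, ℤ)) : SL(2, ℤ) ⧸ Γ) τ = 0
  rw [es1rcnormConj_one hf, sub_self]

end Fermat.Agent.ES1

end
end ZBES1_015_0

/-! ### bundled: `Fermat.Agent.ES1.RCAllAlg` -/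
section ZBES1_015_1
/-
ES₁ / F3 = RC-Γ, piece RC-all, algebraic part and conjugates (helper81).
Fork of `Fermat/Agent/ES/RC/PlaceAllAlg.lean`, `PlaceAllConj.lean` for an arbitrary subgroup
`Γ ≤ SL(2, ℤ)` of finite index; `A = modFunAlgG Γ`, `F` a fraction field of `A`, `J ∈ A`.

* `es1rcall_aeval_J_apply`, `es1rcall_aeval_J_ne_zero`, `es1rcall_transcendental_jF`;
* `es1rcall_isRoot_normPoly` : every `b ∈ A` is a root of a monic polynomial of degree
  `Γ.index` over `ℂ[J]`;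
* `es1rcall_exists_frac_poly` : every `x ∈ F` is `a / d(J)`, `a ∈ A`, `0 ≠ d ∈ ℂ[X]`;
* `es1rcall_finiteDimensional` : `F` is finite over `ℂ(J)`;
* `es1rcall_conj_core` : the symmetric functions of the conjugates `a ∘ g_q`
  (`q ∈ SL(2, ℤ) / Γ`) are polynomials `P j` in `J`, `P 0 = 1`,
  `Σ_j (-1)^j P_j(J) a^(n-j) = 0`.
-/

set_option autoImplicit false
set_option linter.style.haveILetI false
set_option linter.unusedSectionVars false

noncomputable section

namespace Fermat.Agent.ES1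

open UpperHalfPlane AlgebraicCurve ModularForm Polynomial IntermediateField Module
open Fermat.Agent.S23 Fermat.Agent.S24 Fermat.Agent.S28 Fermat.Agent.ES.RC
open scoped MatrixGroups Manifold ModularForm

variable (Γ : Subgroup SL(2, ℤ))

/-- Evaluation at a point of `ℍ`. -/
def es1rcallEv (τ : ℍ) : modFunAlgG Γ →ₐ[ℂ] ℂ :=
  (Pi.evalAlgHom ℂ (fun _ : ℍ => ℂ) τ).comp (modFunAlgG Γ).val

theorem es1rcallEv_apply (τ : ℍ) (f : modFunAlgG Γ) : es1rcallEv Γ τ f = (f : ℍ → ℂ) τ := rfl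

theorem es1rcall_aeval_J_apply (P : ℂ[X]) (τ : ℍ) :
    ((aeval (es1rcptJ Γ) P : modFunAlgG Γ) : ℍ → ℂ) τ = P.eval (Jfun τ) := by
  have h := Polynomial.aeval_algHom_apply (es1rcallEv Γ τ) (es1rcptJ Γ) P
  rw [es1rcallEv_apply, es1rcallEv_apply] at h
  rw [← h, Polynomial.coe_aeval_eq_eval]
  rfl

theorem es1rcall_aeval_J_ne_zero {P : ℂ[X]} (hP : P ≠ 0) : aeval (es1rcptJ Γ) P ≠ 0 := by
  intro h
  apply hP
  refine Polynomial.funext fun c => ?_
  obtain ⟨τ, hτ⟩ := Jfun_surjective c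
  have h1 := congrFun (congrArg Subtype.val h) τ
  rw [es1rcall_aeval_J_apply, hτ] at h1
  rw [h1, Polynomial.eval_zero]
  rfl

/-- The `ℂ[X]`-algebra structure `P ↦ P(J)` on `modFunAlgG Γ` (not an instance). -/
@[reducible] def es1rcallPolyAlg : Algebra ℂ[X] (modFunAlgG Γ) :=
  (aeval (es1rcptJ Γ)).toRingHom.toAlgebra

theorem es1rcallPolyAlg_algebraMap (P : ℂ[X]) :
    letI := es1rcallPolyAlg Γ
    algebraMap ℂ[X] (modFunAlgG Γ) P = aeval (es1rcptJ Γ) P := rfl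

/-- Every modular function is a root of a monic polynomial of degree `Γ.index` over `ℂ[J]`. -/
theorem es1rcall_isRoot_normPoly [Γ.FiniteIndex] (b : modFunAlgG Γ) :
    ∃ Φ : (ℂ[X])[X], Φ.Monic ∧ Φ.natDegree = Γ.index ∧
      Φ.eval₂ (aeval (es1rcptJ Γ)).toRingHom b = 0 := by
  obtain ⟨Φ, hmon, hdeg, hroot⟩ := stmtNormPolyG Γ (b : ℍ → ℂ) b.2
  refine ⟨Φ, hmon, hdeg, ?_⟩
  apply Subtype.ext
  funext τ
  have h1 : ((Φ.eval₂ (aeval (es1rcptJ Γ)).toRingHom b : modFunAlgG Γ) : ℍ → ℂ) τ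
      = es1rcallEv Γ τ (Φ.eval₂ (aeval (es1rcptJ Γ)).toRingHom b) := rfl
  rw [h1, ← AlgHom.coe_toRingHom (es1rcallEv Γ τ), Polynomial.hom_eval₂]
  have h2 : (((es1rcallEv Γ τ : modFunAlgG Γ →ₐ[ℂ] ℂ) : modFunAlgG Γ →+* ℂ).comp
      (aeval (es1rcptJ Γ)).toRingHom) = evalRingHom (Jfun τ) := by
    apply Polynomial.ringHom_ext
    · intro a
      simp
    · simp [es1rcallEv_apply, es1rcptJ_coe]
  rw [h2]
  exact hroot τ

section Field

variable (F : Type*) [Field F] [Algebra ℂ F] [Algebra (modFunAlgG Γ) F]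
  [IsScalarTower ℂ (modFunAlgG Γ) F] [IsFractionRing (modFunAlgG Γ) F]

/-- `J` as an element of `F`. -/
def es1rcallJF : F := algebraMap (modFunAlgG Γ) F (es1rcptJ Γ)

theorem es1rcall_aeval_jF (P : ℂ[X]) :
    aeval (es1rcallJF Γ F) P = algebraMap (modFunAlgG Γ) F (aeval (es1rcptJ Γ) P) := by
  have h := Polynomial.aeval_algHom_apply (IsScalarTower.toAlgHom ℂ (modFunAlgG Γ) F)
    (es1rcptJ Γ) P
  simpa [es1rcallJF] using h

theorem es1rcall_transcendental_jF : Transcendental ℂ (es1rcallJF Γ F) := by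
  rw [Transcendental, IsAlgebraic]
  push Not
  intro P hP h
  rw [es1rcall_aeval_jF] at h
  exact rc_algebraMap_ne_zero F (es1rcall_aeval_J_ne_zero Γ hP) h

variable [Γ.FiniteIndex]

/-- Every element of `F` is `a / d(J)`. -/
theorem es1rcall_exists_frac_poly (x : F) :
    ∃ (a : modFunAlgG Γ) (d : ℂ[X]), d ≠ 0 ∧
      x * algebraMap (modFunAlgG Γ) F (aeval (es1rcptJ Γ) d) = algebraMap (modFunAlgG Γ) F a := by
  letI := es1rcallPolyAlg Γ
  obtain ⟨a₀, b₀, hb₀, rfl⟩ := IsFractionRing.div_surjective (A := modFunAlgG Γ) x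
  have hb0 : b₀ ≠ 0 := nonZeroDivisors.ne_zero hb₀
  have halg : IsAlgebraic ℂ[X] b₀ := by
    obtain ⟨Φ, hmon, -, hroot⟩ := es1rcall_isRoot_normPoly Γ b₀
    exact ⟨Φ, hmon.ne_zero, hroot⟩
  obtain ⟨c, d, hd, h⟩ := halg.exists_smul_eq_mul a₀ hb₀
  refine ⟨c, d, hd, ?_⟩
  rw [Algebra.smul_def, es1rcallPolyAlg_algebraMap] at h
  have hb' : algebraMap (modFunAlgG Γ) F b₀ ≠ 0 := rc_algebraMap_ne_zero F hb0
  rw [div_mul_eq_mul_div, div_eq_iff hb', ← map_mul, ← map_mul, mul_comm a₀, h, mul_comm]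

/-- Every element of `F` is algebraic over `ℂ(J)` of degree at most `Γ.index`. -/
theorem es1rcall_isIntegral_natDegree_le (x : F) :
    IsIntegral ℂ⟮es1rcallJF Γ F⟯ x ∧ (minpoly ℂ⟮es1rcallJF Γ F⟯ x).natDegree ≤ Γ.index := by
  obtain ⟨a, d, hd, hx⟩ := es1rcall_exists_frac_poly Γ F x
  obtain ⟨Φ, hmon, hdeg, hroot⟩ := es1rcall_isRoot_normPoly Γ a
  -- the coefficient map `ℂ[X] → ℂ(J)`
  let ρ : ℂ[X] →+* ℂ⟮es1rcallJF Γ F⟯ :=
    ((aeval (⟨es1rcallJF Γ F, mem_adjoin_simple_self ℂ _⟩ : ℂ⟮es1rcallJF Γ F⟯)) :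
      ℂ[X] →ₐ[ℂ] ℂ⟮es1rcallJF Γ F⟯).toRingHom
  have hρ : ∀ P : ℂ[X], ((ρ P : ℂ⟮es1rcallJF Γ F⟯) : F)
      = algebraMap (modFunAlgG Γ) F (aeval (es1rcptJ Γ) P) := by
    intro P
    have h := Polynomial.aeval_algHom_apply (ℂ⟮es1rcallJF Γ F⟯.val)
      (⟨es1rcallJF Γ F, mem_adjoin_simple_self ℂ _⟩ : ℂ⟮es1rcallJF Γ F⟯) P
    rw [← es1rcall_aeval_jF]
    exact h.symm
  have hcomp : (algebraMap ℂ⟮es1rcallJF Γ F⟯ F).comp ρ =
      (algebraMap (modFunAlgG Γ) F).comp (aeval (es1rcptJ Γ)).toRingHom := by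
    ext P
    · simp [ρ, ← IsScalarTower.algebraMap_apply]
    · simp only [RingHom.coe_comp, Function.comp_apply]
      exact hρ X
  -- `a` is integral of degree `≤ n`
  have haroot : (Φ.map ρ).eval₂ (algebraMap ℂ⟮es1rcallJF Γ F⟯ F)
      (algebraMap (modFunAlgG Γ) F a) = 0 := by
    rw [Polynomial.eval₂_map, hcomp, ← Polynomial.hom_eval₂, hroot, map_zero]
  have hmon' : (Φ.map ρ).Monic := hmon.map ρ
  have haint : IsIntegral ℂ⟮es1rcallJF Γ F⟯ (algebraMap (modFunAlgG Γ) F a) :=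
    ⟨Φ.map ρ, hmon', haroot⟩
  have hadeg : (minpoly ℂ⟮es1rcallJF Γ F⟯ (algebraMap (modFunAlgG Γ) F a)).natDegree
      ≤ Γ.index := by
    have h1 := Polynomial.natDegree_le_of_dvd
      (minpoly.dvd ℂ⟮es1rcallJF Γ F⟯ (algebraMap (modFunAlgG Γ) F a) haroot) hmon'.ne_zero
    rw [hmon.natDegree_map] at h1
    rw [← hdeg]
    exact h1
  -- `x ∈ ℂ(J)(a)`
  have hdne : algebraMap (modFunAlgG Γ) F (aeval (es1rcptJ Γ) d) ≠ 0 :=
    rc_algebraMap_ne_zero F (es1rcall_aeval_J_ne_zero Γ hd)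
  have hxa : x = algebraMap (modFunAlgG Γ) F a
      * (algebraMap ℂ⟮es1rcallJF Γ F⟯ F (ρ d))⁻¹ := by
    have : algebraMap ℂ⟮es1rcallJF Γ F⟯ F (ρ d)
        = algebraMap (modFunAlgG Γ) F (aeval (es1rcptJ Γ) d) := hρ d
    rw [this, ← hx, mul_assoc, mul_inv_cancel₀ hdne, mul_one]
  have hxint : IsIntegral ℂ⟮es1rcallJF Γ F⟯ x := by
    rw [hxa]
    exact haint.mul (isIntegral_algebraMap.inv)
  refine ⟨hxint, ?_⟩
  have hle : ℂ⟮es1rcallJF Γ F⟯⟮x⟯ ≤ ℂ⟮es1rcallJF Γ F⟯⟮algebraMap (modFunAlgG Γ) F a⟯ := by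
    rw [adjoin_simple_le_iff, hxa]
    refine mul_mem (mem_adjoin_simple_self _ _) (inv_mem ?_)
    exact IntermediateField.algebraMap_mem _ _
  haveI : FiniteDimensional ℂ⟮es1rcallJF Γ F⟯
      ℂ⟮es1rcallJF Γ F⟯⟮algebraMap (modFunAlgG Γ) F a⟯ :=
    adjoin.finiteDimensional haint
  have h2 := IntermediateField.finrank_le_of_le_right hle
  rw [adjoin.finrank hxint, adjoin.finrank haint] at h2
  exact h2.trans hadeg

instance es1rcall_finiteDimensional : FiniteDimensional ℂ⟮es1rcallJF Γ F⟯ F :=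
  rc_finiteDimensional_of_natDegree_le Γ.index (es1rcall_isIntegral_natDegree_le Γ F)

theorem es1rcall_isAlgebraic : Algebra.IsAlgebraic ℂ⟮es1rcallJF Γ F⟯ F := inferInstance

end Field

/-! ### Conjugates -/

/-- **Conjugates.**  The elementary symmetric functions of the conjugates `a ∘ g q`
(`q ∈ s`, `s` the set of all cosets of `Γ`) are polynomials in `J`. -/
theorem es1rcall_conj_core [Γ.FiniteIndex] (a : modFunAlgG Γ) :
    ∃ (s : Finset (SL(2, ℤ) ⧸ Γ)) (g : SL(2, ℤ) ⧸ Γ → SL(2, ℤ)) (P : ℕ → ℂ[X]), P 0 = 1 ∧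
      (∀ τ : ℍ, ∑ j ∈ Finset.range (Γ.index + 1),
        (-1 : ℂ) ^ j * (P j).eval (Jfun τ) * (a : ℍ → ℂ) τ ^ (Γ.index - j) = 0) ∧
      ∀ (j : ℕ) (τ : ℍ), (P j).eval (Jfun τ) =
        ∑ S ∈ Finset.powersetCard j s, ∏ q ∈ S, (a : ℍ → ℂ) (g q • τ) := by
  classical
  haveI : Γ.normalCore.FiniteIndex := inferInstance
  letI : Fintype (SL(2, ℤ) ⧸ Γ) := Fintype.ofFinite _
  have hcard : (Finset.univ : Finset (SL(2, ℤ) ⧸ Γ)).card = Γ.index := by
    rw [Finset.card_univ, Subgroup.index_eq_card, Nat.card_eq_fintype_card]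
  -- the symmetric functions
  let E : ℕ → ℍ → ℂ := fun j τ =>
    ∑ S ∈ Finset.powersetCard j (Finset.univ : Finset (SL(2, ℤ) ⧸ Γ)),
      ∏ q ∈ S, es1rcnormConj Γ (a : ℍ → ℂ) q τ
  have hEmod : ∀ j, IsModFunG Γ.normalCore (E j) := by
    intro j
    have h1 : IsModFunG Γ.normalCore
        (∑ S ∈ Finset.powersetCard j (Finset.univ : Finset (SL(2, ℤ) ⧸ Γ)),
          ∏ q ∈ S, es1rcnormConj Γ (a : ℍ → ℂ) q) :=
      IsModFunG.sum _ _ fun S _ => IsModFunG.prod _ _ fun q _ => es1rcnormConj_isModFunG a.2 q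
    have h2 : (∑ S ∈ Finset.powersetCard j (Finset.univ : Finset (SL(2, ℤ) ⧸ Γ)),
          ∏ q ∈ S, es1rcnormConj Γ (a : ℍ → ℂ) q) = E j := by
      funext τ
      simp only [E, Finset.sum_apply, Finset.prod_apply]
    rwa [h2] at h1
  have hEinv : ∀ j (γ : SL(2, ℤ)) (τ : ℍ), E j (γ • τ) = E j τ := by
    intro j γ τ
    simp only [E]
    have h1 : ∀ S : Finset (SL(2, ℤ) ⧸ Γ),
        ∏ q ∈ S, es1rcnormConj Γ (a : ℍ → ℂ) q (γ • τ)
          = ∏ q ∈ S.map (MulAction.toPerm γ⁻¹ : Equiv.Perm (SL(2, ℤ) ⧸ Γ)).toEmbedding,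
              es1rcnormConj Γ (a : ℍ → ℂ) q τ := by
      intro S
      rw [Finset.prod_map]
      refine Finset.prod_congr rfl fun q _ => ?_
      exact es1rcnormConj_smul a.2 γ q τ
    simp only [h1]
    exact esymm_sum_powersetCard_map j (MulAction.toPerm γ⁻¹ : Equiv.Perm (SL(2, ℤ) ⧸ Γ))
      (fun S => ∏ q ∈ S, es1rcnormConj Γ (a : ℍ → ℂ) q τ)
  have hex : ∀ j, ∃ P : ℂ[X], ∀ τ : ℍ, E j τ = P.eval (Jfun τ) := fun j =>
    es1rcnorm_poly_of_invariant (hEmod j) (hEinv j)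
  choose P hP using hex
  have hP0 : P 0 = 1 := by
    refine Polynomial.funext fun c => ?_
    obtain ⟨τ, hτ⟩ := Jfun_surjective c
    rw [← hτ, ← hP 0 τ]
    simp [E]
  refine ⟨Finset.univ, fun q => (Quotient.out q)⁻¹, P, hP0, fun τ => ?_, fun j τ => ?_⟩
  · have hv := normPoly_vieta (Finset.univ : Finset (SL(2, ℤ) ⧸ Γ))
      (fun q => es1rcnormConj Γ (a : ℍ → ℂ) q τ) ((a : ℍ → ℂ) τ)
    have h0 : ∏ q ∈ (Finset.univ : Finset (SL(2, ℤ) ⧸ Γ)),
        ((a : ℍ → ℂ) τ - es1rcnormConj Γ (a : ℍ → ℂ) q τ) = 0 :=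
      Finset.prod_eq_zero (Finset.mem_univ ((1 : SL(2, ℤ)) : SL(2, ℤ) ⧸ Γ))
        (by rw [es1rcnormConj_one a.2, sub_self])
    rw [h0, hcard] at hv
    rw [hv]
    refine Finset.sum_congr rfl fun j _ => ?_
    rw [← hP j τ]
  · rw [← hP j τ]
    rfl

end Fermat.Agent.ES1

end
end ZBES1_015_1

/-! ### bundled: `Fermat.Agent.ES1.RCAllPt` -/
section ZBES1_015_2
/-
ES₁ / F3 = RC-Γ, piece RC-all, finite places (helper81).
Fork of `Fermat/Agent/ES/RC/PlaceAllPt.lean` for an arbitrary subgroup `Γ ≤ SL(2, ℤ)` of finite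
index.

`es1rcall_place_pt_of_ord_nonneg` : a place `v` of `F = Frac (modFunAlgG Γ)` at which `J` is
regular is the place at a point `τ ∈ ℍ`.
-/

set_option autoImplicit false
set_option linter.style.haveILetI false
set_option linter.unusedSectionVars false

noncomputable section

namespace Fermat.Agent.ES1

open UpperHalfPlane AlgebraicCurve ModularForm Polynomial IntermediateField
open Fermat.Agent.S23 Fermat.Agent.S24 Fermat.Agent.S28 Fermat.Agent.ES.RC
open scoped MatrixGroups Manifold ModularForm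

variable (Γ : Subgroup SL(2, ℤ)) [Γ.FiniteIndex]

/-! ### Polynomials in `t = J - c` -/

theorem es1rcall_aeval_jSub_apply (c : ℂ) (P : ℂ[X]) (τ : ℍ) :
    ((aeval (es1rcptJSub Γ c) P : modFunAlgG Γ) : ℍ → ℂ) τ = P.eval (Jfun τ - c) := by
  have h := Polynomial.aeval_algHom_apply (es1rcallEv Γ τ) (es1rcptJSub Γ c) P
  rw [es1rcallEv_apply, es1rcallEv_apply] at h
  rw [← h, Polynomial.coe_aeval_eq_eval]
  rfl

theorem es1rcall_J_eq_jSub_add (c : ℂ) : es1rcptJ Γ = es1rcptJSub Γ c + algebraMap ℂ (modFunAlgG Γ) c := by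
  simp [es1rcptJSub, es1rcptJ]

theorem es1rcall_aeval_jSub_comp (c : ℂ) (d : ℂ[X]) :
    aeval (es1rcptJSub Γ c) (d.comp (X + C c)) = aeval (es1rcptJ Γ) d := by
  rw [Polynomial.aeval_comp, map_add, aeval_X, aeval_C, ← es1rcall_J_eq_jSub_add]

theorem es1rcall_aeval_jSub_ne_zero (c : ℂ) {P : ℂ[X]} (hP : P ≠ 0) : aeval (es1rcptJSub Γ c) P ≠ 0 := by
  have h1 : P = (P.comp (X - C c)).comp (X + C c) := by
    simp [Polynomial.comp_assoc]
  have h2 : P.comp (X - C c) ≠ 0 := by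
    intro h
    apply hP
    rw [h1, h]
    simp
  rw [h1, es1rcall_aeval_jSub_comp]
  exact es1rcall_aeval_J_ne_zero Γ h2

/-- Conjugates, centred at `c`. -/
theorem es1rcall_conj_core_c (c : ℂ) (a : modFunAlgG Γ) :
    ∃ (s : Finset (SL(2, ℤ) ⧸ Γ)) (g : SL(2, ℤ) ⧸ Γ → SL(2, ℤ)) (P : ℕ → ℂ[X]), P 0 = 1 ∧
      (∑ j ∈ Finset.range (Γ.index + 1),
        (-1 : modFunAlgG Γ) ^ j * aeval (es1rcptJSub Γ c) (P j) * a ^ (Γ.index - j) = 0) ∧
      ∀ (j : ℕ), ((aeval (es1rcptJSub Γ c) (P j) : modFunAlgG Γ) : ℍ → ℂ) =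
        fun τ => ∑ S ∈ Finset.powersetCard j s,
          ∏ q ∈ S, (a : ℍ → ℂ) (g q • τ) := by
  obtain ⟨s, g, P, hP0, hrel, hsym⟩ := es1rcall_conj_core Γ a
  refine ⟨s, g, fun j => (P j).comp (X + C c), by simp [hP0], ?_, fun j => ?_⟩
  · apply Subtype.ext
    funext τ
    have h1 : ((∑ j ∈ Finset.range (Γ.index + 1),
        (-1 : modFunAlgG Γ) ^ j * aeval (es1rcptJSub Γ c) ((P j).comp (X + C c)) *
          a ^ (Γ.index - j) : modFunAlgG Γ) : ℍ → ℂ) τ
        = es1rcallEv Γ τ (∑ j ∈ Finset.range (Γ.index + 1),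
        (-1 : modFunAlgG Γ) ^ j * aeval (es1rcptJSub Γ c) ((P j).comp (X + C c)) *
          a ^ (Γ.index - j)) := rfl
    rw [h1, map_sum]
    simp only [map_mul, map_pow, map_neg, map_one, es1rcall_aeval_jSub_comp]
    simp only [es1rcallEv_apply, es1rcall_aeval_J_apply]
    exact hrel τ
  · funext τ
    rw [es1rcall_aeval_jSub_comp, es1rcall_aeval_J_apply]
    exact hsym j τ

section Field

variable (F : Type*) [Field F] [Algebra ℂ F] [Algebra (modFunAlgG Γ) F]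
  [IsScalarTower ℂ (modFunAlgG Γ) F] [IsFractionRing (modFunAlgG Γ) F]

theorem es1rcall_algebraMap_aeval_jSub (c : ℂ) (P : ℂ[X]) :
    algebraMap (modFunAlgG Γ) F (aeval (es1rcptJSub Γ c) P)
      = aeval (algebraMap (modFunAlgG Γ) F (es1rcptJSub Γ c)) P := by
  have h := Polynomial.aeval_algHom_apply (IsScalarTower.toAlgHom ℂ (modFunAlgG Γ) F) (es1rcptJSub Γ c) P
  simpa using h.symm

theorem es1rcall_algebraMap_jSub (c : ℂ) :
    algebraMap (modFunAlgG Γ) F (es1rcptJSub Γ c) = es1rcallJF Γ F - algebraMap ℂ F c := by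
  rw [es1rcptJSub, map_sub, ← IsScalarTower.algebraMap_apply]
  rfl

/-- **Finite places are points.** -/
theorem es1rcall_place_pt_of_ord_nonneg (v : Place ℂ F) (hv : 0 ≤ v.ord (es1rcallJF Γ F)) :
    ∃ (τ : ℍ) (e : ℕ), 0 < e ∧ ∀ f : modFunAlgG Γ, f ≠ 0 →
      ordPt τ (f : ℍ → ℂ) = (e : ℤ) * v.ord (algebraMap (modFunAlgG Γ) F f) := by
  classical
  have htr := es1rcall_transcendental_jF Γ F
  have hna : es1rcallJF Γ F ∉ Set.range (algebraMap ℂ F) := by
    rintro ⟨c, hc⟩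
    exact htr (hc ▸ isAlgebraic_algebraMap c)
  obtain ⟨c, hc⟩ := exists_ord_sub_pos (es1rcallJF Γ F) htr (es1rcall_isAlgebraic Γ F) v (es1rcallJF Γ F) hv hna
  set x : F := algebraMap (modFunAlgG Γ) F (es1rcptJSub Γ c) with hx
  have hxeq : x = es1rcallJF Γ F - algebraMap ℂ F c := es1rcall_algebraMap_jSub Γ F c
  have hvx : 0 < v.ord x := by rw [hxeq]; exact hc
  have hx0 : x ≠ 0 := rc_algebraMap_ne_zero F (es1rcptJSub_ne_zero Γ c)
  obtain ⟨τ₁, hτ₁⟩ := Jfun_surjective c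
  by_contra hcon
  push Not at hcon
  -- the places at points
  have hpt : ∀ τ : ℍ, ∃ (w : Place ℂ F) (e : ℕ), 0 < e ∧
      w.toValuationSubring = (es1rcptVal Γ F τ).valuationSubring ∧
      ∀ f : modFunAlgG Γ, f ≠ 0 →
        ordPt τ (f : ℍ → ℂ) = (e : ℤ) * w.ord (algebraMap (modFunAlgG Γ) F f) :=
    fun τ => es1rcpt_exists_place Γ F τ
  have hvne : ∀ (τ : ℍ) (w : Place ℂ F),
      w.toValuationSubring = (es1rcptVal Γ F τ).valuationSubring → w ≠ v := by
    rintro τ w hw rfl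
    obtain ⟨w', e, he, hw', hord⟩ := hpt τ
    have hww : w' = w := Place.ext (hw'.trans hw.symm)
    subst hww
    obtain ⟨f, hf, hne⟩ := hcon τ e he
    exact hne (hord f hf)
  -- transcendence and finiteness over `ℂ(x)`
  have hKeq : ℂ⟮x⟯ = ℂ⟮es1rcallJF Γ F⟯ := by
    apply le_antisymm
    · rw [adjoin_simple_le_iff, hxeq]
      exact sub_mem (mem_adjoin_simple_self ℂ _) (IntermediateField.algebraMap_mem _ _)
    · rw [adjoin_simple_le_iff]
      have : es1rcallJF Γ F = x + algebraMap ℂ F c := by rw [hxeq]; ring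
      rw [this]
      exact add_mem (mem_adjoin_simple_self ℂ _) (IntermediateField.algebraMap_mem _ _)
  have hxtr : Transcendental ℂ x := by
    intro halg
    apply htr
    have : es1rcallJF Γ F = x + algebraMap ℂ F c := by rw [hxeq]; ring
    rw [this]
    exact halg.add (isAlgebraic_algebraMap c)
  haveI hfd : FiniteDimensional ℂ⟮x⟯ F := hKeq ▸ es1rcall_finiteDimensional Γ F
  obtain ⟨V, hV, -⟩ := sum_ord_eq_finrank x hxtr
  set S : Finset (Place ℂ F) :=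
    V.filter (fun u => ∃ τ, u.toValuationSubring = (es1rcptVal Γ F τ).valuationSubring) with hS
  have hvS : v ∉ S := by
    intro hmem
    obtain ⟨τ, hτ⟩ := (Finset.mem_filter.mp hmem).2
    exact hvne τ v hτ rfl
  obtain ⟨h, hvh, hSh⟩ := exists_ord_neg x hxtr v S hvx hvS
    (fun u hu => (hV u).mp (Finset.mem_filter.mp hu).1)
  have hh0 : h ≠ 0 := by
    rintro rfl
    simp at hvh
  -- `h = a / D(x)`
  obtain ⟨a, d, hd, hha⟩ := es1rcall_exists_frac_poly Γ F h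
  set D : ℂ[X] := d.comp (X + C c) with hD
  have hD0 : D ≠ 0 := comp_ne_zero_of_ne_zero c hd
  have hhD : h * aeval x D = algebraMap (modFunAlgG Γ) F a := by
    rw [hx, ← es1rcall_algebraMap_aeval_jSub, hD, es1rcall_aeval_jSub_comp]
    exact hha
  have hDx0 : aeval x D ≠ 0 := by
    rw [hx, ← es1rcall_algebraMap_aeval_jSub]
    exact rc_algebraMap_ne_zero F (es1rcall_aeval_jSub_ne_zero Γ c hD0)
  have ha0 : a ≠ 0 := by
    rintro rfl
    rw [map_zero] at hhD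
    exact (mul_ne_zero hh0 hDx0) hhD
  have haF : algebraMap (modFunAlgG Γ) F a ≠ 0 := rc_algebraMap_ne_zero F ha0
  set r : ℕ := D.rootMultiplicity 0 with hr
  -- the order of `x` at the points over `c`
  have hordx : ∀ τ : ℍ, Jfun τ = c → 0 < ordPt τ (es1rcptJSub Γ c : ℍ → ℂ) := by
    intro τ hτ
    have := es1rcpt_ordPt_jSub_pos Γ τ
    rwa [hτ] at this
  -- regularity of `h` at all points over `c`
  have hreg : ∀ τ : ℍ, Jfun τ = c →
      (r : ℤ) * ordPt τ (es1rcptJSub Γ c : ℍ → ℂ) ≤ ordPt τ (a : ℍ → ℂ) := by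
    intro τ hτ
    obtain ⟨w, e, he, hw, hord⟩ := hpt τ
    have hwx : 0 < w.ord x := by
      have h1 := hord (es1rcptJSub Γ c) (es1rcptJSub_ne_zero Γ c)
      have h2 := hordx τ hτ
      rw [h1] at h2
      have he' : (0 : ℤ) < e := by exact_mod_cast he
      exact (mul_pos_iff_of_pos_left he').mp h2
    have hwS : w ∈ S := Finset.mem_filter.mpr ⟨(hV w).mpr hwx, τ, hw⟩
    have hwh := hSh w hwS
    obtain ⟨-, hwD⟩ := place_ord_aeval w hwx D hD0
    have h3 : w.ord (algebraMap (modFunAlgG Γ) F a) = w.ord h + (r : ℤ) * w.ord x := by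
      rw [← hhD, w.ord_mul hh0 hDx0, hwD]
    rw [hord a ha0, hord (es1rcptJSub Γ c) (es1rcptJSub_ne_zero Γ c), h3]
    have he' : (0 : ℤ) ≤ e := by exact_mod_cast he.le
    nlinarith [mul_nonneg he' hwh]
  -- the base point
  set E : ℕ := (ordAt τ₁ (es1rcptJSub Γ c : ℍ → ℂ)).toNat with hE
  have hEpos : 0 < E := by
    have := hordx τ₁ hτ₁
    rw [ordPt] at this
    exact_mod_cast this
  have hEγ : ∀ γ : SL(2, ℤ), ordPt (γ • τ₁) (es1rcptJSub Γ c : ℍ → ℂ) = E := by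
    intro γ
    have h1 := ordAt_comp_smul (es1rcptJSub Γ c : ℍ → ℂ) γ τ₁
    have h2 : (fun τ => (es1rcptJSub Γ c : ℍ → ℂ) (γ • τ)) = (es1rcptJSub Γ c : ℍ → ℂ) := by
      funext τ
      rw [es1rcptJSub_apply, es1rcptJSub_apply, Jfun_smul]
    rw [h2] at h1
    rw [ordPt, ← h1]
  have hconj : ∀ γ : SL(2, ℤ), ((r * E : ℕ) : ℕ∞) ≤ ordAt (γ • τ₁) (a : ℍ → ℂ) := by
    intro γ
    have h1 := hreg (γ • τ₁) (by rw [Jfun_smul, hτ₁])
    rw [hEγ γ, ordPt] at h1
    rw [← es1rcpt_coe_ordPt (γ • τ₁) ha0]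
    exact_mod_cast h1
  -- the norm polynomial
  obtain ⟨s, g, P, hP0, hrel, hsym⟩ := es1rcall_conj_core_c Γ c a
  have hPord : ∀ j, ((j * (r * E) : ℕ) : ℕ∞) ≤ ordAt τ₁ ((aeval (es1rcptJSub Γ c) (P j) : modFunAlgG Γ) : ℍ → ℂ) := by
    intro j
    rw [hsym j]
    refine rc_le_ordAt_sum _ _ τ₁ _ fun S hS => ?_
    have hcard : S.card = j := (Finset.mem_powersetCard.mp hS).2
    have h1 := (rc_le_ordAt_prod S (fun q => fun τ => (a : ℍ → ℂ) (g q • τ))
      (fun q _ => rc_mdiff_comp_smul (es1rcpt_mdiff Γ a) (g q)) τ₁ (r * E)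
      (fun q _ => by rw [ordAt_comp_smul]; exact hconj (g q))).2
    rwa [hcard] at h1
  obtain ⟨w₁, e₁, he₁, hw₁, hord₁⟩ := hpt τ₁
  have hw₁x : 0 < w₁.ord x := by
    have h1 := hord₁ (es1rcptJSub Γ c) (es1rcptJSub_ne_zero Γ c)
    have h2 := hordx τ₁ hτ₁
    rw [h1] at h2
    have he' : (0 : ℤ) < e₁ := by exact_mod_cast he₁
    exact (mul_pos_iff_of_pos_left he').mp h2
  have hEe : (E : ℤ) = e₁ * w₁.ord x := by
    have h1 := hord₁ (es1rcptJSub Γ c) (es1rcptJSub_ne_zero Γ c)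
    rw [ordPt] at h1
    exact h1
  have hdvd : ∀ j, (X : ℂ[X]) ^ (j * r) ∣ P j := by
    intro j
    rcases eq_or_ne (P j) 0 with h0 | h0
    · rw [h0]; exact dvd_zero _
    have hne : aeval (es1rcptJSub Γ c) (P j) ≠ 0 := es1rcall_aeval_jSub_ne_zero Γ c h0
    have h1 := hPord j
    rw [← es1rcpt_coe_ordPt τ₁ hne] at h1
    have h2 : ((j * (r * E) : ℕ) : ℤ) ≤ ordPt τ₁ ((aeval (es1rcptJSub Γ c) (P j) : modFunAlgG Γ) : ℍ → ℂ) := by
      rw [ordPt]
      exact_mod_cast h1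
    obtain ⟨-, h3⟩ := place_ord_aeval w₁ hw₁x (P j) h0
    rw [hord₁ _ hne, es1rcall_algebraMap_aeval_jSub, h3] at h2
    have h4 : ((j * r : ℕ) : ℤ) * E ≤ ((P j).rootMultiplicity 0 : ℤ) * E := by
      have : (e₁ : ℤ) * (((P j).rootMultiplicity 0 : ℤ) * w₁.ord x)
          = ((P j).rootMultiplicity 0 : ℤ) * E := by rw [hEe]; ring
      rw [← this]
      refine le_trans (le_of_eq ?_) h2
      push_cast; ring
    have hE' : (0 : ℤ) < E := by exact_mod_cast hEpos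
    have h5 : ((j * r : ℕ) : ℤ) ≤ ((P j).rootMultiplicity 0 : ℤ) := le_of_mul_le_mul_right h4 hE'
    have h6 : j * r ≤ (P j).rootMultiplicity 0 := by exact_mod_cast h5
    have := (Polynomial.le_rootMultiplicity_iff h0).mp h6
    simpa using this
  choose R hR using hdvd
  have hR0 : R 0 = 1 := by
    have := hR 0
    rw [hP0] at this
    simpa using this.symm
  -- the relation for `y = a / x ^ r`
  set α : F := algebraMap (modFunAlgG Γ) F a with hα
  set y : F := α / x ^ r with hy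
  have hαy : α = y * x ^ r := by
    rw [hy, div_mul_cancel₀ _ (pow_ne_zero r hx0)]
  have hxmem : x ∈ v.toValuationSubring := (place_mem_iff v hx0).mpr hvx.le
  have hrelF : ∑ j ∈ Finset.range (Γ.index + 1),
      ((-1 : F) ^ j * aeval x (R j)) * y ^ (Γ.index - j) = 0 := by
    have h1 := congrArg (algebraMap (modFunAlgG Γ) F) hrel
    rw [map_sum, map_zero] at h1
    have h2 : ∀ j ∈ Finset.range (Γ.index + 1),
        algebraMap (modFunAlgG Γ) F ((-1 : modFunAlgG Γ) ^ j * aeval (es1rcptJSub Γ c) (P j) *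
          a ^ (Γ.index - j))
        = x ^ (r * Γ.index) * (((-1 : F) ^ j * aeval x (R j)) * y ^ (Γ.index - j)) := by
      intro j hj
      have hj' : j ≤ Γ.index := Nat.lt_succ_iff.mp (Finset.mem_range.mp hj)
      rw [map_mul, map_mul, map_pow, map_pow, map_neg, map_one, es1rcall_algebraMap_aeval_jSub, ← hx,
        ← hα, hαy, hR j, map_mul, map_pow, aeval_X, mul_pow, ← pow_mul]
      have e1 : r * Γ.index = j * r + r * (Γ.index - j) := by
        have : Γ.index = j + (Γ.index - j) := by omega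
        conv_lhs => rw [this]
        ring
      rw [e1, pow_add]
      ring
    rw [Finset.sum_congr rfl h2, ← Finset.mul_sum] at h1
    exact (mul_eq_zero.mp h1).resolve_left (pow_ne_zero _ hx0)
  have hymem : y ∈ v.toValuationSubring := by
    refine rc_mem_of_relation v.toValuationSubring (Γ.index)
      (fun j => (-1 : F) ^ j * aeval x (R j)) (by simp [hR0]) (fun j => ?_) y hrelF
    refine mul_mem (pow_mem (neg_mem (one_mem _)) j) (place_aeval_mem v hxmem (R j))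
  -- conclusion
  obtain ⟨q, hq, hqdvd⟩ := Polynomial.exists_eq_pow_rootMultiplicity_mul_and_not_dvd D hD0 0
  have hq0 : q.coeff 0 ≠ 0 := by
    intro h0
    apply hqdvd
    rw [map_zero, sub_zero]
    exact Polynomial.X_dvd_iff.mpr h0
  obtain ⟨hqx0, hqord⟩ := place_ord_aeval_of_coeff_zero_ne v hvx q hq0
  have hDq : aeval x D = x ^ r * aeval x q := by
    conv_lhs => rw [hq]
    simp [hr]
  have hyq : y = h * aeval x q := by
    rw [hy, ← hhD, hDq]
    field_simp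
  have hy0 : y ≠ 0 := by
    rw [hyq]; exact mul_ne_zero hh0 hqx0
  have hyord : v.ord y = v.ord h := by
    rw [hyq, v.ord_mul hh0 hqx0, hqord, add_zero]
  have := (place_mem_iff v hy0).mp hymem
  omega

end Field

end Fermat.Agent.ES1

end
end ZBES1_015_2

/-! ### bundled: `Fermat.Agent.ES1.G1.HKbEmb` -/
section ZBES1_015_3

/-!
# ES₁ / G1, piece HKb-NORM, part 2 (helper81): the conjugate embeddings of the function field

`Γ = gammaH L M H`, `N ≤ Γ` a normal subgroup of finite index of `SL(2, ℤ)`,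
`E = AlgebraicClosure (Frac (modFunAlgG N))`.

* `es1g1hkbComp` : `f ↦ f ∘ δ`, `modFunAlgG Γ → modFunAlgG N`, for every `δ ∈ SL(2, ℤ)`;
* `es1g1hkbEmb δ : fieldC ℂ L M H →+* E`, the extension of `f ↦ [f ∘ δ]` to the fraction field;
* `es1g1hkbEmb_mul_eq` : if `y · laurentOf G = laurentOf A` then `emb δ y · [G ∘ δ] = [A ∘ δ]`;
* `es1g1hkb_mem_of_emb_eq` : if `emb δ₁` and `emb δ₂` agree on `ι (fieldBar L M H)` then
  `δ₁ δ₂⁻¹ ∈ Γ` (separation);
* `es1g1hkbEmb_inclusion` : for `δ ∈ Γ` the embedding `emb δ` of level `L ℓ` restricts to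
  `emb 1` of level `L`.
-/

set_option autoImplicit false
set_option linter.style.haveILetI false
set_option linter.unusedSectionVars false

noncomputable section

namespace Fermat.Agent.ES1

open UpperHalfPlane ModularForm CongruenceSubgroup ModularCurve AlgebraicCurve HahnSeries
open Fermat.Agent.S23 Fermat.Agent.S24 Fermat.Agent.S28 Fermat.Agent.ES Fermat.Agent.ES.RC
open scoped MatrixGroups

/-! ### Composition with `δ` -/

section Comp

variable {Γ₁ N : Subgroup SL(2, ℤ)}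

theorem es1g1hkb_isModFunG_comp [Γ₁.FiniteIndex] [N.FiniteIndex] (hN : N ≤ Γ₁)
    (hnorm : N.Normal) (δ : SL(2, ℤ)) {f : ℍ → ℂ} (hf : IsModFunG Γ₁ f) :
    IsModFunG N (fun z => f (δ • z)) :=
  es1rcnorm_comp_conj hf δ fun γ hγ => hN (hnorm.conj_mem γ hγ δ)

/-- `f ↦ f ∘ δ` -/
def es1g1hkbComp [Γ₁.FiniteIndex] [N.FiniteIndex] (hN : N ≤ Γ₁) (hnorm : N.Normal)
    (δ : SL(2, ℤ)) : modFunAlgG Γ₁ →ₐ[ℂ] modFunAlgG N where
  toFun f := ⟨fun z => (f : ℍ → ℂ) (δ • z), es1g1hkb_isModFunG_comp hN hnorm δ f.2⟩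
  map_one' := rfl
  map_mul' _ _ := rfl
  map_zero' := rfl
  map_add' _ _ := rfl
  commutes' _ := rfl

@[simp]
theorem es1g1hkbComp_apply [Γ₁.FiniteIndex] [N.FiniteIndex] (hN : N ≤ Γ₁) (hnorm : N.Normal)
    (δ : SL(2, ℤ)) (f : modFunAlgG Γ₁) (z : ℍ) :
    ((es1g1hkbComp hN hnorm δ f : modFunAlgG N) : ℍ → ℂ) z = (f : ℍ → ℂ) (δ • z) := rfl

theorem es1g1hkbComp_injective [Γ₁.FiniteIndex] [N.FiniteIndex] (hN : N ≤ Γ₁)
    (hnorm : N.Normal) (δ : SL(2, ℤ)) : Function.Injective (es1g1hkbComp hN hnorm δ) := by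
  intro f g h
  apply Subtype.ext
  funext z
  have h1 := congrFun (congrArg Subtype.val h) (δ⁻¹ • z)
  simpa [es1g1hkbComp, smul_smul] using h1

end Comp

/-! ### The big field -/

section BigField

variable (N : Subgroup SL(2, ℤ))

/-- an algebraically closed field containing the modular functions for `N` -/
abbrev Es1g1hkbE : Type := AlgebraicClosure (FractionRing (modFunAlgG N))

/-- `modFunAlgG N → E` -/
def es1g1hkbToE : modFunAlgG N →+* Es1g1hkbE N :=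
  (algebraMap (FractionRing (modFunAlgG N)) (Es1g1hkbE N)).comp
    (algebraMap (modFunAlgG N) (FractionRing (modFunAlgG N)))

theorem es1g1hkbToE_injective : Function.Injective (es1g1hkbToE N) :=
  (algebraMap (FractionRing (modFunAlgG N)) (Es1g1hkbE N)).injective.comp
    (IsFractionRing.injective _ _)

end BigField

/-! ### The embeddings -/

section Emb

variable {L M : ℕ} [NeZero L] (hML : M ∣ L) (H : Subgroup (ZMod M)ˣ)
  {N : Subgroup SL(2, ℤ)} [N.FiniteIndex] (hN : N ≤ gammaH L M H) (hnorm : N.Normal)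
  (δ : SL(2, ℤ))

/-- `f ↦ [f ∘ δ]` -/
def es1g1hkbPre : modFunAlgG (gammaH L M H) →+* Es1g1hkbE N :=
  haveI := es1rc_finiteIndex hML H
  (es1g1hkbToE N).comp (es1g1hkbComp hN hnorm δ).toRingHom

theorem es1g1hkbPre_apply (f : modFunAlgG (gammaH L M H)) :
    es1g1hkbPre hML H hN hnorm δ f
      = es1g1hkbToE N ⟨fun z => (f : ℍ → ℂ) (δ • z),
          haveI := es1rc_finiteIndex hML H
          es1g1hkb_isModFunG_comp hN hnorm δ f.2⟩ := rfl

theorem es1g1hkbPre_injective : Function.Injective (es1g1hkbPre hML H hN hnorm δ) := by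
  haveI := es1rc_finiteIndex hML H
  exact (es1g1hkbToE_injective N).comp (es1g1hkbComp_injective hN hnorm δ)

/-- the value of `pre δ` on a `δ`-invariant function -/
theorem es1g1hkbPre_of_invariant {f : ℍ → ℂ} (hf : IsModFunG (gammaH L M H) f)
    (hinv : ∀ z, f (δ • z) = f z) :
    es1g1hkbPre hML H hN hnorm δ ⟨f, hf⟩ = es1g1hkbToE N ⟨f, hf.mono hN⟩ := by
  rw [es1g1hkbPre_apply]
  congr 1
  exact Subtype.ext (funext hinv)

/-- **the conjugate embedding** `emb δ : fieldC ℂ L M H → E`, extending `f ↦ [f ∘ δ]` -/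
def es1g1hkbEmb : fieldC ℂ L M H →+* Es1g1hkbE N :=
  letI := es1rcAlgebra hML H
  haveI := es1rc_isFractionRing hML H
  IsFractionRing.lift (A := modFunAlgG (gammaH L M H)) (K := fieldC ℂ L M H)
    (g := es1g1hkbPre hML H hN hnorm δ) (es1g1hkbPre_injective hML H hN hnorm δ)

theorem es1g1hkbEmb_toField (f : modFunAlgG (gammaH L M H)) :
    es1g1hkbEmb hML H hN hnorm δ (es1rcToField hML H f) = es1g1hkbPre hML H hN hnorm δ f := by
  letI := es1rcAlgebra hML H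
  haveI := es1rc_isFractionRing hML H
  exact IsFractionRing.lift_algebraMap (A := modFunAlgG (gammaH L M H))
    (K := fieldC ℂ L M H) (es1g1hkbPre_injective hML H hN hnorm δ) f

/-- **the universal property**: if `y · laurentOf G = laurentOf A` then
`emb δ y · [G ∘ δ] = [A ∘ δ]` -/
theorem es1g1hkbEmb_mul_eq (y : fieldC ℂ L M H) {A G : ℍ → ℂ}
    (hA : IsModFunG (gammaH L M H) A) (hG : IsModFunG (gammaH L M H) G)
    (h : (y : LaurentSeries ℂ) * laurentOf G = laurentOf A) :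
    es1g1hkbEmb hML H hN hnorm δ y * es1g1hkbPre hML H hN hnorm δ ⟨G, hG⟩
      = es1g1hkbPre hML H hN hnorm δ ⟨A, hA⟩ := by
  have h1 : y * es1rcToField hML H ⟨G, hG⟩ = es1rcToField hML H ⟨A, hA⟩ := Subtype.ext h
  rw [← es1g1hkbEmb_toField, ← es1g1hkbEmb_toField, ← map_mul, h1]

/-- the embeddings are the identity on the constants -/
theorem es1g1hkbEmb_algebraMap (c : ℂ) :
    es1g1hkbEmb hML H hN hnorm δ (algebraMap ℂ (fieldC ℂ L M H) c)
      = es1g1hkbToE N (algebraMap ℂ (modFunAlgG N) c) := by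
  rw [← (es1rcToField hML H).commutes c, es1g1hkbEmb_toField]
  rfl

/-- **separation**: if `emb δ₁` and `emb δ₂` agree on the image of `fieldBar L M H` then
`δ₁ δ₂⁻¹ ∈ Γ` -/
theorem es1g1hkb_mem_of_emb_eq (δ₁ δ₂ : SL(2, ℤ))
    (h : ∀ x : fieldBar L M H, es1g1hkbEmb hML H hN hnorm δ₁ (iotaH L M H x)
      = es1g1hkbEmb hML H hN hnorm δ₂ (iotaH L M H x)) :
    δ₁ * δ₂⁻¹ ∈ gammaH L M H := by
  have h1 : es1g1hkbEmb hML H hN hnorm δ₁ = es1g1hkbEmb hML H hN hnorm δ₂ := by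
    refine G2.diamb_ringHom_ext_adjoin _ (fieldC ℂ L M H) rfl _ _ (fun c => ?_) ?_
    · rw [es1g1hkbEmb_algebraMap, es1g1hkbEmb_algebraMap]
    · rintro x (⟨d, hd, hdL, hx⟩ | ⟨e, he, a, heL, hx⟩)
      · have hmem : qExpand (AlgebraicClosure ℚ) d (jqModC (AlgebraicClosure ℚ))
            ∈ fieldBar L M H := by
          rw [es1f_fieldBar_eq]
          exact jd_mem_fieldC (AlgebraicClosure ℚ) L M H hdL
        have hx' : x = iotaH L M H ⟨_, hmem⟩ :=
          Subtype.ext (by rw [hx]; exact (coeffMap_jqNModC embC d).symm)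
        rw [hx']
        exact h _
      · have hmem : qExpand (AlgebraicClosure ℚ) e (sS (AlgebraicClosure ℚ) M H a)
            ∈ fieldBar L M H := by
          rw [es1f_fieldBar_eq]
          exact qExpand_sS_mem (AlgebraicClosure ℚ) L M H heL a
        have hx' : x = iotaH L M H ⟨_, hmem⟩ :=
          Subtype.ext (by rw [hx]; exact (es1f_coeffMap_qExpand_sS embC M H a e).symm)
        rw [hx']
        exact h _
  apply es1rc_sepG hML H
  intro f z
  have h2 : es1g1hkbPre hML H hN hnorm δ₁ f = es1g1hkbPre hML H hN hnorm δ₂ f := by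
    rw [← es1g1hkbEmb_toField, ← es1g1hkbEmb_toField, h1]
  rw [es1g1hkbPre_apply, es1g1hkbPre_apply] at h2
  have h3 := es1g1hkbToE_injective N h2
  have h4 := congrFun (congrArg Subtype.val h3) (δ₂⁻¹ • z)
  simp only [smul_inv_smul] at h4
  rw [mul_smul]
  exact h4

end Emb

/-! ### Compatibility of the levels `L` and `L ℓ` -/

section Levels

variable {L M : ℕ} [NeZero L] (hML : M ∣ L) (H : Subgroup (ZMod M)ˣ) (ℓ : ℕ) [NeZero ℓ]
  {N : Subgroup SL(2, ℤ)} [N.FiniteIndex] (hN : N ≤ gammaH (L * ℓ) M H) (hnorm : N.Normal)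

theorem es1g1hkb_neZero_mul : NeZero (L * ℓ) := ⟨mul_ne_zero (NeZero.ne L) (NeZero.ne ℓ)⟩

theorem es1g1hkb_gammaH_mul_le : gammaH (L * ℓ) M H ≤ gammaH L M H :=
  gammaH_mono_level (dvd_mul_right L ℓ) M H

/-- for `δ ∈ Γ`, the embedding `emb δ` of level `L ℓ` restricts to `emb 1` of level `L` -/
theorem es1g1hkbEmb_inclusion {δ : SL(2, ℤ)} (hδ : δ ∈ gammaH L M H) (x : fieldC ℂ L M H)
    (x' : fieldC ℂ (L * ℓ) M H) (hx : (x' : LaurentSeries ℂ) = (x : LaurentSeries ℂ)) :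
    haveI := es1g1hkb_neZero_mul (L := L) ℓ
    es1g1hkbEmb (Dvd.dvd.mul_right hML ℓ) H hN hnorm δ x'
      = es1g1hkbEmb hML H (hN.trans (es1g1hkb_gammaH_mul_le H ℓ)) hnorm 1 x := by
  haveI := es1g1hkb_neZero_mul (L := L) ℓ
  obtain ⟨a, g, ha, hg, hg0, hxag⟩ := es1rc_exists_frac H x.2
  have hle := es1g1hkb_gammaH_mul_le (L := L) H ℓ
  have hgne : g ≠ 0 := by
    rintro rfl
    exact hg0 laurentOf_zero
  have h1 := es1g1hkbEmb_mul_eq (Dvd.dvd.mul_right hML ℓ) H hN hnorm δ x' (ha.mono hle)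
    (hg.mono hle) (by rw [hx]; exact hxag)
  have h2 := es1g1hkbEmb_mul_eq hML H (hN.trans hle) hnorm 1 x ha hg hxag
  rw [es1g1hkbPre_of_invariant _ _ _ _ _ (hg.mono hle) (fun z => hg.comp_smul hδ z),
    es1g1hkbPre_of_invariant _ _ _ _ _ (ha.mono hle) (fun z => ha.comp_smul hδ z)] at h1
  rw [es1g1hkbPre_of_invariant _ _ _ _ _ hg (fun z => by rw [one_smul]),
    es1g1hkbPre_of_invariant _ _ _ _ _ ha (fun z => by rw [one_smul])] at h2
  have hne : es1g1hkbToE N ⟨g, (hg.mono hle).mono hN⟩ ≠ 0 := by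
    intro h0
    apply hgne
    have h3 := es1g1hkbToE_injective N (h0.trans (map_zero _).symm)
    exact congrArg Subtype.val h3
  exact mul_right_cancel₀ hne (h1.trans h2.symm)

end Levels

end Fermat.Agent.ES1

end
end ZBES1_015_3

/-! ### bundled: `Fermat.Agent.ES1.G1.HKbNorm` -/
section ZBES1_015_4

/-!
# ES₁ / G1, piece HKb-NORM, part 3 (helper81): the norm `N_α (β u)` analytically

`Γ = gammaH L M H`, `Γ' = gammaH (L ℓ) M H`, `ℓ ∤ L` prime.  If `[F_{Lℓ} : F_L] = ℓ + 1`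
(`G2.StmtDegH`) then the `[Γ : Γ']` conjugate embeddings `y ↦ y ∘ (rep q)⁻¹` of
`F_{Lℓ} = fieldBar (L ℓ) M H` into `E` are pairwise distinct (separation), `[Γ : Γ'] ≥ ℓ + 1`,
hence they are ALL the `F_L`-embeddings and the norm is their product:

* `es1g1hkb_cross_of_deg` : `StmtHKbCross L M H ℓ` from the degree;
* `stmtHKbCross_of_degH : G2.StmtDegH → StmtHKbCross L M H ℓ`.
-/

set_option autoImplicit false
set_option linter.style.haveILetI false
set_option linter.unusedSectionVars false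

noncomputable section

namespace Fermat.Agent.ES1

open UpperHalfPlane ModularForm CongruenceSubgroup ModularCurve AlgebraicCurve HahnSeries
open Fermat.Agent.S23 Fermat.Agent.S24 Fermat.Agent.S28 Fermat.Agent.ES Fermat.Agent.ES.RC
open Fermat.Agent.ES.G2 Fermat.Agent.ES1.G2
open scoped MatrixGroups

attribute [local instance] Subgroup.fintypeQuotientOfFiniteIndex

section Norm

variable {L M : ℕ} [NeZero L] [NeZero M] (H : Subgroup (ZMod M)ˣ) {ℓ : ℕ} [NeZero ℓ]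

/-- `V_ℓ` : `f ↦ f (ℓ τ)` maps the modular functions for `Γ` to those for `Γ'` -/
theorem es1g1hkb_isModFunG_scale (hML : M ∣ L) {f : ℍ → ℂ} (hf : IsModFunG (gammaH L M H) f) :
    IsModFunG (gammaH (L * ℓ) M H) (fun z => f (scaleN ℓ z)) := by
  haveI := es1g1hkb_neZero_mul (L := L) ℓ
  haveI := es1rc_finiteIndex hML H
  haveI := es1rc_finiteIndex (Dvd.dvd.mul_right hML ℓ) H
  exact es1rc_isModFunG_comp_scaleN ℓ hf fun γ hγ =>
    ⟨dvd_of_mem_gammaH_mul H ℓ hγ, conjAlphaSL_mem_gammaH H ℓ (NeZero.ne ℓ) hML hγ⟩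

/-- `β u = (a ∘ V_ℓ) / (g ∘ V_ℓ)` analytically -/
theorem es1g1hkb_beta_frac {u : fieldBar L M H} {a g : ℍ → ℂ}
    (h : IsAnFracH L M H u a g) :
    coeffMap embC ((es1hBeta L M H ℓ u : fieldBar (L * ℓ) M H) :
        LaurentSeries (AlgebraicClosure ℚ)) * laurentOf (fun z => g (scaleN ℓ z))
      = laurentOf (fun z => a (scaleN ℓ z)) := by
  obtain ⟨ha, hg, -, hq⟩ := h
  rw [coe_es1hBeta, ModularCurve.coeffMap_qExpand, laurentOf_comp_scaleN ℓ (es1rc_isMerInf H hg),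
    laurentOf_comp_scaleN ℓ (es1rc_isMerInf H ha), ← map_mul, hq]

set_option synthInstance.maxHeartbeats 400000 in
set_option maxHeartbeats 1000000 in
/-- **HKb-NORM** from the degree `[F_{Lℓ} : F_L] = ℓ + 1`. -/
theorem es1g1hkb_cross_of_deg (hML : M ∣ L) (hℓ : ℓ.Prime) (hℓL : ¬ ℓ ∣ L)
    (hdeg : @Module.finrank (fieldBar L M H) (fieldBar (L * ℓ) M H) _ _
      (@Algebra.toModule _ _ _ _ (es1hAlpha L M H ℓ).toAlgebra) = ℓ + 1) :
    StmtHKbCross L M H ℓ := by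
  classical
  intro rep hrep u a g hfrac a' g' ha' hg' hq' τ
  haveI hne := es1g1hkb_neZero_mul (L := L) ℓ
  have hML' : M ∣ L * ℓ := Dvd.dvd.mul_right hML ℓ
  haveI hfi := es1rc_finiteIndex hML H
  haveI hfi' := es1rc_finiteIndex hML' H
  have hle := es1g1hkb_gammaH_mul_le (L := L) H ℓ
  -- the normal core
  obtain ⟨N, hNdef⟩ : ∃ N : Subgroup SL(2, ℤ), N = (gammaH (L * ℓ) M H).normalCore := ⟨_, rfl⟩
  have hN : N ≤ gammaH (L * ℓ) M H := hNdef ▸ Subgroup.normalCore_le _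
  have hnorm : N.Normal := hNdef ▸ Subgroup.normalCore_normal _
  haveI hNfi : N.FiniteIndex := by rw [hNdef]; infer_instance
  -- the embeddings
  let base : fieldBar L M H →+* Es1g1hkbE N :=
    (es1g1hkbEmb hML H (hN.trans hle) hnorm 1).comp (iotaH L M H)
  let e : gammaH L M H ⧸ subLevel L M H ℓ → (fieldBar (L * ℓ) M H →+* Es1g1hkbE N) := fun q =>
    (es1g1hkbEmb hML' H hN hnorm (((rep q : gammaH L M H) : SL(2, ℤ)))⁻¹).comp
      (iotaH (L * ℓ) M H)
  have hcomm : ∀ q x, e q (es1hAlpha L M H ℓ x) = base x := by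
    intro q x
    exact es1g1hkbEmb_inclusion hML H ℓ hN hnorm ((gammaH L M H).inv_mem (rep q).2)
      (iotaH L M H x) (iotaH (L * ℓ) M H (es1hAlpha L M H ℓ x))
      (by rw [iotaH_coe, iotaH_coe, coe_es1hAlpha])
  have hinj : ∀ q q', e q = e q' → q = q' := by
    intro q q' h
    have h1 := es1g1hkb_mem_of_emb_eq hML' H hN hnorm
      (((rep q : gammaH L M H) : SL(2, ℤ)))⁻¹ (((rep q' : gammaH L M H) : SL(2, ℤ)))⁻¹
      (fun x => congrFun (congrArg DFunLike.coe h) x)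
    rw [inv_inv] at h1
    have h2 : (rep q)⁻¹ * rep q' ∈ subLevel L M H ℓ := by
      rw [Subgroup.mem_subgroupOf]
      exact h1
    rw [← hrep q, ← hrep q']
    exact QuotientGroup.eq.mpr h2
  -- the algebra structures
  let algF' : Algebra (fieldBar L M H) (fieldBar (L * ℓ) M H) := (es1hAlpha L M H ℓ).toAlgebra
  let algE : Algebra (fieldBar L M H) (Es1g1hkbE N) := base.toAlgebra
  have hfin : FiniteDimensional (fieldBar L M H) (fieldBar (L * ℓ) M H) :=
    Module.finite_of_finrank_pos (by rw [hdeg]; omega)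
  have : CharZero (fieldBar L M H) :=
    charZero_of_injective_algebraMap (algebraMap (AlgebraicClosure ℚ) (fieldBar L M H)).injective
  have hsep : Algebra.IsSeparable (fieldBar L M H) (fieldBar (L * ℓ) M H) := inferInstance
  let eA : gammaH L M H ⧸ subLevel L M H ℓ →
      (fieldBar (L * ℓ) M H →ₐ[fieldBar L M H] Es1g1hkbE N) := fun q =>
    { e q with commutes' := fun x => hcomm q x }
  have heA : Function.Injective eA := by
    intro q q' h
    apply hinj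
    have := congrArg (fun g : fieldBar (L * ℓ) M H →ₐ[fieldBar L M H] Es1g1hkbE N =>
      (g : fieldBar (L * ℓ) M H →+* Es1g1hkbE N)) h
    exact this
  have hcard : Fintype.card (gammaH L M H ⧸ subLevel L M H ℓ)
      = Module.finrank (fieldBar L M H) (fieldBar (L * ℓ) M H) := by
    apply le_antisymm
    · have h1 := Fintype.card_le_of_injective eA heA
      rwa [AlgHom.card (fieldBar L M H) (fieldBar (L * ℓ) M H) (Es1g1hkbE N)] at h1
    · rw [hdeg]
      have h2 := es1g1hkb_index_ge L M H ℓ hML hℓ hℓL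
      rwa [Subgroup.index_eq_card, Nat.card_eq_fintype_card] at h2
  have key := hn_norm_eq_prod_of_injective eA heA hcard (es1hBeta L M H ℓ u)
  have key' : base (es1hNormFun L M H ℓ u)
      = ∏ q : gammaH L M H ⧸ subLevel L M H ℓ, e q (es1hBeta L M H ℓ u) := key
  -- the analytic fractions
  obtain ⟨ha, hg, hg0, hq⟩ := hfrac
  have haV := es1g1hkb_isModFunG_scale (ℓ := ℓ) H hML ha
  have hgV := es1g1hkb_isModFunG_scale (ℓ := ℓ) H hML hg
  have hβ := es1g1hkb_beta_frac (ℓ := ℓ) H ⟨ha, hg, hg0, hq⟩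
  have hq1 : ∀ q : gammaH L M H ⧸ subLevel L M H ℓ,
      e q (es1hBeta L M H ℓ u)
        * es1g1hkbPre hML' H hN hnorm (((rep q : gammaH L M H) : SL(2, ℤ)))⁻¹ ⟨_, hgV⟩
      = es1g1hkbPre hML' H hN hnorm (((rep q : gammaH L M H) : SL(2, ℤ)))⁻¹ ⟨_, haV⟩ :=
    fun q => es1g1hkbEmb_mul_eq hML' H hN hnorm _ (iotaH (L * ℓ) M H (es1hBeta L M H ℓ u))
      haV hgV hβ
  have hq2 : base (es1hNormFun L M H ℓ u) * es1g1hkbToE N ⟨g', hg'.mono (hN.trans hle)⟩
      = es1g1hkbToE N ⟨a', ha'.mono (hN.trans hle)⟩ := by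
    have h1 := es1g1hkbEmb_mul_eq hML H (hN.trans hle) hnorm 1
      (iotaH L M H (es1hNormFun L M H ℓ u)) ha' hg' hq'
    rwa [es1g1hkbPre_of_invariant _ _ _ _ _ hg' (fun z => by rw [one_smul]),
      es1g1hkbPre_of_invariant _ _ _ _ _ ha' (fun z => by rw [one_smul])] at h1
  -- the product
  have hprod : (∏ q : gammaH L M H ⧸ subLevel L M H ℓ, e q (es1hBeta L M H ℓ u))
        * es1g1hkbToE N (∏ q : gammaH L M H ⧸ subLevel L M H ℓ,
            es1g1hkbComp hN hnorm (((rep q : gammaH L M H) : SL(2, ℤ)))⁻¹ ⟨_, hgV⟩)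
      = es1g1hkbToE N (∏ q : gammaH L M H ⧸ subLevel L M H ℓ,
            es1g1hkbComp hN hnorm (((rep q : gammaH L M H) : SL(2, ℤ)))⁻¹ ⟨_, haV⟩) := by
    rw [map_prod, map_prod, ← Finset.prod_mul_distrib]
    exact Finset.prod_congr rfl fun q _ => hq1 q
  have hcross : (⟨a', ha'.mono (hN.trans hle)⟩ : modFunAlgG N)
        * (∏ q : gammaH L M H ⧸ subLevel L M H ℓ,
            es1g1hkbComp hN hnorm (((rep q : gammaH L M H) : SL(2, ℤ)))⁻¹ ⟨_, hgV⟩)
      = (⟨g', hg'.mono (hN.trans hle)⟩ : modFunAlgG N)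
        * (∏ q : gammaH L M H ⧸ subLevel L M H ℓ,
            es1g1hkbComp hN hnorm (((rep q : gammaH L M H) : SL(2, ℤ)))⁻¹ ⟨_, haV⟩) := by
    apply es1g1hkbToE_injective N
    rw [map_mul, map_mul, ← hprod, ← hq2, key']
    ring
  have hev := congrArg (es1rcallEv N τ) hcross
  rw [map_mul, map_mul, map_prod, map_prod] at hev
  rw [es1g1hProd_apply, es1g1hProd_apply]
  exact hev

/-- **HKb-NORM** : `StmtDegH → StmtHKbCross`. -/
theorem stmtHKbCross_of_degH (hdeg : G2.StmtDegH) (hML : M ∣ L) (hℓ : ℓ.Prime)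
    (hℓL : ¬ ℓ ∣ L) : StmtHKbCross L M H ℓ :=
  es1g1hkb_cross_of_deg H hML hℓ hℓL (hdeg L M H ℓ (NeZero.ne L) hML hℓ hℓL)

end Norm

end Fermat.Agent.ES1

end
end ZBES1_015_4
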