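/- GENERATED FILE (helper35, build-time optimisation, NOTES/ZB.md): verbatim concatenation of the modules
   Fermat.Agent.ES1.RealFin
   Fermat.Agent.ES1.RealBCuFin
   Fermat.Agent.ES1.RealFinal
   Fermat.Agent.ES1.HFinal
   Fermat.Agent.RT.K6.ERatPlaces
   Fermat.Agent.RT.K6.ERat
   Fermat.Agent.RT.K6.ERatSupp
   Fermat.Agent.ES1.G1.BaseChangeDownH
   Fermat.Agent.ES1.G1.MuCoreH
   Fermat.Agent.ES1.G1Unique
   Fermat.Agent.ES1.G1.MuHeckeH
   Fermat.Agent.ES1.G1.HKbFinal
   Fermat.Agent.ES1.InjInstFinal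
   Fermat.Agent.RT.K6.AuxLevel
   Fermat.Agent.RT.K6.FGal
   Do not edit; do not import together with these modules. -/
import Mathlib
import Fermat.Prelude.Def_ModularCurve_LaurentCoeff
import Fermat.Agent.ZB.ES1_003
import Fermat.Agent.ZB.ES_019
import Fermat.Agent.ZB.S24_013
import Fermat.Agent.ZB.S24_001
import Fermat.Agent.ZB.ES1_007
import Fermat.Agent.ZB.ES1_009
import Fermat.Agent.ZB.UNIP_032
import Fermat.Agent.ZB.INJ_005
import Fermat.Agent.ZB.ES1_002
import Fermat.Agent.ZB.S28_002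
import Fermat.Agent.ZB.ES1_013
import Fermat.Agent.ZB.ES_012
import Fermat.Agent.ZB.ES_007
import Fermat.Agent.ZB.ES1_018
import Fermat.Agent.ZB.ES1_015
import Fermat.Agent.ZB.ES1_001
import Fermat.Agent.ZB.W1_004
import Fermat.Agent.ZB.ES1_008
import Fermat.Agent.ZB.S36_007

/-! ### bundled: `Fermat.Agent.ES1.RealFin` -/
section ZBES1_012_0

/-!
# ES₁ / F4, piece P5 (F4-FIN), generic part: finiteness descends along a constant field
extension

`k ⊆ C` fields, `K ⊆ k((q))`, `K' ⊆ C((q))` intermediate fields, `ι : K → K'` the coefficientwise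
embedding, `x : K` transcendental over `k`.

* `es1r_fin_ld` : **linear disjointness, coefficientwise**: `k`-linearly independent Laurent
  series stay `C`-linearly independent after `coeffMap (algebraMap k C)`.
* `es1r_fin_monomial_indep`, `es1r_fin_indep_of_monomial` : `(y_i)` is linearly independent over
  `k[x]` iff the family `(x^m y_i)` is linearly independent over `k` (`x` transcendental).
* `es1r_fin_linearIndependent` : `k(x)`-linearly independent families of `K` map to
  `C(ι x)`-linearly independent families of `K'`.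
* `es1r_fin_descent` : `K'` finite over `C(ι x)` ⟹ `K` finite over `k(x)`, and
  `es1r_fin_finrank_le` : `[K : k(x)] ≤ [K' : C(ι x)]`.
-/

set_option autoImplicit false

noncomputable section

namespace Fermat.Agent.ES1

open ModularCurve IntermediateField Polynomial

section LD

variable {k C : Type*} [Field k] [Field C] [Algebra k C]

/-- the coefficientwise scalar multiplication of `k((q))` is the one of the algebra structure -/
theorem es1r_fin_smul_eq (c : k) (z : LaurentSeries k) :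
    c • z = algebraMap k (LaurentSeries k) c * z := by
  rw [algebraMap_laurentSeries_eq_single, ← HahnSeries.C_apply, HahnSeries.C_mul_eq_smul]

/-- **Linear disjointness, coefficientwise**, multiplicative form. -/
theorem es1r_fin_ld_core {ι : Type*} {y : ι → LaurentSeries k}
    (hy : ∀ (s : Finset ι) (c : ι → k),
      ∑ j ∈ s, algebraMap k (LaurentSeries k) (c j) * y j = 0 → ∀ j ∈ s, c j = 0)
    (s : Finset ι) (g : ι → C)
    (hg : ∑ j ∈ s, algebraMap C (LaurentSeries C) (g j) * coeffMap (algebraMap k C) (y j) = 0) :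
    ∀ j ∈ s, g j = 0 := by
  classical
  intro i hi
  rw [← Module.forall_dual_apply_eq_zero_iff k (g i)]
  intro l
  have h1 : ∑ j ∈ s, algebraMap k (LaurentSeries k) (l (g j)) * y j = 0 := by
    ext m
    have h2 := congrArg (fun z : LaurentSeries C => l (z.coeff m)) hg
    simp only [← es1r_fin_smul_eq, HahnSeries.coeff_sum, HahnSeries.coeff_smul, coeffMap_coeff,
      map_sum, HahnSeries.coeff_zero, map_zero] at h2 ⊢
    rw [← h2]
    refine Finset.sum_congr rfl fun j _ => ?_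
    rw [smul_eq_mul, smul_eq_mul,
      show g j * algebraMap k C ((y j).coeff m) = (y j).coeff m • g j by
        rw [Algebra.smul_def, mul_comm],
      map_smul, smul_eq_mul, mul_comm]
  exact hy s (fun j => l (g j)) h1 i hi

/-- **Linear disjointness, coefficientwise** (for the coefficientwise module structures). -/
theorem es1r_fin_ld {ι : Type*} {y : ι → LaurentSeries k} (hy : LinearIndependent k y) :
    LinearIndependent C (fun i => coeffMap (algebraMap k C) (y i)) := by
  rw [linearIndependent_iff'] at hy ⊢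
  intro s g hg
  refine es1r_fin_ld_core (y := y) (fun s c hc => hy s c ?_) s g ?_
  · simpa only [es1r_fin_smul_eq] using hc
  · simpa only [es1r_fin_smul_eq] using hg

/-- **Linear disjointness, coefficientwise** (for the module structures of the algebras). -/
theorem es1r_fin_ld' {ι : Type*} {y : ι → LaurentSeries k}
    (hy : @LinearIndependent ι k (LaurentSeries k) y _ _ Algebra.toModule) :
    @LinearIndependent ι C (LaurentSeries C) (fun i => coeffMap (algebraMap k C) (y i)) _ _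
      Algebra.toModule := by
  let _ : Module k (LaurentSeries k) := Algebra.toModule
  let _ : Module C (LaurentSeries C) := Algebra.toModule
  rw [linearIndependent_iff'] at hy ⊢
  intro s g hg
  refine es1r_fin_ld_core (y := y) (fun s c hc => hy s c ?_) s g ?_
  · simpa only [Algebra.smul_def] using hc
  · simpa only [Algebra.smul_def] using hg

end LD

section Monomial

variable {k F : Type*} [Field k] [Field F] [Algebra k F]

/-- if the family `(x^m y_i)` is linearly independent over `k`, then `(y_i)` is linearly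
independent over `k[x]` -/
theorem es1r_fin_indep_of_monomial (x : F) {ι : Type*} {y : ι → F}
    (h : LinearIndependent k (fun p : ι × ℕ => x ^ p.2 * y p.1)) :
    LinearIndependent (Algebra.adjoin k {x}) y := by
  classical
  rw [linearIndependent_iff']
  intro s g hg i hi
  have hR : ∀ j, ∃ R : k[X], aeval x R = (g j : F) := fun j => by
    have h1 : (g j : F) ∈ (aeval x : k[X] →ₐ[k] F).range := by
      rw [← Algebra.adjoin_singleton_eq_range_aeval]
      exact (g j).2
    exact h1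
  choose R hR using hR
  set D : ℕ := (s.sup fun j => (R j).natDegree) + 1 with hD
  have hdeg : ∀ j ∈ s, (R j).natDegree < D := fun j hj =>
    Nat.lt_succ_of_le (Finset.le_sup (f := fun j => (R j).natDegree) hj)
  have key : ∑ p ∈ s ×ˢ Finset.range D, (R p.1).coeff p.2 • (x ^ p.2 * y p.1) = 0 := by
    rw [Finset.sum_product, ← hg]
    refine Finset.sum_congr rfl fun j hj => ?_
    rw [show g j • y j = (g j : F) * y j from rfl, ← hR j,
      aeval_eq_sum_range' (hdeg j hj), Finset.sum_mul]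
    refine Finset.sum_congr rfl fun m _ => ?_
    rw [smul_mul_assoc]
  have h0 := (linearIndependent_iff'.mp h) _ _ key
  have hRi : R i = 0 := by
    ext m
    rw [coeff_zero]
    by_cases hm : m < D
    · exact h0 (i, m) (Finset.mem_product.mpr ⟨hi, Finset.mem_range.mpr hm⟩)
    · exact coeff_eq_zero_of_natDegree_lt (lt_of_lt_of_le (hdeg i hi) (not_lt.mp hm))
  apply Subtype.ext
  rw [← hR i, hRi]
  simp

/-- if `x` is transcendental and `(y_i)` is linearly independent over `k[x]`, then the family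
`(x^m y_i)` is linearly independent over `k` -/
theorem es1r_fin_monomial_indep {x : F} (hx : Transcendental k x) {ι : Type*} {y : ι → F}
    (h : LinearIndependent (Algebra.adjoin k {x}) y) :
    LinearIndependent k (fun p : ι × ℕ => x ^ p.2 * y p.1) := by
  classical
  rw [linearIndependent_iff']
  intro t c hc p hp
  set c' : ι × ℕ → k := fun q => if q ∈ t then c q else 0 with hc'
  have hc'q : ∀ q, c' q = if q ∈ t then c q else 0 := fun q => rfl
  set s : Finset ι := t.image Prod.fst with hs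
  set D : ℕ := (t.sup Prod.snd) + 1 with hD
  have hsub : t ⊆ s ×ˢ Finset.range D := by
    intro q hq
    refine Finset.mem_product.mpr ⟨Finset.mem_image_of_mem _ hq, Finset.mem_range.mpr ?_⟩
    exact Nat.lt_succ_of_le (Finset.le_sup (f := Prod.snd) hq)
  set R : ι → k[X] := fun j => ∑ m ∈ Finset.range D, Polynomial.monomial m (c' (j, m)) with hR
  have hRcoeff : ∀ j m, m < D → (R j).coeff m = c' (j, m) := by
    intro j m hm
    rw [hR]
    simp only [Polynomial.finsetSum_coeff, Polynomial.coeff_monomial]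
    rw [Finset.sum_eq_single m]
    · simp
    · intro b _ hb
      simp [hb]
    · intro hm'
      exact absurd (Finset.mem_range.mpr hm) hm'
  have haev : ∀ j, aeval x (R j) = ∑ m ∈ Finset.range D, c' (j, m) • x ^ m := by
    intro j
    rw [hR, map_sum]
    refine Finset.sum_congr rfl fun m _ => ?_
    rw [Polynomial.aeval_monomial, Algebra.smul_def]
  set a : ι → Algebra.adjoin k {x} := fun j =>
    ⟨aeval x (R j), by
      rw [Algebra.adjoin_singleton_eq_range_aeval]
      exact ⟨R j, rfl⟩⟩ with ha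
  have hsum : ∑ j ∈ s, a j • y j = 0 := by
    have h1 : ∑ j ∈ s, a j • y j =
        ∑ q ∈ s ×ˢ Finset.range D, c' q • (x ^ q.2 * y q.1) := by
      rw [Finset.sum_product]
      refine Finset.sum_congr rfl fun j _ => ?_
      rw [show a j • y j = aeval x (R j) * y j from rfl, haev j, Finset.sum_mul]
      refine Finset.sum_congr rfl fun m _ => ?_
      rw [smul_mul_assoc]
    rw [h1, ← Finset.sum_subset hsub]
    · rw [← hc]
      refine Finset.sum_congr rfl fun q hq => ?_
      rw [hc'q, if_pos hq]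
    · intro q _ hq
      rw [hc'q, if_neg hq, zero_smul]
  have h0 := (linearIndependent_iff'.mp h) s a hsum p.1 (Finset.mem_image_of_mem _ hp)
  have h1 : aeval x (R p.1) = 0 := congrArg Subtype.val h0
  have h2 : R p.1 = 0 := by
    by_contra hne
    exact hx ⟨R p.1, hne, h1⟩
  have h3 := hRcoeff p.1 p.2
    (Nat.lt_succ_of_le (Finset.le_sup (f := Prod.snd) hp))
  rw [h2, coeff_zero, hc'q, if_pos hp] at h3
  exact h3.symm

end Monomial

section Descent

open scoped IntermediateField.algebraAdjoinAdjoin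

variable {k C : Type*} [Field k] [Field C] [Algebra k C]
variable {K : IntermediateField k (LaurentSeries k)}
  {K' : IntermediateField C (LaurentSeries C)}
variable (ι : K →+* K')
  (hι : ∀ x : K, ((ι x : K') : LaurentSeries C) =
    coeffMap (algebraMap k C) (x : LaurentSeries k))

include hι in
/-- `k`-linearly independent families of `K` map to `C`-linearly independent families of
`K'`. -/
theorem es1r_fin_ld_field {J : Type*} {v : J → K} (hv : LinearIndependent k v) :
    LinearIndependent C (fun p => ι (v p)) := by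
  rw [linearIndependent_iff'] at hv ⊢
  intro s g hg
  refine es1r_fin_ld_core (y := fun p : J => ((v p : K) : LaurentSeries k)) ?_ s g ?_
  · intro t c hc
    refine hv t c (Subtype.ext ?_)
    rw [ZeroMemClass.coe_zero, ← hc]
    simp only [Algebra.smul_def, AddSubmonoidClass.coe_finsetSum, MulMemClass.coe_mul]
    rfl
  · have h1 := congrArg (fun z : K' => (z : LaurentSeries C)) hg
    simp only [Algebra.smul_def, AddSubmonoidClass.coe_finsetSum, MulMemClass.coe_mul,
      ZeroMemClass.coe_zero] at h1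
    rw [← h1]
    refine Finset.sum_congr rfl fun p _ => ?_
    rw [← hι]
    rfl

include hι in
/-- `k[x]`-linearly independent families of `K` map to `C[ι x]`-linearly independent families
of `K'`. -/
theorem es1r_fin_linearIndependent_adjoin {x : K} (hx : Transcendental k x) {J : Type*}
    {y : J → K} (hy : LinearIndependent (Algebra.adjoin k {x}) y) :
    LinearIndependent (Algebra.adjoin C {ι x}) (fun i => ι (y i)) := by
  have hy2 := es1r_fin_monomial_indep hx hy
  have hy5 := es1r_fin_ld_field ι hι hy2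
  refine es1r_fin_indep_of_monomial (ι x) ?_
  have hfun : (fun p : J × ℕ => ι (x ^ p.2 * y p.1)) =
      fun p : J × ℕ => (ι x) ^ p.2 * ι (y p.1) := by
    funext p
    rw [map_mul, map_pow]
  rw [← hfun]
  exact hy5

include hι in
/-- `k(x)`-linearly independent families of `K` map to `C(ι x)`-linearly independent families
of `K'`. -/
theorem es1r_fin_linearIndependent {x : K} (hx : Transcendental k x) {J : Type*} {y : J → K}
    (hy : LinearIndependent k⟮x⟯ y) : LinearIndependent C⟮ι x⟯ (fun i => ι (y i)) := by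
  have hy1 : LinearIndependent (Algebra.adjoin k {x}) y :=
    (LinearIndependent.iff_fractionRing (Algebra.adjoin k {x}) k⟮x⟯).mpr hy
  have hy6 := es1r_fin_linearIndependent_adjoin ι hι hx hy1
  exact (LinearIndependent.iff_fractionRing (Algebra.adjoin C {ι x}) C⟮ι x⟯).mp hy6

include hι in
/-- **F4-FIN, generic**: finiteness descends. -/
theorem es1r_fin_descent {x : K} (hx : Transcendental k x) [FiniteDimensional C⟮ι x⟯ K'] :
    FiniteDimensional k⟮x⟯ K := by
  classical
  have hle : Module.rank k⟮x⟯ K ≤ (Module.finrank C⟮ι x⟯ K' : ℕ) := by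
    refine rank_le fun s hs => ?_
    have h1 := es1r_fin_linearIndependent ι hι hx hs
    have h2 := h1.fintype_card_le_finrank
    simpa using h2
  have : Module.Free k⟮x⟯ K := Module.Free.of_divisionRing _ _
  exact Module.rank_lt_aleph0_iff.mp (lt_of_le_of_lt hle Cardinal.natCast_lt_aleph0)

include hι in
/-- the degree does not grow -/
theorem es1r_fin_finrank_le {x : K} (hx : Transcendental k x) [FiniteDimensional C⟮ι x⟯ K'] :
    Module.finrank k⟮x⟯ K ≤ Module.finrank C⟮ι x⟯ K' := by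
  classical
  have := es1r_fin_descent ι hι hx
  have hle : Module.rank k⟮x⟯ K ≤ (Module.finrank C⟮ι x⟯ K' : ℕ) := by
    refine rank_le fun s hs => ?_
    have h1 := es1r_fin_linearIndependent ι hι hx hs
    have h2 := h1.fintype_card_le_finrank
    simpa using h2
  rw [← Module.finrank_eq_rank] at hle
  exact_mod_cast hle

end Descent

end Fermat.Agent.ES1

end
end ZBES1_012_0

/-! ### bundled: `Fermat.Agent.ES1.RealBCuFin` -/
section ZBES1_012_1

/-!
# ES₁ / F4, pieces P4 (F4-BCU) and P5 (F4-FIN)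

`ι = iotaH L M H : fieldBar L M H → fieldC ℂ L M H` the coefficientwise embedding.

* `stmtRealFin : StmtRealFin` — finiteness over `ℂ(j)` descends to `ℚ̄(j)` (generic core
  `ES1/RealFin.lean`: coefficientwise linear disjointness);
  `es1r_fin_finrank_jFH_le` : `[fieldBar : ℚ̄(j)] ≤ [fieldC ℂ : ℂ(j)]`.
* `stmtRealBCu : StmtRealBCu` — every place of `fieldBar L M H` extends to a place of
  `fieldC ℂ L M H` with the same orders (generic core `ES/BaseChangeUpCore.lean`);
  `es1r_bcu_dvd` : divisibility of orders descends.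
-/

set_option autoImplicit false

noncomputable section

namespace Fermat.Agent.ES1

open AlgebraicCurve ModularCurve IntermediateField Fermat.Agent.S24 Fermat.Agent.ES

attribute [local instance] algKbC

variable (L M : ℕ) (H : Subgroup (ZMod M)ˣ)

/-- `j` is transcendental over `ℚ̄` in `fieldBar L M H`. -/
theorem es1r_transcendental_jFH [NeZero L] : Transcendental Kb (jFH L M H) := by
  intro halg
  apply transcendental_jBar
  have := (isAlgebraic_algHom_iff (fieldBar L M H).val Subtype.val_injective).mpr halg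
  exact this

/-- `ι` is the coefficientwise embedding (in the form used by the generic cores) -/
theorem es1r_iotaH_coe (x : fieldBar L M H) :
    ((iotaH L M H x : fieldC ℂ L M H) : LaurentSeries ℂ) =
      coeffMap (algebraMap Kb ℂ) (x : LaurentSeries Kb) := rfl

/-- **(P5 = F4-FIN)** finiteness over `ℂ(j)` descends to `ℚ̄(j)`. -/
theorem stmtRealFin : StmtRealFin := by
  intro L M H _ _ hfin
  have hfin' : FiniteDimensional ℂ⟮iotaH L M H (jFH L M H)⟯ (fieldC ℂ L M H) := by
    rw [iotaH_jFH]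
    exact hfin
  exact es1r_fin_descent (iotaH L M H) (es1r_iotaH_coe L M H) (es1r_transcendental_jFH L M H)

/-- the degree over the `j`-line does not grow from `ℂ` to `ℚ̄` -/
theorem es1r_fin_finrank_jFH_le [NeZero L]
    [hfin : FiniteDimensional ℂ⟮jFC L M H⟯ (fieldC ℂ L M H)] :
    Module.finrank Kb⟮jFH L M H⟯ (fieldBar L M H) ≤
      Module.finrank ℂ⟮jFC L M H⟯ (fieldC ℂ L M H) := by
  have hfin' : FiniteDimensional ℂ⟮iotaH L M H (jFH L M H)⟯ (fieldC ℂ L M H) := by
    rw [iotaH_jFH]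
    exact hfin
  have h := es1r_fin_finrank_le (iotaH L M H) (es1r_iotaH_coe L M H)
    (es1r_transcendental_jFH L M H)
  rw [iotaH_jFH] at h
  exact h

/-- `fieldC ℂ L M H` is generated, as a field, by `ℂ` and `ι (fieldBar L M H)`. -/
theorem es1r_iotaH_generates (y : fieldC ℂ L M H) :
    y ∈ Subfield.closure
      (Set.range (algebraMap ℂ (fieldC ℂ L M H)) ∪ Set.range (iotaH L M H)) := by
  set S : Subfield (LaurentSeries ℂ) := (Subfield.closure
    (Set.range (algebraMap ℂ (fieldC ℂ L M H)) ∪ Set.range (iotaH L M H))).map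
      (fieldC ℂ L M H).val.toRingHom with hS
  have key : ∀ x : LaurentSeries ℂ, x ∈ fieldC ℂ L M H → x ∈ S := by
    intro x hx
    unfold fieldC at hx
    induction hx using IntermediateField.adjoin_induction with
    | mem x hx =>
      rcases hx with ⟨d, hne, hd, rfl⟩ | ⟨e, hne, a, he, rfl⟩
      · have h1 : qExpand Kb d (jqModC Kb) ∈ fieldBar L M H := by
          rw [es1f_fieldBar_eq]
          exact jd_mem_fieldC Kb L M H hd
        have h2 : ((iotaH L M H ⟨_, h1⟩ : fieldC ℂ L M H) : LaurentSeries ℂ) =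
            qExpand ℂ d (jqModC ℂ) := by
          rw [iotaH_coe]
          exact coeffMap_jqNModC embC d
        rw [hS, Subfield.mem_map]
        exact ⟨iotaH L M H ⟨_, h1⟩, Subfield.subset_closure (Or.inr ⟨_, rfl⟩), h2⟩
      · have h1 : qExpand Kb e (sS Kb M H a) ∈ fieldBar L M H := by
          rw [es1f_fieldBar_eq]
          exact qExpand_sS_mem Kb L M H he a
        have h2 : ((iotaH L M H ⟨_, h1⟩ : fieldC ℂ L M H) : LaurentSeries ℂ) =
            qExpand ℂ e (sS ℂ M H a) := by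
          rw [iotaH_coe]
          exact es1f_coeffMap_qExpand_sS embC M H a e
        rw [hS, Subfield.mem_map]
        exact ⟨iotaH L M H ⟨_, h1⟩, Subfield.subset_closure (Or.inr ⟨_, rfl⟩), h2⟩
    | algebraMap c =>
      rw [hS, Subfield.mem_map]
      exact ⟨algebraMap ℂ (fieldC ℂ L M H) c,
        Subfield.subset_closure (Or.inl ⟨c, rfl⟩), rfl⟩
    | add x y _ _ ihx ihy => exact S.add_mem ihx ihy
    | inv x _ ih => exact S.inv_mem ih
    | mul x y _ _ ihx ihy => exact S.mul_mem ihx ihy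
  have hy := key y y.2
  rw [hS, Subfield.mem_map] at hy
  obtain ⟨z, hz, hzy⟩ := hy
  have : z = y := Subtype.ext hzy
  rwa [this] at hz

/-- **(P4 = F4-BCU)** every place of `fieldBar L M H` extends to a place of `fieldC ℂ L M H`
with the same orders. -/
theorem stmtRealBCu : StmtRealBCu := by
  intro L M H _ _ halg v
  exact bcu_exists_place_extends (iotaH L M H) (es1r_iotaH_coe L M H) v
    (algebraMap_residueField_bijective (jFH L M H) (es1r_transcendental_jFH L M H) halg
      v).surjective (es1r_iotaH_generates L M H)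

/-- Divisibility of orders descends from `fieldC ℂ L M H` to `fieldBar L M H`. -/
theorem es1r_bcu_dvd [NeZero L] (hML : M ∣ L)
    (halg : Algebra.IsAlgebraic Kb⟮jFH L M H⟯ (fieldBar L M H)) (n : ℤ) (u : fieldBar L M H)
    (h : ∀ w : Place ℂ (fieldC ℂ L M H), n ∣ w.ord (iotaH L M H u))
    (v : Place Kb (fieldBar L M H)) : n ∣ v.ord u := by
  obtain ⟨w, hw⟩ := stmtRealBCu L M H hML halg v
  rw [← hw u]
  exact h w

end Fermat.Agent.ES1

end
end ZBES1_012_1

/-! ### bundled: `Fermat.Agent.ES1.RealFinal` -/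
section ZBES1_012_2

/-!
# ES₁ / F4 — DONE: ramification of `fieldBar L M H` over the `j`-line

* `stmtRamJC : StmtRamJC` (over `ℂ`), `stmtRamJH : StmtRamJH` (over `ℚ̄`, the deliverable of F4).
-/

set_option autoImplicit false

namespace Fermat.Agent.ES1

/-- ramification of `fieldC ℂ L M H` over the `j`-line -/
theorem stmtRamJC : StmtRamJC := stmtRamJC_of stmtRealEmb

/-- **(F4)** ramification of `fieldBar L M H` over the `j`-line:
finite over `ℚ̄(j)`; `e ∣ 3` over `0`; `e ∣ 2` over `1728`; `e = 1` elsewhere; `e ∣ L` over `∞`. -/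
theorem stmtRamJH : StmtRamJH := stmtRamJH_of stmtRamJC stmtRealBCu stmtRealFin

end Fermat.Agent.ES1


end ZBES1_012_2

/-! ### bundled: `Fermat.Agent.ES1.HFinal` -/
section ZBES1_012_3

/-!
# ES₁, piece (H), final form: all Hecke inputs, unconditionally

From F4 (`stmtRamJH`, `ES1/RealFinal.lean`):

* `es1hFin_all` : `Es1hFin L M H` for every `L ≠ 0`, `M ∣ L`;
* `es1h_inputs_all` : `Es1hInputs L M H ℓ`;
* `es1hHecke_eq_all` : `es1hHecke L M H ℓ` is the push-pull correspondence along `β`, `α`;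
* `es1h_hasPrincipalDivisors_all`, `es1h_residue_bijective_all`.
-/

set_option autoImplicit false

noncomputable section

open AlgebraicCurve ModularCurve IntermediateField

namespace Fermat.Agent.ES1

open Fermat.Agent.S24

variable {L M : ℕ} {H : Subgroup (ZMod M)ˣ}

/-- **Finiteness over `ℚ̄(j)`**, unconditionally. -/
theorem es1hFin_all (hL : L ≠ 0) (hML : M ∣ L) : Es1hFin L M H :=
  haveI : NeZero L := ⟨hL⟩
  es1hFin_of_ramJH (stmtRamJH L M H hML)

/-- principal divisors on `X_H(L; M)` -/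
theorem es1h_hasPrincipalDivisors_all (hL : L ≠ 0) (hML : M ∣ L) :
    HasPrincipalDivisors Kb (fieldBar L M H) :=
  es1h_hasPrincipalDivisors (es1hFin_all hL hML)

/-- every place of `X_H(L; M)` over `ℚ̄` has residue field `ℚ̄` -/
theorem es1h_residue_bijective_all (hL : L ≠ 0) (hML : M ∣ L) (v : Place Kb (fieldBar L M H)) :
    Function.Bijective (algebraMap Kb v.ResidueField) :=
  es1h_residue_bijective (es1hFin_all hL hML) v

variable {ℓ : ℕ} [NeZero ℓ]

/-- **Piece (H)**: all inputs of `T_ℓ` on `JH L M H`, unconditionally. -/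
theorem es1h_inputs_all (hL : L ≠ 0) (hML : M ∣ L) : Es1hInputs L M H ℓ :=
  es1h_inputs (es1hFin_all hL hML)
    (es1hFin_all (Nat.mul_ne_zero hL (NeZero.ne ℓ)) (hML.trans (dvd_mul_right L ℓ)))

/-- `T_ℓ` is the genuine push-pull correspondence. -/
theorem es1hHecke_eq_all (hL : L ≠ 0) (hML : M ∣ L) :
    haveI := es1h_hasPrincipalDivisors_all (H := H)
      (Nat.mul_ne_zero hL (NeZero.ne ℓ)) (hML.trans (dvd_mul_right L ℓ))
    es1hHecke L M H ℓ =
      Pic0.correspondence (es1hBeta L M H ℓ) (es1hAlpha L M H ℓ)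
        (es1h_integral _ (es1hFin_all hL hML)
          (es1hFin_all (Nat.mul_ne_zero hL (NeZero.ne ℓ)) (hML.trans (dvd_mul_right L ℓ))))
        (es1h_integral _ (es1hFin_all hL hML)
          (es1hFin_all (Nat.mul_ne_zero hL (NeZero.ne ℓ)) (hML.trans (dvd_mul_right L ℓ))))
        (es1h_fundamentalIdentityAlong _ (es1hFin_all hL hML)
          (es1hFin_all (Nat.mul_ne_zero hL (NeZero.ne ℓ)) (hML.trans (dvd_mul_right L ℓ))))
        (es1h_finiteAlong _ (es1hFin_all hL hML)
          (es1hFin_all (Nat.mul_ne_zero hL (NeZero.ne ℓ)) (hML.trans (dvd_mul_right L ℓ))))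
        (es1h_normFormulaAlong _ (es1hFin_all hL hML)
          (es1hFin_all (Nat.mul_ne_zero hL (NeZero.ne ℓ)) (hML.trans (dvd_mul_right L ℓ)))) :=
  es1hHecke_eq_of_fin (es1hFin_all hL hML)
    (es1hFin_all (Nat.mul_ne_zero hL (NeZero.ne ℓ)) (hML.trans (dvd_mul_right L ℓ)))

end Fermat.Agent.ES1

end
end ZBES1_012_3

/-! ### bundled: `Fermat.Agent.RT.K6.ERatPlaces` -/
section ZBES1_012_4
/-
K-machine, piece K6, piece **E-RAT** (helper12), part 1: places of `fieldC K₀ L M H` versus places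
of `fieldBar L M H`.  Fork of `UNIP/MGPlaces.lean` (MG-2) and of `mg_hfin` (`UNIP/MGMain.lean`) with
`modularFunctionFieldFullC K N` replaced by `fieldC K L M H`, `modularFunctionFieldBar N` by
`fieldBar L M H`, `nfEmb` by `nfEmbH`, `mgGal` by `rtk6diGalGen`.

* `rtk6rat_ord_smul`, `rtk6rat_ord_smul'` : the action of `Aut(K)` on places preserves orders;
* `rtk6rat_nfEmbH_smul` : if `σ ∈ Gal(ℚ̄/ℚ)` restricts to `s` on `K₀` then
  `nfEmbH (s • x) = arithmeticGalois σ • nfEmbH x`;
* `rtk6rat_place_extend`, `rtk6rat_place_restrict` : places of `fieldC K₀ L M H / K₀` extend to /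
  are restrictions of places of `fieldBar L M H / ℚ̄`, with the same `ord`;
* `rtk6rat_dvd_ord`, `rtk6rat_dvd_ord_bar`;
* `rtk6rat_restrict_smul` : restriction of places is compatible with the two Galois actions;
* `rtk6rat_hfin` : the divisor of `u₀ ∈ fieldC K₀ L M H`, `u₀ ≠ 0`, has finite support.
-/

set_option autoImplicit false
set_option linter.unusedSectionVars false
set_option linter.style.haveILetI false

noncomputable section

namespace Fermat.Agent.RT.K6

open ModularCurve AlgebraicCurve Fermat.Agent.INJ Fermat.Agent.UNIP Fermat.Agent.ES1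
open Fermat.Agent.S24

section General

variable {K : Type*} [Field K] (L M : ℕ) (H : Subgroup (ZMod M)ˣ)

/-- The action of `Aut(K)` on places of `fieldC K L M H / K` preserves orders. -/
theorem rtk6rat_ord_smul (s : K ≃+* K) (v : Place K (fieldC K L M H)) (x : fieldC K L M H) :
    (rtk6diGalGen L M H s • v).ord (rtk6diGalGen L M H s • x) = v.ord x :=
  SemilinearAut.ord_smul (rtk6diGalGen L M H s) v x

theorem rtk6rat_ord_smul' (s : K ≃+* K) (v : Place K (fieldC K L M H)) (x : fieldC K L M H) :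
    (rtk6diGalGen L M H s • v).ord x = v.ord ((rtk6diGalGen L M H s)⁻¹ • x) := by
  have h := rtk6rat_ord_smul L M H s v ((rtk6diGalGen L M H s)⁻¹ • x)
  rwa [smul_inv_smul] at h

end General

section NumberField

variable (K₀ : IntermediateField ℚ NfQb) (L M : ℕ) (H : Subgroup (ZMod M)ˣ)

set_option maxHeartbeats 1600000 in
set_option synthInstance.maxHeartbeats 400000 in
/-- If `σ ∈ Gal(ℚ̄/ℚ)` restricts to `s` on `K₀`, then `nfEmbH` intertwines the coefficient action
of `s` on `fieldC K₀ L M H` and the arithmetic Galois action of `σ` on `fieldBar L M H`. -/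
theorem rtk6rat_nfEmbH_smul (σ : NfQb ≃ₐ[ℚ] NfQb) (s : K₀ ≃+* K₀)
    (h : ∀ a : K₀, σ (a : NfQb) = ((s a : K₀) : NfQb))
    (x : fieldC K₀ L M H) :
    nfEmbH K₀ L M H (rtk6diGalGen L M H s • x)
      = arithmeticGalois (fieldQ L M H) σ • nfEmbH K₀ L M H x := by
  apply Subtype.ext
  rw [coe_arithmeticGalois_smul, nfEmbH_coe, nfEmbH_coe, coe_rtk6diGalGen_smul,
    coeffMap_coeffMap, coeffMap_coeffMap]
  refine coeffMap_congr (RingHom.ext fun a => ?_) _
  exact (h a).symm

/-- Every place of `fieldC K₀ L M H / K₀` extends to a place of `fieldBar L M H / ℚ̄` with the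
same `ord`. -/
theorem rtk6rat_place_extend (Q : Place K₀ (fieldC K₀ L M H)) :
    ∃ v : Place NfQb (fieldBar L M H), ∀ y : fieldC K₀ L M H,
      v.ord (nfEmbH K₀ L M H y) = Q.ord y :=
  nfH_hext K₀ L M H Q

/-- Every place of `fieldBar L M H / ℚ̄` restricts to a place of `fieldC K₀ L M H / K₀` with the
same `ord`. -/
theorem rtk6rat_place_restrict (v : Place NfQb (fieldBar L M H)) :
    ∃ Q : Place K₀ (fieldC K₀ L M H), ∀ y : fieldC K₀ L M H,
      v.ord (nfEmbH K₀ L M H y) = Q.ord y := by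
  letI := nfH_algebra K₀ L M H
  haveI := nfH_tower K₀ L M H
  haveI := nfH_isAlgebraic K₀
  exact PlaceExt.exists_place_restrict_const (E := K₀) (K := NfQb)
    (L' := fieldBar L M H) (PlaceExt.adjoin_range_swap (nfEmbH_adjoin_range K₀ L M H)) v

/-- Divisibility of the divisor descends from `fieldBar L M H` to `fieldC K₀ L M H`. -/
theorem rtk6rat_dvd_ord (m : ℤ) (u₀ : fieldC K₀ L M H)
    (h : ∀ P : Place NfQb (fieldBar L M H), m ∣ P.ord (nfEmbH K₀ L M H u₀))
    (Q : Place K₀ (fieldC K₀ L M H)) : m ∣ Q.ord u₀ := by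
  obtain ⟨v, hv⟩ := rtk6rat_place_extend K₀ L M H Q
  rw [← hv u₀]
  exact h v

/-- Divisibility of the divisor ascends from `fieldC K₀ L M H` to `fieldBar L M H`. -/
theorem rtk6rat_dvd_ord_bar (m : ℤ) (u₀ : fieldC K₀ L M H)
    (h : ∀ Q : Place K₀ (fieldC K₀ L M H), m ∣ Q.ord u₀)
    (P : Place NfQb (fieldBar L M H)) : m ∣ P.ord (nfEmbH K₀ L M H u₀) := by
  obtain ⟨Q, hQ⟩ := rtk6rat_place_restrict K₀ L M H P
  rw [hQ u₀]
  exact h Q

/-- Restriction of places is compatible with the Galois actions. -/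
theorem rtk6rat_restrict_smul (σ : NfQb ≃ₐ[ℚ] NfQb) (s : K₀ ≃+* K₀)
    (h : ∀ a : K₀, σ (a : NfQb) = ((s a : K₀) : NfQb))
    (v : Place NfQb (fieldBar L M H))
    (Q : Place K₀ (fieldC K₀ L M H))
    (hvQ : ∀ y : fieldC K₀ L M H, v.ord (nfEmbH K₀ L M H y) = Q.ord y)
    (y : fieldC K₀ L M H) :
    (arithmeticGalois (fieldQ L M H) σ • v).ord (nfEmbH K₀ L M H y)
      = (rtk6diGalGen L M H s • Q).ord y := by
  rw [rtk6rat_ord_smul', ← hvQ]
  have e : nfEmbH K₀ L M H y = arithmeticGalois (fieldQ L M H) σ •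
      nfEmbH K₀ L M H ((rtk6diGalGen L M H s)⁻¹ • y) := by
    rw [← rtk6rat_nfEmbH_smul K₀ L M H σ s h, smul_inv_smul]
  conv_lhs => rw [e]
  exact SemilinearAut.ord_smul _ v _

/-- **hfin**: the divisor of a non-zero element of `fieldC K₀ L M H` has finite support. -/
theorem rtk6rat_hfin (hL : L ≠ 0) (hML : M ∣ L) (u₀ : fieldC K₀ L M H) (hu : u₀ ≠ 0) :
    {P : Place K₀ (fieldC K₀ L M H) | P.ord u₀ ≠ 0}.Finite := by
  classical
  have hu' : nfEmbH K₀ L M H u₀ ≠ 0 := (map_ne_zero (nfEmbH K₀ L M H)).mpr hu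
  haveI := es1h_hasPrincipalDivisors_all (H := H) hL hML
  obtain ⟨D, hD, -⟩ := HasPrincipalDivisors.exists_divisor (K := NfQb)
    (F := fieldBar L M H) (nfEmbH K₀ L M H u₀) hu'
  choose e he using fun Q : Place K₀ (fieldC K₀ L M H) => rtk6rat_place_extend K₀ L M H Q
  have hinj : Function.Injective e := by
    intro P Q hPQ
    apply mg_place_eq_of_ord
    intro y
    rw [← he P y, ← he Q y, hPQ]
  refine Set.Finite.subset (Set.Finite.preimage (hinj.injOn) D.support.finite_toSet) ?_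
  intro P hP
  simp only [Set.mem_preimage, Finset.mem_coe, Finsupp.mem_support_iff]
  rw [hD (e P), he P u₀]
  exact hP

end NumberField

end Fermat.Agent.RT.K6

end
end ZBES1_012_4

/-! ### bundled: `Fermat.Agent.RT.K6.ERat` -/
section ZBES1_012_5
/-
K-machine, piece K6, piece **E-RAT** (helper12), part 2: places of `fieldBar L M H` become rational
over a finite extension of the base field.  Fork of `UNIP/Rational.lean` (UNIP D8) with
`modularFunctionFieldBar N` replaced by `fieldBar L M H` and `nfEmb` by `nfEmbH`.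

`F = fieldBar L M H` (`M ∣ L ≠ 0`), `P` a place of `F / ℚ̄`.

* `Rtk6RatStable L M H E P` : `P` is fixed by every `σ ∈ Gal(ℚ̄/ℚ)` fixing the subfield `E ⊆ ℚ̄`
  pointwise.
* `rtk6rat_exists_stable_finset` : finitely many places are stable over one number field `K₀`,
  which can be taken Galois over `ℚ` and containing a given number field.
* `Rtk6RatStable.mono`, `Rtk6RatStable.smul` (stability of the Galois conjugates, `K₀ / ℚ`
  normal).
* `Rtk6RatStable.exists_const` : if `P` is stable over `E` (an arbitrary subfield of `ℚ̄`), then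
  `P ∩ fieldC E L M H` is `E`-rational: every `f ∈ fieldC E L M H` which is regular at `P` is
  congruent modulo `𝔪_P` to a constant `c ∈ E`.
-/

set_option autoImplicit false
set_option linter.unusedSectionVars false
set_option linter.style.haveILetI false

noncomputable section

namespace Fermat.Agent.RT.K6

open AlgebraicCurve ModularCurve Fermat.Agent.S24 Fermat.Agent.INJ Fermat.Agent.UNIP
open Fermat.Agent.ES1

section Galois

variable (L M : ℕ) (H : Subgroup (ZMod M)ˣ)

/-- the arithmetic Galois action on `fieldBar L M H` -/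
abbrev rtk6ratGal (σ : Kb ≃ₐ[ℚ] Kb) : SemilinearAut Kb (fieldBar L M H) :=
  arithmeticGalois (fieldQ L M H) σ

/-- Functions defined over `E` are fixed by the automorphisms fixing `E`. -/
theorem rtk6rat_smul_nfEmbH (E : IntermediateField ℚ Kb) (σ : Kb ≃ₐ[ℚ] Kb)
    (hσ : ∀ x ∈ E, σ x = x) (f : fieldC E L M H) :
    rtk6ratGal L M H σ • (nfEmbH E L M H f) = nfEmbH E L M H f := by
  apply Subtype.ext
  rw [coe_arithmeticGalois_smul, nfEmbH_coe, coeffMap_coeffMap]
  have h : ((σ : Kb →+* Kb).comp (algebraMap E Kb)) = algebraMap E Kb := by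
    refine RingHom.ext fun c => ?_
    exact hσ (c : Kb) c.2
  exact coeffMap_congr h _

theorem rtk6rat_smul_const (σ : Kb ≃ₐ[ℚ] Kb) (c : Kb) :
    rtk6ratGal L M H σ • algebraMap Kb (fieldBar L M H) c
      = algebraMap Kb (fieldBar L M H) (σ c) :=
  SemilinearAut.smul_algebraMap _ c

/-- `P` is fixed by every automorphism of `ℚ̄` fixing the subfield `E` pointwise. -/
def Rtk6RatStable (E : IntermediateField ℚ Kb) (P : Place Kb (fieldBar L M H)) : Prop :=
  ∀ σ : Kb ≃ₐ[ℚ] Kb, (∀ x ∈ E, σ x = x) → rtk6ratGal L M H σ • P = P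

variable {L M H}

theorem Rtk6RatStable.mono {E E' : IntermediateField ℚ Kb} (h : E ≤ E')
    {P : Place Kb (fieldBar L M H)} (hP : Rtk6RatStable L M H E P) :
    Rtk6RatStable L M H E' P :=
  fun σ hσ => hP σ fun x hx => hσ x (h hx)

variable (L M H) in
/-- **Stability.**  Every place of `fieldBar L M H` is fixed by `Gal(ℚ̄/K₀)` for some number
field `K₀`. -/
theorem rtk6rat_exists_stable (hL : L ≠ 0) (hML : M ∣ L) (P : Place Kb (fieldBar L M H)) :
    ∃ K₀ : IntermediateField ℚ Kb, FiniteDimensional ℚ K₀ ∧ Rtk6RatStable L M H K₀ P := by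
  classical
  have := es1h_hasPrincipalDivisors_all (H := H) hL hML
  obtain ⟨t, Y, ht, hY, hchar⟩ := rat_exists_finset_char P
  obtain ⟨K₀, hK₀, -, hdesc⟩ := injdh_exists_descent_finset (L := L) (M := M) (H := H) ∅
    ((insert t Y).image (fun y : fieldBar L M H => (y : LaurentSeries Kb)))
    (by
      intro y hy
      obtain ⟨z, -, rfl⟩ := Finset.mem_image.1 hy
      exact z.2)
  refine ⟨K₀, hK₀, fun σ hσ => ?_⟩
  have hfix : ∀ y ∈ insert t Y, rtk6ratGal L M H σ • y = y := by
    intro y hy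
    obtain ⟨y₁, hy₁, hy₁'⟩ := hdesc K₀ le_rfl (y : LaurentSeries Kb)
      (Finset.mem_image_of_mem _ hy)
    have : y = nfEmbH K₀ L M H ⟨y₁, hy₁⟩ := Subtype.ext hy₁'.symm
    rw [this]
    exact rtk6rat_smul_nfEmbH L M H K₀ σ hσ _
  apply hchar
  · have h1 := SemilinearAut.ord_smul (rtk6ratGal L M H σ) P t
    rw [hfix t (Finset.mem_insert_self t Y)] at h1
    rw [h1]
    exact ht
  · intro y hy
    have h1 := hfix y (Finset.mem_insert_of_mem hy)
    rw [SemilinearAut.smul_toValuationSubring,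
      ValuationSubring.mem_pointwise_smul_iff_inv_smul_mem]
    have h2 : (rtk6ratGal L M H σ)⁻¹ • y = y := by
      conv_lhs => rw [← h1]
      exact inv_smul_smul _ _
    rw [h2]
    exact hY y hy

/-- **Rationality.**  If `P` is stable over the subfield `E ⊆ ℚ̄`, then every function
`f ∈ fieldC E L M H` regular at `P` is congruent modulo `𝔪_P` to a constant `c ∈ E`. -/
theorem Rtk6RatStable.exists_const (hL : L ≠ 0) (hML : M ∣ L) {E : IntermediateField ℚ Kb}
    {P : Place Kb (fieldBar L M H)}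
    (hP : Rtk6RatStable L M H E P) (f : fieldC E L M H)
    (hf : nfEmbH E L M H f ∈ P.toValuationSubring) :
    ∃ c : E, nfEmbH E L M H f - algebraMap Kb (fieldBar L M H) (c : Kb) ∈
      P.toValuationSubring.nonunits := by
  have : IsAlgClosure ℚ Kb := ⟨inferInstance, AlgebraicClosure.isAlgebraic ℚ⟩
  have : IsGalois ℚ Kb := inferInstance
  have hfin : FiniteDimensional (IntermediateField.adjoin Kb {es1hJ L M H}) (fieldBar L M H) :=
    es1hFin_all (H := H) hL hML
  have halg : Algebra.IsAlgebraic (IntermediateField.adjoin Kb {es1hJ L M H}) (fieldBar L M H) :=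
    Algebra.IsAlgebraic.of_finite _ _
  obtain ⟨c, hc⟩ := exists_sub_mem_nonunits (es1hJ L M H) (es1h_transcendental_J L M H) halg P _ hf
  have hcE : c ∈ E := by
    rw [← InfiniteGalois.fixedField_fixingSubgroup E, IntermediateField.mem_fixedField_iff]
    intro σ hσ
    have hσ' : ∀ x ∈ E, σ x = x := fun x hx => hσ ⟨x, hx⟩
    have h1 := rat_smul_mem_nonunits (rtk6ratGal L M H σ) P hc
    rw [hP σ hσ', smul_sub, rtk6rat_smul_nfEmbH L M H E σ hσ', rtk6rat_smul_const] at h1
    have h2 : algebraMap Kb (fieldBar L M H) (σ c - c) ∈ P.toValuationSubring.nonunits := by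
      have e : algebraMap Kb (fieldBar L M H) (σ c - c)
          = (nfEmbH E L M H f - algebraMap Kb (fieldBar L M H) c) -
            (nfEmbH E L M H f - algebraMap Kb (fieldBar L M H) (σ c)) := by
        rw [map_sub]; ring
      rw [e]
      exact rat_sub_mem_nonunits _ hc h1
    exact sub_eq_zero.1 (rat_const_eq_zero_of_mem_nonunits P h2)
  exact ⟨⟨c, hcE⟩, hc⟩

set_option synthInstance.maxHeartbeats 400000 in
/-- the same, with the constant subtracted inside `fieldC E L M H` -/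
theorem Rtk6RatStable.exists_const' (hL : L ≠ 0) (hML : M ∣ L) {E : IntermediateField ℚ Kb}
    {P : Place Kb (fieldBar L M H)}
    (hP : Rtk6RatStable L M H E P) (f : fieldC E L M H)
    (hf : nfEmbH E L M H f ∈ P.toValuationSubring) :
    ∃ c : E, nfEmbH E L M H (f - algebraMap E (fieldC E L M H) c) ∈
      P.toValuationSubring.nonunits := by
  obtain ⟨c, hc⟩ := hP.exists_const hL hML f hf
  refine ⟨c, ?_⟩
  rw [map_sub, nfEmbH_algebraMap]
  exact hc

set_option synthInstance.maxHeartbeats 400000 in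
/-- `ord` version (NB `ord 0 = 0` in the prelude, so the constant case is an alternative). -/
theorem Rtk6RatStable.exists_eq_or_ord_pos (hL : L ≠ 0) (hML : M ∣ L)
    {E : IntermediateField ℚ Kb} {P : Place Kb (fieldBar L M H)}
    (hP : Rtk6RatStable L M H E P) (f : fieldC E L M H)
    (hf : 0 ≤ P.ord (nfEmbH E L M H f)) :
    ∃ c : E, f = algebraMap E (fieldC E L M H) c ∨
      0 < P.ord (nfEmbH E L M H (f - algebraMap E (fieldC E L M H) c)) := by
  obtain ⟨c, hc⟩ := hP.exists_const' hL hML f (PlaceAux.mem_of_ord_nonneg P hf)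
  refine ⟨c, ?_⟩
  rcases eq_or_ne (f - algebraMap E (fieldC E L M H) c) 0 with h | h
  · exact Or.inl (sub_eq_zero.1 h)
  · right
    have hne : nfEmbH E L M H (f - algebraMap E (fieldC E L M H) c) ≠ 0 := by
      rw [Ne, map_eq_zero_iff _ (nfEmbH_injective E L M H)]
      exact h
    exact (PlaceAux.ord_pos_iff_mem_nonunits P hne).2 hc

/-- The Galois conjugates of a place which is stable over a field `K₀` normal over `ℚ` are stable
over `K₀`. -/
theorem Rtk6RatStable.smul {K₀ : IntermediateField ℚ Kb} [Normal ℚ K₀]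
    {P : Place Kb (fieldBar L M H)}
    (hP : Rtk6RatStable L M H K₀ P) (τ : Kb ≃ₐ[ℚ] Kb) :
    Rtk6RatStable L M H K₀ (rtk6ratGal L M H τ • P) := by
  intro σ hσ
  have : IsAlgClosure ℚ Kb := ⟨inferInstance, AlgebraicClosure.isAlgebraic ℚ⟩
  have : Normal ℚ Kb := IsAlgClosure.normal ℚ Kb
  have hτ : ∀ x ∈ K₀, τ x ∈ K₀ := by
    intro x hx
    have h := IntermediateField.normal_iff_forall_map_le'.1 (inferInstance : Normal ℚ K₀) τ
    exact h ⟨x, hx, rfl⟩
  have hfix : ∀ x ∈ K₀, (τ⁻¹ * σ * τ) x = x := by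
    intro x hx
    show τ⁻¹ (σ (τ x)) = x
    rw [hσ _ (hτ x hx)]
    exact τ.symm_apply_apply x
  have h1 := hP (τ⁻¹ * σ * τ) hfix
  have e : rtk6ratGal L M H σ * rtk6ratGal L M H τ
      = rtk6ratGal L M H τ * rtk6ratGal L M H (τ⁻¹ * σ * τ) := by
    show arithmeticGalois _ σ * arithmeticGalois _ τ = arithmeticGalois _ τ *
      arithmeticGalois _ (τ⁻¹ * σ * τ)
    rw [← map_mul, ← map_mul]
    congr 1
    group
  rw [← mul_smul, e, mul_smul, h1]

variable (L M H) in
/-- **D8 for `Γ_H`.**  Finitely many places of `fieldBar L M H` are stable over one number field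
`K₀`, which can be taken Galois over `ℚ` and containing a given number field `E₁`. -/
theorem rtk6rat_exists_stable_finset (hL : L ≠ 0) (hML : M ∣ L)
    (S : Finset (Place Kb (fieldBar L M H)))
    (E₁ : IntermediateField ℚ Kb) (hE₁ : FiniteDimensional ℚ E₁) :
    ∃ K₀ : IntermediateField ℚ Kb, E₁ ≤ K₀ ∧ FiniteDimensional ℚ K₀ ∧ IsGalois ℚ K₀ ∧
      ∀ P ∈ S, Rtk6RatStable L M H K₀ P := by
  classical
  have : IsAlgClosure ℚ Kb := ⟨inferInstance, AlgebraicClosure.isAlgebraic ℚ⟩
  have : IsGalois ℚ Kb := inferInstance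
  -- one number field for all places
  have key : ∃ K₁ : IntermediateField ℚ Kb, E₁ ≤ K₁ ∧ FiniteDimensional ℚ K₁ ∧
      ∀ P ∈ S, Rtk6RatStable L M H K₁ P := by
    induction S using Finset.induction_on with
    | empty => exact ⟨E₁, le_rfl, hE₁, fun P hP => absurd hP (Finset.notMem_empty P)⟩
    | insert a S _ ih =>
        obtain ⟨K₁, h1, h2, h3⟩ := ih
        obtain ⟨Ka, ha1, ha2⟩ := rtk6rat_exists_stable L M H hL hML a
        refine ⟨K₁ ⊔ Ka, le_trans h1 le_sup_left, IntermediateField.finiteDimensional_sup K₁ Ka,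
          fun P hP => ?_⟩
        rcases Finset.mem_insert.1 hP with rfl | hP
        · exact ha2.mono le_sup_right
        · exact (h3 P hP).mono le_sup_left
  obtain ⟨K₁, h1, h2, h3⟩ := key
  refine ⟨IntermediateField.normalClosure ℚ K₁ Kb,
    le_trans h1 (IntermediateField.le_normalClosure K₁),
    normalClosure.is_finiteDimensional ℚ K₁ Kb, IsGalois.normalClosure ℚ K₁ Kb,
    fun P hP => (h3 P hP).mono (IntermediateField.le_normalClosure K₁)⟩

end Galois

end Fermat.Agent.RT.K6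

end
end ZBES1_012_5

/-! ### bundled: `Fermat.Agent.RT.K6.ERatSupp` -/
section ZBES1_012_6
/-
K-machine, piece K6, piece **E-RAT** (helper12), part 3: the places in the support of `div u` are
rational.  Fork of `UNIP/RationalSupp.lean` with `modularFunctionFieldBar N` replaced by
`fieldBar L M H`, `nfEmb` by `nfEmbH`, `mgGal` by `rtk6diGalGen`.

`rtk6rat_exists_field_rational` : for `u ∈ (fieldBar L M H)^×` there is a number field `K₀` (Galois
over `ℚ`, containing a given number field) such that for every subfield `E ⊇ K₀` of `ℚ̄` and every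
place `Q` of `fieldC E L M H / E` some Galois translate of which lies in the support of `div u₀`
(`u₀ ∈ fieldC E L M H` a model of `u`), the residue field of `Q` is `E`.
-/

set_option autoImplicit false
set_option linter.unusedSectionVars false
set_option linter.style.haveILetI false

noncomputable section

namespace Fermat.Agent.RT.K6

open AlgebraicCurve ModularCurve Fermat.Agent.S24 Fermat.Agent.INJ Fermat.Agent.UNIP
open Fermat.Agent.ES1

variable {L M : ℕ} {H : Subgroup (ZMod M)ˣ}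

set_option synthInstance.maxHeartbeats 400000 in
/-- If `P` is stable over `E`, its restriction `Q` to `fieldC E L M H` has residue field `E`. -/
theorem Rtk6RatStable.rational_restrict (hL : L ≠ 0) (hML : M ∣ L)
    {E : IntermediateField ℚ Kb}
    {P : Place Kb (fieldBar L M H)} (hP : Rtk6RatStable L M H E P)
    (Q : Place E (fieldC E L M H))
    (hQ : ∀ y : fieldC E L M H, P.ord (nfEmbH E L M H y) = Q.ord y)
    (f : fieldC E L M H) (hf : f ∈ Q.toValuationSubring) :
    ∃ c : E, f - algebraMap E (fieldC E L M H) c ∈ Q.toValuationSubring.nonunits := by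
  have hzero : (0 : fieldC E L M H) ∈ Q.toValuationSubring.nonunits :=
    (ValuationSubring.mem_nonunits_iff _).2 (by simp)
  rcases eq_or_ne f 0 with rfl | hf0
  · exact ⟨0, by rw [map_zero, sub_zero]; exact hzero⟩
  have h1 : 0 ≤ P.ord (nfEmbH E L M H f) := by
    rw [hQ]
    exact (PlaceAux.ord_nonneg_iff Q hf0).2 hf
  obtain ⟨c, hc⟩ := hP.exists_const' hL hML f (PlaceAux.mem_of_ord_nonneg P h1)
  refine ⟨c, ?_⟩
  rcases eq_or_ne (f - algebraMap E (fieldC E L M H) c) 0 with h | h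
  · rw [h]
    exact hzero
  · have hne : nfEmbH E L M H (f - algebraMap E (fieldC E L M H) c) ≠ 0 := by
      rw [Ne, map_eq_zero_iff _ (nfEmbH_injective E L M H)]
      exact h
    have h2 := (PlaceAux.ord_pos_iff_mem_nonunits P hne).2 hc
    rw [hQ] at h2
    exact (PlaceAux.ord_pos_iff_mem_nonunits Q h).1 h2

variable (L M H) in
/-- All places in the Galois orbit of the support of `div u` are stable over one number field. -/
theorem rtk6rat_exists_stable_supp (hL : L ≠ 0) (hML : M ∣ L)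
    (u : fieldBar L M H) (hu : u ≠ 0)
    (E₁ : IntermediateField ℚ Kb) (hE₁ : FiniteDimensional ℚ E₁) :
    ∃ K₀ : IntermediateField ℚ Kb, E₁ ≤ K₀ ∧ FiniteDimensional ℚ K₀ ∧ IsGalois ℚ K₀ ∧
      ∀ (P : Place Kb (fieldBar L M H)) (τ : Kb ≃ₐ[ℚ] Kb),
        (rtk6ratGal L M H τ • P).ord u ≠ 0 → Rtk6RatStable L M H K₀ P := by
  have := es1h_hasPrincipalDivisors_all (H := H) hL hML
  obtain ⟨D, hD, -⟩ := HasPrincipalDivisors.exists_divisor (K := Kb) u hu
  obtain ⟨K₀, h1, h2, h3, h4⟩ := rtk6rat_exists_stable_finset L M H hL hML D.support E₁ hE₁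
  refine ⟨K₀, h1, h2, h3, fun P τ hτ => ?_⟩
  have hmem : rtk6ratGal L M H τ • P ∈ D.support := by
    rw [Finsupp.mem_support_iff, hD]
    exact hτ
  have h5 := (h4 _ hmem).smul τ⁻¹
  have e : rtk6ratGal L M H τ⁻¹ • rtk6ratGal L M H τ • P = P := by
    rw [← mul_smul]
    show (arithmeticGalois _ τ⁻¹ * arithmeticGalois _ τ) • P = P
    rw [← map_mul, inv_mul_cancel, map_one, one_smul]
  rwa [e] at h5

variable (L M H) in
/-- **D8 for `Γ_H`, form for MG.**  The places of `fieldC E L M H` in the Galois orbit of the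
support of `div u₀` have residue field `E`, for every subfield `E ⊆ ℚ̄` containing a suitable
number field `K₀`. -/
theorem rtk6rat_exists_field_rational (hL : L ≠ 0) (hML : M ∣ L)
    (u : fieldBar L M H) (hu : u ≠ 0)
    (E₁ : IntermediateField ℚ Kb) (hE₁ : FiniteDimensional ℚ E₁) :
    ∃ K₀ : IntermediateField ℚ Kb, E₁ ≤ K₀ ∧ FiniteDimensional ℚ K₀ ∧ IsGalois ℚ K₀ ∧
      ∀ E : IntermediateField ℚ Kb, K₀ ≤ E →
        ∀ u₀ : fieldC E L M H, nfEmbH E L M H u₀ = u →
          ∀ (Q : Place E (fieldC E L M H)) (s : E ≃+* E) (σ : Kb ≃ₐ[ℚ] Kb),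
            (∀ a : E, σ (a : Kb) = ((s a : E) : Kb)) →
            (rtk6diGalGen L M H s • Q).ord u₀ ≠ 0 →
              ∀ f ∈ Q.toValuationSubring, ∃ c : E,
                f - algebraMap E (fieldC E L M H) c ∈ Q.toValuationSubring.nonunits := by
  obtain ⟨K₀, h1, h2, h3, h4⟩ := rtk6rat_exists_stable_supp L M H hL hML u hu E₁ hE₁
  refine ⟨K₀, h1, h2, h3, fun E hE u₀ hu₀ Q s σ hσ hQ f hf => ?_⟩
  obtain ⟨P, hP⟩ := rtk6rat_place_extend E L M H Q
  have h5 : (rtk6ratGal L M H σ • P).ord u ≠ 0 := by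
    rw [← hu₀]
    have := rtk6rat_restrict_smul E L M H σ s hσ P Q hP u₀
    rw [show rtk6ratGal L M H σ = arithmeticGalois (fieldQ L M H) σ from rfl, this]
    exact hQ
  exact ((h4 P σ h5).mono hE).rational_restrict hL hML Q hP f hf

end Fermat.Agent.RT.K6

end
end ZBES1_012_6

/-! ### bundled: `Fermat.Agent.ES1.G1.BaseChangeDownH` -/
section ZBES1_012_7

/-!
# ES₁ / G1, piece BCd: places of `fieldC ℂ L M H` restrict to places of `fieldBar L M H`
(helper82)

`ι = iotaH L M H : fieldBar L M H → fieldC ℂ L M H` the coefficientwise embedding.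

* `es1r_bcd` : every place `w` of `fieldC ℂ L M H` is trivial on `ι (fieldBar L M H)`, or there
  are a place `v` of `fieldBar L M H` and `e > 0` with `w.ord (ι f) = e * v.ord f` for all `f`
  (instance of the generic `ES.place_restrict_along`);
* `es1r_bcd_dvd` : if `n ∣ v.ord u` for all places `v` of `fieldBar L M H`, then
  `n ∣ w.ord (ι u)` for all places `w` of `fieldC ℂ L M H`.
(The converse direction BCu is `stmtRealBCu`, `es1r_bcu_dvd` in `ES1/RealBCuFin.lean`.)
-/

set_option autoImplicit false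

noncomputable section

namespace Fermat.Agent.ES1

open AlgebraicCurve ModularCurve IntermediateField Fermat.Agent.S24 Fermat.Agent.ES

attribute [local instance] algKbC

variable (L M : ℕ) (H : Subgroup (ZMod M)ˣ)

/-- **BCd**: a place of `fieldC ℂ L M H` is trivial on `fieldBar L M H` or restricts to a place
of `fieldBar L M H`. -/
theorem es1r_bcd (w : Place ℂ (fieldC ℂ L M H)) :
    (∀ f : fieldBar L M H, w.ord (iotaH L M H f) = 0) ∨
      ∃ (v : Place Kb (fieldBar L M H)) (e : ℤ), 0 < e ∧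
        ∀ f : fieldBar L M H, w.ord (iotaH L M H f) = e * v.ord f :=
  place_restrict_along (iotaH L M H) embC (iotaH_algebraMap L M H) w

/-- Divisibility of orders ascends from `fieldBar L M H` to `fieldC ℂ L M H`. -/
theorem es1r_bcd_dvd (n : ℤ) (u : fieldBar L M H)
    (h : ∀ v : Place Kb (fieldBar L M H), n ∣ v.ord u) (w : Place ℂ (fieldC ℂ L M H)) :
    n ∣ w.ord (iotaH L M H u) := by
  rcases es1r_bcd L M H w with h0 | ⟨v, e, -, hv⟩
  · rw [h0 u]
    exact dvd_zero n
  · rw [hv u]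
    exact Dvd.dvd.mul_left (h v) e

end Fermat.Agent.ES1

end
end ZBES1_012_7

/-! ### bundled: `Fermat.Agent.ES1.G1.MuCoreH` -/
section ZBES1_012_8

/-!
# ES₁-G1, pieces E and I: `MuExistsH` and `MuInjH` (helper34; fork of `ES/MuCore.lean`)

`Γ = gammaH L M H`, `M ∣ L`.

* `es1g1e_muExistsH hML : MuExistsH L M H` — every `n`-torsion class of `J_H(L; M)(ℚ̄)` has a
  multiplier character: a Kummer function `u` (KB) is `a / g` analytically (`es1rc_exists_frac`),
  its orders at all places of `fieldC ℂ L M H` are divisible by `n` (`es1r_bcd_dvd`), hence so are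
  its orders on `ℍ` (`es1rc_stmtPtG`), hence `a / g` has a holomorphic `n`-th root on `ℍ`, a root
  datum (`exists_rootData_of_placesG`).
* `es1g1i_muInjH hML : MuInjH L M H` — a class with trivial multiplier character is zero: the
  `n`-th root is a modular function (`exists_pow_eq_of_mult_eq_oneG`), so `u` is an `n`-th power
  in `fieldC ℂ L M H`, hence in `fieldBar L M H` (`DescentInj`), hence the class is zero (KB).
* `es1g1i_fieldC_le_baseChange` : `fieldC K L M H ≤ laurentBaseChange K (fieldQ L M H)` for every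
  field `K` of characteristic `0`.
-/

set_option autoImplicit false
set_option linter.style.haveILetI false

noncomputable section

namespace Fermat.Agent.ES1

open ModularCurve AlgebraicCurve CongruenceSubgroup UpperHalfPlane
open Fermat.Agent.ES Fermat.Agent.S24 Fermat.Agent.S28 Fermat.Agent.ES.RC
open scoped MatrixGroups Manifold

attribute [local instance] algKbC

/-! ### Base change of the field -/

/-- the field over `K` is contained in the base change of the field over `ℚ` -/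
theorem es1g1i_fieldC_le_baseChange (K : Type*) [Field K] [Algebra ℚ K] (L M : ℕ)
    (H : Subgroup (ZMod M)ˣ) : fieldC K L M H ≤ laurentBaseChange K (fieldQ L M H) := by
  rw [fieldC, IntermediateField.adjoin_le_iff]
  rintro _ (⟨d, hd, hdN, rfl⟩ | ⟨e, he, a, heL, rfl⟩)
  · have h1 : qExpand K d (jqModC K) = coeffEmb K (qExpand ℚ d (jqModC ℚ)) :=
      (coeffMap_jqNModC (algebraMap ℚ K) d).symm
    rw [h1]
    exact coeffEmb_mem_laurentBaseChange _ (jd_mem_fieldC ℚ L M H hdN)
  · have h1 : qExpand K e (sS K M H a) = coeffEmb K (qExpand ℚ e (sS ℚ M H a)) :=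
      (es1f_coeffMap_qExpand_sS (algebraMap ℚ K) M H a e).symm
    rw [h1]
    exact coeffEmb_mem_laurentBaseChange _ (qExpand_sS_mem ℚ L M H heL a)

variable {L M : ℕ} [NeZero L] (hML : M ∣ L) (H : Subgroup (ZMod M)ˣ)

/-! ### (E) existence -/

include hML in
/-- **(E)** every `n`-torsion class of `J_H(L; M)(ℚ̄)` has a multiplier character. -/
theorem es1g1e_muExistsH : MuExistsH L M H := by
  intro n hn x hx
  obtain ⟨u, hK⟩ := exists_kummerRel hx
  have hu0 : u ≠ 0 := hK.ne_zero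
  have hdvd : ∀ v : Place Kb (fieldBar L M H), (n : ℤ) ∣ v.ord u := by
    obtain ⟨D, -, -, hD⟩ := hK
    intro v
    exact ⟨_, (hD v).symm⟩
  obtain ⟨a, g, ha, hg, hg', h⟩ := es1rc_exists_frac H (iotaH L M H u).2
  rw [iotaH_coe] at h
  have hιu : iotaH L M H u ≠ 0 := fun h0 => hu0 (iotaH_injective L M H (by rw [h0, map_zero]))
  have hg0 : g ≠ 0 := by
    rintro rfl
    exact hg' laurentOf_zero
  have ha0 : a ≠ 0 := by
    rintro rfl
    rw [laurentOf_zero] at h
    rcases mul_eq_zero.mp h with h1 | h1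
    · exact hιu (Subtype.ext h1)
    · exact hg' h1
  letI := es1rcAlgebra hML H
  haveI := es1rc_isScalarTower hML H
  haveI := es1rc_isFractionRing hML H
  set a' : modFunAlgG (gammaH L M H) := ⟨a, ha⟩ with ha'
  set g' : modFunAlgG (gammaH L M H) := ⟨g, hg⟩ with hg''
  have ha'0 : a' ≠ 0 := fun h0 => ha0 (congrArg Subtype.val h0)
  have hg'0 : g' ≠ 0 := fun h0 => hg0 (congrArg Subtype.val h0)
  have hquot : algebraMap (modFunAlgG (gammaH L M H)) (fieldC ℂ L M H) a' /
      algebraMap (modFunAlgG (gammaH L M H)) (fieldC ℂ L M H) g' = iotaH L M H u := by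
    rw [div_eq_iff (algebraMap_modFunAlgG_ne_zero (gammaH L M H) _ hg'0)]
    apply Subtype.ext
    exact h.symm
  have hU : ∀ w : Place ℂ (fieldC ℂ L M H),
      (n : ℤ) ∣ w.ord (algebraMap (modFunAlgG (gammaH L M H)) (fieldC ℂ L M H) a' /
        algebraMap (modFunAlgG (gammaH L M H)) (fieldC ℂ L M H) g') := by
    intro w
    rw [hquot]
    exact es1r_bcd_dvd L M H n u hdvd w
  obtain ⟨R, hRg, hRpow⟩ := exists_rootData_of_placesG (gammaH L M H) (fieldC ℂ L M H)
    (Nat.pos_iff_ne_zero.mp hn) (es1rc_stmtPtG hML H) ha'0 hg'0 hU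
  refine ⟨R.multAdd, u, a, g, R, hK, ⟨ha, hg, hg0, h⟩, fun τ => ?_, rfl⟩
  rw [hRg, hRpow τ]
  obtain ⟨m, rfl⟩ : ∃ m, n = m + 1 := Nat.exists_eq_succ_of_ne_zero (Nat.pos_iff_ne_zero.mp hn)
  simp only [Nat.add_sub_cancel]
  show a τ * g τ ^ m * g τ = a τ * g τ ^ (m + 1)
  ring

/-! ### (I) injectivity -/

include hML in
/-- **(I)** a torsion class with trivial multiplier character is zero. -/
theorem es1g1i_muInjH : MuInjH L M H := by
  rintro n hn x ⟨u, a, g, R, hK, ⟨ha, hg, hg0, h⟩, hpow, hχ⟩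
  have hn0 : n ≠ 0 := Nat.pos_iff_ne_zero.mp hn
  have hu0 : u ≠ 0 := hK.ne_zero
  have hιu : iotaH L M H u ≠ 0 := fun h0 => hu0 (iotaH_injective L M H (by rw [h0, map_zero]))
  have hg' : laurentOf g ≠ 0 := by
    intro h0
    exact hg0 ((laurentOf_eq_zero_iff (es1rc_isMerInf H hg)).mp h0)
  have ha0 : a ≠ 0 := by
    rintro rfl
    rw [laurentOf_zero] at h
    rcases mul_eq_zero.mp h with h1 | h1
    · exact hιu (Subtype.ext h1)
    · exact hg' h1
  have hRmult : R.mult = 1 := by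
    ext1 γ
    have := DFunLike.congr_fun hχ (Additive.ofMul γ)
    exact this
  -- the root datum with denominator `g`
  have hord := dvd_ordPt_sub_of_pow_eq (IsModFunG.mdiff ha) (IsModFunG.mdiff hg)
    R.mdiff_a R.mdiff_g ha0 hg0 R.a_ne_zero R.g_ne_zero hpow
  obtain ⟨D, hDg, hDpow⟩ := exists_rootData_of_modFunG hn0 ha hg ha0 hg0 hord
  have hDR : D.mult = R.mult := by
    refine D.mult_eq_of_pow_eq R fun τ => ?_
    obtain ⟨m, rfl⟩ : ∃ m, n = m + 1 := Nat.exists_eq_succ_of_ne_zero hn0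
    have h1 := hDpow τ
    have h2 := hpow τ
    simp only [Nat.add_sub_cancel] at h1
    rw [mul_pow, mul_pow, h1, hDg]
    linear_combination (-(g τ ^ m)) * h2
  have hDmult : D.mult = 1 := hDR.trans hRmult
  haveI : (gammaH L M H).FiniteIndex := es1rc_finiteIndex hML H
  letI := es1rcAlgebra hML H
  haveI := es1rc_isScalarTower hML H
  haveI := es1rc_isFractionRing hML H
  set a' : modFunAlgG (gammaH L M H) := ⟨a, ha⟩ with ha'
  set g' : modFunAlgG (gammaH L M H) := ⟨g, hg⟩ with hg''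
  have hg'0 : g' ≠ 0 := fun h0 => hg0 (congrArg Subtype.val h0)
  have hquot : algebraMap (modFunAlgG (gammaH L M H)) (fieldC ℂ L M H) a' /
      algebraMap (modFunAlgG (gammaH L M H)) (fieldC ℂ L M H) g' = iotaH L M H u := by
    rw [div_eq_iff (algebraMap_modFunAlgG_ne_zero (gammaH L M H) _ hg'0)]
    apply Subtype.ext
    exact h.symm
  obtain ⟨k, hk⟩ := exists_pow_eq_of_mult_eq_oneG (gammaH L M H) (fieldC ℂ L M H) D hDmult
    (a := a') (g := g') hg'0 hDg hDpow
  rw [hquot] at hk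
  -- descent to `fieldBar`
  have hk' : (k : LaurentSeries ℂ) ^ n
      = coeffMap (algebraMap Kb ℂ) (u : LaurentSeries (AlgebraicClosure ℚ)) := by
    have := congrArg Subtype.val hk
    exact this
  have hkmem : (k : LaurentSeries ℂ) ∈ laurentBaseChange ℂ (fieldQ L M H) :=
    es1g1i_fieldC_le_baseChange ℂ L M H k.2
  obtain ⟨w', hw', -, hw'pow⟩ :=
    DescentInj.exists_root_mem_laurentBaseChange (K := Kb) (L := ℂ) (fieldQ L M H)
      hn0 hkmem hk'
  have hu : u = 1 * (⟨w', hw'⟩ : fieldBar L M H) ^ n := by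
    rw [one_mul]
    apply Subtype.ext
    exact hw'pow.symm
  rw [hu] at hK
  exact hK.eq_zero_of_pow hn0 (fun v => v.ord_one)

end Fermat.Agent.ES1

end
end ZBES1_012_8

/-! ### bundled: `Fermat.Agent.ES1.G1Unique` -/
section ZBES1_012_9

/-!
# ES₁-G1: the pieces `MuAddH` and `MuUniqueH` (helper38; fork of `ES/MuUnique.lean`)

* `es1g1u_muAddH : MuAddH L M H` — the multiplier relation is additive;
* `es1g1u_muUniqueH : MuUniqueH L M H` — the multiplier does not depend on the Kummer function, on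
  the analytic fraction, on the root, nor on the exponent
(`[NeZero L]`, `M ∣ L`).  Also the reusable
* `es1g1u_const_of_ord_eq_zero` : an element of `fieldBar L M H` without zeros and poles is a
  constant;
* `es1g1u_exists_isAnFracH` : every element of `fieldBar L M H` is analytically a fraction;
* `IsAnFracH.mul`, `IsAnFracH.a_ne_zero`.
-/

set_option autoImplicit false

noncomputable section

namespace Fermat.Agent.ES1

open ModularCurve AlgebraicCurve CongruenceSubgroup UpperHalfPlane IntermediateField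
open Fermat.Agent.ES Fermat.Agent.S24 Fermat.Agent.S28
open scoped MatrixGroups Manifold

/-! ### Constants of a function field of one variable -/

/-- an element without zeros and poles of a function field of one variable over an algebraically
closed field of characteristic `0` is a constant -/
theorem es1g1u_const_of_ord_eq_zero_gen {K F : Type*} [Field K] [Field F] [Algebra K F]
    [IsAlgClosed K] [CharZero K] (hFF : Es1hFF1 K F) (c : F)
    (hc : ∀ v : Place K F, v.ord c = 0) : ∃ c₀ : K, algebraMap K F c₀ = c := by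
  by_cases halg : IsAlgebraic K c
  · have hint : IsIntegral K c := halg.isIntegral
    have h1 : (minpoly K c).degree = 1 :=
      IsAlgClosed.degree_eq_one_of_irreducible K (minpoly.irreducible hint)
    exact minpoly.mem_range_of_degree_eq_one K c h1
  · exfalso
    have hct : Transcendental K c := halg
    haveI := hFF.finiteDimensional c hct
    obtain ⟨V, hV, hs⟩ := sum_ord_eq_finrank c hct
    have hVe : V = ∅ := by
      ext v
      simp [hV v, hc v]
    rw [hVe, Finset.sum_empty] at hs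
    have hpos : 0 < Module.finrank K⟮c⟯ F := Module.finrank_pos
    have h0 : Module.finrank K⟮c⟯ F = 0 := by exact_mod_cast hs.symm
    exact hpos.ne' h0

variable {L M : ℕ} [NeZero L] (H : Subgroup (ZMod M)ˣ)

/-- `fieldBar L M H` is a function field of one variable -/
theorem es1g1u_ff1 (hML : M ∣ L) : Es1hFF1 (AlgebraicClosure ℚ) (fieldBar L M H) :=
  (es1hFin_of_ramJH (stmtRamJH L M H hML)).ff1

/-- an element of `fieldBar L M H` without zeros and poles is a constant -/
theorem es1g1u_const_of_ord_eq_zero (hML : M ∣ L) (c : fieldBar L M H)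
    (hc : ∀ v : Place (AlgebraicClosure ℚ) (fieldBar L M H), v.ord c = 0) :
    ∃ c₀ : AlgebraicClosure ℚ, algebraMap (AlgebraicClosure ℚ) (fieldBar L M H) c₀ = c :=
  es1g1u_const_of_ord_eq_zero_gen (es1g1u_ff1 H hML) c hc

/-! ### Analytic fractions -/

/-- every element of `fieldBar L M H` is analytically a fraction of modular functions -/
theorem es1g1u_exists_isAnFracH (hML : M ∣ L) (k : fieldBar L M H) : ∃ a g : ℍ → ℂ, IsAnFracH L M H k a g := by
  obtain ⟨a, b, ha, hb, hb', h⟩ := es1rc_exists_frac H (coeffMap_embC_mem_fieldC L M H k.2)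
  refine ⟨a, b, ha, hb, ?_, h⟩
  rintro rfl
  exact hb' laurentOf_zero

variable {H}

theorem IsAnFracH.laurentOf_g_ne_zero {u : fieldBar L M H} {a g : ℍ → ℂ}
    (h : IsAnFracH L M H u a g) : laurentOf g ≠ 0 := fun h0 =>
  h.2.2.1 ((laurentOf_eq_zero_iff (es1rc_isMerInf H h.2.1)).mp h0)

theorem IsAnFracH.a_ne_zero {u : fieldBar L M H} {a g : ℍ → ℂ}
    (h : IsAnFracH L M H u a g) (hu : u ≠ 0) : a ≠ 0 := by
  rintro rfl
  have h1 := h.2.2.2
  rw [laurentOf_zero] at h1
  rcases mul_eq_zero.mp h1 with h2 | h2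
  · apply hu
    apply Subtype.ext
    exact (coeffMap embC).injective (h2.trans (map_zero _).symm)
  · exact h.laurentOf_g_ne_zero h2

theorem IsAnFracH.mul {u u' : fieldBar L M H} {a g a' g' : ℍ → ℂ}
    (h : IsAnFracH L M H u a g) (h' : IsAnFracH L M H u' a' g') :
    IsAnFracH L M H (u * u') (a * a') (g * g') := by
  obtain ⟨ha, hg, hg0, hL⟩ := h
  obtain ⟨ha', hg', hg0', hL'⟩ := h'
  refine ⟨ha.mul ha', hg.mul hg', ?_, ?_⟩
  · exact mdiff_mul_ne_zero hg.mdiff hg'.mdiff hg0 hg0'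
  · rw [laurentOf_mul (es1rc_isMerInf H hg) (es1rc_isMerInf H hg'),
      laurentOf_mul (es1rc_isMerInf H ha) (es1rc_isMerInf H ha'), ← hL, ← hL']
    have : ((u * u' : fieldBar L M H) : LaurentSeries (AlgebraicClosure ℚ)) =
        (u : LaurentSeries (AlgebraicClosure ℚ)) * (u' : LaurentSeries (AlgebraicClosure ℚ)) := rfl
    rw [this, map_mul]
    ring

/-! ### `MuAddH` -/

theorem es1g1u_muAddH : MuAddH L M H := by
  rintro n hn x y χ ψ ⟨u, a, g, R, hK, hF, hroot, rfl⟩ ⟨u', a', g', R', hK', hF', hroot', rfl⟩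
  refine ⟨u * u', a * a', g * g', R.mul R', hK.add hK', hF.mul hF', fun τ => ?_, ?_⟩
  · have h1 := hroot τ
    have h2 := hroot' τ
    show (R.a τ * R'.a τ) ^ n * (g τ * g' τ) = a τ * a' τ * (R.g τ * R'.g τ) ^ n
    calc (R.a τ * R'.a τ) ^ n * (g τ * g' τ)
        = (R.a τ ^ n * g τ) * (R'.a τ ^ n * g' τ) := by ring
      _ = (a τ * R.g τ ^ n) * (a' τ * R'.g τ ^ n) := by rw [h1, h2]
      _ = a τ * a' τ * (R.g τ * R'.g τ) ^ n := by ring
  · unfold RootData.multAdd
    rw [RootData.mult_mul]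
    rfl

/-! ### The key identity -/

/-- the analytic form of `u' ^ n = c · u ^ m · k ^ (m n)` -/
theorem es1g1u_anFrac_rel {u u' k : fieldBar L M H} (c₀ : AlgebraicClosure ℚ) {n m : ℕ}
    (hrel : u' ^ n =
      algebraMap (AlgebraicClosure ℚ) (fieldBar L M H) c₀ * u ^ m * k ^ (m * n))
    {a g a' g' ak gk : ℍ → ℂ}
    (h : IsAnFracH L M H u a g) (h' : IsAnFracH L M H u' a' g') (hk : IsAnFracH L M H k ak gk)
    (τ : ℍ) :
    a' τ ^ n * g τ ^ m * gk τ ^ (m * n) =
      embC c₀ * (a τ ^ m * ak τ ^ (m * n) * g' τ ^ n) := by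
  obtain ⟨ha, hg, -, hL⟩ := h
  obtain ⟨ha', hg', -, hL'⟩ := h'
  obtain ⟨hak, hgk, -, hLk⟩ := hk
  let A : merInf := ⟨a, es1rc_isMerInf H ha⟩
  let G : merInf := ⟨g, es1rc_isMerInf H hg⟩
  let A' : merInf := ⟨a', es1rc_isMerInf H ha'⟩
  let G' : merInf := ⟨g', es1rc_isMerInf H hg'⟩
  let Ak : merInf := ⟨ak, es1rc_isMerInf H hak⟩
  let Gk : merInf := ⟨gk, es1rc_isMerInf H hgk⟩
  have hLA : laurentExp A = coeffMap embC (u : LaurentSeries (AlgebraicClosure ℚ)) * laurentExp G :=
    hL.symm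
  have hLA' : laurentExp A' =
      coeffMap embC (u' : LaurentSeries (AlgebraicClosure ℚ)) * laurentExp G' := hL'.symm
  have hLAk : laurentExp Ak =
      coeffMap embC (k : LaurentSeries (AlgebraicClosure ℚ)) * laurentExp Gk := hLk.symm
  have hrelL : coeffMap embC (u' : LaurentSeries (AlgebraicClosure ℚ)) ^ n =
      algebraMap ℂ (LaurentSeries ℂ) (embC c₀) *
        coeffMap embC (u : LaurentSeries (AlgebraicClosure ℚ)) ^ m *
        coeffMap embC (k : LaurentSeries (AlgebraicClosure ℚ)) ^ (m * n) := by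
    have h1 := congrArg (fun x : fieldBar L M H =>
      ((iotaH L M H x : fieldC ℂ L M H) : LaurentSeries ℂ)) hrel
    simp only [map_mul, map_pow] at h1
    rw [iotaH_algebraMap] at h1
    exact h1
  have key : A' ^ n * G ^ m * Gk ^ (m * n) =
      algebraMap ℂ merInf (embC c₀) * (A ^ m * Ak ^ (m * n) * G' ^ n) := by
    apply laurentExp_injective
    simp only [map_mul, map_pow, AlgHom.commutes]
    rw [hLA, hLA', hLAk, mul_pow, hrelL]
    ring
  have h2 := congrArg (fun f : merInf => (f : ℍ → ℂ) τ) key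
  simpa [A, G, A', G', Ak, Gk, Algebra.algebraMap_eq_smul_one] using h2

/-! ### `MuUniqueH` -/

theorem es1g1u_muUniqueH (hML : M ∣ L) : MuUniqueH L M H := by
  rintro n m hn hm x χ χ' ⟨u, a, g, R, hK, hF, hroot, rfl⟩ ⟨u', a', g', R', hK', hF', hroot', rfl⟩
  have hN : m * n ≠ 0 := Nat.mul_ne_zero hm.ne' hn.ne'
  have hK1 : KummerRel (m * n) x (u ^ m) := hK.pow_left m
  have hK2 : KummerRel (m * n) x (u' ^ n) := by
    have := hK'.pow_left n
    rwa [Nat.mul_comm] at this
  obtain ⟨k, c, hk0, hc0, hcord, hrel⟩ := hK1.exists_eq_mul_pow hK2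
  obtain ⟨c₀, rfl⟩ := es1g1u_const_of_ord_eq_zero H hML c hcord
  obtain ⟨ak, gk, hFk⟩ := es1g1u_exists_isAnFracH H hML k
  have hc₀ : embC c₀ ≠ 0 := by
    intro h
    apply hc0
    rw [(map_eq_zero embC).mp h, map_zero]
  obtain ⟨c₂, hc₂⟩ := IsAlgClosed.exists_pow_nat_eq (embC c₀) (Nat.pos_of_ne_zero hN)
  have hc₂0 : c₂ ≠ 0 := by
    rintro rfl
    rw [zero_pow hN] at hc₂
    exact hc₀ hc₂.symm
  have ha0 : a ≠ 0 := hF.a_ne_zero hK.ne_zero
  have hak0 : ak ≠ 0 := hFk.a_ne_zero hk0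
  have hma := hF.1.mdiff
  have hmg' := hF'.2.1.mdiff
  have hmak := hFk.1.mdiff
  have hmgk := hFk.2.1.mdiff
  have hmb : MDiff (fun τ => c₂ * ak τ) := mdifferentiable_const.mul hmak
  have hb0 : (fun τ => c₂ * ak τ) ≠ 0 := by
    intro h
    apply hak0
    funext τ
    have := congrFun h τ
    simp only [Pi.zero_apply] at this ⊢
    exact (mul_eq_zero.mp this).resolve_left hc₂0
  let Dk : RootData (gammaH L M H) (m * n) :=
    RootData.ofInvariant (m * n) hN (fun τ => c₂ * ak τ) gk hmb hmgk hb0 hFk.2.2.1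
      (fun γ hγ τ => by
        rw [hFk.1.comp_smul hγ τ, hFk.2.1.comp_smul hγ τ])
  have hDk : Dk.mult = 1 := RootData.ofInvariant_mult _ _ _ _ _ _ _ _ _
  let D1 : RootData (gammaH L M H) (m * n) := R'.castDvd (m * n) hN (Dvd.intro _ rfl)
  let D2 : RootData (gammaH L M H) (m * n) :=
    (R.castDvd (m * n) hN (Dvd.intro_left _ rfl)).mul Dk
  have hD1 : D1.mult = R'.mult := RootData.castDvd_mult _ _ _ _
  have hD2 : D2.mult = R.mult := by
    show ((R.castDvd (m * n) hN (Dvd.intro_left _ rfl)).mul Dk).mult = R.mult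
    rw [RootData.mult_mul, hDk]
    ext1 γ
    rw [MonoidHom.mul_apply, MonoidHom.one_apply, mul_one, RootData.castDvd_mult]
  have hkey : ∀ τ : ℍ, (D1.a τ * D2.g τ) ^ (m * n) = (D2.a τ * D1.g τ) ^ (m * n) := by
    have hC : MDiff (fun τ => g' τ ^ n * a τ ^ m) := (hmg'.pow n).mul (hma.pow m)
    have hC0 : (fun τ => g' τ ^ n * a τ ^ m) ≠ 0 :=
      mdiff_mul_ne_zero (F := fun τ => g' τ ^ n) (G := fun τ => a τ ^ m) (hmg'.pow n)
        (hma.pow m) (mu_mdiff_pow_ne_zero hmg' hF'.2.2.1 n) (mu_mdiff_pow_ne_zero hma ha0 m)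
    have hFm : MDiff (fun τ => (D1.a τ * D2.g τ) ^ (m * n)) :=
      (D1.mdiff_a.mul D2.mdiff_g).pow (m * n)
    have hGm : MDiff (fun τ => (D2.a τ * D1.g τ) ^ (m * n)) :=
      (D2.mdiff_a.mul D1.mdiff_g).pow (m * n)
    refine mdiff_mul_right_cancel hFm hGm hC hC0 fun τ => ?_
    exact mu_root_identity (hroot τ) (hroot' τ) (es1g1u_anFrac_rel c₀ hrel hF hF' hFk τ) hc₂
  have hmult : R'.mult = R.mult := by
    rw [← hD1, ← hD2]
    exact RootData.mult_eq_of_pow_eq D1 D2 hkey
  unfold RootData.multAdd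
  rw [hmult]

end Fermat.Agent.ES1

end
end ZBES1_012_9

/-! ### bundled: `Fermat.Agent.ES1.G1.MuHeckeH` -/
section ZBES1_012_10

/-!
# ES₁ / G1-HKb, assembly — Hecke-equivariance of the multiplier map (helper82)

`es1g1h_muHeckeH_of_cross hML : (∀ ℓ, ℓ.Prime → ¬ ℓ ∣ L → StmtHKbCross L M H ℓ) → MuHeckeH L M H hML`:
`μ (T_ℓ x) = heckeGrp ℓ (μ x)` for the primes `ℓ ∤ L`.

Proof (fork of `ES/MuHecke.lean`).  `u' = N_α (β u)` is a Kummer function of `T_ℓ x` (HKa,
`es1h_kummerRel_hecke`, with `Es1hFin` from `es1hFin_all`).  Write `u' = a' / g'` with `a'`, `g'`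
modular functions for `Γ` (`es1rc_exists_frac`); by the seam `StmtHKbCross` (HKb-NORM, helper81)
`a' · hProd g = g' · hProd a`; the root datum `es1g1hRoot R` (`w' = hProd w`) satisfies
`w'ⁿ = a' / g'` (`es1g1hProd_rel`), and its multiplier is `heckeGrp ℓ χ` (`es1g1hRoot_multAdd`).
-/

set_option autoImplicit false

noncomputable section

namespace Fermat.Agent.ES1

open ModularCurve AlgebraicCurve CongruenceSubgroup UpperHalfPlane
open Fermat.Agent.ES Fermat.Agent.S24 Fermat.Agent.S28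
open scoped MatrixGroups Manifold

variable {L M : ℕ} [NeZero L] [NeZero M] {H : Subgroup (ZMod M)ˣ}

/-- **(H) for one prime**, from the seam `StmtHKbCross`. -/
theorem es1g1h_muRelH_hecke (hML : M ∣ L) (ℓ : ℕ) [NeZero ℓ]
    (hcross : StmtHKbCross L M H ℓ) {n : ℕ} {x : JH L M H} {χ : CharGrpH L M H}
    (h : MuRelH L M H n x χ) :
    MuRelH L M H n (es1hHecke L M H ℓ x) (heckeGrp L M H ℓ hML χ) := by
  obtain ⟨u, a, g, R, hK, ⟨ha, hg, hg0, hq⟩, hroot, hχ⟩ := h
  -- the Kummer function of `T_ℓ x`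
  have hF : Es1hFin L M H := es1hFin_all (NeZero.ne L) hML
  have hF' : Es1hFin (L * ℓ) M H :=
    es1hFin_all (mul_ne_zero (NeZero.ne L) (NeZero.ne ℓ)) (hML.mul_right ℓ)
  have hK' : KummerRel n (es1hHecke L M H ℓ x) (es1hNormFun L M H ℓ u) :=
    es1h_kummerRel_hecke hF hF' hK
  -- a fraction for `u'`
  obtain ⟨a', g', ha', hg', hg'0, hq'⟩ :=
    es1rc_exists_frac H (coeffMap_embC_mem_fieldC L M H (es1hNormFun L M H ℓ u).2)
  have hg'ne : g' ≠ 0 := by
    rintro rfl
    exact hg'0 laurentOf_zero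
  -- a section
  obtain ⟨rep, hrep⟩ : ∃ rep : gammaH L M H ⧸ subLevel L M H ℓ → gammaH L M H,
      ∀ q, ((rep q : gammaH L M H) : gammaH L M H ⧸ subLevel L M H ℓ) = q :=
    ⟨Quotient.out, Quotient.out_eq'⟩
  -- `a' · hProd g = g' · hProd a`
  have hcr := hcross rep hrep u a g ⟨ha, hg, hg0, hq⟩ a' g' ha' hg' hq'
  -- the root
  have hrootP := es1g1hProd_rel (L := L) (M := M) (H := H) (ℓ := ℓ) rep hroot
  have hmda' : MDiff a' := ha'.mdiff
  have hmdg' : MDiff g' := hg'.mdiff
  have hmdg : MDiff g := hg.mdiff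
  have hmdRa : MDiff (es1g1hProd L M H ℓ rep R.a) := es1g1h_mdiff_prod rep R.mdiff_a
  have hmdRg : MDiff (es1g1hProd L M H ℓ rep R.g) := es1g1h_mdiff_prod rep R.mdiff_g
  have hmdPg : MDiff (es1g1hProd L M H ℓ rep g) := es1g1h_mdiff_prod rep hmdg
  have hPg0 : es1g1hProd L M H ℓ rep g ≠ 0 := es1g1h_prod_ne_zero rep hmdg hg0
  have hfin : ∀ τ : ℍ, es1g1hProd L M H ℓ rep R.a τ ^ n * g' τ
      = a' τ * es1g1hProd L M H ℓ rep R.g τ ^ n := by
    refine mdiff_mul_right_cancel (F := fun τ => es1g1hProd L M H ℓ rep R.a τ ^ n * g' τ)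
      (G := fun τ => a' τ * es1g1hProd L M H ℓ rep R.g τ ^ n)
      ((hmdRa.pow n).mul hmdg') (hmda'.mul (hmdRg.pow n)) hmdPg hPg0 fun τ => ?_
    have h1 := hrootP τ
    have h2 := hcr τ
    show es1g1hProd L M H ℓ rep R.a τ ^ n * g' τ * es1g1hProd L M H ℓ rep g τ
      = a' τ * es1g1hProd L M H ℓ rep R.g τ ^ n * es1g1hProd L M H ℓ rep g τ
    linear_combination g' τ * h1 - es1g1hProd L M H ℓ rep R.g τ ^ n * h2
  -- assembly
  refine ⟨es1hNormFun L M H ℓ u, a', g', es1g1hRoot hML rep hrep R, hK',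
    ⟨ha', hg', hg'ne, hq'⟩, hfin, ?_⟩
  rw [es1g1hRoot_multAdd, hχ]

/-- **(H): Hecke-equivariance of the multiplier relation**, from the seam `StmtHKbCross`. -/
theorem es1g1h_muHeckeH_of_cross (hML : M ∣ L)
    (hcross : ∀ (ℓ : ℕ) [NeZero ℓ], ℓ.Prime → ¬ ℓ ∣ L → StmtHKbCross L M H ℓ) :
    MuHeckeH L M H hML := by
  intro ℓ _ hℓ hℓL n _ x χ h
  exact es1g1h_muRelH_hecke hML ℓ (hcross ℓ hℓ hℓL) h

end Fermat.Agent.ES1

end
end ZBES1_012_10

/-! ### bundled: `Fermat.Agent.ES1.G1.HKbFinal` -/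
section ZBES1_012_11

/-!
# ES₁ / G1, piece HKb, final (helper81): `MuHeckeH L M H hML`, unconditionally

`es1g1hkb_muHeckeH hML : MuHeckeH L M H hML` — the multiplier map is Hecke-equivariant,
`μ (T_ℓ x) = heckeGrp ℓ (μ x)` for the primes `ℓ ∤ L`.

Inputs: the degree `[F_{Lℓ} : F_L] = ℓ + 1` (`G2.stmtDegH_of_diamond`, from F3-conj
`stmtDiamondH`), HKb-NORM (`stmtHKbCross_of_degH`), HKb-MULT and the assembly
(`es1g1h_muHeckeH_of_cross`, helper82).
-/

set_option autoImplicit false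

noncomputable section

namespace Fermat.Agent.ES1

open CongruenceSubgroup
open scoped MatrixGroups

/-- the degree `[F_{Lℓ} : F_L] = ℓ + 1`, unconditionally -/
theorem es1g1hkb_stmtDegH : G2.StmtDegH := G2.stmtDegH_of_diamond stmtDiamondH

/-- **HKb-NORM**, unconditionally -/
theorem es1g1hkb_stmtHKbCross {L M : ℕ} [NeZero L] [NeZero M] (H : Subgroup (ZMod M)ˣ)
    {ℓ : ℕ} [NeZero ℓ] (hML : M ∣ L) (hℓ : ℓ.Prime) (hℓL : ¬ ℓ ∣ L) :
    StmtHKbCross L M H ℓ :=
  stmtHKbCross_of_degH H es1g1hkb_stmtDegH hML hℓ hℓL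

/-- **(H): Hecke-equivariance of the multiplier map.** -/
theorem es1g1hkb_muHeckeH {L M : ℕ} [NeZero L] [NeZero M] (H : Subgroup (ZMod M)ˣ)
    (hML : M ∣ L) : MuHeckeH L M H hML :=
  es1g1h_muHeckeH_of_cross hML fun _ _ hℓ hℓL => es1g1hkb_stmtHKbCross H hML hℓ hℓL

end Fermat.Agent.ES1

end
end ZBES1_012_11

/-! ### bundled: `Fermat.Agent.ES1.InjInstFinal` -/
section ZBES1_012_12

/-!
# ES₁/INJ₁-inst: (INJ₁) from (INJ₁-KD) and (F3-conj) alone

`stmtINJHAll_of_kd_diamond : StmtKDLift → StmtDiamondH → StmtINJHAll`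
(the ramification input F4 = `stmtRamJH` is proved in `ES1/RealFinal.lean`).
-/

set_option autoImplicit false

namespace Fermat.Agent.ES1

/-- **(INJ₁)** from the key-data lift (INJ₁-KD) and the diamond automorphisms (F3-conj). -/
theorem stmtINJHAll_of_kd_diamond (hKD : StmtKDLift) (hD : StmtDiamondH) : StmtINJHAll :=
  stmtINJHAll_of hKD hD stmtRamJH

end Fermat.Agent.ES1


end ZBES1_012_12

/-! ### bundled: `Fermat.Agent.RT.K6.AuxLevel` -/
section ZBES1_012_13

/-!
# RT-K6 / AUX (helper94): (χ-J) at the rigid levels `4 ∣ L` implies (χ-J) at all levels,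
for exponents prime to `6`

`F_H(L) = fieldBar L M H ⊆ F_H(L ℓ₀) = fieldBar (L * ℓ₀) M H` (subfields of `ℚ̄((q))`),
`φ = es1hAlpha L M H ℓ₀` the inclusion, `ℓ₀` a prime.

* `rtk6aux_relfinrank` : `[F_H(L ℓ₀) : F_H(L)] = ℓ₀` if `ℓ₀ ∣ L`, `= ℓ₀ + 1` otherwise
  (Igusa's degree theorem and `StmtRelDegH`);
* `rtk6aux_intertwines_gal`, `rtk6aux_intertwines_diamond` : `φ` intertwines the arithmetic Galois
  action and the diamonds `δ_c` of the two levels;
* `ChiJAt L M H r m` : the statement (χ-J) of `RT/K6/Plan.lean` at one level and one exponent;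
* `rtk6aux_step` : `ChiJAt (L ℓ₀) M H r m → ChiJAt L M H r m` for a prime `ℓ₀ ≠ r` with `m` prime
  to `ℓ₀ (ℓ₀ + 1)`;
* `rtk6aux_four` : `ChiJAt (L * 2 * 2) M H r m → ChiJAt L M H r m` for `r ≠ 2`, `gcd (m, 6) = 1`;
* `stmtAux : StmtChiJRigid → StmtChiJ6` : **AUX**.  `StmtChiJRigid` is `StmtChiJ` restricted to
  the levels with `4 ∣ L`; `StmtChiJ6` is `StmtChiJ` for `r ≠ 2` and the exponents prime to `6`
  (the K-machine needs `m = pⁿ`, `p ≥ 5`, and odd primes `r`).
-/

set_option autoImplicit false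
set_option linter.unusedSectionVars false
set_option linter.style.haveILetI false

noncomputable section

open AlgebraicCurve AlgebraicCurve.SemilinearAut Module ModularCurve IntermediateField

namespace Fermat.Agent.RT.K6

open Fermat.Agent.ES Fermat.Agent.ES1 Fermat.Agent.ES1.G2 Fermat.Agent.W1 Fermat.Agent.STB
  Fermat.Agent.S15.LD

/-! ## The degree -/

/-- Igusa + tower law: `[F₀(N ℓ) : F₀(N)] = ℓ` for a prime `ℓ ∣ N` (over `ℚ̄`). -/
theorem rtk6aux_relfinrank_bar_dvd (N ℓ : ℕ) [NeZero N] [NeZero ℓ] (hℓ : ℓ.Prime)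
    (hℓN : ℓ ∣ N) :
    (modularFunctionFieldBar N).relfinrank (modularFunctionFieldBar (N * ℓ)) = ℓ := by
  show (laurentBaseChange (AlgebraicClosure ℚ) (modularFunctionFieldFull N)).relfinrank
    (laurentBaseChange (AlgebraicClosure ℚ) (modularFunctionFieldFull (N * ℓ))) = ℓ
  rw [Fermat.Agent.ES.G2.hdeg_laurentBaseChange_full,
    Fermat.Agent.ES.G2.hdeg_laurentBaseChange_full]
  have hN : ((N : ℕ) : AlgebraicClosure ℚ) ≠ 0 := Nat.cast_ne_zero.mpr (NeZero.ne N)
  have hNℓ : ((N * ℓ : ℕ) : AlgebraicClosure ℚ) ≠ 0 := Nat.cast_ne_zero.mpr (NeZero.ne (N * ℓ))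
  have h1 := Fermat.Agent.S28.relfinrank_full_eq_dedekindPsi (AlgebraicClosure ℚ) N hN
  have h2 := Fermat.Agent.S28.relfinrank_full_eq_dedekindPsi (AlgebraicClosure ℚ) (N * ℓ) hNℓ
  have hle1 : adjoin (AlgebraicClosure ℚ) {jqModC (AlgebraicClosure ℚ)} ≤
      modularFunctionFieldFullC (AlgebraicClosure ℚ) N :=
    Fermat.Agent.S28.UB.K0_le_full (AlgebraicClosure ℚ) N
  have hle2 : modularFunctionFieldFullC (AlgebraicClosure ℚ) N ≤
      modularFunctionFieldFullC (AlgebraicClosure ℚ) (N * ℓ) :=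
    Fermat.Agent.S28.UB.full_mono (AlgebraicClosure ℚ) (Dvd.intro _ rfl)
  have h3 := relfinrank_mul_relfinrank hle1 hle2
  have hψ : dedekindPsi (N * ℓ) = ℓ * dedekindPsi N := by
    rw [Nat.mul_comm]
    exact Fermat.Agent.S28.UB.psi_mul_of_dvd hℓ hℓN (NeZero.ne N)
  rw [h1, h2, hψ] at h3
  have hpos : dedekindPsi N ≠ 0 := by
    intro h0
    rw [h0] at h1
    have hfin := Fermat.Agent.S28.relrank_full_lt_aleph0_of_ne_zero (AlgebraicClosure ℚ) N hN
    have hne := Fermat.Agent.S28.UB.relrank_ne_zero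
      (adjoin (AlgebraicClosure ℚ) {jqModC (AlgebraicClosure ℚ)})
      (modularFunctionFieldFullC (AlgebraicClosure ℚ) N)
    rw [relfinrank_eq_toNat_relrank, Cardinal.toNat_eq_zero] at h1
    rcases h1 with h1 | h1
    · exact hne h1
    · exact absurd hfin (not_lt.mpr h1)
  have h4 : dedekindPsi N * (modularFunctionFieldFullC (AlgebraicClosure ℚ) N).relfinrank
      (modularFunctionFieldFullC (AlgebraicClosure ℚ) (N * ℓ)) = dedekindPsi N * ℓ := by
    rw [h3, Nat.mul_comm]
  exact Nat.eq_of_mul_eq_mul_left (Nat.pos_of_ne_zero hpos) h4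

/-- `[F₀(N ℓ) : F₀(N)]` for a prime `ℓ` -/
theorem rtk6aux_relfinrank_bar (N ℓ : ℕ) [NeZero N] [NeZero ℓ] (hℓ : ℓ.Prime) :
    (modularFunctionFieldBar N).relfinrank (modularFunctionFieldBar (N * ℓ)) =
      if ℓ ∣ N then ℓ else ℓ + 1 := by
  split_ifs with h
  · exact rtk6aux_relfinrank_bar_dvd N ℓ hℓ h
  · exact Fermat.Agent.ES.G2.hdeg_relfinrank N ℓ hℓ h

variable (L M : ℕ) (H : Subgroup (ZMod M)ˣ)

/-- **the relative degree of `F_H(L ℓ)` over `F_H(L)`**, `ℓ` a prime -/
theorem rtk6aux_relfinrank (ℓ : ℕ) (hL : L ≠ 0) (hML : M ∣ L) (hℓ : ℓ.Prime) :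
    (fieldBar L M H).relfinrank (fieldBar (L * ℓ) M H) = if ℓ ∣ L then ℓ else ℓ + 1 := by
  have : NeZero L := ⟨hL⟩
  have : NeZero ℓ := ⟨hℓ.ne_zero⟩
  obtain ⟨d, hd0, hd⟩ := stmtRelDegH_of_diamond stmtDiamondH M H
  have h1 := hd L hL hML
  have h2 := hd (L * ℓ) (Nat.mul_ne_zero hL hℓ.ne_zero) (Dvd.dvd.mul_right hML ℓ)
  have h0 := rtk6aux_relfinrank_bar L ℓ hℓ
  have t1 := IntermediateField.relfinrank_mul_relfinrank
    (Fermat.Agent.ES.G2.hdeg_bar_le L ℓ) (dlh_bar_le_fieldBar (L * ℓ) M H)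
  have t2 := IntermediateField.relfinrank_mul_relfinrank
    (dlh_bar_le_fieldBar L M H) (es1h_fieldBar_mono M H (dvd_mul_right L ℓ))
  rw [h0, h2] at t1
  rw [h1, ← t1, mul_comm] at t2
  exact Nat.eq_of_mul_eq_mul_right (Nat.pos_of_ne_zero hd0) t2

/-- the degree along the inclusion -/
theorem rtk6aux_finrankAlong (ℓ : ℕ) (hL : L ≠ 0) (hML : M ∣ L) (hℓ : ℓ.Prime) :
    finrankAlong QbH (es1hAlpha L M H ℓ) = if ℓ ∣ L then ℓ else ℓ + 1 := by
  have h := Fermat.Agent.ES.G2.hdeg_finrank_inclusion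
    (es1h_fieldBar_mono M H (dvd_mul_right L ℓ))
  rw [rtk6aux_relfinrank L M H ℓ hL hML hℓ] at h
  exact h

/-! ## The inclusion intertwines Galois and the diamonds -/

theorem rtk6aux_intertwines_gal (ℓ : ℕ) (σ : QbH ≃ₐ[ℚ] QbH) :
    IntertwinesAlong ((es1hAlpha L M H ℓ : _ →ₐ[QbH] _) : fieldBar L M H →+* fieldBar (L * ℓ) M H)
      (arithmeticGalois (fieldQ L M H) σ) (arithmeticGalois (fieldQ (L * ℓ) M H) σ) := by
  intro x
  apply Subtype.ext
  show coeffMap (σ : QbH →+* QbH) ((es1hAlpha L M H ℓ x : _) : LaurentSeries QbH)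
    = ((es1hAlpha L M H ℓ (arithmeticGalois (fieldQ L M H) σ • x) : _) : LaurentSeries QbH)
  rw [coe_es1hAlpha, coe_es1hAlpha, coe_arithmeticGalois_smul]

variable {L M H}

theorem rtk6aux_diamond_comm (ℓ : ℕ) {c : (ZMod M)ˣ}
    {δ : fieldBar L M H ≃ₐ[QbH] fieldBar L M H}
    {δ' : fieldBar (L * ℓ) M H ≃ₐ[QbH] fieldBar (L * ℓ) M H}
    (h : IsDiamondH L M H c δ) (h' : IsDiamondH (L * ℓ) M H c δ') (x : fieldBar L M H) :
    δ' (es1hAlpha L M H ℓ x) = es1hAlpha L M H ℓ (δ x) := by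
  have key : (δ' : fieldBar (L * ℓ) M H →ₐ[QbH] fieldBar (L * ℓ) M H).comp (es1hAlpha L M H ℓ)
      = (es1hAlpha L M H ℓ).comp (δ : fieldBar L M H →ₐ[QbH] fieldBar L M H) := by
    refine IntermediateField.algHom_ext_of_eq_adjoin QbH (es1f_fieldBar_eq L M H) ?_
    intro y hyS
    have hmem : y ∈ fieldBar L M H := by
      rw [es1f_fieldBar_eq L M H]
      exact IntermediateField.subset_adjoin _ _ hyS
    show δ' (es1hAlpha L M H ℓ ⟨y, hmem⟩) = es1hAlpha L M H ℓ (δ ⟨y, hmem⟩)
    apply Subtype.ext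
    rcases hyS with ⟨d, hd, hdL, hy⟩ | ⟨e, he, a, heL, hy⟩
    · have e1 := h.fix_j d hdL ⟨y, hmem⟩ hy
      have e2 := h'.fix_j d (hdL.trans (dvd_mul_right L ℓ)) (es1hAlpha L M H ℓ ⟨y, hmem⟩)
        (by rw [coe_es1hAlpha]; exact hy)
      rw [e1, e2]
    · have e1 := h.map_s e a heL ⟨y, hmem⟩ hy
      have e2 := h'.map_s e a (heL.trans (dvd_mul_right L ℓ)) (es1hAlpha L M H ℓ ⟨y, hmem⟩)
        (by rw [coe_es1hAlpha]; exact hy)
      rw [e2, coe_es1hAlpha, e1]
  exact congrArg (fun φ : fieldBar L M H →ₐ[QbH] fieldBar (L * ℓ) M H => φ x) key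

theorem rtk6aux_intertwines_diamond (ℓ : ℕ) {c : (ZMod M)ˣ}
    {δ : fieldBar L M H ≃ₐ[QbH] fieldBar L M H}
    {δ' : fieldBar (L * ℓ) M H ≃ₐ[QbH] fieldBar (L * ℓ) M H}
    (h : IsDiamondH L M H c δ) (h' : IsDiamondH (L * ℓ) M H c δ') :
    IntertwinesAlong ((es1hAlpha L M H ℓ : _ →ₐ[QbH] _) : fieldBar L M H →+* fieldBar (L * ℓ) M H)
      (SemilinearAut.ofAlgAut δ) (SemilinearAut.ofAlgAut δ') := by
  intro x
  rw [ofAlgAut_smul, ofAlgAut_smul]
  exact rtk6aux_diamond_comm ℓ h h' x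

/-! ## (χ-J) at one level -/

variable (L M H)

/-- **(χ-J)** at the level `(L; M, H)`, the prime `r` and the exponent `m` -/
def ChiJAt (r m : ℕ) : Prop :=
  ∀ A : ValuationSubring QbH, A.LiesOverPrime r →
    ∀ σ ∈ A.inertiaSubgroupIn ℚ, ∀ c : (ZMod M)ˣ, IsCycAt M r σ c →
    ∀ δ : fieldBar L M H ≃ₐ[QbH] fieldBar L M H, IsDiamondH L M H c δ →
      ∀ x : JH L M H, m • x = 0 →
        σ • diamondJ δ (σ • x) - σ • x - diamondJ δ (σ • x) + x = 0

/-- the expression of (χ-J) is the abstract operator -/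
theorem rtk6aux_chi_eq (σ : QbH ≃ₐ[ℚ] QbH) (δ : fieldBar L M H ≃ₐ[QbH] fieldBar L M H)
    (x : JH L M H) :
    σ • diamondJ δ (σ • x) - σ • x - diamondJ δ (σ • x) + x =
      rtk6auxChi (arithmeticGalois (fieldQ L M H) σ) (SemilinearAut.ofAlgAut δ) x := rfl

/-- **AUX, one prime step**: (χ-J) descends from the level `L ℓ₀` to the level `L`, for a prime
`ℓ₀` and exponents prime to the degree. -/
theorem rtk6aux_step (r m ℓ₀ : ℕ) (hL : L ≠ 0) (hML : M ∣ L) (hℓ₀ : ℓ₀.Prime)
    (hm : Nat.Coprime m (if ℓ₀ ∣ L then ℓ₀ else ℓ₀ + 1))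
    (h : ChiJAt (L * ℓ₀) M H r m) : ChiJAt L M H r m := by
  intro A hA σ hσ c hc δ hδ x hx
  have hL' : L * ℓ₀ ≠ 0 := Nat.mul_ne_zero hL hℓ₀.ne_zero
  have hML' : M ∣ L * ℓ₀ := Dvd.dvd.mul_right hML ℓ₀
  obtain ⟨δ', hδ'⟩ := stmtDiamondBarH_of_diamond stmtDiamondH (L * ℓ₀) M H hL' hML' c
  have hF : Es1hFin L M H := es1hFin_all hL hML
  have hF' : Es1hFin (L * ℓ₀) M H := es1hFin_all hL' hML'
  haveI : HasPrincipalDivisors QbH (fieldBar (L * ℓ₀) M H) := es1h_hasPrincipalDivisors hF'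
  have hφ := es1h_integral (es1hAlpha L M H ℓ₀) hF hF'
  have hfin := es1h_finiteAlong (es1hAlpha L M H ℓ₀) hF hF'
  rw [rtk6aux_chi_eq]
  refine rtk6aux_abs (es1h_residue_bijective hF) (es1h_residue_bijective hF')
    (es1hAlpha L M H ℓ₀) hφ (es1h_fundamentalIdentityAlong (es1hAlpha L M H ℓ₀) hF hF')
    hfin (es1h_normFormulaAlong (es1hAlpha L M H ℓ₀) hF hF')
    (rtk6aux_intertwines_gal L M H ℓ₀ σ) (rtk6aux_intertwines_diamond ℓ₀ hδ hδ') m ?_ ?_ x hx
  · rw [rtk6aux_finrankAlong L M H ℓ₀ hL hML hℓ₀]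
    exact hm
  · intro y hy
    rw [← rtk6aux_chi_eq]
    exact h A hA σ hσ c hc δ' hδ' y hy

/-- **AUX, two steps**: from the level `4 L` to the level `L`, exponents prime to `6`. -/
theorem rtk6aux_four (r m : ℕ) (hL : L ≠ 0) (hML : M ∣ L) (hm : Nat.Coprime m 6)
    (h : ChiJAt (L * 2 * 2) M H r m) : ChiJAt L M H r m := by
  have h2 : Nat.Coprime m 2 := Nat.Coprime.coprime_dvd_right (by norm_num : 2 ∣ 6) hm
  have h3 : Nat.Coprime m 3 := Nat.Coprime.coprime_dvd_right (by norm_num : 3 ∣ 6) hm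
  have hc : ∀ L' : ℕ, Nat.Coprime m (if 2 ∣ L' then 2 else 2 + 1) := by
    intro L'
    split_ifs
    · exact h2
    · exact h3
  refine rtk6aux_step L M H r m 2 hL hML Nat.prime_two (hc L) ?_
  exact rtk6aux_step (L * 2) M H r m 2 (Nat.mul_ne_zero hL two_ne_zero)
    (Dvd.dvd.mul_right hML 2) Nat.prime_two (hc (L * 2)) h

/-- **AUX, general auxiliary level** `2 ^ a * 3 ^ b`, exponents prime to `6`. -/
theorem rtk6aux_pow (r m : ℕ) (hm : Nat.Coprime m 6) (a b : ℕ) :
    ∀ L : ℕ, L ≠ 0 → M ∣ L → ChiJAt (L * 2 ^ a * 3 ^ b) M H r m → ChiJAt L M H r m := by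
  have h2 : Nat.Coprime m 2 := Nat.Coprime.coprime_dvd_right (by norm_num : 2 ∣ 6) hm
  have h3 : Nat.Coprime m 3 := Nat.Coprime.coprime_dvd_right (by norm_num : 3 ∣ 6) hm
  have h4 : Nat.Coprime m 4 := by
    have : (4 : ℕ) = 2 ^ 2 := by norm_num
    rw [this]
    exact Nat.Coprime.pow_right 2 h2
  have hc2 : ∀ L' : ℕ, Nat.Coprime m (if 2 ∣ L' then 2 else 2 + 1) := by
    intro L'
    split_ifs
    · exact h2
    · exact h3
  have hc3 : ∀ L' : ℕ, Nat.Coprime m (if 3 ∣ L' then 3 else 3 + 1) := by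
    intro L'
    split_ifs
    · exact h3
    · exact h4
  induction b with
  | zero =>
    induction a with
    | zero =>
      intro L _ _ h
      simpa using h
    | succ a iha =>
      intro L hL hML h
      refine rtk6aux_step L M H r m 2 hL hML Nat.prime_two (hc2 L) ?_
      refine iha (L * 2) (Nat.mul_ne_zero hL two_ne_zero) (Dvd.dvd.mul_right hML 2) ?_
      have e : L * 2 * 2 ^ a * 3 ^ 0 = L * 2 ^ (a + 1) * 3 ^ 0 := by ring
      rw [e]
      exact h
  | succ b ihb =>
    intro L hL hML h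
    refine rtk6aux_step L M H r m 3 hL hML Nat.prime_three (hc3 L) ?_
    refine ihb (L * 3) (Nat.mul_ne_zero hL three_ne_zero) (Dvd.dvd.mul_right hML 3) ?_
    have e : L * 3 * 2 ^ a * 3 ^ b = L * 2 ^ a * 3 ^ (b + 1) := by ring
    rw [e]
    exact h

/-! ## The statement of the piece -/

/-- (χ-J) at the rigid levels: `StmtChiJ` of `RT/K6/Plan.lean` with the extra hypothesis
`4 ∣ L` (no elliptic points). -/
def StmtChiJRigid : Prop :=
  ∀ (L M : ℕ) (H : Subgroup (ZMod M)ˣ) (r : ℕ), L ≠ 0 → M ∣ L → r.Prime → r ∣ M → ¬ r ^ 2 ∣ L →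
    IsStarStable M r H → 4 ∣ L →
    ∀ A : ValuationSubring QbH, A.LiesOverPrime r →
      ∀ m : ℕ, ¬ r ∣ m →
        ∀ σ ∈ A.inertiaSubgroupIn ℚ, ∀ c : (ZMod M)ˣ, IsCycAt M r σ c →
        ∀ δ : fieldBar L M H ≃ₐ[QbH] fieldBar L M H, IsDiamondH L M H c δ →
          ∀ x : JH L M H, m • x = 0 →
            σ • diamondJ δ (σ • x) - σ • x - diamondJ δ (σ • x) + x = 0

/-- (χ-J) for odd `r` and exponents prime to `6`: what the K-machine consumes
(`m = pⁿ`, `p ≥ 5`). -/
def StmtChiJ6 : Prop :=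
  ∀ (L M : ℕ) (H : Subgroup (ZMod M)ˣ) (r : ℕ), L ≠ 0 → M ∣ L → r.Prime → r ∣ M → ¬ r ^ 2 ∣ L →
    IsStarStable M r H → r ≠ 2 →
    ∀ A : ValuationSubring QbH, A.LiesOverPrime r →
      ∀ m : ℕ, ¬ r ∣ m → Nat.Coprime m 6 →
        ∀ σ ∈ A.inertiaSubgroupIn ℚ, ∀ c : (ZMod M)ˣ, IsCycAt M r σ c →
        ∀ δ : fieldBar L M H ≃ₐ[QbH] fieldBar L M H, IsDiamondH L M H c δ →
          ∀ x : JH L M H, m • x = 0 →
            σ • diamondJ δ (σ • x) - σ • x - diamondJ δ (σ • x) + x = 0

/-- **AUX**: (χ-J) at the levels with `4 ∣ L` gives (χ-J) at all levels, for odd `r` and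
exponents prime to `6`. -/
theorem stmtAux : StmtChiJRigid → StmtChiJ6 := by
  intro hR L M H r hL hML hr hrM hr2 hstar hr2' A hA m hrm hm6 σ hσ c hc δ hδ x hx
  have hL4 : L * 2 * 2 ≠ 0 := Nat.mul_ne_zero (Nat.mul_ne_zero hL two_ne_zero) two_ne_zero
  have hML4 : M ∣ L * 2 * 2 := Dvd.dvd.mul_right (Dvd.dvd.mul_right hML 2) 2
  have hcop : Nat.Coprime (r ^ 2) (2 * 2) := by
    have h1 : Nat.Coprime r 2 := (Nat.coprime_primes hr Nat.prime_two).mpr hr2'
    exact Nat.Coprime.pow_left 2 (Nat.Coprime.mul_right h1 h1)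
  have hr4 : ¬ r ^ 2 ∣ L * 2 * 2 := by
    intro h
    rw [mul_assoc] at h
    exact hr2 (hcop.dvd_of_dvd_mul_right h)
  have h4 : 4 ∣ L * 2 * 2 := ⟨L, by ring⟩
  have key : ChiJAt (L * 2 * 2) M H r m := fun A' hA' σ' hσ' c' hc' δ' hδ' y hy =>
    hR (L * 2 * 2) M H r hL4 hML4 hr hrM hr4 hstar h4 A' hA' m hrm σ' hσ' c' hc' δ' hδ' y hy
  exact rtk6aux_four L M H r m hL hML hm6 key A hA σ hσ c hc δ hδ x hx

/-! ## The tame form (`RT/K6/PlanP.lean`) -/

theorem rtk6aux_isTameAt_four {L M r : ℕ} {H : Subgroup (ZMod M)ˣ} (h : IsTameAt L M r H) :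
    IsTameAt (L * 2 * 2) M r H := by
  obtain ⟨d, hd, hc⟩ := h
  refine ⟨d, ?_, hc⟩
  have h6 : Nat.Coprime d 6 := Nat.Coprime.coprime_dvd_right (Dvd.intro _ rfl) hd
  have hL : Nat.Coprime d L := Nat.Coprime.coprime_dvd_right (Dvd.intro_left _ rfl) hd
  have h2 : Nat.Coprime d 2 := Nat.Coprime.coprime_dvd_right (by norm_num : 2 ∣ 6) h6
  exact Nat.Coprime.mul_right h6 (Nat.Coprime.mul_right (Nat.Coprime.mul_right hL h2) h2)

/-- (χ-J), tame case, at the rigid levels: `StmtChiJP` of `RT/K6/PlanP.lean` with the extra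
hypothesis `4 ∣ L` (no elliptic points). -/
def StmtChiJPRigid : Prop :=
  ∀ (L M : ℕ) (H : Subgroup (ZMod M)ˣ) (r : ℕ), L ≠ 0 → M ∣ L → r.Prime → r ∣ M → ¬ r ^ 2 ∣ L →
    IsStarStable M r H → IsTameAt L M r H → 4 ∣ L →
    ∀ A : ValuationSubring QbH, A.LiesOverPrime r →
      ∀ m : ℕ, ¬ r ∣ m →
        ∀ σ ∈ A.inertiaSubgroupIn ℚ, ∀ c : (ZMod M)ˣ, IsCycAt M r σ c →
        ∀ δ : fieldBar L M H ≃ₐ[QbH] fieldBar L M H, IsDiamondH L M H c δ →
          ∀ x : JH L M H, m • x = 0 →
            σ • diamondJ δ (σ • x) - σ • x - diamondJ δ (σ • x) + x = 0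

/-- (χ-J), tame case, for odd `r` and exponents prime to `6`. -/
def StmtChiJP6 : Prop :=
  ∀ (L M : ℕ) (H : Subgroup (ZMod M)ˣ) (r : ℕ), L ≠ 0 → M ∣ L → r.Prime → r ∣ M → ¬ r ^ 2 ∣ L →
    IsStarStable M r H → IsTameAt L M r H → r ≠ 2 →
    ∀ A : ValuationSubring QbH, A.LiesOverPrime r →
      ∀ m : ℕ, ¬ r ∣ m → Nat.Coprime m 6 →
        ∀ σ ∈ A.inertiaSubgroupIn ℚ, ∀ c : (ZMod M)ˣ, IsCycAt M r σ c →
        ∀ δ : fieldBar L M H ≃ₐ[QbH] fieldBar L M H, IsDiamondH L M H c δ →
          ∀ x : JH L M H, m • x = 0 →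
            σ • diamondJ δ (σ • x) - σ • x - diamondJ δ (σ • x) + x = 0

/-- **AUX, tame form**: (χ-J) at the tame levels with `4 ∣ L` gives (χ-J) at all tame levels,
for odd `r` and exponents prime to `6`. -/
theorem stmtAuxP : StmtChiJPRigid → StmtChiJP6 := by
  intro hR L M H r hL hML hr hrM hr2 hstar htame hr2' A hA m hrm hm6 σ hσ c hc δ hδ x hx
  have hL4 : L * 2 * 2 ≠ 0 := Nat.mul_ne_zero (Nat.mul_ne_zero hL two_ne_zero) two_ne_zero
  have hML4 : M ∣ L * 2 * 2 := Dvd.dvd.mul_right (Dvd.dvd.mul_right hML 2) 2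
  have hcop : Nat.Coprime (r ^ 2) (2 * 2) := by
    have h1 : Nat.Coprime r 2 := (Nat.coprime_primes hr Nat.prime_two).mpr hr2'
    exact Nat.Coprime.pow_left 2 (Nat.Coprime.mul_right h1 h1)
  have hr4 : ¬ r ^ 2 ∣ L * 2 * 2 := by
    intro h
    rw [mul_assoc] at h
    exact hr2 (hcop.dvd_of_dvd_mul_right h)
  have h4 : 4 ∣ L * 2 * 2 := ⟨L, by ring⟩
  have key : ChiJAt (L * 2 * 2) M H r m := fun A' hA' σ' hσ' c' hc' δ' hδ' y hy =>
    hR (L * 2 * 2) M H r hL4 hML4 hr hrM hr4 hstar (rtk6aux_isTameAt_four htame) h4 A' hA' m hrm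
      σ' hσ' c' hc' δ' hδ' y hy
  exact rtk6aux_four L M H r m hL hML hm6 key A hA σ hσ c hc δ hδ x hx

/-- (χ-J), tame case, at the levels with `36 ∣ L`. -/
def StmtChiJPRigid36 : Prop :=
  ∀ (L M : ℕ) (H : Subgroup (ZMod M)ˣ) (r : ℕ), L ≠ 0 → M ∣ L → r.Prime → r ∣ M → ¬ r ^ 2 ∣ L →
    IsStarStable M r H → IsTameAt L M r H → 36 ∣ L →
    ∀ A : ValuationSubring QbH, A.LiesOverPrime r →
      ∀ m : ℕ, ¬ r ∣ m →
        ∀ σ ∈ A.inertiaSubgroupIn ℚ, ∀ c : (ZMod M)ˣ, IsCycAt M r σ c →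
        ∀ δ : fieldBar L M H ≃ₐ[QbH] fieldBar L M H, IsDiamondH L M H c δ →
          ∀ x : JH L M H, m • x = 0 →
            σ • diamondJ δ (σ • x) - σ • x - diamondJ δ (σ • x) + x = 0

/-- (χ-J), tame case, for `r ≥ 5` and exponents prime to `6`. -/
def StmtChiJP5 : Prop :=
  ∀ (L M : ℕ) (H : Subgroup (ZMod M)ˣ) (r : ℕ), L ≠ 0 → M ∣ L → r.Prime → r ∣ M → ¬ r ^ 2 ∣ L →
    IsStarStable M r H → IsTameAt L M r H → 5 ≤ r →
    ∀ A : ValuationSubring QbH, A.LiesOverPrime r →
      ∀ m : ℕ, ¬ r ∣ m → Nat.Coprime m 6 →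
        ∀ σ ∈ A.inertiaSubgroupIn ℚ, ∀ c : (ZMod M)ˣ, IsCycAt M r σ c →
        ∀ δ : fieldBar L M H ≃ₐ[QbH] fieldBar L M H, IsDiamondH L M H c δ →
          ∀ x : JH L M H, m • x = 0 →
            σ • diamondJ δ (σ • x) - σ • x - diamondJ δ (σ • x) + x = 0

theorem rtk6aux_isTameAt_36 {L M r : ℕ} {H : Subgroup (ZMod M)ˣ} (h : IsTameAt L M r H) :
    IsTameAt (L * 2 ^ 2 * 3 ^ 2) M r H := by
  obtain ⟨d, hd, hc⟩ := h
  refine ⟨d, ?_, hc⟩
  have h6 : Nat.Coprime d 6 := Nat.Coprime.coprime_dvd_right (Dvd.intro _ rfl) hd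
  have hL : Nat.Coprime d L := Nat.Coprime.coprime_dvd_right (Dvd.intro_left _ rfl) hd
  have h2 : Nat.Coprime d 2 := Nat.Coprime.coprime_dvd_right (by norm_num : 2 ∣ 6) h6
  have h3 : Nat.Coprime d 3 := Nat.Coprime.coprime_dvd_right (by norm_num : 3 ∣ 6) h6
  exact Nat.Coprime.mul_right h6 (Nat.Coprime.mul_right
    (Nat.Coprime.mul_right hL (Nat.Coprime.pow_right 2 h2)) (Nat.Coprime.pow_right 2 h3))

/-- **AUX, tame form, auxiliary level `36`**: (χ-J) at the tame levels with `36 ∣ L` gives (χ-J)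
at all tame levels, for `r ≥ 5` and exponents prime to `6`. -/
theorem stmtAuxP36 : StmtChiJPRigid36 → StmtChiJP5 := by
  intro hR L M H r hL hML hr hrM hr2 hstar htame hr5 A hA m hrm hm6 σ hσ c hc δ hδ x hx
  have hL36 : L * 2 ^ 2 * 3 ^ 2 ≠ 0 :=
    Nat.mul_ne_zero (Nat.mul_ne_zero hL (by norm_num)) (by norm_num)
  have hML36 : M ∣ L * 2 ^ 2 * 3 ^ 2 := Dvd.dvd.mul_right (Dvd.dvd.mul_right hML _) _
  have hr2' : Nat.Coprime r 2 :=
    (Nat.coprime_primes hr Nat.prime_two).mpr (by omega)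
  have hr3' : Nat.Coprime r 3 :=
    (Nat.coprime_primes hr Nat.prime_three).mpr (by omega)
  have hcop : Nat.Coprime (r ^ 2) (2 ^ 2 * 3 ^ 2) :=
    Nat.Coprime.pow_left 2 (Nat.Coprime.mul_right (Nat.Coprime.pow_right 2 hr2')
      (Nat.Coprime.pow_right 2 hr3'))
  have hr36 : ¬ r ^ 2 ∣ L * 2 ^ 2 * 3 ^ 2 := by
    intro h
    rw [mul_assoc] at h
    exact hr2 (hcop.dvd_of_dvd_mul_right h)
  have h36 : 36 ∣ L * 2 ^ 2 * 3 ^ 2 := ⟨L, by ring⟩
  have key : ChiJAt (L * 2 ^ 2 * 3 ^ 2) M H r m := fun A' hA' σ' hσ' c' hc' δ' hδ' y hy =>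
    hR (L * 2 ^ 2 * 3 ^ 2) M H r hL36 hML36 hr hrM hr36 hstar (rtk6aux_isTameAt_36 htame) h36
      A' hA' m hrm σ' hσ' c' hc' δ' hδ' y hy
  exact rtk6aux_pow M H r m hm6 2 2 L hL hML key A hA σ hσ c hc δ hδ x hx

end Fermat.Agent.RT.K6

end
end ZBES1_012_13

/-! ### bundled: `Fermat.Agent.RT.K6.FGal` -/
section ZBES1_012_14
/-
K-machine, piece K6 / F (helper66): the Galois theory of `F_H / F_{H'}` (`±H ≤ ±H'`).

`F = fieldBar L M H`, `F' = fieldBar L M H'`, `c : ι → (ℤ/M)ˣ` a system of representatives of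
`±H' / ±H`, `δ_i` the diamond `⟨c_i⟩` of `F`.

* `rtk6f_fieldBar_le`  : `F' ≤ F`;
* `rtk6fFixed`, `rtk6f_le_fixed`, `rtk6f_diamond_fix` : the diamonds `⟨g⟩`, `g ∈ ±H'`, of `F`
  fix `F'`;
* `rtk6f_relfinrank_bar`, `rtk6f_relfinrank` : `[F : F₀] = [(ℤ/M)ˣ : ±H]`, `[F : F'] = #ι`;
* `rtk6fNorm`, `rtk6f_norm_eq_prod` : `N_{F/F'} x = ∏_i δ_i x`;
* `rtk6f_dvd_ord_norm` : `n D = div u` on `F` ⇒ `n ∣ ord_v (N u)` for all places `v` of `F'`;
* `rtk6f_incl_smul`    : the inclusion commutes with the arithmetic Galois action.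
-/

set_option autoImplicit false
set_option linter.style.haveILetI false
set_option linter.unusedSectionVars false

noncomputable section

namespace Fermat.Agent.RT.K6

open ModularCurve AlgebraicCurve HahnSeries IntermediateField Fermat.Agent.ES Fermat.Agent.ES1
  Fermat.Agent.ES1.G2 Fermat.Agent.ES.G2 Fermat.Agent.S36

variable {L M : ℕ} {H H' : Subgroup (ZMod M)ˣ} {ι : Type*} [Fintype ι] {c : ι → (ZMod M)ˣ}

theorem rtk6f_fieldC_le (K : Type*) [Field K] (L : ℕ) (hc : IsRelRep H H' c) :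
    fieldC K L M H' ≤ fieldC K L M H := by
  unfold fieldC
  rw [IntermediateField.adjoin_le_iff]
  rintro x (hx | ⟨e, he, a, heL, rfl⟩)
  · exact IntermediateField.subset_adjoin K _ (Or.inl hx)
  · rw [rtk6f_sS_eq_sum K hc a, map_sum]
    exact sum_mem fun i _ => qExpand_sS_mem K L M H heL (a * c i)

theorem rtk6f_fieldBar_le (L : ℕ) (hc : IsRelRep H H' c) : fieldBar L M H' ≤ fieldBar L M H := by
  rw [es1f_fieldBar_eq, es1f_fieldBar_eq]
  exact rtk6f_fieldC_le _ L hc

theorem rtk6f_sS_mem_bar {e : ℕ} [NeZero e] (he : e * M ∣ L) (b : (ZMod M)ˣ) :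
    qExpand QbH e (sS QbH M H b) ∈ fieldBar L M H := by
  rw [es1f_fieldBar_eq]
  exact qExpand_sS_mem _ L M H he b

/-- the set of elements of `ℚ̄((q))` which lie in `F` and are fixed by `δ` -/
def rtk6fFixed (δ : fieldBar L M H ≃ₐ[QbH] fieldBar L M H) :
    IntermediateField QbH (LaurentSeries QbH) where
  carrier := {y | ∃ hy : y ∈ fieldBar L M H, δ ⟨y, hy⟩ = ⟨y, hy⟩}
  mul_mem' := by
    rintro a b ⟨ha, ha'⟩ ⟨hb, hb'⟩
    refine ⟨mul_mem ha hb, ?_⟩
    have : (⟨a * b, mul_mem ha hb⟩ : fieldBar L M H) = ⟨a, ha⟩ * ⟨b, hb⟩ := rfl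
    rw [this, map_mul, ha', hb']
  add_mem' := by
    rintro a b ⟨ha, ha'⟩ ⟨hb, hb'⟩
    refine ⟨add_mem ha hb, ?_⟩
    have : (⟨a + b, add_mem ha hb⟩ : fieldBar L M H) = ⟨a, ha⟩ + ⟨b, hb⟩ := rfl
    rw [this, map_add, ha', hb']
  algebraMap_mem' := by
    intro a
    refine ⟨(fieldBar L M H).algebraMap_mem a, ?_⟩
    have : (⟨algebraMap QbH (LaurentSeries QbH) a, (fieldBar L M H).algebraMap_mem a⟩ :
        fieldBar L M H) = algebraMap QbH (fieldBar L M H) a := rfl
    rw [this, δ.commutes]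
  inv_mem' := by
    rintro a ⟨ha, ha'⟩
    refine ⟨inv_mem ha, ?_⟩
    have : (⟨a⁻¹, inv_mem ha⟩ : fieldBar L M H) = (⟨a, ha⟩ : fieldBar L M H)⁻¹ := rfl
    rw [this, map_inv₀, ha']

theorem mem_rtk6fFixed {δ : fieldBar L M H ≃ₐ[QbH] fieldBar L M H} {y : LaurentSeries QbH} :
    y ∈ rtk6fFixed δ ↔ ∃ hy : y ∈ fieldBar L M H, δ ⟨y, hy⟩ = ⟨y, hy⟩ := Iff.rfl


/-- **the diamonds of `±H'` fix the generators of `F'`** -/
theorem rtk6f_le_fixed (hc : IsRelRep H H' c) {g : (ZMod M)ˣ} (hg : g ∈ pmH H')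
    {δ : fieldBar L M H ≃ₐ[QbH] fieldBar L M H} (hδ : IsDiamondH L M H g δ) :
    fieldBar L M H' ≤ rtk6fFixed δ := by
  rw [es1f_fieldBar_eq L M H']
  unfold fieldC
  rw [IntermediateField.adjoin_le_iff]
  rintro y (⟨d, hd, hdL, rfl⟩ | ⟨e, he, a, heL, rfl⟩)
  · have hy : qExpand QbH d (jqModC QbH) ∈ fieldBar L M H := by
      rw [es1f_fieldBar_eq]
      exact jd_mem_fieldC _ L M H hdL
    exact ⟨hy, hδ.fix_j d hdL ⟨_, hy⟩ rfl⟩
  · have hy : qExpand QbH e (sS QbH M H' a) ∈ fieldBar L M H :=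
      rtk6f_fieldBar_le L hc (rtk6f_sS_mem_bar heL a)
    refine ⟨hy, ?_⟩
    have h0 : (⟨qExpand QbH e (sS QbH M H' a), hy⟩ : fieldBar L M H)
        = ∑ i, (⟨qExpand QbH e (sS QbH M H (a * c i)), rtk6f_sS_mem_bar heL _⟩ :
          fieldBar L M H) := by
      apply Subtype.ext
      rw [IntermediateField.coe_sum]
      show qExpand QbH e (sS QbH M H' a) = ∑ i, qExpand QbH e (sS QbH M H (a * c i))
      rw [rtk6f_sS_eq_sum QbH hc a, map_sum]
    apply Subtype.ext
    rw [h0, map_sum, IntermediateField.coe_sum, IntermediateField.coe_sum]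
    have h1 : ∀ i, ((δ (⟨qExpand QbH e (sS QbH M H (a * c i)), rtk6f_sS_mem_bar heL _⟩ :
        fieldBar L M H) : fieldBar L M H) : LaurentSeries QbH)
        = qExpand QbH e (sS QbH M H (a * g * c i)) := by
      intro i
      rw [hδ.map_s e (a * c i) heL _ rfl, mul_right_comm]
    simp only [h1]
    show ∑ i, qExpand QbH e (sS QbH M H (a * g * c i))
      = ∑ i, qExpand QbH e (sS QbH M H (a * c i))
    rw [← map_sum, ← map_sum, ← rtk6f_sS_eq_sum QbH hc (a * g), ← rtk6f_sS_eq_sum QbH hc a]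
    congr 1
    refine es1f_sS_eq_of_inPM QbH ?_
    rw [rtk6f_inPM_iff, inv_mul_cancel_left]
    exact hg

theorem rtk6f_diamond_fix (hc : IsRelRep H H' c) {g : (ZMod M)ˣ} (hg : g ∈ pmH H')
    {δ : fieldBar L M H ≃ₐ[QbH] fieldBar L M H} (hδ : IsDiamondH L M H g δ)
    (x : fieldBar L M H') :
    δ (IntermediateField.inclusion (rtk6f_fieldBar_le L hc) x) =
      IntermediateField.inclusion (rtk6f_fieldBar_le L hc) x := by
  obtain ⟨hy, h⟩ := rtk6f_le_fixed hc hg hδ x.2
  exact h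


/-! ## The degree -/

theorem rtk6f_relfinrank_bar (hL : L ≠ 0) (hML : M ∣ L) (H : Subgroup (ZMod M)ˣ) :
    (modularFunctionFieldBar L).relfinrank (fieldBar L M H) = (pmH H).index := by
  have hM : M ≠ 0 := fun h => hL (by rw [h] at hML; exact Nat.eq_zero_of_zero_dvd hML)
  obtain ⟨m, a, ha⟩ := exists_isRepFam hM H
  rw [rtk6f_index_of_repFam ha, Fermat.Agent.INJ.nf_bar_eq_fullC, es1f_fieldBar_eq]
  haveI : Algebra.IsAlgebraic ℚ Fermat.Agent.INJ.NfQb := by
    have h := AlgebraicClosure.isAlgebraic ℚ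
    convert h
    · rfl
    · exact Subsingleton.elim _ _
  exact es1cu_relfinrank stmtDiamondH Fermat.Agent.INJ.NfQb L M H a hL hML ha

theorem rtk6f_relfinrank (hL : L ≠ 0) (hML : M ∣ L) (hc : IsRelRep H H' c) :
    (fieldBar L M H').relfinrank (fieldBar L M H) = Fintype.card ι := by
  have h1 := IntermediateField.relfinrank_mul_relfinrank (dlh_bar_le_fieldBar L M H')
    (rtk6f_fieldBar_le L hc)
  rw [rtk6f_relfinrank_bar hL hML H, rtk6f_relfinrank_bar hL hML H',
    ← Subgroup.relIndex_mul_index hc.le, ← rtk6f_card_of_relRep hc, mul_comm] at h1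
  exact Nat.eq_of_mul_eq_mul_right (Nat.pos_of_ne_zero Subgroup.index_ne_zero_of_finite) h1

/-! ## The norm -/

/-- the norm `F → F'` -/
def rtk6fNorm (hle : fieldBar L M H' ≤ fieldBar L M H) (x : fieldBar L M H) :
    fieldBar L M H' :=
  letI := (IntermediateField.inclusion hle).toRingHom.toAlgebra
  Algebra.norm (fieldBar L M H') x

theorem rtk6f_finite (hL : L ≠ 0) (hML : M ∣ L) (hle : fieldBar L M H' ≤ fieldBar L M H) :
    letI := (IntermediateField.inclusion hle).toRingHom.toAlgebra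
    Module.Finite (fieldBar L M H') (fieldBar L M H) :=
  es1h_finiteAlong (IntermediateField.inclusion hle) (es1hFin_all hL hML) (es1hFin_all hL hML)

theorem rtk6f_charZero (L : ℕ) (H : Subgroup (ZMod M)ˣ) : CharZero (fieldBar L M H) :=
  charZero_of_injective_algebraMap (algebraMap QbH (fieldBar L M H)).injective

theorem rtk6fNorm_ne_zero (hL : L ≠ 0) (hML : M ∣ L) (hle : fieldBar L M H' ≤ fieldBar L M H)
    {x : fieldBar L M H} (hx : x ≠ 0) : rtk6fNorm hle x ≠ 0 := by
  letI := (IntermediateField.inclusion hle).toRingHom.toAlgebra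
  haveI : Module.Finite (fieldBar L M H') (fieldBar L M H) := rtk6f_finite hL hML hle
  haveI : Module.Free (fieldBar L M H') (fieldBar L M H) := Module.Free.of_divisionRing _ _
  exact Algebra.norm_ne_zero_iff.mpr hx


theorem rtk6f_diamond_injective (hL : L ≠ 0) (hML : M ∣ L) (hc : IsRelRep H H' c)
    (δ : ι → (fieldBar L M H ≃ₐ[QbH] fieldBar L M H))
    (hδ : ∀ i, IsDiamondH L M H (c i) (δ i)) :
    Function.Injective
      (fun i => ((δ i : fieldBar L M H ≃+* fieldBar L M H) :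
        fieldBar L M H →+* fieldBar L M H)) := by
  have hM : M ≠ 0 := fun h => hL (by rw [h] at hML; exact Nat.eq_zero_of_zero_dvd hML)
  have h1M : 1 * M ∣ L := by rwa [one_mul]
  intro i j hij
  apply hc.inj
  by_cases h3 : 3 ≤ M
  · have e : ∀ k, ((δ k (⟨qExpand QbH 1 (sS QbH M H 1), rtk6f_sS_mem_bar h1M 1⟩ :
        fieldBar L M H) : fieldBar L M H) : LaurentSeries QbH) = sS QbH M H (c k) := by
      intro k
      have := (hδ k).map_s 1 1 h1M ⟨qExpand QbH 1 (sS QbH M H 1), rtk6f_sS_mem_bar h1M 1⟩ rfl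
      rw [one_mul] at this
      exact this.trans (qExpand_one_apply _)
    have h2 : δ i (⟨qExpand QbH 1 (sS QbH M H 1), rtk6f_sS_mem_bar h1M 1⟩ : fieldBar L M H)
        = δ j (⟨qExpand QbH 1 (sS QbH M H 1), rtk6f_sS_mem_bar h1M 1⟩ : fieldBar L M H) :=
      congrArg (fun ψ : fieldBar L M H →+* fieldBar L M H =>
        ψ ⟨qExpand QbH 1 (sS QbH M H 1), rtk6f_sS_mem_bar h1M 1⟩) hij
    have h4 : sS QbH M H (c i) = sS QbH M H (c j) := by
      rw [← e i, ← e j, h2]
    exact rtk6f_inPM_iff.mp ((es1f_sS_eq_iff QbH h3).mp h4)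
  · haveI := es1cu_units_subsingleton hM h3
    rw [Subsingleton.elim ((c i)⁻¹ * c j) 1]
    exact one_mem _

/-- **the norm is the product of the diamonds** -/
theorem rtk6f_norm_eq_prod (hL : L ≠ 0) (hML : M ∣ L) (hc : IsRelRep H H' c)
    (δ : ι → (fieldBar L M H ≃ₐ[QbH] fieldBar L M H))
    (hδ : ∀ i, IsDiamondH L M H (c i) (δ i)) (x : fieldBar L M H) :
    IntermediateField.inclusion (rtk6f_fieldBar_le L hc) (rtk6fNorm (rtk6f_fieldBar_le L hc) x)
      = ∏ i, δ i x := by
  have hle := rtk6f_fieldBar_le L hc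
  haveI := rtk6f_charZero L H'
  have hfin := rtk6f_finite hL hML hle
  have hsep : letI := (IntermediateField.inclusion hle).toRingHom.toAlgebra
      Algebra.IsSeparable (fieldBar L M H') (fieldBar L M H) := by
    letI := (IntermediateField.inclusion hle).toRingHom.toAlgebra
    haveI : Module.Finite (fieldBar L M H') (fieldBar L M H) := hfin
    infer_instance
  have hcard : letI := (IntermediateField.inclusion hle).toRingHom.toAlgebra
      Fintype.card ι = Module.finrank (fieldBar L M H') (fieldBar L M H) := by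
    rw [hdeg_finrank_inclusion hle, rtk6f_relfinrank hL hML hc]
  exact s36n2_hom_norm_eq_prod (IntermediateField.inclusion hle).toRingHom hfin hsep
    (IntermediateField.inclusion hle).toRingHom
    (fun i => ((δ i : fieldBar L M H ≃+* fieldBar L M H) : fieldBar L M H →+* fieldBar L M H))
    (fun i y => rtk6f_diamond_fix hc (hc.mem i) (hδ i) y)
    (rtk6f_diamond_injective hL hML hc δ hδ) hcard x


/-- **the divisor of the norm**: `n D = div u` on `F` ⇒ `n ∣ ord_v (N u)` on `F'` -/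
theorem rtk6f_dvd_ord_norm (hL : L ≠ 0) (hML : M ∣ L) (hle : fieldBar L M H' ≤ fieldBar L M H)
    (n : ℕ) (D : Divisor QbH (fieldBar L M H)) (u : fieldBar L M H) (hu : u ≠ 0)
    (hD : ∀ w : Place QbH (fieldBar L M H), (n : ℤ) * D w = w.ord u)
    (v : Place QbH (fieldBar L M H')) : (n : ℤ) ∣ v.ord (rtk6fNorm hle u) := by
  have hF : Es1hFin L M H := es1hFin_all hL hML
  have hF' : Es1hFin L M H' := es1hFin_all hL hML
  have hNF := es1h_normFormulaAlong (IntermediateField.inclusion hle) hF' hF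
  letI := algebraAlong (IntermediateField.inclusion hle)
  haveI := isScalarTower_along (IntermediateField.inclusion hle)
  haveI : FiniteDimensional (fieldBar L M H') (fieldBar L M H) :=
    es1h_finiteAlong (IntermediateField.inclusion hle) hF' hF
  haveI : Algebra.IsIntegral (fieldBar L M H') (fieldBar L M H) := Algebra.IsIntegral.of_finite _ _
  haveI := es1h_hasPrincipalDivisors hF
  have hnD : ∀ w : Place QbH (fieldBar L M H), (n • D) w = w.ord u := by
    intro w
    rw [Finsupp.smul_apply, nsmul_eq_mul]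
    exact hD w
  have h2 := hNF u hu (n • D) hnD v
  rw [map_nsmul, Finsupp.smul_apply, nsmul_eq_mul] at h2
  exact ⟨_, h2.symm⟩

/-! ## Galois -/

/-- the inclusion commutes with the arithmetic Galois action -/
theorem rtk6f_incl_smul (hle : fieldBar L M H' ≤ fieldBar L M H) (σ : QbH ≃ₐ[ℚ] QbH)
    (x : fieldBar L M H') :
    arithmeticGalois (fieldQ L M H) σ • IntermediateField.inclusion hle x =
      IntermediateField.inclusion hle (arithmeticGalois (fieldQ L M H') σ • x) := by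
  apply Subtype.ext
  rw [coe_arithmeticGalois_smul, IntermediateField.coe_inclusion,
    IntermediateField.coe_inclusion, coe_arithmeticGalois_smul]

end Fermat.Agent.RT.K6

end
end ZBES1_012_14
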