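/- GENERATED FILE (helper35, build-time optimisation, NOTES/ZB.md): verbatim concatenation of the modules
   Fermat.Agent.S48.NebenCoset
   Fermat.Agent.S48.NebenV
   Fermat.Agent.S48.NebenNice
   Fermat.Agent.S48.Neben
   Fermat.Agent.S48.NebenChar
   Fermat.Agent.S48.DSL.Space
   Do not edit; do not import together with these modules. -/
import Mathlib
import Fermat.Prelude.Def_ModularForm_HeckeOperator
import Fermat.Prelude.Thm_ModularForm_heckeT_slash_eq_self_of_mem_Gamma0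
import Fermat.Prelude.Def_FLTPrelim_Modularity
import Fermat.Prelude.Thm_UpperHalfPlane_qCoeff_heckeT
import Fermat.Prelude.Thm_UpperHalfPlane_qCoeff_heckeU
import Fermat.Prelude.Thm_UpperHalfPlane_eq_of_forall_qCoeff_eq
import Fermat.Prelude.Thm_ModularForm_mdifferentiable_heckeT
import Fermat.Prelude.Thm_ModularForm_mdifferentiable_heckeU
import Fermat.Prelude.Thm_CuspFormClass_isZeroAt_heckeT
import Fermat.Prelude.Thm_CuspFormClass_isZeroAt_heckeU
import Fermat.Prelude.Thm_ModularForm_isBoundedAtImInfty_heckeT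
import Fermat.Prelude.Thm_ModularForm_isBoundedAtImInfty_heckeU
import Fermat.Prelude.Thm_ModularForm_periodic_heckeT_comp_ofComplex
import Fermat.Prelude.Thm_ModularForm_periodic_heckeU_comp_ofComplex
import Fermat.Agent.ZB.S48_002
import Fermat.Prelude.Thm_ModularForm_sturm_bound_of_isArithmetic
import Fermat.Prelude.Thm_ModularFormClass_isBoundedAt_heckeT
import Fermat.Prelude.Thm_ModularFormClass_isBoundedAt_heckeU

/-! ### bundled: `Fermat.Agent.S48.NebenCoset` -/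
section ZBS48_003_0

/-!
# S48, piece N, part 1: the Hecke operator `T_p` on `Γ₁(N)` (coset computation)

For a function `f` on the upper half plane which is invariant under `Γ₁(N)` (weight `k`), a prime
`p ∤ N` and `γ_p ∈ Γ₀(N)` with lower right entry `≡ p mod N`, the function
`U_p f + (f ∣ γ_p) ∣ diag(p, 1)` is again invariant under `Γ₁(N)`.
-/

set_option autoImplicit false

open CongruenceSubgroup UpperHalfPlane Matrix.SpecialLinearGroup
open scoped MatrixGroups ModularForm OnePoint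

namespace Fermat.Agent.S48

open ModularForm
open P2MW.S_ModularForm_heckeT_slash_eq_self_of_mem_Gamma0.ModularForm.HeckeSlashInvariance

/-- invariance under `Γ₁(N)` in weight `k` -/
def NebInv (N : ℕ) (k : ℤ) (f : ℍ → ℂ) : Prop :=
  ∀ γ : SL(2, ℤ), γ ∈ Gamma1 N → f ∣[k] (mapGL ℝ γ) = f

theorem neben_exists_SL (a b c d : ℤ) (h : a * d - b * c = 1) :
    ∃ g : SL(2, ℤ), g 0 0 = a ∧ g 0 1 = b ∧ g 1 0 = c ∧ g 1 1 = d :=
  ⟨⟨!![a, b; c, d], by rw [Matrix.det_fin_two_of]; exact h⟩, rfl, rfl, rfl, rfl⟩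

theorem neben_det_eq (g : SL(2, ℤ)) : g 0 0 * g 1 1 - g 0 1 * g 1 0 = 1 := by
  have h := g.det_coe
  rwa [Matrix.det_fin_two] at h

theorem neben_det_zmod {N : ℕ} (g : SL(2, ℤ)) (hg : g ∈ Gamma0 N) :
    ((g 0 0 : ℤ) : ZMod N) * ((g 1 1 : ℤ) : ZMod N) = 1 := by
  have h := congrArg (Int.cast : ℤ → ZMod N) (neben_det_eq g)
  have hc : ((g 1 0 : ℤ) : ZMod N) = 0 := Gamma0_mem.mp hg
  push_cast at h
  rw [hc, mul_zero, sub_zero] at h
  exact h

theorem neben_mem_Gamma1 {N : ℕ} (g : SL(2, ℤ)) (hg : g ∈ Gamma0 N)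
    (h1 : ((g 1 1 : ℤ) : ZMod N) = 1) : g ∈ Gamma1 N := by
  rw [Gamma1_mem]
  refine ⟨?_, h1, Gamma0_mem.mp hg⟩
  have := neben_det_zmod g hg
  rwa [h1, mul_one] at this

theorem neben_mul_apply_11 {N : ℕ} (g g' : SL(2, ℤ)) (hg : g ∈ Gamma0 N) :
    (((g * g') 1 1 : ℤ) : ZMod N) = ((g 1 1 : ℤ) : ZMod N) * ((g' 1 1 : ℤ) : ZMod N) := by
  have hc : ((g 1 0 : ℤ) : ZMod N) = 0 := Gamma0_mem.mp hg
  have : (g * g') 1 1 = g 1 0 * g' 0 1 + g 1 1 * g' 1 1 := by
    simp [Matrix.SpecialLinearGroup.coe_mul, Matrix.mul_apply, Fin.sum_univ_two]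
  rw [this]
  push_cast
  rw [hc, zero_mul, zero_add]

theorem neben_inv_apply_11 (g : SL(2, ℤ)) : (g⁻¹) 1 1 = g 0 0 := by
  simp [Matrix.SpecialLinearGroup.coe_inv, Matrix.adjugate_fin_two]

/-- `f ∣ g` only depends on the lower right entry of `g ∈ Γ₀(N)` modulo `N` -/
theorem neben_slash_congr {N : ℕ} {k : ℤ} {f : ℍ → ℂ} (hf : NebInv N k f) (g g' : SL(2, ℤ))
    (hg : g ∈ Gamma0 N) (hg' : g' ∈ Gamma0 N)
    (h : ((g 1 1 : ℤ) : ZMod N) = ((g' 1 1 : ℤ) : ZMod N)) :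
    f ∣[k] mapGL ℝ g = f ∣[k] mapGL ℝ g' := by
  have h1 : g * g'⁻¹ ∈ Gamma1 N := by
    refine neben_mem_Gamma1 _ ((Gamma0 N).mul_mem hg ((Gamma0 N).inv_mem hg')) ?_
    rw [neben_mul_apply_11 g g'⁻¹ hg, neben_inv_apply_11, h, mul_comm]
    exact neben_det_zmod g' hg'
  have h2 : g = (g * g'⁻¹) * g' := by group
  conv_lhs => rw [h2, map_mul, SlashAction.slash_mul, hf _ h1]

theorem neben_slash_of_mem {N : ℕ} {k : ℤ} {f : ℍ → ℂ} (hf : NebInv N k f) (g : SL(2, ℤ))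
    (hg : g ∈ Gamma0 N) (h : ((g 1 1 : ℤ) : ZMod N) = 1) :
    f ∣[k] mapGL ℝ g = f :=
  hf g (neben_mem_Gamma1 g hg h)

theorem nebInv_slash {N : ℕ} {k : ℤ} {f : ℍ → ℂ} (hf : NebInv N k f) (g : SL(2, ℤ))
    (hg : g ∈ Gamma0 N) : NebInv N k (f ∣[k] mapGL ℝ g) := by
  intro γ hγ
  rw [← SlashAction.slash_mul, ← map_mul]
  refine neben_slash_congr hf _ _ ((Gamma0 N).mul_mem hg (Gamma1_in_Gamma0 N hγ)) hg ?_
  rw [neben_mul_apply_11 g γ hg, ((Gamma1_mem N γ).mp hγ).2.1, mul_one]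

theorem nebInv_add {N : ℕ} {k : ℤ} {f g : ℍ → ℂ} (hf : NebInv N k f) (hg : NebInv N k g) :
    NebInv N k (f + g) := by
  intro γ hγ
  rw [SlashAction.add_slash, hf γ hγ, hg γ hγ]

theorem nebInv_neg {N : ℕ} {k : ℤ} {f : ℍ → ℂ} (hf : NebInv N k f) :
    NebInv N k (-f) := by
  intro γ hγ
  rw [SlashAction.neg_slash, hf γ hγ]

theorem nebInv_sub {N : ℕ} {k : ℤ} {f g : ℍ → ℂ} (hf : NebInv N k f) (hg : NebInv N k g) :
    NebInv N k (f - g) := by
  rw [sub_eq_add_neg]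
  exact nebInv_add hf (nebInv_neg hg)

theorem neben_σ_mapGL (γ : SL(2, ℤ)) : UpperHalfPlane.σ (mapGL ℝ γ) = .refl ℝ ℂ := by
  rw [UpperHalfPlane.σ, if_pos]
  simp

theorem nebInv_smul {N : ℕ} {k : ℤ} {f : ℍ → ℂ} (hf : NebInv N k f) (c : ℂ) :
    NebInv N k (c • f) := by
  intro γ hγ
  rw [ModularForm.smul_slash, neben_σ_mapGL, hf γ hγ]
  rfl

/-! ### The commutation relations, with the matrix `g'` explicit -/

section commutation

variable {p : ℕ} (hp : p ≠ 0)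
include hp

theorem neben_heckeMatrix_mul_of_eq (g : SL(2, ℤ)) (j j' : ℕ) (e : ℤ)
    (he : g 0 1 + j * g 1 1 = j' * (g 0 0 + j * g 1 0) + p * e) :
    ∃ g' : SL(2, ℤ), g' 1 0 = p * g 1 0 ∧ g' 1 1 = g 1 1 - g 1 0 * j' ∧
      heckeMatrix p j * mapGL ℝ g = mapGL ℝ g' * heckeMatrix p j' := by
  have hdet := neben_det_eq g
  obtain ⟨g', h00, h01, h10, h11⟩ := neben_exists_SL (g 0 0 + j * g 1 0) e (p * g 1 0) (g 1 1 - g 1 0 * j')
    (by linear_combination hdet + (g 1 0) * he)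
  refine ⟨g', h10, h11, ?_⟩
  ext i j
  fin_cases i <;> fin_cases j <;>
    simp [hp, Matrix.mul_apply, Fin.sum_univ_two, h00, h01, h10, h11]
  all_goals first
    | (have := congrArg (Int.cast : ℤ → ℝ) he; push_cast at this ⊢; linear_combination this)
    | (have := congrArg (Int.cast : ℤ → ℝ) he; push_cast at this ⊢; linear_combination -this)
    | ring1

theorem neben_heckeMatrix_mul_of_eq' (g : SL(2, ℤ)) (j : ℕ) (e : ℤ)
    (he : g 0 0 + j * g 1 0 = p * e) :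
    ∃ g' : SL(2, ℤ), g' 1 0 = g 1 0 ∧ g' 1 1 = p * g 1 1 ∧
      heckeMatrix p j * mapGL ℝ g = mapGL ℝ g' * heckeDiagMatrix p := by
  have hdet := neben_det_eq g
  obtain ⟨g', h00, h01, h10, h11⟩ := neben_exists_SL e (g 0 1 + j * g 1 1) (g 1 0) (p * g 1 1)
    (by linear_combination hdet - (g 1 1) * he)
  refine ⟨g', h10, h11, ?_⟩
  ext i j
  fin_cases i <;> fin_cases j <;>
    simp [hp, Matrix.mul_apply, Fin.sum_univ_two, h00, h01, h10, h11]
  all_goals first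
    | (have := congrArg (Int.cast : ℤ → ℝ) he; push_cast at this ⊢; linear_combination this)
    | (have := congrArg (Int.cast : ℤ → ℝ) he; push_cast at this ⊢; linear_combination -this)
    | ring1

theorem neben_heckeDiagMatrix_mul_of_eq (g : SL(2, ℤ)) (j' : ℕ) (e : ℤ)
    (he : g 1 1 = g 1 0 * j' + p * e) :
    ∃ g' : SL(2, ℤ), g' 1 0 = g 1 0 ∧ g' 1 1 = e ∧
      heckeDiagMatrix p * mapGL ℝ g = mapGL ℝ g' * heckeMatrix p j' := by
  have hdet := neben_det_eq g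
  obtain ⟨g', h00, h01, h10, h11⟩ := neben_exists_SL (p * g 0 0) (g 0 1 - g 0 0 * j') (g 1 0) e
    (by linear_combination hdet - (g 0 0) * he)
  refine ⟨g', h10, h11, ?_⟩
  ext i j
  fin_cases i <;> fin_cases j <;>
    simp [hp, Matrix.mul_apply, Fin.sum_univ_two, h00, h01, h10, h11]
  all_goals first
    | (have := congrArg (Int.cast : ℤ → ℝ) he; push_cast at this ⊢; linear_combination this)
    | (have := congrArg (Int.cast : ℤ → ℝ) he; push_cast at this ⊢; linear_combination -this)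
    | ring1

theorem neben_heckeDiagMatrix_mul_of_eq' (g : SL(2, ℤ)) (e : ℤ) (he : g 1 0 = p * e) :
    ∃ g' : SL(2, ℤ), g' 1 0 = e ∧ g' 1 1 = g 1 1 ∧
      heckeDiagMatrix p * mapGL ℝ g = mapGL ℝ g' * heckeDiagMatrix p := by
  have hdet := neben_det_eq g
  obtain ⟨g', h00, h01, h10, h11⟩ := neben_exists_SL (g 0 0) (p * g 0 1) e (g 1 1)
    (by linear_combination hdet + (g 0 1) * he)
  refine ⟨g', h10, h11, ?_⟩
  ext i j
  fin_cases i <;> fin_cases j <;>
    simp [hp, Matrix.mul_apply, Fin.sum_univ_two, h00, h01, h10, h11]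
  all_goals first
    | (have := congrArg (Int.cast : ℤ → ℝ) he; push_cast at this ⊢; linear_combination this)
    | (have := congrArg (Int.cast : ℤ → ℝ) he; push_cast at this ⊢; linear_combination -this)
    | ring1

end commutation

/-! ### The terms of `T_p` and their permutation -/

/-- the terms of the Hecke operator `T_p` on `Γ₁(N)`: `f ∣ β_j` for `j ∈ ℤ/p` and
`f' ∣ diag(p,1)` at `∞` (with `f' = ⟨p⟩ f`) -/
noncomputable def nebTerm (k : ℤ) (p : ℕ) (f f' : ℍ → ℂ) (x : OnePoint (ZMod p)) : ℍ → ℂ :=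
  x.elim (f' ∣[k] heckeDiagMatrix p) (fun j ↦ f ∣[k] heckeMatrix p j.val)

@[simp] theorem nebTerm_infty (k : ℤ) (p : ℕ) (f f' : ℍ → ℂ) :
    nebTerm k p f f' ∞ = f' ∣[k] heckeDiagMatrix p := rfl

@[simp] theorem nebTerm_coe (k : ℤ) (p : ℕ) (f f' : ℍ → ℂ) (j : ZMod p) :
    nebTerm k p f f' (j : OnePoint (ZMod p)) = f ∣[k] heckeMatrix p j.val := rfl

theorem neben_sum_nebTerm (k : ℤ) (p : ℕ) [NeZero p] (f f' : ℍ → ℂ) :
    heckeU k p f + f' ∣[k] heckeDiagMatrix p = ∑ x : OnePoint (ZMod p), nebTerm k p f f' x := by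
  rw [heckeU_eq_sum_zmod, add_comm]
  exact (Fintype.sum_option (fun x : OnePoint (ZMod p) ↦ nebTerm k p f f' x)).symm

theorem neben_natCast_unit {N p : ℕ} (γp : SL(2, ℤ)) (hγp : γp ∈ Gamma0 N)
    (hγp1 : ((γp 1 1 : ℤ) : ZMod N) = (p : ZMod N)) :
    ((γp 0 0 : ℤ) : ZMod N) * (p : ZMod N) = 1 := by
  rw [← hγp1]
  exact neben_det_zmod γp hγp

theorem neben_term_slash {N : ℕ} {k : ℤ} {p : ℕ} [Fact p.Prime] (hpN : ¬ p ∣ N) {f : ℍ → ℂ}
    (hf : NebInv N k f) (γp : SL(2, ℤ)) (hγp : γp ∈ Gamma0 N)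
    (hγp1 : ((γp 1 1 : ℤ) : ZMod N) = (p : ZMod N))
    (g : SL(2, ℤ)) (hg : g ∈ Gamma1 N) (x : OnePoint (ZMod p)) :
    nebTerm k p f (f ∣[k] mapGL ℝ γp) x ∣[k] mapGL ℝ g =
      nebTerm k p f (f ∣[k] mapGL ℝ γp) (redMatrix p g • x) := by
  have hp : p ≠ 0 := (Fact.out : p.Prime).ne_zero
  obtain ⟨hg00, hg11, hg10⟩ := (Gamma1_mem N g).mp hg
  have hg0 : g ∈ Gamma0 N := Gamma1_in_Gamma0 N hg
  have hcop : IsCoprime (N : ℤ) (p : ℤ) :=
    Nat.isCoprime_iff_coprime.mpr ((Nat.Prime.coprime_iff_not_dvd Fact.out).mpr hpN).symm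
  have hunit := neben_natCast_unit γp hγp hγp1
  induction x using OnePoint.rec with
  | infty =>
    rw [OnePoint.smul_infty_eq_ite]
    by_cases hc : ((g 1 0 : ℤ) : ZMod p) = 0
    · rw [if_pos (by simpa using hc), nebTerm_infty]
      obtain ⟨e, he⟩ := (ZMod.intCast_zmod_eq_zero_iff_dvd _ _).mp hc
      obtain ⟨g', hg'10, hg'11, hmul⟩ := neben_heckeDiagMatrix_mul_of_eq' hp g e he
      have hg'0 : g' ∈ Gamma0 N := by
        rw [Gamma0_mem, hg'10, ZMod.intCast_zmod_eq_zero_iff_dvd]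
        have : (N : ℤ) ∣ g 1 0 := (ZMod.intCast_zmod_eq_zero_iff_dvd _ _).mp hg10
        exact hcop.dvd_of_dvd_mul_left (he ▸ this)
      have e1 : (f ∣[k] mapGL ℝ γp) ∣[k] mapGL ℝ g' = f ∣[k] mapGL ℝ γp := by
        rw [← SlashAction.slash_mul, ← map_mul]
        refine neben_slash_congr hf _ _ ((Gamma0 N).mul_mem hγp hg'0) hγp ?_
        rw [neben_mul_apply_11 γp g' hγp, hg'11, hg11, mul_one]
      rw [← SlashAction.slash_mul, hmul, SlashAction.slash_mul, e1]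
    · rw [if_neg (by simpa using hc), nebTerm_infty, nebTerm_coe]
      set y : ZMod p := redMatrix p g 0 0 / redMatrix p g 1 0 with hy
      obtain ⟨e, he⟩ : (p : ℤ) ∣ g 1 1 - g 1 0 * y.val := by
        rw [← ZMod.intCast_zmod_eq_zero_iff_dvd]
        push_cast
        rw [ZMod.natCast_zmod_val, hy, redMatrix_apply_zero_zero, redMatrix_apply_one_zero,
          mul_div_cancel₀ _ hc, sub_self]
      obtain ⟨g', hg'10, hg'11, hmul⟩ :=
        neben_heckeDiagMatrix_mul_of_eq hp g y.val e (by linear_combination he)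
      have hg'0 : g' ∈ Gamma0 N := by
        rw [Gamma0_mem, hg'10]; exact hg10
      have e1 : (f ∣[k] mapGL ℝ γp) ∣[k] mapGL ℝ g' = f := by
        rw [← SlashAction.slash_mul, ← map_mul]
        refine neben_slash_of_mem hf _ ((Gamma0 N).mul_mem hγp hg'0) ?_
        rw [neben_mul_apply_11 γp g' hγp, hg'11, hγp1]
        have h1 : (p : ZMod N) * ((e : ℤ) : ZMod N) = 1 := by
          have := congrArg (Int.cast : ℤ → ZMod N) he
          push_cast at this
          rw [hg11, hg10, zero_mul, sub_zero] at this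
          exact this.symm
        exact h1
      rw [← SlashAction.slash_mul, hmul, SlashAction.slash_mul, e1]
  | coe j =>
    rw [OnePoint.smul_some_eq_ite]
    by_cases h : redMatrix p g 1 0 * j + redMatrix p g 1 1 = 0
    · rw [if_pos h, nebTerm_infty, nebTerm_coe]
      rw [redMatrix_apply_one_zero, redMatrix_apply_one_one] at h
      obtain ⟨e, he⟩ : (p : ℤ) ∣ g 0 0 + j.val * g 1 0 := by
        rw [← ZMod.intCast_zmod_eq_zero_iff_dvd]
        push_cast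
        rw [ZMod.natCast_zmod_val]
        linear_combination h
      obtain ⟨g', hg'10, hg'11, hmul⟩ := neben_heckeMatrix_mul_of_eq' hp g j.val e he
      have hg'0 : g' ∈ Gamma0 N := by
        rw [Gamma0_mem, hg'10]; exact hg10
      have e1 : f ∣[k] mapGL ℝ g' = f ∣[k] mapGL ℝ γp := by
        refine neben_slash_congr hf _ _ hg'0 hγp ?_
        rw [hg'11, hγp1]
        push_cast
        rw [hg11, mul_one]
      rw [← SlashAction.slash_mul, hmul, SlashAction.slash_mul, e1]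
    · rw [if_neg h, nebTerm_coe, nebTerm_coe]
      set y : ZMod p := (redMatrix p g 0 0 * j + redMatrix p g 0 1) /
        (redMatrix p g 1 0 * j + redMatrix p g 1 1) with hy
      obtain ⟨e, he⟩ : (p : ℤ) ∣ g 0 1 + j.val * g 1 1 - y.val * (g 0 0 + j.val * g 1 0) := by
        rw [← ZMod.intCast_zmod_eq_zero_iff_dvd]
        push_cast
        rw [ZMod.natCast_zmod_val, ZMod.natCast_zmod_val,
          show ((g 0 0 : ℤ) : ZMod p) + j * ((g 1 0 : ℤ) : ZMod p)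
            = redMatrix p g 1 0 * j + redMatrix p g 1 1 by
              rw [redMatrix_apply_one_zero, redMatrix_apply_one_one]; ring,
          hy, div_mul_cancel₀ _ h, redMatrix_apply_zero_zero, redMatrix_apply_zero_one]
        ring
      obtain ⟨g', hg'10, hg'11, hmul⟩ :=
        neben_heckeMatrix_mul_of_eq hp g j.val y.val e (by linear_combination he)
      have hg'0 : g' ∈ Gamma0 N := by
        rw [Gamma0_mem, hg'10]
        push_cast
        rw [hg10, mul_zero]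
      have e1 : f ∣[k] mapGL ℝ g' = f := by
        refine neben_slash_of_mem hf _ hg'0 ?_
        rw [hg'11]
        push_cast
        rw [hg11, hg10, zero_mul, sub_zero]
      rw [← SlashAction.slash_mul, hmul, SlashAction.slash_mul, e1]

/-- **The Hecke operator `T_p` preserves the level `Γ₁(N)`**: for `f` invariant under `Γ₁(N)`,
`p ∤ N` prime and `γ_p ∈ Γ₀(N)` with lower right entry `≡ p`, the function
`U_p f + (f ∣ γ_p) ∣ diag(p,1)` is invariant under `Γ₁(N)`. -/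
theorem nebInv_heckeT {N : ℕ} {k : ℤ} {p : ℕ} (hp : p.Prime) (hpN : ¬ p ∣ N) {f : ℍ → ℂ}
    (hf : NebInv N k f) (γp : SL(2, ℤ)) (hγp : γp ∈ Gamma0 N)
    (hγp1 : ((γp 1 1 : ℤ) : ZMod N) = (p : ZMod N)) :
    NebInv N k (heckeU k p f + (f ∣[k] mapGL ℝ γp) ∣[k] heckeDiagMatrix p) := by
  have : Fact p.Prime := ⟨hp⟩
  intro g hg
  rw [neben_sum_nebTerm, SlashAction.sum_slash]
  calc ∑ x : OnePoint (ZMod p), (nebTerm k p f (f ∣[k] mapGL ℝ γp) x) ∣[k] mapGL ℝ g
      = ∑ x : OnePoint (ZMod p), nebTerm k p f (f ∣[k] mapGL ℝ γp) (redMatrix p g • x) :=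
        Finset.sum_congr rfl fun x _ ↦ neben_term_slash hpN hf γp hγp hγp1 g hg x
    _ = ∑ x : OnePoint (ZMod p), nebTerm k p f (f ∣[k] mapGL ℝ γp) x :=
        Equiv.sum_comp (MulAction.toPerm (redMatrix p g))
          (fun x ↦ nebTerm k p f (f ∣[k] mapGL ℝ γp) x)

end Fermat.Agent.S48


end ZBS48_003_0

/-! ### bundled: `Fermat.Agent.S48.NebenV` -/
section ZBS48_003_1

/-!
# S48, piece N, part 2: the operator `V_p` (algebraic part)

If `h` and `V_p h = h ∣ diag(p,1)` are both invariant under `Γ₁(N)` (`p ∤ N` prime), then so is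
`V_p V_p h`.
-/

set_option autoImplicit false

open CongruenceSubgroup UpperHalfPlane Matrix.SpecialLinearGroup
open scoped MatrixGroups ModularForm OnePoint

namespace Fermat.Agent.S48

open ModularForm

theorem neben_T_mem_Gamma1 (N : ℕ) : ModularGroup.T ∈ Gamma1 N := by
  rw [Gamma1_mem]
  simp [ModularGroup.T]

theorem neben_one_mem_strictPeriods (N : ℕ) :
    (1 : ℝ) ∈ ((Gamma1 N : Subgroup SL(2, ℤ)) : Subgroup (GL (Fin 2) ℝ)).strictPeriods := by
  rw [Subgroup.strictPeriods_eq_zmultiples_one_of_T_mem (neben_T_mem_Gamma1 N)]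
  exact AddSubgroup.mem_zmultiples 1

/-- a `Γ₁(N)`-invariant function as a slash invariant form -/
def nebSIF {N : ℕ} {k : ℤ} {f : ℍ → ℂ} (hf : NebInv N k f) : SlashInvariantForm (Gamma1 N) k where
  toFun := f
  slash_action_eq' := by
    rintro _ ⟨γ, hγ, rfl⟩
    exact hf γ hγ

@[simp] theorem nebSIF_apply {N : ℕ} {k : ℤ} {f : ℍ → ℂ} (hf : NebInv N k f) (z : ℍ) :
    nebSIF hf z = f z := rfl

theorem nebInv_periodic {N : ℕ} {k : ℤ} {f : ℍ → ℂ} (hf : NebInv N k f) :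
    Function.Periodic (f ∘ UpperHalfPlane.ofComplex) 1 := by
  have := SlashInvariantFormClass.periodic_comp_ofComplex (nebSIF hf)
    (neben_one_mem_strictPeriods N)
  intro x
  have h1 := this x
  simpa using h1

theorem nebInv_apply_add_nat {N : ℕ} {k : ℤ} {f : ℍ → ℂ} (hf : NebInv N k f) (τ τ' : ℍ) (j : ℕ)
    (h : (τ' : ℂ) = (τ : ℂ) + j) : f τ' = f τ := by
  have h1 := (nebInv_periodic hf).nat_mul j (τ : ℂ)
  rw [mul_one, ← h] at h1
  simpa [Function.comp, UpperHalfPlane.ofComplex_apply] using h1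

/-- `U_p V_p h = p^{k-1} h` -/
theorem neben_heckeU_diag {N : ℕ} {k : ℤ} {p : ℕ} (hp : p ≠ 0) {h : ℍ → ℂ} (hh : NebInv N k h) :
    heckeU k p (h ∣[k] heckeDiagMatrix p) = ((p : ℂ) ^ (k - 1)) • h := by
  have hp' : (p : ℂ) ≠ 0 := by exact_mod_cast hp
  funext τ
  rw [heckeU_apply k hp]
  have : ∀ j ∈ Finset.range p, (h ∣[k] heckeDiagMatrix p) (heckeMatrix p j • τ) =
      (p : ℂ) ^ (k - 1) * h τ := by
    intro j _
    rw [slash_heckeDiagMatrix_apply k hp]
    congr 1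
    refine nebInv_apply_add_nat hh τ _ j ?_
    rw [coe_heckeDiagMatrix_smul hp, coe_heckeMatrix_smul hp]
    field_simp
  rw [Finset.sum_congr rfl this, Finset.sum_const, Finset.card_range, nsmul_eq_mul, Pi.smul_apply,
    smul_eq_mul]
  field_simp

/-- there is `γ_p ∈ Γ₀(N)` with lower right entry `≡ p mod N` and lower left entry divisible by
`p`. -/
theorem neben_exists_gammaP {N p : ℕ} (hp : p.Prime) (hpN : ¬ p ∣ N) :
    ∃ γp : SL(2, ℤ), γp ∈ Gamma0 N ∧ ((γp 1 1 : ℤ) : ZMod N) = (p : ZMod N) ∧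
      (p : ℤ) ∣ γp 1 0 := by
  have hcop : IsCoprime (p : ℤ) (N : ℤ) :=
    Nat.isCoprime_iff_coprime.mpr ((Nat.Prime.coprime_iff_not_dvd hp).mpr hpN)
  have h1 : IsCoprime ((p : ℤ) + N) (N : ℤ) := by
    simpa using hcop.add_mul_left_left 1
  have h2 : IsCoprime ((p : ℤ) + N) (p : ℤ) := by
    have := hcop.symm.add_mul_left_left 1
    simpa [add_comm] using this
  have h3 : IsCoprime ((p : ℤ) + N) ((N : ℤ) * p) := h1.mul_right h2
  obtain ⟨a, b, hab⟩ := h3
  obtain ⟨γp, -, -, h10, h11⟩ := neben_exists_SL a (-b) ((N : ℤ) * p) ((p : ℤ) + N)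
    (by linear_combination hab)
  refine ⟨γp, ?_, ?_, ?_⟩
  · rw [Gamma0_mem, h10]
    push_cast
    simp
  · rw [h11]
    push_cast
    simp
  · rw [h10]
    exact Dvd.intro_left _ rfl

/-- **`V_p`-stability**: if `h` and `V_p h` are invariant under `Γ₁(N)`, so is `V_p V_p h`. -/
theorem nebInv_diag_diag {N : ℕ} {k : ℤ} {p : ℕ} (hp : p.Prime) (hpN : ¬ p ∣ N) {h : ℍ → ℂ}
    (hh : NebInv N k h) (hV : NebInv N k (h ∣[k] heckeDiagMatrix p)) :
    NebInv N k ((h ∣[k] heckeDiagMatrix p) ∣[k] heckeDiagMatrix p) := by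
  obtain ⟨γp, hγp, hγp1, e, he⟩ := neben_exists_gammaP hp hpN
  obtain ⟨γ', hγ'10, hγ'11, hmul⟩ := neben_heckeDiagMatrix_mul_of_eq' hp.ne_zero γp e he
  have hcop : IsCoprime (N : ℤ) (p : ℤ) :=
    Nat.isCoprime_iff_coprime.mpr ((Nat.Prime.coprime_iff_not_dvd hp).mpr hpN).symm
  have hγ'0 : γ' ∈ Gamma0 N := by
    rw [Gamma0_mem, hγ'10, ZMod.intCast_zmod_eq_zero_iff_dvd]
    have : (N : ℤ) ∣ γp 1 0 := (ZMod.intCast_zmod_eq_zero_iff_dvd _ _).mp (Gamma0_mem.mp hγp)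
    exact hcop.dvd_of_dvd_mul_left (he ▸ this)
  -- `F := (V_p h) ∣ γ_p⁻¹ = (h ∣ γ'⁻¹) ∣ diag`
  set h₁ : ℍ → ℂ := h ∣[k] mapGL ℝ γ'⁻¹ with hh₁
  have hh₁inv : NebInv N k h₁ := nebInv_slash hh _ ((Gamma0 N).inv_mem hγ'0)
  set F : ℍ → ℂ := (h ∣[k] heckeDiagMatrix p) ∣[k] mapGL ℝ γp⁻¹ with hF
  have hFinv : NebInv N k F := nebInv_slash hV _ ((Gamma0 N).inv_mem hγp)
  have hF1 : F = h₁ ∣[k] heckeDiagMatrix p := by
    rw [hF, hh₁, ← SlashAction.slash_mul, ← SlashAction.slash_mul]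
    congr 1
    rw [map_inv, map_inv, eq_inv_mul_iff_mul_eq, ← mul_assoc, ← hmul, mul_assoc,
      mul_inv_cancel, mul_one]
  have hF2 : F ∣[k] mapGL ℝ γp = h ∣[k] heckeDiagMatrix p := by
    rw [hF, ← SlashAction.slash_mul, ← map_mul, inv_mul_cancel, map_one, SlashAction.slash_one]
  have key := nebInv_heckeT hp hpN hFinv γp hγp hγp1
  rw [hF2] at key
  have hU : heckeU k p F = ((p : ℂ) ^ (k - 1)) • h₁ := by
    rw [hF1]
    exact neben_heckeU_diag hp.ne_zero hh₁inv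
  have := nebInv_sub key (nebInv_smul hh₁inv ((p : ℂ) ^ (k - 1)))
  rw [hU, add_sub_cancel_left] at this
  exact this

end Fermat.Agent.S48


end ZBS48_003_1

/-! ### bundled: `Fermat.Agent.S48.NebenNice` -/
section ZBS48_003_2

/-!
# S48, piece N, part 3: `q`-expansions of `V_p F` and of linear combinations
-/

set_option autoImplicit false

open CongruenceSubgroup UpperHalfPlane Matrix.SpecialLinearGroup
open scoped MatrixGroups ModularForm OnePoint Manifold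

namespace Fermat.Agent.S48

open ModularForm

/-- `1`-periodic, holomorphic and bounded at `i∞` -/
structure NebNice (F : ℍ → ℂ) : Prop where
  per : Function.Periodic (F ∘ UpperHalfPlane.ofComplex) 1
  hol : MDiff F
  bdd : IsBoundedAtImInfty F

theorem NebNice.analyticAt {F : ℍ → ℂ} (hF : NebNice F) : AnalyticAt ℂ (cuspFunction 1 F) 0 :=
  analyticAt_cuspFunction_zero one_pos (by simpa using hF.per) hF.hol hF.bdd

theorem NebNice.heckeU {F : ℍ → ℂ} (hF : NebNice F) (k : ℤ) (p : ℕ) :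
    NebNice (heckeU k p F) :=
  ⟨ModularForm.periodic_heckeU_comp_ofComplex hF.per k p,
    ModularForm.mdifferentiable_heckeU hF.hol k p,
    ModularForm.isBoundedAtImInfty_heckeU hF.bdd k p⟩

theorem NebNice.heckeT {F : ℍ → ℂ} (hF : NebNice F) (k : ℤ) (p : ℕ) :
    NebNice (heckeT k p F) :=
  ⟨ModularForm.periodic_heckeT_comp_ofComplex hF.per k p,
    ModularForm.mdifferentiable_heckeT hF.hol k p,
    ModularForm.isBoundedAtImInfty_heckeT hF.bdd k p⟩

theorem NebNice.add {F G : ℍ → ℂ} (hF : NebNice F) (hG : NebNice G) : NebNice (F + G) := by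
  refine ⟨?_, hF.hol.add hG.hol, hF.bdd.add hG.bdd⟩
  intro x
  have h1 := hF.per x
  have h2 := hG.per x
  simp only [Function.comp_apply, Pi.add_apply] at h1 h2 ⊢
  rw [h1, h2]

theorem NebNice.smul {F : ℍ → ℂ} (hF : NebNice F) (c : ℂ) : NebNice (c • F) := by
  refine ⟨?_, hF.hol.const_smul c, hF.bdd.const_smul_left c⟩
  intro x
  have h1 := hF.per x
  simp only [Function.comp_apply, Pi.smul_apply] at h1 ⊢
  rw [h1]

theorem NebNice.neg {F : ℍ → ℂ} (hF : NebNice F) : NebNice (-F) := by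
  have := hF.smul (-1)
  simpa using this

theorem NebNice.sub {F G : ℍ → ℂ} (hF : NebNice F) (hG : NebNice G) : NebNice (F - G) := by
  rw [sub_eq_add_neg]
  exact hF.add hG.neg

theorem neben_slash_diag_eq (k : ℤ) (p : ℕ) (F : ℍ → ℂ) :
    F ∣[k] heckeDiagMatrix p = heckeT k p F - heckeU k p F := by
  rw [heckeT_eq_heckeU_add, add_sub_cancel_left]

theorem NebNice.diag {F : ℍ → ℂ} (hF : NebNice F) (k : ℤ) (p : ℕ) :
    NebNice (F ∣[k] heckeDiagMatrix p) := by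
  rw [neben_slash_diag_eq]
  exact (hF.heckeT k p).sub (hF.heckeU k p)

theorem neben_qCoeff_add {F G : ℍ → ℂ} (hF : NebNice F) (hG : NebNice G) (n : ℕ) :
    ModularFormClass.qCoeff (F + G) n = ModularFormClass.qCoeff F n + ModularFormClass.qCoeff G n := by
  unfold ModularFormClass.qCoeff
  rw [qExpansion_add hF.analyticAt hG.analyticAt, map_add]

theorem neben_qCoeff_sub {F G : ℍ → ℂ} (hF : NebNice F) (hG : NebNice G) (n : ℕ) :
    ModularFormClass.qCoeff (F - G) n = ModularFormClass.qCoeff F n - ModularFormClass.qCoeff G n := by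
  unfold ModularFormClass.qCoeff
  rw [qExpansion_sub hF.analyticAt hG.analyticAt, map_sub]

theorem neben_qCoeff_smul {F : ℍ → ℂ} (hF : NebNice F) (c : ℂ) (n : ℕ) :
    ModularFormClass.qCoeff (c • F) n = c * ModularFormClass.qCoeff F n := by
  unfold ModularFormClass.qCoeff
  rw [qExpansion_smul hF.analyticAt, PowerSeries.coeff_smul, smul_eq_mul]

/-- the `q`-expansion of `V_p F` -/
theorem neben_qCoeff_diag {F : ℍ → ℂ} (hF : NebNice F) (k : ℤ) {p : ℕ} (hp : p ≠ 0) (n : ℕ) :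
    ModularFormClass.qCoeff (F ∣[k] heckeDiagMatrix p) n =
      if p ∣ n then (p : ℂ) ^ (k - 1) * ModularFormClass.qCoeff F (n / p) else 0 := by
  rw [neben_slash_diag_eq, neben_qCoeff_sub (hF.heckeT k p) (hF.heckeU k p),
    UpperHalfPlane.qCoeff_heckeT hF.per hF.hol hF.bdd k hp,
    UpperHalfPlane.qCoeff_heckeU hF.per hF.hol hF.bdd k hp,
    coeffHeckeT_eq_coeffHeckeU_add, add_sub_cancel_left]

theorem neben_qCoeff_heckeU {F : ℍ → ℂ} (hF : NebNice F) (k : ℤ) {p : ℕ} (hp : p ≠ 0) (n : ℕ) :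
    ModularFormClass.qCoeff (heckeU k p F) n = ModularFormClass.qCoeff F (n * p) := by
  rw [UpperHalfPlane.qCoeff_heckeU hF.per hF.hol hF.bdd k hp, coeffHeckeU_apply]

theorem neben_eq_of_qCoeff {F G : ℍ → ℂ} (hF : NebNice F) (hG : NebNice G)
    (h : ∀ n : ℕ, ModularFormClass.qCoeff F n = ModularFormClass.qCoeff G n) : F = G :=
  UpperHalfPlane.eq_of_forall_qCoeff_eq hF.per hF.hol hF.bdd hG.per hG.hol hG.bdd h

end Fermat.Agent.S48


end ZBS48_003_2

/-! ### bundled: `Fermat.Agent.S48.Neben` -/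
section ZBS48_003_3

/-!
# S48, piece N: a Hecke eigenform in `S₁(Γ₁(N))` has nebentypus `ε` (`stmtNeben : StmtNeben`)

Route (no decomposition into characters).  Let `p ∤ N` be a prime and `γ ∈ Γ₀(N)` with lower right
entry `≡ p mod N`.
* `T_p f := U_p f + V_p (f ∣ γ)` is invariant under `Γ₁(N)` (`nebInv_heckeT`, NebenCoset.lean).
* The Hecke relations say `U_p f + ε(p) V_p f = a_p f`; hence `V_p h`, `h := f ∣ γ - ε(p) f`,
  is invariant under `Γ₁(N)`.
* `V_p`-lemma (`neben_V_lemma`): a cusp form `h` on `Γ₁(N)` with `V_p h` of level `Γ₁(N)` is zero: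
  then all `V_p^m h` are cusp forms on `Γ₁(N)` (`nebInv_diag_diag`, NebenV.lean), they vanish to order
  `≥ p^m` at `∞`, which contradicts the Sturm bound.
* Dirichlet's theorem on primes in arithmetic progressions gives a prime in every class.
-/

set_option autoImplicit false

open CongruenceSubgroup UpperHalfPlane Matrix.SpecialLinearGroup
open scoped MatrixGroups ModularForm OnePoint Manifold

namespace Fermat.Agent.S48

open ModularForm

/-- `F` is (the function of) a cusp form of weight `k` on `Γ₁(N)` -/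
def NebCusp (N : ℕ) (k : ℤ) (F : ℍ → ℂ) : Prop :=
  ∃ G : CuspForm (Gamma1 N) k, ⇑G = F

theorem nebCusp_coe {N : ℕ} {k : ℤ} (G : CuspForm (Gamma1 N) k) : NebCusp N k ⇑G := ⟨G, rfl⟩

theorem NebCusp.inv {N : ℕ} {k : ℤ} {F : ℍ → ℂ} (hF : NebCusp N k F) : NebInv N k F := by
  obtain ⟨G, rfl⟩ := hF
  intro γ hγ
  exact G.slash_action_eq' _ (Subgroup.mem_map_of_mem _ hγ)

theorem neben_isCusp_infty (N : ℕ) :
    IsCusp ∞ ((Gamma1 N : Subgroup SL(2, ℤ)) : Subgroup (GL (Fin 2) ℝ)) :=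
  Subgroup.isCusp_of_mem_strictPeriods one_pos (neben_one_mem_strictPeriods N)

theorem NebCusp.isZeroAtImInfty {N : ℕ} {k : ℤ} {F : ℍ → ℂ} (hF : NebCusp N k F) :
    IsZeroAtImInfty F := by
  obtain ⟨G, rfl⟩ := hF
  exact OnePoint.isZeroAt_infty_iff.mp (G.zero_at_cusps' (neben_isCusp_infty N))

theorem NebCusp.hol {N : ℕ} {k : ℤ} {F : ℍ → ℂ} (hF : NebCusp N k F) : MDiff F := by
  obtain ⟨G, rfl⟩ := hF
  exact G.holo'

theorem NebCusp.nice {N : ℕ} {k : ℤ} {F : ℍ → ℂ} (hF : NebCusp N k F) : NebNice F :=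
  ⟨nebInv_periodic hF.inv, hF.hol, hF.isZeroAtImInfty.isBoundedAtImInfty⟩

theorem NebCusp.qCoeff_zero {N : ℕ} {k : ℤ} {F : ℍ → ℂ} (hF : NebCusp N k F) :
    ModularFormClass.qCoeff F 0 = 0 := by
  obtain ⟨G, rfl⟩ := hF
  exact CuspFormClass.qExpansion_coeff_zero G one_pos (neben_one_mem_strictPeriods N)

theorem NebCusp.sub {N : ℕ} {k : ℤ} {F G : ℍ → ℂ} (hF : NebCusp N k F) (hG : NebCusp N k G) :
    NebCusp N k (F - G) := by
  obtain ⟨F', rfl⟩ := hF
  obtain ⟨G', rfl⟩ := hG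
  exact ⟨F' - G', rfl⟩

theorem NebCusp.smul {N : ℕ} {k : ℤ} {F : ℍ → ℂ} (hF : NebCusp N k F) (c : ℂ) :
    NebCusp N k (c • F) := by
  obtain ⟨F', rfl⟩ := hF
  exact ⟨c • F', rfl⟩

/-- the cusps of `Γ₁(N)` are permuted by `SL(2, ℤ)` -/
theorem neben_isCusp_smul {N : ℕ} [NeZero N] {c : OnePoint ℝ}
    (hc : IsCusp c ((Gamma1 N : Subgroup SL(2, ℤ)) : Subgroup (GL (Fin 2) ℝ))) (γ : SL(2, ℤ)) :
    IsCusp (mapGL ℝ γ • c) ((Gamma1 N : Subgroup SL(2, ℤ)) : Subgroup (GL (Fin 2) ℝ)) := by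
  rw [Subgroup.IsArithmetic.isCusp_iff_isCusp_SL2Z] at hc ⊢
  exact hc.smul_of_mem ⟨γ, rfl⟩

theorem NebCusp.slash {N : ℕ} [NeZero N] {k : ℤ} {F : ℍ → ℂ} (hF : NebCusp N k F) (γ : SL(2, ℤ))
    (hγ : γ ∈ Gamma0 N) : NebCusp N k (F ∣[k] mapGL ℝ γ) := by
  have hinv := nebInv_slash hF.inv γ hγ
  have hhol : MDiff (F ∣[k] mapGL ℝ γ) := by
    obtain ⟨G, rfl⟩ := hF
    exact (CuspForm.translate G (mapGL ℝ γ)).holo'
  obtain ⟨G, rfl⟩ := hF
  refine ⟨{ toSlashInvariantForm := nebSIF hinv, holo' := hhol, zero_at_cusps' := ?_ }, rfl⟩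
  intro c hc
  exact OnePoint.IsZeroAt.smul_iff.mp (G.zero_at_cusps' (neben_isCusp_smul hc γ))

theorem neben_isZeroAt_sub {c : OnePoint ℝ} {k : ℤ} {F G : ℍ → ℂ} (hF : c.IsZeroAt F k)
    (hG : c.IsZeroAt G k) : c.IsZeroAt (F - G) k := by
  intro g hg
  have h1 := hF g hg
  have h2 := hG g hg
  have : (F - G) ∣[k] g = F ∣[k] g - G ∣[k] g := by
    rw [sub_eq_add_neg, SlashAction.add_slash, SlashAction.neg_slash, ← sub_eq_add_neg]
  rw [this]
  have h3 : Filter.Tendsto (F ∣[k] g - G ∣[k] g) atImInfty (nhds (0 - 0)) :=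
    Filter.Tendsto.sub h1 h2
  rw [sub_zero] at h3
  exact h3

/-- if `F` is a cusp form on `Γ₁(N)` and `V_p F` is invariant under `Γ₁(N)`, then `V_p F` is a
cusp form on `Γ₁(N)` -/
theorem NebCusp.diag {N : ℕ} [NeZero N] {k : ℤ} {F : ℍ → ℂ} (hF : NebCusp N k F) (p : ℕ)
    (hV : NebInv N k (F ∣[k] heckeDiagMatrix p)) : NebCusp N k (F ∣[k] heckeDiagMatrix p) := by
  have hhol : MDiff (F ∣[k] heckeDiagMatrix p) := (hF.nice.diag k p).hol
  obtain ⟨G, rfl⟩ := hF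
  refine ⟨{ toSlashInvariantForm := nebSIF hV, holo' := hhol, zero_at_cusps' := ?_ }, rfl⟩
  intro c hc
  have h1 := CuspFormClass.isZeroAt_heckeT G p hc
  have h2 := CuspFormClass.isZeroAt_heckeU G p hc
  have := neben_isZeroAt_sub h1 h2
  rw [← neben_slash_diag_eq] at this
  exact this

/-- `V_p` is injective -/
theorem neben_diag_injective {k : ℤ} {p : ℕ} {F : ℍ → ℂ} (h : F ∣[k] heckeDiagMatrix p = 0) :
    F = 0 := by
  have : (F ∣[k] heckeDiagMatrix p) ∣[k] (heckeDiagMatrix p)⁻¹ = F := by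
    rw [← SlashAction.slash_mul, mul_inv_cancel, SlashAction.slash_one]
  rw [← this, h, SlashAction.zero_slash]

/-- the Sturm bound for cusp forms on `Γ₁(N)` -/
theorem neben_sturm (N : ℕ) [NeZero N] (k : ℤ) :
    ∃ B : ℕ, ∀ F' : ℍ → ℂ, NebCusp N k F' →
      (∀ n ≤ B, ModularFormClass.qCoeff F' n = 0) → F' = 0 := by
  refine ⟨(k * ((Gamma1 N : Subgroup SL(2, ℤ)) : Subgroup (GL (Fin 2) ℝ)).relIndex
    𝒮ℒ).toNat / 12, ?_⟩
  rintro _ ⟨G, rfl⟩ hG
  set M : ModularForm (Gamma1 N) k :=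
    { toSlashInvariantForm := G.toSlashInvariantForm
      holo' := G.holo'
      bdd_at_cusps' := fun hc g hg => (G.zero_at_cusps' hc g hg).isBoundedAtImInfty } with hM
  have h0 : M = 0 := by
    refine ModularForm.sturm_bound_of_isArithmetic (neben_one_mem_strictPeriods N) ?_
    refine lt_of_lt_of_le ?_ (PowerSeries.nat_le_order _ ((k * ((Gamma1 N : Subgroup SL(2, ℤ)) :
      Subgroup (GL (Fin 2) ℝ)).relIndex 𝒮ℒ).toNat / 12 + 1) ?_)
    · exact_mod_cast Nat.lt_succ_self _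
    · intro i hi
      exact hG i (Nat.lt_succ_iff.mp hi)
  have : (⇑M : ℍ → ℂ) = 0 := by rw [h0]; rfl
  exact this

/-- iterating `V_p` -/
theorem neben_iterate {N : ℕ} [NeZero N] {k : ℤ} {p : ℕ} (hp : p.Prime) (hpN : ¬ p ∣ N) (m : ℕ) :
    ∀ F : ℍ → ℂ, NebCusp N k F → NebInv N k (F ∣[k] heckeDiagMatrix p) → ∀ r : ℕ,
      (∀ n < r, ModularFormClass.qCoeff F n = 0) →
      ∃ F' : ℍ → ℂ, NebCusp N k F' ∧ (∀ n < p ^ m * r, ModularFormClass.qCoeff F' n = 0) ∧
        (F' = 0 → F = 0) := by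
  induction m with
  | zero =>
    intro F hF _ r hr
    exact ⟨F, hF, by simpa using hr, id⟩
  | succ m ih =>
    intro F hF hV r hr
    have hF1 : NebCusp N k (F ∣[k] heckeDiagMatrix p) := hF.diag p hV
    have hV1 := nebInv_diag_diag hp hpN hF.inv hV
    have hr1 : ∀ n < p * r, ModularFormClass.qCoeff (F ∣[k] heckeDiagMatrix p) n = 0 := by
      intro n hn
      rw [neben_qCoeff_diag hF.nice k hp.ne_zero]
      split_ifs with h
      · rw [hr (n / p) (Nat.div_lt_of_lt_mul hn), mul_zero]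
      · rfl
    obtain ⟨F', hF', hvan, himp⟩ := ih _ hF1 hV1 (p * r) hr1
    refine ⟨F', hF', ?_, fun h => neben_diag_injective (himp h)⟩
    intro n hn
    apply hvan
    rw [pow_succ, mul_assoc] at hn
    exact hn

/-- **The `V_p`-lemma**: a cusp form `F` on `Γ₁(N)` such that `V_p F` is invariant under `Γ₁(N)`
(`p ∤ N` prime) vanishes. -/
theorem neben_V_lemma {N : ℕ} [NeZero N] {k : ℤ} {p : ℕ} (hp : p.Prime) (hpN : ¬ p ∣ N)
    {F : ℍ → ℂ} (hF : NebCusp N k F) (hV : NebInv N k (F ∣[k] heckeDiagMatrix p)) : F = 0 := by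
  obtain ⟨B, hB⟩ := neben_sturm N k
  obtain ⟨F', hF', hvan, himp⟩ := neben_iterate hp hpN (B + 1) F hF hV 1
    (by
      intro n hn
      interval_cases n
      exact hF.qCoeff_zero)
  apply himp
  apply hB F' hF'
  intro n hn
  apply hvan
  rw [mul_one]
  calc n ≤ B := hn
    _ < B + 1 := Nat.lt_succ_self B
    _ < 2 ^ (B + 1) := Nat.lt_two_pow_self
    _ ≤ p ^ (B + 1) := Nat.pow_le_pow_left hp.two_le _

/-- the Hecke relation at `p` as an identity of functions: `U_p f + ε(p) V_p f = a_p f` -/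
theorem neben_hecke_rel {N : ℕ} [NeZero N] (ε : DirichletCharacter ℂ N)
    (f : CuspForm (Gamma1 N) 1) (hf : IsHeckeEigen N ε f) {p : ℕ} (hp : p.Prime)
    (hpN : ¬ p ∣ N) :
    heckeU 1 p ⇑f + ε (p : ZMod N) • ((⇑f : ℍ → ℂ) ∣[(1 : ℤ)] heckeDiagMatrix p) =
      ModularFormClass.qCoeff f p • (⇑f : ℍ → ℂ) := by
  have hF : NebCusp N 1 ⇑f := nebCusp_coe f
  refine neben_eq_of_qCoeff ((hF.nice.heckeU 1 p).add ((hF.nice.diag 1 p).smul _))
    (hF.nice.smul _) ?_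
  intro n
  rw [neben_qCoeff_add (hF.nice.heckeU 1 p) ((hF.nice.diag 1 p).smul _),
    neben_qCoeff_heckeU hF.nice 1 hp.ne_zero, neben_qCoeff_smul (hF.nice.diag 1 p),
    neben_qCoeff_diag hF.nice 1 hp.ne_zero, neben_qCoeff_smul hF.nice]
  have := hf.2 p hp hpN n
  rw [mul_comm n p]
  simp only [sub_self, zpow_zero, one_mul]
  exact this

/-- **Nebentypus at a prime**: `f ∣ γ = ε(p) f` for `γ ∈ Γ₀(N)` with lower right entry `≡ p`. -/
theorem neben_slash_eq {N : ℕ} [NeZero N] (ε : DirichletCharacter ℂ N)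
    (f : CuspForm (Gamma1 N) 1) (hf : IsHeckeEigen N ε f) {p : ℕ} (hp : p.Prime)
    (hpN : ¬ p ∣ N) (γ : SL(2, ℤ)) (hγ : γ ∈ Gamma0 N)
    (hγ1 : ((γ 1 1 : ℤ) : ZMod N) = (p : ZMod N)) :
    (⇑f : ℍ → ℂ) ∣[(1 : ℤ)] mapGL ℝ γ = ε (p : ZMod N) • (⇑f : ℍ → ℂ) := by
  have hF : NebCusp N 1 ⇑f := nebCusp_coe f
  have h1 := neben_hecke_rel ε f hf hp hpN
  set h : ℍ → ℂ := (⇑f : ℍ → ℂ) ∣[(1 : ℤ)] mapGL ℝ γ - ε (p : ZMod N) • (⇑f : ℍ → ℂ) with hh
  have hh1 : NebCusp N 1 h := (hF.slash γ hγ).sub (hF.smul _)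
  have hh2 : h ∣[(1 : ℤ)] heckeDiagMatrix p =
      (heckeU 1 p ⇑f + ((⇑f : ℍ → ℂ) ∣[(1 : ℤ)] mapGL ℝ γ) ∣[(1 : ℤ)] heckeDiagMatrix p) -
        ModularFormClass.qCoeff f p • (⇑f : ℍ → ℂ) := by
    rw [← h1, hh, sub_eq_add_neg, SlashAction.add_slash, SlashAction.neg_slash,
      ModularForm.smul_slash, σ_heckeDiagMatrix]
    simp only [ContinuousAlgEquiv.refl_apply]
    abel
  have hV : NebInv N 1 (h ∣[(1 : ℤ)] heckeDiagMatrix p) := by
    rw [hh2]
    exact nebInv_sub (nebInv_heckeT hp hpN hF.inv γ hγ hγ1) (nebInv_smul hF.inv _)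
  exact sub_eq_zero.mp (neben_V_lemma hp hpN hh1 hV)

/-- **Reusable**: the Hecke operator `T_p` on `S₁(Γ₁(N))`, `p ∤ N`, with the diamond operator
given by any `γ ∈ Γ₀(N)` with lower right entry `≡ p mod N`: there is a cusp form `g'` with
`a_n(g') = a_{pn}(g) + [p ∣ n] a_{n/p}(g ∣ γ)`. -/
theorem neben_exists_heckeT {N : ℕ} [NeZero N] {p : ℕ} (hp : p.Prime) (hpN : ¬ p ∣ N)
    (g : CuspForm (Gamma1 N) 1) (γ : SL(2, ℤ)) (hγ : γ ∈ Gamma0 N)
    (hγ1 : ((γ 1 1 : ℤ) : ZMod N) = (p : ZMod N)) :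
    ∃ g' gd : CuspForm (Gamma1 N) 1, (⇑gd : ℍ → ℂ) = (⇑g : ℍ → ℂ) ∣[(1 : ℤ)] mapGL ℝ γ ∧
      (⇑g' : ℍ → ℂ) = heckeU 1 p ⇑g + (⇑gd : ℍ → ℂ) ∣[(1 : ℤ)] heckeDiagMatrix p ∧
      ∀ n : ℕ, ModularFormClass.qCoeff g' n = ModularFormClass.qCoeff g (p * n) +
        if p ∣ n then ModularFormClass.qCoeff gd (n / p) else 0 := by
  have hG : NebCusp N 1 ⇑g := nebCusp_coe g
  obtain ⟨gd, hgd⟩ := hG.slash γ hγ
  have hGd : NebCusp N 1 ⇑gd := nebCusp_coe gd
  have hinv : NebInv N 1 (heckeU 1 p ⇑g + (⇑gd : ℍ → ℂ) ∣[(1 : ℤ)] heckeDiagMatrix p) := by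
    rw [hgd]
    exact nebInv_heckeT hp hpN hG.inv γ hγ hγ1
  have hnice : NebNice (heckeU 1 p ⇑g + (⇑gd : ℍ → ℂ) ∣[(1 : ℤ)] heckeDiagMatrix p) :=
    (hG.nice.heckeU 1 p).add (hGd.nice.diag 1 p)
  refine ⟨{ toSlashInvariantForm := nebSIF hinv, holo' := hnice.hol, zero_at_cusps' := ?_ }, gd,
    hgd, rfl, ?_⟩
  · intro c hc
    have h1 := CuspFormClass.isZeroAt_heckeU g p hc
    have h2 := CuspFormClass.isZeroAt_heckeT gd p hc
    have h3 := CuspFormClass.isZeroAt_heckeU gd p hc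
    have h4 := neben_isZeroAt_sub h2 h3
    rw [← neben_slash_diag_eq] at h4
    exact h1.add h4
  · intro n
    change ModularFormClass.qCoeff
      (heckeU 1 p ⇑g + (⇑gd : ℍ → ℂ) ∣[(1 : ℤ)] heckeDiagMatrix p) n = _
    rw [neben_qCoeff_add (hG.nice.heckeU 1 p) (hGd.nice.diag 1 p),
      neben_qCoeff_heckeU hG.nice 1 hp.ne_zero, neben_qCoeff_diag hGd.nice 1 hp.ne_zero,
      mul_comm n p]
    simp only [sub_self, zpow_zero, one_mul]

/-- **(N)** a normalised Hecke eigenform (for `ε`) in `S₁(Γ₁(N))` has nebentypus `ε`. -/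
theorem stmtNeben : StmtNeben := by
  intro N _ ε f hf γ hγ z
  have hu : IsUnit (((γ 1 1 : ℤ) : ZMod N)) :=
    IsUnit.of_mul_eq_one _ (by rw [mul_comm]; exact neben_det_zmod γ hγ)
  obtain ⟨p, hpgt, hp, hpd⟩ := Nat.forall_exists_prime_gt_and_eq_mod hu N
  have hpN : ¬ p ∣ N := fun h =>
    absurd (Nat.le_of_dvd (Nat.pos_of_ne_zero (NeZero.ne N)) h) (not_le.mpr hpgt)
  have key := neben_slash_eq ε f hf hp hpN γ hγ hpd.symm
  have h1 := congrFun key z
  rw [hpd, ModularForm.slash_apply, neben_σ_mapGL] at h1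
  have hden : denom (mapGL ℝ γ) (z : ℂ) = (γ 1 0 : ℂ) * (z : ℂ) + (γ 1 1 : ℂ) := by
    simp [UpperHalfPlane.denom]
  have hden0 : denom (mapGL ℝ γ) (z : ℂ) ≠ 0 := UpperHalfPlane.denom_ne_zero _ z
  have hsmul : (mapGL ℝ γ) • z = γ • z := rfl
  have hdet : ((Matrix.GeneralLinearGroup.det (mapGL ℝ γ) : ℝˣ) : ℝ) = 1 := by
    simp
  rw [hsmul, hdet] at h1
  simp only [ContinuousAlgEquiv.refl_apply, abs_one, Complex.ofReal_one, one_zpow, mul_one,
    Pi.smul_apply, smul_eq_mul, zpow_neg, zpow_one] at h1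
  rw [← hden]
  field_simp at h1
  rw [h1]
  ring

end Fermat.Agent.S48


end ZBS48_003_3

/-! ### bundled: `Fermat.Agent.S48.NebenChar` -/
section ZBS48_003_4

/-!
# S48, piece HK: the Hecke operators `T_p` on forms with nebentypus (any weight)

* `neben_heckeT_slash0`: `T_p` commutes with the diamond operators.
* `NebChar N k χ F`: `F ∣[k] γ = χ(d_γ) F` for `γ ∈ Γ₀(N)`; `nebChar_iff_hasNebenK`.
* `nebChar_heckeT`: `T_p F = U_p F + χ(p) V_p F` has nebentypus `χ` again.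
* `nebChar_exists_heckeT_cusp`, `nebChar_exists_heckeT_mod`: `T_p` on cusp forms / modular
  forms on `Γ₁(N)` with nebentypus `χ`, with the `q`-expansion of the image.
-/

set_option autoImplicit false

open CongruenceSubgroup UpperHalfPlane Matrix.SpecialLinearGroup
open scoped MatrixGroups ModularForm OnePoint Manifold

namespace Fermat.Agent.S48

open ModularForm
open P2MW.S_ModularForm_heckeT_slash_eq_self_of_mem_Gamma0.ModularForm.HeckeSlashInvariance

/-- the terms of `T_p` are permuted by `δ ∈ Γ₀(N)`, up to the diamond operator of `δ` -/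
theorem nebChar_term_slash {N : ℕ} {k : ℤ} {p : ℕ} [Fact p.Prime] (hpN : ¬ p ∣ N) {f : ℍ → ℂ}
    (hf : NebInv N k f) (γp : SL(2, ℤ)) (hγp : γp ∈ Gamma0 N)
    (hγp1 : ((γp 1 1 : ℤ) : ZMod N) = (p : ZMod N))
    (g : SL(2, ℤ)) (hg0 : g ∈ Gamma0 N) (x : OnePoint (ZMod p)) :
    nebTerm k p f (f ∣[k] mapGL ℝ γp) x ∣[k] mapGL ℝ g =
      nebTerm k p (f ∣[k] mapGL ℝ g) ((f ∣[k] mapGL ℝ g) ∣[k] mapGL ℝ γp)
        (redMatrix p g • x) := by
  have hp : p ≠ 0 := (Fact.out : p.Prime).ne_zero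
  have hg10 : ((g 1 0 : ℤ) : ZMod N) = 0 := Gamma0_mem.mp hg0
  have hcop : IsCoprime (N : ℤ) (p : ℤ) :=
    Nat.isCoprime_iff_coprime.mpr ((Nat.Prime.coprime_iff_not_dvd Fact.out).mpr hpN).symm
  have hgγ : (f ∣[k] mapGL ℝ g) ∣[k] mapGL ℝ γp = f ∣[k] mapGL ℝ (g * γp) := by
    rw [← SlashAction.slash_mul, ← map_mul]
  have hgγ0 : g * γp ∈ Gamma0 N := (Gamma0 N).mul_mem hg0 hγp
  have hgγ11 : (((g * γp) 1 1 : ℤ) : ZMod N) = ((g 1 1 : ℤ) : ZMod N) * (p : ZMod N) := by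
    rw [neben_mul_apply_11 g γp hg0, hγp1]
  induction x using OnePoint.rec with
  | infty =>
    rw [OnePoint.smul_infty_eq_ite]
    by_cases hc : ((g 1 0 : ℤ) : ZMod p) = 0
    · rw [if_pos (by simpa using hc), nebTerm_infty, nebTerm_infty]
      obtain ⟨e, he⟩ := (ZMod.intCast_zmod_eq_zero_iff_dvd _ _).mp hc
      obtain ⟨g', hg'10, hg'11, hmul⟩ := neben_heckeDiagMatrix_mul_of_eq' hp g e he
      have hg'0 : g' ∈ Gamma0 N := by
        rw [Gamma0_mem, hg'10, ZMod.intCast_zmod_eq_zero_iff_dvd]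
        have : (N : ℤ) ∣ g 1 0 := (ZMod.intCast_zmod_eq_zero_iff_dvd _ _).mp hg10
        exact hcop.dvd_of_dvd_mul_left (he ▸ this)
      have e1 : (f ∣[k] mapGL ℝ γp) ∣[k] mapGL ℝ g' =
          (f ∣[k] mapGL ℝ g) ∣[k] mapGL ℝ γp := by
        rw [hgγ, ← SlashAction.slash_mul, ← map_mul]
        refine neben_slash_congr hf _ _ ((Gamma0 N).mul_mem hγp hg'0) hgγ0 ?_
        rw [neben_mul_apply_11 γp g' hγp, hg'11, hgγ11, hγp1, mul_comm]
      rw [← SlashAction.slash_mul, hmul, SlashAction.slash_mul, e1]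
    · rw [if_neg (by simpa using hc), nebTerm_infty, nebTerm_coe]
      set y : ZMod p := redMatrix p g 0 0 / redMatrix p g 1 0 with hy
      obtain ⟨e, he⟩ : (p : ℤ) ∣ g 1 1 - g 1 0 * y.val := by
        rw [← ZMod.intCast_zmod_eq_zero_iff_dvd]
        push_cast
        rw [ZMod.natCast_zmod_val, hy, redMatrix_apply_zero_zero, redMatrix_apply_one_zero,
          mul_div_cancel₀ _ hc, sub_self]
      obtain ⟨g', hg'10, hg'11, hmul⟩ :=
        neben_heckeDiagMatrix_mul_of_eq hp g y.val e (by linear_combination he)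
      have hg'0 : g' ∈ Gamma0 N := by
        rw [Gamma0_mem, hg'10]; exact hg10
      have e1 : (f ∣[k] mapGL ℝ γp) ∣[k] mapGL ℝ g' = f ∣[k] mapGL ℝ g := by
        rw [← SlashAction.slash_mul, ← map_mul]
        refine neben_slash_congr hf _ _ ((Gamma0 N).mul_mem hγp hg'0) hg0 ?_
        rw [neben_mul_apply_11 γp g' hγp, hg'11, hγp1]
        have h1 : (p : ZMod N) * ((e : ℤ) : ZMod N) = ((g 1 1 : ℤ) : ZMod N) := by
          have := congrArg (Int.cast : ℤ → ZMod N) he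
          push_cast at this
          rw [hg10, zero_mul, sub_zero] at this
          exact this.symm
        exact h1
      rw [← SlashAction.slash_mul, hmul, SlashAction.slash_mul, e1]
  | coe j =>
    rw [OnePoint.smul_some_eq_ite]
    by_cases h : redMatrix p g 1 0 * j + redMatrix p g 1 1 = 0
    · rw [if_pos h, nebTerm_infty, nebTerm_coe]
      rw [redMatrix_apply_one_zero, redMatrix_apply_one_one] at h
      obtain ⟨e, he⟩ : (p : ℤ) ∣ g 0 0 + j.val * g 1 0 := by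
        rw [← ZMod.intCast_zmod_eq_zero_iff_dvd]
        push_cast
        rw [ZMod.natCast_zmod_val]
        linear_combination h
      obtain ⟨g', hg'10, hg'11, hmul⟩ := neben_heckeMatrix_mul_of_eq' hp g j.val e he
      have hg'0 : g' ∈ Gamma0 N := by
        rw [Gamma0_mem, hg'10]; exact hg10
      have e1 : f ∣[k] mapGL ℝ g' = (f ∣[k] mapGL ℝ g) ∣[k] mapGL ℝ γp := by
        rw [hgγ]
        refine neben_slash_congr hf _ _ hg'0 hgγ0 ?_
        rw [hg'11, hgγ11]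
        push_cast
        rw [mul_comm]
      rw [← SlashAction.slash_mul, hmul, SlashAction.slash_mul, e1]
    · rw [if_neg h, nebTerm_coe, nebTerm_coe]
      set y : ZMod p := (redMatrix p g 0 0 * j + redMatrix p g 0 1) /
        (redMatrix p g 1 0 * j + redMatrix p g 1 1) with hy
      obtain ⟨e, he⟩ : (p : ℤ) ∣ g 0 1 + j.val * g 1 1 - y.val * (g 0 0 + j.val * g 1 0) := by
        rw [← ZMod.intCast_zmod_eq_zero_iff_dvd]
        push_cast
        rw [ZMod.natCast_zmod_val, ZMod.natCast_zmod_val,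
          show ((g 0 0 : ℤ) : ZMod p) + j * ((g 1 0 : ℤ) : ZMod p)
            = redMatrix p g 1 0 * j + redMatrix p g 1 1 by
              rw [redMatrix_apply_one_zero, redMatrix_apply_one_one]; ring,
          hy, div_mul_cancel₀ _ h, redMatrix_apply_zero_zero, redMatrix_apply_zero_one]
        ring
      obtain ⟨g', hg'10, hg'11, hmul⟩ :=
        neben_heckeMatrix_mul_of_eq hp g j.val y.val e (by linear_combination he)
      have hg'0 : g' ∈ Gamma0 N := by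
        rw [Gamma0_mem, hg'10]
        push_cast
        rw [hg10, mul_zero]
      have e1 : f ∣[k] mapGL ℝ g' = f ∣[k] mapGL ℝ g := by
        refine neben_slash_congr hf _ _ hg'0 hg0 ?_
        rw [hg'11]
        push_cast
        rw [hg10, zero_mul, sub_zero]
      rw [← SlashAction.slash_mul, hmul, SlashAction.slash_mul, e1]

/-- **`T_p` commutes with the diamond operators**: for `δ ∈ Γ₀(N)`,
`(T_p f) ∣ δ = T_p (f ∣ δ)`. -/
theorem neben_heckeT_slash0 {N : ℕ} {k : ℤ} {p : ℕ} (hp : p.Prime) (hpN : ¬ p ∣ N) {f : ℍ → ℂ}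
    (hf : NebInv N k f) (γp : SL(2, ℤ)) (hγp : γp ∈ Gamma0 N)
    (hγp1 : ((γp 1 1 : ℤ) : ZMod N) = (p : ZMod N)) (δ : SL(2, ℤ)) (hδ : δ ∈ Gamma0 N) :
    (heckeU k p f + (f ∣[k] mapGL ℝ γp) ∣[k] heckeDiagMatrix p) ∣[k] mapGL ℝ δ =
      heckeU k p (f ∣[k] mapGL ℝ δ) +
        ((f ∣[k] mapGL ℝ δ) ∣[k] mapGL ℝ γp) ∣[k] heckeDiagMatrix p := by
  have : Fact p.Prime := ⟨hp⟩
  rw [neben_sum_nebTerm, neben_sum_nebTerm, SlashAction.sum_slash]
  calc ∑ x : OnePoint (ZMod p), (nebTerm k p f (f ∣[k] mapGL ℝ γp) x) ∣[k] mapGL ℝ δ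
      = ∑ x : OnePoint (ZMod p), nebTerm k p (f ∣[k] mapGL ℝ δ)
          ((f ∣[k] mapGL ℝ δ) ∣[k] mapGL ℝ γp) (redMatrix p δ • x) :=
        Finset.sum_congr rfl fun x _ ↦ nebChar_term_slash hpN hf γp hγp hγp1 δ hδ x
    _ = ∑ x : OnePoint (ZMod p), nebTerm k p (f ∣[k] mapGL ℝ δ)
          ((f ∣[k] mapGL ℝ δ) ∣[k] mapGL ℝ γp) x :=
        Equiv.sum_comp (MulAction.toPerm (redMatrix p δ))
          (fun x ↦ nebTerm k p (f ∣[k] mapGL ℝ δ) ((f ∣[k] mapGL ℝ δ) ∣[k] mapGL ℝ γp) x)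

/-- `F` has nebentypus `χ` in weight `k` (slash form) -/
def NebChar (N : ℕ) (k : ℤ) (χ : DirichletCharacter ℂ N) (F : ℍ → ℂ) : Prop :=
  ∀ γ : SL(2, ℤ), γ ∈ Gamma0 N → F ∣[k] mapGL ℝ γ = χ ((γ 1 1 : ℤ) : ZMod N) • F

theorem NebChar.inv {N : ℕ} {k : ℤ} {χ : DirichletCharacter ℂ N} {F : ℍ → ℂ}
    (hF : NebChar N k χ F) : NebInv N k F := by
  intro γ hγ
  rw [hF γ (Gamma1_in_Gamma0 N hγ), ((Gamma1_mem N γ).mp hγ).2.1, map_one, one_smul]

theorem neben_slash_apply (k : ℤ) (F : ℍ → ℂ) (γ : SL(2, ℤ)) (z : ℍ) :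
    (F ∣[k] mapGL ℝ γ) z =
      F (γ • z) * ((γ 1 0 : ℂ) * (z : ℂ) + (γ 1 1 : ℂ)) ^ (-k) := by
  rw [ModularForm.slash_apply, neben_σ_mapGL]
  have hden : denom (mapGL ℝ γ) (z : ℂ) = (γ 1 0 : ℂ) * (z : ℂ) + (γ 1 1 : ℂ) := by
    simp [UpperHalfPlane.denom]
  have hsmul : (mapGL ℝ γ) • z = γ • z := rfl
  have hdet : ((Matrix.GeneralLinearGroup.det (mapGL ℝ γ) : ℝˣ) : ℝ) = 1 := by
    simp
  rw [hsmul, hdet, hden]
  simp

theorem neben_denom_ne_zero (γ : SL(2, ℤ)) (z : ℍ) :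
    (γ 1 0 : ℂ) * (z : ℂ) + (γ 1 1 : ℂ) ≠ 0 := by
  have hden : denom (mapGL ℝ γ) (z : ℂ) = (γ 1 0 : ℂ) * (z : ℂ) + (γ 1 1 : ℂ) := by
    simp [UpperHalfPlane.denom]
  rw [← hden]
  exact UpperHalfPlane.denom_ne_zero _ z

/-- the slash form and the pointwise form of "nebentypus `χ`" agree -/
theorem nebChar_iff_hasNebenK {N : ℕ} (k : ℕ) (χ : DirichletCharacter ℂ N) (F : ℍ → ℂ) :
    NebChar N k χ F ↔ HasNebenK N χ k F := by
  constructor
  · intro h γ hγ z
    have h1 := congrFun (h γ hγ) z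
    rw [neben_slash_apply, Pi.smul_apply, smul_eq_mul, zpow_neg, zpow_natCast] at h1
    have h0 := pow_ne_zero k (neben_denom_ne_zero γ z)
    field_simp at h1
    rw [h1]
    ring
  · intro h γ hγ
    funext z
    rw [neben_slash_apply, Pi.smul_apply, smul_eq_mul, zpow_neg, zpow_natCast, h γ hγ z]
    have h0 := pow_ne_zero k (neben_denom_ne_zero γ z)
    field_simp

/-- **`T_p` preserves the nebentypus**: if `F` has nebentypus `χ`, so has
`T_p F = U_p F + χ(p) V_p F`. -/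
theorem nebChar_heckeT {N : ℕ} [NeZero N] {k : ℤ} {χ : DirichletCharacter ℂ N} {p : ℕ}
    (hp : p.Prime) (hpN : ¬ p ∣ N) {F : ℍ → ℂ} (hF : NebChar N k χ F) :
    NebChar N k χ (heckeU k p F + χ (p : ZMod N) • (F ∣[k] heckeDiagMatrix p)) := by
  obtain ⟨γp, hγp, hγp1, -⟩ := neben_exists_gammaP hp hpN
  have key : ∀ c : ℂ, heckeU k p (c • F) + ((c • F) ∣[k] mapGL ℝ γp) ∣[k] heckeDiagMatrix p =
      c • (heckeU k p F + χ (p : ZMod N) • (F ∣[k] heckeDiagMatrix p)) := by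
    intro c
    rw [heckeU_smul, ModularForm.smul_slash, neben_σ_mapGL, hF γp hγp, hγp1,
      ModularForm.smul_slash, σ_heckeDiagMatrix, ModularForm.smul_slash, σ_heckeDiagMatrix]
    simp only [ContinuousAlgEquiv.refl_apply, smul_add]
  intro δ hδ
  have h1 := neben_heckeT_slash0 hp hpN hF.inv γp hγp hγp1 δ hδ
  have h2 := key 1
  rw [one_smul, one_smul] at h2
  rw [← h2, h1, hF δ hδ, key, h2]

/-- `T_p` on cusp forms of weight `k` on `Γ₁(N)` with nebentypus `χ` -/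
theorem nebChar_exists_heckeT_cusp {N : ℕ} [NeZero N] {k : ℤ} (χ : DirichletCharacter ℂ N)
    {p : ℕ} (hp : p.Prime) (hpN : ¬ p ∣ N) (g : CuspForm (Gamma1 N) k)
    (hg : NebChar N k χ ⇑g) :
    ∃ g' : CuspForm (Gamma1 N) k, NebChar N k χ ⇑g' ∧
      (⇑g' : ℍ → ℂ) = heckeU k p ⇑g + χ (p : ZMod N) • ((⇑g : ℍ → ℂ) ∣[k] heckeDiagMatrix p) ∧
      ∀ n : ℕ, ModularFormClass.qCoeff g' n = ModularFormClass.qCoeff g (p * n) +
        (p : ℂ) ^ (k - 1) * χ (p : ZMod N) *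
          (if p ∣ n then ModularFormClass.qCoeff g (n / p) else 0) := by
  have hG : NebCusp N k ⇑g := nebCusp_coe g
  have hchar := nebChar_heckeT hp hpN hg
  have hnice : NebNice (heckeU k p ⇑g + χ (p : ZMod N) • ((⇑g : ℍ → ℂ) ∣[k] heckeDiagMatrix p)) :=
    (hG.nice.heckeU k p).add ((hG.nice.diag k p).smul _)
  refine ⟨{ toSlashInvariantForm := nebSIF hchar.inv
            holo' := hnice.hol
            zero_at_cusps' := ?_ }, hchar, rfl, ?_⟩
  · intro c hc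
    have h1 := CuspFormClass.isZeroAt_heckeU g p hc
    have h2 := CuspFormClass.isZeroAt_heckeT g p hc
    have h4 := neben_isZeroAt_sub h2 h1
    rw [← neben_slash_diag_eq] at h4
    refine h1.add ?_
    intro γ hγ
    have h5 := h4 γ hγ
    rw [ModularForm.smul_slash]
    exact h5.smul _
  · intro n
    change ModularFormClass.qCoeff
      (heckeU k p ⇑g + χ (p : ZMod N) • ((⇑g : ℍ → ℂ) ∣[k] heckeDiagMatrix p)) n = _
    rw [neben_qCoeff_add (hG.nice.heckeU k p) ((hG.nice.diag k p).smul _),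
      neben_qCoeff_heckeU hG.nice k hp.ne_zero, neben_qCoeff_smul (hG.nice.diag k p),
      neben_qCoeff_diag hG.nice k hp.ne_zero, mul_comm n p]
    split_ifs <;> ring

theorem neben_isBoundedAt_sub {c : OnePoint ℝ} {k : ℤ} {F G : ℍ → ℂ} (hF : c.IsBoundedAt F k)
    (hG : c.IsBoundedAt G k) : c.IsBoundedAt (F - G) k := by
  intro g hg
  have h1 := hF g hg
  have h2 := hG g hg
  have : (F - G) ∣[k] g = F ∣[k] g + (-1 : ℂ) • (G ∣[k] g) := by
    rw [sub_eq_add_neg, SlashAction.add_slash, SlashAction.neg_slash]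
    simp
  rw [this]
  exact h1.add (h2.const_smul_left (-1))

/-- `T_p` on modular forms of weight `k` on `Γ₁(N)` with nebentypus `χ` -/
theorem nebChar_exists_heckeT_mod {N : ℕ} [NeZero N] {k : ℤ} (χ : DirichletCharacter ℂ N)
    {p : ℕ} (hp : p.Prime) (hpN : ¬ p ∣ N) (g : ModularForm (Gamma1 N) k)
    (hg : NebChar N k χ ⇑g) :
    ∃ g' : ModularForm (Gamma1 N) k, NebChar N k χ ⇑g' ∧
      (⇑g' : ℍ → ℂ) = heckeU k p ⇑g + χ (p : ZMod N) • ((⇑g : ℍ → ℂ) ∣[k] heckeDiagMatrix p) ∧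
      ∀ n : ℕ, ModularFormClass.qCoeff g' n = ModularFormClass.qCoeff g (p * n) +
        (p : ℂ) ^ (k - 1) * χ (p : ZMod N) *
          (if p ∣ n then ModularFormClass.qCoeff g (n / p) else 0) := by
  have hGnice : NebNice ⇑g :=
    ⟨nebInv_periodic hg.inv, g.holo',
      OnePoint.isBoundedAt_infty_iff.mp (g.bdd_at_cusps' (neben_isCusp_infty N))⟩
  have hchar := nebChar_heckeT hp hpN hg
  have hnice : NebNice (heckeU k p ⇑g + χ (p : ZMod N) • ((⇑g : ℍ → ℂ) ∣[k] heckeDiagMatrix p)) :=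
    (hGnice.heckeU k p).add ((hGnice.diag k p).smul _)
  refine ⟨{ toSlashInvariantForm := nebSIF hchar.inv
            holo' := hnice.hol
            bdd_at_cusps' := ?_ }, hchar, rfl, ?_⟩
  · intro c hc
    have h1 := ModularFormClass.isBoundedAt_heckeU g p hc
    have h2 := ModularFormClass.isBoundedAt_heckeT g p hc
    have h4 := neben_isBoundedAt_sub h2 h1
    rw [← neben_slash_diag_eq] at h4
    refine h1.add ?_
    intro γ hγ
    have h5 := h4 γ hγ
    rw [ModularForm.smul_slash]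
    exact h5.const_smul_left _
  · intro n
    change ModularFormClass.qCoeff
      (heckeU k p ⇑g + χ (p : ZMod N) • ((⇑g : ℍ → ℂ) ∣[k] heckeDiagMatrix p)) n = _
    rw [neben_qCoeff_add (hGnice.heckeU k p) ((hGnice.diag k p).smul _),
      neben_qCoeff_heckeU hGnice k hp.ne_zero, neben_qCoeff_smul (hGnice.diag k p),
      neben_qCoeff_diag hGnice k hp.ne_zero, mul_comm n p]
    split_ifs <;> ring

/-- `T_p` on `S₁(Γ₁(N))` with nebentypus `χ`, in the form of `S48/Plan2.lean` -/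
theorem nebChar_heckeT_one {N : ℕ} [NeZero N] (χ : DirichletCharacter ℂ N)
    {p : ℕ} (hp : p.Prime) (hpN : ¬ p ∣ N) (g : CuspForm (Gamma1 N) 1)
    (hg : HasNebenK N χ 1 g) :
    ∃ g' : CuspForm (Gamma1 N) 1, HasNebenK N χ 1 g' ∧
      ∀ n : ℕ, ModularFormClass.qCoeff g' n = ModularFormClass.qCoeff g (p * n) +
        χ (p : ZMod N) * (if p ∣ n then ModularFormClass.qCoeff g (n / p) else 0) := by
  have hg' : NebChar N ((1 : ℕ) : ℤ) χ ⇑g := (nebChar_iff_hasNebenK 1 χ _).mpr hg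
  rw [Nat.cast_one] at hg'
  obtain ⟨g', h1, -, h3⟩ := nebChar_exists_heckeT_cusp χ hp hpN g hg'
  refine ⟨g', ?_, ?_⟩
  · exact (nebChar_iff_hasNebenK 1 χ _).mp (by simpa using h1)
  · intro n
    rw [h3 n]
    simp

/-- `T_p` on `S₂(Γ₁(N))` with nebentypus `χ`, in the form of `S48/Plan2.lean` -/
theorem nebChar_heckeT_two {N : ℕ} [NeZero N] (χ : DirichletCharacter ℂ N)
    {p : ℕ} (hp : p.Prime) (hpN : ¬ p ∣ N) (g : CuspForm (Gamma1 N) 2)
    (hg : HasNebenK N χ 2 g) :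
    ∃ g' : CuspForm (Gamma1 N) 2, HasNebenK N χ 2 g' ∧
      ∀ n : ℕ, ModularFormClass.qCoeff g' n = ModularFormClass.qCoeff g (p * n) +
        (p : ℂ) * χ (p : ZMod N) * (if p ∣ n then ModularFormClass.qCoeff g (n / p) else 0) := by
  have hg' : NebChar N ((2 : ℕ) : ℤ) χ ⇑g := (nebChar_iff_hasNebenK 2 χ _).mpr hg
  rw [Nat.cast_ofNat] at hg'
  obtain ⟨g', h1, -, h3⟩ := nebChar_exists_heckeT_cusp χ hp hpN g hg'
  refine ⟨g', ?_, ?_⟩
  · exact (nebChar_iff_hasNebenK 2 χ _).mp (by simpa using h1)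
  · intro n
    rw [h3 n]
    norm_num

/-- a Hecke eigenform in `S₁(Γ₁(N))` (for `ε`) has nebentypus `ε`, in the form of
`S48/Plan2.lean` -/
theorem nebChar_of_isHeckeEigen {N : ℕ} [NeZero N] (ε : DirichletCharacter ℂ N)
    (f : CuspForm (Gamma1 N) 1) (hf : IsHeckeEigen N ε f) : HasNebenK N ε 1 f := by
  intro γ hγ z
  rw [pow_one]
  exact stmtNeben N ε f hf γ hγ z

end Fermat.Agent.S48


end ZBS48_003_4

/-! ### bundled: `Fermat.Agent.S48.DSL.Space` -/
section ZBS48_003_5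

/-!
# S48 / DSL, part 1: the space `S_k(Γ₁(M), θ)` and its Hecke operators

* `dslV M k θ`: cusp forms of weight `k` on `Γ₁(M)` with nebentypus `θ`, a finite dimensional
  `ℂ`-vector space (`dsl_finiteDimensional`).
* `dslT hp hpM : dslV M k θ →ₗ[ℂ] dslV M k θ` the Hecke operator `T_p`, `p ∤ M`, with
  `dslT_qCoeff` and `dslT_comm`.
-/

set_option autoImplicit false

open CongruenceSubgroup UpperHalfPlane Matrix.SpecialLinearGroup
open scoped MatrixGroups ModularForm OnePoint Manifold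

namespace Fermat.Agent.S48

open ModularForm

theorem NebChar.add {N : ℕ} {k : ℤ} {χ : DirichletCharacter ℂ N} {F G : ℍ → ℂ}
    (hF : NebChar N k χ F) (hG : NebChar N k χ G) : NebChar N k χ (F + G) := by
  intro γ hγ
  rw [SlashAction.add_slash, hF γ hγ, hG γ hγ, smul_add]

theorem NebChar.smul {N : ℕ} {k : ℤ} {χ : DirichletCharacter ℂ N} {F : ℍ → ℂ}
    (hF : NebChar N k χ F) (c : ℂ) : NebChar N k χ (c • F) := by
  intro γ hγ
  rw [ModularForm.smul_slash, neben_σ_mapGL, hF γ hγ]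
  simp only [ContinuousAlgEquiv.refl_apply]
  rw [smul_comm]

theorem NebChar.zero {N : ℕ} {k : ℤ} {χ : DirichletCharacter ℂ N} :
    NebChar N k χ (0 : ℍ → ℂ) := by
  intro γ _
  rw [SlashAction.zero_slash, smul_zero]

/-- the space `S_k(Γ₁(M), θ)` -/
def dslV (M : ℕ) (k : ℤ) (θ : DirichletCharacter ℂ M) : Submodule ℂ (CuspForm (Gamma1 M) k) where
  carrier := {h | NebChar M k θ ⇑h}
  add_mem' := fun {a b} ha hb => by
    change NebChar M k θ (⇑a + ⇑b)
    exact NebChar.add ha hb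
  zero_mem' := by
    change NebChar M k θ (0 : ℍ → ℂ)
    exact NebChar.zero
  smul_mem' := fun c {a} ha => by
    change NebChar M k θ (c • ⇑a)
    exact NebChar.smul ha c

theorem mem_dslV {M : ℕ} {k : ℤ} {θ : DirichletCharacter ℂ M} (h : CuspForm (Gamma1 M) k) :
    h ∈ dslV M k θ ↔ NebChar M k θ ⇑h := Iff.rfl

/-! ### `q`-coefficients are linear, finite dimensionality -/

theorem dsl_nice {M : ℕ} {k : ℤ} (h : CuspForm (Gamma1 M) k) : NebNice ⇑h :=
  (nebCusp_coe h).nice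

theorem dsl_qCoeff_add {M : ℕ} {k : ℤ} (h h' : CuspForm (Gamma1 M) k) (n : ℕ) :
    ModularFormClass.qCoeff (⇑(h + h')) n =
      ModularFormClass.qCoeff (⇑h) n + ModularFormClass.qCoeff (⇑h') n :=
  neben_qCoeff_add (dsl_nice h) (dsl_nice h') n

theorem dsl_qCoeff_smul {M : ℕ} {k : ℤ} (c : ℂ) (h : CuspForm (Gamma1 M) k) (n : ℕ) :
    ModularFormClass.qCoeff (⇑(c • h)) n = c * ModularFormClass.qCoeff (⇑h) n :=
  neben_qCoeff_smul (dsl_nice h) c n

theorem dsl_qCoeff_sub {M : ℕ} {k : ℤ} (h h' : CuspForm (Gamma1 M) k) (n : ℕ) :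
    ModularFormClass.qCoeff (⇑(h - h')) n =
      ModularFormClass.qCoeff (⇑h) n - ModularFormClass.qCoeff (⇑h') n :=
  neben_qCoeff_sub (dsl_nice h) (dsl_nice h') n

theorem dsl_ext {M : ℕ} {k : ℤ} {h h' : CuspForm (Gamma1 M) k}
    (H : ∀ n, ModularFormClass.qCoeff (⇑h) n = ModularFormClass.qCoeff (⇑h') n) : h = h' :=
  DFunLike.coe_injective (neben_eq_of_qCoeff (dsl_nice h) (dsl_nice h') H)

/-- the truncated `q`-expansion -/
noncomputable def dslTrunc (M : ℕ) (k : ℤ) (B : ℕ) :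
    CuspForm (Gamma1 M) k →ₗ[ℂ] (Fin (B + 1) → ℂ) where
  toFun h := fun i => ModularFormClass.qCoeff (⇑h) i
  map_add' h h' := by
    funext i
    exact dsl_qCoeff_add h h' i
  map_smul' c h := by
    funext i
    exact dsl_qCoeff_smul c h i

instance dsl_finiteDimensional_cuspForm (M : ℕ) [NeZero M] (k : ℤ) :
    FiniteDimensional ℂ (CuspForm (Gamma1 M) k) := by
  obtain ⟨B, hB⟩ := neben_sturm M k
  refine FiniteDimensional.of_injective (dslTrunc M k B) ?_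
  rw [injective_iff_map_eq_zero]
  intro h hh
  have h0 : (⇑h : ℍ → ℂ) = 0 := by
    refine hB _ (nebCusp_coe h) ?_
    intro n hn
    have := congrFun hh ⟨n, Nat.lt_succ_of_le hn⟩
    exact this
  exact DFunLike.coe_injective h0

instance dsl_finiteDimensional (M : ℕ) [NeZero M] (k : ℤ) (θ : DirichletCharacter ℂ M) :
    FiniteDimensional ℂ (dslV M k θ) :=
  FiniteDimensional.finiteDimensional_submodule _

/-! ### The Hecke operators -/

/-- the Hecke operator `T_p`, as a function -/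
noncomputable def dslTfun {M : ℕ} [NeZero M] {k : ℤ} {θ : DirichletCharacter ℂ M} {p : ℕ}
    (hp : p.Prime) (hpM : ¬ p ∣ M) (h : dslV M k θ) : dslV M k θ :=
  ⟨Classical.choose (nebChar_exists_heckeT_cusp θ hp hpM h.1 h.2),
    (Classical.choose_spec (nebChar_exists_heckeT_cusp θ hp hpM h.1 h.2)).1⟩

theorem dslTfun_coe {M : ℕ} [NeZero M] {k : ℤ} {θ : DirichletCharacter ℂ M} {p : ℕ}
    (hp : p.Prime) (hpM : ¬ p ∣ M) (h : dslV M k θ) :
    (⇑(dslTfun hp hpM h).1 : ℍ → ℂ) =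
      heckeU k p ⇑h.1 + θ (p : ZMod M) • ((⇑h.1 : ℍ → ℂ) ∣[k] heckeDiagMatrix p) :=
  (Classical.choose_spec (nebChar_exists_heckeT_cusp θ hp hpM h.1 h.2)).2.1

theorem dslTfun_qCoeff {M : ℕ} [NeZero M] {k : ℤ} {θ : DirichletCharacter ℂ M} {p : ℕ}
    (hp : p.Prime) (hpM : ¬ p ∣ M) (h : dslV M k θ) (n : ℕ) :
    ModularFormClass.qCoeff (⇑(dslTfun hp hpM h).1) n =
      ModularFormClass.qCoeff (⇑h.1) (p * n) + (p : ℂ) ^ (k - 1) * θ (p : ZMod M) *
        (if p ∣ n then ModularFormClass.qCoeff (⇑h.1) (n / p) else 0) :=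
  (Classical.choose_spec (nebChar_exists_heckeT_cusp θ hp hpM h.1 h.2)).2.2 n

/-- the Hecke operator `T_p` on `S_k(Γ₁(M), θ)`, `p ∤ M` -/
noncomputable def dslT {M : ℕ} [NeZero M] {k : ℤ} {θ : DirichletCharacter ℂ M} {p : ℕ}
    (hp : p.Prime) (hpM : ¬ p ∣ M) : dslV M k θ →ₗ[ℂ] dslV M k θ where
  toFun := dslTfun hp hpM
  map_add' h h' := by
    apply Subtype.ext
    apply dsl_ext
    intro n
    rw [Submodule.coe_add, dsl_qCoeff_add, dslTfun_qCoeff, dslTfun_qCoeff, dslTfun_qCoeff,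
      Submodule.coe_add, dsl_qCoeff_add, dsl_qCoeff_add]
    split_ifs <;> ring
  map_smul' c h := by
    apply Subtype.ext
    apply dsl_ext
    intro n
    rw [RingHom.id_apply, Submodule.coe_smul, dsl_qCoeff_smul, dslTfun_qCoeff, dslTfun_qCoeff,
      Submodule.coe_smul, dsl_qCoeff_smul, dsl_qCoeff_smul]
    split_ifs <;> ring

theorem dslT_qCoeff {M : ℕ} [NeZero M] {k : ℤ} {θ : DirichletCharacter ℂ M} {p : ℕ}
    (hp : p.Prime) (hpM : ¬ p ∣ M) (h : dslV M k θ) (n : ℕ) :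
    ModularFormClass.qCoeff (⇑(dslT hp hpM h).1) n =
      ModularFormClass.qCoeff (⇑h.1) (p * n) + (p : ℂ) ^ (k - 1) * θ (p : ZMod M) *
        (if p ∣ n then ModularFormClass.qCoeff (⇑h.1) (n / p) else 0) :=
  dslTfun_qCoeff hp hpM h n

/-- the coefficient operator `a ↦ (n ↦ a(pn) + c [p ∣ n] a(n/p))` -/
def dslC (p : ℕ) (c : ℂ) (a : ℕ → ℂ) (n : ℕ) : ℂ :=
  a (p * n) + c * (if p ∣ n then a (n / p) else 0)

theorem dslC_comm {p q : ℕ} (hp : p.Prime) (hq : q.Prime) (hpq : p ≠ q) (c d : ℂ) (a : ℕ → ℂ)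
    (n : ℕ) : dslC p c (dslC q d a) n = dslC q d (dslC p c a) n := by
  have hp0 : 0 < p := hp.pos
  have hq0 : 0 < q := hq.pos
  have hqp : ¬ q ∣ p := fun h => hpq ((Nat.prime_dvd_prime_iff_eq hq hp).mp h).symm
  have hpq' : ¬ p ∣ q := fun h => hpq ((Nat.prime_dvd_prime_iff_eq hp hq).mp h)
  have e1 : (q ∣ p * n) ↔ q ∣ n := by
    rw [Nat.Prime.dvd_mul hq]
    exact ⟨fun h => h.resolve_left hqp, Or.inr⟩
  have e2 : (p ∣ q * n) ↔ p ∣ n := by
    rw [Nat.Prime.dvd_mul hp]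
    exact ⟨fun h => h.resolve_left hpq', Or.inr⟩
  unfold dslC
  by_cases h1 : p ∣ n
  · obtain ⟨m, rfl⟩ := h1
    have e3 : (q ∣ p * m) ↔ q ∣ m := by
      rw [Nat.Prime.dvd_mul hq]
      exact ⟨fun h => h.resolve_left hqp, Or.inr⟩
    by_cases h2 : q ∣ m
    · obtain ⟨r, rfl⟩ := h2
      have x1 : p * (p * (q * r)) / q = p * (p * r) := by
        rw [show p * (p * (q * r)) = q * (p * (p * r)) by ring, Nat.mul_div_cancel_left _ hq0]
      have x2 : p * (q * r) / p = q * r := Nat.mul_div_cancel_left _ hp0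
      have x3 : q * r / q = r := Nat.mul_div_cancel_left _ hq0
      have x4 : q * (p * (q * r)) / p = q * (q * r) := by
        rw [show q * (p * (q * r)) = p * (q * (q * r)) by ring, Nat.mul_div_cancel_left _ hp0]
      have x5 : p * (q * r) / q = p * r := by
        rw [show p * (q * r) = q * (p * r) by ring, Nat.mul_div_cancel_left _ hq0]
      have x6 : p * r / p = r := Nat.mul_div_cancel_left _ hp0
      have d1 : q ∣ p * (p * (q * r)) := ⟨p * (p * r), by ring⟩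
      have d2 : p ∣ p * (q * r) := ⟨q * r, rfl⟩
      have d3 : q ∣ q * r := ⟨r, rfl⟩
      have d4 : p ∣ q * (p * (q * r)) := ⟨q * (q * r), by ring⟩
      have d5 : q ∣ p * (q * r) := ⟨p * r, by ring⟩
      have d6 : p ∣ p * r := ⟨r, rfl⟩
      rw [if_pos d1, if_pos d2, if_pos d4, if_pos d5, x1, x2, x4, x5, if_pos d3, if_pos d6, x3, x6]
      have y1 : q * (p * (p * (q * r))) = p * (q * (p * (q * r))) := by ring
      have y2 : q * (q * r) = q * (q * r) := rfl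
      rw [y1]
      ring
    · have h2' : ¬ q ∣ p * m := fun h => h2 (e3.mp h)
      have h3 : ¬ q ∣ p * (p * m) := fun h => h2' ((by
        rw [Nat.Prime.dvd_mul hq] at h
        exact h.resolve_left hqp))
      have x2 : p * m / p = m := Nat.mul_div_cancel_left _ hp0
      have x4 : q * (p * m) / p = q * m := by
        rw [show q * (p * m) = p * (q * m) by ring, Nat.mul_div_cancel_left _ hp0]
      have d2 : p ∣ p * m := ⟨m, rfl⟩
      have d4 : p ∣ q * (p * m) := ⟨q * m, by ring⟩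
      rw [if_neg h3, if_pos d2, if_pos d4, if_neg h2', x2, x4, if_neg h2]
      have y1 : q * (p * (p * m)) = p * (q * (p * m)) := by ring
      rw [y1]
      ring
  · have h1' : ¬ p ∣ q * n := fun h => h1 (e2.mp h)
    by_cases h2 : q ∣ n
    · obtain ⟨r, rfl⟩ := h2
      have h4 : ¬ p ∣ r := fun h => h1 (Dvd.dvd.mul_left h q)
      have x1 : p * (q * r) / q = p * r := by
        rw [show p * (q * r) = q * (p * r) by ring, Nat.mul_div_cancel_left _ hq0]
      have x3 : q * r / q = r := Nat.mul_div_cancel_left _ hq0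
      have d1 : q ∣ p * (q * r) := ⟨p * r, by ring⟩
      have d3 : q ∣ q * r := ⟨r, rfl⟩
      rw [if_pos d1, if_neg h1, if_neg h1', if_pos d3, x1, x3, if_neg h4]
      have y1 : q * (p * (q * r)) = p * (q * (q * r)) := by ring
      rw [y1]
      ring
    · have h2' : ¬ q ∣ p * n := fun h => h2 (e1.mp h)
      rw [if_neg h2', if_neg h1, if_neg h1', if_neg h2]
      have y1 : q * (p * n) = p * (q * n) := by ring
      rw [y1]
      ring

theorem dslT_qCoeff' {M : ℕ} [NeZero M] {k : ℤ} {θ : DirichletCharacter ℂ M} {p : ℕ}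
    (hp : p.Prime) (hpM : ¬ p ∣ M) (h : dslV M k θ) (n : ℕ) :
    ModularFormClass.qCoeff (⇑(dslT hp hpM h).1) n =
      dslC p ((p : ℂ) ^ (k - 1) * θ (p : ZMod M)) (ModularFormClass.qCoeff (⇑h.1)) n :=
  dslTfun_qCoeff hp hpM h n

/-- the Hecke operators commute -/
theorem dslT_comm {M : ℕ} [NeZero M] {k : ℤ} {θ : DirichletCharacter ℂ M} {p q : ℕ}
    (hp : p.Prime) (hpM : ¬ p ∣ M) (hq : q.Prime) (hqM : ¬ q ∣ M) :
    (dslT hp hpM : Module.End ℂ (dslV M k θ)) * dslT hq hqM = dslT hq hqM * dslT hp hpM := by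
  by_cases hpq : p = q
  · subst hpq
    rfl
  apply LinearMap.ext
  intro h
  apply Subtype.ext
  apply dsl_ext
  intro n
  rw [Module.End.mul_apply, Module.End.mul_apply, dslT_qCoeff', dslT_qCoeff']
  have e1 : ModularFormClass.qCoeff (⇑(dslT hq hqM h).1) =
      dslC q ((q : ℂ) ^ (k - 1) * θ (q : ZMod M)) (ModularFormClass.qCoeff (⇑h.1)) :=
    funext fun n => dslT_qCoeff' hq hqM h n
  have e2 : ModularFormClass.qCoeff (⇑(dslT hp hpM h).1) =
      dslC p ((p : ℂ) ^ (k - 1) * θ (p : ZMod M)) (ModularFormClass.qCoeff (⇑h.1)) :=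
    funext fun n => dslT_qCoeff' hp hpM h n
  rw [e1, e2]
  exact dslC_comm hp hq hpq _ _ _ n

end Fermat.Agent.S48


end ZBS48_003_5
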