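/- GENERATED FILE (helper35, build-time optimisation, NOTES/ZB.md): verbatim concatenation of the modules
   Fermat.Agent.ES1.PerFam
   Fermat.Agent.ES1.PerPrim
   Fermat.Agent.ES1.PerInj
   Fermat.Agent.ES1.G1.MuSurjDescentH
   Fermat.Agent.ES1.G1.MuSurjGlueH
   Fermat.Agent.ES1.PerTransfer
   Fermat.Agent.ES1.PerGammaH
   Do not edit; do not import together with these modules. -/
import Fermat.Agent.ZB.ES_009
import Fermat.Agent.ZB.S21_001
import Fermat.Agent.ZB.S21_002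
import Fermat.Agent.ZB.ES_011
import Fermat.Agent.ZB.ES1_013
import Fermat.Agent.ZB.ES1_012
import Fermat.Agent.ZB.ES1_014
import Fermat.Agent.ZB.ES1_007
import Fermat.Agent.ZB.ES_012
import Fermat.Agent.ZB.ES1_001
import Fermat.Prelude.Sol.S_ModularForm_heckeT_slash_eq_self_of_mem_Gamma0
import Fermat.Agent.ZB.S48_001
import Fermat.Agent.ZB.S48_003

/-! ### bundled: `Fermat.Agent.ES1.PerFam` -/
section ZBES1_004_0

/-!
# ES₁ / G1-PER — coset families and their operators on `Hom(Γ, A)` (helper42)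

`Γ ≤ SL(2, ℤ)`.  A *coset family* is a finite family of matrices `α_x ∈ GL₂(ℝ)⁺` (`x : X`) with
`α_x γ = κ(γ, x) α_{x·γ}`, `κ(γ, x) ∈ Γ`, where `x ↦ x·γ` is a right action of `Γ` on `X` and `κ` is
a cocycle.  It defines the operator `(T φ)(γ) = Σ_x φ(κ(γ, x))` on `Hom(Γ, A)`, for every abelian
group `A`:

* `Es1perFam.op`  : the operator, natural in `A` (`op_natural`);
* `Es1perFam.op_isParabolicHom` : it preserves the homomorphisms vanishing on the elements of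
  trace `±2`.

Hecke operators `T_ℓ` (`X = ℙ¹(𝔽_ℓ)`) and diamond operators (`X` a point) for
`Γ = Γ_H(M)` are instances (`ES1/PerHecke.lean`).
-/

set_option autoImplicit false
set_option linter.unusedSectionVars false

noncomputable section

namespace Fermat.Agent.ES1

open Matrix Matrix.SpecialLinearGroup
open scoped MatrixGroups

/-- **A coset family** for `Γ`, indexed by `X`. -/
structure Es1perFam (Γ : Subgroup SL(2, ℤ)) (X : Type) where
  /-- the representatives -/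
  rep : X → GL (Fin 2) ℝ
  /-- they have positive determinant -/
  det_pos : ∀ x, 0 < (rep x).det.val
  /-- the right action of `Γ` on the index set -/
  next : Γ → X → X
  /-- the cocycle -/
  coc : Γ → X → Γ
  /-- `α_x γ = κ(γ, x) α_{x·γ}` -/
  spec : ∀ (γ : Γ) (x : X),
    rep x * mapGL ℝ (γ : SL(2, ℤ)) = mapGL ℝ ((coc γ x : Γ) : SL(2, ℤ)) * rep (next γ x)
  /-- `x·1 = x` -/
  next_one : ∀ x, next 1 x = x
  /-- `x·(γδ) = (x·γ)·δ` -/
  next_mul : ∀ γ δ x, next (γ * δ) x = next δ (next γ x)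
  /-- `κ(γδ, x) = κ(γ, x) κ(δ, x·γ)` -/
  coc_mul : ∀ γ δ x, coc (γ * δ) x = coc γ x * coc δ (next γ x)

namespace Es1perFam

variable {Γ : Subgroup SL(2, ℤ)} {X : Type} (F : Es1perFam Γ X)

theorem coc_one (x : X) : F.coc 1 x = 1 := by
  have h := F.coc_mul 1 1 x
  rw [mul_one, F.next_one] at h
  exact (mul_eq_left).mp h.symm

/-- `x ↦ x·γ` as a permutation -/
def nextPerm (γ : Γ) : Equiv.Perm X where
  toFun := F.next γ
  invFun := F.next γ⁻¹
  left_inv x := by rw [← F.next_mul, mul_inv_cancel, F.next_one]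
  right_inv x := by rw [← F.next_mul, inv_mul_cancel, F.next_one]

@[simp] theorem nextPerm_apply (γ : Γ) (x : X) : F.nextPerm γ x = F.next γ x := rfl

theorem next_pow (γ : Γ) (j : ℕ) (x : X) : F.next (γ ^ j) x = ((F.nextPerm γ) ^ j) x := by
  induction j with
  | zero => rw [pow_zero, pow_zero, F.next_one]; rfl
  | succ j ih => rw [pow_succ, F.next_mul, ih, pow_succ', Equiv.Perm.mul_apply]; rfl

variable [Fintype X]

/-- the value of the operator at `γ` -/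
def opFun {A : Type} [AddCommGroup A] (φ : Additive Γ →+ A) (γ : Γ) : A :=
  ∑ x, φ (Additive.ofMul (F.coc γ x))

theorem opFun_mul {A : Type} [AddCommGroup A] (φ : Additive Γ →+ A) (γ δ : Γ) :
    F.opFun φ (γ * δ) = F.opFun φ γ + F.opFun φ δ := by
  unfold opFun
  have h1 : ∀ x, φ (Additive.ofMul (F.coc (γ * δ) x))
      = φ (Additive.ofMul (F.coc γ x)) + φ (Additive.ofMul (F.coc δ (F.next γ x))) := by
    intro x
    rw [F.coc_mul, ofMul_mul, map_add]
  rw [Finset.sum_congr rfl (fun x _ => h1 x), Finset.sum_add_distrib]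
  congr 1
  exact Equiv.sum_comp (F.nextPerm γ) (fun x => φ (Additive.ofMul (F.coc δ x)))

theorem opFun_one {A : Type} [AddCommGroup A] (φ : Additive Γ →+ A) : F.opFun φ 1 = 0 := by
  have h := F.opFun_mul φ 1 1
  rw [mul_one] at h
  exact (add_eq_left).mp h.symm

/-- the operator on a homomorphism -/
def opHom {A : Type} [AddCommGroup A] (φ : Additive Γ →+ A) : Additive Γ →+ A where
  toFun γ := F.opFun φ (Additive.toMul γ)
  map_zero' := F.opFun_one φ
  map_add' γ δ := F.opFun_mul φ (Additive.toMul γ) (Additive.toMul δ)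

/-- **The operator of a coset family** on `Hom(Γ, A)`. -/
def op (A : Type) [AddCommGroup A] : (Additive Γ →+ A) →+ (Additive Γ →+ A) where
  toFun φ := F.opHom φ
  map_zero' := by
    refine AddMonoidHom.ext fun γ => ?_
    show ∑ x, (0 : Additive Γ →+ A) (Additive.ofMul (F.coc (Additive.toMul γ) x)) = 0
    simp
  map_add' φ ψ := by
    refine AddMonoidHom.ext fun γ => ?_
    show ∑ x, (φ + ψ) (Additive.ofMul (F.coc (Additive.toMul γ) x))
      = ∑ x, φ (Additive.ofMul (F.coc (Additive.toMul γ) x))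
        + ∑ x, ψ (Additive.ofMul (F.coc (Additive.toMul γ) x))
    simp [Finset.sum_add_distrib]

theorem op_apply {A : Type} [AddCommGroup A] (φ : Additive Γ →+ A) (γ : Γ) :
    F.op A φ (Additive.ofMul γ) = ∑ x, φ (Additive.ofMul (F.coc γ x)) := rfl

/-- the operator is natural in the coefficient group -/
theorem op_natural (A A' : Type) [AddCommGroup A] [AddCommGroup A'] (f : A →+ A')
    (φ : Additive Γ →+ A) : F.op A' (f.comp φ) = f.comp (F.op A φ) := by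
  refine AddMonoidHom.ext fun γ => ?_
  show ∑ x, (f.comp φ) (Additive.ofMul (F.coc (Additive.toMul γ) x))
    = f (∑ x, φ (Additive.ofMul (F.coc (Additive.toMul γ) x)))
  rw [map_sum]
  rfl

/-- the sum of `φ ∘ κ(γ, ·)` along an orbit -/
theorem sum_range_coc {A : Type} [AddCommGroup A] (φ : Additive Γ →+ A) (γ : Γ) (x : X)
    (r : ℕ) :
    ∑ j ∈ Finset.range r, φ (Additive.ofMul (F.coc γ (((F.nextPerm γ) ^ j) x)))
      = φ (Additive.ofMul (F.coc (γ ^ r) x)) := by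
  induction r with
  | zero => simp [F.coc_one]
  | succ r ih =>
    rw [Finset.sum_range_succ, ih, pow_succ, F.coc_mul, ofMul_mul, map_add, F.next_pow]

/-- if `x·γ = x` then `κ(γ, x)` is conjugate to `γ`, so it has the same trace -/
theorem trace_coc_of_next_eq (γ : Γ) (x : X) (hx : F.next γ x = x) :
    (((F.coc γ x : Γ) : SL(2, ℤ)) : Matrix (Fin 2) (Fin 2) ℤ).trace
      = (((γ : Γ) : SL(2, ℤ)) : Matrix (Fin 2) (Fin 2) ℤ).trace := by
  have h1 := F.spec γ x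
  rw [hx] at h1
  have h2 : mapGL ℝ ((F.coc γ x : Γ) : SL(2, ℤ))
      = F.rep x * mapGL ℝ (γ : SL(2, ℤ)) * (F.rep x)⁻¹ := by
    rw [h1, mul_inv_cancel_right]
  have h3 := congrArg (fun M : GL (Fin 2) ℝ => (M : Matrix (Fin 2) (Fin 2) ℝ).trace) h2
  simp only [Matrix.GeneralLinearGroup.coe_mul] at h3
  have h4 : ((F.rep x : GL (Fin 2) ℝ) : Matrix (Fin 2) (Fin 2) ℝ) *
      ((mapGL ℝ (γ : SL(2, ℤ)) : GL (Fin 2) ℝ) : Matrix (Fin 2) (Fin 2) ℝ) *
      (((F.rep x)⁻¹ : GL (Fin 2) ℝ) : Matrix (Fin 2) (Fin 2) ℝ) =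
      (((F.rep x : GL (Fin 2) ℝ) : (Matrix (Fin 2) (Fin 2) ℝ)ˣ) : Matrix (Fin 2) (Fin 2) ℝ) *
      ((mapGL ℝ (γ : SL(2, ℤ)) : GL (Fin 2) ℝ) : Matrix (Fin 2) (Fin 2) ℝ) *
      ((((F.rep x : GL (Fin 2) ℝ) : (Matrix (Fin 2) (Fin 2) ℝ)ˣ)⁻¹ :
        (Matrix (Fin 2) (Fin 2) ℝ)ˣ) : Matrix (Fin 2) (Fin 2) ℝ) := rfl
  rw [h4, Matrix.trace_units_conj, Fermat.Agent.ES.HeckeP.trace_mapGL,
    Fermat.Agent.ES.HeckeP.trace_mapGL] at h3
  exact_mod_cast h3

/-- **The operator of a coset family preserves parabolic homomorphisms.** -/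
theorem op_isParabolicHom {A : Type} [AddCommGroup A] {φ : Additive Γ →+ A}
    (hφ : ModularCurve.Period.IsParabolicHom Γ φ) :
    ModularCurve.Period.IsParabolicHom Γ (F.op A φ) := by
  classical
  intro γ hγ
  rw [F.op_apply]
  refine Fermat.Agent.ES.HeckeP.sum_univ_eq_zero_of_cycle_sums (F.nextPerm γ)
    (fun x => φ (Additive.ofMul (F.coc γ x))) ?_
  intro x r _ hrx
  rw [F.sum_range_coc]
  refine hφ _ ?_
  have hnext : F.next (γ ^ r) x = x := by
    rw [F.next_pow]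
    exact hrx
  rw [F.trace_coc_of_next_eq (γ ^ r) x hnext, Subgroup.coe_pow]
  exact Fermat.Agent.ES.HeckeP.trace_pow_sq_eq_four _ hγ r

end Es1perFam

end Fermat.Agent.ES1

end
end ZBES1_004_0

/-! ### bundled: `Fermat.Agent.ES1.PerPrim` -/
section ZBES1_004_1

/-!
# ES₁ / G1-PER — the period homomorphism of a `Γ`-invariant cusp datum (helper42)

`Γ ≤ SL(2, ℤ)` any subgroup, `g : ℍ → ℂ`.  `Es1perCusp Γ g` collects what the periods use:

* `prim` : for every `δ ∈ SL(2, ℤ)` the translate `g ∣[2] δ` has a primitive on `ℍ` which tends to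
  `0` at `i∞` (true for cusp forms of weight `2` on congruence subgroups);
* `inv`  : `g ∣[2] γ = g` for `γ ∈ Γ`.

Then (all generic):

* `Es1perCusp.hom : Additive Γ →+ ℂ`, `γ ↦ F(γ z) − F(z)` (`F` any primitive of `g`);
* `Es1perCusp.hom_isParabolicHom` : it vanishes on the elements of trace `±2`;
* `Es1perCusp.op_hom` : for a coset family `(α_x)` with `Σ_x g ∣[2] α_x = b • g`, the operator of
  the family has eigenvector `hom` with eigenvalue `b`.
-/

set_option autoImplicit false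
set_option linter.unusedSectionVars false

noncomputable section

namespace Fermat.Agent.ES1

open UpperHalfPlane Filter Topology ModularCurve ModularCurve.Period Fermat.Agent.S21
open Matrix.SpecialLinearGroup
open scoped MatrixGroups ModularForm

/-- the analytic properties of a weight-2 cusp form used for its periods on `Γ` -/
structure Es1perCusp (Γ : Subgroup SL(2, ℤ)) (g : ℍ → ℂ) : Prop where
  /-- every translate has a primitive tending to `0` at `i∞` -/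
  prim : ∀ δ : SL(2, ℤ), ∃ G : ℍ → ℂ, IsPrimitive G (g ∣[(2 : ℤ)] δ) ∧
    Tendsto G atImInfty (𝓝 0)
  /-- invariance under `Γ` -/
  inv : ∀ γ : SL(2, ℤ), γ ∈ Γ → g ∣[(2 : ℤ)] γ = g

namespace Es1perCusp

variable {Γ : Subgroup SL(2, ℤ)} {g : ℍ → ℂ}

theorem exists_isPrimitive (hg : Es1perCusp Γ g) :
    ∃ F : ℍ → ℂ, IsPrimitive F g ∧ Tendsto F atImInfty (𝓝 0) := by
  obtain ⟨F, hF, h0⟩ := hg.prim 1
  refine ⟨F, ?_, h0⟩
  have e : (g ∣[(2 : ℤ)] (1 : SL(2, ℤ))) = g := SlashAction.slash_one _ _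
  rwa [e] at hF

/-- a primitive of `g` is an equivariant primitive -/
theorem isEquivariantPrimitive (hg : Es1perCusp Γ g) {F : ℍ → ℂ} (hF : IsPrimitive F g) :
    IsEquivariantPrimitive Γ F := by
  intro γ
  refine ⟨F ((γ : SL(2, ℤ)) • UpperHalfPlane.I) - F UpperHalfPlane.I, fun z => ?_⟩
  have h1 : IsPrimitive (fun w => F ((γ : SL(2, ℤ)) • w)) g := by
    have := hF.comp_smul (γ : SL(2, ℤ))
    rwa [hg.inv γ γ.2] at this
  exact h1.sub_eq_sub hF z UpperHalfPlane.I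

/-- a primitive of `g` has a limit at every cusp -/
theorem exists_tendsto_smul (hg : Es1perCusp Γ g) {F : ℍ → ℂ} (hF : IsPrimitive F g)
    (δ : SL(2, ℤ)) : ∃ L : ℂ, Tendsto (fun w : ℍ => F (δ • w)) atImInfty (𝓝 L) := by
  obtain ⟨G, hG, hG0⟩ := hg.prim δ
  have h1 : IsPrimitive (fun w => F (δ • w)) (g ∣[(2 : ℤ)] δ) := hF.comp_smul δ
  refine ⟨F (δ • UpperHalfPlane.I) - G UpperHalfPlane.I, ?_⟩
  have hconst : ∀ w : ℍ, F (δ • w) = G w + (F (δ • UpperHalfPlane.I) - G UpperHalfPlane.I) := by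
    intro w
    have := h1.sub_eq_sub hG w UpperHalfPlane.I
    linear_combination this
  have : Tendsto (fun w : ℍ => G w + (F (δ • UpperHalfPlane.I) - G UpperHalfPlane.I)) atImInfty
      (𝓝 (0 + (F (δ • UpperHalfPlane.I) - G UpperHalfPlane.I))) :=
    hG0.add tendsto_const_nhds
  rw [zero_add] at this
  exact this.congr (fun w => (hconst w).symm)

/-- the chosen primitive -/
def primitive (hg : Es1perCusp Γ g) : ℍ → ℂ := Classical.choose hg.exists_isPrimitive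

theorem isPrimitive_primitive (hg : Es1perCusp Γ g) : IsPrimitive hg.primitive g :=
  (Classical.choose_spec hg.exists_isPrimitive).1

/-- **The period homomorphism** `Γ → ℂ` of `g`. -/
def hom (hg : Es1perCusp Γ g) : Additive Γ →+ ℂ :=
  (hg.isEquivariantPrimitive hg.isPrimitive_primitive).periodHom

/-- the period can be computed from any primitive, at any base point -/
theorem hom_apply (hg : Es1perCusp Γ g) {F : ℍ → ℂ} (hF : IsPrimitive F g) (γ : Γ) (z : ℍ) :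
    hg.hom (Additive.ofMul γ) = F ((γ : SL(2, ℤ)) • z) - F z := by
  have h1 := (hg.isEquivariantPrimitive hF).sub_eq_period γ z
  rw [h1]
  show (hg.isEquivariantPrimitive hg.isPrimitive_primitive).period γ = _
  exact Fermat.Agent.S21.period_eq_of_isPrimitive _ _ hg.isPrimitive_primitive hF γ

/-- **Periods of elements of trace `±2` vanish.** -/
theorem hom_isParabolicHom (hg : Es1perCusp Γ g) : IsParabolicHom Γ hg.hom := by
  intro γ hγ
  obtain ⟨δ, β, hβ, hγδ⟩ := parabolic_exists_conj_upper (γ : SL(2, ℤ)) hγ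
  have hF := hg.isPrimitive_primitive
  obtain ⟨L, hL⟩ := hg.exists_tendsto_smul hF δ
  have hconst : ∀ w : ℍ, hg.primitive (δ • (β • w)) - hg.primitive (δ • w)
      = hg.hom (Additive.ofMul γ) := by
    intro w
    rw [hg.hom_apply hF γ (δ • w), ← mul_smul, ← mul_smul, hγδ]
  have hβ' : Tendsto (fun w : ℍ => β • w) atImInfty atImInfty := by
    have h := tendsto_smul_atImInfty (g := (β : GL (Fin 2) ℝ)) (by simp [hβ])
    exact h
  have h1 : Tendsto (fun w : ℍ => hg.primitive (δ • (β • w))) atImInfty (𝓝 L) := hL.comp hβ'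
  have h2 : Tendsto (fun w : ℍ => hg.primitive (δ • (β • w)) - hg.primitive (δ • w)) atImInfty
      (𝓝 (L - L)) := h1.sub hL
  have h3 : Tendsto (fun w : ℍ => hg.primitive (δ • (β • w)) - hg.primitive (δ • w)) atImInfty
      (𝓝 (hg.hom (Additive.ofMul γ))) := by
    simp only [hconst]
    exact tendsto_const_nhds
  have := tendsto_nhds_unique h3 h2
  rw [this, sub_self]

theorem hom_vanishes (hg : Es1perCusp Γ g) (γ : Γ)
    (hγ : ((γ : SL(2, ℤ)) : Matrix (Fin 2) (Fin 2) ℤ).trace ^ 2 = 4) :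
    hg.hom (Additive.ofMul γ) = 0 :=
  hg.hom_isParabolicHom γ hγ

/-- **Compatibility with coset families**: if `Σ_x g ∣[2] α_x = b • g` then the period
homomorphism is an eigenvector of the operator of the family, with eigenvalue `b`. -/
theorem op_hom (hg : Es1perCusp Γ g) {X : Type} [Fintype X] (Fam : Es1perFam Γ X) (b : ℂ)
    (hb : ∑ x, g ∣[(2 : ℤ)] Fam.rep x = b • g) : Fam.op ℂ hg.hom = b • hg.hom := by
  have hF := hg.isPrimitive_primitive
  set F := hg.primitive with hFdef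
  -- `G = Σ_x F ∘ α_x` is a primitive of `b • g`
  have hG : IsPrimitive (fun τ => ∑ x, F (Fam.rep x • τ)) (b • g) := by
    rw [← hb]
    exact Fermat.Agent.ES.isPrimitive_finset_sum Finset.univ (fun x τ => F (Fam.rep x • τ))
      (fun x => g ∣[(2 : ℤ)] Fam.rep x)
      (fun x _ => Fermat.Agent.ES.isPrimitive_comp_smul_slash hF (Fam.det_pos x))
  have hbF : IsPrimitive (fun τ => b * F τ) (b • g) := by
    have := hF.const_mul b
    exact this
  refine AddMonoidHom.ext fun γ' => ?_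
  obtain ⟨γ, rfl⟩ : ∃ γ : Γ, Additive.ofMul γ = γ' := ⟨Additive.toMul γ', rfl⟩
  rw [Fam.op_apply]
  show _ = b * hg.hom (Additive.ofMul γ)
  have hsub := hG.sub_eq_sub hbF ((γ : SL(2, ℤ)) • UpperHalfPlane.I) UpperHalfPlane.I
  have hper : ∀ (δ : Γ) (z : ℍ), F ((δ : SL(2, ℤ)) • z) - F z = hg.hom (Additive.ofMul δ) :=
    fun δ z => (hg.hom_apply hF δ z).symm
  have hterm : ∀ x : X, F (Fam.rep x • ((γ : SL(2, ℤ)) • UpperHalfPlane.I))
      = hg.hom (Additive.ofMul (Fam.coc γ x)) + F (Fam.rep (Fam.next γ x) • UpperHalfPlane.I) := by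
    intro x
    have h1 : Fam.rep x • ((γ : SL(2, ℤ)) • UpperHalfPlane.I)
        = ((Fam.coc γ x : Γ) : SL(2, ℤ)) • (Fam.rep (Fam.next γ x) • UpperHalfPlane.I) := by
      have e1 : (γ : SL(2, ℤ)) • UpperHalfPlane.I
          = (mapGL ℝ (γ : SL(2, ℤ))) • UpperHalfPlane.I := rfl
      have e2 : ∀ z : ℍ, ((Fam.coc γ x : Γ) : SL(2, ℤ)) • z
          = (mapGL ℝ ((Fam.coc γ x : Γ) : SL(2, ℤ))) • z := fun _ => rfl
      rw [e1, e2, ← mul_smul, ← mul_smul, Fam.spec γ x]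
    rw [h1]
    have := hper (Fam.coc γ x) (Fam.rep (Fam.next γ x) • UpperHalfPlane.I)
    linear_combination this
  have hperm : ∑ x, F (Fam.rep (Fam.next γ x) • UpperHalfPlane.I)
      = ∑ x, F (Fam.rep x • UpperHalfPlane.I) :=
    Equiv.sum_comp (Fam.nextPerm γ) (fun x => F (Fam.rep x • UpperHalfPlane.I))
  have hsum : (∑ x, F (Fam.rep x • ((γ : SL(2, ℤ)) • UpperHalfPlane.I)))
      = (∑ x, hg.hom (Additive.ofMul (Fam.coc γ x)))
        + ∑ x, F (Fam.rep x • UpperHalfPlane.I) := by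
    rw [← hperm, ← Finset.sum_add_distrib]
    exact Finset.sum_congr rfl (fun x _ => hterm x)
  have hγ := hper γ UpperHalfPlane.I
  linear_combination (-1) * hsum + hsub + b * hγ

end Es1perCusp

end Fermat.Agent.ES1

end
end ZBES1_004_1

/-! ### bundled: `Fermat.Agent.ES1.PerInj` -/
section ZBES1_004_2

/-!
# ES₁ / G1-PER — the period homomorphism is injective (helper42)

Maximum modulus on `Γ \ ℍ*` for a subgroup `Γ ≤ SL(2, ℤ)` of finite index containing the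
conjugates of `T^N`: a holomorphic function `Φ` on `ℍ` whose `Γ`-increments are purely imaginary
constants and which has a limit at every cusp is constant.  (Fork of `S21/Injective.lean`, where
`Γ = Γ₀(N)`.)  Consequence: `Es1perCusp.hom_eq_zero_iff`: the period homomorphism of `g` vanishes
only for `g = 0`.
-/

set_option autoImplicit false
set_option linter.unusedSectionVars false
set_option linter.style.haveILetI false

noncomputable section

namespace Fermat.Agent.ES1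

open UpperHalfPlane CongruenceSubgroup Filter Topology Function ModularCurve
  ModularCurve.Period Fermat.Agent.S21
open scoped MatrixGroups Real ComplexConjugate

/-- finitely many coset representatives of a subgroup of finite index -/
theorem es1per_exists_coset_reps (Γ : Subgroup SL(2, ℤ)) [Γ.FiniteIndex] :
    ∃ R : Finset SL(2, ℤ), ∀ δ : SL(2, ℤ), ∃ γ ∈ Γ, ∃ r ∈ R, δ = γ * r := by
  classical
  haveI hfinq : Finite (Quotient (QuotientGroup.rightRel Γ)) := by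
    have := Subgroup.finite_quotient_of_finiteIndex (H := Γ)
    exact Finite.of_equiv _ (QuotientGroup.quotientRightRelEquivQuotientLeftRel _).symm
  haveI := Fintype.ofFinite (Quotient (QuotientGroup.rightRel Γ))
  refine ⟨Finset.univ.image
    (fun q : Quotient (QuotientGroup.rightRel Γ) => q.out), fun δ => ?_⟩
  set ρ := (Quotient.mk (QuotientGroup.rightRel Γ) δ).out with hρ
  have hrel : (QuotientGroup.rightRel Γ) ρ δ := Quotient.exact (Quotient.out_eq _)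
  rw [QuotientGroup.rightRel_apply] at hrel
  refine ⟨δ * ρ⁻¹, hrel, ρ, Finset.mem_image.mpr ⟨_, Finset.mem_univ _, rfl⟩, ?_⟩
  rw [inv_mul_cancel_right]

/-- a subgroup of finite index of `SL(2, ℤ)` is finitely generated -/
theorem es1per_fg (Γ : Subgroup SL(2, ℤ)) [Γ.FiniteIndex] : Group.FG Γ := by
  haveI := Fermat.Agent.S22.sl2Z_fg
  infer_instance

section MaxMod

variable {Γ : Subgroup SL(2, ℤ)} {N : ℕ}

/-- If the `Γ`-increments of `Φ` are constants and `Φ ∘ δ` has a limit at `i∞`, then `Φ ∘ δ` is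
`N`-periodic. -/
theorem es1per_comp_smul_T_pow_eq {Φ : ℍ → ℂ}
    (hT : ∀ δ : SL(2, ℤ), δ * ModularGroup.T ^ (N : ℤ) * δ⁻¹ ∈ Γ)
    (hinv : ∀ γ ∈ Γ, ∃ c : ℂ, ∀ z : ℍ, Φ (γ • z) - Φ z = c)
    (δ : SL(2, ℤ)) (hlim : ∃ L : ℂ, Tendsto (fun w : ℍ => Φ (δ • w)) atImInfty (𝓝 L)) (w : ℍ) :
    Φ (δ • (ModularGroup.T ^ (N : ℤ) • w)) = Φ (δ • w) := by
  obtain ⟨c, hc⟩ := hinv _ (hT δ)
  obtain ⟨L, hL⟩ := hlim
  have key : ∀ w : ℍ, Φ (δ • (ModularGroup.T ^ (N : ℤ) • w)) - Φ (δ • w) = c := by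
    intro w
    have := hc (δ • w)
    rwa [← mul_smul, inv_mul_cancel_right, mul_smul] at this
  have h1 : Tendsto (fun w : ℍ => Φ (δ • (ModularGroup.T ^ (N : ℤ) • w))) atImInfty (𝓝 L) :=
    hL.comp (tendsto_T_pow_smul_atImInfty N)
  have h2 : Tendsto (fun w : ℍ => Φ (δ • (ModularGroup.T ^ (N : ℤ) • w)) - Φ (δ • w))
      atImInfty (𝓝 (L - L)) := h1.sub hL
  have h3 : Tendsto (fun _ : ℍ => c) atImInfty (𝓝 (L - L)) := by
    refine h2.congr (fun w => key w)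
  have hc0 : c = 0 := by
    have := tendsto_nhds_unique h3 tendsto_const_nhds
    simpa using this.symm
  have := key w
  rw [hc0, sub_eq_zero] at this
  exact this

theorem es1per_expComp_periodic {Φ : ℍ → ℂ}
    (hT : ∀ δ : SL(2, ℤ), δ * ModularGroup.T ^ (N : ℤ) * δ⁻¹ ∈ Γ)
    (hinv : ∀ γ ∈ Γ, ∃ c : ℂ, ∀ z : ℍ, Φ (γ • z) - Φ z = c)
    (δ : SL(2, ℤ)) (hlim : ∃ L : ℂ, Tendsto (fun w : ℍ => Φ (δ • w)) atImInfty (𝓝 L)) :
    Function.Periodic (expComp Φ δ) ((N : ℝ) : ℂ) := by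
  intro w
  unfold expComp
  by_cases hw : 0 < w.im
  · have hw' : 0 < (w + ((N : ℝ) : ℂ)).im := by simpa using hw
    have : ofComplex (w + ((N : ℝ) : ℂ)) = ModularGroup.T ^ (N : ℤ) • ofComplex w := by
      rw [ofComplex_apply_of_im_pos hw, ofComplex_apply_of_im_pos hw']
      ext
      rw [ModularGroup.coe_T_zpow_smul_eq]
      simp
    rw [this, es1per_comp_smul_T_pow_eq hT hinv δ hlim]
  · have hw' : (w + ((N : ℝ) : ℂ)).im ≤ 0 := by simpa using not_lt.mp hw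
    rw [ofComplex_apply_eq_of_im_nonpos hw' (not_lt.mp hw)]

theorem es1per_norm_exp_smul_eq {Φ : ℍ → ℂ}
    (hinv : ∀ γ ∈ Γ, ∃ c : ℂ, c.re = 0 ∧ ∀ z : ℍ, Φ (γ • z) - Φ z = c)
    {γ : SL(2, ℤ)} (hγ : γ ∈ Γ) (z : ℍ) :
    ‖Complex.exp (Φ (γ • z))‖ = ‖Complex.exp (Φ z)‖ := by
  obtain ⟨c, hc0, hc⟩ := hinv γ hγ
  rw [Complex.norm_exp, Complex.norm_exp]
  have h2 : Φ (γ • z) = Φ z + c := by rw [← hc z]; ring
  rw [h2, Complex.add_re, hc0, add_zero]

/-- Maximum modulus on `Γ \ ℍ*`: if `Φ` is holomorphic on `ℍ`, its `Γ`-increments are purely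
imaginary constants, and `Φ` has a limit at every cusp, then `exp ∘ Φ` is constant. -/
theorem es1per_exp_const [Γ.FiniteIndex] [NeZero N] {Φ φ : ℍ → ℂ}
    (hT : ∀ δ : SL(2, ℤ), δ * ModularGroup.T ^ (N : ℤ) * δ⁻¹ ∈ Γ)
    (hΦ : IsPrimitive Φ φ)
    (hinv : ∀ γ ∈ Γ, ∃ c : ℂ, c.re = 0 ∧ ∀ z : ℍ, Φ (γ • z) - Φ z = c)
    (hlim : ∀ δ : SL(2, ℤ), ∃ L : ℂ, Tendsto (fun w : ℍ => Φ (δ • w)) atImInfty (𝓝 L)) :
    ∃ C : ℂ, ∀ z : ℍ, Complex.exp (Φ z) = C := by
  have hN : (0 : ℝ) < N := Nat.cast_pos.mpr (NeZero.pos N)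
  have hinv' : ∀ γ ∈ Γ, ∃ c : ℂ, ∀ z : ℍ, Φ (γ • z) - Φ z = c := fun γ hγ =>
    let ⟨c, _, hc⟩ := hinv γ hγ; ⟨c, hc⟩
  obtain ⟨R, hR⟩ := es1per_exists_coset_reps Γ
  have hRne : R.Nonempty := by
    obtain ⟨γ, _, r, hr, _⟩ := hR 1
    exact ⟨r, hr⟩
  set K : SL(2, ℤ) → ℂ → ℂ := fun r => Function.Periodic.cuspFunction N (expComp Φ r) with hK
  have hper : ∀ r, Function.Periodic (expComp Φ r) ((N : ℝ) : ℂ) := fun r =>
    es1per_expComp_periodic hT hinv' r (hlim r)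
  have hKdiff : ∀ r, DifferentiableOn ℂ (K r) (Metric.ball 0 1) := by
    intro r q hq
    rw [mem_ball_zero_iff] at hq
    apply DifferentiableAt.differentiableWithinAt
    rcases eq_or_ne q 0 with rfl | hq0
    · exact Function.Periodic.differentiableAt_cuspFunction_zero hN (hper r)
        (expComp_eventually_differentiableAt hΦ r) (expComp_bounded r (hlim r))
    · have him := Function.Periodic.im_invQParam_pos_of_norm_lt_one hN hq hq0
      have := Function.Periodic.differentiableAt_cuspFunction hN.ne' (hper r)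
        (expComp_differentiableAt hΦ r him)
      rwa [Function.Periodic.qParam_right_inv hN.ne' hq0] at this
  have hKeq : ∀ r (z : ℍ), K r (Function.Periodic.qParam N z) = Complex.exp (Φ (r • z)) := by
    intro r z
    rw [hK]
    simp only
    rw [Function.Periodic.eq_cuspFunction hN.ne' (hper r), expComp_coe]
  set ρ : ℝ := Real.exp (-π / N) with hρ
  have hρ0 : 0 ≤ ρ := (Real.exp_pos _).le
  have hρ1 : ρ < 1 := by
    rw [hρ, Real.exp_lt_one_iff]
    exact div_neg_of_neg_of_pos (neg_lt_zero.mpr Real.pi_pos) hN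
  have hmax : ∀ r, ∃ x ∈ Metric.closedBall (0 : ℂ) ρ,
      IsMaxOn (fun q => ‖K r q‖) (Metric.closedBall 0 ρ) x := by
    intro r
    exact (isCompact_closedBall (0 : ℂ) ρ).exists_isMaxOn (Metric.nonempty_closedBall.mpr hρ0)
      ((hKdiff r).continuousOn.mono (Metric.closedBall_subset_ball hρ1)).norm
  choose x hx hxmax using hmax
  obtain ⟨r₀, hr₀, hr₀max⟩ := Finset.exists_max_image R (fun r => ‖K r (x r)‖) hRne
  have hbound : ∀ z : ℍ, ‖Complex.exp (Φ z)‖ ≤ ‖K r₀ (x r₀)‖ := by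
    intro z
    obtain ⟨g, hg⟩ := ModularGroup.exists_one_half_le_im_smul z
    obtain ⟨γ, hγ, r, hr, hgr⟩ := hR g⁻¹
    have hz : z = γ • (r • (g • z)) := by
      rw [← mul_smul, ← mul_smul, ← hgr, inv_mul_cancel, one_smul]
    have h1 : ‖Complex.exp (Φ z)‖ = ‖K r (Function.Periodic.qParam N ((g • z : ℍ) : ℂ))‖ := by
      rw [hKeq]
      conv_lhs => rw [hz]
      exact es1per_norm_exp_smul_eq hinv hγ _
    rw [h1]
    refine le_trans (hxmax r ?_) (hr₀max r hr)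
    rw [mem_closedBall_zero_iff, Function.Periodic.norm_qParam, hρ]
    apply Real.exp_le_exp.mpr
    rw [UpperHalfPlane.coe_im]
    apply div_le_div_of_nonneg_right _ hN.le
    nlinarith [Real.pi_pos]
  have hne : ∀ q : ℂ, ‖q‖ < 1 → q ≠ 0 → ‖K r₀ q‖ ≤ ‖K r₀ (x r₀)‖ := by
    intro q hq1 hq0
    have him := Function.Periodic.im_invQParam_pos_of_norm_lt_one hN hq1 hq0
    have := hKeq r₀ ⟨_, him⟩
    rw [UpperHalfPlane.coe_mk, Function.Periodic.qParam_right_inv hN.ne' hq0] at this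
    rw [this]
    exact hbound _
  have hmaxball : IsMaxOn (norm ∘ K r₀) (Metric.ball 0 1) (x r₀) := by
    intro q hq
    have hq1 : ‖q‖ < 1 := mem_ball_zero_iff.mp hq
    show ‖K r₀ q‖ ≤ ‖K r₀ (x r₀)‖
    rcases eq_or_ne q 0 with rfl | hq0
    · have hcont : ContinuousAt (K r₀) 0 :=
        ((hKdiff r₀).differentiableAt (Metric.ball_mem_nhds 0 one_pos)).continuousAt
      have ht : Tendsto (fun q => ‖K r₀ q‖) (𝓝[≠] 0) (𝓝 ‖K r₀ 0‖) :=
        (hcont.norm.tendsto).mono_left nhdsWithin_le_nhds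
      refine le_of_tendsto ht ?_
      have hev : ∀ᶠ q in 𝓝[≠] (0 : ℂ), ‖q‖ < 1 := by
        apply nhdsWithin_le_nhds
        filter_upwards [Metric.ball_mem_nhds (0 : ℂ) one_pos] with q hq
        exact mem_ball_zero_iff.mp hq
      filter_upwards [self_mem_nhdsWithin, hev] with q hq0 hq1
      exact hne q hq1 hq0
    · exact hne q hq1 hq0
  have hconst := Complex.eq_const_of_exists_max (hKdiff r₀)
    (Metric.closedBall_subset_ball hρ1 (hx r₀)) hmaxball
  refine ⟨K r₀ (x r₀), fun z => ?_⟩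
  have := hKeq r₀ (r₀⁻¹ • z)
  rw [smul_inv_smul] at this
  rw [← this]
  refine hconst ?_
  rw [mem_ball_zero_iff]
  exact Function.Periodic.norm_qParam_lt_one hN (r₀⁻¹ • z).im_pos

/-- Core lemma: a holomorphic function on `ℍ` whose `Γ`-increments are purely imaginary
constants and which has a limit at every cusp has zero derivative. -/
theorem es1per_eq_zero_of_imaginary_increments [Γ.FiniteIndex] [NeZero N] {Φ φ : ℍ → ℂ}
    (hT : ∀ δ : SL(2, ℤ), δ * ModularGroup.T ^ (N : ℤ) * δ⁻¹ ∈ Γ)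
    (hΦ : IsPrimitive Φ φ)
    (hinv : ∀ γ ∈ Γ, ∃ c : ℂ, c.re = 0 ∧ ∀ z : ℍ, Φ (γ • z) - Φ z = c)
    (hlim : ∀ δ : SL(2, ℤ), ∃ L : ℂ, Tendsto (fun w : ℍ => Φ (δ • w)) atImInfty (𝓝 L))
    (τ : ℍ) : φ τ = 0 := by
  obtain ⟨C, hC⟩ := es1per_exp_const hT hΦ hinv hlim
  have h1 : HasDerivAt (fun w => Complex.exp ((Φ ∘ ofComplex) w))
      (Complex.exp ((Φ ∘ ofComplex) τ) * φ τ) τ := (hΦ τ).cexp
  have h2 : HasDerivAt (fun w : ℂ => Complex.exp ((Φ ∘ ofComplex) w)) 0 τ := by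
    have : (fun w : ℂ => Complex.exp ((Φ ∘ ofComplex) w)) = fun _ => C := by
      funext w; exact hC _
    rw [this]; exact hasDerivAt_const _ _
  have := h1.unique h2
  exact (mul_eq_zero.mp this).resolve_left (Complex.exp_ne_zero _)

end MaxMod

/-- **The period homomorphism is injective**: if it vanishes then `g = 0`. -/
theorem Es1perCusp.eq_zero_of_hom_eq_zero {Γ : Subgroup SL(2, ℤ)} [Γ.FiniteIndex] {N : ℕ}
    [NeZero N] (hT : ∀ δ : SL(2, ℤ), δ * ModularGroup.T ^ (N : ℤ) * δ⁻¹ ∈ Γ) {g : ℍ → ℂ}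
    (hg : Es1perCusp Γ g) (h0 : hg.hom = 0) : g = 0 := by
  funext τ
  have hF := hg.isPrimitive_primitive
  refine es1per_eq_zero_of_imaginary_increments hT hF ?_
    (fun δ => hg.exists_tendsto_smul hF δ) τ
  intro γ hγ
  refine ⟨0, rfl, fun z => ?_⟩
  have h1 := hg.hom_apply hF ⟨γ, hγ⟩ z
  rw [h0] at h1
  exact h1.symm

end Fermat.Agent.ES1

end
end ZBES1_004_2

/-! ### bundled: `Fermat.Agent.ES1.G1.MuSurjDescentH` -/
section ZBES1_004_3

/-!
# ES₁ / G1-S (MuSurjH), descent half (helper83; fork of ES/MuSurjDescent.lean)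

`K_ℂ = fieldC ℂ L M H ⊂ ℂ((q))`, `Γ = gammaH L M H`, `M ∣ L`,
`es1g1sUC L M H n = {u ∈ K_ℂ^× : n ∣ w.ord u for every place w of K_ℂ / ℂ}`.

* `es1g1sUC_coeffMap`     : stable under the coefficientwise action of `Aut ℂ`;
* `es1g1sUC_mul_pow`      : and under multiplication by `n`-th powers of `K_ℂ^×`;
* `es1g1sUC_exists_root`  : every element is an `n`-th power in `ℂ((q))` (the cusp `∞` is a place);
* `es1g1sUC_finite`       : `U_ℂ(n) / K_ℂ^{×n}` is finite (multiplier characters; `Γ` is finitely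
                            generated);
* `es1g1sUC_exists_algebraic` : every class of `U_ℂ(n) / K_ℂ^{×n}` contains `w ^ n` with `w` of
                            algebraic coefficients (A6-surj).
-/

set_option autoImplicit false
set_option linter.unusedSectionVars false
set_option linter.unusedVariables false
set_option linter.style.haveILetI false

noncomputable section

namespace Fermat.Agent.ES1

open ModularCurve AlgebraicCurve CongruenceSubgroup UpperHalfPlane IntermediateField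
open Fermat.Agent.S24 Fermat.Agent.S28 Fermat.Agent.ES Fermat.Agent.ES.RRFin Fermat.Agent.ES.RC
open scoped MatrixGroups Manifold

/-- from finiteness over `k(x)` inside `K` to the relative degree in the ambient field -/
theorem es1g1s_relfinrank_ne_zero {k E : Type*} [Field k] [Field E] [Algebra k E]
    (K : IntermediateField k E) (x : K) [FiniteDimensional k⟮x⟯ K] :
    (IntermediateField.adjoin k {(x : E)}).relfinrank K ≠ 0 := by
  have h1 : (IntermediateField.adjoin k {(x : E)}).comap K.val = k⟮x⟯ := by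
    have h2 : IntermediateField.adjoin k {(x : E)} = (k⟮x⟯).map K.val := by
      rw [IntermediateField.adjoin_map, Set.image_singleton]
      rfl
    rw [h2]
    ext y
    constructor
    · intro hy
      obtain ⟨z, hz, hzy⟩ := hy
      have : z = y := K.val.injective hzy
      rwa [this] at hz
    · intro hy
      exact ⟨y, hy, rfl⟩
  have h3 := IntermediateField.finrank_comap (A := IntermediateField.adjoin k {(x : E)}) K.val
  rw [IntermediateField.fieldRange_val, h1] at h3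
  rw [← h3]
  exact (Module.finrank_pos (R := k⟮x⟯) (M := K)).ne'

variable (L M : ℕ) [NeZero L] (H : Subgroup (ZMod M)ˣ)

/-! ## (a) `Aut ℂ` acts on `K_ℂ` by semilinear automorphisms -/

/-- the coefficientwise action of `σ ∈ Aut ℂ` on `K_ℂ`, as a ring automorphism. -/
def es1g1sSigmaRingAut (σ : ℂ ≃+* ℂ) : fieldC ℂ L M H ≃+* fieldC ℂ L M H where
  toFun x := ⟨coeffMap (σ : ℂ →+* ℂ) (x : LaurentSeries ℂ),
    es1f_coeffMap_mem_fieldC (σ : ℂ →+* ℂ) L M H x.2⟩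
  invFun x := ⟨coeffMap (σ.symm : ℂ →+* ℂ) (x : LaurentSeries ℂ),
    es1f_coeffMap_mem_fieldC (σ.symm : ℂ →+* ℂ) L M H x.2⟩
  left_inv x := Subtype.ext (coeffMap_symm_coeffMap σ _)
  right_inv x := Subtype.ext (coeffMap_coeffMap_symm σ _)
  map_mul' x y :=
    Subtype.ext (map_mul (coeffMap (σ : ℂ →+* ℂ)) (x : LaurentSeries ℂ) (y : LaurentSeries ℂ))
  map_add' x y :=
    Subtype.ext (map_add (coeffMap (σ : ℂ →+* ℂ)) (x : LaurentSeries ℂ) (y : LaurentSeries ℂ))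

/-- the coefficientwise action of `σ ∈ Aut ℂ` on `K_ℂ`, as a semilinear automorphism. -/
def es1g1sSigmaAut (σ : ℂ ≃+* ℂ) : SemilinearAut ℂ (fieldC ℂ L M H) :=
  ⟨(es1g1sSigmaRingAut L M H σ, σ), fun a => Subtype.ext (coeffMap_algebraMap (σ : ℂ →+* ℂ) a)⟩

theorem es1g1s_coe_sigmaAut_smul (σ : ℂ ≃+* ℂ) (x : fieldC ℂ L M H) :
    ((es1g1sSigmaAut L M H σ • x : fieldC ℂ L M H) : LaurentSeries ℂ) =
      coeffMap (σ : ℂ →+* ℂ) (x : LaurentSeries ℂ) :=
  rfl

/-! ## The group `U_ℂ(n)` -/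

/-- `U_ℂ(n)`: nonzero elements of `K_ℂ` all of whose orders are divisible by `n`. -/
def es1g1sUC (n : ℕ) : Set (LaurentSeries ℂ) :=
  {u | ∃ hu : u ∈ fieldC ℂ L M H, u ≠ 0 ∧
    ∀ w : Place ℂ (fieldC ℂ L M H), (n : ℤ) ∣ w.ord ⟨u, hu⟩}

variable {L M H}

theorem es1g1sUC_mem {n : ℕ} {u : LaurentSeries ℂ} (h : u ∈ es1g1sUC L M H n) :
    u ∈ fieldC ℂ L M H := h.1

theorem es1g1sUC_ne_zero {n : ℕ} {u : LaurentSeries ℂ} (h : u ∈ es1g1sUC L M H n) : u ≠ 0 :=
  h.2.1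

theorem es1g1sUC_coeffMap {n : ℕ} (σ : ℂ ≃+* ℂ) {u : LaurentSeries ℂ}
    (h : u ∈ es1g1sUC L M H n) : coeffMap (σ : ℂ →+* ℂ) u ∈ es1g1sUC L M H n := by
  obtain ⟨hu, hu0, hord⟩ := h
  refine ⟨es1f_coeffMap_mem_fieldC (σ : ℂ →+* ℂ) L M H hu, ?_, fun w => ?_⟩
  · intro h0
    apply hu0
    have := congrArg (coeffMap (σ.symm : ℂ →+* ℂ)) h0
    rwa [coeffMap_symm_coeffMap, map_zero] at this
  · have h1 := SemilinearAut.ord_smul (es1g1sSigmaAut L M H σ)
      ((es1g1sSigmaAut L M H σ)⁻¹ • w) ⟨u, hu⟩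
    rw [smul_inv_smul] at h1
    have h2 : (es1g1sSigmaAut L M H σ • (⟨u, hu⟩ : fieldC ℂ L M H) : fieldC ℂ L M H) =
        ⟨coeffMap (σ : ℂ →+* ℂ) u, es1f_coeffMap_mem_fieldC (σ : ℂ →+* ℂ) L M H hu⟩ := rfl
    rw [h2] at h1
    rw [h1]
    exact hord _

theorem es1g1sUC_mul_pow {n : ℕ} {u c : LaurentSeries ℂ} (h : u ∈ es1g1sUC L M H n)
    (hc : c ∈ fieldC ℂ L M H) (hc0 : c ≠ 0) : u * c ^ n ∈ es1g1sUC L M H n := by
  obtain ⟨hu, hu0, hord⟩ := h
  refine ⟨mul_mem hu (pow_mem hc n), mul_ne_zero hu0 (pow_ne_zero n hc0), fun w => ?_⟩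
  have hu0' : (⟨u, hu⟩ : fieldC ℂ L M H) ≠ 0 := fun h => hu0 (congrArg Subtype.val h)
  have hc0' : (⟨c, hc⟩ : fieldC ℂ L M H) ≠ 0 := fun h => hc0 (congrArg Subtype.val h)
  have e : (⟨u * c ^ n, mul_mem hu (pow_mem hc n)⟩ : fieldC ℂ L M H) = ⟨u, hu⟩ * ⟨c, hc⟩ ^ n :=
    rfl
  rw [e, Place.ord_mul w hu0' (pow_ne_zero n hc0'), ← zpow_natCast, Place.ord_zpow]
  exact dvd_add (hord w) (Dvd.intro _ rfl)

/-! ## (b) the cusp `∞` is a place; `n`-th roots in `ℂ((q))` -/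

variable (L M H) in
/-- the `q`-adic valuation on `K_ℂ`. -/
def es1g1sValInf : Valuation (fieldC ℂ L M H) (WithZero (Multiplicative ℤ)) :=
  (Valued.v : Valuation (LaurentSeries ℂ) (WithZero (Multiplicative ℤ))).comap
    (algebraMap (fieldC ℂ L M H) (LaurentSeries ℂ))

theorem es1g1sValInf_apply (f : fieldC ℂ L M H) :
    es1g1sValInf L M H f = Valued.v (f : LaurentSeries ℂ) := rfl

variable (L M H) in
/-- **The cusp `∞` is a place of `K_ℂ`**, with order function the `q`-order. -/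
theorem es1g1s_exists_place_inf :
    ∃ w : Place ℂ (fieldC ℂ L M H), ∀ f : fieldC ℂ L M H, f ≠ 0 →
      w.ord f = (f : LaurentSeries ℂ).order := by
  have hK : ∀ a : ℂ, es1g1sValInf L M H (algebraMap ℂ (fieldC ℂ L M H) a) ≤ 1 := by
    intro a
    by_cases ha : a = 0
    · simp [ha]
    · exact (val_algebraMap_eq_one a ha).le
  have hj : jqModC ℂ ∈ fieldC ℂ L M H := jqModC_mem_fieldC L M H ℂ
  have hj0 : (⟨jqModC ℂ, hj⟩ : fieldC ℂ L M H) ≠ 0 := by
    intro h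
    have h1 := congrArg Subtype.val h
    have h2 := one_lt_val_jqModC
    simp only at h1
    rw [h1] at h2
    simp at h2
  have hx : ∃ x : fieldC ℂ L M H, x ≠ 0 ∧ es1g1sValInf L M H x < 1 := by
    refine ⟨(⟨jqModC ℂ, hj⟩ : fieldC ℂ L M H)⁻¹, inv_ne_zero hj0, ?_⟩
    rw [map_inv₀, es1g1sValInf_apply]
    exact inv_lt_one_of_one_lt₀ one_lt_val_jqModC
  obtain ⟨w, e₀, he₀, -, hw⟩ := exists_place_of_valuation (K := ℂ) (es1g1sValInf L M H) hK hx
  have hvord : ∀ f : fieldC ℂ L M H, f ≠ 0 →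
      vord (es1g1sValInf L M H) f = (f : LaurentSeries ℂ).order := by
    intro f hf
    have hf' : (f : LaurentSeries ℂ) ≠ 0 := fun h => hf (Subtype.ext h)
    rw [vord, es1g1sValInf_apply, Fermat.Agent.ES.Sur.val_eq_exp_neg_order hf',
      WithZero.log_exp, neg_neg]
  have he1 : e₀ = 1 := by
    have h1 := hw _ hj0
    rw [hvord _ hj0] at h1
    simp only at h1
    rw [Fermat.Agent.ES.Sur.order_jqModC] at h1
    have hdvd : e₀ ∣ 1 := ⟨-w.ord ⟨jqModC ℂ, hj⟩, by linarith⟩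
    exact Int.eq_one_of_dvd_one he₀.le hdvd
  refine ⟨w, fun f hf => ?_⟩
  have h1 := hw f hf
  rw [hvord f hf, he1, one_mul] at h1
  exact h1.symm

theorem es1g1sUC_exists_root {n : ℕ} (hn : 0 < n) {u : LaurentSeries ℂ}
    (h : u ∈ es1g1sUC L M H n) : ∃ w : LaurentSeries ℂ, w ^ n = u := by
  obtain ⟨hu, hu0, hord⟩ := h
  obtain ⟨w, hw⟩ := es1g1s_exists_place_inf L M H
  have h1 := hord w
  rw [hw ⟨u, hu⟩ (fun h => hu0 (congrArg Subtype.val h))] at h1
  exact Fermat.Agent.ES.LaurentRoot.exists_pow_eq_laurentSeries hn u hu0 h1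

/-! ## (c) finiteness of `U_ℂ(n) / K_ℂ^{×n}` -/

variable (L M H) in
/-- analytic root data of an element `u` of `K_ℂ`: `u = a / g`, `(D.a / g) ^ n = a / g`. -/
structure Es1g1sAnData (n : ℕ) (u : LaurentSeries ℂ) where
  /-- numerator -/
  a : ℍ → ℂ
  /-- denominator -/
  g : ℍ → ℂ
  /-- the root -/
  D : RootData (gammaH L M H) n
  ha : IsModFunG (gammaH L M H) a
  hg : IsModFunG (gammaH L M H) g
  hLa : laurentOf a ≠ 0
  hLg : laurentOf g ≠ 0
  hfrac : u * laurentOf g = laurentOf a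
  hDg : D.g = g
  hDa : ∀ τ, D.a τ ^ n = a τ * g τ ^ (n - 1)

theorem es1g1sUC_exists_anData (hML : M ∣ L) {n : ℕ} (hn : 0 < n) {u : LaurentSeries ℂ}
    (h : u ∈ es1g1sUC L M H n) : Nonempty (Es1g1sAnData L M H n u) := by
  obtain ⟨hu, hu0, hord⟩ := h
  obtain ⟨a, g, ha, hg, hLg, hfrac⟩ := es1rc_exists_frac H hu
  have hLa : laurentOf a ≠ 0 := by
    rw [← hfrac]
    exact mul_ne_zero hu0 hLg
  have ha0 : a ≠ 0 := fun h => hLa (by rw [h]; exact laurentOf_zero)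
  have hg0 : g ≠ 0 := fun h => hLg (by rw [h]; exact laurentOf_zero)
  letI := es1rcAlgebra hML H
  haveI := es1rc_isScalarTower hML H
  haveI := es1rc_isFractionRing hML H
  have hPt := es1rc_stmtPtG hML H
  have hord' : ∀ τ : ℍ, ∃ k : ℤ,
      ((ordAt τ a).toNat : ℤ) - ((ordAt τ g).toNat : ℤ) = n * k := by
    intro τ
    obtain ⟨v, e, -, hv⟩ := hPt τ
    have ha' : (⟨a, ha⟩ : modFunAlgG (gammaH L M H)) ≠ 0 := fun h => ha0 (congrArg Subtype.val h)
    have hg' : (⟨g, hg⟩ : modFunAlgG (gammaH L M H)) ≠ 0 := fun h => hg0 (congrArg Subtype.val h)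
    have h1 := hv ⟨a, ha⟩ ha'
    have h2 := hv ⟨g, hg⟩ hg'
    have hA0 : algebraMap (modFunAlgG (gammaH L M H)) (fieldC ℂ L M H) ⟨a, ha⟩ ≠ 0 :=
      fun h => hLa (congrArg Subtype.val h)
    have hG0 : algebraMap (modFunAlgG (gammaH L M H)) (fieldC ℂ L M H) ⟨g, hg⟩ ≠ 0 :=
      fun h => hLg (congrArg Subtype.val h)
    have hu0' : (⟨u, hu⟩ : fieldC ℂ L M H) ≠ 0 := fun h => hu0 (congrArg Subtype.val h)
    have hmul : (⟨u, hu⟩ : fieldC ℂ L M H) *
        algebraMap (modFunAlgG (gammaH L M H)) (fieldC ℂ L M H) ⟨g, hg⟩ =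
        algebraMap (modFunAlgG (gammaH L M H)) (fieldC ℂ L M H) ⟨a, ha⟩ := Subtype.ext hfrac
    have h3 := Place.ord_mul v hu0' hG0
    rw [hmul] at h3
    obtain ⟨k, hk⟩ := hord v
    refine ⟨e * k, ?_⟩
    simp only [Fermat.Agent.ES.RC.ordPt] at h1 h2
    rw [h1, h2, h3, hk]
    ring
  have hinv : ∀ γ ∈ gammaH L M H, ∀ τ : ℍ, a (γ • τ) * g τ = a τ * g (γ • τ) := by
    intro γ hγ τ
    rw [ha.comp_smul hγ τ, hg.comp_smul hγ τ]
  obtain ⟨D, hDg, hDa⟩ := RootData.exists_ofDiv (Γ := gammaH L M H) hn.ne'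
    ha.mdiff hg.mdiff ha0 hg0 hord' hinv
  exact ⟨⟨a, g, D, ha, hg, hLa, hLg, hfrac, hDg, hDa⟩⟩

theorem Es1g1sAnData.a_smul {n : ℕ} {u : LaurentSeries ℂ} (A : Es1g1sAnData L M H n u)
    (γ : gammaH L M H) (τ : ℍ) :
    A.D.a ((γ : SL(2, ℤ)) • τ) = ((A.D.mult γ : ℂˣ) : ℂ) * A.D.a τ := by
  have hg : MDiff A.g := A.hg.mdiff
  have hg0 : A.g ≠ 0 := fun h => A.hLg (by rw [h]; exact laurentOf_zero)
  have hconst : MDiff (fun _ : ℍ => ((A.D.mult γ : ℂˣ) : ℂ)) := mdifferentiable_const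
  refine mdiff_mul_right_cancel (mdiff_comp_SL A.D.mdiff_a γ) (hconst.mul A.D.mdiff_a) hg hg0
    (fun τ => ?_) τ
  have h := A.D.mult_spec γ τ
  rw [A.hDg, A.hg.comp_smul γ.2 τ] at h
  rw [h]
  simp only [Pi.mul_apply]
  ring

/-- **Kernel of the multiplier map over `ℂ`**: two elements of `K_ℂ` whose roots have the same
multiplier character differ by an `n`-th power of `K_ℂ^×`. -/
theorem Es1g1sAnData.exists_eq_mul_pow (hML : M ∣ L) {n : ℕ} (hn : 0 < n)
    {u t : LaurentSeries ℂ} (A : Es1g1sAnData L M H n u)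
    (B : Es1g1sAnData L M H n t) (h : A.D.mult = B.D.mult) :
    ∃ c ∈ fieldC ℂ L M H, c ≠ 0 ∧ u = t * c ^ n := by
  haveI : NeZero M := es1rc_neZero_of_dvd hML
  haveI : (gammaH L M H).FiniteIndex := es1rc_finiteIndex hML H
  obtain ⟨m, rfl⟩ : ∃ m, n = m + 1 := ⟨n - 1, by omega⟩
  -- the numerator `N = D_A.a · D_B.a^m · g_B`
  set Nf : ℍ → ℂ := fun τ => A.D.a τ * B.D.a τ ^ m * B.g τ with hNf
  have hBg : MDiff B.g := B.hg.mdiff
  have hNmd : MDiff Nf := (A.D.mdiff_a.mul (B.D.mdiff_a.pow m)).mul hBg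
  have hNinv : ∀ γ ∈ gammaH L M H, ∀ τ : ℍ, Nf (γ • τ) = Nf τ := by
    intro γ hγ τ
    have h1 := A.a_smul ⟨γ, hγ⟩ τ
    have h2 := B.a_smul ⟨γ, hγ⟩ τ
    have h3 : ((B.D.mult ⟨γ, hγ⟩ : ℂˣ) : ℂ) ^ (m + 1) = 1 := by
      rw [RootData.coe_mult]
      exact B.D.multVal_pow ⟨γ, hγ⟩
    simp only [hNf]
    simp only at h1 h2
    rw [h1, h2, B.hg.comp_smul hγ τ, h]
    calc ((B.D.mult ⟨γ, hγ⟩ : ℂˣ) : ℂ) * A.D.a τ * (((B.D.mult ⟨γ, hγ⟩ : ℂˣ) : ℂ) * B.D.a τ) ^ m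
          * B.g τ
        = ((B.D.mult ⟨γ, hγ⟩ : ℂˣ) : ℂ) ^ (m + 1) * (A.D.a τ * B.D.a τ ^ m * B.g τ) := by ring
      _ = A.D.a τ * B.D.a τ ^ m * B.g τ := by rw [h3, one_mul]
  have hNpow : (fun z => Nf z ^ (m + 1)) =
      A.a * A.g ^ m * (B.a * B.g ^ m) ^ m * B.g ^ (m + 1) := by
    funext z
    have h1 : A.D.a z ^ (m + 1) = A.a z * A.g z ^ m := A.hDa z
    have h2 : B.D.a z ^ (m + 1) = B.a z * B.g z ^ m := B.hDa z
    simp only [hNf, Pi.mul_apply, Pi.pow_apply]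
    rw [mul_pow, mul_pow, h1, ← pow_mul, mul_comm m (m + 1), pow_mul, h2]
  have hNmod : IsModFunG (gammaH L M H) Nf := by
    refine isModFunG_of_pow (Nat.succ_ne_zero m) hNmd hNinv ?_
    rw [hNpow]
    exact (((A.ha.mul (A.hg.pow m)).mul ((B.ha.mul (B.hg.pow m)).pow m)).mul (B.hg.pow (m + 1)))
  -- Laurent expansions
  have mer : ∀ {f : ℍ → ℂ}, IsModFunG (gammaH L M H) f → IsMerInf f := fun hf =>
    es1rc_isMerInf H hf
  have mA := mer A.ha
  have mAg := mer A.hg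
  have mB := mer B.ha
  have mBg := mer B.hg
  have hLN : laurentOf Nf ^ (m + 1) =
      laurentOf A.a * laurentOf A.g ^ m * (laurentOf B.a * laurentOf B.g ^ m) ^ m
        * laurentOf B.g ^ (m + 1) := by
    rw [← laurentOf_pow (mer hNmod)]
    have e : Nf ^ (m + 1) = fun z => Nf z ^ (m + 1) := rfl
    rw [e, hNpow,
      laurentOf_mul (mer (((A.ha.mul (A.hg.pow m)).mul ((B.ha.mul (B.hg.pow m)).pow m))))
        (mer (B.hg.pow (m + 1))),
      laurentOf_mul (mer (A.ha.mul (A.hg.pow m))) (mer ((B.ha.mul (B.hg.pow m)).pow m)),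
      laurentOf_mul mA (mer (A.hg.pow m)), laurentOf_pow mAg,
      laurentOf_pow (mer (B.ha.mul (B.hg.pow m))), laurentOf_mul mB (mer (B.hg.pow m)),
      laurentOf_pow mBg, laurentOf_pow mBg]
  set LA := laurentOf A.a
  set LAg := laurentOf A.g
  set LB := laurentOf B.a
  set LBg := laurentOf B.g
  have hLA : LA ≠ 0 := A.hLa
  have hLAg : LAg ≠ 0 := A.hLg
  have hLB : LB ≠ 0 := B.hLa
  have hLBg : LBg ≠ 0 := B.hLg
  have hden : LB * LBg ^ m * LAg ≠ 0 := mul_ne_zero (mul_ne_zero hLB (pow_ne_zero m hLBg)) hLAg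
  have hLN0 : laurentOf Nf ≠ 0 := by
    intro h0
    rw [h0, zero_pow (Nat.succ_ne_zero m)] at hLN
    exact (mul_ne_zero (mul_ne_zero (mul_ne_zero hLA (pow_ne_zero m hLAg))
      (pow_ne_zero m (mul_ne_zero hLB (pow_ne_zero m hLBg)))) (pow_ne_zero _ hLBg)) hLN.symm
  refine ⟨laurentOf Nf / (LB * LBg ^ m * LAg), ?_, div_ne_zero hLN0 hden, ?_⟩
  · refine div_mem (es1rc_laurentOf_mem_fieldC hML H hNmod)
      (mul_mem (mul_mem (es1rc_laurentOf_mem_fieldC hML H B.ha)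
        (pow_mem (es1rc_laurentOf_mem_fieldC hML H B.hg) m))
        (es1rc_laurentOf_mem_fieldC hML H A.hg))
  · have hu : u = LA / LAg := by rw [eq_div_iff hLAg]; exact A.hfrac
    have ht : t = LB / LBg := by rw [eq_div_iff hLBg]; exact B.hfrac
    rw [hu, ht, div_pow, hLN]
    field_simp
    ring

/-- **Finiteness of `U_ℂ(n) / K_ℂ^{×n}`.** -/
theorem es1g1sUC_finite (hML : M ∣ L) {n : ℕ} (hn : 0 < n) :
    ∃ T : Set (LaurentSeries ℂ), T.Finite ∧ T ⊆ es1g1sUC L M H n ∧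
      ∀ u ∈ es1g1sUC L M H n, ∃ t ∈ T, ∃ c ∈ fieldC ℂ L M H, c ≠ 0 ∧ u = t * c ^ n := by
  classical
  haveI : NeZero M := es1rc_neZero_of_dvd hML
  haveI : (gammaH L M H).FiniteIndex := es1rc_finiteIndex hML H
  haveI : NeZero n := ⟨hn.ne'⟩
  haveI : Group.FG (gammaH L M H) := es1per_fg (gammaH L M H)
  haveI : Finite (gammaH L M H →* rootsOfUnity n ℂ) :=
    Fermat.Agent.ES.Sur.finite_monoidHom_of_fg _ _
  -- the choice of analytic data and the multiplier map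
  let A : ∀ u : es1g1sUC L M H n, Es1g1sAnData L M H n u :=
    fun u => (es1g1sUC_exists_anData hML hn u.2).some
  let μ : es1g1sUC L M H n → (gammaH L M H →* rootsOfUnity n ℂ) := fun u => (A u).D.multRoots
  have hex : ∀ χ : Set.range μ, ∃ u : es1g1sUC L M H n, μ u = χ := fun χ => χ.2
  choose rep hrep using hex
  refine ⟨Set.range (fun χ : Set.range μ => ((rep χ : es1g1sUC L M H n) : LaurentSeries ℂ)),
    Set.finite_range _, ?_, ?_⟩
  · rintro _ ⟨χ, rfl⟩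
    exact (rep χ).2
  · intro u hu
    set χ : Set.range μ := ⟨μ ⟨u, hu⟩, ⟨⟨u, hu⟩, rfl⟩⟩ with hχ
    refine ⟨_, ⟨χ, rfl⟩, ?_⟩
    have hμ : μ (rep χ) = μ ⟨u, hu⟩ := hrep χ
    have hmult : (A ⟨u, hu⟩).D.mult = (A (rep χ)).D.mult := by
      ext1 γ
      have h1 := congrArg (fun f : gammaH L M H →* rootsOfUnity n ℂ =>
        ((f γ : rootsOfUnity n ℂ) : ℂˣ)) hμ
      exact h1.symm
    exact Es1g1sAnData.exists_eq_mul_pow hML hn (A ⟨u, hu⟩) (A (rep χ)) hmult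

/-! ## (d) descent -/

/-- `K_ℂ` is finite over `ℂ(j)` -/
theorem es1g1s_relfinrank_fieldC_ne_zero (hML : M ∣ L) :
    (IntermediateField.adjoin ℂ {jqModC ℂ}).relfinrank (fieldC ℂ L M H) ≠ 0 := by
  haveI : FiniteDimensional ℂ⟮jFC L M H⟯ (fieldC ℂ L M H) := (stmtRamJC L M H hML).finite
  exact es1g1s_relfinrank_ne_zero (fieldC ℂ L M H) (jFC L M H)

/-- **A6-surj for `K_ℂ`**: every class of `U_ℂ(n) / K_ℂ^{×n}` contains `w ^ n` with `w` a Laurent
series with algebraic coefficients. -/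
theorem es1g1sUC_exists_algebraic (hML : M ∣ L) {n : ℕ} (hn : 0 < n) {u : LaurentSeries ℂ}
    (hu : u ∈ es1g1sUC L M H n) :
    ∃ c ∈ fieldC ℂ L M H, c ≠ 0 ∧ ∃ w : LaurentSeries ℂ, w ^ n = u * c ^ n ∧
      ∀ m : ℤ, IsAlgebraic ℚ (w.coeff m) :=
  exists_algebraic_root n hn (jqModC ℂ) one_lt_val_jqModC
    (fun σ => coeffMap_jqModC (σ : ℂ →+* ℂ)) (fieldC ℂ L M H) (jqModC_mem_fieldC L M H ℂ)
    (es1g1s_relfinrank_fieldC_ne_zero hML)
    (fun σ _ hy => es1f_coeffMap_mem_fieldC (σ : ℂ →+* ℂ) L M H hy)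
    (es1g1sUC L M H n) (fun _ h => es1g1sUC_ne_zero h) (fun _ h => es1g1sUC_mem h)
    (fun σ _ h => es1g1sUC_coeffMap σ h)
    (fun _ h => es1g1sUC_exists_root hn h) (es1g1sUC_finite hML hn) u hu

end Fermat.Agent.ES1

end
end ZBES1_004_3

/-! ### bundled: `Fermat.Agent.ES1.G1.MuSurjGlueH` -/
section ZBES1_004_4

/-!
# ES₁ / G1-S: `MuSurjH` (helper83; fork of ES/MuSurjGlue.lean)

`Γ = gammaH L M H`, `M ∣ L`, `K_ℂ = fieldC ℂ L M H`, `K_ℚ̄ = fieldBar L M H`, `J = JH L M H`.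

`es1g1s_muSurj` : for `φ : Γ → ℤ` parabolic and `n > 0` there is `x ∈ J[n]` with a Kummer function
`u ∈ K_ℚ̄` whose analytic `n`-th root has multiplier `e(φ/n)` (= `MuRelH n x e(φ/n)` written out).
Inputs still open in RC-Γ are hypotheses: `StmtAllG`, `StmtCuspExactG` for `Γ` and `K_ℂ`.

Proof.  The analytic half (`es1g1s_an`) gives a modular function `U` with all orders divisible by
`n` and an `n`-th root of multiplier `e(φ/n)`.  By descent (`es1g1sUC_exists_algebraic`) there is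
`c ∈ K_ℂ^×` such that `U c ^ n = w ^ n` with `w ∈ ℚ̄((q))`; so `u₀ = w ^ n ∈ K_ℚ̄` (`DescentInj`),
all of whose orders are divisible by `n` (BCu, `es1r_bcu_dvd`), hence `u₀` is a Kummer function of
some `x ∈ J[n]` (KB(5)).  Analytically `u₀ = U (b/d) ^ n` with root `R.a · b / d`, of the same
multiplier.
-/

set_option autoImplicit false
set_option linter.unusedSectionVars false
set_option linter.unusedVariables false
set_option linter.style.haveILetI false

noncomputable section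

namespace Fermat.Agent.ES1

open ModularCurve AlgebraicCurve CongruenceSubgroup UpperHalfPlane IntermediateField
open Fermat.Agent.S24 Fermat.Agent.S28 Fermat.Agent.ES Fermat.Agent.ES.RRFin Fermat.Agent.ES.RC
  ModularCurve.Period
open scoped MatrixGroups Manifold

attribute [local instance] algKbC

/-- the field over `ℂ` is the base change of the field over `ℚ` -/
theorem es1g1s_laurentBaseChange_C (L M : ℕ) (H : Subgroup (ZMod M)ˣ) :
    laurentBaseChange ℂ (fieldQ L M H) = fieldC ℂ L M H := by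
  apply le_antisymm
  · rw [laurentBaseChange, IntermediateField.adjoin_le_iff]
    rintro _ ⟨x, hx, rfl⟩
    exact es1f_coeffMap_mem_fieldC (algebraMap ℚ ℂ) L M H hx
  · rw [fieldC, IntermediateField.adjoin_le_iff]
    rintro _ (⟨d, hd, hdN, rfl⟩ | ⟨e, he, a, heL, rfl⟩)
    · have h1 : qExpand ℂ d (jqModC ℂ) = coeffEmb ℂ (qExpand ℚ d (jqModC ℚ)) :=
        (coeffMap_jqNModC (algebraMap ℚ ℂ) d).symm
      rw [h1]
      exact coeffEmb_mem_laurentBaseChange _ (jd_mem_fieldC ℚ L M H hdN)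
    · have h1 : qExpand ℂ e (sS ℂ M H a) = coeffEmb ℂ (qExpand ℚ e (sS ℚ M H a)) :=
        (es1f_coeffMap_qExpand_sS (algebraMap ℚ ℂ) M H a e).symm
      rw [h1]
      exact coeffEmb_mem_laurentBaseChange _ (qExpand_sS_mem ℚ L M H heL a)

variable {L M : ℕ} [NeZero L] {H : Subgroup (ZMod M)ˣ}

/-- an invariant root datum `b / d` (`b`, `d` modular functions for `Γ`). -/
def es1g1sInvRootData {Γ : Subgroup SL(2, ℤ)} (n : ℕ) (hn : n ≠ 0) {b d : ℍ → ℂ}
    (hb : IsModFunG Γ b) (hd : IsModFunG Γ d) (hb0 : b ≠ 0) (hd0 : d ≠ 0) : RootData Γ n where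
  a := b
  g := d
  p_ne_zero := hn
  mdiff_a := hb.mdiff
  mdiff_g := hd.mdiff
  a_ne_zero := hb0
  g_ne_zero := hd0
  pow_inv γ hγ τ := by rw [hb.comp_smul hγ τ, hd.comp_smul hγ τ]

theorem es1g1sInvRootData_mult {Γ : Subgroup SL(2, ℤ)} (n : ℕ) (hn : n ≠ 0) {b d : ℍ → ℂ}
    (hb : IsModFunG Γ b) (hd : IsModFunG Γ d) (hb0 : b ≠ 0) (hd0 : d ≠ 0) :
    (es1g1sInvRootData n hn hb hd hb0 hd0).mult = 1 := by
  rw [RootData.mult_eq_one_iff_invariant]
  intro γ hγ τ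
  show b (γ • τ) * d τ = b τ * d (γ • τ)
  rw [hb.comp_smul hγ τ, hd.comp_smul hγ τ]

/-- **G1-S (MuSurjH)**, with the two open RC-Γ statements as hypotheses. -/
theorem es1g1s_muSurj (hML : M ∣ L)
    (hAll : @StmtAllG (gammaH L M H) (fieldC ℂ L M H) _ _ (es1rcAlgebra hML H))
    (hCusp : @StmtCuspExactG (gammaH L M H) (fieldC ℂ L M H) _ _ (es1rcAlgebra hML H))
    (φ : Additive (gammaH L M H) →+ ℤ) (hφ : IsParabolicHom (gammaH L M H) φ)
    (n : ℕ) (hn : 0 < n) :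
    ∃ x : JH L M H, n • x = 0 ∧
      ∃ (u : fieldBar L M H) (a g : ℍ → ℂ) (R : RootData (gammaH L M H) n),
        KummerRel n x u ∧
        (IsModFunG (gammaH L M H) a ∧ IsModFunG (gammaH L M H) g ∧ g ≠ 0 ∧
          coeffMap embC (u : LaurentSeries Kb) * laurentOf g = laurentOf a) ∧
        (∀ τ : ℍ, R.a τ ^ n * g τ = a τ * R.g τ ^ n) ∧ R.multAdd = es1g1sExpChar n φ := by
  have hn0 : n ≠ 0 := hn.ne'
  haveI : NeZero M := es1rc_neZero_of_dvd hML
  letI := es1rcAlgebra hML H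
  haveI := es1rc_isScalarTower hML H
  haveI := es1rc_isFractionRing hML H
  obtain ⟨U, R, hU0, hRa, hRg, hRmult, hUord⟩ :=
    es1g1s_an (fieldC ℂ L M H) hAll (es1rc_stmtPtExactG hML H) hCusp φ hφ n hn
  have mer : ∀ {f : ℍ → ℂ}, IsModFunG (gammaH L M H) f → IsMerInf f := fun hf =>
    es1rc_isMerInf H hf
  -- `laurentOf U ∈ U_ℂ(n)`
  have hUmer : IsMerInf (U : ℍ → ℂ) := mer U.2
  have hUfun0 : (U : ℍ → ℂ) ≠ 0 := fun h => hU0 (Subtype.ext h)
  have hLU0 : laurentOf (U : ℍ → ℂ) ≠ 0 := fun h => hUfun0 ((laurentOf_eq_zero_iff hUmer).mp h)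
  have hLU : laurentOf (U : ℍ → ℂ) ∈ es1g1sUC L M H n :=
    ⟨es1rc_laurentOf_mem_fieldC hML H U.2, hLU0, fun w => hUord w⟩
  -- descent
  obtain ⟨c, hc, hc0, w, hw, halg⟩ := es1g1sUC_exists_algebraic hML hn hLU
  obtain ⟨w₀, hw₀⟩ := exists_coeffMap_eq_of_algebraic w halg
  have hcm : coeffMap (algebraMap Kb ℂ) (w₀ ^ n) = laurentOf (U : ℍ → ℂ) * c ^ n := by
    rw [map_pow, hw₀, hw]
  have hmemC : laurentOf (U : ℍ → ℂ) * c ^ n ∈ fieldC ℂ L M H :=
    mul_mem (es1rc_laurentOf_mem_fieldC hML H U.2) (pow_mem hc n)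
  have hu₀mem : w₀ ^ n ∈ fieldBar L M H := by
    refine (Fermat.Agent.ES.DescentInj.coeffMap_mem_laurentBaseChange_iff (K := Kb) (L := ℂ)
      (fieldQ L M H)).1 ?_
    rw [hcm, es1g1s_laurentBaseChange_C]
    exact hmemC
  set u₀ : fieldBar L M H := ⟨w₀ ^ n, hu₀mem⟩ with hu₀
  have hιu : iotaH L M H u₀ = ⟨laurentOf (U : ℍ → ℂ) * c ^ n, hmemC⟩ := Subtype.ext hcm
  have hu₀0 : u₀ ≠ 0 := by
    intro h0
    have h1 : iotaH L M H u₀ = 0 := by rw [h0, map_zero]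
    rw [hιu] at h1
    exact mul_ne_zero hLU0 (pow_ne_zero n hc0) (congrArg Subtype.val h1)
  -- all orders of `u₀` are divisible by `n`
  have hfin : Es1hFin L M H := es1hFin_of_ramJH (stmtRamJH L M H hML)
  have hdvd : ∀ v : Place Kb (fieldBar L M H), (n : ℤ) ∣ v.ord u₀ := by
    intro v
    haveI : FiniteDimensional Kb⟮jFH L M H⟯ (fieldBar L M H) := (stmtRamJH L M H hML).finite
    refine es1r_bcu_dvd L M H hML (Algebra.IsAlgebraic.of_finite _ _) (n : ℤ) u₀ (fun w' => ?_) v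
    rw [hιu]
    exact (es1g1sUC_mul_pow hLU hc hc0).2.2 w'
  -- the Kummer class
  haveI := es1h_hasPrincipalDivisors hfin
  obtain ⟨x, hx, hK⟩ := exists_kummerRel_of_dvd (K := Kb) (F := fieldBar L M H)
    hn0 hu₀0 hdvd
  -- the analytic description
  obtain ⟨b, d, hb, hd, hLd, hfrac⟩ := es1rc_exists_frac H hc
  have hLb : laurentOf b ≠ 0 := by
    rw [← hfrac]
    exact mul_ne_zero hc0 hLd
  have hb0 : b ≠ 0 := fun h => hLb (by rw [h]; exact laurentOf_zero)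
  have hd0 : d ≠ 0 := fun h => hLd (by rw [h]; exact laurentOf_zero)
  have hgn : IsModFunG (gammaH L M H) (d ^ n) := hd.pow n
  have han : IsModFunG (gammaH L M H) ((U : ℍ → ℂ) * b ^ n) := U.2.mul (hb.pow n)
  have hLgn : laurentOf (d ^ n) = laurentOf d ^ n := laurentOf_pow (mer hd) n
  have hLan : laurentOf ((U : ℍ → ℂ) * b ^ n) = laurentOf (U : ℍ → ℂ) * laurentOf b ^ n := by
    rw [laurentOf_mul hUmer (mer (hb.pow n)), laurentOf_pow (mer hb)]
  have hgn0 : d ^ n ≠ 0 := by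
    intro h0
    have h1 : laurentOf (d ^ n) = 0 := by rw [h0]; exact laurentOf_zero
    rw [hLgn] at h1
    exact pow_ne_zero n hLd h1
  refine ⟨x, hx, u₀, (U : ℍ → ℂ) * b ^ n, d ^ n,
    R.mul (es1g1sInvRootData n hn0 hb hd hb0 hd0), hK, ⟨han, hgn, hgn0, ?_⟩, fun τ => ?_, ?_⟩
  · show coeffMap embC (w₀ ^ n) * laurentOf (d ^ n) = laurentOf ((U : ℍ → ℂ) * b ^ n)
    have hcm' : coeffMap embC (w₀ ^ n) = laurentOf (U : ℍ → ℂ) * c ^ n := hcm
    rw [hcm', hLgn, hLan, ← hfrac]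
    ring
  · show (R.a τ * b τ) ^ n * (d τ) ^ n = ((U : ℍ → ℂ) τ * (b τ) ^ n) * (R.g τ * d τ) ^ n
    rw [hRg τ, one_mul, mul_pow, hRa τ]
  · rw [← hRmult]
    have h1 : (R.mul (es1g1sInvRootData n hn0 hb hd hb0 hd0)).mult = R.mult := by
      rw [RootData.mult_mul, es1g1sInvRootData_mult]
      ext1 γ
      simp
    show MonoidHom.toAdditive (R.mul (es1g1sInvRootData n hn0 hb hd hb0 hd0)).mult =
      MonoidHom.toAdditive R.mult
    rw [h1]

end Fermat.Agent.ES1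

end
end ZBES1_004_4

/-! ### bundled: `Fermat.Agent.ES1.PerTransfer` -/
section ZBES1_004_5

/-!
# ES₁ / G1-PER — the transfer is the operator of a coset family (helper42)

`Γ = gammaH L M H`, `Γ' = subLevel L M H ℓ`.  With the section `q ↦ q.out` of `Γ → Γ ⧸ Γ'`:

* `es1per_transfer_apply` : `transfer ϕ g = ∏_q ϕ (q.out⁻¹ g (g⁻¹ • q).out)` (generic);
* `es1per_heckeFam` : the coset family `α_q = diag(ℓ, 1) · q.out⁻¹`, `q·γ = γ⁻¹ • q`,
  `κ(γ, q) = conjAlphaH (q.out⁻¹ γ (γ⁻¹ • q).out)`;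
* `es1per_heckeGrp_eq_op` : `heckeGrp L M H ℓ hML φ = (es1per_heckeFam …).op A φ`;
-/

set_option autoImplicit false
set_option linter.unusedSectionVars false
set_option linter.style.haveILetI false

noncomputable section

namespace Fermat.Agent.ES1

open Matrix Matrix.SpecialLinearGroup CongruenceSubgroup ModularForm
open scoped MatrixGroups

/-! ## The transfer, with the section `Quotient.out` -/

section Generic

variable {G : Type*} [Group G] {K : Subgroup G}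

theorem es1per_out_mem (g : G) (q : G ⧸ K) :
    (q.out)⁻¹ * g * ((g⁻¹ • q).out) ∈ K := by
  rw [mul_assoc, ← QuotientGroup.eq]
  have h1 : ((g * (g⁻¹ • q).out : G) : G ⧸ K) = g • (((g⁻¹ • q).out : G) : G ⧸ K) := rfl
  have h2 : (((g⁻¹ • q).out : G) : G ⧸ K) = g⁻¹ • q := QuotientGroup.out_eq' _
  rw [h1, QuotientGroup.out_eq', h2, smul_inv_smul]

/-- the element `q.out⁻¹ g (g⁻¹ • q).out` of `K` -/
def es1per_outElt (g : G) (q : G ⧸ K) : K := ⟨(q.out)⁻¹ * g * ((g⁻¹ • q).out), es1per_out_mem g q⟩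

theorem es1per_outElt_mul (g h : G) (q : G ⧸ K) :
    es1per_outElt (g * h) q = es1per_outElt g q * es1per_outElt h (g⁻¹ • q) := by
  apply Subtype.ext
  show (q.out)⁻¹ * (g * h) * (((g * h)⁻¹ • q).out)
    = ((q.out)⁻¹ * g * ((g⁻¹ • q).out)) * (((g⁻¹ • q).out)⁻¹ * h * ((h⁻¹ • g⁻¹ • q).out))
  rw [_root_.mul_inv_rev, mul_smul]
  group

theorem es1per_transfer_apply [K.FiniteIndex] {A : Type*} [CommGroup A] (ϕ : K →* A) (g : G) :
    MonoidHom.transfer ϕ g
      = @Finset.prod (G ⧸ K) A _ (@Finset.univ _ K.fintypeQuotientOfFiniteIndex)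
          (fun q => ϕ (es1per_outElt g q)) := by
  rw [MonoidHom.transfer_def ϕ (default : K.LeftTransversal) g]
  unfold Subgroup.leftTransversals.diff
  refine Finset.prod_congr rfl fun q _ => ?_
  congr 1
  apply Subtype.ext
  show ((((default : K.LeftTransversal).2.leftQuotientEquiv q : G))⁻¹ *
      ((g • (default : K.LeftTransversal)).2.leftQuotientEquiv q : G))
    = (q.out)⁻¹ * g * ((g⁻¹ • q).out)
  rw [Subgroup.smul_apply_eq_smul_apply_inv_smul]
  have h : ∀ q : G ⧸ K, ((default : K.LeftTransversal).2.leftQuotientEquiv q : G) = q.out :=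
    fun q => Subgroup.IsComplement.leftQuotientEquiv_apply (f := Quotient.out)
      Quotient.out_eq' q
  rw [h, h, smul_eq_mul, mul_assoc]

end Generic

/-! ## The Hecke coset family -/

theorem es1per_mapGL_apply (g : SL(2, ℤ)) (i j : Fin 2) :
    ((mapGL ℝ g : GL (Fin 2) ℝ) : Matrix (Fin 2) (Fin 2) ℝ) i j = ((g i j : ℤ) : ℝ) := by
  simp

theorem es1per_conjAlpha_spec {ℓ : ℕ} (hℓ : ℓ ≠ 0) (h : SL(2, ℤ)) (hd : (ℓ : ℤ) ∣ h 1 0) :
    heckeDiagMatrix ℓ * mapGL ℝ h = mapGL ℝ (conjAlphaSL ℓ h hd) * heckeDiagMatrix ℓ := by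
  have he' : ((h 1 0 : ℤ) : ℝ) = (((h 1 0 / (ℓ : ℤ) : ℤ)) : ℝ) * (ℓ : ℝ) := by
    exact_mod_cast (Int.ediv_mul_cancel hd).symm
  apply Matrix.GeneralLinearGroup.ext
  intro i j
  rw [Matrix.GeneralLinearGroup.coe_mul, Matrix.GeneralLinearGroup.coe_mul,
    Matrix.mul_apply, Matrix.mul_apply, Fin.sum_univ_two, Fin.sum_univ_two]
  simp only [es1per_mapGL_apply, val_heckeDiagMatrix hℓ]
  fin_cases i <;> fin_cases j <;>
    simp [conjAlphaSL_apply_00, conjAlphaSL_apply_01, conjAlphaSL_apply_10, conjAlphaSL_apply_11]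
  · ring
  · exact he'

theorem es1per_det_mapGL_pos (γ : SL(2, ℤ)) (α : GL (Fin 2) ℝ) (hα : 0 < ((α.det : ℝˣ) : ℝ)) :
    0 < (((α * mapGL ℝ γ).det : ℝˣ) : ℝ) := by
  rw [map_mul, Units.val_mul]
  have h1 : (((mapGL ℝ γ : GL (Fin 2) ℝ).det : ℝˣ) : ℝ) = 1 := by
    rw [Matrix.GeneralLinearGroup.val_det_apply]
    have := (Matrix.SpecialLinearGroup.map (Int.castRingHom ℝ) γ).det_coe
    exact this
  rw [h1, mul_one]
  exact hα

section Fam

variable (L M : ℕ) [NeZero L] [NeZero M] (H : Subgroup (ZMod M)ˣ) (ℓ : ℕ) [NeZero ℓ]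

/-- the `Fintype` structure of `Γ ⧸ Γ'` -/
@[instance_reducible] def es1per_fintypeQuot : Fintype (↥(gammaH L M H) ⧸ subLevel L M H ℓ) :=
  (subLevel L M H ℓ).fintypeQuotientOfFiniteIndex

/-- the element `κ(γ, q) = conj_α (q.out⁻¹ γ (γ⁻¹ • q).out)` of `Γ` -/
def es1per_heckeCoc (hML : M ∣ L) (γ : gammaH L M H)
    (q : ↥(gammaH L M H) ⧸ subLevel L M H ℓ) : gammaH L M H :=
  conjAlphaH H ℓ (NeZero.ne ℓ) hML (subLevelEquiv L M H ℓ (es1per_outElt γ q))

/-- **the Hecke coset family** `α_q = diag(ℓ, 1) · q.out⁻¹`, `q ∈ Γ ⧸ Γ'` -/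
def es1per_heckeFam (hML : M ∣ L) :
    Es1perFam (gammaH L M H) (↥(gammaH L M H) ⧸ subLevel L M H ℓ) where
  rep q := heckeDiagMatrix ℓ * mapGL ℝ (((q.out : gammaH L M H) : SL(2, ℤ))⁻¹)
  det_pos q := es1per_det_mapGL_pos _ _ (det_heckeDiagMatrix_pos ℓ)
  next γ q := γ⁻¹ • q
  coc γ q := es1per_heckeCoc L M H ℓ hML γ q
  spec γ q := by
    have h1 := es1per_conjAlpha_spec (NeZero.ne ℓ)
      ((subLevelEquiv L M H ℓ (es1per_outElt γ q) : gammaH (L * ℓ) M H) : SL(2, ℤ))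
      (dvd_of_mem_gammaH_mul H ℓ (subLevelEquiv L M H ℓ (es1per_outElt γ q)).2)
    have h2 : ((subLevelEquiv L M H ℓ (es1per_outElt γ q) : gammaH (L * ℓ) M H) : SL(2, ℤ))
        = ((q.out : gammaH L M H) : SL(2, ℤ))⁻¹ * (γ : SL(2, ℤ))
          * (((γ⁻¹ • q).out : gammaH L M H) : SL(2, ℤ)) := rfl
    show heckeDiagMatrix ℓ * mapGL ℝ (((q.out : gammaH L M H) : SL(2, ℤ))⁻¹)
        * mapGL ℝ (γ : SL(2, ℤ))
      = mapGL ℝ ((es1per_heckeCoc L M H ℓ hML γ q : gammaH L M H) : SL(2, ℤ))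
        * (heckeDiagMatrix ℓ * mapGL ℝ ((((γ⁻¹ • q).out : gammaH L M H) : SL(2, ℤ))⁻¹))
    have h3 : mapGL ℝ ((es1per_heckeCoc L M H ℓ hML γ q : gammaH L M H) : SL(2, ℤ))
        * heckeDiagMatrix ℓ
        = heckeDiagMatrix ℓ * mapGL ℝ (((q.out : gammaH L M H) : SL(2, ℤ))⁻¹ * (γ : SL(2, ℤ))
          * (((γ⁻¹ • q).out : gammaH L M H) : SL(2, ℤ))) := by
      rw [← h2]
      exact h1.symm
    rw [← mul_assoc, h3, map_mul, map_mul, map_inv, map_inv]
    group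
  next_one q := by rw [inv_one, one_smul]
  next_mul γ δ q := by rw [_root_.mul_inv_rev, mul_smul]
  coc_mul γ δ q := by
    show es1per_heckeCoc L M H ℓ hML (γ * δ) q
      = es1per_heckeCoc L M H ℓ hML γ q * es1per_heckeCoc L M H ℓ hML δ (γ⁻¹ • q)
    unfold es1per_heckeCoc
    rw [es1per_outElt_mul, map_mul, map_mul]

variable {A : Type} [AddCommGroup A]

/-- **the bridge**: `heckeGrp` is the operator of the Hecke coset family -/
theorem es1per_heckeGrp_eq_op (hML : M ∣ L) (φ : Additive (gammaH L M H) →+ A) :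
    heckeGrp L M H ℓ hML φ
      = @Es1perFam.op _ _ (es1per_heckeFam L M H ℓ hML) (es1per_fintypeQuot L M H ℓ) A _ φ := by
  letI := es1per_fintypeQuot L M H ℓ
  refine AddMonoidHom.ext fun γ => ?_
  obtain ⟨γ, rfl⟩ : ∃ g : gammaH L M H, Additive.ofMul g = γ := ⟨Additive.toMul γ, rfl⟩
  rw [heckeGrp_apply, Es1perFam.op_apply, es1per_transfer_apply]
  show Multiplicative.toAdd (∏ q, heckeRes L M H ℓ hML φ (es1per_outElt γ q)) = _
  rw [toAdd_prod]
  rfl

end Fam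

end Fermat.Agent.ES1

end
end ZBES1_004_5

/-! ### bundled: `Fermat.Agent.ES1.PerGammaH` -/
section ZBES1_004_6

/-!
# ES₁ / G1-PER — the period homomorphism of a cusp form with nebentypus on `Γ_H(M)` (helper42)

`g ∈ S₂(Γ₁(M))`, `g ≠ 0`, with nebentypus `θ` (`HasNebenK M θ 2 g`), `H ≤ ker θ`,
`Γ = gammaH M M H` (`= {γ ∈ Γ₀(M) : γ₀₀ mod M ∈ ±H}`).

* `es1per_cusp`    : `Es1perCusp Γ g` (primitives at all cusps, invariance under `Γ`);
* `es1per_finiteIndex`, `es1per_conj_T_pow_mem` : `Γ` has finite index and contains the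
  conjugates of `T^M`;
* `es1per_hom_ne_zero` : the period homomorphism `Γ → ℂ` of `g` is nonzero.
-/

set_option autoImplicit false
set_option linter.unusedSectionVars false
set_option linter.style.haveILetI false

noncomputable section

namespace Fermat.Agent.ES1

open UpperHalfPlane ModularForm CongruenceSubgroup Filter Topology Matrix.SpecialLinearGroup
open ModularCurve ModularCurve.Period Fermat.Agent.S21 Fermat.Agent.S48
open scoped MatrixGroups Manifold Pointwise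

/-! ## The group -/

theorem es1per_gamma1_le (M : ℕ) (H : Subgroup (ZMod M)ˣ) : Gamma1 M ≤ gammaH M M H :=
  fun _ hγ => gamma1_inf_gamma0_le M M H ⟨hγ, Gamma1_in_Gamma0 M hγ⟩

instance es1per_finiteIndex (M : ℕ) [NeZero M] (H : Subgroup (ZMod M)ˣ) :
    (gammaH M M H).FiniteIndex :=
  Subgroup.finiteIndex_of_le (es1per_gamma1_le M H)

theorem es1per_conj_T_pow_mem (M : ℕ) (H : Subgroup (ZMod M)ˣ) (δ : SL(2, ℤ)) :
    δ * ModularGroup.T ^ (M : ℤ) * δ⁻¹ ∈ gammaH M M H := by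
  have h1 : ModularGroup.T ^ (M : ℤ) ∈ Gamma M :=
    ModularGroup_T_pow_mem_Gamma M M (dvd_refl _)
  have h2 : δ * ModularGroup.T ^ (M : ℤ) * δ⁻¹ ∈ Gamma M :=
    (Gamma_normal M).conj_mem _ h1 δ
  apply es1per_gamma1_le M H
  rw [Gamma_mem] at h2
  rw [Gamma1_mem]
  exact ⟨h2.1, h2.2.2.2, h2.2.2.1⟩

/-! ## Primitives at the cusps -/

theorem es1per_isArithmetic_conj_Gamma1 (M : ℕ) [NeZero M] (δ : SL(2, ℤ)) :
    (ConjAct.toConjAct (δ : GL (Fin 2) ℝ)⁻¹ •
      ((Gamma1 M : Subgroup SL(2, ℤ)) : Subgroup (GL (Fin 2) ℝ))).IsArithmetic := by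
  have := Subgroup.IsArithmetic.conj
    ((Gamma1 M : Subgroup SL(2, ℤ)) : Subgroup (GL (Fin 2) ℝ)) (mapGL ℚ δ⁻¹)
  have e : (mapGL ℚ δ⁻¹).map (Rat.castHom ℝ) = (δ : GL (Fin 2) ℝ)⁻¹ := by
    have e1 : ∀ g : SL(2, ℤ), (mapGL ℚ g).map (Rat.castHom ℝ) = mapGL ℝ g := by
      intro g
      ext i j
      simp
    rw [e1, map_inv]
    rfl
  rw [e] at this
  exact this

/-- For a cusp form `f` on `Γ₁(M)` and `δ ∈ SL(2, ℤ)`, the translate `f ∣[2] δ` has a primitive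
which tends to `0` at `i∞`. -/
theorem es1per_exists_isPrimitive_slash (M : ℕ) [NeZero M] (f : CuspForm (Gamma1 M) 2)
    (δ : SL(2, ℤ)) :
    ∃ F : ℍ → ℂ, IsPrimitive F (⇑f ∣[(2 : ℤ)] δ) ∧ Tendsto F atImInfty (𝓝 0) := by
  have hA := es1per_isArithmetic_conj_Gamma1 M δ
  have hc := Fermat.Agent.S22.exists_cuspClass_of_cuspForm
    (CuspForm.translate f (δ : GL (Fin 2) ℝ))
  rw [CuspForm.coe_translate] at hc
  obtain ⟨h, hh, hc⟩ := hc
  obtain ⟨G, hG, hGd⟩ := hc.exists_primitive hh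
  exact ⟨G, hGd, hG.zero⟩

/-! ## Invariance under `Γ_H(M)` -/

variable {M : ℕ} [NeZero M] {θ : DirichletCharacter ℂ M} {H : Subgroup (ZMod M)ˣ}

/-- `θ` is trivial on `±H` -/
theorem es1per_theta_pmH (hH : ∀ h ∈ H, θ (h : ZMod M) = 1) (hneg : θ (-1) = 1)
    {c : (ZMod M)ˣ} (hc : c ∈ pmH H) : θ (c : ZMod M) = 1 := by
  unfold pmH at hc
  rw [Subgroup.mem_sup] at hc
  obtain ⟨h, hh, z, hz, rfl⟩ := hc
  rw [Subgroup.mem_zpowers_iff] at hz
  obtain ⟨k, rfl⟩ := hz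
  rw [Units.val_mul, map_mul, hH h hh, one_mul]
  have h1 : θ (((-1 : (ZMod M)ˣ) : ZMod M)) = 1 := by
    rw [Units.val_neg, Units.val_one]
    exact hneg
  have h2 : ∀ u : (ZMod M)ˣ, θ (u : ZMod M) = 1 → ∀ k : ℤ, θ ((u ^ k : (ZMod M)ˣ) : ZMod M) = 1 := by
    intro u hu k
    have hhom : ∀ v : (ZMod M)ˣ, θ (v : ZMod M) = (θ.toUnitHom v : ℂ) := fun v =>
      (MulChar.coe_toUnitHom θ v).symm
    rw [hhom, map_zpow]
    have hu' : θ.toUnitHom u = 1 := by
      apply Units.ext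
      rw [MulChar.coe_toUnitHom, hu]
      rfl
    rw [hu', one_zpow]
    rfl
  exact h2 _ h1 k

/-- a form with nebentypus `θ` is invariant under `Γ_H(M)`, `H ≤ ker θ` -/
theorem es1per_slash_eq {g : CuspForm (Gamma1 M) 2} (hθ : HasNebenK M θ 2 g)
    (hg0 : (g : ℍ → ℂ) ≠ 0) (hH : ∀ h ∈ H, θ (h : ZMod M) = 1) (γ : SL(2, ℤ))
    (hγ : γ ∈ gammaH M M H) : (⇑g ∣[(2 : ℤ)] γ) = ⇑g := by
  have hneg : θ (-1) = 1 := es1int_neg_one hθ hg0
  obtain ⟨-, hγM, hγH⟩ := hγ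
  have hN : NebChar M ((2 : ℕ) : ℤ) θ ⇑g := (nebChar_iff_hasNebenK 2 θ _).mpr hθ
  rw [Nat.cast_ofNat] at hN
  have h1 := hN γ hγM
  have h2 : θ (((γ 1 1 : ℤ)) : ZMod M) = 1 := by
    have h3 := es1per_theta_pmH hH hneg (inv_mem hγH)
    rw [coe_inv_diamHom] at h3
    exact h3
  rw [h2, one_smul] at h1
  exact h1

/-- **the cusp datum of `g` on `Γ_H(M)`** -/
theorem es1per_cusp {g : CuspForm (Gamma1 M) 2} (hθ : HasNebenK M θ 2 g)
    (hg0 : (g : ℍ → ℂ) ≠ 0) (hH : ∀ h ∈ H, θ (h : ZMod M) = 1) :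
    Es1perCusp (gammaH M M H) ⇑g where
  prim := es1per_exists_isPrimitive_slash M g
  inv := es1per_slash_eq hθ hg0 hH

/-- **the period homomorphism of `g ≠ 0` is nonzero** -/
theorem es1per_hom_ne_zero {g : CuspForm (Gamma1 M) 2} (hθ : HasNebenK M θ 2 g)
    (hg0 : (g : ℍ → ℂ) ≠ 0) (hH : ∀ h ∈ H, θ (h : ZMod M) = 1) :
    (es1per_cusp hθ hg0 hH).hom ≠ 0 := fun h0 =>
  hg0 ((es1per_cusp hθ hg0 hH).eq_zero_of_hom_eq_zero (es1per_conj_T_pow_mem M H) h0)

end Fermat.Agent.ES1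

end
end ZBES1_004_6
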