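/- GENERATED FILE (helper35, build-time optimisation, NOTES/ZB.md): verbatim concatenation of the modules
   Fermat.Agent.ES1.RCCusp
   Fermat.Agent.ES1.RCAllCusp
   Fermat.Agent.ES1.RCAll
   Fermat.Agent.ES1.RCCuspExactPlan
   Fermat.Agent.ES1.RCCuspExact
   Fermat.Agent.ES1.RCFinal
   Fermat.Agent.ES1.G1.MuSurjH
   Fermat.Agent.ES1.RCCuspExactB
   Fermat.Agent.ES1.RCFinal2
   Fermat.Agent.ES1.G1.MuSurjFinal
   Do not edit; do not import together with these modules. -/
import Fermat.Agent.ZB.ES1_003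
import Fermat.Agent.ZB.S24_003
import Fermat.Agent.ZB.ES1_015
import Fermat.Agent.ZB.S20_001
import Fermat.Agent.ZB.ES1_017
import Fermat.Agent.ZB.ES_002
import Fermat.Agent.ZB.ES1_013
import Fermat.Agent.ZB.ES1_004

/-! ### bundled: `Fermat.Agent.ES1.RCCusp` -/
section ZBES1_016_0
/-
ES₁ / F3 = RC-Γ, piece RC-cusp (helper81): the order at a cusp as an order function on
`modFunAlgG Γ`, and the place of `Frac (modFunAlgG Γ)` at a cusp, for an arbitrary subgroup
`Γ ≤ SL(2, ℤ)` of finite index.  Fork of `Fermat/Agent/ES/RC/CuspVal.lean`, `PlaceCusp.lean`.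

* `es1rccusp_isPer_comp` : `f ∘ g` is `h`-periodic for a period `h` of the cusp `g∞`;
* `es1rccusp_meromorphicAt`, `es1rccusp_order_ne_top` : the cusp function of `f ∘ g` in `q_h`
  is meromorphic at `0`, of finite order if `f ≠ 0`;
* `isOrdFun_ordCuspG` : `f ↦ ordCusp h g f` is an order function on `modFunAlgG Γ`;
* `es1rccuspVal`, `es1rccusp_exists_place`;
* `stmtCuspG Γ F : StmtCuspG Γ F`.
-/

set_option autoImplicit false

noncomputable section

namespace Fermat.Agent.ES1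

open UpperHalfPlane AlgebraicCurve ModularForm WithZero Filter Topology
open Fermat.Agent.S23 Fermat.Agent.S24 Fermat.Agent.S28 Fermat.Agent.ES.RC
open scoped MatrixGroups Manifold ModularForm

local notation "Δ" => ModularForm.discriminant

variable {Γ : Subgroup SL(2, ℤ)}

/-- `f ∘ g` is `h`-periodic if `g T^h g⁻¹ ∈ Γ`. -/
theorem es1rccusp_isPer_comp {f : ℍ → ℂ} (hf : IsModFunG Γ f) {h : ℕ} {g : SL(2, ℤ)}
    (hp : IsCuspPeriodG Γ h g) : IsPer h (fun τ => f (g • τ)) := by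
  intro τ
  have h1 := hf.comp_smul hp.2 (g • τ)
  rw [← mul_smul, inv_mul_cancel_right, mul_smul, rc_T_pow_smul] at h1
  exact h1

/-- `f ∘ g = B / Δ ^ m` with `B` holomorphic and bounded at `i∞`. -/
theorem es1rccusp_exists_bdd_repr [Γ.FiniteIndex] {f : ℍ → ℂ} (hf : IsModFunG Γ f)
    (g : SL(2, ℤ)) :
    ∃ (m : ℕ) (B : ℍ → ℂ), MDiff B ∧ IsBoundedAtImInfty B ∧
      ∀ τ, B τ = f (g • τ) * Δ τ ^ m := by
  have hfd : MDiff f := hf.mdiff
  obtain ⟨m, G, hG⟩ := hf
  have hB : ∀ τ, ((G : ℍ → ℂ) ∣[12 * (m : ℤ)] g) τ = f (g • τ) * Δ τ ^ m := by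
    intro τ
    rw [ModularForm.SL_slash_apply, congrFun hG (g • τ)]
    rw [rc_discriminant_smul g τ, mul_pow]
    have hd : denom g τ ≠ 0 := denom_ne_zero _ _
    have e3 : ((denom g τ) ^ (12 : ℤ)) ^ m = (denom g τ) ^ (12 * (m : ℤ)) := by
      rw [← zpow_natCast, ← zpow_mul]
    rw [e3, zpow_neg]
    field_simp
  refine ⟨m, (G : ℍ → ℂ) ∣[12 * (m : ℤ)] g, ?_, ModularFormClass.bdd_at_infty_slash G g, hB⟩
  have h1 : ((G : ℍ → ℂ) ∣[12 * (m : ℤ)] g) = fun τ => f (g • τ) * Δ τ ^ m := funext hB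
  rw [h1]
  exact (hfd.comp (UpperHalfPlane.mdifferentiable_smul (g := (g : GL (Fin 2) ℝ))
    (SL_val_det_pos g))).mul (rc_mdiff_discriminant.pow m)

/-- The cusp function of `f ∘ g` in `q_h` is meromorphic at `0`. -/
theorem es1rccusp_meromorphicAt [Γ.FiniteIndex] {f : ℍ → ℂ} (hf : IsModFunG Γ f) {h : ℕ}
    {g : SL(2, ℤ)} (hp : IsCuspPeriodG Γ h g) :
    MeromorphicAt (cuspFn h (fun τ => f (g • τ))) 0 := by
  obtain ⟨m, B, hBd, hBb, hB⟩ := es1rccusp_exists_bdd_repr hf g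
  have hper : IsPer h (fun τ => f (g • τ)) := es1rccusp_isPer_comp hf hp
  have hΔper : IsPer h (fun τ => Δ τ ^ m) := rc_isPer_pow (rc_isPer_discriminant h) m
  have hBper : IsPer h B := by
    intro τ
    have e1 : f (g • ((h : ℝ) +ᵥ τ)) = f (g • τ) := hper τ
    have e2 : Δ ((h : ℝ) +ᵥ τ) ^ m = Δ τ ^ m := hΔper τ
    rw [hB, hB, e1, e2]
  have h1 := rc_meromorphicAt_cuspFn_of_bdd hp.1 hBd hBper hBb
  have h2 := rc_meromorphicAt_cuspFn_of_bdd hp.1 (rc_mdiff_discriminant.pow m) hΔper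
    (rc_isBounded_pow rc_isBounded_discriminant m)
  have e : cuspFn h (fun τ => f (g • τ)) = cuspFn h B * (cuspFn h (fun τ => Δ τ ^ m))⁻¹ := by
    funext q
    simp only [cuspFn_apply, Pi.mul_apply, Pi.inv_apply, hB]
    rw [mul_assoc, mul_inv_cancel₀ (pow_ne_zero m (discriminant_ne_zero _)), mul_one]
  rw [e]
  exact h1.mul h2.inv

/-- The cusp function of `f ∘ g` has finite order if `f ≠ 0`. -/
theorem es1rccusp_order_ne_top {f : ℍ → ℂ} (hf : IsModFunG Γ f) (hf0 : f ≠ 0) {h : ℕ}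
    {g : SL(2, ℤ)} (hp : IsCuspPeriodG Γ h g) :
    meromorphicOrderAt (cuspFn h (fun τ => f (g • τ))) 0 ≠ ⊤ := by
  intro htop
  rw [meromorphicOrderAt_eq_top_iff] at htop
  have hfd : MDiff f := hf.mdiff
  have h0 := eq_zero_of_cuspFn_eventually_zero hp.1
    (hfd.comp (UpperHalfPlane.mdifferentiable_smul (g := (g : GL (Fin 2) ℝ))
      (SL_val_det_pos g))) (es1rccusp_isPer_comp hf hp) htop
  apply hf0
  funext τ
  have := congrFun h0 (g⁻¹ • τ)
  simpa using this

variable (Γ)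

theorem es1rccusp_coe_ordCusp {h : ℕ} {g : SL(2, ℤ)} (hp : IsCuspPeriodG Γ h g)
    {f : modFunAlgG Γ} (hf : f ≠ 0) :
    ((ordCusp h g (f : ℍ → ℂ) : ℤ) : WithTop ℤ)
      = meromorphicOrderAt (cuspFn h (fun τ => (f : ℍ → ℂ) (g • τ))) 0 := by
  rw [ordCusp]
  exact WithTop.coe_untop₀_of_ne_top
    (es1rccusp_order_ne_top f.2 (es1rcpt_coe_ne_zero hf) hp)

/-- The order at a cusp is an order function on `modFunAlgG Γ`. -/
theorem isOrdFun_ordCuspG [Γ.FiniteIndex] {h : ℕ} {g : SL(2, ℤ)} (hp : IsCuspPeriodG Γ h g) :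
    IsOrdFun (fun f : modFunAlgG Γ => ordCusp h g (f : ℍ → ℂ)) where
  one := by
    have h1 : cuspFn h (fun τ => ((1 : modFunAlgG Γ) : ℍ → ℂ) (g • τ)) = fun _ => (1 : ℂ) := rfl
    simp only [ordCusp, h1]
    classical
    rw [meromorphicOrderAt_const]
    simp
  mul f f' hf hf' := by
    refine ⟨mul_ne_zero hf hf', ?_⟩
    have h1 : cuspFn h (fun τ => ((f * f' : modFunAlgG Γ) : ℍ → ℂ) (g • τ))
        = cuspFn h (fun τ => (f : ℍ → ℂ) (g • τ)) * cuspFn h (fun τ => (f' : ℍ → ℂ) (g • τ)) :=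
      rfl
    have h2 := meromorphicOrderAt_mul (es1rccusp_meromorphicAt f.2 hp)
      (es1rccusp_meromorphicAt f'.2 hp)
    rw [← h1, ← es1rccusp_coe_ordCusp Γ hp hf, ← es1rccusp_coe_ordCusp Γ hp hf',
      ← es1rccusp_coe_ordCusp Γ hp (mul_ne_zero hf hf')] at h2
    exact_mod_cast h2
  add f f' hf hf' hff' := by
    have h1 : cuspFn h (fun τ => ((f + f' : modFunAlgG Γ) : ℍ → ℂ) (g • τ))
        = cuspFn h (fun τ => (f : ℍ → ℂ) (g • τ)) + cuspFn h (fun τ => (f' : ℍ → ℂ) (g • τ)) :=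
      rfl
    have h2 := meromorphicOrderAt_add (es1rccusp_meromorphicAt f.2 hp)
      (es1rccusp_meromorphicAt f'.2 hp)
    rw [← h1, ← es1rccusp_coe_ordCusp Γ hp hf, ← es1rccusp_coe_ordCusp Γ hp hf',
      ← es1rccusp_coe_ordCusp Γ hp hff'] at h2
    rw [min_le_iff] at h2 ⊢
    rcases h2 with h2 | h2
    · exact Or.inl (by exact_mod_cast h2)
    · exact Or.inr (by exact_mod_cast h2)

theorem es1rccusp_ordCusp_algebraMap (h : ℕ) (g : SL(2, ℤ)) (a : ℂ) :
    ordCusp h g ((algebraMap ℂ (modFunAlgG Γ) a : modFunAlgG Γ) : ℍ → ℂ) = 0 := by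
  have h1 : cuspFn h
      (fun τ => ((algebraMap ℂ (modFunAlgG Γ) a : modFunAlgG Γ) : ℍ → ℂ) (g • τ))
      = fun _ => a := rfl
  rw [ordCusp, h1]
  classical
  rw [meromorphicOrderAt_const]
  split_ifs <;> simp

theorem es1rccusp_J_ne_zero : es1rcptJ Γ ≠ 0 := by
  intro h
  obtain ⟨z, hz⟩ := Jfun_surjective 1
  have h1 := congrFun (congrArg Subtype.val h) z
  have h2 : (es1rcptJ Γ : ℍ → ℂ) z = Jfun z := rfl
  rw [h2, hz] at h1
  simp at h1

section Place

variable (F : Type*) [Field F] [Algebra ℂ F] [Algebra (modFunAlgG Γ) F]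
  [IsScalarTower ℂ (modFunAlgG Γ) F] [IsFractionRing (modFunAlgG Γ) F] [Γ.FiniteIndex]

/-- The valuation of `F` given by the order at the cusp `g∞` in the parameter `q_h`. -/
def es1rccuspVal {h : ℕ} {g : SL(2, ℤ)} (hp : IsCuspPeriodG Γ h g) : Valuation F ℤᵐ⁰ :=
  ordFrac F (fun f : modFunAlgG Γ => ordCusp h g (f : ℍ → ℂ)) (isOrdFun_ordCuspG Γ hp)

/-- The place of `F` at the cusp `g∞`. -/
theorem es1rccusp_exists_place {h : ℕ} {g : SL(2, ℤ)} (hp : IsCuspPeriodG Γ h g) :
    ∃ (w : Place ℂ F) (e : ℕ), 0 < e ∧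
      w.toValuationSubring = (es1rccuspVal Γ F hp).valuationSubring ∧
      ∀ f : modFunAlgG Γ, f ≠ 0 →
        ordCusp h g (f : ℍ → ℂ) = (e : ℤ) * w.ord (algebraMap (modFunAlgG Γ) F f) :=
  exists_place_of_ordFun_neg (K := ℂ) F (fun f : modFunAlgG Γ => ordCusp h g (f : ℍ → ℂ))
    (isOrdFun_ordCuspG Γ hp) (fun a _ => (es1rccusp_ordCusp_algebraMap Γ h g a).ge)
    ⟨es1rcptJ Γ, es1rccusp_J_ne_zero Γ, by
      show ordCusp h g Jfun < 0
      rw [ordCusp_Jfun hp.1 g]
      have : (0 : ℤ) < h := by exact_mod_cast hp.1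
      omega⟩

end Place

/-- **RC-cusp.** -/
theorem stmtCuspG [Γ.FiniteIndex] (F : Type) [Field F] [Algebra ℂ F] [Algebra (modFunAlgG Γ) F]
    [IsScalarTower ℂ (modFunAlgG Γ) F] [IsFractionRing (modFunAlgG Γ) F] : StmtCuspG Γ F := by
  intro g h hp
  obtain ⟨w, e, he, -, hw⟩ := es1rccusp_exists_place Γ F hp
  exact ⟨w, e, he, hw⟩

end Fermat.Agent.ES1

end
end ZBES1_016_0

/-! ### bundled: `Fermat.Agent.ES1.RCAllCusp` -/
section ZBES1_016_1
/-
ES₁ / F3 = RC-Γ, piece RC-all, the places at the cusps (helper81).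
Fork of `Fermat/Agent/ES/RC/PlaceAllCusp.lean` for an arbitrary subgroup `Γ ≤ SL(2, ℤ)` of
finite index (uniform period of the cusps: the index of the normal core of `Γ`).

`es1rcall_place_cusp_of_ord_neg` : a place `v` of `F = Frac (modFunAlgG Γ)` at which `J` has a
pole is the place at a cusp `g∞`.
-/

set_option autoImplicit false
set_option linter.style.haveILetI false
set_option linter.unusedSectionVars false

noncomputable section

namespace Fermat.Agent.ES1

open UpperHalfPlane AlgebraicCurve ModularForm Polynomial IntermediateField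
open Fermat.Agent.S23 Fermat.Agent.S24 Fermat.Agent.S28 Fermat.Agent.ES.RC
open scoped MatrixGroups Manifold ModularForm

variable (Γ : Subgroup SL(2, ℤ)) [Γ.FiniteIndex]

/-- the uniform period: the index of the normal core of `Γ` -/
def es1rcallPer : ℕ := Γ.normalCore.index

theorem es1rcallPer_pos : 0 < es1rcallPer Γ :=
  Nat.pos_of_ne_zero (Subgroup.FiniteIndex.index_ne_zero (H := Γ.normalCore))

/-- `es1rcallPer Γ` is a period of every cusp of `Γ`. -/
theorem es1rcall_isCuspPeriod (g : SL(2, ℤ)) : IsCuspPeriodG Γ (es1rcallPer Γ) g := by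
  refine ⟨es1rcallPer_pos Γ, ?_⟩
  have h1 : ModularGroup.T ^ (es1rcallPer Γ) ∈ Γ.normalCore :=
    Subgroup.pow_index_mem Γ.normalCore ModularGroup.T
  have h2 : g * ModularGroup.T ^ (es1rcallPer Γ) * g⁻¹ ∈ Γ.normalCore :=
    (Subgroup.normalCore_normal Γ).conj_mem _ h1 g
  exact Subgroup.normalCore_le Γ h2

section Field

variable (F : Type*) [Field F] [Algebra ℂ F] [Algebra (modFunAlgG Γ) F]
  [IsScalarTower ℂ (modFunAlgG Γ) F] [IsFractionRing (modFunAlgG Γ) F]

theorem es1rcall_algebraMap_jSub_zero : algebraMap (modFunAlgG Γ) F (es1rcptJSub Γ 0) = es1rcallJF Γ F := by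
  rw [es1rcall_algebraMap_jSub, map_zero, sub_zero]

/-- **Places at which `J` has a pole are cusps.** -/
theorem es1rcall_place_cusp_of_ord_neg (v : Place ℂ F) (hv : v.ord (es1rcallJF Γ F) < 0) :
    ∃ (g : SL(2, ℤ)) (h e : ℕ), IsCuspPeriodG Γ h g ∧ 0 < e ∧ ∀ f : modFunAlgG Γ, f ≠ 0 →
      ordCusp h g (f : ℍ → ℂ) = (e : ℤ) * v.ord (algebraMap (modFunAlgG Γ) F f) := by
  classical
  set h₀ : ℕ := es1rcallPer Γ with hh₀
  have hMpos : 0 < h₀ := es1rcallPer_pos Γ
  have htr := es1rcall_transcendental_jF Γ F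
  have hj0 : es1rcallJF Γ F ≠ 0 := by
    intro h0
    apply htr
    rw [h0]
    exact isAlgebraic_zero
  set x : F := (es1rcallJF Γ F)⁻¹ with hx
  have hx0 : x ≠ 0 := inv_ne_zero hj0
  have hxj : es1rcallJF Γ F * x = 1 := mul_inv_cancel₀ hj0
  have hvx : 0 < v.ord x := by
    rw [hx, v.ord_inv]
    omega
  have hper : ∀ g : SL(2, ℤ), IsCuspPeriodG Γ h₀ g := es1rcall_isCuspPeriod Γ
  by_contra hcon
  push Not at hcon
  -- the places at the cusps
  have hcp : ∀ g : SL(2, ℤ), ∃ (w : Place ℂ F) (e : ℕ), 0 < e ∧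
      w.toValuationSubring = (es1rccuspVal Γ F (hper g)).valuationSubring ∧
      ∀ f : modFunAlgG Γ, f ≠ 0 →
        ordCusp h₀ g (f : ℍ → ℂ) = (e : ℤ) * w.ord (algebraMap (modFunAlgG Γ) F f) :=
    fun g => es1rccusp_exists_place Γ F (hper g)
  have hvne : ∀ (g : SL(2, ℤ)) (w : Place ℂ F),
      w.toValuationSubring = (es1rccuspVal Γ F (hper g)).valuationSubring → w ≠ v := by
    rintro g w hw rfl
    obtain ⟨w', e, he, hw', hord⟩ := hcp g
    have hww : w' = w := Place.ext (hw'.trans hw.symm)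
    subst hww
    obtain ⟨f, hf, hne⟩ := hcon g h₀ e (hper g) he
    exact hne (hord f hf)
  -- the order of `J` at the cusps
  have hJcusp : ∀ g : SL(2, ℤ), ordCusp h₀ g ((es1rcptJ Γ : modFunAlgG Γ) : ℍ → ℂ) = -(h₀ : ℤ) :=
    fun g => ordCusp_Jfun hMpos g
  have hjM0 : es1rcptJ Γ ≠ 0 := es1rccusp_J_ne_zero Γ
  have hwj : ∀ (g : SL(2, ℤ)) (w : Place ℂ F) (e : ℕ), 0 < e →
      (∀ f : modFunAlgG Γ, f ≠ 0 →
        ordCusp h₀ g (f : ℍ → ℂ) = (e : ℤ) * w.ord (algebraMap (modFunAlgG Γ) F f)) →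
      w.ord (es1rcallJF Γ F) < 0 := by
    intro g w e he hord
    have h1 := hord (es1rcptJ Γ) hjM0
    rw [hJcusp g] at h1
    have he' : (0 : ℤ) < e := by exact_mod_cast he
    have hM' : (0 : ℤ) < h₀ := by exact_mod_cast hMpos
    by_contra hge
    push Not at hge
    have : 0 ≤ (e : ℤ) * w.ord (algebraMap (modFunAlgG Γ) F (es1rcptJ Γ)) := mul_nonneg he'.le hge
    omega
  -- transcendence and finiteness over `ℂ(x)`
  have hKeq : ℂ⟮x⟯ = ℂ⟮es1rcallJF Γ F⟯ := by
    apply le_antisymm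
    · rw [adjoin_simple_le_iff, hx]
      exact inv_mem (mem_adjoin_simple_self ℂ _)
    · rw [adjoin_simple_le_iff]
      have : es1rcallJF Γ F = x⁻¹ := by rw [hx, inv_inv]
      rw [this]
      exact inv_mem (mem_adjoin_simple_self ℂ _)
  have hxtr : Transcendental ℂ x := by
    intro halg
    apply htr
    have : es1rcallJF Γ F = x⁻¹ := by rw [hx, inv_inv]
    rw [this]
    exact halg.inv
  haveI hfd : FiniteDimensional ℂ⟮x⟯ F := hKeq ▸ es1rcall_finiteDimensional Γ F
  obtain ⟨V, hV, -⟩ := sum_ord_eq_finrank x hxtr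
  set S : Finset (Place ℂ F) :=
    V.filter (fun u => ∃ g : SL(2, ℤ),
      u.toValuationSubring = (es1rccuspVal Γ F (hper g)).valuationSubring) with hS
  have hvS : v ∉ S := by
    intro hmem
    obtain ⟨g, hg⟩ := (Finset.mem_filter.mp hmem).2
    exact hvne g v hg rfl
  obtain ⟨h, hvh, hSh⟩ := exists_ord_neg x hxtr v S hvx hvS
    (fun u hu => (hV u).mp (Finset.mem_filter.mp hu).1)
  have hh0 : h ≠ 0 := by
    rintro rfl
    simp at hvh
  -- `h = a / d(J)`
  obtain ⟨a, d, hd, hha⟩ := es1rcall_exists_frac_poly Γ F h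
  rw [← es1rcall_aeval_jF] at hha
  set δ : ℕ := d.natDegree with hδ
  have ha0 : a ≠ 0 := by
    rintro rfl
    rw [map_zero] at hha
    have hdne : aeval (es1rcallJF Γ F) d ≠ 0 := by
      rw [es1rcall_aeval_jF]
      exact rc_algebraMap_ne_zero F (es1rcall_aeval_J_ne_zero Γ hd)
    exact (mul_ne_zero hh0 hdne) hha
  have haF : algebraMap (modFunAlgG Γ) F a ≠ 0 := rc_algebraMap_ne_zero F ha0
  -- regularity of `h` at all cusps
  have hreg : ∀ g : SL(2, ℤ), -((δ : ℤ) * h₀) ≤ ordCusp h₀ g (a : ℍ → ℂ) := by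
    intro g
    obtain ⟨w, e, he, hw, hord⟩ := hcp g
    have hwj' := hwj g w e he hord
    have hwx : 0 < w.ord x := by
      rw [hx, w.ord_inv]
      omega
    have hwS : w ∈ S := Finset.mem_filter.mpr ⟨(hV w).mpr hwx, g, hw⟩
    have hwh := hSh w hwS
    obtain ⟨hdne, hwd⟩ := rc_place_ord_aeval_pole w hj0 hwj' d hd
    have h3 : w.ord (algebraMap (modFunAlgG Γ) F a) = w.ord h + (δ : ℤ) * w.ord (es1rcallJF Γ F) := by
      rw [← hha, w.ord_mul hh0 hdne, hwd]
    have h4 := hord (es1rcptJ Γ) hjM0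
    rw [hJcusp g] at h4
    have h4' : (e : ℤ) * w.ord (es1rcallJF Γ F) = -(h₀ : ℤ) := h4.symm
    rw [hord a ha0, h3]
    have he' : (0 : ℤ) ≤ e := by exact_mod_cast he.le
    nlinarith [mul_nonneg he' hwh]
  -- the norm polynomial
  obtain ⟨s, g, P, hP0, hrel, hsym⟩ := es1rcall_conj_core_c Γ 0 a
  have hPdeg : ∀ j, (P j).natDegree ≤ j * δ := by
    intro j
    rcases eq_or_ne (P j) 0 with h0 | h0
    · rw [h0]; simp
    have hne : aeval (es1rcptJSub Γ 0) (P j) ≠ 0 := es1rcall_aeval_jSub_ne_zero Γ 0 h0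
    -- the analytic bound
    have han : (((-((j : ℤ) * ((δ : ℤ) * h₀)) : ℤ)) : WithTop ℤ) ≤
        meromorphicOrderAt (cuspFn h₀ (fun τ =>
          ((aeval (es1rcptJSub Γ 0) (P j) : modFunAlgG Γ) : ℍ → ℂ) ((1 : SL(2, ℤ)) • τ))) 0 := by
      have e1 : cuspFn h₀ (fun τ =>
          ((aeval (es1rcptJSub Γ 0) (P j) : modFunAlgG Γ) : ℍ → ℂ) ((1 : SL(2, ℤ)) • τ))
          = fun z => ∑ S ∈ Finset.powersetCard j s,
              ∏ q ∈ S, cuspFn h₀ (fun τ => (a : ℍ → ℂ) (g q • τ)) z := by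
        funext z
        rw [cuspFn_apply, one_smul, hsym j]
        rfl
      rw [e1]
      have hprod : ∀ S ∈ Finset.powersetCard j s,
          MeromorphicAt (fun z => ∏ q ∈ S, cuspFn h₀ (fun τ => (a : ℍ → ℂ) (g q • τ)) z) 0 ∧
          (((-((j : ℤ) * ((δ : ℤ) * h₀)) : ℤ)) : WithTop ℤ) ≤ meromorphicOrderAt
            (fun z => ∏ q ∈ S, cuspFn h₀ (fun τ => (a : ℍ → ℂ) (g q • τ)) z) 0 := by
        intro S hS
        have hcard : S.card = j := (Finset.mem_powersetCard.mp hS).2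
        have h1 := rc_le_merOrd_prod S (fun q => cuspFn h₀ (fun τ => (a : ℍ → ℂ) (g q • τ)))
          (fun q _ => es1rccusp_meromorphicAt a.2 (hper (g q))) (-((δ : ℤ) * h₀))
          (fun q _ => by
            rw [← es1rccusp_coe_ordCusp Γ (hper (g q)) ha0]
            exact_mod_cast hreg (g q))
        refine ⟨h1.1, ?_⟩
        have h2 := h1.2
        rw [hcard] at h2
        have e2 : (j : ℤ) * -((δ : ℤ) * h₀) = -((j : ℤ) * ((δ : ℤ) * h₀)) := by ring
        rwa [e2] at h2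
      exact (rc_le_merOrd_sum _ _ (fun S hS => (hprod S hS).1) _ (fun S hS => (hprod S hS).2)).2
    rw [← es1rccusp_coe_ordCusp Γ (hper 1) hne] at han
    have han' : -((j : ℤ) * ((δ : ℤ) * h₀)) ≤
        ordCusp h₀ 1 ((aeval (es1rcptJSub Γ 0) (P j) : modFunAlgG Γ) : ℍ → ℂ) := by
      exact_mod_cast han
    -- the algebraic value
    obtain ⟨w, e, he, hw, hord⟩ := hcp 1
    have hwj' := hwj 1 w e he hord
    obtain ⟨-, hwP⟩ := rc_place_ord_aeval_pole w hj0 hwj' (P j) h0
    have h4 := hord (es1rcptJ Γ) hjM0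
    rw [hJcusp 1] at h4
    have h4' : (e : ℤ) * w.ord (es1rcallJF Γ F) = -(h₀ : ℤ) := h4.symm
    rw [hord _ hne, es1rcall_algebraMap_aeval_jSub, es1rcall_algebraMap_jSub_zero, hwP] at han'
    have h5 : (e : ℤ) * (((P j).natDegree : ℤ) * w.ord (es1rcallJF Γ F))
        = -(((P j).natDegree : ℤ) * h₀) := by
      rw [mul_left_comm, h4']; ring
    rw [h5] at han'
    have hM' : (0 : ℤ) < h₀ := by exact_mod_cast hMpos
    have h6 : ((P j).natDegree : ℤ) * h₀ ≤ ((j : ℤ) * δ) * h₀ := by linarith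
    have h7 : ((P j).natDegree : ℤ) ≤ (j : ℤ) * δ := le_of_mul_le_mul_right h6 hM'
    exact_mod_cast h7
  -- the relation for `y = a / J ^ δ`
  set α : F := algebraMap (modFunAlgG Γ) F a with hα
  set y : F := α * x ^ δ with hy
  have hαy : α = y * es1rcallJF Γ F ^ δ := by
    rw [hy, mul_assoc, ← mul_pow, mul_comm x, hxj, one_pow, mul_one]
  have hxmem : x ∈ v.toValuationSubring := (place_mem_iff v hx0).mpr hvx.le
  have hrelF : ∑ j ∈ Finset.range (Γ.index + 1),
      ((-1 : F) ^ j * aeval x ((P j).reflect (j * δ))) * y ^ (Γ.index - j) = 0 := by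
    have h1 := congrArg (algebraMap (modFunAlgG Γ) F) hrel
    rw [map_sum, map_zero] at h1
    have h2 : ∀ j ∈ Finset.range (Γ.index + 1),
        algebraMap (modFunAlgG Γ) F ((-1 : modFunAlgG Γ) ^ j * aeval (es1rcptJSub Γ 0) (P j) *
          a ^ (Γ.index - j))
        = es1rcallJF Γ F ^ (δ * Γ.index) *
          (((-1 : F) ^ j * aeval x ((P j).reflect (j * δ))) * y ^ (Γ.index - j)) := by
      intro j hj
      have hj' : j ≤ Γ.index := Nat.lt_succ_iff.mp (Finset.mem_range.mp hj)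
      rw [map_mul, map_mul, map_pow, map_pow, map_neg, map_one, es1rcall_algebraMap_aeval_jSub,
        es1rcall_algebraMap_jSub_zero, ← hα, hαy, rc_aeval_eq_reflect hj0 (j * δ) (P j) (hPdeg j),
        ← hx, mul_pow, ← pow_mul]
      have e1 : δ * Γ.index = j * δ + δ * (Γ.index - j) := by
        have : Γ.index = j + (Γ.index - j) := by omega
        conv_lhs => rw [this]
        ring
      rw [e1, pow_add]
      ring
    rw [Finset.sum_congr rfl h2, ← Finset.mul_sum] at h1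
    exact (mul_eq_zero.mp h1).resolve_left (pow_ne_zero _ hj0)
  have hymem : y ∈ v.toValuationSubring := by
    refine rc_mem_of_relation v.toValuationSubring (Γ.index)
      (fun j => (-1 : F) ^ j * aeval x ((P j).reflect (j * δ))) (by simp [hP0]) (fun j => ?_) y
      hrelF
    refine mul_mem (pow_mem (neg_mem (one_mem _)) j) (place_aeval_mem v hxmem _)
  -- conclusion
  have hc : (d.reverse).coeff 0 ≠ 0 := by
    rw [Polynomial.coeff_zero_reverse]
    exact Polynomial.leadingCoeff_ne_zero.mpr hd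
  obtain ⟨hqx0, hqord⟩ := place_ord_aeval_of_coeff_zero_ne v hvx d.reverse hc
  have hdj : aeval (es1rcallJF Γ F) d = aeval x d.reverse * es1rcallJF Γ F ^ δ :=
    rc_aeval_eq_reflect hj0 δ d le_rfl
  have hyq : y = h * aeval x d.reverse := by
    have e1 : α = h * (aeval x d.reverse * es1rcallJF Γ F ^ δ) := by
      rw [← hdj]
      exact hha.symm
    calc y = α * x ^ δ := rfl
      _ = h * (aeval x d.reverse * es1rcallJF Γ F ^ δ) * x ^ δ := by rw [← e1]
      _ = h * aeval x d.reverse * (es1rcallJF Γ F * x) ^ δ := by rw [mul_pow]; ring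
      _ = h * aeval x d.reverse := by rw [hxj, one_pow, mul_one]
  have hy0 : y ≠ 0 := by
    rw [hyq]; exact mul_ne_zero hh0 hqx0
  have hyord : v.ord y = v.ord h := by
    rw [hyq, v.ord_mul hh0 hqx0, hqord, add_zero]
  have := (place_mem_iff v hy0).mp hymem
  omega

end Field

end Fermat.Agent.ES1

end
end ZBES1_016_1

/-! ### bundled: `Fermat.Agent.ES1.RCAll` -/
section ZBES1_016_2
/-
ES₁ / F3 = RC-Γ, piece RC-all (helper81): every place of `Frac (modFunAlgG Γ)` is a point or a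
cusp, for an arbitrary subgroup `Γ ≤ SL(2, ℤ)` of finite index.

`stmtAllG Γ F : StmtAllG Γ F` — every place `v` of `F / ℂ` is the order at a point `τ ∈ ℍ`
(if `J` is regular at `v`, `es1rcall_place_pt_of_ord_nonneg`) or at a cusp `g∞`
(if `J` has a pole at `v`, `es1rcall_place_cusp_of_ord_neg`), up to the ramification index.
-/

set_option autoImplicit false

noncomputable section

namespace Fermat.Agent.ES1

open UpperHalfPlane AlgebraicCurve
open Fermat.Agent.S24 Fermat.Agent.S28 Fermat.Agent.ES.RC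
open scoped MatrixGroups

variable (Γ : Subgroup SL(2, ℤ)) [Γ.FiniteIndex]

/-- **RC-all.** -/
theorem stmtAllG (F : Type) [Field F] [Algebra ℂ F] [Algebra (modFunAlgG Γ) F]
    [IsScalarTower ℂ (modFunAlgG Γ) F] [IsFractionRing (modFunAlgG Γ) F] : StmtAllG Γ F := by
  intro v
  rcases le_or_gt 0 (v.ord (es1rcallJF Γ F)) with hv | hv
  · exact Or.inl (es1rcall_place_pt_of_ord_nonneg Γ F v hv)
  · exact Or.inr (es1rcall_place_cusp_of_ord_neg Γ F v hv)

end Fermat.Agent.ES1

end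
end ZBES1_016_2

/-! ### bundled: `Fermat.Agent.ES1.RCCuspExactPlan` -/
section ZBES1_016_3

/-!
# ES₁ / RC-cuspx, interface of the analytic bridge (piece (b), helper34)

For a period `h` of the cusp `g∞` of `Γ` and a modular function `f` for `Γ`, the function
`z ↦ f (g • (h z))` is `1`-periodic and meromorphic at `i∞`; the order of its Laurent expansion
is the order of `f` at the cusp in the parameter `q_h`.
-/

set_option autoImplicit false

noncomputable section

namespace Fermat.Agent.ES1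

open UpperHalfPlane
open Fermat.Agent.S23 Fermat.Agent.S24 Fermat.Agent.S28 Fermat.Agent.ES.RC
open scoped MatrixGroups

/-- **(b)** the expansion at the cusp `g∞` in `q_h` as a formal Laurent series -/
def StmtCuspBridgeG (Γ : Subgroup SL(2, ℤ)) : Prop :=
  ∀ (g : SL(2, ℤ)) (h : ℕ) [NeZero h], IsCuspPeriodG Γ h g → ∀ f : ℍ → ℂ, IsModFunG Γ f →
    IsMerInf (fun z => f (g • scaleN h z)) ∧
    (f ≠ 0 → (laurentOf (fun z => f (g • scaleN h z))).order = ordCusp h g f)

end Fermat.Agent.ES1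

end
end ZBES1_016_3

/-! ### bundled: `Fermat.Agent.ES1.RCCuspExact` -/
section ZBES1_016_4

/-!
# ES₁ / F3 = RC-Γ, piece RC-cuspx: `q_h` is a uniformiser at the cusp `g∞` (`h` = the width)

Generic `Γ` of finite index with the separation property `SepG Γ`, `F = Frac (modFunAlgG Γ)`.

`stmtCuspExactG_of_sep : SepG Γ → StmtCuspBridgeG Γ → StmtCuspExactG Γ F`.

Proof.  Let `h` be the least period of the cusp `g∞` and `(v, e)` the place of `stmtCuspG`.
If a prime `p` divides `e`, the field `S ⊂ ℂ((q))` of the expansions at the cusp (in `q = q_h`)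
has all its orders divisible by `p` and contains the invariant `J = q^{-h} + …`; by the formal
core (`es1rccxf_invariant`) all expansions are invariant under `q ↦ e^{2πi/p} q`, i.e. every
modular function is invariant under `g T^{h/p} g⁻¹`, which then lies in `Γ` (`SepG`): `h/p` is a
period, contradiction.
-/

set_option autoImplicit false
set_option linter.unusedSectionVars false
set_option linter.style.haveILetI false

noncomputable section

open UpperHalfPlane AlgebraicCurve ModularCurve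
open scoped MatrixGroups Manifold Real

namespace Fermat.Agent.ES1

open Fermat.Agent.S23 Fermat.Agent.S24 Fermat.Agent.S28 Fermat.Agent.ES Fermat.Agent.ES.RC

/-! ### Preliminaries -/

theorem es1rccx_order_div {x y : LaurentSeries ℂ} (hx : x ≠ 0) (hy : y ≠ 0) :
    (x / y).order = x.order - y.order := by
  rw [div_eq_mul_inv, HahnSeries.order_mul hx (inv_ne_zero hy), es1rccxf_order_inv hy]
  ring

/-- `e^{2πi/p}` is a `p`-th root of unity -/
theorem es1rccx_root_pow (p : ℕ) (hp : 0 < p) : rcRoot 1 (p : ℤ) ^ p = 1 := by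
  apply Units.ext
  rw [Units.val_pow_eq_pow_val, rc_coe_root, ← Complex.exp_nat_mul, Units.val_one]
  have hp' : (p : ℂ) ≠ 0 := by exact_mod_cast hp.ne'
  have : (p : ℂ) * (2 * π * Complex.I * (((1 : ℤ) : ℂ) / ((p : ℤ) : ℂ))) = 2 * π * Complex.I := by
    push_cast
    field_simp
  rw [this, Complex.exp_two_pi_mul_I]

/-- every point of `ℍ` is of the form `g • (h z)` -/
theorem es1rccx_surj (g : SL(2, ℤ)) (h : ℕ) [NeZero h] (w : ℍ) :
    ∃ z : ℍ, g • scaleN h z = w := by
  have hh : (0 : ℝ) < h := by exact_mod_cast Nat.pos_of_ne_zero (NeZero.ne h)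
  set w' : ℍ := g⁻¹ • w with hw'
  refine ⟨⟨(w' : ℂ) / h, by rw [Complex.div_natCast_im]; exact div_pos w'.im_pos hh⟩, ?_⟩
  have h1 : scaleN h ⟨(w' : ℂ) / h, by
      rw [Complex.div_natCast_im]; exact div_pos w'.im_pos hh⟩ = w' := by
    apply UpperHalfPlane.ext
    rw [coe_scaleN]
    have : (h : ℂ) ≠ 0 := by exact_mod_cast NeZero.ne h
    show (h : ℂ) * ((w' : ℂ) / h) = w'
    field_simp
  rw [h1, hw', ← mul_smul, mul_inv_cancel, one_smul]

/-- **(b3)** `h (z + 1/p) = T^k (h z)` if `h = p k` -/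
theorem es1rccx_scale_shift (h p k : ℕ) [NeZero h] (hp : 0 < p) (hk : h = p * k) (z : ℍ) :
    scaleN h (rcShift 1 (p : ℤ) (by exact_mod_cast hp) z) = (ModularGroup.T ^ k) • scaleN h z := by
  apply UpperHalfPlane.ext
  rw [rc_T_pow_smul, coe_scaleN, rc_coe_shift, UpperHalfPlane.coe_vadd, coe_scaleN, hk]
  have hp' : (p : ℂ) ≠ 0 := by exact_mod_cast hp.ne'
  push_cast
  field_simp
  ring

/-! ### The expansion at the cusp -/

section Phi

variable (Γ : Subgroup SL(2, ℤ)) (hbr : StmtCuspBridgeG Γ) (g : SL(2, ℤ)) (h : ℕ) [NeZero h]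
  (hp : IsCuspPeriodG Γ h g)

/-- the expansion at the cusp `g∞` in `q_h`, as a ring homomorphism -/
def es1rccxPhi : modFunAlgG Γ →+* LaurentSeries ℂ where
  toFun f := laurentOf (fun z => (f : ℍ → ℂ) (g • scaleN h z))
  map_one' := laurentOf_one
  map_mul' a b := laurentOf_mul (hbr g h hp _ a.2).1 (hbr g h hp _ b.2).1
  map_zero' := laurentOf_zero
  map_add' a b := laurentOf_add (hbr g h hp _ a.2).1 (hbr g h hp _ b.2).1

theorem es1rccxPhi_apply (f : modFunAlgG Γ) :
    es1rccxPhi Γ hbr g h hp f = laurentOf (fun z => (f : ℍ → ℂ) (g • scaleN h z)) := rfl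

theorem es1rccxPhi_injective : Function.Injective (es1rccxPhi Γ hbr g h hp) := by
  intro a b hab
  rw [es1rccxPhi_apply, es1rccxPhi_apply] at hab
  have h1 := laurentOf_injective (hbr g h hp _ a.2).1 (hbr g h hp _ b.2).1 hab
  apply Subtype.ext
  funext w
  obtain ⟨z, rfl⟩ := es1rccx_surj g h w
  exact congrFun h1 z

theorem es1rccxPhi_order {f : modFunAlgG Γ} (hf : f ≠ 0) :
    (es1rccxPhi Γ hbr g h hp f).order = ordCusp h g (f : ℍ → ℂ) :=
  (hbr g h hp _ f.2).2 (fun h0 => hf (Subtype.ext h0))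

theorem es1rccxPhi_algebraMap (c : ℂ) :
    es1rccxPhi Γ hbr g h hp (algebraMap ℂ (modFunAlgG Γ) c) = HahnSeries.C c := by
  rw [es1rccxPhi_apply]
  exact laurentOf_const c

theorem es1rccxPhi_J :
    es1rccxPhi Γ hbr g h hp (es1rcptJ Γ) = qExpand ℂ h (jqModC ℂ) := by
  rw [es1rccxPhi_apply]
  have h1 : (fun z => ((es1rcptJ Γ : modFunAlgG Γ) : ℍ → ℂ) (g • scaleN h z)) =
      fun z => Jfun (scaleN h z) := by
    funext z
    exact Jfun_smul g _
  rw [h1, laurentOf_Jfun_scaleN]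
  rfl

end Phi

/-! ### The main theorem -/

section Main

variable (Γ : Subgroup SL(2, ℤ)) [Γ.FiniteIndex]

theorem es1rccx_exists_period (g : SL(2, ℤ)) :
    ∃ n : ℕ, 0 < n ∧ g * ModularGroup.T ^ n * g⁻¹ ∈ Γ := by
  obtain ⟨n, hn, -, hmem⟩ := Subgroup.exists_pow_mem_of_index_ne_zero
    (Subgroup.FiniteIndex.index_ne_zero (H := Γ)) (g * ModularGroup.T * g⁻¹)
  refine ⟨n, hn, ?_⟩
  rwa [conj_pow] at hmem

/-- **RC-cuspx**: for the width `h` of the cusp `g∞`, `q_h` is a uniformiser. -/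
theorem stmtCuspExactG_of_sep (hsep : SepG Γ) (hbr : StmtCuspBridgeG Γ) (F : Type) [Field F]
    [Algebra ℂ F] [Algebra (modFunAlgG Γ) F] [IsScalarTower ℂ (modFunAlgG Γ) F]
    [IsFractionRing (modFunAlgG Γ) F] : StmtCuspExactG Γ F := by
  classical
  intro g
  have hex := es1rccx_exists_period Γ g
  obtain ⟨hpos, hmem⟩ := Nat.find_spec hex
  have hmin : ∀ n : ℕ, n < Nat.find hex → ¬ (0 < n ∧ g * ModularGroup.T ^ n * g⁻¹ ∈ Γ) :=
    fun n hn => Nat.find_min hex hn
  set h := Nat.find hex with hh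
  haveI : NeZero h := ⟨hpos.ne'⟩
  have hp : IsCuspPeriodG Γ h g := ⟨hpos, hmem⟩
  obtain ⟨v, e, he, hv⟩ := stmtCuspG Γ F g h hp
  refine ⟨v, h, hp, ?_⟩
  suffices he1 : e = 1 by
    intro f hf
    rw [hv f hf, he1, Nat.cast_one, one_mul]
  by_contra hne
  obtain ⟨p, hpp, hpe⟩ := Nat.exists_prime_and_dvd hne
  have hp0 : 0 < p := hpp.pos
  -- `p ∣ ordCusp` for all modular functions
  have hdvd : ∀ f : modFunAlgG Γ, f ≠ 0 → (p : ℤ) ∣ ordCusp h g (f : ℍ → ℂ) := by
    intro f hf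
    rw [hv f hf]
    exact Dvd.dvd.mul_right (Int.natCast_dvd_natCast.mpr hpe) _
  -- `p ∣ h`
  have hJ0 : es1rcptJ Γ ≠ 0 := es1rccusp_J_ne_zero Γ
  have hJord : ordCusp h g ((es1rcptJ Γ : modFunAlgG Γ) : ℍ → ℂ) = -(h : ℤ) := ordCusp_Jfun hpos g
  have hph : p ∣ h := by
    have h1 := hdvd _ hJ0
    rw [hJord, dvd_neg] at h1
    exact_mod_cast h1
  obtain ⟨k, hk⟩ := hph
  have hk0 : 0 < k := by
    rcases Nat.eq_zero_or_pos k with h0 | h0
    · rw [h0, mul_zero] at hk; omega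
    · exact h0
  have hkh : k < h := by
    rw [hk]
    have := hpp.two_le
    nlinarith
  -- the field of expansions
  set Φ := es1rccxPhi Γ hbr g h hp with hΦ
  have hΦinj : Function.Injective Φ := es1rccxPhi_injective Γ hbr g h hp
  let Λ : F →+* LaurentSeries ℂ := IsFractionRing.lift hΦinj
  have hΛ : ∀ a : modFunAlgG Γ, Λ (algebraMap (modFunAlgG Γ) F a) = Φ a :=
    fun a => IsFractionRing.lift_algebraMap hΦinj a
  set ω : ℂˣ := rcRoot 1 (p : ℤ) with hω
  have hωp : ω ^ p = 1 := es1rccx_root_pow p hp0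
  have hωh : ω ^ h = 1 := by rw [hk, pow_mul, hωp, one_pow]
  have hinv := es1rccxf_invariant ω hωp Λ.fieldRange
    (fun c => ⟨algebraMap (modFunAlgG Γ) F (algebraMap ℂ (modFunAlgG Γ) c), by
      rw [hΛ]; exact es1rccxPhi_algebraMap Γ hbr g h hp c⟩)
    (by
      rintro x ⟨y, rfl⟩ hx
      obtain ⟨a, b, hb, rfl⟩ := IsFractionRing.div_surjective (A := modFunAlgG Γ) y
      have hb0 : b ≠ 0 := nonZeroDivisors.ne_zero hb
      have ha0 : a ≠ 0 := by
        rintro rfl
        apply hx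
        rw [map_zero, zero_div, map_zero]
      rw [map_div₀, hΛ, hΛ, es1rccx_order_div (fun h0 => ha0 (hΦinj (by rw [h0, map_zero])))
        (fun h0 => hb0 (hΦinj (by rw [h0, map_zero]))),
        es1rccxPhi_order Γ hbr g h hp ha0, es1rccxPhi_order Γ hbr g h hp hb0]
      exact dvd_sub (hdvd a ha0) (hdvd b hb0))
    (Φ (es1rcptJ Γ)) ⟨algebraMap (modFunAlgG Γ) F (es1rcptJ Γ), hΛ _⟩
    (by
      rw [hΦ, es1rccxPhi_J, qExpand_kronRot_pow, hωh, kronRot_one])
    (by
      rw [hΦ, es1rccxPhi_order Γ hbr g h hp hJ0, hJord]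
      exact neg_ne_zero.mpr (by exact_mod_cast hpos.ne'))
  -- every modular function is invariant under `g T^k g⁻¹`
  have hfix : ∀ f : modFunAlgG Γ, ∀ w : ℍ,
      (f : ℍ → ℂ) ((g * ModularGroup.T ^ k * g⁻¹) • w) = (f : ℍ → ℂ) w := by
    intro f w
    have hF := (hbr g h hp _ f.2).1
    have h1 := hinv (Φ f) ⟨algebraMap (modFunAlgG Γ) F f, hΛ f⟩
    have hpZ : (0 : ℤ) < (p : ℤ) := by exact_mod_cast hp0
    have h2 := rc_laurentOf_shift 1 (p : ℤ) hpZ hF
    rw [hΦ, es1rccxPhi_apply] at h1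
    rw [h1] at h2
    have h3 := laurentOf_injective (rc_isMerInf_shift 1 (p : ℤ) hpZ hF) hF h2
    obtain ⟨z, rfl⟩ := es1rccx_surj g h w
    have h4 : (f : ℍ → ℂ) (g • scaleN h (rcShift 1 (p : ℤ) hpZ z)) =
        (f : ℍ → ℂ) (g • scaleN h z) := congrFun h3 z
    rw [es1rccx_scale_shift h p k hp0 hk z] at h4
    rw [← h4, ← mul_smul, ← mul_smul]
    group
  exact hmin k hkh ⟨hk0, hsep _ hfix⟩

end Main

end Fermat.Agent.ES1

end
end ZBES1_016_4

/-! ### bundled: `Fermat.Agent.ES1.RCFinal` -/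
section ZBES1_016_5

/-!
# ES₁ / F3 = RC-Γ, final: the places of `fieldC ℂ L M H` ↔ points and cusps of `Γ_H(M) ∩ Γ₀(L)`

`Γ = gammaH L M H`, `M ∣ L`, `L ≠ 0`, `F = fieldC ℂ L M H` with the algebra structure
`es1rcAlgebra hML H` over `modFunAlgG Γ` (`q`-expansion).  Instances of the generic statements:

* `es1rc_stmtPtG`, `es1rc_stmtPtExactG` (in `ES1/RCGamma.lean`);
* `es1rc_stmtCuspG`, `es1rc_stmtAllG`;
* `es1rc_stmtCuspExactG_of_bridge : StmtCuspBridgeG Γ → StmtCuspExactG Γ F`.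
-/

set_option autoImplicit false
set_option linter.unusedSectionVars false
set_option linter.style.haveILetI false

noncomputable section

namespace Fermat.Agent.ES1

open CongruenceSubgroup
open scoped MatrixGroups

variable {L M : ℕ} [NeZero L] (hML : M ∣ L) (H : Subgroup (ZMod M)ˣ)

/-- the places of `fieldC ℂ L M H` at the cusps -/
theorem es1rc_stmtCuspG :
    letI := es1rcAlgebra hML H
    StmtCuspG (gammaH L M H) (fieldC ℂ L M H) := by
  letI := es1rcAlgebra hML H
  haveI := es1rc_isScalarTower hML H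
  haveI := es1rc_isFractionRing hML H
  haveI := es1rc_finiteIndex hML H
  exact stmtCuspG (gammaH L M H) (fieldC ℂ L M H)

/-- every place of `fieldC ℂ L M H` is a point of `ℍ` or a cusp -/
theorem es1rc_stmtAllG :
    letI := es1rcAlgebra hML H
    StmtAllG (gammaH L M H) (fieldC ℂ L M H) := by
  letI := es1rcAlgebra hML H
  haveI := es1rc_isScalarTower hML H
  haveI := es1rc_isFractionRing hML H
  haveI := es1rc_finiteIndex hML H
  exact stmtAllG (gammaH L M H) (fieldC ℂ L M H)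

/-- exactness at the cusps, given the analytic bridge -/
theorem es1rc_stmtCuspExactG_of_bridge (hbr : StmtCuspBridgeG (gammaH L M H)) :
    letI := es1rcAlgebra hML H
    StmtCuspExactG (gammaH L M H) (fieldC ℂ L M H) := by
  letI := es1rcAlgebra hML H
  haveI := es1rc_isScalarTower hML H
  haveI := es1rc_isFractionRing hML H
  haveI := es1rc_finiteIndex hML H
  exact stmtCuspExactG_of_sep (gammaH L M H) (es1rc_sepG hML H) hbr (fieldC ℂ L M H)

end Fermat.Agent.ES1

end
end ZBES1_016_5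

/-! ### bundled: `Fermat.Agent.ES1.G1.MuSurjH` -/
section ZBES1_016_6

/-!
# ES₁ / G1-S: `MuSurjH L M H` (helper83)

* `es1g1s_muSurjH_of_cuspExact` : `StmtCuspExactG Γ K_ℂ → MuSurjH L M H`;
* `es1g1s_muSurjH_of_bridge`    : `StmtCuspBridgeG Γ → MuSurjH L M H`
  (`Γ = gammaH L M H`, `K_ℂ = fieldC ℂ L M H`, `M ∣ L`, `L ≠ 0`).

Everything else (analytic half `es1g1s_an`, descent `es1g1sUC_exists_algebraic`, BCu, finiteness
over the `j`-line, `StmtAllG`, `StmtPtExactG`) is proved.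
-/

set_option autoImplicit false
set_option linter.style.haveILetI false

noncomputable section

namespace Fermat.Agent.ES1

open CongruenceSubgroup
open scoped MatrixGroups

variable {L M : ℕ} [NeZero L] {H : Subgroup (ZMod M)ˣ}

/-- **G1-S** from exactness at the cusps. -/
theorem es1g1s_muSurjH_of_cuspExact (hML : M ∣ L)
    (hCusp : @StmtCuspExactG (gammaH L M H) (fieldC ℂ L M H) _ _ (es1rcAlgebra hML H)) :
    MuSurjH L M H := by
  intro φ hφ n hn
  obtain ⟨x, hx, u, a, g, R, hK, hfrac, hpow, hmult⟩ :=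
    es1g1s_muSurj hML (es1rc_stmtAllG hML H) hCusp φ hφ n hn
  exact ⟨x, hx, u, a, g, R, hK, hfrac, hpow, hmult⟩

/-- **G1-S** from the analytic bridge at the cusps. -/
theorem es1g1s_muSurjH_of_bridge (hML : M ∣ L) (hbr : StmtCuspBridgeG (gammaH L M H)) :
    MuSurjH L M H :=
  es1g1s_muSurjH_of_cuspExact hML (es1rc_stmtCuspExactG_of_bridge hML H hbr)

end Fermat.Agent.ES1

end
end ZBES1_016_6

/-! ### bundled: `Fermat.Agent.ES1.RCCuspExactB` -/
section ZBES1_016_7

/-!
# ES₁ / RC-cuspx, piece (b): the analytic bridge at a cusp (helper34)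

`Γ ≤ SL(2, ℤ)` of finite index, `h` a period of the cusp `g∞` of `Γ`, `f` a modular function for
`Γ`.  Then `F z = f (g • (h z))` is holomorphic on `ℍ`, `1`-periodic and meromorphic at `i∞`, and
the order of its Laurent expansion is the order of `f` at the cusp in the parameter `q_h`.

* `es1rccxb_cuspFn_scaleN` : `cuspFn 1 (φ ∘ (h ·)) = cuspFn h φ` on the punctured unit disc;
* `es1rccxb_order_of_isHPB`, `es1rccxb_order_of_isMerInf` : the order of the Laurent expansion of a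
  function meromorphic at `i∞` is the order of its cusp function at `0`;
* `es1rccxb_isMerInf` (b1), `es1rccxb_order` (b2);
* `stmtCuspBridgeG Γ : StmtCuspBridgeG Γ`.
-/

set_option autoImplicit false

noncomputable section

namespace Fermat.Agent.ES1

open UpperHalfPlane ModularForm Filter Topology Function
open Fermat.Agent.S23 Fermat.Agent.S24 Fermat.Agent.S28 Fermat.Agent.ES.RC
open scoped MatrixGroups Manifold ModularForm

local notation "Δ" => ModularForm.discriminant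

/-! ### Cusp functions -/

/-- `cuspFn 1 (φ ∘ (h ·)) = cuspFn h φ` on the punctured unit disc. -/
theorem es1rccxb_cuspFn_scaleN (h : ℕ) [NeZero h] (φ : ℍ → ℂ) {q : ℂ} (hq : q ≠ 0)
    (hq1 : ‖q‖ < 1) : cuspFn 1 (fun z => φ (scaleN h z)) q = cuspFn h φ q := by
  have hh : 0 < h := Nat.pos_of_ne_zero (NeZero.ne h)
  rw [cuspFn_apply, cuspFn_apply]
  congr 1
  apply UpperHalfPlane.ext
  rw [coe_scaleN, coe_ofComplex_invQParam one_pos hq hq1, coe_ofComplex_invQParam hh hq hq1]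
  simp only [Function.Periodic.invQParam]
  push_cast
  ring

/-- `cuspFn 1 B` is Mathlib's cusp function away from `0`. -/
theorem es1rccxb_cuspFn_eq_cuspFunction (B : ℍ → ℂ) {q : ℂ} (hq : q ≠ 0) :
    cuspFn 1 B q = cuspFunction 1 B q := by
  rw [cuspFn_apply, cuspFunction, Function.Periodic.cuspFunction_eq_of_nonzero _ _ hq]
  simp

theorem es1rccxb_cuspFn_eventuallyEq (B : ℍ → ℂ) :
    cuspFn 1 B =ᶠ[𝓝[≠] (0 : ℂ)] cuspFunction 1 B := by
  rw [Filter.EventuallyEq, eventually_nhdsWithin_iff]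
  exact Filter.Eventually.of_forall fun q hq => es1rccxb_cuspFn_eq_cuspFunction B hq

/-! ### The order of a `q`-expansion -/

theorem es1rccxb_order_ofPowerSeries {P : PowerSeries ℂ} {n : ℕ} (hn : P.order = n) :
    (HahnSeries.ofPowerSeries ℤ ℂ P).order = (n : ℤ) := by
  rw [PowerSeries.order_eq_nat] at hn
  obtain ⟨h1, h2⟩ := hn
  have hc : (HahnSeries.ofPowerSeries ℤ ℂ P).coeff (n : ℤ) ≠ 0 := by
    rw [HahnSeries.ofPowerSeries_apply_coeff]
    exact h1
  have hne : HahnSeries.ofPowerSeries ℤ ℂ P ≠ 0 := by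
    intro h0
    rw [h0] at hc
    exact hc rfl
  apply le_antisymm
  · exact HahnSeries.order_le_of_coeff_ne_zero hc
  · rw [HahnSeries.le_order_iff_forall hne]
    intro j hj
    have h3 := PowerSeries.coeff_coe (f := P) j
    rw [show ((P : LaurentSeries ℂ)) = HahnSeries.ofPowerSeries ℤ ℂ P from rfl] at h3
    rw [h3]
    split_ifs with hj0
    · rfl
    · apply h2
      omega

/-- The order of the `q`-expansion of a holomorphic function bounded at `i∞` is the order of its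
cusp function. -/
theorem es1rccxb_order_of_isHPB {B : ℍ → ℂ} (hB : IsHPB B) (hB0 : B ≠ 0) :
    meromorphicOrderAt (cuspFn 1 B) 0 =
      (((HahnSeries.ofPowerSeries ℤ ℂ (qExpansion 1 B)).order : ℤ) : WithTop ℤ) := by
  have han : AnalyticAt ℂ (cuspFunction 1 B) 0 := hB.analyticAt
  have hP : qExpansion 1 B ≠ 0 := by
    intro h0
    exact hB0 ((qExpansion_eq_zero_iff one_pos hB.2.1 hB.1 hB.2.2).mp h0)
  obtain ⟨n, hn⟩ : ∃ n : ℕ, (qExpansion 1 B).order = n :=
    ⟨_, (ENat.natCast_toNat (PowerSeries.order_finite_iff_ne_zero.mpr hP).ne).symm⟩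
  have hord : analyticOrderAt (cuspFunction 1 B) 0 = n := by
    rw [analyticOrderAt_eq_nat_iff_iteratedDeriv_eq_zero han]
    rw [PowerSeries.order_eq_nat] at hn
    refine ⟨fun k hk => ?_, fun h0 => hn.1 ?_⟩
    · have h1 := hn.2 k hk
      rw [qExpansion_coeff] at h1
      rcases mul_eq_zero.mp h1 with h2 | h2
      · exact absurd h2 (inv_ne_zero (Nat.cast_ne_zero.mpr (Nat.factorial_ne_zero k)))
      · exact h2
    · rw [qExpansion_coeff, h0, mul_zero]
  rw [es1rccxb_order_ofPowerSeries hn, meromorphicOrderAt_congr (es1rccxb_cuspFn_eventuallyEq B),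
    han.meromorphicOrderAt_eq, hord]
  rfl

theorem es1rccxb_discriminant_ne_zero : (Δ : ℍ → ℂ) ≠ 0 := fun h =>
  discriminant_ne_zero UpperHalfPlane.I (congrFun h UpperHalfPlane.I)

theorem es1rccxb_meromorphicAt_of_isHPB {B : ℍ → ℂ} (hB : IsHPB B) :
    MeromorphicAt (cuspFn 1 B) 0 :=
  hB.analyticAt.meromorphicAt.congr (es1rccxb_cuspFn_eventuallyEq B).symm

/-- The cusp function of a function meromorphic at `i∞` is meromorphic at `0`. -/
theorem es1rccxb_meromorphicAt_of_isMerInf {F : ℍ → ℂ} (hF : IsMerInf F) :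
    MeromorphicAt (cuspFn 1 F) 0 := by
  obtain ⟨m, hm⟩ := hF
  have e : cuspFn 1 F = cuspFn 1 (fun z => F z * Δ z ^ m) * ((cuspFn 1 Δ) ^ m)⁻¹ := by
    funext q
    simp only [cuspFn_apply, Pi.mul_apply, Pi.inv_apply, Pi.pow_apply]
    rw [mul_assoc, mul_inv_cancel₀ (pow_ne_zero m (discriminant_ne_zero _)), mul_one]
  rw [e]
  exact (es1rccxb_meromorphicAt_of_isHPB hm).mul
    ((es1rccxb_meromorphicAt_of_isHPB bridge_isHPB_discriminant).pow m).inv

/-- The order of the Laurent expansion of a function meromorphic at `i∞` is the order of its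
cusp function at `0`. -/
theorem es1rccxb_order_of_isMerInf {F : ℍ → ℂ} (hF : IsMerInf F) (hF0 : F ≠ 0) :
    meromorphicOrderAt (cuspFn 1 F) 0 = (((laurentOf F).order : ℤ) : WithTop ℤ) := by
  have hFm := es1rccxb_meromorphicAt_of_isMerInf hF
  have hL0 : laurentOf F ≠ 0 := fun h0 => hF0 ((laurentOf_eq_zero_iff hF).mp h0)
  obtain ⟨m, hm⟩ := hF
  have hB0 : (fun z => F z * Δ z ^ m) ≠ 0 := by
    intro h0
    apply hF0
    funext z
    have := congrFun h0 z
    simp only [Pi.zero_apply] at this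
    rcases mul_eq_zero.mp this with h1 | h1
    · exact h1
    · exact absurd h1 (pow_ne_zero m (discriminant_ne_zero _))
  have h1 := es1rccxb_order_of_isHPB hm hB0
  have h2 := es1rccxb_order_of_isHPB bridge_isHPB_discriminant es1rccxb_discriminant_ne_zero
  rw [bridge_ofPowerSeries_discriminant] at h2
  have hΔm := es1rccxb_meromorphicAt_of_isHPB bridge_isHPB_discriminant
  have e : cuspFn 1 (fun z => F z * Δ z ^ m) = cuspFn 1 F * (cuspFn 1 Δ) ^ m := by
    funext q
    simp only [cuspFn_apply, Pi.mul_apply, Pi.pow_apply]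
  have h3 : meromorphicOrderAt (cuspFn 1 (fun z => F z * Δ z ^ m)) 0 =
      meromorphicOrderAt (cuspFn 1 F) 0 + (m : WithTop ℤ) * meromorphicOrderAt (cuspFn 1 Δ) 0 := by
    rw [e, meromorphicOrderAt_mul hFm (hΔm.pow m), meromorphicOrderAt_pow hΔm]
  have h4 := laurentOf_mul_deltaL_pow hm
  have h5 : (HahnSeries.ofPowerSeries ℤ ℂ (qExpansion 1 (fun z => F z * Δ z ^ m))).order =
      (laurentOf F).order + (m : ℤ) * deltaL.order := by
    rw [← h4, HahnSeries.order_mul hL0 (pow_ne_zero m deltaL_ne_zero), HahnSeries.order_pow,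
      nsmul_eq_mul]
  have hmd : (m : WithTop ℤ) * ((deltaL.order : ℤ) : WithTop ℤ) =
      (((m : ℤ) * deltaL.order : ℤ) : WithTop ℤ) := by
    rw [WithTop.coe_mul]
    rfl
  rw [h1, h5, h2, hmd] at h3
  generalize meromorphicOrderAt (cuspFn 1 F) 0 = x at h3
  induction x using WithTop.recTopCoe with
  | top =>
    rw [WithTop.top_add] at h3
    exact absurd h3 WithTop.coe_ne_top
  | coe y =>
    rw [← WithTop.coe_add] at h3
    have h7 : (laurentOf F).order + (m : ℤ) * deltaL.order = y + (m : ℤ) * deltaL.order :=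
      WithTop.coe_injective h3
    have h8 : y = (laurentOf F).order := by linarith
    rw [h8]

/-! ### (b1) -/

/-- a holomorphic `h`-periodic function bounded at `i∞`, composed with `z ↦ h z`, is holomorphic,
`1`-periodic and bounded at `i∞` -/
theorem es1rccxb_isHPB_comp_scaleN (h : ℕ) [NeZero h] {B : ℍ → ℂ} (hB : MDiff B)
    (hper : IsPer h B) (hbd : IsBoundedAtImInfty B) : IsHPB (fun z => B (scaleN h z)) := by
  refine ⟨mdiff_comp_scaleN h hB, ?_, hbd.comp_tendsto (P7_tendsto_scaleN_atImInfty h)⟩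
  have hper1 : IsPer 1 (fun z => B (scaleN h z)) := by
    intro z
    show B (scaleN h ((((1 : ℕ) : ℝ)) +ᵥ z)) = B (scaleN h z)
    have e : scaleN h ((((1 : ℕ) : ℝ)) +ᵥ z) = (h : ℝ) +ᵥ scaleN h z := by
      apply UpperHalfPlane.ext
      rw [coe_scaleN, coe_vadd, coe_vadd, coe_scaleN]
      push_cast
      ring
    rw [e, hper]
  have h1 := hper1.periodic_comp_ofComplex
  simpa using h1

variable {Γ : Subgroup SL(2, ℤ)}

/-- **(b1)** `z ↦ f (g • (h z))` is holomorphic, `1`-periodic and meromorphic at `i∞`. -/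
theorem es1rccxb_isMerInf [Γ.FiniteIndex] {f : ℍ → ℂ} (hf : IsModFunG Γ f) {h : ℕ} [NeZero h]
    {g : SL(2, ℤ)} (hp : IsCuspPeriodG Γ h g) : IsMerInf (fun z => f (g • scaleN h z)) := by
  obtain ⟨m, B, hBd, hBb, hB⟩ := es1rccusp_exists_bdd_repr hf g
  have hper : IsPer h (fun τ => f (g • τ)) := es1rccusp_isPer_comp hf hp
  have hΔper : IsPer h (fun τ => Δ τ ^ m) := rc_isPer_pow (rc_isPer_discriminant h) m
  have hBper : IsPer h B := by
    intro τ
    have e1 : f (g • ((h : ℝ) +ᵥ τ)) = f (g • τ) := hper τ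
    have e2 : Δ ((h : ℝ) +ᵥ τ) ^ m = Δ τ ^ m := hΔper τ
    rw [hB, hB, e1, e2]
  refine ⟨h * m, ?_⟩
  have h1 := es1rccxb_isHPB_comp_scaleN h hBd hBper hBb
  have h2 := bridge_isHPB_pow (bridge_isHPB_thetaFun h) m
  have h3 := h1.mul h2
  convert h3 using 1
  funext z
  simp only [Pi.mul_apply]
  rw [hB]
  exact bridge_comp_scaleN_mul h (fun τ => f (g • τ)) m z

/-! ### (b2) -/

theorem es1rccxb_comp_ne_zero {f : ℍ → ℂ} (hf0 : f ≠ 0) (h : ℕ) [NeZero h] (g : SL(2, ℤ)) :
    (fun z => f (g • scaleN h z)) ≠ 0 := by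
  intro h0
  apply hf0
  funext τ
  have hh : (0 : ℝ) < h := Nat.cast_pos.mpr (Nat.pos_of_ne_zero (NeZero.ne h))
  have hhc : (h : ℂ) ≠ 0 := Nat.cast_ne_zero.mpr (NeZero.ne h)
  have him : 0 < (((g⁻¹ • τ : ℍ) : ℂ) / (h : ℂ)).im := by
    have e : (((g⁻¹ • τ : ℍ) : ℂ) / (h : ℂ)).im = (g⁻¹ • τ : ℍ).im / h := by
      rw [show ((h : ℂ)) = ((h : ℝ) : ℂ) by push_cast; rfl, Complex.div_ofReal_im]
      rfl
    rw [e]
    exact div_pos (g⁻¹ • τ : ℍ).im_pos hh
  have hz : scaleN h ⟨((g⁻¹ • τ : ℍ) : ℂ) / (h : ℂ), him⟩ = g⁻¹ • τ := by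
    apply UpperHalfPlane.ext
    rw [coe_scaleN]
    show (h : ℂ) * (((g⁻¹ • τ : ℍ) : ℂ) / (h : ℂ)) = _
    field_simp
  have h1 := congrFun h0 ⟨((g⁻¹ • τ : ℍ) : ℂ) / (h : ℂ), him⟩
  simp only [Pi.zero_apply] at h1
  rw [hz, smul_smul, mul_inv_cancel, one_smul] at h1
  exact h1

/-- **(b2)** the order of the Laurent expansion of `z ↦ f (g • (h z))` is the order of `f` at
the cusp `g∞` in the parameter `q_h`. -/
theorem es1rccxb_order [Γ.FiniteIndex] {f : ℍ → ℂ} (hf : IsModFunG Γ f) (hf0 : f ≠ 0) {h : ℕ}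
    [NeZero h] {g : SL(2, ℤ)} (hp : IsCuspPeriodG Γ h g) :
    (laurentOf (fun z => f (g • scaleN h z))).order = ordCusp h g f := by
  have hF := es1rccxb_isMerInf hf hp
  have hF0 := es1rccxb_comp_ne_zero hf0 h g
  have h1 := es1rccxb_order_of_isMerInf hF hF0
  have h2 : cuspFn 1 (fun z => f (g • scaleN h z)) =ᶠ[𝓝[≠] (0 : ℂ)]
      cuspFn h (fun τ => f (g • τ)) := by
    filter_upwards [eventually_punctured_disc] with q hq
    exact es1rccxb_cuspFn_scaleN h (fun τ => f (g • τ)) hq.1 hq.2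
  rw [meromorphicOrderAt_congr h2] at h1
  rw [ordCusp, h1]
  rfl

/-- **RC-cuspx (b)**: the analytic bridge at the cusps. -/
theorem stmtCuspBridgeG (Γ : Subgroup SL(2, ℤ)) [Γ.FiniteIndex] : StmtCuspBridgeG Γ := by
  intro g h _ hp f hf
  exact ⟨es1rccxb_isMerInf hf hp, fun hf0 => es1rccxb_order hf hf0 hp⟩

end Fermat.Agent.ES1

end
end ZBES1_016_7

/-! ### bundled: `Fermat.Agent.ES1.RCFinal2` -/
section ZBES1_016_8

/-!
# ES₁ / F3 = RC-Γ, final (2): exactness at the cusps, unconditional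

`Γ = gammaH L M H`, `M ∣ L`, `L ≠ 0`, `F = fieldC ℂ L M H` with the algebra structure
`es1rcAlgebra hML H` over `modFunAlgG Γ` (`q`-expansion):

* `es1rc_stmtCuspExactG : StmtCuspExactG Γ F`  (the place of `F` at a cusp is the order of the
  `q`-expansion there, EXACTLY; = `es1rc_stmtCuspExactG_of_bridge` + `stmtCuspBridgeG`).
-/

set_option autoImplicit false
set_option linter.unusedSectionVars false
set_option linter.style.haveILetI false

noncomputable section

namespace Fermat.Agent.ES1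

open CongruenceSubgroup
open scoped MatrixGroups

variable {L M : ℕ} [NeZero L] (hML : M ∣ L) (H : Subgroup (ZMod M)ˣ)

/-- exactness at the cusps for `fieldC ℂ L M H`, unconditional -/
theorem es1rc_stmtCuspExactG :
    letI := es1rcAlgebra hML H
    StmtCuspExactG (gammaH L M H) (fieldC ℂ L M H) := by
  haveI := es1rc_finiteIndex hML H
  exact es1rc_stmtCuspExactG_of_bridge hML H (stmtCuspBridgeG (gammaH L M H))

end Fermat.Agent.ES1

end
end ZBES1_016_8

/-! ### bundled: `Fermat.Agent.ES1.G1.MuSurjFinal` -/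
section ZBES1_016_9

/-!
# ES₁ / G1-S: `MuSurjH L M H`, unconditional (helper83)

`es1g1s_muSurjH (hML : M ∣ L) : MuSurjH L M H` (`L ≠ 0`): every character `e(φ/n)`, `φ : Γ → ℤ`
parabolic, `Γ = gammaH L M H`, is the multiplier of an `n`-torsion class of `JH L M H`.
-/

set_option autoImplicit false

noncomputable section

namespace Fermat.Agent.ES1

variable {L M : ℕ} [NeZero L] {H : Subgroup (ZMod M)ˣ}

/-- **G1-S (MuSurjH)**, unconditional. -/
theorem es1g1s_muSurjH (hML : M ∣ L) : MuSurjH L M H :=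
  es1g1s_muSurjH_of_cuspExact hML (es1rc_stmtCuspExactG hML H)

end Fermat.Agent.ES1

end
end ZBES1_016_9
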