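/- GENERATED FILE (helper35, build-time optimisation, NOTES/ZB.md): verbatim concatenation of the modules
   Fermat.Agent.S41.AlphaTAlpha
   Fermat.Agent.S41.NewU
   Fermat.Agent.RT.K5.E2Abs
   Fermat.Agent.RT.K5.E2Conc
   Fermat.Agent.RT.K5.E2
   Fermat.Agent.RT.K5.Idx
   Fermat.Agent.RT.K5.CommAbs
   Fermat.Agent.RT.K5.Comm
   Fermat.Agent.RT.K5.E1
   Fermat.Agent.RT.K5.Step
   Fermat.Agent.RT.K5.CommT
   Fermat.Agent.RT.K5.Top
   Fermat.Agent.S41.NewUKer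
   Fermat.Agent.ES1.Inf.BridgeAbs
   Fermat.Agent.RT.K5.UQMackey
   Do not edit; do not import together with these modules. -/
import Mathlib
import Fermat.Agent.ZB.S41_002
import Fermat.Agent.ZB.ES_009
import Fermat.Agent.ZB.ES1_001

/-! ### bundled: `Fermat.Agent.S41.AlphaTAlpha` -/
section ZBS41_005_0

/-!
# S41 (C2) — `α†α = [[q+1, T_q], [T_q, q+1]]`

`cores ∘ res = coresD ∘ resD = q + 1` (the index of `Γ₀(N q)` in `Γ₀(N)`), and
`cores ∘ resD = coresD ∘ res = T_q`.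

The abstract statement `ata_transfer_eq`: let `f, fhat : H →* Γ₀(N)` with `f` injective of finite
index and `B` a Hecke representative of determinant `q` with `B f(c) = fhat(c) B`; if `f(H)` is
the full "stabiliser" of `B` and `Γ₀(N)` permutes the representatives transitively from `B`, then
the transfer along `f` of `φ ∘ fhat` is `T_q φ`, and `[Γ₀(N) : f(H)] = #HeckeRep q`.
-/

set_option autoImplicit false
set_option linter.style.haveILetI false

noncomputable section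

namespace Fermat.Agent.S41

open CongruenceSubgroup Matrix Fermat.Agent.ES
open scoped MatrixGroups Pointwise

/-- the integer matrix of an element of `Γ₀(M)` -/
def ataMat {M : ℕ} (x : Gamma0 M) : Matrix (Fin 2) (Fin 2) ℤ :=
  ((x : SL(2, ℤ)) : Matrix (Fin 2) (Fin 2) ℤ)

theorem ataMat_mul {M : ℕ} (x y : Gamma0 M) : ataMat (x * y) = ataMat x * ataMat y := by
  simp [ataMat]

theorem ataMat_one {M : ℕ} : ataMat (1 : Gamma0 M) = 1 := by
  simp [ataMat]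

theorem ataMat_inv_mul {M : ℕ} (x : Gamma0 M) : ataMat x⁻¹ * ataMat x = 1 := by
  rw [← ataMat_mul, inv_mul_cancel, ataMat_one]

theorem ataMat_mul_inv {M : ℕ} (x : Gamma0 M) : ataMat x * ataMat x⁻¹ = 1 := by
  rw [← ataMat_mul, mul_inv_cancel, ataMat_one]

section abstract

variable {N q : ℕ} [NeZero q] (hc : Nat.Coprime q N)
  {H : Type*} [Group H] (f fhat : H →* Gamma0 N) (hf : Function.Injective f)
  (B : HeckeRep q)

/-- `Θ s = next B (R_s⁻¹)` -/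
def ataTheta (s : Gamma0 N ⧸ f.range) : HeckeRep q := HeckeRep.next hc B (tRep f s)⁻¹

/-- `u s = coc B (R_s⁻¹)` -/
def ataU (s : Gamma0 N ⧸ f.range) : Gamma0 N := HeckeRep.coc hc B (tRep f s)⁻¹

theorem ata_BR (s : Gamma0 N ⧸ f.range) :
    B.mat * ataMat (tRep f s)⁻¹ = ataMat (ataU hc f B s) * (ataTheta hc f B s).mat :=
  HeckeRep.mat_mul hc B _

variable {f fhat B}

theorem ata_key (hint : ∀ c : H, B.mat * ataMat (f c) = ataMat (fhat c) * B.mat)
    (s : Gamma0 N ⧸ f.range) (g : Gamma0 N) :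
    HeckeRep.next hc (ataTheta hc f B s) g = ataTheta hc f B (g⁻¹ • s) ∧
      ataU hc f B s * HeckeRep.coc hc (ataTheta hc f B s) g
        = fhat (tCoc f hf s g) * ataU hc f B (g⁻¹ • s) := by
  have h1 := ata_BR hc f B s
  have h2 := ata_BR hc f B (g⁻¹ • s)
  have h3 : (tRep f s)⁻¹ * g = f (tCoc f hf s g) * (tRep f (g⁻¹ • s))⁻¹ := by
    rw [f_tCoc, mul_inv_cancel_right]
  have key : (ataTheta hc f B s).mat * ataMat g
      = ataMat ((ataU hc f B s)⁻¹ * fhat (tCoc f hf s g) * ataU hc f B (g⁻¹ • s))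
        * (ataTheta hc f B (g⁻¹ • s)).mat := by
    calc (ataTheta hc f B s).mat * ataMat g
        = ataMat (ataU hc f B s)⁻¹ * (ataMat (ataU hc f B s) * (ataTheta hc f B s).mat)
            * ataMat g := by
          rw [← Matrix.mul_assoc, ataMat_inv_mul, Matrix.one_mul]
      _ = ataMat (ataU hc f B s)⁻¹ * (B.mat * ataMat ((tRep f s)⁻¹ * g)) := by
          rw [← h1, ataMat_mul]; simp only [Matrix.mul_assoc]
      _ = ataMat (ataU hc f B s)⁻¹ *
            (ataMat (fhat (tCoc f hf s g)) * (B.mat * ataMat (tRep f (g⁻¹ • s))⁻¹)) := by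
          rw [h3, ataMat_mul, ← Matrix.mul_assoc B.mat, hint, Matrix.mul_assoc]
      _ = _ := by
          rw [h2, ataMat_mul, ataMat_mul]; simp only [Matrix.mul_assoc]
  obtain ⟨k1, k2⟩ := HeckeRep.next_coc_unique hc key
  refine ⟨k1, ?_⟩
  rw [k2]
  group

theorem ataTheta_injective
    (hrange : ∀ x ε : Gamma0 N, B.mat * ataMat x = ataMat ε * B.mat → x ∈ f.range) :
    Function.Injective (ataTheta hc f B) := by
  intro s t h
  have h1 := ata_BR hc f B s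
  have h2 := ata_BR hc f B t
  rw [← h] at h2
  have key : B.mat * ataMat ((tRep f s)⁻¹ * tRep f t)
      = ataMat (ataU hc f B s * (ataU hc f B t)⁻¹) * B.mat := by
    calc B.mat * ataMat ((tRep f s)⁻¹ * tRep f t)
        = ataMat (ataU hc f B s) * (ataTheta hc f B s).mat * ataMat (tRep f t) := by
          rw [ataMat_mul, ← Matrix.mul_assoc, h1]
      _ = ataMat (ataU hc f B s) * (ataMat (ataU hc f B t)⁻¹ *
            (ataMat (ataU hc f B t) * (ataTheta hc f B s).mat)) * ataMat (tRep f t) := by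
          rw [← Matrix.mul_assoc (ataMat (ataU hc f B t)⁻¹), ataMat_inv_mul, Matrix.one_mul]
      _ = ataMat (ataU hc f B s) * (ataMat (ataU hc f B t)⁻¹ *
            B.mat) * (ataMat (tRep f t)⁻¹ * ataMat (tRep f t)) := by
          rw [← h2]; simp only [Matrix.mul_assoc]
      _ = _ := by
          rw [ataMat_inv_mul, Matrix.mul_one, ataMat_mul, Matrix.mul_assoc]
  have hmem := hrange _ _ key
  have := (QuotientGroup.eq (s := f.range)).mpr hmem
  rw [tRep_mk, tRep_mk] at this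
  exact this

theorem ataTheta_surjective (hint : ∀ c : H, B.mat * ataMat (f c) = ataMat (fhat c) * B.mat)
    (htrans : ∀ A : HeckeRep q, ∃ R : Gamma0 N, HeckeRep.next hc B R = A) :
    Function.Surjective (ataTheta hc f B) := by
  intro A
  obtain ⟨R, hR⟩ := htrans A
  refine ⟨(QuotientGroup.mk R⁻¹ : Gamma0 N ⧸ f.range), ?_⟩
  set s : Gamma0 N ⧸ f.range := (QuotientGroup.mk R⁻¹ : Gamma0 N ⧸ f.range) with hs
  have hmem : (tRep f s)⁻¹ * R⁻¹ ∈ f.range := by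
    rw [← QuotientGroup.eq, tRep_mk]
  obtain ⟨c, hcc⟩ := hmem
  have h3 : (tRep f s)⁻¹ = f c * R := by
    rw [hcc, inv_mul_cancel_right]
  have key : B.mat * ataMat (tRep f s)⁻¹
      = ataMat (fhat c * HeckeRep.coc hc B R) * A.mat := by
    rw [h3, ataMat_mul, ← Matrix.mul_assoc, hint, Matrix.mul_assoc]
    have := HeckeRep.mat_mul hc B R
    rw [hR] at this
    rw [show B.mat * ataMat R = _ from this, ataMat_mul, Matrix.mul_assoc]
    rfl
  exact (HeckeRep.next_coc_unique hc key).1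

theorem ataTheta_bijective (hint : ∀ c : H, B.mat * ataMat (f c) = ataMat (fhat c) * B.mat)
    (hrange : ∀ x ε : Gamma0 N, B.mat * ataMat x = ataMat ε * B.mat → x ∈ f.range)
    (htrans : ∀ A : HeckeRep q, ∃ R : Gamma0 N, HeckeRep.next hc B R = A) :
    Function.Bijective (ataTheta hc f B) :=
  ⟨ataTheta_injective hc hrange, ataTheta_surjective hc hint htrans⟩

variable (A : Type*) [AddCommGroup A] [f.range.FiniteIndex]

/-- **Transfer of a twisted restriction is the Hecke operator.** -/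
theorem ata_transfer_eq (hint : ∀ c : H, B.mat * ataMat (f c) = ataMat (fhat c) * B.mat)
    (hrange : ∀ x ε : Gamma0 N, B.mat * ataMat x = ataMat ε * B.mat → x ∈ f.range)
    (htrans : ∀ A : HeckeRep q, ∃ R : Gamma0 N, HeckeRep.next hc B R = A)
    (φ : Additive (Gamma0 N) →+ A) :
    transferAlong A f hf (φ.comp (MonoidHom.toAdditive fhat)) = heckeHom hc φ := by
  classical
  letI := f.range.fintypeQuotientOfFiniteIndex
  have hbij := ataTheta_bijective hc hint hrange htrans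
  refine AddMonoidHom.ext fun g => ?_
  obtain ⟨g, rfl⟩ : ∃ g' : Gamma0 N, Additive.ofMul g' = g := ⟨Additive.toMul g, rfl⟩
  rw [transferAlong_eq_sum, heckeHom_apply]
  have h1 : ∀ s : Gamma0 N ⧸ f.range,
      (φ.comp (MonoidHom.toAdditive fhat)) (Additive.ofMul (tCoc f hf s g))
        = φ (Additive.ofMul (HeckeRep.coc hc (ataTheta hc f B s) g))
          + (φ (Additive.ofMul (ataU hc f B s))
            - φ (Additive.ofMul (ataU hc f B (g⁻¹ • s)))) := by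
    intro s
    show φ (Additive.ofMul (fhat (tCoc f hf s g))) = _
    have h := (ata_key hc hf hint s g).2
    have h' := congrArg (fun x => φ (Additive.ofMul x)) h
    simp only [ofMul_mul, map_add] at h'
    rw [eq_comm, add_sub_assoc', sub_eq_iff_eq_add, add_comm]
    exact h'
  simp only [h1]
  rw [Finset.sum_add_distrib, Finset.sum_sub_distrib]
  have h2 : ∑ s : Gamma0 N ⧸ f.range, φ (Additive.ofMul (ataU hc f B (g⁻¹ • s)))
      = ∑ s : Gamma0 N ⧸ f.range, φ (Additive.ofMul (ataU hc f B s)) :=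
    Equiv.sum_comp (MulAction.toPerm g⁻¹ : Equiv.Perm (Gamma0 N ⧸ f.range))
      (fun s => φ (Additive.ofMul (ataU hc f B s)))
  rw [h2, sub_self, add_zero]
  exact Function.Bijective.sum_comp hbij (fun A' => φ (Additive.ofMul (HeckeRep.coc hc A' g)))

omit [f.range.FiniteIndex] in
theorem ata_index_eq (hint : ∀ c : H, B.mat * ataMat (f c) = ataMat (fhat c) * B.mat)
    (hrange : ∀ x ε : Gamma0 N, B.mat * ataMat x = ataMat ε * B.mat → x ∈ f.range)
    (htrans : ∀ A : HeckeRep q, ∃ R : Gamma0 N, HeckeRep.next hc B R = A) :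
    f.range.index = Nat.card (HeckeRep q) := by
  rw [Subgroup.index_eq_card]
  exact Nat.card_congr (Equiv.ofBijective _ (ataTheta_bijective hc hint hrange htrans))

end abstract

section concrete

set_option linter.unusedSectionVars false
set_option linter.unusedSimpArgs false
set_option linter.unnecessarySeqFocus false

variable (N q : ℕ) [NeZero N] [NeZero q]

/-- `δ = [[q, 0], [0, 1]]` -/
def ataDelta : HeckeRep q := ⟨q, 0, 1, mul_one q, Nat.one_pos⟩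

/-- `δ' = [[1, 0], [0, q]]` -/
def ataDelta' : HeckeRep q := ⟨1, 0, q, one_mul q, Nat.pos_of_ne_zero (NeZero.ne q)⟩

/-- an element of `Γ₀(N)` from its entries -/
def ataMk (a b c d : ℤ) (hdet : a * d - b * (N * c) = 1) : Gamma0 N :=
  ⟨⟨!![a, b; N * c, d], by rw [Matrix.det_fin_two_of]; exact hdet⟩,
    mem_Gamma0_of_dvd (show (N : ℤ) ∣ (!![a, b; N * c, d] : Matrix (Fin 2) (Fin 2) ℤ) 1 0 from
      ⟨c, rfl⟩)⟩

theorem ataMat_mk (a b c d : ℤ) (hdet : a * d - b * (N * c) = 1) :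
    ataMat (ataMk N a b c d hdet) = !![a, b; N * c, d] := rfl

theorem ata_hint_incl (c : Gamma0 (N * q)) :
    (ataDelta q).mat * ataMat (incl N q c) = ataMat (conjD N q c) * (ataDelta q).mat := by
  have hq := dvd_q_of_mem N q c.2
  have e1 : ataMat (incl N q c) = ataMat c := rfl
  have e2 : ataMat (conjD N q c) = conjDMat q (ataMat c) := rfl
  rw [e1, e2]
  have hdiv : ataMat c 1 0 / (q : ℤ) * q = ataMat c 1 0 := Int.ediv_mul_cancel hq
  ext i j
  fin_cases i <;> fin_cases j <;>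
    simp [ataDelta, HeckeRep.mat, conjDMat, Matrix.mul_apply, Fin.sum_univ_two, hdiv, mul_comm]

theorem ata_hint_conjD (c : Gamma0 (N * q)) :
    (ataDelta' q).mat * ataMat (conjD N q c) = ataMat (incl N q c) * (ataDelta' q).mat := by
  have hq := dvd_q_of_mem N q c.2
  have e1 : ataMat (incl N q c) = ataMat c := rfl
  have e2 : ataMat (conjD N q c) = conjDMat q (ataMat c) := rfl
  rw [e1, e2]
  have hdiv : (q : ℤ) * (ataMat c 1 0 / (q : ℤ)) = ataMat c 1 0 := Int.mul_ediv_cancel' hq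
  ext i j
  fin_cases i <;> fin_cases j <;>
    simp [ataDelta', HeckeRep.mat, conjDMat, Matrix.mul_apply, Fin.sum_univ_two, hdiv, mul_comm]

theorem ata_hrange_incl (x ε : Gamma0 N)
    (h : (ataDelta q).mat * ataMat x = ataMat ε * (ataDelta q).mat) : x ∈ (incl N q).range := by
  have h10 := congrFun (congrFun h 1) 0
  simp only [ataDelta, HeckeRep.mat, Matrix.mul_apply, Fin.sum_univ_two, Matrix.of_apply,
    Matrix.cons_val_zero, Matrix.cons_val_one, Matrix.cons_val', Matrix.cons_val_fin_one,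
    zero_mul, zero_add, mul_zero, add_zero, Nat.cast_one, one_mul] at h10
  obtain ⟨k, hk⟩ := dvd_of_mem_Gamma0 ε.2
  have hmem : (x : SL(2, ℤ)) ∈ Gamma0 (N * q) := by
    apply mem_Gamma0_of_dvd
    refine ⟨k, ?_⟩
    have : ((x : SL(2, ℤ)) : Matrix (Fin 2) (Fin 2) ℤ) 1 0 = ataMat x 1 0 := rfl
    rw [this, h10]
    have : ataMat ε 1 0 = N * k := hk
    rw [this]; push_cast; ring
  exact ⟨⟨(x : SL(2, ℤ)), hmem⟩, Subtype.ext rfl⟩

theorem ata_hrange_conjD (x ε : Gamma0 N)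
    (h : (ataDelta' q).mat * ataMat x = ataMat ε * (ataDelta' q).mat) :
    x ∈ (conjD N q).range := by
  have hq' : (q : ℤ) ≠ 0 := by exact_mod_cast NeZero.ne q
  have h01 := congrFun (congrFun h 0) 1
  simp only [ataDelta', HeckeRep.mat, Matrix.mul_apply, Fin.sum_univ_two, Matrix.of_apply,
    Matrix.cons_val_zero, Matrix.cons_val_one, Matrix.cons_val', Matrix.cons_val_fin_one,
    mul_zero, zero_mul, add_zero, zero_add, Nat.cast_one, Nat.cast_zero, one_mul] at h01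
  obtain ⟨k, hk⟩ := dvd_of_mem_Gamma0 x.2
  have hk' : ataMat x 1 0 = N * k := hk
  have hdet : (ataMat x).det = 1 := (x : SL(2, ℤ)).2
  rw [Matrix.det_fin_two, h01, hk'] at hdet
  let M : Matrix (Fin 2) (Fin 2) ℤ := !![ataMat x 0 0, ataMat ε 0 1; q * (N * k), ataMat x 1 1]
  have hM : M.det = 1 := by
    rw [Matrix.det_fin_two_of]
    linear_combination hdet
  let g : SL(2, ℤ) := ⟨M, hM⟩
  have hg : g ∈ Gamma0 (N * q) := by
    apply mem_Gamma0_of_dvd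
    show ((N * q : ℕ) : ℤ) ∣ M 1 0
    exact ⟨k, by simp only [M, Matrix.of_apply, Matrix.cons_val_one, Matrix.cons_val_zero]
                 push_cast; ring⟩
  refine ⟨⟨g, hg⟩, ?_⟩
  apply Subtype.ext; apply Subtype.ext
  rw [conjD_coe]
  show conjDMat q M = ataMat x
  ext i j
  fin_cases i <;> fin_cases j
  · simp [conjDMat, M]
  · simp only [conjDMat, M, Matrix.of_apply, Matrix.cons_val_zero, Matrix.cons_val_one,
      Fin.zero_eta, Fin.mk_one]
    rw [h01]; ring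
  · simp only [conjDMat, M, Matrix.of_apply, Matrix.cons_val_zero, Matrix.cons_val_one,
      Fin.zero_eta, Fin.mk_one]
    rw [Int.mul_ediv_cancel_left _ hq', hk']
  · simp [conjDMat, M]

/-- Bezout: `q w - N t = 1`. -/
theorem ata_bezout {N q : ℕ} (hc : Nat.Coprime q N) : ∃ w t : ℤ, (q : ℤ) * w - N * t = 1 := by
  have h := Nat.isCoprime_iff_coprime.mpr hc
  obtain ⟨a, b, hab⟩ := h
  exact ⟨a, -b, by linear_combination hab⟩

variable {N q}

theorem ata_htrans_delta (hc : Nat.Coprime q N) [hq : Fact q.Prime] (A : HeckeRep q) :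
    ∃ R : Gamma0 N, HeckeRep.next hc (ataDelta q) R = A := by
  obtain ⟨x, rfl⟩ := repOfPoint_surjective A
  obtain ⟨w, t, hwt⟩ := ata_bezout hc
  rcases x with _ | j
  · exact ⟨1, HeckeRep.next_one hc _⟩
  · refine ⟨ataMk N 1 (j.val + 1) t (N * t * j.val + w * q) (by linear_combination hwt), ?_⟩
    have key : (ataDelta q).mat *
        ataMat (ataMk N 1 (j.val + 1) t (N * t * j.val + w * q) (by linear_combination hwt))
        = ataMat (ataMk N q 1 t w (by linear_combination hwt)) * (repOfPoint (some j)).mat := by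
      rw [ataMat_mk, ataMat_mk]
      ext i k
      fin_cases i <;> fin_cases k <;>
        simp [ataDelta, repOfPoint, HeckeRep.mat, Matrix.mul_apply, Fin.sum_univ_two] <;> ring
    exact (HeckeRep.next_coc_unique hc key).1

theorem ata_htrans_delta' (hc : Nat.Coprime q N) [hq : Fact q.Prime] (A : HeckeRep q) :
    ∃ R : Gamma0 N, HeckeRep.next hc (ataDelta' q) R = A := by
  obtain ⟨x, rfl⟩ := repOfPoint_surjective A
  obtain ⟨w, t, hwt⟩ := ata_bezout hc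
  rcases x with _ | j
  · refine ⟨ataMk N (q * w) 1 t 1 (by linear_combination hwt), ?_⟩
    have key : (ataDelta' q).mat * ataMat (ataMk N (q * w) 1 t 1 (by linear_combination hwt))
        = ataMat (ataMk N w 1 t q (by linear_combination hwt)) * (repOfPoint (p := q) none).mat := by
      rw [ataMat_mk, ataMat_mk]
      ext i k
      fin_cases i <;> fin_cases k <;>
        simp [ataDelta', repOfPoint, HeckeRep.mat, Matrix.mul_apply, Fin.sum_univ_two] <;> ring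
    exact (HeckeRep.next_coc_unique hc key).1
  · refine ⟨ataMk N 1 j.val 0 1 (by ring), ?_⟩
    have key : (ataDelta' q).mat * ataMat (ataMk N 1 j.val 0 1 (by ring))
        = ataMat (1 : Gamma0 N) * (repOfPoint (some j)).mat := by
      rw [ataMat_mk, ataMat_one, Matrix.one_mul]
      ext i k
      fin_cases i <;> fin_cases k <;>
        simp [ataDelta', repOfPoint, HeckeRep.mat, Matrix.mul_apply, Fin.sum_univ_two]
    exact (HeckeRep.next_coc_unique hc key).1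

theorem ata_card_heckeRep [hq : Fact q.Prime] : Nat.card (HeckeRep q) = q + 1 := by
  rw [← Nat.card_congr (repEquiv (p := q))]
  show Nat.card (Option (ZMod q)) = q + 1
  rw [Finite.card_option, Nat.card_zmod]

end concrete

/-- **(C2)** `α†α = [[q+1, T_q], [T_q, q+1]]`. -/
theorem stmtC2 (N q : ℕ) [NeZero N] [NeZero q] : StmtC2 N q := by
  intro A _ hq hqN φ
  have hc : Nat.Coprime q N := (Nat.Prime.coprime_iff_not_dvd hq.out).mpr hqN
  have hT : heckeHom hc φ = Tc q hqN φ := heckeHom_eq_heckeP hqN φ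
  refine ⟨?_, ?_, ?_, ?_⟩
  · show transferAlong A (incl N q) (incl_injective N q)
      (φ.comp (MonoidHom.toAdditive (incl N q))) = _
    rw [transferAlong_comp, ata_index_eq hc (ata_hint_incl N q) (ata_hrange_incl N q)
      (ata_htrans_delta hc), ata_card_heckeRep]
  · show transferAlong A (conjD N q) (conjD_injective N q)
      (φ.comp (MonoidHom.toAdditive (conjD N q))) = _
    rw [transferAlong_comp, ata_index_eq hc (ata_hint_conjD N q) (ata_hrange_conjD N q)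
      (ata_htrans_delta' hc), ata_card_heckeRep]
  · show transferAlong A (incl N q) (incl_injective N q)
      (φ.comp (MonoidHom.toAdditive (conjD N q))) = _
    rw [ata_transfer_eq hc (incl_injective N q) A (ata_hint_incl N q) (ata_hrange_incl N q)
      (ata_htrans_delta hc), hT]
  · show transferAlong A (conjD N q) (conjD_injective N q)
      (φ.comp (MonoidHom.toAdditive (incl N q))) = _
    rw [ata_transfer_eq hc (conjD_injective N q) A (ata_hint_conjD N q) (ata_hrange_conjD N q)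
      (ata_htrans_delta' hc), hT]

end Fermat.Agent.S41

end
end ZBS41_005_0

/-! ### bundled: `Fermat.Agent.S41.NewU` -/
section ZBS41_005_1

/-!
# S41, piece C4: `U_q² = 1` on the `q`-new part `ker(α†)` (helper39)

`Γ = Γ₀(N)`, `Γ' = Γ₀(N q)`, `q` prime, `q ∤ N`, `q u − N v = 1`,
`g₀ = [[u, v], [N, q]]`, `g₁ = [[q u, v], [N, 1]] ∈ Γ`, `W = g₀ δ` (Atkin–Lehner),
`(w ψ)(γ) = ψ(W γ W⁻¹)` (`nuConjW`, `nuW`).

* `transferAlong_eq_sum_of_reps` : the transfer computed with an ARBITRARY system of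
  representatives `r : ι → G` of `G ⧸ f.range` (`g * r (τ i) = r i * f (κ i)` ⇒ transfer `= ∑ ψ (κ i)`);
* `nu_reps_incl_bijective`, `nu_reps_conjD_bijective` : `{1} ∪ {(g₀ Tˣ)⁻¹}` resp.
  `{g₁⁻¹} ∪ {T⁻ˣ}` (`x ∈ 𝔽_q`) are systems of representatives of `Γ / Γ'` resp. `Γ / δΓ'δ⁻¹`;
* `res_cores_eq`   : `res (cores ψ) = ψ + U_q (w ψ)`;
* `res_coresD_eq`  : `res (coresD ψ) = w ψ + U_q ψ`;
* `heckeU_sq_of_alphaT_eq_zero` : `cores ψ = 0`, `coresD ψ = 0` ⇒ `U_q (U_q ψ) = ψ`.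
-/

set_option autoImplicit false
set_option linter.style.haveILetI false
set_option linter.unusedSectionVars false
set_option linter.unusedSimpArgs false
set_option linter.unnecessarySeqFocus false

noncomputable section

namespace Fermat.Agent.S41

open CongruenceSubgroup Matrix Matrix.SpecialLinearGroup Fermat.Agent.ES
open scoped MatrixGroups Pointwise

/-! ## The transfer via an arbitrary system of representatives -/

section abstract

variable {G H : Type*} [Group G] [Group H] (f : H →* G) (hf : Function.Injective f)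
  (A : Type*) [AddCommGroup A] [f.range.FiniteIndex]

/-- **Transfer via an arbitrary system of representatives.**  If `r : ι → G` is a system of
representatives of `G ⧸ f.range` and `g * r (τ i) = r i * f (κ i)`, then the transfer of `ψ` at `g`
is `∑ i, ψ (κ i)`. -/
theorem transferAlong_eq_sum_of_reps {ι : Type*} [Fintype ι] (r : ι → G)
    (hr : Function.Bijective fun i => (QuotientGroup.mk (r i) : G ⧸ f.range))
    (g : G) (τ : ι → ι) (κ : ι → H) (hκ : ∀ i, g * r (τ i) = r i * f (κ i))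
    (ψ : Additive H →+ A) :
    transferAlong A f hf ψ (Additive.ofMul g) = ∑ i, ψ (Additive.ofMul (κ i)) := by
  classical
  letI := f.range.fintypeQuotientOfFiniteIndex
  let e : ι ≃ G ⧸ f.range := Equiv.ofBijective _ hr
  have he : ∀ i, e i = (QuotientGroup.mk (r i) : G ⧸ f.range) := fun i => rfl
  -- `r i = tRep (e i) * f (h i)`
  have hex : ∀ i, ∃ h : H, r i = tRep f (e i) * f h := by
    intro i
    have h1 : (QuotientGroup.mk (tRep f (e i)) : G ⧸ f.range) = QuotientGroup.mk (r i) := by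
      rw [tRep_mk, he]
    have h2 : (tRep f (e i))⁻¹ * r i ∈ f.range := QuotientGroup.eq.mp h1
    obtain ⟨h, hh⟩ := h2
    exact ⟨h, by rw [hh, mul_inv_cancel_left]⟩
  choose h hh using hex
  -- `g⁻¹ • e i = e (τ i)`
  have hτe : ∀ i, g⁻¹ • e i = e (τ i) := by
    intro i
    rw [inv_smul_eq_iff, he, he]
    show _ = (QuotientGroup.mk (g * r (τ i)) : G ⧸ f.range)
    rw [hκ i]
    have hmem : f (κ i) ∈ f.range := ⟨κ i, rfl⟩
    exact (QuotientGroup.mk_mul_of_mem (r i) hmem).symm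
  have hτinj : Function.Injective τ := by
    intro i j hij
    have h1 : g⁻¹ • e i = g⁻¹ • e j := by rw [hτe, hτe, hij]
    exact e.injective (smul_left_cancel _ h1)
  have hτbij : Function.Bijective τ := Finite.injective_iff_bijective.mp hτinj
  rw [transferAlong_eq_sum]
  rw [← Equiv.sum_comp e]
  have hterm : ∀ i, tCoc f hf (e i) g = h i * κ i * (h (τ i))⁻¹ := by
    intro i
    apply hf
    rw [f_tCoc, hτe, map_mul, map_mul, map_inv]
    have h1 : tRep f (e i) = r i * (f (h i))⁻¹ := by rw [hh i, mul_inv_cancel_right]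
    have h2 : tRep f (e (τ i)) = r (τ i) * (f (h (τ i)))⁻¹ := by
      rw [hh (τ i), mul_inv_cancel_right]
    rw [h1, h2, _root_.mul_inv_rev, inv_inv]
    have h3 : (r i)⁻¹ * g * r (τ i) = f (κ i) := by
      rw [mul_assoc, hκ i, inv_mul_cancel_left]
    calc f (h i) * (r i)⁻¹ * g * (r (τ i) * (f (h (τ i)))⁻¹)
        = f (h i) * ((r i)⁻¹ * g * r (τ i)) * (f (h (τ i)))⁻¹ := by group
      _ = f (h i) * f (κ i) * (f (h (τ i)))⁻¹ := by rw [h3]
  simp only [hterm, ofMul_mul, ofMul_inv, map_add, map_neg]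
  rw [Finset.sum_add_distrib, Finset.sum_add_distrib]
  have h4 : ∑ i, -ψ (Additive.ofMul (h (τ i))) = -∑ i, ψ (Additive.ofMul (h i)) := by
    rw [Finset.sum_neg_distrib]
    congr 1
    exact Equiv.sum_comp (Equiv.ofBijective τ hτbij) (fun i => ψ (Additive.ofMul (h i)))
  rw [h4]
  abel

theorem nu_rel_of_mul_eq {R R' γ c : G} (h : R * γ = c * R') : γ * R'⁻¹ = R⁻¹ * c := by
  rw [eq_inv_mul_iff_mul_eq, ← mul_assoc, h, mul_inv_cancel_right]

end abstract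

/-! ## Integer matrices -/

section mats

theorem ataMat_injective {M : ℕ} : Function.Injective (ataMat : Gamma0 M → _) :=
  fun _ _ h => Subtype.ext (Subtype.ext h)

theorem ataMat_inv {M : ℕ} (x : Gamma0 M) :
    ataMat x⁻¹ = !![ataMat x 1 1, -ataMat x 0 1; -ataMat x 1 0, ataMat x 0 0] := by
  show ((((x⁻¹ : Gamma0 M) : SL(2, ℤ)) : Matrix (Fin 2) (Fin 2) ℤ)) = _
  rw [Subgroup.coe_inv, Matrix.SpecialLinearGroup.coe_inv, Matrix.adjugate_fin_two]
  rfl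

theorem ataMat_det {M : ℕ} (x : Gamma0 M) :
    ataMat x 0 0 * ataMat x 1 1 - ataMat x 0 1 * ataMat x 1 0 = 1 := by
  have h : (ataMat x).det = 1 := (x : SL(2, ℤ)).2
  rwa [Matrix.det_fin_two] at h

theorem nu_smul_mat_cancel {a : ℤ} (ha : a ≠ 0) {X Y : Matrix (Fin 2) (Fin 2) ℤ}
    (h : a • X = a • Y) : X = Y := by
  ext i j
  have h1 := congrFun (congrFun h i) j
  simp only [Matrix.smul_apply, smul_eq_mul] at h1
  exact mul_left_cancel₀ ha h1

/-- integer matrix of `β_x = [[1, x], [0, q]]` -/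
def nuB (q x : ℕ) : Matrix (Fin 2) (Fin 2) ℤ := !![1, (x : ℤ); 0, (q : ℤ)]

/-- `T^m = [[1, m], [0, 1]]` as an element of `Γ₀(N)` -/
def nuT (N : ℕ) [NeZero N] (m : ℤ) : Gamma0 N := ataMk N 1 m 0 1 (by ring)

theorem ataMat_nuT (N : ℕ) [NeZero N] (m : ℤ) : ataMat (nuT N m) = !![1, m; 0, 1] := by
  rw [nuT, ataMat_mk, mul_zero]

theorem nu_delta_mul_B (N q x : ℕ) [NeZero N] :
    (ataDelta q).mat * nuB q x = (q : ℤ) • ataMat (nuT N (x : ℤ)) := by
  rw [ataMat_nuT]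
  ext i j
  fin_cases i <;> fin_cases j <;>
    simp [ataDelta, HeckeRep.mat, nuB, Matrix.mul_apply, Fin.sum_univ_two]

variable {ℓ M : ℕ} [NeZero ℓ]

/-- the coset law of `kapU` for integer matrices -/
theorem kapU_spec_int (hℓM : ℓ ∣ M) (g : Gamma0 M) (x : ZMod ℓ) :
    nuB ℓ x.val * ataMat g = ataMat (kapU hℓM g x) * nuB ℓ (idxU (g : SL(2, ℤ)) x).val := by
  have h := congrArg (fun X : GL (Fin 2) ℝ => (X : Matrix (Fin 2) (Fin 2) ℝ)) (kapU_spec hℓM g x)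
  simp only [Matrix.GeneralLinearGroup.coe_mul, ModularForm.val_heckeMatrix (NeZero.ne ℓ),
    mapGL_coe_matrix] at h
  have hinj : Function.Injective
      (fun A : Matrix (Fin 2) (Fin 2) ℤ => A.map (Int.castRingHom ℝ)) :=
    Matrix.map_injective (RingHom.injective_int (Int.castRingHom ℝ))
  apply hinj
  simp only [Matrix.map_mul]
  have hb : ∀ y : ℕ, (nuB ℓ y).map (Int.castRingHom ℝ) = !![(1 : ℝ), (y : ℝ); 0, (ℓ : ℝ)] := by
    intro y
    ext i j
    fin_cases i <;> fin_cases j <;> simp [nuB]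
  rw [hb, hb]
  exact h

end mats

/-! ## The Atkin–Lehner conjugation -/

section conj

variable {N q : ℕ} [NeZero N] [NeZero q] (u v : ℤ) (huv : (q : ℤ) * u - N * v = 1)

/-- `g₀ = [[u, v], [N, q]] ∈ Γ₀(N)`, `q u − N v = 1` -/
def nuG0 : Gamma0 N := ataMk N u v 1 (q : ℤ) (by linear_combination huv)

/-- `g₁ = [[q u, v], [N, 1]] ∈ Γ₀(N)` -/
def nuG1 : Gamma0 N := ataMk N ((q : ℤ) * u) v 1 1 (by linear_combination huv)

theorem ataMat_nuG0 : ataMat (nuG0 u v huv) = !![u, v; (N : ℤ), (q : ℤ)] := by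
  rw [nuG0, ataMat_mk, mul_one]

theorem ataMat_nuG1 : ataMat (nuG1 u v huv) = !![(q : ℤ) * u, v; (N : ℤ), 1] := by
  rw [nuG1, ataMat_mk, mul_one]

theorem nu_delta_G0_delta :
    (ataDelta q).mat * ataMat (nuG0 u v huv) * (ataDelta q).mat
      = (q : ℤ) • ataMat (nuG1 u v huv) := by
  rw [ataMat_nuG0, ataMat_nuG1]
  ext i j
  fin_cases i <;> fin_cases j <;>
    simp [ataDelta, HeckeRep.mat, Matrix.mul_apply, Fin.sum_univ_two] <;> ring

/-- `γ ↦ g₀ (δ γ δ⁻¹) g₀⁻¹ = W γ W⁻¹`, with values in `Γ₀(N)` -/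
def nuConjWG : Gamma0 (N * q) →* Gamma0 N :=
  (MulAut.conj (nuG0 u v huv)).toMonoidHom.comp (conjD N q)

theorem nuConjWG_mul_G0 (γ : Gamma0 (N * q)) :
    nuConjWG u v huv γ * nuG0 u v huv = nuG0 u v huv * conjD N q γ := by
  show nuG0 u v huv * conjD N q γ * (nuG0 u v huv)⁻¹ * nuG0 u v huv = _
  rw [inv_mul_cancel_right]

theorem nuConjWG_mem (γ : Gamma0 (N * q)) :
    ((nuConjWG u v huv γ : Gamma0 N) : SL(2, ℤ)) ∈ Gamma0 (N * q) := by
  apply mem_Gamma0_of_dvd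
  obtain ⟨k, hk⟩ := dvd_of_mem_Gamma0 γ.2
  have hq' : (q : ℤ) ≠ 0 := by exact_mod_cast NeZero.ne q
  have hk' : ataMat γ 1 0 = (N : ℤ) * q * k := by
    have : ataMat γ 1 0 = ((N * q : ℕ) : ℤ) * k := hk
    rw [this]; push_cast; ring
  have hC : ataMat (conjD N q γ)
      = !![ataMat γ 0 0, q * ataMat γ 0 1; (N : ℤ) * k, ataMat γ 1 1] := by
    show conjDMat q (ataMat γ) = _
    rw [conjDMat, hk', show (N : ℤ) * q * k = q * (N * k) by ring,
      Int.mul_ediv_cancel_left _ hq']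
  have h := congrArg ataMat (nuConjWG_mul_G0 u v huv γ)
  rw [ataMat_mul, ataMat_mul, ataMat_nuG0, hC] at h
  have e1 := congrFun (congrFun h 1) 0
  have e2 := congrFun (congrFun h 1) 1
  simp only [Matrix.mul_apply, Fin.sum_univ_two, Matrix.of_apply, Matrix.cons_val_zero,
    Matrix.cons_val_one, Matrix.cons_val', Matrix.cons_val_fin_one] at e1 e2
  show ((N * q : ℕ) : ℤ) ∣ ataMat (nuConjWG u v huv γ) 1 0
  refine ⟨ataMat γ 0 0 + q * k - N * ataMat γ 0 1 - ataMat γ 1 1, ?_⟩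
  push_cast
  linear_combination (-(ataMat (nuConjWG u v huv γ) 1 0)) * huv + (q : ℤ) * e1 - (N : ℤ) * e2

/-- the Atkin–Lehner conjugation `γ ↦ W γ W⁻¹` on `Γ₀(N q)`, `W = g₀ δ` -/
def nuConjW : Gamma0 (N * q) →* Gamma0 (N * q) :=
  ((Gamma0 N).subtype.comp (nuConjWG u v huv)).codRestrict (Gamma0 (N * q))
    (nuConjWG_mem u v huv)

theorem incl_nuConjW (γ : Gamma0 (N * q)) :
    incl N q (nuConjW u v huv γ) = nuConjWG u v huv γ :=
  Subtype.ext rfl

theorem incl_nuConjW_mul_G0 (γ : Gamma0 (N * q)) :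
    incl N q (nuConjW u v huv γ) * nuG0 u v huv = nuG0 u v huv * conjD N q γ := by
  rw [incl_nuConjW, nuConjWG_mul_G0]

/-- `w ψ = ψ ∘ (γ ↦ W γ W⁻¹)` -/
def nuW {A : Type*} [AddCommGroup A] (ψ : HomG (N * q) A) : HomG (N * q) A :=
  ψ.comp (MonoidHom.toAdditive (nuConjW u v huv))

theorem nuW_apply {A : Type*} [AddCommGroup A] (ψ : HomG (N * q) A) (γ : Gamma0 (N * q)) :
    nuW u v huv ψ (Additive.ofMul γ) = ψ (Additive.ofMul (nuConjW u v huv γ)) := rfl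

/-- **(A)** `Tˣ γ = (δ κ_U(γ, x) δ⁻¹) T^{x·γ}` -/
theorem nu_T_mul (γ : Gamma0 (N * q)) (x : ZMod q) :
    nuT N (x.val : ℤ) * incl N q γ
      = conjD N q (kapU (dvd_mul_left q N) γ x)
          * nuT N ((idxU (γ : SL(2, ℤ)) x).val : ℤ) := by
  have hq' : (q : ℤ) ≠ 0 := by exact_mod_cast NeZero.ne q
  apply ataMat_injective
  apply nu_smul_mat_cancel hq'
  rw [ataMat_mul, ataMat_mul, ← Matrix.smul_mul, ← nu_delta_mul_B N q, ← Matrix.mul_smul,
    ← nu_delta_mul_B N q]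
  have e1 : ataMat (incl N q γ) = ataMat γ := rfl
  rw [e1, Matrix.mul_assoc, kapU_spec_int (dvd_mul_left q N) γ x, ← Matrix.mul_assoc,
    ← Matrix.mul_assoc]
  congr 1
  exact ata_hint_incl N q (kapU (dvd_mul_left q N) γ x)

/-- **(B)** `g₁ γ = (δ (W γ W⁻¹) δ⁻¹) g₁` -/
theorem nu_G1_mul (γ : Gamma0 (N * q)) :
    nuG1 u v huv * incl N q γ = conjD N q (nuConjW u v huv γ) * nuG1 u v huv := by
  have hq' : (q : ℤ) ≠ 0 := by exact_mod_cast NeZero.ne q
  apply ataMat_injective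
  apply nu_smul_mat_cancel hq'
  rw [ataMat_mul, ataMat_mul, ← Matrix.smul_mul, ← nu_delta_G0_delta u v huv, ← Matrix.mul_smul,
    ← nu_delta_G0_delta u v huv]
  have h1 := ata_hint_incl N q γ
  have h2 := ata_hint_incl N q (nuConjW u v huv γ)
  have h3 := congrArg ataMat (incl_nuConjW_mul_G0 u v huv γ)
  rw [ataMat_mul, ataMat_mul] at h3
  calc (ataDelta q).mat * ataMat (nuG0 u v huv) * (ataDelta q).mat * ataMat (incl N q γ)
      = (ataDelta q).mat * ataMat (nuG0 u v huv) * ((ataDelta q).mat * ataMat (incl N q γ)) := by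
        simp only [Matrix.mul_assoc]
    _ = (ataDelta q).mat * (ataMat (nuG0 u v huv) * ataMat (conjD N q γ)) * (ataDelta q).mat := by
        rw [h1]; simp only [Matrix.mul_assoc]
    _ = (ataDelta q).mat * ataMat (incl N q (nuConjW u v huv γ)) * ataMat (nuG0 u v huv)
          * (ataDelta q).mat := by
        rw [← h3]; simp only [Matrix.mul_assoc]
    _ = ataMat (conjD N q (nuConjW u v huv γ))
          * ((ataDelta q).mat * ataMat (nuG0 u v huv) * (ataDelta q).mat) := by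
        rw [h2]; simp only [Matrix.mul_assoc]

/-- **(C)** `(g₀ Tˣ) γ = (W κ_U(γ, x) W⁻¹) (g₀ T^{x·γ})` -/
theorem nu_G0T_mul (γ : Gamma0 (N * q)) (x : ZMod q) :
    (nuG0 u v huv * nuT N (x.val : ℤ)) * incl N q γ
      = incl N q (nuConjW u v huv (kapU (dvd_mul_left q N) γ x))
          * (nuG0 u v huv * nuT N ((idxU (γ : SL(2, ℤ)) x).val : ℤ)) := by
  rw [mul_assoc, nu_T_mul, ← mul_assoc, ← mul_assoc, incl_nuConjW_mul_G0]

end conj

/-! ## The two subgroups and their cosets -/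

section cosets

variable {N q : ℕ} [NeZero N] [NeZero q]

theorem nu_mem_incl_range_iff (hc : Nat.Coprime q N) (x : Gamma0 N) :
    x ∈ (incl N q).range ↔ (q : ℤ) ∣ ataMat x 1 0 := by
  constructor
  · rintro ⟨c, rfl⟩
    exact dvd_q_of_mem N q c.2
  · intro h
    have hN : (N : ℤ) ∣ ataMat x 1 0 := dvd_of_mem_Gamma0 x.2
    have hcop : IsCoprime (N : ℤ) (q : ℤ) := (Nat.isCoprime_iff_coprime.mpr hc).symm
    have hNq : (N : ℤ) * q ∣ ataMat x 1 0 := hcop.mul_dvd hN h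
    have hmem : (x : SL(2, ℤ)) ∈ Gamma0 (N * q) := by
      apply mem_Gamma0_of_dvd
      push_cast
      exact hNq
    exact ⟨⟨(x : SL(2, ℤ)), hmem⟩, Subtype.ext rfl⟩

theorem nu_mem_conjD_range_iff (x : Gamma0 N) :
    x ∈ (conjD N q).range ↔ (q : ℤ) ∣ ataMat x 0 1 := by
  constructor
  · rintro ⟨c, rfl⟩
    show (q : ℤ) ∣ conjDMat q (ataMat c) 0 1
    simp [conjDMat]
  · rintro ⟨b', hb'⟩
    obtain ⟨k, hk⟩ := dvd_of_mem_Gamma0 x.2
    have hk' : ataMat x 1 0 = N * k := hk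
    have hdet := ataMat_det x
    have hdet' : ataMat x 0 0 * ataMat x 1 1 - b' * ((N : ℤ) * (q * k)) = 1 := by
      rw [hb', hk'] at hdet
      linear_combination hdet
    refine ata_hrange_conjD N q x (ataMk N (ataMat x 0 0) b' (q * k) (ataMat x 1 1) hdet') ?_
    rw [ataMat_mk]
    ext i j
    fin_cases i <;> fin_cases j <;>
      simp [ataDelta', HeckeRep.mat, Matrix.mul_apply, Fin.sum_univ_two, hb', hk'] <;> ring

theorem nu_mk_eq_incl_iff (hc : Nat.Coprime q N) (g h : Gamma0 N) :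
    (QuotientGroup.mk g : Gamma0 N ⧸ (incl N q).range) = QuotientGroup.mk h ↔
      (q : ℤ) ∣ ataMat g 0 0 * ataMat h 1 0 - ataMat g 1 0 * ataMat h 0 0 := by
  rw [QuotientGroup.eq, nu_mem_incl_range_iff hc, ataMat_mul, ataMat_inv]
  have e : (!![ataMat g 1 1, -ataMat g 0 1; -ataMat g 1 0, ataMat g 0 0] * ataMat h) 1 0
      = ataMat g 0 0 * ataMat h 1 0 - ataMat g 1 0 * ataMat h 0 0 := by
    simp [Matrix.mul_apply, Fin.sum_univ_two]
    ring
  rw [e]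

theorem nu_mk_eq_conjD_iff (g h : Gamma0 N) :
    (QuotientGroup.mk g : Gamma0 N ⧸ (conjD N q).range) = QuotientGroup.mk h ↔
      (q : ℤ) ∣ ataMat g 1 1 * ataMat h 0 1 - ataMat g 0 1 * ataMat h 1 1 := by
  rw [QuotientGroup.eq, nu_mem_conjD_range_iff, ataMat_mul, ataMat_inv]
  have e : (!![ataMat g 1 1, -ataMat g 0 1; -ataMat g 1 0, ataMat g 0 0] * ataMat h) 0 1
      = ataMat g 1 1 * ataMat h 0 1 - ataMat g 0 1 * ataMat h 1 1 := by
    simp [Matrix.mul_apply, Fin.sum_univ_two]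
    ring
  rw [e]

end cosets

/-! ## The two systems of representatives -/

section reps

variable {N q : ℕ} [NeZero N] [NeZero q] (u v : ℤ) (huv : (q : ℤ) * u - N * v = 1)

/-- representatives of `Γ₀(N) / Γ₀(N q)`: `1` and `(g₀ Tˣ)⁻¹`, `x ∈ 𝔽_q` -/
def nuRepI : Option (ZMod q) → Gamma0 N
  | none => 1
  | some x => (nuG0 u v huv * nuT N (x.val : ℤ))⁻¹

/-- representatives of `Γ₀(N) / δ Γ₀(N q) δ⁻¹`: `g₁⁻¹` and `T⁻ˣ`, `x ∈ 𝔽_q` -/
def nuRepD : Option (ZMod q) → Gamma0 N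
  | none => (nuG1 u v huv)⁻¹
  | some x => (nuT N (x.val : ℤ))⁻¹

theorem ataMat_nuRepI_none : ataMat (nuRepI u v huv (none : Option (ZMod q))) = 1 := ataMat_one

theorem ataMat_nuRepI_some (x : ZMod q) :
    ataMat (nuRepI u v huv (some x))
      = !![(N : ℤ) * x.val + q, -(u * x.val + v); -(N : ℤ), u] := by
  show ataMat (nuG0 u v huv * nuT N (x.val : ℤ))⁻¹ = _
  rw [ataMat_inv, ataMat_mul, ataMat_nuG0, ataMat_nuT]
  ext i j
  fin_cases i <;> fin_cases j <;> simp [Matrix.mul_apply, Fin.sum_univ_two]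

theorem ataMat_nuRepD_none :
    ataMat (nuRepD u v huv (none : Option (ZMod q))) = !![1, -v; -(N : ℤ), (q : ℤ) * u] := by
  show ataMat (nuG1 u v huv)⁻¹ = _
  rw [ataMat_inv, ataMat_nuG1]
  ext i j
  fin_cases i <;> fin_cases j <;> simp

theorem ataMat_nuRepD_some (x : ZMod q) :
    ataMat (nuRepD u v huv (some x)) = !![1, -(x.val : ℤ); 0, 1] := by
  show ataMat (nuT N (x.val : ℤ))⁻¹ = _
  rw [ataMat_inv, ataMat_nuT]
  ext i j
  fin_cases i <;> fin_cases j <;> simp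

variable [hq : Fact q.Prime]

theorem nu_cast_N_ne_zero (hqN : ¬ q ∣ N) : ((N : ℤ) : ZMod q) ≠ 0 := by
  intro h
  rw [ZMod.intCast_zmod_eq_zero_iff_dvd] at h
  exact hqN (Int.natCast_dvd_natCast.mp h)

include huv in
theorem nu_cast_v_ne_zero : ((v : ℤ) : ZMod q) ≠ 0 := by
  intro h
  have h1 := congrArg (fun z : ℤ => (z : ZMod q)) huv
  simp only [Int.cast_sub, Int.cast_mul, Int.cast_natCast, ZMod.natCast_self, zero_mul, h,
    mul_zero, sub_zero, Int.cast_one] at h1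
  exact zero_ne_one h1

theorem nu_dvd_iff_cast (a : ℤ) : (q : ℤ) ∣ a ↔ ((a : ℤ) : ZMod q) = 0 :=
  (ZMod.intCast_zmod_eq_zero_iff_dvd a q).symm

theorem nu_reps_incl_bijective (hqN : ¬ q ∣ N) :
    Function.Bijective fun i : Option (ZMod q) =>
      (QuotientGroup.mk (nuRepI u v huv i) : Gamma0 N ⧸ (incl N q).range) := by
  have hc : Nat.Coprime q N := (Nat.Prime.coprime_iff_not_dvd hq.out).mpr hqN
  have hN := nu_cast_N_ne_zero (q := q) hqN
  constructor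
  · intro i j hij
    simp only [] at hij
    rw [nu_mk_eq_incl_iff hc, nu_dvd_iff_cast] at hij
    rcases i with _ | x <;> rcases j with _ | y
    · rfl
    · exfalso
      rw [ataMat_nuRepI_none, ataMat_nuRepI_some] at hij
      simp at hij
      exact hN (by simpa using hij)
    · exfalso
      rw [ataMat_nuRepI_none, ataMat_nuRepI_some] at hij
      simp at hij
      exact hN (by simpa using hij)
    · rw [ataMat_nuRepI_some, ataMat_nuRepI_some] at hij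
      simp at hij
      have h1 : ((N : ℤ) : ZMod q) * ((N : ℤ) : ZMod q) * (y - x) = 0 := by
        simp only [Int.cast_natCast]
        linear_combination hij
      have h2 : y - x = 0 := by
        rcases mul_eq_zero.mp h1 with h3 | h3
        · rcases mul_eq_zero.mp h3 with h4 | h4 <;> exact absurd h4 hN
        · exact h3
      rw [sub_eq_zero.mp h2]
  · intro c
    obtain ⟨h, rfl⟩ := QuotientGroup.mk_surjective c
    by_cases hc0 : ((ataMat h 1 0 : ℤ) : ZMod q) = 0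
    · refine ⟨none, ?_⟩
      simp only []
      rw [nu_mk_eq_incl_iff hc, nu_dvd_iff_cast, ataMat_nuRepI_none]
      simp [hc0]
    · refine ⟨some (-((ataMat h 0 0 : ℤ) : ZMod q) * ((ataMat h 1 0 : ℤ) : ZMod q)⁻¹), ?_⟩
      simp only []
      rw [nu_mk_eq_incl_iff hc, nu_dvd_iff_cast, ataMat_nuRepI_some]
      simp
      field_simp
      ring
  
theorem nu_reps_conjD_bijective :
    Function.Bijective fun i : Option (ZMod q) =>
      (QuotientGroup.mk (nuRepD u v huv i) : Gamma0 N ⧸ (conjD N q).range) := by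
  have hv := nu_cast_v_ne_zero (q := q) u v huv
  constructor
  · intro i j hij
    simp only [] at hij
    rw [nu_mk_eq_conjD_iff, nu_dvd_iff_cast] at hij
    rcases i with _ | x <;> rcases j with _ | y
    · rfl
    · exfalso
      rw [ataMat_nuRepD_none, ataMat_nuRepD_some] at hij
      simp at hij
      exact hv hij
    · exfalso
      rw [ataMat_nuRepD_none, ataMat_nuRepD_some] at hij
      simp at hij
      exact hv hij
    · rw [ataMat_nuRepD_some, ataMat_nuRepD_some] at hij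
      simp at hij
      have h2 : x - y = 0 := by linear_combination hij
      rw [sub_eq_zero.mp h2]
  · intro c
    obtain ⟨h, rfl⟩ := QuotientGroup.mk_surjective c
    by_cases hd0 : ((ataMat h 1 1 : ℤ) : ZMod q) = 0
    · refine ⟨none, ?_⟩
      simp only []
      rw [nu_mk_eq_conjD_iff, nu_dvd_iff_cast, ataMat_nuRepD_none]
      simp [hd0]
    · refine ⟨some (-((ataMat h 0 1 : ℤ) : ZMod q) * ((ataMat h 1 1 : ℤ) : ZMod q)⁻¹), ?_⟩
      simp only []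
      rw [nu_mk_eq_conjD_iff, nu_dvd_iff_cast, ataMat_nuRepD_some]
      simp
      field_simp
      ring

end reps

/-! ## `res ∘ cores = 1 + U_q ∘ w`, `res ∘ coresD = w + U_q`, and `U_q² = 1` on `ker(α†)` -/

section main

variable {N q : ℕ} [NeZero N] [NeZero q] [hq : Fact q.Prime] (u v : ℤ)
  (huv : (q : ℤ) * u - N * v = 1) {A : Type*} [AddCommGroup A]

/-- `res (cores ψ) = ψ + U_q (w ψ)` -/
theorem res_cores_eq (hqN : ¬ q ∣ N) (ψ : HomG (N * q) A) (γ : Gamma0 (N * q)) :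
    cores N q A ψ (Additive.ofMul (incl N q γ))
      = ψ (Additive.ofMul γ)
        + heckeU (dvd_mul_left q N) (nuW u v huv ψ) (Additive.ofMul γ) := by
  classical
  have h := transferAlong_eq_sum_of_reps (incl N q) (incl_injective N q) A (nuRepI u v huv)
    (nu_reps_incl_bijective u v huv hqN) (incl N q γ)
    (fun i => i.map (fun x => idxU (γ : SL(2, ℤ)) x))
    (fun i => match i with
      | none => γ
      | some x => nuConjW u v huv (kapU (dvd_mul_left q N) γ x))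
    (by
      intro i
      rcases i with _ | x
      · show incl N q γ * 1 = 1 * incl N q γ
        rw [mul_one, one_mul]
      · exact nu_rel_of_mul_eq (nu_G0T_mul u v huv γ x)) ψ
  show transferAlong A (incl N q) (incl_injective N q) ψ _ = _
  rw [h, Fintype.sum_option, heckeU_apply]
  rfl

/-- `res (coresD ψ) = w ψ + U_q ψ` -/
theorem res_coresD_eq (ψ : HomG (N * q) A) (γ : Gamma0 (N * q)) :
    coresD N q A ψ (Additive.ofMul (incl N q γ))
      = nuW u v huv ψ (Additive.ofMul γ)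
        + heckeU (dvd_mul_left q N) ψ (Additive.ofMul γ) := by
  classical
  have h := transferAlong_eq_sum_of_reps (conjD N q) (conjD_injective N q) A (nuRepD u v huv)
    (nu_reps_conjD_bijective u v huv) (incl N q γ)
    (fun i => i.map (fun x => idxU (γ : SL(2, ℤ)) x))
    (fun i => match i with
      | none => nuConjW u v huv γ
      | some x => kapU (dvd_mul_left q N) γ x)
    (by
      intro i
      rcases i with _ | x
      · exact nu_rel_of_mul_eq (nu_G1_mul u v huv γ)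
      · exact nu_rel_of_mul_eq (nu_T_mul γ x)) ψ
  show transferAlong A (conjD N q) (conjD_injective N q) ψ _ = _
  rw [h, Fintype.sum_option, heckeU_apply]
  rfl

end main

/-- **(C4)** `U_q² = 1` on the `q`-new part: if `cores ψ = 0` and `cores^δ ψ = 0` then
`U_q (U_q ψ) = ψ`. -/
theorem heckeU_sq_of_alphaT_eq_zero (N q : ℕ) [NeZero N] [NeZero q] [hq : Fact q.Prime]
    (hqN : ¬ q ∣ N) {A : Type*} [AddCommGroup A] (ψ : HomG (N * q) A)
    (h1 : cores N q A ψ = 0) (h2 : coresD N q A ψ = 0) :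
    heckeU (dvd_mul_left q N) (heckeU (dvd_mul_left q N) ψ) = ψ := by
  have hc : Nat.Coprime q N := (Nat.Prime.coprime_iff_not_dvd hq.out).mpr hqN
  obtain ⟨u, v, huv⟩ := ata_bezout hc
  have e1 : ψ = -heckeU (dvd_mul_left q N) (nuW u v huv ψ) := by
    refine AddMonoidHom.ext fun g => ?_
    obtain ⟨γ, rfl⟩ : ∃ γ : Gamma0 (N * q), Additive.ofMul γ = g := ⟨Additive.toMul g, rfl⟩
    have h := res_cores_eq u v huv hqN ψ γ
    rw [h1, AddMonoidHom.zero_apply] at h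
    rw [AddMonoidHom.neg_apply]
    exact eq_neg_of_add_eq_zero_left h.symm
  have e2 : nuW u v huv ψ = -heckeU (dvd_mul_left q N) ψ := by
    refine AddMonoidHom.ext fun g => ?_
    obtain ⟨γ, rfl⟩ : ∃ γ : Gamma0 (N * q), Additive.ofMul γ = g := ⟨Additive.toMul g, rfl⟩
    have h := res_coresD_eq u v huv ψ γ
    rw [h2, AddMonoidHom.zero_apply] at h
    rw [AddMonoidHom.neg_apply]
    exact eq_neg_of_add_eq_zero_left h.symm
  rw [e2, heckeU_neg, neg_neg] at e1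
  exact e1.symm

/-- (C4), in terms of `alphaT` -/
theorem heckeU_sq_of_mem_ker_alphaT (N q : ℕ) [NeZero N] [NeZero q] [Fact q.Prime]
    (hqN : ¬ q ∣ N) {A : Type*} [AddCommGroup A] (ψ : HomG (N * q) A)
    (h : alphaT N q A ψ = 0) :
    heckeU (dvd_mul_left q N) (heckeU (dvd_mul_left q N) ψ) = ψ := by
  rw [alphaT_apply, Prod.mk_eq_zero] at h
  exact heckeU_sq_of_alphaT_eq_zero N q hqN ψ h.1 h.2

end Fermat.Agent.S41

end
end ZBS41_005_1

/-! ### bundled: `Fermat.Agent.RT.K5.E2Abs` -/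
section ZBS41_005_2

/-!
# RT-K5, piece E2 (abstract part): extension of invariant homomorphisms and the transgression

`Γ' ≤ Γ ≤ G`, `Γ'` normalised by `Γ`, `χ : Γ' → A` invariant under conjugation by `Γ`.
* `k5e_pow_mul`  : `(g x)ⁿ = gⁿ y` with `χ y = n χ x` (`g ∈ Γ`, `x ∈ Γ'`);
* `k5e_extend`   : if `Γ/Γ'` is generated by `g₀` of order `m` and `χ (g₀ᵐ) = 0` then `χ` extends
                   to `Γ`;
* `k5e_transfer_pow` : the transfer computation behind `τ(T_ℓ ψ) = (ℓ + 1) τ(ψ)`.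
-/

set_option autoImplicit false
set_option linter.style.haveILetI false
set_option linter.unusedSectionVars false
set_option linter.unusedVariables false

noncomputable section

namespace Fermat.Agent.RT.K5

variable {G : Type*} [Group G] {Γ' Γ : Subgroup G} {A : Type*} [AddCommGroup A]

/-- `χ : Γ' → A` is invariant under conjugation by `Γ`. -/
def k5e_Inv (Γ' Γ : Subgroup G) (χ : Additive Γ' →+ A) : Prop :=
  ∀ g ∈ Γ, ∀ (x : G) (hx : x ∈ Γ') (hx' : g⁻¹ * x * g ∈ Γ'),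
    χ (Additive.ofMul ⟨g⁻¹ * x * g, hx'⟩) = χ (Additive.ofMul ⟨x, hx⟩)

theorem k5e_chi_mul (χ : Additive Γ' →+ A) (a b : G) (ha : a ∈ Γ') (hb : b ∈ Γ')
    (hab : a * b ∈ Γ') :
    χ (Additive.ofMul ⟨a * b, hab⟩) = χ (Additive.ofMul ⟨a, ha⟩) + χ (Additive.ofMul ⟨b, hb⟩) := by
  have : (⟨a * b, hab⟩ : Γ') = ⟨a, ha⟩ * ⟨b, hb⟩ := rfl
  rw [this, ofMul_mul, map_add]

theorem k5e_chi_congr (χ : Additive Γ' →+ A) {a b : G} (h : a = b) (ha : a ∈ Γ') (hb : b ∈ Γ') :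
    χ (Additive.ofMul ⟨a, ha⟩) = χ (Additive.ofMul ⟨b, hb⟩) := by
  subst h; rfl

theorem k5e_chi_one (χ : Additive Γ' →+ A) (h : (1 : G) ∈ Γ') :
    χ (Additive.ofMul ⟨1, h⟩) = 0 := by
  have : (⟨1, h⟩ : Γ') = 1 := rfl
  rw [this, ofMul_one, map_zero]

theorem k5e_chi_zpow (χ : Additive Γ' →+ A) (a : G) (ha : a ∈ Γ') (j : ℤ) (h : a ^ j ∈ Γ') :
    χ (Additive.ofMul ⟨a ^ j, h⟩) = j • χ (Additive.ofMul ⟨a, ha⟩) := by
  have : (⟨a ^ j, h⟩ : Γ') = ⟨a, ha⟩ ^ j := by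
    apply Subtype.ext; simp
  rw [this, ofMul_zpow, map_zsmul]

/-- `(g x)ⁿ = gⁿ y` with `y ∈ Γ'`, `χ y = n χ x`. -/
theorem k5e_pow_mul (hN : ∀ g ∈ Γ, ∀ x ∈ Γ', g⁻¹ * x * g ∈ Γ') (χ : Additive Γ' →+ A)
    (hinv : k5e_Inv Γ' Γ χ) (g : G) (hg : g ∈ Γ) (x : G) (hx : x ∈ Γ') (n : ℕ) :
    ∃ (y : G) (hy : y ∈ Γ'), (g * x) ^ n = g ^ n * y ∧
      χ (Additive.ofMul ⟨y, hy⟩) = n • χ (Additive.ofMul ⟨x, hx⟩) := by
  induction n with
  | zero => exact ⟨1, one_mem _, by simp, by rw [k5e_chi_one, zero_smul]⟩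
  | succ n ih =>
    obtain ⟨y, hy, h1, h2⟩ := ih
    have hy' : g⁻¹ * y * g ∈ Γ' := hN g hg y hy
    refine ⟨g⁻¹ * y * g * x, mul_mem hy' hx, ?_, ?_⟩
    · rw [pow_succ, h1, pow_succ]; group
    · rw [k5e_chi_mul χ _ _ hy' hx, hinv g hg y hy hy', h2, succ_nsmul]

/-- **Extension.**  If `Γ/Γ'` is generated by `g₀` of order `m`, an invariant `χ` with
`χ (g₀ᵐ) = 0` extends to `Γ`. -/
theorem k5e_extend (hle : Γ' ≤ Γ) (hN : ∀ g ∈ Γ, ∀ x ∈ Γ', g⁻¹ * x * g ∈ Γ')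
    (χ : Additive Γ' →+ A) (hinv : k5e_Inv Γ' Γ χ) (g₀ : G) (hg₀ : g₀ ∈ Γ) (m : ℕ)
    (hgen : ∀ γ ∈ Γ, ∃ k : ℕ, γ * g₀ ^ k ∈ Γ')
    (hord : ∀ k : ℤ, g₀ ^ k ∈ Γ' ↔ (m : ℤ) ∣ k)
    (hτ : ∀ h : g₀ ^ m ∈ Γ', χ (Additive.ofMul ⟨g₀ ^ m, h⟩) = 0) :
    ∃ φ : Additive Γ →+ A, ∀ (x : G) (hx : x ∈ Γ'),
      φ (Additive.ofMul ⟨x, hle hx⟩) = χ (Additive.ofMul ⟨x, hx⟩) := by
  classical
  have hm : g₀ ^ m ∈ Γ' := by
    have := (hord (m : ℤ)).mpr dvd_rfl
    rwa [zpow_natCast] at this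
  have hτ' := hτ hm
  -- well-definedness
  have W : ∀ (γ : G) (k k' : ℤ) (h : γ * g₀ ^ k ∈ Γ') (h' : γ * g₀ ^ k' ∈ Γ'),
      χ (Additive.ofMul ⟨γ * g₀ ^ k', h'⟩) = χ (Additive.ofMul ⟨γ * g₀ ^ k, h⟩) := by
    intro γ k k' h h'
    have h1 : g₀ ^ (k' - k) ∈ Γ' := by
      have : g₀ ^ (k' - k) = (γ * g₀ ^ k)⁻¹ * (γ * g₀ ^ k') := by
        rw [zpow_sub]; group
      rw [this]; exact mul_mem (inv_mem h) h'
    obtain ⟨j, hj⟩ := (hord _).mp h1
    have h2 : γ * g₀ ^ k' = γ * g₀ ^ k * (g₀ ^ m) ^ j := by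
      have : k' = k + m * j := by omega
      rw [this, zpow_add, zpow_mul, zpow_natCast, mul_assoc]
    have h3 : (g₀ ^ m) ^ j ∈ Γ' := Subgroup.zpow_mem _ hm j
    rw [k5e_chi_congr χ h2 h' (mul_mem h h3), k5e_chi_mul χ _ _ h h3,
      k5e_chi_zpow χ _ hm j h3, hτ', smul_zero, add_zero]
  choose k hk using fun γ : Γ => hgen γ γ.2
  have hk' : ∀ γ : Γ, (γ : G) * g₀ ^ ((k γ : ℕ) : ℤ) ∈ Γ' := fun γ => by
    rw [zpow_natCast]; exact hk γ
  let F : Γ → A := fun γ => χ (Additive.ofMul ⟨(γ : G) * g₀ ^ ((k γ : ℕ) : ℤ), hk' γ⟩)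
  have hF : ∀ (γ : Γ) (j : ℤ) (h : (γ : G) * g₀ ^ j ∈ Γ'),
      F γ = χ (Additive.ofMul ⟨(γ : G) * g₀ ^ j, h⟩) := fun γ j h => W _ _ _ h (hk' γ)
  have hadd : ∀ a b : Γ, F (a * b) = F a + F b := by
    intro a b
    have hga : g₀ ^ ((k a : ℕ) : ℤ) ∈ Γ := Subgroup.zpow_mem _ hg₀ _
    have hb' : (g₀ ^ ((k a : ℕ) : ℤ))⁻¹ * ((b : G) * g₀ ^ ((k b : ℕ) : ℤ)) * g₀ ^ ((k a : ℕ) : ℤ) ∈ Γ' :=
      hN _ hga _ (hk' b)
    have e : ((a * b : Γ) : G) * g₀ ^ (((k b : ℕ) : ℤ) + ((k a : ℕ) : ℤ))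
        = ((a : G) * g₀ ^ ((k a : ℕ) : ℤ)) *
          ((g₀ ^ ((k a : ℕ) : ℤ))⁻¹ * ((b : G) * g₀ ^ ((k b : ℕ) : ℤ)) * g₀ ^ ((k a : ℕ) : ℤ)) := by
      rw [zpow_add]; push_cast; group
    have hmem : ((a * b : Γ) : G) * g₀ ^ (((k b : ℕ) : ℤ) + ((k a : ℕ) : ℤ)) ∈ Γ' := by
      rw [e]; exact mul_mem (hk' a) hb'
    rw [hF (a * b) _ hmem, k5e_chi_congr χ e hmem (mul_mem (hk' a) hb'),
      k5e_chi_mul χ _ _ (hk' a) hb', hinv _ hga _ (hk' b) hb']
  refine ⟨AddMonoidHom.mk' (fun γ => F (Additive.toMul γ)) (fun a b => hadd _ _), ?_⟩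
  intro x hx
  show F ⟨x, hle hx⟩ = _
  have h0 : x * g₀ ^ (0 : ℤ) ∈ Γ' := by simpa using hx
  rw [hF ⟨x, hle hx⟩ 0 h0]
  exact k5e_chi_congr χ (by simp) _ _

/-! ## the transfer computation -/

section transfer

variable {K' : Type*} [Group K'] (c ι : K' →* Γ') (hc : Function.Injective c)
  [c.range.FiniteIndex]

/-- **Transgression and transfer.**  `N ⊴ G`; for `y ∈ Γ ∩ N` there is `z ∈ Γ` (`= δ⁻¹ y δ`),
`z ≡ y mod Γ'`, such that `yⁿ ∈ Γ'` implies `yⁿ = c κ`, `zⁿ = ι κ` for some `κ`.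
Then for `g₁ ∈ Γ ∩ N` with `g₁ᵐ ∈ Γ'`, an invariant `ψ` and `m A = 0`:
`transfer_c (ψ ∘ ι) (g₁ᵐ) = [Γ' : c K'] ψ (g₁ᵐ)`. -/
theorem k5e_transfer_pow (hle : Γ' ≤ Γ) (hN : ∀ g ∈ Γ, ∀ x ∈ Γ', g⁻¹ * x * g ∈ Γ')
    (Nn : Subgroup G) [Nn.Normal]
    (hz : ∀ y ∈ Γ, y ∈ Nn → ∃ z ∈ Γ, y⁻¹ * z ∈ Γ' ∧
      ∀ n : ℕ, y ^ n ∈ Γ' → ∃ κ : K', ((c κ : Γ') : G) = y ^ n ∧ ((ι κ : Γ') : G) = z ^ n)
    (ψ : Additive Γ' →+ A) (hinv : k5e_Inv Γ' Γ ψ) (m : ℕ) (hmA : ∀ a : A, m • a = 0)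
    (g₁ : G) (hg₁ : g₁ ∈ Γ) (hg₁N : g₁ ∈ Nn) (hx : g₁ ^ m ∈ Γ') :
    S41.transferAlong A c hc (ψ.comp (MonoidHom.toAdditive ι)) (Additive.ofMul ⟨g₁ ^ m, hx⟩)
      = c.range.index • ψ (Additive.ofMul ⟨g₁ ^ m, hx⟩) := by
  classical
  letI := c.range.fintypeQuotientOfFiniteIndex
  -- for every representative `r` the element `κ`
  have key : ∀ r : Γ', ∃ κ : K', (⟨g₁ ^ m, hx⟩ : Γ') * r = r * c κ ∧
      ψ (Additive.ofMul (ι κ)) = ψ (Additive.ofMul ⟨g₁ ^ m, hx⟩) := by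
    intro r
    have hr : (r : G) ∈ Γ := hle r.2
    have hy : (r : G)⁻¹ * g₁ * r ∈ Γ := mul_mem (mul_mem (inv_mem hr) hg₁) hr
    have hyN : (r : G)⁻¹ * g₁ * r ∈ Nn := by
      have := (inferInstance : Nn.Normal).conj_mem g₁ hg₁N (r : G)⁻¹
      simpa using this
    obtain ⟨z, hzΓ, hyz, hκ⟩ := hz _ hy hyN
    have hpow : ∀ n : ℕ, ((r : G)⁻¹ * g₁ * r) ^ n = (r : G)⁻¹ * g₁ ^ n * r := by
      intro n
      induction n with
      | zero => simp
      | succ n ih => rw [pow_succ, ih, pow_succ]; group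
    have hym : ((r : G)⁻¹ * g₁ * r) ^ m ∈ Γ' := by
      rw [hpow]
      exact mul_mem (mul_mem (inv_mem r.2) hx) r.2
    obtain ⟨κ, hcκ, hικ⟩ := hκ m hym
    refine ⟨κ, ?_, ?_⟩
    · apply Subtype.ext
      show g₁ ^ m * (r : G) = (r : G) * ((c κ : Γ') : G)
      rw [hcκ, hpow]; group
    · -- `z = g₁ γ'`
      have hγ' : g₁⁻¹ * z ∈ Γ' := by
        have h1 : g₁⁻¹ * ((r : G)⁻¹ * g₁ * r) ∈ Γ' := by
          have h2 : g₁⁻¹ * (r : G)⁻¹ * g₁ ∈ Γ' := hN g₁ hg₁ _ (inv_mem r.2)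
          have : g₁⁻¹ * ((r : G)⁻¹ * g₁ * r) = g₁⁻¹ * (r : G)⁻¹ * g₁ * r := by group
          rw [this]; exact mul_mem h2 r.2
        have : g₁⁻¹ * z = g₁⁻¹ * ((r : G)⁻¹ * g₁ * r) * (((r : G)⁻¹ * g₁ * r)⁻¹ * z) := by group
        rw [this]; exact mul_mem h1 hyz
      obtain ⟨y', hy', e1, e2⟩ := k5e_pow_mul hN ψ hinv g₁ hg₁ _ hγ' m
      have hz_eq : z ^ m = g₁ ^ m * y' := by
        rw [← e1]; congr 1; group
      have hιmem : ((ι κ : Γ') : G) = g₁ ^ m * y' := by rw [hικ, hz_eq]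
      have h3 : ι κ = (⟨g₁ ^ m, hx⟩ : Γ') * ⟨y', hy'⟩ := Subtype.ext hιmem
      rw [h3, ofMul_mul, map_add, e2, hmA, add_zero]
  choose κ hκ1 hκ2 using key
  have hr : Function.Bijective fun q : Γ' ⧸ c.range =>
      (QuotientGroup.mk (S41.tRep c q) : Γ' ⧸ c.range) := by
    have : (fun q : Γ' ⧸ c.range => (QuotientGroup.mk (S41.tRep c q) : Γ' ⧸ c.range)) = id := by
      funext q; exact S41.tRep_mk c q
    rw [this]; exact Function.bijective_id
  rw [S41.transferAlong_eq_sum_of_reps c hc A (S41.tRep c) hr (⟨g₁ ^ m, hx⟩ : Γ') id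
    (fun q => κ (S41.tRep c q)) (fun q => hκ1 _)]
  have : ∀ q : Γ' ⧸ c.range,
      (ψ.comp (MonoidHom.toAdditive ι)) (Additive.ofMul (κ (S41.tRep c q)))
        = ψ (Additive.ofMul ⟨g₁ ^ m, hx⟩) := fun q => hκ2 _
  simp only [this]
  rw [Finset.sum_const, Finset.card_univ, Subgroup.index_eq_card, Nat.card_eq_fintype_card]

end transfer

end Fermat.Agent.RT.K5

end
end ZBS41_005_2

/-! ### bundled: `Fermat.Agent.RT.K5.E2Conc` -/
section ZBS41_005_3

/-!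
# RT-K5, piece E2 (concrete part): the elements `z = δ⁻¹ y δ`

* `k5e_exists_conjD_preimage` : `y ∈ Γ₀(L)`, `ℓ ∣ y₀₁` ⇒ `y = conjD z`, `z₀₀ = y₀₀`;
* `k5e_diam_eq_of_entry`      : the diamond only depends on the `(0,0)` entry;
* `k5e_hz`                    : the hypothesis `hz` of `k5e_transfer_pow` for `Γ = Γ_H(L)`,
  `Γ' = Γ_H'(L)`, `c = conjDH`, `ι = inclH`, `N = Γ(ℓ)`.
-/

set_option autoImplicit false
set_option linter.style.haveILetI false
set_option linter.unusedSectionVars false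
set_option linter.unusedVariables false

noncomputable section

namespace Fermat.Agent.RT.K5

open CongruenceSubgroup Matrix
open scoped MatrixGroups
open Fermat.Agent.ES1 (gammaH diamHom pmH)

theorem k5e_exists_conjD_preimage (L ℓ : ℕ) [NeZero ℓ] (y : Gamma0 L)
    (h : (ℓ : ℤ) ∣ ((y : SL(2, ℤ)) : Matrix (Fin 2) (Fin 2) ℤ) 0 1) :
    ∃ z : Gamma0 (L * ℓ), S41.conjD L ℓ z = y ∧
      ((z : SL(2, ℤ)) : Matrix (Fin 2) (Fin 2) ℤ) 0 0
        = ((y : SL(2, ℤ)) : Matrix (Fin 2) (Fin 2) ℤ) 0 0 := by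
  have hq' : (ℓ : ℤ) ≠ 0 := by exact_mod_cast NeZero.ne ℓ
  obtain ⟨b, hb⟩ := h
  obtain ⟨c, hc⟩ := S41.dvd_of_mem_Gamma0 y.2
  have hdet : ((y : SL(2, ℤ)) : Matrix (Fin 2) (Fin 2) ℤ).det = 1 := (y : SL(2, ℤ)).2
  rw [Matrix.det_fin_two, hb, hc] at hdet
  let Mx : Matrix (Fin 2) (Fin 2) ℤ :=
    !![((y : SL(2, ℤ)) : Matrix (Fin 2) (Fin 2) ℤ) 0 0, b;
       ℓ * ((L : ℤ) * c), ((y : SL(2, ℤ)) : Matrix (Fin 2) (Fin 2) ℤ) 1 1]
  have hM : Mx.det = 1 := by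
    rw [Matrix.det_fin_two_of]
    linear_combination hdet
  let g : SL(2, ℤ) := ⟨Mx, hM⟩
  have hg : g ∈ Gamma0 (L * ℓ) := by
    apply S41.mem_Gamma0_of_dvd
    show ((L * ℓ : ℕ) : ℤ) ∣ Mx 1 0
    simp only [Mx, Matrix.of_apply, Matrix.cons_val_one, Matrix.cons_val_zero]
    exact ⟨c, by push_cast; ring⟩
  refine ⟨⟨g, hg⟩, ?_, ?_⟩
  · apply Subtype.ext; apply Subtype.ext
    rw [S41.conjD_coe]
    ext i j
    fin_cases i <;> fin_cases j
    · simp [S41.conjDMat, g, Mx]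
    · simp only [S41.conjDMat, g, Mx, Matrix.of_apply, Matrix.cons_val_zero, Matrix.cons_val_one,
        Fin.zero_eta, Fin.mk_one]
      rw [hb]
    · simp only [S41.conjDMat, g, Mx, Matrix.of_apply, Matrix.cons_val_zero, Matrix.cons_val_one,
        Fin.zero_eta, Fin.mk_one]
      rw [Int.mul_ediv_cancel_left _ hq', hc]
    · simp [S41.conjDMat, g, Mx]
  · simp [g, Mx]

theorem k5e_diam_eq_of_entry {M : ℕ} (a b : SL(2, ℤ)) (ha : a ∈ Gamma0 M) (hb : b ∈ Gamma0 M)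
    (h : (a : Matrix (Fin 2) (Fin 2) ℤ) 0 0 = (b : Matrix (Fin 2) (Fin 2) ℤ) 0 0) :
    diamHom M ⟨a, ha⟩ = diamHom M ⟨b, hb⟩ := by
  ext
  rw [Fermat.Agent.ES1.coe_diamHom, Fermat.Agent.ES1.coe_diamHom]
  exact congrArg _ h

theorem k5e_mem_gammaH_of_diam {L M : ℕ} {H : Subgroup (ZMod M)ˣ} {γ : SL(2, ℤ)}
    (hL : γ ∈ Gamma0 L) (hM : γ ∈ Gamma0 M) (h : diamHom M ⟨γ, hM⟩ ∈ pmH H) :
    γ ∈ gammaH L M H := ⟨hL, hM, h⟩

theorem k5e_diam_mem {L M : ℕ} {H : Subgroup (ZMod M)ˣ} {γ : SL(2, ℤ)}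
    (h : γ ∈ gammaH L M H) (hM : γ ∈ Gamma0 M) : diamHom M ⟨γ, hM⟩ ∈ pmH H := h.2.2

theorem k5e_diam_mul {M : ℕ} (a b : SL(2, ℤ)) (ha : a ∈ Gamma0 M) (hb : b ∈ Gamma0 M)
    (hab : a * b ∈ Gamma0 M) :
    diamHom M ⟨a * b, hab⟩ = diamHom M ⟨a, ha⟩ * diamHom M ⟨b, hb⟩ := by
  have : (⟨a * b, hab⟩ : Gamma0 M) = ⟨a, ha⟩ * ⟨b, hb⟩ := rfl
  rw [this, map_mul]

theorem k5e_diam_inv {M : ℕ} (a : SL(2, ℤ)) (ha : a ∈ Gamma0 M) (ha' : a⁻¹ ∈ Gamma0 M) :
    diamHom M ⟨a⁻¹, ha'⟩ = (diamHom M ⟨a, ha⟩)⁻¹ := by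
  have : (⟨a⁻¹, ha'⟩ : Gamma0 M) = (⟨a, ha⟩ : Gamma0 M)⁻¹ := rfl
  rw [this, map_inv]

theorem k5e_diam_pow {M : ℕ} (a : SL(2, ℤ)) (ha : a ∈ Gamma0 M) (n : ℕ)
    (ha' : a ^ n ∈ Gamma0 M) :
    diamHom M ⟨a ^ n, ha'⟩ = (diamHom M ⟨a, ha⟩) ^ n := by
  have : (⟨a ^ n, ha'⟩ : Gamma0 M) = (⟨a, ha⟩ : Gamma0 M) ^ n := rfl
  rw [this, map_pow]

/-- two elements of `Γ₀(L) ∩ Γ₀(M)` with the same diamond differ by an element of `Γ_{H'}`. -/
theorem k5e_inv_mul_mem {L M : ℕ} (H' : Subgroup (ZMod M)ˣ) {a b : SL(2, ℤ)}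
    (haL : a ∈ Gamma0 L) (haM : a ∈ Gamma0 M) (hbL : b ∈ Gamma0 L) (hbM : b ∈ Gamma0 M)
    (h : diamHom M ⟨a, haM⟩ = diamHom M ⟨b, hbM⟩) : a⁻¹ * b ∈ gammaH L M H' := by
  refine ⟨mul_mem (inv_mem haL) hbL, mul_mem (inv_mem haM) hbM, ?_⟩
  rw [k5e_diam_mul _ _ (inv_mem haM) hbM, k5e_diam_inv _ haM, h, inv_mul_cancel]
  exact one_mem _

section hz

variable (L M ℓ : ℕ) [NeZero L] [NeZero ℓ] [hML : Fact (M ∣ L)] (H' H : Subgroup (ZMod M)ˣ)

theorem k5e_gamma_dvd {y : SL(2, ℤ)} (hy : y ∈ Gamma ℓ) :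
    (ℓ : ℤ) ∣ (y : Matrix (Fin 2) (Fin 2) ℤ) 0 1 := by
  have := (Gamma_mem.mp hy).2.1
  exact (ZMod.intCast_zmod_eq_zero_iff_dvd _ _).mp this

/-- the hypothesis `hz` of `k5e_transfer_pow`. -/
theorem k5e_hz (hle : H' ≤ H) :
    ∀ y ∈ gammaH L M H, y ∈ Gamma ℓ → ∃ z ∈ gammaH L M H, y⁻¹ * z ∈ gammaH L M H' ∧
      ∀ n : ℕ, y ^ n ∈ gammaH L M H' → ∃ κ : gammaH (L * ℓ) M H',
        ((conjDH L M ℓ H' hML.out κ : gammaH L M H') : SL(2, ℤ)) = y ^ n ∧
        ((inclH L M ℓ H' κ : gammaH L M H') : SL(2, ℤ)) = z ^ n := by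
  intro y hy hyN
  obtain ⟨z, hz1, hz2⟩ := k5e_exists_conjD_preimage L ℓ ⟨y, hy.1⟩ (k5e_gamma_dvd ℓ hyN)
  have hzL : (z : SL(2, ℤ)) ∈ Gamma0 L := by
    apply S41.mem_Gamma0_of_dvd
    exact (Int.natCast_dvd_natCast.mpr (dvd_mul_right L ℓ)).trans (S41.dvd_of_mem_Gamma0 z.2)
  have hzM : (z : SL(2, ℤ)) ∈ Gamma0 M := by
    apply S41.mem_Gamma0_of_dvd
    exact (Int.natCast_dvd_natCast.mpr hML.out).trans (S41.dvd_of_mem_Gamma0 hzL)
  have hyM : y ∈ Gamma0 M := hy.2.1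
  have hd : diamHom M ⟨(z : SL(2, ℤ)), hzM⟩ = diamHom M ⟨y, hyM⟩ :=
    k5e_diam_eq_of_entry _ _ hzM hyM hz2
  have hzΓ : (z : SL(2, ℤ)) ∈ gammaH L M H := by
    refine ⟨hzL, hzM, ?_⟩
    rw [hd]; exact hy.2.2
  refine ⟨(z : SL(2, ℤ)), hzΓ, k5e_inv_mul_mem H' hy.1 hyM hzL hzM hd.symm, ?_⟩
  intro n hn
  have hznM : (z : SL(2, ℤ)) ^ n ∈ Gamma0 M := pow_mem hzM n
  have hynM : y ^ n ∈ Gamma0 M := pow_mem hyM n
  have hzn : (z : SL(2, ℤ)) ^ n ∈ gammaH (L * ℓ) M H' := by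
    refine ⟨pow_mem z.2 n, hznM, ?_⟩
    rw [k5e_diam_pow _ hzM, hd, ← k5e_diam_pow _ hyM n hynM]
    exact hn.2.2
  refine ⟨⟨(z : SL(2, ℤ)) ^ n, hzn⟩, ?_, rfl⟩
  rw [conjDH_coe]
  have h1 : (⟨(z : SL(2, ℤ)) ^ n, hzn.1⟩ : Gamma0 (L * ℓ)) = z ^ n := rfl
  rw [h1, map_pow, hz1]
  rfl

end hz

end Fermat.Agent.RT.K5

end
end ZBS41_005_3

/-! ### bundled: `Fermat.Agent.RT.K5.E2` -/
section ZBS41_005_4

/-!
# RT-K5, piece E2: `T_ℓ − (ℓ + 1)` maps the invariants into the image of `res`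

`stmtE2_of : StmtGen → StmtComm → StmtIdxRange → StmtE2`, where `StmtIdxRange` is the index
statement `[Γ_H(L) : δ Γ_H(L ℓ) δ⁻¹] = ℓ + 1`.
-/

set_option autoImplicit false
set_option linter.style.haveILetI false
set_option linter.unusedSectionVars false
set_option linter.unusedVariables false

noncomputable section

namespace Fermat.Agent.RT.K5

open CongruenceSubgroup Matrix
open scoped MatrixGroups
open Fermat.Agent.ES1 (gammaH diamHom pmH)

/-- the index statement: `[Γ_H(L) : δ Γ_H(L ℓ) δ⁻¹] = ℓ + 1 = [Γ_H(L) : Γ_H(L ℓ)]`. -/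
def StmtIdxRange : Prop :=
  ∀ (L M ℓ : ℕ) [NeZero L] [NeZero ℓ] [hML : Fact (M ∣ L)] (H : Subgroup (ZMod M)ˣ),
    ℓ.Prime → ¬ ℓ ∣ L →
    (conjDH L M ℓ H hML.out).range.index = ℓ + 1 ∧ (inclH L M ℓ H).range.index = ℓ + 1

theorem k5e_inv_of_isInv {L M : ℕ} {H' H : Subgroup (ZMod M)ˣ} {A : Type*} [AddCommGroup A]
    (χ : HomS (gammaH L M H') A) (h : IsInv H' H χ) :
    k5e_Inv (gammaH L M H') (gammaH L M H) χ := by
  intro g hg x hx hx'
  have := congrArg (fun f : HomS (gammaH L M H') A => f (Additive.ofMul ⟨x, hx⟩))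
    (h g hg)
  exact this

theorem stmtE2_of (hG : StmtGen) (hC : StmtComm) (hI : StmtIdxRange) : StmtE2 := by
  intro L M ℓ _ _ hML H' H hle A _ hℓ hℓL m g₀ hg₀ hgen hord hm hmA ψ hψ
  have hΓle : gammaH L M H' ≤ gammaH L M H := Fermat.Agent.ES1.gammaH_mono hle
  have hN : ∀ g ∈ gammaH L M H, ∀ x ∈ gammaH L M H', g⁻¹ * x * g ∈ gammaH L M H' :=
    fun g hg x hx => normalizes_gammaH hg.1 hg.2.1 x hx
  -- `χ = T_ℓ ψ − (ℓ + 1) ψ` is invariant
  obtain ⟨χ, hχ⟩ : ∃ χ : HomS (gammaH L M H') A, χ = tS L M ℓ H' A ψ - (ℓ + 1) • ψ := ⟨_, rfl⟩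
  have hχinv : IsInv H' H χ := by
    intro g hg
    have h3 := (hC L M ℓ H' H hle A hℓ hℓL).2.2 g hg.1 hg.2.1 ψ
    rw [hχ, map_sub, map_nsmul, h3, hψ g hg]
  have hχ' := k5e_inv_of_isInv χ hχinv
  have hψ' := k5e_inv_of_isInv ψ hψ
  -- a generator `g₁ ≡ 1 mod ℓ`
  have hc : Nat.Coprime ℓ L := (Nat.Prime.coprime_iff_not_dvd hℓ).mpr hℓL
  obtain ⟨g₁, hg₁L, hg₁M, hg₁d, hg₁N⟩ := hG L M ℓ hc (diamHom M ⟨g₀, hg₀.2.1⟩)
  have hg₁ : g₁ ∈ gammaH L M H := ⟨hg₁L, hg₁M, by rw [hg₁d]; exact hg₀.2.2⟩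
  have h01 : g₀⁻¹ * g₁ ∈ gammaH L M H' := k5e_inv_mul_mem H' hg₀.1 hg₀.2.1 hg₁L hg₁M hg₁d.symm
  have h10 : g₁⁻¹ * g₀ ∈ gammaH L M H' := k5e_inv_mul_mem H' hg₁L hg₁M hg₀.1 hg₀.2.1 hg₁d
  have hg₀m : g₀ ^ m ∈ gammaH L M H' := by
    have := (hord (m : ℤ)).mpr dvd_rfl
    rwa [zpow_natCast] at this
  have hg₁m : g₁ ^ m ∈ gammaH L M H' := by
    obtain ⟨y, hy, e, -⟩ := k5e_pow_mul hN ψ hψ' g₀ hg₀ _ h01 m
    have : g₁ ^ m = g₀ ^ m * y := by rw [← e]; congr 1; group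
    rw [this]; exact mul_mem hg₀m hy
  -- `χ (g₁ᵐ) = 0`
  have h1 : χ (Additive.ofMul ⟨g₁ ^ m, hg₁m⟩) = 0 := by
    haveI : (Gamma ℓ).Normal := Gamma_normal ℓ
    have ht : tS L M ℓ H' A ψ (Additive.ofMul ⟨g₁ ^ m, hg₁m⟩)
        = (conjDH L M ℓ H' hML.out).range.index • ψ (Additive.ofMul ⟨g₁ ^ m, hg₁m⟩) :=
      k5e_transfer_pow (conjDH L M ℓ H' hML.out) (inclH L M ℓ H')
        (conjDH_injective L M ℓ H' hML.out) hΓle hN (Gamma ℓ) (k5e_hz L M ℓ H' H hle) ψ hψ' m hmA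
        g₁ hg₁ hg₁N hg₁m
    rw [hχ, AddMonoidHom.sub_apply, AddMonoidHom.smul_apply, ht, (hI L M ℓ H' hℓ hℓL).1, sub_self]
  -- `χ (g₀ᵐ) = 0`
  have h0 : ∀ h : g₀ ^ m ∈ gammaH L M H', χ (Additive.ofMul ⟨g₀ ^ m, h⟩) = 0 := by
    intro h
    obtain ⟨y, hy, e, e2⟩ := k5e_pow_mul hN χ hχ' g₁ hg₁ _ h10 m
    have : g₀ ^ m = g₁ ^ m * y := by rw [← e]; congr 1; group
    rw [k5e_chi_congr χ this h (mul_mem hg₁m hy), k5e_chi_mul χ _ _ hg₁m hy, h1, e2, hmA,
      add_zero]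
  obtain ⟨φ, hφ⟩ := k5e_extend hΓle hN χ hχ' g₀ hg₀ m hgen hord h0
  refine ⟨φ, ?_⟩
  refine AddMonoidHom.ext fun γ => ?_
  obtain ⟨γ, rfl⟩ : ∃ γ' : gammaH L M H', Additive.ofMul γ' = γ := ⟨Additive.toMul γ, rfl⟩
  rw [resS_apply, ← hχ]
  exact hφ γ γ.2

end Fermat.Agent.RT.K5

namespace Fermat.Agent.RT.K5

open CongruenceSubgroup Matrix
open scoped MatrixGroups
open Fermat.Agent.ES1 (gammaH diamHom pmH)

/-- `StmtIdx` from the index statement. -/
theorem stmtIdx_of (hI : StmtIdxRange) : StmtIdx := by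
  intro L M ℓ _ _ hML H A _ hℓ hℓL φ
  obtain ⟨h1, h2⟩ := hI L M ℓ H hℓ hℓL
  constructor
  · show S41.transferAlong A (conjDH L M ℓ H hML.out) (conjDH_injective L M ℓ H hML.out)
      (φ.comp (MonoidHom.toAdditive (conjDH L M ℓ H hML.out))) = _
    rw [S41.transferAlong_comp, h1]
  · show S41.transferAlong A (inclH L M ℓ H) (inclH_injective L M ℓ H)
      (φ.comp (MonoidHom.toAdditive (inclH L M ℓ H))) = _
    rw [S41.transferAlong_comp, h2]

end Fermat.Agent.RT.K5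

end
end ZBS41_005_4

/-! ### bundled: `Fermat.Agent.RT.K5.Idx` -/
section ZBS41_005_5

/-!
# RT-K5, piece IDX: `[Γ_H(L) : Γ_H(L ℓ)] = ℓ + 1 = [Γ_H(L) : δ Γ_H(L ℓ) δ⁻¹]`

By comparison with `Γ₀(L)` (`S41`): `Γ_H(L) / R ≅ Γ₀(L) / R₀` because the diamond character is
onto on `Γ₀(L) ∩ Γ(ℓ)` (`stmtGen`).
-/

set_option autoImplicit false
set_option linter.style.haveILetI false
set_option linter.unusedSectionVars false
set_option linter.unusedVariables false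

noncomputable section

namespace Fermat.Agent.RT.K5

open CongruenceSubgroup Matrix
open scoped MatrixGroups
open Fermat.Agent.ES1 (gammaH diamHom pmH)

/-- comparison of indices along a homomorphism `j : Γ → G₀` with `Γ · R₀ = G₀`, `R = j⁻¹ R₀`. -/
theorem k5i_index_eq {Γ G₀ : Type*} [Group Γ] [Group G₀] (j : Γ →* G₀) (R : Subgroup Γ)
    (R₀ : Subgroup G₀) (hR : ∀ a : Γ, a ∈ R ↔ j a ∈ R₀)
    (hsurj : ∀ γ : G₀, ∃ a : Γ, (j a)⁻¹ * γ ∈ R₀) : R.index = R₀.index := by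
  rw [Subgroup.index_eq_card, Subgroup.index_eq_card]
  have hrel : ∀ a b : Γ, QuotientGroup.leftRel R a b → QuotientGroup.leftRel R₀ (j a) (j b) := by
    intro a b h
    rw [QuotientGroup.leftRel_apply] at h ⊢
    rw [← map_inv, ← map_mul]
    exact (hR _).mp h
  let Φ : Γ ⧸ R → G₀ ⧸ R₀ := Quotient.map' j hrel
  have hΦ : ∀ a : Γ, Φ (QuotientGroup.mk a) = QuotientGroup.mk (j a) := fun a => rfl
  have hinj : Function.Injective Φ := by
    intro x y hxy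
    obtain ⟨a, rfl⟩ := QuotientGroup.mk_surjective x
    obtain ⟨b, rfl⟩ := QuotientGroup.mk_surjective y
    rw [hΦ, hΦ, QuotientGroup.eq] at hxy
    rw [QuotientGroup.eq]
    rw [← map_inv, ← map_mul] at hxy
    exact (hR _).mpr hxy
  have hsur : Function.Surjective Φ := by
    intro y
    obtain ⟨γ, rfl⟩ := QuotientGroup.mk_surjective y
    obtain ⟨a, ha⟩ := hsurj γ
    exact ⟨QuotientGroup.mk a, by rw [hΦ, QuotientGroup.eq]; exact ha⟩
  exact Nat.card_congr (Equiv.ofBijective Φ ⟨hinj, hsur⟩)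

section

variable (L M ℓ : ℕ) [NeZero L] [NeZero ℓ] [hML : Fact (M ∣ L)] (H : Subgroup (ZMod M)ˣ)

/-- the inclusion `Γ_H(L) → Γ₀(L)` -/
def k5i_j : gammaH L M H →* Gamma0 L :=
  Subgroup.inclusion (Fermat.Agent.ES1.gammaH_le_gamma0 L M H)

theorem k5i_mem_Gamma0M {γ : SL(2, ℤ)} (h : γ ∈ Gamma0 L) : γ ∈ Gamma0 M := by
  apply S41.mem_Gamma0_of_dvd
  exact (Int.natCast_dvd_natCast.mpr hML.out).trans (S41.dvd_of_mem_Gamma0 h)

/-- every class of `Γ₀(L)` modulo `Γ_H(L)` contains an element of `Γ(ℓ)` -/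
theorem k5i_exists (hc : Nat.Coprime ℓ L) (γ : Gamma0 L) :
    ∃ a : gammaH L M H, ∃ g : SL(2, ℤ), g ∈ Gamma0 L ∧ g ∈ Gamma ℓ ∧
      ((a : SL(2, ℤ)))⁻¹ * (γ : SL(2, ℤ)) = g := by
  have hγM : (γ : SL(2, ℤ)) ∈ Gamma0 M := k5i_mem_Gamma0M L M γ.2
  obtain ⟨g, hgL, hgM, hgd, hgN⟩ := stmtGen L M ℓ hc (diamHom M ⟨γ, hγM⟩)
  have h1 : (g⁻¹)⁻¹ * (γ : SL(2, ℤ))⁻¹ ∈ gammaH L M H := by
    refine k5e_inv_mul_mem H (inv_mem hgL) (inv_mem hgM) (inv_mem γ.2) (inv_mem hγM) ?_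
    rw [k5e_diam_inv _ hgM, k5e_diam_inv _ hγM, hgd]
  have h2 : (γ : SL(2, ℤ)) * g⁻¹ ∈ gammaH L M H := by
    have : (γ : SL(2, ℤ)) * g⁻¹ = ((g⁻¹)⁻¹ * (γ : SL(2, ℤ))⁻¹)⁻¹ := by group
    rw [this]; exact inv_mem h1
  exact ⟨⟨_, h2⟩, g, hgL, hgN, by group⟩

theorem k5i_Gamma_mem_mul (hc : Nat.Coprime ℓ L) {g : SL(2, ℤ)} (hgL : g ∈ Gamma0 L)
    (hgN : g ∈ Gamma ℓ) : g ∈ Gamma0 (L * ℓ) := by
  apply S41.mem_Gamma0_of_dvd
  have h1 : (L : ℤ) ∣ g 1 0 := S41.dvd_of_mem_Gamma0 hgL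
  have h2 : (ℓ : ℤ) ∣ g 1 0 :=
    (ZMod.intCast_zmod_eq_zero_iff_dvd _ _).mp (Gamma_mem.mp hgN).2.2.1
  have hcop : IsCoprime (L : ℤ) (ℓ : ℤ) := by
    exact_mod_cast (Nat.isCoprime_iff_coprime.mpr hc.symm)
  have := hcop.mul_dvd h1 h2
  push_cast
  exact this

end

theorem stmtIdxRange : StmtIdxRange := by
  intro L M ℓ _ _ hML H hℓ hℓL
  haveI : Fact ℓ.Prime := ⟨hℓ⟩
  have hc : Nat.Coprime ℓ L := (Nat.Prime.coprime_iff_not_dvd hℓ).mpr hℓL
  constructor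
  · rw [k5i_index_eq (k5i_j L M H) (conjDH L M ℓ H hML.out).range (S41.conjD L ℓ).range,
      S41.ata_index_eq hc (S41.ata_hint_conjD L ℓ) (S41.ata_hrange_conjD L ℓ)
        (S41.ata_htrans_delta' hc), S41.ata_card_heckeRep]
    · intro a
      constructor
      · rintro ⟨z, rfl⟩
        exact ⟨⟨z, z.2.1⟩, Subtype.ext rfl⟩
      · rintro ⟨z₀, hz₀⟩
        have hz₀L : (z₀ : SL(2, ℤ)) ∈ Gamma0 L := by
          apply S41.mem_Gamma0_of_dvd
          exact (Int.natCast_dvd_natCast.mpr (dvd_mul_right L ℓ)).trans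
            (S41.dvd_of_mem_Gamma0 z₀.2)
        have hz₀M : (z₀ : SL(2, ℤ)) ∈ Gamma0 M := k5i_mem_Gamma0M L M hz₀L
        have hentry : ((z₀ : SL(2, ℤ)) : Matrix (Fin 2) (Fin 2) ℤ) 0 0
            = ((a : SL(2, ℤ)) : Matrix (Fin 2) (Fin 2) ℤ) 0 0 := by
          have := congrArg (fun x : Gamma0 L => ((x : SL(2, ℤ)) : Matrix (Fin 2) (Fin 2) ℤ) 0 0) hz₀
          simpa [S41.conjD_coe, S41.conjDMat, k5i_j] using this
        have hmem : (z₀ : SL(2, ℤ)) ∈ gammaH (L * ℓ) M H := by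
          refine ⟨z₀.2, hz₀M, ?_⟩
          rw [k5e_diam_eq_of_entry _ _ hz₀M a.2.2.1 hentry]
          exact a.2.2.2
        refine ⟨⟨(z₀ : SL(2, ℤ)), hmem⟩, ?_⟩
        apply Subtype.ext
        rw [conjDH_coe]
        exact congrArg (fun x : Gamma0 L => (x : SL(2, ℤ))) hz₀
    · intro γ
      obtain ⟨a, g, hgL, hgN, hag⟩ := k5i_exists L M ℓ H hc γ
      obtain ⟨z, hz, -⟩ := k5e_exists_conjD_preimage L ℓ ⟨g, hgL⟩ (k5e_gamma_dvd ℓ hgN)
      refine ⟨a, z, ?_⟩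
      rw [hz]
      apply Subtype.ext
      exact hag.symm
  · rw [k5i_index_eq (k5i_j L M H) (inclH L M ℓ H).range (S41.incl L ℓ).range,
      S41.ata_index_eq hc (S41.ata_hint_incl L ℓ) (S41.ata_hrange_incl L ℓ)
        (S41.ata_htrans_delta hc), S41.ata_card_heckeRep]
    · intro a
      constructor
      · rintro ⟨z, rfl⟩
        exact ⟨⟨z, z.2.1⟩, Subtype.ext rfl⟩
      · rintro ⟨z₀, hz₀⟩
        have he : (z₀ : SL(2, ℤ)) = (a : SL(2, ℤ)) :=
          congrArg (fun x : Gamma0 L => (x : SL(2, ℤ))) hz₀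
        have hmem : (z₀ : SL(2, ℤ)) ∈ gammaH (L * ℓ) M H := by
          refine ⟨z₀.2, ?_⟩
          rw [he]
          exact a.2.2
        exact ⟨⟨(z₀ : SL(2, ℤ)), hmem⟩, Subtype.ext he⟩
    · intro γ
      obtain ⟨a, g, hgL, hgN, hag⟩ := k5i_exists L M ℓ H hc γ
      refine ⟨a, ⟨g, k5i_Gamma_mem_mul L ℓ hc hgL hgN⟩, ?_⟩
      apply Subtype.ext
      exact hag.symm

theorem stmtIdx : StmtIdx := stmtIdx_of stmtIdxRange

end Fermat.Agent.RT.K5

end
end ZBS41_005_5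

/-! ### bundled: `Fermat.Agent.RT.K5.CommAbs` -/
section ZBS41_005_6

/-!
# RT-K5, piece C (abstract part): transitivity and base change of the transfer

* `k5c_transfer_trans`      : `transfer_{g ∘ f} = transfer_g ∘ transfer_f`;
* `k5c_transfer_basechange` : for a cartesian square with ONE double coset
  (`Γ' ∩ f H = f' K'`, `G = Γ' · f H`): `(transfer_f ψ) ∘ j = transfer_{f'} (ψ ∘ jK)`.
-/

set_option autoImplicit false
set_option linter.style.haveILetI false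
set_option linter.unusedSectionVars false
set_option linter.unusedVariables false

noncomputable section

namespace Fermat.Agent.RT.K5

open Fermat.Agent

section basechange

variable {G H Γ' K' : Type*} [Group G] [Group H] [Group Γ'] [Group K']
  (f : H →* G) (hf : Function.Injective f) [f.range.FiniteIndex]
  (j : Γ' →* G) (f' : K' →* Γ') (hf' : Function.Injective f') [f'.range.FiniteIndex]
  (jK : K' →* H) (A : Type*) [AddCommGroup A]

theorem k5c_reps_bijective (hcomm : ∀ k, f (jK k) = j (f' k))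
    (hcart : ∀ x : Γ', j x ∈ f.range → x ∈ f'.range)
    (hdc : ∀ γ : G, ∃ x : Γ', (j x)⁻¹ * γ ∈ f.range) :
    Function.Bijective fun q : Γ' ⧸ f'.range =>
      (QuotientGroup.mk (j (S41.tRep f' q)) : G ⧸ f.range) := by
  constructor
  · intro q q' h
    simp only [] at h
    rw [QuotientGroup.eq, ← map_inv, ← map_mul] at h
    have h2 := hcart _ h
    have h3 : (QuotientGroup.mk (S41.tRep f' q) : Γ' ⧸ f'.range)
        = QuotientGroup.mk (S41.tRep f' q') := QuotientGroup.eq.mpr h2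
    rwa [S41.tRep_mk, S41.tRep_mk] at h3
  · intro y
    obtain ⟨γ, rfl⟩ := QuotientGroup.mk_surjective y
    obtain ⟨x, hx⟩ := hdc γ
    refine ⟨QuotientGroup.mk x, ?_⟩
    simp only []
    rw [QuotientGroup.eq]
    -- `tRep (mk x) = x * f' k`
    have h1 : (QuotientGroup.mk (S41.tRep f' (QuotientGroup.mk x)) : Γ' ⧸ f'.range)
        = QuotientGroup.mk x := S41.tRep_mk f' _
    have h2 : (S41.tRep f' (QuotientGroup.mk x))⁻¹ * x ∈ f'.range := QuotientGroup.eq.mp h1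
    obtain ⟨k, hk⟩ := h2
    have h3 : (j (S41.tRep f' (QuotientGroup.mk x)))⁻¹ * γ
        = f (jK k) * ((j x)⁻¹ * γ) := by
      rw [hcomm, hk, map_mul, map_inv]; group
    rw [h3]
    exact mul_mem ⟨jK k, rfl⟩ hx

/-- **Base change** (Mackey formula with one double coset). -/
theorem k5c_transfer_basechange (hcomm : ∀ k, f (jK k) = j (f' k))
    (hcart : ∀ x : Γ', j x ∈ f.range → x ∈ f'.range)
    (hdc : ∀ γ : G, ∃ x : Γ', (j x)⁻¹ * γ ∈ f.range) (ψ : Additive H →+ A) :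
    (S41.transferAlong A f hf ψ).comp (MonoidHom.toAdditive j)
      = S41.transferAlong A f' hf' (ψ.comp (MonoidHom.toAdditive jK)) := by
  classical
  letI := f'.range.fintypeQuotientOfFiniteIndex
  refine AddMonoidHom.ext fun x => ?_
  obtain ⟨x, rfl⟩ : ∃ x' : Γ', Additive.ofMul x' = x := ⟨Additive.toMul x, rfl⟩
  show S41.transferAlong A f hf ψ (Additive.ofMul (j x)) = _
  rw [S41.transferAlong_eq_sum f' hf' A,
    S41.transferAlong_eq_sum_of_reps f hf A (fun q : Γ' ⧸ f'.range => j (S41.tRep f' q))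
      (k5c_reps_bijective f j f' jK hcomm hcart hdc) (j x) (fun q => x⁻¹ • q)
      (fun q => jK (S41.tCoc f' hf' q x)) ?_ ψ]
  · rfl
  · intro q
    rw [hcomm, S41.f_tCoc, ← map_mul, ← map_mul]
    congr 1
    group

end basechange

section trans

variable {G H K : Type*} [Group G] [Group H] [Group K]
  (f : K →* H) (hf : Function.Injective f) [f.range.FiniteIndex]
  (g : H →* G) (hg : Function.Injective g) [g.range.FiniteIndex]
  (A : Type*) [AddCommGroup A]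

include hg in
theorem k5c_trans_reps_bijective :
    Function.Bijective fun ab : (G ⧸ g.range) × (H ⧸ f.range) =>
      (QuotientGroup.mk (S41.tRep g ab.1 * g (S41.tRep f ab.2)) : G ⧸ (g.comp f).range) := by
  constructor
  · rintro ⟨a, b⟩ ⟨a', b'⟩ h
    simp only [] at h
    rw [QuotientGroup.eq] at h
    obtain ⟨k, hk⟩ := h
    have hk' : g (f k) = (S41.tRep g a * g (S41.tRep f b))⁻¹ * (S41.tRep g a' * g (S41.tRep f b')) :=
      hk
    -- first components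
    have h1 : (S41.tRep g a)⁻¹ * S41.tRep g a' ∈ g.range := by
      refine ⟨S41.tRep f b * f k * (S41.tRep f b')⁻¹, ?_⟩
      rw [map_mul, map_mul, map_inv, hk']; group
    have h2 : (QuotientGroup.mk (S41.tRep g a) : G ⧸ g.range) = QuotientGroup.mk (S41.tRep g a') :=
      QuotientGroup.eq.mpr h1
    rw [S41.tRep_mk, S41.tRep_mk] at h2
    subst h2
    have h3 : g (f k) = g ((S41.tRep f b)⁻¹ * S41.tRep f b') := by
      rw [hk', map_mul, map_inv]; group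
    have h4 := hg h3
    have h5 : (QuotientGroup.mk (S41.tRep f b) : H ⧸ f.range) = QuotientGroup.mk (S41.tRep f b') :=
      QuotientGroup.eq.mpr ⟨k, h4⟩
    rw [S41.tRep_mk, S41.tRep_mk] at h5
    rw [h5]
  · intro y
    obtain ⟨γ, rfl⟩ := QuotientGroup.mk_surjective y
    have h1 : (S41.tRep g (QuotientGroup.mk γ))⁻¹ * γ ∈ g.range :=
      QuotientGroup.eq.mp (S41.tRep_mk g (QuotientGroup.mk γ))
    obtain ⟨h, hh⟩ := h1
    have h2 : (S41.tRep f (QuotientGroup.mk h))⁻¹ * h ∈ f.range :=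
      QuotientGroup.eq.mp (S41.tRep_mk f (QuotientGroup.mk h))
    obtain ⟨k, hk⟩ := h2
    refine ⟨(QuotientGroup.mk γ, QuotientGroup.mk h), ?_⟩
    simp only []
    rw [QuotientGroup.eq]
    refine ⟨k, ?_⟩
    show g (f k) = _
    rw [hk, map_mul, map_inv, hh]; group

/-- **Transitivity of the transfer.** -/
theorem k5c_transfer_trans [(g.comp f).range.FiniteIndex] (ψ : Additive K →+ A) :
    S41.transferAlong A (g.comp f) (hg.comp hf) ψ
      = S41.transferAlong A g hg (S41.transferAlong A f hf ψ) := by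
  classical
  letI := f.range.fintypeQuotientOfFiniteIndex
  letI := g.range.fintypeQuotientOfFiniteIndex
  refine AddMonoidHom.ext fun x => ?_
  obtain ⟨x, rfl⟩ : ∃ x' : G, Additive.ofMul x' = x := ⟨Additive.toMul x, rfl⟩
  rw [S41.transferAlong_eq_sum_of_reps (g.comp f) (hg.comp hf) A
      (fun ab : (G ⧸ g.range) × (H ⧸ f.range) => S41.tRep g ab.1 * g (S41.tRep f ab.2))
      (k5c_trans_reps_bijective f g hg) x
      (fun ab => (x⁻¹ • ab.1, (S41.tCoc g hg ab.1 x)⁻¹ • ab.2))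
      (fun ab => S41.tCoc f hf ab.2 (S41.tCoc g hg ab.1 x)) ?_ ψ]
  · rw [S41.transferAlong_eq_sum g hg A, Fintype.sum_prod_type]
    refine Finset.sum_congr rfl fun a _ => ?_
    rw [S41.transferAlong_eq_sum f hf A]
  · rintro ⟨a, b⟩
    simp only [MonoidHom.comp_apply]
    rw [S41.f_tCoc, map_mul, map_mul, map_inv, S41.f_tCoc]
    group

end trans

end Fermat.Agent.RT.K5

namespace Fermat.Agent.RT.K5

section more

variable {G H K : Type*} [Group G] [Group H] [Group K]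

/-- the range of a composite of finite-index embeddings has finite index -/
theorem k5c_comp_finiteIndex (f : K →* H) [f.range.FiniteIndex]
    (g : H →* G) (hg : Function.Injective g) [g.range.FiniteIndex] :
    (g.comp f).range.FiniteIndex := by
  classical
  letI := f.range.fintypeQuotientOfFiniteIndex
  letI := g.range.fintypeQuotientOfFiniteIndex
  haveI : Finite (G ⧸ (g.comp f).range) :=
    Finite.of_surjective _ (k5c_trans_reps_bijective f g hg).2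
  exact Subgroup.finiteIndex_of_finite_quotient

theorem k5c_transfer_congr {A : Type*} [AddCommGroup A] {f f' : H →* G} (h : f = f')
    (hf : Function.Injective f) (hf' : Function.Injective f') [f.range.FiniteIndex]
    [f'.range.FiniteIndex] (ψ : Additive H →+ A) :
    S41.transferAlong A f hf ψ = S41.transferAlong A f' hf' ψ := by
  subst h
  rfl

/-- inner automorphisms act trivially on `Hom(Γ', A)` -/
theorem k5c_inner {A : Type*} [AddCommGroup A] {Γ' : Subgroup G} (φ : Additive Γ' →+ A)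
    (a b x : G) (hx : a⁻¹ * x * a ∈ Γ') (hx' : b⁻¹ * x * b ∈ Γ') (hab : a⁻¹ * b ∈ Γ') :
    φ (Additive.ofMul ⟨b⁻¹ * x * b, hx'⟩) = φ (Additive.ofMul ⟨a⁻¹ * x * a, hx⟩) := by
  have e : (⟨b⁻¹ * x * b, hx'⟩ : Γ') = (⟨a⁻¹ * b, hab⟩ : Γ')⁻¹ * ⟨a⁻¹ * x * a, hx⟩ * ⟨a⁻¹ * b, hab⟩ := by
    apply Subtype.ext
    show _ = (a⁻¹ * b)⁻¹ * (a⁻¹ * x * a) * (a⁻¹ * b)
    group
  rw [e, ofMul_mul, ofMul_mul, ofMul_inv, map_add, map_add, map_neg]
  abel

end more

end Fermat.Agent.RT.K5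

end
end ZBS41_005_6

/-! ### bundled: `Fermat.Agent.RT.K5.Comm` -/
section ZBS41_005_7

/-!
# RT-K5, piece C: `T_ℓ` commutes with `res`, `cores` (change of `H`) and with the diamonds

`Γ = Γ_H(L) ⊇ Γ' = Γ_{H'}(L)`, `K = Γ_H(L ℓ) ⊇ K' = Γ_{H'}(L ℓ)`.  Both squares
`(K' → K, Γ' → Γ)` over `conj_δ` and over the inclusion are cartesian with one double coset
(`stmtGen`), so the base change formula `k5c_transfer_basechange` applies.
-/

set_option autoImplicit false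
set_option linter.style.haveILetI false
set_option linter.unusedSectionVars false
set_option linter.unusedVariables false

noncomputable section

namespace Fermat.Agent.RT.K5

open CongruenceSubgroup Matrix
open scoped MatrixGroups
open Fermat.Agent.ES1 (gammaH diamHom pmH)

section squares

variable (L M ℓ : ℕ) [NeZero L] [NeZero ℓ] [hML : Fact (M ∣ L)] (H' H : Subgroup (ZMod M)ˣ)
  (hle : H' ≤ H)

/-- `Γ_{H'}(L) → Γ_H(L)` -/
def k5c_j : gammaH L M H' →* gammaH L M H :=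
  Subgroup.inclusion (Fermat.Agent.ES1.gammaH_mono hle)

theorem k5c_j_injective : Function.Injective (k5c_j L M H' H hle) :=
  Subgroup.inclusion_injective _

instance k5c_j_finiteIndex : (k5c_j L M H' H hle).range.FiniteIndex :=
  inclusion_range_finiteIndex L M (Fermat.Agent.ES1.gammaH_mono hle)

theorem k5c_entry_conjDH (z : gammaH (L * ℓ) M H) :
    ((z : SL(2, ℤ)) : Matrix (Fin 2) (Fin 2) ℤ) 0 0
      = (((conjDH L M ℓ H hML.out z : gammaH L M H) : SL(2, ℤ)) :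
          Matrix (Fin 2) (Fin 2) ℤ) 0 0 := by
  rw [conjDH_coe, S41.conjD_coe]
  simp [S41.conjDMat]

/-- every class of `Γ_H(L)` modulo `Γ_{H'}(L)` contains an element of `Γ(ℓ)` -/
theorem k5c_exists (hc : Nat.Coprime ℓ L) (γ : gammaH L M H) :
    ∃ x : gammaH L M H', ∃ g : SL(2, ℤ), g ∈ gammaH L M H ∧ g ∈ Gamma ℓ ∧
      ((x : SL(2, ℤ)))⁻¹ * (γ : SL(2, ℤ)) = g := by
  have hγM : (γ : SL(2, ℤ)) ∈ Gamma0 M := γ.2.2.1
  obtain ⟨g, hgL, hgM, hgd, hgN⟩ := stmtGen L M ℓ hc (diamHom M ⟨γ, hγM⟩)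
  have h1 : (g⁻¹)⁻¹ * (γ : SL(2, ℤ))⁻¹ ∈ gammaH L M H' := by
    refine k5e_inv_mul_mem H' (inv_mem hgL) (inv_mem hgM) (inv_mem γ.2.1) (inv_mem hγM) ?_
    rw [k5e_diam_inv _ hgM, k5e_diam_inv _ hγM, hgd]
  have h2 : (γ : SL(2, ℤ)) * g⁻¹ ∈ gammaH L M H' := by
    have : (γ : SL(2, ℤ)) * g⁻¹ = ((g⁻¹)⁻¹ * (γ : SL(2, ℤ))⁻¹)⁻¹ := by group
    rw [this]; exact inv_mem h1
  refine ⟨⟨_, h2⟩, g, ⟨hgL, hgM, ?_⟩, hgN, by group⟩
  rw [hgd]; exact γ.2.2.2

/-- the square over `conj_δ` -/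
theorem k5c_square_conj (hc : Nat.Coprime ℓ L) :
    (∀ k : gammaH (L * ℓ) M H', conjDH L M ℓ H hML.out
        (Subgroup.inclusion (Fermat.Agent.ES1.gammaH_mono hle) k)
        = k5c_j L M H' H hle (conjDH L M ℓ H' hML.out k)) ∧
    (∀ x : gammaH L M H', k5c_j L M H' H hle x ∈ (conjDH L M ℓ H hML.out).range →
        x ∈ (conjDH L M ℓ H' hML.out).range) ∧
    (∀ γ : gammaH L M H, ∃ x : gammaH L M H',
        (k5c_j L M H' H hle x)⁻¹ * γ ∈ (conjDH L M ℓ H hML.out).range) := by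
  refine ⟨fun k => Subtype.ext rfl, ?_, ?_⟩
  · rintro x ⟨z, hz⟩
    have he : ((conjDH L M ℓ H hML.out z : gammaH L M H) : SL(2, ℤ)) = (x : SL(2, ℤ)) :=
      congrArg (fun y : gammaH L M H => (y : SL(2, ℤ))) hz
    have hentry := k5c_entry_conjDH L M ℓ H z
    rw [he] at hentry
    have hmem : (z : SL(2, ℤ)) ∈ gammaH (L * ℓ) M H' := by
      refine ⟨z.2.1, z.2.2.1, ?_⟩
      rw [k5e_diam_eq_of_entry _ _ z.2.2.1 x.2.2.1 hentry]
      exact x.2.2.2
    refine ⟨⟨(z : SL(2, ℤ)), hmem⟩, ?_⟩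
    apply Subtype.ext
    rw [← he]
    rfl
  · intro γ
    obtain ⟨x, g, hgΓ, hgN, hxg⟩ := k5c_exists L M ℓ H' H hc γ
    obtain ⟨z, hz, hz00⟩ := k5e_exists_conjD_preimage L ℓ ⟨g, hgΓ.1⟩ (k5e_gamma_dvd ℓ hgN)
    have hzL : (z : SL(2, ℤ)) ∈ Gamma0 L := by
      apply S41.mem_Gamma0_of_dvd
      exact (Int.natCast_dvd_natCast.mpr (dvd_mul_right L ℓ)).trans (S41.dvd_of_mem_Gamma0 z.2)
    have hzM : (z : SL(2, ℤ)) ∈ Gamma0 M := k5i_mem_Gamma0M L M hzL
    have hmem : (z : SL(2, ℤ)) ∈ gammaH (L * ℓ) M H := by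
      refine ⟨z.2, hzM, ?_⟩
      rw [k5e_diam_eq_of_entry _ _ hzM hgΓ.2.1 hz00]
      exact hgΓ.2.2
    refine ⟨x, ⟨(z : SL(2, ℤ)), hmem⟩, ?_⟩
    apply Subtype.ext
    rw [conjDH_coe]
    have : (⟨(z : SL(2, ℤ)), hmem.1⟩ : Gamma0 (L * ℓ)) = z := rfl
    rw [this, hz]
    exact hxg.symm

/-- the square over the inclusion -/
theorem k5c_square_incl (hc : Nat.Coprime ℓ L) :
    (∀ k : gammaH (L * ℓ) M H', k5c_j L M H' H hle (inclH L M ℓ H' k)
        = inclH L M ℓ H (Subgroup.inclusion (Fermat.Agent.ES1.gammaH_mono hle) k)) ∧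
    (∀ x : gammaH (L * ℓ) M H, inclH L M ℓ H x ∈ (k5c_j L M H' H hle).range →
        x ∈ (Subgroup.inclusion (Fermat.Agent.ES1.gammaH_mono hle) :
          gammaH (L * ℓ) M H' →* gammaH (L * ℓ) M H).range) ∧
    (∀ γ : gammaH L M H, ∃ x : gammaH (L * ℓ) M H,
        (inclH L M ℓ H x)⁻¹ * γ ∈ (k5c_j L M H' H hle).range) := by
  refine ⟨fun k => Subtype.ext rfl, ?_, ?_⟩
  · rintro x ⟨y, hy⟩
    have he : (y : SL(2, ℤ)) = (x : SL(2, ℤ)) :=
      congrArg (fun y : gammaH L M H => (y : SL(2, ℤ))) hy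
    have hmem : (x : SL(2, ℤ)) ∈ gammaH (L * ℓ) M H' := by
      refine ⟨x.2.1, ?_⟩
      rw [← he]; exact y.2.2
    exact ⟨⟨(x : SL(2, ℤ)), hmem⟩, Subtype.ext rfl⟩
  · intro γ
    obtain ⟨x, g, hgΓ, hgN, hxg⟩ := k5c_exists L M ℓ H' H hc γ
    have hgK : g ∈ gammaH (L * ℓ) M H :=
      ⟨k5i_Gamma_mem_mul L ℓ hc hgΓ.1 hgN, hgΓ.2.1, hgΓ.2.2⟩
    -- `γ = x g`, so `g⁻¹ γ = g⁻¹ x g ∈ Γ'`
    have hmem : g⁻¹ * (γ : SL(2, ℤ)) ∈ gammaH L M H' := by
      have e : g⁻¹ * (γ : SL(2, ℤ)) = g⁻¹ * (x : SL(2, ℤ)) * g := by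
        rw [← hxg]; group
      rw [e]
      exact normalizes_gammaH hgΓ.1 hgΓ.2.1 _ x.2
    exact ⟨⟨g, hgK⟩, ⟨_, hmem⟩, Subtype.ext rfl⟩

end squares

section clauses

variable (L M ℓ : ℕ) [NeZero L] [NeZero ℓ] [hML : Fact (M ∣ L)] (H' H : Subgroup (ZMod M)ˣ)
  (hle : H' ≤ H) (A : Type) [AddCommGroup A]

/-- clause 1: `res` commutes with `T_ℓ` -/
theorem k5c_res_comm (hc : Nat.Coprime ℓ L) (φ : HomS (gammaH L M H) A) :
    resS A (Fermat.Agent.ES1.gammaH_mono hle) (tS L M ℓ H A φ) =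
      tS L M ℓ H' A (resS A (Fermat.Agent.ES1.gammaH_mono hle) φ) := by
  obtain ⟨h1, h2, h3⟩ := k5c_square_conj L M ℓ H' H hle hc
  exact k5c_transfer_basechange (conjDH L M ℓ H hML.out) (conjDH_injective L M ℓ H hML.out)
    (k5c_j L M H' H hle) (conjDH L M ℓ H' hML.out) (conjDH_injective L M ℓ H' hML.out)
    (Subgroup.inclusion (Fermat.Agent.ES1.gammaH_mono hle)) A h1 h2 h3
    (φ.comp (MonoidHom.toAdditive (inclH L M ℓ H)))

/-- clause 2: `cores` commutes with `T_ℓ` -/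
theorem k5c_cores_comm (hc : Nat.Coprime ℓ L) (ψ : HomS (gammaH L M H') A) :
    coresS A (Fermat.Agent.ES1.gammaH_mono hle) (tS L M ℓ H' A ψ) =
      tS L M ℓ H A (coresS A (Fermat.Agent.ES1.gammaH_mono hle) ψ) := by
  haveI : NeZero (L * ℓ) := inferInstance
  haveI : Fact (M ∣ L * ℓ) := ⟨hML.out.trans (dvd_mul_right L ℓ)⟩
  obtain ⟨h1, h2, h3⟩ := k5c_square_incl L M ℓ H' H hle hc
  let jK : gammaH (L * ℓ) M H' →* gammaH (L * ℓ) M H :=
    Subgroup.inclusion (Fermat.Agent.ES1.gammaH_mono hle)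
  have hjK : Function.Injective jK := Subgroup.inclusion_injective _
  haveI : jK.range.FiniteIndex :=
    inclusion_range_finiteIndex (L * ℓ) M (Fermat.Agent.ES1.gammaH_mono hle)
  -- Step A: base change over the inclusion
  have hA : (S41.transferAlong A (k5c_j L M H' H hle) (k5c_j_injective L M H' H hle) ψ).comp
      (MonoidHom.toAdditive (inclH L M ℓ H))
      = S41.transferAlong A jK hjK (ψ.comp (MonoidHom.toAdditive (inclH L M ℓ H'))) :=
    k5c_transfer_basechange (k5c_j L M H' H hle) (k5c_j_injective L M H' H hle)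
      (inclH L M ℓ H) jK hjK (inclH L M ℓ H') A h1 h2 h3 ψ
  haveI : ((conjDH L M ℓ H hML.out).comp jK).range.FiniteIndex :=
    k5c_comp_finiteIndex jK (conjDH L M ℓ H hML.out) (conjDH_injective L M ℓ H hML.out)
  haveI : ((k5c_j L M H' H hle).comp (conjDH L M ℓ H' hML.out)).range.FiniteIndex :=
    k5c_comp_finiteIndex (conjDH L M ℓ H' hML.out) (k5c_j L M H' H hle)
      (k5c_j_injective L M H' H hle)
  have hB := k5c_transfer_trans jK hjK (conjDH L M ℓ H hML.out)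
    (conjDH_injective L M ℓ H hML.out) A (ψ.comp (MonoidHom.toAdditive (inclH L M ℓ H')))
  have hC := k5c_transfer_trans (conjDH L M ℓ H' hML.out) (conjDH_injective L M ℓ H' hML.out)
    (k5c_j L M H' H hle) (k5c_j_injective L M H' H hle) A
    (ψ.comp (MonoidHom.toAdditive (inclH L M ℓ H')))
  have hD : (k5c_j L M H' H hle).comp (conjDH L M ℓ H' hML.out)
      = (conjDH L M ℓ H hML.out).comp jK := by
    ext k; rfl
  show S41.transferAlong A (k5c_j L M H' H hle) (k5c_j_injective L M H' H hle)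
      (S41.transferAlong A (conjDH L M ℓ H' hML.out) (conjDH_injective L M ℓ H' hML.out)
        (ψ.comp (MonoidHom.toAdditive (inclH L M ℓ H'))))
    = S41.transferAlong A (conjDH L M ℓ H hML.out) (conjDH_injective L M ℓ H hML.out)
      ((S41.transferAlong A (k5c_j L M H' H hle) (k5c_j_injective L M H' H hle) ψ).comp
        (MonoidHom.toAdditive (inclH L M ℓ H)))
  rw [hA, ← hB, ← hC]
  exact k5c_transfer_congr hD _ _ _

/-- the diamond action only depends on the diamond of `g` -/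
theorem k5c_diam_congr (g g' : SL(2, ℤ)) (hgL : g ∈ Gamma0 L) (hgM : g ∈ Gamma0 M)
    (hgL' : g' ∈ Gamma0 L) (hgM' : g' ∈ Gamma0 M)
    (hd : diamHom M ⟨g, hgM⟩ = diamHom M ⟨g', hgM'⟩) (ψ : HomS (gammaH L M H') A) :
    diamS H' A g hgL hgM ψ = diamS H' A g' hgL' hgM' ψ := by
  refine AddMonoidHom.ext fun γ => ?_
  obtain ⟨γ, rfl⟩ : ∃ γ' : gammaH L M H', Additive.ofMul γ' = γ := ⟨Additive.toMul γ, rfl⟩
  show ψ (Additive.ofMul ⟨g⁻¹ * γ * g, _⟩) = ψ (Additive.ofMul ⟨g'⁻¹ * γ * g', _⟩)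
  exact (k5c_inner ψ g g' (γ : SL(2, ℤ)) _ _ (k5e_inv_mul_mem H' hgL hgM hgL' hgM' hd)).symm

/-- conjugation by `g ∈ Γ₀(L) ∩ Γ₀(M)` as an automorphism of `Γ_{H'}(L)` -/
def k5c_conjEquiv (g : SL(2, ℤ)) (hgL : g ∈ Gamma0 L) (hgM : g ∈ Gamma0 M) :
    gammaH L M H' ≃* gammaH L M H' where
  toFun γ := ⟨g⁻¹ * γ * g, normalizes_gammaH hgL hgM γ γ.2⟩
  invFun γ := ⟨g * γ * g⁻¹, Fermat.Agent.ES1.conj_mem_gammaH hgL hgM γ.2⟩
  left_inv γ := by apply Subtype.ext; show g * (g⁻¹ * γ * g) * g⁻¹ = γ; group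
  right_inv γ := by apply Subtype.ext; show g⁻¹ * (g * γ * g⁻¹) * g = γ; group
  map_mul' a b := by
    apply Subtype.ext
    show g⁻¹ * (a * b) * g = (g⁻¹ * a * g) * (g⁻¹ * b * g)
    group

/-- clause 3 for `g ∈ Γ(ℓ)` -/
theorem k5c_diam_comm_of_Gamma (g : SL(2, ℤ)) (hgL : g ∈ Gamma0 L) (hgM : g ∈ Gamma0 M)
    (hgN : g ∈ Gamma ℓ) (ψ : HomS (gammaH L M H') A) :
    diamS H' A g hgL hgM (tS L M ℓ H' A ψ) = tS L M ℓ H' A (diamS H' A g hgL hgM ψ) := by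
  obtain ⟨z, hz, hz00⟩ := k5e_exists_conjD_preimage L ℓ ⟨g, hgL⟩ (k5e_gamma_dvd ℓ hgN)
  have hzL : (z : SL(2, ℤ)) ∈ Gamma0 L := by
    apply S41.mem_Gamma0_of_dvd
    exact (Int.natCast_dvd_natCast.mpr (dvd_mul_right L ℓ)).trans (S41.dvd_of_mem_Gamma0 z.2)
  have hzM : (z : SL(2, ℤ)) ∈ Gamma0 M := k5i_mem_Gamma0M L M hzL
  have hd : diamHom M ⟨g, hgM⟩ = diamHom M ⟨(z : SL(2, ℤ)), hzM⟩ :=
    (k5e_diam_eq_of_entry _ _ hzM hgM hz00).symm
  let aH : gammaH (L * ℓ) M H' →* gammaH (L * ℓ) M H' :=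
    conjHom (z : SL(2, ℤ)) (normalizes_gammaH z.2 hzM)
  have hsurj : Function.Surjective aH := by
    intro k
    refine ⟨⟨(z : SL(2, ℤ)) * k * (z : SL(2, ℤ))⁻¹,
      Fermat.Agent.ES1.conj_mem_gammaH z.2 hzM k.2⟩, ?_⟩
    apply Subtype.ext
    show (z : SL(2, ℤ))⁻¹ * ((z : SL(2, ℤ)) * k * (z : SL(2, ℤ))⁻¹) * (z : SL(2, ℤ)) = k
    group
  have hcomp : ∀ h : gammaH (L * ℓ) M H',
      k5c_conjEquiv L M H' g hgL hgM (conjDH L M ℓ H' hML.out h)
        = conjDH L M ℓ H' hML.out (aH h) := by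
    intro h
    apply Subtype.ext
    show g⁻¹ * ((conjDH L M ℓ H' hML.out h : gammaH L M H') : SL(2, ℤ)) * g
      = ((conjDH L M ℓ H' hML.out (aH h) : gammaH L M H') : SL(2, ℤ))
    rw [conjDH_coe, conjDH_coe]
    have e : (⟨((aH h : gammaH (L * ℓ) M H') : SL(2, ℤ)), (aH h).2.1⟩ : Gamma0 (L * ℓ))
        = z⁻¹ * ⟨(h : SL(2, ℤ)), h.2.1⟩ * z := rfl
    rw [e, map_mul, map_mul, map_inv, hz]
    rfl
  have hE := S41.transferAlong_equivariant (conjDH L M ℓ H' hML.out)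
    (conjDH_injective L M ℓ H' hML.out) A aH (k5c_conjEquiv L M H' g hgL hgM) hcomp hsurj
    (ψ.comp (MonoidHom.toAdditive (inclH L M ℓ H')))
  have hL : (ψ.comp (MonoidHom.toAdditive (inclH L M ℓ H'))).comp (MonoidHom.toAdditive aH)
      = (diamS H' A g hgL hgM ψ).comp (MonoidHom.toAdditive (inclH L M ℓ H')) := by
    refine AddMonoidHom.ext fun k => ?_
    obtain ⟨k, rfl⟩ : ∃ k' : gammaH (L * ℓ) M H', Additive.ofMul k' = k :=
      ⟨Additive.toMul k, rfl⟩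
    show ψ (Additive.ofMul ⟨(z : SL(2, ℤ))⁻¹ * k * (z : SL(2, ℤ)), _⟩)
      = ψ (Additive.ofMul ⟨g⁻¹ * k * g, _⟩)
    exact k5c_inner ψ g (z : SL(2, ℤ)) (k : SL(2, ℤ)) _ _
      (k5e_inv_mul_mem H' hgL hgM hzL hzM hd)
  show (S41.transferAlong A (conjDH L M ℓ H' hML.out) (conjDH_injective L M ℓ H' hML.out)
      (ψ.comp (MonoidHom.toAdditive (inclH L M ℓ H')))).comp
        (MonoidHom.toAdditive (conjHom g (normalizes_gammaH hgL hgM)))
    = S41.transferAlong A (conjDH L M ℓ H' hML.out) (conjDH_injective L M ℓ H' hML.out)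
      ((diamS H' A g hgL hgM ψ).comp (MonoidHom.toAdditive (inclH L M ℓ H')))
  rw [← hL, hE]
  rfl

end clauses

theorem stmtComm : StmtComm := by
  intro L M ℓ _ _ hML H' H hle A _ hℓ hℓL
  have hc : Nat.Coprime ℓ L := (Nat.Prime.coprime_iff_not_dvd hℓ).mpr hℓL
  refine ⟨k5c_res_comm L M ℓ H' H hle A hc, k5c_cores_comm L M ℓ H' H hle A hc, ?_⟩
  intro g hgL hgM ψ
  obtain ⟨g', hgL', hgM', hgd, hgN⟩ := stmtGen L M ℓ hc (diamHom M ⟨g, hgM⟩)
  rw [k5c_diam_congr L M H' A g g' hgL hgM hgL' hgM' hgd.symm,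
    k5c_diam_congr L M H' A g g' hgL hgM hgL' hgM' hgd.symm]
  exact k5c_diam_comm_of_Gamma L M ℓ H' A g' hgL' hgM' hgN ψ

theorem stmtE2 : StmtE2 := stmtE2_of stmtGen stmtComm stmtIdxRange

end Fermat.Agent.RT.K5

end
end ZBS41_005_7

/-! ### bundled: `Fermat.Agent.RT.K5.E1` -/
section ZBS41_005_8

/-!
# RT-K5, piece E1: the kernel of `res` is killed by `T_ℓ − (ℓ + 1)`

If `φ : Γ_H(L) → A` vanishes on `Γ_{H'}(L)` then `φ ∘ incl = φ ∘ conj_δ` on `Γ_H(L ℓ)` (the two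
elements have the same diamond), hence `T_ℓ φ = cores_δ (res_δ φ) = (ℓ + 1) φ`.
-/

set_option autoImplicit false
set_option linter.style.haveILetI false
set_option linter.unusedSectionVars false
set_option linter.unusedVariables false

noncomputable section

namespace Fermat.Agent.RT.K5

open CongruenceSubgroup Matrix
open scoped MatrixGroups
open Fermat.Agent.ES1 (gammaH diamHom pmH)

theorem stmtE1 : StmtE1 := by
  intro L M ℓ _ _ hML H' H hle A _ hℓ hℓL φ hφ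
  have hvan : ∀ (x : SL(2, ℤ)) (hx : x ∈ gammaH L M H'),
      φ (Additive.ofMul ⟨x, Fermat.Agent.ES1.gammaH_mono hle hx⟩) = 0 := by
    intro x hx
    have := congrArg (fun f : HomS (gammaH L M H') A => f (Additive.ofMul ⟨x, hx⟩)) hφ
    exact this
  have heq : resH L M ℓ H A φ = resDH L M ℓ H A φ := by
    refine AddMonoidHom.ext fun z => ?_
    obtain ⟨z, rfl⟩ : ∃ z' : gammaH (L * ℓ) M H, Additive.ofMul z' = z := ⟨Additive.toMul z, rfl⟩
    show φ (Additive.ofMul (inclH L M ℓ H z)) = φ (Additive.ofMul (conjDH L M ℓ H hML.out z))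
    -- the two elements differ by an element of `Γ_{H'}`
    have hzL : (z : SL(2, ℤ)) ∈ Gamma0 L := (inclH L M ℓ H z).2.1
    have hzM : (z : SL(2, ℤ)) ∈ Gamma0 M := z.2.2.1
    have hcL : ((conjDH L M ℓ H hML.out z : gammaH L M H) : SL(2, ℤ)) ∈ Gamma0 L :=
      (conjDH L M ℓ H hML.out z).2.1
    have hcM : ((conjDH L M ℓ H hML.out z : gammaH L M H) : SL(2, ℤ)) ∈ Gamma0 M :=
      (conjDH L M ℓ H hML.out z).2.2.1
    have hentry : ((z : SL(2, ℤ)) : Matrix (Fin 2) (Fin 2) ℤ) 0 0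
        = (((conjDH L M ℓ H hML.out z : gammaH L M H) : SL(2, ℤ)) :
            Matrix (Fin 2) (Fin 2) ℤ) 0 0 := by
      rw [conjDH_coe, S41.conjD_coe]
      simp [S41.conjDMat]
    have hd := k5e_diam_eq_of_entry _ _ hzM hcM hentry
    have hmem := k5e_inv_mul_mem H' hzL hzM hcL hcM hd
    have h0 := hvan _ hmem
    have e : (conjDH L M ℓ H hML.out z : gammaH L M H)
        = inclH L M ℓ H z * ⟨_, Fermat.Agent.ES1.gammaH_mono hle hmem⟩ := by
      apply Subtype.ext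
      show _ = (z : SL(2, ℤ)) * ((z : SL(2, ℤ))⁻¹ * _)
      rw [mul_inv_cancel_left]
    rw [e, ofMul_mul, map_add, h0, add_zero]
  show coresDH L M ℓ H A (resH L M ℓ H A φ) = _
  rw [heq]
  exact (stmtIdx L M ℓ H A hℓ hℓL φ).1

end Fermat.Agent.RT.K5

end
end ZBS41_005_8

/-! ### bundled: `Fermat.Agent.RT.K5.Step` -/
section ZBS41_005_9

/-!
# RT-K5, piece STEP: one cyclic step

`stmtStep_of : StmtCoresSurj → StmtStep` (from E1, E2, C, RC and Fitting).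
-/

set_option autoImplicit false
set_option linter.style.haveILetI false
set_option linter.unusedSectionVars false
set_option linter.unusedVariables false

noncomputable section

namespace Fermat.Agent.RT.K5

open CongruenceSubgroup Matrix
open scoped MatrixGroups
open Fermat.Agent.ES1 (gammaH diamHom pmH)

/-- `Hom(Γ, F)` is finite for `Γ` of finite index in `SL(2, ℤ)` and `F` finite -/
theorem k5s_finite_homS (Γ : Subgroup SL(2, ℤ)) [Γ.FiniteIndex] (F : Type*) [AddCommGroup F]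
    [Finite F] : Finite (HomS Γ F) := by
  haveI : Group.FG SL(2, ℤ) := by
    rw [Group.fg_iff]
    exact ⟨{ModularGroup.S, ModularGroup.T}, _root_.SpecialLinearGroup.SL2Z_generators,
      Set.toFinite _⟩
  haveI : Group.FG Γ := inferInstance
  obtain ⟨S, hS⟩ := Group.fg_def.1 (inferInstance : Group.FG Γ)
  have hinj : Function.Injective (fun (f : HomS Γ F) (s : S) => f (Additive.ofMul (s : Γ))) := by
    intro f g h
    have h1 : (AddMonoidHom.toMultiplicativeRight f : Γ →* Multiplicative F)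
        = AddMonoidHom.toMultiplicativeRight g := by
      refine MonoidHom.eq_of_eqOn_dense hS ?_
      intro x hx
      exact congrArg Multiplicative.ofAdd (congrFun h ⟨x, hx⟩)
    exact AddMonoidHom.toMultiplicativeRight.injective h1
  exact Finite.of_injective _ hinj

theorem k5s_ptors (p : ℕ) (Γ : Subgroup SL(2, ℤ)) (F : Type*) [Field F] [CharP F p]
    (φ : HomS Γ F) : p • φ = 0 := by
  refine AddMonoidHom.ext fun γ => ?_
  rw [AddMonoidHom.smul_apply, AddMonoidHom.zero_apply, nsmul_eq_mul, CharP.cast_eq_zero,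
    zero_mul]

section inv

variable {L M : ℕ} [NeZero L] [hML : Fact (M ∣ L)] {H' H : Subgroup (ZMod M)ˣ}
  {A : Type*} [AddCommGroup A]

/-- invariance under the generator implies invariance under `Γ` -/
theorem k5s_isInv_of_gen (g₀ : SL(2, ℤ)) (hg₀ : g₀ ∈ gammaH L M H)
    (hgen : ∀ γ ∈ gammaH L M H, ∃ k : ℕ, γ * g₀ ^ k ∈ gammaH L M H')
    (ψ : HomS (gammaH L M H') A) (hδ : diamS H' A g₀ hg₀.1 hg₀.2.1 ψ = ψ) : IsInv H' H ψ := by
  intro g hg
  obtain ⟨k, hk⟩ := hgen g hg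
  -- invariance under `g₀ ^ k`
  have hpow : ∀ i : ℕ, (((show AddMonoid.End (HomS (gammaH L M H') A) from
      diamS H' A g₀ hg₀.1 hg₀.2.1) ^ i : AddMonoid.End (HomS (gammaH L M H') A)) : _ →+ _) ψ
        = ψ := by
    intro i
    induction i with
    | zero => rfl
    | succ i ih =>
      rw [pow_succ]
      show (((show AddMonoid.End (HomS (gammaH L M H') A) from
        diamS H' A g₀ hg₀.1 hg₀.2.1) ^ i : AddMonoid.End (HomS (gammaH L M H') A)) : _ →+ _)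
          (diamS H' A g₀ hg₀.1 hg₀.2.1 ψ) = ψ
      rw [hδ, ih]
  refine AddMonoidHom.ext fun x => ?_
  obtain ⟨x, rfl⟩ : ∃ x' : gammaH L M H', Additive.ofMul x' = x := ⟨Additive.toMul x, rfl⟩
  show ψ (Additive.ofMul ⟨g⁻¹ * x * g, _⟩) = ψ (Additive.ofMul x)
  have hy : g⁻¹ * (x : SL(2, ℤ)) * g ∈ gammaH L M H' := normalizes_gammaH hg.1 hg.2.1 x x.2
  have hmem : (g₀ ^ k)⁻¹ * (g⁻¹ * (x : SL(2, ℤ)) * g) * g₀ ^ k ∈ gammaH L M H' := by
    have := Fermat.Agent.ES1.conj_mem_gammaH (H := H') (inv_mem (pow_mem hg₀.1 k))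
      (inv_mem (pow_mem hg₀.2.1 k)) hy
    simpa using this
  have h1 := k5rc_diam_pow (H' := H') g₀ hg₀.1 hg₀.2.1 k ψ ⟨_, hy⟩ hmem
  rw [hpow k] at h1
  show ψ (Additive.ofMul ⟨g⁻¹ * x * g, hy⟩) = _
  rw [h1]
  -- `(g₀ᵏ)⁻¹ (g⁻¹ x g) g₀ᵏ = (g g₀ᵏ)⁻¹ x (g g₀ᵏ)`
  have hx1 : (1 : SL(2, ℤ))⁻¹ * (x : SL(2, ℤ)) * 1 ∈ gammaH L M H' := by simp
  have hx2 : (g * g₀ ^ k)⁻¹ * (x : SL(2, ℤ)) * (g * g₀ ^ k) ∈ gammaH L M H' := by
    have e : (g * g₀ ^ k)⁻¹ * (x : SL(2, ℤ)) * (g * g₀ ^ k)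
        = (g₀ ^ k)⁻¹ * (g⁻¹ * (x : SL(2, ℤ)) * g) * g₀ ^ k := by group
    rw [e]; exact hmem
  have h2 := k5c_inner ψ (1 : SL(2, ℤ)) (g * g₀ ^ k) (x : SL(2, ℤ)) hx1 hx2 (by simpa using hk)
  have e1 : (⟨(g₀ ^ k)⁻¹ * (g⁻¹ * (x : SL(2, ℤ)) * g) * g₀ ^ k, hmem⟩ : gammaH L M H')
      = ⟨(g * g₀ ^ k)⁻¹ * (x : SL(2, ℤ)) * (g * g₀ ^ k), hx2⟩ := by
    apply Subtype.ext
    show (g₀ ^ k)⁻¹ * (g⁻¹ * (x : SL(2, ℤ)) * g) * g₀ ^ k = _
    group
  have e2 : (⟨(1 : SL(2, ℤ))⁻¹ * (x : SL(2, ℤ)) * 1, hx1⟩ : gammaH L M H') = x := by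
    apply Subtype.ext
    show (1 : SL(2, ℤ))⁻¹ * (x : SL(2, ℤ)) * 1 = x
    simp
  rw [e1, h2, e2]

end inv

theorem stmtStep_of (hS : StmtCoresSurj) : StmtStep := by
  intro p _ L M ℓ₀ _ _ hML H' H hle F _ _ _ hp2 hℓ hℓL hNT k g₀ hg₀ hgen hord
  haveI : Finite (HomS (gammaH L M H) F) := k5s_finite_homS _ F
  haveI : Finite (HomS (gammaH L M H') F) := k5s_finite_homS _ F
  have hΓle : gammaH L M H' ≤ gammaH L M H := Fermat.Agent.ES1.gammaH_mono hle
  obtain ⟨c1, c2, c3⟩ := stmtComm L M ℓ₀ H' H hle F hℓ hℓL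
  have hpk : 0 < p ^ k := pow_pos (Fact.out : p.Prime).pos k
  obtain ⟨r1, r2⟩ := stmtResCores L M H' H hle F (p ^ k) g₀ hg₀ hgen hord hpk
  have key : (∀ φ ∈ etaPart (etaS L M ℓ₀ H F), resS F hΓle φ ∈ etaPart (etaS L M ℓ₀ H' F) ∧
        (resS F hΓle φ = 0 → φ = 0)) ∧
      (∀ ψ ∈ etaPart (etaS L M ℓ₀ H' F), diamS H' F g₀ hg₀.1 hg₀.2.1 ψ = ψ →
        (∃ φ ∈ etaPart (etaS L M ℓ₀ H F), resS F hΓle φ = ψ) ∧
        ∃ v ∈ etaPart (etaS L M ℓ₀ H' F), ψ = (∑ i ∈ Finset.range (p ^ k),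
          (((show AddMonoid.End (HomS (gammaH L M H') F) from diamS H' F g₀ hg₀.1 hg₀.2.1) ^ i :
            AddMonoid.End (HomS (gammaH L M H') F)) : _ →+ _)) v) := by
    refine k5s_step_abs p (k5s_ptors p _ F) (k5s_ptors p _ F) (etaS L M ℓ₀ H F)
      (etaS L M ℓ₀ H' F) (resS F hΓle) (coresS F hΓle) (diamS H' F g₀ hg₀.1 hg₀.2.1)
      (∑ i ∈ Finset.range (p ^ k),
        (((show AddMonoid.End (HomS (gammaH L M H') F) from diamS H' F g₀ hg₀.1 hg₀.2.1) ^ i :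
          AddMonoid.End (HomS (gammaH L M H') F)) : _ →+ _)) ?_ ?_ ?_ ?_ ?_ ?_
    · intro φ
      show resS F hΓle (tS L M ℓ₀ H F φ - (ℓ₀ + 1) • φ) = tS L M ℓ₀ H' F (resS F hΓle φ)
        - (ℓ₀ + 1) • resS F hΓle φ
      rw [map_sub, map_nsmul, c1]
    · intro ψ
      show coresS F hΓle (tS L M ℓ₀ H' F ψ - (ℓ₀ + 1) • ψ) = tS L M ℓ₀ H F (coresS F hΓle ψ)
        - (ℓ₀ + 1) • coresS F hΓle ψ
      rw [map_sub, map_nsmul, c2]
    · intro φ h0
      show tS L M ℓ₀ H F φ - (ℓ₀ + 1) • φ = 0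
      rw [stmtE1 L M ℓ₀ H' H hle F hℓ hℓL φ h0, sub_self]
    · intro ψ hδ
      rcases Nat.eq_zero_or_pos k with hk0 | hkpos
      · -- `Γ = Γ'`
        subst hk0
        have hg1 : g₀ ∈ gammaH L M H' := by
          have := (hord 1).mpr (by simp)
          simpa using this
        have hΓ' : gammaH L M H ≤ gammaH L M H' := by
          intro γ hγ
          obtain ⟨j, hj⟩ := hgen γ hγ
          have : γ = γ * g₀ ^ j * (g₀ ^ j)⁻¹ := by group
          rw [this]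
          exact mul_mem hj (inv_mem (pow_mem hg1 j))
        refine ⟨(etaS L M ℓ₀ H' F ψ).comp (MonoidHom.toAdditive (Subgroup.inclusion hΓ')), ?_⟩
        refine AddMonoidHom.ext fun x => ?_
        obtain ⟨x, rfl⟩ : ∃ x' : gammaH L M H', Additive.ofMul x' = x := ⟨Additive.toMul x, rfl⟩
        rfl
      · have hmA : ∀ a : F, (p ^ k) • a = 0 := by
          intro a
          rw [nsmul_eq_mul]
          have : ((p ^ k : ℕ) : F) = 0 := by
            rw [Nat.cast_pow, CharP.cast_eq_zero, zero_pow (Nat.pos_iff_ne_zero.mp hkpos)]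
          rw [this, zero_mul]
        have hinv : IsInv H' H ψ := k5s_isInv_of_gen g₀ hg₀ hgen ψ hδ
        exact stmtE2 L M ℓ₀ H' H hle F hℓ hℓL (p ^ k) g₀ hg₀ hgen hord hpk hmA ψ hinv
    · intro φ
      exact hS L M H' H hle F hNT φ
    · intro ψ
      rw [r1 ψ, AddMonoidHom.finsetSum_apply]
      rfl
  obtain ⟨ha, hb⟩ := key
  refine ⟨ha, fun ψ hψ hδ => ?_⟩
  obtain ⟨h1, v, hv, hve⟩ := hb ψ hψ hδ
  exact ⟨h1, v, hv, hve.trans (AddMonoidHom.finsetSum_apply _ _ _)⟩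

end Fermat.Agent.RT.K5

end
end ZBS41_005_9

/-! ### bundled: `Fermat.Agent.RT.K5.CommT` -/
section ZBS41_005_10

/-!
# RT-K5, piece CC (helper40): the Hecke operators commute, `stmtCommT : StmtCommT`

`T_ℓ T_ℓ' = cores_{δ δ'} ∘ res` to level `L ℓ ℓ'` (`k5cc_tS_tS`): base change
(`k5c_transfer_basechange`) in the square
`(Γ_H(L ℓ ℓ') → Γ_H(L ℓ), Γ_H(L ℓ') → Γ_H(L))` over `conj_δ'` / the inclusions, which is cartesian
with one double coset (`k5cc_square`: `Γ_H(L) = Γ₁(L ℓ) · δ' Γ_H(L ℓ') δ'⁻¹`, by `k5cc_arith`),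
then transitivity of the transfer.  The right hand side is symmetric in `ℓ, ℓ'` (`k5cc_congr`).
-/

set_option autoImplicit false
set_option linter.style.haveILetI false
set_option linter.unusedSectionVars false
set_option linter.unusedVariables false

noncomputable section

namespace Fermat.Agent.RT.K5

open CongruenceSubgroup Matrix
open scoped MatrixGroups
open Fermat.Agent.ES1 (gammaH diamHom pmH)

/-- arithmetic core of the double coset decomposition -/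
theorem k5cc_arith (N : ℕ) {r : ℕ} (hr : r.Prime) (hN : ¬ r ∣ N) (a b c d : ℤ)
    (hdet : a * d - b * c = 1) :
    ∃ s t : ℤ, (r : ℤ) ∣ (1 + N * s * t) * b - t * d := by
  have hrp : Prime (r : ℤ) := Nat.prime_iff_prime_int.mp hr
  have key : ∃ s : ℤ, ¬ (r : ℤ) ∣ d - N * s * b := by
    by_cases hd : (r : ℤ) ∣ d
    · refine ⟨1, fun h => ?_⟩
      have h1 : (r : ℤ) ∣ (N : ℤ) * b := by
        have : (N : ℤ) * b = d - (d - N * 1 * b) := by ring
        rw [this]; exact dvd_sub hd h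
      rcases hrp.dvd_or_dvd h1 with h2 | h2
      · exact hN (Int.natCast_dvd_natCast.mp h2)
      · have h3 : (r : ℤ) ∣ a * d - b * c := dvd_sub (hd.mul_left a) (h2.mul_right c)
        rw [hdet] at h3
        exact hrp.not_dvd_one h3
    · exact ⟨0, by simpa using hd⟩
  obtain ⟨s, hs⟩ := key
  have hcop : IsCoprime (r : ℤ) (d - N * s * b) := (Prime.coprime_iff_not_dvd hrp).mpr hs
  obtain ⟨u, v, huv⟩ := hcop
  refine ⟨s, b * v, ⟨b * u, ?_⟩⟩
  linear_combination (-b) * huv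

/-- the matrix `[[1, t], [N s, 1 + N s t]] ∈ Γ₁(N)` -/
def k5ccX (N : ℕ) (s t : ℤ) : SL(2, ℤ) :=
  ⟨!![1, t; (N : ℤ) * s, 1 + (N : ℤ) * s * t], by rw [Matrix.det_fin_two_of]; ring⟩

theorem k5ccX_mem (N M : ℕ) (hMN : M ∣ N) (H : Subgroup (ZMod M)ˣ) (s t : ℤ) :
    k5ccX N s t ∈ gammaH N M H := by
  have h10 : (k5ccX N s t) 1 0 = (N : ℤ) * s := by simp [k5ccX]
  have h00 : (k5ccX N s t) 0 0 = 1 := by simp [k5ccX]
  have hN : k5ccX N s t ∈ Gamma0 N := by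
    apply S41.mem_Gamma0_of_dvd
    rw [h10]; exact dvd_mul_right _ _
  have hM : k5ccX N s t ∈ Gamma0 M := by
    apply S41.mem_Gamma0_of_dvd
    rw [h10]; exact (Int.natCast_dvd_natCast.mpr hMN).mul_right _
  refine ⟨hN, hM, ?_⟩
  have : diamHom M ⟨k5ccX N s t, hM⟩ = 1 := by
    ext
    rw [Fermat.Agent.ES1.coe_diamHom, h00]
    simp
  rw [this]; exact one_mem _

theorem k5ccX_inv_mul_01 (N : ℕ) (s t : ℤ) (γ : SL(2, ℤ)) :
    (((k5ccX N s t)⁻¹ * γ : SL(2, ℤ)) : Matrix (Fin 2) (Fin 2) ℤ) 0 1 =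
      (1 + N * s * t) * γ 0 1 - t * γ 1 1 := by
  rw [Matrix.SpecialLinearGroup.coe_mul, Matrix.SpecialLinearGroup.coe_inv,
    Matrix.adjugate_fin_two, Matrix.mul_apply, Fin.sum_univ_two]
  simp [k5ccX]
  ring

section square

variable (L M ℓ ℓ' : ℕ) [NeZero L] [NeZero ℓ] [NeZero ℓ'] [hML : Fact (M ∣ L)]
  (H : Subgroup (ZMod M)ˣ)

theorem k5cc_dvd_mul : M ∣ L * ℓ := hML.out.trans (dvd_mul_right L ℓ)

/-- the inclusion `Γ_H(L ℓ ℓ') → Γ_H(L ℓ')` -/
def k5ccJK : gammaH (L * ℓ * ℓ') M H →* gammaH (L * ℓ') M H :=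
  Subgroup.inclusion (Fermat.Agent.ES1.gammaH_mono_level
    (show L * ℓ' ∣ L * ℓ * ℓ' from ⟨ℓ, by ring⟩) M H)

/-- `conj_δ'` at level `L ℓ` -/
def k5ccF' : gammaH (L * ℓ * ℓ') M H →* gammaH (L * ℓ) M H :=
  conjDH (L * ℓ) M ℓ' H (k5cc_dvd_mul L M ℓ)

theorem k5ccF'_injective : Function.Injective (k5ccF' L M ℓ ℓ' H) :=
  conjDH_injective (L * ℓ) M ℓ' H (k5cc_dvd_mul L M ℓ)

instance k5ccF'_finiteIndex : (k5ccF' L M ℓ ℓ' H).range.FiniteIndex :=
  haveI : Fact (M ∣ L * ℓ) := ⟨k5cc_dvd_mul L M ℓ⟩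
  conjDH_range_finiteIndex (L * ℓ) M ℓ' H

theorem k5cc_square (hℓ : ℓ.Prime) (hℓ' : ℓ'.Prime) (hne : ℓ ≠ ℓ') (hℓ'L : ¬ ℓ' ∣ L) :
    (∀ k : gammaH (L * ℓ * ℓ') M H, conjDH L M ℓ' H hML.out (k5ccJK L M ℓ ℓ' H k)
        = inclH L M ℓ H (k5ccF' L M ℓ ℓ' H k)) ∧
    (∀ x : gammaH (L * ℓ) M H, inclH L M ℓ H x ∈ (conjDH L M ℓ' H hML.out).range →
        x ∈ (k5ccF' L M ℓ ℓ' H).range) ∧
    (∀ γ : gammaH L M H, ∃ x : gammaH (L * ℓ) M H,
        (inclH L M ℓ H x)⁻¹ * γ ∈ (conjDH L M ℓ' H hML.out).range) := by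
  have hℓ'0 : (ℓ' : ℤ) ≠ 0 := by exact_mod_cast NeZero.ne ℓ'
  refine ⟨fun k => Subtype.ext rfl, ?_, ?_⟩
  · rintro x ⟨z, hz⟩
    have he : ((conjDH L M ℓ' H hML.out z : gammaH L M H) : SL(2, ℤ)) = (x : SL(2, ℤ)) :=
      congrArg (fun y : gammaH L M H => (y : SL(2, ℤ))) hz
    have he10 : ((x : SL(2, ℤ)) : Matrix (Fin 2) (Fin 2) ℤ) 1 0 =
        ((z : SL(2, ℤ)) : Matrix (Fin 2) (Fin 2) ℤ) 1 0 / ℓ' := by
      rw [← he, conjDH_coe, S41.conjD_coe]
      simp [S41.conjDMat]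
    obtain ⟨c, hc⟩ : (ℓ' : ℤ) ∣ ((z : SL(2, ℤ)) : Matrix (Fin 2) (Fin 2) ℤ) 1 0 := by
      have h1 := S41.dvd_of_mem_Gamma0 z.2.1
      exact (Dvd.intro_left _ (by push_cast; rfl)).trans h1
    rw [hc, Int.mul_ediv_cancel_left _ hℓ'0] at he10
    obtain ⟨c', hc'⟩ := S41.dvd_of_mem_Gamma0 x.2.1
    have hmem : (z : SL(2, ℤ)) ∈ gammaH (L * ℓ * ℓ') M H := by
      refine ⟨?_, z.2.2⟩
      apply S41.mem_Gamma0_of_dvd
      rw [hc, ← he10, hc']
      exact ⟨c', by push_cast; ring⟩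
    refine ⟨⟨(z : SL(2, ℤ)), hmem⟩, ?_⟩
    apply Subtype.ext
    rw [← he]
    rfl
  · intro γ
    have hnd : ¬ ℓ' ∣ L * ℓ := fun h => by
      rcases (Nat.Prime.dvd_mul hℓ').mp h with h1 | h1
      · exact hℓ'L h1
      · exact hne ((Nat.prime_dvd_prime_iff_eq hℓ' hℓ).mp h1).symm
    have hdet : ((γ : SL(2, ℤ)) : Matrix (Fin 2) (Fin 2) ℤ) 0 0 * (γ : SL(2, ℤ)) 1 1
        - (γ : SL(2, ℤ)) 0 1 * (γ : SL(2, ℤ)) 1 0 = 1 := by
      have := (γ : SL(2, ℤ)).2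
      rw [Matrix.det_fin_two] at this
      exact this
    obtain ⟨s, t, hst⟩ := k5cc_arith (L * ℓ) hℓ' hnd _ _ _ _ hdet
    have hxK : k5ccX (L * ℓ) s t ∈ gammaH (L * ℓ) M H :=
      k5ccX_mem (L * ℓ) M (k5cc_dvd_mul L M ℓ) H s t
    have hxΓ : k5ccX (L * ℓ) s t ∈ gammaH L M H := gammaH_mul_le L M ℓ H hxK
    have hg : (k5ccX (L * ℓ) s t)⁻¹ * (γ : SL(2, ℤ)) ∈ gammaH L M H :=
      mul_mem (inv_mem hxΓ) γ.2
    have h01 : (ℓ' : ℤ) ∣ (((k5ccX (L * ℓ) s t)⁻¹ * (γ : SL(2, ℤ)) : SL(2, ℤ)) :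
        Matrix (Fin 2) (Fin 2) ℤ) 0 1 := by
      rw [k5ccX_inv_mul_01]
      exact hst
    obtain ⟨z, hz, hz00⟩ := k5e_exists_conjD_preimage L ℓ' ⟨_, hg.1⟩ h01
    have hzL : (z : SL(2, ℤ)) ∈ Gamma0 L := by
      apply S41.mem_Gamma0_of_dvd
      exact (Int.natCast_dvd_natCast.mpr (dvd_mul_right L ℓ')).trans (S41.dvd_of_mem_Gamma0 z.2)
    have hzM : (z : SL(2, ℤ)) ∈ Gamma0 M := k5i_mem_Gamma0M L M hzL
    have hmem : (z : SL(2, ℤ)) ∈ gammaH (L * ℓ') M H := by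
      refine ⟨z.2, hzM, ?_⟩
      rw [k5e_diam_eq_of_entry _ _ hzM hg.2.1 hz00]
      exact hg.2.2
    refine ⟨⟨_, hxK⟩, ⟨(z : SL(2, ℤ)), hmem⟩, ?_⟩
    apply Subtype.ext
    rw [conjDH_coe]
    have : (⟨(z : SL(2, ℤ)), hmem.1⟩ : Gamma0 (L * ℓ')) = z := rfl
    rw [this, hz]
    rfl

end square

section assembly

variable (L M ℓ ℓ' : ℕ) [NeZero L] [NeZero ℓ] [NeZero ℓ'] [hML : Fact (M ∣ L)]
  (H : Subgroup (ZMod M)ˣ) (A : Type) [AddCommGroup A]

/-- the composite `conj_δ ∘ conj_δ' : Γ_H(L ℓ ℓ') → Γ_H(L)` -/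
def k5ccF : gammaH (L * ℓ * ℓ') M H →* gammaH L M H :=
  (conjDH L M ℓ H hML.out).comp (k5ccF' L M ℓ ℓ' H)

theorem k5ccF_injective : Function.Injective (k5ccF L M ℓ ℓ' H) :=
  (conjDH_injective L M ℓ H hML.out).comp (k5ccF'_injective L M ℓ ℓ' H)

instance k5ccF_finiteIndex : (k5ccF L M ℓ ℓ' H).range.FiniteIndex :=
  k5c_comp_finiteIndex (k5ccF' L M ℓ ℓ' H) (conjDH L M ℓ H hML.out)
    (conjDH_injective L M ℓ H hML.out)

/-- the inclusion `Γ_H(L ℓ ℓ') → Γ_H(L)` -/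
def k5ccI : gammaH (L * ℓ * ℓ') M H →* gammaH L M H :=
  Subgroup.inclusion (Fermat.Agent.ES1.gammaH_mono_level
    (show L ∣ L * ℓ * ℓ' from ⟨ℓ * ℓ', by ring⟩) M H)

/-- `T_ℓ T_ℓ' = cores_{δ δ'} ∘ res` -/
theorem k5cc_tS_tS (hℓ : ℓ.Prime) (hℓ' : ℓ'.Prime) (hne : ℓ ≠ ℓ') (hℓ'L : ¬ ℓ' ∣ L)
    (φ : HomS (gammaH L M H) A) :
    tS L M ℓ H A (tS L M ℓ' H A φ) =
      S41.transferAlong A (k5ccF L M ℓ ℓ' H) (k5ccF_injective L M ℓ ℓ' H)
        (φ.comp (MonoidHom.toAdditive (k5ccI L M ℓ ℓ' H))) := by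
  obtain ⟨h1, h2, h3⟩ := k5cc_square L M ℓ ℓ' H hℓ hℓ' hne hℓ'L
  have hA := k5c_transfer_basechange (conjDH L M ℓ' H hML.out)
    (conjDH_injective L M ℓ' H hML.out) (inclH L M ℓ H) (k5ccF' L M ℓ ℓ' H)
    (k5ccF'_injective L M ℓ ℓ' H) (k5ccJK L M ℓ ℓ' H) A h1 h2 h3
    (φ.comp (MonoidHom.toAdditive (inclH L M ℓ' H)))
  haveI : ((conjDH L M ℓ H hML.out).comp (k5ccF' L M ℓ ℓ' H)).range.FiniteIndex :=
    k5ccF_finiteIndex L M ℓ ℓ' H
  have hB := k5c_transfer_trans (k5ccF' L M ℓ ℓ' H) (k5ccF'_injective L M ℓ ℓ' H)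
    (conjDH L M ℓ H hML.out) (conjDH_injective L M ℓ H hML.out) A
    ((φ.comp (MonoidHom.toAdditive (inclH L M ℓ' H))).comp
      (MonoidHom.toAdditive (k5ccJK L M ℓ ℓ' H)))
  show S41.transferAlong A (conjDH L M ℓ H hML.out) (conjDH_injective L M ℓ H hML.out)
      ((S41.transferAlong A (conjDH L M ℓ' H hML.out) (conjDH_injective L M ℓ' H hML.out)
        (φ.comp (MonoidHom.toAdditive (inclH L M ℓ' H)))).comp
          (MonoidHom.toAdditive (inclH L M ℓ H))) = _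
  rw [hA, ← hB]
  rfl

end assembly

theorem k5cc_congr {G : Type*} [Group G] (M : ℕ) (H : Subgroup (ZMod M)ˣ) (A : Type*)
    [AddCommGroup A] {n₁ n₂ : ℕ} (h : n₁ = n₂)
    (F₁ : gammaH n₁ M H →* G) (F₂ : gammaH n₂ M H →* G) (hF₁ : Function.Injective F₁)
    (hF₂ : Function.Injective F₂) [F₁.range.FiniteIndex] [F₂.range.FiniteIndex]
    (ψ₁ : Additive (gammaH n₁ M H) →+ A) (ψ₂ : Additive (gammaH n₂ M H) →+ A)
    (hF : ∀ (k₁ : gammaH n₁ M H) (k₂ : gammaH n₂ M H),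
      (k₁ : SL(2, ℤ)) = (k₂ : SL(2, ℤ)) → F₁ k₁ = F₂ k₂)
    (hψ : ∀ (k₁ : gammaH n₁ M H) (k₂ : gammaH n₂ M H),
      (k₁ : SL(2, ℤ)) = (k₂ : SL(2, ℤ)) → ψ₁ (Additive.ofMul k₁) = ψ₂ (Additive.ofMul k₂)) :
    S41.transferAlong A F₁ hF₁ ψ₁ = S41.transferAlong A F₂ hF₂ ψ₂ := by
  subst h
  have e1 : F₁ = F₂ := MonoidHom.ext fun k => hF k k rfl
  have e2 : ψ₁ = ψ₂ :=
    AddMonoidHom.ext fun k => hψ (Additive.toMul k) (Additive.toMul k) rfl
  subst e1 e2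
  rfl

/-- **K5-CC** -/
theorem stmtCommT : StmtCommT := by
  intro L M ℓ ℓ' _ _ _ hML H A _ hℓ hℓ' hℓL hℓ'L φ
  by_cases hne : ℓ = ℓ'
  · subst hne
    rfl
  · rw [k5cc_tS_tS L M ℓ ℓ' H A hℓ hℓ' hne hℓ'L φ,
      k5cc_tS_tS L M ℓ' ℓ H A hℓ' hℓ (Ne.symm hne) hℓL φ]
    have hℓ0 : (ℓ : ℤ) ≠ 0 := by exact_mod_cast hℓ.ne_zero
    have hℓ'0 : (ℓ' : ℤ) ≠ 0 := by exact_mod_cast hℓ'.ne_zero
    refine k5cc_congr M H A (show L * ℓ * ℓ' = L * ℓ' * ℓ by ring) _ _ _ _ _ _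
      (fun k₁ k₂ hk => ?_) (fun k₁ k₂ hk => ?_)
    · apply Subtype.ext
      apply Subtype.ext
      show S41.conjDMat ℓ (S41.conjDMat ℓ' ((k₁ : SL(2, ℤ)) : Matrix (Fin 2) (Fin 2) ℤ)) =
        S41.conjDMat ℓ' (S41.conjDMat ℓ ((k₂ : SL(2, ℤ)) : Matrix (Fin 2) (Fin 2) ℤ))
      rw [hk]
      ext i j
      fin_cases i <;> fin_cases j
      · simp [S41.conjDMat]
      · simp only [S41.conjDMat, Matrix.of_apply, Matrix.cons_val_zero, Matrix.cons_val_one,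
          Fin.zero_eta, Fin.mk_one]
        ring
      · simp only [S41.conjDMat, Matrix.of_apply, Matrix.cons_val_zero, Matrix.cons_val_one,
          Fin.zero_eta, Fin.mk_one]
        rw [Int.ediv_ediv_of_nonneg (Int.natCast_nonneg ℓ'),
          Int.ediv_ediv_of_nonneg (Int.natCast_nonneg ℓ), mul_comm (ℓ' : ℤ) (ℓ : ℤ)]
      · simp [S41.conjDMat]
    · show φ (Additive.ofMul (k5ccI L M ℓ ℓ' H k₁)) = φ (Additive.ofMul (k5ccI L M ℓ' ℓ H k₂))
      congr 2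
      exact Subtype.ext hk

end Fermat.Agent.RT.K5

end
end ZBS41_005_10

/-! ### bundled: `Fermat.Agent.RT.K5.Top` -/
section ZBS41_005_11
/-
# RT / K5-TOP (helper56)

`stmtTop : StmtTop`: for `H = ⊤` the operator `tS` is `S41.Tc` under `gammaH L M ⊤ = Γ₀(L)`
(`S41.stmtC2`: `coresD ∘ res = Tc`; the transfer is transported along the equality of subgroups).
-/

set_option autoImplicit false

noncomputable section

namespace Fermat.Agent.RT.K5

open CongruenceSubgroup Matrix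
open scoped MatrixGroups
open Fermat.Agent.ES1 (gammaH diamHom pmH)

/-- the transfer does not see the name of a subgroup of `SL(2, ℤ)` -/
theorem k5top_aux {A : Type*} [AddCommGroup A] (Γ₁ Γ₂ Δ₁ Δ₂ : Subgroup SL(2, ℤ))
    (h₁ : Γ₁ = Δ₁) (h₂ : Γ₂ = Δ₂)
    (f : Γ₁ →* Γ₂) (g : Δ₁ →* Δ₂) (hf : Function.Injective f) (hg : Function.Injective g)
    [f.range.FiniteIndex] [g.range.FiniteIndex]
    (e₁ : Γ₁ ≃* Δ₁) (he₁ : ∀ γ, ((e₁ γ : Δ₁) : SL(2, ℤ)) = γ)
    (e₂ : Γ₂ ≃* Δ₂) (he₂ : ∀ γ, ((e₂ γ : Δ₂) : SL(2, ℤ)) = γ)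
    (hfg : ∀ γ : Γ₁, ((f γ : Γ₂) : SL(2, ℤ)) = ((g (e₁ γ) : Δ₂) : SL(2, ℤ)))
    (ψ : Additive Δ₁ →+ A) :
    S41.transferAlong A f hf (ψ.comp (MonoidHom.toAdditive e₁.toMonoidHom)) =
      (S41.transferAlong A g hg ψ).comp (MonoidHom.toAdditive e₂.toMonoidHom) := by
  subst h₁
  subst h₂
  obtain rfl : e₁ = MulEquiv.refl _ := by
    apply MulEquiv.ext
    intro γ
    exact Subtype.ext (he₁ γ)
  obtain rfl : e₂ = MulEquiv.refl _ := by
    apply MulEquiv.ext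
    intro γ
    exact Subtype.ext (he₂ γ)
  obtain rfl : f = g := by
    apply MonoidHom.ext
    intro γ
    exact Subtype.ext (hfg γ)
  rfl

/-- **K5-TOP.** -/
theorem stmtTop : StmtTop := by
  intro L M ℓ _ _ hML _ hℓ A _ e he φ
  have hML' : M ∣ L * ℓ := (hML.out).trans (dvd_mul_right L ℓ)
  have h₁ : gammaH (L * ℓ) M ⊤ = Gamma0 (L * ℓ) := Fermat.Agent.ES1.gammaH_top_of_dvd hML'
  have h₂ : gammaH L M ⊤ = Gamma0 L := Fermat.Agent.ES1.gammaH_top_of_dvd hML.out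
  let e₁ : gammaH (L * ℓ) M ⊤ ≃* Gamma0 (L * ℓ) := MulEquiv.subgroupCongr h₁
  have he₁ : ∀ γ, ((e₁ γ : Gamma0 (L * ℓ)) : SL(2, ℤ)) = γ := fun γ => rfl
  have key := k5top_aux (A := A) _ _ _ _ h₁ h₂ (conjDH L M ℓ ⊤ hML.out) (S41.conjD L ℓ)
    (conjDH_injective L M ℓ ⊤ hML.out) (S41.conjD_injective L ℓ) e₁ he₁ e he (fun γ => rfl)
    (S41.res L ℓ A φ)
  have hC2 : S41.coresD L ℓ A (S41.res L ℓ A φ) = S41.Tc ℓ hℓ φ := (S41.stmtC2 L ℓ A hℓ φ).2.2.2
  have hres : resH L M ℓ ⊤ A (φ.comp (MonoidHom.toAdditive e.toMonoidHom)) =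
      (S41.res L ℓ A φ).comp (MonoidHom.toAdditive e₁.toMonoidHom) := by
    refine AddMonoidHom.ext fun γ => ?_
    obtain ⟨γ, rfl⟩ : ∃ γ' : gammaH (L * ℓ) M ⊤, Additive.ofMul γ' = γ := ⟨Additive.toMul γ, rfl⟩
    show φ (Additive.ofMul (e (inclH L M ℓ ⊤ γ))) = φ (Additive.ofMul (S41.incl L ℓ (e₁ γ)))
    congr 2
    apply Subtype.ext
    rw [he]
    rfl
  rw [← hC2]
  show S41.transferAlong A (conjDH L M ℓ ⊤ hML.out) _
    (resH L M ℓ ⊤ A (φ.comp (MonoidHom.toAdditive e.toMonoidHom))) = _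
  rw [hres]
  exact key

end Fermat.Agent.RT.K5

end
end ZBS41_005_11

/-! ### bundled: `Fermat.Agent.S41.NewUKer` -/
section ZBS41_005_12

/-!
# S41, piece C4 (second half): `U_q` preserves `ker(α†)` (helper39)

* `transferAlong_conj` : invariance of the transfer under conjugation: if
  `f' (θ h) = g₀ f(h) g₀⁻¹` then `transferAlong f' ψ = transferAlong f (ψ ∘ θ)`;
* `cores_eq_coresD_nuW` : `cores ψ = cores^δ (w ψ)`;
* `nuW_nuW` : `w (w ψ) = ψ`;
* `heckeU_eq_neg_nuW` : `cores^δ ψ = 0 ⇒ U_q ψ = − w ψ`;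
* `alphaT_heckeU_eq_zero` : `α† ψ = 0 ⇒ α† (U_q ψ) = 0`; `heckeU_mem_Knew`.
-/

set_option autoImplicit false
set_option linter.style.haveILetI false
set_option linter.unusedSectionVars false
set_option linter.unusedSimpArgs false
set_option linter.unnecessarySeqFocus false

noncomputable section

namespace Fermat.Agent.S41

open CongruenceSubgroup Matrix Matrix.SpecialLinearGroup Fermat.Agent.ES
open scoped MatrixGroups Pointwise

section abstract

variable {G H : Type*} [Group G] [Group H] (f f' : H →* G) (hf : Function.Injective f)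
  (hf' : Function.Injective f') (A : Type*) [AddCommGroup A] [f.range.FiniteIndex]
  [f'.range.FiniteIndex]

/-- **Conjugation invariance of the transfer.** -/
theorem transferAlong_conj (θ : H →* H) (g₀ : G) (hθ : ∀ h, f' (θ h) = g₀ * f h * g₀⁻¹)
    (hrange : ∀ x, g₀ * x * g₀⁻¹ ∈ f'.range → x ∈ f.range) (ψ : Additive H →+ A) :
    transferAlong A f' hf' ψ = transferAlong A f hf (ψ.comp (MonoidHom.toAdditive θ)) := by
  classical
  letI := f.range.fintypeQuotientOfFiniteIndex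
  refine AddMonoidHom.ext fun g => ?_
  obtain ⟨g, rfl⟩ : ∃ g' : G, Additive.ofMul g' = g := ⟨Additive.toMul g, rfl⟩
  have hr : Function.Bijective fun c : G ⧸ f.range =>
      (QuotientGroup.mk (g₀ * tRep f c * g₀⁻¹) : G ⧸ f'.range) := by
    constructor
    · intro c c' hcc
      simp only [] at hcc
      rw [QuotientGroup.eq] at hcc
      have h1 : g₀ * ((tRep f c)⁻¹ * tRep f c') * g₀⁻¹ ∈ f'.range := by
        have e : (g₀ * tRep f c * g₀⁻¹)⁻¹ * (g₀ * tRep f c' * g₀⁻¹)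
            = g₀ * ((tRep f c)⁻¹ * tRep f c') * g₀⁻¹ := by group
        rwa [e] at hcc
      have h2 := hrange _ h1
      have h3 : (QuotientGroup.mk (tRep f c) : G ⧸ f.range) = QuotientGroup.mk (tRep f c') :=
        QuotientGroup.eq.mpr h2
      rwa [tRep_mk, tRep_mk] at h3
    · intro y
      obtain ⟨y, rfl⟩ := QuotientGroup.mk_surjective y
      refine ⟨QuotientGroup.mk (g₀⁻¹ * y * g₀), ?_⟩
      simp only []
      rw [QuotientGroup.eq]
      have h1 : (QuotientGroup.mk (tRep f (QuotientGroup.mk (g₀⁻¹ * y * g₀))) : G ⧸ f.range)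
          = QuotientGroup.mk (g₀⁻¹ * y * g₀) := tRep_mk f _
      obtain ⟨h, hh⟩ := QuotientGroup.eq.mp h1
      refine ⟨θ h, ?_⟩
      rw [hθ, hh]
      group
  have hrel : ∀ c : G ⧸ f.range,
      (g₀ * g * g₀⁻¹) * (g₀ * tRep f (g⁻¹ • c) * g₀⁻¹)
        = (g₀ * tRep f c * g₀⁻¹) * f' (θ (tCoc f hf c g)) := by
    intro c
    rw [hθ, f_tCoc]
    group
  have h1 := transferAlong_eq_sum_of_reps f' hf' A (fun c : G ⧸ f.range => g₀ * tRep f c * g₀⁻¹)
    hr (g₀ * g * g₀⁻¹) (fun c => g⁻¹ • c) (fun c => θ (tCoc f hf c g)) hrel ψ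
  have h2 : transferAlong A f' hf' ψ (Additive.ofMul (g₀ * g * g₀⁻¹))
      = transferAlong A f' hf' ψ (Additive.ofMul g) := by
    rw [ofMul_mul, ofMul_mul, ofMul_inv, map_add, map_add, map_neg]
    abel
  rw [← h2, h1, transferAlong_eq_sum]
  rfl

end abstract

section concrete

variable {N q : ℕ} [NeZero N] [NeZero q] [hq : Fact q.Prime] (u v : ℤ)
  (huv : (q : ℤ) * u - N * v = 1) {A : Type*} [AddCommGroup A]

theorem nu_incl_nuConjW_eq (γ : Gamma0 (N * q)) :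
    incl N q (nuConjW u v huv γ) = nuG0 u v huv * conjD N q γ * (nuG0 u v huv)⁻¹ := by
  rw [incl_nuConjW]
  rfl

theorem nu_range_of_conj (hqN : ¬ q ∣ N) (x : Gamma0 N)
    (h : nuG0 u v huv * x * (nuG0 u v huv)⁻¹ ∈ (incl N q).range) : x ∈ (conjD N q).range := by
  have hc : Nat.Coprime q N := (Nat.Prime.coprime_iff_not_dvd hq.out).mpr hqN
  have hN := nu_cast_N_ne_zero (q := q) hqN
  have hinv : ataMat (nuG0 u v huv)⁻¹ = !![(q : ℤ), -v; -(N : ℤ), u] := by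
    rw [ataMat_inv, ataMat_nuG0]
    ext i j
    fin_cases i <;> fin_cases j <;> simp
  have e : (!![u, v; (N : ℤ), (q : ℤ)] * ataMat x * !![(q : ℤ), -v; -(N : ℤ), u]) 1 0
      = q * (N * ataMat x 0 0 + q * ataMat x 1 0)
        - N * (N * ataMat x 0 1 + q * ataMat x 1 1) := by
    simp only [Matrix.mul_apply, Fin.sum_univ_two, Matrix.of_apply, Matrix.cons_val_zero,
      Matrix.cons_val_one, Matrix.cons_val', Matrix.cons_val_fin_one]
    ring
  rw [nu_mem_incl_range_iff hc, nu_dvd_iff_cast, ataMat_mul, ataMat_mul, hinv,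
    ataMat_nuG0, e] at h
  rw [nu_mem_conjD_range_iff, nu_dvd_iff_cast]
  simp only [Int.cast_sub, Int.cast_mul, Int.cast_add, Int.cast_natCast, ZMod.natCast_self,
    zero_mul, mul_zero, add_zero, zero_sub] at h
  have h1 : ((N : ℤ) : ZMod q) * ((N : ℤ) : ZMod q) * ((ataMat x 0 1 : ℤ) : ZMod q) = 0 := by
    simp only [Int.cast_natCast]
    linear_combination -h
  rcases mul_eq_zero.mp h1 with h3 | h3
  · rcases mul_eq_zero.mp h3 with h4 | h4 <;> exact absurd h4 hN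
  · exact h3

/-- `cores ψ = cores^δ (w ψ)` -/
theorem cores_eq_coresD_nuW (hqN : ¬ q ∣ N) (ψ : HomG (N * q) A) :
    cores N q A ψ = coresD N q A (nuW u v huv ψ) :=
  transferAlong_conj (conjD N q) (incl N q) (conjD_injective N q) (incl_injective N q) A
    (nuConjW u v huv) (nuG0 u v huv) (nu_incl_nuConjW_eq u v huv)
    (nu_range_of_conj u v huv hqN) ψ

/-! ### `w² = 1` on `Hom(Γ₀(N q), A)` -/

/-- the integer matrix `W = g₀ δ = [[q u, v], [N q, q]]` -/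
def nuWm : Matrix (Fin 2) (Fin 2) ℤ := ataMat (nuG0 u v huv) * (ataDelta q).mat

theorem nuWm_mul (γ : Gamma0 (N * q)) :
    nuWm u v huv * ataMat γ = ataMat (nuConjW u v huv γ) * nuWm u v huv := by
  have h1 := ata_hint_incl N q γ
  have h3 := congrArg ataMat (incl_nuConjW_mul_G0 u v huv γ)
  rw [ataMat_mul, ataMat_mul] at h3
  have e1 : ataMat (incl N q γ) = ataMat γ := rfl
  have e2 : ataMat (incl N q (nuConjW u v huv γ)) = ataMat (nuConjW u v huv γ) := rfl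
  rw [e1] at h1
  rw [e2] at h3
  unfold nuWm
  rw [Matrix.mul_assoc, h1, ← Matrix.mul_assoc, ← h3, Matrix.mul_assoc]

/-- `γ₀ ∈ Γ₀(N q)` with `W² = q γ₀` -/
def nuGam0 : Gamma0 (N * q) :=
  ataMk (N * q) ((q : ℤ) * u ^ 2 + N * v) (v * (u + 1)) (u + 1) (N * v + q) (by
    push_cast
    linear_combination ((q : ℤ) * u - N * v + 1) * huv)

theorem nuWm_sq :
    nuWm u v huv * nuWm u v huv = (q : ℤ) • ataMat (nuGam0 u v huv) := by
  unfold nuWm
  rw [nuGam0, ataMat_mk, ataMat_nuG0]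
  ext i j
  fin_cases i <;> fin_cases j <;>
    simp [ataDelta, HeckeRep.mat, Matrix.mul_apply, Fin.sum_univ_two] <;> ring

theorem nuConjW_nuConjW_mul (γ : Gamma0 (N * q)) :
    nuConjW u v huv (nuConjW u v huv γ) * nuGam0 u v huv = nuGam0 u v huv * γ := by
  have hq' : (q : ℤ) ≠ 0 := by exact_mod_cast NeZero.ne q
  apply ataMat_injective
  apply nu_smul_mat_cancel hq'
  rw [ataMat_mul, ataMat_mul, ← Matrix.mul_smul, ← Matrix.smul_mul, ← nuWm_sq u v huv]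
  calc ataMat (nuConjW u v huv (nuConjW u v huv γ)) * (nuWm u v huv * nuWm u v huv)
      = (ataMat (nuConjW u v huv (nuConjW u v huv γ)) * nuWm u v huv) * nuWm u v huv := by
        rw [Matrix.mul_assoc]
    _ = nuWm u v huv * (ataMat (nuConjW u v huv γ) * nuWm u v huv) := by
        rw [← nuWm_mul, Matrix.mul_assoc]
    _ = nuWm u v huv * nuWm u v huv * ataMat γ := by
        rw [← nuWm_mul, Matrix.mul_assoc]

/-- `w (w ψ) = ψ` -/
theorem nuW_nuW (ψ : HomG (N * q) A) : nuW u v huv (nuW u v huv ψ) = ψ := by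
  refine AddMonoidHom.ext fun g => ?_
  obtain ⟨γ, rfl⟩ : ∃ γ : Gamma0 (N * q), Additive.ofMul γ = g := ⟨Additive.toMul g, rfl⟩
  rw [nuW_apply, nuW_apply]
  have h := congrArg (fun x : Gamma0 (N * q) => ψ (Additive.ofMul x))
    (nuConjW_nuConjW_mul u v huv γ)
  simp only [ofMul_mul, map_add] at h
  have h' : ψ (Additive.ofMul (nuConjW u v huv (nuConjW u v huv γ)))
      + ψ (Additive.ofMul (nuGam0 u v huv))
      = ψ (Additive.ofMul γ) + ψ (Additive.ofMul (nuGam0 u v huv)) := by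
    rw [h, add_comm]
  exact add_right_cancel h'

/-! ### `U_q` preserves `ker(α†)` -/

/-- `cores^δ ψ = 0 ⇒ U_q ψ = − w ψ` -/
theorem heckeU_eq_neg_nuW (ψ : HomG (N * q) A) (h2 : coresD N q A ψ = 0) :
    heckeU (dvd_mul_left q N) ψ = -nuW u v huv ψ := by
  refine AddMonoidHom.ext fun g => ?_
  obtain ⟨γ, rfl⟩ : ∃ γ : Gamma0 (N * q), Additive.ofMul γ = g := ⟨Additive.toMul g, rfl⟩
  have h := res_coresD_eq u v huv ψ γ
  rw [h2, AddMonoidHom.zero_apply] at h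
  rw [AddMonoidHom.neg_apply]
  exact eq_neg_of_add_eq_zero_right h.symm

end concrete

/-- **(C4, second half)** `U_q` preserves the `q`-new part `ker(α†)`. -/
theorem cores_heckeU_eq_zero (N q : ℕ) [NeZero N] [NeZero q] [hq : Fact q.Prime]
    (hqN : ¬ q ∣ N) {A : Type*} [AddCommGroup A] (ψ : HomG (N * q) A)
    (h1 : cores N q A ψ = 0) (h2 : coresD N q A ψ = 0) :
    cores N q A (heckeU (dvd_mul_left q N) ψ) = 0 ∧
      coresD N q A (heckeU (dvd_mul_left q N) ψ) = 0 := by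
  have hc : Nat.Coprime q N := (Nat.Prime.coprime_iff_not_dvd hq.out).mpr hqN
  obtain ⟨u, v, huv⟩ := ata_bezout hc
  rw [heckeU_eq_neg_nuW u v huv ψ h2, map_neg, map_neg, neg_eq_zero, neg_eq_zero]
  constructor
  · rw [cores_eq_coresD_nuW u v huv hqN, nuW_nuW, h2]
  · rw [← cores_eq_coresD_nuW u v huv hqN, h1]

theorem alphaT_heckeU_eq_zero (N q : ℕ) [NeZero N] [NeZero q] [Fact q.Prime]
    (hqN : ¬ q ∣ N) {A : Type*} [AddCommGroup A] (ψ : HomG (N * q) A)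
    (h : alphaT N q A ψ = 0) : alphaT N q A (heckeU (dvd_mul_left q N) ψ) = 0 := by
  rw [alphaT_apply, Prod.mk_eq_zero] at h ⊢
  exact cores_heckeU_eq_zero N q hqN ψ h.1 h.2

/-- `U_q` preserves the `q`-new lattice `K = ker(α†) ∩ Hom_par(Γ₀(N q), ℤ)`. -/
theorem heckeU_mem_Knew (N q : ℕ) [NeZero N] [NeZero q] [Fact q.Prime] (hqN : ¬ q ∣ N)
    {ψ : HomG (N * q) ℤ} (hψ : ψ ∈ Knew N q) : heckeU (dvd_mul_left q N) ψ ∈ Knew N q := by
  rw [Knew, AddSubgroup.mem_inf, AddMonoidHom.mem_ker] at hψ ⊢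
  exact ⟨alphaT_heckeU_eq_zero N q hqN ψ hψ.1, heckeU_mem_Lpar (dvd_mul_left q N) hψ.2⟩

/-- `U_q² = 1` on the `q`-new lattice. -/
theorem heckeU_sq_of_mem_Knew (N q : ℕ) [NeZero N] [NeZero q] [Fact q.Prime] (hqN : ¬ q ∣ N)
    {ψ : HomG (N * q) ℤ} (hψ : ψ ∈ Knew N q) :
    heckeU (dvd_mul_left q N) (heckeU (dvd_mul_left q N) ψ) = ψ := by
  rw [Knew, AddSubgroup.mem_inf, AddMonoidHom.mem_ker] at hψ
  exact heckeU_sq_of_mem_ker_alphaT N q hqN ψ hψ.1

end Fermat.Agent.S41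

end
end ZBS41_005_12

/-! ### bundled: `Fermat.Agent.ES1.Inf.BridgeAbs` -/
section ZBS41_005_13

/-!
# ES₁-inf (p-adic package for `J_H`), piece (P4), abstract part (helper38)

* `es1inf_transfer_eq_transferAlong` : Mathlib's `MonoidHom.transfer` from a finite-index subgroup
  `K ≤ G` is `S41.transferAlong` along any injective `f : H →* G` with range `K`;
* `es1inf_bridge_abs` : for two embeddings `c i : K →* G` (finite index ranges), a surjective
  endomorphism `κ` of `G` and `θ : K →* K` with `c ∘ θ = κ ∘ i` and `κ⁻¹ (range c) ⊆ range i`: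
  `(transfer_c ψ) ∘ κ = transfer_i (ψ ∘ θ)`.  (Base change with one double coset.)
-/

set_option autoImplicit false

noncomputable section

namespace Fermat.Agent.ES1

open Fermat.Agent

section Abs

variable {G H : Type*} [Group G] [Group H] {A : Type*} [AddCommGroup A]

/-- Mathlib's transfer from the subgroup `K` is the transfer along `f` if `f.range = K`. -/
theorem es1inf_transfer_eq_transferAlong (f : H →* G) (hf : Function.Injective f)
    [f.range.FiniteIndex] (K : Subgroup G) [K.FiniteIndex] (hK : f.range = K)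
    (χ : K →* Multiplicative A) (ψ : Additive H →+ A)
    (hχ : ∀ (h : H) (hh : f h ∈ K), χ ⟨f h, hh⟩ = Multiplicative.ofAdd (ψ (Additive.ofMul h))) :
    MonoidHom.toAdditiveLeft (MonoidHom.transfer χ) = S41.transferAlong A f hf ψ := by
  subst hK
  have e : χ = S41.rangeHom A f hf ψ := by
    refine MonoidHom.ext fun x => ?_
    obtain ⟨x, h, rfl⟩ := x
    rw [hχ h ⟨h, rfl⟩]
    show _ = Multiplicative.ofAdd (ψ (Additive.ofMul ((MonoidHom.ofInjective hf).symm ⟨f h, _⟩)))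
    congr 3
    apply hf
    have := (MonoidHom.ofInjective hf).apply_symm_apply ⟨f h, ⟨h, rfl⟩⟩
    exact (congrArg Subtype.val this).symm
  rw [e]
  rfl

variable {K : Type*} [Group K]

/-- **The abstract bridge** between `cores_c ∘ res_i` and `cores_i ∘ res_c`. -/
theorem es1inf_bridge_abs (c i : K →* G) (hc : Function.Injective c) (hi : Function.Injective i)
    [c.range.FiniteIndex] [i.range.FiniteIndex] (κ : G →* G) (hκ : Function.Surjective κ)
    (θ : K →* K) (hcomm : ∀ k, c (θ k) = κ (i k))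
    (hcart : ∀ x : G, κ x ∈ c.range → x ∈ i.range) (ψ : Additive K →+ A) :
    (S41.transferAlong A c hc ψ).comp (MonoidHom.toAdditive κ)
      = S41.transferAlong A i hi (ψ.comp (MonoidHom.toAdditive θ)) := by
  refine RT.K5.k5c_transfer_basechange c hc κ i hi θ A hcomm hcart ?_ ψ
  intro γ
  obtain ⟨x, rfl⟩ := hκ γ
  exact ⟨x, by rw [inv_mul_cancel]; exact one_mem _⟩

end Abs

end Fermat.Agent.ES1

end
end ZBS41_005_13

/-! ### bundled: `Fermat.Agent.RT.K5.UQMackey` -/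
section ZBS41_005_14

/-!
# RT-K5, piece UQ (abstract part): the Mackey formula with TWO double cosets

`f : Hh → G` injective of finite index, `j : Γ' → G`.  Assume `G = j(Γ') f(Hh) ⊔ g f(Hh)`, the
second double coset being the single left coset `g f(Hh)` (so `Γ'` fixes it:
`j x * g = g * f (j₂ x)`), the first one cartesian (`j(Γ') ∩ f(Hh) = j(f₁ K₁)`).  Then

  `(transfer_f χ) ∘ j = transfer_{f₁} (χ ∘ j₁) + χ ∘ j₂`      (`k5uq_mackey`).
-/

set_option autoImplicit false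
set_option linter.style.haveILetI false
set_option linter.unusedSectionVars false
set_option linter.unusedVariables false

noncomputable section

namespace Fermat.Agent.RT.K5

open Fermat.Agent

section mackey2

variable {G Hh Γ' K₁ : Type*} [Group G] [Group Hh] [Group Γ'] [Group K₁]
  (f : Hh →* G) (hf : Function.Injective f) [f.range.FiniteIndex]
  (j : Γ' →* G) (f₁ : K₁ →* Γ') (hf₁ : Function.Injective f₁) [f₁.range.FiniteIndex]
  (j₁ : K₁ →* Hh) (g : G) (j₂ : Γ' →* Hh) (A : Type*) [AddCommGroup A]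

/-- the representatives of `G / f(Hh)`: `g` and `j (r_a)`, `a ∈ Γ' / f₁(K₁)` -/
def k5uqRep (o : Option (Γ' ⧸ f₁.range)) : G :=
  o.elim g (fun a => j (S41.tRep f₁ a))

theorem k5uq_reps_bijective (hcomm₁ : ∀ k, f (j₁ k) = j (f₁ k))
    (hcart₁ : ∀ x : Γ', j x ∈ f.range → x ∈ f₁.range)
    (hdc : ∀ γ : G, (∃ x : Γ', (j x)⁻¹ * γ ∈ f.range) ∨ g⁻¹ * γ ∈ f.range)
    (hne : ∀ x : Γ', (j x)⁻¹ * g ∉ f.range) :
    Function.Bijective fun o : Option (Γ' ⧸ f₁.range) =>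
      (QuotientGroup.mk (k5uqRep j f₁ g o) : G ⧸ f.range) := by
  constructor
  · intro o o' h
    simp only [] at h
    rw [QuotientGroup.eq] at h
    rcases o with _ | a <;> rcases o' with _ | a'
    · rfl
    · exfalso
      have h' : g⁻¹ * j (S41.tRep f₁ a') ∈ f.range := h
      have h2 : (j (S41.tRep f₁ a'))⁻¹ * g ∈ f.range := by
        have e : (j (S41.tRep f₁ a'))⁻¹ * g = (g⁻¹ * j (S41.tRep f₁ a'))⁻¹ := by group
        rw [e]; exact inv_mem h'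
      exact hne _ h2
    · exfalso
      have h' : (j (S41.tRep f₁ a))⁻¹ * g ∈ f.range := h
      exact hne _ h'
    · have h' : (j (S41.tRep f₁ a))⁻¹ * j (S41.tRep f₁ a') ∈ f.range := h
      rw [← map_inv, ← map_mul] at h'
      have h2 := hcart₁ _ h'
      have h3 : (QuotientGroup.mk (S41.tRep f₁ a) : Γ' ⧸ f₁.range)
          = QuotientGroup.mk (S41.tRep f₁ a') := QuotientGroup.eq.mpr h2
      rw [S41.tRep_mk, S41.tRep_mk] at h3
      rw [h3]
  · intro y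
    obtain ⟨γ, rfl⟩ := QuotientGroup.mk_surjective y
    rcases hdc γ with ⟨x, hx⟩ | hg
    · refine ⟨some (QuotientGroup.mk x), ?_⟩
      simp only []
      rw [QuotientGroup.eq]
      show (j (S41.tRep f₁ (QuotientGroup.mk x)))⁻¹ * γ ∈ f.range
      have h1 : (QuotientGroup.mk (S41.tRep f₁ (QuotientGroup.mk x)) : Γ' ⧸ f₁.range)
          = QuotientGroup.mk x := S41.tRep_mk f₁ _
      have h2 : (S41.tRep f₁ (QuotientGroup.mk x))⁻¹ * x ∈ f₁.range := QuotientGroup.eq.mp h1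
      obtain ⟨k, hk⟩ := h2
      have h3 : (j (S41.tRep f₁ (QuotientGroup.mk x)))⁻¹ * γ
          = f (j₁ k) * ((j x)⁻¹ * γ) := by
        rw [hcomm₁, hk, map_mul, map_inv]; group
      rw [h3]
      exact mul_mem ⟨j₁ k, rfl⟩ hx
    · refine ⟨none, ?_⟩
      simp only []
      rw [QuotientGroup.eq]
      exact hg

/-- **Mackey formula with two double cosets**, the second one being a single coset. -/
theorem k5uq_mackey (hcomm₁ : ∀ k, f (j₁ k) = j (f₁ k))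
    (hcart₁ : ∀ x : Γ', j x ∈ f.range → x ∈ f₁.range)
    (hcomm₂ : ∀ x : Γ', j x * g = g * f (j₂ x))
    (hdc : ∀ γ : G, (∃ x : Γ', (j x)⁻¹ * γ ∈ f.range) ∨ g⁻¹ * γ ∈ f.range)
    (hne : ∀ x : Γ', (j x)⁻¹ * g ∉ f.range) (χ : Additive Hh →+ A) :
    (S41.transferAlong A f hf χ).comp (MonoidHom.toAdditive j)
      = S41.transferAlong A f₁ hf₁ (χ.comp (MonoidHom.toAdditive j₁))
        + χ.comp (MonoidHom.toAdditive j₂) := by
  classical
  letI := f₁.range.fintypeQuotientOfFiniteIndex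
  refine AddMonoidHom.ext fun x => ?_
  obtain ⟨x, rfl⟩ : ∃ x' : Γ', Additive.ofMul x' = x := ⟨Additive.toMul x, rfl⟩
  show S41.transferAlong A f hf χ (Additive.ofMul (j x)) = _
  rw [S41.transferAlong_eq_sum_of_reps f hf A (k5uqRep j f₁ g)
      (k5uq_reps_bijective f j f₁ j₁ g hcomm₁ hcart₁ hdc hne) (j x)
      (fun o => o.map (fun a => x⁻¹ • a))
      (fun o => o.elim (j₂ x) (fun a => j₁ (S41.tCoc f₁ hf₁ a x))) ?_ χ]
  · rw [Fintype.sum_option, AddMonoidHom.add_apply, S41.transferAlong_eq_sum f₁ hf₁ A, add_comm]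
    rfl
  · intro o
    rcases o with _ | a
    · exact hcomm₂ x
    · show j x * j (S41.tRep f₁ (x⁻¹ • a)) = j (S41.tRep f₁ a) * f (j₁ (S41.tCoc f₁ hf₁ a x))
      rw [hcomm₁, S41.f_tCoc, ← map_mul, ← map_mul]
      congr 1
      group

/-- the index count behind the Mackey formula: `[G : f Hh] = [Γ' : f₁ K₁] + 1` -/
theorem k5uq_index (hcomm₁ : ∀ k, f (j₁ k) = j (f₁ k))
    (hcart₁ : ∀ x : Γ', j x ∈ f.range → x ∈ f₁.range)
    (hdc : ∀ γ : G, (∃ x : Γ', (j x)⁻¹ * γ ∈ f.range) ∨ g⁻¹ * γ ∈ f.range)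
    (hne : ∀ x : Γ', (j x)⁻¹ * g ∉ f.range) :
    f.range.index = f₁.range.index + 1 := by
  classical
  letI := f₁.range.fintypeQuotientOfFiniteIndex
  have e := Nat.card_congr (Equiv.ofBijective _
    (k5uq_reps_bijective f j f₁ j₁ g hcomm₁ hcart₁ hdc hne))
  rw [Subgroup.index_eq_card, Subgroup.index_eq_card, ← e, Nat.card_eq_fintype_card,
    Fintype.card_option, Nat.card_eq_fintype_card]

end mackey2

end Fermat.Agent.RT.K5

end
end ZBS41_005_14
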