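/- GENERATED FILE (helper35, build-time optimisation, NOTES/ZB.md): verbatim concatenation of the modules
   Fermat.Agent.ES1.TopBWords
   Fermat.Agent.ES1.TopB
   Fermat.Agent.ES1.TopBSupp
   Fermat.Agent.ES1.TopBUnif
   Fermat.Agent.ES1.G1Op
   Fermat.Agent.ES1.Inf.Bridge
   Fermat.Agent.ES1.Inf.BridgeMain
   Fermat.Agent.ES1.Inf.BridgeFinal
   Fermat.Agent.ES1.Inf.Comm
   Fermat.Agent.ES1.Inf.PkgOp
   Fermat.Agent.ES1.TopBGalois
   Fermat.Agent.ES1.G2.Clauses
   Fermat.Agent.ES1.G1Final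
   Fermat.Agent.ES1.PerHecke
   Fermat.Agent.ES1.G1UnifStmt
   Fermat.Agent.ES1.G1Unif
   Fermat.Agent.ES1.G1Done
   Do not edit; do not import together with these modules. -/
import Mathlib
import Fermat.Agent.ZB.S48_002
import Fermat.Agent.ZB.ES_008
import Fermat.Agent.ZB.ES1_001
import Fermat.Agent.ZB.ES1_003
import Fermat.Agent.ZB.ES1_004
import Fermat.Agent.ZB.ES_009
import Fermat.Agent.ZB.S21_004
import Fermat.Agent.ZB.S41_005
import Fermat.Agent.ZB.ES_001
import Fermat.Agent.ZB.ES1_007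
import Fermat.Agent.ZB.ES_035
import Fermat.Agent.ZB.S48_003
import Fermat.Agent.ZB.ES1_012
import Fermat.Agent.ZB.ES1_009
import Fermat.Agent.ZB.ES1_016

/-! ### bundled: `Fermat.Agent.ES1.TopBWords` -/
section ZBES1_005_0

/-!
# ES₁ / TOP-b — generic word machinery (helper42)

Generalisation of `Fermat/Agent/ES/Words.lean` to an arbitrary index type: a family of additive
endomorphisms `T i` (`i ∈ S ⊆ ι`) of an abelian group `V`, NOT assumed to commute, and a monoid `G`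
acting on `V` and commuting with the `T i`.

* `es1b_commPart T` : the largest `T`-stable subgroup of `V` on which the `T i` commute;
* it is a module over the polynomial ring `MvPolynomial ι ℤ` (`es1b_commModule`; the variables
  outside `S` act by `0`), stable under `G` (`es1b_commGalois`);
* on it a word `w : FreeAlgebra ℤ S` acts through its abelianisation (`es1b_familyEval_wordAb`);
* a vector killed by all commutator words lies in it (`es1b_mem_commPart_of_comm`).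

In ES₁: `ι = Nat.Primes ⊕ (ZMod M)ˣ` (Hecke operators and diamond operators on `J_H[p]`).
-/

set_option autoImplicit false
set_option linter.style.haveILetI false
set_option linter.unusedSectionVars false

noncomputable section

namespace Fermat.Agent.ES1

/-! ## A module structure from a commuting family -/

section Family

variable {ι : Type*} {V : Type*} [AddCommGroup V] (f : ι → Module.End ℤ V)

theorem es1b_isMulCommutative_adjoin (hf : ∀ i j, f i * f j = f j * f i) :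
    IsMulCommutative (Algebra.adjoin ℤ (Set.range f)) :=
  Algebra.isMulCommutative_adjoin ℤ (by
    rintro _ ⟨i, rfl⟩ _ ⟨j, rfl⟩
    exact hf i j)

open scoped IsMulCommutative in
/-- evaluation of polynomials at a commuting family (into the commutative subalgebra) -/
def es1b_familyEvalAux (hf : ∀ i j, f i * f j = f j * f i) :
    MvPolynomial ι ℤ →ₐ[ℤ] (Algebra.adjoin ℤ (Set.range f) : Subalgebra ℤ (Module.End ℤ V)) :=
  haveI := es1b_isMulCommutative_adjoin f hf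
  MvPolynomial.aeval fun i =>
    (⟨f i, Algebra.subset_adjoin (Set.mem_range_self i)⟩ : Algebra.adjoin ℤ (Set.range f))

/-- evaluation of polynomials at a commuting family -/
def es1b_familyEval (hf : ∀ i j, f i * f j = f j * f i) :
    MvPolynomial ι ℤ →ₐ[ℤ] Module.End ℤ V :=
  (Algebra.adjoin ℤ (Set.range f)).val.comp (es1b_familyEvalAux f hf)

open scoped IsMulCommutative in
theorem es1b_familyEval_X (hf : ∀ i j, f i * f j = f j * f i) (i : ι) :
    es1b_familyEval f hf (MvPolynomial.X i) = f i := by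
  have := es1b_isMulCommutative_adjoin f hf
  show ((es1b_familyEvalAux f hf (MvPolynomial.X i) : Algebra.adjoin ℤ (Set.range f)) :
    Module.End ℤ V) = _
  have : es1b_familyEvalAux f hf (MvPolynomial.X i) =
      ⟨f i, Algebra.subset_adjoin (Set.mem_range_self i)⟩ :=
    MvPolynomial.aeval_X _ i
  rw [this]

/-- the module structure over the polynomial ring defined by a commuting family -/
@[reducible] def es1b_familyModule (hf : ∀ i j, f i * f j = f j * f i) :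
    Module (MvPolynomial ι ℤ) V :=
  Module.compHom V (es1b_familyEval f hf).toRingHom

theorem es1b_familyModule_smul_def (hf : ∀ i j, f i * f j = f j * f i)
    (t : MvPolynomial ι ℤ) (v : V) :
    (letI := es1b_familyModule f hf; t • v) = es1b_familyEval f hf t v := rfl

end Family

/-! ## Words and polynomials -/

section WordsPoly

variable {ι : Type*} (S : Set ι)

/-- abelianisation of words in the variables of `S` -/
def es1b_wordAb : FreeAlgebra ℤ S →ₐ[ℤ] MvPolynomial ι ℤ :=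
  FreeAlgebra.lift ℤ (fun i : S => (MvPolynomial.X (i : ι) : MvPolynomial ι ℤ))

@[simp] theorem es1b_wordAb_ι (i : S) :
    es1b_wordAb S (FreeAlgebra.ι ℤ i) = MvPolynomial.X (i : ι) := by
  simp [es1b_wordAb]

theorem es1b_exists_wordAb_eq {t : MvPolynomial ι ℤ} (ht : t ∈ MvPolynomial.supported ℤ S) :
    ∃ w : FreeAlgebra ℤ S, es1b_wordAb S w = t := by
  rw [MvPolynomial.supported_eq_range_rename] at ht
  obtain ⟨t', rfl⟩ := ht
  induction t' using MvPolynomial.induction_on with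
  | C a =>
    refine ⟨algebraMap ℤ _ a, ?_⟩
    rw [AlgHom.commutes]
    simp [MvPolynomial.algebraMap_eq]
  | add s t hs ht =>
    obtain ⟨ws, hws⟩ := hs
    obtain ⟨wt, hwt⟩ := ht
    exact ⟨ws + wt, by rw [map_add, hws, hwt, map_add]⟩
  | mul_X s i hs =>
    obtain ⟨ws, hws⟩ := hs
    refine ⟨ws * FreeAlgebra.ι ℤ i, ?_⟩
    rw [map_mul, hws, es1b_wordAb_ι, map_mul]
    simp

/-- the value of a word at a family of elements of a commutative ring equals the value of its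
abelianisation -/
theorem es1b_aeval_wordAb {R : Type*} [CommRing R] (x : ι → R) (w : FreeAlgebra ℤ S) :
    MvPolynomial.aeval x (es1b_wordAb S w) = FreeAlgebra.lift ℤ (fun i : S => x i) w := by
  have h : ((MvPolynomial.aeval x : MvPolynomial ι ℤ →ₐ[ℤ] R).comp (es1b_wordAb S))
      = FreeAlgebra.lift ℤ (fun i : S => x i) := by
    apply FreeAlgebra.hom_ext
    funext i
    simp [es1b_wordAb]
  exact congrArg (fun F : FreeAlgebra ℤ S →ₐ[ℤ] R => F w) h

end WordsPoly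

/-! ## The commutative part -/

section CommPart

variable {ι : Type*} {S : Set ι} {V : Type*} [AddCommGroup V] (T : S → Module.End ℤ V)

/-- the action of words -/
abbrev es1b_wordAct : FreeAlgebra ℤ S →ₐ[ℤ] Module.End ℤ V := FreeAlgebra.lift ℤ T

theorem es1b_wordAct_ι (i : S) : es1b_wordAct T (FreeAlgebra.ι ℤ i) = T i := by
  simp [es1b_wordAct]

/-- the largest `T`-stable subgroup on which the operators commute -/
def es1b_commPart : Submodule ℤ V where
  carrier := {v | ∀ (w : FreeAlgebra ℤ S) (i j : S),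
    T i (T j (es1b_wordAct T w v)) = T j (T i (es1b_wordAct T w v))}
  zero_mem' := by
    intro w i j
    simp
  add_mem' := by
    intro a b ha hb w i j
    simp only [map_add, ha w i j, hb w i j]
  smul_mem' := by
    intro c v hv w i j
    simp only [map_smul, hv w i j]

theorem es1b_mem_commPart {v : V} : v ∈ es1b_commPart T ↔
    ∀ (w : FreeAlgebra ℤ S) (i j : S),
      T i (T j (es1b_wordAct T w v)) = T j (T i (es1b_wordAct T w v)) := Iff.rfl

theorem es1b_wordAct_mem_commPart {v : V} (hv : v ∈ es1b_commPart T)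
    (u : FreeAlgebra ℤ S) : es1b_wordAct T u v ∈ es1b_commPart T := by
  intro w i j
  have := hv (w * u) i j
  rwa [map_mul, Module.End.mul_apply] at this

theorem es1b_T_mem_commPart {v : V} (hv : v ∈ es1b_commPart T) (i : S) :
    T i v ∈ es1b_commPart T := by
  have := es1b_wordAct_mem_commPart T hv (FreeAlgebra.ι ℤ i)
  rwa [es1b_wordAct_ι] at this

theorem es1b_comm_of_mem_commPart {v : V} (hv : v ∈ es1b_commPart T) (i j : S) :
    T i (T j v) = T j (T i v) := by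
  have := hv 1 i j
  simpa using this

/-- a vector killed by all the commutator words lies in the commutative part -/
theorem es1b_mem_commPart_of_comm {v : V}
    (hv : ∀ (w : FreeAlgebra ℤ S) (i j : S),
      es1b_wordAct T ((FreeAlgebra.ι ℤ i * FreeAlgebra.ι ℤ j
        - FreeAlgebra.ι ℤ j * FreeAlgebra.ι ℤ i) * w) v = 0) :
    v ∈ es1b_commPart T := by
  intro w i j
  have key := hv w i j
  rw [map_mul, map_sub, map_mul, map_mul, es1b_wordAct_ι, es1b_wordAct_ι, Module.End.mul_apply,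
    LinearMap.sub_apply, Module.End.mul_apply, Module.End.mul_apply, sub_eq_zero] at key
  exact key

open Classical in
/-- the operators on the commutative part, indexed by all variables (`0` outside `S`) -/
def es1b_commOp (i : ι) : Module.End ℤ (es1b_commPart T) :=
  if h : i ∈ S then
    (T ⟨i, h⟩).restrict (fun _ hv => es1b_T_mem_commPart T hv ⟨i, h⟩)
  else 0

theorem es1b_commOp_good (i : S) (v : es1b_commPart T) :
    ((es1b_commOp T (i : ι) v : es1b_commPart T) : V) = T i (v : V) := by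
  classical
  have h : (i : ι) ∈ S := i.2
  rw [es1b_commOp, dif_pos h]
  rfl

theorem es1b_commOp_bad {i : ι} (h : i ∉ S) : es1b_commOp T i = 0 := by
  classical
  rw [es1b_commOp, dif_neg h]

theorem es1b_commOp_comm (i j : ι) :
    es1b_commOp T i * es1b_commOp T j = es1b_commOp T j * es1b_commOp T i := by
  classical
  by_cases h : i ∈ S
  · by_cases h' : j ∈ S
    · ext v
      rw [Module.End.mul_apply, Module.End.mul_apply]
      have e1 := es1b_commOp_good T ⟨i, h⟩ (es1b_commOp T j v)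
      have e2 := es1b_commOp_good T ⟨j, h'⟩ v
      have e3 := es1b_commOp_good T ⟨j, h'⟩ (es1b_commOp T i v)
      have e4 := es1b_commOp_good T ⟨i, h⟩ v
      simp only at e1 e2 e3 e4
      rw [e1, e2, e3, e4]
      exact es1b_comm_of_mem_commPart T v.2 ⟨i, h⟩ ⟨j, h'⟩
    · rw [es1b_commOp_bad T h', mul_zero, zero_mul]
  · rw [es1b_commOp_bad T h, mul_zero, zero_mul]

/-- the module structure of the commutative part over the polynomial ring -/
@[reducible] def es1b_commModule : Module (MvPolynomial ι ℤ) (es1b_commPart T) :=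
  es1b_familyModule (es1b_commOp T) (es1b_commOp_comm T)

theorem es1b_commModule_smul_def (t : MvPolynomial ι ℤ) (v : es1b_commPart T) :
    (letI := es1b_commModule T; t • v)
      = es1b_familyEval (es1b_commOp T) (es1b_commOp_comm T) t v := rfl

/-- a variable of `S` acts on the commutative part by its operator -/
theorem es1b_coe_X_smul (i : S) (v : es1b_commPart T) :
    (((letI := es1b_commModule T; (MvPolynomial.X (i : ι) : MvPolynomial ι ℤ) • v) :
      es1b_commPart T) : V) = T i (v : V) := by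
  rw [es1b_commModule_smul_def, es1b_familyEval_X]
  exact es1b_commOp_good T i v

/-- a variable outside `S` acts by `0` -/
theorem es1b_X_smul_bad {i : ι} (h : i ∉ S) (v : es1b_commPart T) :
    (letI := es1b_commModule T; (MvPolynomial.X i : MvPolynomial ι ℤ) • v) = 0 := by
  rw [es1b_commModule_smul_def, es1b_familyEval_X, es1b_commOp_bad T h]
  rfl

/-- constants act by multiples -/
theorem es1b_C_smul (a : ℤ) (v : es1b_commPart T) :
    (letI := es1b_commModule T; (MvPolynomial.C a : MvPolynomial ι ℤ) • v) = a • v := by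
  rw [es1b_commModule_smul_def, ← MvPolynomial.algebraMap_eq, AlgHom.commutes,
    Module.algebraMap_end_apply]

/-- on the commutative part a word acts through its abelianisation -/
theorem es1b_familyEval_wordAb (w : FreeAlgebra ℤ S) (v : es1b_commPart T) :
    ((es1b_familyEval (es1b_commOp T) (es1b_commOp_comm T) (es1b_wordAb S w) v :
      es1b_commPart T) : V) = es1b_wordAct T w (v : V) := by
  induction w using FreeAlgebra.induction generalizing v with
  | grade0 r =>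
    simp only [AlgHom.commutes, Module.algebraMap_end_apply]
    rfl
  | grade1 i =>
    rw [es1b_wordAb_ι, es1b_familyEval_X, es1b_wordAct_ι]
    exact es1b_commOp_good T i v
  | mul a b ha hb =>
    rw [map_mul, map_mul, Module.End.mul_apply, ha, hb, map_mul, Module.End.mul_apply]
  | add a b ha hb =>
    rw [map_add, map_add, LinearMap.add_apply, Submodule.coe_add, ha, hb, map_add,
      LinearMap.add_apply]

/-- a polynomial in the variables of `S` acts on the commutative part as any word lifting it -/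
theorem es1b_coe_wordAb_smul (w : FreeAlgebra ℤ S) (v : es1b_commPart T) :
    (((letI := es1b_commModule T; es1b_wordAb S w • v) : es1b_commPart T) : V)
      = es1b_wordAct T w (v : V) := by
  rw [es1b_commModule_smul_def]
  exact es1b_familyEval_wordAb T w v

end CommPart

/-! ## A commuting monoid action -/

section Galois

variable {ι : Type*} {S : Set ι} {V : Type*} [AddCommGroup V] {T : S → Module.End ℤ V}
  {G : Type*} [Monoid G] [DistribMulAction G V]

theorem es1b_galois_wordAct (hG : ∀ (σ : G) (i : S) (v : V), σ • T i v = T i (σ • v)) (σ : G)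
    (w : FreeAlgebra ℤ S) (v : V) :
    σ • es1b_wordAct T w v = es1b_wordAct T w (σ • v) := by
  induction w using FreeAlgebra.induction generalizing v with
  | grade0 r =>
    simp only [AlgHom.commutes, Module.algebraMap_end_apply]
    exact map_zsmul (DistribSMul.toAddMonoidHom V σ) r v
  | grade1 i =>
    rw [es1b_wordAct_ι]
    exact hG σ i v
  | mul a b ha hb =>
    rw [map_mul, Module.End.mul_apply, Module.End.mul_apply, ha, hb]
  | add a b ha hb =>
    rw [map_add, LinearMap.add_apply, LinearMap.add_apply, smul_add, ha, hb]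

theorem es1b_galois_mem_commPart (hG : ∀ (σ : G) (i : S) (v : V), σ • T i v = T i (σ • v))
    (σ : G) {v : V} (hv : v ∈ es1b_commPart T) : σ • v ∈ es1b_commPart T := by
  intro w i j
  rw [← es1b_galois_wordAct hG, ← hG, ← hG, ← hG, ← hG, hv w i j]

/-- the action of `G` on the commutative part -/
@[reducible] def es1b_commGalois (hG : ∀ (σ : G) (i : S) (v : V), σ • T i v = T i (σ • v)) :
    DistribMulAction G (es1b_commPart T) where
  smul σ x := ⟨σ • (x : V), es1b_galois_mem_commPart hG σ x.2⟩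
  one_smul x := Subtype.ext (one_smul G (x : V))
  mul_smul σ τ x := Subtype.ext (mul_smul σ τ (x : V))
  smul_zero σ := Subtype.ext (smul_zero σ)
  smul_add σ x y := Subtype.ext (smul_add σ (x : V) (y : V))

theorem es1b_coe_commGalois_smul (hG : ∀ (σ : G) (i : S) (v : V), σ • T i v = T i (σ • v))
    (σ : G) (x : es1b_commPart T) :
    (((letI := es1b_commGalois hG; σ • x) : es1b_commPart T) : V) = σ • (x : V) := rfl

/-- `G` commutes with every polynomial on the commutative part -/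
theorem es1b_galois_smul_comm (hG : ∀ (σ : G) (i : S) (v : V), σ • T i v = T i (σ • v))
    (σ : G) (t : MvPolynomial ι ℤ) (v : es1b_commPart T) :
    (letI := es1b_commGalois hG; letI := es1b_commModule T; σ • t • v = t • σ • v) := by
  letI := es1b_commGalois hG
  letI := es1b_commModule T
  induction t using MvPolynomial.induction_on generalizing v with
  | C a =>
    rw [es1b_C_smul, es1b_C_smul]
    exact map_zsmul (DistribSMul.toAddMonoidHom (es1b_commPart T) σ) a v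
  | add s t hs ht =>
    rw [add_smul, add_smul, smul_add, hs, ht]
  | mul_X s i hs =>
    rw [mul_smul, mul_smul, hs]
    congr 1
    apply Subtype.ext
    by_cases hi : i ∈ S
    · have e1 := es1b_coe_X_smul T ⟨i, hi⟩ v
      have e2 := es1b_coe_X_smul T ⟨i, hi⟩ (σ • v)
      simp only at e1 e2
      rw [es1b_coe_commGalois_smul, e1, e2, es1b_coe_commGalois_smul]
      exact hG σ ⟨i, hi⟩ (v : V)
    · rw [es1b_X_smul_bad T hi, es1b_X_smul_bad T hi, smul_zero]

end Galois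

/-! ## Torsion part of a big group -/

section Tors

variable (p : ℕ) (J : Type*) [AddCommGroup J]

/-- the `p`-torsion of `J` -/
def es1b_torsPart : Submodule ℤ J where
  carrier := {x | p • x = 0}
  zero_mem' := smul_zero _
  add_mem' := by
    intro a b ha hb
    show p • (a + b) = 0
    rw [smul_add, ha, hb, add_zero]
  smul_mem' := by
    intro c x hx
    show p • (c • x) = 0
    rw [smul_comm, hx, smul_zero]

variable {p J}

theorem es1b_mem_torsPart {x : J} : x ∈ es1b_torsPart p J ↔ p • x = 0 := Iff.rfl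

theorem es1b_op_mem_torsPart (f : J →+ J) {x : J} (hx : x ∈ es1b_torsPart p J) :
    f x ∈ es1b_torsPart p J := by
  show p • f x = 0
  rw [← map_nsmul, hx, map_zero]

theorem es1b_galois_mem_torsPart {G : Type*} [Monoid G] [DistribMulAction G J] (σ : G) {x : J}
    (hx : x ∈ es1b_torsPart p J) : σ • x ∈ es1b_torsPart p J := by
  show p • (σ • x) = 0
  have h : σ • (p • x) = p • (σ • x) := map_nsmul (DistribSMul.toAddMonoidHom J σ) p x
  rw [← h, hx, smul_zero]

variable (p J)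

/-- the action of `G` on `J[p]` -/
@[reducible] def es1b_torsGalois (G : Type*) [Monoid G] [DistribMulAction G J] :
    DistribMulAction G (es1b_torsPart p J) where
  smul σ x := ⟨σ • (x : J), es1b_galois_mem_torsPart σ x.2⟩
  one_smul x := Subtype.ext (one_smul G (x : J))
  mul_smul σ τ x := Subtype.ext (mul_smul σ τ (x : J))
  smul_zero σ := Subtype.ext (smul_zero σ)
  smul_add σ x y := Subtype.ext (smul_add σ (x : J) (y : J))

variable {J}

/-- operators on `J[p]` -/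
def es1b_torsOp {ι : Type*} {S : Set ι} (T : S → J →+ J) (i : S) :
    Module.End ℤ (es1b_torsPart p J) :=
  (T i).toIntLinearMap.restrict (fun _ hx => es1b_op_mem_torsPart (T i) hx)

theorem es1b_torsOp_apply {ι : Type*} {S : Set ι} (T : S → J →+ J) (i : S)
    (x : es1b_torsPart p J) :
    ((es1b_torsOp p T i x : es1b_torsPart p J) : J) = T i (x : J) := rfl

theorem es1b_coe_wordAct_torsOp {ι : Type*} {S : Set ι} (T : S → J →+ J)
    (w : FreeAlgebra ℤ S) (x : es1b_torsPart p J) :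
    ((es1b_wordAct (es1b_torsOp p T) w x : es1b_torsPart p J) : J)
      = FreeAlgebra.lift ℤ (fun i : S => (T i).toIntLinearMap) w (x : J) := by
  induction w using FreeAlgebra.induction generalizing x with
  | grade0 r =>
    simp only [AlgHom.commutes, Module.algebraMap_end_apply]
    rfl
  | grade1 i =>
    rw [es1b_wordAct_ι, FreeAlgebra.lift_ι_apply]
    rfl
  | mul a b ha hb =>
    rw [map_mul, Module.End.mul_apply, ha, hb, map_mul, Module.End.mul_apply]
  | add a b ha hb =>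
    rw [map_add, LinearMap.add_apply, Submodule.coe_add, ha, hb, map_add, LinearMap.add_apply]

end Tors

end Fermat.Agent.ES1

end
end ZBES1_005_0

/-! ### bundled: `Fermat.Agent.ES1.TopB` -/
section ZBES1_005_1

/-!
# ES₁ / TOP-b — the producer: `ES1Pkg M θ p` from clauses on the `p`-torsion of a group `J`
(helper42)

`J` is any abelian group with an action of `G_ℚ` (in the application `J = J_H(M; M)(ℚ̄)`,
`H ≤ ker θ`), `T ℓ : J →+ J` the Hecke operators and `D c : J →+ J` the diamond operators.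
NO commutativity of the operators is required: the package is realised on the largest stable
subgroup of `J[p]` on which they commute (`ES1/TopBWords.lean`), which contains the support
vectors because commutator words have value `0`.

* `ES1bClauses M θ p J T D` : the clauses, all about `J[p]`, support clause in WORD form;
* `es1b_pkg_of_clauses : ES1bClauses M θ p J T D → ES1Pkg M θ p`.
-/

set_option autoImplicit false
set_option linter.style.haveILetI false
set_option linter.unusedSectionVars false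

noncomputable section

namespace Fermat.Agent.ES1

open Fermat.Agent.S48 CongruenceSubgroup UpperHalfPlane

/-- the operator attached to a variable of the Hecke–diamond ring -/
def es1b_op {M : ℕ} {J : Type} [AddCommGroup J] (T : Nat.Primes → J →+ J)
    (D : (ZMod M)ˣ → J →+ J) : HDVar M → J →+ J :=
  Sum.elim T D

theorem es1b_inr_mem_goodVars (M p : ℕ) (c : (ZMod M)ˣ) :
    (Sum.inr c : HDVar M) ∈ es1top_goodVars M p := by
  intro ℓ h
  exact absurd h (by simp)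

theorem es1b_inl_mem_goodVars {M p : ℕ} {ℓ : Nat.Primes} (h : ¬ (ℓ : ℕ) ∣ M * p) :
    (Sum.inl ℓ : HDVar M) ∈ es1top_goodVars M p := by
  intro ℓ' h'
  have : ℓ = ℓ' := Sum.inl.inj h'
  subst this
  exact h

/-- the good variable `T_ℓ` -/
def es1b_tVar {M p : ℕ} (ℓ : Nat.Primes) (h : ¬ (ℓ : ℕ) ∣ M * p) : es1top_goodVars M p :=
  ⟨Sum.inl ℓ, es1b_inl_mem_goodVars h⟩

/-- the good variable `δ_c` -/
def es1b_dVar (M p : ℕ) (c : (ZMod M)ˣ) : es1top_goodVars M p :=
  ⟨Sum.inr c, es1b_inr_mem_goodVars M p c⟩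

/-- **The clauses of TOP-b**, all about the `p`-torsion of `J`; support clause in word form. -/
structure ES1bClauses (M : ℕ) (θ : DirichletCharacter ℂ M) (p : ℕ) (J : Type) [AddCommGroup J]
    [DistribMulAction GalQ J] (T : Nat.Primes → J →+ J) (D : (ZMod M)ˣ → J →+ J) : Prop where
  /-- `J[p]` is finite -/
  finite : {x : J | p • x = 0}.Finite
  /-- Galois commutes with the good Hecke operators on `J[p]` -/
  galois_hecke : ∀ (σ : GalQ) (ℓ : Nat.Primes), ¬ (ℓ : ℕ) ∣ M * p →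
    ∀ x : J, p • x = 0 → σ • T ℓ x = T ℓ (σ • x)
  /-- Galois commutes with the diamond operators on `J[p]` -/
  galois_diamond : ∀ (σ : GalQ) (c : (ZMod M)ˣ) (x : J), p • x = 0 → σ • D c x = D c (σ • x)
  /-- every `p`-torsion element is fixed by an open subgroup -/
  finite_level : ∀ x : J, p • x = 0 → ∃ E : IntermediateField ℚ (AlgebraicClosure ℚ),
    FiniteDimensional ℚ E ∧ ∀ σ : GalQ, (∀ a ∈ E, σ a = a) → σ • x = x
  /-- `δ_1 = 1` on `J[p]` -/
  diamond_one : ∀ x : J, p • x = 0 → D 1 x = x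
  /-- `δ_{cd} = δ_c δ_d` on `J[p]` -/
  diamond_mul : ∀ (c d : (ZMod M)ˣ) (x : J), p • x = 0 → D (c * d) x = D c (D d x)
  /-- the Eichler–Shimura relation `δ_ℓ τ² − T_ℓ τ + ℓ = 0` on `J[p]` -/
  frob : ∀ ℓ : ℕ, (hℓ : ℓ.Prime) → ¬ ℓ ∣ M * p →
    ∀ c : (ZMod M)ˣ, (c : ZMod M) = (ℓ : ZMod M) →
    ∀ A : ValuationSubring (AlgebraicClosure ℚ), A.LiesOverPrime ℓ →
      ∀ τ : GalQ, A.IsFrobeniusAt τ ℓ →
        ∀ x : J, p • x = 0 → D c (τ • τ • x) - T ⟨ℓ, hℓ⟩ (τ • x) + ℓ • x = 0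
  /-- inertia over good primes acts trivially on `J[p]` -/
  unram : ∀ ℓ : ℕ, ℓ.Prime → ¬ ℓ ∣ M * p →
    ∀ A : ValuationSubring (AlgebraicClosure ℚ), A.LiesOverPrime ℓ →
      ∀ σ ∈ A.inertiaSubgroupIn ℚ, ∀ x : J, p • x = 0 → σ • x = x
  /-- every eigen-system mod `𝔪` occurs in `J[p]`, for all words (in one of the two
  normalisations) -/
  supp : ∀ g : CuspForm (Gamma1 M) 2, (g : ℍ → ℂ) ≠ 0 → HasNebenK M θ 2 g →
    ∀ b : ℕ → ℂ, IsEigenAway M θ 2 (M * p) g b →
    ∀ 𝔪 : Ideal Zb, 𝔪.IsMaximal → ((p : ℕ) : Zb) ∈ 𝔪 →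
      ∃ (s : Bool) (v : J), v ≠ 0 ∧ p • v = 0 ∧ ∀ w : FreeAlgebra ℤ (es1top_goodVars M p),
        (∃ z ∈ 𝔪, (z : ℂ) = FreeAlgebra.lift ℤ
          (fun i : es1top_goodVars M p => es1top_sys θ b s (i : HDVar M)) w) →
        FreeAlgebra.lift ℤ
          (fun i : es1top_goodVars M p => (es1b_op T D (i : HDVar M)).toIntLinearMap) w v = 0

section Main

variable {M : ℕ} {θ : DirichletCharacter ℂ M} {p : ℕ} {J : Type} [AddCommGroup J]
  [DistribMulAction GalQ J] {T : Nat.Primes → J →+ J} {D : (ZMod M)ˣ → J →+ J}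

/-- the operators on `J[p]` indexed by the good variables -/
abbrev es1b_opP (M p : ℕ) {J : Type} [AddCommGroup J] (T : Nat.Primes → J →+ J)
    (D : (ZMod M)ˣ → J →+ J) :
    es1top_goodVars M p → Module.End ℤ (es1b_torsPart p J) :=
  es1b_torsOp p (fun i : es1top_goodVars M p => es1b_op T D (i : HDVar M))

theorem es1b_opP_tVar (ℓ : Nat.Primes) (h : ¬ (ℓ : ℕ) ∣ M * p) (x : es1b_torsPart p J) :
    ((es1b_opP M p T D (es1b_tVar ℓ h) x : es1b_torsPart p J) : J) = T ℓ (x : J) := rfl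

theorem es1b_opP_dVar (c : (ZMod M)ˣ) (x : es1b_torsPart p J) :
    ((es1b_opP M p T D (es1b_dVar M p c) x : es1b_torsPart p J) : J) = D c (x : J) := rfl

theorem ES1bClauses.galois_opP (h : ES1bClauses M θ p J T D) :
    letI := es1b_torsGalois p J GalQ
    ∀ (σ : GalQ) (i : es1top_goodVars M p) (v : es1b_torsPart p J),
      σ • es1b_opP M p T D i v = es1b_opP M p T D i (σ • v) := by
  letI := es1b_torsGalois p J GalQ
  rintro σ ⟨i, hi⟩ v
  apply Subtype.ext
  rcases i with ℓ | c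
  · exact h.galois_hecke σ ℓ (hi ℓ rfl) (v : J) v.2
  · exact h.galois_diamond σ c (v : J) v.2

/-- **TOP-b.**  The clauses on `J[p]` give the Eichler–Shimura package of level `Γ₁(M)`. -/
theorem es1b_pkg_of_clauses (h : ES1bClauses M θ p J T D) : ES1Pkg M θ p := by
  classical
  letI instGT : DistribMulAction GalQ (es1b_torsPart p J) := es1b_torsGalois p J GalQ
  have hG := h.galois_opP
  letI instG : DistribMulAction GalQ (es1b_commPart (es1b_opP M p T D)) := es1b_commGalois hG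
  letI instM : Module (HDAlg M) (es1b_commPart (es1b_opP M p T D)) :=
    es1b_commModule (es1b_opP M p T D)
  -- coercions
  have hcoeG : ∀ (σ : GalQ) (x : es1b_commPart (es1b_opP M p T D)),
      (((σ • x : es1b_commPart (es1b_opP M p T D)) : es1b_torsPart p J) : J)
        = σ • ((x : es1b_torsPart p J) : J) := fun _ _ => rfl
  have hcoeT : ∀ (ℓ : Nat.Primes) (hℓ : ¬ (ℓ : ℕ) ∣ M * p)
      (x : es1b_commPart (es1b_opP M p T D)),
      (((es1top_tGen M ℓ • x : es1b_commPart (es1b_opP M p T D)) : es1b_torsPart p J) : J)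
        = T ℓ ((x : es1b_torsPart p J) : J) := by
    intro ℓ hℓ x
    have e := es1b_coe_X_smul (es1b_opP M p T D) (es1b_tVar ℓ hℓ) x
    exact congrArg Subtype.val e
  have hcoeD : ∀ (c : (ZMod M)ˣ) (x : es1b_commPart (es1b_opP M p T D)),
      (((es1top_dGen M c • x : es1b_commPart (es1b_opP M p T D)) : es1b_torsPart p J) : J)
        = D c ((x : es1b_torsPart p J) : J) := by
    intro c x
    have e := es1b_coe_X_smul (es1b_opP M p T D) (es1b_dVar M p c) x
    exact congrArg Subtype.val e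
  have hext : ∀ x y : es1b_commPart (es1b_opP M p T D),
      (((x : es1b_torsPart p J) : J) = ((y : es1b_torsPart p J) : J)) → x = y :=
    fun x y hxy => Subtype.ext (Subtype.ext hxy)
  have htors : ∀ x : es1b_commPart (es1b_opP M p T D), p • ((x : es1b_torsPart p J) : J) = 0 :=
    fun x => (x : es1b_torsPart p J).2
  refine ⟨es1b_commPart (es1b_opP M p T D), inferInstance, instM, instG, ?_⟩
  refine
    { finite := ?_
      smul_comm := ?_
      finite_level := ?_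
      diamond_one := ?_
      diamond_mul := ?_
      frob := ?_
      unram := ?_
      supp := ?_ }
  · haveI : Finite (es1b_torsPart p J) := h.finite.to_subtype
    exact Finite.of_injective (fun x : es1b_commPart (es1b_opP M p T D) =>
      (x : es1b_torsPart p J)) Subtype.val_injective
  · intro σ t v
    exact es1b_galois_smul_comm hG σ t v
  · intro v
    obtain ⟨E, hE, hfix⟩ := h.finite_level ((v : es1b_torsPart p J) : J) (htors v)
    exact ⟨E, hE, fun σ hσ => hext _ _ (by rw [hcoeG]; exact hfix σ hσ)⟩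
  · intro v
    apply hext
    rw [hcoeD]
    exact h.diamond_one _ (htors v)
  · intro c d v
    apply hext
    rw [hcoeD, hcoeD, hcoeD]
    exact h.diamond_mul c d _ (htors v)
  · intro ℓ hℓ hg c hc A hA τ hτ v
    apply hext
    have h1 := h.frob ℓ hℓ hg c hc A hA τ hτ _ (htors v)
    have e1 := hcoeD c (τ • τ • v)
    have e2 := hcoeT ⟨ℓ, hℓ⟩ hg (τ • v)
    rw [hcoeG, hcoeG] at e1
    rw [hcoeG] at e2
    show (((es1top_dGen M c • (τ • τ • v) : es1b_commPart (es1b_opP M p T D)) :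
        es1b_torsPart p J) : J)
      - (((es1top_tGen M ⟨ℓ, hℓ⟩ • (τ • v) : es1b_commPart (es1b_opP M p T D)) :
        es1b_torsPart p J) : J)
      + ℓ • ((v : es1b_torsPart p J) : J) = 0
    rw [e1, e2]
    exact h1
  · intro ℓ hℓ hg A hA σ hσ v
    apply hext
    rw [hcoeG]
    exact h.unram ℓ hℓ hg A hA σ hσ _ (htors v)
  · intro g hg0 hgθ b hb 𝔪 h𝔪 hp
    obtain ⟨s, v, hv0, hpv, hv⟩ := h.supp g hg0 hgθ b hb 𝔪 h𝔪 hp
    -- the action of words on `J[p]`
    have hw : ∀ w : FreeAlgebra ℤ (es1top_goodVars M p),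
        (∃ z ∈ 𝔪, (z : ℂ) = FreeAlgebra.lift ℤ
          (fun i : es1top_goodVars M p => es1top_sys θ b s (i : HDVar M)) w) →
        es1b_wordAct (es1b_opP M p T D) w (⟨v, hpv⟩ : es1b_torsPart p J) = 0 := by
      intro w hz
      apply Subtype.ext
      rw [es1b_coe_wordAct_torsOp]
      exact hv w hz
    -- the support vector lies in the commutative part
    have hvc : (⟨v, hpv⟩ : es1b_torsPart p J) ∈ es1b_commPart (es1b_opP M p T D) := by
      apply es1b_mem_commPart_of_comm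
      intro w i j
      apply hw
      refine ⟨0, 𝔪.zero_mem, ?_⟩
      rw [map_mul, map_sub, map_mul, map_mul,
        mul_comm (FreeAlgebra.lift ℤ
          (fun i : es1top_goodVars M p => es1top_sys θ b s (i : HDVar M)) (FreeAlgebra.ι ℤ i)),
        sub_self, zero_mul]
      rfl
    refine ⟨s, ⟨⟨v, hpv⟩, hvc⟩, fun hh => hv0 ?_, fun t ht hz => ?_⟩
    · exact congrArg (fun x : es1b_commPart (es1b_opP M p T D) =>
        ((x : es1b_torsPart p J) : J)) hh
    · obtain ⟨w, rfl⟩ := es1b_exists_wordAb_eq (es1top_goodVars M p) ht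
      apply Subtype.ext
      rw [es1b_coe_wordAb_smul]
      apply hw
      obtain ⟨z, hz𝔪, hzv⟩ := hz
      refine ⟨z, hz𝔪, ?_⟩
      rw [hzv]
      exact es1b_aeval_wordAb (es1top_goodVars M p) (es1top_sys θ b s) w

end Main

end Fermat.Agent.ES1

end
end ZBES1_005_1

/-! ### bundled: `Fermat.Agent.ES1.TopBSupp` -/
section ZBES1_005_2

/-!
# ES₁ / TOP-b — the support clause and finiteness from an abstract multiplier map (helper42)

Generic in the group `Γ` (in the application `Γ = Γ_H(M)`), in the family of natural operators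
`Op i` on `A ↦ Hom(Γ, A)` (Hecke operators and diamonds) and in the group `J` with operators `T i`:

* `es1b_supp_of_multiplier` : if `μ : J[p] → Hom(Γ, Co)` is additive, injective, equivariant, and
  its image contains `ε ∘ (x mod p)` for every integral homomorphism `x` vanishing on `P`
  (`ε : ZMod p → Co` injective), then for every nonzero joint eigen-homomorphism `v : Γ → ℂ`
  vanishing on `P`, with eigenvalues `a i`, and every proper ideal `𝔪 ∋ p` of `ℤ̄`, some nonzero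
  element of `J[p]` is killed by every word in the `T i` whose value at `a` lies in `𝔪`;
* `es1b_finite_of_multiplier` : `J[p]` is finite as soon as `Co[p]` is;
* `es1b_eigen_isIntegral` : the eigenvalues `a i` are algebraic integers.
-/

set_option autoImplicit false
set_option linter.style.haveILetI false
set_option linter.unusedSectionVars false

noncomputable section

namespace Fermat.Agent.ES1

open Fermat.Agent.ES Fermat.Agent.S48

section Generic

variable {Γ : Type} [Group Γ] {ι : Type} {S : Set ι}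
  (Op : S → ∀ (A : Type) [AddCommGroup A], (Additive Γ →+ A) →+ (Additive Γ →+ A))
  {J : Type} [AddCommGroup J] (T : S → J →+ J) {Co : Type} [AddCommGroup Co] {p : ℕ}

/-- `μ` intertwines words on `J[p]` with words on `Hom(Γ, Co)` -/
theorem es1b_multiplier_wordAct (μ : es1b_torsPart p J →+ (Additive Γ →+ Co))
    (hμT : ∀ (i : S) (x : es1b_torsPart p J), μ (es1b_torsOp p T i x) = Op i Co (μ x))
    (w : FreeAlgebra ℤ S) (x : es1b_torsPart p J) :
    μ (es1b_wordAct (es1b_torsOp p T) w x) = wordOp Op Co w (μ x) := by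
  induction w using FreeAlgebra.induction generalizing x with
  | grade0 r =>
    simp only [AlgHom.commutes, Module.algebraMap_end_apply]
    exact map_zsmul μ r x
  | grade1 i => rw [es1b_wordAct_ι, wordOp_ι, hμT]
  | mul a b ha hb =>
    simp only [map_mul, Module.End.mul_apply]
    rw [ha, hb]
  | add a b ha hb =>
    simp only [map_add, LinearMap.add_apply]
    rw [ha, hb]

/-- **The support clause (word form) from a multiplier map on `J[p]`.** -/
theorem es1b_supp_of_multiplier [Group.FG Γ] [Fact p.Prime] (P : Set Γ)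
    (hnat : ∀ (i : S) (A A' : Type) [AddCommGroup A] [AddCommGroup A'] (f : A →+ A')
      (φ : Additive Γ →+ A), Op i A' (f.comp φ) = f.comp (Op i A φ))
    (hpar : ∀ (i : S) (φ : Additive Γ →+ ℤ), φ ∈ intHoms Γ P → Op i ℤ φ ∈ intHoms Γ P)
    (μ : es1b_torsPart p J →+ (Additive Γ →+ Co)) (hμ : Function.Injective μ)
    (hμT : ∀ (i : S) (x : es1b_torsPart p J), μ (es1b_torsOp p T i x) = Op i Co (μ x))
    (ε : ZMod p →+ Co) (hε : Function.Injective ε)
    (hμS : ∀ x : Additive Γ →+ ℤ, x ∈ intHoms Γ P →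
      ∃ y : es1b_torsPart p J, μ y = ε.comp ((Int.castAddHom (ZMod p)).comp x))
    (a : S → ℂ) (v : Additive Γ →+ ℂ) (hv0 : v ≠ 0)
    (hvP : ∀ γ ∈ P, v (Additive.ofMul γ) = 0) (hv : ∀ i, Op i ℂ v = a i • v)
    (𝔪 : Ideal Zb) (h𝔪 : 𝔪 ≠ ⊤) (hp : ((p : ℕ) : Zb) ∈ 𝔪) :
    ∃ y : J, y ≠ 0 ∧ p • y = 0 ∧ ∀ w : FreeAlgebra ℤ S,
      (∃ z ∈ 𝔪, (z : ℂ) = FreeAlgebra.lift ℤ a w) →
        FreeAlgebra.lift ℤ (fun i : S => (T i).toIntLinearMap) w y = 0 := by
  obtain ⟨x, hxP, hx0, hx⟩ := exists_modp_eigen_hom_words (G := Γ) (T := Op) P hnat hpar a v hv0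
    hvP hv (algebraMap Zb ℂ) Subtype.val_injective p 𝔪 h𝔪 hp
  obtain ⟨y, hy⟩ := hμS x hxP
  refine ⟨(y : J), ?_, y.2, ?_⟩
  · intro h0
    have hy0 : y = 0 := Subtype.ext h0
    rw [hy0, map_zero] at hy
    apply hx0
    refine DFunLike.ext _ _ (fun γ => ?_)
    apply hε
    have h1 := (DFunLike.congr_fun hy γ).symm
    simp only [AddMonoidHom.zero_apply, map_zero] at h1 ⊢
    exact h1
  · intro w hw
    rw [← es1b_coe_wordAct_torsOp]
    have h1 : es1b_wordAct (es1b_torsOp p T) w y = 0 := by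
      apply hμ
      rw [map_zero, es1b_multiplier_wordAct Op T μ hμT, hy,
        wordOp_natural hnat w (ZMod p) Co ε]
      have h0 : wordOp Op (ZMod p) w ((Int.castAddHom (ZMod p)).comp x) = 0 := hx w hw
      rw [h0]
      refine DFunLike.ext _ _ (fun γ => ?_)
      simp
    rw [h1]
    rfl

/-- **`J[p]` is finite** if it embeds into `Hom(Γ, Co)`, `Γ` finitely generated, `Co[p]` finite. -/
theorem es1b_finite_of_multiplier [Group.FG Γ]
    (μ : es1b_torsPart p J →+ (Additive Γ →+ Co)) (hμ : Function.Injective μ)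
    (hCo : {c : Co | p • c = 0}.Finite) : {x : J | p • x = 0}.Finite := by
  classical
  obtain ⟨G, hG, hGfin⟩ := AddGroup.fg_iff.mp (AddGroup.fg_of_group_fg (G := Γ))
  have : Finite G := hGfin
  have : Finite {c : Co | p • c = 0} := hCo.to_subtype
  have hpow : ∀ (x : es1b_torsPart p J) (s : Additive Γ), p • (μ x s) = 0 := by
    intro x s
    have h1 : p • μ x = 0 := by
      have h0 : p • x = 0 := Subtype.ext x.2
      rw [← map_nsmul μ p x, h0, map_zero]
    have := DFunLike.congr_fun h1 s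
    simpa using this
  let ev : es1b_torsPart p J → (G → {c : Co | p • c = 0}) := fun x s =>
    ⟨μ x (s : Additive Γ), hpow x s⟩
  have hev : Function.Injective ev := by
    intro x y hxy
    apply hμ
    refine AddMonoidHom.eq_of_eqOn_dense hG (fun s hs => ?_)
    have h1 := congrArg Subtype.val (congrFun hxy ⟨s, hs⟩)
    exact h1
  have hfin : Finite (es1b_torsPart p J) := Finite.of_injective ev hev
  exact (Set.finite_coe_iff (s := {x : J | p • x = 0})).mp hfin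

end Generic

/-! ## Integrality of the eigenvalues -/

section Integral

variable {Γ : Type} [Group Γ]

/-- an eigenvalue of a natural operator on `Hom(Γ, ℂ)` (`Γ` finitely generated) is an algebraic
integer -/
theorem es1b_eigen_isIntegral [Group.FG Γ]
    (Op : ∀ (A : Type) [AddCommGroup A], (Additive Γ →+ A) →+ (Additive Γ →+ A))
    (hnat : ∀ (A A' : Type) [AddCommGroup A] [AddCommGroup A'] (f : A →+ A')
      (φ : Additive Γ →+ A), Op A' (f.comp φ) = f.comp (Op A φ))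
    (a : ℂ) (v : Additive Γ →+ ℂ) (hv0 : v ≠ 0) (hv : Op ℂ v = a • v) : IsIntegral ℤ a := by
  classical
  have hfin : Module.Finite ℤ (Additive Γ →+ ℤ) := finite_addHom_int Γ
  have hfree : Module.Free ℤ (Additive Γ →+ ℤ) := Module.free_of_finite_type_torsion_free'
  -- the operator on the lattice
  let TZ : Module.End ℤ (Additive Γ →+ ℤ) := (Op ℤ).toIntLinearMap
  -- its characteristic polynomial
  let χ : Polynomial ℤ := TZ.charpoly
  have hχ : χ.Monic := LinearMap.charpoly_monic TZ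
  have hCH : Polynomial.aeval TZ χ = 0 := LinearMap.aeval_self_charpoly TZ
  refine ⟨χ, hχ, ?_⟩
  -- `ℂ`-linearity of the operator on `Hom(Γ, ℂ)`
  have hsmul : ∀ (c : ℂ) (φ : Additive Γ →+ ℂ), c • φ = (AddMonoidHom.mulLeft c).comp φ := by
    intro c φ
    refine DFunLike.ext _ _ (fun g => ?_)
    rfl
  let TC : Module.End ℂ (Additive Γ →+ ℂ) :=
    { toFun := fun φ => Op ℂ φ
      map_add' := fun a b => map_add (Op ℂ) a b
      map_smul' := by
        intro c φ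
        show Op ℂ (c • φ) = c • Op ℂ φ
        rw [hsmul, hsmul, hnat] }
  -- `q(TC) (cast x) = cast (q(TZ) x)` for integer polynomials `q`
  have hcast : ∀ (q : Polynomial ℤ) (x : Additive Γ →+ ℤ),
      Polynomial.aeval TC q (castHomC x) = castHomC (Polynomial.aeval TZ q x) := by
    intro q x
    induction q using Polynomial.induction_on' generalizing x with
    | add q r hq hr =>
      rw [map_add, map_add, LinearMap.add_apply, LinearMap.add_apply, hq, hr, map_add]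
    | monomial n c =>
      rw [← Polynomial.C_mul_X_pow_eq_monomial, map_mul, map_mul, Polynomial.aeval_C,
        Polynomial.aeval_C, map_pow, map_pow, Polynomial.aeval_X, Polynomial.aeval_X,
        Module.End.mul_apply, Module.End.mul_apply, Module.algebraMap_end_apply,
        Module.algebraMap_end_apply]
      have hpow : ∀ (n : ℕ) (x : Additive Γ →+ ℤ), (TC ^ n) (castHomC x) = castHomC ((TZ ^ n) x) := by
        intro n
        induction n with
        | zero => intro x; simp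
        | succ n ih =>
          intro x
          rw [pow_succ, pow_succ, Module.End.mul_apply, Module.End.mul_apply]
          have e : TC (castHomC x) = castHomC (TZ x) := hnat ℤ ℂ (Int.castAddHom ℂ) x
          rw [e, ih]
      rw [hpow]
      refine DFunLike.ext _ _ (fun g => ?_)
      simp
  -- `χ(TC)` kills the span of the lattice, which is everything
  have hspan : v ∈ Submodule.span ℂ
      (Set.range fun x : intHoms Γ (∅ : Set Γ) => castHomC (x : Additive Γ →+ ℤ)) :=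
    mem_span_range_castHomC v (fun g hg => absurd hg (Set.notMem_empty g))
  have hkill : Polynomial.aeval TC χ v = 0 := by
    refine Submodule.span_induction (p := fun y _ => Polynomial.aeval TC χ y = 0)
      ?_ ?_ ?_ ?_ hspan
    · rintro _ ⟨x, rfl⟩
      show Polynomial.aeval TC χ (castHomC (x : Additive Γ →+ ℤ)) = 0
      rw [hcast, hCH]
      simp
    · simp
    · intro x y _ _ hx hy
      rw [map_add, hx, hy, add_zero]
    · intro c x _ hx
      rw [map_smul, hx, smul_zero]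
  -- on the eigenvector `χ(TC)` acts by `χ(a)`
  have heig : Polynomial.aeval TC χ v = (Polynomial.aeval a χ) • v := by
    have hTv : TC v = a • v := hv
    have hmem : Module.End.HasEigenvector TC a v := by
      refine ⟨Module.End.mem_eigenspace_iff.mpr hTv, hv0⟩
    have h1 := Module.End.aeval_apply_of_hasEigenvector (p := χ.map (algebraMap ℤ ℂ)) hmem
    rwa [Polynomial.aeval_map_algebraMap, Polynomial.eval_map_algebraMap] at h1
  rw [heig] at hkill
  have h0 : Polynomial.aeval a χ = 0 := by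
    rcases smul_eq_zero.mp hkill with h | h
    · exact h
    · exact absurd h hv0
  show Polynomial.eval₂ (algebraMap ℤ ℂ) a χ = 0
  rw [← Polynomial.aeval_def]
  exact h0

end Integral

end Fermat.Agent.ES1

end
end ZBES1_005_2

/-! ### bundled: `Fermat.Agent.ES1.TopBUnif` -/
section ZBES1_005_3

/-!
# ES₁ / TOP-b — the abstract G1 contract and the assembly (helper42)

`ES1bUnifData M θ p J T D Γ P Op Co μ ε` is what piece G1 has to deliver for the `p`-torsion of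
`J` (`= JH M M H`) with its Hecke operators `T ℓ` and diamonds `D c`:

* a finitely generated group `Γ` (`= Γ_H(M)`), a set `P ⊆ Γ` (the parabolic elements), natural
  operators `Op i` on `A ↦ Hom(Γ, A)` (one for every good variable `T_ℓ`, `ℓ ∤ M p`, and `δ_c`)
  preserving the integral homomorphisms vanishing on `P`;
* the multiplier map `μ : J[p] → Hom(Γ, Co)` (`Co = Additive ℂˣ`): additive, injective,
  equivariant, onto the classes `ε ∘ (x mod p)`, `x` integral vanishing on `P`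
  (`ε : ZMod p → Co`, `k ↦ e(k/p)`);
* (G1-PER) the period eigen-homomorphism: for `g ≠ 0` in `S₂(Γ₁(M))` with nebentypus `θ` and
  eigenvalues `b` there is `v : Γ → ℂ`, `v ≠ 0`, vanishing on `P`, with
  `Op i ℂ v = es1top_sys θ b s i • v` for one `s : Bool`.

`es1b_clauses_of_unif` : with the clauses Galois/diamond/frob/unram this gives `ES1bClauses`,
hence `ES1Pkg M θ p` (`es1b_pkg_of_unif`).
-/

set_option autoImplicit false
set_option linter.style.haveILetI false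
set_option linter.unusedSectionVars false

noncomputable section

namespace Fermat.Agent.ES1

open Fermat.Agent.ES Fermat.Agent.S48 CongruenceSubgroup UpperHalfPlane

/-- **The abstract G1 contract.** -/
structure ES1bUnifData (M : ℕ) (θ : DirichletCharacter ℂ M) (p : ℕ) (J : Type) [AddCommGroup J]
    (T : Nat.Primes → J →+ J) (D : (ZMod M)ˣ → J →+ J)
    (Γ : Type) [Group Γ] (P : Set Γ)
    (Op : es1top_goodVars M p → ∀ (A : Type) [AddCommGroup A],
      (Additive Γ →+ A) →+ (Additive Γ →+ A))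
    (Co : Type) [AddCommGroup Co] (μ : es1b_torsPart p J →+ (Additive Γ →+ Co))
    (ε : ZMod p →+ Co) : Prop where
  /-- `Γ` is finitely generated -/
  fg : Group.FG Γ
  /-- the operators are natural in the coefficient group -/
  nat : ∀ (i : es1top_goodVars M p) (A A' : Type) [AddCommGroup A] [AddCommGroup A']
    (f : A →+ A') (φ : Additive Γ →+ A), Op i A' (f.comp φ) = f.comp (Op i A φ)
  /-- the operators preserve the integral homomorphisms vanishing on `P` -/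
  par : ∀ (i : es1top_goodVars M p) (φ : Additive Γ →+ ℤ),
    φ ∈ intHoms Γ P → Op i ℤ φ ∈ intHoms Γ P
  /-- `μ` is injective -/
  inj : Function.Injective μ
  /-- `μ` is equivariant -/
  equiv : ∀ (i : es1top_goodVars M p) (x : es1b_torsPart p J),
    μ (es1b_opP M p T D i x) = Op i Co (μ x)
  /-- `ε` is injective -/
  eps_inj : Function.Injective ε
  /-- `Co[p]` is finite -/
  co_fin : {c : Co | p • c = 0}.Finite
  /-- the image of `μ` contains the classes `ε ∘ (x mod p)` -/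
  surj : ∀ x : Additive Γ →+ ℤ, x ∈ intHoms Γ P →
    ∃ y : es1b_torsPart p J, μ y = ε.comp ((Int.castAddHom (ZMod p)).comp x)
  /-- (G1-PER) the period eigen-homomorphism of an eigenvector `g` -/
  period : ∀ g : CuspForm (Gamma1 M) 2, (g : ℍ → ℂ) ≠ 0 → HasNebenK M θ 2 g →
    ∀ b : ℕ → ℂ, IsEigenAway M θ 2 (M * p) g b →
      ∃ (s : Bool) (v : Additive Γ →+ ℂ), v ≠ 0 ∧ (∀ γ ∈ P, v (Additive.ofMul γ) = 0) ∧
        ∀ i : es1top_goodVars M p, Op i ℂ v = es1top_sys θ b s (i : HDVar M) • v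

section Assembly

variable {M : ℕ} {θ : DirichletCharacter ℂ M} {p : ℕ} {J : Type} [AddCommGroup J]
  [DistribMulAction GalQ J] {T : Nat.Primes → J →+ J} {D : (ZMod M)ˣ → J →+ J}
  {Γ : Type} [Group Γ] {P : Set Γ}
  {Op : es1top_goodVars M p → ∀ (A : Type) [AddCommGroup A],
    (Additive Γ →+ A) →+ (Additive Γ →+ A)}
  {Co : Type} [AddCommGroup Co] {μ : es1b_torsPart p J →+ (Additive Γ →+ Co)}
  {ε : ZMod p →+ Co}

/-- **TOP-b, assembly.**  The G1 contract and the clauses Galois/diamond/frob/unram give all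
the clauses of `ES1bClauses`. -/
theorem es1b_clauses_of_unif [Fact p.Prime] (hU : ES1bUnifData M θ p J T D Γ P Op Co μ ε)
    (hGT : ∀ (σ : GalQ) (ℓ : Nat.Primes), ¬ (ℓ : ℕ) ∣ M * p →
      ∀ x : J, p • x = 0 → σ • T ℓ x = T ℓ (σ • x))
    (hGD : ∀ (σ : GalQ) (c : (ZMod M)ˣ) (x : J), p • x = 0 → σ • D c x = D c (σ • x))
    (hlev : ∀ x : J, p • x = 0 → ∃ E : IntermediateField ℚ (AlgebraicClosure ℚ),
      FiniteDimensional ℚ E ∧ ∀ σ : GalQ, (∀ a ∈ E, σ a = a) → σ • x = x)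
    (hD1 : ∀ x : J, p • x = 0 → D 1 x = x)
    (hDmul : ∀ (c d : (ZMod M)ˣ) (x : J), p • x = 0 → D (c * d) x = D c (D d x))
    (hfrob : ∀ ℓ : ℕ, (hℓ : ℓ.Prime) → ¬ ℓ ∣ M * p →
      ∀ c : (ZMod M)ˣ, (c : ZMod M) = (ℓ : ZMod M) →
      ∀ A : ValuationSubring (AlgebraicClosure ℚ), A.LiesOverPrime ℓ →
        ∀ τ : GalQ, A.IsFrobeniusAt τ ℓ →
          ∀ x : J, p • x = 0 → D c (τ • τ • x) - T ⟨ℓ, hℓ⟩ (τ • x) + ℓ • x = 0)
    (hunr : ∀ ℓ : ℕ, ℓ.Prime → ¬ ℓ ∣ M * p →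
      ∀ A : ValuationSubring (AlgebraicClosure ℚ), A.LiesOverPrime ℓ →
        ∀ σ ∈ A.inertiaSubgroupIn ℚ, ∀ x : J, p • x = 0 → σ • x = x) :
    ES1bClauses M θ p J T D := by
  haveI := hU.fg
  refine
    { finite := es1b_finite_of_multiplier μ hU.inj hU.co_fin
      galois_hecke := hGT
      galois_diamond := hGD
      finite_level := hlev
      diamond_one := hD1
      diamond_mul := hDmul
      frob := hfrob
      unram := hunr
      supp := ?_ }
  intro g hg0 hgθ b hb 𝔪 h𝔪 hp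
  obtain ⟨s, v, hv0, hvP, hv⟩ := hU.period g hg0 hgθ b hb
  obtain ⟨y, hy0, hpy, hy⟩ := es1b_supp_of_multiplier Op
    (fun i : es1top_goodVars M p => es1b_op T D (i : HDVar M)) P hU.nat hU.par μ hU.inj
    hU.equiv ε hU.eps_inj hU.surj
    (fun i : es1top_goodVars M p => es1top_sys θ b s (i : HDVar M)) v hv0 hvP hv 𝔪
    h𝔪.ne_top hp
  exact ⟨s, y, hy0, hpy, hy⟩

/-- **TOP-b, final form**: the package from the G1 contract and the G2 clauses. -/
theorem es1b_pkg_of_unif [Fact p.Prime] (hU : ES1bUnifData M θ p J T D Γ P Op Co μ ε)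
    (hGT : ∀ (σ : GalQ) (ℓ : Nat.Primes), ¬ (ℓ : ℕ) ∣ M * p →
      ∀ x : J, p • x = 0 → σ • T ℓ x = T ℓ (σ • x))
    (hGD : ∀ (σ : GalQ) (c : (ZMod M)ˣ) (x : J), p • x = 0 → σ • D c x = D c (σ • x))
    (hlev : ∀ x : J, p • x = 0 → ∃ E : IntermediateField ℚ (AlgebraicClosure ℚ),
      FiniteDimensional ℚ E ∧ ∀ σ : GalQ, (∀ a ∈ E, σ a = a) → σ • x = x)
    (hD1 : ∀ x : J, p • x = 0 → D 1 x = x)
    (hDmul : ∀ (c d : (ZMod M)ˣ) (x : J), p • x = 0 → D (c * d) x = D c (D d x))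
    (hfrob : ∀ ℓ : ℕ, (hℓ : ℓ.Prime) → ¬ ℓ ∣ M * p →
      ∀ c : (ZMod M)ˣ, (c : ZMod M) = (ℓ : ZMod M) →
      ∀ A : ValuationSubring (AlgebraicClosure ℚ), A.LiesOverPrime ℓ →
        ∀ τ : GalQ, A.IsFrobeniusAt τ ℓ →
          ∀ x : J, p • x = 0 → D c (τ • τ • x) - T ⟨ℓ, hℓ⟩ (τ • x) + ℓ • x = 0)
    (hunr : ∀ ℓ : ℕ, ℓ.Prime → ¬ ℓ ∣ M * p →
      ∀ A : ValuationSubring (AlgebraicClosure ℚ), A.LiesOverPrime ℓ →
        ∀ σ ∈ A.inertiaSubgroupIn ℚ, ∀ x : J, p • x = 0 → σ • x = x) :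
    ES1Pkg M θ p :=
  es1b_pkg_of_clauses (es1b_clauses_of_unif hU hGT hGD hlev hD1 hDmul hfrob hunr)

end Assembly

end Fermat.Agent.ES1

end
end ZBES1_005_3

/-! ### bundled: `Fermat.Agent.ES1.G1Op` -/
section ZBES1_005_4

/-!
# ES₁-G1, piece G1-OP: the operators `Op` on `Hom(Γ, A)`, `Γ = gammaH L M H` (helper78)

* generic facts on Mathlib's transfer: `es1g1op_transfer_mul`, `es1g1op_transfer_comp`,
  `es1g1op_transfer_eq_one` (from `MonoidHom.transfer_eq_prod_quotient_orbitRel_zpowers_quot`);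
* `heckeGrpHom`, `diamGrpHom` : `heckeGrp`, `diamGrp` as additive maps in `φ`; naturality in the
  coefficient group (`heckeGrp_comp`, `diamGrp_comp`); they preserve the homomorphisms vanishing
  on the elements of trace `±2` (`heckeGrp_par`, `diamGrp_par`);
* `es1g1opPar L M H` : the set `P` of the elements of trace `±2`;
* `es1g1opSigma hML c` : a chosen `σ ∈ Γ₀(L) ∩ Γ₀(M)` with `diamHom M σ = c`;
* `es1g1Op L M H p hML` : THE family `Op` of `ES1bUnifData` (`T_ℓ ↦ heckeGrp ℓ`,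
  `δ_c ↦ diamGrp σ_c`), with `es1g1op_fg`, `es1g1op_nat`, `es1g1op_par` = the clauses `fg`, `nat`,
  `par` of `ES1bUnifData`.
-/

set_option autoImplicit false

noncomputable section

namespace Fermat.Agent.ES1

open CongruenceSubgroup Matrix Matrix.SpecialLinearGroup Fermat.Agent.ES
open scoped MatrixGroups

/-! ## Transfer -/

section Transfer

variable {G : Type*} [Group G] {K : Subgroup G} [K.FiniteIndex]
variable {A B : Type*} [CommGroup A] [CommGroup B]

theorem es1g1op_transfer_mul (ϕ ψ : K →* A) :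
    MonoidHom.transfer (ϕ * ψ) = MonoidHom.transfer ϕ * MonoidHom.transfer ψ := by
  classical
  ext g
  haveI : Finite (G ⧸ K) := Subgroup.finite_quotient_of_finiteIndex
  haveI : Fintype (Quotient (MulAction.orbitRel (Subgroup.zpowers g) (G ⧸ K))) :=
    Fintype.ofFinite _
  rw [MonoidHom.mul_apply, MonoidHom.transfer_eq_prod_quotient_orbitRel_zpowers_quot,
    MonoidHom.transfer_eq_prod_quotient_orbitRel_zpowers_quot,
    MonoidHom.transfer_eq_prod_quotient_orbitRel_zpowers_quot, ← Finset.prod_mul_distrib]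
  rfl

theorem es1g1op_transfer_comp (f : A →* B) (ϕ : K →* A) :
    MonoidHom.transfer (f.comp ϕ) = f.comp (MonoidHom.transfer ϕ) := by
  classical
  ext g
  haveI : Finite (G ⧸ K) := Subgroup.finite_quotient_of_finiteIndex
  haveI : Fintype (Quotient (MulAction.orbitRel (Subgroup.zpowers g) (G ⧸ K))) :=
    Fintype.ofFinite _
  rw [MonoidHom.comp_apply, MonoidHom.transfer_eq_prod_quotient_orbitRel_zpowers_quot,
    MonoidHom.transfer_eq_prod_quotient_orbitRel_zpowers_quot, map_prod]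
  rfl

/-- the transfer of `ϕ` is trivial at `g` if `ϕ` is trivial on the conjugates of the powers of
`g` lying in the subgroup -/
theorem es1g1op_transfer_eq_one (ϕ : K →* A) (g : G)
    (h : ∀ (k : G) (r : ℕ) (hk : k⁻¹ * g ^ r * k ∈ K), ϕ ⟨k⁻¹ * g ^ r * k, hk⟩ = 1) :
    MonoidHom.transfer ϕ g = 1 := by
  classical
  haveI : Finite (G ⧸ K) := Subgroup.finite_quotient_of_finiteIndex
  haveI : Fintype (Quotient (MulAction.orbitRel (Subgroup.zpowers g) (G ⧸ K))) :=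
    Fintype.ofFinite _
  rw [MonoidHom.transfer_eq_prod_quotient_orbitRel_zpowers_quot]
  exact Finset.prod_eq_one fun q _ => h _ _ _

end Transfer

/-! ## The set of the elements of trace `±2` -/

/-- the elements of trace `±2` of `Γ = gammaH L M H` -/
def es1g1opPar (L M : ℕ) (H : Subgroup (ZMod M)ˣ) : Set (gammaH L M H) :=
  {γ | ((γ : SL(2, ℤ)) : Matrix (Fin 2) (Fin 2) ℤ).trace ^ 2 = 4}

theorem mem_es1g1opPar {L M : ℕ} {H : Subgroup (ZMod M)ˣ} {γ : gammaH L M H} :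
    γ ∈ es1g1opPar L M H ↔ ((γ : SL(2, ℤ)) : Matrix (Fin 2) (Fin 2) ℤ).trace ^ 2 = 4 := Iff.rfl

theorem es1g1op_trace_conjAlphaSL (ℓ : ℕ) (γ : SL(2, ℤ)) (h : (ℓ : ℤ) ∣ γ 1 0) :
    ((conjAlphaSL ℓ γ h : SL(2, ℤ)) : Matrix (Fin 2) (Fin 2) ℤ).trace
      = (γ : Matrix (Fin 2) (Fin 2) ℤ).trace := by
  rw [Matrix.trace_fin_two, Matrix.trace_fin_two]
  rfl

theorem es1g1op_trace_conj' (x g : SL(2, ℤ)) :
    ((x * g * x⁻¹ : SL(2, ℤ)) : Matrix (Fin 2) (Fin 2) ℤ).trace =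
      (g : Matrix (Fin 2) (Fin 2) ℤ).trace := by
  have := Fermat.Agent.S21.E1.trace_conj x⁻¹ g
  rwa [inv_inv] at this

/-! ## The Hecke operator -/

section Hecke

variable (L M : ℕ) [NeZero L] [NeZero M] (H : Subgroup (ZMod M)ˣ) (ℓ : ℕ) [NeZero ℓ]
variable {A B : Type*} [AddCommGroup A] [AddCommGroup B]

theorem heckeRes_add (hML : M ∣ L) (φ ψ : Additive (gammaH L M H) →+ A) :
    heckeRes L M H ℓ hML (φ + ψ) = heckeRes L M H ℓ hML φ * heckeRes L M H ℓ hML ψ := rfl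

theorem heckeRes_comp (hML : M ∣ L) (f : A →+ B) (φ : Additive (gammaH L M H) →+ A) :
    heckeRes L M H ℓ hML (f.comp φ)
      = (AddMonoidHom.toMultiplicative f).comp (heckeRes L M H ℓ hML φ) := rfl

theorem heckeGrp_add (hML : M ∣ L) (φ ψ : Additive (gammaH L M H) →+ A) :
    heckeGrp L M H ℓ hML (φ + ψ) = heckeGrp L M H ℓ hML φ + heckeGrp L M H ℓ hML ψ := by
  refine DFunLike.ext _ _ fun γ => ?_
  obtain ⟨γ, rfl⟩ : ∃ g : gammaH L M H, Additive.ofMul g = γ := ⟨Additive.toMul γ, rfl⟩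
  rw [AddMonoidHom.add_apply, heckeGrp_apply, heckeGrp_apply, heckeGrp_apply, heckeRes_add,
    es1g1op_transfer_mul]
  rfl

/-- naturality of `T_ℓ` in the coefficient group -/
theorem heckeGrp_comp (hML : M ∣ L) (f : A →+ B) (φ : Additive (gammaH L M H) →+ A) :
    heckeGrp L M H ℓ hML (f.comp φ) = f.comp (heckeGrp L M H ℓ hML φ) := by
  refine DFunLike.ext _ _ fun γ => ?_
  obtain ⟨γ, rfl⟩ : ∃ g : gammaH L M H, Additive.ofMul g = γ := ⟨Additive.toMul γ, rfl⟩
  rw [AddMonoidHom.comp_apply, heckeGrp_apply, heckeGrp_apply, heckeRes_comp,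
    es1g1op_transfer_comp]
  rfl

/-- `T_ℓ` as an additive map -/
def heckeGrpHom (hML : M ∣ L) (A : Type*) [AddCommGroup A] :
    (Additive (gammaH L M H) →+ A) →+ (Additive (gammaH L M H) →+ A) :=
  AddMonoidHom.mk' (heckeGrp L M H ℓ hML) (heckeGrp_add L M H ℓ hML)

@[simp] theorem heckeGrpHom_apply (hML : M ∣ L) (φ : Additive (gammaH L M H) →+ A) :
    heckeGrpHom L M H ℓ hML A φ = heckeGrp L M H ℓ hML φ := rfl

/-- `T_ℓ` preserves the homomorphisms vanishing on the elements of trace `±2` -/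
theorem heckeGrp_par (hML : M ∣ L) {φ : Additive (gammaH L M H) →+ A}
    (hφ : ∀ γ ∈ es1g1opPar L M H, φ (Additive.ofMul γ) = 0) :
    ∀ γ ∈ es1g1opPar L M H, heckeGrp L M H ℓ hML φ (Additive.ofMul γ) = 0 := by
  intro γ hγ
  rw [heckeGrp_apply]
  have key : MonoidHom.transfer (heckeRes L M H ℓ hML φ) γ = 1 := by
    refine es1g1op_transfer_eq_one _ γ fun k r hk => ?_
    show Multiplicative.ofAdd (φ (Additive.ofMul (conjAlphaH H ℓ (NeZero.ne ℓ) hML
      (subLevelEquiv L M H ℓ ⟨k⁻¹ * γ ^ r * k, hk⟩)))) = 1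
    rw [hφ, ofAdd_zero]
    rw [mem_es1g1opPar, coe_conjAlphaH, es1g1op_trace_conjAlphaSL]
    have h1 : (((subLevelEquiv L M H ℓ ⟨k⁻¹ * γ ^ r * k, hk⟩ : gammaH (L * ℓ) M H) : SL(2, ℤ)))
        = (k : SL(2, ℤ))⁻¹ * (γ : SL(2, ℤ)) ^ r * (k : SL(2, ℤ)) := rfl
    rw [h1, Fermat.Agent.S21.E1.trace_conj]
    exact Fermat.Agent.ES.HeckeP.trace_pow_sq_eq_four _ hγ r
  rw [key]
  rfl

end Hecke

/-! ## The diamond operators -/

section Diamond

variable (L M : ℕ) (H : Subgroup (ZMod M)ˣ)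
variable {A B : Type*} [AddCommGroup A] [AddCommGroup B]

theorem diamGrp_add (σ : SL(2, ℤ)) (hσL : σ ∈ Gamma0 L) (hσM : σ ∈ Gamma0 M)
    (φ ψ : Additive (gammaH L M H) →+ A) :
    diamGrp L M H σ hσL hσM (φ + ψ) = diamGrp L M H σ hσL hσM φ + diamGrp L M H σ hσL hσM ψ :=
  rfl

/-- naturality of the diamond operators in the coefficient group -/
theorem diamGrp_comp (σ : SL(2, ℤ)) (hσL : σ ∈ Gamma0 L) (hσM : σ ∈ Gamma0 M) (f : A →+ B)
    (φ : Additive (gammaH L M H) →+ A) :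
    diamGrp L M H σ hσL hσM (f.comp φ) = f.comp (diamGrp L M H σ hσL hσM φ) := rfl

/-- the diamond operator as an additive map -/
def diamGrpHom (σ : SL(2, ℤ)) (hσL : σ ∈ Gamma0 L) (hσM : σ ∈ Gamma0 M) (A : Type*)
    [AddCommGroup A] : (Additive (gammaH L M H) →+ A) →+ (Additive (gammaH L M H) →+ A) :=
  AddMonoidHom.mk' (diamGrp L M H σ hσL hσM) (diamGrp_add L M H σ hσL hσM)

@[simp] theorem diamGrpHom_apply (σ : SL(2, ℤ)) (hσL : σ ∈ Gamma0 L) (hσM : σ ∈ Gamma0 M)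
    (φ : Additive (gammaH L M H) →+ A) :
    diamGrpHom L M H σ hσL hσM A φ = diamGrp L M H σ hσL hσM φ := rfl

/-- the diamond operators preserve the homomorphisms vanishing on the elements of trace `±2` -/
theorem diamGrp_par (σ : SL(2, ℤ)) (hσL : σ ∈ Gamma0 L) (hσM : σ ∈ Gamma0 M)
    {φ : Additive (gammaH L M H) →+ A}
    (hφ : ∀ γ ∈ es1g1opPar L M H, φ (Additive.ofMul γ) = 0) :
    ∀ γ ∈ es1g1opPar L M H, diamGrp L M H σ hσL hσM φ (Additive.ofMul γ) = 0 := by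
  intro γ hγ
  rw [diamGrp_apply]
  apply hφ
  rw [mem_es1g1opPar]
  show ((σ * (γ : SL(2, ℤ)) * σ⁻¹ : SL(2, ℤ)) : Matrix (Fin 2) (Fin 2) ℤ).trace ^ 2 = 4
  rw [es1g1op_trace_conj']
  exact hγ

/-- the diamond operator depends only on the class of `σ` -/
theorem diamGrp_congr {σ σ' : SL(2, ℤ)} (hσL : σ ∈ Gamma0 L) (hσM : σ ∈ Gamma0 M)
    (hσL' : σ' ∈ Gamma0 L) (hσM' : σ' ∈ Gamma0 M)
    (h : diamHom M ⟨σ, hσM⟩ = diamHom M ⟨σ', hσM'⟩) (φ : Additive (gammaH L M H) →+ A) :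
    diamGrp L M H σ hσL hσM φ = diamGrp L M H σ' hσL' hσM' φ := by
  -- `ρ = σ'⁻¹ σ ∈ Γ`
  have hρM : σ'⁻¹ * σ ∈ Gamma0 M := mul_mem (inv_mem hσM') hσM
  have hρ : σ'⁻¹ * σ ∈ gammaH L M H := by
    refine ⟨mul_mem (inv_mem hσL') hσL, hρM, ?_⟩
    have h1 : (⟨σ'⁻¹ * σ, hρM⟩ : Gamma0 M) = (⟨σ', hσM'⟩ : Gamma0 M)⁻¹ * ⟨σ, hσM⟩ := rfl
    rw [h1, map_mul, map_inv, h, inv_mul_cancel]
    exact one_mem _
  refine DFunLike.ext _ _ fun γ => ?_
  obtain ⟨γ, rfl⟩ : ∃ g : gammaH L M H, Additive.ofMul g = γ := ⟨Additive.toMul γ, rfl⟩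
  have h2 := DFunLike.congr_fun (diamGrp_of_mem L M H hρ (diamGrp L M H σ' hσL' hσM' φ))
    (Additive.ofMul γ)
  rw [← h2, diamGrp_apply, diamGrp_apply, diamGrp_apply]
  congr 2
  apply Subtype.ext
  show σ * (γ : SL(2, ℤ)) * σ⁻¹ = σ' * (σ'⁻¹ * σ * (γ : SL(2, ℤ)) * (σ'⁻¹ * σ)⁻¹) * σ'⁻¹
  group

end Diamond

/-! ## The family `Op` -/

section Op

variable (L M : ℕ) [NeZero L] [NeZero M] (H : Subgroup (ZMod M)ˣ)

/-- `Γ = gammaH L M H` is finitely generated -/
theorem es1g1op_fg : Group.FG (gammaH L M H) := es1per_fg (gammaH L M H)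

variable {L M}

theorem es1g1op_exists_sigma (hML : M ∣ L) (c : (ZMod M)ˣ) :
    ∃ σ : SL(2, ℤ), ∃ (_ : σ ∈ Gamma0 L) (hσM : σ ∈ Gamma0 M), diamHom M ⟨σ, hσM⟩ = c := by
  obtain ⟨γ, hγ, h00⟩ := es1rc_exists_rep hML c
  have hM : γ ∈ Gamma0 M := Fermat.Agent.ES.RC.rc_Gamma0_le_of_dvd hML hγ
  refine ⟨γ, hγ, hM, ?_⟩
  ext
  rw [coe_diamHom]
  exact h00

/-- a chosen `σ ∈ Γ₀(L) ∩ Γ₀(M)` with diamond `c` -/
def es1g1opSigma (hML : M ∣ L) (c : (ZMod M)ˣ) : SL(2, ℤ) :=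
  (es1g1op_exists_sigma hML c).choose

theorem es1g1opSigma_memL (hML : M ∣ L) (c : (ZMod M)ˣ) : es1g1opSigma hML c ∈ Gamma0 L :=
  (es1g1op_exists_sigma hML c).choose_spec.choose

theorem es1g1opSigma_memM (hML : M ∣ L) (c : (ZMod M)ˣ) : es1g1opSigma hML c ∈ Gamma0 M :=
  (es1g1op_exists_sigma hML c).choose_spec.choose_spec.choose

theorem es1g1opSigma_diam (hML : M ∣ L) (c : (ZMod M)ˣ) :
    diamHom M ⟨es1g1opSigma hML c, es1g1opSigma_memM hML c⟩ = c :=
  (es1g1op_exists_sigma hML c).choose_spec.choose_spec.choose_spec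

variable (L M)

/-- the operator attached to a variable: `T_ℓ ↦ heckeGrp ℓ`, `δ_c ↦ diamGrp σ_c` -/
def es1g1OpVar (hML : M ∣ L) (A : Type) [AddCommGroup A] :
    HDVar M → ((Additive (gammaH L M H) →+ A) →+ (Additive (gammaH L M H) →+ A))
  | Sum.inl ℓ =>
      haveI : NeZero (ℓ : ℕ) := ⟨ℓ.2.ne_zero⟩
      heckeGrpHom L M H ℓ hML A
  | Sum.inr c =>
      diamGrpHom L M H (es1g1opSigma hML c) (es1g1opSigma_memL hML c)
        (es1g1opSigma_memM hML c) A

/-- **THE family `Op`** of the G1 contract `ES1bUnifData` for `Γ = gammaH L M H`. -/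
def es1g1Op (p : ℕ) (hML : M ∣ L) :
    es1top_goodVars M p → ∀ (A : Type) [AddCommGroup A],
      (Additive (gammaH L M H) →+ A) →+ (Additive (gammaH L M H) →+ A) :=
  fun i A _ => es1g1OpVar L M H hML A (i : HDVar M)

variable {L M H}

theorem es1g1Op_inl (p : ℕ) (hML : M ∣ L) (ℓ : Nat.Primes) (h : Sum.inl ℓ ∈ es1top_goodVars M p)
    (A : Type) [AddCommGroup A] (φ : Additive (gammaH L M H) →+ A) :
    es1g1Op L M H p hML ⟨Sum.inl ℓ, h⟩ A φ =
      (haveI : NeZero (ℓ : ℕ) := ⟨ℓ.2.ne_zero⟩; heckeGrp L M H ℓ hML φ) := rfl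

theorem es1g1Op_inr (p : ℕ) (hML : M ∣ L) (c : (ZMod M)ˣ) (h : Sum.inr c ∈ es1top_goodVars M p)
    (A : Type) [AddCommGroup A] (φ : Additive (gammaH L M H) →+ A)
    (σ : SL(2, ℤ)) (hσL : σ ∈ Gamma0 L) (hσM : σ ∈ Gamma0 M) (hσ : diamHom M ⟨σ, hσM⟩ = c) :
    es1g1Op L M H p hML ⟨Sum.inr c, h⟩ A φ = diamGrp L M H σ hσL hσM φ :=
  diamGrp_congr L M H _ _ hσL hσM ((es1g1opSigma_diam hML c).trans hσ.symm) φ

/-- clause `nat` of `ES1bUnifData` -/
theorem es1g1op_nat (p : ℕ) (hML : M ∣ L) (i : es1top_goodVars M p) (A A' : Type)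
    [AddCommGroup A] [AddCommGroup A'] (f : A →+ A') (φ : Additive (gammaH L M H) →+ A) :
    es1g1Op L M H p hML i A' (f.comp φ) = f.comp (es1g1Op L M H p hML i A φ) := by
  obtain ⟨i, hi⟩ := i
  rcases i with ℓ | c
  · haveI : NeZero (ℓ : ℕ) := ⟨ℓ.2.ne_zero⟩
    exact heckeGrp_comp L M H ℓ hML f φ
  · exact diamGrp_comp L M H _ _ _ f φ

/-- clause `par` of `ES1bUnifData` -/
theorem es1g1op_par (p : ℕ) (hML : M ∣ L) (i : es1top_goodVars M p)
    (φ : Additive (gammaH L M H) →+ ℤ)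
    (hφ : φ ∈ intHoms (gammaH L M H) (es1g1opPar L M H)) :
    es1g1Op L M H p hML i ℤ φ ∈ intHoms (gammaH L M H) (es1g1opPar L M H) := by
  obtain ⟨i, hi⟩ := i
  rcases i with ℓ | c
  · haveI : NeZero (ℓ : ℕ) := ⟨ℓ.2.ne_zero⟩
    exact heckeGrp_par L M H ℓ hML hφ
  · exact diamGrp_par L M H _ _ _ hφ

end Op

end Fermat.Agent.ES1

end
end ZBES1_005_4

/-! ### bundled: `Fermat.Agent.ES1.Inf.Bridge` -/
section ZBES1_005_5

/-!
# ES₁-inf, piece (P4): the bridge `heckeGrp` (ES₁) ↔ `tS` (K5), `diamGrp` ↔ `diamS` (helper38)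

`Γ = gammaH L M H`, `Γ' = gammaH (L ℓ) M H`, `i : Γ' → Γ` the inclusion, `c : Γ' → Γ` conjugation
by `δ = diag(ℓ, 1)`.
* ES₁: `heckeGrp ℓ = cores_i ∘ res_c` (`es1inf_heckeGrp_eq_cores_res`);
* K5:  `tS ℓ = cores_c ∘ res_i`.
For `σ = (ℓ, b; L, d) ∈ Γ₀(L)`, `ℓ d − b L = 1` (diamond class `ℓ`):
**`diamGrp σ (tS ℓ φ) = heckeGrp ℓ φ`** (`es1inf_diamGrp_tS`).
-/

set_option autoImplicit false

noncomputable section

namespace Fermat.Agent.ES1

open CongruenceSubgroup Matrix Matrix.SpecialLinearGroup Fermat.Agent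
open scoped MatrixGroups

/-! ## Entries of a conjugate -/

theorem es1inf_conj_00 (g x : SL(2, ℤ)) :
    (g * x * g⁻¹ : SL(2, ℤ)) 0 0
      = (g 0 0 * x 0 0 + g 0 1 * x 1 0) * g 1 1 - (g 0 0 * x 0 1 + g 0 1 * x 1 1) * g 1 0 := by
  rw [SL2_inv_expl]
  simp only [coe_mul, Matrix.mul_apply, Fin.sum_univ_two, Matrix.of_apply, Matrix.cons_val_zero,
    Matrix.cons_val_one, Matrix.cons_val', Matrix.cons_val_fin_one]
  ring

theorem es1inf_conj_01 (g x : SL(2, ℤ)) :
    (g * x * g⁻¹ : SL(2, ℤ)) 0 1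
      = -((g 0 0 * x 0 0 + g 0 1 * x 1 0) * g 0 1) + (g 0 0 * x 0 1 + g 0 1 * x 1 1) * g 0 0 := by
  rw [SL2_inv_expl]
  simp only [coe_mul, Matrix.mul_apply, Fin.sum_univ_two, Matrix.of_apply, Matrix.cons_val_zero,
    Matrix.cons_val_one, Matrix.cons_val', Matrix.cons_val_fin_one]
  ring

theorem es1inf_conj_10 (g x : SL(2, ℤ)) :
    (g * x * g⁻¹ : SL(2, ℤ)) 1 0
      = (g 1 0 * x 0 0 + g 1 1 * x 1 0) * g 1 1 - (g 1 0 * x 0 1 + g 1 1 * x 1 1) * g 1 0 := by
  rw [SL2_inv_expl]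
  simp only [coe_mul, Matrix.mul_apply, Fin.sum_univ_two, Matrix.of_apply, Matrix.cons_val_zero,
    Matrix.cons_val_one, Matrix.cons_val', Matrix.cons_val_fin_one]
  ring

theorem es1inf_conj_11 (g x : SL(2, ℤ)) :
    (g * x * g⁻¹ : SL(2, ℤ)) 1 1
      = -((g 1 0 * x 0 0 + g 1 1 * x 1 0) * g 0 1) + (g 1 0 * x 0 1 + g 1 1 * x 1 1) * g 0 0 := by
  rw [SL2_inv_expl]
  simp only [coe_mul, Matrix.mul_apply, Fin.sum_univ_two, Matrix.of_apply, Matrix.cons_val_zero,
    Matrix.cons_val_one, Matrix.cons_val', Matrix.cons_val_fin_one]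
  ring

theorem es1inf_sl2_ext {x y : SL(2, ℤ)} (h00 : x 0 0 = y 0 0) (h01 : x 0 1 = y 0 1)
    (h10 : x 1 0 = y 1 0) (h11 : x 1 1 = y 1 1) : x = y := by
  apply Subtype.ext
  ext i j
  fin_cases i <;> fin_cases j
  · exact h00
  · exact h01
  · exact h10
  · exact h11

/-! ## The matrices `σ` and `ρ'` -/

/-- `σ = (ℓ, b; L, d)` -/
def es1infSigma (L ℓ : ℕ) (b d : ℤ) (h : (ℓ : ℤ) * d - b * L = 1) : SL(2, ℤ) :=
  ⟨!![(ℓ : ℤ), b; (L : ℤ), d], by rw [Matrix.det_fin_two_of]; exact h⟩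

/-- `ρ' = (1, b; L, ℓ d)` -/
def es1infRho (L ℓ : ℕ) (b d : ℤ) (h : (ℓ : ℤ) * d - b * L = 1) : SL(2, ℤ) :=
  ⟨!![1, b; (L : ℤ), (ℓ : ℤ) * d], by rw [Matrix.det_fin_two_of]; linarith⟩

section Mat

variable {L ℓ : ℕ} {b d : ℤ} (h : (ℓ : ℤ) * d - b * L = 1)

@[simp] theorem es1infSigma_00 : es1infSigma L ℓ b d h 0 0 = ℓ := rfl
@[simp] theorem es1infSigma_01 : es1infSigma L ℓ b d h 0 1 = b := rfl
@[simp] theorem es1infSigma_10 : es1infSigma L ℓ b d h 1 0 = L := rfl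
@[simp] theorem es1infSigma_11 : es1infSigma L ℓ b d h 1 1 = d := rfl
@[simp] theorem es1infRho_00 : es1infRho L ℓ b d h 0 0 = 1 := rfl
@[simp] theorem es1infRho_01 : es1infRho L ℓ b d h 0 1 = b := rfl
@[simp] theorem es1infRho_10 : es1infRho L ℓ b d h 1 0 = L := rfl
@[simp] theorem es1infRho_11 : es1infRho L ℓ b d h 1 1 = ℓ * d := rfl

theorem es1infSigma_memL : es1infSigma L ℓ b d h ∈ Gamma0 L :=
  mem_gamma0_of_dvd (by rw [es1infSigma_10])

theorem es1infSigma_memM {M : ℕ} (hML : M ∣ L) : es1infSigma L ℓ b d h ∈ Gamma0 M :=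
  mem_gamma0_of_dvd (by rw [es1infSigma_10]; exact Int.natCast_dvd_natCast.mpr hML)

theorem es1infRho_memL : es1infRho L ℓ b d h ∈ Gamma0 L :=
  mem_gamma0_of_dvd (by rw [es1infRho_10])

theorem es1infRho_memM {M : ℕ} (hML : M ∣ L) : es1infRho L ℓ b d h ∈ Gamma0 M :=
  mem_gamma0_of_dvd (by rw [es1infRho_10]; exact Int.natCast_dvd_natCast.mpr hML)

theorem es1infRho_mem_gammaH {M : ℕ} (hML : M ∣ L) (H : Subgroup (ZMod M)ˣ) :
    es1infRho L ℓ b d h ∈ gammaH L M H := by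
  refine ⟨es1infRho_memL h, es1infRho_memM h hML, ?_⟩
  have h1 : diamHom M ⟨es1infRho L ℓ b d h, es1infRho_memM h hML⟩ = 1 := by
    ext
    rw [coe_diamHom]
    simp
  rw [h1]
  exact one_mem _

theorem es1infSigma_diam {M : ℕ} (hML : M ∣ L) :
    ((diamHom M ⟨es1infSigma L ℓ b d h, es1infSigma_memM h hML⟩ : (ZMod M)ˣ) : ZMod M)
      = (ℓ : ZMod M) := by
  rw [coe_diamHom]
  simp

end Mat

theorem es1inf_exists_bd {L ℓ : ℕ} (hc : Nat.Coprime ℓ L) :
    ∃ b d : ℤ, (ℓ : ℤ) * d - b * L = 1 := by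
  have h : IsCoprime (ℓ : ℤ) (L : ℤ) := Nat.isCoprime_iff_coprime.mpr hc
  obtain ⟨u, v, huv⟩ := h
  exact ⟨-v, u, by linarith⟩

end Fermat.Agent.ES1

end
end ZBES1_005_5

/-! ### bundled: `Fermat.Agent.ES1.Inf.BridgeMain` -/
section ZBES1_005_6

/-!
# ES₁-inf, piece (P4): the bridge, main theorem (helper38)

**`es1inf_diamGrp_tS`** : `diamGrp σ (K5.tS ℓ φ) = heckeGrp ℓ φ` for every `σ ∈ Γ₀(L) ∩ Γ₀(M)` of
diamond class `ℓ` (`ℓ` prime to `L`).  Also `K5.diamS g = diamGrp g⁻¹`.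
-/

set_option autoImplicit false

noncomputable section

namespace Fermat.Agent.ES1

open CongruenceSubgroup Matrix Matrix.SpecialLinearGroup Fermat.Agent
open scoped MatrixGroups

variable {L M : ℕ} (H : Subgroup (ZMod M)ˣ) {ℓ : ℕ} [NeZero ℓ]

/-- the two conjugations by `diag(ℓ, 1)` agree -/
theorem es1inf_conjDH_eq (hML : M ∣ L) (k : gammaH (L * ℓ) M H) :
    RT.K5.conjDH L M ℓ H hML k = conjAlphaH H ℓ (NeZero.ne ℓ) hML k := by
  apply Subtype.ext
  apply Subtype.ext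
  rfl

theorem es1inf_conjDH_00 (hML : M ∣ L) (k : gammaH (L * ℓ) M H) :
    ((RT.K5.conjDH L M ℓ H hML k : gammaH L M H) : SL(2, ℤ)) 0 0 = (k : SL(2, ℤ)) 0 0 := rfl

theorem es1inf_conjDH_01 (hML : M ∣ L) (k : gammaH (L * ℓ) M H) :
    ((RT.K5.conjDH L M ℓ H hML k : gammaH L M H) : SL(2, ℤ)) 0 1
      = (ℓ : ℤ) * (k : SL(2, ℤ)) 0 1 := rfl

theorem es1inf_conjDH_10 (hML : M ∣ L) (k : gammaH (L * ℓ) M H) :
    (ℓ : ℤ) * ((RT.K5.conjDH L M ℓ H hML k : gammaH L M H) : SL(2, ℤ)) 1 0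
      = (k : SL(2, ℤ)) 1 0 := by
  show (ℓ : ℤ) * ((k : SL(2, ℤ)) 1 0 / (ℓ : ℤ)) = _
  exact Int.mul_ediv_cancel' (dvd_of_mem_gammaH_mul H ℓ k.2)

theorem es1inf_conjDH_11 (hML : M ∣ L) (k : gammaH (L * ℓ) M H) :
    ((RT.K5.conjDH L M ℓ H hML k : gammaH L M H) : SL(2, ℤ)) 1 1 = (k : SL(2, ℤ)) 1 1 := rfl

section Theta

variable {b d : ℤ} (h : (ℓ : ℤ) * d - b * L = 1)

include h in
theorem es1inf_coprime : Nat.Coprime ℓ L := by
  rw [← Nat.isCoprime_iff_coprime]
  exact ⟨d, -b, by linarith⟩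

theorem es1inf_theta_mem (hML : M ∣ L) (k : gammaH (L * ℓ) M H) :
    es1infRho L ℓ b d h * ((RT.K5.conjDH L M ℓ H hML k : gammaH L M H) : SL(2, ℤ))
      * (es1infRho L ℓ b d h)⁻¹ ∈ gammaH (L * ℓ) M H := by
  have h1 : es1infRho L ℓ b d h * ((RT.K5.conjDH L M ℓ H hML k : gammaH L M H) : SL(2, ℤ))
      * (es1infRho L ℓ b d h)⁻¹ ∈ gammaH L M H :=
    conj_mem_gammaH (es1infRho_memL h) (es1infRho_memM h hML) (RT.K5.conjDH L M ℓ H hML k).2
  rw [es1g1hkb_mem_gammaH_mul_iff (es1inf_coprime h) h1, es1inf_conj_10]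
  simp only [es1infRho_10, es1infRho_11, es1inf_conjDH_00, es1inf_conjDH_01, es1inf_conjDH_11]
  refine ⟨((L : ℤ) * (k : SL(2, ℤ)) 0 0
      + (ℓ : ℤ) * d * ((RT.K5.conjDH L M ℓ H hML k : gammaH L M H) : SL(2, ℤ)) 1 0) * d
      - ((L : ℤ) * (k : SL(2, ℤ)) 0 1 + d * (k : SL(2, ℤ)) 1 1) * L, ?_⟩
  ring

/-- `θ : Γ' → Γ'`, `k ↦ ρ' · c(k) · ρ'⁻¹` -/
def es1infTheta (hML : M ∣ L) : gammaH (L * ℓ) M H →* gammaH (L * ℓ) M H where
  toFun k := ⟨es1infRho L ℓ b d h * ((RT.K5.conjDH L M ℓ H hML k : gammaH L M H) : SL(2, ℤ))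
      * (es1infRho L ℓ b d h)⁻¹, es1inf_theta_mem H h hML k⟩
  map_one' := by
    apply Subtype.ext
    show es1infRho L ℓ b d h * ((RT.K5.conjDH L M ℓ H hML 1 : gammaH L M H) : SL(2, ℤ))
      * (es1infRho L ℓ b d h)⁻¹ = 1
    rw [map_one]
    simp
  map_mul' x y := by
    apply Subtype.ext
    show es1infRho L ℓ b d h * ((RT.K5.conjDH L M ℓ H hML (x * y) : gammaH L M H) : SL(2, ℤ))
        * (es1infRho L ℓ b d h)⁻¹
      = (es1infRho L ℓ b d h * ((RT.K5.conjDH L M ℓ H hML x : gammaH L M H) : SL(2, ℤ))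
        * (es1infRho L ℓ b d h)⁻¹)
        * (es1infRho L ℓ b d h * ((RT.K5.conjDH L M ℓ H hML y : gammaH L M H) : SL(2, ℤ))
        * (es1infRho L ℓ b d h)⁻¹)
    rw [map_mul]
    simp only [Subgroup.coe_mul]
    group

theorem es1infTheta_coe (hML : M ∣ L) (k : gammaH (L * ℓ) M H) :
    ((es1infTheta H h hML k : gammaH (L * ℓ) M H) : SL(2, ℤ))
      = es1infRho L ℓ b d h * ((RT.K5.conjDH L M ℓ H hML k : gammaH L M H) : SL(2, ℤ))
        * (es1infRho L ℓ b d h)⁻¹ := rfl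

/-- `c ∘ θ = κ_σ ∘ i` -/
theorem es1inf_hcomm (hML : M ∣ L) (k : gammaH (L * ℓ) M H) :
    RT.K5.conjDH L M ℓ H hML (es1infTheta H h hML k)
      = conjH L M H (es1infSigma L ℓ b d h) (es1infSigma_memL h) (es1infSigma_memM h hML)
          (RT.K5.inclH L M ℓ H k) := by
  have hℓ0 : (ℓ : ℤ) ≠ 0 := by exact_mod_cast NeZero.ne ℓ
  apply Subtype.ext
  show ((RT.K5.conjDH L M ℓ H hML (es1infTheta H h hML k) : gammaH L M H) : SL(2, ℤ))
    = es1infSigma L ℓ b d h * (k : SL(2, ℤ)) * (es1infSigma L ℓ b d h)⁻¹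
  have h10 := es1inf_conjDH_10 H hML k
  set r : ℤ := ((RT.K5.conjDH L M ℓ H hML k : gammaH L M H) : SL(2, ℤ)) 1 0 with hr
  apply es1inf_sl2_ext
  · rw [es1inf_conjDH_00, es1infTheta_coe, es1inf_conj_00, es1inf_conj_00]
    simp only [es1infRho_00, es1infRho_01, es1infRho_10, es1infRho_11, es1infSigma_00,
      es1infSigma_01, es1infSigma_10, es1infSigma_11, es1inf_conjDH_00, es1inf_conjDH_01,
      es1inf_conjDH_11]
    rw [← hr, ← h10]
    ring
  · rw [es1inf_conjDH_01, es1infTheta_coe, es1inf_conj_01, es1inf_conj_01]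
    simp only [es1infRho_00, es1infRho_01, es1infRho_10, es1infRho_11, es1infSigma_00,
      es1infSigma_01, es1infSigma_10, es1infSigma_11, es1inf_conjDH_00, es1inf_conjDH_01,
      es1inf_conjDH_11]
    rw [← hr, ← h10]
    ring
  · apply mul_left_cancel₀ hℓ0
    rw [es1inf_conjDH_10, es1infTheta_coe, es1inf_conj_10, es1inf_conj_10]
    simp only [es1infRho_00, es1infRho_01, es1infRho_10, es1infRho_11, es1infSigma_00,
      es1infSigma_01, es1infSigma_10, es1infSigma_11, es1inf_conjDH_00, es1inf_conjDH_01,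
      es1inf_conjDH_11]
    rw [← hr, ← h10]
    ring
  · rw [es1inf_conjDH_11, es1infTheta_coe, es1inf_conj_11, es1inf_conj_11]
    simp only [es1infRho_00, es1infRho_01, es1infRho_10, es1infRho_11, es1infSigma_00,
      es1infSigma_01, es1infSigma_10, es1infSigma_11, es1inf_conjDH_00, es1inf_conjDH_01,
      es1inf_conjDH_11]
    rw [← hr, ← h10]
    ring

/-- `κ_σ⁻¹ (range c) ⊆ range i` -/
theorem es1inf_hcart (hML : M ∣ L) (x : gammaH L M H)
    (hx : conjH L M H (es1infSigma L ℓ b d h) (es1infSigma_memL h) (es1infSigma_memM h hML) x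
      ∈ (RT.K5.conjDH L M ℓ H hML).range) : x ∈ (RT.K5.inclH L M ℓ H).range := by
  obtain ⟨k, hk⟩ := hx
  have h01 : ((RT.K5.conjDH L M ℓ H hML k : gammaH L M H) : SL(2, ℤ)) 0 1
      = (es1infSigma L ℓ b d h * (x : SL(2, ℤ)) * (es1infSigma L ℓ b d h)⁻¹ : SL(2, ℤ)) 0 1 :=
    congrArg (fun y : gammaH L M H => (y : SL(2, ℤ)) 0 1) hk
  rw [es1inf_conjDH_01] at h01
  have h01' : (ℓ : ℤ) * (k : SL(2, ℤ)) 0 1
      = (es1infSigma L ℓ b d h * (x : SL(2, ℤ)) * (es1infSigma L ℓ b d h)⁻¹ : SL(2, ℤ)) 0 1 :=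
    h01
  rw [es1inf_conj_01] at h01'
  simp only [es1infSigma_00, es1infSigma_01] at h01'
  -- `ℓ ∣ b² x₁₀`
  have hdiv : (ℓ : ℤ) ∣ b * b * (x : SL(2, ℤ)) 1 0 := by
    refine ⟨-(k : SL(2, ℤ)) 0 1 - (x : SL(2, ℤ)) 0 0 * b + (ℓ : ℤ) * (x : SL(2, ℤ)) 0 1
      + b * (x : SL(2, ℤ)) 1 1, ?_⟩
    linear_combination h01'
  have hcop : IsCoprime (ℓ : ℤ) b := ⟨d, -(L : ℤ), by linarith⟩
  have hdvd : (ℓ : ℤ) ∣ (x : SL(2, ℤ)) 1 0 :=
    (hcop.mul_right hcop).dvd_of_dvd_mul_left hdiv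
  have hmem : (x : SL(2, ℤ)) ∈ gammaH (L * ℓ) M H :=
    (es1g1hkb_mem_gammaH_mul_iff (es1inf_coprime h) x.2).mpr hdvd
  exact ⟨⟨x, hmem⟩, Subtype.ext rfl⟩

end Theta

end Fermat.Agent.ES1

end
end ZBES1_005_6

/-! ### bundled: `Fermat.Agent.ES1.Inf.BridgeFinal` -/
section ZBES1_005_7

/-!
# ES₁-inf, piece (P4): the bridge, final form (helper38)

* `es1inf_heckeGrp_eq_cores_res` : `heckeGrp ℓ φ = cores_i (φ ∘ c)` (`S41.transferAlong`);
* **`es1inf_diamGrp_tS`** : `diamGrp σ (K5.tS ℓ φ) = heckeGrp ℓ φ` for every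
  `σ ∈ Γ₀(L) ∩ Γ₀(M)` with `σ₀₀ ≡ ℓ` mod `M` (`ℓ` prime to `L`).
-/

set_option autoImplicit false

noncomputable section

namespace Fermat.Agent.ES1

open CongruenceSubgroup Matrix Matrix.SpecialLinearGroup Fermat.Agent
open scoped MatrixGroups

variable {L M : ℕ} [NeZero L] [NeZero M] (H : Subgroup (ZMod M)ˣ) {ℓ : ℕ} [NeZero ℓ]
  {A : Type*} [AddCommGroup A]

/-- `heckeGrp ℓ = cores_i ∘ res_c` -/
theorem es1inf_heckeGrp_eq_cores_res (hML : M ∣ L) [(RT.K5.inclH L M ℓ H).range.FiniteIndex]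
    (φ : Additive (gammaH L M H) →+ A) :
    heckeGrp L M H ℓ hML φ
      = S41.transferAlong A (RT.K5.inclH L M ℓ H) (RT.K5.inclH_injective L M ℓ H)
          (φ.comp (MonoidHom.toAdditive (RT.K5.conjDH L M ℓ H hML))) := by
  refine es1inf_transfer_eq_transferAlong (RT.K5.inclH L M ℓ H) (RT.K5.inclH_injective L M ℓ H)
    (subLevel L M H ℓ) (Subgroup.inclusion_range _) (heckeRes L M H ℓ hML φ) _ ?_
  intro k hk
  show Multiplicative.ofAdd (φ (Additive.ofMul (conjAlphaH H ℓ (NeZero.ne ℓ) hML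
    (subLevelEquiv L M H ℓ ⟨RT.K5.inclH L M ℓ H k, hk⟩)))) = _
  have e : subLevelEquiv L M H ℓ ⟨RT.K5.inclH L M ℓ H k, hk⟩ = k := Subtype.ext rfl
  rw [e, ← es1inf_conjDH_eq H hML k]
  rfl

theorem es1inf_conjH_surjective (σ : SL(2, ℤ)) (hσL : σ ∈ Gamma0 L) (hσM : σ ∈ Gamma0 M) :
    Function.Surjective (conjH L M H σ hσL hσM) := by
  intro y
  have hmem : σ⁻¹ * (y : SL(2, ℤ)) * σ ∈ gammaH L M H := by
    have := conj_mem_gammaH (inv_mem hσL) (inv_mem hσM) y.2
    rwa [inv_inv] at this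
  refine ⟨⟨σ⁻¹ * (y : SL(2, ℤ)) * σ, hmem⟩, ?_⟩
  apply Subtype.ext
  show σ * (σ⁻¹ * (y : SL(2, ℤ)) * σ) * σ⁻¹ = y
  group

/-- the bridge for the special `σ = (ℓ, b; L, d)` -/
theorem es1inf_diamGrp_tS_sigma [hML : Fact (M ∣ L)] {b d : ℤ} (h : (ℓ : ℤ) * d - b * L = 1)
    (φ : Additive (gammaH L M H) →+ A) :
    diamGrp L M H (es1infSigma L ℓ b d h) (es1infSigma_memL h) (es1infSigma_memM h hML.out)
        (RT.K5.tS L M ℓ H A φ)
      = heckeGrp L M H ℓ hML.out φ := by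
  rw [es1inf_heckeGrp_eq_cores_res H hML.out φ]
  have hb := es1inf_bridge_abs (A := A) (RT.K5.conjDH L M ℓ H hML.out) (RT.K5.inclH L M ℓ H)
    (RT.K5.conjDH_injective L M ℓ H hML.out) (RT.K5.inclH_injective L M ℓ H)
    (conjH L M H (es1infSigma L ℓ b d h) (es1infSigma_memL h) (es1infSigma_memM h hML.out))
    (es1inf_conjH_surjective H _ _ _) (es1infTheta H h hML.out) (es1inf_hcomm H h hML.out)
    (es1inf_hcart H h hML.out)
    (φ.comp (MonoidHom.toAdditive (RT.K5.inclH L M ℓ H)))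
  have hθ : (φ.comp (MonoidHom.toAdditive (RT.K5.inclH L M ℓ H))).comp
      (MonoidHom.toAdditive (es1infTheta H h hML.out))
      = φ.comp (MonoidHom.toAdditive (RT.K5.conjDH L M ℓ H hML.out)) := by
    refine AddMonoidHom.ext fun k => ?_
    obtain ⟨k, rfl⟩ : ∃ k' : gammaH (L * ℓ) M H, Additive.ofMul k' = k :=
      ⟨Additive.toMul k, rfl⟩
    show φ (Additive.ofMul (RT.K5.inclH L M ℓ H (es1infTheta H h hML.out k)))
      = φ (Additive.ofMul (RT.K5.conjDH L M ℓ H hML.out k))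
    have e : RT.K5.inclH L M ℓ H (es1infTheta H h hML.out k)
        = (⟨es1infRho L ℓ b d h, es1infRho_mem_gammaH h hML.out H⟩ : gammaH L M H)
          * RT.K5.conjDH L M ℓ H hML.out k
          * (⟨es1infRho L ℓ b d h, es1infRho_mem_gammaH h hML.out H⟩ : gammaH L M H)⁻¹ :=
      Subtype.ext rfl
    rw [e, ofMul_mul, ofMul_mul, ofMul_inv, map_add, map_add, map_neg]
    abel
  rw [hθ] at hb
  rw [← hb]
  rfl

/-- **The bridge** `diamGrp σ ∘ tS ℓ = heckeGrp ℓ`, `σ` of diamond class `ℓ`. -/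
theorem es1inf_diamGrp_tS [hML : Fact (M ∣ L)] (hc : Nat.Coprime ℓ L) (σ : SL(2, ℤ))
    (hσL : σ ∈ Gamma0 L) (hσM : σ ∈ Gamma0 M)
    (hσ : ((diamHom M ⟨σ, hσM⟩ : (ZMod M)ˣ) : ZMod M) = (ℓ : ZMod M))
    (φ : Additive (gammaH L M H) →+ A) :
    diamGrp L M H σ hσL hσM (RT.K5.tS L M ℓ H A φ) = heckeGrp L M H ℓ hML.out φ := by
  obtain ⟨b, d, h⟩ := es1inf_exists_bd hc
  rw [← es1inf_diamGrp_tS_sigma H h φ]
  refine diamGrp_congr L M H hσL hσM _ _ ?_ _
  ext
  rw [hσ, es1infSigma_diam h hML.out]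

end Fermat.Agent.ES1

end
end ZBES1_005_7

/-! ### bundled: `Fermat.Agent.ES1.Inf.Comm` -/
section ZBES1_005_8

/-!
# ES₁-inf: the operators `heckeGrp`, `diamGrp` on `Hom(Γ, A)` commute (helper38)

From the bridge `heckeGrp ℓ = diamGrp σ_ℓ ∘ K5.tS ℓ` and K5-C, K5-CC (`RT/K5/Comm.lean`,
`CommT.lean`):
* `es1inf_diamS_eq` : `K5.diamS g = diamGrp g⁻¹`;
* `es1inf_diamGrp_comm` : the diamonds commute;
* `es1inf_diamGrp_tS_comm` : `diamGrp σ ∘ tS ℓ = tS ℓ ∘ diamGrp σ`;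
* `es1inf_heckeGrp_diamGrp_comm`, `es1inf_heckeGrp_comm`.
-/

set_option autoImplicit false

noncomputable section

namespace Fermat.Agent.ES1

open CongruenceSubgroup Matrix Matrix.SpecialLinearGroup Fermat.Agent
open scoped MatrixGroups

variable {L M : ℕ} [NeZero L] [NeZero M] (H : Subgroup (ZMod M)ˣ)

/-- `K5.diamS g = diamGrp g⁻¹` -/
theorem es1inf_diamS_eq {A : Type*} [AddCommGroup A] (g : SL(2, ℤ)) (hgL : g ∈ Gamma0 L)
    (hgM : g ∈ Gamma0 M) (φ : Additive (gammaH L M H) →+ A) :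
    RT.K5.diamS H A g hgL hgM φ = diamGrp L M H g⁻¹ (inv_mem hgL) (inv_mem hgM) φ := by
  refine AddMonoidHom.ext fun γ => ?_
  obtain ⟨γ, rfl⟩ : ∃ γ' : gammaH L M H, Additive.ofMul γ' = γ := ⟨Additive.toMul γ, rfl⟩
  show φ (Additive.ofMul ⟨g⁻¹ * (γ : SL(2, ℤ)) * g, _⟩)
    = φ (Additive.ofMul ⟨g⁻¹ * (γ : SL(2, ℤ)) * g⁻¹⁻¹, _⟩)
  congr 2
  apply Subtype.ext
  show g⁻¹ * (γ : SL(2, ℤ)) * g = g⁻¹ * (γ : SL(2, ℤ)) * g⁻¹⁻¹
  rw [inv_inv]

/-- `diamGrp σ = K5.diamS σ⁻¹` -/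
theorem es1inf_diamGrp_eq_diamS {A : Type*} [AddCommGroup A] (σ : SL(2, ℤ)) (hσL : σ ∈ Gamma0 L)
    (hσM : σ ∈ Gamma0 M) (φ : Additive (gammaH L M H) →+ A) :
    diamGrp L M H σ hσL hσM φ = RT.K5.diamS H A σ⁻¹ (inv_mem hσL) (inv_mem hσM) φ := by
  rw [es1inf_diamS_eq]
  refine diamGrp_congr L M H hσL hσM _ _ ?_ φ
  congr 1
  apply Subtype.ext
  show σ = σ⁻¹⁻¹
  rw [inv_inv]

/-- composition of diamonds -/
theorem es1inf_diamGrp_diamGrp {A : Type*} [AddCommGroup A] (σ τ : SL(2, ℤ))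
    (hσL : σ ∈ Gamma0 L) (hσM : σ ∈ Gamma0 M) (hτL : τ ∈ Gamma0 L) (hτM : τ ∈ Gamma0 M)
    (φ : Additive (gammaH L M H) →+ A) :
    diamGrp L M H σ hσL hσM (diamGrp L M H τ hτL hτM φ)
      = diamGrp L M H (τ * σ) (mul_mem hτL hσL) (mul_mem hτM hσM) φ := by
  refine AddMonoidHom.ext fun γ => ?_
  obtain ⟨γ, rfl⟩ : ∃ γ' : gammaH L M H, Additive.ofMul γ' = γ := ⟨Additive.toMul γ, rfl⟩
  rw [diamGrp_apply, diamGrp_apply, diamGrp_apply]
  congr 2
  apply Subtype.ext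
  show τ * (σ * (γ : SL(2, ℤ)) * σ⁻¹) * τ⁻¹ = τ * σ * (γ : SL(2, ℤ)) * (τ * σ)⁻¹
  group

/-- the diamonds commute -/
theorem es1inf_diamGrp_comm {A : Type*} [AddCommGroup A] (σ τ : SL(2, ℤ))
    (hσL : σ ∈ Gamma0 L) (hσM : σ ∈ Gamma0 M) (hτL : τ ∈ Gamma0 L) (hτM : τ ∈ Gamma0 M)
    (φ : Additive (gammaH L M H) →+ A) :
    diamGrp L M H σ hσL hσM (diamGrp L M H τ hτL hτM φ)
      = diamGrp L M H τ hτL hτM (diamGrp L M H σ hσL hσM φ) := by
  rw [es1inf_diamGrp_diamGrp, es1inf_diamGrp_diamGrp]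
  refine diamGrp_congr L M H _ _ _ _ ?_ φ
  have h1 : (⟨τ * σ, mul_mem hτM hσM⟩ : Gamma0 M) = ⟨τ, hτM⟩ * ⟨σ, hσM⟩ := rfl
  have h2 : (⟨σ * τ, mul_mem hσM hτM⟩ : Gamma0 M) = ⟨σ, hσM⟩ * ⟨τ, hτM⟩ := rfl
  rw [h1, h2, map_mul, map_mul, mul_comm]

variable {ℓ : ℕ} [NeZero ℓ]

/-- `diamGrp σ` commutes with `K5.tS ℓ` -/
theorem es1inf_diamGrp_tS_comm [Fact (M ∣ L)] {A : Type} [AddCommGroup A] (hℓ : ℓ.Prime)
    (hℓL : ¬ ℓ ∣ L) (σ : SL(2, ℤ)) (hσL : σ ∈ Gamma0 L) (hσM : σ ∈ Gamma0 M)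
    (φ : Additive (gammaH L M H) →+ A) :
    diamGrp L M H σ hσL hσM (RT.K5.tS L M ℓ H A φ)
      = RT.K5.tS L M ℓ H A (diamGrp L M H σ hσL hσM φ) := by
  rw [es1inf_diamGrp_eq_diamS, es1inf_diamGrp_eq_diamS]
  exact (RT.K5.stmtComm L M ℓ H H le_rfl A hℓ hℓL).2.2 σ⁻¹ (inv_mem hσL) (inv_mem hσM) φ

/-- `heckeGrp ℓ` commutes with the diamonds -/
theorem es1inf_heckeGrp_diamGrp_comm [hML : Fact (M ∣ L)] {A : Type} [AddCommGroup A]
    (hℓ : ℓ.Prime) (hℓL : ¬ ℓ ∣ L) (τ : SL(2, ℤ)) (hτL : τ ∈ Gamma0 L) (hτM : τ ∈ Gamma0 M)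
    (φ : Additive (gammaH L M H) →+ A) :
    heckeGrp L M H ℓ hML.out (diamGrp L M H τ hτL hτM φ)
      = diamGrp L M H τ hτL hτM (heckeGrp L M H ℓ hML.out φ) := by
  have hc : Nat.Coprime ℓ L := (Nat.Prime.coprime_iff_not_dvd hℓ).mpr hℓL
  obtain ⟨b, d, h⟩ := es1inf_exists_bd hc
  rw [← es1inf_diamGrp_tS_sigma H h, ← es1inf_diamGrp_tS_sigma H h,
    ← es1inf_diamGrp_tS_comm H hℓ hℓL τ hτL hτM φ, es1inf_diamGrp_comm]

/-- the operators `heckeGrp ℓ` commute -/
theorem es1inf_heckeGrp_comm [hML : Fact (M ∣ L)] {A : Type} [AddCommGroup A] {ℓ' : ℕ}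
    [NeZero ℓ'] (hℓ : ℓ.Prime) (hℓL : ¬ ℓ ∣ L) (hℓ' : ℓ'.Prime) (hℓ'L : ¬ ℓ' ∣ L)
    (φ : Additive (gammaH L M H) →+ A) :
    heckeGrp L M H ℓ hML.out (heckeGrp L M H ℓ' hML.out φ)
      = heckeGrp L M H ℓ' hML.out (heckeGrp L M H ℓ hML.out φ) := by
  have hc : Nat.Coprime ℓ L := (Nat.Prime.coprime_iff_not_dvd hℓ).mpr hℓL
  have hc' : Nat.Coprime ℓ' L := (Nat.Prime.coprime_iff_not_dvd hℓ').mpr hℓ'L
  obtain ⟨b, d, h⟩ := es1inf_exists_bd hc
  obtain ⟨b', d', h'⟩ := es1inf_exists_bd hc'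
  rw [← es1inf_diamGrp_tS_sigma H h' φ, es1inf_heckeGrp_diamGrp_comm H hℓ hℓL,
    ← es1inf_diamGrp_tS_sigma H h, ← es1inf_diamGrp_tS_sigma H h φ,
    es1inf_heckeGrp_diamGrp_comm H hℓ' hℓ'L, ← es1inf_diamGrp_tS_sigma H h',
    RT.K5.stmtCommT L M ℓ ℓ' H A hℓ hℓ' hℓL hℓ'L φ, es1inf_diamGrp_comm]

end Fermat.Agent.ES1

end
end ZBES1_005_8

/-! ### bundled: `Fermat.Agent.ES1.Inf.PkgOp` -/
section ZBES1_005_9

/-!
# ES₁-inf — the Hecke–diamond polynomials acting on `Hom(Γ, A)`, `Γ = gammaH L M H` (helper38)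

* `es1infHomOp L M H hML p A i` : the operator of the variable `i` on `Hom(Γ, A)`:
  `T_ℓ ↦ heckeGrp ℓ` (`ℓ ∤ L p`), `δ_c ↦ diamGrp σ_c`, and `0` at the bad `T_ℓ`;
* `es1infHomOp_comm` : they commute (from `ES1/Inf/Comm.lean`, i.e. from K5);
* `es1infHomEval L M H hML p A : HDAlg M →ₐ[ℤ] End(Hom(Γ, A))`;
* `es1infHomEval_comp` : naturality in the coefficient group `A`;
* `es1infHomEval_par` : the homomorphisms vanishing on the elements of trace `±2` are stable.
-/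

set_option autoImplicit false
set_option linter.unusedSectionVars false

noncomputable section

namespace Fermat.Agent.ES1

open CongruenceSubgroup Matrix Matrix.SpecialLinearGroup Fermat.Agent Fermat.Agent.S48
open scoped MatrixGroups

variable (L M : ℕ) [NeZero L] [NeZero M] (H : Subgroup (ZMod M)ˣ) (hML : M ∣ L) (p : ℕ)

open Classical in
/-- the operator of a variable on `Hom(Γ, A)`; `0` at the bad variables -/
def es1infHomOp (A : Type) [AddCommGroup A] (i : HDVar M) :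
    Module.End ℤ (Additive (gammaH L M H) →+ A) :=
  if i ∈ es1inf_goodVars L M p then (es1g1OpVar L M H hML A i).toIntLinearMap else 0

variable {L M H p}

theorem es1infHomOp_bad {A : Type} [AddCommGroup A] {i : HDVar M}
    (h : i ∉ es1inf_goodVars L M p) : es1infHomOp L M H hML p A i = 0 := by
  classical
  rw [es1infHomOp, if_neg h]

theorem es1infHomOp_good {A : Type} [AddCommGroup A] {i : HDVar M}
    (h : i ∈ es1inf_goodVars L M p) (φ : Additive (gammaH L M H) →+ A) :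
    es1infHomOp L M H hML p A i φ = es1g1OpVar L M H hML A i φ := by
  classical
  rw [es1infHomOp, if_pos h]
  rfl

theorem es1infHomOp_inl {A : Type} [AddCommGroup A] {ℓ : Nat.Primes}
    (h : ¬ (ℓ : ℕ) ∣ L * p) (φ : Additive (gammaH L M H) →+ A) :
    es1infHomOp L M H hML p A (Sum.inl ℓ) φ =
      (haveI : NeZero (ℓ : ℕ) := ⟨ℓ.2.ne_zero⟩; heckeGrp L M H ℓ hML φ) := by
  rw [es1infHomOp_good hML (es1inf_inl_mem_goodVars.mpr h)]
  rfl

theorem es1infHomOp_inr {A : Type} [AddCommGroup A] (c : (ZMod M)ˣ)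
    (φ : Additive (gammaH L M H) →+ A) (σ : SL(2, ℤ)) (hσL : σ ∈ Gamma0 L)
    (hσM : σ ∈ Gamma0 M) (hσ : diamHom M ⟨σ, hσM⟩ = c) :
    es1infHomOp L M H hML p A (Sum.inr c) φ = diamGrp L M H σ hσL hσM φ := by
  rw [es1infHomOp_good hML (es1inf_inr_mem_goodVars L M p c)]
  exact diamGrp_congr L M H _ _ hσL hσM ((es1g1opSigma_diam hML c).trans hσ.symm) φ

theorem es1infHomOp_inr' {A : Type} [AddCommGroup A] (c : (ZMod M)ˣ)
    (φ : Additive (gammaH L M H) →+ A) :
    es1infHomOp L M H hML p A (Sum.inr c) φ =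
      diamGrp L M H (es1g1opSigma hML c) (es1g1opSigma_memL hML c)
        (es1g1opSigma_memM hML c) φ := by
  rw [es1infHomOp_good hML (es1inf_inr_mem_goodVars L M p c)]
  rfl

/-- the operators commute -/
theorem es1infHomOp_comm (A : Type) [AddCommGroup A] (i j : HDVar M) :
    es1infHomOp L M H hML p A i * es1infHomOp L M H hML p A j
      = es1infHomOp L M H hML p A j * es1infHomOp L M H hML p A i := by
  haveI : Fact (M ∣ L) := ⟨hML⟩
  by_cases hi : i ∈ es1inf_goodVars L M p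
  swap
  · rw [es1infHomOp_bad hML hi, zero_mul, mul_zero]
  by_cases hj : j ∈ es1inf_goodVars L M p
  swap
  · rw [es1infHomOp_bad hML hj, zero_mul, mul_zero]
  refine LinearMap.ext fun φ => ?_
  rw [Module.End.mul_apply, Module.End.mul_apply]
  rcases i with ℓ | c
  · have hℓ : ¬ (ℓ : ℕ) ∣ L * p := es1inf_inl_mem_goodVars.mp hi
    have hℓL : ¬ (ℓ : ℕ) ∣ L := fun h => hℓ (h.mul_right p)
    haveI : NeZero (ℓ : ℕ) := ⟨ℓ.2.ne_zero⟩
    rcases j with ℓ' | c'
    · have hℓ' : ¬ (ℓ' : ℕ) ∣ L * p := es1inf_inl_mem_goodVars.mp hj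
      have hℓ'L : ¬ (ℓ' : ℕ) ∣ L := fun h => hℓ' (h.mul_right p)
      haveI : NeZero (ℓ' : ℕ) := ⟨ℓ'.2.ne_zero⟩
      rw [es1infHomOp_inl hML hℓ, es1infHomOp_inl hML hℓ', es1infHomOp_inl hML hℓ',
        es1infHomOp_inl hML hℓ]
      exact es1inf_heckeGrp_comm H ℓ.2 hℓL ℓ'.2 hℓ'L φ
    · rw [es1infHomOp_inl hML hℓ, es1infHomOp_inr' hML c', es1infHomOp_inr' hML c',
        es1infHomOp_inl hML hℓ]
      exact es1inf_heckeGrp_diamGrp_comm H ℓ.2 hℓL _ _ _ φ
  · rcases j with ℓ' | c'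
    · have hℓ' : ¬ (ℓ' : ℕ) ∣ L * p := es1inf_inl_mem_goodVars.mp hj
      have hℓ'L : ¬ (ℓ' : ℕ) ∣ L := fun h => hℓ' (h.mul_right p)
      haveI : NeZero (ℓ' : ℕ) := ⟨ℓ'.2.ne_zero⟩
      rw [es1infHomOp_inl hML hℓ', es1infHomOp_inr' hML c, es1infHomOp_inr' hML c,
        es1infHomOp_inl hML hℓ']
      exact (es1inf_heckeGrp_diamGrp_comm H ℓ'.2 hℓ'L _ _ _ φ).symm
    · rw [es1infHomOp_inr' hML c, es1infHomOp_inr' hML c', es1infHomOp_inr' hML c',
        es1infHomOp_inr' hML c]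
      exact es1inf_diamGrp_comm H _ _ _ _ _ _ φ

variable (L M H p)

/-- **the action of the Hecke–diamond polynomials on `Hom(Γ, A)`** -/
def es1infHomEval (A : Type) [AddCommGroup A] :
    HDAlg M →ₐ[ℤ] Module.End ℤ (Additive (gammaH L M H) →+ A) :=
  es1b_familyEval (es1infHomOp L M H hML p A) (es1infHomOp_comm hML A)

variable {L M H p}

theorem es1infHomEval_X (A : Type) [AddCommGroup A] (i : HDVar M) :
    es1infHomEval L M H hML p A (MvPolynomial.X i) = es1infHomOp L M H hML p A i :=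
  es1b_familyEval_X _ _ i

theorem es1infHomEval_C (A : Type) [AddCommGroup A] (a : ℤ)
    (φ : Additive (gammaH L M H) →+ A) :
    es1infHomEval L M H hML p A (MvPolynomial.C a) φ = a • φ := by
  rw [← MvPolynomial.algebraMap_eq, AlgHom.commutes, Module.algebraMap_end_apply]

theorem es1infHomEval_tGen {A : Type} [AddCommGroup A] {ℓ : Nat.Primes}
    (h : ¬ (ℓ : ℕ) ∣ L * p) (φ : Additive (gammaH L M H) →+ A) :
    es1infHomEval L M H hML p A (es1top_tGen M ℓ) φ =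
      (haveI : NeZero (ℓ : ℕ) := ⟨ℓ.2.ne_zero⟩; heckeGrp L M H ℓ hML φ) := by
  rw [es1top_tGen, es1infHomEval_X, es1infHomOp_inl hML h]

theorem es1infHomEval_dGen {A : Type} [AddCommGroup A] (c : (ZMod M)ˣ)
    (φ : Additive (gammaH L M H) →+ A) (σ : SL(2, ℤ)) (hσL : σ ∈ Gamma0 L)
    (hσM : σ ∈ Gamma0 M) (hσ : diamHom M ⟨σ, hσM⟩ = c) :
    es1infHomEval L M H hML p A (es1top_dGen M c) φ = diamGrp L M H σ hσL hσM φ := by
  rw [es1top_dGen, es1infHomEval_X, es1infHomOp_inr hML c φ σ hσL hσM hσ]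

/-- naturality of the operators in the coefficient group -/
theorem es1infHomOp_comp {A B : Type} [AddCommGroup A] [AddCommGroup B] (f : A →+ B)
    (i : HDVar M) (φ : Additive (gammaH L M H) →+ A) :
    es1infHomOp L M H hML p B i (f.comp φ) = f.comp (es1infHomOp L M H hML p A i φ) := by
  by_cases hi : i ∈ es1inf_goodVars L M p
  · rw [es1infHomOp_good hML hi, es1infHomOp_good hML hi]
    rcases i with ℓ | c
    · haveI : NeZero (ℓ : ℕ) := ⟨ℓ.2.ne_zero⟩
      exact heckeGrp_comp L M H ℓ hML f φ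
    · exact diamGrp_comp L M H _ _ _ f φ
  · rw [es1infHomOp_bad (A := B) hML hi, es1infHomOp_bad (A := A) hML hi,
      LinearMap.zero_apply, LinearMap.zero_apply]
    exact (AddMonoidHom.comp_zero f).symm

/-- **naturality** of the action of the polynomials in the coefficient group -/
theorem es1infHomEval_comp {A B : Type} [AddCommGroup A] [AddCommGroup B] (f : A →+ B)
    (t : HDAlg M) (φ : Additive (gammaH L M H) →+ A) :
    es1infHomEval L M H hML p B t (f.comp φ) = f.comp (es1infHomEval L M H hML p A t φ) := by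
  induction t using MvPolynomial.induction_on generalizing φ with
  | C a =>
      rw [es1infHomEval_C, es1infHomEval_C]
      refine DFunLike.ext _ _ fun γ => ?_
      simp only [AddMonoidHom.comp_apply, AddMonoidHom.coe_smul, Pi.smul_apply, map_zsmul]
  | add s t hs ht =>
      rw [map_add, map_add, LinearMap.add_apply, LinearMap.add_apply, hs, ht]
      refine DFunLike.ext _ _ fun γ => ?_
      simp only [AddMonoidHom.comp_apply, AddMonoidHom.add_apply, map_add]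
  | mul_X s i hs =>
      rw [map_mul, map_mul, Module.End.mul_apply, Module.End.mul_apply, es1infHomEval_X,
        es1infHomEval_X, es1infHomOp_comp hML f, hs]

/-- the operators preserve the homomorphisms vanishing on the elements of trace `±2` -/
theorem es1infHomOp_par {A : Type} [AddCommGroup A] (i : HDVar M)
    {φ : Additive (gammaH L M H) →+ A}
    (hφ : ∀ γ ∈ es1g1opPar L M H, φ (Additive.ofMul γ) = 0) :
    ∀ γ ∈ es1g1opPar L M H, es1infHomOp L M H hML p A i φ (Additive.ofMul γ) = 0 := by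
  by_cases hi : i ∈ es1inf_goodVars L M p
  · rw [es1infHomOp_good hML hi]
    rcases i with ℓ | c
    · haveI : NeZero (ℓ : ℕ) := ⟨ℓ.2.ne_zero⟩
      exact heckeGrp_par L M H ℓ hML hφ
    · exact diamGrp_par L M H _ _ _ hφ
  · intro γ _
    rw [es1infHomOp_bad hML hi]
    rfl

/-- the polynomials preserve the homomorphisms vanishing on the elements of trace `±2` -/
theorem es1infHomEval_par {A : Type} [AddCommGroup A] (t : HDAlg M)
    {φ : Additive (gammaH L M H) →+ A}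
    (hφ : ∀ γ ∈ es1g1opPar L M H, φ (Additive.ofMul γ) = 0) :
    ∀ γ ∈ es1g1opPar L M H, es1infHomEval L M H hML p A t φ (Additive.ofMul γ) = 0 := by
  induction t using MvPolynomial.induction_on generalizing φ with
  | C a =>
      intro γ hγ
      rw [es1infHomEval_C, AddMonoidHom.coe_smul, Pi.smul_apply, hφ γ hγ, smul_zero]
  | add s t hs ht =>
      intro γ hγ
      rw [map_add, LinearMap.add_apply, AddMonoidHom.add_apply, hs hφ γ hγ, ht hφ γ hγ,
        add_zero]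
  | mul_X s i hs =>
      rw [map_mul, Module.End.mul_apply, es1infHomEval_X]
      exact hs (es1infHomOp_par hML i hφ)

end Fermat.Agent.ES1

end
end ZBES1_005_9

/-! ### bundled: `Fermat.Agent.ES1.TopBGalois` -/
section ZBES1_005_10

/-!
# ES₁ / TOP-b — the two unconditional clauses for `J = JH L M H` (helper42)

* `es1b_finiteLevel`  : every torsion class of `JH L M H` is fixed by an open subgroup of `G_ℚ`;
* `es1b_galois_hecke` : `G_ℚ` commutes with the Hecke operator `es1hHecke L M H ℓ`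
  (`ES1/HInputs.lean`, helper82) on `JH L M H`.

Forks of `ES/FiniteLevel.lean` and `ES/GaloisHecke.lean` (whose generic parts are used as they
are).
-/

set_option autoImplicit false
set_option linter.style.haveILetI false
set_option linter.unusedSectionVars false

noncomputable section

namespace Fermat.Agent.ES1

open ModularCurve AlgebraicCurve AlgebraicCurve.SemilinearAut HahnSeries Fermat.Agent.S48

variable (L M : ℕ) (H : Subgroup (ZMod M)ˣ)

/-- **torsion classes of `JH L M H` have finite level** -/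
theorem es1b_finiteLevel (m : ℕ) (hm : m ≠ 0) (x : JH L M H) (hx : m • x = 0) :
    ∃ E : IntermediateField ℚ (AlgebraicClosure ℚ), FiniteDimensional ℚ E ∧
      ∀ σ : GalQ, (∀ a ∈ E, σ a = a) → σ • x = x := by
  haveI := Fermat.Agent.ES.qbar_isAlgebraic
  obtain ⟨u, hu⟩ := Fermat.Agent.ES.pic0_smul_eq_of_torsion m hm x hx
  obtain ⟨E, hE, hfix⟩ := Fermat.Agent.ES.exists_field_fixing (L := AlgebraicClosure ℚ)
    (F₀ := fieldQ L M H) u.2
  refine ⟨E, hE, fun σ hσ => ?_⟩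
  rw [galois_smul_pic0_def]
  apply hu
  apply Subtype.ext
  rw [coe_arithmeticGalois_smul]
  exact hfix σ hσ

section Hecke

variable (ℓ : ℕ) [NeZero ℓ]

theorem es1b_intertwines_alpha (σ : GalQ) :
    IntertwinesAlong ((es1hAlpha L M H ℓ : _ →ₐ[AlgebraicClosure ℚ] _) :
        fieldBar L M H →+* fieldBar (L * ℓ) M H)
      (arithmeticGalois (fieldQ L M H) σ) (arithmeticGalois (fieldQ (L * ℓ) M H) σ) := by
  intro x
  apply Subtype.ext
  show coeffMap (σ : AlgebraicClosure ℚ →+* AlgebraicClosure ℚ)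
      ((es1hAlpha L M H ℓ x : _) : LaurentSeries (AlgebraicClosure ℚ))
    = ((es1hAlpha L M H ℓ (arithmeticGalois (fieldQ L M H) σ • x) : _) :
        LaurentSeries (AlgebraicClosure ℚ))
  rw [coe_es1hAlpha, coe_es1hAlpha, coe_arithmeticGalois_smul]

theorem es1b_intertwines_beta (σ : GalQ) :
    IntertwinesAlong ((es1hBeta L M H ℓ : _ →ₐ[AlgebraicClosure ℚ] _) :
        fieldBar L M H →+* fieldBar (L * ℓ) M H)
      (arithmeticGalois (fieldQ L M H) σ) (arithmeticGalois (fieldQ (L * ℓ) M H) σ) := by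
  intro x
  apply Subtype.ext
  show coeffMap (σ : AlgebraicClosure ℚ →+* AlgebraicClosure ℚ)
      ((es1hBeta L M H ℓ x : _) : LaurentSeries (AlgebraicClosure ℚ))
    = ((es1hBeta L M H ℓ (arithmeticGalois (fieldQ L M H) σ • x) : _) :
        LaurentSeries (AlgebraicClosure ℚ))
  rw [coe_es1hBeta, coe_es1hBeta, coe_arithmeticGalois_smul,
    Fermat.Agent.ES.coeffMap_qExpand_comm]

/-- **Galois commutes with the Hecke operator `T_ℓ` on `JH L M H`.** -/
theorem es1b_galois_hecke (σ : GalQ) (x : JH L M H) :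
    σ • es1hHecke L M H ℓ x = es1hHecke L M H ℓ (σ • x) := by
  classical
  by_cases h : Es1hInputs L M H ℓ
  · obtain ⟨hα, hβ, hP, hfin, hFI, hN⟩ := h
    haveI := hP
    rw [es1hHecke_eq hα hβ hFI hfin hN, galois_smul_pic0_def, galois_smul_pic0_def]
    exact (Fermat.Agent.ES.pic0_correspondence_smul (es1hBeta L M H ℓ) (es1hAlpha L M H ℓ)
      hβ hα hFI hfin hN (es1b_intertwines_beta L M H ℓ σ) (es1b_intertwines_alpha L M H ℓ σ)
      x).symm
  · rw [es1hHecke_of_not h, AddMonoidHom.zero_apply, AddMonoidHom.zero_apply, smul_zero]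

end Hecke

end Fermat.Agent.ES1

end
end ZBES1_005_10

/-! ### bundled: `Fermat.Agent.ES1.G2.Clauses` -/
section ZBES1_005_11

/-!
# ES₁ / G2: the clauses of TOP-b delivered by G2 (and the formal ones), for `J = JH L M H`

Operators: `es1g2T L M H ℓ = es1hHecke L M H ℓ` (`ℓ : Nat.Primes`), `es1Diamond L M H c`.
In the exact form of the hypotheses of `ES1.es1b_clauses_of_unif` (with `L = M`):

* `es1g2_clause_frob`, `es1g2_clause_unram` (G2);
* `es1g2_clause_galois_hecke`, `es1g2_clause_galois_diamond`, `es1g2_clause_finite_level`,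
  `es1g2_clause_diamond_one`, `es1g2_clause_diamond_mul` (formal; from helper42's `TopBGalois`
  and helper36's `DiamBar`).

Inputs: `ES1.StmtINJHAll` (INJ₁), `StmtSwapH` (SWAP), `ES1.StmtDiamondH` (F3-conj), and
`Es1hFin` at the levels `M`, `M ℓ` (finiteness over `ℚ̄(j)`).
-/

set_option autoImplicit false

noncomputable section

namespace Fermat.Agent.ES1.G2

open ModularCurve AlgebraicCurve Fermat.Agent.ES Fermat.Agent.ES1 Fermat.Agent.S48

/-- `T_ℓ` on `JH L M H`, indexed by the primes -/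
def es1g2T (L M : ℕ) (H : Subgroup (ZMod M)ˣ) (ℓ : Nat.Primes) : JH L M H →+ JH L M H :=
  haveI : NeZero (ℓ : ℕ) := ⟨ℓ.2.ne_zero⟩
  es1hHecke L M H ℓ

variable {L M : ℕ} {H : Subgroup (ZMod M)ˣ}

/-- clause `frob` -/
theorem es1g2_clause_frob (hINJ : StmtINJHAll) (hswap : StmtSwapH) (hD : StmtDiamondH)
    (hL : L ≠ 0) (hML : M ∣ L) (hfin : ∀ L' : ℕ, L' ≠ 0 → M ∣ L' → Es1hFin L' M H) (p : ℕ) :
    ∀ ℓ : ℕ, (hℓ : ℓ.Prime) → ¬ ℓ ∣ L * p →
      ∀ c : (ZMod M)ˣ, (c : ZMod M) = (ℓ : ZMod M) →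
      ∀ A : ValuationSubring (AlgebraicClosure ℚ), A.LiesOverPrime ℓ →
        ∀ τ : GalQ, A.IsFrobeniusAt τ ℓ →
          ∀ x : JH L M H, p • x = 0 →
            es1Diamond L M H c (τ • τ • x) - es1g2T L M H ⟨ℓ, hℓ⟩ (τ • x) + ℓ • x = 0 := by
  intro ℓ hℓ hgood c hc A hA τ hτ x hx
  haveI : NeZero ℓ := ⟨hℓ.ne_zero⟩
  obtain ⟨δ, hδ⟩ := stmtDiamondBarH_of_diamond hD L M H hL hML c
  rw [es1Diamond_eq hδ]
  exact es1g2_frob hINJ hswap hD L M H p hL hML ℓ hℓ hgood (hfin L hL hML)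
    (hfin (L * ℓ) (Nat.mul_ne_zero hL hℓ.ne_zero) (hML.mul_right ℓ)) c hc δ hδ A hA τ hτ x hx

/-- clause `unram` -/
theorem es1g2_clause_unram (hINJ : StmtINJHAll) (hL : L ≠ 0) (hML : M ∣ L) (p : ℕ) :
    ∀ ℓ : ℕ, ℓ.Prime → ¬ ℓ ∣ L * p →
      ∀ A : ValuationSubring (AlgebraicClosure ℚ), A.LiesOverPrime ℓ →
        ∀ σ ∈ A.inertiaSubgroupIn ℚ, ∀ x : JH L M H, p • x = 0 → σ • x = x :=
  fun ℓ hℓ hgood A hA σ hσ x hx =>
    es1g2_unram hINJ L M H p hL hML ℓ hℓ hgood A hA σ hσ x hx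

/-- clause `galois_hecke` -/
theorem es1g2_clause_galois_hecke (σ : GalQ) (ℓ : Nat.Primes) (x : JH L M H) :
    σ • es1g2T L M H ℓ x = es1g2T L M H ℓ (σ • x) :=
  haveI : NeZero (ℓ : ℕ) := ⟨ℓ.2.ne_zero⟩
  es1b_galois_hecke L M H ℓ σ x

/-- clause `galois_diamond` -/
theorem es1g2_clause_galois_diamond (hD : StmtDiamondH) (hL : L ≠ 0) (hML : M ∣ L)
    (σ : GalQ) (c : (ZMod M)ˣ) (x : JH L M H) :
    σ • es1Diamond L M H c x = es1Diamond L M H c (σ • x) :=
  diamb_galois_diamond (stmtDiamondBarH_of_diamond hD) hL hML σ c x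

/-- clause `finite_level` -/
theorem es1g2_clause_finite_level {p : ℕ} (hp : p ≠ 0) (x : JH L M H) (hx : p • x = 0) :
    ∃ E : IntermediateField ℚ (AlgebraicClosure ℚ), FiniteDimensional ℚ E ∧
      ∀ σ : GalQ, (∀ a ∈ E, σ a = a) → σ • x = x :=
  es1b_finiteLevel L M H p hp x hx

/-- clause `diamond_one` -/
theorem es1g2_clause_diamond_one (x : JH L M H) : es1Diamond L M H 1 x = x :=
  diamb_diamond_one x

/-- clause `diamond_mul` -/
theorem es1g2_clause_diamond_mul (hD : StmtDiamondH) (hL : L ≠ 0) (hML : M ∣ L)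
    (c d : (ZMod M)ˣ) (x : JH L M H) :
    es1Diamond L M H (c * d) x = es1Diamond L M H c (es1Diamond L M H d x) :=
  diamb_diamond_mul (stmtDiamondBarH_of_diamond hD) hL hML c d x

end Fermat.Agent.ES1.G2

end
end ZBES1_005_11

/-! ### bundled: `Fermat.Agent.ES1.G1Final` -/
section ZBES1_005_12

/-!
# ES₁-G1 — assembly: the G1 contract `ES1bUnifData` from the pieces (sub-captain helper38)

`Γ = gammaH M M H`, `J = JH M M H`, `T ℓ = G2.es1g2T M M H ℓ` (`= es1hHecke`),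
`D c = G2.es1Diamond M M H c`, `P = es1g1opPar M M H`, `Op = es1g1Op M M H p dvd_rfl`,
`Co = Additive ℂˣ`, `μ = es1g1_muP` (the restriction of `muMapH` to `J[p]`), `ε = expZMod p`.

* `es1g1_muP` : the multiplier map on `J[p]` as an additive map;
* `es1g1_unif_of_pieces` : `MuExistsH`, `MuUniqueH`, `MuAddH`, `MuInjH`, `MuSurjH`, `MuHeckeH`,
  `MuDiamH` and the period clause (`Es1g1PerClause`) give `ES1bUnifData`.
-/

set_option autoImplicit false

noncomputable section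

namespace Fermat.Agent.ES1

open ModularCurve AlgebraicCurve CongruenceSubgroup ModularCurve.Period UpperHalfPlane
open Fermat.Agent.ES Fermat.Agent.S48
open scoped MatrixGroups

variable {L M : ℕ} {H : Subgroup (ZMod M)ˣ}

theorem es1g1_muMapH_zero (hE : MuExistsH L M H) (hU : MuUniqueH L M H) (hA : MuAddH L M H) :
    muMapH L M H 0 = 0 := by
  have h1 := muMapH_add hE hU hA (n := 1) one_pos (x := (0 : JH L M H)) (y := 0)
    (smul_zero _) (smul_zero _)
  rw [add_zero] at h1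
  refine DFunLike.ext _ _ (fun γ => ?_)
  have h2 := DFunLike.congr_fun h1 γ
  rw [AddMonoidHom.add_apply] at h2
  exact left_eq_add.mp h2

/-- the multiplier map on `J[p]`, as an additive map -/
def es1g1_muP (hE : MuExistsH L M H) (hU : MuUniqueH L M H) (hA : MuAddH L M H) (p : ℕ)
    (hp : 0 < p) : es1b_torsPart p (JH L M H) →+ CharGrpH L M H where
  toFun x := muMapH L M H (x : JH L M H)
  map_zero' := es1g1_muMapH_zero hE hU hA
  map_add' x y := muMapH_add hE hU hA hp x.2 y.2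

@[simp] theorem es1g1_muP_apply (hE : MuExistsH L M H) (hU : MuUniqueH L M H)
    (hA : MuAddH L M H) (p : ℕ) (hp : 0 < p) (x : es1b_torsPart p (JH L M H)) :
    es1g1_muP hE hU hA p hp x = muMapH L M H (x : JH L M H) := rfl

theorem es1g1_muP_injective (hE : MuExistsH L M H) (hU : MuUniqueH L M H) (hA : MuAddH L M H)
    (hI : MuInjH L M H) (p : ℕ) (hp : 0 < p) :
    Function.Injective (es1g1_muP hE hU hA p hp) := by
  rw [injective_iff_map_eq_zero]
  intro x hx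
  exact Subtype.ext (muMapH_eq_zero hE hU hI hp x.2 hx)

theorem es1g1_expZMod_comp (p : ℕ) (φ : Additive (gammaH L M H) →+ ℤ) :
    (expZMod p).comp ((Int.castAddHom (ZMod p)).comp φ) = expCharH L M H p φ := by
  refine DFunLike.ext _ _ (fun γ => ?_)
  simp only [AddMonoidHom.comp_apply, Int.coe_castAddHom, expZMod_intCast]
  rfl

theorem es1g1_mem_intHoms {φ : Additive (gammaH L M H) →+ ℤ} :
    φ ∈ intHoms (gammaH L M H) (es1g1opPar L M H) ↔ IsParabolicHom (gammaH L M H) φ := Iff.rfl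

variable (M H)

/-- (G1-PER) the period clause of `ES1bUnifData` for `Γ = gammaH M M H`, `Op = es1g1Op`. -/
def Es1g1PerClause [NeZero M] (θ : DirichletCharacter ℂ M) (p : ℕ) : Prop :=
  ∀ g : CuspForm (Gamma1 M) 2, (g : ℍ → ℂ) ≠ 0 → HasNebenK M θ 2 g →
    ∀ b : ℕ → ℂ, IsEigenAway M θ 2 (M * p) g b →
      ∃ (s : Bool) (v : Additive (gammaH M M H) →+ ℂ), v ≠ 0 ∧
        (∀ γ ∈ es1g1opPar M M H, v (Additive.ofMul γ) = 0) ∧
        ∀ i : es1top_goodVars M p,
          es1g1Op M M H p dvd_rfl i ℂ v = es1top_sys θ b s (i : HDVar M) • v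

variable {M H}

/-- **ES₁-G1, assembly.**  The pieces give the G1 contract. -/
theorem es1g1_unif_of_pieces [NeZero M] (θ : DirichletCharacter ℂ M) (p : ℕ) (hp : 0 < p)
    (hE : MuExistsH M M H) (hU : MuUniqueH M M H) (hA : MuAddH M M H) (hI : MuInjH M M H)
    (hS : MuSurjH M M H) (hH : MuHeckeH M M H dvd_rfl) (hD : MuDiamH M M H)
    (hPer : Es1g1PerClause M H θ p) :
    ES1bUnifData M θ p (JH M M H) (G2.es1g2T M M H) (G2.es1Diamond M M H) (gammaH M M H)
      (es1g1opPar M M H) (es1g1Op M M H p dvd_rfl) (Additive ℂˣ) (es1g1_muP hE hU hA p hp)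
      (expZMod p) where
  fg := es1g1op_fg M M H
  nat := es1g1op_nat p dvd_rfl
  par := es1g1op_par p dvd_rfl
  inj := es1g1_muP_injective hE hU hA hI p hp
  equiv := by
    rintro ⟨i, hi⟩ x
    rcases i with ℓ | c
    · have : NeZero (ℓ : ℕ) := ⟨ℓ.2.ne_zero⟩
      have hℓM : ¬ (ℓ : ℕ) ∣ M := fun h => hi ℓ rfl (h.mul_right p)
      rw [es1g1Op_inl]
      exact muMapH_hecke dvd_rfl hE hU hH ℓ.2 hℓM hp x.2
    · rw [es1g1Op_inr p dvd_rfl c hi (Additive ℂˣ) _ (es1g1opSigma (dvd_refl M) c)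
        (es1g1opSigma_memL dvd_rfl c) (es1g1opSigma_memM dvd_rfl c)
        (es1g1opSigma_diam dvd_rfl c)]
      exact muMapH_diam hE hU hD (es1g1opSigma_memL dvd_rfl c) (es1g1opSigma_memM dvd_rfl c)
        (es1g1opSigma_diam dvd_rfl c) hp x.2
  eps_inj := expZMod_injective hp.ne'
  co_fin := finite_torsion_additive_units p hp.ne'
  surj := by
    intro φ hφ
    obtain ⟨x, hx, hxμ⟩ := muMapH_surj hU hS φ (es1g1_mem_intHoms.mp hφ) hp
    exact ⟨⟨x, hx⟩, by rw [es1g1_expZMod_comp]; exact hxμ⟩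
  period := hPer

end Fermat.Agent.ES1

end
end ZBES1_005_12

/-! ### bundled: `Fermat.Agent.ES1.PerHecke` -/
section ZBES1_005_13

/-!
# ES₁ / G1-PER — the period eigen-homomorphism for `Γ_H(M)` (helper42)

`g ∈ S₂(Γ₁(M))`, `g ≠ 0`, nebentypus `θ`, `H ≤ ker θ`, `T_ℓ g = b_ℓ g` (`ℓ ∤ M p`),
`Γ = gammaH M M H`, `Γ' = subLevel M M H ℓ`.

* `es1per_psi_bijective` : `Γ ⧸ Γ' ≃ ℙ¹(𝔽_ℓ)`, `q ↦ ∞ · q.out⁻¹`;
* `es1per_sum_rep` : `Σ_q g ∣ (diag(ℓ, 1) q.out⁻¹) = θ(ℓ)⁻¹ b_ℓ g`;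
* `es1per_heckeGrp_hom` : `heckeGrp ℓ P_g = (b_ℓ θ⁻¹(ℓ)) • P_g`;
* `es1per_diamGrp_hom` : `diamGrp σ P_g = θ⁻¹(diamHom σ) • P_g`;
* **`es1per_period`** : the clause `period` of `ES1bUnifData` for `Op = es1g1Op` (helper78),
  `P = es1g1opPar`, with `s = true`.
-/

set_option autoImplicit false
set_option linter.unusedSectionVars false
set_option linter.style.haveILetI false

noncomputable section

namespace Fermat.Agent.ES1

open Matrix Matrix.SpecialLinearGroup CongruenceSubgroup ModularForm UpperHalfPlane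
open Fermat.Agent.ES.HeckeP
open P2MW.S_ModularForm_heckeT_slash_eq_self_of_mem_Gamma0.ModularForm.HeckeSlashInvariance
open scoped MatrixGroups OnePoint

section Bij

variable {M : ℕ} [NeZero M] (H : Subgroup (ZMod M)ˣ) {ℓ : ℕ} [Fact ℓ.Prime]

theorem es1per_idx_infty_iff (γ : SL(2, ℤ)) :
    idx (p := ℓ) γ ∞ = ∞ ↔ (ℓ : ℤ) ∣ γ 1 0 := by
  rw [idx, OnePoint.smul_infty_eq_ite, redMatrix_apply_one_zero]
  constructor
  · intro h
    by_cases hc : ((γ 1 0 : ℤ) : ZMod ℓ) = 0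
    · exact (ZMod.intCast_zmod_eq_zero_iff_dvd _ _).mp hc
    · rw [if_neg hc] at h
      exact absurd h (OnePoint.coe_ne_infty _)
  · intro h
    rw [if_pos ((ZMod.intCast_zmod_eq_zero_iff_dvd _ _).mpr h)]

theorem es1per_mem_subLevel_iff (hℓM : ¬ ℓ ∣ M) (γ : gammaH M M H) :
    γ ∈ subLevel M M H ℓ ↔ (ℓ : ℤ) ∣ (γ : SL(2, ℤ)) 1 0 := by
  constructor
  · intro h
    exact dvd_of_mem_gammaH_mul H ℓ (Subgroup.mem_subgroupOf.mp h)
  · intro h
    rw [Subgroup.mem_subgroupOf]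
    obtain ⟨h1, h2, h3⟩ := γ.2
    refine ⟨mem_gamma0_of_dvd ?_, h2, h3⟩
    have hcop : IsCoprime (M : ℤ) (ℓ : ℤ) :=
      Nat.isCoprime_iff_coprime.mpr ((Nat.Prime.coprime_iff_not_dvd Fact.out).mpr hℓM).symm
    push_cast
    exact hcop.mul_dvd (dvd_of_mem_gamma0 h1) h

/-- the index map `Γ ⧸ Γ' → ℙ¹(𝔽_ℓ)`, `q ↦ ∞ · q.out⁻¹` -/
def es1per_psi (q : ↥(gammaH M M H) ⧸ subLevel M M H ℓ) : OnePoint (ZMod ℓ) :=
  idx (p := ℓ) (((q.out : gammaH M M H) : SL(2, ℤ))⁻¹) ∞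

theorem es1per_psi_injective (hℓM : ¬ ℓ ∣ M) :
    Function.Injective (es1per_psi (M := M) H (ℓ := ℓ)) := by
  intro q q' h
  unfold es1per_psi at h
  have h1 := congrArg (idx (p := ℓ) ((q'.out : gammaH M M H) : SL(2, ℤ))) h
  rw [← idx_mul, ← idx_mul, inv_mul_cancel, idx_one, es1per_idx_infty_iff] at h1
  have h2 : (q.out)⁻¹ * q'.out ∈ subLevel M M H ℓ :=
    (es1per_mem_subLevel_iff H hℓM _).mpr h1
  have h3 : ((q.out : gammaH M M H) : ↥(gammaH M M H) ⧸ subLevel M M H ℓ)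
      = ((q'.out : gammaH M M H) : ↥(gammaH M M H) ⧸ subLevel M M H ℓ) :=
    QuotientGroup.eq.mpr h2
  rwa [QuotientGroup.out_eq', QuotientGroup.out_eq'] at h3

theorem es1per_psi_mk (hℓM : ¬ ℓ ∣ M) (γ : gammaH M M H) :
    es1per_psi H (ℓ := ℓ) (γ : ↥(gammaH M M H) ⧸ subLevel M M H ℓ)
      = idx (p := ℓ) ((γ : SL(2, ℤ))⁻¹) ∞ := by
  obtain ⟨h, hh⟩ := QuotientGroup.mk_out_eq_mul (subLevel M M H ℓ) γ
  unfold es1per_psi
  rw [hh, Subgroup.coe_mul, _root_.mul_inv_rev, idx_mul]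
  congr 1
  rw [es1per_idx_infty_iff]
  have h1 : (h : gammaH M M H)⁻¹ ∈ subLevel M M H ℓ := inv_mem h.2
  have h2 := (es1per_mem_subLevel_iff H hℓM _).mp h1
  exact h2

theorem es1per_exists_idx (hℓM : ¬ ℓ ∣ M) (j : ZMod ℓ) :
    ∃ δ : SL(2, ℤ), δ ∈ Gamma1 M ∧ idx (p := ℓ) δ ∞ = (j : OnePoint (ZMod ℓ)) := by
  have hM0 : ((M : ℕ) : ZMod ℓ) ≠ 0 := by
    rw [Ne, ZMod.natCast_eq_zero_iff]
    exact hℓM
  set k : ℕ := (j - ((M : ℕ) : ZMod ℓ)⁻¹).val with hk
  obtain ⟨δ, h00, h01, h10, h11⟩ :=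
    Fermat.Agent.S48.neben_exists_SL 1 (k : ℤ) (M : ℤ) ((M : ℤ) * k + 1) (by ring)
  refine ⟨δ, ?_, ?_⟩
  · rw [Gamma1_mem, h00, h10, h11]
    refine ⟨by simp, by simp, by simp⟩
  · rw [idx, OnePoint.smul_infty_eq_ite, redMatrix_apply_one_zero, redMatrix_apply_zero_zero,
      h10, h11]
    have h1 : (((M : ℤ) : ℤ) : ZMod ℓ) = ((M : ℕ) : ZMod ℓ) := by push_cast; rfl
    rw [h1, if_neg hM0]
    congr 1
    push_cast
    rw [hk, ZMod.natCast_zmod_val]
    field_simp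
    ring

theorem es1per_psi_surjective (hℓM : ¬ ℓ ∣ M) :
    Function.Surjective (es1per_psi (M := M) H (ℓ := ℓ)) := by
  intro y
  induction y using OnePoint.rec with
  | infty =>
    refine ⟨((1 : gammaH M M H) : ↥(gammaH M M H) ⧸ subLevel M M H ℓ), ?_⟩
    rw [es1per_psi_mk H hℓM, Subgroup.coe_one, inv_one, idx_one]
  | coe j =>
    obtain ⟨δ, hδ, hj⟩ := es1per_exists_idx (M := M) hℓM j
    have hδ' : δ⁻¹ ∈ gammaH M M H := inv_mem (es1per_gamma1_le M H hδ)
    refine ⟨((⟨δ⁻¹, hδ'⟩ : gammaH M M H) : ↥(gammaH M M H) ⧸ subLevel M M H ℓ), ?_⟩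
    rw [es1per_psi_mk H hℓM]
    show idx (p := ℓ) ((δ⁻¹)⁻¹) ∞ = _
    rw [inv_inv, hj]

theorem es1per_psi_bijective (hℓM : ¬ ℓ ∣ M) :
    Function.Bijective (es1per_psi (M := M) H (ℓ := ℓ)) :=
  ⟨es1per_psi_injective H hℓM, es1per_psi_surjective H hℓM⟩

end Bij

section Slash

open Fermat.Agent.S48

variable {M : ℕ} [NeZero M] (H : Subgroup (ZMod M)ˣ) {θ : DirichletCharacter ℂ M} {ℓ : ℕ}
  [Fact ℓ.Prime]

/-- the terms of `θ(ℓ) • Σ_q g ∣ (α q.out⁻¹)` -/
theorem es1per_smul_slash_diag_mul (hℓM : ¬ ℓ ∣ M) {g : ℍ → ℂ} (hN : NebChar M 2 θ g)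
    (γ : SL(2, ℤ)) (hγ0 : γ ∈ Gamma0 M) (hγ : g ∣[(2 : ℤ)] mapGL ℝ γ = g) :
    θ ((ℓ : ℕ) : ZMod M) • (g ∣[(2 : ℤ)] (heckeDiagMatrix ℓ * mapGL ℝ γ))
      = nebTerm 2 ℓ g (θ ((ℓ : ℕ) : ZMod M) • g) (idx (p := ℓ) γ ∞) := by
  obtain ⟨γp, hγp, hγp1, -⟩ := neben_exists_gammaP (N := M) (Fact.out : ℓ.Prime) hℓM
  have h := nebChar_term_slash hℓM hN.inv γp hγp hγp1 γ hγ0 ∞
  rw [hγ, hN γp hγp, hγp1, nebTerm_infty, ModularForm.smul_slash, σ_heckeDiagMatrix,
    ModularForm.smul_slash, neben_σ_mapGL, ← SlashAction.slash_mul] at h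
  exact h

theorem es1per_theta_ne_zero (hℓM : ¬ ℓ ∣ M) : θ ((ℓ : ℕ) : ZMod M) ≠ 0 := by
  have hu : IsUnit ((ℓ : ℕ) : ZMod M) :=
    (ZMod.isUnit_iff_coprime ℓ M).mpr ((Nat.Prime.coprime_iff_not_dvd Fact.out).mpr hℓM)
  exact (hu.map θ).ne_zero

/-- `T_ℓ g = b g` as functions, from the `q`-expansion form -/
theorem es1per_heckeT_eq (hℓM : ¬ ℓ ∣ M) (g : CuspForm (Gamma1 M) 2)
    (hθ : HasNebenK M θ 2 g) (b : ℂ)
    (hb : ∀ n : ℕ, ModularFormClass.qCoeff g (ℓ * n) +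
        (ℓ : ℂ) ^ (2 - 1) * θ ((ℓ : ℕ) : ZMod M) *
          (if ℓ ∣ n then ModularFormClass.qCoeff g (n / ℓ) else 0) =
      b * ModularFormClass.qCoeff g n) :
    heckeU 2 ℓ ⇑g + θ ((ℓ : ℕ) : ZMod M) • ((⇑g : ℍ → ℂ) ∣[(2 : ℤ)] heckeDiagMatrix ℓ)
      = b • (⇑g : ℍ → ℂ) := by
  have hN : NebChar M ((2 : ℕ) : ℤ) θ ⇑g := (nebChar_iff_hasNebenK 2 θ _).mpr hθ
  rw [Nat.cast_ofNat] at hN
  obtain ⟨g', -, hfun, hq⟩ := nebChar_exists_heckeT_cusp θ (Fact.out : ℓ.Prime) hℓM g hN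
  have h1 : g' = b • g := by
    apply dsl_ext
    intro n
    rw [hq n, dsl_qCoeff_smul, ← hb n]
    norm_num
  rw [← hfun, h1]
  rfl

/-- **the Hecke eigen-equation** `Σ_q g ∣ α_q = θ(ℓ)⁻¹ b_ℓ g` for the Hecke coset family -/
theorem es1per_sum_rep (hℓM : ¬ ℓ ∣ M) [NeZero ℓ] (g : CuspForm (Gamma1 M) 2)
    (hθ : HasNebenK M θ 2 g) (hg0 : (g : ℍ → ℂ) ≠ 0) (hH : ∀ h ∈ H, θ (h : ZMod M) = 1) (b : ℂ)
    (hb : ∀ n : ℕ, ModularFormClass.qCoeff g (ℓ * n) +
        (ℓ : ℂ) ^ (2 - 1) * θ ((ℓ : ℕ) : ZMod M) *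
          (if ℓ ∣ n then ModularFormClass.qCoeff g (n / ℓ) else 0) =
      b * ModularFormClass.qCoeff g n) :
    @Finset.sum _ _ _ (@Finset.univ _ (es1per_fintypeQuot M M H ℓ))
        (fun q => (⇑g : ℍ → ℂ) ∣[(2 : ℤ)] (es1per_heckeFam M M H ℓ (dvd_refl M)).rep q)
      = (b * θ⁻¹ ((ℓ : ℕ) : ZMod M)) • (⇑g : ℍ → ℂ) := by
  letI := es1per_fintypeQuot M M H ℓ
  have hN : NebChar M ((2 : ℕ) : ℤ) θ ⇑g := (nebChar_iff_hasNebenK 2 θ _).mpr hθ
  rw [Nat.cast_ofNat] at hN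
  have h0 := es1per_theta_ne_zero (θ := θ) hℓM
  have key : θ ((ℓ : ℕ) : ZMod M) •
      ∑ q, (⇑g : ℍ → ℂ) ∣[(2 : ℤ)] (es1per_heckeFam M M H ℓ (dvd_refl M)).rep q
      = b • (⇑g : ℍ → ℂ) := by
    rw [Finset.smul_sum]
    have h1 : ∀ q : ↥(gammaH M M H) ⧸ subLevel M M H ℓ,
        θ ((ℓ : ℕ) : ZMod M) •
          ((⇑g : ℍ → ℂ) ∣[(2 : ℤ)] (es1per_heckeFam M M H ℓ (dvd_refl M)).rep q)
        = nebTerm 2 ℓ ⇑g (θ ((ℓ : ℕ) : ZMod M) • ⇑g) (es1per_psi H q) := by
      intro q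
      have hmem : ((q.out : gammaH M M H) : SL(2, ℤ))⁻¹ ∈ gammaH M M H := inv_mem q.out.2
      exact es1per_smul_slash_diag_mul hℓM hN _ (gammaH_le_gamma0 M M H hmem)
        (es1per_slash_eq hθ hg0 hH _ hmem)
    rw [Finset.sum_congr rfl (fun q _ => h1 q),
      (es1per_psi_bijective H hℓM).sum_comp
        (fun y => nebTerm 2 ℓ ⇑g (θ ((ℓ : ℕ) : ZMod M) • ⇑g) y),
      ← neben_sum_nebTerm, ModularForm.smul_slash, σ_heckeDiagMatrix]
    exact es1per_heckeT_eq hℓM g hθ b hb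
  rw [MulChar.inv_apply_eq_inv', mul_comm, mul_smul, ← key, smul_smul, inv_mul_cancel₀ h0,
    one_smul]

end Slash

section Eigen

open Fermat.Agent.S48

variable {M : ℕ} [NeZero M] (H : Subgroup (ZMod M)ˣ) {θ : DirichletCharacter ℂ M}

/-- **`heckeGrp ℓ P_g = (b_ℓ θ⁻¹(ℓ)) • P_g`** -/
theorem es1per_heckeGrp_hom {ℓ : ℕ} (hℓ : ℓ.Prime) (hℓM : ¬ ℓ ∣ M) [NeZero ℓ]
    (g : CuspForm (Gamma1 M) 2) (hθ : HasNebenK M θ 2 g) (hg0 : (g : ℍ → ℂ) ≠ 0)
    (hH : ∀ h ∈ H, θ (h : ZMod M) = 1) (b : ℂ)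
    (hb : ∀ n : ℕ, ModularFormClass.qCoeff g (ℓ * n) +
        (ℓ : ℂ) ^ (2 - 1) * θ ((ℓ : ℕ) : ZMod M) *
          (if ℓ ∣ n then ModularFormClass.qCoeff g (n / ℓ) else 0) =
      b * ModularFormClass.qCoeff g n) :
    heckeGrp M M H ℓ (dvd_refl M) (es1per_cusp hθ hg0 hH).hom
      = (b * θ⁻¹ ((ℓ : ℕ) : ZMod M)) • (es1per_cusp hθ hg0 hH).hom := by
  haveI : Fact ℓ.Prime := ⟨hℓ⟩
  letI := es1per_fintypeQuot M M H ℓ
  rw [es1per_heckeGrp_eq_op]
  exact (es1per_cusp hθ hg0 hH).op_hom (es1per_heckeFam M M H ℓ (dvd_refl M)) _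
    (es1per_sum_rep H hℓM g hθ hg0 hH b hb)

/-- the diamond coset family: one matrix `σ ∈ Γ₀(M)` -/
def es1per_diamFam (σ : SL(2, ℤ)) (hσ : σ ∈ Gamma0 M) : Es1perFam (gammaH M M H) Unit where
  rep _ := mapGL ℝ σ
  det_pos _ := by
    have h := es1per_det_mapGL_pos σ 1 (by simp)
    rwa [one_mul] at h
  next _ x := x
  coc γ _ := conjH M M H σ hσ hσ γ
  spec γ _ := by
    show mapGL ℝ σ * mapGL ℝ (γ : SL(2, ℤ)) = mapGL ℝ (σ * (γ : SL(2, ℤ)) * σ⁻¹) * mapGL ℝ σ
    rw [← map_mul, ← map_mul, inv_mul_cancel_right]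
  next_one _ := rfl
  next_mul _ _ _ := rfl
  coc_mul γ δ _ := map_mul _ γ δ

theorem es1per_diamGrp_eq_op (σ : SL(2, ℤ)) (hσ : σ ∈ Gamma0 M) {A : Type} [AddCommGroup A]
    (φ : Additive (gammaH M M H) →+ A) :
    diamGrp M M H σ hσ hσ φ = (es1per_diamFam H σ hσ).op A φ := by
  refine AddMonoidHom.ext fun γ => ?_
  obtain ⟨γ, rfl⟩ : ∃ g : gammaH M M H, Additive.ofMul g = γ := ⟨Additive.toMul γ, rfl⟩
  rw [Es1perFam.op_apply, Fintype.sum_unique]
  rfl

/-- **`diamGrp σ P_g = θ⁻¹(diamHom σ) • P_g`** -/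
theorem es1per_diamGrp_hom (σ : SL(2, ℤ)) (hσ : σ ∈ Gamma0 M)
    (g : CuspForm (Gamma1 M) 2) (hθ : HasNebenK M θ 2 g) (hg0 : (g : ℍ → ℂ) ≠ 0)
    (hH : ∀ h ∈ H, θ (h : ZMod M) = 1) :
    diamGrp M M H σ hσ hσ (es1per_cusp hθ hg0 hH).hom
      = θ⁻¹ ((diamHom M ⟨σ, hσ⟩ : (ZMod M)ˣ) : ZMod M) • (es1per_cusp hθ hg0 hH).hom := by
  rw [es1per_diamGrp_eq_op]
  refine (es1per_cusp hθ hg0 hH).op_hom (es1per_diamFam H σ hσ) _ ?_
  rw [Fintype.sum_unique]
  have hN : NebChar M ((2 : ℕ) : ℤ) θ ⇑g := (nebChar_iff_hasNebenK 2 θ _).mpr hθ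
  rw [Nat.cast_ofNat] at hN
  have h1 := hN σ hσ
  rw [← coe_inv_diamHom M ⟨σ, hσ⟩] at h1
  have h2 : θ (((diamHom M ⟨σ, hσ⟩)⁻¹ : (ZMod M)ˣ) : ZMod M)
      = θ⁻¹ ((diamHom M ⟨σ, hσ⟩ : (ZMod M)ˣ) : ZMod M) := by
    rw [MulChar.inv_apply_eq_inv']
    have h3 : θ (((diamHom M ⟨σ, hσ⟩)⁻¹ : (ZMod M)ˣ) : ZMod M)
        * θ ((diamHom M ⟨σ, hσ⟩ : (ZMod M)ˣ) : ZMod M) = 1 := by
      rw [← map_mul, ← Units.val_mul, inv_mul_cancel, Units.val_one, map_one]
    exact eq_inv_of_mul_eq_one_left h3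
  rw [h2] at h1
  exact h1

/-- **G1-PER** : the clause `period` of `ES1bUnifData` for `Γ = gammaH M M H`, `Op = es1g1Op`,
`P = es1g1opPar`.  The eigen-system is number `s = true`. -/
theorem es1per_period (M : ℕ) [NeZero M] (H : Subgroup (ZMod M)ˣ) (θ : DirichletCharacter ℂ M)
    (hH : ∀ h ∈ H, θ (h : ZMod M) = 1) (p : ℕ)
    (g : CuspForm (Gamma1 M) 2) (hg0 : (g : ℍ → ℂ) ≠ 0) (hθ : HasNebenK M θ 2 g)
    (b : ℕ → ℂ) (hb : IsEigenAway M θ 2 (M * p) g b) :
    ∃ (s : Bool) (v : Additive (gammaH M M H) →+ ℂ), v ≠ 0 ∧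
      (∀ γ ∈ es1g1opPar M M H, v (Additive.ofMul γ) = 0) ∧
      ∀ i : es1top_goodVars M p,
        es1g1Op M M H p (dvd_refl M) i ℂ v = es1top_sys θ b s (i : HDVar M) • v := by
  refine ⟨true, (es1per_cusp hθ hg0 hH).hom, es1per_hom_ne_zero hθ hg0 hH,
    fun γ hγ => (es1per_cusp hθ hg0 hH).hom_isParabolicHom γ hγ, ?_⟩
  rintro ⟨i, hi⟩
  rcases i with ℓ | c
  · haveI : NeZero (ℓ : ℕ) := ⟨ℓ.2.ne_zero⟩
    have hnd : ¬ (ℓ : ℕ) ∣ M * p := hi ℓ rfl
    have hℓM : ¬ (ℓ : ℕ) ∣ M := fun h => hnd (dvd_mul_of_dvd_left h p)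
    rw [es1g1Op_inl]
    exact es1per_heckeGrp_hom H ℓ.2 hℓM g hθ hg0 hH (b ℓ) (hb ℓ ℓ.2 hnd)
  · rw [es1g1Op_inr p (dvd_refl M) c hi ℂ _ (es1g1opSigma (dvd_refl M) c)
      (es1g1opSigma_memL (dvd_refl M) c) (es1g1opSigma_memM (dvd_refl M) c)
      (es1g1opSigma_diam (dvd_refl M) c)]
    have h := es1per_diamGrp_hom H (es1g1opSigma (dvd_refl M) c)
      (es1g1opSigma_memM (dvd_refl M) c) g hθ hg0 hH
    rw [es1g1opSigma_diam] at h
    exact h

end Eigen

end Fermat.Agent.ES1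

end
end ZBES1_005_13

/-! ### bundled: `Fermat.Agent.ES1.G1UnifStmt` -/
section ZBES1_005_14

/-!
# ES₁-G1: the deliverable `StmtG1Unif` (definition only; helper78)

The contract `ES1bUnifData` (helper42, `ES1/TopBUnif.lean`) for `J = JH M M H`, with the operators
`G2.es1g2T M M H` (`ℓ ↦ es1hHecke M M H ℓ`), `G2.es1Diamond M M H` on `J` and `es1g1Op M M H p _`
(`T_ℓ ↦ heckeGrp ℓ`, `δ_c ↦ diamGrp σ_c`) on `Hom(Γ, ·)`, `Γ = gammaH M M H`,
`P = es1g1opPar M M H` (trace `±2`).  Consumer: `ES1/S48Glue.lean` (`s48_of_g1`).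
-/

set_option autoImplicit false

noncomputable section

namespace Fermat.Agent.ES1

open Fermat.Agent.S48 Fermat.Agent.ES

/-- **The deliverable of G1**: the contract `ES1bUnifData` for `J = JH M M H`, with the operators
`es1g2T`, `es1Diamond` on `J` and `es1g1Op` on `Hom(Γ, ·)`, `Γ = gammaH M M H`. -/
def StmtG1Unif : Prop :=
  ∀ (M : ℕ) [NeZero M] (θ : DirichletCharacter ℂ M) (p : ℕ) [Fact p.Prime],
    ∃ (H : Subgroup (ZMod M)ˣ) (Co : Type) (_ : AddCommGroup Co)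
      (μ : es1b_torsPart p (JH M M H) →+ (Additive (gammaH M M H) →+ Co)) (ε : ZMod p →+ Co),
      ES1bUnifData M θ p (JH M M H) (G2.es1g2T M M H) (G2.es1Diamond M M H) (gammaH M M H)
        (es1g1opPar M M H) (es1g1Op M M H p dvd_rfl) Co μ ε

end Fermat.Agent.ES1

end
end ZBES1_005_14

/-! ### bundled: `Fermat.Agent.ES1.G1Unif` -/
section ZBES1_005_15

/-!
# ES₁-G1 — the G1 contract from the Hecke-equivariance of the multiplier alone
(sub-captain helper38)

All the pieces of G1 except `MuHeckeH` (G1-HKb) are plugged in: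
`es1g1e_muExistsH`, `es1g1u_muUniqueH`, `es1g1u_muAddH`, `es1g1i_muInjH`, `es1g1s_muSurjH`,
`muDiamH`, `es1per_period`.

* `StmtMuHeckeAll` : `MuHeckeH M M H` for all `M`, `H` — the only open input;
* `es1g1_unifData` : the G1 contract `ES1bUnifData` for `gammaH M M H`, `H ≤ ker θ`;
* `es1g1_stmtG1Unif : StmtMuHeckeAll → StmtG1Unif` (the deliverable, `ES1/G1UnifStmt.lean`),
  with `H = ⊥`;
* `StmtHKbCrossAll` (the seam of `ES1/G1/HKbPlan.lean` at all levels) and
  `es1g1_stmtMuHeckeAll_of_cross : StmtHKbCrossAll → StmtMuHeckeAll`.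
-/

set_option autoImplicit false

noncomputable section

namespace Fermat.Agent.ES1

open ModularCurve AlgebraicCurve CongruenceSubgroup ModularCurve.Period UpperHalfPlane
open Fermat.Agent.ES Fermat.Agent.S48
open scoped MatrixGroups

/-- **The only open input of G1**: Hecke-equivariance of the multiplier (G1-HKb). -/
def StmtMuHeckeAll : Prop :=
  ∀ (M : ℕ) [NeZero M] (H : Subgroup (ZMod M)ˣ), MuHeckeH M M H dvd_rfl

/-- the multiplier map on `J_H(M)[p]` -/
def es1g1_mu (M : ℕ) [NeZero M] (H : Subgroup (ZMod M)ˣ) (p : ℕ) (hp : 0 < p) :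
    es1b_torsPart p (JH M M H) →+ CharGrpH M M H :=
  es1g1_muP (es1g1e_muExistsH dvd_rfl H) (es1g1u_muUniqueH dvd_rfl) es1g1u_muAddH p hp

/-- **The G1 contract** for `Γ = gammaH M M H`, `H ≤ ker θ`, from `MuHeckeH`. -/
theorem es1g1_unifData (M : ℕ) [NeZero M] (H : Subgroup (ZMod M)ˣ)
    (θ : DirichletCharacter ℂ M) (hHθ : ∀ h ∈ H, θ (h : ZMod M) = 1) (p : ℕ) (hp : 0 < p)
    (hH : MuHeckeH M M H dvd_rfl) :
    ES1bUnifData M θ p (JH M M H) (G2.es1g2T M M H) (G2.es1Diamond M M H) (gammaH M M H)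
      (es1g1opPar M M H) (es1g1Op M M H p dvd_rfl) (Additive ℂˣ) (es1g1_mu M H p hp)
      (expZMod p) :=
  es1g1_unif_of_pieces θ p hp (es1g1e_muExistsH dvd_rfl H) (es1g1u_muUniqueH dvd_rfl)
    es1g1u_muAddH (es1g1i_muInjH dvd_rfl H) (es1g1s_muSurjH dvd_rfl) hH
    (muDiamH H (NeZero.ne M) dvd_rfl) (es1per_period M H θ hHθ p)

/-- **G1 ⇒ the deliverable `StmtG1Unif`** (`ES1/G1UnifStmt.lean`), with `H = ⊥`. -/
theorem es1g1_stmtG1Unif (hH : StmtMuHeckeAll) : StmtG1Unif := by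
  intro M _ θ p hp
  have hbot : ∀ h ∈ (⊥ : Subgroup (ZMod M)ˣ), θ (h : ZMod M) = 1 := by
    intro h hh
    rw [Subgroup.mem_bot] at hh
    subst hh
    simp
  exact ⟨⊥, Additive ℂˣ, inferInstance, es1g1_mu M ⊥ p hp.out.pos, expZMod p,
    es1g1_unifData M ⊥ θ hbot p hp.out.pos (hH M ⊥)⟩

/-- the seam `StmtHKbCross` (HKb-NORM) at all levels `L = M` -/
def StmtHKbCrossAll : Prop :=
  ∀ (M : ℕ) [NeZero M] (H : Subgroup (ZMod M)ˣ) (ℓ : ℕ) [NeZero ℓ], ℓ.Prime → ¬ ℓ ∣ M →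
    StmtHKbCross M M H ℓ

theorem es1g1_stmtMuHeckeAll_of_cross (h : StmtHKbCrossAll) : StmtMuHeckeAll :=
  fun M _ H => es1g1h_muHeckeH_of_cross dvd_rfl (fun ℓ _ hℓ hℓM => h M H ℓ hℓ hℓM)

/-- **the deliverable of G1 from the seam HKb-NORM** -/
theorem es1g1_stmtG1Unif_of_cross (h : StmtHKbCrossAll) : StmtG1Unif :=
  es1g1_stmtG1Unif (es1g1_stmtMuHeckeAll_of_cross h)

end Fermat.Agent.ES1

end
end ZBES1_005_15

/-! ### bundled: `Fermat.Agent.ES1.G1Done` -/
section ZBES1_005_16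

/-!
# ES₁-G1 — DONE: the deliverable `StmtG1Unif`, unconditionally (sub-captain helper38)

All the pieces of G1 are proved:
(E), (I) helper34 (`ES1/G1/MuCoreH.lean`); (U), (A) helper38 (`ES1/G1Unique.lean`);
(S) helper83 (`ES1/G1/MuSurjFinal.lean`); (D) helper36 (`ES1/G1/MuDiam.lean`);
(H) helper81, helper82 (`ES1/G1/HKbFinal.lean`, `MuHeckeH.lean`); (OP) helper78
(`ES1/G1Op.lean`); (PER) helper42 (`ES1/PerHecke.lean`).

* `es1g1_stmtMuHeckeAll : StmtMuHeckeAll`;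
* `es1g1_unifData_done` : the G1 contract `ES1bUnifData` for every `H ≤ ker θ`;
* `stmtG1Unif : StmtG1Unif` — **the deliverable of G1**.
-/

set_option autoImplicit false

noncomputable section

namespace Fermat.Agent.ES1

open Fermat.Agent.ES Fermat.Agent.S48

/-- (H) at all levels -/
theorem es1g1_stmtMuHeckeAll : StmtMuHeckeAll :=
  fun _ _ H => es1g1hkb_muHeckeH H dvd_rfl

/-- **The G1 contract** for `Γ = gammaH M M H`, `H ≤ ker θ`, unconditionally. -/
theorem es1g1_unifData_done (M : ℕ) [NeZero M] (H : Subgroup (ZMod M)ˣ)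
    (θ : DirichletCharacter ℂ M) (hHθ : ∀ h ∈ H, θ (h : ZMod M) = 1) (p : ℕ) (hp : 0 < p) :
    ES1bUnifData M θ p (JH M M H) (G2.es1g2T M M H) (G2.es1Diamond M M H) (gammaH M M H)
      (es1g1opPar M M H) (es1g1Op M M H p dvd_rfl) (Additive ℂˣ) (es1g1_mu M H p hp)
      (expZMod p) :=
  es1g1_unifData M H θ hHθ p hp (es1g1hkb_muHeckeH H dvd_rfl)

/-- **G1 is DONE**: the deliverable `StmtG1Unif` of `ES1/G1UnifStmt.lean`. -/
theorem stmtG1Unif : StmtG1Unif := es1g1_stmtG1Unif es1g1_stmtMuHeckeAll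

end Fermat.Agent.ES1

end
end ZBES1_005_16
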