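/- GENERATED FILE (helper35, build-time optimisation, NOTES/ZB.md): verbatim concatenation of the modules
   Fermat.Agent.ES1.KDLiftGalois
   Fermat.Agent.ES1.KDLiftSetup
   Fermat.Agent.RT.K6.D0Gal
   Fermat.Agent.RT.K6.EFinal
   Fermat.Agent.RT.K6.DIW
   Fermat.Agent.RT.K6.DIWRel
   Fermat.Agent.RT.K6.M5Pack
   Do not edit; do not import together with these modules. -/
import Mathlib
import Fermat.Agent.ZB.INJ_021
import Fermat.Agent.ZB.INJ_020
import Fermat.Agent.ZB.ES1_002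
import Fermat.Agent.ZB.ES1_009
import Fermat.Agent.ZB.ES1_001
import Fermat.Agent.ZB.INJ_005
import Fermat.Agent.ZB.ES1_007
import Fermat.Agent.ZB.ES_012
import Fermat.Agent.ZB.INJ_024
import Fermat.Agent.ZB.S34_001
import Mathlib.FieldTheory.Galois.Infinite
import Fermat.Agent.ZB.UNIP_038

/-! ### bundled: `Fermat.Agent.ES1.KDLiftGalois` -/
section ZBES1_010_0

/-!
# ES₁ / INJ₁-KD, part 2: a simple extension with a full set of conjugates

`L = K(θ)`, `θ` a root of a monic polynomial of degree `m + 1` over `K`, and automorphisms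
`σ b` (`b : Fin (m + 1)`) of `L / K` with pairwise different `σ b θ`.  Then `[L : K] = m + 1`, the
`σ b` are all the automorphisms, `L / K` is Galois, traces are sums over the `σ b` and the
discriminant of the power basis is the square of the Vandermonde determinant.
-/

set_option autoImplicit false
set_option linter.style.haveILetI false

namespace Fermat.Agent.ES1

open Polynomial IntermediateField Module Matrix

section Conj

variable {K L : Type*} [Field K] [Field L] [Algebra K L] {m : ℕ}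

theorem kdl_isIntegral_gen (θ : L) (P : K[X]) (hP : P.Monic) (hroot : aeval θ P = 0) :
    IsIntegral K θ := ⟨P, hP, hroot⟩

theorem kdl_finiteDimensional (θ : L) (hgen : K⟮θ⟯ = ⊤) (P : K[X]) (hP : P.Monic)
    (hroot : aeval θ P = 0) : FiniteDimensional K L := by
  have hint : IsIntegral K θ := ⟨P, hP, hroot⟩
  haveI : FiniteDimensional K K⟮θ⟯ := IntermediateField.adjoin.finiteDimensional hint
  have h1 : FiniteDimensional K (⊤ : IntermediateField K L) := by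
    rw [← hgen]; infer_instance
  exact LinearEquiv.finiteDimensional (IntermediateField.topEquiv (F := K) (E := L)).toLinearEquiv

theorem kdl_finrank_le (θ : L) (hgen : K⟮θ⟯ = ⊤) (P : K[X]) (hP : P.Monic)
    (hdeg : P.natDegree = m + 1) (hroot : aeval θ P = 0) : Module.finrank K L ≤ m + 1 := by
  have hint : IsIntegral K θ := ⟨P, hP, hroot⟩
  have h1 : Module.finrank K L = (minpoly K θ).natDegree := by
    rw [← IntermediateField.adjoin.finrank hint, hgen, IntermediateField.finrank_top']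
  rw [h1, ← hdeg]
  exact Polynomial.natDegree_le_natDegree (minpoly.min K θ hP hroot)

variable (θ : L) (hgen : K⟮θ⟯ = ⊤) (P : K[X]) (hP : P.Monic)
  (hdeg : P.natDegree = m + 1) (hroot : aeval θ P = 0)
  (σ : Fin (m + 1) → (L ≃ₐ[K] L)) (hσ : Function.Injective (fun b => σ b θ))

include hσ in
theorem kdl_sigma_injective : Function.Injective σ := by
  intro a b hab
  apply hσ
  show σ a θ = σ b θ
  rw [hab]

include hgen hP hdeg hroot hσ in
theorem kdl_card_finrank :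
    haveI := kdl_finiteDimensional θ hgen P hP hroot
    Fintype.card (L ≃ₐ[K] L) = m + 1 ∧ Module.finrank K L = m + 1 := by
  haveI := kdl_finiteDimensional θ hgen P hP hroot
  have h1 : Fintype.card (L ≃ₐ[K] L) ≤ Module.finrank K L := AlgEquiv.card_le
  have h2 : Module.finrank K L ≤ m + 1 := kdl_finrank_le θ hgen P hP hdeg hroot
  have h3 : m + 1 ≤ Fintype.card (L ≃ₐ[K] L) := by
    have := Fintype.card_le_of_injective σ (kdl_sigma_injective θ σ hσ)
    simpa using this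
  omega

include hgen hP hdeg hroot hσ in
theorem kdl_finrank : Module.finrank K L = m + 1 :=
  (kdl_card_finrank θ hgen P hP hdeg hroot σ hσ).2

include hgen hP hdeg hroot hσ in
theorem kdl_isGalois : IsGalois K L := by
  haveI := kdl_finiteDimensional θ hgen P hP hroot
  apply IsGalois.of_card_aut_eq_finrank
  rw [Nat.card_eq_fintype_card]
  have := kdl_card_finrank θ hgen P hP hdeg hroot σ hσ
  omega

include hgen hP hdeg hroot hσ in
theorem kdl_sigma_bijective : Function.Bijective σ := by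
  haveI := kdl_finiteDimensional θ hgen P hP hroot
  rw [Fintype.bijective_iff_injective_and_card]
  refine ⟨kdl_sigma_injective θ σ hσ, ?_⟩
  rw [Fintype.card_fin, (kdl_card_finrank θ hgen P hP hdeg hroot σ hσ).1]

include hgen hP hdeg hroot hσ in
/-- traces are sums over the conjugates -/
theorem kdl_trace_eq_sum (x : L) :
    algebraMap K L (Algebra.trace K L x) = ∑ b, σ b x := by
  haveI := kdl_finiteDimensional θ hgen P hP hroot
  haveI := kdl_isGalois θ hgen P hP hdeg hroot σ hσ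
  rw [_root_.trace_eq_sum_automorphisms]
  exact (Fintype.sum_bijective σ (kdl_sigma_bijective θ hgen P hP hdeg hroot σ hσ) _ _
    (fun _ => rfl)).symm

include hgen hP hdeg hroot hσ in
/-- norms are products over the conjugates -/
theorem kdl_norm_eq_prod (x : L) :
    algebraMap K L (Algebra.norm K x) = ∏ b, σ b x := by
  haveI := kdl_finiteDimensional θ hgen P hP hroot
  haveI := kdl_isGalois θ hgen P hP hdeg hroot σ hσ
  rw [Algebra.norm_eq_prod_automorphisms]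
  exact (Fintype.prod_bijective σ (kdl_sigma_bijective θ hgen P hP hdeg hroot σ hσ) _ _
    (fun _ => rfl)).symm

include hgen hP hdeg hroot hσ in
/-- the discriminant of the powers of `θ` is the square of the Vandermonde determinant -/
theorem kdl_discr_pow :
    algebraMap K L (Algebra.discr K (fun k : Fin (m + 1) => θ ^ (k : ℕ))) =
      (∏ i : Fin (m + 1), ∏ j ∈ Finset.Ioi i, (σ j θ - σ i θ)) ^ 2 := by
  classical
  have hV : (algebraMap K L).mapMatrix
      (Algebra.traceMatrix K (fun k : Fin (m + 1) => θ ^ (k : ℕ))) =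
      (Matrix.vandermonde fun b => σ b θ)ᵀ * (Matrix.vandermonde fun b => σ b θ) := by
    ext k l
    rw [RingHom.mapMatrix_apply, Matrix.map_apply, Algebra.traceMatrix_apply,
      Algebra.traceForm_apply, kdl_trace_eq_sum θ hgen P hP hdeg hroot σ hσ, Matrix.mul_apply]
    refine Finset.sum_congr rfl fun b _ => ?_
    rw [Matrix.transpose_apply, Matrix.vandermonde_apply, Matrix.vandermonde_apply, map_mul,
      map_pow, map_pow]
  rw [Algebra.discr_def, RingHom.map_det, hV, Matrix.det_mul, Matrix.det_transpose,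
    Matrix.det_vandermonde, sq]

end Conj

end Fermat.Agent.ES1


end ZBES1_010_0

/-! ### bundled: `Fermat.Agent.ES1.KDLiftSetup` -/
section ZBES1_010_1

/-!
# ES₁ / INJ₁-KD, part 6: the field theory of a conjugate family

`F₀ ≤ F ⊆ E((q))` with a conjugate family `S` (`ES1.ConjFamily`).  We translate the family into
the language of the extension `F / F₀` (automorphisms over `F₀`, generator, minimal polynomial),
identify the minimal polynomial with `∏ (X - S b)` and prove the integrality statements needed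
for the good basis.
-/

set_option autoImplicit false
set_option linter.style.haveILetI false
set_option linter.unusedSectionVars false

noncomputable section

namespace Fermat.Agent.ES1

open Polynomial ModularCurve IntermediateField Fermat.Agent.S28 Fermat.Agent.INJ

section Incl

variable {E Ω : Type*} [Field E] [Field Ω] [Algebra E Ω] {F₀ F : IntermediateField E Ω}

/-- the algebra structure of `F` over `F₀ ≤ F` -/
@[reducible] def kdlAlg (h : F₀ ≤ F) : Algebra F₀ F :=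
  (IntermediateField.inclusion h).toRingHom.toAlgebra

theorem kdlAlg_coe (h : F₀ ≤ F) (x : F₀) :
    letI := kdlAlg h
    ((algebraMap F₀ F x : F) : Ω) = (x : Ω) := rfl

theorem kdlAlg_isScalarTower (h : F₀ ≤ F) :
    letI := kdlAlg h
    IsScalarTower E F₀ F := by
  letI := kdlAlg h
  exact IsScalarTower.of_algebraMap_eq (fun x => by
    apply Subtype.ext
    rfl)

end Incl

section Comp

variable {A₀ F Lf : Type*} [CommRing A₀] [Field F] [Field Lf] [Algebra A₀ F] [Algebra A₀ Lf]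
  [Algebra F Lf] [IsScalarTower A₀ F Lf]

/-- integrality over `A₀[t] ⊆ F` (composite structure) gives integrality over `A₀[t] ⊆ Lf` -/
theorem kdl_isIntegral_of_comp (t : F) (x : Lf)
    (h : IsIntegral (Algebra.adjoin A₀ {t}) x) :
    IsIntegral (Algebra.adjoin A₀ {algebraMap F Lf t}) x := by
  let f : F →ₐ[A₀] Lf := IsScalarTower.toAlgHom A₀ F Lf
  have hmap : (Algebra.adjoin A₀ {t}).map f = Algebra.adjoin A₀ {algebraMap F Lf t} := by
    rw [AlgHom.map_adjoin, Set.image_singleton]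
    rfl
  let φ : Algebra.adjoin A₀ {t} →+* Algebra.adjoin A₀ {algebraMap F Lf t} :=
    { toFun := fun y => ⟨f y, by rw [← hmap]; exact ⟨y, y.2, rfl⟩⟩
      map_one' := by ext; simp
      map_mul' := fun a b => by ext; simp
      map_zero' := by ext; simp
      map_add' := fun a b => by ext; simp }
  have := IsIntegral.map_of_comp_eq φ (RingHom.id Lf) (by ext y; rfl) h
  simpa using this

/-- a root of a monic polynomial with integral coefficients: integrality of the root and of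
the discriminant of its powers -/
theorem kdl_discr_integral [FiniteDimensional F Lf] {m : ℕ} (t : F) (θ : Lf) (P : F[X])
    (hP : P.Monic) (hdeg : P.natDegree = m + 1) (hroot : aeval θ P = 0)
    (hcoef : ∀ i, IsIntegral (Algebra.adjoin A₀ {t}) (P.coeff i)) :
    IsIntegral (Algebra.adjoin A₀ {algebraMap F Lf t}) θ ∧
      IsIntegral (Algebra.adjoin A₀ {t})
        (Algebra.discr F (fun k : Fin (m + 1) => θ ^ (k : ℕ))) := by
  classical
  have hθ : IsIntegral (Algebra.adjoin A₀ {t}) θ := by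
    refine IsIntegral.of_aeval_monic_of_isIntegral_coeff (p := P.map (algebraMap F Lf))
      (hP.map _) ?_ ?_ ?_
    · rw [hP.natDegree_map, hdeg]; exact Nat.succ_ne_zero m
    · rw [eval_map, ← aeval_def, hroot]; exact isIntegral_zero
    · intro i
      rw [coeff_map]
      exact (hcoef i).algebraMap
  refine ⟨kdl_isIntegral_of_comp t θ hθ, ?_⟩
  rw [Algebra.discr_def]
  refine IsIntegral.det fun k l => ?_
  rw [Algebra.traceMatrix_apply, Algebra.traceForm_apply]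
  exact Algebra.isIntegral_trace ((hθ.pow _).mul (hθ.pow _))

end Comp

section Gen

variable {K L : Type*} [Field K] [Field L] [Algebra K L]

/-- `K(c h) = K(h)` for a nonzero `c ∈ K` -/
theorem kdl_adjoin_mul (h : L) (c : K) (hc : c ≠ 0) (hgen : K⟮h⟯ = ⊤) :
    K⟮algebraMap K L c * h⟯ = ⊤ := by
  rw [eq_top_iff, ← hgen, IntermediateField.adjoin_le_iff]
  rintro x (rfl : x = h)
  have h1 : algebraMap K L c * x ∈ K⟮algebraMap K L c * x⟯ :=
    IntermediateField.mem_adjoin_simple_self K _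
  have h2 : algebraMap K L c⁻¹ ∈ K⟮algebraMap K L c * x⟯ :=
    IntermediateField.algebraMap_mem _ _
  have h3 := mul_mem h2 h1
  have hc' : algebraMap K L c ≠ 0 := by simpa using hc
  rwa [map_inv₀, ← mul_assoc, inv_mul_cancel₀ hc', one_mul] at h3

/-- a monic polynomial of degree `m + 1` with `m + 1` different roots is their product -/
theorem kdl_eq_prod {m : ℕ} (P : L[X]) (hP : P.Monic) (hdeg : P.natDegree = m + 1)
    (v : Fin (m + 1) → L) (hv : Function.Injective v) (hroot : ∀ b, P.IsRoot (v b)) :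
    P = ∏ b, (X - C (v b)) := by
  have hdvd : ∏ b, (X - C (v b)) ∣ P := by
    refine Finset.prod_dvd_of_coprime ?_ ?_
    · intro i _ j _ hij
      exact Polynomial.pairwise_coprime_X_sub_C hv hij
    · intro b _
      exact Polynomial.dvd_iff_isRoot.mpr (hroot b)
  have hmonic : (∏ b, (X - C (v b))).Monic := Polynomial.monic_prod_of_monic _ _
    (fun b _ => Polynomial.monic_X_sub_C (v b))
  have hdeg' : (∏ b, (X - C (v b))).natDegree = m + 1 := by
    rw [Polynomial.natDegree_prod_of_monic _ _ (fun b _ => Polynomial.monic_X_sub_C (v b))]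
    simp
  exact Polynomial.eq_of_monic_of_dvd_of_natDegree_le hmonic hP hdvd (by rw [hdeg, hdeg'])

end Gen

end Fermat.Agent.ES1

end
end ZBES1_010_1

/-! ### bundled: `Fermat.Agent.RT.K6.D0Gal` -/
section ZBES1_010_2

/-!
# RT-K6 / D0, part (b) — Galois theory of `fieldC K L M H` over the `Γ₀(L)`-field (helper36)

`K` of characteristic `0`, algebraic over `ℚ`; `F₀ = modularFunctionFieldFullC K L`,
`F = fieldC K L M H`.

* `IsDiamondC K L M H c σ` : `σ` is the diamond automorphism `δ_c` of `F` over `K`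
  (fixes `F₀`, `σ S_b(q^e) = S_{bc}(q^e)`); `rtk6d0_exists_diamond` (from `stmtDiamondH`).
* `rtk6d0_mem_full_of_fixed` : an element of `F` fixed by all diamonds lies in `F₀`
  (`F / F₀` is Galois with group `{δ_c}`).
* `rtk6d0_diamond_Y` : `δ_c y_ψ = ψ(c) y_ψ` for the resolvent `y_ψ = rtk6d0Y K M H ⊤ ψ`.
* `rtk6d0_pow_mem_full` : `y_ψ ^ n ∈ F₀` if `ψ ^ n = 1` — **the Kummer element `u₀ = y ^ d`**.
* `rtk6d0_gen` : `F = F₀(y_ψ : ψ ∈ Ψ)` for a family `Ψ` of characters trivial on `±H` which is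
  jointly faithful on `(ℤ/M)ˣ/±H`.
-/

set_option autoImplicit false
set_option linter.style.haveILetI false
set_option linter.unusedSectionVars false

noncomputable section

namespace Fermat.Agent.RT.K6

open HahnSeries ModularCurve AlgebraicCurve Polynomial IntermediateField
open Fermat.Agent.ES Fermat.Agent.ES1

/-- `σ` is the diamond automorphism `δ_c` of `fieldC K L M H` (over a general field `K`) -/
structure IsDiamondC (K : Type) [Field K] (L M : ℕ) (H : Subgroup (ZMod M)ˣ) (c : (ZMod M)ˣ)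
    (σ : fieldC K L M H ≃ₐ[K] fieldC K L M H) : Prop where
  /-- `σ` fixes the `Γ₀(L)`-field -/
  fix : ∀ f : fieldC K L M H, (f : LaurentSeries K) ∈ modularFunctionFieldFullC K L → σ f = f
  /-- `σ S_b(q^e) = S_{bc}(q^e)` -/
  map_s : ∀ (e : ℕ) [NeZero e] (he : e * M ∣ L) (b : (ZMod M)ˣ),
    ((σ ⟨qExpand K e (sS K M H b), qExpand_sS_mem K L M H he b⟩ : fieldC K L M H) :
      LaurentSeries K) = qExpand K e (sS K M H (b * c))

section Gal

variable (K : Type) [Field K] [CharZero K] [Algebra.IsAlgebraic ℚ K]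
  {L M : ℕ} [NeZero M] (H : Subgroup (ZMod M)ˣ)

/-- diamonds exist (F3-conj) -/
theorem rtk6d0_exists_diamond (hL : L ≠ 0) (hML : M ∣ L) (c : (ZMod M)ˣ) :
    ∃ σ : fieldC K L M H ≃ₐ[K] fieldC K L M H, IsDiamondC K L M H c σ := by
  obtain ⟨m, a, ha⟩ := exists_isRepFam (NeZero.ne M) H
  obtain ⟨-, -, haut⟩ := stmtDiamondH K L M H a hL hML ha
  obtain ⟨σ, h1, h2⟩ := haut c
  exact ⟨σ, ⟨h1, fun e _ he b => h2 e he b⟩⟩

variable {K H}

/-- the value of a diamond on `S_b` -/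
theorem IsDiamondC.map_sS {c : (ZMod M)ˣ} {σ : fieldC K L M H ≃ₐ[K] fieldC K L M H}
    (h : IsDiamondC K L M H c σ) (hML : M ∣ L) (b : (ZMod M)ˣ) :
    ((σ ⟨sS K M H b, rtk6d0_sS_mem K M H hML b⟩ : fieldC K L M H) : LaurentSeries K)
      = sS K M H (b * c) := by
  have h1 : (1 : ℕ) * M ∣ L := by rwa [one_mul]
  have h2 := h.map_s 1 h1 b
  have h3 : (⟨sS K M H b, rtk6d0_sS_mem K M H hML b⟩ : fieldC K L M H)
      = ⟨qExpand K 1 (sS K M H b), qExpand_sS_mem K L M H h1 b⟩ := by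
    apply Subtype.ext
    show sS K M H b = qExpand K 1 (sS K M H b)
    rw [qExpand_one_apply]
  rw [h3, h2, qExpand_one_apply]

/-- **`δ_c y_ψ = ψ(c) y_ψ`** for the resolvent of `D = ⊤`. -/
theorem rtk6d0_diamond_Y (ψ : (ZMod M)ˣ →* Kˣ) (hML : M ∣ L) {c : (ZMod M)ˣ}
    {σ : fieldC K L M H ≃ₐ[K] fieldC K L M H} (h : IsDiamondC K L M H c σ) :
    ((σ ⟨rtk6d0Y K M H ⊤ ψ, rtk6d0Y_mem K M H ⊤ ψ hML⟩ : fieldC K L M H) : LaurentSeries K)
      = HahnSeries.C ((ψ c : Kˣ) : K) * rtk6d0Y K M H ⊤ ψ :=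
  rtk6d0_map K M H ⊤ ψ hML (Subgroup.mem_top c) σ (fun b => h.map_sS hML b)

variable (K H)

/-- **The Galois package of `F / F₀`.**  With the algebra structure `kdlAlg`:
`F / F₀` is finite Galois, an `F₀`-automorphism fixing `S_1` is the identity, and every
`F₀`-automorphism is a diamond. -/
theorem rtk6d0_galois (hL : L ≠ 0) (hML : M ∣ L) :
    letI := kdlAlg (full_le_fieldC K L M H)
    FiniteDimensional (modularFunctionFieldFullC K L) (fieldC K L M H) ∧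
    IsGalois (modularFunctionFieldFullC K L) (fieldC K L M H) ∧
    (∀ f : fieldC K L M H ≃ₐ[modularFunctionFieldFullC K L] fieldC K L M H,
      ((f ⟨sS K M H 1, rtk6d0_sS_mem K M H hML 1⟩ : fieldC K L M H) : LaurentSeries K)
        = sS K M H 1 → f = 1) ∧
    (∀ f : fieldC K L M H ≃ₐ[modularFunctionFieldFullC K L] fieldC K L M H,
      ∃ (c : (ZMod M)ˣ) (σ : fieldC K L M H ≃ₐ[K] fieldC K L M H),
        IsDiamondC K L M H c σ ∧ ∀ x, f x = σ x) := by
  classical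
  have hM0 : M ≠ 0 := NeZero.ne M
  obtain ⟨m, a, ha⟩ := exists_isRepFam hM0 H
  obtain ⟨hgen0, ⟨P, hP, hdeg, hroot0⟩, -⟩ := stmtDiamondH K L M H a hL hML ha
  have hle : modularFunctionFieldFullC K L ≤ fieldC K L M H := full_le_fieldC K L M H
  letI := kdlAlg hle
  haveI := kdlAlg_isScalarTower hle
  have hcoe : ∀ z : modularFunctionFieldFullC K L,
      ((algebraMap (modularFunctionFieldFullC K L) (fieldC K L M H) z : fieldC K L M H) :
        LaurentSeries K) = (z : LaurentSeries K) := fun _ => rfl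
  set θ : fieldC K L M H := ⟨sS K M H 1, rtk6d0_sS_mem K M H hML 1⟩ with hθ
  -- generation
  have hgen : (modularFunctionFieldFullC K L)⟮θ⟯ = ⊤ := by
    rw [eq_top_iff]
    intro f _
    set K' : IntermediateField K (LaurentSeries K) :=
      (((modularFunctionFieldFullC K L)⟮θ⟯).restrictScalars K).map (fieldC K L M H).val
      with hK'
    have hle' : IntermediateField.adjoin K
        ((modularFunctionFieldFullC K L : Set (LaurentSeries K)) ∪ {sS K M H 1}) ≤ K' := by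
      rw [IntermediateField.adjoin_le_iff]
      rintro z (hz | hz)
      · exact SetLike.mem_coe.mpr ((IntermediateField.mem_map _).mpr
          ⟨algebraMap (modularFunctionFieldFullC K L) (fieldC K L M H) ⟨z, hz⟩,
            (IntermediateField.mem_restrictScalars K).mpr
              (IntermediateField.algebraMap_mem _ _), rfl⟩)
      · rw [Set.mem_singleton_iff] at hz
        exact SetLike.mem_coe.mpr ((IntermediateField.mem_map _).mpr
          ⟨θ, (IntermediateField.mem_restrictScalars K).mpr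
            (IntermediateField.mem_adjoin_simple_self (modularFunctionFieldFullC K L) _),
            hz.symm⟩)
    have hf := hle' (hgen0 f.2)
    rw [hK', IntermediateField.mem_map] at hf
    obtain ⟨w, hw, hwf⟩ := hf
    have : w = f := Subtype.ext hwf
    rw [← this]
    exact hw
  -- the polynomial
  have hroot : aeval θ P = 0 := by
    apply (fieldC K L M H).val.injective
    rw [map_zero, aeval_def]
    have h1 := Polynomial.hom_eval₂ P
      (algebraMap (modularFunctionFieldFullC K L) (fieldC K L M H))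
      (fieldC K L M H).val.toRingHom θ
    have h2 : (fieldC K L M H).val.toRingHom.comp
        (algebraMap (modularFunctionFieldFullC K L) (fieldC K L M H))
        = (modularFunctionFieldFullC K L).val.toRingHom :=
      RingHom.ext (fun z => hcoe z)
    rw [h2] at h1
    exact h1.trans hroot0
  -- the automorphisms
  choose τ hτ using fun c : (ZMod M)ˣ => rtk6d0_exists_diamond K H hL hML c
  let σ : Fin (m + 1) → (fieldC K L M H ≃ₐ[modularFunctionFieldFullC K L] fieldC K L M H) :=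
    fun b => AlgEquiv.ofRingEquiv (f := (τ (a b)).toRingEquiv)
      (fun z => (hτ (a b)).fix _ (by rw [hcoe]; exact z.2))
  have hσθ : ∀ b, ((σ b θ : fieldC K L M H) : LaurentSeries K) = sS K M H (a b) := by
    intro b
    have := (hτ (a b)).map_sS hML 1
    rw [one_mul] at this
    exact this
  have hσinj : Function.Injective (fun b => σ b θ) := by
    intro b b' hbb'
    have h1 : sS K M H (a b) = sS K M H (a b') := by
      rw [← hσθ b, ← hσθ b']
      exact congrArg Subtype.val hbb'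
    exact es1cu_sS_injective K hM0 ha h1
  have hfin := kdl_finiteDimensional θ hgen P hP hroot
  have hgal := kdl_isGalois θ hgen P hP hdeg hroot σ hσinj
  have hbij := kdl_sigma_bijective θ hgen P hP hdeg hroot σ hσinj
  refine ⟨hfin, hgal, fun f hf => ?_, fun f => ?_⟩
  · obtain ⟨b, rfl⟩ := hbij.2 f
    obtain ⟨b₁, hb₁⟩ := hbij.2 1
    have h0 : ∀ b' : Fin (m + 1),
        ((σ b' θ : fieldC K L M H) : LaurentSeries K) = sS K M H 1 → b' = 0 := by
      intro b' hb'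
      have h2 : sS K M H (a b') = sS K M H (a 0) := by
        rw [← hσθ b', hb', ha.zero]
      exact es1cu_sS_injective K hM0 ha h2
    have e1 : b = 0 := h0 b hf
    have e2 : b₁ = 0 := h0 b₁ (by rw [hb₁]; rfl)
    rw [e1, ← e2, hb₁]
  · obtain ⟨b, rfl⟩ := hbij.2 f
    exact ⟨a b, τ (a b), hτ (a b), fun _ => rfl⟩

/-- **Galois descent to the `Γ₀(L)`-field.**  An element of `fieldC K L M H` which is fixed by
all the diamond automorphisms lies in `modularFunctionFieldFullC K L`. -/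
theorem rtk6d0_mem_full_of_fixed (hL : L ≠ 0) (hML : M ∣ L) (x : fieldC K L M H)
    (hfix : ∀ (c : (ZMod M)ˣ) (σ : fieldC K L M H ≃ₐ[K] fieldC K L M H),
      IsDiamondC K L M H c σ → σ x = x) :
    (x : LaurentSeries K) ∈ modularFunctionFieldFullC K L := by
  letI := kdlAlg (full_le_fieldC K L M H)
  obtain ⟨hfin, hgal, -, hall⟩ := rtk6d0_galois K H hL hML
  haveI := hfin
  haveI := hgal
  have hx : x ∈ Set.range
      (algebraMap (modularFunctionFieldFullC K L) (fieldC K L M H)) := by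
    rw [IsGalois.mem_range_algebraMap_iff_fixed]
    intro f
    obtain ⟨c, σ, hσ, hfσ⟩ := hall f
    rw [hfσ]
    exact hfix c σ hσ
  obtain ⟨z, rfl⟩ := hx
  exact z.2

/-- **The Kummer element.**  If `ψ ^ n = 1`, then `y_ψ ^ n` lies in the `Γ₀(L)`-field. -/
theorem rtk6d0_pow_mem_full (ψ : (ZMod M)ˣ →* Kˣ) (hL : L ≠ 0) (hML : M ∣ L) {n : ℕ}
    (hn : ∀ c, ψ c ^ n = 1) :
    rtk6d0Y K M H ⊤ ψ ^ n ∈ modularFunctionFieldFullC K L := by
  have h := rtk6d0_mem_full_of_fixed K H hL hML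
    (⟨rtk6d0Y K M H ⊤ ψ, rtk6d0Y_mem K M H ⊤ ψ hML⟩ ^ n) (fun c σ hσ => by
      apply Subtype.ext
      rw [map_pow]
      show ((σ ⟨rtk6d0Y K M H ⊤ ψ, rtk6d0Y_mem K M H ⊤ ψ hML⟩ : fieldC K L M H) :
        LaurentSeries K) ^ n = rtk6d0Y K M H ⊤ ψ ^ n
      rw [rtk6d0_diamond_Y ψ hML hσ, mul_pow, ← map_pow, ← Units.val_pow_eq_pow_val, hn c,
        Units.val_one, map_one, one_mul])
  exact h

/-- **Generation.**  For a family `ψ i` of characters, trivial on `±H` and jointly faithful on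
`(ℤ/M)ˣ/±H`, the resolvents `y_{ψ i}` generate `fieldC K L M H` over the `Γ₀(L)`-field. -/
theorem rtk6d0_gen {ι : Type*} (ψ : ι → ((ZMod M)ˣ →* Kˣ)) (hL : L ≠ 0) (hML : M ∣ L)
    (hM : 3 ≤ M) (hψH : ∀ i, ∀ h ∈ H, ψ i h = 1) (hψ1 : ∀ i, ψ i (-1) = 1)
    (hfaith : ∀ c : (ZMod M)ˣ, (∀ i, ψ i c = 1) → InPM H 1 (c : ZMod M)) :
    fieldC K L M H ≤ IntermediateField.adjoin K
      ((modularFunctionFieldFullC K L : Set (LaurentSeries K)) ∪
        Set.range fun i => rtk6d0Y K M H ⊤ (ψ i)) := by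
  classical
  letI := kdlAlg (full_le_fieldC K L M H)
  haveI := kdlAlg_isScalarTower (full_le_fieldC K L M H)
  obtain ⟨hfin, hgal, hone, hall⟩ := rtk6d0_galois K H hL hML
  haveI := hfin
  haveI := hgal
  set T : Set (fieldC K L M H) :=
    Set.range fun i => (⟨rtk6d0Y K M H ⊤ (ψ i), rtk6d0Y_mem K M H ⊤ (ψ i) hML⟩ :
      fieldC K L M H) with hT
  -- the fixing subgroup of `F₀(T)` is trivial
  have hfixing : (IntermediateField.adjoin (modularFunctionFieldFullC K L) T).fixingSubgroup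
      = ⊥ := by
    rw [eq_bot_iff]
    intro f hf
    rw [Subgroup.mem_bot]
    obtain ⟨c, σ, hσ, hfσ⟩ := hall f
    apply hone f
    have hc : InPM H 1 (c : ZMod M) := by
      apply hfaith c
      intro i
      have h1 : f ⟨rtk6d0Y K M H ⊤ (ψ i), rtk6d0Y_mem K M H ⊤ (ψ i) hML⟩
          = ⟨rtk6d0Y K M H ⊤ (ψ i), rtk6d0Y_mem K M H ⊤ (ψ i) hML⟩ := by
        have h2 := (IntermediateField.mem_fixingSubgroup_iff _ _).mp hf
          ⟨rtk6d0Y K M H ⊤ (ψ i), rtk6d0Y_mem K M H ⊤ (ψ i) hML⟩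
          (IntermediateField.subset_adjoin _ _ ⟨i, rfl⟩)
        exact h2
      have h3 := congrArg Subtype.val h1
      rw [hfσ] at h3
      have h4 := rtk6d0_diamond_Y (ψ i) hML hσ
      rw [h4] at h3
      have hy := rtk6d0Y_ne_zero K ⊤ (ψ i) hM (hψH i) (hψ1 i)
      have h5 : (HahnSeries.C ((ψ i c : Kˣ) : K) - 1) * rtk6d0Y K M H ⊤ (ψ i) = 0 := by
        rw [sub_mul, one_mul]
        exact sub_eq_zero.mpr h3
      have h6 := (mul_eq_zero.mp h5).resolve_right hy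
      have h7 : (HahnSeries.C ((ψ i c : Kˣ) : K) : LaurentSeries K) = HahnSeries.C (1 : K) := by
        rw [map_one]
        exact sub_eq_zero.mp h6
      have h8 := HahnSeries.C_injective h7
      exact Units.ext h8
    rw [hfσ]
    have h9 := hσ.map_sS hML 1
    rw [one_mul] at h9
    rw [h9]
    exact es1f_sS_eq_of_inPM K hc
  have htop : IntermediateField.adjoin (modularFunctionFieldFullC K L) T = ⊤ := by
    have h1 := IsGalois.fixedField_fixingSubgroup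
      (IntermediateField.adjoin (modularFunctionFieldFullC K L) T)
    rw [hfixing, IntermediateField.fixedField_bot] at h1
    exact h1.symm
  -- back to `K((q))`
  set Ω := IntermediateField.adjoin K
      ((modularFunctionFieldFullC K L : Set (LaurentSeries K)) ∪
        Set.range fun i => rtk6d0Y K M H ⊤ (ψ i)) with hΩ
  let S₁ : Subfield (fieldC K L M H) := Ω.toSubfield.comap (fieldC K L M H).val.toRingHom
  have hS₁ : ∀ z : modularFunctionFieldFullC K L,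
      algebraMap (modularFunctionFieldFullC K L) (fieldC K L M H) z ∈ S₁ := by
    intro z
    show ((algebraMap (modularFunctionFieldFullC K L) (fieldC K L M H) z : fieldC K L M H) :
      LaurentSeries K) ∈ Ω
    exact IntermediateField.subset_adjoin K _ (Or.inl z.2)
  let E₁ : IntermediateField (modularFunctionFieldFullC K L) (fieldC K L M H) :=
    S₁.toIntermediateField hS₁
  have hE₁ : IntermediateField.adjoin (modularFunctionFieldFullC K L) T ≤ E₁ := by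
    rw [IntermediateField.adjoin_le_iff]
    rintro _ ⟨i, rfl⟩
    show rtk6d0Y K M H ⊤ (ψ i) ∈ Ω
    exact IntermediateField.subset_adjoin K _ (Or.inr ⟨i, rfl⟩)
  intro x hx
  have h1 : (⟨x, hx⟩ : fieldC K L M H) ∈ E₁ := hE₁ (by rw [htop]; exact IntermediateField.mem_top)
  exact h1

end Gal

end Fermat.Agent.RT.K6

end
end ZBES1_010_2

/-! ### bundled: `Fermat.Agent.RT.K6.EFinal` -/
section ZBES1_010_3
/-
K-machine, piece K6, piece **E** (helper4), part FINAL: from the statements OVER A FIELD OF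
DEFINITION, for PRIME POWER exponents, to the Kummer statements on `fieldBar L M H`.
Fork of `UNIP/MGPrimePow.lean` (MG-7) + the diamond compatibility `fieldC K₀ ↔ fieldBar`.

* `rtk6eAct K₀ L M H σ hσ` : the coefficientwise action of `σ` on `fieldC K₀ L M H`
  (`K₀ ⊆ ℚ̄` stable under `σ`); `nfEmbH_rtk6eAct`.
* `rtk6e_nfEmbH_diamond` : `nfEmbH (δ̂ x) = δ (nfEmbH x)` for `IsDiamondC K₀ L M H c δ̂`,
  `IsDiamondH L M H c δ`.
* `rtk6eChi`, `nfEmbH_rtk6eChi` : `(σ − 1)(δσ − 1) u` on `fieldC K₀ L M H`.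
* `ChiFieldPPAt L M H r` : **the target of E-MAIN** — (χ-K) over a field of definition chosen by
  the prover, exponents `p ^ k`, `p ≠ r`;  `chiKummerAt_of_fieldPP`.
* `UnipFieldPPAt L M H r` : the same for `(σ − 1)² u` (the case without diamonds at `r`);
  `unipHAt_of_fieldPP`.
* `StmtChiKummerRig`, `StmtUnipHRig` : (χ-K) and (UNIP_H) at the tame RIGID levels (`4 ∣ L`) —
  what piece E delivers; `stmtChiKummerRig_of_fieldPP`, `stmtUnipHRig_of_fieldPP`.
-/

set_option autoImplicit false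
set_option linter.style.haveILetI false
set_option linter.unusedSectionVars false
set_option linter.unusedVariables false

noncomputable section

namespace Fermat.Agent.RT.K6

open ModularCurve AlgebraicCurve HahnSeries Fermat.Agent.ES Fermat.Agent.ES.G2 Fermat.Agent.INJ
open Fermat.Agent.UNIP Fermat.Agent.ES1 Fermat.Agent.ES1.G2 IntermediateField

section Act

variable (K₀ : IntermediateField ℚ Qb) (L M : ℕ) (H : Subgroup (ZMod M)ˣ)

/-- the coefficientwise action of `σ` on `fieldC K₀ L M H` -/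
def rtk6eAct (σ : Qb ≃ₐ[ℚ] Qb) (hσ : ∀ x ∈ K₀, σ x ∈ K₀) :
    fieldC K₀ L M H →+* fieldC K₀ L M H :=
  rtk6diCoeffHom L M H (mgRestrict K₀ σ hσ)

theorem rtk6eAct_coe (σ : Qb ≃ₐ[ℚ] Qb) (hσ : ∀ x ∈ K₀, σ x ∈ K₀) (x : fieldC K₀ L M H) :
    ((rtk6eAct K₀ L M H σ hσ x : fieldC K₀ L M H) : LaurentSeries K₀)
      = coeffMap (mgRestrict K₀ σ hσ) (x : LaurentSeries K₀) := rfl

theorem rtk6eAct_injective (σ : Qb ≃ₐ[ℚ] Qb) (hσ : ∀ x ∈ K₀, σ x ∈ K₀) :
    Function.Injective (rtk6eAct K₀ L M H σ hσ) := (rtk6eAct K₀ L M H σ hσ).injective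

/-- `nfEmbH` intertwines the action on `fieldC K₀ L M H` with the arithmetic Galois action -/
theorem nfEmbH_rtk6eAct (σ : Qb ≃ₐ[ℚ] Qb) (hσ : ∀ x ∈ K₀, σ x ∈ K₀) (x : fieldC K₀ L M H) :
    nfEmbH K₀ L M H (rtk6eAct K₀ L M H σ hσ x)
      = arithmeticGalois (fieldQ L M H) σ • nfEmbH K₀ L M H x := by
  apply Subtype.ext
  show coeffMap (algebraMap ↥K₀ Qb)
      (coeffMap (mgRestrict K₀ σ hσ) (x : LaurentSeries ↥K₀))
    = coeffMap (σ : Qb →+* Qb) (coeffMap (algebraMap ↥K₀ Qb) (x : LaurentSeries ↥K₀))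
  rw [coeffMap_coeffMap, coeffMap_coeffMap, mgRestrict_comp]

variable {K₀ L M H}

/-- **The diamonds of `fieldC K₀ L M H` and of `fieldBar L M H` correspond under `nfEmbH`.** -/
theorem rtk6e_nfEmbH_diamond {c : (ZMod M)ˣ}
    {δ₀ : fieldC K₀ L M H ≃ₐ[K₀] fieldC K₀ L M H} (hδ₀ : IsDiamondC K₀ L M H c δ₀)
    {δ : fieldBar L M H ≃ₐ[QbH] fieldBar L M H} (hδ : IsDiamondH L M H c δ)
    (x : fieldC K₀ L M H) : nfEmbH K₀ L M H (δ₀ x) = δ (nfEmbH K₀ L M H x) := by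
  have key : (nfEmbH K₀ L M H).comp (δ₀ : fieldC K₀ L M H →+* fieldC K₀ L M H)
      = ((δ : fieldBar L M H →+* fieldBar L M H)).comp (nfEmbH K₀ L M H) := by
    refine diamb_ringHom_ext_adjoin
      (divisorExpansionsC ↥K₀ L ∪ diamondExpansionsC ↥K₀ L M H) (fieldC ↥K₀ L M H) rfl _ _
      (fun a => ?_) ?_
    · show nfEmbH K₀ L M H (δ₀ (algebraMap ↥K₀ (fieldC ↥K₀ L M H) a))
        = δ (nfEmbH K₀ L M H (algebraMap ↥K₀ (fieldC ↥K₀ L M H) a))
      rw [δ₀.commutes, nfEmbH_algebraMap]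
      exact (δ.commutes _).symm
    · rintro y (⟨d, hd, hdL, hy⟩ | ⟨e, he, a, heL, hy⟩)
      · show nfEmbH K₀ L M H (δ₀ y) = δ (nfEmbH K₀ L M H y)
        haveI := hd
        have h1 : δ₀ y = y := hδ₀.fix y (by
          rw [hy]; exact jqModCd_mem_full ↥K₀ L hdL)
        rw [h1]
        refine (hδ.fix_j d hdL _ ?_).symm
        rw [nfEmbH_coe, hy]
        exact coeffMap_jqNModC (algebraMap ↥K₀ Qb) d
      · show nfEmbH K₀ L M H (δ₀ y) = δ (nfEmbH K₀ L M H y)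
        haveI := he
        have hy' : y = ⟨qExpand ↥K₀ e (sS ↥K₀ M H a), qExpand_sS_mem ↥K₀ L M H heL a⟩ :=
          Subtype.ext hy
        apply Subtype.ext
        rw [hδ.map_s e a heL (nfEmbH K₀ L M H y) (by
          rw [nfEmbH_coe, hy]; exact es1f_coeffMap_qExpand_sS _ M H a e)]
        rw [nfEmbH_coe, hy', hδ₀.map_s e heL a]
        exact es1f_coeffMap_qExpand_sS _ M H (a * c) e
  exact congrArg (fun f : fieldC K₀ L M H →+* fieldBar L M H => f x) key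

variable (K₀ L M H)

/-- `(σ − 1)(δσ − 1) u` on `fieldC K₀ L M H` -/
def rtk6eChi (σ : Qb ≃ₐ[ℚ] Qb) (hσ : ∀ x ∈ K₀, σ x ∈ K₀)
    (δ₀ : fieldC K₀ L M H ≃ₐ[K₀] fieldC K₀ L M H) (u : fieldC K₀ L M H) : fieldC K₀ L M H :=
  (rtk6eAct K₀ L M H σ hσ (δ₀ (rtk6eAct K₀ L M H σ hσ u)) * u) /
    (rtk6eAct K₀ L M H σ hσ u * δ₀ (rtk6eAct K₀ L M H σ hσ u))

/-- `(σ − 1)² u` on `fieldC K₀ L M H` -/
def rtk6eUnip (σ : Qb ≃ₐ[ℚ] Qb) (hσ : ∀ x ∈ K₀, σ x ∈ K₀) (u : fieldC K₀ L M H) :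
    fieldC K₀ L M H :=
  (rtk6eAct K₀ L M H σ hσ ((rtk6eAct K₀ L M H σ hσ u) / u)) / ((rtk6eAct K₀ L M H σ hσ u) / u)

variable {K₀ L M H}

theorem nfEmbH_rtk6eChi (σ : Qb ≃ₐ[ℚ] Qb) (hσ : ∀ x ∈ K₀, σ x ∈ K₀) {c : (ZMod M)ˣ}
    {δ₀ : fieldC K₀ L M H ≃ₐ[K₀] fieldC K₀ L M H} (hδ₀ : IsDiamondC K₀ L M H c δ₀)
    {δ : fieldBar L M H ≃ₐ[QbH] fieldBar L M H} (hδ : IsDiamondH L M H c δ)
    (u : fieldC K₀ L M H) :
    nfEmbH K₀ L M H (rtk6eChi K₀ L M H σ hσ δ₀ u) = chiExpr σ δ (nfEmbH K₀ L M H u) := by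
  have h1 : nfEmbH K₀ L M H (rtk6eChi K₀ L M H σ hσ δ₀ u)
      = (nfEmbH K₀ L M H (rtk6eAct K₀ L M H σ hσ (δ₀ (rtk6eAct K₀ L M H σ hσ u)))
            * nfEmbH K₀ L M H u) /
          (nfEmbH K₀ L M H (rtk6eAct K₀ L M H σ hσ u)
            * nfEmbH K₀ L M H (δ₀ (rtk6eAct K₀ L M H σ hσ u))) := by
    unfold rtk6eChi
    rw [map_div₀ (nfEmbH K₀ L M H), RingHom.map_mul, RingHom.map_mul]
  rw [h1, nfEmbH_rtk6eAct, rtk6e_nfEmbH_diamond hδ₀ hδ, nfEmbH_rtk6eAct]
  rfl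

theorem nfEmbH_rtk6eUnip (σ : Qb ≃ₐ[ℚ] Qb) (hσ : ∀ x ∈ K₀, σ x ∈ K₀) (u : fieldC K₀ L M H) :
    nfEmbH K₀ L M H (rtk6eUnip K₀ L M H σ hσ u)
      = (arithmeticGalois (fieldQ L M H) σ •
            ((arithmeticGalois (fieldQ L M H) σ • nfEmbH K₀ L M H u) / nfEmbH K₀ L M H u)) /
          ((arithmeticGalois (fieldQ L M H) σ • nfEmbH K₀ L M H u) / nfEmbH K₀ L M H u) := by
  unfold rtk6eUnip
  rw [map_div₀ (nfEmbH K₀ L M H), nfEmbH_rtk6eAct, map_div₀ (nfEmbH K₀ L M H),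
    nfEmbH_rtk6eAct]

end Act

/-! ### The targets of E-MAIN and the reduction to them -/

section Target

variable (L M : ℕ) (H : Subgroup (ZMod M)ˣ) (r : ℕ)

/-- (χ-K) at one level, all exponents prime to `r` -/
def ChiKummerAtE : Prop :=
  ∀ A : ValuationSubring QbH, A.LiesOverPrime r →
    ∀ m : ℕ, ¬ r ∣ m →
      ∀ σ ∈ A.inertiaSubgroupIn ℚ, ∀ c : (ZMod M)ˣ, IsCycAt M r σ c →
      ∀ δ : fieldBar L M H ≃ₐ[QbH] fieldBar L M H, IsDiamondH L M H c δ →
      ∀ (c' : (ZMod M)ˣ), IsAtR M r c' →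
      ∀ δ' : fieldBar L M H ≃ₐ[QbH] fieldBar L M H, IsDiamondH L M H c' δ' →
        ∀ u : fieldBar L M H, u ≠ 0 →
          (∀ P : Place QbH (fieldBar L M H), (m : ℤ) ∣ P.ord u) →
            ∃ h : fieldBar L M H, h ^ m = δ' (chiExpr σ δ u) / chiExpr σ δ u

/-- **Target of E-MAIN.**  (χ-K) over a field of definition `K₀` of `u` (chosen by the prover;
in the application `E′ = ℚ̄^I · K₁`), for prime power exponents. -/
def ChiFieldPPAt : Prop :=
  ∀ A : ValuationSubring QbH, A.LiesOverPrime r →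
    ∀ p : ℕ, p.Prime → p ≠ r → ∀ k : ℕ,
      ∀ σ ∈ A.inertiaSubgroupIn ℚ, ∀ c : (ZMod M)ˣ, IsCycAt M r σ c →
      ∀ (c' : (ZMod M)ˣ), IsAtR M r c' →
        ∀ u : fieldBar L M H, u ≠ 0 →
          (∀ P : Place QbH (fieldBar L M H), ((p ^ k : ℕ) : ℤ) ∣ P.ord u) →
            ∃ (K₀ : IntermediateField ℚ Qb) (hσ : ∀ x ∈ K₀, σ x ∈ K₀)
              (δ₀ δ₀' : fieldC K₀ L M H ≃ₐ[K₀] fieldC K₀ L M H) (u₀ : fieldC K₀ L M H),
              IsDiamondC K₀ L M H c δ₀ ∧ IsDiamondC K₀ L M H c' δ₀' ∧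
              nfEmbH K₀ L M H u₀ = u ∧
                ∃ h : fieldC K₀ L M H,
                  h ^ (p ^ k) = δ₀' (rtk6eChi K₀ L M H σ hσ δ₀ u₀) / rtk6eChi K₀ L M H σ hσ δ₀ u₀

/-- (UNIP_H) at one level, all exponents prime to `r` -/
def UnipHAtE : Prop :=
  ∀ A : ValuationSubring QbH, A.LiesOverPrime r →
    ∀ m : ℕ, ¬ r ∣ m →
      ∀ σ ∈ A.inertiaSubgroupIn ℚ,
        ∀ u : fieldBar L M H, u ≠ 0 →
          (∀ P : Place QbH (fieldBar L M H), (m : ℤ) ∣ P.ord u) →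
            ∃ h : fieldBar L M H,
              h ^ m =
                (arithmeticGalois (fieldQ L M H) σ •
                    ((arithmeticGalois (fieldQ L M H) σ • u) / u)) /
                  ((arithmeticGalois (fieldQ L M H) σ • u) / u)

/-- **Target of E-MAIN, case without diamonds at `r`.** -/
def UnipFieldPPAt : Prop :=
  ∀ A : ValuationSubring QbH, A.LiesOverPrime r →
    ∀ p : ℕ, p.Prime → p ≠ r → ∀ k : ℕ,
      ∀ σ ∈ A.inertiaSubgroupIn ℚ,
        ∀ u : fieldBar L M H, u ≠ 0 →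
          (∀ P : Place QbH (fieldBar L M H), ((p ^ k : ℕ) : ℤ) ∣ P.ord u) →
            ∃ (K₀ : IntermediateField ℚ Qb) (hσ : ∀ x ∈ K₀, σ x ∈ K₀)
              (u₀ : fieldC K₀ L M H), nfEmbH K₀ L M H u₀ = u ∧
                ∃ h : fieldC K₀ L M H, h ^ (p ^ k) = rtk6eUnip K₀ L M H σ hσ u₀

variable {L M H r}

/-- prime powers over a field of definition suffice, (χ-K) -/
theorem chiKummerAt_of_fieldPP (hr : r.Prime) (h : ChiFieldPPAt L M H r) :
    ChiKummerAtE L M H r := by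
  intro A hA m hm σ hσ c hc δ hδ c' hc' δ' hδ' u hu hdiv
  have hm0 : m ≠ 0 := by
    rintro rfl
    exact hm (dvd_zero r)
  refine mg_pow_of_prime_powers _ m (fun p k hp hd => ?_) hm0
  by_cases hk : k = 0
  · subst hk
    exact ⟨_, pow_one _⟩
  have hpr : p ≠ r := by
    rintro rfl
    exact hm (dvd_trans (dvd_pow_self p hk) hd)
  have h1 : ((p ^ k : ℕ) : ℤ) ∣ (m : ℤ) := by exact_mod_cast hd
  obtain ⟨K₀, hσK, δ₀, δ₀', u₀, hδ₀, hδ₀', hu₀, y, hy⟩ :=
    h A hA p hp hpr k σ hσ c hc c' hc' u hu (fun P => dvd_trans h1 (hdiv P))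
  refine ⟨nfEmbH K₀ L M H y, ?_⟩
  rw [← map_pow, hy, map_div₀, rtk6e_nfEmbH_diamond hδ₀' hδ', nfEmbH_rtk6eChi σ hσK hδ₀ hδ, hu₀]

/-- prime powers over a field of definition suffice, (UNIP_H) -/
theorem unipHAt_of_fieldPP (hr : r.Prime) (h : UnipFieldPPAt L M H r) :
    UnipHAtE L M H r := by
  intro A hA m hm σ hσ u hu hdiv
  have hm0 : m ≠ 0 := by
    rintro rfl
    exact hm (dvd_zero r)
  refine mg_pow_of_prime_powers _ m (fun p k hp hd => ?_) hm0
  by_cases hk : k = 0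
  · subst hk
    exact ⟨_, pow_one _⟩
  have hpr : p ≠ r := by
    rintro rfl
    exact hm (dvd_trans (dvd_pow_self p hk) hd)
  have h1 : ((p ^ k : ℕ) : ℤ) ∣ (m : ℤ) := by exact_mod_cast hd
  obtain ⟨K₀, hσK, u₀, hu₀, y, hy⟩ :=
    h A hA p hp hpr k σ hσ u hu (fun P => dvd_trans h1 (hdiv P))
  refine ⟨nfEmbH K₀ L M H y, ?_⟩
  rw [← map_pow, hy, nfEmbH_rtk6eUnip, hu₀]

end Target

/-! ### What piece E delivers: the tame rigid levels -/

/-- **(χ-K) at the tame RIGID levels** (`4 ∣ L`: no elliptic points, all nodes thin). -/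
def StmtChiKummerRig : Prop :=
  ∀ (L M : ℕ) (H : Subgroup (ZMod M)ˣ) (r : ℕ), L ≠ 0 → M ∣ L → r.Prime → r ∣ M → ¬ r ^ 2 ∣ L →
    IsStarStable M r H → IsTameAt L M r H → 4 ∣ L → ChiKummerAtE L M H r

/-- **(UNIP_H) at the tame RIGID levels**, for the `H` which contain all diamonds at `r`. -/
def StmtUnipHRig : Prop :=
  ∀ (L M : ℕ) (H : Subgroup (ZMod M)ˣ) (r : ℕ), L ≠ 0 → M ∣ L → r.Prime → r ∣ M → ¬ r ^ 2 ∣ L →
    (∀ c : (ZMod M)ˣ, IsAtR M r c → c ∈ pmH H) → IsTameAt L M r H → 4 ∣ L → UnipHAtE L M H r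

theorem stmtChiKummerRig_of_fieldPP
    (h : ∀ (L M : ℕ) (H : Subgroup (ZMod M)ˣ) (r : ℕ), L ≠ 0 → M ∣ L → r.Prime → r ∣ M →
      ¬ r ^ 2 ∣ L → IsStarStable M r H → IsTameAt L M r H → 4 ∣ L → ChiFieldPPAt L M H r) :
    StmtChiKummerRig :=
  fun L M H r hL hML hr hrM hr2 hstar htame h4 =>
    chiKummerAt_of_fieldPP hr (h L M H r hL hML hr hrM hr2 hstar htame h4)

theorem stmtUnipHRig_of_fieldPP
    (h : ∀ (L M : ℕ) (H : Subgroup (ZMod M)ˣ) (r : ℕ), L ≠ 0 → M ∣ L → r.Prime → r ∣ M →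
      ¬ r ^ 2 ∣ L → (∀ c : (ZMod M)ˣ, IsAtR M r c → c ∈ pmH H) → IsTameAt L M r H → 4 ∣ L →
      UnipFieldPPAt L M H r) :
    StmtUnipHRig :=
  fun L M H r hL hML hr hrM hr2 hat htame h4 =>
    unipHAt_of_fieldPP hr (h L M H r hL hML hr hrM hr2 hat htame h4)

end Fermat.Agent.RT.K6

end
end ZBES1_010_3

/-! ### bundled: `Fermat.Agent.RT.K6.DIW` -/
section ZBES1_010_4
/-
K-machine, piece K6, piece **DIW** (helper96): descent of automorphisms of `fieldBar L M H`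
to the fields `fieldC K₀ L M H`, `K₀ ⊆ ℚ̄`.

* `rtk6diw_mem_fieldC_of_coeffMap` : a series over `K₀` whose image over `ℚ̄` lies in
  `fieldBar L M H` lies in `fieldC K₀ L M H`;
* `rtk6diw_exists_of_fixed` : an element of `fieldBar L M H` fixed by every `σ ∈ Gal(ℚ̄/K₀)`
  is in the image of `nfEmbH K₀`;
* `rtk6diw_descend` : a `ℚ̄`-automorphism `w` of `fieldBar L M H` commuting with `Gal(ℚ̄/K₀)`
  descends to a `K₀`-automorphism `w'` of `fieldC K₀ L M H`, `nfEmbH (w' x) = w (nfEmbH x)`;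
* `rtk6diw_exists_w` : for `w` with `IsWAt L M H r w` and `μ_r ⊆ K₀`;
* `rtk6diw_galois` : `σ̂ (w' x) = w' (δ' (σ̂ x))` on `fieldC K₀ L M H`.
-/

set_option autoImplicit false
set_option linter.style.haveILetI false
set_option linter.unusedSectionVars false
set_option linter.unusedVariables false

noncomputable section

namespace Fermat.Agent.RT.K6

open ModularCurve AlgebraicCurve Fermat.Agent.ES Fermat.Agent.ES.G2 Fermat.Agent.INJ
open Fermat.Agent.UNIP Fermat.Agent.ES1 Fermat.Agent.ES1.G2 IntermediateField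

section Descent

variable (K₀ : IntermediateField ℚ Qb) (L M : ℕ) (H : Subgroup (ZMod M)ˣ)

theorem rtk6diw_baseChange_le (K : Type*) [Field K] [Algebra ℚ K] :
    laurentBaseChange K (fieldQ L M H) ≤ fieldC K L M H := by
  rw [laurentBaseChange, IntermediateField.adjoin_le_iff]
  rintro _ ⟨x, hx, rfl⟩
  exact es1f_coeffMap_mem_fieldC (algebraMap ℚ K) L M H hx

/-- descent of membership -/
theorem rtk6diw_mem_fieldC_of_coeffMap {x : LaurentSeries K₀}
    (h : coeffMap (algebraMap K₀ Qb) x ∈ fieldBar L M H) : x ∈ fieldC K₀ L M H :=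
  rtk6diw_baseChange_le L M H K₀
    (Fermat.Agent.ES.DescentInj.mem_laurentBaseChange_of_coeffMap_mem (K := K₀) (L := Qb) _ h)

theorem rtk6diw_isGalois : IsGalois K₀ Qb := by
  haveI : Algebra.IsAlgebraic ℚ Qb := AlgebraicClosure.isAlgebraic ℚ
  haveI : Algebra.IsAlgebraic K₀ Qb := Algebra.IsAlgebraic.tower_top (K := ℚ) K₀
  haveI : IsAlgClosure K₀ Qb := ⟨inferInstance, inferInstance⟩
  infer_instance

/-- functions defined over `K₀` are fixed by the automorphisms fixing `K₀` -/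
theorem rtk6diw_smul_nfEmbH (σ : Qb ≃ₐ[ℚ] Qb) (hσ : ∀ x ∈ K₀, σ x = x)
    (f : fieldC K₀ L M H) :
    arithmeticGalois (fieldQ L M H) σ • nfEmbH K₀ L M H f = nfEmbH K₀ L M H f := by
  apply Subtype.ext
  rw [coe_arithmeticGalois_smul, nfEmbH_coe, coeffMap_coeffMap]
  have h : ((σ : Qb →+* Qb).comp (algebraMap K₀ Qb)) = algebraMap K₀ Qb := by
    refine RingHom.ext fun c => ?_
    exact hσ (c : Qb) c.2
  exact coeffMap_congr h _

/-- **Galois descent**: an element of `fieldBar L M H` fixed by `Gal(ℚ̄/K₀)` is defined over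
`K₀`. -/
theorem rtk6diw_exists_of_fixed (y : fieldBar L M H)
    (hy : ∀ σ : Qb ≃ₐ[ℚ] Qb, (∀ a ∈ K₀, σ a = a) →
      arithmeticGalois (fieldQ L M H) σ • y = y) :
    ∃ x : fieldC K₀ L M H, nfEmbH K₀ L M H x = y := by
  haveI := rtk6diw_isGalois K₀
  have hcoeff : ∀ n, (y : LaurentSeries Qb).coeff n ∈ Set.range (algebraMap K₀ Qb) := by
    intro n
    have h1 := (InfiniteGalois.mem_range_algebraMap_iff_fixed (k := K₀) (K := Qb)
      ((y : LaurentSeries Qb).coeff n)).mpr ?_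
    · exact h1
    · intro f
      have hf : ∀ a ∈ K₀, (f.restrictScalars ℚ) a = a := fun a ha => f.commutes ⟨a, ha⟩
      have h2 := congrArg (fun z : fieldBar L M H => (z : LaurentSeries Qb).coeff n)
        (hy (f.restrictScalars ℚ) hf)
      simp only [coe_arithmeticGalois_smul, coeffMap_coeff] at h2
      exact h2
  obtain ⟨Y, hY⟩ := injDesc_exists_coeffMap (algebraMap K₀ Qb)
    (algebraMap K₀ Qb).injective (y : LaurentSeries Qb) hcoeff
  have hmem : Y ∈ fieldC K₀ L M H := by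
    apply rtk6diw_mem_fieldC_of_coeffMap
    rw [hY]
    exact y.2
  exact ⟨⟨Y, hmem⟩, Subtype.ext hY⟩

end Descent

/-! ### descent of automorphisms -/

section Descend

variable (K₀ : IntermediateField ℚ Qb) {L M : ℕ} {H : Subgroup (ZMod M)ˣ}

/-- `w` commutes with `Gal(ℚ̄/K₀)` -/
def RtkCommK (w : fieldBar L M H → fieldBar L M H) : Prop :=
  ∀ σ : Qb ≃ₐ[ℚ] Qb, (∀ a ∈ K₀, σ a = a) → ∀ y : fieldBar L M H,
    arithmeticGalois (fieldQ L M H) σ • w y = w (arithmeticGalois (fieldQ L M H) σ • y)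

variable {K₀}

theorem RtkCommK.exists_apply {w : fieldBar L M H → fieldBar L M H} (hw : RtkCommK K₀ w)
    (x : fieldC K₀ L M H) : ∃ x' : fieldC K₀ L M H, nfEmbH K₀ L M H x' = w (nfEmbH K₀ L M H x) := by
  apply rtk6diw_exists_of_fixed
  intro σ hσ
  rw [hw σ hσ, rtk6diw_smul_nfEmbH K₀ L M H σ hσ]

theorem RtkCommK.symm {w : fieldBar L M H ≃ₐ[Qb] fieldBar L M H} (hw : RtkCommK K₀ w) :
    RtkCommK K₀ w.symm := by
  intro σ hσ y
  apply w.injective
  rw [← hw σ hσ, AlgEquiv.apply_symm_apply, AlgEquiv.apply_symm_apply]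

/-- the descended algebra endomorphism -/
def rtk6diwHom (w : fieldBar L M H →ₐ[Qb] fieldBar L M H) (hw : RtkCommK K₀ w) :
    fieldC K₀ L M H →ₐ[K₀] fieldC K₀ L M H :=
  { toFun := fun x => (hw.exists_apply x).choose
    map_one' := by
      apply nfEmbH_injective K₀ L M H
      rw [(hw.exists_apply 1).choose_spec, map_one, map_one]
    map_mul' := fun x y => by
      apply nfEmbH_injective K₀ L M H
      rw [(hw.exists_apply (x * y)).choose_spec, map_mul, map_mul, map_mul,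
        (hw.exists_apply x).choose_spec, (hw.exists_apply y).choose_spec]
    map_zero' := by
      apply nfEmbH_injective K₀ L M H
      rw [(hw.exists_apply 0).choose_spec, map_zero, map_zero]
    map_add' := fun x y => by
      apply nfEmbH_injective K₀ L M H
      rw [(hw.exists_apply (x + y)).choose_spec, map_add, map_add, map_add,
        (hw.exists_apply x).choose_spec, (hw.exists_apply y).choose_spec]
    commutes' := fun c => by
      apply nfEmbH_injective K₀ L M H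
      show nfEmbH K₀ L M H (hw.exists_apply (algebraMap K₀ _ c)).choose = _
      rw [(hw.exists_apply (algebraMap K₀ _ c)).choose_spec, nfEmbH_algebraMap,
        AlgHom.commutes] }

theorem nfEmbH_rtk6diwHom (w : fieldBar L M H →ₐ[Qb] fieldBar L M H) (hw : RtkCommK K₀ w)
    (x : fieldC K₀ L M H) :
    nfEmbH K₀ L M H (rtk6diwHom w hw x) = w (nfEmbH K₀ L M H x) :=
  (hw.exists_apply x).choose_spec

/-- **descent of an automorphism commuting with `Gal(ℚ̄/K₀)`** -/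
def rtk6diwEquiv (w : fieldBar L M H ≃ₐ[Qb] fieldBar L M H) (hw : RtkCommK K₀ w) :
    fieldC K₀ L M H ≃ₐ[K₀] fieldC K₀ L M H :=
  AlgEquiv.ofAlgHom (rtk6diwHom (w : fieldBar L M H →ₐ[Qb] fieldBar L M H) hw)
    (rtk6diwHom (w.symm : fieldBar L M H →ₐ[Qb] fieldBar L M H) hw.symm)
    (by
      apply AlgHom.ext
      intro x
      apply nfEmbH_injective K₀ L M H
      rw [AlgHom.comp_apply, nfEmbH_rtk6diwHom, nfEmbH_rtk6diwHom]
      exact w.apply_symm_apply _)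
    (by
      apply AlgHom.ext
      intro x
      apply nfEmbH_injective K₀ L M H
      rw [AlgHom.comp_apply, nfEmbH_rtk6diwHom, nfEmbH_rtk6diwHom]
      exact w.symm_apply_apply _)

theorem nfEmbH_rtk6diwEquiv (w : fieldBar L M H ≃ₐ[Qb] fieldBar L M H) (hw : RtkCommK K₀ w)
    (x : fieldC K₀ L M H) :
    nfEmbH K₀ L M H (rtk6diwEquiv w hw x) = w (nfEmbH K₀ L M H x) :=
  nfEmbH_rtk6diwHom _ hw x

theorem nfEmbH_rtk6diwEquiv_symm (w : fieldBar L M H ≃ₐ[Qb] fieldBar L M H)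
    (hw : RtkCommK K₀ w) (x : fieldC K₀ L M H) :
    nfEmbH K₀ L M H ((rtk6diwEquiv w hw).symm x) = w.symm (nfEmbH K₀ L M H x) :=
  nfEmbH_rtk6diwHom _ hw.symm x

end Descend

/-! ### the Atkin–Lehner automorphism over `K₀ ⊇ ℚ(μ_r)` -/

section W

variable {K₀ : IntermediateField ℚ Qb} {L M : ℕ} {H : Subgroup (ZMod M)ˣ} {r : ℕ}

/-- an automorphism fixing `μ_r` has cyclotomic image `1` at `r` -/
theorem rtk6diw_isCycAt_one (hM0 : M ≠ 0) (hr : r.Prime) (hrM : r ∣ M)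
    (hζ : ∀ ζ : Qb, ζ ^ r = 1 → ζ ∈ K₀) (σ : Qb ≃ₐ[ℚ] Qb) (hσ : ∀ a ∈ K₀, σ a = a) :
    IsCycAt M r σ 1 := by
  have hM2 : 1 < M := by
    have h1 : r ≤ M := Nat.le_of_dvd (Nat.pos_of_ne_zero hM0) hrM
    exact lt_of_lt_of_le hr.one_lt h1
  haveI : Fact (1 < M) := ⟨hM2⟩
  have hval : ((1 : (ZMod M)ˣ) : ZMod M).val = 1 := by
    rw [Units.val_one, ZMod.val_one]
  refine ⟨fun ζ hζr => ?_, ?_⟩
  · rw [hval, pow_one]
    exact hσ ζ (hζ ζ hζr)
  · unfold IsAtR
    rw [hval, Nat.cast_one]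

/-- `w` with `IsWAt` commutes with `Gal(ℚ̄/K₀)` if `μ_r ⊆ K₀` -/
theorem IsWAt.commK {w : fieldBar L M H ≃ₐ[Qb] fieldBar L M H} (hw : IsWAt L M H r w)
    (hM0 : M ≠ 0) (hr : r.Prime) (hrM : r ∣ M) (hζ : ∀ ζ : Qb, ζ ^ r = 1 → ζ ∈ K₀) :
    RtkCommK K₀ w := by
  intro σ hσ y
  have h := hw.galois σ 1 (rtk6diw_isCycAt_one hM0 hr hrM hζ σ hσ) 1 isDiamondH_one y
  rw [h]
  rfl

/-- **the Atkin–Lehner automorphism `w'` of `fieldC K₀ L M H`** -/
def rtk6diwW (w : fieldBar L M H ≃ₐ[Qb] fieldBar L M H) (hw : IsWAt L M H r w)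
    (hM0 : M ≠ 0) (hr : r.Prime) (hrM : r ∣ M) (hζ : ∀ ζ : Qb, ζ ^ r = 1 → ζ ∈ K₀) :
    fieldC K₀ L M H ≃ₐ[K₀] fieldC K₀ L M H :=
  rtk6diwEquiv w (hw.commK hM0 hr hrM hζ)

theorem nfEmbH_rtk6diwW (w : fieldBar L M H ≃ₐ[Qb] fieldBar L M H) (hw : IsWAt L M H r w)
    (hM0 : M ≠ 0) (hr : r.Prime) (hrM : r ∣ M) (hζ : ∀ ζ : Qb, ζ ^ r = 1 → ζ ∈ K₀)
    (x : fieldC K₀ L M H) :
    nfEmbH K₀ L M H (rtk6diwW w hw hM0 hr hrM hζ x) = w (nfEmbH K₀ L M H x) :=
  nfEmbH_rtk6diwEquiv w _ x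

end W

/-! ### compatibility of the diamonds -/

section Diamond

variable (K₀ : IntermediateField ℚ Qb) {L M : ℕ} {H : Subgroup (ZMod M)ˣ}

variable {K₀}

/-- the diamonds over `K₀` and over `ℚ̄` are compatible -/
theorem rtk6diw_diamond_nfEmbH {c : (ZMod M)ˣ}
    {δ' : fieldC K₀ L M H ≃ₐ[K₀] fieldC K₀ L M H} (hδ' : IsDiamondC ↥K₀ L M H c δ')
    {δ : fieldBar L M H ≃ₐ[Qb] fieldBar L M H} (hδ : IsDiamondH L M H c δ)
    (x : fieldC K₀ L M H) :
    nfEmbH K₀ L M H (δ' x) = δ (nfEmbH K₀ L M H x) := by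
  have key : (nfEmbH K₀ L M H).comp (δ' : fieldC K₀ L M H →+* fieldC K₀ L M H) =
      (δ : fieldBar L M H →+* fieldBar L M H).comp (nfEmbH K₀ L M H) := by
    refine diamb_ringHom_ext_adjoin
      (divisorExpansionsC K₀ L ∪ diamondExpansionsC K₀ L M H) (fieldC K₀ L M H) rfl _ _
      (fun a => ?_) ?_
    · show nfEmbH K₀ L M H (δ' (algebraMap K₀ _ a)) = δ (nfEmbH K₀ L M H (algebraMap K₀ _ a))
      rw [AlgEquiv.commutes, nfEmbH_algebraMap, AlgEquiv.commutes]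
    · rintro x (⟨d, hd, hdL, hx⟩ | ⟨e, he, a, heL, hx⟩)
      · show nfEmbH K₀ L M H (δ' x) = δ (nfEmbH K₀ L M H x)
        have h1 : δ' x = x := hδ'.fix x (by rw [hx]; exact jqModCd_mem_full K₀ L hdL)
        rw [h1]
        refine (hδ.fix_j d hdL _ ?_).symm
        rw [nfEmbH_coe, hx]
        exact coeffMap_jqNModC (algebraMap K₀ Qb) d
      · show nfEmbH K₀ L M H (δ' x) = δ (nfEmbH K₀ L M H x)
        have hx1 : x = ⟨qExpand K₀ e (sS K₀ M H a), qExpand_sS_mem K₀ L M H heL a⟩ :=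
          Subtype.ext hx
        apply Subtype.ext
        rw [hδ.map_s e a heL (nfEmbH K₀ L M H x)
          (by rw [nfEmbH_coe, hx]; exact es1f_coeffMap_qExpand_sS (algebraMap K₀ Qb) M H a e),
          nfEmbH_coe, hx1, hδ'.map_s e heL a]
        exact es1f_coeffMap_qExpand_sS (algebraMap K₀ Qb) M H (a * c) e
  exact congrArg (fun φ : fieldC K₀ L M H →+* fieldBar L M H => φ x) key

/-- diamonds over `ℚ̄` exist -/
theorem rtk6diw_exists_diamondH (hL : L ≠ 0) (hML : M ∣ L) (c : (ZMod M)ˣ) :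
    ∃ δ : fieldBar L M H ≃ₐ[Qb] fieldBar L M H, IsDiamondH L M H c δ :=
  stmtDiamondBarH_of_diamond stmtDiamondH L M H hL hML c

end Diamond

/-! ### the relations of `w'` -/

section Relations

variable {K₀ : IntermediateField ℚ Qb} {L M : ℕ} {H : Subgroup (ZMod M)ˣ} {r : ℕ}

/-- `nfEmbH` intertwines the coefficientwise action of `σ` (stabilising `K₀`) with the arithmetic
Galois action -/
theorem nfEmbH_rtk6diCoeffHom (σ : Qb ≃ₐ[ℚ] Qb) (hσ : ∀ x ∈ K₀, σ x ∈ K₀)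
    (x : fieldC K₀ L M H) :
    nfEmbH K₀ L M H (rtk6diCoeffHom L M H (mgRestrict K₀ σ hσ) x)
      = arithmeticGalois (fieldQ L M H) σ • nfEmbH K₀ L M H x := by
  apply Subtype.ext
  show coeffMap (algebraMap ↥K₀ Qb)
      (coeffMap (mgRestrict K₀ σ hσ) (x : LaurentSeries ↥K₀))
    = coeffMap (σ : Qb →+* Qb) (coeffMap (algebraMap ↥K₀ Qb) (x : LaurentSeries ↥K₀))
  rw [coeffMap_coeffMap, coeffMap_coeffMap, mgRestrict_comp]

variable (w : fieldBar L M H ≃ₐ[Qb] fieldBar L M H) (hw : IsWAt L M H r w)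
  (hM0 : M ≠ 0) (hr : r.Prime) (hrM : r ∣ M) (hζ : ∀ ζ : Qb, ζ ^ r = 1 → ζ ∈ K₀)

/-- **`σ̂ w' = w' δ' σ̂`** on `fieldC K₀ L M H` -/
theorem rtk6diwW_galois (hL : L ≠ 0) (hML : M ∣ L) (σ : Qb ≃ₐ[ℚ] Qb)
    (hσ : ∀ x ∈ K₀, σ x ∈ K₀) (c : (ZMod M)ˣ) (hc : IsCycAt M r σ c)
    (δ' : fieldC K₀ L M H ≃ₐ[K₀] fieldC K₀ L M H) (hδ' : IsDiamondC ↥K₀ L M H c δ')
    (x : fieldC K₀ L M H) :
    rtk6diCoeffHom L M H (mgRestrict K₀ σ hσ) (rtk6diwW w hw hM0 hr hrM hζ x) =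
      rtk6diwW w hw hM0 hr hrM hζ (δ' (rtk6diCoeffHom L M H (mgRestrict K₀ σ hσ) x)) := by
  obtain ⟨δ, hδ⟩ := rtk6diw_exists_diamondH (H := H) hL hML c
  apply nfEmbH_injective K₀ L M H
  rw [nfEmbH_rtk6diCoeffHom, nfEmbH_rtk6diwW, nfEmbH_rtk6diwW, rtk6diw_diamond_nfEmbH hδ' hδ,
    nfEmbH_rtk6diCoeffHom]
  exact hw.galois σ c hc δ hδ _

/-- **`w' δ'_c = δ'_{c⁻¹} w'`** for the diamonds at `r` -/
theorem rtk6diwW_diamond (hL : L ≠ 0) (hML : M ∣ L) (c : (ZMod M)ˣ) (hc : IsAtR M r c)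
    (δ₁ δ₂ : fieldC K₀ L M H ≃ₐ[K₀] fieldC K₀ L M H) (hδ₁ : IsDiamondC ↥K₀ L M H c δ₁)
    (hδ₂ : IsDiamondC ↥K₀ L M H c⁻¹ δ₂) (x : fieldC K₀ L M H) :
    rtk6diwW w hw hM0 hr hrM hζ (δ₁ x) = δ₂ (rtk6diwW w hw hM0 hr hrM hζ x) := by
  obtain ⟨δ, hδ⟩ := rtk6diw_exists_diamondH (H := H) hL hML c
  obtain ⟨δi, hδi⟩ := rtk6diw_exists_diamondH (H := H) hL hML c⁻¹
  apply nfEmbH_injective K₀ L M H
  rw [nfEmbH_rtk6diwW, rtk6diw_diamond_nfEmbH hδ₁ hδ, rtk6diw_diamond_nfEmbH hδ₂ hδi, nfEmbH_rtk6diwW]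
  exact hw.diamond c hc δ δi hδ hδi _

/-- `w'` on the generators `j(q^d)` -/
theorem rtk6diwW_j (d d' : ℕ) [NeZero d] [NeZero d'] (hd : d ∣ L)
    (hd' : d' = (if r ∣ d then d / r else d * r)) (x : fieldC K₀ L M H)
    (hx : (x : LaurentSeries K₀) = qExpand K₀ d (jqModC K₀)) :
    ((rtk6diwW w hw hM0 hr hrM hζ x : fieldC K₀ L M H) : LaurentSeries K₀) =
      qExpand K₀ d' (jqModC K₀) := by
  apply Fermat.Agent.ES.DescentInj.coeffMap_inj (algebraMap K₀ Qb)
  have h1 := nfEmbH_rtk6diwW w hw hM0 hr hrM hζ x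
  have h2 := congrArg (fun z : fieldBar L M H => (z : LaurentSeries Qb)) h1
  simp only [nfEmbH_coe] at h2
  rw [h2]
  have h3 : ((nfEmbH K₀ L M H x : fieldBar L M H) : LaurentSeries Qb) =
      qExpand Qb d (jqModC Qb) := by
    rw [nfEmbH_coe, hx]
    exact coeffMap_jqNModC (algebraMap K₀ Qb) d
  rw [hw.map_j d d' hd hd' _ h3]
  exact (coeffMap_jqNModC (algebraMap K₀ Qb) d').symm

end Relations

/-! ### `w'` on the `Γ₀(L)`-field is the Atkin–Lehner involution of S34/UNIP -/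

section Incl

open Fermat.Agent.AL

variable {K₀ : IntermediateField ℚ Qb} {M₁ q : ℕ} [NeZero q] [NeZero M₁] [NeZero (M₁ * q)]
  {M : ℕ} {H : Subgroup (ZMod M)ˣ}
  (w : fieldBar (M₁ * q) M H ≃ₐ[Qb] fieldBar (M₁ * q) M H) (hw : IsWAt (M₁ * q) M H q w)
  (hM0 : M ≠ 0) (hq : q.Prime) (hqM' : q ∣ M) (hζ : ∀ ζ : Qb, ζ ^ q = 1 → ζ ∈ K₀)
  (ιC : K₀ →+* ℂ) (hqM : ¬ q ∣ M₁)

theorem rtk6diwW_incl (x : modularFunctionFieldFullC K₀ (M₁ * q)) :
    rtk6diwW w hw hM0 hq hqM' hζ (rtk6diIncl (M₁ * q) M H x) =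
      rtk6diIncl (M₁ * q) M H (atkinLehner K₀ ιC hq hqM x) := by
  have key : ((rtk6diwW w hw hM0 hq hqM' hζ : fieldC K₀ (M₁ * q) M H →+*
        fieldC K₀ (M₁ * q) M H).comp (rtk6diIncl (M₁ * q) M H)) =
      (rtk6diIncl (M₁ * q) M H).comp
        ((atkinLehner K₀ ιC hq hqM).toRingEquiv.toRingHom) := by
    apply al_ringHom_ext K₀ (M₁ * q)
    · intro c
      show rtk6diwW w hw hM0 hq hqM' hζ (rtk6diIncl (M₁ * q) M H (algebraMap K₀ _ c)) =
        rtk6diIncl (M₁ * q) M H (atkinLehner K₀ ιC hq hqM (algebraMap K₀ _ c))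
      rw [AlgEquiv.commutes, rtk6diIncl_algebraMap, AlgEquiv.commutes]
    · intro d _ hd
      show rtk6diwW w hw hM0 hq hqM' hζ (rtk6diIncl (M₁ * q) M H
          ⟨qExpand K₀ d (jqModC K₀), jqModCd_mem_full K₀ (M₁ * q) hd⟩) =
        rtk6diIncl (M₁ * q) M H (atkinLehner K₀ ιC hq hqM
          ⟨qExpand K₀ d (jqModC K₀), jqModCd_mem_full K₀ (M₁ * q) hd⟩)
      have hsw : alSwap q (M₁ * q) d = (if q ∣ d then d / q else d * q) := by
        unfold alSwap
        rw [if_pos hd]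
      have hsd : alSwap q (M₁ * q) d ∣ M₁ * q := alSwap_dvd hq hqM hd
      haveI : NeZero (alSwap q (M₁ * q) d) :=
        ⟨fun h0 => NeZero.ne (M₁ * q) (by rw [h0] at hsd; exact Nat.eq_zero_of_zero_dvd hsd)⟩
      apply Subtype.ext
      rw [rtk6diwW_j w hw hM0 hq hqM' hζ d (alSwap q (M₁ * q) d) hd hsw _
        (rtk6diIncl_coe (M₁ * q) M H _), rtk6diIncl_coe]
      have e0 : (⟨qExpand K₀ d (jqModC K₀), jqModCd_mem_full K₀ (M₁ * q) hd⟩ :
          modularFunctionFieldFullC K₀ (M₁ * q)) = ⟨alGen K₀ (M₁ * q) d, alGen_mem K₀ d⟩ :=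
        Subtype.ext (alGen_of_dvd K₀ hd).symm
      rw [e0, atkinLehner_gen, alGen_of_dvd K₀ hsd]
  exact congrArg (fun φ : modularFunctionFieldFullC K₀ (M₁ * q) →+*
    fieldC K₀ (M₁ * q) M H => φ x) key

end Incl

end Fermat.Agent.RT.K6

end
end ZBES1_010_4

/-! ### bundled: `Fermat.Agent.RT.K6.DIWRel` -/
section ZBES1_010_5
/-
K-machine, piece K6, piece **DIW**, part 2 (helper96): the relations between `w'`, the diamonds
and the coefficientwise Galois action on `fieldC K₀ L M H`, in the forms used for the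
stability of `V_0 = V_∞.comap w'` (D-STAB, (M4) of NOTES/RT-K6-D.md).

* `rtk6diw_diamond_coeffHom` : `δ' σ̂ = σ̂ δ'` (the diamonds are defined over `ℚ`);
* `rtk6diwW_coeffHom`   : `w' (σ̂ x) = δ'_c (σ̂ (w' x))` for `IsCycAt M r σ c`;
* `rtk6diwW_diamond'`   : `w' (δ'_c x) = δ'_{c⁻¹} (w' x)` (restated), and
  `rtk6diwW_symm_diamond` : `w'⁻¹ (δ'_c x) = δ'_{c⁻¹} (w'⁻¹ x)`;
* `rtk6diwW_symm_coeffHom` : `w'⁻¹ (σ̂ x) = δ'_{c⁻¹} … `, i.e. `σ̂ (w'⁻¹ x) = w'⁻¹ (δ'_c (σ̂ x))`.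
-/

set_option autoImplicit false
set_option linter.style.haveILetI false
set_option linter.unusedSectionVars false
set_option linter.unusedVariables false

noncomputable section

namespace Fermat.Agent.RT.K6

open ModularCurve AlgebraicCurve Fermat.Agent.ES Fermat.Agent.ES.G2 Fermat.Agent.INJ
open Fermat.Agent.UNIP Fermat.Agent.ES1 Fermat.Agent.ES1.G2 IntermediateField

section Rel

variable {K₀ : IntermediateField ℚ Qb} {L M : ℕ} {H : Subgroup (ZMod M)ˣ} {r : ℕ}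

/-- the diamonds of `fieldBar L M H` commute with the arithmetic Galois action -/
theorem rtk6diw_diamondH_galois {c : (ZMod M)ˣ} {δ : fieldBar L M H ≃ₐ[Qb] fieldBar L M H}
    (hδ : IsDiamondH L M H c δ) (σ : Qb ≃ₐ[ℚ] Qb) (x : fieldBar L M H) :
    δ (arithmeticGalois (fieldQ L M H) σ • x) = arithmeticGalois (fieldQ L M H) σ • δ x := by
  have key : (δ : fieldBar L M H →+* fieldBar L M H).comp
        ((arithmeticRingAut (fieldQ L M H) σ : fieldBar L M H ≃+* fieldBar L M H) :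
          fieldBar L M H →+* fieldBar L M H) =
      ((arithmeticRingAut (fieldQ L M H) σ : fieldBar L M H ≃+* fieldBar L M H) :
          fieldBar L M H →+* fieldBar L M H).comp
        (δ : fieldBar L M H →+* fieldBar L M H) := by
    refine diamb_ringHom_ext L M H _ _ (fun a => ?_) (fun d _ hd x hx => ?_)
      (fun e _ a he x hx => ?_)
    · show δ (arithmeticRingAut (fieldQ L M H) σ (algebraMap Qb _ a)) =
        arithmeticRingAut (fieldQ L M H) σ (δ (algebraMap Qb _ a))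
      rw [arithmeticRingAut_algebraMap, AlgEquiv.commutes, AlgEquiv.commutes,
        arithmeticRingAut_algebraMap]
    · show δ (arithmeticRingAut (fieldQ L M H) σ x) =
        arithmeticRingAut (fieldQ L M H) σ (δ x)
      have h1 : arithmeticRingAut (fieldQ L M H) σ x = x := by
        apply Subtype.ext
        rw [coe_arithmeticRingAut_apply, hx]
        exact coeffMap_jqNModC (σ : Qb →+* Qb) d
      rw [h1, hδ.fix_j d hd x hx, h1]
    · show δ (arithmeticRingAut (fieldQ L M H) σ x) =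
        arithmeticRingAut (fieldQ L M H) σ (δ x)
      have h1 : arithmeticRingAut (fieldQ L M H) σ x = x := by
        apply Subtype.ext
        rw [coe_arithmeticRingAut_apply, hx]
        exact es1f_coeffMap_qExpand_sS (σ : Qb →+* Qb) M H a e
      rw [h1]
      apply Subtype.ext
      rw [coe_arithmeticRingAut_apply, hδ.map_s e a he x hx]
      exact (es1f_coeffMap_qExpand_sS (σ : Qb →+* Qb) M H (a * c) e).symm
  exact congrArg (fun φ : fieldBar L M H →+* fieldBar L M H => φ x) key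

/-- the diamonds of `fieldC K₀ L M H` commute with the coefficientwise action -/
theorem rtk6diw_diamond_coeffHom (hL : L ≠ 0) (hML : M ∣ L) {c : (ZMod M)ˣ}
    {δ' : fieldC K₀ L M H ≃ₐ[K₀] fieldC K₀ L M H} (hδ' : IsDiamondC ↥K₀ L M H c δ')
    (σ : Qb ≃ₐ[ℚ] Qb) (hσ : ∀ x ∈ K₀, σ x ∈ K₀) (x : fieldC K₀ L M H) :
    δ' (rtk6diCoeffHom L M H (mgRestrict K₀ σ hσ) x) =
      rtk6diCoeffHom L M H (mgRestrict K₀ σ hσ) (δ' x) := by
  obtain ⟨δ, hδ⟩ := rtk6diw_exists_diamondH (H := H) hL hML c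
  apply nfEmbH_injective K₀ L M H
  rw [rtk6diw_diamond_nfEmbH hδ' hδ, nfEmbH_rtk6diCoeffHom, nfEmbH_rtk6diCoeffHom,
    rtk6diw_diamond_nfEmbH hδ' hδ]
  exact rtk6diw_diamondH_galois hδ σ _

variable (w : fieldBar L M H ≃ₐ[Qb] fieldBar L M H) (hw : IsWAt L M H r w)
  (hM0 : M ≠ 0) (hr : r.Prime) (hrM : r ∣ M) (hζ : ∀ ζ : Qb, ζ ^ r = 1 → ζ ∈ K₀)

/-- **`w' σ̂ = δ'_c σ̂ w'`** -/
theorem rtk6diwW_coeffHom (hL : L ≠ 0) (hML : M ∣ L) (σ : Qb ≃ₐ[ℚ] Qb)
    (hσ : ∀ x ∈ K₀, σ x ∈ K₀) (c : (ZMod M)ˣ) (hc : IsCycAt M r σ c)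
    (δ₁ δ₂ : fieldC K₀ L M H ≃ₐ[K₀] fieldC K₀ L M H) (hδ₁ : IsDiamondC ↥K₀ L M H c δ₁)
    (hδ₂ : IsDiamondC ↥K₀ L M H c⁻¹ δ₂) (x : fieldC K₀ L M H) :
    rtk6diwW w hw hM0 hr hrM hζ (rtk6diCoeffHom L M H (mgRestrict K₀ σ hσ) x) =
      δ₁ (rtk6diCoeffHom L M H (mgRestrict K₀ σ hσ) (rtk6diwW w hw hM0 hr hrM hζ x)) := by
  -- `σ̂ w' x = w' δ₁ σ̂ x`, hence `δ₁ σ̂ w' x = δ₁ w' δ₁ σ̂ x = w' δ₂ δ₁ σ̂ x = w' σ̂ x`
  have h1 := rtk6diwW_galois w hw hM0 hr hrM hζ hL hML σ hσ c hc δ₁ hδ₁ x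
  have hc2 : IsAtR M r c⁻¹ := by
    have h3 := hc.2
    unfold IsAtR at h3 ⊢
    have hM1 : M / r ∣ M := Nat.div_dvd_of_dvd hrM
    haveI : NeZero M := ⟨hM0⟩
    have hcast : ∀ x : ZMod M, ((x.val : ℕ) : ZMod (M / r)) =
        ZMod.castHom hM1 (ZMod (M / r)) x := fun x => by
      rw [ZMod.natCast_val, ZMod.castHom_apply]
    rw [hcast] at h3 ⊢
    have h4 : ZMod.castHom hM1 (ZMod (M / r)) (c : ZMod M) *
        ZMod.castHom hM1 (ZMod (M / r)) ((c⁻¹ : (ZMod M)ˣ) : ZMod M) = 1 := by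
      rw [← map_mul, ← Units.val_mul, mul_inv_cancel, Units.val_one, map_one]
    rw [h3, one_mul] at h4
    exact h4
  have h2 := rtk6diwW_diamond w hw hM0 hr hrM hζ hL hML c⁻¹ hc2 δ₂ δ₁ hδ₂
    (by rw [inv_inv]; exact hδ₁)
  rw [h1, ← h2]
  congr 1
  -- `δ₂ δ₁ = id`
  obtain ⟨δ, hδ⟩ := rtk6diw_exists_diamondH (H := H) hL hML c
  obtain ⟨δi, hδi⟩ := rtk6diw_exists_diamondH (H := H) hL hML c⁻¹
  apply nfEmbH_injective K₀ L M H
  rw [rtk6diw_diamond_nfEmbH hδ₂ hδi, rtk6diw_diamond_nfEmbH hδ₁ hδ]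
  have h5 : IsDiamondH L M H (c⁻¹ * c) (δi * δ) := hδi.mul hδ
  rw [inv_mul_cancel] at h5
  have h6 : δi * δ = 1 := h5.unique isDiamondH_one
  exact (congrArg (fun f : fieldBar L M H ≃ₐ[Qb] fieldBar L M H => f _) h6).symm

/-- **`σ̂ w'⁻¹ = w'⁻¹ δ'_c σ̂`** -/
theorem rtk6diwW_symm_galois (hL : L ≠ 0) (hML : M ∣ L) (σ : Qb ≃ₐ[ℚ] Qb)
    (hσ : ∀ x ∈ K₀, σ x ∈ K₀) (c : (ZMod M)ˣ) (hc : IsCycAt M r σ c)
    (δ₁ δ₂ : fieldC K₀ L M H ≃ₐ[K₀] fieldC K₀ L M H) (hδ₁ : IsDiamondC ↥K₀ L M H c δ₁)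
    (hδ₂ : IsDiamondC ↥K₀ L M H c⁻¹ δ₂) (x : fieldC K₀ L M H) :
    rtk6diCoeffHom L M H (mgRestrict K₀ σ hσ) ((rtk6diwW w hw hM0 hr hrM hζ).symm x) =
      (rtk6diwW w hw hM0 hr hrM hζ).symm
        (δ₁ (rtk6diCoeffHom L M H (mgRestrict K₀ σ hσ) x)) := by
  have h := rtk6diwW_coeffHom w hw hM0 hr hrM hζ hL hML σ hσ c hc δ₁ δ₂ hδ₁ hδ₂
    ((rtk6diwW w hw hM0 hr hrM hζ).symm x)
  rw [AlgEquiv.apply_symm_apply] at h
  rw [← h, AlgEquiv.symm_apply_apply]

/-- **`w'⁻¹ σ̂ = δ'_c σ̂ w'⁻¹`** -/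
theorem rtk6diwW_symm_coeffHom (hL : L ≠ 0) (hML : M ∣ L) (σ : Qb ≃ₐ[ℚ] Qb)
    (hσ : ∀ x ∈ K₀, σ x ∈ K₀) (c : (ZMod M)ˣ) (hc : IsCycAt M r σ c)
    (δ₁ : fieldC K₀ L M H ≃ₐ[K₀] fieldC K₀ L M H) (hδ₁ : IsDiamondC ↥K₀ L M H c δ₁)
    (x : fieldC K₀ L M H) :
    (rtk6diwW w hw hM0 hr hrM hζ).symm (rtk6diCoeffHom L M H (mgRestrict K₀ σ hσ) x) =
      δ₁ (rtk6diCoeffHom L M H (mgRestrict K₀ σ hσ)
        ((rtk6diwW w hw hM0 hr hrM hζ).symm x)) := by
  have h := rtk6diwW_galois w hw hM0 hr hrM hζ hL hML σ hσ c hc δ₁ hδ₁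
    ((rtk6diwW w hw hM0 hr hrM hζ).symm x)
  rw [AlgEquiv.apply_symm_apply] at h
  rw [h, AlgEquiv.symm_apply_apply]

/-- **`w'⁻¹ δ'_c = δ'_{c⁻¹} w'⁻¹`** for the diamonds at `r` -/
theorem rtk6diwW_symm_diamond (hL : L ≠ 0) (hML : M ∣ L) (c : (ZMod M)ˣ) (hc : IsAtR M r c)
    (δ₁ δ₂ : fieldC K₀ L M H ≃ₐ[K₀] fieldC K₀ L M H) (hδ₁ : IsDiamondC ↥K₀ L M H c δ₁)
    (hδ₂ : IsDiamondC ↥K₀ L M H c⁻¹ δ₂) (x : fieldC K₀ L M H) :
    (rtk6diwW w hw hM0 hr hrM hζ).symm (δ₁ x) =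
      δ₂ ((rtk6diwW w hw hM0 hr hrM hζ).symm x) := by
  have hc2 : IsAtR M r c⁻¹ := by
    have h3 := hc
    unfold IsAtR at h3 ⊢
    have hM1 : M / r ∣ M := Nat.div_dvd_of_dvd hrM
    haveI : NeZero M := ⟨hM0⟩
    have hcast : ∀ x : ZMod M, ((x.val : ℕ) : ZMod (M / r)) =
        ZMod.castHom hM1 (ZMod (M / r)) x := fun x => by
      rw [ZMod.natCast_val, ZMod.castHom_apply]
    rw [hcast] at h3 ⊢
    have h4 : ZMod.castHom hM1 (ZMod (M / r)) (c : ZMod M) *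
        ZMod.castHom hM1 (ZMod (M / r)) ((c⁻¹ : (ZMod M)ˣ) : ZMod M) = 1 := by
      rw [← map_mul, ← Units.val_mul, mul_inv_cancel, Units.val_one, map_one]
    rw [h3, one_mul] at h4
    exact h4
  have h := rtk6diwW_diamond w hw hM0 hr hrM hζ hL hML c⁻¹ hc2 δ₂ δ₁ hδ₂
    (by rw [inv_inv]; exact hδ₁) ((rtk6diwW w hw hM0 hr hrM hζ).symm x)
  rw [AlgEquiv.apply_symm_apply] at h
  rw [← h, AlgEquiv.symm_apply_apply]

end Rel

end Fermat.Agent.RT.K6

end
end ZBES1_010_5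

/-! ### bundled: `Fermat.Agent.RT.K6.M5Pack` -/
section ZBES1_010_6
/-
K-machine, piece K6 / M5 (helper96), part 2: THE HYPOTHESIS `htoric` OF `rtk6ew_main_multi`.

Setting: `A` a valuation subring of `ℚ̄`, `σ` in its inertia group, `c` the cyclotomic image of `σ`
at `r`, `δ = δ_c` the diamond, `w` the Atkin–Lehner automorphism at `r` (piece B), all on
`fieldBar L M H`;  `u ∈ fieldBar L M H`, `n ≠ 0`.

* `rtk6m5_diamondH_comm` : diamonds of `fieldBar L M H` commute;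
* `rtk6m5_chiExpr_diamond` : `γ (chiExpr σ δ u) = chiExpr σ δ (γ u)` for a diamond `γ`
  (γ-transport);
* `rtk6m5_chi_root` : for every diamond `γ` and `b : Bool` there is a constant `β ≠ 0` with
  `γ (chiExpr σ δ u) / β ^ n` (`b = true`), resp. `w (γ (chiExpr σ δ u) / β ^ n)` (`b = false`)
  reducing to one (cheap halves C∞ / C0 for `γ u`, helper18's `rtk6ea_toric_*_root`);
* **`rtk6m5_pack_chi`** : there is a number field `K₀` such that for EVERY intermediate field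
  `E′ ⊇ K₀` stable under `σ`, every discrete base `hB` of `E′` compatible with `A`, every
  `w′ : F′ ≃ₐ[E′] F′` lifting `w`, every diamond `δ₀` (for `c`) of `F′ = fieldC E′ L M H`, every
  descent `u₀ ∈ F′` of `u`, every diamond `γ` of `F′` and `b : Bool`:
  `∃ tt ≠ 0, rtk6eChi σ δ₀ u₀ / tt ^ n - 1 ∈ 𝔪((rtk6dvFam hB L M H w′ b).comap γ)`
  (`tt` is a constant of `E′`);
* `rtk6m5_pack_unip` : the same for `σ̂ u₀ / u₀` when the diamond `δ_c` is trivial
  (`IsDiamondH L M H c 1`: the case UNIP_H);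
* `rtk6m5_pack_chi_beta0`, `rtk6m5_pack_unip_beta0` : for the base `A ∩ E′`;
* `rtk6m5_gal_quot_eq_chi` : `g • x / x = rtk6eChi σ δ₀ u₀` for `g = rtk6diGal σ`,
  `x = δ₀ (σ̂ u₀) / u₀`.
-/

set_option autoImplicit false
set_option linter.style.haveILetI false
set_option linter.unusedSectionVars false
set_option linter.unusedVariables false

noncomputable section

namespace Fermat.Agent.RT.K6

open ModularCurve AlgebraicCurve HahnSeries Fermat.Agent.ES Fermat.Agent.ES.G2 Fermat.Agent.INJ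
open Fermat.Agent.UNIP Fermat.Agent.ES1 Fermat.Agent.ES1.G2 IntermediateField

universe u₁ u₂

/-! ### γ-transport on `fieldBar L M H` -/

section Bar

variable {L M : ℕ} {H : Subgroup (ZMod M)ˣ}

/-- diamonds commute -/
theorem rtk6m5_diamondH_comm {c c' : (ZMod M)ˣ}
    {δ γ : fieldBar L M H ≃ₐ[Qb] fieldBar L M H} (hδ : IsDiamondH L M H c δ)
    (hγ : IsDiamondH L M H c' γ) (x : fieldBar L M H) : γ (δ x) = δ (γ x) := by
  have h1 : IsDiamondH L M H (c' * c) (γ * δ) := hγ.mul hδ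
  have h2 : IsDiamondH L M H (c * c') (δ * γ) := hδ.mul hγ
  rw [mul_comm] at h2
  have h3 := h1.unique h2
  exact congrArg (fun f : fieldBar L M H ≃ₐ[Qb] fieldBar L M H => f x) h3

/-- **γ-transport**: a diamond `γ` commutes with `u ↦ chiExpr σ δ u` -/
theorem rtk6m5_chiExpr_diamond {c c' : (ZMod M)ˣ}
    {δ γ : fieldBar L M H ≃ₐ[Qb] fieldBar L M H} (hδ : IsDiamondH L M H c δ)
    (hγ : IsDiamondH L M H c' γ) (σ : Qb ≃ₐ[ℚ] Qb) (u : fieldBar L M H) :
    γ (chiExpr σ δ u) = chiExpr σ δ (γ u) := by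
  have hg := rtk6diw_diamondH_galois hγ σ
  have hd := rtk6m5_diamondH_comm hδ hγ
  unfold chiExpr
  rw [map_div₀, map_mul, map_mul, hg, hd, hg]

/-- γ-transport for `σ u / u` -/
theorem rtk6m5_unip_diamond {c' : (ZMod M)ˣ}
    {γ : fieldBar L M H ≃ₐ[Qb] fieldBar L M H}
    (hγ : IsDiamondH L M H c' γ) (σ : Qb ≃ₐ[ℚ] Qb) (u : fieldBar L M H) :
    γ ((arithmeticGalois (fieldQ L M H) σ • u) / u) =
      (arithmeticGalois (fieldQ L M H) σ • γ u) / γ u := by
  rw [map_div₀, rtk6diw_diamondH_galois hγ σ]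

variable {r : ℕ} {w : fieldBar L M H ≃ₐ[Qb] fieldBar L M H}

/-- **the toric constants over `ℚ̄`**, (χ) -/
theorem rtk6m5_chi_root (hw : IsWAt L M H r w) (A : ValuationSubring Qb) (σ : Qb ≃ₐ[ℚ] Qb)
    (hσ : σ ∈ A.inertiaSubgroupIn ℚ) {c : (ZMod M)ˣ} (hc : IsCycAt M r σ c)
    {δ : fieldBar L M H ≃ₐ[Qb] fieldBar L M H} (hδ : IsDiamondH L M H c δ)
    {u : fieldBar L M H} (hu : u ≠ 0) {n : ℕ} (hn : n ≠ 0)
    {c' : (ZMod M)ˣ} {γ : fieldBar L M H ≃ₐ[Qb] fieldBar L M H} (hγ : IsDiamondH L M H c' γ)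
    (b : Bool) :
    ∃ β : Qb, β ≠ 0 ∧
      ReducesToOneF A (fieldBar L M H)
        (bif b then γ (chiExpr σ δ u) / algebraMap Qb (fieldBar L M H) β ^ n
          else w (γ (chiExpr σ δ u) / algebraMap Qb (fieldBar L M H) β ^ n)) := by
  have hγu : γ u ≠ 0 := (map_ne_zero γ).mpr hu
  rw [rtk6m5_chiExpr_diamond hδ hγ]
  cases b
  · exact rtk6ea_toric_zero_root hw A σ hσ hc hδ hγu hn
  · exact rtk6ea_toric_infty_root A σ hσ δ hγu hn

/-- **the toric constants over `ℚ̄`**, (UNIP_H): the diamond `δ_c` is trivial -/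
theorem rtk6m5_unip_root (hw : IsWAt L M H r w) (A : ValuationSubring Qb) (σ : Qb ≃ₐ[ℚ] Qb)
    (hσ : σ ∈ A.inertiaSubgroupIn ℚ) {c : (ZMod M)ˣ} (hc : IsCycAt M r σ c)
    (hδ : IsDiamondH L M H c (1 : fieldBar L M H ≃ₐ[Qb] fieldBar L M H))
    {u : fieldBar L M H} (hu : u ≠ 0) {n : ℕ} (hn : n ≠ 0)
    {c' : (ZMod M)ˣ} {γ : fieldBar L M H ≃ₐ[Qb] fieldBar L M H} (hγ : IsDiamondH L M H c' γ)
    (b : Bool) :
    ∃ β : Qb, β ≠ 0 ∧
      ReducesToOneF A (fieldBar L M H)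
        (bif b then γ ((arithmeticGalois (fieldQ L M H) σ • u) / u) /
            algebraMap Qb (fieldBar L M H) β ^ n
          else w (γ ((arithmeticGalois (fieldQ L M H) σ • u) / u) /
            algebraMap Qb (fieldBar L M H) β ^ n)) := by
  have hγu : γ u ≠ 0 := (map_ne_zero γ).mpr hu
  rw [rtk6m5_unip_diamond hγ]
  cases b
  · obtain ⟨c₀, hc₀, h⟩ := rtk6c0_cheap_zero hw A σ hσ c hc 1 hδ (γ u) hγu
    obtain ⟨β, hβ, hβn⟩ := rtk6ea_exists_root c₀ hc₀ hn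
    refine ⟨β, hβ, ?_⟩
    have e : (arithmeticGalois (fieldQ L M H) σ • γ u) / γ u /
          algebraMap Qb (fieldBar L M H) β ^ n
        = algebraMap Qb (fieldBar L M H) c₀ *
          ((1 : fieldBar L M H ≃ₐ[Qb] fieldBar L M H)
            (arithmeticGalois (fieldQ L M H) σ • γ u) / γ u) := by
      rw [← map_pow, hβn, map_inv₀, div_eq_mul_inv _ (_)⁻¹, inv_inv, mul_comm]
      rfl
    show ReducesToOneF A (fieldBar L M H) (w _)
    rw [e]
    exact h
  · obtain ⟨c₀, hc₀, h⟩ := rtk6c_cheap_infty_H L M H A σ hσ (γ u) hγu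
    obtain ⟨β, hβ, hβn⟩ := rtk6ea_exists_root c₀ hc₀ hn
    refine ⟨β, hβ, ?_⟩
    have e : (arithmeticGalois (fieldQ L M H) σ • γ u) / γ u /
          algebraMap Qb (fieldBar L M H) β ^ n
        = algebraMap Qb (fieldBar L M H) c₀ *
          ((arithmeticGalois (fieldQ L M H) σ • γ u) / γ u) := by
      rw [← map_pow, hβn, map_inv₀, div_eq_mul_inv _ (_)⁻¹, inv_inv, mul_comm]
    show ReducesToOneF A (fieldBar L M H) _
    rw [e]
    exact h

end Bar

/-! ### The pack -/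

section Pack

variable {L M : ℕ} {H : Subgroup (ZMod M)ˣ}

/-- a constant of `E′` in `fieldC E′ L M H` -/
theorem rtk6m5_nfEmbH_const (E' : IntermediateField ℚ Qb) {β : Qb} (hβ : β ∈ E') :
    nfEmbH E' L M H (algebraMap ↥E' ↥(fieldC ↥E' L M H) ⟨β, hβ⟩) =
      algebraMap Qb (fieldBar L M H) β :=
  nfEmbH_algebraMap E' L M H ⟨β, hβ⟩

/-- **The pack, generic form.**  `Y ∈ fieldBar L M H` such that for every diamond `γ` and every
`b : Bool` the element `γ Y` is toric at `v_∞` (`b = true`), resp. `v_0` (`b = false`), with a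
constant `n`-th power.  Then there is a number field `K₀` such that over every `E′ ⊇ K₀`, for
every descent `y₀ ∈ fieldC E′ L M H` of `Y`, every diamond `γ` of `fieldC E′ L M H` and every
`b`, `y₀ / tt ^ n ≡ 1` at `(rtk6dvFam hB L M H w′ b).comap γ` for a constant `tt ≠ 0`. -/
theorem rtk6m5_pack_gen (hL : L ≠ 0) (hML : M ∣ L) (A : ValuationSubring Qb)
    (w : fieldBar L M H ≃ₐ[Qb] fieldBar L M H) (n : ℕ) (Y : fieldBar L M H)
    (hroot : ∀ (c' : (ZMod M)ˣ) (γ : fieldBar L M H ≃ₐ[Qb] fieldBar L M H),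
      IsDiamondH L M H c' γ → ∀ b : Bool, ∃ β : Qb, β ≠ 0 ∧
        ReducesToOneF A (fieldBar L M H)
          (bif b then γ Y / algebraMap Qb (fieldBar L M H) β ^ n
            else w (γ Y / algebraMap Qb (fieldBar L M H) β ^ n))) :
    ∃ K₀ : IntermediateField ℚ Qb, FiniteDimensional ℚ K₀ ∧
      ∀ E' : IntermediateField ℚ Qb, K₀ ≤ E' →
        ∀ {A₀ : Type u₁} {k : Type u₂} [CommRing A₀] [Field k] {ι : A₀ →+* ↥E'}
          {ρ : A₀ →+* k} {π : A₀} (hB : VtBase ι ρ π),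
          (∀ a, algebraMap ↥E' Qb (ι a) ∈ A) →
          (∀ a, algebraMap ↥E' Qb (ι a) ∈ A.nonunits → ρ a = 0) →
          ∀ (w' : ↥(fieldC ↥E' L M H) ≃ₐ[↥E'] ↥(fieldC ↥E' L M H)),
            (∀ x : ↥(fieldC ↥E' L M H), nfEmbH E' L M H (w' x) = w (nfEmbH E' L M H x)) →
            ∀ y₀ : ↥(fieldC ↥E' L M H), nfEmbH E' L M H y₀ = Y →
              ∀ (c' : (ZMod M)ˣ) (γ : ↥(fieldC ↥E' L M H) ≃ₐ[↥E'] ↥(fieldC ↥E' L M H)),
                IsDiamondC ↥E' L M H c' γ → ∀ b : Bool,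
                  ∃ tt : ↥(fieldC ↥E' L M H), tt ≠ 0 ∧
                    y₀ / tt ^ n - 1 ∈
                      ((rtk6dvFam hB L M H w' b).comap γ.toRingEquiv.toRingHom).nonunits := by
  classical
  haveI : NeZero M := ⟨fun h0 => hL (Nat.eq_zero_of_zero_dvd (h0 ▸ hML))⟩
  -- the diamonds over `ℚ̄` and the constants
  choose γb hγb using fun c' : (ZMod M)ˣ => rtk6diw_exists_diamondH (H := H) hL hML c'
  choose β hβ0 hβ using fun p : (ZMod M)ˣ × Bool => hroot p.1 (γb p.1) (hγb p.1) p.2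
  have hfinS : (Set.range β).Finite := Set.finite_range β
  obtain ⟨K₀, hfin, hS, -⟩ := rtk6di_exists_descent L M H hfinS.toFinset ∅
  refine ⟨K₀, hfin, fun E' hE A₀ k _ _ ι ρ π hB h1 h2 w' hw' y₀ hy₀ c' γ hγ b => ?_⟩
  have hmem : β (c', b) ∈ E' :=
    hE (hS _ (hfinS.mem_toFinset.mpr ⟨(c', b), rfl⟩))
  refine ⟨algebraMap ↥E' ↥(fieldC ↥E' L M H) ⟨β (c', b), hmem⟩, ?_, ?_⟩
  · intro h0
    have h1' := congrArg (nfEmbH E' L M H) h0
    rw [rtk6m5_nfEmbH_const, map_zero] at h1'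
    exact hβ0 (c', b) ((map_eq_zero _).mp h1')
  · refine rtk6m5_comap hB A L M H w' h1 h2 hw' γ.toRingEquiv.toRingHom b ?_
    have e : nfEmbH E' L M H (γ (y₀ / algebraMap ↥E' ↥(fieldC ↥E' L M H) ⟨β (c', b), hmem⟩ ^ n))
        = γb c' Y / algebraMap Qb (fieldBar L M H) (β (c', b)) ^ n := by
      rw [rtk6diw_diamond_nfEmbH hγ (hγb c'), map_div₀, map_pow, rtk6m5_nfEmbH_const, hy₀,
        map_div₀, map_pow, AlgEquiv.commutes]
    show ReducesToOneF A (fieldBar L M H)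
      (bif b then nfEmbH E' L M H (γ (y₀ / _ ^ n)) else w (nfEmbH E' L M H (γ (y₀ / _ ^ n))))
    rw [e]
    exact hβ (c', b)

variable {r : ℕ} {w : fieldBar L M H ≃ₐ[Qb] fieldBar L M H}

/-- **M5, (χ), generic base.** -/
theorem rtk6m5_pack_chi (hL : L ≠ 0) (hML : M ∣ L) (hw : IsWAt L M H r w)
    (A : ValuationSubring Qb) (σ : Qb ≃ₐ[ℚ] Qb) (hσ : σ ∈ A.inertiaSubgroupIn ℚ)
    {c : (ZMod M)ˣ} (hc : IsCycAt M r σ c)
    {u : fieldBar L M H} (hu : u ≠ 0) {n : ℕ} (hn : n ≠ 0) :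
    ∃ K₀ : IntermediateField ℚ Qb, FiniteDimensional ℚ K₀ ∧
      ∀ E' : IntermediateField ℚ Qb, K₀ ≤ E' →
        ∀ {A₀ : Type u₁} {k : Type u₂} [CommRing A₀] [Field k] {ι : A₀ →+* ↥E'}
          {ρ : A₀ →+* k} {π : A₀} (hB : VtBase ι ρ π),
          (∀ a, algebraMap ↥E' Qb (ι a) ∈ A) →
          (∀ a, algebraMap ↥E' Qb (ι a) ∈ A.nonunits → ρ a = 0) →
          ∀ (w' : ↥(fieldC ↥E' L M H) ≃ₐ[↥E'] ↥(fieldC ↥E' L M H)),
            (∀ x : ↥(fieldC ↥E' L M H), nfEmbH E' L M H (w' x) = w (nfEmbH E' L M H x)) →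
            ∀ (hσE : ∀ x ∈ E', σ x ∈ E')
              (δ₀ : ↥(fieldC ↥E' L M H) ≃ₐ[↥E'] ↥(fieldC ↥E' L M H)),
              IsDiamondC ↥E' L M H c δ₀ →
              ∀ u₀ : ↥(fieldC ↥E' L M H), nfEmbH E' L M H u₀ = u →
                ∀ (c' : (ZMod M)ˣ) (γ : ↥(fieldC ↥E' L M H) ≃ₐ[↥E'] ↥(fieldC ↥E' L M H)),
                  IsDiamondC ↥E' L M H c' γ → ∀ b : Bool,
                    ∃ tt : ↥(fieldC ↥E' L M H), tt ≠ 0 ∧
                      rtk6eChi E' L M H σ hσE δ₀ u₀ / tt ^ n - 1 ∈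
                        ((rtk6dvFam hB L M H w' b).comap γ.toRingEquiv.toRingHom).nonunits := by
  obtain ⟨δ, hδ⟩ := rtk6diw_exists_diamondH (H := H) hL hML c
  obtain ⟨K₀, hfin, h⟩ := rtk6m5_pack_gen.{u₁, u₂} hL hML A w n (chiExpr σ δ u)
    (fun c' γ hγ b => rtk6m5_chi_root hw A σ hσ hc hδ hu hn hγ b)
  refine ⟨K₀, hfin, fun E' hE A₀ k _ _ ι ρ π hB h1 h2 w' hw' hσE δ₀ hδ₀ u₀ hu₀ c' γ hγ b => ?_⟩
  refine h E' hE hB h1 h2 w' hw' _ ?_ c' γ hγ b
  rw [nfEmbH_rtk6eChi σ hσE hδ₀ hδ, hu₀]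

/-- **M5, (UNIP_H), generic base**: the diamond `δ_c` is trivial on `fieldBar L M H`. -/
theorem rtk6m5_pack_unip (hL : L ≠ 0) (hML : M ∣ L) (hw : IsWAt L M H r w)
    (A : ValuationSubring Qb) (σ : Qb ≃ₐ[ℚ] Qb) (hσ : σ ∈ A.inertiaSubgroupIn ℚ)
    {c : (ZMod M)ˣ} (hc : IsCycAt M r σ c)
    (hδ : IsDiamondH L M H c (1 : fieldBar L M H ≃ₐ[Qb] fieldBar L M H))
    {u : fieldBar L M H} (hu : u ≠ 0) {n : ℕ} (hn : n ≠ 0) :
    ∃ K₀ : IntermediateField ℚ Qb, FiniteDimensional ℚ K₀ ∧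
      ∀ E' : IntermediateField ℚ Qb, K₀ ≤ E' →
        ∀ {A₀ : Type u₁} {k : Type u₂} [CommRing A₀] [Field k] {ι : A₀ →+* ↥E'}
          {ρ : A₀ →+* k} {π : A₀} (hB : VtBase ι ρ π),
          (∀ a, algebraMap ↥E' Qb (ι a) ∈ A) →
          (∀ a, algebraMap ↥E' Qb (ι a) ∈ A.nonunits → ρ a = 0) →
          ∀ (w' : ↥(fieldC ↥E' L M H) ≃ₐ[↥E'] ↥(fieldC ↥E' L M H)),
            (∀ x : ↥(fieldC ↥E' L M H), nfEmbH E' L M H (w' x) = w (nfEmbH E' L M H x)) →
            ∀ (hσE : ∀ x ∈ E', σ x ∈ E')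
              (u₀ : ↥(fieldC ↥E' L M H)), nfEmbH E' L M H u₀ = u →
                ∀ (c' : (ZMod M)ˣ) (γ : ↥(fieldC ↥E' L M H) ≃ₐ[↥E'] ↥(fieldC ↥E' L M H)),
                  IsDiamondC ↥E' L M H c' γ → ∀ b : Bool,
                    ∃ tt : ↥(fieldC ↥E' L M H), tt ≠ 0 ∧
                      (rtk6eAct E' L M H σ hσE u₀ / u₀) / tt ^ n - 1 ∈
                        ((rtk6dvFam hB L M H w' b).comap γ.toRingEquiv.toRingHom).nonunits := by
  obtain ⟨K₀, hfin, h⟩ := rtk6m5_pack_gen.{u₁, u₂} hL hML A w n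
    ((arithmeticGalois (fieldQ L M H) σ • u) / u)
    (fun c' γ hγ b => rtk6m5_unip_root hw A σ hσ hc hδ hu hn hγ b)
  refine ⟨K₀, hfin, fun E' hE A₀ k _ _ ι ρ π hB h1 h2 w' hw' hσE u₀ hu₀ c' γ hγ b => ?_⟩
  refine h E' hE hB h1 h2 w' hw' _ ?_ c' γ hγ b
  rw [map_div₀, nfEmbH_rtk6eAct, hu₀]

end Pack

end Fermat.Agent.RT.K6

end
end ZBES1_010_6
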