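/- GENERATED FILE (helper35, build-time optimisation, NOTES/ZB.md): verbatim concatenation of the modules
   Fermat.Agent.ES1.KDLiftRes
   Do not edit; do not import together with these modules. -/
import Mathlib
import Fermat.Agent.ZB.INJ_003
import Fermat.Agent.ZB.S28_002

/-! ### bundled: `Fermat.Agent.ES1.KDLiftRes` -/
section ZBES1_021_0

/-!
# ES₁ / INJ₁-KD, part 5: descent of independence to the residue field of `A₀`

`r : A₀ → k` with kernel `(π)`, `(π)` maximal, `κ = A₀ / π ⊆ k`.  If the reductions of the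
`y j ∈ A₀((q))` have no nontrivial relation with coefficients in `κ[t̄]` (stated with lifts to
`A₀[X]`), they have no nontrivial relation with coefficients in `k[t̄]`, hence none with
coefficients in `k(t̄)`.  (Apply `κ`-linear functionals `k → κ` coefficientwise.)
-/

set_option autoImplicit false
set_option linter.style.haveILetI false
set_option linter.unusedSectionVars false

noncomputable section

namespace Fermat.Agent.ES1

open Polynomial ModularCurve IntermediateField Fermat.Agent.S28 Fermat.Agent.INJ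

section Coeff

variable {R : Type*} [CommRing R]

/-- the coefficients of `P(t) * y`, `P` given by its coefficients -/
theorem kdl_coeff_sum_monomial (t y : LaurentSeries R) (D : ℕ) (c : ℕ → R) (n : ℤ) :
    (aeval t (∑ d ∈ Finset.range D, monomial d (c d)) * y).coeff n =
      ∑ d ∈ Finset.range D, c d * (t ^ d * y).coeff n := by
  rw [map_sum, Finset.sum_mul]
  have h1 : ∀ z : Finset ℕ, (∑ d ∈ z, aeval t (monomial d (c d)) * y).coeff n =
      ∑ d ∈ z, (aeval t (monomial d (c d)) * y).coeff n := by
    intro z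
    exact map_sum (HahnSeries.coeff.addMonoidHom n) _ z
  rw [h1]
  refine Finset.sum_congr rfl fun d _ => ?_
  rw [aeval_monomial, redDVR_algebraMap_eq_single, mul_assoc]
  show (HahnSeries.C (c d) * (t ^ d * y)).coeff n = _
  rw [HahnSeries.C_mul_eq_smul, HahnSeries.coeff_smul, smul_eq_mul]

end Coeff

section Res

variable {A₀ k : Type*} [CommRing A₀] [Field k] (r : A₀ →+* k)

/-- **Descent to the residue field**, polynomial form. -/
theorem kdl_indep_of_int {π : A₀} (hπ : (Ideal.span {π}).IsMaximal) (hrπ : r π = 0)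
    (hr : ∀ a, r a = 0 → π ∣ a)
    (t₀ : LaurentSeries A₀) {J : Type*} [Fintype J] (y : J → LaurentSeries A₀)
    (hint : ∀ M : J → A₀[X], coeffMap r (∑ j, aeval t₀ (M j) * y j) = 0 →
      ∀ j, (M j).map r = 0)
    (N : J → k[X]) (hN : ∑ j, aeval (coeffMap r t₀) (N j) * coeffMap r (y j) = 0) :
    ∀ j, N j = 0 := by
  classical
  letI : Field (A₀ ⧸ Ideal.span {π}) := Ideal.Quotient.field _
  have hker : ∀ a ∈ Ideal.span {π}, r a = 0 := by
    intro a ha
    obtain ⟨b, rfl⟩ := Ideal.mem_span_singleton.mp ha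
    rw [map_mul, hrπ, zero_mul]
  let rb : (A₀ ⧸ Ideal.span {π}) →+* k := Ideal.Quotient.lift _ r hker
  letI : Algebra (A₀ ⧸ Ideal.span {π}) k := rb.toAlgebra
  have hrb : ∀ a : A₀, algebraMap (A₀ ⧸ Ideal.span {π}) k (Ideal.Quotient.mk _ a) = r a :=
    fun a => Ideal.Quotient.lift_mk _ r hker
  -- a uniform degree bound
  obtain ⟨D, hD⟩ : ∃ D : ℕ, ∀ j, (N j).natDegree < D :=
    ⟨(Finset.univ.sup fun j => (N j).natDegree) + 1, fun j =>
      Nat.lt_succ_of_le (Finset.le_sup (f := fun j => (N j).natDegree) (Finset.mem_univ j))⟩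
  have hNsum : ∀ j, N j = ∑ d ∈ Finset.range D, monomial d ((N j).coeff d) :=
    fun j => Polynomial.as_sum_range' (N j) D (hD j)
  -- the coefficientwise relation
  have hrel : ∀ n : ℤ, ∑ j, ∑ d ∈ Finset.range D,
      (N j).coeff d * r ((t₀ ^ d * y j).coeff n) = 0 := by
    intro n
    have h1 := congrArg (fun z : LaurentSeries k => z.coeff n) hN
    simp only [HahnSeries.coeff_zero] at h1
    rw [← h1]
    have h2 : (∑ j, aeval (coeffMap r t₀) (N j) * coeffMap r (y j)).coeff n =
        ∑ j, (aeval (coeffMap r t₀) (N j) * coeffMap r (y j)).coeff n :=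
      map_sum (HahnSeries.coeff.addMonoidHom n) _ _
    rw [h2]
    refine Finset.sum_congr rfl fun j _ => ?_
    conv_rhs => rw [hNsum j]
    rw [kdl_coeff_sum_monomial]
    refine Finset.sum_congr rfl fun d _ => ?_
    rw [← map_pow, ← map_mul, coeffMap_coeff]
  -- a functional
  have key : ∀ φ : Module.Dual (A₀ ⧸ Ideal.span {π}) k, ∀ j, ∀ d ∈ Finset.range D,
      φ ((N j).coeff d) = 0 := by
    intro φ
    let ℓ : (A₀ ⧸ Ideal.span {π}) → A₀ := Function.surjInv Ideal.Quotient.mk_surjective
    have hℓ : ∀ x, Ideal.Quotient.mk (Ideal.span {π}) (ℓ x) = x :=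
      Function.surjInv_eq Ideal.Quotient.mk_surjective
    let M : J → A₀[X] := fun j => ∑ d ∈ Finset.range D, monomial d (ℓ (φ ((N j).coeff d)))
    have hM : coeffMap r (∑ j, aeval t₀ (M j) * y j) = 0 := by
      ext n
      rw [coeffMap_coeff, HahnSeries.coeff_zero]
      have h2 : (∑ j, aeval t₀ (M j) * y j).coeff n = ∑ j, (aeval t₀ (M j) * y j).coeff n :=
        map_sum (HahnSeries.coeff.addMonoidHom n) _ _
      rw [h2, map_sum]
      have h3 : ∀ j, r ((aeval t₀ (M j) * y j).coeff n) =
          algebraMap (A₀ ⧸ Ideal.span {π}) k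
            (φ (∑ d ∈ Finset.range D, (N j).coeff d * r ((t₀ ^ d * y j).coeff n))) := by
        intro j
        rw [kdl_coeff_sum_monomial, map_sum, map_sum, map_sum]
        refine Finset.sum_congr rfl fun d _ => ?_
        rw [map_mul, ← hrb (ℓ _), hℓ, ← hrb ((t₀ ^ d * y j).coeff n), ← map_mul]
        congr 1
        rw [mul_comm ((N j).coeff d), ← Algebra.smul_def, map_smul, smul_eq_mul, mul_comm]
      rw [Finset.sum_congr rfl (fun j _ => h3 j), ← map_sum, ← map_sum, hrel n, map_zero,
        map_zero]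
    have h4 := hint M hM
    intro j d hd
    have h5 := congrArg (fun q : k[X] => q.coeff d) (h4 j)
    simp only [Polynomial.coeff_map, Polynomial.coeff_zero] at h5
    have h6 : (M j).coeff d = ℓ (φ ((N j).coeff d)) := by
      show (∑ d' ∈ Finset.range D, monomial d' (ℓ (φ ((N j).coeff d')))).coeff d = _
      rw [Polynomial.finsetSum_coeff, Finset.sum_eq_single d]
      · rw [Polynomial.coeff_monomial, if_pos rfl]
      · intro b _ hb
        rw [Polynomial.coeff_monomial, if_neg hb]
      · intro h; exact absurd hd h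
    rw [h6, ← hrb, hℓ] at h5
    exact (algebraMap (A₀ ⧸ Ideal.span {π}) k).injective (by rw [h5, map_zero])
  intro j
  ext d
  rw [Polynomial.coeff_zero]
  by_cases hd : d < D
  · exact (Module.forall_dual_apply_eq_zero_iff (A₀ ⧸ Ideal.span {π}) _).mp
      (fun φ => key φ j d (Finset.mem_range.mpr hd))
  · exact Polynomial.coeff_eq_zero_of_natDegree_lt (lt_of_lt_of_le (hD j) (not_lt.mp hd))

/-- **Descent to the residue field**, membership form (as in `GaussKD.indep`). -/
theorem kdl_indep_of_int' {π : A₀} (hπ : (Ideal.span {π}).IsMaximal) (hrπ : r π = 0)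
    (hr : ∀ a, r a = 0 → π ∣ a)
    (t₀ : LaurentSeries A₀) {J : Type*} [Fintype J] (y : J → LaurentSeries A₀)
    (hint : ∀ M : J → A₀[X], coeffMap r (∑ j, aeval t₀ (M j) * y j) = 0 →
      ∀ j, (M j).map r = 0)
    (c : J → LaurentSeries k) (hc : ∀ j, c j ∈ adjoin k {coeffMap r t₀})
    (hrel : ∑ j, c j * coeffMap r (y j) = 0) : ∀ j, c j = 0 := by
  classical
  obtain ⟨D, hD, hDP⟩ := redDVR_exists_common_denominator (A := k) (E := k)
    (coeffMap r t₀) c hc Finset.univ
  choose P hP using fun j => hDP j (Finset.mem_univ j)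
  simp only [Algebra.algebraMap_self, Polynomial.map_id] at hD hP
  have h1 : ∑ j, aeval (coeffMap r t₀) (P j) * coeffMap r (y j) = 0 := by
    simp_rw [← hP]
    have : ∑ j, c j * aeval (coeffMap r t₀) D * coeffMap r (y j) =
        aeval (coeffMap r t₀) D * ∑ j, c j * coeffMap r (y j) := by
      rw [Finset.mul_sum]
      exact Finset.sum_congr rfl fun j _ => by ring
    rw [this, hrel, mul_zero]
  have h2 := kdl_indep_of_int r hπ hrπ hr t₀ y hint P h1
  intro j
  have h3 := hP j
  rw [h2 j, map_zero] at h3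
  exact (mul_eq_zero.mp h3).resolve_right hD

end Res

end Fermat.Agent.ES1

end
end ZBES1_021_0
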