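/- GENERATED FILE (helper35, build-time optimisation, NOTES/ZB.md): verbatim concatenation of the modules
   Fermat.Agent.RT.K5.LiftAbs
   Fermat.Agent.RT.K5.LiftCoc
   Fermat.Agent.RT.K5.CoresSurj
   Fermat.Agent.RT.K5.Free
   Fermat.Agent.RT.K5.FreeGen
   Fermat.Agent.RT.K5.Plan2
   Fermat.Agent.RT.K5.CommU
   Fermat.Agent.RT.K5.Nat
   Fermat.Agent.RT.K5.Act
   Fermat.Agent.RT.K5.NatFam
   Fermat.Agent.RT.Hecke.ConcDefs
   Fermat.Agent.RT.Hecke.ConcAct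
   Fermat.Agent.RT.K5.Lift
   Fermat.Agent.RT.K5.Plan4
   Fermat.Agent.RT.K5.UQPlan
   Fermat.Agent.RT.K5.Plan5
   Fermat.Agent.RT.K5.DegComm
   Fermat.Agent.RT.K5.UQ2
   Fermat.Agent.RT.K5.DegFam
   Fermat.Agent.RT.K5.ModTop
   Fermat.Agent.RT.K5.HExpr
   Fermat.Agent.RT.K5.Coef
   Fermat.Agent.RT.K5.Plan6
   Do not edit; do not import together with these modules. -/
import Mathlib
import Fermat.Agent.ZB.S41_003
import Fermat.Agent.ZB.ES1_001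
import Fermat.Agent.ZB.S41_005
import Fermat.Agent.ZB.ES1_005

/-! ### bundled: `Fermat.Agent.RT.K5.LiftAbs` -/
section ZBRT_028_0
/-
RT-K5, pieces K5-S / K5-L (helper22): the abstract orbit-lifting lemma.

`σ` acts on `X'`, `X` with `σⁿ = 1`, `π : X' → X` equivariant and onto, `f : A → B` onto.
A function `v : X → B` with `Σ_{i<n} v(σⁱ x) = 0`, vanishing at the non-free points, is
`x ↦ Σ_{π x' = x} f (w x')` for some `w : X' → A` with `Σ_{i<n} w(σⁱ x') = 0`  (`k5l_lift`).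
-/

set_option autoImplicit false
set_option linter.unusedSectionVars false
set_option linter.unusedVariables false
set_option linter.style.haveILetI false

noncomputable section

namespace Fermat.Agent.RT.K5

open Classical

section orbit

variable {G : Type*} [Group G] {X : Type*} [MulAction G X] (σ : G) (n : ℕ)

theorem k5l_pow_mul_smul (hσ : ∀ x : X, σ ^ n • x = x) (t : ℕ) (x : X) :
    σ ^ (n * t) • x = x := by
  induction t with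
  | zero => simp
  | succ t ih => rw [Nat.mul_succ, pow_add, mul_smul, hσ, ih]

theorem k5l_pow_mod_smul (hσ : ∀ x : X, σ ^ n • x = x) (a : ℕ) (x : X) :
    σ ^ (a % n) • x = σ ^ a • x := by
  conv_rhs => rw [← Nat.div_add_mod a n, pow_add, mul_smul]
  rw [k5l_pow_mul_smul σ n hσ]

theorem k5l_smul_of_modEq (hσ : ∀ x : X, σ ^ n • x = x) {a b : ℕ} (h : a ≡ b [MOD n]) (x : X) :
    σ ^ a • x = σ ^ b • x := by
  rw [← k5l_pow_mod_smul σ n hσ a, ← k5l_pow_mod_smul σ n hσ b, h]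

/-- `x` is a free point: `σᵏ x = x` only for `n ∣ k` -/
def k5l_free (x : X) : Prop := ∀ k : ℕ, σ ^ k • x = x → n ∣ k

theorem k5l_free_smul {x : X} (hx : k5l_free σ n x) : k5l_free σ n (σ • x) := by
  intro k hk
  apply hx
  have h1 : σ • (σ ^ k • x) = σ • x := by
    rw [← mul_smul, ← pow_succ', pow_succ, mul_smul]; exact hk
  exact smul_left_cancel σ h1

theorem k5l_free_pow_smul {x : X} (hx : k5l_free σ n x) (i : ℕ) : k5l_free σ n (σ ^ i • x) := by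
  induction i with
  | zero => simpa using hx
  | succ i ih =>
    rw [pow_succ', mul_smul]
    exact k5l_free_smul σ n ih

theorem k5l_free_of_pow_smul {x : X} (i : ℕ) (hx : k5l_free σ n (σ ^ i • x)) : k5l_free σ n x := by
  intro k hk
  apply hx
  rw [← mul_smul, ← pow_add, add_comm, pow_add, mul_smul, hk]

theorem k5l_free_modEq {x : X} (hx : k5l_free σ n x) {a b : ℕ} (h : σ ^ a • x = σ ^ b • x) :
    a ≡ b [MOD n] := by
  have key : ∀ a b : ℕ, a ≤ b → σ ^ a • x = σ ^ b • x → a ≡ b [MOD n] := by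
    intro a b hab h
    obtain ⟨d, rfl⟩ := Nat.exists_eq_add_of_le hab
    rw [pow_add, mul_smul] at h
    have h1 : σ ^ d • x = x := (smul_left_cancel (σ ^ a) h).symm
    obtain ⟨t, ht⟩ := hx d h1
    rw [ht]
    exact (Nat.modEq_iff_dvd' (Nat.le_add_right a (n * t))).2 ⟨t, by omega⟩
  rcases le_total a b with hab | hab
  · exact key a b hab h
  · exact (key b a hab h.symm).symm

/-- the orbit relation of `σ` -/
def k5l_setoid (hn : 0 < n) (hσ : ∀ x : X, σ ^ n • x = x) : Setoid X where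
  r x y := ∃ k : ℕ, σ ^ k • x = y
  iseqv :=
    ⟨fun x => ⟨0, by simp⟩,
      fun {x y} ⟨k, hk⟩ => ⟨(n - 1) * k, by
        rw [← hk, ← mul_smul, ← pow_add]
        have : (n - 1) * k + k = n * k := by
          obtain ⟨m, rfl⟩ : ∃ m, n = m + 1 := ⟨n - 1, by omega⟩
          simp only [Nat.add_sub_cancel]
          ring
        rw [this, k5l_pow_mul_smul σ n hσ]⟩,
      fun {x y z} ⟨k, hk⟩ ⟨l, hl⟩ => ⟨l + k, by rw [pow_add, mul_smul, hk, hl]⟩⟩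

/-- a representative of the orbit of `x` -/
def k5l_rep (hn : 0 < n) (hσ : ∀ x : X, σ ^ n • x = x) (x : X) : X :=
  @Quotient.out X (k5l_setoid σ n hn hσ) (@Quotient.mk X (k5l_setoid σ n hn hσ) x)

theorem k5l_rep_spec (hn : 0 < n) (hσ : ∀ x : X, σ ^ n • x = x) (x : X) :
    ∃ k : ℕ, σ ^ k • k5l_rep σ n hn hσ x = x :=
  @Quotient.mk_out X (k5l_setoid σ n hn hσ) x

theorem k5l_rep_spec' (hn : 0 < n) (hσ : ∀ x : X, σ ^ n • x = x) (x : X) :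
    ∃ k : ℕ, k < n ∧ σ ^ k • x = k5l_rep σ n hn hσ x := by
  obtain ⟨k, hk⟩ := (k5l_setoid σ n hn hσ).symm (k5l_rep_spec σ n hn hσ x)
  exact ⟨k % n, Nat.mod_lt _ hn, by rw [k5l_pow_mod_smul σ n hσ, hk]⟩

theorem k5l_rep_smul (hn : 0 < n) (hσ : ∀ x : X, σ ^ n • x = x) (x : X) :
    k5l_rep σ n hn hσ (σ • x) = k5l_rep σ n hn hσ x := by
  unfold k5l_rep
  congr 1
  apply Quotient.sound
  exact (k5l_setoid σ n hn hσ).symm ⟨1, by simp⟩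

theorem k5l_rep_pow_smul (hn : 0 < n) (hσ : ∀ x : X, σ ^ n • x = x) (i : ℕ) (x : X) :
    k5l_rep σ n hn hσ (σ ^ i • x) = k5l_rep σ n hn hσ x := by
  induction i with
  | zero => simp
  | succ i ih => rw [pow_succ', mul_smul, k5l_rep_smul, ih]

/-- the sum over the orbit is invariant -/
theorem k5l_sum_smul {A : Type*} [AddCommGroup A] (hσ : ∀ x : X, σ ^ n • x = x) (u : X → A)
    (x : X) :
    ∑ i ∈ Finset.range n, u (σ ^ i • (σ • x)) = ∑ i ∈ Finset.range n, u (σ ^ i • x) := by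
  have h1 : ∀ i : ℕ, σ ^ i • (σ • x) = σ ^ (i + 1) • x := fun i => by
    rw [pow_succ, mul_smul]
  simp only [h1]
  have h2 := Finset.sum_range_succ (fun i => u (σ ^ i • x)) n
  have h3 := Finset.sum_range_succ' (fun i => u (σ ^ i • x)) n
  rw [h2] at h3
  simp only [hσ, pow_zero, one_smul] at h3
  exact (add_right_cancel h3).symm

theorem k5l_sum_pow_smul {A : Type*} [AddCommGroup A] (hσ : ∀ x : X, σ ^ n • x = x) (u : X → A)
    (j : ℕ) (x : X) :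
    ∑ i ∈ Finset.range n, u (σ ^ i • (σ ^ j • x)) = ∑ i ∈ Finset.range n, u (σ ^ i • x) := by
  induction j with
  | zero => simp
  | succ j ih => rw [pow_succ', mul_smul, k5l_sum_smul σ n hσ, ih]

end orbit

section stepA

variable {G : Type*} [Group G] {X : Type*} [MulAction G X] (σ : G) (n : ℕ)
  {A B : Type*} [AddCommGroup A] [AddCommGroup B]

/-- **Step A**: lifting on `X` itself. -/
theorem k5l_stepA (hn : 0 < n) (hσ : ∀ x : X, σ ^ n • x = x) (f : A →+ B)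
    (hf : Function.Surjective f) (v : X → B)
    (hv : ∀ x, ∑ i ∈ Finset.range n, v (σ ^ i • x) = 0)
    (hfix : ∀ x, ¬ k5l_free σ n x → v x = 0) :
    ∃ a : X → A, (∀ x, f (a x) = v x) ∧ (∀ x, ∑ i ∈ Finset.range n, a (σ ^ i • x) = 0) ∧
      (∀ x, ¬ k5l_free σ n x → a x = 0) := by
  set ℓ : B → A := Function.surjInv hf with hℓ
  have hfℓ : ∀ b, f (ℓ b) = b := Function.surjInv_eq hf
  set T : X → A := fun x => ∑ i ∈ Finset.range n, ℓ (v (σ ^ i • x)) with hT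
  have hfT : ∀ x, f (T x) = 0 := by
    intro x
    rw [hT]
    simp only [map_sum, hfℓ]
    exact hv x
  have hTinv : ∀ (j : ℕ) (x : X), T (σ ^ j • x) = T x := fun j x =>
    k5l_sum_pow_smul σ n hσ (fun y => ℓ (v y)) j x
  set a : X → A := fun x =>
    if k5l_free σ n x then ℓ (v x) - (if x = k5l_rep σ n hn hσ x then T x else 0) else 0 with ha
  refine ⟨a, fun x => ?_, fun x => ?_, fun x hx => ?_⟩
  · by_cases hx : k5l_free σ n x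
    · simp only [ha, if_pos hx]
      by_cases hr : x = k5l_rep σ n hn hσ x
      · rw [if_pos hr, map_sub, hfℓ, hfT, sub_zero]
      · rw [if_neg hr, sub_zero, hfℓ]
    · simp only [ha, if_neg hx, map_zero]
      exact (hfix x hx).symm
  · by_cases hx : k5l_free σ n x
    · have h1 : ∀ i ∈ Finset.range n, a (σ ^ i • x)
          = ℓ (v (σ ^ i • x)) - (if σ ^ i • x = k5l_rep σ n hn hσ x then T x else 0) := by
        intro i _
        simp only [ha, if_pos (k5l_free_pow_smul σ n hx i), k5l_rep_pow_smul, hTinv]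
      rw [Finset.sum_congr rfl h1, Finset.sum_sub_distrib]
      obtain ⟨i₀, hi₀, hi₀x⟩ := k5l_rep_spec' σ n hn hσ x
      have h2 : ∑ i ∈ Finset.range n, (if σ ^ i • x = k5l_rep σ n hn hσ x then T x else 0)
          = T x := by
        rw [Finset.sum_eq_single i₀]
        · rw [if_pos hi₀x]
        · intro i hi hne
          rw [if_neg]
          intro hix
          apply hne
          have hmod : i ≡ i₀ [MOD n] := k5l_free_modEq σ n hx (hix.trans hi₀x.symm)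
          have := Nat.ModEq.eq_of_lt_of_lt hmod (Finset.mem_range.1 hi) hi₀
          exact this
        · intro h
          exact absurd (Finset.mem_range.2 hi₀) h
      rw [h2]
      exact sub_self _
    · apply Finset.sum_eq_zero
      intro i _
      have : ¬ k5l_free σ n (σ ^ i • x) := fun h => hx (k5l_free_of_pow_smul σ n i h)
      simp only [ha, if_neg this]
  · simp only [ha, if_neg hx]

end stepA

section stepB

variable {G : Type*} [Group G] {X' X : Type*} [MulAction G X'] [MulAction G X] [Fintype X']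
  (π : X' → X) (σ : G) (n : ℕ) {A B : Type*} [AddCommGroup A] [AddCommGroup B]

/-- **Step B**: spreading along an equivariant section on the free part. -/
theorem k5l_stepB (hπ : Function.Surjective π) (hπe : ∀ (g : G) (x' : X'), π (g • x') = g • π x')
    (hn : 0 < n) (hσ' : ∀ x' : X', σ ^ n • x' = x') (hσ : ∀ x : X, σ ^ n • x = x)
    (a : X → A) (ha : ∀ x, ∑ i ∈ Finset.range n, a (σ ^ i • x) = 0)
    (ha0 : ∀ x, ¬ k5l_free σ n x → a x = 0) :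
    ∃ w : X' → A, (∀ x', ∑ i ∈ Finset.range n, w (σ ^ i • x') = 0) ∧
      ∀ x, ∑ x' ∈ Finset.univ.filter (fun x' => π x' = x), w x' = a x := by
  set s : X → X' := Function.surjInv hπ with hs
  have hπs : ∀ x, π (s x) = x := Function.surjInv_eq hπ
  -- the exponent
  have hk : ∀ x : X, ∃ k : ℕ, σ ^ k • k5l_rep σ n hn hσ x = x := k5l_rep_spec σ n hn hσ
  choose k hkx using hk
  set st : X → X' := fun x => σ ^ (k x) • s (k5l_rep σ n hn hσ x) with hst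
  have hπst : ∀ x, π (st x) = x := by
    intro x
    rw [hst]
    simp only
    rw [hπe, hπs, hkx]
  have hfree_rep : ∀ x, k5l_free σ n x → k5l_free σ n (k5l_rep σ n hn hσ x) := by
    intro x hx
    apply k5l_free_of_pow_smul σ n (k x)
    rw [hkx]
    exact hx
  have hst_smul : ∀ x, k5l_free σ n x → st (σ • x) = σ • st x := by
    intro x hx
    rw [hst]
    simp only
    rw [k5l_rep_smul, ← mul_smul, ← pow_succ']
    apply k5l_smul_of_modEq σ n hσ'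
    apply k5l_free_modEq σ n (hfree_rep x hx)
    rw [pow_succ', mul_smul, hkx]
    have := hkx (σ • x)
    rw [k5l_rep_smul] at this
    exact this
  have hst_pow : ∀ (i : ℕ) x, k5l_free σ n x → st (σ ^ i • x) = σ ^ i • st x := by
    intro i
    induction i with
    | zero => intro x _; simp
    | succ i ih =>
      intro x hx
      rw [pow_succ', mul_smul, hst_smul _ (k5l_free_pow_smul σ n hx i), ih x hx, mul_smul]
  set w : X' → A := fun x' => if x' = st (π x') then a (π x') else 0 with hw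
  refine ⟨w, fun x' => ?_, fun x => ?_⟩
  · by_cases hx : k5l_free σ n (π x')
    · have h1 : ∀ i ∈ Finset.range n, w (σ ^ i • x')
          = if x' = st (π x') then a (σ ^ i • π x') else 0 := by
        intro i _
        simp only [hw]
        have hπi : π (σ ^ i • x') = σ ^ i • π x' := hπe _ _
        rw [hπi, hst_pow i _ hx]
        by_cases hc : x' = st (π x')
        · rw [if_pos hc, if_pos (congrArg (fun y => σ ^ i • y) hc)]
        · rw [if_neg hc, if_neg]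
          intro h
          exact hc (smul_left_cancel _ h)
      rw [Finset.sum_congr rfl h1]
      by_cases hc : x' = st (π x')
      · simp only [if_pos hc]
        exact ha _
      · simp only [if_neg hc]
        exact Finset.sum_const_zero
    · apply Finset.sum_eq_zero
      intro i _
      have hπi : π (σ ^ i • x') = σ ^ i • π x' := hπe _ _
      have : ¬ k5l_free σ n (π (σ ^ i • x')) := by
        rw [hπi]
        exact fun h => hx (k5l_free_of_pow_smul σ n i h)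
      simp only [hw, ha0 _ this, ite_self]
  · rw [Finset.sum_eq_single (st x)]
    · simp only [hw, hπst, if_true]
    · intro x' hx' hne
      rw [Finset.mem_filter] at hx'
      simp only [hw]
      rw [if_neg]
      rw [hx'.2]
      exact hne
    · intro h
      exfalso
      apply h
      rw [Finset.mem_filter]
      exact ⟨Finset.mem_univ _, hπst x⟩

/-- **the orbit-lifting lemma** -/
theorem k5l_lift (hπ : Function.Surjective π) (hπe : ∀ (g : G) (x' : X'), π (g • x') = g • π x')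
    (hn : 0 < n) (hσ' : ∀ x' : X', σ ^ n • x' = x') (f : A →+ B) (hf : Function.Surjective f)
    (v : X → B) (hv : ∀ x, ∑ i ∈ Finset.range n, v (σ ^ i • x) = 0)
    (hfix : ∀ x, ¬ k5l_free σ n x → v x = 0) :
    ∃ w : X' → A, (∀ x', ∑ i ∈ Finset.range n, w (σ ^ i • x') = 0) ∧
      ∀ x, ∑ x' ∈ Finset.univ.filter (fun x' => π x' = x), f (w x') = v x := by
  have hσ : ∀ x : X, σ ^ n • x = x := by
    intro x
    obtain ⟨x', rfl⟩ := hπ x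
    rw [← hπe, hσ']
  obtain ⟨a, ha1, ha2, ha3⟩ := k5l_stepA σ n hn hσ f hf v hv hfix
  obtain ⟨w, hw1, hw2⟩ := k5l_stepB π σ n hπ hπe hn hσ' hσ a ha2 ha3
  refine ⟨w, hw1, fun x => ?_⟩
  rw [← map_sum, hw2, ha1]

end stepB

end Fermat.Agent.RT.K5

end


end ZBRT_028_0

/-! ### bundled: `Fermat.Agent.RT.K5.LiftCoc` -/
section ZBRT_028_1
/-
RT-K5, pieces K5-S / K5-L (helper22): cocycle lifting.

`X' → X` an equivariant surjection of `SL(2, ℤ)`-sets on which `-1` acts trivially, `f : A → B`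
onto, `B` without 2-torsion and (without 3-torsion or `U` without fixed points on `X`).  Then
every cocycle `c : SL(2, ℤ) → (X → B)` is `g ↦ Φ (c' g)` for a cocycle `c' : SL(2, ℤ) → (X' → A)`,
where `Φ w x = Σ_{π x' = x} f (w x')`.
(Lift the values at `S` and `U` orbitwise: `k5l_lift`; extend: `S41.PD.stmtCocExt`; compare:
`S41.PD.IsCoc.ext_SU`.)
-/

set_option autoImplicit false
set_option linter.unusedSectionVars false
set_option linter.unusedVariables false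
set_option linter.style.haveILetI false

noncomputable section

namespace Fermat.Agent.RT.K5

open Classical
open scoped MatrixGroups
open ModularGroup (S T)
open Fermat.Agent.S41.PD (rho rho_apply rho_add rho_mul IsCoc U S_mul_S U_mul_U_mul_U rhoHom
  stmtCocExt)

section Phi

variable {G : Type*} [Group G] {X' X : Type*} [MulAction G X'] [MulAction G X] [Fintype X']
  (π : X' → X) {A B : Type*} [AddCommGroup A] [AddCommGroup B] (f : A →+ B)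

/-- `Φ w x = Σ_{π x' = x} f (w x')` -/
def k5l_Phi (w : X' → A) : X → B :=
  fun x => ∑ x' ∈ Finset.univ.filter (fun x' => π x' = x), f (w x')

theorem k5l_Phi_apply (w : X' → A) (x : X) :
    k5l_Phi π f w x = ∑ x' ∈ Finset.univ.filter (fun x' => π x' = x), f (w x') := rfl

theorem k5l_Phi_add (w w' : X' → A) : k5l_Phi π f (w + w') = k5l_Phi π f w + k5l_Phi π f w' := by
  funext x
  simp only [k5l_Phi, Pi.add_apply, map_add, Finset.sum_add_distrib]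

theorem k5l_Phi_rho (hπe : ∀ (g : G) (x' : X'), π (g • x') = g • π x') (g : G) (w : X' → A) :
    k5l_Phi π f (rho g w) = rho g (k5l_Phi π f w) := by
  funext x
  rw [rho_apply]
  simp only [k5l_Phi, rho_apply]
  symm
  refine Finset.sum_bij (fun x' _ => g • x') ?_ ?_ ?_ ?_
  · intro x' hx'
    rw [Finset.mem_filter] at hx' ⊢
    refine ⟨Finset.mem_univ _, ?_⟩
    rw [hπe, hx'.2, smul_inv_smul]
  · intro a _ b _ hab
    exact smul_left_cancel g hab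
  · intro x' hx'
    rw [Finset.mem_filter] at hx'
    refine ⟨g⁻¹ • x', ?_, smul_inv_smul g x'⟩
    rw [Finset.mem_filter]
    exact ⟨Finset.mem_univ _, by rw [hπe, hx'.2]⟩
  · intro x' _
    rw [inv_smul_smul]

theorem k5l_isCoc_Phi (hπe : ∀ (g : G) (x' : X'), π (g • x') = g • π x') {c' : G → X' → A}
    (hc' : IsCoc c') : IsCoc (fun g => k5l_Phi π f (c' g)) := by
  intro g h
  show k5l_Phi π f (c' (g * h)) = k5l_Phi π f (c' g) + rho g (k5l_Phi π f (c' h))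
  rw [hc', k5l_Phi_add, k5l_Phi_rho π f hπe]

end Phi

section free

variable {G : Type*} [Group G] {X : Type*} [MulAction G X] (σ : G)

/-- for `n = 2` a non-free point is a fixed point -/
theorem k5l_fixed_of_not_free_two (hσ : ∀ x : X, σ ^ 2 • x = x) {x : X}
    (hx : ¬ k5l_free σ 2 x) : σ • x = x := by
  unfold k5l_free at hx
  push_neg at hx
  obtain ⟨k, hk, hnd⟩ := hx
  have h1 : σ ^ (k % 2) • x = x := by rw [k5l_pow_mod_smul σ 2 hσ, hk]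
  have h2 : k % 2 = 1 := by omega
  rw [h2, pow_one] at h1
  exact h1

/-- for `n = 3` a non-free point is a fixed point -/
theorem k5l_fixed_of_not_free_three (hσ : ∀ x : X, σ ^ 3 • x = x) {x : X}
    (hx : ¬ k5l_free σ 3 x) : σ • x = x := by
  unfold k5l_free at hx
  push_neg at hx
  obtain ⟨k, hk, hnd⟩ := hx
  have h1 : σ ^ (k % 3) • x = x := by rw [k5l_pow_mod_smul σ 3 hσ, hk]
  have h2 : k % 3 = 1 ∨ k % 3 = 2 := by omega
  rcases h2 with h2 | h2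
  · rw [h2, pow_one] at h1
    exact h1
  · rw [h2] at h1
    have h3 : σ ^ 3 • x = σ • x := by
      rw [show (3 : ℕ) = 1 + 2 from rfl, pow_add, mul_smul, h1, pow_one]
    rw [← h3, hσ]

end free

section main

variable {X' X : Type} [MulAction SL(2, ℤ) X'] [MulAction SL(2, ℤ) X] [Fintype X']
  (π : X' → X) {A B : Type} [AddCommGroup A] [AddCommGroup B] (f : A →+ B)

theorem k5l_rho_neg_one {Y : Type} [MulAction SL(2, ℤ) Y] {R : Type} [AddCommGroup R]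
    (hneg : ∀ y : Y, (-1 : SL(2, ℤ)) • y = y) (v : Y → R) : rho (-1 : SL(2, ℤ)) v = v := by
  funext y
  rw [rho_apply]
  have : (-1 : SL(2, ℤ))⁻¹ = -1 := by simp
  rw [this, hneg]

theorem k5l_S_inv_sq : (S⁻¹ : SL(2, ℤ)) ^ 2 = -1 := by
  rw [pow_two, ← mul_inv_rev, S_mul_S]
  simp

theorem k5l_U_inv_cube : (U⁻¹ : SL(2, ℤ)) ^ 3 = -1 := by
  have h : (U⁻¹ : SL(2, ℤ)) ^ 3 = (U * U * U)⁻¹ := by
    simp only [pow_succ, pow_zero, one_mul, mul_inv_rev, mul_assoc]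
  rw [h, U_mul_U_mul_U]
  simp

/-- **cocycle lifting** -/
theorem k5l_coc (hπ : Function.Surjective π)
    (hπe : ∀ (g : SL(2, ℤ)) (x' : X'), π (g • x') = g • π x')
    (hneg' : ∀ x' : X', (-1 : SL(2, ℤ)) • x' = x') (hf : Function.Surjective f)
    (h2 : ∀ b : B, 2 • b = 0 → b = 0)
    (h3 : (∀ b : B, 3 • b = 0 → b = 0) ∨ ∀ x : X, U • x ≠ x)
    (c : SL(2, ℤ) → X → B) (hc : IsCoc c) :
    ∃ c' : SL(2, ℤ) → X' → A, IsCoc c' ∧ ∀ g, k5l_Phi π f (c' g) = c g := by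
  have hneg : ∀ x : X, (-1 : SL(2, ℤ)) • x = x := by
    intro x
    obtain ⟨x', rfl⟩ := hπ x
    rw [← hπe, hneg']
  -- `c (-1) = 0`
  have hc1 : c (-1) = 0 := by
    have h := hc (-1) (-1)
    rw [Fermat.Agent.S41.PD.neg_one_mul_neg_one, hc.map_one, k5l_rho_neg_one hneg] at h
    funext x
    apply h2
    have := congrFun h x
    simp only [Pi.zero_apply, Pi.add_apply] at this
    rw [two_nsmul]
    exact this.symm
  have hcS : c S + rho S (c S) = 0 := by rw [← hc, S_mul_S, hc1]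
  have hcU : c U + rho U (c U) + rho U (rho U (c U)) = 0 := by
    have h := hc U (U * U)
    rw [hc U U, ← mul_assoc, U_mul_U_mul_U, hc1, rho_add] at h
    rw [h]
    abel
  -- the values at `S`
  have hS2' : ∀ x' : X', (S⁻¹ : SL(2, ℤ)) ^ 2 • x' = x' := fun x' => by
    rw [k5l_S_inv_sq, hneg']
  have hS2 : ∀ x : X, (S⁻¹ : SL(2, ℤ)) ^ 2 • x = x := fun x => by
    rw [k5l_S_inv_sq, hneg]
  have hU3' : ∀ x' : X', (U⁻¹ : SL(2, ℤ)) ^ 3 • x' = x' := fun x' => by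
    rw [k5l_U_inv_cube, hneg']
  have hU3 : ∀ x : X, (U⁻¹ : SL(2, ℤ)) ^ 3 • x = x := fun x => by
    rw [k5l_U_inv_cube, hneg]
  have hvS : ∀ x, ∑ i ∈ Finset.range 2, c S ((S⁻¹ : SL(2, ℤ)) ^ i • x) = 0 := by
    intro x
    have := congrFun hcS x
    simp only [Pi.add_apply, rho_apply, Pi.zero_apply] at this
    rw [Finset.sum_range_succ, Finset.sum_range_one, pow_zero, one_smul, pow_one]
    exact this
  have hvU : ∀ x, ∑ i ∈ Finset.range 3, c U ((U⁻¹ : SL(2, ℤ)) ^ i • x) = 0 := by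
    intro x
    have := congrFun hcU x
    simp only [Pi.add_apply, rho_apply, Pi.zero_apply] at this
    rw [Finset.sum_range_succ, Finset.sum_range_succ, Finset.sum_range_one, pow_zero, one_smul,
      pow_one, pow_two, mul_smul]
    exact this
  have hfixS : ∀ x, ¬ k5l_free (S⁻¹ : SL(2, ℤ)) 2 x → c S x = 0 := by
    intro x hx
    have hfx := k5l_fixed_of_not_free_two (S⁻¹ : SL(2, ℤ)) hS2 hx
    have := hvS x
    rw [Finset.sum_range_succ, Finset.sum_range_one, pow_zero, one_smul, pow_one, hfx] at this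
    apply h2
    rw [two_nsmul]
    exact this
  have hfixU : ∀ x, ¬ k5l_free (U⁻¹ : SL(2, ℤ)) 3 x → c U x = 0 := by
    intro x hx
    have hfx := k5l_fixed_of_not_free_three (U⁻¹ : SL(2, ℤ)) hU3 hx
    rcases h3 with h3 | h3
    · have := hvU x
      rw [Finset.sum_range_succ, Finset.sum_range_succ, Finset.sum_range_one, pow_zero, one_smul,
        pow_one, pow_two, mul_smul, hfx, hfx] at this
      apply h3
      rw [show (3 : ℕ) = 2 + 1 from rfl, add_nsmul, two_nsmul, one_nsmul]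
      exact this
    · exfalso
      apply h3 x
      have := congrArg (fun y => U • y) hfx
      simp only [smul_inv_smul] at this
      exact this.symm
  obtain ⟨wS, hwS, hwSΦ⟩ := k5l_lift π (S⁻¹ : SL(2, ℤ)) 2 hπ hπe (by norm_num) hS2' f hf (c S)
    hvS hfixS
  obtain ⟨wU, hwU, hwUΦ⟩ := k5l_lift π (U⁻¹ : SL(2, ℤ)) 3 hπ hπe (by norm_num) hU3' f hf (c U)
    hvU hfixU
  have hwS' : wS + rho S wS = 0 := by
    funext x'
    have := hwS x'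
    rw [Finset.sum_range_succ, Finset.sum_range_one, pow_zero, one_smul, pow_one] at this
    simp only [Pi.add_apply, rho_apply, Pi.zero_apply]
    exact this
  have hwU' : wU + rho U wU + rho U (rho U wU) = 0 := by
    funext x'
    have := hwU x'
    rw [Finset.sum_range_succ, Finset.sum_range_succ, Finset.sum_range_one, pow_zero, one_smul,
      pow_one, pow_two, mul_smul] at this
    simp only [Pi.add_apply, rho_apply, Pi.zero_apply]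
    exact this
  have hρneg : rhoHom SL(2, ℤ) X' A (-1) = 1 := by
    ext v x'
    show rho (-1 : SL(2, ℤ)) v x' = v x'
    rw [k5l_rho_neg_one hneg']
  obtain ⟨c', hc', hc'S, hc'U⟩ :=
    stmtCocExt (X' → A) (rhoHom SL(2, ℤ) X' A) hρneg wS wU hwS' hwU'
  have hc'coc : IsCoc c' := fun g h => hc' g h
  refine ⟨c', hc'coc, ?_⟩
  have hΦ : IsCoc (fun g => k5l_Phi π f (c' g)) := k5l_isCoc_Phi π f hπe hc'coc
  have heq : (fun g => k5l_Phi π f (c' g)) = c := by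
    apply Fermat.Agent.S41.PD.IsCoc.ext_SU hΦ hc
    · show k5l_Phi π f (c' S) = c S
      rw [hc'S]
      funext x
      exact hwSΦ x
    · show k5l_Phi π f (c' U) = c U
      rw [hc'U]
      funext x
      exact hwUΦ x
  intro g
  exact congrFun heq g

end main

end Fermat.Agent.RT.K5

end


end ZBRT_028_1

/-! ### bundled: `Fermat.Agent.RT.K5.CoresSurj` -/
section ZBRT_028_2
/-
RT-K5, piece K5-S (helper22): `cores : Hom(Γ', A) → Hom(Γ, A)` is onto.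
(Shapiro + cocycle lifting `k5l_coc` along `SL(2, ℤ) ⧸ Γ' → SL(2, ℤ) ⧸ Γ`.)
-/

set_option autoImplicit false
set_option linter.unusedSectionVars false
set_option linter.unusedVariables false
set_option linter.style.haveILetI false

noncomputable section

namespace Fermat.Agent.RT.K5

open Classical
open CongruenceSubgroup Matrix
open scoped MatrixGroups
open Fermat.Agent.ES1 (gammaH diamHom pmH)
open Fermat.Agent.S41.PD (rho IsCoc U Represents push)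

section general

variable {Γ' Γ : Subgroup SL(2, ℤ)}

theorem k5s_proj_surjective (hle : Γ' ≤ Γ) :
    Function.Surjective (Subgroup.quotientMapOfLE hle) := by
  intro q
  induction q using QuotientGroup.induction_on with
  | H g => exact ⟨(g : SL(2, ℤ) ⧸ Γ'), rfl⟩

theorem k5s_U_smul_ne (hU : ∀ g : SL(2, ℤ), g⁻¹ * U * g ∉ Γ) (x : SL(2, ℤ) ⧸ Γ) : U • x ≠ x := by
  induction x using QuotientGroup.induction_on with
  | H g =>
    intro h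
    have h1 : (((U * g : SL(2, ℤ))) : SL(2, ℤ) ⧸ Γ) = (g : SL(2, ℤ) ⧸ Γ) := h
    rw [QuotientGroup.eq] at h1
    apply hU g
    have h2 := inv_mem h1
    have h3 : ((U * g)⁻¹ * g)⁻¹ = g⁻¹ * U * g := by group
    rw [h3] at h2
    exact h2

/-- **cores is onto** (general form) -/
theorem k5s_cores_surj (hle : Γ' ≤ Γ) [Γ'.FiniteIndex]
    [(Subgroup.inclusion hle).range.FiniteIndex] (hneg : (-1 : SL(2, ℤ)) ∈ Γ')
    (A : Type) [AddCommGroup A] (h2 : ∀ a : A, 2 • a = 0 → a = 0)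
    (h3 : (∀ a : A, 3 • a = 0 → a = 0) ∨ ∀ g : SL(2, ℤ), g⁻¹ * U * g ∉ Γ)
    (φ : HomS Γ A) : ∃ ψ : HomS Γ' A, coresS A hle ψ = φ := by
  letI : Fintype (SL(2, ℤ) ⧸ Γ') := Subgroup.fintypeQuotientOfFiniteIndex
  obtain ⟨c, hc⟩ := Fermat.Agent.S41.PD.exists_represents (Γ := Γ) φ
  have h3' : (∀ a : A, 3 • a = 0 → a = 0) ∨ ∀ x : SL(2, ℤ) ⧸ Γ, U • x ≠ x := by
    rcases h3 with h3 | h3
    · exact Or.inl h3
    · exact Or.inr (k5s_U_smul_ne h3)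
  obtain ⟨c', hc', hΦ⟩ := k5l_coc (Subgroup.quotientMapOfLE hle) (AddMonoidHom.id A)
    (k5s_proj_surjective hle) (fun g x' => Fermat.Agent.S41.PD.proj_smul hle g x')
    (fun x' => Fermat.Agent.S41.PD.neg_one_smul_eq hneg x') (fun a => ⟨a, rfl⟩) h2 h3' c hc.1
  obtain ⟨ψ, hψ⟩ := hc'.exists_represents (Γ := Γ')
  refine ⟨ψ, ?_⟩
  have hmem : ∀ γ : Γ, γ ∈ (Subgroup.inclusion hle).range ↔ (γ : SL(2, ℤ)) ∈ Γ' := by
    intro γ
    constructor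
    · rintro ⟨y, rfl⟩
      exact y.2
    · intro hx
      exact ⟨⟨γ, hx⟩, Subtype.ext rfl⟩
  have hrep := Fermat.Agent.S41.PD.represents_transferAlong hle (Subgroup.inclusion hle)
    (Subgroup.inclusion_injective hle) hmem (A := A) ψ ψ (fun h hh => rfl) hψ
  have hpush : (fun g => push hle (c' g)) = c := by
    funext g
    rw [← hΦ g]
    funext x
    unfold push k5l_Phi
    refine Finset.sum_congr ?_ (fun _ _ => rfl)
    ext q₁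
    simp only [Finset.mem_filter, Finset.mem_univ, true_and]
  rw [hpush] at hrep
  exact Fermat.Agent.S41.PD.Represents.unique hrep hc

end general

/-- **K5-S.** -/
theorem stmtCoresSurj : StmtCoresSurj := by
  intro L M _ _ H' H hle A _ hNT φ
  exact k5s_cores_surj (Fermat.Agent.ES1.gammaH_mono hle)
    (Fermat.Agent.ES1.neg_one_mem_gammaH L M H') A hNT.1 hNT.2 φ

end Fermat.Agent.RT.K5

end


end ZBRT_028_2

/-! ### bundled: `Fermat.Agent.RT.K5.Free` -/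
section ZBRT_028_3

/-!
# RT-K5, piece FREE: `#W(Γ') = #W(Γ)^[Γ:Γ']`, `res : W(Γ) ≅ W(Γ')^Γ`

Induction on `k` (`[±H : ±H'] = p^k`) by steps of order `p` (`k5f_exists_mid`), each step by
`stmtStep` and the counting lemma `k5f_card_abs`.
-/

set_option autoImplicit false
set_option linter.style.haveILetI false
set_option linter.unusedSectionVars false
set_option linter.unusedVariables false

noncomputable section

namespace Fermat.Agent.RT.K5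

open CongruenceSubgroup Matrix
open scoped MatrixGroups
open Fermat.Agent.ES1 (gammaH diamHom pmH)

theorem stmtStep : StmtStep := stmtStep_of stmtCoresSurj

theorem k5f_noTors_mono {Γ₁ Γ : Subgroup SL(2, ℤ)} (h : Γ₁ ≤ Γ) {A : Type*} [AddCommGroup A]
    (hNT : NoTors Γ A) : NoTors Γ₁ A :=
  ⟨hNT.1, hNT.2.imp id fun h3 g hg => h3 g (h hg)⟩

section

variable {L M : ℕ} [NeZero L] [hML : Fact (M ∣ L)]

theorem k5f_diam_one {H' : Subgroup (ZMod M)ˣ} {A : Type*} [AddCommGroup A]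
    (ψ : HomS (gammaH L M H') A) :
    diamS H' A (1 : SL(2, ℤ)) (one_mem _) (one_mem _) ψ = ψ := by
  refine AddMonoidHom.ext fun γ => ?_
  obtain ⟨γ, rfl⟩ : ∃ γ' : gammaH L M H', Additive.ofMul γ' = γ := ⟨Additive.toMul γ, rfl⟩
  show ψ (Additive.ofMul ⟨(1 : SL(2, ℤ))⁻¹ * γ * 1, _⟩) = ψ (Additive.ofMul γ)
  congr 2
  apply Subtype.ext
  simp

/-- `res` of a homomorphism on `Γ ∋ g` is invariant under `g` -/
theorem k5f_diam_res {H' H : Subgroup (ZMod M)ˣ} (hle : H' ≤ H) {A : Type*} [AddCommGroup A]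
    (g : SL(2, ℤ)) (hg : g ∈ gammaH L M H) (φ : HomS (gammaH L M H) A) :
    diamS H' A g hg.1 hg.2.1 (resS A (Fermat.Agent.ES1.gammaH_mono hle) φ)
      = resS A (Fermat.Agent.ES1.gammaH_mono hle) φ := by
  refine AddMonoidHom.ext fun γ => ?_
  obtain ⟨γ, rfl⟩ : ∃ γ' : gammaH L M H', Additive.ofMul γ' = γ := ⟨Additive.toMul γ, rfl⟩
  show φ (Additive.ofMul ⟨g⁻¹ * γ * g, _⟩) = φ (Additive.ofMul ⟨γ, _⟩)
  have e : (⟨g⁻¹ * γ * g, Fermat.Agent.ES1.gammaH_mono hle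
      (normalizes_gammaH hg.1 hg.2.1 γ γ.2)⟩ : gammaH L M H)
      = (⟨g, hg⟩ : gammaH L M H)⁻¹ * ⟨γ, Fermat.Agent.ES1.gammaH_mono hle γ.2⟩ * ⟨g, hg⟩ := rfl
  rw [e, ofMul_mul, ofMul_mul, ofMul_inv, map_add, map_add, map_neg]
  abel

/-- `res` commutes with the diamond action -/
theorem k5f_res_diam {H' H : Subgroup (ZMod M)ˣ} (hle : H' ≤ H) {A : Type*} [AddCommGroup A]
    (g : SL(2, ℤ)) (hgL : g ∈ Gamma0 L) (hgM : g ∈ Gamma0 M) (φ : HomS (gammaH L M H) A) :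
    resS A (Fermat.Agent.ES1.gammaH_mono hle) (diamS H A g hgL hgM φ)
      = diamS H' A g hgL hgM (resS A (Fermat.Agent.ES1.gammaH_mono hle) φ) := by
  refine AddMonoidHom.ext fun γ => ?_
  obtain ⟨γ, rfl⟩ : ∃ γ' : gammaH L M H', Additive.ofMul γ' = γ := ⟨Additive.toMul γ, rfl⟩
  rfl

end

/-- the diamond action preserves the `η`-part -/
theorem k5f_diam_mem (L M ℓ₀ : ℕ) [NeZero L] [NeZero ℓ₀] [hML : Fact (M ∣ L)]
    (H' : Subgroup (ZMod M)ˣ) (F : Type) [AddCommGroup F] (hℓ : ℓ₀.Prime) (hℓL : ¬ ℓ₀ ∣ L)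
    (g : SL(2, ℤ)) (hgL : g ∈ Gamma0 L) (hgM : g ∈ Gamma0 M)
    {ψ : HomS (gammaH L M H') F} (hψ : ψ ∈ etaPart (etaS L M ℓ₀ H' F)) :
    diamS H' F g hgL hgM ψ ∈ etaPart (etaS L M ℓ₀ H' F) := by
  refine k5s_intertwine_mem (etaS L M ℓ₀ H' F) (etaS L M ℓ₀ H' F) (diamS H' F g hgL hgM) ?_ hψ
  intro x
  have c3 := (stmtComm L M ℓ₀ H' H' le_rfl F hℓ hℓL).2.2 g hgL hgM x
  show diamS H' F g hgL hgM (tS L M ℓ₀ H' F x - (ℓ₀ + 1) • x)
    = tS L M ℓ₀ H' F (diamS H' F g hgL hgM x) - (ℓ₀ + 1) • diamS H' F g hgL hgM x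
  rw [map_sub, map_nsmul, c3]

/-- the conclusion of `StmtFree` for a pair `H' ≤ H` and an exponent `n` -/
def k5f_Concl (L M ℓ₀ : ℕ) [NeZero L] [NeZero ℓ₀] [Fact (M ∣ L)]
    (H' H : Subgroup (ZMod M)ˣ) (hle : H' ≤ H) (F : Type) [AddCommGroup F] (n : ℕ) : Prop :=
  Nat.card ↥(etaPart (etaS L M ℓ₀ H' F)) = Nat.card ↥(etaPart (etaS L M ℓ₀ H F)) ^ n ∧
    (∀ φ ∈ etaPart (etaS L M ℓ₀ H F),
        resS F (Fermat.Agent.ES1.gammaH_mono hle) φ ∈ etaPart (etaS L M ℓ₀ H' F) ∧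
        (resS F (Fermat.Agent.ES1.gammaH_mono hle) φ = 0 → φ = 0)) ∧
    (∀ ψ ∈ etaPart (etaS L M ℓ₀ H' F), IsInv H' H ψ →
        ∃ φ ∈ etaPart (etaS L M ℓ₀ H F), resS F (Fermat.Agent.ES1.gammaH_mono hle) φ = ψ)

/-- one step: from the conclusions of `StmtStep` with a generator of order `m = p^k` (`k ≤ 1`) -/
theorem k5f_one_step (p : ℕ) [Fact p.Prime] (L M ℓ₀ : ℕ) [NeZero L] [NeZero ℓ₀]
    [hML : Fact (M ∣ L)] (H' H : Subgroup (ZMod M)ˣ) (hle : H' ≤ H) (F : Type) [Field F]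
    [CharP F p] [Finite F] (hp2 : p ≠ 2) (hℓ : ℓ₀.Prime) (hℓL : ¬ ℓ₀ ∣ L)
    (hNT : NoTors (gammaH L M H) F) (k : ℕ) (hk : k ≤ 1)
    (g₀ : SL(2, ℤ)) (hg₀ : g₀ ∈ gammaH L M H)
    (hgen : ∀ γ ∈ gammaH L M H, ∃ j : ℕ, γ * g₀ ^ j ∈ gammaH L M H')
    (hord : ∀ j : ℤ, g₀ ^ j ∈ gammaH L M H' ↔ ((p ^ k : ℕ) : ℤ) ∣ j) :
    k5f_Concl L M ℓ₀ H' H hle F (p ^ k) := by
  haveI : Finite (HomS (gammaH L M H) F) := k5s_finite_homS _ F
  haveI : Finite (HomS (gammaH L M H') F) := k5s_finite_homS _ F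
  obtain ⟨ha, hb⟩ := stmtStep p L M ℓ₀ H' H hle F hp2 hℓ hℓL hNT k g₀ hg₀ hgen hord
  have hinvg : ∀ ψ : HomS (gammaH L M H') F, IsInv H' H ψ →
      diamS H' F g₀ hg₀.1 hg₀.2.1 ψ = ψ := fun ψ h => h g₀ hg₀
  refine ⟨?_, ha, fun ψ hψ hinv => (hb ψ hψ (hinvg ψ hinv)).1⟩
  -- the count
  have hbij : Nat.card {w : HomS (gammaH L M H') F // w ∈ etaPart (etaS L M ℓ₀ H' F) ∧
      diamS H' F g₀ hg₀.1 hg₀.2.1 w = w} = Nat.card ↥(etaPart (etaS L M ℓ₀ H F)) := by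
    symm
    refine Nat.card_congr (Equiv.ofBijective
      (fun φ : ↥(etaPart (etaS L M ℓ₀ H F)) =>
        (⟨resS F (Fermat.Agent.ES1.gammaH_mono hle) φ, (ha φ φ.2).1,
          k5f_diam_res hle g₀ hg₀ (φ : HomS (gammaH L M H) F)⟩ :
          {w : HomS (gammaH L M H') F // w ∈ etaPart (etaS L M ℓ₀ H' F) ∧
            diamS H' F g₀ hg₀.1 hg₀.2.1 w = w})) ⟨?_, ?_⟩)
    · intro φ φ' h
      have h1 : resS F (Fermat.Agent.ES1.gammaH_mono hle) (φ : HomS (gammaH L M H) F)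
          = resS F (Fermat.Agent.ES1.gammaH_mono hle) (φ' : HomS (gammaH L M H) F) :=
        congrArg Subtype.val h
      have h2 : resS F (Fermat.Agent.ES1.gammaH_mono hle)
          ((φ : HomS (gammaH L M H) F) - (φ' : HomS (gammaH L M H) F)) = 0 := by
        rw [map_sub, h1, sub_self]
      have h3 := (ha _ ((etaPart (etaS L M ℓ₀ H F)).sub_mem φ.2 φ'.2)).2 h2
      exact Subtype.ext (sub_eq_zero.mp h3)
    · rintro ⟨w, hw, hδ⟩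
      obtain ⟨φ, hφ, e⟩ := (hb w hw hδ).1
      exact ⟨⟨φ, hφ⟩, Subtype.ext e⟩
  rcases Nat.eq_zero_or_pos k with hk0 | hkpos
  · subst hk0
    rw [pow_zero, pow_one, ← hbij]
    refine Nat.card_congr
      { toFun := fun w => ⟨w.1, w.2, ?_⟩
        invFun := fun w => ⟨w.1, w.2.1⟩
        left_inv := fun w => rfl
        right_inv := fun w => rfl }
    -- `Γ = Γ'`: every `ψ` is invariant under `g₀ ∈ Γ'`
    have hg1 : g₀ ∈ gammaH L M H' := by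
      have := (hord 1).mpr (by simp)
      simpa using this
    refine AddMonoidHom.ext fun γ => ?_
    obtain ⟨γ, rfl⟩ : ∃ γ' : gammaH L M H', Additive.ofMul γ' = γ := ⟨Additive.toMul γ, rfl⟩
    show (w : HomS (gammaH L M H') F) (Additive.ofMul ⟨g₀⁻¹ * γ * g₀, _⟩) = _
    have e : (⟨g₀⁻¹ * γ * g₀, normalizes_gammaH hg₀.1 hg₀.2.1 γ γ.2⟩ : gammaH L M H')
        = (⟨g₀, hg1⟩ : gammaH L M H')⁻¹ * γ * ⟨g₀, hg1⟩ := rfl
    rw [e, ofMul_mul, ofMul_mul, ofMul_inv, map_add, map_add, map_neg]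
    abel
  · have hk1 : k = 1 := le_antisymm hk hkpos
    subst hk1
    rw [pow_one] at hord ⊢
    rw [← hbij]
    refine k5f_card_abs p (k5s_ptors p _ F) (etaPart (etaS L M ℓ₀ H' F))
      (diamS H' F g₀ hg₀.1 hg₀.2.1) ?_ ?_ ?_
    · intro w hw
      exact k5f_diam_mem L M ℓ₀ H' F hℓ hℓL g₀ hg₀.1 hg₀.2.1 hw
    · intro w _
      -- `δ^p = 1`
      have hgp : g₀ ^ p ∈ gammaH L M H' := by
        have := (hord (p : ℤ)).mpr dvd_rfl
        rwa [zpow_natCast] at this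
      refine AddMonoidHom.ext fun γ => ?_
      obtain ⟨γ, rfl⟩ : ∃ γ' : gammaH L M H', Additive.ofMul γ' = γ := ⟨Additive.toMul γ, rfl⟩
      have hmem : (g₀ ^ p)⁻¹ * (γ : SL(2, ℤ)) * g₀ ^ p ∈ gammaH L M H' :=
        mul_mem (mul_mem (inv_mem hgp) γ.2) hgp
      have h1 := k5rc_diam_pow (H' := H') g₀ hg₀.1 hg₀.2.1 p w γ hmem
      refine h1.trans ?_
      have e : (⟨(g₀ ^ p)⁻¹ * (γ : SL(2, ℤ)) * g₀ ^ p, hmem⟩ : gammaH L M H')
          = (⟨g₀ ^ p, hgp⟩ : gammaH L M H')⁻¹ * γ * ⟨g₀ ^ p, hgp⟩ := rfl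
      rw [e, ofMul_mul, ofMul_mul, ofMul_inv, map_add, map_add, map_neg]
      abel
    · intro w hw hδ
      obtain ⟨v, hv, hve⟩ := (hb w hw hδ).2
      refine ⟨v, hv, ?_⟩
      rw [hve, pow_one]
      rfl

/-- composition of two steps -/
theorem k5f_comp (L M ℓ₀ : ℕ) [NeZero L] [NeZero ℓ₀] [hML : Fact (M ∣ L)]
    (H' H₁ H : Subgroup (ZMod M)ˣ) (h1 : H' ≤ H₁) (h2 : H₁ ≤ H) (F : Type) [AddCommGroup F]
    (hℓ : ℓ₀.Prime) (hℓL : ¬ ℓ₀ ∣ L) (n₁ n₂ : ℕ)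
    (c1 : k5f_Concl L M ℓ₀ H' H₁ h1 F n₁) (c2 : k5f_Concl L M ℓ₀ H₁ H h2 F n₂) :
    k5f_Concl L M ℓ₀ H' H (h1.trans h2) F (n₂ * n₁) := by
  obtain ⟨a1, b1, d1⟩ := c1
  obtain ⟨a2, b2, d2⟩ := c2
  have hres : ∀ φ : HomS (gammaH L M H) F,
      resS F (Fermat.Agent.ES1.gammaH_mono (h1.trans h2)) φ
        = resS F (Fermat.Agent.ES1.gammaH_mono h1) (resS F (Fermat.Agent.ES1.gammaH_mono h2) φ) :=
    fun φ => rfl
  refine ⟨by rw [a1, a2, pow_mul], ?_, ?_⟩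
  · intro φ hφ
    rw [hres]
    obtain ⟨m2, i2⟩ := b2 φ hφ
    obtain ⟨m1, i1⟩ := b1 _ m2
    exact ⟨m1, fun h0 => i2 (i1 h0)⟩
  · intro ψ hψ hinv
    have hinv1 : IsInv H' H₁ ψ := fun g hg => hinv g (Fermat.Agent.ES1.gammaH_mono h2 hg)
    obtain ⟨φ₁, hφ₁, e1⟩ := d1 ψ hψ hinv1
    have hinv2 : IsInv H₁ H φ₁ := by
      intro g hg
      have hm := k5f_diam_mem L M ℓ₀ H₁ F hℓ hℓL g hg.1 hg.2.1 hφ₁
      have hsub := (etaPart (etaS L M ℓ₀ H₁ F)).sub_mem hm hφ₁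
      have h0 : resS F (Fermat.Agent.ES1.gammaH_mono h1)
          (diamS H₁ F g hg.1 hg.2.1 φ₁ - φ₁) = 0 := by
        rw [map_sub, k5f_res_diam h1 g hg.1 hg.2.1 φ₁, e1, hinv g hg, sub_self]
      exact sub_eq_zero.mp ((b1 _ hsub).2 h0)
    obtain ⟨φ, hφ, e2⟩ := d2 φ₁ hφ₁ hinv2
    exact ⟨φ, hφ, by rw [hres, e2, e1]⟩

theorem k5e_diam_zpow {M : ℕ} (a : SL(2, ℤ)) (ha : a ∈ Gamma0 M) (j : ℤ)
    (ha' : a ^ j ∈ Gamma0 M) :
    diamHom M ⟨a ^ j, ha'⟩ = (diamHom M ⟨a, ha⟩) ^ j := by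
  have : (⟨a ^ j, ha'⟩ : Gamma0 M) = (⟨a, ha⟩ : Gamma0 M) ^ j := by
    apply Subtype.ext; simp
  rw [this, map_zpow]

theorem k5f_main (p : ℕ) [Fact p.Prime] (L M ℓ₀ : ℕ) [NeZero L] [NeZero ℓ₀]
    [hML : Fact (M ∣ L)] (H : Subgroup (ZMod M)ˣ) (F : Type) [Field F]
    [CharP F p] [Finite F] (hp2 : p ≠ 2) (hℓ : ℓ₀.Prime) (hℓL : ¬ ℓ₀ ∣ L)
    (hNT : NoTors (gammaH L M H) F) :
    ∀ (k : ℕ) (H' : Subgroup (ZMod M)ˣ) (hle : H' ≤ H),
      ((pmH H').subgroupOf (pmH H)).index = p ^ k → k5f_Concl L M ℓ₀ H' H hle F (p ^ k) := by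
  haveI : NeZero M := ⟨fun h0 => by
    have h1 : M ∣ L := hML.out
    rw [h0, zero_dvd_iff] at h1
    exact NeZero.ne L h1⟩
  intro k
  induction k with
  | zero =>
    intro H' hle hidx
    rw [pow_zero] at hidx
    have hPP : pmH H ≤ pmH H' := Subgroup.relIndex_eq_one.mp hidx
    refine k5f_one_step p L M ℓ₀ H' H hle F hp2 hℓ hℓL hNT 0 (Nat.zero_le 1) 1 (one_mem _) ?_ ?_
    · intro γ hγ
      exact ⟨0, by
        rw [pow_zero, mul_one]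
        exact ⟨hγ.1, hγ.2.1, hPP hγ.2.2⟩⟩
    · intro j
      simp
  | succ k ih =>
    intro H' hle hidx
    obtain ⟨u, hu, hord, hgen, hidx₁⟩ := k5f_exists_mid p H' H hle k hidx
    have h1 : H' ≤ H' ⊔ Subgroup.zpowers u := le_sup_left
    have h2 : H' ⊔ Subgroup.zpowers u ≤ H := sup_le hle ((Subgroup.zpowers_le).mpr hu)
    obtain ⟨g₀, hgL, hgM, hgd, -⟩ := stmtGen L M 1 (Nat.coprime_one_left L) u
    have hg₀ : g₀ ∈ gammaH L M (H' ⊔ Subgroup.zpowers u) :=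
      ⟨hgL, hgM, by
        rw [hgd]
        exact Fermat.Agent.ES1.le_pmH _ (le_sup_right (a := H') (Subgroup.mem_zpowers u))⟩
    have c1 : k5f_Concl L M ℓ₀ H' (H' ⊔ Subgroup.zpowers u) h1 F (p ^ 1) := by
      refine k5f_one_step p L M ℓ₀ H' _ h1 F hp2 hℓ hℓL
        (k5f_noTors_mono (Fermat.Agent.ES1.gammaH_mono h2) hNT) 1 le_rfl g₀ hg₀ ?_ ?_
      · intro γ hγ
        obtain ⟨j, hj⟩ := hgen _ hγ.2.2
        refine ⟨j, mul_mem hγ.1 (pow_mem hgL j), mul_mem hγ.2.1 (pow_mem hgM j), ?_⟩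
        rw [k5e_diam_mul _ _ hγ.2.1 (pow_mem hgM j), k5e_diam_pow _ hgM, hgd]
        exact hj
      · intro j
        rw [pow_one, ← hord j]
        constructor
        · intro h
          have := h.2.2
          rwa [k5e_diam_zpow _ hgM, hgd] at this
        · intro h
          refine ⟨Subgroup.zpow_mem _ hgL j, Subgroup.zpow_mem _ hgM j, ?_⟩
          rw [k5e_diam_zpow _ hgM, hgd]
          exact h
    have c2 := ih (H' ⊔ Subgroup.zpowers u) h2 hidx₁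
    have := k5f_comp L M ℓ₀ H' _ H h1 h2 F hℓ hℓL (p ^ 1) (p ^ k) c1 c2
    rw [pow_one, ← pow_succ] at this
    exact this

theorem stmtFree : StmtFree := by
  intro p _ L M ℓ₀ _ _ hML H' H hle F _ _ _ hp2 hℓ hℓL hNT k hidx
  exact k5f_main p L M ℓ₀ H F hp2 hℓ hℓL hNT k H' hle hidx

end Fermat.Agent.RT.K5

end
end ZBRT_028_3

/-! ### bundled: `Fermat.Agent.RT.K5.FreeGen` -/
section ZBRT_028_4

/-!
# RT-K5, FREE for a general Hecke summand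

`CompatFam L M A`: a family of operators `𝔲_K` on `Hom(Γ_K(L), A)` (all `K ≤ (ℤ/M)ˣ`) commuting
with `res`, `cores` and the diamonds.  For `Θ_K = 𝔲_K ∘ (T_ℓ₀ − ℓ₀ − 1)` the `Θ`-bijective parts
satisfy the conclusions of `StmtFree` (`k5g_main`).  Every Hecke-stable summand of the
non-Eisenstein part is of this form (e.g. a generalised eigenspace of a system of eigenvalues).
-/

set_option autoImplicit false
set_option linter.style.haveILetI false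
set_option linter.unusedSectionVars false
set_option linter.unusedVariables false

noncomputable section

namespace Fermat.Agent.RT.K5

open CongruenceSubgroup Matrix
open scoped MatrixGroups
open Fermat.Agent.ES1 (gammaH diamHom pmH)

/-- a family of operators on all levels `Γ_K(L)` compatible with `res`, `cores`, diamonds -/
structure CompatFam (L M : ℕ) [NeZero L] [Fact (M ∣ L)] (A : Type) [AddCommGroup A] where
  /-- the operator at level `K` -/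
  op : ∀ K : Subgroup (ZMod M)ˣ, HomS (gammaH L M K) A →+ HomS (gammaH L M K) A
  res_comm : ∀ (K' K : Subgroup (ZMod M)ˣ) (h : K' ≤ K) (φ : HomS (gammaH L M K) A),
    resS A (Fermat.Agent.ES1.gammaH_mono h) (op K φ)
      = op K' (resS A (Fermat.Agent.ES1.gammaH_mono h) φ)
  cores_comm : ∀ (K' K : Subgroup (ZMod M)ˣ) (h : K' ≤ K) (ψ : HomS (gammaH L M K') A),
    coresS A (Fermat.Agent.ES1.gammaH_mono h) (op K' ψ)
      = op K (coresS A (Fermat.Agent.ES1.gammaH_mono h) ψ)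
  diam_comm : ∀ (K : Subgroup (ZMod M)ˣ) (g : SL(2, ℤ)) (hgL : g ∈ Gamma0 L) (hgM : g ∈ Gamma0 M)
    (ψ : HomS (gammaH L M K) A),
    diamS K A g hgL hgM (op K ψ) = op K (diamS K A g hgL hgM ψ)

/-- `Θ_K = 𝔲_K ∘ (T_ℓ₀ − ℓ₀ − 1)` -/
def thetaS {L M : ℕ} [NeZero L] [Fact (M ∣ L)] {A : Type} [AddCommGroup A]
    (𝔲 : CompatFam L M A) (ℓ₀ : ℕ) [NeZero ℓ₀] (K : Subgroup (ZMod M)ˣ) :
    HomS (gammaH L M K) A →+ HomS (gammaH L M K) A :=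
  (𝔲.op K).comp (etaS L M ℓ₀ K A)

/-- the trivial family -/
def CompatFam.one (L M : ℕ) [NeZero L] [Fact (M ∣ L)] (A : Type) [AddCommGroup A] :
    CompatFam L M A where
  op _ := AddMonoidHom.id _
  res_comm _ _ _ _ := rfl
  cores_comm _ _ _ _ := rfl
  diam_comm _ _ _ _ _ := rfl

/-- composition of families -/
def CompatFam.comp {L M : ℕ} [NeZero L] [Fact (M ∣ L)] {A : Type} [AddCommGroup A]
    (𝔲 𝔳 : CompatFam L M A) : CompatFam L M A where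
  op K := (𝔲.op K).comp (𝔳.op K)
  res_comm K' K h φ := by
    show resS A (Fermat.Agent.ES1.gammaH_mono h) (𝔲.op K (𝔳.op K φ))
      = 𝔲.op K' (𝔳.op K' (resS A (Fermat.Agent.ES1.gammaH_mono h) φ))
    rw [𝔲.res_comm K' K h, 𝔳.res_comm K' K h]
  cores_comm K' K h ψ := by
    show coresS A (Fermat.Agent.ES1.gammaH_mono h) (𝔲.op K' (𝔳.op K' ψ))
      = 𝔲.op K (𝔳.op K (coresS A (Fermat.Agent.ES1.gammaH_mono h) ψ))
    rw [𝔲.cores_comm K' K h, 𝔳.cores_comm K' K h]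
  diam_comm K g hgL hgM ψ := by
    show diamS K A g hgL hgM (𝔲.op K (𝔳.op K ψ)) = 𝔲.op K (𝔳.op K (diamS K A g hgL hgM ψ))
    rw [𝔲.diam_comm, 𝔳.diam_comm]

/-- sum of families -/
def CompatFam.add {L M : ℕ} [NeZero L] [Fact (M ∣ L)] {A : Type} [AddCommGroup A]
    (𝔲 𝔳 : CompatFam L M A) : CompatFam L M A where
  op K := 𝔲.op K + 𝔳.op K
  res_comm K' K h φ := by
    show resS A (Fermat.Agent.ES1.gammaH_mono h) (𝔲.op K φ + 𝔳.op K φ)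
      = 𝔲.op K' (resS A (Fermat.Agent.ES1.gammaH_mono h) φ)
        + 𝔳.op K' (resS A (Fermat.Agent.ES1.gammaH_mono h) φ)
    rw [map_add, 𝔲.res_comm K' K h, 𝔳.res_comm K' K h]
  cores_comm K' K h ψ := by
    show coresS A (Fermat.Agent.ES1.gammaH_mono h) (𝔲.op K' ψ + 𝔳.op K' ψ)
      = 𝔲.op K (coresS A (Fermat.Agent.ES1.gammaH_mono h) ψ)
        + 𝔳.op K (coresS A (Fermat.Agent.ES1.gammaH_mono h) ψ)
    rw [map_add, 𝔲.cores_comm K' K h, 𝔳.cores_comm K' K h]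
  diam_comm K g hgL hgM ψ := by
    show diamS K A g hgL hgM (𝔲.op K ψ + 𝔳.op K ψ)
      = 𝔲.op K (diamS K A g hgL hgM ψ) + 𝔳.op K (diamS K A g hgL hgM ψ)
    rw [map_add, 𝔲.diam_comm, 𝔳.diam_comm]

/-- the family induced by an endomorphism of the coefficients (e.g. a scalar) -/
def CompatFam.coeff (L M : ℕ) [NeZero L] [Fact (M ∣ L)] {A : Type} [AddCommGroup A]
    (f : A →+ A) : CompatFam L M A where
  op _ := { toFun := fun φ => f.comp φ, map_zero' := by simp, map_add' := fun _ _ => by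
              ext; simp }
  res_comm _ _ _ _ := rfl
  cores_comm K' K h ψ := by
    show S41.transferAlong A _ _ (f.comp ψ) = f.comp (S41.transferAlong A _ _ ψ)
    exact S41.transferAlong_natural _ _ A f ψ
  diam_comm _ _ _ _ _ := rfl

/-- the Hecke operators `T_ℓ`, `ℓ ∤ L` -/
def CompatFam.hecke (L M ℓ : ℕ) [NeZero L] [NeZero ℓ] [Fact (M ∣ L)] (A : Type) [AddCommGroup A]
    (hℓ : ℓ.Prime) (hℓL : ¬ ℓ ∣ L) : CompatFam L M A where
  op K := tS L M ℓ K A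
  res_comm K' K h φ := (stmtComm L M ℓ K' K h A hℓ hℓL).1 φ
  cores_comm K' K h ψ := (stmtComm L M ℓ K' K h A hℓ hℓL).2.1 ψ
  diam_comm K g hgL hgM ψ := (stmtComm L M ℓ K K le_rfl A hℓ hℓL).2.2 g hgL hgM ψ

/-- the `Θ`-part is stable under the diamonds -/
theorem k5g_diam_mem (L M ℓ₀ : ℕ) [NeZero L] [NeZero ℓ₀] [hML : Fact (M ∣ L)]
    {F : Type} [AddCommGroup F] (𝔲 : CompatFam L M F)
    (H' : Subgroup (ZMod M)ˣ) (hℓ : ℓ₀.Prime) (hℓL : ¬ ℓ₀ ∣ L)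
    (g : SL(2, ℤ)) (hgL : g ∈ Gamma0 L) (hgM : g ∈ Gamma0 M)
    {ψ : HomS (gammaH L M H') F} (hψ : ψ ∈ etaPart (thetaS 𝔲 ℓ₀ H')) :
    diamS H' F g hgL hgM ψ ∈ etaPart (thetaS 𝔲 ℓ₀ H') := by
  refine k5s_intertwine_mem (thetaS 𝔲 ℓ₀ H') (thetaS 𝔲 ℓ₀ H') (diamS H' F g hgL hgM) ?_ hψ
  intro x
  have c3 := (stmtComm L M ℓ₀ H' H' le_rfl F hℓ hℓL).2.2 g hgL hgM x
  show diamS H' F g hgL hgM (𝔲.op H' (tS L M ℓ₀ H' F x - (ℓ₀ + 1) • x))
    = 𝔲.op H' (tS L M ℓ₀ H' F (diamS H' F g hgL hgM x) - (ℓ₀ + 1) • diamS H' F g hgL hgM x)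
  rw [𝔲.diam_comm, map_sub, map_nsmul, c3]

/-- **the cyclic step for `Θ`** -/
theorem k5g_step (p : ℕ) [Fact p.Prime] (L M ℓ₀ : ℕ) [NeZero L] [NeZero ℓ₀]
    [hML : Fact (M ∣ L)] {F : Type} [Field F] [CharP F p] [Finite F] (𝔲 : CompatFam L M F)
    (H' H : Subgroup (ZMod M)ˣ) (hle : H' ≤ H) (hp2 : p ≠ 2) (hℓ : ℓ₀.Prime) (hℓL : ¬ ℓ₀ ∣ L)
    (hNT : NoTors (gammaH L M H) F) (k : ℕ) (g₀ : SL(2, ℤ)) (hg₀ : g₀ ∈ gammaH L M H)
    (hgen : ∀ γ ∈ gammaH L M H, ∃ j : ℕ, γ * g₀ ^ j ∈ gammaH L M H')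
    (hord : ∀ j : ℤ, g₀ ^ j ∈ gammaH L M H' ↔ ((p ^ k : ℕ) : ℤ) ∣ j) :
    (∀ φ ∈ etaPart (thetaS 𝔲 ℓ₀ H),
        resS F (Fermat.Agent.ES1.gammaH_mono hle) φ ∈ etaPart (thetaS 𝔲 ℓ₀ H') ∧
        (resS F (Fermat.Agent.ES1.gammaH_mono hle) φ = 0 → φ = 0)) ∧
    (∀ ψ ∈ etaPart (thetaS 𝔲 ℓ₀ H'), diamS H' F g₀ hg₀.1 hg₀.2.1 ψ = ψ →
        (∃ φ ∈ etaPart (thetaS 𝔲 ℓ₀ H), resS F (Fermat.Agent.ES1.gammaH_mono hle) φ = ψ) ∧
        ∃ v ∈ etaPart (thetaS 𝔲 ℓ₀ H'), ψ = ∑ i ∈ Finset.range (p ^ k),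
          (((show AddMonoid.End (HomS (gammaH L M H') F) from diamS H' F g₀ hg₀.1 hg₀.2.1) ^ i :
            AddMonoid.End (HomS (gammaH L M H') F)) : _ →+ _) v) := by
  haveI : Finite (HomS (gammaH L M H) F) := k5s_finite_homS _ F
  haveI : Finite (HomS (gammaH L M H') F) := k5s_finite_homS _ F
  have hΓle : gammaH L M H' ≤ gammaH L M H := Fermat.Agent.ES1.gammaH_mono hle
  obtain ⟨c1, c2, c3⟩ := stmtComm L M ℓ₀ H' H hle F hℓ hℓL
  have hpk : 0 < p ^ k := pow_pos (Fact.out : p.Prime).pos k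
  obtain ⟨r1, r2⟩ := stmtResCores L M H' H hle F (p ^ k) g₀ hg₀ hgen hord hpk
  -- the step for `η` gives `h4`
  have h4η : ∀ ψ : HomS (gammaH L M H') F, diamS H' F g₀ hg₀.1 hg₀.2.1 ψ = ψ →
      ∃ φ, resS F hΓle φ = etaS L M ℓ₀ H' F ψ := by
    intro ψ hδ
    rcases Nat.eq_zero_or_pos k with hk0 | hkpos
    · subst hk0
      have hg1 : g₀ ∈ gammaH L M H' := by
        have := (hord 1).mpr (by simp)
        simpa using this
      have hΓ' : gammaH L M H ≤ gammaH L M H' := by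
        intro γ hγ
        obtain ⟨j, hj⟩ := hgen γ hγ
        have : γ = γ * g₀ ^ j * (g₀ ^ j)⁻¹ := by group
        rw [this]
        exact mul_mem hj (inv_mem (pow_mem hg1 j))
      refine ⟨(etaS L M ℓ₀ H' F ψ).comp (MonoidHom.toAdditive (Subgroup.inclusion hΓ')), ?_⟩
      refine AddMonoidHom.ext fun x => ?_
      obtain ⟨x, rfl⟩ : ∃ x' : gammaH L M H', Additive.ofMul x' = x := ⟨Additive.toMul x, rfl⟩
      rfl
    · have hmA : ∀ a : F, (p ^ k) • a = 0 := by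
        intro a
        rw [nsmul_eq_mul]
        have : ((p ^ k : ℕ) : F) = 0 := by
          rw [Nat.cast_pow, CharP.cast_eq_zero, zero_pow (Nat.pos_iff_ne_zero.mp hkpos)]
        rw [this, zero_mul]
      have hinv : IsInv H' H ψ := k5s_isInv_of_gen g₀ hg₀ hgen ψ hδ
      exact stmtE2 L M ℓ₀ H' H hle F hℓ hℓL (p ^ k) g₀ hg₀ hgen hord hpk hmA ψ hinv
  have hη1 : ∀ φ : HomS (gammaH L M H) F,
      resS F hΓle (etaS L M ℓ₀ H F φ) = etaS L M ℓ₀ H' F (resS F hΓle φ) := by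
    intro φ
    show resS F hΓle (tS L M ℓ₀ H F φ - (ℓ₀ + 1) • φ) = tS L M ℓ₀ H' F (resS F hΓle φ)
      - (ℓ₀ + 1) • resS F hΓle φ
    rw [map_sub, map_nsmul, c1]
  have hη2 : ∀ ψ : HomS (gammaH L M H') F,
      coresS F hΓle (etaS L M ℓ₀ H' F ψ) = etaS L M ℓ₀ H F (coresS F hΓle ψ) := by
    intro ψ
    show coresS F hΓle (tS L M ℓ₀ H' F ψ - (ℓ₀ + 1) • ψ) = tS L M ℓ₀ H F (coresS F hΓle ψ)
      - (ℓ₀ + 1) • coresS F hΓle ψ
    rw [map_sub, map_nsmul, c2]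
  have key := k5s_step_abs p (k5s_ptors p _ F) (k5s_ptors p _ F) (thetaS 𝔲 ℓ₀ H)
    (thetaS 𝔲 ℓ₀ H') (resS F hΓle) (coresS F hΓle) (diamS H' F g₀ hg₀.1 hg₀.2.1)
    (∑ i ∈ Finset.range (p ^ k),
      (((show AddMonoid.End (HomS (gammaH L M H') F) from diamS H' F g₀ hg₀.1 hg₀.2.1) ^ i :
        AddMonoid.End (HomS (gammaH L M H') F)) : _ →+ _)) ?_ ?_ ?_ ?_ ?_ ?_
  · obtain ⟨ha, hb⟩ := key
    refine ⟨ha, fun ψ hψ hδ => ?_⟩
    obtain ⟨h1, v, hv, hve⟩ := hb ψ hψ hδ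
    exact ⟨h1, v, hv, hve.trans (AddMonoidHom.finsetSum_apply _ _ _)⟩
  · intro φ
    show resS F hΓle (𝔲.op H (etaS L M ℓ₀ H F φ)) = 𝔲.op H' (etaS L M ℓ₀ H' F (resS F hΓle φ))
    rw [𝔲.res_comm H' H hle, hη1]
  · intro ψ
    show coresS F hΓle (𝔲.op H' (etaS L M ℓ₀ H' F ψ))
      = 𝔲.op H (etaS L M ℓ₀ H F (coresS F hΓle ψ))
    rw [𝔲.cores_comm H' H hle, hη2]
  · intro φ h0
    show 𝔲.op H (tS L M ℓ₀ H F φ - (ℓ₀ + 1) • φ) = 0
    rw [stmtE1 L M ℓ₀ H' H hle F hℓ hℓL φ h0, sub_self, map_zero]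
  · intro ψ hδ
    obtain ⟨φ, hφ⟩ := h4η ψ hδ
    refine ⟨𝔲.op H φ, ?_⟩
    show resS F hΓle (𝔲.op H φ) = 𝔲.op H' (etaS L M ℓ₀ H' F ψ)
    rw [𝔲.res_comm H' H hle, hφ]
  · intro φ
    exact stmtCoresSurj L M H' H hle F hNT φ
  · intro ψ
    rw [r1 ψ, AddMonoidHom.finsetSum_apply]
    rfl

/-- the conclusion of `StmtFree` for a pair `H' ≤ H` and an exponent `n` -/
def k5g_Concl {L M : ℕ} [NeZero L] [Fact (M ∣ L)] {F : Type} [AddCommGroup F]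
    (𝔲 : CompatFam L M F) (ℓ₀ : ℕ) [NeZero ℓ₀]
    (H' H : Subgroup (ZMod M)ˣ) (hle : H' ≤ H) (n : ℕ) : Prop :=
  Nat.card ↥(etaPart (thetaS 𝔲 ℓ₀ H')) = Nat.card ↥(etaPart (thetaS 𝔲 ℓ₀ H)) ^ n ∧
    (∀ φ ∈ etaPart (thetaS 𝔲 ℓ₀ H),
        resS F (Fermat.Agent.ES1.gammaH_mono hle) φ ∈ etaPart (thetaS 𝔲 ℓ₀ H') ∧
        (resS F (Fermat.Agent.ES1.gammaH_mono hle) φ = 0 → φ = 0)) ∧
    (∀ ψ ∈ etaPart (thetaS 𝔲 ℓ₀ H'), IsInv H' H ψ →
        ∃ φ ∈ etaPart (thetaS 𝔲 ℓ₀ H), resS F (Fermat.Agent.ES1.gammaH_mono hle) φ = ψ)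

/-- one step: from the conclusions of `StmtStep` with a generator of order `m = p^k` (`k ≤ 1`) -/
theorem k5g_one_step (p : ℕ) [Fact p.Prime] (L M ℓ₀ : ℕ) [NeZero L] [NeZero ℓ₀]
    [hML : Fact (M ∣ L)] {F : Type} [Field F]
    [CharP F p] [Finite F] (𝔲 : CompatFam L M F) (H' H : Subgroup (ZMod M)ˣ) (hle : H' ≤ H) (hp2 : p ≠ 2) (hℓ : ℓ₀.Prime) (hℓL : ¬ ℓ₀ ∣ L)
    (hNT : NoTors (gammaH L M H) F) (k : ℕ) (hk : k ≤ 1)
    (g₀ : SL(2, ℤ)) (hg₀ : g₀ ∈ gammaH L M H)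
    (hgen : ∀ γ ∈ gammaH L M H, ∃ j : ℕ, γ * g₀ ^ j ∈ gammaH L M H')
    (hord : ∀ j : ℤ, g₀ ^ j ∈ gammaH L M H' ↔ ((p ^ k : ℕ) : ℤ) ∣ j) :
    k5g_Concl 𝔲 ℓ₀ H' H hle (p ^ k) := by
  haveI : Finite (HomS (gammaH L M H) F) := k5s_finite_homS _ F
  haveI : Finite (HomS (gammaH L M H') F) := k5s_finite_homS _ F
  obtain ⟨ha, hb⟩ := k5g_step p L M ℓ₀ 𝔲 H' H hle hp2 hℓ hℓL hNT k g₀ hg₀ hgen hord
  have hinvg : ∀ ψ : HomS (gammaH L M H') F, IsInv H' H ψ →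
      diamS H' F g₀ hg₀.1 hg₀.2.1 ψ = ψ := fun ψ h => h g₀ hg₀
  refine ⟨?_, ha, fun ψ hψ hinv => (hb ψ hψ (hinvg ψ hinv)).1⟩
  -- the count
  have hbij : Nat.card {w : HomS (gammaH L M H') F // w ∈ etaPart (thetaS 𝔲 ℓ₀ H') ∧
      diamS H' F g₀ hg₀.1 hg₀.2.1 w = w} = Nat.card ↥(etaPart (thetaS 𝔲 ℓ₀ H)) := by
    symm
    refine Nat.card_congr (Equiv.ofBijective
      (fun φ : ↥(etaPart (thetaS 𝔲 ℓ₀ H)) =>
        (⟨resS F (Fermat.Agent.ES1.gammaH_mono hle) φ, (ha φ φ.2).1,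
          k5f_diam_res hle g₀ hg₀ (φ : HomS (gammaH L M H) F)⟩ :
          {w : HomS (gammaH L M H') F // w ∈ etaPart (thetaS 𝔲 ℓ₀ H') ∧
            diamS H' F g₀ hg₀.1 hg₀.2.1 w = w})) ⟨?_, ?_⟩)
    · intro φ φ' h
      have h1 : resS F (Fermat.Agent.ES1.gammaH_mono hle) (φ : HomS (gammaH L M H) F)
          = resS F (Fermat.Agent.ES1.gammaH_mono hle) (φ' : HomS (gammaH L M H) F) :=
        congrArg Subtype.val h
      have h2 : resS F (Fermat.Agent.ES1.gammaH_mono hle)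
          ((φ : HomS (gammaH L M H) F) - (φ' : HomS (gammaH L M H) F)) = 0 := by
        rw [map_sub, h1, sub_self]
      have h3 := (ha _ ((etaPart (thetaS 𝔲 ℓ₀ H)).sub_mem φ.2 φ'.2)).2 h2
      exact Subtype.ext (sub_eq_zero.mp h3)
    · rintro ⟨w, hw, hδ⟩
      obtain ⟨φ, hφ, e⟩ := (hb w hw hδ).1
      exact ⟨⟨φ, hφ⟩, Subtype.ext e⟩
  rcases Nat.eq_zero_or_pos k with hk0 | hkpos
  · subst hk0
    rw [pow_zero, pow_one, ← hbij]
    refine Nat.card_congr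
      { toFun := fun w => ⟨w.1, w.2, ?_⟩
        invFun := fun w => ⟨w.1, w.2.1⟩
        left_inv := fun w => rfl
        right_inv := fun w => rfl }
    -- `Γ = Γ'`: every `ψ` is invariant under `g₀ ∈ Γ'`
    have hg1 : g₀ ∈ gammaH L M H' := by
      have := (hord 1).mpr (by simp)
      simpa using this
    refine AddMonoidHom.ext fun γ => ?_
    obtain ⟨γ, rfl⟩ : ∃ γ' : gammaH L M H', Additive.ofMul γ' = γ := ⟨Additive.toMul γ, rfl⟩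
    show (w : HomS (gammaH L M H') F) (Additive.ofMul ⟨g₀⁻¹ * γ * g₀, _⟩) = _
    have e : (⟨g₀⁻¹ * γ * g₀, normalizes_gammaH hg₀.1 hg₀.2.1 γ γ.2⟩ : gammaH L M H')
        = (⟨g₀, hg1⟩ : gammaH L M H')⁻¹ * γ * ⟨g₀, hg1⟩ := rfl
    rw [e, ofMul_mul, ofMul_mul, ofMul_inv, map_add, map_add, map_neg]
    abel
  · have hk1 : k = 1 := le_antisymm hk hkpos
    subst hk1
    rw [pow_one] at hord ⊢
    rw [← hbij]
    refine k5f_card_abs p (k5s_ptors p _ F) (etaPart (thetaS 𝔲 ℓ₀ H'))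
      (diamS H' F g₀ hg₀.1 hg₀.2.1) ?_ ?_ ?_
    · intro w hw
      exact k5g_diam_mem L M ℓ₀ 𝔲 H' hℓ hℓL g₀ hg₀.1 hg₀.2.1 hw
    · intro w _
      -- `δ^p = 1`
      have hgp : g₀ ^ p ∈ gammaH L M H' := by
        have := (hord (p : ℤ)).mpr dvd_rfl
        rwa [zpow_natCast] at this
      refine AddMonoidHom.ext fun γ => ?_
      obtain ⟨γ, rfl⟩ : ∃ γ' : gammaH L M H', Additive.ofMul γ' = γ := ⟨Additive.toMul γ, rfl⟩
      have hmem : (g₀ ^ p)⁻¹ * (γ : SL(2, ℤ)) * g₀ ^ p ∈ gammaH L M H' :=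
        mul_mem (mul_mem (inv_mem hgp) γ.2) hgp
      have h1 := k5rc_diam_pow (H' := H') g₀ hg₀.1 hg₀.2.1 p w γ hmem
      refine h1.trans ?_
      have e : (⟨(g₀ ^ p)⁻¹ * (γ : SL(2, ℤ)) * g₀ ^ p, hmem⟩ : gammaH L M H')
          = (⟨g₀ ^ p, hgp⟩ : gammaH L M H')⁻¹ * γ * ⟨g₀ ^ p, hgp⟩ := rfl
      rw [e, ofMul_mul, ofMul_mul, ofMul_inv, map_add, map_add, map_neg]
      abel
    · intro w hw hδ
      obtain ⟨v, hv, hve⟩ := (hb w hw hδ).2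
      refine ⟨v, hv, ?_⟩
      rw [hve, pow_one]
      rfl

/-- composition of two steps -/
theorem k5g_comp (L M ℓ₀ : ℕ) [NeZero L] [NeZero ℓ₀] [hML : Fact (M ∣ L)]
    {F : Type} [AddCommGroup F] (𝔲 : CompatFam L M F)
    (H' H₁ H : Subgroup (ZMod M)ˣ) (h1 : H' ≤ H₁) (h2 : H₁ ≤ H)
    (hℓ : ℓ₀.Prime) (hℓL : ¬ ℓ₀ ∣ L) (n₁ n₂ : ℕ)
    (c1 : k5g_Concl 𝔲 ℓ₀ H' H₁ h1 n₁) (c2 : k5g_Concl 𝔲 ℓ₀ H₁ H h2 n₂) :
    k5g_Concl 𝔲 ℓ₀ H' H (h1.trans h2) (n₂ * n₁) := by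
  obtain ⟨a1, b1, d1⟩ := c1
  obtain ⟨a2, b2, d2⟩ := c2
  have hres : ∀ φ : HomS (gammaH L M H) F,
      resS F (Fermat.Agent.ES1.gammaH_mono (h1.trans h2)) φ
        = resS F (Fermat.Agent.ES1.gammaH_mono h1) (resS F (Fermat.Agent.ES1.gammaH_mono h2) φ) :=
    fun φ => rfl
  refine ⟨by rw [a1, a2, pow_mul], ?_, ?_⟩
  · intro φ hφ
    rw [hres]
    obtain ⟨m2, i2⟩ := b2 φ hφ
    obtain ⟨m1, i1⟩ := b1 _ m2
    exact ⟨m1, fun h0 => i2 (i1 h0)⟩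
  · intro ψ hψ hinv
    have hinv1 : IsInv H' H₁ ψ := fun g hg => hinv g (Fermat.Agent.ES1.gammaH_mono h2 hg)
    obtain ⟨φ₁, hφ₁, e1⟩ := d1 ψ hψ hinv1
    have hinv2 : IsInv H₁ H φ₁ := by
      intro g hg
      have hm := k5g_diam_mem L M ℓ₀ 𝔲 H₁ hℓ hℓL g hg.1 hg.2.1 hφ₁
      have hsub := (etaPart (thetaS 𝔲 ℓ₀ H₁)).sub_mem hm hφ₁
      have h0 : resS F (Fermat.Agent.ES1.gammaH_mono h1)
          (diamS H₁ F g hg.1 hg.2.1 φ₁ - φ₁) = 0 := by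
        rw [map_sub, k5f_res_diam h1 g hg.1 hg.2.1 φ₁, e1, hinv g hg, sub_self]
      exact sub_eq_zero.mp ((b1 _ hsub).2 h0)
    obtain ⟨φ, hφ, e2⟩ := d2 φ₁ hφ₁ hinv2
    exact ⟨φ, hφ, by rw [hres, e2, e1]⟩

theorem k5g_main (p : ℕ) [Fact p.Prime] (L M ℓ₀ : ℕ) [NeZero L] [NeZero ℓ₀]
    [hML : Fact (M ∣ L)] {F : Type} [Field F]
    [CharP F p] [Finite F] (𝔲 : CompatFam L M F) (H : Subgroup (ZMod M)ˣ) (hp2 : p ≠ 2) (hℓ : ℓ₀.Prime) (hℓL : ¬ ℓ₀ ∣ L)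
    (hNT : NoTors (gammaH L M H) F) :
    ∀ (k : ℕ) (H' : Subgroup (ZMod M)ˣ) (hle : H' ≤ H),
      ((pmH H').subgroupOf (pmH H)).index = p ^ k → k5g_Concl 𝔲 ℓ₀ H' H hle (p ^ k) := by
  haveI : NeZero M := ⟨fun h0 => by
    have h1 : M ∣ L := hML.out
    rw [h0, zero_dvd_iff] at h1
    exact NeZero.ne L h1⟩
  intro k
  induction k with
  | zero =>
    intro H' hle hidx
    rw [pow_zero] at hidx
    have hPP : pmH H ≤ pmH H' := Subgroup.relIndex_eq_one.mp hidx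
    refine k5g_one_step p L M ℓ₀ 𝔲 H' H hle hp2 hℓ hℓL hNT 0 (Nat.zero_le 1) 1 (one_mem _) ?_ ?_
    · intro γ hγ
      exact ⟨0, by
        rw [pow_zero, mul_one]
        exact ⟨hγ.1, hγ.2.1, hPP hγ.2.2⟩⟩
    · intro j
      simp
  | succ k ih =>
    intro H' hle hidx
    obtain ⟨u, hu, hord, hgen, hidx₁⟩ := k5f_exists_mid p H' H hle k hidx
    have h1 : H' ≤ H' ⊔ Subgroup.zpowers u := le_sup_left
    have h2 : H' ⊔ Subgroup.zpowers u ≤ H := sup_le hle ((Subgroup.zpowers_le).mpr hu)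
    obtain ⟨g₀, hgL, hgM, hgd, -⟩ := stmtGen L M 1 (Nat.coprime_one_left L) u
    have hg₀ : g₀ ∈ gammaH L M (H' ⊔ Subgroup.zpowers u) :=
      ⟨hgL, hgM, by
        rw [hgd]
        exact Fermat.Agent.ES1.le_pmH _ (le_sup_right (a := H') (Subgroup.mem_zpowers u))⟩
    have c1 : k5g_Concl 𝔲 ℓ₀ H' (H' ⊔ Subgroup.zpowers u) h1 (p ^ 1) := by
      refine k5g_one_step p L M ℓ₀ 𝔲 H' _ h1 hp2 hℓ hℓL
        (k5f_noTors_mono (Fermat.Agent.ES1.gammaH_mono h2) hNT) 1 le_rfl g₀ hg₀ ?_ ?_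
      · intro γ hγ
        obtain ⟨j, hj⟩ := hgen _ hγ.2.2
        refine ⟨j, mul_mem hγ.1 (pow_mem hgL j), mul_mem hγ.2.1 (pow_mem hgM j), ?_⟩
        rw [k5e_diam_mul _ _ hγ.2.1 (pow_mem hgM j), k5e_diam_pow _ hgM, hgd]
        exact hj
      · intro j
        rw [pow_one, ← hord j]
        constructor
        · intro h
          have := h.2.2
          rwa [k5e_diam_zpow _ hgM, hgd] at this
        · intro h
          refine ⟨Subgroup.zpow_mem _ hgL j, Subgroup.zpow_mem _ hgM j, ?_⟩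
          rw [k5e_diam_zpow _ hgM, hgd]
          exact h
    have c2 := ih (H' ⊔ Subgroup.zpowers u) h2 hidx₁
    have := k5g_comp L M ℓ₀ 𝔲 H' _ H h1 h2 hℓ hℓL (p ^ 1) (p ^ k) c1 c2
    rw [pow_one, ← pow_succ] at this
    exact this


end Fermat.Agent.RT.K5

end
end ZBRT_028_4

/-! ### bundled: `Fermat.Agent.RT.K5.Plan2` -/
section ZBRT_028_5

/-!
# K-machine, piece K5, second interface: `U_q`, the Taylor–Wiles step, coefficients `𝒪`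

Sub-captain helper7, `NOTES/RT-K5.md` (§ Plan2).  Rules as in `Plan.lean`: one `Prop` per piece,
a piece is DONE when `theorem stmt… : Stmt…` is landed in its own file.

* `tS L M ℓ H A = cores_δ ∘ res` makes sense for EVERY `ℓ ≥ 1`; for a prime `q ∣ L` it is `U_q`.
  `tSadj = cores ∘ res_δ` is the adjoint operator.
* K5-UQ1 `StmtCommU`, `StmtCommUAdj` : they commute with `res`, `cores` (change of `H`), diamonds;
* K5-UQ2 `StmtCommTU` : all `tS ℓ` (`ℓ` prime) commute with each other;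
* K5-UQ4 `StmtDegComm` : `tS ℓ'` commutes with the four degeneracy maps at a prime `ℓ ≠ ℓ'`, `ℓ ∤ L`;
* K5-TOPU `StmtTopU` : for `H = ⊤` and `q ∣ L`, `tS q` is `S41.heckeU`;
* K5-NAT `StmtNat` : everything is natural in the coefficient group;
* K5-OF `StmtFitO` : Fitting decomposition over a complete discrete valuation ring.
-/

set_option autoImplicit false

noncomputable section

namespace Fermat.Agent.RT.K5

open CongruenceSubgroup Matrix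
open scoped MatrixGroups
open Fermat.Agent.ES1 (gammaH diamHom pmH)

/-- the adjoint Hecke operator `cores ∘ res_δ` -/
def tSadj (L M ℓ : ℕ) [NeZero L] [NeZero ℓ] [Fact (M ∣ L)] (H : Subgroup (ZMod M)ˣ)
    (A : Type*) [AddCommGroup A] : HomS (gammaH L M H) A →+ HomS (gammaH L M H) A :=
  (coresH L M ℓ H A).comp (resDH L M ℓ H A)

/-- change of coefficients `Hom(Γ, A) → Hom(Γ, B)` -/
def mapS {Γ : Subgroup SL(2, ℤ)} {A B : Type*} [AddCommGroup A] [AddCommGroup B] (f : A →+ B) :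
    HomS Γ A →+ HomS Γ B where
  toFun φ := f.comp φ
  map_zero' := by ext; simp
  map_add' φ ψ := by ext; simp

@[simp] theorem mapS_apply {Γ : Subgroup SL(2, ℤ)} {A B : Type*} [AddCommGroup A]
    [AddCommGroup B] (f : A →+ B) (φ : HomS Γ A) (γ : Additive Γ) : mapS f φ γ = f (φ γ) := rfl

/-! ## K5-UQ : `U_q` as a formal double coset operator -/

/-- **K5-UQ1** `tS ℓ` (any `ℓ ≥ 1`; `U_q` for a prime `q ∣ L`) commutes with `res`, `cores`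
(change of `H`) and with the diamonds.  [As `Comm.lean`, with a generator `g ∈ Γ₀(L ℓ)`,
`ℓ ∣ g₀₁` of given diamond: `stmtGen (L ℓ ℓ) M 1` and `conj_δ`.] -/
def StmtCommU : Prop :=
  ∀ (L M ℓ : ℕ) [NeZero L] [NeZero ℓ] [Fact (M ∣ L)] (H' H : Subgroup (ZMod M)ˣ) (hle : H' ≤ H)
    (A : Type) [AddCommGroup A],
    (∀ φ : HomS (gammaH L M H) A,
      resS A (Fermat.Agent.ES1.gammaH_mono hle) (tS L M ℓ H A φ) =
        tS L M ℓ H' A (resS A (Fermat.Agent.ES1.gammaH_mono hle) φ)) ∧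
    (∀ ψ : HomS (gammaH L M H') A,
      coresS A (Fermat.Agent.ES1.gammaH_mono hle) (tS L M ℓ H' A ψ) =
        tS L M ℓ H A (coresS A (Fermat.Agent.ES1.gammaH_mono hle) ψ)) ∧
    (∀ (g : SL(2, ℤ)) (hgL : g ∈ Gamma0 L) (hgM : g ∈ Gamma0 M) (ψ : HomS (gammaH L M H') A),
      diamS H' A g hgL hgM (tS L M ℓ H' A ψ) = tS L M ℓ H' A (diamS H' A g hgL hgM ψ))

/-- **K5-UQ1′** the same for the adjoint operators. -/
def StmtCommUAdj : Prop :=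
  ∀ (L M ℓ : ℕ) [NeZero L] [NeZero ℓ] [Fact (M ∣ L)] (H' H : Subgroup (ZMod M)ˣ) (hle : H' ≤ H)
    (A : Type) [AddCommGroup A],
    (∀ φ : HomS (gammaH L M H) A,
      resS A (Fermat.Agent.ES1.gammaH_mono hle) (tSadj L M ℓ H A φ) =
        tSadj L M ℓ H' A (resS A (Fermat.Agent.ES1.gammaH_mono hle) φ)) ∧
    (∀ ψ : HomS (gammaH L M H') A,
      coresS A (Fermat.Agent.ES1.gammaH_mono hle) (tSadj L M ℓ H' A ψ) =
        tSadj L M ℓ H A (coresS A (Fermat.Agent.ES1.gammaH_mono hle) ψ)) ∧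
    (∀ (g : SL(2, ℤ)) (hgL : g ∈ Gamma0 L) (hgM : g ∈ Gamma0 M) (ψ : HomS (gammaH L M H') A),
      diamS H' A g hgL hgM (tSadj L M ℓ H' A ψ) = tSadj L M ℓ H' A (diamS H' A g hgL hgM ψ))

/-- **K5-UQ2** all `tS ℓ`, `ℓ` prime (dividing the level or not), commute with each other; the
same for the adjoint operators.  [As `CommT.lean`; for `ℓ' ∣ L` the double coset decomposition
`Γ_H(L) = Γ₁(L ℓ) · (Γ_H(L) ∩ Γ⁰(ℓ'))` is elementary: `d` is a unit modulo `ℓ'`.] -/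
def StmtCommTU : Prop :=
  ∀ (L M ℓ ℓ' : ℕ) [NeZero L] [NeZero ℓ] [NeZero ℓ'] [Fact (M ∣ L)] (H : Subgroup (ZMod M)ˣ)
    (A : Type) [AddCommGroup A], ℓ.Prime → ℓ'.Prime →
    ∀ φ : HomS (gammaH L M H) A,
      tS L M ℓ H A (tS L M ℓ' H A φ) = tS L M ℓ' H A (tS L M ℓ H A φ) ∧
      tSadj L M ℓ H A (tSadj L M ℓ' H A φ) = tSadj L M ℓ' H A (tSadj L M ℓ H A φ)

/-- **K5-UQ4** the four degeneracy maps at a prime `ℓ ∤ L` commute with `tS ℓ'` for every prime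
`ℓ' ≠ ℓ` (in particular with `U_q'`, `q' ∣ L`).  [Base change in the four squares over
`(incl_ℓ | conj_δ_ℓ) × conj_δ_ℓ'`, `(incl_ℓ | conj_δ_ℓ) × incl_ℓ'`, as `CommT.lean`.] -/
def StmtDegComm : Prop :=
  ∀ (L M ℓ ℓ' : ℕ) [NeZero L] [NeZero ℓ] [NeZero ℓ'] [hML : Fact (M ∣ L)]
    (H : Subgroup (ZMod M)ˣ) (A : Type) [AddCommGroup A], ℓ.Prime → ℓ'.Prime → ℓ ≠ ℓ' → ¬ ℓ ∣ L →
    haveI : Fact (M ∣ L * ℓ) := ⟨hML.out.trans (dvd_mul_right L ℓ)⟩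
    (∀ φ : HomS (gammaH L M H) A,
      resH L M ℓ H A (tS L M ℓ' H A φ) = tS (L * ℓ) M ℓ' H A (resH L M ℓ H A φ)) ∧
    (∀ φ : HomS (gammaH L M H) A,
      resDH L M ℓ H A (tS L M ℓ' H A φ) = tS (L * ℓ) M ℓ' H A (resDH L M ℓ H A φ)) ∧
    (∀ ψ : HomS (gammaH (L * ℓ) M H) A,
      coresH L M ℓ H A (tS (L * ℓ) M ℓ' H A ψ) = tS L M ℓ' H A (coresH L M ℓ H A ψ)) ∧
    (∀ ψ : HomS (gammaH (L * ℓ) M H) A,
      coresDH L M ℓ H A (tS (L * ℓ) M ℓ' H A ψ) = tS L M ℓ' H A (coresDH L M ℓ H A ψ))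

/-- **K5-TOPU** for `H = ⊤` and `q ∣ L` the operator `tS q` is `S41.heckeU` (coset
representatives `[[1, x], [0, 1]]`, `x` modulo `q`, of `Γ₀(L) ∩ Γ⁰(q)` in `Γ₀(L)`). -/
def StmtTopU : Prop :=
  ∀ (L M q : ℕ) [NeZero L] [NeZero q] [Fact (M ∣ L)] (hqL : q ∣ L)
    (A : Type) [AddCommGroup A]
    (e : gammaH L M (⊤ : Subgroup (ZMod M)ˣ) ≃* Gamma0 L),
    (∀ γ, ((e γ : Gamma0 L) : SL(2, ℤ)) = γ) →
    ∀ φ : S41.HomG L A,
      tS L M q ⊤ A (φ.comp (MonoidHom.toAdditive e.toMonoidHom)) =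
        (S41.heckeU hqL φ).comp (MonoidHom.toAdditive e.toMonoidHom)

/-! ## K5-NAT : naturality in the coefficients -/

/-- **K5-NAT** `res`, `cores`, diamonds, `tS`, `tSadj` commute with a change of coefficients. -/
def StmtNat : Prop :=
  ∀ (L M : ℕ) [NeZero L] [Fact (M ∣ L)] (A B : Type) [AddCommGroup A] [AddCommGroup B]
    (f : A →+ B),
    (∀ (H' H : Subgroup (ZMod M)ˣ) (hle : H' ≤ H) (φ : HomS (gammaH L M H) A),
      mapS f (resS A (Fermat.Agent.ES1.gammaH_mono hle) φ) =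
        resS B (Fermat.Agent.ES1.gammaH_mono hle) (mapS f φ)) ∧
    (∀ (H' H : Subgroup (ZMod M)ˣ) (hle : H' ≤ H) (ψ : HomS (gammaH L M H') A),
      mapS f (coresS A (Fermat.Agent.ES1.gammaH_mono hle) ψ) =
        coresS B (Fermat.Agent.ES1.gammaH_mono hle) (mapS f ψ)) ∧
    (∀ (H : Subgroup (ZMod M)ˣ) (g : SL(2, ℤ)) (hgL : g ∈ Gamma0 L) (hgM : g ∈ Gamma0 M)
      (ψ : HomS (gammaH L M H) A),
      mapS f (diamS H A g hgL hgM ψ) = diamS H B g hgL hgM (mapS f ψ)) ∧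
    (∀ (ℓ : ℕ) [NeZero ℓ] (H : Subgroup (ZMod M)ˣ) (φ : HomS (gammaH L M H) A),
      mapS f (tS L M ℓ H A φ) = tS L M ℓ H B (mapS f φ) ∧
      mapS f (tSadj L M ℓ H A φ) = tSadj L M ℓ H B (mapS f φ))

/-! ## K5-OF : Fitting over a complete discrete valuation ring (Mathlib only) -/

/-- **K5-OF** `𝒪` a complete discrete valuation ring with finite residue field, `V` a finite free
`𝒪`-module, `θ ∈ End_𝒪(V)`.  Then `etaPart θ = ⋂ θⁿ V` is the image of an idempotent `e` which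
commutes with everything that commutes with `θ`; `θ` is bijective on it; and it maps ONTO the
`θ'`-bijective part of every finite quotient `(V', θ')` of `(V, θ)`.
[`e = lim θ^(m pⁿ)`: in a finite commutative ring some power `x^m` is idempotent, and if `y` is
idempotent modulo `I ∋ p` then `y^(pⁿ)` is idempotent modulo `I^(n+1)`.] -/
def StmtFitO : Prop :=
  ∀ (𝒪 : Type) [CommRing 𝒪] [IsDomain 𝒪] [IsDiscreteValuationRing 𝒪]
    [IsAdicComplete (IsLocalRing.maximalIdeal 𝒪) 𝒪] [Finite (IsLocalRing.ResidueField 𝒪)]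
    (V : Type) [AddCommGroup V] [Module 𝒪 V] [Module.Finite 𝒪 V] [Module.Free 𝒪 V]
    (θ : V →ₗ[𝒪] V),
    (∃ e : V →ₗ[𝒪] V, e ∘ₗ e = e ∧ (∀ v, e v ∈ etaPart θ.toAddMonoidHom) ∧
      (∀ v ∈ etaPart θ.toAddMonoidHom, e v = v) ∧
      ∀ t : V →ₗ[𝒪] V, t ∘ₗ θ = θ ∘ₗ t → t ∘ₗ e = e ∘ₗ t) ∧
    (∀ w ∈ etaPart θ.toAddMonoidHom, θ w = 0 → w = 0) ∧
    (∀ w ∈ etaPart θ.toAddMonoidHom, ∃ w' ∈ etaPart θ.toAddMonoidHom, θ w' = w) ∧
    (∀ (V' : Type) [AddCommGroup V'] [Module 𝒪 V'] [Finite V'] (r : V →ₗ[𝒪] V')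
      (θ' : V' →ₗ[𝒪] V'), Function.Surjective r → r ∘ₗ θ = θ' ∘ₗ r →
      ∀ w' ∈ etaPart θ'.toAddMonoidHom, ∃ w ∈ etaPart θ.toAddMonoidHom, r w = w')

end Fermat.Agent.RT.K5

end
end ZBRT_028_5

/-! ### bundled: `Fermat.Agent.RT.K5.CommU` -/
section ZBRT_028_6

/-!
# RT-K5, piece UQ1: `tS ℓ` (every `ℓ ≥ 1`) and `tSadj ℓ` commute with `res`, `cores` (change of
`H`) and with the diamonds — `stmtCommU`, `stmtCommUAdj`

As `Comm.lean`; the generator of given diamond is taken in `Γ₀(L ℓ) ∩ Γ⁰(ℓ)` (`k5u_gen`).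
-/

set_option autoImplicit false
set_option linter.style.haveILetI false
set_option linter.unusedSectionVars false
set_option linter.unusedVariables false

noncomputable section

namespace Fermat.Agent.RT.K5

open CongruenceSubgroup Matrix
open scoped MatrixGroups
open Fermat.Agent.ES1 (gammaH diamHom pmH)

section gen

variable (L M ℓ : ℕ) [NeZero L] [NeZero ℓ] [hML : Fact (M ∣ L)]

/-- every diamond is the diamond of some `g ∈ Γ₀(L ℓ)` with `ℓ ∣ g₀₁` -/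
theorem k5u_gen (u : (ZMod M)ˣ) :
    ∃ (g : SL(2, ℤ)) (_ : g ∈ Gamma0 (L * ℓ)) (hgM : g ∈ Gamma0 M),
      diamHom M ⟨g, hgM⟩ = u ∧ (ℓ : ℤ) ∣ (g : Matrix (Fin 2) (Fin 2) ℤ) 0 1 := by
  haveI : NeZero (L * ℓ * ℓ) := inferInstance
  haveI : Fact (M ∣ L * ℓ * ℓ) :=
    ⟨(hML.out.trans (dvd_mul_right L ℓ)).trans (dvd_mul_right (L * ℓ) ℓ)⟩
  haveI : NeZero (1 : ℕ) := ⟨one_ne_zero⟩
  obtain ⟨g', hgL', hgM', hgd, -⟩ := stmtGen (L * ℓ * ℓ) M 1 (Nat.coprime_one_left _) u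
  have hmem : ((S41.conjD (L * ℓ) ℓ ⟨g', hgL'⟩ : Gamma0 (L * ℓ)) : SL(2, ℤ)) ∈ Gamma0 (L * ℓ) :=
    (S41.conjD (L * ℓ) ℓ ⟨g', hgL'⟩).2
  have hM : ((S41.conjD (L * ℓ) ℓ ⟨g', hgL'⟩ : Gamma0 (L * ℓ)) : SL(2, ℤ)) ∈ Gamma0 M := by
    apply S41.mem_Gamma0_of_dvd
    exact (Int.natCast_dvd_natCast.mpr (hML.out.trans (dvd_mul_right L ℓ))).trans
      (S41.dvd_of_mem_Gamma0 hmem)
  refine ⟨_, hmem, hM, ?_, ?_⟩
  · rw [← hgd]
    apply k5e_diam_eq_of_entry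
    rw [S41.conjD_coe]
    simp [S41.conjDMat]
  · rw [S41.conjD_coe]
    simp [S41.conjDMat]

end gen

section squares

variable (L M ℓ : ℕ) [NeZero L] [NeZero ℓ] [hML : Fact (M ∣ L)] (H' H : Subgroup (ZMod M)ˣ)
  (hle : H' ≤ H)

/-- every class of `Γ_H(L)` modulo `Γ_{H'}(L)` contains an element of `Γ₀(L ℓ) ∩ Γ⁰(ℓ)` -/
theorem k5u_exists (γ : gammaH L M H) :
    ∃ x : gammaH L M H', ∃ g : SL(2, ℤ), g ∈ gammaH L M H ∧ g ∈ Gamma0 (L * ℓ) ∧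
      (ℓ : ℤ) ∣ (g : Matrix (Fin 2) (Fin 2) ℤ) 0 1 ∧
      ((x : SL(2, ℤ)))⁻¹ * (γ : SL(2, ℤ)) = g := by
  have hγM : (γ : SL(2, ℤ)) ∈ Gamma0 M := γ.2.2.1
  obtain ⟨g, hgLℓ, hgM, hgd, hg01⟩ := k5u_gen L M ℓ (diamHom M ⟨γ, hγM⟩)
  have hgL : g ∈ Gamma0 L := S41.Gamma0_mul_le L ℓ hgLℓ
  have h1 : (g⁻¹)⁻¹ * (γ : SL(2, ℤ))⁻¹ ∈ gammaH L M H' := by
    refine k5e_inv_mul_mem H' (inv_mem hgL) (inv_mem hgM) (inv_mem γ.2.1) (inv_mem hγM) ?_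
    rw [k5e_diam_inv _ hgM, k5e_diam_inv _ hγM, hgd]
  have h2 : (γ : SL(2, ℤ)) * g⁻¹ ∈ gammaH L M H' := by
    have : (γ : SL(2, ℤ)) * g⁻¹ = ((g⁻¹)⁻¹ * (γ : SL(2, ℤ))⁻¹)⁻¹ := by group
    rw [this]; exact inv_mem h1
  refine ⟨⟨_, h2⟩, g, ⟨hgL, hgM, ?_⟩, hgLℓ, hg01, by group⟩
  rw [hgd]; exact γ.2.2.2

/-- the square over `conj_δ` -/
theorem k5u_square_conj :
    (∀ k : gammaH (L * ℓ) M H', conjDH L M ℓ H hML.out
        (Subgroup.inclusion (Fermat.Agent.ES1.gammaH_mono hle) k)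
        = k5c_j L M H' H hle (conjDH L M ℓ H' hML.out k)) ∧
    (∀ x : gammaH L M H', k5c_j L M H' H hle x ∈ (conjDH L M ℓ H hML.out).range →
        x ∈ (conjDH L M ℓ H' hML.out).range) ∧
    (∀ γ : gammaH L M H, ∃ x : gammaH L M H',
        (k5c_j L M H' H hle x)⁻¹ * γ ∈ (conjDH L M ℓ H hML.out).range) := by
  refine ⟨fun k => Subtype.ext rfl, ?_, ?_⟩
  · rintro x ⟨z, hz⟩
    have he : ((conjDH L M ℓ H hML.out z : gammaH L M H) : SL(2, ℤ)) = (x : SL(2, ℤ)) :=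
      congrArg (fun y : gammaH L M H => (y : SL(2, ℤ))) hz
    have hentry := k5c_entry_conjDH L M ℓ H z
    rw [he] at hentry
    have hmem : (z : SL(2, ℤ)) ∈ gammaH (L * ℓ) M H' := by
      refine ⟨z.2.1, z.2.2.1, ?_⟩
      rw [k5e_diam_eq_of_entry _ _ z.2.2.1 x.2.2.1 hentry]
      exact x.2.2.2
    refine ⟨⟨(z : SL(2, ℤ)), hmem⟩, ?_⟩
    apply Subtype.ext
    rw [← he]
    rfl
  · intro γ
    obtain ⟨x, g, hgΓ, hgLℓ, hg01, hxg⟩ := k5u_exists L M ℓ H' H γ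
    obtain ⟨z, hz, hz00⟩ := k5e_exists_conjD_preimage L ℓ ⟨g, hgΓ.1⟩ hg01
    have hzL : (z : SL(2, ℤ)) ∈ Gamma0 L := by
      apply S41.mem_Gamma0_of_dvd
      exact (Int.natCast_dvd_natCast.mpr (dvd_mul_right L ℓ)).trans (S41.dvd_of_mem_Gamma0 z.2)
    have hzM : (z : SL(2, ℤ)) ∈ Gamma0 M := k5i_mem_Gamma0M L M hzL
    have hmem : (z : SL(2, ℤ)) ∈ gammaH (L * ℓ) M H := by
      refine ⟨z.2, hzM, ?_⟩
      rw [k5e_diam_eq_of_entry _ _ hzM hgΓ.2.1 hz00]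
      exact hgΓ.2.2
    refine ⟨x, ⟨(z : SL(2, ℤ)), hmem⟩, ?_⟩
    apply Subtype.ext
    rw [conjDH_coe]
    have : (⟨(z : SL(2, ℤ)), hmem.1⟩ : Gamma0 (L * ℓ)) = z := rfl
    rw [this, hz]
    exact hxg.symm

/-- the square over the inclusion -/
theorem k5u_square_incl :
    (∀ k : gammaH (L * ℓ) M H', k5c_j L M H' H hle (inclH L M ℓ H' k)
        = inclH L M ℓ H (Subgroup.inclusion (Fermat.Agent.ES1.gammaH_mono hle) k)) ∧
    (∀ x : gammaH (L * ℓ) M H, inclH L M ℓ H x ∈ (k5c_j L M H' H hle).range →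
        x ∈ (Subgroup.inclusion (Fermat.Agent.ES1.gammaH_mono hle) :
          gammaH (L * ℓ) M H' →* gammaH (L * ℓ) M H).range) ∧
    (∀ γ : gammaH L M H, ∃ x : gammaH (L * ℓ) M H,
        (inclH L M ℓ H x)⁻¹ * γ ∈ (k5c_j L M H' H hle).range) := by
  refine ⟨fun k => Subtype.ext rfl, ?_, ?_⟩
  · rintro x ⟨y, hy⟩
    have he : (y : SL(2, ℤ)) = (x : SL(2, ℤ)) :=
      congrArg (fun y : gammaH L M H => (y : SL(2, ℤ))) hy
    have hmem : (x : SL(2, ℤ)) ∈ gammaH (L * ℓ) M H' := by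
      refine ⟨x.2.1, ?_⟩
      rw [← he]; exact y.2.2
    exact ⟨⟨(x : SL(2, ℤ)), hmem⟩, Subtype.ext rfl⟩
  · intro γ
    obtain ⟨x, g, hgΓ, hgLℓ, hg01, hxg⟩ := k5u_exists L M ℓ H' H γ
    have hgK : g ∈ gammaH (L * ℓ) M H := ⟨hgLℓ, hgΓ.2.1, hgΓ.2.2⟩
    have hmem : g⁻¹ * (γ : SL(2, ℤ)) ∈ gammaH L M H' := by
      have e : g⁻¹ * (γ : SL(2, ℤ)) = g⁻¹ * (x : SL(2, ℤ)) * g := by
        rw [← hxg]; group
      rw [e]
      exact normalizes_gammaH hgΓ.1 hgΓ.2.1 _ x.2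
    exact ⟨⟨g, hgK⟩, ⟨_, hmem⟩, Subtype.ext rfl⟩

/-- the transposed square over the inclusion (transfer along `Γ_H(L ℓ) → Γ_H(L)`) -/
theorem k5u_square_inclT :
    (∀ k : gammaH (L * ℓ) M H', inclH L M ℓ H
        (Subgroup.inclusion (Fermat.Agent.ES1.gammaH_mono hle) k)
        = k5c_j L M H' H hle (inclH L M ℓ H' k)) ∧
    (∀ x : gammaH L M H', k5c_j L M H' H hle x ∈ (inclH L M ℓ H).range →
        x ∈ (inclH L M ℓ H').range) ∧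
    (∀ γ : gammaH L M H, ∃ x : gammaH L M H',
        (k5c_j L M H' H hle x)⁻¹ * γ ∈ (inclH L M ℓ H).range) := by
  refine ⟨fun k => Subtype.ext rfl, ?_, ?_⟩
  · rintro x ⟨z, hz⟩
    have he : (z : SL(2, ℤ)) = (x : SL(2, ℤ)) :=
      congrArg (fun y : gammaH L M H => (y : SL(2, ℤ))) hz
    have hmem : (x : SL(2, ℤ)) ∈ gammaH (L * ℓ) M H' := by
      refine ⟨?_, x.2.2⟩
      rw [← he]; exact z.2.1
    exact ⟨⟨(x : SL(2, ℤ)), hmem⟩, Subtype.ext rfl⟩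
  · intro γ
    obtain ⟨x, g, hgΓ, hgLℓ, hg01, hxg⟩ := k5u_exists L M ℓ H' H γ
    have hgK : g ∈ gammaH (L * ℓ) M H := ⟨hgLℓ, hgΓ.2.1, hgΓ.2.2⟩
    refine ⟨x, ⟨g, hgK⟩, ?_⟩
    apply Subtype.ext
    exact hxg.symm

/-- the transposed square over `conj_δ` (transfer along `Γ_{H'}(L) → Γ_H(L)`) -/
theorem k5u_square_conjT :
    (∀ k : gammaH (L * ℓ) M H', k5c_j L M H' H hle (conjDH L M ℓ H' hML.out k)
        = conjDH L M ℓ H hML.out (Subgroup.inclusion (Fermat.Agent.ES1.gammaH_mono hle) k)) ∧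
    (∀ x : gammaH (L * ℓ) M H, conjDH L M ℓ H hML.out x ∈ (k5c_j L M H' H hle).range →
        x ∈ (Subgroup.inclusion (Fermat.Agent.ES1.gammaH_mono hle) :
          gammaH (L * ℓ) M H' →* gammaH (L * ℓ) M H).range) ∧
    (∀ γ : gammaH L M H, ∃ x : gammaH (L * ℓ) M H,
        (conjDH L M ℓ H hML.out x)⁻¹ * γ ∈ (k5c_j L M H' H hle).range) := by
  refine ⟨fun k => Subtype.ext rfl, ?_, ?_⟩
  · rintro x ⟨y, hy⟩
    have he : (y : SL(2, ℤ)) = ((conjDH L M ℓ H hML.out x : gammaH L M H) : SL(2, ℤ)) :=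
      congrArg (fun y : gammaH L M H => (y : SL(2, ℤ))) hy
    have hentry := k5c_entry_conjDH L M ℓ H x
    rw [← he] at hentry
    have hmem : (x : SL(2, ℤ)) ∈ gammaH (L * ℓ) M H' := by
      refine ⟨x.2.1, x.2.2.1, ?_⟩
      rw [k5e_diam_eq_of_entry _ _ x.2.2.1 y.2.2.1 hentry]
      exact y.2.2.2
    exact ⟨⟨(x : SL(2, ℤ)), hmem⟩, Subtype.ext rfl⟩
  · intro γ
    obtain ⟨x, g, hgΓ, hgLℓ, hg01, hxg⟩ := k5u_exists L M ℓ H' H γ⁻¹
    -- `γ⁻¹ = x g`, so `γ = g⁻¹ x⁻¹`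
    have hg01' : (ℓ : ℤ) ∣ ((g⁻¹ : SL(2, ℤ)) : Matrix (Fin 2) (Fin 2) ℤ) 0 1 := by
      rw [Matrix.SpecialLinearGroup.coe_inv, Matrix.adjugate_fin_two]
      simpa using hg01
    obtain ⟨z, hz, hz00⟩ := k5e_exists_conjD_preimage L ℓ ⟨g⁻¹, inv_mem hgΓ.1⟩ hg01'
    have hzL : (z : SL(2, ℤ)) ∈ Gamma0 L := by
      apply S41.mem_Gamma0_of_dvd
      exact (Int.natCast_dvd_natCast.mpr (dvd_mul_right L ℓ)).trans (S41.dvd_of_mem_Gamma0 z.2)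
    have hzM : (z : SL(2, ℤ)) ∈ Gamma0 M := k5i_mem_Gamma0M L M hzL
    have hginv : g⁻¹ ∈ gammaH L M H := inv_mem hgΓ
    have hmem : (z : SL(2, ℤ)) ∈ gammaH (L * ℓ) M H := by
      refine ⟨z.2, hzM, ?_⟩
      rw [k5e_diam_eq_of_entry _ _ hzM hginv.2.1 hz00]
      exact hginv.2.2
    have hconj : ((conjDH L M ℓ H hML.out ⟨(z : SL(2, ℤ)), hmem⟩ : gammaH L M H) : SL(2, ℤ))
        = g⁻¹ := by
      rw [conjDH_coe]
      have : (⟨(z : SL(2, ℤ)), hmem.1⟩ : Gamma0 (L * ℓ)) = z := rfl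
      rw [this, hz]
    refine ⟨⟨(z : SL(2, ℤ)), hmem⟩, ⟨x⁻¹, ?_⟩⟩
    apply Subtype.ext
    show ((x⁻¹ : gammaH L M H') : SL(2, ℤ))
      = ((conjDH L M ℓ H hML.out ⟨(z : SL(2, ℤ)), hmem⟩ : gammaH L M H) : SL(2, ℤ))⁻¹
        * (γ : SL(2, ℤ))
    rw [hconj, inv_inv, ← hxg]
    show ((x : SL(2, ℤ)))⁻¹ = (x : SL(2, ℤ))⁻¹ * ((γ⁻¹ : gammaH L M H) : SL(2, ℤ)) * (γ : SL(2, ℤ))
    show ((x : SL(2, ℤ)))⁻¹ = (x : SL(2, ℤ))⁻¹ * (γ : SL(2, ℤ))⁻¹ * (γ : SL(2, ℤ))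
    group

end squares

section clauses

variable (L M ℓ : ℕ) [NeZero L] [NeZero ℓ] [hML : Fact (M ∣ L)] (H' H : Subgroup (ZMod M)ˣ)
  (hle : H' ≤ H) (A : Type) [AddCommGroup A]

/-- clause 1: `res` commutes with `tS ℓ` -/
theorem k5u_res_comm (φ : HomS (gammaH L M H) A) :
    resS A (Fermat.Agent.ES1.gammaH_mono hle) (tS L M ℓ H A φ) =
      tS L M ℓ H' A (resS A (Fermat.Agent.ES1.gammaH_mono hle) φ) := by
  obtain ⟨h1, h2, h3⟩ := k5u_square_conj L M ℓ H' H hle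
  exact k5c_transfer_basechange (conjDH L M ℓ H hML.out) (conjDH_injective L M ℓ H hML.out)
    (k5c_j L M H' H hle) (conjDH L M ℓ H' hML.out) (conjDH_injective L M ℓ H' hML.out)
    (Subgroup.inclusion (Fermat.Agent.ES1.gammaH_mono hle)) A h1 h2 h3
    (φ.comp (MonoidHom.toAdditive (inclH L M ℓ H)))

/-- clause 2: `cores` commutes with `tS ℓ` -/
theorem k5u_cores_comm (ψ : HomS (gammaH L M H') A) :
    coresS A (Fermat.Agent.ES1.gammaH_mono hle) (tS L M ℓ H' A ψ) =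
      tS L M ℓ H A (coresS A (Fermat.Agent.ES1.gammaH_mono hle) ψ) := by
  haveI : NeZero (L * ℓ) := inferInstance
  haveI : Fact (M ∣ L * ℓ) := ⟨hML.out.trans (dvd_mul_right L ℓ)⟩
  obtain ⟨h1, h2, h3⟩ := k5u_square_incl L M ℓ H' H hle
  let jK : gammaH (L * ℓ) M H' →* gammaH (L * ℓ) M H :=
    Subgroup.inclusion (Fermat.Agent.ES1.gammaH_mono hle)
  have hjK : Function.Injective jK := Subgroup.inclusion_injective _
  haveI : jK.range.FiniteIndex :=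
    inclusion_range_finiteIndex (L * ℓ) M (Fermat.Agent.ES1.gammaH_mono hle)
  have hA : (S41.transferAlong A (k5c_j L M H' H hle) (k5c_j_injective L M H' H hle) ψ).comp
      (MonoidHom.toAdditive (inclH L M ℓ H))
      = S41.transferAlong A jK hjK (ψ.comp (MonoidHom.toAdditive (inclH L M ℓ H'))) :=
    k5c_transfer_basechange (k5c_j L M H' H hle) (k5c_j_injective L M H' H hle)
      (inclH L M ℓ H) jK hjK (inclH L M ℓ H') A h1 h2 h3 ψ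
  haveI : ((conjDH L M ℓ H hML.out).comp jK).range.FiniteIndex :=
    k5c_comp_finiteIndex jK (conjDH L M ℓ H hML.out) (conjDH_injective L M ℓ H hML.out)
  haveI : ((k5c_j L M H' H hle).comp (conjDH L M ℓ H' hML.out)).range.FiniteIndex :=
    k5c_comp_finiteIndex (conjDH L M ℓ H' hML.out) (k5c_j L M H' H hle)
      (k5c_j_injective L M H' H hle)
  have hB := k5c_transfer_trans jK hjK (conjDH L M ℓ H hML.out)
    (conjDH_injective L M ℓ H hML.out) A (ψ.comp (MonoidHom.toAdditive (inclH L M ℓ H')))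
  have hC := k5c_transfer_trans (conjDH L M ℓ H' hML.out) (conjDH_injective L M ℓ H' hML.out)
    (k5c_j L M H' H hle) (k5c_j_injective L M H' H hle) A
    (ψ.comp (MonoidHom.toAdditive (inclH L M ℓ H')))
  have hD : (k5c_j L M H' H hle).comp (conjDH L M ℓ H' hML.out)
      = (conjDH L M ℓ H hML.out).comp jK := by
    ext k; rfl
  show S41.transferAlong A (k5c_j L M H' H hle) (k5c_j_injective L M H' H hle)
      (S41.transferAlong A (conjDH L M ℓ H' hML.out) (conjDH_injective L M ℓ H' hML.out)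
        (ψ.comp (MonoidHom.toAdditive (inclH L M ℓ H'))))
    = S41.transferAlong A (conjDH L M ℓ H hML.out) (conjDH_injective L M ℓ H hML.out)
      ((S41.transferAlong A (k5c_j L M H' H hle) (k5c_j_injective L M H' H hle) ψ).comp
        (MonoidHom.toAdditive (inclH L M ℓ H)))
  rw [hA, ← hB, ← hC]
  exact k5c_transfer_congr hD _ _ _

/-- clause 3 for `g ∈ Γ₀(L ℓ)` with `ℓ ∣ g₀₁` -/
theorem k5u_diam_comm_of_mem (g : SL(2, ℤ)) (hgL : g ∈ Gamma0 L) (hgM : g ∈ Gamma0 M)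
    (hg01 : (ℓ : ℤ) ∣ (g : Matrix (Fin 2) (Fin 2) ℤ) 0 1) (ψ : HomS (gammaH L M H') A) :
    diamS H' A g hgL hgM (tS L M ℓ H' A ψ) = tS L M ℓ H' A (diamS H' A g hgL hgM ψ) := by
  obtain ⟨z, hz, hz00⟩ := k5e_exists_conjD_preimage L ℓ ⟨g, hgL⟩ hg01
  have hzL : (z : SL(2, ℤ)) ∈ Gamma0 L := by
    apply S41.mem_Gamma0_of_dvd
    exact (Int.natCast_dvd_natCast.mpr (dvd_mul_right L ℓ)).trans (S41.dvd_of_mem_Gamma0 z.2)
  have hzM : (z : SL(2, ℤ)) ∈ Gamma0 M := k5i_mem_Gamma0M L M hzL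
  have hd : diamHom M ⟨g, hgM⟩ = diamHom M ⟨(z : SL(2, ℤ)), hzM⟩ :=
    (k5e_diam_eq_of_entry _ _ hzM hgM hz00).symm
  let aH : gammaH (L * ℓ) M H' →* gammaH (L * ℓ) M H' :=
    conjHom (z : SL(2, ℤ)) (normalizes_gammaH z.2 hzM)
  have hsurj : Function.Surjective aH := by
    intro k
    refine ⟨⟨(z : SL(2, ℤ)) * k * (z : SL(2, ℤ))⁻¹,
      Fermat.Agent.ES1.conj_mem_gammaH z.2 hzM k.2⟩, ?_⟩
    apply Subtype.ext
    show (z : SL(2, ℤ))⁻¹ * ((z : SL(2, ℤ)) * k * (z : SL(2, ℤ))⁻¹) * (z : SL(2, ℤ)) = k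
    group
  have hcomp : ∀ h : gammaH (L * ℓ) M H',
      k5c_conjEquiv L M H' g hgL hgM (conjDH L M ℓ H' hML.out h)
        = conjDH L M ℓ H' hML.out (aH h) := by
    intro h
    apply Subtype.ext
    show g⁻¹ * ((conjDH L M ℓ H' hML.out h : gammaH L M H') : SL(2, ℤ)) * g
      = ((conjDH L M ℓ H' hML.out (aH h) : gammaH L M H') : SL(2, ℤ))
    rw [conjDH_coe, conjDH_coe]
    have e : (⟨((aH h : gammaH (L * ℓ) M H') : SL(2, ℤ)), (aH h).2.1⟩ : Gamma0 (L * ℓ))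
        = z⁻¹ * ⟨(h : SL(2, ℤ)), h.2.1⟩ * z := rfl
    rw [e, map_mul, map_mul, map_inv, hz]
    rfl
  have hE := S41.transferAlong_equivariant (conjDH L M ℓ H' hML.out)
    (conjDH_injective L M ℓ H' hML.out) A aH (k5c_conjEquiv L M H' g hgL hgM) hcomp hsurj
    (ψ.comp (MonoidHom.toAdditive (inclH L M ℓ H')))
  have hL : (ψ.comp (MonoidHom.toAdditive (inclH L M ℓ H'))).comp (MonoidHom.toAdditive aH)
      = (diamS H' A g hgL hgM ψ).comp (MonoidHom.toAdditive (inclH L M ℓ H')) := by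
    refine AddMonoidHom.ext fun k => ?_
    obtain ⟨k, rfl⟩ : ∃ k' : gammaH (L * ℓ) M H', Additive.ofMul k' = k :=
      ⟨Additive.toMul k, rfl⟩
    show ψ (Additive.ofMul ⟨(z : SL(2, ℤ))⁻¹ * k * (z : SL(2, ℤ)), _⟩)
      = ψ (Additive.ofMul ⟨g⁻¹ * k * g, _⟩)
    exact k5c_inner ψ g (z : SL(2, ℤ)) (k : SL(2, ℤ)) _ _
      (k5e_inv_mul_mem H' hgL hgM hzL hzM hd)
  show (S41.transferAlong A (conjDH L M ℓ H' hML.out) (conjDH_injective L M ℓ H' hML.out)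
      (ψ.comp (MonoidHom.toAdditive (inclH L M ℓ H')))).comp
        (MonoidHom.toAdditive (conjHom g (normalizes_gammaH hgL hgM)))
    = S41.transferAlong A (conjDH L M ℓ H' hML.out) (conjDH_injective L M ℓ H' hML.out)
      ((diamS H' A g hgL hgM ψ).comp (MonoidHom.toAdditive (inclH L M ℓ H')))
  rw [← hL, hE]
  rfl

/-! ### the adjoint operator -/

/-- clause 1 for `tSadj` -/
theorem k5u_adj_res_comm (φ : HomS (gammaH L M H) A) :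
    resS A (Fermat.Agent.ES1.gammaH_mono hle) (tSadj L M ℓ H A φ) =
      tSadj L M ℓ H' A (resS A (Fermat.Agent.ES1.gammaH_mono hle) φ) := by
  obtain ⟨h1, h2, h3⟩ := k5u_square_inclT L M ℓ H' H hle
  exact k5c_transfer_basechange (inclH L M ℓ H) (inclH_injective L M ℓ H)
    (k5c_j L M H' H hle) (inclH L M ℓ H') (inclH_injective L M ℓ H')
    (Subgroup.inclusion (Fermat.Agent.ES1.gammaH_mono hle)) A h1 h2 h3
    (φ.comp (MonoidHom.toAdditive (conjDH L M ℓ H hML.out)))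

/-- clause 2 for `tSadj` -/
theorem k5u_adj_cores_comm (ψ : HomS (gammaH L M H') A) :
    coresS A (Fermat.Agent.ES1.gammaH_mono hle) (tSadj L M ℓ H' A ψ) =
      tSadj L M ℓ H A (coresS A (Fermat.Agent.ES1.gammaH_mono hle) ψ) := by
  haveI : NeZero (L * ℓ) := inferInstance
  haveI : Fact (M ∣ L * ℓ) := ⟨hML.out.trans (dvd_mul_right L ℓ)⟩
  obtain ⟨h1, h2, h3⟩ := k5u_square_conjT L M ℓ H' H hle
  let jK : gammaH (L * ℓ) M H' →* gammaH (L * ℓ) M H :=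
    Subgroup.inclusion (Fermat.Agent.ES1.gammaH_mono hle)
  have hjK : Function.Injective jK := Subgroup.inclusion_injective _
  haveI : jK.range.FiniteIndex :=
    inclusion_range_finiteIndex (L * ℓ) M (Fermat.Agent.ES1.gammaH_mono hle)
  have hA : (S41.transferAlong A (k5c_j L M H' H hle) (k5c_j_injective L M H' H hle) ψ).comp
      (MonoidHom.toAdditive (conjDH L M ℓ H hML.out))
      = S41.transferAlong A jK hjK (ψ.comp (MonoidHom.toAdditive (conjDH L M ℓ H' hML.out))) :=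
    k5c_transfer_basechange (k5c_j L M H' H hle) (k5c_j_injective L M H' H hle)
      (conjDH L M ℓ H hML.out) jK hjK (conjDH L M ℓ H' hML.out) A h1 h2 h3 ψ
  haveI : ((inclH L M ℓ H).comp jK).range.FiniteIndex :=
    k5c_comp_finiteIndex jK (inclH L M ℓ H) (inclH_injective L M ℓ H)
  haveI : ((k5c_j L M H' H hle).comp (inclH L M ℓ H')).range.FiniteIndex :=
    k5c_comp_finiteIndex (inclH L M ℓ H') (k5c_j L M H' H hle)
      (k5c_j_injective L M H' H hle)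
  have hB := k5c_transfer_trans jK hjK (inclH L M ℓ H)
    (inclH_injective L M ℓ H) A (ψ.comp (MonoidHom.toAdditive (conjDH L M ℓ H' hML.out)))
  have hC := k5c_transfer_trans (inclH L M ℓ H') (inclH_injective L M ℓ H')
    (k5c_j L M H' H hle) (k5c_j_injective L M H' H hle) A
    (ψ.comp (MonoidHom.toAdditive (conjDH L M ℓ H' hML.out)))
  have hD : (k5c_j L M H' H hle).comp (inclH L M ℓ H')
      = (inclH L M ℓ H).comp jK := by
    ext k; rfl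
  show S41.transferAlong A (k5c_j L M H' H hle) (k5c_j_injective L M H' H hle)
      (S41.transferAlong A (inclH L M ℓ H') (inclH_injective L M ℓ H')
        (ψ.comp (MonoidHom.toAdditive (conjDH L M ℓ H' hML.out))))
    = S41.transferAlong A (inclH L M ℓ H) (inclH_injective L M ℓ H)
      ((S41.transferAlong A (k5c_j L M H' H hle) (k5c_j_injective L M H' H hle) ψ).comp
        (MonoidHom.toAdditive (conjDH L M ℓ H hML.out)))
  rw [hA, ← hB, ← hC]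
  exact k5c_transfer_congr hD _ _ _

/-- clause 3 for `tSadj`, `g ∈ Γ₀(L ℓ)` -/
theorem k5u_adj_diam_comm_of_mem (g : SL(2, ℤ)) (hgL : g ∈ Gamma0 L) (hgM : g ∈ Gamma0 M)
    (hgLℓ : g ∈ Gamma0 (L * ℓ)) (ψ : HomS (gammaH L M H') A) :
    diamS H' A g hgL hgM (tSadj L M ℓ H' A ψ) = tSadj L M ℓ H' A (diamS H' A g hgL hgM ψ) := by
  let aH : gammaH (L * ℓ) M H' →* gammaH (L * ℓ) M H' :=
    conjHom g (normalizes_gammaH hgLℓ hgM)
  have hsurj : Function.Surjective aH := by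
    intro k
    refine ⟨⟨g * k * g⁻¹, Fermat.Agent.ES1.conj_mem_gammaH hgLℓ hgM k.2⟩, ?_⟩
    apply Subtype.ext
    show g⁻¹ * (g * k * g⁻¹) * g = k
    group
  have hcomp : ∀ h : gammaH (L * ℓ) M H',
      k5c_conjEquiv L M H' g hgL hgM (inclH L M ℓ H' h) = inclH L M ℓ H' (aH h) := by
    intro h
    apply Subtype.ext
    rfl
  have hE := S41.transferAlong_equivariant (inclH L M ℓ H')
    (inclH_injective L M ℓ H') A aH (k5c_conjEquiv L M H' g hgL hgM) hcomp hsurj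
    (ψ.comp (MonoidHom.toAdditive (conjDH L M ℓ H' hML.out)))
  -- `δ g δ⁻¹`
  have hcL : ((S41.conjD L ℓ ⟨g, hgLℓ⟩ : Gamma0 L) : SL(2, ℤ)) ∈ Gamma0 L :=
    (S41.conjD L ℓ ⟨g, hgLℓ⟩).2
  have hcM : ((S41.conjD L ℓ ⟨g, hgLℓ⟩ : Gamma0 L) : SL(2, ℤ)) ∈ Gamma0 M :=
    k5i_mem_Gamma0M L M hcL
  have hd : diamHom M ⟨g, hgM⟩
      = diamHom M ⟨((S41.conjD L ℓ ⟨g, hgLℓ⟩ : Gamma0 L) : SL(2, ℤ)), hcM⟩ := by
    apply k5e_diam_eq_of_entry
    rw [S41.conjD_coe]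
    simp [S41.conjDMat]
  have hL : (ψ.comp (MonoidHom.toAdditive (conjDH L M ℓ H' hML.out))).comp
        (MonoidHom.toAdditive aH)
      = (diamS H' A g hgL hgM ψ).comp (MonoidHom.toAdditive (conjDH L M ℓ H' hML.out)) := by
    refine AddMonoidHom.ext fun k => ?_
    obtain ⟨k, rfl⟩ : ∃ k' : gammaH (L * ℓ) M H', Additive.ofMul k' = k :=
      ⟨Additive.toMul k, rfl⟩
    show ψ (Additive.ofMul (conjDH L M ℓ H' hML.out (aH k)))
      = ψ (Additive.ofMul ⟨g⁻¹ * ((conjDH L M ℓ H' hML.out k : gammaH L M H') : SL(2, ℤ)) * g, _⟩)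
    have e : conjDH L M ℓ H' hML.out (aH k)
        = ⟨((S41.conjD L ℓ ⟨g, hgLℓ⟩ : Gamma0 L) : SL(2, ℤ))⁻¹
            * ((conjDH L M ℓ H' hML.out k : gammaH L M H') : SL(2, ℤ))
            * ((S41.conjD L ℓ ⟨g, hgLℓ⟩ : Gamma0 L) : SL(2, ℤ)),
          normalizes_gammaH hcL hcM _ (conjDH L M ℓ H' hML.out k).2⟩ := by
      apply Subtype.ext
      have e' : (⟨((aH k : gammaH (L * ℓ) M H') : SL(2, ℤ)), (aH k).2.1⟩ : Gamma0 (L * ℓ))
          = (⟨g, hgLℓ⟩ : Gamma0 (L * ℓ))⁻¹ * ⟨(k : SL(2, ℤ)), k.2.1⟩ * ⟨g, hgLℓ⟩ := rfl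
      show ((S41.conjD L ℓ ⟨((aH k : gammaH (L * ℓ) M H') : SL(2, ℤ)), (aH k).2.1⟩ : Gamma0 L) :
          SL(2, ℤ))
        = ((S41.conjD L ℓ ⟨g, hgLℓ⟩ : Gamma0 L) : SL(2, ℤ))⁻¹
          * ((S41.conjD L ℓ ⟨(k : SL(2, ℤ)), k.2.1⟩ : Gamma0 L) : SL(2, ℤ))
          * ((S41.conjD L ℓ ⟨g, hgLℓ⟩ : Gamma0 L) : SL(2, ℤ))
      rw [e', map_mul, map_mul, map_inv]
      rfl
    rw [e]
    exact k5c_inner ψ g ((S41.conjD L ℓ ⟨g, hgLℓ⟩ : Gamma0 L) : SL(2, ℤ))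
      ((conjDH L M ℓ H' hML.out k : gammaH L M H') : SL(2, ℤ)) _ _
      (k5e_inv_mul_mem H' hgL hgM hcL hcM hd)
  show (S41.transferAlong A (inclH L M ℓ H') (inclH_injective L M ℓ H')
      (ψ.comp (MonoidHom.toAdditive (conjDH L M ℓ H' hML.out)))).comp
        (MonoidHom.toAdditive (conjHom g (normalizes_gammaH hgL hgM)))
    = S41.transferAlong A (inclH L M ℓ H') (inclH_injective L M ℓ H')
      ((diamS H' A g hgL hgM ψ).comp (MonoidHom.toAdditive (conjDH L M ℓ H' hML.out)))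
  rw [← hL, hE]
  rfl

end clauses

/-- **K5-UQ1** -/
theorem stmtCommU : StmtCommU := by
  intro L M ℓ _ _ hML H' H hle A _
  refine ⟨k5u_res_comm L M ℓ H' H hle A, k5u_cores_comm L M ℓ H' H hle A, ?_⟩
  intro g hgL hgM ψ
  obtain ⟨g', hgLℓ', hgM', hgd, hg01⟩ := k5u_gen L M ℓ (diamHom M ⟨g, hgM⟩)
  have hgL' : g' ∈ Gamma0 L := S41.Gamma0_mul_le L ℓ hgLℓ'
  rw [k5c_diam_congr L M H' A g g' hgL hgM hgL' hgM' hgd.symm,
    k5c_diam_congr L M H' A g g' hgL hgM hgL' hgM' hgd.symm]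
  exact k5u_diam_comm_of_mem L M ℓ H' A g' hgL' hgM' hg01 ψ

/-- **K5-UQ1′** -/
theorem stmtCommUAdj : StmtCommUAdj := by
  intro L M ℓ _ _ hML H' H hle A _
  refine ⟨k5u_adj_res_comm L M ℓ H' H hle A, k5u_adj_cores_comm L M ℓ H' H hle A, ?_⟩
  intro g hgL hgM ψ
  obtain ⟨g', hgLℓ', hgM', hgd, hg01⟩ := k5u_gen L M ℓ (diamHom M ⟨g, hgM⟩)
  have hgL' : g' ∈ Gamma0 L := S41.Gamma0_mul_le L ℓ hgLℓ'
  rw [k5c_diam_congr L M H' A g g' hgL hgM hgL' hgM' hgd.symm,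
    k5c_diam_congr L M H' A g g' hgL hgM hgL' hgM' hgd.symm]
  exact k5u_adj_diam_comm_of_mem L M ℓ H' A g' hgL' hgM' hgLℓ' ψ

end Fermat.Agent.RT.K5

end
end ZBRT_028_6

/-! ### bundled: `Fermat.Agent.RT.K5.Nat` -/
section ZBRT_028_7

/-!
# RT-K5, piece NAT: naturality in the coefficient group — `stmtNat : StmtNat`
-/

set_option autoImplicit false
set_option linter.style.haveILetI false
set_option linter.unusedSectionVars false
set_option linter.unusedVariables false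

noncomputable section

namespace Fermat.Agent.RT.K5

open CongruenceSubgroup Matrix
open scoped MatrixGroups
open Fermat.Agent.ES1 (gammaH diamHom pmH)

/-- the transfer is natural in the coefficient group -/
theorem k5nat_transfer {G H : Type*} [Group G] [Group H] (f : H →* G)
    (hf : Function.Injective f) [f.range.FiniteIndex] {A B : Type*} [AddCommGroup A]
    [AddCommGroup B] (u : A →+ B) (ψ : Additive H →+ A) :
    u.comp (S41.transferAlong A f hf ψ) = S41.transferAlong B f hf (u.comp ψ) := by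
  refine AddMonoidHom.ext fun g => ?_
  obtain ⟨g, rfl⟩ : ∃ g' : G, Additive.ofMul g' = g := ⟨Additive.toMul g, rfl⟩
  rw [AddMonoidHom.comp_apply, S41.transferAlong_eq_sum, S41.transferAlong_eq_sum, map_sum]
  rfl

section level

variable (L M : ℕ) [NeZero L] [hML : Fact (M ∣ L)] {A B : Type} [AddCommGroup A] [AddCommGroup B]
  (f : A →+ B)

theorem k5nat_res {Γ' Γ : Subgroup SL(2, ℤ)} (h : Γ' ≤ Γ) (φ : HomS Γ A) :
    mapS f (resS A h φ) = resS B h (mapS f φ) := rfl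

theorem k5nat_cores {Γ' Γ : Subgroup SL(2, ℤ)} (h : Γ' ≤ Γ)
    [(Subgroup.inclusion h).range.FiniteIndex] (ψ : HomS Γ' A) :
    mapS f (coresS A h ψ) = coresS B h (mapS f ψ) :=
  k5nat_transfer (Subgroup.inclusion h) (Subgroup.inclusion_injective h) f ψ

theorem k5nat_diam (H : Subgroup (ZMod M)ˣ) (g : SL(2, ℤ)) (hgL : g ∈ Gamma0 L)
    (hgM : g ∈ Gamma0 M) (ψ : HomS (gammaH L M H) A) :
    mapS f (diamS H A g hgL hgM ψ) = diamS H B g hgL hgM (mapS f ψ) := rfl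

theorem k5nat_resH (ℓ : ℕ) [NeZero ℓ] (H : Subgroup (ZMod M)ˣ) (φ : HomS (gammaH L M H) A) :
    mapS f (resH L M ℓ H A φ) = resH L M ℓ H B (mapS f φ) := rfl

theorem k5nat_resDH (ℓ : ℕ) [NeZero ℓ] (H : Subgroup (ZMod M)ˣ) (φ : HomS (gammaH L M H) A) :
    mapS f (resDH L M ℓ H A φ) = resDH L M ℓ H B (mapS f φ) := rfl

theorem k5nat_coresH (ℓ : ℕ) [NeZero ℓ] (H : Subgroup (ZMod M)ˣ)
    (ψ : HomS (gammaH (L * ℓ) M H) A) :
    mapS f (coresH L M ℓ H A ψ) = coresH L M ℓ H B (mapS f ψ) :=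
  k5nat_transfer (inclH L M ℓ H) (inclH_injective L M ℓ H) f ψ

theorem k5nat_coresDH (ℓ : ℕ) [NeZero ℓ] (H : Subgroup (ZMod M)ˣ)
    (ψ : HomS (gammaH (L * ℓ) M H) A) :
    mapS f (coresDH L M ℓ H A ψ) = coresDH L M ℓ H B (mapS f ψ) :=
  k5nat_transfer (conjDH L M ℓ H hML.out) (conjDH_injective L M ℓ H hML.out) f ψ

theorem k5nat_tS (ℓ : ℕ) [NeZero ℓ] (H : Subgroup (ZMod M)ˣ) (φ : HomS (gammaH L M H) A) :
    mapS f (tS L M ℓ H A φ) = tS L M ℓ H B (mapS f φ) := by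
  show mapS f (coresDH L M ℓ H A (resH L M ℓ H A φ)) = coresDH L M ℓ H B (resH L M ℓ H B (mapS f φ))
  rw [k5nat_coresDH, k5nat_resH]

theorem k5nat_tSadj (ℓ : ℕ) [NeZero ℓ] (H : Subgroup (ZMod M)ˣ) (φ : HomS (gammaH L M H) A) :
    mapS f (tSadj L M ℓ H A φ) = tSadj L M ℓ H B (mapS f φ) := by
  show mapS f (coresH L M ℓ H A (resDH L M ℓ H A φ)) = coresH L M ℓ H B (resDH L M ℓ H B (mapS f φ))
  rw [k5nat_coresH, k5nat_resDH]

theorem k5nat_etaS (ℓ : ℕ) [NeZero ℓ] (H : Subgroup (ZMod M)ˣ) (φ : HomS (gammaH L M H) A) :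
    mapS f (etaS L M ℓ H A φ) = etaS L M ℓ H B (mapS f φ) := by
  show mapS f (tS L M ℓ H A φ - (ℓ + 1) • φ) = tS L M ℓ H B (mapS f φ) - (ℓ + 1) • mapS f φ
  rw [map_sub, map_nsmul, k5nat_tS]

end level

/-- **K5-NAT** -/
theorem stmtNat : StmtNat := by
  intro L M _ hML A B _ _ f
  refine ⟨fun H' H hle φ => rfl, fun H' H hle ψ => ?_, fun H g hgL hgM ψ => rfl,
    fun ℓ _ H φ => ⟨k5nat_tS L M f ℓ H φ, k5nat_tSadj L M f ℓ H φ⟩⟩
  exact k5nat_cores f (Fermat.Agent.ES1.gammaH_mono hle) ψ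

end Fermat.Agent.RT.K5

end
end ZBRT_028_7

/-! ### bundled: `Fermat.Agent.RT.K5.Act` -/
section ZBRT_028_8

/-!
# RT-K5, piece ACT: the diamond action of `(ℤ/M)ˣ` on `Hom(Γ_{H'}(L), A)`

* `diamU L M H' A : (ZMod M)ˣ →* AddMonoid.End (HomS (gammaH L M H') A)`, the diamond action as a
  monoid homomorphism (a representative `g ∈ Γ₀(L) ∩ Γ₀(M)` of the class is chosen by `stmtGen`;
  the operator does not depend on it by `k5c_diam_congr`);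
* `k5act_diamU_diamHom` : `diamU (diamHom M ⟨g, hgM⟩) = diamS H' A g hgL hgM`;
* `k5act_diamU_of_mem` : `diamU u = 1` for `u ∈ pmH H'`;
* `k5act_comm` : every `CompatFam` operator commutes with `diamU`;
* `k5act_res`, `k5act_tS`, `k5act_tSadj`, `k5act_mapS`, `k5act_isInv_iff`, `k5act_etaPart`.
-/

set_option autoImplicit false
set_option linter.unusedSectionVars false
set_option linter.unusedVariables false

noncomputable section

namespace Fermat.Agent.RT.K5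

open CongruenceSubgroup Matrix
open scoped MatrixGroups
open Fermat.Agent.ES1 (gammaH diamHom pmH)

section rep

variable (L M : ℕ) [NeZero L] [hML : Fact (M ∣ L)]

/-- every class of `(ℤ/M)ˣ` is the diamond of some `g ∈ Γ₀(L) ∩ Γ₀(M)` -/
theorem k5act_exists (u : (ZMod M)ˣ) :
    ∃ g : SL(2, ℤ), ∃ (_ : g ∈ Gamma0 L) (hgM : g ∈ Gamma0 M), diamHom M ⟨g, hgM⟩ = u := by
  have : NeZero (1 : ℕ) := ⟨one_ne_zero⟩
  obtain ⟨g, hgL, hgM, h, -⟩ := stmtGen L M 1 (Nat.coprime_one_left L) u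
  exact ⟨g, hgL, hgM, h⟩

/-- a chosen representative of the diamond class `u` -/
def k5act_rep (u : (ZMod M)ˣ) : SL(2, ℤ) := (k5act_exists L M u).choose

theorem k5act_rep_memL (u : (ZMod M)ˣ) : k5act_rep L M u ∈ Gamma0 L :=
  (k5act_exists L M u).choose_spec.choose

theorem k5act_rep_memM (u : (ZMod M)ˣ) : k5act_rep L M u ∈ Gamma0 M :=
  (k5act_exists L M u).choose_spec.choose_spec.choose

theorem k5act_rep_diam (u : (ZMod M)ˣ) :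
    diamHom M ⟨k5act_rep L M u, k5act_rep_memM L M u⟩ = u :=
  (k5act_exists L M u).choose_spec.choose_spec.choose_spec

end rep

section act

variable (L M : ℕ) [NeZero L] [hML : Fact (M ∣ L)] (H' : Subgroup (ZMod M)ˣ)
  (A : Type) [AddCommGroup A]

/-- `diamS` is multiplicative: `(g g') · ψ = g · (g' · ψ)` -/
theorem k5act_diamS_mul (g g' : SL(2, ℤ)) (hgL : g ∈ Gamma0 L) (hgM : g ∈ Gamma0 M)
    (hgL' : g' ∈ Gamma0 L) (hgM' : g' ∈ Gamma0 M) (ψ : HomS (gammaH L M H') A) :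
    diamS H' A (g * g') (mul_mem hgL hgL') (mul_mem hgM hgM') ψ
      = diamS H' A g hgL hgM (diamS H' A g' hgL' hgM' ψ) := by
  refine AddMonoidHom.ext fun γ => ?_
  obtain ⟨γ, rfl⟩ : ∃ γ' : gammaH L M H', Additive.ofMul γ' = γ := ⟨Additive.toMul γ, rfl⟩
  show ψ (Additive.ofMul ⟨(g * g')⁻¹ * γ * (g * g'), _⟩)
    = ψ (Additive.ofMul ⟨g'⁻¹ * (g⁻¹ * γ * g) * g', _⟩)
  congr 2
  apply Subtype.ext
  show (g * g')⁻¹ * (γ : SL(2, ℤ)) * (g * g') = g'⁻¹ * (g⁻¹ * γ * g) * g'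
  group

/-- `diamS g` is trivial for `g ∈ Γ_{H'}(L)` (inner automorphisms act trivially) -/
theorem k5act_diamS_of_mem (g : SL(2, ℤ)) (hg : g ∈ gammaH L M H')
    (ψ : HomS (gammaH L M H') A) : diamS H' A g hg.1 hg.2.1 ψ = ψ := by
  refine AddMonoidHom.ext fun γ => ?_
  obtain ⟨γ, rfl⟩ : ∃ γ' : gammaH L M H', Additive.ofMul γ' = γ := ⟨Additive.toMul γ, rfl⟩
  show ψ (Additive.ofMul ⟨g⁻¹ * γ * g, _⟩) = ψ (Additive.ofMul γ)
  have e : (⟨g⁻¹ * γ * g, normalizes_gammaH hg.1 hg.2.1 γ γ.2⟩ : gammaH L M H')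
      = (⟨g, hg⟩ : gammaH L M H')⁻¹ * γ * ⟨g, hg⟩ := rfl
  rw [e, ofMul_mul, ofMul_mul, ofMul_inv, map_add, map_add, map_neg]
  abel

/-- **the diamond action** of `(ℤ/M)ˣ` on `Hom(Γ_{H'}(L), A)` -/
def diamU : (ZMod M)ˣ →* AddMonoid.End (HomS (gammaH L M H') A) where
  toFun u := diamS H' A (k5act_rep L M u) (k5act_rep_memL L M u) (k5act_rep_memM L M u)
  map_one' := by
    refine AddMonoidHom.ext fun ψ => ?_
    have hd : diamHom M ⟨k5act_rep L M (1 : (ZMod M)ˣ), k5act_rep_memM L M 1⟩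
        = diamHom M ⟨(1 : SL(2, ℤ)), one_mem _⟩ := by
      rw [k5act_rep_diam]
      have : (⟨(1 : SL(2, ℤ)), one_mem _⟩ : Gamma0 M) = 1 := rfl
      rw [this, map_one]
    have h1 := k5c_diam_congr L M H' A (k5act_rep L M 1) 1 (k5act_rep_memL L M 1)
      (k5act_rep_memM L M 1) (one_mem _) (one_mem _) hd ψ
    show diamS H' A (k5act_rep L M 1) _ _ ψ = ψ
    rw [h1]
    exact k5f_diam_one ψ
  map_mul' u v := by
    refine AddMonoidHom.ext fun ψ => ?_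
    show diamS H' A (k5act_rep L M (u * v)) _ _ ψ
      = diamS H' A (k5act_rep L M u) (k5act_rep_memL L M u) (k5act_rep_memM L M u)
          (diamS H' A (k5act_rep L M v) (k5act_rep_memL L M v) (k5act_rep_memM L M v) ψ)
    rw [← k5act_diamS_mul]
    refine k5c_diam_congr L M H' A _ _ _ _ _ _ ?_ ψ
    rw [k5act_rep_diam, k5e_diam_mul _ _ (k5act_rep_memM L M u) (k5act_rep_memM L M v),
      k5act_rep_diam, k5act_rep_diam]

theorem k5act_diamU_apply (u : (ZMod M)ˣ) (ψ : HomS (gammaH L M H') A) :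
    diamU L M H' A u ψ
      = diamS H' A (k5act_rep L M u) (k5act_rep_memL L M u) (k5act_rep_memM L M u) ψ := rfl

/-- `diamU` at the diamond of `g` is `diamS g` -/
theorem k5act_diamU_diamHom_apply (g : SL(2, ℤ)) (hgL : g ∈ Gamma0 L) (hgM : g ∈ Gamma0 M)
    (ψ : HomS (gammaH L M H') A) :
    diamU L M H' A (diamHom M ⟨g, hgM⟩) ψ = diamS H' A g hgL hgM ψ :=
  k5c_diam_congr L M H' A _ g (k5act_rep_memL L M _) (k5act_rep_memM L M _) hgL hgM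
    (k5act_rep_diam L M _) ψ

/-- `diamU` at the diamond of `g` is `diamS g` -/
theorem k5act_diamU_diamHom (g : SL(2, ℤ)) (hgL : g ∈ Gamma0 L) (hgM : g ∈ Gamma0 M) :
    diamU L M H' A (diamHom M ⟨g, hgM⟩)
      = (show AddMonoid.End (HomS (gammaH L M H') A) from diamS H' A g hgL hgM) :=
  AddMonoidHom.ext fun ψ => k5act_diamU_diamHom_apply L M H' A g hgL hgM ψ

/-- the representative of a class in `±H'` lies in `Γ_{H'}(L)` -/
theorem k5act_rep_mem_gammaH {u : (ZMod M)ˣ} (hu : u ∈ pmH H') :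
    k5act_rep L M u ∈ gammaH L M H' :=
  ⟨k5act_rep_memL L M u, k5act_rep_memM L M u, by rw [k5act_rep_diam]; exact hu⟩

/-- `±H'` acts trivially -/
theorem k5act_diamU_of_mem {u : (ZMod M)ˣ} (hu : u ∈ pmH H') : diamU L M H' A u = 1 :=
  AddMonoidHom.ext fun ψ =>
    k5act_diamS_of_mem L M H' A (k5act_rep L M u) (k5act_rep_mem_gammaH L M H' hu) ψ

theorem k5act_diamU_of_mem_apply {u : (ZMod M)ˣ} (hu : u ∈ pmH H')
    (ψ : HomS (gammaH L M H') A) : diamU L M H' A u ψ = ψ := by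
  rw [k5act_diamU_of_mem L M H' A hu]; rfl

/-- `diamU` only depends on the class modulo `±H'` -/
theorem k5act_diamU_congr {u v : (ZMod M)ˣ} (h : u⁻¹ * v ∈ pmH H') :
    diamU L M H' A u = diamU L M H' A v := by
  have h1 : v = u * (u⁻¹ * v) := by group
  rw [h1, map_mul, k5act_diamU_of_mem L M H' A h, mul_one]

/-- **every `CompatFam` operator commutes with `diamU`** -/
theorem k5act_comm (𝔲 : CompatFam L M A) (K : Subgroup (ZMod M)ˣ) (u : (ZMod M)ˣ)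
    (ψ : HomS (gammaH L M K) A) :
    diamU L M K A u (𝔲.op K ψ) = 𝔲.op K (diamU L M K A u ψ) :=
  𝔲.diam_comm K _ (k5act_rep_memL L M u) (k5act_rep_memM L M u) ψ

/-- `res` commutes with `diamU` -/
theorem k5act_res {H' H : Subgroup (ZMod M)ˣ} (hle : H' ≤ H) (u : (ZMod M)ˣ)
    (φ : HomS (gammaH L M H) A) :
    resS A (Fermat.Agent.ES1.gammaH_mono hle) (diamU L M H A u φ)
      = diamU L M H' A u (resS A (Fermat.Agent.ES1.gammaH_mono hle) φ) :=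
  k5f_res_diam hle _ (k5act_rep_memL L M u) (k5act_rep_memM L M u) φ

/-- `tS ℓ` (every `ℓ ≥ 1`, also `U_q`) commutes with `diamU` -/
theorem k5act_tS (ℓ : ℕ) [NeZero ℓ] (u : (ZMod M)ˣ) (ψ : HomS (gammaH L M H') A) :
    diamU L M H' A u (tS L M ℓ H' A ψ) = tS L M ℓ H' A (diamU L M H' A u ψ) :=
  (stmtCommU L M ℓ H' H' le_rfl A).2.2 _ (k5act_rep_memL L M u) (k5act_rep_memM L M u) ψ

/-- `tSadj ℓ` commutes with `diamU` -/
theorem k5act_tSadj (ℓ : ℕ) [NeZero ℓ] (u : (ZMod M)ˣ) (ψ : HomS (gammaH L M H') A) :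
    diamU L M H' A u (tSadj L M ℓ H' A ψ) = tSadj L M ℓ H' A (diamU L M H' A u ψ) :=
  (stmtCommUAdj L M ℓ H' H' le_rfl A).2.2 _ (k5act_rep_memL L M u) (k5act_rep_memM L M u) ψ

/-- `etaS ℓ` commutes with `diamU` -/
theorem k5act_etaS (ℓ : ℕ) [NeZero ℓ] (u : (ZMod M)ˣ) (ψ : HomS (gammaH L M H') A) :
    diamU L M H' A u (etaS L M ℓ H' A ψ) = etaS L M ℓ H' A (diamU L M H' A u ψ) := by
  show diamU L M H' A u (tS L M ℓ H' A ψ - (ℓ + 1) • ψ)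
    = tS L M ℓ H' A (diamU L M H' A u ψ) - (ℓ + 1) • diamU L M H' A u ψ
  rw [map_sub, map_nsmul, k5act_tS]

/-- `diamU` is natural in the coefficients -/
theorem k5act_mapS {B : Type} [AddCommGroup B] (f : A →+ B) (u : (ZMod M)ˣ)
    (ψ : HomS (gammaH L M H') A) :
    mapS f (diamU L M H' A u ψ) = diamU L M H' B u (mapS f ψ) := rfl

/-- invariance under `Γ_H(L)` in terms of `diamU` -/
theorem k5act_isInv_iff (H : Subgroup (ZMod M)ˣ) (ψ : HomS (gammaH L M H') A) :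
    IsInv H' H ψ ↔ ∀ u ∈ pmH H, diamU L M H' A u ψ = ψ := by
  constructor
  · intro h u hu
    exact h (k5act_rep L M u) (k5act_rep_mem_gammaH L M H hu)
  · intro h g hg
    rw [← k5act_diamU_diamHom_apply L M H' A g hg.1 hg.2.1 ψ]
    exact h _ hg.2.2

/-- a `diamU`-stable subgroup: the bijective part of an operator commuting with the diamonds -/
theorem k5act_etaPart (θ : HomS (gammaH L M H') A →+ HomS (gammaH L M H') A)
    (hθ : ∀ (u : (ZMod M)ˣ) (ψ : HomS (gammaH L M H') A),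
      diamU L M H' A u (θ ψ) = θ (diamU L M H' A u ψ))
    (u : (ZMod M)ˣ) {ψ : HomS (gammaH L M H') A} (hψ : ψ ∈ etaPart θ) :
    diamU L M H' A u ψ ∈ etaPart θ :=
  k5s_intertwine_mem θ θ (diamU L M H' A u) (fun x => hθ u x) hψ

/-- the `Θ`-part of a `CompatFam` is stable under `diamU` -/
theorem k5act_thetaS_mem (𝔲 : CompatFam L M A) (ℓ₀ : ℕ) [NeZero ℓ₀] (u : (ZMod M)ˣ)
    {ψ : HomS (gammaH L M H') A} (hψ : ψ ∈ etaPart (thetaS 𝔲 ℓ₀ H')) :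
    diamU L M H' A u ψ ∈ etaPart (thetaS 𝔲 ℓ₀ H') := by
  refine k5act_etaPart L M H' A _ (fun v x => ?_) u hψ
  show diamU L M H' A v (𝔲.op H' (etaS L M ℓ₀ H' A x))
    = 𝔲.op H' (etaS L M ℓ₀ H' A (diamU L M H' A v x))
  rw [k5act_comm, k5act_etaS]

end act

end Fermat.Agent.RT.K5

end
end ZBRT_028_8

/-! ### bundled: `Fermat.Agent.RT.K5.NatFam` -/
section ZBRT_028_9

/-!
# RT-K5: families of Hecke operators, natural in the coefficient module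

`NatFam 𝒪 L M`: for every `𝒪`-module `A` a `CompatFam L M A`, compatible with `𝒪`-linear maps of
coefficients.  Constructors: `one`, `comp`, `add`, `coeff c` (`c ∈ 𝒪`), `hecke ℓ` (`tS ℓ` for
EVERY `ℓ ≥ 1`, e.g. `U_q`), `heckeAdj ℓ`.  `thetaN 𝔲 ℓ₀ A K = 𝔲_K ∘ (T_ℓ₀ − ℓ₀ − 1)` on
`Hom(Γ_K(L), A)`.
-/

set_option autoImplicit false
set_option linter.style.haveILetI false
set_option linter.unusedSectionVars false
set_option linter.unusedVariables false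

noncomputable section

namespace Fermat.Agent.RT.K5

open CongruenceSubgroup Matrix
open scoped MatrixGroups
open Fermat.Agent.ES1 (gammaH diamHom pmH)

/-- `tS ℓ` for every `ℓ ≥ 1` as a compatible family (`U_q` for a prime `q ∣ L`) -/
def CompatFam.heckeU (L M ℓ : ℕ) [NeZero L] [NeZero ℓ] [Fact (M ∣ L)] (A : Type)
    [AddCommGroup A] : CompatFam L M A where
  op K := tS L M ℓ K A
  res_comm K' K h φ := (stmtCommU L M ℓ K' K h A).1 φ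
  cores_comm K' K h ψ := (stmtCommU L M ℓ K' K h A).2.1 ψ
  diam_comm K g hgL hgM ψ := (stmtCommU L M ℓ K K le_rfl A).2.2 g hgL hgM ψ

/-- `tSadj ℓ` for every `ℓ ≥ 1` as a compatible family -/
def CompatFam.heckeAdj (L M ℓ : ℕ) [NeZero L] [NeZero ℓ] [Fact (M ∣ L)] (A : Type)
    [AddCommGroup A] : CompatFam L M A where
  op K := tSadj L M ℓ K A
  res_comm K' K h φ := (stmtCommUAdj L M ℓ K' K h A).1 φ
  cores_comm K' K h ψ := (stmtCommUAdj L M ℓ K' K h A).2.1 ψ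
  diam_comm K g hgL hgM ψ := (stmtCommUAdj L M ℓ K K le_rfl A).2.2 g hgL hgM ψ

/-- a family of operators on `Hom(Γ_K(L), A)`, all `K`, all `𝒪`-modules `A`, natural in `A` -/
structure NatFam (𝒪 : Type) [CommRing 𝒪] (L M : ℕ) [NeZero L] [Fact (M ∣ L)] where
  /-- the family with coefficients `A` -/
  fam : ∀ (A : Type) [AddCommGroup A] [Module 𝒪 A], CompatFam L M A
  nat : ∀ (A B : Type) [AddCommGroup A] [Module 𝒪 A] [AddCommGroup B] [Module 𝒪 B]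
    (f : A →ₗ[𝒪] B) (K : Subgroup (ZMod M)ˣ) (φ : HomS (gammaH L M K) A),
    mapS f.toAddMonoidHom ((fam A).op K φ) = (fam B).op K (mapS f.toAddMonoidHom φ)

section constructors

variable (𝒪 : Type) [CommRing 𝒪] (L M : ℕ) [NeZero L] [hML : Fact (M ∣ L)]

/-- the trivial family -/
def NatFam.one : NatFam 𝒪 L M where
  fam A _ _ := CompatFam.one L M A
  nat _ _ _ _ _ _ _ _ _ := rfl

variable {𝒪 L M}

/-- composition -/
def NatFam.comp (𝔲 𝔳 : NatFam 𝒪 L M) : NatFam 𝒪 L M where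
  fam A _ _ := (𝔲.fam A).comp (𝔳.fam A)
  nat A B _ _ _ _ f K φ := by
    show mapS f.toAddMonoidHom ((𝔲.fam A).op K ((𝔳.fam A).op K φ))
      = (𝔲.fam B).op K ((𝔳.fam B).op K (mapS f.toAddMonoidHom φ))
    rw [𝔲.nat A B f K, 𝔳.nat A B f K]

/-- sum -/
def NatFam.add (𝔲 𝔳 : NatFam 𝒪 L M) : NatFam 𝒪 L M where
  fam A _ _ := (𝔲.fam A).add (𝔳.fam A)
  nat A B _ _ _ _ f K φ := by
    show mapS f.toAddMonoidHom ((𝔲.fam A).op K φ + (𝔳.fam A).op K φ)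
      = (𝔲.fam B).op K (mapS f.toAddMonoidHom φ) + (𝔳.fam B).op K (mapS f.toAddMonoidHom φ)
    rw [map_add, 𝔲.nat A B f K, 𝔳.nat A B f K]

variable (𝒪 L M)

/-- a scalar `c ∈ 𝒪` -/
def NatFam.coeff (c : 𝒪) : NatFam 𝒪 L M where
  fam A _ _ := CompatFam.coeff L M (DistribSMul.toAddMonoidHom A c)
  nat A B _ _ _ _ f K φ := by
    refine AddMonoidHom.ext fun γ => ?_
    show f (c • φ γ) = c • f (φ γ)
    exact map_smul f c (φ γ)

/-- `tS ℓ`, every `ℓ ≥ 1` -/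
def NatFam.hecke (ℓ : ℕ) [NeZero ℓ] : NatFam 𝒪 L M where
  fam A _ _ := CompatFam.heckeU L M ℓ A
  nat A B _ _ _ _ f K φ := k5nat_tS L M f.toAddMonoidHom ℓ K φ

/-- `tSadj ℓ`, every `ℓ ≥ 1` -/
def NatFam.heckeAdj (ℓ : ℕ) [NeZero ℓ] : NatFam 𝒪 L M where
  fam A _ _ := CompatFam.heckeAdj L M ℓ A
  nat A B _ _ _ _ f K φ := k5nat_tSadj L M f.toAddMonoidHom ℓ K φ

end constructors

section theta

variable {𝒪 : Type} [CommRing 𝒪] {L M : ℕ} [NeZero L] [hML : Fact (M ∣ L)]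

/-- `Θ = 𝔲 ∘ (T_ℓ₀ − ℓ₀ − 1)` on `Hom(Γ_K(L), A)` -/
def thetaN (𝔲 : NatFam 𝒪 L M) (ℓ₀ : ℕ) [NeZero ℓ₀] (A : Type) [AddCommGroup A] [Module 𝒪 A]
    (K : Subgroup (ZMod M)ˣ) : HomS (gammaH L M K) A →+ HomS (gammaH L M K) A :=
  thetaS (𝔲.fam A) ℓ₀ K

theorem k5n_theta_nat (𝔲 : NatFam 𝒪 L M) (ℓ₀ : ℕ) [NeZero ℓ₀] {A B : Type} [AddCommGroup A]
    [Module 𝒪 A] [AddCommGroup B] [Module 𝒪 B] (f : A →ₗ[𝒪] B) (K : Subgroup (ZMod M)ˣ)
    (φ : HomS (gammaH L M K) A) :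
    mapS f.toAddMonoidHom (thetaN 𝔲 ℓ₀ A K φ) = thetaN 𝔲 ℓ₀ B K (mapS f.toAddMonoidHom φ) := by
  show mapS f.toAddMonoidHom ((𝔲.fam A).op K (etaS L M ℓ₀ K A φ))
    = (𝔲.fam B).op K (etaS L M ℓ₀ K B (mapS f.toAddMonoidHom φ))
  rw [𝔲.nat A B f K, k5nat_etaS]

theorem k5n_op_smul (𝔲 : NatFam 𝒪 L M) {A : Type} [AddCommGroup A] [Module 𝒪 A]
    (K : Subgroup (ZMod M)ˣ) (c : 𝒪) (φ : HomS (gammaH L M K) A) :
    (𝔲.fam A).op K (c • φ) = c • (𝔲.fam A).op K φ :=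
  (𝔲.nat A A (LinearMap.lsmul 𝒪 A c) K φ).symm

theorem k5n_theta_smul (𝔲 : NatFam 𝒪 L M) (ℓ₀ : ℕ) [NeZero ℓ₀] {A : Type} [AddCommGroup A]
    [Module 𝒪 A] (K : Subgroup (ZMod M)ˣ) (c : 𝒪) (φ : HomS (gammaH L M K) A) :
    thetaN 𝔲 ℓ₀ A K (c • φ) = c • thetaN 𝔲 ℓ₀ A K φ :=
  (k5n_theta_nat 𝔲 ℓ₀ (LinearMap.lsmul 𝒪 A c) K φ).symm

/-- `res` intertwines `Θ` -/
theorem k5n_theta_res (𝔲 : NatFam 𝒪 L M) (ℓ₀ : ℕ) [NeZero ℓ₀] (hℓ : ℓ₀.Prime) (hℓL : ¬ ℓ₀ ∣ L)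
    {A : Type} [AddCommGroup A] [Module 𝒪 A] {K' K : Subgroup (ZMod M)ˣ} (h : K' ≤ K)
    (φ : HomS (gammaH L M K) A) :
    resS A (Fermat.Agent.ES1.gammaH_mono h) (thetaN 𝔲 ℓ₀ A K φ)
      = thetaN 𝔲 ℓ₀ A K' (resS A (Fermat.Agent.ES1.gammaH_mono h) φ) := by
  show resS A (Fermat.Agent.ES1.gammaH_mono h)
      ((𝔲.fam A).op K (tS L M ℓ₀ K A φ - (ℓ₀ + 1) • φ))
    = (𝔲.fam A).op K' (tS L M ℓ₀ K' A (resS A (Fermat.Agent.ES1.gammaH_mono h) φ)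
      - (ℓ₀ + 1) • resS A (Fermat.Agent.ES1.gammaH_mono h) φ)
  rw [(𝔲.fam A).res_comm K' K h, map_sub, map_nsmul, (stmtCommU L M ℓ₀ K' K h A).1]

/-- `cores` intertwines `Θ` -/
theorem k5n_theta_cores (𝔲 : NatFam 𝒪 L M) (ℓ₀ : ℕ) [NeZero ℓ₀]
    {A : Type} [AddCommGroup A] [Module 𝒪 A] {K' K : Subgroup (ZMod M)ˣ} (h : K' ≤ K)
    (ψ : HomS (gammaH L M K') A) :
    coresS A (Fermat.Agent.ES1.gammaH_mono h) (thetaN 𝔲 ℓ₀ A K' ψ)
      = thetaN 𝔲 ℓ₀ A K (coresS A (Fermat.Agent.ES1.gammaH_mono h) ψ) := by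
  show coresS A (Fermat.Agent.ES1.gammaH_mono h)
      ((𝔲.fam A).op K' (tS L M ℓ₀ K' A ψ - (ℓ₀ + 1) • ψ))
    = (𝔲.fam A).op K (tS L M ℓ₀ K A (coresS A (Fermat.Agent.ES1.gammaH_mono h) ψ)
      - (ℓ₀ + 1) • coresS A (Fermat.Agent.ES1.gammaH_mono h) ψ)
  rw [(𝔲.fam A).cores_comm K' K h, map_sub, map_nsmul, (stmtCommU L M ℓ₀ K' K h A).2.1]

/-- the diamonds commute with `Θ` -/
theorem k5n_theta_diam (𝔲 : NatFam 𝒪 L M) (ℓ₀ : ℕ) [NeZero ℓ₀]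
    {A : Type} [AddCommGroup A] [Module 𝒪 A] (K : Subgroup (ZMod M)ˣ)
    (g : SL(2, ℤ)) (hgL : g ∈ Gamma0 L) (hgM : g ∈ Gamma0 M) (ψ : HomS (gammaH L M K) A) :
    diamS K A g hgL hgM (thetaN 𝔲 ℓ₀ A K ψ) = thetaN 𝔲 ℓ₀ A K (diamS K A g hgL hgM ψ) := by
  show diamS K A g hgL hgM ((𝔲.fam A).op K (tS L M ℓ₀ K A ψ - (ℓ₀ + 1) • ψ))
    = (𝔲.fam A).op K (tS L M ℓ₀ K A (diamS K A g hgL hgM ψ) - (ℓ₀ + 1) • diamS K A g hgL hgM ψ)
  rw [(𝔲.fam A).diam_comm, map_sub, map_nsmul, (stmtCommU L M ℓ₀ K K le_rfl A).2.2]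

end theta

end Fermat.Agent.RT.K5

end
end ZBRT_028_9

/-! ### bundled: `Fermat.Agent.RT.Hecke.ConcDefs` -/
section ZBRT_028_10

/-!
# K-machine, HK-CONC, layer (B) (helper9): the concrete objects, part 1 (module side)

Generic in the level `(L, M, H')`, the coefficient ring `𝒪` and the Hecke operator `𝔲`:

* `RthkdC 𝒪 ν = 𝒪 ⧸ 𝔪 ^ ν` (the algebra structure of `S ⧸ 𝔪_S ^ ν` over it is `rthkcaAlg`,
  `RT/Hecke/ConcAlg.lean`);
* `rthkdX 𝔲 ℓ₀ H' ν` : the `Θ`-part `etaPart (thetaN 𝔲 ℓ₀ (𝒪 ⧸ 𝔪 ^ ν) H')` of `Hom(Γ_{H'}(L), 𝒪 ⧸ 𝔪 ^ ν)`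
  as a submodule over `𝒪 ⧸ 𝔪 ^ ν`;  `X = ↥(rthkdX …)`;
* `rthkdRes f hf` : the restriction of an endomorphism to a stable submodule;
* `RthkdDelta M H' = (ZMod M)ˣ ⧸ pmH H'` (a finite commutative group);
* `rthkdD 𝔲 ℓ₀ H' ν : RthkdDelta M H' →* AddMonoid.End X`, the diamonds `K5.diamU` on `X`
  (`rthkdD_mk_coe`).
-/

set_option autoImplicit false
set_option linter.unusedSectionVars false
set_option linter.style.haveILetI false

noncomputable section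

namespace Fermat.Agent.RT

open IsLocalRing Fermat.Agent.RT.K5
open Fermat.Agent.ES1 (gammaH diamHom pmH)

/-! ## the coefficient ring -/

section coeff

variable (O : Type) [CommRing O] [IsLocalRing O] (ν : ℕ)

/-- `𝒪 ⧸ 𝔪 ^ ν` -/
abbrev RthkdC : Type := O ⧸ maximalIdeal O ^ ν

end coeff

/-! ## restriction of endomorphisms -/

section res

variable {C : Type} [CommRing C] {V : Type} [AddCommGroup V] [Module C V]

/-- the restriction of an additive endomorphism to a stable submodule -/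
def rthkdRes (X : Submodule C V) (f : V →+ V) (hf : ∀ x ∈ X, f x ∈ X) : AddMonoid.End X where
  toFun x := ⟨f (x : V), hf x x.2⟩
  map_zero' := Subtype.ext (map_zero f)
  map_add' x y := Subtype.ext (map_add f (x : V) (y : V))

@[simp] theorem rthkdRes_coe (X : Submodule C V) (f : V →+ V) (hf : ∀ x ∈ X, f x ∈ X) (x : X) :
    ((rthkdRes X f hf x : X) : V) = f (x : V) := rfl

end res

/-! ## the module -/

section module

variable {O : Type} [CommRing O] [IsLocalRing O] {L M : ℕ} [NeZero L] [hML : Fact (M ∣ L)]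
  (𝔲 : NatFam O L M) (ℓ₀ : ℕ) [NeZero ℓ₀] (H' : Subgroup (ZMod M)ˣ) (ν : ℕ)

/-- the `Θ`-part of `Hom(Γ_{H'}(L), 𝒪 ⧸ 𝔪 ^ ν)`, as a submodule -/
def rthkdX : Submodule (RthkdC O ν) (HomS (gammaH L M H') (RthkdC O ν)) where
  carrier := etaPart (thetaN 𝔲 ℓ₀ (RthkdC O ν) H')
  add_mem' := fun ha hb => AddSubgroup.add_mem _ ha hb
  zero_mem' := AddSubgroup.zero_mem _
  smul_mem' := fun c φ hφ => by
    obtain ⟨c, rfl⟩ := Ideal.Quotient.mk_surjective c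
    have h := k5s_intertwine_mem (thetaN 𝔲 ℓ₀ (RthkdC O ν) H') (thetaN 𝔲 ℓ₀ (RthkdC O ν) H')
      (DistribSMul.toAddMonoidHom (HomS (gammaH L M H') (RthkdC O ν)) c)
      (fun x => (k5n_theta_smul 𝔲 ℓ₀ H' c x).symm) hφ
    exact h

theorem rthkd_mem_X {φ : HomS (gammaH L M H') (RthkdC O ν)} :
    φ ∈ rthkdX 𝔲 ℓ₀ H' ν ↔ φ ∈ etaPart (thetaN 𝔲 ℓ₀ (RthkdC O ν) H') := Iff.rfl

/-- the diamond group -/
abbrev RthkdDelta (M : ℕ) (H' : Subgroup (ZMod M)ˣ) : Type := (ZMod M)ˣ ⧸ pmH H'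

instance rthkdDeltaFintype [NeZero M] : Fintype (RthkdDelta M H') := Fintype.ofFinite _

theorem rthkd_diamU_mem (u : (ZMod M)ˣ) {φ : HomS (gammaH L M H') (RthkdC O ν)}
    (hφ : φ ∈ rthkdX 𝔲 ℓ₀ H' ν) : diamU L M H' (RthkdC O ν) u φ ∈ rthkdX 𝔲 ℓ₀ H' ν :=
  k5act_thetaS_mem L M H' (RthkdC O ν) (𝔲.fam (RthkdC O ν)) ℓ₀ u hφ

/-- the diamonds on `X`, before the quotient -/
def rthkdD0 : (ZMod M)ˣ →* AddMonoid.End (rthkdX 𝔲 ℓ₀ H' ν) where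
  toFun u := rthkdRes (rthkdX 𝔲 ℓ₀ H' ν) (diamU L M H' (RthkdC O ν) u)
    (fun _ hx => rthkd_diamU_mem 𝔲 ℓ₀ H' ν u hx)
  map_one' := by
    refine AddMonoidHom.ext fun x => Subtype.ext ?_
    show diamU L M H' (RthkdC O ν) 1 (x : HomS (gammaH L M H') (RthkdC O ν)) = x
    rw [map_one]
    rfl
  map_mul' u v := by
    refine AddMonoidHom.ext fun x => Subtype.ext ?_
    show diamU L M H' (RthkdC O ν) (u * v) (x : HomS (gammaH L M H') (RthkdC O ν))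
      = diamU L M H' (RthkdC O ν) u (diamU L M H' (RthkdC O ν) v x)
    rw [map_mul]
    rfl

theorem rthkdD0_coe (u : (ZMod M)ˣ) (x : rthkdX 𝔲 ℓ₀ H' ν) :
    ((rthkdD0 𝔲 ℓ₀ H' ν u x : rthkdX 𝔲 ℓ₀ H' ν) : HomS (gammaH L M H') (RthkdC O ν))
      = diamU L M H' (RthkdC O ν) u x := rfl

theorem rthkdD0_of_mem {u : (ZMod M)ˣ} (hu : u ∈ pmH H') : rthkdD0 𝔲 ℓ₀ H' ν u = 1 := by
  refine AddMonoidHom.ext fun x => Subtype.ext ?_
  show diamU L M H' (RthkdC O ν) u (x : HomS (gammaH L M H') (RthkdC O ν)) = x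
  exact k5act_diamU_of_mem_apply L M H' (RthkdC O ν) hu _

/-- **the diamonds** `D : Δ →* End X` -/
def rthkdD : RthkdDelta M H' →* AddMonoid.End (rthkdX 𝔲 ℓ₀ H' ν) :=
  QuotientGroup.lift (pmH H') (rthkdD0 𝔲 ℓ₀ H' ν) (fun _ hu => rthkdD0_of_mem 𝔲 ℓ₀ H' ν hu)

theorem rthkdD_mk (u : (ZMod M)ˣ) :
    rthkdD 𝔲 ℓ₀ H' ν (QuotientGroup.mk u) = rthkdD0 𝔲 ℓ₀ H' ν u := rfl

theorem rthkdD_mk_coe (u : (ZMod M)ˣ) (x : rthkdX 𝔲 ℓ₀ H' ν) :
    ((rthkdD 𝔲 ℓ₀ H' ν (QuotientGroup.mk u) x : rthkdX 𝔲 ℓ₀ H' ν) :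
        HomS (gammaH L M H') (RthkdC O ν))
      = diamU L M H' (RthkdC O ν) u x := rfl

/-- the diamonds are linear -/
theorem rthkdD_smul (δ : RthkdDelta M H') (c : RthkdC O ν) (x : rthkdX 𝔲 ℓ₀ H' ν) :
    rthkdD 𝔲 ℓ₀ H' ν δ (c • x) = c • rthkdD 𝔲 ℓ₀ H' ν δ x := by
  obtain ⟨u, rfl⟩ := QuotientGroup.mk_surjective δ
  exact Subtype.ext rfl

end module

end Fermat.Agent.RT

end


end ZBRT_028_10

/-! ### bundled: `Fermat.Agent.RT.Hecke.ConcAct` -/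
section ZBRT_028_11

/-!
# K-machine, HECKE-asm, HK-CONC, layer (B), part 2: the Hecke action on the module side

On top of helper9's `RT/Hecke/ConcDefs.lean` (`RthkdC`, `rthkdX`, `RthkdDelta`, `rthkdD`):

* `rthkdStab X`, `rthkdResHom X` : the subring of the additive endomorphisms preserving a
  submodule `X`, and the restriction as a ring homomorphism;
* `rthkdEval p L M H' A : HDAlg M →+* AddMonoid.End (Hom(Γ_{H'}(L), A))` : the Hecke–diamond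
  polynomials (`es1infHomEval`, ES1/Inf/PkgOp.lean) as additive endomorphisms;
* **`rthkdAct p 𝔲 ℓ₀ H' ν hst : HDAlg M →+* AddMonoid.End ↥(rthkdX 𝔲 ℓ₀ H' ν)`** : the `act` of
  `HkConc`; `hst` = the stability of the `Θ`-part under the Hecke–diamond polynomials
  (`es1inffk_expr_mem` for `𝔲 = E.eval L M`, `E.IsPrimes`, `ℓ₀` prime, `ℓ₀ ∤ L`);
  `rthkdAct_coe : (act t x : V) = es1infHomEval L M H' _ p C t x` (by `rfl`);
* `rthkdAct_smul` : the action is linear over `𝒪 ⧸ 𝔪 ^ ν` (the first half of `act_comm`).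
-/

set_option autoImplicit false
set_option linter.unusedSectionVars false

noncomputable section

namespace Fermat.Agent.RT

open IsLocalRing Fermat.Agent.ES1 Fermat.Agent.RT.K5
open scoped MatrixGroups

/-! ### Restriction of endomorphisms to a stable submodule, as a ring homomorphism -/

section generic

variable {R : Type*} [Ring R] {V : Type*} [AddCommGroup V] [Module R V] (X : Submodule R V)

/-- the additive endomorphisms of `V` preserving `X` -/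
def rthkdStab : Subring (AddMonoid.End V) where
  carrier := {f | ∀ x ∈ X, f x ∈ X}
  mul_mem' := fun {_ g} hf hg x hx => hf (g x) (hg x hx)
  one_mem' := fun _ hx => hx
  add_mem' := fun {_ _} hf hg x hx => X.add_mem (hf x hx) (hg x hx)
  zero_mem' := fun _ _ => X.zero_mem
  neg_mem' := fun {_} hf x hx => X.neg_mem (hf x hx)

theorem rthkd_mem_stab {f : AddMonoid.End V} : f ∈ rthkdStab X ↔ ∀ x ∈ X, f x ∈ X := Iff.rfl

/-- the restriction to `X` of the endomorphisms preserving `X` -/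
def rthkdResHom : rthkdStab X →+* AddMonoid.End X where
  toFun f := AddMonoidHom.mk' (fun x : X => (⟨(f : AddMonoid.End V) x, f.2 x x.2⟩ : X))
    (fun x y => Subtype.ext (map_add (f : AddMonoid.End V) (x : V) (y : V)))
  map_one' := rfl
  map_mul' _ _ := rfl
  map_zero' := rfl
  map_add' _ _ := rfl

@[simp] theorem rthkdResHom_coe (f : rthkdStab X) (x : X) :
    ((rthkdResHom X f x : X) : V) = (f : AddMonoid.End V) (x : V) := rfl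

end generic

/-! ### The Hecke action -/

section act

variable {O : Type} [CommRing O] [IsLocalRing O] (p : ℕ) {L M : ℕ} [NeZero L] [NeZero M]
  [hML : Fact (M ∣ L)] (𝔲 : NatFam O L M) (ℓ₀ : ℕ) [NeZero ℓ₀] (H' : Subgroup (ZMod M)ˣ) (ν : ℕ)

variable (L M) in
/-- the Hecke–diamond polynomials as additive endomorphisms of `Hom(Γ_{H'}(L), A)` -/
def rthkdEval (A : Type) [AddCommGroup A] :
    HDAlg M →+* AddMonoid.End (HomS (gammaH L M H') A) :=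
  (addMonoidEndRingEquivInt (HomS (gammaH L M H') A)).symm.toRingHom.comp
    (es1infHomEval L M H' hML.out p A).toRingHom

@[simp] theorem rthkdEval_apply (A : Type) [AddCommGroup A] (t : HDAlg M)
    (ψ : HomS (gammaH L M H') A) :
    rthkdEval p L M H' A t ψ = es1infHomEval L M H' hML.out p A t ψ := rfl

/-- **the Hecke action** on the `Θ`-part; `hst` = the stability of the `Θ`-part under the
Hecke–diamond polynomials (`es1inffk_expr_mem`) -/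
def rthkdAct
    (hst : ∀ (t : HDAlg M) (ψ : HomS (gammaH L M H') (RthkdC O ν)),
      ψ ∈ etaPart (thetaN 𝔲 ℓ₀ (RthkdC O ν) H') →
      es1infHomEval L M H' hML.out p (RthkdC O ν) t ψ
        ∈ etaPart (thetaN 𝔲 ℓ₀ (RthkdC O ν) H')) :
    HDAlg M →+* AddMonoid.End (rthkdX 𝔲 ℓ₀ H' ν) :=
  (rthkdResHom (rthkdX 𝔲 ℓ₀ H' ν)).comp
    ((rthkdEval p L M H' (RthkdC O ν)).codRestrict
      (rthkdStab (rthkdX 𝔲 ℓ₀ H' ν)) (fun t ψ hψ => hst t ψ hψ))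

variable {p 𝔲 ℓ₀ H' ν}

@[simp] theorem rthkdAct_coe
    (hst : ∀ (t : HDAlg M) (ψ : HomS (gammaH L M H') (RthkdC O ν)),
      ψ ∈ etaPart (thetaN 𝔲 ℓ₀ (RthkdC O ν) H') →
      es1infHomEval L M H' hML.out p (RthkdC O ν) t ψ
        ∈ etaPart (thetaN 𝔲 ℓ₀ (RthkdC O ν) H'))
    (t : HDAlg M) (x : rthkdX 𝔲 ℓ₀ H' ν) :
    ((rthkdAct p 𝔲 ℓ₀ H' ν hst t x : rthkdX 𝔲 ℓ₀ H' ν) : HomS (gammaH L M H') (RthkdC O ν))
      = es1infHomEval L M H' hML.out p (RthkdC O ν) t (x : HomS (gammaH L M H') _) := rfl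

/-- the Hecke action is linear over `𝒪 ⧸ 𝔪 ^ ν` (the first half of `act_comm`) -/
theorem rthkdAct_smul
    (hst : ∀ (t : HDAlg M) (ψ : HomS (gammaH L M H') (RthkdC O ν)),
      ψ ∈ etaPart (thetaN 𝔲 ℓ₀ (RthkdC O ν) H') →
      es1infHomEval L M H' hML.out p (RthkdC O ν) t ψ
        ∈ etaPart (thetaN 𝔲 ℓ₀ (RthkdC O ν) H'))
    (t : HDAlg M) (c : RthkdC O ν) (x : rthkdX 𝔲 ℓ₀ H' ν) :
    rthkdAct p 𝔲 ℓ₀ H' ν hst t (c • x) = c • rthkdAct p 𝔲 ℓ₀ H' ν hst t x := by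
  refine Subtype.ext ?_
  rw [rthkdAct_coe, Submodule.coe_smul, Submodule.coe_smul, rthkdAct_coe]
  exact es1infHomEval_comp hML.out
    (DistribSMul.toAddMonoidHom (RthkdC O ν) c) t (x : HomS (gammaH L M H') _)

/-- an element of the `Θ`-part as an element of `X` -/
def rthkdOf {ψ : HomS (gammaH L M H') (RthkdC O ν)}
    (hψ : ψ ∈ etaPart (thetaN 𝔲 ℓ₀ (RthkdC O ν) H')) : rthkdX 𝔲 ℓ₀ H' ν := ⟨ψ, hψ⟩

@[simp] theorem rthkdOf_coe {ψ : HomS (gammaH L M H') (RthkdC O ν)}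
    (hψ : ψ ∈ etaPart (thetaN 𝔲 ℓ₀ (RthkdC O ν) H')) :
    ((rthkdOf hψ : rthkdX 𝔲 ℓ₀ H' ν) : HomS (gammaH L M H') _) = ψ := rfl

end act

end Fermat.Agent.RT

end
end ZBRT_028_11

/-! ### bundled: `Fermat.Agent.RT.K5.Lift` -/
section ZBRT_028_12
/-
RT-K5, piece K5-L (helper22): `Hom(Γ, A) → Hom(Γ, B)` is onto for `A ↠ B`.
(Shapiro + cocycle lifting `k5l_coc` for the identity of `SL(2, ℤ) ⧸ Γ`.)
-/

set_option autoImplicit false
set_option linter.unusedSectionVars false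
set_option linter.unusedVariables false
set_option linter.style.haveILetI false

noncomputable section

namespace Fermat.Agent.RT.K5

open Classical
open CongruenceSubgroup Matrix
open scoped MatrixGroups
open Fermat.Agent.ES1 (gammaH diamHom pmH)
open Fermat.Agent.S41.PD (rho IsCoc U Represents)

/-- **homomorphisms lift** (general form) -/
theorem k5l_hom_lift (Γ : Subgroup SL(2, ℤ)) [Γ.FiniteIndex] (hneg : (-1 : SL(2, ℤ)) ∈ Γ)
    (A B : Type) [AddCommGroup A] [AddCommGroup B] (f : A →+ B) (hf : Function.Surjective f)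
    (h2 : ∀ b : B, 2 • b = 0 → b = 0)
    (h3 : (∀ b : B, 3 • b = 0 → b = 0) ∨ ∀ g : SL(2, ℤ), g⁻¹ * U * g ∉ Γ)
    (φ : HomS Γ B) : ∃ φ' : HomS Γ A, f.comp φ' = φ := by
  letI : Fintype (SL(2, ℤ) ⧸ Γ) := Subgroup.fintypeQuotientOfFiniteIndex
  obtain ⟨c, hc⟩ := Fermat.Agent.S41.PD.exists_represents (Γ := Γ) φ
  have h3' : (∀ b : B, 3 • b = 0 → b = 0) ∨ ∀ x : SL(2, ℤ) ⧸ Γ, U • x ≠ x := by
    rcases h3 with h3 | h3
    · exact Or.inl h3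
    · exact Or.inr (k5s_U_smul_ne h3)
  obtain ⟨c', hc', hΦ⟩ := k5l_coc (id : SL(2, ℤ) ⧸ Γ → SL(2, ℤ) ⧸ Γ) f
    Function.surjective_id (fun g x' => rfl)
    (fun x' => Fermat.Agent.S41.PD.neg_one_smul_eq hneg x') hf h2 h3' c hc.1
  obtain ⟨φ', hφ'⟩ := hc'.exists_represents (Γ := Γ)
  refine ⟨φ', ?_⟩
  refine AddMonoidHom.ext fun γ => ?_
  obtain ⟨γ, rfl⟩ : ∃ γ' : Γ, Additive.ofMul γ' = γ := ⟨Additive.toMul γ, rfl⟩
  rw [AddMonoidHom.comp_apply, ← hφ'.2 γ, ← hc.2 γ, ← hΦ (γ : SL(2, ℤ))]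
  unfold k5l_Phi
  simp only [id]
  rw [Finset.sum_eq_single ((1 : SL(2, ℤ)) : SL(2, ℤ) ⧸ Γ)]
  · intro b hb hne
    rw [Finset.mem_filter] at hb
    exact absurd hb.2 hne
  · intro h
    exfalso
    apply h
    rw [Finset.mem_filter]
    exact ⟨Finset.mem_univ _, rfl⟩

/-- **K5-L.** -/
theorem stmtLift : StmtLift := by
  intro L M _ _ H A B _ _ f hf hNT φ
  exact k5l_hom_lift (gammaH L M H) (Fermat.Agent.ES1.neg_one_mem_gammaH L M H) A B f hf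
    hNT.1 hNT.2 φ

end Fermat.Agent.RT.K5

end


end ZBRT_028_12

/-! ### bundled: `Fermat.Agent.RT.K5.Plan4` -/
section ZBRT_028_13

/-!
# K-machine, piece K5, fourth interface: change of coefficients for the `Θ`-parts

`X(A) = etaPart (thetaN 𝔲 ℓ₀ A K) ⊆ Hom(Γ_K(L), A)` for an `𝒪`-module `A`.
* `StmtCoeffExact` : `X` is exact on short exact sequences of finite `𝒪`-modules
  (`stmtLift` + `k5fx_surj`, `k5fx_exact`, `k5fx_card`);
* `StmtCount` : `#X(𝒪/𝔪ⁿ) = #X(𝒪/𝔪)ⁿ`, the reduction `X(𝒪/𝔪ⁿ) → X(𝒪/𝔪)` is onto and its kernel is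
  `λ · X(𝒪/𝔪ⁿ)`  (sequences `0 → 𝒪/𝔪 →(λⁿ) 𝒪/𝔪ⁿ⁺¹ → 𝒪/𝔪ⁿ → 0` and
  `0 → 𝒪/𝔪ⁿ →(λ) 𝒪/𝔪ⁿ⁺¹ → 𝒪/𝔪 → 0`).
-/

set_option autoImplicit false

noncomputable section

namespace Fermat.Agent.RT.K5

open CongruenceSubgroup Matrix
open scoped MatrixGroups
open Fermat.Agent.ES1 (gammaH diamHom pmH)

/-- **K5-COEF** exactness of the `Θ`-part in the coefficients. -/
def StmtCoeffExact : Prop :=
  ∀ (𝒪 : Type) [CommRing 𝒪] (L M ℓ₀ : ℕ) [NeZero L] [NeZero ℓ₀] [Fact (M ∣ L)]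
    (𝔲 : NatFam 𝒪 L M) (K : Subgroup (ZMod M)ˣ)
    (A' A A'' : Type) [AddCommGroup A'] [Module 𝒪 A'] [AddCommGroup A] [Module 𝒪 A]
    [AddCommGroup A''] [Module 𝒪 A''] [Finite A'] [Finite A] [Finite A'']
    (j : A' →ₗ[𝒪] A) (π : A →ₗ[𝒪] A''), Function.Injective j → Function.Surjective π →
    (∀ a, π a = 0 ↔ ∃ a', j a' = a) → NoTors (gammaH L M K) A'' →
    (∀ w ∈ etaPart (thetaN 𝔲 ℓ₀ A'' K), ∃ v ∈ etaPart (thetaN 𝔲 ℓ₀ A K),
      mapS π.toAddMonoidHom v = w) ∧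
    (∀ v ∈ etaPart (thetaN 𝔲 ℓ₀ A K), mapS π.toAddMonoidHom v = 0 →
      ∃ u ∈ etaPart (thetaN 𝔲 ℓ₀ A' K), mapS j.toAddMonoidHom u = v) ∧
    Nat.card (etaPart (thetaN 𝔲 ℓ₀ A K)) =
      Nat.card (etaPart (thetaN 𝔲 ℓ₀ A' K)) * Nat.card (etaPart (thetaN 𝔲 ℓ₀ A'' K))

/-- the reduction `𝒪/Iⁿ → 𝒪/Iᵐ`, `m ≤ n` -/
def redQ {𝒪 : Type} [CommRing 𝒪] (I : Ideal 𝒪) {m n : ℕ} (h : m ≤ n) :
    (𝒪 ⧸ I ^ n) →ₗ[𝒪] (𝒪 ⧸ I ^ m) :=
  Submodule.mapQ (I ^ n) (I ^ m) LinearMap.id (Ideal.pow_le_pow_right h)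

/-- **K5-COUNT** the `Θ`-parts with coefficients `𝒪/𝔪ⁿ`. -/
def StmtCount : Prop :=
  ∀ (𝒪 : Type) [CommRing 𝒪] [IsDomain 𝒪] [IsDiscreteValuationRing 𝒪]
    [Finite (IsLocalRing.ResidueField 𝒪)] (lam : 𝒪),
    IsLocalRing.maximalIdeal 𝒪 = Ideal.span {lam} →
    ∀ (L M ℓ₀ : ℕ) [NeZero L] [NeZero ℓ₀] [Fact (M ∣ L)]
    (𝔲 : NatFam 𝒪 L M) (K : Subgroup (ZMod M)ˣ),
    (∀ n : ℕ, NoTors (gammaH L M K) (𝒪 ⧸ IsLocalRing.maximalIdeal 𝒪 ^ n)) →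
    ∀ n : ℕ,
    Nat.card (etaPart (thetaN 𝔲 ℓ₀ (𝒪 ⧸ IsLocalRing.maximalIdeal 𝒪 ^ n) K)) =
      Nat.card (etaPart (thetaN 𝔲 ℓ₀ (𝒪 ⧸ IsLocalRing.maximalIdeal 𝒪 ^ 1) K)) ^ n ∧
    ∀ h1 : 1 ≤ n,
      (∀ w ∈ etaPart (thetaN 𝔲 ℓ₀ (𝒪 ⧸ IsLocalRing.maximalIdeal 𝒪 ^ 1) K),
        ∃ v ∈ etaPart (thetaN 𝔲 ℓ₀ (𝒪 ⧸ IsLocalRing.maximalIdeal 𝒪 ^ n) K),
          mapS (redQ (IsLocalRing.maximalIdeal 𝒪) h1).toAddMonoidHom v = w) ∧
      (∀ v ∈ etaPart (thetaN 𝔲 ℓ₀ (𝒪 ⧸ IsLocalRing.maximalIdeal 𝒪 ^ n) K),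
        mapS (redQ (IsLocalRing.maximalIdeal 𝒪) h1).toAddMonoidHom v = 0 →
        ∃ v' ∈ etaPart (thetaN 𝔲 ℓ₀ (𝒪 ⧸ IsLocalRing.maximalIdeal 𝒪 ^ n) K), v = lam • v')

end Fermat.Agent.RT.K5

end
end ZBRT_028_13

/-! ### bundled: `Fermat.Agent.RT.K5.UQPlan` -/
section ZBRT_028_14

/-!
# K-machine, piece K5-UQ (U2–U4): `U_q` against the degeneracy maps at `q` — interface

`q` prime, `q ∤ L`, `M ∣ L`, `H ≤ (ℤ/M)ˣ` ARBITRARY.  `Γ = Γ_H(L) ⊃ K = Γ_H(L q)`.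
* `res = resH L M q H A`, `res_δ = resDH …` : `Hom(Γ, A) → Hom(K, A)`;
  `cores = coresH …`, `cores_δ = coresDH …` : `Hom(K, A) → Hom(Γ, A)`;
* `T = tS L M q H A = cores_δ ∘ res`, `T* = tSadj L M q H A = cores ∘ res_δ` on `Hom(Γ, A)`;
* `U = tS (L * q) M q H A` on `Hom(K, A)`  (`U_q`, `q ∣ L q`);
* `⟨q⟩ = diamS H A g …` for ANY `g ∈ Γ₀(level) ∩ Γ₀(M)` with `g₀₀ ≡ q mod M` (`IsDiamQ`).

`StmtUQMix` (R1–R5):
  `U (res_δ φ) = q • res φ`,                `U (res φ) = res (T φ) − res_δ (⟨q⟩ φ)`,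
  `cores (U ψ) = q • cores_δ ψ`,            `cores_δ (U ψ) = T (cores_δ ψ) − ⟨q⟩ (cores ψ)`,
  `T = T* ∘ ⟨q⟩`.
`StmtUQNew` (R6): `cores ψ = 0`, `cores_δ ψ = 0` ⇒ `U (U ψ) = ⟨q⟩ ψ`.
`StmtUQTop`: the same for `H = ⊤` (level `Γ₀`), where all diamonds are trivial:
  `U (res φ) = res (T φ) − res_δ φ`, `cores_δ (U ψ) = T (cores_δ ψ) − cores ψ`, `T = T*`,
  `U² = 1` on `ker cores ∩ ker cores_δ`.
`StmtUQOld`: `tr ∘ i = [[q + 1, T*], [T, q + 1]]`.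

Proofs: `UQMackey.lean` (abstract Mackey formula with two double cosets), `UQFlip.lean`
(the Atkin–Lehner conjugation `ν`), `UQMix.lean`.  Owner helper88.
-/

set_option autoImplicit false

noncomputable section

namespace Fermat.Agent.RT.K5

open CongruenceSubgroup Matrix
open scoped MatrixGroups
open Fermat.Agent.ES1 (gammaH diamHom pmH)

/-- `g ∈ Γ₀(M)` has diamond `q`: `g₀₀ ≡ q mod M` -/
def IsDiamQ (M q : ℕ) (g : SL(2, ℤ)) (hgM : g ∈ Gamma0 M) : Prop :=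
  ((diamHom M ⟨g, hgM⟩ : (ZMod M)ˣ) : ZMod M) = (q : ZMod M)

/-- **K5-UQ (R1–R5)** `U_q` and the four degeneracy maps at `q`. -/
def StmtUQMix : Prop :=
  ∀ (L M q : ℕ) [NeZero L] [NeZero q] [hML : Fact (M ∣ L)] (H : Subgroup (ZMod M)ˣ)
    (A : Type) [AddCommGroup A], q.Prime → ¬ q ∣ L →
    haveI : Fact (M ∣ L * q) := ⟨hML.out.trans (dvd_mul_right L q)⟩
    ∀ (g : SL(2, ℤ)) (hgL : g ∈ Gamma0 L) (hgM : g ∈ Gamma0 M), IsDiamQ M q g hgM →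
    (∀ φ : HomS (gammaH L M H) A,
      tS (L * q) M q H A (resDH L M q H A φ) = q • resH L M q H A φ) ∧
    (∀ φ : HomS (gammaH L M H) A,
      tS (L * q) M q H A (resH L M q H A φ) =
        resH L M q H A (tS L M q H A φ) - resDH L M q H A (diamS H A g hgL hgM φ)) ∧
    (∀ ψ : HomS (gammaH (L * q) M H) A,
      coresH L M q H A (tS (L * q) M q H A ψ) = q • coresDH L M q H A ψ) ∧
    (∀ ψ : HomS (gammaH (L * q) M H) A,
      coresDH L M q H A (tS (L * q) M q H A ψ) =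
        tS L M q H A (coresDH L M q H A ψ) - diamS H A g hgL hgM (coresH L M q H A ψ)) ∧
    (∀ φ : HomS (gammaH L M H) A,
      tS L M q H A φ = tSadj L M q H A (diamS H A g hgL hgM φ))

/-- **K5-UQ (R6)** `U_q² = ⟨q⟩` on the `q`-new part `ker cores ∩ ker cores_δ`. -/
def StmtUQNew : Prop :=
  ∀ (L M q : ℕ) [NeZero L] [NeZero q] [hML : Fact (M ∣ L)] (H : Subgroup (ZMod M)ˣ)
    (A : Type) [AddCommGroup A], q.Prime → ¬ q ∣ L →
    haveI : Fact (M ∣ L * q) := ⟨hML.out.trans (dvd_mul_right L q)⟩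
    ∀ (g : SL(2, ℤ)) (hgL : g ∈ Gamma0 (L * q)) (hgM : g ∈ Gamma0 M), IsDiamQ M q g hgM →
    ∀ ψ : HomS (gammaH (L * q) M H) A,
      coresH L M q H A ψ = 0 → coresDH L M q H A ψ = 0 →
      tS (L * q) M q H A (tS (L * q) M q H A ψ) = diamS H A g hgL hgM ψ

/-- **K5-UQ, `tr ∘ i`** `= [[q + 1, T*], [T, q + 1]]` (from K5-IDX). -/
def StmtUQOld : Prop :=
  ∀ (L M q : ℕ) [NeZero L] [NeZero q] [Fact (M ∣ L)] (H : Subgroup (ZMod M)ˣ)
    (A : Type) [AddCommGroup A], q.Prime → ¬ q ∣ L →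
    ∀ φ : HomS (gammaH L M H) A,
      coresH L M q H A (resH L M q H A φ) = (q + 1) • φ ∧
      coresDH L M q H A (resDH L M q H A φ) = (q + 1) • φ ∧
      coresDH L M q H A (resH L M q H A φ) = tS L M q H A φ ∧
      coresH L M q H A (resDH L M q H A φ) = tSadj L M q H A φ

/-- **K5-UQ for `H = ⊤`** (levels `Γ₀(L) ⊃ Γ₀(L q)`): no diamonds. -/
def StmtUQTop : Prop :=
  ∀ (L M q : ℕ) [NeZero L] [NeZero q] [hML : Fact (M ∣ L)]
    (A : Type) [AddCommGroup A], q.Prime → ¬ q ∣ L →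
    haveI : Fact (M ∣ L * q) := ⟨hML.out.trans (dvd_mul_right L q)⟩
    (∀ φ : HomS (gammaH L M (⊤ : Subgroup (ZMod M)ˣ)) A,
      tS (L * q) M q ⊤ A (resDH L M q ⊤ A φ) = q • resH L M q ⊤ A φ) ∧
    (∀ φ : HomS (gammaH L M (⊤ : Subgroup (ZMod M)ˣ)) A,
      tS (L * q) M q ⊤ A (resH L M q ⊤ A φ) =
        resH L M q ⊤ A (tS L M q ⊤ A φ) - resDH L M q ⊤ A φ) ∧
    (∀ ψ : HomS (gammaH (L * q) M (⊤ : Subgroup (ZMod M)ˣ)) A,
      coresH L M q ⊤ A (tS (L * q) M q ⊤ A ψ) = q • coresDH L M q ⊤ A ψ) ∧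
    (∀ ψ : HomS (gammaH (L * q) M (⊤ : Subgroup (ZMod M)ˣ)) A,
      coresDH L M q ⊤ A (tS (L * q) M q ⊤ A ψ) =
        tS L M q ⊤ A (coresDH L M q ⊤ A ψ) - coresH L M q ⊤ A ψ) ∧
    (∀ φ : HomS (gammaH L M (⊤ : Subgroup (ZMod M)ˣ)) A,
      tS L M q ⊤ A φ = tSadj L M q ⊤ A φ) ∧
    (∀ ψ : HomS (gammaH (L * q) M (⊤ : Subgroup (ZMod M)ˣ)) A,
      coresH L M q ⊤ A ψ = 0 → coresDH L M q ⊤ A ψ = 0 →
      tS (L * q) M q ⊤ A (tS (L * q) M q ⊤ A ψ) = ψ)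

end Fermat.Agent.RT.K5

end
end ZBRT_028_14

/-! ### bundled: `Fermat.Agent.RT.K5.Plan5` -/
section ZBRT_028_15

/-!
# K-machine, piece K5, FINAL interface: what K5 delivers

`𝒪` a discrete valuation ring with finite residue field of characteristic `p ≠ 2`, `𝔪` its
maximal ideal, `A_n = 𝒪 ⧸ 𝔪 ^ n`; `𝔲 : NatFam 𝒪 L M` a Hecke operator (natural in the
coefficients; `NatFam.hecke ℓ` is `T_ℓ` resp. `U_ℓ`), `Θ = 𝔲 ∘ (T_ℓ₀ − ℓ₀ − 1)`,
`X_n(K) = etaPart (thetaN 𝔲 ℓ₀ A_n K) ⊆ Hom(Γ_K(L), A_n)`; `H' ≤ H`, `[±H : ±H'] = p ^ k`.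

* `StmtFreeF`   : level `n = 1`: `X₁(H')` is spanned by the `diamU u (b i)`, `u ∈ ±H`, `i < r`,
                  where `#X₁(H) = #F ^ r`  (hence free over `F[±H/±H']` by `k5g_main`);
* `StmtFreeFin` : every level `n`: `X_n(H')` is free over `A_n[±H/±H']` with basis `b i` (`i < r`,
                  `r` independent of `n`), and the `cores (b i)` are an `A_n`-basis of `X_n(H)`;
* `StmtFreeO`   : the same over `𝒪` (complete), compatible with all the reductions;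
* `DegFam`, `StmtTWStep` : the Taylor–Wiles step `Γ₀(L) ⊃ Γ₀(L q)`:
                  `(res, res_δ) : X(L)² ≅ ` the `Θ ∘ (U_q² − 1)`-part of level `L q`.
-/

set_option autoImplicit false

noncomputable section

namespace Fermat.Agent.RT.K5

open CongruenceSubgroup Matrix
open scoped MatrixGroups
open Fermat.Agent.ES1 (gammaH diamHom pmH)

/-- the hypotheses on `𝒪`, the level and the groups -/
structure FreeHyp (p : ℕ) (𝒪 : Type) [CommRing 𝒪] [IsLocalRing 𝒪] (L M ℓ₀ : ℕ)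
    (H' H : Subgroup (ZMod M)ˣ) (k : ℕ) : Prop where
  p_ne_two : p ≠ 2
  p_mem : (p : 𝒪) ∈ IsLocalRing.maximalIdeal 𝒪
  prime : ℓ₀.Prime
  not_dvd : ¬ ℓ₀ ∣ L
  le : H' ≤ H
  index : ((pmH H').subgroupOf (pmH H)).index = p ^ k
  noTors : ∀ n : ℕ, NoTors (gammaH L M H) (𝒪 ⧸ IsLocalRing.maximalIdeal 𝒪 ^ n)

/-- `u` is a system of representatives of `±H` modulo `±H'` -/
def IsTransversal {M : ℕ} (H' H : Subgroup (ZMod M)ˣ) {m : ℕ} (u : Fin m → (ZMod M)ˣ) : Prop :=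
  (∀ j, u j ∈ pmH H) ∧ ∀ v ∈ pmH H, ∃! j, (u j)⁻¹ * v ∈ pmH H'

/-- `b` is a basis of the `Θ`-part `X(H')` over `R[±H/±H']` and `cores b` is an `R`-basis of
`X(H)`; `R` a ring acting on the coefficients `A`. -/
def IsFreeBasis {L M : ℕ} [NeZero L] [Fact (M ∣ L)] (H' H : Subgroup (ZMod M)ˣ) (hle : H' ≤ H)
    (R A : Type) [CommRing R] [AddCommGroup A] [Module R A]
    (θ' : HomS (gammaH L M H') A →+ HomS (gammaH L M H') A)
    (θ : HomS (gammaH L M H) A →+ HomS (gammaH L M H) A)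
    {r : ℕ} (b : Fin r → HomS (gammaH L M H') A) : Prop :=
  (∀ i, b i ∈ etaPart θ') ∧
  (∀ (m : ℕ) (u : Fin m → (ZMod M)ˣ), IsTransversal H' H u →
    Function.Injective (fun c : Fin r × Fin m → R =>
      ∑ x : Fin r × Fin m, c x • diamU L M H' A (u x.2) (b x.1)) ∧
    ∀ ψ ∈ etaPart θ', ∃ c : Fin r × Fin m → R,
      ψ = ∑ x : Fin r × Fin m, c x • diamU L M H' A (u x.2) (b x.1)) ∧
  Function.Injective (fun c : Fin r → R =>
      ∑ i : Fin r, c i • coresS A (Fermat.Agent.ES1.gammaH_mono hle) (b i)) ∧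
  ∀ φ ∈ etaPart θ, ∃ c : Fin r → R,
      φ = ∑ i : Fin r, c i • coresS A (Fermat.Agent.ES1.gammaH_mono hle) (b i)

/-- **K5-FREE-F** (level `1`). -/
def StmtFreeF : Prop :=
  ∀ (p : ℕ) [Fact p.Prime] (𝒪 : Type) [CommRing 𝒪] [IsDomain 𝒪] [IsDiscreteValuationRing 𝒪]
    [Finite (IsLocalRing.ResidueField 𝒪)]
    (L M ℓ₀ : ℕ) [NeZero L] [NeZero ℓ₀] [Fact (M ∣ L)] (H' H : Subgroup (ZMod M)ˣ) (k : ℕ),
    FreeHyp p 𝒪 L M ℓ₀ H' H k → ∀ 𝔲 : NatFam 𝒪 L M,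
    ∃ (r : ℕ) (b : Fin r → HomS (gammaH L M H') (𝒪 ⧸ IsLocalRing.maximalIdeal 𝒪 ^ 1)),
      (∀ i, b i ∈ etaPart (thetaN 𝔲 ℓ₀ (𝒪 ⧸ IsLocalRing.maximalIdeal 𝒪 ^ 1) H')) ∧
      Nat.card (etaPart (thetaN 𝔲 ℓ₀ (𝒪 ⧸ IsLocalRing.maximalIdeal 𝒪 ^ 1) H)) =
        Nat.card (𝒪 ⧸ IsLocalRing.maximalIdeal 𝒪 ^ 1) ^ r ∧
      Nat.card (etaPart (thetaN 𝔲 ℓ₀ (𝒪 ⧸ IsLocalRing.maximalIdeal 𝒪 ^ 1) H')) =
        Nat.card (𝒪 ⧸ IsLocalRing.maximalIdeal 𝒪 ^ 1) ^ (r * p ^ k) ∧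
      ∀ ψ ∈ etaPart (thetaN 𝔲 ℓ₀ (𝒪 ⧸ IsLocalRing.maximalIdeal 𝒪 ^ 1) H'),
        ψ ∈ Submodule.span 𝒪 {χ | ∃ i, ∃ u ∈ pmH H,
          χ = diamU L M H' (𝒪 ⧸ IsLocalRing.maximalIdeal 𝒪 ^ 1) u (b i)}

/-- **K5-FREE-fin** (every level `n`; the rank `r` does not depend on `n`). -/
def StmtFreeFin : Prop :=
  ∀ (p : ℕ) [Fact p.Prime] (𝒪 : Type) [CommRing 𝒪] [IsDomain 𝒪] [IsDiscreteValuationRing 𝒪]
    [Finite (IsLocalRing.ResidueField 𝒪)]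
    (L M ℓ₀ : ℕ) [NeZero L] [NeZero ℓ₀] [Fact (M ∣ L)] (H' H : Subgroup (ZMod M)ˣ) (k : ℕ)
    (hyp : FreeHyp p 𝒪 L M ℓ₀ H' H k) (𝔲 : NatFam 𝒪 L M),
    ∃ r : ℕ, ∀ n : ℕ,
      ∃ b : Fin r → HomS (gammaH L M H') (𝒪 ⧸ IsLocalRing.maximalIdeal 𝒪 ^ n),
        IsFreeBasis H' H hyp.le (𝒪 ⧸ IsLocalRing.maximalIdeal 𝒪 ^ n)
          (𝒪 ⧸ IsLocalRing.maximalIdeal 𝒪 ^ n)
          (thetaN 𝔲 ℓ₀ (𝒪 ⧸ IsLocalRing.maximalIdeal 𝒪 ^ n) H')
          (thetaN 𝔲 ℓ₀ (𝒪 ⧸ IsLocalRing.maximalIdeal 𝒪 ^ n) H) b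

/-- **K5-FREE-O** (`𝒪` complete): a basis over `𝒪[±H/±H']` whose reductions are bases at every
finite level; the reduction of the `Θ`-part is onto the `Θ`-part, with kernel `𝔪ⁿ ·`. -/
def StmtFreeO : Prop :=
  ∀ (p : ℕ) [Fact p.Prime] (𝒪 : Type) [CommRing 𝒪] [IsDomain 𝒪] [IsDiscreteValuationRing 𝒪]
    [IsAdicComplete (IsLocalRing.maximalIdeal 𝒪) 𝒪] [Finite (IsLocalRing.ResidueField 𝒪)]
    (L M ℓ₀ : ℕ) [NeZero L] [NeZero ℓ₀] [Fact (M ∣ L)] (H' H : Subgroup (ZMod M)ˣ) (k : ℕ)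
    (hyp : FreeHyp p 𝒪 L M ℓ₀ H' H k) (𝔲 : NatFam 𝒪 L M),
    ∃ (r : ℕ) (b : Fin r → HomS (gammaH L M H') 𝒪),
      IsFreeBasis H' H hyp.le 𝒪 𝒪 (thetaN 𝔲 ℓ₀ 𝒪 H') (thetaN 𝔲 ℓ₀ 𝒪 H) b ∧
      (∀ n : ℕ, IsFreeBasis H' H hyp.le (𝒪 ⧸ IsLocalRing.maximalIdeal 𝒪 ^ n)
          (𝒪 ⧸ IsLocalRing.maximalIdeal 𝒪 ^ n)
          (thetaN 𝔲 ℓ₀ (𝒪 ⧸ IsLocalRing.maximalIdeal 𝒪 ^ n) H')
          (thetaN 𝔲 ℓ₀ (𝒪 ⧸ IsLocalRing.maximalIdeal 𝒪 ^ n) H)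
          (fun i => mapS (Submodule.mkQ (IsLocalRing.maximalIdeal 𝒪 ^ n)).toAddMonoidHom (b i))) ∧
      (∀ (n : ℕ) (K : Subgroup (ZMod M)ˣ), K = H' ∨ K = H →
        (∀ w ∈ etaPart (thetaN 𝔲 ℓ₀ (𝒪 ⧸ IsLocalRing.maximalIdeal 𝒪 ^ n) K),
          ∃ v ∈ etaPart (thetaN 𝔲 ℓ₀ 𝒪 K),
            mapS (Submodule.mkQ (IsLocalRing.maximalIdeal 𝒪 ^ n)).toAddMonoidHom v = w) ∧
        (∀ v ∈ etaPart (thetaN 𝔲 ℓ₀ 𝒪 K),
          mapS (Submodule.mkQ (IsLocalRing.maximalIdeal 𝒪 ^ n)).toAddMonoidHom v = 0 →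
          ∃ c ∈ IsLocalRing.maximalIdeal 𝒪 ^ n, ∃ v' ∈ etaPart (thetaN 𝔲 ℓ₀ 𝒪 K), v = c • v'))

/-! ## the Taylor–Wiles step -/

/-- a pair of Hecke operators on the levels `L` and `L q`, commuting with the four degeneracy
maps at `q`, with `T_q` (level `L`) and with `U_q` (level `L q`) -/
structure DegFam (𝒪 : Type) [CommRing 𝒪] (L M q : ℕ) [NeZero L] [NeZero q] [Fact (M ∣ L)]
    [Fact (M ∣ L * q)] where
  /-- the operator at level `L` -/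
  lo : NatFam 𝒪 L M
  /-- the operator at level `L q` -/
  hi : NatFam 𝒪 (L * q) M
  res_comm : ∀ (A : Type) [AddCommGroup A] [Module 𝒪 A] (H : Subgroup (ZMod M)ˣ)
    (φ : HomS (gammaH L M H) A),
    resH L M q H A ((lo.fam A).op H φ) = (hi.fam A).op H (resH L M q H A φ)
  resD_comm : ∀ (A : Type) [AddCommGroup A] [Module 𝒪 A] (H : Subgroup (ZMod M)ˣ)
    (φ : HomS (gammaH L M H) A),
    resDH L M q H A ((lo.fam A).op H φ) = (hi.fam A).op H (resDH L M q H A φ)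
  cores_comm : ∀ (A : Type) [AddCommGroup A] [Module 𝒪 A] (H : Subgroup (ZMod M)ˣ)
    (ψ : HomS (gammaH (L * q) M H) A),
    coresH L M q H A ((hi.fam A).op H ψ) = (lo.fam A).op H (coresH L M q H A ψ)
  coresD_comm : ∀ (A : Type) [AddCommGroup A] [Module 𝒪 A] (H : Subgroup (ZMod M)ˣ)
    (ψ : HomS (gammaH (L * q) M H) A),
    coresDH L M q H A ((hi.fam A).op H ψ) = (lo.fam A).op H (coresDH L M q H A ψ)
  t_comm : ∀ (A : Type) [AddCommGroup A] [Module 𝒪 A] (H : Subgroup (ZMod M)ˣ)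
    (φ : HomS (gammaH L M H) A),
    tS L M q H A ((lo.fam A).op H φ) = (lo.fam A).op H (tS L M q H A φ)
  u_comm : ∀ (A : Type) [AddCommGroup A] [Module 𝒪 A] (H : Subgroup (ZMod M)ˣ)
    (ψ : HomS (gammaH (L * q) M H) A),
    tS (L * q) M q H A ((hi.fam A).op H ψ) = (hi.fam A).op H (tS (L * q) M q H A ψ)

/-- the operator `U_q² − 1` at level `L q` -/
def usqFam (𝒪 : Type) [CommRing 𝒪] (L M q : ℕ) [NeZero L] [NeZero q] [Fact (M ∣ L * q)] :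
    NatFam 𝒪 (L * q) M :=
  ((NatFam.hecke 𝒪 (L * q) M q).comp (NatFam.hecke 𝒪 (L * q) M q)).add
    (NatFam.coeff 𝒪 (L * q) M (-1))

/-- **K5-TWSTEP** the Taylor–Wiles step at `H = ⊤` (`Γ₀(L) ⊃ Γ₀(L q)`), `A` finite:
if `(q + 1)² − T_q²` is injective on the `Θ`-part `X(L)` then `(φ₁, φ₂) ↦ res φ₁ + res_δ φ₂` is a
bijection of `X(L)²` onto the `Θ ∘ (U_q² − 1)`-part of level `L q`, and
`(cores, cores_δ)` is a bijection back. -/
def StmtTWStep : Prop :=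
  ∀ (𝒪 : Type) [CommRing 𝒪] (L M q ℓ₀ : ℕ) [NeZero L] [NeZero q] [NeZero ℓ₀] [Fact (M ∣ L)]
    [Fact (M ∣ L * q)] (𝔡 : DegFam 𝒪 L M q) (A : Type) [AddCommGroup A] [Module 𝒪 A] [Finite A],
    q.Prime → ¬ q ∣ L → ℓ₀.Prime → ¬ ℓ₀ ∣ L → ℓ₀ ≠ q →
    (∀ φ ∈ etaPart (thetaN 𝔡.lo ℓ₀ A ⊤),
      (q + 1) • (q + 1) • φ - tS L M q ⊤ A (tS L M q ⊤ A φ) = 0 → φ = 0) →
    (∀ φ₁ ∈ etaPart (thetaN 𝔡.lo ℓ₀ A ⊤), ∀ φ₂ ∈ etaPart (thetaN 𝔡.lo ℓ₀ A ⊤),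
      resH L M q ⊤ A φ₁ + resDH L M q ⊤ A φ₂
          ∈ etaPart (thetaN (𝔡.hi.comp (usqFam 𝒪 L M q)) ℓ₀ A ⊤) ∧
      (resH L M q ⊤ A φ₁ + resDH L M q ⊤ A φ₂ = 0 → φ₁ = 0 ∧ φ₂ = 0)) ∧
    (∀ ψ ∈ etaPart (thetaN (𝔡.hi.comp (usqFam 𝒪 L M q)) ℓ₀ A ⊤),
      ∃ φ₁ ∈ etaPart (thetaN 𝔡.lo ℓ₀ A ⊤), ∃ φ₂ ∈ etaPart (thetaN 𝔡.lo ℓ₀ A ⊤),
        ψ = resH L M q ⊤ A φ₁ + resDH L M q ⊤ A φ₂) ∧
    Nat.card (etaPart (thetaN (𝔡.hi.comp (usqFam 𝒪 L M q)) ℓ₀ A ⊤))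
      = Nat.card (etaPart (thetaN 𝔡.lo ℓ₀ A ⊤)) ^ 2

/-- **K5-DEGFAM** the constructors of `DegFam`: `T_ℓ'` / `U_ℓ'` for every prime `ℓ' ≠ q`
(`stmtDegComm`, `stmtCommTU`), scalars, sums, composites. -/
def StmtDegFam : Prop :=
  ∀ (𝒪 : Type) [CommRing 𝒪] (L M q : ℕ) [NeZero L] [NeZero q] [Fact (M ∣ L)]
    [Fact (M ∣ L * q)], q.Prime → ¬ q ∣ L →
    (∀ (ℓ' : ℕ) [NeZero ℓ'], ℓ'.Prime → ℓ' ≠ q →
      ∃ 𝔡 : DegFam 𝒪 L M q, 𝔡.lo = NatFam.hecke 𝒪 L M ℓ' ∧ 𝔡.hi = NatFam.hecke 𝒪 (L * q) M ℓ') ∧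
    (∀ c : 𝒪, ∃ 𝔡 : DegFam 𝒪 L M q,
      𝔡.lo = NatFam.coeff 𝒪 L M c ∧ 𝔡.hi = NatFam.coeff 𝒪 (L * q) M c) ∧
    (∀ 𝔡₁ 𝔡₂ : DegFam 𝒪 L M q, ∃ 𝔡 : DegFam 𝒪 L M q,
      𝔡.lo = 𝔡₁.lo.add 𝔡₂.lo ∧ 𝔡.hi = 𝔡₁.hi.add 𝔡₂.hi) ∧
    (∀ 𝔡₁ 𝔡₂ : DegFam 𝒪 L M q, ∃ 𝔡 : DegFam 𝒪 L M q,
      𝔡.lo = 𝔡₁.lo.comp 𝔡₂.lo ∧ 𝔡.hi = 𝔡₁.hi.comp 𝔡₂.hi)

end Fermat.Agent.RT.K5

end
end ZBRT_028_15

/-! ### bundled: `Fermat.Agent.RT.K5.DegComm` -/
section ZBRT_028_16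

/-!
# RT-K5, piece UQ4 (helper49): the degeneracy maps commute with `tS ℓ'`, `stmtDegComm`

`ℓ ∤ L` a prime, `ℓ' ≠ ℓ` a prime (which may divide `L`).  The four maps
`resH, resDH : Hom(Γ_H(L), A) → Hom(Γ_H(L ℓ), A)` and `coresH, coresDH` in the other direction
commute with `tS ℓ' = cores_δ' ∘ res`.  Each square is a base change
(`k5c_transfer_basechange`) followed by transitivity of the transfer (`k5c_transfer_trans`):

* `resH`    : the square `(conj_δ', incl_ℓ)`   (`k5dc_square_incl`; for `ℓ' ∤ L` it is `k5cc_square`);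
* `resDH`   : the square `(conj_δ', conj_δ)`   (`k5dc_square_conj`);
* `coresH`  : the square `(incl_ℓ, incl_ℓ')`   (`k5dc_square_ii`);
* `coresDH` : the square `(conj_δ, incl_ℓ')`   (`k5cc_square` with the roles exchanged).
-/

set_option autoImplicit false
set_option linter.style.haveILetI false
set_option linter.unusedSectionVars false
set_option linter.unusedVariables false

noncomputable section

namespace Fermat.Agent.RT.K5

open CongruenceSubgroup Matrix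
open scoped MatrixGroups
open Fermat.Agent.ES1 (gammaH diamHom pmH)

/-! ### Arithmetic -/

/-- arithmetic core, general form -/
theorem k5dc_arith (N : ℤ) {r : ℕ} (hr : r.Prime) (b d : ℤ)
    (h : ∃ s : ℤ, ¬ (r : ℤ) ∣ d - N * s * b) :
    ∃ s t : ℤ, (r : ℤ) ∣ (1 + N * s * t) * b - t * d := by
  obtain ⟨s, hs⟩ := h
  have hrp : Prime (r : ℤ) := Nat.prime_iff_prime_int.mp hr
  have hcop : IsCoprime (r : ℤ) (d - N * s * b) := (Prime.coprime_iff_not_dvd hrp).mpr hs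
  obtain ⟨u, v, huv⟩ := hcop
  refine ⟨s, b * v, ⟨b * u, ?_⟩⟩
  linear_combination (-b) * huv

/-- for `γ ∈ Γ₀(L)` and a prime `r ∤ m`: some `d - L m s b` is prime to `r` -/
theorem k5dc_exists_s (L : ℕ) {r : ℕ} (hr : r.Prime) (γ : SL(2, ℤ)) (hγ : γ ∈ Gamma0 L)
    (m : ℤ) (hm : ¬ (r : ℤ) ∣ m) :
    ∃ s : ℤ, ¬ (r : ℤ) ∣ γ 1 1 - (L : ℤ) * m * s * γ 0 1 := by
  have hrp : Prime (r : ℤ) := Nat.prime_iff_prime_int.mp hr
  have hdet : γ 0 0 * γ 1 1 - γ 0 1 * γ 1 0 = 1 := by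
    have := γ.2
    rw [Matrix.det_fin_two] at this
    exact this
  by_cases hd : (r : ℤ) ∣ γ 1 1
  · refine ⟨1, fun h => ?_⟩
    have h1 : (r : ℤ) ∣ (L : ℤ) * m * γ 0 1 := by
      have : (L : ℤ) * m * γ 0 1 = γ 1 1 - (γ 1 1 - (L : ℤ) * m * 1 * γ 0 1) := by ring
      rw [this]; exact dvd_sub hd h
    have hc : (L : ℤ) ∣ γ 1 0 := S41.dvd_of_mem_Gamma0 hγ
    have h2 : (r : ℤ) ∣ γ 0 1 * γ 1 0 := by
      rcases hrp.dvd_or_dvd h1 with h3 | h3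
      · rcases hrp.dvd_or_dvd h3 with h4 | h4
        · exact (h4.trans hc).mul_left _
        · exact absurd h4 hm
      · exact h3.mul_right _
    have h5 : (r : ℤ) ∣ γ 0 0 * γ 1 1 - γ 0 1 * γ 1 0 := dvd_sub (hd.mul_left _) h2
    rw [hdet] at h5
    exact hrp.not_dvd_one h5
  · exact ⟨0, by simpa using hd⟩

/-- `(X γ)₁₀` for `X = [[1, t], [N s, 1 + N s t]]` -/
theorem k5dc_X_mul_10 (N : ℕ) (s t : ℤ) (γ : SL(2, ℤ)) :
    (((k5ccX N s t) * γ : SL(2, ℤ)) : Matrix (Fin 2) (Fin 2) ℤ) 1 0 =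
      (N : ℤ) * s * γ 0 0 + (1 + N * s * t) * γ 1 0 := by
  rw [Matrix.SpecialLinearGroup.coe_mul, Matrix.mul_apply, Fin.sum_univ_two]
  simp [k5ccX]

/-- distinct primes do not divide each other (integer form) -/
theorem k5dc_not_dvd {ℓ ℓ' : ℕ} (hℓ : ℓ.Prime) (hℓ' : ℓ'.Prime) (hne : ℓ ≠ ℓ') :
    ¬ (ℓ' : ℤ) ∣ (ℓ : ℤ) := by
  intro h
  exact hne ((Nat.prime_dvd_prime_iff_eq hℓ' hℓ).mp (Int.natCast_dvd_natCast.mp h)).symm

section squares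

variable (L M ℓ ℓ' : ℕ) [NeZero L] [NeZero ℓ] [NeZero ℓ'] [hML : Fact (M ∣ L)]
  (H : Subgroup (ZMod M)ˣ)

/-- an element of `Γ_H(L)` whose `(0,1)` entry is divisible by `ℓ'` is in the image of
`conj_δ'` -/
theorem k5dc_mem_conjDH_range (g : gammaH L M H)
    (h01 : (ℓ' : ℤ) ∣ ((g : SL(2, ℤ)) : Matrix (Fin 2) (Fin 2) ℤ) 0 1) :
    g ∈ (conjDH L M ℓ' H hML.out).range := by
  obtain ⟨z, hz, hz00⟩ := k5e_exists_conjD_preimage L ℓ' ⟨(g : SL(2, ℤ)), g.2.1⟩ h01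
  have hzL : (z : SL(2, ℤ)) ∈ Gamma0 L := by
    apply S41.mem_Gamma0_of_dvd
    exact (Int.natCast_dvd_natCast.mpr (dvd_mul_right L ℓ')).trans (S41.dvd_of_mem_Gamma0 z.2)
  have hzM : (z : SL(2, ℤ)) ∈ Gamma0 M := k5i_mem_Gamma0M L M hzL
  have hmem : (z : SL(2, ℤ)) ∈ gammaH (L * ℓ') M H := by
    refine ⟨z.2, hzM, ?_⟩
    rw [k5e_diam_eq_of_entry _ _ hzM g.2.2.1 hz00]
    exact g.2.2.2
  refine ⟨⟨(z : SL(2, ℤ)), hmem⟩, ?_⟩
  apply Subtype.ext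
  rw [conjDH_coe]
  have : (⟨(z : SL(2, ℤ)), hmem.1⟩ : Gamma0 (L * ℓ')) = z := rfl
  rw [this, hz]

/-- the `(0,1)` entry of `conj_δ' z` is divisible by `ℓ'` -/
theorem k5dc_conjDH_01 (z : gammaH (L * ℓ') M H) :
    (ℓ' : ℤ) ∣ (((conjDH L M ℓ' H hML.out z : gammaH L M H) : SL(2, ℤ)) :
      Matrix (Fin 2) (Fin 2) ℤ) 0 1 := by
  rw [conjDH_coe, S41.conjD_coe]
  simp [S41.conjDMat]

/-- **the square `(conj_δ', incl_ℓ)`** for every prime `ℓ' ≠ ℓ` (also `ℓ' ∣ L`) -/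
theorem k5dc_square_incl (hℓ : ℓ.Prime) (hℓ' : ℓ'.Prime) (hne : ℓ ≠ ℓ') :
    (∀ k : gammaH (L * ℓ * ℓ') M H, conjDH L M ℓ' H hML.out (k5ccJK L M ℓ ℓ' H k)
        = inclH L M ℓ H (k5ccF' L M ℓ ℓ' H k)) ∧
    (∀ x : gammaH (L * ℓ) M H, inclH L M ℓ H x ∈ (conjDH L M ℓ' H hML.out).range →
        x ∈ (k5ccF' L M ℓ ℓ' H).range) ∧
    (∀ γ : gammaH L M H, ∃ x : gammaH (L * ℓ) M H,
        (inclH L M ℓ H x)⁻¹ * γ ∈ (conjDH L M ℓ' H hML.out).range) := by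
  haveI : Fact (M ∣ L * ℓ) := ⟨k5cc_dvd_mul L M ℓ⟩
  refine ⟨fun k => Subtype.ext rfl, ?_, ?_⟩
  · rintro x ⟨z, hz⟩
    have h01 : (ℓ' : ℤ) ∣ ((x : SL(2, ℤ)) : Matrix (Fin 2) (Fin 2) ℤ) 0 1 := by
      have h1 := k5dc_conjDH_01 L M ℓ' H z
      rw [hz] at h1
      exact h1
    exact k5dc_mem_conjDH_range (L * ℓ) M ℓ' H x h01
  · intro γ
    obtain ⟨s₀, hs₀⟩ := k5dc_exists_s L hℓ' (γ : SL(2, ℤ)) γ.2.1 (ℓ : ℤ)
      (k5dc_not_dvd hℓ hℓ' hne)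
    obtain ⟨s, t, hst⟩ := k5dc_arith ((L * ℓ : ℕ) : ℤ) hℓ' _ _
      ⟨s₀, by push_cast; exact hs₀⟩
    have hxK : k5ccX (L * ℓ) s t ∈ gammaH (L * ℓ) M H :=
      k5ccX_mem (L * ℓ) M (k5cc_dvd_mul L M ℓ) H s t
    have hxΓ : k5ccX (L * ℓ) s t ∈ gammaH L M H := gammaH_mul_le L M ℓ H hxK
    have hg : (k5ccX (L * ℓ) s t)⁻¹ * (γ : SL(2, ℤ)) ∈ gammaH L M H :=
      mul_mem (inv_mem hxΓ) γ.2
    have h01 : (ℓ' : ℤ) ∣ (((k5ccX (L * ℓ) s t)⁻¹ * (γ : SL(2, ℤ)) : SL(2, ℤ)) :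
        Matrix (Fin 2) (Fin 2) ℤ) 0 1 := by
      rw [k5ccX_inv_mul_01]
      exact hst
    refine ⟨⟨_, hxK⟩, ?_⟩
    exact k5dc_mem_conjDH_range L M ℓ' H ⟨_, hg⟩ h01

/-- the inclusion `Γ_H(L ℓ ℓ') → Γ_H(L ℓ')` has finite index -/
instance k5dc_JK_finiteIndex : (k5ccJK L M ℓ ℓ' H).range.FiniteIndex := by
  haveI : Fact (M ∣ L * ℓ * ℓ') :=
    ⟨(k5cc_dvd_mul L M ℓ).trans (dvd_mul_right (L * ℓ) ℓ')⟩
  rw [k5ccJK, Subgroup.inclusion_range]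
  infer_instance

theorem k5dc_JK_injective : Function.Injective (k5ccJK L M ℓ ℓ' H) :=
  Subgroup.inclusion_injective _

/-- **the square `(incl_ℓ, incl_ℓ')`**, `ℓ ∤ L`, `ℓ' ≠ ℓ` -/
theorem k5dc_square_ii (hℓ : ℓ.Prime) (hℓ' : ℓ'.Prime) (hne : ℓ ≠ ℓ') (hℓL : ¬ ℓ ∣ L) :
    (∀ k : gammaH (L * ℓ * ℓ') M H, inclH L M ℓ H (inclH (L * ℓ) M ℓ' H k)
        = inclH L M ℓ' H (k5ccJK L M ℓ ℓ' H k)) ∧
    (∀ x : gammaH (L * ℓ') M H, inclH L M ℓ' H x ∈ (inclH L M ℓ H).range →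
        x ∈ (k5ccJK L M ℓ ℓ' H).range) ∧
    (∀ γ : gammaH L M H, ∃ x : gammaH (L * ℓ') M H,
        (inclH L M ℓ' H x)⁻¹ * γ ∈ (inclH L M ℓ H).range) := by
  have hℓp : Prime (ℓ : ℤ) := Nat.prime_iff_prime_int.mp hℓ
  have hL0 : (L : ℤ) ≠ 0 := by exact_mod_cast NeZero.ne L
  refine ⟨fun k => Subtype.ext rfl, ?_, ?_⟩
  · rintro x ⟨z, hz⟩
    have he : (z : SL(2, ℤ)) = (x : SL(2, ℤ)) :=
      congrArg (fun y : gammaH L M H => (y : SL(2, ℤ))) hz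
    obtain ⟨c, hc⟩ := S41.dvd_of_mem_Gamma0 x.2.1
    obtain ⟨c', hc'⟩ := S41.dvd_of_mem_Gamma0 z.2.1
    rw [he, hc] at hc'
    push_cast at hc'
    have h1 : (ℓ' : ℤ) * c = ℓ * c' := by
      apply mul_left_cancel₀ hL0
      linear_combination hc'
    have h2 : (ℓ : ℤ) ∣ c := by
      have h3 : (ℓ : ℤ) ∣ (ℓ' : ℤ) * c := ⟨c', h1⟩
      rcases hℓp.dvd_or_dvd h3 with h4 | h4
      · exact absurd h4 (k5dc_not_dvd hℓ' hℓ (Ne.symm hne))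
      · exact h4
    obtain ⟨c'', hc''⟩ := h2
    have hmem : (x : SL(2, ℤ)) ∈ gammaH (L * ℓ * ℓ') M H := by
      refine ⟨?_, x.2.2⟩
      apply S41.mem_Gamma0_of_dvd
      rw [hc, hc'']
      exact ⟨c'', by push_cast; ring⟩
    exact ⟨⟨(x : SL(2, ℤ)), hmem⟩, Subtype.ext rfl⟩
  · intro γ
    have hdet : ((γ : SL(2, ℤ)) : Matrix (Fin 2) (Fin 2) ℤ) 0 0 * (γ : SL(2, ℤ)) 1 1
        - (γ : SL(2, ℤ)) 0 1 * (γ : SL(2, ℤ)) 1 0 = 1 := by
      have := (γ : SL(2, ℤ)).2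
      rw [Matrix.det_fin_two] at this
      exact this
    have hN : ¬ (ℓ : ℤ) ∣ ((L * ℓ' : ℕ) : ℤ) := by
      intro h
      rcases (Nat.Prime.dvd_mul hℓ).mp (Int.natCast_dvd_natCast.mp h) with h1 | h1
      · exact hℓL h1
      · exact hne ((Nat.prime_dvd_prime_iff_eq hℓ hℓ').mp h1)
    -- some `a + s₀ c` is prime to `ℓ`
    have key : ∃ s₀ : ℤ, ¬ (ℓ : ℤ) ∣ (γ : SL(2, ℤ)) 0 0 + s₀ * (γ : SL(2, ℤ)) 1 0 := by
      by_cases ha : (ℓ : ℤ) ∣ (γ : SL(2, ℤ)) 0 0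
      · refine ⟨1, fun h => ?_⟩
        have h1 : (ℓ : ℤ) ∣ (γ : SL(2, ℤ)) 1 0 := by
          have : ((γ : SL(2, ℤ)) : Matrix (Fin 2) (Fin 2) ℤ) 1 0 =
              ((γ : SL(2, ℤ)) 0 0 + 1 * (γ : SL(2, ℤ)) 1 0) - (γ : SL(2, ℤ)) 0 0 := by ring
          rw [this]; exact dvd_sub h ha
        have h2 : (ℓ : ℤ) ∣ ((γ : SL(2, ℤ)) : Matrix (Fin 2) (Fin 2) ℤ) 0 0 * (γ : SL(2, ℤ)) 1 1
            - (γ : SL(2, ℤ)) 0 1 * (γ : SL(2, ℤ)) 1 0 :=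
          dvd_sub (ha.mul_right _) (h1.mul_left _)
        rw [hdet] at h2
        exact hℓp.not_dvd_one h2
      · exact ⟨0, by simpa using ha⟩
    obtain ⟨s₀, hs₀⟩ := key
    obtain ⟨t, s, hst⟩ := k5dc_arith ((L * ℓ' : ℕ) : ℤ) hℓ ((γ : SL(2, ℤ)) 1 0)
      (-(((L * ℓ' : ℕ) : ℤ) * (γ : SL(2, ℤ)) 0 0)) ⟨s₀, fun h => by
        have e : -(((L * ℓ' : ℕ) : ℤ) * (γ : SL(2, ℤ)) 0 0) -
            ((L * ℓ' : ℕ) : ℤ) * s₀ * (γ : SL(2, ℤ)) 1 0 =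
            -(((L * ℓ' : ℕ) : ℤ) * ((γ : SL(2, ℤ)) 0 0 + s₀ * (γ : SL(2, ℤ)) 1 0)) := by ring
        rw [e, dvd_neg] at h
        rcases hℓp.dvd_or_dvd h with h1 | h1
        · exact hN h1
        · exact hs₀ h1⟩
    -- `x = X⁻¹`, `X = [[1, t], [N s, 1 + N s t]]`
    have hXK : k5ccX (L * ℓ') s t ∈ gammaH (L * ℓ') M H :=
      k5ccX_mem (L * ℓ') M (k5cc_dvd_mul L M ℓ') H s t
    have hXΓ : k5ccX (L * ℓ') s t ∈ gammaH L M H := gammaH_mul_le L M ℓ' H hXK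
    have hg : k5ccX (L * ℓ') s t * (γ : SL(2, ℤ)) ∈ gammaH L M H := mul_mem hXΓ γ.2
    have h10 : (ℓ : ℤ) ∣ ((k5ccX (L * ℓ') s t * (γ : SL(2, ℤ)) : SL(2, ℤ)) :
        Matrix (Fin 2) (Fin 2) ℤ) 1 0 := by
      rw [k5dc_X_mul_10]
      obtain ⟨w, hw⟩ := hst
      exact ⟨w, by linear_combination hw⟩
    have hgℓ : k5ccX (L * ℓ') s t * (γ : SL(2, ℤ)) ∈ gammaH (L * ℓ) M H := by
      refine ⟨?_, hg.2⟩
      apply S41.mem_Gamma0_of_dvd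
      obtain ⟨c, hc⟩ := S41.dvd_of_mem_Gamma0 hg.1
      rw [hc] at h10 ⊢
      have h2 : (ℓ : ℤ) ∣ c := by
        rcases hℓp.dvd_or_dvd h10 with h4 | h4
        · exact absurd (Int.natCast_dvd_natCast.mp h4) hℓL
        · exact h4
      obtain ⟨c'', hc''⟩ := h2
      rw [hc'']
      exact ⟨c'', by push_cast; ring⟩
    refine ⟨⟨(k5ccX (L * ℓ') s t)⁻¹, inv_mem hXK⟩, ⟨⟨_, hgℓ⟩, ?_⟩⟩
    apply Subtype.ext
    show k5ccX (L * ℓ') s t * (γ : SL(2, ℤ)) = ((k5ccX (L * ℓ') s t)⁻¹)⁻¹ * (γ : SL(2, ℤ))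
    rw [inv_inv]

/-- conjugation by `δ_ℓ` : `Γ_H(L ℓ ℓ') → Γ_H(L ℓ')` -/
def k5dcD : gammaH (L * ℓ * ℓ') M H →* gammaH (L * ℓ') M H :=
  (k5ccF' L M ℓ' ℓ H).comp
    (Subgroup.inclusion (le_of_eq (congrArg (fun n => gammaH n M H) (mul_right_comm L ℓ ℓ'))))

theorem k5dcD_coe (k : gammaH (L * ℓ * ℓ') M H) :
    (((k5dcD L M ℓ ℓ' H k : gammaH (L * ℓ') M H) : SL(2, ℤ)) : Matrix (Fin 2) (Fin 2) ℤ) =
      S41.conjDMat ℓ ((k : SL(2, ℤ)) : Matrix (Fin 2) (Fin 2) ℤ) := rfl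

/-- `conj_δ [[1, t], [L ℓ s, 1 + L ℓ s t]] = [[1, ℓ t], [L s, 1 + L s ℓ t]]` -/
theorem k5dc_conj_X (s t : ℤ) (hx : k5ccX (L * ℓ) s t ∈ gammaH (L * ℓ) M H) :
    ((conjDH L M ℓ H hML.out ⟨k5ccX (L * ℓ) s t, hx⟩ : gammaH L M H) : SL(2, ℤ)) =
      k5ccX L s (ℓ * t) := by
  have hℓ0 : (ℓ : ℤ) ≠ 0 := by exact_mod_cast NeZero.ne ℓ
  apply Subtype.ext
  rw [conjDH_coe, S41.conjD_coe]
  ext i j
  fin_cases i <;> fin_cases j
  · simp [S41.conjDMat, k5ccX]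
  · simp [S41.conjDMat, k5ccX]
  · simp only [S41.conjDMat, k5ccX, Matrix.of_apply, Matrix.cons_val_zero, Matrix.cons_val_one,
      Fin.zero_eta, Fin.mk_one]
    show ((L * ℓ : ℕ) : ℤ) * s / ℓ = (L : ℤ) * s
    have : ((L * ℓ : ℕ) : ℤ) * s = ℓ * ((L : ℤ) * s) := by push_cast; ring
    rw [this, Int.mul_ediv_cancel_left _ hℓ0]
  · simp only [S41.conjDMat, k5ccX, Matrix.of_apply, Matrix.cons_val_zero, Matrix.cons_val_one,
      Fin.mk_one]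
    show 1 + ((L * ℓ : ℕ) : ℤ) * s * t = 1 + (L : ℤ) * s * (ℓ * t)
    push_cast; ring

/-- **the square `(conj_δ', conj_δ)`** for primes `ℓ ≠ ℓ'` -/
theorem k5dc_square_conj (hℓ : ℓ.Prime) (hℓ' : ℓ'.Prime) (hne : ℓ ≠ ℓ') :
    (∀ k : gammaH (L * ℓ * ℓ') M H, conjDH L M ℓ' H hML.out (k5dcD L M ℓ ℓ' H k)
        = conjDH L M ℓ H hML.out (k5ccF' L M ℓ ℓ' H k)) ∧
    (∀ x : gammaH (L * ℓ) M H, conjDH L M ℓ H hML.out x ∈ (conjDH L M ℓ' H hML.out).range →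
        x ∈ (k5ccF' L M ℓ ℓ' H).range) ∧
    (∀ γ : gammaH L M H, ∃ x : gammaH (L * ℓ) M H,
        (conjDH L M ℓ H hML.out x)⁻¹ * γ ∈ (conjDH L M ℓ' H hML.out).range) := by
  haveI : Fact (M ∣ L * ℓ) := ⟨k5cc_dvd_mul L M ℓ⟩
  have hℓ'p : Prime (ℓ' : ℤ) := Nat.prime_iff_prime_int.mp hℓ'
  refine ⟨fun k => ?_, ?_, ?_⟩
  · apply Subtype.ext
    apply Subtype.ext
    show S41.conjDMat ℓ' (S41.conjDMat ℓ ((k : SL(2, ℤ)) : Matrix (Fin 2) (Fin 2) ℤ)) =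
      S41.conjDMat ℓ (S41.conjDMat ℓ' ((k : SL(2, ℤ)) : Matrix (Fin 2) (Fin 2) ℤ))
    ext i j
    fin_cases i <;> fin_cases j
    · simp [S41.conjDMat]
    · simp only [S41.conjDMat, Matrix.of_apply, Matrix.cons_val_zero, Matrix.cons_val_one,
        Fin.zero_eta, Fin.mk_one]
      ring
    · simp only [S41.conjDMat, Matrix.of_apply, Matrix.cons_val_zero, Matrix.cons_val_one,
        Fin.zero_eta, Fin.mk_one]
      rw [Int.ediv_ediv_of_nonneg (Int.natCast_nonneg ℓ),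
        Int.ediv_ediv_of_nonneg (Int.natCast_nonneg ℓ'), mul_comm (ℓ' : ℤ) (ℓ : ℤ)]
    · simp [S41.conjDMat]
  · rintro x ⟨z, hz⟩
    have h1 := k5dc_conjDH_01 L M ℓ' H z
    rw [hz, conjDH_coe, S41.conjD_coe] at h1
    have h2 : (ℓ' : ℤ) ∣ (ℓ : ℤ) * ((x : SL(2, ℤ)) : Matrix (Fin 2) (Fin 2) ℤ) 0 1 := by
      simpa [S41.conjDMat] using h1
    have h01 : (ℓ' : ℤ) ∣ ((x : SL(2, ℤ)) : Matrix (Fin 2) (Fin 2) ℤ) 0 1 := by
      rcases hℓ'p.dvd_or_dvd h2 with h4 | h4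
      · exact absurd h4 (k5dc_not_dvd hℓ hℓ' hne)
      · exact h4
    exact k5dc_mem_conjDH_range (L * ℓ) M ℓ' H x h01
  · intro γ
    obtain ⟨s₀, hs₀⟩ := k5dc_exists_s L hℓ' (γ : SL(2, ℤ)) γ.2.1 1 hℓ'p.not_dvd_one
    obtain ⟨s, t, hst⟩ := k5dc_arith ((L : ℤ) * ℓ) hℓ' ((γ : SL(2, ℤ)) 0 1)
      ((ℓ : ℤ) * (γ : SL(2, ℤ)) 1 1) ⟨s₀, fun h => by
        have e : (ℓ : ℤ) * (γ : SL(2, ℤ)) 1 1 - (L : ℤ) * ℓ * s₀ * (γ : SL(2, ℤ)) 0 1 =
            (ℓ : ℤ) * ((γ : SL(2, ℤ)) 1 1 - (L : ℤ) * 1 * s₀ * (γ : SL(2, ℤ)) 0 1) := by ring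
        rw [e] at h
        rcases hℓ'p.dvd_or_dvd h with h1 | h1
        · exact k5dc_not_dvd hℓ hℓ' hne h1
        · exact hs₀ h1⟩
    have hxK : k5ccX (L * ℓ) s t ∈ gammaH (L * ℓ) M H :=
      k5ccX_mem (L * ℓ) M (k5cc_dvd_mul L M ℓ) H s t
    have hjx := k5dc_conj_X L M ℓ H s t hxK
    have hjΓ : k5ccX L s (ℓ * t) ∈ gammaH L M H := by
      rw [← hjx]; exact (conjDH L M ℓ H hML.out ⟨_, hxK⟩).2
    have hg : (k5ccX L s (ℓ * t))⁻¹ * (γ : SL(2, ℤ)) ∈ gammaH L M H :=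
      mul_mem (inv_mem hjΓ) γ.2
    have h01 : (ℓ' : ℤ) ∣ (((k5ccX L s (ℓ * t))⁻¹ * (γ : SL(2, ℤ)) : SL(2, ℤ)) :
        Matrix (Fin 2) (Fin 2) ℤ) 0 1 := by
      rw [k5ccX_inv_mul_01]
      obtain ⟨w, hw⟩ := hst
      exact ⟨w, by linear_combination hw⟩
    refine ⟨⟨_, hxK⟩, ?_⟩
    have hmem := k5dc_mem_conjDH_range L M ℓ' H ⟨_, hg⟩ h01
    have e : (conjDH L M ℓ H hML.out ⟨k5ccX (L * ℓ) s t, hxK⟩)⁻¹ * γ =
        (⟨(k5ccX L s (ℓ * t))⁻¹ * (γ : SL(2, ℤ)), hg⟩ : gammaH L M H) := by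
      apply Subtype.ext
      show ((conjDH L M ℓ H hML.out ⟨k5ccX (L * ℓ) s t, hxK⟩ : gammaH L M H) : SL(2, ℤ))⁻¹ *
        (γ : SL(2, ℤ)) = _
      rw [hjx]
    rw [e]
    exact hmem

end squares

section assembly

variable (L M ℓ ℓ' : ℕ) [NeZero L] [NeZero ℓ] [NeZero ℓ'] [hML : Fact (M ∣ L)]
  (H : Subgroup (ZMod M)ˣ) (A : Type) [AddCommGroup A]

/-- **`resH` commutes with `tS ℓ'`** -/
theorem k5dc_resH (hℓ : ℓ.Prime) (hℓ' : ℓ'.Prime) (hne : ℓ ≠ ℓ')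
    (φ : HomS (gammaH L M H) A) :
    haveI : Fact (M ∣ L * ℓ) := ⟨k5cc_dvd_mul L M ℓ⟩
    resH L M ℓ H A (tS L M ℓ' H A φ) = tS (L * ℓ) M ℓ' H A (resH L M ℓ H A φ) := by
  haveI : Fact (M ∣ L * ℓ) := ⟨k5cc_dvd_mul L M ℓ⟩
  obtain ⟨h1, h2, h3⟩ := k5dc_square_incl L M ℓ ℓ' H hℓ hℓ' hne
  have hA := k5c_transfer_basechange (conjDH L M ℓ' H hML.out)
    (conjDH_injective L M ℓ' H hML.out) (inclH L M ℓ H) (k5ccF' L M ℓ ℓ' H)
    (k5ccF'_injective L M ℓ ℓ' H) (k5ccJK L M ℓ ℓ' H) A h1 h2 h3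
    (φ.comp (MonoidHom.toAdditive (inclH L M ℓ' H)))
  show (S41.transferAlong A (conjDH L M ℓ' H hML.out) (conjDH_injective L M ℓ' H hML.out)
        (φ.comp (MonoidHom.toAdditive (inclH L M ℓ' H)))).comp
          (MonoidHom.toAdditive (inclH L M ℓ H)) = _
  rw [hA]
  rfl

/-- **`coresDH` commutes with `tS ℓ'`** -/
theorem k5dc_coresDH (hℓ : ℓ.Prime) (hℓ' : ℓ'.Prime) (hne : ℓ ≠ ℓ') (hℓL : ¬ ℓ ∣ L)
    (ψ : HomS (gammaH (L * ℓ) M H) A) :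
    haveI : Fact (M ∣ L * ℓ) := ⟨k5cc_dvd_mul L M ℓ⟩
    coresDH L M ℓ H A (tS (L * ℓ) M ℓ' H A ψ) = tS L M ℓ' H A (coresDH L M ℓ H A ψ) := by
  haveI : Fact (M ∣ L * ℓ) := ⟨k5cc_dvd_mul L M ℓ⟩
  haveI : Fact (M ∣ L * ℓ') := ⟨k5cc_dvd_mul L M ℓ'⟩
  -- left hand side: transitivity
  haveI : ((conjDH L M ℓ H hML.out).comp (k5ccF' L M ℓ ℓ' H)).range.FiniteIndex :=
    k5ccF_finiteIndex L M ℓ ℓ' H
  have hB := k5c_transfer_trans (k5ccF' L M ℓ ℓ' H) (k5ccF'_injective L M ℓ ℓ' H)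
    (conjDH L M ℓ H hML.out) (conjDH_injective L M ℓ H hML.out) A
    (ψ.comp (MonoidHom.toAdditive (inclH (L * ℓ) M ℓ' H)))
  -- right hand side: base change, then transitivity
  obtain ⟨h1, h2, h3⟩ := k5cc_square L M ℓ' ℓ H hℓ' hℓ (Ne.symm hne) hℓL
  have hA := k5c_transfer_basechange (conjDH L M ℓ H hML.out)
    (conjDH_injective L M ℓ H hML.out) (inclH L M ℓ' H) (k5ccF' L M ℓ' ℓ H)
    (k5ccF'_injective L M ℓ' ℓ H) (k5ccJK L M ℓ' ℓ H) A h1 h2 h3 ψ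
  haveI : ((conjDH L M ℓ' H hML.out).comp (k5ccF' L M ℓ' ℓ H)).range.FiniteIndex :=
    k5ccF_finiteIndex L M ℓ' ℓ H
  have hC := k5c_transfer_trans (k5ccF' L M ℓ' ℓ H) (k5ccF'_injective L M ℓ' ℓ H)
    (conjDH L M ℓ' H hML.out) (conjDH_injective L M ℓ' H hML.out) A
    (ψ.comp (MonoidHom.toAdditive (k5ccJK L M ℓ' ℓ H)))
  show S41.transferAlong A (conjDH L M ℓ H hML.out) (conjDH_injective L M ℓ H hML.out)
      (S41.transferAlong A (k5ccF' L M ℓ ℓ' H) (k5ccF'_injective L M ℓ ℓ' H)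
        (ψ.comp (MonoidHom.toAdditive (inclH (L * ℓ) M ℓ' H)))) =
    S41.transferAlong A (conjDH L M ℓ' H hML.out) (conjDH_injective L M ℓ' H hML.out)
      ((S41.transferAlong A (conjDH L M ℓ H hML.out) (conjDH_injective L M ℓ H hML.out) ψ).comp
        (MonoidHom.toAdditive (inclH L M ℓ' H)))
  rw [hA, ← hB, ← hC]
  have hℓ0 : (ℓ : ℤ) ≠ 0 := by exact_mod_cast hℓ.ne_zero
  have hℓ'0 : (ℓ' : ℤ) ≠ 0 := by exact_mod_cast hℓ'.ne_zero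
  refine k5cc_congr M H A (show L * ℓ * ℓ' = L * ℓ' * ℓ by ring) _ _ _ _ _ _
    (fun k₁ k₂ hk => ?_) (fun k₁ k₂ hk => ?_)
  · apply Subtype.ext
    apply Subtype.ext
    show S41.conjDMat ℓ (S41.conjDMat ℓ' ((k₁ : SL(2, ℤ)) : Matrix (Fin 2) (Fin 2) ℤ)) =
      S41.conjDMat ℓ' (S41.conjDMat ℓ ((k₂ : SL(2, ℤ)) : Matrix (Fin 2) (Fin 2) ℤ))
    rw [hk]
    ext i j
    fin_cases i <;> fin_cases j
    · simp [S41.conjDMat]
    · simp only [S41.conjDMat, Matrix.of_apply, Matrix.cons_val_zero, Matrix.cons_val_one,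
        Fin.zero_eta, Fin.mk_one]
      ring
    · simp only [S41.conjDMat, Matrix.of_apply, Matrix.cons_val_zero, Matrix.cons_val_one,
        Fin.zero_eta, Fin.mk_one]
      rw [Int.ediv_ediv_of_nonneg (Int.natCast_nonneg ℓ'),
        Int.ediv_ediv_of_nonneg (Int.natCast_nonneg ℓ), mul_comm (ℓ' : ℤ) (ℓ : ℤ)]
    · simp [S41.conjDMat]
  · show ψ (Additive.ofMul (inclH (L * ℓ) M ℓ' H k₁)) =
      ψ (Additive.ofMul (k5ccJK L M ℓ' ℓ H k₂))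
    congr 2
    exact Subtype.ext hk

/-- **`resDH` commutes with `tS ℓ'`** -/
theorem k5dc_resDH (hℓ : ℓ.Prime) (hℓ' : ℓ'.Prime) (hne : ℓ ≠ ℓ')
    (φ : HomS (gammaH L M H) A) :
    haveI : Fact (M ∣ L * ℓ) := ⟨k5cc_dvd_mul L M ℓ⟩
    resDH L M ℓ H A (tS L M ℓ' H A φ) = tS (L * ℓ) M ℓ' H A (resDH L M ℓ H A φ) := by
  haveI : Fact (M ∣ L * ℓ) := ⟨k5cc_dvd_mul L M ℓ⟩
  obtain ⟨h1, h2, h3⟩ := k5dc_square_conj L M ℓ ℓ' H hℓ hℓ' hne
  have hA := k5c_transfer_basechange (conjDH L M ℓ' H hML.out)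
    (conjDH_injective L M ℓ' H hML.out) (conjDH L M ℓ H hML.out) (k5ccF' L M ℓ ℓ' H)
    (k5ccF'_injective L M ℓ ℓ' H) (k5dcD L M ℓ ℓ' H) A h1 h2 h3
    (φ.comp (MonoidHom.toAdditive (inclH L M ℓ' H)))
  show (S41.transferAlong A (conjDH L M ℓ' H hML.out) (conjDH_injective L M ℓ' H hML.out)
        (φ.comp (MonoidHom.toAdditive (inclH L M ℓ' H)))).comp
          (MonoidHom.toAdditive (conjDH L M ℓ H hML.out)) = _
  rw [hA]
  show _ = S41.transferAlong A (k5ccF' L M ℓ ℓ' H) (k5ccF'_injective L M ℓ ℓ' H)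
    ((φ.comp (MonoidHom.toAdditive (conjDH L M ℓ H hML.out))).comp
      (MonoidHom.toAdditive (inclH (L * ℓ) M ℓ' H)))
  congr 1

/-- **`coresH` commutes with `tS ℓ'`** -/
theorem k5dc_coresH (hℓ : ℓ.Prime) (hℓ' : ℓ'.Prime) (hne : ℓ ≠ ℓ') (hℓL : ¬ ℓ ∣ L)
    (ψ : HomS (gammaH (L * ℓ) M H) A) :
    haveI : Fact (M ∣ L * ℓ) := ⟨k5cc_dvd_mul L M ℓ⟩
    coresH L M ℓ H A (tS (L * ℓ) M ℓ' H A ψ) = tS L M ℓ' H A (coresH L M ℓ H A ψ) := by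
  haveI : Fact (M ∣ L * ℓ) := ⟨k5cc_dvd_mul L M ℓ⟩
  haveI : Fact (M ∣ L * ℓ') := ⟨k5cc_dvd_mul L M ℓ'⟩
  -- left hand side: transitivity
  haveI : ((inclH L M ℓ H).comp (k5ccF' L M ℓ ℓ' H)).range.FiniteIndex :=
    k5c_comp_finiteIndex (k5ccF' L M ℓ ℓ' H) (inclH L M ℓ H) (inclH_injective L M ℓ H)
  have hB := k5c_transfer_trans (k5ccF' L M ℓ ℓ' H) (k5ccF'_injective L M ℓ ℓ' H)
    (inclH L M ℓ H) (inclH_injective L M ℓ H) A
    (ψ.comp (MonoidHom.toAdditive (inclH (L * ℓ) M ℓ' H)))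
  -- right hand side: base change, then transitivity
  obtain ⟨h1, h2, h3⟩ := k5dc_square_ii L M ℓ ℓ' H hℓ hℓ' hne hℓL
  have hA := k5c_transfer_basechange (inclH L M ℓ H) (inclH_injective L M ℓ H)
    (inclH L M ℓ' H) (k5ccJK L M ℓ ℓ' H) (k5dc_JK_injective L M ℓ ℓ' H)
    (inclH (L * ℓ) M ℓ' H) A h1 h2 h3 ψ
  haveI : ((conjDH L M ℓ' H hML.out).comp (k5ccJK L M ℓ ℓ' H)).range.FiniteIndex :=
    k5c_comp_finiteIndex (k5ccJK L M ℓ ℓ' H) (conjDH L M ℓ' H hML.out)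
      (conjDH_injective L M ℓ' H hML.out)
  have hC := k5c_transfer_trans (k5ccJK L M ℓ ℓ' H) (k5dc_JK_injective L M ℓ ℓ' H)
    (conjDH L M ℓ' H hML.out) (conjDH_injective L M ℓ' H hML.out) A
    (ψ.comp (MonoidHom.toAdditive (inclH (L * ℓ) M ℓ' H)))
  show S41.transferAlong A (inclH L M ℓ H) (inclH_injective L M ℓ H)
      (S41.transferAlong A (k5ccF' L M ℓ ℓ' H) (k5ccF'_injective L M ℓ ℓ' H)
        (ψ.comp (MonoidHom.toAdditive (inclH (L * ℓ) M ℓ' H)))) =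
    S41.transferAlong A (conjDH L M ℓ' H hML.out) (conjDH_injective L M ℓ' H hML.out)
      ((S41.transferAlong A (inclH L M ℓ H) (inclH_injective L M ℓ H) ψ).comp
        (MonoidHom.toAdditive (inclH L M ℓ' H)))
  rw [hA, ← hB, ← hC]
  exact k5c_transfer_congr (MonoidHom.ext fun k => Subtype.ext rfl) _ _ _


end assembly

/-- **K5-UQ4** -/
theorem stmtDegComm : StmtDegComm := by
  intro L M ℓ ℓ' _ _ _ hML H A _ hℓ hℓ' hne hℓL
  exact ⟨fun φ => k5dc_resH L M ℓ ℓ' H A hℓ hℓ' hne φ,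
    fun φ => k5dc_resDH L M ℓ ℓ' H A hℓ hℓ' hne φ,
    fun ψ => k5dc_coresH L M ℓ ℓ' H A hℓ hℓ' hne hℓL ψ,
    fun ψ => k5dc_coresDH L M ℓ ℓ' H A hℓ hℓ' hne hℓL ψ⟩

end Fermat.Agent.RT.K5

end
end ZBRT_028_16

/-! ### bundled: `Fermat.Agent.RT.K5.UQ2` -/
section ZBRT_028_17

/-!
# RT-K5, piece UQ2 (helper26): all `tS ℓ` commute, all `tSadj ℓ` commute — `stmtCommTU`

As `CommT.lean` (helper40), without the hypotheses `ℓ ∤ L`, `ℓ' ∤ L`.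

* `tS ℓ ∘ tS ℓ' = cores_{δ δ'} ∘ res` (`k5uq2_tS_tS`): base change in the square
  `(Γ_H(L ℓ ℓ') → Γ_H(L ℓ), Γ_H(L ℓ') → Γ_H(L))` over `conj_δ'` / inclusions.  The only place
  where `ℓ' ∤ L` was used is the double coset decomposition
  `Γ_H(L) = Γ₁(L ℓ) · δ' Γ_H(L ℓ') δ'⁻¹`; for `ℓ' ∣ L` the entry `d` is a unit modulo `ℓ'`
  (`k5uq2_arith`).
* `tSadj ℓ ∘ tSadj ℓ' = cores ∘ res_{δ' δ}` (`k5uq2_adj_adj`): base change in the square
  `(Γ_H(L ℓ ℓ') → Γ_H(L ℓ), Γ_H(L ℓ') → Γ_H(L))` over inclusions / `conj_δ`, with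
  `Γ_H(L) = δ Γ₁(…) δ⁻¹ · Γ_H(L ℓ')` (`k5uq2_Y`, the same arithmetic for the transposed matrix).
-/

set_option autoImplicit false
set_option linter.style.haveILetI false
set_option linter.unusedSectionVars false
set_option linter.unusedVariables false

noncomputable section

namespace Fermat.Agent.RT.K5

open CongruenceSubgroup Matrix
open scoped MatrixGroups
open Fermat.Agent.ES1 (gammaH diamHom pmH)

/-- arithmetic core of the double coset decompositions: `k5cc_arith`, also for `r ∣ N`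
provided `r ∣ c`. -/
theorem k5uq2_arith (N : ℕ) {r : ℕ} (hr : r.Prime) (a b c d : ℤ)
    (hdet : a * d - b * c = 1) (h : ¬ r ∣ N ∨ (r : ℤ) ∣ c) :
    ∃ s t : ℤ, (r : ℤ) ∣ (1 + N * s * t) * b - t * d := by
  rcases h with h | ⟨c', hc'⟩
  · exact k5cc_arith N hr h a b c d hdet
  · refine ⟨0, b * a, ⟨-(b * b * c'), ?_⟩⟩
    rw [hc'] at hdet
    linear_combination (-b) * hdet

theorem k5uq2_hyp (L ℓ ℓ' : ℕ) (hℓ : ℓ.Prime) (hℓ' : ℓ'.Prime) (hne : ℓ ≠ ℓ') :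
    ¬ ℓ' ∣ L * ℓ ∨ ℓ' ∣ L := by
  by_cases h : ℓ' ∣ L
  · exact Or.inr h
  · refine Or.inl fun h' => ?_
    rcases (Nat.Prime.dvd_mul hℓ').mp h' with h1 | h1
    · exact h h1
    · exact hne ((Nat.prime_dvd_prime_iff_eq hℓ' hℓ).mp h1).symm

section square

variable (L M ℓ ℓ' : ℕ) [NeZero L] [NeZero ℓ] [NeZero ℓ'] [hML : Fact (M ∣ L)]
  (H : Subgroup (ZMod M)ˣ)

/-- `k5cc_square` without `ℓ' ∤ L`. -/
theorem k5uq2_square (hℓ : ℓ.Prime) (hℓ' : ℓ'.Prime) (hne : ℓ ≠ ℓ') :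
    (∀ k : gammaH (L * ℓ * ℓ') M H, conjDH L M ℓ' H hML.out (k5ccJK L M ℓ ℓ' H k)
        = inclH L M ℓ H (k5ccF' L M ℓ ℓ' H k)) ∧
    (∀ x : gammaH (L * ℓ) M H, inclH L M ℓ H x ∈ (conjDH L M ℓ' H hML.out).range →
        x ∈ (k5ccF' L M ℓ ℓ' H).range) ∧
    (∀ γ : gammaH L M H, ∃ x : gammaH (L * ℓ) M H,
        (inclH L M ℓ H x)⁻¹ * γ ∈ (conjDH L M ℓ' H hML.out).range) := by
  have hℓ'0 : (ℓ' : ℤ) ≠ 0 := by exact_mod_cast NeZero.ne ℓ'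
  refine ⟨fun k => Subtype.ext rfl, ?_, ?_⟩
  · rintro x ⟨z, hz⟩
    have he : ((conjDH L M ℓ' H hML.out z : gammaH L M H) : SL(2, ℤ)) = (x : SL(2, ℤ)) :=
      congrArg (fun y : gammaH L M H => (y : SL(2, ℤ))) hz
    have he10 : ((x : SL(2, ℤ)) : Matrix (Fin 2) (Fin 2) ℤ) 1 0 =
        ((z : SL(2, ℤ)) : Matrix (Fin 2) (Fin 2) ℤ) 1 0 / ℓ' := by
      rw [← he, conjDH_coe, S41.conjD_coe]
      simp [S41.conjDMat]
    obtain ⟨c, hc⟩ : (ℓ' : ℤ) ∣ ((z : SL(2, ℤ)) : Matrix (Fin 2) (Fin 2) ℤ) 1 0 := by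
      have h1 := S41.dvd_of_mem_Gamma0 z.2.1
      exact (Dvd.intro_left _ (by push_cast; rfl)).trans h1
    rw [hc, Int.mul_ediv_cancel_left _ hℓ'0] at he10
    obtain ⟨c', hc'⟩ := S41.dvd_of_mem_Gamma0 x.2.1
    have hmem : (z : SL(2, ℤ)) ∈ gammaH (L * ℓ * ℓ') M H := by
      refine ⟨?_, z.2.2⟩
      apply S41.mem_Gamma0_of_dvd
      rw [hc, ← he10, hc']
      exact ⟨c', by push_cast; ring⟩
    refine ⟨⟨(z : SL(2, ℤ)), hmem⟩, ?_⟩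
    apply Subtype.ext
    rw [← he]
    rfl
  · intro γ
    have hdet : ((γ : SL(2, ℤ)) : Matrix (Fin 2) (Fin 2) ℤ) 0 0 * (γ : SL(2, ℤ)) 1 1
        - (γ : SL(2, ℤ)) 0 1 * (γ : SL(2, ℤ)) 1 0 = 1 := by
      have := (γ : SL(2, ℤ)).2
      rw [Matrix.det_fin_two] at this
      exact this
    have hyp : ¬ ℓ' ∣ L * ℓ ∨ (ℓ' : ℤ) ∣ ((γ : SL(2, ℤ)) : Matrix (Fin 2) (Fin 2) ℤ) 1 0 := by
      rcases k5uq2_hyp L ℓ ℓ' hℓ hℓ' hne with h | h
      · exact Or.inl h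
      · exact Or.inr ((Int.natCast_dvd_natCast.mpr h).trans (S41.dvd_of_mem_Gamma0 γ.2.1))
    obtain ⟨s, t, hst⟩ := k5uq2_arith (L * ℓ) hℓ' _ _ _ _ hdet hyp
    have hxK : k5ccX (L * ℓ) s t ∈ gammaH (L * ℓ) M H :=
      k5ccX_mem (L * ℓ) M (k5cc_dvd_mul L M ℓ) H s t
    have hxΓ : k5ccX (L * ℓ) s t ∈ gammaH L M H := gammaH_mul_le L M ℓ H hxK
    have hg : (k5ccX (L * ℓ) s t)⁻¹ * (γ : SL(2, ℤ)) ∈ gammaH L M H :=
      mul_mem (inv_mem hxΓ) γ.2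
    have h01 : (ℓ' : ℤ) ∣ (((k5ccX (L * ℓ) s t)⁻¹ * (γ : SL(2, ℤ)) : SL(2, ℤ)) :
        Matrix (Fin 2) (Fin 2) ℤ) 0 1 := by
      rw [k5ccX_inv_mul_01]
      exact hst
    obtain ⟨z, hz, hz00⟩ := k5e_exists_conjD_preimage L ℓ' ⟨_, hg.1⟩ h01
    have hzL : (z : SL(2, ℤ)) ∈ Gamma0 L := by
      apply S41.mem_Gamma0_of_dvd
      exact (Int.natCast_dvd_natCast.mpr (dvd_mul_right L ℓ')).trans (S41.dvd_of_mem_Gamma0 z.2)
    have hzM : (z : SL(2, ℤ)) ∈ Gamma0 M := k5i_mem_Gamma0M L M hzL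
    have hmem : (z : SL(2, ℤ)) ∈ gammaH (L * ℓ') M H := by
      refine ⟨z.2, hzM, ?_⟩
      rw [k5e_diam_eq_of_entry _ _ hzM hg.2.1 hz00]
      exact hg.2.2
    refine ⟨⟨_, hxK⟩, ⟨(z : SL(2, ℤ)), hmem⟩, ?_⟩
    apply Subtype.ext
    rw [conjDH_coe]
    have : (⟨(z : SL(2, ℤ)), hmem.1⟩ : Gamma0 (L * ℓ')) = z := rfl
    rw [this, hz]
    rfl

end square

section assembly

variable (L M ℓ ℓ' : ℕ) [NeZero L] [NeZero ℓ] [NeZero ℓ'] [hML : Fact (M ∣ L)]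
  (H : Subgroup (ZMod M)ˣ) (A : Type) [AddCommGroup A]

/-- `T_ℓ T_ℓ' = cores_{δ δ'} ∘ res`, for all primes `ℓ ≠ ℓ'` -/
theorem k5uq2_tS_tS (hℓ : ℓ.Prime) (hℓ' : ℓ'.Prime) (hne : ℓ ≠ ℓ')
    (φ : HomS (gammaH L M H) A) :
    tS L M ℓ H A (tS L M ℓ' H A φ) =
      S41.transferAlong A (k5ccF L M ℓ ℓ' H) (k5ccF_injective L M ℓ ℓ' H)
        (φ.comp (MonoidHom.toAdditive (k5ccI L M ℓ ℓ' H))) := by
  obtain ⟨h1, h2, h3⟩ := k5uq2_square L M ℓ ℓ' H hℓ hℓ' hne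
  have hA := k5c_transfer_basechange (conjDH L M ℓ' H hML.out)
    (conjDH_injective L M ℓ' H hML.out) (inclH L M ℓ H) (k5ccF' L M ℓ ℓ' H)
    (k5ccF'_injective L M ℓ ℓ' H) (k5ccJK L M ℓ ℓ' H) A h1 h2 h3
    (φ.comp (MonoidHom.toAdditive (inclH L M ℓ' H)))
  haveI : ((conjDH L M ℓ H hML.out).comp (k5ccF' L M ℓ ℓ' H)).range.FiniteIndex :=
    k5ccF_finiteIndex L M ℓ ℓ' H
  have hB := k5c_transfer_trans (k5ccF' L M ℓ ℓ' H) (k5ccF'_injective L M ℓ ℓ' H)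
    (conjDH L M ℓ H hML.out) (conjDH_injective L M ℓ H hML.out) A
    ((φ.comp (MonoidHom.toAdditive (inclH L M ℓ' H))).comp
      (MonoidHom.toAdditive (k5ccJK L M ℓ ℓ' H)))
  show S41.transferAlong A (conjDH L M ℓ H hML.out) (conjDH_injective L M ℓ H hML.out)
      ((S41.transferAlong A (conjDH L M ℓ' H hML.out) (conjDH_injective L M ℓ' H hML.out)
        (φ.comp (MonoidHom.toAdditive (inclH L M ℓ' H)))).comp
          (MonoidHom.toAdditive (inclH L M ℓ H))) = _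
  rw [hA, ← hB]
  rfl

end assembly

/-- `conj_δ conj_δ' = conj_δ' conj_δ` on matrices -/
theorem k5uq2_conjDMat_comm (ℓ ℓ' : ℕ) (X : Matrix (Fin 2) (Fin 2) ℤ) :
    S41.conjDMat ℓ (S41.conjDMat ℓ' X) = S41.conjDMat ℓ' (S41.conjDMat ℓ X) := by
  ext i j
  fin_cases i <;> fin_cases j
  · simp [S41.conjDMat]
  · simp only [S41.conjDMat, Matrix.of_apply, Matrix.cons_val_zero, Matrix.cons_val_one,
      Fin.zero_eta, Fin.mk_one]
    ring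
  · simp only [S41.conjDMat, Matrix.of_apply, Matrix.cons_val_zero, Matrix.cons_val_one,
      Fin.zero_eta, Fin.mk_one]
    rw [Int.ediv_ediv_of_nonneg (Int.natCast_nonneg ℓ'),
      Int.ediv_ediv_of_nonneg (Int.natCast_nonneg ℓ), mul_comm (ℓ' : ℤ) (ℓ : ℤ)]
  · simp [S41.conjDMat]

/-- the `tS` half of **K5-UQ2** -/
theorem k5uq2_tS_comm (L M ℓ ℓ' : ℕ) [NeZero L] [NeZero ℓ] [NeZero ℓ'] [hML : Fact (M ∣ L)]
    (H : Subgroup (ZMod M)ˣ) (A : Type) [AddCommGroup A] (hℓ : ℓ.Prime) (hℓ' : ℓ'.Prime)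
    (φ : HomS (gammaH L M H) A) :
    tS L M ℓ H A (tS L M ℓ' H A φ) = tS L M ℓ' H A (tS L M ℓ H A φ) := by
  by_cases hne : ℓ = ℓ'
  · subst hne
    rfl
  · rw [k5uq2_tS_tS L M ℓ ℓ' H A hℓ hℓ' hne φ,
      k5uq2_tS_tS L M ℓ' ℓ H A hℓ' hℓ (Ne.symm hne) φ]
    refine k5cc_congr M H A (show L * ℓ * ℓ' = L * ℓ' * ℓ by ring) _ _ _ _ _ _
      (fun k₁ k₂ hk => ?_) (fun k₁ k₂ hk => ?_)
    · apply Subtype.ext
      apply Subtype.ext
      show S41.conjDMat ℓ (S41.conjDMat ℓ' ((k₁ : SL(2, ℤ)) : Matrix (Fin 2) (Fin 2) ℤ)) =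
        S41.conjDMat ℓ' (S41.conjDMat ℓ ((k₂ : SL(2, ℤ)) : Matrix (Fin 2) (Fin 2) ℤ))
      rw [hk]
      exact k5uq2_conjDMat_comm ℓ ℓ' _
    · show φ (Additive.ofMul (k5ccI L M ℓ ℓ' H k₁)) = φ (Additive.ofMul (k5ccI L M ℓ' ℓ H k₂))
      congr 2
      exact Subtype.ext hk

/-! ## the adjoint operators -/

/-- the matrix `[[1 + L ℓ s t, ℓ t], [L s, 1]] ∈ δ Γ₁(L ℓ) δ⁻¹` -/
def k5uq2_Y (L ℓ : ℕ) (s t : ℤ) : SL(2, ℤ) :=
  ⟨!![1 + (L : ℤ) * ℓ * s * t, (ℓ : ℤ) * t; (L : ℤ) * s, 1], by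
    rw [Matrix.det_fin_two_of]; ring⟩

theorem k5uq2_Y_mem (L M ℓ : ℕ) [hML : Fact (M ∣ L)] (H : Subgroup (ZMod M)ˣ) (s t : ℤ) :
    k5uq2_Y L ℓ s t ∈ gammaH L M H := by
  have h10 : (k5uq2_Y L ℓ s t) 1 0 = (L : ℤ) * s := by simp [k5uq2_Y]
  have h00 : (k5uq2_Y L ℓ s t) 0 0 = 1 + (L : ℤ) * ℓ * s * t := by simp [k5uq2_Y]
  have hN : k5uq2_Y L ℓ s t ∈ Gamma0 L := by
    apply S41.mem_Gamma0_of_dvd
    rw [h10]; exact dvd_mul_right _ _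
  have hM : k5uq2_Y L ℓ s t ∈ Gamma0 M := by
    apply S41.mem_Gamma0_of_dvd
    rw [h10]; exact (Int.natCast_dvd_natCast.mpr hML.out).mul_right _
  refine ⟨hN, hM, ?_⟩
  have : diamHom M ⟨k5uq2_Y L ℓ s t, hM⟩ = 1 := by
    ext
    rw [Fermat.Agent.ES1.coe_diamHom, h00]
    obtain ⟨m, hm⟩ := hML.out
    have hL0 : ((L : ℤ) : ZMod M) = 0 := by
      rw [hm]; push_cast; simp
    push_cast
    push_cast at hL0
    rw [hL0]
    simp
  rw [this]; exact one_mem _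

theorem k5uq2_Y_01 (L ℓ : ℕ) (s t : ℤ) :
    ((k5uq2_Y L ℓ s t : SL(2, ℤ)) : Matrix (Fin 2) (Fin 2) ℤ) 0 1 = (ℓ : ℤ) * t := by
  simp [k5uq2_Y]

theorem k5uq2_Y_inv_mul_10 (L ℓ : ℕ) (s t : ℤ) (γ : SL(2, ℤ)) :
    (((k5uq2_Y L ℓ s t)⁻¹ * γ : SL(2, ℤ)) : Matrix (Fin 2) (Fin 2) ℤ) 1 0 =
      (1 + L * ℓ * s * t) * γ 1 0 - L * s * γ 0 0 := by
  rw [Matrix.SpecialLinearGroup.coe_mul, Matrix.SpecialLinearGroup.coe_inv,
    Matrix.adjugate_fin_two, Matrix.mul_apply, Fin.sum_univ_two]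
  simp [k5uq2_Y]
  ring

section adjsquare

variable (L M ℓ ℓ' : ℕ) [NeZero L] [NeZero ℓ] [NeZero ℓ'] [hML : Fact (M ∣ L)]
  (H : Subgroup (ZMod M)ˣ)

theorem k5uq2_level_eq : gammaH (L * ℓ * ℓ') M H = gammaH (L * ℓ' * ℓ) M H := by
  rw [Nat.mul_right_comm]

/-- the identification `Γ_H(L ℓ ℓ') = Γ_H(L ℓ' ℓ)` -/
def k5uq2_cast : gammaH (L * ℓ * ℓ') M H →* gammaH (L * ℓ' * ℓ) M H :=
  Subgroup.inclusion (le_of_eq (k5uq2_level_eq L M ℓ ℓ' H))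

/-- `conj_δ : Γ_H(L ℓ ℓ') → Γ_H(L ℓ')` -/
def k5uq2_JK : gammaH (L * ℓ * ℓ') M H →* gammaH (L * ℓ') M H :=
  (conjDH (L * ℓ') M ℓ H (k5cc_dvd_mul L M ℓ')).comp (k5uq2_cast L M ℓ ℓ' H)

/-- the inclusion `Γ_H(L ℓ ℓ') → Γ_H(L ℓ)` -/
def k5uq2_F' : gammaH (L * ℓ * ℓ') M H →* gammaH (L * ℓ) M H :=
  inclH (L * ℓ) M ℓ' H

theorem k5uq2_F'_injective : Function.Injective (k5uq2_F' L M ℓ ℓ' H) :=
  inclH_injective (L * ℓ) M ℓ' H

instance k5uq2_F'_finiteIndex : (k5uq2_F' L M ℓ ℓ' H).range.FiniteIndex :=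
  haveI : Fact (M ∣ L * ℓ) := ⟨k5cc_dvd_mul L M ℓ⟩
  inclH_range_finiteIndex (L * ℓ) M ℓ' H

theorem k5uq2_adj_square (hℓ : ℓ.Prime) (hℓ' : ℓ'.Prime) (hne : ℓ ≠ ℓ') :
    (∀ k : gammaH (L * ℓ * ℓ') M H, inclH L M ℓ' H (k5uq2_JK L M ℓ ℓ' H k)
        = conjDH L M ℓ H hML.out (k5uq2_F' L M ℓ ℓ' H k)) ∧
    (∀ x : gammaH (L * ℓ) M H, conjDH L M ℓ H hML.out x ∈ (inclH L M ℓ' H).range →
        x ∈ (k5uq2_F' L M ℓ ℓ' H).range) ∧
    (∀ γ : gammaH L M H, ∃ x : gammaH (L * ℓ) M H,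
        (conjDH L M ℓ H hML.out x)⁻¹ * γ ∈ (inclH L M ℓ' H).range) := by
  have hℓ0 : (ℓ : ℤ) ≠ 0 := by exact_mod_cast NeZero.ne ℓ
  refine ⟨fun k => Subtype.ext rfl, ?_, ?_⟩
  · rintro x ⟨w, hw⟩
    have he : (w : SL(2, ℤ)) = ((conjDH L M ℓ H hML.out x : gammaH L M H) : SL(2, ℤ)) :=
      congrArg (fun y : gammaH L M H => (y : SL(2, ℤ))) hw
    have he10 : ((w : SL(2, ℤ)) : Matrix (Fin 2) (Fin 2) ℤ) 1 0 =
        ((x : SL(2, ℤ)) : Matrix (Fin 2) (Fin 2) ℤ) 1 0 / ℓ := by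
      rw [he, conjDH_coe, S41.conjD_coe]
      simp [S41.conjDMat]
    have hdvd : (ℓ : ℤ) ∣ ((x : SL(2, ℤ)) : Matrix (Fin 2) (Fin 2) ℤ) 1 0 := by
      have h1 := S41.dvd_of_mem_Gamma0 x.2.1
      exact (Dvd.intro_left _ (by push_cast; rfl)).trans h1
    obtain ⟨c', hc'⟩ := S41.dvd_of_mem_Gamma0 w.2.1
    have hx10 : ((x : SL(2, ℤ)) : Matrix (Fin 2) (Fin 2) ℤ) 1 0 =
        (ℓ : ℤ) * (((L * ℓ' : ℕ) : ℤ) * c') := by
      rw [← hc', he10, Int.mul_ediv_cancel' hdvd]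
    have hmem : (x : SL(2, ℤ)) ∈ gammaH (L * ℓ * ℓ') M H := by
      refine ⟨?_, x.2.2⟩
      apply S41.mem_Gamma0_of_dvd
      rw [hx10]
      exact ⟨c', by push_cast; ring⟩
    exact ⟨⟨(x : SL(2, ℤ)), hmem⟩, Subtype.ext rfl⟩
  · intro γ
    obtain ⟨c₀, hc₀⟩ := S41.dvd_of_mem_Gamma0 γ.2.1
    have hdet : ((γ : SL(2, ℤ)) : Matrix (Fin 2) (Fin 2) ℤ) 1 1 * (γ : SL(2, ℤ)) 0 0
        - c₀ * ((γ : SL(2, ℤ)) 0 1 * (L : ℤ)) = 1 := by
      have := (γ : SL(2, ℤ)).2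
      rw [Matrix.det_fin_two, hc₀] at this
      linear_combination this
    have hyp : ¬ ℓ' ∣ L * ℓ ∨
        (ℓ' : ℤ) ∣ ((γ : SL(2, ℤ)) : Matrix (Fin 2) (Fin 2) ℤ) 0 1 * (L : ℤ) := by
      rcases k5uq2_hyp L ℓ ℓ' hℓ hℓ' hne with h | h
      · exact Or.inl h
      · exact Or.inr ((Int.natCast_dvd_natCast.mpr h).mul_left _)
    obtain ⟨s, t, hst⟩ := k5uq2_arith (L * ℓ) hℓ' _ _ _ _ hdet hyp
    have hY : k5uq2_Y L ℓ t s ∈ gammaH L M H := k5uq2_Y_mem L M ℓ H t s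
    have hg : (k5uq2_Y L ℓ t s)⁻¹ * (γ : SL(2, ℤ)) ∈ gammaH L M H :=
      mul_mem (inv_mem hY) γ.2
    have h10 : ((L * ℓ' : ℕ) : ℤ) ∣ (((k5uq2_Y L ℓ t s)⁻¹ * (γ : SL(2, ℤ)) : SL(2, ℤ)) :
        Matrix (Fin 2) (Fin 2) ℤ) 1 0 := by
      rw [k5uq2_Y_inv_mul_10, hc₀]
      obtain ⟨e, he⟩ := hst
      refine ⟨e, ?_⟩
      push_cast at he ⊢
      linear_combination (L : ℤ) * he
    have hmem' : (k5uq2_Y L ℓ t s)⁻¹ * (γ : SL(2, ℤ)) ∈ gammaH (L * ℓ') M H :=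
      ⟨S41.mem_Gamma0_of_dvd h10, hg.2⟩
    have h01 : (ℓ : ℤ) ∣ ((k5uq2_Y L ℓ t s : SL(2, ℤ)) : Matrix (Fin 2) (Fin 2) ℤ) 0 1 := by
      rw [k5uq2_Y_01]; exact dvd_mul_right _ _
    obtain ⟨z, hz, hz00⟩ := k5e_exists_conjD_preimage L ℓ ⟨_, hY.1⟩ h01
    have hzL : (z : SL(2, ℤ)) ∈ Gamma0 L := by
      apply S41.mem_Gamma0_of_dvd
      exact (Int.natCast_dvd_natCast.mpr (dvd_mul_right L ℓ)).trans (S41.dvd_of_mem_Gamma0 z.2)
    have hzM : (z : SL(2, ℤ)) ∈ Gamma0 M := k5i_mem_Gamma0M L M hzL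
    have hmem : (z : SL(2, ℤ)) ∈ gammaH (L * ℓ) M H := by
      refine ⟨z.2, hzM, ?_⟩
      rw [k5e_diam_eq_of_entry _ _ hzM hY.2.1 hz00]
      exact hY.2.2
    refine ⟨⟨(z : SL(2, ℤ)), hmem⟩, ⟨⟨_, hmem'⟩, ?_⟩⟩
    apply Subtype.ext
    show (k5uq2_Y L ℓ t s)⁻¹ * (γ : SL(2, ℤ)) =
      ((conjDH L M ℓ H hML.out ⟨(z : SL(2, ℤ)), hmem⟩ : gammaH L M H) : SL(2, ℤ))⁻¹
        * (γ : SL(2, ℤ))
    rw [conjDH_coe]
    have : (⟨(z : SL(2, ℤ)), hmem.1⟩ : Gamma0 (L * ℓ)) = z := rfl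
    rw [this, hz]

end adjsquare

section adjassembly

variable (L M ℓ ℓ' : ℕ) [NeZero L] [NeZero ℓ] [NeZero ℓ'] [hML : Fact (M ∣ L)]
  (H : Subgroup (ZMod M)ˣ) (A : Type) [AddCommGroup A]

/-- the inclusion `Γ_H(L ℓ ℓ') → Γ_H(L)`, as a composite -/
def k5uq2_I : gammaH (L * ℓ * ℓ') M H →* gammaH L M H :=
  (inclH L M ℓ H).comp (k5uq2_F' L M ℓ ℓ' H)

theorem k5uq2_I_injective : Function.Injective (k5uq2_I L M ℓ ℓ' H) :=
  (inclH_injective L M ℓ H).comp (k5uq2_F'_injective L M ℓ ℓ' H)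

instance k5uq2_I_finiteIndex : (k5uq2_I L M ℓ ℓ' H).range.FiniteIndex :=
  k5c_comp_finiteIndex (k5uq2_F' L M ℓ ℓ' H) (inclH L M ℓ H) (inclH_injective L M ℓ H)

/-- `conj_δ' ∘ conj_δ : Γ_H(L ℓ ℓ') → Γ_H(L)` -/
def k5uq2_D : gammaH (L * ℓ * ℓ') M H →* gammaH L M H :=
  (conjDH L M ℓ' H hML.out).comp (k5uq2_JK L M ℓ ℓ' H)

/-- `T*_ℓ T*_ℓ' = cores ∘ res_{δ' δ}`, for all primes `ℓ ≠ ℓ'` -/
theorem k5uq2_adj_adj (hℓ : ℓ.Prime) (hℓ' : ℓ'.Prime) (hne : ℓ ≠ ℓ')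
    (φ : HomS (gammaH L M H) A) :
    tSadj L M ℓ H A (tSadj L M ℓ' H A φ) =
      S41.transferAlong A (k5uq2_I L M ℓ ℓ' H) (k5uq2_I_injective L M ℓ ℓ' H)
        (φ.comp (MonoidHom.toAdditive (k5uq2_D L M ℓ ℓ' H))) := by
  obtain ⟨h1, h2, h3⟩ := k5uq2_adj_square L M ℓ ℓ' H hℓ hℓ' hne
  have hA := k5c_transfer_basechange (inclH L M ℓ' H) (inclH_injective L M ℓ' H)
    (conjDH L M ℓ H hML.out) (k5uq2_F' L M ℓ ℓ' H)
    (k5uq2_F'_injective L M ℓ ℓ' H) (k5uq2_JK L M ℓ ℓ' H) A h1 h2 h3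
    (φ.comp (MonoidHom.toAdditive (conjDH L M ℓ' H hML.out)))
  haveI : ((inclH L M ℓ H).comp (k5uq2_F' L M ℓ ℓ' H)).range.FiniteIndex :=
    k5uq2_I_finiteIndex L M ℓ ℓ' H
  have hB := k5c_transfer_trans (k5uq2_F' L M ℓ ℓ' H) (k5uq2_F'_injective L M ℓ ℓ' H)
    (inclH L M ℓ H) (inclH_injective L M ℓ H) A
    ((φ.comp (MonoidHom.toAdditive (conjDH L M ℓ' H hML.out))).comp
      (MonoidHom.toAdditive (k5uq2_JK L M ℓ ℓ' H)))
  show S41.transferAlong A (inclH L M ℓ H) (inclH_injective L M ℓ H)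
      ((S41.transferAlong A (inclH L M ℓ' H) (inclH_injective L M ℓ' H)
        (φ.comp (MonoidHom.toAdditive (conjDH L M ℓ' H hML.out)))).comp
          (MonoidHom.toAdditive (conjDH L M ℓ H hML.out))) = _
  rw [hA, ← hB]
  rfl

end adjassembly

/-- the `tSadj` half of **K5-UQ2** -/
theorem k5uq2_adj_comm (L M ℓ ℓ' : ℕ) [NeZero L] [NeZero ℓ] [NeZero ℓ'] [hML : Fact (M ∣ L)]
    (H : Subgroup (ZMod M)ˣ) (A : Type) [AddCommGroup A] (hℓ : ℓ.Prime) (hℓ' : ℓ'.Prime)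
    (φ : HomS (gammaH L M H) A) :
    tSadj L M ℓ H A (tSadj L M ℓ' H A φ) = tSadj L M ℓ' H A (tSadj L M ℓ H A φ) := by
  by_cases hne : ℓ = ℓ'
  · subst hne
    rfl
  · rw [k5uq2_adj_adj L M ℓ ℓ' H A hℓ hℓ' hne φ,
      k5uq2_adj_adj L M ℓ' ℓ H A hℓ' hℓ (Ne.symm hne) φ]
    refine k5cc_congr M H A (show L * ℓ * ℓ' = L * ℓ' * ℓ by ring) _ _ _ _ _ _
      (fun k₁ k₂ hk => ?_) (fun k₁ k₂ hk => ?_)
    · exact Subtype.ext hk
    · show φ (Additive.ofMul (k5uq2_D L M ℓ ℓ' H k₁)) = φ (Additive.ofMul (k5uq2_D L M ℓ' ℓ H k₂))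
      congr 2
      apply Subtype.ext
      apply Subtype.ext
      show S41.conjDMat ℓ' (S41.conjDMat ℓ ((k₁ : SL(2, ℤ)) : Matrix (Fin 2) (Fin 2) ℤ)) =
        S41.conjDMat ℓ (S41.conjDMat ℓ' ((k₂ : SL(2, ℤ)) : Matrix (Fin 2) (Fin 2) ℤ))
      rw [hk]
      exact k5uq2_conjDMat_comm ℓ' ℓ _

/-- **K5-UQ2** -/
theorem stmtCommTU : StmtCommTU := by
  intro L M ℓ ℓ' _ _ _ hML H A _ hℓ hℓ' φ
  exact ⟨k5uq2_tS_comm L M ℓ ℓ' H A hℓ hℓ' φ, k5uq2_adj_comm L M ℓ ℓ' H A hℓ hℓ' φ⟩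

end Fermat.Agent.RT.K5

end
end ZBRT_028_17

/-! ### bundled: `Fermat.Agent.RT.K5.DegFam` -/
section ZBRT_028_18

/-!
# RT-K5, piece DEGFAM: the constructors of `DegFam` — `stmtDegFam : StmtDegFam`

`DegFam 𝒪 L M q`: a pair of Hecke operators on the levels `L`, `L q` commuting with the four
degeneracy maps at `q`, with `T_q` (level `L`) and with `U_q` (level `L q`).

* `k5dg_hecke`  : `T_ℓ'` / `U_ℓ'` for a prime `ℓ' ≠ q` (`stmtDegComm`, `stmtCommTU`);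
* `k5dg_coeff`  : a scalar `c ∈ 𝒪` (`k5nat_*`);
* `k5dg_add`, `k5dg_comp` : sums and composites;
* `k5dg_one`    : the trivial pair.
-/

set_option autoImplicit false
set_option linter.style.haveILetI false
set_option linter.unusedSectionVars false
set_option linter.unusedVariables false

noncomputable section

namespace Fermat.Agent.RT.K5

open CongruenceSubgroup Matrix
open scoped MatrixGroups
open Fermat.Agent.ES1 (gammaH diamHom pmH)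

section constructors

variable (𝒪 : Type) [CommRing 𝒪] (L M q : ℕ) [NeZero L] [NeZero q] [hML : Fact (M ∣ L)]
  [hMLq : Fact (M ∣ L * q)]

/-- the pair `(T_ℓ', T_ℓ')` resp. `(U_ℓ', U_ℓ')`, `ℓ' ≠ q` prime -/
def k5dg_hecke (hq : q.Prime) (hqL : ¬ q ∣ L) (ℓ' : ℕ) [NeZero ℓ'] (hℓ' : ℓ'.Prime)
    (hne : ℓ' ≠ q) : DegFam 𝒪 L M q where
  lo := NatFam.hecke 𝒪 L M ℓ'
  hi := NatFam.hecke 𝒪 (L * q) M ℓ'
  res_comm A _ _ H φ := (stmtDegComm L M q ℓ' H A hq hℓ' hne.symm hqL).1 φ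
  resD_comm A _ _ H φ := (stmtDegComm L M q ℓ' H A hq hℓ' hne.symm hqL).2.1 φ
  cores_comm A _ _ H ψ := (stmtDegComm L M q ℓ' H A hq hℓ' hne.symm hqL).2.2.1 ψ
  coresD_comm A _ _ H ψ := (stmtDegComm L M q ℓ' H A hq hℓ' hne.symm hqL).2.2.2 ψ
  t_comm A _ _ H φ := (stmtCommTU L M q ℓ' H A hq hℓ' φ).1
  u_comm A _ _ H ψ := (stmtCommTU (L * q) M q ℓ' H A hq hℓ' ψ).1

/-- the pair `(c, c)`, `c ∈ 𝒪` -/
def k5dg_coeff (c : 𝒪) : DegFam 𝒪 L M q where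
  lo := NatFam.coeff 𝒪 L M c
  hi := NatFam.coeff 𝒪 (L * q) M c
  res_comm A _ _ H φ := rfl
  resD_comm A _ _ H φ := rfl
  cores_comm A _ _ H ψ := (k5nat_coresH L M (DistribSMul.toAddMonoidHom A c) q H ψ).symm
  coresD_comm A _ _ H ψ := (k5nat_coresDH L M (DistribSMul.toAddMonoidHom A c) q H ψ).symm
  t_comm A _ _ H φ := (k5nat_tS L M (DistribSMul.toAddMonoidHom A c) q H φ).symm
  u_comm A _ _ H ψ := (k5nat_tS (L * q) M (DistribSMul.toAddMonoidHom A c) q H ψ).symm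

/-- the trivial pair -/
def k5dg_one : DegFam 𝒪 L M q where
  lo := NatFam.one 𝒪 L M
  hi := NatFam.one 𝒪 (L * q) M
  res_comm A _ _ H φ := rfl
  resD_comm A _ _ H φ := rfl
  cores_comm A _ _ H ψ := rfl
  coresD_comm A _ _ H ψ := rfl
  t_comm A _ _ H φ := rfl
  u_comm A _ _ H ψ := rfl

variable {𝒪 L M q}

/-- the sum of two pairs -/
def k5dg_add (𝔡₁ 𝔡₂ : DegFam 𝒪 L M q) : DegFam 𝒪 L M q where
  lo := 𝔡₁.lo.add 𝔡₂.lo
  hi := 𝔡₁.hi.add 𝔡₂.hi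
  res_comm A _ _ H φ := by
    show resH L M q H A ((𝔡₁.lo.fam A).op H φ + (𝔡₂.lo.fam A).op H φ)
      = (𝔡₁.hi.fam A).op H (resH L M q H A φ) + (𝔡₂.hi.fam A).op H (resH L M q H A φ)
    rw [map_add, 𝔡₁.res_comm, 𝔡₂.res_comm]
  resD_comm A _ _ H φ := by
    show resDH L M q H A ((𝔡₁.lo.fam A).op H φ + (𝔡₂.lo.fam A).op H φ)
      = (𝔡₁.hi.fam A).op H (resDH L M q H A φ) + (𝔡₂.hi.fam A).op H (resDH L M q H A φ)
    rw [map_add, 𝔡₁.resD_comm, 𝔡₂.resD_comm]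
  cores_comm A _ _ H ψ := by
    show coresH L M q H A ((𝔡₁.hi.fam A).op H ψ + (𝔡₂.hi.fam A).op H ψ)
      = (𝔡₁.lo.fam A).op H (coresH L M q H A ψ) + (𝔡₂.lo.fam A).op H (coresH L M q H A ψ)
    rw [map_add, 𝔡₁.cores_comm, 𝔡₂.cores_comm]
  coresD_comm A _ _ H ψ := by
    show coresDH L M q H A ((𝔡₁.hi.fam A).op H ψ + (𝔡₂.hi.fam A).op H ψ)
      = (𝔡₁.lo.fam A).op H (coresDH L M q H A ψ) + (𝔡₂.lo.fam A).op H (coresDH L M q H A ψ)
    rw [map_add, 𝔡₁.coresD_comm, 𝔡₂.coresD_comm]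
  t_comm A _ _ H φ := by
    show tS L M q H A ((𝔡₁.lo.fam A).op H φ + (𝔡₂.lo.fam A).op H φ)
      = (𝔡₁.lo.fam A).op H (tS L M q H A φ) + (𝔡₂.lo.fam A).op H (tS L M q H A φ)
    rw [map_add, 𝔡₁.t_comm, 𝔡₂.t_comm]
  u_comm A _ _ H ψ := by
    show tS (L * q) M q H A ((𝔡₁.hi.fam A).op H ψ + (𝔡₂.hi.fam A).op H ψ)
      = (𝔡₁.hi.fam A).op H (tS (L * q) M q H A ψ) + (𝔡₂.hi.fam A).op H (tS (L * q) M q H A ψ)
    rw [map_add, 𝔡₁.u_comm, 𝔡₂.u_comm]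

/-- the composite of two pairs -/
def k5dg_comp (𝔡₁ 𝔡₂ : DegFam 𝒪 L M q) : DegFam 𝒪 L M q where
  lo := 𝔡₁.lo.comp 𝔡₂.lo
  hi := 𝔡₁.hi.comp 𝔡₂.hi
  res_comm A _ _ H φ := by
    show resH L M q H A ((𝔡₁.lo.fam A).op H ((𝔡₂.lo.fam A).op H φ))
      = (𝔡₁.hi.fam A).op H ((𝔡₂.hi.fam A).op H (resH L M q H A φ))
    rw [𝔡₁.res_comm, 𝔡₂.res_comm]
  resD_comm A _ _ H φ := by
    show resDH L M q H A ((𝔡₁.lo.fam A).op H ((𝔡₂.lo.fam A).op H φ))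
      = (𝔡₁.hi.fam A).op H ((𝔡₂.hi.fam A).op H (resDH L M q H A φ))
    rw [𝔡₁.resD_comm, 𝔡₂.resD_comm]
  cores_comm A _ _ H ψ := by
    show coresH L M q H A ((𝔡₁.hi.fam A).op H ((𝔡₂.hi.fam A).op H ψ))
      = (𝔡₁.lo.fam A).op H ((𝔡₂.lo.fam A).op H (coresH L M q H A ψ))
    rw [𝔡₁.cores_comm, 𝔡₂.cores_comm]
  coresD_comm A _ _ H ψ := by
    show coresDH L M q H A ((𝔡₁.hi.fam A).op H ((𝔡₂.hi.fam A).op H ψ))
      = (𝔡₁.lo.fam A).op H ((𝔡₂.lo.fam A).op H (coresDH L M q H A ψ))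
    rw [𝔡₁.coresD_comm, 𝔡₂.coresD_comm]
  t_comm A _ _ H φ := by
    show tS L M q H A ((𝔡₁.lo.fam A).op H ((𝔡₂.lo.fam A).op H φ))
      = (𝔡₁.lo.fam A).op H ((𝔡₂.lo.fam A).op H (tS L M q H A φ))
    rw [𝔡₁.t_comm, 𝔡₂.t_comm]
  u_comm A _ _ H ψ := by
    show tS (L * q) M q H A ((𝔡₁.hi.fam A).op H ((𝔡₂.hi.fam A).op H ψ))
      = (𝔡₁.hi.fam A).op H ((𝔡₂.hi.fam A).op H (tS (L * q) M q H A ψ))
    rw [𝔡₁.u_comm, 𝔡₂.u_comm]

end constructors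

/-- **K5-DEGFAM** -/
theorem stmtDegFam : StmtDegFam := by
  intro 𝒪 _ L M q _ _ hML hMLq hq hqL
  exact ⟨fun ℓ' _ hℓ' hne => ⟨k5dg_hecke 𝒪 L M q hq hqL ℓ' hℓ' hne, rfl, rfl⟩,
    fun c => ⟨k5dg_coeff 𝒪 L M q c, rfl, rfl⟩,
    fun 𝔡₁ 𝔡₂ => ⟨k5dg_add 𝔡₁ 𝔡₂, rfl, rfl⟩,
    fun 𝔡₁ 𝔡₂ => ⟨k5dg_comp 𝔡₁ 𝔡₂, rfl, rfl⟩⟩

end Fermat.Agent.RT.K5

end
end ZBRT_028_18

/-! ### bundled: `Fermat.Agent.RT.K5.ModTop` -/
section ZBRT_028_19

/-!
# RT-K5, piece MODTOP: change of the names of level and modulus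

`gammaH L M H` and `gammaH L' M' H'` may be the SAME subgroup of `SL(2, ℤ)` (for instance
`gammaH L M ⊤ = Γ₀(L) = gammaH L M' ⊤` for `M, M' ∣ L`: at `H = ⊤` the modulus is irrelevant; or
`L = L'` propositionally).  Then `k5mt_cast : Hom(Γ, A) ≃ Hom(Γ', A)` intertwines the degeneracy
maps, `tS ℓ`, `tSadj ℓ` (EVERY `ℓ ≥ 1`), `etaS`, the diamonds and the changes of coefficients,
and hence identifies the `etaPart`s of corresponding operators.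

[The Taylor–Wiles modules live at a modulus `M_Q` divisible by the Taylor–Wiles primes `q`
(`Δ_Q` is a quotient of `(ℤ/q)ˣ`), while the Taylor–Wiles step `Γ₀(L) ⊃ Γ₀(L q)` needs a modulus
`M ∣ L`, `q ∤ L`.]
-/

set_option autoImplicit false
set_option linter.style.haveILetI false
set_option linter.unusedSectionVars false
set_option linter.unusedVariables false

noncomputable section

namespace Fermat.Agent.RT.K5

open CongruenceSubgroup Matrix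
open scoped MatrixGroups
open Fermat.Agent.ES1 (gammaH diamHom pmH)

section cast

variable (A : Type) [AddCommGroup A]

/-- transport of `Hom(Γ, A)` along an equality of subgroups of `SL(2, ℤ)` -/
def k5mt_cast {Γ Δ : Subgroup SL(2, ℤ)} (h : Γ = Δ) : HomS Γ A →+ HomS Δ A where
  toFun φ := φ.comp (MonoidHom.toAdditive (MulEquiv.subgroupCongr h.symm).toMonoidHom)
  map_zero' := rfl
  map_add' _ _ := rfl

theorem k5mt_cast_apply {Γ Δ : Subgroup SL(2, ℤ)} (h : Γ = Δ) (φ : HomS Γ A) (γ : Δ) :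
    k5mt_cast A h φ (Additive.ofMul γ)
      = φ (Additive.ofMul (MulEquiv.subgroupCongr h.symm γ)) := rfl

theorem k5mt_cast_cast {Γ Δ : Subgroup SL(2, ℤ)} (h : Γ = Δ) (h' : Δ = Γ) (φ : HomS Γ A) :
    k5mt_cast A h' (k5mt_cast A h φ) = φ := by
  subst h
  rfl

theorem k5mt_cast_rfl {Γ : Subgroup SL(2, ℤ)} (h : Γ = Γ) (φ : HomS Γ A) :
    k5mt_cast A h φ = φ := rfl

theorem k5mt_cast_injective {Γ Δ : Subgroup SL(2, ℤ)} (h : Γ = Δ) :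
    Function.Injective (k5mt_cast A h) := fun φ ψ hφψ => by
  rw [← k5mt_cast_cast A h h.symm φ, hφψ, k5mt_cast_cast]

theorem k5mt_cast_surjective {Γ Δ : Subgroup SL(2, ℤ)} (h : Γ = Δ) :
    Function.Surjective (k5mt_cast A h) := fun ψ =>
  ⟨k5mt_cast A h.symm ψ, k5mt_cast_cast A h.symm h ψ⟩

theorem k5mt_cast_eq_zero {Γ Δ : Subgroup SL(2, ℤ)} (h : Γ = Δ) (φ : HomS Γ A) :
    k5mt_cast A h φ = 0 ↔ φ = 0 := by
  constructor
  · intro h0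
    exact k5mt_cast_injective A h (by rw [h0, map_zero])
  · rintro rfl
    exact map_zero _

/-- the transport is natural in the coefficients -/
theorem k5mt_cast_mapS {B : Type} [AddCommGroup B] (f : A →+ B) {Γ Δ : Subgroup SL(2, ℤ)}
    (h : Γ = Δ) (φ : HomS Γ A) :
    k5mt_cast B h (mapS f φ) = mapS f (k5mt_cast A h φ) := rfl

/-- corresponding operators have corresponding `etaPart`s -/
theorem k5mt_mem_etaPart {Γ Δ : Subgroup SL(2, ℤ)} (h : Γ = Δ) (θ : HomS Γ A →+ HomS Γ A)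
    (θ' : HomS Δ A →+ HomS Δ A) (hθ : ∀ φ, k5mt_cast A h (θ φ) = θ' (k5mt_cast A h φ))
    (φ : HomS Γ A) : k5mt_cast A h φ ∈ etaPart θ' ↔ φ ∈ etaPart θ := by
  constructor
  · intro hφ
    have h1 := k5s_intertwine_mem θ' θ (k5mt_cast A h.symm) (fun x => by
      obtain ⟨y, rfl⟩ := k5mt_cast_surjective A h x
      rw [← hθ, k5mt_cast_cast, k5mt_cast_cast]) hφ
    rwa [k5mt_cast_cast] at h1
  · intro hφ
    exact k5s_intertwine_mem θ θ' (k5mt_cast A h) hθ hφ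

/-- restriction along corresponding maps -/
theorem k5mt_aux_res (Γ₁ Γ₂ Δ₁ Δ₂ : Subgroup SL(2, ℤ)) (h₁ : Γ₁ = Δ₁) (h₂ : Γ₂ = Δ₂)
    (f : Γ₁ →* Γ₂) (g : Δ₁ →* Δ₂)
    (hfg : ∀ γ : Γ₁, ((f γ : Γ₂) : SL(2, ℤ))
      = ((g (MulEquiv.subgroupCongr h₁ γ) : Δ₂) : SL(2, ℤ)))
    (φ : HomS Γ₂ A) :
    k5mt_cast A h₁ (φ.comp (MonoidHom.toAdditive f))
      = (k5mt_cast A h₂ φ).comp (MonoidHom.toAdditive g) := by
  subst h₁
  subst h₂
  obtain rfl : f = g := MonoidHom.ext fun γ => Subtype.ext (hfg γ)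
  rfl

/-- the transfer along corresponding maps -/
theorem k5mt_aux_transfer (Γ₁ Γ₂ Δ₁ Δ₂ : Subgroup SL(2, ℤ)) (h₁ : Γ₁ = Δ₁) (h₂ : Γ₂ = Δ₂)
    (f : Γ₁ →* Γ₂) (g : Δ₁ →* Δ₂) (hf : Function.Injective f) (hg : Function.Injective g)
    [f.range.FiniteIndex] [g.range.FiniteIndex]
    (hfg : ∀ γ : Γ₁, ((f γ : Γ₂) : SL(2, ℤ))
      = ((g (MulEquiv.subgroupCongr h₁ γ) : Δ₂) : SL(2, ℤ)))
    (ψ : HomS Γ₁ A) :
    k5mt_cast A h₂ (S41.transferAlong A f hf ψ)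
      = S41.transferAlong A g hg (k5mt_cast A h₁ ψ) := by
  subst h₁
  subst h₂
  obtain rfl : f = g := MonoidHom.ext fun γ => Subtype.ext (hfg γ)
  rfl

end cast

section level

variable {L M L' M' : ℕ} [NeZero L] [NeZero L'] [hML : Fact (M ∣ L)] [hML' : Fact (M' ∣ L')]
  (ℓ : ℕ) [NeZero ℓ] (H : Subgroup (ZMod M)ˣ) (H' : Subgroup (ZMod M')ˣ)
  (A : Type) [AddCommGroup A]
  (h : gammaH L M H = gammaH L' M' H') (hℓ : gammaH (L * ℓ) M H = gammaH (L' * ℓ) M' H')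

theorem k5mt_resH (φ : HomS (gammaH L M H) A) :
    k5mt_cast A hℓ (resH L M ℓ H A φ) = resH L' M' ℓ H' A (k5mt_cast A h φ) :=
  k5mt_aux_res A _ _ _ _ hℓ h (inclH L M ℓ H) (inclH L' M' ℓ H') (fun _ => rfl) φ

theorem k5mt_resDH (φ : HomS (gammaH L M H) A) :
    k5mt_cast A hℓ (resDH L M ℓ H A φ) = resDH L' M' ℓ H' A (k5mt_cast A h φ) :=
  k5mt_aux_res A _ _ _ _ hℓ h (conjDH L M ℓ H hML.out) (conjDH L' M' ℓ H' hML'.out)
    (fun _ => rfl) φ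

theorem k5mt_coresH (ψ : HomS (gammaH (L * ℓ) M H) A) :
    k5mt_cast A h (coresH L M ℓ H A ψ) = coresH L' M' ℓ H' A (k5mt_cast A hℓ ψ) :=
  k5mt_aux_transfer A _ _ _ _ hℓ h (inclH L M ℓ H) (inclH L' M' ℓ H')
    (inclH_injective L M ℓ H) (inclH_injective L' M' ℓ H') (fun _ => rfl) ψ

theorem k5mt_coresDH (ψ : HomS (gammaH (L * ℓ) M H) A) :
    k5mt_cast A h (coresDH L M ℓ H A ψ) = coresDH L' M' ℓ H' A (k5mt_cast A hℓ ψ) :=
  k5mt_aux_transfer A _ _ _ _ hℓ h (conjDH L M ℓ H hML.out) (conjDH L' M' ℓ H' hML'.out)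
    (conjDH_injective L M ℓ H hML.out) (conjDH_injective L' M' ℓ H' hML'.out) (fun _ => rfl) ψ

include hℓ in
theorem k5mt_tS (φ : HomS (gammaH L M H) A) :
    k5mt_cast A h (tS L M ℓ H A φ) = tS L' M' ℓ H' A (k5mt_cast A h φ) := by
  show k5mt_cast A h (coresDH L M ℓ H A (resH L M ℓ H A φ))
    = coresDH L' M' ℓ H' A (resH L' M' ℓ H' A (k5mt_cast A h φ))
  rw [k5mt_coresDH ℓ H H' A h hℓ, k5mt_resH ℓ H H' A h hℓ]

include hℓ in
theorem k5mt_tSadj (φ : HomS (gammaH L M H) A) :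
    k5mt_cast A h (tSadj L M ℓ H A φ) = tSadj L' M' ℓ H' A (k5mt_cast A h φ) := by
  show k5mt_cast A h (coresH L M ℓ H A (resDH L M ℓ H A φ))
    = coresH L' M' ℓ H' A (resDH L' M' ℓ H' A (k5mt_cast A h φ))
  rw [k5mt_coresH ℓ H H' A h hℓ, k5mt_resDH ℓ H H' A h hℓ]

include hℓ in
theorem k5mt_etaS (φ : HomS (gammaH L M H) A) :
    k5mt_cast A h (etaS L M ℓ H A φ) = etaS L' M' ℓ H' A (k5mt_cast A h φ) := by
  show k5mt_cast A h (tS L M ℓ H A φ - (ℓ + 1) • φ)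
    = tS L' M' ℓ H' A (k5mt_cast A h φ) - (ℓ + 1) • k5mt_cast A h φ
  rw [map_sub, map_nsmul, k5mt_tS ℓ H H' A h hℓ]

/-- the diamonds -/
theorem k5mt_diamS (g : SL(2, ℤ)) (hgL : g ∈ Gamma0 L) (hgM : g ∈ Gamma0 M)
    (hgL' : g ∈ Gamma0 L') (hgM' : g ∈ Gamma0 M') (φ : HomS (gammaH L M H) A) :
    k5mt_cast A h (diamS H A g hgL hgM φ) = diamS H' A g hgL' hgM' (k5mt_cast A h φ) := by
  refine AddMonoidHom.ext fun γ => ?_
  rfl

end level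

section top

/-- at `H = ⊤` the modulus is irrelevant -/
theorem k5mt_top_eq (L M M' : ℕ) [hML : Fact (M ∣ L)] [hML' : Fact (M' ∣ L)] :
    gammaH L M (⊤ : Subgroup (ZMod M)ˣ) = gammaH L M' (⊤ : Subgroup (ZMod M')ˣ) := by
  rw [Fermat.Agent.ES1.gammaH_top_of_dvd hML.out, Fermat.Agent.ES1.gammaH_top_of_dvd hML'.out]

/-- at `H = ⊤` the modulus is irrelevant, level `L ℓ` -/
theorem k5mt_top_eq_mul (L M M' ℓ : ℕ) [hML : Fact (M ∣ L)] [hML' : Fact (M' ∣ L)] :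
    gammaH (L * ℓ) M (⊤ : Subgroup (ZMod M)ˣ) = gammaH (L * ℓ) M' (⊤ : Subgroup (ZMod M')ˣ) := by
  rw [Fermat.Agent.ES1.gammaH_top_of_dvd (hML.out.trans (dvd_mul_right L ℓ)),
    Fermat.Agent.ES1.gammaH_top_of_dvd (hML'.out.trans (dvd_mul_right L ℓ))]

variable (L M M' : ℕ) [NeZero L] [hML : Fact (M ∣ L)] [hML' : Fact (M' ∣ L)]
  (ℓ : ℕ) [NeZero ℓ] (A : Type) [AddCommGroup A]

/-- **MODTOP** `tS ℓ` at `H = ⊤` does not depend on the modulus -/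
theorem k5mt_top_tS (φ : HomS (gammaH L M (⊤ : Subgroup (ZMod M)ˣ)) A) :
    k5mt_cast A (k5mt_top_eq L M M') (tS L M ℓ ⊤ A φ)
      = tS L M' ℓ ⊤ A (k5mt_cast A (k5mt_top_eq L M M') φ) :=
  k5mt_tS ℓ ⊤ ⊤ A (k5mt_top_eq L M M') (k5mt_top_eq_mul L M M' ℓ) φ

theorem k5mt_top_tSadj (φ : HomS (gammaH L M (⊤ : Subgroup (ZMod M)ˣ)) A) :
    k5mt_cast A (k5mt_top_eq L M M') (tSadj L M ℓ ⊤ A φ)
      = tSadj L M' ℓ ⊤ A (k5mt_cast A (k5mt_top_eq L M M') φ) :=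
  k5mt_tSadj ℓ ⊤ ⊤ A (k5mt_top_eq L M M') (k5mt_top_eq_mul L M M' ℓ) φ

theorem k5mt_top_etaS (φ : HomS (gammaH L M (⊤ : Subgroup (ZMod M)ˣ)) A) :
    k5mt_cast A (k5mt_top_eq L M M') (etaS L M ℓ ⊤ A φ)
      = etaS L M' ℓ ⊤ A (k5mt_cast A (k5mt_top_eq L M M') φ) :=
  k5mt_etaS ℓ ⊤ ⊤ A (k5mt_top_eq L M M') (k5mt_top_eq_mul L M M' ℓ) φ

end top

end Fermat.Agent.RT.K5

end
end ZBRT_028_19

/-! ### bundled: `Fermat.Agent.RT.K5.HExpr` -/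
section ZBRT_028_20

/-!
# RT-K5: Hecke polynomial expressions — "the same operator at every level"

`HExpr 𝒪` : expressions built from `one`, `hecke ℓ` (`T_ℓ` resp. `U_ℓ`), `coeff c` (`c ∈ 𝒪`),
`add`, `comp`.  `e.eval L M : NatFam 𝒪 L M` is the operator of `e` at level `L`, modulus `M`
(`hecke 0` is read as `1`).

* `HExpr.neg`, `HExpr.sub`, `HExpr.pow`, `HExpr.listProd`, `HExpr.usq q` (`U_q² − 1`),
  `HExpr.twist e Q` (`e ∘ ∏_{q ∈ Q} (U_q² − 1)`);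
* `e.IsPrimes` : every `hecke ℓ` in `e` has `ℓ` prime; `e.Avoids q` : moreover `ℓ ≠ q`;
* `k5hx_comm_tS`, `k5hx_comm` : the operators of expressions with `IsPrimes` commute with
  `tS ℓ` (`ℓ` prime) and with each other (`stmtCommTU`);
* `k5hx_degFam` : for `e.Avoids q` the pair `(e.eval L M, e.eval (L q) M)` is a `DegFam`;
* `k5hx_cast_top` : at `H = ⊤` the operator of `e` does not depend on the modulus (`ModTop`).
-/

set_option autoImplicit false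
set_option linter.style.haveILetI false
set_option linter.unusedSectionVars false
set_option linter.unusedVariables false

noncomputable section

namespace Fermat.Agent.RT.K5

open CongruenceSubgroup Matrix
open scoped MatrixGroups
open Fermat.Agent.ES1 (gammaH diamHom pmH)

/-- Hecke polynomial expressions -/
inductive HExpr (𝒪 : Type) : Type
  | one : HExpr 𝒪
  | hecke (ℓ : ℕ) : HExpr 𝒪
  | coeff (c : 𝒪) : HExpr 𝒪
  | add (e₁ e₂ : HExpr 𝒪) : HExpr 𝒪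
  | comp (e₁ e₂ : HExpr 𝒪) : HExpr 𝒪

namespace HExpr

variable {𝒪 : Type} [CommRing 𝒪]

/-- the operator of an expression at level `L`, modulus `M` (`hecke 0` is read as `1`) -/
def eval (e : HExpr 𝒪) (L M : ℕ) [NeZero L] [Fact (M ∣ L)] : NatFam 𝒪 L M :=
  match e with
  | one => NatFam.one 𝒪 L M
  | hecke ℓ => if h : ℓ = 0 then NatFam.one 𝒪 L M else
      haveI : NeZero ℓ := ⟨h⟩
      NatFam.hecke 𝒪 L M ℓ
  | coeff c => NatFam.coeff 𝒪 L M c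
  | add e₁ e₂ => (e₁.eval L M).add (e₂.eval L M)
  | comp e₁ e₂ => (e₁.eval L M).comp (e₂.eval L M)

/-- every `hecke ℓ` in `e` has `ℓ` prime -/
def IsPrimes : HExpr 𝒪 → Prop
  | one => True
  | hecke ℓ => ℓ.Prime
  | coeff _ => True
  | add e₁ e₂ => e₁.IsPrimes ∧ e₂.IsPrimes
  | comp e₁ e₂ => e₁.IsPrimes ∧ e₂.IsPrimes

/-- every `hecke ℓ` in `e` has `ℓ` prime, `ℓ ≠ q` -/
def Avoids (q : ℕ) : HExpr 𝒪 → Prop
  | one => True
  | hecke ℓ => ℓ.Prime ∧ ℓ ≠ q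
  | coeff _ => True
  | add e₁ e₂ => e₁.Avoids q ∧ e₂.Avoids q
  | comp e₁ e₂ => e₁.Avoids q ∧ e₂.Avoids q

theorem Avoids.isPrimes {q : ℕ} : ∀ {e : HExpr 𝒪}, e.Avoids q → e.IsPrimes
  | one, _ => trivial
  | hecke _, h => h.1
  | coeff _, _ => trivial
  | add _ _, h => ⟨h.1.isPrimes, h.2.isPrimes⟩
  | comp _ _, h => ⟨h.1.isPrimes, h.2.isPrimes⟩

/-- `−e` -/
def neg (e : HExpr 𝒪) : HExpr 𝒪 := comp (coeff (-1)) e

/-- `e₁ − e₂` -/
def sub (e₁ e₂ : HExpr 𝒪) : HExpr 𝒪 := add e₁ (neg e₂)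

/-- `eⁿ` -/
def pow (e : HExpr 𝒪) : ℕ → HExpr 𝒪
  | 0 => one
  | n + 1 => comp e (pow e n)

/-- the composite of a list of expressions -/
def listProd : List (HExpr 𝒪) → HExpr 𝒪
  | [] => one
  | e :: l => comp e (listProd l)

/-- `U_q² − 1` -/
def usq (𝒪 : Type) [CommRing 𝒪] (q : ℕ) : HExpr 𝒪 := add (comp (hecke q) (hecke q)) (coeff (-1))

/-- `e ∘ ∏_{q ∈ Q} (U_q² − 1)`; `twist e (q :: Q) = (twist e Q) ∘ (U_q² − 1)` -/
def twist (e : HExpr 𝒪) : List ℕ → HExpr 𝒪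
  | [] => e
  | q :: Q => comp (twist e Q) (usq 𝒪 q)

section eval

variable (L M : ℕ) [NeZero L] [hML : Fact (M ∣ L)]

@[simp] theorem eval_one : (one : HExpr 𝒪).eval L M = NatFam.one 𝒪 L M := rfl

theorem eval_hecke (ℓ : ℕ) [NeZero ℓ] : (hecke ℓ : HExpr 𝒪).eval L M = NatFam.hecke 𝒪 L M ℓ :=
  dif_neg (NeZero.ne ℓ)

@[simp] theorem eval_coeff (c : 𝒪) : (coeff c : HExpr 𝒪).eval L M = NatFam.coeff 𝒪 L M c := rfl

@[simp] theorem eval_add (e₁ e₂ : HExpr 𝒪) :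
    (add e₁ e₂).eval L M = (e₁.eval L M).add (e₂.eval L M) := rfl

@[simp] theorem eval_comp (e₁ e₂ : HExpr 𝒪) :
    (comp e₁ e₂).eval L M = (e₁.eval L M).comp (e₂.eval L M) := rfl

theorem eval_twist_cons (e : HExpr 𝒪) (q : ℕ) (Q : List ℕ) :
    (e.twist (q :: Q)).eval L M = ((e.twist Q).eval L M).comp ((usq 𝒪 q).eval L M) := rfl

theorem eval_twist_nil (e : HExpr 𝒪) : (e.twist []).eval L M = e.eval L M := rfl

variable (A : Type) [AddCommGroup A] [Module 𝒪 A] (K : Subgroup (ZMod M)ˣ)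

theorem op_one (φ : HomS (gammaH L M K) A) :
    (((one : HExpr 𝒪).eval L M).fam A).op K φ = φ := rfl

theorem op_hecke (ℓ : ℕ) [NeZero ℓ] (φ : HomS (gammaH L M K) A) :
    (((hecke ℓ : HExpr 𝒪).eval L M).fam A).op K φ = tS L M ℓ K A φ := by
  rw [eval_hecke]
  rfl

theorem op_coeff (c : 𝒪) (φ : HomS (gammaH L M K) A) :
    (((coeff c : HExpr 𝒪).eval L M).fam A).op K φ = c • φ := rfl

theorem op_add (e₁ e₂ : HExpr 𝒪) (φ : HomS (gammaH L M K) A) :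
    (((add e₁ e₂).eval L M).fam A).op K φ
      = ((e₁.eval L M).fam A).op K φ + ((e₂.eval L M).fam A).op K φ := rfl

theorem op_comp (e₁ e₂ : HExpr 𝒪) (φ : HomS (gammaH L M K) A) :
    (((comp e₁ e₂).eval L M).fam A).op K φ
      = ((e₁.eval L M).fam A).op K (((e₂.eval L M).fam A).op K φ) := rfl

theorem op_neg (e : HExpr 𝒪) (φ : HomS (gammaH L M K) A) :
    ((e.neg.eval L M).fam A).op K φ = -((e.eval L M).fam A).op K φ := by
  show (-1 : 𝒪) • ((e.eval L M).fam A).op K φ = _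
  rw [neg_smul, one_smul]

theorem op_sub (e₁ e₂ : HExpr 𝒪) (φ : HomS (gammaH L M K) A) :
    (((sub e₁ e₂).eval L M).fam A).op K φ
      = ((e₁.eval L M).fam A).op K φ - ((e₂.eval L M).fam A).op K φ := by
  show ((e₁.eval L M).fam A).op K φ + ((e₂.neg.eval L M).fam A).op K φ = _
  rw [op_neg, sub_eq_add_neg]

theorem op_pow_zero (e : HExpr 𝒪) (φ : HomS (gammaH L M K) A) :
    (((e.pow 0).eval L M).fam A).op K φ = φ := rfl

theorem op_pow_succ (e : HExpr 𝒪) (n : ℕ) (φ : HomS (gammaH L M K) A) :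
    (((e.pow (n + 1)).eval L M).fam A).op K φ
      = ((e.eval L M).fam A).op K ((((e.pow n).eval L M).fam A).op K φ) := rfl

theorem op_pow (e : HExpr 𝒪) (n : ℕ) (φ : HomS (gammaH L M K) A) :
    (((e.pow n).eval L M).fam A).op K φ
      = ((show AddMonoid.End (HomS (gammaH L M K) A) from ((e.eval L M).fam A).op K) ^ n) φ := by
  induction n with
  | zero => rfl
  | succ n ih => rw [op_pow_succ, ih, pow_succ']; rfl

theorem op_listProd_nil (φ : HomS (gammaH L M K) A) :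
    (((listProd ([] : List (HExpr 𝒪))).eval L M).fam A).op K φ = φ := rfl

theorem op_listProd_cons (e : HExpr 𝒪) (l : List (HExpr 𝒪)) (φ : HomS (gammaH L M K) A) :
    (((listProd (e :: l)).eval L M).fam A).op K φ
      = ((e.eval L M).fam A).op K ((((listProd l).eval L M).fam A).op K φ) := rfl

theorem op_usq (q : ℕ) [NeZero q] (φ : HomS (gammaH L M K) A) :
    (((usq 𝒪 q).eval L M).fam A).op K φ = tS L M q K A (tS L M q K A φ) - φ := by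
  show (((hecke q : HExpr 𝒪).eval L M).fam A).op K
      ((((hecke q : HExpr 𝒪).eval L M).fam A).op K φ) + (-1 : 𝒪) • φ = _
  rw [op_hecke, op_hecke, neg_smul, one_smul, sub_eq_add_neg]

end eval

theorem isPrimes_neg {e : HExpr 𝒪} (h : e.IsPrimes) : e.neg.IsPrimes := ⟨trivial, h⟩

theorem isPrimes_sub {e₁ e₂ : HExpr 𝒪} (h₁ : e₁.IsPrimes) (h₂ : e₂.IsPrimes) :
    (sub e₁ e₂).IsPrimes := ⟨h₁, isPrimes_neg h₂⟩

theorem isPrimes_pow {e : HExpr 𝒪} (h : e.IsPrimes) : ∀ n : ℕ, (e.pow n).IsPrimes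
  | 0 => trivial
  | n + 1 => ⟨h, isPrimes_pow h n⟩

theorem isPrimes_listProd : ∀ {l : List (HExpr 𝒪)}, (∀ e ∈ l, e.IsPrimes) → (listProd l).IsPrimes
  | [], _ => trivial
  | e :: l, h => ⟨h e (List.mem_cons_self ..),
      isPrimes_listProd fun e' he' => h e' (List.mem_cons_of_mem _ he')⟩

theorem avoids_neg {q : ℕ} {e : HExpr 𝒪} (h : e.Avoids q) : e.neg.Avoids q := ⟨trivial, h⟩

theorem avoids_sub {q : ℕ} {e₁ e₂ : HExpr 𝒪} (h₁ : e₁.Avoids q) (h₂ : e₂.Avoids q) :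
    (sub e₁ e₂).Avoids q := ⟨h₁, avoids_neg h₂⟩

theorem avoids_pow {q : ℕ} {e : HExpr 𝒪} (h : e.Avoids q) : ∀ n : ℕ, (e.pow n).Avoids q
  | 0 => trivial
  | n + 1 => ⟨h, avoids_pow h n⟩

theorem avoids_listProd {q : ℕ} :
    ∀ {l : List (HExpr 𝒪)}, (∀ e ∈ l, e.Avoids q) → (listProd l).Avoids q
  | [], _ => trivial
  | e :: l, h => ⟨h e (List.mem_cons_self ..),
      avoids_listProd fun e' he' => h e' (List.mem_cons_of_mem _ he')⟩

theorem avoids_usq {q q' : ℕ} (hq' : q'.Prime) (hne : q' ≠ q) : (usq 𝒪 q').Avoids q :=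
  ⟨⟨⟨hq', hne⟩, ⟨hq', hne⟩⟩, trivial⟩

theorem isPrimes_usq {q : ℕ} (hq : q.Prime) : (usq 𝒪 q).IsPrimes := ⟨⟨hq, hq⟩, trivial⟩

theorem avoids_twist {q : ℕ} {e : HExpr 𝒪} (he : e.Avoids q) :
    ∀ {Q : List ℕ}, (∀ q' ∈ Q, q'.Prime ∧ q' ≠ q) → (e.twist Q).Avoids q
  | [], _ => he
  | q' :: Q, h => ⟨avoids_twist he fun q'' hq'' => h q'' (List.mem_cons_of_mem _ hq''),
      avoids_usq (h q' (List.mem_cons_self ..)).1 (h q' (List.mem_cons_self ..)).2⟩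

theorem isPrimes_twist {e : HExpr 𝒪} (he : e.IsPrimes) :
    ∀ {Q : List ℕ}, (∀ q' ∈ Q, q'.Prime) → (e.twist Q).IsPrimes
  | [], _ => he
  | q' :: Q, h => ⟨isPrimes_twist he fun q'' hq'' => h q'' (List.mem_cons_of_mem _ hq''),
      isPrimes_usq (h q' (List.mem_cons_self ..))⟩

end HExpr

section comm

variable {𝒪 : Type} [CommRing 𝒪] (L M : ℕ) [NeZero L] [hML : Fact (M ∣ L)]
  (A : Type) [AddCommGroup A] [Module 𝒪 A] (K : Subgroup (ZMod M)ˣ)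

/-- the operator of an expression (`IsPrimes`) commutes with `tS ℓ`, `ℓ` prime -/
theorem k5hx_comm_tS (e : HExpr 𝒪) (he : e.IsPrimes) (ℓ : ℕ) [NeZero ℓ] (hℓ : ℓ.Prime)
    (φ : HomS (gammaH L M K) A) :
    tS L M ℓ K A (((e.eval L M).fam A).op K φ) = ((e.eval L M).fam A).op K (tS L M ℓ K A φ) := by
  induction e generalizing φ with
  | one => rfl
  | hecke ℓ' =>
    haveI : NeZero ℓ' := ⟨(show ℓ'.Prime from he).ne_zero⟩
    rw [HExpr.op_hecke, HExpr.op_hecke]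
    exact (stmtCommTU L M ℓ ℓ' K A hℓ he φ).1
  | coeff c => exact (k5nat_tS L M (DistribSMul.toAddMonoidHom A c) ℓ K φ).symm
  | add e₁ e₂ ih₁ ih₂ =>
    rw [HExpr.op_add, HExpr.op_add, map_add, ih₁ he.1, ih₂ he.2]
  | comp e₁ e₂ ih₁ ih₂ =>
    rw [HExpr.op_comp, HExpr.op_comp, ih₁ he.1, ih₂ he.2]

/-- the operator of an expression is `𝒪`-linear -/
theorem k5hx_op_smul (e : HExpr 𝒪) (c : 𝒪) (φ : HomS (gammaH L M K) A) :
    ((e.eval L M).fam A).op K (c • φ) = c • ((e.eval L M).fam A).op K φ :=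
  k5n_op_smul (e.eval L M) K c φ

/-- the operators of two expressions (`IsPrimes`) commute -/
theorem k5hx_comm (e e' : HExpr 𝒪) (he : e.IsPrimes) (he' : e'.IsPrimes)
    (φ : HomS (gammaH L M K) A) :
    ((e.eval L M).fam A).op K (((e'.eval L M).fam A).op K φ)
      = ((e'.eval L M).fam A).op K (((e.eval L M).fam A).op K φ) := by
  induction e generalizing φ with
  | one => rfl
  | hecke ℓ' =>
    haveI : NeZero ℓ' := ⟨(show ℓ'.Prime from he).ne_zero⟩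
    rw [HExpr.op_hecke, HExpr.op_hecke]
    exact k5hx_comm_tS L M A K e' he' ℓ' he φ
  | coeff c =>
    rw [HExpr.op_coeff, HExpr.op_coeff, k5hx_op_smul]
  | add e₁ e₂ ih₁ ih₂ =>
    rw [HExpr.op_add, HExpr.op_add, map_add, ih₁ he.1, ih₂ he.2]
  | comp e₁ e₂ ih₁ ih₂ =>
    rw [HExpr.op_comp, HExpr.op_comp, ih₂ he.2, ih₁ he.1]

/-- the operator of an expression (`IsPrimes`) commutes with `η = T_ℓ₀ − ℓ₀ − 1` -/
theorem k5hx_comm_etaS (e : HExpr 𝒪) (he : e.IsPrimes) (ℓ₀ : ℕ) [NeZero ℓ₀] (hℓ₀ : ℓ₀.Prime)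
    (φ : HomS (gammaH L M K) A) :
    etaS L M ℓ₀ K A (((e.eval L M).fam A).op K φ)
      = ((e.eval L M).fam A).op K (etaS L M ℓ₀ K A φ) := by
  show tS L M ℓ₀ K A (((e.eval L M).fam A).op K φ) - (ℓ₀ + 1) • ((e.eval L M).fam A).op K φ
    = ((e.eval L M).fam A).op K (tS L M ℓ₀ K A φ - (ℓ₀ + 1) • φ)
  rw [map_sub, map_nsmul, k5hx_comm_tS L M A K e he ℓ₀ hℓ₀]

/-- the operator of an expression (`IsPrimes`) commutes with `Θ` of another one -/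
theorem k5hx_comm_theta (e e' : HExpr 𝒪) (he : e.IsPrimes) (he' : e'.IsPrimes) (ℓ₀ : ℕ)
    [NeZero ℓ₀] (hℓ₀ : ℓ₀.Prime) (φ : HomS (gammaH L M K) A) :
    ((e.eval L M).fam A).op K (thetaN (e'.eval L M) ℓ₀ A K φ)
      = thetaN (e'.eval L M) ℓ₀ A K (((e.eval L M).fam A).op K φ) := by
  show ((e.eval L M).fam A).op K (((e'.eval L M).fam A).op K (etaS L M ℓ₀ K A φ))
    = ((e'.eval L M).fam A).op K (etaS L M ℓ₀ K A (((e.eval L M).fam A).op K φ))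
  rw [k5hx_comm L M A K e e' he he', k5hx_comm_etaS L M A K e he ℓ₀ hℓ₀]

end comm

section degFam

variable {𝒪 : Type} [CommRing 𝒪] (L M q : ℕ) [NeZero L] [NeZero q] [hML : Fact (M ∣ L)]
  [hMLq : Fact (M ∣ L * q)]

theorem k5hx_exists_degFam (hq : q.Prime) (hqL : ¬ q ∣ L) (e : HExpr 𝒪) (he : e.Avoids q) :
    ∃ 𝔡 : DegFam 𝒪 L M q, 𝔡.lo = e.eval L M ∧ 𝔡.hi = e.eval (L * q) M := by
  induction e with
  | one => exact ⟨k5dg_one 𝒪 L M q, rfl, rfl⟩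
  | hecke ℓ' =>
    haveI : NeZero ℓ' := ⟨he.1.ne_zero⟩
    exact ⟨k5dg_hecke 𝒪 L M q hq hqL ℓ' he.1 he.2, (HExpr.eval_hecke L M ℓ').symm,
      (HExpr.eval_hecke (L * q) M ℓ').symm⟩
  | coeff c => exact ⟨k5dg_coeff 𝒪 L M q c, rfl, rfl⟩
  | add e₁ e₂ ih₁ ih₂ =>
    obtain ⟨𝔡₁, h₁, h₁'⟩ := ih₁ he.1
    obtain ⟨𝔡₂, h₂, h₂'⟩ := ih₂ he.2
    refine ⟨k5dg_add 𝔡₁ 𝔡₂, ?_, ?_⟩
    · show 𝔡₁.lo.add 𝔡₂.lo = _
      rw [h₁, h₂]; rfl
    · show 𝔡₁.hi.add 𝔡₂.hi = _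
      rw [h₁', h₂']; rfl
  | comp e₁ e₂ ih₁ ih₂ =>
    obtain ⟨𝔡₁, h₁, h₁'⟩ := ih₁ he.1
    obtain ⟨𝔡₂, h₂, h₂'⟩ := ih₂ he.2
    refine ⟨k5dg_comp 𝔡₁ 𝔡₂, ?_, ?_⟩
    · show 𝔡₁.lo.comp 𝔡₂.lo = _
      rw [h₁, h₂]; rfl
    · show 𝔡₁.hi.comp 𝔡₂.hi = _
      rw [h₁', h₂']; rfl

/-- **the pair `(e at level L, e at level L q)`** for an expression avoiding `q` -/
def k5hx_degFam (hq : q.Prime) (hqL : ¬ q ∣ L) (e : HExpr 𝒪) (he : e.Avoids q) :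
    DegFam 𝒪 L M q where
  lo := e.eval L M
  hi := e.eval (L * q) M
  res_comm := by
    obtain ⟨𝔡, h₁, h₂⟩ := k5hx_exists_degFam L M q hq hqL e he
    rw [← h₁, ← h₂]; exact 𝔡.res_comm
  resD_comm := by
    obtain ⟨𝔡, h₁, h₂⟩ := k5hx_exists_degFam L M q hq hqL e he
    rw [← h₁, ← h₂]; exact 𝔡.resD_comm
  cores_comm := by
    obtain ⟨𝔡, h₁, h₂⟩ := k5hx_exists_degFam L M q hq hqL e he
    rw [← h₁, ← h₂]; exact 𝔡.cores_comm
  coresD_comm := by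
    obtain ⟨𝔡, h₁, h₂⟩ := k5hx_exists_degFam L M q hq hqL e he
    rw [← h₁, ← h₂]; exact 𝔡.coresD_comm
  t_comm := by
    obtain ⟨𝔡, h₁, h₂⟩ := k5hx_exists_degFam L M q hq hqL e he
    rw [← h₁]; exact 𝔡.t_comm
  u_comm := by
    obtain ⟨𝔡, h₁, h₂⟩ := k5hx_exists_degFam L M q hq hqL e he
    rw [← h₂]; exact 𝔡.u_comm

/-- `usq q` at level `L q` is `usqFam` -/
theorem k5hx_eval_usq : (HExpr.usq 𝒪 q).eval (L * q) M = usqFam 𝒪 L M q := by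
  show (((HExpr.hecke q : HExpr 𝒪).eval (L * q) M).comp
      ((HExpr.hecke q : HExpr 𝒪).eval (L * q) M)).add (NatFam.coeff 𝒪 (L * q) M (-1)) = _
  rw [HExpr.eval_hecke]
  rfl

end degFam

section castTop

variable {𝒪 : Type} [CommRing 𝒪] (L M M' : ℕ) [NeZero L] [hML : Fact (M ∣ L)]
  [hML' : Fact (M' ∣ L)] (A : Type) [AddCommGroup A] [Module 𝒪 A]

/-- at `H = ⊤` the operator of an expression does not depend on the modulus -/
theorem k5hx_cast_top (e : HExpr 𝒪) (φ : HomS (gammaH L M (⊤ : Subgroup (ZMod M)ˣ)) A) :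
    k5mt_cast A (k5mt_top_eq L M M') (((e.eval L M).fam A).op ⊤ φ)
      = ((e.eval L M').fam A).op ⊤ (k5mt_cast A (k5mt_top_eq L M M') φ) := by
  induction e generalizing φ with
  | one => rfl
  | hecke ℓ' =>
    by_cases h0 : ℓ' = 0
    · subst h0
      rfl
    · haveI : NeZero ℓ' := ⟨h0⟩
      rw [HExpr.op_hecke, HExpr.op_hecke]
      exact k5mt_top_tS L M M' ℓ' A φ
  | coeff c => rfl
  | add e₁ e₂ ih₁ ih₂ =>
    rw [HExpr.op_add, HExpr.op_add, map_add, ih₁, ih₂]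
  | comp e₁ e₂ ih₁ ih₂ =>
    rw [HExpr.op_comp, HExpr.op_comp, ih₁, ih₂]

/-- at `H = ⊤` the operator `Θ` of an expression does not depend on the modulus -/
theorem k5hx_cast_top_theta (e : HExpr 𝒪) (ℓ₀ : ℕ) [NeZero ℓ₀]
    (φ : HomS (gammaH L M (⊤ : Subgroup (ZMod M)ˣ)) A) :
    k5mt_cast A (k5mt_top_eq L M M') (thetaN (e.eval L M) ℓ₀ A ⊤ φ)
      = thetaN (e.eval L M') ℓ₀ A ⊤ (k5mt_cast A (k5mt_top_eq L M M') φ) := by
  show k5mt_cast A (k5mt_top_eq L M M') (((e.eval L M).fam A).op ⊤ (etaS L M ℓ₀ ⊤ A φ))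
    = ((e.eval L M').fam A).op ⊤ (etaS L M' ℓ₀ ⊤ A (k5mt_cast A (k5mt_top_eq L M M') φ))
  rw [k5hx_cast_top, k5mt_top_etaS]

/-- at `H = ⊤` the `Θ`-part of an expression does not depend on the modulus -/
theorem k5hx_cast_top_mem (e : HExpr 𝒪) (ℓ₀ : ℕ) [NeZero ℓ₀]
    (φ : HomS (gammaH L M (⊤ : Subgroup (ZMod M)ˣ)) A) :
    k5mt_cast A (k5mt_top_eq L M M') φ ∈ etaPart (thetaN (e.eval L M') ℓ₀ A ⊤)
      ↔ φ ∈ etaPart (thetaN (e.eval L M) ℓ₀ A ⊤) :=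
  k5mt_mem_etaPart A (k5mt_top_eq L M M') _ _ (k5hx_cast_top_theta L M M' A e ℓ₀) φ

end castTop

end Fermat.Agent.RT.K5

end
end ZBRT_028_20

/-! ### bundled: `Fermat.Agent.RT.K5.Coef` -/
section ZBRT_028_21

/-!
# RT-K5, piece K5-COEF: exactness of the `Θ`-part in the coefficients

For an exact sequence `0 → A' →j A →π A'' → 0` of finite `𝒪`-modules with `NoTors Γ A''`:
`0 → Hom(Γ, A') → Hom(Γ, A) → Hom(Γ, A'') → 0` is exact (`stmtLift` on the right), the maps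
intertwine `Θ` (`k5n_theta_nat`), all groups are finite (`k5s_finite_homS`), so `etaPart` is exact
(`k5fx_surj`, `k5fx_exact`, `k5fx_card`).

* `k5co_mapS_injective`, `k5co_mapS_exact` : left exactness of `Hom(Γ, ·)`;
* `stmtCoeffExact : StmtCoeffExact`.
-/

set_option autoImplicit false
set_option linter.style.haveILetI false
set_option linter.unusedSectionVars false
set_option linter.unusedVariables false

noncomputable section

namespace Fermat.Agent.RT.K5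

open CongruenceSubgroup Matrix
open scoped MatrixGroups
open Fermat.Agent.ES1 (gammaH diamHom pmH)

section leftexact

variable {Γ : Subgroup SL(2, ℤ)}

/-- `Hom(Γ, ·)` preserves injections -/
theorem k5co_mapS_injective {A B : Type*} [AddCommGroup A] [AddCommGroup B] (f : A →+ B)
    (hf : Function.Injective f) : Function.Injective (mapS (Γ := Γ) f) := by
  intro φ ψ h
  refine AddMonoidHom.ext fun γ => hf ?_
  exact DFunLike.congr_fun h γ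

/-- `Hom(Γ, ·)` is exact in the middle -/
theorem k5co_mapS_exact {A' A A'' : Type*} [AddCommGroup A'] [AddCommGroup A]
    [AddCommGroup A''] (j : A' →+ A) (π : A →+ A'') (hj : Function.Injective j)
    (hex : ∀ a, π a = 0 → ∃ a', j a' = a) (v : HomS Γ A) (hv : mapS π v = 0) :
    ∃ u : HomS Γ A', mapS j u = v := by
  have h : ∀ γ, ∃ a', j a' = v γ := fun γ => hex _ (DFunLike.congr_fun hv γ)
  choose f hf using h
  refine ⟨AddMonoidHom.mk' f ?_, ?_⟩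
  · intro a b
    apply hj
    rw [hf, map_add, map_add, hf, hf]
  · refine AddMonoidHom.ext fun γ => ?_
    exact hf γ

/-- the composite is zero -/
theorem k5co_mapS_comp_zero {A' A A'' : Type*} [AddCommGroup A'] [AddCommGroup A]
    [AddCommGroup A''] (j : A' →+ A) (π : A →+ A'') (hπj : ∀ a', π (j a') = 0)
    (u : HomS Γ A') : mapS π (mapS j u) = 0 := by
  refine AddMonoidHom.ext fun γ => ?_
  exact hπj (u γ)

end leftexact

/-- **K5-COEF.** -/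
theorem stmtCoeffExact : StmtCoeffExact := by
  intro 𝒪 _ L M ℓ₀ _ _ _ 𝔲 K A' A A'' _ _ _ _ _ _ _ _ _ j π hj hπ hex hNT
  haveI : Finite (HomS (gammaH L M K) A') := k5s_finite_homS _ A'
  haveI : Finite (HomS (gammaH L M K) A) := k5s_finite_homS _ A
  haveI : Finite (HomS (gammaH L M K) A'') := k5s_finite_homS _ A''
  -- the three maps
  have hJ : Function.Injective (mapS (Γ := gammaH L M K) j.toAddMonoidHom) :=
    k5co_mapS_injective _ hj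
  have hP : Function.Surjective (mapS (Γ := gammaH L M K) π.toAddMonoidHom) := by
    intro w
    obtain ⟨v, hv⟩ := stmtLift L M K A A'' π.toAddMonoidHom hπ hNT w
    exact ⟨v, hv⟩
  have hE : ∀ v : HomS (gammaH L M K) A, mapS π.toAddMonoidHom v = 0 →
      ∃ u : HomS (gammaH L M K) A', mapS j.toAddMonoidHom u = v :=
    fun v hv => k5co_mapS_exact j.toAddMonoidHom π.toAddMonoidHom hj
      (fun a ha => (hex a).mp ha) v hv
  have hZ : ∀ u : HomS (gammaH L M K) A',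
      mapS π.toAddMonoidHom (mapS j.toAddMonoidHom u) = 0 :=
    fun u => k5co_mapS_comp_zero j.toAddMonoidHom π.toAddMonoidHom
      (fun a' => (hex (j a')).mpr ⟨a', rfl⟩) u
  have hjθ : ∀ u, mapS j.toAddMonoidHom (thetaN 𝔲 ℓ₀ A' K u)
      = thetaN 𝔲 ℓ₀ A K (mapS j.toAddMonoidHom u) := fun u => k5n_theta_nat 𝔲 ℓ₀ j K u
  have hπθ : ∀ v, mapS π.toAddMonoidHom (thetaN 𝔲 ℓ₀ A K v)
      = thetaN 𝔲 ℓ₀ A'' K (mapS π.toAddMonoidHom v) := fun v => k5n_theta_nat 𝔲 ℓ₀ π K v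
  refine ⟨?_, ?_, ?_⟩
  · intro w hw
    exact k5fx_surj (thetaN 𝔲 ℓ₀ A K) (thetaN 𝔲 ℓ₀ A'' K) _ hP hπθ w hw
  · intro v hv h0
    exact k5fx_exact (thetaN 𝔲 ℓ₀ A' K) (thetaN 𝔲 ℓ₀ A K) (thetaN 𝔲 ℓ₀ A'' K) _ _ hJ hE hjθ hπθ
      v hv h0
  · exact k5fx_card (thetaN 𝔲 ℓ₀ A' K) (thetaN 𝔲 ℓ₀ A K) (thetaN 𝔲 ℓ₀ A'' K) _ _ hJ hP hZ hE
      hjθ hπθ

end Fermat.Agent.RT.K5

end


end ZBRT_028_21

/-! ### bundled: `Fermat.Agent.RT.K5.Plan6` -/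
section ZBRT_028_22

/-!
# K-machine, piece K5, interface for HECKE-asm (helper59's questions (Q1), (Q2))

* `genEig T a` : the generalised eigenspace `{v | ∀ i, ∃ n, (T i − a i)ⁿ v = 0}` of a family of
  endomorphisms;
* `StmtLocAbs`  (**K5-LOC**, abstract): on a FINITE abelian group the projector onto `genEig T a`
  is a finite product `∏_j (1 − (T_{i_j} − a_{i_j})^N)`;
* `StmtLocRing` (**K5-LOC**, ring): a commutative `𝒪`-algebra acting faithfully on a finite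
  nonzero `𝒪`-module, generated by elements `s` with `s − c_s` nilpotent (`c_s ∈ 𝒪`), is a finite
  local ring with the residue field of `𝒪` (`S53.IsResAlg`), and `s − c_s ∈ 𝔪`;
* `StmtParH`    (**K5-PARH**): for squarefree `L`, `(ℤ/M)ˣ/±H` a `p`-group and coefficients killed
  by `pⁿ` (`p ≠ 2`, `ℓ₀ ≠ p`): the `η`-part of `Hom(Γ_H(L), A)` consists of PARABOLIC
  homomorphisms (the boundary is Eisenstein modulo `p`);
* `StmtParO`    : the same for `p`-adically separated coefficients (e.g. `𝒪`).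
-/

set_option autoImplicit false

noncomputable section

namespace Fermat.Agent.RT.K5

open CongruenceSubgroup Matrix ModularCurve.Period
open scoped MatrixGroups
open Fermat.Agent.ES1 (gammaH diamHom pmH)

/-- the generalised eigenspace of the family `T` for the "eigenvalues" `a` -/
def genEig {V ι : Type} [AddCommGroup V] (T a : ι → AddMonoid.End V) : Set V :=
  {v | ∀ i, ∃ n : ℕ, ((T i - a i) ^ n) v = 0}

/-- **K5-LOC (abstract).**  `V` finite, `T i`, `a i` pairwise commuting: there are finitely many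
indices `i_j` and `N ≥ 1` such that `E = ∏_j (1 − (T_{i_j} − a_{i_j})^N)` is the identity on the
generalised eigenspace and maps `V` into it. -/
def StmtLocAbs : Prop :=
  ∀ (V ι : Type) [AddCommGroup V] [Finite V] (T a : ι → AddMonoid.End V),
    (∀ i j, Commute (T i) (T j)) → (∀ i j, Commute (a i) (T j)) → (∀ i j, Commute (a i) (a j)) →
    ∃ (N : ℕ) (l : List ι), 0 < N ∧
      (∀ v ∈ genEig T a, ((l.map fun i => 1 - (T i - a i) ^ N).prod) v = v) ∧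
      (∀ v, ((l.map fun i => 1 - (T i - a i) ^ N).prod) v ∈ genEig T a)

/-- **K5-LOC (ring).**  A commutative `𝒪`-algebra `A₀` acting faithfully on a finite nonzero
`𝒪`-module `X`, generated by a set `S` of elements `s` such that `s − c` is nilpotent on `X` for
some `c ∈ 𝒪`: then `A₀` is finite, local, `𝒪 → A₀` is a local homomorphism inducing a surjection
on residue fields, and `s − c ∈ 𝔪_{A₀}` for every such `c`. -/
def StmtLocRing : Prop :=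
  ∀ (𝒪 : Type) [CommRing 𝒪] [IsLocalRing 𝒪] (X : Type) [AddCommGroup X] [Module 𝒪 X] [Finite X]
    [Nontrivial X] (A₀ : Type) [CommRing A₀] [Algebra 𝒪 A₀] (j : A₀ →ₐ[𝒪] Module.End 𝒪 X)
    (S : Set A₀),
    Function.Injective j → Algebra.adjoin 𝒪 S = ⊤ →
    (∀ s ∈ S, ∃ c : 𝒪, IsNilpotent (j s - algebraMap 𝒪 (Module.End 𝒪 X) c)) →
    Finite A₀ ∧ ∃ _ : IsLocalRing A₀,
      IsLocalHom (algebraMap 𝒪 A₀) ∧
      Function.Surjective (IsLocalRing.residue A₀ ∘ algebraMap 𝒪 A₀) ∧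
      ∀ s ∈ S, ∀ c : 𝒪, IsNilpotent (j s - algebraMap 𝒪 (Module.End 𝒪 X) c) →
        s - algebraMap 𝒪 A₀ c ∈ IsLocalRing.maximalIdeal A₀

/-- **K5-PARH.**  `L` squarefree, `p ≠ 2` prime, `ℓ₀ ≠ p` prime, `ℓ₀ ∤ L`, every element of
`(ℤ/M)ˣ` has a `p`-power in `±H`, `pⁿ A = 0`: the `η`-part of `Hom(Γ_H(L), A)` is parabolic. -/
def StmtParH : Prop :=
  ∀ (p : ℕ) [Fact p.Prime] (L M ℓ₀ : ℕ) [NeZero L] [NeZero ℓ₀] [Fact (M ∣ L)]
    (H : Subgroup (ZMod M)ˣ) (A : Type) [AddCommGroup A] (n k : ℕ),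
    Squarefree L → ℓ₀.Prime → ¬ ℓ₀ ∣ L → p ≠ 2 → ℓ₀ ≠ p →
    (∀ a : A, p ^ n • a = 0) → (∀ u : (ZMod M)ˣ, u ^ (p ^ k) ∈ pmH H) →
    ∀ φ ∈ etaPart (etaS L M ℓ₀ H A), IsParabolicHom (gammaH L M H) φ

/-- **K5-PARH over `𝒪`.**  The same when `⋂ₙ pⁿ A = 0` (deduced from `StmtParH` by reduction
modulo `pⁿ`: `k5nat_etaS`). -/
def StmtParO : Prop :=
  ∀ (p : ℕ) [Fact p.Prime] (L M ℓ₀ : ℕ) [NeZero L] [NeZero ℓ₀] [Fact (M ∣ L)]
    (H : Subgroup (ZMod M)ˣ) (A : Type) [AddCommGroup A] (k : ℕ),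
    Squarefree L → ℓ₀.Prime → ¬ ℓ₀ ∣ L → p ≠ 2 → ℓ₀ ≠ p →
    (∀ a : A, (∀ n : ℕ, ∃ b : A, a = p ^ n • b) → a = 0) →
    (∀ u : (ZMod M)ˣ, u ^ (p ^ k) ∈ pmH H) →
    ∀ φ ∈ etaPart (etaS L M ℓ₀ H A), IsParabolicHom (gammaH L M H) φ

end Fermat.Agent.RT.K5

end
end ZBRT_028_22
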