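/- GENERATED FILE (helper35, build-time optimisation, NOTES/ZB.md): verbatim concatenation of the modules
   Fermat.Agent.RT.Hecke.Mat
   Fermat.Agent.RT.Hecke.Conc
   Fermat.Agent.RT.Hecke.ConcComm
   Fermat.Agent.RT.Hecke.ConcNil
   Fermat.Agent.RT.Hecke.ConcSide
   Do not edit; do not import together with these modules. -/
import Mathlib
import Fermat.Agent.ZB.RT_002
import Fermat.Agent.ZB.RT_028
import Fermat.Agent.ZB.ES1_005
import Fermat.Agent.ZB.RT_018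
import Fermat.Agent.ZB.Cheb_002

/-! ### bundled: `Fermat.Agent.RT.Hecke.Mat` -/
section ZBRT_027_0
/-
RT-HECKE / HK-MAT (helper27): matrices of `Δ`-linear operators on a free `C[Δ]`-module.
-/

/-!
# K-machine, HECKE-asm, piece HK-MAT: matrices of `Δ`-linear operators

Sub-captain helper59 (`NOTES/RT-K7.md`, HECKE-asm).

`C` a commutative ring, `Δ` a finite commutative group, `X` a `C`-module with an action
`D : Δ →* AddMonoid.End X` by `C`-linear maps and `b : Fin r → X` with the UNIQUE EXPANSION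
property `RthkmFree C D b` (every `ψ : X` is `∑ c (i, δ) • D δ (b i)` for a unique `c`), i.e.
`X` is free over `C[Δ]` with basis `b`.  `Sn` a commutative `C`-algebra, `χ : Δ →* Sn`.

* `rthkmCoef h ψ : Fin r × Δ → C` : the coefficients of `ψ`;
* `rthkmEv h χ ψ : Fin r → Sn`, `rthkmEv h χ ψ i = ∑ δ, c (i, δ) · χ δ` : the `χ`-coordinates;
* `rthkmComm C D : Subring (AddMonoid.End X)` : the commutant of `C` and `Δ`;
* `rthkmMat h χ 𝔱 : Matrix (Fin r) (Fin r) Sn`, `(i', i) ↦ rthkmEv h χ (𝔱 (b i)) i'`;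
* `rthkmPhi h χ : rthkmComm C D →+* Matrix (Fin r) (Fin r) Sn` : the ring homomorphism `Φ_χ`;
* `rthk_m_phi_scalar`, `rthk_m_phi_D` : `Φ_χ (c • 1) = c • 1`, `Φ_χ (D δ) = χ δ • 1`;
* `rthk_m_phi_congr` : `χ ≡ χ'` modulo `I` ⇒ `Φ_χ ≡ Φ_χ'` entrywise modulo `I`;
* `rthk_m_coinv` : for `χ = 1`, `Sn = C`: `Φ_1 (𝔱)` is the matrix of `𝔱` on the coinvariants.
-/

set_option autoImplicit false

namespace Fermat.Agent.RT

/-- **The unique expansion property**: `X` is free over `C[Δ]` with basis `b`. -/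
def RthkmFree (C : Type*) [CommRing C] {Δ : Type*} [CommGroup Δ] [Fintype Δ] {X : Type*}
    [AddCommGroup X] [Module C X] (D : Δ →* AddMonoid.End X) {r : ℕ} (b : Fin r → X) : Prop :=
  (∀ (δ : Δ) (c : C) (x : X), D δ (c • x) = c • D δ x) ∧
  ∀ ψ : X, ∃! c : Fin r × Δ → C, ψ = ∑ x : Fin r × Δ, c x • D x.2 (b x.1)

section Comm

variable (C : Type*) [CommRing C] {Δ : Type*} [CommGroup Δ] {X : Type*}
  [AddCommGroup X] [Module C X] (D : Δ →* AddMonoid.End X)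

/-- the commutant of `C` and `Δ` in the endomorphisms of `X` -/
def rthkmComm : Subring (AddMonoid.End X) where
  carrier := {𝔱 | (∀ (c : C) (x : X), 𝔱 (c • x) = c • 𝔱 x) ∧ ∀ (δ : Δ) (x : X), 𝔱 (D δ x) = D δ (𝔱 x)}
  mul_mem' := by
    rintro 𝔱 𝔰 ⟨h1, h2⟩ ⟨h1', h2'⟩
    refine ⟨fun c x => ?_, fun δ x => ?_⟩
    · show 𝔱 (𝔰 (c • x)) = c • 𝔱 (𝔰 x)
      rw [h1', h1]
    · show 𝔱 (𝔰 (D δ x)) = D δ (𝔱 (𝔰 x))
      rw [h2', h2]
  one_mem' := ⟨fun _ _ => rfl, fun _ _ => rfl⟩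
  add_mem' := by
    rintro 𝔱 𝔰 ⟨h1, h2⟩ ⟨h1', h2'⟩
    refine ⟨fun c x => ?_, fun δ x => ?_⟩
    · show 𝔱 (c • x) + 𝔰 (c • x) = c • (𝔱 x + 𝔰 x)
      rw [h1, h1', smul_add]
    · show 𝔱 (D δ x) + 𝔰 (D δ x) = D δ (𝔱 x + 𝔰 x)
      rw [h2, h2', map_add]
  zero_mem' := by
    refine ⟨fun c x => ?_, fun δ x => ?_⟩
    · show (0 : X) = c • (0 : X)
      rw [smul_zero]
    · show (0 : X) = D δ (0 : X)
      rw [map_zero]
  neg_mem' := by
    rintro 𝔱 ⟨h1, h2⟩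
    refine ⟨fun c x => ?_, fun δ x => ?_⟩
    · show -(𝔱 (c • x)) = c • (-(𝔱 x))
      rw [h1, smul_neg]
    · show -(𝔱 (D δ x)) = D δ (-(𝔱 x))
      rw [h2, map_neg]

variable {C D}

theorem rthk_m_mem_comm {𝔱 : AddMonoid.End X} :
    𝔱 ∈ rthkmComm C D ↔
      (∀ (c : C) (x : X), 𝔱 (c • x) = c • 𝔱 x) ∧ ∀ (δ : Δ) (x : X), 𝔱 (D δ x) = D δ (𝔱 x) :=
  Iff.rfl

/-- the scalars are in the commutant (if `Δ` acts by `C`-linear maps) -/
theorem rthk_m_scalar_mem (hlin : ∀ (δ : Δ) (c : C) (x : X), D δ (c • x) = c • D δ x) (c : C) :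
    Module.toAddMonoidEnd C X c ∈ rthkmComm C D := by
  refine ⟨fun c' x => ?_, fun δ x => ?_⟩
  · show c • c' • x = c' • c • x
    rw [smul_comm]
  · show c • D δ x = D δ (c • x)
    rw [hlin]

/-- the operators `D δ` are in the commutant (if `Δ` acts by `C`-linear maps) -/
theorem rthk_m_D_mem (hlin : ∀ (δ : Δ) (c : C) (x : X), D δ (c • x) = c • D δ x) (δ : Δ) :
    D δ ∈ rthkmComm C D := by
  refine ⟨fun c x => hlin δ c x, fun δ' x => ?_⟩
  show (D δ * D δ') x = (D δ' * D δ) x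
  rw [← map_mul, ← map_mul, mul_comm]

end Comm

section OfBij

variable {C : Type*} [CommRing C] {Δ : Type*} [CommGroup Δ] [Fintype Δ] {X : Type*}
  [AddCommGroup X] [Module C X] {D : Δ →* AddMonoid.End X} {r : ℕ} {b : Fin r → X}

/-- the unique expansion property from an injective and surjective expansion map indexed by a
transversal `e : ι ≃ Δ` (the shape of K5's `IsFreeBasis`) -/
theorem rthk_m_free_of_bij (hlin : ∀ (δ : Δ) (c : C) (x : X), D δ (c • x) = c • D δ x)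
    {ι : Type*} [Fintype ι] (e : ι ≃ Δ)
    (hinj : Function.Injective (fun c : Fin r × ι → C =>
      ∑ x : Fin r × ι, c x • D (e x.2) (b x.1)))
    (hsurj : ∀ ψ : X, ∃ c : Fin r × ι → C, ψ = ∑ x : Fin r × ι, c x • D (e x.2) (b x.1)) :
    RthkmFree C D b := by
  have key : ∀ c : Fin r × Δ → C, ∑ x : Fin r × Δ, c x • D x.2 (b x.1)
      = ∑ y : Fin r × ι, c (y.1, e y.2) • D (e y.2) (b y.1) := by
    intro c
    refine (Fintype.sum_equiv ((Equiv.refl (Fin r)).prodCongr e) _ _ ?_).symm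
    intro y
    rfl
  refine ⟨hlin, fun ψ => ?_⟩
  obtain ⟨c', hc'⟩ := hsurj ψ
  refine ⟨fun x => c' (x.1, e.symm x.2), ?_, ?_⟩
  · show ψ = _
    rw [key]
    simpa using hc'
  · intro c₂ hc₂
    rw [key] at hc₂
    have h1 : (fun y : Fin r × ι => c₂ (y.1, e y.2)) = c' := by
      apply hinj
      show ∑ x : Fin r × ι, c₂ (x.1, e x.2) • D (e x.2) (b x.1)
        = ∑ x : Fin r × ι, c' x • D (e x.2) (b x.1)
      rw [← hc₂, ← hc']
    funext x
    have := congrFun h1 (x.1, e.symm x.2)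
    simpa using this

end OfBij

section HkMat

variable {C : Type*} [CommRing C] {Δ : Type*} [CommGroup Δ] [Fintype Δ] {X : Type*}
  [AddCommGroup X] [Module C X] {D : Δ →* AddMonoid.End X} {r : ℕ} {b : Fin r → X}

/-- the coefficients of `ψ` -/
noncomputable def rthkmCoef (h : RthkmFree C D b) (ψ : X) : Fin r × Δ → C :=
  (h.2 ψ).exists.choose

theorem rthk_m_expand (h : RthkmFree C D b) (ψ : X) :
    ψ = ∑ x : Fin r × Δ, rthkmCoef h ψ x • D x.2 (b x.1) :=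
  (h.2 ψ).exists.choose_spec

theorem rthk_m_coef_eq (h : RthkmFree C D b) {ψ : X} {c : Fin r × Δ → C}
    (hc : ψ = ∑ x : Fin r × Δ, c x • D x.2 (b x.1)) : rthkmCoef h ψ = c :=
  (h.2 ψ).unique (rthk_m_expand h ψ) hc

theorem rthk_m_coef_add (h : RthkmFree C D b) (ψ ψ' : X) :
    rthkmCoef h (ψ + ψ') = rthkmCoef h ψ + rthkmCoef h ψ' := by
  apply rthk_m_coef_eq
  simp only [Pi.add_apply, add_smul, Finset.sum_add_distrib]
  rw [← rthk_m_expand h ψ, ← rthk_m_expand h ψ']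

theorem rthk_m_coef_smul (h : RthkmFree C D b) (c : C) (ψ : X) :
    rthkmCoef h (c • ψ) = c • rthkmCoef h ψ := by
  apply rthk_m_coef_eq
  simp only [Pi.smul_apply, smul_eq_mul, mul_smul]
  rw [← Finset.smul_sum, ← rthk_m_expand h ψ]

theorem rthk_m_coef_zero (h : RthkmFree C D b) : rthkmCoef h (0 : X) = 0 := by
  apply rthk_m_coef_eq
  simp

theorem rthk_m_coef_sum (h : RthkmFree C D b) {ι : Type*} (s : Finset ι) (f : ι → X) :
    rthkmCoef h (∑ i ∈ s, f i) = ∑ i ∈ s, rthkmCoef h (f i) := by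
  classical
  induction s using Finset.induction_on with
  | empty => simp [rthk_m_coef_zero]
  | insert a s ha ih => rw [Finset.sum_insert ha, Finset.sum_insert ha, rthk_m_coef_add, ih]

/-- the coefficients of `D δ ψ`: a shift -/
theorem rthk_m_coef_D (h : RthkmFree C D b) (δ : Δ) (ψ : X) (x : Fin r × Δ) :
    rthkmCoef h (D δ ψ) x = rthkmCoef h ψ (x.1, δ⁻¹ * x.2) := by
  have key : rthkmCoef h (D δ ψ) = fun x : Fin r × Δ => rthkmCoef h ψ (x.1, δ⁻¹ * x.2) := by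
    apply rthk_m_coef_eq
    conv_lhs => rw [rthk_m_expand h ψ]
    rw [map_sum]
    have e : ∀ x : Fin r × Δ, D δ (rthkmCoef h ψ x • D x.2 (b x.1))
        = rthkmCoef h ψ x • D (δ * x.2) (b x.1) := by
      intro x
      rw [h.1, map_mul]
      rfl
    simp only [e]
    refine Fintype.sum_equiv ((Equiv.refl (Fin r)).prodCongr (Equiv.mulLeft δ)) _ _ ?_
    intro x
    simp
  rw [key]

/-- the coefficients of a basis vector -/
theorem rthk_m_coef_b (h : RthkmFree C D b) [DecidableEq Δ] (i : Fin r) :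
    rthkmCoef h (b i) = Pi.single (i, (1 : Δ)) (1 : C) := by
  classical
  apply rthk_m_coef_eq
  rw [Finset.sum_eq_single (i, (1 : Δ))]
  · simp
  · intro x _ hx
    rw [Pi.single_eq_of_ne hx, zero_smul]
  · intro hx
    exact absurd (Finset.mem_univ _) hx

variable {Sn : Type*} [CommRing Sn] [Algebra C Sn]

/-- the `χ`-coordinates of `ψ` -/
noncomputable def rthkmEv (h : RthkmFree C D b) (χ : Δ →* Sn) (ψ : X) : Fin r → Sn :=
  fun i => ∑ δ : Δ, algebraMap C Sn (rthkmCoef h ψ (i, δ)) * χ δ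

theorem rthk_m_ev_add (h : RthkmFree C D b) (χ : Δ →* Sn) (ψ ψ' : X) :
    rthkmEv h χ (ψ + ψ') = rthkmEv h χ ψ + rthkmEv h χ ψ' := by
  funext i
  simp only [rthkmEv, rthk_m_coef_add, Pi.add_apply, map_add, add_mul, Finset.sum_add_distrib]

theorem rthk_m_ev_zero (h : RthkmFree C D b) (χ : Δ →* Sn) : rthkmEv h χ (0 : X) = 0 := by
  funext i
  simp [rthkmEv, rthk_m_coef_zero]

theorem rthk_m_ev_smul (h : RthkmFree C D b) (χ : Δ →* Sn) (c : C) (ψ : X) :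
    rthkmEv h χ (c • ψ) = algebraMap C Sn c • rthkmEv h χ ψ := by
  funext i
  simp only [rthkmEv, rthk_m_coef_smul, Pi.smul_apply, smul_eq_mul, map_mul, Finset.mul_sum,
    mul_assoc]

theorem rthk_m_ev_sum (h : RthkmFree C D b) (χ : Δ →* Sn) {ι : Type*} (s : Finset ι)
    (f : ι → X) : rthkmEv h χ (∑ i ∈ s, f i) = ∑ i ∈ s, rthkmEv h χ (f i) := by
  classical
  induction s using Finset.induction_on with
  | empty => simp [rthk_m_ev_zero]
  | insert a s ha ih => rw [Finset.sum_insert ha, Finset.sum_insert ha, rthk_m_ev_add, ih]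

/-- `D δ` acts on the `χ`-coordinates through `χ δ` -/
theorem rthk_m_ev_D (h : RthkmFree C D b) (χ : Δ →* Sn) (δ : Δ) (ψ : X) :
    rthkmEv h χ (D δ ψ) = χ δ • rthkmEv h χ ψ := by
  funext i
  simp only [rthkmEv, Pi.smul_apply, smul_eq_mul, rthk_m_coef_D, Finset.mul_sum]
  refine Fintype.sum_equiv (Equiv.mulLeft δ⁻¹) _ _ ?_
  intro δ'
  simp only [Equiv.coe_mulLeft]
  have e : χ δ' = χ δ * χ (δ⁻¹ * δ') := by rw [← map_mul, mul_inv_cancel_left]
  rw [e]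
  ring

/-- the `χ`-coordinates of a basis vector -/
theorem rthk_m_ev_b (h : RthkmFree C D b) (χ : Δ →* Sn) (i : Fin r) :
    rthkmEv h χ (b i) = Pi.single i 1 := by
  classical
  funext i'
  simp only [rthkmEv, rthk_m_coef_b h i]
  by_cases hi : i' = i
  · subst hi
    rw [Pi.single_eq_same, Finset.sum_eq_single (1 : Δ)]
    · simp
    · intro δ _ hδ
      rw [Pi.single_eq_of_ne (by simpa using hδ), map_zero, zero_mul]
    · intro hx
      exact absurd (Finset.mem_univ _) hx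
  · rw [Pi.single_eq_of_ne hi]
    refine Finset.sum_eq_zero fun δ _ => ?_
    rw [Pi.single_eq_of_ne (by simp [hi]), map_zero, zero_mul]

/-- the matrix of `𝔱` in the `χ`-coordinates -/
noncomputable def rthkmMat (h : RthkmFree C D b) (χ : Δ →* Sn) (𝔱 : AddMonoid.End X) :
    Matrix (Fin r) (Fin r) Sn :=
  Matrix.of fun i' i => rthkmEv h χ (𝔱 (b i)) i'

theorem rthkmMat_apply (h : RthkmFree C D b) (χ : Δ →* Sn) (𝔱 : AddMonoid.End X) (i' i : Fin r) :
    rthkmMat h χ 𝔱 i' i = rthkmEv h χ (𝔱 (b i)) i' := rfl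

/-- **the key formula**: an operator of the commutant acts on the `χ`-coordinates through its
matrix -/
theorem rthk_m_ev_apply (h : RthkmFree C D b) (χ : Δ →* Sn) {𝔱 : AddMonoid.End X}
    (h𝔱 : 𝔱 ∈ rthkmComm C D) (ψ : X) :
    rthkmEv h χ (𝔱 ψ) = (rthkmMat h χ 𝔱).mulVec (rthkmEv h χ ψ) := by
  have e1 : 𝔱 ψ = ∑ x : Fin r × Δ, rthkmCoef h ψ x • D x.2 (𝔱 (b x.1)) := by
    conv_lhs => rw [rthk_m_expand h ψ]
    rw [map_sum]
    refine Finset.sum_congr rfl fun x _ => ?_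
    rw [h𝔱.1, h𝔱.2]
  rw [e1, rthk_m_ev_sum]
  funext i'
  rw [Finset.sum_apply, Matrix.mulVec, dotProduct, Fintype.sum_prod_type]
  refine Finset.sum_congr rfl fun i _ => ?_
  simp only [rthk_m_ev_smul, rthk_m_ev_D, Pi.smul_apply, smul_eq_mul, rthkmMat_apply]
  have e2 : rthkmEv h χ ψ i = ∑ δ : Δ, algebraMap C Sn (rthkmCoef h ψ (i, δ)) * χ δ := rfl
  rw [e2, Finset.mul_sum]
  refine Finset.sum_congr rfl fun δ _ => ?_
  ring

theorem rthkmMat_one (h : RthkmFree C D b) (χ : Δ →* Sn) :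
    rthkmMat h χ (1 : AddMonoid.End X) = 1 := by
  classical
  ext i' i
  rw [rthkmMat_apply]
  show rthkmEv h χ (b i) i' = _
  rw [rthk_m_ev_b, Matrix.one_apply, Pi.single_apply]

theorem rthkmMat_mul (h : RthkmFree C D b) (χ : Δ →* Sn) {𝔱 : AddMonoid.End X}
    (h𝔱 : 𝔱 ∈ rthkmComm C D) (𝔰 : AddMonoid.End X) :
    rthkmMat h χ (𝔱 * 𝔰) = rthkmMat h χ 𝔱 * rthkmMat h χ 𝔰 := by
  ext i' i
  rw [rthkmMat_apply]
  show rthkmEv h χ (𝔱 (𝔰 (b i))) i' = _
  rw [rthk_m_ev_apply h χ h𝔱, Matrix.mul_apply, Matrix.mulVec, dotProduct]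
  rfl

theorem rthkmMat_zero (h : RthkmFree C D b) (χ : Δ →* Sn) :
    rthkmMat h χ (0 : AddMonoid.End X) = 0 := by
  ext i' i
  rw [rthkmMat_apply]
  show rthkmEv h χ (0 : X) i' = _
  rw [rthk_m_ev_zero]
  rfl

theorem rthkmMat_add (h : RthkmFree C D b) (χ : Δ →* Sn) (𝔱 𝔰 : AddMonoid.End X) :
    rthkmMat h χ (𝔱 + 𝔰) = rthkmMat h χ 𝔱 + rthkmMat h χ 𝔰 := by
  ext i' i
  rw [rthkmMat_apply]
  show rthkmEv h χ (𝔱 (b i) + 𝔰 (b i)) i' = _
  rw [rthk_m_ev_add]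
  rfl

/-- **`Φ_χ`**: the ring homomorphism from the commutant to the matrices. -/
noncomputable def rthkmPhi (h : RthkmFree C D b) (χ : Δ →* Sn) :
    rthkmComm C D →+* Matrix (Fin r) (Fin r) Sn where
  toFun 𝔱 := rthkmMat h χ (𝔱 : AddMonoid.End X)
  map_one' := rthkmMat_one h χ
  map_mul' 𝔱 𝔰 := rthkmMat_mul h χ 𝔱.2 𝔰
  map_zero' := rthkmMat_zero h χ
  map_add' 𝔱 𝔰 := rthkmMat_add h χ 𝔱 𝔰

theorem rthkmPhi_apply (h : RthkmFree C D b) (χ : Δ →* Sn) (𝔱 : rthkmComm C D) :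
    rthkmPhi h χ 𝔱 = rthkmMat h χ (𝔱 : AddMonoid.End X) := rfl

/-- **scalars**: `Φ_χ (c • 1) = c • 1` -/
theorem rthk_m_mat_scalar (h : RthkmFree C D b) (χ : Δ →* Sn) (c : C) :
    rthkmMat h χ (Module.toAddMonoidEnd C X c) = algebraMap C Sn c • (1 : Matrix _ _ Sn) := by
  classical
  ext i' i
  rw [rthkmMat_apply]
  show rthkmEv h χ (c • b i) i' = _
  rw [rthk_m_ev_smul, rthk_m_ev_b, Matrix.smul_apply, Matrix.one_apply, Pi.smul_apply,
    Pi.single_apply]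

/-- **the group**: `Φ_χ (D δ) = χ δ • 1` -/
theorem rthk_m_mat_D (h : RthkmFree C D b) (χ : Δ →* Sn) (δ : Δ) :
    rthkmMat h χ (D δ) = χ δ • (1 : Matrix _ _ Sn) := by
  classical
  ext i' i
  rw [rthkmMat_apply, rthk_m_ev_D, rthk_m_ev_b, Matrix.smul_apply, Matrix.one_apply,
    Pi.smul_apply, Pi.single_apply]

theorem rthk_m_phi_scalar (h : RthkmFree C D b) (χ : Δ →* Sn) (c : C) :
    rthkmPhi h χ ⟨Module.toAddMonoidEnd C X c, rthk_m_scalar_mem h.1 c⟩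
      = algebraMap C Sn c • (1 : Matrix _ _ Sn) :=
  rthk_m_mat_scalar h χ c

theorem rthk_m_phi_D (h : RthkmFree C D b) (χ : Δ →* Sn) (δ : Δ) :
    rthkmPhi h χ ⟨D δ, rthk_m_D_mem h.1 δ⟩ = χ δ • (1 : Matrix _ _ Sn) :=
  rthk_m_mat_D h χ δ

/-- **congruence** of the coordinates -/
theorem rthk_m_ev_congr (h : RthkmFree C D b) (I : Ideal Sn) (χ χ' : Δ →* Sn)
    (hχ : ∀ δ, χ δ - χ' δ ∈ I) (ψ : X) (i : Fin r) :
    rthkmEv h χ ψ i - rthkmEv h χ' ψ i ∈ I := by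
  simp only [rthkmEv]
  rw [← Finset.sum_sub_distrib]
  refine Ideal.sum_mem _ fun δ _ => ?_
  rw [← mul_sub]
  exact Ideal.mul_mem_left _ _ (hχ δ)

/-- **congruence**: `χ ≡ χ'` modulo `I` ⇒ `Φ_χ ≡ Φ_χ'` entrywise modulo `I` -/
theorem rthk_m_mat_congr (h : RthkmFree C D b) (I : Ideal Sn) (χ χ' : Δ →* Sn)
    (hχ : ∀ δ, χ δ - χ' δ ∈ I) (𝔱 : AddMonoid.End X) (i' i : Fin r) :
    rthkmMat h χ 𝔱 i' i - rthkmMat h χ' 𝔱 i' i ∈ I :=
  rthk_m_ev_congr h I χ χ' hχ _ _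

theorem rthk_m_phi_congr (h : RthkmFree C D b) (I : Ideal Sn) (χ χ' : Δ →* Sn)
    (hχ : ∀ δ, χ δ - χ' δ ∈ I) (𝔱 : rthkmComm C D) (i' i : Fin r) :
    rthkmPhi h χ 𝔱 i' i - rthkmPhi h χ' 𝔱 i' i ∈ I :=
  rthk_m_mat_congr h I χ χ' hχ _ _ _

/-- **functoriality** in the coefficients -/
theorem rthk_m_ev_map (h : RthkmFree C D b) {Sn' : Type*} [CommRing Sn'] [Algebra C Sn']
    (φ : Sn →ₐ[C] Sn') (χ : Δ →* Sn) (ψ : X) (i : Fin r) :
    φ (rthkmEv h χ ψ i) = rthkmEv h ((φ : Sn →* Sn').comp χ) ψ i := by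
  simp only [rthkmEv, map_sum, map_mul, AlgHom.commutes, MonoidHom.comp_apply]
  rfl

theorem rthk_m_mat_map (h : RthkmFree C D b) {Sn' : Type*} [CommRing Sn'] [Algebra C Sn']
    (φ : Sn →ₐ[C] Sn') (χ : Δ →* Sn) (𝔱 : AddMonoid.End X) :
    (rthkmMat h χ 𝔱).map φ = rthkmMat h ((φ : Sn →* Sn').comp χ) 𝔱 := by
  ext i' i
  rw [Matrix.map_apply, rthkmMat_apply, rthkmMat_apply, rthk_m_ev_map]

/-- **`χ`-equivariant maps**: an additive map `N : X → Y` into an `Sn`-module which is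
`C`-semilinear and through which `Δ` acts by `χ` is determined by the `N (b i)`. -/
theorem rthk_m_equivariant (h : RthkmFree C D b) (χ : Δ →* Sn) {Y : Type*} [AddCommGroup Y]
    [Module Sn Y] (N : X →+ Y) (hN1 : ∀ (c : C) (x : X), N (c • x) = algebraMap C Sn c • N x)
    (hN2 : ∀ (δ : Δ) (x : X), N (D δ x) = χ δ • N x) (ψ : X) :
    N ψ = ∑ i : Fin r, rthkmEv h χ ψ i • N (b i) := by
  conv_lhs => rw [rthk_m_expand h ψ]
  rw [map_sum, Fintype.sum_prod_type]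
  refine Finset.sum_congr rfl fun i _ => ?_
  rw [rthkmEv, Finset.sum_smul]
  refine Finset.sum_congr rfl fun δ _ => ?_
  rw [hN1, hN2, smul_smul]

/-- **the coinvariants** (`χ = 1`, `Sn = C`): for a `C`-linear `N : X → Y` with `N ∘ D δ = N`
(e.g. the corestriction), `Φ_1 (𝔱)` is the matrix of `𝔱` in the family `N (b i)`:
`N (𝔱 (b i)) = ∑ i', Φ_1 (𝔱) i' i • N (b i')`. -/
theorem rthk_m_coinv (h : RthkmFree C D b) {Y : Type*} [AddCommGroup Y] [Module C Y]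
    (N : X →+ Y) (hN1 : ∀ (c : C) (x : X), N (c • x) = c • N x)
    (hN2 : ∀ (δ : Δ) (x : X), N (D δ x) = N x) (𝔱 : AddMonoid.End X) (i : Fin r) :
    N (𝔱 (b i)) = ∑ i' : Fin r, rthkmMat h (1 : Δ →* C) 𝔱 i' i • N (b i') :=
  rthk_m_equivariant h (1 : Δ →* C) N (fun c x => by rw [hN1]; rfl)
    (fun δ x => by rw [hN2, MonoidHom.one_apply, one_smul]) _

/-- the coinvariants: if moreover `𝔱' ∘ N = N ∘ 𝔱`, then `𝔱' (N (b i)) = ∑ Φ_1 (𝔱) i' i • N (b i')` -/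
theorem rthk_m_coinv' (h : RthkmFree C D b) {Y : Type*} [AddCommGroup Y] [Module C Y]
    (N : X →+ Y) (hN1 : ∀ (c : C) (x : X), N (c • x) = c • N x)
    (hN2 : ∀ (δ : Δ) (x : X), N (D δ x) = N x) (𝔱 : AddMonoid.End X) (𝔱' : AddMonoid.End Y)
    (hcomm : ∀ x, 𝔱' (N x) = N (𝔱 x)) (i : Fin r) :
    𝔱' (N (b i)) = ∑ i' : Fin r, rthkmMat h (1 : Δ →* C) 𝔱 i' i • N (b i') := by
  rw [hcomm]
  exact rthk_m_coinv h N hN1 hN2 𝔱 i

/-- the `χ`-coordinates of a combination of the basis vectors -/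
theorem rthk_m_ev_comb (h : RthkmFree C D b) (χ : Δ →* Sn) (c : Fin r → C) :
    rthkmEv h χ (∑ i : Fin r, c i • b i) = fun i => algebraMap C Sn (c i) := by
  classical
  rw [rthk_m_ev_sum]
  funext i'
  rw [Finset.sum_apply, Finset.sum_eq_single i']
  · rw [rthk_m_ev_smul, rthk_m_ev_b, Pi.smul_apply, Pi.single_eq_same, smul_eq_mul, mul_one]
  · intro i _ hi
    rw [rthk_m_ev_smul, rthk_m_ev_b, Pi.smul_apply, Pi.single_eq_of_ne (Ne.symm hi), smul_zero]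
  · intro hx
    exact absurd (Finset.mem_univ _) hx

variable (D) in
/-- the augmentation subgroup `⟨D δ x − x⟩` -/
def rthkmAug : AddSubgroup X := AddSubgroup.closure {y | ∃ (δ : Δ) (x : X), y = D δ x - x}

/-- the trivial coordinates of `ψ` -/
theorem rthk_m_ev_one (h : RthkmFree C D b) (ψ : X) (i : Fin r) :
    rthkmEv h (1 : Δ →* C) ψ i = ∑ δ : Δ, rthkmCoef h ψ (i, δ) := by
  simp [rthkmEv]

/-- modulo the augmentation subgroup, `ψ` is the combination of the `b i` with the trivial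
coordinates -/
theorem rthk_m_sub_mem_aug (h : RthkmFree C D b) (ψ : X) :
    ψ - ∑ i : Fin r, rthkmEv h (1 : Δ →* C) ψ i • b i ∈ rthkmAug D := by
  have e : ψ - ∑ i : Fin r, rthkmEv h (1 : Δ →* C) ψ i • b i
      = ∑ x : Fin r × Δ, (D x.2 (rthkmCoef h ψ x • b x.1) - rthkmCoef h ψ x • b x.1) := by
    rw [Finset.sum_sub_distrib, Fintype.sum_prod_type (f := fun x : Fin r × Δ =>
      rthkmCoef h ψ x • b x.1)]
    congr 1
    · conv_lhs => rw [rthk_m_expand h ψ]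
      refine Finset.sum_congr rfl fun x _ => ?_
      rw [h.1]
    · refine Finset.sum_congr rfl fun i _ => ?_
      rw [rthk_m_ev_one, Finset.sum_smul]
  rw [e]
  refine AddSubgroup.sum_mem _ fun x _ => ?_
  exact AddSubgroup.subset_closure ⟨x.2, _, rfl⟩

/-- the trivial coordinates vanish on the augmentation subgroup -/
theorem rthk_m_ev_eq_zero_of_mem_aug (h : RthkmFree C D b) {ψ : X} (hψ : ψ ∈ rthkmAug D) :
    rthkmEv h (1 : Δ →* C) ψ = 0 := by
  induction hψ using AddSubgroup.closure_induction with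
  | mem y hy =>
    obtain ⟨δ, x, rfl⟩ := hy
    have e : D δ x = (D δ x - x) + x := by abel
    have h1 := rthk_m_ev_D h (1 : Δ →* C) δ x
    rw [e, rthk_m_ev_add, MonoidHom.one_apply, one_smul] at h1
    exact add_eq_right.mp h1
  | zero => exact rthk_m_ev_zero h _
  | add x y _ _ hx hy => rw [rthk_m_ev_add, hx, hy, add_zero]
  | neg x _ hx =>
    have h1 := rthk_m_ev_add h (1 : Δ →* C) x (-x)
    rw [add_neg_cancel, rthk_m_ev_zero, hx, zero_add] at h1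
    exact h1.symm

/-- **the coinvariants are free on the images of the `b i`**: `ψ ∈ ⟨D δ x − x⟩` iff the trivial
coordinates of `ψ` vanish -/
theorem rthk_m_mem_aug_iff (h : RthkmFree C D b) (ψ : X) :
    ψ ∈ rthkmAug D ↔ rthkmEv h (1 : Δ →* C) ψ = 0 := by
  refine ⟨rthk_m_ev_eq_zero_of_mem_aug h, fun h0 => ?_⟩
  have h1 := rthk_m_sub_mem_aug h ψ
  rw [h0] at h1
  simpa using h1

/-- `Φ_1 (𝔱)` is the matrix of `𝔱` on the coinvariants `X ⧸ ⟨D δ x − x⟩` in the images of the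
`b i` -/
theorem rthk_m_coinv_aug (h : RthkmFree C D b) (𝔱 : AddMonoid.End X) (i : Fin r) :
    𝔱 (b i) - ∑ i' : Fin r, rthkmMat h (1 : Δ →* C) 𝔱 i' i • b i' ∈ rthkmAug D :=
  rthk_m_sub_mem_aug h (𝔱 (b i))

/-- `Φ_χ` on a ring acting on `X` through the commutant -/
noncomputable def rthkmPhiOf (h : RthkmFree C D b) (χ : Δ →* Sn) {𝕋 : Type*} [Ring 𝕋]
    (act : 𝕋 →+* AddMonoid.End X) (hact : ∀ t, act t ∈ rthkmComm C D) :
    𝕋 →+* Matrix (Fin r) (Fin r) Sn :=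
  (rthkmPhi h χ).comp (act.codRestrict (rthkmComm C D) hact)

theorem rthkmPhiOf_apply (h : RthkmFree C D b) (χ : Δ →* Sn) {𝕋 : Type*} [Ring 𝕋]
    (act : 𝕋 →+* AddMonoid.End X) (hact : ∀ t, act t ∈ rthkmComm C D) (t : 𝕋) :
    rthkmPhiOf h χ act hact t = rthkmMat h χ (act t) := rfl

end HkMat

section Base

variable {C : Type*} [CommRing C] {Δ : Type*} [CommGroup Δ] [Fintype Δ] {X : Type*}
  [AddCommGroup X] [Module C X] {D : Δ →* AddMonoid.End X} {r : ℕ} {b : Fin r → X}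
  {C' : Type*} [CommRing C'] {X' : Type*} [AddCommGroup X'] [Module C' X']
  {D' : Δ →* AddMonoid.End X'} {b' : Fin r → X'}
  {Sn : Type*} [CommRing Sn] [Algebra C Sn] {Sn' : Type*} [CommRing Sn'] [Algebra C' Sn']

/-- **base change** of the coefficients: `ρ : X → X'` semilinear over `φ : C → C'`,
`Δ`-equivariant, `ρ (b i) = b' i` -/
theorem rthk_m_coef_base (h : RthkmFree C D b) (h' : RthkmFree C' D' b') (φ : C →+* C')
    (ρ : X →+ X') (hρ1 : ∀ (c : C) (x : X), ρ (c • x) = φ c • ρ x)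
    (hρ2 : ∀ (δ : Δ) (x : X), ρ (D δ x) = D' δ (ρ x)) (hρ3 : ∀ i, ρ (b i) = b' i) (ψ : X) :
    rthkmCoef h' (ρ ψ) = fun x => φ (rthkmCoef h ψ x) := by
  apply rthk_m_coef_eq
  conv_lhs => rw [rthk_m_expand h ψ]
  rw [map_sum]
  refine Finset.sum_congr rfl fun x _ => ?_
  rw [hρ1, hρ2, hρ3]

theorem rthk_m_ev_base (h : RthkmFree C D b) (h' : RthkmFree C' D' b') (φ : C →+* C')
    (ρ : X →+ X') (hρ1 : ∀ (c : C) (x : X), ρ (c • x) = φ c • ρ x)
    (hρ2 : ∀ (δ : Δ) (x : X), ρ (D δ x) = D' δ (ρ x)) (hρ3 : ∀ i, ρ (b i) = b' i)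
    (g : Sn →+* Sn') (hg : ∀ c : C, g (algebraMap C Sn c) = algebraMap C' Sn' (φ c))
    (χ : Δ →* Sn) (χ' : Δ →* Sn') (hχ : ∀ δ, χ' δ = g (χ δ)) (ψ : X) (i : Fin r) :
    rthkmEv h' χ' (ρ ψ) i = g (rthkmEv h χ ψ i) := by
  simp only [rthkmEv, rthk_m_coef_base h h' φ ρ hρ1 hρ2 hρ3, map_sum, map_mul, hg, hχ]

/-- **base change** of the matrices -/
theorem rthk_m_mat_base (h : RthkmFree C D b) (h' : RthkmFree C' D' b') (φ : C →+* C')
    (ρ : X →+ X') (hρ1 : ∀ (c : C) (x : X), ρ (c • x) = φ c • ρ x)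
    (hρ2 : ∀ (δ : Δ) (x : X), ρ (D δ x) = D' δ (ρ x)) (hρ3 : ∀ i, ρ (b i) = b' i)
    (g : Sn →+* Sn') (hg : ∀ c : C, g (algebraMap C Sn c) = algebraMap C' Sn' (φ c))
    (χ : Δ →* Sn) (χ' : Δ →* Sn') (hχ : ∀ δ, χ' δ = g (χ δ))
    (𝔱 : AddMonoid.End X) (𝔱' : AddMonoid.End X') (h𝔱 : ∀ x, 𝔱' (ρ x) = ρ (𝔱 x)) :
    rthkmMat h' χ' 𝔱' = (rthkmMat h χ 𝔱).map g := by
  ext i' i
  rw [Matrix.map_apply, rthkmMat_apply, rthkmMat_apply, ← hρ3, h𝔱,
    rthk_m_ev_base h h' φ ρ hρ1 hρ2 hρ3 g hg χ χ' hχ]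

end Base

end Fermat.Agent.RT


end ZBRT_027_0

/-! ### bundled: `Fermat.Agent.RT.Hecke.Conc` -/
section ZBRT_027_1

/-!
# K-machine, HECKE-asm, HK-CONC (skeleton): from a free `C[Δ]`-module with Hecke action to the
module side `HkLevelW`

`HkConc` : the module side in its NATURAL form.  `C` the coefficient ring (`𝒪 ⧸ 𝔪 ^ n`), `Δ` the
diamond group (a finite commutative `p`-group), `X` the `Θ`-part of `Hom(Γ_{H'}(L), C)` with
`D : Δ →* End X`, free over `C[Δ]` with basis `b` (`RthkmFree`, K5 `stmtFreeFin`),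
`act : 𝕋 →+* End X` the Hecke action, `ψ1, ψχ : Δ →* S ⧸ 𝔪 ^ n` the two characters
(`[δ_q]^e ↦ u_q`; `Δ_T → 1` resp. `ζ`).  Fields:

* `faith`, `nil`, `resid` : as operators on `X` (HK-FAITH, K5-LOC);
* `cong` : `ψ1 ≡ ψχ` modulo `λ`;  `aug` : `ψ1 ≡ 1` modulo `𝔞`;
* `trT`, `trQ` : K6: the exact representative `x` of `σ` acts as `D δ + D δ⁻¹`
  (`x = δ_c^e + δ_c^{−e}`, `δ` = the class of `c^e`), with the values of `ψ1, ψχ` on `δ`;
* `base` : the matrix of `Tr ℓ` on the coinvariants (`χ = 1`) is the base matrix `a0 ℓ`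
  (`rthk_m_coinv'` + K5-BASE/TWIter).

`rthk_conc : HkConc … → HkLevelW … (rthkcPhi … ψ1) (rthkcPhi … ψχ)`.
-/

set_option autoImplicit false
set_option linter.unusedSectionVars false

namespace Fermat.Agent.RT

open IsLocalRing Fermat.Agent.ES Fermat.Agent.S30 Fermat.Agent.W1 Fermat.Agent.TW
open Fermat.Agent.RT.Prod

section Conc

variable {O : Type} [CommRing O] [IsLocalRing O]

/-- **The module side in its natural form.** -/
structure HkConc (p : ℕ) [Fact p.Prime] (lam : O) (ρbar : ResidualGaloisRep (ResidueField O))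
    (Sbad : Finset ℕ) {ι : Type} (σ : ι → GQ) (tχ : ι → O) (m h d n : ℕ)
    (a0 : ℕ → Matrix (Fin d) (Fin d) O)
    (L : ℕ) {𝕋 : Type} [CommRing 𝕋] (J : Type) [AddCommGroup J] [Module 𝕋 J]
    [DistribMulAction GQ J] (Tr : ℕ → 𝕋)
    (C : Type) [CommRing C] [Algebra O C] [Algebra C (RthkSn O m n)]
    [IsScalarTower O C (RthkSn O m n)]
    {Δ : Type} [CommGroup Δ] [Fintype Δ] {X : Type} [AddCommGroup X] [Module C X]
    (D : Δ →* AddMonoid.End X) (b : Fin d → X) (act : 𝕋 →+* AddMonoid.End X)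
    (ψ1 ψχ : Δ →* RthkSn O m n) : Prop where
  pkg : Rtk7bPkg p L J Tr
  primes : ∀ q : ℕ, q.Prime → q ∉ Sbad → ¬ q ∣ L * p
  model : ∀ k : ℕ, ∃ (X : Type) (_ : AddCommGroup X) (_ : Finite X) (act : GQ → X → X),
      (∀ s x x', act s (x + x') = act s x + act s x') ∧
      (∀ s s' x, act (s * s') x = act s (act s' x)) ∧
      HasFiniteFlatModel (GaloisRep.ratLocalizedAt p) X act ∧
      ∀ e : GQ →₀ ℤ, (∀ x : X, (e.sum fun g z => z • act g x) = 0) →
        ∀ x : J, p ^ k • x = 0 → (e.sum fun g z => z • g • x) = 0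
  /-- `X` is free over `C[Δ]` with basis `b` -/
  free : RthkmFree C D b
  /-- the Hecke operators commute with `C` and `Δ` -/
  act_comm : ∀ x, act x ∈ rthkmComm C D
  faith : ∃ n₀ : ℕ, ∀ x ∈ rthksE p J (𝕋 := 𝕋), (∀ y : J, p ^ n₀ • y = 0 → x • y = 0) →
    act x = 0
  nil : ∀ x ∈ rthksE p J (𝕋 := 𝕋), ∃ c : O,
    IsNilpotent (act x - Module.toAddMonoidEnd C X (algebraMap O C c))
  resid : ∀ ℓ : ℕ, ℓ.Prime → ¬ ℓ ∣ L * p →
    ∀ P : ValuationSubring (AlgebraicClosure ℚ), P.LiesOverPrime ℓ →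
      ∀ τ : GQ, P.IsFrobeniusAt τ ℓ → ∃ c : O,
        residue O c = LinearMap.trace (ResidueField O) ρbar.V (ρbar.ρ τ) ∧
        IsNilpotent (act (Tr ℓ) - Module.toAddMonoidEnd C X (algebraMap O C c))
  /-- `ψ1 ≡ ψχ` modulo `λ` -/
  cong : ∀ δ : Δ,
    Ideal.Quotient.factor (le_sup_right : maximalIdeal (RttwS O m) ^ n ≤
        rttwLam m lam ⊔ maximalIdeal (RttwS O m) ^ n) (ψ1 δ) =
      Ideal.Quotient.factor (le_sup_right : maximalIdeal (RttwS O m) ^ n ≤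
        rttwLam m lam ⊔ maximalIdeal (RttwS O m) ^ n) (ψχ δ)
  /-- `ψ1 ≡ 1` modulo `𝔞` -/
  aug : ∀ δ : Δ,
    Ideal.Quotient.factor (le_sup_right : maximalIdeal (RttwS O m) ^ n ≤
        rttwAug O m ⊔ maximalIdeal (RttwS O m) ^ n) (ψ1 δ) = 1
  /-- K6 at the trivial primes -/
  trT : ∀ i, ∃ (x : 𝕋) (δ : Δ),
    (∀ k, Rtk7bApprox p J (fun n g => ((cycE p n g : ℕ) : 𝕋)) k (σ i) x) ∧
    act x = D δ + D δ⁻¹ ∧ ψ1 δ = 1 ∧
    ψχ δ + ψχ δ⁻¹ = algebraMap O (RthkSn O m n) (2 * tχ i)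
  /-- K6 at the Taylor–Wiles primes -/
  trQ : ∀ j : Fin m, (j : ℕ) < h → ∃ (g : GQ) (x : 𝕋) (δ : Δ),
    (∀ k, Rtk7bApprox p J (fun n g => ((cycE p n g : ℕ) : 𝕋)) k g x) ∧
    act x = D δ + D δ⁻¹ ∧
    ψ1 δ - ψ1 δ⁻¹ = Ideal.Quotient.mk _ (MvPowerSeries.X j) ∧
    ψχ δ - ψχ δ⁻¹ = Ideal.Quotient.mk _ (MvPowerSeries.X j)
  /-- the base: the matrix of `Tr ℓ` on the coinvariants -/
  base : ∀ ℓ : ℕ, ℓ.Prime → ¬ ℓ ∣ L * p →
    rthkmMat free (1 : Δ →* C) (act (Tr ℓ)) = (a0 ℓ).map (algebraMap O C)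

variable {d m n : ℕ} {𝕋 : Type} [CommRing 𝕋]
  {C : Type} [CommRing C] [Algebra O C] [Algebra C (RthkSn O m n)]
  [IsScalarTower O C (RthkSn O m n)]
  {Δ : Type} [CommGroup Δ] [Fintype Δ] {X : Type} [AddCommGroup X] [Module C X]
  {D : Δ →* AddMonoid.End X} {b : Fin d → X}

/-- the matrices of the Hecke operators in the `χ`-coordinates -/
noncomputable def rthkcPhi (hfree : RthkmFree C D b) (act : 𝕋 →+* AddMonoid.End X)
    (hact : ∀ x, act x ∈ rthkmComm C D) (χ : Δ →* RthkSn O m n) :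
    𝕋 →+* Matrix (Fin d) (Fin d) (RthkSn O m n) :=
  (rthkmPhi hfree χ).comp (act.codRestrict (rthkmComm C D) hact)

theorem rthkcPhi_apply (hfree : RthkmFree C D b) (act : 𝕋 →+* AddMonoid.End X)
    (hact : ∀ x, act x ∈ rthkmComm C D) (χ : Δ →* RthkSn O m n) (x : 𝕋) :
    rthkcPhi hfree act hact χ x = rthkmMat hfree χ (act x) := rfl

/-- scalars of `𝒪` -/
theorem rthkc_scalar (hfree : RthkmFree C D b) (χ : Δ →* RthkSn O m n) (c : O) :
    rthkmMat hfree χ (Module.toAddMonoidEnd C X (algebraMap O C c))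
      = algebraMap O (Matrix (Fin d) (Fin d) (RthkSn O m n)) c := by
  rw [rthk_m_mat_scalar, ← IsScalarTower.algebraMap_apply]
  ext i j
  rw [Matrix.smul_apply, Matrix.algebraMap_matrix_apply, Matrix.one_apply]
  split_ifs <;> simp

/-- scalars of `S ⧸ 𝔪 ^ n` -/
theorem rthkc_smul_one (s : RthkSn O m n) :
    s • (1 : Matrix (Fin d) (Fin d) (RthkSn O m n))
      = algebraMap (RthkSn O m n) (Matrix (Fin d) (Fin d) (RthkSn O m n)) s := by
  ext i j
  rw [Matrix.smul_apply, Matrix.algebraMap_matrix_apply, Matrix.one_apply]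
  split_ifs <;> simp

/-- nilpotency passes to the matrices -/
theorem rthkc_nil (hfree : RthkmFree C D b) (act : 𝕋 →+* AddMonoid.End X)
    (hact : ∀ x, act x ∈ rthkmComm C D) (χ : Δ →* RthkSn O m n) (x : 𝕋) (c : O)
    (hnil : IsNilpotent (act x - Module.toAddMonoidEnd C X (algebraMap O C c))) :
    IsNilpotent (rthkcPhi hfree act hact χ x
      - algebraMap O (Matrix (Fin d) (Fin d) (RthkSn O m n)) c) := by
  let t : rthkmComm C D :=
    ⟨act x, hact x⟩ - ⟨Module.toAddMonoidEnd C X (algebraMap O C c),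
      rthk_m_scalar_mem hfree.1 _⟩
  have ht : IsNilpotent t := by
    rw [← IsNilpotent.map_iff (f := (rthkmComm C D).subtype) Subtype.val_injective]
    exact hnil
  have h1 := ht.map (rthkmPhi hfree χ)
  have e : rthkmPhi hfree χ t = rthkcPhi hfree act hact χ x
      - algebraMap O (Matrix (Fin d) (Fin d) (RthkSn O m n)) c := by
    rw [map_sub, rthkmPhi_apply, rthkmPhi_apply, rthkc_scalar]
    rfl
  rw [e] at h1
  exact h1

/-- the operator `D δ + D δ⁻¹` -/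
theorem rthkc_chi (hfree : RthkmFree C D b) (act : 𝕋 →+* AddMonoid.End X)
    (hact : ∀ x, act x ∈ rthkmComm C D) (χ : Δ →* RthkSn O m n) (x : 𝕋) (δ : Δ)
    (hx : act x = D δ + D δ⁻¹) :
    rthkcPhi hfree act hact χ x
      = algebraMap (RthkSn O m n) (Matrix (Fin d) (Fin d) (RthkSn O m n)) (χ δ + χ δ⁻¹) := by
  rw [rthkcPhi_apply, hx, rthkmMat_add, rthk_m_mat_D, rthk_m_mat_D, ← add_smul, rthkc_smul_one]

/-- **HK-CONC, abstract half**: the natural form gives the module side. -/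
theorem rthk_conc {p : ℕ} [Fact p.Prime] {lam : O}
    {ρbar : ResidualGaloisRep (ResidueField O)} {Sbad : Finset ℕ} {ι : Type} {σ : ι → GQ}
    {tχ : ι → O} {h : ℕ} {a0 : ℕ → Matrix (Fin d) (Fin d) O} {L : ℕ}
    {J : Type} [AddCommGroup J] [Module 𝕋 J] [DistribMulAction GQ J] {Tr : ℕ → 𝕋}
    {act : 𝕋 →+* AddMonoid.End X} {ψ1 ψχ : Δ →* RthkSn O m n}
    (H : HkConc p lam ρbar Sbad σ tχ m h d n a0 L J Tr C D b act ψ1 ψχ) :
    HkLevelW p lam ρbar Sbad σ tχ m h d n a0 L J Tr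
      (rthkcPhi H.free act H.act_comm ψ1) (rthkcPhi H.free act H.act_comm ψχ) where
  pkg := H.pkg
  primes := H.primes
  model := H.model
  faith := by
    obtain ⟨n₀, hn₀⟩ := H.faith
    refine ⟨n₀, fun x hx hkill => ?_⟩
    have h0 := hn₀ x hx hkill
    constructor
    · rw [rthkcPhi_apply, h0]; exact rthkmMat_zero _ _
    · rw [rthkcPhi_apply, h0]; exact rthkmMat_zero _ _
  nil x hx := by
    obtain ⟨c, hc⟩ := H.nil x hx
    exact ⟨c, rthkc_nil H.free act H.act_comm ψ1 x c hc,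
      rthkc_nil H.free act H.act_comm ψχ x c hc⟩
  resid ℓ hℓ hℓL P hP τ hτ := by
    obtain ⟨c, hc1, hc2⟩ := H.resid ℓ hℓ hℓL P hP τ hτ
    exact ⟨c, hc1, rthkc_nil H.free act H.act_comm ψ1 (Tr ℓ) c hc2⟩
  cong x _ := by
    ext i' i
    rw [Matrix.map_apply, Matrix.map_apply, ← sub_eq_zero, ← map_sub]
    have hI := rthk_m_mat_congr H.free
      (RingHom.ker (Ideal.Quotient.factor (le_sup_right : maximalIdeal (RttwS O m) ^ n ≤
        rttwLam m lam ⊔ maximalIdeal (RttwS O m) ^ n))) ψ1 ψχ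
      (fun δ => by rw [RingHom.mem_ker, map_sub, sub_eq_zero]; exact H.cong δ) (act x) i' i
    exact hI
  trT i := by
    obtain ⟨x, δ, hx, hact, h1, h2⟩ := H.trT i
    refine ⟨x, hx, ?_, ?_⟩
    · rw [rthkc_chi H.free act H.act_comm ψ1 x δ hact]
      have h1' : ψ1 δ⁻¹ = 1 := by
        have := map_mul ψ1 δ δ⁻¹
        rw [mul_inv_cancel, map_one, h1, one_mul] at this
        exact this.symm
      rw [h1, h1', one_add_one_eq_two, map_ofNat]
    · rw [rthkc_chi H.free act H.act_comm ψχ x δ hact, h2]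
      exact (IsScalarTower.algebraMap_apply O (RthkSn O m n)
        (Matrix (Fin d) (Fin d) (RthkSn O m n)) _).symm
  trQ j hj := by
    obtain ⟨g, x, δ, hx, hact, h1, h2⟩ := H.trQ j hj
    have key : ∀ χ : Δ →* RthkSn O m n,
        χ δ - χ δ⁻¹ = Ideal.Quotient.mk _ (MvPowerSeries.X j) →
        rthkcPhi H.free act H.act_comm χ x ^ 2 - 4
          = algebraMap (RthkSn O m n) (Matrix (Fin d) (Fin d) (RthkSn O m n))
            (Ideal.Quotient.mk _ (MvPowerSeries.X j) ^ 2) := by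
      intro χ hχ
      have huv : χ δ * χ δ⁻¹ = 1 := by rw [← map_mul, mul_inv_cancel, map_one]
      rw [rthkc_chi H.free act H.act_comm χ x δ hact, ← map_pow, ← hχ]
      have e4 : (4 : Matrix (Fin d) (Fin d) (RthkSn O m n))
          = algebraMap (RthkSn O m n) (Matrix (Fin d) (Fin d) (RthkSn O m n)) 4 := by
        rw [map_ofNat]
      rw [e4, ← map_sub]
      congr 1
      linear_combination 4 * huv
    exact ⟨g, x, hx, key ψ1 h1, key ψχ h2⟩
  base ℓ hℓ hℓL := by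
    have hb := H.base ℓ hℓ hℓL
    ext i' i
    rw [Matrix.map_apply, rthkcPhi_apply, rthkmMat_apply]
    have hb' := congrFun (congrFun hb i') i
    rw [rthkmMat_apply, Matrix.map_apply, rthk_m_ev_one] at hb'
    simp only [rthkmEv, map_sum, map_mul, H.aug, mul_one]
    rw [← map_sum, ← map_sum, hb', ← IsScalarTower.algebraMap_apply]
    rfl

end Conc

end Fermat.Agent.RT


end ZBRT_027_1

/-! ### bundled: `Fermat.Agent.RT.Hecke.ConcComm` -/
section ZBRT_027_2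

/-!
# K-machine, HK-CONC, field `act_comm` (helper32)

The Hecke–diamond polynomials `t : HDAlg M` act on `Hom(Γ_{H'}(L), A)` through
`ES1.es1infHomEval`.  This action commutes with the scalars of the coefficient module and with the
diamond action `K5.diamU` of `(ℤ/M)ˣ`; hence every action `act` on the `Θ`-part
`X = rthkdX 𝔲 ℓ₀ H' ν` that is the restriction of `es1infHomEval` lies in the commutant
`rthkmComm C D` of `C = 𝒪 ⧸ 𝔪 ^ ν` and `D = rthkdD 𝔲 ℓ₀ H' ν` (the field `act_comm` of `HkConc`).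

* `rthkcc_diamU_eq` : `diamU u = es1infHomEval (δ_{u⁻¹})`;
* `rthkcc_eval_diamU` : `es1infHomEval t ∘ diamU u = diamU u ∘ es1infHomEval t`;
* `rthkcc_eval_smul` : `es1infHomEval t (c • φ) = c • es1infHomEval t φ`;
* `rthkcc_act_comm` : `act t ∈ rthkmComm C D` for every `act` with
  `↑(act t x) = es1infHomEval (ι t) ↑x`
  (the concrete `act` is `rthkdAct`, `RT/Hecke/ConcAct.lean`).
-/

set_option autoImplicit false
set_option linter.unusedSectionVars false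
set_option linter.style.haveILetI false

noncomputable section

namespace Fermat.Agent.RT

open IsLocalRing Fermat.Agent.RT.K5 Fermat.Agent.ES1
open CongruenceSubgroup Matrix
open scoped MatrixGroups

section ambient

variable {L M : ℕ} [NeZero L] [NeZero M] [hML : Fact (M ∣ L)] (H' : Subgroup (ZMod M)ˣ)
  (p : ℕ)

/-- the diamond `diamU u` is the operator of the variable `δ_{u⁻¹}` -/
theorem rthkcc_diamU_eq {A : Type} [AddCommGroup A] (u : (ZMod M)ˣ)
    (φ : HomS (gammaH L M H') A) :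
    diamU L M H' A u φ = es1infHomEval L M H' hML.out p A (es1top_dGen M u⁻¹) φ := by
  rw [k5act_diamU_apply, es1inf_diamS_eq]
  refine (es1infHomEval_dGen hML.out u⁻¹ φ (k5act_rep L M u)⁻¹
    (inv_mem (k5act_rep_memL L M u)) (inv_mem (k5act_rep_memM L M u)) ?_).symm
  have h1 : (⟨(k5act_rep L M u)⁻¹, inv_mem (k5act_rep_memM L M u)⟩ : Gamma0 M)
      = (⟨k5act_rep L M u, k5act_rep_memM L M u⟩ : Gamma0 M)⁻¹ := rfl
  rw [h1, map_inv, k5act_rep_diam]

/-- **the Hecke–diamond polynomials commute with the diamond action** -/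
theorem rthkcc_eval_diamU {A : Type} [AddCommGroup A] (t : HDAlg M) (u : (ZMod M)ˣ)
    (φ : HomS (gammaH L M H') A) :
    es1infHomEval L M H' hML.out p A t (diamU L M H' A u φ)
      = diamU L M H' A u (es1infHomEval L M H' hML.out p A t φ) := by
  rw [rthkcc_diamU_eq H' p u φ, rthkcc_diamU_eq H' p u]
  rw [← Module.End.mul_apply, ← Module.End.mul_apply, ← map_mul, ← map_mul, mul_comm]

/-- **the Hecke–diamond polynomials are linear over the coefficients** -/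
theorem rthkcc_eval_smul {C : Type} [CommRing C] {A : Type} [AddCommGroup A] [Module C A]
    (t : HDAlg M) (c : C) (φ : HomS (gammaH L M H') A) :
    es1infHomEval L M H' hML.out p A t (c • φ)
      = c • es1infHomEval L M H' hML.out p A t φ := by
  have h := es1infHomEval_comp hML.out (H := H') (p := p)
    (DistribSMul.toAddMonoidHom A c) t φ
  exact h

end ambient

section restricted

variable {O : Type} [CommRing O] [IsLocalRing O] {L M : ℕ} [NeZero L] [NeZero M]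
  [hML : Fact (M ∣ L)] (𝔲 : NatFam O L M) (ℓ₀ : ℕ) [NeZero ℓ₀] (H' : Subgroup (ZMod M)ˣ)
  (ν : ℕ) (p : ℕ)

/-- **HK-CONC, field `act_comm`**: an action on `X` which is the restriction of the action of
the Hecke–diamond polynomials commutes with `C = 𝒪 ⧸ 𝔪 ^ ν` and with the diamonds `D`. -/
theorem rthkcc_act_comm {𝕋 : Type} [CommRing 𝕋] (ι : 𝕋 → HDAlg M)
    (act : 𝕋 →+* AddMonoid.End (rthkdX 𝔲 ℓ₀ H' ν))
    (hact : ∀ (t : 𝕋) (x : rthkdX 𝔲 ℓ₀ H' ν),
      ((act t x : rthkdX 𝔲 ℓ₀ H' ν) : HomS (gammaH L M H') (RthkdC O ν))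
        = es1infHomEval L M H' hML.out p (RthkdC O ν) (ι t)
            (x : HomS (gammaH L M H') (RthkdC O ν)))
    (t : 𝕋) : act t ∈ rthkmComm (Δ := RthkdDelta M H') (RthkdC O ν) (rthkdD 𝔲 ℓ₀ H' ν) := by
  refine ⟨fun c x => Subtype.ext ?_, fun δ x => Subtype.ext ?_⟩
  · rw [hact, Submodule.coe_smul, Submodule.coe_smul, hact]
    exact rthkcc_eval_smul H' p (ι t) c _
  · obtain ⟨u, rfl⟩ := QuotientGroup.mk_surjective δ
    rw [hact, rthkdD_mk_coe, rthkdD_mk_coe, hact]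
    exact rthkcc_eval_diamU H' p (ι t) u _

end restricted

end Fermat.Agent.RT

end


end ZBRT_027_2

/-! ### bundled: `Fermat.Agent.RT.Hecke.ConcNil` -/
section ZBRT_027_3

/-!
# K-machine, HECKE-asm, HK-CONC: the field `nil` is FORMAL (helper15)

The field `nil` of `HkConc` (`RT/Hecke/Conc.lean`) follows from the fields `pkg`, `primes`,
`faith`, `resid` and `act_comm`:

* by K7b-inst (`rtk7i_exists_approx`, weak Chebotarev + Lucas) every `g : G_ℚ` has at the level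
  `n₀` of `faith` a representative `h` in the subring generated by the `Tr ℓ` (`ℓ ∤ L p`);
* if `x` has the exact representative `g`, then `x − h` kills `J[p^n₀]`, so `act x = act h`;
* `act (Tr ℓ) − c_ℓ` is nilpotent (`resid`), and "scalar + nilpotent" is stable under the ring
  operations (the operators commute).

Main results: `rthkn_closure` (generic), `rthkn_nil` (the field `nil`), `rthkn_nil_level`
(the same for matrices, the shape of `HkLevelW.nil`).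
-/

set_option autoImplicit false
set_option linter.unusedSectionVars false

namespace Fermat.Agent.RT

open IsLocalRing Fermat.Agent.ES Fermat.Agent.S30 Fermat.Agent.W1 Fermat.Agent.TW
open Fermat.Agent.RT.Prod

section generic

variable {O 𝕋 R : Type*} [CommRing O] [CommRing 𝕋] [Ring R]

/-- shifted elements commute -/
theorem rthkn_commute_shift (Φ : 𝕋 →+* R) (s : O →+* R) (hs : ∀ c x, Commute (s c) (Φ x))
    (x y : 𝕋) (c d : O) : Commute (Φ x - s c) (Φ y - s d) := by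
  have h1 : Commute (Φ x) (Φ y) := by
    show Φ x * Φ y = Φ y * Φ x
    rw [← map_mul, ← map_mul, mul_comm]
  have h2 : Commute (Φ x) (s d) := (hs d x).symm
  have h3 : Commute (s c) (Φ y) := hs c y
  have h4 : Commute (s c) (s d) := by
    show s c * s d = s d * s c
    rw [← map_mul, ← map_mul, mul_comm]
  exact (h1.sub_right h2).sub_left (h3.sub_right h4)

/-- **"scalar + nilpotent" is stable under the ring operations** -/
theorem rthkn_closure (Φ : 𝕋 →+* R) (s : O →+* R) (hs : ∀ c x, Commute (s c) (Φ x))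
    (G : Set 𝕋) (h : ∀ g ∈ G, ∃ c : O, IsNilpotent (Φ g - s c)) (x : 𝕋)
    (hx : x ∈ Subring.closure G) : ∃ c : O, IsNilpotent (Φ x - s c) := by
  induction hx using Subring.closure_induction with
  | mem g hg => exact h g hg
  | zero => exact ⟨0, by rw [map_zero, map_zero, sub_self]; exact IsNilpotent.zero⟩
  | one => exact ⟨1, by rw [map_one, map_one, sub_self]; exact IsNilpotent.zero⟩
  | add x y _ _ hx hy =>
    obtain ⟨c, hc⟩ := hx
    obtain ⟨d, hd⟩ := hy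
    refine ⟨c + d, ?_⟩
    have e : Φ (x + y) - s (c + d) = (Φ x - s c) + (Φ y - s d) := by
      rw [map_add, map_add]; abel
    rw [e]
    exact (rthkn_commute_shift Φ s hs x y c d).isNilpotent_add hc hd
  | neg x _ hx =>
    obtain ⟨c, hc⟩ := hx
    refine ⟨-c, ?_⟩
    have e : Φ (-x) - s (-c) = -(Φ x - s c) := by
      rw [map_neg, map_neg]; abel
    rw [e]
    exact hc.neg
  | mul x y _ _ hx hy =>
    obtain ⟨c, hc⟩ := hx
    obtain ⟨d, hd⟩ := hy
    refine ⟨c * d, ?_⟩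
    have e : Φ (x * y) - s (c * d) = (Φ x - s c) * Φ y + s c * (Φ y - s d) := by
      rw [map_mul, map_mul, sub_mul, mul_sub]; abel
    rw [e]
    have hcy : Commute (Φ x - s c) (Φ y) := by
      have := rthkn_commute_shift Φ s hs x y c (0 : O)
      rwa [map_zero, sub_zero] at this
    have hcd : Commute (s c) (Φ y - s d) := by
      have := rthkn_commute_shift Φ s hs 0 y (-c) d
      rwa [map_zero, map_neg, zero_sub, neg_neg] at this
    have hcomm : Commute ((Φ x - s c) * Φ y) (s c * (Φ y - s d)) := by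
      have h1 : Commute (Φ x - s c) (Φ y - s d) := rthkn_commute_shift Φ s hs x y c d
      have h2 : Commute (Φ y) (Φ y - s d) := by
        have := rthkn_commute_shift Φ s hs y y (0 : O) d
        rwa [map_zero, sub_zero] at this
      have h3 : Commute (Φ x - s c) (s c) := by
        have := rthkn_commute_shift Φ s hs x 0 c (-c)
        rwa [map_zero, map_neg, zero_sub, neg_neg] at this
      have h4 : Commute (Φ y) (s c) := (hs c y).symm
      exact (h3.mul_right h1).mul_left (h4.mul_right h2)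
    exact hcomm.isNilpotent_add (hcy.isNilpotent_mul_right hc) (hcd.isNilpotent_mul_left hd)

end generic

section nil

variable {O : Type} [CommRing O]
  {p L : ℕ} [Fact p.Prime] {𝕋 : Type} [CommRing 𝕋] {J : Type} [AddCommGroup J]
  [Module 𝕋 J] [DistribMulAction GQ J] {Tr : ℕ → 𝕋}

/-- the subring generated by the good `Tr ℓ` -/
def rthknB (L p : ℕ) (Tr : ℕ → 𝕋) : Subring 𝕋 :=
  Subring.closure {x : 𝕋 | ∃ ℓ : ℕ, ℓ.Prime ∧ ¬ ℓ ∣ L * p ∧ x = Tr ℓ}

/-- the good `Tr ℓ` generate a subring of the ring of exact representatives -/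
theorem rthkn_B_le (hP : Rtk7bPkg p L J Tr) : rthknB L p Tr ≤ rthksE p J := by
  rw [rthknB, Subring.closure_le]
  rintro x ⟨ℓ, hℓ, hℓL, rfl⟩
  exact rthks_Tr_mem hP hℓ hℓL

/-- **every element of the ring of exact representatives agrees on `J[pⁿ]` with an element of
the subring generated by the good `Tr ℓ`** (K7b-inst) -/
theorem rthkn_exists_rep (hP : Rtk7bPkg p L J Tr) (Sbad : Finset ℕ)
    (hgood : ∀ q : ℕ, q.Prime → q ∉ Sbad → ¬ q ∣ L * p) (n : ℕ) (x : 𝕋)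
    (hx : x ∈ rthksE p J) :
    ∃ h ∈ rthknB L p Tr, ∀ y : J, p ^ n • y = 0 → x • y = h • y := by
  induction hx using Subring.closure_induction with
  | mem x hx =>
    obtain ⟨g, hg⟩ := hx
    obtain ⟨h, hB, hh⟩ := rtk7i_exists_approx Cheb.weakChebotarev_holds hP Sbad hgood
      (rthknB L p Tr)
      (fun ℓ hℓ hℓS => Subring.subset_closure ⟨ℓ, hℓ, hgood ℓ hℓ hℓS, rfl⟩) n g
    exact ⟨h, hB, fun y hy => (hg n y hy).symm.trans (hh y hy)⟩
  | zero => exact ⟨0, Subring.zero_mem _, fun y _ => rfl⟩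
  | one => exact ⟨1, Subring.one_mem _, fun y _ => rfl⟩
  | add x x' _ _ ih ih' =>
    obtain ⟨h, hB, hh⟩ := ih
    obtain ⟨h', hB', hh'⟩ := ih'
    exact ⟨h + h', Subring.add_mem _ hB hB', fun y hy => by
      rw [add_smul, add_smul, hh y hy, hh' y hy]⟩
  | neg x _ ih =>
    obtain ⟨h, hB, hh⟩ := ih
    exact ⟨-h, Subring.neg_mem _ hB, fun y hy => by rw [neg_smul, neg_smul, hh y hy]⟩
  | mul x x' _ _ ih ih' =>
    obtain ⟨h, hB, hh⟩ := ih
    obtain ⟨h', hB', hh'⟩ := ih'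
    refine ⟨h * h', Subring.mul_mem _ hB hB', fun y hy => ?_⟩
    rw [mul_smul, mul_smul, hh' y hy, hh (h' • y) (rtk7b_tors_hecke n h' hy)]

variable {C : Type} [CommRing C] [Algebra O C] {X : Type} [AddCommGroup X] [Module C X]

/-- the scalars of `𝒪` as endomorphisms of `X` -/
noncomputable def rthknScal (O C X : Type) [CommRing O] [CommRing C] [Algebra O C]
    [AddCommGroup X] [Module C X] : O →+* AddMonoid.End X :=
  (Module.toAddMonoidEnd C X).comp (algebraMap O C)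

theorem rthknScal_apply (c : O) :
    rthknScal O C X c = Module.toAddMonoidEnd C X (algebraMap O C c) := rfl

/-- **HK-CONC, the field `nil`** from `pkg`, `primes`, `faith`, the nilpotency part of `resid`
and the `C`-linearity of the Hecke operators. -/
theorem rthkn_nil (hP : Rtk7bPkg p L J Tr) (Sbad : Finset ℕ)
    (hgood : ∀ q : ℕ, q.Prime → q ∉ Sbad → ¬ q ∣ L * p)
    (act : 𝕋 →+* AddMonoid.End X)
    (hlin : ∀ (x : 𝕋) (c : C) (ψ : X), act x (c • ψ) = c • act x ψ)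
    (hfaith : ∃ n₀ : ℕ, ∀ x ∈ rthksE p J (𝕋 := 𝕋), (∀ y : J, p ^ n₀ • y = 0 → x • y = 0) →
      act x = 0)
    (hres : ∀ ℓ : ℕ, ℓ.Prime → ¬ ℓ ∣ L * p → ∃ c : O,
      IsNilpotent (act (Tr ℓ) - Module.toAddMonoidEnd C X (algebraMap O C c)))
    (x : 𝕋) (hx : x ∈ rthksE p J) :
    ∃ c : O, IsNilpotent (act x - Module.toAddMonoidEnd C X (algebraMap O C c)) := by
  have hs : ∀ (c : O) (x : 𝕋), Commute (rthknScal O C X c) (act x) := by
    intro c x
    refine AddMonoidHom.ext fun ψ => ?_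
    show algebraMap O C c • act x ψ = act x (algebraMap O C c • ψ)
    rw [hlin]
  obtain ⟨n₀, hn₀⟩ := hfaith
  obtain ⟨h, hB, hh⟩ := rthkn_exists_rep hP Sbad hgood n₀ x hx
  have e : act x = act h := by
    have h0 := hn₀ (x - h) (Subring.sub_mem _ hx (rthkn_B_le hP hB))
      (fun y hy => by rw [sub_smul, hh y hy, sub_self])
    rw [map_sub, sub_eq_zero] at h0
    exact h0
  rw [e]
  exact rthkn_closure act (rthknScal O C X) hs _
    (fun g hg => by
      obtain ⟨ℓ, hℓ, hℓL, rfl⟩ := hg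
      exact hres ℓ hℓ hℓL) h hB

end nil

section conc

variable {O : Type} [CommRing O] [IsLocalRing O]

/-- **HK-CONC, the field `nil`** in the shape of `HkConc.nil`, from the other fields. -/
theorem rthkn_nil_conc {p : ℕ} [Fact p.Prime] {ρbar : ResidualGaloisRep (ResidueField O)}
    {Sbad : Finset ℕ} {L : ℕ} {𝕋 : Type} [CommRing 𝕋] {J : Type} [AddCommGroup J] [Module 𝕋 J]
    [DistribMulAction GQ J] {Tr : ℕ → 𝕋}
    {C : Type} [CommRing C] [Algebra O C]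
    {Δ : Type} [CommGroup Δ] {X : Type} [AddCommGroup X] [Module C X]
    {D : Δ →* AddMonoid.End X} {act : 𝕋 →+* AddMonoid.End X}
    (pkg : Rtk7bPkg p L J Tr)
    (primes : ∀ q : ℕ, q.Prime → q ∉ Sbad → ¬ q ∣ L * p)
    (act_comm : ∀ x, act x ∈ rthkmComm C D)
    (faith : ∃ n₀ : ℕ, ∀ x ∈ rthksE p J (𝕋 := 𝕋), (∀ y : J, p ^ n₀ • y = 0 → x • y = 0) →
      act x = 0)
    (resid : ∀ ℓ : ℕ, ℓ.Prime → ¬ ℓ ∣ L * p →
      ∀ P : ValuationSubring (AlgebraicClosure ℚ), P.LiesOverPrime ℓ →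
        ∀ τ : GQ, P.IsFrobeniusAt τ ℓ → ∃ c : O,
          residue O c = LinearMap.trace (ResidueField O) ρbar.V (ρbar.ρ τ) ∧
          IsNilpotent (act (Tr ℓ) - Module.toAddMonoidEnd C X (algebraMap O C c))) :
    ∀ x ∈ rthksE p J (𝕋 := 𝕋), ∃ c : O,
      IsNilpotent (act x - Module.toAddMonoidEnd C X (algebraMap O C c)) := by
  intro x hx
  refine rthkn_nil pkg Sbad primes act (fun x c ψ => (act_comm x).1 c ψ) faith ?_ x hx
  intro ℓ hℓ hℓL
  obtain ⟨A, τ, hA, hτ⟩ := Fermat.Agent.Common.exists_isFrobeniusAt ℓ hℓ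
  obtain ⟨c, -, hc⟩ := resid ℓ hℓ hℓL A hA τ hτ
  exact ⟨c, hc⟩

end conc

end Fermat.Agent.RT


end ZBRT_027_3

/-! ### bundled: `Fermat.Agent.RT.Hecke.ConcSide` -/
section ZBRT_027_4

/-!
# K-machine, HECKE-asm, HK-CONC: from statements on `Hom(Γ_{H'}(L), C)` to `HkConc`

The owners of the fields prove statements about the operators `es1infHomEval t`, `diamU u` on the
`Θ`-part `etaPart (thetaN 𝔲 ℓ₀ C H')` of `Hom(Γ_{H'}(L), C)`, `C = 𝒪 ⧸ 𝔪 ^ ν`.  `HkConc`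
(RT/Hecke/Conc.lean) is about `X = ↥(rthkdX 𝔲 ℓ₀ H' ν)`, `D = rthkdD 𝔲 ℓ₀ H' ν` (helper9,
ConcDefs.lean) and `act = rthkdAct p 𝔲 ℓ₀ H' ν hst` (ConcAct.lean).  The dictionary:

* `rthkcs_act_eq_zero` : `es1infHomEval t = 0` on the `Θ`-part ⇒ `act t = 0`;
* `rthkcs_act_eq_D` : `es1infHomEval x = diamU u + diamU u⁻¹` on the `Θ`-part ⇒
  `act x = D (mk u) + D (mk u)⁻¹`;
* `rthkcs_nilpotent` : `(es1infHomEval t − c) ^ e = 0` on the `Θ`-part ⇒
  `IsNilpotent (act t − c)`;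
* `rthkcs_act_comm` : the field `act_comm` (helper32's `rthkcc_act_comm`);
* **`HkConcSide`** : the module side with all the fields on `Hom(Γ_{H'}(L), C)`;
  **`rthk_conc_side : HkConcSide … → HkConc …`** (the field `nil` by helper15's
  `rthkn_nil_conc`).
-/

set_option autoImplicit false
set_option linter.unusedSectionVars false
set_option linter.style.haveILetI false

noncomputable section

namespace Fermat.Agent.RT

open IsLocalRing Fermat.Agent.ES Fermat.Agent.S30 Fermat.Agent.W1 Fermat.Agent.TW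
open Fermat.Agent.ES1 Fermat.Agent.RT.K5
open scoped MatrixGroups

/-! ### Restriction and powers -/

section generic

variable {R : Type*} [Ring R] {V : Type*} [AddCommGroup V] [Module R V] (X : Submodule R V)

/-- an endomorphism vanishing on `X` restricts to `0` -/
theorem rthkcs_res_eq_zero (f : rthkdStab X) (hf : ∀ x ∈ X, (f : AddMonoid.End V) x = 0) :
    rthkdResHom X f = 0 :=
  AddMonoidHom.ext fun x => Subtype.ext (hf x x.2)

/-- an endomorphism nilpotent on `X` restricts to a nilpotent endomorphism -/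
theorem rthkcs_res_nilpotent (f : rthkdStab X) (e : ℕ)
    (hf : ∀ x ∈ X, ((f : AddMonoid.End V) ^ e) x = 0) : IsNilpotent (rthkdResHom X f) := by
  refine ⟨e, ?_⟩
  rw [← map_pow]
  exact rthkcs_res_eq_zero X (f ^ e) (fun x hx => by
    rw [SubmonoidClass.coe_pow]
    exact hf x hx)

end generic

/-! ### The dictionary -/

section dict

variable {O : Type} [CommRing O] [IsLocalRing O] {p : ℕ} {L M : ℕ} [NeZero L] [NeZero M]
  [hML : Fact (M ∣ L)] {𝔲 : NatFam O L M} {ℓ₀ : ℕ} [NeZero ℓ₀] {H' : Subgroup (ZMod M)ˣ} {ν : ℕ}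

/-- the stability of the `Θ`-part under the Hecke–diamond polynomials -/
abbrev RthkcsStable (p : ℕ) (𝔲 : NatFam O L M) (ℓ₀ : ℕ) [NeZero ℓ₀] (H' : Subgroup (ZMod M)ˣ)
    (ν : ℕ) : Prop :=
  ∀ (t : HDAlg M) (ψ : HomS (gammaH L M H') (RthkdC O ν)),
    ψ ∈ etaPart (thetaN 𝔲 ℓ₀ (RthkdC O ν) H') →
    es1infHomEval L M H' hML.out p (RthkdC O ν) t ψ ∈ etaPart (thetaN 𝔲 ℓ₀ (RthkdC O ν) H')

/-- `es1infHomEval t = 0` on the `Θ`-part ⇒ `act t = 0` -/
theorem rthkcs_act_eq_zero (hst : RthkcsStable p 𝔲 ℓ₀ H' ν) (t : HDAlg M)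
    (h0 : ∀ ψ ∈ etaPart (thetaN 𝔲 ℓ₀ (RthkdC O ν) H'),
      es1infHomEval L M H' hML.out p (RthkdC O ν) t ψ = 0) :
    rthkdAct p 𝔲 ℓ₀ H' ν hst t = 0 :=
  AddMonoidHom.ext fun x => Subtype.ext (h0 x x.2)

/-- `es1infHomEval x = diamU u + diamU u⁻¹` on the `Θ`-part ⇒ `act x = D (mk u) + D (mk u)⁻¹` -/
theorem rthkcs_act_eq_D (hst : RthkcsStable p 𝔲 ℓ₀ H' ν) (x : HDAlg M) (u : (ZMod M)ˣ)
    (hx : ∀ ψ ∈ etaPart (thetaN 𝔲 ℓ₀ (RthkdC O ν) H'),
      es1infHomEval L M H' hML.out p (RthkdC O ν) x ψ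
        = diamU L M H' (RthkdC O ν) u ψ + diamU L M H' (RthkdC O ν) u⁻¹ ψ) :
    rthkdAct p 𝔲 ℓ₀ H' ν hst x
      = rthkdD 𝔲 ℓ₀ H' ν (QuotientGroup.mk u) + rthkdD 𝔲 ℓ₀ H' ν (QuotientGroup.mk u)⁻¹ := by
  refine AddMonoidHom.ext fun y => Subtype.ext ?_
  show es1infHomEval L M H' hML.out p (RthkdC O ν) x (y : HomS (gammaH L M H') (RthkdC O ν))
    = diamU L M H' (RthkdC O ν) u (y : HomS (gammaH L M H') (RthkdC O ν))
      + diamU L M H' (RthkdC O ν) u⁻¹ (y : HomS (gammaH L M H') (RthkdC O ν))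
  exact hx y y.2

/-- the scalar `c` as an additive endomorphism of `Hom(Γ_{H'}(L), C)` -/
def rthkcsScal (L M : ℕ) (H' : Subgroup (ZMod M)ˣ) (ν : ℕ) (c : O) :
    AddMonoid.End (HomS (gammaH L M H') (RthkdC O ν)) :=
  Module.toAddMonoidEnd (RthkdC O ν) (HomS (gammaH L M H') (RthkdC O ν))
    (algebraMap O (RthkdC O ν) c)

theorem rthkcsScal_apply (c : O) (ψ : HomS (gammaH L M H') (RthkdC O ν)) :
    rthkcsScal L M H' ν c ψ = (algebraMap O (RthkdC O ν) c) • ψ := rfl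

/-- `(es1infHomEval t − c) ^ e = 0` on the `Θ`-part ⇒ `act t − c` is nilpotent -/
theorem rthkcs_nilpotent (hst : RthkcsStable p 𝔲 ℓ₀ H' ν) (t : HDAlg M) (c : O) (e : ℕ)
    (h0 : ∀ ψ ∈ etaPart (thetaN 𝔲 ℓ₀ (RthkdC O ν) H'),
      ((rthkdEval p L M H' (RthkdC O ν) t - rthkcsScal L M H' ν c) ^ e) ψ = 0) :
    IsNilpotent (rthkdAct p 𝔲 ℓ₀ H' ν hst t
      - Module.toAddMonoidEnd (RthkdC O ν) (rthkdX 𝔲 ℓ₀ H' ν) (algebraMap O (RthkdC O ν) c)) := by
  have hmem : rthkdEval p L M H' (RthkdC O ν) t - rthkcsScal L M H' ν c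
      ∈ rthkdStab (rthkdX 𝔲 ℓ₀ H' ν) := by
    refine Subring.sub_mem _ (fun ψ hψ => hst t ψ hψ) (fun ψ hψ => ?_)
    exact (rthkdX 𝔲 ℓ₀ H' ν).smul_mem _ hψ
  have h1 := rthkcs_res_nilpotent (rthkdX 𝔲 ℓ₀ H' ν) ⟨_, hmem⟩ e h0
  have e1 : rthkdResHom (rthkdX 𝔲 ℓ₀ H' ν) ⟨_, hmem⟩
      = rthkdAct p 𝔲 ℓ₀ H' ν hst t
        - Module.toAddMonoidEnd (RthkdC O ν) (rthkdX 𝔲 ℓ₀ H' ν)
            (algebraMap O (RthkdC O ν) c) :=
    AddMonoidHom.ext fun x => Subtype.ext rfl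
  rw [e1] at h1
  exact h1

/-- **the field `act_comm`** -/
theorem rthkcs_act_comm (hst : RthkcsStable p 𝔲 ℓ₀ H' ν) (t : HDAlg M) :
    rthkdAct p 𝔲 ℓ₀ H' ν hst t
      ∈ rthkmComm (Δ := RthkdDelta M H') (RthkdC O ν) (rthkdD 𝔲 ℓ₀ H' ν) :=
  rthkcc_act_comm 𝔲 ℓ₀ H' ν p (fun t => t) (rthkdAct p 𝔲 ℓ₀ H' ν hst)
    (fun t x => rthkdAct_coe hst t x) t

end dict

/-! ### The module side on `Hom(Γ_{H'}(L), C)` -/

section side

variable {O : Type} [CommRing O] [IsLocalRing O]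

/-- **The module side, with all the fields on `Hom(Γ_{H'}(L), 𝒪 ⧸ 𝔪 ^ n)`.**  `b` a family in
`X = ↥(rthkdX 𝔲 ℓ₀ H' n)`, `ψ1, ψχ` characters of `Δ = (ℤ/M)ˣ ⧸ ±H'`. -/
structure HkConcSide (p : ℕ) [Fact p.Prime] (lam : O)
    (ρbar : ResidualGaloisRep (ResidueField O))
    (Sbad : Finset ℕ) {ι : Type} (σ : ι → GQ) (tχ : ι → O) (m h d n : ℕ)
    (a0 : ℕ → Matrix (Fin d) (Fin d) O)
    (L M : ℕ) [NeZero L] [NeZero M] [hML : Fact (M ∣ L)] (𝔲 : NatFam O L M) (ℓ₀ : ℕ)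
    [NeZero ℓ₀] (H' : Subgroup (ZMod M)ˣ)
    (J : Type) [AddCommGroup J] [Module (HDAlg M) J] [DistribMulAction GQ J]
    (Tr : ℕ → HDAlg M) (b : Fin d → rthkdX 𝔲 ℓ₀ H' n)
    (ψ1 ψχ : RthkdDelta M H' →* RthkSn O m n) : Prop where
  pkg : Rtk7bPkg p L J Tr
  primes : ∀ q : ℕ, q.Prime → q ∉ Sbad → ¬ q ∣ L * p
  model : ∀ k : ℕ, ∃ (X : Type) (_ : AddCommGroup X) (_ : Finite X) (act : GQ → X → X),
      (∀ s x x', act s (x + x') = act s x + act s x') ∧
      (∀ s s' x, act (s * s') x = act s (act s' x)) ∧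
      HasFiniteFlatModel (GaloisRep.ratLocalizedAt p) X act ∧
      ∀ e : GQ →₀ ℤ, (∀ x : X, (e.sum fun g z => z • act g x) = 0) →
        ∀ x : J, p ^ k • x = 0 → (e.sum fun g z => z • g • x) = 0
  /-- the `Θ`-part is stable under the Hecke–diamond polynomials -/
  stable : RthkcsStable p 𝔲 ℓ₀ H' n
  /-- `X` is free over `C[Δ]` with basis `b` -/
  free : RthkmFree (Δ := RthkdDelta M H') (RthkdC O n) (rthkdD 𝔲 ℓ₀ H' n) b
  faith : ∃ n₀ : ℕ, ∀ t ∈ rthksE p J (𝕋 := HDAlg M), (∀ y : J, p ^ n₀ • y = 0 → t • y = 0) →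
    ∀ ψ ∈ etaPart (thetaN 𝔲 ℓ₀ (RthkdC O n) H'),
      es1infHomEval L M H' hML.out p (RthkdC O n) t ψ = 0
  resid : ∀ ℓ : ℕ, ℓ.Prime → ¬ ℓ ∣ L * p →
    ∀ P : ValuationSubring (AlgebraicClosure ℚ), P.LiesOverPrime ℓ →
      ∀ τ : GQ, P.IsFrobeniusAt τ ℓ → ∃ (c : O) (e : ℕ),
        residue O c = LinearMap.trace (ResidueField O) ρbar.V (ρbar.ρ τ) ∧
        ∀ ψ ∈ etaPart (thetaN 𝔲 ℓ₀ (RthkdC O n) H'),
          ((rthkdEval p L M H' (RthkdC O n) (Tr ℓ) - rthkcsScal L M H' n c) ^ e) ψ = 0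
  /-- `ψ1 ≡ ψχ` modulo `λ` -/
  cong : ∀ δ : RthkdDelta M H',
    Ideal.Quotient.factor (le_sup_right : maximalIdeal (RttwS O m) ^ n ≤
        rttwLam m lam ⊔ maximalIdeal (RttwS O m) ^ n) (ψ1 δ) =
      Ideal.Quotient.factor (le_sup_right : maximalIdeal (RttwS O m) ^ n ≤
        rttwLam m lam ⊔ maximalIdeal (RttwS O m) ^ n) (ψχ δ)
  /-- `ψ1 ≡ 1` modulo `𝔞` -/
  aug : ∀ δ : RthkdDelta M H',
    Ideal.Quotient.factor (le_sup_right : maximalIdeal (RttwS O m) ^ n ≤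
        rttwAug O m ⊔ maximalIdeal (RttwS O m) ^ n) (ψ1 δ) = 1
  /-- K6 at the trivial primes -/
  trT : ∀ i, ∃ (x : HDAlg M) (u : (ZMod M)ˣ),
    (∀ k, Rtk7bApprox p J (fun n g => ((cycE p n g : ℕ) : HDAlg M)) k (σ i) x) ∧
    (∀ ψ ∈ etaPart (thetaN 𝔲 ℓ₀ (RthkdC O n) H'),
      es1infHomEval L M H' hML.out p (RthkdC O n) x ψ
        = diamU L M H' (RthkdC O n) u ψ + diamU L M H' (RthkdC O n) u⁻¹ ψ) ∧
    ψ1 (QuotientGroup.mk u) = 1 ∧
    ψχ (QuotientGroup.mk u) + ψχ (QuotientGroup.mk u)⁻¹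
      = algebraMap O (RthkSn O m n) (2 * tχ i)
  /-- K6 at the Taylor–Wiles primes -/
  trQ : ∀ j : Fin m, (j : ℕ) < h → ∃ (g : GQ) (x : HDAlg M) (u : (ZMod M)ˣ),
    (∀ k, Rtk7bApprox p J (fun n g => ((cycE p n g : ℕ) : HDAlg M)) k g x) ∧
    (∀ ψ ∈ etaPart (thetaN 𝔲 ℓ₀ (RthkdC O n) H'),
      es1infHomEval L M H' hML.out p (RthkdC O n) x ψ
        = diamU L M H' (RthkdC O n) u ψ + diamU L M H' (RthkdC O n) u⁻¹ ψ) ∧
    ψ1 (QuotientGroup.mk u) - ψ1 (QuotientGroup.mk u)⁻¹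
      = Ideal.Quotient.mk _ (MvPowerSeries.X j) ∧
    ψχ (QuotientGroup.mk u) - ψχ (QuotientGroup.mk u)⁻¹
      = Ideal.Quotient.mk _ (MvPowerSeries.X j)
  /-- the base: the matrix of `Tr ℓ` on the coinvariants -/
  base : ∀ ℓ : ℕ, ℓ.Prime → ¬ ℓ ∣ L * p →
    rthkmMat free (1 : RthkdDelta M H' →* RthkdC O n) (rthkdAct p 𝔲 ℓ₀ H' n stable (Tr ℓ))
      = (a0 ℓ).map (algebraMap O (RthkdC O n))

/-- **HK-CONC, the dictionary**: the module side on `Hom(Γ_{H'}(L), C)` gives `HkConc`. -/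
theorem rthk_conc_side {p : ℕ} [Fact p.Prime] {lam : O}
    {ρbar : ResidualGaloisRep (ResidueField O)} {Sbad : Finset ℕ} {ι : Type} {σ : ι → GQ}
    {tχ : ι → O} {m h d n : ℕ} {a0 : ℕ → Matrix (Fin d) (Fin d) O}
    {L M : ℕ} [NeZero L] [NeZero M] [hML : Fact (M ∣ L)] {𝔲 : NatFam O L M} {ℓ₀ : ℕ}
    [NeZero ℓ₀] {H' : Subgroup (ZMod M)ˣ}
    {J : Type} [AddCommGroup J] [Module (HDAlg M) J] [DistribMulAction GQ J]
    {Tr : ℕ → HDAlg M} {b : Fin d → rthkdX 𝔲 ℓ₀ H' n}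
    {ψ1 ψχ : RthkdDelta M H' →* RthkSn O m n}
    (H : HkConcSide p lam ρbar Sbad σ tχ m h d n a0 L M 𝔲 ℓ₀ H' J Tr b ψ1 ψχ) :
    letI := rthkcaAlg O m n
    haveI := rthkca_tower O m n
    HkConc (Δ := RthkdDelta M H') p lam ρbar Sbad σ tχ m h d n a0 L J Tr (RthkdC O n)
      (rthkdD 𝔲 ℓ₀ H' n) b (rthkdAct p 𝔲 ℓ₀ H' n H.stable) ψ1 ψχ := by
  letI := rthkcaAlg O m n
  haveI := rthkca_tower O m n
  have hcomm : ∀ x, rthkdAct p 𝔲 ℓ₀ H' n H.stable x
      ∈ rthkmComm (Δ := RthkdDelta M H') (RthkdC O n) (rthkdD 𝔲 ℓ₀ H' n) :=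
    fun x => rthkcs_act_comm H.stable x
  have hfaith : ∃ n₀ : ℕ, ∀ x ∈ rthksE p J (𝕋 := HDAlg M),
      (∀ y : J, p ^ n₀ • y = 0 → x • y = 0) → rthkdAct p 𝔲 ℓ₀ H' n H.stable x = 0 := by
    obtain ⟨n₀, hn₀⟩ := H.faith
    exact ⟨n₀, fun x hx hkill => rthkcs_act_eq_zero H.stable x (hn₀ x hx hkill)⟩
  have hresid : ∀ ℓ : ℕ, ℓ.Prime → ¬ ℓ ∣ L * p →
      ∀ P : ValuationSubring (AlgebraicClosure ℚ), P.LiesOverPrime ℓ →
        ∀ τ : GQ, P.IsFrobeniusAt τ ℓ → ∃ c : O,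
          residue O c = LinearMap.trace (ResidueField O) ρbar.V (ρbar.ρ τ) ∧
          IsNilpotent (rthkdAct p 𝔲 ℓ₀ H' n H.stable (Tr ℓ)
            - Module.toAddMonoidEnd (RthkdC O n) (rthkdX 𝔲 ℓ₀ H' n)
                (algebraMap O (RthkdC O n) c)) := by
    intro ℓ hℓ hℓL P hP τ hτ
    obtain ⟨c, e, hc, he⟩ := H.resid ℓ hℓ hℓL P hP τ hτ
    exact ⟨c, hc, rthkcs_nilpotent H.stable (Tr ℓ) c e he⟩
  exact
    { pkg := H.pkg
      primes := H.primes
      model := H.model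
      free := H.free
      act_comm := hcomm
      faith := hfaith
      nil := rthkn_nil_conc (ρbar := ρbar) (Δ := RthkdDelta M H') (D := rthkdD 𝔲 ℓ₀ H' n)
        H.pkg H.primes hcomm hfaith hresid
      resid := hresid
      cong := H.cong
      aug := H.aug
      trT := fun i => by
        obtain ⟨x, u, hx, hact, h1, h2⟩ := H.trT i
        exact ⟨x, QuotientGroup.mk u, hx, rthkcs_act_eq_D H.stable x u hact, h1, h2⟩
      trQ := fun j hj => by
        obtain ⟨g, x, u, hx, hact, h1, h2⟩ := H.trQ j hj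
        exact ⟨g, x, QuotientGroup.mk u, hx, rthkcs_act_eq_D H.stable x u hact, h1, h2⟩
      base := H.base }

end side

end Fermat.Agent.RT

end
end ZBRT_027_4
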