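/- GENERATED FILE (helper35, build-time optimisation, NOTES/ZB.md): verbatim concatenation of the modules
   Fermat.Agent.RT.K5.UQFlip
   Fermat.Agent.RT.K5.UQMix
   Fermat.Agent.RT.K5.TWStep
   Fermat.Agent.RT.K5.TWIter
   Do not edit; do not import together with these modules. -/
import Fermat.Agent.ZB.RT_028
import Fermat.Agent.ZB.S41_005
import Fermat.Agent.ZB.ES1_001

/-! ### bundled: `Fermat.Agent.RT.K5.UQFlip` -/
section ZBRT_034_0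

/-!
# RT-K5, piece UQ (U2–U4), concrete part: the Atkin–Lehner conjugation `ν`

`q ∤ L`, `q n − L m = 1`.  `g = [[1, m], [L, q n]] ∈ Γ₁(L)`, `g₁ = [[q, m], [L, n]] ∈ Γ₀(L)`
(diamond `q`), `D = diag(q, 1)`, `D g D = q g₁`; `γ₀ = g g₁ ∈ Γ₀(L q)` (diamond `q`).
`K = Γ_H(L q)`, `ι = inclH`, `c = conjDH : K → Γ = Γ_H(L)`.

* `k5uqNu : K →* K` with `c (ν x) = g⁻¹ x g` (`k5uq_conj_nu`), `ν x = g₁⁻¹ c(x) g₁`
  (`k5uq_nu_coe`), `ν (ν x) = γ₀⁻¹ x γ₀` (`k5uq_nu_nu`).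
-/

set_option autoImplicit false
set_option linter.style.haveILetI false
set_option linter.unusedSectionVars false
set_option linter.unusedVariables false

noncomputable section

namespace Fermat.Agent.RT.K5

open CongruenceSubgroup Matrix
open scoped MatrixGroups
open Fermat.Agent.ES1 (gammaH diamHom pmH)

/-! ## matrices -/

/-- `D = diag(q, 1)` -/
def k5uqD (q : ℕ) : Matrix (Fin 2) (Fin 2) ℤ := !![(q : ℤ), 0; 0, 1]

theorem k5uq_D_mul (q : ℕ) (A : Matrix (Fin 2) (Fin 2) ℤ) (h : (q : ℤ) ∣ A 1 0) :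
    k5uqD q * A = S41.conjDMat q A * k5uqD q := by
  have e : A 1 0 / (q : ℤ) * q = A 1 0 := Int.ediv_mul_cancel h
  ext i j
  fin_cases i <;> fin_cases j
  · simp [k5uqD, S41.conjDMat, Matrix.mul_apply, Fin.sum_univ_two]; ring
  · simp [k5uqD, S41.conjDMat, Matrix.mul_apply, Fin.sum_univ_two]
  · simp [k5uqD, S41.conjDMat, Matrix.mul_apply, Fin.sum_univ_two]; exact e.symm
  · simp [k5uqD, S41.conjDMat, Matrix.mul_apply, Fin.sum_univ_two]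

theorem k5uq_D_mul_coe (N q : ℕ) [NeZero q] (k : Gamma0 (N * q)) :
    k5uqD q * ((k : SL(2, ℤ)) : Matrix (Fin 2) (Fin 2) ℤ)
      = (((S41.conjD N q k : Gamma0 N) : SL(2, ℤ)) : Matrix (Fin 2) (Fin 2) ℤ) * k5uqD q := by
  rw [S41.conjD_coe]
  exact k5uq_D_mul q _ (S41.dvd_q_of_mem N q k.2)

/-- entries of `g⁻¹ x g` -/
theorem k5uq_conj_01 (g x : SL(2, ℤ)) :
    ((g⁻¹ * x * g : SL(2, ℤ)) : Matrix (Fin 2) (Fin 2) ℤ) 0 1
      = (g 1 1 * x 0 0 - g 0 1 * x 1 0) * g 0 1 + (g 1 1 * x 0 1 - g 0 1 * x 1 1) * g 1 1 := by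
  rw [Matrix.SpecialLinearGroup.coe_mul, Matrix.SpecialLinearGroup.coe_mul,
    Matrix.SpecialLinearGroup.coe_inv, Matrix.adjugate_fin_two, Matrix.mul_apply,
    Fin.sum_univ_two, Matrix.mul_apply, Fin.sum_univ_two, Matrix.mul_apply, Fin.sum_univ_two]
  simp
  ring

theorem k5uq_conj_10 (g y : SL(2, ℤ)) :
    ((g * y * g⁻¹ : SL(2, ℤ)) : Matrix (Fin 2) (Fin 2) ℤ) 1 0
      = (g 1 0 * y 0 0 + g 1 1 * y 1 0) * g 1 1 - (g 1 0 * y 0 1 + g 1 1 * y 1 1) * g 1 0 := by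
  rw [Matrix.SpecialLinearGroup.coe_mul, Matrix.SpecialLinearGroup.coe_mul,
    Matrix.SpecialLinearGroup.coe_inv, Matrix.adjugate_fin_two, Matrix.mul_apply,
    Fin.sum_univ_two, Matrix.mul_apply, Fin.sum_univ_two, Matrix.mul_apply, Fin.sum_univ_two]
  simp
  ring

theorem k5uq_inv_mul_01 (x γ : SL(2, ℤ)) :
    ((x⁻¹ * γ : SL(2, ℤ)) : Matrix (Fin 2) (Fin 2) ℤ) 0 1 = x 1 1 * γ 0 1 - x 0 1 * γ 1 1 := by
  rw [Matrix.SpecialLinearGroup.coe_mul, Matrix.SpecialLinearGroup.coe_inv,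
    Matrix.adjugate_fin_two, Matrix.mul_apply, Fin.sum_univ_two]
  simp
  ring

/-- `q ∣ g₁₁`, `q ∣ x₁₀` ⇒ `q ∣ (g⁻¹ x g)₀₁` -/
theorem k5uq_dvd_conj_01 {q : ℤ} {g x : SL(2, ℤ)} (hg : q ∣ g 1 1) (hx : q ∣ x 1 0) :
    q ∣ ((g⁻¹ * x * g : SL(2, ℤ)) : Matrix (Fin 2) (Fin 2) ℤ) 0 1 := by
  rw [k5uq_conj_01]
  exact dvd_add (dvd_mul_of_dvd_left (dvd_sub (dvd_mul_of_dvd_left hg _)
    (dvd_mul_of_dvd_right hx _)) _) (dvd_mul_of_dvd_right hg _)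

/-- `q ∣ g₁₁`, `q ∣ y₀₁` ⇒ `q ∣ (g y g⁻¹)₁₀` -/
theorem k5uq_dvd_conj_10 {q : ℤ} {g y : SL(2, ℤ)} (hg : q ∣ g 1 1) (hy : q ∣ y 0 1) :
    q ∣ ((g * y * g⁻¹ : SL(2, ℤ)) : Matrix (Fin 2) (Fin 2) ℤ) 1 0 := by
  rw [k5uq_conj_10]
  exact dvd_sub (dvd_mul_of_dvd_right hg _)
    (dvd_mul_of_dvd_left (dvd_add (dvd_mul_of_dvd_right hy _) (dvd_mul_of_dvd_left hg _)) _)

/-! ## the flip elements -/

section flip

variable (L q : ℕ) (m n : ℤ) (h : (q : ℤ) * n - L * m = 1)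

/-- `g = [[1, m], [L, q n]]` -/
def k5uqG : SL(2, ℤ) :=
  ⟨!![1, m; (L : ℤ), (q : ℤ) * n], by rw [Matrix.det_fin_two_of]; linear_combination h⟩

/-- `g₁ = [[q, m], [L, n]]` -/
def k5uqG1 : SL(2, ℤ) :=
  ⟨!![(q : ℤ), m; (L : ℤ), n], by rw [Matrix.det_fin_two_of]; linear_combination h⟩

theorem k5uqG_coe : ((k5uqG L q m n h : SL(2, ℤ)) : Matrix (Fin 2) (Fin 2) ℤ)
    = !![1, m; (L : ℤ), (q : ℤ) * n] := rfl

theorem k5uqG1_coe : ((k5uqG1 L q m n h : SL(2, ℤ)) : Matrix (Fin 2) (Fin 2) ℤ)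
    = !![(q : ℤ), m; (L : ℤ), n] := rfl

theorem k5uq_DGD :
    k5uqD q * ((k5uqG L q m n h : SL(2, ℤ)) : Matrix (Fin 2) (Fin 2) ℤ) * k5uqD q
      = (q : ℤ) • ((k5uqG1 L q m n h : SL(2, ℤ)) : Matrix (Fin 2) (Fin 2) ℤ) := by
  rw [k5uqG_coe, k5uqG1_coe]
  ext i j
  fin_cases i <;> fin_cases j <;>
    simp [k5uqD, Matrix.mul_apply, Fin.sum_univ_two]
  all_goals ring

theorem k5uqG_00 : (k5uqG L q m n h) 0 0 = 1 := rfl
theorem k5uqG_01 : (k5uqG L q m n h) 0 1 = m := rfl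
theorem k5uqG_10 : (k5uqG L q m n h) 1 0 = (L : ℤ) := rfl
theorem k5uqG_11 : (k5uqG L q m n h) 1 1 = (q : ℤ) * n := rfl
theorem k5uqG1_00 : (k5uqG1 L q m n h) 0 0 = (q : ℤ) := rfl
theorem k5uqG1_10 : (k5uqG1 L q m n h) 1 0 = (L : ℤ) := rfl

theorem k5uqG_dvd_11 : (q : ℤ) ∣ (k5uqG L q m n h) 1 1 := ⟨n, rfl⟩

include h in
/-- `m` is a unit modulo `q` -/
theorem k5uq_dvd_of_dvd_mul_m {x : ℤ} (hx : (q : ℤ) ∣ x * m) : (q : ℤ) ∣ x := by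
  have e : x = (q : ℤ) * (x * n) - (x * m) * L := by linear_combination (-x) * h
  rw [e]
  exact dvd_sub (dvd_mul_right _ _) (dvd_mul_of_dvd_left hx _)

theorem k5uqG_mem_Gamma0 : k5uqG L q m n h ∈ Gamma0 L :=
  S41.mem_Gamma0_of_dvd (by rw [k5uqG_10])

theorem k5uqG1_mem_Gamma0 : k5uqG1 L q m n h ∈ Gamma0 L :=
  S41.mem_Gamma0_of_dvd (by rw [k5uqG1_10])

theorem k5uqG_mem {M : ℕ} (hML : M ∣ L) (H : Subgroup (ZMod M)ˣ) :
    k5uqG L q m n h ∈ gammaH L M H := by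
  have hM : k5uqG L q m n h ∈ Gamma0 M :=
    S41.mem_Gamma0_of_dvd (by rw [k5uqG_10]; exact Int.natCast_dvd_natCast.mpr hML)
  refine ⟨k5uqG_mem_Gamma0 L q m n h, hM, ?_⟩
  have : diamHom M ⟨k5uqG L q m n h, hM⟩ = 1 := by
    ext
    rw [Fermat.Agent.ES1.coe_diamHom]
    show (((k5uqG L q m n h) 0 0 : ℤ) : ZMod M) = _
    rw [k5uqG_00]
    simp
  rw [this]; exact one_mem _

theorem k5uqG1_diam {M : ℕ} (hM : k5uqG1 L q m n h ∈ Gamma0 M) :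
    IsDiamQ M q (k5uqG1 L q m n h) hM := by
  show ((diamHom M ⟨k5uqG1 L q m n h, hM⟩ : (ZMod M)ˣ) : ZMod M) = (q : ZMod M)
  rw [Fermat.Agent.ES1.coe_diamHom]
  show (((k5uqG1 L q m n h) 0 0 : ℤ) : ZMod M) = _
  rw [k5uqG1_00]
  simp

/-- `γ₀ = g g₁ ∈ Γ₀(L q)` -/
theorem k5uqGam_mem : k5uqG L q m n h * k5uqG1 L q m n h ∈ Gamma0 (L * q) := by
  apply S41.mem_Gamma0_of_dvd
  rw [Matrix.SpecialLinearGroup.coe_mul, k5uqG_coe, k5uqG1_coe]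
  refine ⟨1 + n, ?_⟩
  simp [Matrix.mul_apply, Fin.sum_univ_two]
  ring

theorem k5uqGam_diam {M : ℕ} (hML : M ∣ L)
    (hM : k5uqG L q m n h * k5uqG1 L q m n h ∈ Gamma0 M) :
    IsDiamQ M q (k5uqG L q m n h * k5uqG1 L q m n h) hM := by
  show ((diamHom M ⟨_, hM⟩ : (ZMod M)ˣ) : ZMod M) = (q : ZMod M)
  rw [Fermat.Agent.ES1.coe_diamHom]
  show ((((k5uqG L q m n h * k5uqG1 L q m n h : SL(2, ℤ)) :
    Matrix (Fin 2) (Fin 2) ℤ) 0 0 : ℤ) : ZMod M) = _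
  rw [Matrix.SpecialLinearGroup.coe_mul, k5uqG_coe, k5uqG1_coe]
  have hL : (L : ZMod M) = 0 := (ZMod.natCast_eq_zero_iff L M).mpr hML
  simp [Matrix.mul_apply, Fin.sum_univ_two]
  rw [hL, mul_zero]

end flip

/-! ## the range of `conjDH` -/

section range

variable (L M q : ℕ) [NeZero L] [NeZero q] [hML : Fact (M ∣ L)] (H : Subgroup (ZMod M)ˣ)

/-- `Γ_H(L) ∩ Γ⁰(q)` is the range of `conjDH` -/
theorem k5uq_mem_range (y : gammaH L M H)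
    (hy : (q : ℤ) ∣ ((y : SL(2, ℤ)) : Matrix (Fin 2) (Fin 2) ℤ) 0 1) :
    y ∈ (conjDH L M q H hML.out).range := by
  obtain ⟨z, hz, hz00⟩ := k5e_exists_conjD_preimage L q ⟨(y : SL(2, ℤ)), y.2.1⟩ hy
  have hzL : (z : SL(2, ℤ)) ∈ Gamma0 L := by
    apply S41.mem_Gamma0_of_dvd
    exact (Int.natCast_dvd_natCast.mpr (dvd_mul_right L q)).trans (S41.dvd_of_mem_Gamma0 z.2)
  have hzM : (z : SL(2, ℤ)) ∈ Gamma0 M := k5i_mem_Gamma0M L M hzL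
  have hmem : (z : SL(2, ℤ)) ∈ gammaH (L * q) M H := by
    refine ⟨z.2, hzM, ?_⟩
    rw [k5e_diam_eq_of_entry _ _ hzM y.2.2.1 hz00]
    exact y.2.2.2
  refine ⟨⟨(z : SL(2, ℤ)), hmem⟩, ?_⟩
  apply Subtype.ext
  rw [conjDH_coe]
  have : (⟨(z : SL(2, ℤ)), hmem.1⟩ : Gamma0 (L * q)) = z := rfl
  rw [this, hz]

theorem k5uq_dvd_conjDH (k : gammaH (L * q) M H) :
    (q : ℤ) ∣ (((conjDH L M q H hML.out k : gammaH L M H) : SL(2, ℤ)) :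
      Matrix (Fin 2) (Fin 2) ℤ) 0 1 := by
  rw [conjDH_coe, S41.conjD_coe]
  simp [S41.conjDMat]

theorem k5uq_dvd_of_mem_range {y : gammaH L M H} (hy : y ∈ (conjDH L M q H hML.out).range) :
    (q : ℤ) ∣ ((y : SL(2, ℤ)) : Matrix (Fin 2) (Fin 2) ℤ) 0 1 := by
  obtain ⟨k, rfl⟩ := hy
  exact k5uq_dvd_conjDH L M q H k

/-- `Γ_H(L) ∩ Γ₀(q)` is the range of `inclH` (`q` prime to `L`) -/
theorem k5uq_mem_incl_range (hc : Nat.Coprime q L) (y : gammaH L M H)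
    (hy : (q : ℤ) ∣ ((y : SL(2, ℤ)) : Matrix (Fin 2) (Fin 2) ℤ) 1 0) :
    y ∈ (inclH L M q H).range := by
  have hL : (L : ℤ) ∣ ((y : SL(2, ℤ)) : Matrix (Fin 2) (Fin 2) ℤ) 1 0 :=
    S41.dvd_of_mem_Gamma0 y.2.1
  have hcop : IsCoprime (L : ℤ) (q : ℤ) := by
    rw [Int.isCoprime_iff_gcd_eq_one]
    exact_mod_cast (Nat.coprime_comm.mp hc)
  have hLq : ((L * q : ℕ) : ℤ) ∣ ((y : SL(2, ℤ)) : Matrix (Fin 2) (Fin 2) ℤ) 1 0 := by
    push_cast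
    exact hcop.mul_dvd hL hy
  have hmem : (y : SL(2, ℤ)) ∈ gammaH (L * q) M H :=
    ⟨S41.mem_Gamma0_of_dvd hLq, y.2.2⟩
  exact ⟨⟨(y : SL(2, ℤ)), hmem⟩, Subtype.ext rfl⟩

end range

/-! ## the conjugation `ν` -/

section nu

variable (L M q : ℕ) [NeZero L] [NeZero q] [hML : Fact (M ∣ L)] (H : Subgroup (ZMod M)ˣ)
  (m n : ℤ) (h : (q : ℤ) * n - L * m = 1)

/-- `g` as an element of `Γ = Γ_H(L)` -/
def k5uqGΓ : gammaH L M H := ⟨k5uqG L q m n h, k5uqG_mem L q m n h hML.out H⟩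

theorem k5uqGΓ_coe : ((k5uqGΓ L M q H m n h : gammaH L M H) : SL(2, ℤ)) = k5uqG L q m n h := rfl

theorem k5uq_nuAux_mem (x : gammaH (L * q) M H) :
    (k5uqGΓ L M q H m n h)⁻¹ * inclH L M q H x * k5uqGΓ L M q H m n h
      ∈ (conjDH L M q H hML.out).range := by
  apply k5uq_mem_range
  show (q : ℤ) ∣ (((k5uqG L q m n h)⁻¹ * (x : SL(2, ℤ)) * k5uqG L q m n h : SL(2, ℤ)) :
    Matrix (Fin 2) (Fin 2) ℤ) 0 1
  exact k5uq_dvd_conj_01 (k5uqG_dvd_11 L q m n h) (S41.dvd_q_of_mem L q x.2.1)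

/-- `x ↦ g⁻¹ x g`, `K → c(K)` -/
def k5uqNuAux : gammaH (L * q) M H →* (conjDH L M q H hML.out).range where
  toFun x := ⟨(k5uqGΓ L M q H m n h)⁻¹ * inclH L M q H x * k5uqGΓ L M q H m n h,
    k5uq_nuAux_mem L M q H m n h x⟩
  map_one' := by
    apply Subtype.ext
    show (k5uqGΓ L M q H m n h)⁻¹ * inclH L M q H 1 * k5uqGΓ L M q H m n h = 1
    rw [map_one]; group
  map_mul' a b := by
    apply Subtype.ext
    show (k5uqGΓ L M q H m n h)⁻¹ * inclH L M q H (a * b) * k5uqGΓ L M q H m n h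
      = ((k5uqGΓ L M q H m n h)⁻¹ * inclH L M q H a * k5uqGΓ L M q H m n h)
        * ((k5uqGΓ L M q H m n h)⁻¹ * inclH L M q H b * k5uqGΓ L M q H m n h)
    rw [map_mul]; group

/-- **the Atkin–Lehner conjugation** `ν : K → K`, `ν x = W⁻¹ x W`, `W = g δ` -/
def k5uqNu : gammaH (L * q) M H →* gammaH (L * q) M H :=
  (MonoidHom.ofInjective (conjDH_injective L M q H hML.out)).symm.toMonoidHom.comp
    (k5uqNuAux L M q H m n h)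

/-- `c (ν x) = g⁻¹ x g` -/
theorem k5uq_conj_nu (x : gammaH (L * q) M H) :
    conjDH L M q H hML.out (k5uqNu L M q H m n h x)
      = (k5uqGΓ L M q H m n h)⁻¹ * inclH L M q H x * k5uqGΓ L M q H m n h := by
  have e := (MonoidHom.ofInjective (conjDH_injective L M q H hML.out)).apply_symm_apply
    (k5uqNuAux L M q H m n h x)
  exact congrArg Subtype.val e

theorem k5uq_conj_nu_coe (x : gammaH (L * q) M H) :
    ((conjDH L M q H hML.out (k5uqNu L M q H m n h x) : gammaH L M H) : SL(2, ℤ))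
      = (k5uqG L q m n h)⁻¹ * (x : SL(2, ℤ)) * k5uqG L q m n h := by
  rw [k5uq_conj_nu]
  rfl

/-- `g₁ · ν x = c(x) · g₁` -/
theorem k5uq_nu_coe (x : gammaH (L * q) M H) :
    k5uqG1 L q m n h * ((k5uqNu L M q H m n h x : gammaH (L * q) M H) : SL(2, ℤ))
      = ((conjDH L M q H hML.out x : gammaH L M H) : SL(2, ℤ)) * k5uqG1 L q m n h := by
  have hq0 : (q : ℤ) ≠ 0 := by exact_mod_cast NeZero.ne q
  set Z : Matrix (Fin 2) (Fin 2) ℤ :=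
    (((k5uqNu L M q H m n h x : gammaH (L * q) M H) : SL(2, ℤ)) : Matrix (Fin 2) (Fin 2) ℤ)
    with hZ
  set X : Matrix (Fin 2) (Fin 2) ℤ := ((x : SL(2, ℤ)) : Matrix (Fin 2) (Fin 2) ℤ) with hX
  set Y : Matrix (Fin 2) (Fin 2) ℤ :=
    (((conjDH L M q H hML.out x : gammaH L M H) : SL(2, ℤ)) : Matrix (Fin 2) (Fin 2) ℤ) with hY
  set G : Matrix (Fin 2) (Fin 2) ℤ :=
    ((k5uqG L q m n h : SL(2, ℤ)) : Matrix (Fin 2) (Fin 2) ℤ) with hG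
  set G₁ : Matrix (Fin 2) (Fin 2) ℤ :=
    ((k5uqG1 L q m n h : SL(2, ℤ)) : Matrix (Fin 2) (Fin 2) ℤ) with hG₁
  set U : Matrix (Fin 2) (Fin 2) ℤ :=
    (((k5uqG L q m n h)⁻¹ * (x : SL(2, ℤ)) * k5uqG L q m n h : SL(2, ℤ)) :
      Matrix (Fin 2) (Fin 2) ℤ) with hU
  have hDX : k5uqD q * X = Y * k5uqD q := by
    rw [hX, hY, conjDH_coe]
    exact k5uq_D_mul_coe L q ⟨(x : SL(2, ℤ)), x.2.1⟩
  have hDZ : k5uqD q * Z = U * k5uqD q := by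
    rw [hZ, hU, ← k5uq_conj_nu_coe, conjDH_coe]
    exact k5uq_D_mul_coe L q ⟨_, (k5uqNu L M q H m n h x).2.1⟩
  have hGU : G * U = X * G := by
    rw [hG, hU, hX, ← Matrix.SpecialLinearGroup.coe_mul, ← Matrix.SpecialLinearGroup.coe_mul]
    congr 1
    group
  have hDGD : k5uqD q * G * k5uqD q = (q : ℤ) • G₁ := k5uq_DGD L q m n h
  have key : (q : ℤ) • (G₁ * Z) = (q : ℤ) • (Y * G₁) := by
    calc (q : ℤ) • (G₁ * Z) = (k5uqD q * G * k5uqD q) * Z := by rw [hDGD, Matrix.smul_mul]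
      _ = k5uqD q * G * (k5uqD q * Z) := by rw [Matrix.mul_assoc]
      _ = k5uqD q * G * (U * k5uqD q) := by rw [hDZ]
      _ = k5uqD q * (G * U) * k5uqD q := by simp only [Matrix.mul_assoc]
      _ = k5uqD q * (X * G) * k5uqD q := by rw [hGU]
      _ = (k5uqD q * X) * G * k5uqD q := by simp only [Matrix.mul_assoc]
      _ = (Y * k5uqD q) * G * k5uqD q := by rw [hDX]
      _ = Y * (k5uqD q * G * k5uqD q) := by simp only [Matrix.mul_assoc]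
      _ = (q : ℤ) • (Y * G₁) := by rw [hDGD, Matrix.mul_smul]
  have key2 : G₁ * Z = Y * G₁ := smul_right_injective _ hq0 key
  apply Subtype.ext
  rw [Matrix.SpecialLinearGroup.coe_mul, Matrix.SpecialLinearGroup.coe_mul]
  exact key2

/-- `ν x = g₁⁻¹ c(x) g₁` -/
theorem k5uq_nu_eq (x : gammaH (L * q) M H) :
    ((k5uqNu L M q H m n h x : gammaH (L * q) M H) : SL(2, ℤ))
      = (k5uqG1 L q m n h)⁻¹ * ((conjDH L M q H hML.out x : gammaH L M H) : SL(2, ℤ))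
          * k5uqG1 L q m n h := by
  rw [mul_assoc, ← k5uq_nu_coe]
  group

/-- `ν (ν x) = γ₀⁻¹ x γ₀`, `γ₀ = g g₁` -/
theorem k5uq_nu_nu (x : gammaH (L * q) M H) :
    ((k5uqNu L M q H m n h (k5uqNu L M q H m n h x) : gammaH (L * q) M H) : SL(2, ℤ))
      = (k5uqG L q m n h * k5uqG1 L q m n h)⁻¹ * (x : SL(2, ℤ))
          * (k5uqG L q m n h * k5uqG1 L q m n h) := by
  rw [k5uq_nu_eq, k5uq_conj_nu_coe]
  group

end nu

end Fermat.Agent.RT.K5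

end
end ZBRT_034_0

/-! ### bundled: `Fermat.Agent.RT.K5.UQMix` -/
section ZBRT_034_1

/-!
# RT-K5, piece UQ (U2–U4): `U_q` against the degeneracy maps at `q`

`Γ = Γ_H(L) ⊃ K = Γ_H(L q)`, `q` prime, `q ∤ L`; `U = tS (L q) M q H A`, `T = tS L M q H A`.
With the Atkin–Lehner conjugation `ν` of `UQFlip.lean`:

* `k5uq_M1`   : `res (cores_δ χ) = U χ + χ ∘ ν`      (Mackey, two double cosets);
* `k5uq_W1`   : `cores_δ ψ = cores (ψ ∘ ν)`;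
* `k5uq_cores_diam` : `cores` is equivariant for the conjugation by `z ∈ Γ₀(L q)`;
* `stmtUQMix`, `stmtUQNew`, `stmtUQOld`, `stmtUQTop` (Props of `UQPlan.lean`).
-/

set_option autoImplicit false
set_option linter.style.haveILetI false
set_option linter.unusedSectionVars false
set_option linter.unusedVariables false

noncomputable section

namespace Fermat.Agent.RT.K5

open CongruenceSubgroup Matrix
open scoped MatrixGroups
open Fermat.Agent.ES1 (gammaH diamHom pmH)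

section mackey

variable (L M q : ℕ) [NeZero L] [NeZero q] [hML : Fact (M ∣ L)] (H : Subgroup (ZMod M)ˣ)
  (A : Type) [AddCommGroup A] (m n : ℤ) (h : (q : ℤ) * n - L * m = 1)

theorem k5uq_dvd_mul : M ∣ L * q := hML.out.trans (dvd_mul_right L q)

/-- `χ ↦ χ ∘ ν` -/
def k5uqNuS : HomS (gammaH (L * q) M H) A →+ HomS (gammaH (L * q) M H) A where
  toFun χ := χ.comp (MonoidHom.toAdditive (k5uqNu L M q H m n h))
  map_zero' := rfl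
  map_add' _ _ := rfl

theorem k5uqNuS_apply (χ : HomS (gammaH (L * q) M H) A) (x : gammaH (L * q) M H) :
    k5uqNuS L M q H A m n h χ (Additive.ofMul x)
      = χ (Additive.ofMul (k5uqNu L M q H m n h x)) := rfl

theorem k5uq_hdc (hq : q.Prime) (γ : gammaH L M H) :
    (∃ x : gammaH (L * q) M H, (inclH L M q H x)⁻¹ * γ ∈ (conjDH L M q H hML.out).range) ∨
      (k5uqGΓ L M q H m n h)⁻¹ * γ ∈ (conjDH L M q H hML.out).range := by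
  by_cases hd : (q : ℤ) ∣ ((γ : SL(2, ℤ)) : Matrix (Fin 2) (Fin 2) ℤ) 1 1
  · right
    apply k5uq_mem_range
    show (q : ℤ) ∣ (((k5uqG L q m n h)⁻¹ * (γ : SL(2, ℤ)) : SL(2, ℤ)) :
      Matrix (Fin 2) (Fin 2) ℤ) 0 1
    rw [k5uq_inv_mul_01]
    exact dvd_sub (dvd_mul_of_dvd_left (k5uqG_dvd_11 L q m n h) _) (dvd_mul_of_dvd_right hd _)
  · left
    have hqp : Prime (q : ℤ) := Nat.prime_iff_prime_int.mp hq
    obtain ⟨u, v, huv⟩ := (Prime.coprime_iff_not_dvd hqp).mpr hd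
    have hx : k5ccX (L * q) 0 (v * ((γ : SL(2, ℤ)) : Matrix (Fin 2) (Fin 2) ℤ) 0 1)
        ∈ gammaH (L * q) M H := k5ccX_mem (L * q) M (k5uq_dvd_mul L M q) H _ _
    refine ⟨⟨_, hx⟩, ?_⟩
    apply k5uq_mem_range
    show (q : ℤ) ∣ (((k5ccX (L * q) 0 (v * ((γ : SL(2, ℤ)) : Matrix (Fin 2) (Fin 2) ℤ) 0 1))⁻¹
      * (γ : SL(2, ℤ)) : SL(2, ℤ)) : Matrix (Fin 2) (Fin 2) ℤ) 0 1
    rw [k5ccX_inv_mul_01]
    refine ⟨u * ((γ : SL(2, ℤ)) : Matrix (Fin 2) (Fin 2) ℤ) 0 1, ?_⟩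
    linear_combination (-(((γ : SL(2, ℤ)) : Matrix (Fin 2) (Fin 2) ℤ) 0 1)) * huv

theorem k5uq_hne (hq : q.Prime) (x : gammaH (L * q) M H) :
    (inclH L M q H x)⁻¹ * k5uqGΓ L M q H m n h ∉ (conjDH L M q H hML.out).range := by
  intro hmem
  have h1 := k5uq_dvd_of_mem_range L M q H hmem
  have h2 : (q : ℤ) ∣ ((((x : SL(2, ℤ)))⁻¹ * k5uqG L q m n h : SL(2, ℤ)) :
      Matrix (Fin 2) (Fin 2) ℤ) 0 1 := h1
  rw [k5uq_inv_mul_01, k5uqG_01, k5uqG_11] at h2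
  have h3 : (q : ℤ) ∣ ((x : SL(2, ℤ)) : Matrix (Fin 2) (Fin 2) ℤ) 1 1 * m := by
    have e : ((x : SL(2, ℤ)) : Matrix (Fin 2) (Fin 2) ℤ) 1 1 * m
        = (((x : SL(2, ℤ)) : Matrix (Fin 2) (Fin 2) ℤ) 1 1 * m
            - ((x : SL(2, ℤ)) : Matrix (Fin 2) (Fin 2) ℤ) 0 1 * ((q : ℤ) * n))
          + (q : ℤ) * (((x : SL(2, ℤ)) : Matrix (Fin 2) (Fin 2) ℤ) 0 1 * n) := by ring
    rw [e]
    exact dvd_add h2 (dvd_mul_right _ _)
  have h4 : (q : ℤ) ∣ ((x : SL(2, ℤ)) : Matrix (Fin 2) (Fin 2) ℤ) 1 1 :=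
    k5uq_dvd_of_dvd_mul_m L q m n h h3
  have h5 : (q : ℤ) ∣ ((x : SL(2, ℤ)) : Matrix (Fin 2) (Fin 2) ℤ) 1 0 :=
    S41.dvd_q_of_mem L q x.2.1
  have hdet : ((x : SL(2, ℤ)) : Matrix (Fin 2) (Fin 2) ℤ) 0 0 * (x : SL(2, ℤ)) 1 1
      - (x : SL(2, ℤ)) 0 1 * (x : SL(2, ℤ)) 1 0 = 1 := by
    have := (x : SL(2, ℤ)).2
    rw [Matrix.det_fin_two] at this
    exact this
  have h6 : (q : ℤ) ∣ 1 := by
    rw [← hdet]
    exact dvd_sub (dvd_mul_of_dvd_right h4 _) (dvd_mul_of_dvd_right h5 _)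
  have h7 : q ∣ 1 := by exact_mod_cast h6
  exact hq.one_lt.ne' (Nat.dvd_one.mp h7)

/-- **(M1)** `res (cores_δ χ) = U χ + χ ∘ ν` -/
theorem k5uq_M1 (hq : q.Prime) (χ : HomS (gammaH (L * q) M H) A) :
    haveI : Fact (M ∣ L * q) := ⟨k5uq_dvd_mul L M q⟩
    resH L M q H A (coresDH L M q H A χ)
      = tS (L * q) M q H A χ + k5uqNuS L M q H A m n h χ := by
  haveI : Fact (M ∣ L * q) := ⟨k5uq_dvd_mul L M q⟩
  exact k5uq_mackey (conjDH L M q H hML.out) (conjDH_injective L M q H hML.out)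
    (inclH L M q H) (conjDH (L * q) M q H (k5uq_dvd_mul L M q))
    (conjDH_injective (L * q) M q H (k5uq_dvd_mul L M q)) (inclH (L * q) M q H)
    (k5uqGΓ L M q H m n h) (k5uqNu L M q H m n h) A
    (fun k => Subtype.ext rfl)
    (fun x hx => k5uq_mem_range (L * q) M q H x (k5uq_dvd_of_mem_range L M q H hx))
    (fun x => by rw [k5uq_conj_nu]; group)
    (k5uq_hdc L M q H m n h hq) (k5uq_hne L M q H m n h hq) χ

/-- **(W1)** `cores_δ ψ = cores (ψ ∘ ν)` -/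
theorem k5uq_W1 (hc : Nat.Coprime q L) (ψ : HomS (gammaH (L * q) M H) A) :
    coresDH L M q H A ψ = coresH L M q H A (k5uqNuS L M q H A m n h ψ) := by
  refine S41.transferAlong_conj (inclH L M q H) (conjDH L M q H hML.out)
    (inclH_injective L M q H) (conjDH_injective L M q H hML.out) A
    (k5uqNu L M q H m n h) (k5uqGΓ L M q H m n h)⁻¹ ?_ ?_ ψ
  · intro k
    rw [k5uq_conj_nu, inv_inv]
  · intro x hx
    rw [inv_inv] at hx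
    have h1 := k5uq_dvd_of_mem_range L M q H hx
    have h2 : (q : ℤ) ∣ (((k5uqG L q m n h)⁻¹ * (x : SL(2, ℤ)) * k5uqG L q m n h : SL(2, ℤ)) :
      Matrix (Fin 2) (Fin 2) ℤ) 0 1 := h1
    have h3 := k5uq_dvd_conj_10 (g := k5uqG L q m n h) (k5uqG_dvd_11 L q m n h) h2
    have e : k5uqG L q m n h * ((k5uqG L q m n h)⁻¹ * (x : SL(2, ℤ)) * k5uqG L q m n h)
        * (k5uqG L q m n h)⁻¹ = (x : SL(2, ℤ)) := by group
    rw [e] at h3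
    exact k5uq_mem_incl_range L M q H hc x h3

end mackey

section results

variable (L M q : ℕ) [NeZero L] [NeZero q] [hML : Fact (M ∣ L)] (H : Subgroup (ZMod M)ˣ)
  (A : Type) [AddCommGroup A] (m n : ℤ) (h : (q : ℤ) * n - L * m = 1)

theorem k5uqG1_mem_M : k5uqG1 L q m n h ∈ Gamma0 M :=
  k5i_mem_Gamma0M L M (k5uqG1_mem_Gamma0 L q m n h)

theorem k5uqGam_mem_L : k5uqG L q m n h * k5uqG1 L q m n h ∈ Gamma0 L :=
  S41.Gamma0_mul_le L q (k5uqGam_mem L q m n h)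

theorem k5uqGam_mem_M : k5uqG L q m n h * k5uqG1 L q m n h ∈ Gamma0 M :=
  k5i_mem_Gamma0M L M (k5uqGam_mem_L L q m n h)

/-- `(res φ) ∘ ν = res_δ (⟨g₁⟩ φ)` -/
theorem k5uq_res_nu (φ : HomS (gammaH L M H) A) :
    k5uqNuS L M q H A m n h (resH L M q H A φ)
      = resDH L M q H A (diamS H A (k5uqG1 L q m n h) (k5uqG1_mem_Gamma0 L q m n h)
          (k5uqG1_mem_M L M q m n h) φ) := by
  refine AddMonoidHom.ext fun x => ?_
  obtain ⟨x, rfl⟩ : ∃ x' : gammaH (L * q) M H, Additive.ofMul x' = x := ⟨Additive.toMul x, rfl⟩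
  show φ (Additive.ofMul (inclH L M q H (k5uqNu L M q H m n h x)))
    = φ (Additive.ofMul (conjHom (k5uqG1 L q m n h)
        (normalizes_gammaH (k5uqG1_mem_Gamma0 L q m n h) (k5uqG1_mem_M L M q m n h))
        (conjDH L M q H hML.out x)))
  congr 2
  apply Subtype.ext
  exact k5uq_nu_eq L M q H m n h x

/-- `(res_δ φ) ∘ ν = res φ` -/
theorem k5uq_resD_nu (φ : HomS (gammaH L M H) A) :
    k5uqNuS L M q H A m n h (resDH L M q H A φ) = resH L M q H A φ := by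
  refine AddMonoidHom.ext fun x => ?_
  obtain ⟨x, rfl⟩ : ∃ x' : gammaH (L * q) M H, Additive.ofMul x' = x := ⟨Additive.toMul x, rfl⟩
  show φ (Additive.ofMul (conjDH L M q H hML.out (k5uqNu L M q H m n h x)))
    = φ (Additive.ofMul (inclH L M q H x))
  rw [k5uq_conj_nu, ofMul_mul, ofMul_mul, ofMul_inv, map_add, map_add, map_neg]
  abel

/-- `χ ∘ ν ∘ ν = ⟨γ₀⟩ χ` -/
theorem k5uq_nu_nu_S (χ : HomS (gammaH (L * q) M H) A) :
    k5uqNuS L M q H A m n h (k5uqNuS L M q H A m n h χ)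
      = diamS H A (k5uqG L q m n h * k5uqG1 L q m n h) (k5uqGam_mem L q m n h)
          (k5uqGam_mem_M L M q m n h) χ := by
  refine AddMonoidHom.ext fun x => ?_
  obtain ⟨x, rfl⟩ : ∃ x' : gammaH (L * q) M H, Additive.ofMul x' = x := ⟨Additive.toMul x, rfl⟩
  show χ (Additive.ofMul (k5uqNu L M q H m n h (k5uqNu L M q H m n h x)))
    = χ (Additive.ofMul (conjHom (k5uqG L q m n h * k5uqG1 L q m n h)
        (normalizes_gammaH (k5uqGam_mem L q m n h) (k5uqGam_mem_M L M q m n h)) x))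
  congr 2
  apply Subtype.ext
  exact k5uq_nu_nu L M q H m n h x

/-- `cores` is equivariant for the conjugation by `z ∈ Γ₀(L q)` -/
theorem k5uq_cores_diam (z : SL(2, ℤ)) (hzLq : z ∈ Gamma0 (L * q)) (hzL : z ∈ Gamma0 L)
    (hzM : z ∈ Gamma0 M) (ψ : HomS (gammaH (L * q) M H) A) :
    coresH L M q H A (diamS H A z hzLq hzM ψ) = diamS H A z hzL hzM (coresH L M q H A ψ) := by
  have hsurj : Function.Surjective
      (conjHom z (normalizes_gammaH (H := H) hzLq hzM)) := by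
    intro k
    refine ⟨⟨z * k * z⁻¹, Fermat.Agent.ES1.conj_mem_gammaH hzLq hzM k.2⟩, ?_⟩
    apply Subtype.ext
    show z⁻¹ * (z * k * z⁻¹) * z = k
    group
  have hE := S41.transferAlong_equivariant (inclH L M q H) (inclH_injective L M q H) A
    (conjHom z (normalizes_gammaH (H := H) hzLq hzM)) (k5c_conjEquiv L M H z hzL hzM)
    (fun k => Subtype.ext rfl) hsurj ψ
  exact hE

end results

section main

variable (L M q : ℕ) [NeZero L] [NeZero q] [hML : Fact (M ∣ L)] (H : Subgroup (ZMod M)ˣ)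
  (A : Type) [AddCommGroup A] (m n : ℤ) (h : (q : ℤ) * n - L * m = 1)

include h in
/-- (R1) `U (res_δ φ) = q • res φ` -/
theorem k5uq_R1 (hq : q.Prime) (hqL : ¬ q ∣ L) (φ : HomS (gammaH L M H) A) :
    haveI : Fact (M ∣ L * q) := ⟨k5uq_dvd_mul L M q⟩
    tS (L * q) M q H A (resDH L M q H A φ) = q • resH L M q H A φ := by
  haveI : Fact (M ∣ L * q) := ⟨k5uq_dvd_mul L M q⟩
  have e1 := k5uq_M1 L M q H A m n h hq (resDH L M q H A φ)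
  rw [(stmtIdx L M q H A hq hqL φ).1, k5uq_resD_nu, map_nsmul] at e1
  have e2 : tS (L * q) M q H A (resDH L M q H A φ)
      = (q + 1) • resH L M q H A φ - resH L M q H A φ := eq_sub_of_add_eq e1.symm
  rw [e2, succ_nsmul, add_sub_cancel_right]

/-- (R2) `U (res φ) = res (T φ) − res_δ (⟨g₁⟩ φ)` -/
theorem k5uq_R2 (hq : q.Prime) (φ : HomS (gammaH L M H) A) :
    haveI : Fact (M ∣ L * q) := ⟨k5uq_dvd_mul L M q⟩
    tS (L * q) M q H A (resH L M q H A φ)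
      = resH L M q H A (tS L M q H A φ)
        - resDH L M q H A (diamS H A (k5uqG1 L q m n h) (k5uqG1_mem_Gamma0 L q m n h)
            (k5uqG1_mem_M L M q m n h) φ) := by
  haveI : Fact (M ∣ L * q) := ⟨k5uq_dvd_mul L M q⟩
  have e1 := k5uq_M1 L M q H A m n h hq (resH L M q H A φ)
  rw [k5uq_res_nu] at e1
  exact eq_sub_of_add_eq e1.symm

include h in
/-- (R3) `cores (U ψ) = q • cores_δ ψ` -/
theorem k5uq_R3 (hq : q.Prime) (hqL : ¬ q ∣ L) (ψ : HomS (gammaH (L * q) M H) A) :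
    haveI : Fact (M ∣ L * q) := ⟨k5uq_dvd_mul L M q⟩
    coresH L M q H A (tS (L * q) M q H A ψ) = q • coresDH L M q H A ψ := by
  haveI : Fact (M ∣ L * q) := ⟨k5uq_dvd_mul L M q⟩
  have hc : Nat.Coprime q L := (Nat.Prime.coprime_iff_not_dvd hq).mpr hqL
  have e1 := k5uq_M1 L M q H A m n h hq ψ
  have e2 : tS (L * q) M q H A ψ
      = resH L M q H A (coresDH L M q H A ψ) - k5uqNuS L M q H A m n h ψ :=
    eq_sub_of_add_eq e1.symm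
  rw [e2, map_sub, (stmtIdx L M q H A hq hqL (coresDH L M q H A ψ)).2,
    ← k5uq_W1 L M q H A m n h hc ψ, succ_nsmul, add_sub_cancel_right]

/-- (R4) `cores_δ (U ψ) = T (cores_δ ψ) − ⟨γ₀⟩ (cores ψ)` -/
theorem k5uq_R4 (hq : q.Prime) (hqL : ¬ q ∣ L) (ψ : HomS (gammaH (L * q) M H) A) :
    haveI : Fact (M ∣ L * q) := ⟨k5uq_dvd_mul L M q⟩
    coresDH L M q H A (tS (L * q) M q H A ψ)
      = tS L M q H A (coresDH L M q H A ψ)
        - diamS H A (k5uqG L q m n h * k5uqG1 L q m n h) (k5uqGam_mem_L L q m n h)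
            (k5uqGam_mem_M L M q m n h) (coresH L M q H A ψ) := by
  haveI : Fact (M ∣ L * q) := ⟨k5uq_dvd_mul L M q⟩
  have hc : Nat.Coprime q L := (Nat.Prime.coprime_iff_not_dvd hq).mpr hqL
  have e1 := k5uq_M1 L M q H A m n h hq ψ
  have e2 : tS (L * q) M q H A ψ
      = resH L M q H A (coresDH L M q H A ψ) - k5uqNuS L M q H A m n h ψ :=
    eq_sub_of_add_eq e1.symm
  rw [e2, map_sub, k5uq_W1 L M q H A m n h hc (k5uqNuS L M q H A m n h ψ), k5uq_nu_nu_S,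
    k5uq_cores_diam L M q H A _ (k5uqGam_mem L q m n h) (k5uqGam_mem_L L q m n h)
      (k5uqGam_mem_M L M q m n h) ψ]
  rfl

/-- (R5) `T = T* ∘ ⟨g₁⟩` -/
theorem k5uq_R5 (hq : q.Prime) (hqL : ¬ q ∣ L) (φ : HomS (gammaH L M H) A) :
    tS L M q H A φ
      = tSadj L M q H A (diamS H A (k5uqG1 L q m n h) (k5uqG1_mem_Gamma0 L q m n h)
          (k5uqG1_mem_M L M q m n h) φ) := by
  have hc : Nat.Coprime q L := (Nat.Prime.coprime_iff_not_dvd hq).mpr hqL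
  show coresDH L M q H A (resH L M q H A φ) = coresH L M q H A (resDH L M q H A _)
  rw [k5uq_W1 L M q H A m n h hc, k5uq_res_nu]

/-- (R6) `U² = ⟨γ₀⟩` on `ker cores ∩ ker cores_δ` -/
theorem k5uq_R6 (hq : q.Prime) (hqL : ¬ q ∣ L) (ψ : HomS (gammaH (L * q) M H) A)
    (h1 : coresH L M q H A ψ = 0) (h2 : coresDH L M q H A ψ = 0) :
    haveI : Fact (M ∣ L * q) := ⟨k5uq_dvd_mul L M q⟩
    tS (L * q) M q H A (tS (L * q) M q H A ψ)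
      = diamS H A (k5uqG L q m n h * k5uqG1 L q m n h) (k5uqGam_mem L q m n h)
          (k5uqGam_mem_M L M q m n h) ψ := by
  haveI : Fact (M ∣ L * q) := ⟨k5uq_dvd_mul L M q⟩
  have hc : Nat.Coprime q L := (Nat.Prime.coprime_iff_not_dvd hq).mpr hqL
  -- `U ψ = − ψ ∘ ν`
  have e1 := k5uq_M1 L M q H A m n h hq ψ
  rw [h2, map_zero] at e1
  have e2 : tS (L * q) M q H A ψ = - k5uqNuS L M q H A m n h ψ :=
    eq_neg_of_add_eq_zero_left e1.symm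
  -- `U (ψ ∘ ν) = − ψ ∘ ν ∘ ν`
  have e3 := k5uq_M1 L M q H A m n h hq (k5uqNuS L M q H A m n h ψ)
  have e4 : coresDH L M q H A (k5uqNuS L M q H A m n h ψ) = 0 := by
    rw [k5uq_W1 L M q H A m n h hc, k5uq_nu_nu_S,
      k5uq_cores_diam L M q H A _ (k5uqGam_mem L q m n h) (k5uqGam_mem_L L q m n h)
        (k5uqGam_mem_M L M q m n h) ψ, h1, map_zero]
  rw [e4, map_zero, k5uq_nu_nu_S] at e3
  have e5 : tS (L * q) M q H A (k5uqNuS L M q H A m n h ψ)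
      = - diamS H A (k5uqG L q m n h * k5uqG1 L q m n h) (k5uqGam_mem L q m n h)
          (k5uqGam_mem_M L M q m n h) ψ := eq_neg_of_add_eq_zero_left e3.symm
  rw [e2, map_neg, e5, neg_neg]

end main

/-! ## the Props of `UQPlan.lean` -/

theorem k5uq_diam_eq {M q : ℕ} {g g' : SL(2, ℤ)} {hgM : g ∈ Gamma0 M} {hgM' : g' ∈ Gamma0 M}
    (h : IsDiamQ M q g hgM) (h' : IsDiamQ M q g' hgM') :
    diamHom M ⟨g, hgM⟩ = diamHom M ⟨g', hgM'⟩ :=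
  Units.ext (h.trans h'.symm)

/-- **K5-UQ (R1–R5)** -/
theorem stmtUQMix : StmtUQMix := by
  intro L M q _ _ hML H A _ hq hqL g hgL hgM hg
  have hc : Nat.Coprime q L := (Nat.Prime.coprime_iff_not_dvd hq).mpr hqL
  obtain ⟨n, m, h⟩ := S41.ata_bezout hc
  have hd1 : ∀ φ : HomS (gammaH L M H) A, diamS H A g hgL hgM φ
      = diamS H A (k5uqG1 L q m n h) (k5uqG1_mem_Gamma0 L q m n h)
          (k5uqG1_mem_M L M q m n h) φ := fun φ =>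
    k5c_diam_congr L M H A g _ hgL hgM _ _
      (k5uq_diam_eq hg (k5uqG1_diam L q m n h _)) φ
  have hd2 : ∀ φ : HomS (gammaH L M H) A, diamS H A g hgL hgM φ
      = diamS H A (k5uqG L q m n h * k5uqG1 L q m n h) (k5uqGam_mem_L L q m n h)
          (k5uqGam_mem_M L M q m n h) φ := fun φ =>
    k5c_diam_congr L M H A g _ hgL hgM _ _
      (k5uq_diam_eq hg (k5uqGam_diam L q m n h hML.out _)) φ
  refine ⟨k5uq_R1 L M q H A m n h hq hqL, fun φ => ?_, k5uq_R3 L M q H A m n h hq hqL,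
    fun ψ => ?_, fun φ => ?_⟩
  · rw [hd1]; exact k5uq_R2 L M q H A m n h hq φ
  · rw [hd2]; exact k5uq_R4 L M q H A m n h hq hqL ψ
  · rw [hd1]; exact k5uq_R5 L M q H A m n h hq hqL φ

/-- **K5-UQ (R6)** -/
theorem stmtUQNew : StmtUQNew := by
  intro L M q _ _ hML H A _ hq hqL g hgL hgM hg ψ h1 h2
  have hc : Nat.Coprime q L := (Nat.Prime.coprime_iff_not_dvd hq).mpr hqL
  obtain ⟨n, m, h⟩ := S41.ata_bezout hc
  haveI : Fact (M ∣ L * q) := ⟨k5uq_dvd_mul L M q⟩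
  rw [k5c_diam_congr (L * q) M H A g _ hgL hgM (k5uqGam_mem L q m n h)
    (k5uqGam_mem_M L M q m n h) (k5uq_diam_eq hg (k5uqGam_diam L q m n h hML.out _)) ψ]
  exact k5uq_R6 L M q H A m n h hq hqL ψ h1 h2

/-- **K5-UQ, `tr ∘ i`** -/
theorem stmtUQOld : StmtUQOld := by
  intro L M q _ _ hML H A _ hq hqL φ
  exact ⟨(stmtIdx L M q H A hq hqL φ).2, (stmtIdx L M q H A hq hqL φ).1, rfl, rfl⟩

/-- for `H = ⊤` the diamonds act trivially -/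
theorem k5uq_diam_top (L M : ℕ) (A : Type) [AddCommGroup A] (g : SL(2, ℤ))
    (hgL : g ∈ Gamma0 L) (hgM : g ∈ Gamma0 M)
    (φ : HomS (gammaH L M (⊤ : Subgroup (ZMod M)ˣ)) A) :
    diamS ⊤ A g hgL hgM φ = φ := by
  have hg : g ∈ gammaH L M (⊤ : Subgroup (ZMod M)ˣ) :=
    ⟨hgL, hgM, Fermat.Agent.ES1.le_pmH ⊤ (Subgroup.mem_top _)⟩
  refine AddMonoidHom.ext fun x => ?_
  obtain ⟨x, rfl⟩ : ∃ x' : gammaH L M (⊤ : Subgroup (ZMod M)ˣ), Additive.ofMul x' = x :=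
    ⟨Additive.toMul x, rfl⟩
  show φ (Additive.ofMul ⟨g⁻¹ * x * g, _⟩) = φ (Additive.ofMul x)
  have e : (⟨g⁻¹ * x * g, normalizes_gammaH hgL hgM x x.2⟩ :
      gammaH L M (⊤ : Subgroup (ZMod M)ˣ)) = (⟨g, hg⟩ : gammaH L M ⊤)⁻¹ * x * ⟨g, hg⟩ :=
    Subtype.ext rfl
  rw [e, ofMul_mul, ofMul_mul, ofMul_inv, map_add, map_add, map_neg]
  abel

/-- **K5-UQ for `H = ⊤`** -/
theorem stmtUQTop : StmtUQTop := by
  intro L M q _ _ hML A _ hq hqL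
  have hc : Nat.Coprime q L := (Nat.Prime.coprime_iff_not_dvd hq).mpr hqL
  obtain ⟨n, m, h⟩ := S41.ata_bezout hc
  haveI : Fact (M ∣ L * q) := ⟨k5uq_dvd_mul L M q⟩
  refine ⟨k5uq_R1 L M q ⊤ A m n h hq hqL, fun φ => ?_, k5uq_R3 L M q ⊤ A m n h hq hqL,
    fun ψ => ?_, fun φ => ?_, fun ψ h1 h2 => ?_⟩
  · have e := k5uq_R2 L M q ⊤ A m n h hq φ
    rw [k5uq_diam_top] at e
    exact e
  · have e := k5uq_R4 L M q ⊤ A m n h hq hqL ψ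
    rw [k5uq_diam_top] at e
    exact e
  · have e := k5uq_R5 L M q ⊤ A m n h hq hqL φ
    rw [k5uq_diam_top] at e
    exact e
  · have e := k5uq_R6 L M q ⊤ A m n h hq hqL ψ h1 h2
    rw [k5uq_diam_top] at e
    exact e

end Fermat.Agent.RT.K5

end
end ZBRT_034_1

/-! ### bundled: `Fermat.Agent.RT.K5.TWStep` -/
section ZBRT_034_2

/-!
# RT-K5, piece TWSTEP: the Taylor–Wiles step `Γ₀(L) ⊃ Γ₀(L q)` — `stmtTWStep : StmtTWStep`

`H = ⊤`, `A` a finite `𝒪`-module, `𝔡 : DegFam 𝒪 L M q`, `Θ_lo = 𝔡.lo ∘ (T_ℓ₀ − ℓ₀ − 1)`,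
`Θ_hi = 𝔡.hi ∘ (T_ℓ₀ − ℓ₀ − 1)`.  `stmtTWAbs` is applied to
`X = Hom(Γ₀(L), A)`, `Y = Hom(Γ₀(L q), A)`, `r₁ = res`, `r₂ = res_δ`, `c₁ = cores`, `c₂ = cores_δ`,
`T = T_q`, `U = U_q`; the relations are `stmtUQTop`, `stmtUQOld`; `Θ` commutes with the
degeneracy maps by the fields of `𝔡` and `stmtDegComm` (for `T_ℓ₀`), with `T_q`, `U_q` by the
fields of `𝔡` and `stmtCommTU`.  Finally
`thetaN (𝔡.hi.comp (usqFam 𝒪 L M q)) = Θ_hi ∘ (U_q² − 1)` (`k5ts_theta_usq`).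
-/

set_option autoImplicit false
set_option linter.style.haveILetI false
set_option linter.unusedSectionVars false
set_option linter.unusedVariables false

noncomputable section

namespace Fermat.Agent.RT.K5

open CongruenceSubgroup Matrix
open scoped MatrixGroups
open Fermat.Agent.ES1 (gammaH diamHom pmH)

section eta

variable (N M : ℕ) [NeZero N] [hMN : Fact (M ∣ N)] (H : Subgroup (ZMod M)ˣ)
  (A : Type) [AddCommGroup A]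

/-- `tS q` commutes with `η = T_ℓ₀ − ℓ₀ − 1` (both primes) -/
theorem k5ts_eta_comm (q ℓ₀ : ℕ) [NeZero q] [NeZero ℓ₀] (hq : q.Prime) (hℓ₀ : ℓ₀.Prime)
    (χ : HomS (gammaH N M H) A) :
    tS N M q H A (etaS N M ℓ₀ H A χ) = etaS N M ℓ₀ H A (tS N M q H A χ) := by
  show tS N M q H A (tS N M ℓ₀ H A χ - (ℓ₀ + 1) • χ)
    = tS N M ℓ₀ H A (tS N M q H A χ) - (ℓ₀ + 1) • tS N M q H A χ
  rw [map_sub, map_nsmul, (stmtCommTU N M q ℓ₀ H A hq hℓ₀ χ).1]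

end eta

section theta

variable {𝒪 : Type} [CommRing 𝒪] {L M q : ℕ} [NeZero L] [NeZero q] [hML : Fact (M ∣ L)]
  [hMLq : Fact (M ∣ L * q)]

/-- the scalar `−1` -/
theorem k5ts_neg_one {Γ : Subgroup SL(2, ℤ)} (A : Type) [AddCommGroup A] [Module 𝒪 A]
    (χ : HomS Γ A) : (DistribSMul.toAddMonoidHom A (-1 : 𝒪)).comp χ = -χ := by
  refine AddMonoidHom.ext fun γ => ?_
  show (-1 : 𝒪) • χ γ = -(χ γ)
  rw [neg_smul, one_smul]

/-- `Θ` of `𝔳 ∘ (U_q² − 1)` is `Θ_𝔳 ∘ (U_q² − 1)` -/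
theorem k5ts_theta_usq (𝔳 : NatFam 𝒪 (L * q) M) (ℓ₀ : ℕ) [NeZero ℓ₀] (hq : q.Prime)
    (hℓ₀ : ℓ₀.Prime) (A : Type) [AddCommGroup A] [Module 𝒪 A] (H : Subgroup (ZMod M)ˣ) :
    thetaN (𝔳.comp (usqFam 𝒪 L M q)) ℓ₀ A H
      = (thetaN 𝔳 ℓ₀ A H).comp
          ((tS (L * q) M q H A).comp (tS (L * q) M q H A) - AddMonoidHom.id _) := by
  refine AddMonoidHom.ext fun ψ => ?_
  show (𝔳.fam A).op H (tS (L * q) M q H A (tS (L * q) M q H A (etaS (L * q) M ℓ₀ H A ψ))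
        + (DistribSMul.toAddMonoidHom A (-1 : 𝒪)).comp (etaS (L * q) M ℓ₀ H A ψ))
    = (𝔳.fam A).op H (etaS (L * q) M ℓ₀ H A
        (tS (L * q) M q H A (tS (L * q) M q H A ψ) - ψ))
  rw [k5ts_neg_one, k5ts_eta_comm (L * q) M H A q ℓ₀ hq hℓ₀,
    k5ts_eta_comm (L * q) M H A q ℓ₀ hq hℓ₀, map_sub, sub_eq_add_neg]

end theta

/-- **K5-TWSTEP** -/
theorem stmtTWStep : StmtTWStep := by
  intro 𝒪 _ L M q ℓ₀ _ _ _ hML hMLq 𝔡 A _ _ _ hq hqL hℓ₀ hℓ₀L hne hinj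
  haveI : Finite (HomS (gammaH L M (⊤ : Subgroup (ZMod M)ˣ)) A) := k5s_finite_homS _ A
  haveI : NeZero (L * q) := inferInstance
  haveI : Finite (HomS (gammaH (L * q) M (⊤ : Subgroup (ZMod M)ˣ)) A) := k5s_finite_homS _ A
  obtain ⟨u1, u2, u3, u4, u5, u6⟩ := stmtUQTop L M q A hq hqL
  have hold := stmtUQOld L M q (⊤ : Subgroup (ZMod M)ˣ) A hq hqL
  obtain ⟨d1, d2, d3, d4⟩ := stmtDegComm L M q ℓ₀ (⊤ : Subgroup (ZMod M)ˣ) A hq hℓ₀ hne.symm hqL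
  have hΘ := k5ts_theta_usq (L := L) (q := q) 𝔡.hi ℓ₀ hq hℓ₀ A (⊤ : Subgroup (ZMod M)ˣ)
  rw [hΘ]
  refine stmtTWAbs (HomS (gammaH L M (⊤ : Subgroup (ZMod M)ˣ)) A)
    (HomS (gammaH (L * q) M (⊤ : Subgroup (ZMod M)ˣ)) A) q
    (tS L M q ⊤ A) (thetaN 𝔡.lo ℓ₀ A ⊤) (tS (L * q) M q ⊤ A) (thetaN 𝔡.hi ℓ₀ A ⊤)
    (resH L M q ⊤ A) (resDH L M q ⊤ A) (coresH L M q ⊤ A) (coresDH L M q ⊤ A)
    (fun φ => (hold φ).1) (fun φ => (hold φ).2.1) ?_ (fun φ => (hold φ).2.2.1)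
    u1 u2 u3 u4 u6 ?_ ?_ ?_ ?_ ?_ ?_ hinj
  · -- `cores ∘ res_δ = T* = T`
    intro φ
    rw [(hold φ).2.2.2, u5 φ]
  · -- `res ∘ Θ = Θ ∘ res`
    intro φ
    show resH L M q ⊤ A ((𝔡.lo.fam A).op ⊤ (tS L M ℓ₀ ⊤ A φ - (ℓ₀ + 1) • φ))
      = (𝔡.hi.fam A).op ⊤ (tS (L * q) M ℓ₀ ⊤ A (resH L M q ⊤ A φ)
          - (ℓ₀ + 1) • resH L M q ⊤ A φ)
    rw [𝔡.res_comm, map_sub, map_nsmul, d1]
  · -- `res_δ ∘ Θ = Θ ∘ res_δ`
    intro φ
    show resDH L M q ⊤ A ((𝔡.lo.fam A).op ⊤ (tS L M ℓ₀ ⊤ A φ - (ℓ₀ + 1) • φ))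
      = (𝔡.hi.fam A).op ⊤ (tS (L * q) M ℓ₀ ⊤ A (resDH L M q ⊤ A φ)
          - (ℓ₀ + 1) • resDH L M q ⊤ A φ)
    rw [𝔡.resD_comm, map_sub, map_nsmul, d2]
  · -- `cores ∘ Θ = Θ ∘ cores`
    intro ψ
    show coresH L M q ⊤ A ((𝔡.hi.fam A).op ⊤ (tS (L * q) M ℓ₀ ⊤ A ψ - (ℓ₀ + 1) • ψ))
      = (𝔡.lo.fam A).op ⊤ (tS L M ℓ₀ ⊤ A (coresH L M q ⊤ A ψ)
          - (ℓ₀ + 1) • coresH L M q ⊤ A ψ)
    rw [𝔡.cores_comm, map_sub, map_nsmul, d3]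
  · -- `cores_δ ∘ Θ = Θ ∘ cores_δ`
    intro ψ
    show coresDH L M q ⊤ A ((𝔡.hi.fam A).op ⊤ (tS (L * q) M ℓ₀ ⊤ A ψ - (ℓ₀ + 1) • ψ))
      = (𝔡.lo.fam A).op ⊤ (tS L M ℓ₀ ⊤ A (coresDH L M q ⊤ A ψ)
          - (ℓ₀ + 1) • coresDH L M q ⊤ A ψ)
    rw [𝔡.coresD_comm, map_sub, map_nsmul, d4]
  · -- `T_q ∘ Θ = Θ ∘ T_q`
    intro φ
    show tS L M q ⊤ A ((𝔡.lo.fam A).op ⊤ (etaS L M ℓ₀ ⊤ A φ))
      = (𝔡.lo.fam A).op ⊤ (etaS L M ℓ₀ ⊤ A (tS L M q ⊤ A φ))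
    rw [𝔡.t_comm, k5ts_eta_comm L M ⊤ A q ℓ₀ hq hℓ₀]
  · -- `U_q ∘ Θ = Θ ∘ U_q`
    intro ψ
    show tS (L * q) M q ⊤ A ((𝔡.hi.fam A).op ⊤ (etaS (L * q) M ℓ₀ ⊤ A ψ))
      = (𝔡.hi.fam A).op ⊤ (etaS (L * q) M ℓ₀ ⊤ A (tS (L * q) M q ⊤ A ψ))
    rw [𝔡.u_comm, k5ts_eta_comm (L * q) M ⊤ A q ℓ₀ hq hℓ₀]

end Fermat.Agent.RT.K5

end
end ZBRT_034_2

/-! ### bundled: `Fermat.Agent.RT.K5.TWIter` -/
section ZBRT_034_3

/-!
# RT-K5, piece ITER (K5-BASE, helper59's (Q3)): the Taylor–Wiles step iterated over a list `Q`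

`e : HExpr 𝒪` a Hecke polynomial expression, `Θ_e = e ∘ (T_ℓ₀ − ℓ₀ − 1)`, `X_e(L) = etaPart Θ_e`
on `Hom(Γ₀(L), A)` (`H = ⊤`).  `Q` a list of distinct primes `q ∤ L`, `q ≠ ℓ₀`, `e` avoids `q`;
`N = L · ∏ Q`.

* `K5TWCond` : `(q + 1)² − T_q²` is injective on `X_e(L)` for every `q ∈ Q`;
* `K5TWSystem … ι` : `ι : ∀ A, I → Hom(Γ₀(L), A) →+ Hom(Γ₀(N), A)` is natural in `A`, commutes with
  `tS ℓ` for every prime `ℓ ∉ Q`, and (for finite `A` with `K5TWCond`)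
  `(φ_i)_i ↦ ∑ i, ι i (φ_i)` is a bijection `X_e(L)^I → X_{e.twist Q}(N)`;
* `k5ti_step` : one more prime (`stmtTWStep`); `k5ti_exists` : induction over `Q`, `#I = 2 ^ #Q`;
* `stmtTWIter : StmtTWIter` : the same with `I = Fin (2 ^ Q.length)`;
* `k5ti_mod` : the same with ANY modulus `M' ∣ N` at level `N` (`ModTop`);
* `k5ti_card` : `#X_{e.twist Q}(N) = #X_e(L) ^ #I`; `k5ti_op` : `ι` commutes with the operator of
  every expression avoiding `Q`.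
-/

set_option autoImplicit false
set_option linter.style.haveILetI false
set_option linter.unusedSectionVars false
set_option linter.unusedVariables false

noncomputable section

namespace Fermat.Agent.RT.K5

open CongruenceSubgroup Matrix
open scoped MatrixGroups
open Fermat.Agent.ES1 (gammaH diamHom pmH)

section defs

variable (𝒪 : Type) [CommRing 𝒪] (L M M' N ℓ₀ : ℕ) [NeZero L] [NeZero N] [NeZero ℓ₀]
  [hML : Fact (M ∣ L)] [hMN : Fact (M' ∣ N)]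

/-- the Taylor–Wiles condition at the primes of `Q`: `(q + 1)² − T_q²` is injective on the
`Θ_e`-part of level `L` -/
def K5TWCond (e : HExpr 𝒪) (Q : List ℕ) (A : Type) [AddCommGroup A] [Module 𝒪 A] : Prop :=
  ∀ (q : ℕ) [NeZero q], q ∈ Q →
    ∀ φ ∈ etaPart (thetaN (e.eval L M) ℓ₀ A (⊤ : Subgroup (ZMod M)ˣ)),
      (q + 1) • (q + 1) • φ - tS L M q ⊤ A (tS L M q ⊤ A φ) = 0 → φ = 0

/-- `ι` is a Taylor–Wiles system from level `L` (modulus `M`, operator `e`) to level `N`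
(modulus `M'`, operator `E`) for the primes of `Q` -/
structure K5TWSystem (e E : HExpr 𝒪) (Q : List ℕ) {I : Type} [Fintype I]
    (ι : ∀ (A : Type) [AddCommGroup A], I →
      (HomS (gammaH L M (⊤ : Subgroup (ZMod M)ˣ)) A →+
        HomS (gammaH N M' (⊤ : Subgroup (ZMod M')ˣ)) A)) : Prop where
  nat : ∀ (A B : Type) [AddCommGroup A] [AddCommGroup B] (f : A →+ B) (i : I)
    (φ : HomS (gammaH L M (⊤ : Subgroup (ZMod M)ˣ)) A),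
    mapS f (ι A i φ) = ι B i (mapS f φ)
  hecke : ∀ (A : Type) [AddCommGroup A] (ℓ : ℕ) [NeZero ℓ], ℓ.Prime → ℓ ∉ Q → ∀ (i : I)
    (φ : HomS (gammaH L M (⊤ : Subgroup (ZMod M)ˣ)) A),
    tS N M' ℓ ⊤ A (ι A i φ) = ι A i (tS L M ℓ ⊤ A φ)
  mem : ∀ (A : Type) [AddCommGroup A] [Module 𝒪 A] [Finite A], K5TWCond 𝒪 L M ℓ₀ e Q A →
    ∀ φ : I → HomS (gammaH L M (⊤ : Subgroup (ZMod M)ˣ)) A,
      (∀ i, φ i ∈ etaPart (thetaN (e.eval L M) ℓ₀ A ⊤)) →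
      ∑ i, ι A i (φ i) ∈ etaPart (thetaN (E.eval N M') ℓ₀ A ⊤)
  inj : ∀ (A : Type) [AddCommGroup A] [Module 𝒪 A] [Finite A], K5TWCond 𝒪 L M ℓ₀ e Q A →
    ∀ φ : I → HomS (gammaH L M (⊤ : Subgroup (ZMod M)ˣ)) A,
      (∀ i, φ i ∈ etaPart (thetaN (e.eval L M) ℓ₀ A ⊤)) →
      ∑ i, ι A i (φ i) = 0 → ∀ i, φ i = 0
  surj : ∀ (A : Type) [AddCommGroup A] [Module 𝒪 A] [Finite A], K5TWCond 𝒪 L M ℓ₀ e Q A →
    ∀ ψ ∈ etaPart (thetaN (E.eval N M') ℓ₀ A ⊤),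
      ∃ φ : I → HomS (gammaH L M (⊤ : Subgroup (ZMod M)ˣ)) A,
        (∀ i, φ i ∈ etaPart (thetaN (e.eval L M) ℓ₀ A ⊤)) ∧ ψ = ∑ i, ι A i (φ i)

/-- **K5-ITER** the Taylor–Wiles step iterated over a list `Q` of primes. -/
def StmtTWIter : Prop :=
  ∀ (𝒪 : Type) [CommRing 𝒪] (L M ℓ₀ : ℕ) [NeZero L] [NeZero ℓ₀] [Fact (M ∣ L)] (e : HExpr 𝒪)
    (Q : List ℕ) (N : ℕ) [NeZero N] [Fact (M ∣ N)],
    N = L * Q.prod → Q.Nodup → (∀ q ∈ Q, q.Prime ∧ ¬ q ∣ L ∧ q ≠ ℓ₀ ∧ e.Avoids q) →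
    ℓ₀.Prime → ¬ ℓ₀ ∣ L →
    ∃ ι : ∀ (A : Type) [AddCommGroup A], Fin (2 ^ Q.length) →
        (HomS (gammaH L M (⊤ : Subgroup (ZMod M)ˣ)) A →+
          HomS (gammaH N M (⊤ : Subgroup (ZMod M)ˣ)) A),
      K5TWSystem 𝒪 L M M N ℓ₀ e (e.twist Q) Q ι

end defs

section basic

variable {𝒪 : Type} [CommRing 𝒪] {L M M' N ℓ₀ : ℕ} [NeZero L] [NeZero N] [NeZero ℓ₀]
  [hML : Fact (M ∣ L)] [hMN : Fact (M' ∣ N)]

theorem K5TWCond.mono {e : HExpr 𝒪} {Q Q' : List ℕ} {A : Type} [AddCommGroup A] [Module 𝒪 A]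
    (h : K5TWCond 𝒪 L M ℓ₀ e Q A) (hQ : ∀ q ∈ Q', q ∈ Q) : K5TWCond 𝒪 L M ℓ₀ e Q' A :=
  fun q _ hq => h q (hQ q hq)

/-- `tS q` commutes with `Θ_e` -/
theorem k5ti_tS_theta (e : HExpr 𝒪) (he : e.IsPrimes) (q : ℕ) [NeZero q] (hq : q.Prime)
    (hℓ₀ : ℓ₀.Prime) (A : Type) [AddCommGroup A] [Module 𝒪 A] (K : Subgroup (ZMod M)ˣ)
    (φ : HomS (gammaH L M K) A) :
    tS L M q K A (thetaN (e.eval L M) ℓ₀ A K φ) = thetaN (e.eval L M) ℓ₀ A K (tS L M q K A φ) := by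
  show tS L M q K A (((e.eval L M).fam A).op K (etaS L M ℓ₀ K A φ))
    = ((e.eval L M).fam A).op K (etaS L M ℓ₀ K A (tS L M q K A φ))
  rw [k5hx_comm_tS L M A K e he q hq, k5ts_eta_comm L M K A q ℓ₀ hq hℓ₀]

/-- `(q + 1)² − T_q²` preserves the `Θ_e`-part -/
theorem k5ti_D_mem (e : HExpr 𝒪) (he : e.IsPrimes) (q : ℕ) [NeZero q] (hq : q.Prime)
    (hℓ₀ : ℓ₀.Prime) (A : Type) [AddCommGroup A] [Module 𝒪 A] (K : Subgroup (ZMod M)ˣ)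
    {φ : HomS (gammaH L M K) A} (hφ : φ ∈ etaPart (thetaN (e.eval L M) ℓ₀ A K)) :
    (q + 1) • (q + 1) • φ - tS L M q K A (tS L M q K A φ)
      ∈ etaPart (thetaN (e.eval L M) ℓ₀ A K) := by
  have hT : ∀ {χ : HomS (gammaH L M K) A}, χ ∈ etaPart (thetaN (e.eval L M) ℓ₀ A K) →
      tS L M q K A χ ∈ etaPart (thetaN (e.eval L M) ℓ₀ A K) := fun hχ =>
    k5s_intertwine_mem _ _ (tS L M q K A) (k5ti_tS_theta e he q hq hℓ₀ A K) hχ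
  exact sub_mem (nsmul_mem (nsmul_mem hφ _) _) (hT (hT hφ))

variable {I : Type} [Fintype I]
  {ι : ∀ (A : Type) [AddCommGroup A], I →
      (HomS (gammaH L M (⊤ : Subgroup (ZMod M)ˣ)) A →+
        HomS (gammaH N M' (⊤ : Subgroup (ZMod M')ˣ)) A)}
  {e E : HExpr 𝒪} {Q : List ℕ}

/-- `ι` is `𝒪`-linear -/
theorem K5TWSystem.smul (h : K5TWSystem 𝒪 L M M' N ℓ₀ e E Q ι) (A : Type) [AddCommGroup A]
    [Module 𝒪 A] (c : 𝒪) (i : I) (φ : HomS (gammaH L M (⊤ : Subgroup (ZMod M)ˣ)) A) :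
    ι A i (c • φ) = c • ι A i φ :=
  (h.nat A A (DistribSMul.toAddMonoidHom A c) i φ).symm

/-- `ι` commutes with the operator of every expression avoiding the primes of `Q` -/
theorem k5ti_op (h : K5TWSystem 𝒪 L M M' N ℓ₀ e E Q ι) (e' : HExpr 𝒪)
    (he' : ∀ q ∈ Q, e'.Avoids q) (he'p : e'.IsPrimes) (A : Type) [AddCommGroup A] [Module 𝒪 A]
    (i : I) (φ : HomS (gammaH L M (⊤ : Subgroup (ZMod M)ˣ)) A) :
    ((e'.eval N M').fam A).op ⊤ (ι A i φ) = ι A i (((e'.eval L M).fam A).op ⊤ φ) := by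
  induction e' generalizing φ with
  | one => rfl
  | hecke ℓ' =>
    haveI : NeZero ℓ' := ⟨(show ℓ'.Prime from he'p).ne_zero⟩
    rw [HExpr.op_hecke, HExpr.op_hecke]
    exact h.hecke A ℓ' he'p (fun hmem => (he' ℓ' hmem).2 rfl) i φ
  | coeff c =>
    rw [HExpr.op_coeff, HExpr.op_coeff, h.smul]
  | add e₁ e₂ ih₁ ih₂ =>
    rw [HExpr.op_add, HExpr.op_add, map_add, ih₁ (fun q hq => (he' q hq).1) he'p.1,
      ih₂ (fun q hq => (he' q hq).2) he'p.2]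
  | comp e₁ e₂ ih₁ ih₂ =>
    rw [HExpr.op_comp, HExpr.op_comp, ih₂ (fun q hq => (he' q hq).2) he'p.2,
      ih₁ (fun q hq => (he' q hq).1) he'p.1]

/-- reindexing -/
theorem K5TWSystem.reindex (h : K5TWSystem 𝒪 L M M' N ℓ₀ e E Q ι) {J : Type} [Fintype J]
    (ε : J ≃ I) : K5TWSystem 𝒪 L M M' N ℓ₀ e E Q (fun A _ j => ι A (ε j)) where
  nat A B _ _ f j φ := h.nat A B f (ε j) φ
  hecke A _ ℓ _ hℓ hℓQ j φ := h.hecke A ℓ hℓ hℓQ (ε j) φ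
  mem A _ _ _ hc φ hφ := by
    have h1 := h.mem A hc (fun i => φ (ε.symm i)) (fun i => hφ _)
    have hs : ∑ j, ι A (ε j) (φ j) = ∑ i, ι A i (φ (ε.symm i)) := by
      rw [← Equiv.sum_comp ε (fun i => ι A i (φ (ε.symm i)))]
      simp only [Equiv.symm_apply_apply]
    rw [hs]
    exact h1
  inj A _ _ _ hc φ hφ h0 j := by
    have hs : ∑ j, ι A (ε j) (φ j) = ∑ i, ι A i (φ (ε.symm i)) := by
      rw [← Equiv.sum_comp ε (fun i => ι A i (φ (ε.symm i)))]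
      simp only [Equiv.symm_apply_apply]
    have h1 : ∑ i, ι A i (φ (ε.symm i)) = 0 := by
      rw [← hs]; exact h0
    have h2 := h.inj A hc (fun i => φ (ε.symm i)) (fun i => hφ _) h1 (ε j)
    simpa only [Equiv.symm_apply_apply] using h2
  surj A _ _ _ hc ψ hψ := by
    obtain ⟨φ, hφ, rfl⟩ := h.surj A hc ψ hψ
    refine ⟨fun j => φ (ε j), fun j => hφ _, ?_⟩
    exact (Equiv.sum_comp ε (fun i => ι A i (φ i))).symm

/-- change of the modulus at level `N` -/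
theorem K5TWSystem.castTop (h : K5TWSystem 𝒪 L M M' N ℓ₀ e E Q ι) (M'' : ℕ)
    [hMN' : Fact (M'' ∣ N)] :
    K5TWSystem 𝒪 L M M'' N ℓ₀ e E Q
      (fun A _ i => (k5mt_cast A (k5mt_top_eq N M' M'')).comp (ι A i)) where
  nat A B _ _ f i φ := by
    show mapS f (k5mt_cast A (k5mt_top_eq N M' M'') (ι A i φ))
      = k5mt_cast B (k5mt_top_eq N M' M'') (ι B i (mapS f φ))
    rw [← h.nat A B f i φ]
    rfl
  hecke A _ ℓ _ hℓ hℓQ i φ := by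
    show tS N M'' ℓ ⊤ A (k5mt_cast A (k5mt_top_eq N M' M'') (ι A i φ))
      = k5mt_cast A (k5mt_top_eq N M' M'') (ι A i (tS L M ℓ ⊤ A φ))
    rw [← h.hecke A ℓ hℓ hℓQ i φ, k5mt_top_tS]
  mem A _ _ _ hc φ hφ := by
    have h1 := h.mem A hc φ hφ
    have h2 := (k5hx_cast_top_mem N M' M'' A E ℓ₀ _).mpr h1
    rwa [map_sum] at h2
  inj A _ _ _ hc φ hφ h0 := by
    refine h.inj A hc φ hφ ?_
    have h1 : k5mt_cast A (k5mt_top_eq N M' M'') (∑ i, ι A i (φ i)) = 0 := by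
      rw [map_sum]; exact h0
    exact (k5mt_cast_eq_zero A _ _).mp h1
  surj A _ _ _ hc ψ hψ := by
    obtain ⟨ψ', rfl⟩ := k5mt_cast_surjective A (k5mt_top_eq N M' M'') ψ
    have h1 := (k5hx_cast_top_mem N M' M'' A E ℓ₀ ψ').mp hψ
    obtain ⟨φ, hφ, rfl⟩ := h.surj A hc ψ' h1
    exact ⟨φ, hφ, by rw [map_sum]; rfl⟩

/-- the cardinality of the `Θ_E`-part of level `N` -/
theorem k5ti_card (h : K5TWSystem 𝒪 L M M' N ℓ₀ e E Q ι) (A : Type) [AddCommGroup A]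
    [Module 𝒪 A] [Finite A] (hc : K5TWCond 𝒪 L M ℓ₀ e Q A) :
    Nat.card (etaPart (thetaN (E.eval N M') ℓ₀ A (⊤ : Subgroup (ZMod M')ˣ)))
      = Nat.card (etaPart (thetaN (e.eval L M) ℓ₀ A (⊤ : Subgroup (ZMod M)ˣ)))
        ^ Fintype.card I := by
  classical
  let F : (I → etaPart (thetaN (e.eval L M) ℓ₀ A (⊤ : Subgroup (ZMod M)ˣ))) →
      etaPart (thetaN (E.eval N M') ℓ₀ A (⊤ : Subgroup (ZMod M')ˣ)) := fun φ =>
    ⟨∑ i, ι A i (φ i : HomS (gammaH L M (⊤ : Subgroup (ZMod M)ˣ)) A),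
      h.mem A hc (fun i => (φ i : HomS (gammaH L M (⊤ : Subgroup (ZMod M)ˣ)) A))
        (fun i => (φ i).2)⟩
  have hF : Function.Bijective F := by
    constructor
    · intro φ φ' hφφ'
      have h1 : ∑ i, ι A i ((φ i : HomS (gammaH L M (⊤ : Subgroup (ZMod M)ˣ)) A) - φ' i) = 0 := by
        have h2 := congrArg Subtype.val hφφ'
        simp only [F] at h2
        simp only [map_sub, Finset.sum_sub_distrib, h2, sub_self]
      have h3 := h.inj A hc (fun i => (φ i : HomS (gammaH L M (⊤ : Subgroup (ZMod M)ˣ)) A) - φ' i)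
        (fun i => sub_mem (φ i).2 (φ' i).2) h1
      funext i
      exact Subtype.ext (sub_eq_zero.mp (h3 i))
    · rintro ⟨ψ, hψ⟩
      obtain ⟨φ, hφ, rfl⟩ := h.surj A hc ψ hψ
      exact ⟨fun i => ⟨φ i, hφ i⟩, rfl⟩
  rw [← Nat.card_congr (Equiv.ofBijective F hF), Nat.card_fun, Nat.card_eq_fintype_card (α := I)]

end basic

section step

variable {𝒪 : Type} [CommRing 𝒪] {L M N ℓ₀ : ℕ} [NeZero L] [NeZero N] [NeZero ℓ₀]
  [hML : Fact (M ∣ L)] [hMN : Fact (M ∣ N)]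

/-- the base of the induction: `Q = []` -/
theorem k5ti_nil (e : HExpr 𝒪) :
    K5TWSystem 𝒪 L M M L ℓ₀ e e [] (I := Unit) (fun A _ _ => AddMonoidHom.id _) where
  nat A B _ _ f i φ := rfl
  hecke A _ ℓ _ hℓ hℓQ i φ := rfl
  mem A _ _ _ hc φ hφ := by
    simpa using hφ ()
  inj A _ _ _ hc φ hφ h0 i := by
    simpa using h0
  surj A _ _ _ hc ψ hψ := ⟨fun _ => ψ, fun _ => hψ, by simp⟩

/-- **one more Taylor–Wiles prime** -/
theorem k5ti_step {I : Type} [Fintype I] (q : ℕ) [NeZero q] [hMNq : Fact (M ∣ N * q)]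
    (hq : q.Prime) (hqN : ¬ q ∣ N) (hℓ₀ : ℓ₀.Prime) (hℓ₀N : ¬ ℓ₀ ∣ N) (hne : ℓ₀ ≠ q)
    (e E : HExpr 𝒪) (he : e.Avoids q) (hE : E.Avoids q) (Q : List ℕ) (hqQ : q ∉ Q)
    (ι : ∀ (A : Type) [AddCommGroup A], I →
      (HomS (gammaH L M (⊤ : Subgroup (ZMod M)ˣ)) A →+
        HomS (gammaH N M (⊤ : Subgroup (ZMod M)ˣ)) A))
    (h : K5TWSystem 𝒪 L M M N ℓ₀ e E Q ι) :
    K5TWSystem 𝒪 L M M (N * q) ℓ₀ e (E.comp (HExpr.usq 𝒪 q)) (q :: Q) (I := I ⊕ I)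
      (fun A _ x => Sum.elim (fun i => (resH N M q ⊤ A).comp (ι A i))
        (fun i => (resDH N M q ⊤ A).comp (ι A i)) x) := by
  -- the operator at level `N q`
  have hfam : (E.comp (HExpr.usq 𝒪 q)).eval (N * q) M
      = (k5hx_degFam N M q hq hqN E hE).hi.comp (usqFam 𝒪 N M q) := by
    show (E.eval (N * q) M).comp ((HExpr.usq 𝒪 q).eval (N * q) M) = _
    rw [k5hx_eval_usq]
    rfl
  -- the Taylor–Wiles step at level `N`
  have tw : ∀ (A : Type) [AddCommGroup A] [Module 𝒪 A] [Finite A],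
      K5TWCond 𝒪 L M ℓ₀ e (q :: Q) A →
      (∀ φ₁ ∈ etaPart (thetaN (E.eval N M) ℓ₀ A ⊤), ∀ φ₂ ∈ etaPart (thetaN (E.eval N M) ℓ₀ A ⊤),
        resH N M q ⊤ A φ₁ + resDH N M q ⊤ A φ₂
            ∈ etaPart (thetaN ((E.comp (HExpr.usq 𝒪 q)).eval (N * q) M) ℓ₀ A ⊤) ∧
        (resH N M q ⊤ A φ₁ + resDH N M q ⊤ A φ₂ = 0 → φ₁ = 0 ∧ φ₂ = 0)) ∧
      (∀ ψ ∈ etaPart (thetaN ((E.comp (HExpr.usq 𝒪 q)).eval (N * q) M) ℓ₀ A ⊤),
        ∃ φ₁ ∈ etaPart (thetaN (E.eval N M) ℓ₀ A ⊤),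
          ∃ φ₂ ∈ etaPart (thetaN (E.eval N M) ℓ₀ A ⊤),
            ψ = resH N M q ⊤ A φ₁ + resDH N M q ⊤ A φ₂) := by
    intro A _ _ _ hc
    have hcQ : K5TWCond 𝒪 L M ℓ₀ e Q A := hc.mono fun q' hq' => List.mem_cons_of_mem _ hq'
    rw [hfam]
    have key := stmtTWStep 𝒪 N M q ℓ₀ (k5hx_degFam N M q hq hqN E hE) A hq hqN hℓ₀ hℓ₀N hne ?_
    · exact ⟨key.1, key.2.1⟩
    -- the Taylor–Wiles condition at level `N`
    intro ψ hψ hD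
    obtain ⟨φ, hφ, rfl⟩ := h.surj A hcQ ψ hψ
    have h1 : ∑ i, ι A i ((q + 1) • (q + 1) • φ i - tS L M q ⊤ A (tS L M q ⊤ A (φ i))) = 0 := by
      rw [← hD]
      simp only [map_sub, map_nsmul, map_sum, Finset.sum_sub_distrib, Finset.smul_sum,
        h.hecke A q hq hqQ]
    have h2 := h.inj A hcQ _ (fun i => k5ti_D_mem e he.isPrimes q hq hℓ₀ A ⊤ (hφ i)) h1
    have h3 : ∀ i, φ i = 0 := fun i => hc q (List.mem_cons_self ..) (φ i) (hφ i) (h2 i)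
    simp only [h3, map_zero, Finset.sum_const_zero]
  have hsum : ∀ (A : Type) [AddCommGroup A]
      (φ : I ⊕ I → HomS (gammaH L M (⊤ : Subgroup (ZMod M)ˣ)) A),
      ∑ x, (Sum.elim (fun i => (resH N M q ⊤ A).comp (ι A i))
        (fun i => (resDH N M q ⊤ A).comp (ι A i)) x) (φ x)
      = resH N M q ⊤ A (∑ i, ι A i (φ (Sum.inl i)))
        + resDH N M q ⊤ A (∑ i, ι A i (φ (Sum.inr i))) := by
    intro A _ φ
    rw [Fintype.sum_sum_type, map_sum, map_sum]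
    rfl
  refine ⟨?_, ?_, ?_, ?_, ?_⟩
  · -- naturality
    intro A B _ _ f x φ
    cases x with
    | inl i =>
      show mapS f (resH N M q ⊤ A (ι A i φ)) = resH N M q ⊤ B (ι B i (mapS f φ))
      rw [← h.nat A B f i φ]
      rfl
    | inr i =>
      show mapS f (resDH N M q ⊤ A (ι A i φ)) = resDH N M q ⊤ B (ι B i (mapS f φ))
      rw [← h.nat A B f i φ]
      rfl
  · -- Hecke operators
    intro A _ ℓ _ hℓ hℓQ x φ
    have hℓq : q ≠ ℓ := fun hh => hℓQ (hh ▸ List.mem_cons_self ..)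
    have hℓQ' : ℓ ∉ Q := fun hh => hℓQ (List.mem_cons_of_mem _ hh)
    obtain ⟨d1, d2, -, -⟩ := stmtDegComm N M q ℓ (⊤ : Subgroup (ZMod M)ˣ) A hq hℓ hℓq hqN
    cases x with
    | inl i =>
      show tS (N * q) M ℓ ⊤ A (resH N M q ⊤ A (ι A i φ))
        = resH N M q ⊤ A (ι A i (tS L M ℓ ⊤ A φ))
      rw [← h.hecke A ℓ hℓ hℓQ' i φ, d1]
    | inr i =>
      show tS (N * q) M ℓ ⊤ A (resDH N M q ⊤ A (ι A i φ))
        = resDH N M q ⊤ A (ι A i (tS L M ℓ ⊤ A φ))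
      rw [← h.hecke A ℓ hℓ hℓQ' i φ, d2]
  · -- into
    intro A _ _ _ hc φ hφ
    have hcQ : K5TWCond 𝒪 L M ℓ₀ e Q A := hc.mono fun q' hq' => List.mem_cons_of_mem _ hq'
    rw [hsum]
    exact ((tw A hc).1 _ (h.mem A hcQ _ fun i => hφ _) _ (h.mem A hcQ _ fun i => hφ _)).1
  · -- injective
    intro A _ _ _ hc φ hφ h0 x
    have hcQ : K5TWCond 𝒪 L M ℓ₀ e Q A := hc.mono fun q' hq' => List.mem_cons_of_mem _ hq'
    rw [hsum] at h0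
    obtain ⟨h1, h2⟩ :=
      ((tw A hc).1 _ (h.mem A hcQ _ fun i => hφ _) _ (h.mem A hcQ _ fun i => hφ _)).2 h0
    cases x with
    | inl i => exact h.inj A hcQ _ (fun i => hφ _) h1 i
    | inr i => exact h.inj A hcQ _ (fun i => hφ _) h2 i
  · -- onto
    intro A _ _ _ hc ψ hψ
    have hcQ : K5TWCond 𝒪 L M ℓ₀ e Q A := hc.mono fun q' hq' => List.mem_cons_of_mem _ hq'
    obtain ⟨ψ₁, hψ₁, ψ₂, hψ₂, rfl⟩ := (tw A hc).2 ψ hψ
    obtain ⟨φ₁, hφ₁, rfl⟩ := h.surj A hcQ ψ₁ hψ₁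
    obtain ⟨φ₂, hφ₂, rfl⟩ := h.surj A hcQ ψ₂ hψ₂
    refine ⟨Sum.elim φ₁ φ₂, ?_, ?_⟩
    · rintro (i | i)
      · exact hφ₁ i
      · exact hφ₂ i
    · rw [hsum]
      rfl

end step

section main

variable {𝒪 : Type} [CommRing 𝒪] {L M ℓ₀ : ℕ} [NeZero L] [NeZero ℓ₀] [hML : Fact (M ∣ L)]

theorem k5ti_not_dvd {ℓ : ℕ} (hℓ : ℓ.Prime) (hℓL : ¬ ℓ ∣ L) {Q : List ℕ}
    (hQ : ∀ q ∈ Q, q.Prime ∧ q ≠ ℓ) : ¬ ℓ ∣ L * Q.prod := by
  intro hdvd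
  rcases (Nat.Prime.dvd_mul hℓ).mp hdvd with h | h
  · exact hℓL h
  · obtain ⟨q, hq, hℓq⟩ := (Prime.dvd_prod_iff hℓ.prime).mp h
    exact (hQ q hq).2 (((Nat.prime_dvd_prime_iff_eq hℓ (hQ q hq).1).mp hℓq).symm)

theorem k5ti_ne_zero {Q : List ℕ} (hQ : ∀ q ∈ Q, q.Prime) : L * Q.prod ≠ 0 := by
  refine mul_ne_zero (NeZero.ne L) (List.prod_ne_zero fun h0 => ?_)
  exact (hQ 0 h0).ne_zero rfl

/-- **the induction over `Q`** -/
theorem k5ti_exists (e : HExpr 𝒪) (hℓ₀ : ℓ₀.Prime) (hℓ₀L : ¬ ℓ₀ ∣ L) :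
    ∀ (Q : List ℕ), Q.Nodup → (∀ q ∈ Q, q.Prime ∧ ¬ q ∣ L ∧ q ≠ ℓ₀ ∧ e.Avoids q) →
    ∀ (N : ℕ) [NeZero N] [Fact (M ∣ N)], N = L * Q.prod →
    ∃ (I : Type) (_ : Fintype I) (ι : ∀ (A : Type) [AddCommGroup A], I →
        (HomS (gammaH L M (⊤ : Subgroup (ZMod M)ˣ)) A →+
          HomS (gammaH N M (⊤ : Subgroup (ZMod M)ˣ)) A)),
      Fintype.card I = 2 ^ Q.length ∧ K5TWSystem 𝒪 L M M N ℓ₀ e (e.twist Q) Q ι := by
  intro Q
  induction Q with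
  | nil =>
    intro _ _ N _ _ hN
    obtain rfl : N = L := by simpa using hN
    exact ⟨Unit, inferInstance, fun A _ _ => AddMonoidHom.id _, rfl, k5ti_nil e⟩
  | cons q Q ih =>
    intro hnd hQ N _ _ hN
    have hqQ : q ∉ Q := (List.nodup_cons.mp hnd).1
    have hQ' : ∀ q' ∈ Q, q'.Prime ∧ ¬ q' ∣ L ∧ q' ≠ ℓ₀ ∧ e.Avoids q' :=
      fun q' hq' => hQ q' (List.mem_cons_of_mem _ hq')
    obtain ⟨hq, hqL, hqℓ₀, heq⟩ := hQ q (List.mem_cons_self ..)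
    haveI : NeZero q := ⟨hq.ne_zero⟩
    haveI : NeZero (L * Q.prod) := ⟨k5ti_ne_zero fun q' hq' => (hQ' q' hq').1⟩
    haveI : Fact (M ∣ L * Q.prod) := ⟨hML.out.trans (dvd_mul_right _ _)⟩
    obtain ⟨I, hI, ι, hcard, hsys⟩ := ih (List.nodup_cons.mp hnd).2 hQ' (L * Q.prod) rfl
    obtain rfl : N = L * Q.prod * q := by
      rw [hN, List.prod_cons]; ring
    have hqN : ¬ q ∣ L * Q.prod := k5ti_not_dvd hq hqL fun q' hq' =>
      ⟨(hQ' q' hq').1, fun hh => hqQ (hh ▸ hq')⟩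
    have hℓ₀N : ¬ ℓ₀ ∣ L * Q.prod := k5ti_not_dvd hℓ₀ hℓ₀L fun q' hq' =>
      ⟨(hQ' q' hq').1, (hQ' q' hq').2.2.1⟩
    have hE : (e.twist Q).Avoids q := HExpr.avoids_twist heq fun q' hq' =>
      ⟨(hQ' q' hq').1, fun hh => hqQ (hh ▸ hq')⟩
    refine ⟨I ⊕ I, inferInstance, _, ?_,
      k5ti_step q hq hqN hℓ₀ hℓ₀N hqℓ₀.symm e (e.twist Q) heq hE Q hqQ ι hsys⟩
    rw [Fintype.card_sum, hcard, List.length_cons, pow_succ]
    ring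

/-- **K5-ITER** -/
theorem stmtTWIter : StmtTWIter := by
  intro 𝒪 _ L M ℓ₀ _ _ hML e Q N _ _ hN hnd hQ hℓ₀ hℓ₀L
  obtain ⟨I, hI, ι, hcard, hsys⟩ := k5ti_exists (M := M) e hℓ₀ hℓ₀L Q hnd hQ N hN
  have ε : Fin (2 ^ Q.length) ≃ I := (Fintype.equivFinOfCardEq hcard).symm
  exact ⟨fun A _ j => ι A (ε j), hsys.reindex ε⟩

/-- **K5-ITER with a change of modulus** at level `N = L · ∏ Q`: any modulus `M' ∣ N`. -/
theorem k5ti_mod (e : HExpr 𝒪) (hℓ₀ : ℓ₀.Prime) (hℓ₀L : ¬ ℓ₀ ∣ L) (Q : List ℕ) (hnd : Q.Nodup)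
    (hQ : ∀ q ∈ Q, q.Prime ∧ ¬ q ∣ L ∧ q ≠ ℓ₀ ∧ e.Avoids q) (N M' : ℕ) [NeZero N]
    [hMN' : Fact (M' ∣ N)] (hN : N = L * Q.prod) :
    ∃ ι : ∀ (A : Type) [AddCommGroup A], Fin (2 ^ Q.length) →
        (HomS (gammaH L M (⊤ : Subgroup (ZMod M)ˣ)) A →+
          HomS (gammaH N M' (⊤ : Subgroup (ZMod M')ˣ)) A),
      K5TWSystem 𝒪 L M M' N ℓ₀ e (e.twist Q) Q ι := by
  haveI : Fact (M ∣ N) := ⟨hN ▸ hML.out.trans (dvd_mul_right _ _)⟩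
  obtain ⟨ι, hsys⟩ := stmtTWIter 𝒪 L M ℓ₀ e Q N hN hnd hQ hℓ₀ hℓ₀L
  exact ⟨_, K5TWSystem.castTop (M' := M) hsys M'⟩

end main

end Fermat.Agent.RT.K5

end
end ZBRT_034_3
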