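/- GENERATED FILE (helper35, build-time optimisation, NOTES/ZB.md): verbatim concatenation of the modules
   Fermat.Agent.RT.K5.FreeF
   Fermat.Agent.RT.K5.FreeFinFinal
   Do not edit; do not import together with these modules. -/
import Fermat.Agent.ZB.RT_028
import Fermat.Agent.ZB.ES1_001
import Fermat.Agent.ZB.RT_035

/-! ### bundled: `Fermat.Agent.RT.K5.FreeF` -/
section ZBRT_036_0

/-!
# RT-K5, FREE over the residue field: the `Θ`-part of `Hom(Γ_{H'}(L), F)` is free over `F[Γ/Γ']`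

`k5ff_main`: there are `b₁, …, b_r` in the `Θ`-part `X'` of `Hom(Γ_{H'}(L), F)` such that `X'` is
spanned by the `g · b_i` (`g ∈ Γ = Γ_H(L)`), with `#X(Γ) = #F ^ r` and `#X' = #F ^ (r · [Γ : Γ'])`.
(`k5g_main` + `stmtAlgFree`.)
-/

set_option autoImplicit false
set_option linter.style.haveILetI false
set_option linter.unusedSectionVars false
set_option linter.unusedVariables false

noncomputable section

namespace Fermat.Agent.RT.K5

open CongruenceSubgroup Matrix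
open scoped MatrixGroups
open Fermat.Agent.ES1 (gammaH diamHom pmH)

section group

variable {L M : ℕ} [NeZero L] [hML : Fact (M ∣ L)] {H' H : Subgroup (ZMod M)ˣ}

/-- the diamond `Γ_H(L) → ±H` -/
def k5ff_j (L M : ℕ) (H : Subgroup (ZMod M)ˣ) : gammaH L M H →* pmH H where
  toFun γ := ⟨diamHom M ⟨γ, γ.2.2.1⟩, γ.2.2.2⟩
  map_one' := by
    apply Subtype.ext
    have : (⟨((1 : gammaH L M H) : SL(2, ℤ)), (1 : gammaH L M H).2.2.1⟩ : Gamma0 M) = 1 := rfl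
    show diamHom M ⟨((1 : gammaH L M H) : SL(2, ℤ)), _⟩ = 1
    rw [this, map_one]
  map_mul' a b := by
    apply Subtype.ext
    have : (⟨((a * b : gammaH L M H) : SL(2, ℤ)), (a * b).2.2.1⟩ : Gamma0 M)
        = ⟨a, a.2.2.1⟩ * ⟨b, b.2.2.1⟩ := rfl
    show diamHom M ⟨((a * b : gammaH L M H) : SL(2, ℤ)), _⟩
      = diamHom M ⟨a, a.2.2.1⟩ * diamHom M ⟨b, b.2.2.1⟩
    rw [this, map_mul]

/-- `[Γ_H(L) : Γ_{H'}(L)] = [±H : ±H']` -/
theorem k5ff_index (hle : H' ≤ H) :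
    (Subgroup.inclusion (Fermat.Agent.ES1.gammaH_mono (L := L) hle)).range.index
      = ((pmH H').subgroupOf (pmH H)).index := by
  refine k5i_index_eq (k5ff_j L M H) _ _ ?_ ?_
  · intro a
    rw [k5rc_mem_range hle a, Subgroup.mem_subgroupOf]
    constructor
    · intro h
      exact h.2.2
    · intro h
      exact ⟨a.2.1, a.2.2.1, h⟩
  · intro u
    obtain ⟨g, hgL, hgM, hgd, -⟩ := stmtGen L M 1 (Nat.coprime_one_left L) (u : (ZMod M)ˣ)
    have hg : g ∈ gammaH L M H := ⟨hgL, hgM, by rw [hgd]; exact u.2⟩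
    refine ⟨⟨g, hg⟩, ?_⟩
    have : k5ff_j L M H ⟨g, hg⟩ = u := Subtype.ext hgd
    rw [this, inv_mul_cancel]
    exact one_mem _

/-- the diamond action is multiplicative -/
theorem k5ff_diam_mul {A : Type*} [AddCommGroup A] (g g' : SL(2, ℤ)) (hgL : g ∈ Gamma0 L)
    (hgM : g ∈ Gamma0 M) (hgL' : g' ∈ Gamma0 L) (hgM' : g' ∈ Gamma0 M)
    (ψ : HomS (gammaH L M H') A) :
    diamS H' A (g * g') (mul_mem hgL hgL') (mul_mem hgM hgM') ψ
      = diamS H' A g hgL hgM (diamS H' A g' hgL' hgM' ψ) := by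
  refine AddMonoidHom.ext fun γ => ?_
  obtain ⟨γ, rfl⟩ : ∃ γ' : gammaH L M H', Additive.ofMul γ' = γ := ⟨Additive.toMul γ, rfl⟩
  show ψ (Additive.ofMul ⟨(g * g')⁻¹ * γ * (g * g'), _⟩)
    = ψ (Additive.ofMul ⟨g'⁻¹ * (g⁻¹ * γ * g) * g', _⟩)
  congr 2
  apply Subtype.ext
  show (g * g')⁻¹ * (γ : SL(2, ℤ)) * (g * g') = g'⁻¹ * (g⁻¹ * γ * g) * g'
  group

/-- elements of `Γ'` act trivially -/
theorem k5ff_diam_of_mem {A : Type*} [AddCommGroup A] (g : SL(2, ℤ))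
    (hg : g ∈ gammaH L M H') (ψ : HomS (gammaH L M H') A) :
    diamS H' A g hg.1 hg.2.1 ψ = ψ :=
  k5f_diam_res (le_refl H') g hg ψ

/-- the diamond action depends only on the class modulo `Γ'` -/
theorem k5ff_diam_congr {A : Type*} [AddCommGroup A] (g g' : SL(2, ℤ)) (hgL : g ∈ Gamma0 L)
    (hgM : g ∈ Gamma0 M) (hgL' : g' ∈ Gamma0 L) (hgM' : g' ∈ Gamma0 M)
    (h : g⁻¹ * g' ∈ gammaH L M H') (ψ : HomS (gammaH L M H') A) :
    diamS H' A g' hgL' hgM' ψ = diamS H' A g hgL hgM ψ := by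
  refine AddMonoidHom.ext fun γ => ?_
  obtain ⟨γ, rfl⟩ : ∃ γ' : gammaH L M H', Additive.ofMul γ' = γ := ⟨Additive.toMul γ, rfl⟩
  show ψ (Additive.ofMul ⟨g'⁻¹ * γ * g', _⟩) = ψ (Additive.ofMul ⟨g⁻¹ * γ * g, _⟩)
  exact k5c_inner ψ g g' (γ : SL(2, ℤ)) _ _ h

end group


section linear

variable {𝒪 : Type} [CommRing 𝒪] {L M : ℕ} [NeZero L] [hML : Fact (M ∣ L)]
  (F : Type) [Field F] [Module 𝒪 F]

/-- an `F`-scalar acts on `Hom(Γ, F)` as an `𝒪`-scalar -/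
theorem k5ff_smul_eq {Γ : Subgroup SL(2, ℤ)} (hOF : ∀ c : F, ∃ a : 𝒪, ∀ x : F, a • x = c * x)
    (c : F) : ∃ a : 𝒪, ∀ φ : HomS Γ F, c • φ = a • φ := by
  obtain ⟨a, ha⟩ := hOF c
  refine ⟨a, fun φ => AddMonoidHom.ext fun γ => ?_⟩
  show c • φ γ = a • φ γ
  rw [ha, smul_eq_mul]

variable (𝔲 : NatFam 𝒪 L M) (ℓ₀ : ℕ) [NeZero ℓ₀] (K : Subgroup (ZMod M)ˣ)

theorem k5ff_theta_smul (hOF : ∀ c : F, ∃ a : 𝒪, ∀ x : F, a • x = c * x) (c : F)
    (φ : HomS (gammaH L M K) F) : thetaN 𝔲 ℓ₀ F K (c • φ) = c • thetaN 𝔲 ℓ₀ F K φ := by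
  obtain ⟨a, ha⟩ := k5ff_smul_eq (Γ := gammaH L M K) F hOF c
  rw [ha, ha, k5n_theta_smul]

/-- the `Θ`-part as an `F`-subspace -/
def k5ffW (hOF : ∀ c : F, ∃ a : 𝒪, ∀ x : F, a • x = c * x) :
    Submodule F (HomS (gammaH L M K) F) where
  carrier := {ψ | ψ ∈ etaPart (thetaN 𝔲 ℓ₀ F K)}
  add_mem' := fun ha hb => (etaPart (thetaN 𝔲 ℓ₀ F K)).add_mem ha hb
  zero_mem' := (etaPart (thetaN 𝔲 ℓ₀ F K)).zero_mem
  smul_mem' := fun c ψ hψ => by
    have := k5s_intertwine_mem (thetaN 𝔲 ℓ₀ F K) (thetaN 𝔲 ℓ₀ F K)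
      (DistribSMul.toAddMonoidHom (HomS (gammaH L M K) F) c)
      (fun x => (k5ff_theta_smul F 𝔲 ℓ₀ K hOF c x).symm) hψ
    exact this

theorem k5ffW_mem (hOF : ∀ c : F, ∃ a : 𝒪, ∀ x : F, a • x = c * x)
    (ψ : HomS (gammaH L M K) F) :
    ψ ∈ k5ffW F 𝔲 ℓ₀ K hOF ↔ ψ ∈ etaPart (thetaN 𝔲 ℓ₀ F K) := Iff.rfl

/-- the diamond as an `F`-linear map -/
def k5ffD (u : (ZMod M)ˣ) : HomS (gammaH L M K) F →ₗ[F] HomS (gammaH L M K) F where
  toFun := diamU L M K F u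
  map_add' := map_add _
  map_smul' := fun c ψ => rfl

/-- the diamond action on the `Θ`-part -/
def k5ffRho (hOF : ∀ c : F, ∃ a : 𝒪, ∀ x : F, a • x = c * x) :
    (ZMod M)ˣ →* (k5ffW F 𝔲 ℓ₀ K hOF →ₗ[F] k5ffW F 𝔲 ℓ₀ K hOF) where
  toFun u := (k5ffD F K u).restrict
    (fun ψ hψ => k5act_thetaS_mem L M K F (𝔲.fam F) ℓ₀ u hψ)
  map_one' := by
    refine LinearMap.ext fun w => Subtype.ext ?_
    show diamU L M K F 1 (w : HomS (gammaH L M K) F) = w
    rw [map_one]; rfl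
  map_mul' u v := by
    refine LinearMap.ext fun w => Subtype.ext ?_
    show diamU L M K F (u * v) (w : HomS (gammaH L M K) F)
      = diamU L M K F u (diamU L M K F v w)
    rw [map_mul]; rfl

theorem k5ffRho_apply (hOF : ∀ c : F, ∃ a : 𝒪, ∀ x : F, a • x = c * x) (u : (ZMod M)ˣ)
    (w : k5ffW F 𝔲 ℓ₀ K hOF) :
    ((k5ffRho F 𝔲 ℓ₀ K hOF u w : k5ffW F 𝔲 ℓ₀ K hOF) : HomS (gammaH L M K) F)
      = diamU L M K F u (w : HomS (gammaH L M K) F) := rfl

end linear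

section main

variable {𝒪 : Type} [CommRing 𝒪] {L M : ℕ} [NeZero L] [hML : Fact (M ∣ L)]

/-- **FREE over a finite field** -/
theorem k5ff_main (p : ℕ) [Fact p.Prime] (𝔲 : NatFam 𝒪 L M) (ℓ₀ : ℕ) [NeZero ℓ₀]
    (F : Type) [Field F] [CharP F p] [Finite F] [Module 𝒪 F]
    (hOF : ∀ c : F, ∃ a : 𝒪, ∀ x : F, a • x = c * x)
    (H' H : Subgroup (ZMod M)ˣ) (hle : H' ≤ H) (hp2 : p ≠ 2) (hℓ : ℓ₀.Prime) (hℓL : ¬ ℓ₀ ∣ L)
    (hNT : NoTors (gammaH L M H) F) (k : ℕ)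
    (hidx : ((pmH H').subgroupOf (pmH H)).index = p ^ k) :
    ∃ (r : ℕ) (b : Fin r → HomS (gammaH L M H') F),
      (∀ i, b i ∈ etaPart (thetaN 𝔲 ℓ₀ F H')) ∧
      Nat.card (etaPart (thetaN 𝔲 ℓ₀ F H)) = Nat.card F ^ r ∧
      Nat.card (etaPart (thetaN 𝔲 ℓ₀ F H')) = Nat.card F ^ (r * p ^ k) ∧
      ∀ ψ ∈ etaPart (thetaN 𝔲 ℓ₀ F H'),
        ψ ∈ Submodule.span 𝒪 {χ | ∃ i, ∃ u ∈ pmH H, χ = diamU L M H' F u (b i)} := by
  classical
  haveI : NeZero M := ⟨fun h0 => by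
    have h1 : M ∣ L := hML.out
    rw [h0, zero_dvd_iff] at h1
    exact NeZero.ne L h1⟩
  haveI : Finite (HomS (gammaH L M H) F) := k5s_finite_homS _ F
  haveI : Finite (HomS (gammaH L M H') F) := k5s_finite_homS _ F
  obtain ⟨c1', c2, c3⟩ := k5g_main p L M ℓ₀ (𝔲.fam F) H hp2 hℓ hℓL hNT k H' hle hidx
  have c1 : Nat.card (etaPart (thetaN 𝔲 ℓ₀ F H'))
      = Nat.card (etaPart (thetaN 𝔲 ℓ₀ F H)) ^ p ^ k := c1'
  -- the group `P`
  let N : Subgroup (pmH H) := (pmH H').subgroupOf (pmH H)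
  let P := (pmH H) ⧸ N
  haveI : Finite P := inferInstance
  letI : Fintype P := Fintype.ofFinite P
  have hcardP : Nat.card P = p ^ k := by rw [← hidx]; exact (Subgroup.index_eq_card N).symm
  have hcardP' : Fintype.card P = p ^ k := by rw [← Nat.card_eq_fintype_card]; exact hcardP
  have hPG : IsPGroup p P := IsPGroup.of_card hcardP
  -- the representation
  let W := k5ffW F 𝔲 ℓ₀ H' hOF
  let ρ₀ : pmH H →* (W →ₗ[F] W) := (k5ffRho F 𝔲 ℓ₀ H' hOF).comp (pmH H).subtype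
  have hN : N ≤ ρ₀.ker := by
    intro n hn
    rw [MonoidHom.mem_ker]
    refine LinearMap.ext fun w => Subtype.ext ?_
    show diamU L M H' F (n : (ZMod M)ˣ) (w : HomS (gammaH L M H') F) = w
    exact k5act_diamU_of_mem_apply L M H' F (Subgroup.mem_subgroupOf.mp hn) _
  let ρ : P →* (W →ₗ[F] W) := QuotientGroup.lift N ρ₀ hN
  have hρ : ∀ (u : pmH H) (w : W),
      ((ρ (QuotientGroup.mk u) w : W) : HomS (gammaH L M H') F)
        = diamU L M H' F (u : (ZMod M)ˣ) (w : HomS (gammaH L M H') F) := fun u w => rfl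
  haveI : Finite W := Finite.of_injective (fun w : W => (w : HomS (gammaH L M H') F))
    Subtype.val_injective
  haveI : Module.Finite F W := Module.Finite.of_finite
  -- the invariants
  let I : Submodule F W := ⨅ g : P, LinearMap.ker (ρ g - 1)
  have hI : ∀ w : W, w ∈ I ↔ ∀ u ∈ pmH H,
      diamU L M H' F u (w : HomS (gammaH L M H') F) = w := by
    intro w
    rw [Submodule.mem_iInf]
    constructor
    · intro h u hu
      have h1 := h (QuotientGroup.mk ⟨u, hu⟩)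
      rw [LinearMap.mem_ker, LinearMap.sub_apply, sub_eq_zero] at h1
      have h2 := congrArg (fun x : W => (x : HomS (gammaH L M H') F)) h1
      exact h2
    · intro h g
      obtain ⟨u, rfl⟩ := QuotientGroup.mk_surjective g
      rw [LinearMap.mem_ker, LinearMap.sub_apply, sub_eq_zero]
      apply Subtype.ext
      exact h u u.2
  -- `res : X(H) ≃ I`
  have hcardI : Nat.card I = Nat.card (etaPart (thetaN 𝔲 ℓ₀ F H)) := by
    symm
    have hmemI : ∀ φ : etaPart (thetaN 𝔲 ℓ₀ F H),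
        (⟨resS F (Fermat.Agent.ES1.gammaH_mono hle) (φ : HomS (gammaH L M H) F),
          (c2 φ φ.2).1⟩ : W) ∈ I := by
      intro φ
      rw [hI]
      intro u hu
      show diamU L M H' F u (resS F (Fermat.Agent.ES1.gammaH_mono hle)
        (φ : HomS (gammaH L M H) F)) = _
      rw [k5act_diamU_apply]
      exact k5f_diam_res hle _ (k5act_rep_mem_gammaH L M H hu) _
    refine Nat.card_eq_of_bijective
      (fun φ : etaPart (thetaN 𝔲 ℓ₀ F H) => (⟨⟨_, (c2 φ φ.2).1⟩, hmemI φ⟩ : I)) ⟨?_, ?_⟩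
    · intro φ φ' h
      have h1 : resS F (Fermat.Agent.ES1.gammaH_mono hle) (φ : HomS (gammaH L M H) F)
          = resS F (Fermat.Agent.ES1.gammaH_mono hle) (φ' : HomS (gammaH L M H) F) :=
        congrArg (fun x : I => ((x : W) : HomS (gammaH L M H') F)) h
      have h2 : resS F (Fermat.Agent.ES1.gammaH_mono hle)
          ((φ : HomS (gammaH L M H) F) - (φ' : HomS (gammaH L M H) F)) = 0 := by
        rw [map_sub, h1, sub_self]
      have h3 := (c2 _ ((etaPart (thetaN 𝔲 ℓ₀ F H)).sub_mem φ.2 φ'.2)).2 h2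
      exact Subtype.ext (sub_eq_zero.mp h3)
    · rintro ⟨w, hw⟩
      have hinv : IsInv H' H (w : HomS (gammaH L M H') F) :=
        (k5act_isInv_iff L M H' F H _).mpr ((hI w).mp hw)
      obtain ⟨φ, hφ, hφw⟩ := c3 (w : HomS (gammaH L M H') F) w.2 hinv
      exact ⟨⟨φ, hφ⟩, Subtype.ext (Subtype.ext hφw)⟩
  -- cardinalities and dimensions
  have hF2 : 2 ≤ Nat.card F := by
    haveI : Nontrivial F := inferInstance
    exact Finite.one_lt_card
  have hcW : Nat.card W = Nat.card F ^ Module.finrank F W := Module.natCard_eq_pow_finrank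
  have hcI : Nat.card I = Nat.card F ^ Module.finrank F I :=
    Module.natCard_eq_pow_finrank (K := F) (V := ↥I)
  have hWX : Nat.card W = Nat.card (etaPart (thetaN 𝔲 ℓ₀ F H')) := rfl
  have hdim : Module.finrank F W = Fintype.card P * Module.finrank F I := by
    have h1 : Nat.card F ^ Module.finrank F W = Nat.card F ^ (Module.finrank F I * p ^ k) := by
      rw [← hcW, hWX, c1, ← hcardI, hcI, pow_mul]
    rw [hcardP', mul_comm]
    exact Nat.pow_right_injective hF2 h1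
  have key := stmtAlgFree
  unfold StmtAlgFree at key
  obtain ⟨r, b, hb⟩ := (key p P F W ρ hPG).2 hdim
  refine ⟨r, fun i => ((b i : W) : HomS (gammaH L M H') F), fun i => (b i).2, ?_, ?_, ?_⟩
  · -- `#X(H) = #F ^ r`
    have h1 : Nat.card W = Nat.card F ^ (r * p ^ k) := by
      rw [← Nat.card_congr (Equiv.ofBijective _ hb), Nat.card_fun, Nat.card_prod,
        Nat.card_eq_fintype_card (α := Fin r), Fintype.card_fin, hcardP]
    have h2 : Nat.card (etaPart (thetaN 𝔲 ℓ₀ F H)) ^ (p ^ k) = (Nat.card F ^ r) ^ (p ^ k) := by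
      rw [← c1, ← hWX, h1, pow_mul]
    exact Nat.pow_left_injective (pow_pos (Fact.out : p.Prime).pos k).ne' h2
  · rw [← hWX, ← Nat.card_congr (Equiv.ofBijective _ hb), Nat.card_fun, Nat.card_prod,
      Nat.card_eq_fintype_card (α := Fin r), Fintype.card_fin, hcardP]
  · intro ψ hψ
    obtain ⟨c, hc⟩ := hb.2 (⟨ψ, hψ⟩ : W)
    have h1 : ψ = ∑ x : Fin r × P, c x • ((ρ x.2 (b x.1) : W) : HomS (gammaH L M H') F) := by
      have := congrArg (fun x : W => (x : HomS (gammaH L M H') F)) hc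
      simp only [Submodule.coe_sum, Submodule.coe_smul] at this
      exact this.symm
    rw [h1]
    refine Submodule.sum_mem _ fun x _ => ?_
    obtain ⟨a, ha⟩ := k5ff_smul_eq (Γ := gammaH L M H') F hOF (c x)
    rw [ha]
    refine Submodule.smul_mem _ _ (Submodule.subset_span ?_)
    obtain ⟨u, hu⟩ := QuotientGroup.mk_surjective x.2
    refine ⟨x.1, (u : (ZMod M)ˣ), u.2, ?_⟩
    rw [← hu]
    exact hρ u (b x.1)

end main

/-- **K5-FREE-F** -/
theorem stmtFreeF : StmtFreeF := by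
  intro p _ 𝒪 _ _ _ _ L M ℓ₀ _ _ hML H' H k hyp 𝔲
  haveI hmax : (IsLocalRing.maximalIdeal 𝒪 ^ 1).IsMaximal := by
    rw [pow_one]; exact IsLocalRing.maximalIdeal.isMaximal 𝒪
  letI : Field (𝒪 ⧸ IsLocalRing.maximalIdeal 𝒪 ^ 1) :=
    Ideal.Quotient.field (IsLocalRing.maximalIdeal 𝒪 ^ 1)
  haveI : Finite (𝒪 ⧸ IsLocalRing.maximalIdeal 𝒪 ^ 1) := by
    have e := Ideal.quotEquivOfEq (pow_one (IsLocalRing.maximalIdeal 𝒪))
    have : Finite (𝒪 ⧸ IsLocalRing.maximalIdeal 𝒪) :=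
      (inferInstance : Finite (IsLocalRing.ResidueField 𝒪))
    exact Finite.of_equiv _ e.symm.toEquiv
  haveI : CharP (𝒪 ⧸ IsLocalRing.maximalIdeal 𝒪 ^ 1) p := by
    rw [CharP.charP_iff_prime_eq_zero (Fact.out : p.Prime)]
    have h1 : ((p : 𝒪) : 𝒪 ⧸ IsLocalRing.maximalIdeal 𝒪 ^ 1) = 0 := by
      rw [Ideal.Quotient.eq_zero_iff_mem, pow_one]
      exact hyp.p_mem
    exact_mod_cast h1
  have hOF : ∀ c : 𝒪 ⧸ IsLocalRing.maximalIdeal 𝒪 ^ 1, ∃ a : 𝒪,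
      ∀ x : 𝒪 ⧸ IsLocalRing.maximalIdeal 𝒪 ^ 1, a • x = c * x := by
    intro c
    obtain ⟨a, rfl⟩ := Ideal.Quotient.mk_surjective c
    exact ⟨a, fun x => rfl⟩
  exact k5ff_main p 𝔲 ℓ₀ (𝒪 ⧸ IsLocalRing.maximalIdeal 𝒪 ^ 1) hOF H' H hyp.le hyp.p_ne_two
    hyp.prime hyp.not_dvd (hyp.noTors 1) k hyp.index

end Fermat.Agent.RT.K5

end
end ZBRT_036_0

/-! ### bundled: `Fermat.Agent.RT.K5.FreeFinFinal` -/
section ZBRT_036_1

/-!
# K-machine, piece K5-FREE-fin (helper15), final: `stmtFreeFin : StmtFreeFin`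

`stmtFreeFin_of` (`FreeFin.lean`) applied to `stmtFreeF` (helper7) and `stmtCount` (helper47).
-/

set_option autoImplicit false

namespace Fermat.Agent.RT.K5

/-- **K5-FREE-fin.** -/
theorem stmtFreeFin : StmtFreeFin := stmtFreeFin_of stmtFreeF stmtCount

end Fermat.Agent.RT.K5


end ZBRT_036_1
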