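/- GENERATED FILE (helper35, build-time optimisation, NOTES/ZB.md): verbatim concatenation of the modules
   Fermat.Agent.RT.K5.FitOAbs
   Fermat.Agent.RT.Hecke.AbsBRing
   Fermat.Agent.RT.K5.FitO
   Fermat.Agent.RT.K5.FreeO
   Fermat.Agent.RT.K5.FreeOFinal
   Fermat.Agent.RT.K5.Base
   Fermat.Agent.RT.K5.BaseMat
   Fermat.Agent.RT.Hecke.ConcFree
   Fermat.Agent.RT.Hecke.ConcFreeX
   Do not edit; do not import together with these modules. -/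
import Mathlib
import Fermat.Agent.ZB.S32_002
import Fermat.Agent.ZB.RT_028
import Fermat.Agent.ZB.ES1_001
import Fermat.Agent.ZB.S41_005
import Fermat.Agent.ZB.RT_036
import Fermat.Agent.ZB.RT_033
import Fermat.Agent.ZB.RT_034
import Fermat.Agent.ZB.RT_027
import Fermat.Agent.ZB.RT_002

/-! ### bundled: `Fermat.Agent.RT.K5.FitOAbs` -/
section ZBRT_019_0
/-
K-machine, piece K5-OF (helper9), abstract part (Mathlib only): Fitting decomposition of an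
endomorphism `θ` of a finite free module `V` over a complete Noetherian local ring `𝒪` with
finite residue field.

`k5of_main` : there are `m > 0` and an idempotent `e ∈ End_𝒪(V)` commuting with everything that
commutes with `θ`, with `θ^m ≡ e` modulo `𝔪`.  Construction: `θ̄^m` is idempotent on `V/𝔪V`
(finite monoid), Newton iteration `z ↦ 3z² − 2z³` on polynomials in `θ`, limit in the
`𝔪`-adically complete module `V`.
Consequences: `k5of_theta_bij` (`θ` is bijective on `e V`), `k5of_range_le` (`e V ⊆ θⁿ V`),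
`k5of_fix` (`⋂ θⁿ V ⊆ e V`), `k5of_nil` (`θ` is topologically nilpotent on `(1 − e) V`),
`k5of_lift` (lifting from finite quotients).
-/

set_option autoImplicit false
set_option linter.unusedSectionVars false
set_option linter.style.haveILetI false

noncomputable section

namespace Fermat.Agent.RT.K5

open Polynomial

section General

variable {R : Type*} [CommRing R] {M M' : Type*} [AddCommGroup M] [Module R M]
  [AddCommGroup M'] [Module R M']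

/-- linear maps preserve `I • ⊤` -/
theorem k5of_map_mem (I : Ideal R) (t : M →ₗ[R] M') {x : M}
    (hx : x ∈ I • (⊤ : Submodule R M)) : t x ∈ I • (⊤ : Submodule R M') := by
  have h1 : t x ∈ (I • (⊤ : Submodule R M)).map t := Submodule.mem_map_of_mem hx
  rw [Submodule.map_smul''] at h1
  exact Submodule.smul_mono le_rfl le_top h1

/-- a linear map with values in `I • ⊤` maps `J • ⊤` into `(J * I) • ⊤` -/
theorem k5of_map_mem_mul (I J : Ideal R) (t : M →ₗ[R] M')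
    (ht : ∀ v, t v ∈ I • (⊤ : Submodule R M')) {x : M}
    (hx : x ∈ J • (⊤ : Submodule R M)) : t x ∈ (J * I) • (⊤ : Submodule R M') := by
  have h1 : t x ∈ (J • (⊤ : Submodule R M)).map t := Submodule.mem_map_of_mem hx
  rw [Submodule.map_smul''] at h1
  have h2 : (⊤ : Submodule R M).map t ≤ I • (⊤ : Submodule R M') := by
    rintro _ ⟨v, -, rfl⟩
    exact ht v
  have h3 := Submodule.smul_mono (le_refl J) h2 h1
  rwa [← Submodule.mul_smul] at h3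

theorem k5of_pow_mono (I : Ideal R) {m n : ℕ} (h : m ≤ n) {x : M}
    (hx : x ∈ I ^ n • (⊤ : Submodule R M)) : x ∈ I ^ m • (⊤ : Submodule R M) :=
  Submodule.smul_mono (Ideal.pow_le_pow_right h) le_rfl hx

/-- a finite free module over an `I`-adically precomplete ring is `I`-adically precomplete -/
theorem k5of_isPrecomplete (I : Ideal R) [IsPrecomplete I R] [Module.Finite R M]
    [Module.Free R M] : IsPrecomplete I M := by
  classical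
  let b := Module.Free.chooseBasis R M
  refine ⟨fun f hf => ?_⟩
  have hc : ∀ i, ∃ a : R, ∀ n, b.repr (f n) i ≡ a [SMOD (I ^ n • ⊤ : Submodule R R)] := by
    intro i
    refine IsPrecomplete.prec ‹IsPrecomplete I R› (f := fun n => b.repr (f n) i) ?_
    intro m n hmn
    have h1 := hf hmn
    rw [SModEq.sub_mem] at h1 ⊢
    have h2 := k5of_map_mem (I ^ m) (b.coord i) h1
    rw [map_sub] at h2
    exact h2
  choose a ha using hc
  refine ⟨∑ i, a i • b i, fun n => ?_⟩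
  rw [SModEq.sub_mem]
  have h1 : f n - ∑ i, a i • b i = ∑ i, (b.repr (f n) i - a i) • b i := by
    simp only [sub_smul, Finset.sum_sub_distrib]
    rw [b.sum_repr]
  rw [h1]
  refine Submodule.sum_mem _ fun i _ => ?_
  have h2 := ha i n
  rw [SModEq.sub_mem, smul_eq_mul, Ideal.mul_top] at h2
  exact Submodule.smul_mem_smul h2 Submodule.mem_top

/-- in a finite monoid some positive power of every element is idempotent -/
theorem k5of_exists_idem_pow {N : Type*} [Monoid N] [Finite N] (x : N) :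
    ∃ m : ℕ, 0 < m ∧ x ^ m * x ^ m = x ^ m := by
  obtain ⟨a, b, hab, h⟩ := Finite.exists_ne_map_eq_of_infinite (fun n : ℕ => x ^ (n + 1))
  wlog hlt : a < b generalizing a b
  · exact this b a hab.symm h.symm (lt_of_le_of_ne (not_lt.mp hlt) hab.symm)
  obtain ⟨d, rfl⟩ : ∃ d, b = a + d := ⟨b - a, by omega⟩
  have hd : 0 < d := by omega
  change x ^ (a + 1) = x ^ (a + d + 1) at h
  have h1 : ∀ n, a + 1 ≤ n → x ^ (n + d) = x ^ n := by
    intro n hn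
    obtain ⟨k, rfl⟩ : ∃ k, n = (a + 1) + k := ⟨n - (a + 1), by omega⟩
    have h2 : a + 1 + k + d = (a + d + 1) + k := by ring
    rw [h2, pow_add, ← h, ← pow_add]
  have h2 : ∀ j n, a + 1 ≤ n → x ^ (n + j * d) = x ^ n := by
    intro j
    induction j with
    | zero => intro n _; simp
    | succ j ih =>
      intro n hn
      have h3 : n + (j + 1) * d = (n + j * d) + d := by ring
      rw [h3, h1 _ (by omega), ih n hn]
  refine ⟨(a + 1) * d, Nat.mul_pos (Nat.succ_pos a) hd, ?_⟩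
  rw [← pow_add]
  exact h2 (a + 1) ((a + 1) * d) (Nat.le_mul_of_pos_right _ hd)

/-- Newton step for idempotents -/
def k5ofStep {S : Type*} [CommRing S] (z : S) : S := 3 * z ^ 2 - 2 * z ^ 3

theorem k5of_step_idem {S : Type*} [CommRing S] (z : S) :
    k5ofStep z * k5ofStep z - k5ofStep z =
      (4 * (z * z - z) - 3) * ((z * z - z) * (z * z - z)) := by
  unfold k5ofStep
  ring

theorem k5of_step_sub {S : Type*} [CommRing S] (z : S) :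
    k5ofStep z - z = (1 - 2 * z) * (z * z - z) := by
  unfold k5ofStep
  ring

/-- an endomorphism commuting with `θ` commutes with polynomials in `θ` -/
theorem k5of_commute_aeval (t θ : Module.End R M) (h : t * θ = θ * t) (f : R[X]) :
    t * aeval θ f = aeval θ f * t := by
  have hc : Commute t θ := h
  induction f using Polynomial.induction_on' with
  | add p q hp hq => rw [map_add, mul_add, add_mul, hp, hq]
  | monomial n a =>
    rw [aeval_monomial]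
    have h1 : Commute t (θ ^ n) := hc.pow_right n
    have h2 : Commute t (algebraMap R (Module.End R M) a) := (Algebra.commutes a t).symm
    exact (h2.mul_right h1).eq

end General

section Main

open IsLocalRing

variable {𝒪 : Type*} [CommRing 𝒪] [IsLocalRing 𝒪] [IsNoetherianRing 𝒪]
  {V : Type*} [AddCommGroup V] [Module 𝒪 V] [Module.Finite 𝒪 V]

/-- `g` maps `V` into `𝔪ⁿ V` -/
def K5ofDeep (n : ℕ) (g : Module.End 𝒪 V) : Prop :=
  ∀ v : V, g v ∈ (maximalIdeal 𝒪 ^ n • ⊤ : Submodule 𝒪 V)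

theorem k5of_deep_mul_left {n : ℕ} {g : Module.End 𝒪 V} (hg : K5ofDeep n g)
    (t : Module.End 𝒪 V) : K5ofDeep n (t * g) :=
  fun v => k5of_map_mem _ t (hg v)

theorem k5of_deep_mul {a b : ℕ} {f g : Module.End 𝒪 V} (hf : K5ofDeep a f)
    (hg : K5ofDeep b g) : K5ofDeep (a + b) (f * g) := by
  intro v
  have h := k5of_map_mem_mul (maximalIdeal 𝒪 ^ a) (maximalIdeal 𝒪 ^ b) f hf (hg v)
  rwa [← pow_add, add_comm] at h

theorem k5of_deep_mono {a b : ℕ} (h : a ≤ b) {f : Module.End 𝒪 V} (hf : K5ofDeep b f) :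
    K5ofDeep a f :=
  fun v => k5of_pow_mono _ h (hf v)

/-- some positive power of `θ` is idempotent modulo `𝔪` -/
theorem k5of_exists_pow [Finite (ResidueField 𝒪)] (θ : Module.End 𝒪 V) :
    ∃ m : ℕ, 0 < m ∧ K5ofDeep 1 (θ ^ m * θ ^ m - θ ^ m) := by
  set P : Submodule 𝒪 V := maximalIdeal 𝒪 • ⊤ with hP
  have hle : P ≤ P.comap θ := fun x hx => k5of_map_mem (maximalIdeal 𝒪) θ hx
  haveI : Finite (𝒪 ⧸ maximalIdeal 𝒪) := ‹Finite (ResidueField 𝒪)›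
  haveI : Finite (V ⧸ P) :=
    Submodule.finite_quotient_smul (maximalIdeal 𝒪) (Module.Finite.fg_top)
  haveI : Finite (Module.End 𝒪 (V ⧸ P)) :=
    Finite.of_injective (fun f : Module.End 𝒪 (V ⧸ P) => (f : V ⧸ P → V ⧸ P))
      DFunLike.coe_injective
  obtain ⟨m, hm, h⟩ := k5of_exists_idem_pow (P.mapQ P θ hle)
  refine ⟨m, hm, fun v => ?_⟩
  have hle' : P ≤ P.comap (θ ^ m) := fun x hx => k5of_map_mem (maximalIdeal 𝒪) (θ ^ m) hx
  have hpw : P.mapQ P θ hle ^ m = P.mapQ P (θ ^ m) hle' := (Submodule.mapQ_pow P hle m hle').symm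
  rw [hpw] at h
  have h1 := LinearMap.congr_fun h (Submodule.Quotient.mk v)
  rw [Module.End.mul_apply, Submodule.mapQ_apply, Submodule.mapQ_apply] at h1
  rw [← sub_eq_zero, ← Submodule.Quotient.mk_sub, Submodule.Quotient.mk_eq_zero] at h1
  show (θ ^ m * θ ^ m - θ ^ m) v ∈ (maximalIdeal 𝒪 ^ 1 • ⊤ : Submodule 𝒪 V)
  rw [pow_one, LinearMap.sub_apply, Module.End.mul_apply]
  exact h1

/-- the Newton sequence of polynomials starting at `X ^ m` -/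
def k5ofZ (𝒪 : Type*) [CommRing 𝒪] (m : ℕ) : ℕ → 𝒪[X]
  | 0 => X ^ m
  | n + 1 => k5ofStep (k5ofZ 𝒪 m n)

theorem k5of_Z_idem (θ : Module.End 𝒪 V) (m : ℕ)
    (hm : K5ofDeep 1 (θ ^ m * θ ^ m - θ ^ m)) (n : ℕ) :
    K5ofDeep (n + 1) (aeval θ (k5ofZ 𝒪 m n * k5ofZ 𝒪 m n - k5ofZ 𝒪 m n)) := by
  induction n with
  | zero =>
    have h1 : aeval θ (k5ofZ 𝒪 m 0 * k5ofZ 𝒪 m 0 - k5ofZ 𝒪 m 0) = θ ^ m * θ ^ m - θ ^ m := by
      simp [k5ofZ]
    rw [h1]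
    exact hm
  | succ n ih =>
    have h1 : k5ofZ 𝒪 m (n + 1) * k5ofZ 𝒪 m (n + 1) - k5ofZ 𝒪 m (n + 1) =
        (4 * (k5ofZ 𝒪 m n * k5ofZ 𝒪 m n - k5ofZ 𝒪 m n) - 3) *
          ((k5ofZ 𝒪 m n * k5ofZ 𝒪 m n - k5ofZ 𝒪 m n) *
            (k5ofZ 𝒪 m n * k5ofZ 𝒪 m n - k5ofZ 𝒪 m n)) :=
      k5of_step_idem _
    rw [h1, map_mul, map_mul (aeval θ)]
    refine k5of_deep_mul_left ?_ _
    exact k5of_deep_mono (by omega) (k5of_deep_mul ih ih)

theorem k5of_Z_sub (θ : Module.End 𝒪 V) (m : ℕ)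
    (hm : K5ofDeep 1 (θ ^ m * θ ^ m - θ ^ m)) (n : ℕ) :
    K5ofDeep (n + 1) (aeval θ (k5ofZ 𝒪 m (n + 1)) - aeval θ (k5ofZ 𝒪 m n)) := by
  have h1 : k5ofZ 𝒪 m (n + 1) - k5ofZ 𝒪 m n =
      (1 - 2 * k5ofZ 𝒪 m n) * (k5ofZ 𝒪 m n * k5ofZ 𝒪 m n - k5ofZ 𝒪 m n) :=
    k5of_step_sub _
  rw [← map_sub, h1, map_mul]
  exact k5of_deep_mul_left (k5of_Z_idem θ m hm n) _

/-- **Fitting idempotent.** -/
theorem k5of_main [IsPrecomplete (maximalIdeal 𝒪) 𝒪] [Finite (ResidueField 𝒪)]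
    [Module.Free 𝒪 V] (θ : Module.End 𝒪 V) :
    ∃ (m : ℕ) (e : Module.End 𝒪 V), 0 < m ∧ e * e = e ∧
      (∀ t : Module.End 𝒪 V, t * θ = θ * t → t * e = e * t) ∧
      ∀ v : V, (θ ^ m) v - e v ∈ (maximalIdeal 𝒪 • ⊤ : Submodule 𝒪 V) := by
  obtain ⟨m, hm, hpow⟩ := k5of_exists_pow θ
  haveI hprec : IsPrecomplete (maximalIdeal 𝒪) V := k5of_isPrecomplete _
  have hhaus : IsHausdorff (maximalIdeal 𝒪) V := inferInstance
  set y : ℕ → Module.End 𝒪 V := fun n => aeval θ (k5ofZ 𝒪 m n) with hy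
  have hA : ∀ n, K5ofDeep (n + 1) (y n * y n - y n) := fun n => by
    have := k5of_Z_idem θ m hpow n
    rwa [map_sub, map_mul] at this
  have hB : ∀ n, K5ofDeep (n + 1) (y (n + 1) - y n) := fun n => k5of_Z_sub θ m hpow n
  have hstep : ∀ (v : V) (a k : ℕ),
      y (a + k) v - y a v ∈ (maximalIdeal 𝒪 ^ a • ⊤ : Submodule 𝒪 V) := by
    intro v a k
    induction k with
    | zero => simp
    | succ k ih =>
      have h1 : y (a + (k + 1)) v - y a v =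
          (y (a + k + 1) - y (a + k)) v + (y (a + k) v - y a v) := by
        rw [LinearMap.sub_apply, ← add_assoc]
        abel
      rw [h1]
      exact add_mem (k5of_pow_mono _ (by omega) (hB (a + k) v)) ih
  have hcau : ∀ v : V, ∀ {a b : ℕ}, a ≤ b →
      y a v ≡ y b v [SMOD (maximalIdeal 𝒪 ^ a • ⊤ : Submodule 𝒪 V)] := by
    intro v a b hab
    obtain ⟨k, rfl⟩ : ∃ k, b = a + k := ⟨b - a, by omega⟩
    rw [SModEq.sub_mem]
    have h1 := hstep v a k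
    have h2 : y a v - y (a + k) v = -(y (a + k) v - y a v) := by abel
    rw [h2]
    exact neg_mem h1
  choose e₀ he₀ using fun v => IsPrecomplete.prec hprec (f := fun n => y n v) (hcau v)
  have hE : ∀ n v, y n v - e₀ v ∈ (maximalIdeal 𝒪 ^ n • ⊤ : Submodule 𝒪 V) :=
    fun n v => SModEq.sub_mem.1 (he₀ v n)
  have hzero : ∀ x : V, (∀ n, x ∈ (maximalIdeal 𝒪 ^ n • ⊤ : Submodule 𝒪 V)) → x = 0 :=
    fun x hx => IsHausdorff.haus hhaus x fun n => SModEq.zero.2 (hx n)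
  have hadd : ∀ v w, e₀ (v + w) = e₀ v + e₀ w := by
    intro v w
    rw [← sub_eq_zero]
    refine hzero _ fun n => ?_
    have h1 : e₀ (v + w) - (e₀ v + e₀ w) =
        (y n v - e₀ v) + (y n w - e₀ w) - (y n (v + w) - e₀ (v + w)) := by
      rw [map_add]
      abel
    rw [h1]
    exact sub_mem (add_mem (hE n v) (hE n w)) (hE n (v + w))
  have hsmul : ∀ (c : 𝒪) (v : V), e₀ (c • v) = c • e₀ v := by
    intro c v
    rw [← sub_eq_zero]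
    refine hzero _ fun n => ?_
    have h1 : e₀ (c • v) - c • e₀ v = c • (y n v - e₀ v) - (y n (c • v) - e₀ (c • v)) := by
      rw [map_smul, smul_sub]
      abel
    rw [h1]
    exact sub_mem (Submodule.smul_mem _ c (hE n v)) (hE n (c • v))
  let e : Module.End 𝒪 V :=
    { toFun := e₀
      map_add' := hadd
      map_smul' := hsmul }
  have he : ∀ v, e v = e₀ v := fun v => rfl
  refine ⟨m, e, hm, ?_, ?_, ?_⟩
  · apply LinearMap.ext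
    intro v
    rw [Module.End.mul_apply, ← sub_eq_zero]
    refine hzero _ fun n => ?_
    have h1 : e (e v) - e v =
        (y n * y n - y n) v + (y n v - e₀ v) - (y n (e v) - e₀ (e v)) -
          y n (y n v - e₀ v) := by
      rw [LinearMap.sub_apply, Module.End.mul_apply, map_sub]
      show e₀ (e₀ v) - e₀ v = (y n (y n v) - y n v) + (y n v - e₀ v) -
        (y n (e₀ v) - e₀ (e₀ v)) - (y n (y n v) - y n (e₀ v))
      abel
    rw [h1]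
    exact sub_mem (sub_mem (add_mem (k5of_pow_mono _ (by omega) (hA n v)) (hE n v))
      (hE n (e v))) (k5of_map_mem _ (y n) (hE n v))
  · intro t ht
    apply LinearMap.ext
    intro v
    rw [Module.End.mul_apply, Module.End.mul_apply, ← sub_eq_zero]
    refine hzero _ fun n => ?_
    have hc : t (y n v) = y n (t v) := by
      have := k5of_commute_aeval t θ ht (k5ofZ 𝒪 m n)
      exact LinearMap.congr_fun this v
    have h1 : t (e v) - e (t v) = (y n (t v) - e₀ (t v)) - t (y n v - e₀ v) := by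
      rw [map_sub, hc]
      show t (e₀ v) - e₀ (t v) = (y n (t v) - e₀ (t v)) - (y n (t v) - t (e₀ v))
      abel
    rw [h1]
    exact sub_mem (hE n (t v)) (k5of_map_mem _ t (hE n v))
  · intro v
    have h0 : y 0 = θ ^ m := by
      simp [hy, k5ofZ]
    have h1 : (θ ^ m) v - e v = (y 1 v - e₀ v) - (y (0 + 1) - y 0) v := by
      rw [LinearMap.sub_apply, h0]
      show (θ ^ m) v - e₀ v = (y 1 v - e₀ v) - (y (0 + 1) v - (θ ^ m) v)
      abel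
    rw [h1]
    have h2 := hE 1 v
    have h3 := hB 0 v
    rw [pow_one] at h2
    rw [zero_add, pow_one] at h3
    exact sub_mem h2 h3

end Main

section Conseq

open IsLocalRing

variable {𝒪 : Type*} [CommRing 𝒪] [IsLocalRing 𝒪] [IsNoetherianRing 𝒪]
  {V : Type*} [AddCommGroup V] [Module 𝒪 V] [Module.Finite 𝒪 V]

/-- the stable image `⋂ₙ θⁿ V` -/
def K5ofEta (θ : Module.End 𝒪 V) (w : V) : Prop := ∀ n : ℕ, ∃ u : V, (θ ^ n) u = w

/-- the output of `k5of_main` -/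
structure K5ofFit (θ e : Module.End 𝒪 V) (m : ℕ) : Prop where
  pos : 0 < m
  idem : e * e = e
  comm : e * θ = θ * e
  cong : ∀ v : V, (θ ^ m) v - e v ∈ (maximalIdeal 𝒪 • ⊤ : Submodule 𝒪 V)

variable {θ e : Module.End 𝒪 V} {m : ℕ}

theorem k5of_e_e (h : K5ofFit θ e m) (v : V) : e (e v) = e v := by
  rw [← Module.End.mul_apply, h.idem]

theorem k5of_e_pow (h : K5ofFit θ e m) (n : ℕ) (v : V) : e ((θ ^ n) v) = (θ ^ n) (e v) := by
  have h1 : Commute e (θ ^ n) := (show Commute e θ from h.comm).pow_right n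
  exact LinearMap.congr_fun h1.eq v

theorem k5of_T_bij (h : K5ofFit θ e m) :
    Function.Bijective (θ ^ m * e + (1 - e) : Module.End 𝒪 V) := by
  set T : Module.End 𝒪 V := θ ^ m * e + (1 - e) with hT
  have hTv : ∀ v, T v = (θ ^ m) (e v) + (v - e v) := fun v => by
    rw [hT, LinearMap.add_apply, Module.End.mul_apply, LinearMap.sub_apply, Module.End.one_apply]
  have h1 : ∀ v, T v - v ∈ (maximalIdeal 𝒪 • ⊤ : Submodule 𝒪 V) := by
    intro v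
    have h2 : T v - v = (θ ^ m) (e v) - e (e v) := by
      rw [hTv, k5of_e_e h]
      abel
    rw [h2]
    exact h.cong (e v)
  have h3 : (⊤ : Submodule 𝒪 V) ≤ LinearMap.range T ⊔ maximalIdeal 𝒪 • ⊤ := by
    intro v _
    have h4 : v = T v + -(T v - v) := by abel
    rw [h4]
    exact Submodule.add_mem_sup (LinearMap.mem_range_self T v) (neg_mem (h1 v))
  have h5 : (⊤ : Submodule 𝒪 V) ≤ LinearMap.range T :=
    Submodule.le_of_le_smul_of_le_jacobson_bot Module.Finite.fg_top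
      (IsLocalRing.maximalIdeal_le_jacobson ⊥) h3
  have hsurj : Function.Surjective T := LinearMap.range_eq_top.1 (top_le_iff.1 h5)
  haveI : IsNoetherian 𝒪 V := isNoetherian_of_isNoetherianRing_of_finite 𝒪 V
  exact ⟨IsNoetherian.injective_of_surjective_endomorphism T hsurj, hsurj⟩

/-- `θ^m` is surjective on `e V` -/
theorem k5of_pow_surj (h : K5ofFit θ e m) {w : V} (hw : e w = w) :
    ∃ u : V, e u = u ∧ (θ ^ m) u = w := by
  obtain ⟨u₀, hu₀⟩ := (k5of_T_bij h).2 w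
  refine ⟨e u₀, k5of_e_e h u₀, ?_⟩
  have h1 : e w = (θ ^ m) (e u₀) := by
    rw [← hu₀, LinearMap.add_apply, Module.End.mul_apply, LinearMap.sub_apply,
      Module.End.one_apply, map_add, map_sub, k5of_e_pow h, k5of_e_e h, sub_self, add_zero]
  rw [← h1, hw]

/-- `θ` is injective on `e V` -/
theorem k5of_theta_inj (h : K5ofFit θ e m) {w : V} (hw : e w = w) (h0 : θ w = 0) : w = 0 := by
  obtain ⟨m', rfl⟩ : ∃ m', m = m' + 1 := ⟨m - 1, by have := h.pos; omega⟩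
  have h1 : (θ ^ (m' + 1)) w = 0 := by
    rw [pow_succ, Module.End.mul_apply, h0, map_zero]
  apply (k5of_T_bij h).1
  rw [map_zero, LinearMap.add_apply, Module.End.mul_apply, LinearMap.sub_apply,
    Module.End.one_apply, hw, h1, sub_self, add_zero]

/-- `e V ⊆ θⁿ (e V)` -/
theorem k5of_range_le (h : K5ofFit θ e m) (n : ℕ) {w : V} (hw : e w = w) :
    ∃ u : V, e u = u ∧ (θ ^ n) u = w := by
  induction n generalizing w with
  | zero => exact ⟨w, hw, by rw [pow_zero, Module.End.one_apply]⟩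
  | succ n ih =>
    obtain ⟨u₀, hu₀e, hu₀⟩ := k5of_pow_surj h hw
    obtain ⟨m', hm'⟩ : ∃ m', m = m' + 1 := ⟨m - 1, by have := h.pos; omega⟩
    have hw₁ : e ((θ ^ m') u₀) = (θ ^ m') u₀ := by rw [k5of_e_pow h, hu₀e]
    obtain ⟨u₁, hu₁e, hu₁⟩ := ih hw₁
    refine ⟨u₁, hu₁e, ?_⟩
    rw [pow_succ', Module.End.mul_apply, hu₁, ← Module.End.mul_apply, ← pow_succ', ← hm', hu₀]

theorem k5of_e_mem (h : K5ofFit θ e m) (v : V) : K5ofEta θ (e v) := fun n => by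
  obtain ⟨u, _, hu⟩ := k5of_range_le h n (k5of_e_e h v)
  exact ⟨u, hu⟩

/-- `θ` is topologically nilpotent on `(1 - e) V` -/
theorem k5of_nil (h : K5ofFit θ e m) (k : ℕ) (u : V) :
    (θ ^ (m * k)) u - e ((θ ^ (m * k)) u) ∈ (maximalIdeal 𝒪 ^ k • ⊤ : Submodule 𝒪 V) := by
  induction k with
  | zero =>
    rw [pow_zero, Ideal.one_eq_top, Submodule.top_smul]
    exact Submodule.mem_top
  | succ k ih =>
    set N : Module.End 𝒪 V := (1 - e) * θ ^ m with hN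
    have hN1 : ∀ v, N v ∈ (maximalIdeal 𝒪 • ⊤ : Submodule 𝒪 V) := by
      intro v
      have h1 : N v = (1 - e) ((θ ^ m) v - e v) := by
        rw [hN, Module.End.mul_apply, map_sub, LinearMap.sub_apply, LinearMap.sub_apply,
          Module.End.one_apply, Module.End.one_apply, k5of_e_e h]
        abel
      rw [h1]
      exact k5of_map_mem _ _ (h.cong v)
    have h2 := k5of_map_mem_mul (maximalIdeal 𝒪) (maximalIdeal 𝒪 ^ k) N hN1 ih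
    rw [← pow_succ] at h2
    have h3 : N ((θ ^ (m * k)) u - e ((θ ^ (m * k)) u)) =
        (θ ^ (m * (k + 1))) u - e ((θ ^ (m * (k + 1))) u) := by
      have h4 : (θ ^ (m * (k + 1))) u = (θ ^ m) ((θ ^ (m * k)) u) := by
        rw [← Module.End.mul_apply, ← pow_add]
        congr 2
        ring
      rw [h4, hN, Module.End.mul_apply, LinearMap.sub_apply, Module.End.one_apply, map_sub,
        map_sub, k5of_e_pow h m, k5of_e_pow h m, k5of_e_e h]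
      abel
    rwa [h3] at h2

/-- `⋂ θⁿ V ⊆ e V` -/
theorem k5of_fix (h : K5ofFit θ e m) {w : V} (hw : K5ofEta θ w) : e w = w := by
  have hhaus : IsHausdorff (maximalIdeal 𝒪) V := inferInstance
  have h1 : w - e w = 0 := by
    refine IsHausdorff.haus hhaus _ fun k => SModEq.zero.2 ?_
    obtain ⟨u, hu⟩ := hw (m * k)
    have h2 := k5of_nil h k u
    rwa [hu] at h2
  exact (sub_eq_zero.1 h1).symm

theorem k5of_eta_inj (h : K5ofFit θ e m) {w : V} (hw : K5ofEta θ w) (h0 : θ w = 0) : w = 0 :=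
  k5of_theta_inj h (k5of_fix h hw) h0

theorem k5of_eta_surj (h : K5ofFit θ e m) {w : V} (hw : K5ofEta θ w) :
    ∃ w', K5ofEta θ w' ∧ θ w' = w := by
  obtain ⟨u, hue, hu⟩ := k5of_range_le h 1 (k5of_fix h hw)
  refine ⟨u, ?_, by rwa [pow_one] at hu⟩
  rw [← hue]
  exact k5of_e_mem h u

/-- a finite module is killed by a power of the maximal ideal -/
theorem k5of_exists_pow_smul_eq_bot (V' : Type*) [AddCommGroup V'] [Module 𝒪 V'] [Finite V'] :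
    ∃ K : ℕ, (maximalIdeal 𝒪 ^ K • ⊤ : Submodule 𝒪 V') = ⊥ := by
  haveI : Module.Finite 𝒪 V' := Module.Finite.of_finite
  haveI : IsNoetherian 𝒪 V' := isNoetherian_of_isNoetherianRing_of_finite 𝒪 V'
  haveI : IsArtinian 𝒪 V' := inferInstance
  let f : ℕ →o (Submodule 𝒪 V')ᵒᵈ :=
    ⟨fun k => OrderDual.toDual (maximalIdeal 𝒪 ^ k • ⊤ : Submodule 𝒪 V'), fun a b hab =>
      OrderDual.toDual_le_toDual.2 (Submodule.smul_mono_left (Ideal.pow_le_pow_right hab))⟩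
  obtain ⟨K, hK⟩ := IsArtinian.monotone_stabilizes f
  refine ⟨K, ?_⟩
  have h1 : (maximalIdeal 𝒪 ^ K • ⊤ : Submodule 𝒪 V') = maximalIdeal 𝒪 ^ (K + 1) • ⊤ :=
    congrArg OrderDual.ofDual (hK (K + 1) (Nat.le_succ K))
  refine Submodule.eq_bot_of_le_smul_of_le_jacobson_bot (maximalIdeal 𝒪) _
    (IsNoetherian.noetherian _) ?_ (IsLocalRing.maximalIdeal_le_jacobson ⊥)
  rw [pow_succ', mul_smul] at h1
  exact h1.le

theorem k5of_intertwine_pow {V' : Type*} [AddCommGroup V'] [Module 𝒪 V']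
    (r : V →ₗ[𝒪] V') (θ' : Module.End 𝒪 V') (hr : ∀ v, r (θ v) = θ' (r v)) (n : ℕ) (v : V) :
    r ((θ ^ n) v) = (θ' ^ n) (r v) := by
  induction n generalizing v with
  | zero => rw [pow_zero, pow_zero, Module.End.one_apply, Module.End.one_apply]
  | succ n ih => rw [pow_succ, pow_succ, Module.End.mul_apply, Module.End.mul_apply, ih, hr]

/-- lifting the stable image from a finite quotient -/
theorem k5of_lift (h : K5ofFit θ e m) {V' : Type*} [AddCommGroup V'] [Module 𝒪 V'] [Finite V']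
    (r : V →ₗ[𝒪] V') (θ' : Module.End 𝒪 V') (hsurj : Function.Surjective r)
    (hr : ∀ v, r (θ v) = θ' (r v)) {w' : V'} (hw' : ∀ n : ℕ, ∃ u' : V', (θ' ^ n) u' = w') :
    ∃ w : V, K5ofEta θ w ∧ r w = w' := by
  obtain ⟨K, hK⟩ := k5of_exists_pow_smul_eq_bot (𝒪 := 𝒪) V'
  obtain ⟨u', hu'⟩ := hw' (m * K)
  obtain ⟨u, rfl⟩ := hsurj u'
  refine ⟨e ((θ ^ (m * K)) u), k5of_e_mem h _, ?_⟩
  have h1 : r ((θ ^ (m * K)) u - e ((θ ^ (m * K)) u)) ∈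
      (maximalIdeal 𝒪 ^ K • ⊤ : Submodule 𝒪 V') := k5of_map_mem _ r (k5of_nil h K u)
  rw [hK, Submodule.mem_bot, map_sub, sub_eq_zero] at h1
  rw [← h1, k5of_intertwine_pow r θ' hr, hu']

/-- **Fitting decomposition over a complete Noetherian local ring with finite residue field.** -/
theorem k5of_final [IsPrecomplete (maximalIdeal 𝒪) 𝒪] [Finite (ResidueField 𝒪)]
    [Module.Free 𝒪 V] (θ : Module.End 𝒪 V) :
    (∃ e : Module.End 𝒪 V, e * e = e ∧ (∀ v, K5ofEta θ (e v)) ∧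
      (∀ v, K5ofEta θ v → e v = v) ∧ ∀ t : Module.End 𝒪 V, t * θ = θ * t → t * e = e * t) ∧
    (∀ w, K5ofEta θ w → θ w = 0 → w = 0) ∧
    (∀ w, K5ofEta θ w → ∃ w', K5ofEta θ w' ∧ θ w' = w) ∧
    (∀ (V' : Type) [AddCommGroup V'] [Module 𝒪 V'] [Finite V'] (r : V →ₗ[𝒪] V')
      (θ' : Module.End 𝒪 V'), Function.Surjective r → (∀ v, r (θ v) = θ' (r v)) →
      ∀ w' : V', (∀ n : ℕ, ∃ u' : V', (θ' ^ n) u' = w') → ∃ w : V, K5ofEta θ w ∧ r w = w') := by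
  obtain ⟨m, e, hm, he, hc, hE⟩ := k5of_main θ
  have h : K5ofFit θ e m := ⟨hm, he, (hc θ rfl).symm, hE⟩
  exact ⟨⟨e, he, k5of_e_mem h, fun v hv => k5of_fix h hv, hc⟩, fun w hw => k5of_eta_inj h hw,
    fun w hw => k5of_eta_surj h hw, fun V' _ _ _ r θ' hsurj hr w' hw' =>
      k5of_lift h r θ' hsurj hr hw'⟩

end Conseq


end Fermat.Agent.RT.K5

end


end ZBRT_019_0

/-! ### bundled: `Fermat.Agent.RT.Hecke.AbsBRing` -/
section ZBRT_019_1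
/-
RT-HECKE / HK-ABS-B (helper27), ring theory: a local ring `T0 ⊆ M_d(𝒪)`, finite over a complete
discrete valuation ring `𝒪` with finite residue field, is a complete noetherian local ring with
finite residue field, and `𝒪 → T0` is a local homomorphism.
-/

/-!
# K-machine, HECKE-asm, piece HK-ABS-B: the ring theory of the base Hecke ring

* `rthk_b_isPrecomplete_of_pow_le` : precompleteness for `I ⊇ J ⊇ I ^ e`;
* `rthk_b_mem_maximalIdeal` : `x ∈ T0` with `(j0 x) ^ e ∈ M_d(𝔪)` is in the maximal ideal;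
* `rthk_b_isLocalHom`, `rthk_b_natCast_mem`, `rthk_b_isNoetherianRing`,
  `rthk_b_finite_residueField`, `rthk_b_isAdicComplete`.
-/

set_option autoImplicit false

namespace Fermat.Agent.RT

open IsLocalRing

section Precomplete

/-- precompleteness passes to a bigger ideal with the same topology -/
theorem rthk_b_isPrecomplete_of_pow_le {R : Type*} [CommRing R] (I J : Ideal R) (hJI : J ≤ I)
    {e : ℕ} (hIJ : I ^ e ≤ J) [IsPrecomplete J R] : IsPrecomplete I R := by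
  refine ⟨fun {f} hf => ?_⟩
  have hIJ' : I ^ (e + 1) ≤ J := (Ideal.pow_le_pow_right (Nat.le_succ e)).trans hIJ
  have hg : ∀ {m n : ℕ}, m ≤ n →
      f ((e + 1) * m) ≡ f ((e + 1) * n) [SMOD (J ^ m • ⊤ : Submodule R R)] := by
    intro m n hmn
    have h1 := hf (Nat.mul_le_mul_left (e + 1) hmn)
    rw [SModEq.sub_mem, smul_eq_mul, Ideal.mul_top] at h1 ⊢
    have h2 : I ^ ((e + 1) * m) ≤ J ^ m := by
      rw [pow_mul]
      exact Ideal.pow_right_mono hIJ' m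
    exact h2 h1
  obtain ⟨L, hL⟩ := IsPrecomplete.prec ‹IsPrecomplete J R› (f := fun n => f ((e + 1) * n)) hg
  refine ⟨L, fun n => ?_⟩
  have h1 := hL n
  have h2 := hf (show n ≤ (e + 1) * n from Nat.le_mul_of_pos_left n (Nat.succ_pos e))
  rw [SModEq.sub_mem, smul_eq_mul, Ideal.mul_top] at h1 h2 ⊢
  have h3 : f n - L = (f n - f ((e + 1) * n)) + (f ((e + 1) * n) - L) := by ring
  rw [h3]
  exact Ideal.add_mem _ h2 (Ideal.pow_right_mono hJI n h1)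

end Precomplete

section Ring

variable {O : Type} [CommRing O] [IsLocalRing O] {T0 : Type} [CommRing T0] [IsLocalRing T0]
  [Algebra O T0] {d : ℕ} (j0 : T0 →ₐ[O] Matrix (Fin d) (Fin d) O)

/-- an element of `T0` a power of whose matrix has entries in `𝔪` is in the maximal ideal -/
theorem rthk_b_mem_maximalIdeal (hd : 0 < d) {x : T0} {e : ℕ}
    (h : ∀ i j, ((j0 x) ^ e) i j ∈ maximalIdeal O) : x ∈ maximalIdeal T0 := by
  by_contra hx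
  have hu : IsUnit x := notMem_maximalIdeal.mp hx
  obtain ⟨y, hy⟩ := hu.exists_right_inv
  have h1 : (j0 x) ^ e * (j0 y) ^ e = 1 := by
    rw [← map_pow, ← map_pow, ← map_mul, ← mul_pow, hy, one_pow, map_one]
  have h2 := congrArg (fun M : Matrix (Fin d) (Fin d) O => (residue O).mapMatrix M) h1
  simp only [map_mul, map_one] at h2
  have h3 : (residue O).mapMatrix ((j0 x) ^ e) = 0 := by
    ext i j
    rw [RingHom.mapMatrix_apply, Matrix.map_apply, Matrix.zero_apply, residue_eq_zero_iff]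
    exact h i j
  rw [h3, zero_mul] at h2
  have h4 := congrFun (congrFun h2 ⟨0, hd⟩) ⟨0, hd⟩
  rw [Matrix.zero_apply, Matrix.one_apply_eq] at h4
  exact zero_ne_one h4

include j0 in
/-- `𝒪 → T0` is a local homomorphism -/
theorem rthk_b_isLocalHom (hd : 0 < d) : IsLocalHom (algebraMap O T0) := by
  refine ⟨fun c hc => ?_⟩
  by_contra hcu
  have hcm : c ∈ maximalIdeal O := (mem_maximalIdeal c).mpr hcu
  have h1 : algebraMap O T0 c ∈ maximalIdeal T0 := by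
    refine rthk_b_mem_maximalIdeal j0 hd (e := 1) fun i j => ?_
    rw [pow_one, AlgHom.commutes, Matrix.algebraMap_matrix_apply]
    split_ifs
    · exact hcm
    · exact Ideal.zero_mem _
  exact (mem_maximalIdeal _).mp h1 hc

include j0 in
theorem rthk_b_natCast_mem (hd : 0 < d) {p : ℕ} (hp : (p : O) ∈ maximalIdeal O) :
    (p : T0) ∈ maximalIdeal T0 := by
  haveI := rthk_b_isLocalHom j0 hd
  have h1 : (p : T0) = algebraMap O T0 (p : O) := (map_natCast (algebraMap O T0) p).symm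
  rw [h1]
  exact map_nonunit (algebraMap O T0) _ hp

omit [IsLocalRing O] [IsLocalRing T0] in
theorem rthk_b_isNoetherianRing [IsNoetherianRing O] [Module.Finite O T0] :
    IsNoetherianRing T0 :=
  IsNoetherianRing.of_finite O T0

theorem rthk_b_finite_residueField [Finite (ResidueField O)] [Module.Finite O T0]
    [IsLocalHom (algebraMap O T0)] : Finite (ResidueField T0) :=
  IsLocalRing.ResidueField.finite_of_finite ‹Finite (ResidueField O)›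

/-- the quotient of `T0` by `𝔪_𝒪 T0` is finite -/
theorem rthk_b_finite_quot [Finite (ResidueField O)] [Module.Finite O T0] :
    Finite (T0 ⧸ (maximalIdeal O).map (algebraMap O T0)) := by
  haveI : Finite (O ⧸ maximalIdeal O) := ‹Finite (ResidueField O)›
  haveI hfin : Finite (T0 ⧸ (maximalIdeal O • (⊤ : Submodule O T0))) := by
    have : Module.Finite (O ⧸ maximalIdeal O) (T0 ⧸ (maximalIdeal O • (⊤ : Submodule O T0))) :=
      Module.Finite.of_restrictScalars_finite O _ _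
    exact Module.finite_of_finite (O ⧸ maximalIdeal O)
  let f : (T0 ⧸ (maximalIdeal O • (⊤ : Submodule O T0))) →
      (T0 ⧸ (maximalIdeal O).map (algebraMap O T0)) :=
    Quotient.map' id (by
      intro a b hab
      rw [← Quotient.eq''] at hab
      have h1 : a - b ∈ (maximalIdeal O • (⊤ : Submodule O T0)) :=
        (Submodule.Quotient.eq _).mp hab
      rw [Ideal.smul_top_eq_map] at h1
      exact (Submodule.quotientRel_def _).mpr h1)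
  refine Finite.of_surjective f ?_
  intro y
  obtain ⟨x, rfl⟩ := Ideal.Quotient.mk_surjective y
  exact ⟨Submodule.Quotient.mk x, rfl⟩

/-- **the base Hecke ring is complete** -/
theorem rthk_b_isAdicComplete [IsDomain O] [IsDiscreteValuationRing O]
    [IsAdicComplete (maximalIdeal O) O] [Finite (ResidueField O)] [Module.Finite O T0]
    (hj0 : Function.Injective j0) (hd : 0 < d) : IsAdicComplete (maximalIdeal T0) T0 := by
  haveI := rthk_b_isLocalHom j0 hd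
  haveI : IsNoetherianRing T0 := rthk_b_isNoetherianRing (O := O)
  haveI : Module.IsTorsionFree O T0 := by
    refine Module.IsTorsionFree.of_smul_eq_zero fun r m hrm => ?_
    by_cases hr : r = 0
    · exact Or.inl hr
    · right
      apply hj0
      rw [map_zero]
      have h1 := congrArg j0 hrm
      rw [map_smul, map_zero] at h1
      ext i j
      have h2 := congrFun (congrFun h1 i) j
      rw [Matrix.smul_apply, Matrix.zero_apply, smul_eq_mul] at h2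
      rw [Matrix.zero_apply]
      exact (mul_eq_zero.mp h2).resolve_left hr
  haveI : IsPrecomplete (maximalIdeal O) T0 :=
    Fermat.Agent.RT.K5.k5of_isPrecomplete (maximalIdeal O)
  haveI : IsPrecomplete ((maximalIdeal O).map (algebraMap O T0)) T0 :=
    (IsPrecomplete.map_algebraMap_iff (I := maximalIdeal O) (S := T0) (M := T0)).mpr inferInstance
  haveI := rthk_b_finite_quot (O := O) (T0 := T0)
  obtain ⟨e, he⟩ := Fermat.Agent.S32.exists_pow_le_of_finite_quotient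
    ((maximalIdeal O).map (algebraMap O T0))
  have hle : (maximalIdeal O).map (algebraMap O T0) ≤ maximalIdeal T0 :=
    Ideal.map_le_iff_le_comap.mpr fun x hx =>
      Ideal.mem_comap.mpr (map_nonunit (algebraMap O T0) x hx)
  have hpre : IsPrecomplete (maximalIdeal T0) T0 :=
    rthk_b_isPrecomplete_of_pow_le _ _ hle he
  exact { toIsHausdorff := inferInstance, toIsPrecomplete := hpre }

end Ring

/-- **BASE-AR, the contract consumed by HK-ABS-B**: the base Hecke ring `T0 = 𝒪[Φ0 x]`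
(commutative, local, finite over `𝒪`, inside `M_d(𝒪)`) with the Artin–Rees property for `a`. -/
def StmtBaseRing : Prop :=
  ∀ (O : Type) [CommRing O] [IsDomain O] [IsDiscreteValuationRing O] (d : ℕ), 0 < d →
  ∀ (𝕋 : Type) [CommRing 𝕋] (Φ0 : 𝕋 →+* Matrix (Fin d) (Fin d) O),
    (∀ x : 𝕋, ∃ (c : O) (e : ℕ), ∀ i j,
      ((Φ0 x - algebraMap O (Matrix (Fin d) (Fin d) O) c) ^ e) i j ∈ maximalIdeal O) →
  ∀ a : O, a ≠ 0 →
  ∃ (T0 : Type) (_ : CommRing T0) (_ : IsLocalRing T0) (_ : Algebra O T0)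
    (_ : Module.Finite O T0) (j0 : T0 →ₐ[O] Matrix (Fin d) (Fin d) O) (π : 𝕋 →+* T0),
    Function.Injective j0 ∧ (∀ x, j0 (π x) = Φ0 x) ∧
    ∀ k : ℕ, ∃ n : ℕ, ∀ x : T0, (∀ i j, j0 x i j ∈ Ideal.span {a ^ n}) →
      x ∈ Ideal.span {algebraMap O T0 a ^ k}

end Fermat.Agent.RT


end ZBRT_019_1

/-! ### bundled: `Fermat.Agent.RT.K5.FitO` -/
section ZBRT_019_2
/-
K-machine, piece K5-OF (helper9): `stmtFitO : StmtFitO`, the Fitting decomposition of an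
endomorphism of a finite free module over a complete discrete valuation ring with finite
residue field.  The mathematics is in `FitOAbs.lean` (`k5of_final`); this file translates it to
the interface of `Plan2.lean` (`etaPart`, `∘ₗ`).
-/

set_option autoImplicit false
set_option linter.style.haveILetI false

noncomputable section

namespace Fermat.Agent.RT.K5

theorem k5of_pow_apply {R : Type*} [CommRing R] {V : Type*} [AddCommGroup V] [Module R V]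
    (θ : V →ₗ[R] V) (n : ℕ) (x : V) : k5s_pow θ.toAddMonoidHom n x = (θ ^ n) x := by
  induction n generalizing x with
  | zero => rfl
  | succ n ih =>
    rw [k5s_pow_succ, ih, pow_succ, Module.End.mul_apply]
    rfl

theorem k5of_mem_etaPart {R : Type*} [CommRing R] {V : Type*} [AddCommGroup V] [Module R V]
    (θ : V →ₗ[R] V) (w : V) :
    w ∈ etaPart θ.toAddMonoidHom ↔ ∀ n : ℕ, ∃ u : V, (θ ^ n) u = w := by
  rw [k5s_mem_etaPart]
  simp only [k5of_pow_apply]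

/-- **K5-OF** -/
theorem stmtFitO : StmtFitO := by
  intro 𝒪 _ _ _ _ _ V _ _ _ _ θ
  haveI : IsPrecomplete (IsLocalRing.maximalIdeal 𝒪) 𝒪 := inferInstance
  obtain ⟨⟨e, he, h1, h2, h3⟩, hinj, hsurj, hlift⟩ := k5of_final (𝒪 := 𝒪) (V := V) θ
  refine ⟨⟨e, he, fun v => (k5of_mem_etaPart θ _).2 (h1 v),
    fun v hv => h2 v ((k5of_mem_etaPart θ v).1 hv), fun t ht => h3 t ht⟩,
    fun w hw => hinj w ((k5of_mem_etaPart θ w).1 hw), ?_, ?_⟩
  · intro w hw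
    obtain ⟨w', hw', h⟩ := hsurj w ((k5of_mem_etaPart θ w).1 hw)
    exact ⟨w', (k5of_mem_etaPart θ w').2 hw', h⟩
  · intro V' _ _ _ r θ' hr hrθ w' hw'
    obtain ⟨w, hw, h⟩ := hlift V' r θ' hr (fun v => LinearMap.congr_fun hrθ v) w'
      ((k5of_mem_etaPart θ' w').1 hw')
    exact ⟨w, (k5of_mem_etaPart θ w).2 hw, h⟩

end Fermat.Agent.RT.K5

end


end ZBRT_019_2

/-! ### bundled: `Fermat.Agent.RT.K5.FreeO` -/
section ZBRT_019_3
/-
K-machine, piece K5 FREE-O (helper9): `stmtFreeO_of : StmtFreeFin → StmtFreeO`.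

`𝒪` a complete discrete valuation ring with finite residue field, `V_K = Hom(Γ_K(L), 𝒪)` (finite
free), `Θ` on `V_K`.  `stmtFitO` gives the idempotent `e` with image `X(K) = etaPart Θ` and the
surjectivity of `X(K) → X_n(K) = etaPart (Θ on Hom(Γ_K(L), 𝒪/𝔪ⁿ))` (`stmtLift`: the reduction
`V_K → Hom(Γ_K(L), 𝒪/𝔪ⁿ)` is onto, with kernel `𝔪ⁿ V_K`).  A basis of `X₁(H')` over `(𝒪/𝔪)[Δ]`
(from `StmtFreeFin` at `n = 1`) is lifted to `X(H')`; Nakayama: it generates `X(H')`, hence all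
`X_n(H')`; counting (`StmtFreeFin` at `n`) gives the injectivity at level `n`, and
`⋂ 𝔪ⁿ = 0` the injectivity over `𝒪`.
-/

set_option autoImplicit false
set_option linter.style.haveILetI false
set_option linter.unusedSectionVars false
set_option linter.unusedVariables false

noncomputable section

namespace Fermat.Agent.RT.K5

open CongruenceSubgroup Matrix
open scoped MatrixGroups
open Fermat.Agent.ES1 (gammaH diamHom pmH)

/-! ## `Hom(Γ, 𝒪)` is finite free -/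

section homfree

variable (Γ : Subgroup SL(2, ℤ)) [Γ.FiniteIndex]

theorem k5fo_exists_gens : ∃ S : Finset Γ, Subgroup.closure (S : Set Γ) = ⊤ := by
  haveI : Group.FG SL(2, ℤ) := by
    rw [Group.fg_iff]
    exact ⟨{ModularGroup.S, ModularGroup.T}, _root_.SpecialLinearGroup.SL2Z_generators,
      Set.toFinite _⟩
  haveI : Group.FG Γ := inferInstance
  exact Group.fg_def.1 (inferInstance : Group.FG Γ)

theorem k5fo_ext_gens {A : Type*} [AddCommGroup A] (S : Finset Γ)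
    (hS : Subgroup.closure (S : Set Γ) = ⊤) (f g : HomS Γ A)
    (h : ∀ s ∈ S, f (Additive.ofMul s) = g (Additive.ofMul s)) : f = g := by
  have h1 : (AddMonoidHom.toMultiplicativeRight f : Γ →* Multiplicative A)
      = AddMonoidHom.toMultiplicativeRight g := by
    refine MonoidHom.eq_of_eqOn_dense hS ?_
    intro x hx
    exact congrArg Multiplicative.ofAdd (h x hx)
  exact AddMonoidHom.toMultiplicativeRight.injective h1

variable (𝒪 : Type) [CommRing 𝒪]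

theorem k5fo_finite [IsNoetherianRing 𝒪] : Module.Finite 𝒪 (HomS Γ 𝒪) := by
  obtain ⟨S, hS⟩ := k5fo_exists_gens Γ
  let ev : HomS Γ 𝒪 →ₗ[𝒪] (S → 𝒪) :=
    { toFun := fun f s => f (Additive.ofMul (s : Γ))
      map_add' := fun _ _ => rfl
      map_smul' := fun _ _ => rfl }
  have hinj : Function.Injective ev := by
    intro f g h
    exact k5fo_ext_gens Γ S hS f g fun s hs => congrFun h ⟨s, hs⟩
  exact Module.Finite.of_injective ev hinj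

theorem k5fo_free [IsDomain 𝒪] [IsPrincipalIdealRing 𝒪] : Module.Free 𝒪 (HomS Γ 𝒪) := by
  haveI := k5fo_finite Γ 𝒪
  haveI : Module.IsTorsionFree 𝒪 (HomS Γ 𝒪) := by
    refine ⟨fun c hc f g h => ?_⟩
    refine AddMonoidHom.ext fun γ => ?_
    have h1 : c • f γ = c • g γ := congrArg (fun φ : HomS Γ 𝒪 => φ γ) h
    exact hc.1 h1
  exact Module.free_of_finite_type_torsion_free'

end homfree

/-! ## change of coefficients, `Θ` as a linear map -/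

section red

variable {𝒪 : Type} [CommRing 𝒪] {L M : ℕ} [NeZero L] [hML : Fact (M ∣ L)]

/-- `Θ` as an `𝒪`-linear map -/
def k5foTheta (𝔲 : NatFam 𝒪 L M) (ℓ₀ : ℕ) [NeZero ℓ₀] (A : Type) [AddCommGroup A] [Module 𝒪 A]
    (K : Subgroup (ZMod M)ˣ) : HomS (gammaH L M K) A →ₗ[𝒪] HomS (gammaH L M K) A where
  toFun := thetaN 𝔲 ℓ₀ A K
  map_add' := map_add _
  map_smul' c φ := k5n_theta_smul 𝔲 ℓ₀ K c φ

theorem k5fo_theta_toAdd (𝔲 : NatFam 𝒪 L M) (ℓ₀ : ℕ) [NeZero ℓ₀] (A : Type) [AddCommGroup A]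
    [Module 𝒪 A] (K : Subgroup (ZMod M)ˣ) :
    (k5foTheta 𝔲 ℓ₀ A K).toAddMonoidHom = thetaN 𝔲 ℓ₀ A K :=
  AddMonoidHom.ext fun _ => rfl

/-- change of coefficients as an `𝒪`-linear map -/
def k5foMap (Γ : Subgroup SL(2, ℤ)) {A B : Type} [AddCommGroup A] [Module 𝒪 A] [AddCommGroup B]
    [Module 𝒪 B] (f : A →ₗ[𝒪] B) : HomS Γ A →ₗ[𝒪] HomS Γ B where
  toFun := mapS f.toAddMonoidHom
  map_add' := map_add _
  map_smul' c φ := by
    refine AddMonoidHom.ext fun γ => ?_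
    exact map_smul f c (φ γ)

theorem k5fo_map_apply (Γ : Subgroup SL(2, ℤ)) {A B : Type} [AddCommGroup A] [Module 𝒪 A]
    [AddCommGroup B] [Module 𝒪 B] (f : A →ₗ[𝒪] B) (φ : HomS Γ A) :
    k5foMap Γ f φ = mapS f.toAddMonoidHom φ := rfl

/-- the `Θ`-part is stable under the scalars -/
theorem k5fo_smul_mem (𝔲 : NatFam 𝒪 L M) (ℓ₀ : ℕ) [NeZero ℓ₀] {A : Type} [AddCommGroup A]
    [Module 𝒪 A] (K : Subgroup (ZMod M)ˣ) (c : 𝒪) {ψ : HomS (gammaH L M K) A}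
    (hψ : ψ ∈ etaPart (thetaN 𝔲 ℓ₀ A K)) : c • ψ ∈ etaPart (thetaN 𝔲 ℓ₀ A K) :=
  k5s_intertwine_mem (thetaN 𝔲 ℓ₀ A K) (thetaN 𝔲 ℓ₀ A K)
    (DistribSMul.toAddMonoidHom (HomS (gammaH L M K) A) c)
    (fun x => (k5n_theta_smul 𝔲 ℓ₀ K c x).symm) hψ

/-- the `Θ`-part as a submodule -/
def k5foX (𝔲 : NatFam 𝒪 L M) (ℓ₀ : ℕ) [NeZero ℓ₀] (A : Type) [AddCommGroup A] [Module 𝒪 A]
    (K : Subgroup (ZMod M)ˣ) : Submodule 𝒪 (HomS (gammaH L M K) A) where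
  carrier := {ψ | ψ ∈ etaPart (thetaN 𝔲 ℓ₀ A K)}
  add_mem' := fun ha hb => (etaPart (thetaN 𝔲 ℓ₀ A K)).add_mem ha hb
  zero_mem' := (etaPart (thetaN 𝔲 ℓ₀ A K)).zero_mem
  smul_mem' := fun c _ h => k5fo_smul_mem 𝔲 ℓ₀ K c h

theorem k5fo_mem_X (𝔲 : NatFam 𝒪 L M) (ℓ₀ : ℕ) [NeZero ℓ₀] (A : Type) [AddCommGroup A]
    [Module 𝒪 A] (K : Subgroup (ZMod M)ˣ) (ψ : HomS (gammaH L M K) A) :
    ψ ∈ k5foX 𝔲 ℓ₀ A K ↔ ψ ∈ etaPart (thetaN 𝔲 ℓ₀ A K) := Iff.rfl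

/-- scalars of the quotient ring and scalars of `𝒪` -/
theorem k5fo_mk_smul (I : Ideal 𝒪) {Γ : Subgroup SL(2, ℤ)} (c : 𝒪) (ψ : HomS Γ (𝒪 ⧸ I)) :
    (Ideal.Quotient.mk I c) • ψ = c • ψ := by
  refine AddMonoidHom.ext fun γ => ?_
  show Ideal.Quotient.mk I c * ψ γ = c • ψ γ
  obtain ⟨a, ha⟩ := Ideal.Quotient.mk_surjective (ψ γ)
  rw [← ha]
  rfl

/-- the reduction `Hom(Γ, 𝒪) → Hom(Γ, 𝒪/I)` -/
abbrev k5foRed (I : Ideal 𝒪) (Γ : Subgroup SL(2, ℤ)) : HomS Γ 𝒪 →+ HomS Γ (𝒪 ⧸ I) :=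
  mapS (Submodule.mkQ I).toAddMonoidHom

theorem k5fo_red_smul (I : Ideal 𝒪) (Γ : Subgroup SL(2, ℤ)) (c : 𝒪) (φ : HomS Γ 𝒪) :
    k5foRed I Γ (c • φ) = Ideal.Quotient.mk I c • k5foRed I Γ φ := by
  rw [k5fo_mk_smul]
  exact (k5foMap Γ (Submodule.mkQ I)).map_smul c φ

theorem k5fo_red_eq_zero (I : Ideal 𝒪) (Γ : Subgroup SL(2, ℤ)) (φ : HomS Γ 𝒪)
    (h : k5foRed I Γ φ = 0) (γ : Additive Γ) : φ γ ∈ I := by
  have h1 : Submodule.mkQ I (φ γ) = 0 := congrArg (fun ψ : HomS Γ (𝒪 ⧸ I) => ψ γ) h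
  rwa [Submodule.mkQ_apply, Submodule.Quotient.mk_eq_zero] at h1

/-- the reduction intertwines `Θ` -/
theorem k5fo_red_theta (𝔲 : NatFam 𝒪 L M) (ℓ₀ : ℕ) [NeZero ℓ₀] (I : Ideal 𝒪)
    (K : Subgroup (ZMod M)ˣ) (φ : HomS (gammaH L M K) 𝒪) :
    k5foRed I _ (thetaN 𝔲 ℓ₀ 𝒪 K φ) = thetaN 𝔲 ℓ₀ (𝒪 ⧸ I) K (k5foRed I _ φ) :=
  k5n_theta_nat 𝔲 ℓ₀ (Submodule.mkQ I) K φ

theorem k5fo_red_mem (𝔲 : NatFam 𝒪 L M) (ℓ₀ : ℕ) [NeZero ℓ₀] (I : Ideal 𝒪)
    (K : Subgroup (ZMod M)ˣ) {φ : HomS (gammaH L M K) 𝒪}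
    (hφ : φ ∈ etaPart (thetaN 𝔲 ℓ₀ 𝒪 K)) :
    k5foRed I _ φ ∈ etaPart (thetaN 𝔲 ℓ₀ (𝒪 ⧸ I) K) :=
  k5s_intertwine_mem _ _ (k5foRed I _) (fun x => k5fo_red_theta 𝔲 ℓ₀ I K x) hφ

theorem k5fo_noTors_mono {Γ' Γ : Subgroup SL(2, ℤ)} (h : Γ' ≤ Γ) {A : Type} [AddCommGroup A]
    (hA : NoTors Γ A) : NoTors Γ' A :=
  ⟨hA.1, hA.2.imp id fun h3 g hg => h3 g (h hg)⟩

end red

/-! ## divisibility in the kernel of the reduction -/

section ker

variable {𝒪 : Type} [CommRing 𝒪] [IsDomain 𝒪] [IsDiscreteValuationRing 𝒪]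

theorem k5fo_ker_red (Γ : Subgroup SL(2, ℤ)) (n : ℕ) (φ : HomS Γ 𝒪)
    (h : k5foRed (IsLocalRing.maximalIdeal 𝒪 ^ n) Γ φ = 0) :
    ∃ c ∈ IsLocalRing.maximalIdeal 𝒪 ^ n, ∃ φ' : HomS Γ 𝒪, φ = c • φ' := by
  obtain ⟨ϖ, hϖ⟩ := IsDiscreteValuationRing.exists_irreducible 𝒪
  have hm : IsLocalRing.maximalIdeal 𝒪 ^ n = Ideal.span {ϖ ^ n} := by
    rw [hϖ.maximalIdeal_eq, Ideal.span_singleton_pow]
  have hc0 : ϖ ^ n ≠ 0 := pow_ne_zero n hϖ.ne_zero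
  have hdvd : ∀ γ : Additive Γ, ∃ a : 𝒪, φ γ = ϖ ^ n * a := by
    intro γ
    have h1 := k5fo_red_eq_zero _ Γ φ h γ
    rw [hm, Ideal.mem_span_singleton] at h1
    exact h1
  choose q hq using hdvd
  refine ⟨ϖ ^ n, by rw [hm]; exact Ideal.mem_span_singleton_self _, AddMonoidHom.mk' q ?_, ?_⟩
  · intro a b
    apply mul_left_cancel₀ hc0
    rw [← hq, mul_add, ← hq, ← hq, map_add]
  · refine AddMonoidHom.ext fun γ => ?_
    rw [AddMonoidHom.smul_apply, AddMonoidHom.mk'_apply, smul_eq_mul]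
    exact hq γ

end ker

/-! ## Nakayama -/

theorem k5fo_nakayama {R V : Type*} [CommRing R] [IsLocalRing R] [AddCommGroup V] [Module R V]
    (X : Submodule R V) (hX : X.FG) {ι : Type*} [Fintype ι] (d : ι → V)
    (h : ∀ v ∈ X, ∃ c : ι → R, v - ∑ x, c x • d x ∈ IsLocalRing.maximalIdeal R • X) :
    ∀ v ∈ X, ∃ c : ι → R, v = ∑ x, c x • d x := by
  have h1 : X ≤ Submodule.span R (Set.range d) ⊔ IsLocalRing.maximalIdeal R • X := by
    intro v hv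
    obtain ⟨c, hc⟩ := h v hv
    have h2 : v = ∑ x, c x • d x + (v - ∑ x, c x • d x) := by abel
    rw [h2]
    exact Submodule.add_mem_sup (Submodule.sum_mem _ fun x _ =>
      Submodule.smul_mem _ _ (Submodule.subset_span ⟨x, rfl⟩)) hc
  have h2 := Submodule.le_of_le_smul_of_le_jacobson_bot hX
    (IsLocalRing.maximalIdeal_le_jacobson ⊥) h1
  intro v hv
  obtain ⟨c, hc⟩ := (Submodule.mem_span_range_iff_exists_fun R).1 (h2 hv)
  exact ⟨c, hc.symm⟩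

/-! ## the reduction of the `Θ`-part: onto, kernel `𝔪ⁿ ·` -/

section fit

variable {𝒪 : Type} [CommRing 𝒪] [IsDomain 𝒪] [IsDiscreteValuationRing 𝒪]
  [IsAdicComplete (IsLocalRing.maximalIdeal 𝒪) 𝒪] [Finite (IsLocalRing.ResidueField 𝒪)]
  {L M : ℕ} [NeZero L] [hML : Fact (M ∣ L)]

omit [IsAdicComplete (IsLocalRing.maximalIdeal 𝒪) 𝒪] in
theorem k5fo_finite_quot (n : ℕ) : Finite (𝒪 ⧸ IsLocalRing.maximalIdeal 𝒪 ^ n) := by
  haveI : Finite (𝒪 ⧸ IsLocalRing.maximalIdeal 𝒪) := ‹Finite (IsLocalRing.ResidueField 𝒪)›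
  exact Ideal.finite_quotient_pow (IsNoetherian.noetherian _) n

/-- the reduction `X(K) → X_n(K)` is onto -/
theorem k5fo_red_onto (𝔲 : NatFam 𝒪 L M) (ℓ₀ : ℕ) [NeZero ℓ₀] (n : ℕ) (K : Subgroup (ZMod M)ˣ)
    (hNT : NoTors (gammaH L M K) (𝒪 ⧸ IsLocalRing.maximalIdeal 𝒪 ^ n))
    {w : HomS (gammaH L M K) (𝒪 ⧸ IsLocalRing.maximalIdeal 𝒪 ^ n)}
    (hw : w ∈ etaPart (thetaN 𝔲 ℓ₀ (𝒪 ⧸ IsLocalRing.maximalIdeal 𝒪 ^ n) K)) :
    ∃ v ∈ etaPart (thetaN 𝔲 ℓ₀ 𝒪 K), k5foRed (IsLocalRing.maximalIdeal 𝒪 ^ n) _ v = w := by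
  haveI := k5fo_finite (gammaH L M K) 𝒪
  haveI := k5fo_free (gammaH L M K) 𝒪
  haveI := k5fo_finite_quot (𝒪 := 𝒪) n
  haveI : Finite (HomS (gammaH L M K) (𝒪 ⧸ IsLocalRing.maximalIdeal 𝒪 ^ n)) :=
    k5s_finite_homS _ _
  obtain ⟨-, -, -, hlift⟩ := stmtFitO 𝒪 (HomS (gammaH L M K) 𝒪) (k5foTheta 𝔲 ℓ₀ 𝒪 K)
  have hsurj : Function.Surjective
      (k5foMap (gammaH L M K) (Submodule.mkQ (IsLocalRing.maximalIdeal 𝒪 ^ n))) := by
    intro ψ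
    obtain ⟨φ', hφ'⟩ := stmtLift L M K 𝒪 _
      (Submodule.mkQ (IsLocalRing.maximalIdeal 𝒪 ^ n)).toAddMonoidHom
      (Submodule.mkQ_surjective _) hNT ψ
    exact ⟨φ', hφ'⟩
  have hcomm : k5foMap (gammaH L M K) (Submodule.mkQ (IsLocalRing.maximalIdeal 𝒪 ^ n)) ∘ₗ
      k5foTheta 𝔲 ℓ₀ 𝒪 K = k5foTheta 𝔲 ℓ₀ (𝒪 ⧸ IsLocalRing.maximalIdeal 𝒪 ^ n) K ∘ₗ
        k5foMap (gammaH L M K) (Submodule.mkQ (IsLocalRing.maximalIdeal 𝒪 ^ n)) := by
    refine LinearMap.ext fun φ => ?_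
    exact k5fo_red_theta 𝔲 ℓ₀ _ K φ
  have hw' : w ∈ etaPart
      (k5foTheta 𝔲 ℓ₀ (𝒪 ⧸ IsLocalRing.maximalIdeal 𝒪 ^ n) K).toAddMonoidHom := by
    rw [k5fo_theta_toAdd]
    exact hw
  obtain ⟨v, hv, hvw⟩ := hlift (HomS (gammaH L M K) (𝒪 ⧸ IsLocalRing.maximalIdeal 𝒪 ^ n))
    (k5foMap _ (Submodule.mkQ _)) (k5foTheta 𝔲 ℓ₀ _ K) hsurj hcomm w hw'
  rw [k5fo_theta_toAdd] at hv
  exact ⟨v, hv, hvw⟩

/-- the kernel of the reduction `X(K) → X_n(K)` is `𝔪ⁿ X(K)` -/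
theorem k5fo_red_ker (𝔲 : NatFam 𝒪 L M) (ℓ₀ : ℕ) [NeZero ℓ₀] (n : ℕ) (K : Subgroup (ZMod M)ˣ)
    {v : HomS (gammaH L M K) 𝒪} (hv : v ∈ etaPart (thetaN 𝔲 ℓ₀ 𝒪 K))
    (h0 : k5foRed (IsLocalRing.maximalIdeal 𝒪 ^ n) _ v = 0) :
    ∃ c ∈ IsLocalRing.maximalIdeal 𝒪 ^ n, ∃ v' ∈ etaPart (thetaN 𝔲 ℓ₀ 𝒪 K), v = c • v' := by
  haveI := k5fo_finite (gammaH L M K) 𝒪
  haveI := k5fo_free (gammaH L M K) 𝒪
  obtain ⟨⟨e, he, h1, h2, h3⟩, -, -, -⟩ :=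
    stmtFitO 𝒪 (HomS (gammaH L M K) 𝒪) (k5foTheta 𝔲 ℓ₀ 𝒪 K)
  rw [k5fo_theta_toAdd] at h1 h2
  obtain ⟨c, hc, φ', hφ'⟩ := k5fo_ker_red _ n v h0
  refine ⟨c, hc, e φ', h1 φ', ?_⟩
  rw [← map_smul, ← hφ', h2 v hv]

end fit

/-! ## lifting generators and bases -/

theorem k5fo_inj_of_surj {D Y : Type*} [Finite D] (f f' : D → Y) (hf' : Function.Injective f')
    (h1 : ∀ c, ∃ c', f' c' = f c) (h2 : ∀ c', ∃ c, f c = f' c') : Function.Injective f := by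
  choose g hg using h1
  have hgs : Function.Surjective g := by
    intro c'
    obtain ⟨c, hc⟩ := h2 c'
    exact ⟨c, hf' (by rw [hg, hc])⟩
  have hgi : Function.Injective g := Finite.injective_iff_surjective.2 hgs
  intro a b hab
  apply hgi
  apply hf'
  rw [hg, hg]
  exact hab

section gen

variable {𝒪 : Type} [CommRing 𝒪] [IsDomain 𝒪] [IsDiscreteValuationRing 𝒪]
  [IsAdicComplete (IsLocalRing.maximalIdeal 𝒪) 𝒪] [Finite (IsLocalRing.ResidueField 𝒪)]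
  {L M : ℕ} [NeZero L] [hML : Fact (M ∣ L)]
  (𝔲 : NatFam 𝒪 L M) (ℓ₀ : ℕ) [NeZero ℓ₀] (K : Subgroup (ZMod M)ˣ)
  {ι : Type} [Fintype ι] (d : ι → HomS (gammaH L M K) 𝒪)

omit [IsDomain 𝒪] [IsDiscreteValuationRing 𝒪]
  [IsAdicComplete (IsLocalRing.maximalIdeal 𝒪) 𝒪] [Finite (IsLocalRing.ResidueField 𝒪)] in
/-- sums with coefficients in `𝒪/I` stay in the `Θ`-part -/
theorem k5fo_sum_mem (I : Ideal 𝒪) (y : ι → HomS (gammaH L M K) (𝒪 ⧸ I))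
    (hy : ∀ x, y x ∈ etaPart (thetaN 𝔲 ℓ₀ (𝒪 ⧸ I) K)) (c : ι → 𝒪 ⧸ I) :
    ∑ x, c x • y x ∈ etaPart (thetaN 𝔲 ℓ₀ (𝒪 ⧸ I) K) := by
  refine AddSubgroup.sum_mem _ fun x _ => ?_
  obtain ⟨a, ha⟩ := Ideal.Quotient.mk_surjective (c x)
  rw [← ha, k5fo_mk_smul]
  exact k5fo_smul_mem 𝔲 ℓ₀ K a (hy x)

omit [IsDomain 𝒪] [IsDiscreteValuationRing 𝒪]
  [IsAdicComplete (IsLocalRing.maximalIdeal 𝒪) 𝒪] [Finite (IsLocalRing.ResidueField 𝒪)] in
theorem k5fo_red_sum (I : Ideal 𝒪) (c : ι → 𝒪) :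
    k5foRed I _ (∑ x, c x • d x) = ∑ x, Ideal.Quotient.mk I (c x) • k5foRed I _ (d x) := by
  rw [map_sum]
  exact Finset.sum_congr rfl fun x _ => k5fo_red_smul I _ (c x) (d x)

/-- generators of `X₁(K)` lift to generators of `X(K)` -/
theorem k5fo_span_O (hd : ∀ x, d x ∈ etaPart (thetaN 𝔲 ℓ₀ 𝒪 K))
    (h1 : ∀ ψ ∈ etaPart (thetaN 𝔲 ℓ₀ (𝒪 ⧸ IsLocalRing.maximalIdeal 𝒪 ^ 1) K),
      ∃ c : ι → 𝒪 ⧸ IsLocalRing.maximalIdeal 𝒪 ^ 1,
        ψ = ∑ x, c x • k5foRed (IsLocalRing.maximalIdeal 𝒪 ^ 1) _ (d x)) :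
    ∀ v ∈ etaPart (thetaN 𝔲 ℓ₀ 𝒪 K), ∃ c : ι → 𝒪, v = ∑ x, c x • d x := by
  haveI := k5fo_finite (gammaH L M K) 𝒪
  haveI : IsNoetherian 𝒪 (HomS (gammaH L M K) 𝒪) :=
    isNoetherian_of_isNoetherianRing_of_finite 𝒪 _
  refine k5fo_nakayama (k5foX 𝔲 ℓ₀ 𝒪 K) (IsNoetherian.noetherian _) d fun v hv => ?_
  obtain ⟨cbar, hcbar⟩ := h1 _ (k5fo_red_mem 𝔲 ℓ₀ (IsLocalRing.maximalIdeal 𝒪 ^ 1) K hv)
  choose c hc using fun x => Ideal.Quotient.mk_surjective (cbar x)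
  refine ⟨c, ?_⟩
  have hw : v - ∑ x, c x • d x ∈ etaPart (thetaN 𝔲 ℓ₀ 𝒪 K) :=
    (k5foX 𝔲 ℓ₀ 𝒪 K).sub_mem hv
      (Submodule.sum_mem _ fun x _ => Submodule.smul_mem _ _ (hd x))
  have h0 : k5foRed (IsLocalRing.maximalIdeal 𝒪 ^ 1) _ (v - ∑ x, c x • d x) = 0 := by
    rw [map_sub, k5fo_red_sum, hcbar, sub_eq_zero]
    exact Finset.sum_congr rfl fun x _ => by rw [hc x]
  obtain ⟨c', hc', v', hv', hvv'⟩ := k5fo_red_ker 𝔲 ℓ₀ 1 K hw h0
  rw [hvv']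
  rw [pow_one] at hc'
  exact Submodule.smul_mem_smul hc' hv'

/-- … and to generators of every `X_n(K)` -/
theorem k5fo_span_n (hd : ∀ x, d x ∈ etaPart (thetaN 𝔲 ℓ₀ 𝒪 K))
    (h1 : ∀ ψ ∈ etaPart (thetaN 𝔲 ℓ₀ (𝒪 ⧸ IsLocalRing.maximalIdeal 𝒪 ^ 1) K),
      ∃ c : ι → 𝒪 ⧸ IsLocalRing.maximalIdeal 𝒪 ^ 1,
        ψ = ∑ x, c x • k5foRed (IsLocalRing.maximalIdeal 𝒪 ^ 1) _ (d x))
    (n : ℕ) (hNT : NoTors (gammaH L M K) (𝒪 ⧸ IsLocalRing.maximalIdeal 𝒪 ^ n)) :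
    ∀ ψ ∈ etaPart (thetaN 𝔲 ℓ₀ (𝒪 ⧸ IsLocalRing.maximalIdeal 𝒪 ^ n) K),
      ∃ c : ι → 𝒪 ⧸ IsLocalRing.maximalIdeal 𝒪 ^ n,
        ψ = ∑ x, c x • k5foRed (IsLocalRing.maximalIdeal 𝒪 ^ n) _ (d x) := by
  intro ψ hψ
  obtain ⟨v, hv, rfl⟩ := k5fo_red_onto 𝔲 ℓ₀ n K hNT hψ
  obtain ⟨c, rfl⟩ := k5fo_span_O 𝔲 ℓ₀ K d hd h1 v hv
  exact ⟨fun x => Ideal.Quotient.mk _ (c x), k5fo_red_sum K d _ c⟩

/-- injectivity at level `n` by counting -/
theorem k5fo_inj_n (hd : ∀ x, d x ∈ etaPart (thetaN 𝔲 ℓ₀ 𝒪 K))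
    (h1 : ∀ ψ ∈ etaPart (thetaN 𝔲 ℓ₀ (𝒪 ⧸ IsLocalRing.maximalIdeal 𝒪 ^ 1) K),
      ∃ c : ι → 𝒪 ⧸ IsLocalRing.maximalIdeal 𝒪 ^ 1,
        ψ = ∑ x, c x • k5foRed (IsLocalRing.maximalIdeal 𝒪 ^ 1) _ (d x))
    (n : ℕ) (hNT : NoTors (gammaH L M K) (𝒪 ⧸ IsLocalRing.maximalIdeal 𝒪 ^ n))
    (d' : ι → HomS (gammaH L M K) (𝒪 ⧸ IsLocalRing.maximalIdeal 𝒪 ^ n))
    (hd' : ∀ x, d' x ∈ etaPart (thetaN 𝔲 ℓ₀ (𝒪 ⧸ IsLocalRing.maximalIdeal 𝒪 ^ n) K))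
    (hinj' : Function.Injective
      (fun c : ι → 𝒪 ⧸ IsLocalRing.maximalIdeal 𝒪 ^ n => ∑ x, c x • d' x))
    (hspan' : ∀ ψ ∈ etaPart (thetaN 𝔲 ℓ₀ (𝒪 ⧸ IsLocalRing.maximalIdeal 𝒪 ^ n) K),
      ∃ c : ι → 𝒪 ⧸ IsLocalRing.maximalIdeal 𝒪 ^ n, ψ = ∑ x, c x • d' x) :
    Function.Injective (fun c : ι → 𝒪 ⧸ IsLocalRing.maximalIdeal 𝒪 ^ n =>
      ∑ x, c x • k5foRed (IsLocalRing.maximalIdeal 𝒪 ^ n) _ (d x)) := by
  haveI := k5fo_finite_quot (𝒪 := 𝒪) n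
  refine k5fo_inj_of_surj _ _ hinj' (fun c => ?_) (fun c' => ?_)
  · obtain ⟨c', hc'⟩ := hspan' _
      (k5fo_sum_mem 𝔲 ℓ₀ K _ _ (fun x => k5fo_red_mem 𝔲 ℓ₀ _ K (hd x)) c)
    exact ⟨c', hc'.symm⟩
  · obtain ⟨c, hc⟩ := k5fo_span_n 𝔲 ℓ₀ K d hd h1 n hNT _ (k5fo_sum_mem 𝔲 ℓ₀ K _ d' hd' c')
    exact ⟨c, hc.symm⟩

omit [IsAdicComplete (IsLocalRing.maximalIdeal 𝒪) 𝒪] [Finite (IsLocalRing.ResidueField 𝒪)] in
/-- injectivity over `𝒪` from injectivity at all levels -/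
theorem k5fo_inj_O
    (hinj : ∀ n : ℕ, Function.Injective (fun c : ι → 𝒪 ⧸ IsLocalRing.maximalIdeal 𝒪 ^ n =>
      ∑ x, c x • k5foRed (IsLocalRing.maximalIdeal 𝒪 ^ n) _ (d x))) :
    Function.Injective (fun c : ι → 𝒪 => ∑ x, c x • d x) := by
  intro c c' h
  funext x
  have hx : ∀ n : ℕ, c x - c' x ∈ IsLocalRing.maximalIdeal 𝒪 ^ n := by
    intro n
    have h1 : k5foRed (IsLocalRing.maximalIdeal 𝒪 ^ n) _ (∑ x, c x • d x)
        = k5foRed (IsLocalRing.maximalIdeal 𝒪 ^ n) _ (∑ x, c' x • d x) := congrArg _ h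
    rw [k5fo_red_sum, k5fo_red_sum] at h1
    have h2 := congrFun (@hinj n (fun x => Ideal.Quotient.mk _ (c x))
      (fun x => Ideal.Quotient.mk _ (c' x)) h1) x
    exact Ideal.Quotient.eq.1 h2
  have h3 : c x - c' x ∈ (⨅ n : ℕ, IsLocalRing.maximalIdeal 𝒪 ^ n : Ideal 𝒪) :=
    (Submodule.mem_iInf _).2 hx
  rw [Ideal.iInf_pow_eq_bot_of_isLocalRing _ (IsLocalRing.maximalIdeal.isMaximal 𝒪).ne_top]
    at h3
  exact sub_eq_zero.1 h3

end gen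

/-! ## the theorem -/

/-- **K5-FREE-O** from **K5-FREE-fin** -/
theorem stmtFreeO_of (hfin : StmtFreeFin) : StmtFreeO := by
  intro p _ 𝒪 _ _ _ _ _ L M ℓ₀ _ _ _ H' H k hyp 𝔲
  obtain ⟨r, hr⟩ := hfin p 𝒪 L M ℓ₀ H' H k hyp 𝔲
  have hle : H' ≤ H := hyp.le
  have hNT : ∀ n, NoTors (gammaH L M H) (𝒪 ⧸ IsLocalRing.maximalIdeal 𝒪 ^ n) := hyp.noTors
  have hNT' : ∀ n, NoTors (gammaH L M H') (𝒪 ⧸ IsLocalRing.maximalIdeal 𝒪 ^ n) := fun n =>
    k5fo_noTors_mono (Fermat.Agent.ES1.gammaH_mono hle) (hNT n)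
  obtain ⟨b₁, hb₁⟩ := hr 1
  -- lift the basis of level `1`
  have hlift : ∀ i, ∃ v ∈ etaPart (thetaN 𝔲 ℓ₀ 𝒪 H'),
      k5foRed (IsLocalRing.maximalIdeal 𝒪 ^ 1) _ v = b₁ i :=
    fun i => k5fo_red_onto 𝔲 ℓ₀ 1 H' (hNT' 1) (hb₁.1 i)
  choose b hb hbred using hlift
  -- the diamond family
  have hdU : ∀ (m : ℕ) (u : Fin m → (ZMod M)ˣ) (x : Fin r × Fin m),
      diamU L M H' 𝒪 (u x.2) (b x.1) ∈ etaPart (thetaN 𝔲 ℓ₀ 𝒪 H') := fun m u x =>
    k5act_thetaS_mem L M H' 𝒪 (𝔲.fam 𝒪) ℓ₀ (u x.2) (hb x.1)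
  have h1U : ∀ (m : ℕ) (u : Fin m → (ZMod M)ˣ), IsTransversal H' H u →
      ∀ ψ ∈ etaPart (thetaN 𝔲 ℓ₀ (𝒪 ⧸ IsLocalRing.maximalIdeal 𝒪 ^ 1) H'),
      ∃ c : Fin r × Fin m → 𝒪 ⧸ IsLocalRing.maximalIdeal 𝒪 ^ 1,
        ψ = ∑ x, c x • k5foRed (IsLocalRing.maximalIdeal 𝒪 ^ 1) _
          (diamU L M H' 𝒪 (u x.2) (b x.1)) := by
    intro m u hu ψ hψ
    obtain ⟨c, hc⟩ := (hb₁.2.1 m u hu).2 ψ hψ
    refine ⟨c, ?_⟩
    rw [hc]
    refine Finset.sum_congr rfl fun x _ => ?_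
    show c x • diamU L M H' _ (u x.2) (b₁ x.1)
      = c x • diamU L M H' _ (u x.2) (k5foRed (IsLocalRing.maximalIdeal 𝒪 ^ 1) _ (b x.1))
    rw [hbred]
  have hinjU : ∀ (m : ℕ) (u : Fin m → (ZMod M)ˣ), IsTransversal H' H u → ∀ n : ℕ,
      Function.Injective (fun c : Fin r × Fin m → 𝒪 ⧸ IsLocalRing.maximalIdeal 𝒪 ^ n =>
        ∑ x, c x • k5foRed (IsLocalRing.maximalIdeal 𝒪 ^ n) _
          (diamU L M H' 𝒪 (u x.2) (b x.1))) := by
    intro m u hu n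
    obtain ⟨bn, hbn⟩ := hr n
    exact k5fo_inj_n 𝔲 ℓ₀ H' (fun x : Fin r × Fin m => diamU L M H' 𝒪 (u x.2) (b x.1))
      (hdU m u) (h1U m u hu) n (hNT' n)
      (fun x => diamU L M H' _ (u x.2) (bn x.1))
      (fun x => k5act_thetaS_mem L M H' _ (𝔲.fam _) ℓ₀ (u x.2) (hbn.1 x.1))
      (hbn.2.1 m u hu).1 (hbn.2.1 m u hu).2
  -- the corestricted family
  have hcores_mem : ∀ (A : Type) [AddCommGroup A] [Module 𝒪 A] (ψ : HomS (gammaH L M H') A),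
      ψ ∈ etaPart (thetaN 𝔲 ℓ₀ A H') →
      coresS A (Fermat.Agent.ES1.gammaH_mono hle) ψ ∈ etaPart (thetaN 𝔲 ℓ₀ A H) :=
    fun A _ _ ψ hψ => k5s_intertwine_mem (thetaN 𝔲 ℓ₀ A H') (thetaN 𝔲 ℓ₀ A H)
      (coresS A (Fermat.Agent.ES1.gammaH_mono hle)) (fun x => k5n_theta_cores 𝔲 ℓ₀ hle x) hψ
  have hcr : ∀ (n : ℕ) (i : Fin r), k5foRed (IsLocalRing.maximalIdeal 𝒪 ^ n) _
      (coresS 𝒪 (Fermat.Agent.ES1.gammaH_mono hle) (b i))
      = coresS (𝒪 ⧸ IsLocalRing.maximalIdeal 𝒪 ^ n) (Fermat.Agent.ES1.gammaH_mono hle)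
        (k5foRed (IsLocalRing.maximalIdeal 𝒪 ^ n) _ (b i)) := fun n i =>
    k5nat_cores _ (Fermat.Agent.ES1.gammaH_mono hle) (b i)
  have hdC : ∀ i : Fin r, coresS 𝒪 (Fermat.Agent.ES1.gammaH_mono hle) (b i)
      ∈ etaPart (thetaN 𝔲 ℓ₀ 𝒪 H) := fun i => hcores_mem 𝒪 _ (hb i)
  have h1C : ∀ ψ ∈ etaPart (thetaN 𝔲 ℓ₀ (𝒪 ⧸ IsLocalRing.maximalIdeal 𝒪 ^ 1) H),
      ∃ c : Fin r → 𝒪 ⧸ IsLocalRing.maximalIdeal 𝒪 ^ 1,
        ψ = ∑ i, c i • k5foRed (IsLocalRing.maximalIdeal 𝒪 ^ 1) _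
          (coresS 𝒪 (Fermat.Agent.ES1.gammaH_mono hle) (b i)) := by
    intro ψ hψ
    obtain ⟨c, hc⟩ := hb₁.2.2.2 ψ hψ
    refine ⟨c, ?_⟩
    rw [hc]
    refine Finset.sum_congr rfl fun i _ => ?_
    rw [hcr, hbred]
  have hinjC : ∀ n : ℕ,
      Function.Injective (fun c : Fin r → 𝒪 ⧸ IsLocalRing.maximalIdeal 𝒪 ^ n =>
        ∑ i, c i • k5foRed (IsLocalRing.maximalIdeal 𝒪 ^ n) _
          (coresS 𝒪 (Fermat.Agent.ES1.gammaH_mono hle) (b i))) := by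
    intro n
    obtain ⟨bn, hbn⟩ := hr n
    exact k5fo_inj_n 𝔲 ℓ₀ H (fun i : Fin r => coresS 𝒪 (Fermat.Agent.ES1.gammaH_mono hle) (b i))
      hdC h1C n (hNT n)
      (fun i => coresS _ (Fermat.Agent.ES1.gammaH_mono hle) (bn i))
      (fun i => hcores_mem _ _ (hbn.1 i)) hbn.2.2.1 hbn.2.2.2
  refine ⟨r, b, ⟨hb, fun m u hu => ⟨?_, ?_⟩, ?_, ?_⟩, fun n => ⟨?_, fun m u hu => ⟨?_, ?_⟩, ?_, ?_⟩,
    ?_⟩
  · -- injectivity over `𝒪`, diamonds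
    exact k5fo_inj_O H' (fun x : Fin r × Fin m => diamU L M H' 𝒪 (u x.2) (b x.1))
      (hinjU m u hu)
  · exact k5fo_span_O 𝔲 ℓ₀ H' (fun x : Fin r × Fin m => diamU L M H' 𝒪 (u x.2) (b x.1))
      (hdU m u) (h1U m u hu)
  · exact k5fo_inj_O H (fun i : Fin r => coresS 𝒪 (Fermat.Agent.ES1.gammaH_mono hle) (b i))
      hinjC
  · exact k5fo_span_O 𝔲 ℓ₀ H (fun i : Fin r => coresS 𝒪 (Fermat.Agent.ES1.gammaH_mono hle) (b i))
      hdC h1C
  · -- level `n`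
    intro i
    exact k5fo_red_mem 𝔲 ℓ₀ _ H' (hb i)
  · exact hinjU m u hu n
  · exact k5fo_span_n 𝔲 ℓ₀ H' (fun x : Fin r × Fin m => diamU L M H' 𝒪 (u x.2) (b x.1))
      (hdU m u) (h1U m u hu) n (hNT' n)
  · have h := hinjC n
    simp only [hcr] at h
    exact h
  · have h := k5fo_span_n 𝔲 ℓ₀ H
      (fun i : Fin r => coresS 𝒪 (Fermat.Agent.ES1.gammaH_mono hle) (b i)) hdC h1C n (hNT n)
    simp only [hcr] at h
    exact h
  · rintro n K (rfl | rfl)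
    · exact ⟨fun w hw => k5fo_red_onto 𝔲 ℓ₀ n K (hNT' n) hw,
        fun v hv h0 => k5fo_red_ker 𝔲 ℓ₀ n K hv h0⟩
    · exact ⟨fun w hw => k5fo_red_onto 𝔲 ℓ₀ n K (hNT n) hw,
        fun v hv h0 => k5fo_red_ker 𝔲 ℓ₀ n K hv h0⟩

end Fermat.Agent.RT.K5

end


end ZBRT_019_3

/-! ### bundled: `Fermat.Agent.RT.K5.FreeOFinal` -/
section ZBRT_019_4

/-!
# K-machine, piece K5-FREE-O, final: `stmtFreeO : StmtFreeO`

`stmtFreeO_of` (helper9, `FreeO.lean`) applied to `stmtFreeFin` (`FreeFinFinal.lean`).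
-/

set_option autoImplicit false

namespace Fermat.Agent.RT.K5

/-- **K5-FREE-O.** -/
theorem stmtFreeO : StmtFreeO := stmtFreeO_of stmtFreeFin

end Fermat.Agent.RT.K5


end ZBRT_019_4

/-! ### bundled: `Fermat.Agent.RT.K5.Base` -/
section ZBRT_019_5

/-!
# RT-K5, piece BASE: bases of the Taylor–Wiles modules adapted to the base level

`𝒪` a discrete valuation ring with finite residue field, `R = 𝒪 ⧸ 𝔪 ^ n` (`n ≥ 1`), base level
`N₀` (modulus `M₀`), `e : HExpr 𝒪`, `X_e(N₀; A) = etaPart (thetaN (e.eval N₀ M₀) ℓ₀ A ⊤)`.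

* `k5bs_base`  (**BASE-0**, `𝒪` complete): there is `c : Fin r → Hom(Γ₀(N₀), 𝒪)`, an `𝒪`-basis of
  `X_e(N₀; 𝒪)` whose reductions are `𝒪 ⧸ 𝔪 ^ n`-bases of `X_e(N₀; 𝒪 ⧸ 𝔪 ^ n)` for every `n`
  (`stmtFreeO` at `H' = H = ⊤`);
* `k5bs_level` (**BASE-Q**): for every `R`-basis `y` of `X_e(N₀; R)`, every Taylor–Wiles list `Q`
  with `K5TWCond`, `N = N₀ · ∏ Q`, ANY modulus `M ∣ N`, `H' ≤ (ℤ/M)ˣ` with `FreeHyp … H' ⊤ k`:
  a Taylor–Wiles system `ι` and a family `b : Fin (2 ^ #Q * r) → Hom(Γ_{H'}(N), R)` with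
  `IsFreeBasis H' ⊤ … b` (free over `R[Δ]`, coinvariants = level `⊤`) and
  `cores (b (s, i)) = ι s (y i)`;
* `k5bs_hecke` : hence for every prime `ℓ ∉ Q`: if `tS ℓ (y j) = ∑ i, a i j • y i` then
  `tS ℓ (cores (b (s, j))) = ∑ i, a i j • cores (b (s, i))` — the matrix of `T_ℓ` on the
  coinvariants is block diagonal with the blocks of the base level.
-/

set_option autoImplicit false
set_option linter.style.haveILetI false
set_option linter.unusedSectionVars false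
set_option linter.unusedVariables false

noncomputable section

namespace Fermat.Agent.RT.K5

open CongruenceSubgroup Matrix
open scoped MatrixGroups
open Fermat.Agent.ES1 (gammaH diamHom pmH)

section lin

variable {𝒪 : Type} [CommRing 𝒪] {L M : ℕ} [NeZero L] [hML : Fact (M ∣ L)] (I : Ideal 𝒪)

/-- the `Θ`-part with coefficients `𝒪 ⧸ I` is stable under the scalars of `𝒪 ⧸ I` -/
theorem k5bs_smul_mem (𝔲 : NatFam 𝒪 L M) (ℓ₀ : ℕ) [NeZero ℓ₀] (K : Subgroup (ZMod M)ˣ)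
    (c : 𝒪 ⧸ I) (ψ : HomS (gammaH L M K) (𝒪 ⧸ I))
    (hψ : ψ ∈ etaPart (thetaN 𝔲 ℓ₀ (𝒪 ⧸ I) K)) :
    c • ψ ∈ etaPart (thetaN 𝔲 ℓ₀ (𝒪 ⧸ I) K) := by
  obtain ⟨a, rfl⟩ := Ideal.Quotient.mk_surjective c
  rw [k5fn_mk_smul]
  exact (k5fn_etaSub 𝔲 ℓ₀ (𝒪 ⧸ I) K).smul_mem a hψ

/-- `cores` commutes with the scalars of `𝒪 ⧸ I` -/
theorem k5bs_cores_smul {Γ' Γ : Subgroup SL(2, ℤ)} (h : Γ' ≤ Γ)
    [(Subgroup.inclusion h).range.FiniteIndex] (c : 𝒪 ⧸ I) (ψ : HomS Γ' (𝒪 ⧸ I)) :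
    coresS (𝒪 ⧸ I) h (c • ψ) = c • coresS (𝒪 ⧸ I) h ψ :=
  S41.transferAlong_natural _ _ (𝒪 ⧸ I) (DistribSMul.toAddMonoidHom (𝒪 ⧸ I) c) ψ

/-- `cores` maps the `Θ`-part to the `Θ`-part -/
theorem k5bs_cores_mem (𝔲 : NatFam 𝒪 L M) (ℓ₀ : ℕ) [NeZero ℓ₀] {A : Type} [AddCommGroup A]
    [Module 𝒪 A] {K' K : Subgroup (ZMod M)ˣ} (h : K' ≤ K) {ψ : HomS (gammaH L M K') A}
    (hψ : ψ ∈ etaPart (thetaN 𝔲 ℓ₀ A K')) :
    coresS A (Fermat.Agent.ES1.gammaH_mono h) ψ ∈ etaPart (thetaN 𝔲 ℓ₀ A K) :=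
  k5s_intertwine_mem _ _ (coresS A (Fermat.Agent.ES1.gammaH_mono h))
    (fun x => k5n_theta_cores 𝔲 ℓ₀ h x) hψ

end lin

section base

variable (p : ℕ) [Fact p.Prime] (𝒪 : Type) [CommRing 𝒪] [IsDomain 𝒪]
  [IsDiscreteValuationRing 𝒪] [Finite (IsLocalRing.ResidueField 𝒪)]
  (L M ℓ₀ : ℕ) [NeZero L] [NeZero ℓ₀] [hML : Fact (M ∣ L)]

/-- the trivial transversal of `±⊤` modulo `±⊤` -/
theorem k5bs_transversal_top :
    IsTransversal (⊤ : Subgroup (ZMod M)ˣ) ⊤ (fun _ : Fin 1 => (1 : (ZMod M)ˣ)) := by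
  refine ⟨fun _ => one_mem _, fun v hv => ⟨0, ?_, fun j _ => Subsingleton.elim _ _⟩⟩
  simpa using hv

/-- a free basis for `H' = H = ⊤` is a basis of the `Θ`-part -/
theorem k5bs_isBasis_of_top (R A : Type) [CommRing R] [AddCommGroup A] [Module R A]
    (θ : HomS (gammaH L M (⊤ : Subgroup (ZMod M)ˣ)) A →+ HomS (gammaH L M ⊤) A) {r : ℕ}
    (b : Fin r → HomS (gammaH L M (⊤ : Subgroup (ZMod M)ˣ)) A)
    (h : IsFreeBasis (⊤ : Subgroup (ZMod M)ˣ) ⊤ le_rfl R A θ θ b) :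
    K5IsBasis R (etaPart θ) b := by
  obtain ⟨h1, h2, -, -⟩ := h
  obtain ⟨hinj, hsurj⟩ := h2 1 _ (k5bs_transversal_top M)
  have hs : ∀ c : Fin r × Fin 1 → R,
      ∑ x : Fin r × Fin 1, c x • diamU L M ⊤ A (1 : (ZMod M)ˣ) (b x.1)
        = ∑ i : Fin r, c (i, 0) • b i := fun c => by
    rw [Fintype.sum_prod_type]
    refine Finset.sum_congr rfl fun i _ => ?_
    rw [Fin.sum_univ_one, map_one]
    rfl
  refine ⟨h1, ?_, ?_⟩
  · intro c c' hcc'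
    have h3 := @hinj (fun x => c x.1) (fun x => c' x.1) (by
      show ∑ x : Fin r × Fin 1, c x.1 • diamU L M ⊤ A (1 : (ZMod M)ˣ) (b x.1)
        = ∑ x : Fin r × Fin 1, c' x.1 • diamU L M ⊤ A (1 : (ZMod M)ˣ) (b x.1)
      rw [hs, hs]
      exact hcc')
    funext i
    exact congrFun h3 (i, 0)
  · intro φ hφ
    obtain ⟨c, hc⟩ := hsurj φ hφ
    exact ⟨fun i => c (i, 0), by rw [hc, hs]⟩

end base

section sys

variable {𝒪 : Type} [CommRing 𝒪] {L M M' N ℓ₀ : ℕ} [NeZero L] [NeZero N] [NeZero ℓ₀]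
  [hML : Fact (M ∣ L)] [hMN : Fact (M' ∣ N)] {I : Type} [Fintype I]
  {ι : ∀ (A : Type) [AddCommGroup A], I →
      (HomS (gammaH L M (⊤ : Subgroup (ZMod M)ˣ)) A →+
        HomS (gammaH N M' (⊤ : Subgroup (ZMod M')ˣ)) A)}
  {e E : HExpr 𝒪} {Q : List ℕ}

/-- `ι` commutes with the scalars of `𝒪 ⧸ J` -/
theorem k5bs_sys_smul (h : K5TWSystem 𝒪 L M M' N ℓ₀ e E Q ι) (J : Ideal 𝒪) (c : 𝒪 ⧸ J) (i : I)
    (φ : HomS (gammaH L M (⊤ : Subgroup (ZMod M)ˣ)) (𝒪 ⧸ J)) :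
    ι (𝒪 ⧸ J) i (c • φ) = c • ι (𝒪 ⧸ J) i φ :=
  (h.nat (𝒪 ⧸ J) (𝒪 ⧸ J) (DistribSMul.toAddMonoidHom (𝒪 ⧸ J) c) i φ).symm

theorem k5bs_sys_sum (h : K5TWSystem 𝒪 L M M' N ℓ₀ e E Q ι) (J : Ideal 𝒪) {κ : Type}
    [Fintype κ] (y : κ → HomS (gammaH L M (⊤ : Subgroup (ZMod M)ˣ)) (𝒪 ⧸ J))
    (c : I × κ → 𝒪 ⧸ J) :
    ∑ x : I × κ, c x • ι (𝒪 ⧸ J) x.1 (y x.2)
      = ∑ s : I, ι (𝒪 ⧸ J) s (∑ i : κ, c (s, i) • y i) := by
  rw [Fintype.sum_prod_type]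
  refine Finset.sum_congr rfl fun s _ => ?_
  rw [map_sum]
  refine Finset.sum_congr rfl fun i _ => ?_
  rw [k5bs_sys_smul h]

/-- a basis of the base level gives a basis of the level `N` -/
theorem k5bs_sys_basis (h : K5TWSystem 𝒪 L M M' N ℓ₀ e E Q ι) (J : Ideal 𝒪) [Finite (𝒪 ⧸ J)]
    (hc : K5TWCond 𝒪 L M ℓ₀ e Q (𝒪 ⧸ J)) {κ : Type} [Fintype κ]
    (y : κ → HomS (gammaH L M (⊤ : Subgroup (ZMod M)ˣ)) (𝒪 ⧸ J))
    (hy : K5IsBasis (𝒪 ⧸ J) (etaPart (thetaN (e.eval L M) ℓ₀ (𝒪 ⧸ J) ⊤)) y) :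
    K5IsBasis (𝒪 ⧸ J) (etaPart (thetaN (E.eval N M') ℓ₀ (𝒪 ⧸ J) ⊤))
      (fun x : I × κ => ι (𝒪 ⧸ J) x.1 (y x.2)) := by
  classical
  have hmemφ : ∀ (c : I × κ → 𝒪 ⧸ J) (s : I),
      ∑ i : κ, c (s, i) • y i ∈ etaPart (thetaN (e.eval L M) ℓ₀ (𝒪 ⧸ J) ⊤) := fun c s =>
    AddSubgroup.sum_mem _ fun i _ => k5bs_smul_mem J _ ℓ₀ ⊤ _ _ (hy.1 i)
  refine ⟨?_, ?_, ?_⟩
  · rintro ⟨s, i⟩
    have h1 := h.mem (𝒪 ⧸ J) hc (Pi.single s (y i)) (fun s' => by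
      by_cases hs : s' = s
      · subst hs
        rw [Pi.single_eq_same]
        exact hy.1 i
      · rw [Pi.single_eq_of_ne hs]
        exact zero_mem _)
    rw [Finset.sum_eq_single s (fun s' _ hs => by rw [Pi.single_eq_of_ne hs, map_zero])
      (fun hs => absurd (Finset.mem_univ s) hs), Pi.single_eq_same] at h1
    exact h1
  · intro c c' hcc'
    simp only [k5bs_sys_sum h J y] at hcc'
    have h1 : ∑ s : I, ι (𝒪 ⧸ J) s (∑ i : κ, c (s, i) • y i - ∑ i : κ, c' (s, i) • y i) = 0 := by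
      simp only [map_sub, Finset.sum_sub_distrib, hcc', sub_self]
    have h2 := h.inj (𝒪 ⧸ J) hc _ (fun s => sub_mem (hmemφ c s) (hmemφ c' s)) h1
    funext ⟨s, i⟩
    have h3 : (fun i => c (s, i)) = fun i => c' (s, i) := hy.2.1 (sub_eq_zero.mp (h2 s))
    exact congrFun h3 i
  · intro ψ hψ
    obtain ⟨φ, hφ, rfl⟩ := h.surj (𝒪 ⧸ J) hc ψ hψ
    choose c hc' using fun s => hy.2.2 (φ s) (hφ s)
    refine ⟨fun x => c x.1 x.2, ?_⟩
    rw [k5bs_sys_sum h J y]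
    refine Finset.sum_congr rfl fun s _ => ?_
    rw [← hc' s]

/-- **the matrix of `T_ℓ` on the level `N`** is that of the base level -/
theorem k5bs_hecke (h : K5TWSystem 𝒪 L M M' N ℓ₀ e E Q ι) (J : Ideal 𝒪) {κ : Type}
    [Fintype κ] (y : κ → HomS (gammaH L M (⊤ : Subgroup (ZMod M)ˣ)) (𝒪 ⧸ J))
    (a : κ → κ → 𝒪 ⧸ J) (ℓ : ℕ) [NeZero ℓ] (hℓ : ℓ.Prime) (hℓQ : ℓ ∉ Q)
    (hT : ∀ j, tS L M ℓ ⊤ (𝒪 ⧸ J) (y j) = ∑ i, a i j • y i) (s : I) (j : κ) :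
    tS N M' ℓ ⊤ (𝒪 ⧸ J) (ι (𝒪 ⧸ J) s (y j)) = ∑ i, a i j • ι (𝒪 ⧸ J) s (y i) := by
  rw [h.hecke (𝒪 ⧸ J) ℓ hℓ hℓQ, hT, map_sum]
  refine Finset.sum_congr rfl fun i _ => ?_
  rw [k5bs_sys_smul h]

/-- `ι` commutes with the adjoint operators `tSadj ℓ`, `ℓ` prime to the levels -/
theorem K5TWSystem.heckeAdj (h : K5TWSystem 𝒪 L M M' N ℓ₀ e E Q ι) (A : Type) [AddCommGroup A]
    (ℓ : ℕ) [NeZero ℓ] (hℓ : ℓ.Prime) (hℓQ : ℓ ∉ Q) (hℓL : ¬ ℓ ∣ L) (hℓN : ¬ ℓ ∣ N) (i : I)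
    (φ : HomS (gammaH L M (⊤ : Subgroup (ZMod M)ˣ)) A) :
    tSadj N M' ℓ ⊤ A (ι A i φ) = ι A i (tSadj L M ℓ ⊤ A φ) := by
  rw [← (stmtUQTop N M' ℓ A hℓ hℓN).2.2.2.2.1, ← (stmtUQTop L M ℓ A hℓ hℓL).2.2.2.2.1]
  exact h.hecke A ℓ hℓ hℓQ i φ

/-- the matrix of `tSadj ℓ` on the level `N` is that of the base level -/
theorem k5bs_heckeAdj (h : K5TWSystem 𝒪 L M M' N ℓ₀ e E Q ι) (J : Ideal 𝒪) {κ : Type}
    [Fintype κ] (y : κ → HomS (gammaH L M (⊤ : Subgroup (ZMod M)ˣ)) (𝒪 ⧸ J))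
    (a : κ → κ → 𝒪 ⧸ J) (ℓ : ℕ) [NeZero ℓ] (hℓ : ℓ.Prime) (hℓQ : ℓ ∉ Q) (hℓL : ¬ ℓ ∣ L)
    (hℓN : ¬ ℓ ∣ N) (hT : ∀ j, tSadj L M ℓ ⊤ (𝒪 ⧸ J) (y j) = ∑ i, a i j • y i) (s : I) (j : κ) :
    tSadj N M' ℓ ⊤ (𝒪 ⧸ J) (ι (𝒪 ⧸ J) s (y j)) = ∑ i, a i j • ι (𝒪 ⧸ J) s (y i) := by
  rw [h.heckeAdj (𝒪 ⧸ J) ℓ hℓ hℓQ hℓL hℓN, hT, map_sum]
  refine Finset.sum_congr rfl fun i _ => ?_
  rw [k5bs_sys_smul h]

end sys

section red

variable {𝒪 : Type} [CommRing 𝒪] {L M : ℕ} [NeZero L] [hML : Fact (M ∣ L)] (J : Ideal 𝒪)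

/-- the reduction modulo `J` is semilinear -/
theorem k5bs_red_smul {Γ : Subgroup SL(2, ℤ)} (a : 𝒪) (φ : HomS Γ 𝒪) :
    mapS (Submodule.mkQ J).toAddMonoidHom (a • φ)
      = Ideal.Quotient.mk J a • mapS (Submodule.mkQ J).toAddMonoidHom φ := by
  rw [k5fn_mk_smul]
  refine AddMonoidHom.ext fun γ => ?_
  exact map_smul (Submodule.mkQ J) a (φ γ)

/-- the matrix of `T_ℓ` in a basis over `𝒪` reduces to the matrix in the reduced basis -/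
theorem k5bs_red_hecke (K : Subgroup (ZMod M)ˣ) {κ : Type} [Fintype κ]
    (c : κ → HomS (gammaH L M K) 𝒪) (a : κ → κ → 𝒪) (ℓ : ℕ) [NeZero ℓ]
    (hT : ∀ j, tS L M ℓ K 𝒪 (c j) = ∑ i, a i j • c i) (j : κ) :
    tS L M ℓ K (𝒪 ⧸ J) (mapS (Submodule.mkQ J).toAddMonoidHom (c j))
      = ∑ i, Ideal.Quotient.mk J (a i j) • mapS (Submodule.mkQ J).toAddMonoidHom (c i) := by
  rw [← k5nat_tS, hT, map_sum]
  refine Finset.sum_congr rfl fun i _ => ?_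
  rw [k5bs_red_smul]

/-- the same for `tSadj ℓ` -/
theorem k5bs_red_heckeAdj (K : Subgroup (ZMod M)ˣ) {κ : Type} [Fintype κ]
    (c : κ → HomS (gammaH L M K) 𝒪) (a : κ → κ → 𝒪) (ℓ : ℕ) [NeZero ℓ]
    (hT : ∀ j, tSadj L M ℓ K 𝒪 (c j) = ∑ i, a i j • c i) (j : κ) :
    tSadj L M ℓ K (𝒪 ⧸ J) (mapS (Submodule.mkQ J).toAddMonoidHom (c j))
      = ∑ i, Ideal.Quotient.mk J (a i j) • mapS (Submodule.mkQ J).toAddMonoidHom (c i) := by
  rw [← k5nat_tSadj, hT, map_sum]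
  refine Finset.sum_congr rfl fun i _ => ?_
  rw [k5bs_red_smul]

end red

section main

variable (p : ℕ) [Fact p.Prime] (𝒪 : Type) [CommRing 𝒪] [IsDomain 𝒪]
  [IsDiscreteValuationRing 𝒪] [Finite (IsLocalRing.ResidueField 𝒪)]
  (N₀ M₀ ℓ₀ : ℕ) [NeZero N₀] [NeZero ℓ₀] [hML : Fact (M₀ ∣ N₀)]

/-- `FreeHyp` for `H' = H = ⊤` -/
theorem k5bs_freeHyp_top (hp2 : p ≠ 2) (hp : (p : 𝒪) ∈ IsLocalRing.maximalIdeal 𝒪)
    (hℓ₀ : ℓ₀.Prime) (hℓ₀N : ¬ ℓ₀ ∣ N₀)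
    (hNT : ∀ n : ℕ, NoTors (gammaH N₀ M₀ (⊤ : Subgroup (ZMod M₀)ˣ))
      (𝒪 ⧸ IsLocalRing.maximalIdeal 𝒪 ^ n)) :
    FreeHyp p 𝒪 N₀ M₀ ℓ₀ ⊤ ⊤ 0 where
  p_ne_two := hp2
  p_mem := hp
  prime := hℓ₀
  not_dvd := hℓ₀N
  le := le_rfl
  index := by rw [Subgroup.subgroupOf_self, Subgroup.index_top, pow_zero]
  noTors := hNT

/-- **BASE-0** a basis of the base module over `𝒪` whose reductions are bases at all levels -/
theorem k5bs_base [IsAdicComplete (IsLocalRing.maximalIdeal 𝒪) 𝒪]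
    (hyp : FreeHyp p 𝒪 N₀ M₀ ℓ₀ ⊤ ⊤ 0) (𝔲 : NatFam 𝒪 N₀ M₀) :
    ∃ (r : ℕ) (c : Fin r → HomS (gammaH N₀ M₀ (⊤ : Subgroup (ZMod M₀)ˣ)) 𝒪),
      K5IsBasis 𝒪 (etaPart (thetaN 𝔲 ℓ₀ 𝒪 ⊤)) c ∧
      ∀ n : ℕ, K5IsBasis (𝒪 ⧸ IsLocalRing.maximalIdeal 𝒪 ^ n)
        (etaPart (thetaN 𝔲 ℓ₀ (𝒪 ⧸ IsLocalRing.maximalIdeal 𝒪 ^ n) ⊤))
        (fun i => mapS (Submodule.mkQ (IsLocalRing.maximalIdeal 𝒪 ^ n)).toAddMonoidHom (c i)) := by
  obtain ⟨r, c, h1, h2, -⟩ := stmtFreeO p 𝒪 N₀ M₀ ℓ₀ ⊤ ⊤ 0 hyp 𝔲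
  exact ⟨r, c, k5bs_isBasis_of_top N₀ M₀ 𝒪 𝒪 _ c h1,
    fun n => k5bs_isBasis_of_top N₀ M₀ _ _ _ _ (h2 n)⟩

/-- **BASE-Q** a free basis of the Taylor–Wiles module adapted to a basis of the base level -/
theorem k5bs_level (e : HExpr 𝒪) (hℓ₀ : ℓ₀.Prime) (hℓ₀N : ¬ ℓ₀ ∣ N₀) (Q : List ℕ)
    (hnd : Q.Nodup) (hQ : ∀ q ∈ Q, q.Prime ∧ ¬ q ∣ N₀ ∧ q ≠ ℓ₀ ∧ e.Avoids q) (N M : ℕ)
    [NeZero N] [hMN : Fact (M ∣ N)] (hN : N = N₀ * Q.prod) (H' : Subgroup (ZMod M)ˣ) (k : ℕ)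
    (hyp : FreeHyp p 𝒪 N M ℓ₀ H' ⊤ k) (n : ℕ) (hn : 0 < n)
    (hc : K5TWCond 𝒪 N₀ M₀ ℓ₀ e Q (𝒪 ⧸ IsLocalRing.maximalIdeal 𝒪 ^ n)) {r : ℕ}
    (y : Fin r → HomS (gammaH N₀ M₀ (⊤ : Subgroup (ZMod M₀)ˣ))
      (𝒪 ⧸ IsLocalRing.maximalIdeal 𝒪 ^ n))
    (hy : K5IsBasis (𝒪 ⧸ IsLocalRing.maximalIdeal 𝒪 ^ n)
      (etaPart (thetaN (e.eval N₀ M₀) ℓ₀ (𝒪 ⧸ IsLocalRing.maximalIdeal 𝒪 ^ n) ⊤)) y) :
    ∃ (ι : ∀ (A : Type) [AddCommGroup A], Fin (2 ^ Q.length) →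
        (HomS (gammaH N₀ M₀ (⊤ : Subgroup (ZMod M₀)ˣ)) A →+
          HomS (gammaH N M (⊤ : Subgroup (ZMod M)ˣ)) A))
      (b : Fin (2 ^ Q.length * r) →
        HomS (gammaH N M H') (𝒪 ⧸ IsLocalRing.maximalIdeal 𝒪 ^ n)),
      K5TWSystem 𝒪 N₀ M₀ M N ℓ₀ e (e.twist Q) Q ι ∧
      IsFreeBasis H' ⊤ hyp.le (𝒪 ⧸ IsLocalRing.maximalIdeal 𝒪 ^ n)
        (𝒪 ⧸ IsLocalRing.maximalIdeal 𝒪 ^ n)
        (thetaN ((e.twist Q).eval N M) ℓ₀ (𝒪 ⧸ IsLocalRing.maximalIdeal 𝒪 ^ n) H')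
        (thetaN ((e.twist Q).eval N M) ℓ₀ (𝒪 ⧸ IsLocalRing.maximalIdeal 𝒪 ^ n) ⊤) b ∧
      ∀ (s : Fin (2 ^ Q.length)) (i : Fin r),
        coresS (𝒪 ⧸ IsLocalRing.maximalIdeal 𝒪 ^ n) (Fermat.Agent.ES1.gammaH_mono hyp.le)
          (b (finProdFinEquiv (s, i))) = ι (𝒪 ⧸ IsLocalRing.maximalIdeal 𝒪 ^ n) s (y i) := by
  classical
  haveI : Finite (𝒪 ⧸ IsLocalRing.maximalIdeal 𝒪 ^ n) := by
    haveI : Finite (𝒪 ⧸ IsLocalRing.maximalIdeal 𝒪) := ‹Finite (IsLocalRing.ResidueField 𝒪)›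
    exact Ideal.finite_quotient_pow (IsNoetherian.noetherian _) n
  haveI : Nontrivial (𝒪 ⧸ IsLocalRing.maximalIdeal 𝒪 ^ n) := by
    refine Ideal.Quotient.nontrivial_iff.mpr fun htop => ?_
    have h1 : IsLocalRing.maximalIdeal 𝒪 ^ n ≤ IsLocalRing.maximalIdeal 𝒪 :=
      Ideal.pow_le_self hn.ne'
    rw [htop] at h1
    exact (IsLocalRing.maximalIdeal.isMaximal 𝒪).ne_top (top_le_iff.mp h1)
  obtain ⟨ι, hsys⟩ := k5ti_mod (M := M₀) e hℓ₀ hℓ₀N Q hnd hQ N M hN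
  have hY := k5bs_sys_basis hsys (IsLocalRing.maximalIdeal 𝒪 ^ n) hc y hy
  obtain ⟨r', hfin⟩ := stmtFreeFin p 𝒪 N M ℓ₀ H' ⊤ k hyp ((e.twist Q).eval N M)
  obtain ⟨b₀, hb₀, hb₀t, hb₀i, hb₀s⟩ := hfin n
  have hsm : ∀ (c : 𝒪 ⧸ IsLocalRing.maximalIdeal 𝒪 ^ n)
      (w : HomS (gammaH N M (⊤ : Subgroup (ZMod M)ˣ)) (𝒪 ⧸ IsLocalRing.maximalIdeal 𝒪 ^ n)),
      w ∈ etaPart (thetaN ((e.twist Q).eval N M) ℓ₀ (𝒪 ⧸ IsLocalRing.maximalIdeal 𝒪 ^ n) ⊤) →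
      c • w ∈ etaPart (thetaN ((e.twist Q).eval N M) ℓ₀
        (𝒪 ⧸ IsLocalRing.maximalIdeal 𝒪 ^ n) ⊤) :=
    fun c w hw => k5bs_smul_mem _ _ ℓ₀ ⊤ c w hw
  have hz : K5IsBasis (𝒪 ⧸ IsLocalRing.maximalIdeal 𝒪 ^ n)
      (etaPart (thetaN ((e.twist Q).eval N M) ℓ₀ (𝒪 ⧸ IsLocalRing.maximalIdeal 𝒪 ^ n) ⊤))
      (fun l => coresS (𝒪 ⧸ IsLocalRing.maximalIdeal 𝒪 ^ n)
        (Fermat.Agent.ES1.gammaH_mono hyp.le) (b₀ l)) :=
    ⟨fun l => k5bs_cores_mem _ ℓ₀ hyp.le (hb₀ l), hb₀i, hb₀s⟩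
  have hrank : r' = 2 ^ Q.length * r := by
    have h1 := k5ba_rank hz hY hsm
    simpa [Fintype.card_prod, Fintype.card_fin] using h1
  subst hrank
  have hY' := hY.reindex (finProdFinEquiv (m := 2 ^ Q.length) (n := r)).symm
  choose C hC using fun i => hz.2.2 _ (hY'.1 i)
  have hCbij := k5ba_g_bijective _ hsm _ _ hz hY' C hC
  have hcores : ∀ i, coresS (𝒪 ⧸ IsLocalRing.maximalIdeal 𝒪 ^ n)
      (Fermat.Agent.ES1.gammaH_mono hyp.le) (∑ l, C i l • b₀ l)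
      = ι (𝒪 ⧸ IsLocalRing.maximalIdeal 𝒪 ^ n) (finProdFinEquiv.symm i).1
          (y (finProdFinEquiv.symm i).2) := by
    intro i
    have hC' : ι (𝒪 ⧸ IsLocalRing.maximalIdeal 𝒪 ^ n) (finProdFinEquiv.symm i).1
        (y (finProdFinEquiv.symm i).2)
        = ∑ l, C i l • coresS (𝒪 ⧸ IsLocalRing.maximalIdeal 𝒪 ^ n)
          (Fermat.Agent.ES1.gammaH_mono hyp.le) (b₀ l) := hC i
    rw [map_sum, hC']
    refine Finset.sum_congr rfl fun l _ => ?_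
    rw [k5bs_cores_smul]
  refine ⟨ι, fun i => ∑ l, C i l • b₀ l, hsys, ⟨?_, ?_, ?_, ?_⟩, ?_⟩
  · intro i
    exact AddSubgroup.sum_mem _ fun l _ => k5bs_smul_mem _ _ ℓ₀ H' _ _ (hb₀ l)
  · intro m u hu
    obtain ⟨hinj, hsurj⟩ := hb₀t m u hu
    have hD : ∀ (j : Fin m) (c : 𝒪 ⧸ IsLocalRing.maximalIdeal 𝒪 ^ n)
        (v : HomS (gammaH N M H') (𝒪 ⧸ IsLocalRing.maximalIdeal 𝒪 ^ n)),
        (show HomS (gammaH N M H') (𝒪 ⧸ IsLocalRing.maximalIdeal 𝒪 ^ n) →+ _ from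
          diamU N M H' (𝒪 ⧸ IsLocalRing.maximalIdeal 𝒪 ^ n) (u j)) (c • v)
          = c • (show HomS (gammaH N M H') (𝒪 ⧸ IsLocalRing.maximalIdeal 𝒪 ^ n) →+ _ from
            diamU N M H' (𝒪 ⧸ IsLocalRing.maximalIdeal 𝒪 ^ n) (u j)) v := fun j c v => rfl
    exact ⟨k5ba_inj (fun j => diamU N M H' (𝒪 ⧸ IsLocalRing.maximalIdeal 𝒪 ^ n) (u j)) hD b₀ C
        hCbij hinj,
      fun ψ hψ => k5ba_surj (fun j => diamU N M H' (𝒪 ⧸ IsLocalRing.maximalIdeal 𝒪 ^ n) (u j))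
        hD b₀ C hCbij (hsurj ψ hψ)⟩
  · intro c c' hcc'
    refine hY'.2.1 ?_
    simp only [hcores] at hcc'
    exact hcc'
  · intro φ hφ
    obtain ⟨c, hc'⟩ := hY'.2.2 φ hφ
    refine ⟨c, ?_⟩
    simp only [hcores]
    exact hc'
  · intro s i
    rw [hcores, Equiv.symm_apply_apply]

end main

end Fermat.Agent.RT.K5

end
end ZBRT_019_5

/-! ### bundled: `Fermat.Agent.RT.K5.BaseMat` -/
section ZBRT_019_6

/-!
# RT-K5, piece BASE (continued): the free basis of the Taylor–Wiles module together with the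
matrices of the Hecke operators on the coinvariants

The form of `k5bs_level` used by HK-CONC (`RT/Hecke/ConcFree.lean`): the base basis
`c : Fin r → Hom(Γ₀(N₀), 𝒪)` is given over `𝒪` (BASE-0, `k5bs_base`), the Taylor–Wiles list `Q`
has length `h`, and the conclusion contains the block diagonal form of the Hecke operators on the
coinvariants:

* `k5bm_level` : there is `b : Fin (2 ^ h * r) → Hom(Γ_{H'}(N), 𝒪 ⧸ 𝔪 ^ n)` with `IsFreeBasis H' ⊤`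
  such that for every prime `ℓ ∉ Q` and every matrix `a` over `𝒪` with
  `tS ℓ (c j) = ∑ i, a i j • c i` at the base level:
  `tS ℓ (cores (b (s, j))) = ∑ i, mk (a i j) • cores (b (s, i))`.
-/

set_option autoImplicit false
set_option linter.style.haveILetI false
set_option linter.unusedSectionVars false
set_option linter.unusedVariables false

noncomputable section

namespace Fermat.Agent.RT.K5

open CongruenceSubgroup Matrix
open scoped MatrixGroups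
open Fermat.Agent.ES1 (gammaH diamHom pmH)

section main

variable (p : ℕ) [Fact p.Prime] (𝒪 : Type) [CommRing 𝒪] [IsDomain 𝒪]
  [IsDiscreteValuationRing 𝒪] [Finite (IsLocalRing.ResidueField 𝒪)]
  (N₀ M₀ ℓ₀ : ℕ) [NeZero N₀] [NeZero ℓ₀] [hML : Fact (M₀ ∣ N₀)]

/-- **BASE-Q with the Hecke matrices**: a free basis of the Taylor–Wiles module of a list `Q` of
length `h`, adapted to the reduction of a basis `c` of the base level: the Hecke operators `tS ℓ`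
(`ℓ ∉ Q`) act on the coinvariants by the block diagonal matrices of the base level. -/
theorem k5bm_level (e : HExpr 𝒪) (hℓ₀ : ℓ₀.Prime) (hℓ₀N : ¬ ℓ₀ ∣ N₀) (Q : List ℕ) (h : ℕ)
    (hlen : Q.length = h)
    (hnd : Q.Nodup) (hQ : ∀ q ∈ Q, q.Prime ∧ ¬ q ∣ N₀ ∧ q ≠ ℓ₀ ∧ e.Avoids q) (N M : ℕ)
    [NeZero N] [hMN : Fact (M ∣ N)] (hN : N = N₀ * Q.prod) (H' : Subgroup (ZMod M)ˣ) (k : ℕ)
    (hyp : FreeHyp p 𝒪 N M ℓ₀ H' ⊤ k) (n : ℕ) (hn : 0 < n)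
    (hc : K5TWCond 𝒪 N₀ M₀ ℓ₀ e Q (𝒪 ⧸ IsLocalRing.maximalIdeal 𝒪 ^ n)) {r : ℕ}
    (c : Fin r → HomS (gammaH N₀ M₀ (⊤ : Subgroup (ZMod M₀)ˣ)) 𝒪)
    (hy : K5IsBasis (𝒪 ⧸ IsLocalRing.maximalIdeal 𝒪 ^ n)
      (etaPart (thetaN (e.eval N₀ M₀) ℓ₀ (𝒪 ⧸ IsLocalRing.maximalIdeal 𝒪 ^ n) ⊤))
      (fun i => mapS (Submodule.mkQ (IsLocalRing.maximalIdeal 𝒪 ^ n)).toAddMonoidHom (c i))) :
    ∃ (b : Fin (2 ^ h * r) → HomS (gammaH N M H') (𝒪 ⧸ IsLocalRing.maximalIdeal 𝒪 ^ n)),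
      IsFreeBasis H' ⊤ hyp.le (𝒪 ⧸ IsLocalRing.maximalIdeal 𝒪 ^ n)
        (𝒪 ⧸ IsLocalRing.maximalIdeal 𝒪 ^ n)
        (thetaN ((e.twist Q).eval N M) ℓ₀ (𝒪 ⧸ IsLocalRing.maximalIdeal 𝒪 ^ n) H')
        (thetaN ((e.twist Q).eval N M) ℓ₀ (𝒪 ⧸ IsLocalRing.maximalIdeal 𝒪 ^ n) ⊤) b ∧
      ∀ (ℓ : ℕ) [NeZero ℓ], ℓ.Prime → ℓ ∉ Q → ∀ a : Fin r → Fin r → 𝒪,
        (∀ j, tS N₀ M₀ ℓ ⊤ 𝒪 (c j) = ∑ i, a i j • c i) →
        ∀ (s : Fin (2 ^ h)) (j : Fin r),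
          tS N M ℓ ⊤ (𝒪 ⧸ IsLocalRing.maximalIdeal 𝒪 ^ n)
            (coresS (𝒪 ⧸ IsLocalRing.maximalIdeal 𝒪 ^ n)
              (Fermat.Agent.ES1.gammaH_mono hyp.le) (b (finProdFinEquiv (s, j))))
          = ∑ i, Ideal.Quotient.mk (IsLocalRing.maximalIdeal 𝒪 ^ n) (a i j) •
              coresS (𝒪 ⧸ IsLocalRing.maximalIdeal 𝒪 ^ n)
                (Fermat.Agent.ES1.gammaH_mono hyp.le) (b (finProdFinEquiv (s, i))) := by
  subst hlen
  obtain ⟨ι, b, hsys, hfree, hcores⟩ := k5bs_level p 𝒪 N₀ M₀ ℓ₀ e hℓ₀ hℓ₀N Q hnd hQ N M hN H' k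
    hyp n hn hc _ hy
  refine ⟨b, hfree, ?_⟩
  intro ℓ _ hℓ hℓQ a ha s j
  rw [hcores]
  have h1 := k5bs_hecke hsys (IsLocalRing.maximalIdeal 𝒪 ^ n)
    (fun i => mapS (Submodule.mkQ (IsLocalRing.maximalIdeal 𝒪 ^ n)).toAddMonoidHom (c i))
    (fun i j => Ideal.Quotient.mk (IsLocalRing.maximalIdeal 𝒪 ^ n) (a i j)) ℓ hℓ hℓQ
    (fun j => k5bs_red_hecke (IsLocalRing.maximalIdeal 𝒪 ^ n) ⊤ c a ℓ ha j) s j
  rw [h1]
  refine Finset.sum_congr rfl fun i _ => ?_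
  rw [hcores]

end main

end Fermat.Agent.RT.K5

end
end ZBRT_019_6

/-! ### bundled: `Fermat.Agent.RT.Hecke.ConcFree` -/
section ZBRT_019_7

/-!
# K-machine, HECKE-asm, HK-CONC: the fields `free`, `act_comm`, `base` of `HkConc` (helper88)

`HkConc` (`RT/Hecke/Conc.lean`) asks for a `C`-module `X` with `D : Δ →* End X`, a family
`b : Fin d → X` with `RthkmFree C D b`, and for the matrix of `act (Tr ℓ)` on the coinvariants.

## Abstract part (HK-MAT only)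

* `rthkcf_mat_of_nm` : the NORM FORM of `base` gives the matrix form: if `Nm : X →+ Y` is
  `C`-linear, `Nm ∘ D δ = Nm`, `c ↦ ∑ c i • Nm (b i)` is injective and
  `Nm (𝔱 (b i)) = ∑ i', A i' i • Nm (b i')`, then `rthkmMat free 1 𝔱 = A`;
* `rthkcf_act_comm` : `act t ∈ rthkmComm C D` if the `act t` are `C`-linear and every `D δ` is the
  action of an element of the (commutative) ring `𝕋`.

## The K5 model

`RthkcfModel H' C θ' π D j` : `X` is a copy of the `Θ`-part `etaPart θ'` of `Hom(Γ_{H'}(L), C)`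
(through the injective `C`-linear `j : X →+ Hom(Γ_{H'}(L), C)` with image `etaPart θ'`), `Δ` is a
copy of `(ℤ/M)ˣ ⧸ ±H'` (through the surjective `π` with kernel `pmH H'`) and `D (π u)` is the
diamond operator `diamU u`.

* `rthkcf_free` : K5's `IsFreeBasis H' ⊤ … (j ∘ b)` gives `RthkmFree C D b`;
* `rthkcf_lift` : a family in the `Θ`-part lifts to `X`;
* `rthkcf_base` : the matrix of `𝔱` on the coinvariants from the relation
  `cores (j (𝔱 (b i))) = ∑ i', A i' i • cores (j (b i'))`;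
* `rthkcf_cores_diam_tS` : `cores (diamU u (tS ℓ ψ)) = tS ℓ (cores ψ)`;
* `rthkcf_exists` : **the fields `free` and `base` for the Taylor–Wiles module**: for the base
  basis `c` (over `𝒪`), a Taylor–Wiles list `Q` of length `h` and a model `X` of the `Θ`-part of
  level `N = N₀ ∏ Q`, coefficients `𝒪 ⧸ 𝔪 ^ n`: there is `b : Fin (2 ^ h * r) → X` with
  `RthkmFree` such that every `𝔱` acting through `j` as `diamU u ∘ tS ℓ` (`ℓ ∉ Q` prime) has on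
  the coinvariants the block diagonal matrix with blocks `mk (a i j)`, `a` the matrix of `tS ℓ`
  in the basis `c` of the base level.
-/

set_option autoImplicit false
set_option linter.style.haveILetI false
set_option linter.unusedSectionVars false
set_option linter.unusedVariables false

noncomputable section

namespace Fermat.Agent.RT

open CongruenceSubgroup Matrix
open scoped MatrixGroups
open Fermat.Agent.ES1 (gammaH diamHom pmH)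
open Fermat.Agent.RT.K5

section abs

variable {C : Type*} [CommRing C] {Δ : Type*} [CommGroup Δ] [Fintype Δ] {X : Type*}
  [AddCommGroup X] [Module C X] {D : Δ →* AddMonoid.End X} {r : ℕ} {b : Fin r → X}

/-- **the norm form of `base` gives the matrix form** -/
theorem rthkcf_mat_of_nm (h : RthkmFree C D b) {Y : Type*} [AddCommGroup Y] [Module C Y]
    (Nm : X →+ Y) (hN1 : ∀ (c : C) (x : X), Nm (c • x) = c • Nm x)
    (hN2 : ∀ (δ : Δ) (x : X), Nm (D δ x) = Nm x)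
    (hinj : Function.Injective (fun c : Fin r → C => ∑ i, c i • Nm (b i)))
    (𝔱 : AddMonoid.End X) (A : Matrix (Fin r) (Fin r) C)
    (hA : ∀ i, Nm (𝔱 (b i)) = ∑ i', A i' i • Nm (b i')) :
    rthkmMat h (1 : Δ →* C) 𝔱 = A := by
  ext i' i
  have h1 := rthk_m_coinv h Nm hN1 hN2 𝔱 i
  rw [hA i] at h1
  have h2 := @hinj (fun i' => A i' i) (fun i' => rthkmMat h (1 : Δ →* C) 𝔱 i' i) h1
  exact (congrFun h2 i').symm

omit [Fintype Δ] in
/-- the Hecke operators are in the commutant: they are `C`-linear and the diamond operators are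
Hecke operators -/
theorem rthkcf_act_comm {𝕋 : Type*} [CommRing 𝕋] (act : 𝕋 →+* AddMonoid.End X)
    (hlin : ∀ (t : 𝕋) (c : C) (x : X), act t (c • x) = c • act t x)
    (hD : ∀ δ : Δ, ∃ d : 𝕋, D δ = act d) (t : 𝕋) : act t ∈ rthkmComm C D := by
  refine ⟨hlin t, fun δ x => ?_⟩
  obtain ⟨d, hd⟩ := hD δ
  rw [hd]
  show (act t * act d) x = (act d * act t) x
  rw [← map_mul, ← map_mul, mul_comm]

end abs

section model

variable {L M : ℕ} [NeZero L] [hML : Fact (M ∣ L)] (H' : Subgroup (ZMod M)ˣ) (C : Type)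
  [CommRing C] (θ' : HomS (gammaH L M H') C →+ HomS (gammaH L M H') C)
  {Δ : Type} [CommGroup Δ] (π : (ZMod M)ˣ →* Δ)
  {X : Type} [AddCommGroup X] [Module C X] (D : Δ →* AddMonoid.End X)
  (j : X →+ HomS (gammaH L M H') C)

/-- `X` is a copy of the `Θ`-part of `Hom(Γ_{H'}(L), C)`, `Δ` a copy of `(ℤ/M)ˣ ⧸ ±H'` acting by
the diamond operators. -/
structure RthkcfModel : Prop where
  inj : Function.Injective j
  smul : ∀ (c : C) (x : X), j (c • x) = c • j x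
  mem : ∀ x, j x ∈ etaPart θ'
  surj : ∀ ψ ∈ etaPart θ', ∃ x, j x = ψ
  pi_surj : Function.Surjective π
  pi_ker : ∀ u, π u = 1 ↔ u ∈ pmH H'
  diam : ∀ (u : (ZMod M)ˣ) (x : X), j (D (π u) x) = diamU L M H' C u (j x)

variable {H' C θ' π D j}

/-- the diamond operators are `C`-linear -/
theorem RthkcfModel.lin (hX : RthkcfModel H' C θ' π D j) (δ : Δ) (c : C) (x : X) :
    D δ (c • x) = c • D δ x := by
  obtain ⟨v, rfl⟩ := hX.pi_surj δ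
  apply hX.inj
  rw [hX.diam, hX.smul, hX.smul, hX.diam]
  rfl

/-- a family in the `Θ`-part lifts to `X` -/
theorem rthkcf_lift (hX : RthkcfModel H' C θ' π D j) {κ : Type*}
    (b' : κ → HomS (gammaH L M H') C) (hb' : ∀ i, b' i ∈ etaPart θ') :
    ∃ b : κ → X, ∀ i, j (b i) = b' i := by
  choose b hb using fun i => hX.surj (b' i) (hb' i)
  exact ⟨b, hb⟩

variable [Fintype Δ]

/-- **the field `free`**: K5's `IsFreeBasis` gives the unique expansion property -/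
theorem rthkcf_free (hX : RthkcfModel H' C θ' π D j) (hle : H' ≤ ⊤)
    (θ : HomS (gammaH L M (⊤ : Subgroup (ZMod M)ˣ)) C →+ HomS (gammaH L M ⊤) C) {r : ℕ}
    (b : Fin r → X) (hb : IsFreeBasis H' ⊤ hle C C θ' θ (fun i => j (b i))) :
    RthkmFree C D b := by
  classical
  let e₀ : Fin (Fintype.card Δ) ≃ Δ := (Fintype.equivFin Δ).symm
  choose u₀ hu₀ using hX.pi_surj
  let u : Fin (Fintype.card Δ) → (ZMod M)ˣ := fun i => u₀ (e₀ i)
  have hu : ∀ i, π (u i) = e₀ i := fun i => hu₀ _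
  have htr : IsTransversal H' ⊤ u := by
    refine ⟨fun i => Fermat.Agent.ES1.le_pmH ⊤ (Subgroup.mem_top _),
      fun v _ => ⟨e₀.symm (π v), ?_, ?_⟩⟩
    · show (u (e₀.symm (π v)))⁻¹ * v ∈ pmH H'
      rw [← hX.pi_ker, map_mul, map_inv, hu, Equiv.apply_symm_apply, inv_mul_cancel]
    · intro i hi
      have h1 : π ((u i)⁻¹ * v) = 1 := (hX.pi_ker _).mpr hi
      rw [map_mul, map_inv, hu, inv_mul_eq_one] at h1
      rw [← h1, Equiv.symm_apply_apply]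
  obtain ⟨hinj, hsurj⟩ := hb.2.1 _ u htr
  have hj_sum : ∀ c : Fin r × Fin (Fintype.card Δ) → C,
      j (∑ x : Fin r × Fin (Fintype.card Δ), c x • D (e₀ x.2) (b x.1))
        = ∑ x : Fin r × Fin (Fintype.card Δ), c x • diamU L M H' C (u x.2) (j (b x.1)) := by
    intro c
    rw [map_sum]
    refine Finset.sum_congr rfl fun x _ => ?_
    rw [hX.smul, ← hu, hX.diam]
  refine rthk_m_free_of_bij hX.lin e₀ ?_ ?_
  · intro c c' hcc'
    apply hinj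
    show ∑ x : Fin r × Fin (Fintype.card Δ), c x • diamU L M H' C (u x.2) (j (b x.1))
      = ∑ x : Fin r × Fin (Fintype.card Δ), c' x • diamU L M H' C (u x.2) (j (b x.1))
    rw [← hj_sum, ← hj_sum]
    exact congrArg j hcc'
  · intro ψ
    obtain ⟨c, hc⟩ := hsurj (j ψ) (hX.mem ψ)
    refine ⟨c, hX.inj ?_⟩
    rw [hj_sum]
    exact hc

/-- **the field `base`, norm form**: the matrix of `𝔱` on the coinvariants from its action on
the corestrictions of the basis -/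
theorem rthkcf_base (hX : RthkcfModel H' C θ' π D j) (hle : H' ≤ ⊤)
    (θ : HomS (gammaH L M (⊤ : Subgroup (ZMod M)ˣ)) C →+ HomS (gammaH L M ⊤) C) {r : ℕ}
    (b : Fin r → X) (hb : IsFreeBasis H' ⊤ hle C C θ' θ (fun i => j (b i)))
    (free : RthkmFree C D b) (𝔱 : AddMonoid.End X) (A : Matrix (Fin r) (Fin r) C)
    (hA : ∀ i, coresS C (Fermat.Agent.ES1.gammaH_mono hle) (j (𝔱 (b i)))
      = ∑ i', A i' i • coresS C (Fermat.Agent.ES1.gammaH_mono hle) (j (b i'))) :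
    rthkmMat free (1 : Δ →* C) 𝔱 = A := by
  refine rthkcf_mat_of_nm free ((coresS C (Fermat.Agent.ES1.gammaH_mono hle)).comp j) ?_ ?_ ?_
    𝔱 A hA
  · intro c x
    show coresS C _ (j (c • x)) = c • coresS C _ (j x)
    rw [hX.smul]
    exact k5fn_cores_smul (𝒪 := C) (Fermat.Agent.ES1.gammaH_mono hle) c (j x)
  · intro δ x
    obtain ⟨u, rfl⟩ := hX.pi_surj δ
    show coresS C _ (j (D (π u) x)) = coresS C _ (j x)
    rw [hX.diam]
    exact k5fn_cores_diamU hle C (Fermat.Agent.ES1.le_pmH ⊤ (Subgroup.mem_top _)) (j x)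
  · exact hb.2.2.1

omit [Fintype Δ] in
/-- `cores ∘ ⟨u⟩ ∘ T_ℓ = T_ℓ ∘ cores` -/
theorem rthkcf_cores_diam_tS (hle : H' ≤ ⊤) (A : Type) [AddCommGroup A] (ℓ : ℕ) [NeZero ℓ]
    (u : (ZMod M)ˣ) (ψ : HomS (gammaH L M H') A) :
    coresS A (Fermat.Agent.ES1.gammaH_mono hle) (diamU L M H' A u (tS L M ℓ H' A ψ))
      = tS L M ℓ ⊤ A (coresS A (Fermat.Agent.ES1.gammaH_mono hle) ψ) := by
  rw [k5fn_cores_diamU hle A (Fermat.Agent.ES1.le_pmH ⊤ (Subgroup.mem_top _))]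
  exact (stmtCommU L M ℓ H' ⊤ hle A).2.1 ψ

end model

section main

variable (p : ℕ) [Fact p.Prime] (𝒪 : Type) [CommRing 𝒪] [IsDomain 𝒪]
  [IsDiscreteValuationRing 𝒪] [Finite (IsLocalRing.ResidueField 𝒪)]
  (N₀ M₀ ℓ₀ : ℕ) [NeZero N₀] [NeZero ℓ₀] [hML : Fact (M₀ ∣ N₀)]

/-- **HK-CONC, the fields `free` and `base` for the Taylor–Wiles module.** -/
theorem rthkcf_exists (e : HExpr 𝒪) (hℓ₀ : ℓ₀.Prime) (hℓ₀N : ¬ ℓ₀ ∣ N₀) (Q : List ℕ) (h : ℕ)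
    (hlen : Q.length = h)
    (hnd : Q.Nodup) (hQ : ∀ q ∈ Q, q.Prime ∧ ¬ q ∣ N₀ ∧ q ≠ ℓ₀ ∧ e.Avoids q) (N M : ℕ)
    [NeZero N] [hMN : Fact (M ∣ N)] (hN : N = N₀ * Q.prod) (H' : Subgroup (ZMod M)ˣ) (k : ℕ)
    (hyp : FreeHyp p 𝒪 N M ℓ₀ H' ⊤ k) (n : ℕ) (hn : 0 < n)
    (hc : K5TWCond 𝒪 N₀ M₀ ℓ₀ e Q (𝒪 ⧸ IsLocalRing.maximalIdeal 𝒪 ^ n)) {r : ℕ}
    (c : Fin r → HomS (gammaH N₀ M₀ (⊤ : Subgroup (ZMod M₀)ˣ)) 𝒪)
    (hy : K5IsBasis (𝒪 ⧸ IsLocalRing.maximalIdeal 𝒪 ^ n)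
      (etaPart (thetaN (e.eval N₀ M₀) ℓ₀ (𝒪 ⧸ IsLocalRing.maximalIdeal 𝒪 ^ n) ⊤))
      (fun i => mapS (Submodule.mkQ (IsLocalRing.maximalIdeal 𝒪 ^ n)).toAddMonoidHom (c i)))
    {Δ : Type} [CommGroup Δ] [Fintype Δ] (π : (ZMod M)ˣ →* Δ)
    {X : Type} [AddCommGroup X] [Module (𝒪 ⧸ IsLocalRing.maximalIdeal 𝒪 ^ n) X]
    (D : Δ →* AddMonoid.End X)
    (j : X →+ HomS (gammaH N M H') (𝒪 ⧸ IsLocalRing.maximalIdeal 𝒪 ^ n))
    (hX : RthkcfModel H' (𝒪 ⧸ IsLocalRing.maximalIdeal 𝒪 ^ n)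
      (thetaN ((e.twist Q).eval N M) ℓ₀ (𝒪 ⧸ IsLocalRing.maximalIdeal 𝒪 ^ n) H') π D j) :
    ∃ (b : Fin (2 ^ h * r) → X) (free : RthkmFree (𝒪 ⧸ IsLocalRing.maximalIdeal 𝒪 ^ n) D b),
      ∀ (ℓ : ℕ) [NeZero ℓ], ℓ.Prime → ℓ ∉ Q → ∀ a : Matrix (Fin r) (Fin r) 𝒪,
        (∀ i', tS N₀ M₀ ℓ ⊤ 𝒪 (c i') = ∑ i, a i i' • c i) →
        ∀ 𝔱 : AddMonoid.End X,
          (∀ x, ∃ u : (ZMod M)ˣ, j (𝔱 x)
            = diamU N M H' (𝒪 ⧸ IsLocalRing.maximalIdeal 𝒪 ^ n) u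
                (tS N M ℓ H' (𝒪 ⧸ IsLocalRing.maximalIdeal 𝒪 ^ n) (j x))) →
          ∀ (s s' : Fin (2 ^ h)) (i i' : Fin r),
            rthkmMat free (1 : Δ →* 𝒪 ⧸ IsLocalRing.maximalIdeal 𝒪 ^ n) 𝔱
                (finProdFinEquiv (s, i)) (finProdFinEquiv (s', i'))
              = if s = s' then Ideal.Quotient.mk (IsLocalRing.maximalIdeal 𝒪 ^ n) (a i i')
                else 0 := by
  classical
  obtain ⟨b', hfree, hT⟩ := k5bm_level p 𝒪 N₀ M₀ ℓ₀ e hℓ₀ hℓ₀N Q h hlen hnd hQ N M hN H' k hyp n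
    hn hc c hy
  obtain ⟨b, hb⟩ := rthkcf_lift hX b' hfree.1
  have hbb : (fun i => j (b i)) = b' := funext hb
  have hfree' : IsFreeBasis H' ⊤ hyp.le (𝒪 ⧸ IsLocalRing.maximalIdeal 𝒪 ^ n)
      (𝒪 ⧸ IsLocalRing.maximalIdeal 𝒪 ^ n)
      (thetaN ((e.twist Q).eval N M) ℓ₀ (𝒪 ⧸ IsLocalRing.maximalIdeal 𝒪 ^ n) H')
      (thetaN ((e.twist Q).eval N M) ℓ₀ (𝒪 ⧸ IsLocalRing.maximalIdeal 𝒪 ^ n) ⊤)
      (fun i => j (b i)) := by
    rw [hbb]
    exact hfree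
  have free := rthkcf_free hX hyp.le _ b hfree'
  refine ⟨b, free, ?_⟩
  intro ℓ _ hℓ hℓQ a ha 𝔱 h𝔱 s s' i i'
  have key := rthkcf_base hX hyp.le _ b hfree' free 𝔱
    (Matrix.of fun x x' : Fin (2 ^ h * r) =>
      if (finProdFinEquiv.symm x).1 = (finProdFinEquiv.symm x').1 then
        Ideal.Quotient.mk (IsLocalRing.maximalIdeal 𝒪 ^ n)
          (a (finProdFinEquiv.symm x).2 (finProdFinEquiv.symm x').2)
      else 0) ?_
  · rw [key, Matrix.of_apply, Equiv.symm_apply_apply, Equiv.symm_apply_apply]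
  · intro x
    obtain ⟨⟨t, l⟩, rfl⟩ := (finProdFinEquiv (m := 2 ^ h) (n := r)).surjective x
    obtain ⟨u, hu⟩ := h𝔱 (b (finProdFinEquiv (t, l)))
    rw [hu, rthkcf_cores_diam_tS hyp.le, hb, hT ℓ hℓ hℓQ a ha t l]
    rw [← (finProdFinEquiv (m := 2 ^ h) (n := r)).sum_comp, Fintype.sum_prod_type,
      Finset.sum_eq_single t]
    · refine Finset.sum_congr rfl fun i _ => ?_
      rw [Matrix.of_apply, Equiv.symm_apply_apply, Equiv.symm_apply_apply, if_pos rfl, hb]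
    · intro t' _ ht'
      refine Finset.sum_eq_zero fun i _ => ?_
      rw [Matrix.of_apply, Equiv.symm_apply_apply, Equiv.symm_apply_apply, if_neg ht', zero_smul]
    · intro ht
      exact absurd (Finset.mem_univ t) ht

end main

end Fermat.Agent.RT

end
end ZBRT_019_7

/-! ### bundled: `Fermat.Agent.RT.Hecke.ConcFreeX` -/
section ZBRT_019_8

/-!
# K-machine, HECKE-asm, HK-CONC: the fields `free`, `act_comm`, `base` for the concrete module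
`X = ↥(rthkdX 𝔲 ℓ₀ H' ν)` of `RT/Hecke/ConcDefs.lean` (helper88)

* `rthkcf_model` : `X = ↥(rthkdX 𝔲 ℓ₀ H' ν)`, `Δ = RthkdDelta M H'`, `D = rthkdD 𝔲 ℓ₀ H' ν` is a
  model of the `Θ`-part in the sense of `RthkcfModel` (`RT/Hecke/ConcFree.lean`);
* `rthkcf_block_eq` : a matrix with the entries `if s = s' then mk (a i i') else 0` is the
  reduction of the block diagonal matrix `rthkcbBlock 𝒪 h r a` (`RT/Hecke/ConcBaseAbs.lean`);
* `rthkcf_X` : **the fields `free` and `base`**: for a basis `c` of the base level (over `𝒪`,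
  with reductions bases of the `Θ`-part modulo `𝔪 ^ n`) and a Taylor–Wiles list `Q` of length
  `h`: there is `b : Fin (2 ^ h * r) → X` with `RthkmFree C D b` such that for every prime
  `ℓ ∉ Q`, every matrix `a` of `tS ℓ` in the basis `c`, and every `𝔱 : End X` acting as
  `diamU u ∘ tS ℓ`:  `rthkmMat free 1 𝔱 = (rthkcbBlock 𝒪 h r a).map (algebraMap 𝒪 C)`;
* `rthkcf_X_comm` : the field `act_comm` for an action `act` which is the restriction of a family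
  of operators commuting with the scalars, such that every diamond is `act d`.
-/

set_option autoImplicit false
set_option linter.style.haveILetI false
set_option linter.unusedSectionVars false
set_option linter.unusedVariables false

noncomputable section

namespace Fermat.Agent.RT

open CongruenceSubgroup Matrix
open scoped MatrixGroups
open Fermat.Agent.ES1 (gammaH diamHom pmH)
open Fermat.Agent.RT.K5

section model

variable {O : Type} [CommRing O] [IsLocalRing O] {L M : ℕ} [NeZero L] [hML : Fact (M ∣ L)]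
  (𝔲 : NatFam O L M) (ℓ₀ : ℕ) [NeZero ℓ₀] (H' : Subgroup (ZMod M)ˣ) (ν : ℕ)

/-- the concrete module of `ConcDefs.lean` is a model of the `Θ`-part -/
theorem rthkcf_model :
    RthkcfModel (Δ := RthkdDelta M H') H' (RthkdC O ν) (thetaN 𝔲 ℓ₀ (RthkdC O ν) H')
      (QuotientGroup.mk' (pmH H'))
      (rthkdD 𝔲 ℓ₀ H' ν) (rthkdX 𝔲 ℓ₀ H' ν).subtype.toAddMonoidHom where
  inj := Subtype.val_injective
  smul _ _ := rfl
  mem x := x.2
  surj ψ hψ := ⟨⟨ψ, hψ⟩, rfl⟩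
  pi_surj := QuotientGroup.mk'_surjective _
  pi_ker u := QuotientGroup.eq_one_iff u
  diam u x := rthkdD_mk_coe 𝔲 ℓ₀ H' ν u x

end model

section block

variable {O : Type} [CommRing O] {C : Type} [CommRing C] [Algebra O C] {h r : ℕ}

/-- a matrix with the entries of the reduction of a block diagonal matrix -/
theorem rthkcf_block_eq (a : Matrix (Fin r) (Fin r) O)
    (A : Matrix (Fin (2 ^ h * r)) (Fin (2 ^ h * r)) C)
    (hA : ∀ (s s' : Fin (2 ^ h)) (i i' : Fin r),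
      A (finProdFinEquiv (s, i)) (finProdFinEquiv (s', i'))
        = if s = s' then algebraMap O C (a i i') else 0) :
    A = (rthkcbBlock O h r a).map (algebraMap O C) := by
  ext x x'
  obtain ⟨⟨s, i⟩, rfl⟩ := (finProdFinEquiv (m := 2 ^ h) (n := r)).surjective x
  obtain ⟨⟨s', i'⟩, rfl⟩ := (finProdFinEquiv (m := 2 ^ h) (n := r)).surjective x'
  rw [Matrix.map_apply, rthkcbBlock_apply, hA]
  split_ifs
  · rfl
  · rw [map_zero]

end block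

section main

variable (p : ℕ) [Fact p.Prime] (𝒪 : Type) [CommRing 𝒪] [IsDomain 𝒪]
  [IsDiscreteValuationRing 𝒪] [Finite (IsLocalRing.ResidueField 𝒪)]
  (N₀ M₀ ℓ₀ : ℕ) [NeZero N₀] [NeZero ℓ₀] [hML : Fact (M₀ ∣ N₀)]

/-- **HK-CONC, the fields `free` and `base`** for the concrete module of `ConcDefs.lean`. -/
theorem rthkcf_X (e : HExpr 𝒪) (hℓ₀ : ℓ₀.Prime) (hℓ₀N : ¬ ℓ₀ ∣ N₀) (Q : List ℕ) (h : ℕ)
    (hlen : Q.length = h)
    (hnd : Q.Nodup) (hQ : ∀ q ∈ Q, q.Prime ∧ ¬ q ∣ N₀ ∧ q ≠ ℓ₀ ∧ e.Avoids q) (N M : ℕ)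
    [NeZero N] [NeZero M] [hMN : Fact (M ∣ N)] (hN : N = N₀ * Q.prod)
    (H' : Subgroup (ZMod M)ˣ) (k : ℕ)
    (hyp : FreeHyp p 𝒪 N M ℓ₀ H' ⊤ k) (n : ℕ) (hn : 0 < n)
    (hc : K5TWCond 𝒪 N₀ M₀ ℓ₀ e Q (RthkdC 𝒪 n)) {r : ℕ}
    (c : Fin r → HomS (gammaH N₀ M₀ (⊤ : Subgroup (ZMod M₀)ˣ)) 𝒪)
    (hy : K5IsBasis (RthkdC 𝒪 n)
      (etaPart (thetaN (e.eval N₀ M₀) ℓ₀ (RthkdC 𝒪 n) ⊤))
      (fun i => mapS (Submodule.mkQ (IsLocalRing.maximalIdeal 𝒪 ^ n)).toAddMonoidHom (c i))) :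
    ∃ (b : Fin (2 ^ h * r) → rthkdX ((e.twist Q).eval N M) ℓ₀ H' n)
      (free : RthkmFree (Δ := RthkdDelta M H') (RthkdC 𝒪 n)
        (rthkdD ((e.twist Q).eval N M) ℓ₀ H' n) b),
      ∀ (ℓ : ℕ) [NeZero ℓ], ℓ.Prime → ℓ ∉ Q → ∀ a : Matrix (Fin r) (Fin r) 𝒪,
        (∀ i', tS N₀ M₀ ℓ ⊤ 𝒪 (c i') = ∑ i, a i i' • c i) →
        ∀ 𝔱 : AddMonoid.End (rthkdX ((e.twist Q).eval N M) ℓ₀ H' n),
          (∀ x, ∃ u : (ZMod M)ˣ,
            ((𝔱 x : rthkdX ((e.twist Q).eval N M) ℓ₀ H' n) : HomS (gammaH N M H') (RthkdC 𝒪 n))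
              = diamU N M H' (RthkdC 𝒪 n) u (tS N M ℓ H' (RthkdC 𝒪 n) x)) →
          rthkmMat (Δ := RthkdDelta M H') free (1 : RthkdDelta M H' →* RthkdC 𝒪 n) 𝔱
            = (rthkcbBlock 𝒪 h r a).map (algebraMap 𝒪 (RthkdC 𝒪 n)) := by
  obtain ⟨b, free, hb⟩ := rthkcf_exists (Δ := RthkdDelta M H') p 𝒪 N₀ M₀ ℓ₀ e hℓ₀ hℓ₀N Q h hlen
    hnd hQ N M hN H' k hyp n
    hn hc c hy (QuotientGroup.mk' (pmH H')) (rthkdD ((e.twist Q).eval N M) ℓ₀ H' n)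
    (rthkdX ((e.twist Q).eval N M) ℓ₀ H' n).subtype.toAddMonoidHom
    (rthkcf_model ((e.twist Q).eval N M) ℓ₀ H' n)
  refine ⟨b, free, ?_⟩
  intro ℓ _ hℓ hℓQ a ha 𝔱 h𝔱
  exact rthkcf_block_eq a _ (hb ℓ hℓ hℓQ a ha 𝔱 h𝔱)

end main

section comm

variable {O : Type} [CommRing O] [IsLocalRing O] {L M : ℕ} [NeZero L] [hML : Fact (M ∣ L)]
  (𝔲 : NatFam O L M) (ℓ₀ : ℕ) [NeZero ℓ₀] (H' : Subgroup (ZMod M)ˣ) (ν : ℕ)

/-- **HK-CONC, the field `act_comm`**: an action of a commutative ring `𝕋` on `X` which is the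
restriction of operators `E t` of `Hom(Γ_{H'}(L), C)` commuting with the scalars, and such that
every diamond operator `diamU u` is (on `X`) some `E d`. -/
theorem rthkcf_X_comm {𝕋 : Type} [CommRing 𝕋]
    (act : 𝕋 →+* AddMonoid.End (rthkdX 𝔲 ℓ₀ H' ν))
    (E : 𝕋 → HomS (gammaH L M H') (RthkdC O ν) →+ HomS (gammaH L M H') (RthkdC O ν))
    (hact : ∀ (t : 𝕋) (x : rthkdX 𝔲 ℓ₀ H' ν),
      ((act t x : rthkdX 𝔲 ℓ₀ H' ν) : HomS (gammaH L M H') (RthkdC O ν)) = E t x)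
    (hE : ∀ (t : 𝕋) (c : RthkdC O ν) (ψ : HomS (gammaH L M H') (RthkdC O ν)),
      E t (c • ψ) = c • E t ψ)
    (hD : ∀ u : (ZMod M)ˣ, ∃ d : 𝕋, ∀ x : rthkdX 𝔲 ℓ₀ H' ν,
      diamU L M H' (RthkdC O ν) u x = E d x) (t : 𝕋) :
    act t ∈ rthkmComm (Δ := RthkdDelta M H') (RthkdC O ν) (rthkdD 𝔲 ℓ₀ H' ν) := by
  refine rthkcf_act_comm (Δ := RthkdDelta M H') act ?_ ?_ t
  · intro t c x
    apply Subtype.ext
    rw [hact]
    show E t (c • (x : HomS (gammaH L M H') (RthkdC O ν))) = c • ((act t x : rthkdX 𝔲 ℓ₀ H' ν) :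
      HomS (gammaH L M H') (RthkdC O ν))
    rw [hE, hact]
  · intro δ
    obtain ⟨u, rfl⟩ := QuotientGroup.mk_surjective δ
    obtain ⟨d, hd⟩ := hD u
    refine ⟨d, AddMonoidHom.ext fun x => Subtype.ext ?_⟩
    exact (rthkdD_mk_coe 𝔲 ℓ₀ H' ν u x).trans ((hd x).trans (hact d x).symm)

end comm

end Fermat.Agent.RT

end
end ZBRT_019_8
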