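/- GENERATED FILE (helper35, build-time optimisation, NOTES/ZB.md): verbatim concatenation of the modules
   Fermat.Agent.RT.Base.BdMat
   Fermat.Agent.RT.Base.BdRep
   Fermat.Agent.RT.Base.BdSum
   Fermat.Agent.RT.Base.BdFam
   Fermat.Agent.RT.K5.ParHBd
   Fermat.Agent.RT.K5.ParH
   Fermat.Agent.RT.Hecke.ConcResidAlg
   Do not edit; do not import together with these modules. -/
import Mathlib
import Fermat.Agent.ZB.ES_009
import Fermat.Agent.ZB.RT_038
import Fermat.Agent.ZB.RT_027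

/-! ### bundled: `Fermat.Agent.RT.Base.BdMat` -/
section ZBRT_039_0

/-!
# BASE-BRIDGE, boundary (1): integer matrices

* `rtbb_exists_conj` : an element `g` of trace `2` of `SL(2, ℤ)` is `σ Tᵐ σ⁻¹`, and for a
  squarefree `N` the matrix `σ` can be chosen with `N ∣ σ₁₀ σ₁₁`;
* `rtbb_exists_rep` : every integer matrix of determinant `ℓ` with `N ∣ c` is `γ α_x` with
  `γ ∈ Γ₀(N)` and `α_x` one of the standard representatives (`heckeRep ℓ x`).
-/

set_option autoImplicit false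

noncomputable section

namespace Fermat.Agent.RT.Base

open Matrix Matrix.SpecialLinearGroup CongruenceSubgroup
open P2MW.S_ModularForm_heckeT_slash_eq_self_of_mem_Gamma0.ModularForm.HeckeSlashInvariance
open scoped MatrixGroups

/-- the determinant relation of an element of `SL(2, ℤ)` -/
theorem rtbb_det (g : SL(2, ℤ)) : g 0 0 * g 1 1 - g 0 1 * g 1 0 = 1 := by
  have h := g.det_coe
  rwa [Matrix.det_fin_two] at h

/-- an element of trace `2` fixes a primitive vector -/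
theorem rtbb_exists_fixed (g : SL(2, ℤ)) (hg : g 0 0 + g 1 1 = 2) :
    ∃ a c : ℤ, IsCoprime a c ∧ g 0 0 * a + g 0 1 * c = a ∧ g 1 0 * a + g 1 1 * c = c := by
  have hdet := rtbb_det g
  by_cases hy : g 0 1 = 0
  · -- then `g 0 0 = 1 = g 1 1`
    have hx : (g 0 0 - 1) ^ 2 = 0 := by
      have : (g 0 0 - 1) ^ 2 = - (g 0 1 * g 1 0) := by
        have h11 : g 1 1 = 2 - g 0 0 := by linarith
        rw [h11] at hdet
        linear_combination -hdet
      rw [this, hy, zero_mul, neg_zero]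
    have hx' : g 0 0 = 1 := by
      have := pow_eq_zero_iff (two_ne_zero) |>.mp hx
      linarith
    have h11 : g 1 1 = 1 := by linarith
    refine ⟨0, 1, isCoprime_zero_left.mpr isUnit_one, ?_, ?_⟩
    · rw [hy]; ring
    · rw [h11]; ring
  · -- `v = (y, -x) / gcd`
    have hgpos : 0 < Int.gcd (g 0 0 - 1) (g 0 1) := Int.gcd_pos_of_ne_zero_right _ hy
    obtain ⟨x', y', hcop, hx, hy'⟩ := Int.exists_gcd_one hgpos
    set d₀ : ℤ := (Int.gcd (g 0 0 - 1) (g 0 1) : ℤ) with hd₀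
    have hd₀ne : d₀ ≠ 0 := by
      rw [hd₀]; exact_mod_cast hgpos.ne'
    have hcop' : IsCoprime y' (-x') := by
      have : IsCoprime x' y' := Int.isCoprime_iff_gcd_eq_one.mpr hcop
      exact this.symm.neg_right
    refine ⟨y', -x', hcop', ?_, ?_⟩
    · have h1 : g 0 0 = 1 + x' * d₀ := by linarith
      rw [h1, hy']
      ring
    · -- multiply by `d₀`
      have h1 : g 0 0 = 1 + x' * d₀ := by linarith
      have h11 : g 1 1 = 1 - x' * d₀ := by linarith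
      have key : d₀ * (g 1 0 * y' + g 1 1 * -x' - -x') = 0 := by
        rw [h11]
        rw [h1, h11, hy'] at hdet
        linear_combination -hdet
      rcases mul_eq_zero.mp key with h | h
      · exact absurd h hd₀ne
      · linarith

/-- for a squarefree `N` a primitive vector `(a, c)` is the first column of a `σ ∈ SL(2, ℤ)`
with `N ∣ σ₁₀ σ₁₁` -/
theorem rtbb_exists_sigma {N : ℕ} (hN : Squarefree N) (a c : ℤ) (hac : IsCoprime a c) :
    ∃ σ : SL(2, ℤ), σ 0 0 = a ∧ σ 1 0 = c ∧ (N : ℤ) ∣ σ 1 0 * σ 1 1 := by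
  obtain ⟨u, v, huv⟩ := hac
  -- `N = N₁ N₂`, `N₁ = gcd (N, c)`
  set N₁ : ℕ := Nat.gcd N c.natAbs with hN₁
  obtain ⟨N₂, hN₂⟩ : N₁ ∣ N := Nat.gcd_dvd_left _ _
  have hsq : Squarefree (N₁ * N₂) := hN₂ ▸ hN
  have hcop12 : Nat.Coprime N₁ N₂ := (Nat.squarefree_mul_iff.mp hsq).1
  have hcop2c : Nat.Coprime N₂ c.natAbs := by
    have h1 : Nat.gcd N₂ c.natAbs ∣ N₁ := by
      rw [hN₁]
      refine Nat.dvd_gcd ?_ (Nat.gcd_dvd_right _ _)
      rw [hN₂]
      exact (Nat.gcd_dvd_left _ _).trans (dvd_mul_left _ _)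
    have h2 : Nat.gcd N₂ c.natAbs ∣ N₂ := Nat.gcd_dvd_left _ _
    have h3 : Nat.gcd N₂ c.natAbs ∣ Nat.gcd N₁ N₂ := Nat.dvd_gcd h1 h2
    rw [hcop12] at h3
    exact Nat.dvd_one.mp h3
  have hcop2c' : IsCoprime (N₂ : ℤ) c := by
    rw [Int.isCoprime_iff_gcd_eq_one, Int.gcd_def, Int.natAbs_natCast]
    exact hcop2c
  obtain ⟨u', v', huv'⟩ := hcop2c'
  have hN₁c : (N₁ : ℤ) ∣ c := by
    have : N₁ ∣ c.natAbs := Nat.gcd_dvd_right _ _
    exact Int.natCast_dvd.mpr this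
  -- `d₀ = u`, `b₀ = -v`, `j = - d₀ v'`
  refine ⟨⟨!![a, -v + (-(u * v')) * a; c, u + (-(u * v')) * c], ?_⟩, rfl, rfl, ?_⟩
  · rw [Matrix.det_fin_two_of]
    linear_combination huv
  · show (N : ℤ) ∣ c * (u + (-(u * v')) * c)
    have h2 : (N₂ : ℤ) ∣ u + (-(u * v')) * c := by
      refine ⟨u * u', ?_⟩
      linear_combination (-u) * huv'
    rw [hN₂]
    push_cast
    exact mul_dvd_mul hN₁c h2

/-- **an element of trace `2` is conjugate to a power of `T`**, by a `σ` with `N ∣ σ₁₀ σ₁₁`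
(`N` squarefree). -/
theorem rtbb_exists_conj {N : ℕ} (hN : Squarefree N) (g : SL(2, ℤ)) (hg : g 0 0 + g 1 1 = 2) :
    ∃ (σ : SL(2, ℤ)) (m : ℤ), g = σ * ModularGroup.T ^ m * σ⁻¹ ∧ (N : ℤ) ∣ σ 1 0 * σ 1 1 := by
  obtain ⟨a, c, hac, h1, h2⟩ := rtbb_exists_fixed g hg
  obtain ⟨σ, hσa, hσc, hσN⟩ := rtbb_exists_sigma hN a c hac
  have hdσ := rtbb_det σ
  have hdg := rtbb_det g
  set h : SL(2, ℤ) := σ⁻¹ * g * σ with hh
  have hdh := rtbb_det h
  have h00 : h 0 0 = 1 := by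
    rw [hh]
    simp only [Matrix.SpecialLinearGroup.coe_mul, Matrix.SpecialLinearGroup.coe_inv,
      Matrix.adjugate_fin_two, Matrix.mul_apply, Fin.sum_univ_two, Matrix.of_apply,
      Matrix.cons_val', Matrix.cons_val_zero, Matrix.cons_val_one, Matrix.empty_val',
      Matrix.cons_val_fin_one]
    rw [hσa, hσc] at *
    linear_combination (σ 1 1) * h1 - (σ 0 1) * h2 + hdσ
  have h10 : h 1 0 = 0 := by
    rw [hh]
    simp only [Matrix.SpecialLinearGroup.coe_mul, Matrix.SpecialLinearGroup.coe_inv,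
      Matrix.adjugate_fin_two, Matrix.mul_apply, Fin.sum_univ_two, Matrix.of_apply,
      Matrix.cons_val', Matrix.cons_val_zero, Matrix.cons_val_one, Matrix.empty_val',
      Matrix.cons_val_fin_one]
    rw [hσa, hσc] at *
    linear_combination (-c) * h1 + a * h2
  have h11 : h 1 1 = 1 := by
    rw [h00, h10] at hdh
    linarith
  have hT : h = ModularGroup.T ^ (h 0 1) := by
    apply Subtype.ext
    rw [ModularGroup.coe_T_zpow]
    ext i j
    fin_cases i <;> fin_cases j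
    · exact h00
    · rfl
    · exact h10
    · exact h11
  refine ⟨σ, h 0 1, ?_, hσN⟩
  rw [← hT, hh]
  group

end Fermat.Agent.RT.Base

end
end ZBRT_039_0

/-! ### bundled: `Fermat.Agent.RT.Base.BdRep` -/
section ZBRT_039_1

/-!
# BASE-BRIDGE, boundary (2): the coset decomposition `Δ_ℓ = ⊔ Γ₀(N) α_x`
-/

set_option autoImplicit false

noncomputable section

namespace Fermat.Agent.RT.Base

open Matrix Matrix.SpecialLinearGroup CongruenceSubgroup ModularForm OnePoint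
open P2MW.S_ModularForm_heckeT_slash_eq_self_of_mem_Gamma0.ModularForm.HeckeSlashInvariance
open scoped MatrixGroups

variable {ℓ N : ℕ} [Fact ℓ.Prime]

omit [Fact ℓ.Prime] in
theorem rtbb_mapGL_coe (g : SL(2, ℤ)) :
    ((mapGL ℝ g : GL (Fin 2) ℝ) : Matrix (Fin 2) (Fin 2) ℝ) =
      (g : Matrix (Fin 2) (Fin 2) ℤ).map (algebraMap ℤ ℝ) :=
  Matrix.SpecialLinearGroup.mapGL_coe_matrix g

omit [Fact ℓ.Prime] in
theorem rtbb_mapGL_mk (M : Matrix (Fin 2) (Fin 2) ℤ) (hM : M.det = 1) :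
    ((mapGL ℝ (⟨M, hM⟩ : SL(2, ℤ)) : GL (Fin 2) ℝ) : Matrix (Fin 2) (Fin 2) ℝ) =
      M.map (algebraMap ℤ ℝ) := by
  exact Matrix.SpecialLinearGroup.mapGL_coe_matrix _

/-- **coset decomposition**: an integer matrix of determinant `ℓ` with `N ∣ c` is `γ α_x` with
`γ ∈ Γ₀(N)`. -/
theorem rtbb_exists_rep (hℓN : ¬ ℓ ∣ N) (a b c d : ℤ) (hdet : a * d - b * c = ℓ)
    (hc : (N : ℤ) ∣ c) :
    ∃ (x : OnePoint (ZMod ℓ)) (γ : SL(2, ℤ)), (N : ℤ) ∣ γ 1 0 ∧
      (!![a, b; c, d] : Matrix (Fin 2) (Fin 2) ℤ).map (algebraMap ℤ ℝ) =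
        ((mapGL ℝ γ : GL (Fin 2) ℝ) : Matrix (Fin 2) (Fin 2) ℝ) *
          ((heckeRep ℓ x : GL (Fin 2) ℝ) : Matrix (Fin 2) (Fin 2) ℝ) := by
  have hp : ℓ ≠ 0 := (Fact.out : ℓ.Prime).ne_zero
  have hℓ0 : (ℓ : ℤ) ≠ 0 := by exact_mod_cast hp
  have hdetZ : ((a : ZMod ℓ)) * d - b * c = 0 := by
    have := congrArg (Int.cast : ℤ → ZMod ℓ) hdet
    push_cast at this
    rw [this]
    exact ZMod.natCast_self ℓ
  by_cases hac : ((a : ℤ) : ZMod ℓ) = 0 ∧ ((c : ℤ) : ZMod ℓ) = 0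
  · -- `x = ∞`
    obtain ⟨a', ha'⟩ := (ZMod.intCast_zmod_eq_zero_iff_dvd _ _).mp hac.1
    obtain ⟨c', hc'⟩ := (ZMod.intCast_zmod_eq_zero_iff_dvd _ _).mp hac.2
    have hd1 : a' * d - b * c' = 1 := by
      have : (ℓ : ℤ) * (a' * d - b * c' - 1) = 0 := by
        rw [ha', hc'] at hdet
        linear_combination hdet
      rcases mul_eq_zero.mp this with h | h
      · exact absurd h hℓ0
      · linarith
    refine ⟨∞, ⟨!![a', b; c', d], ?_⟩, ?_, ?_⟩
    · rw [Matrix.det_fin_two_of]; exact hd1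
    · show (N : ℤ) ∣ c'
      have hcop : IsCoprime (N : ℤ) (ℓ : ℤ) :=
        Nat.isCoprime_iff_coprime.mpr ((Nat.Prime.coprime_iff_not_dvd Fact.out).mpr hℓN).symm
      exact hcop.dvd_of_dvd_mul_left (hc' ▸ hc)
    · rw [heckeRep_infty, rtbb_mapGL_mk, val_heckeDiagMatrix hp, ha', hc']
      ext i j
      fin_cases i <;> fin_cases j <;>
        simp [Matrix.mul_apply, Fin.sum_univ_two, mul_comm]
  · -- `x = j`
    obtain ⟨j, hj1, hj2⟩ : ∃ j : ZMod ℓ, (a : ZMod ℓ) * j = b ∧ (c : ZMod ℓ) * j = d := by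
      by_cases ha : ((a : ℤ) : ZMod ℓ) = 0
      · have hc0 : ((c : ℤ) : ZMod ℓ) ≠ 0 := fun h => hac ⟨ha, h⟩
        refine ⟨(d : ZMod ℓ) / c, ?_, mul_div_cancel₀ _ hc0⟩
        rw [ha, zero_mul]
        rw [ha, zero_mul, zero_sub, neg_eq_zero] at hdetZ
        rcases mul_eq_zero.mp hdetZ with h | h
        · exact h.symm
        · exact absurd h hc0
      · refine ⟨(b : ZMod ℓ) / a, mul_div_cancel₀ _ ha, ?_⟩
        have : (a : ZMod ℓ) * ((c : ZMod ℓ) * ((b : ZMod ℓ) / a) - d) = 0 := by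
          have h1 : (a : ZMod ℓ) * ((b : ZMod ℓ) / a) = b := mul_div_cancel₀ _ ha
          linear_combination (c : ZMod ℓ) * h1 - hdetZ
        rcases mul_eq_zero.mp this with h | h
        · exact absurd h ha
        · exact sub_eq_zero.mp h
    obtain ⟨e, he⟩ : (ℓ : ℤ) ∣ b - a * j.val := by
      rw [← ZMod.intCast_zmod_eq_zero_iff_dvd]
      push_cast
      rw [ZMod.natCast_zmod_val, hj1, sub_self]
    obtain ⟨f, hf⟩ : (ℓ : ℤ) ∣ d - c * j.val := by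
      rw [← ZMod.intCast_zmod_eq_zero_iff_dvd]
      push_cast
      rw [ZMod.natCast_zmod_val, hj2, sub_self]
    have hd1 : a * f - e * c = 1 := by
      have : (ℓ : ℤ) * (a * f - e * c - 1) = 0 := by
        linear_combination a * (-hf) + c * he + hdet
      rcases mul_eq_zero.mp this with h | h
      · exact absurd h hℓ0
      · linarith
    refine ⟨(j : OnePoint (ZMod ℓ)), ⟨!![a, e; c, f], ?_⟩, hc, ?_⟩
    · rw [Matrix.det_fin_two_of]; exact hd1
    · rw [heckeRep_coe, rtbb_mapGL_mk, val_heckeMatrix hp]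
      have heR := congrArg (Int.cast : ℤ → ℝ) he
      have hfR := congrArg (Int.cast : ℤ → ℝ) hf
      push_cast at heR hfR
      ext i k
      fin_cases i <;> fin_cases k <;>
        simp [Matrix.mul_apply, Fin.sum_univ_two, -ZMod.natCast_val]
      · linear_combination heR
      · linear_combination hfR

end Fermat.Agent.RT.Base

end
end ZBRT_039_1

/-! ### bundled: `Fermat.Agent.RT.Base.BdSum` -/
section ZBRT_039_2

/-!
# BASE-BRIDGE, boundary (3): the Hecke sum of an element acting trivially on `ℙ¹(𝔽_ℓ)`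

If `h ∈ Γ₀(N)` acts trivially on `ℙ¹(𝔽_ℓ)` then `(T_ℓ φ)(h) = ∑_y φ(B_y h B_y⁻¹)` for ANY system
`B_y` of representatives of `Γ₀(N) \ Δ_ℓ` (`rtbb_sum`).
-/

set_option autoImplicit false

noncomputable section

namespace Fermat.Agent.RT.Base

open Matrix Matrix.SpecialLinearGroup CongruenceSubgroup ModularForm OnePoint
open P2MW.S_ModularForm_heckeT_slash_eq_self_of_mem_Gamma0.ModularForm.HeckeSlashInvariance
open Fermat.Agent.ES.HeckeP
open scoped MatrixGroups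

variable {ℓ N : ℕ} [Fact ℓ.Prime] {A : Type*} [AddCommGroup A]

omit [Fact ℓ.Prime] in
/-- conjugate elements have the same image in an abelian group -/
theorem rtbb_phi_conj (φ : Additive (Gamma0 N) →+ A) (γ κ g' : Gamma0 N)
    (h : γ * κ = g' * γ) : φ (Additive.ofMul κ) = φ (Additive.ofMul g') := by
  have h1 := congrArg (fun z => φ (Additive.ofMul z)) h
  simp only [ofMul_mul, map_add] at h1
  rw [add_comm] at h1
  exact add_right_cancel h1

/-- an element `≡ 1 mod ℓ` acts trivially on `ℙ¹(𝔽_ℓ)` -/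
theorem rtbb_idx_of_congr (k : SL(2, ℤ)) (h00 : (ℓ : ℤ) ∣ k 0 0 - 1) (h01 : (ℓ : ℤ) ∣ k 0 1)
    (h10 : (ℓ : ℤ) ∣ k 1 0) (h11 : (ℓ : ℤ) ∣ k 1 1 - 1) (x : OnePoint (ZMod ℓ)) :
    idx k x = x := by
  have e00 : ((k 0 0 : ℤ) : ZMod ℓ) = 1 := by
    have := (ZMod.intCast_zmod_eq_zero_iff_dvd _ _).mpr h00
    push_cast at this
    exact sub_eq_zero.mp this
  have e11 : ((k 1 1 : ℤ) : ZMod ℓ) = 1 := by
    have := (ZMod.intCast_zmod_eq_zero_iff_dvd _ _).mpr h11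
    push_cast at this
    exact sub_eq_zero.mp this
  have e01 : ((k 0 1 : ℤ) : ZMod ℓ) = 0 := (ZMod.intCast_zmod_eq_zero_iff_dvd _ _).mpr h01
  have e10 : ((k 1 0 : ℤ) : ZMod ℓ) = 0 := (ZMod.intCast_zmod_eq_zero_iff_dvd _ _).mpr h10
  have h1 : redMatrix ℓ k = 1 := by
    apply Matrix.GeneralLinearGroup.ext
    intro i j
    fin_cases i <;> fin_cases j
    · show redMatrix ℓ k 0 0 = _
      rw [redMatrix_apply_zero_zero, e11]; rfl
    · show redMatrix ℓ k 0 1 = _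
      rw [redMatrix_apply_zero_one, e01]; rfl
    · show redMatrix ℓ k 1 0 = _
      rw [redMatrix_apply_one_zero, e10]; rfl
    · show redMatrix ℓ k 1 1 = _
      rw [redMatrix_apply_one_one, e00]; rfl
  rw [idx, h1, one_smul]

/-- if `B = γ α_x`, `γ ∈ Γ₀(N)`, `h` fixes `x` and `B h = g' B`, then `κ(h, x)` is conjugate to
`g'` in `Γ₀(N)` -/
theorem rtbb_kap_eq (hℓN : ¬ ℓ ∣ N) (φ : Additive (Gamma0 N) →+ A) (h : Gamma0 N)
    (x : OnePoint (ZMod ℓ)) (hx : idx (h : SL(2, ℤ)) x = x)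
    (B : Matrix (Fin 2) (Fin 2) ℤ) (γ : SL(2, ℤ)) (hγ : (N : ℤ) ∣ γ 1 0)
    (hB : B.map (algebraMap ℤ ℝ) =
      ((mapGL ℝ γ : GL (Fin 2) ℝ) : Matrix (Fin 2) (Fin 2) ℝ) *
        ((heckeRep ℓ x : GL (Fin 2) ℝ) : Matrix (Fin 2) (Fin 2) ℝ))
    (g' : Gamma0 N)
    (hrel : B * ((h : SL(2, ℤ)) : Matrix (Fin 2) (Fin 2) ℤ) =
      ((g' : SL(2, ℤ)) : Matrix (Fin 2) (Fin 2) ℤ) * B) :
    φ (Additive.ofMul (kap hℓN h x)) = φ (Additive.ofMul g') := by
  have hγmem : γ ∈ Gamma0 N := Gamma0_mem.mpr ((ZMod.intCast_zmod_eq_zero_iff_dvd _ _).mpr hγ)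
  refine rtbb_phi_conj φ ⟨γ, hγmem⟩ _ _ ?_
  apply Subtype.ext
  rw [Subgroup.coe_mul, Subgroup.coe_mul]
  show γ * (kap hℓN h x : SL(2, ℤ)) = (g' : SL(2, ℤ)) * γ
  apply mapGL_injective (R := ℤ) (S := ℝ)
  have hk := kap_spec hℓN h x
  rw [hx] at hk
  have h1 := congrArg (fun M : Matrix (Fin 2) (Fin 2) ℤ => M.map (algebraMap ℤ ℝ)) hrel
  simp only [Matrix.map_mul, hB] at h1
  rw [← rtbb_mapGL_coe, ← rtbb_mapGL_coe] at h1
  have h2 : mapGL ℝ γ * heckeRep ℓ x * mapGL ℝ (h : SL(2, ℤ)) =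
      mapGL ℝ (g' : SL(2, ℤ)) * (mapGL ℝ γ * heckeRep ℓ x) := by
    apply Units.ext
    simpa only [Units.val_mul] using h1
  rw [mul_assoc, hk, ← mul_assoc, ← mul_assoc] at h2
  have h3 := mul_right_cancel h2
  rw [map_mul, map_mul]
  exact h3

/-- **the Hecke sum** of an element acting trivially on `ℙ¹(𝔽_ℓ)`, computed with an arbitrary
system of representatives -/
theorem rtbb_sum (hℓN : ¬ ℓ ∣ N) (φ : Additive (Gamma0 N) →+ A) (h : Gamma0 N)
    (hh : ∀ x : OnePoint (ZMod ℓ), idx (h : SL(2, ℤ)) x = x)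
    (B : OnePoint (ZMod ℓ) → Matrix (Fin 2) (Fin 2) ℤ) (g' : OnePoint (ZMod ℓ) → Gamma0 N)
    (hdet : ∀ y, (B y).det = ℓ) (hBN : ∀ y, (N : ℤ) ∣ B y 1 0)
    (hrel : ∀ y, B y * ((h : SL(2, ℤ)) : Matrix (Fin 2) (Fin 2) ℤ) =
      ((g' y : SL(2, ℤ)) : Matrix (Fin 2) (Fin 2) ℤ) * B y)
    (hinj : ∀ (y y' : OnePoint (ZMod ℓ)) (γ : SL(2, ℤ)),
      B y = (γ : Matrix (Fin 2) (Fin 2) ℤ) * B y' → y = y') :
    heckeHom hℓN φ (Additive.ofMul h) = ∑ y, φ (Additive.ofMul (g' y)) := by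
  classical
  have hex : ∀ y, ∃ (x : OnePoint (ZMod ℓ)) (γ : SL(2, ℤ)), (N : ℤ) ∣ γ 1 0 ∧
      (B y).map (algebraMap ℤ ℝ) =
        ((mapGL ℝ γ : GL (Fin 2) ℝ) : Matrix (Fin 2) (Fin 2) ℝ) *
          ((heckeRep ℓ x : GL (Fin 2) ℝ) : Matrix (Fin 2) (Fin 2) ℝ) := by
    intro y
    have hd : B y 0 0 * B y 1 1 - B y 0 1 * B y 1 0 = ℓ := by
      rw [← Matrix.det_fin_two]; exact hdet y
    obtain ⟨x, γ, h1, h2⟩ := rtbb_exists_rep hℓN (B y 0 0) (B y 0 1) (B y 1 0) (B y 1 1) hd (hBN y)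
    refine ⟨x, γ, h1, ?_⟩
    rw [← h2, ← Matrix.eta_fin_two (B y)]
  choose π γ hγ hπ using hex
  have hπinj : Function.Injective π := by
    intro y y' hyy
    refine hinj y y' (γ y * (γ y')⁻¹) ?_
    apply Matrix.map_injective (algebraMap ℤ ℝ).injective_int
    beta_reduce
    rw [Matrix.map_mul, hπ y, hπ y', hyy, ← rtbb_mapGL_coe,
      map_mul, map_inv, ← mul_assoc]
    rw [← Units.val_mul, ← Units.val_mul, ← Units.val_mul, inv_mul_cancel_right]
  have hπbij : Function.Bijective π := Finite.injective_iff_bijective.mp hπinj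
  rw [heckeHom_apply]
  rw [← Equiv.sum_comp (Equiv.ofBijective π hπbij)
    (fun x => φ (Additive.ofMul (kap hℓN h x)))]
  refine Finset.sum_congr rfl fun y _ => ?_
  exact rtbb_kap_eq hℓN φ h (π y) (hh _) (B y) (γ y) (hγ y) (hπ y) (g' y) (hrel y)

end Fermat.Agent.RT.Base

end
end ZBRT_039_2

/-! ### bundled: `Fermat.Agent.RT.Base.BdFam` -/
section ZBRT_039_3

/-!
# BASE-BRIDGE, boundary (4): the representatives adapted to a parabolic element

`g = σ Tᵐ σ⁻¹`, `N ∣ σ₁₀ σ₁₁`.  The matrices `B_∞ = σ diag(ℓ, 1) σ⁻¹`,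
`B_j = σ [[1, j N], [0, ℓ]] σ⁻¹` (`j ∈ 𝔽_ℓ`) have determinant `ℓ` and lower left entry divisible
by `N`, are pairwise inequivalent modulo `SL(2, ℤ)`, and
`B_∞ g^ℓ = g^(ℓ²) B_∞`, `B_j g^ℓ = g B_j`.
-/

set_option autoImplicit false

noncomputable section

namespace Fermat.Agent.RT.Base

open Matrix Matrix.SpecialLinearGroup CongruenceSubgroup ModularForm OnePoint
open P2MW.S_ModularForm_heckeT_slash_eq_self_of_mem_Gamma0.ModularForm.HeckeSlashInvariance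
open Fermat.Agent.ES.HeckeP
open scoped MatrixGroups

/-- the upper triangular representatives `diag(ℓ, 1)`, `[[1, j N], [0, ℓ]]` -/
def rtbbA (ℓ N : ℕ) (y : OnePoint (ZMod ℓ)) : Matrix (Fin 2) (Fin 2) ℤ :=
  y.elim !![(ℓ : ℤ), 0; 0, 1] (fun j => !![1, (j.val : ℤ) * N; 0, (ℓ : ℤ)])

theorem rtbbA_infty (ℓ N : ℕ) : rtbbA ℓ N ∞ = !![(ℓ : ℤ), 0; 0, 1] := rfl

theorem rtbbA_coe (ℓ N : ℕ) (j : ZMod ℓ) :
    rtbbA ℓ N (j : OnePoint (ZMod ℓ)) = !![1, (j.val : ℤ) * N; 0, (ℓ : ℤ)] := rfl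

/-- the exponent of `g` attached to `y`: `g^(ℓ²)` for `∞`, `g` otherwise -/
def rtbbE (ℓ : ℕ) (y : OnePoint (ZMod ℓ)) : ℕ := y.elim (ℓ ^ 2) (fun _ => 1)

theorem rtbbE_infty (ℓ : ℕ) : rtbbE ℓ ∞ = ℓ ^ 2 := rfl

theorem rtbbE_coe (ℓ : ℕ) (j : ZMod ℓ) : rtbbE ℓ (j : OnePoint (ZMod ℓ)) = 1 := rfl

theorem rtbb_coe_inv_mul (σ : SL(2, ℤ)) :
    ((σ⁻¹ : SL(2, ℤ)) : Matrix (Fin 2) (Fin 2) ℤ) * (σ : Matrix (Fin 2) (Fin 2) ℤ) = 1 := by
  rw [← Matrix.SpecialLinearGroup.coe_mul, inv_mul_cancel, Matrix.SpecialLinearGroup.coe_one]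

theorem rtbb_coe_mul_inv (σ : SL(2, ℤ)) :
    (σ : Matrix (Fin 2) (Fin 2) ℤ) * ((σ⁻¹ : SL(2, ℤ)) : Matrix (Fin 2) (Fin 2) ℤ) = 1 := by
  rw [← Matrix.SpecialLinearGroup.coe_mul, mul_inv_cancel, Matrix.SpecialLinearGroup.coe_one]

/-- conjugation by `σ` of integer matrices -/
def rtbbC (σ : SL(2, ℤ)) (X : Matrix (Fin 2) (Fin 2) ℤ) : Matrix (Fin 2) (Fin 2) ℤ :=
  (σ : Matrix (Fin 2) (Fin 2) ℤ) * X * ((σ⁻¹ : SL(2, ℤ)) : Matrix (Fin 2) (Fin 2) ℤ)

theorem rtbbC_mul (σ : SL(2, ℤ)) (X Y : Matrix (Fin 2) (Fin 2) ℤ) :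
    rtbbC σ X * rtbbC σ Y = rtbbC σ (X * Y) := by
  unfold rtbbC
  calc (σ : Matrix (Fin 2) (Fin 2) ℤ) * X * ((σ⁻¹ : SL(2, ℤ)) : Matrix (Fin 2) (Fin 2) ℤ) *
        ((σ : Matrix (Fin 2) (Fin 2) ℤ) * Y * ((σ⁻¹ : SL(2, ℤ)) : Matrix (Fin 2) (Fin 2) ℤ))
      = (σ : Matrix (Fin 2) (Fin 2) ℤ) * X *
          (((σ⁻¹ : SL(2, ℤ)) : Matrix (Fin 2) (Fin 2) ℤ) * (σ : Matrix (Fin 2) (Fin 2) ℤ)) * Y *
            ((σ⁻¹ : SL(2, ℤ)) : Matrix (Fin 2) (Fin 2) ℤ) := by
        simp only [Matrix.mul_assoc]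
    _ = _ := by rw [rtbb_coe_inv_mul, Matrix.mul_one, Matrix.mul_assoc _ X Y]

theorem rtbbC_det (σ : SL(2, ℤ)) (X : Matrix (Fin 2) (Fin 2) ℤ) : (rtbbC σ X).det = X.det := by
  unfold rtbbC
  rw [Matrix.det_mul, Matrix.det_mul, σ.det_coe, (σ⁻¹).det_coe, one_mul, mul_one]

/-- the lower left entry of a conjugate of an upper triangular matrix -/
theorem rtbbC_entry (σ : SL(2, ℤ)) (p q s : ℤ) :
    rtbbC σ !![p, q; 0, s] 1 0 = σ 1 0 * σ 1 1 * (p - s) - σ 1 0 ^ 2 * q := by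
  unfold rtbbC
  simp only [Matrix.SpecialLinearGroup.coe_inv, Matrix.adjugate_fin_two, Matrix.mul_apply,
    Fin.sum_univ_two, Matrix.of_apply, Matrix.cons_val', Matrix.cons_val_zero,
    Matrix.cons_val_one, Matrix.empty_val', Matrix.cons_val_fin_one]
  ring

/-- the element of `SL(2, ℤ)` as a conjugate -/
theorem rtbb_coe_conj (σ : SL(2, ℤ)) (m : ℤ) (k : ℕ) (g : SL(2, ℤ))
    (hg : g = σ * ModularGroup.T ^ m * σ⁻¹) :
    ((g ^ k : SL(2, ℤ)) : Matrix (Fin 2) (Fin 2) ℤ) = rtbbC σ !![1, m * k; 0, 1] := by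
  have h1 : g ^ k = σ * ModularGroup.T ^ (m * k) * σ⁻¹ := by
    rw [hg, conj_pow, _root_.zpow_mul, zpow_natCast]
  rw [h1, Matrix.SpecialLinearGroup.coe_mul, Matrix.SpecialLinearGroup.coe_mul,
    ModularGroup.coe_T_zpow]
  rfl

variable {ℓ N : ℕ} [Fact ℓ.Prime]

omit [Fact ℓ.Prime] in
theorem rtbbA_det (y : OnePoint (ZMod ℓ)) : (rtbbA ℓ N y).det = ℓ := by
  induction y using OnePoint.rec with
  | infty => rw [rtbbA_infty, Matrix.det_fin_two_of]; ring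
  | coe j => rw [rtbbA_coe, Matrix.det_fin_two_of]; ring

omit [Fact ℓ.Prime] in
/-- `N` divides the lower left entry of `σ A_y σ⁻¹` -/
theorem rtbb_dvd_entry (σ : SL(2, ℤ)) (hσ : (N : ℤ) ∣ σ 1 0 * σ 1 1) (y : OnePoint (ZMod ℓ)) :
    (N : ℤ) ∣ rtbbC σ (rtbbA ℓ N y) 1 0 := by
  induction y using OnePoint.rec with
  | infty =>
    rw [rtbbA_infty, rtbbC_entry, mul_zero, sub_zero]
    exact Dvd.dvd.mul_right hσ _
  | coe j =>
    rw [rtbbA_coe, rtbbC_entry]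
    refine dvd_sub (Dvd.dvd.mul_right hσ _) ?_
    exact Dvd.dvd.mul_left (Dvd.intro_left _ rfl) _

omit [Fact ℓ.Prime] in
/-- the relations `A_y U^(mℓ) = U^(m e_y) A_y` -/
theorem rtbbA_rel (m : ℤ) (y : OnePoint (ZMod ℓ)) :
    rtbbA ℓ N y * !![1, m * (ℓ : ℕ); 0, 1] = !![1, m * (rtbbE ℓ y : ℕ); 0, 1] * rtbbA ℓ N y := by
  induction y using OnePoint.rec with
  | infty =>
    rw [rtbbA_infty, rtbbE_infty]
    ext i j
    fin_cases i <;> fin_cases j <;> simp [Matrix.mul_apply, Fin.sum_univ_two] <;> ring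
  | coe j =>
    rw [rtbbA_coe, rtbbE_coe]
    ext i k
    fin_cases i <;> fin_cases k <;> simp [Matrix.mul_apply, Fin.sum_univ_two, -ZMod.natCast_val]
      <;> ring

/-- the representatives are pairwise inequivalent modulo `SL(2, ℤ)` -/
theorem rtbbA_inj (hℓN : ¬ ℓ ∣ N) (y y' : OnePoint (ZMod ℓ)) (γ : SL(2, ℤ))
    (h : rtbbA ℓ N y = (γ : Matrix (Fin 2) (Fin 2) ℤ) * rtbbA ℓ N y') : y = y' := by
  have hℓ : (ℓ : ℕ).Prime := Fact.out
  have hℓ1 : ¬ (ℓ : ℤ) ∣ 1 := by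
    intro h1
    have := Int.natCast_dvd_natCast.mp (by simpa using h1 : ((ℓ : ℕ) : ℤ) ∣ ((1 : ℕ) : ℤ))
    exact hℓ.one_lt.ne' (Nat.dvd_one.mp this)
  induction y using OnePoint.rec with
  | infty =>
    induction y' using OnePoint.rec with
    | infty => rfl
    | coe j' =>
      exfalso
      rw [rtbbA_infty, rtbbA_coe] at h
      have h10 := congrFun (congrFun h 1) 0
      have h11 := congrFun (congrFun h 1) 1
      simp [Matrix.mul_apply, Fin.sum_univ_two, -ZMod.natCast_val] at h10 h11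
      rw [← h10] at h11
      exact hℓ1 ⟨γ 1 1, by linear_combination h11⟩
  | coe j =>
    induction y' using OnePoint.rec with
    | infty =>
      exfalso
      rw [rtbbA_infty, rtbbA_coe] at h
      have h00 := congrFun (congrFun h 0) 0
      simp [Matrix.mul_apply, Fin.sum_univ_two, -ZMod.natCast_val] at h00
      exact hℓ1 ⟨γ 0 0, by linear_combination h00⟩
    | coe j' =>
      rw [rtbbA_coe, rtbbA_coe] at h
      have h00 := congrFun (congrFun h 0) 0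
      have h01 := congrFun (congrFun h 0) 1
      simp [Matrix.mul_apply, Fin.sum_univ_two, -ZMod.natCast_val] at h00 h01
      rw [← h00] at h01
      have hdvd : (ℓ : ℤ) ∣ ((j.val : ℤ) - (j'.val : ℤ)) * N := ⟨γ 0 1, by linear_combination h01⟩
      have hcop : IsCoprime (ℓ : ℤ) (N : ℤ) :=
        Nat.isCoprime_iff_coprime.mpr ((Nat.Prime.coprime_iff_not_dvd hℓ).mpr hℓN)
      have hdvd' : (ℓ : ℤ) ∣ (j.val : ℤ) - (j'.val : ℤ) := hcop.dvd_of_dvd_mul_right hdvd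
      have := (ZMod.intCast_zmod_eq_zero_iff_dvd _ _).mpr hdvd'
      push_cast at this
      rw [ZMod.natCast_zmod_val, ZMod.natCast_zmod_val, sub_eq_zero] at this
      rw [this]

end Fermat.Agent.RT.Base

end
end ZBRT_039_3

/-! ### bundled: `Fermat.Agent.RT.K5.ParHBd` -/
section ZBRT_039_4

/-!
# RT-K5, PARH (3): the boundary of `Y_H(L)` is Eisenstein up to diamonds

`L` squarefree, `ℓ ∤ L` prime, `g ∈ Γ_H(L)` of trace `2`: there are `u, v ∈ (ℤ/M)ˣ` such that for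
all coefficients `A` without `ℓ`-torsion and all `φ ∈ Hom(Γ_H(L), A)`
`(T_ℓ φ)(g) = ℓ (⟨u⟩ φ)(g) + (⟨v⟩ φ)(g)`    (`k5ph_boundary`).
-/

set_option autoImplicit false
set_option linter.style.haveILetI false
set_option linter.unusedSectionVars false
set_option linter.unusedVariables false

noncomputable section

namespace Fermat.Agent.RT.K5

open CongruenceSubgroup Matrix OnePoint
open scoped MatrixGroups
open Fermat.Agent.ES1 (gammaH diamHom pmH)
open Fermat.Agent.RT.Base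

/-- the upper left entry of a conjugate of an upper triangular matrix -/
theorem k5ph_C00 (σ : SL(2, ℤ)) (p q s : ℤ) :
    rtbbC σ !![p, q; 0, s] 0 0
      = p * (σ 0 0 * σ 1 1) - q * (σ 0 0 * σ 1 0) - s * (σ 0 1 * σ 1 0) := by
  unfold rtbbC
  simp only [Matrix.SpecialLinearGroup.coe_inv, Matrix.adjugate_fin_two, Matrix.mul_apply,
    Fin.sum_univ_two, Matrix.of_apply, Matrix.cons_val', Matrix.cons_val_zero,
    Matrix.cons_val_one, Matrix.empty_val', Matrix.cons_val_fin_one]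
  ring

/-- the upper left entry of a matrix of determinant `ℓ` with `M ∣ c` is a unit modulo `M` -/
theorem k5ph_unit {M ℓ : ℕ} (hc : Nat.Coprime ℓ M) (B : Matrix (Fin 2) (Fin 2) ℤ)
    (hdet : B.det = ℓ) (hBM : (M : ℤ) ∣ B 1 0) :
    ∃ u : (ZMod M)ˣ, ((u : (ZMod M)ˣ) : ZMod M) = ((B 0 0 : ℤ) : ZMod M) := by
  have h10 : ((B 1 0 : ℤ) : ZMod M) = 0 := (ZMod.intCast_zmod_eq_zero_iff_dvd _ _).mpr hBM
  have hd : B 0 0 * B 1 1 - B 0 1 * B 1 0 = ℓ := by rw [← hdet, Matrix.det_fin_two]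
  have hd' := congrArg (Int.cast : ℤ → ZMod M) hd
  push_cast at hd'
  rw [h10, mul_zero, sub_zero] at hd'
  have hu : IsUnit ((ℓ : ℕ) : ZMod M) := (ZMod.unitOfCoprime ℓ hc).isUnit
  have h1 : IsUnit (((B 0 0 : ℤ) : ZMod M) * ((B 1 1 : ℤ) : ZMod M)) := by rw [hd']; exact hu
  obtain ⟨u, hu'⟩ := isUnit_of_mul_isUnit_left h1
  exact ⟨u, hu'⟩

section

variable (L M ℓ : ℕ) [NeZero L] [NeZero ℓ] [hML : Fact (M ∣ L)] (H : Subgroup (ZMod M)ˣ)

/-- **the boundary formula**, trace `2` -/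
theorem k5ph_boundary (hL : Squarefree L) (hℓ : ℓ.Prime) (hℓL : ¬ ℓ ∣ L) (g : gammaH L M H)
    (hg : (g : SL(2, ℤ)) 0 0 + (g : SL(2, ℤ)) 1 1 = 2) :
    ∃ u v : (ZMod M)ˣ, ∀ (A : Type) [AddCommGroup A], (∀ a : A, ℓ • a = 0 → a = 0) →
      ∀ φ : HomS (gammaH L M H) A,
        tS L M ℓ H A φ (Additive.ofMul g)
          = ℓ • diamU L M H A u φ (Additive.ofMul g) + diamU L M H A v φ (Additive.ofMul g) := by
  classical
  haveI : Fact ℓ.Prime := ⟨hℓ⟩
  have hcop : Nat.Coprime ℓ M :=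
    Nat.Coprime.coprime_dvd_right hML.out ((Nat.Prime.coprime_iff_not_dvd hℓ).mpr hℓL)
  obtain ⟨σ, m, hgσ, hσL⟩ := rtbb_exists_conj hL (g : SL(2, ℤ)) hg
  have hcoe : ∀ k : ℕ, (((g ^ k : gammaH L M H) : SL(2, ℤ)) : Matrix (Fin 2) (Fin 2) ℤ) =
      rtbbC σ !![1, m * k; 0, 1] := by
    intro k
    rw [Subgroup.coe_pow]
    exact rtbb_coe_conj σ m k _ hgσ
  have hBM : ∀ y : OnePoint (ZMod ℓ), (M : ℤ) ∣ rtbbC σ (rtbbA ℓ L y) 1 0 := fun y =>
    (Int.natCast_dvd_natCast.mpr hML.out).trans (rtbb_dvd_entry σ hσL y)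
  have hdet : ∀ y : OnePoint (ZMod ℓ), (rtbbC σ (rtbbA ℓ L y)).det = ℓ := fun y => by
    rw [rtbbC_det, rtbbA_det]
  choose u hu using fun y : OnePoint (ZMod ℓ) =>
    k5ph_unit hcop (rtbbC σ (rtbbA ℓ L y)) (hdet y) (hBM y)
  -- the `u (j)` do not depend on `j`
  have huj : ∀ j : ZMod ℓ, u (j : OnePoint (ZMod ℓ)) = u ((0 : ZMod ℓ) : OnePoint (ZMod ℓ)) := by
    intro j
    apply Units.ext
    rw [hu, hu, rtbbA_coe, rtbbA_coe, k5ph_C00, k5ph_C00]
    have hLM : (((L : ℕ) : ℤ) : ZMod M) = 0 := by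
      rw [ZMod.intCast_zmod_eq_zero_iff_dvd]
      exact Int.natCast_dvd_natCast.mpr hML.out
    push_cast
    simp only [Int.cast_natCast] at hLM
    rw [hLM]
    simp
  refine ⟨u ∞, u ((0 : ZMod ℓ) : OnePoint (ZMod ℓ)), ?_⟩
  intro A _ hA φ
  have hcard : Fintype.card (OnePoint (ZMod ℓ)) = ℓ + 1 := by
    show Fintype.card (Option (ZMod ℓ)) = ℓ + 1
    rw [Fintype.card_option, ZMod.card]
  have hsum := k5ph_sum L M ℓ H A hℓ hℓL φ (g ^ ℓ) hcard
    (fun y => rtbbC σ (rtbbA ℓ L y)) hdet (fun y => rtbb_dvd_entry σ hσL y)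
    (fun y y' γ h => by
      refine rtbbA_inj hℓL y y' (σ⁻¹ * γ * σ) ?_
      have h1 : rtbbA ℓ L y = ((σ⁻¹ : SL(2, ℤ)) : Matrix (Fin 2) (Fin 2) ℤ) *
          rtbbC σ (rtbbA ℓ L y) * (σ : Matrix (Fin 2) (Fin 2) ℤ) := by
        unfold rtbbC
        rw [← Matrix.mul_assoc, ← Matrix.mul_assoc, rtbb_coe_inv_mul, Matrix.one_mul,
          Matrix.mul_assoc, rtbb_coe_inv_mul, Matrix.mul_one]
      rw [h1, h]
      unfold rtbbC
      rw [Matrix.SpecialLinearGroup.coe_mul, Matrix.SpecialLinearGroup.coe_mul]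
      simp only [Matrix.mul_assoc]
      rw [rtbb_coe_inv_mul, Matrix.mul_one])
    (fun y => g ^ (rtbbE ℓ y))
    (fun y => by rw [hcoe, hcoe, rtbbC_mul, rtbbC_mul, rtbbA_rel])
    u hu
  have hLHS : tS L M ℓ H A φ (Additive.ofMul (g ^ ℓ))
      = ℓ • tS L M ℓ H A φ (Additive.ofMul g) := by
    rw [ofMul_pow, map_nsmul]
  have hRHS : ∑ y : OnePoint (ZMod ℓ),
      diamU L M H A (u y) φ (Additive.ofMul (g ^ (rtbbE ℓ y)))
      = ℓ • (ℓ • diamU L M H A (u ∞) φ (Additive.ofMul g)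
          + diamU L M H A (u ((0 : ZMod ℓ) : OnePoint (ZMod ℓ))) φ (Additive.ofMul g)) := by
    have h1 := Fintype.sum_option (fun y : OnePoint (ZMod ℓ) =>
      diamU L M H A (u y) φ (Additive.ofMul (g ^ (rtbbE ℓ y))))
    refine h1.trans ?_
    have h2 : ∀ j : ZMod ℓ, diamU L M H A (u (Option.some j)) φ
        (Additive.ofMul (g ^ (rtbbE ℓ (Option.some j))))
        = diamU L M H A (u ((0 : ZMod ℓ) : OnePoint (ZMod ℓ))) φ (Additive.ofMul g) := by
      intro j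
      have e : u (Option.some j) = u ((0 : ZMod ℓ) : OnePoint (ZMod ℓ)) := huj j
      rw [e]
      show diamU L M H A _ φ (Additive.ofMul (g ^ 1)) = _
      rw [pow_one]
    have h3 : diamU L M H A (u (none : Option (ZMod ℓ))) φ
        (Additive.ofMul (g ^ (rtbbE ℓ (none : Option (ZMod ℓ)))))
        = (ℓ ^ 2) • diamU L M H A (u ∞) φ (Additive.ofMul g) := by
      show diamU L M H A (u ∞) φ (Additive.ofMul (g ^ (ℓ ^ 2))) = _
      rw [ofMul_pow, map_nsmul]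
    rw [h3, Finset.sum_congr rfl (fun j _ => h2 j), Finset.sum_const, Finset.card_univ,
      ZMod.card, nsmul_add, ← mul_nsmul, pow_two]
  rw [hLHS, hRHS] at hsum
  have h0 : ℓ • (tS L M ℓ H A φ (Additive.ofMul g)
      - (ℓ • diamU L M H A (u ∞) φ (Additive.ofMul g)
          + diamU L M H A (u ((0 : ZMod ℓ) : OnePoint (ZMod ℓ))) φ (Additive.ofMul g))) = 0 := by
    rw [nsmul_sub, hsum, sub_self]
  exact sub_eq_zero.mp (hA _ h0)

end

end Fermat.Agent.RT.K5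

end
end ZBRT_039_4

/-! ### bundled: `Fermat.Agent.RT.K5.ParH` -/
section ZBRT_039_5

/-!
# RT-K5, PARH (4): `stmtParH : StmtParH`, `stmtParO : StmtParO`

The `η`-part of `Hom(Γ_H(L), A)` consists of parabolic homomorphisms (`L` squarefree,
`(ℤ/M)ˣ/±H` a `p`-group, `pⁿ A = 0` resp. `⋂ pⁿ A = 0`, `p ≠ 2`, `ℓ₀ ≠ p`).
-/

set_option autoImplicit false
set_option linter.style.haveILetI false
set_option linter.unusedSectionVars false
set_option linter.unusedVariables false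

noncomputable section

namespace Fermat.Agent.RT.K5

open CongruenceSubgroup Matrix ModularCurve.Period
open scoped MatrixGroups
open Fermat.Agent.ES1 (gammaH diamHom pmH)

/-! ## unipotent operators -/

/-- in `ℤ[X]`: `(X − 1)^(p^k) = X^(p^k) − 1 + p Q` -/
theorem k5ph_poly (p : ℕ) [Fact p.Prime] (k : ℕ) :
    ∃ Q : Polynomial ℤ, (Polynomial.X - 1 : Polynomial ℤ) ^ p ^ k
      = Polynomial.X ^ p ^ k - 1 + Polynomial.C (p : ℤ) * Q := by
  have h : Polynomial.C (p : ℤ) ∣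
      (Polynomial.X - 1 : Polynomial ℤ) ^ p ^ k - (Polynomial.X ^ p ^ k - 1) := by
    rw [Polynomial.C_dvd_iff_dvd_coeff]
    intro i
    rw [← ZMod.intCast_zmod_eq_zero_iff_dvd]
    have h1 : (((Polynomial.X - 1 : Polynomial ℤ) ^ p ^ k - (Polynomial.X ^ p ^ k - 1)).map
        (Int.castRingHom (ZMod p))) = 0 := by
      simp only [Polynomial.map_sub, Polynomial.map_pow, Polynomial.map_X, Polynomial.map_one]
      rw [sub_pow_char_pow, one_pow, sub_self]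
    have h2 : (Int.castRingHom (ZMod p))
        (((Polynomial.X - 1 : Polynomial ℤ) ^ p ^ k - (Polynomial.X ^ p ^ k - 1)).coeff i)
        = 0 := by
      rw [← Polynomial.coeff_map, h1, Polynomial.coeff_zero]
    exact h2
  obtain ⟨Q, hQ⟩ := h
  exact ⟨Q, by rw [← hQ]; ring⟩

/-- an element `x` of a ring with `pⁿ = 0` and `x^(p^k) = 1` is unipotent -/
theorem k5ph_unipotent {R : Type*} [Ring R] (p : ℕ) [Fact p.Prime] (n k : ℕ)
    (hp : ((p ^ n : ℕ) : R) = 0) (x : R) (hx : x ^ p ^ k = 1) : IsNilpotent (x - 1) := by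
  obtain ⟨Q, hQ⟩ := k5ph_poly p k
  have h1 := congrArg (Polynomial.aeval x) hQ
  simp only [map_pow, map_sub, Polynomial.aeval_X, map_one, map_add, map_mul,
    Polynomial.aeval_C, hx, sub_self, zero_add] at h1
  refine ⟨p ^ k * n, ?_⟩
  rw [pow_mul, h1]
  have hc : Commute (algebraMap ℤ R (p : ℤ)) (Polynomial.aeval x Q) :=
    Algebra.commutes _ _
  rw [hc.mul_pow]
  have h2 : (algebraMap ℤ R (p : ℤ)) ^ n = 0 := by
    rw [← map_pow]
    have : ((p : ℤ) ^ n) = ((p ^ n : ℕ) : ℤ) := by push_cast; rfl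
    rw [this, eq_intCast, Int.cast_natCast]
    exact hp
  rw [h2, zero_mul]

/-! ## the main theorems -/

section

variable (L M ℓ : ℕ) [NeZero L] [NeZero ℓ] [hML : Fact (M ∣ L)] (H : Subgroup (ZMod M)ˣ)
  (A : Type) [AddCommGroup A]

/-- `η` as an element of the ring `End(Hom(Γ_H, A))` -/
def k5phEta : AddMonoid.End (HomS (gammaH L M H) A) := etaS L M ℓ H A

theorem k5ph_eta_comm (u : (ZMod M)ˣ) :
    Commute (diamU L M H A u) (k5phEta L M ℓ H A) := by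
  refine AddMonoidHom.ext fun ψ => ?_
  exact k5act_etaS L M H A ℓ u ψ

/-- trace `2`: the value of `ηᵐ φ` at `g` is the value of `Eᵐ φ`,
`E = ℓ (⟨u⟩ − 1) + (⟨v⟩ − 1)` -/
theorem k5ph_iter (u v : (ZMod M)ˣ) (g : gammaH L M H)
    (hform : ∀ φ : HomS (gammaH L M H) A,
        tS L M ℓ H A φ (Additive.ofMul g)
          = ℓ • diamU L M H A u φ (Additive.ofMul g) + diamU L M H A v φ (Additive.ofMul g))
    (m : ℕ) (φ : HomS (gammaH L M H) A) :
    ((k5phEta L M ℓ H A) ^ m) φ (Additive.ofMul g)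
      = ((ℓ • (diamU L M H A u - 1) + (diamU L M H A v - 1) :
          AddMonoid.End (HomS (gammaH L M H) A)) ^ m) φ (Additive.ofMul g) := by
  set E : AddMonoid.End (HomS (gammaH L M H) A) :=
    ℓ • (diamU L M H A u - 1) + (diamU L M H A v - 1) with hE
  have h1 : ∀ ψ : HomS (gammaH L M H) A,
      (k5phEta L M ℓ H A) ψ (Additive.ofMul g) = E ψ (Additive.ofMul g) := by
    intro ψ
    show (tS L M ℓ H A ψ - (ℓ + 1) • ψ) (Additive.ofMul g)
      = (ℓ • (diamU L M H A u ψ - ψ) + (diamU L M H A v ψ - ψ)) (Additive.ofMul g)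
    simp only [AddMonoidHom.sub_apply, AddMonoidHom.add_apply, AddMonoidHom.nsmul_apply]
    rw [hform ψ, add_nsmul, one_nsmul, nsmul_sub]
    abel
  have hcomm : Commute E (k5phEta L M ℓ H A) := by
    rw [hE]
    refine Commute.add_left ?_ ?_
    · exact Commute.smul_left (((k5ph_eta_comm L M ℓ H A u).sub_left (Commute.one_left _))) _
    · exact (k5ph_eta_comm L M ℓ H A v).sub_left (Commute.one_left _)
  induction m generalizing φ with
  | zero => rfl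
  | succ m ih =>
    have e1 : ((k5phEta L M ℓ H A) ^ (m + 1)) φ
        = ((k5phEta L M ℓ H A) ^ m) ((k5phEta L M ℓ H A) φ) := by
      rw [pow_succ]; rfl
    have e2 : (E ^ m) ((k5phEta L M ℓ H A) φ) = (k5phEta L M ℓ H A) ((E ^ m) φ) := by
      have := (hcomm.pow_left m).eq
      exact congrArg (fun T : AddMonoid.End (HomS (gammaH L M H) A) => T φ) this
    have e3 : (E ^ (m + 1)) φ = E ((E ^ m) φ) := by
      rw [pow_succ']; rfl
    rw [e1, ih, e2, h1, e3]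

end

/-- `2` and `ℓ₀` act injectively on a group killed by `pⁿ` -/
theorem k5ph_inj_of_coprime {A : Type} [AddCommGroup A] (N c : ℕ) (hc : Nat.Coprime c N)
    (hA : ∀ a : A, N • a = 0) (a : A) (h : c • a = 0) : a = 0 := by
  have h1 : ((Nat.gcd c N : ℕ) : ℤ) • a = 0 := by
    rw [Nat.gcd_eq_gcd_ab, add_smul, mul_comm, mul_smul, mul_comm, mul_smul]
    rw [natCast_zsmul, natCast_zsmul, h, hA a, smul_zero, smul_zero, add_zero]
  rw [hc] at h1
  simpa using h1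

/-- **K5-PARH** -/
theorem stmtParH : StmtParH := by
  intro p _ L M ℓ₀ _ _ hML H A _ n k hL hℓ₀ hℓ₀L hp2 hℓ₀p hpA hexp φ hφ
  have hp : p.Prime := Fact.out
  have hcopℓ : Nat.Coprime ℓ₀ (p ^ n) :=
    Nat.Coprime.pow_right n ((Nat.coprime_primes hℓ₀ hp).mpr hℓ₀p)
  have hcop2 : Nat.Coprime 2 (p ^ n) :=
    Nat.Coprime.pow_right n ((Nat.coprime_primes Nat.prime_two hp).mpr (Ne.symm hp2))
  have hAℓ : ∀ a : A, ℓ₀ • a = 0 → a = 0 := fun a => k5ph_inj_of_coprime (p ^ n) ℓ₀ hcopℓ hpA a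
  have hA2 : ∀ a : A, 2 • a = 0 → a = 0 := fun a => k5ph_inj_of_coprime (p ^ n) 2 hcop2 hpA a
  -- the ring of endomorphisms has `pⁿ = 0`
  have hpR : ((p ^ n : ℕ) : AddMonoid.End (HomS (gammaH L M H) A)) = 0 := by
    refine AddMonoidHom.ext fun ψ => ?_
    refine AddMonoidHom.ext fun x => ?_
    show ((p ^ n : ℕ) : AddMonoid.End (HomS (gammaH L M H) A)) ψ x = 0
    rw [AddMonoid.End.natCast_apply]
    show (p ^ n) • ψ x = 0
    exact hpA _
  have hnil : ∀ u : (ZMod M)ˣ, IsNilpotent (diamU L M H A u - 1) := by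
    intro u
    refine k5ph_unipotent p n k hpR _ ?_
    rw [← map_pow]
    exact k5act_diamU_of_mem L M H A (hexp u)
  -- trace `2`
  have htwo : ∀ g : gammaH L M H, (g : SL(2, ℤ)) 0 0 + (g : SL(2, ℤ)) 1 1 = 2 →
      φ (Additive.ofMul g) = 0 := by
    intro g hg
    obtain ⟨u, v, hform⟩ := k5ph_boundary L M ℓ₀ H hL hℓ₀ hℓ₀L g hg
    have hE : IsNilpotent (ℓ₀ • (diamU L M H A u - 1) + (diamU L M H A v - 1) :
        AddMonoid.End (HomS (gammaH L M H) A)) := by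
      have hc : Commute (diamU L M H A u - 1) (diamU L M H A v - 1) := by
        have h1 : Commute (diamU L M H A u) (diamU L M H A v) := by
          show diamU L M H A u * diamU L M H A v = diamU L M H A v * diamU L M H A u
          rw [← map_mul, ← map_mul, mul_comm]
        exact (h1.sub_left (Commute.one_left _)).sub_right (Commute.one_right _)
      refine Commute.isNilpotent_add (Commute.smul_left hc _) ?_ (hnil v)
      obtain ⟨e, he⟩ := hnil u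
      exact ⟨e, by rw [smul_pow, he]; exact smul_zero _⟩
    obtain ⟨m, hm⟩ := hE
    have hφm : φ ∈ AddMonoidHom.range
        (((show AddMonoid.End (HomS (gammaH L M H) A) from etaS L M ℓ₀ H A) ^ m :
          AddMonoid.End (HomS (gammaH L M H) A)) :
          HomS (gammaH L M H) A →+ HomS (gammaH L M H) A) :=
      (AddSubgroup.mem_iInf.mp hφ) m
    obtain ⟨ψ, hψ⟩ := hφm
    rw [← hψ]
    have := k5ph_iter L M ℓ₀ H A u v g (hform A hAℓ) m ψ
    rw [hm] at this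
    exact this
  -- the general case
  intro γ hγ
  have hdet : (γ : SL(2, ℤ)) 0 0 * (γ : SL(2, ℤ)) 1 1 - (γ : SL(2, ℤ)) 0 1 * (γ : SL(2, ℤ)) 1 0
      = 1 := by
    have h := (γ : SL(2, ℤ)).det_coe
    rwa [Matrix.det_fin_two] at h
  rw [Matrix.trace_fin_two] at hγ
  have hg2 : ((γ ^ 2 : gammaH L M H) : SL(2, ℤ)) 0 0 + ((γ ^ 2 : gammaH L M H) : SL(2, ℤ)) 1 1
      = 2 := by
    rw [Subgroup.coe_pow, pow_two]
    simp only [Matrix.SpecialLinearGroup.coe_mul, Matrix.mul_apply, Fin.sum_univ_two]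
    linear_combination hγ - 2 * hdet
  have h2 := htwo (γ ^ 2) hg2
  rw [ofMul_pow, map_nsmul] at h2
  exact hA2 _ h2

/-- change of coefficients maps the `η`-part into the `η`-part -/
theorem k5ph_mapS_etaPart (L M ℓ : ℕ) [NeZero L] [NeZero ℓ] [hML : Fact (M ∣ L)]
    (H : Subgroup (ZMod M)ˣ) {A B : Type} [AddCommGroup A] [AddCommGroup B] (f : A →+ B)
    (φ : HomS (gammaH L M H) A) (hφ : φ ∈ etaPart (etaS L M ℓ H A)) :
    mapS f φ ∈ etaPart (etaS L M ℓ H B) := by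
  have hpow : ∀ (m : ℕ) (ψ : HomS (gammaH L M H) A),
      mapS f (((show AddMonoid.End (HomS (gammaH L M H) A) from etaS L M ℓ H A) ^ m) ψ)
        = ((show AddMonoid.End (HomS (gammaH L M H) B) from etaS L M ℓ H B) ^ m) (mapS f ψ) := by
    intro m
    induction m with
    | zero => intro ψ; rfl
    | succ m ih =>
      intro ψ
      rw [pow_succ, pow_succ]
      show mapS f (((show AddMonoid.End (HomS (gammaH L M H) A) from etaS L M ℓ H A) ^ m)
          (etaS L M ℓ H A ψ))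
        = ((show AddMonoid.End (HomS (gammaH L M H) B) from etaS L M ℓ H B) ^ m)
          (etaS L M ℓ H B (mapS f ψ))
      rw [ih, k5nat_etaS]
  refine AddSubgroup.mem_iInf.mpr fun m => ?_
  obtain ⟨ψ, hψ⟩ := (AddSubgroup.mem_iInf.mp hφ) m
  refine ⟨mapS f ψ, ?_⟩
  rw [← hψ]
  exact (hpow m ψ).symm

/-- **K5-PARH over `𝒪`** -/
theorem stmtParO : StmtParO := by
  intro p _ L M ℓ₀ _ _ hML H A _ k hL hℓ₀ hℓ₀L hp2 hℓ₀p hsep hexp φ hφ γ hγ
  apply hsep
  intro n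
  -- reduce modulo `pⁿ`
  let I : AddSubgroup A := AddMonoidHom.range (nsmulAddMonoidHom (α := A) (p ^ n))
  let f : A →+ A ⧸ I := QuotientAddGroup.mk' I
  have hkill : ∀ b : A ⧸ I, p ^ n • b = 0 := by
    intro b
    obtain ⟨a, rfl⟩ := QuotientAddGroup.mk_surjective b
    have : ((p ^ n • a : A) : A ⧸ I) = 0 := by
      rw [QuotientAddGroup.eq_zero_iff]
      exact ⟨a, rfl⟩
    exact this
  have h1 := stmtParH p L M ℓ₀ H (A ⧸ I) n k hL hℓ₀ hℓ₀L hp2 hℓ₀p hkill hexp (mapS f φ)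
    (k5ph_mapS_etaPart L M ℓ₀ H f φ hφ) γ hγ
  have h2 : (φ (Additive.ofMul γ) : A ⧸ I) = 0 := h1
  rw [QuotientAddGroup.eq_zero_iff] at h2
  obtain ⟨b, hb⟩ := h2
  exact ⟨b, hb.symm⟩

end Fermat.Agent.RT.K5

end
end ZBRT_039_5

/-! ### bundled: `Fermat.Agent.RT.Hecke.ConcResidAlg` -/
section ZBRT_039_6

/-!
# K-machine, HECKE-asm, HK-CONC: the field `resid` at the top level, by algebra

`X` free over `C[Δ]` with basis `b` (`RthkmFree C D b`), `Δ` a finite commutative `p`-group,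
`p` nilpotent in `C`.  An operator `𝔱` of the commutant of `C` and `Δ` whose matrix on the
coinvariants (`rthkmMat h 1 𝔱`) has nilpotent entries is nilpotent:

* `rthkra_ev_univ` : the coordinates for the universal character `δ ↦ [δ] ∈ C[Δ]` are the
  coefficients; `rthkra_eq_zero_of_ev` : they determine the element;
* `rthkra_aug_sub_mem` : `x − aug x ∈ nilradical C[Δ]`;
* `rthkra_pow_mem` : the entries of `Bᴷ` are in `Jᴷ` if those of `B` are in `J`;
* **`rthkra_nilpotent`** : the statement above;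
* **`rthkra_resid_top`** : on the `Θ`-part of `Hom(Γ_{H'}(L), 𝒪 ⧸ 𝔪 ^ ν)`: if the matrix of
  `t` on the coinvariants is `A₀` and a power of `A₀ − c` has its entries in `𝔪`, then a power of
  `es1infHomEval t − c` vanishes on the `Θ`-part;
* **`rthkra_resid_field`** : the field `resid` of `HkConcSide` from the fields `stable`,
  `free`, `base` and the residual statement at the base (`HkBase.resid`).
-/

set_option autoImplicit false
set_option linter.unusedSectionVars false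
set_option linter.style.haveILetI false

noncomputable section

namespace Fermat.Agent.RT

open IsLocalRing Fermat.Agent.ES Fermat.Agent.S30 Fermat.Agent.W1 Fermat.Agent.TW
open Fermat.Agent.ES1 Fermat.Agent.RT.K5
open scoped MatrixGroups

/-! ### The universal character -/

section abs

variable {C : Type*} [CommRing C] {Δ : Type*} [CommGroup Δ] [Fintype Δ] {X : Type*}
  [AddCommGroup X] [Module C X] {D : Δ →* AddMonoid.End X} {r : ℕ} {b : Fin r → X}

/-- the coordinates for the universal character are the coefficients -/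
theorem rthkra_ev_univ (h : RthkmFree C D b) (ψ : X) (i : Fin r) (δ₀ : Δ) :
    (rthkmEv h (MonoidAlgebra.of C Δ) ψ i).coeff δ₀ = rthkmCoef h ψ (i, δ₀) := by
  classical
  simp only [rthkmEv]
  rw [MonoidAlgebra.coeff_sum, Finsupp.finsetSum_apply, Finset.sum_eq_single δ₀]
  · rw [← MonoidAlgebra.single_eq_algebraMap_mul_of, MonoidAlgebra.coeff_single_apply,
      if_pos rfl]
  · intro δ _ hδ
    rw [← MonoidAlgebra.single_eq_algebraMap_mul_of, MonoidAlgebra.coeff_single_apply,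
      if_neg hδ]
  · intro h0
    exact absurd (Finset.mem_univ _) h0

/-- the universal coordinates determine the element -/
theorem rthkra_eq_zero_of_ev (h : RthkmFree C D b) (ψ : X)
    (h0 : rthkmEv h (MonoidAlgebra.of C Δ) ψ = 0) : ψ = 0 := by
  rw [rthk_m_expand h ψ]
  refine Finset.sum_eq_zero fun x _ => ?_
  have h1 : rthkmCoef h ψ x = 0 := by
    have h2 := rthkra_ev_univ h ψ x.1 x.2
    rw [h0] at h2
    exact h2.symm
  rw [h1, zero_smul]

/-- the augmentation -/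
def rthkraAug (C : Type*) [CommRing C] (Δ : Type*) [CommGroup Δ] : MonoidAlgebra C Δ →ₐ[C] C :=
  MonoidAlgebra.lift C C Δ (1 : Δ →* C)

theorem rthkraAug_of (δ : Δ) : rthkraAug C Δ (MonoidAlgebra.of C Δ δ) = 1 := by
  rw [rthkraAug, MonoidAlgebra.lift_of]
  rfl

/-- `x − aug x` is nilpotent in `C[Δ]`, `Δ` a `p`-group, `p` nilpotent in `C` -/
theorem rthkra_aug_sub_mem (p : ℕ) [Fact p.Prime] (n k : ℕ) (hp : ((p ^ n : ℕ) : C) = 0)
    (hΔ : ∀ δ : Δ, δ ^ p ^ k = 1) (x : MonoidAlgebra C Δ) :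
    x - algebraMap C (MonoidAlgebra C Δ) (rthkraAug C Δ x) ∈ nilradical (MonoidAlgebra C Δ) := by
  have hp' : ((p ^ n : ℕ) : MonoidAlgebra C Δ) = 0 := by
    rw [← map_natCast (algebraMap C (MonoidAlgebra C Δ)), hp, map_zero]
  induction x using MonoidAlgebra.induction_on with
  | of δ =>
    rw [rthkraAug_of, map_one, mem_nilradical]
    refine k5ph_unipotent p n k hp' _ ?_
    rw [← map_pow, hΔ, map_one]
  | add x y hx hy =>
    have e : x + y - algebraMap C (MonoidAlgebra C Δ) (rthkraAug C Δ (x + y))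
        = (x - algebraMap C (MonoidAlgebra C Δ) (rthkraAug C Δ x))
          + (y - algebraMap C (MonoidAlgebra C Δ) (rthkraAug C Δ y)) := by
      rw [map_add, map_add]
      abel
    rw [e]
    exact Ideal.add_mem _ hx hy
  | smul c x hx =>
    have e : c • x - algebraMap C (MonoidAlgebra C Δ) (rthkraAug C Δ (c • x))
        = algebraMap C (MonoidAlgebra C Δ) c
          * (x - algebraMap C (MonoidAlgebra C Δ) (rthkraAug C Δ x)) := by
      rw [map_smul, smul_eq_mul, map_mul, Algebra.smul_def]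
      ring
    rw [e]
    exact Ideal.mul_mem_left _ _ hx

/-- the entries of `Bᴷ` are in `Jᴷ` -/
theorem rthkra_pow_mem {S : Type*} [CommRing S] (J : Ideal S) (B : Matrix (Fin r) (Fin r) S)
    (hB : ∀ i j, B i j ∈ J) : ∀ (K : ℕ) (i j : Fin r), (B ^ K) i j ∈ J ^ K
  | 0, _, _ => by
    rw [pow_zero, Ideal.one_eq_top]
    exact Submodule.mem_top
  | K + 1, i, j => by
    have e1 : B ^ (K + 1) = B ^ K * B := pow_succ B K
    have e2 : J ^ (K + 1) = J ^ K * J := pow_succ J K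
    rw [e1, e2, Matrix.mul_apply]
    exact Ideal.sum_mem _ fun l _ => Ideal.mul_mem_mul (rthkra_pow_mem J B hB K i l) (hB l j)

/-- **Nilpotency from the coinvariants.**  An operator of the commutant whose matrix on the
coinvariants has nilpotent entries is nilpotent. -/
theorem rthkra_nilpotent (h : RthkmFree C D b) {𝔱 : AddMonoid.End X}
    (h𝔱 : 𝔱 ∈ rthkmComm C D) (p : ℕ) [Fact p.Prime] (n k : ℕ) (hp : ((p ^ n : ℕ) : C) = 0)
    (hΔ : ∀ δ : Δ, δ ^ p ^ k = 1)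
    (hnil : ∀ i j, IsNilpotent (rthkmMat h (1 : Δ →* C) 𝔱 i j)) : IsNilpotent 𝔱 := by
  classical
  set B : Matrix (Fin r) (Fin r) (MonoidAlgebra C Δ) := rthkmMat h (MonoidAlgebra.of C Δ) 𝔱
    with hBdef
  -- the augmentation of `B`
  have haug : ∀ i j, rthkraAug C Δ (B i j) = rthkmMat h (1 : Δ →* C) 𝔱 i j := by
    intro i j
    have h1 := rthk_m_mat_map h (rthkraAug C Δ) (MonoidAlgebra.of C Δ) 𝔱
    have h2 : ((rthkraAug C Δ : MonoidAlgebra C Δ →* C).comp (MonoidAlgebra.of C Δ))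
        = (1 : Δ →* C) := MonoidHom.ext fun δ => rthkraAug_of δ
    rw [h2] at h1
    rw [← h1, Matrix.map_apply]
  -- the entries of `B` are nilpotent
  have hB : ∀ i j, B i j ∈ nilradical (MonoidAlgebra C Δ) := by
    intro i j
    have h1 := rthkra_aug_sub_mem p n k hp hΔ (B i j)
    have h2 : algebraMap C (MonoidAlgebra C Δ) (rthkraAug C Δ (B i j))
        ∈ nilradical (MonoidAlgebra C Δ) := by
      rw [mem_nilradical, haug]
      exact (hnil i j).map _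
    have := Ideal.add_mem _ h1 h2
    rwa [sub_add_cancel] at this
  -- the ideal of the entries is nilpotent
  set J : Ideal (MonoidAlgebra C Δ) :=
    Ideal.span (Set.range fun ij : Fin r × Fin r => B ij.1 ij.2) with hJ
  have hJfg : J.FG := ⟨(Set.finite_range _).toFinset, by rw [Set.Finite.coe_toFinset]⟩
  have hJle : J ≤ nilradical (MonoidAlgebra C Δ) := by
    rw [hJ, Ideal.span_le]
    rintro _ ⟨ij, rfl⟩
    exact hB ij.1 ij.2
  obtain ⟨K, hK⟩ := (Ideal.FG.isNilpotent_iff_le_nilradical hJfg).2 hJle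
  have hBJ : ∀ i j, B i j ∈ J := fun i j => Ideal.subset_span ⟨(i, j), rfl⟩
  have hBK : B ^ K = 0 := by
    refine Matrix.ext fun i j => ?_
    have h1 := rthkra_pow_mem J B hBJ K i j
    rw [hK] at h1
    exact h1
  -- back to `𝔱`
  refine ⟨K, AddMonoidHom.ext fun ψ => ?_⟩
  have hpow : rthkmMat h (MonoidAlgebra.of C Δ) (𝔱 ^ K) = B ^ K := by
    have := map_pow (rthkmPhi h (MonoidAlgebra.of C Δ)) ⟨𝔱, h𝔱⟩ K
    simpa [rthkmPhi_apply] using this
  have hmem : 𝔱 ^ K ∈ rthkmComm C D := Subring.pow_mem _ h𝔱 K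
  have h1 := rthk_m_ev_apply h (MonoidAlgebra.of C Δ) hmem ψ
  rw [hpow, hBK, Matrix.zero_mulVec] at h1
  exact rthkra_eq_zero_of_ev h _ h1

end abs

/-! ### The `Θ`-part -/

section conc

variable {O : Type} [CommRing O] [IsLocalRing O] {p : ℕ} [Fact p.Prime] {L M : ℕ} [NeZero L]
  [NeZero M] [hML : Fact (M ∣ L)] {𝔲 : NatFam O L M} {ℓ₀ : ℕ} [NeZero ℓ₀]
  {H' : Subgroup (ZMod M)ˣ} {ν d : ℕ} {b : Fin d → rthkdX 𝔲 ℓ₀ H' ν}

/-- the elements of `𝔪` are nilpotent in `𝒪 ⧸ 𝔪 ^ ν` -/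
theorem rthkra_nil_of_mem (ν : ℕ) {x : O} (hx : x ∈ maximalIdeal O) :
    IsNilpotent (algebraMap O (RthkdC O ν) x) := by
  refine ⟨ν, ?_⟩
  rw [← map_pow]
  exact Ideal.Quotient.eq_zero_iff_mem.2 (Ideal.pow_mem_pow hx ν)

/-- **`resid` at the top level from the base.** -/
theorem rthkra_resid_top (hst : RthkcsStable p 𝔲 ℓ₀ H' ν)
    (free : RthkmFree (Δ := RthkdDelta M H') (RthkdC O ν) (rthkdD 𝔲 ℓ₀ H' ν) b)
    (hpO : (p : O) ∈ maximalIdeal O) (k : ℕ) (hΔ : ∀ δ : RthkdDelta M H', δ ^ p ^ k = 1)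
    (t : HDAlg M) (A₀ : Matrix (Fin d) (Fin d) O)
    (hbase : rthkmMat free (1 : RthkdDelta M H' →* RthkdC O ν) (rthkdAct p 𝔲 ℓ₀ H' ν hst t)
      = A₀.map (algebraMap O (RthkdC O ν)))
    (c : O) (e : ℕ)
    (hnil : ∀ i j, ((A₀ - algebraMap O (Matrix (Fin d) (Fin d) O) c) ^ e) i j
      ∈ maximalIdeal O) :
    ∃ e' : ℕ, ∀ ψ ∈ etaPart (thetaN 𝔲 ℓ₀ (RthkdC O ν) H'),
      ((rthkdEval p L M H' (RthkdC O ν) t - rthkcsScal L M H' ν c) ^ e') ψ = 0 := by
  classical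
  -- the operator on `X`
  set 𝔱 : AddMonoid.End (rthkdX 𝔲 ℓ₀ H' ν) := rthkdAct p 𝔲 ℓ₀ H' ν hst t
    - Module.toAddMonoidEnd (RthkdC O ν) (rthkdX 𝔲 ℓ₀ H' ν) (algebraMap O (RthkdC O ν) c)
    with h𝔱def
  have h𝔱 : 𝔱 ∈ rthkmComm (Δ := RthkdDelta M H') (RthkdC O ν) (rthkdD 𝔲 ℓ₀ H' ν) :=
    Subring.sub_mem _ (rthkcs_act_comm hst t) (rthk_m_scalar_mem free.1 _)
  have h𝔱e : 𝔱 ^ e ∈ rthkmComm (Δ := RthkdDelta M H') (RthkdC O ν) (rthkdD 𝔲 ℓ₀ H' ν) :=
    Subring.pow_mem _ h𝔱 e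
  -- its matrix on the coinvariants
  have hmat : rthkmMat free (1 : RthkdDelta M H' →* RthkdC O ν) (𝔱 ^ e)
      = ((A₀ - algebraMap O (Matrix (Fin d) (Fin d) O) c) ^ e).map
        (algebraMap O (RthkdC O ν)) := by
    have h1 := map_pow (rthkmPhi free (1 : RthkdDelta M H' →* RthkdC O ν)) ⟨𝔱, h𝔱⟩ e
    have h2 : rthkmPhi free (1 : RthkdDelta M H' →* RthkdC O ν) ⟨𝔱, h𝔱⟩
        = (A₀ - algebraMap O (Matrix (Fin d) (Fin d) O) c).map
          (algebraMap O (RthkdC O ν)) := by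
      rw [rthkmPhi_apply]
      show rthkmMat free 1 (rthkdAct p 𝔲 ℓ₀ H' ν hst t
        - Module.toAddMonoidEnd (RthkdC O ν) (rthkdX 𝔲 ℓ₀ H' ν)
          (algebraMap O (RthkdC O ν) c)) = _
      rw [sub_eq_add_neg, rthkmMat_add, hbase]
      have h3 : rthkmMat free (1 : RthkdDelta M H' →* RthkdC O ν)
          (-Module.toAddMonoidEnd (RthkdC O ν) (rthkdX 𝔲 ℓ₀ H' ν)
            (algebraMap O (RthkdC O ν) c))
          = -(algebraMap (RthkdC O ν) (RthkdC O ν) (algebraMap O (RthkdC O ν) c)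
            • (1 : Matrix (Fin d) (Fin d) (RthkdC O ν))) := by
        rw [← rthk_m_mat_scalar free (1 : RthkdDelta M H' →* RthkdC O ν)]
        have h4 := rthkmMat_add free (1 : RthkdDelta M H' →* RthkdC O ν)
          (Module.toAddMonoidEnd (RthkdC O ν) (rthkdX 𝔲 ℓ₀ H' ν)
            (algebraMap O (RthkdC O ν) c))
          (-Module.toAddMonoidEnd (RthkdC O ν) (rthkdX 𝔲 ℓ₀ H' ν)
            (algebraMap O (RthkdC O ν) c))
        rw [add_neg_cancel, rthkmMat_zero] at h4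
        exact eq_neg_of_add_eq_zero_right h4.symm
      rw [h3]
      ext i j
      simp only [Matrix.add_apply, Matrix.neg_apply, Matrix.smul_apply, Matrix.map_apply,
        Matrix.sub_apply, Matrix.algebraMap_matrix_apply, Matrix.one_apply, map_sub,
        Algebra.algebraMap_self, RingHom.id_apply, smul_eq_mul]
      split_ifs <;> simp [sub_eq_add_neg]
    have h5 : (rthkmPhi free (1 : RthkdDelta M H' →* RthkdC O ν)) (⟨𝔱, h𝔱⟩ ^ e)
        = rthkmMat free (1 : RthkdDelta M H' →* RthkdC O ν) (𝔱 ^ e) := rfl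
    rw [← h5, h1, h2]
    exact (map_pow (algebraMap O (RthkdC O ν)).mapMatrix _ e).symm
  have hp : ((p ^ ν : ℕ) : RthkdC O ν) = 0 := by
    have h1 : ((p ^ ν : ℕ) : RthkdC O ν) = algebraMap O (RthkdC O ν) ((p : O) ^ ν) := by
      rw [map_pow, map_natCast, Nat.cast_pow]
    rw [h1]
    exact Ideal.Quotient.eq_zero_iff_mem.2 (Ideal.pow_mem_pow hpO ν)
  obtain ⟨K, hK⟩ := rthkra_nilpotent free h𝔱e p ν k hp hΔ (fun i j => by
    rw [hmat, Matrix.map_apply]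
    exact rthkra_nil_of_mem ν (hnil i j))
  refine ⟨e * K, fun ψ hψ => ?_⟩
  -- back to `Hom(Γ_{H'}(L), C)`
  have hmem : rthkdEval p L M H' (RthkdC O ν) t - rthkcsScal L M H' ν c
      ∈ rthkdStab (rthkdX 𝔲 ℓ₀ H' ν) := by
    refine Subring.sub_mem _ (fun ψ hψ => hst t ψ hψ) (fun ψ hψ => ?_)
    exact (rthkdX 𝔲 ℓ₀ H' ν).smul_mem _ hψ
  have e1 : rthkdResHom (rthkdX 𝔲 ℓ₀ H' ν) ⟨_, hmem⟩ = 𝔱 :=
    AddMonoidHom.ext fun x => Subtype.ext rfl
  have e2 : rthkdResHom (rthkdX 𝔲 ℓ₀ H' ν) (⟨_, hmem⟩ ^ (e * K)) = 0 := by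
    rw [map_pow, e1, pow_mul, hK]
  have e3 := congrArg (fun f : AddMonoid.End (rthkdX 𝔲 ℓ₀ H' ν) =>
    ((f ⟨ψ, hψ⟩ : rthkdX 𝔲 ℓ₀ H' ν) : HomS (gammaH L M H') (RthkdC O ν))) e2
  simp only [rthkdResHom_coe, SubmonoidClass.coe_pow] at e3
  exact e3

end conc

/-! ### The field `resid` -/

section field

variable {O : Type} [CommRing O] [IsLocalRing O]

/-- **the field `resid` of `HkConcSide`** from `stable`, `free`, `base` and the residual
statement at the base. -/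
theorem rthkra_resid_field {p : ℕ} [Fact p.Prime]
    {ρbar : ResidualGaloisRep (ResidueField O)} {d n : ℕ}
    {a0 : ℕ → Matrix (Fin d) (Fin d) O}
    {L M : ℕ} [NeZero L] [NeZero M] [hML : Fact (M ∣ L)] {𝔲 : NatFam O L M} {ℓ₀ : ℕ}
    [NeZero ℓ₀] {H' : Subgroup (ZMod M)ˣ} {Tr : ℕ → HDAlg M} {b : Fin d → rthkdX 𝔲 ℓ₀ H' n}
    (stable : RthkcsStable p 𝔲 ℓ₀ H' n)
    (free : RthkmFree (Δ := RthkdDelta M H') (RthkdC O n) (rthkdD 𝔲 ℓ₀ H' n) b)
    (hpO : (p : O) ∈ maximalIdeal O) (k : ℕ) (hΔ : ∀ δ : RthkdDelta M H', δ ^ p ^ k = 1)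
    (base : ∀ ℓ : ℕ, ℓ.Prime → ¬ ℓ ∣ L * p →
      rthkmMat free (1 : RthkdDelta M H' →* RthkdC O n) (rthkdAct p 𝔲 ℓ₀ H' n stable (Tr ℓ))
        = (a0 ℓ).map (algebraMap O (RthkdC O n)))
    (res0 : ∀ ℓ : ℕ, ℓ.Prime → ¬ ℓ ∣ L * p →
      ∀ P : ValuationSubring (AlgebraicClosure ℚ), P.LiesOverPrime ℓ →
        ∀ τ : GQ, P.IsFrobeniusAt τ ℓ → ∃ (c : O) (e : ℕ),
          residue O c = LinearMap.trace (ResidueField O) ρbar.V (ρbar.ρ τ) ∧
          ∀ i j, ((a0 ℓ - algebraMap O (Matrix (Fin d) (Fin d) O) c) ^ e) i j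
            ∈ maximalIdeal O) :
    ∀ ℓ : ℕ, ℓ.Prime → ¬ ℓ ∣ L * p →
      ∀ P : ValuationSubring (AlgebraicClosure ℚ), P.LiesOverPrime ℓ →
        ∀ τ : GQ, P.IsFrobeniusAt τ ℓ → ∃ (c : O) (e : ℕ),
          residue O c = LinearMap.trace (ResidueField O) ρbar.V (ρbar.ρ τ) ∧
          ∀ ψ ∈ etaPart (thetaN 𝔲 ℓ₀ (RthkdC O n) H'),
            ((rthkdEval p L M H' (RthkdC O n) (Tr ℓ) - rthkcsScal L M H' n c) ^ e) ψ = 0 := by
  intro ℓ hℓ hℓL P hP τ hτ
  obtain ⟨c, e, hc, hnil⟩ := res0 ℓ hℓ hℓL P hP τ hτ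
  obtain ⟨e', he'⟩ := rthkra_resid_top stable free hpO k hΔ (Tr ℓ) (a0 ℓ)
    (base ℓ hℓ hℓL) c e hnil
  exact ⟨c, e', hc, he'⟩

end field

end Fermat.Agent.RT

end


end ZBRT_039_6
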