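/- GENERATED FILE (helper35, build-time optimisation, NOTES/ZB.md): verbatim concatenation of the modules
   Fermat.Agent.RT.K6.FAbs
   Fermat.Agent.RT.K6.F
   Fermat.Agent.RT.K6.FAux
   Do not edit; do not import together with these modules. -/
import Fermat.Agent.ZB.ES_001
import Fermat.Agent.ZB.ES1_012
import Fermat.Agent.ZB.ES1_008

/-! ### bundled: `Fermat.Agent.RT.K6.FAbs` -/
section ZBRT_045_0
/-
K-machine, piece K6 / F (helper66): the abstract Kummer step.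

`K` a field, `F / K` a function field, `g`, `Dl` semilinear automorphisms of `F`
(`g` = Galois, `Dl` = diamond), `t = (g − 1)(Dl g − 1) = g Dl g − g − Dl g + 1`.

* `rtk6f_chi u` : `t u` in multiplicative notation;
* `rtk6f_pic0_of_pow` : if `(m d₀) D = div u` and `(t u) ^ d₀ = G ^ (m d₀)` then
  `d₀ • t [D] = 0` in `Pic⁰`;
* `rtk6fChi_smul`, `rtk6fChi_prod`, `rtk6fChi_of_fixed`, `rtk6fChi_pow_card` : formal properties;
* `rtk6f_abs` : **the abstract step**: `(D_i − 1) t u = h_i ^ n`, `t (∏ D_i u) = h₊ ^ n`,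
  `n = m #ι`, `n D = div u` ⇒ `t (#ι • [D]) = 0`.
-/

set_option autoImplicit false

noncomputable section

namespace Fermat.Agent.RT.K6

open AlgebraicCurve Fermat.Agent.ES.G2

section Generic

variable {K F : Type*} [Field K] [Field F] [Algebra K F]

/-- `(g − 1)(Dl g − 1) u`, multiplicatively -/
def rtk6fChi (g Dl : SemilinearAut K F) (u : F) : F :=
  ((g • Dl • g • u) * u) / ((g • u) * (Dl • g • u))

theorem rtk6f_smul_ne_zero (G : SemilinearAut K F) {u : F} (hu : u ≠ 0) : G • u ≠ 0 := by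
  rw [SemilinearAut.smul_def]
  exact (map_ne_zero_iff _ (SemilinearAut.toRingAut G).injective).mpr hu

theorem rtk6f_ord_smul_eq (G : SemilinearAut K F) (v : Place K F) (u : F) :
    v.ord (G • u) = (G⁻¹ • v).ord u := by
  have := SemilinearAut.ord_smul G (G⁻¹ • v) u
  rwa [smul_inv_smul] at this

theorem rtk6fChi_ne_zero (g Dl : SemilinearAut K F) {u : F} (hu : u ≠ 0) :
    rtk6fChi g Dl u ≠ 0 := by
  have h1 : g • u ≠ 0 := rtk6f_smul_ne_zero g hu
  have h2 : Dl • g • u ≠ 0 := rtk6f_smul_ne_zero Dl h1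
  have h3 : g • Dl • g • u ≠ 0 := rtk6f_smul_ne_zero g h2
  exact div_ne_zero (mul_ne_zero h3 hu) (mul_ne_zero h1 h2)

/-- the order of `t u` -/
theorem rtk6f_ord_chi (g Dl : SemilinearAut K F) {u : F} (hu : u ≠ 0) (v : Place K F) :
    v.ord (rtk6fChi g Dl u) =
      (g⁻¹ • Dl⁻¹ • g⁻¹ • v).ord u + v.ord u - (g⁻¹ • v).ord u - (g⁻¹ • Dl⁻¹ • v).ord u := by
  have h1 : g • u ≠ 0 := rtk6f_smul_ne_zero g hu
  have h2 : Dl • g • u ≠ 0 := rtk6f_smul_ne_zero Dl h1
  have h3 : g • Dl • g • u ≠ 0 := rtk6f_smul_ne_zero g h2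
  unfold rtk6fChi
  rw [unram_ord_div v (mul_ne_zero h3 hu) (mul_ne_zero h1 h2), v.ord_mul h3 hu,
    v.ord_mul h1 h2, rtk6f_ord_smul_eq g v, rtk6f_ord_smul_eq Dl, rtk6f_ord_smul_eq g,
    rtk6f_ord_smul_eq g v u, rtk6f_ord_smul_eq Dl v, rtk6f_ord_smul_eq g]
  ring

/-- **The abstract Kummer step.**  If `(m d₀) D = div u` and `(t u) ^ d₀ = G ^ (m d₀)`, then
`d₀ • t [D] = 0`. -/
theorem rtk6f_pic0_of_pow (g Dl : SemilinearAut K F) (D : Divisor.degZero (K := K) (F := F))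
    (m d₀ : ℕ) (hm : m ≠ 0) (hd : d₀ ≠ 0) (u : F) (hu : u ≠ 0)
    (hD : ∀ v : Place K F, ((m * d₀ : ℕ) : ℤ) * (D : Divisor K F) v = v.ord u)
    (G : F) (hG : G ^ (m * d₀) = rtk6fChi g Dl u ^ d₀) :
    d₀ • (g • Dl • g • Pic0.mk D - g • Pic0.mk D - Dl • g • Pic0.mk D + Pic0.mk D) = 0 := by
  have hmd : m * d₀ ≠ 0 := Nat.mul_ne_zero hm hd
  have hmd' : ((m * d₀ : ℕ) : ℤ) ≠ 0 := by exact_mod_cast hmd
  have hG0 : G ≠ 0 := by
    intro h0
    rw [h0, zero_pow hmd] at hG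
    exact pow_ne_zero _ (rtk6fChi_ne_zero g Dl hu) hG.symm
  set E : Divisor.degZero (K := K) (F := F) :=
    d₀ • (SemilinearAut.degZeroSMulHom g (SemilinearAut.degZeroSMulHom Dl
        (SemilinearAut.degZeroSMulHom g D))
      - SemilinearAut.degZeroSMulHom g D
      - SemilinearAut.degZeroSMulHom Dl (SemilinearAut.degZeroSMulHom g D) + D) with hE
  have key : ∀ v : Place K F, (E : Divisor K F) v = v.ord G := by
    intro v
    have h1 : ((m * d₀ : ℕ) : ℤ) * v.ord G = (d₀ : ℤ) * v.ord (rtk6fChi g Dl u) := by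
      rw [← unram_ord_pow, hG, unram_ord_pow]
    have e1 : (E : Divisor K F) v
        = (d₀ : ℤ) * ((D : Divisor K F) (g⁻¹ • Dl⁻¹ • g⁻¹ • v) - (D : Divisor K F) (g⁻¹ • v)
            - (D : Divisor K F) (g⁻¹ • Dl⁻¹ • v) + (D : Divisor K F) v) := by
      show (d₀ • ((g • (Dl • (g • (D : Divisor K F)))) - g • (D : Divisor K F)
          - Dl • (g • (D : Divisor K F)) + (D : Divisor K F))) v = _
      rw [Finsupp.smul_apply, Finsupp.add_apply, Finsupp.sub_apply, Finsupp.sub_apply,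
        SemilinearAut.divisor_smul_apply, SemilinearAut.divisor_smul_apply,
        SemilinearAut.divisor_smul_apply, SemilinearAut.divisor_smul_apply,
        SemilinearAut.divisor_smul_apply, SemilinearAut.divisor_smul_apply, nsmul_eq_mul]
    have h4 : ((m * d₀ : ℕ) : ℤ) * v.ord G = ((m * d₀ : ℕ) : ℤ) * (E : Divisor K F) v := by
      rw [h1, rtk6f_ord_chi g Dl hu v, ← hD, ← hD, ← hD, ← hD, e1]
      ring
    exact (mul_left_cancel₀ hmd' h4).symm
  have hzero : Pic0.mk E = 0 := by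
    unfold Pic0.mk
    rw [QuotientAddGroup.eq_zero_iff, AddSubgroup.mem_addSubgroupOf]
    exact ⟨G, hG0, key⟩
  have e2 : Pic0.mk E
      = d₀ • (g • Dl • g • Pic0.mk D - g • Pic0.mk D - Dl • g • Pic0.mk D + Pic0.mk D) := by
    rw [SemilinearAut.pic0_smul_mk, SemilinearAut.pic0_smul_mk, SemilinearAut.pic0_smul_mk]
    rfl
  rw [e2] at hzero
  exact hzero

/-! ## Formal properties of `t` -/

theorem rtk6f_smul_div (G : SemilinearAut K F) (a b : F) : G • (a / b) = (G • a) / (G • b) := by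
  simp only [SemilinearAut.smul_def, map_div₀]

theorem rtk6f_smul_mul (G : SemilinearAut K F) (a b : F) : G • (a * b) = (G • a) * (G • b) := by
  simp only [SemilinearAut.smul_def, map_mul]

theorem rtk6f_smul_pow (G : SemilinearAut K F) (a : F) (n : ℕ) : G • (a ^ n) = (G • a) ^ n := by
  simp only [SemilinearAut.smul_def, map_pow]

theorem rtk6f_smul_prod (G : SemilinearAut K F) {ι : Type*} (s : Finset ι) (f : ι → F) :
    G • ∏ i ∈ s, f i = ∏ i ∈ s, G • f i := by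
  simp only [SemilinearAut.smul_def]
  exact map_prod _ _ _

theorem rtk6f_smul_comm {G G' : SemilinearAut K F} (h : G' * G = G * G') (z : F) :
    G' • G • z = G • G' • z := by
  rw [← mul_smul, ← mul_smul, h]

/-- `t` commutes with every `D'` commuting with `g` and `Dl` -/
theorem rtk6fChi_smul (g Dl D' : SemilinearAut K F) (h1 : D' * g = g * D')
    (h2 : D' * Dl = Dl * D') (u : F) : D' • rtk6fChi g Dl u = rtk6fChi g Dl (D' • u) := by
  unfold rtk6fChi
  rw [rtk6f_smul_div, rtk6f_smul_mul, rtk6f_smul_mul, rtk6f_smul_comm h1 (Dl • g • u),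
    rtk6f_smul_comm h2 (g • u), rtk6f_smul_comm h1 u]

/-- `t` is multiplicative -/
theorem rtk6fChi_prod (g Dl : SemilinearAut K F) {ι : Type*} (s : Finset ι) (f : ι → F) :
    rtk6fChi g Dl (∏ i ∈ s, f i) = ∏ i ∈ s, rtk6fChi g Dl (f i) := by
  unfold rtk6fChi
  rw [rtk6f_smul_prod, rtk6f_smul_prod, rtk6f_smul_prod, Finset.prod_div_distrib,
    Finset.prod_mul_distrib, Finset.prod_mul_distrib]

/-- `t = (g − 1)²` on the elements `z` with `Dl (g z) = g z` -/
theorem rtk6fChi_of_fixed (g Dl : SemilinearAut K F) {z : F} (hz : z ≠ 0)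
    (hfix : Dl • g • z = g • z) :
    rtk6fChi g Dl z = (g • ((g • z) / z)) / ((g • z) / z) := by
  unfold rtk6fChi
  rw [hfix, rtk6f_smul_div]
  have h1 : g • z ≠ 0 := rtk6f_smul_ne_zero _ hz
  have h2 : g • g • z ≠ 0 := rtk6f_smul_ne_zero _ h1
  field_simp

/-- **the norm computation**: if `(D_i − 1) t u = h_i ^ n` for all `i` and
`t (∏_i D_i u) = h₊ ^ n`, then `(t u) ^ #ι = (h₊ / ∏ h_i) ^ n`. -/
theorem rtk6fChi_pow_card (g Dl : SemilinearAut K F) {ι : Type*} [Fintype ι]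
    (Di : ι → SemilinearAut K F) (h1 : ∀ i, Di i * g = g * Di i)
    (h2 : ∀ i, Di i * Dl = Dl * Di i) (n : ℕ) (hn : n ≠ 0) {u : F} (hu : u ≠ 0)
    (hi : ι → F) (hhi : ∀ i, hi i ^ n = (Di i • rtk6fChi g Dl u) / rtk6fChi g Dl u)
    (hp : F) (hhp : hp ^ n = rtk6fChi g Dl (∏ i, Di i • u)) :
    (hp / ∏ i, hi i) ^ n = rtk6fChi g Dl u ^ Fintype.card ι := by
  have hT0 : rtk6fChi g Dl u ≠ 0 := rtk6fChi_ne_zero g Dl hu
  have hhi0 : ∀ i, hi i ≠ 0 := by
    intro i h0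
    have h3 := hhi i
    rw [h0, zero_pow hn] at h3
    exact div_ne_zero (rtk6f_smul_ne_zero _ hT0) hT0 h3.symm
  have e1 : ∀ i, Di i • rtk6fChi g Dl u = rtk6fChi g Dl u * hi i ^ n := by
    intro i
    rw [hhi i, mul_div_cancel₀ _ hT0]
  have e2 : rtk6fChi g Dl (∏ i, Di i • u) =
      rtk6fChi g Dl u ^ Fintype.card ι * (∏ i, hi i) ^ n := by
    rw [rtk6fChi_prod]
    have : ∀ i, rtk6fChi g Dl (Di i • u) = rtk6fChi g Dl u * hi i ^ n := by
      intro i
      rw [← rtk6fChi_smul g Dl (Di i) (h1 i) (h2 i) u, e1 i]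
    simp only [this]
    rw [Finset.prod_mul_distrib, Finset.prod_const, Finset.card_univ, Finset.prod_pow]
  rw [div_pow, hhp, e2]
  exact mul_div_cancel_right₀ _ (pow_ne_zero _ (Finset.prod_ne_zero_iff.mpr fun i _ => hhi0 i))

/-- Kummer data of a torsion class -/
theorem rtk6f_exists_kummer (D : Divisor.degZero (K := K) (F := F)) (n : ℕ)
    (h : n • Pic0.mk D = 0) :
    ∃ u : F, u ≠ 0 ∧ ∀ v : Place K F, (n : ℤ) * (D : Divisor K F) v = v.ord u := by
  have hprin : ((n • D : Divisor.degZero (K := K) (F := F)) : Divisor K F) ∈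
      Divisor.principal := by
    have h1 : Pic0.mk (n • D) = 0 := by
      rw [← h]; rfl
    unfold Pic0.mk at h1
    rw [QuotientAddGroup.eq_zero_iff, AddSubgroup.mem_addSubgroupOf] at h1
    exact h1
  obtain ⟨u, hu, hDu⟩ := hprin
  refine ⟨u, hu, fun v => ?_⟩
  rw [← hDu v, AddSubgroup.coe_nsmul, Finsupp.smul_apply, nsmul_eq_mul]

/-- the operator `t` on `Pic⁰` -/
def rtk6fChiJ (g Dl : SemilinearAut K F) (x : Pic0 K F) : Pic0 K F :=
  g • Dl • g • x - g • x - Dl • g • x + x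

theorem rtk6fChiJ_nsmul (g Dl : SemilinearAut K F) (d : ℕ) (x : Pic0 K F) :
    rtk6fChiJ g Dl (d • x) = d • rtk6fChiJ g Dl x := by
  have e : ∀ (G : SemilinearAut K F) (z : Pic0 K F), G • (d • z) = d • (G • z) :=
    fun G z => map_nsmul (DistribSMul.toAddMonoidHom (Pic0 K F) G) d z
  unfold rtk6fChiJ
  rw [e, e, e, ← nsmul_sub, ← nsmul_sub, ← nsmul_add]

/-- **The abstract step of K6 / F.** -/
theorem rtk6f_abs (g Dl : SemilinearAut K F) {ι : Type*} [Fintype ι]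
    (Di : ι → SemilinearAut K F) (h1 : ∀ i, Di i * g = g * Di i)
    (h2 : ∀ i, Di i * Dl = Dl * Di i) (m : ℕ) (hm : m ≠ 0) (hd : Fintype.card ι ≠ 0)
    (D : Divisor.degZero (K := K) (F := F)) {u : F} (hu : u ≠ 0)
    (hD : ∀ v : Place K F,
      ((m * Fintype.card ι : ℕ) : ℤ) * (D : Divisor K F) v = v.ord u)
    (hi : ι → F)
    (hhi : ∀ i, hi i ^ (m * Fintype.card ι) = (Di i • rtk6fChi g Dl u) / rtk6fChi g Dl u)
    (hp : F) (hhp : hp ^ (m * Fintype.card ι) = rtk6fChi g Dl (∏ i, Di i • u)) :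
    rtk6fChiJ g Dl (Fintype.card ι • Pic0.mk D) = 0 := by
  rw [rtk6fChiJ_nsmul]
  exact rtk6f_pic0_of_pow g Dl D m (Fintype.card ι) hm hd u hu hD _
    (rtk6fChi_pow_card g Dl Di h1 h2 _ (Nat.mul_ne_zero hm hd) hu hi hhi hp hhp)

end Generic

end Fermat.Agent.RT.K6

end
end ZBRT_045_0

/-! ### bundled: `Fermat.Agent.RT.K6.F` -/
section ZBRT_045_1
/-
K-machine, piece K6 / F (helper66): **(χ-J) from (χ-K) and UNIP for the level without diamonds
at `r`**, on the divisible elements.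

`F = fieldBar L M H`, `H⁺ = H ⊔ {diamonds at r}`, `F⁺ = fieldBar L M H⁺`, `c_i` representatives of
`±H⁺ / ±H` among the diamonds at `r`, `d₀` their number (`d₀ ≤ r − 1`), `t = (σ − 1)(δ_c σ − 1)`.
For `x = d₀ y`, `y = [D]`, `(m d₀) D = div u`:
  `∏_i δ_i (t u) = (t u) ^ d₀ · (∏ h_i) ^ (m d₀)`          by (χ-K),
  `∏_i δ_i (t u) = t (N u) = (σ − 1)² (N u) = h₊ ^ (m d₀)`    by UNIP for `F⁺`,
hence `(t u) ^ d₀ = G ^ (m d₀)`, `d₀ t D = div G` and `t x = 0`.

* `ChiKummerAt L M H r`, `UnipHAt L M H r`, `ChiJDivAt L M H r` : the statements at one level;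
* `rtk6f_main : ChiKummerAt L M H r → UnipHAt L M H⁺ r → ChiJDivAt L M H r`;
* `stmtChiJDiv_of : StmtChiKummerP → StmtUnipH → StmtChiJDiv`;
* `stmtChiJP_of_div : StmtTorsDivH → StmtChiKummerP → StmtUnipH → StmtChiJP`.
-/

set_option autoImplicit false
set_option linter.style.haveILetI false

noncomputable section

namespace Fermat.Agent.RT.K6

open ModularCurve AlgebraicCurve HahnSeries IntermediateField Fermat.Agent.ES Fermat.Agent.ES1
  Fermat.Agent.ES1.G2

section Formal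

variable {L M : ℕ} {H H' : Subgroup (ZMod M)ˣ}

theorem rtk6f_chiExpr_eq (σ : QbH ≃ₐ[ℚ] QbH) (δ : fieldBar L M H ≃ₐ[QbH] fieldBar L M H)
    (u : fieldBar L M H) :
    chiExpr σ δ u =
      rtk6fChi (arithmeticGalois (fieldQ L M H) σ) (SemilinearAut.ofAlgAut δ) u := rfl

theorem rtk6f_chiJ_eq (σ : QbH ≃ₐ[ℚ] QbH) (δ : fieldBar L M H ≃ₐ[QbH] fieldBar L M H)
    (x : JH L M H) :
    σ • diamondJ δ (σ • x) - σ • x - diamondJ δ (σ • x) + x =
      rtk6fChiJ (arithmeticGalois (fieldQ L M H) σ) (SemilinearAut.ofAlgAut δ) x := rfl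

/-- the diamonds commute -/
theorem rtk6f_diamond_comm {c c' : (ZMod M)ˣ} {δ δ' : fieldBar L M H ≃ₐ[QbH] fieldBar L M H}
    (hδ : IsDiamondH L M H c δ) (hδ' : IsDiamondH L M H c' δ') :
    SemilinearAut.ofAlgAut δ' * SemilinearAut.ofAlgAut δ =
      SemilinearAut.ofAlgAut δ * SemilinearAut.ofAlgAut δ' := by
  have h1 : IsDiamondH L M H (c * c') (δ' * δ) := by
    have := hδ'.mul hδ
    rwa [mul_comm c' c] at this
  have h2 := h1.unique (hδ.mul hδ')
  rw [← map_mul, ← map_mul, h2]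

theorem rtk6f_coe_unip (σ : QbH ≃ₐ[ℚ] QbH) (v : fieldBar L M H) :
    (((arithmeticGalois (fieldQ L M H) σ • ((arithmeticGalois (fieldQ L M H) σ • v) / v)) /
          ((arithmeticGalois (fieldQ L M H) σ • v) / v) : fieldBar L M H) :
          LaurentSeries QbH) =
      coeffMap (σ : QbH →+* QbH)
          (coeffMap (σ : QbH →+* QbH) (v : LaurentSeries QbH) / (v : LaurentSeries QbH)) /
        (coeffMap (σ : QbH →+* QbH) (v : LaurentSeries QbH) / (v : LaurentSeries QbH)) := rfl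

/-- the inclusion and `(σ − 1)²` -/
theorem rtk6f_incl_unip (hle : fieldBar L M H' ≤ fieldBar L M H) (σ : QbH ≃ₐ[ℚ] QbH)
    (v : fieldBar L M H') :
    IntermediateField.inclusion hle
        ((arithmeticGalois (fieldQ L M H') σ • ((arithmeticGalois (fieldQ L M H') σ • v) / v)) /
          ((arithmeticGalois (fieldQ L M H') σ • v) / v)) =
      (arithmeticGalois (fieldQ L M H) σ •
          ((arithmeticGalois (fieldQ L M H) σ • IntermediateField.inclusion hle v) /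
            IntermediateField.inclusion hle v)) /
        ((arithmeticGalois (fieldQ L M H) σ • IntermediateField.inclusion hle v) /
          IntermediateField.inclusion hle v) := by
  apply Subtype.ext
  rw [IntermediateField.coe_inclusion, rtk6f_coe_unip σ v,
    rtk6f_coe_unip σ (IntermediateField.inclusion hle v), IntermediateField.coe_inclusion]

end Formal

/-! ## The statements at one level -/

section Level

variable (L M : ℕ) (H : Subgroup (ZMod M)ˣ) (r : ℕ)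

/-- (χ-K) at the level `(L; M, H)` and the prime `r` (all exponents prime to `r`) -/
def ChiKummerAt : Prop :=
  ∀ A : ValuationSubring QbH, A.LiesOverPrime r →
    ∀ m : ℕ, ¬ r ∣ m →
      ∀ σ ∈ A.inertiaSubgroupIn ℚ, ∀ c : (ZMod M)ˣ, IsCycAt M r σ c →
      ∀ δ : fieldBar L M H ≃ₐ[QbH] fieldBar L M H, IsDiamondH L M H c δ →
      ∀ (c' : (ZMod M)ˣ), IsAtR M r c' →
      ∀ δ' : fieldBar L M H ≃ₐ[QbH] fieldBar L M H, IsDiamondH L M H c' δ' →
        ∀ u : fieldBar L M H, u ≠ 0 →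
          (∀ P : Place QbH (fieldBar L M H), (m : ℤ) ∣ P.ord u) →
            ∃ h : fieldBar L M H, h ^ m = δ' (chiExpr σ δ u) / chiExpr σ δ u

/-- UNIP (Kummer form) at the level `(L; M, H)` and the prime `r` -/
def UnipHAt : Prop :=
  ∀ A : ValuationSubring QbH, A.LiesOverPrime r →
    ∀ m : ℕ, ¬ r ∣ m →
      ∀ σ ∈ A.inertiaSubgroupIn ℚ,
        ∀ u : fieldBar L M H, u ≠ 0 →
          (∀ P : Place QbH (fieldBar L M H), (m : ℤ) ∣ P.ord u) →
            ∃ h : fieldBar L M H,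
              h ^ m =
                (arithmeticGalois (fieldQ L M H) σ •
                    ((arithmeticGalois (fieldQ L M H) σ • u) / u)) /
                  ((arithmeticGalois (fieldQ L M H) σ • u) / u)

/-- (χ-J) on the divisible elements at the level `(L; M, H)` and the prime `r` -/
def ChiJDivAt : Prop :=
  ∀ A : ValuationSubring QbH, A.LiesOverPrime r →
    ∀ m : ℕ, ¬ r ∣ m →
      ∀ σ ∈ A.inertiaSubgroupIn ℚ, ∀ c : (ZMod M)ˣ, IsCycAt M r σ c →
      ∀ δ : fieldBar L M H ≃ₐ[QbH] fieldBar L M H, IsDiamondH L M H c δ →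
        ∀ x : JH L M H, m • x = 0 → IsDivJ x →
          σ • diamondJ δ (σ • x) - σ • x - diamondJ δ (σ • x) + x = 0

end Level

/-- **K6 / F at one level.** -/
theorem rtk6f_main {L M : ℕ} {H : Subgroup (ZMod M)ˣ} {r : ℕ} (hL : L ≠ 0) (hML : M ∣ L)
    (hr : r.Prime) (hrM : r ∣ M) (hr2 : ¬ r ^ 2 ∣ L) (hK : ChiKummerAt L M H r)
    (hU : UnipHAt L M (H ⊔ rtk6fAtR M r hrM) r) : ChiJDivAt L M H r := by
  intro A hA m hm σ hσ c hcyc δ hδ x hx hdiv
  have hM0 : M ≠ 0 := fun h => hL (by rw [h] at hML; exact Nat.eq_zero_of_zero_dvd hML)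
  haveI : NeZero M := ⟨hM0⟩
  have hr2M : ¬ r ^ 2 ∣ M := fun h => hr2 (h.trans hML)
  have hm0 : m ≠ 0 := by rintro rfl; exact hm (dvd_zero r)
  letI : Fintype (RelIdx H (H ⊔ rtk6fAtR M r hrM)) := Fintype.ofFinite _
  obtain ⟨cc, hcc, hccR, hd0, hrd⟩ := rtk6f_exists_relRep_atR H hrM hr hr2M
  rw [Nat.card_eq_fintype_card] at hd0 hrd
  -- the diamonds `δ_i`
  have hB := stmtDiamondBarH_of_diamond stmtDiamondH
  choose δi hδi using fun i => hB L M H hL hML (cc i)
  -- `x = d₀ y`, `y = [D]`, `(m d₀) D = div u`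
  obtain ⟨y, rfl⟩ := hdiv _ hd0
  obtain ⟨D, rfl⟩ := Pic0.mk_surjective y
  have hn : (m * Fintype.card (RelIdx H (H ⊔ rtk6fAtR M r hrM))) • Pic0.mk D = 0 := by
    rw [mul_smul]; exact hx
  obtain ⟨u, hu, hDu⟩ := rtk6f_exists_kummer D _ hn
  have hdvd : ∀ P : Place QbH (fieldBar L M H),
      ((m * Fintype.card (RelIdx H (H ⊔ rtk6fAtR M r hrM)) : ℕ) : ℤ) ∣ P.ord u :=
    fun P => ⟨_, (hDu P).symm⟩
  have hrn : ¬ r ∣ m * Fintype.card (RelIdx H (H ⊔ rtk6fAtR M r hrM)) :=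
    fun h => (hr.dvd_mul.mp h).elim hm hrd
  -- (χ-K)
  choose hi hhi using fun i =>
    hK A hA _ hrn σ hσ c hcyc δ hδ (cc i) (hccR i) (δi i) (hδi i) u hu hdvd
  -- UNIP for `F⁺`
  have hle := rtk6f_fieldBar_le L hcc
  have hv0 : rtk6fNorm hle u ≠ 0 := rtk6fNorm_ne_zero hL hML hle hu
  obtain ⟨hp, hhp⟩ := hU A hA _ hrn σ hσ (rtk6fNorm hle u) hv0
    (fun P => rtk6f_dvd_ord_norm hL hML hle _ D u hu hDu P)
  -- `t (N u) = h₊ ^ (m d₀)`
  have hcmem : c ∈ pmH (H ⊔ rtk6fAtR M r hrM) :=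
    rtk6f_atR_le H hrM ((mem_rtk6fAtR hrM).mpr hcyc.2)
  have hincl0 : IntermediateField.inclusion hle (rtk6fNorm hle u) ≠ 0 :=
    (map_ne_zero_iff _ (IntermediateField.inclusion hle).toRingHom.injective).mpr hv0
  have hfix : SemilinearAut.ofAlgAut δ • arithmeticGalois (fieldQ L M H) σ •
      IntermediateField.inclusion hle (rtk6fNorm hle u) =
      arithmeticGalois (fieldQ L M H) σ • IntermediateField.inclusion hle (rtk6fNorm hle u) := by
    rw [rtk6f_incl_smul hle σ]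
    exact rtk6f_diamond_fix hcc hcmem hδ _
  have hhp' : IntermediateField.inclusion hle hp ^
      (m * Fintype.card (RelIdx H (H ⊔ rtk6fAtR M r hrM))) =
      rtk6fChi (arithmeticGalois (fieldQ L M H) σ) (SemilinearAut.ofAlgAut δ)
        (∏ i, SemilinearAut.ofAlgAut (δi i) • u) := by
    have e : (∏ i, SemilinearAut.ofAlgAut (δi i) • u) =
        IntermediateField.inclusion hle (rtk6fNorm hle u) :=
      (rtk6f_norm_eq_prod hL hML hcc δi hδi u).symm
    rw [e, rtk6fChi_of_fixed _ _ hincl0 hfix, ← rtk6f_incl_unip hle σ, ← hhp, map_pow]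
  -- conclusion
  rw [rtk6f_chiJ_eq]
  exact rtk6f_abs (arithmeticGalois (fieldQ L M H) σ) (SemilinearAut.ofAlgAut δ)
    (fun i => SemilinearAut.ofAlgAut (δi i)) (fun i => (diamb_galois_field (hδi i) σ).symm)
    (fun i => rtk6f_diamond_comm hδ (hδi i)) m hm0 hd0 D hu hDu hi hhi
    (IntermediateField.inclusion hle hp) hhp'

/-- **K6 / F.**  (χ-J) on the divisible elements, from (χ-K) and UNIP for the levels without
diamonds at `r`. -/
theorem stmtChiJDiv_of (hK : StmtChiKummerP) (hU : StmtUnipH) : StmtChiJDiv := by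
  intro L M H r hL hML hr hrM hr2 hstar htame
  have hM0 : M ≠ 0 := fun h => hL (by rw [h] at hML; exact Nat.eq_zero_of_zero_dvd hML)
  haveI : NeZero M := ⟨hM0⟩
  exact rtk6f_main hL hML hr hrM hr2 (hK L M H r hL hML hr hrM hr2 hstar htame)
    (hU L M (H ⊔ rtk6fAtR M r hrM) r hL hML hr hrM hr2
      (fun c' hc' => rtk6f_atR_le H hrM ((mem_rtk6fAtR hrM).mpr hc')))

/-- **K6 / F**, full form, from the divisibility of the torsion of `JH`. -/
theorem stmtChiJP_of_div (hdiv : StmtTorsDivH) (hK : StmtChiKummerP) (hU : StmtUnipH) :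
    StmtChiJP := by
  intro L M H r hL hML hr hrM hr2 hstar htame A hA m hm σ hσ c hcyc δ hδ x hx
  have hm0 : m ≠ 0 := by rintro rfl; exact hm (dvd_zero r)
  exact stmtChiJDiv_of hK hU L M H r hL hML hr hrM hr2 hstar htame A hA m hm σ hσ c hcyc δ hδ x hx
    (hdiv L M H hL hML m x hm0 hx)

end Fermat.Agent.RT.K6

end
end ZBRT_045_1

/-! ### bundled: `Fermat.Agent.RT.K6.FAux` -/
section ZBRT_045_2
/-
K-machine, piece K6 / F + AUX (helper66): **(χ-J) on the divisible elements from (χ-K) and UNIP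
at the rigid levels `36 ∣ L` only**.

Fork of helper94's AUX (`RT/K6/AuxAbs.lean`, `AuxLevel.lean`) for the statement on the DIVISIBLE
classes: the pull-back of a divisible class is divisible.

* `rtk6fa_abs`  : abstract descent along a map of degree prime to `m`, divisible classes;
* `ChiJDivAtM L M H r m` : (χ-J) on the divisible `m`-torsion classes at one level;
* `rtk6fa_step`, `rtk6fa_pow` : descent from the level `L ℓ₀`, resp. `L 2^a 3^b`, to the level `L`;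
* `StmtChiKummerPRigid36`, `StmtUnipHRigid36` : (χ-K) (tame form) and UNIP (levels without
  diamonds at `r`) at the levels with `36 ∣ L` — THE TARGETS OF PIECE E;
* `StmtChiJDiv5` : (χ-J) on the divisible classes, tame levels, `r ≥ 5`, exponents prime to `6`;
* `stmtChiJDiv5_of_rigid : StmtChiKummerPRigid36 → StmtUnipHRigid36 → StmtChiJDiv5`.
-/

set_option autoImplicit false
set_option linter.unusedSectionVars false
set_option linter.style.haveILetI false

noncomputable section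

open AlgebraicCurve AlgebraicCurve.SemilinearAut Module ModularCurve IntermediateField

namespace Fermat.Agent.RT.K6

open Fermat.Agent.ES Fermat.Agent.ES1 Fermat.Agent.ES1.G2 Fermat.Agent.W1 Fermat.Agent.STB
  Fermat.Agent.S15.LD

section Abs

variable {K F F' : Type*} [Field K] [Field F] [Field F'] [Algebra K F] [Algebra K F']
  [HasPrincipalDivisors K F']

/-- **AUX, abstract, divisible classes.** -/
theorem rtk6fa_abs
    (hres : ∀ v : Place K F, Function.Bijective (algebraMap K v.ResidueField))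
    (hres' : ∀ v : Place K F', Function.Bijective (algebraMap K v.ResidueField))
    (φ : F →ₐ[K] F') (hφ : φ.toRingHom.IsIntegral) (hFI : FundamentalIdentityAlong K φ hφ)
    (hfin : FiniteAlong K φ) (hN : NormFormulaAlong K φ hfin)
    {g h : SemilinearAut K F} {g' h' : SemilinearAut K F'}
    (hg : IntertwinesAlong (φ : F →+* F') g g') (hh : IntertwinesAlong (φ : F →+* F') h h')
    (m : ℕ) (hcop : Nat.Coprime m (finrankAlong K φ))
    (H' : ∀ y : Pic0 K F', m • y = 0 → (∀ e : ℕ, e ≠ 0 → ∃ z : Pic0 K F', e • z = y) →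
      rtk6auxChi g' h' y = 0)
    (x : Pic0 K F) (hx : m • x = 0) (hdiv : ∀ e : ℕ, e ≠ 0 → ∃ z : Pic0 K F, e • z = x) :
    rtk6auxChi g h x = 0 := by
  set z := rtk6auxChi g h x with hz
  have hmz : m • z = 0 := by
    rw [hz, ← rtk6auxChi_nsmul, hx]
    have h0 := rtk6auxChi_nsmul g h 0 x
    rwa [zero_nsmul, zero_nsmul] at h0
  have hpull : lvlPic0 φ hφ hFI z = 0 := by
    rw [hz, rtk6aux_pull_chi φ hφ hFI hg hh]
    apply H'
    · rw [← map_nsmul, hx, map_zero]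
    · intro e he
      obtain ⟨w, hw⟩ := hdiv e he
      exact ⟨lvlPic0 φ hφ hFI w, by rw [← map_nsmul, hw]⟩
  have hD : finrankAlong K φ • z = 0 := by
    rw [← ld_push_pull hres hres' φ hφ hFI hfin hN z, hpull, map_zero]
  have hb := Nat.gcd_eq_gcd_ab m (finrankAlong K φ)
  rw [hcop.gcd_eq_one] at hb
  have e1 : ((m : ℤ) * m.gcdA (finrankAlong K φ)) • z = 0 := by
    rw [mul_comm, mul_zsmul, natCast_zsmul, hmz, zsmul_zero]
  have e2 : (((finrankAlong K φ : ℕ) : ℤ) * m.gcdB (finrankAlong K φ)) • z = 0 := by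
    rw [mul_comm, mul_zsmul, natCast_zsmul, hD, zsmul_zero]
  have h1 : ((1 : ℕ) : ℤ) • z = 0 := by
    rw [hb, add_zsmul, e1, e2, add_zero]
  rwa [Nat.cast_one, one_zsmul] at h1

end Abs

/-! ## (χ-J) on the divisible classes at one level and one exponent -/

section Level

variable (L M : ℕ) (H : Subgroup (ZMod M)ˣ)

/-- (χ-J) on the divisible `m`-torsion classes at the level `(L; M, H)` -/
def ChiJDivAtM (r m : ℕ) : Prop :=
  ∀ A : ValuationSubring QbH, A.LiesOverPrime r →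
    ∀ σ ∈ A.inertiaSubgroupIn ℚ, ∀ c : (ZMod M)ˣ, IsCycAt M r σ c →
    ∀ δ : fieldBar L M H ≃ₐ[QbH] fieldBar L M H, IsDiamondH L M H c δ →
      ∀ x : JH L M H, m • x = 0 → IsDivJ x →
        σ • diamondJ δ (σ • x) - σ • x - diamondJ δ (σ • x) + x = 0

/-- **one prime step** -/
theorem rtk6fa_step (r m ℓ₀ : ℕ) (hL : L ≠ 0) (hML : M ∣ L) (hℓ₀ : ℓ₀.Prime)
    (hm : Nat.Coprime m (if ℓ₀ ∣ L then ℓ₀ else ℓ₀ + 1))
    (h : ChiJDivAtM (L * ℓ₀) M H r m) : ChiJDivAtM L M H r m := by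
  intro A hA σ hσ c hc δ hδ x hx hdiv
  have hL' : L * ℓ₀ ≠ 0 := Nat.mul_ne_zero hL hℓ₀.ne_zero
  have hML' : M ∣ L * ℓ₀ := Dvd.dvd.mul_right hML ℓ₀
  obtain ⟨δ', hδ'⟩ := stmtDiamondBarH_of_diamond stmtDiamondH (L * ℓ₀) M H hL' hML' c
  have hF : Es1hFin L M H := es1hFin_all hL hML
  have hF' : Es1hFin (L * ℓ₀) M H := es1hFin_all hL' hML'
  haveI : HasPrincipalDivisors QbH (fieldBar (L * ℓ₀) M H) := es1h_hasPrincipalDivisors hF'
  have hφ := es1h_integral (es1hAlpha L M H ℓ₀) hF hF'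
  have hfin := es1h_finiteAlong (es1hAlpha L M H ℓ₀) hF hF'
  rw [rtk6aux_chi_eq]
  refine rtk6fa_abs (es1h_residue_bijective hF) (es1h_residue_bijective hF')
    (es1hAlpha L M H ℓ₀) hφ (es1h_fundamentalIdentityAlong (es1hAlpha L M H ℓ₀) hF hF')
    hfin (es1h_normFormulaAlong (es1hAlpha L M H ℓ₀) hF hF')
    (rtk6aux_intertwines_gal L M H ℓ₀ σ) (rtk6aux_intertwines_diamond ℓ₀ hδ hδ') m ?_ ?_ x hx
    hdiv
  · rw [rtk6aux_finrankAlong L M H ℓ₀ hL hML hℓ₀]
    exact hm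
  · intro y hy hydiv
    rw [← rtk6aux_chi_eq]
    exact h A hA σ hσ c hc δ' hδ' y hy hydiv

variable {L}

/-- **general auxiliary level** `2 ^ a * 3 ^ b`, exponents prime to `6` -/
theorem rtk6fa_pow (r m : ℕ) (hm : Nat.Coprime m 6) (a b : ℕ) :
    ∀ L : ℕ, L ≠ 0 → M ∣ L → ChiJDivAtM (L * 2 ^ a * 3 ^ b) M H r m → ChiJDivAtM L M H r m := by
  have h2 : Nat.Coprime m 2 := Nat.Coprime.coprime_dvd_right (by norm_num : 2 ∣ 6) hm
  have h3 : Nat.Coprime m 3 := Nat.Coprime.coprime_dvd_right (by norm_num : 3 ∣ 6) hm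
  have h4 : Nat.Coprime m 4 := by
    have : (4 : ℕ) = 2 ^ 2 := by norm_num
    rw [this]
    exact Nat.Coprime.pow_right 2 h2
  have hc2 : ∀ L' : ℕ, Nat.Coprime m (if 2 ∣ L' then 2 else 2 + 1) := by
    intro L'
    split_ifs
    · exact h2
    · exact h3
  have hc3 : ∀ L' : ℕ, Nat.Coprime m (if 3 ∣ L' then 3 else 3 + 1) := by
    intro L'
    split_ifs
    · exact h3
    · exact h4
  induction b with
  | zero =>
    induction a with
    | zero =>
      intro L _ _ h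
      simpa using h
    | succ a iha =>
      intro L hL hML h
      refine rtk6fa_step L M H r m 2 hL hML Nat.prime_two (hc2 L) ?_
      refine iha (L * 2) (Nat.mul_ne_zero hL two_ne_zero) (Dvd.dvd.mul_right hML 2) ?_
      have e : L * 2 * 2 ^ a * 3 ^ 0 = L * 2 ^ (a + 1) * 3 ^ 0 := by ring
      rw [e]
      exact h
  | succ b ihb =>
    intro L hL hML h
    refine rtk6fa_step L M H r m 3 hL hML Nat.prime_three (hc3 L) ?_
    refine ihb (L * 3) (Nat.mul_ne_zero hL three_ne_zero) (Dvd.dvd.mul_right hML 3) ?_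
    have e : L * 3 * 2 ^ a * 3 ^ b = L * 2 ^ a * 3 ^ (b + 1) := by ring
    rw [e]
    exact h

end Level

/-! ## The statements -/

/-- **(χ-K), tame case, at the levels with `36 ∣ L`** (target of piece E). -/
def StmtChiKummerPRigid36 : Prop :=
  ∀ (L M : ℕ) (H : Subgroup (ZMod M)ˣ) (r : ℕ), L ≠ 0 → M ∣ L → r.Prime → r ∣ M → ¬ r ^ 2 ∣ L →
    IsStarStable M r H → IsTameAt L M r H → 36 ∣ L → 5 ≤ r → ChiKummerAt L M H r

/-- **UNIP for the levels without diamonds at `r`, at the levels with `36 ∣ L`** (target of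
piece E, case `d = 1`). -/
def StmtUnipHRigid36 : Prop :=
  ∀ (L M : ℕ) (H : Subgroup (ZMod M)ˣ) (r : ℕ), L ≠ 0 → M ∣ L → r.Prime → r ∣ M → ¬ r ^ 2 ∣ L →
    (∀ c : (ZMod M)ˣ, IsAtR M r c → c ∈ pmH H) → 36 ∣ L → 5 ≤ r → UnipHAt L M H r

/-- **(χ-J) on the divisible classes**, tame levels, `r ≥ 5`, exponents prime to `6`. -/
def StmtChiJDiv5 : Prop :=
  ∀ (L M : ℕ) (H : Subgroup (ZMod M)ˣ) (r : ℕ), L ≠ 0 → M ∣ L → r.Prime → r ∣ M → ¬ r ^ 2 ∣ L →
    IsStarStable M r H → IsTameAt L M r H → 5 ≤ r →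
    ∀ A : ValuationSubring QbH, A.LiesOverPrime r →
      ∀ m : ℕ, ¬ r ∣ m → Nat.Coprime m 6 →
        ∀ σ ∈ A.inertiaSubgroupIn ℚ, ∀ c : (ZMod M)ˣ, IsCycAt M r σ c →
        ∀ δ : fieldBar L M H ≃ₐ[QbH] fieldBar L M H, IsDiamondH L M H c δ →
          ∀ x : JH L M H, m • x = 0 → IsDivJ x →
            σ • diamondJ δ (σ • x) - σ • x - diamondJ δ (σ • x) + x = 0

/-- **K6 / F + AUX.**  (χ-J) on the divisible classes at ALL tame levels (`r ≥ 5`, exponents prime
to `6`) from (χ-K) and UNIP at the rigid levels `36 ∣ L`. -/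
theorem stmtChiJDiv5_of_rigid (hK : StmtChiKummerPRigid36) (hU : StmtUnipHRigid36) :
    StmtChiJDiv5 := by
  intro L M H r hL hML hr hrM hr2 hstar htame hr5 A hA m hrm hm6 σ hσ c hc δ hδ x hx hdiv
  have hM0 : M ≠ 0 := fun h => hL (by rw [h] at hML; exact Nat.eq_zero_of_zero_dvd hML)
  haveI : NeZero M := ⟨hM0⟩
  have hL36 : L * 2 ^ 2 * 3 ^ 2 ≠ 0 :=
    Nat.mul_ne_zero (Nat.mul_ne_zero hL (by norm_num)) (by norm_num)
  have hML36 : M ∣ L * 2 ^ 2 * 3 ^ 2 := Dvd.dvd.mul_right (Dvd.dvd.mul_right hML _) _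
  have hr2' : Nat.Coprime r 2 :=
    (Nat.coprime_primes hr Nat.prime_two).mpr (by omega)
  have hr3' : Nat.Coprime r 3 :=
    (Nat.coprime_primes hr Nat.prime_three).mpr (by omega)
  have hcop : Nat.Coprime (r ^ 2) (2 ^ 2 * 3 ^ 2) :=
    Nat.Coprime.pow_left 2 (Nat.Coprime.mul_right (Nat.Coprime.pow_right 2 hr2')
      (Nat.Coprime.pow_right 2 hr3'))
  have hr36 : ¬ r ^ 2 ∣ L * 2 ^ 2 * 3 ^ 2 := by
    intro h
    rw [mul_assoc] at h
    exact hr2 (hcop.dvd_of_dvd_mul_right h)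
  have h36 : 36 ∣ L * 2 ^ 2 * 3 ^ 2 := ⟨L, by ring⟩
  have hmain : ChiJDivAt (L * 2 ^ 2 * 3 ^ 2) M H r :=
    rtk6f_main hL36 hML36 hr hrM hr36
      (hK _ M H r hL36 hML36 hr hrM hr36 hstar (rtk6aux_isTameAt_36 htame) h36 hr5)
      (hU _ M (H ⊔ rtk6fAtR M r hrM) r hL36 hML36 hr hrM hr36
        (fun c' hc' => rtk6f_atR_le H hrM ((mem_rtk6fAtR hrM).mpr hc')) h36 hr5)
  have key : ChiJDivAtM (L * 2 ^ 2 * 3 ^ 2) M H r m :=
    fun A' hA' σ' hσ' c' hc' δ' hδ' y hy hyd =>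
      hmain A' hA' m hrm σ' hσ' c' hc' δ' hδ' y hy hyd
  exact rtk6fa_pow M H r m hm6 2 2 L hL hML key A hA σ hσ c hc δ hδ x hx hdiv

end Fermat.Agent.RT.K6

end
end ZBRT_045_2
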