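/- GENERATED FILE (helper35, build-time optimisation, NOTES/ZB.md): verbatim concatenation of the modules
   Fermat.Agent.S29.FrobCoset
   Fermat.Agent.ES1.TopCyclo
   Do not edit; do not import together with these modules. -/
import Mathlib
import Fermat.Prelude.Def_EllipticCurve_FrobeniusTrace
import Fermat.Prelude.Def_FLTPrelim_Ramification
import Fermat.Agent.ZB.Cheb_001
import Fermat.Agent.ZB.S05_001
import Fermat.Agent.ZB.Common_003

/-! ### bundled: `Fermat.Agent.S29.FrobCoset` -/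
section ZBS29_001_0

/-!
# Frobenius cosets

A Frobenius element times an inertia element is again a Frobenius element.
-/

set_option autoImplicit false

namespace Fermat.Agent.S29

variable {K L : Type*} [Field K] [Field L] [Algebra K L]

theorem isFrobeniusAt_mul_inertia {A : ValuationSubring L} {τ σ : L ≃ₐ[K] L} {q : ℕ}
    (hτ : A.IsFrobeniusAt τ q) (hσ : σ ∈ A.inertiaSubgroupIn K) :
    A.IsFrobeniusAt (τ * σ) q := by
  obtain ⟨hτD, hτres⟩ := hτ
  obtain ⟨s, hs, rfl⟩ := hσ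
  have hs' : ∀ x : IsLocalRing.ResidueField A, s • x = x := by
    intro x
    have hs1 : (MulSemiringAction.toRingAut (A.decompositionSubgroup K)
        (IsLocalRing.ResidueField A)) s = 1 := MonoidHom.mem_ker.mp hs
    have := congrArg (fun f : IsLocalRing.ResidueField A ≃+* IsLocalRing.ResidueField A => f x) hs1
    exact this
  refine ⟨(A.decompositionSubgroup K).mul_mem hτD s.2, fun x => ?_⟩
  have e : (⟨τ * (A.decompositionSubgroup K).subtype s,
      (A.decompositionSubgroup K).mul_mem hτD s.2⟩ : A.decompositionSubgroup K)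
      = ⟨τ, hτD⟩ * s := rfl
  rw [e, mul_smul, hs' x]
  exact hτres x

end Fermat.Agent.S29


end ZBS29_001_0

/-! ### bundled: `Fermat.Agent.ES1.TopCyclo` -/
section ZBS29_001_1

/-!
# ES₁ / TOP — the cyclotomic character modulo an arbitrary `N`

`S42.cycloChar N : G_ℚ →* (ℤ/N)ˣ` (any `N ≠ 0`):

* `es1top_cycloChar_frob`    : `χ_N(τ) = ℓ` for a Frobenius `τ` at a place over `ℓ ∤ N`;
* `es1top_cycloChar_inertia` : `χ_N` is trivial on the inertia groups at places over `ℓ ∤ N`;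
* `es1top_cycloChar_level`   : `χ_N` is trivial on `Gal(ℚ̄/E)` for a finite extension `E/ℚ`.
-/

set_option autoImplicit false

namespace Fermat.Agent.ES1

open Fermat.Agent.S42

/-- `n` is a unit at a valuation subring over a prime `q ∤ n`. -/
theorem es1top_natCast_not_mem_nonunits {L : Type*} [Field L] (A : ValuationSubring L) {n q : ℕ}
    (hq : q.Prime) (hqn : ¬ q ∣ n) (hA : A.LiesOverPrime q) :
    ((n : ℕ) : L) ∉ A.nonunits := by
  intro h
  have hcop : Nat.Coprime n q := ((Nat.Prime.coprime_iff_not_dvd hq).mpr hqn).symm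
  obtain ⟨u, v, huv⟩ := Nat.Coprime.isCoprime hcop
  have h1 : ((u : L) * ((n : ℕ) : L) + (v : L) * (q : L)) = 1 := by
    have := congrArg (fun z : ℤ => (z : L)) huv
    simpa using this
  have hu : (u : L) ∈ A := intCast_mem A u
  have hv : (v : L) ∈ A := intCast_mem A v
  have h2 : A.valuation ((u : L) * ((n : ℕ) : L) + (v : L) * (q : L)) < 1 := by
    apply Valuation.map_add_lt
    · rw [map_mul]
      calc A.valuation (u : L) * A.valuation ((n : ℕ) : L)
          ≤ 1 * A.valuation ((n : ℕ) : L) :=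
            mul_le_mul_left ((A.valuation_le_one_iff _).mpr hu) _
        _ = A.valuation ((n : ℕ) : L) := one_mul _
        _ < 1 := A.mem_nonunits_iff.mp h
    · rw [map_mul]
      calc A.valuation (v : L) * A.valuation (q : L)
          ≤ 1 * A.valuation (q : L) :=
            mul_le_mul_left ((A.valuation_le_one_iff _).mpr hv) _
        _ = A.valuation (q : L) := one_mul _
        _ < 1 := A.mem_nonunits_iff.mp hA
  rw [h1, map_one] at h2
  exact lt_irrefl _ h2

/-- `χ_N(τ) = ℓ` for a Frobenius `τ` at a valuation subring over a prime `ℓ ∤ N`. -/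
theorem es1top_cycloChar_frob (N : ℕ) [NeZero N] (ℓ : ℕ) (hℓ : ℓ.Prime) (hℓN : ¬ ℓ ∣ N)
    (A : ValuationSubring (AlgebraicClosure ℚ)) (hA : A.LiesOverPrime ℓ)
    (τ : AlgebraicClosure ℚ ≃ₐ[ℚ] AlgebraicClosure ℚ) (hτ : A.IsFrobeniusAt τ ℓ) :
    ((cycloChar N τ : (ZMod N)ˣ) : ZMod N) = (ℓ : ZMod N) := by
  have : NeZero (N : AlgebraicClosure ℚ) := ⟨Nat.cast_ne_zero.mpr (NeZero.ne N)⟩
  obtain ⟨ζ, hζ⟩ := HasEnoughRootsOfUnity.exists_primitiveRoot (AlgebraicClosure ℚ) N
  have hN : ((N : ℕ) : AlgebraicClosure ℚ) ∉ A.nonunits :=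
    es1top_natCast_not_mem_nonunits A hℓ hℓN hA
  have h1 : τ ζ = ζ ^ ℓ :=
    Fermat.Agent.S31.frob_rootOfUnity A hN (NeZero.ne N) hτ hζ.pow_eq_one
  have h2 := cycloChar_spec N τ hζ
  set a : ℕ := ((cycloChar N τ : (ZMod N)ˣ) : ZMod N).val with ha
  have h3 : ζ ^ a = ζ ^ ℓ := h2.symm.trans h1
  have hmod : a ≡ ℓ [MOD N] := by
    have hu : (hζ.isUnit (NeZero.ne N)).unit ^ a = (hζ.isUnit (NeZero.ne N)).unit ^ ℓ :=
      Units.ext (by simpa using h3)
    have hord : orderOf (hζ.isUnit (NeZero.ne N)).unit = N := by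
      rw [← orderOf_units, IsUnit.unit_spec]
      exact hζ.eq_orderOf.symm
    have := (pow_eq_pow_iff_modEq (x := (hζ.isUnit (NeZero.ne N)).unit) (n := a) (m := ℓ)).mp hu
    rwa [hord] at this
  have h4 : ((a : ℕ) : ZMod N) = (ℓ : ZMod N) := (ZMod.natCast_eq_natCast_iff _ _ _).mpr hmod
  rw [← h4, ha, ZMod.natCast_zmod_val]

/-- `χ_N` is unramified at the primes `ℓ ∤ N`. -/
theorem es1top_cycloChar_inertia (N : ℕ) [NeZero N] (ℓ : ℕ) (hℓ : ℓ.Prime) (hℓN : ¬ ℓ ∣ N)
    (A : ValuationSubring (AlgebraicClosure ℚ)) (hA : A.LiesOverPrime ℓ)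
    (σ : AlgebraicClosure ℚ ≃ₐ[ℚ] AlgebraicClosure ℚ) (hσ : σ ∈ A.inertiaSubgroupIn ℚ) :
    cycloChar N σ = 1 := by
  obtain ⟨τ, hτ⟩ := Fermat.Agent.Common.exists_isFrobeniusAt_of_liesOverPrime ℓ hℓ A hA
  have h1 := es1top_cycloChar_frob N ℓ hℓ hℓN A hA τ hτ
  have h2 := es1top_cycloChar_frob N ℓ hℓ hℓN A hA (τ * σ)
    (Fermat.Agent.S29.isFrobeniusAt_mul_inertia hτ hσ)
  have h3 : cycloChar N (τ * σ) = cycloChar N τ := Units.ext (h2.trans h1.symm)
  rw [map_mul] at h3
  exact mul_left_cancel (h3.trans (mul_one _).symm)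

/-- `χ_N` has finite level. -/
theorem es1top_cycloChar_level (N : ℕ) [NeZero N] :
    ∃ E : IntermediateField ℚ (AlgebraicClosure ℚ), FiniteDimensional ℚ E ∧
      ∀ σ : AlgebraicClosure ℚ ≃ₐ[ℚ] AlgebraicClosure ℚ, (∀ x ∈ E, σ x = x) →
        cycloChar N σ = 1 := by
  have : NeZero (N : AlgebraicClosure ℚ) := ⟨Nat.cast_ne_zero.mpr (NeZero.ne N)⟩
  obtain ⟨ζ, hζ⟩ := HasEnoughRootsOfUnity.exists_primitiveRoot (AlgebraicClosure ℚ) N
  refine ⟨IntermediateField.adjoin ℚ {ζ}, ?_, ?_⟩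
  · have hint : IsIntegral ℚ ζ :=
      (hζ.isIntegral (Nat.pos_of_ne_zero (NeZero.ne N))).tower_top
    exact IntermediateField.adjoin.finiteDimensional hint
  · intro σ hσ
    apply cycloChar_eq_one N σ hζ
    exact hσ ζ (IntermediateField.mem_adjoin_simple_self ℚ ζ)

end Fermat.Agent.ES1


end ZBS29_001_1
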