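/- GENERATED FILE (helper35, build-time optimisation, NOTES/ZB.md): verbatim concatenation of the modules
   Fermat.Agent.ES1.KDLiftGauss
   Fermat.Agent.ES1.KDLiftEnd
   Fermat.Agent.ES1.KDLiftInd
   Fermat.Agent.ES1.KDLift
   Fermat.Agent.ES1.InjInstDone
   Fermat.Agent.ES1.G2.Final
   Fermat.Agent.ES1.Inf.PkgMu
   Fermat.Agent.ES1.Inf.PkgData
   Fermat.Agent.ES1.Inf.PkgFaith
   Fermat.Agent.ES1.Inf.TwDefs
   Fermat.Agent.ES1.Inf.TwPkg
   Fermat.Agent.ES1.Inf.FaithK5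
   Fermat.Agent.ES1.Inf.FaithK5Expr
   Fermat.Agent.RT.Hecke.ConcFaith
   Fermat.Agent.ES1.Inf.TwChi
   Fermat.Agent.ES1.Inf.EvalK5
   Fermat.Agent.ES1.Inf.TwChi5
   Do not edit; do not import together with these modules. -/
import Mathlib
import Fermat.Agent.ZB.INJ_003
import Fermat.Agent.ZB.S28_002
import Fermat.Agent.ZB.INJ_020
import Fermat.Agent.ZB.INJ_009
import Fermat.Agent.ZB.ES1_002
import Fermat.Agent.ZB.ES1_019
import Fermat.Agent.ZB.INJ_034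
import Fermat.Agent.ZB.ES1_021
import Fermat.Agent.ZB.ES1_012
import Fermat.Agent.ZB.ES1_009
import Fermat.Agent.ZB.ES1_005
import Fermat.Agent.ZB.ES1_003
import Fermat.Agent.ZB.S29_001
import Fermat.Agent.ZB.RT_018
import Fermat.Agent.ZB.RT_019
import Fermat.Agent.ZB.RT_028
import Fermat.Agent.ZB.RT_039
import Fermat.Agent.ZB.ES1_001
import Fermat.Agent.ZB.RT_045

/-! ### bundled: `Fermat.Agent.ES1.KDLiftGauss` -/
section ZBES1_020_0

/-!
# ES₁ / INJ₁-KD, part 3: the Gauss ring is integrally closed in `Λ_π[1/π]`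

* `kdl_bdd` : an `E(t)`-combination of series over `A` lies in the Gauss ring after
  multiplication by a power of `π`;
* `kdl_mem_gaussRing_of_root` : a root `w` of a monic polynomial over the Gauss ring with
  `π ^ e w` in the Gauss ring lies in the Gauss ring.
-/

set_option autoImplicit false
set_option linter.style.haveILetI false
set_option linter.unusedSectionVars false

noncomputable section

namespace Fermat.Agent.ES1

open Polynomial ModularCurve IntermediateField Fermat.Agent.S28 Fermat.Agent.INJ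

section Bdd

variable {A E k : Type*} [CommRing A] [IsDomain A] [Field E] [Algebra A E] [IsFractionRing A E]
  [Field k] (r : A →+* k)

/-- the constant `π` of `E((q))` -/
theorem kdl_aeval_C_pow_mul (α : LaurentSeries E) (π : A) (e : ℕ) (a : A[X]) :
    aeval α (((C π) ^ e * a).map (algebraMap A E)) =
      (HahnSeries.C (algebraMap A E π) : LaurentSeries E) ^ e *
        aeval α (a.map (algebraMap A E)) := by
  rw [Polynomial.map_mul, Polynomial.map_pow, Polynomial.map_C, map_mul, map_pow, aeval_C,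
    algebraMap_laurentSeries_eq_single]
  rfl

/-- **Bounded denominators.** -/
theorem kdl_bdd [WfDvdMonoid A[X]] {π : A} (hπ : Prime π) (hr : ∀ a, r a = 0 → π ∣ a)
    (t₀ : LaurentSeries A) (ht : Transcendental k (coeffMap r t₀))
    {J : Type*} [Fintype J] (y : J → LaurentSeries A) (c : J → LaurentSeries E)
    (hc : ∀ j, c j ∈ adjoin E {coeffMap (algebraMap A E) t₀}) :
    ∃ e : ℕ, (HahnSeries.C (algebraMap A E π) : LaurentSeries E) ^ e *
        ∑ j, c j * coeffMap (algebraMap A E) (y j) ∈ gaussRing (algebraMap A E) r := by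
  classical
  obtain ⟨D, hD, hDP⟩ := redDVR_exists_common_denominator (A := A)
    (coeffMap (algebraMap A E) t₀) c hc Finset.univ
  choose P hP using fun j => hDP j (Finset.mem_univ j)
  have hD0 : D ≠ 0 := by
    rintro rfl
    apply hD
    rw [Polynomial.map_zero, map_zero]
  have hCπ : Irreducible (C π : A[X]) := ((Polynomial.prime_C_iff).2 hπ).irreducible
  obtain ⟨e, a, ha, hDa⟩ := WfDvdMonoid.max_power_factor hD0 hCπ
  have har : a.map r ≠ 0 := by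
    intro h0
    obtain ⟨g', hg'⟩ := exists_eq_C_mul_of_map_eq_zero hr h0
    exact ha ⟨g', hg'⟩
  refine ⟨e, ∑ j, aeval t₀ (P j) * y j, aeval t₀ a, ?_, ?_⟩
  · rw [redDVR_coeffMap_aeval]
    intro h0
    exact har (transcendental_iff.mp ht _ h0)
  · rw [redDVR_coeffMap_aeval, map_sum]
    simp_rw [map_mul, redDVR_coeffMap_aeval, ← hP]
    have h1 := kdl_aeval_C_pow_mul (coeffMap (algebraMap A E) t₀) π e a
    rw [← hDa] at h1
    rw [h1, Finset.mul_sum, Finset.mul_sum]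
    refine Finset.sum_congr rfl fun j _ => ?_
    ring

end Bdd

section Closed

variable {A E k : Type*} [CommRing A] [Field E] [Field k] {ι : A →+* E} (r : A →+* k)
  (hι : Function.Injective ι)

include hι in
/-- **The Gauss ring is integrally closed in its localisation at `π`.** -/
theorem kdl_mem_gaussRing_of_root {π : A} (hπ0 : π ≠ 0) (hπ : r π = 0)
    (hker : ∀ a, r a = 0 → π ∣ a) (p : Polynomial (gaussRing ι r)) (hp : p.Monic)
    (w : LaurentSeries E) (hpw : eval₂ (gaussRing ι r).subtype w p = 0) :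
    ∀ e : ℕ, (HahnSeries.C (ι π) : LaurentSeries E) ^ e * w ∈ gaussRing ι r →
      w ∈ gaussRing ι r := by
  have hC0 : (HahnSeries.C (ι π) : LaurentSeries E) ≠ 0 := by
    intro h0
    have h1 := congrArg (fun z : LaurentSeries E => z.coeff 0) h0
    simp only [HahnSeries.C_apply, HahnSeries.coeff_single_same, HahnSeries.coeff_zero] at h1
    exact hπ0 (hι (by rw [h1, map_zero]))
  have hred0 : gaussRed r hι ⟨HahnSeries.C (ι π), hahnC_mem_gaussRing r π⟩ = 0 := by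
    have h3 := gaussRed_coeffMap r hι (HahnSeries.C π : LaurentSeries A)
    have h4 : (⟨coeffMap ι (HahnSeries.C π), coeffMap_mem_gaussRing ι r _⟩ : gaussRing ι r) =
        ⟨HahnSeries.C (ι π), hahnC_mem_gaussRing r π⟩ := Subtype.ext (Fermat.Agent.INJ.coeffMap_hahnC ι π)
    rw [h4] at h3
    rw [h3, Fermat.Agent.INJ.coeffMap_hahnC r, hπ, map_zero]
  intro e
  induction e with
  | zero => intro h; simpa using h
  | succ e ih =>
    intro hu
    apply ih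
    set s : gaussRing ι r := ⟨HahnSeries.C (ι π), hahnC_mem_gaussRing r π⟩ ^ (e + 1) with hs
    set u : gaussRing ι r := ⟨_, hu⟩ with hudef
    have hsu : (gaussRing ι r).subtype s * w = (gaussRing ι r).subtype u := by
      rw [hs, map_pow]
      rfl
    have h1 : eval₂ (gaussRing ι r).subtype ((gaussRing ι r).subtype u) (scaleRoots p s) = 0 := by
      rw [← hsu, scaleRoots_eval₂_mul, hpw, mul_zero]
    rw [eval₂_at_apply] at h1
    have h2 : eval u (scaleRoots p s) = 0 := Subtype.ext h1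
    have h3 := congrArg (gaussRed r hι) h2
    rw [map_zero, ← eval₂_at_apply, ← eval_map, map_scaleRoots _ _ _ (by
      rw [hp.leadingCoeff, map_one]; exact one_ne_zero)] at h3
    have hs0 : gaussRed r hι s = 0 := by
      rw [hs, map_pow, hred0, zero_pow (Nat.succ_ne_zero e)]
    rw [hs0, scaleRoots_zero, (hp.map _).leadingCoeff, one_smul, eval_pow, eval_X] at h3
    have h4 : gaussRed r hι u = 0 := by
      refine (pow_eq_zero_iff ?_).mp h3
      rw [hp.natDegree_map]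
      intro hnd
      have : p = 1 := hp.natDegree_eq_zero.mp hnd
      rw [this, eval₂_one] at hpw
      exact one_ne_zero hpw
    obtain ⟨y, hy⟩ := (gaussRed_eq_zero_iff_dvd r hι hπ hker u).mp h4
    have h5 : (HahnSeries.C (ι π) : LaurentSeries E) ^ e * w = (y : LaurentSeries E) := by
      have h6 : (HahnSeries.C (ι π) : LaurentSeries E) * ((HahnSeries.C (ι π)) ^ e * w) =
          HahnSeries.C (ι π) * (y : LaurentSeries E) := by
        rw [← hy, ← mul_assoc, ← pow_succ']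
      exact mul_left_cancel₀ hC0 h6
    rw [h5]
    exact y.2

end Closed

end Fermat.Agent.ES1

end
end ZBES1_020_0

/-! ### bundled: `Fermat.Agent.ES1.KDLiftEnd` -/
section ZBES1_020_1

/-!
# ES₁ / INJ₁-KD, part 4: the end game

`kdl_endgame` : let `F ⊆ E((q))` have bounded denominators, `π` prime in the integral closure `C₁`
of `A₀[t]` in `F`, `σ` an automorphism of `F` over `A₀[t]`.  If `Z ∈ A₀((q))` has image in `C₁`,
`σ Z = Z'` and `Z ≡ 0` modulo `π`, then `Z' ≡ 0` modulo `π`.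
(The centre of the Gauss valuation on `C₁` is `π C₁`, by incomparability.)
-/

set_option autoImplicit false
set_option linter.style.haveILetI false
set_option linter.unusedSectionVars false

noncomputable section

namespace Fermat.Agent.ES1

open Polynomial ModularCurve IntermediateField Fermat.Agent.S28 Fermat.Agent.INJ

section Aut

variable {A₀ Lf : Type*} [CommRing A₀] [Field Lf] [Algebra A₀ Lf]

/-- automorphisms over `A₀[t]` preserve integrality over `A₀[t]` -/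
theorem kdl_isIntegral_map_ringEquiv (t : Lf) (σ : Lf ≃+* Lf)
    (hσA : ∀ a : A₀, σ (algebraMap A₀ Lf a) = algebraMap A₀ Lf a) (hσt : σ t = t)
    (w : Lf) (hw : IsIntegral (Algebra.adjoin A₀ {t}) w) :
    IsIntegral (Algebra.adjoin A₀ {t}) (σ w) := by
  have hσR : ∀ x ∈ Algebra.adjoin A₀ {t}, σ x = x := by
    intro x hx
    induction hx using Algebra.adjoin_induction with
    | mem x hx =>
        rw [Set.mem_singleton_iff] at hx
        rw [hx, hσt]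
    | algebraMap a => exact hσA a
    | add x y _ _ hx hy => rw [map_add, hx, hy]
    | mul x y _ _ hx hy => rw [map_mul, hx, hy]
  obtain ⟨P, hP, hPx⟩ := hw
  refine ⟨P, hP, ?_⟩
  have h1 : Polynomial.eval₂ (algebraMap (Algebra.adjoin A₀ {t}) Lf) (σ w) P
      = σ (Polynomial.eval₂ (algebraMap (Algebra.adjoin A₀ {t}) Lf) w P) := by
    rw [Polynomial.eval₂_eq_sum_range, Polynomial.eval₂_eq_sum_range, map_sum]
    refine Finset.sum_congr rfl fun i _ => ?_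
    rw [map_mul, map_pow]
    congr 1
    exact (hσR _ (P.coeff i).2).symm
  rw [h1, hPx, map_zero]

end Aut

section EndGame

variable {A₀ E k : Type*} [CommRing A₀] [IsDomain A₀] [Field E] [Algebra A₀ E]
  [IsFractionRing A₀ E] [Field k] (r : A₀ →+* k)
  (F : IntermediateField E (LaurentSeries E)) [Algebra A₀ F] [IsScalarTower A₀ E F]


/-- the image of `π` in `E((q))` -/
theorem kdl_coe_algebraMap (a : A₀) :
    ((algebraMap A₀ F a : F) : LaurentSeries E) = HahnSeries.C ((algebraMap A₀ E) a) := by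
  rw [IsScalarTower.algebraMap_apply A₀ E F]
  show algebraMap E (LaurentSeries E) ((algebraMap A₀ E) a) = _
  rw [algebraMap_laurentSeries_eq_single]
  rfl

variable {t₀ : LaurentSeries A₀} (ht_mem : coeffMap (algebraMap A₀ E) t₀ ∈ F)

/-- elements of `A₀[t]` lie in the Gauss ring -/
theorem kdl_adjoin_mem_gaussRing (x : F)
    (hx : x ∈ Algebra.adjoin A₀ {(⟨coeffMap (algebraMap A₀ E) t₀, ht_mem⟩ : F)}) :
    ∃ g : A₀[X], x = aeval (⟨coeffMap (algebraMap A₀ E) t₀, ht_mem⟩ : F) g ∧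
      (x : LaurentSeries E) = coeffMap (algebraMap A₀ E) (aeval t₀ g) := by
  rw [Algebra.adjoin_singleton_eq_range_aeval] at hx
  obtain ⟨g, rfl⟩ := hx
  refine ⟨g, rfl, ?_⟩
  exact bgInt_map_aeval (F.val) (τ := (⟨coeffMap (algebraMap A₀ E) t₀, ht_mem⟩ : F)) rfl g

/-- integral elements lie in the Gauss ring -/
theorem kdl_integral_mem_gaussRing {π : A₀} (hπ0 : π ≠ 0) (hrπ : r π = 0)
    (hr : ∀ a, r a = 0 → π ∣ a)
    (hbdd : ∀ f ∈ F, ∃ e : ℕ,
      (HahnSeries.C ((algebraMap A₀ E) π) : LaurentSeries E) ^ e * f ∈ (gaussRing (algebraMap A₀ E) r))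
    (w : F) (hw : IsIntegral (Algebra.adjoin A₀ {(⟨coeffMap (algebraMap A₀ E) t₀, ht_mem⟩ : F)}) w) :
    (w : LaurentSeries E) ∈ (gaussRing (algebraMap A₀ E) r) := by
  have hι : Function.Injective (algebraMap A₀ E) := IsFractionRing.injective A₀ E
  set R₁ := Algebra.adjoin A₀ {(⟨coeffMap (algebraMap A₀ E) t₀, ht_mem⟩ : F)} with hR₁
  have hmem : ∀ x : R₁, (F.val.toRingHom.comp (algebraMap R₁ F)) x ∈ (gaussRing (algebraMap A₀ E) r) := by
    intro x
    obtain ⟨g, -, hg⟩ := kdl_adjoin_mem_gaussRing F ht_mem (x : F) x.2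
    show ((x : F) : LaurentSeries E) ∈ (gaussRing (algebraMap A₀ E) r)
    rw [hg]
    exact coeffMap_mem_gaussRing _ r _
  let φ : R₁ →+* (gaussRing (algebraMap A₀ E) r) := RingHom.codRestrict (F.val.toRingHom.comp (algebraMap R₁ F)) (gaussRing (algebraMap A₀ E) r) hmem
  obtain ⟨p₀, hp₀, hp₀w⟩ := hw
  obtain ⟨e, he⟩ := hbdd w w.2
  refine kdl_mem_gaussRing_of_root r hι hπ0 hrπ hr (p₀.map φ) (hp₀.map φ) _ ?_ e he
  rw [eval₂_map]
  have h1 : (gaussRing (algebraMap A₀ E) r).subtype.comp φ = F.val.toRingHom.comp (algebraMap R₁ F) := by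
    ext x
    rfl
  rw [h1]
  have h2 := congrArg F.val hp₀w
  rw [map_zero] at h2
  rw [← h2]
  exact (Polynomial.hom_eval₂ p₀ (algebraMap R₁ F) F.val.toRingHom w).symm

/-- **End game.** -/
theorem kdl_endgame {π : A₀} (hrπ : r π = 0) (hr : ∀ a, r a = 0 → π ∣ a)
    (htr : Transcendental k (coeffMap r t₀))
    (hbdd : ∀ f ∈ F, ∃ e : ℕ,
      (HahnSeries.C ((algebraMap A₀ E) π) : LaurentSeries E) ^ e * f ∈ (gaussRing (algebraMap A₀ E) r))
    (hprime : Prime (algebraMap A₀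
      (integralClosure (Algebra.adjoin A₀ {(⟨coeffMap (algebraMap A₀ E) t₀, ht_mem⟩ : F)}) F) π))
    (σ : F ≃+* F) (hσA : ∀ a : A₀, σ (algebraMap A₀ F a) = algebraMap A₀ F a)
    (hσt : σ ⟨coeffMap (algebraMap A₀ E) t₀, ht_mem⟩ = ⟨coeffMap (algebraMap A₀ E) t₀, ht_mem⟩)
    (Z Z' : LaurentSeries A₀) (hZ : coeffMap (algebraMap A₀ E) Z ∈ F)
    (hZint : IsIntegral (Algebra.adjoin A₀ {(⟨coeffMap (algebraMap A₀ E) t₀, ht_mem⟩ : F)})
      (⟨coeffMap (algebraMap A₀ E) Z, hZ⟩ : F))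
    (hσZ : ((σ ⟨coeffMap (algebraMap A₀ E) Z, hZ⟩ : F) : LaurentSeries E) = coeffMap (algebraMap A₀ E) Z')
    (hred : coeffMap r Z = 0) : coeffMap r Z' = 0 := by
  classical
  have hι : Function.Injective (algebraMap A₀ E) := IsFractionRing.injective A₀ E
  set tF : F := ⟨coeffMap (algebraMap A₀ E) t₀, ht_mem⟩ with htF
  set R₁ := Algebra.adjoin A₀ {tF} with hR₁
  set C₁ := integralClosure R₁ F with hC₁
  letI algRC : Algebra R₁ C₁ := Subalgebra.algebra (integralClosure R₁ F)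
  have hπ0 : π ≠ 0 := by
    rintro rfl
    exact hprime.ne_zero (map_zero _)
  have hCG : ∀ w : F, IsIntegral R₁ w → (w : LaurentSeries E) ∈ (gaussRing (algebraMap A₀ E) r) :=
    fun w hw => kdl_integral_mem_gaussRing r F ht_mem hπ0 hrπ hr hbdd w hw
  -- the reduction on `C₁`
  have hmem : ∀ x : C₁, (F.val.toRingHom.comp (algebraMap C₁ F)) x ∈ (gaussRing (algebraMap A₀ E) r) := fun x => hCG x x.2
  let ψ : C₁ →+* (gaussRing (algebraMap A₀ E) r) := RingHom.codRestrict (F.val.toRingHom.comp (algebraMap C₁ F)) (gaussRing (algebraMap A₀ E) r) hmem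
  let ρ : C₁ →+* LaurentSeries k := (gaussRed r hι).comp ψ
  have hρ : ∀ (x : C₁) (T : LaurentSeries A₀), ((x : F) : LaurentSeries E) = coeffMap (algebraMap A₀ E) T →
      ρ x = coeffMap r T := by
    intro x T hx
    show gaussRed r hι (ψ x) = _
    have : ψ x = ⟨coeffMap (algebraMap A₀ E) T, coeffMap_mem_gaussRing _ r T⟩ := Subtype.ext hx
    rw [this, gaussRed_coeffMap]
  -- the two ideals
  set I : Ideal C₁ := Ideal.span {algebraMap A₀ C₁ π} with hI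
  set J : Ideal C₁ := RingHom.ker ρ with hJ
  haveI hIprime : I.IsPrime := (Ideal.span_singleton_prime hprime.ne_zero).mpr hprime
  have hπC : ((algebraMap A₀ C₁ π : C₁) : F) = algebraMap A₀ F π := rfl
  have hIJ : I ≤ J := by
    rw [hI, Ideal.span_le, Set.singleton_subset_iff]
    show ρ (algebraMap A₀ C₁ π) = 0
    rw [hρ _ (HahnSeries.C π) (by rw [hπC, kdl_coe_algebraMap, Fermat.Agent.INJ.coeffMap_hahnC]),
      Fermat.Agent.INJ.coeffMap_hahnC, hrπ, map_zero]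
  have hcomap : J.comap (algebraMap R₁ C₁) ≤ I.comap (algebraMap R₁ C₁) := by
    intro x hx
    rw [Ideal.mem_comap] at hx ⊢
    obtain ⟨g, hg, hgΩ⟩ := kdl_adjoin_mem_gaussRing F ht_mem (x : F) x.2
    have h1 : ρ (algebraMap R₁ C₁ x) = coeffMap r (aeval t₀ g) := hρ _ _ hgΩ
    have h2 : coeffMap r (aeval t₀ g) = 0 := by rw [← h1]; exact hx
    rw [redDVR_coeffMap_aeval] at h2
    have h3 : g.map r = 0 := transcendental_iff.mp htr _ h2
    obtain ⟨g', hg'⟩ := exists_eq_C_mul_of_map_eq_zero hr h3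
    have hg'mem : aeval tF g' ∈ R₁ := by
      rw [hR₁, Algebra.adjoin_singleton_eq_range_aeval]; exact ⟨g', rfl⟩
    have h4 : algebraMap R₁ C₁ x = algebraMap A₀ C₁ π * algebraMap R₁ C₁ ⟨aeval tF g', hg'mem⟩ := by
      apply Subtype.ext
      show (x : F) = algebraMap A₀ F π * aeval tF g'
      rw [hg, hg', map_mul, aeval_C]
    rw [h4, hI]
    exact Ideal.mul_mem_right _ _ (Ideal.subset_span rfl)
  have hJI : J ≤ I := by
    intro z hz
    by_contra hzI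
    have hlt := Ideal.comap_lt_comap_of_integral_mem_sdiff (R := R₁) hIJ
      (x := z) ⟨hz, hzI⟩ (integralClosure.isIntegral z)
    exact absurd hcomap (not_le_of_gt hlt)
  -- the element
  set z : C₁ := ⟨⟨coeffMap (algebraMap A₀ E) Z, hZ⟩, hZint⟩ with hz
  have hzJ : z ∈ J := by
    show ρ z = 0
    rw [hρ z Z rfl, hred]
  obtain ⟨w, hw⟩ := Ideal.mem_span_singleton.mp (hJI hzJ)
  have hwF : (⟨coeffMap (algebraMap A₀ E) Z, hZ⟩ : F) = algebraMap A₀ F π * (w : F) := by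
    have := congrArg (fun x : C₁ => (x : F)) hw
    exact this
  have hσw : IsIntegral R₁ (σ (w : F)) := kdl_isIntegral_map_ringEquiv tF σ hσA hσt _ w.2
  have hσwG := hCG _ hσw
  have h5 : coeffMap (algebraMap A₀ E) Z' = HahnSeries.C ((algebraMap A₀ E) π) * ((σ (w : F) : F) : LaurentSeries E) := by
    rw [← hσZ, hwF, map_mul, hσA, ← kdl_coe_algebraMap F π]
    rfl
  have h6 : gaussRed r hι ⟨coeffMap (algebraMap A₀ E) Z', coeffMap_mem_gaussRing _ r Z'⟩ = 0 :=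
    (gaussRed_eq_zero_iff_dvd r hι hrπ hr _).mpr ⟨⟨_, hσwG⟩, h5⟩
  rwa [gaussRed_coeffMap] at h6

end EndGame

end Fermat.Agent.ES1

end
end ZBES1_020_1

/-! ### bundled: `Fermat.Agent.ES1.KDLiftInd` -/
section ZBES1_020_2

/-!
# ES₁ / INJ₁-KD, part 8: span and integral independence of the family `x i * S₀ ^ k`
-/

set_option autoImplicit false
set_option linter.style.haveILetI false
set_option linter.unusedSectionVars false

noncomputable section

namespace Fermat.Agent.ES1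

open Polynomial ModularCurve IntermediateField Fermat.Agent.S28 Fermat.Agent.INJ

open ChartGB

section Span

variable {A₀ E k : Type} [CommRing A₀] [IsDomain A₀] [Field E] [Algebra A₀ E]
  [IsFractionRing A₀ E] [Field k] {r : A₀ →+* k}
  {F₀ F : IntermediateField E (LaurentSeries E)}
  [Algebra F₀ F] [IsScalarTower E F₀ F]
  {t₀ : LaurentSeries A₀} {n : ℕ} {x : Fin n → LaurentSeries A₀}
  {m : ℕ} {S : Fin (m + 1) → LaurentSeries A₀}

/-- the family `x i * S₀ ^ k` spans `F` over `E(t)` -/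
theorem kdl_span
    (hcoe : ∀ x : F₀, ((algebraMap F₀ F x : F) : LaurentSeries E) = (x : LaurentSeries E))
    (kd : GaussKD r F₀ t₀ x) (hS : ConjFamily r F₀ F S) :
    ∀ f ∈ F, ∃ c : Fin n × Fin (m + 1) → LaurentSeries E,
      (∀ j, c j ∈ adjoin E {coeffMap (algebraMap A₀ E) t₀}) ∧
        f = ∑ j, c j * coeffMap (algebraMap A₀ E) (x j.1 * S 0 ^ (j.2 : ℕ)) := by
  classical
  intro f hf
  obtain ⟨σ, hσ⟩ := kdl_sigma hcoe hS
  have hgen := kdl_gen hcoe hS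
  obtain ⟨P, hP, hdeg, hroot⟩ := kdl_poly hcoe hS
  have hσinj : Function.Injective
      (fun b => σ b (⟨coeffMap (algebraMap A₀ E) (S 0), hS.mem 0⟩ : F)) := by
    intro a b hab
    simp only [hσ] at hab
    exact kdl_conj_injective hS hab
  have hfr := kdl_finrank _ hgen P hP hdeg hroot σ hσinj
  obtain ⟨c, hc⟩ : ∃ c : Module.Basis (Fin (m + 1)) F₀ F, ∀ l : Fin (m + 1),
      c l = (⟨coeffMap (algebraMap A₀ E) (S 0), hS.mem 0⟩ : F) ^ (l : ℕ) :=
    ⟨BGBasis.kBasis (Nat.succ_pos m) _ hfr hgen, BGBasis.kBasis_apply _ _ _ _⟩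
  have h1 : (⟨f, hf⟩ : F) = ∑ l, algebraMap F₀ F (c.repr ⟨f, hf⟩ l) *
      (⟨coeffMap (algebraMap A₀ E) (S 0), hS.mem 0⟩ : F) ^ (l : ℕ) := by
    conv_lhs => rw [← c.sum_repr ⟨f, hf⟩]
    refine Finset.sum_congr rfl fun l _ => ?_
    rw [Algebra.smul_def, hc]
  choose d hd hdf using fun l : Fin (m + 1) =>
    kd.span ((c.repr ⟨f, hf⟩ l : F₀) : LaurentSeries E) (c.repr ⟨f, hf⟩ l).2
  refine ⟨fun j => d j.2 j.1, fun j => hd j.2 j.1, ?_⟩
  have h2 := congrArg F.val h1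
  rw [map_sum] at h2
  have h3 : f = ∑ l : Fin (m + 1), (∑ i, d l i * coeffMap (algebraMap A₀ E) (x i)) *
      coeffMap (algebraMap A₀ E) (S 0) ^ (l : ℕ) := by
    refine h2.trans (Finset.sum_congr rfl fun l _ => ?_)
    rw [map_mul, map_pow, ← hdf l]
    congr 1
    exact hcoe _
  rw [h3, Fintype.sum_prod_type, Finset.sum_comm]
  refine Finset.sum_congr rfl fun l _ => ?_
  rw [Finset.sum_mul]
  refine Finset.sum_congr rfl fun i _ => ?_
  rw [map_mul, map_pow]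
  ring

end Span

section Ind

variable {A₀ E k : Type} [CommRing A₀] [IsDomain A₀] [IsDiscreteValuationRing A₀]
  [Field E] [Algebra A₀ E] [IsFractionRing A₀ E] [CharZero E] [Field k] {r : A₀ →+* k}
  {F₀ F : IntermediateField E (LaurentSeries E)}
  [Algebra A₀ F₀] [IsScalarTower A₀ E F₀] [Algebra A₀ F] [IsScalarTower A₀ E F]
  [Algebra F₀ F] [IsScalarTower E F₀ F] [IsScalarTower A₀ F₀ F]
  {t₀ : LaurentSeries A₀} {n : ℕ} {x : Fin n → LaurentSeries A₀}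
  {m : ℕ} {S : Fin (m + 1) → LaurentSeries A₀}

/-- the scaled relation is integral -/
theorem kdl_term_integral
    (hcoe : ∀ x : F₀, ((algebraMap F₀ F x : F) : LaurentSeries E) = (x : LaurentSeries E))
    (ht₀ : coeffMap (algebraMap A₀ E) t₀ ∈ F₀) (hle : F₀ ≤ F)
    (s s' g : A₀[X]) (X₀ : F₀) (Y : F) (l : Fin (m + 1))
    (hX : IsIntegral (Algebra.adjoin A₀ {(⟨coeffMap (algebraMap A₀ E) t₀, ht₀⟩ : F₀)})
      (aeval (⟨coeffMap (algebraMap A₀ E) t₀, ht₀⟩ : F₀) s' * X₀))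
    (hY : IsIntegral (Algebra.adjoin A₀ {(⟨coeffMap (algebraMap A₀ E) t₀, hle ht₀⟩ : F)})
      (aeval (⟨coeffMap (algebraMap A₀ E) t₀, hle ht₀⟩ : F) s * Y)) :
    IsIntegral (Algebra.adjoin A₀ {(⟨coeffMap (algebraMap A₀ E) t₀, hle ht₀⟩ : F)})
      (aeval (⟨coeffMap (algebraMap A₀ E) t₀, hle ht₀⟩ : F) (s' * s ^ m) *
        (aeval (⟨coeffMap (algebraMap A₀ E) t₀, hle ht₀⟩ : F) g *
          (algebraMap F₀ F X₀ * Y ^ (l : ℕ)))) := by
  obtain ⟨tF₀, htF₀⟩ : ∃ tF₀ : F₀, tF₀ = ⟨coeffMap (algebraMap A₀ E) t₀, ht₀⟩ := ⟨_, rfl⟩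
  obtain ⟨tF, htF⟩ : ∃ tF : F, tF = ⟨coeffMap (algebraMap A₀ E) t₀, hle ht₀⟩ := ⟨_, rfl⟩
  rw [← htF₀] at hX
  rw [← htF] at hY ⊢
  have htFF : algebraMap F₀ F tF₀ = tF := by
    rw [htF, htF₀]
    exact Subtype.ext (hcoe _)
  have h1 : aeval tF s' = algebraMap F₀ F (aeval tF₀ s') := by
    rw [← htFF, Polynomial.aeval_algebraMap_apply]
  have hl : (l : ℕ) ≤ m := Nat.lt_succ_iff.mp l.2
  have h2 : aeval tF (s' * s ^ m) * (aeval tF g * (algebraMap F₀ F X₀ * Y ^ (l : ℕ))) =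
      aeval tF g * algebraMap F₀ F (aeval tF₀ s' * X₀) * (aeval tF s) ^ (m - (l : ℕ)) *
        (aeval tF s * Y) ^ (l : ℕ) := by
    have h3 : (aeval tF s) ^ m = (aeval tF s) ^ (m - (l : ℕ)) * (aeval tF s) ^ (l : ℕ) := by
      rw [← pow_add, Nat.sub_add_cancel hl]
    rw [map_mul, map_pow, h3, map_mul, ← h1, mul_pow]
    ring
  rw [h2]
  have h4 : IsIntegral (Algebra.adjoin A₀ {tF}) (algebraMap F₀ F (aeval tF₀ s' * X₀)) := by
    have := BGBasis.isIntegral_adjoin_map (Lf := F) tF₀ _ hX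
    rwa [htFF] at this
  exact (((core_isIntegral_aeval tF g).mul h4).mul ((core_isIntegral_aeval tF s).pow _)).mul
    (hY.pow _)

set_option maxHeartbeats 1000000 in
/-- **Integral independence**: a relation modulo `π` with coefficients in `A₀[t]` between the
`x i * S₀ ^ k` is trivial modulo `π`. -/
theorem kdl_int_indep
    (hcoe : ∀ x : F₀, ((algebraMap F₀ F x : F) : LaurentSeries E) = (x : LaurentSeries E))
    {π : A₀} (hπ : Irreducible π) (hrπ : r π = 0) (hr : ∀ a, r a = 0 → π ∣ a)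
    (kd : GaussKD r F₀ t₀ x) (hS : ConjFamily r F₀ F S)
    (s : A₀[X]) (hs : s.map r ≠ 0)
    (hθint : IsIntegral
      (Algebra.adjoin A₀ {(⟨coeffMap (algebraMap A₀ E) t₀, hS.le kd.t_mem⟩ : F)})
      (aeval (⟨coeffMap (algebraMap A₀ E) t₀, hS.le kd.t_mem⟩ : F) s *
        ⟨coeffMap (algebraMap A₀ E) (S 0), hS.mem 0⟩))
    (hbdd : ∀ f ∈ F, ∃ e : ℕ, (HahnSeries.C (algebraMap A₀ E π) : LaurentSeries E) ^ e * f ∈
      gaussRing (algebraMap A₀ E) r)
    (hprime : Prime (algebraMap A₀ (integralClosure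
      (Algebra.adjoin A₀ {(⟨coeffMap (algebraMap A₀ E) t₀, hS.le kd.t_mem⟩ : F)}) F) π))
    (M : Fin n × Fin (m + 1) → A₀[X])
    (hM : coeffMap r (∑ j, aeval t₀ (M j) * (x j.1 * S 0 ^ (j.2 : ℕ))) = 0) :
    ∀ j, (M j).map r = 0 := by
  classical
  obtain ⟨σ, hσ⟩ := kdl_sigma hcoe hS
  obtain ⟨s', hs', hs'int⟩ := kdl_exists_scaling kd hπ hr
    (fun i => (⟨coeffMap (algebraMap A₀ E) (x i), kd.mem i⟩ : F₀))
    (fun i => coeffMap_mem_gaussRing _ r _)
  obtain ⟨tF₀, htF₀⟩ : ∃ tF₀ : F₀, tF₀ = ⟨coeffMap (algebraMap A₀ E) t₀, kd.t_mem⟩ := ⟨_, rfl⟩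
  obtain ⟨tF, htF⟩ : ∃ tF : F, tF = ⟨coeffMap (algebraMap A₀ E) t₀, hS.le kd.t_mem⟩ :=
    ⟨_, rfl⟩
  have htFF : algebraMap F₀ F tF₀ = tF := by
    rw [htF, htF₀]
    exact Subtype.ext (hcoe _)
  have htFΩ : F.val tF = coeffMap (algebraMap A₀ E) t₀ := by rw [htF]; rfl
  -- the elements
  obtain ⟨W, hW⟩ : ∃ W : Fin (m + 1) → LaurentSeries A₀, ∀ b, W b =
      aeval t₀ (s' * s ^ m) * ∑ j : Fin n × Fin (m + 1),
        aeval t₀ (M j) * (x j.1 * S b ^ (j.2 : ℕ)) := ⟨_, fun _ => rfl⟩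
  obtain ⟨w, hw⟩ : ∃ w : Fin (m + 1) → F, ∀ b, w b =
      ∑ j : Fin n × Fin (m + 1), aeval tF (s' * s ^ m) * (aeval tF (M j) *
        (algebraMap F₀ F ⟨coeffMap (algebraMap A₀ E) (x j.1), kd.mem j.1⟩ *
          (⟨coeffMap (algebraMap A₀ E) (S b), hS.mem b⟩ : F) ^ (j.2 : ℕ))) :=
    ⟨_, fun _ => rfl⟩
  have haev : ∀ g : A₀[X], F.val (aeval tF g) = coeffMap (algebraMap A₀ E) (aeval t₀ g) :=
    fun g => bgInt_map_aeval F.val htFΩ g
  have hwΩ : ∀ b, F.val (w b) = coeffMap (algebraMap A₀ E) (W b) := by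
    intro b
    have hR : coeffMap (algebraMap A₀ E) (aeval t₀ (s' * s ^ m) *
        ∑ j : Fin n × Fin (m + 1), aeval t₀ (M j) * (x j.1 * S b ^ (j.2 : ℕ))) =
        ∑ j : Fin n × Fin (m + 1), coeffMap (algebraMap A₀ E) (aeval t₀ (s' * s ^ m)) *
          (coeffMap (algebraMap A₀ E) (aeval t₀ (M j)) *
            (coeffMap (algebraMap A₀ E) (x j.1) *
              coeffMap (algebraMap A₀ E) (S b) ^ (j.2 : ℕ))) := by
      rw [Finset.mul_sum, map_sum]
      refine Finset.sum_congr rfl fun j _ => ?_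
      simp only [map_mul, map_pow]
    rw [hw, hW, map_sum, hR]
    refine Finset.sum_congr rfl fun j _ => ?_
    have h1 : ∀ (a c d e : F) (l : ℕ), F.val (a * (c * (d * e ^ l))) =
        F.val a * (F.val c * (F.val d * F.val e ^ l)) := by
      intro a c d e l
      simp only [map_mul, map_pow]
    rw [h1, haev, haev]
    congr 3
    exact hcoe _
  -- integrality of `w 0`
  have hw0int : IsIntegral (Algebra.adjoin A₀ {tF}) (w 0) := by
    rw [hw]
    refine IsIntegral.sum _ fun j _ => ?_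
    have := kdl_term_integral hcoe kd.t_mem hS.le s s' (M j)
      ⟨coeffMap (algebraMap A₀ E) (x j.1), kd.mem j.1⟩
      (⟨coeffMap (algebraMap A₀ E) (S 0), hS.mem 0⟩ : F) j.2 (hs'int j.1) hθint
    rw [← htF] at this
    exact this
  -- the automorphisms
  have hσaev : ∀ b (g : A₀[X]), σ b (aeval tF g) = aeval tF g := by
    intro b g
    have h1 : aeval tF g = algebraMap F₀ F (aeval tF₀ g) := by
      rw [← htFF, Polynomial.aeval_algebraMap_apply]
    rw [h1, AlgEquiv.commutes]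
  have hσw : ∀ b, σ b (w 0) = w b := by
    intro b
    rw [hw, hw, map_sum]
    refine Finset.sum_congr rfl fun j _ => ?_
    have h1 : ∀ (a c d e : F) (l : ℕ), σ b (a * (c * (d * e ^ l))) =
        σ b a * (σ b c * (σ b d * (σ b e) ^ l)) := by
      intro a c d e l
      simp only [map_mul, map_pow]
    rw [h1, hσaev, hσaev, AlgEquiv.commutes, hσ b]
  have hσA : ∀ b (a : A₀), (σ b).toRingEquiv (algebraMap A₀ F a) = algebraMap A₀ F a := by
    intro b a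
    rw [IsScalarTower.algebraMap_apply A₀ F₀ F]
    exact (σ b).commutes _
  have hσt : ∀ b, (σ b).toRingEquiv ⟨coeffMap (algebraMap A₀ E) t₀, hS.le kd.t_mem⟩ =
      ⟨coeffMap (algebraMap A₀ E) t₀, hS.le kd.t_mem⟩ := by
    intro b
    rw [← htF, ← htFF]
    exact (σ b).commutes _
  -- the end game
  have hW0 : coeffMap r (W 0) = 0 := by rw [hW, map_mul, hM, mul_zero]
  have hZ : coeffMap (algebraMap A₀ E) (W 0) ∈ F := by rw [← hwΩ]; exact (w 0).2
  have hZw : (⟨coeffMap (algebraMap A₀ E) (W 0), hZ⟩ : F) = w 0 := Subtype.ext (hwΩ 0).symm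
  have hWb : ∀ b, coeffMap r (W b) = 0 := by
    intro b
    refine kdl_endgame r F (hS.le kd.t_mem) hrπ hr kd.transc hbdd hprime (σ b).toRingEquiv
      (hσA b) (hσt b) (W 0) (W b) hZ ?_ ?_ hW0
    · rw [hZw, ← htF]; exact hw0int
    · rw [hZw]
      show F.val (σ b (w 0)) = _
      rw [hσw, hwΩ]
  -- cancel the scaling
  have hG : coeffMap r (aeval t₀ (s' * s ^ m)) ≠ 0 := by
    rw [redDVR_coeffMap_aeval]
    intro h0
    have h1 := transcendental_iff.mp kd.transc _ h0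
    rw [Polynomial.map_mul, Polynomial.map_pow] at h1
    exact (mul_ne_zero hs' (pow_ne_zero _ hs)) h1
  -- Vandermonde
  have hinjS : Function.Injective (fun b => coeffMap r (S b)) := by
    intro a b hab
    by_contra hne
    exact hS.red_ne a b hne hab
  have hv : ∀ b : Fin (m + 1), ∑ l : Fin (m + 1),
      (∑ i : Fin n, coeffMap r (aeval t₀ (M (i, l))) * coeffMap r (x i)) *
        (coeffMap r (S b)) ^ (l : ℕ) = 0 := by
    intro b
    have h1 := hWb b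
    rw [hW, map_mul] at h1
    have h2 := (mul_eq_zero.mp h1).resolve_left hG
    rw [map_sum, Fintype.sum_prod_type, Finset.sum_comm] at h2
    rw [← h2]
    refine Finset.sum_congr rfl fun l _ => ?_
    rw [Finset.sum_mul]
    refine Finset.sum_congr rfl fun i _ => ?_
    rw [map_mul, map_mul, map_pow]
    ring
  have hv0 := Matrix.eq_zero_of_forall_index_sum_mul_pow_eq_zero hinjS hv
  rintro ⟨i, l⟩
  have h1 : ∑ i : Fin n, coeffMap r (aeval t₀ (M (i, l))) * coeffMap r (x i) = 0 :=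
    congrFun hv0 l
  simp_rw [redDVR_coeffMap_aeval] at h1
  have h2 := kd.indep (fun i => aeval (coeffMap r t₀) ((M (i, l)).map r))
    (fun i => IntermediateField.algebra_adjoin_le_adjoin _ _
      (Polynomial.aeval_mem_adjoin_singleton _ _)) h1 i
  exact transcendental_iff.mp kd.transc _ h2

end Ind

end Fermat.Agent.ES1

end
end ZBES1_020_2

/-! ### bundled: `Fermat.Agent.ES1.KDLift` -/
section ZBES1_020_3

/-!
# ES₁ / INJ₁-KD: Gauss key data lift along a conjugate family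

`stmtKDLift : StmtKDLift` : Gauss key data for `F₀`, a conjugate family `S` with `F = F₀(S₀)` and
the hypotheses of the tame specialization theorem for `F` give Gauss key data for `F`
(family `x i * S₀ ^ k`).

Proof: the tower discriminant gives a good basis of `F` (`kdl_goodBasis`); the tame
specialization theorem makes `π` prime in the integral closure `C₁` of `A₀[t]` in `F`; by
incomparability the centre of the Gauss valuation on `C₁` is `π C₁`, so reduction modulo `π`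
commutes with the automorphisms of `F / F₀` (`kdl_endgame`); a relation modulo `π` therefore
holds for all conjugates, and the Vandermonde determinant of the `S̄ b` is nonzero
(`kdl_int_indep`); finally coefficients in `k ⊋ κ` are reduced to `κ` by linear functionals
(`kdl_indep_of_int'`).
-/

set_option autoImplicit false
set_option linter.style.haveILetI false
set_option linter.unusedSectionVars false

noncomputable section

namespace Fermat.Agent.ES1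

open Polynomial ModularCurve IntermediateField Fermat.Agent.S28 Fermat.Agent.INJ

section Package

variable {A₀ E k : Type} [CommRing A₀] [IsDomain A₀] [Field E] [Algebra A₀ E]
  [IsFractionRing A₀ E] [Field k] {r : A₀ →+* k}
  {F : IntermediateField E (LaurentSeries E)} {t₀ : LaurentSeries A₀}

/-- key data indexed by a finite type -/
theorem kdl_package {J : Type} [Fintype J] (y : J → LaurentSeries A₀)
    (ht : coeffMap (algebraMap A₀ E) t₀ ∈ F)
    (hmem : ∀ j, coeffMap (algebraMap A₀ E) (y j) ∈ F)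
    (hspan : ∀ f ∈ F, ∃ c : J → LaurentSeries E,
      (∀ j, c j ∈ adjoin E {coeffMap (algebraMap A₀ E) t₀}) ∧
        f = ∑ j, c j * coeffMap (algebraMap A₀ E) (y j))
    (hindep : ∀ c : J → LaurentSeries k, (∀ j, c j ∈ adjoin k {coeffMap r t₀}) →
      ∑ j, c j * coeffMap r (y j) = 0 → ∀ j, c j = 0)
    (htr : Transcendental k (coeffMap r t₀)) :
    ∃ (n' : ℕ) (x' : Fin n' → LaurentSeries A₀), GaussKD r F t₀ x' := by
  classical
  let e : J ≃ Fin (Fintype.card J) := Fintype.equivFin J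
  refine ⟨Fintype.card J, fun i => y (e.symm i), ⟨ht, fun i => hmem _, ?_, ?_, htr⟩⟩
  · intro f hf
    obtain ⟨c, hc, hfc⟩ := hspan f hf
    refine ⟨fun i => c (e.symm i), fun i => hc _, ?_⟩
    rw [hfc]
    exact (Equiv.sum_comp e.symm (fun j => c j * coeffMap (algebraMap A₀ E) (y j))).symm
  · intro c hc hrel i
    have h1 : ∑ j, c (e j) * coeffMap r (y j) = 0 := by
      rw [← hrel]
      rw [← Equiv.sum_comp e (fun i => c i * coeffMap r (y (e.symm i)))]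
      refine Finset.sum_congr rfl fun j _ => ?_
      rw [Equiv.symm_apply_apply]
    have h2 := hindep (fun j => c (e j)) (fun j => hc _) h1 (e.symm i)
    simpa using h2

end Package

/-- **(INJ₁-KD)** Gauss key data lift along a conjugate family. -/
theorem stmtKDLift : StmtKDLift := by
  intro A₀ E k _ _ _ _ _ _ _ _ r F₀ F π hπ hrπ hr t₀ n x kd ht₀ m S hS hgoodF₀ hfin Sg hSg e he
    hζe hram
  classical
  -- instances
  letI algF₀ : Algebra A₀ F₀ := coreAlg A₀ F₀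
  haveI towF₀ : IsScalarTower A₀ E F₀ := coreAlg_isScalarTower A₀ F₀
  letI algF : Algebra A₀ F := coreAlg A₀ F
  haveI towF : IsScalarTower A₀ E F := coreAlg_isScalarTower A₀ F
  letI algFF : Algebra F₀ F := kdlAlg hS.le
  haveI towEFF : IsScalarTower E F₀ F := kdlAlg_isScalarTower hS.le
  haveI towAFF : IsScalarTower A₀ F₀ F := IsScalarTower.of_algebraMap_eq (fun a => by
    apply Subtype.ext
    rfl)
  have hcoe : ∀ x : F₀, ((algebraMap F₀ F x : F) : LaurentSeries E) = (x : LaurentSeries E) :=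
    fun _ => rfl
  obtain ⟨s, hs, hθint, hgoodF⟩ := kdl_goodBasis hcoe hπ hrπ hr kd ht₀ hS hgoodF₀
  -- the tame specialization theorem
  have htrF : Transcendental E (⟨coeffMap (algebraMap A₀ E) t₀, hS.le kd.t_mem⟩ : F) :=
    bgConst_transcendental F _ (by
      show (coeffMap (algebraMap A₀ E) t₀).order ≠ 0
      rw [ht₀]; norm_num)
  obtain ⟨P₀, -, hP₀, -⟩ := bgConst_exists_place F
    (⟨coeffMap (algebraMap A₀ E) t₀, hS.le kd.t_mem⟩ : F) ht₀
  haveI := hfin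
  have hprime : Prime (algebraMap A₀ (integralClosure
      (Algebra.adjoin A₀ {(⟨coeffMap (algebraMap A₀ E) t₀, hS.le kd.t_mem⟩ : F)}) F) π) :=
    tameSpecStmt.{0} A₀ E F π hπ _ htrF (bgConst_mem_range_of_isAlgebraic F) hgoodF Sg hSg
      hram.1 e he hζe hram.2 ⟨P₀, hP₀⟩
  -- span and bounded denominators
  have hspan := kdl_span hcoe kd hS
  have hbdd : ∀ f ∈ F, ∃ e : ℕ, (HahnSeries.C (algebraMap A₀ E π) : LaurentSeries E) ^ e * f ∈
      gaussRing (algebraMap A₀ E) r := by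
    intro f hf
    obtain ⟨c, hc, hfc⟩ := hspan f hf
    obtain ⟨e, he⟩ := kdl_bdd r hπ.prime hr t₀ kd.transc
      (fun j : Fin n × Fin (m + 1) => x j.1 * S 0 ^ (j.2 : ℕ)) c hc
    exact ⟨e, by rw [hfc]; exact he⟩
  -- independence
  have hint := kdl_int_indep hcoe hπ hrπ hr kd hS s hs hθint hbdd hprime
  have hmax : (Ideal.span {π}).IsMaximal := by
    rw [← hπ.maximalIdeal_eq]
    exact IsLocalRing.maximalIdeal.isMaximal A₀
  have hindep := kdl_indep_of_int' r hmax hrπ hr t₀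
    (fun j : Fin n × Fin (m + 1) => x j.1 * S 0 ^ (j.2 : ℕ)) hint
  refine kdl_package (fun j : Fin n × Fin (m + 1) => x j.1 * S 0 ^ (j.2 : ℕ))
    (hS.le kd.t_mem) (fun j => ?_) hspan hindep kd.transc
  rw [map_mul, map_pow]
  exact mul_mem (hS.le (kd.mem j.1)) (pow_mem (hS.mem 0) _)

end Fermat.Agent.ES1

end
end ZBES1_020_3

/-! ### bundled: `Fermat.Agent.ES1.InjInstDone` -/
section ZBES1_020_4

/-!
# ES₁/INJ₁: **(INJ₁) is proved**

`stmtINJHAll : StmtINJHAll` — for `L ≠ 0`, `M ∣ L`, `H ≤ (ℤ/M)ˣ`, primes `ℓ ∤ L`, `p ≠ ℓ`: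
reduction modulo a place over `ℓ` is injective on `p`-th power classes of the function field
`fieldBar L M H` of `X_H(L; M)` (= `StmtINJH L M H ℓ p`).

Inputs: (INJ₁-KD) `stmtKDLift` (`ES1/KDLift.lean`), (F3-conj) `stmtDiamondH` (`ES1/Conj.lean`),
(F4) `stmtRamJH` (`ES1/RealFinal.lean`), the instantiations `ES1/InjInst*.lean`.
-/

set_option autoImplicit false

namespace Fermat.Agent.ES1

/-- **(INJ₁)**, unconditionally. -/
theorem stmtINJHAll : StmtINJHAll :=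
  stmtINJHAll_of_kd_diamond stmtKDLift stmtDiamondH

/-- **(INJ₁)** at a given level. -/
theorem stmtINJH {L M : ℕ} (H : Subgroup (ZMod M)ˣ) {ℓ p : ℕ} (hL : L ≠ 0) (hML : M ∣ L)
    (hℓ : ℓ.Prime) (hp : p.Prime) (hℓL : ¬ ℓ ∣ L) (hℓp : ℓ ≠ p) : StmtINJH L M H ℓ p :=
  stmtINJHAll L M H ℓ p hL hML hℓ hp hℓL hℓp

end Fermat.Agent.ES1


end ZBES1_020_4

/-! ### bundled: `Fermat.Agent.ES1.G2.Final` -/
section ZBES1_020_5

/-!
# ES₁ / G2: final form of the clauses (INJ₁, F3-conj, F4, H are proved)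

For `J = JH L M H`, `T = es1g2T L M H`, `D = es1Diamond L M H`:

* `es1g2_unramH : StmtUnramH` and `es1g2_final_unram` — UNCONDITIONAL;
* `es1g2_frobH : StmtSwapH → StmtFrobH` and `es1g2_final_frob` — from SWAP only;
* `es1g2_final_galois_hecke`, `es1g2_final_galois_diamond`, `es1g2_final_finite_level`,
  `es1g2_final_diamond_one`, `es1g2_final_diamond_mul` — UNCONDITIONAL.

These are exactly the hypotheses `hGT`, `hGD`, `hlev`, `hD1`, `hDmul`, `hfrob`, `hunr` of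
`ES1.es1b_clauses_of_unif` (take `L = M`).
-/

set_option autoImplicit false

noncomputable section

namespace Fermat.Agent.ES1.G2

open ModularCurve AlgebraicCurve Fermat.Agent.ES Fermat.Agent.ES1 Fermat.Agent.S48

/-- clause `unram` for `JH L M H`: inertia at `ℓ ∤ L m` acts trivially on the `m`-torsion -/
theorem es1g2_unramH : StmtUnramH := es1g2_unram stmtINJHAll

/-- clause `frob` for `JH L M H`, from SWAP -/
theorem es1g2_frobH (hswap : StmtSwapH) : StmtFrobH := es1g2_frob stmtINJHAll hswap stmtDiamondH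

variable {L M : ℕ} {H : Subgroup (ZMod M)ˣ}

theorem es1g2_final_unram (hL : L ≠ 0) (hML : M ∣ L) (p : ℕ) :
    ∀ ℓ : ℕ, ℓ.Prime → ¬ ℓ ∣ L * p →
      ∀ A : ValuationSubring (AlgebraicClosure ℚ), A.LiesOverPrime ℓ →
        ∀ σ ∈ A.inertiaSubgroupIn ℚ, ∀ x : JH L M H, p • x = 0 → σ • x = x :=
  es1g2_clause_unram stmtINJHAll hL hML p

theorem es1g2_final_frob (hswap : StmtSwapH) (hL : L ≠ 0) (hML : M ∣ L) (p : ℕ) :
    ∀ ℓ : ℕ, (hℓ : ℓ.Prime) → ¬ ℓ ∣ L * p →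
      ∀ c : (ZMod M)ˣ, (c : ZMod M) = (ℓ : ZMod M) →
      ∀ A : ValuationSubring (AlgebraicClosure ℚ), A.LiesOverPrime ℓ →
        ∀ τ : GalQ, A.IsFrobeniusAt τ ℓ →
          ∀ x : JH L M H, p • x = 0 →
            es1Diamond L M H c (τ • τ • x) - es1g2T L M H ⟨ℓ, hℓ⟩ (τ • x) + ℓ • x = 0 :=
  es1g2_clause_frob stmtINJHAll hswap stmtDiamondH hL hML
    (fun _ hL' hML' => es1hFin_all hL' hML') p

theorem es1g2_final_galois_hecke (σ : GalQ) (ℓ : Nat.Primes) (x : JH L M H) :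
    σ • es1g2T L M H ℓ x = es1g2T L M H ℓ (σ • x) :=
  es1g2_clause_galois_hecke σ ℓ x

theorem es1g2_final_galois_diamond (hL : L ≠ 0) (hML : M ∣ L) (σ : GalQ) (c : (ZMod M)ˣ)
    (x : JH L M H) : σ • es1Diamond L M H c x = es1Diamond L M H c (σ • x) :=
  es1g2_clause_galois_diamond stmtDiamondH hL hML σ c x

theorem es1g2_final_finite_level {p : ℕ} (hp : p ≠ 0) (x : JH L M H) (hx : p • x = 0) :
    ∃ E : IntermediateField ℚ (AlgebraicClosure ℚ), FiniteDimensional ℚ E ∧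
      ∀ σ : GalQ, (∀ a ∈ E, σ a = a) → σ • x = x :=
  es1g2_clause_finite_level hp x hx

theorem es1g2_final_diamond_one (x : JH L M H) : es1Diamond L M H 1 x = x :=
  es1g2_clause_diamond_one x

theorem es1g2_final_diamond_mul (hL : L ≠ 0) (hML : M ∣ L) (c d : (ZMod M)ˣ) (x : JH L M H) :
    es1Diamond L M H (c * d) x = es1Diamond L M H c (es1Diamond L M H d x) :=
  es1g2_clause_diamond_mul stmtDiamondH hL hML c d x

end Fermat.Agent.ES1.G2

end
end ZBES1_020_5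

/-! ### bundled: `Fermat.Agent.ES1.Inf.PkgMu` -/
section ZBES1_020_6

/-!
# ES₁-inf — `J = es1infJ L M H p`, its Hecke–diamond module structure and the multiplier map
(helper38)

`J := es1infJ L M H p = pDivTors p (JH L M H)`, the `p`-divisible part of the `p`-power torsion of
`J_H(L; M)(ℚ̄)`, for a GENERAL level `L` with `M ∣ L`.

* `es1infGalois L M H p : DistribMulAction GalQ J` (restriction);
* `es1infJOp L M H p i : End J` — `T_ℓ ↦ es1hHecke ℓ` (`ℓ ∤ L p`), `δ_c ↦ es1Diamond c`, `0` at the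
  bad `T_ℓ`;
* `es1infMu hML hp : J →+ Hom(Γ, ℂˣ)` — the multiplier map (restriction of `muMapH`),
  `es1infMu_injective`, `es1infMu_op` (equivariance for every variable);
* `es1infJOp_comm` : the operators commute on `J`;
* `es1infModule hML hp : Module (HDAlg M) J`, `es1infMu_smul` :
  `μ (t • x) = es1infHomEval t (μ x)` for EVERY polynomial `t`;
* `es1infMu_surj` : every `e(φ/pⁿ)`, `φ : Γ → ℤ` parabolic, is `μ x` with `x ∈ J[pⁿ]`.
-/

set_option autoImplicit false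
set_option linter.unusedSectionVars false
set_option linter.style.haveILetI false

noncomputable section

namespace Fermat.Agent.ES1

open ModularCurve AlgebraicCurve CongruenceSubgroup ModularCurve.Period
open Fermat.Agent.ES Fermat.Agent.S48
open scoped MatrixGroups

variable (L M : ℕ) [NeZero L] [NeZero M] (H : Subgroup (ZMod M)ˣ) (p : ℕ)

/-- the `p`-divisible part of the `p`-power torsion of `J_H(L; M)(ℚ̄)` -/
abbrev es1infJ : Type := ↥(pDivTors p (JH L M H))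

/-- the Galois action on `es1infJ` -/
@[reducible] def es1infGalois : DistribMulAction GalQ (es1infJ L M H p) where
  smul σ x := ⟨σ • (x : JH L M H),
    map_mem_pDivTors (DistribSMul.toAddMonoidHom (JH L M H) σ) x.2⟩
  one_smul x := Subtype.ext (one_smul GalQ (x : JH L M H))
  mul_smul σ τ x := Subtype.ext (mul_smul σ τ (x : JH L M H))
  smul_zero σ := Subtype.ext (smul_zero σ)
  smul_add σ x y := Subtype.ext (smul_add σ (x : JH L M H) (y : JH L M H))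

theorem es1infGalois_coe (σ : GalQ) (x : es1infJ L M H p) :
    ((letI := es1infGalois L M H p; σ • x : es1infJ L M H p) : JH L M H)
      = σ • (x : JH L M H) := rfl

/-- restriction of an additive endomorphism of `JH L M H` to `es1infJ` -/
def es1infRestrict (f : JH L M H →+ JH L M H) : Module.End ℤ (es1infJ L M H p) :=
  AddMonoidHom.toIntLinearMap
    { toFun := fun x => (⟨f x, map_mem_pDivTors f x.2⟩ : es1infJ L M H p)
      map_zero' := Subtype.ext (map_zero f)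
      map_add' := fun _ _ => Subtype.ext (map_add f _ _) }

theorem es1infRestrict_coe (f : JH L M H →+ JH L M H) (x : es1infJ L M H p) :
    (es1infRestrict L M H p f x : JH L M H) = f x := rfl

open Classical in
/-- the operator of a variable on `es1infJ`; `0` at the bad variables -/
def es1infJOp (i : HDVar M) : Module.End ℤ (es1infJ L M H p) :=
  if i ∈ es1inf_goodVars L M p then
    es1infRestrict L M H p (es1b_op (G2.es1g2T L M H) (G2.es1Diamond L M H) i)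
  else 0

variable {L M H p}

theorem es1infJOp_bad {i : HDVar M} (h : i ∉ es1inf_goodVars L M p) :
    es1infJOp L M H p i = 0 := by
  classical
  rw [es1infJOp, if_neg h]

theorem es1infJOp_inl {ℓ : Nat.Primes} (h : ¬ (ℓ : ℕ) ∣ L * p) (x : es1infJ L M H p) :
    (es1infJOp L M H p (Sum.inl ℓ) x : JH L M H) = G2.es1g2T L M H ℓ (x : JH L M H) := by
  classical
  rw [es1infJOp, if_pos (es1inf_inl_mem_goodVars.mpr h)]
  rfl

theorem es1infJOp_inr (c : (ZMod M)ˣ) (x : es1infJ L M H p) :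
    (es1infJOp L M H p (Sum.inr c) x : JH L M H) = G2.es1Diamond L M H c (x : JH L M H) := by
  classical
  rw [es1infJOp, if_pos (es1inf_inr_mem_goodVars L M p c)]
  rfl

theorem es1inf_coe_nsmul (k : ℕ) (x : es1infJ L M H p) :
    ((k • x : es1infJ L M H p) : JH L M H) = k • (x : JH L M H) :=
  AddSubgroup.coe_nsmul _ _ _

theorem es1inf_smul_eq_zero_iff (k : ℕ) (x : es1infJ L M H p) :
    k • x = 0 ↔ k • (x : JH L M H) = 0 := by
  rw [← es1inf_coe_nsmul, ← AddSubgroup.coe_zero (pDivTors p (JH L M H))]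
  exact Subtype.ext_iff

theorem es1inf_isPPowerTorsion_coe (x : es1infJ L M H p) :
    IsPPowerTorsion p (x : JH L M H) := x.2.1

/-- every element of `es1infJ` is `p`-power torsion -/
theorem es1inf_isPPowerTorsion (x : es1infJ L M H p) : IsPPowerTorsion p x := by
  obtain ⟨a, ha⟩ := x.2.1
  exact ⟨a, (es1inf_smul_eq_zero_iff _ _).mpr ha⟩

/-- `es1infJ` is `p`-divisible -/
theorem es1inf_divisible (x : es1infJ L M H p) : ∃ y : es1infJ L M H p, p • y = x := by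
  obtain ⟨y, hy, hyx⟩ := exists_mem_pDivTors_smul_eq x.2
  exact ⟨⟨y, hy⟩, Subtype.ext (by rw [es1inf_coe_nsmul]; exact hyx)⟩

/-- Galois commutes with the operators on `es1infJ` -/
theorem es1infJOp_galois (hML : M ∣ L) (σ : GalQ) (i : HDVar M) (x : es1infJ L M H p) :
    (letI := es1infGalois L M H p; σ • es1infJOp L M H p i x)
      = es1infJOp L M H p i (letI := es1infGalois L M H p; σ • x) := by
  letI := es1infGalois L M H p
  by_cases hi : i ∈ es1inf_goodVars L M p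
  · apply Subtype.ext
    rcases i with ℓ | c
    · have hℓ : ¬ (ℓ : ℕ) ∣ L * p := es1inf_inl_mem_goodVars.mp hi
      rw [es1infGalois_coe, es1infJOp_inl hℓ, es1infJOp_inl hℓ, es1infGalois_coe]
      exact G2.es1g2_final_galois_hecke σ ℓ (x : JH L M H)
    · rw [es1infGalois_coe, es1infJOp_inr, es1infJOp_inr, es1infGalois_coe]
      exact G2.es1g2_final_galois_diamond (NeZero.ne L) hML σ c (x : JH L M H)
  · rw [es1infJOp_bad hi, LinearMap.zero_apply, LinearMap.zero_apply, smul_zero]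

/-! ## The multiplier map -/

theorem es1inf_muE (hML : M ∣ L) : MuExistsH L M H := es1g1e_muExistsH hML H
theorem es1inf_muU (hML : M ∣ L) : MuUniqueH L M H := es1g1u_muUniqueH hML
theorem es1inf_muA : MuAddH L M H := es1g1u_muAddH
theorem es1inf_muI (hML : M ∣ L) : MuInjH L M H := es1g1i_muInjH hML H
theorem es1inf_muS (hML : M ∣ L) : MuSurjH L M H := es1g1s_muSurjH hML
theorem es1inf_muH (hML : M ∣ L) : MuHeckeH L M H hML := es1g1hkb_muHeckeH H hML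
theorem es1inf_muD (hML : M ∣ L) : MuDiamH L M H := muDiamH H (NeZero.ne L) hML

theorem es1inf_exists_pow (hp : 0 < p) (x : es1infJ L M H p) :
    ∃ n : ℕ, 0 < n ∧ n • (x : JH L M H) = 0 := by
  obtain ⟨a, ha⟩ := x.2.1
  exact ⟨p ^ a, pow_pos hp a, ha⟩

theorem es1inf_exists_pow₂ (hp : 0 < p) (x y : es1infJ L M H p) :
    ∃ n : ℕ, 0 < n ∧ n • (x : JH L M H) = 0 ∧ n • (y : JH L M H) = 0 := by
  obtain ⟨a, ha⟩ := x.2.1
  obtain ⟨b, hb⟩ := y.2.1
  refine ⟨p ^ (a + b), pow_pos hp _, ?_, ?_⟩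
  · rw [pow_add, mul_comm, mul_smul, ha, smul_zero]
  · rw [pow_add, mul_smul, hb, smul_zero]

/-- **the multiplier map** on `es1infJ` -/
def es1infMu (hML : M ∣ L) (hp : 0 < p) : es1infJ L M H p →+ CharGrpH L M H where
  toFun x := muMapH L M H (x : JH L M H)
  map_zero' := es1g1_muMapH_zero (es1inf_muE hML) (es1inf_muU hML) es1inf_muA
  map_add' x y := by
    obtain ⟨n, hn, hx, hy⟩ := es1inf_exists_pow₂ hp x y
    exact muMapH_add (es1inf_muE hML) (es1inf_muU hML) es1inf_muA hn hx hy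

@[simp] theorem es1infMu_apply (hML : M ∣ L) (hp : 0 < p) (x : es1infJ L M H p) :
    es1infMu hML hp x = muMapH L M H (x : JH L M H) := rfl

/-- the multiplier map is injective -/
theorem es1infMu_injective (hML : M ∣ L) (hp : 0 < p) :
    Function.Injective (es1infMu (H := H) hML hp) := by
  rw [injective_iff_map_eq_zero]
  intro x hx
  obtain ⟨n, hn, hnx⟩ := es1inf_exists_pow hp x
  exact Subtype.ext (muMapH_eq_zero (es1inf_muE hML) (es1inf_muU hML) (es1inf_muI hML) hn hnx hx)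

/-- **equivariance** of the multiplier map, for every variable -/
theorem es1infMu_op (hML : M ∣ L) (hp : 0 < p) (i : HDVar M) (x : es1infJ L M H p) :
    es1infMu hML hp (es1infJOp L M H p i x)
      = es1infHomOp L M H hML p (Additive ℂˣ) i (es1infMu hML hp x) := by
  obtain ⟨n, hn, hnx⟩ := es1inf_exists_pow hp x
  by_cases hi : i ∈ es1inf_goodVars L M p
  · rcases i with ℓ | c
    · have hℓ : ¬ (ℓ : ℕ) ∣ L * p := es1inf_inl_mem_goodVars.mp hi
      have hℓL : ¬ (ℓ : ℕ) ∣ L := fun h => hℓ (h.mul_right p)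
      haveI : NeZero (ℓ : ℕ) := ⟨ℓ.2.ne_zero⟩
      rw [es1infMu_apply, es1infJOp_inl hℓ, es1infHomOp_inl hML hℓ, es1infMu_apply]
      exact muMapH_hecke hML (es1inf_muE hML) (es1inf_muU hML) (es1inf_muH hML) ℓ.2 hℓL hn hnx
    · rw [es1infMu_apply, es1infJOp_inr, es1infHomOp_inr' hML c, es1infMu_apply]
      exact muMapH_diam (es1inf_muE hML) (es1inf_muU hML) (es1inf_muD hML)
        (es1g1opSigma_memL hML c) (es1g1opSigma_memM hML c) (es1g1opSigma_diam hML c) hn hnx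
  · rw [es1infJOp_bad hi, es1infHomOp_bad hML hi, LinearMap.zero_apply, LinearMap.zero_apply,
      map_zero]

/-- the operators commute on `es1infJ` -/
theorem es1infJOp_comm (hML : M ∣ L) (hp : 0 < p) (i j : HDVar M) :
    es1infJOp L M H p i * es1infJOp L M H p j = es1infJOp L M H p j * es1infJOp L M H p i := by
  refine LinearMap.ext fun x => es1infMu_injective hML hp ?_
  rw [Module.End.mul_apply, Module.End.mul_apply, es1infMu_op, es1infMu_op, es1infMu_op,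
    es1infMu_op]
  have h := es1infHomOp_comm (H := H) (p := p) hML (Additive ℂˣ) i j
  have h2 := LinearMap.congr_fun h (es1infMu hML hp x)
  rwa [Module.End.mul_apply, Module.End.mul_apply] at h2

variable (L M H p)

/-- evaluation of the Hecke–diamond polynomials on `es1infJ` -/
def es1infJEval (hML : M ∣ L) (hp : 0 < p) : HDAlg M →ₐ[ℤ] Module.End ℤ (es1infJ L M H p) :=
  es1b_familyEval (es1infJOp L M H p) (es1infJOp_comm hML hp)

/-- **the Hecke–diamond module structure on `es1infJ`** -/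
@[reducible] def es1infModule (hML : M ∣ L) (hp : 0 < p) :
    Module (HDAlg M) (es1infJ L M H p) :=
  es1b_familyModule (es1infJOp L M H p) (es1infJOp_comm hML hp)

variable {L M H p}

theorem es1infModule_smul_def (hML : M ∣ L) (hp : 0 < p) (t : HDAlg M)
    (x : es1infJ L M H p) :
    (letI := es1infModule L M H p hML hp; t • x) = es1infJEval L M H p hML hp t x := rfl

theorem es1infJEval_X (hML : M ∣ L) (hp : 0 < p) (i : HDVar M) :
    es1infJEval L M H p hML hp (MvPolynomial.X i) = es1infJOp L M H p i :=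
  es1b_familyEval_X _ _ i

theorem es1infJEval_C (hML : M ∣ L) (hp : 0 < p) (a : ℤ) (x : es1infJ L M H p) :
    es1infJEval L M H p hML hp (MvPolynomial.C a) x = a • x := by
  rw [← MvPolynomial.algebraMap_eq, AlgHom.commutes, Module.algebraMap_end_apply]

theorem es1infModule_X_smul (hML : M ∣ L) (hp : 0 < p) (i : HDVar M)
    (x : es1infJ L M H p) :
    (letI := es1infModule L M H p hML hp; (MvPolynomial.X i : HDAlg M) • x)
      = es1infJOp L M H p i x := by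
  rw [es1infModule_smul_def, es1infJEval_X]

/-- `T_ℓ` acts on `es1infJ` as `es1hHecke ℓ` for the good primes -/
theorem es1infModule_tGen_smul (hML : M ∣ L) (hp : 0 < p) {ℓ : Nat.Primes}
    (h : ¬ (ℓ : ℕ) ∣ L * p) (x : es1infJ L M H p) :
    ((letI := es1infModule L M H p hML hp; es1top_tGen M ℓ • x : es1infJ L M H p) : JH L M H)
      = G2.es1g2T L M H ℓ (x : JH L M H) := by
  rw [es1top_tGen, es1infModule_X_smul, es1infJOp_inl h]

/-- the bad `T_ℓ` act by `0` -/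
theorem es1infModule_tGen_smul_bad (hML : M ∣ L) (hp : 0 < p) {ℓ : Nat.Primes}
    (h : (ℓ : ℕ) ∣ L * p) (x : es1infJ L M H p) :
    (letI := es1infModule L M H p hML hp; es1top_tGen M ℓ • x) = 0 := by
  rw [es1top_tGen, es1infModule_X_smul,
    es1infJOp_bad (fun hg => es1inf_inl_mem_goodVars.mp hg h)]
  rfl

/-- `δ_c` acts on `es1infJ` as `es1Diamond c` -/
theorem es1infModule_dGen_smul (hML : M ∣ L) (hp : 0 < p) (c : (ZMod M)ˣ)
    (x : es1infJ L M H p) :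
    ((letI := es1infModule L M H p hML hp; es1top_dGen M c • x : es1infJ L M H p) : JH L M H)
      = G2.es1Diamond L M H c (x : JH L M H) := by
  rw [es1top_dGen, es1infModule_X_smul, es1infJOp_inr]

/-- **equivariance of the multiplier map for every Hecke–diamond polynomial** -/
theorem es1infMu_eval (hML : M ∣ L) (hp : 0 < p) (t : HDAlg M) (x : es1infJ L M H p) :
    es1infMu hML hp (es1infJEval L M H p hML hp t x)
      = es1infHomEval L M H hML p (Additive ℂˣ) t (es1infMu hML hp x) := by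
  induction t using MvPolynomial.induction_on generalizing x with
  | C a =>
      rw [es1infJEval_C, es1infHomEval_C, map_zsmul]
  | add s t hs ht =>
      rw [map_add, map_add, LinearMap.add_apply, LinearMap.add_apply, map_add, hs, ht]
  | mul_X s i hs =>
      rw [map_mul, map_mul, Module.End.mul_apply, Module.End.mul_apply, hs, es1infJEval_X,
        es1infHomEval_X, es1infMu_op]

theorem es1infMu_smul (hML : M ∣ L) (hp : 0 < p) (t : HDAlg M) (x : es1infJ L M H p) :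
    es1infMu hML hp (letI := es1infModule L M H p hML hp; t • x)
      = es1infHomEval L M H hML p (Additive ℂˣ) t (es1infMu hML hp x) :=
  es1infMu_eval hML hp t x

/-- Galois commutes with the Hecke–diamond polynomials on `es1infJ` -/
theorem es1inf_smul_comm (hML : M ∣ L) (hp : 0 < p) (σ : GalQ) (t : HDAlg M)
    (x : es1infJ L M H p) :
    (letI := es1infModule L M H p hML hp; letI := es1infGalois L M H p; σ • t • x)
      = (letI := es1infModule L M H p hML hp; letI := es1infGalois L M H p; t • σ • x) := by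
  letI := es1infGalois L M H p
  show σ • es1infJEval L M H p hML hp t x = es1infJEval L M H p hML hp t (σ • x)
  induction t using MvPolynomial.induction_on generalizing x with
  | C a =>
      rw [es1infJEval_C, es1infJEval_C]
      exact map_zsmul (DistribSMul.toAddMonoidHom (es1infJ L M H p) σ) a x
  | add s t hs ht =>
      rw [map_add, LinearMap.add_apply, LinearMap.add_apply, smul_add, hs, ht]
  | mul_X s i hs =>
      rw [map_mul, Module.End.mul_apply, Module.End.mul_apply, hs, es1infJEval_X,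
        es1infJOp_galois hML]

/-! ## Surjectivity onto the classes `e(φ/pⁿ)` -/

/-- **every `e(φ/pⁿ)`, `φ` integral parabolic, is the multiplier of some `x ∈ J[pⁿ]`** -/
theorem es1infMu_surj (hML : M ∣ L) (hp : 0 < p) (φ : Additive (gammaH L M H) →+ ℤ)
    (hφ : IsParabolicHom (gammaH L M H) φ) (n : ℕ) :
    ∃ x : es1infJ L M H p, p ^ n • x = 0 ∧ es1infMu hML hp x = expCharH L M H (p ^ n) φ := by
  have hU := es1inf_muU (H := H) hML
  have hE := es1inf_muE (H := H) hML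
  have hex : ∀ k : ℕ, ∃ x : JH L M H, p ^ k • x = 0 ∧
      muMapH L M H x = expCharH L M H (p ^ k) φ :=
    fun k => muMapH_surj hU (es1inf_muS hML) φ hφ (pow_pos hp k)
  choose x hx hμx using hex
  have hstep : ∀ k, p • x (k + 1) = x k := by
    intro k
    have hpk : 0 < p ^ (k + 1) := pow_pos hp _
    have h3 : p ^ (k + 1) • x k = 0 := by
      rw [pow_succ, mul_comm, mul_smul, hx k, smul_zero]
    have hXY : p • (⟨x (k + 1), hx (k + 1)⟩ : es1b_torsPart (p ^ (k + 1)) (JH L M H))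
        = (⟨x k, h3⟩ : es1b_torsPart (p ^ (k + 1)) (JH L M H)) := by
      apply es1g1_muP_injective hE hU es1inf_muA (es1inf_muI hML) (p ^ (k + 1)) hpk
      rw [map_nsmul]
      refine DFunLike.ext _ _ fun γ => ?_
      rw [AddMonoidHom.nsmul_apply, es1g1_muP_apply, es1g1_muP_apply]
      show p • muMapH L M H (x (k + 1)) γ = muMapH L M H (x k) γ
      rw [hμx, hμx, expCharH_apply, expCharH_apply, pow_succ', nsmul_expHom p (p ^ k) hp.ne']
    exact congrArg (fun z : es1b_torsPart (p ^ (k + 1)) (JH L M H) => (z : JH L M H)) hXY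
  refine ⟨⟨x n, ⟨⟨n, hx n⟩, fun j => x (n + j), rfl, fun j => hstep (n + j)⟩⟩, ?_, hμx n⟩
  exact (es1inf_smul_eq_zero_iff _ _).mpr (hx n)

end Fermat.Agent.ES1

end
end ZBES1_020_6

/-! ### bundled: `Fermat.Agent.ES1.Inf.PkgData` -/
section ZBES1_020_7

/-!
# ES₁-inf — the `p`-adic Eichler–Shimura data on `J = es1infJ L M H p` (helper38)

* `es1inf_finite` : `J[pⁿ]` is finite;
* **`es1inf_dataInf`** : `ES1DataInf L M p (es1infJ L M H p)` for every level `L`, every `M ∣ L`,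
  every `H ≤ (ℤ/M)ˣ` and every `p > 0`, for the module structure `es1infModule` and the Galois
  action `es1infGalois`.  UNCONDITIONAL.
-/

set_option autoImplicit false
set_option linter.unusedSectionVars false
set_option linter.style.haveILetI false

noncomputable section

namespace Fermat.Agent.ES1

open ModularCurve AlgebraicCurve CongruenceSubgroup ModularCurve.Period
open Fermat.Agent.ES Fermat.Agent.S48
open scoped MatrixGroups

/-- the homomorphisms of a finitely generated group to `A` killed by `k` are finitely many, if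
`A[k]` is finite -/
theorem es1inf_finite_hom {Γ : Type*} [Group Γ] (hfg : Group.FG Γ) {A : Type*} [AddCommGroup A]
    (k : ℕ) (hA : {a : A | k • a = 0}.Finite) :
    {χ : Additive Γ →+ A | ∀ γ, k • χ γ = 0}.Finite := by
  obtain ⟨S, hS⟩ := Group.fg_def.mp hfg
  let ev : (Additive Γ →+ A) → (S → A) := fun χ s => χ (Additive.ofMul (s : Γ))
  have hinj : Function.Injective ev := by
    intro χ χ' h
    have h1 : AddMonoidHom.toMultiplicative χ = AddMonoidHom.toMultiplicative χ' := by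
      refine MonoidHom.eq_of_eqOn_dense hS ?_
      intro s hs
      exact congrFun h ⟨s, hs⟩
    exact AddMonoidHom.toMultiplicative.injective h1
  have hfin : {f : S → A | ∀ s : S, f s ∈ {a : A | k • a = 0}}.Finite :=
    Set.Finite.pi' (fun _ => hA)
  refine Set.Finite.of_finite_image (f := ev) (hfin.subset ?_) hinj.injOn
  rintro _ ⟨χ, hχ, rfl⟩ s
  exact hχ _

variable {L M : ℕ} [NeZero L] [NeZero M] {H : Subgroup (ZMod M)ˣ} {p : ℕ}

/-- `J[pⁿ]` is finite -/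
theorem es1inf_finite (hML : M ∣ L) (hp : 0 < p) (n : ℕ) :
    {x : es1infJ L M H p | p ^ n • x = 0}.Finite := by
  have hfin := es1inf_finite_hom (es1g1op_fg L M H) (A := Additive ℂˣ) (p ^ n)
    (finite_torsion_additive_units (p ^ n) (pow_ne_zero n hp.ne'))
  refine Set.Finite.of_finite_image (f := es1infMu hML hp) (hfin.subset ?_)
    (es1infMu_injective hML hp).injOn
  rintro _ ⟨x, hx, rfl⟩ γ
  have h1 : es1infMu hML hp (p ^ n • x) = 0 := by
    rw [show p ^ n • x = 0 from hx, map_zero]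
  rw [map_nsmul] at h1
  have h2 := DFunLike.congr_fun h1 γ
  rwa [AddMonoidHom.nsmul_apply] at h2

theorem es1inf_not_dvd_pow {L p ℓ : ℕ} (hℓ : ℓ.Prime) (h : ¬ ℓ ∣ L * p) (a : ℕ) :
    ¬ ℓ ∣ L * p ^ a := by
  intro h'
  rcases (Nat.Prime.dvd_mul hℓ).mp h' with h1 | h1
  · exact h (h1.mul_right p)
  · exact h ((hℓ.dvd_of_dvd_pow h1).mul_left L)

/-- **The `p`-adic Eichler–Shimura data on `es1infJ L M H p`**, for every level `L`, `M ∣ L`,
`H ≤ (ℤ/M)ˣ`, `p > 0`. -/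
theorem es1inf_dataInf (hML : M ∣ L) (hp : 0 < p) :
    letI := es1infModule L M H p hML hp
    letI := es1infGalois L M H p
    ES1DataInf L M p (es1infJ L M H p) := by
  letI := es1infModule L M H p hML hp
  letI := es1infGalois L M H p
  refine
    { finite := es1inf_finite hML hp
      divisible := fun x _ => ?_
      smul_comm := es1inf_smul_comm hML hp
      finite_level := ?_
      diamond_one := ?_
      diamond_mul := ?_
      bad_zero := fun ℓ hℓ x => es1infModule_tGen_smul_bad hML hp hℓ x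
      frob := ?_
      unram := ?_ }
  · obtain ⟨y, hy⟩ := es1inf_divisible x
    exact ⟨y, es1inf_isPPowerTorsion y, hy⟩
  · intro x _
    obtain ⟨a, ha⟩ := x.2.1
    obtain ⟨E, hE, h⟩ := G2.es1g2_final_finite_level (pow_ne_zero a hp.ne') (x : JH L M H) ha
    exact ⟨E, hE, fun σ hσ => Subtype.ext (h σ hσ)⟩
  · intro x _
    apply Subtype.ext
    rw [es1infModule_dGen_smul]
    exact G2.es1g2_final_diamond_one _
  · intro c d x _
    apply Subtype.ext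
    rw [es1infModule_dGen_smul, es1infModule_dGen_smul, es1infModule_dGen_smul]
    exact G2.es1g2_final_diamond_mul (NeZero.ne L) hML c d _
  · intro ℓ hℓ hgood c hc A hA τ hτ x _
    obtain ⟨a, ha⟩ := x.2.1
    have h1 := G2.es1g2_final_frob G2.stmtSwapH (NeZero.ne L) hML (p ^ a) ℓ hℓ
      (es1inf_not_dvd_pow hℓ hgood a) c hc A hA τ hτ (x : JH L M H) ha
    apply Subtype.ext
    rw [AddSubgroup.coe_add, AddSubgroup.coe_sub, es1inf_coe_nsmul, es1infModule_dGen_smul,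
      es1infModule_tGen_smul hML hp (ℓ := ⟨ℓ, hℓ⟩) hgood]
    exact h1
  · intro ℓ hℓ hgood A hA σ hσ x _
    obtain ⟨a, ha⟩ := x.2.1
    exact Subtype.ext (G2.es1g2_final_unram (NeZero.ne L) hML (p ^ a) ℓ hℓ
      (es1inf_not_dvd_pow hℓ hgood a) A hA σ hσ (x : JH L M H) ha)

end Fermat.Agent.ES1

end
end ZBES1_020_7

/-! ### bundled: `Fermat.Agent.ES1.Inf.PkgFaith` -/
section ZBES1_020_8

/-!
# ES₁-inf — faithfulness, and the `p`-adic Eichler–Shimura package for `J_H(L; M)` (helper38)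

`Γ = gammaH L M H`, `J = es1infJ L M H p`, `Λ = Hom_par(Γ, ℤ)` (integral homomorphisms vanishing
on the elements of trace `±2`).

* `ES1FaithInf L M H hML p J` : the faithfulness contract — for every `n` and every `φ ∈ Λ` there
  is `x ∈ J[pⁿ]` such that every polynomial `t` with `t • x = 0` kills `φ mod pⁿ ∈ Hom(Γ, ℤ/pⁿ)`
  (`t` acting by `es1infHomEval`, i.e. `T_ℓ ↦ heckeGrp ℓ`, `δ_c ↦ diamGrp σ_c`);
* `ES1FaithInf.int` : hence a polynomial killing `J[pⁿ]` maps `Λ` into `pⁿ Λ`;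
* `es1inf_faith : ES1FaithInf L M H hML p (es1infJ L M H p)`;
* `ES1PkgInf L M H hML p` and **`es1inf_pkg`** : the package (data + faithfulness) exists, for every
  level `L`, every `M ∣ L`, every `H ≤ (ℤ/M)ˣ`, every `p > 0`.  UNCONDITIONAL.
-/

set_option autoImplicit false
set_option linter.unusedSectionVars false
set_option linter.style.haveILetI false

noncomputable section

namespace Fermat.Agent.ES1

open ModularCurve AlgebraicCurve CongruenceSubgroup ModularCurve.Period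
open Fermat.Agent.ES Fermat.Agent.S48
open scoped MatrixGroups

variable (L M : ℕ) [NeZero L] [NeZero M] (H : Subgroup (ZMod M)ˣ) (hML : M ∣ L) (p : ℕ)

/-- **The faithfulness contract** (multiplier form, coefficients `ℤ/pⁿ`). -/
def ES1FaithInf (J : Type) [AddCommGroup J] [Module (HDAlg M) J] : Prop :=
  ∀ n : ℕ, ∀ φ : Additive (gammaH L M H) →+ ℤ, IsParabolicHom (gammaH L M H) φ →
    ∃ x : J, p ^ n • x = 0 ∧ ∀ t : HDAlg M, t • x = 0 →
      es1infHomEval L M H hML p (ZMod (p ^ n)) t ((Int.castAddHom (ZMod (p ^ n))).comp φ) = 0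

/-- **The `p`-adic Eichler–Shimura package** of level `Γ_H(L; M)`: data and faithfulness. -/
def ES1PkgInf : Prop :=
  ∃ (J : Type) (_ : AddCommGroup J) (_ : Module (HDAlg M) J) (_ : DistribMulAction GalQ J),
    ES1DataInf L M p J ∧ ES1FaithInf L M H hML p J

variable {L M H hML p}

/-- a polynomial killing `J[pⁿ]` maps the lattice `Λ` of the integral parabolic homomorphisms
into `pⁿ Λ` -/
theorem ES1FaithInf.int {J : Type} [AddCommGroup J] [Module (HDAlg M) J]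
    (h : ES1FaithInf L M H hML p J) (hp : p ≠ 0) (n : ℕ) (t : HDAlg M)
    (ht : ∀ x : J, p ^ n • x = 0 → t • x = 0) (φ : Additive (gammaH L M H) →+ ℤ)
    (hφ : IsParabolicHom (gammaH L M H) φ) :
    ∃ ψ : Additive (gammaH L M H) →+ ℤ, IsParabolicHom (gammaH L M H) ψ ∧
      es1infHomEval L M H hML p ℤ t φ = p ^ n • ψ := by
  obtain ⟨x, hx, hxt⟩ := h n φ hφ
  have h1 := hxt t (ht x hx)
  rw [es1infHomEval_comp hML] at h1
  have hpar : es1infHomEval L M H hML p ℤ t φ ∈ intHoms (gammaH L M H) (es1g1opPar L M H) :=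
    es1infHomEval_par hML t hφ
  obtain ⟨ψ, hψ, hψeq⟩ := exists_eq_nsmul_of_castHom_eq_zero (p ^ n) (pow_ne_zero n hp) _ hpar h1
  exact ⟨ψ, hψ, hψeq⟩

/-- **faithfulness on `es1infJ L M H p`** -/
theorem es1inf_faith (hML : M ∣ L) (hp : 0 < p) :
    letI := es1infModule L M H p hML hp
    ES1FaithInf L M H hML p (es1infJ L M H p) := by
  letI := es1infModule L M H p hML hp
  intro n φ hφ
  obtain ⟨x, hx, hμx⟩ := es1infMu_surj hML hp φ hφ n
  refine ⟨x, hx, fun t htx => ?_⟩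
  have h1 := es1infMu_smul hML hp t x
  rw [htx, map_zero, hμx, ← es1g1_expZMod_comp, es1infHomEval_comp hML] at h1
  refine DFunLike.ext _ _ fun γ => ?_
  have h2 := DFunLike.congr_fun h1 γ
  rw [AddMonoidHom.comp_apply] at h2
  exact expZMod_injective (pow_ne_zero n hp.ne') (h2.symm.trans (map_zero _).symm)

/-- the multiplier form with coefficients `ℂˣ`: the multiplier map is injective, equivariant for
all the Hecke–diamond polynomials and its image contains the classes `e(φ/pⁿ)`, `φ ∈ Λ` -/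
theorem es1inf_multiplier (hML : M ∣ L) (hp : 0 < p) :
    letI := es1infModule L M H p hML hp
    ∃ μ : es1infJ L M H p →+ (Additive (gammaH L M H) →+ Additive ℂˣ),
      Function.Injective μ ∧
      (∀ (t : HDAlg M) (x : es1infJ L M H p),
        μ (t • x) = es1infHomEval L M H hML p (Additive ℂˣ) t (μ x)) ∧
      ∀ (n : ℕ) (φ : Additive (gammaH L M H) →+ ℤ), IsParabolicHom (gammaH L M H) φ →
        ∃ x : es1infJ L M H p, p ^ n • x = 0 ∧ μ x = (expHom (p ^ n)).comp φ :=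
  ⟨es1infMu hML hp, es1infMu_injective hML hp, es1infMu_smul hML hp,
    fun n φ hφ => es1infMu_surj hML hp φ hφ n⟩

/-- **The `p`-adic Eichler–Shimura package exists** at every level `Γ_H(L; M)`. -/
theorem es1inf_pkg (hML : M ∣ L) (hp : 0 < p) : ES1PkgInf L M H hML p :=
  ⟨es1infJ L M H p, inferInstance, es1infModule L M H p hML hp, es1infGalois L M H p,
    es1inf_dataInf hML hp, es1inf_faith hML hp⟩

end Fermat.Agent.ES1

end
end ZBES1_020_8

/-! ### bundled: `Fermat.Agent.ES1.Inf.TwDefs` -/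
section ZBES1_020_9

/-!
# K7-TW (TW1) — the twisted `p`-adic package: the type synonym `es1inftwJ` (helper38)

`χ : G_ℚ →* (ℤ/M)ˣ` a character.  `es1inftwJ L M H p χ` is `es1infJ L M H p` (the `p`-divisible
part of the `p`-power torsion of `J_H(L; M)(ℚ̄)`) with

* the SAME module structure over `HDAlg M = ℤ[T_ℓ, δ_c]` (instance, `[Fact (M ∣ L)]`,
  `[Fact p.Prime]`);
* the TWISTED Galois action `σ ∗ x = δ_{χ σ} (σ x)` (instance `es1inftwGalois`); on the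
  underlying points of `JH L M H` it is helper34's action of `RT.K7F.JHtw`
  (`es1inftw_coe_smul`).

Also: `es1inf_dGen_smul_of_mem` (the diamonds of classes in `±H` act trivially),
`es1inf_dGen_pow_smul` (`δ_{cᵏ} = δ_cᵏ`).
-/

set_option autoImplicit false
set_option linter.unusedSectionVars false
set_option linter.style.haveILetI false

noncomputable section

namespace Fermat.Agent.ES1

open ModularCurve AlgebraicCurve CongruenceSubgroup ModularCurve.Period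
open Fermat.Agent.ES Fermat.Agent.S48
open scoped MatrixGroups

variable {L M : ℕ} [NeZero L] [NeZero M] {H : Subgroup (ZMod M)ˣ} {p : ℕ}

/-! ## Diamonds on `es1infJ` -/

/-- the diamonds of classes in `±H` act trivially on `es1infJ` -/
theorem es1inf_dGen_smul_of_mem (hML : M ∣ L) (hp : 0 < p) {c : (ZMod M)ˣ} (hc : c ∈ pmH H)
    (x : es1infJ L M H p) :
    (letI := es1infModule L M H p hML hp; es1top_dGen M c • x) = x := by
  letI := es1infModule L M H p hML hp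
  apply es1infMu_injective hML hp
  rw [es1infMu_smul hML hp,
    es1infHomEval_dGen hML c _ (es1g1opSigma hML c) (es1g1opSigma_memL hML c)
      (es1g1opSigma_memM hML c) (es1g1opSigma_diam hML c)]
  have hσ : es1g1opSigma hML c ∈ gammaH L M H :=
    ⟨es1g1opSigma_memL hML c, es1g1opSigma_memM hML c, by
      rw [es1g1opSigma_diam hML c]; exact hc⟩
  exact diamGrp_of_mem L M H hσ _

theorem es1inf_dGen_one_smul (hML : M ∣ L) (hp : 0 < p) (x : es1infJ L M H p) :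
    (letI := es1infModule L M H p hML hp; es1top_dGen M 1 • x) = x :=
  es1inf_dGen_smul_of_mem hML hp (one_mem _) x

theorem es1inf_dGen_mul_smul (hML : M ∣ L) (hp : 0 < p) (c d : (ZMod M)ˣ)
    (x : es1infJ L M H p) :
    (letI := es1infModule L M H p hML hp; es1top_dGen M (c * d) • x)
      = (letI := es1infModule L M H p hML hp; es1top_dGen M c • es1top_dGen M d • x) := by
  letI := es1infModule L M H p hML hp
  letI := es1infGalois L M H p
  exact (es1inf_dataInf hML hp).diamond_mul c d x (es1inf_isPPowerTorsion x)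

/-- `δ_{cᵏ} = δ_cᵏ` on `es1infJ` -/
theorem es1inf_dGen_pow_smul (hML : M ∣ L) (hp : 0 < p) (c : (ZMod M)ˣ) (k : ℕ)
    (x : es1infJ L M H p) :
    (letI := es1infModule L M H p hML hp; es1top_dGen M (c ^ k) • x)
      = (letI := es1infModule L M H p hML hp; (es1top_dGen M c ^ k) • x) := by
  letI := es1infModule L M H p hML hp
  induction k generalizing x with
  | zero => rw [pow_zero, pow_zero, one_smul, es1inf_dGen_one_smul hML hp]
  | succ k ih =>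
      rw [pow_succ, pow_succ, es1inf_dGen_mul_smul hML hp, mul_smul, ih]

/-- Galois commutes with the polynomials (restated) -/
theorem es1inf_galois_smul (hML : M ∣ L) (hp : 0 < p) (σ : GalQ) (t : HDAlg M)
    (x : es1infJ L M H p) :
    (letI := es1infModule L M H p hML hp; letI := es1infGalois L M H p; σ • t • x)
      = (letI := es1infModule L M H p hML hp; letI := es1infGalois L M H p; t • σ • x) :=
  es1inf_smul_comm hML hp σ t x

/-! ## The twisted action on `es1infJ` -/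

/-- the twisted action on `es1infJ`: `σ ∗ x = δ_{χ σ} (σ x)` -/
def es1inftwSmul (hML : M ∣ L) (hp : 0 < p) (χ : GalQ →* (ZMod M)ˣ) (σ : GalQ)
    (x : es1infJ L M H p) : es1infJ L M H p :=
  letI := es1infModule L M H p hML hp
  letI := es1infGalois L M H p
  es1top_dGen M (χ σ) • (σ • x)

theorem es1inftwSmul_def (hML : M ∣ L) (hp : 0 < p) (χ : GalQ →* (ZMod M)ˣ) (σ : GalQ)
    (x : es1infJ L M H p) :
    es1inftwSmul hML hp χ σ x
      = (letI := es1infModule L M H p hML hp; letI := es1infGalois L M H p;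
          es1top_dGen M (χ σ) • (σ • x)) := rfl

/-- on the points of `JH L M H` the twisted action is `es1Diamond (χ σ) (σ • x)` -/
theorem es1inftwSmul_coe (hML : M ∣ L) (hp : 0 < p) (χ : GalQ →* (ZMod M)ˣ) (σ : GalQ)
    (x : es1infJ L M H p) :
    ((es1inftwSmul hML hp χ σ x : es1infJ L M H p) : JH L M H)
      = G2.es1Diamond L M H (χ σ) (σ • (x : JH L M H)) := by
  rw [es1inftwSmul_def, es1infModule_dGen_smul]
  rfl

theorem es1inftwSmul_one (hML : M ∣ L) (hp : 0 < p) (χ : GalQ →* (ZMod M)ˣ)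
    (x : es1infJ L M H p) : es1inftwSmul hML hp χ 1 x = x := by
  letI := es1infModule L M H p hML hp
  letI := es1infGalois L M H p
  rw [es1inftwSmul_def, map_one, one_smul, es1inf_dGen_one_smul hML hp]

theorem es1inftwSmul_mul (hML : M ∣ L) (hp : 0 < p) (χ : GalQ →* (ZMod M)ˣ) (σ τ : GalQ)
    (x : es1infJ L M H p) :
    es1inftwSmul hML hp χ (σ * τ) x = es1inftwSmul hML hp χ σ (es1inftwSmul hML hp χ τ x) := by
  letI := es1infModule L M H p hML hp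
  letI := es1infGalois L M H p
  rw [es1inftwSmul_def, es1inftwSmul_def, es1inftwSmul_def, map_mul, mul_smul,
    es1inf_dGen_mul_smul hML hp, es1inf_galois_smul hML hp σ]

theorem es1inftwSmul_zero (hML : M ∣ L) (hp : 0 < p) (χ : GalQ →* (ZMod M)ˣ) (σ : GalQ) :
    es1inftwSmul hML hp χ σ (0 : es1infJ L M H p) = 0 := by
  letI := es1infModule L M H p hML hp
  letI := es1infGalois L M H p
  rw [es1inftwSmul_def, smul_zero, smul_zero]

theorem es1inftwSmul_add (hML : M ∣ L) (hp : 0 < p) (χ : GalQ →* (ZMod M)ˣ) (σ : GalQ)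
    (x y : es1infJ L M H p) :
    es1inftwSmul hML hp χ σ (x + y) = es1inftwSmul hML hp χ σ x + es1inftwSmul hML hp χ σ y := by
  letI := es1infModule L M H p hML hp
  letI := es1infGalois L M H p
  rw [es1inftwSmul_def, es1inftwSmul_def, es1inftwSmul_def, smul_add, smul_add]

/-- the twisted action commutes with the polynomials -/
theorem es1inftwSmul_smul (hML : M ∣ L) (hp : 0 < p) (χ : GalQ →* (ZMod M)ˣ) (σ : GalQ)
    (t : HDAlg M) (x : es1infJ L M H p) :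
    es1inftwSmul hML hp χ σ (letI := es1infModule L M H p hML hp; t • x)
      = (letI := es1infModule L M H p hML hp; t • es1inftwSmul hML hp χ σ x) := by
  letI := es1infModule L M H p hML hp
  letI := es1infGalois L M H p
  rw [es1inftwSmul_def, es1inftwSmul_def, es1inf_galois_smul hML hp σ, smul_smul, smul_smul,
    mul_comm]

/-- where `χ` is trivial the twisted action is the plain one -/
theorem es1inftwSmul_of_one (hML : M ∣ L) (hp : 0 < p) (χ : GalQ →* (ZMod M)ˣ) {σ : GalQ}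
    (hσ : χ σ = 1) (x : es1infJ L M H p) :
    es1inftwSmul hML hp χ σ x = (letI := es1infGalois L M H p; σ • x) := by
  rw [es1inftwSmul_def, hσ, es1inf_dGen_one_smul hML hp]

/-! ## The type synonym -/

/-- **`es1infJ L M H p` with the `χ`-twisted Galois action** (a type synonym). -/
def es1inftwJ (L M : ℕ) (H : Subgroup (ZMod M)ˣ) (p : ℕ) (_χ : GalQ →* (ZMod M)ˣ) : Type :=
  es1infJ L M H p

variable (L M H p) (χ : GalQ →* (ZMod M)ˣ)

instance es1inftwAddCommGroup : AddCommGroup (es1inftwJ L M H p χ) :=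
  inferInstanceAs (AddCommGroup (es1infJ L M H p))

/-- the identity `es1infJ → es1inftwJ` -/
def es1inftwTo : es1infJ L M H p ≃+ es1inftwJ L M H p χ := AddEquiv.refl _

/-- the identity `es1inftwJ → es1infJ` -/
def es1inftwOf : es1inftwJ L M H p χ ≃+ es1infJ L M H p := AddEquiv.refl _

instance es1inftwModule [hML : Fact (M ∣ L)] [hp : Fact p.Prime] :
    Module (HDAlg M) (es1inftwJ L M H p χ) :=
  es1infModule L M H p hML.out hp.out.pos

instance es1inftwGalois [hML : Fact (M ∣ L)] [hp : Fact p.Prime] :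
    DistribMulAction GalQ (es1inftwJ L M H p χ) where
  smul σ x := es1inftwSmul hML.out hp.out.pos χ σ x
  one_smul x := es1inftwSmul_one hML.out hp.out.pos χ x
  mul_smul σ τ x := es1inftwSmul_mul hML.out hp.out.pos χ σ τ x
  smul_zero σ := es1inftwSmul_zero hML.out hp.out.pos χ σ
  smul_add σ x y := es1inftwSmul_add hML.out hp.out.pos χ σ x y

variable {L M H p χ}

theorem es1inftw_smul_def [hML : Fact (M ∣ L)] [hp : Fact p.Prime] (σ : GalQ)
    (x : es1inftwJ L M H p χ) :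
    σ • x = es1inftwTo L M H p χ
      (es1inftwSmul hML.out hp.out.pos χ σ (es1inftwOf L M H p χ x)) := rfl

theorem es1inftw_hecke_smul_def [hML : Fact (M ∣ L)] [hp : Fact p.Prime] (t : HDAlg M)
    (x : es1inftwJ L M H p χ) :
    t • x = es1inftwTo L M H p χ
      (letI := es1infModule L M H p hML.out hp.out.pos; t • es1inftwOf L M H p χ x) := rfl

theorem es1inftw_nsmul_def (k : ℕ) (x : es1inftwJ L M H p χ) :
    k • x = es1inftwTo L M H p χ (k • es1inftwOf L M H p χ x) := rfl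

/-- the points of `JH L M H` under an element of `es1inftwJ` -/
def es1inftwCoe (x : es1inftwJ L M H p χ) : JH L M H := ((es1inftwOf L M H p χ x : es1infJ L M H p) : JH L M H)

theorem es1inftwCoe_injective : Function.Injective (es1inftwCoe (L := L) (M := M) (H := H)
    (p := p) (χ := χ)) := fun _ _ h => Subtype.ext h

theorem es1inftwCoe_add (x y : es1inftwJ L M H p χ) :
    es1inftwCoe (x + y) = es1inftwCoe x + es1inftwCoe y := rfl

theorem es1inftwCoe_zero : es1inftwCoe (0 : es1inftwJ L M H p χ) = 0 := rfl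

theorem es1inftwCoe_nsmul (k : ℕ) (x : es1inftwJ L M H p χ) :
    es1inftwCoe (k • x) = k • es1inftwCoe x :=
  es1inf_coe_nsmul k (es1inftwOf L M H p χ x)

/-- on the points of `JH L M H` the twisted action is `es1Diamond (χ σ) (σ • x)` -/
theorem es1inftwCoe_smul [hML : Fact (M ∣ L)] [hp : Fact p.Prime] (σ : GalQ)
    (x : es1inftwJ L M H p χ) :
    es1inftwCoe (σ • x) = G2.es1Diamond L M H (χ σ) (σ • es1inftwCoe x) :=
  es1inftwSmul_coe hML.out hp.out.pos χ σ (es1inftwOf L M H p χ x)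

theorem es1inftw_pow_smul_eq_zero_iff (n : ℕ) (x : es1inftwJ L M H p χ) :
    p ^ n • x = 0 ↔ p ^ n • es1inftwCoe x = 0 :=
  es1inf_smul_eq_zero_iff (p ^ n) (es1inftwOf L M H p χ x)

end Fermat.Agent.ES1

end
end ZBES1_020_9

/-! ### bundled: `Fermat.Agent.ES1.Inf.TwPkg` -/
section ZBES1_020_10

/-!
# K7-TW (TW2), (TW5) — the twisted `p`-adic package `Rtk7bPkg` (helper38)

Setting: `M ∣ L`, `p` prime, `H ≤ (ℤ/M)ˣ`, `e ≥ 1` with `c ^ (2e − 1) ∈ ±H` for all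
`c ∈ (ℤ/M)ˣ`, `χ : G_ℚ →* (ℤ/M)ˣ` a character which is `c_M ^ e` (`c_M` the cyclotomic character
modulo `M`) in the sense of `Es1inftwChar`.

* `Es1inftwChar L M p e χ` : `χ(Frob_ℓ) = ⟨ℓ⟩ ^ e` and `χ(I_ℓ) = 1` for `ℓ ∤ L p`, open kernel;
  `es1inftw_char_cyclo` : it holds for `χ = (S42.cycloChar M) ^ e`;
* `es1inftwTr M e ℓ = (δ_ℓ) ^ (e − 1) · T_ℓ` (`ℓ` prime, prime to `M`; `0` otherwise);
* **`es1inftw_pkg`** : `RT.Rtk7bPkg p L (es1inftwJ L M H p χ) (es1inftwTr M e)`;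
* `es1inftw_finite`, `es1inftw_faith`, `es1inftw_faith_int` : (TW5), finiteness and faithfulness
  for the twisted module (the module structure is unchanged).
-/

set_option autoImplicit false
set_option linter.unusedSectionVars false
set_option linter.style.haveILetI false

noncomputable section

namespace Fermat.Agent.ES1

open ModularCurve AlgebraicCurve CongruenceSubgroup ModularCurve.Period
open Fermat.Agent.ES Fermat.Agent.S48
open scoped MatrixGroups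

/-- **the hypotheses on the character of the twist**: `χ = c_M ^ e` on Frobenius elements and
inertia groups at the primes `ℓ ∤ L p`, and `χ` has open kernel. -/
structure Es1inftwChar (L M p e : ℕ) (χ : GalQ →* (ZMod M)ˣ) : Prop where
  frob : ∀ ℓ : ℕ, ℓ.Prime → ¬ ℓ ∣ L * p →
    ∀ A : ValuationSubring (AlgebraicClosure ℚ), A.LiesOverPrime ℓ →
      ∀ τ : GalQ, A.IsFrobeniusAt τ ℓ →
        ∃ c : (ZMod M)ˣ, (c : ZMod M) = (ℓ : ZMod M) ∧ χ τ = c ^ e
  unram : ∀ ℓ : ℕ, ℓ.Prime → ¬ ℓ ∣ L * p →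
    ∀ A : ValuationSubring (AlgebraicClosure ℚ), A.LiesOverPrime ℓ →
      ∀ σ ∈ A.inertiaSubgroupIn ℚ, χ σ = 1
  level : ∃ E : IntermediateField ℚ (AlgebraicClosure ℚ), FiniteDimensional ℚ E ∧
    ∀ σ : GalQ, (∀ a ∈ E, σ a = a) → χ σ = 1

theorem es1inftw_not_dvd {L M p ℓ : ℕ} (hML : M ∣ L) (h : ¬ ℓ ∣ L * p) : ¬ ℓ ∣ M :=
  fun h' => h ((h'.trans hML).mul_right p)

/-- `χ = c_M ^ e`, `c_M` the cyclotomic character modulo `M` -/
theorem es1inftw_char_cyclo {L M : ℕ} [NeZero M] (p e : ℕ) (hML : M ∣ L) :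
    Es1inftwChar L M p e ((Fermat.Agent.S42.cycloChar M) ^ e) where
  frob := fun ℓ hℓ hgood A hA τ hτ =>
    ⟨Fermat.Agent.S42.cycloChar M τ,
      es1top_cycloChar_frob M ℓ hℓ (es1inftw_not_dvd hML hgood) A hA τ hτ, rfl⟩
  unram := fun ℓ hℓ hgood A hA σ hσ => by
    rw [MonoidHom.pow_apply,
      es1top_cycloChar_inertia M ℓ hℓ (es1inftw_not_dvd hML hgood) A hA σ hσ, one_pow]
  level := by
    obtain ⟨E, hE, h⟩ := es1top_cycloChar_level M
    exact ⟨E, hE, fun σ hσ => by rw [MonoidHom.pow_apply, h σ hσ, one_pow]⟩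

open Classical in
/-- the twisted Hecke operators `Tr ℓ = δ_ℓ ^ (e − 1) · T_ℓ` -/
def es1inftwTr (M e : ℕ) (ℓ : ℕ) : HDAlg M :=
  if h : ℓ.Prime ∧ Nat.Coprime ℓ M then
    es1top_dGen M (ZMod.unitOfCoprime ℓ h.2) ^ (e - 1) * es1top_tGen M ⟨ℓ, h.1⟩
  else 0

theorem es1inftwTr_eq (M e : ℕ) {ℓ : ℕ} (hℓ : ℓ.Prime) (hc : Nat.Coprime ℓ M) :
    es1inftwTr M e ℓ
      = es1top_dGen M (ZMod.unitOfCoprime ℓ hc) ^ (e - 1) * es1top_tGen M ⟨ℓ, hℓ⟩ := by
  classical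
  rw [es1inftwTr, dif_pos ⟨hℓ, hc⟩]

variable {L M : ℕ} [NeZero L] [NeZero M] {H : Subgroup (ZMod M)ˣ} {p : ℕ}

/-- the twisted Eichler–Shimura relation, on `es1infJ` -/
theorem es1inftw_frob_aux (hML : M ∣ L) (hp : 0 < p) (e : ℕ) (he : 1 ≤ e)
    (hE : ∀ c : (ZMod M)ˣ, c ^ (2 * e - 1) ∈ pmH H) (χ : GalQ →* (ZMod M)ˣ)
    (ℓ : ℕ) (hℓ : ℓ.Prime) (hgood : ¬ ℓ ∣ L * p)
    (A : ValuationSubring (AlgebraicClosure ℚ)) (hA : A.LiesOverPrime ℓ) (τ : GalQ)
    (hτ : A.IsFrobeniusAt τ ℓ) (c : (ZMod M)ˣ) (hc : (c : ZMod M) = (ℓ : ZMod M))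
    (hχ : χ τ = c ^ e) (x : es1infJ L M H p) :
    es1inftwSmul hML hp χ τ (es1inftwSmul hML hp χ τ x)
      - (letI := es1infModule L M H p hML hp; es1inftwTr M e ℓ • es1inftwSmul hML hp χ τ x)
      + ℓ • x = 0 := by
  letI := es1infModule L M H p hML hp
  letI := es1infGalois L M H p
  have hcop : Nat.Coprime ℓ M :=
    (Nat.Prime.coprime_iff_not_dvd hℓ).mpr (es1inftw_not_dvd hML hgood)
  have hcu : ZMod.unitOfCoprime ℓ hcop = c := Units.ext (by rw [ZMod.coe_unitOfCoprime, hc])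
  have hfrob := (es1inf_dataInf (H := H) hML hp).frob ℓ hℓ hgood c hc A hA τ hτ x
    (es1inf_isPPowerTorsion x)
  set D : HDAlg M := es1top_dGen M c with hD
  set T : HDAlg M := es1top_tGen M ⟨ℓ, hℓ⟩ with hT
  have hP : ∀ y : es1infJ L M H p, (D ^ (2 * e - 1)) • y = y := by
    intro y
    rw [hD, ← es1inf_dGen_pow_smul hML hp]
    exact es1inf_dGen_smul_of_mem hML hp (hE c) y
  have hsm : ∀ y : es1infJ L M H p, es1inftwSmul hML hp χ τ y = (D ^ e) • (τ • y) := by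
    intro y
    rw [es1inftwSmul_def, hχ, es1inf_dGen_pow_smul hML hp]
  rw [hsm, hsm, es1inftwTr_eq M e hℓ hcop, hcu, ← hD, ← hT,
    es1inf_galois_smul hML hp τ (D ^ e) (τ • x)]
  have e1 : D ^ e * D ^ e = D ^ (2 * e - 1) * D := by
    rw [← pow_add, ← pow_succ]
    congr 1
    omega
  have e2 : D ^ (e - 1) * T * D ^ e = D ^ (2 * e - 1) * T := by
    have : D ^ (2 * e - 1) = D ^ (e - 1) * D ^ e := by
      rw [← pow_add]
      congr 1
      omega
    rw [this]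
    ring
  have a1 : (D ^ e) • (D ^ e) • (τ • τ • x) = (D ^ (2 * e - 1)) • (D • (τ • τ • x)) :=
    calc (D ^ e) • (D ^ e) • (τ • τ • x) = (D ^ e * D ^ e) • (τ • τ • x) :=
          (mul_smul _ _ _).symm
      _ = (D ^ (2 * e - 1) * D) • (τ • τ • x) := by rw [e1]
      _ = (D ^ (2 * e - 1)) • (D • (τ • τ • x)) := mul_smul _ _ _
  have a2 : (D ^ (e - 1) * T) • (D ^ e) • (τ • x) = (D ^ (2 * e - 1)) • (T • (τ • x)) :=
    calc (D ^ (e - 1) * T) • (D ^ e) • (τ • x) = (D ^ (e - 1) * T * D ^ e) • (τ • x) :=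
          (mul_smul _ _ _).symm
      _ = (D ^ (2 * e - 1) * T) • (τ • x) := by rw [e2]
      _ = (D ^ (2 * e - 1)) • (T • (τ • x)) := mul_smul _ _ _
  have a3 : ℓ • x = (D ^ (2 * e - 1)) • (ℓ • x) := by
    rw [smul_comm (D ^ (2 * e - 1)) ℓ x, hP x]
  rw [a1, a2, a3, ← smul_sub, ← smul_add, hfrob, smul_zero]

/-- a common field of definition of `J[pⁿ]`, for the twisted action -/
theorem es1inftw_level_aux (hML : M ∣ L) (hp : 0 < p) (χ : GalQ →* (ZMod M)ˣ)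
    (hχ : ∃ E : IntermediateField ℚ (AlgebraicClosure ℚ), FiniteDimensional ℚ E ∧
      ∀ σ : GalQ, (∀ a ∈ E, σ a = a) → χ σ = 1) (n : ℕ) :
    ∃ E : IntermediateField ℚ (AlgebraicClosure ℚ), FiniteDimensional ℚ E ∧
      ∀ σ : GalQ, (∀ a ∈ E, σ a = a) → ∀ x : es1infJ L M H p, p ^ n • x = 0 →
        es1inftwSmul hML hp χ σ x = x := by
  classical
  letI := es1infModule L M H p hML hp
  letI := es1infGalois L M H p
  have hJ := es1inf_dataInf (H := H) hML hp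
  have hfin := hJ.finite n
  obtain ⟨Eχ, hEχfin, hEχ⟩ := hχ
  have hex : ∀ x : es1infJ L M H p, ∃ E : IntermediateField ℚ (AlgebraicClosure ℚ),
      FiniteDimensional ℚ E ∧ ∀ σ : GalQ, (∀ a ∈ E, σ a = a) → σ • x = x :=
    fun x => hJ.finite_level x (es1inf_isPPowerTorsion x)
  choose Ef hEf using hex
  haveI : FiniteDimensional ℚ (⨆ x ∈ hfin.toFinset, Ef x : IntermediateField ℚ _) := by
    apply IntermediateField.finiteDimensional_iSup_of_finset'
    intro x _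
    exact (hEf x).1
  refine ⟨Eχ ⊔ ⨆ x ∈ hfin.toFinset, Ef x, inferInstance, ?_⟩
  intro σ hσ x hx
  have h1 : χ σ = 1 := hEχ σ (fun a ha => hσ a ((le_sup_left : Eχ ≤ _) ha))
  rw [es1inftwSmul_of_one hML hp χ h1]
  apply (hEf x).2 σ
  intro a ha
  apply hσ
  have hle : Ef x ≤ ⨆ y ∈ hfin.toFinset, Ef y :=
    le_iSup₂_of_le x ((Set.Finite.mem_toFinset hfin).mpr hx) le_rfl
  exact (le_sup_right : _ ≤ Eχ ⊔ ⨆ y ∈ hfin.toFinset, Ef y) (hle ha)

/-- **(TW2) The twisted `p`-adic package** for `J_H(L; M)`. -/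
theorem es1inftw_pkg [hML : Fact (M ∣ L)] [hp : Fact p.Prime] (e : ℕ) (he : 1 ≤ e)
    (hE : ∀ c : (ZMod M)ˣ, c ^ (2 * e - 1) ∈ pmH H) (χ : GalQ →* (ZMod M)ˣ)
    (hχ : Es1inftwChar L M p e χ) :
    Fermat.Agent.RT.Rtk7bPkg p L (es1inftwJ L M H p χ) (es1inftwTr M e) where
  smul_comm := fun σ t x => es1inftwSmul_smul hML.out hp.out.pos χ σ t x
  finite_level := fun n => by
    obtain ⟨E, hE, h⟩ := es1inftw_level_aux (H := H) hML.out hp.out.pos χ hχ.level n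
    exact ⟨E, hE, fun σ hσ x hx => h σ hσ x hx⟩
  frob := fun ℓ hℓ hgood A hA τ hτ n x _ => by
    obtain ⟨c, hc, hχτ⟩ := hχ.frob ℓ hℓ hgood A hA τ hτ
    exact es1inftw_frob_aux hML.out hp.out.pos e he hE χ ℓ hℓ hgood A hA τ hτ c hc hχτ x
  unram := fun ℓ hℓ hgood A hA σ hσ n x _ => by
    letI := es1infModule L M H p hML.out hp.out.pos
    letI := es1infGalois L M H p
    have h1 := hχ.unram ℓ hℓ hgood A hA σ hσ
    show es1inftwSmul hML.out hp.out.pos χ σ x = x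
    rw [es1inftwSmul_of_one hML.out hp.out.pos χ h1]
    exact (es1inf_dataInf (H := H) hML.out hp.out.pos).unram ℓ hℓ hgood A hA σ hσ x
      (es1inf_isPPowerTorsion x)

/-! ## (TW5): finiteness, divisibility and faithfulness for the twisted module -/

/-- `J[pⁿ]` is finite -/
theorem es1inftw_finite [hML : Fact (M ∣ L)] [hp : Fact p.Prime] (χ : GalQ →* (ZMod M)ˣ)
    (n : ℕ) : {x : es1inftwJ L M H p χ | p ^ n • x = 0}.Finite :=
  es1inf_finite (H := H) hML.out hp.out.pos n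

/-- every element is `p`-power torsion -/
theorem es1inftw_torsion (χ : GalQ →* (ZMod M)ˣ) (x : es1inftwJ L M H p χ) :
    ∃ n : ℕ, p ^ n • x = 0 :=
  es1inf_isPPowerTorsion (es1inftwOf L M H p χ x)

/-- `es1inftwJ` is `p`-divisible -/
theorem es1inftw_divisible (χ : GalQ →* (ZMod M)ˣ) (x : es1inftwJ L M H p χ) :
    ∃ y : es1inftwJ L M H p χ, p • y = x :=
  es1inf_divisible (es1inftwOf L M H p χ x)

/-- `T_ℓ` (`ℓ ∤ L p`) and `δ_c` on the points -/
theorem es1inftwCoe_tGen_smul [hML : Fact (M ∣ L)] [hp : Fact p.Prime]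
    (χ : GalQ →* (ZMod M)ˣ) {ℓ : Nat.Primes} (h : ¬ (ℓ : ℕ) ∣ L * p)
    (x : es1inftwJ L M H p χ) :
    es1inftwCoe (es1top_tGen M ℓ • x) = G2.es1g2T L M H ℓ (es1inftwCoe x) :=
  es1infModule_tGen_smul hML.out hp.out.pos h (es1inftwOf L M H p χ x)

theorem es1inftwCoe_dGen_smul [hML : Fact (M ∣ L)] [hp : Fact p.Prime]
    (χ : GalQ →* (ZMod M)ˣ) (c : (ZMod M)ˣ) (x : es1inftwJ L M H p χ) :
    es1inftwCoe (es1top_dGen M c • x) = G2.es1Diamond L M H c (es1inftwCoe x) :=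
  es1infModule_dGen_smul hML.out hp.out.pos c (es1inftwOf L M H p χ x)

/-- **faithfulness** for the twisted module -/
theorem es1inftw_faith [hML : Fact (M ∣ L)] [hp : Fact p.Prime] (χ : GalQ →* (ZMod M)ˣ) :
    ES1FaithInf L M H hML.out p (es1inftwJ L M H p χ) :=
  es1inf_faith (H := H) hML.out hp.out.pos

/-- a polynomial killing `J[pⁿ]` maps the lattice `Λ` of the integral parabolic homomorphisms
into `pⁿ Λ` -/
theorem es1inftw_faith_int [hML : Fact (M ∣ L)] [hp : Fact p.Prime] (χ : GalQ →* (ZMod M)ˣ)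
    (n : ℕ) (t : HDAlg M) (ht : ∀ x : es1inftwJ L M H p χ, p ^ n • x = 0 → t • x = 0)
    (φ : Additive (gammaH L M H) →+ ℤ) (hφ : IsParabolicHom (gammaH L M H) φ) :
    ∃ ψ : Additive (gammaH L M H) →+ ℤ, IsParabolicHom (gammaH L M H) ψ ∧
      es1infHomEval L M H hML.out p ℤ t φ = p ^ n • ψ :=
  (es1inftw_faith (H := H) χ).int hp.out.ne_zero n t ht φ hφ

end Fermat.Agent.ES1

end
end ZBES1_020_10

/-! ### bundled: `Fermat.Agent.ES1.Inf.FaithK5` -/
section ZBES1_020_11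

/-!
# HK-FAITH — faithfulness for the K5 modules (helper38; spec helper59 23:44Z)

`Γ = gammaH L M H`, `J = es1inftwJ L M H p χ` (the twisted `p`-divisible torsion; the module
structure over `HDAlg M` is the untwisted one), `t ∈ HDAlg M` acting on `Hom(Γ, A)` by
`es1infHomEval` (`T_ℓ ↦ heckeGrp ℓ = K5.tSadj ℓ`, `δ_c ↦ diamGrp σ_c`).

* `es1inffk_exists_sum_intHoms` : `Hom_par(Γ, A) = A · Hom_par(Γ, ℤ)` for torsion-free `A`
  (`Γ` finitely generated);
* `es1inffk_torsionFree` : `t` kills `J[pⁿ]` ⇒ `t · Hom_par(Γ, A) ⊆ pⁿ Hom_par(Γ, A)`, `A` torsion-free;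
* `es1inffk_hom` : hence `t` kills `f ∘ v`, `v ∈ Hom_par(Γ, A)`, `f : A → B`, `pⁿ B = 0`;
* **`es1inffk_level`** : `t` kills `J[pⁿ]` ⇒ `t` kills the `Θ`-part
  `X_n = etaPart (thetaN 𝔲 ℓ₀ (𝒪 ⧸ 𝔪 ^ n) H)` of K5, provided the `Θ`-part over `𝒪` is parabolic
  (`StmtParO`) and `X_n` is the reduction of `X_𝒪` (`stmtFreeO` / `k5fo_red_onto`);
* **`es1inffk_level_of_noTors`** : the same with the reduction clause discharged by K5;
* `es1inffk_theta_le_eta`, `es1inffk_par_of_parO` : the `Θ`-part is contained in the `η`-part when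
  `𝔲` commutes with `η`, hence parabolic by `StmtParO`;
* **`es1inffk_adic`**, `es1inffk_adic_max` : the adic variant: `t` kills `J[pᵏ]` ⇒
  `t X_𝒪 ⊆ pᵏ X_𝒪 ⊆ 𝔪ᵏ X_𝒪` (`X_𝒪` parabolic and `t`-stable);
* `es1inffk_eval_theta`, `es1inffk_eval_mem` : the polynomials commute with `Θ` and preserve the
  `Θ`-part, when the `K5.tS ℓ` (`ℓ ∤ L p`) commute with `𝔲`.
-/

set_option autoImplicit false
set_option linter.unusedSectionVars false
set_option linter.style.haveILetI false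

noncomputable section

namespace Fermat.Agent.ES1

open ModularCurve AlgebraicCurve CongruenceSubgroup ModularCurve.Period
open Fermat.Agent.ES Fermat.Agent.S48 Fermat.Agent.RT.K5
open scoped MatrixGroups

/-! ## `Hom_par(Γ, A) = A · Hom_par(Γ, ℤ)` -/

/-- every homomorphism `G → A` (`G` finitely generated, `A` torsion-free) vanishing on `P` is a
finite combination `∑ φ_m(·) • a_m` of integral homomorphisms vanishing on `P` -/
theorem es1inffk_exists_sum_intHoms {G : Type*} [Group G] [Group.FG G] (P : Set G)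
    {A : Type*} [AddCommGroup A] [Module.IsTorsionFree ℤ A] (v : Additive G →+ A)
    (hv : ∀ g ∈ P, v (Additive.ofMul g) = 0) :
    ∃ (r : ℕ) (a : Fin r → A) (φ : Fin r → (Additive G →+ ℤ)),
      (∀ m, φ m ∈ intHoms G P) ∧ ∀ g, v g = ∑ m, φ m g • a m := by
  classical
  have hfg : AddGroup.FG (Additive G) := AddGroup.fg_of_group_fg
  let Λ : Submodule ℤ A := AddSubgroup.toIntSubmodule v.range
  have hΛfg : AddGroup.FG v.range := AddGroup.fg_range v
  have : Module.Finite ℤ Λ := Module.Finite.iff_addGroup_fg.mpr hΛfg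
  have : Module.Free ℤ Λ := Module.free_of_finite_type_torsion_free'
  let ν := Module.finBasis ℤ Λ
  let v' : Additive G →+ Λ :=
    { toFun := fun g => ⟨v g, ⟨g, rfl⟩⟩
      map_zero' := Subtype.ext (map_zero v)
      map_add' := fun a b => Subtype.ext (map_add v a b) }
  refine ⟨Module.finrank ℤ Λ, fun m => ((ν m : Λ) : A),
    fun m => (ν.coord m).toAddMonoidHom.comp v', ?_, ?_⟩
  · intro m g hg
    have h0 : v' (Additive.ofMul g) = 0 := Subtype.ext (hv g hg)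
    show ν.coord m (v' (Additive.ofMul g)) = 0
    rw [h0, map_zero]
  · intro g
    have h1 := ν.sum_repr (v' g)
    have h2 := congrArg (Subtype.val) h1
    rw [Submodule.coe_sum] at h2
    have h3 : (v g : A) = ((v' g : Λ) : A) := rfl
    rw [h3, ← h2]
    refine Finset.sum_congr rfl (fun m _ => ?_)
    rw [Submodule.coe_smul]
    rfl

variable {L M : ℕ} [NeZero L] [NeZero M] {H : Subgroup (ZMod M)ˣ} {p : ℕ}

/-! ## Torsion-free coefficients -/

/-- **(1) + (2)**: a polynomial killing `J[pⁿ]` maps `Hom_par(Γ, A)` into `pⁿ Hom_par(Γ, A)`, for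
every torsion-free coefficient group `A` -/
theorem es1inffk_torsionFree (hML : M ∣ L) {J : Type} [AddCommGroup J] [Module (HDAlg M) J]
    (h : ES1FaithInf L M H hML p J) (hp : p ≠ 0) (A : Type) [AddCommGroup A]
    [Module.IsTorsionFree ℤ A] (n : ℕ) (t : HDAlg M)
    (ht : ∀ x : J, p ^ n • x = 0 → t • x = 0)
    (φ : Additive (gammaH L M H) →+ A) (hφ : IsParabolicHom (gammaH L M H) φ) :
    ∃ ψ : Additive (gammaH L M H) →+ A, IsParabolicHom (gammaH L M H) ψ ∧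
      es1infHomEval L M H hML p A t φ = p ^ n • ψ := by
  haveI : Group.FG (gammaH L M H) := es1g1op_fg L M H
  obtain ⟨r, a, φm, hφm, hsum⟩ :=
    es1inffk_exists_sum_intHoms (es1g1opPar L M H) φ (fun γ hγ => hφ γ hγ)
  have hint : ∀ m, ∃ ψ : Additive (gammaH L M H) →+ ℤ, IsParabolicHom (gammaH L M H) ψ ∧
      es1infHomEval L M H hML p ℤ t (φm m) = p ^ n • ψ :=
    fun m => h.int hp n t ht (φm m) (fun γ hγ => hφm m γ hγ)
  choose ψm hψm hψeq using hint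
  let f : Fin r → (ℤ →+ A) := fun m => zmultiplesHom A (a m)
  have hf : ∀ m (k : ℤ), f m k = k • a m := fun m k => rfl
  have hφeq : φ = ∑ m, (f m).comp (φm m) := by
    refine DFunLike.ext _ _ fun γ => ?_
    rw [hsum γ, AddMonoidHom.finsetSum_apply]
    rfl
  refine ⟨∑ m, (f m).comp (ψm m), ?_, ?_⟩
  · intro γ hγ
    rw [AddMonoidHom.finsetSum_apply]
    refine Finset.sum_eq_zero fun m _ => ?_
    rw [AddMonoidHom.comp_apply, hψm m γ hγ, map_zero]
  · rw [hφeq, map_sum, Finset.smul_sum]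
    refine Finset.sum_congr rfl fun m _ => ?_
    rw [es1infHomEval_comp hML, hψeq m]
    refine DFunLike.ext _ _ fun γ => ?_
    rw [AddMonoidHom.comp_apply, AddMonoidHom.smul_apply, AddMonoidHom.smul_apply,
      AddMonoidHom.comp_apply, map_nsmul]

/-- **(1) + (2) + reduction**: a polynomial killing `J[pⁿ]` kills `f ∘ v` for every parabolic
`v : Γ → A`, `A` torsion-free, and every `f : A → B` with `pⁿ B = 0` -/
theorem es1inffk_hom (hML : M ∣ L) {J : Type} [AddCommGroup J] [Module (HDAlg M) J]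
    (h : ES1FaithInf L M H hML p J) (hp : p ≠ 0) (A : Type) [AddCommGroup A]
    [Module.IsTorsionFree ℤ A] (B : Type) [AddCommGroup B] (f : A →+ B) (n : ℕ)
    (hB : ∀ b : B, p ^ n • b = 0) (t : HDAlg M) (ht : ∀ x : J, p ^ n • x = 0 → t • x = 0)
    (v : Additive (gammaH L M H) →+ A) (hv : IsParabolicHom (gammaH L M H) v) :
    es1infHomEval L M H hML p B t (f.comp v) = 0 := by
  obtain ⟨ψ, -, hψ⟩ := es1inffk_torsionFree hML h hp A n t ht v hv
  rw [es1infHomEval_comp hML, hψ]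
  refine DFunLike.ext _ _ fun γ => ?_
  rw [AddMonoidHom.comp_apply, AddMonoidHom.smul_apply, map_nsmul, hB]
  rfl

/-! ## The `Θ`-part and the `η`-part -/

section theta

variable [hMLf : Fact (M ∣ L)] {𝒪 : Type} [CommRing 𝒪]

/-- if `𝔲` commutes with `η = T_ℓ₀ − ℓ₀ − 1` then the `Θ`-part (`Θ = 𝔲 ∘ η`) is contained in the
`η`-part -/
theorem es1inffk_theta_le_eta (𝔲 : NatFam 𝒪 L M) (ℓ₀ : ℕ) [NeZero ℓ₀] (A : Type)
    [AddCommGroup A] [Module 𝒪 A] (K : Subgroup (ZMod M)ˣ)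
    (hcomm : ∀ φ : HomS (gammaH L M K) A,
      (𝔲.fam A).op K (etaS L M ℓ₀ K A φ) = etaS L M ℓ₀ K A ((𝔲.fam A).op K φ)) :
    etaPart (thetaN 𝔲 ℓ₀ A K) ≤ etaPart (etaS L M ℓ₀ K A) := by
  have hΘ : ∀ φ : HomS (gammaH L M K) A,
      thetaN 𝔲 ℓ₀ A K φ = etaS L M ℓ₀ K A ((𝔲.fam A).op K φ) := fun φ => hcomm φ
  have hpow : ∀ (n : ℕ) (φ : HomS (gammaH L M K) A),
      k5s_pow (thetaN 𝔲 ℓ₀ A K) n φ
        = k5s_pow (etaS L M ℓ₀ K A) n (k5s_pow ((𝔲.fam A).op K) n φ) := by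
    intro n
    induction n with
    | zero => intro φ; rfl
    | succ n ih =>
        intro φ
        rw [k5s_pow_succ, ih, hΘ,
          ← k5s_intertwine_pow ((𝔲.fam A).op K) ((𝔲.fam A).op K) (etaS L M ℓ₀ K A)
            (fun x => (hcomm x).symm) n, ← k5s_pow_succ, ← k5s_pow_succ]
  intro φ hφ
  rw [k5s_mem_etaPart] at hφ ⊢
  intro n
  obtain ⟨ψ, hψ⟩ := hφ n
  exact ⟨_, (hpow n ψ).symm.trans hψ⟩

/-- the `Θ`-part over `A` is parabolic, from `StmtParO` and the commutation of `𝔲` with `η` -/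
theorem es1inffk_par_of_parO (hParO : StmtParO) [Fact p.Prime] (𝔲 : NatFam 𝒪 L M) (ℓ₀ : ℕ)
    [NeZero ℓ₀] (A : Type) [AddCommGroup A] [Module 𝒪 A] (k : ℕ) (hL : Squarefree L)
    (hℓ₀ : ℓ₀.Prime) (hℓ₀L : ¬ ℓ₀ ∣ L) (hp2 : p ≠ 2) (hℓ₀p : ℓ₀ ≠ p)
    (hsep : ∀ a : A, (∀ n : ℕ, ∃ b : A, a = p ^ n • b) → a = 0)
    (hH : ∀ u : (ZMod M)ˣ, u ^ (p ^ k) ∈ pmH H)
    (hcomm : ∀ φ : HomS (gammaH L M H) A,
      (𝔲.fam A).op H (etaS L M ℓ₀ H A φ) = etaS L M ℓ₀ H A ((𝔲.fam A).op H φ)) :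
    ∀ φ ∈ etaPart (thetaN 𝔲 ℓ₀ A H), IsParabolicHom (gammaH L M H) φ :=
  fun φ hφ => hParO p L M ℓ₀ H A k hL hℓ₀ hℓ₀L hp2 hℓ₀p hsep hH φ
    (es1inffk_theta_le_eta 𝔲 ℓ₀ A H hcomm hφ)

end theta

/-! ## The K5 modules -/

section level

variable [hMLf : Fact (M ∣ L)] [hpf : Fact p.Prime] {𝒪 : Type} [CommRing 𝒪] [IsDomain 𝒪]
  [CharZero 𝒪] [IsLocalRing 𝒪]

/-- `pⁿ` kills `𝒪 ⧸ 𝔪ⁿ` -/
theorem es1inffk_pow_smul_quot (hp𝔪 : (p : 𝒪) ∈ IsLocalRing.maximalIdeal 𝒪) (n : ℕ)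
    (b : 𝒪 ⧸ IsLocalRing.maximalIdeal 𝒪 ^ n) : p ^ n • b = 0 := by
  obtain ⟨a, rfl⟩ := Ideal.Quotient.mk_surjective b
  rw [← map_nsmul, Ideal.Quotient.eq_zero_iff_mem, nsmul_eq_mul]
  refine Ideal.mul_mem_right _ _ ?_
  rw [Nat.cast_pow]
  exact Ideal.pow_mem_pow hp𝔪 n

/-- **HK-FAITH** (hypothesis form): a polynomial killing `J[pⁿ]` kills the `Θ`-part `X_n` of
`Hom(Γ, 𝒪 ⧸ 𝔪ⁿ)`, if the `Θ`-part over `𝒪` is parabolic and reduces onto `X_n`. -/
theorem es1inffk_level (χ : GalQ →* (ZMod M)ˣ)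
    (hp𝔪 : (p : 𝒪) ∈ IsLocalRing.maximalIdeal 𝒪) (𝔲 : NatFam 𝒪 L M) (ℓ₀ : ℕ) [NeZero ℓ₀]
    (hPar : ∀ v ∈ etaPart (thetaN 𝔲 ℓ₀ 𝒪 H), IsParabolicHom (gammaH L M H) v) (n : ℕ)
    (hRed : ∀ w ∈ etaPart (thetaN 𝔲 ℓ₀ (𝒪 ⧸ IsLocalRing.maximalIdeal 𝒪 ^ n) H),
      ∃ v ∈ etaPart (thetaN 𝔲 ℓ₀ 𝒪 H),
        mapS (Submodule.mkQ (IsLocalRing.maximalIdeal 𝒪 ^ n)).toAddMonoidHom v = w)
    (t : HDAlg M) (ht : ∀ x : es1inftwJ L M H p χ, p ^ n • x = 0 → t • x = 0) :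
    ∀ ψ ∈ etaPart (thetaN 𝔲 ℓ₀ (𝒪 ⧸ IsLocalRing.maximalIdeal 𝒪 ^ n) H),
      es1infHomEval L M H hMLf.out p (𝒪 ⧸ IsLocalRing.maximalIdeal 𝒪 ^ n) t ψ = 0 := by
  intro ψ hψ
  obtain ⟨v, hv, rfl⟩ := hRed ψ hψ
  exact es1inffk_hom hMLf.out (es1inftw_faith (H := H) χ) hpf.out.ne_zero 𝒪 _ _ n
    (es1inffk_pow_smul_quot hp𝔪 n) t ht v (hPar v hv)

end level

section dvr

variable [hMLf : Fact (M ∣ L)] [hpf : Fact p.Prime] {𝒪 : Type} [CommRing 𝒪] [IsDomain 𝒪]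
  [CharZero 𝒪] [IsDiscreteValuationRing 𝒪] [IsAdicComplete (IsLocalRing.maximalIdeal 𝒪) 𝒪]
  [Finite (IsLocalRing.ResidueField 𝒪)]

/-- **HK-FAITH** with the reduction clause discharged by K5 (`k5fo_red_onto`): `𝒪` a complete
discrete valuation ring with finite residue field. -/
theorem es1inffk_level_of_noTors
    (χ : GalQ →* (ZMod M)ˣ) (hp𝔪 : (p : 𝒪) ∈ IsLocalRing.maximalIdeal 𝒪) (𝔲 : NatFam 𝒪 L M)
    (ℓ₀ : ℕ) [NeZero ℓ₀]
    (hPar : ∀ v ∈ etaPart (thetaN 𝔲 ℓ₀ 𝒪 H), IsParabolicHom (gammaH L M H) v) (n : ℕ)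
    (hNT : NoTors (gammaH L M H) (𝒪 ⧸ IsLocalRing.maximalIdeal 𝒪 ^ n))
    (t : HDAlg M) (ht : ∀ x : es1inftwJ L M H p χ, p ^ n • x = 0 → t • x = 0) :
    ∀ ψ ∈ etaPart (thetaN 𝔲 ℓ₀ (𝒪 ⧸ IsLocalRing.maximalIdeal 𝒪 ^ n) H),
      es1infHomEval L M H hMLf.out p (𝒪 ⧸ IsLocalRing.maximalIdeal 𝒪 ^ n) t ψ = 0 :=
  es1inffk_level χ hp𝔪 𝔲 ℓ₀ hPar n (fun _ hw => k5fo_red_onto 𝔲 ℓ₀ n H hNT hw) t ht

/-- **HK-FAITH, adic variant** (`p`-form): a polynomial `t` killing `J[pᵏ]` maps `v ∈ X_𝒪` into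
`pᵏ X_𝒪`, provided `t v ∈ X_𝒪` (see `es1inffk_eval_mem` for the stability) and `X_𝒪` is parabolic. -/
theorem es1inffk_adic (χ : GalQ →* (ZMod M)ˣ) (𝔲 : NatFam 𝒪 L M) (ℓ₀ : ℕ) [NeZero ℓ₀]
    (hPar : ∀ v ∈ etaPart (thetaN 𝔲 ℓ₀ 𝒪 H), IsParabolicHom (gammaH L M H) v) (k : ℕ)
    (t : HDAlg M) (ht : ∀ x : es1inftwJ L M H p χ, p ^ k • x = 0 → t • x = 0)
    (v : HomS (gammaH L M H) 𝒪) (hv : v ∈ etaPart (thetaN 𝔲 ℓ₀ 𝒪 H))
    (hstab : es1infHomEval L M H hMLf.out p 𝒪 t v ∈ etaPart (thetaN 𝔲 ℓ₀ 𝒪 H)) :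
    ∃ v' ∈ etaPart (thetaN 𝔲 ℓ₀ 𝒪 H), es1infHomEval L M H hMLf.out p 𝒪 t v = p ^ k • v' := by
  haveI := k5fo_finite (gammaH L M H) 𝒪
  haveI := k5fo_free (gammaH L M H) 𝒪
  obtain ⟨⟨e, -, h1, h2, -⟩, -, -, -⟩ :=
    stmtFitO 𝒪 (HomS (gammaH L M H) 𝒪) (k5foTheta 𝔲 ℓ₀ 𝒪 H)
  rw [k5fo_theta_toAdd] at h1 h2
  obtain ⟨ψ, -, hψ⟩ := es1inffk_torsionFree hMLf.out (es1inftw_faith (H := H) χ)
    hpf.out.ne_zero 𝒪 k t ht v (hPar v hv)
  refine ⟨e ψ, h1 ψ, ?_⟩
  rw [← map_nsmul, ← hψ, h2 _ hstab]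

/-- **HK-FAITH, adic variant** (`𝔪`-form): `t X_𝒪 ⊆ 𝔪ᵏ X_𝒪`. -/
theorem es1inffk_adic_max (χ : GalQ →* (ZMod M)ˣ)
    (hp𝔪 : (p : 𝒪) ∈ IsLocalRing.maximalIdeal 𝒪) (𝔲 : NatFam 𝒪 L M) (ℓ₀ : ℕ) [NeZero ℓ₀]
    (hPar : ∀ v ∈ etaPart (thetaN 𝔲 ℓ₀ 𝒪 H), IsParabolicHom (gammaH L M H) v) (k : ℕ)
    (t : HDAlg M) (ht : ∀ x : es1inftwJ L M H p χ, p ^ k • x = 0 → t • x = 0)
    (v : HomS (gammaH L M H) 𝒪) (hv : v ∈ etaPart (thetaN 𝔲 ℓ₀ 𝒪 H))
    (hstab : es1infHomEval L M H hMLf.out p 𝒪 t v ∈ etaPart (thetaN 𝔲 ℓ₀ 𝒪 H)) :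
    ∃ c ∈ IsLocalRing.maximalIdeal 𝒪 ^ k, ∃ v' ∈ etaPart (thetaN 𝔲 ℓ₀ 𝒪 H),
      es1infHomEval L M H hMLf.out p 𝒪 t v = c • v' := by
  obtain ⟨v', hv', h⟩ := es1inffk_adic χ 𝔲 ℓ₀ hPar k t ht v hv hstab
  refine ⟨((p ^ k : ℕ) : 𝒪), ?_, v', hv', ?_⟩
  · rw [Nat.cast_pow]
    exact Ideal.pow_mem_pow hp𝔪 k
  · rw [h, Nat.cast_smul_eq_nsmul]

end dvr

/-! ## Stability of the `Θ`-part under the Hecke–diamond polynomials -/

section stab

variable [hMLf : Fact (M ∣ L)] {𝒪 : Type} [CommRing 𝒪]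

/-- `K5.tS ℓ` commutes with `Θ = 𝔲 ∘ (T_ℓ₀ − ℓ₀ − 1)` when it commutes with `𝔲` -/
theorem es1inffk_tS_theta (𝔲 : NatFam 𝒪 L M) (ℓ₀ : ℕ) [NeZero ℓ₀] (hℓ₀ : ℓ₀.Prime)
    (hℓ₀L : ¬ ℓ₀ ∣ L) (A : Type) [AddCommGroup A] [Module 𝒪 A] (K : Subgroup (ZMod M)ˣ)
    (ℓ : ℕ) [NeZero ℓ] (hℓ : ℓ.Prime) (hℓL : ¬ ℓ ∣ L)
    (h𝔲 : ∀ φ : HomS (gammaH L M K) A,
      (𝔲.fam A).op K (tS L M ℓ K A φ) = tS L M ℓ K A ((𝔲.fam A).op K φ))
    (φ : HomS (gammaH L M K) A) :
    tS L M ℓ K A (thetaN 𝔲 ℓ₀ A K φ) = thetaN 𝔲 ℓ₀ A K (tS L M ℓ K A φ) := by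
  show tS L M ℓ K A ((𝔲.fam A).op K (tS L M ℓ₀ K A φ - (ℓ₀ + 1) • φ))
    = (𝔲.fam A).op K (tS L M ℓ₀ K A (tS L M ℓ K A φ) - (ℓ₀ + 1) • tS L M ℓ K A φ)
  rw [← h𝔲, map_sub, map_nsmul, stmtCommT L M ℓ ℓ₀ K A hℓ hℓ₀ hℓL hℓ₀L]

/-- `diamGrp σ` commutes with `Θ` -/
theorem es1inffk_diamGrp_theta (𝔲 : NatFam 𝒪 L M) (ℓ₀ : ℕ) [NeZero ℓ₀]
    (A : Type) [AddCommGroup A] [Module 𝒪 A] (K : Subgroup (ZMod M)ˣ) (σ : SL(2, ℤ))
    (hσL : σ ∈ Gamma0 L) (hσM : σ ∈ Gamma0 M) (φ : HomS (gammaH L M K) A) :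
    diamGrp L M K σ hσL hσM (thetaN 𝔲 ℓ₀ A K φ)
      = thetaN 𝔲 ℓ₀ A K (diamGrp L M K σ hσL hσM φ) := by
  rw [es1inf_diamGrp_eq_diamS, es1inf_diamGrp_eq_diamS]
  exact k5n_theta_diam 𝔲 ℓ₀ K σ⁻¹ (inv_mem hσL) (inv_mem hσM) φ

/-- `heckeGrp ℓ` commutes with `Θ` when `K5.tS ℓ` commutes with `𝔲` -/
theorem es1inffk_heckeGrp_theta (𝔲 : NatFam 𝒪 L M) (ℓ₀ : ℕ) [NeZero ℓ₀] (hℓ₀ : ℓ₀.Prime)
    (hℓ₀L : ¬ ℓ₀ ∣ L) (A : Type) [AddCommGroup A] [Module 𝒪 A] (K : Subgroup (ZMod M)ˣ)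
    (ℓ : ℕ) [NeZero ℓ] (hℓ : ℓ.Prime) (hℓL : ¬ ℓ ∣ L)
    (h𝔲 : ∀ φ : HomS (gammaH L M K) A,
      (𝔲.fam A).op K (tS L M ℓ K A φ) = tS L M ℓ K A ((𝔲.fam A).op K φ))
    (φ : HomS (gammaH L M K) A) :
    heckeGrp L M K ℓ hMLf.out (thetaN 𝔲 ℓ₀ A K φ)
      = thetaN 𝔲 ℓ₀ A K (heckeGrp L M K ℓ hMLf.out φ) := by
  have hc : Nat.Coprime ℓ L := (Nat.Prime.coprime_iff_not_dvd hℓ).mpr hℓL
  obtain ⟨b, d, h⟩ := es1inf_exists_bd hc
  rw [← es1inf_diamGrp_tS_sigma K h, ← es1inf_diamGrp_tS_sigma K h,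
    es1inffk_tS_theta 𝔲 ℓ₀ hℓ₀ hℓ₀L A K ℓ hℓ hℓL h𝔲, es1inffk_diamGrp_theta]

/-- the Hecke–diamond polynomials commute with `Θ`, when the `K5.tS ℓ` (`ℓ ∤ L p` prime) commute
with `𝔲` -/
theorem es1inffk_eval_theta (𝔲 : NatFam 𝒪 L M) (ℓ₀ : ℕ) [NeZero ℓ₀] (hℓ₀ : ℓ₀.Prime)
    (hℓ₀L : ¬ ℓ₀ ∣ L) (A : Type) [AddCommGroup A] [Module 𝒪 A] (K : Subgroup (ZMod M)ˣ)
    (h𝔲 : ∀ (ℓ : ℕ) [NeZero ℓ], ℓ.Prime → ¬ ℓ ∣ L * p → ∀ φ : HomS (gammaH L M K) A,
      (𝔲.fam A).op K (tS L M ℓ K A φ) = tS L M ℓ K A ((𝔲.fam A).op K φ))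
    (t : HDAlg M) (φ : HomS (gammaH L M K) A) :
    es1infHomEval L M K hMLf.out p A t (thetaN 𝔲 ℓ₀ A K φ)
      = thetaN 𝔲 ℓ₀ A K (es1infHomEval L M K hMLf.out p A t φ) := by
  induction t using MvPolynomial.induction_on generalizing φ with
  | C a => rw [es1infHomEval_C, es1infHomEval_C, map_zsmul]
  | add s t hs ht => rw [map_add, LinearMap.add_apply, LinearMap.add_apply, hs, ht, map_add]
  | mul_X s i hs =>
      rw [map_mul, Module.End.mul_apply, Module.End.mul_apply, es1infHomEval_X, ← hs]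
      congr 1
      by_cases hi : i ∈ es1inf_goodVars L M p
      · rcases i with ℓ | c
        · haveI : NeZero (ℓ : ℕ) := ⟨ℓ.2.ne_zero⟩
          have hℓ : ¬ (ℓ : ℕ) ∣ L * p := es1inf_inl_mem_goodVars.mp hi
          rw [es1infHomOp_inl hMLf.out hℓ, es1infHomOp_inl hMLf.out hℓ]
          exact es1inffk_heckeGrp_theta 𝔲 ℓ₀ hℓ₀ hℓ₀L A K ℓ ℓ.2
            (fun h => hℓ (h.mul_right p)) (h𝔲 ℓ ℓ.2 hℓ) φ
        · obtain ⟨σ, hσL, hσM, hσ⟩ := es1g1op_exists_sigma hMLf.out c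
          rw [es1infHomOp_inr hMLf.out c _ σ hσL hσM hσ,
            es1infHomOp_inr hMLf.out c _ σ hσL hσM hσ]
          exact es1inffk_diamGrp_theta 𝔲 ℓ₀ A K σ hσL hσM φ
      · rw [es1infHomOp_bad (A := A) hMLf.out hi, LinearMap.zero_apply, LinearMap.zero_apply,
          map_zero]

/-- **stability**: the `Θ`-part is stable under the Hecke–diamond polynomials -/
theorem es1inffk_eval_mem (𝔲 : NatFam 𝒪 L M) (ℓ₀ : ℕ) [NeZero ℓ₀] (hℓ₀ : ℓ₀.Prime)
    (hℓ₀L : ¬ ℓ₀ ∣ L) (A : Type) [AddCommGroup A] [Module 𝒪 A] (K : Subgroup (ZMod M)ˣ)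
    (h𝔲 : ∀ (ℓ : ℕ) [NeZero ℓ], ℓ.Prime → ¬ ℓ ∣ L * p → ∀ φ : HomS (gammaH L M K) A,
      (𝔲.fam A).op K (tS L M ℓ K A φ) = tS L M ℓ K A ((𝔲.fam A).op K φ))
    (t : HDAlg M) {v : HomS (gammaH L M K) A} (hv : v ∈ etaPart (thetaN 𝔲 ℓ₀ A K)) :
    es1infHomEval L M K hMLf.out p A t v ∈ etaPart (thetaN 𝔲 ℓ₀ A K) :=
  k5s_intertwine_mem (thetaN 𝔲 ℓ₀ A K) (thetaN 𝔲 ℓ₀ A K)
    ((es1infHomEval L M K hMLf.out p A t).toAddMonoidHom)
    (fun x => es1inffk_eval_theta 𝔲 ℓ₀ hℓ₀ hℓ₀L A K h𝔲 t x) hv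

end stab

end Fermat.Agent.ES1

end
end ZBES1_020_11

/-! ### bundled: `Fermat.Agent.ES1.Inf.FaithK5Expr` -/
section ZBES1_020_12

/-!
# HK-FAITH for Hecke polynomial expressions (helper38)

`E : RT.K5.HExpr 𝒪` with `E.IsPrimes`, `𝔲 = E.eval L M`, `X_A = etaPart (thetaN 𝔲 ℓ₀ A H)`.
With helper7's `stmtParO` (the `η`-part is parabolic) and helper88's `k5hx_comm_tS`,
`k5hx_comm_etaS` all the hypotheses of `ES1/Inf/FaithK5.lean` are discharged:

* `es1inffk_sep` : `𝒪` is `p`-adically separated;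
* `es1inffk_expr_par` : `X_𝒪` is parabolic;
* `es1inffk_expr_mem` : `X_A` is stable under the Hecke–diamond polynomials;
* **`es1inffk_expr_level`** : `t` kills `J[pⁿ]` ⇒ `t` kills `X_{𝒪 ⧸ 𝔪ⁿ}`;
* **`es1inffk_expr_faith`** : the `faith` field of HK-CONC: `∃ n₀, ∀ t, t kills J[p^n₀] ⇒ t = 0` on
  `X_{𝒪 ⧸ 𝔪ⁿ}`;
* **`es1inffk_expr_adic`**, `es1inffk_expr_adic_max` : `t` kills `J[pᵏ]` ⇒ `t X_𝒪 ⊆ pᵏ X_𝒪 ⊆ 𝔪ᵏ X_𝒪`.
-/

set_option autoImplicit false
set_option linter.unusedSectionVars false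
set_option linter.style.haveILetI false

noncomputable section

namespace Fermat.Agent.ES1

open ModularCurve AlgebraicCurve CongruenceSubgroup ModularCurve.Period
open Fermat.Agent.ES Fermat.Agent.S48 Fermat.Agent.RT.K5
open scoped MatrixGroups

/-- a Noetherian local ring with `p ∈ 𝔪` is `p`-adically separated -/
theorem es1inffk_sep {𝒪 : Type} [CommRing 𝒪] [IsLocalRing 𝒪] [IsNoetherianRing 𝒪] {p : ℕ}
    (hp𝔪 : (p : 𝒪) ∈ IsLocalRing.maximalIdeal 𝒪) (a : 𝒪)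
    (h : ∀ n : ℕ, ∃ b : 𝒪, a = p ^ n • b) : a = 0 := by
  have hmem : a ∈ ⨅ n : ℕ, IsLocalRing.maximalIdeal 𝒪 ^ n := by
    rw [Ideal.mem_iInf]
    intro n
    obtain ⟨b, rfl⟩ := h n
    rw [nsmul_eq_mul, Nat.cast_pow]
    exact Ideal.mul_mem_right _ _ (Ideal.pow_mem_pow hp𝔪 n)
  rw [Ideal.iInf_pow_eq_bot_of_isLocalRing _ (IsLocalRing.maximalIdeal.isMaximal 𝒪).ne_top] at hmem
  exact hmem

variable {L M : ℕ} [NeZero L] [NeZero M] {H : Subgroup (ZMod M)ˣ} {p : ℕ}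

section expr

variable [hMLf : Fact (M ∣ L)] [hpf : Fact p.Prime] {𝒪 : Type} [CommRing 𝒪] [IsDomain 𝒪]
  [CharZero 𝒪] [IsDiscreteValuationRing 𝒪] [IsAdicComplete (IsLocalRing.maximalIdeal 𝒪) 𝒪]
  [Finite (IsLocalRing.ResidueField 𝒪)]

omit [CharZero 𝒪] [IsAdicComplete (IsLocalRing.maximalIdeal 𝒪) 𝒪]
  [Finite (IsLocalRing.ResidueField 𝒪)] in
/-- the `Θ`-part over `𝒪` of a Hecke expression is parabolic (`stmtParO`) -/
theorem es1inffk_expr_par (hp𝔪 : (p : 𝒪) ∈ IsLocalRing.maximalIdeal 𝒪) (E : HExpr 𝒪)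
    (hE : E.IsPrimes) (ℓ₀ : ℕ) [NeZero ℓ₀] (hℓ₀ : ℓ₀.Prime) (hℓ₀L : ¬ ℓ₀ ∣ L)
    (hL : Squarefree L) (hp2 : p ≠ 2) (hℓ₀p : ℓ₀ ≠ p) (k : ℕ)
    (hH : ∀ u : (ZMod M)ˣ, u ^ (p ^ k) ∈ pmH H) :
    ∀ v ∈ etaPart (thetaN (E.eval L M) ℓ₀ 𝒪 H), IsParabolicHom (gammaH L M H) v :=
  es1inffk_par_of_parO stmtParO (E.eval L M) ℓ₀ 𝒪 k hL hℓ₀ hℓ₀L hp2 hℓ₀p
    (es1inffk_sep hp𝔪) hH (fun φ => (k5hx_comm_etaS L M 𝒪 H E hE ℓ₀ hℓ₀ φ).symm)

omit hpf [IsDomain 𝒪] [CharZero 𝒪] [IsDiscreteValuationRing 𝒪]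
  [IsAdicComplete (IsLocalRing.maximalIdeal 𝒪) 𝒪] [Finite (IsLocalRing.ResidueField 𝒪)] in
/-- the `Θ`-part of a Hecke expression is stable under the Hecke–diamond polynomials -/
theorem es1inffk_expr_mem (E : HExpr 𝒪) (hE : E.IsPrimes) (ℓ₀ : ℕ) [NeZero ℓ₀]
    (hℓ₀ : ℓ₀.Prime) (hℓ₀L : ¬ ℓ₀ ∣ L) (A : Type) [AddCommGroup A] [Module 𝒪 A]
    (K : Subgroup (ZMod M)ˣ) (t : HDAlg M) {v : HomS (gammaH L M K) A}
    (hv : v ∈ etaPart (thetaN (E.eval L M) ℓ₀ A K)) :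
    es1infHomEval L M K hMLf.out p A t v ∈ etaPart (thetaN (E.eval L M) ℓ₀ A K) :=
  es1inffk_eval_mem (E.eval L M) ℓ₀ hℓ₀ hℓ₀L A K
    (fun ℓ _ hℓ _ φ => (k5hx_comm_tS L M A K E hE ℓ hℓ φ).symm) t hv

/-- **HK-FAITH for a Hecke expression**: a polynomial killing `J[pⁿ]` kills the `Θ`-part of
`Hom(Γ_H(L), 𝒪 ⧸ 𝔪ⁿ)`. -/
theorem es1inffk_expr_level (χ : GalQ →* (ZMod M)ˣ)
    (hp𝔪 : (p : 𝒪) ∈ IsLocalRing.maximalIdeal 𝒪) (E : HExpr 𝒪) (hE : E.IsPrimes) (ℓ₀ : ℕ)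
    [NeZero ℓ₀] (hℓ₀ : ℓ₀.Prime) (hℓ₀L : ¬ ℓ₀ ∣ L) (hL : Squarefree L) (hp2 : p ≠ 2)
    (hℓ₀p : ℓ₀ ≠ p) (k : ℕ) (hH : ∀ u : (ZMod M)ˣ, u ^ (p ^ k) ∈ pmH H) (n : ℕ)
    (hNT : NoTors (gammaH L M H) (𝒪 ⧸ IsLocalRing.maximalIdeal 𝒪 ^ n))
    (t : HDAlg M) (ht : ∀ x : es1inftwJ L M H p χ, p ^ n • x = 0 → t • x = 0) :
    ∀ ψ ∈ etaPart (thetaN (E.eval L M) ℓ₀ (𝒪 ⧸ IsLocalRing.maximalIdeal 𝒪 ^ n) H),
      es1infHomEval L M H hMLf.out p (𝒪 ⧸ IsLocalRing.maximalIdeal 𝒪 ^ n) t ψ = 0 :=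
  es1inffk_level_of_noTors χ hp𝔪 (E.eval L M) ℓ₀
    (es1inffk_expr_par hp𝔪 E hE ℓ₀ hℓ₀ hℓ₀L hL hp2 hℓ₀p k hH) n hNT t ht

/-- **the `faith` field of HK-CONC** (act-level): there is `n₀` (`= n`) such that every polynomial
killing `J[p^n₀]` is zero on the `Θ`-part of `Hom(Γ_H(L), 𝒪 ⧸ 𝔪ⁿ)`. -/
theorem es1inffk_expr_faith (χ : GalQ →* (ZMod M)ˣ)
    (hp𝔪 : (p : 𝒪) ∈ IsLocalRing.maximalIdeal 𝒪) (E : HExpr 𝒪) (hE : E.IsPrimes) (ℓ₀ : ℕ)
    [NeZero ℓ₀] (hℓ₀ : ℓ₀.Prime) (hℓ₀L : ¬ ℓ₀ ∣ L) (hL : Squarefree L) (hp2 : p ≠ 2)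
    (hℓ₀p : ℓ₀ ≠ p) (k : ℕ) (hH : ∀ u : (ZMod M)ˣ, u ^ (p ^ k) ∈ pmH H) (n : ℕ)
    (hNT : NoTors (gammaH L M H) (𝒪 ⧸ IsLocalRing.maximalIdeal 𝒪 ^ n)) :
    ∃ n₀ : ℕ, ∀ t : HDAlg M, (∀ x : es1inftwJ L M H p χ, p ^ n₀ • x = 0 → t • x = 0) →
      ∀ ψ ∈ etaPart (thetaN (E.eval L M) ℓ₀ (𝒪 ⧸ IsLocalRing.maximalIdeal 𝒪 ^ n) H),
        es1infHomEval L M H hMLf.out p (𝒪 ⧸ IsLocalRing.maximalIdeal 𝒪 ^ n) t ψ = 0 :=
  ⟨n, fun t ht => es1inffk_expr_level χ hp𝔪 E hE ℓ₀ hℓ₀ hℓ₀L hL hp2 hℓ₀p k hH n hNT t ht⟩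

/-- **HK-FAITH, adic variant, for a Hecke expression** (`p`-form): `t` kills `J[pᵏ]` ⇒
`t X_𝒪 ⊆ pᵏ X_𝒪`. -/
theorem es1inffk_expr_adic (χ : GalQ →* (ZMod M)ˣ)
    (hp𝔪 : (p : 𝒪) ∈ IsLocalRing.maximalIdeal 𝒪) (E : HExpr 𝒪) (hE : E.IsPrimes) (ℓ₀ : ℕ)
    [NeZero ℓ₀] (hℓ₀ : ℓ₀.Prime) (hℓ₀L : ¬ ℓ₀ ∣ L) (hL : Squarefree L) (hp2 : p ≠ 2)
    (hℓ₀p : ℓ₀ ≠ p) (k : ℕ) (hH : ∀ u : (ZMod M)ˣ, u ^ (p ^ k) ∈ pmH H) (k' : ℕ)
    (t : HDAlg M) (ht : ∀ x : es1inftwJ L M H p χ, p ^ k' • x = 0 → t • x = 0)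
    (v : HomS (gammaH L M H) 𝒪) (hv : v ∈ etaPart (thetaN (E.eval L M) ℓ₀ 𝒪 H)) :
    ∃ v' ∈ etaPart (thetaN (E.eval L M) ℓ₀ 𝒪 H),
      es1infHomEval L M H hMLf.out p 𝒪 t v = p ^ k' • v' :=
  es1inffk_adic χ (E.eval L M) ℓ₀
    (es1inffk_expr_par hp𝔪 E hE ℓ₀ hℓ₀ hℓ₀L hL hp2 hℓ₀p k hH) k' t ht v hv
    (es1inffk_expr_mem E hE ℓ₀ hℓ₀ hℓ₀L 𝒪 H t hv)

/-- **HK-FAITH, adic variant, for a Hecke expression** (`𝔪`-form): `t X_𝒪 ⊆ 𝔪ᵏ X_𝒪`. -/
theorem es1inffk_expr_adic_max (χ : GalQ →* (ZMod M)ˣ)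
    (hp𝔪 : (p : 𝒪) ∈ IsLocalRing.maximalIdeal 𝒪) (E : HExpr 𝒪) (hE : E.IsPrimes) (ℓ₀ : ℕ)
    [NeZero ℓ₀] (hℓ₀ : ℓ₀.Prime) (hℓ₀L : ¬ ℓ₀ ∣ L) (hL : Squarefree L) (hp2 : p ≠ 2)
    (hℓ₀p : ℓ₀ ≠ p) (k : ℕ) (hH : ∀ u : (ZMod M)ˣ, u ^ (p ^ k) ∈ pmH H) (k' : ℕ)
    (t : HDAlg M) (ht : ∀ x : es1inftwJ L M H p χ, p ^ k' • x = 0 → t • x = 0)
    (v : HomS (gammaH L M H) 𝒪) (hv : v ∈ etaPart (thetaN (E.eval L M) ℓ₀ 𝒪 H)) :
    ∃ c ∈ IsLocalRing.maximalIdeal 𝒪 ^ k', ∃ v' ∈ etaPart (thetaN (E.eval L M) ℓ₀ 𝒪 H),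
      es1infHomEval L M H hMLf.out p 𝒪 t v = c • v' :=
  es1inffk_adic_max χ hp𝔪 (E.eval L M) ℓ₀
    (es1inffk_expr_par hp𝔪 E hE ℓ₀ hℓ₀ hℓ₀L hL hp2 hℓ₀p k hH) k' t ht v hv
    (es1inffk_expr_mem E hE ℓ₀ hℓ₀ hℓ₀L 𝒪 H t hv)

end expr

end Fermat.Agent.ES1

end
end ZBES1_020_12

/-! ### bundled: `Fermat.Agent.RT.Hecke.ConcFaith` -/
section ZBES1_020_13

/-!
# K-machine, HECKE-asm, HK-CONC: the field `faith` (helper38)

For `𝔲 = E.eval L M` (`E : K5.HExpr 𝒪`, `E.IsPrimes`), `X = rthkdX 𝔲 ℓ₀ H' ν` (the `Θ`-part of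
`Hom(Γ_{H'}(L), 𝒪 ⧸ 𝔪 ^ ν)`), `act = rthkdAct p 𝔲 ℓ₀ H' ν hst`, `J = es1inftwJ L M H' p χ`:

* `rthkd_hst` : the stability hypothesis `hst` of `rthkdAct` (`es1inffk_expr_mem`);
* **`rthkd_faith_all`** : `∃ n₀, ∀ t : HDAlg M, (t kills J[p^n₀]) → act t = 0`   (`n₀ = ν`);
* **`rthkd_faith`** : the same restricted to a subring/subset `B` of `HDAlg M` (the shape of the
  field `faith` of `HkConc`, `B = rthksE p J`).
-/

set_option autoImplicit false
set_option linter.unusedSectionVars false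

noncomputable section

namespace Fermat.Agent.RT

open IsLocalRing Fermat.Agent.ES1 Fermat.Agent.RT.K5 Fermat.Agent.S48
open scoped MatrixGroups

variable {O : Type} [CommRing O] [IsDomain O] [CharZero O] [IsDiscreteValuationRing O]
  [IsAdicComplete (maximalIdeal O) O] [Finite (ResidueField O)]
  {p : ℕ} [hpf : Fact p.Prime] {L M : ℕ} [NeZero L] [NeZero M] [hML : Fact (M ∣ L)]
  {H' : Subgroup (ZMod M)ˣ}

omit [IsDomain O] [CharZero O] [IsDiscreteValuationRing O] [IsAdicComplete (maximalIdeal O) O]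
  [Finite (ResidueField O)] hpf in
/-- the stability hypothesis of `rthkdAct`, for a Hecke expression -/
theorem rthkd_hst [IsLocalRing O] (p : ℕ) (E : HExpr O) (hE : E.IsPrimes) (ℓ₀ : ℕ) [NeZero ℓ₀]
    (hℓ₀ : ℓ₀.Prime) (hℓ₀L : ¬ ℓ₀ ∣ L) (H' : Subgroup (ZMod M)ˣ) (ν : ℕ) :
    ∀ (t : HDAlg M) (ψ : HomS (gammaH L M H') (RthkdC O ν)),
      ψ ∈ etaPart (thetaN (E.eval L M) ℓ₀ (RthkdC O ν) H') →
      es1infHomEval L M H' hML.out p (RthkdC O ν) t ψ
        ∈ etaPart (thetaN (E.eval L M) ℓ₀ (RthkdC O ν) H') :=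
  fun t _ hψ => es1inffk_expr_mem E hE ℓ₀ hℓ₀ hℓ₀L (RthkdC O ν) H' t hψ

/-- **HK-CONC, `faith`** (all of `HDAlg M`): a polynomial killing `J[p^ν]` acts as `0` on `X`. -/
theorem rthkd_faith_all (χ : GalQ →* (ZMod M)ˣ) (hp𝔪 : (p : O) ∈ maximalIdeal O)
    (E : HExpr O) (hE : E.IsPrimes) (ℓ₀ : ℕ) [NeZero ℓ₀] (hℓ₀ : ℓ₀.Prime) (hℓ₀L : ¬ ℓ₀ ∣ L)
    (hL : Squarefree L) (hp2 : p ≠ 2) (hℓ₀p : ℓ₀ ≠ p) (k : ℕ)
    (hH : ∀ u : (ZMod M)ˣ, u ^ (p ^ k) ∈ pmH H') (ν : ℕ)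
    (hNT : NoTors (gammaH L M H') (RthkdC O ν))
    (hst : ∀ (t : HDAlg M) (ψ : HomS (gammaH L M H') (RthkdC O ν)),
      ψ ∈ etaPart (thetaN (E.eval L M) ℓ₀ (RthkdC O ν) H') →
      es1infHomEval L M H' hML.out p (RthkdC O ν) t ψ
        ∈ etaPart (thetaN (E.eval L M) ℓ₀ (RthkdC O ν) H')) :
    ∃ n₀ : ℕ, ∀ t : HDAlg M, (∀ y : es1inftwJ L M H' p χ, p ^ n₀ • y = 0 → t • y = 0) →
      rthkdAct p (E.eval L M) ℓ₀ H' ν hst t = 0 := by
  refine ⟨ν, fun t ht => ?_⟩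
  refine AddMonoidHom.ext fun x => Subtype.ext ?_
  have h1 := es1inffk_expr_level χ hp𝔪 E hE ℓ₀ hℓ₀ hℓ₀L hL hp2 hℓ₀p k hH ν hNT t ht
    (x : HomS (gammaH L M H') (RthkdC O ν)) x.2
  exact (rthkdAct_coe hst t x).trans h1

/-- **HK-CONC, `faith`** (restricted to a subset `B`, e.g. `B = rthksE p J`). -/
theorem rthkd_faith (B : Set (HDAlg M)) (χ : GalQ →* (ZMod M)ˣ)
    (hp𝔪 : (p : O) ∈ maximalIdeal O)
    (E : HExpr O) (hE : E.IsPrimes) (ℓ₀ : ℕ) [NeZero ℓ₀] (hℓ₀ : ℓ₀.Prime) (hℓ₀L : ¬ ℓ₀ ∣ L)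
    (hL : Squarefree L) (hp2 : p ≠ 2) (hℓ₀p : ℓ₀ ≠ p) (k : ℕ)
    (hH : ∀ u : (ZMod M)ˣ, u ^ (p ^ k) ∈ pmH H') (ν : ℕ)
    (hNT : NoTors (gammaH L M H') (RthkdC O ν))
    (hst : ∀ (t : HDAlg M) (ψ : HomS (gammaH L M H') (RthkdC O ν)),
      ψ ∈ etaPart (thetaN (E.eval L M) ℓ₀ (RthkdC O ν) H') →
      es1infHomEval L M H' hML.out p (RthkdC O ν) t ψ
        ∈ etaPart (thetaN (E.eval L M) ℓ₀ (RthkdC O ν) H')) :
    ∃ n₀ : ℕ, ∀ t ∈ B, (∀ y : es1inftwJ L M H' p χ, p ^ n₀ • y = 0 → t • y = 0) →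
      rthkdAct p (E.eval L M) ℓ₀ H' ν hst t = 0 := by
  obtain ⟨n₀, h⟩ := rthkd_faith_all χ hp𝔪 E hE ℓ₀ hℓ₀ hℓ₀L hL hp2 hℓ₀p k hH ν hNT hst
  exact ⟨n₀, fun t _ ht => h t ht⟩

end Fermat.Agent.RT

end
end ZBES1_020_13

/-! ### bundled: `Fermat.Agent.ES1.Inf.TwChi` -/
section ZBES1_020_14

/-!
# K7-TW (TW4) — K6/F in twisted form (helper38)

`r ∣ M` prime, `r² ∤ L`, `σ` in an inertia group at `r`, `c = c_M(σ)`, `δ = δ_c`.
From K6/F, `(σ − 1)(δ σ − 1) = 0` on the divisible torsion (`RT.K6.StmtChiJDiv`), and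
`δ ^ (2e − 1) = 1`:

* `es1inf_isDivJ` : the elements of `es1infJ` are divisible in `JH L M H`;
* `es1inftw_isCycAt` : `RT.K6.IsCycAt M r σ (c_M σ)` for `σ` in an inertia group at `r`;
* `es1inftwChiPoly M e c = δ_c ^ e + δ_{c⁻¹} ^ e`;
* **`es1inftw_chi_rel`** : `σ ∗ σ ∗ x − (δ ^ e + δ ^ (−e)) • σ ∗ x + x = 0` on `es1inftwJ`;
* **`es1inftw_chi_approx`** : `Rtk7bApprox p Jtw (cycE p) n σ (δ ^ e + δ ^ (−e))` for all `n`.
-/

set_option autoImplicit false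
set_option linter.unusedSectionVars false
set_option linter.style.haveILetI false

noncomputable section

namespace Fermat.Agent.ES1

open ModularCurve AlgebraicCurve
open Fermat.Agent.ES Fermat.Agent.S48 Fermat.Agent.RT.K6 Fermat.Agent.ES1.G2

/-! ## Divisibility -/

/-- the elements of the `p`-divisible part of the `p`-power torsion are divisible by every
`e ≠ 0` -/
theorem es1inf_divisible_of_mem_pDivTors {J : Type*} [AddCommGroup J] {p : ℕ} (hp : p.Prime)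
    {x : J} (hx : x ∈ pDivTors p J) (e : ℕ) (he : e ≠ 0) : ∃ y : J, e • y = x := by
  obtain ⟨k, e', he', rfl⟩ := Nat.exists_eq_pow_mul_and_not_dvd he p hp.ne_one
  -- the tower
  have htower : ∀ k : ℕ, ∃ y ∈ pDivTors p J, p ^ k • y = x := by
    intro k
    induction k with
    | zero => exact ⟨x, hx, by rw [pow_zero, one_smul]⟩
    | succ k ih =>
        obtain ⟨y, hy, hyx⟩ := ih
        obtain ⟨z, hz, hzy⟩ := exists_mem_pDivTors_smul_eq hy
        exact ⟨z, hz, by rw [pow_succ, mul_smul, hzy, hyx]⟩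
  obtain ⟨y, hy, hyx⟩ := htower k
  obtain ⟨b, hb⟩ := hy.1
  have hcop : IsCoprime (e' : ℤ) ((p ^ b : ℕ) : ℤ) := by
    rw [Nat.isCoprime_iff_coprime]
    exact Nat.Coprime.pow_right b ((Nat.Prime.coprime_iff_not_dvd hp).mpr he').symm
  obtain ⟨u, v, huv⟩ := hcop
  refine ⟨u • y, ?_⟩
  have h1 : (e' : ℤ) • (u • y) = y := by
    have h2 : ((p ^ b : ℕ) : ℤ) • y = 0 := by rw [natCast_zsmul]; exact hb
    calc (e' : ℤ) • (u • y) = (u * e') • y := by rw [mul_smul, smul_comm]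
      _ = (u * e' + v * ((p ^ b : ℕ) : ℤ)) • y := by rw [add_smul, mul_smul v, h2, smul_zero,
          add_zero]
      _ = y := by rw [huv, one_smul]
  rw [mul_smul, ← natCast_zsmul (u • y) e', h1, hyx]

variable {L M : ℕ} [NeZero L] [NeZero M] {H : Subgroup (ZMod M)ˣ} {p : ℕ}

/-- the elements of `es1infJ` are divisible in `JH L M H` -/
theorem es1inf_isDivJ (hp : p.Prime) (x : es1infJ L M H p) : IsDivJ (x : JH L M H) :=
  fun e he => es1inf_divisible_of_mem_pDivTors hp x.2 e he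

/-! ## The cyclotomic image of an inertia element -/

/-- `σ ζ = ζ ^ c_M(σ)` for every `M`-th root of unity -/
theorem es1inftw_cyclo_spec (M : ℕ) [NeZero M] (σ : GalQ) {ζ : AlgebraicClosure ℚ}
    (hζ : ζ ^ M = 1) :
    σ ζ = ζ ^ ((Fermat.Agent.S42.cycloChar M σ : (ZMod M)ˣ) : ZMod M).val := by
  have : NeZero (M : AlgebraicClosure ℚ) := ⟨Nat.cast_ne_zero.mpr (NeZero.ne M)⟩
  obtain ⟨ζM, hζM⟩ := HasEnoughRootsOfUnity.exists_primitiveRoot (AlgebraicClosure ℚ) M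
  obtain ⟨j, -, rfl⟩ := hζM.eq_pow_of_pow_eq_one hζ
  rw [map_pow, Fermat.Agent.S42.cycloChar_spec M σ hζM, ← pow_mul, ← pow_mul, mul_comm]

/-- reduction of the cyclotomic character: `c_M(σ) mod d = c_d(σ)` for `d ∣ M` -/
theorem es1inftw_cyclo_cast (M d : ℕ) [NeZero M] [NeZero d] (hd : d ∣ M) (σ : GalQ) :
    ((((Fermat.Agent.S42.cycloChar M σ : (ZMod M)ˣ) : ZMod M).val : ℕ) : ZMod d)
      = ((Fermat.Agent.S42.cycloChar d σ : (ZMod d)ˣ) : ZMod d) := by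
  have : NeZero (d : AlgebraicClosure ℚ) := ⟨Nat.cast_ne_zero.mpr (NeZero.ne d)⟩
  obtain ⟨ζ, hζ⟩ := HasEnoughRootsOfUnity.exists_primitiveRoot (AlgebraicClosure ℚ) d
  have hζM : ζ ^ M = 1 := by
    obtain ⟨k, rfl⟩ := hd
    rw [pow_mul, hζ.pow_eq_one, one_pow]
  have h1 := es1inftw_cyclo_spec M σ hζM
  have h2 := Fermat.Agent.S42.cycloChar_spec d σ hζ
  have h3 : ζ ^ ((Fermat.Agent.S42.cycloChar M σ : (ZMod M)ˣ) : ZMod M).val
      = ζ ^ ((Fermat.Agent.S42.cycloChar d σ : (ZMod d)ˣ) : ZMod d).val := h1.symm.trans h2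
  have hfo : IsOfFinOrder ζ :=
    isOfFinOrder_iff_pow_eq_one.mpr ⟨d, Nat.pos_of_ne_zero (NeZero.ne d), hζ.pow_eq_one⟩
  have hmod : ((Fermat.Agent.S42.cycloChar M σ : (ZMod M)ˣ) : ZMod M).val
      ≡ ((Fermat.Agent.S42.cycloChar d σ : (ZMod d)ˣ) : ZMod d).val [MOD d] := by
    have := hfo.pow_eq_pow_iff_modEq
      (n := ((Fermat.Agent.S42.cycloChar M σ : (ZMod M)ˣ) : ZMod M).val)
      (m := ((Fermat.Agent.S42.cycloChar d σ : (ZMod d)ˣ) : ZMod d).val)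
    rw [← hζ.eq_orderOf] at this
    exact this.mp h3
  have h4 := (ZMod.natCast_eq_natCast_iff _ _ _).mpr hmod
  rw [h4, ZMod.natCast_zmod_val]

/-- the cyclotomic image at `r` of an element of an inertia group at `r` is `c_M(σ)`
(`r ∥ M`) -/
theorem es1inftw_isCycAt (M : ℕ) [NeZero M] {r : ℕ} (hr : r.Prime) (hrM : r ∣ M)
    (hr2 : ¬ r ^ 2 ∣ M) (A : ValuationSubring (AlgebraicClosure ℚ)) (hA : A.LiesOverPrime r)
    (σ : GalQ) (hσ : σ ∈ A.inertiaSubgroupIn ℚ) :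
    IsCycAt M r σ (Fermat.Agent.S42.cycloChar M σ) := by
  refine ⟨fun ζ hζ => ?_, ?_⟩
  · apply es1inftw_cyclo_spec M σ
    obtain ⟨k, rfl⟩ := hrM
    rw [pow_mul, hζ, one_pow]
  · have hd0 : M / r ≠ 0 := by
      intro h
      rcases (Nat.div_eq_zero_iff).mp h with h0 | h0
      · exact hr.ne_zero h0
      · exact absurd (Nat.le_of_dvd (Nat.pos_of_ne_zero (NeZero.ne M)) hrM) (not_le.mpr h0)
    haveI : NeZero (M / r) := ⟨hd0⟩
    have hrd : ¬ r ∣ M / r := by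
      intro h
      apply hr2
      obtain ⟨k, hk⟩ := h
      refine ⟨k, ?_⟩
      have := Nat.div_mul_cancel hrM
      rw [hk] at this
      rw [← this]
      ring
    show ((((Fermat.Agent.S42.cycloChar M σ : (ZMod M)ˣ) : ZMod M).val : ℕ) : ZMod (M / r)) = 1
    rw [es1inftw_cyclo_cast M (M / r) (Nat.div_dvd_of_dvd hrM) σ,
      es1top_cycloChar_inertia (M / r) r hr hrd A hA σ hσ, Units.val_one]

/-! ## The relation -/

/-- `δ_c ^ e + δ_{c⁻¹} ^ e` -/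
def es1inftwChiPoly (M e : ℕ) (c : (ZMod M)ˣ) : HDAlg M :=
  es1top_dGen M c ^ e + es1top_dGen M c⁻¹ ^ e

/-- the relation of K6/F on `es1infJ`: `(σ − 1)(δ_c σ − 1) = 0` -/
theorem es1inftw_chiJ (hChi : StmtChiJDiv) (hML : M ∣ L) (hp : p.Prime) {r : ℕ} (hr : r.Prime)
    (hrM : r ∣ M) (hr2 : ¬ r ^ 2 ∣ L) (hrp : r ≠ p) (hstar : IsStarStable M r H)
    (htame : IsTameAt L M r H) (A : ValuationSubring (AlgebraicClosure ℚ))
    (hA : A.LiesOverPrime r) (σ : GalQ) (hσ : σ ∈ A.inertiaSubgroupIn ℚ)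
    (x : es1infJ L M H p) :
    letI := es1infModule L M H p hML hp.pos
    letI := es1infGalois L M H p
    es1top_dGen M (Fermat.Agent.S42.cycloChar M σ) • (σ • σ • x) - σ • x
      - es1top_dGen M (Fermat.Agent.S42.cycloChar M σ) • (σ • x) + x = 0 := by
  letI := es1infModule L M H p hML hp.pos
  letI := es1infGalois L M H p
  set c := Fermat.Agent.S42.cycloChar M σ with hc
  have hr2M : ¬ r ^ 2 ∣ M := fun h => hr2 (h.trans hML)
  have hcyc : IsCycAt M r σ c := es1inftw_isCycAt M hr hrM hr2M A hA σ hσ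
  obtain ⟨δ, hδ⟩ := stmtDiamondBarH_of_diamond stmtDiamondH L M H (NeZero.ne L) hML c
  obtain ⟨a, ha⟩ := x.2.1
  have hra : ¬ r ∣ p ^ a := fun h =>
    hrp ((Nat.prime_dvd_prime_iff_eq hr hp).mp (hr.dvd_of_dvd_pow h))
  have key := hChi L M H r (NeZero.ne L) hML hr hrM hr2 hstar htame A hA (p ^ a) hra σ hσ c
    hcyc δ hδ (x : JH L M H) ha (es1inf_isDivJ hp x)
  rw [← es1Diamond_eq hδ] at key
  apply Subtype.ext
  rw [AddSubgroup.coe_add, AddSubgroup.coe_sub, AddSubgroup.coe_sub, es1infModule_dGen_smul,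
    es1infModule_dGen_smul, AddSubgroup.coe_zero]
  have hcomm : σ • es1Diamond L M H c (σ • (x : JH L M H))
      = es1Diamond L M H c (σ • σ • (x : JH L M H)) :=
    es1g2_final_galois_diamond (NeZero.ne L) hML σ c _
  rw [hcomm] at key
  exact key

/-- **(TW4), on `es1infJ`**: `σ ∗ σ ∗ x − (δ ^ e + δ ^ (−e)) • σ ∗ x + x = 0` -/
theorem es1inftw_chi_rel_aux (hChi : StmtChiJDiv) (hML : M ∣ L) (hp : p.Prime) (e : ℕ)
    (he : 1 ≤ e) (hE : ∀ c : (ZMod M)ˣ, c ^ (2 * e - 1) ∈ pmH H) (χ : GalQ →* (ZMod M)ˣ)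
    {r : ℕ} (hr : r.Prime) (hrM : r ∣ M) (hr2 : ¬ r ^ 2 ∣ L) (hrp : r ≠ p)
    (hstar : IsStarStable M r H) (htame : IsTameAt L M r H)
    (A : ValuationSubring (AlgebraicClosure ℚ)) (hA : A.LiesOverPrime r) (σ : GalQ)
    (hσ : σ ∈ A.inertiaSubgroupIn ℚ) (hχσ : χ σ = Fermat.Agent.S42.cycloChar M σ ^ e)
    (x : es1infJ L M H p) :
    es1inftwSmul hML hp.pos χ σ (es1inftwSmul hML hp.pos χ σ x)
      - (letI := es1infModule L M H p hML hp.pos;
          es1inftwChiPoly M e (Fermat.Agent.S42.cycloChar M σ) • es1inftwSmul hML hp.pos χ σ x)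
      + x = 0 := by
  letI := es1infModule L M H p hML hp.pos
  letI := es1infGalois L M H p
  have hrel := es1inftw_chiJ hChi hML hp hr hrM hr2 hrp hstar htame A hA σ hσ x
  set c := Fermat.Agent.S42.cycloChar M σ with hc
  set D : HDAlg M := es1top_dGen M c with hD
  set D' : HDAlg M := es1top_dGen M c⁻¹ with hD'
  have hP : ∀ y : es1infJ L M H p, (D ^ (2 * e - 1)) • y = y := by
    intro y
    rw [hD, ← es1inf_dGen_pow_smul hML hp.pos]
    exact es1inf_dGen_smul_of_mem hML hp.pos (hE c) y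
  have hDD' : ∀ y : es1infJ L M H p, (D' * D) • y = y := by
    intro y
    rw [mul_smul, hD, hD', ← es1inf_dGen_mul_smul hML hp.pos, inv_mul_cancel,
      es1inf_dGen_one_smul hML hp.pos]
  have hDD'e : ∀ y : es1infJ L M H p, (D' ^ e * D ^ e) • y = y := by
    intro y
    rw [← mul_pow]
    generalize e = k
    induction k generalizing y with
    | zero => rw [pow_zero, one_smul]
    | succ k ih => rw [pow_succ, mul_smul, hDD', ih]
  have hsm : ∀ y : es1infJ L M H p, es1inftwSmul hML hp.pos χ σ y = (D ^ e) • (σ • y) := by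
    intro y
    rw [es1inftwSmul_def, hχσ, es1inf_dGen_pow_smul hML hp.pos]
  have e1 : D ^ e * D ^ e = D ^ (2 * e - 1) * D := by
    rw [← pow_add, ← pow_succ]
    congr 1
    omega
  have a1 : (D ^ e) • (σ • ((D ^ e) • (σ • x))) = D • (σ • σ • x) :=
    calc (D ^ e) • (σ • ((D ^ e) • (σ • x)))
        = (D ^ e) • ((D ^ e) • (σ • σ • x)) := by
          rw [es1inf_galois_smul hML hp.pos σ (D ^ e) (σ • x)]
      _ = (D ^ e * D ^ e) • (σ • σ • x) := (mul_smul _ _ _).symm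
      _ = (D ^ (2 * e - 1)) • (D • (σ • σ • x)) := by rw [e1, mul_smul]
      _ = D • (σ • σ • x) := hP _
  have a2 : es1inftwChiPoly M e c • ((D ^ e) • (σ • x)) = D • (σ • x) + σ • x :=
    calc es1inftwChiPoly M e c • ((D ^ e) • (σ • x))
        = (D ^ e * D ^ e) • (σ • x) + (D' ^ e * D ^ e) • (σ • x) := by
          rw [es1inftwChiPoly, ← hD, ← hD', add_smul, mul_smul, mul_smul]
      _ = (D ^ (2 * e - 1)) • (D • (σ • x)) + σ • x := by rw [e1, mul_smul, hDD'e]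
      _ = D • (σ • x) + σ • x := by rw [hP]
  rw [hsm, hsm, a1, a2, ← hrel]
  abel

variable [hML : Fact (M ∣ L)] [hp : Fact p.Prime]

/-- **(TW4)** the relation of K6/F in twisted form, on `es1inftwJ`:
`σ ∗ σ ∗ x − (δ ^ e + δ ^ (−e)) • σ ∗ x + x = 0`, `δ = δ_{c_M(σ)}`, for `σ` in an inertia group at
a prime `r ∣ M`, `r² ∤ L`, `r ≠ p`. -/
theorem es1inftw_chi_rel (hChi : StmtChiJDiv) (e : ℕ) (he : 1 ≤ e)
    (hE : ∀ c : (ZMod M)ˣ, c ^ (2 * e - 1) ∈ pmH H) (χ : GalQ →* (ZMod M)ˣ)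
    {r : ℕ} (hr : r.Prime) (hrM : r ∣ M) (hr2 : ¬ r ^ 2 ∣ L) (hrp : r ≠ p)
    (hstar : IsStarStable M r H) (htame : IsTameAt L M r H)
    (A : ValuationSubring (AlgebraicClosure ℚ)) (hA : A.LiesOverPrime r) (σ : GalQ)
    (hσ : σ ∈ A.inertiaSubgroupIn ℚ) (hχσ : χ σ = Fermat.Agent.S42.cycloChar M σ ^ e)
    (x : es1inftwJ L M H p χ) :
    σ • σ • x - es1inftwChiPoly M e (Fermat.Agent.S42.cycloChar M σ) • (σ • x) + x = 0 :=
  es1inftw_chi_rel_aux hChi hML.out hp.out e he hE χ hr hrM hr2 hrp hstar htame A hA σ hσ hχσ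
    (es1inftwOf L M H p χ x)

/-- **(TW4), `Approx` form**: `δ ^ e + δ ^ (−e)` represents `σ + χ_cyc(σ) σ⁻¹` on every
`J[pⁿ]`, for the twisted action. -/
theorem es1inftw_chi_approx (hChi : StmtChiJDiv) (e : ℕ) (he : 1 ≤ e)
    (hE : ∀ c : (ZMod M)ˣ, c ^ (2 * e - 1) ∈ pmH H) (χ : GalQ →* (ZMod M)ˣ)
    {r : ℕ} (hr : r.Prime) (hrM : r ∣ M) (hr2 : ¬ r ^ 2 ∣ L) (hrp : r ≠ p)
    (hstar : IsStarStable M r H) (htame : IsTameAt L M r H)
    (A : ValuationSubring (AlgebraicClosure ℚ)) (hA : A.LiesOverPrime r) (σ : GalQ)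
    (hσ : σ ∈ A.inertiaSubgroupIn ℚ) (hχσ : χ σ = Fermat.Agent.S42.cycloChar M σ ^ e)
    (n : ℕ) :
    Fermat.Agent.RT.Rtk7bApprox p (es1inftwJ L M H p χ)
      (fun n g => ((Fermat.Agent.S30.cycE p n g : ℕ) : HDAlg M)) n σ
      (es1inftwChiPoly M e (Fermat.Agent.S42.cycloChar M σ)) := by
  intro x hx
  have hx' : p ^ n • (σ⁻¹ • x) = 0 := Fermat.Agent.RT.rtk7b_tors_gal n σ⁻¹ hx
  have hcyc : Fermat.Agent.S30.cycE p n σ ≡ 1 [MOD p ^ n] :=
    Fermat.Agent.S30.cycE_of_eq_one p n σ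
      (Fermat.Agent.S30.padicCyclo_inertia p r hr hrp A hA σ hσ)
  have h1 : ((Fermat.Agent.S30.cycE p n σ : ℕ) : HDAlg M) • (σ⁻¹ • x) = σ⁻¹ • x := by
    rw [Nat.cast_smul_eq_nsmul, Fermat.Agent.S31.nsmul_eq_of_modEq hcyc hx', one_smul]
  have hrel := es1inftw_chi_rel hChi e he hE χ hr hrM hr2 hrp hstar htame A hA σ hσ hχσ
    (σ⁻¹ • x)
  rw [smul_inv_smul] at hrel
  show σ • x + ((Fermat.Agent.S30.cycE p n σ : ℕ) : HDAlg M) • (σ⁻¹ • x) = _
  rw [h1]
  have h2 : σ • x + σ⁻¹ • x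
      = (σ • x - es1inftwChiPoly M e (Fermat.Agent.S42.cycloChar M σ) • x + σ⁻¹ • x)
        + es1inftwChiPoly M e (Fermat.Agent.S42.cycloChar M σ) • x := by abel
  rw [h2, hrel, zero_add]

end Fermat.Agent.ES1

end
end ZBES1_020_14

/-! ### bundled: `Fermat.Agent.ES1.Inf.EvalK5` -/
section ZBES1_020_15

/-!
# The dictionary between `es1infHomEval` and the K5 operators (helper38)

`Γ = gammaH L M H`, `eval = es1infHomEval L M H hML p A : HDAlg M → End(Hom(Γ, A))`.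

* `es1infev_dGen`    : `eval δ_c = diamU c⁻¹`;
* `es1infev_dGen_pow`: `eval (δ_c ^ e) = diamU (c⁻¹ ^ e)`;
* `es1infev_chiPoly` : `eval (δ_c ^ e + δ_{c⁻¹} ^ e) = diamU (c ^ e) + diamU (c ^ e)⁻¹`;
* `es1infev_tGen_adj`: `eval T_ℓ = K5.tSadj ℓ` (`ℓ ∤ L p`);
* `es1infev_tGen`    : `eval T_ℓ = diamU ⟨ℓ⟩⁻¹ ∘ K5.tS ℓ`;
* `es1infev_twTr`    : `eval (Tr ℓ) = diamU (⟨ℓ⟩⁻¹ ^ e) ∘ K5.tS ℓ`, `Tr ℓ = es1inftwTr M e ℓ`, `1 ≤ e`.
-/

set_option autoImplicit false
set_option linter.unusedSectionVars false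
set_option linter.style.haveILetI false

noncomputable section

namespace Fermat.Agent.ES1

open ModularCurve AlgebraicCurve CongruenceSubgroup ModularCurve.Period
open Fermat.Agent.ES Fermat.Agent.S48 Fermat.Agent.RT.K5
open scoped MatrixGroups

variable {L M : ℕ} [NeZero L] [NeZero M] {H : Subgroup (ZMod M)ˣ} {p : ℕ}
  [hMLf : Fact (M ∣ L)] {A : Type} [AddCommGroup A]

/-- `diamGrp σ = diamU (class of σ)⁻¹` -/
theorem es1infev_diamGrp (σ : SL(2, ℤ)) (hσL : σ ∈ Gamma0 L) (hσM : σ ∈ Gamma0 M)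
    (φ : HomS (gammaH L M H) A) :
    diamGrp L M H σ hσL hσM φ = diamU L M H A (diamHom M ⟨σ, hσM⟩)⁻¹ φ := by
  rw [es1inf_diamGrp_eq_diamS,
    ← k5act_diamU_diamHom_apply L M H A σ⁻¹ (inv_mem hσL) (inv_mem hσM) φ,
    k5e_diam_inv σ hσM (inv_mem hσM)]

/-- `δ_c` acts as `diamU c⁻¹` -/
theorem es1infev_dGen (c : (ZMod M)ˣ) (φ : HomS (gammaH L M H) A) :
    es1infHomEval L M H hMLf.out p A (es1top_dGen M c) φ = diamU L M H A c⁻¹ φ := by
  obtain ⟨σ, hσL, hσM, hσ⟩ := es1g1op_exists_sigma hMLf.out c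
  rw [es1infHomEval_dGen hMLf.out c φ σ hσL hσM hσ, es1infev_diamGrp, hσ]

/-- `δ_c ^ e` acts as `diamU (c⁻¹ ^ e)` -/
theorem es1infev_dGen_pow (c : (ZMod M)ˣ) (e : ℕ) (φ : HomS (gammaH L M H) A) :
    es1infHomEval L M H hMLf.out p A (es1top_dGen M c ^ e) φ = diamU L M H A (c⁻¹ ^ e) φ := by
  induction e generalizing φ with
  | zero =>
      rw [pow_zero, pow_zero, map_one, map_one]
      rfl
  | succ e ih =>
      rw [pow_succ, pow_succ, map_mul, map_mul, Module.End.mul_apply, es1infev_dGen, ih,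
        AddMonoid.End.coe_mul, Function.comp_apply]

/-- `δ_c ^ e + δ_{c⁻¹} ^ e` acts as `diamU (c ^ e) + diamU (c ^ e)⁻¹` -/
theorem es1infev_chiPoly (e : ℕ) (c : (ZMod M)ˣ) (φ : HomS (gammaH L M H) A) :
    es1infHomEval L M H hMLf.out p A (es1inftwChiPoly M e c) φ
      = diamU L M H A (c ^ e) φ + diamU L M H A (c ^ e)⁻¹ φ := by
  rw [es1inftwChiPoly, map_add, LinearMap.add_apply, es1infev_dGen_pow, es1infev_dGen_pow,
    inv_inv, inv_pow, add_comm]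

/-- `T_ℓ` acts as `K5.tSadj ℓ = cores ∘ res_δ` (`ℓ ∤ L p`) -/
theorem es1infev_tGen_adj {ℓ : Nat.Primes} (h : ¬ (ℓ : ℕ) ∣ L * p)
    (φ : HomS (gammaH L M H) A) :
    es1infHomEval L M H hMLf.out p A (es1top_tGen M ℓ) φ
      = (haveI : NeZero (ℓ : ℕ) := ⟨ℓ.2.ne_zero⟩; tSadj L M ℓ H A φ) := by
  haveI : NeZero (ℓ : ℕ) := ⟨ℓ.2.ne_zero⟩
  rw [es1infHomEval_tGen hMLf.out h, es1inf_heckeGrp_eq_cores_res H hMLf.out φ]
  rfl

/-- `T_ℓ` acts as `diamU ⟨ℓ⟩⁻¹ ∘ K5.tS ℓ` (`ℓ ∤ L p`) -/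
theorem es1infev_tGen {ℓ : Nat.Primes} (h : ¬ (ℓ : ℕ) ∣ L * p) (hc : Nat.Coprime ℓ M)
    (φ : HomS (gammaH L M H) A) :
    es1infHomEval L M H hMLf.out p A (es1top_tGen M ℓ) φ
      = (haveI : NeZero (ℓ : ℕ) := ⟨ℓ.2.ne_zero⟩;
          diamU L M H A (ZMod.unitOfCoprime ℓ hc)⁻¹ (tS L M ℓ H A φ)) := by
  haveI : NeZero (ℓ : ℕ) := ⟨ℓ.2.ne_zero⟩
  have hℓL : ¬ (ℓ : ℕ) ∣ L := fun h' => h (h'.mul_right p)
  have hcL : Nat.Coprime ℓ L := (Nat.Prime.coprime_iff_not_dvd ℓ.2).mpr hℓL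
  obtain ⟨σ, hσL, hσM, hσ⟩ := es1g1op_exists_sigma hMLf.out (ZMod.unitOfCoprime ℓ hc)
  have hσ' : ((diamHom M ⟨σ, hσM⟩ : (ZMod M)ˣ) : ZMod M) = ((ℓ : ℕ) : ZMod M) := by
    rw [hσ, ZMod.coe_unitOfCoprime]
  rw [es1infHomEval_tGen hMLf.out h, ← es1inf_diamGrp_tS H hcL σ hσL hσM hσ' φ,
    es1infev_diamGrp, hσ]

/-- the twisted operator `Tr ℓ = δ_ℓ ^ (e − 1) T_ℓ` acts as `diamU (⟨ℓ⟩⁻¹ ^ e) ∘ K5.tS ℓ` -/
theorem es1infev_twTr (e : ℕ) (he : 1 ≤ e) {ℓ : ℕ} (hℓ : ℓ.Prime) (h : ¬ ℓ ∣ L * p)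
    (hc : Nat.Coprime ℓ M) (φ : HomS (gammaH L M H) A) :
    es1infHomEval L M H hMLf.out p A (es1inftwTr M e ℓ) φ
      = (haveI : NeZero ℓ := ⟨hℓ.ne_zero⟩;
          diamU L M H A ((ZMod.unitOfCoprime ℓ hc)⁻¹ ^ e) (tS L M ℓ H A φ)) := by
  haveI : NeZero ℓ := ⟨hℓ.ne_zero⟩
  have h1 : es1infHomEval L M H hMLf.out p A (es1top_tGen M ⟨ℓ, hℓ⟩) φ
      = diamU L M H A (ZMod.unitOfCoprime ℓ hc)⁻¹ (tS L M ℓ H A φ) :=
    es1infev_tGen (H := H) (A := A) (ℓ := ⟨ℓ, hℓ⟩) h hc φ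
  rw [es1inftwTr_eq M e hℓ hc, map_mul, Module.End.mul_apply, h1, es1infev_dGen_pow]
  obtain ⟨k, rfl⟩ : ∃ k, e = k + 1 := ⟨e - 1, by omega⟩
  rw [Nat.add_sub_cancel, pow_succ, map_mul, AddMonoid.End.coe_mul, Function.comp_apply]

end Fermat.Agent.ES1

end
end ZBES1_020_15

/-! ### bundled: `Fermat.Agent.ES1.Inf.TwChi5` -/
section ZBES1_020_16

/-!
# K7-TW (TW4) from `StmtChiJDiv5` (helper43)

K6 delivers `RT.K6.StmtChiJDiv5` (K6/F + AUX, `RT/K6/FAux.lean`): (χ-J) on the divisible classes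
at the tame levels for `5 ≤ r` and the exponents prime to `6`.  `ES1/Inf/TwChi.lean` consumes
`RT.K6.StmtChiJDiv` (all `r`, all exponents prime to `r`).  In the K-machine `r` is a trivial
prime or a Taylor–Wiles prime (`r ≡ 1` mod `p`, so `r ≥ 11`) and `p ≥ 5`, so the restricted form
is enough.  This file is the bridge:

* `Es1inftwChiAt L M H r p` : what `es1inftw_chiJ` uses of K6, at ONE level, ONE prime `r` and the
  exponents `p ^ a`;
* `es1inftw_chiAt_of`  : `StmtChiJDiv → Es1inftwChiAt`;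
* `es1inftw_chiAt_of5` : `StmtChiJDiv5 → 5 ≤ r → 5 ≤ p → Es1inftwChiAt`;
* `es1inftw_chiJ_at`, `es1inftw_chi_rel_aux_at`, `es1inftw_chi_rel_at`,
  **`es1inftw_chi_approx_at`** : the theorems of `TwChi.lean` from `Es1inftwChiAt`;
* **`es1inftw_chi_rel5`**, **`es1inftw_chi_approx5`** : the theorems of `TwChi.lean` from
  `StmtChiJDiv5`, with the extra hypotheses `5 ≤ r`, `5 ≤ p`.
-/

set_option autoImplicit false
set_option linter.unusedSectionVars false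
set_option linter.style.haveILetI false

noncomputable section

namespace Fermat.Agent.ES1

open ModularCurve AlgebraicCurve
open Fermat.Agent.ES Fermat.Agent.S48 Fermat.Agent.RT.K6 Fermat.Agent.ES1.G2

/-- what `es1inftw_chiJ` uses of K6/F: (χ-J) on the divisible classes killed by a power of `p`,
at the level `(L, M, H)` and the prime `r`. -/
def Es1inftwChiAt (L M : ℕ) (H : Subgroup (ZMod M)ˣ) (r p : ℕ) : Prop :=
  ∀ A : ValuationSubring QbH, A.LiesOverPrime r → ∀ a : ℕ,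
    ∀ σ ∈ A.inertiaSubgroupIn ℚ, ∀ c : (ZMod M)ˣ, IsCycAt M r σ c →
    ∀ δ : fieldBar L M H ≃ₐ[QbH] fieldBar L M H, IsDiamondH L M H c δ →
      ∀ x : JH L M H, p ^ a • x = 0 → IsDivJ x →
        σ • diamondJ δ (σ • x) - σ • x - diamondJ δ (σ • x) + x = 0

/-- from the unrestricted form -/
theorem es1inftw_chiAt_of (hChi : StmtChiJDiv) {L M : ℕ} {H : Subgroup (ZMod M)ˣ} {r p : ℕ}
    (hL : L ≠ 0) (hML : M ∣ L) (hp : p.Prime) (hr : r.Prime) (hrM : r ∣ M) (hr2 : ¬ r ^ 2 ∣ L)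
    (hrp : r ≠ p) (hstar : IsStarStable M r H) (htame : IsTameAt L M r H) :
    Es1inftwChiAt L M H r p := by
  intro A hA a σ hσ c hc δ hδ x hx hdiv
  have hra : ¬ r ∣ p ^ a := fun h =>
    hrp ((Nat.prime_dvd_prime_iff_eq hr hp).mp (hr.dvd_of_dvd_pow h))
  exact hChi L M H r hL hML hr hrM hr2 hstar htame A hA (p ^ a) hra σ hσ c hc δ hδ x hx hdiv

/-- from the form which K6 delivers: `5 ≤ r`, exponents prime to `6` -/
theorem es1inftw_chiAt_of5 (hChi : StmtChiJDiv5) {L M : ℕ} {H : Subgroup (ZMod M)ˣ} {r p : ℕ}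
    (hL : L ≠ 0) (hML : M ∣ L) (hp : p.Prime) (hp5 : 5 ≤ p) (hr : r.Prime) (hr5 : 5 ≤ r)
    (hrM : r ∣ M) (hr2 : ¬ r ^ 2 ∣ L) (hrp : r ≠ p) (hstar : IsStarStable M r H)
    (htame : IsTameAt L M r H) :
    Es1inftwChiAt L M H r p := by
  intro A hA a σ hσ c hc δ hδ x hx hdiv
  have hra : ¬ r ∣ p ^ a := fun h =>
    hrp ((Nat.prime_dvd_prime_iff_eq hr hp).mp (hr.dvd_of_dvd_pow h))
  have hp2 : Nat.Coprime p 2 :=
    (Nat.coprime_primes hp Nat.prime_two).mpr (by omega)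
  have hp3 : Nat.Coprime p 3 :=
    (Nat.coprime_primes hp Nat.prime_three).mpr (by omega)
  have hp6 : Nat.Coprime p 6 := by
    have h23 : (6 : ℕ) = 2 * 3 := by norm_num
    rw [h23]
    exact Nat.Coprime.mul_right hp2 hp3
  have hm6 : Nat.Coprime (p ^ a) 6 := Nat.Coprime.pow_left a hp6
  exact hChi L M H r hL hML hr hrM hr2 hstar htame hr5 A hA (p ^ a) hra hm6 σ hσ c hc δ hδ x hx
    hdiv

variable {L M : ℕ} [NeZero L] [NeZero M] {H : Subgroup (ZMod M)ˣ} {p : ℕ}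

/-- the relation of K6/F on `es1infJ`: `(σ − 1)(δ_c σ − 1) = 0` -/
theorem es1inftw_chiJ_at {r : ℕ} (hAt : Es1inftwChiAt L M H r p) (hML : M ∣ L) (hp : p.Prime)
    (hr : r.Prime) (hrM : r ∣ M) (hr2 : ¬ r ^ 2 ∣ L)
    (A : ValuationSubring (AlgebraicClosure ℚ))
    (hA : A.LiesOverPrime r) (σ : GalQ) (hσ : σ ∈ A.inertiaSubgroupIn ℚ)
    (x : es1infJ L M H p) :
    letI := es1infModule L M H p hML hp.pos
    letI := es1infGalois L M H p
    es1top_dGen M (Fermat.Agent.S42.cycloChar M σ) • (σ • σ • x) - σ • x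
      - es1top_dGen M (Fermat.Agent.S42.cycloChar M σ) • (σ • x) + x = 0 := by
  letI := es1infModule L M H p hML hp.pos
  letI := es1infGalois L M H p
  set c := Fermat.Agent.S42.cycloChar M σ with hc
  have hr2M : ¬ r ^ 2 ∣ M := fun h => hr2 (h.trans hML)
  have hcyc : IsCycAt M r σ c := es1inftw_isCycAt M hr hrM hr2M A hA σ hσ
  obtain ⟨δ, hδ⟩ := stmtDiamondBarH_of_diamond stmtDiamondH L M H (NeZero.ne L) hML c
  obtain ⟨a, ha⟩ := x.2.1
  have key := hAt A hA a σ hσ c hcyc δ hδ (x : JH L M H) ha (es1inf_isDivJ hp x)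
  rw [← es1Diamond_eq hδ] at key
  apply Subtype.ext
  rw [AddSubgroup.coe_add, AddSubgroup.coe_sub, AddSubgroup.coe_sub, es1infModule_dGen_smul,
    es1infModule_dGen_smul, AddSubgroup.coe_zero]
  have hcomm : σ • es1Diamond L M H c (σ • (x : JH L M H))
      = es1Diamond L M H c (σ • σ • (x : JH L M H)) :=
    es1g2_final_galois_diamond (NeZero.ne L) hML σ c _
  rw [hcomm] at key
  exact key

/-- **(TW4), on `es1infJ`**: `σ ∗ σ ∗ x − (δ ^ e + δ ^ (−e)) • σ ∗ x + x = 0` -/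
theorem es1inftw_chi_rel_aux_at {r : ℕ} (hAt : Es1inftwChiAt L M H r p) (hML : M ∣ L)
    (hp : p.Prime) (e : ℕ)
    (he : 1 ≤ e) (hE : ∀ c : (ZMod M)ˣ, c ^ (2 * e - 1) ∈ pmH H) (χ : GalQ →* (ZMod M)ˣ)
    (hr : r.Prime) (hrM : r ∣ M) (hr2 : ¬ r ^ 2 ∣ L)
    (A : ValuationSubring (AlgebraicClosure ℚ)) (hA : A.LiesOverPrime r) (σ : GalQ)
    (hσ : σ ∈ A.inertiaSubgroupIn ℚ) (hχσ : χ σ = Fermat.Agent.S42.cycloChar M σ ^ e)
    (x : es1infJ L M H p) :
    es1inftwSmul hML hp.pos χ σ (es1inftwSmul hML hp.pos χ σ x)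
      - (letI := es1infModule L M H p hML hp.pos;
          es1inftwChiPoly M e (Fermat.Agent.S42.cycloChar M σ) • es1inftwSmul hML hp.pos χ σ x)
      + x = 0 := by
  letI := es1infModule L M H p hML hp.pos
  letI := es1infGalois L M H p
  have hrel := es1inftw_chiJ_at hAt hML hp hr hrM hr2 A hA σ hσ x
  set c := Fermat.Agent.S42.cycloChar M σ with hc
  set D : HDAlg M := es1top_dGen M c with hD
  set D' : HDAlg M := es1top_dGen M c⁻¹ with hD'
  have hP : ∀ y : es1infJ L M H p, (D ^ (2 * e - 1)) • y = y := by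
    intro y
    rw [hD, ← es1inf_dGen_pow_smul hML hp.pos]
    exact es1inf_dGen_smul_of_mem hML hp.pos (hE c) y
  have hDD' : ∀ y : es1infJ L M H p, (D' * D) • y = y := by
    intro y
    rw [mul_smul, hD, hD', ← es1inf_dGen_mul_smul hML hp.pos, inv_mul_cancel,
      es1inf_dGen_one_smul hML hp.pos]
  have hDD'e : ∀ y : es1infJ L M H p, (D' ^ e * D ^ e) • y = y := by
    intro y
    rw [← mul_pow]
    generalize e = k
    induction k generalizing y with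
    | zero => rw [pow_zero, one_smul]
    | succ k ih => rw [pow_succ, mul_smul, hDD', ih]
  have hsm : ∀ y : es1infJ L M H p, es1inftwSmul hML hp.pos χ σ y = (D ^ e) • (σ • y) := by
    intro y
    rw [es1inftwSmul_def, hχσ, es1inf_dGen_pow_smul hML hp.pos]
  have e1 : D ^ e * D ^ e = D ^ (2 * e - 1) * D := by
    rw [← pow_add, ← pow_succ]
    congr 1
    omega
  have a1 : (D ^ e) • (σ • ((D ^ e) • (σ • x))) = D • (σ • σ • x) :=
    calc (D ^ e) • (σ • ((D ^ e) • (σ • x)))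
        = (D ^ e) • ((D ^ e) • (σ • σ • x)) := by
          rw [es1inf_galois_smul hML hp.pos σ (D ^ e) (σ • x)]
      _ = (D ^ e * D ^ e) • (σ • σ • x) := (mul_smul _ _ _).symm
      _ = (D ^ (2 * e - 1)) • (D • (σ • σ • x)) := by rw [e1, mul_smul]
      _ = D • (σ • σ • x) := hP _
  have a2 : es1inftwChiPoly M e c • ((D ^ e) • (σ • x)) = D • (σ • x) + σ • x :=
    calc es1inftwChiPoly M e c • ((D ^ e) • (σ • x))
        = (D ^ e * D ^ e) • (σ • x) + (D' ^ e * D ^ e) • (σ • x) := by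
          rw [es1inftwChiPoly, ← hD, ← hD', add_smul, mul_smul, mul_smul]
      _ = (D ^ (2 * e - 1)) • (D • (σ • x)) + σ • x := by rw [e1, mul_smul, hDD'e]
      _ = D • (σ • x) + σ • x := by rw [hP]
  rw [hsm, hsm, a1, a2, ← hrel]
  abel

variable [hML : Fact (M ∣ L)] [hp : Fact p.Prime]

/-- **(TW4)** the relation of K6/F in twisted form, on `es1inftwJ`, from `Es1inftwChiAt`. -/
theorem es1inftw_chi_rel_at {r : ℕ} (hAt : Es1inftwChiAt L M H r p) (e : ℕ) (he : 1 ≤ e)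
    (hE : ∀ c : (ZMod M)ˣ, c ^ (2 * e - 1) ∈ pmH H) (χ : GalQ →* (ZMod M)ˣ)
    (hr : r.Prime) (hrM : r ∣ M) (hr2 : ¬ r ^ 2 ∣ L)
    (A : ValuationSubring (AlgebraicClosure ℚ)) (hA : A.LiesOverPrime r) (σ : GalQ)
    (hσ : σ ∈ A.inertiaSubgroupIn ℚ) (hχσ : χ σ = Fermat.Agent.S42.cycloChar M σ ^ e)
    (x : es1inftwJ L M H p χ) :
    σ • σ • x - es1inftwChiPoly M e (Fermat.Agent.S42.cycloChar M σ) • (σ • x) + x = 0 :=
  es1inftw_chi_rel_aux_at hAt hML.out hp.out e he hE χ hr hrM hr2 A hA σ hσ hχσ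
    (es1inftwOf L M H p χ x)

/-- **(TW4), `Approx` form**, from `Es1inftwChiAt`: `δ ^ e + δ ^ (−e)` represents
`σ + χ_cyc(σ) σ⁻¹` on every `J[pⁿ]`, for the twisted action. -/
theorem es1inftw_chi_approx_at {r : ℕ} (hAt : Es1inftwChiAt L M H r p) (e : ℕ) (he : 1 ≤ e)
    (hE : ∀ c : (ZMod M)ˣ, c ^ (2 * e - 1) ∈ pmH H) (χ : GalQ →* (ZMod M)ˣ)
    (hr : r.Prime) (hrM : r ∣ M) (hr2 : ¬ r ^ 2 ∣ L) (hrp : r ≠ p)
    (A : ValuationSubring (AlgebraicClosure ℚ)) (hA : A.LiesOverPrime r) (σ : GalQ)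
    (hσ : σ ∈ A.inertiaSubgroupIn ℚ) (hχσ : χ σ = Fermat.Agent.S42.cycloChar M σ ^ e)
    (n : ℕ) :
    Fermat.Agent.RT.Rtk7bApprox p (es1inftwJ L M H p χ)
      (fun n g => ((Fermat.Agent.S30.cycE p n g : ℕ) : HDAlg M)) n σ
      (es1inftwChiPoly M e (Fermat.Agent.S42.cycloChar M σ)) := by
  intro x hx
  have hx' : p ^ n • (σ⁻¹ • x) = 0 := Fermat.Agent.RT.rtk7b_tors_gal n σ⁻¹ hx
  have hcyc : Fermat.Agent.S30.cycE p n σ ≡ 1 [MOD p ^ n] :=
    Fermat.Agent.S30.cycE_of_eq_one p n σ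
      (Fermat.Agent.S30.padicCyclo_inertia p r hr hrp A hA σ hσ)
  have h1 : ((Fermat.Agent.S30.cycE p n σ : ℕ) : HDAlg M) • (σ⁻¹ • x) = σ⁻¹ • x := by
    rw [Nat.cast_smul_eq_nsmul, Fermat.Agent.S31.nsmul_eq_of_modEq hcyc hx', one_smul]
  have hrel := es1inftw_chi_rel_at hAt e he hE χ hr hrM hr2 A hA σ hσ hχσ (σ⁻¹ • x)
  rw [smul_inv_smul] at hrel
  show σ • x + ((Fermat.Agent.S30.cycE p n σ : ℕ) : HDAlg M) • (σ⁻¹ • x) = _
  rw [h1]
  have h2 : σ • x + σ⁻¹ • x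
      = (σ • x - es1inftwChiPoly M e (Fermat.Agent.S42.cycloChar M σ) • x + σ⁻¹ • x)
        + es1inftwChiPoly M e (Fermat.Agent.S42.cycloChar M σ) • x := by abel
  rw [h2, hrel, zero_add]

/-- **(TW4)** from `StmtChiJDiv5` (the form which K6 delivers), `5 ≤ r`, `5 ≤ p`. -/
theorem es1inftw_chi_rel5 (hChi : StmtChiJDiv5) (hp5 : 5 ≤ p) (e : ℕ) (he : 1 ≤ e)
    (hE : ∀ c : (ZMod M)ˣ, c ^ (2 * e - 1) ∈ pmH H) (χ : GalQ →* (ZMod M)ˣ)
    {r : ℕ} (hr : r.Prime) (hr5 : 5 ≤ r) (hrM : r ∣ M) (hr2 : ¬ r ^ 2 ∣ L) (hrp : r ≠ p)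
    (hstar : IsStarStable M r H) (htame : IsTameAt L M r H)
    (A : ValuationSubring (AlgebraicClosure ℚ)) (hA : A.LiesOverPrime r) (σ : GalQ)
    (hσ : σ ∈ A.inertiaSubgroupIn ℚ) (hχσ : χ σ = Fermat.Agent.S42.cycloChar M σ ^ e)
    (x : es1inftwJ L M H p χ) :
    σ • σ • x - es1inftwChiPoly M e (Fermat.Agent.S42.cycloChar M σ) • (σ • x) + x = 0 :=
  es1inftw_chi_rel_at
    (es1inftw_chiAt_of5 hChi (NeZero.ne L) hML.out hp.out hp5 hr hr5 hrM hr2 hrp hstar htame)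
    e he hE χ hr hrM hr2 A hA σ hσ hχσ x

/-- **(TW4), `Approx` form**, from `StmtChiJDiv5` (the form which K6 delivers), `5 ≤ r`,
`5 ≤ p`. -/
theorem es1inftw_chi_approx5 (hChi : StmtChiJDiv5) (hp5 : 5 ≤ p) (e : ℕ) (he : 1 ≤ e)
    (hE : ∀ c : (ZMod M)ˣ, c ^ (2 * e - 1) ∈ pmH H) (χ : GalQ →* (ZMod M)ˣ)
    {r : ℕ} (hr : r.Prime) (hr5 : 5 ≤ r) (hrM : r ∣ M) (hr2 : ¬ r ^ 2 ∣ L) (hrp : r ≠ p)
    (hstar : IsStarStable M r H) (htame : IsTameAt L M r H)
    (A : ValuationSubring (AlgebraicClosure ℚ)) (hA : A.LiesOverPrime r) (σ : GalQ)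
    (hσ : σ ∈ A.inertiaSubgroupIn ℚ) (hχσ : χ σ = Fermat.Agent.S42.cycloChar M σ ^ e)
    (n : ℕ) :
    Fermat.Agent.RT.Rtk7bApprox p (es1inftwJ L M H p χ)
      (fun n g => ((Fermat.Agent.S30.cycE p n g : ℕ) : HDAlg M)) n σ
      (es1inftwChiPoly M e (Fermat.Agent.S42.cycloChar M σ)) :=
  es1inftw_chi_approx_at
    (es1inftw_chiAt_of5 hChi (NeZero.ne L) hML.out hp.out hp5 hr hr5 hrM hr2 hrp hstar htame)
    e he hE χ hr hrM hr2 hrp A hA σ hσ hχσ n

end Fermat.Agent.ES1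

end
end ZBES1_020_16
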