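/- GENERATED FILE (helper35, build-time optimisation, NOTES/ZB.md): verbatim concatenation of the modules
   Fermat.Agent.RT.P.Limit
   Fermat.Agent.RT.P.Compact
   Fermat.Agent.RT.P.Core
   Fermat.Agent.RT.P.Main
   Do not edit; do not import together with these modules. -/
import Mathlib
import Fermat.Agent.ZB.RT_009

/-! ### bundled: `Fermat.Agent.RT.P.Limit` -/
section ZBRT_010_0

/-!
# RT-P (patching), limits along `I`-adic towers — Mathlib only

* `rtp_exists_limit`        : a compatible family in `∏ R ⧸ J ^ k` comes from an element of `R`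
                               (`R` precomplete);
* `rtp_matrix_ext`          : matrices over a Hausdorff ring are determined by their reductions;
* `rtp_matrix_exists_limit` : compatible families of matrices have a limit;
* `rtp_lift_algHom`         : a compatible family of algebra homs `A →ₐ[O] M_d(S ⧸ I ^ n)` lifts
                               to `A →ₐ[O] M_d(S)` (`S` complete).
-/

set_option autoImplicit false

namespace Fermat.Agent.RT.P

open Ideal

section Limit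

variable {R : Type*} [CommRing R] (J : Ideal R)

theorem rtp_exists_limit [IsPrecomplete J R] (c : ∀ k, R ⧸ J ^ k)
    (hc : ∀ {m n : ℕ} (h : m ≤ n),
      Ideal.Quotient.factor (Ideal.pow_le_pow_right h) (c n) = c m) :
    ∃ r : R, ∀ k, Ideal.Quotient.mk (J ^ k) r = c k := by
  have hout : ∀ k, Ideal.Quotient.mk (J ^ k) (Quotient.out (c k)) = c k :=
    fun k => Ideal.Quotient.mk_out _
  have hcauchy : ∀ {m n : ℕ}, m ≤ n →
      (Quotient.out (c m) : R) ≡ Quotient.out (c n) [SMOD (J ^ m • ⊤ : Submodule R R)] := by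
    intro m n h
    rw [SModEq.sub_mem, smul_eq_mul, Ideal.mul_top, ← Ideal.Quotient.eq, hout m]
    have := hc h
    rw [← hout n, Ideal.Quotient.factor_mk] at this
    exact this.symm
  obtain ⟨L, hL⟩ := IsPrecomplete.prec ‹_› hcauchy
  refine ⟨L, fun k => ?_⟩
  have := hL k
  rw [SModEq.sub_mem, smul_eq_mul, Ideal.mul_top, ← Ideal.Quotient.eq, hout k] at this
  exact this.symm

theorem rtp_eq_of_forall_mk_eq [IsHausdorff J R] {x y : R}
    (h : ∀ k, Ideal.Quotient.mk (J ^ k) x = Ideal.Quotient.mk (J ^ k) y) : x = y := by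
  rw [← sub_eq_zero]
  apply IsHausdorff.haus ‹_›
  intro n
  rw [SModEq.sub_mem, smul_eq_mul, Ideal.mul_top, sub_zero, ← Ideal.Quotient.eq]
  exact h n

end Limit

section Matrix

variable {S : Type*} [CommRing S] (I : Ideal S) {d : ℕ}

theorem rtp_matrix_ext [IsHausdorff I S] {A B : Matrix (Fin d) (Fin d) S}
    (h : ∀ n, A.map (Ideal.Quotient.mk (I ^ n)) = B.map (Ideal.Quotient.mk (I ^ n))) :
    A = B := by
  ext i j
  apply rtp_eq_of_forall_mk_eq I
  intro k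
  have := congrFun (congrFun (h k) i) j
  simpa using this

theorem rtp_matrix_exists_limit [IsPrecomplete I S]
    (c : ∀ n, Matrix (Fin d) (Fin d) (S ⧸ I ^ n))
    (hc : ∀ {m n : ℕ} (h : m ≤ n),
      (c n).map (Ideal.Quotient.factor (Ideal.pow_le_pow_right h)) = c m) :
    ∃ A : Matrix (Fin d) (Fin d) S, ∀ n, A.map (Ideal.Quotient.mk (I ^ n)) = c n := by
  have key : ∀ i j, ∃ s : S, ∀ k, Ideal.Quotient.mk (I ^ k) s = c k i j := by
    intro i j
    apply rtp_exists_limit I (fun k => c k i j)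
    intro m n h
    have := congrFun (congrFun (hc h) i) j
    simpa using this
  choose s hs using key
  refine ⟨Matrix.of s, fun n => ?_⟩
  ext i j
  simp [hs]

end Matrix

section Lift

variable {O : Type*} [CommRing O] {S : Type*} [CommRing S] [Algebra O S] (I : Ideal S)
  {A : Type*} [Semiring A] [Algebra O A] {d : ℕ}

/-- A compatible family of algebra homs to the matrix rings over `S ⧸ I ^ n` lifts to the matrix
ring over `S`, when `S` is `I`-adically complete. -/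
theorem rtp_lift_algHom [IsAdicComplete I S]
    (ρ : ∀ n, A →ₐ[O] Matrix (Fin d) (Fin d) (S ⧸ I ^ n))
    (hρ : ∀ {m n : ℕ} (h : m ≤ n),
      (Ideal.Quotient.factorₐ O (Ideal.pow_le_pow_right h)).mapMatrix.comp (ρ n) = ρ m) :
    ∃ ρ' : A →ₐ[O] Matrix (Fin d) (Fin d) S,
      ∀ n a, (ρ' a).map (Ideal.Quotient.mk (I ^ n)) = ρ n a := by
  have key : ∀ a : A, ∃ M : Matrix (Fin d) (Fin d) S,
      ∀ n, M.map (Ideal.Quotient.mk (I ^ n)) = ρ n a := by
    intro a
    apply rtp_matrix_exists_limit I (fun n => ρ n a)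
    intro m n h
    have := DFunLike.congr_fun (hρ h) a
    exact this
  choose F hF using key
  have hmap : ∀ n (M : Matrix (Fin d) (Fin d) S),
      M.map (Ideal.Quotient.mk (I ^ n)) = (Ideal.Quotient.mk (I ^ n)).mapMatrix M := fun _ _ => rfl
  refine ⟨{ toFun := F
            map_one' := ?_
            map_mul' := ?_
            map_zero' := ?_
            map_add' := ?_
            commutes' := ?_ }, fun n a => hF a n⟩
  · apply rtp_matrix_ext I
    intro n
    rw [hF, map_one, hmap, map_one]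
  · intro a b
    apply rtp_matrix_ext I
    intro n
    rw [hF, map_mul, hmap, map_mul, ← hmap, ← hmap, hF, hF]
  · apply rtp_matrix_ext I
    intro n
    rw [hF, map_zero, hmap, map_zero]
  · intro a b
    apply rtp_matrix_ext I
    intro n
    rw [hF, map_add, hmap, map_add, ← hmap, ← hmap, hF, hF]
  · intro r
    apply rtp_matrix_ext I
    intro n
    rw [hF, AlgHom.commutes]
    have : (algebraMap O (Matrix (Fin d) (Fin d) S) r).map (Ideal.Quotient.mk (I ^ n)) =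
        (Ideal.Quotient.mkₐ O (I ^ n)).mapMatrix (algebraMap O (Matrix (Fin d) (Fin d) S) r) := rfl
    rw [this, AlgHom.commutes]

end Lift

end Fermat.Agent.RT.P


end ZBRT_010_0

/-! ### bundled: `Fermat.Agent.RT.P.Compact` -/
section ZBRT_010_1

/-!
# RT-P (patching), the compactness lemma — Mathlib only

`rtp_exists_preimage`: `R` a commutative ring, `J` an ideal in the Jacobson radical, `R` `J`-adically
precomplete with finite quotients `R ⧸ J ^ k`; `f n : R →+* B n` ring homs to finite rings and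
targets `b n : B n` such that the solution sets `{r | f n r = b n}` are nonempty and decreasing.
Then there is a common solution.
-/

set_option autoImplicit false

namespace Fermat.Agent.RT.P

open Ideal

theorem rtp_exists_preimage
    {R : Type*} [CommRing R] (J : Ideal R) (hJ : J ≤ Ideal.jacobson ⊥) [IsPrecomplete J R]
    (hfin : ∀ k, Finite (R ⧸ J ^ k))
    {B : ℕ → Type*} [∀ n, Ring (B n)] [∀ n, Finite (B n)]
    (f : ∀ n, R →+* B n) (b : ∀ n, B n)
    (hmono : ∀ n r, f (n + 1) r = b (n + 1) → f n r = b n)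
    (h : ∀ n, ∃ r, f n r = b n) :
    ∃ r, ∀ n, f n r = b n := by
  classical
  have hmono' : ∀ {m n : ℕ}, m ≤ n → ∀ r, f n r = b n → f m r = b m := by
    intro m n hmn
    induction n, hmn using Nat.le_induction with
    | base => exact fun r hr => hr
    | succ n _ ih => exact fun r hr => ih r (hmono n r hr)
  -- the sets `Y k`
  let Y : ∀ k, Set (R ⧸ J ^ k) :=
    fun k => {c | ∀ n, ∃ r, f n r = b n ∧ Ideal.Quotient.mk (J ^ k) r = c}
  have hYne : ∀ k, Nonempty (Y k) := by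
    intro k
    have := hfin k
    choose r hr using h
    obtain ⟨c, hc⟩ := Finite.exists_infinite_fiber (fun n => Ideal.Quotient.mk (J ^ k) (r n))
    refine ⟨⟨c, fun n => ?_⟩⟩
    have hinf : (((fun n => Ideal.Quotient.mk (J ^ k) (r n)) ⁻¹' {c}) : Set ℕ).Infinite :=
      Set.infinite_coe_iff.mp hc
    obtain ⟨j, hj, hnj⟩ := hinf.exists_gt n
    exact ⟨r j, hmono' hnj.le _ (hr j), hj⟩
  have hYfin : ∀ k, Finite (Y k) := fun k => by
    have := hfin k
    infer_instance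
  -- projections
  let π : ∀ {i j : ℕ}, i ≤ j → Y j → Y i := fun {i j} hij c =>
    ⟨Ideal.Quotient.factor (Ideal.pow_le_pow_right hij) c.1, fun n => by
      obtain ⟨r, hr1, hr2⟩ := c.2 n
      exact ⟨r, hr1, by rw [← hr2, Ideal.Quotient.factor_mk]⟩⟩
  have π_refl : ∀ ⦃i⦄ (a : Y i), π (le_refl i) a = a := by
    intro i a
    apply Subtype.ext
    obtain ⟨r, hr⟩ := Ideal.Quotient.mk_surjective a.1
    show Ideal.Quotient.factor _ a.1 = a.1
    rw [← hr, Ideal.Quotient.factor_mk]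
  have π_trans : ∀ ⦃i j k⦄ (hij : i ≤ j) (hjk : j ≤ k) (a : Y k),
      π hij (π hjk a) = π (hij.trans hjk) a := by
    intro i j k hij hjk a
    apply Subtype.ext
    obtain ⟨r, hr⟩ := Ideal.Quotient.mk_surjective a.1
    show Ideal.Quotient.factor _ (Ideal.Quotient.factor _ a.1) = Ideal.Quotient.factor _ a.1
    rw [← hr, Ideal.Quotient.factor_mk, Ideal.Quotient.factor_mk, Ideal.Quotient.factor_mk]
  have := hYfin 0
  obtain ⟨c, hc⟩ := exists_seq_forall_proj_of_forall_finite (α := fun k => Y k)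
    (fun {i j} hij => π hij) π_refl π_trans (fun i a => by
      have := hYfin (i + 1)
      exact Set.toFinite _)
  -- the limit
  obtain ⟨r, hr⟩ := rtp_exists_limit J (fun k => (c k).1) (by
    intro m n hmn
    exact congrArg Subtype.val (hc hmn))
  refine ⟨r, fun n => ?_⟩
  obtain ⟨r', hr'1, hr'2⟩ := (c (Nat.card (B n))).2 n
  have hmem : r - r' ∈ J ^ (Nat.card (B n)) := by
    rw [← Ideal.Quotient.eq, hr'2, hr]
  have := rtp_pow_card_le_ker J hJ (f n) hmem
  rw [RingHom.mem_ker, map_sub, sub_eq_zero] at this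
  rw [this, hr'1]

end Fermat.Agent.RT.P


end ZBRT_010_1

/-! ### bundled: `Fermat.Agent.RT.P.Core` -/
section ZBRT_010_2

/-!
# RT-P (patching), the MATRIX CORE — Mathlib only

The Taylor–Wiles–Kisin patching argument in the form ruled by the captain of the K-machine
(helper43, 20:58Z).  All modules are free of rank `d` over (quotients of) `S`, so they are given
in a basis: an action of a ring `R` on such a module is an algebra hom `R →ₐ[O] M_d(S ⧸ I ^ n)`.

* `RtpLevel`   : the conditions on a pair `(ρ1, ρχ)` at level `n` (everything modulo `I ^ n`);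
* `RtpPatched` : the same conditions for a pair `(ρ1, ρχ)` with values in `M_d(S)`;
* `rtp_patch`  : if every level is inhabited, there is a patched pair.

No pigeonhole on the Taylor–Wiles sets is left to the consumer: the level `n` datum may come from
any auxiliary level `m ≥ n`.
-/

set_option autoImplicit false

namespace Fermat.Agent.RT.P

open Ideal

section Defs

variable {O : Type*} [CommRing O] {S : Type*} [CommRing S] [Algebra O S] (I 𝔞 𝔩 : Ideal S)
  {R0 : Type*} [CommRing R0] [Algebra O R0]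
  {R1 : Type*} [CommRing R1] [Algebra O R1]
  {Rχ : Type*} [CommRing Rχ] [Algebra O Rχ]
  (ι : R0 →ₐ[O] R1) {d : ℕ}
  (θ : R0 →ₐ[O] Matrix (Fin d) (Fin d) (S ⧸ 𝔞))
  (T0 : Set (Matrix (Fin d) (Fin d) (S ⧸ 𝔞)))
  (E : R1 → Rχ → Prop)

/-- The conditions at level `n`:
* `base_loc` : on the local ring `R0` the action on the base `S ⧸ 𝔞` is the fixed `θ`;
* `base_T0`  : the action on the base is through `T0`;
* `cong`     : the two types agree modulo `𝔩` on `E`-related elements;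
* `scal1`, `scalχ` : `S` acts through `R1`, resp. `Rχ`. -/
structure RtpLevel (n : ℕ) (ρ1 : R1 →ₐ[O] Matrix (Fin d) (Fin d) (S ⧸ I ^ n))
    (ρχ : Rχ →ₐ[O] Matrix (Fin d) (Fin d) (S ⧸ I ^ n)) : Prop where
  base_loc : ∀ r0 : R0,
    (ρ1 (ι r0)).map (Ideal.Quotient.factor (le_sup_right : I ^ n ≤ 𝔞 ⊔ I ^ n)) =
      (θ r0).map (Ideal.Quotient.factor (le_sup_left : 𝔞 ≤ 𝔞 ⊔ I ^ n))
  base_T0 : ∀ r1 : R1, ∃ t ∈ T0,
    (ρ1 r1).map (Ideal.Quotient.factor (le_sup_right : I ^ n ≤ 𝔞 ⊔ I ^ n)) =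
      t.map (Ideal.Quotient.factor (le_sup_left : 𝔞 ≤ 𝔞 ⊔ I ^ n))
  cong : ∀ r1 rχ, E r1 rχ →
    (ρ1 r1).map (Ideal.Quotient.factor (le_sup_right : I ^ n ≤ 𝔩 ⊔ I ^ n)) =
      (ρχ rχ).map (Ideal.Quotient.factor (le_sup_right : I ^ n ≤ 𝔩 ⊔ I ^ n))
  scal1 : ∀ s : S, ∃ r, ρ1 r = algebraMap S (Matrix (Fin d) (Fin d) (S ⧸ I ^ n)) s
  scalχ : ∀ s : S, ∃ r, ρχ r = algebraMap S (Matrix (Fin d) (Fin d) (S ⧸ I ^ n)) s

/-- The conditions on the patched pair. -/
structure RtpPatched (ρ1 : R1 →ₐ[O] Matrix (Fin d) (Fin d) S)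
    (ρχ : Rχ →ₐ[O] Matrix (Fin d) (Fin d) S) : Prop where
  base_loc : ∀ r0 : R0, (ρ1 (ι r0)).map (Ideal.Quotient.mk 𝔞) = θ r0
  base_T0 : ∀ r1 : R1, (ρ1 r1).map (Ideal.Quotient.mk 𝔞) ∈ T0
  cong : ∀ r1 rχ, E r1 rχ →
    (ρ1 r1).map (Ideal.Quotient.mk 𝔩) = (ρχ rχ).map (Ideal.Quotient.mk 𝔩)
  scal1 : ∀ s : S, ∃ r, ρ1 r = algebraMap S (Matrix (Fin d) (Fin d) S) s
  scalχ : ∀ s : S, ∃ r, ρχ r = algebraMap S (Matrix (Fin d) (Fin d) S) s

end Defs

section Aux

variable {S : Type*} [CommRing S] {d : ℕ}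

/-- `Matrix.map` along `factor` after `Matrix.map` along `factor`. -/
theorem rtp_map_factor_factor {A B C : Ideal S} (h1 : A ≤ B) (h2 : B ≤ C)
    (M : Matrix (Fin d) (Fin d) (S ⧸ A)) :
    (M.map (Ideal.Quotient.factor h1)).map (Ideal.Quotient.factor h2) =
      M.map (Ideal.Quotient.factor (h1.trans h2)) := by
  ext i j
  simp only [Matrix.map_apply]
  obtain ⟨s, hs⟩ := Ideal.Quotient.mk_surjective (M i j)
  rw [← hs, Ideal.Quotient.factor_mk, Ideal.Quotient.factor_mk, Ideal.Quotient.factor_mk]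

/-- `Matrix.map` along `factor` after `Matrix.map` along `mk`. -/
theorem rtp_map_mk_factor {A B : Ideal S} (h1 : A ≤ B) (M : Matrix (Fin d) (Fin d) S) :
    (M.map (Ideal.Quotient.mk A)).map (Ideal.Quotient.factor h1) =
      M.map (Ideal.Quotient.mk B) := by
  ext i j
  simp only [Matrix.map_apply, Ideal.Quotient.factor_mk]

/-- a closed ideal: elements of `S ⧸ 𝔞` are separated by the quotients `S ⧸ (𝔞 ⊔ I ^ n)` -/
theorem rtp_matrix_ext_closed (I 𝔞 : Ideal S) (h𝔞 : ∀ s, (∀ n, s ∈ 𝔞 ⊔ I ^ n) → s ∈ 𝔞)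
    {M N : Matrix (Fin d) (Fin d) (S ⧸ 𝔞)}
    (h : ∀ n, M.map (Ideal.Quotient.factor (le_sup_left : 𝔞 ≤ 𝔞 ⊔ I ^ n)) =
      N.map (Ideal.Quotient.factor (le_sup_left : 𝔞 ≤ 𝔞 ⊔ I ^ n))) : M = N := by
  ext i j
  obtain ⟨s, hs⟩ := Ideal.Quotient.mk_surjective (M i j)
  obtain ⟨t, ht⟩ := Ideal.Quotient.mk_surjective (N i j)
  rw [← hs, ← ht, Ideal.Quotient.eq]
  apply h𝔞
  intro n
  have := congrFun (congrFun (h n) i) j
  simp only [Matrix.map_apply] at this
  rw [← hs, ← ht, Ideal.Quotient.factor_mk, Ideal.Quotient.factor_mk, Ideal.Quotient.eq] at this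
  exact this

end Aux

section Reduce

variable {O : Type*} [CommRing O] {S : Type*} [CommRing S] [Algebra O S] (I 𝔞 𝔩 : Ideal S)
  {R0 : Type*} [CommRing R0] [Algebra O R0]
  {R1 : Type*} [CommRing R1] [Algebra O R1]
  {Rχ : Type*} [CommRing Rχ] [Algebra O Rχ]
  (ι : R0 →ₐ[O] R1) {d : ℕ}
  (θ : R0 →ₐ[O] Matrix (Fin d) (Fin d) (S ⧸ 𝔞))
  (T0 : Set (Matrix (Fin d) (Fin d) (S ⧸ 𝔞)))
  (E : R1 → Rχ → Prop)

/-- reduction of algebra homs from level `n` to level `m ≤ n` -/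
noncomputable def rtpRed {A : Type*} [Semiring A] [Algebra O A] {m n : ℕ} (h : m ≤ n)
    (ρ : A →ₐ[O] Matrix (Fin d) (Fin d) (S ⧸ I ^ n)) :
    A →ₐ[O] Matrix (Fin d) (Fin d) (S ⧸ I ^ m) :=
  (Ideal.Quotient.factorₐ O (Ideal.pow_le_pow_right h)).mapMatrix.comp ρ

theorem rtpRed_apply {A : Type*} [Semiring A] [Algebra O A] {m n : ℕ} (h : m ≤ n)
    (ρ : A →ₐ[O] Matrix (Fin d) (Fin d) (S ⧸ I ^ n)) (a : A) :
    rtpRed I h ρ a = (ρ a).map (Ideal.Quotient.factor (Ideal.pow_le_pow_right h)) := rfl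

theorem rtpRed_refl {A : Type*} [Semiring A] [Algebra O A] {n : ℕ}
    (ρ : A →ₐ[O] Matrix (Fin d) (Fin d) (S ⧸ I ^ n)) : rtpRed I (le_refl n) ρ = ρ := by
  ext a i j
  rw [rtpRed_apply, Matrix.map_apply]
  obtain ⟨s, hs⟩ := Ideal.Quotient.mk_surjective (ρ a i j)
  rw [← hs, Ideal.Quotient.factor_mk]

theorem rtpRed_trans {A : Type*} [Semiring A] [Algebra O A] {k m n : ℕ} (h1 : k ≤ m)
    (h2 : m ≤ n) (ρ : A →ₐ[O] Matrix (Fin d) (Fin d) (S ⧸ I ^ n)) :
    rtpRed I h1 (rtpRed I h2 ρ) = rtpRed I (h1.trans h2) ρ := by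
  ext a i j
  rw [rtpRed_apply, rtpRed_apply, rtpRed_apply, rtp_map_factor_factor]

variable {I 𝔞 𝔩 ι θ T0 E}

theorem RtpLevel.reduce {m n : ℕ} (h : m ≤ n)
    {ρ1 : R1 →ₐ[O] Matrix (Fin d) (Fin d) (S ⧸ I ^ n)}
    {ρχ : Rχ →ₐ[O] Matrix (Fin d) (Fin d) (S ⧸ I ^ n)}
    (H : RtpLevel I 𝔞 𝔩 ι θ T0 E n ρ1 ρχ) :
    RtpLevel I 𝔞 𝔩 ι θ T0 E m (rtpRed I h ρ1) (rtpRed I h ρχ) := by
  have hpow : I ^ n ≤ I ^ m := Ideal.pow_le_pow_right h
  have h𝔞 : 𝔞 ⊔ I ^ n ≤ 𝔞 ⊔ I ^ m := sup_le_sup_left hpow 𝔞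
  have h𝔩 : 𝔩 ⊔ I ^ n ≤ 𝔩 ⊔ I ^ m := sup_le_sup_left hpow 𝔩
  refine ⟨?_, ?_, ?_, ?_, ?_⟩
  · intro r0
    have := congrArg (fun M => M.map (Ideal.Quotient.factor h𝔞)) (H.base_loc r0)
    simp only [rtp_map_factor_factor] at this
    rw [rtpRed_apply, rtp_map_factor_factor]
    exact this
  · intro r1
    obtain ⟨t, ht, h1⟩ := H.base_T0 r1
    refine ⟨t, ht, ?_⟩
    have := congrArg (fun M => M.map (Ideal.Quotient.factor h𝔞)) h1
    simp only [rtp_map_factor_factor] at this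
    rw [rtpRed_apply, rtp_map_factor_factor]
    exact this
  · intro r1 rχ hE
    have := congrArg (fun M => M.map (Ideal.Quotient.factor h𝔩)) (H.cong r1 rχ hE)
    simp only [rtp_map_factor_factor] at this
    rw [rtpRed_apply, rtpRed_apply, rtp_map_factor_factor, rtp_map_factor_factor]
    exact this
  · intro s
    obtain ⟨r, hr⟩ := H.scal1 s
    refine ⟨r, ?_⟩
    rw [rtpRed_apply, hr]
    ext i j
    simp [Matrix.algebraMap_matrix_apply]
    split_ifs <;> simp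
  · intro s
    obtain ⟨r, hr⟩ := H.scalχ s
    refine ⟨r, ?_⟩
    rw [rtpRed_apply, hr]
    ext i j
    simp [Matrix.algebraMap_matrix_apply]
    split_ifs <;> simp

end Reduce

end Fermat.Agent.RT.P


end ZBRT_010_2

/-! ### bundled: `Fermat.Agent.RT.P.Main` -/
section ZBRT_010_3

/-!
# RT-P (patching), the main theorem `rtp_patch` — Mathlib only
-/

set_option autoImplicit false

namespace Fermat.Agent.RT.P

open Ideal

section Aux2

variable {S : Type*} [CommRing S] {d : ℕ}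

theorem rtp_map_algebraMap_mk (A : Ideal S) (s : S) :
    (algebraMap S (Matrix (Fin d) (Fin d) S) s).map (Ideal.Quotient.mk A) =
      algebraMap S (Matrix (Fin d) (Fin d) (S ⧸ A)) s := by
  ext i j
  simp only [Matrix.map_apply, Matrix.algebraMap_matrix_apply]
  split_ifs <;> simp

theorem rtp_map_algebraMap_factor {A B : Ideal S} (h : A ≤ B) (s : S) :
    (algebraMap S (Matrix (Fin d) (Fin d) (S ⧸ A)) s).map (Ideal.Quotient.factor h) =
      algebraMap S (Matrix (Fin d) (Fin d) (S ⧸ B)) s := by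
  ext i j
  simp only [Matrix.map_apply, Matrix.algebraMap_matrix_apply]
  split_ifs <;> simp

end Aux2

section Main

variable {O : Type*} [CommRing O] {S : Type*} [CommRing S] [Algebra O S] (I 𝔞 𝔩 : Ideal S)
  {R0 : Type*} [CommRing R0] [Algebra O R0]
  {R1 : Type*} [CommRing R1] [Algebra O R1]
  {Rχ : Type*} [CommRing Rχ] [Algebra O Rχ]
  (ι : R0 →ₐ[O] R1) {d : ℕ}
  (θ : R0 →ₐ[O] Matrix (Fin d) (Fin d) (S ⧸ 𝔞))
  (T0 : Set (Matrix (Fin d) (Fin d) (S ⧸ 𝔞)))
  (E : R1 → Rχ → Prop)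

/-- `S` acts through `R` in the limit. -/
theorem rtp_scal_limit [IsAdicComplete I S] (hS : ∀ n, Finite (S ⧸ I ^ n))
    {R : Type*} [CommRing R] [Algebra O R]
    (J : Ideal R) (hJ : J ≤ Ideal.jacobson ⊥) [IsPrecomplete J R] (hR : ∀ k, Finite (R ⧸ J ^ k))
    (ρ : R →ₐ[O] Matrix (Fin d) (Fin d) S) (s : S)
    (h : ∀ n, ∃ r, (ρ r).map (Ideal.Quotient.mk (I ^ n)) =
      algebraMap S (Matrix (Fin d) (Fin d) (S ⧸ I ^ n)) s) :
    ∃ r, ρ r = algebraMap S (Matrix (Fin d) (Fin d) S) s := by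
  have hfinM : ∀ n, Finite (Matrix (Fin d) (Fin d) (S ⧸ I ^ n)) := fun n => by
    have := hS n
    exact inferInstanceAs (Finite (Fin d → Fin d → S ⧸ I ^ n))
  obtain ⟨r, hr⟩ := rtp_exists_preimage J hJ hR
    (B := fun n => Matrix (Fin d) (Fin d) (S ⧸ I ^ n))
    (fun n => ((Ideal.Quotient.mk (I ^ n)).mapMatrix).comp (ρ : R →+* Matrix (Fin d) (Fin d) S))
    (fun n => algebraMap S (Matrix (Fin d) (Fin d) (S ⧸ I ^ n)) s)
    (by
      intro n r hr
      have h1 : (ρ r).map (Ideal.Quotient.mk (I ^ (n + 1))) =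
          algebraMap S (Matrix (Fin d) (Fin d) (S ⧸ I ^ (n + 1))) s := hr
      show (ρ r).map (Ideal.Quotient.mk (I ^ n)) = _
      have hle : I ^ (n + 1) ≤ I ^ n := Ideal.pow_le_pow_right (Nat.le_succ n)
      rw [← rtp_map_mk_factor hle, h1, rtp_map_algebraMap_factor])
    (by
      intro n
      obtain ⟨r, hr⟩ := h n
      exact ⟨r, hr⟩)
  refine ⟨r, ?_⟩
  apply rtp_matrix_ext I
  intro n
  rw [rtp_map_algebraMap_mk]
  exact hr n

/-- **The patching theorem (matrix core).** -/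
theorem rtp_patch [IsAdicComplete I S] (hS : ∀ n, Finite (S ⧸ I ^ n))
    (h𝔞 : ∀ s, (∀ n, s ∈ 𝔞 ⊔ I ^ n) → s ∈ 𝔞) (h𝔩 : ∀ s, (∀ n, s ∈ 𝔩 ⊔ I ^ n) → s ∈ 𝔩)
    (hT0 : ∀ t : Matrix (Fin d) (Fin d) (S ⧸ 𝔞),
      (∀ n, ∃ t' ∈ T0, t.map (Ideal.Quotient.factor (le_sup_left : 𝔞 ≤ 𝔞 ⊔ I ^ n)) =
        t'.map (Ideal.Quotient.factor (le_sup_left : 𝔞 ≤ 𝔞 ⊔ I ^ n))) → t ∈ T0)
    (J1 : Ideal R1) (hJ1 : J1 ≤ Ideal.jacobson ⊥) [IsPrecomplete J1 R1]
    (hR1 : ∀ k, Finite (R1 ⧸ J1 ^ k))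
    (Jχ : Ideal Rχ) (hJχ : Jχ ≤ Ideal.jacobson ⊥) [IsPrecomplete Jχ Rχ]
    (hRχ : ∀ k, Finite (Rχ ⧸ Jχ ^ k))
    (hlev : ∀ n, ∃ ρ1 ρχ, RtpLevel I 𝔞 𝔩 ι θ T0 E n ρ1 ρχ) :
    ∃ ρ1 ρχ, RtpPatched 𝔞 𝔩 ι θ T0 E ρ1 ρχ := by
  classical
  have hfinM : ∀ n, Finite (Matrix (Fin d) (Fin d) (S ⧸ I ^ n)) := fun n => by
    have := hS n
    exact inferInstanceAs (Finite (Fin d → Fin d → S ⧸ I ^ n))
  have hfin1 : ∀ n, Finite (R1 →ₐ[O] Matrix (Fin d) (Fin d) (S ⧸ I ^ n)) := fun n => by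
    have := hfinM n
    exact rtp_finite_algHom J1 hJ1 hR1
  have hfinχ : ∀ n, Finite (Rχ →ₐ[O] Matrix (Fin d) (Fin d) (S ⧸ I ^ n)) := fun n => by
    have := hfinM n
    exact rtp_finite_algHom Jχ hJχ hRχ
  -- the inverse system of the level sets
  let X : ℕ → Type _ := fun n =>
    {p : (R1 →ₐ[O] Matrix (Fin d) (Fin d) (S ⧸ I ^ n)) ×
        (Rχ →ₐ[O] Matrix (Fin d) (Fin d) (S ⧸ I ^ n)) // RtpLevel I 𝔞 𝔩 ι θ T0 E n p.1 p.2}
  have hXfin : ∀ n, Finite (X n) := fun n => by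
    have := hfin1 n
    have := hfinχ n
    exact Subtype.finite
  have hXne : ∀ n, Nonempty (X n) := fun n => by
    obtain ⟨ρ1, ρχ, h⟩ := hlev n
    exact ⟨⟨(ρ1, ρχ), h⟩⟩
  let π : ∀ {i j : ℕ}, i ≤ j → X j → X i := fun {i j} hij p =>
    ⟨(rtpRed I hij p.1.1, rtpRed I hij p.1.2), p.2.reduce hij⟩
  have π_refl : ∀ ⦃i⦄ (a : X i), π (le_refl i) a = a := by
    intro i a
    apply Subtype.ext
    exact Prod.ext (rtpRed_refl I _) (rtpRed_refl I _)
  have π_trans : ∀ ⦃i j k⦄ (hij : i ≤ j) (hjk : j ≤ k) (a : X k),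
      π hij (π hjk a) = π (hij.trans hjk) a := by
    intro i j k hij hjk a
    apply Subtype.ext
    exact Prod.ext (rtpRed_trans I hij hjk _) (rtpRed_trans I hij hjk _)
  have := hXfin 0
  obtain ⟨x, hx⟩ := exists_seq_forall_proj_of_forall_finite (α := X)
    (fun {i j} hij => π hij) π_refl π_trans (fun i a => by
      have := hXfin (i + 1)
      exact Set.toFinite _)
  -- the limits
  have hc1 : ∀ {m n : ℕ} (h : m ≤ n),
      (Ideal.Quotient.factorₐ O (Ideal.pow_le_pow_right h)).mapMatrix.comp (x n).1.1 =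
        (x m).1.1 := fun {m n} h => congrArg (fun p : X m => p.1.1) (hx h)
  have hcχ : ∀ {m n : ℕ} (h : m ≤ n),
      (Ideal.Quotient.factorₐ O (Ideal.pow_le_pow_right h)).mapMatrix.comp (x n).1.2 =
        (x m).1.2 := fun {m n} h => congrArg (fun p : X m => p.1.2) (hx h)
  obtain ⟨ρ1, hρ1⟩ := rtp_lift_algHom I (fun n => (x n).1.1) hc1
  obtain ⟨ρχ, hρχ⟩ := rtp_lift_algHom I (fun n => (x n).1.2) hcχ
  refine ⟨ρ1, ρχ, ⟨?_, ?_, ?_, ?_, ?_⟩⟩
  · intro r0
    apply rtp_matrix_ext_closed I 𝔞 h𝔞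
    intro n
    rw [rtp_map_mk_factor, ← (x n).2.base_loc r0, ← hρ1 n, rtp_map_mk_factor]
  · intro r1
    apply hT0
    intro n
    obtain ⟨t, ht, h1⟩ := (x n).2.base_T0 r1
    refine ⟨t, ht, ?_⟩
    rw [rtp_map_mk_factor, ← h1, ← hρ1 n, rtp_map_mk_factor]
  · intro r1 rχ hE
    apply rtp_matrix_ext_closed I 𝔩 h𝔩
    intro n
    rw [rtp_map_mk_factor, rtp_map_mk_factor]
    have := (x n).2.cong r1 rχ hE
    rw [← hρ1 n, ← hρχ n, rtp_map_mk_factor, rtp_map_mk_factor] at this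
    exact this
  · intro s
    apply rtp_scal_limit I hS J1 hJ1 hR1 ρ1 s
    intro n
    obtain ⟨r, hr⟩ := (x n).2.scal1 s
    exact ⟨r, by rw [hρ1 n, hr]⟩
  · intro s
    apply rtp_scal_limit I hS Jχ hJχ hRχ ρχ s
    intro n
    obtain ⟨r, hr⟩ := (x n).2.scalχ s
    exact ⟨r, by rw [hρχ n, hr]⟩

end Main

end Fermat.Agent.RT.P


end ZBRT_010_3
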