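/- GENERATED FILE (helper35, build-time optimisation, NOTES/ZB.md): verbatim concatenation of the modules
   Fermat.Agent.RT.Hecke.AbsLRing
   Do not edit; do not import together with these modules. -/
import Mathlib

/-! ### bundled: `Fermat.Agent.RT.Hecke.AbsLRing` -/
section ZBRT_021_0

/-!
# K-machine, HECKE-asm, piece HK-ABS-L (helper46): the Hecke ring `A₀`

`𝒪` a local ring, `E` a finite nontrivial `𝒪`-algebra (NOT necessarily commutative; in the
application `E = M_d(S ⧸ 𝔪 ^ n) × M_d(S ⧸ 𝔪 ^ n)`), `𝕋` a commutative ring, `Ψ : 𝕋 →+* E` such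
that every `Ψ x − c` (some `c ∈ 𝒪`) is nilpotent, and such that the elements of `𝔪_𝒪` are
nilpotent in `E`.  Then `A₀ = 𝒪[Ψ 𝕋] ⊆ E` is a finite commutative LOCAL ring, `𝒪 → A₀` is a local
homomorphism which induces a surjection on the residue fields, and the maximal ideal of `A₀`
is the set of nilpotent elements (`rthk_l_ring`).

* `rthk_l_exists_nilp`, `rthk_l_local` : the same for an abstract commutative `𝒪`-algebra `A`
  generated by elements `c + ν` (`c ∈ 𝒪`, `ν` nilpotent).
-/

set_option autoImplicit false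
set_option linter.unusedSectionVars false

namespace Fermat.Agent.RT

open IsLocalRing

section Ring

variable {O : Type*} [CommRing O] [IsLocalRing O] {A : Type*} [CommRing A] [Algebra O A]

/-- the elements `c + ν`, `c ∈ 𝒪`, `ν` nilpotent, form a subalgebra -/
def rthkLSub (O : Type*) [CommRing O] (A : Type*) [CommRing A] [Algebra O A] : Subalgebra O A where
  carrier := {a | ∃ c : O, IsNilpotent (a - algebraMap O A c)}
  mul_mem' := by
    rintro a b ⟨c, hc⟩ ⟨c', hc'⟩
    refine ⟨c * c', ?_⟩
    have e : a * b - algebraMap O A (c * c')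
        = (a - algebraMap O A c) * b + algebraMap O A c * (b - algebraMap O A c') := by
      rw [map_mul]; ring
    rw [e]
    exact (Commute.all _ _).isNilpotent_add ((Commute.all _ _).isNilpotent_mul_right hc)
      ((Commute.all _ _).isNilpotent_mul_left hc')
  add_mem' := by
    rintro a b ⟨c, hc⟩ ⟨c', hc'⟩
    refine ⟨c + c', ?_⟩
    have e : a + b - algebraMap O A (c + c')
        = (a - algebraMap O A c) + (b - algebraMap O A c') := by
      rw [map_add]; ring
    rw [e]
    exact (Commute.all _ _).isNilpotent_add hc hc'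
  algebraMap_mem' r := ⟨r, by rw [sub_self]; exact IsNilpotent.zero⟩

/-- if `A` is generated by elements `c + ν` then every element is of this form -/
theorem rthk_l_exists_nilp (S : Set A) (hS : Algebra.adjoin O S = ⊤)
    (hnil : ∀ s ∈ S, ∃ c : O, IsNilpotent (s - algebraMap O A c)) (a : A) :
    ∃ c : O, IsNilpotent (a - algebraMap O A c) := by
  have hle : Algebra.adjoin O S ≤ rthkLSub O A := Algebra.adjoin_le fun s hs => hnil s hs
  exact hle (hS ▸ Algebra.mem_top)

/-- **locality**: a nontrivial commutative `𝒪`-algebra generated by elements `c + ν` in which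
`𝔪_𝒪` is nilpotent is local, with the residue field of `𝒪` and maximal ideal the nilradical. -/
theorem rthk_l_local [Nontrivial A] (S : Set A) (hS : Algebra.adjoin O S = ⊤)
    (hnil : ∀ s ∈ S, ∃ c : O, IsNilpotent (s - algebraMap O A c))
    (hlam : ∀ c ∈ maximalIdeal O, IsNilpotent (algebraMap O A c)) :
    ∃ _ : IsLocalRing A, IsLocalHom (algebraMap O A) ∧
      Function.Surjective (residue A ∘ algebraMap O A) ∧
      ∀ a : A, a ∈ maximalIdeal A ↔ IsNilpotent a := by
  have hunit : ∀ a : A, IsUnit a ∨ IsNilpotent a := by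
    intro a
    obtain ⟨c, hc⟩ := rthk_l_exists_nilp S hS hnil a
    by_cases hcu : IsUnit c
    · left
      have e : a = (a - algebraMap O A c) + algebraMap O A c := by ring
      rw [e]
      exact hc.isUnit_add_right_of_commute (hcu.map (algebraMap O A)) (Commute.all _ _)
    · right
      have hcm : c ∈ maximalIdeal O := (mem_maximalIdeal c).mpr hcu
      have e : a = (a - algebraMap O A c) + algebraMap O A c := by ring
      rw [e]
      exact (Commute.all _ _).isNilpotent_add hc (hlam c hcm)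
  have hloc : IsLocalRing A := by
    refine IsLocalRing.of_isUnit_or_isUnit_one_sub_self fun a => ?_
    rcases hunit a with h | h
    · exact Or.inl h
    · exact Or.inr h.isUnit_one_sub
  have hmem : ∀ a : A, a ∈ maximalIdeal A ↔ IsNilpotent a := by
    intro a
    rw [mem_maximalIdeal]
    constructor
    · intro h
      exact (hunit a).resolve_left h
    · intro h
      exact h.not_isUnit
  refine ⟨hloc, ⟨fun c hc => ?_⟩, ?_, hmem⟩
  · by_contra hcu
    have hcm : c ∈ maximalIdeal O := (mem_maximalIdeal c).mpr hcu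
    exact (hlam c hcm).not_isUnit hc
  · intro x
    obtain ⟨a, rfl⟩ := residue_surjective x
    obtain ⟨c, hc⟩ := rthk_l_exists_nilp S hS hnil a
    refine ⟨c, ?_⟩
    have h0 := (residue_eq_zero_iff _).mpr ((hmem _).mpr hc)
    rw [map_sub, sub_eq_zero] at h0
    exact h0.symm

end Ring

section Adjoin

open scoped IsMulCommutative

variable (O : Type) [CommRing O] [IsLocalRing O] (E : Type) [Ring E] [Algebra O E]
  [Finite E] [Nontrivial E] (𝕋 : Type) [CommRing 𝕋] (Ψ : 𝕋 →+* E)

/-- **The Hecke ring `A₀ = 𝒪[Ψ 𝕋]`.** -/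
theorem rthk_l_ring (hnil : ∀ x : 𝕋, ∃ c : O, IsNilpotent (Ψ x - algebraMap O E c))
    (hlam : ∀ c ∈ maximalIdeal O, IsNilpotent (algebraMap O E c)) :
    ∃ (A₀ : Type) (_ : CommRing A₀) (_ : IsLocalRing A₀) (_ : Algebra O A₀)
      (φ : A₀ →ₐ[O] E) (π : 𝕋 →+* A₀),
      Finite A₀ ∧ Function.Injective φ ∧ (∀ x, φ (π x) = Ψ x) ∧
      Algebra.adjoin O (Set.range π) = ⊤ ∧
      IsLocalHom (algebraMap O A₀) ∧ Function.Surjective (residue A₀ ∘ algebraMap O A₀) ∧
      (∀ a : A₀, a ∈ maximalIdeal A₀ ↔ IsNilpotent a) ∧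
      (∀ (x : 𝕋) (c : O), IsNilpotent (Ψ x - algebraMap O E c) →
        π x - algebraMap O A₀ c ∈ maximalIdeal A₀) := by
  have hcomm : ∀ a ∈ Set.range Ψ, ∀ b ∈ Set.range Ψ, a * b = b * a := by
    rintro _ ⟨x, rfl⟩ _ ⟨y, rfl⟩
    rw [← map_mul, ← map_mul, mul_comm]
  have hmc : IsMulCommutative (Algebra.adjoin O (Set.range Ψ)) :=
    Algebra.isMulCommutative_adjoin O hcomm
  let A₀ : Subalgebra O E := Algebra.adjoin O (Set.range Ψ)
  let π : 𝕋 →+* A₀ := Ψ.codRestrict A₀ fun x => Algebra.subset_adjoin ⟨x, rfl⟩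
  have hπ : ∀ x, ((π x : A₀) : E) = Ψ x := fun x => rfl
  have hgen : Algebra.adjoin O (Set.range π) = ⊤ := by
    rw [eq_top_iff]
    rintro ⟨a, ha⟩ -
    induction ha using Algebra.adjoin_induction with
    | mem y hy =>
      obtain ⟨x, rfl⟩ := hy
      exact Algebra.subset_adjoin ⟨x, rfl⟩
    | algebraMap r => exact Subalgebra.algebraMap_mem _ r
    | add y z hy hz ihy ihz => exact Subalgebra.add_mem _ ihy ihz
    | mul y z hy hz ihy ihz => exact Subalgebra.mul_mem _ ihy ihz
  have hnil' : ∀ s ∈ Set.range π, ∃ c : O, IsNilpotent (s - algebraMap O A₀ c) := by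
    rintro _ ⟨x, rfl⟩
    obtain ⟨c, hc⟩ := hnil x
    refine ⟨c, ?_⟩
    rw [← IsNilpotent.map_iff (f := A₀.val) Subtype.val_injective]
    exact hc
  have hlam' : ∀ c ∈ maximalIdeal O, IsNilpotent (algebraMap O A₀ c) := by
    intro c hc
    rw [← IsNilpotent.map_iff (f := A₀.val) Subtype.val_injective]
    exact hlam c hc
  obtain ⟨hloc, hlh, hsurj, hmem⟩ := rthk_l_local (Set.range π) hgen hnil' hlam'
  refine ⟨A₀, inferInstance, hloc, inferInstance, A₀.val, π, inferInstance,
    Subtype.val_injective, hπ, hgen, hlh, hsurj, hmem, ?_⟩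
  intro x c hc
  rw [hmem, ← IsNilpotent.map_iff (f := A₀.val) Subtype.val_injective]
  exact hc

end Adjoin

end Fermat.Agent.RT


end ZBRT_021_0
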