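/- GENERATED FILE (helper35, build-time optimisation, NOTES/ZB.md): verbatim concatenation of the modules
   Fermat.Agent.RT.K2c.Coeff
   Fermat.Agent.RT.K2c.Local
   Fermat.Agent.RT.P.Cnl
   Fermat.Agent.RT.Even.Patch
   Fermat.Agent.RT.K2c.Quot
   Fermat.Agent.RT.Hecke.AbsLAux
   Fermat.Agent.RT.Prod.HaEven
   Fermat.Agent.RT.Prod.HaPack
   Fermat.Agent.RT.Hecke.Pack
   Fermat.Agent.RT.K1.Coeff
   Fermat.Agent.RT.K1.Coeff2
   Fermat.Agent.RT.Prod.Setup
   Fermat.Agent.RT.Prod.Hyp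
   Fermat.Agent.RT.Prod.SetupDone
   Do not edit; do not import together with these modules. -/
import Mathlib
import Fermat.Agent.ZB.RT_010
import Fermat.Agent.ZB.RT_002
import Fermat.Agent.ZB.RT_021
import Fermat.Agent.ZB.RT_003
import Fermat.Agent.ZB.RT_024
import Fermat.Agent.ZB.RT_018
import Fermat.Agent.ZB.RT_005
import Fermat.Agent.ZB.PT_003
import Fermat.Agent.ZB.EC_008
import Fermat.Agent.ZB.RED_002

/-! ### bundled: `Fermat.Agent.RT.K2c.Coeff` -/
section ZBRT_011_0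
/-
K-machine, piece K2-3 (helper70): power series rings over a complete ring are complete.

`A` a commutative ring, `I` an ideal, `σ` finite, `P = A[[σ]]`, `M = (I, X) ⊆ P`.
* `rtk2cB I n` : the ideal of the `f` with `coeff α f ∈ I ^ (n - |α|)` for all `α`;
* `rtk2c_pow_eq` : `M ^ n = rtk2cB I n`;
* `rtk2c_isPrecomplete` : `A` `I`-adically precomplete ⇒ `P` `M`-adically precomplete.
Mathlib-only.
-/

set_option autoImplicit false

namespace Fermat.Agent.RT.K2c

open MvPowerSeries Finsupp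

variable {σ A : Type*} [CommRing A]

/-- The ideal `(I, X)` of `A[[X]]`. -/
noncomputable def rtk2cM (σ : Type*) {A : Type*} [CommRing A] (I : Ideal A) :
    Ideal (MvPowerSeries σ A) :=
  I.map (MvPowerSeries.C (σ := σ) (R := A)) ⊔
    Ideal.span (Set.range (MvPowerSeries.X : σ → MvPowerSeries σ A))

theorem rtk2c_coeff_mul_mem (I : Ideal A) {m n : ℕ} {f g : MvPowerSeries σ A}
    (hf : ∀ α : σ →₀ ℕ, coeff α f ∈ I ^ (m - degree α))
    (hg : ∀ α : σ →₀ ℕ, coeff α g ∈ I ^ (n - degree α)) (α : σ →₀ ℕ) :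
    coeff α (f * g) ∈ I ^ (m + n - degree α) := by
  classical
  rw [coeff_mul]
  refine Ideal.sum_mem _ ?_
  rintro ⟨β, γ⟩ h
  have hαβ : β + γ = α := Finset.HasAntidiagonal.mem_antidiagonal.mp h
  have hd : degree α = degree β + degree γ := by rw [← hαβ, map_add]
  have h1 : coeff β f * coeff γ g ∈ I ^ (m - degree β) * I ^ (n - degree γ) :=
    Ideal.mul_mem_mul (hf β) (hg γ)
  rw [← pow_add] at h1
  exact Ideal.pow_le_pow_right (by omega) h1

/-- The coefficient filtration: `coeff α f ∈ I ^ (n - |α|)`. -/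
def rtk2cB (σ : Type*) {A : Type*} [CommRing A] (I : Ideal A) (n : ℕ) :
    Ideal (MvPowerSeries σ A) where
  carrier := {f | ∀ α : σ →₀ ℕ, coeff α f ∈ I ^ (n - degree α)}
  zero_mem' := fun α => by simp
  add_mem' := fun {f g} hf hg α => by
    rw [map_add]
    exact Ideal.add_mem _ (hf α) (hg α)
  smul_mem' := fun c f hf α => by
    have h0 : ∀ α : σ →₀ ℕ, coeff α c ∈ I ^ (0 - degree α) := fun α => by simp
    have := rtk2c_coeff_mul_mem I h0 hf α
    rwa [zero_add] at this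

theorem rtk2c_mem_B (I : Ideal A) (n : ℕ) (f : MvPowerSeries σ A) :
    f ∈ rtk2cB σ I n ↔ ∀ α : σ →₀ ℕ, coeff α f ∈ I ^ (n - degree α) := Iff.rfl

theorem rtk2c_B_mul_le (I : Ideal A) (m n : ℕ) :
    rtk2cB σ I m * rtk2cB σ I n ≤ rtk2cB σ I (m + n) := by
  rw [Ideal.mul_le]
  intro f hf g hg α
  exact rtk2c_coeff_mul_mem I hf hg α

theorem rtk2c_B_zero (I : Ideal A) : rtk2cB σ I 0 = ⊤ := by
  rw [eq_top_iff]
  intro f _ α
  simp

theorem rtk2c_M_le_B (I : Ideal A) : rtk2cM σ I ≤ rtk2cB σ I 1 := by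
  classical
  rw [rtk2cM, sup_le_iff, Ideal.map_le_iff_le_comap, Ideal.span_le]
  constructor
  · intro a ha α
    rw [coeff_C]
    split_ifs with h
    · rw [h]
      simpa using ha
    · exact Ideal.zero_mem _
  · rintro _ ⟨i, rfl⟩ α
    rw [coeff_X]
    split_ifs with h
    · rw [h]
      simp
    · exact Ideal.zero_mem _

theorem rtk2c_pow_le_B (I : Ideal A) (n : ℕ) : rtk2cM σ I ^ n ≤ rtk2cB σ I n := by
  induction n with
  | zero => rw [rtk2c_B_zero]; exact le_top
  | succ n ih =>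
    rw [pow_succ]
    exact (Ideal.mul_mono ih (rtk2c_M_le_B I)).trans (rtk2c_B_mul_le I n 1)

theorem rtk2c_algebraMap_mem [Finite σ] (n : ℕ) (a : MvPolynomial σ A)
    (ha : a ∈ MvPolynomial.idealOfVars σ A ^ n) :
    algebraMap (MvPolynomial σ A) (MvPowerSeries σ A) a ∈
      (Ideal.span (Set.range (MvPowerSeries.X : σ → MvPowerSeries σ A))) ^ n := by
  have h1 : Ideal.map (algebraMap (MvPolynomial σ A) (MvPowerSeries σ A))
      (MvPolynomial.idealOfVars σ A) ≤
      Ideal.span (Set.range (MvPowerSeries.X : σ → MvPowerSeries σ A)) := by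
    rw [Ideal.map_span, Ideal.span_le]
    rintro _ ⟨_, ⟨i, rfl⟩, rfl⟩
    refine Ideal.subset_span ⟨i, ?_⟩
    rw [MvPowerSeries.algebraMap_apply', MvPolynomial.coe_X, Algebra.algebraMap_self,
      MvPowerSeries.map_id]
    rfl
  have h2 := Ideal.mem_map_of_mem (algebraMap (MvPolynomial σ A) (MvPowerSeries σ A)) ha
  rw [Ideal.map_pow] at h2
  exact Ideal.pow_right_mono h1 n h2

theorem rtk2c_tail [Finite σ] (n : ℕ) (g : MvPowerSeries σ A)
    (hg : ∀ α : σ →₀ ℕ, degree α < n → coeff α g = 0) :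
    g ∈ (Ideal.span (Set.range (MvPowerSeries.X : σ → MvPowerSeries σ A))) ^ n := by
  classical
  have htr : truncTotal n g = 0 := by
    ext α
    rw [coeff_truncTotal_eq_ite]
    split_ifs with h
    · rw [hg α h]; simp
    · simp
  have h1 : toAdicCompletionAlgEquiv σ A g ∈
      (MvPolynomial.idealOfVars σ A ^ n • ⊤ :
        Submodule (MvPolynomial σ A)
          (AdicCompletion (MvPolynomial.idealOfVars σ A) (MvPolynomial σ A))) := by
    rw [AdicCompletion.pow_smul_top_eq_ker_eval (MvPolynomial.idealOfVars_fg σ A),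
      LinearMap.mem_ker, AdicCompletion.eval_apply, toAdicCompletionAlgEquiv_apply,
      toAdicCompletion_apply_eq_mk_truncTotal, htr]
    rfl
  have h2 : g ∈ (MvPolynomial.idealOfVars σ A ^ n • ⊤ :
        Submodule (MvPolynomial σ A) (MvPowerSeries σ A)) := by
    have h3 : (toAdicCompletionAlgEquiv σ A).symm.toLinearMap (toAdicCompletionAlgEquiv σ A g) ∈
        Submodule.map (toAdicCompletionAlgEquiv σ A).symm.toLinearMap
          (MvPolynomial.idealOfVars σ A ^ n • ⊤ :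
            Submodule (MvPolynomial σ A)
              (AdicCompletion (MvPolynomial.idealOfVars σ A) (MvPolynomial σ A))) :=
      Submodule.mem_map_of_mem h1
    rw [Submodule.map_smul''] at h3
    have h4 : (toAdicCompletionAlgEquiv σ A).symm.toLinearMap (toAdicCompletionAlgEquiv σ A g)
        = g := (toAdicCompletionAlgEquiv σ A).symm_apply_apply g
    rw [h4] at h3
    exact Submodule.smul_mono le_rfl le_top h3
  refine Submodule.smul_induction_on h2 ?_ ?_
  · intro a ha x _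
    rw [Algebra.smul_def]
    exact Ideal.mul_mem_right _ _ (rtk2c_algebraMap_mem n a ha)
  · intro x y hx hy
    exact Ideal.add_mem _ hx hy


theorem rtk2c_monomial_mem [Finite σ] (I : Ideal A) (n : ℕ) (α : σ →₀ ℕ) (c : A)
    (hc : c ∈ I ^ (n - degree α)) :
    MvPowerSeries.monomial α c ∈ rtk2cM σ I ^ n := by
  classical
  by_cases hα : n ≤ degree α
  · refine Ideal.pow_right_mono le_sup_right n (rtk2c_tail n _ fun β hβ => ?_)
    rw [coeff_monomial, if_neg]
    rintro rfl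
    omega
  have h1 : MvPowerSeries.monomial α c =
      MvPowerSeries.C (σ := σ) (R := A) c * MvPowerSeries.monomial α 1 := by
    rw [← monomial_zero_eq_C_apply, monomial_mul_monomial, zero_add, mul_one]
  have h2 : MvPowerSeries.C (σ := σ) (R := A) c ∈ rtk2cM σ I ^ (n - degree α) := by
    have := Ideal.mem_map_of_mem (MvPowerSeries.C (σ := σ) (R := A)) hc
    rw [Ideal.map_pow] at this
    exact Ideal.pow_right_mono le_sup_left _ this
  have h3 : MvPowerSeries.monomial α (1 : A) ∈ rtk2cM σ I ^ (degree α) := by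
    refine Ideal.pow_right_mono le_sup_right _ (rtk2c_tail _ _ fun β hβ => ?_)
    rw [coeff_monomial, if_neg]
    rintro rfl
    omega
  rw [h1]
  have h4 := Ideal.mul_mem_mul h2 h3
  rw [← pow_add] at h4
  have h5 : n - degree α + degree α = n := by omega
  rwa [h5] at h4

theorem rtk2c_poly_mem [Finite σ] (I : Ideal A) (n : ℕ) (p : MvPolynomial σ A)
    (hp : ∀ α : σ →₀ ℕ, p.coeff α ∈ I ^ (n - degree α)) :
    (p : MvPowerSeries σ A) ∈ rtk2cM σ I ^ n := by
  rw [p.as_sum, ← MvPolynomial.coeToMvPowerSeries.ringHom_apply, map_sum]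
  refine Ideal.sum_mem _ fun α _ => ?_
  rw [MvPolynomial.coeToMvPowerSeries.ringHom_apply, MvPolynomial.coe_monomial]
  exact rtk2c_monomial_mem I n α _ (hp α)

theorem rtk2c_B_le_pow [Finite σ] (I : Ideal A) (n : ℕ) : rtk2cB σ I n ≤ rtk2cM σ I ^ n := by
  classical
  intro f hf
  have h1 : ((truncTotal n f : MvPolynomial σ A) : MvPowerSeries σ A) ∈ rtk2cM σ I ^ n := by
    refine rtk2c_poly_mem I n _ fun α => ?_
    rw [coeff_truncTotal_eq_ite]
    split_ifs with h
    · exact hf α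
    · exact Ideal.zero_mem _
  have h2 : f - ((truncTotal n f : MvPolynomial σ A) : MvPowerSeries σ A) ∈ rtk2cM σ I ^ n := by
    refine Ideal.pow_right_mono le_sup_right n (rtk2c_tail n _ fun β hβ => ?_)
    rw [map_sub, MvPolynomial.coeff_coe, coeff_truncTotal _ hβ, sub_self]
  have := Ideal.add_mem _ h1 h2
  rwa [add_sub_cancel] at this

/-- `(I, X) ^ n` is the `n`-th step of the coefficient filtration. -/
theorem rtk2c_pow_eq [Finite σ] (I : Ideal A) (n : ℕ) : rtk2cM σ I ^ n = rtk2cB σ I n :=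
  le_antisymm (rtk2c_pow_le_B I n) (rtk2c_B_le_pow I n)

theorem rtk2c_mem_pow_iff [Finite σ] (I : Ideal A) (n : ℕ) (f : MvPowerSeries σ A) :
    f ∈ rtk2cM σ I ^ n ↔ ∀ α : σ →₀ ℕ, coeff α f ∈ I ^ (n - degree α) := by
  rw [rtk2c_pow_eq]
  rfl

/-- `A[[σ]]` is `(I, X)`-adically precomplete if `A` is `I`-adically precomplete. -/
theorem rtk2c_isPrecomplete [Finite σ] (I : Ideal A) [IsPrecomplete I A] :
    IsPrecomplete (rtk2cM σ I) (MvPowerSeries σ A) := by
  refine ⟨fun f hf => ?_⟩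
  have hc : ∀ α : σ →₀ ℕ, ∃ a : A, ∀ j : ℕ,
      coeff α (f (j + degree α)) ≡ a [SMOD (I ^ j • ⊤ : Submodule A A)] := by
    intro α
    refine IsPrecomplete.prec ‹IsPrecomplete I A› (f := fun j => coeff α (f (j + degree α))) ?_
    intro j j' hjj'
    have h1 := hf (m := j + degree α) (n := j' + degree α) (by omega)
    rw [SModEq.sub_mem, smul_eq_mul, Ideal.mul_top, rtk2c_mem_pow_iff] at h1
    have h2 := h1 α
    rw [SModEq.sub_mem, smul_eq_mul, Ideal.mul_top]
    rw [map_sub] at h2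
    have h3 : j + degree α - degree α = j := by omega
    rwa [h3] at h2
  choose a ha using hc
  obtain ⟨L, hL⟩ : ∃ L : MvPowerSeries σ A, ∀ α, coeff α L = a α := ⟨fun α => a α, fun α => rfl⟩
  refine ⟨L, fun n => ?_⟩
  rw [SModEq.sub_mem, smul_eq_mul, Ideal.mul_top, rtk2c_mem_pow_iff]
  intro α
  by_cases hα : degree α ≤ n
  · have h1 := ha α (n - degree α)
    rw [SModEq.sub_mem, smul_eq_mul, Ideal.mul_top] at h1
    have h2 : n - degree α + degree α = n := by omega
    rw [h2] at h1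
    rw [map_sub, hL]
    exact h1
  · have h1 : n - degree α = 0 := by omega
    rw [h1, pow_zero, Ideal.one_eq_top]
    trivial

end Fermat.Agent.RT.K2c


end ZBRT_011_0

/-! ### bundled: `Fermat.Agent.RT.K2c.Local` -/
section ZBRT_011_1
/-
K-machine, piece K2-3 (helper70): complete Noetherian local rings with finite residue field.

* `rtk2c_maximalIdeal_eq`   : `𝔪_{A[[σ]]} = (𝔪_A, X)`;
* `rtk2c_isAdicComplete`    : `A` complete Noetherian local ⇒ `A[[σ]]` complete (`σ` finite);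
* `rtk2c_finite_residueField` : the residue field of `A[[σ]]` is finite if that of `A` is;
* `rtk2c_finite_quotient_pow` : `R ⧸ 𝔪 ^ k` is finite (`R` Noetherian local, finite residue field);
* `rtk2c_isPrecomplete_of_surjective`, `rtk2c_isAdicComplete_of_surjective`,
  `rtk2c_finite_residueField_of_surjective` : quotients;
* `rtk2c_closed`, `rtk2c_closed_submodule` : ideals and submodules are closed.
Mathlib-only.
-/

set_option autoImplicit false

namespace Fermat.Agent.RT.K2c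

open MvPowerSeries Finsupp IsLocalRing

section PowerSeries

variable {σ A : Type*} [CommRing A] [IsLocalRing A] [Finite σ]

omit [IsLocalRing A] in
theorem rtk2c_mem_M_iff (I : Ideal A) (f : MvPowerSeries σ A) :
    f ∈ rtk2cM σ I ↔ constantCoeff f ∈ I := by
  rw [← pow_one (rtk2cM σ I), rtk2c_mem_pow_iff]
  constructor
  · intro h
    have := h 0
    simpa using this
  · intro h α
    by_cases hα : α = 0
    · subst hα
      simpa using h
    · have h1 : degree α ≠ 0 := fun h0 => hα ((degree_eq_zero_iff α).mp h0)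
      have h2 : 1 - degree α = 0 := by omega
      rw [h2, pow_zero, Ideal.one_eq_top]
      trivial

/-- `𝔪_{A[[σ]]} = (𝔪_A, X)`. -/
theorem rtk2c_maximalIdeal_eq :
    maximalIdeal (MvPowerSeries σ A) = rtk2cM σ (maximalIdeal A) := by
  ext f
  rw [rtk2c_mem_M_iff, mem_maximalIdeal, mem_maximalIdeal, mem_nonunits_iff, mem_nonunits_iff,
    MvPowerSeries.isUnit_iff_constantCoeff]

/-- `A[[σ]]` is complete if `A` is a complete Noetherian local ring. -/
theorem rtk2c_isAdicComplete [IsNoetherianRing A] [IsAdicComplete (maximalIdeal A) A] :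
    IsAdicComplete (maximalIdeal (MvPowerSeries σ A)) (MvPowerSeries σ A) := by
  have h1 : IsPrecomplete (maximalIdeal (MvPowerSeries σ A)) (MvPowerSeries σ A) := by
    rw [rtk2c_maximalIdeal_eq]
    exact rtk2c_isPrecomplete (maximalIdeal A)
  exact { toIsHausdorff := inferInstance, toIsPrecomplete := h1 }

theorem rtk2c_sub_C_mem (f : MvPowerSeries σ A) :
    f - MvPowerSeries.C (σ := σ) (R := A) (constantCoeff f) ∈
      maximalIdeal (MvPowerSeries σ A) := by
  rw [rtk2c_maximalIdeal_eq, rtk2c_mem_M_iff, map_sub, constantCoeff_C, sub_self]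
  exact Ideal.zero_mem _

/-- The residue field of `A[[σ]]` is finite if the residue field of `A` is finite. -/
theorem rtk2c_finite_residueField [Finite (ResidueField A)] :
    Finite (ResidueField (MvPowerSeries σ A)) := by
  let g : A →+* ResidueField (MvPowerSeries σ A) :=
    (residue (MvPowerSeries σ A)).comp (MvPowerSeries.C (σ := σ) (R := A))
  have hg : ∀ a ∈ maximalIdeal A, g a = 0 := by
    intro a ha
    show residue (MvPowerSeries σ A) (MvPowerSeries.C a) = 0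
    rw [residue_eq_zero_iff, rtk2c_maximalIdeal_eq, rtk2c_mem_M_iff, constantCoeff_C]
    exact ha
  let g' : ResidueField A →+* ResidueField (MvPowerSeries σ A) :=
    Ideal.Quotient.lift (maximalIdeal A) g hg
  have hsurj : Function.Surjective g' := by
    intro y
    obtain ⟨f, rfl⟩ := residue_surjective y
    refine ⟨residue A (constantCoeff f), ?_⟩
    show g (constantCoeff f) = residue _ f
    rw [eq_comm, ← sub_eq_zero]
    show residue _ f - residue _ (MvPowerSeries.C (constantCoeff f)) = 0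
    rw [← map_sub, residue_eq_zero_iff]
    exact rtk2c_sub_C_mem f
  exact Finite.of_surjective g' hsurj

end PowerSeries

section General

variable {R : Type*} [CommRing R]

/-- `R ⧸ 𝔪 ^ k` is finite for a Noetherian local ring with finite residue field. -/
theorem rtk2c_finite_quotient_pow [IsLocalRing R] [IsNoetherianRing R]
    [Finite (ResidueField R)] (k : ℕ) : Finite (R ⧸ maximalIdeal R ^ k) := by
  have : Finite (R ⧸ maximalIdeal R) := ‹Finite (ResidueField R)›
  exact Ideal.finite_quotient_pow (IsNoetherian.noetherian (maximalIdeal R)) k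

/-- Ideals of a Noetherian ring are closed for the `I`-adic topology, `I ≤ rad R`. -/
theorem rtk2c_closed_of_le_jacobson [IsNoetherianRing R] (I : Ideal R)
    (hI : I ≤ Ideal.jacobson ⊥) (𝔞 : Ideal R) (s : R) (hs : ∀ n, s ∈ 𝔞 ⊔ I ^ n) : s ∈ 𝔞 := by
  have hH : IsHausdorff I (R ⧸ 𝔞) := IsHausdorff.of_le_jacobson I (R ⧸ 𝔞) hI
  rw [← Ideal.Quotient.eq_zero_iff_mem]
  refine hH.haus _ fun n => ?_
  rw [SModEq.zero]
  obtain ⟨a, ha, b, hb, rfl⟩ := Submodule.mem_sup.mp (hs n)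
  rw [map_add, Ideal.Quotient.eq_zero_iff_mem.mpr ha, zero_add]
  have : Ideal.Quotient.mk 𝔞 b = b • (1 : R ⧸ 𝔞) := by
    rw [Algebra.smul_def, mul_one]; rfl
  rw [this]
  exact Submodule.smul_mem_smul hb Submodule.mem_top

/-- Ideals of a Noetherian local ring are closed. -/
theorem rtk2c_closed [IsLocalRing R] [IsNoetherianRing R] (𝔞 : Ideal R) (s : R)
    (hs : ∀ n, s ∈ 𝔞 ⊔ maximalIdeal R ^ n) : s ∈ 𝔞 :=
  rtk2c_closed_of_le_jacobson (maximalIdeal R) (maximalIdeal_le_jacobson ⊥) 𝔞 s hs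

/-- Submodules of a finite module over a Noetherian ring are closed, `I ≤ rad R`. -/
theorem rtk2c_closed_submodule [IsNoetherianRing R] (I : Ideal R) (hI : I ≤ Ideal.jacobson ⊥)
    {M : Type*} [AddCommGroup M] [Module R M] [Module.Finite R M] (N : Submodule R M) (x : M)
    (hx : ∀ n, ∃ y ∈ N, x - y ∈ (I ^ n • ⊤ : Submodule R M)) : x ∈ N := by
  have hH : IsHausdorff I (M ⧸ N) := IsHausdorff.of_le_jacobson I (M ⧸ N) hI
  rw [← Submodule.Quotient.mk_eq_zero]
  refine hH.haus _ fun n => ?_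
  rw [SModEq.zero]
  obtain ⟨y, hy, hxy⟩ := hx n
  have h1 : (Submodule.Quotient.mk x : M ⧸ N) = N.mkQ (x - y) := by
    rw [Submodule.mkQ_apply, Submodule.Quotient.mk_sub, (Submodule.Quotient.mk_eq_zero N).mpr hy,
      sub_zero]
  rw [h1]
  have h2 : N.mkQ (x - y) ∈ Submodule.map N.mkQ (I ^ n • ⊤ : Submodule R M) :=
    Submodule.mem_map_of_mem hxy
  rw [Submodule.map_smul''] at h2
  exact Submodule.smul_mono le_rfl le_top h2

end General

section Quotient

variable {P R : Type*} [CommRing P] [CommRing R]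

/-- A quotient of a precomplete ring is precomplete. -/
theorem rtk2c_isPrecomplete_of_surjective (f : P →+* R) (hf : Function.Surjective f)
    (J : Ideal P) [IsPrecomplete J P] : IsPrecomplete (J.map f) R := by
  refine ⟨fun r hr => ?_⟩
  have hstep : ∀ n, ∃ e ∈ J ^ n, f e = r (n + 1) - r n := by
    intro n
    have h1 := hr (m := n) (n := n + 1) (Nat.le_succ n)
    rw [SModEq.sub_mem, smul_eq_mul, Ideal.mul_top, ← Ideal.map_pow] at h1
    have h2 : r (n + 1) - r n ∈ Ideal.map f (J ^ n) := by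
      have := Ideal.neg_mem_iff _ |>.mpr h1
      rwa [neg_sub] at this
    exact (Ideal.mem_map_iff_of_surjective f hf).mp h2
  choose e he hfe using hstep
  obtain ⟨x0, hx0⟩ := hf (r 0)
  let x : ℕ → P := fun n => Nat.rec x0 (fun k xk => xk + e k) n
  have hx_succ : ∀ n, x (n + 1) = x n + e n := fun n => rfl
  have hfx : ∀ n, f (x n) = r n := by
    intro n
    induction n with
    | zero => exact hx0
    | succ n ih => rw [hx_succ, map_add, ih, hfe]; ring
  have hcauchy : ∀ {m n : ℕ}, m ≤ n → x m ≡ x n [SMOD (J ^ m • ⊤ : Submodule P P)] := by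
    intro m n hmn
    induction n, hmn using Nat.le_induction with
    | base => rfl
    | succ n hmn ih =>
      refine ih.trans ?_
      rw [SModEq.sub_mem, smul_eq_mul, Ideal.mul_top, hx_succ, sub_add_cancel_left]
      exact Ideal.neg_mem_iff _ |>.mpr (Ideal.pow_le_pow_right hmn (he n))
  obtain ⟨L, hL⟩ := IsPrecomplete.prec ‹IsPrecomplete J P› hcauchy
  refine ⟨f L, fun n => ?_⟩
  have h1 := hL n
  rw [SModEq.sub_mem, smul_eq_mul, Ideal.mul_top] at h1 ⊢
  rw [← hfx, ← map_sub, ← Ideal.map_pow]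
  exact Ideal.mem_map_of_mem f h1

variable [IsLocalRing P] [IsLocalRing R]

theorem rtk2c_map_maximalIdeal (f : P →+* R) (hf : Function.Surjective f) :
    (maximalIdeal P).map f = maximalIdeal R := by
  have : IsLocalHom f := hf.isLocalHom f
  refine le_antisymm ?_ ?_
  · rw [Ideal.map_le_iff_le_comap]
    intro x hx
    rw [Ideal.mem_comap, mem_maximalIdeal, mem_nonunits_iff]
    intro hu
    exact (mem_maximalIdeal x).mp hx (isUnit_of_map_unit f x hu)
  · intro y hy
    obtain ⟨x, rfl⟩ := hf y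
    refine Ideal.mem_map_of_mem f ?_
    rw [mem_maximalIdeal, mem_nonunits_iff]
    intro hu
    exact (mem_maximalIdeal _).mp hy (hu.map f)

/-- A quotient of a complete Noetherian local ring is complete. -/
theorem rtk2c_isAdicComplete_of_surjective [IsNoetherianRing P]
    [IsAdicComplete (maximalIdeal P) P] (f : P →+* R) (hf : Function.Surjective f) :
    IsAdicComplete (maximalIdeal R) R := by
  have hN : IsNoetherianRing R := isNoetherianRing_of_surjective P R f hf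
  have h1 : IsPrecomplete (maximalIdeal R) R := by
    rw [← rtk2c_map_maximalIdeal f hf]
    exact rtk2c_isPrecomplete_of_surjective f hf (maximalIdeal P)
  exact { toIsHausdorff := inferInstance, toIsPrecomplete := h1 }

theorem rtk2c_finite_residueField_of_surjective [Finite (ResidueField P)] (f : P →+* R)
    (hf : Function.Surjective f) : Finite (ResidueField R) := by
  have : IsLocalHom f := hf.isLocalHom f
  refine Finite.of_surjective (ResidueField.map f) ?_
  intro y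
  obtain ⟨r, rfl⟩ := residue_surjective y
  obtain ⟨x, rfl⟩ := hf r
  exact ⟨residue P x, rfl⟩

end Quotient

end Fermat.Agent.RT.K2c


end ZBRT_011_1

/-! ### bundled: `Fermat.Agent.RT.P.Cnl` -/
section ZBRT_011_2
/-
RT-P (patching), wrappers (helper70): the hypotheses of `rtp_patch` for complete Noetherian local
rings with finite residue field, and for quotients of power series rings.

* `rtp_closed_submodule` : an `S`-submodule of `M_d(S ⧸ 𝔞)` is closed (hypothesis `hT0`);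
* `rtp_patch_cnl`        : `rtp_patch` for `S`, `R1`, `Rχ` complete Noetherian local with finite
                           residue fields, `I = 𝔪_S`;
* `rtp_patch_powerSeries`: `rtp_patch` for `S = O[[σ]]` and `R1`, `Rχ` quotients of power series
                           rings over `O` (`O` complete Noetherian local, finite residue field).
Mathlib-only.
-/

set_option autoImplicit false

namespace Fermat.Agent.RT.P

open Ideal IsLocalRing Fermat.Agent.RT.K2c

section Closed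

variable {S : Type*} [CommRing S] {d : ℕ}

theorem rtp_mem_smul_top_of_entries (I 𝔞 : Ideal S) (n : ℕ)
    (u : Matrix (Fin d) (Fin d) (S ⧸ 𝔞))
    (hu : u.map (Ideal.Quotient.factor (le_sup_left : 𝔞 ≤ 𝔞 ⊔ I ^ n)) = 0) :
    u ∈ (I ^ n • ⊤ : Submodule S (Matrix (Fin d) (Fin d) (S ⧸ 𝔞))) := by
  have hent : ∀ i j, ∃ b ∈ I ^ n, u i j = Ideal.Quotient.mk 𝔞 b := by
    intro i j
    have h1 : Ideal.Quotient.factor (le_sup_left : 𝔞 ≤ 𝔞 ⊔ I ^ n) (u i j) = 0 := by
      have := congrFun (congrFun hu i) j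
      simpa using this
    obtain ⟨s, hs⟩ := Ideal.Quotient.mk_surjective (u i j)
    rw [← hs, Ideal.Quotient.factor_mk, Ideal.Quotient.eq_zero_iff_mem] at h1
    obtain ⟨a, ha, b, hb, rfl⟩ := Submodule.mem_sup.mp h1
    refine ⟨b, hb, ?_⟩
    rw [← hs, map_add, Ideal.Quotient.eq_zero_iff_mem.mpr ha, zero_add]
  choose b hb hbe using hent
  rw [Matrix.matrix_eq_sum_single u]
  refine Submodule.sum_mem _ fun i _ => Submodule.sum_mem _ fun j _ => ?_
  have h2 : Matrix.single i j (u i j) = b i j • Matrix.single i j (1 : S ⧸ 𝔞) := by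
    rw [Matrix.smul_single, hbe i j, Algebra.smul_def, mul_one]
    rfl
  rw [h2]
  exact Submodule.smul_mem_smul (hb i j) Submodule.mem_top

/-- An `S`-submodule of `M_d(S ⧸ 𝔞)` satisfies the closedness hypothesis `hT0` of `rtp_patch`. -/
theorem rtp_closed_submodule [IsNoetherianRing S] (I 𝔞 : Ideal S) (hI : I ≤ Ideal.jacobson ⊥)
    (N : Submodule S (Matrix (Fin d) (Fin d) (S ⧸ 𝔞))) (t : Matrix (Fin d) (Fin d) (S ⧸ 𝔞))
    (ht : ∀ n, ∃ t' ∈ (N : Set (Matrix (Fin d) (Fin d) (S ⧸ 𝔞))),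
      t.map (Ideal.Quotient.factor (le_sup_left : 𝔞 ≤ 𝔞 ⊔ I ^ n)) =
        t'.map (Ideal.Quotient.factor (le_sup_left : 𝔞 ≤ 𝔞 ⊔ I ^ n))) :
    t ∈ (N : Set (Matrix (Fin d) (Fin d) (S ⧸ 𝔞))) := by
  have hfin : Module.Finite S (Matrix (Fin d) (Fin d) (S ⧸ 𝔞)) :=
    inferInstanceAs (Module.Finite S (Fin d → Fin d → S ⧸ 𝔞))
  refine rtk2c_closed_submodule I hI N t fun n => ?_
  obtain ⟨t', ht', h⟩ := ht n
  refine ⟨t', ht', rtp_mem_smul_top_of_entries I 𝔞 n _ ?_⟩
  ext i j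
  have := congrFun (congrFun h i) j
  simp only [Matrix.map_apply, Matrix.sub_apply, Matrix.zero_apply, map_sub] at this ⊢
  rw [this, sub_self]

end Closed

section Cnl

variable {O : Type*} [CommRing O] {S : Type*} [CommRing S] [Algebra O S] (𝔞 𝔩 : Ideal S)
  {R0 : Type*} [CommRing R0] [Algebra O R0]
  {R1 : Type*} [CommRing R1] [Algebra O R1]
  {Rχ : Type*} [CommRing Rχ] [Algebra O Rχ]
  (ι : R0 →ₐ[O] R1) {d : ℕ}
  (θ : R0 →ₐ[O] Matrix (Fin d) (Fin d) (S ⧸ 𝔞))
  (E : R1 → Rχ → Prop)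

/-- **Patching for complete Noetherian local rings with finite residue fields.** -/
theorem rtp_patch_cnl [IsNoetherianRing S] [IsLocalRing S] [IsAdicComplete (maximalIdeal S) S]
    [Finite (ResidueField S)]
    [IsNoetherianRing R1] [IsLocalRing R1] [IsPrecomplete (maximalIdeal R1) R1]
    [Finite (ResidueField R1)]
    [IsNoetherianRing Rχ] [IsLocalRing Rχ] [IsPrecomplete (maximalIdeal Rχ) Rχ]
    [Finite (ResidueField Rχ)]
    (N : Submodule S (Matrix (Fin d) (Fin d) (S ⧸ 𝔞)))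
    (hlev : ∀ n, ∃ ρ1 ρχ, RtpLevel (maximalIdeal S) 𝔞 𝔩 ι θ
      (N : Set (Matrix (Fin d) (Fin d) (S ⧸ 𝔞))) E n ρ1 ρχ) :
    ∃ ρ1 ρχ, RtpPatched 𝔞 𝔩 ι θ (N : Set (Matrix (Fin d) (Fin d) (S ⧸ 𝔞))) E ρ1 ρχ :=
  rtp_patch (maximalIdeal S) 𝔞 𝔩 ι θ _ E (fun n => rtk2c_finite_quotient_pow n)
    (rtk2c_closed 𝔞) (rtk2c_closed 𝔩)
    (rtp_closed_submodule (maximalIdeal S) 𝔞 (maximalIdeal_le_jacobson ⊥) N)
    (maximalIdeal R1) (maximalIdeal_le_jacobson ⊥) (fun k => rtk2c_finite_quotient_pow k)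
    (maximalIdeal Rχ) (maximalIdeal_le_jacobson ⊥) (fun k => rtk2c_finite_quotient_pow k)
    hlev

end Cnl

section PowerSeries

variable {O : Type*} [CommRing O] [IsLocalRing O] [IsNoetherianRing O]
  [IsAdicComplete (maximalIdeal O) O] [Finite (ResidueField O)]
  {σ τ1 τχ : Type*} [Finite σ] [Finite τ1] [Finite τχ]
  (𝔞 𝔩 : Ideal (MvPowerSeries σ O))
  {R0 : Type*} [CommRing R0] [Algebra O R0]
  {R1 : Type*} [CommRing R1] [Algebra O R1] [Nontrivial R1]
  {Rχ : Type*} [CommRing Rχ] [Algebra O Rχ] [Nontrivial Rχ]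
  (ι : R0 →ₐ[O] R1) {d : ℕ}
  (θ : R0 →ₐ[O] Matrix (Fin d) (Fin d) (MvPowerSeries σ O ⧸ 𝔞))
  (E : R1 → Rχ → Prop)

/-- **Patching for quotients of power series rings**: `S = O[[σ]]`, `R1` and `Rχ` quotients of
power series rings over `O`, where `O` is a complete Noetherian local ring with finite residue
field; `T0 = N` is an `S`-submodule of `M_d(S ⧸ 𝔞)`. -/
theorem rtp_patch_powerSeries
    (f1 : MvPowerSeries τ1 O →+* R1) (hf1 : Function.Surjective f1)
    (fχ : MvPowerSeries τχ O →+* Rχ) (hfχ : Function.Surjective fχ)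
    (N : Submodule (MvPowerSeries σ O) (Matrix (Fin d) (Fin d) (MvPowerSeries σ O ⧸ 𝔞)))
    (hlev : ∀ n, ∃ ρ1 ρχ, RtpLevel (maximalIdeal (MvPowerSeries σ O)) 𝔞 𝔩 ι θ
      (N : Set (Matrix (Fin d) (Fin d) (MvPowerSeries σ O ⧸ 𝔞))) E n ρ1 ρχ) :
    ∃ ρ1 ρχ, RtpPatched 𝔞 𝔩 ι θ
      (N : Set (Matrix (Fin d) (Fin d) (MvPowerSeries σ O ⧸ 𝔞))) E ρ1 ρχ := by
  have hS : IsAdicComplete (maximalIdeal (MvPowerSeries σ O)) (MvPowerSeries σ O) :=
    rtk2c_isAdicComplete
  have hSf : Finite (ResidueField (MvPowerSeries σ O)) := rtk2c_finite_residueField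
  have hP1 : IsAdicComplete (maximalIdeal (MvPowerSeries τ1 O)) (MvPowerSeries τ1 O) :=
    rtk2c_isAdicComplete
  have hP1f : Finite (ResidueField (MvPowerSeries τ1 O)) := rtk2c_finite_residueField
  have hPχ : IsAdicComplete (maximalIdeal (MvPowerSeries τχ O)) (MvPowerSeries τχ O) :=
    rtk2c_isAdicComplete
  have hPχf : Finite (ResidueField (MvPowerSeries τχ O)) := rtk2c_finite_residueField
  have hR1l : IsLocalRing R1 := IsLocalRing.of_surjective' f1 hf1
  have hRχl : IsLocalRing Rχ := IsLocalRing.of_surjective' fχ hfχ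
  have hR1n : IsNoetherianRing R1 := isNoetherianRing_of_surjective _ R1 f1 hf1
  have hRχn : IsNoetherianRing Rχ := isNoetherianRing_of_surjective _ Rχ fχ hfχ
  have hR1c : IsAdicComplete (maximalIdeal R1) R1 := rtk2c_isAdicComplete_of_surjective f1 hf1
  have hRχc : IsAdicComplete (maximalIdeal Rχ) Rχ := rtk2c_isAdicComplete_of_surjective fχ hfχ
  have hR1f : Finite (ResidueField R1) := rtk2c_finite_residueField_of_surjective f1 hf1
  have hRχf : Finite (ResidueField Rχ) := rtk2c_finite_residueField_of_surjective fχ hfχ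
  exact rtp_patch_cnl 𝔞 𝔩 ι θ E N hlev

end PowerSeries

end Fermat.Agent.RT.P


end ZBRT_011_2

/-! ### bundled: `Fermat.Agent.RT.Even.Patch` -/
section ZBRT_011_3
/-
K-machine (row 37 / S59), piece EVEN, part (d): PATCHING WITH A RESTRICTED SET OF SCALARS.
(helper27)   Mathlib-only (on top of `RT/P`).

In the symmetric Taylor–Wiles design the rings `R¹`, `R^χ` only see the EVEN power series
`S^ev ⊆ S`.  This file is the fork of the patching theorem `rtp_patch` (`RT/P/Main.lean`) in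
which the conditions `scal1`, `scalχ` ("`S` acts through `R`") are asked for the scalars in a
given subset `Ev ⊆ S` only.  Nothing else changes: the limit argument treats every scalar
separately (`rtp_scal_limit`).

* `RtevenLevel`   : the conditions at level `n` (= `RtpLevel` with `scal` for `s ∈ Ev`);
* `RtevenPatched` : the conditions on the patched pair (= `RtpPatched` with `scal` for `s ∈ Ev`);
* `rteven_patch`, `rteven_patch_cnl`, `rteven_patch_powerSeries` : the patching theorem and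
  its two wrappers.
-/

set_option autoImplicit false

namespace Fermat.Agent.RT.Even

open Ideal IsLocalRing Fermat.Agent.RT.P Fermat.Agent.RT.K2c

section Defs

variable {O : Type*} [CommRing O] {S : Type*} [CommRing S] [Algebra O S] (I 𝔞 𝔩 : Ideal S)
  {R0 : Type*} [CommRing R0] [Algebra O R0]
  {R1 : Type*} [CommRing R1] [Algebra O R1]
  {Rχ : Type*} [CommRing Rχ] [Algebra O Rχ]
  (ι : R0 →ₐ[O] R1) {d : ℕ}
  (θ : R0 →ₐ[O] Matrix (Fin d) (Fin d) (S ⧸ 𝔞))
  (T0 : Set (Matrix (Fin d) (Fin d) (S ⧸ 𝔞)))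
  (E : R1 → Rχ → Prop) (Ev : Set S)

/-- The conditions at level `n`, with scalars in `Ev` only. -/
structure RtevenLevel (n : ℕ) (ρ1 : R1 →ₐ[O] Matrix (Fin d) (Fin d) (S ⧸ I ^ n))
    (ρχ : Rχ →ₐ[O] Matrix (Fin d) (Fin d) (S ⧸ I ^ n)) : Prop where
  base_loc : ∀ r0 : R0,
    (ρ1 (ι r0)).map (Ideal.Quotient.factor (le_sup_right : I ^ n ≤ 𝔞 ⊔ I ^ n)) =
      (θ r0).map (Ideal.Quotient.factor (le_sup_left : 𝔞 ≤ 𝔞 ⊔ I ^ n))
  base_T0 : ∀ r1 : R1, ∃ t ∈ T0,
    (ρ1 r1).map (Ideal.Quotient.factor (le_sup_right : I ^ n ≤ 𝔞 ⊔ I ^ n)) =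
      t.map (Ideal.Quotient.factor (le_sup_left : 𝔞 ≤ 𝔞 ⊔ I ^ n))
  cong : ∀ r1 rχ, E r1 rχ →
    (ρ1 r1).map (Ideal.Quotient.factor (le_sup_right : I ^ n ≤ 𝔩 ⊔ I ^ n)) =
      (ρχ rχ).map (Ideal.Quotient.factor (le_sup_right : I ^ n ≤ 𝔩 ⊔ I ^ n))
  scal1 : ∀ s ∈ Ev, ∃ r, ρ1 r = algebraMap S (Matrix (Fin d) (Fin d) (S ⧸ I ^ n)) s
  scalχ : ∀ s ∈ Ev, ∃ r, ρχ r = algebraMap S (Matrix (Fin d) (Fin d) (S ⧸ I ^ n)) s

/-- The conditions on the patched pair, with scalars in `Ev` only. -/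
structure RtevenPatched (ρ1 : R1 →ₐ[O] Matrix (Fin d) (Fin d) S)
    (ρχ : Rχ →ₐ[O] Matrix (Fin d) (Fin d) S) : Prop where
  base_loc : ∀ r0 : R0, (ρ1 (ι r0)).map (Ideal.Quotient.mk 𝔞) = θ r0
  base_T0 : ∀ r1 : R1, (ρ1 r1).map (Ideal.Quotient.mk 𝔞) ∈ T0
  cong : ∀ r1 rχ, E r1 rχ →
    (ρ1 r1).map (Ideal.Quotient.mk 𝔩) = (ρχ rχ).map (Ideal.Quotient.mk 𝔩)
  scal1 : ∀ s ∈ Ev, ∃ r, ρ1 r = algebraMap S (Matrix (Fin d) (Fin d) S) s
  scalχ : ∀ s ∈ Ev, ∃ r, ρχ r = algebraMap S (Matrix (Fin d) (Fin d) S) s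

variable {I 𝔞 𝔩 ι θ T0 E Ev}

/-- A level datum with all scalars is a level datum with scalars in `Ev`. -/
theorem RtevenLevel.of_rtpLevel {n : ℕ} {ρ1 : R1 →ₐ[O] Matrix (Fin d) (Fin d) (S ⧸ I ^ n)}
    {ρχ : Rχ →ₐ[O] Matrix (Fin d) (Fin d) (S ⧸ I ^ n)}
    (H : RtpLevel I 𝔞 𝔩 ι θ T0 E n ρ1 ρχ) : RtevenLevel I 𝔞 𝔩 ι θ T0 E Ev n ρ1 ρχ :=
  ⟨H.base_loc, H.base_T0, H.cong, fun s _ => H.scal1 s, fun s _ => H.scalχ s⟩

theorem RtevenLevel.reduce {m n : ℕ} (h : m ≤ n)
    {ρ1 : R1 →ₐ[O] Matrix (Fin d) (Fin d) (S ⧸ I ^ n)}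
    {ρχ : Rχ →ₐ[O] Matrix (Fin d) (Fin d) (S ⧸ I ^ n)}
    (H : RtevenLevel I 𝔞 𝔩 ι θ T0 E Ev n ρ1 ρχ) :
    RtevenLevel I 𝔞 𝔩 ι θ T0 E Ev m (rtpRed I h ρ1) (rtpRed I h ρχ) := by
  have hpow : I ^ n ≤ I ^ m := Ideal.pow_le_pow_right h
  have h𝔞 : 𝔞 ⊔ I ^ n ≤ 𝔞 ⊔ I ^ m := sup_le_sup_left hpow 𝔞
  have h𝔩 : 𝔩 ⊔ I ^ n ≤ 𝔩 ⊔ I ^ m := sup_le_sup_left hpow 𝔩
  refine ⟨?_, ?_, ?_, ?_, ?_⟩
  · intro r0
    have := congrArg (fun M => M.map (Ideal.Quotient.factor h𝔞)) (H.base_loc r0)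
    simp only [rtp_map_factor_factor] at this
    rw [rtpRed_apply, rtp_map_factor_factor]
    exact this
  · intro r1
    obtain ⟨t, ht, h1⟩ := H.base_T0 r1
    refine ⟨t, ht, ?_⟩
    have := congrArg (fun M => M.map (Ideal.Quotient.factor h𝔞)) h1
    simp only [rtp_map_factor_factor] at this
    rw [rtpRed_apply, rtp_map_factor_factor]
    exact this
  · intro r1 rχ hE
    have := congrArg (fun M => M.map (Ideal.Quotient.factor h𝔩)) (H.cong r1 rχ hE)
    simp only [rtp_map_factor_factor] at this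
    rw [rtpRed_apply, rtpRed_apply, rtp_map_factor_factor, rtp_map_factor_factor]
    exact this
  · intro s hs
    obtain ⟨r, hr⟩ := H.scal1 s hs
    refine ⟨r, ?_⟩
    rw [rtpRed_apply, hr, rtp_map_algebraMap_factor]
  · intro s hs
    obtain ⟨r, hr⟩ := H.scalχ s hs
    refine ⟨r, ?_⟩
    rw [rtpRed_apply, hr, rtp_map_algebraMap_factor]

end Defs

section Main

variable {O : Type*} [CommRing O] {S : Type*} [CommRing S] [Algebra O S] (I 𝔞 𝔩 : Ideal S)
  {R0 : Type*} [CommRing R0] [Algebra O R0]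
  {R1 : Type*} [CommRing R1] [Algebra O R1]
  {Rχ : Type*} [CommRing Rχ] [Algebra O Rχ]
  (ι : R0 →ₐ[O] R1) {d : ℕ}
  (θ : R0 →ₐ[O] Matrix (Fin d) (Fin d) (S ⧸ 𝔞))
  (T0 : Set (Matrix (Fin d) (Fin d) (S ⧸ 𝔞)))
  (E : R1 → Rχ → Prop) (Ev : Set S)

/-- **The patching theorem (matrix core), scalars in `Ev` only.** -/
theorem rteven_patch [IsAdicComplete I S] (hS : ∀ n, Finite (S ⧸ I ^ n))
    (h𝔞 : ∀ s, (∀ n, s ∈ 𝔞 ⊔ I ^ n) → s ∈ 𝔞) (h𝔩 : ∀ s, (∀ n, s ∈ 𝔩 ⊔ I ^ n) → s ∈ 𝔩)
    (hT0 : ∀ t : Matrix (Fin d) (Fin d) (S ⧸ 𝔞),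
      (∀ n, ∃ t' ∈ T0, t.map (Ideal.Quotient.factor (le_sup_left : 𝔞 ≤ 𝔞 ⊔ I ^ n)) =
        t'.map (Ideal.Quotient.factor (le_sup_left : 𝔞 ≤ 𝔞 ⊔ I ^ n))) → t ∈ T0)
    (J1 : Ideal R1) (hJ1 : J1 ≤ Ideal.jacobson ⊥) [IsPrecomplete J1 R1]
    (hR1 : ∀ k, Finite (R1 ⧸ J1 ^ k))
    (Jχ : Ideal Rχ) (hJχ : Jχ ≤ Ideal.jacobson ⊥) [IsPrecomplete Jχ Rχ]
    (hRχ : ∀ k, Finite (Rχ ⧸ Jχ ^ k))
    (hlev : ∀ n, ∃ ρ1 ρχ, RtevenLevel I 𝔞 𝔩 ι θ T0 E Ev n ρ1 ρχ) :
    ∃ ρ1 ρχ, RtevenPatched 𝔞 𝔩 ι θ T0 E Ev ρ1 ρχ := by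
  classical
  have hfinM : ∀ n, Finite (Matrix (Fin d) (Fin d) (S ⧸ I ^ n)) := fun n => by
    have := hS n
    exact inferInstanceAs (Finite (Fin d → Fin d → S ⧸ I ^ n))
  have hfin1 : ∀ n, Finite (R1 →ₐ[O] Matrix (Fin d) (Fin d) (S ⧸ I ^ n)) := fun n => by
    have := hfinM n
    exact rtp_finite_algHom J1 hJ1 hR1
  have hfinχ : ∀ n, Finite (Rχ →ₐ[O] Matrix (Fin d) (Fin d) (S ⧸ I ^ n)) := fun n => by
    have := hfinM n
    exact rtp_finite_algHom Jχ hJχ hRχ
  -- the inverse system of the level sets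
  let X : ℕ → Type _ := fun n =>
    {p : (R1 →ₐ[O] Matrix (Fin d) (Fin d) (S ⧸ I ^ n)) ×
        (Rχ →ₐ[O] Matrix (Fin d) (Fin d) (S ⧸ I ^ n)) //
      RtevenLevel I 𝔞 𝔩 ι θ T0 E Ev n p.1 p.2}
  have hXfin : ∀ n, Finite (X n) := fun n => by
    have := hfin1 n
    have := hfinχ n
    exact Subtype.finite
  have hXne : ∀ n, Nonempty (X n) := fun n => by
    obtain ⟨ρ1, ρχ, h⟩ := hlev n
    exact ⟨⟨(ρ1, ρχ), h⟩⟩
  let π : ∀ {i j : ℕ}, i ≤ j → X j → X i := fun {i j} hij p =>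
    ⟨(rtpRed I hij p.1.1, rtpRed I hij p.1.2), p.2.reduce hij⟩
  have π_refl : ∀ ⦃i⦄ (a : X i), π (le_refl i) a = a := by
    intro i a
    apply Subtype.ext
    exact Prod.ext (rtpRed_refl I _) (rtpRed_refl I _)
  have π_trans : ∀ ⦃i j k⦄ (hij : i ≤ j) (hjk : j ≤ k) (a : X k),
      π hij (π hjk a) = π (hij.trans hjk) a := by
    intro i j k hij hjk a
    apply Subtype.ext
    exact Prod.ext (rtpRed_trans I hij hjk _) (rtpRed_trans I hij hjk _)
  have := hXfin 0
  obtain ⟨x, hx⟩ := exists_seq_forall_proj_of_forall_finite (α := X)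
    (fun {i j} hij => π hij) π_refl π_trans (fun i a => by
      have := hXfin (i + 1)
      exact Set.toFinite _)
  -- the limits
  have hc1 : ∀ {m n : ℕ} (h : m ≤ n),
      (Ideal.Quotient.factorₐ O (Ideal.pow_le_pow_right h)).mapMatrix.comp (x n).1.1 =
        (x m).1.1 := fun {m n} h => congrArg (fun p : X m => p.1.1) (hx h)
  have hcχ : ∀ {m n : ℕ} (h : m ≤ n),
      (Ideal.Quotient.factorₐ O (Ideal.pow_le_pow_right h)).mapMatrix.comp (x n).1.2 =
        (x m).1.2 := fun {m n} h => congrArg (fun p : X m => p.1.2) (hx h)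
  obtain ⟨ρ1, hρ1⟩ := rtp_lift_algHom I (fun n => (x n).1.1) hc1
  obtain ⟨ρχ, hρχ⟩ := rtp_lift_algHom I (fun n => (x n).1.2) hcχ
  refine ⟨ρ1, ρχ, ⟨?_, ?_, ?_, ?_, ?_⟩⟩
  · intro r0
    apply rtp_matrix_ext_closed I 𝔞 h𝔞
    intro n
    rw [rtp_map_mk_factor, ← (x n).2.base_loc r0, ← hρ1 n, rtp_map_mk_factor]
  · intro r1
    apply hT0
    intro n
    obtain ⟨t, ht, h1⟩ := (x n).2.base_T0 r1
    refine ⟨t, ht, ?_⟩
    rw [rtp_map_mk_factor, ← h1, ← hρ1 n, rtp_map_mk_factor]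
  · intro r1 rχ hE
    apply rtp_matrix_ext_closed I 𝔩 h𝔩
    intro n
    rw [rtp_map_mk_factor, rtp_map_mk_factor]
    have := (x n).2.cong r1 rχ hE
    rw [← hρ1 n, ← hρχ n, rtp_map_mk_factor, rtp_map_mk_factor] at this
    exact this
  · intro s hs
    apply rtp_scal_limit I hS J1 hJ1 hR1 ρ1 s
    intro n
    obtain ⟨r, hr⟩ := (x n).2.scal1 s hs
    exact ⟨r, by rw [hρ1 n, hr]⟩
  · intro s hs
    apply rtp_scal_limit I hS Jχ hJχ hRχ ρχ s
    intro n
    obtain ⟨r, hr⟩ := (x n).2.scalχ s hs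
    exact ⟨r, by rw [hρχ n, hr]⟩

end Main

section Cnl

variable {O : Type*} [CommRing O] {S : Type*} [CommRing S] [Algebra O S] (𝔞 𝔩 : Ideal S)
  {R0 : Type*} [CommRing R0] [Algebra O R0]
  {R1 : Type*} [CommRing R1] [Algebra O R1]
  {Rχ : Type*} [CommRing Rχ] [Algebra O Rχ]
  (ι : R0 →ₐ[O] R1) {d : ℕ}
  (θ : R0 →ₐ[O] Matrix (Fin d) (Fin d) (S ⧸ 𝔞))
  (E : R1 → Rχ → Prop) (Ev : Set S)

/-- **Patching for complete Noetherian local rings with finite residue fields**, scalars in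
`Ev` only. -/
theorem rteven_patch_cnl [IsNoetherianRing S] [IsLocalRing S]
    [IsAdicComplete (maximalIdeal S) S] [Finite (ResidueField S)]
    [IsNoetherianRing R1] [IsLocalRing R1] [IsPrecomplete (maximalIdeal R1) R1]
    [Finite (ResidueField R1)]
    [IsNoetherianRing Rχ] [IsLocalRing Rχ] [IsPrecomplete (maximalIdeal Rχ) Rχ]
    [Finite (ResidueField Rχ)]
    (N : Submodule S (Matrix (Fin d) (Fin d) (S ⧸ 𝔞)))
    (hlev : ∀ n, ∃ ρ1 ρχ, RtevenLevel (maximalIdeal S) 𝔞 𝔩 ι θ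
      (N : Set (Matrix (Fin d) (Fin d) (S ⧸ 𝔞))) E Ev n ρ1 ρχ) :
    ∃ ρ1 ρχ, RtevenPatched 𝔞 𝔩 ι θ (N : Set (Matrix (Fin d) (Fin d) (S ⧸ 𝔞))) E Ev ρ1 ρχ :=
  rteven_patch (maximalIdeal S) 𝔞 𝔩 ι θ _ E Ev (fun n => rtk2c_finite_quotient_pow n)
    (rtk2c_closed 𝔞) (rtk2c_closed 𝔩)
    (rtp_closed_submodule (maximalIdeal S) 𝔞 (maximalIdeal_le_jacobson ⊥) N)
    (maximalIdeal R1) (maximalIdeal_le_jacobson ⊥) (fun k => rtk2c_finite_quotient_pow k)
    (maximalIdeal Rχ) (maximalIdeal_le_jacobson ⊥) (fun k => rtk2c_finite_quotient_pow k)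
    hlev

end Cnl

section PowerSeries

variable {O : Type*} [CommRing O] [IsLocalRing O] [IsNoetherianRing O]
  [IsAdicComplete (maximalIdeal O) O] [Finite (ResidueField O)]
  {σ τ1 τχ : Type*} [Finite σ] [Finite τ1] [Finite τχ]
  (𝔞 𝔩 : Ideal (MvPowerSeries σ O))
  {R0 : Type*} [CommRing R0] [Algebra O R0]
  {R1 : Type*} [CommRing R1] [Algebra O R1] [Nontrivial R1]
  {Rχ : Type*} [CommRing Rχ] [Algebra O Rχ] [Nontrivial Rχ]
  (ι : R0 →ₐ[O] R1) {d : ℕ}
  (θ : R0 →ₐ[O] Matrix (Fin d) (Fin d) (MvPowerSeries σ O ⧸ 𝔞))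
  (E : R1 → Rχ → Prop) (Ev : Set (MvPowerSeries σ O))

/-- **Patching for quotients of power series rings**, scalars in `Ev` only: `S = O[[σ]]`, `R1`
and `Rχ` quotients of power series rings over `O`, where `O` is a complete Noetherian local
ring with finite residue field; `T0 = N` is an `S`-submodule of `M_d(S ⧸ 𝔞)`. -/
theorem rteven_patch_powerSeries
    (f1 : MvPowerSeries τ1 O →+* R1) (hf1 : Function.Surjective f1)
    (fχ : MvPowerSeries τχ O →+* Rχ) (hfχ : Function.Surjective fχ)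
    (N : Submodule (MvPowerSeries σ O) (Matrix (Fin d) (Fin d) (MvPowerSeries σ O ⧸ 𝔞)))
    (hlev : ∀ n, ∃ ρ1 ρχ, RtevenLevel (maximalIdeal (MvPowerSeries σ O)) 𝔞 𝔩 ι θ
      (N : Set (Matrix (Fin d) (Fin d) (MvPowerSeries σ O ⧸ 𝔞))) E Ev n ρ1 ρχ) :
    ∃ ρ1 ρχ, RtevenPatched 𝔞 𝔩 ι θ
      (N : Set (Matrix (Fin d) (Fin d) (MvPowerSeries σ O ⧸ 𝔞))) E Ev ρ1 ρχ := by
  have hS : IsAdicComplete (maximalIdeal (MvPowerSeries σ O)) (MvPowerSeries σ O) :=
    rtk2c_isAdicComplete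
  have hSf : Finite (ResidueField (MvPowerSeries σ O)) := rtk2c_finite_residueField
  have hP1 : IsAdicComplete (maximalIdeal (MvPowerSeries τ1 O)) (MvPowerSeries τ1 O) :=
    rtk2c_isAdicComplete
  have hP1f : Finite (ResidueField (MvPowerSeries τ1 O)) := rtk2c_finite_residueField
  have hPχ : IsAdicComplete (maximalIdeal (MvPowerSeries τχ O)) (MvPowerSeries τχ O) :=
    rtk2c_isAdicComplete
  have hPχf : Finite (ResidueField (MvPowerSeries τχ O)) := rtk2c_finite_residueField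
  have hR1l : IsLocalRing R1 := IsLocalRing.of_surjective' f1 hf1
  have hRχl : IsLocalRing Rχ := IsLocalRing.of_surjective' fχ hfχ
  have hR1n : IsNoetherianRing R1 := isNoetherianRing_of_surjective _ R1 f1 hf1
  have hRχn : IsNoetherianRing Rχ := isNoetherianRing_of_surjective _ Rχ fχ hfχ
  have hR1c : IsAdicComplete (maximalIdeal R1) R1 := rtk2c_isAdicComplete_of_surjective f1 hf1
  have hRχc : IsAdicComplete (maximalIdeal Rχ) Rχ := rtk2c_isAdicComplete_of_surjective fχ hfχ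
  have hR1f : Finite (ResidueField R1) := rtk2c_finite_residueField_of_surjective f1 hf1
  have hRχf : Finite (ResidueField Rχ) := rtk2c_finite_residueField_of_surjective fχ hfχ
  exact rteven_patch_cnl 𝔞 𝔩 ι θ E Ev N hlev

end PowerSeries

end Fermat.Agent.RT.Even


end ZBRT_011_3

/-! ### bundled: `Fermat.Agent.RT.K2c.Quot` -/
section ZBRT_011_4
/-
K-machine, piece K2-3 (helper70): quotients `P ⧸ I` of a complete Noetherian local ring `P` with
finite residue field (application: `P = O[[σ]]`), in the form used by `rtp_patch`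
(no `IsLocalRing (P ⧸ I)` instance is needed: the ideal is `J = 𝔪_P · (P ⧸ I)`).

* `rtk2c_quot_le_jacobson`     : `J ≤ rad (P ⧸ I)`;
* `rtk2c_quot_isAdicComplete`  : `P ⧸ I` is `J`-adically complete;
* `rtk2c_quot_finite_pow`      : `(P ⧸ I) ⧸ J ^ k` is finite;
* `rtk2c_finite_quotient_sup`  : `P ⧸ (I ⊔ 𝔪 ^ k)` is finite;
* `rtk2c_quot_maximalIdeal`    : `J = 𝔪_{P ⧸ I}` if `I ≠ ⊤`;
* `rtk2c_mvPowerSeries_quot`   : all of this for `P = O[[σ]]`.
Mathlib-only.
-/

set_option autoImplicit false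

namespace Fermat.Agent.RT.K2c

open IsLocalRing

section Quot

variable {P : Type*} [CommRing P] [IsLocalRing P] (I : Ideal P)

theorem rtk2c_map_le_jacobson {R : Type*} [CommRing R] (f : P →+* R)
    (hf : Function.Surjective f) : (maximalIdeal P).map f ≤ Ideal.jacobson ⊥ := by
  intro y hy
  obtain ⟨x, hx, rfl⟩ := (Ideal.mem_map_iff_of_surjective f hf).mp hy
  rw [Ideal.mem_jacobson_bot]
  intro z
  obtain ⟨w, rfl⟩ := hf z
  have h1 : x * w ∈ maximalIdeal P := Ideal.mul_mem_right _ _ hx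
  have h2 : IsUnit (x * w + 1) := by
    by_contra hu
    have h3 : x * w + 1 ∈ maximalIdeal P := (mem_maximalIdeal _).mpr hu
    have h4 : (1 : P) ∈ maximalIdeal P := by
      have := Ideal.sub_mem _ h3 h1
      rwa [add_sub_cancel_left] at this
    exact (mem_maximalIdeal _).mp h4 isUnit_one
  have h5 := h2.map f
  rwa [map_add, map_mul, map_one] at h5

theorem rtk2c_quot_le_jacobson :
    (maximalIdeal P).map (Ideal.Quotient.mk I) ≤ Ideal.jacobson ⊥ :=
  rtk2c_map_le_jacobson _ Ideal.Quotient.mk_surjective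

theorem rtk2c_quot_isPrecomplete [IsPrecomplete (maximalIdeal P) P] :
    IsPrecomplete ((maximalIdeal P).map (Ideal.Quotient.mk I)) (P ⧸ I) :=
  rtk2c_isPrecomplete_of_surjective _ Ideal.Quotient.mk_surjective _

theorem rtk2c_quot_isHausdorff [IsNoetherianRing P] :
    IsHausdorff ((maximalIdeal P).map (Ideal.Quotient.mk I)) (P ⧸ I) :=
  IsHausdorff.of_le_jacobson _ _ (rtk2c_quot_le_jacobson I)

/-- `P ⧸ I` is complete for the ideal `𝔪_P · (P ⧸ I)`. -/
theorem rtk2c_quot_isAdicComplete [IsNoetherianRing P] [IsPrecomplete (maximalIdeal P) P] :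
    IsAdicComplete ((maximalIdeal P).map (Ideal.Quotient.mk I)) (P ⧸ I) :=
  { toIsHausdorff := rtk2c_quot_isHausdorff I, toIsPrecomplete := rtk2c_quot_isPrecomplete I }

theorem rtk2c_finite_of_surjective_pow [IsNoetherianRing P] [Finite (ResidueField P)]
    {R : Type*} [CommRing R] (f : P →+* R) (hf : Function.Surjective f) (k : ℕ) :
    Finite (R ⧸ ((maximalIdeal P).map f) ^ k) := by
  have hfin : Finite (P ⧸ maximalIdeal P ^ k) := rtk2c_finite_quotient_pow k
  have hle : maximalIdeal P ^ k ≤ Ideal.comap f (((maximalIdeal P).map f) ^ k) := by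
    rw [← Ideal.map_le_iff_le_comap, Ideal.map_pow]
  refine Finite.of_surjective (Ideal.quotientMap _ f hle) ?_
  exact Ideal.quotientMap_surjective hf

/-- `(P ⧸ I) ⧸ J ^ k` is finite. -/
theorem rtk2c_quot_finite_pow [IsNoetherianRing P] [Finite (ResidueField P)] (k : ℕ) :
    Finite ((P ⧸ I) ⧸ ((maximalIdeal P).map (Ideal.Quotient.mk I)) ^ k) :=
  rtk2c_finite_of_surjective_pow _ Ideal.Quotient.mk_surjective k

/-- `P ⧸ (I + 𝔪 ^ k)` is finite. -/
theorem rtk2c_finite_quotient_sup [IsNoetherianRing P] [Finite (ResidueField P)] (k : ℕ) :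
    Finite (P ⧸ (I ⊔ maximalIdeal P ^ k)) := by
  have hfin : Finite (P ⧸ maximalIdeal P ^ k) := rtk2c_finite_quotient_pow k
  exact Finite.of_surjective (Ideal.Quotient.factor (le_sup_right : maximalIdeal P ^ k ≤ _))
    (Ideal.Quotient.factor_surjective _)

theorem rtk2c_quot_isLocalRing (hI : I ≠ ⊤) : IsLocalRing (P ⧸ I) :=
  have : Nontrivial (P ⧸ I) := Ideal.Quotient.nontrivial_iff.mpr hI
  IsLocalRing.of_surjective' (Ideal.Quotient.mk I) Ideal.Quotient.mk_surjective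

theorem rtk2c_quot_maximalIdeal [IsLocalRing (P ⧸ I)] :
    (maximalIdeal P).map (Ideal.Quotient.mk I) = maximalIdeal (P ⧸ I) :=
  rtk2c_map_maximalIdeal _ Ideal.Quotient.mk_surjective

end Quot

section PowerSeries

variable {O : Type*} [CommRing O] [IsLocalRing O] [IsNoetherianRing O]
  [IsAdicComplete (maximalIdeal O) O] [Finite (ResidueField O)] {σ : Type*} [Finite σ]

/-- **K2-3.**  `P = O[[σ]]`, `O` a complete Noetherian local ring with finite residue field
(e.g. a complete discrete valuation ring with finite residue field), `σ` finite, `I` any ideal,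
`J = 𝔪_P · (P ⧸ I)`: `J ≤ rad`, `P ⧸ I` is `J`-adically complete, `(P ⧸ I) ⧸ J ^ k` and
`P ⧸ (I + 𝔪 ^ k)` are finite, and ideals of `P ⧸ I` are closed. -/
theorem rtk2c_mvPowerSeries_quot (I : Ideal (MvPowerSeries σ O)) :
    (maximalIdeal (MvPowerSeries σ O)).map (Ideal.Quotient.mk I) ≤ Ideal.jacobson ⊥ ∧
    IsAdicComplete ((maximalIdeal (MvPowerSeries σ O)).map (Ideal.Quotient.mk I))
      (MvPowerSeries σ O ⧸ I) ∧
    (∀ k, Finite ((MvPowerSeries σ O ⧸ I) ⧸
      ((maximalIdeal (MvPowerSeries σ O)).map (Ideal.Quotient.mk I)) ^ k)) ∧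
    (∀ k, Finite (MvPowerSeries σ O ⧸ (I ⊔ maximalIdeal (MvPowerSeries σ O) ^ k))) ∧
    ∀ (𝔞 : Ideal (MvPowerSeries σ O ⧸ I)) (s : MvPowerSeries σ O ⧸ I),
      (∀ n, s ∈ 𝔞 ⊔ ((maximalIdeal (MvPowerSeries σ O)).map (Ideal.Quotient.mk I)) ^ n) →
        s ∈ 𝔞 := by
  have hS : IsAdicComplete (maximalIdeal (MvPowerSeries σ O)) (MvPowerSeries σ O) :=
    rtk2c_isAdicComplete
  have hSf : Finite (ResidueField (MvPowerSeries σ O)) := rtk2c_finite_residueField
  refine ⟨rtk2c_quot_le_jacobson I, rtk2c_quot_isAdicComplete I,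
    fun k => rtk2c_quot_finite_pow I k, fun k => rtk2c_finite_quotient_sup I k, ?_⟩
  exact rtk2c_closed_of_le_jacobson _ (rtk2c_quot_le_jacobson I)

end PowerSeries

end Fermat.Agent.RT.K2c


end ZBRT_011_4

/-! ### bundled: `Fermat.Agent.RT.Hecke.AbsLAux` -/
section ZBRT_011_5

/-!
# K-machine, HECKE-asm, piece HK-ABS-L (helper46): auxiliary lemmas

* `rthk_l_ringHom_ext`, `rthk_l_exists_of_gen` : two ring homomorphisms (to a possibly
  non-commutative ring) which agree on `𝒪` and on generators of an `𝒪`-algebra agree; the image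
  of generators.
* `rthk_l_det_compat` : the determinants of two representations with cyclotomic determinant
  agree after homomorphisms to a ring killed by a power of `p`.
* `rthk_l_trace_one`, `rthk_l_trace_pseudo` : the trace of a `GaloisRepAdic` is a
  pseudo-character with determinant `det`.
* `rthk_l_sn_finite`, `rthk_l_sn_nontrivial`, `rthk_l_sn_pow` : the ring `S ⧸ 𝔪 ^ n`.
-/

set_option autoImplicit false
set_option linter.unusedSectionVars false

namespace Fermat.Agent.RT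

open IsLocalRing Fermat.Agent.ES Fermat.Agent.S30

section Ext

variable {O A R : Type*} [CommRing O] [CommRing A] [Algebra O A] [Ring R]

/-- two ring homomorphisms which agree on `𝒪` and on generators agree -/
theorem rthk_l_ringHom_ext (F G : A →+* R) (S : Set A) (hS : Algebra.adjoin O S = ⊤)
    (halg : ∀ r : O, F (algebraMap O A r) = G (algebraMap O A r))
    (hgen : ∀ s ∈ S, F s = G s) (a : A) : F a = G a := by
  have ha : a ∈ Algebra.adjoin O S := hS ▸ Algebra.mem_top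
  induction ha using Algebra.adjoin_induction with
  | mem y hy => exact hgen y hy
  | algebraMap r => exact halg r
  | add y z _ _ ihy ihz => rw [map_add, map_add, ihy, ihz]
  | mul y z _ _ ihy ihz => rw [map_mul, map_mul, ihy, ihz]

/-- if `F` maps `𝒪` and generators of `A` into the image of `G` then it maps `A` into it -/
theorem rthk_l_exists_of_gen {T : Type*} [CommRing T] [Algebra O T] (F : A →+* R) (G : T →+* R)
    (S : Set A) (hS : Algebra.adjoin O S = ⊤)
    (halg : ∀ r : O, F (algebraMap O A r) = G (algebraMap O T r))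
    (hgen : ∀ s ∈ S, ∃ t : T, F s = G t) (a : A) : ∃ t : T, F a = G t := by
  have ha : a ∈ Algebra.adjoin O S := hS ▸ Algebra.mem_top
  induction ha using Algebra.adjoin_induction with
  | mem y hy => exact hgen y hy
  | algebraMap r => exact ⟨algebraMap O T r, halg r⟩
  | add y z _ _ ihy ihz =>
    obtain ⟨t, ht⟩ := ihy
    obtain ⟨t', ht'⟩ := ihz
    exact ⟨t + t', by rw [map_add, map_add, ht, ht']⟩
  | mul y z _ _ ihy ihz =>
    obtain ⟨t, ht⟩ := ihy
    obtain ⟨t', ht'⟩ := ihz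
    exact ⟨t * t', by rw [map_mul, map_mul, ht, ht']⟩

/-- scalar matrices and entrywise ring homomorphisms -/
theorem rthk_l_map_algebraMap {α β : Type*} [CommRing α] [CommRing β] [Algebra O α]
    [Algebra O β] (ψ : α →+* β) (hψ : ∀ r, ψ (algebraMap O α r) = algebraMap O β r) (d : ℕ)
    (r : O) :
    (algebraMap O (Matrix (Fin d) (Fin d) α) r).map ψ
      = algebraMap O (Matrix (Fin d) (Fin d) β) r := by
  ext i j
  simp only [Matrix.map_apply, Matrix.algebraMap_matrix_apply]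
  split_ifs
  · exact hψ r
  · exact map_zero ψ

end Ext

section Det

variable {p : ℕ} [Fact p.Prime]

/-- the determinant of a representation with cyclotomic determinant, modulo `p ^ n` -/
theorem rthk_l_det_cycE {A : Type} [CommRing A] [IsLocalRing A] (ρ : GaloisRepAdic A)
    (hρ : ρ.DetIsCyclotomic p) (n : ℕ) (σ : GQ) :
    LinearMap.det (ρ.ρ σ) - ((cycE p n σ : ℕ) : A) ∈ Ideal.span {((p ^ n : ℕ) : A)} :=
  hρ.2 n σ (cycE p n σ) fun _ hμ => padicCyclo_spec p σ n hμ

/-- **the determinants agree** after homomorphisms to a ring killed by `p ^ n` -/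
theorem rthk_l_det_compat {A T : Type} [CommRing A] [IsLocalRing A] [CommRing T] [IsLocalRing T]
    {R : Type*} [Ring R] (ρ : GaloisRepAdic A) (ρ0 : GaloisRepAdic T)
    (hρ : ρ.DetIsCyclotomic p) (hρ0 : ρ0.DetIsCyclotomic p) (f : A →+* R) (g : T →+* R)
    (n : ℕ) (hpn : ((p ^ n : ℕ) : R) = 0) (σ : GQ) :
    f (LinearMap.det (ρ.ρ σ)) = g (LinearMap.det (ρ0.ρ σ)) := by
  have key : ∀ {B : Type} [CommRing B] (h : B →+* R) (x : B),
      x - ((cycE p n σ : ℕ) : B) ∈ Ideal.span {((p ^ n : ℕ) : B)} →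
      h x = ((cycE p n σ : ℕ) : R) := by
    intro B _ h x hx
    obtain ⟨y, hy⟩ := Ideal.mem_span_singleton'.mp hx
    have e := congrArg h hy
    rw [map_mul, map_natCast, hpn, mul_zero, map_sub, map_natCast] at e
    exact (sub_eq_zero.mp e.symm)
  rw [key f _ (rthk_l_det_cycE ρ hρ n σ), key g _ (rthk_l_det_cycE ρ0 hρ0 n σ)]

end Det

section Pseudo

variable {A : Type} [CommRing A] [IsLocalRing A] (ρ : GaloisRepAdic A)

theorem rthk_l_trace_one : LinearMap.trace A ρ.V (ρ.ρ 1) = 2 := by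
  rw [map_one, LinearMap.trace_one, ρ.finrank_eq]
  norm_num

/-- the pseudo-character identity for `2 × 2` matrices -/
theorem rthk_l_mat_pseudo {k : Type*} [CommRing k] (X Y Y' : Matrix (Fin 2) (Fin 2) k)
    (h : Y * Y' = 1) :
    (X * Y).trace + Y.det * (X * Y').trace = X.trace * Y.trace := by
  have h1 : Y.adjugate = Y.det • Y' := by
    calc Y.adjugate = Y.adjugate * (Y * Y') := by rw [h, mul_one]
      _ = (Y.adjugate * Y) * Y' := by rw [mul_assoc]
      _ = Y.det • Y' := by rw [Matrix.adjugate_mul, Matrix.smul_mul, one_mul]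
  have h2 : Y.det * (X * Y').trace = (X * Y.adjugate).trace := by
    rw [h1, Matrix.mul_smul, Matrix.trace_smul, smul_eq_mul]
  rw [h2, Matrix.adjugate_fin_two]
  simp only [Matrix.trace_fin_two, Matrix.mul_apply, Fin.sum_univ_two, Matrix.of_apply,
    Matrix.cons_val', Matrix.cons_val_zero, Matrix.cons_val_one, Matrix.cons_val_fin_one]
  ring

/-- the trace of a `GaloisRepAdic` is a pseudo-character with determinant `det` -/
theorem rthk_l_trace_pseudo (x y : GQ) :
    LinearMap.trace A ρ.V (ρ.ρ (x * y))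
      + (LinearMap.det.comp ρ.ρ) y * LinearMap.trace A ρ.V (ρ.ρ (x * y⁻¹))
      = LinearMap.trace A ρ.V (ρ.ρ x) * LinearMap.trace A ρ.V (ρ.ρ y) := by
  classical
  let b : Module.Basis (Fin 2) A ρ.V := Module.finBasisOfFinrankEq A ρ.V ρ.finrank_eq
  have hyy : LinearMap.toMatrix b b (ρ.ρ y) * LinearMap.toMatrix b b (ρ.ρ y⁻¹) = 1 := by
    rw [← LinearMap.toMatrix_mul, ← map_mul, mul_inv_cancel, map_one]
    exact LinearMap.toMatrix_one b
  have key := rthk_l_mat_pseudo (LinearMap.toMatrix b b (ρ.ρ x)) _ _ hyy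
  rw [LinearMap.trace_eq_matrix_trace A b, LinearMap.trace_eq_matrix_trace A b,
    LinearMap.trace_eq_matrix_trace A b, LinearMap.trace_eq_matrix_trace A b,
    MonoidHom.comp_apply, ← LinearMap.det_toMatrix b, map_mul ρ.ρ x y, map_mul ρ.ρ x y⁻¹,
    LinearMap.toMatrix_mul, LinearMap.toMatrix_mul]
  exact key

end Pseudo

section Sn

variable (O : Type) [CommRing O] [IsDomain O] [IsDiscreteValuationRing O]
  [IsAdicComplete (maximalIdeal O) O] [Finite (ResidueField O)] (m n : ℕ)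

theorem rthk_l_sn_finite : Finite (RthkSn O m n) := by
  have : Finite (ResidueField (RttwS O m)) := Fermat.Agent.RT.K2c.rtk2c_finite_residueField
  exact Fermat.Agent.RT.K2c.rtk2c_finite_quotient_pow n

theorem rthk_l_sn_nontrivial (hn : 0 < n) : Nontrivial (RthkSn O m n) := by
  refine Ideal.Quotient.nontrivial_iff.mpr ?_
  intro h
  have h1 : (1 : RttwS O m) ∈ maximalIdeal (RttwS O m) ^ n := h ▸ Submodule.mem_top
  have h2 : (1 : RttwS O m) ∈ maximalIdeal (RttwS O m) :=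
    Ideal.pow_le_self hn.ne' h1
  exact (mem_maximalIdeal _).mp h2 isUnit_one

variable {O}

/-- the elements of `𝔪_𝒪` are nilpotent in `S ⧸ Q`, `𝔪 ^ n ≤ Q` -/
theorem rthk_l_sn_pow (Q : Ideal (RttwS O m)) (hQ : maximalIdeal (RttwS O m) ^ n ≤ Q) (c : O)
    (hc : c ∈ maximalIdeal O) : (algebraMap O (RttwS O m ⧸ Q) c) ^ n = 0 := by
  have h1 : (MvPowerSeries.C c : RttwS O m) ∈ maximalIdeal (RttwS O m) := by
    rw [mem_maximalIdeal, mem_nonunits_iff, MvPowerSeries.isUnit_iff_constantCoeff,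
      MvPowerSeries.constantCoeff_C]
    exact (mem_maximalIdeal c).mp hc
  have h2 : (MvPowerSeries.C c : RttwS O m) ^ n ∈ Q := hQ (Ideal.pow_mem_pow h1 n)
  have e : algebraMap O (RttwS O m ⧸ Q) c
      = Ideal.Quotient.mk _ (MvPowerSeries.C c : RttwS O m) := rfl
  rw [e, ← map_pow]
  exact Ideal.Quotient.eq_zero_iff_mem.mpr h2

/-- scalar matrices from `𝔪_𝒪` are nilpotent -/
theorem rthk_l_mat_pow (Q : Ideal (RttwS O m)) (hQ : maximalIdeal (RttwS O m) ^ n ≤ Q) (d : ℕ)
    (c : O) (hc : c ∈ maximalIdeal O) :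
    (algebraMap O (Matrix (Fin d) (Fin d) (RttwS O m ⧸ Q)) c) ^ n = 0 := by
  have h := rthk_l_sn_pow m n Q hQ c hc
  rw [← map_pow] at h ⊢
  ext i j
  rw [Matrix.algebraMap_matrix_apply, h]
  simp

/-- a natural number divisible by `p ^ n` vanishes in the matrices over `S ⧸ Q` -/
theorem rthk_l_mat_natCast (Q : Ideal (RttwS O m)) (hQ : maximalIdeal (RttwS O m) ^ n ≤ Q)
    (d : ℕ) (p : ℕ) (hp : (p : O) ∈ maximalIdeal O) :
    ((p ^ n : ℕ) : Matrix (Fin d) (Fin d) (RttwS O m ⧸ Q)) = 0 := by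
  have h := rthk_l_mat_pow m n Q hQ d (p : O) hp
  rw [map_natCast] at h
  rw [Nat.cast_pow]
  exact h

end Sn

end Fermat.Agent.RT


end ZBRT_011_5

/-! ### bundled: `Fermat.Agent.RT.Prod.HaEven` -/
section ZBRT_011_6
/-
K-machine, HECKE-asm algebra (helper70): the EVEN scalars of `S ⧸ 𝔪 ^ n`.

* `rtha_mk_eq_poly`      : every class in `S ⧸ 𝔪 ^ n` is the class of the truncated polynomial;
* `rtha_even_mem_adjoin` : every class of a series even in the first `h` variables lies in the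
  `O`-subalgebra generated by the classes of `w_i ^ 2` (`i < h`) and of `w_j` (`h ≤ j`);
* `rtha_scal`            : hence the clauses `scal1`, `scalχ` of `TWGal` follow from the generators:
  `Y_q ^ 2 = (tr ρ(σ_q)) ^ 2 − 4` (K6) and the framing variables `z`.
-/

set_option autoImplicit false
set_option linter.style.haveILetI false
set_option linter.unusedSectionVars false

namespace Fermat.Agent.RT.Prod

open IsLocalRing MvPowerSeries Fermat.Agent.RT Fermat.Agent.RT.K2c

section Even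

variable (O : Type*) [CommRing O] [IsLocalRing O] (m h n : ℕ)

/-- the generators of the even part of `S ⧸ 𝔪 ^ n`: the classes of `w_i ^ 2` (`i < h`) and of
`w_j` (`h ≤ j`) -/
def rthaGens : Set (RttwS O m ⧸ maximalIdeal (RttwS O m) ^ n) :=
  {y | ∃ i : Fin m, (i : ℕ) < h ∧
      y = Ideal.Quotient.mk _ ((X i : RttwS O m) ^ 2)} ∪
    {y | ∃ j : Fin m, h ≤ (j : ℕ) ∧ y = Ideal.Quotient.mk _ (X j : RttwS O m)}

/-- the class of a polynomial -/
noncomputable def rthaPoly :
    MvPolynomial (Fin m) O →ₐ[O] RttwS O m ⧸ maximalIdeal (RttwS O m) ^ n :=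
  (Ideal.Quotient.mkₐ O (maximalIdeal (RttwS O m) ^ n)).comp
    (MvPolynomial.coeToMvPowerSeries.algHom (σ := Fin m) (R := O) O)

theorem rthaPoly_X (i : Fin m) :
    rthaPoly O m n (MvPolynomial.X i) = Ideal.Quotient.mk _ (X i : RttwS O m) := by
  unfold rthaPoly
  rw [AlgHom.comp_apply, MvPolynomial.coeToMvPowerSeries.algHom_apply, MvPolynomial.coe_X]
  simp

/-- **Truncation**: every class in `S ⧸ 𝔪 ^ n` is the class of the truncated polynomial. -/
theorem rtha_mk_eq_poly (f : RttwS O m) :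
    Ideal.Quotient.mk (maximalIdeal (RttwS O m) ^ n) f =
      rthaPoly O m n (truncTotal n f) := by
  have h1 : f - ((truncTotal n f : MvPolynomial (Fin m) O) : MvPowerSeries (Fin m) O) ∈
      maximalIdeal (RttwS O m) ^ n := by
    have h2 := rtk2c_tail n (f - ((truncTotal n f : MvPolynomial (Fin m) O) :
      MvPowerSeries (Fin m) O)) (fun α hα => by
        rw [map_sub, MvPolynomial.coeff_coe, coeff_truncTotal_eq_ite, if_pos hα, sub_self])
    refine Ideal.pow_right_mono ?_ n h2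
    rw [rtk2c_maximalIdeal_eq]
    exact le_sup_right
  have h3 := (Ideal.Quotient.eq).mpr h1
  rw [h3]
  unfold rthaPoly
  rw [AlgHom.comp_apply, MvPolynomial.coeToMvPowerSeries.algHom_apply]
  simp

/-- **EVEN**: every class of a series even in the first `h` variables is a polynomial over `O`
in the classes of `w_i ^ 2` (`i < h`) and of `w_j` (`h ≤ j`). -/
theorem rtha_even_mem_adjoin (c : RttwS O m ⧸ maximalIdeal (RttwS O m) ^ n)
    (hc : c ∈ rttwEvenQ O m h n) : c ∈ Algebra.adjoin O (rthaGens O m h n) := by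
  classical
  obtain ⟨f, hf, rfl⟩ := hc
  rw [rtha_mk_eq_poly]
  set P : MvPolynomial (Fin m) O := truncTotal n f with hP
  rw [← MvPolynomial.support_sum_monomial_coeff P, map_sum]
  refine Subalgebra.sum_mem _ fun e he => ?_
  have hne : MvPolynomial.coeff e P ≠ 0 := MvPolynomial.mem_support_iff.mp he
  have hcoe : MvPolynomial.coeff e P = coeff e f ∨ MvPolynomial.coeff e P = 0 := by
    rw [hP, coeff_truncTotal_eq_ite]
    split_ifs
    · exact Or.inl rfl
    · exact Or.inr rfl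
  have hfe : coeff e f ≠ 0 := by
    rcases hcoe with h1 | h1
    · rwa [← h1]
    · exact absurd h1 hne
  have hev := hf e hfe
  rw [MvPolynomial.monomial_eq, map_mul, MvPolynomial.algHom_C]
  refine Subalgebra.mul_mem _ (Subalgebra.algebraMap_mem _ _) ?_
  rw [Finsupp.prod, map_prod]
  refine Subalgebra.prod_mem _ fun i _ => ?_
  rw [map_pow, rthaPoly_X]
  by_cases hi : (i : ℕ) < h
  · obtain ⟨k, hk⟩ := hev i hi
    rw [hk, ← two_mul, pow_mul, ← map_pow]
    have hmem : Ideal.Quotient.mk (maximalIdeal (RttwS O m) ^ n) ((X i : RttwS O m) ^ 2) ∈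
        rthaGens O m h n := Or.inl ⟨i, hi, rfl⟩
    exact Subalgebra.pow_mem _ (Algebra.subset_adjoin hmem) _
  · have hmem : Ideal.Quotient.mk (maximalIdeal (RttwS O m) ^ n) (X i : RttwS O m) ∈
        rthaGens O m h n := Or.inr ⟨i, not_lt.mp hi, rfl⟩
    exact Subalgebra.pow_mem _ (Algebra.subset_adjoin hmem) _

/-- **Scalars from generators**: if the classes of `w_i ^ 2` (`i < h`) and of `w_j` (`h ≤ j`) act
through `π`, then every even scalar does (the clauses `scal1`, `scalχ` of `TWGal`). -/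
theorem rtha_scal {A : Type*} [CommRing A] [Algebra O A] {d : ℕ}
    (π : A →ₐ[O] Matrix (Fin d) (Fin d) (RttwS O m ⧸ maximalIdeal (RttwS O m) ^ n))
    (hgen : ∀ y ∈ rthaGens O m h n, ∃ u : A, π u = algebraMap _ _ y)
    (c : RttwS O m ⧸ maximalIdeal (RttwS O m) ^ n) (hc : c ∈ rttwEvenQ O m h n) :
    ∃ u : A, π u = algebraMap _ _ c := by
  have hle : Algebra.adjoin O (rthaGens O m h n) ≤
      Subalgebra.comap (IsScalarTower.toAlgHom O (RttwS O m ⧸ maximalIdeal (RttwS O m) ^ n)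
        (Matrix (Fin d) (Fin d) (RttwS O m ⧸ maximalIdeal (RttwS O m) ^ n))) π.range := by
    refine Algebra.adjoin_le fun y hy => ?_
    obtain ⟨u, hu⟩ := hgen y hy
    exact ⟨u, hu⟩
  obtain ⟨u, hu⟩ := hle (rtha_even_mem_adjoin O m h n c hc)
  exact ⟨u, hu⟩

end Even

end Fermat.Agent.RT.Prod


end ZBRT_011_6

/-! ### bundled: `Fermat.Agent.RT.Prod.HaPack` -/
section ZBRT_011_7
/-
K-machine, HECKE-PACK (helper70): from the Galois side over the Hecke ring `A₀` (`RT.HkOut`,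
`RT/Hecke/Plan.lean`) to the contract `Prod.TWGal` of PROD-asm, by FRAMING:
`A = A₀[z_{i,k}] ⧸ (z) ^ (n + 1)`, `β_{r_i} = 1 + Z_i`, `z_{i,k} ↦ w_{ev (i,k)}`.

* `rthaBeta`, `rthaBeta_apply` : the framings as a function of the prime;
* `rtha_kills` : the lift kills the kernel of the augmentation modulo `𝔞`;
* `rtha_ringHom_ext` : ring homomorphisms out of the framing ring;
* `rtha_pack` : `HkOut ⇒ ∃ A …, TWGal`.
-/

set_option autoImplicit false
set_option linter.style.haveILetI false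
set_option linter.unusedSectionVars false
set_option linter.unusedVariables false

namespace Fermat.Agent.RT.Prod

open IsLocalRing Fermat.Agent.TW Fermat.Agent.RT Fermat.Agent.RT.K1 ExtCitation

section Pack

variable {O : Type} [CommRing O] [IsLocalRing O] {ι : Type} [Fintype ι]

/-- the framings as a function of the prime -/
noncomputable def rthaBeta (A₀ : Type) [CommRing A₀] (N : ℕ) (r : ι → ℕ) (ℓ : ℕ) :
    Matrix (Fin 2) (Fin 2) (RthaFr A₀ (ι × Fin 4) N) :=
  open Classical in if h : ∃ i, r i = ℓ then rthaB A₀ N h.choose else 1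

theorem rthaBeta_apply (A₀ : Type) [CommRing A₀] (N : ℕ) {r : ι → ℕ}
    (hr : Function.Injective r) (i : ι) : rthaBeta A₀ N r (r i) = rthaB A₀ N i := by
  unfold rthaBeta
  have h : ∃ j, r j = r i := ⟨i, rfl⟩
  rw [dif_pos h]
  congr 1
  exact hr h.choose_spec

/-- reduction of a scalar matrix -/
theorem rtha_scalar_map {R R' : Type*} [CommRing R] [CommRing R'] (f : R →+* R') (d : ℕ)
    (c : R) : (algebraMap R (Matrix (Fin d) (Fin d) R) c).map f =
      algebraMap R' (Matrix (Fin d) (Fin d) R') (f c) := by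
  ext a b
  rw [Matrix.map_apply, Matrix.algebraMap_matrix_apply, Matrix.algebraMap_matrix_apply]
  split_ifs
  · rfl
  · exact map_zero f

variable {A₀ : Type} [CommRing A₀] [IsLocalRing A₀] [Algebra O A₀]

/-- `π` kills the kernel of the augmentation modulo `𝔞`, if it maps the framing variables to
scalars in `𝔞`. -/
theorem rtha_kills {m d n : ℕ} {κ : Type}
    (π : RthaFr A₀ κ (n + 1) →ₐ[O] Matrix (Fin d) (Fin d)
      (RttwS O m ⧸ maximalIdeal (RttwS O m) ^ n))
    (ev : κ → Fin m)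
    (hπZ : ∀ k, π (rthaZ A₀ (n + 1) k) = algebraMap _ _
      (Ideal.Quotient.mk (maximalIdeal (RttwS O m) ^ n) (MvPowerSeries.X (ev k))))
    (x : RthaFr A₀ κ (n + 1)) (hx : rthaAug (Nat.succ_ne_zero n) x = 0) :
    (π x).map (Ideal.Quotient.factor
        (le_sup_right : maximalIdeal (RttwS O m) ^ n ≤
          rttwAug O m ⊔ maximalIdeal (RttwS O m) ^ n)) = 0 := by
  have hx' := rtha_ker_aug_le (Nat.succ_ne_zero n) x hx
  let F : RthaFr A₀ κ (n + 1) →+* Matrix (Fin d) (Fin d)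
      (RttwS O m ⧸ (rttwAug O m ⊔ maximalIdeal (RttwS O m) ^ n)) :=
    (RingHom.mapMatrix (Ideal.Quotient.factor
        (le_sup_right : maximalIdeal (RttwS O m) ^ n ≤
          rttwAug O m ⊔ maximalIdeal (RttwS O m) ^ n))).comp π.toRingHom
  have hle : Ideal.span (Set.range (rthaZ A₀ (κ := κ) (n + 1))) ≤ RingHom.ker F := by
    rw [Ideal.span_le]
    rintro _ ⟨k, rfl⟩
    rw [SetLike.mem_coe, RingHom.mem_ker]
    have hF : F (rthaZ A₀ (n + 1) k) = (π (rthaZ A₀ (n + 1) k)).map (Ideal.Quotient.factor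
        (le_sup_right : maximalIdeal (RttwS O m) ^ n ≤
          rttwAug O m ⊔ maximalIdeal (RttwS O m) ^ n)) := rfl
    rw [hF, hπZ, rtha_scalar_map, Ideal.Quotient.factor_mk]
    have h0 : Ideal.Quotient.mk (rttwAug O m ⊔ maximalIdeal (RttwS O m) ^ n)
        (MvPowerSeries.X (ev k)) = 0 := by
      rw [Ideal.Quotient.eq_zero_iff_mem]
      refine Ideal.mem_sup_left ?_
      unfold rttwAug
      rw [RingHom.mem_ker, MvPowerSeries.constantCoeff_X]
    rw [h0, map_zero]
  have hfin : F x = 0 := (RingHom.mem_ker).mp (hle hx')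
  exact hfin

/-- the same, as an equality of the reductions of `π x` and `π (ψ (aug x))` -/
theorem rtha_kills' {m d n : ℕ} {κ : Type}
    (π : RthaFr A₀ κ (n + 1) →ₐ[O] Matrix (Fin d) (Fin d)
      (RttwS O m ⧸ maximalIdeal (RttwS O m) ^ n))
    (ev : κ → Fin m)
    (hπZ : ∀ k, π (rthaZ A₀ (n + 1) k) = algebraMap _ _
      (Ideal.Quotient.mk (maximalIdeal (RttwS O m) ^ n) (MvPowerSeries.X (ev k))))
    (x : RthaFr A₀ κ (n + 1)) (a : A₀) (hx : rthaAug (Nat.succ_ne_zero n) x = a) :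
    (π x).map (Ideal.Quotient.factor
        (le_sup_right : maximalIdeal (RttwS O m) ^ n ≤
          rttwAug O m ⊔ maximalIdeal (RttwS O m) ^ n)) =
      (π (algebraMap A₀ (RthaFr A₀ κ (n + 1)) a)).map (Ideal.Quotient.factor
        (le_sup_right : maximalIdeal (RttwS O m) ^ n ≤
          rttwAug O m ⊔ maximalIdeal (RttwS O m) ^ n)) := by
  have h0 : rthaAug (Nat.succ_ne_zero n) (x - algebraMap A₀ (RthaFr A₀ κ (n + 1)) a) = 0 := by
    rw [map_sub, rthaAug_algebraMap, hx, sub_self]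
  have h1 := rtha_kills π ev hπZ _ h0
  rw [map_sub] at h1
  have h2 : ∀ X Y : Matrix (Fin d) (Fin d) (RttwS O m ⧸ maximalIdeal (RttwS O m) ^ n),
      (X - Y).map (Ideal.Quotient.factor
        (le_sup_right : maximalIdeal (RttwS O m) ^ n ≤
          rttwAug O m ⊔ maximalIdeal (RttwS O m) ^ n)) =
      X.map (Ideal.Quotient.factor
        (le_sup_right : maximalIdeal (RttwS O m) ^ n ≤
          rttwAug O m ⊔ maximalIdeal (RttwS O m) ^ n)) -
      Y.map (Ideal.Quotient.factor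
        (le_sup_right : maximalIdeal (RttwS O m) ^ n ≤
          rttwAug O m ⊔ maximalIdeal (RttwS O m) ^ n)) := fun X Y =>
    Matrix.map_sub (f := Ideal.Quotient.factor
        (le_sup_right : maximalIdeal (RttwS O m) ^ n ≤
          rttwAug O m ⊔ maximalIdeal (RttwS O m) ^ n)) (fun _ _ => map_sub _ _ _) X Y
  rw [h2] at h1
  exact sub_eq_zero.mp h1

omit [IsLocalRing A₀] in
/-- ring homomorphisms out of the framing ring are determined by `A₀` and the variables -/
theorem rtha_ringHom_ext {κ : Type} {N : ℕ} {R' : Type*} [Semiring R']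
    (F G : RthaFr A₀ κ N →+* R')
    (h1 : ∀ a, F (algebraMap A₀ (RthaFr A₀ κ N) a) = G (algebraMap A₀ (RthaFr A₀ κ N) a))
    (h2 : ∀ k, F (rthaZ A₀ N k) = G (rthaZ A₀ N k)) (x : RthaFr A₀ κ N) : F x = G x := by
  obtain ⟨p, rfl⟩ := Ideal.Quotient.mk_surjective x
  induction p using MvPolynomial.induction_on with
  | C a => exact h1 a
  | add p q hp hq => rw [map_add, map_add, map_add, hp, hq]
  | mul_X p k hp =>
    rw [map_mul, map_mul, map_mul, hp]
    congr 1
    exact h2 k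

/-- **HECKE-PACK.**  The Galois side over the Hecke ring `A₀` gives the contract `TWGal` over
the framing ring `A₀[z] ⧸ (z) ^ (n + 1)`. -/
theorem rtha_pack (p : ℕ) [Fact p.Prime] (lam : O) (ρbar : ResidualGaloisRep (ResidueField O))
    (habs : ρbar.IsAbsolutelyIrreducible)
    (Smin Q : Finset ℕ) (r : ι → ℕ) (hr : Function.Injective r) (σ φ : ι → RtpaG) (tχ : ι → O)
    (m h d n : ℕ) (ev : ι × Fin 4 → Fin m) (hev : ∀ j : Fin m, h ≤ (j : ℕ) → ∃ x, ev x = j)
    {T0 : Type} [CommRing T0] [Algebra O T0] (j0 : T0 →ₐ[O] Matrix (Fin d) (Fin d) O)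
    (Sig0 Phi0 : ι → Matrix (Fin 2) (Fin 2) T0)
    (ιA₀ : ResidueField O →+* ResidueField A₀)
    (ρ₀ : GaloisRepAdic A₀) (b₀ : Module.Basis (Fin 2) A₀ ρ₀.V)
    (φ1 φχ : A₀ →ₐ[O] Matrix (Fin d) (Fin d) (RthkSn O m n))
    (H : HkOut p lam ρbar Smin (Q ∪ Finset.univ.image r) σ φ tχ m h d n j0 Sig0 Phi0 ιA₀ ρ₀ b₀
      φ1 φχ) :
    ∃ (A : Type) (_ : CommRing A) (_ : IsLocalRing A) (_ : Algebra O A)
      (ιA : ResidueField O →+* ResidueField A) (ρ : GaloisRepAdic A)
      (b : Module.Basis (Fin 2) A ρ.V) (β βi : ℕ → Matrix (Fin 2) (Fin 2) A)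
      (π1 πχ : A →ₐ[O] Matrix (Fin d) (Fin d) (RttwS O m ⧸ maximalIdeal (RttwS O m) ^ n)),
      TWGal p ρbar Smin Q r σ φ tχ lam m d j0 Sig0 Phi0 n (rttwEvenQ O m h n) ιA ρ b β βi
        π1 πχ := by
  classical
  haveI := H.finite
  have hN : n + 1 ≠ 0 := Nat.succ_ne_zero n
  have hψ : IsLocalHom ((IsScalarTower.toAlgHom O A₀ (RthaFr A₀ (ι × Fin 4) (n + 1)) :
      A₀ →ₐ[O] RthaFr A₀ (ι × Fin 4) (n + 1)) : A₀ →+* RthaFr A₀ (ι × Fin 4) (n + 1)) :=
    rtha_isLocalHom_algebraMap hN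
  haveI hfinA : Finite (RthaFr A₀ (ι × Fin 4) (n + 1)) := rtha_finite
  have hres : Fermat.Agent.S53.IsResAlg O (RthaFr A₀ (ι × Fin 4) (n + 1)) :=
    rtha_isResAlg n H.resAlg
  haveI : IsLocalHom (algebraMap O (RthaFr A₀ (ι × Fin 4) (n + 1))) := hres.isLocalHom
  have hιA : ∀ x : O, ResidueField.map (algebraMap O (RthaFr A₀ (ι × Fin 4) (n + 1)))
      (residue O x) = residue _ (algebraMap O (RthaFr A₀ (ι × Fin 4) (n + 1)) x) :=
    fun x => rfl
  have hv := rthl_prod_eq_zero' O m n (n + 1) (Nat.le_succ n) ev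
  obtain ⟨π1, hπ1a, hπ1Z⟩ := rthl_exists_lift (N := n + 1) φ1
    (fun k : ι × Fin 4 => Ideal.Quotient.mk (maximalIdeal (RttwS O m) ^ n)
      (MvPowerSeries.X (ev k))) hv
  obtain ⟨πχ, hπχa, hπχZ⟩ := rthl_exists_lift (N := n + 1) φχ
    (fun k : ι × Fin 4 => Ideal.Quotient.mk (maximalIdeal (RttwS O m) ^ n)
      (MvPowerSeries.X (ev k))) hv
  -- traces
  have htr : ∀ g : RtpaG, LinearMap.trace (RthaFr A₀ (ι × Fin 4) (n + 1))
      (rthbRep _ hψ ρ₀ b₀).V ((rthbRep _ hψ ρ₀ b₀).ρ g) =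
        algebraMap A₀ (RthaFr A₀ (ι × Fin 4) (n + 1)) (LinearMap.trace A₀ ρ₀.V (ρ₀.ρ g)) :=
    fun g => rthb_trace _ hψ ρ₀ b₀ g
  -- scalars
  have hscal : ∀ (π : RthaFr A₀ (ι × Fin 4) (n + 1) →ₐ[O] Matrix (Fin d) (Fin d)
      (RttwS O m ⧸ maximalIdeal (RttwS O m) ^ n))
      (φ' : A₀ →ₐ[O] Matrix (Fin d) (Fin d) (RthkSn O m n)),
      (∀ a, π (algebraMap A₀ (RthaFr A₀ (ι × Fin 4) (n + 1)) a) = φ' a) →
      (∀ k, π (rthaZ A₀ (n + 1) k) = algebraMap (RthkSn O m n) _
        (Ideal.Quotient.mk (maximalIdeal (RttwS O m) ^ n) (MvPowerSeries.X (ev k)))) →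
      (∀ j : Fin m, (j : ℕ) < h → ∃ a : A₀,
        φ' a = algebraMap (RthkSn O m n) (Matrix (Fin d) (Fin d) (RthkSn O m n))
          (Ideal.Quotient.mk _ (MvPowerSeries.X j) ^ 2)) →
      ∀ c ∈ rttwEvenQ O m h n, ∃ u : RthaFr A₀ (ι × Fin 4) (n + 1),
        π u = algebraMap _ (Matrix (Fin d) (Fin d)
          (RttwS O m ⧸ maximalIdeal (RttwS O m) ^ n)) c := by
    intro π φ' hπa hπZ hY c hc
    refine rtha_scal O m h n π ?_ c hc
    rintro y (⟨i, hi, rfl⟩ | ⟨j, hj, rfl⟩)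
    · obtain ⟨a, ha⟩ := hY i hi
      refine ⟨algebraMap A₀ _ a, ?_⟩
      rw [hπa, ha]
      congr 1
    · obtain ⟨x, rfl⟩ := hev j hj
      exact ⟨rthaZ A₀ (n + 1) x, hπZ x⟩
  -- the base
  have hbase : ∀ (i : ι) (g : RtpaG) (a c : Fin 2),
      (π1 (rtpaFr (rthbRep _ hψ ρ₀ b₀) (rthbBasis _ hψ ρ₀ b₀) (rthaBeta A₀ (n + 1) r)
        (fun ℓ => (rthaBeta A₀ (n + 1) r ℓ)⁻¹) (r i) g a c)).map (Ideal.Quotient.factor
        (le_sup_right : maximalIdeal (RttwS O m) ^ n ≤
          rttwAug O m ⊔ maximalIdeal (RttwS O m) ^ n)) =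
      (φ1 (LinearMap.toMatrix b₀ b₀ (ρ₀.ρ g) a c)).map (Ideal.Quotient.factor
        (le_sup_right : maximalIdeal (RttwS O m) ^ n ≤
          rttwAug O m ⊔ maximalIdeal (RttwS O m) ^ n)) := by
    intro i g a c
    rw [← hπ1a]
    refine rtha_kills' π1 ev hπ1Z _ _ ?_
    have h1 : (rthaAug (A₀ := A₀) (κ := ι × Fin 4) hN).toRingHom.mapMatrix
        (rtpaFr (rthbRep _ hψ ρ₀ b₀) (rthbBasis _ hψ ρ₀ b₀) (rthaBeta A₀ (n + 1) r)
          (fun ℓ => (rthaBeta A₀ (n + 1) r ℓ)⁻¹) (r i) g) =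
        LinearMap.toMatrix b₀ b₀ (ρ₀.ρ g) := by
      unfold rtpaFr
      rw [map_mul, map_mul, rthb_toMatrix]
      simp only []
      rw [rthaBeta_apply A₀ (n + 1) hr i, rthaAug_B_inv, rthaAug_B, one_mul, mul_one]
      ext a' c'
      rw [RingHom.mapMatrix_apply, Matrix.map_apply, Matrix.map_apply]
      exact rthaAug_algebraMap hN _
    have h2 := congrFun (congrFun h1 a) c
    rwa [RingHom.mapMatrix_apply, Matrix.map_apply] at h2
  refine ⟨RthaFr A₀ (ι × Fin 4) (n + 1), inferInstance, inferInstance, inferInstance,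
    ResidueField.map (algebraMap O (RthaFr A₀ (ι × Fin 4) (n + 1))),
    rthbRep _ hψ ρ₀ b₀, rthbBasis _ hψ ρ₀ b₀, rthaBeta A₀ (n + 1) r,
    fun ℓ => (rthaBeta A₀ (n + 1) r ℓ)⁻¹, π1, πχ, ?_⟩
  refine
    { finite := hfinA
      resAlg := hres
      hιA := hιA
      flat := rthb_twFlat _ hψ ρ₀ b₀ p Smin _ H.flat H.ann
      res := rthb_res ρbar habs ιA₀ H.hιA _ hιA _ hψ ρ₀ b₀ H.res
      framing := ?_
      gen := ?_
      scal1 := hscal π1 φ1 hπ1a hπ1Z H.scalY1
      scalχ := hscal πχ φχ hπχa hπχZ H.scalYχ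
      tr1 := fun i => by rw [htr, hπ1a]; exact H.tr1 i
      trχ := fun i => by rw [htr, hπχa]; exact H.trχ i
      cong := ?_
      base_sig := fun i a c => (hbase i (σ i) a c).trans (H.base_sig i a c)
      base_phi := fun i a c => (hbase i (φ i) a c).trans (H.base_phi i a c)
      base_T0 := ?_ }
  · intro ℓ hℓ
    obtain ⟨i, -, rfl⟩ := Finset.mem_image.mp hℓ
    show rthaBeta A₀ (n + 1) r (r i) * (rthaBeta A₀ (n + 1) r (r i))⁻¹ = 1 ∧
      ∀ a c, (rthaBeta A₀ (n + 1) r (r i) - 1) a c ∈ maximalIdeal _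
    rw [rthaBeta_apply A₀ (n + 1) hr i]
    exact ⟨rthaB_mul_inv hN i, fun a c => rthaB_sub_one_mem n i a c⟩
  · rw [eq_top_iff, ← rtha_adjoin_eq_top (O := O) (A₀ := A₀) (κ := ι × Fin 4) (N := n + 1) _
      H.gen]
    refine Algebra.adjoin_le ?_
    rintro y (⟨t, ⟨g, rfl⟩, rfl⟩ | ⟨⟨i, k⟩, rfl⟩)
    · exact Algebra.subset_adjoin (Or.inl ⟨g, (htr g).symm⟩)
    · obtain ⟨a, c, e, he, hZ⟩ := rthaZ_eq_entry (A₀ := A₀) (N := n + 1) i k
      rw [hZ]
      refine Subalgebra.sub_mem _ (Algebra.subset_adjoin (Or.inr ⟨r i,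
        Finset.mem_image_of_mem r (Finset.mem_univ i), a, c, ?_⟩)) ?_
      · rw [rthaBeta_apply A₀ (n + 1) hr i]
      · rcases he with rfl | rfl
        · exact zero_mem _
        · exact one_mem _
  · intro u
    have hc := rtha_ringHom_ext
      ((RingHom.mapMatrix (Ideal.Quotient.factor
        (le_sup_right : maximalIdeal (RttwS O m) ^ n ≤
          rttwLam m lam ⊔ maximalIdeal (RttwS O m) ^ n))).comp π1.toRingHom)
      ((RingHom.mapMatrix (Ideal.Quotient.factor
        (le_sup_right : maximalIdeal (RttwS O m) ^ n ≤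
          rttwLam m lam ⊔ maximalIdeal (RttwS O m) ^ n))).comp πχ.toRingHom)
      (fun a => by
        have := H.cong a
        rw [← hπ1a, ← hπχa] at this
        exact this)
      (fun k => by
        have h1 := hπ1Z k
        have h2 := hπχZ k
        show (π1 (rthaZ A₀ (n + 1) k)).map _ = (πχ (rthaZ A₀ (n + 1) k)).map _
        rw [h1, h2]) u
    exact hc
  · intro u
    obtain ⟨t0, ht0⟩ := H.base_T0 (rthaAug hN u)
    refine ⟨t0, ?_⟩
    rw [rtha_kills' π1 ev hπ1Z u _ rfl, hπ1a]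
    exact ht0

/-- the standard numbering of the framing variables: `(i, k) ↦ h + 4 i + k` -/
noncomputable def rthaEv (ι : Type) [Fintype ι] (h : ℕ) (x : ι × Fin 4) :
    Fin (h + 4 * Fintype.card ι) :=
  ⟨h + (4 * (Fintype.equivFin ι x.1 : ℕ) + (x.2 : ℕ)), by
    have h1 := (Fintype.equivFin ι x.1).isLt
    have h2 := x.2.isLt
    omega⟩

theorem rthaEv_surj (h : ℕ) (j : Fin (h + 4 * Fintype.card ι)) (hj : h ≤ (j : ℕ)) :
    ∃ x, rthaEv ι h x = j := by
  have hj2 := j.isLt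
  have hq : ((j : ℕ) - h) / 4 < Fintype.card ι := by omega
  refine ⟨((Fintype.equivFin ι).symm ⟨((j : ℕ) - h) / 4, hq⟩,
    ⟨((j : ℕ) - h) % 4, Nat.mod_lt _ (by norm_num)⟩), ?_⟩
  apply Fin.ext
  simp only [rthaEv, Equiv.apply_symm_apply]
  omega

/-- **HECKE-PACK**, with `m = h + 4 |ι|` (the `Y.m h` of `KSetup`). -/
theorem rtha_pack_std (p : ℕ) [Fact p.Prime] (lam : O)
    (ρbar : ResidualGaloisRep (ResidueField O)) (habs : ρbar.IsAbsolutelyIrreducible)
    (Smin Q : Finset ℕ) (r : ι → ℕ) (hr : Function.Injective r) (σ φ : ι → RtpaG) (tχ : ι → O)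
    (h d n : ℕ)
    {T0 : Type} [CommRing T0] [Algebra O T0] (j0 : T0 →ₐ[O] Matrix (Fin d) (Fin d) O)
    (Sig0 Phi0 : ι → Matrix (Fin 2) (Fin 2) T0)
    (ιA₀ : ResidueField O →+* ResidueField A₀)
    (ρ₀ : GaloisRepAdic A₀) (b₀ : Module.Basis (Fin 2) A₀ ρ₀.V)
    (φ1 φχ : A₀ →ₐ[O] Matrix (Fin d) (Fin d) (RthkSn O (h + 4 * Fintype.card ι) n))
    (H : HkOut p lam ρbar Smin (Q ∪ Finset.univ.image r) σ φ tχ (h + 4 * Fintype.card ι) h d n
      j0 Sig0 Phi0 ιA₀ ρ₀ b₀ φ1 φχ) :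
    ∃ (A : Type) (_ : CommRing A) (_ : IsLocalRing A) (_ : Algebra O A)
      (ιA : ResidueField O →+* ResidueField A) (ρ : GaloisRepAdic A)
      (b : Module.Basis (Fin 2) A ρ.V) (β βi : ℕ → Matrix (Fin 2) (Fin 2) A)
      (π1 πχ : A →ₐ[O] Matrix (Fin d) (Fin d)
        (RttwS O (h + 4 * Fintype.card ι) ⧸
          maximalIdeal (RttwS O (h + 4 * Fintype.card ι)) ^ n)),
      TWGal p ρbar Smin Q r σ φ tχ lam (h + 4 * Fintype.card ι) d j0 Sig0 Phi0 n
        (rttwEvenQ O (h + 4 * Fintype.card ι) h n) ιA ρ b β βi π1 πχ :=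
  rtha_pack p lam ρbar habs Smin Q r hr σ φ tχ (h + 4 * Fintype.card ι) h d n (rthaEv ι h)
    (rthaEv_surj h) j0 Sig0 Phi0 ιA₀ ρ₀ b₀ φ1 φχ H

end Pack

end Fermat.Agent.RT.Prod


end ZBRT_011_7

/-! ### bundled: `Fermat.Agent.RT.Hecke.Pack` -/
section ZBRT_011_8

/-!
# K-machine, HECKE-asm: `StmtHkPack` from helper70's `rtha_pack_std`
-/

set_option autoImplicit false

namespace Fermat.Agent.RT

open IsLocalRing Fermat.Agent.RT.Prod

/-- **HECKE-PACK** (helper70's `Prod.rtha_pack_std` in the shape of the final assembly). -/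
theorem stmtHkPack : StmtHkPack := by
  intro P N q _ Y h d n Q T0 _ _ j0 Sig0 Phi0 A₀ _ _ _ ιA ρ b φ1 φχ H
  have : Fact P.p.Prime := ⟨P.pp⟩
  exact rtha_pack_std P.p Y.lam Y.ρbar Y.hyp.habs Y.Smin Q Y.r Y.r_inj Y.σ Y.φ Y.tχ h d n j0
    Sig0 Phi0 ιA ρ b φ1 φχ H

end Fermat.Agent.RT


end ZBRT_011_8

/-! ### bundled: `Fermat.Agent.RT.K1.Coeff` -/
section ZBRT_011_9
/-
K-machine, piece K1-O (helper22): the coefficient ring `𝒪 = ℤ_p[ζ_p]`.

`k1oRing p = ℤ_p[X] / (Φ_p(X + 1))`, `π = X`, `ζ = 1 + π`, `λ = 1 - ζ`: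
a complete discrete valuation ring (a domain of characteristic `0`), maximal ideal `(λ)`,
finite residue field, `ζ` a primitive `p`-th root of unity, `p ∈ (λ)`, `2` a unit (`p` odd),
square roots of elements `≡ 1 mod λ` (Hensel).
(Eisenstein ⇒ irreducible ⇒ domain; Weierstrass: `ℤ_p[X]/(f) ≅ ℤ_p[[X]]/(f)` ⇒ local, complete.)
-/

set_option autoImplicit false
set_option linter.unusedSectionVars false
set_option linter.unusedVariables false
set_option linter.style.haveILetI false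

noncomputable section

namespace Fermat.Agent.RT.K1

open Polynomial IsLocalRing

variable (p : ℕ) [hp : Fact p.Prime]

/-- `f = Φ_p(X + 1)` over `ℤ_p`. -/
def k1oPoly : ℤ_[p][X] := (cyclotomic p ℤ_[p]).comp (X + 1)

theorem k1oPoly_eq_map :
    k1oPoly p = ((cyclotomic p ℤ).comp (X + 1)).map (Int.castRingHom ℤ_[p]) := by
  rw [k1oPoly, Polynomial.map_comp, map_cyclotomic]
  simp

theorem k1oPoly_monic : (k1oPoly p).Monic := by
  have h : (k1oPoly p) = (cyclotomic p ℤ_[p]).comp (X + C 1) := by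
    rw [k1oPoly, map_one]
  rw [h]
  exact (cyclotomic.monic p ℤ_[p]).comp_X_add_C 1

theorem k1oPoly_natDegree : (k1oPoly p).natDegree = p - 1 := by
  have h : (k1oPoly p) = (cyclotomic p ℤ_[p]).comp (X + C 1) := by
    rw [k1oPoly, map_one]
  rw [h, natDegree_comp, natDegree_X_add_C, mul_one, natDegree_cyclotomic,
    Nat.totient_prime hp.out]

theorem k1oPoly_natDegree_pos : 0 < (k1oPoly p).natDegree := by
  rw [k1oPoly_natDegree]
  have := hp.out.two_le
  omega

theorem k1oPoly_coeff_zero : (k1oPoly p).coeff 0 = (p : ℤ_[p]) := by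
  rw [coeff_zero_eq_eval_zero, k1oPoly, eval_comp]
  simp [eval_one_cyclotomic_prime]

theorem k1o_p_notMem_sq : (p : ℤ_[p]) ∉ maximalIdeal ℤ_[p] ^ 2 := by
  rw [PadicInt.maximalIdeal_eq_span_p, Ideal.span_singleton_pow, Ideal.mem_span_singleton]
  rintro ⟨c, hc⟩
  have hp0 : (p : ℤ_[p]) ≠ 0 := by
    exact_mod_cast hp.out.ne_zero
  have h1 : (p : ℤ_[p]) * 1 = (p : ℤ_[p]) * ((p : ℤ_[p]) * c) := by
    rw [mul_one, ← mul_assoc, ← pow_two]
    exact hc
  have h2 := mul_left_cancel₀ hp0 h1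
  have h3 : IsUnit (p : ℤ_[p]) := IsUnit.of_mul_eq_one _ h2.symm
  exact PadicInt.p_nonunit h3

theorem k1oPoly_isEisensteinAt : (k1oPoly p).IsEisensteinAt (maximalIdeal ℤ_[p]) := by
  have hZ := cyclotomic_comp_X_add_one_isEisensteinAt p
  refine ⟨?_, ?_, ?_⟩
  · rw [(k1oPoly_monic p).leadingCoeff]
    exact fun h => (Ideal.ne_top_iff_one _).1 (maximalIdeal.isMaximal ℤ_[p]).ne_top h
  · intro n hn
    have hmonZ : ((cyclotomic p ℤ).comp (X + 1)).Monic := by
      have h : ((cyclotomic p ℤ).comp (X + 1)) = (cyclotomic p ℤ).comp (X + C 1) := by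
        rw [map_one]
      rw [h]
      exact (cyclotomic.monic p ℤ).comp_X_add_C 1
    have hdeg : ((cyclotomic p ℤ).comp (X + 1)).natDegree = (k1oPoly p).natDegree := by
      rw [k1oPoly_eq_map, hmonZ.natDegree_map]
    have h1 := hZ.mem (hdeg ▸ hn)
    rw [k1oPoly_eq_map, coeff_map]
    rw [Ideal.mem_span_singleton] at h1
    obtain ⟨c, hc⟩ := h1
    rw [hc, PadicInt.maximalIdeal_eq_span_p, Ideal.mem_span_singleton]
    exact ⟨(c : ℤ_[p]), by simp⟩
  · rw [k1oPoly_coeff_zero]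
    exact k1o_p_notMem_sq p

theorem k1oPoly_irreducible : Irreducible (k1oPoly p) :=
  (k1oPoly_isEisensteinAt p).irreducible (maximalIdeal.isMaximal ℤ_[p]).isPrime
    (k1oPoly_monic p).isPrimitive (k1oPoly_natDegree_pos p)

theorem k1oPoly_prime : Prime (k1oPoly p) := (k1oPoly_irreducible p).prime

theorem k1oPoly_isDistinguishedAt : (k1oPoly p).IsDistinguishedAt (maximalIdeal ℤ_[p]) :=
  ⟨(k1oPoly_isEisensteinAt p).isWeaklyEisensteinAt, k1oPoly_monic p⟩

/-- **The coefficient ring** `𝒪 = ℤ_p[ζ_p] = ℤ_p[X]/(Φ_p(X + 1))`. -/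
abbrev k1oRing : Type := AdjoinRoot (k1oPoly p)

instance k1o_isDomain : IsDomain (k1oRing p) := AdjoinRoot.isDomain_of_prime (k1oPoly_prime p)

/-- `π = ζ - 1`, the class of `X`. -/
def k1oPi : k1oRing p := AdjoinRoot.root (k1oPoly p)

/-- `ζ = 1 + π`. -/
def k1oZeta : k1oRing p := 1 + k1oPi p

/-- `λ = 1 - ζ`. -/
def k1oLam : k1oRing p := 1 - k1oZeta p

theorem k1oLam_eq : k1oLam p = -k1oPi p := by
  rw [k1oLam, k1oZeta]
  ring

theorem k1o_algebraMap_injective : Function.Injective (algebraMap ℤ_[p] (k1oRing p)) := by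
  apply AdjoinRoot.of.injective_of_degree_ne_zero
  rw [degree_eq_natDegree (k1oPoly_monic p).ne_zero]
  exact_mod_cast (k1oPoly_natDegree_pos p).ne'

instance k1o_charZero : CharZero (k1oRing p) :=
  charZero_of_injective_algebraMap (k1o_algebraMap_injective p)

/-- the surjection `ℤ_p[[X]] → 𝒪` (Weierstrass) -/
def k1oPhi : PowerSeries ℤ_[p] →+* k1oRing p :=
  ((k1oPoly_isDistinguishedAt p).algEquivQuotient.symm.toRingEquiv.toRingHom).comp
    (Ideal.Quotient.mk (Ideal.span {((k1oPoly p : ℤ_[p][X]) : PowerSeries ℤ_[p])}))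

theorem k1oPhi_surjective : Function.Surjective (k1oPhi p) := by
  intro y
  obtain ⟨x, hx⟩ := (k1oPoly_isDistinguishedAt p).algEquivQuotient.symm.surjective y
  obtain ⟨g, rfl⟩ := Ideal.Quotient.mk_surjective x
  exact ⟨g, hx⟩

theorem k1oPhi_C (a : ℤ_[p]) : k1oPhi p (PowerSeries.C a) = algebraMap ℤ_[p] (k1oRing p) a := by
  have h1 : (Ideal.Quotient.mk (Ideal.span {((k1oPoly p : ℤ_[p][X]) : PowerSeries ℤ_[p])}))
      (PowerSeries.C a) = algebraMap ℤ_[p] _ a := rfl
  show (k1oPoly_isDistinguishedAt p).algEquivQuotient.symm _ = _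
  rw [h1, AlgEquiv.commutes]
  rfl

instance k1o_isLocalRing : IsLocalRing (k1oRing p) :=
  IsLocalRing.of_surjective' (k1oPhi p) (k1oPhi_surjective p)

instance k1o_isNoetherianRing : IsNoetherianRing (k1oRing p) :=
  isNoetherianRing_of_surjective _ _ (k1oPhi p) (k1oPhi_surjective p)

instance k1o_isAdicComplete : IsAdicComplete (maximalIdeal (k1oRing p)) (k1oRing p) := by
  haveI : IsAdicComplete (maximalIdeal (PowerSeries ℤ_[p])) (PowerSeries ℤ_[p]) :=
    Fermat.Agent.RT.K2c.rtk2c_isAdicComplete (σ := Unit) (A := ℤ_[p])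
  exact Fermat.Agent.RT.K2c.rtk2c_isAdicComplete_of_surjective (k1oPhi p) (k1oPhi_surjective p)

instance k1o_finite_residueField : Finite (ResidueField (k1oRing p)) := by
  haveI : Finite (ResidueField ℤ_[p]) := Finite.of_equiv _ (PadicInt.residueField (p := p)).symm.toEquiv
  haveI : Finite (ResidueField (PowerSeries ℤ_[p])) :=
    Fermat.Agent.RT.K2c.rtk2c_finite_residueField (σ := Unit) (A := ℤ_[p])
  exact Fermat.Agent.RT.K2c.rtk2c_finite_residueField_of_surjective (k1oPhi p)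
    (k1oPhi_surjective p)

/-- `p ∈ 𝔪`. -/
theorem k1o_p_mem : (p : k1oRing p) ∈ maximalIdeal (k1oRing p) := by
  haveI : IsLocalHom (k1oPhi p) := (k1oPhi_surjective p).isLocalHom (k1oPhi p)
  rw [mem_maximalIdeal, mem_nonunits_iff]
  intro hu
  have h1 : k1oPhi p (PowerSeries.C (p : ℤ_[p])) = (p : k1oRing p) := by
    rw [k1oPhi_C, map_natCast]
  rw [← h1] at hu
  have h2 := isUnit_of_map_unit (k1oPhi p) _ hu
  rw [PowerSeries.isUnit_iff_constantCoeff, PowerSeries.constantCoeff_C] at h2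
  exact PadicInt.p_nonunit h2

section general

variable {R A : Type*} [CommRing R] [CommRing A] [Algebra R A]

theorem k1o_aeval_divX (x : A) (g : R[X]) :
    aeval x g = x * aeval x g.divX + algebraMap R A (g.coeff 0) := by
  conv_lhs => rw [← divX_mul_X_add g]
  rw [map_add, map_mul, aeval_X, aeval_C, mul_comm]

theorem k1o_aeval_monic (x : A) {g : R[X]} (hg : g.Monic) :
    aeval x g = x ^ g.natDegree +
      ∑ i ∈ Finset.range g.natDegree, algebraMap R A (g.coeff i) * x ^ i := by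
  conv_lhs => rw [hg.as_sum]
  simp only [map_add, map_pow, aeval_X, map_sum, map_mul, aeval_C]

end general

/-- `f(π) = 0`. -/
theorem k1o_aeval_pi : aeval (k1oPi p) (k1oPoly p) = 0 := by
  rw [k1oPi, AdjoinRoot.aeval_eq, AdjoinRoot.mk_self]

/-- `p = -π · g(π)`. -/
theorem k1o_p_eq : (p : k1oRing p) = -(k1oPi p * aeval (k1oPi p) (k1oPoly p).divX) := by
  have h := k1o_aeval_pi p
  rw [k1o_aeval_divX, k1oPoly_coeff_zero, map_natCast] at h
  exact eq_neg_of_add_eq_zero_right h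

theorem k1o_pi_dvd_p : k1oPi p ∣ (p : k1oRing p) :=
  ⟨-aeval (k1oPi p) (k1oPoly p).divX, by rw [k1o_p_eq p]; ring⟩

theorem k1o_pi_mem : k1oPi p ∈ maximalIdeal (k1oRing p) := by
  rw [mem_maximalIdeal, mem_nonunits_iff]
  intro hu
  have h2 := k1o_aeval_pi p
  have h3 : k1oPi p ^ (k1oPoly p).natDegree ∈ maximalIdeal (k1oRing p) := by
    rw [k1o_aeval_monic (k1oPi p) (k1oPoly_monic p)] at h2
    have h5 : k1oPi p ^ (k1oPoly p).natDegree = -∑ i ∈ Finset.range (k1oPoly p).natDegree,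
          algebraMap ℤ_[p] (k1oRing p) ((k1oPoly p).coeff i) * k1oPi p ^ i :=
      eq_neg_of_add_eq_zero_left h2
    rw [h5]
    apply Ideal.neg_mem_iff _ |>.mpr
    apply Ideal.sum_mem
    intro i hi
    apply Ideal.mul_mem_right
    have h6 := (k1oPoly_isEisensteinAt p).mem (Finset.mem_range.1 hi)
    rw [PadicInt.maximalIdeal_eq_span_p, Ideal.mem_span_singleton] at h6
    obtain ⟨c', hc'⟩ := h6
    rw [hc', map_mul, map_natCast]
    exact Ideal.mul_mem_right _ _ (k1o_p_mem p)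
  rw [mem_maximalIdeal, mem_nonunits_iff] at h3
  exact h3 (hu.pow _)

/-- every element is a constant plus a multiple of `π` -/
theorem k1o_decomp (x : k1oRing p) :
    ∃ (c : ℤ_[p]) (y : k1oRing p), x = algebraMap ℤ_[p] (k1oRing p) c + k1oPi p * y := by
  obtain ⟨g, rfl⟩ := AdjoinRoot.mk_surjective x
  have h := k1o_aeval_divX (AdjoinRoot.root (k1oPoly p)) g
  rw [AdjoinRoot.aeval_eq] at h
  refine ⟨g.coeff 0, aeval (AdjoinRoot.root (k1oPoly p)) g.divX, ?_⟩
  rw [h]
  unfold k1oPi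
  ring

theorem k1o_const_mem {c : ℤ_[p]} {y : k1oRing p}
    (hx : algebraMap ℤ_[p] (k1oRing p) c + k1oPi p * y ∈ maximalIdeal (k1oRing p)) :
    c ∈ maximalIdeal ℤ_[p] := by
  rw [mem_maximalIdeal, mem_nonunits_iff]
  intro hcu
  have h1 : IsUnit (algebraMap ℤ_[p] (k1oRing p) c) := hcu.map _
  have h2 : k1oPi p * y ∈ maximalIdeal (k1oRing p) := Ideal.mul_mem_right _ _ (k1o_pi_mem p)
  have h3 : algebraMap ℤ_[p] (k1oRing p) c ∈ maximalIdeal (k1oRing p) := by
    have := Ideal.sub_mem _ hx h2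
    rwa [add_sub_cancel_right] at this
  rw [mem_maximalIdeal, mem_nonunits_iff] at h3
  exact h3 h1

/-- **`𝔪 = (π)`.** -/
theorem k1o_maximalIdeal_eq_pi : maximalIdeal (k1oRing p) = Ideal.span {k1oPi p} := by
  apply le_antisymm
  · intro x hx
    obtain ⟨c, y, rfl⟩ := k1o_decomp p x
    have hc := k1o_const_mem p hx
    rw [PadicInt.maximalIdeal_eq_span_p, Ideal.mem_span_singleton] at hc
    obtain ⟨c', rfl⟩ := hc
    rw [map_mul, map_natCast]
    apply Ideal.add_mem
    · apply Ideal.mul_mem_right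
      exact Ideal.mem_span_singleton.2 (k1o_pi_dvd_p p)
    · exact Ideal.mul_mem_right _ _ (Ideal.mem_span_singleton_self _)
  · rw [Ideal.span_singleton_le_iff_mem]
    exact k1o_pi_mem p

/-- **`𝔪 = (λ)`**, `λ = 1 - ζ`. -/
theorem k1o_maximalIdeal_eq : maximalIdeal (k1oRing p) = Ideal.span {k1oLam p} := by
  rw [k1o_maximalIdeal_eq_pi, k1oLam_eq]
  exact (Ideal.span_singleton_neg _).symm

theorem k1o_pi_ne_zero : k1oPi p ≠ 0 := by
  intro h0
  have h := k1o_p_eq p
  rw [h0, zero_mul, neg_zero] at h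
  have hp0 : (p : k1oRing p) ≠ 0 := by exact_mod_cast hp.out.ne_zero
  exact hp0 h

theorem k1o_not_isField : ¬ IsField (k1oRing p) := by
  intro hF
  obtain ⟨b, hb⟩ := hF.mul_inv_cancel (k1o_pi_ne_zero p)
  have h1 := k1o_pi_mem p
  rw [mem_maximalIdeal, mem_nonunits_iff] at h1
  exact h1 (IsUnit.of_mul_eq_one _ hb)

instance k1o_isDVR : IsDiscreteValuationRing (k1oRing p) := by
  have h : Submodule.IsPrincipal (maximalIdeal (k1oRing p)) :=
    ⟨⟨k1oPi p, k1o_maximalIdeal_eq_pi p⟩⟩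
  exact ((IsDiscreteValuationRing.TFAE (k1oRing p) (k1o_not_isField p)).out 0 4).mpr h

theorem k1o_primitive_of_aeval {A : Type*} [CommRing A] [IsDomain A] [Algebra ℤ_[p] A]
    [NeZero ((p : ℕ) : A)] (x : A)
    (h : aeval x ((cyclotomic p ℤ_[p]).comp (X + 1)) = 0) : IsPrimitiveRoot (1 + x) p := by
  rw [← isRoot_cyclotomic_iff, IsRoot.def]
  rw [aeval_def, eval₂_eq_eval_map, Polynomial.map_comp, map_cyclotomic, eval_comp] at h
  simpa [add_comm] using h

/-- `ζ` is a primitive `p`-th root of unity. -/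
theorem k1o_zeta_primitive : IsPrimitiveRoot (k1oZeta p) p := by
  haveI : NeZero ((p : ℕ) : k1oRing p) := ⟨by exact_mod_cast hp.out.ne_zero⟩
  exact k1o_primitive_of_aeval p (k1oPi p) (k1o_aeval_pi p)

theorem k1o_one_eq_sub {A : Type*} [CommRing A] (n : ℕ) (hn : n % 2 = 1) :
    (1 : A) = (n : A) - 2 * ((n / 2 : ℕ) : A) := by
  have h3 : n = 2 * (n / 2) + 1 := by omega
  have h4 := congrArg (Nat.cast : ℕ → A) h3
  push_cast at h4
  rw [h4]
  ring

/-- `2` is a unit (`p` odd). -/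
theorem k1o_isUnit_two (hp2 : p ≠ 2) : IsUnit (2 : k1oRing p) := by
  by_contra h2
  have h2m : (2 : k1oRing p) ∈ maximalIdeal (k1oRing p) := by
    rw [mem_maximalIdeal, mem_nonunits_iff]; exact h2
  have hodd : p % 2 = 1 := by
    rcases hp.out.eq_two_or_odd with h | h
    · exact absurd h hp2
    · exact h
  have h1 : (1 : k1oRing p) = (p : k1oRing p) - 2 * ((p / 2 : ℕ) : k1oRing p) :=
    k1o_one_eq_sub p hodd
  have h5 : (1 : k1oRing p) ∈ maximalIdeal (k1oRing p) := by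
    rw [h1]
    exact Ideal.sub_mem _ (k1o_p_mem p) (Ideal.mul_mem_right _ _ h2m)
  exact (Ideal.ne_top_iff_one _).1 (maximalIdeal.isMaximal _).ne_top h5

/-- Square roots of elements `≡ 1 mod λ` (Hensel, `p` odd). -/
theorem k1o_exists_sqrt (hp2 : p ≠ 2) (q : k1oRing p) (hq : q - 1 ∈ maximalIdeal (k1oRing p)) :
    ∃ s t : k1oRing p, s ^ 2 = q ∧ s = 1 + k1oLam p * t := by
  have hH := HenselianRing.is_henselian (R := k1oRing p) (I := maximalIdeal (k1oRing p))
    (X ^ 2 - C q) (monic_X_pow_sub_C q (by norm_num)) 1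
    (by
      simp only [eval_sub, eval_pow, eval_X, eval_C, one_pow]
      have := Ideal.neg_mem_iff _ |>.mpr hq
      rwa [neg_sub] at this)
    (by
      simp only [derivative_sub, derivative_X_pow, derivative_C, sub_zero, eval_mul, eval_pow,
        eval_X, eval_C, Nat.cast_ofNat, Nat.add_one_sub_one, pow_one, mul_one, eval_ofNat]
      exact (k1o_isUnit_two p hp2).map _)
  obtain ⟨a, ha, ha1⟩ := hH
  rw [k1o_maximalIdeal_eq, Ideal.mem_span_singleton] at ha1
  obtain ⟨t, ht⟩ := ha1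
  refine ⟨a, t, ?_, ?_⟩
  · rw [IsRoot.def] at ha
    simp only [eval_sub, eval_pow, eval_X, eval_C] at ha
    exact sub_eq_zero.1 ha
  · rw [← ht]
    ring

instance k1o_module_finite : Module.Finite ℤ_[p] (k1oRing p) :=
  Module.Finite.of_basis (AdjoinRoot.powerBasis' (k1oPoly_monic p)).basis

instance k1o_module_free : Module.Free ℤ_[p] (k1oRing p) :=
  Module.Free.of_basis (AdjoinRoot.powerBasis' (k1oPoly_monic p)).basis

theorem k1o_finrank : Module.finrank ℤ_[p] (k1oRing p) = p - 1 := by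
  rw [(AdjoinRoot.powerBasis' (k1oPoly_monic p)).finrank, AdjoinRoot.powerBasis'_dim,
    k1oPoly_natDegree]

/-! ### the residue field is `𝔽_p` -/

theorem k1o_residue_p : ((p : ℕ) : ResidueField (k1oRing p)) = 0 := by
  have h : residue (k1oRing p) (p : k1oRing p) = 0 := (residue_eq_zero_iff _).2 (k1o_p_mem p)
  rwa [map_natCast] at h

instance k1o_charP_residue : CharP (ResidueField (k1oRing p)) p :=
  (CharP.charP_iff_prime_eq_zero hp.out).mpr (k1o_residue_p p)

theorem k1o_residue_const (c : ℤ_[p]) :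
    ∃ n : ℕ, residue (k1oRing p) (algebraMap ℤ_[p] (k1oRing p) c) = (n : ResidueField (k1oRing p)) := by
  obtain ⟨n, -, hn⟩ := PadicInt.exists_mem_range (p := p) c
  refine ⟨n, ?_⟩
  rw [PadicInt.maximalIdeal_eq_span_p, Ideal.mem_span_singleton] at hn
  obtain ⟨d, hd⟩ := hn
  have h1 : algebraMap ℤ_[p] (k1oRing p) c = (n : k1oRing p) + (p : k1oRing p) *
      algebraMap ℤ_[p] (k1oRing p) d := by
    have := congrArg (algebraMap ℤ_[p] (k1oRing p)) hd
    rw [map_sub, map_mul, map_natCast, map_natCast] at this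
    rw [← this]
    ring
  rw [h1, map_add, map_mul, map_natCast, map_natCast, k1o_residue_p, zero_mul, add_zero]

/-- **The residue field of `𝒪` is `𝔽_p`.** -/
def k1oResidueEquiv : ZMod p ≃+* ResidueField (k1oRing p) :=
  RingEquiv.ofBijective (ZMod.castHom (dvd_refl p) (ResidueField (k1oRing p)))
    ⟨RingHom.injective _, by
      intro y
      obtain ⟨x, rfl⟩ := residue_surjective y
      obtain ⟨c, z, rfl⟩ := k1o_decomp p x
      obtain ⟨n, hn⟩ := k1o_residue_const p c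
      refine ⟨(n : ZMod p), ?_⟩
      rw [map_natCast]
      have h2 : residue (k1oRing p) (k1oPi p * z) = 0 :=
        (residue_eq_zero_iff _).2 (Ideal.mul_mem_right _ _ (k1o_pi_mem p))
      show (n : ResidueField (k1oRing p)) = residue (k1oRing p) _
      rw [map_add, h2, add_zero, hn]⟩

theorem k1o_card_residue : Nat.card (ResidueField (k1oRing p)) = p := by
  rw [← Nat.card_congr (k1oResidueEquiv p).toEquiv, Nat.card_zmod]

/-! ### the data at the trivial primes -/

theorem k1o_lam_dvd_zeta_sub_one : k1oLam p ∣ k1oZeta p - 1 :=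
  ⟨-1, by rw [k1oLam]; ring⟩

theorem k1o_lam_dvd_zeta_pow_sub_one (n : ℕ) : k1oLam p ∣ k1oZeta p ^ n - 1 := by
  have h := sub_dvd_pow_sub_pow (k1oZeta p) 1 n
  rw [one_pow] at h
  exact (k1o_lam_dvd_zeta_sub_one p).trans h

theorem k1o_zeta_pow : k1oZeta p ^ p = 1 := (k1o_zeta_primitive p).pow_eq_one

theorem k1o_zeta_ne_one : k1oZeta p ≠ 1 :=
  (k1o_zeta_primitive p).ne_one hp.out.one_lt

theorem k1o_zeta_mul_pow : k1oZeta p * k1oZeta p ^ (p - 1) = 1 := by
  rw [← pow_succ', Nat.sub_add_cancel hp.out.one_le, k1o_zeta_pow]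

/-- `tχ = (ζ + ζ⁻¹)/2`, `δ = (ζ - ζ⁻¹)/2`. -/
theorem k1o_exists_chi (hp2 : p ≠ 2) : ∃ tχ δ : k1oRing p,
    tχ ^ 2 - δ ^ 2 = 1 ∧ (∃ r, tχ = 1 + k1oLam p * r) ∧ (∃ r, δ = k1oLam p * r) ∧
      tχ + δ = k1oZeta p ∧ (tχ - δ) * k1oZeta p = 1 ∧ δ ≠ 0 := by
  obtain ⟨u, hu⟩ := (k1o_isUnit_two p hp2).exists_right_inv
  set ζ := k1oZeta p with hζ
  set ζ' := k1oZeta p ^ (p - 1) with hζ'
  have hinv : ζ * ζ' = 1 := k1o_zeta_mul_pow p
  obtain ⟨a, ha⟩ := k1o_lam_dvd_zeta_sub_one p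
  obtain ⟨b, hb⟩ := k1o_lam_dvd_zeta_pow_sub_one p (p - 1)
  refine ⟨u * (ζ + ζ'), u * (ζ - ζ'), ?_, ⟨u * (a + b), ?_⟩, ⟨u * (a - b), ?_⟩, ?_, ?_, ?_⟩
  · have : (u * (ζ + ζ')) ^ 2 - (u * (ζ - ζ')) ^ 2 = (2 * u) ^ 2 * (ζ * ζ') := by ring
    rw [this, hu, hinv]
    ring
  · have h1 : ζ + ζ' = 2 + k1oLam p * (a + b) := by
      have : ζ + ζ' = 2 + ((ζ - 1) + (ζ' - 1)) := by ring
      rw [this, ha, hb]
      ring
    rw [h1]
    have : u * (2 + k1oLam p * (a + b)) = 2 * u + k1oLam p * (u * (a + b)) := by ring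
    rw [this, hu]
  · have h1 : ζ - ζ' = k1oLam p * (a - b) := by
      have : ζ - ζ' = (ζ - 1) - (ζ' - 1) := by ring
      rw [this, ha, hb]
      ring
    rw [h1]
    ring
  · have : u * (ζ + ζ') + u * (ζ - ζ') = (2 * u) * ζ := by ring
    rw [this, hu, one_mul]
  · have : (u * (ζ + ζ') - u * (ζ - ζ')) * ζ = (2 * u) * (ζ * ζ') := by ring
    rw [this, hu, hinv, one_mul]
  · intro h0
    have hu0 : u ≠ 0 := by
      intro h
      rw [h, mul_zero] at hu
      exact zero_ne_one hu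
    have h1 : ζ - ζ' = 0 := by
      rcases mul_eq_zero.1 h0 with h | h
      · exact absurd h hu0
      · exact h
    have h2 : ζ ^ 2 = 1 := by
      have : ζ ^ 2 = ζ * ζ' + ζ * (ζ - ζ') := by ring
      rw [this, hinv, h1, mul_zero, add_zero]
    have h3 := (k1o_zeta_primitive p).dvd_of_pow_eq_one 2 h2
    have h4 : p ≤ 2 := Nat.le_of_dvd (by norm_num) h3
    have h5 := hp.out.two_le
    exact hp2 (le_antisymm h4 h5)

/-- a trivial prime `r ≡ 1 mod p`, `r ≠ 1`: `q = r` is `≡ 1 mod λ`, `≠ 1`, and has a square root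
`≡ 1 mod λ`. -/
theorem k1o_exists_sqrt_nat (hp2 : p ≠ 2) (r : ℕ) (hr : (p : ℤ) ∣ (r : ℤ) - 1) (hr1 : r ≠ 1) :
    (∃ t, (r : k1oRing p) = 1 + k1oLam p * t) ∧ (r : k1oRing p) ≠ 1 ∧
      ∃ s t : k1oRing p, s ^ 2 = (r : k1oRing p) ∧ s = 1 + k1oLam p * t := by
  have hmem : (r : k1oRing p) - 1 ∈ maximalIdeal (k1oRing p) := by
    obtain ⟨c, hc⟩ := hr
    have h1 : (r : k1oRing p) - 1 = (p : k1oRing p) * (c : k1oRing p) := by
      have := congrArg (Int.cast : ℤ → k1oRing p) hc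
      push_cast at this
      exact this
    rw [h1]
    exact Ideal.mul_mem_right _ _ (k1o_p_mem p)
  refine ⟨?_, ?_, k1o_exists_sqrt p hp2 _ hmem⟩
  · rw [k1o_maximalIdeal_eq, Ideal.mem_span_singleton] at hmem
    obtain ⟨t, ht⟩ := hmem
    exact ⟨t, by rw [← ht]; ring⟩
  · intro h
    have : (r : k1oRing p) = ((1 : ℕ) : k1oRing p) := by rw [h, Nat.cast_one]
    exact hr1 (Nat.cast_injective this)

/-! ### summary -/

/-- **K1-O**: for every odd prime `p` there is a coefficient ring as wanted by the K-machine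
(`RT/PlanTW.lean`): a complete discrete valuation ring `O` of characteristic `0` with finite
residue field of `p` elements, uniformiser `λ = 1 - ζ`, `ζ` a primitive `p`-th root of unity,
`2` a unit, and square roots of the integers `≡ 1 mod p`. -/
def StmtCoeff : Prop :=
  ∀ (p : ℕ) [Fact p.Prime], p ≠ 2 →
    ∃ (O : Type) (_ : CommRing O) (_ : IsDomain O) (_ : IsDiscreteValuationRing O)
      (_ : IsAdicComplete (maximalIdeal O) O) (_ : Finite (ResidueField O)) (_ : CharZero O)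
      (lam ζ : O),
      maximalIdeal O = Ideal.span {lam} ∧ lam = 1 - ζ ∧ IsPrimitiveRoot ζ p ∧
        (p : O) ∈ maximalIdeal O ∧ IsUnit (2 : O) ∧ Nat.card (ResidueField O) = p ∧
        (∀ q : O, q - 1 ∈ maximalIdeal O → ∃ s t : O, s ^ 2 = q ∧ s = 1 + lam * t) ∧
        (∃ tχ δ : O, tχ ^ 2 - δ ^ 2 = 1 ∧ (∃ r, tχ = 1 + lam * r) ∧ (∃ r, δ = lam * r) ∧
          tχ + δ = ζ ∧ (tχ - δ) * ζ = 1 ∧ δ ≠ 0)

theorem stmtCoeff : StmtCoeff := by
  intro p _ hp2
  exact ⟨k1oRing p, inferInstance, inferInstance, inferInstance, inferInstance, inferInstance,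
    inferInstance, k1oLam p, k1oZeta p, k1o_maximalIdeal_eq p, rfl, k1o_zeta_primitive p,
    k1o_p_mem p, k1o_isUnit_two p hp2, k1o_card_residue p, k1o_exists_sqrt p hp2,
    k1o_exists_chi p hp2⟩

end Fermat.Agent.RT.K1

end


end ZBRT_011_9

/-! ### bundled: `Fermat.Agent.RT.K1.Coeff2` -/
section ZBRT_011_10
/-
K-machine, piece K1-O2 (helper97): a coefficient ring with residue field `𝔽_{p²}`.

`𝒪₂ = 𝒪[Y]/(Y² - u)`, `𝒪 = ℤ_p[ζ_p]` (`k1oRing p`, helper22), `u` a non-square modulo `p`: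
a complete discrete valuation ring of characteristic `0`, unramified over `𝒪`
(uniformiser `λ = 1 - ζ`), residue field of order `p²`, in which every monic quadratic
polynomial over `𝔽_p` splits.

General part: for a discrete valuation ring `R` and a monic `g ∈ R[X]` with irreducible
reduction, `R[X]/(g)` is a discrete valuation ring with maximal ideal `𝔪_R · R[X]/(g)`,
complete if `R` is.
-/

set_option autoImplicit false
set_option linter.unusedSectionVars false
set_option linter.unusedVariables false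
set_option linter.style.haveILetI false

noncomputable section

namespace Fermat.Agent.RT.K1

open Polynomial IsLocalRing

/-! ### Finite free modules over a complete ring are complete -/

section complete

variable {R M ι : Type*} [CommRing R] [AddCommGroup M] [Module R M]

theorem k1o2_repr_mem (b : Module.Basis ι R M) (J : Ideal R) {x : M}
    (hx : x ∈ (J • ⊤ : Submodule R M)) (i : ι) : b.repr x i ∈ J := by
  refine Submodule.smul_induction_on hx ?_ ?_
  · intro r hr m _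
    rw [map_smul, Finsupp.smul_apply, smul_eq_mul]
    exact J.mul_mem_right _ hr
  · intro x y hx hy
    rw [map_add, Finsupp.add_apply]
    exact J.add_mem hx hy

theorem k1o2_mem_smul_top_of_repr [Fintype ι] (b : Module.Basis ι R M) (J : Ideal R) {x : M}
    (hx : ∀ i, b.repr x i ∈ J) : x ∈ (J • ⊤ : Submodule R M) := by
  rw [← b.sum_repr x]
  exact Submodule.sum_mem _ fun i _ => Submodule.smul_mem_smul (hx i) Submodule.mem_top

theorem k1o2_isHausdorff_of_basis (I : Ideal R) [IsHausdorff I R] (b : Module.Basis ι R M) :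
    IsHausdorff I M := by
  refine ⟨fun x hx => ?_⟩
  apply b.repr.injective
  ext i
  rw [map_zero, Finsupp.zero_apply]
  apply IsHausdorff.haus' (I := I)
  intro n
  rw [SModEq.zero]
  have h1 := hx n
  rw [SModEq.zero] at h1
  have h2 := k1o2_repr_mem b (I ^ n) h1 i
  rw [smul_eq_mul, Ideal.mul_top]
  exact h2

theorem k1o2_isPrecomplete_of_basis [Fintype ι] (I : Ideal R) [IsPrecomplete I R]
    (b : Module.Basis ι R M) : IsPrecomplete I M := by
  refine ⟨fun f hf => ?_⟩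
  have hc : ∀ i, ∃ L : R, ∀ n, b.repr (f n) i ≡ L [SMOD (I ^ n • ⊤ : Submodule R R)] := by
    intro i
    apply IsPrecomplete.prec' (I := I)
    intro m n hmn
    rw [SModEq.sub_mem]
    have h1 := hf hmn
    rw [SModEq.sub_mem] at h1
    have h2 := k1o2_repr_mem b (I ^ m) h1 i
    rw [map_sub, Finsupp.sub_apply] at h2
    rw [smul_eq_mul, Ideal.mul_top]
    exact h2
  choose L hL using hc
  refine ⟨∑ i, L i • b i, fun n => ?_⟩
  rw [SModEq.sub_mem]
  apply k1o2_mem_smul_top_of_repr b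
  intro i
  have h3 := hL i n
  rw [SModEq.sub_mem, smul_eq_mul, Ideal.mul_top] at h3
  rw [map_sub, Finsupp.sub_apply, b.repr_sum_self]
  exact h3

theorem k1o2_isAdicComplete_of_basis [Fintype ι] (I : Ideal R) [IsAdicComplete I R]
    (b : Module.Basis ι R M) : IsAdicComplete I M :=
  { toIsHausdorff := k1o2_isHausdorff_of_basis I b
    toIsPrecomplete := k1o2_isPrecomplete_of_basis I b }

end complete

/-! ### Quadratic polynomials over `𝔽_p` split in a field with `p²` elements -/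

section split

theorem k1o2_card_adjoinRoot {k : Type*} [Field k] [Finite k] {f : k[X]} (hf : f.Monic) :
    Nat.card (AdjoinRoot f) = Nat.card k ^ f.natDegree := by
  have e := (AdjoinRoot.powerBasis' hf).basis.equivFun
  rw [Nat.card_congr e.toEquiv, Nat.card_fun, Nat.card_fin, AdjoinRoot.powerBasis'_dim]

theorem k1o2_finite_adjoinRoot {k : Type*} [Field k] [Finite k] {f : k[X]} (hf : f.Monic) :
    Finite (AdjoinRoot f) := by
  have e := (AdjoinRoot.powerBasis' hf).basis.equivFun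
  exact Finite.of_equiv _ e.toEquiv.symm

theorem k1o2_split_of_root {K : Type*} [Field K] {f : K[X]} (hf : f.Monic)
    (hd : f.natDegree = 2) {α : K} (hα : f.IsRoot α) : ∃ β : K, f = (X - C α) * (X - C β) := by
  have h1 : (X - C α) * (f /ₘ (X - C α)) = f := mul_divByMonic_eq_iff_isRoot.2 hα
  have hq : (f /ₘ (X - C α)).Monic := by
    have h2 : ((X - C α) * (f /ₘ (X - C α))).Monic := by rw [h1]; exact hf
    exact (monic_X_sub_C α).of_mul_monic_left h2
  have hqd : (f /ₘ (X - C α)).natDegree = 1 := by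
    rw [natDegree_divByMonic f (monic_X_sub_C α), hd, natDegree_X_sub_C]
  have h2 := hq.eq_X_add_C hqd
  refine ⟨-(f /ₘ (X - C α)).coeff 0, ?_⟩
  rw [map_neg, sub_neg_eq_add, ← h2, h1]

theorem k1o2_exists_root (p : ℕ) [Fact p.Prime] {K : Type*} [Field K] [Finite K]
    (hK : Nat.card K = p ^ 2) (φ : ZMod p →+* K) (f : (ZMod p)[X]) (hf : f.Monic)
    (hd : f.natDegree = 2) : ∃ α : K, (f.map φ).IsRoot α := by
  by_cases hroot : ∃ a, f.IsRoot a
  · obtain ⟨a, ha⟩ := hroot
    exact ⟨φ a, ha.map⟩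
  · have hirr : Irreducible f := by
      rw [hf.irreducible_iff_roots_eq_zero_of_degree_le_three (by omega) (by omega)]
      apply Multiset.eq_zero_of_forall_notMem
      intro a ha
      exact hroot ⟨a, (mem_roots hf.ne_zero).1 ha⟩
    haveI : Fact (Irreducible f) := ⟨hirr⟩
    haveI : CharP K p := charP_of_injective_ringHom φ.injective p
    letI : Algebra (ZMod p) K := ZMod.algebra K p
    haveI : Finite (AdjoinRoot f) := k1o2_finite_adjoinRoot hf
    letI : Fintype K := Fintype.ofFinite K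
    letI : Fintype (AdjoinRoot f) := Fintype.ofFinite _
    have hcard : Fintype.card K = Fintype.card (AdjoinRoot f) := by
      rw [Fintype.card_eq_nat_card, Fintype.card_eq_nat_card, hK, k1o2_card_adjoinRoot hf, hd,
        Nat.card_zmod]
    have e : K ≃ₐ[ZMod p] AdjoinRoot f := FiniteField.algEquivOfCardEq p hcard
    refine ⟨e.symm (AdjoinRoot.root f), ?_⟩
    have h1 : aeval (e.symm (AdjoinRoot.root f)) f = 0 := by
      rw [aeval_algEquiv, AlgHom.comp_apply, AdjoinRoot.aeval_eq, AdjoinRoot.mk_self]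
      exact map_zero _
    have h2 : φ = algebraMap (ZMod p) K := Subsingleton.elim _ _
    rw [IsRoot.def, h2, eval_map_algebraMap]
    exact h1

/-- **Quadratic polynomials over `𝔽_p` split in a field with `p²` elements.** -/
theorem k1o2_split_quadratic (p : ℕ) [Fact p.Prime] {K : Type*} [Field K] [Finite K]
    (hK : Nat.card K = p ^ 2) (φ : ZMod p →+* K) (f : (ZMod p)[X]) (hf : f.Monic)
    (hd : f.natDegree = 2) : ∃ α β : K, f.map φ = (X - C α) * (X - C β) := by
  obtain ⟨α, hα⟩ := k1o2_exists_root p hK φ f hf hd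
  have hd' : (f.map φ).natDegree = 2 := by rw [hf.natDegree_map, hd]
  obtain ⟨β, hβ⟩ := k1o2_split_of_root (hf.map φ) hd' hα
  exact ⟨α, β, hβ⟩

/-- The characteristic polynomial of a `2 × 2` matrix over `𝔽_p` splits in a field with `p²`
elements. -/
theorem k1o2_split_charpoly (p : ℕ) [Fact p.Prime] {K : Type*} [Field K] [Finite K]
    (hK : Nat.card K = p ^ 2) (φ : ZMod p →+* K) (A : Matrix (Fin 2) (Fin 2) (ZMod p)) :
    ∃ α β : K, (A.map φ).charpoly = (X - C α) * (X - C β) := by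
  have h1 : (A.map φ).charpoly = A.charpoly.map φ := by
    have := Matrix.charpoly_map A φ
    simpa using this
  rw [h1]
  exact k1o2_split_quadratic p hK φ _ (Matrix.charpoly_monic A)
    (by rw [Matrix.charpoly_natDegree_eq_dim]; rfl)

/-- The characteristic polynomial of the base change to a field with `p²` elements of an
endomorphism of a `2`-dimensional `𝔽_p`-vector space splits. -/
theorem k1o2_split_linearMap_charpoly (p : ℕ) [Fact p.Prime] {K : Type*} [Field K] [Finite K]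
    [Algebra (ZMod p) K] (hK : Nat.card K = p ^ 2) {V : Type*} [AddCommGroup V]
    [Module (ZMod p) V] [Module.Finite (ZMod p) V] (hV : Module.finrank (ZMod p) V = 2)
    (f : Module.End (ZMod p) V) :
    ∃ α β : K, LinearMap.charpoly (f.baseChange K) = (X - C α) * (X - C β) := by
  rw [LinearMap.charpoly_baseChange]
  exact k1o2_split_quadratic p hK (algebraMap (ZMod p) K) _ (LinearMap.charpoly_monic f)
    (by rw [LinearMap.charpoly_natDegree, hV])

end split

/-! ### General part: unramified extensions `R[X]/(g)` of a discrete valuation ring -/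

section unram

variable {R : Type*} [CommRing R] [IsDomain R] [IsDiscreteValuationRing R] {g : R[X]}

theorem k1o2_irreducible (hg : g.Monic) (hirr : Irreducible (g.map (residue R))) :
    Irreducible g :=
  hg.irreducible_of_irreducible_map (residue R) g hirr

theorem k1o2_prime (hg : g.Monic) (hirr : Irreducible (g.map (residue R))) : Prime g :=
  (k1o2_irreducible hg hirr).prime

theorem k1o2_isDomain (hg : g.Monic) (hirr : Irreducible (g.map (residue R))) :
    IsDomain (AdjoinRoot g) :=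
  AdjoinRoot.isDomain_of_prime (k1o2_prime hg hirr)

theorem k1o2_natDegree_pos (hirr : Irreducible (g.map (residue R))) : 0 < g.natDegree := by
  have h1 := hirr.natDegree_pos
  exact lt_of_lt_of_le h1 natDegree_map_le

theorem k1o2_of_injective (hg : g.Monic) (hirr : Irreducible (g.map (residue R))) :
    Function.Injective (AdjoinRoot.of g) := by
  apply AdjoinRoot.of.injective_of_degree_ne_zero
  rw [degree_eq_natDegree hg.ne_zero]
  exact_mod_cast (k1o2_natDegree_pos hirr).ne'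

theorem k1o2_module_finite (hg : g.Monic) : Module.Finite R (AdjoinRoot g) :=
  Module.Finite.of_basis (AdjoinRoot.powerBasis' hg).basis

theorem k1o2_module_free (hg : g.Monic) : Module.Free R (AdjoinRoot g) :=
  Module.Free.of_basis (AdjoinRoot.powerBasis' hg).basis

theorem k1o2_isNoetherianRing (hg : g.Monic) : IsNoetherianRing (AdjoinRoot g) := by
  haveI := k1o2_module_finite hg
  exact IsNoetherianRing.of_finite R (AdjoinRoot g)

/-- the ideal `𝔪_R · R[X]/(g)` -/
def k1o2M (g : R[X]) : Ideal (AdjoinRoot g) := (maximalIdeal R).map (AdjoinRoot.of g)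

theorem k1o2M_isMaximal (hirr : Irreducible (g.map (residue R))) : (k1o2M g).IsMaximal := by
  apply Ideal.Quotient.maximal_of_isField
  have e := AdjoinRoot.quotAdjoinRootEquivQuotPolynomialQuot (maximalIdeal R) g
  have hmax : (Ideal.span {g.map (residue R)} : Ideal (ResidueField R)[X]).IsMaximal :=
    PrincipalIdealRing.isMaximal_of_irreducible hirr
  have hF : IsField ((ResidueField R)[X] ⧸
      (Ideal.span {g.map (residue R)} : Ideal (ResidueField R)[X])) :=
    (Ideal.Quotient.maximal_ideal_iff_isField_quotient _).1 hmax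
  exact MulEquiv.isField hF e.toMulEquiv

theorem k1o2M_unique (hg : g.Monic) (hirr : Irreducible (g.map (residue R)))
    (𝔫 : Ideal (AdjoinRoot g)) (h𝔫 : 𝔫.IsMaximal) : 𝔫 = k1o2M g := by
  haveI := k1o2_module_finite hg
  haveI : Algebra.IsIntegral R (AdjoinRoot g) := Algebra.IsIntegral.of_finite R (AdjoinRoot g)
  have h1 : (𝔫.comap (algebraMap R (AdjoinRoot g))).IsMaximal :=
    Ideal.isMaximal_comap_of_isIntegral_of_isMaximal 𝔫
  have h2 : 𝔫.comap (algebraMap R (AdjoinRoot g)) = maximalIdeal R := eq_maximalIdeal h1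
  have h3 : k1o2M g ≤ 𝔫 := by
    rw [k1o2M, Ideal.map_le_iff_le_comap]
    exact h2.ge
  exact ((k1o2M_isMaximal hirr).eq_of_le h𝔫.ne_top h3).symm

theorem k1o2_isLocalRing (hg : g.Monic) (hirr : Irreducible (g.map (residue R))) :
    IsLocalRing (AdjoinRoot g) :=
  IsLocalRing.of_unique_max_ideal
    ⟨k1o2M g, k1o2M_isMaximal hirr, fun 𝔫 h𝔫 => k1o2M_unique hg hirr 𝔫 h𝔫⟩


theorem k1o2_maximalIdeal_eq_M [IsLocalRing (AdjoinRoot g)]
    (hirr : Irreducible (g.map (residue R))) : maximalIdeal (AdjoinRoot g) = k1o2M g :=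
  (eq_maximalIdeal (k1o2M_isMaximal hirr)).symm

/-- a uniformiser of `R` generates the maximal ideal of `R[X]/(g)` -/
theorem k1o2_maximalIdeal_eq_span [IsLocalRing (AdjoinRoot g)]
    (hirr : Irreducible (g.map (residue R))) {ϖ : R} (hϖ : maximalIdeal R = Ideal.span {ϖ}) :
    maximalIdeal (AdjoinRoot g) = Ideal.span {AdjoinRoot.of g ϖ} := by
  rw [k1o2_maximalIdeal_eq_M hirr, k1o2M, hϖ, Ideal.map_span, Set.image_singleton]

theorem k1o2_not_isField [IsLocalRing (AdjoinRoot g)] (hg : g.Monic)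
    (hirr : Irreducible (g.map (residue R))) : ¬ IsField (AdjoinRoot g) := by
  obtain ⟨ϖ, hϖ⟩ := IsDiscreteValuationRing.exists_irreducible R
  have hmax := k1o2_maximalIdeal_eq_span hirr hϖ.maximalIdeal_eq
  have hne : AdjoinRoot.of g ϖ ≠ 0 := by
    intro h0
    exact hϖ.ne_zero (k1o2_of_injective hg hirr (h0.trans (map_zero _).symm))
  have hmem : AdjoinRoot.of g ϖ ∈ maximalIdeal (AdjoinRoot g) := by
    rw [hmax]
    exact Ideal.mem_span_singleton_self _
  intro hF
  obtain ⟨b, hb⟩ := hF.mul_inv_cancel hne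
  rw [mem_maximalIdeal, mem_nonunits_iff] at hmem
  exact hmem (IsUnit.of_mul_eq_one _ hb)

theorem k1o2_isDVR [IsDomain (AdjoinRoot g)] [IsLocalRing (AdjoinRoot g)]
    [IsNoetherianRing (AdjoinRoot g)] (hg : g.Monic)
    (hirr : Irreducible (g.map (residue R))) : IsDiscreteValuationRing (AdjoinRoot g) := by
  obtain ⟨ϖ, hϖ⟩ := IsDiscreteValuationRing.exists_irreducible R
  have h : Submodule.IsPrincipal (maximalIdeal (AdjoinRoot g)) :=
    ⟨⟨AdjoinRoot.of g ϖ, k1o2_maximalIdeal_eq_span hirr hϖ.maximalIdeal_eq⟩⟩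
  exact ((IsDiscreteValuationRing.TFAE (AdjoinRoot g) (k1o2_not_isField hg hirr)).out 0 4).mpr h

/-- the residue field of `R[X]/(g)` is `k[X]/(ḡ)` -/
def k1o2ResidueEquiv [IsLocalRing (AdjoinRoot g)] (hirr : Irreducible (g.map (residue R))) :
    ResidueField (AdjoinRoot g) ≃+* AdjoinRoot (g.map (residue R)) :=
  (Ideal.quotEquivOfEq (k1o2_maximalIdeal_eq_M hirr)).trans
    (AdjoinRoot.quotAdjoinRootEquivQuotPolynomialQuot (maximalIdeal R) g)

theorem k1o2_card_residue [IsLocalRing (AdjoinRoot g)] [Finite (ResidueField R)] (hg : g.Monic)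
    (hirr : Irreducible (g.map (residue R))) :
    Nat.card (ResidueField (AdjoinRoot g)) = Nat.card (ResidueField R) ^ g.natDegree := by
  rw [Nat.card_congr (k1o2ResidueEquiv hirr).toEquiv, k1o2_card_adjoinRoot (hg.map _),
    hg.natDegree_map]

theorem k1o2_finite_residue [IsLocalRing (AdjoinRoot g)] [Finite (ResidueField R)] (hg : g.Monic)
    (hirr : Irreducible (g.map (residue R))) : Finite (ResidueField (AdjoinRoot g)) := by
  haveI := k1o2_finite_adjoinRoot (hg.map (residue R))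
  exact Finite.of_equiv _ (k1o2ResidueEquiv hirr).toEquiv.symm


theorem k1o2_isAdicComplete [IsLocalRing (AdjoinRoot g)] [IsAdicComplete (maximalIdeal R) R]
    (hg : g.Monic) (hirr : Irreducible (g.map (residue R))) :
    IsAdicComplete (maximalIdeal (AdjoinRoot g)) (AdjoinRoot g) := by
  have h1 : IsAdicComplete (maximalIdeal R) (AdjoinRoot g) :=
    k1o2_isAdicComplete_of_basis (maximalIdeal R) (AdjoinRoot.powerBasis' hg).basis
  rw [k1o2_maximalIdeal_eq_M hirr, k1o2M]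
  exact (IsAdicComplete.map_algebraMap_iff (I := maximalIdeal R) (S := AdjoinRoot g)
    (M := AdjoinRoot g)).2 h1

end unram

/-! ### The ring `𝒪₂ = ℤ_p[ζ_p][Y]/(Y² - u)` -/

section concrete

variable (p : ℕ) [hp : Fact p.Prime]

theorem k1o2_exists_nonsquare (hp2 : p ≠ 2) : ∃ n : ℕ, ¬ IsSquare (n : ZMod p) := by
  have h1 : ringChar (ZMod p) ≠ 2 := by
    rw [ZMod.ringChar_zmod_n]
    exact hp2
  obtain ⟨a, ha⟩ := FiniteField.exists_nonsquare h1
  refine ⟨a.val, ?_⟩
  rwa [ZMod.natCast_zmod_val]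

/-- a natural number `u` which is not a square modulo `p` (`p` odd) -/
def k1o2U : ℕ := Classical.epsilon fun n : ℕ => ¬ IsSquare (n : ZMod p)

theorem k1o2U_spec (hp2 : p ≠ 2) : ¬ IsSquare (k1o2U p : ZMod p) :=
  Classical.epsilon_spec (k1o2_exists_nonsquare p hp2)

/-- `g = Y² - u` over `𝒪 = ℤ_p[ζ_p]` -/
def k1o2Poly : (k1oRing p)[X] := X ^ 2 - C (k1o2U p : k1oRing p)

theorem k1o2Poly_monic : (k1o2Poly p).Monic := monic_X_pow_sub_C _ (by norm_num)

theorem k1o2Poly_natDegree : (k1o2Poly p).natDegree = 2 := natDegree_X_pow_sub_C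

theorem k1o2Poly_map :
    (k1o2Poly p).map (residue (k1oRing p)) = X ^ 2 - C (k1o2U p : ResidueField (k1oRing p)) := by
  rw [k1o2Poly, Polynomial.map_sub, Polynomial.map_pow, map_X, map_C, map_natCast]

theorem k1o2Poly_irreducible (hp2 : p ≠ 2) :
    Irreducible ((k1o2Poly p).map (residue (k1oRing p))) := by
  have hm : ((k1o2Poly p).map (residue (k1oRing p))).Monic := (k1o2Poly_monic p).map _
  have hd : ((k1o2Poly p).map (residue (k1oRing p))).natDegree = 2 := by
    rw [(k1o2Poly_monic p).natDegree_map, k1o2Poly_natDegree]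
  rw [hm.irreducible_iff_roots_eq_zero_of_degree_le_three (by omega) (by omega)]
  apply Multiset.eq_zero_of_forall_notMem
  intro a ha
  have h1 := (mem_roots hm.ne_zero).1 ha
  rw [IsRoot.def, k1o2Poly_map, eval_sub, eval_pow, eval_X, eval_C, sub_eq_zero] at h1
  apply k1o2U_spec p hp2
  refine ⟨(k1oResidueEquiv p).symm a, ?_⟩
  apply (k1oResidueEquiv p).injective
  rw [map_mul, RingEquiv.apply_symm_apply, map_natCast, ← h1, pow_two]

end concrete

section instances

variable (p : ℕ) [hp : Fact p.Prime] [hp2 : Fact (p ≠ 2)]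

/-- **The coefficient ring** `𝒪₂ = ℤ_p[ζ_p][Y]/(Y² - u)`, `u` a non-square modulo `p`. -/
abbrev k1o2Ring : Type := AdjoinRoot (k1o2Poly p)

instance k1o2_ring_isDomain : IsDomain (k1o2Ring p) :=
  k1o2_isDomain (k1o2Poly_monic p) (k1o2Poly_irreducible p hp2.out)

instance k1o2_ring_isLocalRing : IsLocalRing (k1o2Ring p) :=
  k1o2_isLocalRing (k1o2Poly_monic p) (k1o2Poly_irreducible p hp2.out)

instance k1o2_ring_isNoetherianRing : IsNoetherianRing (k1o2Ring p) :=
  k1o2_isNoetherianRing (k1o2Poly_monic p)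

instance k1o2_ring_isDVR : IsDiscreteValuationRing (k1o2Ring p) :=
  k1o2_isDVR (k1o2Poly_monic p) (k1o2Poly_irreducible p hp2.out)

instance k1o2_ring_isAdicComplete :
    IsAdicComplete (maximalIdeal (k1o2Ring p)) (k1o2Ring p) :=
  k1o2_isAdicComplete (k1o2Poly_monic p) (k1o2Poly_irreducible p hp2.out)

instance k1o2_ring_finite_residueField : Finite (ResidueField (k1o2Ring p)) :=
  k1o2_finite_residue (k1o2Poly_monic p) (k1o2Poly_irreducible p hp2.out)

theorem k1o2_algebraMap_injective :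
    Function.Injective (algebraMap (k1oRing p) (k1o2Ring p)) :=
  k1o2_of_injective (k1o2Poly_monic p) (k1o2Poly_irreducible p hp2.out)

instance k1o2_ring_charZero : CharZero (k1o2Ring p) :=
  charZero_of_injective_algebraMap (k1o2_algebraMap_injective p)

instance k1o2_ring_module_finite : Module.Finite (k1oRing p) (k1o2Ring p) :=
  k1o2_module_finite (k1o2Poly_monic p)

instance k1o2_ring_module_free : Module.Free (k1oRing p) (k1o2Ring p) :=
  k1o2_module_free (k1o2Poly_monic p)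

/-- `λ = 1 - ζ` in `𝒪₂` -/
def k1o2Lam : k1o2Ring p := algebraMap (k1oRing p) (k1o2Ring p) (k1oLam p)

/-- `ζ` in `𝒪₂` -/
def k1o2Zeta : k1o2Ring p := algebraMap (k1oRing p) (k1o2Ring p) (k1oZeta p)

/-- the square root of `u` in `𝒪₂` -/
def k1o2Root : k1o2Ring p := AdjoinRoot.root (k1o2Poly p)

theorem k1o2Root_sq : k1o2Root p ^ 2 = (k1o2U p : k1o2Ring p) := by
  have h := AdjoinRoot.eval₂_root (k1o2Poly p)
  rw [k1o2Poly, eval₂_sub, eval₂_pow, eval₂_X, eval₂_C, map_natCast, sub_eq_zero] at h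
  exact h

theorem k1o2Lam_eq : k1o2Lam p = 1 - k1o2Zeta p := by
  rw [k1o2Lam, k1o2Zeta, k1oLam, map_sub, map_one]

/-- **`𝔪 = (λ)`**: `𝒪₂` is unramified over `𝒪`. -/
theorem k1o2_maximalIdeal_eq : maximalIdeal (k1o2Ring p) = Ideal.span {k1o2Lam p} :=
  k1o2_maximalIdeal_eq_span (k1o2Poly_irreducible p hp2.out) (k1o_maximalIdeal_eq p)

theorem k1o2_maximalIdeal_eq_map :
    maximalIdeal (k1o2Ring p) =
      (maximalIdeal (k1oRing p)).map (algebraMap (k1oRing p) (k1o2Ring p)) :=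
  k1o2_maximalIdeal_eq_M (k1o2Poly_irreducible p hp2.out)

theorem k1o2_zeta_primitive : IsPrimitiveRoot (k1o2Zeta p) p :=
  (k1o_zeta_primitive p).map_of_injective (k1o2_algebraMap_injective p)

theorem k1o2_p_mem : (p : k1o2Ring p) ∈ maximalIdeal (k1o2Ring p) := by
  rw [k1o2_maximalIdeal_eq_map]
  have h := Ideal.mem_map_of_mem (algebraMap (k1oRing p) (k1o2Ring p)) (k1o_p_mem p)
  rwa [map_natCast] at h

theorem k1o2_isUnit_two : IsUnit (2 : k1o2Ring p) := by
  have h := (k1o_isUnit_two p hp2.out).map (algebraMap (k1oRing p) (k1o2Ring p))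
  rwa [map_ofNat] at h

/-- **The residue field of `𝒪₂` has `p²` elements.** -/
theorem k1o2_card_residueField : Nat.card (ResidueField (k1o2Ring p)) = p ^ 2 := by
  rw [k1o2_card_residue (k1o2Poly_monic p) (k1o2Poly_irreducible p hp2.out), k1o_card_residue,
    k1o2Poly_natDegree]

theorem k1o2_residue_p : ((p : ℕ) : ResidueField (k1o2Ring p)) = 0 := by
  have h : residue (k1o2Ring p) (p : k1o2Ring p) = 0 := (residue_eq_zero_iff _).2 (k1o2_p_mem p)
  rwa [map_natCast] at h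

instance k1o2_charP_residue : CharP (ResidueField (k1o2Ring p)) p :=
  (CharP.charP_iff_prime_eq_zero hp.out).mpr (k1o2_residue_p p)

/-- **Every monic quadratic polynomial over `𝔽_p` splits in the residue field of `𝒪₂`.** -/
theorem k1o2_residue_split (φ : ZMod p →+* ResidueField (k1o2Ring p)) (f : (ZMod p)[X])
    (hf : f.Monic) (hd : f.natDegree = 2) :
    ∃ α β : ResidueField (k1o2Ring p), f.map φ = (X - C α) * (X - C β) :=
  k1o2_split_quadratic p (k1o2_card_residueField p) φ f hf hd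

/-- Square roots of elements `≡ 1 mod λ` (Hensel). -/
theorem k1o2_exists_sqrt (q : k1o2Ring p) (hq : q - 1 ∈ maximalIdeal (k1o2Ring p)) :
    ∃ s t : k1o2Ring p, s ^ 2 = q ∧ s = 1 + k1o2Lam p * t := by
  have hH := HenselianRing.is_henselian (R := k1o2Ring p) (I := maximalIdeal (k1o2Ring p))
    (X ^ 2 - C q) (monic_X_pow_sub_C q (by norm_num)) 1
    (by
      simp only [eval_sub, eval_pow, eval_X, eval_C, one_pow]
      have := Ideal.neg_mem_iff _ |>.mpr hq
      rwa [neg_sub] at this)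
    (by
      simp only [derivative_sub, derivative_X_pow, derivative_C, sub_zero, eval_mul,
        eval_X, eval_C, Nat.cast_ofNat, Nat.add_one_sub_one, pow_one, mul_one]
      exact (k1o2_isUnit_two p).map _)
  obtain ⟨a, ha, ha1⟩ := hH
  rw [k1o2_maximalIdeal_eq, Ideal.mem_span_singleton] at ha1
  obtain ⟨t, ht⟩ := ha1
  refine ⟨a, t, ?_, ?_⟩
  · rw [IsRoot.def] at ha
    simp only [eval_sub, eval_pow, eval_X, eval_C] at ha
    exact sub_eq_zero.1 ha
  · rw [← ht]
    ring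

/-- `tχ = (ζ + ζ⁻¹)/2`, `δ = (ζ - ζ⁻¹)/2` in `𝒪₂`. -/
theorem k1o2_exists_chi : ∃ tχ δ : k1o2Ring p,
    tχ ^ 2 - δ ^ 2 = 1 ∧ (∃ r, tχ = 1 + k1o2Lam p * r) ∧ (∃ r, δ = k1o2Lam p * r) ∧
      tχ + δ = k1o2Zeta p ∧ (tχ - δ) * k1o2Zeta p = 1 ∧ δ ≠ 0 := by
  obtain ⟨tχ, δ, h1, ⟨r1, h2⟩, ⟨r2, h3⟩, h4, h5, h6⟩ := k1o_exists_chi p hp2.out
  set ι := algebraMap (k1oRing p) (k1o2Ring p) with hι
  refine ⟨ι tχ, ι δ, ?_, ⟨ι r1, ?_⟩, ⟨ι r2, ?_⟩, ?_, ?_, ?_⟩
  · rw [← map_pow, ← map_pow, ← map_sub, h1, map_one]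
  · rw [h2, map_add, map_one, map_mul]
    rfl
  · rw [h3, map_mul]
    rfl
  · rw [← map_add, h4]
    rfl
  · rw [k1o2Zeta, ← map_sub, ← map_mul, h5, map_one]
  · intro h0
    exact h6 (k1o2_algebraMap_injective p (h0.trans (map_zero _).symm))

/-- a trivial prime `r ≡ 1 mod p`, `r ≠ 1`: `q = r` is `≡ 1 mod λ`, `≠ 1`, and has a square root
`≡ 1 mod λ`. -/
theorem k1o2_exists_sqrt_nat (r : ℕ) (hr : (p : ℤ) ∣ (r : ℤ) - 1) (hr1 : r ≠ 1) :
    (∃ t, (r : k1o2Ring p) = 1 + k1o2Lam p * t) ∧ (r : k1o2Ring p) ≠ 1 ∧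
      ∃ s t : k1o2Ring p, s ^ 2 = (r : k1o2Ring p) ∧ s = 1 + k1o2Lam p * t := by
  have hmem : (r : k1o2Ring p) - 1 ∈ maximalIdeal (k1o2Ring p) := by
    obtain ⟨c, hc⟩ := hr
    have h1 : (r : k1o2Ring p) - 1 = (p : k1o2Ring p) * (c : k1o2Ring p) := by
      have := congrArg (Int.cast : ℤ → k1o2Ring p) hc
      push_cast at this
      exact this
    rw [h1]
    exact Ideal.mul_mem_right _ _ (k1o2_p_mem p)
  refine ⟨?_, ?_, k1o2_exists_sqrt p _ hmem⟩
  · rw [k1o2_maximalIdeal_eq, Ideal.mem_span_singleton] at hmem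
    obtain ⟨t, ht⟩ := hmem
    exact ⟨t, by rw [← ht]; ring⟩
  · intro h
    have : (r : k1o2Ring p) = ((1 : ℕ) : k1o2Ring p) := by rw [h, Nat.cast_one]
    exact hr1 (Nat.cast_injective this)

end instances

/-! ### summary -/

/-- **K1-O2**: for every odd prime `p` there is a coefficient ring as wanted by the K-machine
with residue field `𝔽_{p²}`: a complete discrete valuation ring `O` of characteristic `0` with
residue field of `p²` elements, uniformiser `λ = 1 - ζ`, `ζ` a primitive `p`-th root of unity,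
`2` a unit, square roots of the elements `≡ 1 mod λ`, and every monic quadratic polynomial over
`𝔽_p` splits in the residue field. -/
def StmtCoeff2 : Prop :=
  ∀ (p : ℕ) [Fact p.Prime], p ≠ 2 →
    ∃ (O : Type) (_ : CommRing O) (_ : IsDomain O) (_ : IsDiscreteValuationRing O)
      (_ : IsAdicComplete (maximalIdeal O) O) (_ : Finite (ResidueField O)) (_ : CharZero O)
      (lam ζ : O),
      maximalIdeal O = Ideal.span {lam} ∧ lam = 1 - ζ ∧ IsPrimitiveRoot ζ p ∧
        (p : O) ∈ maximalIdeal O ∧ IsUnit (2 : O) ∧ Nat.card (ResidueField O) = p ^ 2 ∧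
        (∀ q : O, q - 1 ∈ maximalIdeal O → ∃ s t : O, s ^ 2 = q ∧ s = 1 + lam * t) ∧
        (∃ tχ δ : O, tχ ^ 2 - δ ^ 2 = 1 ∧ (∃ r, tχ = 1 + lam * r) ∧ (∃ r, δ = lam * r) ∧
          tχ + δ = ζ ∧ (tχ - δ) * ζ = 1 ∧ δ ≠ 0) ∧
        (∀ (φ : ZMod p →+* ResidueField O) (f : (ZMod p)[X]), f.Monic → f.natDegree = 2 →
          ∃ α β : ResidueField O, f.map φ = (X - C α) * (X - C β))

theorem stmtCoeff2 : StmtCoeff2 := by
  intro p _ hp2
  haveI : Fact (p ≠ 2) := ⟨hp2⟩
  exact ⟨k1o2Ring p, inferInstance, inferInstance, inferInstance, inferInstance, inferInstance,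
    inferInstance, k1o2Lam p, k1o2Zeta p, k1o2_maximalIdeal_eq p, k1o2Lam_eq p,
    k1o2_zeta_primitive p, k1o2_p_mem p, k1o2_isUnit_two p, k1o2_card_residueField p,
    k1o2_exists_sqrt p, k1o2_exists_chi p, k1o2_residue_split p⟩

end Fermat.Agent.RT.K1

end


end ZBRT_011_10

/-! ### bundled: `Fermat.Agent.RT.Prod.Setup` -/
section ZBRT_011_11
/-
K-machine, PROD, piece KSETUP (helper97): the situation `KSetup P N q` of
`RT/Prod/FinalPlan.lean` exists.

* `StmtProdHyp` : the contract of PROD-hyp (helper69): over every coefficient ring `O` as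
  delivered by K1-O2 (complete discrete valuation ring, `p ∈ 𝔪`, residue field of order `p²`, in
  which the monic quadratic polynomials over `𝔽_p` split) there is the residual representation
  `ρbar` of the Frey curve with `TWHyp`, `IsTrivSet` and the characteristic polynomials of
  Frobenius.
* `rtps_stmtKSetup : StmtProdHyp → K1.StmtLocGen → StmtKSetup` :
  `O = k1o2Ring p` (K1-O2), `ζ`, `λ`; `ι = ` the odd primes of `N`; `σ i, φ i` by LOC-gen;
  `s i = ± √(r i)` (Hensel), the sign being that of `ρbar (φ i)`.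
-/

set_option autoImplicit false
set_option linter.unusedSectionVars false
set_option linter.unusedVariables false
set_option linter.style.haveILetI false

noncomputable section

namespace Fermat.Agent.RT.Prod

open IsLocalRing Fermat.Agent.TW Fermat.Agent.RT Fermat.Agent.RT.K1 ExtCitation Polynomial
open WeierstrassCurve WeierstrassCurve.Affine WeierstrassCurve.Affine.Point

/-- **PROD-hyp** (helper69), as a contract: in the situation of `RIB.StmtTR`, over every
coefficient ring `O` of the kind delivered by K1-O2, there are the residual representation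
`ρbar` of the Frey curve over `k = ResidueField O` and an integral model `W` with the
hypotheses of K3 (`TWHyp`, `IsTrivSet` for `Smin = {2, p}` and `T` = the odd primes of `N`),
the characteristic polynomials of the Frobenius elements, and unipotent inertia at `2`. -/
def StmtProdHyp : Prop :=
  ∀ (P : FreyPackage) (N q : ℕ), P.IsConductorLevel N → ¬ P.p ∣ N → q.Prime → q ≠ 2 →
    q ∣ N → GaloisRepIsIrreducible (K := AlgebraicClosure ℚ) ℚ P.freyCurve P.p →
    P.ModularRepOfLevel N →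
    (∀ r : ℕ, r.Prime → r ≠ 2 → r ∣ N → Fermat.Agent.RIB.IsTrivialPrime P r) →
    ∀ (O : Type) [CommRing O] [IsDomain O] [IsDiscreteValuationRing O]
      [IsAdicComplete (maximalIdeal O) O] [Finite (ResidueField O)] [CharZero O],
      (P.p : O) ∈ maximalIdeal O → Nat.card (ResidueField O) = P.p ^ 2 →
      (∀ (φ : ZMod P.p →+* ResidueField O) (f : (ZMod P.p)[X]), f.Monic → f.natDegree = 2 →
        ∃ α β : ResidueField O, f.map φ = (X - C α) * (X - C β)) →
      ∀ T : Finset ℕ, (∀ ℓ : ℕ, ℓ ∈ T ↔ ℓ.Prime ∧ ℓ ≠ 2 ∧ ℓ ∣ N) →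
        ∃ (ρbar : ResidualGaloisRep (ResidueField O)) (W : WeierstrassCurve ℤ),
          TWHyp O P.p ρbar ({2, P.p} ∪ T) {2, P.p} ∧ IsTrivSet P.p ρbar {2, P.p} T ∧
          W.IsIntegralModelOf P.freyCurve ∧
          (∀ ℓ : ℕ, ℓ.Prime → ℓ ≠ P.p → W.IsGoodPrimeFor ℓ →
            ∀ 𝔄 : ValuationSubring (AlgebraicClosure ℚ), 𝔄.LiesOverPrime ℓ →
              ∀ τ : RtpaG, 𝔄.IsFrobeniusAt τ ℓ →
                LinearMap.charpoly (ρbar.ρ τ) =
                  X ^ 2 - C (((W.apOfModel ℓ : ℤ) : ResidueField O)) * X +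
                    C ((ℓ : ResidueField O))) ∧
          ∀ 𝔄 : ValuationSubring (AlgebraicClosure ℚ), 𝔄.LiesOverPrime 2 →
            ∀ s ∈ 𝔄.inertiaSubgroupIn ℚ, LinearMap.charpoly (ρbar.ρ s) = (X - 1) ^ 2

/-- the odd primes of `N` -/
def rtpsT (N : ℕ) : Finset ℕ := N.primeFactors.filter fun ℓ => ℓ ≠ 2

theorem rtps_mem_T {N : ℕ} (hN : 0 < N) (ℓ : ℕ) :
    ℓ ∈ rtpsT N ↔ ℓ.Prime ∧ ℓ ≠ 2 ∧ ℓ ∣ N := by
  rw [rtpsT, Finset.mem_filter, Nat.mem_primeFactors]
  constructor
  · rintro ⟨⟨h1, h2, -⟩, h3⟩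
    exact ⟨h1, h3, h2⟩
  · rintro ⟨h1, h3, h2⟩
    exact ⟨⟨h1, h2, hN.ne'⟩, h3⟩

theorem rtps_image_val (T : Finset ℕ) :
    (Finset.univ : Finset T).image (fun i : T => (i : ℕ)) = T := by
  ext ℓ
  simp

/-- on a trivial prime, the residual representation is `±1` at the Frobenius element of
LOC-gen -/
theorem rtps_sign {k : Type} [Field k] {p : ℕ} {ρbar : ResidualGaloisRep k} {Smin T : Finset ℕ}
    (hT : IsTrivSet p ρbar Smin T) {r : ℕ} [Fact r.Prime] (hr : r ∈ T) {φ : RtpaG}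
    (hφ : (padicPlace r).IsFrobeniusAt φ r) : ρbar.ρ φ = 1 ∨ ρbar.ρ φ = -1 :=
  (hT r hr).2.2.2 (padicPlace r) (Fermat.Agent.TW.L.lfrobex_liesOverPrime r) φ
    hφ.mem_decompositionSubgroup

theorem rtps_int_dvd {p r : ℕ} (hr : 1 ≤ r) (h : p ∣ r - 1) : (p : ℤ) ∣ (r : ℤ) - 1 := by
  have h1 : ((r - 1 : ℕ) : ℤ) = (r : ℤ) - 1 := by
    rw [Nat.cast_sub hr, Nat.cast_one]
  rw [← h1]
  exact Int.natCast_dvd_natCast.2 h

/-- **KSETUP.** -/
theorem rtps_stmtKSetup (hH : StmtProdHyp) (hL : K1.StmtLocGen) : StmtKSetup := by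
  intro P N q hN hpN hq hq2 hqN hirr hmod htriv
  haveI : Fact P.p.Prime := ⟨P.pp⟩
  haveI hp2 : Fact (P.p ≠ 2) := ⟨by have := P.hp5; omega⟩
  -- the residual representation
  obtain ⟨ρbar, W, hyp, hT, hW, hbar, hunip2⟩ := hH P N q hN hpN hq hq2 hqN hirr hmod htriv
    (k1o2Ring P.p) (k1o2_p_mem P.p) (k1o2_card_residueField P.p) (k1o2_residue_split P.p)
    (rtpsT N) (rtps_mem_T hN.pos)
  -- the trivial primes
  have hprime : ∀ i : rtpsT N, (i : ℕ).Prime := fun i => ((rtps_mem_T hN.pos _).1 i.2).1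
  have hne : ∀ i : rtpsT N, (i : ℕ) ≠ P.p := by
    intro i h
    exact hpN (h ▸ ((rtps_mem_T hN.pos _).1 i.2).2.2)
  -- LOC-gen
  have hloc : ∀ i : rtpsT N, ∃ σ φ : RtpaG,
      ∀ [Fact (i : ℕ).Prime], IsLocGenAt P.p (i : ℕ) σ φ := by
    intro i
    haveI : Fact (i : ℕ).Prime := ⟨hprime i⟩
    obtain ⟨σ, φ, h⟩ := exists_isLocGenAt hL P.p (i : ℕ) (hne i)
    exact ⟨σ, φ, fun {_} => h⟩
  choose σ φ hσφ using hloc
  -- the square roots
  have hsq : ∀ i : rtpsT N, ∃ s : k1o2Ring P.p, s ^ 2 = ((i : ℕ) : k1o2Ring P.p) ∧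
      ((ρbar.ρ (φ i) = 1 ∧ s - 1 ∈ maximalIdeal (k1o2Ring P.p)) ∨
        (ρbar.ρ (φ i) = -1 ∧ s + 1 ∈ maximalIdeal (k1o2Ring P.p))) := by
    intro i
    haveI : Fact (i : ℕ).Prime := ⟨hprime i⟩
    have hi := (rtps_mem_T hN.pos _).1 i.2
    have htr := hT (i : ℕ) i.2
    have hdvd : (P.p : ℤ) ∣ ((i : ℕ) : ℤ) - 1 := rtps_int_dvd (hprime i).one_le htr.2.2.1
    obtain ⟨-, -, s, t, hs2, hst⟩ := k1o2_exists_sqrt_nat P.p (i : ℕ) hdvd (hprime i).ne_one
    have hmem : k1o2Lam P.p * t ∈ maximalIdeal (k1o2Ring P.p) := by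
      rw [k1o2_maximalIdeal_eq]
      exact Ideal.mul_mem_right _ _ (Ideal.mem_span_singleton_self _)
    rcases rtps_sign hT i.2 (hσφ i).frob with h1 | h1
    · refine ⟨s, hs2, Or.inl ⟨h1, ?_⟩⟩
      rw [hst, add_sub_cancel_left]
      exact hmem
    · refine ⟨-s, by rw [neg_pow_two, hs2], Or.inr ⟨h1, ?_⟩⟩
      rw [hst]
      have : -(1 + k1o2Lam P.p * t) + 1 = -(k1o2Lam P.p * t) := by ring
      rw [this]
      exact (Ideal.neg_mem_iff _).2 hmem
  choose s hs2 hs using hsq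
  have himg := rtps_image_val (rtpsT N)
  exact ⟨{
    O := k1o2Ring P.p
    lam := k1o2Lam P.p
    hlam := k1o2_maximalIdeal_eq P.p
    h2 := k1o2_isUnit_two P.p
    ζ := k1o2Zeta P.p
    hζ := k1o2_zeta_primitive P.p
    ρbar := ρbar
    Smin := {2, P.p}
    hSmin := rfl
    ι := rtpsT N
    r := fun i => (i : ℕ)
    r_inj := Subtype.val_injective
    hr := fun ℓ => by rw [himg]; exact rtps_mem_T hN.pos ℓ
    hyp := by rw [himg]; exact hyp
    hT := by rw [himg]; exact hT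
    σ := σ
    φ := φ
    hloc := fun i => hσφ i
    s := s
    hs2 := hs2
    hs := hs
    W := W
    hW := hW
    hbar := hbar
    hunip2 := hunip2 }⟩

end Fermat.Agent.RT.Prod

end


end ZBRT_011_11

/-! ### bundled: `Fermat.Agent.RT.Prod.Hyp` -/
section ZBRT_011_12

/-!
# K-machine, PROD-hyp (helper69 + helper63): the final statement

`stmtProdHyp : StmtProdHyp` (the contract of `RT/Prod/Setup.lean`, helper97): for a Frey package in
the situation of `RIB.StmtTR` and a coefficient ring `O` with residue field of `p²` elements,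
`ρbar = ρ̄₁.baseChangeAlong ι`, `ρ̄₁ = (tateRepInt P.freyCurveInt _ p).residual`, satisfies `TWHyp`
(for `Smin = {2, p}`, `S = Smin ∪ T`), `IsTrivSet` and has the Frobenius characteristic
polynomials of `W = P.freyCurveInt`.

Inputs: WIRE (`RT/Prod/HypWire.lean`, helper63), DICT + FREY (`HypDict.lean`, `HypFrey.lean`),
ramification at `2` (`RIB/MP/AuxTwo.lean`, helper85), S05, LOC-gen (`K1.stmtLocGen`),
E-BIG (helper77).
-/

set_option autoImplicit false

namespace Fermat.Agent.RT.Prod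

open IsLocalRing Fermat.Agent.TW Fermat.Agent.RT Fermat.Agent.EC Fermat.Agent.S04 Polynomial

/-- the Frey `ρbar` is unipotent on the inertia groups at `2` (helper97, for HK-RES (R2)) -/
theorem rtph_unip2 (P : FreyPackage) [hpF : Fact P.p.Prime] {K : Type} [Field K]
    (ι : ResidueField ℤ_[P.p] →+* K)
    (A : ValuationSubring (AlgebraicClosure ℚ)) (hA : A.LiesOverPrime 2)
    (s : AlgebraicClosure ℚ ≃ₐ[ℚ] AlgebraicClosure ℚ) (hs : s ∈ A.inertiaSubgroupIn ℚ) :
    LinearMap.charpoly (((rtphRho P).baseChangeAlong ι).ρ s) = (X - 1) ^ 2 := by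
  have hp2 : P.p ≠ 2 := by have := P.hp5; omega
  have h1 := Fermat.Agent.RED.tateRepInt_isUnipotentOnInertiaAt_of_semistable_all P.freyCurveInt
    (freyCurveInt_Δ_ne_zero P) (freyCurveInt_isSemistableModel P) P.p hp2 Nat.prime_two
    (Ne.symm hp2) A hA s hs
  have h2 : LinearMap.charpoly ((rtphRho P).ρ s) = (X - 1) ^ 2 := by
    have h3 := rtphw_charpoly_residual (tateRepInt P.freyCurveInt (freyCurveInt_Δ_ne_zero P) P.p) s
    rw [h1] at h3
    simpa using h3
  rw [rtphw_charpoly, h2]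
  simp

/-- **PROD-hyp.** -/
theorem stmtProdHyp : StmtProdHyp := by
  intro P N q hN hpN hq hq2 hqN hirr hmod htriv O _ _ _ _ _ _ hpO hcard hsplit T hT
  have hpF : Fact P.p.Prime := ⟨P.pp⟩
  have hp2 : P.p ≠ 2 := by have := P.hp5; omega
  obtain ⟨ι⟩ := rtphw_exists_iota O P.p hpO
  have hirr' : P.freyCurveInt.ModRepIsIrreducible P.p := by
    unfold WeierstrassCurve.ModRepIsIrreducible
    rw [freyCurveInt_map]
    exact hirr
  refine ⟨(rtphRho P).baseChangeAlong ι, P.freyCurveInt, ?_, ?_, ?_, ?_, ?_⟩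
  · -- TWHyp
    refine rtphw_twHyp O P.freyCurveInt (freyCurveInt_Δ_ne_zero P) P.p hp2 hpO hsplit ι
      (freyCurveInt_isSemistableModel P) hirr' Nat.prime_two (Ne.symm hp2) (rtph_frey_ram2 P)
      _ _ ?_ Finset.subset_union_left ?_ (rtph_frey_hmin P)
    · exact Finset.mem_insert_of_mem (Finset.mem_singleton_self _)
    · intro ℓ hℓ
      rw [Finset.mem_union, Finset.mem_insert, Finset.mem_singleton] at hℓ
      rcases hℓ with (rfl | rfl) | hℓ
      · exact Nat.prime_two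
      · exact P.pp
      · exact ((hT ℓ).1 hℓ).1
  · -- IsTrivSet
    intro r hr
    obtain ⟨hrp, hr2, hrN⟩ := (hT r).1 hr
    have htr := htriv r hrp hr2 hrN
    refine ⟨hrp, ?_, htr.2.2.1, ?_⟩
    · rw [Finset.mem_insert, Finset.mem_singleton, not_or]
      exact ⟨hr2, htr.2.1⟩
    · intro A hA σ hσ
      show ((rtphRho P).baseChangeAlong ι).ρ σ = 1 ∨ ((rtphRho P).baseChangeAlong ι).ρ σ = -1
      rw [rtphw_one_iff, rtphw_neg_one_iff]
      exact rtph_frey_triv P htr hr2 A hA σ hσ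
  · -- integral model
    exact ⟨1, by rw [one_smul, freyCurveInt_map]⟩
  · -- Frobenius
    intro ℓ hℓ hne hgood A hA τ hτ
    exact rtphw_hbar P.freyCurveInt (freyCurveInt_Δ_ne_zero P) P.p ι hℓ hne hgood A hA τ hτ
  · -- unipotent inertia at 2 (helper97, for HK-RES (R2))
    intro A hA s hs
    exact rtph_unip2 P ι A hA s hs

end Fermat.Agent.RT.Prod


end ZBRT_011_12

/-! ### bundled: `Fermat.Agent.RT.Prod.SetupDone` -/
section ZBRT_011_13
/-
K-machine, PROD, KSETUP closed (helper97): `stmtKSetup : StmtKSetup`, from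
`rtps_stmtKSetup` (RT/Prod/Setup.lean), `stmtProdHyp` (helper69, RT/Prod/Hyp.lean) and
`K1.stmtLocGen` (helper65 + helper57, RT/K1/TameGenFinal.lean).
-/

set_option autoImplicit false

namespace Fermat.Agent.RT.Prod

/-- **KSETUP**: the situation of the K-machine exists (unconditional). -/
theorem stmtKSetup : StmtKSetup :=
  rtps_stmtKSetup stmtProdHyp Fermat.Agent.RT.K1.stmtLocGen

end Fermat.Agent.RT.Prod


end ZBRT_011_13
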