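/- GENERATED FILE (helper35, build-time optimisation, NOTES/ZB.md): verbatim concatenation of the modules
   Fermat.Agent.RT.K7.Unip2Alg
   Fermat.Agent.RT.K7.Unip2
   Fermat.Agent.RT.Hecke.AbsL
   Do not edit; do not import together with these modules. -/
import Mathlib
import Fermat.Agent.ZB.RT_022
import Fermat.Agent.ZB.TW_009
import Fermat.Agent.ZB.TW_010
import Fermat.Agent.ZB.PT_003
import Fermat.Agent.ZB.TW_001
import Fermat.Agent.ZB.Cheb_001
import Fermat.Agent.ZB.RT_011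
import Fermat.Agent.ZB.RT_002
import Fermat.Agent.ZB.RT_018

/-! ### bundled: `Fermat.Agent.RT.K7.Unip2Alg` -/
section ZBRT_023_0
/-
RT-K7 / K7-U2 (helper86), algebra part: `2 × 2` matrices of determinant `1` over a commutative ring.

* `rtk7u_sq`            : Cayley–Hamilton, `M * M = tr M • M - det M • 1`;
* `rtk7u_trace_pow`     : `det M = 1`, `s = tr M - 2` ⇒ `tr (M ^ m) = 2 + m² s + s² c`;
* `rtk7u_pow_sub_one_in`: `det M = 1`, `tr M - 2 ∈ J`, `p ∈ J` ⇒ `M ^ (p ^ n) ≡ 1 mod J ^ n`;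
* `rtk7u_sub_two_mem`   : `(q² - 1)` unit mod `𝔪`, `tr M - 2 ∈ 𝔪`, `tr (M ^ q) - tr M ∈ I` ⇒
                          `tr M - 2 ∈ I`.
-/

set_option autoImplicit false

namespace Fermat.Agent.RT

open Matrix

variable {R : Type*} [CommRing R]

/-- all entries of the matrix lie in the ideal `J` -/
def rtk7uIn (J : Ideal R) (E : Matrix (Fin 2) (Fin 2) R) : Prop := ∀ i j, E i j ∈ J

lemma rtk7u_in_mono {J J' : Ideal R} (h : J ≤ J') {E : Matrix (Fin 2) (Fin 2) R}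
    (hE : rtk7uIn J E) : rtk7uIn J' E := fun i j => h (hE i j)

lemma rtk7u_in_add {J : Ideal R} {E F : Matrix (Fin 2) (Fin 2) R}
    (hE : rtk7uIn J E) (hF : rtk7uIn J F) : rtk7uIn J (E + F) := fun i j => by
  rw [Matrix.add_apply]
  exact J.add_mem (hE i j) (hF i j)

lemma rtk7u_in_mul {J J' : Ideal R} {E F : Matrix (Fin 2) (Fin 2) R}
    (hE : rtk7uIn J E) (hF : rtk7uIn J' F) : rtk7uIn (J * J') (E * F) := fun i j => by
  rw [Matrix.mul_apply]
  exact Ideal.sum_mem _ fun k _ => Ideal.mul_mem_mul (hE i k) (hF k j)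

lemma rtk7u_in_mul_right {J : Ideal R} {E : Matrix (Fin 2) (Fin 2) R}
    (hE : rtk7uIn J E) (F : Matrix (Fin 2) (Fin 2) R) : rtk7uIn J (E * F) := fun i j => by
  rw [Matrix.mul_apply]
  exact Ideal.sum_mem _ fun k _ => J.mul_mem_right _ (hE i k)

lemma rtk7u_in_mul_left {J : Ideal R} {E : Matrix (Fin 2) (Fin 2) R}
    (hE : rtk7uIn J E) (F : Matrix (Fin 2) (Fin 2) R) : rtk7uIn J (F * E) := fun i j => by
  rw [Matrix.mul_apply]
  exact Ideal.sum_mem _ fun k _ => J.mul_mem_left _ (hE k j)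

lemma rtk7u_in_smul {J J' : Ideal R} {a : R} (ha : a ∈ J) {E : Matrix (Fin 2) (Fin 2) R}
    (hE : rtk7uIn J' E) : rtk7uIn (J * J') (a • E) := fun i j => by
  rw [Matrix.smul_apply, smul_eq_mul]
  exact Ideal.mul_mem_mul ha (hE i j)

lemma rtk7u_in_smul' {J : Ideal R} {a : R} (ha : a ∈ J) (E : Matrix (Fin 2) (Fin 2) R) :
    rtk7uIn J (a • E) := fun i j => by
  rw [Matrix.smul_apply, smul_eq_mul]
  exact J.mul_mem_right _ ha

/-- entries in `J` iff the reduction mod `J` vanishes -/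
lemma rtk7u_in_iff_map (J : Ideal R) (E : Matrix (Fin 2) (Fin 2) R) :
    rtk7uIn J E ↔ (Ideal.Quotient.mk J).mapMatrix E = 0 := by
  constructor
  · intro h
    ext i j
    rw [RingHom.mapMatrix_apply, Matrix.map_apply, Matrix.zero_apply]
    exact Ideal.Quotient.eq_zero_iff_mem.mpr (h i j)
  · intro h i j
    have := congrFun (congrFun h i) j
    rw [RingHom.mapMatrix_apply, Matrix.map_apply, Matrix.zero_apply] at this
    exact Ideal.Quotient.eq_zero_iff_mem.mp this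

/-- the trace of a matrix with entries in `J` lies in `J` -/
lemma rtk7u_trace_mem {J : Ideal R} {E : Matrix (Fin 2) (Fin 2) R} (hE : rtk7uIn J E) :
    E.trace ∈ J := by
  rw [Matrix.trace_fin_two]
  exact J.add_mem (hE 0 0) (hE 1 1)

/-- **Cayley–Hamilton** for `2 × 2` matrices. -/
lemma rtk7u_sq (M : Matrix (Fin 2) (Fin 2) R) :
    M * M = M.trace • M - M.det • (1 : Matrix (Fin 2) (Fin 2) R) := by
  ext i j
  fin_cases i <;> fin_cases j <;>
    simp [Matrix.mul_apply, Fin.sum_univ_two, Matrix.trace_fin_two, Matrix.det_fin_two] <;> ring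

lemma rtk7u_trace_pow_succ_succ (M : Matrix (Fin 2) (Fin 2) R) (m : ℕ) :
    (M ^ (m + 2)).trace = M.trace * (M ^ (m + 1)).trace - M.det * (M ^ m).trace := by
  have h : M ^ (m + 2) = M.trace • M ^ (m + 1) - M.det • M ^ m := by
    rw [pow_add, pow_two, rtk7u_sq, mul_sub, Matrix.mul_smul, Matrix.mul_smul, mul_one, ← pow_succ]
  rw [h, Matrix.trace_sub, Matrix.trace_smul, Matrix.trace_smul, smul_eq_mul, smul_eq_mul]

/-- `tr (M ^ m) = 2 + m² s + s² c` for `det M = 1`, `s = tr M - 2`. -/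
theorem rtk7u_trace_pow (M : Matrix (Fin 2) (Fin 2) R) (hdet : M.det = 1) (m : ℕ) :
    ∃ c : R, (M ^ m).trace = 2 + (m : R) ^ 2 * (M.trace - 2) + (M.trace - 2) ^ 2 * c := by
  suffices h : ∀ m : ℕ,
      (∃ c : R, (M ^ m).trace = 2 + (m : R) ^ 2 * (M.trace - 2) + (M.trace - 2) ^ 2 * c) ∧
      (∃ c : R, (M ^ (m + 1)).trace =
        2 + ((m + 1 : ℕ) : R) ^ 2 * (M.trace - 2) + (M.trace - 2) ^ 2 * c) from (h m).1
  intro m
  induction m with
  | zero =>
    refine ⟨⟨0, ?_⟩, ⟨0, ?_⟩⟩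
    · rw [pow_zero, Matrix.trace_one, Fintype.card_fin]
      push_cast
      ring
    · rw [zero_add, pow_one]
      push_cast
      ring
  | succ m ih =>
    obtain ⟨⟨c₀, h₀⟩, ⟨c₁, h₁⟩⟩ := ih
    refine ⟨⟨c₁, h₁⟩, ⟨((m + 1 : ℕ) : R) ^ 2 + 2 * c₁ + (M.trace - 2) * c₁ - c₀, ?_⟩⟩
    rw [show m + 1 + 1 = m + 2 from rfl, rtk7u_trace_pow_succ_succ, hdet, h₀, h₁]
    push_cast
    ring

/-- binomial expansion of `(1 + N) ^ p` for a prime `p` -/
lemma rtk7u_one_add_pow {p : ℕ} (hp : p.Prime) (N : Matrix (Fin 2) (Fin 2) R) :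
    ∃ G : Matrix (Fin 2) (Fin 2) R, (1 + N) ^ p - 1 = N ^ p + (p : R) • (N * G) := by
  obtain ⟨r, hr⟩ := (Commute.one_left N).exists_add_pow_prime_eq hp
  refine ⟨r, ?_⟩
  rw [hr, one_pow, mul_one, mul_assoc, ← nsmul_eq_mul, ← Nat.cast_smul_eq_nsmul R]
  abel

/-- `M ≡ 1 mod J ^ i` (`i ≥ 1`), `p ∈ J` ⇒ `M ^ p ≡ 1 mod J ^ (i + 1)` -/
lemma rtk7u_pow_step {p : ℕ} (hp : p.Prime) {J : Ideal R} (hpJ : (p : R) ∈ J) {i : ℕ}
    (hi : 1 ≤ i) {M : Matrix (Fin 2) (Fin 2) R} (hM : rtk7uIn (J ^ i) (M - 1)) :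
    rtk7uIn (J ^ (i + 1)) (M ^ p - 1) := by
  obtain ⟨G, hG⟩ := rtk7u_one_add_pow hp (M - 1)
  rw [add_sub_cancel] at hG
  rw [hG]
  apply rtk7u_in_add
  · obtain ⟨k, rfl⟩ : ∃ k, p = k + 2 := ⟨p - 2, by have := hp.two_le; omega⟩
    have e : (M - 1) ^ (k + 2) = (M - 1) ^ k * ((M - 1) * (M - 1)) := by rw [pow_add, pow_two]
    rw [e]
    apply rtk7u_in_mul_left
    refine rtk7u_in_mono ?_ (rtk7u_in_mul hM hM)
    rw [← pow_add]
    exact Ideal.pow_le_pow_right (by omega)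
  · have := rtk7u_in_smul hpJ (rtk7u_in_mul_right hM G)
    rwa [← pow_succ'] at this

/-- `det M = 1`, `tr M - 2 ∈ J`, `p ∈ J` ⇒ `M ^ p ≡ 1 mod J` -/
lemma rtk7u_pow_base {p : ℕ} (hp : p.Prime) {J : Ideal R} (hpJ : (p : R) ∈ J)
    {M : Matrix (Fin 2) (Fin 2) R} (hdet : M.det = 1) (htr : M.trace - 2 ∈ J) :
    rtk7uIn J (M ^ p - 1) := by
  obtain ⟨G, hG⟩ := rtk7u_one_add_pow hp (M - 1)
  rw [add_sub_cancel] at hG
  rw [hG]
  have hN : (M - 1) * (M - 1) = (M.trace - 2) • M := by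
    have h := rtk7u_sq M
    rw [hdet, one_smul] at h
    rw [sub_mul, mul_sub, h, sub_smul, two_smul, mul_one, one_mul]
    abel
  apply rtk7u_in_add
  · obtain ⟨k, rfl⟩ : ∃ k, p = k + 2 := ⟨p - 2, by have := hp.two_le; omega⟩
    have e : (M - 1) ^ (k + 2) = (M - 1) ^ k * ((M - 1) * (M - 1)) := by rw [pow_add, pow_two]
    rw [e, hN]
    exact rtk7u_in_mul_left (rtk7u_in_smul' htr M) _
  · exact rtk7u_in_smul' hpJ _

/-- `det M = 1`, `tr M - 2 ∈ J`, `p ∈ J` ⇒ `M ^ (p ^ n) ≡ 1 mod J ^ n`. -/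
theorem rtk7u_pow_sub_one_in {p : ℕ} (hp : p.Prime) {J : Ideal R} (hpJ : (p : R) ∈ J)
    {M : Matrix (Fin 2) (Fin 2) R} (hdet : M.det = 1) (htr : M.trace - 2 ∈ J) (n : ℕ) :
    rtk7uIn (J ^ n) (M ^ (p ^ n) - 1) := by
  induction n with
  | zero =>
    intro i j
    rw [pow_zero, Ideal.one_eq_top]
    exact Submodule.mem_top
  | succ n ih =>
    rcases Nat.eq_zero_or_pos n with h0 | hpos
    · subst h0
      rw [zero_add, pow_one, pow_one]
      exact rtk7u_pow_base hp hpJ hdet htr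
    · have e : M ^ p ^ (n + 1) = (M ^ p ^ n) ^ p := by rw [pow_succ, pow_mul]
      rw [e]
      exact rtk7u_pow_step hp hpJ hpos ih

/-- the rigidity computation: if `tr (M ^ q) ≡ tr M mod I`, `det M = 1`, `tr M ≡ 2 mod 𝔪` and
`q² - 1` is a unit, then `tr M ≡ 2 mod I`. -/
theorem rtk7u_sub_two_mem [IsLocalRing R] (q : ℕ) (hq : IsUnit ((q : R) ^ 2 - 1))
    (I : Ideal R) {M : Matrix (Fin 2) (Fin 2) R} (hdet : M.det = 1)
    (htr : M.trace - 2 ∈ IsLocalRing.maximalIdeal R) (h : (M ^ q).trace - M.trace ∈ I) :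
    M.trace - 2 ∈ I := by
  obtain ⟨c, hc⟩ := rtk7u_trace_pow M hdet q
  set s := M.trace - 2 with hs
  have e : (M ^ q).trace - M.trace = s * ((q : R) ^ 2 - 1 + s * c) := by
    rw [hc, hs]; ring
  rw [e] at h
  have hu : IsUnit ((q : R) ^ 2 - 1 + s * c) := by
    by_contra hn
    have h1 : (q : R) ^ 2 - 1 + s * c ∈ IsLocalRing.maximalIdeal R :=
      (IsLocalRing.mem_maximalIdeal _).mpr hn
    have h2 : s * c ∈ IsLocalRing.maximalIdeal R := Ideal.mul_mem_right _ _ htr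
    have h3 : (q : R) ^ 2 - 1 ∈ IsLocalRing.maximalIdeal R := by
      have := Ideal.sub_mem _ h1 h2
      rwa [add_sub_cancel_right] at this
    exact (IsLocalRing.mem_maximalIdeal _).mp h3 hq
  exact (Ideal.mul_unit_mem_iff_mem I hu).mp h

end Fermat.Agent.RT


end ZBRT_023_0

/-! ### bundled: `Fermat.Agent.RT.K7.Unip2` -/
section ZBRT_023_1
/-
RT-K7 / K7-U2 (helper86): rigidity of unipotent inertia, `stmtK7U2 : StmtK7U2` and
`stmtK7U2Adic : StmtK7U2Adic` (both from `rtk7u_core`, valid for every noetherian local ring).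

`ρ : G_ℚ → GL₂(A)` with cyclotomic determinant, `q ≠ p`, `p ∤ q² - 1`, residually unipotent on the
inertia groups over `q`.  Then for `σ` in an inertia group over `q`:
* `det ρ(σ) = 1` (inertia at `q` fixes the `p`-power roots of unity, `S30.padicCyclo_inertia`);
* modulo `𝔪 ^ n` the image of the local inertia group has exponent `p ^ n`
  (`rtk7u_pow_sub_one_in`), so it is generated by `g = ρ(t)` with `ρ(φ) g ρ(φ)⁻¹ = g ^ q`
  (`TW.W.stmtTameGen`, tame inertia); hence `tr g ≡ tr (g ^ q)` and `tr g ≡ 2 mod 𝔪 ^ n`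
  (`rtk7u_sub_two_mem`), and `tr ρ(x) ≡ tr (g ^ m) ≡ 2 mod 𝔪 ^ n` (`rtk7u_trace_pow`);
* Krull's intersection theorem: `tr ρ(σ) = 2`, so the characteristic polynomial is `(X - 1)²`.
-/

set_option autoImplicit false
set_option linter.style.haveILetI false

noncomputable section

namespace Fermat.Agent.RT

open Polynomial IsLocalRing
open Fermat.Agent.PT Fermat.Agent.PT.B Fermat.Agent.TW.L

variable {A : Type} [CommRing A] [IsLocalRing A] (ρ : GaloisRepAdic A)

/-- a basis of the free module of rank `2` -/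
def rtk7uBasis : Module.Basis (Fin 2) A ρ.V := Module.finBasisOfFinrankEq A ρ.V ρ.finrank_eq

/-- the matrices of `ρ` in the basis `rtk7uBasis` -/
def rtk7uMat : GQ →* Matrix (Fin 2) (Fin 2) A where
  toFun σ := LinearMap.toMatrix (rtk7uBasis ρ) (rtk7uBasis ρ) (ρ.ρ σ)
  map_one' := by rw [map_one, LinearMap.toMatrix_one]
  map_mul' σ τ := by rw [map_mul, LinearMap.toMatrix_mul]

lemma rtk7u_mat_apply (σ : GQ) :
    rtk7uMat ρ σ = LinearMap.toMatrix (rtk7uBasis ρ) (rtk7uBasis ρ) (ρ.ρ σ) := rfl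

lemma rtk7u_mat_trace (σ : GQ) : (rtk7uMat ρ σ).trace = LinearMap.trace A ρ.V (ρ.ρ σ) :=
  (LinearMap.trace_eq_matrix_trace A (rtk7uBasis ρ) (ρ.ρ σ)).symm

lemma rtk7u_mat_det (σ : GQ) : (rtk7uMat ρ σ).det = LinearMap.det (ρ.ρ σ) :=
  LinearMap.det_toMatrix (rtk7uBasis ρ) (ρ.ρ σ)

lemma rtk7u_mat_charpoly (σ : GQ) : (rtk7uMat ρ σ).charpoly = (ρ.ρ σ).charpoly :=
  LinearMap.charpoly_toMatrix (ρ.ρ σ) (rtk7uBasis ρ)

/-- the trace is invariant under conjugation -/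
lemma rtk7u_mat_trace_conj (g σ : GQ) :
    (rtk7uMat ρ (g * σ * g⁻¹)).trace = (rtk7uMat ρ σ).trace := by
  rw [map_mul, map_mul, Matrix.trace_mul_cycle, ← map_mul, inv_mul_cancel, map_one, one_mul]

/-! ### the determinant on inertia -/

/-- an inertia group over `q ≠ p` fixes the `p`-power roots of unity -/
theorem rtk7u_fix_root {p q : ℕ} (hp : p.Prime) (hq : q.Prime) (hqp : q ≠ p)
    (P : ValuationSubring (AlgebraicClosure ℚ)) (hP : P.LiesOverPrime q) (σ : GQ)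
    (hσ : σ ∈ P.inertiaSubgroupIn ℚ) (n : ℕ) (μ : AlgebraicClosure ℚ) (hμ : μ ^ p ^ n = 1) :
    σ μ = μ ^ 1 := by
  haveI : Fact p.Prime := ⟨hp⟩
  have h1 := Fermat.Agent.S30.padicCyclo_spec p σ n hμ
  rw [Fermat.Agent.S30.padicCyclo_inertia p q hq hqp P hP σ hσ, Units.val_one, map_one,
    ZMod.val_one_eq_one_mod, ← pow_eq_pow_mod 1 hμ] at h1
  exact h1

theorem rtk7u_det_eq_one [IsNoetherianRing A] {p q : ℕ} (hp : p.Prime) (hq : q.Prime)
    (hqp : q ≠ p) (hdet : ρ.DetIsCyclotomic p)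
    (P : ValuationSubring (AlgebraicClosure ℚ)) (hP : P.LiesOverPrime q) (σ : GQ)
    (hσ : σ ∈ P.inertiaSubgroupIn ℚ) : LinearMap.det (ρ.ρ σ) = 1 := by
  have key : ∀ n : ℕ, LinearMap.det (ρ.ρ σ) - 1 ∈ maximalIdeal A ^ n := by
    intro n
    have h := hdet.2 n σ 1 (rtk7u_fix_root hp hq hqp P hP σ hσ n)
    rw [Nat.cast_one] at h
    have hle : Ideal.span {((p ^ n : ℕ) : A)} ≤ maximalIdeal A ^ n := by
      rw [Ideal.span_singleton_le_iff_mem, Nat.cast_pow]
      exact Ideal.pow_mem_pow hdet.1 n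
    exact hle h
  have hbot : (⨅ i : ℕ, maximalIdeal A ^ i) = ⊥ :=
    Ideal.iInf_pow_eq_bot_of_isLocalRing _ Ideal.IsPrime.ne_top'
  have h1 : LinearMap.det (ρ.ρ σ) - 1 ∈ (⨅ i : ℕ, maximalIdeal A ^ i) := (Ideal.mem_iInf).mpr key
  rw [hbot, Ideal.mem_bot, sub_eq_zero] at h1
  exact h1

/-! ### the trace modulo the maximal ideal -/

theorem rtk7u_trace_sub_two_mem (σ : GQ)
    (h : LinearMap.charpoly (ρ.residual.ρ σ) = (X - 1) ^ 2) :
    (rtk7uMat ρ σ).trace - 2 ∈ maximalIdeal A := by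
  have h' : ((ρ.ρ σ).baseChange (ResidueField A)).charpoly = (X - 1) ^ 2 := h
  rw [LinearMap.charpoly_baseChange, ← rtk7u_mat_charpoly, Matrix.charpoly_fin_two] at h'
  have h2 := congrArg (fun P : (ResidueField A)[X] => P.coeff 1) h'
  have e2 : ((X : (ResidueField A)[X]) - 1) ^ 2 = X ^ 2 - C 2 * X + C 1 := by
    rw [map_ofNat, map_one]; ring
  simp only [e2, Polynomial.map_add, Polynomial.map_sub, Polynomial.map_mul, Polynomial.map_pow,
    Polynomial.map_X, Polynomial.map_C, coeff_add, coeff_sub, coeff_C_mul, coeff_X_pow,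
    coeff_X_one, coeff_C_succ, mul_one] at h2
  norm_num at h2
  rw [← residue_eq_zero_iff, map_sub, h2, map_ofNat, sub_self]

/-! ### the level -/

omit [IsLocalRing A] in
lemma rtk7u_repr_mem {V : Type} [AddCommGroup V] [Module A V] (I : Ideal A)
    (b : Module.Basis (Fin 2) A V) {w : V} (hw : w ∈ I • (⊤ : Submodule A V)) (i : Fin 2) :
    b.repr w i ∈ I := by
  refine Submodule.smul_induction_on (p := fun w => b.repr w i ∈ I) hw ?_ ?_
  · intro a ha v _
    rw [map_smul, Finsupp.smul_apply, smul_eq_mul]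
    exact I.mul_mem_right _ ha
  · intro x y hx hy
    rw [map_add, Finsupp.add_apply]
    exact I.add_mem hx hy

lemma rtk7u_level (I : Ideal A) (σ : GQ)
    (h : ∀ v : ρ.V, ρ.ρ σ v - v ∈ I • (⊤ : Submodule A ρ.V)) :
    rtk7uIn I (rtk7uMat ρ σ - 1) := by
  intro i j
  have e : rtk7uMat ρ σ - 1 =
      LinearMap.toMatrix (rtk7uBasis ρ) (rtk7uBasis ρ) (ρ.ρ σ - 1) := by
    rw [map_sub, LinearMap.toMatrix_one, rtk7u_mat_apply]
  rw [e, LinearMap.toMatrix_apply, LinearMap.sub_apply, Module.End.one_apply]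
  exact rtk7u_repr_mem I _ (h _) i

/-! ### units -/

lemma rtk7u_isUnit {p q : ℕ} (hp : p.Prime) (hpq : ¬ p ∣ q ^ 2 - 1)
    (hpm : (p : A) ∈ maximalIdeal A) (hq1 : 1 ≤ q) : IsUnit ((q : A) ^ 2 - 1) := by
  have hcop : Nat.Coprime p (q ^ 2 - 1) := (Nat.Prime.coprime_iff_not_dvd hp).mpr hpq
  have h1 : IsCoprime ((p : ℕ) : ℤ) ((q ^ 2 - 1 : ℕ) : ℤ) := Nat.isCoprime_iff_coprime.mpr hcop
  obtain ⟨a, b, hab⟩ := h1
  have hab' := congrArg (Int.cast : ℤ → A) hab
  have e : (((q ^ 2 - 1 : ℕ) : ℤ) : A) = (q : A) ^ 2 - 1 := by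
    rw [Int.cast_natCast, Nat.cast_sub (Nat.one_le_pow _ _ hq1)]
    push_cast
    ring
  rw [Int.cast_add, Int.cast_mul, Int.cast_mul, Int.cast_natCast, e, Int.cast_one] at hab'
  by_contra hn
  have h3 : (q : A) ^ 2 - 1 ∈ maximalIdeal A := (mem_maximalIdeal _).mpr hn
  have h4 : (1 : A) ∈ maximalIdeal A := by
    rw [← hab']
    exact Ideal.add_mem _ (Ideal.mul_mem_left _ _ hpm) (Ideal.mul_mem_left _ _ h3)
  exact (Ideal.ne_top_iff_one _).mp (Ideal.IsMaximal.ne_top inferInstance) h4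

/-! ### the local computation -/

/-- reduction modulo `𝔪 ^ n` of the matrices of `ρ` on the local inertia group -/
def rtk7uRed (q : ℕ) [Fact q.Prime] (n : ℕ) :
    ↥(inertiaQ q) →* Matrix (Fin 2) (Fin 2) (A ⧸ maximalIdeal A ^ n) :=
  ((Ideal.Quotient.mk (maximalIdeal A ^ n)).mapMatrix (m := Fin 2)).toMonoidHom.comp
    ((rtk7uMat ρ).comp ((localGaloisToGlobal q).comp (inertiaQ q).subtype))

lemma rtk7u_red_apply (q : ℕ) [Fact q.Prime] (n : ℕ) (y : ↥(inertiaQ q)) :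
    rtk7uRed ρ q n y = (Ideal.Quotient.mk (maximalIdeal A ^ n)).mapMatrix
      (rtk7uMat ρ (localGaloisToGlobal q (y : GQq q))) := rfl

lemma rtk7u_trace_cong (n : ℕ) {X Y : Matrix (Fin 2) (Fin 2) A}
    (h : (Ideal.Quotient.mk (maximalIdeal A ^ n)).mapMatrix X =
      (Ideal.Quotient.mk (maximalIdeal A ^ n)).mapMatrix Y) :
    X.trace - Y.trace ∈ maximalIdeal A ^ n := by
  have h1 := congrArg Matrix.trace h
  rw [RingHom.mapMatrix_apply, RingHom.mapMatrix_apply, ← AddMonoidHom.map_trace,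
    ← AddMonoidHom.map_trace] at h1
  exact Ideal.Quotient.eq.mp h1

theorem rtk7u_local {p q : ℕ} [Fact q.Prime] (hp : p.Prime) (hqp : q ≠ p)
    (hpq : ¬ p ∣ q ^ 2 - 1) (hpm : (p : A) ∈ maximalIdeal A)
    (hdet1 : ∀ x ∈ inertiaQ q, (rtk7uMat ρ (localGaloisToGlobal q x)).det = 1)
    (htr : ∀ x ∈ inertiaQ q,
      (rtk7uMat ρ (localGaloisToGlobal q x)).trace - 2 ∈ maximalIdeal A)
    (x : GQq q) (hx : x ∈ inertiaQ q) (n : ℕ) :
    (rtk7uMat ρ (localGaloisToGlobal q x)).trace - 2 ∈ maximalIdeal A ^ n := by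
  have hq : q.Prime := Fact.out
  obtain ⟨L, hL, hLρ⟩ := ρ.isAdicContinuous n
  have hV : L.fixingSubgroup.comap (localGaloisToGlobal q) ∈ (towerLoc q).lev := ⟨L, hL, rfl⟩
  have hcop : Nat.Coprime q (p ^ n) := ((Nat.coprime_primes hq hp).mpr hqp).pow_right n
  obtain ⟨t, ht⟩ := Fermat.Agent.TW.W.stmtTameGen q (p ^ n) hcop _ hV
  have hexp : ∀ y : ↥(inertiaQ q), rtk7uRed ρ q n y ^ (p ^ n) = 1 := by
    intro y
    have h1 := rtk7u_pow_sub_one_in hp hpm (hdet1 y y.2) (htr y y.2) n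
    rw [rtk7u_in_iff_map, map_sub, map_one, sub_eq_zero, map_pow] at h1
    exact h1
  have htriv : ∀ y : ↥(inertiaQ q),
      (y : GQq q) ∈ L.fixingSubgroup.comap (localGaloisToGlobal q) → rtk7uRed ρ q n y = 1 := by
    intro y hy
    have hy' : ∀ z ∈ L, localGaloisToGlobal q (y : GQq q) z = z :=
      (IntermediateField.mem_fixingSubgroup_iff L _).mp hy
    have h1 := rtk7u_level ρ (maximalIdeal A ^ n) _ (hLρ _ hy')
    rw [rtk7u_in_iff_map, map_sub, map_one, sub_eq_zero] at h1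
    exact h1
  obtain ⟨h1, h2⟩ := ht ↥((rtk7uRed ρ q n).toHomUnits.range)
    (rtk7uRed ρ q n).toHomUnits.rangeRestrict
    (by
      rintro ⟨a, y, rfl⟩
      refine Subtype.ext (Units.ext ?_)
      simpa using hexp y)
    (by
      intro y hy
      refine Subtype.ext (Units.ext ?_)
      simpa using htriv y hy)
  -- the generator
  set g : Matrix (Fin 2) (Fin 2) A := rtk7uMat ρ (localGaloisToGlobal q (t : GQq q)) with hg
  have hgdet : g.det = 1 := hdet1 t t.2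
  have hgtr : g.trace - 2 ∈ maximalIdeal A := htr t t.2
  obtain ⟨φ, hφ⟩ := stmtFrobExists q
  have hmem : φ * (t : GQq q) * φ⁻¹ ∈ inertiaQ q := ltw_conj_mem_inertiaQ φ t.2
  have h3 := congrArg (fun z : ↥((rtk7uRed ρ q n).toHomUnits.range) =>
    (((z : (Matrix (Fin 2) (Fin 2) (A ⧸ maximalIdeal A ^ n))ˣ)) :
      Matrix (Fin 2) (Fin 2) (A ⧸ maximalIdeal A ^ n))) (h2 φ hφ hmem)
  have h3' : rtk7uRed ρ q n ⟨φ * (t : GQq q) * φ⁻¹, hmem⟩ = rtk7uRed ρ q n t ^ q := by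
    simpa using h3
  have h4 : (Ideal.Quotient.mk (maximalIdeal A ^ n)).mapMatrix
      (rtk7uMat ρ (localGaloisToGlobal q (φ * (t : GQq q) * φ⁻¹))) =
      (Ideal.Quotient.mk (maximalIdeal A ^ n)).mapMatrix (g ^ q) := by
    rw [map_pow]
    exact h3'
  have h5 := rtk7u_trace_cong n h4
  have e5 : localGaloisToGlobal q (φ * (t : GQq q) * φ⁻¹) =
      localGaloisToGlobal q φ * localGaloisToGlobal q (t : GQq q) *
        (localGaloisToGlobal q φ)⁻¹ := by
    rw [map_mul, map_mul, map_inv]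
  rw [e5, rtk7u_mat_trace_conj] at h5
  have hs : g.trace - 2 ∈ maximalIdeal A ^ n := by
    apply rtk7u_sub_two_mem q (rtk7u_isUnit hp hpq hpm hq.one_le) _ hgdet hgtr
    have := Ideal.neg_mem_iff (maximalIdeal A ^ n) |>.mpr h5
    rwa [neg_sub] at this
  -- a general element
  obtain ⟨m, hm⟩ := h1 ⟨x, hx⟩
  have h6 := congrArg (fun z : ↥((rtk7uRed ρ q n).toHomUnits.range) =>
    (((z : (Matrix (Fin 2) (Fin 2) (A ⧸ maximalIdeal A ^ n))ˣ)) :
      Matrix (Fin 2) (Fin 2) (A ⧸ maximalIdeal A ^ n))) hm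
  have h6' : rtk7uRed ρ q n ⟨x, hx⟩ = rtk7uRed ρ q n t ^ m := by
    simpa using h6
  have h7 : (Ideal.Quotient.mk (maximalIdeal A ^ n)).mapMatrix
      (rtk7uMat ρ (localGaloisToGlobal q x)) =
      (Ideal.Quotient.mk (maximalIdeal A ^ n)).mapMatrix (g ^ m) := by
    rw [map_pow]
    exact h6'
  have h8 := rtk7u_trace_cong n h7
  obtain ⟨c, hc⟩ := rtk7u_trace_pow g hgdet m
  have h9 : (g ^ m).trace - 2 ∈ maximalIdeal A ^ n := by
    have e : (g ^ m).trace - 2 = (g.trace - 2) * ((m : A) ^ 2 + (g.trace - 2) * c) := by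
      rw [hc]; ring
    rw [e]
    exact Ideal.mul_mem_right _ _ hs
  have := Ideal.add_mem _ h8 h9
  rwa [sub_add_sub_cancel] at this

/-! ### the theorem -/

/-- **K7-U2** over an arbitrary noetherian local ring. -/
theorem rtk7u_core [IsNoetherianRing A] {p q : ℕ} (hp : p.Prime) (hq : q.Prime) (hqp : q ≠ p)
    (hpq : ¬ p ∣ q ^ 2 - 1) (hdet : ρ.DetIsCyclotomic p)
    (hres : ∀ P : ValuationSubring (AlgebraicClosure ℚ), P.LiesOverPrime q →
      ∀ σ ∈ P.inertiaSubgroupIn ℚ, LinearMap.charpoly (ρ.residual.ρ σ) = (X - 1) ^ 2) :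
    ρ.IsUnipotentOnInertiaAt q := by
  haveI : Fact q.Prime := ⟨hq⟩
  intro P hP σ hσ
  have hd : (rtk7uMat ρ σ).det = 1 := by
    rw [rtk7u_mat_det]
    exact rtk7u_det_eq_one ρ hp hq hqp hdet P hP σ hσ
  obtain ⟨g, hg⟩ := Fermat.Agent.TW.S.sconjp_exists_smul_eq q hq P (padicPlace q) hP
    (lfrobex_liesOverPrime q)
  have h1 : g * σ * g⁻¹ ∈ (padicPlace q).inertiaSubgroupIn ℚ := by
    rw [← hg]
    exact conj_mem_inertiaSubgroupIn P g σ hσ
  obtain ⟨τ, hτ⟩ := stmtDecFull q _ ((mem_inertiaSubgroupIn_iff _ _).mp h1).1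
  have hτI : τ ∈ inertiaQ q := by
    rw [mem_inertiaQ, hτ]
    exact h1
  have key : ∀ n, (rtk7uMat ρ (localGaloisToGlobal q τ)).trace - 2 ∈ maximalIdeal A ^ n :=
    rtk7u_local ρ hp hqp hpq hdet.1
      (fun y hy => by
        rw [rtk7u_mat_det]
        exact rtk7u_det_eq_one ρ hp hq hqp hdet _ (lfrobex_liesOverPrime q) _ hy)
      (fun y hy => rtk7u_trace_sub_two_mem ρ _ (hres _ (lfrobex_liesOverPrime q) _ hy))
      τ hτI
  have hbot : (⨅ i : ℕ, maximalIdeal A ^ i) = ⊥ :=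
    Ideal.iInf_pow_eq_bot_of_isLocalRing _ Ideal.IsPrime.ne_top'
  have h2 : (rtk7uMat ρ (localGaloisToGlobal q τ)).trace - 2 ∈ (⨅ i : ℕ, maximalIdeal A ^ i) :=
    (Ideal.mem_iInf).mpr key
  rw [hbot, Ideal.mem_bot, sub_eq_zero, hτ, rtk7u_mat_trace_conj] at h2
  rw [← rtk7u_mat_charpoly, Matrix.charpoly_fin_two, hd, h2, map_ofNat, map_one]
  ring

/-- **K7-U2** (finite coefficients). -/
theorem stmtK7U2 : StmtK7U2 := by
  intro p q hp hq hqp hpq A _ _ _ ρ hdet hres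
  exact rtk7u_core ρ hp hq hqp hpq hdet hres

/-- **K7-U2** (complete coefficients). -/
theorem stmtK7U2Adic : StmtK7U2Adic := by
  intro p q hp hq hqp hpq A _ _ _ _ _ ρ hdet hres
  exact rtk7u_core ρ hp hq hqp hpq hdet hres

end Fermat.Agent.RT

end
end ZBRT_023_1

/-! ### bundled: `Fermat.Agent.RT.Hecke.AbsL` -/
section ZBRT_023_2

/-!
# K-machine, HECKE-asm, piece HK-ABS-L (helper46): the module side at level `n` gives the
Galois side at level `n`

`stmtHkAbsL_of : StmtHkLRes → StmtHkLTrCont → StmtHkLPowLe → StmtHkLNilp → StmtHkAbsL`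
(`StmtHkAbsL` : `RT/Hecke/Plan.lean`), `stmtHkAbsL_of_res : StmtHkLRes → StmtHkAbsL` (with
helper15's `RT/Hecke/AbsLSmall.lean`).

Proof.  `A₀ = 𝒪[(Φ1 x, Φχ x)] ⊆ M_d(S ⧸ 𝔪 ^ n)²` is a finite local ring with the residue field of
`𝒪` (`rthk_l_ring`, from `nil`); `π x = (Φ1 x, Φχ x)`, `φ1`, `φχ` the two projections.
`stmtK7Main` (with `B = ⊤`, `faith`, `resid`, `model`, the base change of `ρbar` to the residue
field of `A₀`) gives `ρ` over `A₀` with Wiles' matrices; `gen` + the exact representatives give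
that `A₀` is generated by the traces; `stmtK7U2` gives the unipotency at the primes of `Smin`;
`trT`, `trQ`, `cong` give `tr1`, `trχ`, `scalY`, `cong`; HK-COMPAT (`rthk_c_trace'`,
`rthk_c_mat_of_trace`) with `base` gives `base_sig`, `base_phi`, `base_T0`.
-/

set_option autoImplicit false
set_option linter.unusedSectionVars false
set_option linter.style.haveILetI false
set_option maxHeartbeats 1000000

namespace Fermat.Agent.RT

open IsLocalRing Fermat.Agent.ES Fermat.Agent.S30 Fermat.Agent.W1 Fermat.Agent.TW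
open Fermat.Agent.RT.Prod ExtCitation

/-- **HK-ABS-L**, from the sub-pieces. -/
theorem stmtHkAbsL_of (hRes : StmtHkLRes) (hTr : StmtHkLTrCont) (hPow : StmtHkLPowLe)
    (hNil : StmtHkLNilp) : StmtHkAbsL := by
  intro hcheb p _ hp2 O _ _ _ _ _ lam half hlam hpO hhalf ρbar habs hdetbar Smin QT hSmin ι _ σ φ
    tχ m h d n hd hn σ₀ τ₀ hξ T0 _ _ _ _ j0 ρ0 b0 u0 hdet0 hmat0 hu0 S' a0 ha0 L 𝕋 _ J _ _ _ Tr
    Φ1 Φχ HL
  classical
  have hpp : p.Prime := Fact.out
  -- the ring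
  have hSnfin : Finite (RthkSn O m n) := rthk_l_sn_finite O m n
  have hSnnt : Nontrivial (RthkSn O m n) := rthk_l_sn_nontrivial O m n hn
  haveI : Nonempty (Fin d) := ⟨⟨0, hd⟩⟩
  have hpair : ∀ (x : 𝕋) (c : O),
      IsNilpotent (Φ1 x - algebraMap O (Matrix (Fin d) (Fin d) (RthkSn O m n)) c) →
      IsNilpotent (Φχ x - algebraMap O (Matrix (Fin d) (Fin d) (RthkSn O m n)) c) →
      IsNilpotent ((Φ1.prod Φχ) x
        - algebraMap O (Matrix (Fin d) (Fin d) (RthkSn O m n) ×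
          Matrix (Fin d) (Fin d) (RthkSn O m n)) c) := by
    rintro x c ⟨k1, h1⟩ ⟨k2, h2⟩
    refine ⟨k1 + k2, Prod.ext ?_ ?_⟩
    · show (Φ1 x - algebraMap O _ c) ^ (k1 + k2) = 0
      rw [pow_add, h1, zero_mul]
    · show (Φχ x - algebraMap O _ c) ^ (k1 + k2) = 0
      rw [pow_add, h2, mul_zero]
  have hnilΨ : ∀ x : 𝕋, ∃ c : O, IsNilpotent ((Φ1.prod Φχ) x
      - algebraMap O (Matrix (Fin d) (Fin d) (RthkSn O m n) ×
          Matrix (Fin d) (Fin d) (RthkSn O m n)) c) := by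
    intro x
    obtain ⟨c, h1, h2⟩ := HL.nil x
    exact ⟨c, hpair x c h1 h2⟩
  have hlamΨ : ∀ c ∈ maximalIdeal O, IsNilpotent (algebraMap O
      (Matrix (Fin d) (Fin d) (RthkSn O m n) × Matrix (Fin d) (Fin d) (RthkSn O m n)) c) := by
    intro c hc
    refine ⟨n, Prod.ext ?_ ?_⟩
    · exact rthk_l_mat_pow m n _ le_rfl d c hc
    · exact rthk_l_mat_pow m n _ le_rfl d c hc
  obtain ⟨A₀, _, _, _, φA, π, hfin, hφinj, hφπ, hgen, hlh, hsurj, hmem, hmemπ⟩ :=
    rthk_l_ring O (Matrix (Fin d) (Fin d) (RthkSn O m n) × Matrix (Fin d) (Fin d) (RthkSn O m n))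
      𝕋 (Φ1.prod Φχ) hnilΨ hlamΨ
  have hπ1 : ∀ x, (φA (π x)).1 = Φ1 x := fun x => by rw [hφπ]; rfl
  have hπχ : ∀ x, (φA (π x)).2 = Φχ x := fun x => by rw [hφπ]; rfl
  haveI : IsLocalHom (algebraMap O A₀) := hlh
  have hmO : ∀ c ∈ maximalIdeal O, algebraMap O A₀ c ∈ maximalIdeal A₀ := by
    intro c hc
    rw [hmem, ← IsNilpotent.map_iff (f := φA) hφinj, AlgHom.commutes]
    exact hlamΨ c hc
  have hpA : (p : A₀) ∈ maximalIdeal A₀ := by
    have := hmO (p : O) hpO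
    rwa [map_natCast] at this
  have hi2 : 2 * algebraMap O A₀ half = 1 := by
    rw [← map_ofNat (algebraMap O A₀) 2, ← map_mul, hhalf, map_one]
  -- faithfulness
  have hfaith : ∃ n₀ : ℕ, ∀ h ∈ (⊤ : Subring 𝕋),
      (∀ x : J, p ^ n₀ • x = 0 → h • x = 0) → π h = 0 := by
    obtain ⟨n₀, hn₀⟩ := HL.faith
    refine ⟨n₀, fun h _ hh => ?_⟩
    obtain ⟨e1, e2⟩ := hn₀ h hh
    apply hφinj
    rw [hφπ, map_zero]
    exact Prod.ext e1 e2
  -- the residual representation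
  obtain ⟨hR1, hR2, hR3, hR4⟩ := hRes (ResidueField O) (ResidueField A₀)
    (ResidueField.map (algebraMap O A₀)) ρbar
  have hιA : ∀ x : O, ResidueField.map (algebraMap O A₀) (residue O x)
      = residue A₀ (algebraMap O A₀ x) := fun x => rfl
  have hirr := hR1 habs
  have hp0 : (p : ResidueField O) = 0 := by
    have h1 := hdetbar.1
    have hbot : maximalIdeal (ResidueField O) = ⊥ :=
      (Ideal.eq_bot_or_top _).resolve_right (Ideal.IsMaximal.ne_top inferInstance)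
    rw [hbot, Ideal.mem_bot] at h1
    exact h1
  have hdet' : ∀ (σ : GQ) (a : ℕ), (∀ μ : AlgebraicClosure ℚ, μ ^ p = 1 → σ μ = μ ^ a) →
      LinearMap.det ((ρbar.baseChangeAlong (ResidueField.map (algebraMap O A₀))).ρ σ)
        = (a : ResidueField A₀) := by
    intro σ a ha
    have h1 := hdetbar.2 1 σ a (fun μ hμ => ha μ (by rwa [pow_one] at hμ))
    rw [pow_one, hp0, Ideal.span_singleton_eq_bot.mpr rfl, Ideal.mem_bot, sub_eq_zero] at h1
    rw [hR3]
    have h2 : LinearMap.det (ρbar.ρ σ) = (a : ResidueField O) := h1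
    rw [h2, map_natCast]
  have hunitO : ∀ c : O, IsNilpotent (algebraMap O (Matrix (Fin d) (Fin d) (RthkSn O m n)) c) →
      c ∈ maximalIdeal O := by
    intro c hc
    rw [mem_maximalIdeal]
    intro hcu
    exact hc.not_isUnit (hcu.map _)
  have hfrob' : ∀ ℓ : ℕ, ℓ.Prime → ℓ ∉ Smin ∪ QT →
      ∀ P : ValuationSubring (AlgebraicClosure ℚ), P.LiesOverPrime ℓ →
        ∀ τ : GQ, P.IsFrobeniusAt τ ℓ →
          residue A₀ (π (Tr ℓ)) = LinearMap.trace (ResidueField A₀)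
            (ρbar.baseChangeAlong (ResidueField.map (algebraMap O A₀))).V
            ((ρbar.baseChangeAlong (ResidueField.map (algebraMap O A₀))).ρ τ) := by
    intro ℓ hℓ hℓS P hP τ hτ
    obtain ⟨c, hc, hcn⟩ := HL.resid ℓ hℓ (HL.primes ℓ hℓ hℓS) P hP τ hτ
    obtain ⟨c', hc1, hc2⟩ := HL.nil (Tr ℓ)
    have hcc : c' - c ∈ maximalIdeal O := by
      apply hunitO
      have e : algebraMap O (Matrix (Fin d) (Fin d) (RthkSn O m n)) (c' - c)
          = (Φ1 (Tr ℓ) - algebraMap O _ c) - (Φ1 (Tr ℓ) - algebraMap O _ c') := by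
        rw [map_sub]; abel
      rw [e]
      refine Commute.isNilpotent_sub ?_ hcn hc1
      exact Commute.sub_left ((Commute.refl _).sub_right (Algebra.commute_algebraMap_right c' _))
        (Algebra.commute_algebraMap_left c _)
    have h1 : π (Tr ℓ) - algebraMap O A₀ c ∈ maximalIdeal A₀ := by
      have e : π (Tr ℓ) - algebraMap O A₀ c
          = (π (Tr ℓ) - algebraMap O A₀ c') + algebraMap O A₀ (c' - c) := by
        rw [map_sub]; ring
      rw [e]
      exact Ideal.add_mem _ (hmemπ (Tr ℓ) c' (hpair _ _ hc1 hc2)) (hmO _ hcc)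
    have h2 := (residue_eq_zero_iff _).mpr h1
    rw [map_sub, sub_eq_zero] at h2
    rw [h2, ← hιA, hc, hR2]
  have hξ' : rtk7Xi (fun g => LinearMap.trace (ResidueField A₀)
        (ρbar.baseChangeAlong (ResidueField.map (algebraMap O A₀))).V
        ((ρbar.baseChangeAlong (ResidueField.map (algebraMap O A₀))).ρ g)) complexConjugation
      (residue A₀ (algebraMap O A₀ half)) σ₀ τ₀ ≠ 0 := by
    have e : (fun g => LinearMap.trace (ResidueField A₀)
        (ρbar.baseChangeAlong (ResidueField.map (algebraMap O A₀))).V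
        ((ρbar.baseChangeAlong (ResidueField.map (algebraMap O A₀))).ρ g))
        = fun g => ResidueField.map (algebraMap O A₀)
            (LinearMap.trace (ResidueField O) ρbar.V (ρbar.ρ g)) := funext hR2
    rw [e, ← hιA, ← rtk7m_map_Xi]
    exact (map_ne_zero _).mpr hξ
  obtain ⟨t, u, ρ, b, hu, hmat, htr, htfrob, hexact, hrest, hdetcyc, hann, hflat, hunr, hresid⟩ :=
    stmtK7Main hcheb p L hp2 𝕋 J Tr HL.pkg (Smin ∪ QT) HL.primes ⊤
      (fun _ _ _ => Subring.mem_top _) HL.model A₀ hpA (algebraMap O A₀ half) hi2 π hfaith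
      (ρbar.baseChangeAlong (ResidueField.map (algebraMap O A₀))) hirr hdet' hfrob' σ₀ τ₀ hξ'
  have hfinI : Finite A₀ := hfin
  -- `t` is the trace
  have htA : t = fun g => LinearMap.trace A₀ ρ.V (ρ.ρ g) := funext fun g => (htr g).symm
  -- `A₀` is generated by the traces
  have hπmem : ∀ x : 𝕋, π x ∈ Algebra.adjoin O {y | ∃ g, y = LinearMap.trace A₀ ρ.V (ρ.ρ g)} := by
    intro x
    have hx : x ∈ Subring.closure {x : 𝕋 | ∃ g : GQ,
        ∀ k, Rtk7bApprox p J (fun n g => ((cycE p n g : ℕ) : 𝕋)) k g x} :=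
      HL.gen ▸ Subring.mem_top x
    induction hx using Subring.closure_induction with
    | mem x hx =>
      obtain ⟨g, hg⟩ := hx
      rw [← hexact g x (Subring.mem_top _) hg, ← htr g]
      exact Algebra.subset_adjoin ⟨g, rfl⟩
    | zero => rw [map_zero]; exact zero_mem _
    | one => rw [map_one]; exact one_mem _
    | add x y _ _ hx hy => rw [map_add]; exact add_mem hx hy
    | neg x _ hx => rw [map_neg]; exact neg_mem hx
    | mul x y _ _ hx hy => rw [map_mul]; exact mul_mem hx hy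
  have hgenT : Algebra.adjoin O {y | ∃ g, y = LinearMap.trace A₀ ρ.V (ρ.ρ g)} = ⊤ := by
    rw [eq_top_iff, ← hgen]
    refine Algebra.adjoin_le ?_
    rintro _ ⟨x, rfl⟩
    exact hπmem x
  -- the two homomorphisms to `M_d(S ⧸ (𝔞 ⊔ 𝔪 ^ n))`
  have hfac : ∀ r : O, Ideal.Quotient.factor
        (le_sup_right : maximalIdeal (RttwS O m) ^ n ≤
          rttwAug O m ⊔ maximalIdeal (RttwS O m) ^ n)
        (algebraMap O (RthkSn O m n) r)
      = algebraMap O (RttwS O m ⧸ (rttwAug O m ⊔ maximalIdeal (RttwS O m) ^ n)) r :=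
    fun r => rfl
  have hfR_alg : ∀ r : O,
      ((RingHom.mapMatrix (Ideal.Quotient.factor
        (le_sup_right : maximalIdeal (RttwS O m) ^ n ≤
          rttwAug O m ⊔ maximalIdeal (RttwS O m) ^ n))).comp
        (((AlgHom.fst O _ _).comp φA : A₀ →ₐ[O] Matrix (Fin d) (Fin d) (RthkSn O m n)) :
          A₀ →+* Matrix (Fin d) (Fin d) (RthkSn O m n))) (algebraMap O A₀ r)
      = algebraMap O (Matrix (Fin d) (Fin d)
          (RttwS O m ⧸ (rttwAug O m ⊔ maximalIdeal (RttwS O m) ^ n))) r := by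
    intro r
    rw [RingHom.comp_apply, RingHom.coe_coe, AlgHom.commutes]
    exact rthk_l_map_algebraMap _ hfac d r
  have hgR_alg : ∀ r : O,
      ((RingHom.mapMatrix (algebraMap O
          (RttwS O m ⧸ (rttwAug O m ⊔ maximalIdeal (RttwS O m) ^ n)))).comp
        (j0 : T0 →+* Matrix (Fin d) (Fin d) O)) (algebraMap O T0 r)
      = algebraMap O (Matrix (Fin d) (Fin d)
          (RttwS O m ⧸ (rttwAug O m ⊔ maximalIdeal (RttwS O m) ^ n))) r := by
    intro r
    rw [RingHom.comp_apply, RingHom.coe_coe, AlgHom.commutes]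
    exact rthk_l_map_algebraMap _ (fun _ => rfl) d r
  -- the traces are compatible
  have hi2₀ : 2 * algebraMap O T0 half = 1 := by
    rw [← map_ofNat (algebraMap O T0) 2, ← map_mul, hhalf, map_one]
  have hlamO : lam ∈ maximalIdeal O := by
    rw [hlam]
    exact Ideal.subset_span rfl
  have hcompat : ∀ x : GQ,
      ((RingHom.mapMatrix (Ideal.Quotient.factor
        (le_sup_right : maximalIdeal (RttwS O m) ^ n ≤
          rttwAug O m ⊔ maximalIdeal (RttwS O m) ^ n))).comp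
        (((AlgHom.fst O _ _).comp φA : A₀ →ₐ[O] Matrix (Fin d) (Fin d) (RthkSn O m n)) :
          A₀ →+* Matrix (Fin d) (Fin d) (RthkSn O m n)))
        (LinearMap.trace A₀ ρ.V (ρ.ρ x))
      = ((RingHom.mapMatrix (algebraMap O
          (RttwS O m ⧸ (rttwAug O m ⊔ maximalIdeal (RttwS O m) ^ n)))).comp
        (j0 : T0 →+* Matrix (Fin d) (Fin d) O)) (LinearMap.trace T0 ρ0.V (ρ0.ρ x)) := by
    refine rthk_c_trace' _ _ (LinearMap.det.comp ρ.ρ) (LinearMap.det.comp ρ0.ρ)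
      (fun g => LinearMap.trace A₀ ρ.V (ρ.ρ g)) (fun g => LinearMap.trace T0 ρ0.V (ρ0.ρ g))
      (rthk_l_trace_one ρ) (rthk_l_trace_pseudo ρ) (rthk_l_trace_one ρ0)
      (rthk_l_trace_pseudo ρ0) ?_ ?_ ((Smin ∪ QT) ∪ S') ?_ hcheb
    · intro σ'
      exact rthk_l_det_compat ρ ρ0 hdetcyc hdet0 _ _ n
        (rthk_l_mat_natCast m n _ le_sup_right d p hpO) σ'
    · obtain ⟨k, hk⟩ := hNil A₀
      obtain ⟨E₁, hE₁fin, hE₁⟩ := hTr A₀ ρ k
      obtain ⟨k', hk'⟩ := hPow O lam hlam T0 n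
      obtain ⟨E₂, hE₂fin, hE₂⟩ := hTr T0 ρ0 k'
      obtain ⟨F, hFfin, -, hE₁F, hE₂F, -⟩ := Fermat.Agent.S31.exists_galois_hull E₁ E₂ E₁
      refine ⟨F, hFfin, fun σ' hσ' x => ⟨?_, ?_⟩⟩
      · have h1 := hE₁ σ' (fun a ha => hσ' a (hE₁F ha)) x
        rw [hk, Ideal.mem_bot, sub_eq_zero] at h1
        rw [h1]
      · have h1 := hk' (hE₂ σ' (fun a ha => hσ' a (hE₂F ha)) x)
        obtain ⟨y, hy⟩ := Ideal.mem_span_singleton'.mp h1
        rw [← sub_eq_zero, ← map_sub, ← hy, map_mul, hgR_alg, map_pow,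
          rthk_l_mat_pow m n _ le_sup_right d lam hlamO, mul_zero]
    · intro ℓ hℓ hℓS P hP τ hτ
      have hℓ1 : ℓ ∉ Smin ∪ QT := fun h => hℓS (Finset.mem_union_left _ h)
      have hℓ2 : ℓ ∉ S' := fun h => hℓS (Finset.mem_union_right _ h)
      have e1 : ((RingHom.mapMatrix (Ideal.Quotient.factor
          (le_sup_right : maximalIdeal (RttwS O m) ^ n ≤
            rttwAug O m ⊔ maximalIdeal (RttwS O m) ^ n))).comp
          (((AlgHom.fst O _ _).comp φA : A₀ →ₐ[O] Matrix (Fin d) (Fin d) (RthkSn O m n)) :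
            A₀ →+* Matrix (Fin d) (Fin d) (RthkSn O m n)))
          (LinearMap.trace A₀ ρ.V (ρ.ρ τ))
          = ((φA (π (Tr ℓ))).1).map (Ideal.Quotient.factor
          (le_sup_right : maximalIdeal (RttwS O m) ^ n ≤
            rttwAug O m ⊔ maximalIdeal (RttwS O m) ^ n)) := by
        rw [htr, htfrob ℓ hℓ hℓ1 P hP τ hτ]
        rfl
      rw [e1, hπ1, HL.base ℓ hℓ (HL.primes ℓ hℓ hℓ1), ← ha0 ℓ hℓ hℓ2 P hP τ hτ]
      rfl
  have hcompatM : ∀ (x : GQ) (a c : Fin 2),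
      ((φA (LinearMap.toMatrix b b (ρ.ρ x) a c)).1).map (Ideal.Quotient.factor
        (le_sup_right : maximalIdeal (RttwS O m) ^ n ≤
          rttwAug O m ⊔ maximalIdeal (RttwS O m) ^ n))
      = rttwBaseRed m d n (j0 (LinearMap.toMatrix b0 b0 (ρ0.ρ x) a c)) := by
    intro x a c
    rw [hmat x, hmat0 x]
    have hu' : u * rtk7Xi (fun g => LinearMap.trace A₀ ρ.V (ρ.ρ g)) complexConjugation
        (algebraMap O A₀ half) σ₀ τ₀ = 1 := by rw [← htA]; exact hu
    have key := rthk_c_mat_of_trace _ _ (fun g => LinearMap.trace A₀ ρ.V (ρ.ρ g))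
      (fun g => LinearMap.trace T0 ρ0.V (ρ0.ρ g)) complexConjugation hcompat
      (algebraMap O A₀ half) (algebraMap O T0 half) hi2 hi2₀ σ₀ τ₀ u u0 hu' hu0 x a c
    rw [htA]
    exact key
  refine ⟨A₀, inferInstance, inferInstance, inferInstance, ResidueField.map (algebraMap O A₀), ρ,
    b, (AlgHom.fst O _ _).comp φA, (AlgHom.snd O _ _).comp φA, ?_⟩
  refine
    { finite := hfin
      resAlg := ⟨hlh, hsurj⟩
      hιA := hιA
      flat := ⟨⟨hdetcyc, hflat, fun q hq hqS => hunr q hq (HL.primes q hq hqS)⟩, ?_⟩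
      ann := hann
      res := hresid
      gen := hgenT
      scalY1 := ?_
      scalYχ := ?_
      tr1 := ?_
      trχ := ?_
      cong := ?_
      base_sig := fun i a c => hcompatM (σ i) a c
      base_phi := fun i a c => hcompatM (φ i) a c
      base_T0 := ?_ }
  · -- unipotent at the primes of `Smin`
    intro q hqS hq hqp
    obtain ⟨hnd, hun⟩ := hSmin q hqS hq hqp
    refine stmtK7U2 p q hpp hq hqp hnd A₀ ρ hdetcyc ?_
    intro P hP s hs
    obtain ⟨e⟩ := hresid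
    have hconj : (ρbar.baseChangeAlong (ResidueField.map (algebraMap O A₀))).ρ s
        = e.toLinearEquiv.conj (ρ.residual.ρ s) := by
      refine LinearMap.ext fun y => ?_
      rw [LinearEquiv.conj_apply, LinearMap.comp_apply, LinearMap.comp_apply,
        LinearEquiv.coe_coe, LinearEquiv.coe_coe, e.map_apply, LinearEquiv.apply_symm_apply]
    rw [← LinearEquiv.charpoly_conj e.toLinearEquiv, ← hconj, hR4, hun P hP s hs]
    simp only [Polynomial.map_pow, Polynomial.map_sub, Polynomial.map_X, Polynomial.map_one]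
  · intro j hj
    obtain ⟨g, x, -, e1, -⟩ := HL.trQ j hj
    refine ⟨π x ^ 2 - 4, ?_⟩
    rw [map_sub, map_pow, map_ofNat]
    exact (congrArg (fun z => z ^ 2 - 4) (hπ1 x)).trans e1
  · intro j hj
    obtain ⟨g, x, -, -, e2⟩ := HL.trQ j hj
    refine ⟨π x ^ 2 - 4, ?_⟩
    rw [map_sub, map_pow, map_ofNat]
    exact (congrArg (fun z => z ^ 2 - 4) (hπχ x)).trans e2
  · intro i
    obtain ⟨x, hx, e1, -⟩ := HL.trT i
    rw [htr, hexact (σ i) x (Subring.mem_top _) hx]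
    exact (hπ1 x).trans e1
  · intro i
    obtain ⟨x, hx, -, e2⟩ := HL.trT i
    rw [htr, hexact (σ i) x (Subring.mem_top _) hx]
    exact (hπχ x).trans e2
  · -- `cong`
    intro a
    refine rthk_l_ringHom_ext
      ((RingHom.mapMatrix (Ideal.Quotient.factor
        (le_sup_right : maximalIdeal (RttwS O m) ^ n ≤
          rttwLam m lam ⊔ maximalIdeal (RttwS O m) ^ n))).comp
        (((AlgHom.fst O _ _).comp φA : A₀ →ₐ[O] Matrix (Fin d) (Fin d) (RthkSn O m n)) :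
          A₀ →+* Matrix (Fin d) (Fin d) (RthkSn O m n)))
      ((RingHom.mapMatrix (Ideal.Quotient.factor
        (le_sup_right : maximalIdeal (RttwS O m) ^ n ≤
          rttwLam m lam ⊔ maximalIdeal (RttwS O m) ^ n))).comp
        (((AlgHom.snd O _ _).comp φA : A₀ →ₐ[O] Matrix (Fin d) (Fin d) (RthkSn O m n)) :
          A₀ →+* Matrix (Fin d) (Fin d) (RthkSn O m n)))
      (Set.range π) hgen ?_ ?_ a
    · intro r
      rw [RingHom.comp_apply, RingHom.comp_apply, RingHom.coe_coe, RingHom.coe_coe,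
        AlgHom.commutes, AlgHom.commutes]
    · rintro _ ⟨x, rfl⟩
      have := HL.cong x
      rw [← hπ1 x, ← hπχ x] at this
      exact this
  · -- `base_T0`
    intro a
    refine rthk_l_exists_of_gen
      ((RingHom.mapMatrix (Ideal.Quotient.factor
        (le_sup_right : maximalIdeal (RttwS O m) ^ n ≤
          rttwAug O m ⊔ maximalIdeal (RttwS O m) ^ n))).comp
        (((AlgHom.fst O _ _).comp φA : A₀ →ₐ[O] Matrix (Fin d) (Fin d) (RthkSn O m n)) :
          A₀ →+* Matrix (Fin d) (Fin d) (RthkSn O m n)))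
      ((RingHom.mapMatrix (algebraMap O
          (RttwS O m ⧸ (rttwAug O m ⊔ maximalIdeal (RttwS O m) ^ n)))).comp
        (j0 : T0 →+* Matrix (Fin d) (Fin d) O))
      {y | ∃ g, y = LinearMap.trace A₀ ρ.V (ρ.ρ g)} hgenT ?_ ?_ a
    · intro r
      rw [hfR_alg, hgR_alg]
    · rintro _ ⟨g, rfl⟩
      exact ⟨LinearMap.trace T0 ρ0.V (ρ0.ρ g), hcompat g⟩

/-- **HK-ABS-L**, from HK-L-RES. -/
theorem stmtHkAbsL_of_res (hRes : StmtHkLRes) : StmtHkAbsL :=
  stmtHkAbsL_of hRes stmtHkLTrCont stmtHkLPowLe stmtHkLNilp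

end Fermat.Agent.RT


end ZBRT_023_2
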