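/- GENERATED FILE (helper35, build-time optimisation, NOTES/ZB.md): verbatim concatenation of the modules
   Fermat.Agent.RT.K7F.TwChar
   Fermat.Agent.RT.Hecke.ConcFinalPlan
   Fermat.Agent.RT.K7F.Tw
   Fermat.Agent.ES1.Inf.TwDom
   Do not edit; do not import together with these modules. -/
import Fermat.Agent.ZB.Cheb_001
import Fermat.Agent.ZB.S05_001
import Fermat.Agent.ZB.RT_027
import Fermat.Agent.ZB.RT_019
import Fermat.Agent.ZB.ES1_001
import Fermat.Agent.ZB.RT_034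
import Fermat.Agent.ZB.ES1_020
import Fermat.Agent.ZB.ES1_009

/-! ### bundled: `Fermat.Agent.RT.K7F.TwChar` -/
section ZBRT_037_0

/-!
# RT-K7F / FL-TW — the character of the twist (helper81)

`c_M = S42.cycloChar M : G_ℚ →* (ℤ/M)ˣ` is the cyclotomic character mod `M`
(`σ ζ = ζ ^ c_M(σ)` for `ζ ∈ μ_M`, `S42.cycloChar_spec`), and the character of the twist is
`χ = k7ftwChar M e = c_M ^ e`.

* `k7ftw_natCast_not_mem_nonunits` : `n` is a unit at a valuation subring over a prime `ℓ ∤ n`;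
* `k7ftw_cyc_frob`, `k7ftw_cyc_frob_unit`, `k7ftw_char_frob` : `c_M(τ) = ℓ`, `χ(τ) = ℓ ^ e` for a
  Frobenius `τ` at a valuation subring over a prime `ℓ ∤ M`;
* `k7ftw_cyc_inertia`, `k7ftw_char_inertia` : `c_M` and `χ` are trivial on the inertia groups at
  the primes `ℓ ∤ M`;
* `k7ftw_cyc_openKer`, `k7ftw_char_openKer` : `c_M` and `χ` are trivial on `Gal(ℚ̄ / ℚ(ζ_M))`.
-/

set_option autoImplicit false

noncomputable section

namespace Fermat.Agent.RT.K7F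

open Fermat.Agent.ES Fermat.Agent.S42

/-- a natural number prime to the residue characteristic is a unit of the valuation ring -/
theorem k7ftw_natCast_not_mem_nonunits (A : ValuationSubring (AlgebraicClosure ℚ)) {n ℓ : ℕ}
    (hℓ : ℓ.Prime) (hn : ¬ ℓ ∣ n) (hA : A.LiesOverPrime ℓ) :
    ((n : ℕ) : AlgebraicClosure ℚ) ∉ A.nonunits := by
  intro h
  have hcop : Nat.Coprime n ℓ := ((Nat.Prime.coprime_iff_not_dvd hℓ).mpr hn).symm
  obtain ⟨u, v, huv⟩ := Nat.Coprime.isCoprime hcop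
  have h1 : ((u : AlgebraicClosure ℚ) * ((n : ℕ) : AlgebraicClosure ℚ)
      + (v : AlgebraicClosure ℚ) * (ℓ : AlgebraicClosure ℚ)) = 1 := by
    have := congrArg (fun z : ℤ => (z : AlgebraicClosure ℚ)) huv
    simpa using this
  have hu : (u : AlgebraicClosure ℚ) ∈ A := intCast_mem A u
  have hv : (v : AlgebraicClosure ℚ) ∈ A := intCast_mem A v
  have hℓA : (ℓ : AlgebraicClosure ℚ) ∈ A.nonunits := hA
  have h2 : ((u : AlgebraicClosure ℚ) * ((n : ℕ) : AlgebraicClosure ℚ)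
      + (v : AlgebraicClosure ℚ) * (ℓ : AlgebraicClosure ℚ)) ∈ A.nonunits := by
    rw [ValuationSubring.mem_nonunits_iff] at h hℓA ⊢
    apply Valuation.map_add_lt
    · rw [map_mul]
      calc A.valuation (u : AlgebraicClosure ℚ) * A.valuation ((n : ℕ) : AlgebraicClosure ℚ)
          ≤ 1 * A.valuation ((n : ℕ) : AlgebraicClosure ℚ) :=
            mul_le_mul_left ((A.valuation_le_one_iff _).mpr hu) _
        _ = A.valuation ((n : ℕ) : AlgebraicClosure ℚ) := one_mul _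
        _ < 1 := h
    · rw [map_mul]
      calc A.valuation (v : AlgebraicClosure ℚ) * A.valuation (ℓ : AlgebraicClosure ℚ)
          ≤ 1 * A.valuation (ℓ : AlgebraicClosure ℚ) :=
            mul_le_mul_left ((A.valuation_le_one_iff _).mpr hv) _
        _ = A.valuation (ℓ : AlgebraicClosure ℚ) := one_mul _
        _ < 1 := hℓA
  rw [h1, ValuationSubring.mem_nonunits_iff, map_one] at h2
  exact lt_irrefl _ h2

variable (M : ℕ) [NeZero M]

/-- **the character of the twist** `χ = c_M ^ e`, `c_M` the cyclotomic character mod `M` -/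
def k7ftwChar (e : ℕ) : GQ →* (ZMod M)ˣ := cycloChar M ^ e

theorem k7ftwChar_apply (e : ℕ) (σ : GQ) : k7ftwChar M e σ = cycloChar M σ ^ e := rfl

theorem k7ftwChar_eq_pow (e : ℕ) : k7ftwChar M e = cycloChar M ^ e := rfl

theorem k7ftwChar_one_eq : k7ftwChar M 1 = cycloChar M := by
  ext σ
  rw [k7ftwChar_apply, pow_one]

/-- `c_M(τ) = ℓ` for a Frobenius `τ` at a valuation subring over a prime `ℓ ∤ M` -/
theorem k7ftw_cyc_frob {ℓ : ℕ} (hℓ : ℓ.Prime) (hℓM : ¬ ℓ ∣ M)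
    (A : ValuationSubring (AlgebraicClosure ℚ)) (hA : A.LiesOverPrime ℓ) (τ : GQ)
    (hτ : A.IsFrobeniusAt τ ℓ) :
    ((cycloChar M τ : (ZMod M)ˣ) : ZMod M) = (ℓ : ZMod M) := by
  have : NeZero (M : AlgebraicClosure ℚ) := ⟨Nat.cast_ne_zero.mpr (NeZero.ne M)⟩
  obtain ⟨ζ, hζ⟩ := HasEnoughRootsOfUnity.exists_primitiveRoot (AlgebraicClosure ℚ) M
  have hfrob : τ ζ = ζ ^ ℓ :=
    Fermat.Agent.S31.frob_rootOfUnity A (k7ftw_natCast_not_mem_nonunits A hℓ hℓM hA)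
      (NeZero.ne M) hτ hζ.pow_eq_one
  have hspec := cycloChar_spec M τ hζ
  rw [hfrob] at hspec
  have hfo : IsOfFinOrder ζ :=
    isOfFinOrder_iff_pow_eq_one.mpr ⟨M, Nat.pos_of_ne_zero (NeZero.ne M), hζ.pow_eq_one⟩
  have hmod : ℓ ≡ ((cycloChar M τ : (ZMod M)ˣ) : ZMod M).val [MOD M] := by
    have := hfo.pow_eq_pow_iff_modEq (n := ℓ)
      (m := ((cycloChar M τ : (ZMod M)ˣ) : ZMod M).val)
    rw [← hζ.eq_orderOf] at this
    exact this.mp hspec
  have h3 := (ZMod.natCast_eq_natCast_iff _ _ _).mpr hmod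
  rw [ZMod.natCast_zmod_val] at h3
  exact h3.symm

/-- `c_M(τ) = c` for a Frobenius `τ` at a prime `ℓ ∤ M`, `c` the class of `ℓ` -/
theorem k7ftw_cyc_frob_unit {ℓ : ℕ} (hℓ : ℓ.Prime) (hℓM : ¬ ℓ ∣ M)
    (c : (ZMod M)ˣ) (hc : (c : ZMod M) = (ℓ : ZMod M))
    (A : ValuationSubring (AlgebraicClosure ℚ)) (hA : A.LiesOverPrime ℓ) (τ : GQ)
    (hτ : A.IsFrobeniusAt τ ℓ) : cycloChar M τ = c :=
  Units.ext ((k7ftw_cyc_frob M hℓ hℓM A hA τ hτ).trans hc.symm)

/-- `χ(τ) = c ^ e` for a Frobenius `τ` at a prime `ℓ ∤ M`, `c` the class of `ℓ` -/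
theorem k7ftw_char_frob (e : ℕ) {ℓ : ℕ} (hℓ : ℓ.Prime) (hℓM : ¬ ℓ ∣ M)
    (c : (ZMod M)ˣ) (hc : (c : ZMod M) = (ℓ : ZMod M))
    (A : ValuationSubring (AlgebraicClosure ℚ)) (hA : A.LiesOverPrime ℓ) (τ : GQ)
    (hτ : A.IsFrobeniusAt τ ℓ) : k7ftwChar M e τ = c ^ e := by
  rw [k7ftwChar_apply, k7ftw_cyc_frob_unit M hℓ hℓM c hc A hA τ hτ]

/-- `c_M` is trivial on the inertia groups at the primes `ℓ ∤ M` -/
theorem k7ftw_cyc_inertia {ℓ : ℕ} (hℓ : ℓ.Prime) (hℓM : ¬ ℓ ∣ M)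
    (A : ValuationSubring (AlgebraicClosure ℚ)) (hA : A.LiesOverPrime ℓ) (σ : GQ)
    (hσ : σ ∈ A.inertiaSubgroupIn ℚ) : cycloChar M σ = 1 := by
  have : NeZero (M : AlgebraicClosure ℚ) := ⟨Nat.cast_ne_zero.mpr (NeZero.ne M)⟩
  obtain ⟨ζ, hζ⟩ := HasEnoughRootsOfUnity.exists_primitiveRoot (AlgebraicClosure ℚ) M
  exact cycloChar_eq_one M σ hζ
    (Fermat.Agent.S31.inertia_rootOfUnity A (k7ftw_natCast_not_mem_nonunits A hℓ hℓM hA)
      (NeZero.ne M) hσ hζ.pow_eq_one)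

/-- `χ` is trivial on the inertia groups at the primes `ℓ ∤ M` -/
theorem k7ftw_char_inertia (e : ℕ) {ℓ : ℕ} (hℓ : ℓ.Prime) (hℓM : ¬ ℓ ∣ M)
    (A : ValuationSubring (AlgebraicClosure ℚ)) (hA : A.LiesOverPrime ℓ) (σ : GQ)
    (hσ : σ ∈ A.inertiaSubgroupIn ℚ) : k7ftwChar M e σ = 1 := by
  rw [k7ftwChar_apply, k7ftw_cyc_inertia M hℓ hℓM A hA σ hσ, one_pow]

/-- `c_M` has open kernel: it is trivial on `Gal(ℚ̄ / ℚ(ζ_M))` -/
theorem k7ftw_cyc_openKer :
    ∃ E : IntermediateField ℚ (AlgebraicClosure ℚ), FiniteDimensional ℚ E ∧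
      ∀ σ : GQ, (∀ a ∈ E, σ a = a) → cycloChar M σ = 1 := by
  have : NeZero (M : AlgebraicClosure ℚ) := ⟨Nat.cast_ne_zero.mpr (NeZero.ne M)⟩
  obtain ⟨ζ, hζ⟩ := HasEnoughRootsOfUnity.exists_primitiveRoot (AlgebraicClosure ℚ) M
  have hint : IsIntegral ℚ ζ :=
    (hζ.isIntegral (Nat.pos_of_ne_zero (NeZero.ne M))).tower_top
  refine ⟨IntermediateField.adjoin ℚ {ζ}, IntermediateField.adjoin.finiteDimensional hint,
    fun σ hσ => ?_⟩
  exact cycloChar_eq_one M σ hζ (hσ ζ (IntermediateField.mem_adjoin_simple_self ℚ ζ))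

/-- `χ` has open kernel -/
theorem k7ftw_char_openKer (e : ℕ) :
    ∃ E : IntermediateField ℚ (AlgebraicClosure ℚ), FiniteDimensional ℚ E ∧
      ∀ σ : GQ, (∀ a ∈ E, σ a = a) → k7ftwChar M e σ = 1 := by
  obtain ⟨E, hE, h⟩ := k7ftw_cyc_openKer M
  exact ⟨E, hE, fun σ hσ => by rw [k7ftwChar_apply, h σ hσ, one_pow]⟩

/-- the action of `σ` on `μ_M` is `ζ ↦ ζ ^ c_M(σ)` (all `M`-th roots of unity) -/
theorem k7ftw_cyc_spec (σ : GQ) {ζ : AlgebraicClosure ℚ} (hζ : ζ ^ M = 1) :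
    σ ζ = ζ ^ ((cycloChar M σ : (ZMod M)ˣ) : ZMod M).val := by
  have : NeZero (M : AlgebraicClosure ℚ) := ⟨Nat.cast_ne_zero.mpr (NeZero.ne M)⟩
  obtain ⟨ξ, hξ⟩ := HasEnoughRootsOfUnity.exists_primitiveRoot (AlgebraicClosure ℚ) M
  obtain ⟨i, -, rfl⟩ := hξ.eq_pow_of_pow_eq_one hζ
  rw [map_pow, cycloChar_spec M σ hξ, ← pow_mul, ← pow_mul, mul_comm]

end Fermat.Agent.RT.K7F

end
end ZBRT_037_0

/-! ### bundled: `Fermat.Agent.RT.Hecke.ConcFinalPlan` -/
section ZBRT_037_1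

/-!
# K-machine, HK-CONC, layer (C) (helper9): the contracts of the final glue

The final glue `rthkf_top` (RT/Hecke/ConcFinal.lean) proves `StmtHkConcTop` from

* `StmtHkfK5` : **the K5 side** over a setup `Y` and `h`: a modulus `M₀ ∣ N`, a family
  `c : Fin r → Hom(Γ₀(N), 𝒪)` (`0 < r`), the matrices `a ℓ` of `tS ℓ` in `c`, the base
  `HkBase … Φ0` with `d = 2 ^ h * r` and `Φ0 (Tr₀ ℓ) = rthkcbBlock 𝒪 h r (a ℓ)`; and for every
  Taylor–Wiles family `qv` of level `n`: a Hecke expression `e` and an auxiliary prime `ℓ₀`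
  avoiding `qv` such that the reductions of `c` are a basis of the `Θ_{e, ℓ₀}`-part of
  `Hom(Γ₀(N), 𝒪 ⧸ 𝔪 ^ (n + 1))`, the Taylor–Wiles condition `K5TWCond`, and the residual
  Frobenius traces (field `resid` of `HkConcSide`) on the `Θ_{e.twist Q, ℓ₀}`-part of level
  `L = N * ∏ qv j`, `M = ∏ qv j * ∏ r i`, `H' = rthkdH …`;
* `StmtHkfTr` : **the K6 side**: the characters `ψ1, ψχ` with `cong`, `aug`, `trT`, `trQ`.

The remaining fields (`pkg`, `primes`, `model`, `stable`, `free`, `faith`, `base`) are on main.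
-/

set_option autoImplicit false
set_option linter.unusedSectionVars false
set_option linter.style.haveILetI false

noncomputable section

namespace Fermat.Agent.RT

open IsLocalRing Fermat.Agent.ES Fermat.Agent.S30 Fermat.Agent.W1 Fermat.Agent.TW
open Fermat.Agent.ES1 Fermat.Agent.RT.K5 Fermat.Agent.RT.K7F Fermat.Agent.RT.Prod
open ExtCitation WeierstrassCurve WeierstrassCurve.Affine WeierstrassCurve.Affine.Point
open scoped MatrixGroups

section data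

variable {P : FreyPackage} {N q : ℕ} (Y : KSetup P N q) {h : ℕ} (qv : Fin h → ℕ) (n : ℕ)

/-- the subgroup `H'` of the final glue -/
abbrev rthkfH : Subgroup (ZMod (rthkdM (Sum.elim qv Y.r)))ˣ :=
  rthkdH P.p (Sum.elim qv Y.r) (Sum.elim (fun _ => n + 1) (fun _ => 1))
    (rthkdM (Sum.elim qv Y.r)) (rthkd_dvd_M _)

end data

/-- **The K5 side.** -/
def StmtHkfK5 : Prop :=
  ∀ (P : FreyPackage) (N q : ℕ) [NeZero N], P.IsConductorLevel N → ¬ P.p ∣ N → q.Prime →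
    q ≠ 2 → q ∣ N → GaloisRepIsIrreducible (K := AlgebraicClosure ℚ) ℚ P.freyCurve P.p →
    P.ModularRepOfLevel N →
    (∀ r : ℕ, r.Prime → r ≠ 2 → r ∣ N → Fermat.Agent.RIB.IsTrivialPrime P r) →
    ∀ (Y : KSetup P N q) (h : ℕ),
      haveI : Fact P.p.Prime := ⟨P.pp⟩
      ∃ (M₀ : ℕ) (_ : NeZero M₀) (_ : Fact (M₀ ∣ N)) (r : ℕ) (_ : 0 < r)
        (c : Fin r → HomS (gammaH N M₀ (⊤ : Subgroup (ZMod M₀)ˣ)) Y.O)
        (a : ℕ → Matrix (Fin r) (Fin r) Y.O)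
        (S' : Finset ℕ) (_ : P.p ∈ S') (_ : ∀ ℓ : ℕ, ℓ.Prime → ℓ ∣ N → ℓ ∈ S')
        (𝕋₀ : Type) (_ : CommRing 𝕋₀) (J₀ : Type) (_ : AddCommGroup J₀) (_ : Module 𝕋₀ J₀)
        (_ : DistribMulAction GQ J₀) (Tr₀ : ℕ → 𝕋₀)
        (Φ0 : 𝕋₀ →+* Matrix (Fin (2 ^ h * r)) (Fin (2 ^ h * r)) Y.O),
        HkBase P.p Y.ρbar N S' (2 ^ h * r) J₀ Tr₀ Φ0 ∧
        (∀ (ℓ : ℕ) [NeZero ℓ], ℓ.Prime → ¬ ℓ ∣ N * P.p →
          (∀ i', tS N M₀ ℓ ⊤ Y.O (c i') = ∑ i, a ℓ i i' • c i) ∧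
            Φ0 (Tr₀ ℓ) = rthkcbBlock Y.O h r (a ℓ)) ∧
        ∀ (n : ℕ) (qv : Fin h → ℕ),
          IsTWFamily P.p Y.ρbar (Y.Smin ∪ Finset.univ.image Y.r) n h qv →
          ∀ (_ : NeZero (N * rthkdM qv)) (_ : NeZero (rthkdM (Sum.elim qv Y.r)))
            (_ : Fact (rthkdM (Sum.elim qv Y.r) ∣ N * rthkdM qv)),
          ∃ (e : HExpr Y.O) (ℓ₀ : ℕ) (_ : NeZero ℓ₀), e.IsPrimes ∧ ℓ₀.Prime ∧ ¬ ℓ₀ ∣ N ∧
            ℓ₀ ≠ P.p ∧ (∀ j, qv j ≠ ℓ₀ ∧ e.Avoids (qv j)) ∧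
            K5TWCond Y.O N M₀ ℓ₀ e (List.ofFn qv) (RthkdC Y.O (n + 1)) ∧
            K5IsBasis (RthkdC Y.O (n + 1))
              (etaPart (thetaN (e.eval N M₀) ℓ₀ (RthkdC Y.O (n + 1)) ⊤))
              (fun i => mapS (Submodule.mkQ (maximalIdeal Y.O ^ (n + 1))).toAddMonoidHom
                (c i)) ∧
            ∀ ℓ : ℕ, ℓ.Prime → ¬ ℓ ∣ (N * rthkdM qv) * P.p →
              ∀ A : ValuationSubring (AlgebraicClosure ℚ), A.LiesOverPrime ℓ →
                ∀ τ : GQ, A.IsFrobeniusAt τ ℓ → ∃ (c' : Y.O) (k : ℕ),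
                  residue Y.O c' = LinearMap.trace (ResidueField Y.O) Y.ρbar.V (Y.ρbar.ρ τ) ∧
                  ∀ ψ ∈ etaPart (thetaN
                      ((e.twist (List.ofFn qv)).eval (N * rthkdM qv)
                        (rthkdM (Sum.elim qv Y.r))) ℓ₀ (RthkdC Y.O (n + 1))
                      (rthkfH Y qv n)),
                    ((rthkdEval P.p (N * rthkdM qv) (rthkdM (Sum.elim qv Y.r))
                        (rthkfH Y qv n) (RthkdC Y.O (n + 1))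
                        (es1inftwTr (rthkdM (Sum.elim qv Y.r)) (rthkdE P.p (n + 1)) ℓ)
                      - rthkcsScal (N * rthkdM qv) (rthkdM (Sum.elim qv Y.r))
                        (rthkfH Y qv n) (n + 1) c') ^ k) ψ = 0

/-- **The K6 side**: the characters and the fields `cong`, `aug`, `trT`, `trQ`, for every
family `𝔲` and auxiliary prime `ℓ₀`. -/
def StmtHkfTr : Prop :=
  ∀ (P : FreyPackage) (N q : ℕ) [NeZero N], P.IsConductorLevel N → ¬ P.p ∣ N → q.Prime →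
    q ≠ 2 → q ∣ N →
    ∀ (Y : KSetup P N q) (h n : ℕ) (qv : Fin h → ℕ),
      IsTWFamily P.p Y.ρbar (Y.Smin ∪ Finset.univ.image Y.r) n h qv →
      ∀ (_ : Fact P.p.Prime) (_ : NeZero (N * rthkdM qv))
        (_ : NeZero (rthkdM (Sum.elim qv Y.r)))
        (_ : Fact (rthkdM (Sum.elim qv Y.r) ∣ N * rthkdM qv))
        (𝔲 : NatFam Y.O (N * rthkdM qv) (rthkdM (Sum.elim qv Y.r))) (ℓ₀ : ℕ) (_ : NeZero ℓ₀),
      ∃ ψ1 ψχ : RthkdDelta (rthkdM (Sum.elim qv Y.r)) (rthkfH Y qv n) →*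
          RthkSn Y.O (Y.m h) (n + 1),
        (∀ δ, Ideal.Quotient.factor
            (le_sup_right : maximalIdeal (RttwS Y.O (Y.m h)) ^ (n + 1) ≤
              rttwLam (Y.m h) Y.lam ⊔ maximalIdeal (RttwS Y.O (Y.m h)) ^ (n + 1)) (ψ1 δ) =
          Ideal.Quotient.factor
            (le_sup_right : maximalIdeal (RttwS Y.O (Y.m h)) ^ (n + 1) ≤
              rttwLam (Y.m h) Y.lam ⊔ maximalIdeal (RttwS Y.O (Y.m h)) ^ (n + 1)) (ψχ δ)) ∧
        (∀ δ, Ideal.Quotient.factor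
            (le_sup_right : maximalIdeal (RttwS Y.O (Y.m h)) ^ (n + 1) ≤
              rttwAug Y.O (Y.m h) ⊔ maximalIdeal (RttwS Y.O (Y.m h)) ^ (n + 1)) (ψ1 δ) = 1) ∧
        (∀ i, ∃ (x : HDAlg (rthkdM (Sum.elim qv Y.r)))
            (u : (ZMod (rthkdM (Sum.elim qv Y.r)))ˣ),
          (∀ k, Rtk7bApprox P.p
            (es1inftwJ (N * rthkdM qv) (rthkdM (Sum.elim qv Y.r)) (rthkfH Y qv n) P.p
              (k7ftwChar (rthkdM (Sum.elim qv Y.r)) (rthkdE P.p (n + 1))))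
            (fun n g => ((cycE P.p n g : ℕ) : HDAlg (rthkdM (Sum.elim qv Y.r)))) k
            (Y.σ i) x) ∧
          (∀ ψ ∈ etaPart (thetaN 𝔲 ℓ₀ (RthkdC Y.O (n + 1)) (rthkfH Y qv n)),
            es1infHomEval (N * rthkdM qv) (rthkdM (Sum.elim qv Y.r)) (rthkfH Y qv n)
                (Fact.out) P.p (RthkdC Y.O (n + 1)) x ψ
              = diamU (N * rthkdM qv) (rthkdM (Sum.elim qv Y.r)) (rthkfH Y qv n)
                  (RthkdC Y.O (n + 1)) u ψ
                + diamU (N * rthkdM qv) (rthkdM (Sum.elim qv Y.r)) (rthkfH Y qv n)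
                  (RthkdC Y.O (n + 1)) u⁻¹ ψ) ∧
          ψ1 (QuotientGroup.mk u) = 1 ∧
          ψχ (QuotientGroup.mk u) + ψχ (QuotientGroup.mk u)⁻¹
            = algebraMap Y.O (RthkSn Y.O (Y.m h) (n + 1)) (2 * Y.tχ i)) ∧
        (∀ j : Fin (Y.m h), (j : ℕ) < h → ∃ (g : GQ)
            (x : HDAlg (rthkdM (Sum.elim qv Y.r)))
            (u : (ZMod (rthkdM (Sum.elim qv Y.r)))ˣ),
          (∀ k, Rtk7bApprox P.p
            (es1inftwJ (N * rthkdM qv) (rthkdM (Sum.elim qv Y.r)) (rthkfH Y qv n) P.p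
              (k7ftwChar (rthkdM (Sum.elim qv Y.r)) (rthkdE P.p (n + 1))))
            (fun n g => ((cycE P.p n g : ℕ) : HDAlg (rthkdM (Sum.elim qv Y.r)))) k g x) ∧
          (∀ ψ ∈ etaPart (thetaN 𝔲 ℓ₀ (RthkdC Y.O (n + 1)) (rthkfH Y qv n)),
            es1infHomEval (N * rthkdM qv) (rthkdM (Sum.elim qv Y.r)) (rthkfH Y qv n)
                (Fact.out) P.p (RthkdC Y.O (n + 1)) x ψ
              = diamU (N * rthkdM qv) (rthkdM (Sum.elim qv Y.r)) (rthkfH Y qv n)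
                  (RthkdC Y.O (n + 1)) u ψ
                + diamU (N * rthkdM qv) (rthkdM (Sum.elim qv Y.r)) (rthkfH Y qv n)
                  (RthkdC Y.O (n + 1)) u⁻¹ ψ) ∧
          ψ1 (QuotientGroup.mk u) - ψ1 (QuotientGroup.mk u)⁻¹
            = Ideal.Quotient.mk _ (MvPowerSeries.X j) ∧
          ψχ (QuotientGroup.mk u) - ψχ (QuotientGroup.mk u)⁻¹
            = Ideal.Quotient.mk _ (MvPowerSeries.X j))

end Fermat.Agent.RT

end


end ZBRT_037_1

/-! ### bundled: `Fermat.Agent.RT.K7F.Tw` -/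
section ZBRT_037_2

/-!
# RT-K7F / FL-TW — the twist by `χ = c_M ^ e` (helper81)

`χ = k7ftwChar M e = c_M ^ e` (`RT/K7F/TwChar.lean`), `JHtw L M H χ` the twisted module of
`RT/K7F/Plan.lean`.

* `k7ftw_isTwistChar`, `k7ftw_isTwistChar_of_level` : **`IsTwistChar A χ`** for `A` over a prime
  `p ∤ M` (inertia at `p` acts trivially on `μ_M`; `χ` is trivial on `Gal(ℚ̄ / ℚ(ζ_M))`);
* `k7ftw_isDiamondH_one`, `k7ftw_diamond_of_mem_pmH` : the diamond `⟨c⟩` of a class `c ∈ ±H` is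
  the identity of `J_H`;
* `k7ftw_diamond_pow` : `⟨c⟩ ^ n = ⟨c ^ n⟩`; `k7ftw_diamond_pow_eq` : `⟨c⟩ ^ n = 1` if
  `c ^ n ∈ ±H`;
* `k7ftw_smul_frob` : the twisted action of a Frobenius `τ` at `ℓ ∤ M`:
  `τ •_χ x = ⟨ℓ⟩ ^ e (τ • x)`;
* `k7ftw_smul_inertia` : the twisted action of the inertia groups at the primes `ℓ ∤ M` is the
  plain action;
* `k7ftw_smul_of_fixed` : the twisted action of `Gal(ℚ̄ / ℚ(ζ_M))` is the plain action;
* `k7ftw_frob_rel` : **the twisted Eichler–Shimura relation**, abstract form: if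
  `D (τ (τ x)) − T (τ x) + ℓ x = 0` (`D = ⟨ℓ⟩`), `D`, `T`, `τ` commute and `D ^ (2 e − 1) = 1`,
  `e ≥ 1`, then `τ' (τ' x) − T' (τ' x) + ℓ x = 0` for `τ' = D ^ e τ`, `T' = D ^ (e − 1) T`.
-/

set_option autoImplicit false
set_option linter.unusedSectionVars false

noncomputable section

namespace Fermat.Agent.RT.K7F

open AlgebraicCurve Module ModularCurve HahnSeries
open Fermat.Agent.ES Fermat.Agent.ES1 Fermat.Agent.ES1.G2 Fermat.Agent.S24 Fermat.Agent.S42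

/-! ## `IsTwistChar` -/

/-- **FL-TW (a)**: `χ = c_M ^ e` is a twist character at every valuation subring over a prime
`p ∤ M`. -/
theorem k7ftw_isTwistChar (M : ℕ) [NeZero M] (e : ℕ) {p : ℕ} (hp : p.Prime) (hpM : ¬ p ∣ M)
    (A : ValuationSubring Kb) (hA : A.LiesOverPrime p) : IsTwistChar A (k7ftwChar M e) where
  inertia := fun σ hσ => k7ftw_char_inertia M e hp hpM A hA σ hσ
  open_ker := k7ftw_char_openKer M e

theorem k7ftw_level_neZero {L M : ℕ} {H : Subgroup (ZMod M)ˣ} {p : ℕ}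
    (h : K7FLevel L M H p) : NeZero M :=
  ⟨fun h0 => by
    have hL0 : L = 0 := Nat.eq_zero_of_zero_dvd (h0 ▸ h.hML)
    have := h.hL
    omega⟩

theorem k7ftw_level_not_dvd {L M : ℕ} {H : Subgroup (ZMod M)ˣ} {p : ℕ}
    (h : K7FLevel L M H p) : ¬ p ∣ M :=
  fun hpM => h.hpL (hpM.trans h.hML)

/-- **FL-TW (a)** under the standing hypotheses of K7-FLAT. -/
theorem k7ftw_isTwistChar_of_level {L M : ℕ} [NeZero M] {H : Subgroup (ZMod M)ˣ} {p : ℕ}
    (h : K7FLevel L M H p) (e : ℕ) (A : ValuationSubring Kb) (hA : A.LiesOverPrime p) :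
    IsTwistChar A (k7ftwChar M e) :=
  k7ftw_isTwistChar M e h.hp (k7ftw_level_not_dvd h) A hA

/-! ## The diamonds of the classes in `±H` -/

section Diamond

variable {L M : ℕ} {H : Subgroup (ZMod M)ˣ}

/-- the identity is the diamond of every class in `±H` -/
theorem k7ftw_isDiamondH_one {c : (ZMod M)ˣ} (hc : c ∈ pmH H) :
    IsDiamondH L M H c (1 : fieldBar L M H ≃ₐ[QbH] fieldBar L M H) where
  fix_j := fun _ _ _ _ _ => rfl
  map_s := fun e _ a _ x hx => by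
    rw [es1f_sS_eq_of_inPM QbH (es1rc_inPM_mul_of_mem (H := H) a hc)]
    exact hx

/-- **the diamond of a class in `±H` is the identity of `J_H`** -/
theorem k7ftw_diamond_of_mem_pmH {c : (ZMod M)ˣ} (hc : c ∈ pmH H) (x : JH L M H) :
    es1Diamond L M H c x = x := by
  rw [es1Diamond_eq (k7ftw_isDiamondH_one hc), diamondJ_apply, map_one, one_smul]

/-- `⟨c⟩ ^ n = ⟨c ^ n⟩` -/
theorem k7ftw_diamond_pow (hL : L ≠ 0) (hML : M ∣ L) (c : (ZMod M)ˣ) (n : ℕ) (x : JH L M H) :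
    (es1Diamond L M H c)^[n] x = es1Diamond L M H (c ^ n) x := by
  induction n generalizing x with
  | zero => rw [Function.iterate_zero, id, pow_zero, diamb_diamond_one]
  | succ n ih =>
    rw [Function.iterate_succ_apply', ih, pow_succ', diamb_diamond_mul k7f_diamondBar hL hML]

/-- `⟨c⟩ ^ n = 1` if `c ^ n ∈ ±H` -/
theorem k7ftw_diamond_pow_eq (hL : L ≠ 0) (hML : M ∣ L) (c : (ZMod M)ˣ) (n : ℕ)
    (hc : c ^ n ∈ pmH H) (x : JH L M H) : (es1Diamond L M H c)^[n] x = x := by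
  rw [k7ftw_diamond_pow hL hML, k7ftw_diamond_of_mem_pmH hc]

/-- the diamonds commute -/
theorem k7ftw_diamond_comm (hL : L ≠ 0) (hML : M ∣ L) (c d : (ZMod M)ˣ) (x : JH L M H) :
    es1Diamond L M H c (es1Diamond L M H d x) = es1Diamond L M H d (es1Diamond L M H c x) := by
  rw [← diamb_diamond_mul k7f_diamondBar hL hML, ← diamb_diamond_mul k7f_diamondBar hL hML,
    mul_comm]

end Diamond

/-! ## The twisted action at Frobenius and inertia -/

section Action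

variable {L M : ℕ} [NeZero M] {H : Subgroup (ZMod M)ˣ}

/-- the twisted action of a Frobenius at `ℓ ∤ M`: `τ •_χ x = ⟨ℓ ^ e⟩ (τ • x)` -/
theorem k7ftw_smul_frob (hL : L ≠ 0) (hML : M ∣ L) (e : ℕ) {ℓ : ℕ} (hℓ : ℓ.Prime)
    (hℓM : ¬ ℓ ∣ M) (c : (ZMod M)ˣ) (hc : (c : ZMod M) = (ℓ : ZMod M))
    (A : ValuationSubring Kb) (hA : A.LiesOverPrime ℓ) (τ : K7GQ) (hτ : A.IsFrobeniusAt τ ℓ)
    (x : JHtw L M H (k7ftwChar M e)) :
    ofTw L M H (k7ftwChar M e) (τ • x)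
      = es1Diamond L M H (c ^ e) (τ • ofTw L M H (k7ftwChar M e) x) := by
  rw [tw_smul_eq L M H (k7ftwChar M e) hL hML, k7ftw_char_frob M e hℓ hℓM c hc A hA τ hτ]

/-- the twisted action of the inertia groups at the primes `ℓ ∤ M` is the plain action -/
theorem k7ftw_smul_inertia (e : ℕ) {ℓ : ℕ} (hℓ : ℓ.Prime) (hℓM : ¬ ℓ ∣ M)
    (A : ValuationSubring Kb) (hA : A.LiesOverPrime ℓ) (σ : K7GQ)
    (hσ : σ ∈ A.inertiaSubgroupIn ℚ) (x : JHtw L M H (k7ftwChar M e)) :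
    ofTw L M H (k7ftwChar M e) (σ • x) = σ • ofTw L M H (k7ftwChar M e) x :=
  tw_smul_eq_of_one L M H (k7ftwChar M e) (k7ftw_char_inertia M e hℓ hℓM A hA σ hσ) x

/-- there is a number field `E` such that the twisted action of `Gal(ℚ̄ / E)` is the plain
action -/
theorem k7ftw_smul_of_fixed (L : ℕ) (H : Subgroup (ZMod M)ˣ) (e : ℕ) :
    ∃ E : IntermediateField ℚ (AlgebraicClosure ℚ), FiniteDimensional ℚ E ∧
      ∀ σ : K7GQ, (∀ a ∈ E, σ a = a) → ∀ x : JHtw L M H (k7ftwChar M e),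
        ofTw L M H (k7ftwChar M e) (σ • x) = σ • ofTw L M H (k7ftwChar M e) x := by
  obtain ⟨E, hE, h⟩ := k7ftw_char_openKer M e
  exact ⟨E, hE, fun σ hσ x => tw_smul_eq_of_one L M H (k7ftwChar M e) (h σ hσ) x⟩

end Action

/-! ## The twisted Eichler–Shimura relation, abstract form -/

/-- **the twisted Eichler–Shimura relation** (abstract form): from `D τ² − T τ + ℓ = 0` at `x`
with commuting additive maps `D`, `T`, `τ` and `D ^ (2 e − 1) = 1`, `e ≥ 1`, the relation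
`τ'² − T' τ' + ℓ = 0` at `x` for `τ' = D ^ e τ` and `T' = D ^ (e − 1) T`. -/
theorem k7ftw_frob_rel {J : Type*} [AddCommGroup J] (D T τ : J →+ J)
    (hDτ : ∀ y, D (τ y) = τ (D y)) (hDT : ∀ y, D (T y) = T (D y)) (e : ℕ) (he : 1 ≤ e)
    (hD : ∀ y, D^[2 * e - 1] y = y) (ℓ : ℕ) (x : J)
    (hx : D (τ (τ x)) - T (τ x) + ℓ • x = 0) :
    D^[e] (τ (D^[e] (τ x))) - D^[e - 1] (T (D^[e] (τ x))) + ℓ • x = 0 := by
  have hDτn : ∀ (n : ℕ) (y : J), D^[n] (τ y) = τ (D^[n] y) := by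
    intro n
    induction n with
    | zero => intro y; rfl
    | succ n ih =>
      intro y
      rw [Function.iterate_succ_apply', ih, hDτ, ← Function.iterate_succ_apply' D n y]
  have hDTn : ∀ (n : ℕ) (y : J), D^[n] (T y) = T (D^[n] y) := by
    intro n
    induction n with
    | zero => intro y; rfl
    | succ n ih =>
      intro y
      rw [Function.iterate_succ_apply', ih, hDT, ← Function.iterate_succ_apply' D n y]
  have h1 : D^[e] (τ (D^[e] (τ x))) = D (τ (τ x)) := by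
    rw [← hDτn e (τ x), ← Function.iterate_add_apply,
      show e + e = (2 * e - 1) + 1 by omega, Function.iterate_add_apply,
      Function.iterate_one, hD]
  have h2 : D^[e - 1] (T (D^[e] (τ x))) = T (τ x) := by
    rw [← hDTn e (τ x), ← Function.iterate_add_apply,
      show e - 1 + e = 2 * e - 1 by omega, hD]
  rw [h1, h2, hx]

end Fermat.Agent.RT.K7F

end
end ZBRT_037_2

/-! ### bundled: `Fermat.Agent.ES1.Inf.TwDom` -/
section ZBRT_037_3

/-!
# K7-TW (TW3) — domination of the twisted package by `J_H^{tw}[pⁿ]` (helper38)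

`es1inftwJ L M H p χ` (the `p`-divisible part, twisted action) is a Galois-stable subgroup of
helper34's `RT.K7F.JHtw L M H χ`:

* `es1inftwIncl χ : es1inftwJ L M H p χ →+ JHtw L M H χ`, injective, `G_ℚ`-equivariant;
* **`es1inftw_dom`** : an element `e ∈ ℤ[G_ℚ]` which kills `JHtw[pⁿ]` kills the `pⁿ`-torsion of
  `es1inftwJ`;
* `es1inftw_hmodel` : the hypothesis `hmodel` of `RT.rtk7f_ann_of_family` from
  `RT.K7F.StmtFlatH` and `RT.K7F.StmtFinH`.
-/

set_option autoImplicit false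
set_option linter.unusedSectionVars false
set_option linter.style.haveILetI false

noncomputable section

namespace Fermat.Agent.ES1

open ModularCurve AlgebraicCurve
open Fermat.Agent.ES Fermat.Agent.S48 Fermat.Agent.RT.K7F Fermat.Agent.W1

variable {L M : ℕ} [NeZero L] [NeZero M] {H : Subgroup (ZMod M)ˣ} {p : ℕ}
  (χ : GalQ →* (ZMod M)ˣ)

/-- the inclusion of the twisted `p`-divisible part in `J_H^{tw}` -/
def es1inftwIncl : es1inftwJ L M H p χ →+ JHtw L M H χ where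
  toFun x := toTw L M H χ (es1inftwCoe x)
  map_zero' := rfl
  map_add' _ _ := rfl

theorem es1inftwIncl_apply (x : es1inftwJ L M H p χ) :
    ofTw L M H χ (es1inftwIncl χ x) = es1inftwCoe x := rfl

theorem es1inftwIncl_injective :
    Function.Injective (es1inftwIncl (L := L) (H := H) (p := p) χ) :=
  fun _ _ h => es1inftwCoe_injective h

/-- the inclusion is `G_ℚ`-equivariant -/
theorem es1inftwIncl_smul [hML : Fact (M ∣ L)] [hp : Fact p.Prime] (σ : GalQ)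
    (x : es1inftwJ L M H p χ) : es1inftwIncl χ (σ • x) = σ • es1inftwIncl χ x := by
  apply (ofTw L M H χ).injective
  rw [es1inftwIncl_apply, es1inftwCoe_smul, tw_smul_eq L M H χ (NeZero.ne L) hML.out,
    es1inftwIncl_apply]

/-- **(TW3) domination**: an element of `ℤ[G_ℚ]` killing `J_H^{tw}[pⁿ]` kills the
`pⁿ`-torsion of the twisted `p`-divisible part. -/
theorem es1inftw_dom [hML : Fact (M ∣ L)] [hp : Fact p.Prime] (n : ℕ) (e : GalQ →₀ ℤ)
    (h : ∀ x : Submodule.torsionBy ℤ (JHtw L M H χ) ((p ^ n : ℕ) : ℤ),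
      (e.sum fun g z => z • torsAct (JHtw L M H χ) ((p ^ n : ℕ) : ℤ) g x) = 0)
    (x : es1inftwJ L M H p χ) (hx : p ^ n • x = 0) :
    (e.sum fun g z => z • g • x) = 0 := by
  apply es1inftwIncl_injective χ
  have hX : es1inftwIncl χ x ∈ Submodule.torsionBy ℤ (JHtw L M H χ) ((p ^ n : ℕ) : ℤ) := by
    rw [Submodule.mem_torsionBy_iff, natCast_zsmul, ← map_nsmul, hx, map_zero]
  have h1 := congrArg
    (fun w : Submodule.torsionBy ℤ (JHtw L M H χ) ((p ^ n : ℕ) : ℤ) => (w : JHtw L M H χ))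
    (h ⟨es1inftwIncl χ x, hX⟩)
  simp only [Finsupp.sum, Submodule.coe_sum, Submodule.coe_zero, Submodule.coe_smul] at h1
  rw [map_zero, Finsupp.sum, map_sum, ← h1]
  refine Finset.sum_congr rfl fun g _ => ?_
  rw [map_zsmul, es1inftwIncl_smul]
  rfl

/-- the hypothesis `hmodel` of `RT.rtk7f_ann_of_family`, from K7-FLAT -/
theorem es1inftw_hmodel [hML : Fact (M ∣ L)] [hp : Fact p.Prime] (hflat : StmtFlatH)
    (hfin : StmtFinH) (hlev : K7FLevel L M H p)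
    (A : ValuationSubring (AlgebraicClosure ℚ))
    (hA : A.LiesOverPrime p) (hχ : IsTwistChar A χ) (n : ℕ) :
    ∃ (X : Type) (_ : AddCommGroup X) (_ : Finite X) (act : GalQ → X → X),
      (∀ σ x x', act σ (x + x') = act σ x + act σ x') ∧
      (∀ σ τ x, act (σ * τ) x = act σ (act τ x)) ∧
      HasFiniteFlatModel (GaloisRep.ratLocalizedAt p) X act ∧
      ∀ e : GalQ →₀ ℤ, (∀ x : X, (e.sum fun g z => z • act g x) = 0) →
        ∀ x : es1inftwJ L M H p χ, p ^ n • x = 0 → (e.sum fun g z => z • g • x) = 0 := by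
  refine ⟨Submodule.torsionBy ℤ (JHtw L M H χ) ((p ^ n : ℕ) : ℤ), inferInstance,
    (hfin L M H p hlev A hA χ hχ n).1, torsAct (JHtw L M H χ) ((p ^ n : ℕ) : ℤ), ?_, ?_,
    hflat L M H p hlev A hA χ hχ n, fun e he x hx => es1inftw_dom χ n e he x hx⟩
  · intro σ x x'
    apply Subtype.ext
    show σ • ((x + x' : Submodule.torsionBy ℤ (JHtw L M H χ) ((p ^ n : ℕ) : ℤ)) : JHtw L M H χ)
      = σ • (x : JHtw L M H χ) + σ • (x' : JHtw L M H χ)
    rw [Submodule.coe_add, smul_add]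
  · intro σ τ x
    apply Subtype.ext
    show (σ * τ) • (x : JHtw L M H χ) = σ • τ • (x : JHtw L M H χ)
    rw [mul_smul]

/-- `χ = c_M ^ e` (helper81's `k7ftwChar`) satisfies the hypotheses of the twisted package -/
theorem es1inftw_char_k7f (p e : ℕ) (hML : M ∣ L) : Es1inftwChar L M p e (k7ftwChar M e) :=
  es1inftw_char_cyclo p e hML

end Fermat.Agent.ES1

end
end ZBRT_037_3
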