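/- GENERATED FILE (helper35, build-time optimisation, NOTES/ZB.md): verbatim concatenation of the modules
   Fermat.Agent.RT.Hecke.Grp
   Fermat.Agent.RT.Hecke.GrpGen
   Fermat.Agent.RT.Hecke.ConcPkgG
   Fermat.Agent.RT.Hecke.GrpLevel
   Fermat.Agent.RT.Hecke.GrpCanon
   Fermat.Agent.RT.Hecke.GrpK5
   Fermat.Agent.RT.Hecke.ConcH
   Do not edit; do not import together with these modules. -/
import Mathlib
import Fermat.Agent.ZB.RT_040
import Fermat.Agent.ZB.ES1_001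
import Fermat.Agent.ZB.ES1_008
import Fermat.Agent.ZB.ES1_009
import Fermat.Agent.ZB.RT_028

/-! ### bundled: `Fermat.Agent.RT.Hecke.Grp` -/
section ZBRT_041_0

/-!
# K-machine, HECKE-asm, piece HK-GRP (Mathlib only): the diamond group of level `Q`

Setting: `p` an odd prime, `κ` a finite index type (trivial primes and Taylor–Wiles primes),
`v : κ → ℕ` injective with prime values, `k : κ → ℕ` with `p ^ k x ∣ v x - 1`, `M ≠ 0` with
`v x ∣ M` for all `x`.  `Δ' := ∀ x : κ, Multiplicative (ZMod (p ^ k x))`.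

* `rthkg_exists` (G1) : `∃ π : (ZMod M)ˣ →* Δ'`, surjective, `π (-1) = 1`, and the `x`-th
  component of `π u` depends on `u` modulo `v x` only;
* `rthkg_pow_eq_one`, `rthkg_pow_mem_ker` : `Δ'` has exponent dividing `p ^ K` (`k x ≤ K`);
* `rthkg_card`, `rthkg_index_ker` : `#Δ' = [(ℤ/M)ˣ : ker π] = p ^ ∑ k x`;
* `rthkg_exists_section`, `rthkg_exists_enum` (G3) : a section of `π` and an enumeration of `Δ'`;
* `rthkg_section_unique` : the transversal property of a section.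
-/

set_option autoImplicit false
set_option linter.style.haveILetI false
set_option linter.unusedSectionVars false

namespace Fermat.Agent.RT

open Function (onFun)

/-- a cyclic group of order divisible by `d` surjects onto `Multiplicative (ZMod d)` -/
theorem rthkg_cyclic_surj {G : Type*} [Group G] [hG : IsCyclic G] (d : ℕ)
    (hd : d ∣ Nat.card G) :
    ∃ φ : G →* Multiplicative (ZMod d), Function.Surjective φ := by
  let e := zmodCyclicMulEquiv hG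
  let c : Multiplicative (ZMod (Nat.card G)) →* Multiplicative (ZMod d) :=
    AddMonoidHom.toMultiplicative (ZMod.castHom hd (ZMod d)).toAddMonoidHom
  refine ⟨c.comp e.symm.toMonoidHom, ?_⟩
  have hc : Function.Surjective c := fun y => by
    obtain ⟨x, hx⟩ := ZMod.castHom_surjective hd (Multiplicative.toAdd y)
    exact ⟨Multiplicative.ofAdd x, by
      show Multiplicative.ofAdd (ZMod.castHom hd (ZMod d) x) = y
      rw [hx]; rfl⟩
  exact hc.comp e.symm.surjective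

/-- the units of `ZMod r`, `r` prime, surject onto `Multiplicative (ZMod d)` for `d ∣ r - 1` -/
theorem rthkg_prime_surj {r : ℕ} (hr : r.Prime) (d : ℕ) (hd : d ∣ r - 1) :
    ∃ φ : (ZMod r)ˣ →* Multiplicative (ZMod d), Function.Surjective φ := by
  haveI : Fact r.Prime := ⟨hr⟩
  apply rthkg_cyclic_surj
  rw [Nat.card_eq_fintype_card, ZMod.card_units]
  exact hd

/-- in `Multiplicative (ZMod d)`, `d` odd, an element of square `1` is trivial -/
theorem rthkg_eq_one_of_sq {d : ℕ} (hd : Odd d) (y : Multiplicative (ZMod d))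
    (hy : y ^ 2 = 1) : y = 1 := by
  haveI : NeZero d := ⟨fun h => by subst h; simp at hd⟩
  have h1 : orderOf y ∣ 2 := orderOf_dvd_of_pow_eq_one hy
  have h2 : orderOf y ∣ d := by
    have := orderOf_dvd_natCard y
    rwa [Nat.card_eq_fintype_card, Fintype.card_multiplicative, ZMod.card] at this
  have h3 : orderOf y ∣ Nat.gcd 2 d := Nat.dvd_gcd h1 h2
  have h4 : Nat.gcd 2 d = 1 := Nat.coprime_two_left.mpr hd
  rw [h4, Nat.dvd_one] at h3
  exact orderOf_eq_one_iff.mp h3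

/-- `y ^ d = 1` in `Multiplicative (ZMod d)` -/
theorem rthkg_pow_self (d : ℕ) (y : Multiplicative (ZMod d)) : y ^ d = 1 := by
  show Multiplicative.ofAdd (d • Multiplicative.toAdd y) = 1
  rw [nsmul_eq_mul, ZMod.natCast_self, zero_mul]
  rfl

section Pi

variable {κ : Type} [Fintype κ] {p : ℕ} {k : κ → ℕ}

/-- `Δ'` has exponent dividing `p ^ K` -/
theorem rthkg_pow_eq_one {K : ℕ} (hK : ∀ x, k x ≤ K)
    (δ : ∀ x : κ, Multiplicative (ZMod (p ^ k x))) : δ ^ (p ^ K) = 1 := by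
  funext x
  rw [Pi.pow_apply, Pi.one_apply]
  obtain ⟨j, hj⟩ := pow_dvd_pow p (hK x)
  rw [hj, pow_mul, rthkg_pow_self, one_pow]

/-- `#Δ' = p ^ ∑ k x` -/
theorem rthkg_card (hp : p ≠ 0) :
    Nat.card (∀ x : κ, Multiplicative (ZMod (p ^ k x))) = p ^ ∑ x, k x := by
  classical
  haveI : ∀ x : κ, NeZero (p ^ k x) := fun x => ⟨pow_ne_zero _ hp⟩
  rw [Nat.card_eq_fintype_card, Fintype.card_pi, ← Finset.prod_pow_eq_pow_sum]
  refine Finset.prod_congr rfl fun x _ => ?_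
  rw [Fintype.card_multiplicative, ZMod.card]

/-- `Δ'` is finite -/
theorem rthkg_finite (hp : p ≠ 0) : Finite (∀ x : κ, Multiplicative (ZMod (p ^ k x))) := by
  classical
  haveI : ∀ x : κ, NeZero (p ^ k x) := fun x => ⟨pow_ne_zero _ hp⟩
  infer_instance

variable {M : ℕ}

/-- `c ^ (p ^ K) ∈ ker π` -/
theorem rthkg_pow_mem_ker {K : ℕ} (hK : ∀ x, k x ≤ K)
    (π : (ZMod M)ˣ →* (∀ x : κ, Multiplicative (ZMod (p ^ k x)))) (c : (ZMod M)ˣ) :
    c ^ (p ^ K) ∈ π.ker := by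
  rw [MonoidHom.mem_ker, map_pow, rthkg_pow_eq_one hK]

/-- `c ^ n ∈ ker π` if `p ^ K ∣ n` -/
theorem rthkg_pow_mem_ker_of_dvd {K : ℕ} (hK : ∀ x, k x ≤ K)
    (π : (ZMod M)ˣ →* (∀ x : κ, Multiplicative (ZMod (p ^ k x)))) (c : (ZMod M)ˣ) {n : ℕ}
    (hn : p ^ K ∣ n) : c ^ n ∈ π.ker := by
  obtain ⟨j, rfl⟩ := hn
  rw [pow_mul]
  exact pow_mem (rthkg_pow_mem_ker hK π c) j

/-- `[(ℤ/M)ˣ : ker π] = p ^ ∑ k x` -/
theorem rthkg_index_ker (hp : p ≠ 0)
    (π : (ZMod M)ˣ →* (∀ x : κ, Multiplicative (ZMod (p ^ k x))))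
    (hπ : Function.Surjective π) : π.ker.index = p ^ ∑ x, k x := by
  rw [Subgroup.index_ker, MonoidHom.range_eq_top.mpr hπ, ← rthkg_card (k := k) hp]
  exact Nat.card_congr (Subgroup.topEquiv.toEquiv)

/-- (G3) a section of `π` -/
theorem rthkg_exists_section
    (π : (ZMod M)ˣ →* (∀ x : κ, Multiplicative (ZMod (p ^ k x))))
    (hπ : Function.Surjective π) :
    ∃ u : (∀ x : κ, Multiplicative (ZMod (p ^ k x))) → (ZMod M)ˣ, ∀ δ, π (u δ) = δ :=
  ⟨Function.surjInv hπ, Function.surjInv_eq hπ⟩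

/-- (G3) an enumeration of `Δ'` -/
theorem rthkg_exists_enum (hp : p ≠ 0) :
    Nonempty (Fin (p ^ ∑ x, k x) ≃ (∀ x : κ, Multiplicative (ZMod (p ^ k x)))) := by
  haveI := rthkg_finite (κ := κ) (k := k) hp
  have h := rthkg_card (κ := κ) (k := k) hp
  exact ⟨((Finite.equivFinOfCardEq h)).symm⟩

/-- (G3) the transversal property of a section: `(u δ)⁻¹ * c ∈ ker π ↔ δ = π c` -/
theorem rthkg_section_mem_iff
    (π : (ZMod M)ˣ →* (∀ x : κ, Multiplicative (ZMod (p ^ k x))))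
    (u : (∀ x : κ, Multiplicative (ZMod (p ^ k x))) → (ZMod M)ˣ) (hu : ∀ δ, π (u δ) = δ)
    (δ : ∀ x : κ, Multiplicative (ZMod (p ^ k x))) (c : (ZMod M)ˣ) :
    (u δ)⁻¹ * c ∈ π.ker ↔ δ = π c := by
  rw [MonoidHom.mem_ker, map_mul, map_inv, hu, inv_mul_eq_one]

end Pi

section CRT

variable {κ : Type} [Fintype κ] {v : κ → ℕ} {M : ℕ}

theorem rthkg_pairwise_coprime (hv : Function.Injective v) (hvp : ∀ x, (v x).Prime) :
    Pairwise (Function.onFun Nat.Coprime v) := fun x y hxy =>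
  (Nat.coprime_primes (hvp x) (hvp y)).mpr fun h => hxy (hv h)

/-- `∏ v x ∣ M` -/
theorem rthkg_prod_dvd (hv : Function.Injective v) (hvp : ∀ x, (v x).Prime)
    (hM : ∀ x, v x ∣ M) : ∏ x, v x ∣ M :=
  Fintype.prod_dvd_of_isRelPrime
    (fun _ _ hxy => Nat.coprime_iff_isRelPrime.mp (rthkg_pairwise_coprime hv hvp hxy)) hM

/-- `v y ∣ M / r` for a prime `r ∣ M` different from `v y` -/
theorem rthkg_dvd_div {r : ℕ} (hr : r.Prime) (hrM : r ∣ M) {q : ℕ} (hq : q.Prime) (hqM : q ∣ M)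
    (hne : q ≠ r) : q ∣ M / r := by
  have hco : Nat.Coprime r q := (Nat.coprime_primes hr hq).mpr (Ne.symm hne)
  have h := hco.mul_dvd_of_dvd_of_dvd hrM hqM
  obtain ⟨t, ht⟩ := h
  rw [ht, mul_assoc, Nat.mul_div_cancel_left _ hr.pos]
  exact dvd_mul_right _ _

/-- **CRT for units**: `(ℤ/M)ˣ → ∏ (ℤ/v x)ˣ` is surjective. -/
theorem rthkg_crt_units [NeZero M] (hv : Function.Injective v) (hvp : ∀ x, (v x).Prime)
    (hM : ∀ x, v x ∣ M) (t : ∀ x, (ZMod (v x))ˣ) :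
    ∃ u : (ZMod M)ˣ, ∀ x, ZMod.unitsMap (hM x) u = t x := by
  classical
  have hco := rthkg_pairwise_coprime hv hvp
  have hPM := rthkg_prod_dvd hv hvp hM
  let E := ZMod.prodEquivPi v hco
  -- the unit of `ZMod (∏ v x)` with the given components
  let w : (∀ x, ZMod (v x))ˣ := MulEquiv.piUnits.symm t
  let y : (ZMod (∏ x, v x))ˣ := Units.mapEquiv E.symm.toMulEquiv w
  obtain ⟨u, hu⟩ := ZMod.unitsMap_surjective hPM y
  refine ⟨u, fun x => ?_⟩
  have hx : v x ∣ ∏ x, v x := Finset.dvd_prod_of_mem v (Finset.mem_univ x)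
  have h1 : ZMod.unitsMap (hM x) u = ZMod.unitsMap hx (ZMod.unitsMap hPM u) := by
    rw [← MonoidHom.comp_apply, ZMod.unitsMap_comp hx hPM]
  rw [h1, hu]
  ext
  show ZMod.castHom hx (ZMod (v x)) ((y : (ZMod (∏ x, v x))ˣ) : ZMod (∏ x, v x)) = _
  rw [← ZMod.prodEquivPi_apply v hco]
  show E (E.symm (w : ∀ x, ZMod (v x))) x = _
  rw [RingEquiv.apply_symm_apply]
  rfl

end CRT

section Main

variable {κ : Type} [Fintype κ]

/-- **HK-GRP (G1)**: the projection of `(ℤ/M)ˣ` onto the diamond group `Δ'` of level `Q`. -/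
theorem rthkg_exists {p : ℕ} (hp : p.Prime) (hp2 : p ≠ 2) (v k : κ → ℕ)
    (hv : Function.Injective v) (hvp : ∀ x, (v x).Prime) (hk : ∀ x, p ^ k x ∣ v x - 1)
    {M : ℕ} (hM0 : M ≠ 0) (hM : ∀ x, v x ∣ M) :
    ∃ π : (ZMod M)ˣ →* (∀ x : κ, Multiplicative (ZMod (p ^ k x))),
      Function.Surjective π ∧ π (-1) = 1 ∧
      ∀ (x : κ) (u u' : (ZMod M)ˣ),
        ZMod.unitsMap (hM x) u = ZMod.unitsMap (hM x) u' → π u x = π u' x := by
  haveI : NeZero M := ⟨hM0⟩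
  choose φ hφ using fun x => rthkg_prime_surj (hvp x) (p ^ k x) (hk x)
  let π : (ZMod M)ˣ →* (∀ x : κ, Multiplicative (ZMod (p ^ k x))) :=
    MonoidHom.pi fun x => (φ x).comp (ZMod.unitsMap (hM x))
  have hπ : ∀ u x, π u x = φ x (ZMod.unitsMap (hM x) u) := fun _ _ => rfl
  refine ⟨π, ?_, ?_, ?_⟩
  · intro δ
    choose t ht using fun x => hφ x (δ x)
    obtain ⟨u, hu⟩ := rthkg_crt_units hv hvp hM t
    refine ⟨u, funext fun x => ?_⟩
    rw [hπ, hu, ht]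
  · funext x
    rw [Pi.one_apply]
    apply rthkg_eq_one_of_sq ((hp.odd_of_ne_two hp2).pow)
    rw [← Pi.pow_apply, ← map_pow]
    have : ((-1 : (ZMod M)ˣ)) ^ 2 = 1 := by simp
    rw [this, map_one, Pi.one_apply]
  · intro x u u' h
    rw [hπ, hπ, h]

end Main

end Fermat.Agent.RT


end ZBRT_041_0

/-! ### bundled: `Fermat.Agent.RT.Hecke.GrpGen` -/
section ZBRT_041_1

/-!
# K-machine, HECKE-asm, piece HK-GRP (Mathlib only): prescribed generators, the canonical `H'`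

Setting of `RT/Hecke/Grp.lean`.  The generators of the diamond group are FORCED by the Galois side
(helper69, 00:28Z), so `π` must be normalised at a given family `γ : κ → (ZMod M)ˣ` with
(G1) `γ x ≡ 1` mod `v y` for `y ≠ x`, (G2) `γ x` mod `v x` is not a `p`-th power.

* `rthkg_cyclic_surj_gen`, `rthkg_prime_surj_gen` : a surjection of a cyclic group onto
  `ZMod (p ^ k)` mapping a given non-`p`-th power to `1`;
* `rthkg_cyclic_ker` : the kernel of such a surjection is the set of `p ^ k`-th powers;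
* `rthkgH p k hM` : the CANONICAL subgroup `H' = {u | ∀ x, u mod v x is a p ^ k x-th power}`;
* `rthkg_ker_eq` : `π.ker = rthkgH p k hM` for EVERY `π` as in `rthkg_exists` (surjective, `x`-th
  component depending on `u` mod `v x` only);
* `rthkg_exists_gen` : **(G1) with generators**: `∃ π`, surjective, `π (-1) = 1`, componentwise,
  `π (γ x) = Pi.mulSingle x (ofAdd 1)` and `π.ker = rthkgH p k hM`.
* `rthkg_not_pow_of_coprime` : `g` not a `p`-th power, `e` prime to `p` ⇒ `g ^ e` not a `p`-th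
  power.
-/

set_option autoImplicit false
set_option linter.style.haveILetI false
set_option linter.unusedSectionVars false

namespace Fermat.Agent.RT

section Cyc

variable {G : Type*} [Group G]

/-- the image of a generator under a surjection onto `ZMod d` is a unit -/
theorem rthkg_gen_isUnit {d : ℕ} (φ : G →* Multiplicative (ZMod d)) (hφ : Function.Surjective φ)
    (t : G) (ht : ∀ x : G, x ∈ Subgroup.zpowers t) :
    IsUnit (Multiplicative.toAdd (φ t)) := by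
  obtain ⟨x, hx⟩ := hφ (Multiplicative.ofAdd 1)
  obtain ⟨i, rfl⟩ := Subgroup.mem_zpowers_iff.mp (ht x)
  rw [map_zpow] at hx
  have h1 : (i : ZMod d) * Multiplicative.toAdd (φ t) = 1 := by
    have := congrArg Multiplicative.toAdd hx
    rw [toAdd_zpow, zsmul_eq_mul] at this
    exact this
  exact IsUnit.of_mul_eq_one _ (by rw [mul_comm]; exact h1)

/-- the kernel of a surjection of a cyclic group onto `ZMod d`: the `d`-th powers -/
theorem rthkg_cyclic_ker [IsCyclic G] {d : ℕ} (φ : G →* Multiplicative (ZMod d))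
    (hφ : Function.Surjective φ) (u : G) : φ u = 1 ↔ ∃ y : G, y ^ d = u := by
  constructor
  · intro hu
    obtain ⟨t, ht⟩ := IsCyclic.exists_generator (α := G)
    obtain ⟨i, rfl⟩ := Subgroup.mem_zpowers_iff.mp (ht u)
    have hc := rthkg_gen_isUnit φ hφ t ht
    rw [map_zpow] at hu
    have h1 : (i : ZMod d) * Multiplicative.toAdd (φ t) = 0 := by
      have := congrArg Multiplicative.toAdd hu
      rw [toAdd_zpow, zsmul_eq_mul] at this
      exact this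
    have h2 : (i : ZMod d) = 0 := (hc.mul_left_eq_zero).mp h1
    obtain ⟨j, rfl⟩ := (ZMod.intCast_zmod_eq_zero_iff_dvd i d).mp h2
    exact ⟨t ^ j, by rw [← zpow_natCast, ← zpow_mul, mul_comm]⟩
  · rintro ⟨y, rfl⟩
    rw [map_pow, rthkg_pow_self]

/-- **a surjection of a cyclic group onto `ZMod (p ^ k)` with a prescribed generator**: if `g` is
not a `p`-th power, some surjection maps `g` to `1`. -/
theorem rthkg_cyclic_surj_gen [hG : IsCyclic G] {p : ℕ} (hp : p.Prime) (k : ℕ)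
    (hd : p ^ k ∣ Nat.card G) (g : G) (hg : k ≠ 0 → ¬ ∃ y : G, y ^ p = g) :
    ∃ φ : G →* Multiplicative (ZMod (p ^ k)),
      Function.Surjective φ ∧ φ g = Multiplicative.ofAdd 1 := by
  obtain ⟨φ₀, hφ₀⟩ := rthkg_cyclic_surj (G := G) (p ^ k) hd
  rcases Nat.eq_zero_or_pos k with hk0 | hk0
  · subst hk0
    haveI : Subsingleton (ZMod (p ^ 0)) := by
      rw [pow_zero]; infer_instance
    exact ⟨φ₀, hφ₀, Multiplicative.toAdd.injective (Subsingleton.elim _ _)⟩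
  have hg := hg hk0.ne'
  obtain ⟨t, ht⟩ := IsCyclic.exists_generator (α := G)
  have hc := rthkg_gen_isUnit φ₀ hφ₀ t ht
  obtain ⟨i, hi⟩ := Subgroup.mem_zpowers_iff.mp (ht g)
  -- `i` is prime to `p`
  have hpi : ¬ (p : ℤ) ∣ i := by
    rintro ⟨j, rfl⟩
    exact hg ⟨t ^ j, by rw [← hi, ← zpow_natCast, ← zpow_mul, mul_comm]⟩
  have hiu : IsUnit (i : ZMod (p ^ k)) := by
    have hco : IsCoprime i ((p ^ k : ℕ) : ℤ) := by
      rw [Nat.cast_pow]
      apply IsCoprime.pow_right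
      rw [isCoprime_comm]
      exact (Int.isCoprime_iff_gcd_eq_one.mpr
        ((Nat.Prime.coprime_iff_not_dvd hp).mpr (by
          rw [← Int.natCast_dvd]
          exact hpi) : Nat.Coprime p i.natAbs))
    obtain ⟨a, b, hab⟩ := hco
    have h0 : (((p ^ k : ℕ) : ℤ) : ZMod (p ^ k)) = 0 := by
      rw [Int.cast_natCast, ZMod.natCast_self]
    have := congrArg (Int.cast : ℤ → ZMod (p ^ k)) hab
    rw [Int.cast_add, Int.cast_mul, Int.cast_mul, h0, mul_zero, add_zero, Int.cast_one] at this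
    exact IsUnit.of_mul_eq_one _ (by
      rw [mul_comm]
      exact this)
  have ha : IsUnit (Multiplicative.toAdd (φ₀ g)) := by
    rw [← hi, map_zpow, toAdd_zpow, zsmul_eq_mul]
    exact hiu.mul hc
  obtain ⟨a, ha'⟩ := ha
  let m : Multiplicative (ZMod (p ^ k)) →* Multiplicative (ZMod (p ^ k)) :=
    AddMonoidHom.toMultiplicative (AddMonoidHom.mulLeft ((a⁻¹ : (ZMod (p ^ k))ˣ) : ZMod (p ^ k)))
  have hm : ∀ y, m y = Multiplicative.ofAdd
      (((a⁻¹ : (ZMod (p ^ k))ˣ) : ZMod (p ^ k)) * Multiplicative.toAdd y) := fun _ => rfl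
  refine ⟨m.comp φ₀, ?_, ?_⟩
  · intro y
    obtain ⟨x, hx⟩ := hφ₀ (Multiplicative.ofAdd ((a : ZMod (p ^ k)) * Multiplicative.toAdd y))
    refine ⟨x, ?_⟩
    rw [MonoidHom.comp_apply, hx, hm, toAdd_ofAdd, ← mul_assoc, Units.inv_mul, one_mul]
    rfl
  · rw [MonoidHom.comp_apply, hm, ← ha', Units.inv_mul]

/-- `g` not a `p`-th power and `e` prime to `p` ⇒ `g ^ e` not a `p`-th power -/
theorem rthkg_not_pow_of_coprime {C : Type*} [CommGroup C] {p e : ℕ} (hpe : Nat.Coprime e p)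
    (g : C) (hg : ¬ ∃ y : C, y ^ p = g) : ¬ ∃ y : C, y ^ p = g ^ e := by
  rintro ⟨y, hy⟩
  apply hg
  have hb : (e : ℤ) * Nat.gcdA e p + (p : ℤ) * Nat.gcdB e p = 1 := by
    have := Nat.gcd_eq_gcd_ab e p
    rw [hpe.gcd_eq_one] at this
    exact_mod_cast this.symm
  refine ⟨y ^ Nat.gcdA e p * g ^ Nat.gcdB e p, ?_⟩
  have h1 : (y ^ Nat.gcdA e p) ^ p = g ^ ((e : ℤ) * Nat.gcdA e p) := by
    rw [zpow_mul, zpow_natCast g, ← hy, ← zpow_natCast (y ^ Nat.gcdA e p), ← zpow_mul,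
      ← zpow_natCast y, ← zpow_mul, mul_comm]
  have h2 : (g ^ Nat.gcdB e p) ^ p = g ^ ((p : ℤ) * Nat.gcdB e p) := by
    rw [← zpow_natCast (g ^ Nat.gcdB e p), ← zpow_mul, mul_comm]
  rw [mul_pow, h1, h2, ← zpow_add, hb, zpow_one]

end Cyc

/-- the units of `ZMod r`, `r` prime, surject onto `Multiplicative (ZMod (p ^ k))` for
`p ^ k ∣ r - 1`, mapping a given non-`p`-th power to the generator -/
theorem rthkg_prime_surj_gen {r : ℕ} (hr : r.Prime) {p : ℕ} (hp : p.Prime) (k : ℕ)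
    (hd : p ^ k ∣ r - 1) (g : (ZMod r)ˣ) (hg : k ≠ 0 → ¬ ∃ y : (ZMod r)ˣ, y ^ p = g) :
    ∃ φ : (ZMod r)ˣ →* Multiplicative (ZMod (p ^ k)),
      Function.Surjective φ ∧ φ g = Multiplicative.ofAdd 1 := by
  haveI : Fact r.Prime := ⟨hr⟩
  apply rthkg_cyclic_surj_gen hp k _ g hg
  rw [Nat.card_eq_fintype_card, ZMod.card_units]
  exact hd

section Canon

variable {κ : Type} {v : κ → ℕ} {M : ℕ}

/-- **the canonical `H'`**: the units of `ZMod M` which are `p ^ k x`-th powers modulo `v x`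
for every `x` -/
def rthkgH (p : ℕ) (k : κ → ℕ) (hM : ∀ x, v x ∣ M) : Subgroup (ZMod M)ˣ :=
  ⨅ x, ((powMonoidHom (p ^ k x) : (ZMod (v x))ˣ →* (ZMod (v x))ˣ).range).comap
    (ZMod.unitsMap (hM x))

theorem mem_rthkgH {p : ℕ} {k : κ → ℕ} {hM : ∀ x, v x ∣ M} {u : (ZMod M)ˣ} :
    u ∈ rthkgH p k hM ↔ ∀ x, ∃ y : (ZMod (v x))ˣ, y ^ (p ^ k x) = ZMod.unitsMap (hM x) u := by
  unfold rthkgH
  rw [Subgroup.mem_iInf]
  exact forall_congr' fun x => by
    rw [Subgroup.mem_comap, MonoidHom.mem_range]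
    rfl

/-- a subgroup with the same elements is `rthkgH` -/
theorem rthkgH_eq_of_mem_iff {p : ℕ} {k : κ → ℕ} {hM : ∀ x, v x ∣ M} (H' : Subgroup (ZMod M)ˣ)
    (h : ∀ u, u ∈ H' ↔ ∀ x, ∃ y : (ZMod (v x))ˣ, y ^ (p ^ k x) = ZMod.unitsMap (hM x) u) :
    H' = rthkgH p k hM :=
  Subgroup.ext fun u => (h u).trans mem_rthkgH.symm

variable {p : ℕ} {k : κ → ℕ}

/-- the component of `π` at `x` as a homomorphism of `(ℤ/v x)ˣ` -/
theorem rthkg_exists_comp (hM0 : M ≠ 0) (hM : ∀ x, v x ∣ M)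
    (π : (ZMod M)ˣ →* (∀ x : κ, Multiplicative (ZMod (p ^ k x))))
    (hfac : ∀ (x : κ) (u u' : (ZMod M)ˣ),
        ZMod.unitsMap (hM x) u = ZMod.unitsMap (hM x) u' → π u x = π u' x) (x : κ) :
    ∃ φ : (ZMod (v x))ˣ →* Multiplicative (ZMod (p ^ k x)),
      ∀ u, π u x = φ (ZMod.unitsMap (hM x) u) := by
  haveI : NeZero M := ⟨hM0⟩
  have hs := ZMod.unitsMap_surjective (hM x)
  let s := Function.surjInv hs
  have hss : ∀ t, ZMod.unitsMap (hM x) (s t) = t := Function.surjInv_eq hs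
  refine ⟨{ toFun := fun t => π (s t) x
            map_one' := ?_
            map_mul' := ?_ }, fun u => ?_⟩
  · show π (s 1) x = 1
    rw [hfac x (s 1) 1 (by rw [hss, map_one]), map_one, Pi.one_apply]
  · intro a b
    show π (s (a * b)) x = π (s a) x * π (s b) x
    rw [hfac x (s (a * b)) (s a * s b) (by rw [hss, map_mul, hss, hss]), map_mul, Pi.mul_apply]
  · show π u x = π (s (ZMod.unitsMap (hM x) u)) x
    exact hfac x _ _ (hss _).symm

/-- **the kernel of `π`**: the elements which are `p ^ k x`-th powers modulo `v x` for all `x` -/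
theorem rthkg_mem_ker_iff (hM0 : M ≠ 0) (hvp : ∀ x, (v x).Prime) (hM : ∀ x, v x ∣ M)
    (π : (ZMod M)ˣ →* (∀ x : κ, Multiplicative (ZMod (p ^ k x))))
    (hsurj : Function.Surjective π)
    (hfac : ∀ (x : κ) (u u' : (ZMod M)ˣ),
        ZMod.unitsMap (hM x) u = ZMod.unitsMap (hM x) u' → π u x = π u' x) (u : (ZMod M)ˣ) :
    u ∈ π.ker ↔ ∀ x, ∃ y : (ZMod (v x))ˣ, y ^ (p ^ k x) = ZMod.unitsMap (hM x) u := by
  classical
  rw [MonoidHom.mem_ker, funext_iff]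
  refine forall_congr' fun x => ?_
  haveI : Fact (v x).Prime := ⟨hvp x⟩
  obtain ⟨φ, hφ⟩ := rthkg_exists_comp hM0 hM π hfac x
  have hφs : Function.Surjective φ := fun a => by
    obtain ⟨w, hw⟩ := hsurj (Pi.mulSingle x a)
    exact ⟨ZMod.unitsMap (hM x) w, by rw [← hφ, hw, Pi.mulSingle_eq_same]⟩
  rw [hφ, Pi.one_apply]
  exact rthkg_cyclic_ker φ hφs _

/-- `ker π` is the canonical `H'` -/
theorem rthkg_ker_eq (hM0 : M ≠ 0) (hvp : ∀ x, (v x).Prime) (hM : ∀ x, v x ∣ M)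
    (π : (ZMod M)ˣ →* (∀ x : κ, Multiplicative (ZMod (p ^ k x))))
    (hsurj : Function.Surjective π)
    (hfac : ∀ (x : κ) (u u' : (ZMod M)ˣ),
        ZMod.unitsMap (hM x) u = ZMod.unitsMap (hM x) u' → π u x = π u' x) :
    π.ker = rthkgH p k hM :=
  rthkgH_eq_of_mem_iff _ (rthkg_mem_ker_iff hM0 hvp hM π hsurj hfac)

end Canon

section MainGen

variable {κ : Type} [Fintype κ]

/-- **HK-GRP (G1) with prescribed generators**: for `γ : κ → (ℤ/M)ˣ` with `γ x ≡ 1` mod `v y`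
(`y ≠ x`) and `γ x` mod `v x` not a `p`-th power, the projection `π` of `(ℤ/M)ˣ` onto `Δ'` with
`π (γ x) = ` the generator of the `x`-th factor; its kernel is the canonical `H'`. -/
theorem rthkg_exists_gen [DecidableEq κ] {p : ℕ} (hp : p.Prime) (hp2 : p ≠ 2) (v k : κ → ℕ)
    (hv : Function.Injective v) (hvp : ∀ x, (v x).Prime) (hk : ∀ x, p ^ k x ∣ v x - 1)
    {M : ℕ} (hM0 : M ≠ 0) (hM : ∀ x, v x ∣ M) (γ : κ → (ZMod M)ˣ)
    (hγ1 : ∀ x y, y ≠ x → ZMod.unitsMap (hM y) (γ x) = 1)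
    (hγ2 : ∀ x, k x ≠ 0 → ¬ ∃ y : (ZMod (v x))ˣ, y ^ p = ZMod.unitsMap (hM x) (γ x)) :
    ∃ π : (ZMod M)ˣ →* (∀ x : κ, Multiplicative (ZMod (p ^ k x))),
      Function.Surjective π ∧ π (-1) = 1 ∧
      (∀ (x : κ) (u u' : (ZMod M)ˣ),
        ZMod.unitsMap (hM x) u = ZMod.unitsMap (hM x) u' → π u x = π u' x) ∧
      (∀ x, π (γ x) = Pi.mulSingle x (Multiplicative.ofAdd 1)) ∧
      π.ker = rthkgH p k hM := by
  haveI : NeZero M := ⟨hM0⟩
  choose φ hφ hφg using fun x =>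
    rthkg_prime_surj_gen (hvp x) hp (k x) (hk x) (ZMod.unitsMap (hM x) (γ x)) (hγ2 x)
  let π : (ZMod M)ˣ →* (∀ x : κ, Multiplicative (ZMod (p ^ k x))) :=
    MonoidHom.pi fun x => (φ x).comp (ZMod.unitsMap (hM x))
  have hπ : ∀ u x, π u x = φ x (ZMod.unitsMap (hM x) u) := fun _ _ => rfl
  have hsurj : Function.Surjective π := by
    intro δ
    choose t ht using fun x => hφ x (δ x)
    obtain ⟨u, hu⟩ := rthkg_crt_units hv hvp hM t
    refine ⟨u, funext fun x => ?_⟩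
    rw [hπ, hu, ht]
  have hfac : ∀ (x : κ) (u u' : (ZMod M)ˣ),
      ZMod.unitsMap (hM x) u = ZMod.unitsMap (hM x) u' → π u x = π u' x := by
    intro x u u' h
    rw [hπ, hπ, h]
  refine ⟨π, hsurj, ?_, hfac, ?_, rthkg_ker_eq hM0 hvp hM π hsurj hfac⟩
  · funext x
    rw [Pi.one_apply]
    apply rthkg_eq_one_of_sq ((hp.odd_of_ne_two hp2).pow)
    rw [← Pi.pow_apply, ← map_pow]
    have : ((-1 : (ZMod M)ˣ)) ^ 2 = 1 := by simp
    rw [this, map_one, Pi.one_apply]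
  · intro x
    funext y
    rw [hπ]
    by_cases hy : y = x
    · subst hy
      rw [hφg, Pi.mulSingle_eq_same]
    · rw [hγ1 x y hy, map_one, Pi.mulSingle_eq_of_ne hy]

/-- the canonical `H'` is the kernel of the `π` of `rthkg_exists` -/
theorem rthkgH_exists {p : ℕ} (hp : p.Prime) (hp2 : p ≠ 2) (v k : κ → ℕ)
    (hv : Function.Injective v) (hvp : ∀ x, (v x).Prime) (hk : ∀ x, p ^ k x ∣ v x - 1)
    {M : ℕ} (hM0 : M ≠ 0) (hM : ∀ x, v x ∣ M) :
    ∃ π : (ZMod M)ˣ →* (∀ x : κ, Multiplicative (ZMod (p ^ k x))),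
      Function.Surjective π ∧ π (-1) = 1 ∧
      (∀ (x : κ) (u u' : (ZMod M)ˣ),
        ZMod.unitsMap (hM x) u = ZMod.unitsMap (hM x) u' → π u x = π u' x) ∧
      π.ker = rthkgH p k hM := by
  obtain ⟨π, h1, h2, h3⟩ := rthkg_exists hp hp2 v k hv hvp hk hM0 hM
  exact ⟨π, h1, h2, h3, rthkg_ker_eq hM0 hvp hM π h1 h3⟩

end MainGen

end Fermat.Agent.RT


end ZBRT_041_1

/-! ### bundled: `Fermat.Agent.RT.Hecke.ConcPkgG` -/
section ZBRT_041_2

/-!
# K-machine, HECKE-asm, HK-CONC: the fields `pkg`, `model` of `HkConc` for `H' = rthkgH` (helper65)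

The final choice of `ConcFinal` is `H' = rthkgH P.p k hM` (helper8, `RT/Hecke/GrpGen.lean`), which
is `rthkdH P.p v k M hM` by `rfl`.  This file restates `rthkp_level_inst`, `rthkp_pkg_inst`,
`rthkp_model_inst` (`RT/Hecke/ConcPkg.lean`) for `rthkgH`, for ANY `hM`:

* `rthkp_level_g`, **`rthkp_pkg_g`**, **`rthkp_model_g`**.
-/

set_option autoImplicit false
set_option linter.unusedSectionVars false
set_option linter.style.haveILetI false

noncomputable section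

namespace Fermat.Agent.RT

open Fermat.Agent.ES Fermat.Agent.ES1 Fermat.Agent.RT.K7F Fermat.Agent.RT.K6 Fermat.Agent.W1
  ExtCitation Fermat.Agent.TW Fermat.Agent.RT.Prod

variable {P : FreyPackage} {N q : ℕ} (Y : KSetup P N q) {n h : ℕ} {qv : Fin h → ℕ}

/-- **the standing hypotheses of K7-FLAT** for `H' = rthkgH`. -/
theorem rthkp_level_g (hcond : P.IsConductorLevel N) (hpN : ¬ P.p ∣ N) (hq : q.Prime)
    (hqN : q ∣ N)
    (hqv : IsTWFamily P.p Y.ρbar (Y.Smin ∪ Finset.univ.image Y.r) n h qv)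
    (k : Fin h ⊕ Y.ι → ℕ) (ν : ℕ) (hk : ∀ x, k x ≤ ν)
    (hM : ∀ x, Sum.elim qv Y.r x ∣ rthkdM (Sum.elim qv Y.r)) :
    K7FLevel (N * rthkdM qv) (rthkdM (Sum.elim qv Y.r)) (rthkgH P.p k hM) P.p :=
  rthkp_level_inst Y hcond hpN hq hqN hqv k ν hk

/-- **the field `pkg`** of `HkConc` for `H' = rthkgH`. -/
theorem rthkp_pkg_g [NeZero (N * rthkdM qv)] [NeZero (rthkdM (Sum.elim qv Y.r))]
    [Fact (rthkdM (Sum.elim qv Y.r) ∣ N * rthkdM qv)] [Fact P.p.Prime]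
    (k : Fin h ⊕ Y.ι → ℕ) (ν : ℕ) (hk : ∀ x, k x ≤ ν)
    (hM : ∀ x, Sum.elim qv Y.r x ∣ rthkdM (Sum.elim qv Y.r)) :
    Rtk7bPkg P.p (N * rthkdM qv)
      (es1inftwJ (N * rthkdM qv) (rthkdM (Sum.elim qv Y.r)) (rthkgH P.p k hM) P.p
        (k7ftwChar (rthkdM (Sum.elim qv Y.r)) (rthkdE P.p ν)))
      (es1inftwTr (rthkdM (Sum.elim qv Y.r)) (rthkdE P.p ν)) :=
  rthkp_pkg_inst Y k ν hk

/-- **the field `model`** of `HkConc` for `H' = rthkgH`, from K7-FLAT. -/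
theorem rthkp_model_g [NeZero (N * rthkdM qv)] [NeZero (rthkdM (Sum.elim qv Y.r))]
    [Fact (rthkdM (Sum.elim qv Y.r) ∣ N * rthkdM qv)] [Fact P.p.Prime]
    (hflat : StmtFlatH) (hcond : P.IsConductorLevel N) (hpN : ¬ P.p ∣ N) (hq : q.Prime)
    (hqN : q ∣ N)
    (hqv : IsTWFamily P.p Y.ρbar (Y.Smin ∪ Finset.univ.image Y.r) n h qv)
    (k : Fin h ⊕ Y.ι → ℕ) (ν : ℕ) (hk : ∀ x, k x ≤ ν)
    (hM : ∀ x, Sum.elim qv Y.r x ∣ rthkdM (Sum.elim qv Y.r)) :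
    ∀ k' : ℕ, ∃ (X : Type) (_ : AddCommGroup X) (_ : Finite X) (act : GQ → X → X),
      (∀ s x x', act s (x + x') = act s x + act s x') ∧
      (∀ s s' x, act (s * s') x = act s (act s' x)) ∧
      HasFiniteFlatModel (GaloisRep.ratLocalizedAt P.p) X act ∧
      ∀ e' : GQ →₀ ℤ, (∀ x : X, (e'.sum fun g z => z • act g x) = 0) →
        ∀ x : es1inftwJ (N * rthkdM qv) (rthkdM (Sum.elim qv Y.r)) (rthkgH P.p k hM) P.p
            (k7ftwChar (rthkdM (Sum.elim qv Y.r)) (rthkdE P.p ν)),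
          P.p ^ k' • x = 0 → (e'.sum fun g z => z • g • x) = 0 :=
  rthkp_model_inst Y hflat hcond hpN hq hqN hqv k ν hk

end Fermat.Agent.RT

end
end ZBRT_041_2

/-! ### bundled: `Fermat.Agent.RT.Hecke.GrpLevel` -/
section ZBRT_041_3

/-!
# K-machine, HECKE-asm, piece HK-GRP (G2): the level facts for `H' = ker π`

`π : (ZMod M)ˣ →* Δ'`, `Δ' = ∀ x : κ, Multiplicative (ZMod (p ^ k x))`, as in `rthkg_exists`:
surjective (`hsurj`), `π (-1) = 1` (`hneg`), the `x`-th component depends on `u` mod `v x` only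
(`hfac`).  Then for `H' := π.ker`:

* `rthkg_pmH_ker` : `ES1.pmH H' = H'`;
* `rthkg_pow_mem_pmH` : `c ^ n ∈ pmH H'` for `p ^ K ∣ n` (`k x ≤ K`); `rthkg_hE` : the input `hE`
  of `es1inftw_pkg` for `2 e ≡ 1` mod `p ^ K`; `rthkg_exists_e`;
* `rthkg_isStarStable` : `RT.K6.IsStarStable M r H'` for every prime `r ∣ M`;
* `rthkg_isTameAt` : `RT.K6.IsTameAt L M r H'` (`5 ≤ p`, `p ∤ L`);
* `rthkg_index_pmH` : `(pmH H').index = p ^ ∑ k x`;
* `rthkg_k7fLevel` : `RT.K7F.K7FLevel L M H' p`.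
-/

set_option autoImplicit false
set_option linter.unusedSectionVars false
set_option linter.style.haveILetI false

namespace Fermat.Agent.RT

open Fermat.Agent.ES1 Fermat.Agent.RT.K6 Fermat.Agent.RT.K7F

section Level

variable {κ : Type} [Fintype κ] {p : ℕ} {k : κ → ℕ} {M : ℕ}

/-- `±H' = H'` -/
theorem rthkg_pmH_ker (π : (ZMod M)ˣ →* (∀ x : κ, Multiplicative (ZMod (p ^ k x))))
    (hneg : π (-1) = 1) : pmH π.ker = π.ker := by
  unfold pmH
  rw [sup_eq_left, Subgroup.zpowers_le]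
  exact MonoidHom.mem_ker.mpr hneg

/-- `c ^ n ∈ ±H'` for `p ^ K ∣ n` -/
theorem rthkg_pow_mem_pmH {K : ℕ} (hK : ∀ x, k x ≤ K)
    (π : (ZMod M)ˣ →* (∀ x : κ, Multiplicative (ZMod (p ^ k x)))) (c : (ZMod M)ˣ) {n : ℕ}
    (hn : p ^ K ∣ n) : c ^ n ∈ pmH π.ker :=
  le_pmH _ (rthkg_pow_mem_ker_of_dvd hK π c hn)

/-- the input `hE` of `es1inftw_pkg` -/
theorem rthkg_hE {K : ℕ} (hK : ∀ x, k x ≤ K)
    (π : (ZMod M)ˣ →* (∀ x : κ, Multiplicative (ZMod (p ^ k x)))) (e : ℕ)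
    (he : p ^ K ∣ 2 * e - 1) : ∀ c : (ZMod M)ˣ, c ^ (2 * e - 1) ∈ pmH π.ker :=
  fun c => rthkg_pow_mem_pmH hK π c he

/-- an exponent `e` with `2 e ≡ 1` mod `p ^ K` -/
theorem rthkg_exists_e (hp : Odd p) (K : ℕ) : ∃ e : ℕ, 1 ≤ e ∧ 2 * e - 1 = p ^ K := by
  obtain ⟨j, hj⟩ := hp.pow (n := K)
  exact ⟨j + 1, by omega, by omega⟩

/-- `k x ≤ ∑ k` -/
theorem rthkg_le_sum (k : κ → ℕ) (x : κ) : k x ≤ ∑ y, k y :=
  Finset.single_le_sum (f := k) (fun _ _ => Nat.zero_le _) (Finset.mem_univ x)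

/-- `unitsMap` in terms of the casts of the values -/
theorem rthkg_unitsMap_eq [NeZero M] {n : ℕ} (hn : n ∣ M) (u u' : (ZMod M)ˣ)
    (h : (((u : ZMod M).val : ℕ) : ZMod n) = (((u' : ZMod M).val : ℕ) : ZMod n)) :
    ZMod.unitsMap hn u = ZMod.unitsMap hn u' := by
  ext
  rw [ZMod.unitsMap_val, ZMod.unitsMap_val, ← ZMod.natCast_val, ← ZMod.natCast_val]
  exact h

/-- casts of values descend along divisors -/
theorem rthkg_cast_of_dvd {n m : ℕ} (hnm : n ∣ m) {a b : ℕ}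
    (h : (a : ZMod m) = (b : ZMod m)) : (a : ZMod n) = (b : ZMod n) := by
  have := congrArg (ZMod.castHom hnm (ZMod n)) h
  simpa using this

/-- **`H'` is star-stable** at every prime `r ∣ M`. -/
theorem rthkg_isStarStable (hM0 : M ≠ 0) (v : κ → ℕ) (hvp : ∀ x, (v x).Prime)
    (hM : ∀ x, v x ∣ M)
    (π : (ZMod M)ˣ →* (∀ x : κ, Multiplicative (ZMod (p ^ k x))))
    (hfac : ∀ (x : κ) (u u' : (ZMod M)ˣ),
        ZMod.unitsMap (hM x) u = ZMod.unitsMap (hM x) u' → π u x = π u' x)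
    {r : ℕ} (hr : r.Prime) (hrM : r ∣ M) : IsStarStable M r π.ker := by
  haveI : NeZero M := ⟨hM0⟩
  intro h hh h' h1 h2
  apply le_pmH
  rw [MonoidHom.mem_ker] at hh ⊢
  funext y
  rw [Pi.one_apply]
  by_cases hy : v y = r
  · have e1 : ZMod.unitsMap (hM y) h' = ZMod.unitsMap (hM y) h⁻¹ := by
      apply rthkg_unitsMap_eq
      rw [hy]
      exact h1
    rw [hfac y _ _ e1, map_inv, hh, inv_one, Pi.one_apply]
  · have hd : v y ∣ M / r := rthkg_dvd_div hr hrM (hvp y) (hM y) hy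
    have e1 : ZMod.unitsMap (hM y) h' = ZMod.unitsMap (hM y) h := by
      apply rthkg_unitsMap_eq
      exact rthkg_cast_of_dvd hd h2
    rw [hfac y _ _ e1, hh, Pi.one_apply]

/-- **`H'` is tame** (`5 ≤ p`, `p ∤ L`). -/
theorem rthkg_isTameAt (hp : p.Prime) (h5 : 5 ≤ p) {L : ℕ} (hpL : ¬ p ∣ L)
    (π : (ZMod M)ˣ →* (∀ x : κ, Multiplicative (ZMod (p ^ k x)))) (r : ℕ) :
    IsTameAt L M r π.ker := by
  refine ⟨p ^ ∑ x, k x, ?_, fun c => rthkg_pow_mem_pmH (rthkg_le_sum k) π c dvd_rfl⟩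
  apply Nat.Coprime.pow_left
  rw [Nat.Prime.coprime_iff_not_dvd hp]
  intro h
  rcases (Nat.Prime.dvd_mul hp).mp h with h6 | hL
  · have h6' := Nat.le_of_dvd (by norm_num) h6
    have : p = 5 ∨ p = 6 := by omega
    rcases this with rfl | rfl
    · norm_num at h6
    · norm_num at hp
  · exact hpL hL

/-- `[(ℤ/M)ˣ : ±H'] = p ^ ∑ k x` -/
theorem rthkg_index_pmH (hp : p ≠ 0)
    (π : (ZMod M)ˣ →* (∀ x : κ, Multiplicative (ZMod (p ^ k x))))
    (hsurj : Function.Surjective π) (hneg : π (-1) = 1) :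
    (pmH π.ker).index = p ^ ∑ x, k x := by
  rw [rthkg_pmH_ker π hneg, rthkg_index_ker hp π hsurj]

/-- **`K7FLevel` for `H'`**. -/
theorem rthkg_k7fLevel {L : ℕ} (hL : 2 ≤ L) (hML : M ∣ L) (hp : p.Prime) (hp2 : p ≠ 2)
    (hpL : ¬ p ∣ L) (h5 : 5 ≤ p ∨ (5 - p) ∣ L) (hsq : Squarefree M)
    (π : (ZMod M)ˣ →* (∀ x : κ, Multiplicative (ZMod (p ^ k x))))
    (hsurj : Function.Surjective π) (hneg : π (-1) = 1) : K7FLevel L M π.ker p where
  hL := hL
  hML := hML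
  hp := hp
  hp2 := hp2
  hpL := hpL
  h5 := h5
  sqfree := hsq
  pgroup := fun m a ha => ⟨∑ x, k x, by
    rw [← rthkg_index_pmH hp.ne_zero π hsurj hneg, rtk6f_index_of_repFam ha]⟩

end Level

end Fermat.Agent.RT


end ZBRT_041_3

/-! ### bundled: `Fermat.Agent.RT.Hecke.GrpCanon` -/
section ZBRT_041_4

/-!
# K-machine, HECKE-asm, piece HK-GRP: the canonical `H'` — level facts and `κ_γ`

`H' := rthkgH p k hM = {u ∈ (ℤ/M)ˣ | u mod v x is a p ^ k x-th power, all x}` (`RT/Hecke/GrpGen`).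

* `rthkgH_neg_one_mem`, `rthkgH_pmH` : `-1 ∈ H'`, `ES1.pmH H' = H'`;
* `rthkgH_pow_mem`, `rthkgH_hE` : `c ^ n ∈ pmH H'` for `p ^ K ∣ n` (`k x ≤ K`), the input `hE` of
  `es1inftw_pkg`;
* `rthkgH_isStarStable`, `rthkgH_isTameAt`, `rthkgH_index`, `rthkgH_k7fLevel` : the level facts;
* `rthkg_unitsMap_of_isAtR` : `RT.K6.IsAtR M (v x) c` gives hypothesis (G1) of `rthkg_exists_gen`;
* `rthkg_exists_equiv` : **`κ_γ : (ℤ/M)ˣ ⧸ ±H' ≃* Δ'`** with `κ_γ (mk (γ x)) = Pi.mulSingle x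
  (ofAdd 1)`, for generators `γ` with (G1), (G2).
-/

set_option autoImplicit false
set_option linter.unusedSectionVars false
set_option linter.style.haveILetI false

namespace Fermat.Agent.RT

open Fermat.Agent.ES1 Fermat.Agent.RT.K6 Fermat.Agent.RT.K7F

section Canon

variable {κ : Type} [Fintype κ] {p : ℕ} {v k : κ → ℕ} {M : ℕ}

/-- `-1 ∈ H'` -/
theorem rthkgH_neg_one_mem (hp : p.Prime) (hp2 : p ≠ 2) (hv : Function.Injective v)
    (hvp : ∀ x, (v x).Prime) (hk : ∀ x, p ^ k x ∣ v x - 1) (hM0 : M ≠ 0) (hM : ∀ x, v x ∣ M) :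
    (-1 : (ZMod M)ˣ) ∈ rthkgH p k hM := by
  obtain ⟨π, -, h2, -, h4⟩ := rthkgH_exists hp hp2 v k hv hvp hk hM0 hM
  rw [← h4]
  exact MonoidHom.mem_ker.mpr h2

/-- `±H' = H'` -/
theorem rthkgH_pmH (hp : p.Prime) (hp2 : p ≠ 2) (hv : Function.Injective v)
    (hvp : ∀ x, (v x).Prime) (hk : ∀ x, p ^ k x ∣ v x - 1) (hM0 : M ≠ 0) (hM : ∀ x, v x ∣ M) :
    pmH (rthkgH p k hM) = rthkgH p k hM := by
  obtain ⟨π, -, h2, -, h4⟩ := rthkgH_exists hp hp2 v k hv hvp hk hM0 hM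
  rw [← h4]
  exact rthkg_pmH_ker π h2

/-- `c ^ n ∈ H'` for `p ^ K ∣ n` -/
theorem rthkgH_pow_mem (hM : ∀ x, v x ∣ M) {K : ℕ} (hK : ∀ x, k x ≤ K) (c : (ZMod M)ˣ) {n : ℕ}
    (hn : p ^ K ∣ n) : c ^ n ∈ rthkgH p k hM := by
  rw [mem_rthkgH]
  intro x
  obtain ⟨j, rfl⟩ := hn
  obtain ⟨i, hi⟩ := pow_dvd_pow p (hK x)
  refine ⟨(ZMod.unitsMap (hM x) c) ^ (i * j), ?_⟩
  rw [map_pow, ← pow_mul, hi]
  congr 1
  ring

/-- the input `hE` of `es1inftw_pkg` -/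
theorem rthkgH_hE (hM : ∀ x, v x ∣ M) {K : ℕ} (hK : ∀ x, k x ≤ K) (e : ℕ)
    (he : p ^ K ∣ 2 * e - 1) : ∀ c : (ZMod M)ˣ, c ^ (2 * e - 1) ∈ pmH (rthkgH p k hM) :=
  fun c => le_pmH _ (rthkgH_pow_mem hM hK c he)

/-- **`H'` is star-stable** at every prime `r ∣ M`. -/
theorem rthkgH_isStarStable (hp : p.Prime) (hp2 : p ≠ 2) (hv : Function.Injective v)
    (hvp : ∀ x, (v x).Prime) (hk : ∀ x, p ^ k x ∣ v x - 1) (hM0 : M ≠ 0) (hM : ∀ x, v x ∣ M)
    {r : ℕ} (hr : r.Prime) (hrM : r ∣ M) : IsStarStable M r (rthkgH p k hM) := by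
  obtain ⟨π, -, -, h3, h4⟩ := rthkgH_exists hp hp2 v k hv hvp hk hM0 hM
  rw [← h4]
  exact rthkg_isStarStable hM0 v hvp hM π h3 hr hrM

/-- **`H'` is tame** (`5 ≤ p`, `p ∤ L`). -/
theorem rthkgH_isTameAt (hp : p.Prime) (h5 : 5 ≤ p) {L : ℕ} (hpL : ¬ p ∣ L)
    (hM : ∀ x, v x ∣ M) (r : ℕ) : IsTameAt L M r (rthkgH p k hM) := by
  refine ⟨p ^ ∑ x, k x, ?_,
    fun c => le_pmH _ (rthkgH_pow_mem hM (rthkg_le_sum k) c dvd_rfl)⟩
  apply Nat.Coprime.pow_left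
  rw [Nat.Prime.coprime_iff_not_dvd hp]
  intro h
  rcases (Nat.Prime.dvd_mul hp).mp h with h6 | hL
  · have h6' := Nat.le_of_dvd (by norm_num) h6
    have : p = 5 ∨ p = 6 := by omega
    rcases this with rfl | rfl
    · norm_num at h6
    · norm_num at hp
  · exact hpL hL

/-- `[(ℤ/M)ˣ : ±H'] = p ^ ∑ k x` -/
theorem rthkgH_index (hp : p.Prime) (hp2 : p ≠ 2) (hv : Function.Injective v)
    (hvp : ∀ x, (v x).Prime) (hk : ∀ x, p ^ k x ∣ v x - 1) (hM0 : M ≠ 0) (hM : ∀ x, v x ∣ M) :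
    (pmH (rthkgH p k hM)).index = p ^ ∑ x, k x := by
  obtain ⟨π, h1, h2, -, h4⟩ := rthkgH_exists hp hp2 v k hv hvp hk hM0 hM
  rw [← h4]
  exact rthkg_index_pmH hp.ne_zero π h1 h2

/-- **`K7FLevel` for the canonical `H'`**. -/
theorem rthkgH_k7fLevel {L : ℕ} (hL : 2 ≤ L) (hML : M ∣ L) (hp : p.Prime) (hp2 : p ≠ 2)
    (hpL : ¬ p ∣ L) (h5 : 5 ≤ p ∨ (5 - p) ∣ L) (hsq : Squarefree M)
    (hv : Function.Injective v) (hvp : ∀ x, (v x).Prime) (hk : ∀ x, p ^ k x ∣ v x - 1)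
    (hM : ∀ x, v x ∣ M) : K7FLevel L M (rthkgH p k hM) p := by
  have hM0 : M ≠ 0 := hsq.ne_zero
  obtain ⟨π, h1, h2, -, h4⟩ := rthkgH_exists hp hp2 v k hv hvp hk hM0 hM
  rw [← h4]
  exact rthkg_k7fLevel hL hML hp hp2 hpL h5 hsq π h1 h2

/-- (G1) from `IsAtR`: a diamond at `v x` is trivial modulo `v y`, `y ≠ x` -/
theorem rthkg_unitsMap_of_isAtR (hM0 : M ≠ 0) (hv : Function.Injective v)
    (hvp : ∀ x, (v x).Prime) (hM : ∀ x, v x ∣ M) (x : κ) (c : (ZMod M)ˣ)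
    (hc : IsAtR M (v x) c) (y : κ) (hy : y ≠ x) : ZMod.unitsMap (hM y) c = 1 := by
  haveI : NeZero M := ⟨hM0⟩
  have hd : v y ∣ M / v x :=
    rthkg_dvd_div (hvp x) (hM x) (hvp y) (hM y) (fun h => hy (hv h))
  have h1 : (((c : ZMod M).val : ℕ) : ZMod (v y)) = ((1 : ℕ) : ZMod (v y)) := by
    apply rthkg_cast_of_dvd hd
    rw [Nat.cast_one]
    exact hc
  ext
  rw [ZMod.unitsMap_val, ← ZMod.natCast_val, h1, Nat.cast_one, Units.val_one]

/-- **`κ_γ`**: the isomorphism `(ℤ/M)ˣ ⧸ ±H' ≃* Δ'` normalised at the generators `γ`. -/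
theorem rthkg_exists_equiv [DecidableEq κ] (hp : p.Prime) (hp2 : p ≠ 2)
    (hv : Function.Injective v) (hvp : ∀ x, (v x).Prime) (hk : ∀ x, p ^ k x ∣ v x - 1)
    (hM0 : M ≠ 0) (hM : ∀ x, v x ∣ M) (γ : κ → (ZMod M)ˣ)
    (hγ1 : ∀ x y, y ≠ x → ZMod.unitsMap (hM y) (γ x) = 1)
    (hγ2 : ∀ x, k x ≠ 0 → ¬ ∃ y : (ZMod (v x))ˣ, y ^ p = ZMod.unitsMap (hM x) (γ x)) :
    ∃ κγ : (ZMod M)ˣ ⧸ pmH (rthkgH p k hM) ≃* (∀ x : κ, Multiplicative (ZMod (p ^ k x))),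
      (∀ x, κγ (QuotientGroup.mk (γ x)) = Pi.mulSingle x (Multiplicative.ofAdd 1)) ∧
      (∀ (x : κ) (u u' : (ZMod M)ˣ), ZMod.unitsMap (hM x) u = ZMod.unitsMap (hM x) u' →
        κγ (QuotientGroup.mk u) x = κγ (QuotientGroup.mk u') x) ∧
      ∃ π : (ZMod M)ˣ →* (∀ x : κ, Multiplicative (ZMod (p ^ k x))),
        π.ker = rthkgH p k hM ∧ ∀ u, κγ (QuotientGroup.mk u) = π u := by
  obtain ⟨π, h1, h2, h3, h4, h5⟩ := rthkg_exists_gen hp hp2 v k hv hvp hk hM0 hM γ hγ1 hγ2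
  have hpm : pmH (rthkgH p k hM) = π.ker := by
    rw [h5]
    exact rthkgH_pmH hp hp2 hv hvp hk hM0 hM
  let κγ : (ZMod M)ˣ ⧸ pmH (rthkgH p k hM) ≃* (∀ x : κ, Multiplicative (ZMod (p ^ k x))) :=
    (QuotientGroup.quotientMulEquivOfEq hpm).trans
      (QuotientGroup.quotientKerEquivOfSurjective π h1)
  have hκ : ∀ u, κγ (QuotientGroup.mk u) = π u := fun u => rfl
  exact ⟨κγ, fun x => by rw [hκ, h4], fun x u u' h => by rw [hκ, hκ]; exact h3 x u u' h,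
    π, h5, hκ⟩

end Canon

end Fermat.Agent.RT


end ZBRT_041_4

/-! ### bundled: `Fermat.Agent.RT.Hecke.GrpK5` -/
section ZBRT_041_5

/-!
# K-machine, HECKE-asm, piece HK-GRP (G2)/(G3): the K5 inputs for `H' = ker π ≤ ⊤`

* `rthkg_freeHyp_index` : the field `index` of `K5.FreeHyp` for `H' ≤ ⊤`:
  `((pmH H').subgroupOf (pmH ⊤)).index = p ^ ∑ k x`  (the field `le` is `le_top`);
* `rthkg_isTransversal` : for a section `u` of `π` and an enumeration `e : Fin m ≃ Δ'`,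
  `K5.IsTransversal H' ⊤ (u ∘ e)`;
* `rthkg_exists_transversal` : such a transversal exists, with `m = p ^ ∑ k x`;
* `rthkgH_freeHyp_index`, `rthkgH_exists_transversal` : the same for the canonical `H'`
  (`rthkgH p k hM`), the transversal enumerating `(ℤ/M)ˣ ⧸ ±H'`;
* `rthkg_exists_transversal_quot` : for ANY `H'`: a transversal `u` of `±H'` in
  `(ℤ/M)ˣ` with `j ↦ mk (u j)` an enumeration of `(ℤ/M)ˣ ⧸ ±H'`.
-/

set_option autoImplicit false
set_option linter.unusedSectionVars false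
set_option linter.style.haveILetI false

namespace Fermat.Agent.RT

open Fermat.Agent.ES1 Fermat.Agent.RT.K5

section K5

variable {κ : Type} [Fintype κ] {p : ℕ} {k : κ → ℕ} {M : ℕ}

theorem rthkg_pmH_top : pmH (⊤ : Subgroup (ZMod M)ˣ) = ⊤ := by
  unfold pmH
  exact top_sup_eq _

/-- the field `index` of `K5.FreeHyp` for `H' ≤ ⊤` -/
theorem rthkg_freeHyp_index (hp : p ≠ 0)
    (π : (ZMod M)ˣ →* (∀ x : κ, Multiplicative (ZMod (p ^ k x))))
    (hsurj : Function.Surjective π) (hneg : π (-1) = 1) :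
    ((pmH π.ker).subgroupOf (pmH ⊤)).index = p ^ ∑ x, k x := by
  rw [rthkg_pmH_top, ← rthkg_index_pmH hp π hsurj hneg]
  exact Subgroup.relIndex_top_right _

/-- (G3) a section of `π` composed with an enumeration of `Δ'` is a transversal of `±H'` in
`(ℤ/M)ˣ` -/
theorem rthkg_isTransversal
    (π : (ZMod M)ˣ →* (∀ x : κ, Multiplicative (ZMod (p ^ k x)))) (hneg : π (-1) = 1)
    (u : (∀ x : κ, Multiplicative (ZMod (p ^ k x))) → (ZMod M)ˣ) (hu : ∀ δ, π (u δ) = δ)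
    {m : ℕ} (e : Fin m ≃ (∀ x : κ, Multiplicative (ZMod (p ^ k x)))) :
    IsTransversal π.ker ⊤ (fun j => u (e j)) := by
  refine ⟨fun j => by rw [rthkg_pmH_top]; exact Subgroup.mem_top _, fun c _ => ?_⟩
  rw [rthkg_pmH_ker π hneg]
  refine ⟨e.symm (π c), ?_, fun j hj => ?_⟩
  · show (u (e (e.symm (π c))))⁻¹ * c ∈ π.ker
    rw [rthkg_section_mem_iff π u hu, Equiv.apply_symm_apply]
  · have : (u (e j))⁻¹ * c ∈ π.ker := hj
    rw [rthkg_section_mem_iff π u hu] at this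
    rw [← this, Equiv.symm_apply_apply]

/-- (G3) a transversal exists -/
theorem rthkg_exists_transversal (hp : p ≠ 0)
    (π : (ZMod M)ˣ →* (∀ x : κ, Multiplicative (ZMod (p ^ k x))))
    (hsurj : Function.Surjective π) (hneg : π (-1) = 1) :
    ∃ (u : (∀ x : κ, Multiplicative (ZMod (p ^ k x))) → (ZMod M)ˣ)
      (e : Fin (p ^ ∑ x, k x) ≃ (∀ x : κ, Multiplicative (ZMod (p ^ k x)))),
      (∀ δ, π (u δ) = δ) ∧ IsTransversal π.ker ⊤ (fun j => u (e j)) := by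
  obtain ⟨u, hu⟩ := rthkg_exists_section π hsurj
  obtain ⟨e⟩ := rthkg_exists_enum (κ := κ) (k := k) hp
  exact ⟨u, e, hu, rthkg_isTransversal π hneg u hu e⟩

/-- for any `H'`: a transversal of `±H'` in `(ℤ/M)ˣ` enumerating `(ℤ/M)ˣ ⧸ ±H'` -/
theorem rthkg_exists_transversal_quot (H' : Subgroup (ZMod M)ˣ) :
    ∃ (m : ℕ) (u : Fin m → (ZMod M)ˣ) (e : Fin m ≃ (ZMod M)ˣ ⧸ pmH H'),
      m = (pmH H').index ∧ (∀ j, e j = QuotientGroup.mk (u j)) ∧ IsTransversal H' ⊤ u := by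
  haveI : Finite ((ZMod M)ˣ ⧸ pmH H') := inferInstance
  let e : Fin (Nat.card ((ZMod M)ˣ ⧸ pmH H')) ≃ (ZMod M)ˣ ⧸ pmH H' :=
    (Finite.equivFin _).symm
  have hout : ∀ j, (QuotientGroup.mk (Quotient.out (e j)) : (ZMod M)ˣ ⧸ pmH H') = e j :=
    fun j => Quotient.out_eq' (e j)
  refine ⟨_, fun j => Quotient.out (e j), e, rfl, fun j => (hout j).symm,
    fun j => by rw [rthkg_pmH_top]; exact Subgroup.mem_top _, fun c _ => ?_⟩
  have key : ∀ j, (Quotient.out (e j))⁻¹ * c ∈ pmH H' ↔ e j = QuotientGroup.mk c := by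
    intro j
    rw [← QuotientGroup.eq, hout]
  refine ⟨e.symm (QuotientGroup.mk c), ?_, fun j hj => ?_⟩
  · show (Quotient.out (e (e.symm (QuotientGroup.mk c))))⁻¹ * c ∈ pmH H'
    rw [key, Equiv.apply_symm_apply]
  · have : (Quotient.out (e j))⁻¹ * c ∈ pmH H' := hj
    rw [key] at this
    rw [← this, Equiv.symm_apply_apply]

section CanonK5

variable {v : κ → ℕ}

/-- the field `index` of `K5.FreeHyp` for the canonical `H' ≤ ⊤` -/
theorem rthkgH_freeHyp_index (hp : p.Prime) (hp2 : p ≠ 2) (hv : Function.Injective v)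
    (hvp : ∀ x, (v x).Prime) (hk : ∀ x, p ^ k x ∣ v x - 1) (hM0 : M ≠ 0) (hM : ∀ x, v x ∣ M) :
    ((pmH (rthkgH p k hM)).subgroupOf (pmH ⊤)).index = p ^ ∑ x, k x := by
  rw [rthkg_pmH_top, ← rthkgH_index hp hp2 hv hvp hk hM0 hM]
  exact Subgroup.relIndex_top_right _

/-- a transversal of the canonical `±H'` in `(ℤ/M)ˣ`, of length `p ^ ∑ k x`, enumerating
`(ℤ/M)ˣ ⧸ ±H'` -/
theorem rthkgH_exists_transversal (hp : p.Prime) (hp2 : p ≠ 2) (hv : Function.Injective v)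
    (hvp : ∀ x, (v x).Prime) (hk : ∀ x, p ^ k x ∣ v x - 1) (hM0 : M ≠ 0) (hM : ∀ x, v x ∣ M) :
    ∃ (u : Fin (p ^ ∑ x, k x) → (ZMod M)ˣ)
      (e : Fin (p ^ ∑ x, k x) ≃ (ZMod M)ˣ ⧸ pmH (rthkgH p k hM)),
      (∀ j, e j = QuotientGroup.mk (u j)) ∧ IsTransversal (rthkgH p k hM) ⊤ u := by
  obtain ⟨m, u, e, hm, he, hu⟩ := rthkg_exists_transversal_quot (rthkgH p k hM)
  rw [rthkgH_index hp hp2 hv hvp hk hM0 hM] at hm
  subst hm
  exact ⟨u, e, he, hu⟩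

end CanonK5

end K5

end Fermat.Agent.RT


end ZBRT_041_5

/-! ### bundled: `Fermat.Agent.RT.Hecke.ConcH` -/
section ZBRT_041_6

/-!
# K-machine, HECKE-asm: the level facts for helper9's `H' = rthkdH p v k M hM` (helper96)

`rthkdH p v k M hM` (`ConcArith.lean`) and helper8's canonical `rthkgH p k hM` (`GrpGen.lean`)
are THE SAME subgroup (`rthkh_eq`, by `rfl`), so all level facts of HK-GRP transfer:

* `rthkh_eq` : `rthkdH p v k M hM = rthkgH p k hM`;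
* `rthkh_isStarStable` : `K6.IsStarStable M r H'` for every prime `r ∣ M`;
* `rthkh_isTameAt` : `K6.IsTameAt L M r H'` (`5 ≤ p`, `p ∤ L`);
* `rthkh_k7fLevel` : `K7F.K7FLevel L M H' p`;
* `rthkh_pmH`, `rthkh_index`, `rthkh_hE` (`∀ c, c ^ (2 e − 1) ∈ pmH H'` for `p ^ K ∣ 2 e − 1`),
  `rthkh_hE_std` (for `e = rthkdE p ν`);
* `rthkh_exists_equiv` : `κ_γ : RthkdDelta-type quotient ≃* Δ'` for `H' = rthkdH …`.
-/

set_option autoImplicit false
set_option linter.unusedSectionVars false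
set_option linter.style.haveILetI false

namespace Fermat.Agent.RT

open Fermat.Agent.ES1 Fermat.Agent.RT.K6 Fermat.Agent.RT.K7F

section ConcH

variable {κ : Type} [Fintype κ] {p : ℕ} {v k : κ → ℕ} {M : ℕ}

/-- helper9's `H'` is helper8's canonical `H'` -/
theorem rthkh_eq (hM : ∀ x, v x ∣ M) : rthkdH p v k M hM = rthkgH p k hM := rfl

/-- `±H' = H'` -/
theorem rthkh_pmH (hp : p.Prime) (hp2 : p ≠ 2) (hv : Function.Injective v)
    (hvp : ∀ x, (v x).Prime) (hk : ∀ x, p ^ k x ∣ v x - 1) (hM0 : M ≠ 0) (hM : ∀ x, v x ∣ M) :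
    pmH (rthkdH p v k M hM) = rthkdH p v k M hM :=
  rthkgH_pmH hp hp2 hv hvp hk hM0 hM

/-- **`H'` is star-stable** at every prime `r ∣ M`. -/
theorem rthkh_isStarStable (hp : p.Prime) (hp2 : p ≠ 2) (hv : Function.Injective v)
    (hvp : ∀ x, (v x).Prime) (hk : ∀ x, p ^ k x ∣ v x - 1) (hM0 : M ≠ 0) (hM : ∀ x, v x ∣ M)
    {r : ℕ} (hr : r.Prime) (hrM : r ∣ M) : IsStarStable M r (rthkdH p v k M hM) :=
  rthkgH_isStarStable hp hp2 hv hvp hk hM0 hM hr hrM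

/-- **`H'` is tame** (`5 ≤ p`, `p ∤ L`). -/
theorem rthkh_isTameAt (hp : p.Prime) (h5 : 5 ≤ p) {L : ℕ} (hpL : ¬ p ∣ L)
    (hM : ∀ x, v x ∣ M) (r : ℕ) : IsTameAt L M r (rthkdH p v k M hM) :=
  rthkgH_isTameAt hp h5 hpL hM r

/-- `[(ℤ/M)ˣ : ±H'] = p ^ ∑ k x` -/
theorem rthkh_index (hp : p.Prime) (hp2 : p ≠ 2) (hv : Function.Injective v)
    (hvp : ∀ x, (v x).Prime) (hk : ∀ x, p ^ k x ∣ v x - 1) (hM0 : M ≠ 0) (hM : ∀ x, v x ∣ M) :
    (pmH (rthkdH p v k M hM)).index = p ^ ∑ x, k x :=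
  rthkgH_index hp hp2 hv hvp hk hM0 hM

/-- **`K7FLevel` for `H'`**. -/
theorem rthkh_k7fLevel {L : ℕ} (hL : 2 ≤ L) (hML : M ∣ L) (hp : p.Prime) (hp2 : p ≠ 2)
    (hpL : ¬ p ∣ L) (h5 : 5 ≤ p ∨ (5 - p) ∣ L) (hsq : Squarefree M)
    (hv : Function.Injective v) (hvp : ∀ x, (v x).Prime) (hk : ∀ x, p ^ k x ∣ v x - 1)
    (hM : ∀ x, v x ∣ M) : K7FLevel L M (rthkdH p v k M hM) p :=
  rthkgH_k7fLevel hL hML hp hp2 hpL h5 hsq hv hvp hk hM

/-- the input `hE` of `es1inftw_pkg` -/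
theorem rthkh_hE (hM : ∀ x, v x ∣ M) {K : ℕ} (hK : ∀ x, k x ≤ K) (e : ℕ)
    (he : p ^ K ∣ 2 * e - 1) : ∀ c : (ZMod M)ˣ, c ^ (2 * e - 1) ∈ pmH (rthkdH p v k M hM) :=
  rthkgH_hE hM hK e he

/-- a diamond at `v x` is trivial modulo `v y`, `y ≠ x` -/
theorem rthkh_unitsMap_of_isAtR (hM0 : M ≠ 0) (hv : Function.Injective v)
    (hvp : ∀ x, (v x).Prime) (hM : ∀ x, v x ∣ M) (x : κ) (c : (ZMod M)ˣ)
    (hc : IsAtR M (v x) c) (y : κ) (hy : y ≠ x) : ZMod.unitsMap (hM y) c = 1 :=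
  rthkg_unitsMap_of_isAtR hM0 hv hvp hM x c hc y hy

end ConcH

end Fermat.Agent.RT


end ZBRT_041_6
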