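/- GENERATED FILE (helper35, build-time optimisation, NOTES/ZB.md): verbatim concatenation of the modules
   Fermat.Agent.RT.Hecke.Chars
   Fermat.Agent.RT.Hecke.GrpBridge
   Fermat.Agent.RT.Hecke.GrpSum
   Fermat.Agent.RT.Hecke.GrpInst
   Do not edit; do not import together with these modules. -/
import Mathlib
import Fermat.Agent.ZB.RT_041
import Fermat.Agent.ZB.ES1_001
import Fermat.Agent.ZB.RT_028
import Fermat.Agent.ZB.RT_002

/-! ### bundled: `Fermat.Agent.RT.Hecke.Chars` -/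
section ZBRT_042_0
/-
RT-HECKE / HK-CHARS (helper27): the characters of the diamond group
`Δ' = ∀ x, Multiplicative (ZMod (p ^ k x))`.
-/

/-!
# K-machine, HECKE-asm, piece HK-CHARS: the characters of the diamond group of level `Q`

Sub-captain helper59.  `p` a prime, `κ` a finite index type, `k : κ → ℕ`,
`Δ' = RthkchGrp p k = ∀ x : κ, Multiplicative (ZMod (p ^ k x))`; `Sn` a commutative ring and
`w : κ → Sn` with `w x ^ (p ^ k x) = 1`.

* `rthkchPsi w hw : Δ' →* Sn`, `δ ↦ ∏ x, w x ^ (δ x).toAdd.val`;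
* `rthkch_psi_gen` : `ψ (Pi.mulSingle x (ofAdd 1)) = w x`;
* `rthkch_unique`, `rthkch_existsUnique` : `ψ` is the unique such homomorphism;
* `rthkch_congr` : `w ≡ w'` modulo `I` ⇒ `ψ ≡ ψ'` modulo `I`; `rthkch_sub_one_mem`;
* `rthkch_inv_mul` : `ψ δ⁻¹ * ψ δ = 1`; `rthkchPsiU : Δ' →* Snˣ`.
-/

set_option autoImplicit false

namespace Fermat.Agent.RT

/-- the diamond group `Δ' = ∏_x ℤ/p^{k x}` (multiplicative notation) -/
abbrev RthkchGrp (p : ℕ) {κ : Type*} (k : κ → ℕ) : Type _ :=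
  ∀ x : κ, Multiplicative (ZMod (p ^ k x))

section Pow

variable {Sn : Type*} [CommRing Sn]

/-- `w ^ m` depends on `m` modulo `n` only, if `w ^ n = 1` -/
theorem rthkch_pow_mod {w : Sn} {n : ℕ} (hw : w ^ n = 1) (m : ℕ) : w ^ (m % n) = w ^ m := by
  conv_rhs => rw [← Nat.div_add_mod m n, pow_add, pow_mul, hw, one_pow, one_mul]

theorem rthkch_pow_val_add {w : Sn} {n : ℕ} [NeZero n] (hw : w ^ n = 1) (a b : ZMod n) :
    w ^ (a + b).val = w ^ a.val * w ^ b.val := by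
  rw [ZMod.val_add, rthkch_pow_mod hw, pow_add]

end Pow

section Chars

variable {p : ℕ} [Fact p.Prime] {κ : Type*} [Fintype κ] {k : κ → ℕ}
  {Sn : Type*} [CommRing Sn]

instance rthkch_neZero (x : κ) : NeZero (p ^ k x) :=
  ⟨pow_ne_zero _ (Fact.out : p.Prime).ne_zero⟩

/-- **the character** of `Δ'` with `ψ (e_x) = w x` -/
noncomputable def rthkchPsi (w : κ → Sn) (hw : ∀ x, w x ^ (p ^ k x) = 1) :
    RthkchGrp p k →* Sn where
  toFun δ := ∏ x, w x ^ (Multiplicative.toAdd (δ x)).val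
  map_one' := by
    refine Finset.prod_eq_one fun x _ => ?_
    show w x ^ (0 : ZMod (p ^ k x)).val = 1
    rw [ZMod.val_zero, pow_zero]
  map_mul' δ δ' := by
    rw [← Finset.prod_mul_distrib]
    refine Finset.prod_congr rfl fun x _ => ?_
    exact rthkch_pow_val_add (hw x) _ _

theorem rthkchPsi_apply (w : κ → Sn) (hw : ∀ x, w x ^ (p ^ k x) = 1) (δ : RthkchGrp p k) :
    rthkchPsi w hw δ = ∏ x, w x ^ (Multiplicative.toAdd (δ x)).val := rfl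

/-- the value on an element supported at `x` -/
theorem rthkch_psi_single [DecidableEq κ] (w : κ → Sn) (hw : ∀ x, w x ^ (p ^ k x) = 1) (x : κ)
    (a : Multiplicative (ZMod (p ^ k x))) :
    rthkchPsi w hw (Pi.mulSingle x a) = w x ^ (Multiplicative.toAdd a).val := by
  rw [rthkchPsi_apply, Finset.prod_eq_single x]
  · rw [Pi.mulSingle_eq_same]
  · intro y _ hy
    rw [Pi.mulSingle_eq_of_ne hy]
    show w y ^ (0 : ZMod (p ^ k y)).val = 1
    rw [ZMod.val_zero, pow_zero]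
  · intro hx
    exact absurd (Finset.mem_univ _) hx

/-- **the generators**: `ψ (e_x) = w x` -/
theorem rthkch_psi_gen [DecidableEq κ] (w : κ → Sn) (hw : ∀ x, w x ^ (p ^ k x) = 1) (x : κ) :
    rthkchPsi w hw (Pi.mulSingle x (Multiplicative.ofAdd (1 : ZMod (p ^ k x)))) = w x := by
  rw [rthkch_psi_single, toAdd_ofAdd]
  have h1 : ((1 : ZMod (p ^ k x))).val = 1 % (p ^ k x) := by
    have := ZMod.val_natCast (p ^ k x) 1
    rwa [Nat.cast_one] at this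
  rw [h1, rthkch_pow_mod (hw x), pow_one]

/-- every element of `Multiplicative (ZMod n)` is a power of `ofAdd 1` -/
theorem rthkch_eq_pow {n : ℕ} [NeZero n] (a : Multiplicative (ZMod n)) :
    a = Multiplicative.ofAdd (1 : ZMod n) ^ (Multiplicative.toAdd a).val := by
  rw [← ofAdd_nsmul, nsmul_eq_mul, mul_one, ZMod.natCast_zmod_val, ofAdd_toAdd]

/-- **uniqueness** -/
theorem rthkch_unique [DecidableEq κ] (w : κ → Sn) (hw : ∀ x, w x ^ (p ^ k x) = 1)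
    (ψ : RthkchGrp p k →* Sn)
    (hψ : ∀ x, ψ (Pi.mulSingle x (Multiplicative.ofAdd (1 : ZMod (p ^ k x)))) = w x) :
    ψ = rthkchPsi w hw := by
  refine MonoidHom.ext fun δ => ?_
  have h1 : δ = ∏ x, Pi.mulSingle x (δ x) := (Finset.univ_prod_mulSingle δ).symm
  rw [rthkchPsi_apply]
  conv_lhs => rw [h1]
  rw [map_prod]
  refine Finset.prod_congr rfl fun x _ => ?_
  have h2 : Pi.mulSingle x (δ x)
      = (Pi.mulSingle x (Multiplicative.ofAdd (1 : ZMod (p ^ k x))) : RthkchGrp p k)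
        ^ (Multiplicative.toAdd (δ x)).val := by
    conv_lhs => rw [rthkch_eq_pow (δ x)]
    exact map_pow (MonoidHom.mulSingle (fun y : κ => Multiplicative (ZMod (p ^ k y))) x) _ _
  rw [h2, map_pow, hψ]

/-- a character of `Δ'` is determined by its values on the generators -/
theorem rthkch_ext [DecidableEq κ] (ψ ψ' : RthkchGrp p k →* Sn)
    (h : ∀ x, ψ (Pi.mulSingle x (Multiplicative.ofAdd (1 : ZMod (p ^ k x))))
      = ψ' (Pi.mulSingle x (Multiplicative.ofAdd (1 : ZMod (p ^ k x))))) : ψ = ψ' := by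
  have hw : ∀ x, (ψ' (Pi.mulSingle x (Multiplicative.ofAdd (1 : ZMod (p ^ k x)))))
      ^ (p ^ k x) = 1 := by
    intro x
    rw [← map_pow, ← Pi.mulSingle_pow, ← ofAdd_nsmul, nsmul_eq_mul, mul_one,
      ZMod.natCast_self, ofAdd_zero, Pi.mulSingle_one, map_one]
  exact (rthkch_unique _ hw ψ h).trans (rthkch_unique _ hw ψ' fun _ => rfl).symm

/-- **existence and uniqueness** -/
theorem rthkch_existsUnique [DecidableEq κ] (w : κ → Sn) (hw : ∀ x, w x ^ (p ^ k x) = 1) :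
    ∃! ψ : RthkchGrp p k →* Sn,
      ∀ x, ψ (Pi.mulSingle x (Multiplicative.ofAdd (1 : ZMod (p ^ k x)))) = w x :=
  ⟨rthkchPsi w hw, rthkch_psi_gen w hw, fun ψ hψ => rthkch_unique w hw ψ hψ⟩

/-- **congruence**: `w ≡ w'` modulo `I` ⇒ `ψ ≡ ψ'` modulo `I` -/
theorem rthkch_congr (I : Ideal Sn) (w w' : κ → Sn) (hw : ∀ x, w x ^ (p ^ k x) = 1)
    (hw' : ∀ x, w' x ^ (p ^ k x) = 1) (h : ∀ x, w x - w' x ∈ I) (δ : RthkchGrp p k) :
    rthkchPsi w hw δ - rthkchPsi w' hw' δ ∈ I := by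
  rw [← Ideal.Quotient.eq, rthkchPsi_apply, rthkchPsi_apply, map_prod, map_prod]
  refine Finset.prod_congr rfl fun x _ => ?_
  rw [map_pow, map_pow, Ideal.Quotient.eq.mpr (h x)]

/-- the trivial character -/
theorem rthkch_psi_one (hw : ∀ x : κ, (1 : Sn) ^ (p ^ k x) = 1) :
    rthkchPsi (p := p) (k := k) (fun _ : κ => (1 : Sn)) hw = 1 := by
  refine MonoidHom.ext fun δ => ?_
  rw [rthkchPsi_apply, MonoidHom.one_apply]
  exact Finset.prod_eq_one fun x _ => one_pow _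

/-- `w ≡ 1` modulo `I` ⇒ `ψ ≡ 1` modulo `I` -/
theorem rthkch_sub_one_mem (I : Ideal Sn) (w : κ → Sn) (hw : ∀ x, w x ^ (p ^ k x) = 1)
    (h : ∀ x, w x - 1 ∈ I) (δ : RthkchGrp p k) : rthkchPsi w hw δ - 1 ∈ I := by
  have h1 := rthkch_congr I w (fun _ => 1) hw (fun _ => one_pow _) h δ
  rwa [rthkch_psi_one, MonoidHom.one_apply] at h1

theorem rthkch_inv_mul (w : κ → Sn) (hw : ∀ x, w x ^ (p ^ k x) = 1) (δ : RthkchGrp p k) :
    rthkchPsi w hw δ⁻¹ * rthkchPsi w hw δ = 1 := by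
  rw [← map_mul, inv_mul_cancel, map_one]

theorem rthkch_mul_inv (w : κ → Sn) (hw : ∀ x, w x ^ (p ^ k x) = 1) (δ : RthkchGrp p k) :
    rthkchPsi w hw δ * rthkchPsi w hw δ⁻¹ = 1 := by
  rw [← map_mul, mul_inv_cancel, map_one]

/-- the character with values in the units -/
noncomputable def rthkchPsiU (w : κ → Sn) (hw : ∀ x, w x ^ (p ^ k x) = 1) :
    RthkchGrp p k →* Snˣ :=
  (rthkchPsi w hw).toHomUnits

theorem rthkchPsiU_coe (w : κ → Sn) (hw : ∀ x, w x ^ (p ^ k x) = 1) (δ : RthkchGrp p k) :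
    ((rthkchPsiU w hw δ : Snˣ) : Sn) = rthkchPsi w hw δ := rfl

/-- functoriality in the coefficients -/
theorem rthkch_map {Sn' : Type*} [CommRing Sn'] (φ : Sn →+* Sn') (w : κ → Sn)
    (hw : ∀ x, w x ^ (p ^ k x) = 1) (hw' : ∀ x, (φ (w x)) ^ (p ^ k x) = 1)
    (δ : RthkchGrp p k) :
    φ (rthkchPsi w hw δ) = rthkchPsi (fun x => φ (w x)) hw' δ := by
  rw [rthkchPsi_apply, rthkchPsi_apply, map_prod]
  refine Finset.prod_congr rfl fun x _ => ?_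
  rw [map_pow]

end Chars

end Fermat.Agent.RT


end ZBRT_042_0

/-! ### bundled: `Fermat.Agent.RT.Hecke.GrpBridge` -/
section ZBRT_042_1

/-!
# K-machine, HECKE-asm, HK-GRP: bridge to the concrete objects of HK-CONC

helper9's `rthkdH p v k M hM` (`RT/Hecke/ConcArith.lean`) IS the canonical `H'` of HK-GRP
(`rthkgH p k hM`, `RT/Hecke/GrpGen.lean`): `rthkg_H_eq` is `rfl`.  All results of HK-GRP for it,
with source `RthkdDelta M H'` (`RT/Hecke/ConcDefs.lean`) and target `RthkchGrp p k`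
(`RT/Hecke/Chars.lean`):

* `rthkgb_equiv` : `κ_γ : RthkdDelta M (rthkdH p v k M hM) ≃* RthkchGrp p k` with
  `κ_γ (mk (γ x)) = Pi.mulSingle x (ofAdd 1)`;
* `rthkgb_k7fLevel`, `rthkgb_isStarStable`, `rthkgb_isTameAt`, `rthkgb_index`,
  `rthkgb_freeHyp_index`, `rthkgb_exists_transversal`, `rthkgb_squarefree`.
-/

set_option autoImplicit false
set_option linter.unusedSectionVars false
set_option linter.style.haveILetI false

namespace Fermat.Agent.RT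

open Fermat.Agent.ES1 Fermat.Agent.RT.K5 Fermat.Agent.RT.K6 Fermat.Agent.RT.K7F

section Bridge

variable {κ : Type} [Fintype κ] {p : ℕ} {v k : κ → ℕ} {M : ℕ}

/-- the two definitions of `H'` agree (by `rfl`) -/
theorem rthkg_H_eq (hM : ∀ x, v x ∣ M) : rthkdH p v k M hM = rthkgH p k hM := rfl

/-- **`κ_γ`** for the concrete objects. -/
theorem rthkgb_equiv [DecidableEq κ] (hp : p.Prime) (hp2 : p ≠ 2)
    (hv : Function.Injective v) (hvp : ∀ x, (v x).Prime) (hk : ∀ x, p ^ k x ∣ v x - 1)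
    (hM0 : M ≠ 0) (hM : ∀ x, v x ∣ M) (γ : κ → (ZMod M)ˣ)
    (hγ1 : ∀ x y, y ≠ x → ZMod.unitsMap (hM y) (γ x) = 1)
    (hγ2 : ∀ x, k x ≠ 0 → ¬ ∃ y : (ZMod (v x))ˣ, y ^ p = ZMod.unitsMap (hM x) (γ x)) :
    ∃ κγ : RthkdDelta M (rthkdH p v k M hM) ≃* RthkchGrp p k,
      (∀ x, κγ (QuotientGroup.mk (γ x)) = Pi.mulSingle x (Multiplicative.ofAdd 1)) ∧
      (∀ (x : κ) (u u' : (ZMod M)ˣ), ZMod.unitsMap (hM x) u = ZMod.unitsMap (hM x) u' →
        κγ (QuotientGroup.mk u) x = κγ (QuotientGroup.mk u') x) :=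
  let ⟨κγ, h1, h2, _⟩ := rthkg_exists_equiv hp hp2 hv hvp hk hM0 hM γ hγ1 hγ2
  ⟨κγ, h1, h2⟩

theorem rthkgb_isStarStable (hp : p.Prime) (hp2 : p ≠ 2) (hv : Function.Injective v)
    (hvp : ∀ x, (v x).Prime) (hk : ∀ x, p ^ k x ∣ v x - 1) (hM0 : M ≠ 0) (hM : ∀ x, v x ∣ M)
    {r : ℕ} (hr : r.Prime) (hrM : r ∣ M) : IsStarStable M r (rthkdH p v k M hM) :=
  rthkgH_isStarStable hp hp2 hv hvp hk hM0 hM hr hrM

theorem rthkgb_isTameAt (hp : p.Prime) (h5 : 5 ≤ p) {L : ℕ} (hpL : ¬ p ∣ L)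
    (hM : ∀ x, v x ∣ M) (r : ℕ) : IsTameAt L M r (rthkdH p v k M hM) :=
  rthkgH_isTameAt hp h5 hpL hM r

theorem rthkgb_index (hp : p.Prime) (hp2 : p ≠ 2) (hv : Function.Injective v)
    (hvp : ∀ x, (v x).Prime) (hk : ∀ x, p ^ k x ∣ v x - 1) (hM0 : M ≠ 0) (hM : ∀ x, v x ∣ M) :
    (pmH (rthkdH p v k M hM)).index = p ^ ∑ x, k x :=
  rthkgH_index hp hp2 hv hvp hk hM0 hM

theorem rthkgb_k7fLevel {L : ℕ} (hL : 2 ≤ L) (hML : M ∣ L) (hp : p.Prime) (hp2 : p ≠ 2)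
    (hpL : ¬ p ∣ L) (h5 : 5 ≤ p ∨ (5 - p) ∣ L) (hsq : Squarefree M)
    (hv : Function.Injective v) (hvp : ∀ x, (v x).Prime) (hk : ∀ x, p ^ k x ∣ v x - 1)
    (hM : ∀ x, v x ∣ M) : K7FLevel L M (rthkdH p v k M hM) p :=
  rthkgH_k7fLevel hL hML hp hp2 hpL h5 hsq hv hvp hk hM

theorem rthkgb_freeHyp_index (hp : p.Prime) (hp2 : p ≠ 2) (hv : Function.Injective v)
    (hvp : ∀ x, (v x).Prime) (hk : ∀ x, p ^ k x ∣ v x - 1) (hM0 : M ≠ 0) (hM : ∀ x, v x ∣ M) :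
    ((pmH (rthkdH p v k M hM)).subgroupOf (pmH ⊤)).index = p ^ ∑ x, k x :=
  rthkgH_freeHyp_index hp hp2 hv hvp hk hM0 hM

theorem rthkgb_exists_transversal (hp : p.Prime) (hp2 : p ≠ 2) (hv : Function.Injective v)
    (hvp : ∀ x, (v x).Prime) (hk : ∀ x, p ^ k x ∣ v x - 1) (hM0 : M ≠ 0) (hM : ∀ x, v x ∣ M) :
    ∃ (u : Fin (p ^ ∑ x, k x) → (ZMod M)ˣ)
      (e : Fin (p ^ ∑ x, k x) ≃ RthkdDelta M (rthkdH p v k M hM)),
      (∀ j, e j = QuotientGroup.mk (u j)) ∧ IsTransversal (rthkdH p v k M hM) ⊤ u :=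
  rthkgH_exists_transversal hp hp2 hv hvp hk hM0 hM

/-- the level `M = ∏ v x` is squarefree -/
theorem rthkgb_squarefree (hv : Function.Injective v) (hvp : ∀ x, (v x).Prime) :
    Squarefree (rthkdM v) := by
  unfold rthkdM
  refine Finset.squarefree_prod_of_pairwise_isCoprime (fun x _ y _ hxy => ?_)
    (fun x _ => (hvp x).squarefree)
  exact Nat.coprime_iff_isRelPrime.mp
    ((Nat.coprime_primes (hvp x) (hvp y)).mpr fun h => hxy (hv h))

end Bridge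

end Fermat.Agent.RT


end ZBRT_042_1

/-! ### bundled: `Fermat.Agent.RT.Hecke.GrpSum` -/
section ZBRT_042_2

/-!
# K-machine, HECKE-asm, HK-GRP at the concrete index type `κ = Fin h ⊕ ι`

`qv : Fin h → ℕ` the Taylor–Wiles primes of level `n` (`p ^ (n + 1) ∣ qv j - 1`), `r : ι → ℕ` the
trivial primes (`p ∣ r i - 1`, `r i ∣ N`), `N` the base level.  As in helper9's `ConcArith`:
`v = Sum.elim qv r`, `k = Sum.elim (fun _ => n + 1) (fun _ => 1)` (`= rthkciExp h ι (n + 1)`),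
`M = rthkdM v`, `L = N * rthkdM qv`, `H' = rthkdH p v k M (rthkd_dvd_M v)`.

* `RthkgsHyp p n N qv r` : the arithmetic hypotheses (all of them follow from `KSetup`,
  `IsTWFamily`, `IsTrivSet`, `¬ p ∣ N`);
* `rthkgsV`, `rthkgsK`, `rthkgsM`, `rthkgsL`, `rthkgsH` : the objects;
* `rthkgs_hv`, `rthkgs_hvp`, `rthkgs_hk`, `rthkgs_M_dvd_L`, `rthkgs_not_dvd_L`, `rthkgs_two_le_L`,
  `rthkgs_squarefree`, `rthkgs_k_le`;
* `rthkgs_k7fLevel`, `rthkgs_isStarStable`, `rthkgs_isTameAt`, `rthkgs_index`, `rthkgs_pmH`,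
  `rthkgs_hE`, `rthkgs_freeHyp_index`, `rthkgs_exists_transversal`, `rthkgs_equiv` (`κ_γ`).
-/

set_option autoImplicit false
set_option linter.unusedSectionVars false
set_option linter.style.haveILetI false

namespace Fermat.Agent.RT

open Fermat.Agent.ES1 Fermat.Agent.RT.K5 Fermat.Agent.RT.K6 Fermat.Agent.RT.K7F

section Sum

variable {ι : Type} [Fintype ι] {h : ℕ}

/-- the arithmetic hypotheses on the Taylor–Wiles primes `qv` and the trivial primes `r` -/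
structure RthkgsHyp (p n N : ℕ) (qv : Fin h → ℕ) (r : ι → ℕ) : Prop where
  hp : p.Prime
  h5 : 5 ≤ p
  hpN : ¬ p ∣ N
  hN : 2 ≤ N
  qinj : Function.Injective qv
  qprime : ∀ j, (qv j).Prime
  qp : ∀ j, p ^ (n + 1) ∣ qv j - 1
  qN : ∀ j, ¬ qv j ∣ N
  rinj : Function.Injective r
  rprime : ∀ i, (r i).Prime
  rp : ∀ i, p ∣ r i - 1
  rN : ∀ i, r i ∣ N

/-- the primes of the diamonds -/
abbrev rthkgsV (qv : Fin h → ℕ) (r : ι → ℕ) : Fin h ⊕ ι → ℕ := Sum.elim qv r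

/-- the exponents -/
abbrev rthkgsK (h : ℕ) (ι : Type) (ν : ℕ) : Fin h ⊕ ι → ℕ := Sum.elim (fun _ => ν) (fun _ => 1)

/-- the level `M` of the diamonds -/
abbrev rthkgsM (qv : Fin h → ℕ) (r : ι → ℕ) : ℕ := rthkdM (rthkgsV qv r)

/-- the level `L` -/
abbrev rthkgsL (N : ℕ) (qv : Fin h → ℕ) : ℕ := N * rthkdM qv

/-- the group `H'` -/
abbrev rthkgsH (p n : ℕ) (qv : Fin h → ℕ) (r : ι → ℕ) : Subgroup (ZMod (rthkgsM qv r))ˣ :=
  rthkdH p (rthkgsV qv r) (rthkgsK h ι (n + 1)) (rthkgsM qv r) (rthkd_dvd_M (rthkgsV qv r))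

variable {p n N : ℕ} {qv : Fin h → ℕ} {r : ι → ℕ}

theorem rthkgs_hp2 (H : RthkgsHyp p n N qv r) : p ≠ 2 := by
  have := H.h5; omega

theorem rthkgs_q_ne_r (H : RthkgsHyp p n N qv r) (j : Fin h) (i : ι) : qv j ≠ r i :=
  fun e => H.qN j (e ▸ H.rN i)

theorem rthkgs_q_ne_p (H : RthkgsHyp p n N qv r) (j : Fin h) : qv j ≠ p := by
  intro e
  have h1 : p ∣ qv j - 1 := dvd_trans (dvd_pow_self p (Nat.succ_ne_zero n)) (H.qp j)
  rw [e] at h1
  have h2 := Nat.le_of_dvd (by have := H.h5; omega) h1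
  have := H.h5
  omega

theorem rthkgs_hv (H : RthkgsHyp p n N qv r) : Function.Injective (rthkgsV qv r) := by
  rintro (a | a) (b | b) e
  · exact congrArg Sum.inl (H.qinj e)
  · exact absurd e (rthkgs_q_ne_r H a b)
  · exact absurd e.symm (rthkgs_q_ne_r H b a)
  · exact congrArg Sum.inr (H.rinj e)

theorem rthkgs_hvp (H : RthkgsHyp p n N qv r) : ∀ x, (rthkgsV qv r x).Prime := by
  rintro (a | a)
  · exact H.qprime a
  · exact H.rprime a

theorem rthkgs_hk (H : RthkgsHyp p n N qv r) :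
    ∀ x, p ^ rthkgsK h ι (n + 1) x ∣ rthkgsV qv r x - 1 := by
  rintro (a | a)
  · exact H.qp a
  · show p ^ 1 ∣ r a - 1
    rw [pow_one]
    exact H.rp a

theorem rthkgs_k_le (x : Fin h ⊕ ι) (n : ℕ) : rthkgsK h ι (n + 1) x ≤ n + 1 := by
  rcases x with a | a
  · exact le_rfl
  · show 1 ≤ n + 1
    omega

theorem rthkgs_k_ne_zero (x : Fin h ⊕ ι) (n : ℕ) : rthkgsK h ι (n + 1) x ≠ 0 := by
  rcases x with a | a
  · exact Nat.succ_ne_zero n
  · exact one_ne_zero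

theorem rthkgs_M_eq (qv : Fin h → ℕ) (r : ι → ℕ) : rthkgsM qv r = rthkdM qv * rthkdM r :=
  rthkdM_sum qv r

theorem rthkgs_M_ne_zero (H : RthkgsHyp p n N qv r) : rthkgsM qv r ≠ 0 :=
  rthkdM_ne_zero _ fun x => (rthkgs_hvp H x).ne_zero

theorem rthkgs_M_dvd_L (H : RthkgsHyp p n N qv r) : rthkgsM qv r ∣ rthkgsL N qv := by
  rw [rthkgs_M_eq, mul_comm]
  exact mul_dvd_mul_right (rthkdM_dvd_of_primes r H.rprime H.rinj H.rN) _

theorem rthkgs_not_dvd_L (H : RthkgsHyp p n N qv r) : ¬ p ∣ rthkgsL N qv := by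
  intro hd
  rcases (Nat.Prime.dvd_mul H.hp).mp hd with h1 | h1
  · exact H.hpN h1
  · unfold rthkdM at h1
    obtain ⟨j, -, hj⟩ := (Prime.dvd_finsetProd_iff H.hp.prime _).mp h1
    exact rthkgs_q_ne_p H j ((Nat.prime_dvd_prime_iff_eq H.hp (H.qprime j)).mp hj).symm

theorem rthkgs_two_le_L (H : RthkgsHyp p n N qv r) : 2 ≤ rthkgsL N qv := by
  have h1 : 1 ≤ rthkdM qv :=
    Nat.one_le_iff_ne_zero.mpr (rthkdM_ne_zero _ fun j => (H.qprime j).ne_zero)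
  calc 2 ≤ N := H.hN
    _ = N * 1 := (mul_one N).symm
    _ ≤ N * rthkdM qv := Nat.mul_le_mul_left N h1

theorem rthkgs_squarefree (H : RthkgsHyp p n N qv r) : Squarefree (rthkgsM qv r) :=
  rthkgb_squarefree (rthkgs_hv H) (rthkgs_hvp H)

/-- **`K7FLevel`** at the Taylor–Wiles level -/
theorem rthkgs_k7fLevel (H : RthkgsHyp p n N qv r) :
    K7FLevel (rthkgsL N qv) (rthkgsM qv r) (rthkgsH p n qv r) p :=
  rthkgb_k7fLevel (rthkgs_two_le_L H) (rthkgs_M_dvd_L H) H.hp (rthkgs_hp2 H)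
    (rthkgs_not_dvd_L H) (Or.inl H.h5) (rthkgs_squarefree H) (rthkgs_hv H) (rthkgs_hvp H)
    (rthkgs_hk H) _

theorem rthkgs_isStarStable (H : RthkgsHyp p n N qv r) {ℓ : ℕ} (hℓ : ℓ.Prime)
    (hℓM : ℓ ∣ rthkgsM qv r) : IsStarStable (rthkgsM qv r) ℓ (rthkgsH p n qv r) :=
  rthkgb_isStarStable H.hp (rthkgs_hp2 H) (rthkgs_hv H) (rthkgs_hvp H) (rthkgs_hk H)
    (rthkgs_M_ne_zero H) _ hℓ hℓM

theorem rthkgs_isTameAt (H : RthkgsHyp p n N qv r) (ℓ : ℕ) :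
    IsTameAt (rthkgsL N qv) (rthkgsM qv r) ℓ (rthkgsH p n qv r) :=
  rthkgb_isTameAt H.hp H.h5 (rthkgs_not_dvd_L H) _ ℓ

theorem rthkgs_pmH (H : RthkgsHyp p n N qv r) :
    pmH (rthkgsH p n qv r) = rthkgsH p n qv r :=
  rthkd_pmH (H.hp.odd_of_ne_two (rthkgs_hp2 H))

/-- the input `hE` of `es1inftw_pkg` for `e = rthkdE p (n + 1)` -/
theorem rthkgs_hE (H : RthkgsHyp p n N qv r) (c : (ZMod (rthkgsM qv r))ˣ) :
    c ^ (2 * rthkdE p (n + 1) - 1) ∈ pmH (rthkgsH p n qv r) :=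
  rthkd_pow_E_mem (H.hp.odd_of_ne_two (rthkgs_hp2 H)) (fun x => rthkgs_k_le x n) c

theorem rthkgs_sum_k (h : ℕ) (ι : Type) [Fintype ι] (n : ℕ) :
    ∑ x, rthkgsK h ι (n + 1) x = h * (n + 1) + Fintype.card ι := by
  rw [Fintype.sum_sum_type]
  simp

theorem rthkgs_index (H : RthkgsHyp p n N qv r) :
    (pmH (rthkgsH p n qv r)).index = p ^ (h * (n + 1) + Fintype.card ι) := by
  rw [← rthkgs_sum_k h ι n]
  exact rthkgb_index H.hp (rthkgs_hp2 H) (rthkgs_hv H) (rthkgs_hvp H) (rthkgs_hk H)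
    (rthkgs_M_ne_zero H) _

theorem rthkgs_freeHyp_index (H : RthkgsHyp p n N qv r) :
    ((pmH (rthkgsH p n qv r)).subgroupOf (pmH ⊤)).index = p ^ (h * (n + 1) + Fintype.card ι) := by
  rw [← rthkgs_sum_k h ι n]
  exact rthkgb_freeHyp_index H.hp (rthkgs_hp2 H) (rthkgs_hv H) (rthkgs_hvp H) (rthkgs_hk H)
    (rthkgs_M_ne_zero H) _

theorem rthkgs_exists_transversal (H : RthkgsHyp p n N qv r) :
    ∃ (m : ℕ) (u : Fin m → (ZMod (rthkgsM qv r))ˣ)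
      (e : Fin m ≃ RthkdDelta (rthkgsM qv r) (rthkgsH p n qv r)),
      m = p ^ (h * (n + 1) + Fintype.card ι) ∧
      (∀ j, e j = QuotientGroup.mk (u j)) ∧ IsTransversal (rthkgsH p n qv r) ⊤ u := by
  obtain ⟨u, e, he, hu⟩ := rthkgb_exists_transversal H.hp (rthkgs_hp2 H) (rthkgs_hv H)
    (rthkgs_hvp H) (rthkgs_hk H) (rthkgs_M_ne_zero H) (rthkd_dvd_M (rthkgsV qv r))
  exact ⟨_, u, e, congrArg (p ^ ·) (rthkgs_sum_k h ι n), he, hu⟩

/-- **`κ_γ`** at the Taylor–Wiles level: for generators `γ` with `γ x ≡ 1` modulo the other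
primes and `γ x` not a `p`-th power modulo `v x`. -/
theorem rthkgs_equiv [DecidableEq (Fin h ⊕ ι)] (H : RthkgsHyp p n N qv r)
    (γ : Fin h ⊕ ι → (ZMod (rthkgsM qv r))ˣ)
    (hγ1 : ∀ x y, y ≠ x → ZMod.unitsMap (rthkd_dvd_M (rthkgsV qv r) y) (γ x) = 1)
    (hγ2 : ∀ x, ¬ ∃ y : (ZMod (rthkgsV qv r x))ˣ,
      y ^ p = ZMod.unitsMap (rthkd_dvd_M (rthkgsV qv r) x) (γ x)) :
    ∃ κγ : RthkdDelta (rthkgsM qv r) (rthkgsH p n qv r) ≃* RthkchGrp p (rthkgsK h ι (n + 1)),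
      (∀ x, κγ (QuotientGroup.mk (γ x)) = Pi.mulSingle x (Multiplicative.ofAdd 1)) ∧
      (∀ (x : Fin h ⊕ ι) (u u' : (ZMod (rthkgsM qv r))ˣ),
        ZMod.unitsMap (rthkd_dvd_M (rthkgsV qv r) x) u
          = ZMod.unitsMap (rthkd_dvd_M (rthkgsV qv r) x) u' →
        κγ (QuotientGroup.mk u) x = κγ (QuotientGroup.mk u') x) :=
  rthkgb_equiv H.hp (rthkgs_hp2 H) (rthkgs_hv H) (rthkgs_hvp H) (rthkgs_hk H)
    (rthkgs_M_ne_zero H) _ γ hγ1 (fun x _ => hγ2 x)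

end Sum

end Fermat.Agent.RT


end ZBRT_042_2

/-! ### bundled: `Fermat.Agent.RT.Hecke.GrpInst` -/
section ZBRT_042_3

/-!
# K-machine, HECKE-asm, HK-GRP: the instance at a `KSetup` and a Taylor–Wiles family

For `Y : KSetup P N q`, `N ≠ 0`, `¬ P.p ∣ N`, `q` prime, `q ∣ N` and a Taylor–Wiles family `qv` of
level `n` for `S = Y.Smin ∪ image Y.r`, with helper9's concrete objects (`RT/Hecke/ConcInst.lean`)
`v = rthkdYv Y qv`, `k = rthkdYk Y (n + 1)` (`= rthkciExp h Y.ι (n + 1)` by `rfl`),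
`M = rthkdYM Y qv`, `L = rthkdYL N qv`, `H' = rthkgiH Y qv n = rthkdH P.p v k M rthkdYv_dvd_M`:

* `rthkgi_hyp` : the arithmetic hypotheses `RthkgsHyp P.p n N qv Y.r` of `RT/Hecke/GrpSum.lean`;
* `rthkgi_k7fLevel`, `rthkgi_isStarStable`, `rthkgi_isTameAt`, `rthkgi_pmH`, `rthkgi_hE`,
  `rthkgi_index`, `rthkgi_freeHyp_index`, `rthkgi_squarefree`, `rthkgi_exists_transversal`;
* `rthkgi_equiv` : `κ_γ : RthkdDelta M H' ≃* RthkchGrp P.p k` normalised at generators `γ`.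
-/

set_option autoImplicit false
set_option linter.unusedSectionVars false
set_option linter.style.haveILetI false

namespace Fermat.Agent.RT

open Fermat.Agent.TW Fermat.Agent.RT.Prod
open Fermat.Agent.ES1 Fermat.Agent.RT.K5 Fermat.Agent.RT.K6 Fermat.Agent.RT.K7F

section Inst

variable {P : FreyPackage} {N q : ℕ} (Y : KSetup P N q) {h : ℕ} (qv : Fin h → ℕ) (n : ℕ)

/-- the group `H'` of the Taylor–Wiles level, in helper9's notation -/
abbrev rthkgiH : Subgroup (ZMod (rthkdYM Y qv))ˣ :=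
  rthkdH P.p (rthkdYv Y qv) (rthkdYk Y (n + 1)) (rthkdYM Y qv) rthkdYv_dvd_M

theorem rthkgiH_eq : rthkgiH Y qv n = rthkgsH P.p n qv Y.r := rfl

variable {Y qv n}

/-- **the arithmetic hypotheses of HK-GRP at a `KSetup`** -/
theorem rthkgi_hyp (hN0 : N ≠ 0) (hpN : ¬ P.p ∣ N) (hq : q.Prime) (hqN : q ∣ N)
    (hTW : IsTWFamily P.p Y.ρbar (Y.Smin ∪ Finset.univ.image Y.r) n h qv) :
    RthkgsHyp P.p n N qv Y.r where
  hp := P.pp
  h5 := P.hp5
  hpN := hpN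
  hN := le_trans hq.two_le (Nat.le_of_dvd (Nat.pos_of_ne_zero hN0) hqN)
  qinj := hTW.1
  qprime := fun j => (hTW.2.1 j).1
  qp := fun j => (hTW.2.1 j).2.2
  qN := fun j hj => by
    have hS := (hTW.2.1 j).2.1
    rw [Finset.mem_union, not_or] at hS
    by_cases h2 : qv j = 2
    · apply hS.1
      rw [Y.hSmin, h2]
      exact Finset.mem_insert_self _ _
    · exact hS.2 ((Y.hr (qv j)).mpr ⟨(hTW.2.1 j).1, h2, hj⟩)
  rinj := Y.r_inj
  rprime := fun i => rthkdY_r_prime i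
  rp := fun i => (Y.hT (Y.r i) (rthkdY_r_mem i)).2.2.1
  rN := fun i => rthkdY_r_dvd i

variable (hN0 : N ≠ 0) (hpN : ¬ P.p ∣ N) (hq : q.Prime) (hqN : q ∣ N)
  (hTW : IsTWFamily P.p Y.ρbar (Y.Smin ∪ Finset.univ.image Y.r) n h qv)

include hN0 hpN hq hqN hTW

theorem rthkgi_squarefree : Squarefree (rthkdYM Y qv) :=
  rthkgs_squarefree (rthkgi_hyp hN0 hpN hq hqN hTW)

/-- **`K7FLevel`** at the Taylor–Wiles level -/
theorem rthkgi_k7fLevel : K7FLevel (rthkdYL N qv) (rthkdYM Y qv) (rthkgiH Y qv n) P.p :=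
  rthkgs_k7fLevel (rthkgi_hyp hN0 hpN hq hqN hTW)

theorem rthkgi_isStarStable {ℓ : ℕ} (hℓ : ℓ.Prime) (hℓM : ℓ ∣ rthkdYM Y qv) :
    IsStarStable (rthkdYM Y qv) ℓ (rthkgiH Y qv n) :=
  rthkgs_isStarStable (rthkgi_hyp hN0 hpN hq hqN hTW) hℓ hℓM

theorem rthkgi_isTameAt (ℓ : ℕ) :
    IsTameAt (rthkdYL N qv) (rthkdYM Y qv) ℓ (rthkgiH Y qv n) :=
  rthkgs_isTameAt (rthkgi_hyp hN0 hpN hq hqN hTW) ℓ

theorem rthkgi_pmH : pmH (rthkgiH Y qv n) = rthkgiH Y qv n :=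
  rthkgs_pmH (rthkgi_hyp hN0 hpN hq hqN hTW)

/-- the input `hE` of `es1inftw_pkg` for `e = rthkdE p (n + 1)` -/
theorem rthkgi_hE (c : (ZMod (rthkdYM Y qv))ˣ) :
    c ^ (2 * rthkdE P.p (n + 1) - 1) ∈ pmH (rthkgiH Y qv n) :=
  rthkgs_hE (rthkgi_hyp hN0 hpN hq hqN hTW) c

theorem rthkgi_index :
    (pmH (rthkgiH Y qv n)).index = P.p ^ (h * (n + 1) + Fintype.card Y.ι) :=
  rthkgs_index (rthkgi_hyp hN0 hpN hq hqN hTW)

theorem rthkgi_freeHyp_index :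
    ((pmH (rthkgiH Y qv n)).subgroupOf (pmH ⊤)).index
      = P.p ^ (h * (n + 1) + Fintype.card Y.ι) :=
  rthkgs_freeHyp_index (rthkgi_hyp hN0 hpN hq hqN hTW)

theorem rthkgi_exists_transversal :
    ∃ (m : ℕ) (u : Fin m → (ZMod (rthkdYM Y qv))ˣ)
      (e : Fin m ≃ RthkdDelta (rthkdYM Y qv) (rthkgiH Y qv n)),
      m = P.p ^ (h * (n + 1) + Fintype.card Y.ι) ∧
      (∀ j, e j = QuotientGroup.mk (u j)) ∧ IsTransversal (rthkgiH Y qv n) ⊤ u :=
  rthkgs_exists_transversal (rthkgi_hyp hN0 hpN hq hqN hTW)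

/-- **`κ_γ`** at the Taylor–Wiles level -/
theorem rthkgi_equiv [DecidableEq (Fin h ⊕ Y.ι)]
    (γ : Fin h ⊕ Y.ι → (ZMod (rthkdYM Y qv))ˣ)
    (hγ1 : ∀ x y, y ≠ x → ZMod.unitsMap (rthkdYv_dvd_M (Y := Y) (qv := qv) y) (γ x) = 1)
    (hγ2 : ∀ x, ¬ ∃ y : (ZMod (rthkdYv Y qv x))ˣ,
      y ^ P.p = ZMod.unitsMap (rthkdYv_dvd_M (Y := Y) (qv := qv) x) (γ x)) :
    ∃ κγ : RthkdDelta (rthkdYM Y qv) (rthkgiH Y qv n) ≃* RthkchGrp P.p (rthkdYk Y (h := h) (n + 1)),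
      (∀ x, κγ (QuotientGroup.mk (γ x)) = Pi.mulSingle x (Multiplicative.ofAdd 1)) ∧
      (∀ (x : Fin h ⊕ Y.ι) (u u' : (ZMod (rthkdYM Y qv))ˣ),
        ZMod.unitsMap (rthkdYv_dvd_M (Y := Y) (qv := qv) x) u
          = ZMod.unitsMap (rthkdYv_dvd_M (Y := Y) (qv := qv) x) u' →
        κγ (QuotientGroup.mk u) x = κγ (QuotientGroup.mk u') x) :=
  rthkgs_equiv (rthkgi_hyp hN0 hpN hq hqN hTW) γ hγ1 hγ2

end Inst

end Fermat.Agent.RT


end ZBRT_042_3
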