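/- GENERATED FILE (helper35, build-time optimisation, NOTES/ZB.md): verbatim concatenation of the modules
   Fermat.Agent.RT.Hecke.GrpPi
   Fermat.Agent.RT.Hecke.ConcTrCyc
   Do not edit; do not import together with these modules. -/
import Mathlib
import Fermat.Agent.ZB.ES1_020
import Fermat.Agent.ZB.TW_001
import Fermat.Agent.ZB.RT_005

/-! ### bundled: `Fermat.Agent.RT.Hecke.GrpPi` -/
section ZBRT_044_0
/-
RT-HECKE / HK-GRP, group theory part (helper27): the surjection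
`π : (ZMod M)ˣ ↠ Δ' = ∀ x, Multiplicative (ZMod (p ^ k x))`.
-/

/-!
# K-machine, HECKE-asm, piece HK-GRP (G1), (G3): the diamond group of level `Q`

Sub-captain helper59.  `p` an odd prime, `κ` a finite index type, `v : κ → ℕ` injective with prime
values, `p ^ k x ∣ v x − 1`, `v x ∣ M`, `M ≠ 0`.

* `rthkgp_exists_local` : for a prime `v` and `m ∣ v − 1` there is a surjective homomorphism
  `(ZMod v)ˣ →* Multiplicative (ZMod m)`;
* `rthkgp_crt` : the Chinese remainder theorem for the units;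
* `rthkgp_sq_eq_one` : no `2`-torsion in `Multiplicative (ZMod n)`, `n` odd.

(HK-GRP itself — the isomorphism `κ_γ : Δ ≃* Δ'` for given generators — is helper8's.)
-/

set_option autoImplicit false

namespace Fermat.Agent.RT

section Local

/-- a cyclic quotient of `(ZMod v)ˣ` for every divisor of `v − 1` -/
theorem rthkgp_exists_local (v : ℕ) (hv : v.Prime) (m : ℕ) (hm : m ∣ v - 1) :
    ∃ φ : (ZMod v)ˣ →* Multiplicative (ZMod m), Function.Surjective φ := by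
  haveI : Fact v.Prime := ⟨hv⟩
  have hcyc : IsCyclic (ZMod v)ˣ := inferInstance
  have hcard : Nat.card (ZMod v)ˣ = v - 1 := by
    rw [Nat.card_eq_fintype_card, ZMod.card_units]
  have hm' : m ∣ Nat.card (ZMod v)ˣ := hcard ▸ hm
  refine ⟨(AddMonoidHom.toMultiplicative
    (ZMod.castHom hm' (ZMod m)).toAddMonoidHom).comp (zmodCyclicMulEquiv hcyc).symm.toMonoidHom,
    ?_⟩
  intro y
  obtain ⟨z, hz⟩ := ZMod.castHom_surjective hm' (Multiplicative.toAdd y)
  refine ⟨zmodCyclicMulEquiv hcyc (Multiplicative.ofAdd z), ?_⟩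
  simp only [MonoidHom.comp_apply, MulEquiv.coe_toMonoidHom, MulEquiv.symm_apply_apply]
  show Multiplicative.ofAdd ((ZMod.castHom hm' (ZMod m)) z) = y
  rw [hz, ofAdd_toAdd]

/-- no `2`-torsion in `Multiplicative (ZMod n)`, `n` odd -/
theorem rthkgp_sq_eq_one {n : ℕ} [NeZero n] (hn : Nat.Coprime 2 n) (a : Multiplicative (ZMod n))
    (ha : a ^ 2 = 1) : a = 1 := by
  have h1 : orderOf a ∣ 2 := orderOf_dvd_of_pow_eq_one ha
  have h2 : orderOf a ∣ n := by
    have := orderOf_dvd_natCard a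
    rwa [Nat.card_eq_fintype_card, Fintype.card_multiplicative, ZMod.card] at this
  have h3 : orderOf a = 1 := Nat.Coprime.eq_one_of_dvd (Nat.Coprime.coprime_dvd_left h1 hn) h2
  exact orderOf_eq_one_iff.mp h3

end Local

section CRT

variable {κ : Type*} [Fintype κ]

/-- the Chinese remainder theorem for the units -/
theorem rthkgp_crt (v : κ → ℕ) (hcop : Pairwise (Function.onFun Nat.Coprime v)) (M : ℕ)
    [NeZero M] (hM : ∀ x, v x ∣ M) (a : ∀ x, (ZMod (v x))ˣ) :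
    ∃ u : (ZMod M)ˣ, ∀ x, ZMod.unitsMap (hM x) u = a x := by
  classical
  have hn : ∏ x, v x ∣ M := by
    have hz : (∏ x, (v x : ℤ)) ∣ (M : ℤ) :=
      Finset.prod_dvd_of_coprime (fun x _ y _ hxy => Nat.isCoprime_iff_coprime.mpr (hcop hxy))
        (fun x _ => Int.natCast_dvd_natCast.mpr (hM x))
    exact_mod_cast hz
  let e : ZMod (∏ x, v x) ≃+* (∀ x, ZMod (v x)) := ZMod.prodEquivPi v hcop
  let b : (∀ x, ZMod (v x))ˣ := MulEquiv.piUnits.symm a
  let c : (ZMod (∏ x, v x))ˣ := Units.mapEquiv e.symm.toMulEquiv b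
  obtain ⟨u, hu⟩ := ZMod.unitsMap_surjective hn c
  refine ⟨u, fun x => Units.ext ?_⟩
  have h1 : e ((ZMod.unitsMap hn u : (ZMod (∏ x, v x))ˣ) : ZMod (∏ x, v x)) x
      = (a x : ZMod (v x)) := by
    rw [hu]
    show e (e.symm (b : ∀ x, ZMod (v x))) x = _
    rw [RingEquiv.apply_symm_apply]
    rfl
  have h2 : ((Pi.evalRingHom (fun x => ZMod (v x)) x).comp
      ((e : ZMod (∏ x, v x) →+* (∀ x, ZMod (v x))).comp (ZMod.castHom hn (ZMod (∏ x, v x)))))
      = ZMod.castHom (hM x) (ZMod (v x)) := Subsingleton.elim _ _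
  have h3 := congrArg (fun f : ZMod M →+* ZMod (v x) => f (u : ZMod M)) h2
  simp only [RingHom.comp_apply, Pi.evalRingHom_apply, RingHom.coe_coe] at h3
  rw [← h1]
  exact h3.symm

end CRT

end Fermat.Agent.RT


end ZBRT_044_0

/-! ### bundled: `Fermat.Agent.RT.Hecke.ConcTrCyc` -/
section ZBRT_044_1

/-!
# K-machine, HECKE-asm, HK-CONC, fields `trT` / `trQ` — parts (P1)–(P3) (helper69)

The cyclotomic images of the inertia elements which give the generators of the diamond group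
`Δ = (ℤ/M)ˣ ⧸ ±H'`.  `r` a prime, `r ∥ M`, `c_M = S42.cycloChar M`.

* `rthkt_cyclo_bridge` : `ExtCitation.cycloChar r = S42.cycloChar r`;
* `rthkt_isAtR_iff`    : `K6.IsAtR M r c ↔ ZMod.unitsMap (M / r ∣ M) c = 1`;
* `rthkt_crt_inj`      : a unit modulo `M` is determined by its images modulo `r` and `M / r`;
* `rthkt_cyc_surj` (P3): every `a ∈ (ℤ/r)ˣ` is the image modulo `r` of `c_M(g)` for some `g` in the
  inertia group at `padicPlace r`;
* `rthkt_cyc_atR`  (P1): `c_M(g)` is "at `r`" for `g` in the inertia group at `padicPlace r`;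
* `rthkt_cyc_all`      : every unit "at `r`" is `c_M(g)` for some `g` in that inertia group;
* `rthkt_cyc_gen`  (P2): for LOC-gen generators `(σ, φ)` at `r` and every homomorphism `f` from
  `(ℤ/M)ˣ` to a group all of whose elements have `p`-power order: `f u ∈ ⟨f (c_M σ)⟩` for every
  unit `u` at `r`;
* `rthkt_cyc_gen_exists` : there is `g` in the inertia group at `padicPlace r` such that every
  unit at `r` is a power of `c_M(g)` (Taylor–Wiles primes);
* `rthkt_cyc_not_pow`, `rthkt_cyc_gen_exists'` : the form (G2) for HK-GRP: `c_M(σ)` modulo `r` is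
  not a `p`-th power (`p ∣ r − 1`); `rthkt_not_pow_pow` : stability under powers prime to `p`;
* `rthkt_gamma1`, `rthkt_gamma2_loc`, `rthkt_gamma2_exists` and **`rthkt_exists_gens`** : the
  family `g : Fin h ⊕ ι → G_ℚ` of inertia elements (`g (inr i) = σ i`) whose cyclotomic images
  `γ x = c_M(g x) ^ e` satisfy the hypotheses `hγ1`, `hγ2` of `rthkg_exists_gen` (HK-GRP).
-/

set_option autoImplicit false
set_option linter.unusedSectionVars false
set_option linter.style.haveILetI false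

noncomputable section

namespace Fermat.Agent.RT

open Fermat.Agent.ES Fermat.Agent.ES1 Fermat.Agent.RT.K6 Fermat.Agent.RT.Prod
  Fermat.Agent.RT.K1 Fermat.Agent.TW.L Fermat.Agent.TW.W

/-- the two mod `r` cyclotomic characters agree -/
theorem rthkt_cyclo_bridge (r : ℕ) [hr : Fact r.Prime] (τ : GQ) :
    ExtCitation.cycloChar r τ
      = (haveI : NeZero r := ⟨hr.out.ne_zero⟩; Fermat.Agent.S42.cycloChar r τ) := by
  haveI : NeZero r := ⟨hr.out.ne_zero⟩
  haveI : NeZero (r : AlgebraicClosure ℚ) := ⟨Nat.cast_ne_zero.mpr hr.out.ne_zero⟩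
  obtain ⟨ζ, hζ⟩ := HasEnoughRootsOfUnity.exists_primitiveRoot (AlgebraicClosure ℚ) r
  exact wstr_cyclo_eq r hζ τ _ (Fermat.Agent.S42.cycloChar_spec r τ hζ)

section crt

variable (M : ℕ) [NeZero M]

/-- the cast of the value is the reduction -/
theorem rthkt_val_cast {d : ℕ} (hd : d ∣ M) (c : (ZMod M)ˣ) :
    ((((c : (ZMod M)ˣ) : ZMod M).val : ℕ) : ZMod d)
      = ((ZMod.unitsMap hd c : (ZMod d)ˣ) : ZMod d) := by
  rw [ZMod.unitsMap_def, Units.coe_map, MonoidHom.coe_coe, ZMod.castHom_apply,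
    ZMod.natCast_val]

/-- `IsAtR` in terms of the reduction modulo `M / r` -/
theorem rthkt_isAtR_iff {r : ℕ} (hrM : r ∣ M) (c : (ZMod M)ˣ) :
    IsAtR M r c ↔ ZMod.unitsMap (Nat.div_dvd_of_dvd hrM) c = 1 := by
  rw [IsAtR, rthkt_val_cast M (Nat.div_dvd_of_dvd hrM) c]
  constructor
  · intro h
    exact Units.ext (by rw [h, Units.val_one])
  · intro h
    rw [h, Units.val_one]

theorem rthkt_isAtR_one {r : ℕ} (hrM : r ∣ M) : IsAtR M r 1 := by
  rw [rthkt_isAtR_iff M hrM, map_one]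

theorem rthkt_isAtR_pow {r : ℕ} (hrM : r ∣ M) {c : (ZMod M)ˣ} (hc : IsAtR M r c) (m : ℕ) :
    IsAtR M r (c ^ m) := by
  rw [rthkt_isAtR_iff M hrM] at hc ⊢
  rw [map_pow, hc, one_pow]

theorem rthkt_isAtR_mul {r : ℕ} (hrM : r ∣ M) {c c' : (ZMod M)ˣ} (hc : IsAtR M r c)
    (hc' : IsAtR M r c') : IsAtR M r (c * c') := by
  rw [rthkt_isAtR_iff M hrM] at hc hc' ⊢
  rw [map_mul, hc, hc', one_mul]

theorem rthkt_isAtR_inv {r : ℕ} (hrM : r ∣ M) {c : (ZMod M)ˣ} (hc : IsAtR M r c) :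
    IsAtR M r c⁻¹ := by
  rw [rthkt_isAtR_iff M hrM] at hc ⊢
  rw [map_inv, hc, inv_one]

/-- a unit modulo `M` is determined by its images modulo `r` and modulo `M / r` (`r ∥ M`) -/
theorem rthkt_crt_inj {r : ℕ} (hr : r.Prime) (hrM : r ∣ M) (hr2 : ¬ r ^ 2 ∣ M)
    (u v : (ZMod M)ˣ) (h1 : ZMod.unitsMap hrM u = ZMod.unitsMap hrM v)
    (h2 : ZMod.unitsMap (Nat.div_dvd_of_dvd hrM) u = ZMod.unitsMap (Nat.div_dvd_of_dvd hrM) v) :
    u = v := by
  apply Units.ext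
  apply ZMod.val_injective M
  have e1 : ((((u : (ZMod M)ˣ) : ZMod M).val : ℕ) : ZMod r)
      = ((((v : (ZMod M)ˣ) : ZMod M).val : ℕ) : ZMod r) := by
    rw [rthkt_val_cast M hrM, rthkt_val_cast M hrM, h1]
  have e2 : ((((u : (ZMod M)ˣ) : ZMod M).val : ℕ) : ZMod (M / r))
      = ((((v : (ZMod M)ˣ) : ZMod M).val : ℕ) : ZMod (M / r)) := by
    rw [rthkt_val_cast M (Nat.div_dvd_of_dvd hrM), rthkt_val_cast M (Nat.div_dvd_of_dvd hrM), h2]
  rw [ZMod.natCast_eq_natCast_iff] at e1 e2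
  have hcop : Nat.Coprime r (M / r) := by
    rw [Nat.Prime.coprime_iff_not_dvd hr]
    intro h
    apply hr2
    obtain ⟨k, hk⟩ := h
    refine ⟨k, ?_⟩
    have := Nat.div_mul_cancel hrM
    rw [hk] at this
    rw [← this]
    ring
  have e3 : (((u : (ZMod M)ˣ) : ZMod M).val) ≡ (((v : (ZMod M)ˣ) : ZMod M).val) [MOD r * (M / r)] :=
    (Nat.modEq_and_modEq_iff_modEq_mul hcop).mp ⟨e1, e2⟩
  rw [Nat.mul_div_cancel' hrM] at e3
  exact Nat.ModEq.eq_of_lt_of_lt e3 (ZMod.val_lt _) (ZMod.val_lt _)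

end crt

section cyc

variable (M : ℕ) [NeZero M] (r : ℕ) [hr : Fact r.Prime]

/-- reduction of `c_M` modulo `r` -/
theorem rthkt_unitsMap_cyclo (hrM : r ∣ M) (g : GQ) :
    ZMod.unitsMap hrM (Fermat.Agent.S42.cycloChar M g)
      = (haveI : NeZero r := ⟨hr.out.ne_zero⟩; Fermat.Agent.S42.cycloChar r g) := by
  haveI : NeZero r := ⟨hr.out.ne_zero⟩
  apply Units.ext
  rw [← rthkt_val_cast M hrM]
  exact es1inftw_cyclo_cast M r hrM g

/-- **(P3)** every unit modulo `r` is the cyclotomic image of an element of the inertia group at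
`padicPlace r`. -/
theorem rthkt_cyc_surj (hrM : r ∣ M) (a : (ZMod r)ˣ) :
    ∃ g ∈ (padicPlace r).inertiaSubgroupIn ℚ,
      ZMod.unitsMap hrM (Fermat.Agent.S42.cycloChar M g) = a := by
  obtain ⟨g, hg, hga⟩ := stmtCycloRamFull r a
  refine ⟨g, hg, ?_⟩
  rw [rthkt_unitsMap_cyclo M r hrM g, ← rthkt_cyclo_bridge r g]
  exact hga

/-- **(P1)** the cyclotomic image of an inertia element at `r` is "at `r`". -/
theorem rthkt_cyc_atR (hrM : r ∣ M) (hr2 : ¬ r ^ 2 ∣ M) (g : GQ)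
    (hg : g ∈ (padicPlace r).inertiaSubgroupIn ℚ) :
    IsAtR M r (Fermat.Agent.S42.cycloChar M g) :=
  (es1inftw_isCycAt M hr.out hrM hr2 (padicPlace r) (lfrobex_liesOverPrime r) g hg).2

/-- every unit "at `r`" is the cyclotomic image of an element of the inertia group at
`padicPlace r` -/
theorem rthkt_cyc_all (hrM : r ∣ M) (hr2 : ¬ r ^ 2 ∣ M) (u : (ZMod M)ˣ) (hu : IsAtR M r u) :
    ∃ g ∈ (padicPlace r).inertiaSubgroupIn ℚ, Fermat.Agent.S42.cycloChar M g = u := by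
  obtain ⟨g, hg, hga⟩ := rthkt_cyc_surj M r hrM (ZMod.unitsMap hrM u)
  refine ⟨g, hg, rthkt_crt_inj M hr.out hrM hr2 _ _ hga ?_⟩
  rw [(rthkt_isAtR_iff M hrM _).mp (rthkt_cyc_atR M r hrM hr2 g hg),
    (rthkt_isAtR_iff M hrM _).mp hu]

/-- `f ∘ c_M` is tame at `r` for every `f` with values in a group whose elements have `p`-power
order -/
theorem rthkt_isTameP (p : ℕ) {Q : Type} [Group Q] (f : (ZMod M)ˣ →* Q)
    (hQ : ∀ x : Q, ∃ k : ℕ, x ^ p ^ k = 1) :
    IsTameP r p (f.comp (Fermat.Agent.S42.cycloChar M)) := by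
  refine ⟨?_, fun τ _ => hQ _⟩
  obtain ⟨E, hE, hfix⟩ := es1top_cycloChar_level M
  refine ⟨E, hE, fun g hg => ?_⟩
  rw [MonoidHom.comp_apply, hfix g hg, map_one]

/-- **(P2)** for LOC-gen generators `(σ, φ)` at `r`: the image of every unit at `r` under a
homomorphism to a group with elements of `p`-power order is a power of the image of `c_M(σ)`. -/
theorem rthkt_cyc_gen {p : ℕ} {σ φ : RtpaG} (hloc : IsLocGenAt p r σ φ) (hrM : r ∣ M)
    (hr2 : ¬ r ^ 2 ∣ M) {Q : Type} [Group Q] (f : (ZMod M)ˣ →* Q)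
    (hQ : ∀ x : Q, ∃ k : ℕ, x ^ p ^ k = 1) (u : (ZMod M)ˣ) (hu : IsAtR M r u) :
    ∃ m : ℕ, f u = f (Fermat.Agent.S42.cycloChar M σ) ^ m := by
  obtain ⟨g, hg, rfl⟩ := rthkt_cyc_all M r hrM hr2 u hu
  exact (hloc.univ Q (f.comp (Fermat.Agent.S42.cycloChar M)) (rthkt_isTameP M r p f hQ)).1 g hg

/-- the cyclotomic image of a LOC-gen generator is at `r` -/
theorem rthkt_cyc_gen_atR {p : ℕ} {σ φ : RtpaG} (hloc : IsLocGenAt p r σ φ) (hrM : r ∣ M)
    (hr2 : ¬ r ^ 2 ∣ M) : IsAtR M r (Fermat.Agent.S42.cycloChar M σ) :=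
  rthkt_cyc_atR M r hrM hr2 σ hloc.inertia

/-- **(P3')** there is an inertia element at `r` whose cyclotomic image generates the units at
`r` (Taylor–Wiles primes). -/
theorem rthkt_cyc_gen_exists (hrM : r ∣ M) (hr2 : ¬ r ^ 2 ∣ M) :
    ∃ g ∈ (padicPlace r).inertiaSubgroupIn ℚ, ∀ u : (ZMod M)ˣ, IsAtR M r u →
      ∃ m : ℕ, u = Fermat.Agent.S42.cycloChar M g ^ m := by
  haveI : NeZero r := ⟨hr.out.ne_zero⟩
  obtain ⟨a, ha⟩ := IsCyclic.exists_monoid_generator (α := (ZMod r)ˣ)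
  obtain ⟨g, hg, hga⟩ := rthkt_cyc_surj M r hrM a
  refine ⟨g, hg, fun u hu => ?_⟩
  obtain ⟨m, hm⟩ := (Submonoid.mem_powers_iff _ _).mp (ha (ZMod.unitsMap hrM u))
  refine ⟨m, rthkt_crt_inj M hr.out hrM hr2 _ _ ?_ ?_⟩
  · rw [map_pow, hga, hm]
  · rw [(rthkt_isAtR_iff M hrM _).mp hu,
      (rthkt_isAtR_iff M hrM _).mp (rthkt_isAtR_pow M hrM (rthkt_cyc_atR M r hrM hr2 g hg) m)]

end cyc

section G2

/-- "not a `p`-th power" is stable under powers prime to `p` -/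
theorem rthkt_not_pow_pow {p : ℕ} {G : Type*} [CommGroup G] {c : G}
    (hc : ¬ ∃ b : G, b ^ p = c) {e : ℕ} (he : Nat.Coprime e p) : ¬ ∃ b : G, b ^ p = c ^ e := by
  rintro ⟨b, hb⟩
  apply hc
  have h1 : (e : ℤ) * Nat.gcdA e p + (p : ℤ) * Nat.gcdB e p = 1 := by
    have := Nat.gcd_eq_gcd_ab e p
    rw [he.gcd_eq_one] at this
    exact_mod_cast this.symm
  refine ⟨b ^ (Nat.gcdA e p) * c ^ (Nat.gcdB e p), ?_⟩
  calc (b ^ (Nat.gcdA e p) * c ^ (Nat.gcdB e p)) ^ p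
      = (b ^ p) ^ (Nat.gcdA e p) * c ^ ((p : ℤ) * Nat.gcdB e p) := by
        rw [mul_pow, ← zpow_natCast (b ^ (Nat.gcdA e p)) p, ← zpow_mul, mul_comm (Nat.gcdA e p),
          zpow_mul, zpow_natCast, ← zpow_natCast (c ^ (Nat.gcdB e p)) p, ← zpow_mul,
          mul_comm (Nat.gcdB e p)]
    _ = c ^ ((e : ℤ) * Nat.gcdA e p) * c ^ ((p : ℤ) * Nat.gcdB e p) := by
        rw [hb, ← zpow_natCast c e, ← zpow_mul]
    _ = c := by rw [← zpow_add, h1, zpow_one]

/-- a generator of a finite commutative group of order divisible by `p` is not a `p`-th power -/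
theorem rthkt_generator_not_pow {p : ℕ} [Fact p.Prime] {G : Type*} [CommGroup G] [Fintype G]
    (hpG : p ∣ Fintype.card G) {a : G} (ha : ∀ x : G, x ∈ Submonoid.powers a) :
    ¬ ∃ b : G, b ^ p = a := by
  rintro ⟨b, hb⟩
  have hsurj : Function.Surjective (fun x : G => x ^ p) := by
    intro x
    obtain ⟨m, hm⟩ := (Submonoid.mem_powers_iff _ _).mp (ha x)
    refine ⟨b ^ m, ?_⟩
    show (b ^ m) ^ p = x
    rw [← pow_mul, mul_comm, pow_mul, hb, hm]
  have hinj : Function.Injective (fun x : G => x ^ p) := Finite.injective_iff_surjective.mpr hsurj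
  obtain ⟨x, hx⟩ := exists_prime_orderOf_dvd_card p hpG
  have hx1 : x ^ p = 1 := by rw [← hx]; exact pow_orderOf_eq_one x
  have hx2 : x = 1 := hinj (by show x ^ p = (1 : G) ^ p; rw [hx1, one_pow])
  rw [hx2, orderOf_one] at hx
  exact (Fact.out : p.Prime).one_lt.ne hx

end G2

section cyc2

variable (M : ℕ) [NeZero M] (r : ℕ) [hr : Fact r.Prime]

/-- **(G2) for LOC-gen generators**: `c_M(σ)` modulo `r` is not a `p`-th power (`p ∣ r − 1`). -/
theorem rthkt_cyc_not_pow {p : ℕ} [hp : Fact p.Prime] {σ φ : RtpaG} (hloc : IsLocGenAt p r σ φ)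
    (hrM : r ∣ M) (hr2 : ¬ r ^ 2 ∣ M) (hpr : p ∣ r - 1) :
    ¬ ∃ b : (ZMod r)ˣ, b ^ p = ZMod.unitsMap hrM (Fermat.Agent.S42.cycloChar M σ) := by
  rintro ⟨b, hb⟩
  haveI : NeZero p := ⟨hp.out.ne_zero⟩
  obtain ⟨φ', hφ'⟩ := rthkgp_exists_local r hr.out p hpr
  have hQ : ∀ x : Multiplicative (ZMod p), ∃ k : ℕ, x ^ p ^ k = 1 := by
    intro x
    refine ⟨1, ?_⟩
    rw [pow_one]
    apply Multiplicative.toAdd.injective
    rw [toAdd_pow, toAdd_one, nsmul_eq_mul, ZMod.natCast_self, zero_mul]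
  have hone : (φ'.comp (ZMod.unitsMap hrM)) (Fermat.Agent.S42.cycloChar M σ) = 1 := by
    rw [MonoidHom.comp_apply, ← hb, map_pow]
    obtain ⟨k, hk⟩ := hQ (φ' b)
    apply Multiplicative.toAdd.injective
    rw [toAdd_pow, toAdd_one, nsmul_eq_mul, ZMod.natCast_self, zero_mul]
  have hall : ∀ y : Multiplicative (ZMod p), y = 1 := by
    intro y
    obtain ⟨a, rfl⟩ := hφ' y
    obtain ⟨g, hg, hga⟩ := rthkt_cyc_surj M r hrM a
    obtain ⟨m, hm⟩ := rthkt_cyc_gen M r hloc hrM hr2 (φ'.comp (ZMod.unitsMap hrM)) hQ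
      (Fermat.Agent.S42.cycloChar M g) (rthkt_cyc_atR M r hrM hr2 g hg)
    rw [hone, one_pow, MonoidHom.comp_apply, hga] at hm
    exact hm
  have h1 := hall (Multiplicative.ofAdd (1 : ZMod p))
  have h2 : (1 : ZMod p) = 0 := congrArg Multiplicative.toAdd h1
  haveI : Fact (1 < p) := ⟨hp.out.one_lt⟩
  exact one_ne_zero h2

/-- **(P3') with (G2)**: there is an inertia element at `r` whose cyclotomic image generates the
units at `r` and is not a `p`-th power modulo `r` (`p ∣ r − 1`). -/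
theorem rthkt_cyc_gen_exists' {p : ℕ} [hp : Fact p.Prime] (hrM : r ∣ M) (hr2 : ¬ r ^ 2 ∣ M)
    (hpr : p ∣ r - 1) :
    ∃ g ∈ (padicPlace r).inertiaSubgroupIn ℚ,
      (∀ u : (ZMod M)ˣ, IsAtR M r u → ∃ m : ℕ, u = Fermat.Agent.S42.cycloChar M g ^ m) ∧
      ¬ ∃ b : (ZMod r)ˣ, b ^ p = ZMod.unitsMap hrM (Fermat.Agent.S42.cycloChar M g) := by
  haveI : NeZero r := ⟨hr.out.ne_zero⟩
  obtain ⟨a, ha⟩ := IsCyclic.exists_monoid_generator (α := (ZMod r)ˣ)
  obtain ⟨g, hg, hga⟩ := rthkt_cyc_surj M r hrM a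
  refine ⟨g, hg, fun u hu => ?_, ?_⟩
  · obtain ⟨m, hm⟩ := (Submonoid.mem_powers_iff _ _).mp (ha (ZMod.unitsMap hrM u))
    refine ⟨m, rthkt_crt_inj M hr.out hrM hr2 _ _ ?_ ?_⟩
    · rw [map_pow, hga, hm]
    · rw [(rthkt_isAtR_iff M hrM _).mp hu,
        (rthkt_isAtR_iff M hrM _).mp
          (rthkt_isAtR_pow M hrM (rthkt_cyc_atR M r hrM hr2 g hg) m)]
  · rw [hga]
    refine rthkt_generator_not_pow ?_ ha
    rw [ZMod.card_units]
    exact hpr

end cyc2

/-! ## the generators of the diamond group, in the form of HK-GRP (`rthkg_exists_gen`) -/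

section gens

variable (M : ℕ) [NeZero M]

/-- **(G1)**: the cyclotomic image of an inertia element at `r` is trivial modulo every prime
`r' ≠ r` of `M`. -/
theorem rthkt_gamma1 {r r' : ℕ} (hr : r.Prime) (hr' : r'.Prime) (hne : r' ≠ r) (hr'M : r' ∣ M)
    (A : ValuationSubring (AlgebraicClosure ℚ)) (hA : A.LiesOverPrime r) (g : GQ)
    (hg : g ∈ A.inertiaSubgroupIn ℚ) (e : ℕ) :
    ZMod.unitsMap hr'M (Fermat.Agent.S42.cycloChar M g ^ e) = 1 := by
  haveI : Fact r'.Prime := ⟨hr'⟩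
  haveI : NeZero r' := ⟨hr'.ne_zero⟩
  have h1 : ¬ r ∣ r' := fun h => hne ((Nat.prime_dvd_prime_iff_eq hr hr').mp h).symm
  rw [map_pow, rthkt_unitsMap_cyclo M r' hr'M g, es1top_cycloChar_inertia r' r hr h1 A hA g hg,
    one_pow]

/-- **(G2) for LOC-gen generators**, with the exponent `e` prime to `p`. -/
theorem rthkt_gamma2_loc {p r : ℕ} [hp : Fact p.Prime] [hr : Fact r.Prime] {σ φ : RtpaG}
    (hloc : IsLocGenAt p r σ φ) (hrM : r ∣ M) (hr2 : ¬ r ^ 2 ∣ M) (hpr : p ∣ r - 1) {e : ℕ}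
    (he : Nat.Coprime e p) :
    ¬ ∃ y : (ZMod r)ˣ, y ^ p = ZMod.unitsMap hrM (Fermat.Agent.S42.cycloChar M σ ^ e) := by
  rw [map_pow]
  exact rthkt_not_pow_pow (rthkt_cyc_not_pow M r hloc hrM hr2 hpr) he

/-- **(G2) at a Taylor–Wiles prime**: an inertia element whose cyclotomic image to the power `e`
is not a `p`-th power. -/
theorem rthkt_gamma2_exists {p r : ℕ} [hp : Fact p.Prime] [hr : Fact r.Prime] (hrM : r ∣ M)
    (hr2 : ¬ r ^ 2 ∣ M) (hpr : p ∣ r - 1) {e : ℕ} (he : Nat.Coprime e p) :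
    ∃ g ∈ (padicPlace r).inertiaSubgroupIn ℚ,
      ¬ ∃ y : (ZMod r)ˣ, y ^ p = ZMod.unitsMap hrM (Fermat.Agent.S42.cycloChar M g ^ e) := by
  obtain ⟨g, hg, -, h2⟩ := rthkt_cyc_gen_exists' M r (p := p) hrM hr2 hpr
  refine ⟨g, hg, ?_⟩
  rw [map_pow]
  exact rthkt_not_pow_pow h2 he

/-- **the generators**: inertia elements `g x` at the primes `v x` (`v = Sum.elim qv r`; the
LOC-gen generators `σ i` at the trivial primes `r i`, chosen elements at the Taylor–Wiles primes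
`qv j`) whose cyclotomic images `γ x = c_M(g x) ^ e` satisfy (G1) and (G2) of HK-GRP. -/
theorem rthkt_exists_gens {p : ℕ} [hp : Fact p.Prime] {ι : Type} (r : ι → ℕ) (σ φ : ι → RtpaG)
    (hr : ∀ i, (r i).Prime) (hloc : ∀ i, ∀ [Fact (r i).Prime], IsLocGenAt p (r i) (σ i) (φ i))
    {h : ℕ} (qv : Fin h → ℕ) (hq : ∀ j, (qv j).Prime)
    (hinj : Function.Injective (Sum.elim qv r))
    (hM : ∀ x, Sum.elim qv r x ∣ M) (hM2 : ∀ x, ¬ (Sum.elim qv r x) ^ 2 ∣ M)
    (hp1 : ∀ x, p ∣ Sum.elim qv r x - 1) (e : ℕ) (he : Nat.Coprime e p) :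
    ∃ g : Fin h ⊕ ι → GQ,
      (∀ i, g (Sum.inr i) = σ i) ∧
      (∀ x, ∃ A : ValuationSubring (AlgebraicClosure ℚ),
        A.LiesOverPrime (Sum.elim qv r x) ∧ g x ∈ A.inertiaSubgroupIn ℚ) ∧
      (∀ x y, y ≠ x → ZMod.unitsMap (hM y) (Fermat.Agent.S42.cycloChar M (g x) ^ e) = 1) ∧
      (∀ x, ¬ ∃ y : (ZMod (Sum.elim qv r x))ˣ,
        y ^ p = ZMod.unitsMap (hM x) (Fermat.Agent.S42.cycloChar M (g x) ^ e)) := by
  have hvp : ∀ x, (Sum.elim qv r x).Prime := by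
    rintro (j | i)
    · exact hq j
    · exact hr i
  have hex : ∀ j : Fin h, ∃ g : GQ,
      (∃ A : ValuationSubring (AlgebraicClosure ℚ),
        A.LiesOverPrime (qv j) ∧ g ∈ A.inertiaSubgroupIn ℚ) ∧
      ¬ ∃ y : (ZMod (qv j))ˣ, y ^ p
        = ZMod.unitsMap (hM (Sum.inl j)) (Fermat.Agent.S42.cycloChar M g ^ e) := by
    intro j
    haveI : Fact (qv j).Prime := ⟨hq j⟩
    obtain ⟨g, hg, h2⟩ := rthkt_gamma2_exists M (p := p) (r := qv j) (hM (Sum.inl j))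
      (hM2 (Sum.inl j)) (hp1 (Sum.inl j)) he
    exact ⟨g, ⟨padicPlace (qv j), lfrobex_liesOverPrime (qv j), hg⟩, h2⟩
  choose gq hgq1 hgq2 using hex
  have hin : ∀ x, ∃ A : ValuationSubring (AlgebraicClosure ℚ),
      A.LiesOverPrime (Sum.elim qv r x) ∧ Sum.elim gq σ x ∈ A.inertiaSubgroupIn ℚ := by
    rintro (j | i)
    · exact hgq1 j
    · haveI : Fact (r i).Prime := ⟨hr i⟩
      exact ⟨padicPlace (r i), lfrobex_liesOverPrime (r i), (hloc i).inertia⟩
  refine ⟨Sum.elim gq σ, fun i => rfl, hin, ?_, ?_⟩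
  · intro x y hyx
    obtain ⟨A, hA, hg⟩ := hin x
    exact rthkt_gamma1 M (hvp x) (hvp y) (fun h => hyx (hinj h)) (hM y) A hA _ hg e
  · rintro (j | i)
    · exact hgq2 j
    · haveI : Fact (r i).Prime := ⟨hr i⟩
      exact rthkt_gamma2_loc M (hloc i) (hM (Sum.inr i)) (hM2 (Sum.inr i)) (hp1 (Sum.inr i)) he

end gens

end Fermat.Agent.RT

end
end ZBRT_044_1
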