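/- GENERATED FILE (helper35, build-time optimisation, NOTES/ZB.md): verbatim concatenation of the modules
   Fermat.Agent.RT.Interp.AbsIrr
   Fermat.Agent.RT.Interp.Quot
   Fermat.Agent.RT.Prod.HaUnit
   Fermat.Agent.RT.Hecke.AbsB
   Fermat.Agent.RT.Hecke.AbsLRes
   Fermat.Agent.RT.Hecke.AbsLFinal
   Fermat.Agent.RT.Hecke.Resid
   Fermat.Agent.RT.Hecke.FinalInst
   Fermat.Agent.RT.Hecke.ConcTop
   Fermat.Agent.RT.Hecke.CharsInst
   Fermat.Agent.RT.Hecke.CharsGrp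
   Fermat.Agent.RT.Hecke.ConcTr
   Fermat.Agent.RT.Hecke.ConcTr5
   Fermat.Agent.RT.Hecke.ConcTrFinal
   Do not edit; do not import together with these modules. -/
import Mathlib
import Fermat.Prelude.Def_GaloisRep_Adic
import Fermat.Agent.ZB.S53_001
import Fermat.Agent.ZB.RT_002
import Fermat.Agent.ZB.RT_003
import Fermat.Agent.ZB.RT_004
import Fermat.Agent.ZB.RT_019
import Fermat.Agent.ZB.RT_020
import Fermat.Agent.ZB.RT_018
import Fermat.Agent.ZB.Common_003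
import Fermat.Agent.ZB.PT_003
import Fermat.Agent.ZB.Cheb_001
import Fermat.Agent.ZB.RT_023
import Fermat.Agent.ZB.S04_001
import Fermat.Agent.ZB.Cheb_002
import Fermat.Agent.ZB.RT_011
import Fermat.Agent.ZB.RT_027
import Fermat.Agent.ZB.RT_042
import Fermat.Agent.ZB.RT_044
import Fermat.Agent.ZB.RT_041
import Fermat.Agent.ZB.ES1_020
import Fermat.Agent.ZB.RT_037

/-! ### bundled: `Fermat.Agent.RT.Interp.AbsIrr` -/
section ZBRT_007_0

/-!
# K-machine, piece INTERP (helper46): absolute irreducibility of the residual representation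
passes to base changes

* `rtint_irr_of_span` : matrices `R g ∈ M_n(A)` spanning `M_n(A)`, `ψ : A → K` a ring
  homomorphism to a field, `c` a basis of a `K`-vector space `V_K`: a subspace of `V_K` stable
  under all `toLin c c ((R g).map ψ)` is `⊥` or `⊤`.
* `rtint_absIrr_baseChangeAlong` : if `ρ.residual` is absolutely irreducible then so is
  `(ρ.baseChangeAlong φ hφ).residual`, for every local homomorphism `φ : A → B` of local rings.
-/

set_option autoImplicit false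

noncomputable section

namespace Fermat.Agent.RT.Interp

open Module

theorem rtint_irr_of_span {A : Type*} [CommRing A] {K : Type*} [Field K] (ψ : A →+* K)
    {n : ℕ} {G : Type*} (R : G → Matrix (Fin n) (Fin n) A)
    (hR : Submodule.span A (Set.range R) = ⊤)
    {VK : Type*} [AddCommGroup VK] [Module K VK] (c : Basis (Fin n) K VK)
    (W : Submodule K VK)
    (hW : ∀ g, ∀ x ∈ W, Matrix.toLin c c ((R g).map ψ) x ∈ W) : W = ⊥ ∨ W = ⊤ := by
  classical
  -- all matrices preserve `W`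
  have hall : ∀ Y : Matrix (Fin n) (Fin n) A, ∀ x ∈ W, Matrix.toLin c c (Y.map ψ) x ∈ W := by
    intro Y
    have hY : Y ∈ Submodule.span A (Set.range R) := hR ▸ Submodule.mem_top
    induction hY using Submodule.span_induction with
    | mem Y hY =>
      obtain ⟨g, rfl⟩ := hY
      exact hW g
    | zero =>
      intro x _
      have : ((0 : Matrix (Fin n) (Fin n) A).map ψ) = 0 := by
        ext i j; simp
      rw [this, map_zero, LinearMap.zero_apply]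
      exact W.zero_mem
    | add Y Z _ _ hY hZ =>
      intro x hx
      have : ((Y + Z).map ψ) = Y.map ψ + Z.map ψ := by
        ext i j; simp
      rw [this, map_add, LinearMap.add_apply]
      exact W.add_mem (hY x hx) (hZ x hx)
    | smul a Y _ hY =>
      intro x hx
      have : ((a • Y).map ψ) = ψ a • Y.map ψ := by
        ext i j; simp
      rw [this, map_smul, LinearMap.smul_apply]
      exact W.smul_mem _ (hY x hx)
  by_cases h0 : W = ⊥
  · exact Or.inl h0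
  right
  obtain ⟨w, hwW, hw0⟩ := (Submodule.ne_bot_iff W).mp h0
  have hex : ∃ i₀, c.repr w i₀ ≠ 0 := by
    by_contra hcon
    push Not at hcon
    apply hw0
    apply c.repr.injective
    ext i
    rw [hcon i, map_zero, Finsupp.zero_apply]
  obtain ⟨i₀, hi₀⟩ := hex
  have hbasis : ∀ j, c j ∈ W := by
    intro j
    have h1 := hall (Matrix.single j i₀ (1 : A)) w hwW
    have h2 : Matrix.toLin c c ((Matrix.single j i₀ (1 : A)).map ψ) w = c.repr w i₀ • c j := by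
      have hm : (Matrix.single j i₀ (1 : A)).map ψ = Matrix.single j i₀ (1 : K) := by
        ext a b
        simp only [Matrix.map_apply, Matrix.single_apply]
        split_ifs <;> simp
      rw [hm]
      conv_lhs => rw [← c.sum_repr w]
      rw [map_sum]
      simp only [map_smul, Matrix.toLin_self, Matrix.single_apply]
      rw [Finset.sum_eq_single i₀]
      · congr 1
        rw [Finset.sum_eq_single j]
        · simp
        · intro b _ hb
          simp [hb.symm]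
        · intro h; exact absurd (Finset.mem_univ j) h
      · intro b _ hb
        have : ∀ x : Fin n, (if j = x ∧ i₀ = b then (1 : K) else 0) = 0 := by
          intro x
          rw [if_neg]
          rintro ⟨-, h⟩
          exact hb h.symm
        simp [this]
      · intro h; exact absurd (Finset.mem_univ i₀) h
    rw [h2] at h1
    have h3 := W.smul_mem (c.repr w i₀)⁻¹ h1
    rwa [smul_smul, inv_mul_cancel₀ hi₀, one_smul] at h3
  rw [eq_top_iff, ← c.span_eq, Submodule.span_le]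
  rintro _ ⟨j, rfl⟩
  exact hbasis j

open scoped TensorProduct

/-- **Absolute irreducibility of the residual representation passes to base changes.** -/
theorem rtint_absIrr_baseChangeAlong {A B : Type} [CommRing A] [IsLocalRing A] [CommRing B]
    [IsLocalRing B] (φ : A →+* B) (hφ : IsLocalHom φ) (ρ : GaloisRepAdic A)
    (habs : ρ.residual.IsAbsolutelyIrreducible) :
    (ρ.baseChangeAlong φ hφ).residual.IsAbsolutelyIrreducible := by
  classical
  let _ : Algebra A B := φ.toAlgebra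
  let b : Basis (Fin 2) A ρ.V := Module.finBasisOfFinrankEq A ρ.V ρ.finrank_eq
  have hspan := Fermat.Agent.S31.span_range_toMatrix_eq_top ρ habs b
  let bB : Basis (Fin 2) B (B ⊗[A] ρ.V) := Algebra.TensorProduct.basis B b
  let bk : Basis (Fin 2) (IsLocalRing.ResidueField B)
      (IsLocalRing.ResidueField B ⊗[B] (B ⊗[A] ρ.V)) :=
    Algebra.TensorProduct.basis (IsLocalRing.ResidueField B) bB
  let bK : Basis (Fin 2) (AlgebraicClosure (IsLocalRing.ResidueField B))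
      (AlgebraicClosure (IsLocalRing.ResidueField B) ⊗[IsLocalRing.ResidueField B]
        (IsLocalRing.ResidueField B ⊗[B] (B ⊗[A] ρ.V))) :=
    Algebra.TensorProduct.basis (AlgebraicClosure (IsLocalRing.ResidueField B)) bk
  let ψ : A →+* AlgebraicClosure (IsLocalRing.ResidueField B) :=
    (algebraMap (IsLocalRing.ResidueField B) (AlgebraicClosure (IsLocalRing.ResidueField B))).comp
      ((algebraMap B (IsLocalRing.ResidueField B)).comp (algebraMap A B))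
  intro W hW
  refine rtint_irr_of_span ψ (fun g => LinearMap.toMatrix b b (ρ.ρ g)) hspan bK W ?_
  intro g x hx
  have key : Matrix.toLin bK bK ((LinearMap.toMatrix b b (ρ.ρ g)).map ψ) =
      ((((ρ.ρ g).baseChange B).baseChange (IsLocalRing.ResidueField B)).baseChange
        (AlgebraicClosure (IsLocalRing.ResidueField B))) := by
    apply (LinearMap.toMatrix bK bK).injective
    rw [LinearMap.toMatrix_toLin, LinearMap.toMatrix_baseChange, LinearMap.toMatrix_baseChange,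
      LinearMap.toMatrix_baseChange]
    ext i j
    simp [ψ]
  rw [key]
  exact hW g x hx

end Fermat.Agent.RT.Interp

end
end ZBRT_007_0

/-! ### bundled: `Fermat.Agent.RT.Interp.Quot` -/
section ZBRT_007_1

/-!
# K-machine, piece INTERP (helper46): the characteristic-zero point `T ⧸ 𝔓`

`rtint_point_of_quot` : ADAPTER.  From a representation `ρ` over a Noetherian local ring `T`
(the base Hecke ring `T₀`) with eigenvalues `a ℓ ∈ T`, and a prime `𝔓` of `T` of residue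
characteristic zero, such that
* `hocc`  : Hecke polynomials outside `S` that kill `S₂(Γ₀(N))` vanish at `a` modulo `𝔓`;
* `hcong` : `a ℓ ≡ a_ℓ(W)` modulo `𝔪_T`;
* `hfrob` : `charpoly ρ(Frob_ℓ) = X² − a_ℓ X + ℓ` (`ℓ ∉ S`);
* `habs`  : `ρ.residual` is absolutely irreducible;
* `hunr`  : for every `n`, inertia at `q` acts trivially modulo `𝔓 + 𝔪_T ^ n`
  (e.g. `ρ(σ_q) ≡ 1 mod 𝔓` for a topological generator `σ_q` of the image of inertia),
an `RtintPoint P N q` with `A = T ⧸ 𝔓`.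

Auxiliary: `rtint_quot_isLocalRing`, `rtint_quot_isLocalHom`, `rtint_quot_charZero`,
`rtint_natCast_not_mem` (from `λ ∉ 𝔓` over a discrete valuation ring of characteristic zero),
`rtint_unram_of_forall_pow` (Krull's intersection theorem).
-/

set_option autoImplicit false
set_option linter.style.haveILetI false
set_option linter.unusedSectionVars false

noncomputable section

namespace Fermat.Agent.RT.Interp

open ModularCurve Fermat.Agent.S31 Fermat.Agent.ES ModularFormClass CongruenceSubgroup Polynomial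
open scoped TensorProduct

section quot

variable {T : Type} [CommRing T] [IsLocalRing T]

theorem rtint_quot_isLocalRing (𝔓 : Ideal T) (h𝔓 : 𝔓 ≠ ⊤) : IsLocalRing (T ⧸ 𝔓) :=
  have : Nontrivial (T ⧸ 𝔓) := Ideal.Quotient.nontrivial_iff.mpr h𝔓
  IsLocalRing.of_surjective' (Ideal.Quotient.mk 𝔓) Ideal.Quotient.mk_surjective

theorem rtint_quot_isLocalHom (𝔓 : Ideal T) (h𝔓 : 𝔓 ≠ ⊤) :
    IsLocalHom (Ideal.Quotient.mk 𝔓) :=
  have : Nontrivial (T ⧸ 𝔓) := Ideal.Quotient.nontrivial_iff.mpr h𝔓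
  IsLocalHom.of_surjective (Ideal.Quotient.mk 𝔓) Ideal.Quotient.mk_surjective

theorem rtint_quot_charZero (𝔓 : Ideal T) (hchar : ∀ n : ℕ, n ≠ 0 → (n : T) ∉ 𝔓) :
    CharZero (T ⧸ 𝔓) := by
  refine charZero_of_inj_zero fun n hn => ?_
  by_contra h0
  apply hchar n h0
  rw [← Ideal.Quotient.eq_zero_iff_mem, map_natCast]
  exact hn

/-- `λ ∉ 𝔓` for a uniformiser `λ` of a discrete valuation ring `O` of characteristic zero gives
residue characteristic zero. -/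
theorem rtint_natCast_not_mem {O : Type*} [CommRing O] [IsDomain O] [IsDiscreteValuationRing O]
    [CharZero O] {T' : Type*} [CommRing T'] [Algebra O T'] (lam : O)
    (hlam : IsLocalRing.maximalIdeal O = Ideal.span {lam})
    (𝔓 : Ideal T') [h𝔓 : 𝔓.IsPrime] (hl : algebraMap O T' lam ∉ 𝔓) (n : ℕ) (hn : n ≠ 0) :
    (n : T') ∉ 𝔓 := by
  have hirr : Irreducible lam :=
    (IsDiscreteValuationRing.irreducible_iff_uniformizer lam).mpr hlam
  have hn0 : (n : O) ≠ 0 := Nat.cast_ne_zero.mpr hn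
  obtain ⟨k, u, hu⟩ := IsDiscreteValuationRing.eq_unit_mul_pow_irreducible hn0 hirr
  intro hmem
  have h1 : (n : T') = algebraMap O T' (u : O) * algebraMap O T' lam ^ k := by
    rw [← map_pow, ← map_mul, ← hu, map_natCast]
  rw [h1] at hmem
  rcases h𝔓.mem_or_mem hmem with h | h
  · exact h𝔓.ne_top (Ideal.eq_top_of_isUnit_mem _ h ((u.isUnit).map (algebraMap O T')))
  · exact hl (h𝔓.mem_of_pow_mem k h)

/-- **Krull**: an endomorphism which is the identity modulo ideals `J n` mapping into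
`𝔪_B ^ n` becomes the identity after base change to `B`. -/
theorem rtint_aux_baseChange_eq_one {T' B : Type*} [CommRing T'] [CommRing B] [Algebra T' B]
    [IsLocalRing B] [IsNoetherianRing B] {V : Type*} [AddCommGroup V] [Module T' V]
    [Module.Finite T' V] (f : V →ₗ[T'] V) (J : ℕ → Ideal T')
    (hJ : ∀ n, ∀ t ∈ J n, algebraMap T' B t ∈ IsLocalRing.maximalIdeal B ^ n)
    (h : ∀ n v, f v - v ∈ J n • (⊤ : Submodule T' V)) : f.baseChange B = 1 := by
  have hzero : ∀ v : V, (1 : B) ⊗ₜ[T'] (f v - v) = 0 := by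
    intro v
    have hkrull := Ideal.iInf_pow_smul_eq_bot_of_isLocalRing (R := B)
      (M := B ⊗[T'] V) (IsLocalRing.maximalIdeal B)
      (Ideal.IsMaximal.ne_top inferInstance)
    have hmem : (1 : B) ⊗ₜ[T'] (f v - v) ∈
        (⨅ i : ℕ, IsLocalRing.maximalIdeal B ^ i • ⊤ : Submodule B (B ⊗[T'] V)) := by
      rw [Submodule.mem_iInf]
      intro n
      refine Submodule.smul_induction_on (p := fun x => (1 : B) ⊗ₜ[T'] x ∈
        (IsLocalRing.maximalIdeal B ^ n) • (⊤ : Submodule B (B ⊗[T'] V))) (h n v) ?_ ?_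
      · intro t ht w _
        have : (1 : B) ⊗ₜ[T'] (t • w) = (algebraMap T' B t) • ((1 : B) ⊗ₜ[T'] w) := by
          rw [TensorProduct.tmul_smul, TensorProduct.smul_tmul', TensorProduct.smul_tmul',
            Algebra.smul_def, smul_eq_mul]
        rw [this]
        exact Submodule.smul_mem_smul (hJ n t ht) Submodule.mem_top
      · intro x y hx hy
        rw [TensorProduct.tmul_add]
        exact Submodule.add_mem _ hx hy
    rw [hkrull] at hmem
    exact (Submodule.mem_bot _).mp hmem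
  refine LinearMap.ext fun w => ?_
  rw [Module.End.one_apply]
  induction w using TensorProduct.induction_on with
  | zero => rw [map_zero]
  | tmul c v =>
    rw [LinearMap.baseChange_tmul, ← sub_eq_zero, ← TensorProduct.tmul_sub]
    have h1 : c ⊗ₜ[T'] (f v - v) = c • ((1 : B) ⊗ₜ[T'] (f v - v)) := by
      rw [TensorProduct.smul_tmul', smul_eq_mul, mul_one]
    rw [h1, hzero v, smul_zero]
  | add x y hx hy => rw [map_add, hx, hy]

/-- **Krull**: inertia acts trivially on the base change to `T ⧸ 𝔓` if it acts trivially modulo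
`𝔓 + 𝔪 ^ n` for every `n`. -/
theorem rtint_unram_of_forall_pow [IsNoetherianRing T] (𝔓 : Ideal T) (h𝔓 : 𝔓 ≠ ⊤)
    (ρ : GaloisRepAdic T) (q : ℕ)
    (hunr : ∀ n : ℕ, ∀ 𝔄 : ValuationSubring (AlgebraicClosure ℚ), 𝔄.LiesOverPrime q →
      ∀ σ ∈ 𝔄.inertiaSubgroupIn ℚ, ∀ v : ρ.V,
        ρ.ρ σ v - v ∈ (𝔓 ⊔ IsLocalRing.maximalIdeal T ^ n) • (⊤ : Submodule T ρ.V)) :
    letI := rtint_quot_isLocalRing 𝔓 h𝔓
    (ρ.baseChangeAlong (Ideal.Quotient.mk 𝔓) (rtint_quot_isLocalHom 𝔓 h𝔓)).IsUnramifiedAt q := by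
  letI := rtint_quot_isLocalRing 𝔓 h𝔓
  have hloc := rtint_quot_isLocalHom 𝔓 h𝔓
  intro 𝔄 h𝔄 σ hσ
  have hmap : ∀ n : ℕ, ∀ t ∈ 𝔓 ⊔ IsLocalRing.maximalIdeal T ^ n,
      Ideal.Quotient.mk 𝔓 t ∈ IsLocalRing.maximalIdeal (T ⧸ 𝔓) ^ n := by
    intro n t ht
    obtain ⟨t₁, ht₁, t₂, ht₂, rfl⟩ := Submodule.mem_sup.mp ht
    rw [map_add, Ideal.Quotient.eq_zero_iff_mem.mpr ht₁, zero_add]
    have h1 : (IsLocalRing.maximalIdeal T ^ n).map (Ideal.Quotient.mk 𝔓) ≤
        IsLocalRing.maximalIdeal (T ⧸ 𝔓) ^ n := by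
      rw [Ideal.map_pow]
      exact Ideal.pow_right_mono (Ideal.map_le_iff_le_comap.mpr fun a ha =>
        Ideal.mem_comap.mpr (map_nonunit (Ideal.Quotient.mk 𝔓) a ha)) n
    exact h1 (Ideal.mem_map_of_mem _ ht₂)
  exact @rtint_aux_baseChange_eq_one T (T ⧸ 𝔓) _ _ (Ideal.Quotient.mk 𝔓).toAlgebra _ _ ρ.V _ _ _
    (ρ.ρ σ) (fun n => 𝔓 ⊔ IsLocalRing.maximalIdeal T ^ n) hmap
    (fun n v => hunr n 𝔄 h𝔄 σ hσ v)

/-- the characteristic polynomial `X² − aX + ℓ` after base change -/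
theorem rtint_aux_charpoly {T' B : Type*} [CommRing T'] [CommRing B] [Algebra T' B]
    {V : Type*} [AddCommGroup V] [Module T' V] [Module.Free T' V] [Module.Finite T' V]
    (f : V →ₗ[T'] V) (a : T') (ℓ : ℕ) (h : f.charpoly = X ^ 2 - C a * X + C (ℓ : T')) :
    (f.baseChange B).charpoly = X ^ 2 - C (algebraMap T' B a) * X + C (ℓ : B) := by
  rw [LinearMap.charpoly_baseChange, h]
  simp

end quot

section adapter

variable {T : Type} [CommRing T] [IsLocalRing T] [IsNoetherianRing T]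

/-- **ADAPTER: the characteristic-zero point `T ⧸ 𝔓`.** -/
theorem rtint_point_of_quot (P : FreyPackage) (N : ℕ) [NeZero N] (q : ℕ)
    (W : WeierstrassCurve ℤ) (hW : W.IsIntegralModelOf P.freyCurve)
    (S : Finset ℕ) (hpS : P.p ∈ S) (hNS : ∀ r : ℕ, r.Prime → r ∣ N → r ∈ S)
    (𝔓 : Ideal T) (h𝔓 : 𝔓.IsPrime) (hchar : ∀ n : ℕ, n ≠ 0 → (n : T) ∉ 𝔓)
    (hpT : (P.p : T) ∈ IsLocalRing.maximalIdeal T)
    (a : Nat.Primes → T)
    (hocc : ∀ t ∈ MvPolynomial.supported ℤ (outsideVars (↑S : Set ℕ)),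
      CuspForm.heckeEvalForms N 2 t = 0 → MvPolynomial.aeval a t ∈ 𝔓)
    (hcong : ∀ ℓ : Nat.Primes, (ℓ : ℕ) ∉ S → W.IsGoodPrimeFor ℓ →
      a ℓ - ((W.apOfModel ℓ : ℤ) : T) ∈ IsLocalRing.maximalIdeal T)
    (ρ : GaloisRepAdic T)
    (hfrob : ∀ ℓ : Nat.Primes, (ℓ : ℕ) ∉ S →
      ∀ 𝔄 : ValuationSubring (AlgebraicClosure ℚ), 𝔄.LiesOverPrime ℓ →
        ∀ σ : AlgebraicClosure ℚ ≃ₐ[ℚ] AlgebraicClosure ℚ, 𝔄.IsFrobeniusAt σ ℓ →
          LinearMap.charpoly (ρ.ρ σ) = X ^ 2 - C (a ℓ) * X + C (((ℓ : ℕ) : T)))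
    (habs : ρ.residual.IsAbsolutelyIrreducible)
    (hunr : ∀ n : ℕ, ∀ 𝔄 : ValuationSubring (AlgebraicClosure ℚ), 𝔄.LiesOverPrime q →
      ∀ σ ∈ 𝔄.inertiaSubgroupIn ℚ, ∀ v : ρ.V,
        ρ.ρ σ v - v ∈ (𝔓 ⊔ IsLocalRing.maximalIdeal T ^ n) • (⊤ : Submodule T ρ.V)) :
    Nonempty (RtintPoint P N q) := by
  classical
  have hne : 𝔓 ≠ ⊤ := h𝔓.ne_top
  letI hlocal : IsLocalRing (T ⧸ 𝔓) := rtint_quot_isLocalRing 𝔓 hne
  have hloc : IsLocalHom (Ideal.Quotient.mk 𝔓) := rtint_quot_isLocalHom 𝔓 hne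
  have hmax : ∀ t ∈ IsLocalRing.maximalIdeal T,
      Ideal.Quotient.mk 𝔓 t ∈ IsLocalRing.maximalIdeal (T ⧸ 𝔓) :=
    fun t ht => map_nonunit (Ideal.Quotient.mk 𝔓) t ht
  have haeval : ∀ t : HeckeAlg, MvPolynomial.aeval (fun ℓ => Ideal.Quotient.mk 𝔓 (a ℓ)) t =
      Ideal.Quotient.mk 𝔓 (MvPolynomial.aeval a t) := by
    intro t
    have := MvPolynomial.comp_aeval (R := ℤ) a ((Ideal.Quotient.mk 𝔓).toIntAlgHom)
    have h2 := congrArg (fun F : HeckeAlg →ₐ[ℤ] (T ⧸ 𝔓) => F t) this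
    exact h2.symm
  exact ⟨{
    W := W
    isModel := hW
    S := S
    p_mem := hpS
    level_mem := hNS
    A := T ⧸ 𝔓
    instCommRing := inferInstance
    instIsLocalRing := hlocal
    instIsDomain := Ideal.Quotient.isDomain 𝔓
    instCharZero := rtint_quot_charZero 𝔓 hchar
    instIsNoetherianRing := inferInstance
    p_mem_max := by
      have := hmax _ hpT
      rwa [map_natCast] at this
    a := fun ℓ => Ideal.Quotient.mk 𝔓 (a ℓ)
    occurs := fun t ht h0 =>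
      (haeval t).trans (Ideal.Quotient.eq_zero_iff_mem.mpr (hocc t ht h0))
    cong := fun ℓ hℓ hgood => by
      have := hmax _ (hcong ℓ hℓ hgood)
      rwa [map_sub, map_intCast] at this
    ρ := ρ.baseChangeAlong (Ideal.Quotient.mk 𝔓) hloc
    charpoly_frob := fun ℓ hℓ 𝔄 h𝔄 σ hσ => by
      have := @rtint_aux_charpoly T (T ⧸ 𝔓) _ _ (Ideal.Quotient.mk 𝔓).toAlgebra ρ.V _ _ _ _
        (ρ.ρ σ) (a ℓ) (ℓ : ℕ) (hfrob ℓ hℓ 𝔄 h𝔄 σ hσ)
      exact this
    absIrr := rtint_absIrr_baseChangeAlong (Ideal.Quotient.mk 𝔓) hloc ρ habs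
    unram := rtint_unram_of_forall_pow 𝔓 hne ρ q hunr }⟩

end adapter

end Fermat.Agent.RT.Interp

end
end ZBRT_007_1

/-! ### bundled: `Fermat.Agent.RT.Prod.HaUnit` -/
section ZBRT_007_2
/-
K-machine, PROD / HECKE-asm, piece HA-unit (helper97).

* `rthu_exists_unit` : **the Taylor–Wiles unit.**  In `Sn = O[[w_1, …, w_m]] ⧸ 𝔪 ^ n`
  (`O` local, `2` a unit, `p ∈ 𝔪_O`) there are `u, v` with `u v = 1`, `u − v = w_i`,
  `u = 1 + w_i (…)`, `u ^ (p ^ n) = 1`, `(u + v)² = w_i² + 4`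
  (`u = w/2 + √(1 + w²/4)`, by Hensel for the nilpotent ideal `(w_i)`).
* `rthu_absIrr_of_isEquiv` : absolute irreducibility passes to every residual representation
  equivalent to a base change.
-/

set_option autoImplicit false
set_option linter.unusedSectionVars false
set_option linter.unusedVariables false
set_option linter.style.haveILetI false

noncomputable section

namespace Fermat.Agent.RT.Prod

open IsLocalRing

/-! ### Hensel for a nilpotent ideal -/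

section nilp

variable {B : Type*} [CommRing B]

/-- a ring is complete for every nilpotent ideal -/
theorem rthu_isAdicComplete_of_pow_eq_bot (I : Ideal B) (n : ℕ) (hI : I ^ n = ⊥) :
    IsAdicComplete I B := by
  have hbot : ∀ k, n ≤ k → (I ^ k • ⊤ : Submodule B B) = ⊥ := by
    intro k hk
    rw [smul_eq_mul, Ideal.mul_top]
    exact le_bot_iff.1 ((Ideal.pow_le_pow_right hk).trans hI.le)
  refine { toIsHausdorff := ⟨fun x hx => ?_⟩, toIsPrecomplete := ⟨fun f hf => ?_⟩ }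
  · have h1 := hx n
    rw [hbot n le_rfl, SModEq.bot] at h1
    exact h1
  · refine ⟨f n, fun k => ?_⟩
    rcases le_total k n with hk | hk
    · exact hf hk
    · have h1 := hf hk
      rw [hbot n le_rfl, SModEq.bot] at h1
      rw [h1]

/-- the quadratic equation `u² − w u − 1 = 0` has a solution `u ≡ 1 mod w`, for `w` nilpotent
and `2` a unit -/
theorem rthu_exists_root (w : B) (n : ℕ) (hw : w ^ n = 0) (h2 : IsUnit (2 : B)) :
    ∃ u b : B, u * (u - w) = 1 ∧ u = 1 + w * b := by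
  open Polynomial in
  classical
  have hI : (Ideal.span {w} : Ideal B) ^ n = ⊥ := by
    rw [Ideal.span_singleton_pow, hw, Ideal.span_singleton_eq_bot]
  haveI : IsAdicComplete (Ideal.span {w} : Ideal B) B :=
    rthu_isAdicComplete_of_pow_eq_bot _ n hI
  have hwI : w ∈ (Ideal.span {w} : Ideal B) := Ideal.mem_span_singleton_self w
  by_cases hB : Nontrivial B
  · have hdeg : (C w * X + 1 : B[X]).degree < ((2 : ℕ) : WithBot ℕ) := by
      have h1 : (C w * X + 1 : B[X]).degree ≤ 1 := by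
        have : (C w * X + 1 : B[X]) = C w * X + C 1 := by rw [map_one]
        rw [this]
        exact degree_linear_le
      exact lt_of_le_of_lt h1 (by norm_num)
    have hmonic : (X ^ 2 - (C w * X + 1) : B[X]).Monic := monic_X_pow_sub hdeg
    have hH := HenselianRing.is_henselian (R := B) (I := Ideal.span {w})
      (X ^ 2 - (C w * X + 1)) hmonic 1
      (by
        simp only [eval_sub, eval_pow, eval_X, eval_add, eval_mul, eval_C, eval_one, one_pow,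
          mul_one]
        have : (1 : B) - (w + 1) = -w := by ring
        rw [this]
        exact (Ideal.neg_mem_iff _).2 hwI)
      (by
        have hd : (derivative (X ^ 2 - (C w * X + 1) : B[X])).eval 1 = 2 - w := by
          simp only [derivative_sub, derivative_X_pow, derivative_add, derivative_mul,
            derivative_C, derivative_X, derivative_one, zero_mul, zero_add, mul_one, add_zero,
            eval_sub, eval_mul, eval_pow, eval_X, eval_C, Nat.cast_ofNat, one_pow]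
        rw [hd, map_sub, Ideal.Quotient.eq_zero_iff_mem.2 hwI, sub_zero]
        exact h2.map _)
    obtain ⟨u, hu, hu1⟩ := hH
    rw [Ideal.mem_span_singleton] at hu1
    obtain ⟨b, hb⟩ := hu1
    refine ⟨u, b, ?_, ?_⟩
    · rw [IsRoot.def] at hu
      simp only [eval_sub, eval_pow, eval_X, eval_add, eval_mul, eval_C, eval_one] at hu
      have : u * (u - w) = (u ^ 2 - (w * u + 1)) + 1 := by ring
      rw [this, hu, zero_add]
    · rw [← hb]
      ring
  · haveI : Subsingleton B := not_nontrivial_iff_subsingleton.1 hB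
    exact ⟨1, 0, Subsingleton.elim _ _, Subsingleton.elim _ _⟩

end nilp

/-! ### The Taylor–Wiles unit -/

section unit

variable {O : Type*} [CommRing O] [IsLocalRing O]

theorem rthu_X_mem (m : ℕ) (i : Fin m) :
    (MvPowerSeries.X i : RttwS O m) ∈ maximalIdeal (RttwS O m) := by
  rw [mem_maximalIdeal, mem_nonunits_iff, MvPowerSeries.isUnit_iff_constantCoeff,
    MvPowerSeries.constantCoeff_X]
  exact not_isUnit_zero

theorem rthu_natCast_mem (m : ℕ) {p : ℕ} (hp : (p : O) ∈ maximalIdeal O) :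
    ((p : ℕ) : RttwS O m) ∈ maximalIdeal (RttwS O m) := by
  rw [mem_maximalIdeal, mem_nonunits_iff, MvPowerSeries.isUnit_iff_constantCoeff, map_natCast]
  exact hp

/-- **The Taylor–Wiles unit** `u = w/2 + √(1 + w²/4)` in `S ⧸ 𝔪 ^ n`. -/
theorem rthu_exists_unit (h2 : IsUnit (2 : O)) (p : ℕ) (hp : (p : O) ∈ maximalIdeal O)
    (m n : ℕ) (i : Fin m) :
    ∃ u v : RttwS O m ⧸ maximalIdeal (RttwS O m) ^ n,
      u * v = 1 ∧
      u - v = Ideal.Quotient.mk (maximalIdeal (RttwS O m) ^ n) (MvPowerSeries.X i) ∧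
      (∃ f : RttwS O m, MvPowerSeries.constantCoeff f = 1 ∧
        u = Ideal.Quotient.mk (maximalIdeal (RttwS O m) ^ n) f) ∧
      u ^ p ^ n = 1 ∧
      (u + v) ^ 2 =
        Ideal.Quotient.mk (maximalIdeal (RttwS O m) ^ n) (MvPowerSeries.X i) ^ 2 + 4 := by
  set π := Ideal.Quotient.mk (maximalIdeal (RttwS O m) ^ n) with hπ
  set w := π (MvPowerSeries.X i) with hw
  have hwn : w ^ n = 0 := by
    rw [hw, ← map_pow]
    exact Ideal.Quotient.eq_zero_iff_mem.2 (Ideal.pow_mem_pow (rthu_X_mem m i) n)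
  have h2' : IsUnit (2 : RttwS O m ⧸ maximalIdeal (RttwS O m) ^ n) := by
    have h3 : IsUnit (π (MvPowerSeries.C (2 : O))) := (h2.map MvPowerSeries.C).map π
    have h4 : π (MvPowerSeries.C (2 : O)) = 2 := by
      rw [map_ofNat, map_ofNat]
    rwa [h4] at h3
  obtain ⟨u, b, hu, hub⟩ := rthu_exists_root w n hwn h2'
  obtain ⟨g, hg⟩ := Ideal.Quotient.mk_surjective b
  refine ⟨u, u - w, hu, by ring, ⟨1 + MvPowerSeries.X i * g, ?_, ?_⟩, ?_, ?_⟩
  · rw [map_add, map_one, map_mul, MvPowerSeries.constantCoeff_X, zero_mul, add_zero]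
  · rw [map_add, map_one, map_mul, hg, hub]
  · -- `u ^ (p ^ n) = 1`
    set J := (maximalIdeal (RttwS O m)).map π with hJ
    have hJn : J ^ n = ⊥ := by
      rw [hJ, ← Ideal.map_pow]
      exact Ideal.map_quotient_self _
    have hpJ : ((p : ℕ) : RttwS O m ⧸ maximalIdeal (RttwS O m) ^ n) ∈ J := by
      have := Ideal.mem_map_of_mem π (rthu_natCast_mem (O := O) m hp)
      rwa [map_natCast] at this
    have haJ : w * b ∈ J :=
      Ideal.mul_mem_right _ _ (Ideal.mem_map_of_mem π (rthu_X_mem m i))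
    have h5 := rtprod_one_add_pow_sub_one_mem J p hpJ haJ n
    have h6 : J ^ (n + 1) ≤ ⊥ := (Ideal.pow_le_pow_right (Nat.le_succ n)).trans hJn.le
    have h7 := h6 h5
    rw [Ideal.mem_bot, sub_eq_zero] at h7
    rw [hub]
    exact h7
  · have : (u + (u - w)) ^ 2 = w ^ 2 + 4 * (u * (u - w)) := by ring
    rw [this, hu, mul_one]

end unit

/-! ### Transport of absolute irreducibility -/

section absIrr

open Module TensorProduct

/-- Burnside, matrix form: the matrices of an absolutely irreducible residual representation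
span all `2 × 2` matrices. -/
theorem rthu_span_toMatrix {k : Type} [Field k] (ρbar : ResidualGaloisRep k)
    (habs : ρbar.IsAbsolutelyIrreducible) (b : Basis (Fin 2) k ρbar.V) :
    Submodule.span k (Set.range fun g : AlgebraicClosure ℚ ≃ₐ[ℚ] AlgebraicClosure ℚ =>
      LinearMap.toMatrix b b (ρbar.ρ g)) = ⊤ := by
  have h := Fermat.Agent.S53.Burnside.span_range_eq_top ρbar habs
  have h1 : (Set.range fun g : AlgebraicClosure ℚ ≃ₐ[ℚ] AlgebraicClosure ℚ =>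
      LinearMap.toMatrix b b (ρbar.ρ g)) =
      ((LinearMap.toMatrix b b : Module.End k ρbar.V ≃ₗ[k] Matrix (Fin 2) (Fin 2) k) :
        Module.End k ρbar.V →ₗ[k] Matrix (Fin 2) (Fin 2) k) '' (Set.range ρbar.ρ) := by
    ext M
    constructor
    · rintro ⟨g, rfl⟩
      exact ⟨ρbar.ρ g, ⟨g, rfl⟩, rfl⟩
    · rintro ⟨_, ⟨g, rfl⟩, rfl⟩
      exact ⟨g, rfl⟩
  rw [h1, Submodule.span_image, h, Submodule.map_top, LinearEquiv.range]

/-- **Absolute irreducibility passes to every residual representation equivalent to a base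
change.** -/
theorem rthu_absIrr_of_isEquiv {k K : Type} [Field k] [Field K] (ι : k →+* K)
    (ρbar : ResidualGaloisRep k) (ρ' : ResidualGaloisRep K)
    (h : ρ'.IsEquiv (ρbar.baseChangeAlong ι)) (habs : ρbar.IsAbsolutelyIrreducible) :
    ρ'.IsAbsolutelyIrreducible := by
  classical
  obtain ⟨e⟩ := h
  letI : Algebra k K := ι.toAlgebra
  let b : Basis (Fin 2) k ρbar.V := Module.finBasisOfFinrankEq k ρbar.V ρbar.finrank_eq
  have hspan := rthu_span_toMatrix ρbar habs b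
  let bK : Basis (Fin 2) K (K ⊗[k] ρbar.V) := Algebra.TensorProduct.basis K b
  let e' : ρ'.V ≃ₗ[K] (K ⊗[k] ρbar.V) := e.toLinearEquiv
  have he' : ∀ (g : AlgebraicClosure ℚ ≃ₐ[ℚ] AlgebraicClosure ℚ) (x : ρ'.V),
      e' (ρ'.ρ g x) = (ρbar.ρ g).baseChange K (e' x) := fun g x => e.map_apply g x
  let b' : Basis (Fin 2) K ρ'.V := bK.map e'.symm
  let c : Basis (Fin 2) (AlgebraicClosure K) (AlgebraicClosure K ⊗[K] ρ'.V) :=
    Algebra.TensorProduct.basis (AlgebraicClosure K) b'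
  let ψ : k →+* AlgebraicClosure K :=
    (algebraMap K (AlgebraicClosure K)).comp (algebraMap k K)
  intro W hW
  refine Fermat.Agent.RT.Interp.rtint_irr_of_span ψ
    (fun g => LinearMap.toMatrix b b (ρbar.ρ g)) hspan c W ?_
  intro g x hx
  have hmat : LinearMap.toMatrix b' b' (ρ'.ρ g) =
      LinearMap.toMatrix bK bK ((ρbar.ρ g).baseChange K) := by
    ext i j
    rw [LinearMap.toMatrix_apply, LinearMap.toMatrix_apply]
    simp only [b', Basis.map_apply, Basis.map_repr, LinearEquiv.symm_symm,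
      LinearEquiv.trans_apply]
    rw [he', LinearEquiv.apply_symm_apply]
  have key : Matrix.toLin c c ((LinearMap.toMatrix b b (ρbar.ρ g)).map ψ) =
      (ρ'.ρ g).baseChange (AlgebraicClosure K) := by
    apply (LinearMap.toMatrix c c).injective
    rw [LinearMap.toMatrix_toLin, LinearMap.toMatrix_baseChange, hmat,
      LinearMap.toMatrix_baseChange]
    ext i j
    simp [ψ]
  rw [key]
  exact hW g x hx

end absIrr

end Fermat.Agent.RT.Prod

end


end ZBRT_007_2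

/-! ### bundled: `Fermat.Agent.RT.Hecke.AbsB` -/
section ZBRT_007_3
/-
RT-HECKE / HK-ABS-B (helper27): the module side of the base gives the Galois side of the base.

`stmtHkAbsB_of : StmtBaseRing → StmtHkAbsB` (`StmtBaseRing` = BASE-AR, `RT/Hecke/AbsBRing.lean`),
`stmtHkAbsB : StmtHkAbsB` (with helper12's `rthk_ar_baseRing`, `RT/Hecke/BaseRing.lean`).
-/

/-!
# K-machine, HECKE-asm, piece HK-ABS-B

* `rthk_b_trace_bc`, `rthk_b_det_bc` : traces and determinants of `ρbar.baseChangeAlong ι`;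
* `rthk_b_irr_of_absIrr`, `rthk_b_irr_bc` : absolutely irreducible ⇒ (every base change is)
  irreducible;
* `rthk_b_det_of_cyc` : the determinant of a residual representation with cyclotomic determinant;
* `rthk_b_det_frob` : `det ρ(Frob_ℓ) = ℓ` for a representation with cyclotomic determinant over a
  separated local ring;
* `rthk_b_out` : the abstract form (`T0`, `j0`, `π`, Artin–Rees given);
* `stmtHkAbsB_of : StmtBaseRing → StmtHkAbsB`.
-/

set_option autoImplicit false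

namespace Fermat.Agent.RT

open IsLocalRing Fermat.Agent.ES Fermat.Agent.S30 Fermat.Agent.W1 Fermat.Agent.TW
open Fermat.Agent.RT.Prod ExtCitation
open WeierstrassCurve WeierstrassCurve.Affine WeierstrassCurve.Affine.Point

section Resid

variable {k K : Type} [Field k] [Field K] (ι : k →+* K) (ρ : ResidualGaloisRep k)

theorem rthk_b_trace_bc (σ : GQ) :
    LinearMap.trace K (ρ.baseChangeAlong ι).V ((ρ.baseChangeAlong ι).ρ σ)
      = ι (LinearMap.trace k ρ.V (ρ.ρ σ)) := by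
  letI : Algebra k K := ι.toAlgebra
  exact LinearMap.trace_baseChange (ρ.ρ σ) K

theorem rthk_b_det_bc (σ : GQ) :
    LinearMap.det ((ρ.baseChangeAlong ι).ρ σ) = ι (LinearMap.det (ρ.ρ σ)) := by
  letI : Algebra k K := ι.toAlgebra
  exact LinearMap.det_baseChange (A := K) (ρ.ρ σ)

/-- absolutely irreducible ⇒ irreducible -/
theorem rthk_b_irr_of_absIrr (habs : ρ.IsAbsolutelyIrreducible) : ρ.IsIrreducible := by
  classical
  let b : Module.Basis (Fin 2) k ρ.V := Module.finBasisOfFinrankEq k ρ.V ρ.finrank_eq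
  have hspan := rthu_span_toMatrix ρ habs b
  intro W hW
  refine Fermat.Agent.RT.Interp.rtint_irr_of_span (RingHom.id k)
    (fun g : AlgebraicClosure ℚ ≃ₐ[ℚ] AlgebraicClosure ℚ => LinearMap.toMatrix b b (ρ.ρ g))
    hspan b W ?_
  intro g x hx
  have e : Matrix.toLin b b ((LinearMap.toMatrix b b (ρ.ρ g)).map (RingHom.id k)) = ρ.ρ g := by
    have e1 : (LinearMap.toMatrix b b (ρ.ρ g)).map (RingHom.id k)
        = LinearMap.toMatrix b b (ρ.ρ g) := by
      ext i j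
      rfl
    rw [e1, Matrix.toLin_toMatrix]
  rw [e]
  exact hW g x hx

/-- absolutely irreducible ⇒ every base change is irreducible -/
theorem rthk_b_irr_bc (habs : ρ.IsAbsolutelyIrreducible) :
    (ρ.baseChangeAlong ι).IsIrreducible :=
  rthk_b_irr_of_absIrr _
    (rthu_absIrr_of_isEquiv ι ρ _ ⟨ResidualGaloisRep.Equiv.refl _⟩ habs)

/-- the determinant of a residual representation with cyclotomic determinant -/
theorem rthk_b_det_of_cyc (p : ℕ)
    (hdet : (GaloisRepAdic.ofResidualGaloisRep ρ).DetIsCyclotomic p) (σ : GQ) (a : ℕ)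
    (h : ∀ μ : AlgebraicClosure ℚ, μ ^ p = 1 → σ μ = μ ^ a) :
    LinearMap.det (ρ.ρ σ) = (a : k) := by
  obtain ⟨h1, h2⟩ := hdet
  have h3 : (p : k) = 0 := by
    by_contra h0
    exact h1 (isUnit_iff_ne_zero.2 h0)
  have h4 := h2 1 σ a (fun μ hμ => h μ (by rwa [pow_one] at hμ))
  rw [pow_one, h3, Ideal.span_singleton_eq_bot.mpr rfl, Ideal.mem_bot, sub_eq_zero] at h4
  exact h4

end Resid

section DetFrob

variable {A : Type} [CommRing A] [IsLocalRing A]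

/-- `det ρ(Frob_ℓ) = ℓ` -/
theorem rthk_b_det_frob [IsHausdorff (maximalIdeal A) A] {p : ℕ} (hp : p.Prime)
    (ρ : GaloisRepAdic A) (hdet : ρ.DetIsCyclotomic p) {ℓ : ℕ} (hℓ : ℓ.Prime) (hℓp : ℓ ≠ p)
    (𝔄 : ValuationSubring (AlgebraicClosure ℚ)) (h𝔄 : 𝔄.LiesOverPrime ℓ) (τ : GQ)
    (hτ : 𝔄.IsFrobeniusAt τ ℓ) : LinearMap.det (ρ.ρ τ) = (ℓ : A) := by
  rw [← sub_eq_zero]
  apply IsHausdorff.haus (I := maximalIdeal A) (M := A) inferInstance
  intro n
  rw [SModEq.sub_mem, sub_zero, smul_eq_mul, Ideal.mul_top]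
  have h1 := hdet.2 n τ ℓ (fun μ hμ =>
    Fermat.Agent.S31.frob_rootOfUnity 𝔄
      (Fermat.Agent.S31.natCast_pow_not_mem_nonunits 𝔄 hp hℓ hℓp h𝔄 n)
      (pow_ne_zero n hp.ne_zero) hτ hμ)
  have h2 : Ideal.span {((p ^ n : ℕ) : A)} ≤ maximalIdeal A ^ n := by
    rw [Ideal.span_singleton_le_iff_mem, Nat.cast_pow]
    exact Ideal.pow_mem_pow hdet.1 n
  exact h2 h1

end DetFrob

section Out

variable {P : FreyPackage} {N q : ℕ} [NeZero N] (Y : KSetup P N q)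

/-- **HK-ABS-B, abstract form**: the base Hecke ring `T0 ⊆ M_d(𝒪)` (commutative, local, finite
over `𝒪`) with `π : 𝕋 → T0`, `j0 ∘ π = Φ0` and the Artin–Rees property for `p` being given. -/
theorem rthk_b_out (hcheb : Cheb.WeakChebotarev) (d : ℕ) (hd : 0 < d) (σ₀ τ₀ : GQ)
    (hξ : rtk7Xi (fun g => LinearMap.trace (ResidueField Y.O) Y.ρbar.V (Y.ρbar.ρ g))
      complexConjugation (residue Y.O Y.half) σ₀ τ₀ ≠ 0)
    (S' : Finset ℕ) (hpS' : P.p ∈ S') (hNS' : ∀ ℓ : ℕ, ℓ.Prime → ℓ ∣ N → ℓ ∈ S')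
    (𝕋 : Type) [CommRing 𝕋] (J : Type) [AddCommGroup J] [Module 𝕋 J]
    [DistribMulAction GQ J] (Tr : ℕ → 𝕋) (Φ0 : 𝕋 →+* Matrix (Fin d) (Fin d) Y.O)
    [Fact P.p.Prime] (hB : HkBase P.p Y.ρbar N S' d J Tr Φ0)
    (T0 : Type) [CommRing T0] [IsLocalRing T0] [Algebra Y.O T0] [Module.Finite Y.O T0]
    (j0 : T0 →ₐ[Y.O] Matrix (Fin d) (Fin d) Y.O) (hj0 : Function.Injective j0)
    (π : 𝕋 →+* T0) (hπ : ∀ x, j0 (π x) = Φ0 x)
    (hAR : ∀ k : ℕ, ∃ n : ℕ, ∀ x : T0,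
      (∀ i j, j0 x i j ∈ Ideal.span {(P.p : Y.O) ^ n}) → x ∈ Ideal.span {(P.p : T0) ^ k}) :
    Nonempty (HkBaseOut Y d σ₀ τ₀ S' (fun ℓ => Φ0 (Tr ℓ))) := by
  classical
  have hpp : P.p.Prime := P.pp
  -- the ring theory of `T0`
  haveI hloc : IsLocalHom (algebraMap Y.O T0) := rthk_b_isLocalHom j0 hd
  haveI hnoeth : IsNoetherianRing T0 := rthk_b_isNoetherianRing (O := Y.O)
  haveI hcomp : IsAdicComplete (maximalIdeal T0) T0 := rthk_b_isAdicComplete j0 hj0 hd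
  haveI hfinres : Finite (ResidueField T0) := rthk_b_finite_residueField (O := Y.O)
  have hpT : (P.p : T0) ∈ maximalIdeal T0 := rthk_b_natCast_mem j0 hd Y.hyp.hp𝒪
  -- the residue field
  let ι0 : ResidueField Y.O →+* ResidueField T0 := ResidueField.map (algebraMap Y.O T0)
  have hι0 : ∀ x : Y.O, ι0 (residue Y.O x) = residue T0 (algebraMap Y.O T0 x) := fun x => rfl
  -- `1/2`
  have hi2 : 2 * algebraMap Y.O T0 Y.half = 1 := by
    have h := congrArg (algebraMap Y.O T0) Y.two_mul_half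
    rw [map_mul, map_ofNat, map_one] at h
    exact h
  -- faithfulness
  have hfaith : ∀ k : ℕ, ∃ n : ℕ, k ≤ n ∧ Rtk7bGood P.p J (⊤ : Subring 𝕋) π k n := by
    intro k
    obtain ⟨n₁, hn₁⟩ := hAR k
    obtain ⟨n₀, hn₀⟩ := hB.faith n₁
    refine ⟨max k n₀, le_max_left _ _, fun h _ hkill => hn₁ (π h) fun i j => ?_⟩
    rw [hπ]
    exact hn₀ h (fun y hy => hkill y (rtk7b_tors_le (le_max_right k n₀) hy)) i j
  -- the residual representation over the residue field of `T0`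
  have hirr : (Y.ρbar.baseChangeAlong ι0).IsIrreducible := rthk_b_irr_bc ι0 Y.ρbar Y.hyp.habs
  have hdetbar : ∀ (σ : GQ) (a : ℕ), (∀ μ : AlgebraicClosure ℚ, μ ^ P.p = 1 → σ μ = μ ^ a) →
      LinearMap.det ((Y.ρbar.baseChangeAlong ι0).ρ σ) = (a : ResidueField T0) := by
    intro σ a h
    rw [rthk_b_det_bc, rthk_b_det_of_cyc Y.ρbar P.p Y.hyp.hdet σ a h, map_natCast]
  have hfrobbar : ∀ ℓ : ℕ, ℓ.Prime → ℓ ∉ S' →
      ∀ 𝔄 : ValuationSubring (AlgebraicClosure ℚ), 𝔄.LiesOverPrime ℓ →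
        ∀ τ : GQ, 𝔄.IsFrobeniusAt τ ℓ →
          residue T0 (π (Tr ℓ)) = LinearMap.trace (ResidueField T0)
            (Y.ρbar.baseChangeAlong ι0).V ((Y.ρbar.baseChangeAlong ι0).ρ τ) := by
    intro ℓ hℓ hℓS 𝔄 h𝔄 τ hτ
    obtain ⟨c, e, hc, hce⟩ := hB.resid ℓ hℓ hℓS 𝔄 h𝔄 τ hτ
    have h1 : π (Tr ℓ) - algebraMap Y.O T0 c ∈ maximalIdeal T0 := by
      refine rthk_b_mem_maximalIdeal j0 hd (e := e) fun i j => ?_
      rw [map_sub, hπ, AlgHom.commutes]
      exact hce i j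
    have h2 := (residue_eq_zero_iff _).mpr h1
    rw [map_sub, sub_eq_zero] at h2
    rw [h2, ← hι0, hc, rthk_b_trace_bc]
  have hξ' : rtk7Xi (fun g => LinearMap.trace (ResidueField T0)
      (Y.ρbar.baseChangeAlong ι0).V ((Y.ρbar.baseChangeAlong ι0).ρ g)) complexConjugation
      (residue T0 (algebraMap Y.O T0 Y.half)) σ₀ τ₀ ≠ 0 := by
    have e1 : (fun g => LinearMap.trace (ResidueField T0)
        (Y.ρbar.baseChangeAlong ι0).V ((Y.ρbar.baseChangeAlong ι0).ρ g))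
        = fun g => ι0 (LinearMap.trace (ResidueField Y.O) Y.ρbar.V (Y.ρbar.ρ g)) :=
      funext fun g => rthk_b_trace_bc ι0 Y.ρbar g
    rw [e1, ← hι0, ← rtk7m_map_Xi ι0]
    exact (map_ne_zero ι0).mpr hξ
  -- K7-MAIN
  obtain ⟨t, u, ρ, b, hu, hmat, htr, htfrob, -, httr, hdetcyc, -, -, -, hresid⟩ :=
    stmtK7MainAdic hcheb P.p N Y.hyp.hp2 𝕋 J Tr hB.pkg S' hB.primes (⊤ : Subring 𝕋)
      (fun _ _ _ => Subring.mem_top _) hB.model T0 hpT (algebraMap Y.O T0 Y.half) hi2 π hfaith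
      (Y.ρbar.baseChangeAlong ι0) hirr hdetbar hfrobbar σ₀ τ₀ hξ'
  have htfun : (fun g => LinearMap.trace T0 ρ.V (ρ.ρ g)) = t := funext htr
  refine ⟨{
    T0 := T0
    j0 := j0
    hj0 := hj0
    ρ0 := ρ
    b0 := b
    hdet0 := hdetcyc
    ι0 := ι0
    hres0 := hresid
    habs0 := rthu_absIrr_of_isEquiv ι0 Y.ρbar ρ.residual hresid Y.hyp.habs
    hpS' := hpS'
    hNS' := hNS'
    a := fun ℓ => π (Tr (ℓ : ℕ))
    hocc := ?_
    hcong := ?_
    hfrob := ?_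
    u0 := u
    hu0 := ?_
    hmat := ?_
    ha0 := fun ℓ _ => hπ _ }⟩
  · -- hocc
    intro f hf hf0
    have h1 := hB.occ f hf hf0
    have h2 : MvPolynomial.aeval (fun ℓ : Nat.Primes => π (Tr (ℓ : ℕ))) f
        = π (MvPolynomial.aeval (fun ℓ : Nat.Primes => Tr (ℓ : ℕ)) f) :=
      (MvPolynomial.comp_aeval_apply (fun ℓ : Nat.Primes => Tr (ℓ : ℕ)) π.toIntAlgHom f).symm
    rw [h2]
    apply hj0
    rw [hπ, h1, _root_.map_zero]
  · -- hcong
    intro ℓ hℓS hgood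
    have hℓ : (ℓ : ℕ).Prime := ℓ.2
    have hℓp : (ℓ : ℕ) ≠ P.p := fun h => hℓS (h ▸ hpS')
    obtain ⟨𝔄, τ, h𝔄, hτ⟩ := Fermat.Agent.Common.exists_isFrobeniusAt (ℓ : ℕ) hℓ
    have h1 := httr τ
    rw [htfrob ℓ hℓ hℓS 𝔄 h𝔄 τ hτ, rthk_b_trace_bc,
      Fermat.Agent.S31.trace_of_charpoly Y.ρbar.finrank_eq (Y.ρbar.ρ τ) _ _
        (Y.hbar ℓ hℓ hℓp hgood 𝔄 h𝔄 τ hτ), map_intCast] at h1
    rw [← residue_eq_zero_iff, map_sub, h1, map_intCast, sub_self]
  · -- hfrob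
    intro ℓ hℓS 𝔄 h𝔄 τ hτ
    have hℓ : (ℓ : ℕ).Prime := ℓ.2
    have hℓp : (ℓ : ℕ) ≠ P.p := fun h => hℓS (h ▸ hpS')
    rw [Fermat.Agent.S34.charpoly_eq_of_finrank_two ρ.finrank_eq (ρ.ρ τ), htr,
      htfrob ℓ hℓ hℓS 𝔄 h𝔄 τ hτ, rthk_b_det_frob hpp ρ hdetcyc hℓ hℓp 𝔄 h𝔄 τ hτ]
  · -- hu0
    rw [htfun]
    exact hu
  · -- hmat
    intro g
    rw [htfun]
    exact hmat g

end Out

/-- **HK-ABS-B** from BASE-AR. -/
theorem stmtHkAbsB_of (hBR : StmtBaseRing) : StmtHkAbsB := by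
  intro hcheb P N q _ Y d hd σ₀ τ₀ hξ S' hpS' hNS' 𝕋 _ J _ _ _ Tr Φ0
  intro hB
  haveI : Fact P.p.Prime := ⟨P.pp⟩
  have hp0 : (P.p : Y.O) ≠ 0 := Nat.cast_ne_zero.mpr P.pp.ne_zero
  obtain ⟨T0, i1, i2, i3, i4, j0, π, hj0, hπ, hAR⟩ := hBR Y.O d hd 𝕋 Φ0 hB.nil (P.p : Y.O) hp0
  refine rthk_b_out Y hcheb d hd σ₀ τ₀ hξ S' hpS' hNS' 𝕋 J Tr Φ0 hB T0 j0 hj0 π hπ ?_
  intro k
  obtain ⟨n, hn⟩ := hAR k
  refine ⟨n, fun x hx => ?_⟩
  have := hn x hx
  rwa [map_natCast] at this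

/-- **HK-ABS-B** (unconditional; BASE-AR = helper12's `rthk_ar_baseRing`). -/
theorem stmtHkAbsB : StmtHkAbsB := stmtHkAbsB_of rthk_ar_baseRing

end Fermat.Agent.RT


end ZBRT_007_3

/-! ### bundled: `Fermat.Agent.RT.Hecke.AbsLRes` -/
section ZBRT_007_4

/-!
# K-machine, HECKE-asm, HK-ABS-L, piece HK-L-RES (helper22)

`stmtHkLRes : StmtHkLRes` : the base change `ρbar.baseChangeAlong ι` of a residual representation
along a homomorphism of fields `ι : k →+* K` is irreducible if `ρbar` is absolutely irreducible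
(Burnside: the matrices of `ρbar` span `M₂(k)`, hence their images span `M₂(K)`), and its trace,
determinant and characteristic polynomial are the images under `ι`.
-/

set_option autoImplicit false
set_option linter.style.haveILetI false

namespace Fermat.Agent.RT

open IsLocalRing Fermat.Agent.ES

open Module TensorProduct

/-- Burnside, matrix form: the matrices of an absolutely irreducible residual representation
span all `2 × 2` matrices. -/
theorem rthklr_span_toMatrix {k : Type} [Field k] (ρbar : ResidualGaloisRep k)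
    (habs : ρbar.IsAbsolutelyIrreducible) (b : Basis (Fin 2) k ρbar.V) :
    Submodule.span k (Set.range fun g : AlgebraicClosure ℚ ≃ₐ[ℚ] AlgebraicClosure ℚ =>
      LinearMap.toMatrix b b (ρbar.ρ g)) = ⊤ := by
  have h := Fermat.Agent.S53.Burnside.span_range_eq_top ρbar habs
  have h1 : (Set.range fun g : AlgebraicClosure ℚ ≃ₐ[ℚ] AlgebraicClosure ℚ =>
      LinearMap.toMatrix b b (ρbar.ρ g)) =
      ((LinearMap.toMatrix b b : Module.End k ρbar.V ≃ₗ[k] Matrix (Fin 2) (Fin 2) k) :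
        Module.End k ρbar.V →ₗ[k] Matrix (Fin 2) (Fin 2) k) '' (Set.range ρbar.ρ) := by
    ext M
    constructor
    · rintro ⟨g, rfl⟩
      exact ⟨ρbar.ρ g, ⟨g, rfl⟩, rfl⟩
    · rintro ⟨_, ⟨g, rfl⟩, rfl⟩
      exact ⟨g, rfl⟩
  rw [h1, Submodule.span_image, h, Submodule.map_top, LinearEquiv.range]

/-- **HK-L-RES.** -/
theorem stmtHkLRes : StmtHkLRes := by
  intro k K _ _ ι ρbar
  letI : Algebra k K := ι.toAlgebra
  refine ⟨fun habs => ?_, fun g => ?_, fun g => ?_, fun g => ?_⟩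
  · classical
    let b : Basis (Fin 2) k ρbar.V := Module.finBasisOfFinrankEq k ρbar.V ρbar.finrank_eq
    have hspan := rthklr_span_toMatrix ρbar habs b
    let bK : Basis (Fin 2) K (K ⊗[k] ρbar.V) := Algebra.TensorProduct.basis K b
    intro W hW
    refine Fermat.Agent.RT.Interp.rtint_irr_of_span ι
      (fun g => LinearMap.toMatrix b b (ρbar.ρ g)) hspan bK W ?_
    intro g x hx
    have key : Matrix.toLin bK bK ((LinearMap.toMatrix b b (ρbar.ρ g)).map ι) =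
        (ρbar.ρ g).baseChange K := by
      apply (LinearMap.toMatrix bK bK).injective
      rw [LinearMap.toMatrix_toLin, LinearMap.toMatrix_baseChange]
      rfl
    rw [key]
    exact hW g x hx
  · show LinearMap.trace K _ ((ρbar.ρ g).baseChange K) = _
    rw [LinearMap.trace_baseChange]
    rfl
  · show LinearMap.det ((ρbar.ρ g).baseChange K) = _
    rw [LinearMap.det_baseChange]
    rfl
  · show LinearMap.charpoly ((ρbar.ρ g).baseChange K) = _
    rw [LinearMap.charpoly_baseChange]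
    rfl

end Fermat.Agent.RT


end ZBRT_007_4

/-! ### bundled: `Fermat.Agent.RT.Hecke.AbsLFinal` -/
section ZBRT_007_5

/-!
# K-machine, HECKE-asm, piece HK-ABS-L: the unconditional form

`stmtHkAbsL : StmtHkAbsL` (`RT/Hecke/Plan.lean`): the module side at level `n` (`HkLevel`) gives
the Galois side at level `n` (`HkOut`).  Assembly: `RT/Hecke/AbsL.lean` (helper46); sub-pieces:
`RT/Hecke/AbsLRes.lean` (helper22), `RT/Hecke/AbsLSmall.lean` (helper15).
Consumers discharge weak Chebotarev with `Cheb.weakChebotarev_holds` (`Cheb/Final.lean`).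
-/

set_option autoImplicit false

namespace Fermat.Agent.RT

/-- **HK-ABS-L.** -/
theorem stmtHkAbsL : StmtHkAbsL := stmtHkAbsL_of_res stmtHkLRes

end Fermat.Agent.RT


end ZBRT_007_5

/-! ### bundled: `Fermat.Agent.RT.Hecke.Resid` -/
section ZBRT_007_6
/-
K-machine, HECKE-asm, piece HK-RES (helper97): the residual inputs of HECKE-asm from a
`KSetup` (`RT/Prod/FinalPlan.lean`).

For `Y : KSetup P N q`, `k = ResidueField Y.O`, `c = complexConjugation`:
* (R1) `rthk_r_base`      : a base point `σ₀, τ₀` with `ξ(σ₀, τ₀) ≠ 0`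
                            (also after base change: `rthk_r_base_bc`);
* (R2) `rthk_r_unip`      : `ρbar` is unipotent on the inertia groups at `2` (field `hunip2`),
       `rthk_r_unipSmin`  : the hypothesis on `Smin` of `StmtHkAbsL` / K7-U2;
* (R3) `rthk_r_det`, `rthk_r_irr`, `rthk_r_irr_bc`, `rthk_r_det_bc` : determinant and
       irreducibility in the form of `StmtK7Main`;
* (R4) `rthk_r_nonEis`    : for every finite `S` there is a prime `ℓ₀ ∉ S` with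
                            `tr ρbar(Frob) ≠ ℓ₀ + 1` for all Frobenius elements at `ℓ₀`.
General forms (any residual representation over a field): `rthkr_*`.
-/

set_option autoImplicit false
set_option linter.unusedSectionVars false
set_option linter.unusedVariables false
set_option linter.style.haveILetI false

noncomputable section

namespace Fermat.Agent.RT

open IsLocalRing Polynomial Fermat.Agent.S36 Fermat.Agent.RT.Prod Fermat.Agent.ES

/-! ### General forms -/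

section general

variable {k : Type} [Field k] (ρbar : ResidualGaloisRep k) (p : ℕ) [hp : Fact p.Prime]

/-- Cayley–Hamilton for an invertible `2 × 2` matrix (copy of `rtk7g_ch_mat`, `RT/K7/GRA.lean`,
to keep the imports light). -/
theorem rthkr_ch_mat (M M' : Matrix (Fin 2) (Fin 2) k) (h : M * M' = 1) :
    M + M.det • M' = M.trace • (1 : Matrix (Fin 2) (Fin 2) k) := by
  have h1 : M.adjugate = M.det • M' := by
    calc M.adjugate = M.adjugate * (M * M') := by rw [h, mul_one]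
      _ = (M.adjugate * M) * M' := by rw [mul_assoc]
      _ = M.det • M' := by rw [Matrix.adjugate_mul, Matrix.smul_mul, one_mul]
  rw [← h1, Matrix.adjugate_fin_two]
  ext i j
  fin_cases i <;> fin_cases j <;>
    simp [Matrix.trace_fin_two] <;> ring

/-- Cayley–Hamilton for an invertible endomorphism of a plane. -/
theorem rthkr_ch_end {V : Type*} [AddCommGroup V] [Module k V]
    (hV : Module.finrank k V = 2) (f f' : Module.End k V) (h : f * f' = 1) :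
    f + LinearMap.det f • f' = LinearMap.trace k V f • (1 : Module.End k V) := by
  have : Module.Finite k V := Module.finite_of_finrank_eq_succ hV
  let b : Module.Basis (Fin 2) k V := Module.finBasisOfFinrankEq k V hV
  apply (LinearMap.toMatrixAlgEquiv b).injective
  rw [map_add, map_smul, map_smul, map_one]
  have hM : LinearMap.toMatrixAlgEquiv b f * LinearMap.toMatrixAlgEquiv b f' = 1 := by
    rw [← map_mul, h, map_one]
  have e := rthkr_ch_mat _ _ hM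
  have e1 : (LinearMap.toMatrixAlgEquiv b f).det = LinearMap.det f :=
    LinearMap.det_toMatrix b f
  have e2 : (LinearMap.toMatrixAlgEquiv b f).trace = LinearMap.trace k V f :=
    (LinearMap.trace_eq_matrix_trace k b f).symm
  rw [e1, e2] at e
  exact e

/-- `p = 0` in `k` -/
theorem rthkr_p_eq_zero
    (hdet : (GaloisRepAdic.ofResidualGaloisRep ρbar).DetIsCyclotomic p) : (p : k) = 0 := by
  by_contra h0
  exact hdet.1 (isUnit_iff_ne_zero.2 h0)

/-- **(R3)** the determinant is the cyclotomic character modulo `p` -/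
theorem rthkr_det (hdet : (GaloisRepAdic.ofResidualGaloisRep ρbar).DetIsCyclotomic p)
    (s : GQ) (a : ℕ) (h : ∀ μ : AlgebraicClosure ℚ, μ ^ p = 1 → s μ = μ ^ a) :
    LinearMap.det (ρbar.ρ s) = (a : k) := by
  have h1 := hdet.2 1 s a (fun μ hμ => h μ (by rwa [pow_one] at hμ))
  rw [pow_one, rthkr_p_eq_zero ρbar p hdet, Ideal.span_singleton_eq_bot.2 rfl, Ideal.mem_bot,
    sub_eq_zero] at h1
  exact h1

/-- `det ρbar(c) = -1` -/
theorem rthkr_det_conj (hdet : (GaloisRepAdic.ofResidualGaloisRep ρbar).DetIsCyclotomic p) :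
    LinearMap.det (ρbar.ρ complexConjugation) = -1 := by
  have h := rthkr_det ρbar p hdet complexConjugation (p - 1) (fun μ hμ => by
    rw [Fermat.Agent.S30.complexConj_root p μ hp.out.ne_zero hμ]
    apply inv_eq_of_mul_eq_one_right
    rw [← pow_succ', Nat.sub_add_cancel hp.out.one_le, hμ])
  rw [h, Nat.cast_sub hp.out.one_le, rthkr_p_eq_zero ρbar p hdet, Nat.cast_one, zero_sub]

/-- **(R3)** absolutely irreducible ⇒ irreducible -/
theorem rthkr_irr (habs : ρbar.IsAbsolutelyIrreducible) : ρbar.IsIrreducible := by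
  classical
  let b : Module.Basis (Fin 2) k ρbar.V := Module.finBasisOfFinrankEq k ρbar.V ρbar.finrank_eq
  have hspan := rthu_span_toMatrix ρbar habs b
  intro W hW
  refine Fermat.Agent.RT.Interp.rtint_irr_of_span (RingHom.id k)
    (fun g => LinearMap.toMatrix b b (ρbar.ρ g)) hspan b W ?_
  intro g x hx
  have key : Matrix.toLin b b ((LinearMap.toMatrix b b (ρbar.ρ g)).map (RingHom.id k)) =
      ρbar.ρ g := by
    have : (LinearMap.toMatrix b b (ρbar.ρ g)).map (RingHom.id k) =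
        LinearMap.toMatrix b b (ρbar.ρ g) := by
      ext i j
      simp
    rw [this, Matrix.toLin_toMatrix]
  rw [key]
  exact hW g x hx

/-- no stable line in an irreducible plane -/
theorem rthkr_no_line (hirr : ρbar.IsIrreducible) (v : ρbar.V) (hv : v ≠ 0) :
    ∃ g, ∀ a : k, ρbar.ρ g v ≠ a • v := by
  by_contra hcon
  push Not at hcon
  have hst : ∀ σ : GQ, ∀ x ∈ Submodule.span k {v}, ρbar.ρ σ x ∈ Submodule.span k {v} := by
    intro σ x hx
    obtain ⟨a, rfl⟩ := Submodule.mem_span_singleton.mp hx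
    obtain ⟨b, hb⟩ := hcon σ
    rw [map_smul, hb, smul_smul]
    exact Submodule.mem_span_singleton.mpr ⟨_, rfl⟩
  rcases hirr _ hst with h0 | h0
  · exact hv ((Submodule.span_singleton_eq_bot).mp h0)
  · have h1 : Module.finrank k (Submodule.span k {v}) = 1 := finrank_span_singleton hv
    rw [h0, finrank_top, ρbar.finrank_eq] at h1
    exact absurd h1 (by norm_num)

/-- **(R1)** the base point -/
theorem rthkr_base (habs : ρbar.IsAbsolutelyIrreducible)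
    (hdet : (GaloisRepAdic.ofResidualGaloisRep ρbar).DetIsCyclotomic p)
    (i2 : k) (hi2 : 2 * i2 = 1) :
    ∃ σ₀ τ₀ : GQ, rtk7Xi (fun g => LinearMap.trace k ρbar.V (ρbar.ρ g)) complexConjugation i2
      σ₀ τ₀ ≠ 0 := by
  have hirr := rthkr_irr ρbar habs
  haveI : Nontrivial ρbar.V :=
    Module.nontrivial_of_finrank_pos (R := k) (by rw [ρbar.finrank_eq]; norm_num)
  set ε : GQ →* k := (LinearMap.det : Module.End k ρbar.V →* k).comp ρbar.ρ with hε
  set t : GQ → k := fun g => LinearMap.trace k ρbar.V (ρbar.ρ g) with ht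
  have hc : complexConjugation * complexConjugation = 1 := complexConjugation_mul_self
  have hεc : ε complexConjugation = -1 := rthkr_det_conj ρbar p hdet
  have h2 : ∀ x y, t (x * y) = t (y * x) := fun x y => by
    show LinearMap.trace k ρbar.V (ρbar.ρ (x * y)) = LinearMap.trace k ρbar.V (ρbar.ρ (y * x))
    rw [map_mul ρbar.ρ, map_mul ρbar.ρ, LinearMap.trace_mul_comm]
  have h3 : ∀ x y, t (x * y) + ε y * t (x * y⁻¹) = t x * t y := fun x y =>
    rtk7m_trace_pseudo ρbar.finrank_eq ρbar.ρ x y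
  have hCH : S36CH ρbar.ρ (fun g => ε g) t complexConjugation :=
    S36CH.of_exact (fun σ => rthkr_ch_end ρbar.finrank_eq _ _
      (by rw [← map_mul, mul_inv_cancel, map_one])) (fun x y => map_mul ε x y) hc hεc
  have h2ne : (2 : k) ≠ 0 := by
    intro h0
    rw [h0, zero_mul] at hi2
    exact zero_ne_one hi2
  have hi2ne : i2 ≠ 0 := by
    intro h0
    rw [h0, mul_zero] at hi2
    exact zero_ne_one hi2
  obtain ⟨x, y, hxy⟩ := rtk7_exists_xi_ne_zero h2ne ρbar.ρ (fun g => ε g) t complexConjugation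
    hCH (rtk7_xi'_eq ε t complexConjugation h2 h3 hc hεc) (rthkr_no_line ρbar hirr)
  refine ⟨x, y, ?_⟩
  rw [rtk7Xi_eq t complexConjugation i2 hi2]
  exact mul_ne_zero (mul_ne_zero hi2ne hi2ne) hxy

/-- `ρbar` is constant on the classes modulo a finite level -/
theorem rthkr_finite_level :
    ∃ L : IntermediateField ℚ (AlgebraicClosure ℚ), FiniteDimensional ℚ L ∧
      ∀ g h : GQ, (∀ x ∈ L, g x = h x) → ρbar.ρ g = ρbar.ρ h := by
  obtain ⟨L, hLfin, hker⟩ := ρbar.factorsThroughFiniteLevel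
  refine ⟨L, hLfin, fun g h hgh => ?_⟩
  have hu : ∀ a ∈ L, (h⁻¹ * g) a = a := by
    intro a ha
    rw [AlgEquiv.mul_apply, hgh a ha, ← AlgEquiv.mul_apply, inv_mul_cancel,
      AlgEquiv.one_apply]
  calc ρbar.ρ g = ρbar.ρ (h * (h⁻¹ * g)) := by rw [mul_inv_cancel_left]
    _ = ρbar.ρ h * ρbar.ρ (h⁻¹ * g) := map_mul _ _ _
    _ = ρbar.ρ h := by rw [hker _ hu, mul_one]

/-- the determinant of an endomorphism of a plane with characteristic polynomial
`X² − aX + d` is `d` -/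
theorem rthkr_det_of_charpoly (f : Module.End k ρbar.V) (a d : k)
    (h : LinearMap.charpoly f = X ^ 2 - C a * X + C d) : LinearMap.det f = d := by
  rw [LinearMap.det_eq_sign_charpoly_coeff, ρbar.finrank_eq, h]
  simp [Polynomial.coeff_C]

/-- **(R4), the Eisenstein case is impossible**: the trace is not `1 + det`. -/
theorem rthkr_not_eis (habs : ρbar.IsAbsolutelyIrreducible)
    (hdet : (GaloisRepAdic.ofResidualGaloisRep ρbar).DetIsCyclotomic p)
    (i2 : k) (hi2 : 2 * i2 = 1) :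
    ¬ ∀ g : GQ, LinearMap.trace k ρbar.V (ρbar.ρ g) = 1 + LinearMap.det (ρbar.ρ g) := by
  intro hE
  obtain ⟨σ₀, τ₀, hξ⟩ := rthkr_base ρbar p habs hdet i2 hi2
  apply hξ
  have hεc := rthkr_det_conj ρbar p hdet
  have hA : ∀ x : GQ, rtk7A (fun g => LinearMap.trace k ρbar.V (ρbar.ρ g)) complexConjugation
      i2 x = 1 := by
    intro x
    show i2 * (LinearMap.trace k ρbar.V (ρbar.ρ x)
      + LinearMap.trace k ρbar.V (ρbar.ρ (x * complexConjugation))) = 1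
    rw [hE, hE, map_mul, map_mul, hεc]
    linear_combination hi2
  show rtk7A _ _ _ (σ₀ * τ₀) - rtk7A _ _ _ σ₀ * rtk7A _ _ _ τ₀ = 0
  rw [hA, hA, hA]
  ring

/-- **(R4)** a non-Eisenstein prime outside any finite set: if the characteristic polynomials
of the Frobenius elements at the primes outside `S₀` are `X² − a_ℓ X + ℓ`, then for every finite
`S` there is a prime `ℓ₀ ∉ S ∪ S₀` with `a_ℓ₀ ≠ ℓ₀ + 1`. -/
theorem rthkr_nonEis (hcheb : Cheb.WeakChebotarev) (habs : ρbar.IsAbsolutelyIrreducible)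
    (hdet : (GaloisRepAdic.ofResidualGaloisRep ρbar).DetIsCyclotomic p)
    (i2 : k) (hi2 : 2 * i2 = 1) (S₀ : Finset ℕ) (a : ℕ → k)
    (hfrob : ∀ ℓ : ℕ, ℓ.Prime → ℓ ∉ S₀ →
      ∀ 𝔄 : ValuationSubring (AlgebraicClosure ℚ), 𝔄.LiesOverPrime ℓ →
        ∀ τ : GQ, 𝔄.IsFrobeniusAt τ ℓ →
          LinearMap.charpoly (ρbar.ρ τ) = X ^ 2 - C (a ℓ) * X + C (ℓ : k))
    (S : Finset ℕ) :
    ∃ ℓ₀ : ℕ, ℓ₀.Prime ∧ ℓ₀ ∉ S ∧ ℓ₀ ∉ S₀ ∧ a ℓ₀ ≠ (ℓ₀ : k) + 1 := by
  by_contra hcon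
  push Not at hcon
  refine rthkr_not_eis ρbar p habs hdet i2 hi2 ?_
  set ε : GQ →* k := (LinearMap.det : Module.End k ρbar.V →* k).comp ρbar.ρ with hε
  have h1 : (fun g => LinearMap.trace k ρbar.V (ρbar.ρ g)) 1 = 2 := by
    show LinearMap.trace k ρbar.V (ρbar.ρ 1) = 2
    rw [map_one, LinearMap.trace_one, ρbar.finrank_eq]
    norm_num
  have h3 : ∀ x y : GQ, (fun g => LinearMap.trace k ρbar.V (ρbar.ρ g)) (x * y)
      + (fun g => ε g) y * (fun g => LinearMap.trace k ρbar.V (ρbar.ρ g)) (x * y⁻¹)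
      = (fun g => LinearMap.trace k ρbar.V (ρbar.ρ g)) x
        * (fun g => LinearMap.trace k ρbar.V (ρbar.ρ g)) y := fun x y =>
    rtk7m_trace_pseudo ρbar.finrank_eq ρbar.ρ x y
  have h1' : (fun g => 1 + ε g) 1 = 2 := by
    show 1 + ε 1 = 2
    rw [map_one]
    norm_num
  have h3' : ∀ x y : GQ, (fun g => 1 + ε g) (x * y)
      + (fun g => ε g) y * (fun g => 1 + ε g) (x * y⁻¹)
      = (fun g => 1 + ε g) x * (fun g => 1 + ε g) y := by
    intro x y
    show 1 + ε (x * y) + ε y * (1 + ε (x * y⁻¹)) = (1 + ε x) * (1 + ε y)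
    have hyy : ε y * ε y⁻¹ = 1 := by rw [← map_mul, mul_inv_cancel, map_one]
    rw [map_mul, map_mul]
    linear_combination (ε x) * hyy
  obtain ⟨L, hLfin, hL⟩ := rthkr_finite_level ρbar
  have key := rtk7uq_eq_of_finite hcheb (fun g => ε g)
    (fun g => LinearMap.trace k ρbar.V (ρbar.ρ g)) (fun g => 1 + ε g) h1 h3 h1' h3'
    ⟨L, hLfin, fun g h hgh => by
      show LinearMap.trace k ρbar.V (ρbar.ρ g) = LinearMap.trace k ρbar.V (ρbar.ρ h)
      rw [hL g h hgh]⟩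
    ⟨L, hLfin, fun g h hgh => by
      show 1 + LinearMap.det (ρbar.ρ g) = 1 + LinearMap.det (ρbar.ρ h)
      rw [hL g h hgh]⟩
    (S ∪ S₀) (fun ℓ hℓ hℓS 𝔄 h𝔄 τ hτ => by
      rw [Finset.mem_union, not_or] at hℓS
      have hch := hfrob ℓ hℓ hℓS.2 𝔄 h𝔄 τ hτ
      show LinearMap.trace k ρbar.V (ρbar.ρ τ) = 1 + LinearMap.det (ρbar.ρ τ)
      rw [Fermat.Agent.S31.trace_of_charpoly ρbar.finrank_eq _ _ _ hch,
        rthkr_det_of_charpoly ρbar _ _ _ hch, hcon ℓ hℓ hℓS.1 hℓS.2]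
      ring)
  intro g
  exact congrFun key g

end general

/-! ### The residual inputs from a `KSetup` -/

section setup

variable {P : FreyPackage} {N q : ℕ} (Y : KSetup P N q)

/-- `2 · (1/2) = 1` in the residue field -/
theorem rthk_r_half : 2 * residue Y.O Y.half = 1 := by
  have h := Y.h2.unit.mul_inv
  rw [IsUnit.unit_spec] at h
  have h' := congrArg (residue Y.O) h
  rw [map_mul, map_one] at h'
  have h2' : residue Y.O (2 : Y.O) = 2 := map_ofNat _ 2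
  rw [h2'] at h'
  exact h'

/-- **(R1)** the base point of a setup -/
theorem rthk_r_base : ∃ σ₀ τ₀ : GQ,
    rtk7Xi (fun g => LinearMap.trace (ResidueField Y.O) Y.ρbar.V (Y.ρbar.ρ g))
      complexConjugation (residue Y.O Y.half) σ₀ τ₀ ≠ 0 :=
  haveI : Fact P.p.Prime := ⟨P.pp⟩
  rthkr_base Y.ρbar P.p Y.hyp.habs Y.hyp.hdet _ (rthk_r_half Y)

/-- **(R2)** `ρbar` is unipotent on the inertia groups at `2` -/
theorem rthk_r_unip (A : ValuationSubring (AlgebraicClosure ℚ)) (hA : A.LiesOverPrime 2)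
    (s : GQ) (hs : s ∈ A.inertiaSubgroupIn ℚ) :
    LinearMap.charpoly (Y.ρbar.ρ s) = (Polynomial.X - 1) ^ 2 :=
  Y.hunip2 A hA s hs

/-- **(R2)** in the form of `StmtHkAbsL` / K7-U2 -/
theorem rthk_r_unipSmin : ∀ r ∈ Y.Smin, r.Prime → r ≠ P.p → ¬ P.p ∣ r ^ 2 - 1 ∧
    ∀ A : ValuationSubring (AlgebraicClosure ℚ), A.LiesOverPrime r →
      ∀ s ∈ A.inertiaSubgroupIn ℚ,
        LinearMap.charpoly (Y.ρbar.ρ s) = (Polynomial.X - 1) ^ 2 := by
  intro r hr _ hrp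
  rw [Y.hSmin, Finset.mem_insert, Finset.mem_singleton] at hr
  rcases hr with rfl | rfl
  · refine ⟨fun hdvd => ?_, Y.hunip2⟩
    have h5 := P.hp5
    have := Nat.le_of_dvd (by norm_num) hdvd
    omega
  · exact absurd rfl hrp

/-- **(R3)** the determinant of `ρbar` -/
theorem rthk_r_det (s : GQ) (a : ℕ)
    (h : ∀ μ : AlgebraicClosure ℚ, μ ^ P.p = 1 → s μ = μ ^ a) :
    LinearMap.det (Y.ρbar.ρ s) = (a : ResidueField Y.O) :=
  haveI : Fact P.p.Prime := ⟨P.pp⟩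
  rthkr_det Y.ρbar P.p Y.hyp.hdet s a h

/-- **(R3)** `ρbar` is irreducible -/
theorem rthk_r_irr : Y.ρbar.IsIrreducible := rthkr_irr Y.ρbar Y.hyp.habs

/-- the discriminant of the model of a setup -/
theorem rthk_r_Δ_ne_zero : Y.W.Δ ≠ 0 := by
  obtain ⟨C, hC⟩ := Y.hW
  intro h0
  have h1 : (C • P.freyCurve).Δ = 0 := by
    rw [hC, WeierstrassCurve.map_Δ, h0, _root_.map_zero]
  rw [WeierstrassCurve.variableChange_Δ] at h1
  have hu : ((C.u⁻¹ : ℚˣ) : ℚ) ^ 12 ≠ 0 := pow_ne_zero _ (Units.ne_zero _)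
  have hE : P.freyCurve.Δ ≠ 0 := by
    rw [← Fermat.Agent.S04.freyCurveInt_map, WeierstrassCurve.map_Δ]
    have := Fermat.Agent.S04.freyCurveInt_Δ_ne_zero P
    simpa using this
  exact hE ((mul_eq_zero.1 h1).resolve_left hu)

/-- **(R4)** a non-Eisenstein prime: for every finite `S` there is a prime `ℓ₀ ∉ S`, `ℓ₀ ≠ p`,
of good reduction, with `a_ℓ₀ ≢ ℓ₀ + 1`; the trace of every Frobenius element at `ℓ₀` is then
different from `ℓ₀ + 1`. -/
theorem rthk_r_nonEis (hcheb : Cheb.WeakChebotarev) (S : Finset ℕ) :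
    ∃ ℓ₀ : ℕ, ℓ₀.Prime ∧ ℓ₀ ∉ S ∧ ℓ₀ ≠ P.p ∧ Y.W.IsGoodPrimeFor ℓ₀ ∧
      ((Y.W.apOfModel ℓ₀ : ℤ) : ResidueField Y.O) ≠ (ℓ₀ : ResidueField Y.O) + 1 ∧
      ∀ 𝔄 : ValuationSubring (AlgebraicClosure ℚ), 𝔄.LiesOverPrime ℓ₀ →
        ∀ τ : GQ, 𝔄.IsFrobeniusAt τ ℓ₀ →
          LinearMap.trace (ResidueField Y.O) Y.ρbar.V (Y.ρbar.ρ τ)
            ≠ (ℓ₀ : ResidueField Y.O) + 1 := by
  haveI : Fact P.p.Prime := ⟨P.pp⟩
  have hΔ := rthk_r_Δ_ne_zero Y
  have hgood : ∀ ℓ : ℕ, ℓ.Prime → ℓ ∉ insert P.p Y.W.Δ.natAbs.primeFactors →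
      ℓ ≠ P.p ∧ Y.W.IsGoodPrimeFor ℓ := by
    intro ℓ hℓ hmem
    rw [Finset.mem_insert, not_or] at hmem
    refine ⟨hmem.1, fun hdvd => hmem.2 ?_⟩
    rw [Nat.mem_primeFactors]
    exact ⟨hℓ, Int.natCast_dvd.mp hdvd, fun h0 => hΔ (Int.natAbs_eq_zero.mp h0)⟩
  obtain ⟨ℓ₀, hℓ₀, hℓ₀S, hℓ₀S₀, hne⟩ := rthkr_nonEis Y.ρbar P.p hcheb Y.hyp.habs Y.hyp.hdet _
    (rthk_r_half Y) (insert P.p Y.W.Δ.natAbs.primeFactors)
    (fun ℓ => ((Y.W.apOfModel ℓ : ℤ) : ResidueField Y.O))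
    (fun ℓ hℓ hℓS 𝔄 h𝔄 τ hτ =>
      Y.hbar ℓ hℓ (hgood ℓ hℓ hℓS).1 (hgood ℓ hℓ hℓS).2 𝔄 h𝔄 τ hτ) S
  refine ⟨ℓ₀, hℓ₀, hℓ₀S, (hgood ℓ₀ hℓ₀ hℓ₀S₀).1, (hgood ℓ₀ hℓ₀ hℓ₀S₀).2, hne, ?_⟩
  intro 𝔄 h𝔄 τ hτ
  rw [Fermat.Agent.S31.trace_of_charpoly Y.ρbar.finrank_eq _ _ _
    (Y.hbar ℓ₀ hℓ₀ (hgood ℓ₀ hℓ₀ hℓ₀S₀).1 (hgood ℓ₀ hℓ₀ hℓ₀S₀).2 𝔄 h𝔄 τ hτ)]
  exact hne

/-- **HK-RES.** -/
theorem stmtHkRes : StmtHkRes := fun P N q _ Y => ⟨rthk_r_base Y, Y.hunip2⟩

end setup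

end Fermat.Agent.RT

end


end ZBRT_007_6

/-! ### bundled: `Fermat.Agent.RT.Hecke.FinalInst` -/
section ZBRT_007_7

/-!
# K-machine, HECKE-asm: `StmtHecke` from the module side alone

`rthk_final` (RT/Hecke/Final.lean) with the proved inputs filled in:
`Cheb.weakChebotarev_holds`, `stmtHkAbsB` (helper27, RT/Hecke/AbsB.lean),
`stmtHkAbsL` (helper46, helper22, helper15, RT/Hecke/AbsL*.lean),
`stmtHkPack` (RT/Hecke/Pack.lean, from helper70's `rtha_pack_std`), `stmtHkRes` (helper97,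
RT/Hecke/Resid.lean).  LEFT: `StmtHkModSide` (the module side, HK-CONC).
-/

set_option autoImplicit false

namespace Fermat.Agent.RT

/-- **HECKE-asm**: `StmtHecke` from the module side. -/
theorem rthk_final_inst (hMod : StmtHkModSide) : Prod.StmtHecke :=
  rthk_final Fermat.Agent.Cheb.weakChebotarev_holds stmtHkAbsB stmtHkAbsL stmtHkPack
    stmtHkRes hMod

end Fermat.Agent.RT


end ZBRT_007_7

/-! ### bundled: `Fermat.Agent.RT.Hecke.ConcTop` -/
section ZBRT_007_8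

/-!
# K-machine, HECKE-asm, HK-CONC: the top of the module side

`StmtHkConcTop` : for every setup `Y` and every `h` there are the base data (`HkBase`) and, for
every Taylor–Wiles family `qv` of level `n`, a level `(L, M, H')`, a family `𝔲 : NatFam 𝒪 L M`,
an auxiliary prime `ℓ₀`, a package `(J, Tr)` over `HDAlg M`, a family `b` in the `Θ`-part
`X = ↥(rthkdX 𝔲 ℓ₀ H' (n + 1))` and two characters `ψ1, ψχ` of `Δ = (ℤ/M)ˣ ⧸ ±H'` with
`HkConcSide` (RT/Hecke/ConcSide.lean: all the fields are statements on `Hom(Γ_{H'}(L), 𝒪 ⧸ 𝔪ⁿ⁺¹)`).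

* `rthkct_modSide : StmtHkConcTop → StmtHkModSide` (through `rthk_conc_side`, `rthk_conc`,
  `rthk_sub`);
* **`rthkct_hecke : StmtHkConcTop → Prod.StmtHecke`**.
-/

set_option autoImplicit false
set_option linter.unusedSectionVars false
set_option linter.style.haveILetI false

noncomputable section

namespace Fermat.Agent.RT

open IsLocalRing Fermat.Agent.ES Fermat.Agent.S30 Fermat.Agent.W1 Fermat.Agent.TW
open Fermat.Agent.ES1 Fermat.Agent.RT.K5 Fermat.Agent.RT.Prod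
open ExtCitation WeierstrassCurve WeierstrassCurve.Affine WeierstrassCurve.Affine.Point
open scoped MatrixGroups

/-- **HK-CONC, the concrete contract**: the module side in terms of the `Θ`-parts of
`Hom(Γ_{H'}(L), 𝒪 ⧸ 𝔪ⁿ⁺¹)`. -/
def StmtHkConcTop : Prop :=
  ∀ (P : FreyPackage) (N q : ℕ) [NeZero N], P.IsConductorLevel N → ¬ P.p ∣ N → q.Prime →
    q ≠ 2 → q ∣ N → GaloisRepIsIrreducible (K := AlgebraicClosure ℚ) ℚ P.freyCurve P.p →
    P.ModularRepOfLevel N →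
    (∀ r : ℕ, r.Prime → r ≠ 2 → r ∣ N → Fermat.Agent.RIB.IsTrivialPrime P r) →
    ∀ (Y : KSetup P N q) (h : ℕ),
      haveI : Fact P.p.Prime := ⟨P.pp⟩
      ∃ (d : ℕ) (_ : 0 < d) (S' : Finset ℕ) (_ : P.p ∈ S')
        (_ : ∀ ℓ : ℕ, ℓ.Prime → ℓ ∣ N → ℓ ∈ S')
        (𝕋₀ : Type) (_ : CommRing 𝕋₀) (J₀ : Type) (_ : AddCommGroup J₀) (_ : Module 𝕋₀ J₀)
        (_ : DistribMulAction GQ J₀) (Tr₀ : ℕ → 𝕋₀)
        (Φ0 : 𝕋₀ →+* Matrix (Fin d) (Fin d) Y.O),
        HkBase P.p Y.ρbar N S' d J₀ Tr₀ Φ0 ∧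
        ∀ (n : ℕ) (qv : Fin h → ℕ),
          IsTWFamily P.p Y.ρbar (Y.Smin ∪ Finset.univ.image Y.r) n h qv →
          ∃ (L M : ℕ) (_ : NeZero L) (_ : NeZero M) (_ : Fact (M ∣ L))
            (𝔲 : NatFam Y.O L M) (ℓ₀ : ℕ) (_ : NeZero ℓ₀) (H' : Subgroup (ZMod M)ˣ)
            (J : Type) (_ : AddCommGroup J) (_ : Module (HDAlg M) J)
            (_ : DistribMulAction GQ J) (Tr : ℕ → HDAlg M)
            (b : Fin d → rthkdX 𝔲 ℓ₀ H' (n + 1))
            (ψ1 ψχ : RthkdDelta M H' →* RthkSn Y.O (Y.m h) (n + 1)),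
            HkConcSide P.p Y.lam Y.ρbar
              (Y.Smin ∪ (Finset.univ.image qv ∪ Finset.univ.image Y.r)) Y.σ Y.tχ (Y.m h) h d
              (n + 1) (fun ℓ => Φ0 (Tr₀ ℓ)) L M 𝔲 ℓ₀ H' J Tr b ψ1 ψχ

/-- **HK-CONC**: the concrete contract gives the module side. -/
theorem rthkct_modSide (hTop : StmtHkConcTop) : StmtHkModSide := by
  intro P N q _ hN hpN hq hq2 hqN hirr hmod htriv Y h
  haveI : Fact P.p.Prime := ⟨P.pp⟩
  obtain ⟨d, hd, S', hpS', hNS', 𝕋₀, i1, J₀, i2, i3, i4, Tr₀, Φ0, hbase, hlev⟩ :=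
    hTop P N q hN hpN hq hq2 hqN hirr hmod htriv Y h
  refine ⟨d, hd, S', hpS', hNS', 𝕋₀, i1, J₀, i2, i3, i4, Tr₀, Φ0, hbase, ?_⟩
  intro n qv hqv
  obtain ⟨L, M, j1, j2, j3, 𝔲, ℓ₀, j4, H', J, j5, j6, j7, Tr, b, ψ1, ψχ, hside⟩ :=
    hlev n qv hqv
  letI := rthkcaAlg Y.O (Y.m h) (n + 1)
  haveI := rthkca_tower Y.O (Y.m h) (n + 1)
  have hconc := rthk_conc_side hside
  have hW := rthk_conc hconc
  exact ⟨L, _, _, J, _, _, _, _, _, _, rthk_sub hW⟩

/-- **HECKE-asm from the concrete contract.** -/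
theorem rthkct_hecke (hTop : StmtHkConcTop) : Prod.StmtHecke :=
  rthk_final_inst (rthkct_modSide hTop)

end Fermat.Agent.RT

end
end ZBRT_007_8

/-! ### bundled: `Fermat.Agent.RT.Hecke.CharsInst` -/
section ZBRT_007_9
/-
RT-HECKE / CHARS-INST (helper27): the two characters `ψ1, ψχ` of the diamond group of level `Q`
with values in `S ⧸ 𝔪 ^ ν`, and the fields `cong`, `aug`, and the values in `trT`, `trQ` of
`HkConc` (`RT/Hecke/Conc.lean`).
-/

/-!
# K-machine, HECKE-asm, piece CHARS-INST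

Sub-captain helper59 (table v2).  `O` a local ring, `2 ∈ Oˣ`, `p ∈ 𝔪_O`, `ζ ^ p = 1`;
`S = O[[w_1, …, w_m]]`, `Sn = S ⧸ 𝔪 ^ ν`, `h ≤ m`;
`κ = Fin h ⊕ ι`, `k (inl j) = ν`, `k (inr i) = 1`, `Δ' = RthkchGrp p k`.

* `rthkciU` : the Taylor–Wiles unit `u_j` at the variable `j` (`rthu_exists_unit`), with
  `rthkci_u_mul_v`, `rthkci_u_sub_v`, `rthkci_u_pow`, `rthkci_u_sub_one_mem`;
* `rthkciW1`, `rthkciWχ` : the values on the generators (`u_j` at `inl j`; `1` resp. `ζ` at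
  `inr i`), `rthkci_w1_pow`, `rthkci_wχ_pow`;
* `rthkciPsi1`, `rthkciPsiχ : Δ' →* Sn`;
* `rthkci_cong`, `rthkci_aug`, `rthkci_valT`, `rthkci_valQ1`, `rthkci_valQχ` : the fields of
  `HkConc` on `Δ'`;
* `rthkci_cong_comp`, `rthkci_aug_comp`, `rthkci_valT_comp`, `rthkci_valQ_comp` : the same for
  `ψ ∘ κ`, `κ : Δ →* Δ'` (HK-GRP), at every `δ` with `κ δ = e_x`;
* `KSetup` forms : `rthkciPsi1Y`, `rthkciPsiχY`, `rthkci_Y_cong`, `rthkci_Y_aug`, `rthkci_Y_valT`,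
  `rthkci_Y_valQ`.
-/

set_option autoImplicit false
set_option linter.unusedSectionVars false
set_option linter.unusedVariables false

namespace Fermat.Agent.RT

open IsLocalRing Fermat.Agent.RT.Prod

noncomputable section

/-! ### The Taylor–Wiles unit -/

section TWUnit

variable {O : Type} [CommRing O] [IsLocalRing O]

/-- **the Taylor–Wiles unit** `u` at the variable `i`: `u − u⁻¹ = w_i`, `u ^ (p ^ ν) = 1` -/
def rthkciU (h2 : IsUnit (2 : O)) (p : ℕ) (hp : (p : O) ∈ maximalIdeal O) (m ν : ℕ)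
    (i : Fin m) : RthkSn O m ν :=
  (rthu_exists_unit h2 p hp m ν i).choose

/-- the inverse of the Taylor–Wiles unit -/
def rthkciV (h2 : IsUnit (2 : O)) (p : ℕ) (hp : (p : O) ∈ maximalIdeal O) (m ν : ℕ)
    (i : Fin m) : RthkSn O m ν :=
  (rthu_exists_unit h2 p hp m ν i).choose_spec.choose

variable (h2 : IsUnit (2 : O)) (p : ℕ) (hp : (p : O) ∈ maximalIdeal O) (m ν : ℕ) (i : Fin m)

theorem rthkci_u_mul_v : rthkciU h2 p hp m ν i * rthkciV h2 p hp m ν i = 1 :=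
  (rthu_exists_unit h2 p hp m ν i).choose_spec.choose_spec.1

theorem rthkci_u_sub_v :
    rthkciU h2 p hp m ν i - rthkciV h2 p hp m ν i =
      Ideal.Quotient.mk (maximalIdeal (RttwS O m) ^ ν) (MvPowerSeries.X i) :=
  (rthu_exists_unit h2 p hp m ν i).choose_spec.choose_spec.2.1

theorem rthkci_u_const :
    ∃ f : RttwS O m, MvPowerSeries.constantCoeff f = 1 ∧
      rthkciU h2 p hp m ν i = Ideal.Quotient.mk (maximalIdeal (RttwS O m) ^ ν) f :=
  (rthu_exists_unit h2 p hp m ν i).choose_spec.choose_spec.2.2.1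

theorem rthkci_u_pow : rthkciU h2 p hp m ν i ^ p ^ ν = 1 :=
  (rthu_exists_unit h2 p hp m ν i).choose_spec.choose_spec.2.2.2.1

theorem rthkci_u_add_v_sq :
    (rthkciU h2 p hp m ν i + rthkciV h2 p hp m ν i) ^ 2 =
      Ideal.Quotient.mk (maximalIdeal (RttwS O m) ^ ν) (MvPowerSeries.X i) ^ 2 + 4 :=
  (rthu_exists_unit h2 p hp m ν i).choose_spec.choose_spec.2.2.2.2

/-- `u ≡ 1` modulo `𝔞` -/
theorem rthkci_u_sub_one_mem :
    rthkciU h2 p hp m ν i - 1 ∈ RingHom.ker (Ideal.Quotient.factor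
      (le_sup_right : maximalIdeal (RttwS O m) ^ ν ≤
        rttwAug O m ⊔ maximalIdeal (RttwS O m) ^ ν)) := by
  obtain ⟨f, hf, hu⟩ := rthkci_u_const h2 p hp m ν i
  rw [RingHom.mem_ker, hu, map_sub, map_one, Ideal.Quotient.factor_mk, sub_eq_zero,
    ← map_one (Ideal.Quotient.mk (rttwAug O m ⊔ maximalIdeal (RttwS O m) ^ ν)),
    Ideal.Quotient.eq]
  refine Ideal.mem_sup_left ?_
  show f - 1 ∈ RingHom.ker _
  rw [RingHom.mem_ker, map_sub, hf, map_one, sub_self]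

/-- inverses in a commutative ring are unique -/
theorem rthkci_inv_unique {R : Type*} [CommRing R] {a b c : R} (h1 : a * b = 1)
    (h2 : a * c = 1) : b = c := by
  calc b = b * (a * c) := by rw [h2, mul_one]
    _ = (a * b) * c := by ring
    _ = c := by rw [h1, one_mul]

end TWUnit

/-! ### The characters on `Δ'` -/

section Abs

variable {O : Type} [CommRing O] [IsLocalRing O]

/-- the exponents: `ν` at the Taylor–Wiles primes, `1` at the trivial primes -/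
def rthkciExp (h : ℕ) (ι : Type) (ν : ℕ) : Fin h ⊕ ι → ℕ :=
  Sum.elim (fun _ => ν) (fun _ => 1)

@[simp] theorem rthkciExp_inl (h : ℕ) (ι : Type) (ν : ℕ) (j : Fin h) :
    rthkciExp h ι ν (Sum.inl j) = ν := rfl

@[simp] theorem rthkciExp_inr (h : ℕ) (ι : Type) (ν : ℕ) (i : ι) :
    rthkciExp h ι ν (Sum.inr i) = 1 := rfl

/-- the values of `ψ1` on the generators: `u_j` at the Taylor–Wiles primes, `1` at the trivial
primes -/
def rthkciW1 (h2 : IsUnit (2 : O)) (p : ℕ) (hp : (p : O) ∈ maximalIdeal O) {m h : ℕ}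
    (hm : h ≤ m) (ι : Type) (ν : ℕ) : Fin h ⊕ ι → RthkSn O m ν :=
  Sum.elim (fun j => rthkciU h2 p hp m ν (Fin.castLE hm j)) (fun _ => 1)

/-- the values of `ψχ` on the generators: `u_j` at the Taylor–Wiles primes, `ζ` at the trivial
primes -/
def rthkciWχ (h2 : IsUnit (2 : O)) (p : ℕ) (hp : (p : O) ∈ maximalIdeal O) {m h : ℕ}
    (hm : h ≤ m) (ι : Type) (ν : ℕ) (ζ : O) : Fin h ⊕ ι → RthkSn O m ν :=
  Sum.elim (fun j => rthkciU h2 p hp m ν (Fin.castLE hm j))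
    (fun _ => algebraMap O (RthkSn O m ν) ζ)

variable (h2 : IsUnit (2 : O)) (p : ℕ) (hp : (p : O) ∈ maximalIdeal O) {m h : ℕ}
  (hm : h ≤ m) (ι : Type) (ν : ℕ) (ζ : O)

theorem rthkci_w1_pow (x : Fin h ⊕ ι) :
    rthkciW1 h2 p hp hm ι ν x ^ (p ^ rthkciExp h ι ν x) = 1 := by
  rcases x with j | i
  · exact rthkci_u_pow h2 p hp m ν (Fin.castLE hm j)
  · exact one_pow _

theorem rthkci_wχ_pow (hζ : ζ ^ p = 1) (x : Fin h ⊕ ι) :
    rthkciWχ h2 p hp hm ι ν ζ x ^ (p ^ rthkciExp h ι ν x) = 1 := by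
  rcases x with j | i
  · exact rthkci_u_pow h2 p hp m ν (Fin.castLE hm j)
  · show (algebraMap O (RthkSn O m ν) ζ) ^ (p ^ 1) = 1
    rw [pow_one, ← map_pow, hζ, map_one]

variable [Fact p.Prime] [Fintype ι]

/-- **the character `ψ1`** of `Δ'` -/
def rthkciPsi1 : RthkchGrp p (rthkciExp h ι ν) →* RthkSn O m ν :=
  rthkchPsi (rthkciW1 h2 p hp hm ι ν) (rthkci_w1_pow h2 p hp hm ι ν)

/-- **the character `ψχ`** of `Δ'` -/
def rthkciPsiχ (hζ : ζ ^ p = 1) : RthkchGrp p (rthkciExp h ι ν) →* RthkSn O m ν :=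
  rthkchPsi (rthkciWχ h2 p hp hm ι ν ζ) (rthkci_wχ_pow h2 p hp hm ι ν ζ hζ)

/-- `ζ ≡ 1` modulo `λ` in `S ⧸ 𝔪 ^ ν` -/
theorem rthkci_zeta_mem {lam : O} (hlam : maximalIdeal O = Ideal.span {lam})
    (hζ1 : ζ - 1 ∈ maximalIdeal O) :
    (1 : RthkSn O m ν) - algebraMap O (RthkSn O m ν) ζ ∈
      RingHom.ker (Ideal.Quotient.factor
        (le_sup_right : maximalIdeal (RttwS O m) ^ ν ≤
          rttwLam m lam ⊔ maximalIdeal (RttwS O m) ^ ν)) := by
  rw [hlam, Ideal.mem_span_singleton'] at hζ1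
  obtain ⟨c, hc⟩ := hζ1
  have e1 : algebraMap O (RthkSn O m ν) ζ
      = Ideal.Quotient.mk (maximalIdeal (RttwS O m) ^ ν) (MvPowerSeries.C ζ) := rfl
  rw [RingHom.mem_ker, e1, map_sub, map_one, Ideal.Quotient.factor_mk, sub_eq_zero,
    ← map_one (Ideal.Quotient.mk (rttwLam m lam ⊔ maximalIdeal (RttwS O m) ^ ν)),
    Ideal.Quotient.eq]
  refine Ideal.mem_sup_left ?_
  rw [rttwLam, Ideal.mem_span_singleton']
  refine ⟨-MvPowerSeries.C c, ?_⟩
  rw [neg_mul, ← map_mul, hc, map_sub, map_one]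
  ring

/-- **`cong`** : `ψ1 ≡ ψχ` modulo `λ` -/
theorem rthkci_cong (hζ : ζ ^ p = 1) {lam : O} (hlam : maximalIdeal O = Ideal.span {lam})
    (hζ1 : ζ - 1 ∈ maximalIdeal O) (δ : RthkchGrp p (rthkciExp h ι ν)) :
    Ideal.Quotient.factor (le_sup_right : maximalIdeal (RttwS O m) ^ ν ≤
        rttwLam m lam ⊔ maximalIdeal (RttwS O m) ^ ν) (rthkciPsi1 h2 p hp hm ι ν δ) =
      Ideal.Quotient.factor (le_sup_right : maximalIdeal (RttwS O m) ^ ν ≤
        rttwLam m lam ⊔ maximalIdeal (RttwS O m) ^ ν) (rthkciPsiχ h2 p hp hm ι ν ζ hζ δ) := by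
  have key := rthkch_congr (RingHom.ker (Ideal.Quotient.factor
      (le_sup_right : maximalIdeal (RttwS O m) ^ ν ≤
        rttwLam m lam ⊔ maximalIdeal (RttwS O m) ^ ν)))
    (rthkciW1 h2 p hp hm ι ν) (rthkciWχ h2 p hp hm ι ν ζ) (rthkci_w1_pow h2 p hp hm ι ν)
    (rthkci_wχ_pow h2 p hp hm ι ν ζ hζ) (fun x => by
      rcases x with j | i
      · show rthkciU h2 p hp m ν (Fin.castLE hm j) - rthkciU h2 p hp m ν (Fin.castLE hm j) ∈ _
        rw [sub_self]
        exact Ideal.zero_mem _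
      · exact rthkci_zeta_mem ν ζ hlam hζ1) δ
  rw [RingHom.mem_ker, map_sub, sub_eq_zero] at key
  exact key

/-- **`aug`** : `ψ1 ≡ 1` modulo `𝔞` -/
theorem rthkci_aug (δ : RthkchGrp p (rthkciExp h ι ν)) :
    Ideal.Quotient.factor (le_sup_right : maximalIdeal (RttwS O m) ^ ν ≤
        rttwAug O m ⊔ maximalIdeal (RttwS O m) ^ ν) (rthkciPsi1 h2 p hp hm ι ν δ) = 1 := by
  have key := rthkch_sub_one_mem (RingHom.ker (Ideal.Quotient.factor
      (le_sup_right : maximalIdeal (RttwS O m) ^ ν ≤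
        rttwAug O m ⊔ maximalIdeal (RttwS O m) ^ ν)))
    (rthkciW1 h2 p hp hm ι ν) (rthkci_w1_pow h2 p hp hm ι ν) (fun x => by
      rcases x with j | i
      · exact rthkci_u_sub_one_mem h2 p hp m ν (Fin.castLE hm j)
      · show (1 : RthkSn O m ν) - 1 ∈ _
        rw [sub_self]
        exact Ideal.zero_mem _) δ
  rw [RingHom.mem_ker, map_sub, map_one, sub_eq_zero] at key
  exact key

variable [DecidableEq (Fin h ⊕ ι)]

/-- the generator `e_x` of `Δ'` -/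
def rthkciGen (p : ℕ) (h : ℕ) (ι : Type) (ν : ℕ) [DecidableEq (Fin h ⊕ ι)] (x : Fin h ⊕ ι) :
    RthkchGrp p (rthkciExp h ι ν) :=
  Pi.mulSingle x (Multiplicative.ofAdd (1 : ZMod (p ^ rthkciExp h ι ν x)))

theorem rthkci_psi1_gen (x : Fin h ⊕ ι) :
    rthkciPsi1 h2 p hp hm ι ν (rthkciGen p h ι ν x) = rthkciW1 h2 p hp hm ι ν x :=
  rthkch_psi_gen _ _ x

theorem rthkci_psiχ_gen (hζ : ζ ^ p = 1) (x : Fin h ⊕ ι) :
    rthkciPsiχ h2 p hp hm ι ν ζ hζ (rthkciGen p h ι ν x) = rthkciWχ h2 p hp hm ι ν ζ x :=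
  rthkch_psi_gen _ _ x

/-- the value of a character at the inverse -/
theorem rthkci_psi_inv {Δ : Type*} [Group Δ] {R : Type*} [CommRing R] (ψ : Δ →* R) (δ : Δ)
    {a b : R} (ha : ψ δ = a) (hab : a * b = 1) : ψ δ⁻¹ = b := by
  have h1 : ψ δ * ψ δ⁻¹ = 1 := by rw [← map_mul, mul_inv_cancel, map_one]
  rw [ha] at h1
  exact rthkci_inv_unique h1 hab

/-- **`valT`** : the values at the generators of the trivial primes -/
theorem rthkci_valT (hζ : ζ ^ p = 1) (t : O) (ht : 2 * t = ζ + ζ ^ (p - 1)) (i : ι) :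
    rthkciPsi1 h2 p hp hm ι ν (rthkciGen p h ι ν (Sum.inr i)) = 1 ∧
      rthkciPsiχ h2 p hp hm ι ν ζ hζ (rthkciGen p h ι ν (Sum.inr i))
          + rthkciPsiχ h2 p hp hm ι ν ζ hζ (rthkciGen p h ι ν (Sum.inr i))⁻¹
        = algebraMap O (RthkSn O m ν) (2 * t) := by
  have hp1 : 1 ≤ p := (Fact.out : p.Prime).one_le
  refine ⟨rthkci_psi1_gen h2 p hp hm ι ν (Sum.inr i), ?_⟩
  have h1 : rthkciPsiχ h2 p hp hm ι ν ζ hζ (rthkciGen p h ι ν (Sum.inr i))
      = algebraMap O (RthkSn O m ν) ζ := rthkci_psiχ_gen h2 p hp hm ι ν ζ hζ (Sum.inr i)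
  have h3 : algebraMap O (RthkSn O m ν) ζ * algebraMap O (RthkSn O m ν) (ζ ^ (p - 1)) = 1 := by
    rw [← map_mul, ← pow_succ', Nat.sub_add_cancel hp1, hζ, map_one]
  have h4 := rthkci_psi_inv (rthkciPsiχ h2 p hp hm ι ν ζ hζ) _ h1 h3
  rw [h1, h4, ← map_add, ht]

/-- **`valQ`** for `ψ1` : the values at the generators of the Taylor–Wiles primes -/
theorem rthkci_valQ1 (j : Fin m) (hj : (j : ℕ) < h) :
    rthkciPsi1 h2 p hp hm ι ν (rthkciGen p h ι ν (Sum.inl ⟨j, hj⟩))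
        - rthkciPsi1 h2 p hp hm ι ν (rthkciGen p h ι ν (Sum.inl ⟨j, hj⟩))⁻¹
      = Ideal.Quotient.mk (maximalIdeal (RttwS O m) ^ ν) (MvPowerSeries.X j) := by
  have hc : Fin.castLE hm ⟨(j : ℕ), hj⟩ = j := Fin.ext rfl
  have h1 : rthkciPsi1 h2 p hp hm ι ν (rthkciGen p h ι ν (Sum.inl ⟨j, hj⟩))
      = rthkciU h2 p hp m ν j := by
    rw [rthkci_psi1_gen]
    show rthkciU h2 p hp m ν (Fin.castLE hm ⟨(j : ℕ), hj⟩) = _
    rw [hc]
  have h4 := rthkci_psi_inv (rthkciPsi1 h2 p hp hm ι ν) _ h1 (rthkci_u_mul_v h2 p hp m ν j)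
  rw [h1, h4, rthkci_u_sub_v]

/-- **`valQ`** for `ψχ` -/
theorem rthkci_valQχ (hζ : ζ ^ p = 1) (j : Fin m) (hj : (j : ℕ) < h) :
    rthkciPsiχ h2 p hp hm ι ν ζ hζ (rthkciGen p h ι ν (Sum.inl ⟨j, hj⟩))
        - rthkciPsiχ h2 p hp hm ι ν ζ hζ (rthkciGen p h ι ν (Sum.inl ⟨j, hj⟩))⁻¹
      = Ideal.Quotient.mk (maximalIdeal (RttwS O m) ^ ν) (MvPowerSeries.X j) := by
  have hc : Fin.castLE hm ⟨(j : ℕ), hj⟩ = j := Fin.ext rfl
  have h1 : rthkciPsiχ h2 p hp hm ι ν ζ hζ (rthkciGen p h ι ν (Sum.inl ⟨j, hj⟩))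
      = rthkciU h2 p hp m ν j := by
    rw [rthkci_psiχ_gen]
    show rthkciU h2 p hp m ν (Fin.castLE hm ⟨(j : ℕ), hj⟩) = _
    rw [hc]
  have h4 := rthkci_psi_inv (rthkciPsiχ h2 p hp hm ι ν ζ hζ) _ h1
    (rthkci_u_mul_v h2 p hp m ν j)
  rw [h1, h4, rthkci_u_sub_v]

/-! ### Transport along `κ : Δ →* Δ'` (HK-GRP) -/

variable {Δ : Type*} [Group Δ] (κ : Δ →* RthkchGrp p (rthkciExp h ι ν))

/-- `cong` for `ψ ∘ κ` -/
theorem rthkci_cong_comp (hζ : ζ ^ p = 1) {lam : O} (hlam : maximalIdeal O = Ideal.span {lam})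
    (hζ1 : ζ - 1 ∈ maximalIdeal O) (δ : Δ) :
    Ideal.Quotient.factor (le_sup_right : maximalIdeal (RttwS O m) ^ ν ≤
        rttwLam m lam ⊔ maximalIdeal (RttwS O m) ^ ν)
        (((rthkciPsi1 h2 p hp hm ι ν).comp κ) δ) =
      Ideal.Quotient.factor (le_sup_right : maximalIdeal (RttwS O m) ^ ν ≤
        rttwLam m lam ⊔ maximalIdeal (RttwS O m) ^ ν)
        (((rthkciPsiχ h2 p hp hm ι ν ζ hζ).comp κ) δ) :=
  rthkci_cong h2 p hp hm ι ν ζ hζ hlam hζ1 (κ δ)

/-- `aug` for `ψ1 ∘ κ` -/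
theorem rthkci_aug_comp (δ : Δ) :
    Ideal.Quotient.factor (le_sup_right : maximalIdeal (RttwS O m) ^ ν ≤
        rttwAug O m ⊔ maximalIdeal (RttwS O m) ^ ν)
      (((rthkciPsi1 h2 p hp hm ι ν).comp κ) δ) = 1 :=
  rthkci_aug h2 p hp hm ι ν (κ δ)

/-- `valT` for `ψ ∘ κ` at a `δ` over the generator `e_{inr i}` -/
theorem rthkci_valT_comp (hζ : ζ ^ p = 1) (t : O) (ht : 2 * t = ζ + ζ ^ (p - 1)) (i : ι)
    (δ : Δ) (hδ : κ δ = rthkciGen p h ι ν (Sum.inr i)) :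
    ((rthkciPsi1 h2 p hp hm ι ν).comp κ) δ = 1 ∧
      ((rthkciPsiχ h2 p hp hm ι ν ζ hζ).comp κ) δ
          + ((rthkciPsiχ h2 p hp hm ι ν ζ hζ).comp κ) δ⁻¹
        = algebraMap O (RthkSn O m ν) (2 * t) := by
  have key := rthkci_valT h2 p hp hm ι ν ζ hζ t ht i
  simp only [MonoidHom.comp_apply, map_inv, hδ]
  exact key

/-- `valQ` for `ψ ∘ κ` at a `δ` over the generator `e_{inl j}` -/
theorem rthkci_valQ_comp (hζ : ζ ^ p = 1) (j : Fin m) (hj : (j : ℕ) < h)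
    (δ : Δ) (hδ : κ δ = rthkciGen p h ι ν (Sum.inl ⟨j, hj⟩)) :
    ((rthkciPsi1 h2 p hp hm ι ν).comp κ) δ - ((rthkciPsi1 h2 p hp hm ι ν).comp κ) δ⁻¹
        = Ideal.Quotient.mk (maximalIdeal (RttwS O m) ^ ν) (MvPowerSeries.X j) ∧
      ((rthkciPsiχ h2 p hp hm ι ν ζ hζ).comp κ) δ
          - ((rthkciPsiχ h2 p hp hm ι ν ζ hζ).comp κ) δ⁻¹
        = Ideal.Quotient.mk (maximalIdeal (RttwS O m) ^ ν) (MvPowerSeries.X j) := by
  have k1 := rthkci_valQ1 h2 p hp hm ι ν j hj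
  have k2 := rthkci_valQχ h2 p hp hm ι ν ζ hζ j hj
  simp only [MonoidHom.comp_apply, map_inv, hδ]
  exact ⟨k1, k2⟩

end Abs

/-! ### The `KSetup` forms -/

section Setup

variable {P : FreyPackage} {N q : ℕ} (Y : KSetup P N q) (h ν : ℕ)

theorem rthkci_Y_le : h ≤ Y.m h := Nat.le_add_right _ _

/-- the diamond group `Δ'` of the setup: `∏_{j < h} ℤ/p^ν × ∏_{i} ℤ/p` -/
abbrev RthkciGrpY : Type := RthkchGrp P.p (rthkciExp h Y.ι ν)

/-- **`ψ1`** over a setup -/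
def rthkciPsi1Y [Fact P.p.Prime] : RthkciGrpY Y h ν →* RthkSn Y.O (Y.m h) ν :=
  rthkciPsi1 Y.h2 P.p Y.hyp.hp𝒪 (rthkci_Y_le Y h) Y.ι ν

/-- **`ψχ`** over a setup -/
def rthkciPsiχY [Fact P.p.Prime] : RthkciGrpY Y h ν →* RthkSn Y.O (Y.m h) ν :=
  rthkciPsiχ Y.h2 P.p Y.hyp.hp𝒪 (rthkci_Y_le Y h) Y.ι ν Y.ζ Y.hζ.pow_eq_one

variable [Fact P.p.Prime]

/-- **`cong`** (verbatim the field of `HkConc`, on `Δ'`) -/
theorem rthkci_Y_cong (δ : RthkciGrpY Y h ν) :
    Ideal.Quotient.factor (le_sup_right : maximalIdeal (RttwS Y.O (Y.m h)) ^ ν ≤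
        rttwLam (Y.m h) Y.lam ⊔ maximalIdeal (RttwS Y.O (Y.m h)) ^ ν) (rthkciPsi1Y Y h ν δ) =
      Ideal.Quotient.factor (le_sup_right : maximalIdeal (RttwS Y.O (Y.m h)) ^ ν ≤
        rttwLam (Y.m h) Y.lam ⊔ maximalIdeal (RttwS Y.O (Y.m h)) ^ ν)
        (rthkciPsiχY Y h ν δ) :=
  rthkci_cong Y.h2 P.p Y.hyp.hp𝒪 (rthkci_Y_le Y h) Y.ι ν Y.ζ Y.hζ.pow_eq_one Y.hlam
    Y.zeta_sub_one_mem δ

/-- **`aug`** (verbatim the field of `HkConc`, on `Δ'`) -/
theorem rthkci_Y_aug (δ : RthkciGrpY Y h ν) :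
    Ideal.Quotient.factor (le_sup_right : maximalIdeal (RttwS Y.O (Y.m h)) ^ ν ≤
        rttwAug Y.O (Y.m h) ⊔ maximalIdeal (RttwS Y.O (Y.m h)) ^ ν)
      (rthkciPsi1Y Y h ν δ) = 1 :=
  rthkci_aug Y.h2 P.p Y.hyp.hp𝒪 (rthkci_Y_le Y h) Y.ι ν δ

theorem rthkci_Y_two_tχ (i : Y.ι) : 2 * Y.tχ i = Y.ζ + Y.ζ ^ (P.p - 1) := by
  show 2 * (Y.half * (Y.ζ + Y.ζ ^ (P.p - 1))) = _
  rw [← mul_assoc, Y.two_mul_half, one_mul]

variable [DecidableEq (Fin h ⊕ Y.ι)]

/-- **`valT`** : the values of `ψ1`, `ψχ` at the generator `e_{inr i}` -/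
theorem rthkci_Y_valT (i : Y.ι) :
    rthkciPsi1Y Y h ν (rthkciGen P.p h Y.ι ν (Sum.inr i)) = 1 ∧
      rthkciPsiχY Y h ν (rthkciGen P.p h Y.ι ν (Sum.inr i))
          + rthkciPsiχY Y h ν (rthkciGen P.p h Y.ι ν (Sum.inr i))⁻¹
        = algebraMap Y.O (RthkSn Y.O (Y.m h) ν) (2 * Y.tχ i) :=
  rthkci_valT Y.h2 P.p Y.hyp.hp𝒪 (rthkci_Y_le Y h) Y.ι ν Y.ζ Y.hζ.pow_eq_one (Y.tχ i)
    (rthkci_Y_two_tχ Y i) i

/-- **`valQ`** : the values of `ψ1`, `ψχ` at the generator `e_{inl j}` -/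
theorem rthkci_Y_valQ (j : Fin (Y.m h)) (hj : (j : ℕ) < h) :
    rthkciPsi1Y Y h ν (rthkciGen P.p h Y.ι ν (Sum.inl ⟨j, hj⟩))
          - rthkciPsi1Y Y h ν (rthkciGen P.p h Y.ι ν (Sum.inl ⟨j, hj⟩))⁻¹
        = Ideal.Quotient.mk (maximalIdeal (RttwS Y.O (Y.m h)) ^ ν) (MvPowerSeries.X j) ∧
      rthkciPsiχY Y h ν (rthkciGen P.p h Y.ι ν (Sum.inl ⟨j, hj⟩))
          - rthkciPsiχY Y h ν (rthkciGen P.p h Y.ι ν (Sum.inl ⟨j, hj⟩))⁻¹
        = Ideal.Quotient.mk (maximalIdeal (RttwS Y.O (Y.m h)) ^ ν) (MvPowerSeries.X j) :=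
  ⟨rthkci_valQ1 Y.h2 P.p Y.hyp.hp𝒪 (rthkci_Y_le Y h) Y.ι ν j hj,
    rthkci_valQχ Y.h2 P.p Y.hyp.hp𝒪 (rthkci_Y_le Y h) Y.ι ν Y.ζ Y.hζ.pow_eq_one j hj⟩

/-- **CHARS-INST, packaged for HK-CONC**: for every `κ : Δ →* Δ'` (HK-GRP), the characters
`ψ1 := ψ1' ∘ κ`, `ψχ := ψχ' ∘ κ` satisfy `cong`, `aug` and have the values required in `trT`,
`trQ` at every `δ` over a generator. -/
theorem rthkci_Y_main {Δ : Type*} [Group Δ] (κ : Δ →* RthkciGrpY Y h ν) :
    (∀ δ : Δ,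
      Ideal.Quotient.factor (le_sup_right : maximalIdeal (RttwS Y.O (Y.m h)) ^ ν ≤
          rttwLam (Y.m h) Y.lam ⊔ maximalIdeal (RttwS Y.O (Y.m h)) ^ ν)
          (((rthkciPsi1Y Y h ν).comp κ) δ) =
        Ideal.Quotient.factor (le_sup_right : maximalIdeal (RttwS Y.O (Y.m h)) ^ ν ≤
          rttwLam (Y.m h) Y.lam ⊔ maximalIdeal (RttwS Y.O (Y.m h)) ^ ν)
          (((rthkciPsiχY Y h ν).comp κ) δ)) ∧
    (∀ δ : Δ,
      Ideal.Quotient.factor (le_sup_right : maximalIdeal (RttwS Y.O (Y.m h)) ^ ν ≤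
          rttwAug Y.O (Y.m h) ⊔ maximalIdeal (RttwS Y.O (Y.m h)) ^ ν)
        (((rthkciPsi1Y Y h ν).comp κ) δ) = 1) ∧
    (∀ (i : Y.ι) (δ : Δ), κ δ = rthkciGen P.p h Y.ι ν (Sum.inr i) →
      ((rthkciPsi1Y Y h ν).comp κ) δ = 1 ∧
        ((rthkciPsiχY Y h ν).comp κ) δ + ((rthkciPsiχY Y h ν).comp κ) δ⁻¹
          = algebraMap Y.O (RthkSn Y.O (Y.m h) ν) (2 * Y.tχ i)) ∧
    (∀ (j : Fin (Y.m h)) (hj : (j : ℕ) < h) (δ : Δ),
      κ δ = rthkciGen P.p h Y.ι ν (Sum.inl ⟨j, hj⟩) →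
      ((rthkciPsi1Y Y h ν).comp κ) δ - ((rthkciPsi1Y Y h ν).comp κ) δ⁻¹
          = Ideal.Quotient.mk (maximalIdeal (RttwS Y.O (Y.m h)) ^ ν) (MvPowerSeries.X j) ∧
        ((rthkciPsiχY Y h ν).comp κ) δ - ((rthkciPsiχY Y h ν).comp κ) δ⁻¹
          = Ideal.Quotient.mk (maximalIdeal (RttwS Y.O (Y.m h)) ^ ν) (MvPowerSeries.X j)) := by
  refine ⟨fun δ => rthkci_Y_cong Y h ν (κ δ), fun δ => rthkci_Y_aug Y h ν (κ δ),
    fun i δ hδ => ?_, fun j hj δ hδ => ?_⟩
  · have key := rthkci_Y_valT Y h ν i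
    simp only [MonoidHom.comp_apply, map_inv, hδ]
    exact key
  · have key := rthkci_Y_valQ Y h ν j hj
    simp only [MonoidHom.comp_apply, map_inv, hδ]
    exact key

end Setup

end

end Fermat.Agent.RT


end ZBRT_007_9

/-! ### bundled: `Fermat.Agent.RT.Hecke.CharsGrp` -/
section ZBRT_007_10
/-
RT-HECKE / CHARS-GRP (helper27): the two characters `ψ1, ψχ` on the CONCRETE diamond group
`RthkdDelta M (rthkdH p v k M hM)` of HK-CONC, from CHARS-INST (`CharsInst.lean`) and HK-GRP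
(`GrpBridge.lean`, helper8).
-/

/-!
# K-machine, HECKE-asm, piece CHARS-GRP

`Y : KSetup P N q`, `h n`, `qv : Fin h → ℕ` a Taylor–Wiles family of level `n`;
`κ = Fin h ⊕ Y.ι`, `v = rthkcgV Y qv = Sum.elim qv Y.r`, `k = rthkciExp h Y.ι (n + 1)`.

* `rthkcg_v_prime`, `rthkcg_v_inj`, `rthkcg_pow_dvd` : the hypotheses `hvp`, `hv`, `hk` of HK-GRP;
* `rthkcg_exists` : for every `M ≠ 0` with `v x ∣ M` and every system of generators
  `γ : κ → (ℤ/M)ˣ` with (G1), (G2) there are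
  `ψ1, ψχ : RthkdDelta M (rthkdH P.p v k M hM) →* S ⧸ 𝔪 ^ (n + 1)` with `cong`, `aug` (verbatim the
  fields of `HkConc`) and the values required in `trT`, `trQ` at `δ = mk (γ x)`.
-/

set_option autoImplicit false
set_option linter.unusedSectionVars false
set_option linter.unusedVariables false
set_option linter.style.haveILetI false

namespace Fermat.Agent.RT

open IsLocalRing Fermat.Agent.RT.Prod Fermat.Agent.TW

section Arith

variable {P : FreyPackage} {N q : ℕ} (Y : KSetup P N q) {h : ℕ} (qv : Fin h → ℕ)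

/-- the primes of the diamonds: the Taylor–Wiles primes and the trivial primes -/
def rthkcgV : Fin h ⊕ Y.ι → ℕ := Sum.elim qv Y.r

@[simp] theorem rthkcgV_inl (j : Fin h) : rthkcgV Y qv (Sum.inl j) = qv j := rfl

@[simp] theorem rthkcgV_inr (i : Y.ι) : rthkcgV Y qv (Sum.inr i) = Y.r i := rfl

variable {qv} {n : ℕ}

theorem rthkcg_v_prime
    (hTW : IsTWFamily P.p Y.ρbar (Y.Smin ∪ Finset.univ.image Y.r) n h qv)
    (x : Fin h ⊕ Y.ι) : (rthkcgV Y qv x).Prime := by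
  rcases x with j | i
  · exact (hTW.2.1 j).1
  · exact Y.r_prime i

theorem rthkcg_v_inj
    (hTW : IsTWFamily P.p Y.ρbar (Y.Smin ∪ Finset.univ.image Y.r) n h qv) :
    Function.Injective (rthkcgV Y qv) := by
  have hne : ∀ (j : Fin h) (i : Y.ι), qv j ≠ Y.r i := by
    intro j i e
    refine (hTW.2.1 j).2.1 (Finset.mem_union_right _ ?_)
    rw [e]
    exact Y.mem_T i
  rintro (j | i) (j' | i') e
  · exact congrArg Sum.inl (hTW.1 e)
  · exact absurd e (hne j i')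
  · exact absurd e.symm (hne j' i)
  · exact congrArg Sum.inr (Y.r_inj e)

theorem rthkcg_pow_dvd
    (hTW : IsTWFamily P.p Y.ρbar (Y.Smin ∪ Finset.univ.image Y.r) n h qv)
    (x : Fin h ⊕ Y.ι) : P.p ^ rthkciExp h Y.ι (n + 1) x ∣ rthkcgV Y qv x - 1 := by
  rcases x with j | i
  · exact (hTW.2.1 j).2.2
  · show P.p ^ 1 ∣ Y.r i - 1
    rw [pow_one]
    exact Y.p_dvd i

theorem rthkcg_exp_le (ν : ℕ) (hν : 1 ≤ ν) (x : Fin h ⊕ Y.ι) : rthkciExp h Y.ι ν x ≤ ν := by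
  rcases x with j | i
  · exact le_rfl
  · exact hν

end Arith

section Chars

variable {P : FreyPackage} {N q : ℕ} (Y : KSetup P N q) {h : ℕ} {qv : Fin h → ℕ} {n : ℕ}

/-- **CHARS-GRP**: the two characters on the concrete diamond group, with `cong`, `aug` and the
values at the classes of the generators `γ x`. -/
theorem rthkcg_exists [Fact P.p.Prime]
    (hTW : IsTWFamily P.p Y.ρbar (Y.Smin ∪ Finset.univ.image Y.r) n h qv)
    {M : ℕ} (hM0 : M ≠ 0) (hM : ∀ x, rthkcgV Y qv x ∣ M) (γ : Fin h ⊕ Y.ι → (ZMod M)ˣ)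
    (hγ1 : ∀ x y, y ≠ x → ZMod.unitsMap (hM y) (γ x) = 1)
    (hγ2 : ∀ x, ¬ ∃ y : (ZMod (rthkcgV Y qv x))ˣ, y ^ P.p = ZMod.unitsMap (hM x) (γ x)) :
    ∃ ψ1 ψχ : RthkdDelta M (rthkdH P.p (rthkcgV Y qv) (rthkciExp h Y.ι (n + 1)) M hM) →*
        RthkSn Y.O (Y.m h) (n + 1),
      (∀ δ, Ideal.Quotient.factor
          (le_sup_right : maximalIdeal (RttwS Y.O (Y.m h)) ^ (n + 1) ≤
            rttwLam (Y.m h) Y.lam ⊔ maximalIdeal (RttwS Y.O (Y.m h)) ^ (n + 1)) (ψ1 δ) =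
        Ideal.Quotient.factor
          (le_sup_right : maximalIdeal (RttwS Y.O (Y.m h)) ^ (n + 1) ≤
            rttwLam (Y.m h) Y.lam ⊔ maximalIdeal (RttwS Y.O (Y.m h)) ^ (n + 1)) (ψχ δ)) ∧
      (∀ δ, Ideal.Quotient.factor
          (le_sup_right : maximalIdeal (RttwS Y.O (Y.m h)) ^ (n + 1) ≤
            rttwAug Y.O (Y.m h) ⊔ maximalIdeal (RttwS Y.O (Y.m h)) ^ (n + 1)) (ψ1 δ) = 1) ∧
      (∀ i : Y.ι,
        ψ1 (QuotientGroup.mk (γ (Sum.inr i))) = 1 ∧
        ψχ (QuotientGroup.mk (γ (Sum.inr i))) + ψχ (QuotientGroup.mk (γ (Sum.inr i)))⁻¹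
          = algebraMap Y.O (RthkSn Y.O (Y.m h) (n + 1)) (2 * Y.tχ i)) ∧
      (∀ (j : Fin (Y.m h)) (hj : (j : ℕ) < h),
        ψ1 (QuotientGroup.mk (γ (Sum.inl ⟨j, hj⟩)))
            - ψ1 (QuotientGroup.mk (γ (Sum.inl ⟨j, hj⟩)))⁻¹
          = Ideal.Quotient.mk (maximalIdeal (RttwS Y.O (Y.m h)) ^ (n + 1))
              (MvPowerSeries.X j) ∧
        ψχ (QuotientGroup.mk (γ (Sum.inl ⟨j, hj⟩)))
            - ψχ (QuotientGroup.mk (γ (Sum.inl ⟨j, hj⟩)))⁻¹
          = Ideal.Quotient.mk (maximalIdeal (RttwS Y.O (Y.m h)) ^ (n + 1))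
              (MvPowerSeries.X j)) := by
  classical
  obtain ⟨κγ, hgen, -⟩ := rthkgb_equiv (p := P.p) (k := rthkciExp h Y.ι (n + 1)) P.pp
    Y.hyp.hp2 (rthkcg_v_inj Y hTW) (rthkcg_v_prime Y hTW) (rthkcg_pow_dvd Y hTW) hM0 hM γ hγ1
    (fun x _ => hγ2 x)
  obtain ⟨h1, h2, h3, h4⟩ := rthkci_Y_main Y h (n + 1) κγ.toMonoidHom
  refine ⟨(rthkciPsi1Y Y h (n + 1)).comp κγ.toMonoidHom,
    (rthkciPsiχY Y h (n + 1)).comp κγ.toMonoidHom, h1, h2, fun i => ?_, fun j hj => ?_⟩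
  · exact h3 i _ (hgen (Sum.inr i))
  · exact h4 j hj _ (hgen (Sum.inl ⟨j, hj⟩))

end Chars

end Fermat.Agent.RT


end ZBRT_007_10

/-! ### bundled: `Fermat.Agent.RT.Hecke.ConcTr` -/
section ZBRT_007_11

/-!
# K-machine, HECKE-asm, HK-CONC: the fields `cong`, `aug`, `trT`, `trQ` of `HkConcSide` (helper69)

`Y : KSetup P N q`, `qv : Fin h → ℕ` a Taylor–Wiles family of level `n`, `v = rthkcgV Y qv`
(`= Sum.elim qv Y.r`), `k = rthkciExp h Y.ι (n + 1)`, a level `(L, M)` with `M ∣ L`, `v x ∣ M`,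
`(v x)² ∤ L`, `p ∤ L`; `H' = rthkdH P.p v k M hM`, `e = rthkdE P.p (n + 1)`,
`J = es1inftwJ L M H' P.p (k7ftwChar M e)`.

* `rthkt_op` : **the operator part**: for `g` in an inertia group at `v x`, the polynomial
  `x = δ_c ^ e + δ_{c⁻¹} ^ e`, `c = c_M(g)`, represents `g + χ_cyc(g) g⁻¹` on every `J[p ^ k]`
  (K6: `ES1.es1inftw_chi_approx`) and acts on `Hom(Γ_{H'}(L), B)` as `D u + D u⁻¹`, `u = c ^ e`
  (`ES1.es1infev_chiPoly`);
* `rthkt_chars_tr` : **the package**: there are `ψ1, ψχ : Δ →* S ⧸ 𝔪 ^ (n + 1)` with the fields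
  `cong`, `aug`, `trT`, `trQ` of `HkConcSide` VERBATIM (for every `𝔲`, `ℓ₀`): the generators
  `γ x = c_M(g x) ^ e` of `RT/Hecke/ConcTrCyc.lean` (`g (inr i) = Y.σ i`), the characters of
  CHARS-GRP (`rthkcg_exists`, helper27; `κ_γ` of HK-GRP, helper8) and the operator part;
* `rthkt_not_sq_dvd_L`, `rthkt_p_not_dvd_L` : the hypotheses `hL2`, `hpL` for the concrete level
  `L = N * rthkdM qv` (`N` a conductor level, `p ∤ N`).
-/

set_option autoImplicit false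
set_option linter.unusedSectionVars false
set_option linter.unusedVariables false
set_option linter.style.haveILetI false

noncomputable section

namespace Fermat.Agent.RT

open IsLocalRing Fermat.Agent.RT.K5 Fermat.Agent.RT.K6 Fermat.Agent.RT.K7F Fermat.Agent.ES
  Fermat.Agent.ES1 Fermat.Agent.S30 Fermat.Agent.TW Fermat.Agent.RT.Prod

section Arith

variable {P : FreyPackage}

/-- `e = (p ^ ν + 1) / 2` is prime to `p` (`1 ≤ ν`) -/
theorem rthkt_coprime_E {ν : ℕ} (hν : 1 ≤ ν) : Nat.Coprime (rthkdE P.p ν) P.p := by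
  have h2 := rthkd_two_E P.hp_odd ν
  rw [Nat.coprime_comm, Nat.Prime.coprime_iff_not_dvd P.pp]
  intro hd
  have h3 : P.p ∣ P.p ^ ν + 1 := by
    rw [← h2]
    exact Dvd.dvd.mul_left hd 2
  have h4 : P.p ∣ P.p ^ ν := dvd_pow_self _ (by omega)
  have h5 : P.p ∣ 1 := (Nat.dvd_add_right h4).mp h3
  exact P.pp.one_lt.ne' (Nat.dvd_one.mp h5)

theorem rthkt_one_le_E (ν : ℕ) : 1 ≤ rthkdE P.p ν := by
  have h1 : 1 ≤ P.p ^ ν := Nat.one_le_pow _ _ P.hppos
  rw [rthkdE]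
  omega

/-- a prime `r` with `p ∣ r − 1` is not `p` -/
theorem rthkt_ne_p {r : ℕ} (hr : r.Prime) (h : P.p ∣ r - 1) : r ≠ P.p := by
  intro e
  rw [e] at h
  have h1 : P.p - 1 < P.p := Nat.sub_lt P.hppos one_pos
  have h2 : 0 < P.p - 1 := by have := P.hp5; omega
  exact absurd (Nat.le_of_dvd h2 h) (not_le.mpr h1)

end Arith

section Op

variable {P : FreyPackage} {N q : ℕ} (Y : KSetup P N q) {n h : ℕ} {qv : Fin h → ℕ}
  {L M : ℕ} [NeZero L] [NeZero M] [hML : Fact (M ∣ L)] [hpF : Fact P.p.Prime]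

/-- **the operator part** of `trT` / `trQ` at one inertia element. -/
theorem rthkt_op (hChi : StmtChiJDiv)
    (hTW : IsTWFamily P.p Y.ρbar (Y.Smin ∪ Finset.univ.image Y.r) n h qv)
    (hM : ∀ x, rthkcgV Y qv x ∣ M) (hL2 : ∀ x, ¬ rthkcgV Y qv x ^ 2 ∣ L) (hpL : ¬ P.p ∣ L)
    (x : Fin h ⊕ Y.ι) (A : ValuationSubring (AlgebraicClosure ℚ))
    (hA : A.LiesOverPrime (rthkcgV Y qv x)) (g : GQ) (hg : g ∈ A.inertiaSubgroupIn ℚ) :
    (∀ k : ℕ, Rtk7bApprox P.p
        (es1inftwJ L M (rthkdH P.p (rthkcgV Y qv) (rthkciExp h Y.ι (n + 1)) M hM) P.p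
          (k7ftwChar M (rthkdE P.p (n + 1))))
        (fun n g => ((cycE P.p n g : ℕ) : HDAlg M)) k g
        (es1inftwChiPoly M (rthkdE P.p (n + 1)) (Fermat.Agent.S42.cycloChar M g))) ∧
      ∀ (B : Type) [AddCommGroup B]
        (ψ : HomS (gammaH L M (rthkdH P.p (rthkcgV Y qv) (rthkciExp h Y.ι (n + 1)) M hM)) B),
        es1infHomEval L M (rthkdH P.p (rthkcgV Y qv) (rthkciExp h Y.ι (n + 1)) M hM)
            hML.out P.p B
            (es1inftwChiPoly M (rthkdE P.p (n + 1)) (Fermat.Agent.S42.cycloChar M g)) ψ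
          = diamU L M (rthkdH P.p (rthkcgV Y qv) (rthkciExp h Y.ι (n + 1)) M hM) B
              (Fermat.Agent.S42.cycloChar M g ^ rthkdE P.p (n + 1)) ψ
            + diamU L M (rthkdH P.p (rthkcgV Y qv) (rthkciExp h Y.ι (n + 1)) M hM) B
              (Fermat.Agent.S42.cycloChar M g ^ rthkdE P.p (n + 1))⁻¹ ψ := by
  have hM0 : M ≠ 0 := NeZero.ne M
  have hvp := rthkcg_v_prime Y hTW
  have hv := rthkcg_v_inj Y hTW
  have hk := rthkcg_pow_dvd Y hTW
  have hp1 : P.p ∣ rthkcgV Y qv x - 1 := by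
    refine dvd_trans (dvd_pow_self P.p ?_) (hk x)
    rcases x with j | i
    · exact Nat.succ_ne_zero n
    · exact one_ne_zero
  refine ⟨fun k' => ?_, fun B _ ψ => es1infev_chiPoly _ _ ψ⟩
  exact es1inftw_chi_approx hChi (rthkdE P.p (n + 1)) (rthkt_one_le_E (n + 1))
    (rthkd_pow_E_mem P.hp_odd (rthkcg_exp_le Y (n + 1) (Nat.succ_le_succ (Nat.zero_le n))))
    (k7ftwChar M (rthkdE P.p (n + 1))) (hvp x) (hM x) (hL2 x) (rthkt_ne_p (hvp x) hp1)
    (rthkh_isStarStable P.pp Y.hyp.hp2 hv hvp hk hM0 hM (hvp x) (hM x))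
    (rthkh_isTameAt P.pp P.hp5 hpL hM _) A hA g hg rfl k'

end Op

section Package

variable {P : FreyPackage} {N q : ℕ} (Y : KSetup P N q) {n h : ℕ} {qv : Fin h → ℕ}
  {L M : ℕ} [NeZero L] [NeZero M] [hML : Fact (M ∣ L)] [hpF : Fact P.p.Prime]

/-- **the fields `cong`, `aug`, `trT`, `trQ` of `HkConcSide`**, for every level `(L, M)`. -/
theorem rthkt_chars_tr (hChi : StmtChiJDiv)
    (hTW : IsTWFamily P.p Y.ρbar (Y.Smin ∪ Finset.univ.image Y.r) n h qv)
    (hM : ∀ x, rthkcgV Y qv x ∣ M) (hL2 : ∀ x, ¬ rthkcgV Y qv x ^ 2 ∣ L) (hpL : ¬ P.p ∣ L)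
    (𝔲 : NatFam Y.O L M) (ℓ₀ : ℕ) [NeZero ℓ₀] :
    ∃ ψ1 ψχ : RthkdDelta M (rthkdH P.p (rthkcgV Y qv) (rthkciExp h Y.ι (n + 1)) M hM) →*
        RthkSn Y.O (Y.m h) (n + 1),
      (∀ δ, Ideal.Quotient.factor
          (le_sup_right : maximalIdeal (RttwS Y.O (Y.m h)) ^ (n + 1) ≤
            rttwLam (Y.m h) Y.lam ⊔ maximalIdeal (RttwS Y.O (Y.m h)) ^ (n + 1)) (ψ1 δ) =
        Ideal.Quotient.factor
          (le_sup_right : maximalIdeal (RttwS Y.O (Y.m h)) ^ (n + 1) ≤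
            rttwLam (Y.m h) Y.lam ⊔ maximalIdeal (RttwS Y.O (Y.m h)) ^ (n + 1)) (ψχ δ)) ∧
      (∀ δ, Ideal.Quotient.factor
          (le_sup_right : maximalIdeal (RttwS Y.O (Y.m h)) ^ (n + 1) ≤
            rttwAug Y.O (Y.m h) ⊔ maximalIdeal (RttwS Y.O (Y.m h)) ^ (n + 1)) (ψ1 δ) = 1) ∧
      (∀ i, ∃ (x : HDAlg M) (u : (ZMod M)ˣ),
        (∀ k, Rtk7bApprox P.p
          (es1inftwJ L M (rthkdH P.p (rthkcgV Y qv) (rthkciExp h Y.ι (n + 1)) M hM) P.p
            (k7ftwChar M (rthkdE P.p (n + 1))))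
          (fun n g => ((cycE P.p n g : ℕ) : HDAlg M)) k (Y.σ i) x) ∧
        (∀ ψ ∈ etaPart (thetaN 𝔲 ℓ₀ (RthkdC Y.O (n + 1))
            (rthkdH P.p (rthkcgV Y qv) (rthkciExp h Y.ι (n + 1)) M hM)),
          es1infHomEval L M (rthkdH P.p (rthkcgV Y qv) (rthkciExp h Y.ι (n + 1)) M hM)
              hML.out P.p (RthkdC Y.O (n + 1)) x ψ
            = diamU L M (rthkdH P.p (rthkcgV Y qv) (rthkciExp h Y.ι (n + 1)) M hM)
                (RthkdC Y.O (n + 1)) u ψ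
              + diamU L M (rthkdH P.p (rthkcgV Y qv) (rthkciExp h Y.ι (n + 1)) M hM)
                (RthkdC Y.O (n + 1)) u⁻¹ ψ) ∧
        ψ1 (QuotientGroup.mk u) = 1 ∧
        ψχ (QuotientGroup.mk u) + ψχ (QuotientGroup.mk u)⁻¹
          = algebraMap Y.O (RthkSn Y.O (Y.m h) (n + 1)) (2 * Y.tχ i)) ∧
      (∀ j : Fin (Y.m h), (j : ℕ) < h → ∃ (g : GQ) (x : HDAlg M) (u : (ZMod M)ˣ),
        (∀ k, Rtk7bApprox P.p
          (es1inftwJ L M (rthkdH P.p (rthkcgV Y qv) (rthkciExp h Y.ι (n + 1)) M hM) P.p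
            (k7ftwChar M (rthkdE P.p (n + 1))))
          (fun n g => ((cycE P.p n g : ℕ) : HDAlg M)) k g x) ∧
        (∀ ψ ∈ etaPart (thetaN 𝔲 ℓ₀ (RthkdC Y.O (n + 1))
            (rthkdH P.p (rthkcgV Y qv) (rthkciExp h Y.ι (n + 1)) M hM)),
          es1infHomEval L M (rthkdH P.p (rthkcgV Y qv) (rthkciExp h Y.ι (n + 1)) M hM)
              hML.out P.p (RthkdC Y.O (n + 1)) x ψ
            = diamU L M (rthkdH P.p (rthkcgV Y qv) (rthkciExp h Y.ι (n + 1)) M hM)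
                (RthkdC Y.O (n + 1)) u ψ
              + diamU L M (rthkdH P.p (rthkcgV Y qv) (rthkciExp h Y.ι (n + 1)) M hM)
                (RthkdC Y.O (n + 1)) u⁻¹ ψ) ∧
        ψ1 (QuotientGroup.mk u) - ψ1 (QuotientGroup.mk u)⁻¹
          = Ideal.Quotient.mk (maximalIdeal (RttwS Y.O (Y.m h)) ^ (n + 1))
              (MvPowerSeries.X j) ∧
        ψχ (QuotientGroup.mk u) - ψχ (QuotientGroup.mk u)⁻¹
          = Ideal.Quotient.mk (maximalIdeal (RttwS Y.O (Y.m h)) ^ (n + 1))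
              (MvPowerSeries.X j)) := by
  have hM0 : M ≠ 0 := NeZero.ne M
  have hvp := rthkcg_v_prime Y hTW
  have hv := rthkcg_v_inj Y hTW
  have hk := rthkcg_pow_dvd Y hTW
  have hp1 : ∀ x, P.p ∣ rthkcgV Y qv x - 1 := by
    intro x
    refine dvd_trans (dvd_pow_self P.p ?_) (hk x)
    rcases x with j | i
    · exact Nat.succ_ne_zero n
    · exact one_ne_zero
  have hM2 : ∀ x, ¬ rthkcgV Y qv x ^ 2 ∣ M := fun x hd => hL2 x (hd.trans hML.out)
  -- the generators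
  obtain ⟨g, hgσ, hgin, hγ1, hγ2⟩ := rthkt_exists_gens M (p := P.p) Y.r Y.σ Y.φ
    (fun i => Y.r_prime i) Y.hloc qv (fun j => (hTW.2.1 j).1) hv hM hM2 hp1
    (rthkdE P.p (n + 1)) (rthkt_coprime_E (Nat.succ_le_succ (Nat.zero_le n)))
  -- the characters
  obtain ⟨ψ1, ψχ, hcong, haug, hT, hQ⟩ := rthkcg_exists Y hTW hM0 hM
    (fun x => Fermat.Agent.S42.cycloChar M (g x) ^ rthkdE P.p (n + 1)) hγ1 hγ2
  refine ⟨ψ1, ψχ, hcong, haug, fun i => ?_, fun j hj => ?_⟩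
  · obtain ⟨A, hA, hg⟩ := hgin (Sum.inr i)
    obtain ⟨h1, h2⟩ := rthkt_op Y hChi hTW hM hL2 hpL (Sum.inr i) A hA _ hg
    rw [hgσ i] at h1 h2
    have h3 := hT i
    simp only [hgσ i] at h3
    exact ⟨_, _, h1, fun ψ _ => h2 _ ψ, h3.1, h3.2⟩
  · obtain ⟨A, hA, hg⟩ := hgin (Sum.inl ⟨j, hj⟩)
    obtain ⟨h1, h2⟩ := rthkt_op Y hChi hTW hM hL2 hpL (Sum.inl ⟨j, hj⟩) A hA _ hg
    have h3 := hQ j hj
    exact ⟨_, _, _, h1, fun ψ _ => h2 _ ψ, h3.1, h3.2⟩

end Package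

/-! ## the concrete level `L = N * ∏ qv j`, `M = ∏ v x` -/

section Inst

variable {P : FreyPackage} {N q : ℕ} (Y : KSetup P N q) {n h : ℕ} {qv : Fin h → ℕ}

/-- a Taylor–Wiles prime does not divide `N` -/
theorem rthkt_qv_not_dvd
    (hTW : IsTWFamily P.p Y.ρbar (Y.Smin ∪ Finset.univ.image Y.r) n h qv) (j : Fin h) :
    ¬ qv j ∣ N := by
  intro hd
  apply (hTW.2.1 j).2.1
  by_cases h2 : qv j = 2
  · refine Finset.mem_union_left _ ?_
    rw [Y.hSmin, h2]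
    exact Finset.mem_insert_self _ _
  · exact Finset.mem_union_right _ ((Y.hr (qv j)).mpr ⟨(hTW.2.1 j).1, h2, hd⟩)

/-- `L = N * ∏ qv j` is squarefree -/
theorem rthkt_L_sqfree (hcond : P.IsConductorLevel N)
    (hTW : IsTWFamily P.p Y.ρbar (Y.Smin ∪ Finset.univ.image Y.r) n h qv) :
    Squarefree (N * rthkdM qv) := by
  have hcop : Nat.Coprime N (rthkdM qv) := by
    rw [rthkdM]
    refine Nat.Coprime.prod_right fun j _ => ?_
    rw [Nat.coprime_comm, Nat.Prime.coprime_iff_not_dvd (hTW.2.1 j).1]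
    exact rthkt_qv_not_dvd Y hTW j
  rw [Nat.squarefree_mul hcop]
  refine ⟨hcond.squarefree, ?_⟩
  rw [rthkdM]
  apply Finset.squarefree_prod_of_pairwise_isCoprime
  · intro x _ y _ hxy
    show IsRelPrime (qv x) (qv y)
    rw [← Nat.coprime_iff_isRelPrime]
    exact (Nat.coprime_primes (hTW.2.1 x).1 (hTW.2.1 y).1).2 (fun e => hxy (hTW.1 e))
  · intro x _
    exact (hTW.2.1 x).1.squarefree

/-- no square of a prime divides `L` -/
theorem rthkt_not_sq_dvd_L (hcond : P.IsConductorLevel N)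
    (hTW : IsTWFamily P.p Y.ρbar (Y.Smin ∪ Finset.univ.image Y.r) n h qv) {r : ℕ}
    (hr : r.Prime) : ¬ r ^ 2 ∣ N * rthkdM qv := by
  intro hd
  have h1 : r * r ∣ N * rthkdM qv := by rwa [← sq]
  have h2 := rthkt_L_sqfree Y hcond hTW r h1
  exact hr.one_lt.ne' (Nat.isUnit_iff.mp h2)

/-- `p ∤ L` -/
theorem rthkt_p_not_dvd_L (hpN : ¬ P.p ∣ N)
    (hTW : IsTWFamily P.p Y.ρbar (Y.Smin ∪ Finset.univ.image Y.r) n h qv) :
    ¬ P.p ∣ N * rthkdM qv := by
  intro hd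
  rcases (Nat.Prime.dvd_mul P.pp).mp hd with h1 | h1
  · exact hpN h1
  · rw [rthkdM] at h1
    obtain ⟨j, -, hj⟩ := (Prime.dvd_finsetProd_iff P.pp.prime qv).mp h1
    have e : P.p = qv j := (Nat.prime_dvd_prime_iff_eq P.pp (hTW.2.1 j).1).mp hj
    apply (hTW.2.1 j).2.1
    refine Finset.mem_union_left _ ?_
    rw [Y.hSmin, ← e]
    exact Finset.mem_insert_of_mem (Finset.mem_singleton_self _)

end Inst

end Fermat.Agent.RT

end
end ZBRT_007_11

/-! ### bundled: `Fermat.Agent.RT.Hecke.ConcTr5` -/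
section ZBRT_007_12

/-!
# K-machine, HECKE-asm, HK-CONC: `cong`, `aug`, `trT`, `trQ` from `StmtChiJDiv5` (helper69)

The twin of `RT/Hecke/ConcTr.lean` with the hypothesis which K6 delivers
(`RT.K6.StmtChiJDiv5`, `RT/K6/FAux.lean`: `5 ≤ r`, exponents prime to `6`) instead of
`RT.K6.StmtChiJDiv`.  The primes `v x` are `≡ 1` mod `p` and `p ≥ 5`, so `5 ≤ v x`
(`rthkt_five_le`); the bridge is `ES1.es1inftw_chi_approx5` (`ES1/Inf/TwChi5.lean`, helper43).

* `rthkt_op5` : the operator part of `trT` / `trQ` at one inertia element;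
* `rthkt_chars_tr5` : **the package**: `∃ ψ1 ψχ`, `cong ∧ aug ∧ trT ∧ trQ` of `HkConcSide`
  VERBATIM, for every level `(L, M)` with `v x ∣ M`, `(v x)² ∤ L`, `p ∤ L`.
-/

set_option autoImplicit false
set_option linter.unusedSectionVars false
set_option linter.unusedVariables false
set_option linter.style.haveILetI false

noncomputable section

namespace Fermat.Agent.RT

open IsLocalRing Fermat.Agent.RT.K5 Fermat.Agent.RT.K6 Fermat.Agent.RT.K7F Fermat.Agent.ES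
  Fermat.Agent.ES1 Fermat.Agent.S30 Fermat.Agent.TW Fermat.Agent.RT.Prod

/-- a prime `r` with `p ∣ r − 1` (`p ≥ 5`) is at least `5` -/
theorem rthkt_five_le {P : FreyPackage} {r : ℕ} (hr : r.Prime) (h : P.p ∣ r - 1) : 5 ≤ r := by
  have h1 : 0 < r - 1 := by have := hr.two_le; omega
  have h2 := Nat.le_of_dvd h1 h
  have h3 := P.hp5
  omega

section Op5

variable {P : FreyPackage} {N q : ℕ} (Y : KSetup P N q) {n h : ℕ} {qv : Fin h → ℕ}
  {L M : ℕ} [NeZero L] [NeZero M] [hML : Fact (M ∣ L)] [hpF : Fact P.p.Prime]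

/-- **the operator part** of `trT` / `trQ` at one inertia element, from `StmtChiJDiv5`. -/
theorem rthkt_op5 (hChi : StmtChiJDiv5)
    (hTW : IsTWFamily P.p Y.ρbar (Y.Smin ∪ Finset.univ.image Y.r) n h qv)
    (hM : ∀ x, rthkcgV Y qv x ∣ M) (hL2 : ∀ x, ¬ rthkcgV Y qv x ^ 2 ∣ L) (hpL : ¬ P.p ∣ L)
    (x : Fin h ⊕ Y.ι) (A : ValuationSubring (AlgebraicClosure ℚ))
    (hA : A.LiesOverPrime (rthkcgV Y qv x)) (g : GQ) (hg : g ∈ A.inertiaSubgroupIn ℚ) :
    (∀ k : ℕ, Rtk7bApprox P.p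
        (es1inftwJ L M (rthkdH P.p (rthkcgV Y qv) (rthkciExp h Y.ι (n + 1)) M hM) P.p
          (k7ftwChar M (rthkdE P.p (n + 1))))
        (fun n g => ((cycE P.p n g : ℕ) : HDAlg M)) k g
        (es1inftwChiPoly M (rthkdE P.p (n + 1)) (Fermat.Agent.S42.cycloChar M g))) ∧
      ∀ (B : Type) [AddCommGroup B]
        (ψ : HomS (gammaH L M (rthkdH P.p (rthkcgV Y qv) (rthkciExp h Y.ι (n + 1)) M hM)) B),
        es1infHomEval L M (rthkdH P.p (rthkcgV Y qv) (rthkciExp h Y.ι (n + 1)) M hM)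
            hML.out P.p B
            (es1inftwChiPoly M (rthkdE P.p (n + 1)) (Fermat.Agent.S42.cycloChar M g)) ψ
          = diamU L M (rthkdH P.p (rthkcgV Y qv) (rthkciExp h Y.ι (n + 1)) M hM) B
              (Fermat.Agent.S42.cycloChar M g ^ rthkdE P.p (n + 1)) ψ
            + diamU L M (rthkdH P.p (rthkcgV Y qv) (rthkciExp h Y.ι (n + 1)) M hM) B
              (Fermat.Agent.S42.cycloChar M g ^ rthkdE P.p (n + 1))⁻¹ ψ := by
  have hM0 : M ≠ 0 := NeZero.ne M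
  have hvp := rthkcg_v_prime Y hTW
  have hv := rthkcg_v_inj Y hTW
  have hk := rthkcg_pow_dvd Y hTW
  have hp1 : P.p ∣ rthkcgV Y qv x - 1 := by
    refine dvd_trans (dvd_pow_self P.p ?_) (hk x)
    rcases x with j | i
    · exact Nat.succ_ne_zero n
    · exact one_ne_zero
  refine ⟨fun k' => ?_, fun B _ ψ => es1infev_chiPoly _ _ ψ⟩
  exact es1inftw_chi_approx5 hChi P.hp5 (rthkdE P.p (n + 1)) (rthkt_one_le_E (n + 1))
    (rthkd_pow_E_mem P.hp_odd (rthkcg_exp_le Y (n + 1) (Nat.succ_le_succ (Nat.zero_le n))))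
    (k7ftwChar M (rthkdE P.p (n + 1))) (hvp x) (rthkt_five_le (hvp x) hp1) (hM x) (hL2 x)
    (rthkt_ne_p (hvp x) hp1)
    (rthkh_isStarStable P.pp Y.hyp.hp2 hv hvp hk hM0 hM (hvp x) (hM x))
    (rthkh_isTameAt P.pp P.hp5 hpL hM _) A hA g hg rfl k'

end Op5

section Package5

variable {P : FreyPackage} {N q : ℕ} (Y : KSetup P N q) {n h : ℕ} {qv : Fin h → ℕ}
  {L M : ℕ} [NeZero L] [NeZero M] [hML : Fact (M ∣ L)] [hpF : Fact P.p.Prime]

/-- **the fields `cong`, `aug`, `trT`, `trQ` of `HkConcSide`**, for every level `(L, M)`, from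
`StmtChiJDiv5` (the form which K6 delivers). -/
theorem rthkt_chars_tr5 (hChi : StmtChiJDiv5)
    (hTW : IsTWFamily P.p Y.ρbar (Y.Smin ∪ Finset.univ.image Y.r) n h qv)
    (hM : ∀ x, rthkcgV Y qv x ∣ M) (hL2 : ∀ x, ¬ rthkcgV Y qv x ^ 2 ∣ L) (hpL : ¬ P.p ∣ L)
    (𝔲 : NatFam Y.O L M) (ℓ₀ : ℕ) [NeZero ℓ₀] :
    ∃ ψ1 ψχ : RthkdDelta M (rthkdH P.p (rthkcgV Y qv) (rthkciExp h Y.ι (n + 1)) M hM) →*
        RthkSn Y.O (Y.m h) (n + 1),
      (∀ δ, Ideal.Quotient.factor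
          (le_sup_right : maximalIdeal (RttwS Y.O (Y.m h)) ^ (n + 1) ≤
            rttwLam (Y.m h) Y.lam ⊔ maximalIdeal (RttwS Y.O (Y.m h)) ^ (n + 1)) (ψ1 δ) =
        Ideal.Quotient.factor
          (le_sup_right : maximalIdeal (RttwS Y.O (Y.m h)) ^ (n + 1) ≤
            rttwLam (Y.m h) Y.lam ⊔ maximalIdeal (RttwS Y.O (Y.m h)) ^ (n + 1)) (ψχ δ)) ∧
      (∀ δ, Ideal.Quotient.factor
          (le_sup_right : maximalIdeal (RttwS Y.O (Y.m h)) ^ (n + 1) ≤
            rttwAug Y.O (Y.m h) ⊔ maximalIdeal (RttwS Y.O (Y.m h)) ^ (n + 1)) (ψ1 δ) = 1) ∧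
      (∀ i, ∃ (x : HDAlg M) (u : (ZMod M)ˣ),
        (∀ k, Rtk7bApprox P.p
          (es1inftwJ L M (rthkdH P.p (rthkcgV Y qv) (rthkciExp h Y.ι (n + 1)) M hM) P.p
            (k7ftwChar M (rthkdE P.p (n + 1))))
          (fun n g => ((cycE P.p n g : ℕ) : HDAlg M)) k (Y.σ i) x) ∧
        (∀ ψ ∈ etaPart (thetaN 𝔲 ℓ₀ (RthkdC Y.O (n + 1))
            (rthkdH P.p (rthkcgV Y qv) (rthkciExp h Y.ι (n + 1)) M hM)),
          es1infHomEval L M (rthkdH P.p (rthkcgV Y qv) (rthkciExp h Y.ι (n + 1)) M hM)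
              hML.out P.p (RthkdC Y.O (n + 1)) x ψ
            = diamU L M (rthkdH P.p (rthkcgV Y qv) (rthkciExp h Y.ι (n + 1)) M hM)
                (RthkdC Y.O (n + 1)) u ψ
              + diamU L M (rthkdH P.p (rthkcgV Y qv) (rthkciExp h Y.ι (n + 1)) M hM)
                (RthkdC Y.O (n + 1)) u⁻¹ ψ) ∧
        ψ1 (QuotientGroup.mk u) = 1 ∧
        ψχ (QuotientGroup.mk u) + ψχ (QuotientGroup.mk u)⁻¹
          = algebraMap Y.O (RthkSn Y.O (Y.m h) (n + 1)) (2 * Y.tχ i)) ∧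
      (∀ j : Fin (Y.m h), (j : ℕ) < h → ∃ (g : GQ) (x : HDAlg M) (u : (ZMod M)ˣ),
        (∀ k, Rtk7bApprox P.p
          (es1inftwJ L M (rthkdH P.p (rthkcgV Y qv) (rthkciExp h Y.ι (n + 1)) M hM) P.p
            (k7ftwChar M (rthkdE P.p (n + 1))))
          (fun n g => ((cycE P.p n g : ℕ) : HDAlg M)) k g x) ∧
        (∀ ψ ∈ etaPart (thetaN 𝔲 ℓ₀ (RthkdC Y.O (n + 1))
            (rthkdH P.p (rthkcgV Y qv) (rthkciExp h Y.ι (n + 1)) M hM)),
          es1infHomEval L M (rthkdH P.p (rthkcgV Y qv) (rthkciExp h Y.ι (n + 1)) M hM)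
              hML.out P.p (RthkdC Y.O (n + 1)) x ψ
            = diamU L M (rthkdH P.p (rthkcgV Y qv) (rthkciExp h Y.ι (n + 1)) M hM)
                (RthkdC Y.O (n + 1)) u ψ
              + diamU L M (rthkdH P.p (rthkcgV Y qv) (rthkciExp h Y.ι (n + 1)) M hM)
                (RthkdC Y.O (n + 1)) u⁻¹ ψ) ∧
        ψ1 (QuotientGroup.mk u) - ψ1 (QuotientGroup.mk u)⁻¹
          = Ideal.Quotient.mk (maximalIdeal (RttwS Y.O (Y.m h)) ^ (n + 1))
              (MvPowerSeries.X j) ∧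
        ψχ (QuotientGroup.mk u) - ψχ (QuotientGroup.mk u)⁻¹
          = Ideal.Quotient.mk (maximalIdeal (RttwS Y.O (Y.m h)) ^ (n + 1))
              (MvPowerSeries.X j)) := by
  have hM0 : M ≠ 0 := NeZero.ne M
  have hvp := rthkcg_v_prime Y hTW
  have hv := rthkcg_v_inj Y hTW
  have hk := rthkcg_pow_dvd Y hTW
  have hp1 : ∀ x, P.p ∣ rthkcgV Y qv x - 1 := by
    intro x
    refine dvd_trans (dvd_pow_self P.p ?_) (hk x)
    rcases x with j | i
    · exact Nat.succ_ne_zero n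
    · exact one_ne_zero
  have hM2 : ∀ x, ¬ rthkcgV Y qv x ^ 2 ∣ M := fun x hd => hL2 x (hd.trans hML.out)
  -- the generators
  obtain ⟨g, hgσ, hgin, hγ1, hγ2⟩ := rthkt_exists_gens M (p := P.p) Y.r Y.σ Y.φ
    (fun i => Y.r_prime i) Y.hloc qv (fun j => (hTW.2.1 j).1) hv hM hM2 hp1
    (rthkdE P.p (n + 1)) (rthkt_coprime_E (Nat.succ_le_succ (Nat.zero_le n)))
  -- the characters
  obtain ⟨ψ1, ψχ, hcong, haug, hT, hQ⟩ := rthkcg_exists Y hTW hM0 hM
    (fun x => Fermat.Agent.S42.cycloChar M (g x) ^ rthkdE P.p (n + 1)) hγ1 hγ2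
  refine ⟨ψ1, ψχ, hcong, haug, fun i => ?_, fun j hj => ?_⟩
  · obtain ⟨A, hA, hg⟩ := hgin (Sum.inr i)
    obtain ⟨h1, h2⟩ := rthkt_op5 Y hChi hTW hM hL2 hpL (Sum.inr i) A hA _ hg
    rw [hgσ i] at h1 h2
    have h3 := hT i
    simp only [hgσ i] at h3
    exact ⟨_, _, h1, fun ψ _ => h2 _ ψ, h3.1, h3.2⟩
  · obtain ⟨A, hA, hg⟩ := hgin (Sum.inl ⟨j, hj⟩)
    obtain ⟨h1, h2⟩ := rthkt_op5 Y hChi hTW hM hL2 hpL (Sum.inl ⟨j, hj⟩) A hA _ hg
    have h3 := hQ j hj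
    exact ⟨_, _, _, h1, fun ψ _ => h2 _ ψ, h3.1, h3.2⟩

end Package5

end Fermat.Agent.RT

end
end ZBRT_007_12

/-! ### bundled: `Fermat.Agent.RT.Hecke.ConcTrFinal` -/
section ZBRT_007_13

/-!
# K-machine, HK-CONC: the K6 side `StmtHkfTr` of the final glue (helper69)

`rthkt_final : RT.K6.StmtChiJDiv5 → StmtHkfTr` — contract 2 of `RT/Hecke/ConcFinalPlan.lean`
(helper9): the characters `ψ1, ψχ` and the fields `cong`, `aug`, `trT`, `trQ` of `HkConcSide`
at the concrete level `L = N * ∏ qv j`, `M = ∏ qv j * ∏ r i`, `H' = rthkfH Y qv n`, from what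
K6 delivers (`stmtChiJDiv5_of_rigid`).  It is `rthkt_chars_tr5` (`RT/Hecke/ConcTr5.lean`) with
`rthkt_not_sq_dvd_L`, `rthkt_p_not_dvd_L` (`RT/Hecke/ConcTr.lean`).
-/

set_option autoImplicit false
set_option linter.unusedSectionVars false
set_option linter.unusedVariables false
set_option linter.style.haveILetI false

noncomputable section

namespace Fermat.Agent.RT

open IsLocalRing Fermat.Agent.RT.K5 Fermat.Agent.RT.K6 Fermat.Agent.RT.K7F Fermat.Agent.ES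
  Fermat.Agent.ES1 Fermat.Agent.S30 Fermat.Agent.TW Fermat.Agent.RT.Prod

/-- **The K6 side of the final glue**, from `StmtChiJDiv5`. -/
theorem rthkt_final (hChi : StmtChiJDiv5) : StmtHkfTr := by
  intro P N q _ hN hpN hq hq2 hqN Y h n qv hqv i1 i2 i3 i4 𝔲 ℓ₀ i5
  exact rthkt_chars_tr5 (L := N * rthkdM qv) (M := rthkdM (Sum.elim qv Y.r)) Y hChi hqv
    (rthkd_dvd_M _)
    (fun x => rthkt_not_sq_dvd_L Y hN hqv (rthkcg_v_prime Y hqv x))
    (rthkt_p_not_dvd_L Y hpN hqv) 𝔲 ℓ₀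

/-- the same from the unrestricted form `StmtChiJDiv`. -/
theorem rthkt_final_of_chiJDiv (hChi : StmtChiJDiv) : StmtHkfTr := by
  intro P N q _ hN hpN hq hq2 hqN Y h n qv hqv i1 i2 i3 i4 𝔲 ℓ₀ i5
  exact rthkt_chars_tr (L := N * rthkdM qv) (M := rthkdM (Sum.elim qv Y.r)) Y hChi hqv
    (rthkd_dvd_M _)
    (fun x => rthkt_not_sq_dvd_L Y hN hqv (rthkcg_v_prime Y hqv x))
    (rthkt_p_not_dvd_L Y hpN hqv) 𝔲 ℓ₀

end Fermat.Agent.RT

end
end ZBRT_007_13
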