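/- GENERATED FILE (helper35, build-time optimisation, NOTES/ZB.md): verbatim concatenation of the modules
   Fermat.Agent.RT.K4.Dim
   Do not edit; do not import together with these modules. -/
import Mathlib

/-! ### bundled: `Fermat.Agent.RT.K4.Dim` -/
section ZBRT_012_0

/-!
# K-machine, piece K4: the dimension toolkit behind the support lemma

* `rtk4_dim_le_of_integral`  : an injective integral extension does not lower the Krull dimension.
* `rtk4_dim_succ_le_of_lt`   : `𝔭 < P` primes ⇒ `dim R/P + 1 ≤ dim R/𝔭`.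
* `rtk4_comap_eq_bot`        : `M` torsion-free over the domain `S`; a prime minimal over
  `Ann_R(M)` contracts to `0` in `S`.
* `rtk4_isIntegral_quotient` : `M` finite over `S` ⇒ `R/P` is integral over `S` for `P ⊇ Ann_R(M)`.
* `rtk4_dim_le_quotient`     : hence `dim S ≤ dim R/P` for `P` minimal over `Ann_R(M)`.
* `rtk4_eq_of_le_minimal`    : if `𝔭 ≤ P` and `dim R/𝔭 ≤ dim S < ∞` then `P = 𝔭`.
* `rtk4_faithful_of_domain`  : `R` a domain with `dim R ≤ dim S < ∞` ⇒ `Ann_R(M) = 0`.
* `rtk4_unique_minimal`      : the uniqueness hypothesis of `rtk4_ann_le_prime` from a "Cramer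
  element".
-/

set_option autoImplicit false

namespace Fermat.Agent.RT.K4

open Function

/-- Going up: an injective integral extension does not lower the Krull dimension. -/
theorem rtk4_dim_le_of_integral {S C : Type*} [CommRing S] [CommRing C] [Algebra S C]
    [Algebra.IsIntegral S C] (hinj : Injective (algebraMap S C)) :
    ringKrullDim S ≤ ringKrullDim C := by
  refine iSup_le fun l => ?_
  obtain ⟨Q, -, hQ, hQ'⟩ := Ideal.exists_ideal_over_prime_of_isIntegral l.head.asIdeal
    (⊥ : Ideal C)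
    (by rw [← RingHom.ker_eq_comap_bot, (RingHom.injective_iff_ker_eq_bot _).mp hinj]
        exact bot_le)
  have := hQ
  have : Q.LiesOver l.head.asIdeal := ⟨hQ'.symm⟩
  obtain ⟨L, hlen, -, -⟩ := Ideal.exists_ltSeries_of_hasGoingUp l Q
  rw [← hlen]
  exact Order.LTSeries.length_le_krullDim L

/-- `𝔭 < P` ⇒ `dim R/P + 1 ≤ dim R/𝔭`. -/
theorem rtk4_dim_succ_le_of_lt {R : Type*} [CommRing R] {𝔭 P : Ideal R} [𝔭.IsPrime]
    (h : 𝔭 < P) : ringKrullDim (R ⧸ P) + 1 ≤ ringKrullDim (R ⧸ 𝔭) := by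
  obtain ⟨x, hxP, hx𝔭⟩ := Set.exists_of_ssubset h
  refine ringKrullDim_succ_le_of_surjective (Ideal.Quotient.factor h.le)
    (Ideal.Quotient.factor_surjective h.le) (r := Ideal.Quotient.mk 𝔭 x) ?_ ?_
  · exact mem_nonZeroDivisors_of_ne_zero (by rwa [Ne, Ideal.Quotient.eq_zero_iff_mem])
  · rw [Ideal.Quotient.factor_mk]
    exact Ideal.Quotient.eq_zero_iff_mem.mpr hxP

theorem rtk4_not_succ_le (a : WithBot ℕ∞) (h0 : a ≠ ⊥) (h1 : a ≠ ⊤) : ¬ (a + 1 ≤ a) := by
  induction a with
  | bot => exact absurd rfl h0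
  | coe a =>
    induction a with
    | top => exact absurd rfl h1
    | coe n =>
      intro h
      have : ((n + 1 : ℕ) : WithBot ℕ∞) ≤ (n : ℕ) := by exact_mod_cast h
      have h' : n + 1 ≤ n := by exact_mod_cast this
      omega

section Module

variable {S R M : Type*} [CommRing S] [CommRing R] [Algebra S R]
  [AddCommGroup M] [Module R M] [Module S M] [IsScalarTower S R M]

/-- A prime minimal over `Ann_R(M)` contracts to `0` in `S` when `M` is torsion-free over `S`. -/
theorem rtk4_comap_eq_bot [IsNoetherianRing R] [Module.Finite R M]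
    (htf : ∀ (s : S) (m : M), s • m = 0 → s = 0 ∨ m = 0)
    {P : Ideal R} (hP : P ∈ (Module.annihilator R M).minimalPrimes) :
    P.comap (algebraMap S R) = ⊥ := by
  have hass := Module.associatedPrimes.minimalPrimes_annihilator_subset_associatedPrimes R M hP
  obtain ⟨hprime, x, hx⟩ := isAssociatedPrime_iff.mp hass
  have hx0 : x ≠ 0 := by
    rintro rfl
    apply hprime.ne_top
    rw [hx, eq_top_iff]
    intro r _
    rw [Submodule.mem_colon_singleton]
    simp
  rw [eq_bot_iff]
  intro s hs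
  rw [Ideal.mem_comap, hx, Submodule.mem_colon_singleton, Submodule.mem_bot,
    algebraMap_smul] at hs
  rcases htf s x hs with h | h
  · simpa using h
  · exact absurd h hx0

/-- `R/P` is integral over `S` when `P ⊇ Ann_R(M)` and `M` is finite over `S`. -/
theorem rtk4_isIntegral_quotient [Module.Finite S M] (P : Ideal R)
    (hP : Module.annihilator R M ≤ P) : Algebra.IsIntegral S (R ⧸ P) := by
  refine ⟨fun y => ?_⟩
  obtain ⟨r, rfl⟩ := Ideal.Quotient.mk_surjective y
  obtain ⟨p, hmonic, hp⟩ := LinearMap.exists_monic_and_aeval_eq_zero S (Algebra.lsmul S S M r)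
  refine ⟨p, hmonic, ?_⟩
  have h1 : Polynomial.aeval r p ∈ Module.annihilator R M := by
    rw [Module.mem_annihilator]
    intro m
    have := congrArg (fun f : Module.End S M => f m) hp
    simp only [LinearMap.zero_apply] at this
    rw [Polynomial.aeval_algHom_apply] at this
    exact this
  have h2 : Ideal.Quotient.mk P (Polynomial.aeval r p) = 0 :=
    Ideal.Quotient.eq_zero_iff_mem.mpr (hP h1)
  rw [← Polynomial.aeval_def]
  have h3 : Polynomial.aeval (Ideal.Quotient.mk P r) p =
      Ideal.Quotient.mkₐ S P (Polynomial.aeval r p) := by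
    rw [← Polynomial.aeval_algHom_apply]
    rfl
  rw [h3]
  exact h2

/-- `dim S ≤ dim R/P` for a prime `P` minimal over `Ann_R(M)`, `M` finite and torsion-free over
`S`. -/
theorem rtk4_dim_le_quotient [IsNoetherianRing R] [Module.Finite R M] [Module.Finite S M]
    (htf : ∀ (s : S) (m : M), s • m = 0 → s = 0 ∨ m = 0)
    {P : Ideal R} (hP : P ∈ (Module.annihilator R M).minimalPrimes) :
    ringKrullDim S ≤ ringKrullDim (R ⧸ P) := by
  have := rtk4_isIntegral_quotient (S := S) (M := M) P hP.1.2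
  apply rtk4_dim_le_of_integral
  rw [injective_iff_map_eq_zero]
  intro s hs
  have : s ∈ P.comap (algebraMap S R) := by
    rw [Ideal.mem_comap]
    exact Ideal.Quotient.eq_zero_iff_mem.mp hs
  rw [rtk4_comap_eq_bot htf hP] at this
  exact this

/-- If `𝔭 ≤ P`, `P` minimal over `Ann_R(M)` and `dim R/𝔭 ≤ dim S < ∞`, then `P = 𝔭`. -/
theorem rtk4_eq_of_le_minimal [Nontrivial S] [IsNoetherianRing R] [Module.Finite R M]
    [Module.Finite S M] (htf : ∀ (s : S) (m : M), s • m = 0 → s = 0 ∨ m = 0)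
    (hS : ringKrullDim S ≠ ⊤)
    {𝔭 P : Ideal R} [𝔭.IsPrime] (hdim : ringKrullDim (R ⧸ 𝔭) ≤ ringKrullDim S)
    (hP : P ∈ (Module.annihilator R M).minimalPrimes) (hle : 𝔭 ≤ P) : P = 𝔭 := by
  by_contra hne
  have hlt : 𝔭 < P := lt_of_le_of_ne hle (Ne.symm hne)
  have h1 := rtk4_dim_succ_le_of_lt hlt
  have h2 := rtk4_dim_le_quotient (S := S) htf hP
  have h3 : ringKrullDim (R ⧸ P) + 1 ≤ ringKrullDim (R ⧸ P) := h1.trans (hdim.trans h2)
  have hP' : P.IsPrime := hP.1.1
  have hnt : Nontrivial (R ⧸ P) := Ideal.Quotient.nontrivial_iff.mpr hP'.ne_top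
  refine rtk4_not_succ_le _ ?_ ?_ h3
  · exact (ringKrullDim_nonneg_of_nontrivial.trans_lt' (WithBot.bot_lt_coe _)).ne'
  · intro htop
    apply hS
    rw [eq_top_iff, ← htop]
    refine le_trans ?_ (h1.trans hdim)
    exact le_add_of_nonneg_right zero_le_one

/-- Faithfulness over a domain of the right dimension. -/
theorem rtk4_faithful_of_domain [Nontrivial S] [IsDomain R] [IsNoetherianRing R]
    [Module.Finite R M] [Module.Finite S M] [Nontrivial M]
    (htf : ∀ (s : S) (m : M), s • m = 0 → s = 0 ∨ m = 0)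
    (hS : ringKrullDim S ≠ ⊤) (hdim : ringKrullDim R ≤ ringKrullDim S) :
    Module.annihilator R M = ⊥ := by
  have hne : Module.annihilator R M ≠ ⊤ := by
    intro h
    obtain ⟨m, hm⟩ := exists_ne (0 : M)
    apply hm
    have : (1 : R) ∈ Module.annihilator R M := h ▸ Submodule.mem_top
    simpa using Module.mem_annihilator.mp this m
  obtain ⟨P, hP⟩ := Ideal.nonempty_minimalPrimes hne
  have hbot : (⊥ : Ideal R).IsPrime := Ideal.isPrime_bot
  have hdim' : ringKrullDim (R ⧸ (⊥ : Ideal R)) ≤ ringKrullDim S := by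
    rw [ringKrullDim_eq_of_ringEquiv (RingEquiv.quotientBot R)]
    exact hdim
  have := rtk4_eq_of_le_minimal (S := S) htf hS hdim' hP bot_le
  rw [eq_bot_iff, ← this]
  exact hP.1.2

/-- **Uniqueness from a Cramer element.**  `D'·s·𝔭 = 0` with `0 ≠ s ∈ S`, `D' ∉ 𝔮`, and
`dim R/𝔭 ≤ dim S < ∞`: then `𝔭` is the only prime minimal over `Ann_R(M)` below `𝔮`. -/
theorem rtk4_unique_minimal [Nontrivial S] [IsNoetherianRing R] [Module.Finite R M]
    [Module.Finite S M] (htf : ∀ (s : S) (m : M), s • m = 0 → s = 0 ∨ m = 0)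
    (hS : ringKrullDim S ≠ ⊤)
    (𝔭 𝔮 : Ideal R) [𝔭.IsPrime] (hdim : ringKrullDim (R ⧸ 𝔭) ≤ ringKrullDim S)
    (s : S) (hs : s ≠ 0) (D' : R) (hD' : D' ∉ 𝔮)
    (hD : ∀ x ∈ 𝔭, D' * algebraMap S R s * x = 0) :
    ∀ P ∈ (Module.annihilator R M).minimalPrimes, P ≤ 𝔮 → P = 𝔭 := by
  intro P hP hP𝔮
  have hP' : P.IsPrime := hP.1.1
  have hsP : algebraMap S R s ∉ P := by
    intro h
    have : s ∈ P.comap (algebraMap S R) := h
    rw [rtk4_comap_eq_bot htf hP] at this
    exact hs this
  have hDP : D' ∉ P := fun h => hD' (hP𝔮 h)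
  refine rtk4_eq_of_le_minimal (S := S) htf hS hdim hP (fun x hx => ?_)
  have h0 : D' * algebraMap S R s * x ∈ P := by rw [hD x hx]; exact P.zero_mem
  rcases hP'.mem_or_mem h0 with h | h
  · rcases hP'.mem_or_mem h with h | h
    · exact absurd h hDP
    · exact absurd h hsP
  · exact h

end Module

end Fermat.Agent.RT.K4


end ZBRT_012_0
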