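/- GENERATED FILE (helper35, build-time optimisation, NOTES/ZB.md): verbatim concatenation of the modules
   Fermat.Agent.RT.K2b.Gen
   Fermat.Agent.RT.K2b.Kill
   Fermat.Agent.RT.K2b.Qur
   Fermat.Agent.RT.K2b.Dim
   Fermat.Agent.RT.Even.Sq
   Do not edit; do not import together with these modules. -/
import Mathlib
import Fermat.Agent.ZB.RT_003

/-! ### bundled: `Fermat.Agent.RT.K2b.Gen` -/
section ZBRT_016_0

/-!
# K-machine, piece K2-b: the maximal ideal of a power series ring in finitely many variables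

* `rtk2b_mem_span_X` : a power series in finitely many variables with constant coefficient `0`
  lies in the ideal generated by the variables.
* `rtk2b_maximalIdeal_le` : an ideal of `O⟦σ⟧` (`O` local, `σ` finite) containing the variables
  and the constants of `𝔪_O` contains the maximal ideal.
* `rtk2b_mem_jacobson` : the image of the maximal ideal of `O⟦σ⟧` in any quotient lies in the
  Jacobson radical.
-/

set_option autoImplicit false
set_option linter.style.haveILetI false

namespace Fermat.Agent.RT.K2b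

open Function

section Gen

variable {σ R : Type*} [CommRing R]

theorem rtk2b_mem_span_X [Finite σ] (f : MvPowerSeries σ R)
    (h0 : MvPowerSeries.constantCoeff f = 0) :
    f ∈ Ideal.span (Set.range (MvPowerSeries.X : σ → MvPowerSeries σ R)) := by
  classical
  haveI : Fintype σ := Fintype.ofFinite σ
  -- the variable picked for the monomial `ν`
  let pk : (σ →₀ ℕ) → σ → Prop := fun ν s => ∃ h : ν.support.Nonempty, h.choose = s
  let hpart : σ → MvPowerSeries σ R := fun s ν => if pk ν s then MvPowerSeries.coeff ν f else 0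
  have hcoeff : ∀ s ν, MvPowerSeries.coeff ν (hpart s) =
      if pk ν s then MvPowerSeries.coeff ν f else 0 := fun s ν => rfl
  have hsum : f = ∑ s, hpart s := by
    ext ν
    rw [map_sum]
    simp only [hcoeff]
    by_cases hν : ν.support.Nonempty
    · have hpk : ∀ s, pk ν s ↔ hν.choose = s := by
        intro s
        constructor
        · rintro ⟨h, rfl⟩
          rfl
        · intro h
          exact ⟨hν, h⟩
      simp only [hpk]
      rw [Finset.sum_ite_eq]
      simp
    · have hpk : ∀ s, ¬ pk ν s := by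
        rintro s ⟨h, -⟩
        exact hν h
      simp only [hpk, if_false, Finset.sum_const_zero]
      have : ν = 0 := by
        rw [Finset.not_nonempty_iff_eq_empty, Finsupp.support_eq_empty] at hν
        exact hν
      rw [this, MvPowerSeries.coeff_zero_eq_constantCoeff_apply, h0]
  rw [hsum]
  refine Ideal.sum_mem _ fun s _ => ?_
  have hdvd : (MvPowerSeries.X s : MvPowerSeries σ R) ∣ hpart s := by
    rw [MvPowerSeries.X_dvd_iff]
    intro m hm
    rw [hcoeff, if_neg]
    rintro ⟨h, hs⟩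
    have := h.choose_spec
    rw [hs, Finsupp.mem_support_iff] at this
    exact this hm
  obtain ⟨g, hg⟩ := hdvd
  rw [hg]
  exact Ideal.mul_mem_right _ _ (Ideal.subset_span ⟨s, rfl⟩)

end Gen

section Local

variable {σ O : Type*} [CommRing O] [IsLocalRing O]

theorem rtk2b_mem_maximalIdeal_iff (f : MvPowerSeries σ O) :
    f ∈ IsLocalRing.maximalIdeal (MvPowerSeries σ O) ↔
      MvPowerSeries.constantCoeff f ∈ IsLocalRing.maximalIdeal O := by
  rw [IsLocalRing.mem_maximalIdeal, IsLocalRing.mem_maximalIdeal, mem_nonunits_iff,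
    mem_nonunits_iff, MvPowerSeries.isUnit_iff_constantCoeff]

theorem rtk2b_maximalIdeal_le [Finite σ] (𝔭 : Ideal (MvPowerSeries σ O))
    (hX : ∀ s, (MvPowerSeries.X s : MvPowerSeries σ O) ∈ 𝔭)
    (hC : ∀ c ∈ IsLocalRing.maximalIdeal O, (MvPowerSeries.C c : MvPowerSeries σ O) ∈ 𝔭) :
    IsLocalRing.maximalIdeal (MvPowerSeries σ O) ≤ 𝔭 := by
  intro f hf
  rw [rtk2b_mem_maximalIdeal_iff] at hf
  have h1 : f - MvPowerSeries.C (MvPowerSeries.constantCoeff f) ∈ 𝔭 := by
    have h2 := rtk2b_mem_span_X (f - MvPowerSeries.C (MvPowerSeries.constantCoeff f)) (by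
      rw [map_sub, MvPowerSeries.constantCoeff_C, sub_self])
    refine (Ideal.span_le.mpr ?_) h2
    rintro _ ⟨s, rfl⟩
    exact hX s
  have := 𝔭.add_mem h1 (hC _ hf)
  rwa [sub_add_cancel] at this

/-- The image of the maximal ideal of `O⟦σ⟧` in any quotient lies in the Jacobson radical. -/
theorem rtk2b_mem_jacobson (I : Ideal (MvPowerSeries σ O)) (f : MvPowerSeries σ O)
    (hf : f ∈ IsLocalRing.maximalIdeal (MvPowerSeries σ O)) :
    Ideal.Quotient.mk I f ∈ Ring.jacobson (MvPowerSeries σ O ⧸ I) := by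
  rw [← Ideal.jacobson_bot, Ideal.mem_jacobson_bot]
  intro y
  obtain ⟨g, rfl⟩ := Ideal.Quotient.mk_surjective y
  rw [← map_mul, ← map_one (Ideal.Quotient.mk I), ← map_add]
  refine IsUnit.map _ ?_
  have h1 : f * g ∈ IsLocalRing.maximalIdeal (MvPowerSeries σ O) := Ideal.mul_mem_right _ _ hf
  by_contra hu
  have h2 : f * g + 1 ∈ IsLocalRing.maximalIdeal (MvPowerSeries σ O) :=
    (IsLocalRing.mem_maximalIdeal _).mpr hu
  have h3 : (1 : MvPowerSeries σ O) ∈ IsLocalRing.maximalIdeal (MvPowerSeries σ O) := by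
    have := Ideal.sub_mem _ h2 h1
    rwa [add_sub_cancel_left] at this
  exact (Ideal.ne_top_iff_one _).mp (IsLocalRing.maximalIdeal.isMaximal _).ne_top h3

end Local

end Fermat.Agent.RT.K2b


end ZBRT_016_0

/-! ### bundled: `Fermat.Agent.RT.K2b.Kill` -/
section ZBRT_016_1

/-!
# K-machine, piece K2-e: killing variables in a power series ring

For a set `A` of variables and a ring homomorphism `φ : O →+* k`:

* `rtk2bKill φ A : MvPowerSeries σ O →+* MvPowerSeries σ k` : `X_s ↦ 0` for `s ∈ A`,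
  `X_s ↦ X_s` for `s ∉ A`, coefficients through `φ`;
* `rtk2bKill_ker_le` : for `σ` finite and `ker φ ≤ (lam)`, the kernel is contained in the ideal
  generated by `C lam` and the `X_s`, `s ∈ A` (and equal to it if `φ lam = 0`);
* `rtk2b_isPrime_of_kill` : this ideal is prime when `k` is a domain.
-/

set_option autoImplicit false
set_option linter.style.haveILetI false

namespace Fermat.Agent.RT.K2b

open Function MvPowerSeries

section Kill

variable {σ O k : Type*} [CommRing O] [CommRing k]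

/-- `ν` does not involve the variables of `A`. -/
def rtk2bOff (A : Set σ) (ν : σ →₀ ℕ) : Prop := ∀ s ∈ A, ν s = 0

theorem rtk2bOff_zero (A : Set σ) : rtk2bOff A (0 : σ →₀ ℕ) := fun _ _ => rfl

theorem rtk2bOff_add (A : Set σ) (α β : σ →₀ ℕ) :
    rtk2bOff A (α + β) ↔ rtk2bOff A α ∧ rtk2bOff A β := by
  constructor
  · intro h
    refine ⟨fun s hs => ?_, fun s hs => ?_⟩
    · have := h s hs
      rw [Finsupp.add_apply] at this
      omega
    · have := h s hs
      rw [Finsupp.add_apply] at this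
      omega
  · rintro ⟨h1, h2⟩ s hs
    rw [Finsupp.add_apply, h1 s hs, h2 s hs]

open Classical in
/-- The underlying function of `rtk2bKill`. -/
noncomputable def rtk2bKillFun (φ : O →+* k) (A : Set σ) (f : MvPowerSeries σ O) :
    MvPowerSeries σ k :=
  fun ν => if rtk2bOff A ν then φ (coeff ν f) else 0

open Classical in
theorem rtk2b_coeff_killFun (φ : O →+* k) (A : Set σ) (f : MvPowerSeries σ O) (ν : σ →₀ ℕ) :
    coeff ν (rtk2bKillFun φ A f) = if rtk2bOff A ν then φ (coeff ν f) else 0 := rfl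

/-- **Killing the variables in `A`** (and mapping the coefficients by `φ`). -/
noncomputable def rtk2bKill (φ : O →+* k) (A : Set σ) :
    MvPowerSeries σ O →+* MvPowerSeries σ k where
  toFun := rtk2bKillFun φ A
  map_one' := by
    classical
    ext ν
    rw [rtk2b_coeff_killFun, coeff_one, coeff_one]
    by_cases hν : ν = 0
    · subst hν
      rw [if_pos (rtk2bOff_zero A), if_pos rfl, if_pos rfl, map_one]
    · rw [if_neg hν, if_neg hν, map_zero, ite_self]
  map_mul' f g := by
    classical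
    ext ν
    rw [rtk2b_coeff_killFun, coeff_mul, coeff_mul]
    by_cases hν : rtk2bOff A ν
    · rw [if_pos hν, map_sum]
      refine Finset.sum_congr rfl fun p hp => ?_
      rw [Finset.HasAntidiagonal.mem_antidiagonal] at hp
      have h := (rtk2bOff_add A p.1 p.2).mp (hp ▸ hν)
      rw [rtk2b_coeff_killFun, rtk2b_coeff_killFun, if_pos h.1, if_pos h.2, map_mul]
    · rw [if_neg hν]
      symm
      refine Finset.sum_eq_zero fun p hp => ?_
      rw [Finset.HasAntidiagonal.mem_antidiagonal] at hp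
      rw [rtk2b_coeff_killFun, rtk2b_coeff_killFun]
      by_cases h1 : rtk2bOff A p.1
      · have h2 : ¬ rtk2bOff A p.2 := fun h2 => hν (hp ▸ (rtk2bOff_add A p.1 p.2).mpr ⟨h1, h2⟩)
        rw [if_neg h2, mul_zero]
      · rw [if_neg h1, zero_mul]
  map_zero' := by
    classical
    ext ν
    rw [rtk2b_coeff_killFun, map_zero, map_zero, map_zero, ite_self]
  map_add' f g := by
    classical
    ext ν
    rw [map_add, rtk2b_coeff_killFun, rtk2b_coeff_killFun, rtk2b_coeff_killFun, map_add, map_add]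
    split_ifs
    · rfl
    · rw [add_zero]

open Classical in
theorem rtk2b_coeff_kill (φ : O →+* k) (A : Set σ) (f : MvPowerSeries σ O) (ν : σ →₀ ℕ) :
    coeff ν (rtk2bKill φ A f) = if rtk2bOff A ν then φ (coeff ν f) else 0 := rfl

theorem rtk2bKill_C (φ : O →+* k) (A : Set σ) (c : O) :
    rtk2bKill φ A (C c) = C (φ c) := by
  classical
  ext ν
  rw [rtk2b_coeff_kill, coeff_C, coeff_C]
  by_cases hν : ν = 0
  · subst hν
    rw [if_pos (rtk2bOff_zero A), if_pos rfl, if_pos rfl]
  · rw [if_neg hν, if_neg hν, map_zero, ite_self]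

theorem rtk2bKill_X_of_mem (φ : O →+* k) (A : Set σ) {s : σ} (hs : s ∈ A) :
    rtk2bKill φ A (X s) = 0 := by
  classical
  ext ν
  rw [rtk2b_coeff_kill, coeff_X, map_zero]
  by_cases hν : ν = Finsupp.single s 1
  · subst hν
    rw [if_neg]
    intro h
    have := h s hs
    simp at this
  · rw [if_neg hν, map_zero, ite_self]

theorem rtk2bKill_X_of_not_mem (φ : O →+* k) (A : Set σ) {s : σ} (hs : s ∉ A) :
    rtk2bKill φ A (X s) = X s := by
  classical
  ext ν
  rw [rtk2b_coeff_kill, coeff_X, coeff_X]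
  by_cases hν : ν = Finsupp.single s 1
  · subst hν
    rw [if_pos rfl, if_pos rfl, map_one, if_pos]
    intro t ht
    rw [Finsupp.single_apply, if_neg]
    rintro rfl
    exact hs ht
  · rw [if_neg hν, if_neg hν, map_zero, ite_self]

theorem rtk2b_mem_ker_kill (φ : O →+* k) (A : Set σ) (f : MvPowerSeries σ O) :
    f ∈ RingHom.ker (rtk2bKill φ A) ↔ ∀ ν, rtk2bOff A ν → φ (coeff ν f) = 0 := by
  classical
  rw [RingHom.mem_ker]
  constructor
  · intro h ν hν
    have := congrArg (coeff ν) h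
    rwa [rtk2b_coeff_kill, if_pos hν, map_zero] at this
  · intro h
    ext ν
    rw [rtk2b_coeff_kill, map_zero]
    split_ifs with hν
    · exact h ν hν
    · rfl

/-- The kernel of `rtk2bKill φ A` is generated by `C lam` and the `X s`, `s ∈ A`
(`σ` finite, `ker φ ≤ (lam)`). -/
theorem rtk2bKill_ker_le [Finite σ] (φ : O →+* k) (A : Set σ) (lam : O)
    (hlam : RingHom.ker φ ≤ Ideal.span {lam}) :
    RingHom.ker (rtk2bKill φ A) ≤
      Ideal.span {(C lam : MvPowerSeries σ O)} ⊔
        Ideal.span ((X : σ → MvPowerSeries σ O) '' A) := by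
  classical
  haveI : Fintype σ := Fintype.ofFinite σ
  intro f hf
  rw [rtk2b_mem_ker_kill] at hf
  -- the part of `f` free of the variables of `A`: a multiple of `C lam`
  have h1 : ∀ ν, ∃ c : O, rtk2bOff A ν → coeff ν f = lam * c := by
    intro ν
    by_cases hν : rtk2bOff A ν
    · have := hlam (RingHom.mem_ker.mpr (hf ν hν))
      rw [Ideal.mem_span_singleton] at this
      obtain ⟨c, hc⟩ := this
      exact ⟨c, fun _ => hc⟩
    · exact ⟨0, fun h => absurd h hν⟩
  choose c hc using h1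
  let g0 : MvPowerSeries σ O := fun ν => if rtk2bOff A ν then c ν else 0
  have hg0 : ∀ ν, coeff ν g0 = if rtk2bOff A ν then c ν else 0 := fun ν => rfl
  -- the variable of `A` picked for a monomial involving `A`
  let pk : (σ →₀ ℕ) → σ → Prop := fun ν s =>
    ∃ h : ∃ t, t ∈ A ∧ ν t ≠ 0, h.choose = s
  let hpart : σ → MvPowerSeries σ O := fun s ν => if pk ν s then coeff ν f else 0
  have hcoeff : ∀ s ν, coeff ν (hpart s) = if pk ν s then coeff ν f else 0 := fun s ν => rfl
  have hsum : f = C lam * g0 + ∑ s, hpart s := by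
    ext ν
    rw [map_add, coeff_C_mul, hg0, map_sum]
    simp only [hcoeff]
    by_cases hν : rtk2bOff A ν
    · have hpk : ∀ s, ¬ pk ν s := by
        rintro s ⟨⟨t, ht, hνt⟩, -⟩
        exact hνt (hν t ht)
      simp only [hpk, if_false, Finset.sum_const_zero, add_zero, if_pos hν]
      exact hc ν hν
    · have hex : ∃ t, t ∈ A ∧ ν t ≠ 0 := by
        by_contra hcon
        apply hν
        intro t ht
        by_contra h0
        exact hcon ⟨t, ht, h0⟩
      have hpk : ∀ s, pk ν s ↔ hex.choose = s := by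
        intro s
        constructor
        · rintro ⟨h, rfl⟩
          rfl
        · intro h
          exact ⟨hex, h⟩
      simp only [hpk, if_neg hν, mul_zero, zero_add]
      rw [Finset.sum_ite_eq]
      simp
  rw [hsum]
  refine Ideal.add_mem _ (Ideal.mem_sup_left (Ideal.mul_mem_right _ _
    (Ideal.mem_span_singleton_self _))) (Ideal.sum_mem _ fun s _ => ?_)
  by_cases hsA : s ∈ A
  · have hdvd : (X s : MvPowerSeries σ O) ∣ hpart s := by
      rw [X_dvd_iff]
      intro m hm
      rw [hcoeff, if_neg]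
      rintro ⟨h, hs⟩
      have := h.choose_spec.2
      rw [hs] at this
      exact this hm
    obtain ⟨g, hg⟩ := hdvd
    rw [hg]
    exact Ideal.mem_sup_right (Ideal.mul_mem_right _ _ (Ideal.subset_span ⟨s, hsA, rfl⟩))
  · have : hpart s = 0 := by
      ext ν
      rw [hcoeff, map_zero, if_neg]
      rintro ⟨h, hs⟩
      have := h.choose_spec.1
      rw [hs] at this
      exact hsA this
    rw [this]
    exact Ideal.zero_mem _

theorem rtk2bKill_le_ker (φ : O →+* k) (A : Set σ) (lam : O) (hlam : φ lam = 0) :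
    Ideal.span {(C lam : MvPowerSeries σ O)} ⊔
        Ideal.span ((X : σ → MvPowerSeries σ O) '' A) ≤ RingHom.ker (rtk2bKill φ A) := by
  refine sup_le ?_ ?_
  · rw [Ideal.span_le]
    intro f hf
    rw [Set.mem_singleton_iff] at hf
    rw [hf, SetLike.mem_coe, RingHom.mem_ker, rtk2bKill_C, hlam, map_zero]
  · rw [Ideal.span_le]
    rintro _ ⟨s, hs, rfl⟩
    exact rtk2bKill_X_of_mem φ A hs

/-- The ideal `(C lam, X s : s ∈ A)` is the kernel of `rtk2bKill φ A`. -/
theorem rtk2bKill_ker_eq [Finite σ] (φ : O →+* k) (A : Set σ) (lam : O)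
    (hlam : RingHom.ker φ = Ideal.span {lam}) :
    RingHom.ker (rtk2bKill φ A) =
      Ideal.span {(C lam : MvPowerSeries σ O)} ⊔
        Ideal.span ((X : σ → MvPowerSeries σ O) '' A) :=
  le_antisymm (rtk2bKill_ker_le φ A lam hlam.le)
    (rtk2bKill_le_ker φ A lam (by
      have : lam ∈ RingHom.ker φ := hlam ▸ Ideal.mem_span_singleton_self lam
      exact this))

/-- `(C lam, X s : s ∈ A)` is a prime ideal of `O⟦σ⟧` when `(lam)` is a prime ideal of `O`. -/
theorem rtk2b_isPrime_span [Finite σ] (A : Set σ) (lam : O)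
    (hprime : (Ideal.span {lam}).IsPrime) :
    (Ideal.span {(C lam : MvPowerSeries σ O)} ⊔
        Ideal.span ((X : σ → MvPowerSeries σ O) '' A)).IsPrime := by
  have hker : RingHom.ker (Ideal.Quotient.mk (Ideal.span {lam})) = Ideal.span {lam} :=
    Ideal.mk_ker
  rw [← rtk2bKill_ker_eq (Ideal.Quotient.mk (Ideal.span {lam})) A lam hker]
  haveI : IsDomain (O ⧸ Ideal.span {lam}) := Ideal.Quotient.isDomain _
  haveI : IsDomain (MvPowerSeries σ (O ⧸ Ideal.span {lam})) := NoZeroDivisors.to_isDomain _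
  exact RingHom.ker_isPrime _

end Kill

end Fermat.Agent.RT.K2b


end ZBRT_016_1

/-! ### bundled: `Fermat.Agent.RT.K2b.Qur` -/
section ZBRT_016_2

/-!
# K-machine, piece K2-e: the prime `𝔮_ur` and the Cramer elements

For helper27's presentation (`RT/K2/Defs.lean`):

* `rtk2b_Qur_eq_ker`       : `rtk2Qur ι τ lam` is the kernel of "kill `a_i, b_i, c_i`, reduce
                              mod `lam`";
* `rtk2b_Qur_isPrime`      : `rtk2Qur ι τ lam` is a prime ideal (`(lam)` prime in `O`);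
* `rtk2b_cramer_not_mem`   : `rtk2Cramer q i ∉ rtk2Qur ι τ lam` (`q i ≡ 1 mod lam`, `2 ∉ (lam)`);
* `rtk2b_cramer_uniform`   : one `D ∉ 𝔮_ur` and one `e` with `λ^e · D · Iur ⊆ I_1`;
* `rtk2b_Qur_map_isPrime`, `rtk2b_cramer_quot` : the same in `R¹_∞ = P ⧸ I_1`, in the shape of
  the hypotheses `𝔮`, `h𝔮`, `hCr` of `Fermat.Agent.RT.K4.rtk4_out_T0`.
-/

set_option autoImplicit false
set_option linter.style.haveILetI false

namespace Fermat.Agent.RT.K2b

open Function MvPowerSeries Fermat.Agent.RT.K2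

section

variable {O : Type*} [CommRing O] {ι τ : Type*}

/-- The set of the variables `a_i, b_i, c_i`. -/
def rtk2bUrSet (ι τ : Type*) : Set (Rtk2Var ι τ) :=
  {s | ∃ (i : ι) (k : Fin 6), k.val < 3 ∧ s = rtk2ix i k}

theorem rtk2b_range_genUr :
    Set.range (rtk2genUr : ι × Fin 3 → Rtk2P O ι τ) =
      (X : Rtk2Var ι τ → Rtk2P O ι τ) '' rtk2bUrSet ι τ := by
  ext f
  constructor
  · rintro ⟨⟨i, k⟩, rfl⟩
    fin_cases k
    · exact ⟨rtk2ix i 0, ⟨i, 0, by decide, rfl⟩, rfl⟩
    · exact ⟨rtk2ix i 1, ⟨i, 1, by decide, rfl⟩, rfl⟩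
    · exact ⟨rtk2ix i 2, ⟨i, 2, by decide, rfl⟩, rfl⟩
  · rintro ⟨_, ⟨i, k, hk, rfl⟩, rfl⟩
    fin_cases k
    · exact ⟨(i, 0), rfl⟩
    · exact ⟨(i, 1), rfl⟩
    · exact ⟨(i, 2), rfl⟩
    · exact absurd hk (by decide)
    · exact absurd hk (by decide)
    · exact absurd hk (by decide)

theorem rtk2b_Qur_eq (lam : O) :
    rtk2Qur ι τ lam = Ideal.span {(C lam : Rtk2P O ι τ)} ⊔
      Ideal.span ((X : Rtk2Var ι τ → Rtk2P O ι τ) '' rtk2bUrSet ι τ) := by
  unfold rtk2Qur rtk2Iur
  rw [rtk2b_range_genUr]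

theorem rtk2b_ix_not_mem (i : ι) (k : Fin 6) (hk : 3 ≤ k.val) :
    (rtk2ix i k : Rtk2Var ι τ) ∉ rtk2bUrSet ι τ := by
  rintro ⟨j, l, hl, h⟩
  have h' : (i, k) = (j, l) := Sum.inl_injective h
  have : k = l := (Prod.ext_iff.mp h').2
  omega

/-- `ν = X² + YZ ≠ 0` in a power series ring over a nontrivial ring. -/
theorem rtk2b_nu_ne_zero {k : Type*} [CommRing k] [Nontrivial k] (i : ι) :
    (X (rtk2ix i 3) : MvPowerSeries (Rtk2Var ι τ) k) ^ 2 + X (rtk2ix i 4) * X (rtk2ix i 5) ≠ 0 := by
  classical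
  intro h
  have h1 := congrArg (coeff (Finsupp.single (rtk2ix i 4 : Rtk2Var ι τ) 1 +
    Finsupp.single (rtk2ix i 5 : Rtk2Var ι τ) 1)) h
  rw [map_add, map_zero, pow_two, X_def, X_def, X_def, monomial_mul_monomial,
    monomial_mul_monomial, coeff_monomial, coeff_monomial, if_pos rfl, if_neg, zero_add,
    mul_one] at h1
  · exact one_ne_zero h1
  · intro h2
    have h3 := DFunLike.congr_fun h2 (rtk2ix i 4 : Rtk2Var ι τ)
    have e43 : (rtk2ix i 4 : Rtk2Var ι τ) ≠ rtk2ix i 3 := by
      intro h; have := Sum.inl_injective h; simp at this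
    have e45 : (rtk2ix i 4 : Rtk2Var ι τ) ≠ rtk2ix i 5 := by
      intro h; have := Sum.inl_injective h; simp at this
    simp [e43.symm, e45.symm] at h3

variable [Finite ι] [Finite τ]

/-- `𝔮_ur` is the kernel of "kill `a_i, b_i, c_i` and reduce modulo `lam`". -/
theorem rtk2b_Qur_eq_ker (lam : O) :
    rtk2Qur ι τ lam =
      RingHom.ker (rtk2bKill (Ideal.Quotient.mk (Ideal.span {lam})) (rtk2bUrSet ι τ)) := by
  rw [rtk2b_Qur_eq, rtk2bKill_ker_eq _ _ lam Ideal.mk_ker]

/-- **`𝔮_ur` is prime.** -/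
theorem rtk2b_Qur_isPrime (lam : O) (hprime : (Ideal.span {lam}).IsPrime) :
    (rtk2Qur ι τ lam).IsPrime := by
  rw [rtk2b_Qur_eq]
  exact rtk2b_isPrime_span _ lam hprime

/-- **The Cramer element is not in `𝔮_ur`.** -/
theorem rtk2b_cramer_not_mem (lam : O) (hprime : (Ideal.span {lam}).IsPrime)
    (h2 : (2 : O) ∉ Ideal.span {lam}) (q : ι → O) (i : ι) (hq : ∃ r, q i = 1 + lam * r) :
    rtk2Cramer q i ∉ rtk2Qur ι τ lam := by
  rw [rtk2b_Qur_eq_ker, RingHom.mem_ker]
  haveI : IsDomain (O ⧸ Ideal.span {lam}) := Ideal.Quotient.isDomain _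
  haveI : IsDomain (MvPowerSeries (Rtk2Var ι τ) (O ⧸ Ideal.span {lam})) :=
    NoZeroDivisors.to_isDomain _
  set K := rtk2bKill (Ideal.Quotient.mk (Ideal.span {lam})) (rtk2bUrSet ι τ) with hK
  have hX : K (rtk2X i) = X (rtk2ix i 3) :=
    rtk2bKill_X_of_not_mem _ _ (rtk2b_ix_not_mem i 3 (by decide))
  have hY : K (rtk2Y i) = X (rtk2ix i 4) :=
    rtk2bKill_X_of_not_mem _ _ (rtk2b_ix_not_mem i 4 (by decide))
  have hZ : K (rtk2Z i) = X (rtk2ix i 5) :=
    rtk2bKill_X_of_not_mem _ _ (rtk2b_ix_not_mem i 5 (by decide))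
  have hq1 : K (C (q i)) = 1 := by
    obtain ⟨r, hr⟩ := hq
    rw [hK, rtk2bKill_C, hr, map_add, map_one, map_mul,
      Ideal.Quotient.eq_zero_iff_mem.mpr (Ideal.mem_span_singleton_self lam), zero_mul,
      add_zero, map_one]
  have hν : K (rtk2nu i) = X (rtk2ix i 3) ^ 2 + X (rtk2ix i 4) * X (rtk2ix i 5) := by
    unfold rtk2nu
    rw [map_add, map_pow, map_mul, hX, hY, hZ]
  have hcr : K (rtk2Cramer q i) =
      -16 * (X (rtk2ix i 3) ^ 2 + X (rtk2ix i 4) * X (rtk2ix i 5)) *
        (1 + (X (rtk2ix i 3) ^ 2 + X (rtk2ix i 4) * X (rtk2ix i 5)) + 2 * X (rtk2ix i 3)) := by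
    unfold rtk2Cramer rtk2A
    simp only [map_mul, map_sub, map_add, map_pow, map_one, map_ofNat, hq1, hν, hX]
    ring
  rw [hcr]
  have h16 : (16 : MvPowerSeries (Rtk2Var ι τ) (O ⧸ Ideal.span {lam})) ≠ 0 := by
    have h2' : (2 : MvPowerSeries (Rtk2Var ι τ) (O ⧸ Ideal.span {lam})) ≠ 0 := by
      intro h
      have h3 := congrArg constantCoeff h
      rw [map_ofNat, map_zero] at h3
      apply h2
      rw [← Ideal.Quotient.eq_zero_iff_mem, map_ofNat]
      exact h3
    have : (16 : MvPowerSeries (Rtk2Var ι τ) (O ⧸ Ideal.span {lam})) = 2 ^ 4 := by norm_num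
    rw [this]
    exact pow_ne_zero 4 h2'
  have hA : (1 + (X (rtk2ix i 3) ^ 2 + X (rtk2ix i 4) * X (rtk2ix i 5)) + 2 * X (rtk2ix i 3) :
      MvPowerSeries (Rtk2Var ι τ) (O ⧸ Ideal.span {lam})) ≠ 0 := by
    intro h
    have h3 := congrArg constantCoeff h
    simp only [map_add, map_mul, map_pow, map_one, constantCoeff_X, map_zero, map_ofNat] at h3
    norm_num at h3
  exact mul_ne_zero (mul_ne_zero (neg_ne_zero.mpr h16) (rtk2b_nu_ne_zero i)) hA

/-- **Uniform Cramer.**  One element `D ∉ 𝔮_ur` and one exponent `e` with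
`λ^e · D · Iur ⊆ I_1` (`1 − q_i` divides a power of `λ` for every `i`). -/
theorem rtk2b_cramer_uniform (lam : O) (hprime : (Ideal.span {lam}).IsPrime)
    (h2 : (2 : O) ∉ Ideal.span {lam}) (q : ι → O) (hq : ∀ i, ∃ r, q i = 1 + lam * r)
    (hq' : ∀ i, ∃ (e : ℕ) (u : O), lam ^ e = (1 - q i) * u) :
    ∃ (e : ℕ) (D : Rtk2P O ι τ), D ∉ rtk2Qur ι τ lam ∧
      ∀ x ∈ rtk2Iur O ι τ, C lam ^ e * D * x ∈ rtk2Ione τ q := by
  classical
  haveI : Fintype ι := Fintype.ofFinite ι
  choose e u he using hq'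
  have hQ := rtk2b_Qur_isPrime (ι := ι) (τ := τ) lam hprime
  refine ⟨∑ i, e i, ∏ i, rtk2Cramer q i, ?_, ?_⟩
  · intro h
    obtain ⟨i, -, hi⟩ := (Ideal.IsPrime.prod_mem_iff (hp := hQ)).mp h
    exact rtk2b_cramer_not_mem lam hprime h2 q i (hq i) hi
  · intro x hx
    unfold rtk2Iur at hx
    induction hx using Submodule.span_induction with
    | mem y hy =>
      obtain ⟨⟨i, k⟩, rfl⟩ := hy
      have hle : e i ≤ ∑ j, e j := Finset.single_le_sum (fun _ _ => Nat.zero_le _)
        (Finset.mem_univ i)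
      have h1 : (C lam : Rtk2P O ι τ) ^ (∑ j, e j) =
          C lam ^ (∑ j, e j - e i) * ((1 - C (q i)) * C (u i)) := by
        have : (C lam : Rtk2P O ι τ) ^ e i = (1 - C (q i)) * C (u i) := by
          rw [← map_pow, he i, map_mul, map_sub, map_one]
        rw [← this, ← pow_add, Nat.sub_add_cancel hle]
      have h2 : (∏ j, rtk2Cramer q j : Rtk2P O ι τ) =
          rtk2Cramer q i * ∏ j ∈ Finset.univ.erase i, rtk2Cramer q j :=
        (Finset.mul_prod_erase Finset.univ (fun j => (rtk2Cramer q j : Rtk2P O ι τ))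
          (Finset.mem_univ i)).symm
      have h3 : (C lam : Rtk2P O ι τ) ^ (∑ j, e j) * (∏ j, rtk2Cramer q j) *
          rtk2genUr (i, k) =
          (C lam ^ (∑ j, e j - e i) * C (u i) *
            ∏ j ∈ Finset.univ.erase i, rtk2Cramer q j) *
          ((1 - C (q i)) * rtk2Cramer q i * rtk2genUr (i, k)) := by
        rw [h1, h2]
        ring
      rw [h3]
      exact Ideal.mul_mem_left _ _ (rtk2_cramer q i k)
    | zero =>
      rw [mul_zero]
      exact Ideal.zero_mem _
    | add y z _ _ hy hz =>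
      rw [mul_add]
      exact Ideal.add_mem _ hy hz
    | smul c y _ hy =>
      rw [smul_eq_mul, mul_left_comm]
      exact Ideal.mul_mem_left _ _ hy

/-- `𝔮_ur` is a prime of `R¹_∞ = P ⧸ I_1`. -/
theorem rtk2b_Qur_map_isPrime (lam : O) (hprime : (Ideal.span {lam}).IsPrime) (q : ι → O) :
    ((rtk2Qur ι τ lam).map (Ideal.Quotient.mk (rtk2Ione τ q))).IsPrime := by
  haveI := rtk2b_Qur_isPrime (ι := ι) (τ := τ) lam hprime
  refine Ideal.map_isPrime_of_surjective Ideal.Quotient.mk_surjective ?_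
  rw [Ideal.mk_ker]
  exact (rtk2_Ione_le_Iur q).trans le_sup_right

omit [Finite ι] [Finite τ] in
theorem rtk2b_mem_Qur_of_mk_mem (lam : O) (q : ι → O) (f : Rtk2P O ι τ)
    (h : Ideal.Quotient.mk (rtk2Ione τ q) f ∈
      (rtk2Qur ι τ lam).map (Ideal.Quotient.mk (rtk2Ione τ q))) : f ∈ rtk2Qur ι τ lam := by
  have h1 : f ∈ ((rtk2Qur ι τ lam).map (Ideal.Quotient.mk (rtk2Ione τ q))).comap
      (Ideal.Quotient.mk (rtk2Ione τ q)) := h
  have hle : rtk2Ione τ q ≤ rtk2Qur ι τ lam := (rtk2_Ione_le_Iur q).trans le_sup_right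
  rw [Ideal.comap_map_of_surjective' _ Ideal.Quotient.mk_surjective, Ideal.mk_ker,
    sup_eq_left.mpr hle] at h1
  exact h1

/-- **The hypotheses `h𝔮`, `hCr` of `rtk4_out_T0`** for `R1 = R¹_∞ = P ⧸ I_1`, `R0 = P`,
`ι = Ideal.Quotient.mk I_1`, `Iur = (a_i, b_i, c_i)`, `𝔮 = 𝔮_ur R¹_∞`. -/
theorem rtk2b_cramer_quot (lam : O) (hprime : (Ideal.span {lam}).IsPrime)
    (h2 : (2 : O) ∉ Ideal.span {lam}) (q : ι → O) (hq : ∀ i, ∃ r, q i = 1 + lam * r)
    (hq' : ∀ i, ∃ (e : ℕ) (u : O), lam ^ e = (1 - q i) * u) :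
    algebraMap O (Rtk2Rone τ q) lam ∈
        (rtk2Qur ι τ lam).map (Ideal.Quotient.mk (rtk2Ione τ q)) ∧
    ∀ x ∈ rtk2Iur O ι τ, ∃ (e : ℕ) (D : Rtk2Rone τ q),
      D ∉ (rtk2Qur ι τ lam).map (Ideal.Quotient.mk (rtk2Ione τ q)) ∧
      algebraMap O (Rtk2Rone τ q) lam ^ e * D * Ideal.Quotient.mk (rtk2Ione τ q) x = 0 := by
  have halg : algebraMap O (Rtk2Rone τ q) lam = Ideal.Quotient.mk (rtk2Ione τ q) (C lam) := rfl
  refine ⟨?_, ?_⟩
  · rw [halg]
    exact Ideal.mem_map_of_mem _ (Ideal.mem_sup_left (Ideal.mem_span_singleton_self _))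
  · obtain ⟨e, D, hD, h⟩ := rtk2b_cramer_uniform (τ := τ) lam hprime h2 q hq hq'
    intro x hx
    refine ⟨e, Ideal.Quotient.mk _ D, fun hmem => hD (rtk2b_mem_Qur_of_mk_mem lam q D hmem), ?_⟩
    rw [halg, ← map_pow, ← map_mul, ← map_mul]
    exact Ideal.Quotient.eq_zero_iff_mem.mpr (h x hx)

end

end Fermat.Agent.RT.K2b


end ZBRT_016_2

/-! ### bundled: `Fermat.Agent.RT.K2b.Dim` -/
section ZBRT_016_3

/-!
# K-machine, piece K2-b: the dimension bound for the framed local rings of type `χ`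

`P = O⟦σ⟧`, with families of variables `a_i, b_i, c_i, X_i, Y_i, Z_i` (`i : ι`) and `x_t`
(`t : τ`) exhausting `σ`.  For ANY ideal `I` of `P` containing the relations

  `a_i² + b_i c_i − δ_i²`,  `b_i X_i − a_i Y_i`,  `c_i X_i − a_i Z_i`,  `c_i Y_i − b_i Z_i`

(`δ_i ∈ 𝔪_O`, `2 ∈ O^×`), the elements `λ`, `X_i + a_i`, `Y_i + c_i`, `Z_i − b_i`, `x_t` form a
system of parameters of `P ⧸ I`:

* `rtk2b_prime_core` : a prime containing the relations and the parameters at `i` contains
  `a_i, b_i, c_i, X_i, Y_i, Z_i`;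
* `rtk2b_dim_le`     : `dim P ⧸ I ≤ 1 + 3|ι| + |τ|`;
* `rtk2b_dim_le_powerSeries` : for `O` a discrete valuation ring,
  `dim P ⧸ I ≤ dim O⟦w₁, …, w_m⟧` as soon as `3|ι| + |τ| ≤ m`.
-/

set_option autoImplicit false
set_option linter.style.haveILetI false

namespace Fermat.Agent.RT.K2b

open Function

/-- In a domain where `2 ≠ 0`: the relations of type `χ` (with `δ = 0`) and
`X = −a`, `Y = −c`, `Z = b` force `a = b = c = 0`. -/
theorem rtk2b_domain_core {A : Type*} [CommRing A] [IsDomain A] (h2 : (2 : A) ≠ 0)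
    (a b c X Y Z : A) (h1 : a ^ 2 + b * c = 0) (hm1 : b * X - a * Y = 0)
    (hm2 : c * X - a * Z = 0) (hm3 : c * Y - b * Z = 0)
    (hX : X + a = 0) (hY : Y + c = 0) (hZ : Z - b = 0) :
    a = 0 ∧ b = 0 ∧ c = 0 ∧ X = 0 ∧ Y = 0 ∧ Z = 0 := by
  have e1 : a * (c - b) = 0 := by linear_combination hm1 - b * hX + a * hY
  have e2 : a * (b + c) = 0 := by linear_combination -hm2 + c * hX - a * hZ
  have e3 : b ^ 2 + c ^ 2 = 0 := by linear_combination -hm3 + c * hY - b * hZ
  have ha : a = 0 := by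
    by_contra ha
    have h3 : c - b = 0 := (mul_eq_zero.mp e1).resolve_left ha
    have h4 : b + c = 0 := (mul_eq_zero.mp e2).resolve_left ha
    have h5 : (2 : A) * c = 0 := by linear_combination h3 + h4
    have hc : c = 0 := (mul_eq_zero.mp h5).resolve_left h2
    have hb : b = 0 := by linear_combination h4 - hc
    have h6 : a ^ 2 = 0 := by rw [hb, hc] at h1; simpa using h1
    exact ha (pow_eq_zero_iff (two_ne_zero) |>.mp h6)
  have hbc : b * c = 0 := by rw [ha] at h1; simpa using h1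
  have hb : b = 0 := by
    rcases mul_eq_zero.mp hbc with h | h
    · exact h
    · rw [h] at e3
      have : b ^ 2 = 0 := by simpa using e3
      exact pow_eq_zero_iff (two_ne_zero) |>.mp this
  have hc : c = 0 := by
    rw [hb] at e3
    have : c ^ 2 = 0 := by simpa using e3
    exact pow_eq_zero_iff (two_ne_zero) |>.mp this
  refine ⟨ha, hb, hc, ?_, ?_, ?_⟩
  · linear_combination hX - ha
  · linear_combination hY - hc
  · linear_combination hZ + hb

/-- A prime containing the relations of type `χ`, `δ`, and the parameters `X + a`, `Y + c`,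
`Z − b` contains `a, b, c, X, Y, Z` (`2 ∉ 𝔭`). -/
theorem rtk2b_prime_core {A : Type*} [CommRing A] (𝔭 : Ideal A) [𝔭.IsPrime] (h2 : (2 : A) ∉ 𝔭)
    (a b c X Y Z δ : A) (hδ : δ ∈ 𝔭) (h1 : a ^ 2 + b * c - δ ^ 2 ∈ 𝔭)
    (hm1 : b * X - a * Y ∈ 𝔭) (hm2 : c * X - a * Z ∈ 𝔭) (hm3 : c * Y - b * Z ∈ 𝔭)
    (hX : X + a ∈ 𝔭) (hY : Y + c ∈ 𝔭) (hZ : Z - b ∈ 𝔭) :
    a ∈ 𝔭 ∧ b ∈ 𝔭 ∧ c ∈ 𝔭 ∧ X ∈ 𝔭 ∧ Y ∈ 𝔭 ∧ Z ∈ 𝔭 := by
  simp only [← Ideal.Quotient.eq_zero_iff_mem] at *
  have h2' : (2 : A ⧸ 𝔭) ≠ 0 := by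
    intro h
    apply h2
    rw [map_ofNat]
    exact h
  have h1' : (Ideal.Quotient.mk 𝔭 a) ^ 2 + Ideal.Quotient.mk 𝔭 b * Ideal.Quotient.mk 𝔭 c = 0 := by
    have := h1
    rw [map_sub, map_add, map_pow, map_mul, map_pow, hδ] at this
    simpa using this
  exact rtk2b_domain_core h2' _ _ _ _ _ _ h1'
    (by rw [← map_mul, ← map_mul, ← map_sub]; exact hm1)
    (by rw [← map_mul, ← map_mul, ← map_sub]; exact hm2)
    (by rw [← map_mul, ← map_mul, ← map_sub]; exact hm3)
    (by rw [← map_add]; exact hX) (by rw [← map_add]; exact hY) (by rw [← map_sub]; exact hZ)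

section Dim

variable {O : Type*} [CommRing O] [IsLocalRing O] [IsNoetherianRing O]
  {σ ι τ : Type*} [Finite σ] [Fintype ι] [Fintype τ]

open MvPowerSeries in
/-- **K2-b.**  `dim O⟦σ⟧ ⧸ I ≤ 1 + 3|ι| + |τ|` for every ideal `I` containing the relations of
type `χ` (`𝔪_O = (λ)`, `2 ∈ O^×`, `δ_i ∈ 𝔪_O`). -/
theorem rtk2b_dim_le (lam : O) (hlam : IsLocalRing.maximalIdeal O = Ideal.span {lam})
    (h2 : IsUnit (2 : O))
    (va vb vc vX vY vZ : ι → σ) (vx : τ → σ)
    (hcover : ∀ s : σ, (∃ i, s = va i ∨ s = vb i ∨ s = vc i ∨ s = vX i ∨ s = vY i ∨ s = vZ i) ∨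
      ∃ t, s = vx t)
    (δ : ι → O) (hδ : ∀ i, δ i ∈ IsLocalRing.maximalIdeal O)
    (I : Ideal (MvPowerSeries σ O))
    (h1 : ∀ i, (X (va i) : MvPowerSeries σ O) ^ 2 + X (vb i) * X (vc i) - (C (δ i)) ^ 2 ∈ I)
    (hm1 : ∀ i, (X (vb i) : MvPowerSeries σ O) * X (vX i) - X (va i) * X (vY i) ∈ I)
    (hm2 : ∀ i, (X (vc i) : MvPowerSeries σ O) * X (vX i) - X (va i) * X (vZ i) ∈ I)
    (hm3 : ∀ i, (X (vc i) : MvPowerSeries σ O) * X (vY i) - X (vb i) * X (vZ i) ∈ I) :
    ringKrullDim (MvPowerSeries σ O ⧸ I) ≤ ((1 + 3 * Fintype.card ι + Fintype.card τ : ℕ) :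
      WithBot ℕ∞) := by
  classical
  -- the parameters
  let pX : ι → MvPowerSeries σ O := fun i => X (vX i) + X (va i)
  let pY : ι → MvPowerSeries σ O := fun i => X (vY i) + X (vc i)
  let pZ : ι → MvPowerSeries σ O := fun i => X (vZ i) - X (vb i)
  let px : τ → MvPowerSeries σ O := fun t => X (vx t)
  let T : Finset (MvPowerSeries σ O) :=
    insert (C lam) (Finset.univ.image pX ∪ Finset.univ.image pY ∪ Finset.univ.image pZ ∪
      Finset.univ.image px)
  have hTcard : T.card ≤ 1 + 3 * Fintype.card ι + Fintype.card τ := by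
    refine (Finset.card_insert_le _ _).trans ?_
    have h3 : (Finset.univ.image pX ∪ Finset.univ.image pY ∪ Finset.univ.image pZ ∪
        Finset.univ.image px).card ≤ 3 * Fintype.card ι + Fintype.card τ := by
      refine (Finset.card_union_le _ _).trans ?_
      refine add_le_add ?_ (Finset.card_image_le.trans (by simp))
      refine (Finset.card_union_le _ _).trans ?_
      have hι : ∀ f : ι → MvPowerSeries σ O, (Finset.univ.image f).card ≤ Fintype.card ι :=
        fun f => Finset.card_image_le.trans (by simp)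
      have := (Finset.card_union_le (Finset.univ.image pX) (Finset.univ.image pY)).trans
        (add_le_add (hι pX) (hι pY))
      have := hι pZ
      omega
    omega
  have hXmax : ∀ s, (X s : MvPowerSeries σ O) ∈ IsLocalRing.maximalIdeal (MvPowerSeries σ O) := by
    intro s
    rw [rtk2b_mem_maximalIdeal_iff, constantCoeff_X]
    exact Ideal.zero_mem _
  have hTmax : ∀ f ∈ T, f ∈ IsLocalRing.maximalIdeal (MvPowerSeries σ O) := by
    intro f hf
    simp only [T, Finset.mem_insert, Finset.mem_union, Finset.mem_image, Finset.mem_univ,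
      true_and] at hf
    rcases hf with rfl | ((⟨i, rfl⟩ | ⟨i, rfl⟩) | ⟨i, rfl⟩) | ⟨t, rfl⟩
    · rw [rtk2b_mem_maximalIdeal_iff, constantCoeff_C, hlam]
      exact Ideal.mem_span_singleton_self _
    · exact Ideal.add_mem _ (hXmax _) (hXmax _)
    · exact Ideal.add_mem _ (hXmax _) (hXmax _)
    · exact Ideal.sub_mem _ (hXmax _) (hXmax _)
    · exact hXmax _
  -- the images of the parameters in the quotient
  let Tq : Finset (MvPowerSeries σ O ⧸ I) := T.image (Ideal.Quotient.mk I)
  have hTq : (Tq : Set (MvPowerSeries σ O ⧸ I)) ⊆ Ring.jacobson (MvPowerSeries σ O ⧸ I) := by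
    intro y hy
    simp only [Tq, Finset.coe_image, Set.mem_image, Finset.mem_coe] at hy
    obtain ⟨f, hf, rfl⟩ := hy
    exact rtk2b_mem_jacobson I f (hTmax f hf)
  have hdim := ringKrullDim_le_ringKrullDim_quotient_add_card Tq hTq
  -- the quotient by the parameters has dimension `≤ 0`
  have h0 : ringKrullDim ((MvPowerSeries σ O ⧸ I) ⧸ Ideal.span (Tq : Set (MvPowerSeries σ O ⧸ I)))
      ≤ 0 := by
    have : Ring.KrullDimLE 0
        ((MvPowerSeries σ O ⧸ I) ⧸ Ideal.span (Tq : Set (MvPowerSeries σ O ⧸ I))) := by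
      rw [Ring.krullDimLE_zero_iff]
      intro 𝔮 h𝔮
      let π : MvPowerSeries σ O →+*
          (MvPowerSeries σ O ⧸ I) ⧸ Ideal.span (Tq : Set (MvPowerSeries σ O ⧸ I)) :=
        (Ideal.Quotient.mk _).comp (Ideal.Quotient.mk I)
      have hπ : Surjective π :=
        Ideal.Quotient.mk_surjective.comp Ideal.Quotient.mk_surjective
      have hπI : ∀ f ∈ I, π f = 0 := by
        intro f hf
        show Ideal.Quotient.mk _ (Ideal.Quotient.mk I f) = 0
        rw [Ideal.Quotient.eq_zero_iff_mem.mpr hf, map_zero]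
      have hπT : ∀ f ∈ T, π f = 0 := by
        intro f hf
        show Ideal.Quotient.mk _ (Ideal.Quotient.mk I f) = 0
        rw [Ideal.Quotient.eq_zero_iff_mem]
        exact Ideal.subset_span (Finset.mem_coe.mpr (Finset.mem_image_of_mem _ hf))
      have h𝔭 : (𝔮.comap π).IsPrime := Ideal.comap_isPrime π 𝔮
      have hmem : ∀ f, π f = 0 → f ∈ 𝔮.comap π := by
        intro f hf
        rw [Ideal.mem_comap, hf]
        exact Ideal.zero_mem _
      have hI𝔭 : ∀ f ∈ I, f ∈ 𝔮.comap π := fun f hf => hmem f (hπI f hf)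
      have hT𝔭 : ∀ f ∈ T, f ∈ 𝔮.comap π := fun f hf => hmem f (hπT f hf)
      have hlam𝔭 : (C lam : MvPowerSeries σ O) ∈ 𝔮.comap π :=
        hT𝔭 _ (Finset.mem_insert_self _ _)
      have hC𝔭 : ∀ c ∈ IsLocalRing.maximalIdeal O, (C c : MvPowerSeries σ O) ∈ 𝔮.comap π := by
        intro c hc
        rw [hlam, Ideal.mem_span_singleton] at hc
        obtain ⟨u, rfl⟩ := hc
        rw [map_mul]
        exact Ideal.mul_mem_right _ _ hlam𝔭
      have h2𝔭 : (2 : MvPowerSeries σ O) ∉ 𝔮.comap π := by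
        intro h
        apply h𝔭.ne_top
        apply Ideal.eq_top_of_isUnit_mem _ h
        have : (2 : MvPowerSeries σ O) = C (2 : O) := by rw [map_ofNat]
        rw [this]
        exact h2.map _
      have hcore : ∀ i, (X (va i) : MvPowerSeries σ O) ∈ 𝔮.comap π ∧
          (X (vb i) : MvPowerSeries σ O) ∈ 𝔮.comap π ∧
          (X (vc i) : MvPowerSeries σ O) ∈ 𝔮.comap π ∧
          (X (vX i) : MvPowerSeries σ O) ∈ 𝔮.comap π ∧
          (X (vY i) : MvPowerSeries σ O) ∈ 𝔮.comap π ∧
          (X (vZ i) : MvPowerSeries σ O) ∈ 𝔮.comap π := by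
        intro i
        refine rtk2b_prime_core (𝔮.comap π) h2𝔭 _ _ _ _ _ _ (C (δ i)) (hC𝔭 _ (hδ i))
          (hI𝔭 _ (h1 i)) (hI𝔭 _ (hm1 i)) (hI𝔭 _ (hm2 i)) (hI𝔭 _ (hm3 i)) ?_ ?_ ?_
        · exact hT𝔭 _ (by
            simp only [T, Finset.mem_insert, Finset.mem_union, Finset.mem_image,
              Finset.mem_univ, true_and]
            exact Or.inr (Or.inl (Or.inl (Or.inl ⟨i, rfl⟩))))
        · exact hT𝔭 _ (by
            simp only [T, Finset.mem_insert, Finset.mem_union, Finset.mem_image,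
              Finset.mem_univ, true_and]
            exact Or.inr (Or.inl (Or.inl (Or.inr ⟨i, rfl⟩))))
        · exact hT𝔭 _ (by
            simp only [T, Finset.mem_insert, Finset.mem_union, Finset.mem_image,
              Finset.mem_univ, true_and]
            exact Or.inr (Or.inl (Or.inr ⟨i, rfl⟩)))
      have hX𝔭 : ∀ s, (X s : MvPowerSeries σ O) ∈ 𝔮.comap π := by
        intro s
        rcases hcover s with ⟨i, hi⟩ | ⟨t, rfl⟩
        · obtain ⟨ha, hb, hc, hX, hY, hZ⟩ := hcore i
          rcases hi with rfl | rfl | rfl | rfl | rfl | rfl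
          · exact ha
          · exact hb
          · exact hc
          · exact hX
          · exact hY
          · exact hZ
        · exact hT𝔭 _ (by
            simp only [T, Finset.mem_insert, Finset.mem_union, Finset.mem_image,
              Finset.mem_univ, true_and]
            exact Or.inr (Or.inr ⟨t, rfl⟩))
      have hle := rtk2b_maximalIdeal_le (𝔮.comap π) hX𝔭 hC𝔭
      have heq : IsLocalRing.maximalIdeal (MvPowerSeries σ O) = 𝔮.comap π :=
        (IsLocalRing.maximalIdeal.isMaximal _).eq_of_le h𝔭.ne_top hle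
      have hmax : (𝔮.comap π).IsMaximal := heq ▸ IsLocalRing.maximalIdeal.isMaximal _
      have hmap : (𝔮.comap π).map π = 𝔮 := Ideal.map_comap_of_surjective π hπ 𝔮
      rcases Ideal.map_eq_top_or_isMaximal_of_surjective π hπ hmax with h | h
      · rw [hmap] at h
        exact absurd h h𝔮.ne_top
      · rwa [hmap] at h
    exact Ring.krullDimLE_iff.mp this
  have hcard : Tq.card ≤ 1 + 3 * Fintype.card ι + Fintype.card τ :=
    Finset.card_image_le.trans hTcard
  calc ringKrullDim (MvPowerSeries σ O ⧸ I)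
      ≤ ringKrullDim ((MvPowerSeries σ O ⧸ I) ⧸
          Ideal.span (Tq : Set (MvPowerSeries σ O ⧸ I))) + Tq.card := hdim
    _ ≤ 0 + ((1 + 3 * Fintype.card ι + Fintype.card τ : ℕ) : WithBot ℕ∞) := by
        refine add_le_add h0 ?_
        exact_mod_cast hcard
    _ = _ := zero_add _

end Dim

end Fermat.Agent.RT.K2b


end ZBRT_016_3

/-! ### bundled: `Fermat.Agent.RT.Even.Sq` -/
section ZBRT_016_4

/-!
# K-machine, piece EVEN: the squaring substitution on a power series ring

`S = O[[w_1, …, w_m]]`, `sq = MvPowerSeries.expand 2 : S → S` (`w_i ↦ w_i²`).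

* `rtevSq_injective`   : `sq` is injective;
* `rtev_decomp`        : `f = ∑_{b ∈ {0,1}^σ} w^b · sq (f_b)` — `S` is generated over `sq(S)` by the
                         `2^m` monomials `w^b`;
* `rtev_finite`        : the same as an existence statement (for `Module.Finite`);
* `rtev_aug_pow_le`    : a power of the augmentation ideal `𝔞 = (w_i)` is contained in
                         `sq(𝔞) · S`.
-/

set_option autoImplicit false
set_option linter.style.haveILetI false

namespace Fermat.Agent.RT.Even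

open MvPowerSeries

section Sq

variable {σ : Type*} {O : Type*} [CommRing O]

/-- The squaring substitution `w_i ↦ w_i²`. -/
noncomputable abbrev rtevSq : MvPowerSeries σ O →ₐ[O] MvPowerSeries σ O :=
  expand 2 two_ne_zero

theorem rtevSq_injective : Function.Injective (rtevSq (σ := σ) (O := O)) := by
  intro f g h
  ext m
  rw [← coeff_expand_smul 2 two_ne_zero f m, ← coeff_expand_smul 2 two_ne_zero g m]
  exact congrArg _ h

variable [Fintype σ]

/-- The exponent of the monomial `w^b`. -/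
noncomputable def rtevExp (b : σ → Bool) : σ →₀ ℕ :=
  Finsupp.equivFunOnFinite.symm fun i => if b i then 1 else 0

@[simp] theorem rtevExp_apply (b : σ → Bool) (i : σ) : rtevExp b i = if b i then 1 else 0 := rfl

/-- The parity of an exponent. -/
def rtevPar (n : σ →₀ ℕ) : σ → Bool := fun i => decide (n i % 2 = 1)

/-- The half of an exponent. -/
noncomputable def rtevHalf (n : σ →₀ ℕ) : σ →₀ ℕ :=
  Finsupp.equivFunOnFinite.symm fun i => n i / 2

@[simp] theorem rtevHalf_apply (n : σ →₀ ℕ) (i : σ) : rtevHalf n i = n i / 2 := rfl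

theorem rtev_two_half_add (n : σ →₀ ℕ) : 2 • rtevHalf n + rtevExp (rtevPar n) = n := by
  ext i
  simp only [Finsupp.coe_add, Finsupp.coe_smul, Pi.add_apply, Pi.smul_apply, rtevHalf_apply,
    rtevExp_apply, rtevPar, smul_eq_mul, decide_eq_true_eq]
  split_ifs with h <;> omega

theorem rtevExp_par_le (n : σ →₀ ℕ) : rtevExp (rtevPar n) ≤ n := by
  intro i
  simp only [rtevExp_apply, rtevPar, decide_eq_true_eq]
  split_ifs with h <;> omega

/-- The component `f_b` of `f`: `coeff m f_b = coeff (2m + b) f`. -/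
noncomputable def rtevComp (b : σ → Bool) (f : MvPowerSeries σ O) : MvPowerSeries σ O :=
  fun m => coeff (2 • m + rtevExp b) f

theorem coeff_rtevComp (b : σ → Bool) (f : MvPowerSeries σ O) (m : σ →₀ ℕ) :
    coeff m (rtevComp b f) = coeff (2 • m + rtevExp b) f := rfl

/-- The coefficients of `w^b · sq g`. -/
theorem rtev_coeff_monomial_mul_sq (b : σ → Bool) (g : MvPowerSeries σ O) (n : σ →₀ ℕ) :
    coeff n (monomial (rtevExp b) (1 : O) * rtevSq g) =
      if b = rtevPar n then coeff (rtevHalf n) g else 0 := by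
  rw [coeff_monomial_mul]
  by_cases hb : b = rtevPar n
  · subst hb
    rw [if_pos (rtevExp_par_le n), if_pos rfl, one_mul]
    have e : n - rtevExp (rtevPar n) = 2 • rtevHalf n :=
      tsub_eq_of_eq_add (rtev_two_half_add n).symm
    rw [e, coeff_expand_smul]
  · rw [if_neg hb]
    split_ifs with hle
    · rw [one_mul]
      -- some coordinate of `n - b` is odd
      obtain ⟨i, hi⟩ : ∃ i, b i ≠ rtevPar n i := by
        by_contra hcon
        exact hb (funext fun i => by
          by_contra hne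
          exact hcon ⟨i, hne⟩)
      have hlei := hle i
      refine coeff_expand_of_not_dvd 2 two_ne_zero _ (i := i) ?_
      simp only [Finsupp.coe_tsub, Pi.sub_apply, rtevExp_apply]
      simp only [rtevExp_apply] at hlei
      simp only [rtevPar] at hi
      by_cases hbi : b i
      · rw [if_pos hbi] at hlei ⊢
        have : ¬ (n i % 2 = 1) := by
          intro h
          apply hi
          rw [hbi]
          exact (decide_eq_true h).symm
        omega
      · rw [if_neg hbi] at hlei ⊢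
        have : n i % 2 = 1 := by
          by_contra h
          apply hi
          rw [Bool.not_eq_true] at hbi
          rw [hbi]
          exact (decide_eq_false h).symm
        omega
    · rfl

variable [DecidableEq σ]

/-- **The decomposition** `f = ∑_b w^b · sq (f_b)`. -/
theorem rtev_decomp (f : MvPowerSeries σ O) :
    f = ∑ b : σ → Bool, monomial (rtevExp b) (1 : O) * rtevSq (rtevComp b f) := by
  ext n
  rw [map_sum, Finset.sum_eq_single (rtevPar n)]
  · rw [rtev_coeff_monomial_mul_sq, if_pos rfl, coeff_rtevComp, rtev_two_half_add]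
  · intro b _ hb
    rw [rtev_coeff_monomial_mul_sq, if_neg hb]
  · intro h
    exact absurd (Finset.mem_univ _) h

/-- **Finiteness** of `S` over `sq(S)`, in elementary form. -/
theorem rtev_finite : ∃ (N : ℕ) (u : Fin N → MvPowerSeries σ O), ∀ f : MvPowerSeries σ O,
    ∃ c : Fin N → MvPowerSeries σ O, f = ∑ k, rtevSq (c k) * u k := by
  classical
  let e := Fintype.equivFin (σ → Bool)
  refine ⟨Fintype.card (σ → Bool), fun k => monomial (rtevExp (e.symm k)) (1 : O), fun f =>
    ⟨fun k => rtevComp (e.symm k) f, ?_⟩⟩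
  conv_lhs => rw [rtev_decomp f]
  rw [← e.symm.sum_comp]
  exact Finset.sum_congr rfl fun k _ => mul_comm _ _

end Sq

section Aug

variable {σ : Type*} {O : Type*} [CommRing O]

/-- `sq (X i) = X i ^ 2` lies in `sq(𝔞) · S`. -/
theorem rtev_X_sq_mem (i : σ) :
    (X i : MvPowerSeries σ O) ^ 2 ∈
      Ideal.map (rtevSq (σ := σ) (O := O)) (RingHom.ker (constantCoeff (σ := σ) (R := O))) := by
  have h : (X i : MvPowerSeries σ O) ∈ RingHom.ker (constantCoeff (σ := σ) (R := O)) := by
    rw [RingHom.mem_ker, constantCoeff_X]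
  have := Ideal.mem_map_of_mem (rtevSq (σ := σ) (O := O)) h
  rwa [expand_X] at this

/-- The augmentation ideal is generated by the variables. -/
theorem rtev_aug_eq_span [Finite σ] :
    RingHom.ker (constantCoeff (σ := σ) (R := O)) =
      Ideal.span (Set.range (X : σ → MvPowerSeries σ O)) := by
  refine le_antisymm (fun f hf => Fermat.Agent.RT.K2b.rtk2b_mem_span_X f hf) ?_
  rw [Ideal.span_le]
  rintro _ ⟨i, rfl⟩
  rw [SetLike.mem_coe, RingHom.mem_ker, constantCoeff_X]

/-- **A power of the augmentation ideal lies in `sq(𝔞) · S`.** -/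
theorem rtev_aug_pow_le_gen [Finite σ] :
    ∃ k : ℕ, RingHom.ker (constantCoeff (σ := σ) (R := O)) ^ k ≤
      Ideal.map (rtevSq (σ := σ) (O := O)) (RingHom.ker (constantCoeff (σ := σ) (R := O))) := by
  refine Ideal.exists_pow_le_of_le_radical_of_fg ?_ ?_
  · rw [rtev_aug_eq_span (σ := σ) (O := O), Ideal.span_le]
    rintro _ ⟨i, rfl⟩
    refine ⟨2, ?_⟩
    have := rtev_X_sq_mem (O := O) i
    rwa [rtev_aug_eq_span (σ := σ) (O := O)] at this
  · rw [rtev_aug_eq_span (σ := σ) (O := O)]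
    exact Submodule.fg_span (Set.finite_range _)

/-- The image of `sq` consists of series with even exponents only. -/
theorem rtev_coeff_sq_ne_zero (f : MvPowerSeries σ O) (e : σ →₀ ℕ)
    (h : coeff e (rtevSq f) ≠ 0) (i : σ) : Even (e i) := by
  by_contra hodd
  apply h
  refine coeff_expand_of_not_dvd 2 two_ne_zero f (i := i) ?_
  rwa [← even_iff_two_dvd]

end Aug

section FiniteGen

variable {A B : Type*} [CommRing A] [CommRing B]

/-- A ring homomorphism `f : A → B` such that `B = ∑ f(A) u_k` is finite. -/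
theorem rtev_finite_of_generators (f : A →+* B) (N : ℕ) (u : Fin N → B)
    (hu : ∀ b : B, ∃ c : Fin N → A, b = ∑ k, f (c k) * u k) : f.Finite := by
  letI : Algebra A B := f.toAlgebra
  have key : Module.Finite A B := by
    rw [Module.finite_def, Submodule.fg_iff_exists_fin_generating_family]
    refine ⟨N, u, eq_top_iff.mpr fun b _ => ?_⟩
    obtain ⟨c, hc⟩ := hu b
    rw [hc]
    refine Submodule.sum_mem _ fun k _ => ?_
    have e : f (c k) * u k = c k • u k := rfl
    rw [e]
    exact Submodule.smul_mem _ _ (Submodule.subset_span ⟨k, rfl⟩)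
  exact key

end FiniteGen

/-! ## The interface for the assembly (`RT/Even/Out.lean`, helper27) -/

section Interface

open Fermat.Agent.RT

/-- The squaring substitution on `S = O[[w_1, …, w_m]]`.  (ALL the variables are squared: the
image still lies in `rttwEven O m h`, which is all that is used.) -/
noncomputable def rtev_sq (O : Type*) [CommRing O] (m _h : ℕ) : RttwS O m →ₐ[O] RttwS O m :=
  rtevSq

variable (O : Type*) [CommRing O] (m h : ℕ)

theorem rtev_sq_apply (f : RttwS O m) : rtev_sq O m h f = rtevSq f := rfl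

theorem rtev_sq_injective : Function.Injective (rtev_sq O m h) := rtevSq_injective

theorem rtev_sq_mem_even (f : RttwS O m) : rtev_sq O m h f ∈ rttwEven O m h :=
  fun e he i _ => rtev_coeff_sq_ne_zero f e he i

/-- **`S` is finite over `sq(S)`.** -/
theorem rtev_sq_finite : (rtev_sq O m h).toRingHom.Finite := by
  classical
  obtain ⟨N, u, hu⟩ := rtev_finite (σ := Fin m) (O := O)
  exact rtev_finite_of_generators _ N u hu

theorem rtev_aug_pow_le : ∃ k : ℕ, rttwAug O m ^ k ≤ (rttwAug O m).map (rtev_sq O m h) :=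
  rtev_aug_pow_le_gen

end Interface

end Fermat.Agent.RT.Even


end ZBRT_016_4
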