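/- GENERATED FILE (helper35, build-time optimisation, NOTES/ZB.md): verbatim concatenation of the modules
   Fermat.Agent.RT.K4.Support
   Do not edit; do not import together with these modules. -/
import Mathlib

/-! ### bundled: `Fermat.Agent.RT.K4.Support` -/
section ZBRT_014_0

/-!
# K-machine (row 37 / S59), piece K4: the support lemma of "Ihara avoidance"

Abstract commutative algebra (Taylor 2008, Kisin): `R₁`, `Rχ` are two rings with the same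
reduction `Rb = R₁/λ₁ = Rχ/λχ`, and `M₁`, `Mχ` are finite modules with the same reduction
`Mb = M₁/λ₁ = Mχ/λχ`.  If `Mχ` has full support, if the support of `M₁` is a union of irreducible
components and if every irreducible component of `Spec R₁` meets the special fibre in a point
lying on no other component, then `M₁` has full support: `Ann(M₁) ⊆ nilradical R₁`.

Everything is stated with explicit semilinear surjections, no dimension theory is used here.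
-/

set_option autoImplicit false

namespace Fermat.Agent.RT.K4

open Function

section

variable {R₁ Rχ Rb : Type*} [CommRing R₁] [CommRing Rχ] [CommRing Rb]
  {M₁ Mχ Mb : Type*} [AddCommGroup M₁] [AddCommGroup Mχ] [AddCommGroup Mb]
  [Module R₁ M₁] [Module Rχ Mχ] [Module Rb Mb]

/-- A prime of the special fibre of `R` (it contains `lam`) lies in the support of the finite
module `M` as soon as it contains the annihilator of `M`: then it contains every `r` with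
`r M ⊆ lam M`. -/
theorem rtk4_mem_of_smul_le {R M : Type*} [CommRing R] [AddCommGroup M] [Module R M]
    [Module.Finite R M] (lam : R) (𝔮 : Ideal R) [𝔮.IsPrime] (hlam : lam ∈ 𝔮)
    (hAnn : Module.annihilator R M ≤ 𝔮) (r : R) (hr : ∀ m : M, ∃ m' : M, r • m = lam • m') :
    r ∈ 𝔮 := by
  have hsupp : (⟨𝔮, inferInstance⟩ : PrimeSpectrum R) ∈
      Module.support R (M ⧸ (Ideal.span {lam} • ⊤ : Submodule R M)) := by
    rw [Module.support_quotient]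
    refine ⟨Module.mem_support_iff_of_finite.mpr hAnn, ?_⟩
    rw [PrimeSpectrum.mem_zeroLocus]
    exact (Ideal.span_singleton_le_iff_mem (I := 𝔮)).mpr hlam
  have h2 := Module.mem_support_iff_of_finite.mp hsupp
  apply h2
  rw [Module.mem_annihilator]
  intro x
  obtain ⟨m, rfl⟩ := Submodule.Quotient.mk_surjective _ x
  obtain ⟨m', hm'⟩ := hr m
  rw [← Submodule.Quotient.mk_smul, hm', Submodule.Quotient.mk_eq_zero]
  exact Submodule.smul_mem_smul (Ideal.mem_span_singleton_self lam) Submodule.mem_top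

/-- **From the `χ` side to the special fibre.**  If `Mχ` has full support then every prime `𝔮` of
`R₁` in the special fibre (`lam₁ ∈ 𝔮`) lies in the support of `M₁`. -/
theorem rtk4_ann_le_of_mem [Module.Finite Rχ Mχ]
    (f₁ : R₁ →+* Rb) (fχ : Rχ →+* Rb) (hf₁ : Surjective f₁) (hfχ : Surjective fχ)
    (lam₁ : R₁) (lamχ : Rχ) (hk₁ : RingHom.ker f₁ ≤ Ideal.span {lam₁})
    (hkχ : fχ lamχ = 0)
    (g₁ : M₁ →+ Mb) (gχ : Mχ →+ Mb) (hg₁ : Surjective g₁)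
    (hs₁ : ∀ (r : R₁) (m : M₁), g₁ (r • m) = f₁ r • g₁ m)
    (hsχ : ∀ (r : Rχ) (m : Mχ), gχ (r • m) = fχ r • gχ m)
    (hkerχ : ∀ m : Mχ, gχ m = 0 → ∃ m' : Mχ, m = lamχ • m')
    (hχ : Module.annihilator Rχ Mχ ≤ nilradical Rχ)
    (𝔮 : Ideal R₁) [h𝔮 : 𝔮.IsPrime] (hlam : lam₁ ∈ 𝔮) :
    Module.annihilator R₁ M₁ ≤ 𝔮 := by
  have hker𝔮 : RingHom.ker f₁ ≤ 𝔮 :=
    hk₁.trans ((Ideal.span_singleton_le_iff_mem (I := 𝔮)).mpr hlam)
  have h𝔮b : (Ideal.map f₁ 𝔮).IsPrime := Ideal.map_isPrime_of_surjective hf₁ hker𝔮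
  have hmem₁ : ∀ r : R₁, f₁ r ∈ Ideal.map f₁ 𝔮 → r ∈ 𝔮 := by
    intro r hr
    have : r ∈ Ideal.comap f₁ (Ideal.map f₁ 𝔮) := hr
    rwa [Ideal.comap_map_of_surjective' f₁ hf₁, sup_eq_left.mpr hker𝔮] at this
  have h𝔮χ : (Ideal.comap fχ (Ideal.map f₁ 𝔮)).IsPrime := Ideal.comap_isPrime fχ _
  have hlamχ : lamχ ∈ Ideal.comap fχ (Ideal.map f₁ 𝔮) := by
    rw [Ideal.mem_comap, hkχ]
    exact Ideal.zero_mem _
  have hAnnχ : Module.annihilator Rχ Mχ ≤ Ideal.comap fχ (Ideal.map f₁ 𝔮) :=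
    hχ.trans (nilradical_le_prime _)
  intro a ha
  apply hmem₁
  obtain ⟨r, hr⟩ := hfχ (f₁ a)
  rw [← hr, ← Ideal.mem_comap]
  refine rtk4_mem_of_smul_le lamχ _ hlamχ hAnnχ r (fun m => hkerχ _ ?_)
  obtain ⟨m₁, hm₁⟩ := hg₁ (gχ m)
  rw [hsχ, hr, ← hm₁, ← hs₁, Module.mem_annihilator.mp ha, map_zero]

/-- **Support lemma, one-prime form.**  If moreover `𝔭` is the only prime minimal over
`Ann(M₁)` below the special point `𝔮`, then `Ann(M₁) ≤ 𝔭`. -/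
theorem rtk4_ann_le_prime [Module.Finite Rχ Mχ]
    (f₁ : R₁ →+* Rb) (fχ : Rχ →+* Rb) (hf₁ : Surjective f₁) (hfχ : Surjective fχ)
    (lam₁ : R₁) (lamχ : Rχ) (hk₁ : RingHom.ker f₁ ≤ Ideal.span {lam₁})
    (hkχ : fχ lamχ = 0)
    (g₁ : M₁ →+ Mb) (gχ : Mχ →+ Mb) (hg₁ : Surjective g₁)
    (hs₁ : ∀ (r : R₁) (m : M₁), g₁ (r • m) = f₁ r • g₁ m)
    (hsχ : ∀ (r : Rχ) (m : Mχ), gχ (r • m) = fχ r • gχ m)
    (hkerχ : ∀ m : Mχ, gχ m = 0 → ∃ m' : Mχ, m = lamχ • m')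
    (hχ : Module.annihilator Rχ Mχ ≤ nilradical Rχ)
    (𝔭 𝔮 : Ideal R₁) [h𝔮 : 𝔮.IsPrime] (hlam : lam₁ ∈ 𝔮)
    (huniq : ∀ P ∈ (Module.annihilator R₁ M₁).minimalPrimes, P ≤ 𝔮 → P = 𝔭) :
    Module.annihilator R₁ M₁ ≤ 𝔭 := by
  have hAnn𝔮 := rtk4_ann_le_of_mem f₁ fχ hf₁ hfχ lam₁ lamχ hk₁ hkχ g₁ gχ hg₁ hs₁ hsχ hkerχ hχ
    𝔮 hlam
  obtain ⟨P, hP, hP𝔮⟩ := Ideal.exists_minimalPrimes_le hAnn𝔮
  rw [← huniq P hP hP𝔮]
  exact hP.1.2

/-- **Support lemma (Ihara avoidance), all components.** -/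
theorem rtk4_nearly_faithful [Module.Finite Rχ Mχ]
    (f₁ : R₁ →+* Rb) (fχ : Rχ →+* Rb) (hf₁ : Surjective f₁) (hfχ : Surjective fχ)
    (lam₁ : R₁) (lamχ : Rχ) (hk₁ : RingHom.ker f₁ ≤ Ideal.span {lam₁})
    (hkχ : fχ lamχ = 0)
    (g₁ : M₁ →+ Mb) (gχ : Mχ →+ Mb) (hg₁ : Surjective g₁)
    (hs₁ : ∀ (r : R₁) (m : M₁), g₁ (r • m) = f₁ r • g₁ m)
    (hsχ : ∀ (r : Rχ) (m : Mχ), gχ (r • m) = fχ r • gχ m)
    (hkerχ : ∀ m : Mχ, gχ m = 0 → ∃ m' : Mχ, m = lamχ • m')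
    (hχ : Module.annihilator Rχ Mχ ≤ nilradical Rχ)
    (h1 : ∀ P ∈ (Module.annihilator R₁ M₁).minimalPrimes, P ∈ minimalPrimes R₁)
    (h2 : ∀ 𝔭 ∈ minimalPrimes R₁, ∃ 𝔮 : Ideal R₁, 𝔮.IsPrime ∧ lam₁ ∈ 𝔮 ∧ 𝔭 ≤ 𝔮 ∧
      ∀ 𝔭' ∈ minimalPrimes R₁, 𝔭' ≤ 𝔮 → 𝔭' = 𝔭) :
    Module.annihilator R₁ M₁ ≤ nilradical R₁ := by
  rw [nilradical, ← Ideal.sInf_minimalPrimes]
  refine le_sInf fun 𝔭 h𝔭 => ?_
  obtain ⟨𝔮, h𝔮, hlam, -, huniq⟩ := h2 𝔭 h𝔭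
  exact rtk4_ann_le_prime f₁ fχ hf₁ hfχ lam₁ lamχ hk₁ hkχ g₁ gχ hg₁ hs₁ hsχ hkerχ hχ 𝔭 𝔮 hlam
    (fun P hP hP𝔮 => huniq P (h1 P hP) hP𝔮)

end

end Fermat.Agent.RT.K4


end ZBRT_014_0
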