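/- GENERATED FILE (helper35, build-time optimisation, NOTES/ZB.md): verbatim concatenation of the modules
   Fermat.Agent.RT.K4.Base
   Fermat.Agent.RT.K4.Weak
   Fermat.Agent.RT.K4.Matrix
   Fermat.Agent.RT.K4.OutT0
   Fermat.Agent.RT.Out
   Fermat.Agent.RT.Even.Out
   Fermat.Agent.RT.Even.Main
   Fermat.Agent.RT.Even.Final
   Do not edit; do not import together with these modules. -/
import Mathlib
import Fermat.Agent.ZB.RT_013
import Fermat.Agent.ZB.RT_014
import Fermat.Agent.ZB.RT_003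
import Fermat.Agent.ZB.RT_011
import Fermat.Agent.ZB.RT_016

/-! ### bundled: `Fermat.Agent.RT.K4.Base` -/
section ZBRT_015_0

/-!
# K-machine, piece K4: auxiliary lemmas for the output statement

* `rtk4_map_surjective`, `rtk4_ker_map_le` : `MvPowerSeries.map f` is surjective with kernel
  generated by `C lam` when `f` is surjective with kernel generated by `lam`.
* `rtk4_mem_of_smul_le_ideal` : a prime containing `Ann(M)` and `I` contains `Ann(M / I M)`.
* `rtk4_descend_prime` : a prime of `R` containing the kernel of the action on the base descends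
  to a prime of the base Hecke ring.
-/

set_option autoImplicit false
set_option linter.style.haveILetI false

namespace Fermat.Agent.RT.K4

open Function

theorem rtk4_map_surjective {A B σ : Type*} [CommRing A] [CommRing B] (f : A →+* B)
    (hf : Surjective f) : Surjective (MvPowerSeries.map (σ := σ) f) := by
  intro ψ
  choose a ha using hf
  let φ' : MvPowerSeries σ A := fun ν => a (MvPowerSeries.coeff ν ψ)
  have hc : ∀ ν, MvPowerSeries.coeff ν φ' = a (MvPowerSeries.coeff ν ψ) := fun ν => rfl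
  refine ⟨φ', ?_⟩
  ext ν
  rw [MvPowerSeries.coeff_map, hc]
  exact ha _

theorem rtk4_ker_map_le {A B σ : Type*} [CommRing A] [CommRing B] (f : A →+* B) (lam : A)
    (hk : RingHom.ker f ≤ Ideal.span {lam}) :
    RingHom.ker (MvPowerSeries.map (σ := σ) f) ≤
      Ideal.span {MvPowerSeries.C (σ := σ) (R := A) lam} := by
  intro φ hφ
  rw [RingHom.mem_ker] at hφ
  have h1 : ∀ ν, ∃ a : A, MvPowerSeries.coeff ν φ = lam * a := by
    intro ν
    have h2 : f (MvPowerSeries.coeff ν φ) = 0 := by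
      have := congrArg (MvPowerSeries.coeff ν) hφ
      rwa [MvPowerSeries.coeff_map, map_zero] at this
    have h3 := hk (RingHom.mem_ker.mpr h2)
    rw [Ideal.mem_span_singleton] at h3
    exact h3
  choose a ha using h1
  rw [Ideal.mem_span_singleton]
  let φ' : MvPowerSeries σ A := fun ν => a ν
  have hc : ∀ ν, MvPowerSeries.coeff ν φ' = a ν := fun ν => rfl
  refine ⟨φ', ?_⟩
  ext ν
  rw [MvPowerSeries.coeff_C_mul, hc]
  exact ha ν

/-- A prime containing `Ann(M)` and `I` contains every `r` with `r M ⊆ I M` (`M` finite). -/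
theorem rtk4_mem_of_smul_le_ideal {R M : Type*} [CommRing R] [AddCommGroup M] [Module R M]
    [Module.Finite R M] (I : Ideal R) (𝔮 : Ideal R) [𝔮.IsPrime] (hI : I ≤ 𝔮)
    (hAnn : Module.annihilator R M ≤ 𝔮) (r : R)
    (hr : ∀ m : M, r • m ∈ (I • ⊤ : Submodule R M)) : r ∈ 𝔮 := by
  have hsupp : (⟨𝔮, inferInstance⟩ : PrimeSpectrum R) ∈
      Module.support R (M ⧸ (I • ⊤ : Submodule R M)) := by
    rw [Module.support_quotient]
    refine ⟨Module.mem_support_iff_of_finite.mpr hAnn, ?_⟩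
    rw [PrimeSpectrum.mem_zeroLocus]
    exact hI
  have h2 := Module.mem_support_iff_of_finite.mp hsupp
  apply h2
  rw [Module.mem_annihilator]
  intro x
  obtain ⟨m, rfl⟩ := Submodule.Quotient.mk_surjective _ x
  rw [← Submodule.Quotient.mk_smul, Submodule.Quotient.mk_eq_zero]
  exact hr m

/-- A prime `P'` of `R` containing the kernel of the action of `R` on the base `M0 = π(M)`
descends to a prime of the base Hecke ring `T0`. -/
theorem rtk4_descend_prime {𝒪 R M M0 : Type*} [CommRing 𝒪] [CommRing R] [AddCommGroup M]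
    [Module R M] [AddCommGroup M0] [Module 𝒪 M0] (T0 : Subalgebra 𝒪 (Module.End 𝒪 M0))
    (π : M →+ M0)
    (base_surjective : ∀ t : T0, ∃ r : R, ∀ x : M, π (r • x) = (t : Module.End 𝒪 M0) (π x))
    (P' : Ideal R) [hP' : P'.IsPrime] (hK : ∀ r : R, (∀ x : M, π (r • x) = 0) → r ∈ P') :
    ∃ 𝔓 : Ideal T0, 𝔓.IsPrime ∧ ∀ (r : R) (t : T0),
      (∀ x : M, π (r • x) = (t : Module.End 𝒪 M0) (π x)) → (t ∈ 𝔓 ↔ r ∈ P') := by
  -- two representatives of the same `t` differ by an element of the kernel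
  have hrep : ∀ (r r' : R) (t : T0), (∀ x : M, π (r • x) = (t : Module.End 𝒪 M0) (π x)) →
      (∀ x : M, π (r' • x) = (t : Module.End 𝒪 M0) (π x)) → r' ∈ P' → r ∈ P' := by
    intro r r' t hr hr' hmem
    have h1 : r - r' ∈ P' := hK _ (fun x => by rw [sub_smul, map_sub, hr, hr', sub_self])
    have := P'.add_mem h1 hmem
    rwa [sub_add_cancel] at this
  let 𝔓 : Ideal T0 :=
    { carrier := {t | ∃ r ∈ P', ∀ x : M, π (r • x) = (t : Module.End 𝒪 M0) (π x)}
      zero_mem' := ⟨0, P'.zero_mem, fun x => by simp⟩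
      add_mem' := by
        rintro t t' ⟨r, hr, h⟩ ⟨r', hr', h'⟩
        refine ⟨r + r', P'.add_mem hr hr', fun x => ?_⟩
        rw [add_smul, map_add, h, h']
        rfl
      smul_mem' := by
        rintro c t ⟨r, hr, h⟩
        obtain ⟨rc, hrc⟩ := base_surjective c
        refine ⟨rc * r, P'.mul_mem_left _ hr, fun x => ?_⟩
        rw [mul_smul, hrc, h]
        rfl }
  have hmem : ∀ (r : R) (t : T0),
      (∀ x : M, π (r • x) = (t : Module.End 𝒪 M0) (π x)) → (t ∈ 𝔓 ↔ r ∈ P') := by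
    intro r t hr
    constructor
    · rintro ⟨r', hr', h'⟩
      exact hrep r r' t hr h' hr'
    · intro h
      exact ⟨r, h, hr⟩
  refine ⟨𝔓, ⟨?_, ?_⟩, hmem⟩
  · intro htop
    have h1 : (1 : T0) ∈ 𝔓 := htop ▸ Submodule.mem_top
    have h2 := (hmem 1 1 (fun x => by simp)).mp h1
    exact hP'.ne_top ((Ideal.eq_top_iff_one _).mpr h2)
  · intro t t' htt'
    obtain ⟨r, hr⟩ := base_surjective t
    obtain ⟨r', hr'⟩ := base_surjective t'
    have h1 : ∀ x : M, π ((r * r') • x) = ((t * t' : T0) : Module.End 𝒪 M0) (π x) := by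
      intro x
      rw [mul_smul, hr, hr']
      rfl
    have h2 := (hmem _ _ h1).mp htt'
    rcases hP'.mem_or_mem h2 with h | h
    · exact Or.inl ((hmem _ _ hr).mpr h)
    · exact Or.inr ((hmem _ _ hr').mpr h)

end Fermat.Agent.RT.K4


end ZBRT_015_0

/-! ### bundled: `Fermat.Agent.RT.K4.Weak` -/
section ZBRT_015_1

/-!
# K-machine, piece K4: the weak form ("`S` acts through `R`")

In the patched situation there is no ring homomorphism `S → R`, only the fact that every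
`s : S` acts on `M` as some `r : R`:  `hc : ∀ s, ∃ r, ∀ m, r • m = s • m`.
Then `S` maps to `R ⧸ Ann_R(M)` (`rtk4_tau`) and everything is reduced to the strong form.

* `rtk4_tau`, `rtk4_tau_eq`        : the ring homomorphism `S →+* R ⧸ Ann_R(M)`.
* `rtk4_dim_le_quotient_weak`      : `dim S ≤ dim R/P` for `P` minimal over `Ann_R(M)`.
* `rtk4_faithful_weak`             : **K4-dim**, weak form.
* `rtk4_point_weak`                : **K4-pt**, weak form.
* `rtk4_ann_le_of_rel`             : the support lemma with the reductions mod `λ` compared by a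
                                     relation instead of a common quotient module.
-/

set_option autoImplicit false
set_option linter.style.haveILetI false

namespace Fermat.Agent.RT.K4

open Function

section Weak

variable {S R M : Type*} [CommRing S] [CommRing R] [AddCommGroup M] [Module R M] [Module S M]

theorem rtk4_mk_eq_of_smul (r r' : R) (h : ∀ m : M, r • m = r' • m) :
    Ideal.Quotient.mk (Module.annihilator R M) r = Ideal.Quotient.mk (Module.annihilator R M) r' :=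
  Ideal.Quotient.eq.mpr (Module.mem_annihilator.mpr fun m => by rw [sub_smul, h, sub_self])

/-- `S` acts through `R` ⇒ ring homomorphism `S → R ⧸ Ann_R(M)`. -/
noncomputable def rtk4_tau (hc : ∀ s : S, ∃ r : R, ∀ m : M, r • m = s • m) :
    S →+* R ⧸ Module.annihilator R M where
  toFun s := Ideal.Quotient.mk _ (Classical.choose (hc s))
  map_one' := by
    rw [← map_one (Ideal.Quotient.mk (Module.annihilator R M))]
    exact rtk4_mk_eq_of_smul _ _ fun m => by rw [Classical.choose_spec (hc 1), one_smul, one_smul]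
  map_mul' s s' := by
    rw [← map_mul (Ideal.Quotient.mk (Module.annihilator R M))]
    exact rtk4_mk_eq_of_smul _ _ fun m => by
      rw [Classical.choose_spec (hc (s * s')), mul_smul, mul_smul,
        Classical.choose_spec (hc s'), Classical.choose_spec (hc s)]
  map_zero' := by
    rw [← map_zero (Ideal.Quotient.mk (Module.annihilator R M))]
    exact rtk4_mk_eq_of_smul _ _ fun m => by
      rw [Classical.choose_spec (hc 0), zero_smul, zero_smul]
  map_add' s s' := by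
    rw [← map_add (Ideal.Quotient.mk (Module.annihilator R M))]
    exact rtk4_mk_eq_of_smul _ _ fun m => by
      rw [Classical.choose_spec (hc (s + s')), add_smul, add_smul,
        Classical.choose_spec (hc s'), Classical.choose_spec (hc s)]

theorem rtk4_tau_eq (hc : ∀ s : S, ∃ r : R, ∀ m : M, r • m = s • m) (s : S) (r : R)
    (h : ∀ m : M, r • m = s • m) : rtk4_tau hc s = Ideal.Quotient.mk _ r :=
  rtk4_mk_eq_of_smul _ _ fun m => by rw [Classical.choose_spec (hc s), h]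

theorem rtk4_tau_smul (hc : ∀ s : S, ∃ r : R, ∀ m : M, r • m = s • m) (s : S) (m : M) :
    letI : Module (R ⧸ Module.annihilator R M) M := Module.quotientAnnihilator
    rtk4_tau hc s • m = s • m :=
  Classical.choose_spec (hc s) m

/-- `M` is finite over `R` as soon as it is finite over `S`. -/
theorem rtk4_finite_of_weak [Module.Finite S M]
    (hc : ∀ s : S, ∃ r : R, ∀ m : M, r • m = s • m) : Module.Finite R M := by
  obtain ⟨G, hG⟩ := (Module.finite_def (R := S) (M := M)).mp inferInstance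
  refine ⟨⟨G, ?_⟩⟩
  rw [eq_top_iff]
  rintro x -
  have hx : x ∈ Submodule.span S (G : Set M) := hG ▸ Submodule.mem_top
  induction hx using Submodule.span_induction with
  | mem y hy => exact Submodule.subset_span hy
  | zero => exact Submodule.zero_mem _
  | add y z _ _ hy hz => exact Submodule.add_mem _ hy hz
  | smul s y _ hy =>
    obtain ⟨r, hr⟩ := hc s
    rw [← hr]
    exact Submodule.smul_mem _ r hy

/-- **K4-pt, weak form.** -/
theorem rtk4_point_weak [IsNoetherianRing R] [Module.Finite S M]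
    (hc : ∀ s : S, ∃ r : R, ∀ m : M, r • m = s • m)
    (htf : ∀ (s : S) (m : M), s • m = 0 → s = 0 ∨ m = 0)
    (𝔮 : Ideal R) [𝔮.IsPrime] (hAnn : Module.annihilator R M ≤ 𝔮)
    (𝔞 : Ideal S) [𝔞.IsPrime] (G : Set R)
    (hCramer : ∀ x ∈ G, ∃ (s : S) (r : R) (D : R), s ≠ 0 ∧ (∀ m : M, r • m = s • m) ∧
      D ∉ 𝔮 ∧ D * r * x = 0) :
    ∃ P' : Ideal R, P'.IsPrime ∧ Module.annihilator R M ≤ P' ∧ Ideal.span G ≤ P' ∧
      ∀ (s : S) (r : R), (∀ m : M, r • m = s • m) → (r ∈ P' ↔ s ∈ 𝔞) := by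
  letI : Module (R ⧸ Module.annihilator R M) M := Module.quotientAnnihilator
  letI : Algebra S (R ⧸ Module.annihilator R M) := (rtk4_tau hc).toAlgebra
  haveI : IsScalarTower S (R ⧸ Module.annihilator R M) M := ⟨fun s t m => by
    rw [Algebra.smul_def, mul_smul]
    exact rtk4_tau_smul hc s (t • m)⟩
  haveI : Module.Finite (R ⧸ Module.annihilator R M) M :=
    Module.Finite.of_restrictScalars_finite S (R ⧸ Module.annihilator R M) M
  have hker : RingHom.ker (Ideal.Quotient.mk (Module.annihilator R M)) ≤ 𝔮 := by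
    rw [Ideal.mk_ker]; exact hAnn
  haveI h𝔮T : (𝔮.map (Ideal.Quotient.mk (Module.annihilator R M))).IsPrime :=
    Ideal.map_isPrime_of_surjective Ideal.Quotient.mk_surjective hker
  have hmem𝔮 : ∀ r : R, Ideal.Quotient.mk (Module.annihilator R M) r ∈
      𝔮.map (Ideal.Quotient.mk (Module.annihilator R M)) → r ∈ 𝔮 := by
    intro r hr
    have : r ∈ Ideal.comap (Ideal.Quotient.mk (Module.annihilator R M))
        (𝔮.map (Ideal.Quotient.mk (Module.annihilator R M))) := hr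
    rwa [Ideal.comap_map_of_surjective' _ Ideal.Quotient.mk_surjective,
      sup_eq_left.mpr hker] at this
  have hAnnT : Module.annihilator (R ⧸ Module.annihilator R M) M ≤
      𝔮.map (Ideal.Quotient.mk (Module.annihilator R M)) := by
    intro t ht
    obtain ⟨r, rfl⟩ := Ideal.Quotient.mk_surjective t
    have h0 : r ∈ Module.annihilator R M :=
      Module.mem_annihilator.mpr fun m => Module.mem_annihilator.mp ht m
    rw [Ideal.Quotient.eq_zero_iff_mem.mpr h0]
    exact Ideal.zero_mem _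
  obtain ⟨P'T, hprime, -, hG', hcomap⟩ :=
    rtk4_point (S := S) (R := R ⧸ Module.annihilator R M) (M := M) htf
      (𝔮.map (Ideal.Quotient.mk (Module.annihilator R M))) hAnnT 𝔞
      (Ideal.Quotient.mk (Module.annihilator R M) '' G) (by
        rintro _ ⟨x, hx, rfl⟩
        obtain ⟨s, r, D, hs, hr, hD, h0⟩ := hCramer x hx
        refine ⟨s, Ideal.Quotient.mk _ D, hs, fun h => hD (hmem𝔮 D h), ?_⟩
        have : algebraMap S (R ⧸ Module.annihilator R M) s = Ideal.Quotient.mk _ r :=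
          rtk4_tau_eq hc s r hr
        rw [this, ← map_mul, ← map_mul, h0, map_zero])
  refine ⟨P'T.comap (Ideal.Quotient.mk (Module.annihilator R M)), Ideal.comap_isPrime _ _,
    ?_, ?_, ?_⟩
  · intro r hr
    rw [Ideal.mem_comap, Ideal.Quotient.eq_zero_iff_mem.mpr hr]
    exact Ideal.zero_mem _
  · rw [Ideal.span_le]
    intro x hx
    exact hG' (Ideal.subset_span ⟨x, hx, rfl⟩)
  · intro s r hr
    rw [Ideal.mem_comap, ← rtk4_tau_eq hc s r hr, ← hcomap]
    rfl

/-- `dim S ≤ dim R/P` for `P` minimal over `Ann_R(M)`, weak form. -/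
theorem rtk4_dim_le_quotient_weak [IsNoetherianRing R] [Module.Finite S M]
    (hc : ∀ s : S, ∃ r : R, ∀ m : M, r • m = s • m)
    (htf : ∀ (s : S) (m : M), s • m = 0 → s = 0 ∨ m = 0)
    {P : Ideal R} (hP : P ∈ (Module.annihilator R M).minimalPrimes) :
    ringKrullDim S ≤ ringKrullDim (R ⧸ P) := by
  letI : Module (R ⧸ Module.annihilator R M) M := Module.quotientAnnihilator
  letI : Algebra S (R ⧸ Module.annihilator R M) := (rtk4_tau hc).toAlgebra
  haveI : IsScalarTower S (R ⧸ Module.annihilator R M) M := ⟨fun s t m => by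
    rw [Algebra.smul_def, mul_smul]
    exact rtk4_tau_smul hc s (t • m)⟩
  haveI : Module.Finite (R ⧸ Module.annihilator R M) M :=
    Module.Finite.of_restrictScalars_finite S (R ⧸ Module.annihilator R M) M
  have hPprime : P.IsPrime := hP.1.1
  have hker : RingHom.ker (Ideal.Quotient.mk (Module.annihilator R M)) ≤ P := by
    rw [Ideal.mk_ker]; exact hP.1.2
  have hcm : (P.map (Ideal.Quotient.mk (Module.annihilator R M))).comap
      (Ideal.Quotient.mk (Module.annihilator R M)) = P := by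
    rw [Ideal.comap_map_of_surjective' _ Ideal.Quotient.mk_surjective, sup_eq_left.mpr hker]
  have hAnnT : Module.annihilator (R ⧸ Module.annihilator R M) M = ⊥ := by
    rw [eq_bot_iff]
    intro t ht
    obtain ⟨r, rfl⟩ := Ideal.Quotient.mk_surjective t
    have h0 : r ∈ Module.annihilator R M :=
      Module.mem_annihilator.mpr fun m => Module.mem_annihilator.mp ht m
    rw [Ideal.Quotient.eq_zero_iff_mem.mpr h0]
    exact Ideal.zero_mem _
  have hPT : P.map (Ideal.Quotient.mk (Module.annihilator R M)) ∈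
      (Module.annihilator (R ⧸ Module.annihilator R M) M).minimalPrimes := by
    refine ⟨⟨Ideal.map_isPrime_of_surjective Ideal.Quotient.mk_surjective hker, ?_⟩, ?_⟩
    · rw [hAnnT]; exact bot_le
    · rintro Q ⟨hQprime, -⟩ hQle
      have h1 : Q.comap (Ideal.Quotient.mk (Module.annihilator R M)) ≤ P := by
        rw [← hcm]
        exact Ideal.comap_mono hQle
      have h2 : P ≤ Q.comap (Ideal.Quotient.mk (Module.annihilator R M)) := by
        refine hP.2 ⟨Ideal.comap_isPrime _ _, ?_⟩ h1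
        intro r hr
        rw [Ideal.mem_comap, Ideal.Quotient.eq_zero_iff_mem.mpr hr]
        exact Ideal.zero_mem _
      exact Ideal.map_le_iff_le_comap.mpr h2
  have h1 := rtk4_dim_le_quotient (S := S) (R := R ⧸ Module.annihilator R M) (M := M) htf hPT
  refine h1.trans ?_
  refine ringKrullDim_le_of_surjective
    (Ideal.Quotient.lift P ((Ideal.Quotient.mk (P.map (Ideal.Quotient.mk
      (Module.annihilator R M)))).comp (Ideal.Quotient.mk (Module.annihilator R M))) ?_) ?_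
  · intro r hr
    rw [RingHom.comp_apply, Ideal.Quotient.eq_zero_iff_mem]
    exact Ideal.mem_map_of_mem _ hr
  · intro y
    obtain ⟨t, rfl⟩ := Ideal.Quotient.mk_surjective y
    obtain ⟨r, rfl⟩ := Ideal.Quotient.mk_surjective t
    exact ⟨Ideal.Quotient.mk P r, by rw [Ideal.Quotient.lift_mk]; rfl⟩

/-- **K4-dim, weak form, from a dimension bound.**  `R` a Noetherian domain with
`dim R ≤ dim S < ∞`; `M ≠ 0` finite and torsion-free over `S`, and `S` acts through `R`.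
Then `M` is a faithful `R`-module. -/
theorem rtk4_faithful_weak_of_dim
    [Nontrivial S] [IsDomain R] [IsNoetherianRing R] [Module.Finite S M] [Nontrivial M]
    (hc : ∀ s : S, ∃ r : R, ∀ m : M, r • m = s • m)
    (htf : ∀ (s : S) (m : M), s • m = 0 → s = 0 ∨ m = 0)
    (hS : ringKrullDim S ≠ ⊤) (hRS : ringKrullDim R ≤ ringKrullDim S) :
    Module.annihilator R M = ⊥ := by
  have hne : Module.annihilator R M ≠ ⊤ := by
    intro h
    obtain ⟨m, hm⟩ := exists_ne (0 : M)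
    apply hm
    have : (1 : R) ∈ Module.annihilator R M := h ▸ Submodule.mem_top
    simpa using Module.mem_annihilator.mp this m
  obtain ⟨P, hP⟩ := Ideal.nonempty_minimalPrimes hne
  have hPprime : P.IsPrime := hP.1.1
  have h2 := rtk4_dim_le_quotient_weak hc htf hP
  have hbot : (⊥ : Ideal R).IsPrime := Ideal.isPrime_bot
  have hdim' : ringKrullDim (R ⧸ (⊥ : Ideal R)) ≤ ringKrullDim S := by
    rw [ringKrullDim_eq_of_ringEquiv (RingEquiv.quotientBot R)]
    exact hRS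
  have hPbot : P = ⊥ := by
    by_contra hne'
    have hlt : (⊥ : Ideal R) < P := lt_of_le_of_ne bot_le (Ne.symm hne')
    have h1 := rtk4_dim_succ_le_of_lt hlt
    have h3 : ringKrullDim (R ⧸ P) + 1 ≤ ringKrullDim (R ⧸ P) := h1.trans (hdim'.trans h2)
    have hnt : Nontrivial (R ⧸ P) := Ideal.Quotient.nontrivial_iff.mpr hPprime.ne_top
    refine rtk4_not_succ_le _ ?_ ?_ h3
    · exact (ringKrullDim_nonneg_of_nontrivial.trans_lt' (WithBot.bot_lt_coe _)).ne'
    · intro htop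
      apply hS
      rw [eq_top_iff, ← htop]
      refine le_trans ?_ (h1.trans hdim')
      exact le_add_of_nonneg_right zero_le_one
  rw [eq_bot_iff, ← hPbot]
  exact hP.1.2

/-- **K4-dim, weak form.**  `R` a Noetherian domain, integral over `S'` through `φ`,
`dim S' ≤ dim S < ∞`; `M ≠ 0` finite and torsion-free over `S`, and `S` acts through `R`.
Then `M` is a faithful `R`-module. -/
theorem rtk4_faithful_weak {S' : Type*} [CommRing S'] (φ : S' →+* R) (hφ : φ.IsIntegral)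
    [Nontrivial S] [IsDomain R] [IsNoetherianRing R] [Module.Finite S M] [Nontrivial M]
    (hc : ∀ s : S, ∃ r : R, ∀ m : M, r • m = s • m)
    (htf : ∀ (s : S) (m : M), s • m = 0 → s = 0 ∨ m = 0)
    (hS : ringKrullDim S ≠ ⊤) (hdim : ringKrullDim S' ≤ ringKrullDim S) :
    Module.annihilator R M = ⊥ := by
  letI : Algebra S' R := φ.toAlgebra
  haveI : Algebra.IsIntegral S' R := ⟨hφ⟩
  exact rtk4_faithful_weak_of_dim hc htf hS ((rtk4_dim_le_of_isIntegral (S' := S')).trans hdim)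

end Weak

section Rel

variable {R₁ Rχ Rb : Type*} [CommRing R₁] [CommRing Rχ] [CommRing Rb]
  {M₁ Mχ : Type*} [AddCommGroup M₁] [AddCommGroup Mχ] [Module R₁ M₁] [Module Rχ Mχ]

/-- **Support lemma, relational form.**  The reductions mod `λ` of `M₁` and `Mχ` are compared
through the relation `hrel`: if `a` kills `M₁` and `r` has the same image as `a` in the common
reduction `Rb`, then `r Mχ ⊆ λ Mχ`.  If `Mχ` has full support then every prime `𝔮` of `R₁` in
the special fibre contains `Ann(M₁)`. -/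
theorem rtk4_ann_le_of_rel [Module.Finite Rχ Mχ]
    (f₁ : R₁ →+* Rb) (fχ : Rχ →+* Rb) (hf₁ : Surjective f₁) (hfχ : Surjective fχ)
    (lam₁ : R₁) (lamχ : Rχ) (hk₁ : RingHom.ker f₁ ≤ Ideal.span {lam₁})
    (hkχ : fχ lamχ = 0)
    (hrel : ∀ (a : R₁) (r : Rχ), f₁ a = fχ r → (∀ m : M₁, a • m = 0) →
      ∀ m : Mχ, ∃ m' : Mχ, r • m = lamχ • m')
    (hχ : Module.annihilator Rχ Mχ ≤ nilradical Rχ)
    (𝔮 : Ideal R₁) [h𝔮 : 𝔮.IsPrime] (hlam : lam₁ ∈ 𝔮) :
    Module.annihilator R₁ M₁ ≤ 𝔮 := by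
  have hker𝔮 : RingHom.ker f₁ ≤ 𝔮 :=
    hk₁.trans ((Ideal.span_singleton_le_iff_mem (I := 𝔮)).mpr hlam)
  have h𝔮b : (Ideal.map f₁ 𝔮).IsPrime := Ideal.map_isPrime_of_surjective hf₁ hker𝔮
  have hmem₁ : ∀ r : R₁, f₁ r ∈ Ideal.map f₁ 𝔮 → r ∈ 𝔮 := by
    intro r hr
    have : r ∈ Ideal.comap f₁ (Ideal.map f₁ 𝔮) := hr
    rwa [Ideal.comap_map_of_surjective' f₁ hf₁, sup_eq_left.mpr hker𝔮] at this
  have h𝔮χ : (Ideal.comap fχ (Ideal.map f₁ 𝔮)).IsPrime := Ideal.comap_isPrime fχ _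
  have hlamχ : lamχ ∈ Ideal.comap fχ (Ideal.map f₁ 𝔮) := by
    rw [Ideal.mem_comap, hkχ]
    exact Ideal.zero_mem _
  have hAnnχ : Module.annihilator Rχ Mχ ≤ Ideal.comap fχ (Ideal.map f₁ 𝔮) :=
    hχ.trans (nilradical_le_prime _)
  intro a ha
  apply hmem₁
  obtain ⟨r, hr⟩ := hfχ (f₁ a)
  rw [← hr, ← Ideal.mem_comap]
  exact rtk4_mem_of_smul_le lamχ _ hlamχ hAnnχ r
    (hrel a r hr.symm (Module.mem_annihilator.mp ha))

end Rel

section Out

variable {S S' R₁ Rχ Rb : Type*} [CommRing S] [CommRing S'] [CommRing R₁] [CommRing Rχ]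
  [CommRing Rb]
  {M₁ Mχ : Type*} [AddCommGroup M₁] [AddCommGroup Mχ] [Module R₁ M₁] [Module Rχ Mχ]
  [Module S M₁] [Module S Mχ]

/-- **The output of the machine, weak module form, from a dimension bound.**
`Mχ` is faithful over the domain `Rχ` (dimension count), hence `Ann(M₁) ≤ 𝔮` for the prime `𝔮` of
the special fibre (support lemma); a prime `P` minimal over `Ann(M₁)` below `𝔮` contains `G`
(Cramer) and meets `S` in `0`; lying over gives a prime `P' ⊇ P` over `𝔞`, which contains the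
kernel of the action of `R₁` on `M₁ / 𝔞 M₁`. -/
theorem rtk4_out_weak_of_dim [Nontrivial S] [IsNoetherianRing R₁] [IsNoetherianRing Rχ] [IsDomain Rχ]
    [Module.Finite S M₁] [Module.Finite S Mχ] [Nontrivial Mχ]
    (hc₁ : ∀ s : S, ∃ r : R₁, ∀ m : M₁, r • m = s • m)
    (hcχ : ∀ s : S, ∃ r : Rχ, ∀ m : Mχ, r • m = s • m)
    (htf₁ : ∀ (s : S) (m : M₁), s • m = 0 → s = 0 ∨ m = 0)
    (htfχ : ∀ (s : S) (m : Mχ), s • m = 0 → s = 0 ∨ m = 0)
    (hS : ringKrullDim S ≠ ⊤)
    (hRS : ringKrullDim Rχ ≤ ringKrullDim S)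
    (f₁ : R₁ →+* Rb) (fχ : Rχ →+* Rb) (hf₁ : Surjective f₁) (hfχ : Surjective fχ)
    (lam₁ : R₁) (lamχ : Rχ) (hk₁ : RingHom.ker f₁ ≤ Ideal.span {lam₁})
    (hkχ : fχ lamχ = 0)
    (hrel : ∀ (a : R₁) (r : Rχ), f₁ a = fχ r → (∀ m : M₁, a • m = 0) →
      ∀ m : Mχ, ∃ m' : Mχ, r • m = lamχ • m')
    (𝔮 : Ideal R₁) [𝔮.IsPrime] (hlam : lam₁ ∈ 𝔮)
    (𝔞 : Ideal S) [𝔞.IsPrime] (G : Set R₁)
    (hCramer : ∀ x ∈ G, ∃ (s : S) (r : R₁) (D : R₁), s ≠ 0 ∧ (∀ m : M₁, r • m = s • m) ∧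
      D ∉ 𝔮 ∧ D * r * x = 0) :
    ∃ P' : Ideal R₁, P'.IsPrime ∧ Module.annihilator R₁ M₁ ≤ P' ∧ Ideal.span G ≤ P' ∧
      (∀ (s : S) (r : R₁), (∀ m : M₁, r • m = s • m) → (r ∈ P' ↔ s ∈ 𝔞)) ∧
      ∀ r : R₁, (∀ m : M₁, r • m ∈ (𝔞 • ⊤ : Submodule S M₁)) → r ∈ P' := by
  have hfinχ : Module.Finite Rχ Mχ := rtk4_finite_of_weak (S := S) hcχ
  have hfin₁ : Module.Finite R₁ M₁ := rtk4_finite_of_weak (S := S) hc₁
  have hfaith : Module.annihilator Rχ Mχ = ⊥ :=
    rtk4_faithful_weak_of_dim (S := S) hcχ htfχ hS hRS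
  have hAnn : Module.annihilator R₁ M₁ ≤ 𝔮 :=
    rtk4_ann_le_of_rel f₁ fχ hf₁ hfχ lam₁ lamχ hk₁ hkχ hrel (hfaith ▸ bot_le) 𝔮 hlam
  obtain ⟨P', hprime, hAnn', hG, hiff⟩ := rtk4_point_weak hc₁ htf₁ 𝔮 hAnn 𝔞 G hCramer
  refine ⟨P', hprime, hAnn', hG, hiff, ?_⟩
  intro r hr
  refine rtk4_mem_of_smul_le_ideal
    (Ideal.span {r : R₁ | ∃ s ∈ 𝔞, ∀ m : M₁, r • m = s • m}) P' ?_ hAnn' r ?_
  · rw [Ideal.span_le]
    rintro x ⟨s, hs, hx⟩
    exact (hiff s x hx).mpr hs
  · intro m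
    have key : ∀ y ∈ (𝔞 • ⊤ : Submodule S M₁),
        y ∈ ((Ideal.span {r : R₁ | ∃ s ∈ 𝔞, ∀ m : M₁, r • m = s • m}) • ⊤ :
          Submodule R₁ M₁) := by
      intro y hy
      induction hy using Submodule.smul_induction_on' with
      | smul s hs n _ =>
        obtain ⟨r', hr'⟩ := hc₁ s
        rw [← hr']
        exact Submodule.smul_mem_smul (Ideal.subset_span ⟨s, hs, hr'⟩) Submodule.mem_top
      | add x _ y _ hx hy => exact Submodule.add_mem _ hx hy
    exact key _ (hr m)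

/-- **The output of the machine, weak module form** (`Rχ` integral over `S'`,
`dim S' ≤ dim S`). -/
theorem rtk4_out_weak [Nontrivial S] [IsNoetherianRing R₁] [IsNoetherianRing Rχ] [IsDomain Rχ]
    [Module.Finite S M₁] [Module.Finite S Mχ] [Nontrivial Mχ]
    (hc₁ : ∀ s : S, ∃ r : R₁, ∀ m : M₁, r • m = s • m)
    (hcχ : ∀ s : S, ∃ r : Rχ, ∀ m : Mχ, r • m = s • m)
    (htf₁ : ∀ (s : S) (m : M₁), s • m = 0 → s = 0 ∨ m = 0)
    (htfχ : ∀ (s : S) (m : Mχ), s • m = 0 → s = 0 ∨ m = 0)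
    (hS : ringKrullDim S ≠ ⊤)
    (φ : S' →+* Rχ) (hφ : φ.IsIntegral) (hdim : ringKrullDim S' ≤ ringKrullDim S)
    (f₁ : R₁ →+* Rb) (fχ : Rχ →+* Rb) (hf₁ : Surjective f₁) (hfχ : Surjective fχ)
    (lam₁ : R₁) (lamχ : Rχ) (hk₁ : RingHom.ker f₁ ≤ Ideal.span {lam₁})
    (hkχ : fχ lamχ = 0)
    (hrel : ∀ (a : R₁) (r : Rχ), f₁ a = fχ r → (∀ m : M₁, a • m = 0) →
      ∀ m : Mχ, ∃ m' : Mχ, r • m = lamχ • m')
    (𝔮 : Ideal R₁) [𝔮.IsPrime] (hlam : lam₁ ∈ 𝔮)
    (𝔞 : Ideal S) [𝔞.IsPrime] (G : Set R₁)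
    (hCramer : ∀ x ∈ G, ∃ (s : S) (r : R₁) (D : R₁), s ≠ 0 ∧ (∀ m : M₁, r • m = s • m) ∧
      D ∉ 𝔮 ∧ D * r * x = 0) :
    ∃ P' : Ideal R₁, P'.IsPrime ∧ Module.annihilator R₁ M₁ ≤ P' ∧ Ideal.span G ≤ P' ∧
      (∀ (s : S) (r : R₁), (∀ m : M₁, r • m = s • m) → (r ∈ P' ↔ s ∈ 𝔞)) ∧
      ∀ r : R₁, (∀ m : M₁, r • m ∈ (𝔞 • ⊤ : Submodule S M₁)) → r ∈ P' := by
  letI : Algebra S' Rχ := φ.toAlgebra
  haveI : Algebra.IsIntegral S' Rχ := ⟨hφ⟩
  exact rtk4_out_weak_of_dim hc₁ hcχ htf₁ htfχ hS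
    ((rtk4_dim_le_of_isIntegral (S' := S')).trans hdim) f₁ fχ hf₁ hfχ lam₁ lamχ hk₁ hkχ hrel
    𝔮 hlam 𝔞 G hCramer

end Out

end Fermat.Agent.RT.K4


end ZBRT_015_1

/-! ### bundled: `Fermat.Agent.RT.K4.Matrix` -/
section ZBRT_015_2

/-!
# K-machine, piece K4: the output of the machine in MATRIX form

The patched modules are `S^d` with the rings `R1`, `Rχ` acting through algebra homomorphisms
`ρ1 : R1 →ₐ[O] M_d(S)`, `ρχ : Rχ →ₐ[O] M_d(S)` (the shape produced by the patching theorem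
`Fermat.Agent.RT.P.rtp_patch`).

* `rtk4MatModule`    : the module structure on `Fin d → S` given by `ρ`.
* `rtk4_out_matrix`  : **the output of the machine**: a prime `𝔓` of `R1` containing the kernel
  of `ρ1 mod 𝔞` and the unramified ideal `ι(Iur)`, with `λ ∉ 𝔓`.
-/

set_option autoImplicit false
set_option linter.style.haveILetI false

namespace Fermat.Agent.RT.K4

open Function

/-- The module structure on `S^d` defined by a ring homomorphism `ρ : R → M_d(S)`. -/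
@[reducible] def rtk4MatModule {R S : Type*} [CommRing R] [CommRing S] {d : ℕ}
    (ρ : R →+* Matrix (Fin d) (Fin d) S) : Module R (Fin d → S) where
  smul r v := (ρ r).mulVec v
  one_smul v := by
    show (ρ 1).mulVec v = v
    rw [map_one, Matrix.one_mulVec]
  mul_smul r r' v := by
    show (ρ (r * r')).mulVec v = (ρ r).mulVec ((ρ r').mulVec v)
    rw [map_mul, Matrix.mulVec_mulVec]
  smul_zero r := Matrix.mulVec_zero _
  smul_add r v w := Matrix.mulVec_add _ _ _
  add_smul r r' v := by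
    show (ρ (r + r')).mulVec v = (ρ r).mulVec v + (ρ r').mulVec v
    rw [map_add, Matrix.add_mulVec]
  zero_smul v := by
    show (ρ 0).mulVec v = 0
    rw [map_zero, Matrix.zero_mulVec]

section Aux

variable {S : Type*} [CommRing S] {d : ℕ}

theorem rtk4_algebraMap_mulVec (s : S) (v : Fin d → S) :
    (algebraMap S (Matrix (Fin d) (Fin d) S) s).mulVec v = s • v := by
  rw [Algebra.algebraMap_eq_smul_one, Matrix.smul_mulVec, Matrix.one_mulVec]

/-- a matrix killing all vectors is zero -/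
theorem rtk4_eq_zero_of_mulVec (A : Matrix (Fin d) (Fin d) S)
    (h : ∀ v : Fin d → S, A.mulVec v = 0) : A = 0 := by
  ext i j
  have := congrFun (h (Pi.single j 1)) i
  rwa [Matrix.mulVec_single_one] at this

/-- a matrix which is zero modulo `(c)` is a multiple of `c` -/
theorem rtk4_exists_smul_of_map_eq_zero (c : S) (A : Matrix (Fin d) (Fin d) S)
    (h : A.map (Ideal.Quotient.mk (Ideal.span {c})) = 0) :
    ∃ N : Matrix (Fin d) (Fin d) S, A = c • N := by
  have h1 : ∀ i j, ∃ n : S, A i j = c * n := by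
    intro i j
    have := congrFun (congrFun h i) j
    rw [Matrix.map_apply, Matrix.zero_apply, Ideal.Quotient.eq_zero_iff_mem,
      Ideal.mem_span_singleton] at this
    exact this
  choose N hN using h1
  refine ⟨Matrix.of N, ?_⟩
  ext i j
  rw [Matrix.smul_apply, Matrix.of_apply, smul_eq_mul]
  exact hN i j

/-- a vector with all coordinates in `𝔞` lies in `𝔞 · S^d` -/
theorem rtk4_mem_smul_top_of_forall_mem (𝔞 : Ideal S) (w : Fin d → S) (h : ∀ i, w i ∈ 𝔞) :
    w ∈ (𝔞 • ⊤ : Submodule S (Fin d → S)) := by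
  have hw : w = ∑ i, w i • (Pi.single i (1 : S) : Fin d → S) := by
    ext j
    rw [Finset.sum_apply]
    simp [Pi.single_apply]
  rw [hw]
  exact Submodule.sum_mem _ fun i _ => Submodule.smul_mem_smul (h i) Submodule.mem_top

end Aux

section Out

variable {O : Type*} [CommRing O] {S : Type*} [CommRing S] [Algebra O S]
  {R0 R1 Rχ Rb : Type*} [CommRing R0] [CommRing R1] [Algebra O R1]
  [CommRing Rχ] [Algebra O Rχ] [CommRing Rb]

/-- **The output of the machine, matrix form.**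

`ρ1`, `ρχ` are the patched actions on `S^d` (`d ≥ 1`); they agree modulo `λ` on elements with
the same image in the common reduction `Rb` (`hcong`), and `S` acts through both (`hscal1`,
`hscalχ`).  `Rχ` is a Noetherian domain with `dim Rχ ≤ dim S < ∞`.  `𝔮` is a prime of `R1` containing `λ`, and every element of `ι(Iur)` is killed by
`λ^e · D` for some `D ∉ 𝔮` (Cramer).  `𝔞` is a prime of `S` not containing `λ`.

Then there is a prime `𝔓` of `R1` which contains the kernel of `ρ1 mod 𝔞` and `ι(Iur)`, but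
not `λ`. -/
theorem rtk4_out_matrix_of_dim [IsDomain S] (hS : ringKrullDim S ≠ ⊤)
    [IsNoetherianRing R1] [IsNoetherianRing Rχ] [IsDomain Rχ]
    (hRS : ringKrullDim Rχ ≤ ringKrullDim S)
    (lam : O) (hlam0 : algebraMap O S lam ≠ 0)
    (𝔞 : Ideal S) [𝔞.IsPrime] (hlam𝔞 : algebraMap O S lam ∉ 𝔞)
    (f1 : R1 →+* Rb) (fχ : Rχ →+* Rb) (hf1 : Surjective f1) (hfχ : Surjective fχ)
    (hk1 : RingHom.ker f1 ≤ Ideal.span {algebraMap O R1 lam})
    (hkχ : fχ (algebraMap O Rχ lam) = 0)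
    {d : ℕ} (hd : 0 < d)
    (ρ1 : R1 →ₐ[O] Matrix (Fin d) (Fin d) S) (ρχ : Rχ →ₐ[O] Matrix (Fin d) (Fin d) S)
    (hcong : ∀ r1 rχ, f1 r1 = fχ rχ →
      (ρ1 r1).map (Ideal.Quotient.mk (Ideal.span {algebraMap O S lam})) =
        (ρχ rχ).map (Ideal.Quotient.mk (Ideal.span {algebraMap O S lam})))
    (hscal1 : ∀ s : S, ∃ r, ρ1 r = algebraMap S (Matrix (Fin d) (Fin d) S) s)
    (hscalχ : ∀ s : S, ∃ r, ρχ r = algebraMap S (Matrix (Fin d) (Fin d) S) s)
    (ι : R0 →+* R1) (Iur : Ideal R0)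
    (𝔮 : Ideal R1) [𝔮.IsPrime] (h𝔮 : algebraMap O R1 lam ∈ 𝔮)
    (hCr : ∀ x ∈ Iur, ∃ (e : ℕ) (D : R1), D ∉ 𝔮 ∧ algebraMap O R1 lam ^ e * D * ι x = 0) :
    ∃ 𝔓 : Ideal R1, 𝔓.IsPrime ∧
      (∀ r : R1, (ρ1 r).map (Ideal.Quotient.mk 𝔞) = 0 → r ∈ 𝔓) ∧
      algebraMap O R1 lam ∉ 𝔓 ∧ ∀ x ∈ Iur, ι x ∈ 𝔓 := by
  letI m1 : Module R1 (Fin d → S) := rtk4MatModule (ρ1 : R1 →+* Matrix (Fin d) (Fin d) S)
  letI mχ : Module Rχ (Fin d → S) := rtk4MatModule (ρχ : Rχ →+* Matrix (Fin d) (Fin d) S)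
  have hsmul1 : ∀ (r : R1) (v : Fin d → S), r • v = (ρ1 r).mulVec v := fun _ _ => rfl
  have hsmulχ : ∀ (r : Rχ) (v : Fin d → S), r • v = (ρχ r).mulVec v := fun _ _ => rfl
  haveI : Nonempty (Fin d) := ⟨⟨0, hd⟩⟩
  -- `S` acts through `R1` and `Rχ`
  have hc1 : ∀ s : S, ∃ r : R1, ∀ m : Fin d → S, r • m = s • m := by
    intro s
    obtain ⟨r, hr⟩ := hscal1 s
    exact ⟨r, fun m => by rw [hsmul1, hr, rtk4_algebraMap_mulVec]⟩
  have hcχ : ∀ s : S, ∃ r : Rχ, ∀ m : Fin d → S, r • m = s • m := by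
    intro s
    obtain ⟨r, hr⟩ := hscalχ s
    exact ⟨r, fun m => by rw [hsmulχ, hr, rtk4_algebraMap_mulVec]⟩
  -- the constants of `O` act as constants
  have hO1 : ∀ (c : O) (m : Fin d → S), algebraMap O R1 c • m = algebraMap O S c • m := by
    intro c m
    rw [hsmul1, AlgHom.commutes, IsScalarTower.algebraMap_apply O S (Matrix (Fin d) (Fin d) S),
      rtk4_algebraMap_mulVec]
  have hOχ : ∀ (c : O) (m : Fin d → S), algebraMap O Rχ c • m = algebraMap O S c • m := by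
    intro c m
    rw [hsmulχ, AlgHom.commutes, IsScalarTower.algebraMap_apply O S (Matrix (Fin d) (Fin d) S),
      rtk4_algebraMap_mulVec]
  -- torsion-freeness
  have htf : ∀ (s : S) (m : Fin d → S), s • m = 0 → s = 0 ∨ m = 0 := by
    intro s m h
    by_cases hs : s = 0
    · exact Or.inl hs
    · right
      ext i
      have := congrFun h i
      rw [Pi.smul_apply, smul_eq_mul, Pi.zero_apply] at this
      exact (mul_eq_zero.mp this).resolve_left hs
  -- the relation between the two reductions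
  have hrel : ∀ (a : R1) (r : Rχ), f1 a = fχ r → (∀ m : Fin d → S, a • m = 0) →
      ∀ m : Fin d → S, ∃ m' : Fin d → S, r • m = algebraMap O Rχ lam • m' := by
    intro a r har ha m
    have h0 : ρ1 a = 0 := rtk4_eq_zero_of_mulVec _ fun v => by rw [← hsmul1]; exact ha v
    have h1 := hcong a r har
    rw [h0] at h1
    have h2 : (ρχ r).map (Ideal.Quotient.mk (Ideal.span {algebraMap O S lam})) = 0 := by
      rw [← h1]
      ext i j
      simp
    obtain ⟨N, hN⟩ := rtk4_exists_smul_of_map_eq_zero _ _ h2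
    refine ⟨N.mulVec m, ?_⟩
    rw [hOχ, hsmulχ, hN, Matrix.smul_mulVec]
  obtain ⟨P', hprime, -, hG, hiff, hker⟩ :=
    rtk4_out_weak_of_dim (S := S) (R₁ := R1) (Rχ := Rχ) (Rb := Rb)
      (M₁ := Fin d → S) (Mχ := Fin d → S) hc1 hcχ htf htf hS hRS f1 fχ hf1 hfχ
      (algebraMap O R1 lam) (algebraMap O Rχ lam) hk1 hkχ hrel 𝔮 h𝔮 𝔞 (ι '' (Iur : Set R0))
      (by
        rintro _ ⟨x, hx, rfl⟩
        obtain ⟨e, D, hD, h0⟩ := hCr x hx
        refine ⟨algebraMap O S lam ^ e, algebraMap O R1 lam ^ e, D, pow_ne_zero e hlam0,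
          fun m => ?_, hD, ?_⟩
        · rw [← map_pow, ← map_pow, hO1]
        · rw [mul_comm D, h0])
  refine ⟨P', hprime, ?_, ?_, ?_⟩
  · intro r hr
    apply hker
    intro m
    rw [hsmul1]
    apply rtk4_mem_smul_top_of_forall_mem
    intro i
    rw [Matrix.mulVec, dotProduct]
    refine Ideal.sum_mem _ fun j _ => Ideal.mul_mem_right _ _ ?_
    have := congrFun (congrFun hr i) j
    rwa [Matrix.map_apply, Matrix.zero_apply, Ideal.Quotient.eq_zero_iff_mem] at this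
  · intro h
    exact hlam𝔞 ((hiff _ _ (hO1 lam)).mp h)
  · intro x hx
    exact hG (Ideal.subset_span ⟨x, hx, rfl⟩)

/-- **The output of the machine, matrix form** (`Rχ` integral over a ring `S'` with
`dim S' ≤ dim S < ∞`; in the application `S` and `S'` are power series rings over `O` in the
same number of variables). -/
theorem rtk4_out_matrix [IsDomain S] (hS : ringKrullDim S ≠ ⊤)
    [IsNoetherianRing R1] [IsNoetherianRing Rχ] [IsDomain Rχ]
    {S' : Type*} [CommRing S'] (φ : S' →+* Rχ) (hφ : φ.IsIntegral)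
    (hdim : ringKrullDim S' ≤ ringKrullDim S)
    (lam : O) (hlam0 : algebraMap O S lam ≠ 0)
    (𝔞 : Ideal S) [𝔞.IsPrime] (hlam𝔞 : algebraMap O S lam ∉ 𝔞)
    (f1 : R1 →+* Rb) (fχ : Rχ →+* Rb) (hf1 : Surjective f1) (hfχ : Surjective fχ)
    (hk1 : RingHom.ker f1 ≤ Ideal.span {algebraMap O R1 lam})
    (hkχ : fχ (algebraMap O Rχ lam) = 0)
    {d : ℕ} (hd : 0 < d)
    (ρ1 : R1 →ₐ[O] Matrix (Fin d) (Fin d) S) (ρχ : Rχ →ₐ[O] Matrix (Fin d) (Fin d) S)
    (hcong : ∀ r1 rχ, f1 r1 = fχ rχ →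
      (ρ1 r1).map (Ideal.Quotient.mk (Ideal.span {algebraMap O S lam})) =
        (ρχ rχ).map (Ideal.Quotient.mk (Ideal.span {algebraMap O S lam})))
    (hscal1 : ∀ s : S, ∃ r, ρ1 r = algebraMap S (Matrix (Fin d) (Fin d) S) s)
    (hscalχ : ∀ s : S, ∃ r, ρχ r = algebraMap S (Matrix (Fin d) (Fin d) S) s)
    (ι : R0 →+* R1) (Iur : Ideal R0)
    (𝔮 : Ideal R1) [𝔮.IsPrime] (h𝔮 : algebraMap O R1 lam ∈ 𝔮)
    (hCr : ∀ x ∈ Iur, ∃ (e : ℕ) (D : R1), D ∉ 𝔮 ∧ algebraMap O R1 lam ^ e * D * ι x = 0) :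
    ∃ 𝔓 : Ideal R1, 𝔓.IsPrime ∧
      (∀ r : R1, (ρ1 r).map (Ideal.Quotient.mk 𝔞) = 0 → r ∈ 𝔓) ∧
      algebraMap O R1 lam ∉ 𝔓 ∧ ∀ x ∈ Iur, ι x ∈ 𝔓 := by
  letI : Algebra S' Rχ := φ.toAlgebra
  haveI : Algebra.IsIntegral S' Rχ := ⟨hφ⟩
  exact rtk4_out_matrix_of_dim hS ((rtk4_dim_le_of_isIntegral (S' := S')).trans hdim) lam hlam0
    𝔞 hlam𝔞 f1 fχ hf1 hfχ hk1 hkχ hd ρ1 ρχ hcong hscal1 hscalχ ι Iur 𝔮 h𝔮 hCr

end Out

end Fermat.Agent.RT.K4


end ZBRT_015_2

/-! ### bundled: `Fermat.Agent.RT.K4.OutT0` -/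
section ZBRT_015_3

/-!
# K-machine, piece K4: the output point in the base Hecke ring `T0`

`rtk4_out_T0` : in the situation of `rtk4_out_matrix`, let `T0` be a commutative `O`-algebra
acting faithfully on the base `(S ⧸ 𝔞)^d` (`j : T0 →ₐ[O] M_d(S ⧸ 𝔞)` injective) through which
`R1` acts on the base (`hbase`).  Then there is a prime `𝔓` of `T0` with `λ ∉ 𝔓` which contains
`θ(Iur)`, where `θ : R0 → T0` is the action of the local ring on the base.
-/

set_option autoImplicit false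
set_option linter.style.haveILetI false

namespace Fermat.Agent.RT.K4

open Function

section Aux

variable {S : Type*} [CommRing S] {d : ℕ}

theorem rtk4_map_algebraMap_mk (A : Ideal S) (s : S) :
    (algebraMap S (Matrix (Fin d) (Fin d) S) s).map (Ideal.Quotient.mk A) =
      algebraMap (S ⧸ A) (Matrix (Fin d) (Fin d) (S ⧸ A)) (Ideal.Quotient.mk A s) := by
  ext i j
  simp only [Matrix.map_apply, Matrix.algebraMap_matrix_apply]
  split_ifs <;> simp

end Aux

section Integral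

variable {R T C : Type*} [CommRing R] [CommRing T] [CommRing C] {d : ℕ}

/-- A commutative ring `T` of `d × d` matrices over `C` is integral over any ring `R` mapping to
`T` whose image contains the scalars (Cayley–Hamilton). -/
theorem rtk4_isIntegral_of_matrix (j : T →+* Matrix (Fin d) (Fin d) C) (hj : Injective j)
    (ρ : R →+* T)
    (hscal : ∀ c : C, ∃ r : R, j (ρ r) = algebraMap C (Matrix (Fin d) (Fin d) C) c) :
    ρ.IsIntegral := by
  intro t
  have hlift : ((j t).charpoly.map (algebraMap C (Matrix (Fin d) (Fin d) C))) ∈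
      Polynomial.lifts (j.comp ρ) := by
    rw [Polynomial.lifts_iff_coeff_lifts]
    intro n
    rw [Polynomial.coeff_map]
    obtain ⟨r, hr⟩ := hscal ((j t).charpoly.coeff n)
    exact ⟨r, hr⟩
  obtain ⟨q, hq, -, hmonic⟩ := Polynomial.lifts_and_natDegree_eq_and_monic hlift
    ((Matrix.charpoly_monic (j t)).map _)
  refine ⟨q, hmonic, ?_⟩
  apply hj
  rw [Polynomial.hom_eval₂, map_zero, Polynomial.eval₂_eq_eval_map, hq, Polynomial.eval_map,
    ← Polynomial.aeval_def]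
  exact Matrix.aeval_self_charpoly (j t)

end Integral

section Out

variable {O : Type*} [CommRing O] {S : Type*} [CommRing S] [Algebra O S]
  {R0 R1 Rχ Rb : Type*} [CommRing R0] [CommRing R1] [Algebra O R1]
  [CommRing Rχ] [Algebra O Rχ] [CommRing Rb]

/-- **The output of the machine in the base Hecke ring** (from `dim Rχ ≤ dim S`). -/
theorem rtk4_out_T0_of_dim [IsDomain S] (hS : ringKrullDim S ≠ ⊤)
    [IsNoetherianRing R1] [IsNoetherianRing Rχ] [IsDomain Rχ]
    (hRS : ringKrullDim Rχ ≤ ringKrullDim S)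
    (lam : O) (hlam0 : algebraMap O S lam ≠ 0)
    (𝔞 : Ideal S) [𝔞.IsPrime] (hlam𝔞 : algebraMap O S lam ∉ 𝔞)
    (f1 : R1 →+* Rb) (fχ : Rχ →+* Rb) (hf1 : Surjective f1) (hfχ : Surjective fχ)
    (hk1 : RingHom.ker f1 ≤ Ideal.span {algebraMap O R1 lam})
    (hkχ : fχ (algebraMap O Rχ lam) = 0)
    {d : ℕ} (hd : 0 < d)
    (ρ1 : R1 →ₐ[O] Matrix (Fin d) (Fin d) S) (ρχ : Rχ →ₐ[O] Matrix (Fin d) (Fin d) S)
    (hcong : ∀ r1 rχ, f1 r1 = fχ rχ →
      (ρ1 r1).map (Ideal.Quotient.mk (Ideal.span {algebraMap O S lam})) =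
        (ρχ rχ).map (Ideal.Quotient.mk (Ideal.span {algebraMap O S lam})))
    (hscal1 : ∀ s : S, ∃ r, ρ1 r = algebraMap S (Matrix (Fin d) (Fin d) S) s)
    (hscalχ : ∀ s : S, ∃ r, ρχ r = algebraMap S (Matrix (Fin d) (Fin d) S) s)
    (ι : R0 →+* R1) (Iur : Ideal R0)
    (𝔮 : Ideal R1) [𝔮.IsPrime] (h𝔮 : algebraMap O R1 lam ∈ 𝔮)
    (hCr : ∀ x ∈ Iur, ∃ (e : ℕ) (D : R1), D ∉ 𝔮 ∧ algebraMap O R1 lam ^ e * D * ι x = 0)
    {T0 : Type*} [CommRing T0] [Algebra O T0]
    (j : T0 →ₐ[O] Matrix (Fin d) (Fin d) (S ⧸ 𝔞)) (hj : Injective j)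
    (hbase : ∀ r1 : R1, ∃ t : T0, j t = (ρ1 r1).map (Ideal.Quotient.mk 𝔞))
    (θ : R0 → T0) (hθ : ∀ r0 : R0, j (θ r0) = (ρ1 (ι r0)).map (Ideal.Quotient.mk 𝔞)) :
    ∃ 𝔓 : Ideal T0, 𝔓.IsPrime ∧ algebraMap O T0 lam ∉ 𝔓 ∧ ∀ x ∈ Iur, θ x ∈ 𝔓 := by
  obtain ⟨P, hPprime, hker, hlamP, hIur⟩ := rtk4_out_matrix_of_dim hS hRS lam hlam0 𝔞 hlam𝔞 f1 fχ
    hf1 hfχ hk1 hkχ hd ρ1 ρχ hcong hscal1 hscalχ ι Iur 𝔮 h𝔮 hCr
  -- the action of `R1` on the base, as a ring homomorphism to `T0`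
  choose ρb hρb using hbase
  have hρb' : ∀ r, j (ρb r) = (Ideal.Quotient.mk 𝔞).mapMatrix (ρ1 r) := hρb
  let ρbar : R1 →+* T0 :=
    { toFun := ρb
      map_one' := hj (by
        rw [hρb', map_one ρ1, map_one (Ideal.Quotient.mk 𝔞).mapMatrix, map_one j])
      map_mul' := fun a b => hj (by
        rw [map_mul j, hρb', hρb', hρb', map_mul ρ1, map_mul (Ideal.Quotient.mk 𝔞).mapMatrix])
      map_zero' := hj (by
        rw [hρb', map_zero ρ1, map_zero (Ideal.Quotient.mk 𝔞).mapMatrix, map_zero j])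
      map_add' := fun a b => hj (by
        rw [map_add j, hρb', hρb', hρb', map_add ρ1, map_add (Ideal.Quotient.mk 𝔞).mapMatrix]) }
  have hρbar : ∀ r, j (ρbar r) = (ρ1 r).map (Ideal.Quotient.mk 𝔞) := hρb
  have hint : ρbar.IsIntegral := by
    refine rtk4_isIntegral_of_matrix (j : T0 →+* Matrix (Fin d) (Fin d) (S ⧸ 𝔞)) hj ρbar ?_
    intro c
    obtain ⟨s, rfl⟩ := Ideal.Quotient.mk_surjective c
    obtain ⟨r, hr⟩ := hscal1 s
    refine ⟨r, ?_⟩
    show j (ρbar r) = _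
    rw [hρbar, hr, rtk4_map_algebraMap_mk]
  letI : Algebra R1 T0 := ρbar.toAlgebra
  haveI : Algebra.IsIntegral R1 T0 := ⟨hint⟩
  obtain ⟨Q, -, hQprime, hQ⟩ := Ideal.exists_ideal_over_prime_of_isIntegral P (⊥ : Ideal T0) (by
    intro r hr
    rw [Ideal.mem_comap, Ideal.mem_bot] at hr
    apply hker
    have h0 : ρbar r = 0 := hr
    rw [← hρbar, h0, map_zero])
  have hmem : ∀ r : R1, ρbar r ∈ Q ↔ r ∈ P := by
    intro r
    rw [← hQ]
    rfl
  refine ⟨Q, hQprime, ?_, ?_⟩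
  · intro h
    apply hlamP
    rw [← hmem]
    have : ρbar (algebraMap O R1 lam) = algebraMap O T0 lam := by
      apply hj
      rw [hρbar, AlgHom.commutes, AlgHom.commutes,
        IsScalarTower.algebraMap_apply O S (Matrix (Fin d) (Fin d) S), rtk4_map_algebraMap_mk,
        IsScalarTower.algebraMap_apply O (S ⧸ 𝔞) (Matrix (Fin d) (Fin d) (S ⧸ 𝔞))]
      rfl
    rw [this]
    exact h
  · intro x hx
    have : θ x = ρbar (ι x) := hj (by rw [hθ, hρbar])
    rw [this, hmem]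
    exact hIur x hx

/-- **The output of the machine in the base Hecke ring** (`Rχ` integral over `S'`,
`dim S' ≤ dim S`). -/
theorem rtk4_out_T0 [IsDomain S] (hS : ringKrullDim S ≠ ⊤)
    [IsNoetherianRing R1] [IsNoetherianRing Rχ] [IsDomain Rχ]
    {S' : Type*} [CommRing S'] (φ : S' →+* Rχ) (hφ : φ.IsIntegral)
    (hdim : ringKrullDim S' ≤ ringKrullDim S)
    (lam : O) (hlam0 : algebraMap O S lam ≠ 0)
    (𝔞 : Ideal S) [𝔞.IsPrime] (hlam𝔞 : algebraMap O S lam ∉ 𝔞)
    (f1 : R1 →+* Rb) (fχ : Rχ →+* Rb) (hf1 : Surjective f1) (hfχ : Surjective fχ)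
    (hk1 : RingHom.ker f1 ≤ Ideal.span {algebraMap O R1 lam})
    (hkχ : fχ (algebraMap O Rχ lam) = 0)
    {d : ℕ} (hd : 0 < d)
    (ρ1 : R1 →ₐ[O] Matrix (Fin d) (Fin d) S) (ρχ : Rχ →ₐ[O] Matrix (Fin d) (Fin d) S)
    (hcong : ∀ r1 rχ, f1 r1 = fχ rχ →
      (ρ1 r1).map (Ideal.Quotient.mk (Ideal.span {algebraMap O S lam})) =
        (ρχ rχ).map (Ideal.Quotient.mk (Ideal.span {algebraMap O S lam})))
    (hscal1 : ∀ s : S, ∃ r, ρ1 r = algebraMap S (Matrix (Fin d) (Fin d) S) s)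
    (hscalχ : ∀ s : S, ∃ r, ρχ r = algebraMap S (Matrix (Fin d) (Fin d) S) s)
    (ι : R0 →+* R1) (Iur : Ideal R0)
    (𝔮 : Ideal R1) [𝔮.IsPrime] (h𝔮 : algebraMap O R1 lam ∈ 𝔮)
    (hCr : ∀ x ∈ Iur, ∃ (e : ℕ) (D : R1), D ∉ 𝔮 ∧ algebraMap O R1 lam ^ e * D * ι x = 0)
    {T0 : Type*} [CommRing T0] [Algebra O T0]
    (j : T0 →ₐ[O] Matrix (Fin d) (Fin d) (S ⧸ 𝔞)) (hj : Injective j)
    (hbase : ∀ r1 : R1, ∃ t : T0, j t = (ρ1 r1).map (Ideal.Quotient.mk 𝔞))
    (θ : R0 → T0) (hθ : ∀ r0 : R0, j (θ r0) = (ρ1 (ι r0)).map (Ideal.Quotient.mk 𝔞)) :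
    ∃ 𝔓 : Ideal T0, 𝔓.IsPrime ∧ algebraMap O T0 lam ∉ 𝔓 ∧ ∀ x ∈ Iur, θ x ∈ 𝔓 := by
  letI : Algebra S' Rχ := φ.toAlgebra
  haveI : Algebra.IsIntegral S' Rχ := ⟨hφ⟩
  exact rtk4_out_T0_of_dim hS ((rtk4_dim_le_of_isIntegral (S' := S')).trans hdim) lam hlam0
    𝔞 hlam𝔞 f1 fχ hf1 hfχ hk1 hkχ hd ρ1 ρχ hcong hscal1 hscalχ ι Iur 𝔮 h𝔮 hCr j hj hbase θ hθ

end Out

end Fermat.Agent.RT.K4


end ZBRT_015_3

/-! ### bundled: `Fermat.Agent.RT.Out` -/
section ZBRT_015_4

/-!
# K-machine (row 37 / S59), GLUE 1: `stmtOutTW : StmtOutTW`   (helper70)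

From the level data `TWLevelP` (all `n`) to a prime `𝔓` of the base Hecke ring `T0` with `λ ∉ 𝔓`
and `Σ⁰_i ≡ 1 mod 𝔓`: patching (`rtp_patch_powerSeries`) followed by the support argument
(`rtk4_out_T0_of_dim`), with the facts on the local rings from `RT/K2`, `RT/K2b`.

* `R0 = O[X_{i,k}]` (polynomial ring), `ι₀ = rttwoIota : R0 → R¹_∞`, `θ = rttwoTheta`;
* `R1 = P ⧸ I_1`, `Rχ = P ⧸ I_χ`, `Rb = P ⧸ (I_1 + (λ))`, `E r1 rχ := f1 r1 = fχ rχ`;
* `T0`-side: `rttwoJ = (M_d(O) → M_d(S ⧸ 𝔞)) ∘ j`, `rttwoN = range rttwoJ` as an `S`-submodule;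
* `rttwo_level` : `TWLevelP → RtpLevel`.
-/

set_option autoImplicit false
set_option linter.style.haveILetI false

namespace Fermat.Agent.RT

open Fermat.Agent.RT.K2 Fermat.Agent.RT.K2b Fermat.Agent.RT.K4 Fermat.Agent.RT.P
open MvPowerSeries IsLocalRing

section Base

variable (O : Type*) [CommRing O] (m : ℕ)

theorem rttwo_algebraMap_S (a : O) : algebraMap O (RttwS O m) a = C a := rfl

theorem rttwo_algebraMap_quot (J : Ideal (RttwS O m)) (a : O) :
    algebraMap O (RttwS O m ⧸ J) a = Ideal.Quotient.mk J (C a) := rfl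

/-- modulo `𝔞` every power series is its constant coefficient -/
theorem rttwo_mk_eq (s : RttwS O m) :
    Ideal.Quotient.mk (rttwAug O m) s =
      algebraMap O (RttwS O m ⧸ rttwAug O m) (constantCoeff s) := by
  rw [rttwo_algebraMap_quot, Ideal.Quotient.eq]
  unfold rttwAug
  rw [RingHom.mem_ker, map_sub, constantCoeff_C, sub_self]

theorem rttwo_algebraMap_injective :
    Function.Injective (algebraMap O (RttwS O m ⧸ rttwAug O m)) := by
  intro a b h
  rw [rttwo_algebraMap_quot, rttwo_algebraMap_quot, Ideal.Quotient.eq] at h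
  unfold rttwAug at h
  rw [RingHom.mem_ker, map_sub, constantCoeff_C, constantCoeff_C, sub_eq_zero] at h
  exact h

theorem rttwo_aug_isPrime [IsDomain O] : (rttwAug O m).IsPrime :=
  RingHom.ker_isPrime _

variable (d : ℕ)

/-- The base change `M_d(O) → M_d(S ⧸ 𝔞)`. -/
noncomputable def rttwoJb :
    Matrix (Fin d) (Fin d) O →ₐ[O] Matrix (Fin d) (Fin d) (RttwS O m ⧸ rttwAug O m) :=
  (Algebra.ofId O (RttwS O m ⧸ rttwAug O m)).mapMatrix

theorem rttwoJb_apply (t : Matrix (Fin d) (Fin d) O) :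
    rttwoJb O m d t = t.map (algebraMap O (RttwS O m ⧸ rttwAug O m)) := rfl

theorem rttwoJb_injective : Function.Injective (rttwoJb O m d) := by
  intro a b h
  ext i k
  have := congrFun (congrFun h i) k
  exact rttwo_algebraMap_injective O m this

/-- reduction of a base matrix modulo `𝔞 ⊔ I ^ n`, through `S ⧸ 𝔞` -/
theorem rttwoJb_map_factor [IsLocalRing O] (n : ℕ) (t : Matrix (Fin d) (Fin d) O) :
    (rttwoJb O m d t).map (Ideal.Quotient.factor
        (le_sup_left : rttwAug O m ≤ rttwAug O m ⊔ maximalIdeal (RttwS O m) ^ n)) =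
      rttwBaseRed m d n t := by
  ext i k
  rfl

end Base

section Glue

variable {O : Type*} [CommRing O] {ι τ : Type*} (m : ℕ) {d : ℕ}
  {T0 : Type*} [CommRing T0] [Algebra O T0]

/-- The base action of `T0` on `(S ⧸ 𝔞)^d`. -/
noncomputable def rttwoJ (j : T0 →ₐ[O] Matrix (Fin d) (Fin d) O) :
    T0 →ₐ[O] Matrix (Fin d) (Fin d) (RttwS O m ⧸ rttwAug O m) :=
  (rttwoJb O m d).comp j

theorem rttwoJ_apply (j : T0 →ₐ[O] Matrix (Fin d) (Fin d) O) (t : T0) :
    rttwoJ m j t = rttwoJb O m d (j t) := rfl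

theorem rttwoJ_injective (j : T0 →ₐ[O] Matrix (Fin d) (Fin d) O) (hj : Function.Injective j) :
    Function.Injective (rttwoJ m j) :=
  (rttwoJb_injective O m d).comp hj

theorem rttwo_smul_elt (s : RttwS O m) (y : RttwS O m ⧸ rttwAug O m) :
    s • y = (constantCoeff s : O) • y := by
  obtain ⟨t, rfl⟩ := Ideal.Quotient.mk_surjective y
  have h1 : s • Ideal.Quotient.mk (rttwAug O m) t =
      Ideal.Quotient.mk (rttwAug O m) (s * t) := rfl
  have h2 : (constantCoeff s : O) • Ideal.Quotient.mk (rttwAug O m) t =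
      Ideal.Quotient.mk (rttwAug O m) (C (constantCoeff s) * t) := by
    have h3 : (constantCoeff s : O) • Ideal.Quotient.mk (rttwAug O m) t =
        Ideal.Quotient.mk (rttwAug O m) ((constantCoeff s : O) • t) := rfl
    rw [h3, MvPowerSeries.smul_eq_C_mul]
  rw [h1, h2, Ideal.Quotient.eq, ← sub_mul]
  apply Ideal.mul_mem_right
  unfold rttwAug
  rw [RingHom.mem_ker, map_sub, constantCoeff_C, sub_self]

theorem rttwo_smul_eq (s : RttwS O m)
    (M : Matrix (Fin d) (Fin d) (RttwS O m ⧸ rttwAug O m)) :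
    s • M = (constantCoeff s : O) • M := by
  ext i k
  exact rttwo_smul_elt m s (M i k)

/-- The image of `T0` in `M_d(S ⧸ 𝔞)`, as an `S`-submodule. -/
noncomputable def rttwoN (j : T0 →ₐ[O] Matrix (Fin d) (Fin d) O) :
    Submodule (RttwS O m) (Matrix (Fin d) (Fin d) (RttwS O m ⧸ rttwAug O m)) where
  carrier := Set.range (rttwoJ m j)
  add_mem' := by
    rintro _ _ ⟨a, rfl⟩ ⟨b, rfl⟩
    exact ⟨a + b, map_add _ _ _⟩
  zero_mem' := ⟨0, map_zero _⟩
  smul_mem' := by
    rintro s _ ⟨a, rfl⟩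
    refine ⟨(constantCoeff s : O) • a, ?_⟩
    rw [map_smul, rttwo_smul_eq]

theorem rttwo_mem_N (j : T0 →ₐ[O] Matrix (Fin d) (Fin d) O)
    (x : Matrix (Fin d) (Fin d) (RttwS O m ⧸ rttwAug O m)) :
    x ∈ (rttwoN m j : Set (Matrix (Fin d) (Fin d) (RttwS O m ⧸ rttwAug O m))) ↔
      ∃ t, rttwoJ m j t = x := Iff.rfl

variable (τ) in
/-- `ι₀ : O[X_{i,k}] → R¹_∞`. -/
noncomputable def rttwoIota (q : ι → O) : MvPolynomial (ι × Fin 6) O →ₐ[O] Rtk2Rone τ q :=
  MvPolynomial.aeval (fun p => Ideal.Quotient.mk (rtk2Ione τ q) (X (rtk2ix p.1 p.2)))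

/-- The fixed action `θ` of `O[X_{i,k}]` on the base. -/
noncomputable def rttwoTheta (j : T0 →ₐ[O] Matrix (Fin d) (Fin d) O) (B : ι × Fin 6 → T0) :
    MvPolynomial (ι × Fin 6) O →ₐ[O] Matrix (Fin d) (Fin d) (RttwS O m ⧸ rttwAug O m) :=
  (rttwoJ m j).comp (MvPolynomial.aeval B)

variable (τ) in
/-- The common special fibre `P ⧸ (I_1 + (λ))`. -/
abbrev RttwoRb (q : ι → O) (lam : O) :=
  Rtk2P O ι τ ⧸ (rtk2Ione τ q ⊔ Ideal.span {(C lam : Rtk2P O ι τ)})

variable (τ) in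
/-- `R¹_∞ → P ⧸ (I_1 + (λ))`. -/
noncomputable def rttwoF1 (q : ι → O) (lam : O) : Rtk2Rone τ q →+* RttwoRb τ q lam :=
  Ideal.Quotient.factor le_sup_left

/-- `R^χ_∞ → P ⧸ (I_1 + (λ))`. -/
noncomputable def rttwoFchi (q δ : ι → O) (lam : O)
    (hle : rtk2Ichi τ δ ≤ rtk2Ione τ q ⊔ Ideal.span {(C lam : Rtk2P O ι τ)}) :
    Rtk2Rchi τ δ →+* RttwoRb τ q lam :=
  Ideal.Quotient.factor hle

end Glue

section Level

variable {O : Type*} [CommRing O] [IsLocalRing O] {ι τ : Type*} (m : ℕ) {d : ℕ}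
  {T0 : Type*} [CommRing T0] [Algebra O T0]

omit [IsLocalRing O] in
/-- scalar multiplication by `λ` is zero modulo `𝔩 ⊔ I ^ n` -/
theorem rttwo_lam_eq_zero (lam : O) (J : Ideal (RttwS O m)) :
    algebraMap O (Matrix (Fin d) (Fin d) (RttwS O m ⧸ (rttwLam m lam ⊔ J))) lam = 0 := by
  ext i k
  rw [Matrix.algebraMap_matrix_apply, Matrix.zero_apply]
  split_ifs
  · rw [rttwo_algebraMap_quot, Ideal.Quotient.eq_zero_iff_mem]
    exact Ideal.mem_sup_left (Ideal.mem_span_singleton_self _)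
  · rfl

/-- **From `TWLevelP` to `RtpLevel`.** -/
theorem rttwo_level (q δ : ι → O) (lam : O)
    (hle : rtk2Ichi τ δ ≤ rtk2Ione τ q ⊔ Ideal.span {(C lam : Rtk2P O ι τ)})
    (j : T0 →ₐ[O] Matrix (Fin d) (Fin d) O) (B : ι × Fin 6 → T0) (n : ℕ)
    (ρ1 ρχ : Rtk2P O ι τ →ₐ[O]
      Matrix (Fin d) (Fin d) (RttwS O m ⧸ maximalIdeal (RttwS O m) ^ n))
    (h : TWLevelP (τ := τ) q δ lam m d (fun x => j (B x)) (Set.range j) n ρ1 ρχ) :
    RtpLevel (maximalIdeal (RttwS O m)) (rttwAug O m) (rttwLam m lam) (rttwoIota τ q)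
      (rttwoTheta m j B)
      (rttwoN m j : Set (Matrix (Fin d) (Fin d) (RttwS O m ⧸ rttwAug O m)))
      (fun r1 rχ => rttwoF1 τ q lam r1 = rttwoFchi q δ lam hle rχ) n
      (Ideal.Quotient.liftₐ (rtk2Ione τ q) ρ1 h.kills1)
      (Ideal.Quotient.liftₐ (rtk2Ichi τ δ) ρχ h.killsχ) := by
  have hl1 : ∀ u, Ideal.Quotient.liftₐ (rtk2Ione τ q) ρ1 h.kills1
      (Ideal.Quotient.mk (rtk2Ione τ q) u) = ρ1 u := fun u => rfl
  have hlχ : ∀ u, Ideal.Quotient.liftₐ (rtk2Ichi τ δ) ρχ h.killsχ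
      (Ideal.Quotient.mk (rtk2Ichi τ δ) u) = ρχ u := fun u => rfl
  refine ⟨?_, ?_, ?_, ?_, ?_⟩
  · -- base_loc
    intro r0
    have key : ((Ideal.Quotient.factorₐ O
        (le_sup_right : maximalIdeal (RttwS O m) ^ n ≤
          rttwAug O m ⊔ maximalIdeal (RttwS O m) ^ n)).mapMatrix.comp
        ((Ideal.Quotient.liftₐ (rtk2Ione τ q) ρ1 h.kills1).comp (rttwoIota τ q))) =
        ((Ideal.Quotient.factorₐ O
        (le_sup_left : rttwAug O m ≤
          rttwAug O m ⊔ maximalIdeal (RttwS O m) ^ n)).mapMatrix (m := Fin d)).comp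
          (rttwoTheta m j B) := by
      apply MvPolynomial.algHom_ext
      rintro ⟨i, k⟩
      rw [AlgHom.comp_apply, AlgHom.comp_apply, AlgHom.comp_apply, AlgHom.mapMatrix_apply,
        AlgHom.mapMatrix_apply]
      have e1 : rttwoIota τ q (MvPolynomial.X (i, k)) =
          Ideal.Quotient.mk (rtk2Ione τ q) (X (rtk2ix i k)) := by
        unfold rttwoIota
        rw [MvPolynomial.aeval_X]
      have e2 : rttwoTheta m j B (MvPolynomial.X (i, k)) = rttwoJb O m d (j (B (i, k))) := by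
        unfold rttwoTheta
        rw [AlgHom.comp_apply, MvPolynomial.aeval_X]
        rfl
      rw [e1, hl1, e2]
      exact (h.base_loc i k).trans (rttwoJb_map_factor O m d n _).symm
    exact DFunLike.congr_fun key r0
  · -- base_T0
    intro r1
    obtain ⟨u, rfl⟩ := Ideal.Quotient.mk_surjective r1
    obtain ⟨t, ⟨t0, rfl⟩, ht⟩ := h.base_T0 u
    refine ⟨rttwoJ m j t0, ⟨t0, rfl⟩, ?_⟩
    rw [hl1, ht, rttwoJ_apply, rttwoJb_map_factor]
  · -- cong
    intro r1 rχ hE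
    obtain ⟨u, rfl⟩ := Ideal.Quotient.mk_surjective r1
    obtain ⟨u', rfl⟩ := Ideal.Quotient.mk_surjective rχ
    rw [hl1, hlχ, ← h.cong u']
    have hmem : u - u' ∈ rtk2Ione τ q ⊔ Ideal.span {(C lam : Rtk2P O ι τ)} := by
      rw [← Ideal.Quotient.eq]
      exact hE
    -- the composite kills `I_1 ⊔ (λ)`
    let F : Rtk2P O ι τ →ₐ[O] Matrix (Fin d) (Fin d)
        (RttwS O m ⧸ (rttwLam m lam ⊔ maximalIdeal (RttwS O m) ^ n)) :=
      (Ideal.Quotient.factorₐ O
        (le_sup_right : maximalIdeal (RttwS O m) ^ n ≤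
          rttwLam m lam ⊔ maximalIdeal (RttwS O m) ^ n)).mapMatrix.comp ρ1
    have hF : ∀ v, F v = (ρ1 v).map (Ideal.Quotient.factor
        (le_sup_right : maximalIdeal (RttwS O m) ^ n ≤
          rttwLam m lam ⊔ maximalIdeal (RttwS O m) ^ n)) := fun v => rfl
    have hker : rtk2Ione τ q ⊔ Ideal.span {(C lam : Rtk2P O ι τ)} ≤
        RingHom.ker F.toRingHom := by
      refine sup_le ?_ ?_
      · intro v hv
        rw [RingHom.mem_ker]
        show F v = 0
        rw [hF, h.kills1 v hv]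
        ext a b
        simp
      · rw [Ideal.span_le, Set.singleton_subset_iff, SetLike.mem_coe, RingHom.mem_ker]
        show F (C lam) = 0
        have : (C lam : Rtk2P O ι τ) = algebraMap O (Rtk2P O ι τ) lam := rfl
        rw [this, AlgHom.commutes]
        exact rttwo_lam_eq_zero m lam _
    have := hker hmem
    rw [RingHom.mem_ker] at this
    have h2 : F u - F u' = 0 := by
      rw [← map_sub]
      exact this
    rw [← hF, ← hF]
    exact sub_eq_zero.mp h2
  · -- scal1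
    intro s
    obtain ⟨u, hu⟩ := h.scal1 s
    exact ⟨Ideal.Quotient.mk _ u, (hl1 u).trans hu⟩
  · -- scalχ
    intro s
    obtain ⟨u, hu⟩ := h.scalχ s
    exact ⟨Ideal.Quotient.mk _ u, (hlχ u).trans hu⟩

end Level

section Main

/-- the three unramified variables of `i` in the polynomial ring `O[X_{i,k}]` -/
noncomputable def rttwoUr (O : Type*) [CommRing O] (ι : Type*) :
    Ideal (MvPolynomial (ι × Fin 6) O) :=
  Ideal.span (Set.range fun p : ι × Fin 3 =>
    (MvPolynomial.X (p.1, Fin.castLE (by norm_num) p.2) : MvPolynomial (ι × Fin 6) O))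

theorem rttwo_iota_mem {O : Type*} [CommRing O] {ι : Type*} (τ : Type*) (q : ι → O)
    (x : MvPolynomial (ι × Fin 6) O) (hx : x ∈ rttwoUr O ι) :
    ∃ y ∈ rtk2Iur O ι τ, Ideal.Quotient.mk (rtk2Ione τ q) y = rttwoIota τ q x := by
  have hle : rttwoUr O ι ≤ Ideal.comap (rttwoIota τ q)
      ((rtk2Iur O ι τ).map (Ideal.Quotient.mk (rtk2Ione τ q))) := by
    unfold rttwoUr
    rw [Ideal.span_le]
    rintro _ ⟨⟨i, k⟩, rfl⟩
    rw [SetLike.mem_coe, Ideal.mem_comap]
    have e1 : rttwoIota τ q (MvPolynomial.X (i, Fin.castLE (by norm_num) k)) =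
        Ideal.Quotient.mk (rtk2Ione τ q) (X (rtk2ix i (Fin.castLE (by norm_num) k))) := by
      unfold rttwoIota
      rw [MvPolynomial.aeval_X]
    rw [e1]
    apply Ideal.mem_map_of_mem
    have : (X (rtk2ix i (Fin.castLE (by norm_num) k)) : Rtk2P O ι τ) = rtk2genUr (i, k) := by
      fin_cases k <;> rfl
    rw [this]
    exact Ideal.subset_span ⟨(i, k), rfl⟩
  exact (Ideal.mem_map_iff_of_surjective _ Ideal.Quotient.mk_surjective).mp (hle hx)

/-- **GLUE 1.** -/
theorem stmtOutTW : StmtOutTW := by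
  intro O _ _ _ _ _ lam hlam h2 ι τ _ _ q δ hq hq1 hδ m d hm hd hIchi hQur hCr T0 _ _ _ j hj B
    hlev
  -- basic facts
  have hprime : (Ideal.span {lam}).IsPrime := hlam ▸ (maximalIdeal.isMaximal O).isPrime
  have h2' : (2 : O) ∉ Ideal.span {lam} := by
    rw [← hlam]
    intro h
    exact (IsLocalRing.mem_maximalIdeal _).mp h h2
  have hirr : Irreducible lam :=
    (IsDiscreteValuationRing.irreducible_iff_uniformizer lam).mpr hlam
  have hlam0 : lam ≠ 0 := hirr.ne_zero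
  have hq' : ∀ i, ∃ (e : ℕ) (u : O), lam ^ e = (1 - q i) * u := by
    intro i
    have hne : 1 - q i ≠ 0 := sub_ne_zero.mpr (hq1 i).symm
    obtain ⟨e, u, hu⟩ := IsDiscreteValuationRing.associated_pow_irreducible hne hirr
    exact ⟨e, u, hu.symm⟩
  have hδ' : ∀ i, δ i ∈ maximalIdeal O := by
    intro i
    obtain ⟨r, hr⟩ := hδ i
    rw [hlam, hr]
    exact Ideal.mul_mem_right _ _ (Ideal.mem_span_singleton_self _)
  have hle : rtk2Ichi τ δ ≤ rtk2Ione τ q ⊔ Ideal.span {(C lam : Rtk2P O ι τ)} :=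
    rtk2_Ichi_le_Ione_sup lam h2 hq hδ
  -- instances
  haveI : IsDomain (Rtk2Rchi τ δ) := Ideal.Quotient.isDomain _
  have hI1ne : rtk2Ione τ q ≠ ⊤ := by
    intro h
    apply hQur.ne_top
    rw [eq_top_iff, ← h]
    exact (rtk2_Ione_le_Iur q).trans le_sup_right
  haveI : Nontrivial (Rtk2Rone τ q) := Ideal.Quotient.nontrivial_iff.mpr hI1ne
  -- patching
  obtain ⟨ρ1, ρχ, hP⟩ := rtp_patch_powerSeries (σ := Fin m) (rttwAug O m) (rttwLam m lam)
    (rttwoIota τ q) (rttwoTheta m j B)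
    (fun r1 rχ => rttwoF1 τ q lam r1 = rttwoFchi q δ lam hle rχ)
    (Ideal.Quotient.mk (rtk2Ione τ q)) Ideal.Quotient.mk_surjective
    (Ideal.Quotient.mk (rtk2Ichi τ δ)) Ideal.Quotient.mk_surjective (rttwoN m j)
    (fun n => by
      obtain ⟨r1, rχ, h⟩ := hlev n
      exact ⟨_, _, rttwo_level m q δ lam hle j B n r1 rχ h⟩)
  -- the support argument
  haveI : IsDomain (RttwS O m) := NoZeroDivisors.to_isDomain _
  haveI := rttwo_aug_isPrime O m
  haveI := rtk2b_Qur_map_isPrime (τ := τ) lam hprime q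
  obtain ⟨hq𝔮, hCr'⟩ := rtk2b_cramer_quot (τ := τ) lam hprime h2' q hq hq'
  have halg1 : algebraMap O (Rtk2Rone τ q) lam = Ideal.Quotient.mk (rtk2Ione τ q) (C lam) := rfl
  have halgχ : algebraMap O (Rtk2Rchi τ δ) lam = Ideal.Quotient.mk (rtk2Ichi τ δ) (C lam) := rfl
  obtain ⟨𝔓, h𝔓, hlam𝔓, hI⟩ := rtk4_out_T0_of_dim (S := RttwS O m)
    (R0 := MvPolynomial (ι × Fin 6) O) (R1 := Rtk2Rone τ q) (Rχ := Rtk2Rchi τ δ)
    (Rb := RttwoRb τ q lam)
    (rtk4_dim_mvPowerSeries_ne_top O m) (rtk2b_dim_Rchi_le_powerSeries lam hlam h2 δ hδ' m hm)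
    lam
    (by
      rw [rttwo_algebraMap_S]
      intro h
      apply hlam0
      have := congrArg constantCoeff h
      rwa [constantCoeff_C, map_zero] at this)
    (rttwAug O m)
    (by
      rw [rttwo_algebraMap_S]
      unfold rttwAug
      rw [RingHom.mem_ker, constantCoeff_C]
      exact hlam0)
    (rttwoF1 τ q lam) (rttwoFchi q δ lam hle)
    (Ideal.Quotient.factor_surjective _) (Ideal.Quotient.factor_surjective _)
    (by
      intro x hx
      obtain ⟨u, rfl⟩ := Ideal.Quotient.mk_surjective x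
      rw [RingHom.mem_ker] at hx
      have hu : u ∈ rtk2Ione τ q ⊔ Ideal.span {(C lam : Rtk2P O ι τ)} :=
        Ideal.Quotient.eq_zero_iff_mem.mp hx
      obtain ⟨v, hv, w, hw, rfl⟩ := Submodule.mem_sup.mp hu
      obtain ⟨c, rfl⟩ := Ideal.mem_span_singleton'.mp hw
      rw [map_add, Ideal.Quotient.eq_zero_iff_mem.mpr hv, zero_add, map_mul, halg1]
      exact Ideal.mul_mem_left _ _ (Ideal.mem_span_singleton_self _))
    (by
      rw [halgχ]
      exact Ideal.Quotient.eq_zero_iff_mem.mpr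
        (Ideal.mem_sup_right (Ideal.mem_span_singleton_self _)))
    hd ρ1 ρχ (fun r1 rχ h => hP.cong r1 rχ h) hP.scal1 hP.scalχ
    ((rttwoIota τ q : MvPolynomial (ι × Fin 6) O →ₐ[O] Rtk2Rone τ q) :
      MvPolynomial (ι × Fin 6) O →+* Rtk2Rone τ q)
    (rttwoUr O ι)
    ((rtk2Qur ι τ lam).map (Ideal.Quotient.mk (rtk2Ione τ q))) hq𝔮
    (by
      intro x hx
      obtain ⟨y, hy, hxy⟩ := rttwo_iota_mem τ q x hx
      obtain ⟨e, D, hD, h0⟩ := hCr' y hy
      refine ⟨e, D, hD, ?_⟩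
      rw [← h0, hxy]
      rfl)
    (rttwoJ m j) (rttwoJ_injective m j hj)
    (fun r1 => hP.base_T0 r1)
    (fun r0 => MvPolynomial.aeval B r0)
    (fun r0 => (hP.base_loc r0).symm)
  refine ⟨𝔓, h𝔓, hlam𝔓, fun i => ⟨?_, ?_, ?_⟩⟩
  · have := hI _ (Ideal.subset_span ⟨(i, 0), rfl⟩)
    rwa [MvPolynomial.aeval_X] at this
  · have := hI _ (Ideal.subset_span ⟨(i, 1), rfl⟩)
    rwa [MvPolynomial.aeval_X] at this
  · have := hI _ (Ideal.subset_span ⟨(i, 2), rfl⟩)
    rwa [MvPolynomial.aeval_X] at this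

end Main

end Fermat.Agent.RT


end ZBRT_015_4

/-! ### bundled: `Fermat.Agent.RT.Even.Out` -/
section ZBRT_015_5
/-
K-machine (row 37 / S59), piece EVEN: THE OUTPUT POINT WITH EVEN SCALARS   (helper27)
Mathlib-only (on top of `RT/K4`).

`rteven_out_T0_of_dim` is `rtk4_out_T0_of_dim` (`RT/K4/OutT0.lean`) in the situation where only
the scalars in the image of a finite injective ring homomorphism `sq : S″ → S` act through the
rings `R1`, `Rχ` (in the application `S″ = S = O[[w]]` and `sq` is `w_i ↦ w_i ^ 2` on the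
Taylor–Wiles variables).  The module `S^d` is regarded over `S″` through `sq`; the support
argument `rtk4_out_weak_of_dim` gives a prime `P'` of `R1` over the prime `𝔞″` of `S″` which
contains every `r` with `r S^d ⊆ sq(𝔞″) S^d`.  If `𝔞 ^ k ≤ sq(𝔞″) S`, the kernel of the action
of `R1` on the base `S^d ⧸ 𝔞 S^d` is contained in `P'` (`r S^d ⊆ 𝔞 S^d ⇒ r ^ k S^d ⊆ sq(𝔞″) S^d`),
and lying over for the integral extension `R1 ⧸ ker → T0` gives the prime of `T0`.
-/

set_option autoImplicit false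
set_option linter.style.haveILetI false

namespace Fermat.Agent.RT.Even

open Function Fermat.Agent.RT.K4

section Aux

variable {S : Type*} [CommRing S] {d : ℕ}

/-- the entries of `A ^ k` lie in `I ^ k` when the entries of `A` lie in `I` -/
theorem rteven_pow_entries (I : Ideal S) (A : Matrix (Fin d) (Fin d) S)
    (hA : ∀ i j, A i j ∈ I) (k : ℕ) : ∀ i j, (A ^ k) i j ∈ I ^ k := by
  induction k with
  | zero =>
    intro i j
    rw [pow_zero, Ideal.one_eq_top]
    exact Submodule.mem_top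
  | succ k ih =>
    intro i j
    rw [pow_succ A, Matrix.mul_apply, pow_succ I]
    exact Ideal.sum_mem _ fun l _ => Ideal.mul_mem_mul (ih i l) (hA l j)

/-- the entries of `A.mulVec v` lie in `I` when the entries of `A` lie in `I` -/
theorem rteven_mulVec_mem (I : Ideal S) (A : Matrix (Fin d) (Fin d) S)
    (hA : ∀ i j, A i j ∈ I) (v : Fin d → S) (i : Fin d) : A.mulVec v i ∈ I := by
  rw [Matrix.mulVec, dotProduct]
  exact Ideal.sum_mem _ fun j _ => Ideal.mul_mem_right _ _ (hA i j)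

variable {S'' : Type*} [CommRing S''] [Algebra S'' S]

/-- `x ∈ 𝔞″ S` ⇒ `x • v ∈ 𝔞″ • ⊤` (as an `S″`-submodule of `S^d`) -/
theorem rteven_smul_mem_of_mem_map (A : Ideal S'') (x : S)
    (hx : x ∈ A.map (algebraMap S'' S)) (v : Fin d → S) :
    x • v ∈ (A • ⊤ : Submodule S'' (Fin d → S)) := by
  unfold Ideal.map at hx
  induction hx using Submodule.span_induction generalizing v with
  | mem y hy =>
    obtain ⟨a, ha, rfl⟩ := hy
    have : algebraMap S'' S a • v = a • v := by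
      ext i
      rw [Pi.smul_apply, Pi.smul_apply, smul_eq_mul, Algebra.smul_def]
    rw [this]
    exact Submodule.smul_mem_smul ha Submodule.mem_top
  | zero =>
    rw [zero_smul]
    exact Submodule.zero_mem _
  | add y z _ _ hy hz =>
    rw [add_smul]
    exact Submodule.add_mem _ (hy v) (hz v)
  | smul s y _ hy =>
    rw [smul_eq_mul, mul_comm, mul_smul]
    exact hy (s • v)

/-- a vector with all coordinates in `𝔞″ S` lies in `𝔞″ • ⊤` -/
theorem rteven_mem_smul_top_of_forall_mem (A : Ideal S'') (w : Fin d → S)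
    (h : ∀ i, w i ∈ A.map (algebraMap S'' S)) :
    w ∈ (A • ⊤ : Submodule S'' (Fin d → S)) := by
  have hw : w = ∑ i, w i • (Pi.single i (1 : S) : Fin d → S) := by
    ext j
    rw [Finset.sum_apply]
    simp [Pi.single_apply]
  rw [hw]
  exact Submodule.sum_mem _ fun i _ => rteven_smul_mem_of_mem_map A (w i) (h i) _

end Aux

section Out

variable {O : Type*} [CommRing O] {S'' S : Type*} [CommRing S''] [CommRing S]
  [Algebra O S''] [Algebra O S]
  {R0 R1 Rχ Rb : Type*} [CommRing R0] [CommRing R1] [Algebra O R1]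
  [CommRing Rχ] [Algebra O Rχ] [CommRing Rb]

/-- **The output of the machine in the base Hecke ring, even scalars** (from
`dim Rχ ≤ dim S″`). -/
theorem rteven_out_T0_of_dim [IsDomain S] [Nontrivial S'']
    (sq : S'' →ₐ[O] S) (hsq : Injective sq) (hfin : (sq : S'' →+* S).Finite)
    (hS : ringKrullDim S'' ≠ ⊤)
    [IsNoetherianRing R1] [IsNoetherianRing Rχ] [IsDomain Rχ]
    (hRS : ringKrullDim Rχ ≤ ringKrullDim S'')
    (lam : O) (hlam0 : algebraMap O S lam ≠ 0)
    (𝔞'' : Ideal S'') [𝔞''.IsPrime] (hlam𝔞 : algebraMap O S'' lam ∉ 𝔞'')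
    (𝔞 : Ideal S) (k : ℕ) (h𝔞 : 𝔞 ^ k ≤ 𝔞''.map (sq : S'' →+* S))
    (f1 : R1 →+* Rb) (fχ : Rχ →+* Rb) (hf1 : Surjective f1) (hfχ : Surjective fχ)
    (hk1 : RingHom.ker f1 ≤ Ideal.span {algebraMap O R1 lam})
    (hkχ : fχ (algebraMap O Rχ lam) = 0)
    {d : ℕ} (hd : 0 < d)
    (ρ1 : R1 →ₐ[O] Matrix (Fin d) (Fin d) S) (ρχ : Rχ →ₐ[O] Matrix (Fin d) (Fin d) S)
    (hcong : ∀ r1 rχ, f1 r1 = fχ rχ →
      (ρ1 r1).map (Ideal.Quotient.mk (Ideal.span {algebraMap O S lam})) =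
        (ρχ rχ).map (Ideal.Quotient.mk (Ideal.span {algebraMap O S lam})))
    (hscal1 : ∀ s : S'', ∃ r, ρ1 r = algebraMap S (Matrix (Fin d) (Fin d) S) (sq s))
    (hscalχ : ∀ s : S'', ∃ r, ρχ r = algebraMap S (Matrix (Fin d) (Fin d) S) (sq s))
    (ι : R0 →+* R1) (Iur : Ideal R0)
    (𝔮 : Ideal R1) [𝔮.IsPrime] (h𝔮 : algebraMap O R1 lam ∈ 𝔮)
    (hCr : ∀ x ∈ Iur, ∃ (e : ℕ) (D : R1), D ∉ 𝔮 ∧ algebraMap O R1 lam ^ e * D * ι x = 0)
    {T0 : Type*} [CommRing T0] [Algebra O T0] [Algebra.IsIntegral O T0]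
    (j : T0 →ₐ[O] Matrix (Fin d) (Fin d) (S ⧸ 𝔞)) (hj : Injective j)
    (hbase : ∀ r1 : R1, ∃ t : T0, j t = (ρ1 r1).map (Ideal.Quotient.mk 𝔞))
    (θ : R0 → T0) (hθ : ∀ r0 : R0, j (θ r0) = (ρ1 (ι r0)).map (Ideal.Quotient.mk 𝔞)) :
    ∃ 𝔓 : Ideal T0, 𝔓.IsPrime ∧ algebraMap O T0 lam ∉ 𝔓 ∧ ∀ x ∈ Iur, θ x ∈ 𝔓 := by
  -- `S` as an algebra over `S″` through `sq`
  letI algSq : Algebra S'' S := (sq : S'' →+* S).toAlgebra
  haveI finSq : Module.Finite S'' S := hfin
  have hsqdef : ∀ s : S'', algebraMap S'' S s = sq s := fun _ => rfl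
  have hsmulS : ∀ (s : S'') (v : Fin d → S), s • v = sq s • v := by
    intro s v
    ext i
    rw [Pi.smul_apply, Pi.smul_apply, smul_eq_mul, Algebra.smul_def, hsqdef]
  letI m1 : Module R1 (Fin d → S) := rtk4MatModule (ρ1 : R1 →+* Matrix (Fin d) (Fin d) S)
  letI mχ : Module Rχ (Fin d → S) := rtk4MatModule (ρχ : Rχ →+* Matrix (Fin d) (Fin d) S)
  have hsmul1 : ∀ (r : R1) (v : Fin d → S), r • v = (ρ1 r).mulVec v := fun _ _ => rfl
  have hsmulχ : ∀ (r : Rχ) (v : Fin d → S), r • v = (ρχ r).mulVec v := fun _ _ => rfl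
  haveI : Nonempty (Fin d) := ⟨⟨0, hd⟩⟩
  -- `S″` acts through `R1` and `Rχ`
  have hc1 : ∀ s : S'', ∃ r : R1, ∀ m : Fin d → S, r • m = s • m := by
    intro s
    obtain ⟨r, hr⟩ := hscal1 s
    exact ⟨r, fun m => by rw [hsmul1, hr, rtk4_algebraMap_mulVec, hsmulS]⟩
  have hcχ : ∀ s : S'', ∃ r : Rχ, ∀ m : Fin d → S, r • m = s • m := by
    intro s
    obtain ⟨r, hr⟩ := hscalχ s
    exact ⟨r, fun m => by rw [hsmulχ, hr, rtk4_algebraMap_mulVec, hsmulS]⟩
  -- the constants of `O` act as constants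
  have hO1 : ∀ (c : O) (m : Fin d → S), algebraMap O R1 c • m = algebraMap O S c • m := by
    intro c m
    rw [hsmul1, AlgHom.commutes, IsScalarTower.algebraMap_apply O S (Matrix (Fin d) (Fin d) S),
      rtk4_algebraMap_mulVec]
  have hOχ : ∀ (c : O) (m : Fin d → S), algebraMap O Rχ c • m = algebraMap O S c • m := by
    intro c m
    rw [hsmulχ, AlgHom.commutes, IsScalarTower.algebraMap_apply O S (Matrix (Fin d) (Fin d) S),
      rtk4_algebraMap_mulVec]
  have hOS : ∀ (c : O) (m : Fin d → S), algebraMap O S'' c • m = algebraMap O S c • m := by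
    intro c m
    rw [hsmulS, AlgHom.commutes]
  -- torsion-freeness over `S″`
  have htf : ∀ (s : S'') (m : Fin d → S), s • m = 0 → s = 0 ∨ m = 0 := by
    intro s m h
    by_cases hs : s = 0
    · exact Or.inl hs
    · right
      have hs' : sq s ≠ 0 := fun h0 => hs (hsq (by rw [h0, map_zero]))
      ext i
      have := congrFun h i
      rw [hsmulS, Pi.smul_apply, smul_eq_mul, Pi.zero_apply] at this
      exact (mul_eq_zero.mp this).resolve_left hs'
  -- the relation between the two reductions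
  have hrel : ∀ (a : R1) (r : Rχ), f1 a = fχ r → (∀ m : Fin d → S, a • m = 0) →
      ∀ m : Fin d → S, ∃ m' : Fin d → S, r • m = algebraMap O Rχ lam • m' := by
    intro a r har ha m
    have h0 : ρ1 a = 0 := rtk4_eq_zero_of_mulVec _ fun v => by rw [← hsmul1]; exact ha v
    have h1 := hcong a r har
    rw [h0] at h1
    have h2 : (ρχ r).map (Ideal.Quotient.mk (Ideal.span {algebraMap O S lam})) = 0 := by
      rw [← h1]
      ext i j
      simp
    obtain ⟨N, hN⟩ := rtk4_exists_smul_of_map_eq_zero _ _ h2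
    refine ⟨N.mulVec m, ?_⟩
    rw [hOχ, hsmulχ, hN, Matrix.smul_mulVec]
  obtain ⟨P', hprime, hAnn, hG, hiff, hker⟩ :=
    rtk4_out_weak_of_dim (S := S'') (R₁ := R1) (Rχ := Rχ) (Rb := Rb)
      (M₁ := Fin d → S) (Mχ := Fin d → S) hc1 hcχ htf htf hS hRS f1 fχ hf1 hfχ
      (algebraMap O R1 lam) (algebraMap O Rχ lam) hk1 hkχ hrel 𝔮 h𝔮 𝔞'' (ι '' (Iur : Set R0))
      (by
        rintro _ ⟨x, hx, rfl⟩
        obtain ⟨e, D, hD, h0⟩ := hCr x hx
        refine ⟨algebraMap O S'' lam ^ e, algebraMap O R1 lam ^ e, D, ?_,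
          fun m => ?_, hD, ?_⟩
        · intro h
          have h3 : sq (algebraMap O S'' lam ^ e) = 0 := by rw [h, map_zero]
          rw [map_pow, AlgHom.commutes] at h3
          exact pow_ne_zero e hlam0 h3
        · rw [← map_pow, ← map_pow, hO1, hOS]
        · rw [mul_comm D, h0])
  -- the kernel of the action on the base lies in `P'`
  have hkerbase : ∀ r : R1, (ρ1 r).map (Ideal.Quotient.mk 𝔞) = 0 → r ∈ P' := by
    intro r hr
    apply hprime.mem_of_pow_mem k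
    apply hker
    intro m
    rw [hsmul1, map_pow]
    apply rteven_mem_smul_top_of_forall_mem
    intro i
    apply h𝔞
    apply rteven_mulVec_mem
    apply rteven_pow_entries
    intro a b
    have := congrFun (congrFun hr a) b
    rwa [Matrix.map_apply, Matrix.zero_apply, Ideal.Quotient.eq_zero_iff_mem] at this
  -- the action of `R1` on the base, as a ring homomorphism to `T0`
  choose ρb hρb using hbase
  have hρb' : ∀ r, j (ρb r) = (Ideal.Quotient.mk 𝔞).mapMatrix (ρ1 r) := hρb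
  let ρbar : R1 →+* T0 :=
    { toFun := ρb
      map_one' := hj (by
        rw [hρb', map_one ρ1, map_one (Ideal.Quotient.mk 𝔞).mapMatrix, map_one j])
      map_mul' := fun a b => hj (by
        rw [map_mul j, hρb', hρb', hρb', map_mul ρ1, map_mul (Ideal.Quotient.mk 𝔞).mapMatrix])
      map_zero' := hj (by
        rw [hρb', map_zero ρ1, map_zero (Ideal.Quotient.mk 𝔞).mapMatrix, map_zero j])
      map_add' := fun a b => hj (by
        rw [map_add j, hρb', hρb', hρb', map_add ρ1, map_add (Ideal.Quotient.mk 𝔞).mapMatrix]) }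
  have hρbar : ∀ r, j (ρbar r) = (ρ1 r).map (Ideal.Quotient.mk 𝔞) := hρb
  have hρO : ∀ c : O, ρbar (algebraMap O R1 c) = algebraMap O T0 c := by
    intro c
    apply hj
    rw [hρbar, AlgHom.commutes, AlgHom.commutes,
      IsScalarTower.algebraMap_apply O S (Matrix (Fin d) (Fin d) S), rtk4_map_algebraMap_mk,
      IsScalarTower.algebraMap_apply O (S ⧸ 𝔞) (Matrix (Fin d) (Fin d) (S ⧸ 𝔞))]
    rfl
  letI : Algebra R1 T0 := ρbar.toAlgebra
  haveI : IsScalarTower O R1 T0 := IsScalarTower.of_algebraMap_eq fun c => (hρO c).symm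
  haveI : Algebra.IsIntegral R1 T0 := Algebra.IsIntegral.tower_top (R := O)
  obtain ⟨Q, -, hQprime, hQ⟩ := Ideal.exists_ideal_over_prime_of_isIntegral P' (⊥ : Ideal T0) (by
    intro r hr
    rw [Ideal.mem_comap, Ideal.mem_bot] at hr
    apply hkerbase
    have h0 : ρbar r = 0 := hr
    rw [← hρbar, h0, map_zero])
  have hmem : ∀ r : R1, ρbar r ∈ Q ↔ r ∈ P' := by
    intro r
    rw [← hQ]
    rfl
  refine ⟨Q, hQprime, ?_, ?_⟩
  · intro h
    rw [← hρO, hmem] at h
    exact hlam𝔞 ((hiff _ _ (fun m => by rw [hO1, hOS])).mp h)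
  · intro x hx
    have : θ x = ρbar (ι x) := hj (by rw [hθ, hρbar])
    rw [this, hmem]
    exact hG (Ideal.subset_span ⟨x, hx, rfl⟩)

end Out

end Fermat.Agent.RT.Even


end ZBRT_015_5

/-! ### bundled: `Fermat.Agent.RT.Even.Main` -/
section ZBRT_015_6
/-
K-machine (row 37 / S59), piece EVEN: `stmtOutTWE_of : StmtEvenSq → StmtOutTWE`   (helper27)

The even form of GLUE 1 (`RT/PlanTWE.lean`), from
* the patching theorem with a restricted set of scalars (`RT/Even/Patch.lean`),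
* the output point with even scalars (`RT/Even/Out.lean`),
* the facts on the squaring endomorphism `sq` of `S = O[[w_1, …, w_m]]`
  (`w_i ↦ w_i ^ 2` for `i < h`), collected in the proposition `StmtEvenSq` below
  (`sq` injective, finite, with even values, and `𝔞 ^ k ≤ sq(𝔞) S` for some `k`).
The rest is `RT/Out.lean` word for word.
-/

set_option autoImplicit false
set_option linter.style.haveILetI false

namespace Fermat.Agent.RT.Even

open Fermat.Agent.RT Fermat.Agent.RT.K2 Fermat.Agent.RT.K2b Fermat.Agent.RT.K4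
  Fermat.Agent.RT.P
open MvPowerSeries IsLocalRing

/-- **The facts on the squaring endomorphism** (`RT/Even/Sq.lean`): there is an injective finite
`O`-algebra endomorphism `sq` of `S = O[[w_1, …, w_m]]` whose values are even in the first `h`
variables and such that `𝔞 ^ k ≤ sq(𝔞) S` for some `k` (`sq : w_i ↦ w_i ^ 2` for `i < h`,
`w_i ↦ w_i` for `h ≤ i`; `k = h + 1`). -/
def StmtEvenSq : Prop :=
  ∀ (O : Type) [CommRing O] [IsDomain O] [IsDiscreteValuationRing O] (m h : ℕ),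
    ∃ (sq : RttwS O m →ₐ[O] RttwS O m) (k : ℕ), Function.Injective sq ∧
      (sq : RttwS O m →+* RttwS O m).Finite ∧ (∀ f, sq f ∈ rttwEven O m h) ∧
      rttwAug O m ^ k ≤ (rttwAug O m).map (sq : RttwS O m →+* RttwS O m)

section Level

variable {O : Type*} [CommRing O] [IsLocalRing O] {ι τ : Type*} (m : ℕ) {d : ℕ}
  {T0 : Type*} [CommRing T0] [Algebra O T0]

/-- **From `TWLevelE` to `RtevenLevel`** (the proof of `rttwo_level`). -/
theorem rteven_level (q δ : ι → O) (lam : O)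
    (hle : rtk2Ichi τ δ ≤ rtk2Ione τ q ⊔ Ideal.span {(C lam : Rtk2P O ι τ)})
    (j : T0 →ₐ[O] Matrix (Fin d) (Fin d) O) (B : ι × Fin 6 → T0) (h n : ℕ)
    (ρ1 ρχ : Rtk2P O ι τ →ₐ[O]
      Matrix (Fin d) (Fin d) (RttwS O m ⧸ maximalIdeal (RttwS O m) ^ n))
    (H : TWLevelE (τ := τ) q δ lam m h d (fun x => j (B x)) (Set.range j) n ρ1 ρχ) :
    RtevenLevel (maximalIdeal (RttwS O m)) (rttwAug O m) (rttwLam m lam) (rttwoIota τ q)
      (rttwoTheta m j B)
      (rttwoN m j : Set (Matrix (Fin d) (Fin d) (RttwS O m ⧸ rttwAug O m)))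
      (fun r1 rχ => rttwoF1 τ q lam r1 = rttwoFchi q δ lam hle rχ) (rttwEven O m h) n
      (Ideal.Quotient.liftₐ (rtk2Ione τ q) ρ1 H.kills1)
      (Ideal.Quotient.liftₐ (rtk2Ichi τ δ) ρχ H.killsχ) := by
  have hl1 : ∀ u, Ideal.Quotient.liftₐ (rtk2Ione τ q) ρ1 H.kills1
      (Ideal.Quotient.mk (rtk2Ione τ q) u) = ρ1 u := fun u => rfl
  have hlχ : ∀ u, Ideal.Quotient.liftₐ (rtk2Ichi τ δ) ρχ H.killsχ
      (Ideal.Quotient.mk (rtk2Ichi τ δ) u) = ρχ u := fun u => rfl
  refine ⟨?_, ?_, ?_, ?_, ?_⟩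
  · -- base_loc
    intro r0
    have key : ((Ideal.Quotient.factorₐ O
        (le_sup_right : maximalIdeal (RttwS O m) ^ n ≤
          rttwAug O m ⊔ maximalIdeal (RttwS O m) ^ n)).mapMatrix.comp
        ((Ideal.Quotient.liftₐ (rtk2Ione τ q) ρ1 H.kills1).comp (rttwoIota τ q))) =
        ((Ideal.Quotient.factorₐ O
        (le_sup_left : rttwAug O m ≤
          rttwAug O m ⊔ maximalIdeal (RttwS O m) ^ n)).mapMatrix (m := Fin d)).comp
          (rttwoTheta m j B) := by
      apply MvPolynomial.algHom_ext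
      rintro ⟨i, k⟩
      rw [AlgHom.comp_apply, AlgHom.comp_apply, AlgHom.comp_apply, AlgHom.mapMatrix_apply,
        AlgHom.mapMatrix_apply]
      have e1 : rttwoIota τ q (MvPolynomial.X (i, k)) =
          Ideal.Quotient.mk (rtk2Ione τ q) (X (rtk2ix i k)) := by
        unfold rttwoIota
        rw [MvPolynomial.aeval_X]
      have e2 : rttwoTheta m j B (MvPolynomial.X (i, k)) = rttwoJb O m d (j (B (i, k))) := by
        unfold rttwoTheta
        rw [AlgHom.comp_apply, MvPolynomial.aeval_X]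
        rfl
      rw [e1, hl1, e2]
      exact (H.base_loc i k).trans (rttwoJb_map_factor O m d n _).symm
    exact DFunLike.congr_fun key r0
  · -- base_T0
    intro r1
    obtain ⟨u, rfl⟩ := Ideal.Quotient.mk_surjective r1
    obtain ⟨t, ⟨t0, rfl⟩, ht⟩ := H.base_T0 u
    refine ⟨rttwoJ m j t0, ⟨t0, rfl⟩, ?_⟩
    rw [hl1, ht, rttwoJ_apply, rttwoJb_map_factor]
  · -- cong
    intro r1 rχ hE
    obtain ⟨u, rfl⟩ := Ideal.Quotient.mk_surjective r1
    obtain ⟨u', rfl⟩ := Ideal.Quotient.mk_surjective rχ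
    rw [hl1, hlχ, ← H.cong u']
    have hmem : u - u' ∈ rtk2Ione τ q ⊔ Ideal.span {(C lam : Rtk2P O ι τ)} := by
      rw [← Ideal.Quotient.eq]
      exact hE
    -- the composite kills `I_1 ⊔ (λ)`
    let F : Rtk2P O ι τ →ₐ[O] Matrix (Fin d) (Fin d)
        (RttwS O m ⧸ (rttwLam m lam ⊔ maximalIdeal (RttwS O m) ^ n)) :=
      (Ideal.Quotient.factorₐ O
        (le_sup_right : maximalIdeal (RttwS O m) ^ n ≤
          rttwLam m lam ⊔ maximalIdeal (RttwS O m) ^ n)).mapMatrix.comp ρ1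
    have hF : ∀ v, F v = (ρ1 v).map (Ideal.Quotient.factor
        (le_sup_right : maximalIdeal (RttwS O m) ^ n ≤
          rttwLam m lam ⊔ maximalIdeal (RttwS O m) ^ n)) := fun v => rfl
    have hker : rtk2Ione τ q ⊔ Ideal.span {(C lam : Rtk2P O ι τ)} ≤
        RingHom.ker F.toRingHom := by
      refine sup_le ?_ ?_
      · intro v hv
        rw [RingHom.mem_ker]
        show F v = 0
        rw [hF, H.kills1 v hv]
        ext a b
        simp
      · rw [Ideal.span_le, Set.singleton_subset_iff, SetLike.mem_coe, RingHom.mem_ker]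
        show F (C lam) = 0
        have : (C lam : Rtk2P O ι τ) = algebraMap O (Rtk2P O ι τ) lam := rfl
        rw [this, AlgHom.commutes]
        exact rttwo_lam_eq_zero m lam _
    have := hker hmem
    rw [RingHom.mem_ker] at this
    have h2 : F u - F u' = 0 := by
      rw [← map_sub]
      exact this
    rw [← hF, ← hF]
    exact sub_eq_zero.mp h2
  · -- scal1
    intro s hs
    obtain ⟨u, hu⟩ := H.scal1 s hs
    exact ⟨Ideal.Quotient.mk _ u, (hl1 u).trans hu⟩
  · -- scalχ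
    intro s hs
    obtain ⟨u, hu⟩ := H.scalχ s hs
    exact ⟨Ideal.Quotient.mk _ u, (hlχ u).trans hu⟩

end Level

section Main

/-- **GLUE 1, even form**, from the facts on the squaring endomorphism. -/
theorem stmtOutTWE_of (Hsq : StmtEvenSq) : StmtOutTWE := by
  intro O _ _ _ _ _ lam hlam h2 ι τ _ _ q δ hq hq1 hδ m h d hm hd hIchi hQur hCr T0 _ _ _ j hj B
    hlev
  obtain ⟨sq, k, hsqinj, hsqfin, hsqev, hsqpow⟩ := Hsq O m h
  -- basic facts
  have hprime : (Ideal.span {lam}).IsPrime := hlam ▸ (maximalIdeal.isMaximal O).isPrime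
  have h2' : (2 : O) ∉ Ideal.span {lam} := by
    rw [← hlam]
    intro h
    exact (IsLocalRing.mem_maximalIdeal _).mp h h2
  have hirr : Irreducible lam :=
    (IsDiscreteValuationRing.irreducible_iff_uniformizer lam).mpr hlam
  have hlam0 : lam ≠ 0 := hirr.ne_zero
  have hq' : ∀ i, ∃ (e : ℕ) (u : O), lam ^ e = (1 - q i) * u := by
    intro i
    have hne : 1 - q i ≠ 0 := sub_ne_zero.mpr (hq1 i).symm
    obtain ⟨e, u, hu⟩ := IsDiscreteValuationRing.associated_pow_irreducible hne hirr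
    exact ⟨e, u, hu.symm⟩
  have hδ' : ∀ i, δ i ∈ maximalIdeal O := by
    intro i
    obtain ⟨r, hr⟩ := hδ i
    rw [hlam, hr]
    exact Ideal.mul_mem_right _ _ (Ideal.mem_span_singleton_self _)
  have hle : rtk2Ichi τ δ ≤ rtk2Ione τ q ⊔ Ideal.span {(C lam : Rtk2P O ι τ)} :=
    rtk2_Ichi_le_Ione_sup lam h2 hq hδ
  -- instances
  haveI : IsDomain (Rtk2Rchi τ δ) := Ideal.Quotient.isDomain _
  have hI1ne : rtk2Ione τ q ≠ ⊤ := by
    intro h
    apply hQur.ne_top
    rw [eq_top_iff, ← h]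
    exact (rtk2_Ione_le_Iur q).trans le_sup_right
  haveI : Nontrivial (Rtk2Rone τ q) := Ideal.Quotient.nontrivial_iff.mpr hI1ne
  -- patching
  obtain ⟨ρ1, ρχ, hP⟩ := rteven_patch_powerSeries (σ := Fin m) (rttwAug O m) (rttwLam m lam)
    (rttwoIota τ q) (rttwoTheta m j B)
    (fun r1 rχ => rttwoF1 τ q lam r1 = rttwoFchi q δ lam hle rχ) (rttwEven O m h)
    (Ideal.Quotient.mk (rtk2Ione τ q)) Ideal.Quotient.mk_surjective
    (Ideal.Quotient.mk (rtk2Ichi τ δ)) Ideal.Quotient.mk_surjective (rttwoN m j)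
    (fun n => by
      obtain ⟨r1, rχ, h⟩ := hlev n
      exact ⟨_, _, rteven_level m q δ lam hle j B _ n r1 rχ h⟩)
  -- the support argument
  haveI : IsDomain (RttwS O m) := NoZeroDivisors.to_isDomain _
  haveI := rttwo_aug_isPrime O m
  haveI := rtk2b_Qur_map_isPrime (τ := τ) lam hprime q
  obtain ⟨hq𝔮, hCr'⟩ := rtk2b_cramer_quot (τ := τ) lam hprime h2' q hq hq'
  have halg1 : algebraMap O (Rtk2Rone τ q) lam = Ideal.Quotient.mk (rtk2Ione τ q) (C lam) := rfl
  have halgχ : algebraMap O (Rtk2Rchi τ δ) lam = Ideal.Quotient.mk (rtk2Ichi τ δ) (C lam) := rfl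
  obtain ⟨𝔓, h𝔓, hlam𝔓, hI⟩ := rteven_out_T0_of_dim (S'' := RttwS O m) (S := RttwS O m)
    (R0 := MvPolynomial (ι × Fin 6) O) (R1 := Rtk2Rone τ q) (Rχ := Rtk2Rchi τ δ)
    (Rb := RttwoRb τ q lam) sq hsqinj hsqfin
    (rtk4_dim_mvPowerSeries_ne_top O m) (rtk2b_dim_Rchi_le_powerSeries lam hlam h2 δ hδ' m hm)
    lam
    (by
      rw [rttwo_algebraMap_S]
      intro h
      apply hlam0
      have := congrArg constantCoeff h
      rwa [constantCoeff_C, map_zero] at this)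
    (rttwAug O m)
    (by
      rw [rttwo_algebraMap_S]
      unfold rttwAug
      rw [RingHom.mem_ker, constantCoeff_C]
      exact hlam0)
    (rttwAug O m) k hsqpow
    (rttwoF1 τ q lam) (rttwoFchi q δ lam hle)
    (Ideal.Quotient.factor_surjective _) (Ideal.Quotient.factor_surjective _)
    (by
      intro x hx
      obtain ⟨u, rfl⟩ := Ideal.Quotient.mk_surjective x
      rw [RingHom.mem_ker] at hx
      have hu : u ∈ rtk2Ione τ q ⊔ Ideal.span {(C lam : Rtk2P O ι τ)} :=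
        Ideal.Quotient.eq_zero_iff_mem.mp hx
      obtain ⟨v, hv, w, hw, rfl⟩ := Submodule.mem_sup.mp hu
      obtain ⟨c, rfl⟩ := Ideal.mem_span_singleton'.mp hw
      rw [map_add, Ideal.Quotient.eq_zero_iff_mem.mpr hv, zero_add, map_mul, halg1]
      exact Ideal.mul_mem_left _ _ (Ideal.mem_span_singleton_self _))
    (by
      rw [halgχ]
      exact Ideal.Quotient.eq_zero_iff_mem.mpr
        (Ideal.mem_sup_right (Ideal.mem_span_singleton_self _)))
    hd ρ1 ρχ (fun r1 rχ h => hP.cong r1 rχ h)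
    (fun s => hP.scal1 (sq s) (hsqev s)) (fun s => hP.scalχ (sq s) (hsqev s))
    ((rttwoIota τ q : MvPolynomial (ι × Fin 6) O →ₐ[O] Rtk2Rone τ q) :
      MvPolynomial (ι × Fin 6) O →+* Rtk2Rone τ q)
    (rttwoUr O ι)
    ((rtk2Qur ι τ lam).map (Ideal.Quotient.mk (rtk2Ione τ q))) hq𝔮
    (by
      intro x hx
      obtain ⟨y, hy, hxy⟩ := rttwo_iota_mem τ q x hx
      obtain ⟨e, D, hD, h0⟩ := hCr' y hy
      refine ⟨e, D, hD, ?_⟩
      rw [← h0, hxy]
      rfl)
    (rttwoJ m j) (rttwoJ_injective m j hj)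
    (fun r1 => hP.base_T0 r1)
    (fun r0 => MvPolynomial.aeval B r0)
    (fun r0 => (hP.base_loc r0).symm)
  refine ⟨𝔓, h𝔓, hlam𝔓, fun i => ⟨?_, ?_, ?_⟩⟩
  · have := hI _ (Ideal.subset_span ⟨(i, 0), rfl⟩)
    rwa [MvPolynomial.aeval_X] at this
  · have := hI _ (Ideal.subset_span ⟨(i, 1), rfl⟩)
    rwa [MvPolynomial.aeval_X] at this
  · have := hI _ (Ideal.subset_span ⟨(i, 2), rfl⟩)
    rwa [MvPolynomial.aeval_X] at this

end Main

end Fermat.Agent.RT.Even


end ZBRT_015_6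

/-! ### bundled: `Fermat.Agent.RT.Even.Final` -/
section ZBRT_015_7
/-
K-machine (row 37 / S59), piece EVEN, DONE: `stmtOutTWE : StmtOutTWE`   (helper27 + helper97)

`stmtEvenSq : StmtEvenSq` from helper97's `RT/Even/Sq.lean` (`sq = MvPowerSeries.expand 2`), and
the even form of GLUE 1 without hypotheses; as a corollary the old form `StmtOutTW` again.
-/

set_option autoImplicit false

namespace Fermat.Agent.RT.Even

open Fermat.Agent.RT

/-- The facts on the squaring endomorphism. -/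
theorem stmtEvenSq : StmtEvenSq := by
  intro O _ _ _ m h
  obtain ⟨k, hk⟩ := rtev_aug_pow_le O m h
  exact ⟨rtev_sq O m h, k, rtev_sq_injective O m h, rtev_sq_finite O m h,
    rtev_sq_mem_even O m h, hk⟩

/-- **GLUE 1, even form.** -/
theorem stmtOutTWE : StmtOutTWE := stmtOutTWE_of stmtEvenSq

end Fermat.Agent.RT.Even


end ZBRT_015_7
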