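/- GENERATED FILE (helper35, build-time optimisation, NOTES/ZB.md): verbatim concatenation of the modules
   Fermat.Agent.RT.K2.Graded
   Fermat.Agent.RT.K2.FreeGen
   Fermat.Agent.RT.K2.T1
   Fermat.Agent.RT.K2.A1
   Fermat.Agent.RT.K2.Prime
   Fermat.Agent.RT.K2.Domain
   Fermat.Agent.RIB.TRCore
   Fermat.Agent.RIB.TRE
   Fermat.Agent.RT.Prod.Final
   Do not edit; do not import together with these modules. -/
import Mathlib
import Fermat.Agent.ZB.RT_003
import Fermat.Agent.ZB.RT_008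
import Fermat.Agent.ZB.RT_015
import Fermat.Agent.ZB.RT_016
import Fermat.Agent.ZB.RT_002
import Fermat.Agent.ZB.RT_005
import Fermat.Agent.ZB.RT_007

/-! ### bundled: `Fermat.Agent.RT.K2.Graded` -/
section ZBRT_017_0

/-!
# RT-K2: a small graded toolkit for `MvPowerSeries`

* `rtk2Shift v` : the divided difference `F ↦ (F − F|_{v = 0})/X_v` (coefficient shift);
* `rtk2Kill v`  : `F ↦ F|_{v = 0} = F − X_v · rtk2Shift v F`;
* `Rtk2Free V F` : `F` does not involve the variables of `V`;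
* weighted homogeneous components: product formula, components of `F * G` for `G` homogeneous;
* `rtk2_mem_span_of_comp` : an ideal generated by finitely many weighted homogeneous elements
  contains `F` as soon as it contains all the weighted homogeneous components of `F`;
* `rtk2_isPrime_of_homogeneous` : such an ideal is prime as soon as it is "prime on homogeneous
  elements".
-/

set_option autoImplicit false

namespace Fermat.Agent.RT.K2

open MvPowerSeries Finsupp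

variable {σ : Type*} {R : Type*} [CommRing R]

/-! ## shift and kill -/

section Shift

/-- The divided difference with respect to the variable `v`. -/
noncomputable def rtk2Shift (v : σ) : MvPowerSeries σ R →ₗ[R] MvPowerSeries σ R where
  toFun F := fun m => coeff (m + single v 1) F
  map_add' F G := by
    ext m
    show coeff _ (F + G) = coeff _ F + coeff _ G
    exact map_add _ _ _
  map_smul' r F := by
    ext m
    show coeff _ (r • F) = r • coeff _ F
    exact map_smul _ _ _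

theorem rtk2_coeff_shift (v : σ) (F : MvPowerSeries σ R) (m : σ →₀ ℕ) :
    coeff m (rtk2Shift v F) = coeff (m + single v 1) F := rfl

theorem rtk2_coeff_X_mul (v : σ) (F : MvPowerSeries σ R) (m : σ →₀ ℕ) :
    coeff m (X v * F) = if m v = 0 then 0 else coeff (m - single v 1) F := by
  classical
  rw [X_def, coeff_monomial_mul]
  by_cases h : m v = 0
  · rw [if_pos h, if_neg]
    intro hle
    have := hle v
    simp [h] at this
  · rw [if_neg h, if_pos, one_mul]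
    intro s
    by_cases hs : s = v
    · subst hs
      simp only [single_eq_same]
      omega
    · simp [Ne.symm hs]

theorem rtk2_shift_X_mul (v : σ) (F : MvPowerSeries σ R) : rtk2Shift v (X v * F) = F := by
  ext m
  rw [rtk2_coeff_shift, rtk2_coeff_X_mul, if_neg (by simp), add_tsub_cancel_right]

/-- `F|_{v = 0}`. -/
noncomputable def rtk2Kill (v : σ) (F : MvPowerSeries σ R) : MvPowerSeries σ R :=
  F - X v * rtk2Shift v F

theorem rtk2_kill_add_X_mul_shift (v : σ) (F : MvPowerSeries σ R) :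
    rtk2Kill v F + X v * rtk2Shift v F = F := by
  unfold rtk2Kill; ring

theorem rtk2_coeff_kill (v : σ) (F : MvPowerSeries σ R) (m : σ →₀ ℕ) :
    coeff m (rtk2Kill v F) = if m v = 0 then coeff m F else 0 := by
  unfold rtk2Kill
  rw [map_sub, rtk2_coeff_X_mul]
  by_cases h : m v = 0
  · simp [h]
  · rw [if_neg h, if_neg h, rtk2_coeff_shift]
    have : m - single v 1 + single v 1 = m := by
      ext s
      by_cases hs : s = v
      · subst hs
        simp only [coe_add, coe_tsub, Pi.add_apply, Pi.sub_apply, single_eq_same]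
        omega
      · simp [Ne.symm hs]
    rw [this, sub_self]

/-- `F` does not involve the variables of `V`. -/
def Rtk2Free (V : Set σ) (F : MvPowerSeries σ R) : Prop :=
  ∀ m : σ →₀ ℕ, (∃ v ∈ V, m v ≠ 0) → coeff m F = 0

theorem Rtk2Free.mono {V W : Set σ} {F : MvPowerSeries σ R} (h : Rtk2Free W F) (hVW : V ⊆ W) :
    Rtk2Free V F := fun m ⟨v, hv, hm⟩ => h m ⟨v, hVW hv, hm⟩

theorem rtk2_free_zero (V : Set σ) : Rtk2Free V (0 : MvPowerSeries σ R) := fun _ _ => by simp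

theorem rtk2_free_C (V : Set σ) (r : R) : Rtk2Free V (C r : MvPowerSeries σ R) := by
  classical
  intro m ⟨v, _, hm⟩
  rw [coeff_C, if_neg]
  rintro rfl
  simp at hm

theorem rtk2_free_one (V : Set σ) : Rtk2Free V (1 : MvPowerSeries σ R) := by
  have := rtk2_free_C (R := R) V 1
  simpa using this

theorem rtk2_free_X {V : Set σ} {s : σ} (hs : s ∉ V) : Rtk2Free V (X s : MvPowerSeries σ R) := by
  classical
  intro m ⟨v, hv, hm⟩
  rw [coeff_X, if_neg]
  rintro rfl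
  rw [single_apply] at hm
  split_ifs at hm with h
  · exact hs (h ▸ hv)
  · exact hm rfl

theorem Rtk2Free.add {V : Set σ} {F G : MvPowerSeries σ R} (hF : Rtk2Free V F)
    (hG : Rtk2Free V G) : Rtk2Free V (F + G) := fun m hm => by
  rw [map_add, hF m hm, hG m hm, add_zero]

theorem Rtk2Free.neg {V : Set σ} {F : MvPowerSeries σ R} (hF : Rtk2Free V F) :
    Rtk2Free V (-F) := fun m hm => by
  rw [map_neg, hF m hm, neg_zero]

theorem Rtk2Free.sub {V : Set σ} {F G : MvPowerSeries σ R} (hF : Rtk2Free V F)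
    (hG : Rtk2Free V G) : Rtk2Free V (F - G) := fun m hm => by
  rw [map_sub, hF m hm, hG m hm, sub_zero]

theorem Rtk2Free.mul {V : Set σ} {F G : MvPowerSeries σ R} (hF : Rtk2Free V F)
    (hG : Rtk2Free V G) : Rtk2Free V (F * G) := by
  classical
  intro m ⟨v, hv, hm⟩
  rw [coeff_mul]
  refine Finset.sum_eq_zero fun p hp => ?_
  rw [Finset.HasAntidiagonal.mem_antidiagonal] at hp
  by_cases h1 : p.1 v = 0
  · have h2 : p.2 v ≠ 0 := by
      intro h2
      apply hm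
      rw [← hp]
      simp [h1, h2]
    rw [hG _ ⟨v, hv, h2⟩, mul_zero]
  · rw [hF _ ⟨v, hv, h1⟩, zero_mul]

theorem Rtk2Free.pow {V : Set σ} {F : MvPowerSeries σ R} (hF : Rtk2Free V F) (n : ℕ) :
    Rtk2Free V (F ^ n) := by
  induction n with
  | zero => simpa using rtk2_free_one V
  | succ n ih => rw [pow_succ]; exact ih.mul hF

theorem rtk2_free_sum {V : Set σ} {κ : Type*} (s : Finset κ) (F : κ → MvPowerSeries σ R)
    (h : ∀ k ∈ s, Rtk2Free V (F k)) : Rtk2Free V (∑ k ∈ s, F k) := fun m hm => by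
  rw [map_sum]
  exact Finset.sum_eq_zero fun k hk => h k hk m hm

theorem rtk2_free_kill (v : σ) (F : MvPowerSeries σ R) : Rtk2Free {v} (rtk2Kill v F) := by
  intro m ⟨u, hu, hm⟩
  rw [Set.mem_singleton_iff] at hu
  subst hu
  rw [rtk2_coeff_kill, if_neg hm]

theorem Rtk2Free.shift {V : Set σ} {F : MvPowerSeries σ R} (hF : Rtk2Free V F) (v : σ) :
    Rtk2Free V (rtk2Shift v F) := by
  intro m ⟨u, hu, hm⟩
  rw [rtk2_coeff_shift]
  refine hF _ ⟨u, hu, ?_⟩
  simp only [coe_add, Pi.add_apply]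
  omega

theorem Rtk2Free.kill {V : Set σ} {F : MvPowerSeries σ R} (hF : Rtk2Free V F) (v : σ) :
    Rtk2Free V (rtk2Kill v F) := by
  intro m hm
  rw [rtk2_coeff_kill]
  split_ifs
  · exact hF m hm
  · rfl

theorem Rtk2Free.shift_eq_zero {v : σ} {F : MvPowerSeries σ R} (hF : Rtk2Free {v} F) :
    rtk2Shift v F = 0 := by
  ext m
  rw [rtk2_coeff_shift, map_zero]
  exact hF _ ⟨v, rfl, by simp⟩

theorem Rtk2Free.kill_eq {v : σ} {F : MvPowerSeries σ R} (hF : Rtk2Free {v} F) :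
    rtk2Kill v F = F := by
  unfold rtk2Kill
  rw [hF.shift_eq_zero, mul_zero, sub_zero]

/-- Uniqueness of the decomposition `F = F₀ + X_v F₁` with `F₀` free of `v`. -/
theorem rtk2_decomp_unique {v : σ} {A B A' B' : MvPowerSeries σ R} (hA : Rtk2Free {v} A)
    (hB : Rtk2Free {v} B) (h : A + X v * A' = B + X v * B') : A = B ∧ A' = B' := by
  have h1 : A = B := by
    have := congrArg (rtk2Kill v) h
    have e : ∀ (G G' : MvPowerSeries σ R), Rtk2Free {v} G → rtk2Kill v (G + X v * G') = G := by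
      intro G G' hG
      unfold rtk2Kill
      rw [map_add, rtk2_shift_X_mul, hG.shift_eq_zero]
      ring
    rwa [e A A' hA, e B B' hB] at this
  refine ⟨h1, ?_⟩
  have := congrArg (rtk2Shift v) h
  rwa [map_add, map_add, rtk2_shift_X_mul, rtk2_shift_X_mul, hA.shift_eq_zero,
    hB.shift_eq_zero, zero_add, zero_add] at this

theorem rtk2_kill_mul_free {v : σ} {G : MvPowerSeries σ R} (hG : Rtk2Free {v} G)
    (F : MvPowerSeries σ R) : rtk2Kill v (G * F) = G * rtk2Kill v F ∧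
      rtk2Shift v (G * F) = G * rtk2Shift v F := by
  refine rtk2_decomp_unique (rtk2_free_kill v _) (hG.mul (rtk2_free_kill v F)) ?_
  rw [rtk2_kill_add_X_mul_shift]
  have := rtk2_kill_add_X_mul_shift v F
  calc G * F = G * (rtk2Kill v F + X v * rtk2Shift v F) := by rw [this]
    _ = G * rtk2Kill v F + X v * (G * rtk2Shift v F) := by ring

theorem rtk2_shift_mul_free {v : σ} {G : MvPowerSeries σ R} (hG : Rtk2Free {v} G)
    (F : MvPowerSeries σ R) : rtk2Shift v (G * F) = G * rtk2Shift v F :=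
  (rtk2_kill_mul_free hG F).2

theorem rtk2_kill_X_mul (v : σ) (F : MvPowerSeries σ R) : rtk2Kill v (X v * F) = 0 := by
  unfold rtk2Kill
  rw [rtk2_shift_X_mul, sub_self]

/-- `X_v` is not a zero divisor. -/
theorem rtk2_X_mul_cancel {v : σ} {F G : MvPowerSeries σ R} (h : X v * F = X v * G) : F = G := by
  have := congrArg (rtk2Shift v) h
  rwa [rtk2_shift_X_mul, rtk2_shift_X_mul] at this

/-- An additive operator which is linear over the generators of an ideal preserves the ideal. -/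
theorem rtk2_map_mem_span {S : Set (MvPowerSeries σ R)} (T : MvPowerSeries σ R →+ MvPowerSeries σ R)
    (hT : ∀ g ∈ S, ∀ a, T (g * a) = g * T a) {F : MvPowerSeries σ R} (hF : F ∈ Ideal.span S) :
    T F ∈ Ideal.span S := by
  suffices h : ∀ a, T (a * F) ∈ Ideal.span S by simpa using h 1
  induction hF using Submodule.span_induction with
  | mem x hx =>
    intro a
    rw [mul_comm, hT x hx]
    exact Ideal.mul_mem_right _ _ (Ideal.subset_span hx)
  | zero => intro a; simp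
  | add x y _ _ hx hy => intro a; rw [mul_add, map_add]; exact Ideal.add_mem _ (hx a) (hy a)
  | smul b x _ ih =>
    intro a
    rw [smul_eq_mul, ← mul_assoc]
    exact ih (a * b)

/-- Membership in an ideal generated by `v`-free elements passes to the shift. -/
theorem rtk2_shift_mem_span {v : σ} {S : Set (MvPowerSeries σ R)} (hS : ∀ g ∈ S, Rtk2Free {v} g)
    {F : MvPowerSeries σ R} (hF : F ∈ Ideal.span S) : rtk2Shift v F ∈ Ideal.span S :=
  rtk2_map_mem_span (rtk2Shift v).toAddMonoidHom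
    (fun g hg a => rtk2_shift_mul_free (hS g hg) a) hF

/-- Membership in an ideal generated by `v`-free elements passes to `F|_{v = 0}`. -/
theorem rtk2_kill_mem_span {v : σ} {S : Set (MvPowerSeries σ R)} (hS : ∀ g ∈ S, Rtk2Free {v} g)
    {F : MvPowerSeries σ R} (hF : F ∈ Ideal.span S) : rtk2Kill v F ∈ Ideal.span S := by
  unfold rtk2Kill
  exact Ideal.sub_mem _ hF (Ideal.mul_mem_left _ _ (rtk2_shift_mem_span hS hF))

/-- `X_v` is a nonzerodivisor modulo an ideal generated by `v`-free elements. -/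
theorem rtk2_of_X_mul_mem_span {v : σ} {S : Set (MvPowerSeries σ R)}
    (hS : ∀ g ∈ S, Rtk2Free {v} g) {F : MvPowerSeries σ R} (hF : X v * F ∈ Ideal.span S) :
    F ∈ Ideal.span S := by
  have := rtk2_shift_mem_span hS hF
  rwa [rtk2_shift_X_mul] at this

end Shift


/-! ## weights -/

section Weights

variable (w : σ → ℕ)

/-- Weighted homogeneous of weight `d` (explicit binder version of
`MvPowerSeries.IsWeightedHomogeneous`). -/
def Rtk2WH (F : MvPowerSeries σ R) (d : ℕ) : Prop :=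
  ∀ m : σ →₀ ℕ, coeff m F ≠ 0 → weight w m = d

/-- The weighted homogeneous component. -/
noncomputable abbrev rtk2Comp (d : ℕ) : MvPowerSeries σ R →ₗ[R] MvPowerSeries σ R :=
  weightedHomogeneousComponent w d

theorem rtk2_coeff_comp (d : ℕ) (F : MvPowerSeries σ R) (m : σ →₀ ℕ) :
    coeff m (rtk2Comp w d F) = if weight w m = d then coeff m F else 0 := rfl

theorem rtk2_WH_zero (d : ℕ) : Rtk2WH w (0 : MvPowerSeries σ R) d :=
  fun m h => absurd (map_zero (coeff m)) h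

theorem rtk2_WH_C (r : R) : Rtk2WH w (C r : MvPowerSeries σ R) 0 := by
  classical
  intro m h
  rw [coeff_C] at h
  split_ifs at h with h0
  · rw [h0, map_zero]
  · exact absurd rfl h

theorem rtk2_WH_one : Rtk2WH w (1 : MvPowerSeries σ R) 0 := by
  have := rtk2_WH_C (R := R) w 1
  simpa using this

theorem rtk2_WH_X (s : σ) : Rtk2WH w (X s : MvPowerSeries σ R) (w s) := by
  classical
  intro m h
  rw [coeff_X] at h
  split_ifs at h with h0
  · rw [h0, weight_single]; simp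
  · exact absurd rfl h

theorem rtk2_WH_comp (d : ℕ) (F : MvPowerSeries σ R) : Rtk2WH w (rtk2Comp w d F) d := by
  intro m h
  rw [rtk2_coeff_comp] at h
  split_ifs at h with h0
  · exact h0
  · exact absurd rfl h

variable {w}

theorem Rtk2WH.add {F G : MvPowerSeries σ R} {d : ℕ} (hF : Rtk2WH w F d) (hG : Rtk2WH w G d) :
    Rtk2WH w (F + G) d := by
  intro m h
  by_cases h1 : coeff m F = 0
  · by_cases h2 : coeff m G = 0
    · rw [map_add, h1, h2, add_zero] at h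
      exact absurd rfl h
    · exact hG m h2
  · exact hF m h1

theorem Rtk2WH.neg {F : MvPowerSeries σ R} {d : ℕ} (h : Rtk2WH w F d) :
    Rtk2WH w (-F) d := fun m hm => h m (by simpa using hm)

theorem Rtk2WH.sub {F G : MvPowerSeries σ R} {d : ℕ} (hF : Rtk2WH w F d)
    (hG : Rtk2WH w G d) : Rtk2WH w (F - G) d := by
  rw [sub_eq_add_neg]
  exact hF.add hG.neg

theorem Rtk2WH.mul {F G : MvPowerSeries σ R} {d e : ℕ} (hF : Rtk2WH w F d)
    (hG : Rtk2WH w G e) : Rtk2WH w (F * G) (d + e) := by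
  classical
  intro m h
  rw [coeff_mul] at h
  obtain ⟨p, hp, hne⟩ := Finset.exists_ne_zero_of_sum_ne_zero h
  rw [Finset.HasAntidiagonal.mem_antidiagonal] at hp
  rw [← hp, map_add, hF _ (left_ne_zero_of_mul hne), hG _ (right_ne_zero_of_mul hne)]

theorem Rtk2WH.pow {F : MvPowerSeries σ R} {d : ℕ} (h : Rtk2WH w F d) (n : ℕ) :
    Rtk2WH w (F ^ n) (n * d) := by
  induction n with
  | zero => simpa using rtk2_WH_one w
  | succ n ih =>
    rw [pow_succ, Nat.succ_mul]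
    exact ih.mul h

theorem rtk2_WH_sum {κ : Type*} (s : Finset κ) (F : κ → MvPowerSeries σ R) (d : ℕ)
    (h : ∀ k ∈ s, Rtk2WH w (F k) d) : Rtk2WH w (∑ k ∈ s, F k) d := by
  classical
  induction s using Finset.induction_on with
  | empty => simpa using rtk2_WH_zero w d
  | insert a s ha ih =>
    rw [Finset.sum_insert ha]
    exact (h a (Finset.mem_insert_self a s)).add
      (ih fun k hk => h k (Finset.mem_insert_of_mem hk))

theorem Rtk2WH.comp_eq {F : MvPowerSeries σ R} {d : ℕ} (h : Rtk2WH w F d) :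
    rtk2Comp w d F = F := by
  ext m
  rw [rtk2_coeff_comp]
  split_ifs with hm
  · rfl
  · by_contra hc
    exact hm (h m (Ne.symm hc))

theorem Rtk2WH.comp_ne {F : MvPowerSeries σ R} {d d' : ℕ} (h : Rtk2WH w F d) (hne : d' ≠ d) :
    rtk2Comp w d' F = 0 := by
  ext m
  rw [rtk2_coeff_comp, map_zero]
  split_ifs with hm
  · by_contra hc
    exact hne (hm ▸ (h m hc).symm ▸ rfl)
  · rfl

theorem Rtk2WH.eq_zero_of_ne {F : MvPowerSeries σ R} {d d' : ℕ} (h : Rtk2WH w F d)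
    (h' : Rtk2WH w F d') (hne : d' ≠ d) : F = 0 := by
  rw [← h.comp_eq, h'.comp_ne (Ne.symm hne)]

theorem rtk2_ext_comp {F G : MvPowerSeries σ R}
    (h : ∀ d, rtk2Comp w d F = rtk2Comp w d G) : F = G := by
  ext m
  have := congrArg (coeff m) (h (weight w m))
  rwa [rtk2_coeff_comp, rtk2_coeff_comp, if_pos rfl, if_pos rfl] at this

theorem rtk2_comp_mul_WH {G : MvPowerSeries σ R} {e : ℕ} (hG : Rtk2WH w G e)
    (F : MvPowerSeries σ R) (d : ℕ) :
    rtk2Comp w (d + e) (F * G) = rtk2Comp w d F * G := by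
  classical
  ext m
  rw [rtk2_coeff_comp, coeff_mul, coeff_mul]
  by_cases hm : weight w m = d + e
  · rw [if_pos hm]
    refine Finset.sum_congr rfl fun p hp => ?_
    rw [Finset.HasAntidiagonal.mem_antidiagonal] at hp
    by_cases hG0 : coeff p.2 G = 0
    · rw [hG0, mul_zero, mul_zero]
    · rw [rtk2_coeff_comp, if_pos]
      have := hG _ hG0
      rw [← hp, map_add, this] at hm
      omega
  · rw [if_neg hm]
    symm
    refine Finset.sum_eq_zero fun p hp => ?_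
    rw [Finset.HasAntidiagonal.mem_antidiagonal] at hp
    by_cases hG0 : coeff p.2 G = 0
    · rw [hG0, mul_zero]
    · rw [rtk2_coeff_comp, if_neg, zero_mul]
      intro h1
      apply hm
      rw [← hp, map_add, h1, hG _ hG0]

theorem rtk2_comp_mul_WH_lt {G : MvPowerSeries σ R} {e : ℕ} (hG : Rtk2WH w G e)
    (F : MvPowerSeries σ R) {d : ℕ} (hd : d < e) : rtk2Comp w d (F * G) = 0 := by
  classical
  ext m
  rw [rtk2_coeff_comp, coeff_mul, map_zero]
  split_ifs with hm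
  · refine Finset.sum_eq_zero fun p hp => ?_
    rw [Finset.HasAntidiagonal.mem_antidiagonal] at hp
    by_cases hG0 : coeff p.2 G = 0
    · rw [hG0, mul_zero]
    · exfalso
      have := hG _ hG0
      rw [← hp, map_add, this] at hm
      omega
  · rfl

/-- Components of `G * F` for `G` weighted homogeneous of weight `e`. -/
theorem rtk2_comp_WH_mul {G : MvPowerSeries σ R} {e : ℕ} (hG : Rtk2WH w G e)
    (F : MvPowerSeries σ R) (d : ℕ) :
    rtk2Comp w d (G * F) = if e ≤ d then G * rtk2Comp w (d - e) F else 0 := by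
  split_ifs with h
  · obtain ⟨k, rfl⟩ := Nat.exists_eq_add_of_le h
    rw [mul_comm G F, add_comm e k, rtk2_comp_mul_WH hG, Nat.add_sub_cancel, mul_comm]
  · rw [mul_comm G F]
    exact rtk2_comp_mul_WH_lt hG F (by omega)

theorem rtk2_comp_mul (F G : MvPowerSeries σ R) (n : ℕ) :
    rtk2Comp w n (F * G) =
      ∑ p ∈ Finset.HasAntidiagonal.antidiagonal n, rtk2Comp w p.1 F * rtk2Comp w p.2 G := by
  classical
  ext m
  rw [rtk2_coeff_comp, map_sum]
  simp_rw [coeff_mul, rtk2_coeff_comp]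
  rw [Finset.sum_comm]
  by_cases hm : weight w m = n
  · rw [if_pos hm]
    refine Finset.sum_congr rfl fun q hq => ?_
    rw [Finset.HasAntidiagonal.mem_antidiagonal] at hq
    rw [Finset.sum_eq_single (weight w q.1, weight w q.2)]
    · simp
    · intro b _ hb
      by_cases h1 : weight w q.1 = b.1
      · by_cases h2 : weight w q.2 = b.2
        · exact absurd (Prod.ext h1.symm h2.symm) hb
        · rw [if_neg h2, mul_zero]
      · rw [if_neg h1, zero_mul]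
    · intro hnot
      exfalso
      apply hnot
      rw [Finset.HasAntidiagonal.mem_antidiagonal, ← map_add, hq, hm]
  · rw [if_neg hm]
    symm
    refine Finset.sum_eq_zero fun q hq => ?_
    rw [Finset.HasAntidiagonal.mem_antidiagonal] at hq
    refine Finset.sum_eq_zero fun b hb => ?_
    rw [Finset.HasAntidiagonal.mem_antidiagonal] at hb
    by_cases h1 : weight w q.1 = b.1
    · by_cases h2 : weight w q.2 = b.2
      · exfalso
        apply hm
        rw [← hq, map_add, h1, h2, hb]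
      · rw [if_neg h2, mul_zero]
    · rw [if_neg h1, zero_mul]

theorem Rtk2WH.shift {F : MvPowerSeries σ R} {d : ℕ} (h : Rtk2WH w F d) (v : σ) :
    Rtk2WH w (rtk2Shift v F) (d - w v) := by
  intro m hm
  rw [rtk2_coeff_shift] at hm
  have := h _ hm
  rw [map_add, weight_single] at this
  simp only [smul_eq_mul, one_mul] at this
  omega

theorem Rtk2WH.shift_eq_zero {F : MvPowerSeries σ R} {d : ℕ} (h : Rtk2WH w F d) {v : σ}
    (hlt : d < w v) : rtk2Shift v F = 0 := by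
  ext m
  rw [map_zero]
  by_contra hm
  rw [rtk2_coeff_shift] at hm
  have := h _ hm
  rw [map_add, weight_single] at this
  simp only [smul_eq_mul, one_mul] at this
  omega

theorem Rtk2WH.kill {F : MvPowerSeries σ R} {d : ℕ} (h : Rtk2WH w F d) (v : σ) :
    Rtk2WH w (rtk2Kill v F) d := by
  intro m hm
  rw [rtk2_coeff_kill] at hm
  split_ifs at hm
  · exact h m hm
  · exact absurd rfl hm

/-- Free of the variables of positive weight ⇒ homogeneous of weight `0`. -/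
theorem Rtk2Free.wh_zero {V : Set σ} {F : MvPowerSeries σ R} (hF : Rtk2Free V F)
    (hw : ∀ s, s ∉ V → w s = 0) : Rtk2WH w F 0 := by
  intro m hm
  rw [weight_apply]
  refine Finset.sum_eq_zero fun s _ => ?_
  by_cases hs : s ∈ V
  · have : m s = 0 := by
      by_contra h
      exact hm (hF m ⟨s, hs, h⟩)
    show m s • w s = 0
    rw [this, zero_smul]
  · show m s • w s = 0
    rw [hw s hs, smul_zero]

/-- Homogeneous of weight `0` ⇒ free of the variables of positive weight. -/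
theorem Rtk2WH.free {V : Set σ} {F : MvPowerSeries σ R} (hF : Rtk2WH w F 0)
    (hw : ∀ s ∈ V, w s ≠ 0) : Rtk2Free V F := by
  intro m ⟨v, hv, hm⟩
  by_contra hc
  have := hF m hc
  rw [weight_apply] at this
  have h2 := (Finset.sum_eq_zero_iff (s := m.support) (f := fun s => m s • w s)).mp this v
    (Finsupp.mem_support_iff.mpr hm)
  simp only [smul_eq_mul, mul_eq_zero] at h2
  rcases h2 with h2 | h2
  · exact hm h2
  · exact hw v hv h2

end Weights


/-! ## ideals generated by finitely many weighted homogeneous elements -/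

section Span

variable {w : σ → ℕ} {κ : Type*} [Fintype κ] (γ : κ → MvPowerSeries σ R) (e : κ → ℕ)

include e in
/-- The components of an element of a homogeneously generated ideal lie in the ideal. -/
theorem rtk2_comp_mem_span (hγ : ∀ k, Rtk2WH w (γ k) (e k)) {F : MvPowerSeries σ R}
    (hF : F ∈ Ideal.span (Set.range γ)) (d : ℕ) :
    rtk2Comp w d F ∈ Ideal.span (Set.range γ) := by
  obtain ⟨c, rfl⟩ := (Ideal.mem_span_range_iff_exists_fun).mp hF
  rw [map_sum]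
  refine Ideal.sum_mem _ fun k _ => ?_
  rw [mul_comm, rtk2_comp_WH_mul (hγ k)]
  split_ifs
  · exact Ideal.mul_mem_right _ _ (Ideal.subset_span ⟨k, rfl⟩)
  · exact Ideal.zero_mem _

/-- A homogeneous element of a homogeneously generated ideal is a combination of the generators
with homogeneous coefficients. -/
theorem rtk2_exists_WH_coeff (hγ : ∀ k, Rtk2WH w (γ k) (e k)) {F : MvPowerSeries σ R} {d : ℕ}
    (hFd : Rtk2WH w F d) (hF : F ∈ Ideal.span (Set.range γ)) :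
    ∃ c : κ → MvPowerSeries σ R, (∀ k, Rtk2WH w (c k) (d - e k)) ∧ (∀ k, d < e k → c k = 0) ∧
      F = ∑ k, c k * γ k := by
  obtain ⟨c, hc⟩ := (Ideal.mem_span_range_iff_exists_fun).mp hF
  refine ⟨fun k => if e k ≤ d then rtk2Comp w (d - e k) (c k) else 0, ?_, ?_, ?_⟩
  · intro k
    dsimp only
    split_ifs
    · exact rtk2_WH_comp w _ _
    · exact rtk2_WH_zero w _
  · intro k hk
    dsimp only
    rw [if_neg (by omega)]
  · rw [← hFd.comp_eq, ← hc, map_sum]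
    refine Finset.sum_congr rfl fun k _ => ?_
    rw [mul_comm, rtk2_comp_WH_mul (hγ k)]
    dsimp only
    split_ifs
    · rw [mul_comm]
    · rw [zero_mul]

/-- **Closedness**: a homogeneously generated ideal contains every power series all of whose
weighted homogeneous components it contains. -/
theorem rtk2_mem_span_of_comp (hγ : ∀ k, Rtk2WH w (γ k) (e k)) {F : MvPowerSeries σ R}
    (h : ∀ d, rtk2Comp w d F ∈ Ideal.span (Set.range γ)) : F ∈ Ideal.span (Set.range γ) := by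
  choose c hc1 hc2 hc3 using fun d =>
    rtk2_exists_WH_coeff γ e hγ (rtk2_WH_comp w d F) (h d)
  let Ck : κ → MvPowerSeries σ R := fun k m => coeff m (c (weight w m + e k) k)
  have hCk : ∀ k n, rtk2Comp w n (Ck k) = c (n + e k) k := by
    intro k n
    ext m
    rw [rtk2_coeff_comp]
    split_ifs with hm
    · show coeff m (c (weight w m + e k) k) = _
      rw [hm]
    · by_contra hne
      have := hc1 (n + e k) k m (Ne.symm hne)
      rw [Nat.add_sub_cancel] at this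
      exact hm this
  have key : F = ∑ k, Ck k * γ k := by
    refine rtk2_ext_comp (w := w) fun d => ?_
    rw [hc3 d, map_sum]
    refine Finset.sum_congr rfl fun k _ => ?_
    rw [mul_comm (Ck k), rtk2_comp_WH_mul (hγ k)]
    split_ifs with hle
    · rw [hCk, Nat.sub_add_cancel hle, mul_comm]
    · rw [hc2 d k (by omega), zero_mul]
  rw [key]
  exact Ideal.sum_mem _ fun k _ => Ideal.mul_mem_left _ _ (Ideal.subset_span ⟨k, rfl⟩)

end Span

/-! ## the graded primality criterion -/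

section Prime

variable {w : σ → ℕ}

/-- An ideal which is stable under the weighted homogeneous components, closed, proper, and prime
on homogeneous elements is prime. -/
theorem rtk2_isPrime_of_homogeneous (𝔮 : Ideal (MvPowerSeries σ R)) (hne : 𝔮 ≠ ⊤)
    (hcomp : ∀ F ∈ 𝔮, ∀ d, rtk2Comp w d F ∈ 𝔮)
    (hcl : ∀ F, (∀ d, rtk2Comp w d F ∈ 𝔮) → F ∈ 𝔮)
    (hhom : ∀ u v d e, Rtk2WH w u d → Rtk2WH w v e → u * v ∈ 𝔮 → u ∈ 𝔮 ∨ v ∈ 𝔮) :
    𝔮.IsPrime := by
  classical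
  refine (Ideal.isPrime_iff).mpr ⟨hne, ?_⟩
  intro x y hxy
  by_contra hcon
  push Not at hcon
  obtain ⟨hx, hy⟩ := hcon
  have hx' : ∃ d, rtk2Comp w d x ∉ 𝔮 := by
    by_contra h
    push Not at h
    exact hx (hcl x h)
  have hy' : ∃ d, rtk2Comp w d y ∉ 𝔮 := by
    by_contra h
    push Not at h
    exact hy (hcl y h)
  set d₀ := Nat.find hx' with hd₀
  set e₀ := Nat.find hy' with he₀
  have hd₀' : rtk2Comp w d₀ x ∉ 𝔮 := Nat.find_spec hx'
  have he₀' : rtk2Comp w e₀ y ∉ 𝔮 := Nat.find_spec hy'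
  have hdmin : ∀ d, d < d₀ → rtk2Comp w d x ∈ 𝔮 := fun d hd => by
    by_contra h
    exact Nat.find_min hx' hd h
  have hemin : ∀ d, d < e₀ → rtk2Comp w d y ∈ 𝔮 := fun d hd => by
    by_contra h
    exact Nat.find_min hy' hd h
  have h1 := hcomp _ hxy (d₀ + e₀)
  rw [rtk2_comp_mul] at h1
  have hmem : (d₀, e₀) ∈ Finset.HasAntidiagonal.antidiagonal (d₀ + e₀) := by
    rw [Finset.HasAntidiagonal.mem_antidiagonal]
  rw [← Finset.add_sum_erase _ _ hmem] at h1
  have h2 : ∑ p ∈ (Finset.HasAntidiagonal.antidiagonal (d₀ + e₀)).erase (d₀, e₀),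
      rtk2Comp w p.1 x * rtk2Comp w p.2 y ∈ 𝔮 := by
    refine Ideal.sum_mem _ fun p hp => ?_
    rw [Finset.mem_erase, Finset.HasAntidiagonal.mem_antidiagonal] at hp
    obtain ⟨hp1, hp2⟩ := hp
    by_cases h : p.1 < d₀
    · exact Ideal.mul_mem_right _ _ (hdmin _ h)
    · have : p.2 < e₀ := by
        by_contra h'
        apply hp1
        ext <;> simp only <;> omega
      exact Ideal.mul_mem_left _ _ (hemin _ this)
  have h3 : rtk2Comp w d₀ x * rtk2Comp w e₀ y ∈ 𝔮 := by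
    have := Ideal.sub_mem _ h1 h2
    simpa using this
  rcases hhom _ _ d₀ e₀ (rtk2_WH_comp w _ _) (rtk2_WH_comp w _ _) h3 with h | h
  · exact hd₀' h
  · exact he₀' h

end Prime

end Fermat.Agent.RT.K2


end ZBRT_017_0

/-! ### bundled: `Fermat.Agent.RT.K2.FreeGen` -/
section ZBRT_017_1

/-!
# RT-K2: ideals generated by finitely many power series not involving some variables

`Rtk2FreeGen V 𝔟` : the ideal `𝔟` of `MvPowerSeries σ R` is generated by finitely many power series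
which do not involve the variables of `V`.  Such ideals are stable under the divided differences
and under the weighted homogeneous components (for weights supported in `V`), the variables of `V`
are nonzerodivisors modulo `𝔟`, and `𝔟` is closed for the `X_v`-adic topology (`v ∈ V`).
-/

set_option autoImplicit false

namespace Fermat.Agent.RT.K2

open MvPowerSeries Finsupp

variable {σ : Type*} {R : Type*} [CommRing R]

/-- `𝔟` is generated by finitely many power series free of the variables of `V`. -/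
def Rtk2FreeGen (V : Set σ) (𝔟 : Ideal (MvPowerSeries σ R)) : Prop :=
  ∃ (κ : Type) (_ : Fintype κ) (γ : κ → MvPowerSeries σ R),
    𝔟 = Ideal.span (Set.range γ) ∧ ∀ k, Rtk2Free V (γ k)

theorem Rtk2FreeGen.mono {V W : Set σ} {𝔟 : Ideal (MvPowerSeries σ R)} (h : Rtk2FreeGen W 𝔟)
    (hVW : V ⊆ W) : Rtk2FreeGen V 𝔟 := by
  obtain ⟨κ, i, γ, h1, h2⟩ := h
  exact ⟨κ, i, γ, h1, fun k => (h2 k).mono hVW⟩

theorem rtk2_freeGen_bot (V : Set σ) : Rtk2FreeGen V (⊥ : Ideal (MvPowerSeries σ R)) :=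
  ⟨Empty, inferInstance, fun k => k.elim, by
    rw [Set.range_eq_empty, Ideal.span_empty], fun k => k.elim⟩

theorem rtk2_freeGen_span_singleton {V : Set σ} {g : MvPowerSeries σ R} (hg : Rtk2Free V g) :
    Rtk2FreeGen V (Ideal.span {g}) :=
  ⟨Unit, inferInstance, fun _ => g, by simp, fun _ => hg⟩

theorem Rtk2FreeGen.sup {V : Set σ} {𝔟 𝔠 : Ideal (MvPowerSeries σ R)} (h1 : Rtk2FreeGen V 𝔟)
    (h2 : Rtk2FreeGen V 𝔠) : Rtk2FreeGen V (𝔟 ⊔ 𝔠) := by
  obtain ⟨κ, i, γ, hb, hγ⟩ := h1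
  obtain ⟨κ', i', γ', hc, hγ'⟩ := h2
  refine ⟨κ ⊕ κ', inferInstance, Sum.elim γ γ', ?_, ?_⟩
  · rw [Set.Sum.elim_range, Ideal.span_union, hb, hc]
  · rintro (k | k)
    · exact hγ k
    · exact hγ' k

theorem rtk2_freeGen_span_pair {V : Set σ} {g h : MvPowerSeries σ R} (hg : Rtk2Free V g)
    (hh : Rtk2Free V h) : Rtk2FreeGen V (Ideal.span {g, h}) := by
  have : (Ideal.span {g, h} : Ideal (MvPowerSeries σ R)) = Ideal.span {g} ⊔ Ideal.span {h} := by
    rw [← Ideal.span_union]; rfl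
  rw [this]
  exact (rtk2_freeGen_span_singleton hg).sup (rtk2_freeGen_span_singleton hh)

theorem rtk2_freeGen_iSup {V : Set σ} {ι : Type*} (s : Finset ι)
    (𝔟 : ι → Ideal (MvPowerSeries σ R)) (h : ∀ i ∈ s, Rtk2FreeGen V (𝔟 i)) :
    Rtk2FreeGen V (⨆ i ∈ s, 𝔟 i) := by
  classical
  induction s using Finset.induction_on with
  | empty => simpa using rtk2_freeGen_bot V
  | insert a s ha ih =>
    rw [Finset.iSup_insert]
    exact (h a (Finset.mem_insert_self a s)).sup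
      (ih fun i hi => h i (Finset.mem_insert_of_mem hi))

section

variable {V : Set σ} {𝔟 : Ideal (MvPowerSeries σ R)}

theorem Rtk2FreeGen.shift_mem (h : Rtk2FreeGen V 𝔟) {v : σ} (hv : v ∈ V)
    {F : MvPowerSeries σ R} (hF : F ∈ 𝔟) : rtk2Shift v F ∈ 𝔟 := by
  obtain ⟨κ, i, γ, rfl, hγ⟩ := h
  refine rtk2_shift_mem_span ?_ hF
  rintro _ ⟨k, rfl⟩
  exact (hγ k).mono (Set.singleton_subset_iff.mpr hv)

theorem Rtk2FreeGen.kill_mem (h : Rtk2FreeGen V 𝔟) {v : σ} (hv : v ∈ V)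
    {F : MvPowerSeries σ R} (hF : F ∈ 𝔟) : rtk2Kill v F ∈ 𝔟 := by
  unfold rtk2Kill
  exact Ideal.sub_mem _ hF (Ideal.mul_mem_left _ _ (h.shift_mem hv hF))

theorem Rtk2FreeGen.of_X_mul_mem (h : Rtk2FreeGen V 𝔟) {v : σ} (hv : v ∈ V)
    {F : MvPowerSeries σ R} (hF : X v * F ∈ 𝔟) : F ∈ 𝔟 := by
  have := h.shift_mem hv hF
  rwa [rtk2_shift_X_mul] at this

theorem Rtk2FreeGen.of_X_pow_mul_mem (h : Rtk2FreeGen V 𝔟) {v : σ} (hv : v ∈ V) (n : ℕ)
    {F : MvPowerSeries σ R} (hF : X v ^ n * F ∈ 𝔟) : F ∈ 𝔟 := by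
  induction n with
  | zero => simpa using hF
  | succ n ih =>
    apply ih
    apply h.of_X_mul_mem hv
    rw [← mul_assoc, ← pow_succ']
    exact hF

/-- The components for a weight supported in `V` preserve `𝔟`. -/
theorem Rtk2FreeGen.comp_mem (h : Rtk2FreeGen V 𝔟) {w : σ → ℕ} (hw : ∀ s, s ∉ V → w s = 0)
    {F : MvPowerSeries σ R} (hF : F ∈ 𝔟) (d : ℕ) : rtk2Comp w d F ∈ 𝔟 := by
  obtain ⟨κ, i, γ, rfl, hγ⟩ := h
  exact rtk2_comp_mem_span γ (fun _ => 0) (fun k => (hγ k).wh_zero hw) hF d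

/-- `𝔟` is closed: it contains `F` as soon as it contains the components of `F`. -/
theorem Rtk2FreeGen.mem_of_comp (h : Rtk2FreeGen V 𝔟) {w : σ → ℕ} (hw : ∀ s, s ∉ V → w s = 0)
    {F : MvPowerSeries σ R} (hF : ∀ d, rtk2Comp w d F ∈ 𝔟) : F ∈ 𝔟 := by
  obtain ⟨κ, i, γ, rfl, hγ⟩ := h
  exact rtk2_mem_span_of_comp γ (fun _ => 0) (fun k => (hγ k).wh_zero hw) hF

/-- `𝔟` is closed for the `X_v`-adic topology. -/
theorem Rtk2FreeGen.mem_of_forall_pow (h : Rtk2FreeGen V 𝔟) {v : σ} (hv : v ∈ V)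
    {F : MvPowerSeries σ R} (hF : ∀ n : ℕ, ∃ G, F - X v ^ n * G ∈ 𝔟) : F ∈ 𝔟 := by
  classical
  have h' : Rtk2FreeGen {v} 𝔟 := h.mono (Set.singleton_subset_iff.mpr hv)
  let w : σ → ℕ := fun s => if s = v then 1 else 0
  have hw : ∀ s, s ∉ ({v} : Set σ) → w s = 0 := fun s hs => if_neg hs
  refine h'.mem_of_comp hw fun d => ?_
  obtain ⟨G, hG⟩ := hF (d + 1)
  have hX : Rtk2WH w (X v ^ (d + 1) : MvPowerSeries σ R) (d + 1) := by
    have := (rtk2_WH_X (R := R) w v).pow (d + 1)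
    simpa [w] using this
  have h1 := h'.comp_mem hw hG d
  rw [map_sub, rtk2_comp_WH_mul hX, if_neg (by omega), sub_zero] at h1
  exact h1

end

end Fermat.Agent.RT.K2


end ZBRT_017_1

/-! ### bundled: `Fermat.Agent.RT.K2.T1` -/
section ZBRT_017_2

/-!
# RT-K2, step T1: adjoining the quadric `a² + bc`

If `𝔟` is a prime ideal of `MvPowerSeries σ R` generated by finitely many power series which do
not involve the three (distinct) variables `a, b, c`, then `𝔟 + (a² + bc)` is prime.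

Proof: graded reduction (weights `1` on `a, b, c`); division of a homogeneous element by the
quadric (`rtk2_t1_div`); uniqueness of the remainder (`rtk2_t1_unique`); norm trick and parity
in `b` (`rtk2_t1_norm`).
-/

set_option autoImplicit false

namespace Fermat.Agent.RT.K2

open MvPowerSeries Finsupp

variable {σ : Type*} {R : Type*} [CommRing R]

/-- The quadric `a² + bc`. -/
noncomputable def rtk2Quad (a b c : σ) : MvPowerSeries σ R := X a ^ 2 + X b * X c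

section

variable {a b c : σ} {𝔟 : Ideal (MvPowerSeries σ R)}

theorem rtk2_free_bc (hab : a ≠ b) (hac : a ≠ c) :
    Rtk2Free {a} (X b * X c : MvPowerSeries σ R) :=
  (rtk2_free_X (by simpa using hab.symm)).mul (rtk2_free_X (by simpa using hac.symm))

/-- Uniqueness of the remainder of the division by the quadric, modulo `𝔟`. -/
theorem rtk2_t1_unique (hab : a ≠ b) (hac : a ≠ c) (hgen : Rtk2FreeGen {a, b, c} 𝔟)
    {p q : MvPowerSeries σ R} (hp : Rtk2Free {a} p) (hq : Rtk2Free {a} q)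
    (h : p + X a * q ∈ 𝔟 ⊔ Ideal.span {rtk2Quad a b c}) : p ∈ 𝔟 ∧ q ∈ 𝔟 := by
  have haV : a ∈ ({a, b, c} : Set σ) := by simp
  have hbV : b ∈ ({a, b, c} : Set σ) := by simp
  obtain ⟨β, hβ, y, hy, hsum⟩ := Submodule.mem_sup.mp h
  obtain ⟨hh, rfl⟩ := Ideal.mem_span_singleton'.mp hy
  have hfbc := rtk2_free_bc (R := R) hab hac
  -- the operator `T = shift_a²`
  let T : MvPowerSeries σ R → MvPowerSeries σ R := fun F => rtk2Shift a (rtk2Shift a F)
  have hT𝔟 : ∀ F, F ∈ 𝔟 → T F ∈ 𝔟 := fun F hF => hgen.shift_mem haV (hgen.shift_mem haV hF)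
  have hTadd : ∀ F G, T (F + G) = T F + T G := fun F G => by simp only [T, map_add]
  have hTbc : ∀ F, T (X b * X c * F) = X b * X c * T F := fun F => by
    simp only [T]
    rw [rtk2_shift_mul_free hfbc, rtk2_shift_mul_free hfbc]
  have hTquad : ∀ F, T (F * rtk2Quad a b c) = F + X b * X c * T F := fun F => by
    have : F * rtk2Quad a b c = X a * (X a * F) + X b * X c * F := by
      unfold rtk2Quad; ring
    rw [this, hTadd, hTbc]
    simp only [T]
    rw [rtk2_shift_X_mul, rtk2_shift_X_mul]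
  have hT0 : T (p + X a * q) = 0 := by
    simp only [T]
    rw [map_add, rtk2_shift_X_mul, hp.shift_eq_zero, zero_add, hq.shift_eq_zero]
  have hh0 : hh + X b * X c * T hh ∈ 𝔟 := by
    have h1 : T (β + hh * rtk2Quad a b c) = 0 := by rw [hsum, hT0]
    rw [hTadd, hTquad] at h1
    have h2 : hh + X b * X c * T hh = -(T β) := by
      rw [eq_neg_iff_add_eq_zero, add_comm]; exact h1
    rw [h2]
    exact neg_mem (hT𝔟 _ hβ)
  have hseq : ∀ n : ℕ, T^[n] hh + X b * X c * T^[n + 1] hh ∈ 𝔟 := by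
    intro n
    induction n with
    | zero => simpa using hh0
    | succ n ih =>
      have := hT𝔟 _ ih
      rw [hTadd, hTbc] at this
      simp only [Function.iterate_succ_apply'] at this ⊢
      exact this
  have hpow : ∀ n : ℕ, hh - (-(X b * X c)) ^ n * T^[n] hh ∈ 𝔟 := by
    intro n
    induction n with
    | zero => simp
    | succ n ih =>
      have e : hh - (-(X b * X c)) ^ (n + 1) * T^[n + 1] hh =
          (hh - (-(X b * X c)) ^ n * T^[n] hh) +
            (-(X b * X c)) ^ n * (T^[n] hh + X b * X c * T^[n + 1] hh) := by ring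
      rw [e]
      exact Ideal.add_mem _ ih (Ideal.mul_mem_left _ _ (hseq n))
  have hhmem : hh ∈ 𝔟 := by
    refine hgen.mem_of_forall_pow hbV fun n => ⟨(-X c) ^ n * T^[n] hh, ?_⟩
    have e : hh - X b ^ n * ((-X c) ^ n * T^[n] hh) = hh - (-(X b * X c)) ^ n * T^[n] hh := by
      rw [← mul_assoc, ← mul_pow]; congr 2; ring_nf
    rw [e]
    exact hpow n
  have hmem : p + X a * q ∈ 𝔟 := by
    rw [← hsum]
    exact Ideal.add_mem _ hβ (Ideal.mul_mem_right _ _ hhmem)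
  have hqm : q ∈ 𝔟 := by
    have := hgen.shift_mem haV hmem
    rwa [map_add, rtk2_shift_X_mul, hp.shift_eq_zero, zero_add] at this
  refine ⟨?_, hqm⟩
  have := Ideal.sub_mem _ hmem (Ideal.mul_mem_left _ (X a) hqm)
  simpa using this

/-- One step of the parity descent. -/
theorem rtk2_t1_norm_step [h𝔟 : 𝔟.IsPrime] (hbc : b ≠ c) (hgen : Rtk2FreeGen {a, b, c} 𝔟)
    {p q : MvPowerSeries σ R} (h : p ^ 2 + X b * X c * q ^ 2 ∈ 𝔟) :
    rtk2Kill b p ∈ 𝔟 ∧ rtk2Kill b q ∈ 𝔟 ∧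
      (rtk2Shift b p) ^ 2 + X b * X c * (rtk2Shift b q) ^ 2 ∈ 𝔟 := by
  have hbV : b ∈ ({a, b, c} : Set σ) := by simp
  have hcV : c ∈ ({a, b, c} : Set σ) := by simp
  set p₀ := rtk2Kill b p with hp₀
  set p₁ := rtk2Shift b p with hp₁
  set q₀ := rtk2Kill b q with hq₀
  set q₁ := rtk2Shift b q with hq₁
  have hp : p = p₀ + X b * p₁ := (rtk2_kill_add_X_mul_shift b p).symm
  have hq : q = q₀ + X b * q₁ := (rtk2_kill_add_X_mul_shift b q).symm
  have hfp₀ : Rtk2Free {b} p₀ := rtk2_free_kill b p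
  have hfq₀ : Rtk2Free {b} q₀ := rtk2_free_kill b q
  have hfc : Rtk2Free {b} (X c : MvPowerSeries σ R) := rtk2_free_X (by simpa using hbc.symm)
  have hkill : ∀ A B : MvPowerSeries σ R, Rtk2Free {b} A → rtk2Kill b (A + X b * B) = A := by
    intro A B hA
    unfold rtk2Kill
    rw [map_add, rtk2_shift_X_mul, hA.shift_eq_zero]
    ring
  -- first: `p₀² ∈ 𝔟`
  have h1 : p₀ ^ 2 ∈ 𝔟 := by
    have := hgen.kill_mem hbV h
    have e : p ^ 2 + X b * X c * q ^ 2 =
        p₀ ^ 2 + X b * (2 * p₀ * p₁ + X b * p₁ ^ 2 + X c * q ^ 2) := by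
      rw [hp]; ring
    rwa [e, hkill _ _ (hfp₀.pow 2)] at this
  have hp₀m : p₀ ∈ 𝔟 := h𝔟.mem_of_pow_mem 2 h1
  -- second: `X b p₁² + X c q² ∈ 𝔟`
  have h2 : X b * p₁ ^ 2 + X c * q ^ 2 ∈ 𝔟 := by
    apply hgen.of_X_mul_mem hbV
    have e : X b * (X b * p₁ ^ 2 + X c * q ^ 2) =
        (p ^ 2 + X b * X c * q ^ 2) - p₀ * (p₀ + 2 * X b * p₁) := by
      rw [hp]; ring
    rw [e]
    exact Ideal.sub_mem _ h (Ideal.mul_mem_right _ _ hp₀m)
  -- third: `X c q₀² ∈ 𝔟`
  have h3 : X c * q₀ ^ 2 ∈ 𝔟 := by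
    have := hgen.kill_mem hbV h2
    have e : X b * p₁ ^ 2 + X c * q ^ 2 =
        X c * q₀ ^ 2 + X b * (p₁ ^ 2 + X c * (2 * q₀ * q₁ + X b * q₁ ^ 2)) := by
      rw [hq]; ring
    rwa [e, hkill _ _ (hfc.mul (hfq₀.pow 2))] at this
  have hq₀m : q₀ ∈ 𝔟 := h𝔟.mem_of_pow_mem 2 (hgen.of_X_mul_mem hcV h3)
  refine ⟨hp₀m, hq₀m, ?_⟩
  apply hgen.of_X_mul_mem hbV
  have e : X b * (p₁ ^ 2 + X b * X c * q₁ ^ 2) =
      (X b * p₁ ^ 2 + X c * q ^ 2) - X c * q₀ * (q₀ + 2 * X b * q₁) := by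
    rw [hq]; ring
  rw [e]
  exact Ideal.sub_mem _ h2 (Ideal.mul_mem_right _ _ (Ideal.mul_mem_left _ _ hq₀m))

/-- The norm form `p² + bc q²` is anisotropic modulo `𝔟`. -/
theorem rtk2_t1_norm [h𝔟 : 𝔟.IsPrime] (hbc : b ≠ c) (hgen : Rtk2FreeGen {a, b, c} 𝔟)
    {p q : MvPowerSeries σ R} (h : p ^ 2 + X b * X c * q ^ 2 ∈ 𝔟) : p ∈ 𝔟 ∧ q ∈ 𝔟 := by
  have hbV : b ∈ ({a, b, c} : Set σ) := by simp
  have hit : ∀ n : ℕ, ((rtk2Shift b)^[n] p) ^ 2 + X b * X c * ((rtk2Shift b)^[n] q) ^ 2 ∈ 𝔟 := by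
    intro n
    induction n with
    | zero => simpa using h
    | succ n ih =>
      rw [Function.iterate_succ_apply', Function.iterate_succ_apply']
      exact (rtk2_t1_norm_step hbc hgen ih).2.2
  have hk : ∀ (r : MvPowerSeries σ R), (∀ n : ℕ, rtk2Kill b ((rtk2Shift b)^[n] r) ∈ 𝔟) →
      r ∈ 𝔟 := by
    intro r hr
    refine hgen.mem_of_forall_pow hbV fun n => ⟨(rtk2Shift b)^[n] r, ?_⟩
    induction n with
    | zero => simp
    | succ n ih =>
      have e : r - X b ^ (n + 1) * (rtk2Shift b)^[n + 1] r =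
          (r - X b ^ n * (rtk2Shift b)^[n] r) + X b ^ n * rtk2Kill b ((rtk2Shift b)^[n] r) := by
        rw [Function.iterate_succ_apply']
        unfold rtk2Kill
        ring
      rw [e]
      exact Ideal.add_mem _ ih (Ideal.mul_mem_left _ _ (hr n))
  exact ⟨hk p fun n => (rtk2_t1_norm_step hbc hgen (hit n)).1,
    hk q fun n => (rtk2_t1_norm_step hbc hgen (hit n)).2.1⟩

/-- Division of a weighted homogeneous element by the quadric. -/
theorem rtk2_t1_div (hab : a ≠ b) (hac : a ≠ c) {w : σ → ℕ} (hwa : w a = 1) :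
    ∀ (d : ℕ) (u : MvPowerSeries σ R), Rtk2WH w u d →
      ∃ u₀ u₁ : MvPowerSeries σ R, Rtk2Free {a} u₀ ∧ Rtk2Free {a} u₁ ∧
        u - (u₀ + X a * u₁) ∈ Ideal.span {rtk2Quad a b c} := by
  intro d
  induction d using Nat.strong_induction_on with
  | _ d ih =>
    intro u hu
    set s := rtk2Shift a u with hs
    set t := rtk2Shift a s with ht
    have hsW : Rtk2WH w s (d - 1) := by have := hu.shift a; rwa [hwa] at this
    have htW : Rtk2WH w t (d - 1 - 1) := by have := hsW.shift a; rwa [hwa] at this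
    have hu' : u = rtk2Kill a u + X a * rtk2Kill a s + X a ^ 2 * t := by
      have h1 := rtk2_kill_add_X_mul_shift a u
      have h2 := rtk2_kill_add_X_mul_shift a s
      calc u = rtk2Kill a u + X a * s := h1.symm
        _ = rtk2Kill a u + X a * (rtk2Kill a s + X a * t) := by rw [h2]
        _ = _ := by ring
    by_cases hd : d < 2
    · have ht0 : t = 0 := by
        by_cases hd0 : d = 0
        · have : s = 0 := hu.shift_eq_zero (by omega)
          rw [ht, this, map_zero]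
        · exact hsW.shift_eq_zero (by omega)
      refine ⟨rtk2Kill a u, rtk2Kill a s, rtk2_free_kill a u, rtk2_free_kill a s, ?_⟩
      have : u - (rtk2Kill a u + X a * rtk2Kill a s) = 0 := by
        rw [ht0, mul_zero, add_zero] at hu'
        rw [← hu', sub_self]
      rw [this]
      exact Ideal.zero_mem _
    · obtain ⟨t₀, t₁, ht₀, ht₁, hmem⟩ := ih (d - 1 - 1) (by omega) t htW
      have hfbc := rtk2_free_bc (R := R) hab hac
      refine ⟨rtk2Kill a u - X b * X c * t₀, rtk2Kill a s - X b * X c * t₁,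
        (rtk2_free_kill a u).sub (hfbc.mul ht₀), (rtk2_free_kill a s).sub (hfbc.mul ht₁), ?_⟩
      have e : u - (rtk2Kill a u - X b * X c * t₀ + X a * (rtk2Kill a s - X b * X c * t₁)) =
          t * rtk2Quad a b c - X b * X c * (t - (t₀ + X a * t₁)) := by
        have : u - (rtk2Kill a u + X a * rtk2Kill a s) = X a ^ 2 * t := by
          rw [sub_eq_iff_eq_add]; rw [add_comm]; exact hu'
        unfold rtk2Quad
        linear_combination this
      rw [e]
      exact Ideal.sub_mem _ (Ideal.mul_mem_left _ _ (Ideal.mem_span_singleton_self _))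
        (Ideal.mul_mem_left _ _ hmem)

/-- **T1**: if the prime `𝔟` is generated by finitely many power series not involving the
distinct variables `a, b, c`, then `𝔟 + (a² + bc)` is prime. -/
theorem rtk2_t1 (hab : a ≠ b) (hac : a ≠ c) (hbc : b ≠ c) [h𝔟 : 𝔟.IsPrime]
    (hgen : Rtk2FreeGen {a, b, c} 𝔟) : (𝔟 ⊔ Ideal.span {rtk2Quad a b c}).IsPrime := by
  classical
  have haV : a ∈ ({a, b, c} : Set σ) := by simp
  have hbV : b ∈ ({a, b, c} : Set σ) := by simp
  have hcV : c ∈ ({a, b, c} : Set σ) := by simp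
  let w : σ → ℕ := fun s => if s ∈ ({a, b, c} : Set σ) then 1 else 0
  have hw : ∀ s, s ∉ ({a, b, c} : Set σ) → w s = 0 := fun s hs => if_neg hs
  have hwa : w a = 1 := if_pos haV
  have hwb : w b = 1 := if_pos hbV
  have hwc : w c = 1 := if_pos hcV
  have hquadW : Rtk2WH w (rtk2Quad a b c : MvPowerSeries σ R) 2 := by
    unfold rtk2Quad
    have h1 := (rtk2_WH_X (R := R) w a).pow 2
    have h2 := (rtk2_WH_X (R := R) w b).mul (rtk2_WH_X (R := R) w c)
    rw [hwa] at h1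
    rw [hwb, hwc] at h2
    exact h1.add h2
  obtain ⟨κ, iκ, γ, h𝔟eq, hγ⟩ := hgen
  have hgen : Rtk2FreeGen {a, b, c} 𝔟 := ⟨κ, iκ, γ, h𝔟eq, hγ⟩
  set Q : Ideal (MvPowerSeries σ R) := Ideal.span {rtk2Quad a b c} with hQ
  have hspan : 𝔟 ⊔ Q = Ideal.span (Set.range (Sum.elim γ (fun _ : Unit => rtk2Quad a b c))) := by
    rw [Set.Sum.elim_range, Ideal.span_union, ← h𝔟eq]
    simp [hQ]
  have hWH : ∀ k : κ ⊕ Unit, Rtk2WH w (Sum.elim γ (fun _ : Unit => rtk2Quad a b c) k)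
      (Sum.elim (fun _ => 0) (fun _ => 2) k) := by
    rintro (k | k)
    · exact (hγ k).wh_zero hw
    · exact hquadW
  refine rtk2_isPrime_of_homogeneous (w := w) _ ?_ ?_ ?_ ?_
  · -- proper
    intro htop
    have h1 : (1 : MvPowerSeries σ R) ∈ 𝔟 ⊔ Q := by rw [htop]; trivial
    obtain ⟨β, hβ, y, hy, hsum⟩ := Submodule.mem_sup.mp h1
    obtain ⟨hh, rfl⟩ := Ideal.mem_span_singleton'.mp hy
    have := congrArg (rtk2Comp w 0) hsum
    rw [map_add, rtk2_comp_mul_WH_lt hquadW hh (by omega), add_zero,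
      (rtk2_WH_one w).comp_eq] at this
    exact h𝔟.ne_top ((Ideal.eq_top_iff_one _).mpr (this ▸ hgen.comp_mem hw hβ 0))
  · intro F hF d
    rw [hspan] at hF ⊢
    exact rtk2_comp_mem_span _ _ hWH hF d
  · intro F hF
    rw [hspan] at hF ⊢
    exact rtk2_mem_span_of_comp _ _ hWH hF
  · intro u v d e hu hv huv
    obtain ⟨u₀, u₁, hu₀, hu₁, hudiv⟩ := rtk2_t1_div (b := b) (c := c) hab hac hwa d u hu
    obtain ⟨v₀, v₁, hv₀, hv₁, hvdiv⟩ := rtk2_t1_div (b := b) (c := c) hab hac hwa e v hv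
    have hfbc := rtk2_free_bc (R := R) hab hac
    have hQle : Q ≤ 𝔟 ⊔ Q := le_sup_right
    have h𝔟le : 𝔟 ≤ 𝔟 ⊔ Q := le_sup_left
    -- the product of the remainders
    have hPQ : (u₀ * v₀ - X b * X c * (u₁ * v₁)) + X a * (u₀ * v₁ + u₁ * v₀) ∈ 𝔟 ⊔ Q := by
      have e1 : (u₀ * v₀ - X b * X c * (u₁ * v₁)) + X a * (u₀ * v₁ + u₁ * v₀) =
          u * v - (u - (u₀ + X a * u₁)) * v - (u₀ + X a * u₁) * (v - (v₀ + X a * v₁))
            - (u₁ * v₁) * rtk2Quad a b c := by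
        unfold rtk2Quad; ring
      rw [e1]
      refine Ideal.sub_mem _ (Ideal.sub_mem _ (Ideal.sub_mem _ huv ?_) ?_) ?_
      · exact Ideal.mul_mem_right _ _ (hQle hudiv)
      · exact Ideal.mul_mem_left _ _ (hQle hvdiv)
      · exact Ideal.mul_mem_left _ _ (hQle (Ideal.mem_span_singleton_self _))
    obtain ⟨hP, hQ0⟩ := rtk2_t1_unique hab hac hgen
      ((hu₀.mul hv₀).sub (hfbc.mul (hu₁.mul hv₁))) ((hu₀.mul hv₁).add (hu₁.mul hv₀)) hPQ
    have hkey : u₁ * (v₀ ^ 2 + X b * X c * v₁ ^ 2) ∈ 𝔟 := by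
      have e2 : u₁ * (v₀ ^ 2 + X b * X c * v₁ ^ 2) =
          v₀ * (u₀ * v₁ + u₁ * v₀) - v₁ * (u₀ * v₀ - X b * X c * (u₁ * v₁)) := by ring
      rw [e2]
      exact Ideal.sub_mem _ (Ideal.mul_mem_left _ _ hQ0) (Ideal.mul_mem_left _ _ hP)
    have hu_of : u₀ ∈ 𝔟 → u₁ ∈ 𝔟 → u ∈ 𝔟 ⊔ Q := by
      intro h0 h1
      have : u = (u - (u₀ + X a * u₁)) + (u₀ + X a * u₁) := by ring
      rw [this]
      exact Ideal.add_mem _ (hQle hudiv)
        (h𝔟le (Ideal.add_mem _ h0 (Ideal.mul_mem_left _ _ h1)))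
    have hv_of : v₀ ∈ 𝔟 → v₁ ∈ 𝔟 → v ∈ 𝔟 ⊔ Q := by
      intro h0 h1
      have : v = (v - (v₀ + X a * v₁)) + (v₀ + X a * v₁) := by ring
      rw [this]
      exact Ideal.add_mem _ (hQle hvdiv)
        (h𝔟le (Ideal.add_mem _ h0 (Ideal.mul_mem_left _ _ h1)))
    rcases h𝔟.mem_or_mem hkey with h1 | h1
    · -- `u₁ ∈ 𝔟`
      have h2 : u₀ * v₀ ∈ 𝔟 := by
        have := Ideal.add_mem _ hP (Ideal.mul_mem_left _ (X b * X c)
          (Ideal.mul_mem_right v₁ _ h1))
        simpa using this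
      have h3 : u₀ * v₁ ∈ 𝔟 := by
        have := Ideal.sub_mem _ hQ0 (Ideal.mul_mem_right v₀ _ h1)
        simpa using this
      rcases h𝔟.mem_or_mem h2 with h4 | h4
      · exact Or.inl (hu_of h4 h1)
      · rcases h𝔟.mem_or_mem h3 with h5 | h5
        · exact Or.inl (hu_of h5 h1)
        · exact Or.inr (hv_of h4 h5)
    · obtain ⟨h4, h5⟩ := rtk2_t1_norm hbc hgen h1
      exact Or.inr (hv_of h4 h5)

end

end Fermat.Agent.RT.K2


end ZBRT_017_2

/-! ### bundled: `Fermat.Agent.RT.K2.A1` -/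
section ZBRT_017_3

/-!
# RT-K2, step A1: adjoining the `2 × 2` minors (a regular sequence is of linear type)

Let `𝔞` be a prime ideal of `MvPowerSeries σ R` generated by finitely many power series not
involving the three variables `x, y, z`, and let `a, b, c` be three further variables such that
`X a, X b, X c` is a regular sequence modulo `𝔞`.  Then the ideal
`𝔞 + (b x − a y, c x − a z, c y − b z)` is prime (`rtk2_a1`).

Proof: the ideal is homogeneous for the weights `1` on `x, y, z`; a homogeneous `u` lies in it iff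
`u(a, b, c) ∈ 𝔞` (`rtk2_a1_K`, by three nested inductions on the weight).
-/

set_option autoImplicit false

namespace Fermat.Agent.RT.K2

open MvPowerSeries Finsupp

variable {σ : Type*} {R : Type*} [CommRing R]

theorem Rtk2Free.insert {v : σ} {V : Set σ} {F : MvPowerSeries σ R} (hv : Rtk2Free {v} F)
    (hV : Rtk2Free V F) : Rtk2Free (insert v V) F := by
  rintro m ⟨u, hu | hu, hm⟩
  · exact hv m ⟨u, hu, hm⟩
  · exact hV m ⟨u, hu, hm⟩

/-! ## the evaluation `x ↦ a, y ↦ b, z ↦ c` -/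

section Ev

open Classical in
/-- The renaming `x ↦ a, y ↦ b, z ↦ c` of the variables. -/
noncomputable def rtk2E (x y z a b c : σ) : σ → σ :=
  fun s => if s = x then a else if s = y then b else if s = z then c else s

theorem rtk2_E_tendsto (x y z a b c : σ) : Filter.TendstoCofinite (rtk2E x y z a b c) := by
  refine (Filter.tendstoCofinite_iff_finite_preimage_singleton _).mpr fun t => ?_
  refine Set.Finite.subset (s := {t, x, y, z}) (Set.toFinite _) ?_
  intro s hs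
  simp only [Set.mem_preimage, Set.mem_singleton_iff] at hs
  unfold rtk2E at hs
  simp only [Set.mem_insert_iff, Set.mem_singleton_iff]
  split_ifs at hs with h1 h2 h3
  · right; left; exact h1
  · right; right; left; exact h2
  · right; right; right; exact h3
  · left; exact hs

theorem rtk2_E_of_not_mem {x y z a b c s : σ} (hs : s ∉ ({x, y, z} : Set σ)) :
    rtk2E x y z a b c s = s := by
  unfold rtk2E
  simp only [Set.mem_insert_iff, Set.mem_singleton_iff, not_or] at hs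
  rw [if_neg hs.1, if_neg hs.2.1, if_neg hs.2.2]

theorem rtk2_E_not_mem {x y z a b c : σ} (ha : a ∉ ({x, y, z} : Set σ))
    (hb : b ∉ ({x, y, z} : Set σ)) (hc : c ∉ ({x, y, z} : Set σ)) (s : σ) :
    rtk2E x y z a b c s ∉ ({x, y, z} : Set σ) := by
  unfold rtk2E
  split_ifs with h1 h2 h3
  · exact ha
  · exact hb
  · exact hc
  · simp only [Set.mem_insert_iff, Set.mem_singleton_iff, not_or]
    exact ⟨h1, h2, h3⟩

/-- The evaluation `F ↦ F(x := a, y := b, z := c)`. -/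
noncomputable def rtk2Ev (x y z a b c : σ) : MvPowerSeries σ R →+* MvPowerSeries σ R :=
  haveI := rtk2_E_tendsto x y z a b c
  (rename (rtk2E x y z a b c) : MvPowerSeries σ R →ₐ[R] MvPowerSeries σ R).toRingHom

theorem rtk2_ev_X (x y z a b c s : σ) :
    rtk2Ev x y z a b c (X s : MvPowerSeries σ R) = X (rtk2E x y z a b c s) := by
  haveI := rtk2_E_tendsto x y z a b c
  exact rename_X _ s

theorem rtk2_ev_free {x y z a b c : σ} (ha : a ∉ ({x, y, z} : Set σ))
    (hb : b ∉ ({x, y, z} : Set σ)) (hc : c ∉ ({x, y, z} : Set σ)) {F : MvPowerSeries σ R}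
    (hF : Rtk2Free {x, y, z} F) : rtk2Ev x y z a b c F = F := by
  classical
  haveI := rtk2_E_tendsto x y z a b c
  have hfix : ∀ m' : σ →₀ ℕ, (∀ v ∈ ({x, y, z} : Set σ), m' v = 0) →
      mapDomain (rtk2E x y z a b c) m' = m' := by
    intro m' hm'
    have : mapDomain (rtk2E x y z a b c) m' = mapDomain id m' := by
      refine mapDomain_congr fun s hs => ?_
      rw [id]
      refine rtk2_E_of_not_mem fun hsV => ?_
      exact (Finsupp.mem_support_iff.mp hs) (hm' s hsV)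
    rw [this, mapDomain_id]
  ext m
  show coeff m (rename (rtk2E x y z a b c) F) = coeff m F
  rw [coeff_rename]
  by_cases hm : ∃ v ∈ ({x, y, z} : Set σ), m v ≠ 0
  · rw [hF m hm]
    refine Finset.sum_eq_zero fun m' hm' => ?_
    exfalso
    rw [Set.Finite.mem_toFinset, Set.mem_preimage, Set.mem_singleton_iff] at hm'
    obtain ⟨v, hv, hmv⟩ := hm
    apply hmv
    rw [← hm']
    refine mapDomain_of_notMem_range _ _ ?_
    rintro ⟨s, hs⟩
    exact rtk2_E_not_mem ha hb hc s (hs ▸ hv)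
  · push Not at hm
    rw [Finset.sum_eq_single m]
    · intro m' hm' hne
      rw [Set.Finite.mem_toFinset, Set.mem_preimage, Set.mem_singleton_iff] at hm'
      by_cases hfree : ∀ v ∈ ({x, y, z} : Set σ), m' v = 0
      · exact absurd ((hfix m' hfree).symm.trans hm') hne
      · push Not at hfree
        exact hF m' hfree
    · intro hnot
      exfalso
      apply hnot
      rw [Set.Finite.mem_toFinset, Set.mem_preimage, Set.mem_singleton_iff]
      exact hfix m hm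

end Ev

/-! ## the minors -/

/-- The minor `b x − a y`. -/
noncomputable def rtk2Mi (x y a b : σ) : MvPowerSeries σ R := X b * X x - X a * X y

/-- The hypotheses of step A1, bundled. -/
structure Rtk2Rees (x y z a b c : σ) (𝔞 : Ideal (MvPowerSeries σ R)) (w : σ → ℕ)
    (ev : MvPowerSeries σ R →+* MvPowerSeries σ R) : Prop where
  hxy : x ≠ y
  hxz : x ≠ z
  hyz : y ≠ z
  ha : a ∉ ({x, y, z} : Set σ)
  hb : b ∉ ({x, y, z} : Set σ)
  hc : c ∉ ({x, y, z} : Set σ)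
  wx : w x = 1
  wy : w y = 1
  wz : w z = 1
  w0 : ∀ s, s ∉ ({x, y, z} : Set σ) → w s = 0
  gen : Rtk2FreeGen {x, y, z} 𝔞
  ev_x : ev (X x) = X a
  ev_y : ev (X y) = X b
  ev_z : ev (X z) = X c
  ev_free : ∀ F, Rtk2Free {x, y, z} F → ev F = F
  H1 : ∀ F, X a * F ∈ 𝔞 → F ∈ 𝔞
  H2 : ∀ F, X b * F ∈ 𝔞 ⊔ Ideal.span {X a} → F ∈ 𝔞 ⊔ Ideal.span {X a}
  H3 : ∀ F, X c * F ∈ 𝔞 ⊔ Ideal.span {X a, X b} → F ∈ 𝔞 ⊔ Ideal.span {X a, X b}

namespace Rtk2Rees

variable {x y z a b c : σ} {𝔞 : Ideal (MvPowerSeries σ R)} {w : σ → ℕ}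
  {ev : MvPowerSeries σ R →+* MvPowerSeries σ R} (D : Rtk2Rees x y z a b c 𝔞 w ev)

include D

theorem wpos : ∀ s ∈ ({x, y, z} : Set σ), w s ≠ 0 := by
  intro s hs
  simp only [Set.mem_insert_iff, Set.mem_singleton_iff] at hs
  rcases hs with rfl | rfl | rfl
  · rw [D.wx]; exact one_ne_zero
  · rw [D.wy]; exact one_ne_zero
  · rw [D.wz]; exact one_ne_zero

theorem free_a : Rtk2Free {x, y, z} (X a : MvPowerSeries σ R) := rtk2_free_X D.ha
theorem free_b : Rtk2Free {x, y, z} (X b : MvPowerSeries σ R) := rtk2_free_X D.hb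
theorem free_c : Rtk2Free {x, y, z} (X c : MvPowerSeries σ R) := rtk2_free_X D.hc

theorem ev_a : ev (X a) = X a := D.ev_free _ D.free_a
theorem ev_b : ev (X b) = X b := D.ev_free _ D.free_b
theorem ev_c : ev (X c) = X c := D.ev_free _ D.free_c

theorem wh_a : Rtk2WH w (X a : MvPowerSeries σ R) 0 := D.free_a.wh_zero D.w0
theorem wh_b : Rtk2WH w (X b : MvPowerSeries σ R) 0 := D.free_b.wh_zero D.w0
theorem wh_c : Rtk2WH w (X c : MvPowerSeries σ R) 0 := D.free_c.wh_zero D.w0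

theorem wh_x : Rtk2WH w (X x : MvPowerSeries σ R) 1 := by
  have := rtk2_WH_X (R := R) w x; rwa [D.wx] at this
theorem wh_y : Rtk2WH w (X y : MvPowerSeries σ R) 1 := by
  have := rtk2_WH_X (R := R) w y; rwa [D.wy] at this
theorem wh_z : Rtk2WH w (X z : MvPowerSeries σ R) 1 := by
  have := rtk2_WH_X (R := R) w z; rwa [D.wz] at this

theorem ev_mem {α : MvPowerSeries σ R} (hα : α ∈ 𝔞) : ev α ∈ 𝔞 := by
  obtain ⟨κ, i, γ, rfl, hγ⟩ := D.gen
  obtain ⟨cf, rfl⟩ := (Ideal.mem_span_range_iff_exists_fun).mp hα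
  rw [map_sum]
  refine Ideal.sum_mem _ fun k _ => ?_
  rw [map_mul, D.ev_free _ (hγ k)]
  exact Ideal.mul_mem_left _ _ (Ideal.subset_span ⟨k, rfl⟩)

theorem ev_wh0 {u : MvPowerSeries σ R} (hu : Rtk2WH w u 0) : ev u = u :=
  D.ev_free _ (hu.free D.wpos)

theorem eq_zero {u : MvPowerSeries σ R} {n : ℕ} (hu : Rtk2WH w u (n + 1))
    (hfree : Rtk2Free {x, y, z} u) : u = 0 :=
  hu.eq_zero_of_ne (hfree.wh_zero D.w0) (by omega)

theorem comp0_mem {α : MvPowerSeries σ R} (hα : α ∈ 𝔞) : rtk2Comp w 0 α ∈ 𝔞 :=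
  D.gen.comp_mem D.w0 hα 0

/-- peeling `z` off an element free of `x, y`. -/
theorem peel_z {u : MvPowerSeries σ R} {n : ℕ} (hu : Rtk2WH w u (n + 1))
    (hfree : Rtk2Free {x, y} u) :
    u = X z * rtk2Shift z u ∧ Rtk2WH w (rtk2Shift z u) n ∧ Rtk2Free {x, y} (rtk2Shift z u) := by
  have h0 : rtk2Kill z u = 0 := by
    refine D.eq_zero (hu.kill z) ?_
    have h1 : Rtk2Free {z} (rtk2Kill z u) := rtk2_free_kill z u
    have h2 : Rtk2Free {x, y} (rtk2Kill z u) := hfree.kill z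
    have h3 : Rtk2Free {x} (rtk2Kill z u) := h2.mono (by simp)
    have h4 : Rtk2Free {y} (rtk2Kill z u) := h2.mono (by simp)
    exact h3.insert (h4.insert h1)
  refine ⟨?_, ?_, hfree.shift z⟩
  · have := rtk2_kill_add_X_mul_shift z u
    rw [h0, zero_add] at this
    exact this.symm
  · have := hu.shift z
    rwa [D.wz, Nat.add_sub_cancel] at this

/-- **K₁** -/
theorem stepK1 : ∀ (n : ℕ) (u : MvPowerSeries σ R), Rtk2WH w u n → Rtk2Free {x, y} u →
    ev u ∈ 𝔞 ⊔ Ideal.span {X a, X b} →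
    ∃ α h' h'' : MvPowerSeries σ R, α ∈ 𝔞 ∧ Rtk2WH w h' n ∧ Rtk2Free {x, y} h' ∧
      Rtk2WH w h'' n ∧ Rtk2Free {x, y} h'' ∧ u = α + X a * h' + X b * h'' := by
  intro n
  induction n with
  | zero =>
    intro u hu _ hev
    rw [D.ev_wh0 hu] at hev
    obtain ⟨α, hα, β, hβ, hsum⟩ := Submodule.mem_sup.mp hev
    obtain ⟨p, q, rfl⟩ := Ideal.mem_span_pair.mp hβ
    have hsub : ({x, y} : Set σ) ⊆ {x, y, z} := by
      intro s hs
      simp only [Set.mem_insert_iff, Set.mem_singleton_iff] at hs ⊢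
      rcases hs with h | h
      · exact Or.inl h
      · exact Or.inr (Or.inl h)
    refine ⟨rtk2Comp w 0 α, rtk2Comp w 0 p, rtk2Comp w 0 q, D.comp0_mem hα,
      rtk2_WH_comp w 0 p, ((rtk2_WH_comp w 0 p).free D.wpos).mono hsub,
      rtk2_WH_comp w 0 q, ((rtk2_WH_comp w 0 q).free D.wpos).mono hsub, ?_⟩
    have h1 := congrArg (rtk2Comp w 0) hsum
    rw [hu.comp_eq, map_add, map_add] at h1
    have h2 : rtk2Comp w 0 (p * X a) = rtk2Comp w 0 p * X a :=
      rtk2_comp_mul_WH (d := 0) D.wh_a p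
    have h3 : rtk2Comp w 0 (q * X b) = rtk2Comp w 0 q * X b :=
      rtk2_comp_mul_WH (d := 0) D.wh_b q
    rw [h2, h3] at h1
    rw [← h1]
    ring
  | succ n ih =>
    intro u hu hfree hev
    obtain ⟨hz, hW, hF⟩ := D.peel_z hu hfree
    have hev' : ev (rtk2Shift z u) ∈ 𝔞 ⊔ Ideal.span {X a, X b} := by
      apply D.H3
      rw [← D.ev_z, ← map_mul, ← hz]
      exact hev
    obtain ⟨α, h', h'', hα, hh'W, hh'F, hh''W, hh''F, hsum⟩ := ih _ hW hF hev'
    have hzF : Rtk2Free {x, y} (X z : MvPowerSeries σ R) := by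
      refine rtk2_free_X ?_
      simp only [Set.mem_insert_iff, Set.mem_singleton_iff, not_or]
      exact ⟨D.hxz.symm, D.hyz.symm⟩
    have hWz : ∀ {G : MvPowerSeries σ R}, Rtk2WH w G n → Rtk2WH w (X z * G) (n + 1) := by
      intro G hG
      have := D.wh_z.mul hG
      rwa [add_comm] at this
    refine ⟨X z * α, X z * h', X z * h'', Ideal.mul_mem_left _ _ hα, hWz hh'W, hzF.mul hh'F,
      hWz hh''W, hzF.mul hh''F, ?_⟩
    rw [hz, hsum]
    ring

theorem ev_m3 : ev (rtk2Mi y z b c : MvPowerSeries σ R) = 0 := by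
  unfold rtk2Mi
  rw [map_sub, map_mul, map_mul, D.ev_y, D.ev_z, D.ev_b, D.ev_c]
  ring

theorem ev_m2 : ev (rtk2Mi x z a c : MvPowerSeries σ R) = 0 := by
  unfold rtk2Mi
  rw [map_sub, map_mul, map_mul, D.ev_x, D.ev_z, D.ev_a, D.ev_c]
  ring

theorem ev_m1 : ev (rtk2Mi x y a b : MvPowerSeries σ R) = 0 := by
  unfold rtk2Mi
  rw [map_sub, map_mul, map_mul, D.ev_x, D.ev_y, D.ev_a, D.ev_b]
  ring

theorem free_y_x : Rtk2Free {x} (X y : MvPowerSeries σ R) :=
  rtk2_free_X (by simpa using D.hxy.symm)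

/-- **K₂** -/
theorem stepK2 : ∀ (n : ℕ) (u : MvPowerSeries σ R), Rtk2WH w u n → Rtk2Free {x} u →
    ev u ∈ 𝔞 ⊔ Ideal.span {X a} →
    ∃ α G H : MvPowerSeries σ R, α ∈ 𝔞 ∧ Rtk2WH w G n ∧ Rtk2Free {x} G ∧
      u = α + X a * G + rtk2Mi y z b c * H := by
  have hle : 𝔞 ⊔ Ideal.span {X a} ≤ 𝔞 ⊔ Ideal.span {(X a : MvPowerSeries σ R), X b} :=
    sup_le_sup_left (Ideal.span_mono (by simp)) _
  intro n
  induction n with
  | zero =>
    intro u hu _ hev
    rw [D.ev_wh0 hu] at hev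
    obtain ⟨α, hα, β, hβ, hsum⟩ := Submodule.mem_sup.mp hev
    obtain ⟨p, rfl⟩ := Ideal.mem_span_singleton'.mp hβ
    refine ⟨rtk2Comp w 0 α, rtk2Comp w 0 p, 0, D.comp0_mem hα, rtk2_WH_comp w 0 p,
      ((rtk2_WH_comp w 0 p).free D.wpos).mono (by simp), ?_⟩
    have h1 := congrArg (rtk2Comp w 0) hsum
    rw [hu.comp_eq, map_add] at h1
    have h2 : rtk2Comp w 0 (p * X a) = rtk2Comp w 0 p * X a :=
      rtk2_comp_mul_WH (d := 0) D.wh_a p
    rw [h2] at h1
    rw [← h1]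
    ring
  | succ n ih =>
    intro u hu hfree hev
    set u₁ := rtk2Shift y u with hu₁
    set u₂ := rtk2Kill y u with hu₂
    have hdec : u = u₂ + X y * u₁ := (rtk2_kill_add_X_mul_shift y u).symm
    have hu₁W : Rtk2WH w u₁ n := by
      have := hu.shift y
      rwa [D.wy, Nat.add_sub_cancel] at this
    have hu₁F : Rtk2Free {x} u₁ := hfree.shift y
    have hu₂W : Rtk2WH w u₂ (n + 1) := hu.kill y
    have hu₂F : Rtk2Free {x, y} u₂ := (hfree.kill y).insert (rtk2_free_kill y u)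
    have hev₂ : ev u₂ ∈ 𝔞 ⊔ Ideal.span {X a, X b} := by
      have e : ev u₂ = ev u - X b * ev u₁ := by
        rw [hdec, map_add, map_mul, D.ev_y]; ring
      rw [e]
      refine Ideal.sub_mem _ (hle hev) (Ideal.mem_sup_right ?_)
      exact Ideal.mul_mem_right _ _ (Ideal.subset_span (by simp))
    obtain ⟨α, h', h'', hα, hh'W, hh'F, hh''W, hh''F, hsum⟩ := D.stepK1 _ u₂ hu₂W hu₂F hev₂
    obtain ⟨hz, hh₃W, hh₃F⟩ := D.peel_z hh''W hh''F
    set h₃ := rtk2Shift z h'' with hh₃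
    obtain ⟨u₁', hu₁'⟩ : ∃ v, v = u₁ + X c * h₃ := ⟨_, rfl⟩
    have hu₁'W : Rtk2WH w u₁' n := by
      have := D.wh_c.mul hh₃W
      rw [zero_add] at this
      rw [hu₁']
      exact hu₁W.add this
    have hcx : Rtk2Free {x} (X c : MvPowerSeries σ R) := D.free_c.mono (by simp)
    have hu₁'F : Rtk2Free {x} u₁' := by
      rw [hu₁']
      exact hu₁F.add (hcx.mul (hh₃F.mono (by simp)))
    have hid : u = X y * u₁' + α + X a * h' - rtk2Mi y z b c * h₃ := by
      have e1 : X b * h'' = X b * (X z * h₃) := by rw [← hz]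
      rw [hdec, hsum, e1, hu₁']
      unfold rtk2Mi
      ring
    have hev₁ : ev u₁' ∈ 𝔞 ⊔ Ideal.span {X a} := by
      apply D.H2
      have e : X b * ev u₁' = ev u - ev α - X a * ev h' := by
        conv_rhs => rw [hid]
        simp only [map_sub, map_add, map_mul, D.ev_m3, D.ev_y, D.ev_a]
        ring
      rw [e]
      refine Ideal.sub_mem _ (Ideal.sub_mem _ hev (Ideal.mem_sup_left (D.ev_mem hα)))
        (Ideal.mem_sup_right ?_)
      exact Ideal.mul_mem_right _ _ (Ideal.subset_span (by simp))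
    obtain ⟨α₁, G₁, H₁, hα₁, hG₁W, hG₁F, hsum₁⟩ := ih u₁' hu₁'W hu₁'F hev₁
    refine ⟨X y * α₁ + α, X y * G₁ + h', X y * H₁ - h₃,
      Ideal.add_mem _ (Ideal.mul_mem_left _ _ hα₁) hα, ?_, ?_, ?_⟩
    · have := D.wh_y.mul hG₁W
      rw [add_comm] at this
      exact this.add hh'W
    · exact (D.free_y_x.mul hG₁F).add (hh'F.mono (by simp))
    · rw [hid, hsum₁]
      ring

/-- **K**: a weighted homogeneous `u` with `u(a, b, c) ∈ 𝔞` lies in `𝔞 + (minors)`. -/
theorem stepK : ∀ (n : ℕ) (u : MvPowerSeries σ R), Rtk2WH w u n → ev u ∈ 𝔞 →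
    u ∈ 𝔞 ⊔ Ideal.span {rtk2Mi x y a b, rtk2Mi x z a c, rtk2Mi y z b c} := by
  intro n
  induction n with
  | zero =>
    intro u hu hev
    rw [D.ev_wh0 hu] at hev
    exact Ideal.mem_sup_left hev
  | succ n ih =>
    intro u hu hev
    set u₁ := rtk2Shift x u with hu₁
    set u₂ := rtk2Kill x u with hu₂
    have hdec : u = u₂ + X x * u₁ := (rtk2_kill_add_X_mul_shift x u).symm
    have hu₁W : Rtk2WH w u₁ n := by
      have := hu.shift x
      rwa [D.wx, Nat.add_sub_cancel] at this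
    have hu₂W : Rtk2WH w u₂ (n + 1) := hu.kill x
    have hu₂F : Rtk2Free {x} u₂ := rtk2_free_kill x u
    have hev₂ : ev u₂ ∈ 𝔞 ⊔ Ideal.span {X a} := by
      have e : ev u₂ = ev u - X a * ev u₁ := by
        rw [hdec, map_add, map_mul, D.ev_x]; ring
      rw [e]
      refine Ideal.sub_mem _ (Ideal.mem_sup_left hev) (Ideal.mem_sup_right ?_)
      exact Ideal.mul_mem_right _ _ (Ideal.subset_span (by simp))
    obtain ⟨α, G, H, hα, hGW, hGF, hsum⟩ := D.stepK2 _ u₂ hu₂W hu₂F hev₂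
    set GY := rtk2Shift y G with hGY
    set G₀ := rtk2Kill y G with hG₀
    have hGdec : G = G₀ + X y * GY := (rtk2_kill_add_X_mul_shift y G).symm
    have hGYW : Rtk2WH w GY n := by
      have := hGW.shift y
      rwa [D.wy, Nat.add_sub_cancel] at this
    have hG₀W : Rtk2WH w G₀ (n + 1) := hGW.kill y
    have hG₀F : Rtk2Free {x, y} G₀ := (hGF.kill y).insert (rtk2_free_kill y G)
    obtain ⟨hz, hGZW, -⟩ := D.peel_z hG₀W hG₀F
    set GZ := rtk2Shift z G₀ with hGZ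
    obtain ⟨u₁', hu₁'⟩ : ∃ v, v = u₁ + X b * GY + X c * GZ := ⟨_, rfl⟩
    have hu₁'W : Rtk2WH w u₁' n := by
      have h1 := D.wh_b.mul hGYW
      have h2 := D.wh_c.mul hGZW
      rw [zero_add] at h1 h2
      rw [hu₁']
      exact (hu₁W.add h1).add h2
    have hid : u = X x * u₁' + α + rtk2Mi y z b c * H - rtk2Mi x y a b * GY
        - rtk2Mi x z a c * GZ := by
      have e1 : X a * G = X a * (X z * GZ + X y * GY) := by rw [← hz, ← hGdec]
      rw [hdec, hsum, e1, hu₁']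
      unfold rtk2Mi
      ring
    have hev₁ : ev u₁' ∈ 𝔞 := by
      apply D.H1
      have e : X a * ev u₁' = ev u - ev α := by
        conv_rhs => rw [hid]
        simp only [map_sub, map_add, map_mul, D.ev_m3, D.ev_m2, D.ev_m1, D.ev_x]
        ring
      rw [e]
      exact Ideal.sub_mem _ hev (D.ev_mem hα)
    have hmem := ih u₁' hu₁'W hev₁
    rw [hid]
    have hJ : ∀ g ∈ ({rtk2Mi x y a b, rtk2Mi x z a c, rtk2Mi y z b c} :
        Set (MvPowerSeries σ R)), ∀ F : MvPowerSeries σ R, g * F ∈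
        𝔞 ⊔ Ideal.span {rtk2Mi x y a b, rtk2Mi x z a c, rtk2Mi y z b c} := fun g hg F =>
      Ideal.mem_sup_right (Ideal.mul_mem_right _ _ (Ideal.subset_span hg))
    refine Ideal.sub_mem _ (Ideal.sub_mem _ (Ideal.add_mem _ (Ideal.add_mem _
      (Ideal.mul_mem_left _ _ hmem) (Ideal.mem_sup_left hα)) (hJ _ (by simp) _))
      (hJ _ (by simp) _)) (hJ _ (by simp) _)

end Rtk2Rees

theorem rtk2_range_vec3 {α : Type*} (p q r : α) : Set.range ![p, q, r] = {p, q, r} := by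
  ext t
  simp only [Set.mem_range, Set.mem_insert_iff, Set.mem_singleton_iff]
  constructor
  · rintro ⟨k, rfl⟩
    fin_cases k
    · exact Or.inl rfl
    · exact Or.inr (Or.inl rfl)
    · exact Or.inr (Or.inr rfl)
  · rintro (rfl | rfl | rfl)
    · exact ⟨0, rfl⟩
    · exact ⟨1, rfl⟩
    · exact ⟨2, rfl⟩

/-- **A1**: if the prime `𝔞` is generated by finitely many power series not involving `x, y, z`
and `X a, X b, X c` is a regular sequence modulo `𝔞`, then `𝔞 + (bx − ay, cx − az, cy − bz)` is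
prime. -/
theorem rtk2_a1 {x y z a b c : σ} (hxy : x ≠ y) (hxz : x ≠ z) (hyz : y ≠ z)
    (ha : a ∉ ({x, y, z} : Set σ)) (hb : b ∉ ({x, y, z} : Set σ)) (hc : c ∉ ({x, y, z} : Set σ))
    {𝔞 : Ideal (MvPowerSeries σ R)} [h𝔞 : 𝔞.IsPrime] (hgen : Rtk2FreeGen {x, y, z} 𝔞)
    (H1 : ∀ F, X a * F ∈ 𝔞 → F ∈ 𝔞)
    (H2 : ∀ F, X b * F ∈ 𝔞 ⊔ Ideal.span {X a} → F ∈ 𝔞 ⊔ Ideal.span {X a})
    (H3 : ∀ F, X c * F ∈ 𝔞 ⊔ Ideal.span {X a, X b} → F ∈ 𝔞 ⊔ Ideal.span {X a, X b}) :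
    (𝔞 ⊔ Ideal.span {rtk2Mi x y a b, rtk2Mi x z a c, rtk2Mi y z b c}).IsPrime := by
  classical
  let w : σ → ℕ := fun s => if s ∈ ({x, y, z} : Set σ) then 1 else 0
  have hE : ∀ s ∈ ({x, y, z} : Set σ), ∀ t, rtk2E x y z a b c s = t →
      rtk2Ev x y z a b c (X s : MvPowerSeries σ R) = X t := by
    intro s _ t ht
    rw [rtk2_ev_X, ht]
  have D : Rtk2Rees x y z a b c 𝔞 w (rtk2Ev x y z a b c) :=
    { hxy := hxy, hxz := hxz, hyz := hyz, ha := ha, hb := hb, hc := hc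
      wx := if_pos (by simp)
      wy := if_pos (by simp)
      wz := if_pos (by simp)
      w0 := fun s hs => if_neg hs
      gen := hgen
      ev_x := hE x (by simp) a (by unfold rtk2E; rw [if_pos rfl])
      ev_y := hE y (by simp) b (by unfold rtk2E; rw [if_neg hxy.symm, if_pos rfl])
      ev_z := hE z (by simp) c (by
        unfold rtk2E; rw [if_neg hxz.symm, if_neg hyz.symm, if_pos rfl])
      ev_free := fun F hF => rtk2_ev_free ha hb hc hF
      H1 := H1, H2 := H2, H3 := H3 }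
  obtain ⟨κ, iκ, γ, h𝔞eq, hγ⟩ := hgen
  set J : Ideal (MvPowerSeries σ R) :=
    Ideal.span {rtk2Mi x y a b, rtk2Mi x z a c, rtk2Mi y z b c} with hJ
  let μ : Fin 3 → MvPowerSeries σ R := ![rtk2Mi x y a b, rtk2Mi x z a c, rtk2Mi y z b c]
  have hspan : 𝔞 ⊔ J = Ideal.span (Set.range (Sum.elim γ μ)) := by
    rw [Set.Sum.elim_range, Ideal.span_union, ← h𝔞eq, rtk2_range_vec3]
  have hmi : ∀ (p q r s : σ), Rtk2WH w (X s : MvPowerSeries σ R) 0 →
      Rtk2WH w (X r : MvPowerSeries σ R) 0 → Rtk2WH w (X p : MvPowerSeries σ R) 1 →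
      Rtk2WH w (X q : MvPowerSeries σ R) 1 → Rtk2WH w (rtk2Mi p q r s : MvPowerSeries σ R) 1 := by
    intro p q r s hs hr hp hq
    unfold rtk2Mi
    have h1 := hs.mul hp
    have h2 := hr.mul hq
    rw [zero_add] at h1 h2
    exact h1.sub h2
  have hWH : ∀ k : κ ⊕ Fin 3, Rtk2WH w (Sum.elim γ μ k)
      (Sum.elim (fun _ => 0) (fun _ => 1) k) := by
    rintro (k | k)
    · exact (hγ k).wh_zero D.w0
    · fin_cases k
      · exact hmi _ _ _ _ D.wh_b D.wh_a D.wh_x D.wh_y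
      · exact hmi _ _ _ _ D.wh_c D.wh_a D.wh_x D.wh_z
      · exact hmi _ _ _ _ D.wh_c D.wh_b D.wh_y D.wh_z
  have hevle : 𝔞 ⊔ J ≤ Ideal.comap (rtk2Ev x y z a b c) 𝔞 := by
    refine sup_le (fun α hα => D.ev_mem hα) ?_
    rw [hJ, Ideal.span_le]
    intro g hg
    simp only [Set.mem_insert_iff, Set.mem_singleton_iff] at hg
    show rtk2Ev x y z a b c g ∈ 𝔞
    rcases hg with rfl | rfl | rfl
    · rw [D.ev_m1]; exact Ideal.zero_mem _
    · rw [D.ev_m2]; exact Ideal.zero_mem _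
    · rw [D.ev_m3]; exact Ideal.zero_mem _
  refine rtk2_isPrime_of_homogeneous (w := w) _ ?_ ?_ ?_ ?_
  · intro htop
    have h1 : (1 : MvPowerSeries σ R) ∈ 𝔞 ⊔ J := by rw [htop]; trivial
    have h2 := hevle h1
    rw [Ideal.mem_comap, map_one] at h2
    exact h𝔞.ne_top ((Ideal.eq_top_iff_one _).mpr h2)
  · intro F hF d
    rw [hspan] at hF ⊢
    exact rtk2_comp_mem_span _ _ hWH hF d
  · intro F hF
    rw [hspan] at hF ⊢
    exact rtk2_mem_span_of_comp _ _ hWH hF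
  · intro u v d e hu hv huv
    have h1 := hevle huv
    rw [Ideal.mem_comap, map_mul] at h1
    rcases h𝔞.mem_or_mem h1 with h | h
    · exact Or.inl (D.stepK d u hu h)
    · exact Or.inr (D.stepK e v hv h)

end Fermat.Agent.RT.K2


end ZBRT_017_3

/-! ### bundled: `Fermat.Agent.RT.K2.Prime` -/
section ZBRT_017_4

/-!
# RT-K2: generic primality tools

* `rtk2_nzd_sup` : if `𝔭 + (t)` is prime, `f ∉ 𝔭 + (t)` and `t` is a nonzerodivisor modulo `𝔭`,
  then `t` is a nonzerodivisor modulo `𝔭 + (f)`;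
* `rtk2_isPrime_of_sup_span` : if `𝔭 + (t)` is prime, `t` is a nonzerodivisor modulo `𝔭` and `t`
  lies in the Jacobson radical of the Noetherian ring `A`, then `𝔭` is prime;
* `rtk2_isPrime_sup_X` : adjoining a free variable to a prime of `MvPowerSeries σ R`;
* `rtk2_span_C_isPrime` : `(C λ)` is prime in `MvPowerSeries σ O` for a prime element `λ`;
* `rtk2_regular_abc` : `X a, X b, X c` is a regular sequence modulo `𝔞' + (a² + bc − d)`.
-/

set_option autoImplicit false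

namespace Fermat.Agent.RT.K2

open MvPowerSeries Finsupp

section Abstract

variable {A : Type*} [CommRing A]

/-- If `𝔭 + (t)` is prime, `f ∉ 𝔭 + (t)` and `t` is a nonzerodivisor modulo `𝔭`, then `t` is a
nonzerodivisor modulo `𝔭 + (f)`. -/
theorem rtk2_nzd_sup {𝔭 : Ideal A} {t f : A} (hprime : (𝔭 ⊔ Ideal.span {t}).IsPrime)
    (hf : f ∉ 𝔭 ⊔ Ideal.span {t}) (hnzd : ∀ F, t * F ∈ 𝔭 → F ∈ 𝔭) :
    ∀ F, t * F ∈ 𝔭 ⊔ Ideal.span {f} → F ∈ 𝔭 ⊔ Ideal.span {f} := by
  intro F hF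
  obtain ⟨α, hα, β, hβ, hsum⟩ := Submodule.mem_sup.mp hF
  obtain ⟨h, rfl⟩ := Ideal.mem_span_singleton'.mp hβ
  have h1 : h * f ∈ 𝔭 ⊔ Ideal.span {t} := by
    have : h * f = t * F - α := by rw [← hsum]; ring
    rw [this]
    exact Ideal.sub_mem _ (Ideal.mem_sup_right
      (Ideal.mul_mem_right _ _ (Ideal.mem_span_singleton_self t))) (Ideal.mem_sup_left hα)
  have h2 : h ∈ 𝔭 ⊔ Ideal.span {t} := (hprime.mem_or_mem h1).resolve_right hf
  obtain ⟨α', hα', β', hβ', hsum'⟩ := Submodule.mem_sup.mp h2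
  obtain ⟨h', rfl⟩ := Ideal.mem_span_singleton'.mp hβ'
  have h3 : t * (F - h' * f) ∈ 𝔭 := by
    have : t * (F - h' * f) = α + α' * f := by
      rw [mul_sub, ← hsum, ← hsum']; ring
    rw [this]
    exact Ideal.add_mem _ hα (Ideal.mul_mem_right _ _ hα')
  have h4 := hnzd _ h3
  have : F = (F - h' * f) + h' * f := by ring
  rw [this]
  exact Ideal.add_mem _ (Ideal.mem_sup_left h4)
    (Ideal.mem_sup_right (Ideal.mul_mem_left _ _ (Ideal.mem_span_singleton_self f)))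

/-- Ideals of a Noetherian ring are closed for the `I`-adic topology, `I ≤ rad A`. -/
theorem rtk2_closed_of_le_jacobson [IsNoetherianRing A] (I : Ideal A)
    (hI : I ≤ Ideal.jacobson ⊥) (𝔞 : Ideal A) (s : A) (hs : ∀ n, s ∈ 𝔞 ⊔ I ^ n) : s ∈ 𝔞 := by
  have hH : IsHausdorff I (A ⧸ 𝔞) := IsHausdorff.of_le_jacobson I (A ⧸ 𝔞) hI
  rw [← Ideal.Quotient.eq_zero_iff_mem]
  refine hH.haus _ fun n => ?_
  rw [SModEq.zero]
  obtain ⟨a, ha, b, hb, rfl⟩ := Submodule.mem_sup.mp (hs n)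
  rw [map_add, Ideal.Quotient.eq_zero_iff_mem.mpr ha, zero_add]
  have : Ideal.Quotient.mk 𝔞 b = b • (1 : A ⧸ 𝔞) := by
    rw [Algebra.smul_def, mul_one]; rfl
  rw [this]
  exact Submodule.smul_mem_smul hb Submodule.mem_top

/-- If `𝔭 + (t)` is prime, `t` is a nonzerodivisor modulo `𝔭` and `t ∈ rad A`, then `𝔭` is
prime. -/
theorem rtk2_isPrime_of_sup_span [IsNoetherianRing A] {𝔭 : Ideal A} {t : A}
    (ht : Ideal.span {t} ≤ Ideal.jacobson ⊥) (hprime : (𝔭 ⊔ Ideal.span {t}).IsPrime)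
    (hnzd : ∀ F, t * F ∈ 𝔭 → F ∈ 𝔭) : 𝔭.IsPrime := by
  classical
  have hpow : ∀ (n : ℕ) (F : A), t ^ n * F ∈ 𝔭 → F ∈ 𝔭 := by
    intro n
    induction n with
    | zero => intro F hF; simpa using hF
    | succ n ih =>
      intro F hF
      apply ih
      apply hnzd
      rw [← mul_assoc, ← pow_succ']
      exact hF
  have key : ∀ x, x ∉ 𝔭 → ∃ (n : ℕ) (x' : A), x - t ^ n * x' ∈ 𝔭 ∧
      x' ∉ 𝔭 ⊔ Ideal.span {t} := by
    intro x hx
    have hex : ∃ n, x ∉ 𝔭 ⊔ Ideal.span {t} ^ n := by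
      by_contra h
      push Not at h
      exact hx (rtk2_closed_of_le_jacobson _ ht 𝔭 x h)
    have hn : x ∉ 𝔭 ⊔ Ideal.span {t} ^ (Nat.find hex) := Nat.find_spec hex
    have hn0 : Nat.find hex ≠ 0 := by
      intro h0
      rw [h0, pow_zero, Ideal.one_eq_top, sup_top_eq] at hn
      exact hn trivial
    obtain ⟨k, hk⟩ := Nat.exists_eq_succ_of_ne_zero hn0
    have hk' : x ∈ 𝔭 ⊔ Ideal.span {t} ^ k := by
      by_contra h
      exact Nat.find_min hex (by omega) h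
    rw [Ideal.span_singleton_pow] at hk'
    obtain ⟨p, hp, β, hβ, hsum⟩ := Submodule.mem_sup.mp hk'
    obtain ⟨x', rfl⟩ := Ideal.mem_span_singleton'.mp hβ
    refine ⟨k, x', ?_, ?_⟩
    · have : x - t ^ k * x' = p := by rw [← hsum]; ring
      rw [this]; exact hp
    · intro hx'
      apply hn
      rw [hk, Ideal.span_singleton_pow]
      obtain ⟨p', hp', β', hβ', hsum'⟩ := Submodule.mem_sup.mp hx'
      obtain ⟨x'', rfl⟩ := Ideal.mem_span_singleton'.mp hβ'
      have : x = (p + t ^ k * p') + x'' * t ^ (k + 1) := by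
        rw [← hsum, ← hsum']; ring
      rw [this]
      exact Ideal.add_mem _
        (Ideal.mem_sup_left (Ideal.add_mem _ hp (Ideal.mul_mem_left _ _ hp')))
        (Ideal.mem_sup_right (Ideal.mul_mem_left _ _ (Ideal.mem_span_singleton_self _)))
  refine (Ideal.isPrime_iff).mpr ⟨?_, ?_⟩
  · intro htop
    exact hprime.ne_top (by rw [htop, top_sup_eq])
  · intro x y hxy
    by_contra hcon
    push Not at hcon
    obtain ⟨n, x', hx1, hx2⟩ := key x hcon.1
    obtain ⟨m, y', hy1, hy2⟩ := key y hcon.2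
    have h1 : t ^ (n + m) * (x' * y') ∈ 𝔭 := by
      have : t ^ (n + m) * (x' * y') =
          x * y - (x - t ^ n * x') * y - (t ^ n * x') * (y - t ^ m * y') := by ring
      rw [this]
      exact Ideal.sub_mem _ (Ideal.sub_mem _ hxy (Ideal.mul_mem_right _ _ hx1))
        (Ideal.mul_mem_left _ _ hy1)
    have h2 := hpow _ _ h1
    rcases hprime.mem_or_mem (Ideal.mem_sup_left h2) with h | h
    · exact hx2 h
    · exact hy2 h

end Abstract

section PowerSeries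

variable {σ : Type*} {R : Type*} [CommRing R]

theorem rtk2_kill_add_X_mul {v : σ} {A : MvPowerSeries σ R} (hA : Rtk2Free {v} A)
    (B : MvPowerSeries σ R) : rtk2Kill v (A + X v * B) = A := by
  unfold rtk2Kill
  rw [map_add, rtk2_shift_X_mul, hA.shift_eq_zero]
  ring

/-- `F ↦ F|_{v = 0}` is multiplicative. -/
theorem rtk2_kill_mul (v : σ) (F G : MvPowerSeries σ R) :
    rtk2Kill v (F * G) = rtk2Kill v F * rtk2Kill v G := by
  have hF := rtk2_kill_add_X_mul_shift v F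
  have hG := rtk2_kill_add_X_mul_shift v G
  have e : F * G = rtk2Kill v F * rtk2Kill v G +
      X v * (rtk2Kill v F * rtk2Shift v G + rtk2Shift v F * G) := by
    calc F * G = (rtk2Kill v F + X v * rtk2Shift v F) * G := by rw [hF]
      _ = rtk2Kill v F * G + X v * (rtk2Shift v F * G) := by ring
      _ = rtk2Kill v F * (rtk2Kill v G + X v * rtk2Shift v G)
          + X v * (rtk2Shift v F * G) := by rw [hG]
      _ = _ := by ring
  rw [e, rtk2_kill_add_X_mul ((rtk2_free_kill v F).mul (rtk2_free_kill v G))]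

theorem rtk2_kill_add (v : σ) (F G : MvPowerSeries σ R) :
    rtk2Kill v (F + G) = rtk2Kill v F + rtk2Kill v G := by
  unfold rtk2Kill
  rw [map_add]
  ring

theorem rtk2_kill_sub (v : σ) (F G : MvPowerSeries σ R) :
    rtk2Kill v (F - G) = rtk2Kill v F - rtk2Kill v G := by
  unfold rtk2Kill
  rw [map_sub]
  ring

theorem rtk2_kill_X (v : σ) : rtk2Kill v (X v : MvPowerSeries σ R) = 0 := by
  have := rtk2_kill_X_mul (R := R) v 1
  rwa [mul_one] at this

variable {v : σ} {𝔟 : Ideal (MvPowerSeries σ R)}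

theorem rtk2_mem_sup_X_iff (hgen : Rtk2FreeGen {v} 𝔟) (F : MvPowerSeries σ R) :
    F ∈ 𝔟 ⊔ Ideal.span {X v} ↔ rtk2Kill v F ∈ 𝔟 := by
  constructor
  · intro h
    obtain ⟨β, hβ, γ, hγ, rfl⟩ := Submodule.mem_sup.mp h
    obtain ⟨g, rfl⟩ := Ideal.mem_span_singleton'.mp hγ
    have : rtk2Kill v (β + g * X v) = rtk2Kill v β := by
      rw [rtk2_kill_add, mul_comm g, rtk2_kill_X_mul, add_zero]
    rw [this]
    exact hgen.kill_mem (by simp) hβ
  · intro h
    rw [← rtk2_kill_add_X_mul_shift v F]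
    exact Ideal.add_mem _ (Ideal.mem_sup_left h)
      (Ideal.mem_sup_right (Ideal.mul_mem_right _ _ (Ideal.mem_span_singleton_self _)))

/-- Adjoining a free variable to a prime ideal. -/
theorem rtk2_isPrime_sup_X [h𝔟 : 𝔟.IsPrime] (hgen : Rtk2FreeGen {v} 𝔟) :
    (𝔟 ⊔ Ideal.span {X v}).IsPrime := by
  refine Ideal.isPrime_iff.mpr ⟨?_, ?_⟩
  · intro htop
    have h1 : (1 : MvPowerSeries σ R) ∈ 𝔟 ⊔ Ideal.span {X v} := by rw [htop]; trivial
    rw [rtk2_mem_sup_X_iff hgen, (rtk2_free_one {v}).kill_eq] at h1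
    exact h𝔟.ne_top ((Ideal.eq_top_iff_one _).mpr h1)
  · intro x y hxy
    rw [rtk2_mem_sup_X_iff hgen] at hxy ⊢
    rw [rtk2_mem_sup_X_iff hgen]
    rw [rtk2_kill_mul] at hxy
    exact h𝔟.mem_or_mem hxy

/-- `X a, X b, X c` is a regular sequence modulo `𝔞' + (a² + bc − d)`, for a prime `𝔞'` generated
by power series not involving `a, b, c` and `d ∉ 𝔞'`. -/
theorem rtk2_regular_abc {a b c : σ} (hab : a ≠ b) (hac : a ≠ c) (hbc : b ≠ c)
    {𝔞' : Ideal (MvPowerSeries σ R)} [h𝔞' : 𝔞'.IsPrime] (hgen : Rtk2FreeGen {a, b, c} 𝔞')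
    {d : R} (hd : (C d : MvPowerSeries σ R) ∉ 𝔞') (f : MvPowerSeries σ R)
    (hf : f = X a ^ 2 + X b * X c - C d) :
    (∀ F, X a * F ∈ 𝔞' ⊔ Ideal.span {f} → F ∈ 𝔞' ⊔ Ideal.span {f}) ∧
    (∀ F, X b * F ∈ 𝔞' ⊔ Ideal.span {f} ⊔ Ideal.span {X a} →
      F ∈ 𝔞' ⊔ Ideal.span {f} ⊔ Ideal.span {X a}) ∧
    (∀ F, X c * F ∈ 𝔞' ⊔ Ideal.span {f} ⊔ Ideal.span {X a, X b} →
      F ∈ 𝔞' ⊔ Ideal.span {f} ⊔ Ideal.span {X a, X b}) := by
  have hga : Rtk2FreeGen {a} 𝔞' := hgen.mono (by simp)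
  have hgb : Rtk2FreeGen {b} 𝔞' := hgen.mono (by simp)
  have hgc : Rtk2FreeGen {c} 𝔞' := hgen.mono (by simp)
  have hXab : Rtk2Free {b} (X a : MvPowerSeries σ R) := rtk2_free_X (by simpa using hab)
  have hXac : Rtk2Free {c} (X a : MvPowerSeries σ R) := rtk2_free_X (by simpa using hac)
  have hXbc : Rtk2Free {c} (X b : MvPowerSeries σ R) := rtk2_free_X (by simpa using hbc)
  set 𝔭₁ := 𝔞' ⊔ Ideal.span {(X a : MvPowerSeries σ R)} with h𝔭₁
  have hp1 : 𝔭₁.IsPrime := rtk2_isPrime_sup_X hga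
  have hg1b : Rtk2FreeGen {b} 𝔭₁ := hgb.sup (rtk2_freeGen_span_singleton hXab)
  have hg1c : Rtk2FreeGen {c} 𝔭₁ := hgc.sup (rtk2_freeGen_span_singleton hXac)
  set 𝔭₂ := 𝔭₁ ⊔ Ideal.span {(X b : MvPowerSeries σ R)} with h𝔭₂
  have hp2 : 𝔭₂.IsPrime := rtk2_isPrime_sup_X hg1b
  have hg2c : Rtk2FreeGen {c} 𝔭₂ := hg1c.sup (rtk2_freeGen_span_singleton hXbc)
  set 𝔭₃ := 𝔭₂ ⊔ Ideal.span {(X c : MvPowerSeries σ R)} with h𝔭₃
  have hp3 : 𝔭₃.IsPrime := rtk2_isPrime_sup_X hg2c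
  have hf3 : f ∉ 𝔭₃ := by
    intro hmem
    rw [h𝔭₃, rtk2_mem_sup_X_iff hg2c] at hmem
    have e1 : f = (X a ^ 2 - C d) + X c * X b := by rw [hf]; ring
    have hfree1 : Rtk2Free {c} (X a ^ 2 - C d : MvPowerSeries σ R) :=
      (hXac.pow 2).sub (rtk2_free_C _ d)
    rw [e1, rtk2_kill_add_X_mul hfree1, h𝔭₂, rtk2_mem_sup_X_iff hg1b] at hmem
    have hfree2 : Rtk2Free {b} (X a ^ 2 - C d : MvPowerSeries σ R) :=
      (hXab.pow 2).sub (rtk2_free_C _ d)
    rw [hfree2.kill_eq, h𝔭₁, rtk2_mem_sup_X_iff hga] at hmem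
    have e2 : (X a ^ 2 - C d : MvPowerSeries σ R) = (-C d) + X a * X a := by ring
    rw [e2, rtk2_kill_add_X_mul (rtk2_free_C _ d).neg] at hmem
    exact hd (by simpa using neg_mem hmem)
  have hf2 : f ∉ 𝔭₂ := fun h => hf3 (Ideal.mem_sup_left h)
  have hf1 : f ∉ 𝔭₁ := fun h => hf2 (Ideal.mem_sup_left h)
  have e₁ : 𝔞' ⊔ Ideal.span {f} ⊔ Ideal.span {(X a : MvPowerSeries σ R)} =
      𝔭₁ ⊔ Ideal.span {f} := by
    rw [h𝔭₁]; exact sup_right_comm _ _ _
  have e₂ : 𝔞' ⊔ Ideal.span {f} ⊔ Ideal.span {(X a : MvPowerSeries σ R), X b} =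
      𝔭₂ ⊔ Ideal.span {f} := by
    rw [h𝔭₂, h𝔭₁, Ideal.span_insert, ← sup_assoc]
    rw [sup_right_comm 𝔞' (Ideal.span {f}) (Ideal.span {X a}),
      sup_right_comm (𝔞' ⊔ Ideal.span {X a}) (Ideal.span {f}) (Ideal.span {X b})]
  refine ⟨?_, ?_, ?_⟩
  · exact rtk2_nzd_sup hp1 hf1 fun F hF => hga.of_X_mul_mem (by simp) hF
  · rw [e₁]
    exact rtk2_nzd_sup hp2 hf2 fun F hF => hg1b.of_X_mul_mem (by simp) hF
  · rw [e₂]
    exact rtk2_nzd_sup hp3 hf3 fun F hF => hg2c.of_X_mul_mem (by simp) hF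

end PowerSeries

section Coeff

variable {σ : Type*} {O : Type*} [CommRing O]

theorem rtk2_span_C_eq_ker (lam : O) :
    Ideal.span {(C lam : MvPowerSeries σ O)} =
      RingHom.ker (MvPowerSeries.map (σ := σ) (Ideal.Quotient.mk (Ideal.span {lam}))) := by
  apply le_antisymm
  · rw [Ideal.span_le]
    intro F hF
    rw [Set.mem_singleton_iff] at hF
    subst hF
    rw [SetLike.mem_coe, RingHom.mem_ker, map_C]
    have : Ideal.Quotient.mk (Ideal.span {lam}) lam = 0 :=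
      Ideal.Quotient.eq_zero_iff_mem.mpr (Ideal.mem_span_singleton_self lam)
    rw [this, map_zero]
  · intro F hF
    rw [RingHom.mem_ker] at hF
    have h : ∀ m, ∃ g, coeff m F = lam * g := by
      intro m
      have := congrArg (coeff m) hF
      rw [coeff_map, map_zero, Ideal.Quotient.eq_zero_iff_mem, Ideal.mem_span_singleton'] at this
      obtain ⟨g, hg⟩ := this
      exact ⟨g, by rw [← hg, mul_comm]⟩
    choose G hG using h
    rw [Ideal.mem_span_singleton']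
    refine ⟨(fun m => G m : MvPowerSeries σ O), ?_⟩
    ext m
    rw [mul_comm, coeff_C_mul]
    exact (hG m).symm

/-- `(C λ)` is a prime ideal of the power series ring for a prime element `λ`. -/
theorem rtk2_span_C_isPrime [IsDomain O] {lam : O} (hlam : Prime lam) :
    (Ideal.span {(C lam : MvPowerSeries σ O)}).IsPrime := by
  rw [rtk2_span_C_eq_ker]
  haveI : (Ideal.span {lam}).IsPrime := (Ideal.span_singleton_prime hlam.ne_zero).mpr hlam
  haveI : IsDomain (O ⧸ Ideal.span {lam}) := Ideal.Quotient.isDomain _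
  haveI : IsDomain (MvPowerSeries σ (O ⧸ Ideal.span {lam})) := NoZeroDivisors.to_isDomain _
  exact RingHom.ker_isPrime _

/-- `C λ` lies in the Jacobson radical for a nonunit `λ` of a local ring. -/
theorem rtk2_span_C_le_jacobson [IsLocalRing O] {lam : O} (hlam : ¬ IsUnit lam) :
    Ideal.span {(C lam : MvPowerSeries σ O)} ≤ Ideal.jacobson ⊥ := by
  refine le_trans ?_ (IsLocalRing.maximalIdeal_le_jacobson ⊥)
  rw [Ideal.span_le]
  intro F hF
  rw [Set.mem_singleton_iff] at hF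
  subst hF
  rw [SetLike.mem_coe, IsLocalRing.mem_maximalIdeal, mem_nonunits_iff,
    MvPowerSeries.isUnit_iff_constantCoeff, constantCoeff_C]
  exact hlam

end Coeff

end Fermat.Agent.RT.K2


end ZBRT_017_4

/-! ### bundled: `Fermat.Agent.RT.K2.Domain` -/
section ZBRT_017_5

/-!
# RT-K2: the type-`χ` local ring `R^χ_∞` is a domain

`rtk2_Ichi_isPrime` : for a Noetherian local domain `O`, a prime element `λ` and
`δ_i = λ^(k_i + 1)·unit`, the ideal `rtk2Ichi τ δ = (a_i² + b_i c_i − δ_i², 2 × 2 minors)` of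
`O[[a_i, b_i, c_i, X_i, Y_i, Z_i, x_t]]` is prime; `rtk2_Rchi_isDomain`.

Order of the construction: first all the quadrics `f_i` (reduction modulo `λ`, step T1, and the
`λ`-adic lifting `rtk2_isPrime_of_sup_span`), then the minors, one prime `i` at a time (step A1,
regular sequence `a_i, b_i, c_i` by `rtk2_regular_abc`).
-/

set_option autoImplicit false

namespace Fermat.Agent.RT.K2

open MvPowerSeries Finsupp

variable {O : Type*} [CommRing O] {ι τ : Type*}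

theorem rtk2ix_ne_of_ne {i j : ι} (h : i ≠ j) (k l : Fin 6) :
    (rtk2ix i k : Rtk2Var ι τ) ≠ rtk2ix j l := by
  intro e
  unfold rtk2ix at e
  exact h (Prod.mk.inj (Sum.inl_injective e)).1

theorem rtk2ix_ne_of_ne' (i : ι) {k l : Fin 6} (h : k ≠ l) :
    (rtk2ix i k : Rtk2Var ι τ) ≠ rtk2ix i l := by
  intro e
  unfold rtk2ix at e
  exact h (Prod.mk.inj (Sum.inl_injective e)).2

/-! ## the ideals -/

variable (τ) in
/-- The ideal `(f_i : i ∈ S)`. -/
noncomputable def rtk2IE (δ : ι → O) (S : Finset ι) : Ideal (Rtk2P O ι τ) :=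
  ⨆ i ∈ S, Ideal.span {rtk2f δ i}

variable (O τ) in
/-- The ideal `(g_i : i ∈ S)`. -/
noncomputable def rtk2IG (S : Finset ι) : Ideal (Rtk2P O ι τ) :=
  ⨆ i ∈ S, Ideal.span {rtk2g i}

variable (O τ) in
/-- The ideal of the minors of the primes in `S`. -/
noncomputable def rtk2IM (S : Finset ι) : Ideal (Rtk2P O ι τ) :=
  ⨆ i ∈ S, Ideal.span {rtk2m1 i, rtk2m2 i, rtk2m3 i}

section Free

variable {V : Set (Rtk2Var ι τ)}

theorem rtk2_free_g {i : ι} (h0 : rtk2ix i 0 ∉ V) (h1 : rtk2ix i 1 ∉ V) (h2 : rtk2ix i 2 ∉ V) :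
    Rtk2Free V (rtk2g i : Rtk2P O ι τ) := by
  unfold rtk2g rtk2a rtk2b rtk2c
  exact ((rtk2_free_X h0).pow 2).add ((rtk2_free_X h1).mul (rtk2_free_X h2))

theorem rtk2_free_f (δ : ι → O) {i : ι} (h0 : rtk2ix i 0 ∉ V) (h1 : rtk2ix i 1 ∉ V)
    (h2 : rtk2ix i 2 ∉ V) : Rtk2Free V (rtk2f δ i : Rtk2P O ι τ) := by
  unfold rtk2f rtk2a rtk2b rtk2c
  exact (((rtk2_free_X h0).pow 2).add ((rtk2_free_X h1).mul (rtk2_free_X h2))).sub
    (rtk2_free_C _ _)

theorem rtk2_free_m1 {i : ι} (h : ∀ k, rtk2ix i k ∉ V) :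
    Rtk2Free V (rtk2m1 i : Rtk2P O ι τ) := by
  unfold rtk2m1 rtk2a rtk2b rtk2X rtk2Y
  exact ((rtk2_free_X (h _)).mul (rtk2_free_X (h _))).sub
    ((rtk2_free_X (h _)).mul (rtk2_free_X (h _)))

theorem rtk2_free_m2 {i : ι} (h : ∀ k, rtk2ix i k ∉ V) :
    Rtk2Free V (rtk2m2 i : Rtk2P O ι τ) := by
  unfold rtk2m2 rtk2a rtk2c rtk2X rtk2Z
  exact ((rtk2_free_X (h _)).mul (rtk2_free_X (h _))).sub
    ((rtk2_free_X (h _)).mul (rtk2_free_X (h _)))

theorem rtk2_free_m3 {i : ι} (h : ∀ k, rtk2ix i k ∉ V) :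
    Rtk2Free V (rtk2m3 i : Rtk2P O ι τ) := by
  unfold rtk2m3 rtk2b rtk2c rtk2Y rtk2Z
  exact ((rtk2_free_X (h _)).mul (rtk2_free_X (h _))).sub
    ((rtk2_free_X (h _)).mul (rtk2_free_X (h _)))

theorem rtk2_freeGen_IG (S : Finset ι)
    (h : ∀ i ∈ S, rtk2ix i 0 ∉ V ∧ rtk2ix i 1 ∉ V ∧ rtk2ix i 2 ∉ V) :
    Rtk2FreeGen V (rtk2IG O τ S) :=
  rtk2_freeGen_iSup S _ fun i hi =>
    rtk2_freeGen_span_singleton (rtk2_free_g (h i hi).1 (h i hi).2.1 (h i hi).2.2)

theorem rtk2_freeGen_IE (δ : ι → O) (S : Finset ι)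
    (h : ∀ i ∈ S, rtk2ix i 0 ∉ V ∧ rtk2ix i 1 ∉ V ∧ rtk2ix i 2 ∉ V) :
    Rtk2FreeGen V (rtk2IE τ δ S) :=
  rtk2_freeGen_iSup S _ fun i hi =>
    rtk2_freeGen_span_singleton (rtk2_free_f δ (h i hi).1 (h i hi).2.1 (h i hi).2.2)

theorem rtk2_freeGen_IM (S : Finset ι) (h : ∀ i ∈ S, ∀ k, rtk2ix i k ∉ V) :
    Rtk2FreeGen V (rtk2IM O τ S) := by
  refine rtk2_freeGen_iSup S _ fun i hi => ?_
  rw [Ideal.span_insert]
  exact (rtk2_freeGen_span_singleton (rtk2_free_m1 (h i hi))).sup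
    (rtk2_freeGen_span_pair (rtk2_free_m2 (h i hi)) (rtk2_free_m3 (h i hi)))

end Free

theorem rtk2_IE_insert [DecidableEq ι] (δ : ι → O) (i : ι) (S : Finset ι) :
    rtk2IE τ δ (insert i S) = rtk2IE τ δ S ⊔ Ideal.span {rtk2f δ i} := by
  unfold rtk2IE
  rw [Finset.iSup_insert, sup_comm]

theorem rtk2_IG_insert [DecidableEq ι] (i : ι) (S : Finset ι) :
    rtk2IG O τ (insert i S) = rtk2IG O τ S ⊔ Ideal.span {rtk2g i} := by
  unfold rtk2IG
  rw [Finset.iSup_insert, sup_comm]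

theorem rtk2_IM_insert [DecidableEq ι] (i : ι) (S : Finset ι) :
    rtk2IM O τ (insert i S) = rtk2IM O τ S ⊔ Ideal.span {rtk2m1 i, rtk2m2 i, rtk2m3 i} := by
  unfold rtk2IM
  rw [Finset.iSup_insert, sup_comm]

theorem rtk2_f_mem_IE (δ : ι → O) {S : Finset ι} {i : ι} (hi : i ∈ S) :
    (rtk2f δ i : Rtk2P O ι τ) ∈ rtk2IE τ δ S :=
  (le_iSup₂ (f := fun i (_ : i ∈ S) => Ideal.span {(rtk2f δ i : Rtk2P O ι τ)}) i hi)
    (Ideal.mem_span_singleton_self _)

theorem rtk2_g_mem_IG {S : Finset ι} {i : ι} (hi : i ∈ S) :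
    (rtk2g i : Rtk2P O ι τ) ∈ rtk2IG O τ S :=
  (le_iSup₂ (f := fun i (_ : i ∈ S) => Ideal.span {(rtk2g i : Rtk2P O ι τ)}) i hi)
    (Ideal.mem_span_singleton_self _)

theorem rtk2_f_eq (δ : ι → O) (i : ι) :
    (rtk2f δ i : Rtk2P O ι τ) = rtk2g i - C (δ i ^ 2) := rfl

/-! ## the quadrics -/

section Quadrics

variable [IsDomain O] {lam : O}

/-- `(λ, g_i : i ∈ S)` is prime. -/
theorem rtk2_B_isPrime (hlam : Prime lam) (S : Finset ι) :
    (Ideal.span {(C lam : Rtk2P O ι τ)} ⊔ rtk2IG O τ S).IsPrime := by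
  classical
  induction S using Finset.induction_on with
  | empty =>
    have : rtk2IG O τ (∅ : Finset ι) = ⊥ := by
      unfold rtk2IG
      simp
    rw [this, sup_bot_eq]
    exact rtk2_span_C_isPrime hlam
  | insert i₀ S hi₀ ih =>
    have e : Ideal.span {(C lam : Rtk2P O ι τ)} ⊔ rtk2IG O τ (insert i₀ S) =
        (Ideal.span {(C lam : Rtk2P O ι τ)} ⊔ rtk2IG O τ S) ⊔
          Ideal.span {rtk2Quad (rtk2ix i₀ 0) (rtk2ix i₀ 1) (rtk2ix i₀ 2)} := by
      rw [rtk2_IG_insert, ← sup_assoc]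
      rfl
    rw [e]
    haveI := ih
    refine rtk2_t1 (rtk2ix_ne_of_ne' i₀ (by decide)) (rtk2ix_ne_of_ne' i₀ (by decide))
      (rtk2ix_ne_of_ne' i₀ (by decide)) ?_
    refine (rtk2_freeGen_span_singleton (rtk2_free_C _ lam)).sup (rtk2_freeGen_IG S ?_)
    intro i hi
    have hne : i ≠ i₀ := fun h => hi₀ (h ▸ hi)
    simp only [Set.mem_insert_iff, Set.mem_singleton_iff, not_or]
    exact ⟨⟨rtk2ix_ne_of_ne hne _ _, rtk2ix_ne_of_ne hne _ _, rtk2ix_ne_of_ne hne _ _⟩,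
      ⟨rtk2ix_ne_of_ne hne _ _, rtk2ix_ne_of_ne hne _ _, rtk2ix_ne_of_ne hne _ _⟩,
      ⟨rtk2ix_ne_of_ne hne _ _, rtk2ix_ne_of_ne hne _ _, rtk2ix_ne_of_ne hne _ _⟩⟩

theorem rtk2_Cd_mem {δ : ι → O} (hδ : ∀ i, lam ∣ δ i) (i : ι) :
    (C (δ i ^ 2) : Rtk2P O ι τ) ∈ Ideal.span {(C lam : Rtk2P O ι τ)} := by
  obtain ⟨r, hr⟩ := hδ i
  rw [Ideal.mem_span_singleton']
  refine ⟨C (r * δ i), ?_⟩
  rw [← map_mul, hr]
  congr 1
  ring

/-- The special fibre: `(f_i) + (λ) = (λ) + (g_i)`. -/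
theorem rtk2_IE_sup_eq {δ : ι → O} (hδ : ∀ i, lam ∣ δ i) (S : Finset ι) :
    rtk2IE τ δ S ⊔ Ideal.span {(C lam : Rtk2P O ι τ)} =
      Ideal.span {(C lam : Rtk2P O ι τ)} ⊔ rtk2IG O τ S := by
  apply le_antisymm
  · refine sup_le (iSup₂_le fun i hi => ?_) le_sup_left
    rw [Ideal.span_singleton_le_iff_mem, rtk2_f_eq]
    exact Ideal.sub_mem _ (Ideal.mem_sup_right (rtk2_g_mem_IG hi))
      (Ideal.mem_sup_left (rtk2_Cd_mem hδ i))
  · refine sup_le le_sup_right (iSup₂_le fun i hi => ?_)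
    rw [Ideal.span_singleton_le_iff_mem]
    have : (rtk2g i : Rtk2P O ι τ) = rtk2f δ i + C (δ i ^ 2) := by rw [rtk2_f_eq]; ring
    rw [this]
    exact Ideal.add_mem _ (Ideal.mem_sup_left (rtk2_f_mem_IE δ hi))
      (Ideal.mem_sup_right (rtk2_Cd_mem hδ i))

/-- `f_{i₀} ∉ (λ, g_i : i ∈ S)` for `i₀ ∉ S`. -/
theorem rtk2_f_not_mem_B (hlam : Prime lam) {δ : ι → O} (hδ : ∀ i, lam ∣ δ i) {S : Finset ι}
    {i₀ : ι} (hi₀ : i₀ ∉ S) :
    (rtk2f δ i₀ : Rtk2P O ι τ) ∉ Ideal.span {(C lam : Rtk2P O ι τ)} ⊔ rtk2IG O τ S := by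
  intro hmem
  have hprime := rtk2_B_isPrime (τ := τ) hlam S
  have hgen : Rtk2FreeGen {rtk2ix i₀ 0}
      (Ideal.span {(C lam : Rtk2P O ι τ)} ⊔ rtk2IG O τ S) := by
    refine (rtk2_freeGen_span_singleton (rtk2_free_C _ lam)).sup (rtk2_freeGen_IG S ?_)
    intro i hi
    have hne : i ≠ i₀ := fun h => hi₀ (h ▸ hi)
    simp only [Set.mem_singleton_iff]
    exact ⟨rtk2ix_ne_of_ne hne _ _, rtk2ix_ne_of_ne hne _ _, rtk2ix_ne_of_ne hne _ _⟩
  have hg : (rtk2g i₀ : Rtk2P O ι τ) ∈ Ideal.span {(C lam : Rtk2P O ι τ)} ⊔ rtk2IG O τ S := by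
    have : (rtk2g i₀ : Rtk2P O ι τ) = rtk2f δ i₀ + C (δ i₀ ^ 2) := by rw [rtk2_f_eq]; ring
    rw [this]
    exact Ideal.add_mem _ hmem (Ideal.mem_sup_left (rtk2_Cd_mem hδ i₀))
  have h1 := hgen.shift_mem (v := rtk2ix i₀ 0) (Set.mem_singleton _)
    (hgen.shift_mem (v := rtk2ix i₀ 0) (Set.mem_singleton _) hg)
  have hfree : Rtk2Free {rtk2ix i₀ 0}
      (X (rtk2ix i₀ 1) * X (rtk2ix i₀ 2) : Rtk2P O ι τ) :=
    (rtk2_free_X (by simpa using (rtk2ix_ne_of_ne' i₀ (by decide)))).mul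
      (rtk2_free_X (by simpa using (rtk2ix_ne_of_ne' i₀ (by decide))))
  have e : (rtk2g i₀ : Rtk2P O ι τ) =
      X (rtk2ix i₀ 0) * X (rtk2ix i₀ 0) + X (rtk2ix i₀ 1) * X (rtk2ix i₀ 2) := by
    unfold rtk2g rtk2a rtk2b rtk2c; ring
  rw [e, map_add, rtk2_shift_X_mul, hfree.shift_eq_zero, add_zero] at h1
  have e2 : (X (rtk2ix i₀ 0) : Rtk2P O ι τ) = X (rtk2ix i₀ 0) * 1 := (mul_one _).symm
  rw [e2, rtk2_shift_X_mul] at h1
  exact hprime.ne_top ((Ideal.eq_top_iff_one _).mpr h1)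

/-- `λ` is a nonzerodivisor modulo `(f_i : i ∈ S)`. -/
theorem rtk2_lam_nzd_IE (hlam : Prime lam) {δ : ι → O} (hδ : ∀ i, lam ∣ δ i) (S : Finset ι) :
    ∀ F : Rtk2P O ι τ, C lam * F ∈ rtk2IE τ δ S → F ∈ rtk2IE τ δ S := by
  classical
  induction S using Finset.induction_on with
  | empty =>
    intro F hF
    have h0 : rtk2IE τ δ (∅ : Finset ι) = ⊥ := by
      unfold rtk2IE
      simp
    rw [h0, Ideal.mem_bot] at hF ⊢
    rcases mul_eq_zero.mp hF with h | h
    · exfalso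
      have := congrArg (constantCoeff (σ := Rtk2Var ι τ) (R := O)) h
      rw [constantCoeff_C, map_zero] at this
      exact hlam.ne_zero this
    · exact h
  | insert i₀ S hi₀ ih =>
    rw [rtk2_IE_insert]
    refine rtk2_nzd_sup ?_ ?_ ih
    · rw [rtk2_IE_sup_eq hδ]
      exact rtk2_B_isPrime hlam S
    · rw [rtk2_IE_sup_eq hδ]
      exact rtk2_f_not_mem_B hlam hδ hi₀

/-- `(f_i : i ∈ S)` is prime. -/
theorem rtk2_IE_isPrime [IsLocalRing O] [IsNoetherianRing O] [Finite ι] [Finite τ]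
    (hlam : Prime lam) {δ : ι → O} (hδ : ∀ i, lam ∣ δ i) (S : Finset ι) :
    (rtk2IE τ δ S).IsPrime := by
  refine rtk2_isPrime_of_sup_span (t := C lam) (rtk2_span_C_le_jacobson hlam.not_isUnit) ?_
    (rtk2_lam_nzd_IE hlam hδ S)
  rw [rtk2_IE_sup_eq hδ]
  exact rtk2_B_isPrime hlam S

end Quadrics

/-! ## the minors -/

section Minors

variable [IsDomain O] {lam : O}

theorem rtk2_constantCoeff_m (i : ι) :
    constantCoeff (rtk2m1 i : Rtk2P O ι τ) = 0 ∧ constantCoeff (rtk2m2 i : Rtk2P O ι τ) = 0 ∧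
      constantCoeff (rtk2m3 i : Rtk2P O ι τ) = 0 := by
  unfold rtk2m1 rtk2m2 rtk2m3 rtk2a rtk2b rtk2c rtk2X rtk2Y rtk2Z
  refine ⟨?_, ?_, ?_⟩ <;> simp

/-- The constant coefficients of the elements of `(f_i, minors)` lie in `(λ²)`. -/
theorem rtk2_I_le_comap {δ : ι → O} (hδ : ∀ i, lam ∣ δ i) (S₁ S₂ : Finset ι) :
    rtk2IE τ δ S₁ ⊔ rtk2IM O τ S₂ ≤
      Ideal.comap (constantCoeff (σ := Rtk2Var ι τ) (R := O)) (Ideal.span {lam ^ 2}) := by
  refine sup_le (iSup₂_le fun i _ => ?_) (iSup₂_le fun i _ => ?_)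
  · rw [Ideal.span_singleton_le_iff_mem, Ideal.mem_comap]
    have : constantCoeff (rtk2f δ i : Rtk2P O ι τ) = -(δ i ^ 2) := by
      unfold rtk2f rtk2a rtk2b rtk2c
      simp
    rw [this]
    obtain ⟨r, hr⟩ := hδ i
    refine neg_mem ?_
    rw [Ideal.mem_span_singleton']
    exact ⟨r ^ 2, by rw [hr]; ring⟩
  · rw [Ideal.span_le]
    intro g hg
    simp only [Set.mem_insert_iff, Set.mem_singleton_iff] at hg
    rw [SetLike.mem_coe, Ideal.mem_comap]
    obtain ⟨h1, h2, h3⟩ := rtk2_constantCoeff_m (O := O) (τ := τ) i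
    rcases hg with rfl | rfl | rfl
    · rw [h1]; exact Ideal.zero_mem _
    · rw [h2]; exact Ideal.zero_mem _
    · rw [h3]; exact Ideal.zero_mem _

/-- A prime ideal whose elements have constant coefficients in `(λ²)` does not contain
`C (λ^n·unit)`. -/
theorem rtk2_C_not_mem (hlam : Prime lam) {𝔭 : Ideal (Rtk2P O ι τ)} [h𝔭 : 𝔭.IsPrime]
    (hle : 𝔭 ≤ Ideal.comap (constantCoeff (σ := Rtk2Var ι τ) (R := O)) (Ideal.span {lam ^ 2}))
    {d : O} (hd : ∃ (n : ℕ) (u : O), IsUnit u ∧ d = lam ^ n * u) :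
    (C d : Rtk2P O ι τ) ∉ 𝔭 := by
  obtain ⟨n, u, hu, rfl⟩ := hd
  intro hmem
  have hnot : ∀ r : O, (∃ s, lam * s = r) → IsUnit r → False := by
    rintro r ⟨s, rfl⟩ hr
    exact hlam.not_isUnit (isUnit_of_mul_isUnit_left hr)
  have hlam2 : (C lam : Rtk2P O ι τ) ∉ 𝔭 := by
    intro h
    have := hle h
    rw [Ideal.mem_comap, constantCoeff_C, Ideal.mem_span_singleton'] at this
    obtain ⟨r, hr⟩ := this
    have h1 : lam * (r * lam) = lam * 1 := by
      calc lam * (r * lam) = r * lam ^ 2 := by ring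
        _ = lam := hr
        _ = lam * 1 := (mul_one _).symm
    have h2 := mul_left_cancel₀ hlam.ne_zero h1
    exact hnot 1 ⟨r, by rw [← h2]; ring⟩ isUnit_one
  have hu2 : (C u : Rtk2P O ι τ) ∉ 𝔭 := by
    intro h
    have := hle h
    rw [Ideal.mem_comap, constantCoeff_C, Ideal.mem_span_singleton'] at this
    obtain ⟨r, hr⟩ := this
    exact hnot u ⟨r * lam, by rw [← hr]; ring⟩ hu
  rw [map_mul, map_pow] at hmem
  rcases h𝔭.mem_or_mem hmem with h | h
  · exact hlam2 (h𝔭.mem_of_pow_mem n h)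
  · exact hu2 h

theorem rtk2_not_mem_three {i i₀ : ι} (h : i ≠ i₀) (k l₁ l₂ l₃ : Fin 6) :
    (rtk2ix i k : Rtk2Var ι τ) ∉
      ({rtk2ix i₀ l₁, rtk2ix i₀ l₂, rtk2ix i₀ l₃} : Set (Rtk2Var ι τ)) := by
  simp only [Set.mem_insert_iff, Set.mem_singleton_iff, not_or]
  exact ⟨rtk2ix_ne_of_ne h _ _, rtk2ix_ne_of_ne h _ _, rtk2ix_ne_of_ne h _ _⟩

theorem rtk2_not_mem_three' (i i₀ : ι) {k l₁ l₂ l₃ : Fin 6} (h1 : k ≠ l₁) (h2 : k ≠ l₂)
    (h3 : k ≠ l₃) :
    (rtk2ix i k : Rtk2Var ι τ) ∉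
      ({rtk2ix i₀ l₁, rtk2ix i₀ l₂, rtk2ix i₀ l₃} : Set (Rtk2Var ι τ)) := by
  simp only [Set.mem_insert_iff, Set.mem_singleton_iff, not_or]
  refine ⟨fun e => h1 ?_, fun e => h2 ?_, fun e => h3 ?_⟩ <;>
  · unfold rtk2ix at e
    exact (Prod.mk.inj (Sum.inl_injective e)).2

theorem rtk2_m_mem_IM {S : Finset ι} {i : ι} (hi : i ∈ S) :
    (rtk2m1 i : Rtk2P O ι τ) ∈ rtk2IM O τ S ∧ (rtk2m2 i : Rtk2P O ι τ) ∈ rtk2IM O τ S ∧
      (rtk2m3 i : Rtk2P O ι τ) ∈ rtk2IM O τ S := by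
  have hle := le_iSup₂ (f := fun i (_ : i ∈ S) =>
    Ideal.span {(rtk2m1 i : Rtk2P O ι τ), rtk2m2 i, rtk2m3 i}) i hi
  exact ⟨hle (Ideal.subset_span (by simp)), hle (Ideal.subset_span (by simp)),
    hle (Ideal.subset_span (by simp))⟩

/-- `(f_i : i ∈ S₁) + (minors of the primes in S₂)` is prime for `S₂ ⊆ S₁`. -/
theorem rtk2_I_isPrime [IsLocalRing O] [IsNoetherianRing O] [Finite ι] [Finite τ]
    (hlam : Prime lam) {δ : ι → O}
    (hδ : ∀ i, ∃ (k : ℕ) (u : O), IsUnit u ∧ δ i = lam ^ (k + 1) * u) :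
    ∀ (S₂ S₁ : Finset ι), S₂ ⊆ S₁ → (rtk2IE τ δ S₁ ⊔ rtk2IM O τ S₂).IsPrime := by
  classical
  have hδ' : ∀ i, lam ∣ δ i := fun i => by
    obtain ⟨k, u, _, h⟩ := hδ i
    exact ⟨lam ^ k * u, by rw [h]; ring⟩
  intro S₂
  induction S₂ using Finset.induction_on with
  | empty =>
    intro S₁ _
    have : rtk2IM O τ (∅ : Finset ι) = ⊥ := by
      unfold rtk2IM
      simp
    rw [this, sup_bot_eq]
    exact rtk2_IE_isPrime hlam hδ' S₁
  | insert i₀ S₂ hi₀ ih =>
    intro S₁ hsub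
    have hi₀S₁ : i₀ ∈ S₁ := hsub (Finset.mem_insert_self _ _)
    have hS₂ : S₂ ⊆ S₁ := fun j hj => hsub (Finset.mem_insert_of_mem hj)
    have hS₂' : S₂ ⊆ S₁.erase i₀ := fun j hj =>
      Finset.mem_erase.mpr ⟨fun h => hi₀ (h ▸ hj), hS₂ hj⟩
    haveI hp' : (rtk2IE τ δ (S₁.erase i₀) ⊔ rtk2IM O τ S₂).IsPrime := ih _ hS₂'
    haveI hp : (rtk2IE τ δ S₁ ⊔ rtk2IM O τ S₂).IsPrime := ih _ hS₂
    have hIE : rtk2IE τ δ S₁ = rtk2IE τ δ (S₁.erase i₀) ⊔ Ideal.span {rtk2f δ i₀} := by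
      rw [← rtk2_IE_insert, Finset.insert_erase hi₀S₁]
    have h𝔞eq : rtk2IE τ δ S₁ ⊔ rtk2IM O τ S₂ =
        (rtk2IE τ δ (S₁.erase i₀) ⊔ rtk2IM O τ S₂) ⊔ Ideal.span {rtk2f δ i₀} := by
      rw [hIE]
      exact sup_right_comm _ _ _
    have hne₂ : ∀ j ∈ S₂, j ≠ i₀ := fun j hj h => hi₀ (h ▸ hj)
    have hgen' : Rtk2FreeGen {rtk2ix i₀ 0, rtk2ix i₀ 1, rtk2ix i₀ 2}
        (rtk2IE τ δ (S₁.erase i₀) ⊔ rtk2IM O τ S₂) := by
      refine (rtk2_freeGen_IE δ _ fun i hi => ?_).sup (rtk2_freeGen_IM _ fun j hj k => ?_)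
      · have hne : i ≠ i₀ := (Finset.mem_erase.mp hi).1
        exact ⟨rtk2_not_mem_three hne _ _ _ _, rtk2_not_mem_three hne _ _ _ _,
          rtk2_not_mem_three hne _ _ _ _⟩
      · exact rtk2_not_mem_three (hne₂ j hj) _ _ _ _
    have hgen : Rtk2FreeGen {rtk2ix i₀ 3, rtk2ix i₀ 4, rtk2ix i₀ 5}
        (rtk2IE τ δ S₁ ⊔ rtk2IM O τ S₂) := by
      refine (rtk2_freeGen_IE δ _ fun i _ => ?_).sup (rtk2_freeGen_IM _ fun j hj k => ?_)
      · exact ⟨rtk2_not_mem_three' _ _ (by decide) (by decide) (by decide),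
          rtk2_not_mem_three' _ _ (by decide) (by decide) (by decide),
          rtk2_not_mem_three' _ _ (by decide) (by decide) (by decide)⟩
      · exact rtk2_not_mem_three (hne₂ j hj) _ _ _ _
    have hd : (C (δ i₀ ^ 2) : Rtk2P O ι τ) ∉ rtk2IE τ δ (S₁.erase i₀) ⊔ rtk2IM O τ S₂ := by
      obtain ⟨k, u, hu, h⟩ := hδ i₀
      exact rtk2_C_not_mem hlam (rtk2_I_le_comap hδ' _ _)
        ⟨2 * (k + 1), u ^ 2, hu.pow 2, by rw [h]; ring⟩
    obtain ⟨H1, H2, H3⟩ := rtk2_regular_abc (a := rtk2ix i₀ 0) (b := rtk2ix i₀ 1)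
      (c := rtk2ix i₀ 2) (rtk2ix_ne_of_ne' i₀ (by decide)) (rtk2ix_ne_of_ne' i₀ (by decide))
      (rtk2ix_ne_of_ne' i₀ (by decide)) hgen' hd (rtk2f δ i₀) rfl
    rw [← h𝔞eq] at H1 H2 H3
    have key := rtk2_a1 (x := rtk2ix i₀ 3) (y := rtk2ix i₀ 4) (z := rtk2ix i₀ 5)
      (a := rtk2ix i₀ 0) (b := rtk2ix i₀ 1) (c := rtk2ix i₀ 2)
      (rtk2ix_ne_of_ne' i₀ (by decide)) (rtk2ix_ne_of_ne' i₀ (by decide))
      (rtk2ix_ne_of_ne' i₀ (by decide))
      (rtk2_not_mem_three' _ _ (by decide) (by decide) (by decide))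
      (rtk2_not_mem_three' _ _ (by decide) (by decide) (by decide))
      (rtk2_not_mem_three' _ _ (by decide) (by decide) (by decide)) hgen H1 H2 H3
    have e : rtk2IE τ δ S₁ ⊔ rtk2IM O τ (insert i₀ S₂) =
        (rtk2IE τ δ S₁ ⊔ rtk2IM O τ S₂) ⊔
          Ideal.span {rtk2Mi (rtk2ix i₀ 3) (rtk2ix i₀ 4) (rtk2ix i₀ 0) (rtk2ix i₀ 1),
            rtk2Mi (rtk2ix i₀ 3) (rtk2ix i₀ 5) (rtk2ix i₀ 0) (rtk2ix i₀ 2),
            rtk2Mi (rtk2ix i₀ 4) (rtk2ix i₀ 5) (rtk2ix i₀ 1) (rtk2ix i₀ 2)} := by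
      rw [rtk2_IM_insert, ← sup_assoc]
      rfl
    rw [e]
    exact key

theorem rtk2_Ichi_eq [Fintype ι] (δ : ι → O) :
    rtk2Ichi τ δ = rtk2IE τ δ Finset.univ ⊔ rtk2IM O τ Finset.univ := by
  apply le_antisymm
  · refine rtk2_Ichi_le fun i => ⟨Ideal.mem_sup_left (rtk2_f_mem_IE δ (Finset.mem_univ i)),
      Ideal.mem_sup_right (rtk2_m_mem_IM (Finset.mem_univ i)).1,
      Ideal.mem_sup_right (rtk2_m_mem_IM (Finset.mem_univ i)).2.1,
      Ideal.mem_sup_right (rtk2_m_mem_IM (Finset.mem_univ i)).2.2⟩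
  · refine sup_le (iSup₂_le fun i _ => ?_) (iSup₂_le fun i _ => ?_)
    · rw [Ideal.span_singleton_le_iff_mem]
      exact rtk2_f_mem_Ichi δ i
    · rw [Ideal.span_le]
      intro g hg
      simp only [Set.mem_insert_iff, Set.mem_singleton_iff] at hg
      rcases hg with rfl | rfl | rfl
      · exact rtk2_m1_mem_Ichi δ i
      · exact rtk2_m2_mem_Ichi δ i
      · exact rtk2_m3_mem_Ichi δ i

/-- **The type-`χ` ideal is prime.** -/
theorem rtk2_Ichi_isPrime [IsLocalRing O] [IsNoetherianRing O] [Finite ι] [Finite τ]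
    (hlam : Prime lam) {δ : ι → O}
    (hδ : ∀ i, ∃ (k : ℕ) (u : O), IsUnit u ∧ δ i = lam ^ (k + 1) * u) :
    (rtk2Ichi τ δ).IsPrime := by
  classical
  haveI := Fintype.ofFinite ι
  rw [rtk2_Ichi_eq]
  exact rtk2_I_isPrime hlam hδ _ _ (Finset.Subset.refl _)

/-- **The type-`χ` local ring `R^χ_∞` is a domain.** -/
theorem rtk2_Rchi_isDomain [IsLocalRing O] [IsNoetherianRing O] [Finite ι] [Finite τ]
    (hlam : Prime lam) {δ : ι → O}
    (hδ : ∀ i, ∃ (k : ℕ) (u : O), IsUnit u ∧ δ i = lam ^ (k + 1) * u) :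
    IsDomain (Rtk2Rchi τ δ) := by
  haveI := rtk2_Ichi_isPrime (τ := τ) hlam hδ
  exact Ideal.Quotient.isDomain _

end Minors

end Fermat.Agent.RT.K2


end ZBRT_017_5

/-! ### bundled: `Fermat.Agent.RIB.TRCore` -/
section ZBRT_017_6

/-!
# Row 37, the K-machine: the algebraic side is CLOSED

`stmtTR_of_prod : StmtProd → StmtTR`: the statement `StmtTR` (all odd primes of `N` trivial ⇒ any
odd `q ∣ N` can be removed) follows from the product `StmtProd` of the arithmetic side alone.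
The algebraic inputs of `stmtTR_of` are discharged here:
* `stmtK2Dom` : `StmtK2Dom` (helper27's `rtk2_Ichi_isPrime`);
* `stmtK2Qur` : `StmtK2Qur` (`rtk2b_Qur_isPrime`, `rtk2b_cramer_not_mem`);
* `RT.G2.stmtG2`, `RT.stmtOutTW`.
-/

set_option autoImplicit false
set_option linter.style.haveILetI false

namespace Fermat.Agent.RIB

open Fermat.Agent.RT Fermat.Agent.RT.K2 IsLocalRing

section Aux

variable {O : Type*} [CommRing O] [IsDomain O] [IsDiscreteValuationRing O]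

/-- A generator of the maximal ideal of a discrete valuation ring is irreducible. -/
theorem ribtr_irreducible {lam : O} (hlam : maximalIdeal O = Ideal.span {lam}) :
    Irreducible lam :=
  (IsDiscreteValuationRing.irreducible_iff_uniformizer lam).mpr hlam

theorem ribtr_prime {lam : O} (hlam : maximalIdeal O = Ideal.span {lam}) : Prime lam :=
  (ribtr_irreducible hlam).prime

theorem ribtr_span_isPrime {lam : O} (hlam : maximalIdeal O = Ideal.span {lam}) :
    (Ideal.span {lam}).IsPrime := by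
  rw [← hlam]
  infer_instance

theorem ribtr_two_not_mem {lam : O} (hlam : maximalIdeal O = Ideal.span {lam})
    (h2 : IsUnit (2 : O)) : (2 : O) ∉ Ideal.span {lam} := by
  rw [← hlam, IsLocalRing.notMem_maximalIdeal]
  exact h2

/-- A nonzero multiple of the uniformiser is `λ ^ (k + 1) · unit`. -/
theorem ribtr_eq_pow_mul_unit {lam : O} (hlam : maximalIdeal O = Ideal.span {lam})
    {x : O} (hx : ∃ r, x = lam * r) (hx0 : x ≠ 0) :
    ∃ (k : ℕ) (u : O), IsUnit u ∧ x = lam ^ (k + 1) * u := by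
  obtain ⟨r, rfl⟩ := hx
  have hr0 : r ≠ 0 := by
    rintro rfl
    exact hx0 (mul_zero _)
  obtain ⟨n, u, hu⟩ := IsDiscreteValuationRing.eq_unit_mul_pow_irreducible hr0
    (ribtr_irreducible hlam)
  refine ⟨n, (u : O), u.isUnit, ?_⟩
  rw [hu]
  ring

end Aux

/-- **K2, the domain theorem**, in the form consumed by `stmtTR_of`. -/
theorem stmtK2Dom : StmtK2Dom := by
  intro O _ _ _ lam hlam _ ι τ _ _ δ hδ hδ0
  exact rtk2_Ichi_isPrime (τ := τ) (ribtr_prime hlam)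
    (fun i => ribtr_eq_pow_mul_unit hlam (hδ i) (hδ0 i))

/-- **K2-e**, in the form consumed by `stmtTR_of`. -/
theorem stmtK2Qur : StmtK2Qur := by
  intro O _ _ _ lam hlam h2 ι τ _ _ q hq
  exact ⟨Fermat.Agent.RT.K2b.rtk2b_Qur_isPrime lam (ribtr_span_isPrime hlam),
    fun i => Fermat.Agent.RT.K2b.rtk2b_cramer_not_mem lam (ribtr_span_isPrime hlam)
      (ribtr_two_not_mem hlam h2) q i (hq i)⟩

/-- **The algebraic side of the K-machine is closed**: `StmtTR` follows from the product of the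
arithmetic side. -/
theorem stmtTR_of_prod (hprod : StmtProd) : StmtTR :=
  stmtTR_of hprod Fermat.Agent.RT.G2.stmtG2 Fermat.Agent.RT.stmtOutTW stmtK2Dom stmtK2Qur

end Fermat.Agent.RIB


end ZBRT_017_6

/-! ### bundled: `Fermat.Agent.RIB.TRE` -/
section ZBRT_017_7
/-
Row 37, the K-machine at the trivial primes: TOP-LEVEL WIRING of `StmtTR`, EVEN (symmetric) form.
(helper27, on the request of the captain helper43)

`ProdDataE P N q` is `ProdData P N q` (`RIB/TR.lean`) with a number `h` of Taylor–Wiles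
variables and the level data in the even form `RT.TWDatumE` (only the series even in the first
`h` variables act through the Hecke rings).

* `StmtProdE`        : the arithmetic side delivers `ProdDataE`;
* `stmtTR_of_E`      : `StmtTR` from `StmtProdE`, `RT.StmtG2E`, `RT.StmtOutTWE`, `StmtK2Dom`,
                       `StmtK2Qur`;
* `stmtTR_of_prodE`  : **`StmtProdE → StmtTR`** (all algebraic inputs discharged:
                       `RT.G2.stmtG2E`, `RT.Even.stmtOutTWE`, `stmtK2Dom`, `stmtK2Qur`);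
* `ProdData.toE`, `stmtProdE_of_prod` : the old product is an even one (`h = 0`).
-/

set_option autoImplicit false

open WeierstrassCurve WeierstrassCurve.Affine WeierstrassCurve.Affine.Point

namespace Fermat.Agent.RIB

open Fermat.Agent.RT Fermat.Agent.RT.K2 IsLocalRing

/-- **The product of the arithmetic side** for `(P, N, q)`, even form. -/
structure ProdDataE (P : FreyPackage) (N q : ℕ) : Type 1 where
  /-- the coefficient ring (`ℤ_p[ζ_p]`) -/
  O : Type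
  [instCommRing : CommRing O]
  [instIsDomain : IsDomain O]
  [instDVR : IsDiscreteValuationRing O]
  [instComplete : IsAdicComplete (maximalIdeal O) O]
  [instFinite : Finite (ResidueField O)]
  lam : O
  hlam : maximalIdeal O = Ideal.span {lam}
  h2 : IsUnit (2 : O)
  /-- the trivial primes -/
  ι : Type
  /-- the free variables -/
  τ : Type
  [instFintypeι : Fintype ι]
  [instFintypeτ : Fintype τ]
  /-- `qq i` = the `i`-th trivial prime in `O`, `s i ^ 2 = qq i`, `tχ i = (ζ + ζ⁻¹)/2`,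
  `δ i = (ζ − ζ⁻¹)/2` -/
  qq : ι → O
  s : ι → O
  tχ : ι → O
  δ : ι → O
  hs : ∀ i, s i ^ 2 = qq i
  hs1 : ∀ i, ∃ r, s i = 1 + lam * r ∨ s i = -1 + lam * r
  hqq : ∀ i, ∃ r, qq i = 1 + lam * r
  hqq1 : ∀ i, qq i ≠ 1
  htδ : ∀ i, tχ i ^ 2 - δ i ^ 2 = 1
  htχ : ∀ i, ∃ r, tχ i = 1 + lam * r
  hδ : ∀ i, ∃ r, δ i = lam * r
  hδ0 : ∀ i, δ i ≠ 0
  m : ℕ
  /-- the number of Taylor–Wiles variables (the first `h` variables of `S`) -/
  h : ℕ
  d : ℕ
  hm : 3 * Fintype.card ι + Fintype.card τ ≤ m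
  hd : 0 < d
  /-- the base Hecke ring -/
  T0 : Type
  [instCommRingT0 : CommRing T0]
  [instAlgebraT0 : Algebra O T0]
  [instFiniteT0 : Module.Finite O T0]
  j0 : T0 →ₐ[O] Matrix (Fin d) (Fin d) O
  hj0 : Function.Injective j0
  Sig0 : ι → Matrix (Fin 2) (Fin 2) T0
  Phi0 : ι → Matrix (Fin 2) (Fin 2) T0
  Psi0 : ι → Matrix (Fin 2) (Fin 2) T0
  hPsi0 : ∀ i, IsCayleyParam (algebraMap O T0 (s i)) (Phi0 i) (Psi0 i)
  level : ∀ n : ℕ, ∃ (T1 : Type) (_ : CommRing T1) (_ : Algebra O T1)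
      (j1 : T1 →ₐ[O] Matrix (Fin d) (Fin d) (RttwS O m ⧸ maximalIdeal (RttwS O m) ^ n))
      (Sig1 Phi1 : ι → Matrix (Fin 2) (Fin 2) T1) (x1 : τ → T1)
      (Tχ : Type) (_ : CommRing Tχ) (_ : Algebra O Tχ)
      (jχ : Tχ →ₐ[O] Matrix (Fin d) (Fin d) (RttwS O m ⧸ maximalIdeal (RttwS O m) ^ n))
      (Sigχ Phiχ : ι → Matrix (Fin 2) (Fin 2) Tχ) (xχ : τ → Tχ),
      TWDatumE qq s tχ lam m h d j0 Sig0 Phi0 n j1 Sig1 Phi1 x1 jχ Sigχ Phiχ xχ
  interp : ∀ 𝔓 : Ideal T0, 𝔓.IsPrime → algebraMap O T0 lam ∉ 𝔓 →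
    (∀ i, (Sig0 i - 1) 0 0 ∈ 𝔓 ∧ (Sig0 i - 1) 0 1 ∈ 𝔓 ∧ (Sig0 i - 1) 1 0 ∈ 𝔓) → Lowered P N q

attribute [instance] ProdDataE.instCommRing ProdDataE.instIsDomain ProdDataE.instDVR
  ProdDataE.instComplete ProdDataE.instFinite ProdDataE.instFintypeι ProdDataE.instFintypeτ
  ProdDataE.instCommRingT0 ProdDataE.instAlgebraT0 ProdDataE.instFiniteT0

/-- **PROD, even form**: the arithmetic side delivers `ProdDataE` in the situation of
`StmtTR`. -/
def StmtProdE : Prop :=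
  ∀ (P : FreyPackage) (N q : ℕ), P.IsConductorLevel N → ¬ P.p ∣ N → q.Prime → q ≠ 2 →
    q ∣ N → GaloisRepIsIrreducible (K := AlgebraicClosure ℚ) ℚ P.freyCurve P.p →
    P.ModularRepOfLevel N →
    (∀ r : ℕ, r.Prime → r ≠ 2 → r ∣ N → IsTrivialPrime P r) →
    Nonempty (ProdDataE P N q)

/-- **TR-wiring, even form.** -/
theorem stmtTR_of_E (hprod : StmtProdE) (hG2 : StmtG2E) (hout : StmtOutTWE) (hdom : StmtK2Dom)
    (hqur : StmtK2Qur) : StmtTR := by
  intro P N q hcond hpN hq hq2 hqN hirr hmod hall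
  obtain ⟨D⟩ := hprod P N q hcond hpN hq hq2 hqN hirr hmod hall
  have hχ : (rtk2Ichi D.τ D.δ).IsPrime :=
    hdom D.O D.lam D.hlam D.h2 D.ι D.τ D.δ D.hδ D.hδ0
  obtain ⟨hQ, hCr⟩ := hqur D.O D.lam D.hlam D.h2 D.ι D.τ D.qq D.hqq
  have hlev : ∀ n : ℕ, ∃ ρ1 ρχ, TWLevelE (τ := D.τ) D.qq D.δ D.lam D.m D.h D.d
      (fun x => D.j0 (rttwBaseVal D.Sig0 D.Psi0 x)) (Set.range D.j0) n ρ1 ρχ := by
    intro n
    obtain ⟨T1, i1, i2, j1, Sig1, Phi1, x1, Tχ, i3, i4, jχ, Sigχ, Phiχ, xχ, hdat⟩ := D.level n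
    exact hG2 D.O D.lam D.hlam D.h2 D.ι D.τ D.qq D.s D.tχ D.δ D.hs D.hs1 D.htδ D.htχ D.hδ
      D.m D.h D.d D.T0 D.j0 D.Sig0 D.Phi0 D.Psi0 D.hPsi0 n T1 j1 Sig1 Phi1 x1 Tχ jχ Sigχ Phiχ xχ
      hdat
  obtain ⟨𝔓, h𝔓, hlam𝔓, hB⟩ := hout D.O D.lam D.hlam D.h2 D.ι D.τ D.qq D.δ D.hqq D.hqq1 D.hδ
    D.m D.h D.d D.hm D.hd hχ hQ hCr D.T0 D.j0 D.hj0 (rttwBaseVal D.Sig0 D.Psi0) hlev
  refine D.interp 𝔓 h𝔓 hlam𝔓 fun i => ?_
  obtain ⟨h0, h1, h2⟩ := hB i
  exact ⟨h0, h1, h2⟩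

/-- **The algebraic side of the K-machine is closed, even form**: `StmtTR` follows from the
even product `StmtProdE` of the arithmetic side alone. -/
theorem stmtTR_of_prodE (hprod : StmtProdE) : StmtTR :=
  stmtTR_of_E hprod Fermat.Agent.RT.G2.stmtG2E Fermat.Agent.RT.Even.stmtOutTWE stmtK2Dom
    stmtK2Qur

section OfOld

variable {O : Type*} [CommRing O] [IsLocalRing O] {ι τ : Type*}

/-- A Taylor–Wiles datum is an even one (for every `h`). -/
theorem ribtre_datum_toE {q s tχ : ι → O} {lam : O} {m d : ℕ}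
    {T0 : Type*} [CommRing T0] [Algebra O T0] {j0 : T0 →ₐ[O] Matrix (Fin d) (Fin d) O}
    {Sig0 Phi0 : ι → Matrix (Fin 2) (Fin 2) T0} {n : ℕ}
    {T1 : Type*} [CommRing T1] [Algebra O T1]
    {j1 : T1 →ₐ[O] Matrix (Fin d) (Fin d) (RttwS O m ⧸ maximalIdeal (RttwS O m) ^ n)}
    {Sig1 Phi1 : ι → Matrix (Fin 2) (Fin 2) T1} {x1 : τ → T1}
    {Tχ : Type*} [CommRing Tχ] [Algebra O Tχ]
    {jχ : Tχ →ₐ[O] Matrix (Fin d) (Fin d) (RttwS O m ⧸ maximalIdeal (RttwS O m) ^ n)}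
    {Sigχ Phiχ : ι → Matrix (Fin 2) (Fin 2) Tχ} {xχ : τ → Tχ}
    (H : TWDatum q s tχ lam m d j0 Sig0 Phi0 n j1 Sig1 Phi1 x1 jχ Sigχ Phiχ xχ) (h : ℕ) :
    TWDatumE q s tχ lam m h d j0 Sig0 Phi0 n j1 Sig1 Phi1 x1 jχ Sigχ Phiχ xχ where
  side1 := H.side1.toE _
  sideχ := H.sideχ.toE _
  rel1 := H.rel1
  relχ := H.relχ
  cong_sig := H.cong_sig
  cong_phi := H.cong_phi
  cong_x := H.cong_x
  base_sig := H.base_sig
  base_phi := H.base_phi
  base_T0 := H.base_T0

end OfOld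

/-- The old product is an even one (with `h = 0`). -/
def ProdData.toE {P : FreyPackage} {N q : ℕ} (D : ProdData P N q) : ProdDataE P N q where
  O := D.O
  lam := D.lam
  hlam := D.hlam
  h2 := D.h2
  ι := D.ι
  τ := D.τ
  qq := D.qq
  s := D.s
  tχ := D.tχ
  δ := D.δ
  hs := D.hs
  hs1 := D.hs1
  hqq := D.hqq
  hqq1 := D.hqq1
  htδ := D.htδ
  htχ := D.htχ
  hδ := D.hδ
  hδ0 := D.hδ0
  m := D.m
  h := 0
  d := D.d
  hm := D.hm
  hd := D.hd
  T0 := D.T0
  j0 := D.j0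
  hj0 := D.hj0
  Sig0 := D.Sig0
  Phi0 := D.Phi0
  Psi0 := D.Psi0
  hPsi0 := D.hPsi0
  level := fun n => by
    obtain ⟨T1, i1, i2, j1, Sig1, Phi1, x1, Tχ, i3, i4, jχ, Sigχ, Phiχ, xχ, hdat⟩ := D.level n
    exact ⟨T1, i1, i2, j1, Sig1, Phi1, x1, Tχ, i3, i4, jχ, Sigχ, Phiχ, xχ,
      ribtre_datum_toE hdat 0⟩
  interp := D.interp

theorem stmtProdE_of_prod (hprod : StmtProd) : StmtProdE := by
  intro P N q hcond hpN hq hq2 hqN hirr hmod hall
  obtain ⟨D⟩ := hprod P N q hcond hpN hq hq2 hqN hirr hmod hall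
  exact ⟨D.toE⟩

end Fermat.Agent.RIB


end ZBRT_017_7

/-! ### bundled: `Fermat.Agent.RT.Prod.Final` -/
section ZBRT_017_8
/-
K-machine, PROD (helper70): THE FINAL ASSEMBLY of the arithmetic side.

    stmtProdE_of        : StmtKSetup → StmtHecke → (∀ O, StmtK3Sel O) → StmtK8 → RIB.StmtProdE
    stmtTR_of_contracts : StmtKSetup → StmtHecke → (∀ O, StmtK3Sel O) → StmtK8 → RIB.StmtTR
    stmtProdE_ofE, stmtTR_of_contractsE : the same with `StmtK8E` (K8 restricted to `5 ≤ q`)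

(`StmtKSetup`, `StmtHecke`: `RT/Prod/FinalPlan.lean`; `StmtK3Sel`: `RT/PlanK3.lean`, proved in
`RT/K3/Done.lean`; `StmtK8`: `RT/Interp/Plan.lean`.)

* `HeckeData.level_datum` : `D.level` (the Galois-side datum `TWGal`) + `rtpa_pre` (LOC-gen,
  K3-Alg) + `rtprod_datumE` ⇒ the `TWDatumE` of level `n`;
* `HeckeData.interp`      : a prime `𝔓` of `T0` with `λ ∉ 𝔓`, `Σ⁰ ≡ 1 mod 𝔓` ⇒ `Lowered P N q`
  (`rtpu_hunr` of helper27, `rtint_point_of_quot` and `rtint_lowered` of helper46);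
* `HeckeData.isUnit_cayley` + `rtpf_exists_cayley` : the Cayley parameters `Ψ⁰_i`;
* `rtpf_prodDataE`        : the `RIB.ProdDataE`.
-/

set_option autoImplicit false
set_option linter.style.haveILetI false
set_option linter.unusedSectionVars false

namespace Fermat.Agent.RT.Prod

open IsLocalRing Fermat.Agent.TW Fermat.Agent.RT Fermat.Agent.RT.K1 ExtCitation Polynomial
open WeierstrassCurve WeierstrassCurve.Affine WeierstrassCurve.Affine.Point

/-! ### Generalities over a Noetherian local ring -/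

section Noeth

variable {A : Type} [CommRing A] [IsLocalRing A] [IsNoetherianRing A]

/-- the determinant of a representation with cyclotomic determinant over a Noetherian local
ring is determined by the action on the `p`-power roots of unity -/
theorem rtpf_det_eq (p : ℕ) (ρ : GaloisRepAdic A) (hdet : ρ.DetIsCyclotomic p) (g : RtpaG)
    (a : ℕ) (h : ∀ (n : ℕ) (μ : AlgebraicClosure ℚ), μ ^ p ^ n = 1 → g μ = μ ^ a) :
    LinearMap.det (ρ.ρ g) = (a : A) := by
  have hmem : ∀ n, LinearMap.det (ρ.ρ g) - (a : A) ∈ maximalIdeal A ^ n := by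
    intro n
    have h1 := hdet.2 n g a (h n)
    have h2 : Ideal.span {((p ^ n : ℕ) : A)} ≤ maximalIdeal A ^ n := by
      rw [Ideal.span_singleton_le_iff_mem, Nat.cast_pow]
      exact Ideal.pow_mem_pow hdet.1 n
    exact h2 h1
  have h3 : LinearMap.det (ρ.ρ g) - (a : A) ∈ ⨅ n, maximalIdeal A ^ n :=
    (Ideal.mem_iInf).mpr hmem
  rw [Ideal.iInf_pow_eq_bot_of_isLocalRing _ (Ideal.IsMaximal.ne_top inferInstance)] at h3
  exact sub_eq_zero.mp h3

theorem rtpf_det_inertia (p r : ℕ) [hp : Fact p.Prime] [hr : Fact r.Prime] (hrp : r ≠ p)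
    (ρ : GaloisRepAdic A) (hdet : ρ.DetIsCyclotomic p) (g : RtpaG)
    (hg : g ∈ (padicPlace r).inertiaSubgroupIn ℚ) :
    LinearMap.det (ρ.ρ g) = 1 := by
  have := rtpf_det_eq p ρ hdet g 1 (fun n _ hμ => by
    rw [pow_one]
    exact Fermat.Agent.S31.inertia_rootOfUnity (padicPlace r)
      (Fermat.Agent.S31.natCast_pow_not_mem_nonunits (padicPlace r) hp.out hr.out hrp
        (Fermat.Agent.TW.L.lfrobex_liesOverPrime r) n)
      (pow_ne_zero n hp.out.ne_zero) hg hμ)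
  rw [this, Nat.cast_one]

end Noeth

section Cayley

variable {T : Type*} [CommRing T]

theorem rtpf_exists_cayley (s : T) (Phi : Matrix (Fin 2) (Fin 2) T)
    (hu : IsUnit (2 * s + Phi.trace)) : ∃ Psi, IsCayleyParam s Phi Psi := by
  obtain ⟨u, hu⟩ := hu
  refine ⟨(↑u⁻¹ : T) • (2 • Phi - Phi.trace • (1 : Matrix (Fin 2) (Fin 2) T)), ?_⟩
  unfold IsCayleyParam
  rw [← hu, smul_smul, Units.mul_inv, one_smul]

end Cayley

/-! ### The base -/

section Base

variable {P : FreyPackage} {N q : ℕ}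

instance KSetup.instFactR (Y : KSetup P N q) (i : Y.ι) : Fact (Y.r i).Prime := ⟨Y.r_prime i⟩

theorem rtpf_fact_p (P : FreyPackage) : Fact P.p.Prime := ⟨P.pp⟩

theorem KSetup.unram (Y : KSetup P N q) (i : Y.ι) : Y.ρbar.IsUnramifiedAt (Y.r i) := by
  by_contra h
  exact (Y.hT _ (Y.mem_T i)).2.1 ((Y.hyp.hmin (Y.r i) (Y.r_prime i) (Y.r_ne_p i)).mpr h)

theorem KSetup.resφ (Y : KSetup P N q) (i : Y.ι) : ∃ z : ℤ, (z = 1 ∨ z = -1) ∧
    Y.ρbar.ρ (Y.φ i) = (z : Module.End (ResidueField Y.O) Y.ρbar.V) ∧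
    Y.s i - (z : Y.O) ∈ maximalIdeal Y.O := by
  rcases Y.hs i with ⟨h1, h2⟩ | ⟨h1, h2⟩
  · exact ⟨1, Or.inl rfl, by rw [h1, Int.cast_one], by rwa [Int.cast_one]⟩
  · exact ⟨-1, Or.inr rfl, by rw [h1, Int.cast_neg, Int.cast_one],
      by rwa [Int.cast_neg, Int.cast_one, sub_neg_eq_add]⟩

variable [NeZero N] {Y : KSetup P N q} {h : ℕ} (D : HeckeData Y h)

namespace HeckeData

instance instNoethT0 : IsNoetherianRing D.T0 := IsNoetherianRing.of_finite Y.O D.T0

theorem algebraMap_injective : Function.Injective (algebraMap Y.O D.T0) := by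
  intro x y hxy
  have h1 := congrArg D.j0 hxy
  rw [AlgHom.commutes, AlgHom.commutes] at h1
  have h2 := congrFun (congrFun h1 ⟨0, D.hd⟩) ⟨0, D.hd⟩
  rw [Matrix.algebraMap_matrix_apply, Matrix.algebraMap_matrix_apply, if_pos rfl, if_pos rfl]
    at h2
  exact h2

theorem map_mem {x : Y.O} (hx : x ∈ maximalIdeal Y.O) :
    algebraMap Y.O D.T0 x ∈ maximalIdeal D.T0 := by
  haveI : FaithfulSMul Y.O D.T0 :=
    (faithfulSMul_iff_algebraMap_injective Y.O D.T0).mpr D.algebraMap_injective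
  haveI : Algebra.IsIntegral Y.O D.T0 := inferInstance
  exact map_nonunit (algebraMap Y.O D.T0) x hx

theorem resI (i : Y.ι) : ∀ τ ∈ (padicPlace (Y.r i)).inertiaSubgroupIn ℚ,
    D.ρ0.residual.ρ τ = 1 := by
  intro τ hτ
  have h1 : Y.ρbar.ρ τ = ((1 : ℤ) : Module.End (ResidueField Y.O) Y.ρbar.V) := by
    rw [Int.cast_one]
    exact Y.unram i (padicPlace (Y.r i)) (Fermat.Agent.TW.L.lfrobex_liesOverPrime (Y.r i)) τ hτ
  have h2 := rtk3a_residual_intCast D.ι0 Y.ρbar D.ρ0.residual D.hres0 τ 1 h1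
  rw [h2, Int.cast_one]

/-- `Σ⁰_i` -/
noncomputable def Sig0 (i : Y.ι) : Matrix (Fin 2) (Fin 2) D.T0 :=
  LinearMap.toMatrix D.b0 D.b0 (D.ρ0.ρ (Y.σ i))

/-- `Φ⁰_i` -/
noncomputable def Phi0 (i : Y.ι) : Matrix (Fin 2) (Fin 2) D.T0 :=
  LinearMap.toMatrix D.b0 D.b0 (D.ρ0.ρ (Y.φ i))

theorem det_Sig0 (i : Y.ι) : (D.Sig0 i).det = 1 := by
  haveI := rtpf_fact_p P
  unfold Sig0
  rw [LinearMap.det_toMatrix]
  exact rtpf_det_inertia P.p (Y.r i) (Y.r_ne_p i) D.ρ0 D.hdet0 (Y.σ i) (Y.hloc i).inertia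

theorem isUnit_two : IsUnit (2 : D.T0) := by
  have := Y.h2.map (algebraMap Y.O D.T0)
  rwa [map_ofNat] at this

theorem isUnit_cayley (i : Y.ι) :
    IsUnit (2 * algebraMap Y.O D.T0 (Y.s i) + (D.Phi0 i).trace) := by
  obtain ⟨z, hz, hz1, hz2⟩ := Y.resφ i
  have h1 := rtk3a_residual_intCast D.ι0 Y.ρbar D.ρ0.residual D.hres0 (Y.φ i) z hz1
  have h00 := rtpa_entries_mem D.ρ0 D.b0 (Y.φ i) z h1 0 0
  have h11 := rtpa_entries_mem D.ρ0 D.b0 (Y.φ i) z h1 1 1
  have hzd : ∀ a : Fin 2, (z : Matrix (Fin 2) (Fin 2) D.T0) a a = (z : D.T0) := fun a =>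
    Matrix.diagonal_apply_eq _ _
  rw [Matrix.sub_apply, hzd] at h00 h11
  have hs := D.map_mem hz2
  rw [map_sub, map_intCast] at hs
  have hmem : 2 * algebraMap Y.O D.T0 (Y.s i) + (D.Phi0 i).trace - 4 * (z : D.T0) ∈
      maximalIdeal D.T0 := by
    have e : 2 * algebraMap Y.O D.T0 (Y.s i) + (D.Phi0 i).trace - 4 * (z : D.T0) =
        2 * (algebraMap Y.O D.T0 (Y.s i) - (z : D.T0)) +
          ((LinearMap.toMatrix D.b0 D.b0 (D.ρ0.ρ (Y.φ i)) 0 0 - (z : D.T0)) +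
           (LinearMap.toMatrix D.b0 D.b0 (D.ρ0.ρ (Y.φ i)) 1 1 - (z : D.T0))) := by
      rw [Matrix.trace_fin_two]
      unfold Phi0
      ring
    rw [e]
    exact Ideal.add_mem _ (Ideal.mul_mem_left _ _ hs) (Ideal.add_mem _ h00 h11)
  have h4 : IsUnit (4 * (z : D.T0)) := by
    have h2 := D.isUnit_two
    have e4 : (4 : D.T0) = 2 * 2 := by norm_num
    rcases hz with rfl | rfl
    · rw [Int.cast_one, mul_one, e4]
      exact h2.mul h2
    · rw [Int.cast_neg, Int.cast_one, mul_neg, mul_one, e4]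
      exact (h2.mul h2).neg
  by_contra hnu
  have hm : 2 * algebraMap Y.O D.T0 (Y.s i) + (D.Phi0 i).trace ∈ maximalIdeal D.T0 :=
    (mem_maximalIdeal _).mpr hnu
  have : 4 * (z : D.T0) ∈ maximalIdeal D.T0 := by
    have := Ideal.sub_mem _ hm hmem
    rwa [sub_sub_cancel] at this
  exact (mem_maximalIdeal _).mp this h4

/-- **INTERP for the base**: a prime `𝔓` of `T0` with `λ ∉ 𝔓` and `Σ⁰_i ≡ 1 mod 𝔓` gives
`Lowered P N q`. -/
theorem interp (hK8 : Fermat.Agent.RT.Interp.StmtK8E) (hsq : Squarefree N) (hpN : ¬ P.p ∣ N)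
    (hq : q.Prime) (hq2 : q ≠ 2) (hq5 : 5 ≤ q) (hqN : q ∣ N)
    (𝔓 : Ideal D.T0) (h𝔓 : 𝔓.IsPrime) (hl : algebraMap Y.O D.T0 Y.lam ∉ 𝔓)
    (hS : ∀ i, (D.Sig0 i - 1) 0 0 ∈ 𝔓 ∧ (D.Sig0 i - 1) 0 1 ∈ 𝔓 ∧ (D.Sig0 i - 1) 1 0 ∈ 𝔓) :
    Fermat.Agent.RIB.Lowered P N q := by
  haveI := rtpf_fact_p P
  obtain ⟨i0, -, hi0⟩ := Finset.mem_image.mp ((Y.hr q).mpr ⟨hq, hq2, hqN⟩)
  have hchar : ∀ n : ℕ, n ≠ 0 → (n : D.T0) ∉ 𝔓 := fun n hn =>
    Fermat.Agent.RT.Interp.rtint_natCast_not_mem Y.lam Y.hlam 𝔓 hl n hn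
  have hall := rtpu_all_entries 𝔓 (D.Sig0 i0) (D.det_Sig0 i0) (hS i0).1 (hS i0).2.1 (hS i0).2.2
  have hunr := rtpu_hunr P.p (Y.r i0) D.hdet0.1 (Y.σ i0) (Y.φ i0) (Y.hloc i0) D.ρ0 D.b0
    (D.resI i0) 𝔓 hall
  rw [hi0] at hunr
  obtain ⟨pt⟩ := Fermat.Agent.RT.Interp.rtint_point_of_quot P N q Y.W Y.hW D.S' D.hpS' D.hNS'
    𝔓 h𝔓 hchar D.hdet0.1 D.a (fun t ht h0 => by rw [D.hocc t ht h0]; exact zero_mem _)
    D.hcong D.ρ0 D.hfrob D.habs0 hunr
  exact Fermat.Agent.RT.Interp.rtint_loweredE hK8 P hsq hq (fun h => hpN (h ▸ hqN)) hq2 hq5 pt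

/-- **The level data**: a Taylor–Wiles family with the tangent bound of K3-Sel gives a
`TWDatumE`. -/
theorem level_datum (n : ℕ) (qv : Fin h → ℕ)
    (hfam : IsTWFamily P.p Y.ρbar (Y.Smin ∪ Finset.univ.image Y.r) n h qv) (g : ℕ)
    (hcard : TwTanCard Y.O Y.ρbar
      (rtk3Flat Y.O P.p Y.Smin (Finset.univ.image qv) (Finset.univ.image Y.r))
      (Nat.card (ResidueField Y.O) ^ g)) :
    ∃ (T1 : Type) (_ : CommRing T1) (_ : Algebra Y.O T1)
      (j1 : T1 →ₐ[Y.O] Matrix (Fin D.d) (Fin D.d)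
        (RttwS Y.O (Y.m h) ⧸ maximalIdeal (RttwS Y.O (Y.m h)) ^ n))
      (Sig1 Phi1 : Y.ι → Matrix (Fin 2) (Fin 2) T1)
      (x1 : Fin (g + 4 * (Finset.univ.image Y.r).card) → T1)
      (Tχ : Type) (_ : CommRing Tχ) (_ : Algebra Y.O Tχ)
      (jχ : Tχ →ₐ[Y.O] Matrix (Fin D.d) (Fin D.d)
        (RttwS Y.O (Y.m h) ⧸ maximalIdeal (RttwS Y.O (Y.m h)) ^ n))
      (Sigχ Phiχ : Y.ι → Matrix (Fin 2) (Fin 2) Tχ)
      (xχ : Fin (g + 4 * (Finset.univ.image Y.r).card) → Tχ),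
      TWDatumE (fun i => (Y.r i : Y.O)) Y.s Y.tχ Y.lam (Y.m h) h D.d D.j0 D.Sig0 D.Phi0 n
        j1 Sig1 Phi1 x1 jχ Sigχ Phiχ xχ := by
  haveI := rtpf_fact_p P
  obtain ⟨A, iA1, iA2, iA3, ιA, ρ, b, β, βi, π1, πχ, H⟩ := D.level n qv hfam
  obtain ⟨x, hx⟩ := rtpa_pre P.p Y.ρbar (Y.Smin ∪ Finset.univ.image Y.r) Y.Smin
    (Finset.univ.image qv) Y.r Y.σ Y.φ Y.s Y.tχ Y.lam (Y.m h) D.d D.j0 _ _ n _ ιA ρ b β βi π1 πχ
    Y.hyp Y.hT g hcard (fun i => Y.hloc i) Y.hs2 Y.hs H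
  have hlam : Y.lam ∈ maximalIdeal Y.O := by
    rw [Y.hlam]
    exact Ideal.mem_span_singleton_self _
  have key := rtprod_datumE P.p Y.r (fun i => (Y.r i : Y.O)) Y.s Y.tχ Y.δ Y.lam hlam
    (fun _ => rfl) Y.p_dvd (fun i => (Y.r_prime i).one_le) Y.htδ
    (fun i => by rw [Y.tχ_add_δ i, Y.hζ.pow_eq_one]) Y.two_mul_δ_ne
    (fun i => rtpf_exists_of_mem Y.hlam (Y.tχ_sub_one_mem i)) (Y.m h) h D.d D.j0 _ _ n π1 πχ
    _ _ x hx
  exact ⟨RtprodQ π1, inferInstance, inferInstance, rtprodJ π1, _, _, _,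
    RtprodQ πχ, inferInstance, inferInstance, rtprodJ πχ, _, _, _, key⟩

end HeckeData

end Base

/-! ### The final assembly -/

section Final

open Fermat.Agent.RIB

/-- **PROD**: the product of the arithmetic side from a setup, the Hecke data, K3-Sel and
K8. -/
theorem rtpf_prodDataE (hK8 : Fermat.Agent.RT.Interp.StmtK8E) {P : FreyPackage} {N q : ℕ}
    [NeZero N] (hsq : Squarefree N) (hpN : ¬ P.p ∣ N) (hq : q.Prime) (hq2 : q ≠ 2)
    (hq5 : 5 ≤ q) (hqN : q ∣ N) (Y : KSetup P N q) (h : ℕ) (hh : 3 * (Finset.univ.image Y.r).card ≤ h)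
    (hsel : ∀ n : ℕ, ∃ qv : Fin h → ℕ,
      IsTWFamily P.p Y.ρbar (Y.Smin ∪ Finset.univ.image Y.r) n h qv ∧
      TwTanCard Y.O Y.ρbar
        (rtk3Flat Y.O P.p Y.Smin (Finset.univ.image qv) (Finset.univ.image Y.r))
        (Nat.card (ResidueField Y.O) ^ (h - 3 * (Finset.univ.image Y.r).card)))
    (D : HeckeData Y h) : Nonempty (ProdDataE P N q) := by
  classical
  have hPsi : ∀ i, ∃ Psi, IsCayleyParam (algebraMap Y.O D.T0 (Y.s i)) (D.Phi0 i) Psi :=
    fun i => rtpf_exists_cayley _ _ (D.isUnit_cayley i)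
  choose Psi0 hPsi0 using hPsi
  exact ⟨
    { O := Y.O
      lam := Y.lam
      hlam := Y.hlam
      h2 := Y.h2
      ι := Y.ι
      τ := Fin (h - 3 * (Finset.univ.image Y.r).card + 4 * (Finset.univ.image Y.r).card)
      qq := fun i => (Y.r i : Y.O)
      s := Y.s
      tχ := Y.tχ
      δ := Y.δ
      hs := Y.hs2
      hs1 := Y.hs1
      hqq := Y.hqq
      hqq1 := Y.hqq1
      htδ := Y.htδ
      htχ := fun i => rtpf_exists_of_mem Y.hlam (Y.tχ_sub_one_mem i)
      hδ := fun i => by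
        have := rtpf_exists_of_mem Y.hlam (x := Y.δ i) (y := 0) (by rw [sub_zero]; exact Y.δ_mem i)
        simpa using this
      hδ0 := Y.δ_ne
      m := Y.m h
      h := h
      d := D.d
      hm := by
        rw [Fintype.card_fin, Y.card_T] at *
        show _ ≤ h + 4 * Fintype.card Y.ι
        omega
      hd := D.hd
      T0 := D.T0
      j0 := D.j0
      hj0 := D.hj0
      Sig0 := D.Sig0
      Phi0 := D.Phi0
      Psi0 := Psi0
      hPsi0 := hPsi0
      level := fun n => by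
        obtain ⟨qv, hfam, hcard⟩ := hsel n
        exact D.level_datum n qv hfam _ hcard
      interp := fun 𝔓 h𝔓 hl hS => D.interp hK8 hsq hpN hq hq2 hq5 hqN 𝔓 h𝔓 hl hS }⟩

/-- **`StmtProdE` from the two contracts** (`StmtKSetup`, `StmtHecke`), K3-Sel and K8 in the
restricted form `StmtK8E` (`5 ≤ q`; the prime `q` is trivial, hence `q ≡ 1 mod p`). -/
theorem stmtProdE_ofE (hsetup : StmtKSetup) (hhecke : StmtHecke)
    (hsel : ∀ (O : Type) [CommRing O] [IsDomain O] [IsDiscreteValuationRing O]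
      [IsAdicComplete (maximalIdeal O) O] [Finite (ResidueField O)], StmtK3Sel O)
    (hK8 : Fermat.Agent.RT.Interp.StmtK8E) : StmtProdE := by
  intro P N q hcond hpN hq hq2 hqN hirr hmod hall
  haveI : NeZero N := ⟨hcond.pos.ne'⟩
  haveI := rtpf_fact_p P
  obtain ⟨Y⟩ := hsetup P N q hcond hpN hq hq2 hqN hirr hmod hall
  obtain ⟨h, hh, hQ⟩ := hsel Y.O P.p Y.ρbar (Y.Smin ∪ Finset.univ.image Y.r) Y.Smin
    (Finset.univ.image Y.r) Y.hyp Y.hT Finset.subset_union_right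
  obtain ⟨D⟩ := hhecke P N q hcond hpN hq hq2 hqN hirr hmod hall Y h
  exact rtpf_prodDataE hK8 hcond.squarefree hpN hq hq2
    (Fermat.Agent.RT.Interp.rtint_five_le_of_trivial (hall q hq hq2 hqN)) hqN Y h hh hQ D

/-- **`StmtProdE` from the two contracts** (`StmtKSetup`, `StmtHecke`), K3-Sel and K8. -/
theorem stmtProdE_of (hsetup : StmtKSetup) (hhecke : StmtHecke)
    (hsel : ∀ (O : Type) [CommRing O] [IsDomain O] [IsDiscreteValuationRing O]
      [IsAdicComplete (maximalIdeal O) O] [Finite (ResidueField O)], StmtK3Sel O)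
    (hK8 : Fermat.Agent.RT.Interp.StmtK8) : StmtProdE :=
  stmtProdE_ofE hsetup hhecke hsel (Fermat.Agent.RT.Interp.stmtK8E_of_stmtK8 hK8)

/-- **`StmtTR` from the two contracts**, K3-Sel and K8 (restricted form). -/
theorem stmtTR_of_contractsE (hsetup : StmtKSetup) (hhecke : StmtHecke)
    (hsel : ∀ (O : Type) [CommRing O] [IsDomain O] [IsDiscreteValuationRing O]
      [IsAdicComplete (maximalIdeal O) O] [Finite (ResidueField O)], StmtK3Sel O)
    (hK8 : Fermat.Agent.RT.Interp.StmtK8E) : StmtTR :=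
  stmtTR_of_prodE (stmtProdE_ofE hsetup hhecke hsel hK8)

/-- **`StmtTR` from the two contracts**, K3-Sel and K8. -/
theorem stmtTR_of_contracts (hsetup : StmtKSetup) (hhecke : StmtHecke)
    (hsel : ∀ (O : Type) [CommRing O] [IsDomain O] [IsDiscreteValuationRing O]
      [IsAdicComplete (maximalIdeal O) O] [Finite (ResidueField O)], StmtK3Sel O)
    (hK8 : Fermat.Agent.RT.Interp.StmtK8) : StmtTR :=
  stmtTR_of_prodE (stmtProdE_of hsetup hhecke hsel hK8)

end Final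

end Fermat.Agent.RT.Prod


end ZBRT_017_8
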