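/- GENERATED FILE (helper35, build-time optimisation, NOTES/ZB.md): verbatim concatenation of the modules
   Fermat.Agent.RIB.MP.RepN
   Fermat.Agent.RIB.MP.PkgQ
   Fermat.Agent.RIB.S43Of
   Fermat.Agent.RIB.S43Top
   Do not edit; do not import together with these modules. -/
import Fermat.Agent.ZB.RIB_001
import Fermat.Agent.ZB.S53_001
import Fermat.Agent.ZB.RIB_006
import Fermat.Agent.ZB.RIB_009
import Fermat.Agent.ZB.S49_004
import Fermat.Agent.ZB.INJ_034
import Fermat.Agent.ZB.S07_002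
import Fermat.Agent.ZB.S05_006
import Fermat.Agent.ZB.RT_017
import Fermat.Agent.ZB.RT_007

/-! ### bundled: `Fermat.Agent.RIB.MP.RepN` -/
section ZBRIB_010_0

/-!
# MP-1: a copy of `E[p]` in an Eichler–Shimura module of arbitrary level

`stmtRepN : StmtRepN` — the proof of `R38.stmtRep` (`R38/Rep.lean`) at an arbitrary level `N`:
it only uses the clauses `finite`, `smul_comm`, `finite_level`, `frob` of `ESDataInf N p J`.
The algebra (`R38/RepAlg.lean`) and the absolute irreducibility of `E[p]` (`r38rep_span`) are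
shared.
-/

set_option autoImplicit false

noncomputable section

namespace Fermat.Agent.RIB.MP

open ModularCurve Fermat.Agent.ES Fermat.Agent.S42 Fermat.Agent.RED Fermat.Agent.EC.DetChar
open Fermat.Agent.R38
open WeierstrassCurve WeierstrassCurve.Affine WeierstrassCurve.Affine.Point

/-! ### the eigen-space -/

section Eigen

variable (W : WeierstrassCurve ℤ) (N p : ℕ) (J : Type) [AddCommGroup J] [Module HeckeAlg J]

/-- the eigen-space of the system `a_ℓ(W)` in `J[p]` -/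
def ribmp_repU : AddSubgroup J where
  carrier := {x | p • x = 0 ∧
    ∀ ℓ ∈ goodAt W N p, heckeGen ℓ • x = (W.apOfModel ℓ : ℤ) • x}
  zero_mem' := ⟨smul_zero _, fun ℓ _ => by rw [smul_zero, smul_zero]⟩
  add_mem' := by
    rintro x y ⟨hx, hx'⟩ ⟨hy, hy'⟩
    refine ⟨by rw [smul_add, hx, hy, add_zero], fun ℓ hℓ => ?_⟩
    rw [smul_add, smul_add, hx' ℓ hℓ, hy' ℓ hℓ]
  neg_mem' := by
    rintro x ⟨hx, hx'⟩
    refine ⟨by rw [smul_neg, hx, _root_.neg_zero], fun ℓ hℓ => ?_⟩
    rw [smul_neg, smul_neg, hx' ℓ hℓ]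

variable {W N p J}

instance ribmp_repUModule : Module (ZMod p) (ribmp_repU W N p J) :=
  AddCommGroup.zmodModule fun x => Subtype.ext (by
    rw [AddSubgroup.coe_nsmul, AddSubgroup.coe_zero]
    exact x.2.1)

variable [DistribMulAction GQ J]

theorem ribmp_rep_stable (hcomm : ∀ (σ : GQ) (t : HeckeAlg) (x : J), σ • t • x = t • σ • x)
    (σ : GQ) {x : J} (hx : x ∈ ribmp_repU W N p J) : σ • x ∈ ribmp_repU W N p J := by
  refine ⟨?_, fun ℓ hℓ => ?_⟩
  · have := map_nsmul (DistribSMul.toAddMonoidHom J σ) p x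
    simp only [DistribSMul.toAddMonoidHom_apply] at this
    rw [← this, hx.1, smul_zero]
  · rw [← hcomm, hx.2 ℓ hℓ]
    have := map_zsmul (DistribSMul.toAddMonoidHom J σ) (W.apOfModel ℓ) x
    simpa only [DistribSMul.toAddMonoidHom_apply] using this

/-- the action of `G_ℚ` on the eigen-space -/
def ribmp_repTheta (hcomm : ∀ (σ : GQ) (t : HeckeAlg) (x : J), σ • t • x = t • σ • x) :
    GQ →* Module.End (ZMod p) (ribmp_repU W N p J) where
  toFun σ := AddMonoidHom.toZModLinearMap p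
    { toFun := fun x => ⟨σ • (x : J), ribmp_rep_stable hcomm σ x.2⟩
      map_zero' := Subtype.ext (smul_zero σ)
      map_add' := fun x y => Subtype.ext (smul_add σ (x : J) (y : J)) }
  map_one' := by
    apply LinearMap.ext
    intro x
    exact Subtype.ext (one_smul GQ (x : J))
  map_mul' σ τ := by
    apply LinearMap.ext
    intro x
    exact Subtype.ext (mul_smul σ τ (x : J))

@[simp] theorem ribmp_rep_theta_apply
    (hcomm : ∀ (σ : GQ) (t : HeckeAlg) (x : J), σ • t • x = t • σ • x) (σ : GQ)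
    (x : ribmp_repU W N p J) :
    ((ribmp_repTheta hcomm σ x : ribmp_repU W N p J) : J) = σ • (x : J) := rfl

end Eigen

/-! ### the characteristic polynomials -/

section Main

variable {W : WeierstrassCurve ℤ} {N p : ℕ} {J : Type} [AddCommGroup J] [Module HeckeAlg J]
  [DistribMulAction GQ J]

/-- the Eichler–Shimura relation on the eigen-space, for a Frobenius at a good prime, in terms of
the trace and the determinant on `E[p]` -/
theorem ribmp_rep_frob_rel [hpF : Fact p.Prime] (hΔ : W.Δ ≠ 0) (hirr : W.ModRepIsIrreducible p)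
    (hN : 0 < N) (hES : ESDataInf N p J) {ℓ : ℕ} (hℓ : ℓ.Prime)
    (hℓS : ℓ ∉ excSet W p ∪ N.primeFactors)
    {A : ValuationSubring (AlgebraicClosure ℚ)} (hA : A.LiesOverPrime ℓ) {τ : GQ}
    (hτ : A.IsFrobeniusAt τ ℓ) :
    ribmp_repTheta (W := W) (N := N) (p := p) hES.smul_comm τ * ribmp_repTheta hES.smul_comm τ
      - LinearMap.trace (ZMod p) (TorsQbar (W.map (Int.castRingHom ℚ)) p)
          (rhoBar (W.map (Int.castRingHom ℚ)) p τ) • ribmp_repTheta hES.smul_comm τ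
      + LinearMap.det (rhoBar (W.map (Int.castRingHom ℚ)) p τ)
          • (1 : Module.End (ZMod p) (ribmp_repU W N p J)) = 0 := by
  have hp : p.Prime := hpF.out
  obtain ⟨h2, hd, hg⟩ := (not_mem_excSet_iff W hΔ hp.ne_zero hℓ).1
    (fun h => hℓS (Finset.mem_union_left _ h))
  have hℓN : ¬ ℓ ∣ N := fun h => hℓS (Finset.mem_union_right _
    (Nat.mem_primeFactors.mpr ⟨hℓ, h, hN.ne'⟩))
  have hℓp : ℓ ≠ p := by
    rintro rfl
    exact hd dvd_rfl
  have hℓNp : ¬ ℓ ∣ N * p := fun h => (hℓ.dvd_mul.mp h).elim hℓN hd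
  have htr : LinearMap.trace (ZMod p) (TorsQbar (W.map (Int.castRingHom ℚ)) p)
      (rhoBar (W.map (Int.castRingHom ℚ)) p τ) = (W.apOfModel ℓ : ZMod p) :=
    galoisTrace_frob_of_model W hΔ hirr hℓ h2 hℓp hg hA hτ
  have hdet : LinearMap.det (rhoBar (W.map (Int.castRingHom ℚ)) p τ) = (ℓ : ZMod p) := by
    rw [det_of_model W hΔ hirr τ, cycloChar_frob p hp ℓ hℓ hℓp A hA τ hτ]
  rw [htr, hdet]
  apply LinearMap.ext
  intro x
  apply Subtype.ext
  rw [LinearMap.add_apply, LinearMap.sub_apply, Module.End.mul_apply, LinearMap.smul_apply,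
    LinearMap.smul_apply, Module.End.one_apply, LinearMap.zero_apply, Int.cast_smul_eq_zsmul,
    Nat.cast_smul_eq_nsmul, AddSubgroup.coe_add, AddSubgroup.coe_sub, AddSubgroup.coe_zsmul,
    AddSubgroup.coe_nsmul, AddSubgroup.coe_zero, ribmp_rep_theta_apply, ribmp_rep_theta_apply]
  have hfrob := hES.frob ℓ hℓ hℓNp A hA τ hτ (x : J) ⟨1, by rw [pow_one]; exact x.2.1⟩
  have heig := (ribmp_rep_stable hES.smul_comm τ x.2).2 ⟨ℓ, hℓ⟩ ⟨hℓNp, hg⟩
  rw [heig] at hfrob
  exact hfrob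

/-- a common finite level of `E[p]` and of the eigen-space -/
theorem ribmp_rep_level [hpF : Fact p.Prime] (hΔ : W.Δ ≠ 0) (hES : ESDataInf N p J) :
    ∃ F : IntermediateField ℚ (AlgebraicClosure ℚ), FiniteDimensional ℚ F ∧ IsGalois ℚ F ∧
      ∀ σ σ' : GQ, (∀ x ∈ F, σ x = σ' x) →
        rhoBar (W.map (Int.castRingHom ℚ)) p σ = rhoBar (W.map (Int.castRingHom ℚ)) p σ' ∧
        ribmp_repTheta (W := W) (N := N) (p := p) hES.smul_comm σ
          = ribmp_repTheta hES.smul_comm σ' := by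
  classical
  have hp : p.Prime := hpF.out
  have hcard := card_torsQbar W hΔ hp.ne_zero
  obtain ⟨F₁, hF₁fin, -, hρ, -⟩ := exists_level (finite_of_card hcard) p
  -- the levels of the points of `J[p]`
  have hJfin : Finite {x : J | p ^ 1 • x = 0} := (hES.finite 1).to_subtype
  let _ : Fintype {x : J | p ^ 1 • x = 0} := Fintype.ofFinite _
  have hlev : ∀ x : {x : J | p ^ 1 • x = 0}, ∃ E : IntermediateField ℚ (AlgebraicClosure ℚ),
      FiniteDimensional ℚ E ∧ ∀ σ : GQ, (∀ a ∈ E, σ a = a) → σ • (x : J) = x :=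
    fun x => hES.finite_level x ⟨1, x.2⟩
  choose Ev hEvfin hEv using hlev
  obtain ⟨F, hFfin, hFnorm, hFle⟩ := stmtHull (insert F₁ (Finset.univ.image Ev)) (by
    intro E hE
    rcases Finset.mem_insert.mp hE with rfl | hE
    · exact hF₁fin
    obtain ⟨v, -, rfl⟩ := Finset.mem_image.mp hE
    exact hEvfin v)
  have hF₁ : F₁ ≤ F := hFle _ (Finset.mem_insert_self _ _)
  have hFv : ∀ v, Ev v ≤ F := fun v => hFle _
    (Finset.mem_insert_of_mem (Finset.mem_image_of_mem Ev (Finset.mem_univ v)))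
  refine ⟨F, hFfin, IsGalois.mk, fun σ σ' h => ⟨hρ σ σ' fun x hx => h x (hF₁ hx), ?_⟩⟩
  apply LinearMap.ext
  intro x
  apply Subtype.ext
  rw [ribmp_rep_theta_apply, ribmp_rep_theta_apply]
  have hx : (x : J) ∈ {x : J | p ^ 1 • x = 0} := by
    show p ^ 1 • (x : J) = 0
    rw [pow_one]
    exact x.2.1
  have hfix : ∀ a ∈ Ev ⟨x, hx⟩, (σ'⁻¹ * σ) a = a := by
    intro a ha
    rw [AlgEquiv.mul_apply, h a (hFv _ ha)]
    exact σ'.symm_apply_apply a
  have := hEv ⟨x, hx⟩ _ hfix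
  rw [mul_smul, inv_smul_eq_iff] at this
  exact this

/-- **every `σ` satisfies, on the eigen-space, the characteristic polynomial of `ρ̄_E(σ)`** -/
theorem ribmp_rep_hrel [hpF : Fact p.Prime] (hΔ : W.Δ ≠ 0) (hirr : W.ModRepIsIrreducible p)
    (hN : 0 < N) (hES : ESDataInf N p J) (σ : GQ) :
    ribmp_repTheta (W := W) (N := N) (p := p) hES.smul_comm σ * ribmp_repTheta hES.smul_comm σ
      - LinearMap.trace (ZMod p) (TorsQbar (W.map (Int.castRingHom ℚ)) p)
          (rhoBar (W.map (Int.castRingHom ℚ)) p σ) • ribmp_repTheta hES.smul_comm σ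
      + LinearMap.det (rhoBar (W.map (Int.castRingHom ℚ)) p σ)
          • (1 : Module.End (ZMod p) (ribmp_repU W N p J)) = 0 := by
  have hp : p.Prime := hpF.out
  have hcard := card_torsQbar W hΔ hp.ne_zero
  have hdim := finrank_of_card hcard
  obtain ⟨F, hFfin, hFgal, hlev⟩ := ribmp_rep_level (W := W) (N := N) hΔ hES
  obtain ⟨ℓ, A, τ, m, hℓ, hℓS, hA, hτ, hm⟩ :=
    Fermat.Agent.Cheb.exists_frobenius_pow_eq F (excSet W p ∪ N.primeFactors) σ
  obtain ⟨h1, h2⟩ := hlev (τ ^ m) σ hm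
  rw [← h1, ← h2, map_pow, map_pow]
  have hfr := ribmp_rep_frob_rel hΔ hirr hN hES hℓ hℓS hA hτ
  refine r38rep_rel_pow hdim (rhoBar (W.map (Int.castRingHom ℚ)) p τ)
    (rhoBar (W.map (Int.castRingHom ℚ)) p τ⁻¹) ?_ ?_ (ribmp_repTheta hES.smul_comm τ)
    (ribmp_repTheta hES.smul_comm τ⁻¹) ?_ ?_ hfr m
  · rw [← map_mul, mul_inv_cancel, map_one]
  · rw [← map_mul, inv_mul_cancel, map_one]
  · rw [← map_mul, mul_inv_cancel, map_one]
  · rw [← map_mul, inv_mul_cancel, map_one]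

end Main

/-! ### MP-1 -/

/-- **MP-1**: `R38.StmtRep` at an arbitrary level. -/
theorem stmtRepN : StmtRepN := by
  intro W hΔ p hp hp2 hirr N hN J _ _ _ hES v hv0 hpv heig
  have hpF : Fact p.Prime := ⟨hp⟩
  have hcard := card_torsQbar W hΔ hp.ne_zero
  have hdim := finrank_of_card hcard
  have h2 : (2 : ZMod p) ≠ 0 := by
    intro h
    have h' : ((2 : ℕ) : ZMod p) = 0 := by exact_mod_cast h
    rw [ZMod.natCast_eq_zero_iff] at h'
    exact hp2 ((Nat.prime_dvd_prime_iff_eq hp Nat.prime_two).1 h')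
  have hvU : v ∈ ribmp_repU W N p J := ⟨hpv, heig⟩
  have hu : (⟨v, hvU⟩ : ribmp_repU W N p J) ≠ 0 := fun h => hv0 (congrArg Subtype.val h)
  obtain ⟨φ, hφinj, hφ⟩ := r38rep_embed h2 hdim (rhoBar (W.map (Int.castRingHom ℚ)) p)
    (ribmp_repTheta (W := W) (N := N) (p := p) hES.smul_comm) (ribmp_rep_hrel hΔ hirr hN hES)
    (r38rep_span W hΔ p hp2 hirr) ⟨v, hvU⟩ hu
  -- the embedding into `J`
  let ψ : TorsQbar (W.map (Int.castRingHom ℚ)) p →+ J :=
    (ribmp_repU W N p J).subtype.comp φ.toAddMonoidHom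
  have hψinj : Function.Injective ψ := fun y y' h => hφinj (Subtype.ext h)
  have hψσ : ∀ (σ : GQ) y, ψ (σ • y) = σ • ψ y := by
    intro σ y
    have := congrArg Subtype.val (hφ σ y)
    rw [ribmp_rep_theta_apply] at this
    exact this
  refine ⟨ψ.range, (AddMonoidHom.ofInjective hψinj).symm, ?_, ?_, ?_, ?_⟩
  · rintro x ⟨y, rfl⟩
    exact (φ y).2.1
  · rintro x ⟨y, rfl⟩ ℓ hℓ
    exact (φ y).2.2 ℓ hℓ
  · rintro σ x ⟨y, rfl⟩
    exact ⟨σ • y, hψσ σ y⟩
  · intro σ x
    rw [AddEquiv.symm_apply_eq]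
    apply Subtype.ext
    rw [AddMonoidHom.ofInjective_apply, hψσ]
    have hx : ψ ((AddMonoidHom.ofInjective hψinj).symm x) = (x : J) := by
      rw [← AddMonoidHom.ofInjective_apply hψinj, AddEquiv.apply_symm_apply]
    rw [hx]

end Fermat.Agent.RIB.MP

end
end ZBRIB_010_0

/-! ### bundled: `Fermat.Agent.RIB.MP.PkgQ` -/
section ZBRIB_010_1
/-
Row 37, Mazur's principle, piece MP-5b (helper43): THE PACKAGE `StmtPkgQe` of the abstract glue
(`RIB/MP/GlueAbs.lean`) for the CONCRETE module `J := PDiv (M₁ q) p` (the `p`-divisible torsion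
of `J₀(M₁ q)(ℚ̄)`, `ES/TopFaith.lean`), from the `J`-form `StmtAtQE` of Mazur's principle
(`RIB/MP/PlanE.lean`).

* `ribmp_pkg_es`      : `ESDataInf N p (PDiv N p)` (unconditional, as `R38.r38pkg_es`);
* `ribmp_pkg_w`       : `w_q` restricted to `PDiv (M₁ q) p`;
* `ribmp_pkg_w_invol`, `ribmp_pkg_w_galois` : `w_q` is an involution commuting with `G_ℚ`;
* `stmtPkgQe_of`      : `StmtAtQE → StmtPkgQe`;
* `stmtMPe_of_atQE`   : `StmtAtQE → RIB.StmtMPe`  (with `R38.stmtLift`, `stmtRepN`);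
* `stmtMPe_of_geom`   : `StmtRedE → StmtFrobToricE → RIB.StmtMPe`.
-/

set_option autoImplicit false
set_option linter.style.haveILetI false
set_option linter.unusedSectionVars false

noncomputable section

namespace Fermat.Agent.RIB.MP

open ModularCurve AlgebraicCurve Fermat.Agent.ES Fermat.Agent.STB ExtCitation Fermat.Agent.R38

/-- **PKG-ES**: the Eichler–Shimura package on `PDiv N p`. -/
theorem ribmp_pkg_es (N p : ℕ) [NeZero N] [hpF : Fact p.Prime] :
    letI := pDivModule N p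
    letI := pDivGalois N p
    ESDataInf N p (PDiv N p) := by
  have hp : p.Prime := hpF.out
  have hm := multData_of_torsionUnifData hp.ne_zero (stb_p2_unifData N p hp.pos)
  exact hm.esDataInf (stmtFiniteLevel N p hp.ne_zero)
    (G2.stmtFrob_of_stmtINJAll Fermat.Agent.INJ.injAll_stmtINJAll N p)
    (G2.stmtUnram_of_stmtINJAll Fermat.Agent.INJ.injAll_stmtINJAll N p)

/-- `heckeGen ℓ` acts on `PDiv N p` as `T_ℓ` (good `ℓ`) -/
theorem ribmp_pkg_heckeGen_coe (N p : ℕ) [NeZero N] [hpF : Fact p.Prime] (ℓ : Nat.Primes)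
    (hℓ : ¬ (ℓ : ℕ) ∣ N * p) (x : PDiv N p) :
    ((letI := pDivModule N p; heckeGen ℓ • x : PDiv N p) : JZero N) =
      heckeOperatorBar N ℓ (x : JZero N) := by
  have hp : p.Prime := hpF.out
  have hm := multData_of_torsionUnifData hp.ne_zero (stb_p2_unifData N p hp.pos)
  rw [hm.heckeGen_smul, pDivOp_of_good hℓ]

section W

variable {M₁ q : ℕ} [NeZero M₁] [NeZero q] [NeZero (M₁ * q)] (hq : q.Prime) (hqM : ¬ q ∣ M₁)

/-- `w_q` on `J₀(M₁ q)(ℚ̄)` is an involution -/
theorem ribmp_pkg_w_invol (x : JZero (M₁ * q)) :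
    Fermat.Agent.UNIP.atkinLehnerBar hq hqM • (Fermat.Agent.UNIP.atkinLehnerBar hq hqM • x) =
      x := by
  rw [smul_smul]
  have h : Fermat.Agent.UNIP.atkinLehnerBar hq hqM * Fermat.Agent.UNIP.atkinLehnerBar hq hqM =
      1 := by
    apply AlgEquiv.ext
    intro y
    rw [AlgEquiv.mul_apply, Fermat.Agent.UNIP.atkinLehnerBar_invol]
    rfl
  rw [h, one_smul]

/-- `w_q` commutes with the Galois action on `J₀(M₁ q)(ℚ̄)` -/
theorem ribmp_pkg_w_galois (σ : GQ) (x : JZero (M₁ * q)) :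
    Fermat.Agent.UNIP.atkinLehnerBar hq hqM • (σ • x) =
      σ • (Fermat.Agent.UNIP.atkinLehnerBar hq hqM • x) := by
  have hcomm : SemilinearAut.ofAlgAut (Fermat.Agent.UNIP.atkinLehnerBar hq hqM) *
      arithmeticGalois (modularFunctionFieldFull (M₁ * q)) σ =
      arithmeticGalois (modularFunctionFieldFull (M₁ * q)) σ *
        SemilinearAut.ofAlgAut (Fermat.Agent.UNIP.atkinLehnerBar hq hqM) := by
    apply Subtype.ext
    refine Prod.ext (RingEquiv.ext fun y => ?_) ?_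
    · exact Fermat.Agent.UNIP.atkinLehnerBar_smul hq hqM σ y
    · show (1 : RingAut Qb) * _ = _ * (1 : RingAut Qb)
      rw [one_mul, mul_one]
  show SemilinearAut.ofAlgAut (Fermat.Agent.UNIP.atkinLehnerBar hq hqM) •
      (arithmeticGalois (modularFunctionFieldFull (M₁ * q)) σ • x) =
    arithmeticGalois (modularFunctionFieldFull (M₁ * q)) σ •
      (SemilinearAut.ofAlgAut (Fermat.Agent.UNIP.atkinLehnerBar hq hqM) • x)
  rw [smul_smul, smul_smul, hcomm]

variable (p : ℕ)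

/-- `w_q` restricted to the `p`-divisible torsion -/
def ribmp_pkg_w : PDiv (M₁ * q) p →+ PDiv (M₁ * q) p where
  toFun x := ⟨Fermat.Agent.UNIP.atkinLehnerBar hq hqM • (x : JZero (M₁ * q)),
    map_mem_pDivTors (DistribSMul.toAddMonoidHom (JZero (M₁ * q))
      (Fermat.Agent.UNIP.atkinLehnerBar hq hqM)) x.2⟩
  map_zero' := Subtype.ext (smul_zero _)
  map_add' x y := Subtype.ext (smul_add _ (x : JZero (M₁ * q)) (y : JZero (M₁ * q)))

theorem ribmp_pkg_w_coe (x : PDiv (M₁ * q) p) :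
    (ribmp_pkg_w hq hqM p x : JZero (M₁ * q)) =
      Fermat.Agent.UNIP.atkinLehnerBar hq hqM • (x : JZero (M₁ * q)) := rfl

end W

/-- **MP-PKG at even levels** from the `J`-form of Mazur's principle. -/
theorem stmtPkgQe_of (hAtQ : StmtAtQE) : StmtPkgQe := by
  intro M₁ q p _ h2 hp hp5 hq hq2 hqp hqM₁ hpM₁ hsq
  haveI : NeZero q := ⟨hq.ne_zero⟩
  haveI : NeZero (M₁ * q) := ⟨Nat.mul_ne_zero (NeZero.ne M₁) hq.ne_zero⟩
  haveI : Fact p.Prime := ⟨hp⟩
  refine ⟨PDiv (M₁ * q) p, inferInstance, pDivModule (M₁ * q) p, pDivGalois (M₁ * q) p, ?_⟩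
  letI := pDivModule (M₁ * q) p
  letI := pDivGalois (M₁ * q) p
  refine ⟨ribmp_pkg_es (M₁ * q) p, ribmp_pkg_w hq hqM₁ p, ?_, ?_, ?_⟩
  · intro x
    exact Subtype.ext (ribmp_pkg_w_invol hq hqM₁ (x : JZero (M₁ * q)))
  · intro σ x
    exact Subtype.ext (ribmp_pkg_w_galois hq hqM₁ σ (x : JZero (M₁ * q)))
  · intro A hA σ hσ x hx hin t₀ ht₀ hK n₀ hn₀ hpn₀ ℓ₁ hℓ₁ n₁ hn₁ hpn₁
    have hG : ∀ ℓ ∈ goodPrimes (M₁ * q) p, ¬ (ℓ : ℕ) ∣ M₁ := fun ℓ hℓ h =>
      hℓ (Dvd.dvd.mul_right (Dvd.dvd.mul_right h q) p)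
    have hKL : KillsLevel M₁ t₀ := killsLevel_of_forms (goodPrimes (M₁ * q) p) hG ht₀ hK
    have hin' : InertiaFixed A (x : JZero (M₁ * q)) := fun τ hτ =>
      congrArg Subtype.val (hin τ hτ)
    have hn₁' : heckeOperatorBar (M₁ * q) ℓ₁ (x : JZero (M₁ * q)) =
        n₁ • (x : JZero (M₁ * q)) := by
      rw [← ribmp_pkg_heckeGen_coe (M₁ * q) p ℓ₁ hℓ₁ x, hn₁]
      rfl
    have key := hAtQ M₁ q hq hqM₁ (ribmp_e_hyp_of_even hq hq2 h2) hsq hq2 p hp hp5 hqp.symm A hA
      σ hσ x hx hin' ℓ₁ n₁ hℓ₁ hn₁' hpn₁ t₀ ht₀ hKL n₀ hn₀ hpn₀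
    apply Subtype.ext
    exact key

/-- **MP at even levels** from the `J`-form of Mazur's principle. -/
theorem stmtMPe_of_atQE (hAtQ : StmtAtQE) : Fermat.Agent.RIB.StmtMPe :=
  ribmp_glue_even stmtLift stmtRepN (stmtPkgQe_of hAtQ)

/-- **MP at even levels** from the two geometric pieces MP-RED and MP-FROB. -/
theorem stmtMPe_of_geom (hRed : StmtRedE) (hFrob : StmtFrobToricE) :
    Fermat.Agent.RIB.StmtMPe :=
  stmtMPe_of_atQE (stmtAtQE_of_geom hRed hFrob)

end Fermat.Agent.RIB.MP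

end


end ZBRIB_010_1

/-! ### bundled: `Fermat.Agent.RIB.S43Of` -/
section ZBRIB_010_2
/-
Row 37 (S43): TOP WIRING (helper43, captain).

`s43_of : MP.StmtRedE → MP.StmtFrobToricE → StmtTRe → StmtPe → (frozen S43)`.

The four inputs:
* `MP.StmtRedE`, `MP.StmtFrobToricE` : the two geometric pieces of Mazur's principle
  (`RIB/MP/PlanE.lean`);
* `StmtTRe` : the K-machine at even levels (`RT/Prod/Final.lean` gives `StmtTR`);
* `StmtPe`  : removal of `p` at even levels (row 38).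
Everything else (`R38.stmtLift`, `MP.stmtRepN`, the glue, the stabilisation, S05, S07) is proved.
-/

set_option autoImplicit false

open WeierstrassCurve WeierstrassCurve.Affine WeierstrassCurve.Affine.Point

namespace Fermat.Agent.RIB

/-- **No Frey representation is modular of a conductor level**, from the four open inputs. -/
theorem rib_modular_false_of (hRed : MP.StmtRedE) (hFrob : MP.StmtFrobToricE) (hTR : StmtTRe)
    (hP : StmtPe) (P : FreyPackage)
    (hirr : GaloisRepIsIrreducible (K := AlgebraicClosure ℚ) ℚ P.freyCurve P.p)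
    (N : ℕ) (hcond : P.IsConductorLevel N) (hmod : P.ModularRepOfLevel N) : False :=
  rib_modular_false (MP.stmtMPe_of_geom hRed hFrob) hTR hP P hirr
    (fun _ hq hq2 hqp => Fermat.Agent.S05.result P hq hq2 hqp) N hcond hmod

/-- **The frozen statement S43**, from the four open inputs. -/
theorem s43_of (hRed : MP.StmtRedE) (hFrob : MP.StmtFrobToricE) (hTR : StmtTRe) (hP : StmtPe)
    (P : FreyPackage) {N q : ℕ} (hcond : P.IsConductorLevel N) (_hq : q.Prime) (_hq2 : q ≠ 2)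
    (_hqp : q ≠ P.p) (_hqN : q ∣ N)
    (hirr : GaloisRepIsIrreducible (K := AlgebraicClosure ℚ) ℚ P.freyCurve P.p)
    (hmod : P.ModularRepOfLevel N) (_hunr : P.GaloisRepUnramifiedAt q) :
    ∃ M : ℕ, M ∣ N ∧ ¬ q ∣ M ∧ P.ModularRepOfLevel M :=
  (rib_modular_false_of hRed hFrob hTR hP P hirr N hcond hmod).elim

end Fermat.Agent.RIB


end ZBRIB_010_2

/-! ### bundled: `Fermat.Agent.RIB.S43Top` -/
section ZBRIB_010_3
/-
Row 37 (S43): TOP WIRING TEST (helper17, for captain helper43).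

`s43_top` instantiates, in ONE file, `RT.rthk_final_inst` (HECKE-asm), `RT.Prod.stmtTR_of_contractsE`
(the K-machine) and `RIB.s43_of` (the top glue), with the OPEN Props as hypotheses:

  `MP.StmtRedE`, `MP.StmtFrobToricE`          (Mazur's principle, geometric pieces)
  `RT.Prod.StmtKSetup`, `RT.StmtHkModSide`     (K-machine: setup, module side of HECKE)
  `∀ O, RT.StmtK3Sel O`, `RT.Interp.StmtK8E`   (K3-Sel, K8 restricted)
  `RIB.StmtP`                                  (row 38 = frozen S44 shape)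

and concludes the frozen statement S43 (binder for binder).
-/

set_option autoImplicit false

open WeierstrassCurve WeierstrassCurve.Affine WeierstrassCurve.Affine.Point
open IsLocalRing

namespace Fermat.Agent.RIB

/-- **Row 37, top wiring**: the frozen statement S43 from the open Props of the campaign. -/
theorem s43_top (hRed : MP.StmtRedE) (hFrob : MP.StmtFrobToricE)
    (hsetup : Fermat.Agent.RT.Prod.StmtKSetup) (hMod : Fermat.Agent.RT.StmtHkModSide)
    (hsel : ∀ (O : Type) [CommRing O] [IsDomain O] [IsDiscreteValuationRing O]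
      [IsAdicComplete (maximalIdeal O) O] [Finite (ResidueField O)],
      Fermat.Agent.RT.StmtK3Sel O)
    (hK8 : Fermat.Agent.RT.Interp.StmtK8E) (hP : StmtP)
    (P : FreyPackage) {N q : ℕ} (hcond : P.IsConductorLevel N) (hq : q.Prime) (hq2 : q ≠ 2)
    (hqp : q ≠ P.p) (hqN : q ∣ N)
    (hirr : GaloisRepIsIrreducible (K := AlgebraicClosure ℚ) ℚ P.freyCurve P.p)
    (hmod : P.ModularRepOfLevel N) (hunr : P.GaloisRepUnramifiedAt q) :
    ∃ M : ℕ, M ∣ N ∧ ¬ q ∣ M ∧ P.ModularRepOfLevel M :=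
  s43_of hRed hFrob
    (stmtTRe_of (Fermat.Agent.RT.Prod.stmtTR_of_contractsE hsetup
      (Fermat.Agent.RT.rthk_final_inst hMod) hsel hK8))
    (stmtPe_of hP) P hcond hq hq2 hqp hqN hirr hmod hunr

end Fermat.Agent.RIB


end ZBRIB_010_3
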