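/- GENERATED FILE (helper35, build-time optimisation, NOTES/ZB.md): verbatim concatenation of the modules
   Fermat.Agent.RIB.MP.FacTop
   Fermat.Agent.RIB.MP.FacUfdJ
   Fermat.Agent.RIB.MP.FacCuspStmt
   Do not edit; do not import together with these modules. -/
import Fermat.Agent.ZB.RIB_004
import Fermat.Agent.ZB.RIB_005
import Fermat.Agent.ZB.RT_001
import Fermat.Agent.ZB.S34_001

/-! ### bundled: `Fermat.Agent.RIB.MP.FacTop` -/
section ZBRIB_013_0
/-
Row 37, Mazur's principle, piece MP-FAC (helper95), part 6: THE ASSEMBLY.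

* `StmtFacUfdJ`  (FAC-A): at a RIGID level `M q` (`4 ∣ M`, `q ≠ 2`) every local ring of the chart
  `j` of `F_{Mq}(ℚ̄^I)` at a closed point of the special fibre is factorial;
* `StmtFacCusp`  (FAC-C): at every level `M q`, the local rings of the chart `1 / j` at the closed
  points of the special fibre containing `1 / j` (the cusps) are factorial;
* `StmtFacDeg`   (E-deg): `m` prime to `6` is prime to `[F_{4Mq} : F_{Mq}]`;
* `StmtFacHor`   (E-hor): the horizontal hypothesis ascends from level `M q` to level `4 M q`;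
* `ribmp_fac_rigid_of` : (F) at a level where the two UFD inputs hold (`ribmp_fc_main` +
  `ribmp_fgl_ufd_all`);
* `ribmp_fac_of : StmtFacUfdJ → StmtFacCusp → StmtFacDeg → StmtFacHor → StmtFac`.
-/

set_option autoImplicit false
set_option linter.unusedSectionVars false
set_option linter.unusedVariables false
set_option linter.style.haveILetI false
set_option linter.style.longLine false
set_option synthInstance.maxHeartbeats 400000
set_option maxHeartbeats 1000000

noncomputable section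

namespace Fermat.Agent.RIB.MP

open ModularCurve Polynomial IntermediateField Fermat.Agent.INJ Fermat.Agent.AL AlgebraicCurve
open Fermat.Agent.ES Fermat.Agent.ES.G2 Fermat.Agent.STB Fermat.Agent.UNIP Fermat.Agent.S36

/-- **FAC-A**: factoriality on the chart `j` at a rigid level. -/
def StmtFacUfdJ : Prop :=
  ∀ (M q : ℕ) [NeZero M] [NeZero q] [NeZero (M * q)], q.Prime → ¬ q ∣ M → q ≠ 2 → 4 ∣ M →
    ∀ A : ValuationSubring Qb, A.LiesOverPrime q →
    ∀ [IsDiscreteValuationRing ↥(beta0Ring A (beta0Field A))]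
      (π : ↥(beta0Ring A (beta0Field A))), Irreducible π →
    ∀ 𝔫 : AtPt (F := ↥(modularFunctionFieldFullC ↥(beta0Field A) (M * q))) π
        (bgJ ↥(beta0Field A) (M * q)),
      UniqueFactorizationMonoid ↥(atLoc 𝔫)

/-- **FAC-C**: factoriality at the cusps (chart `1 / j`, points containing `1 / j`). -/
def StmtFacCusp : Prop :=
  ∀ (M q : ℕ) [NeZero M] [NeZero q] [NeZero (M * q)], q.Prime → ¬ q ∣ M → q ≠ 2 → 4 ∣ M →
    ∀ A : ValuationSubring Qb, A.LiesOverPrime q →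
    ∀ [IsDiscreteValuationRing ↥(beta0Ring A (beta0Field A))]
      (π : ↥(beta0Ring A (beta0Field A))), Irreducible π →
    ∀ 𝔫 : AtPt (F := ↥(modularFunctionFieldFullC ↥(beta0Field A) (M * q))) π
        (bgJ ↥(beta0Field A) (M * q))⁻¹,
      ribmpFglGen (A₀ := ↥(beta0Ring A (beta0Field A))) (bgJ ↥(beta0Field A) (M * q))⁻¹ ∈ 𝔫.1 →
      UniqueFactorizationMonoid ↥(atLoc 𝔫)

/-- **E-deg**: the degree of `F_{4Mq} / F_{Mq}` is prime to every `m` prime to `6`. -/
def StmtFacDeg : Prop :=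
  ∀ (K₀ : IntermediateField ℚ Qb) (M q : ℕ) [NeZero M] [NeZero q] [NeZero (M * q)]
    [NeZero (M * 4 * q)], q.Prime → ¬ q ∣ M → q ≠ 2 → ∀ m : ℕ, Nat.Coprime m 6 →
    Nat.Coprime m (stbDeg (ribmpFlUp ↥K₀ M 4 q).toRingHom)

/-- **E-hor**: the horizontal hypothesis ascends. -/
def StmtFacHor : Prop :=
  ∀ (K₀ : IntermediateField ℚ Qb) (M d q : ℕ) [NeZero M] [NeZero q] [NeZero d] [NeZero (M * q)]
    [NeZero (M * d * q)] (m : ℕ) (y : ↥(modularFunctionFieldFullC ↥K₀ (M * q))),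
    (∀ P : Place NfQb (modularFunctionFieldBar (M * q)),
      (m : ℤ) ∣ P.ord (nfEmb K₀ (M * q) y)) →
    ∀ P : Place NfQb (modularFunctionFieldBar (M * d * q)),
      (m : ℤ) ∣ P.ord (nfEmb K₀ (M * d * q) (ribmpFlUp ↥K₀ M d q y))

section Rigid

variable {A : ValuationSubring Qb} {K₀ : IntermediateField ℚ Qb}
  [IsDiscreteValuationRing ↥(beta0Ring A K₀)] {π : ↥(beta0Ring A K₀)} (hπ : Irreducible π)
  (ιC : ↥K₀ →+* ℂ) {q M : ℕ} [NeZero q] [NeZero M] [NeZero (M * q)]
  (hq : q.Prime) (hqM : ¬ q ∣ M)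

theorem ribmp_fac_bgJ_ne_zero (N : ℕ) [NeZero N] : bgJ ↥K₀ N ≠ 0 := fun h =>
  ribmp_fc_trans (K₀ := K₀) N (h ▸ isAlgebraic_zero)

/-- **(F) at a level where the local rings of the chart `j` and at the cusps are factorial.** -/
theorem ribmp_fac_rigid_of (hA : A.LiesOverPrime q) (hE : beta0Field A ≤ K₀)
    (h2 : q = 2 → 3 ∣ M) (h3 : q = 3 → 2 ∣ M)
    (HA : ∀ 𝔫 : AtPt (F := ↥(modularFunctionFieldFullC ↥K₀ (M * q))) π (bgJ ↥K₀ (M * q)),
      UniqueFactorizationMonoid ↥(atLoc 𝔫))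
    (HC : ∀ 𝔫 : AtPt (F := ↥(modularFunctionFieldFullC ↥K₀ (M * q))) π (bgJ ↥K₀ (M * q))⁻¹,
      ribmpFglGen (A₀ := ↥(beta0Ring A K₀)) (bgJ ↥K₀ (M * q))⁻¹ ∈ 𝔫.1 →
      UniqueFactorizationMonoid ↥(atLoc 𝔫))
    (m : ℕ) (y : ↥(modularFunctionFieldFullC ↥K₀ (M * q))) (hy : y ≠ 0)
    (hhor : ∀ P : Place NfQb (modularFunctionFieldBar (M * q)),
      (m : ℤ) ∣ P.ord (nfEmb K₀ (M * q) y))
    (hunit : ∀ c, (mgvV hπ ιC hq hqM c).valuation y = 1) :
    ∀ i : AtPt (F := ↥(modularFunctionFieldFullC ↥K₀ (M * q))) π (bgJ ↥K₀ (M * q)) ⊕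
        AtPt (F := ↥(modularFunctionFieldFullC ↥K₀ (M * q))) π (bgJ ↥K₀ (M * q))⁻¹,
      StbFacAt (atO π (bgJ ↥K₀ (M * q)) i) m y :=
  ribmp_fc_main hπ ιC hq hqM hA hE h2 h3
    (ribmp_fgl_ufd_all hπ (ribmp_fac_bgJ_ne_zero (M * q)) HA HC) m y hy hhor hunit

end Rigid

/-- **MP-FAC**, from the four inputs. -/
theorem ribmp_fac_of (HA : StmtFacUfdJ) (HC : StmtFacCusp) (HD : StmtFacDeg) (HH : StmtFacHor) :
    StmtFac := by
  intro M₁ q _ _ _ hq hqM hq2 m hm A hA
  have h40 : (4 : ℕ) ≠ 0 := by norm_num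
  haveI : NeZero (4 : ℕ) := ⟨h40⟩
  haveI : NeZero (M₁ * 4) := ⟨Nat.mul_ne_zero (NeZero.ne M₁) h40⟩
  haveI : NeZero (M₁ * 4 * q) := ⟨Nat.mul_ne_zero (NeZero.ne (M₁ * 4)) (NeZero.ne q)⟩
  have hq4 : ¬ q ∣ 4 := by
    intro h
    have h2 : q ∣ 2 ^ 2 := by simpa using h
    exact hq2 ((Nat.prime_dvd_prime_iff_eq hq Nat.prime_two).1 (hq.dvd_of_dvd_pow h2))
  have hqMd : ¬ q ∣ M₁ * 4 := fun h => (hq.dvd_mul.1 h).elim hqM hq4
  have hm0 : 0 < m := by
    rcases Nat.eq_zero_or_pos m with h | h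
    · subst h
      simp at hm
    · exact h
  refine ribmp_fl_descent (d := 4) hqMd hm0 (HD (beta0Field A) M₁ q hq hqM hq2 m hm)
    (fun y hy => HH (beta0Field A) M₁ 4 q m y hy) ?_
  intro hq' hqM' _ π hπ ιC y hy hhor hunit
  exact ribmp_fac_rigid_of hπ ιC hq' hqM' hA le_rfl (fun h => absurd h hq2)
    (fun _ => Dvd.dvd.mul_left (by norm_num : (2 : ℕ) ∣ 4) M₁)
    (HA (M₁ * 4) q hq hqMd hq2 (Dvd.intro_left M₁ rfl) A hA π hπ)
    (HC (M₁ * 4) q hq hqMd hq2 (Dvd.intro_left M₁ rfl) A hA π hπ) m y hy hhor hunit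

end Fermat.Agent.RIB.MP

end
end ZBRIB_013_0

/-! ### bundled: `Fermat.Agent.RIB.MP.FacUfdJ` -/
section ZBRIB_013_1
/-
Row 37, Mazur's principle, piece MP-FAC, FAC-A: the adapter (helper3).

`ribmp_fuj_stmt : StmtFacUfdJ` — at a rigid level `M q` (`4 ∣ M`, `q ≠ 2`) every local ring of the
chart `j` of `F_{Mq}(ℚ̄^I)` at a closed point of the special fibre is factorial.  This is helper54's
`RT.K6.rtk6lfb0_ufd_J` (`RT/K6/DLFConc.lean`) with the embedding `ιC := cheapIota ∘ (ℚ̄^I ⊆ ℚ̄)`.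
-/

set_option autoImplicit false
set_option linter.unusedSectionVars false
set_option linter.unusedVariables false
set_option linter.style.haveILetI false
set_option linter.style.longLine false

noncomputable section

namespace Fermat.Agent.RIB.MP

open ModularCurve Polynomial IntermediateField Fermat.Agent.INJ Fermat.Agent.AL AlgebraicCurve
open Fermat.Agent.ES Fermat.Agent.ES.G2 Fermat.Agent.STB Fermat.Agent.UNIP Fermat.Agent.S36

/-- **FAC-A**: factoriality of the local rings of the chart `j` at a rigid level. -/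
theorem ribmp_fuj_stmt : StmtFacUfdJ := by
  intro M q _ _ _ hq hqM hq2 h4 A hA _ π hπ 𝔫
  exact Fermat.Agent.RT.K6.rtk6lfb0_ufd_J hπ
    (cheapIota.comp (algebraMap ↥(beta0Field A) Qb)) hq hqM hA
    ⟨fun _ => h4, fun h => absurd h hq2⟩ 𝔫

end Fermat.Agent.RIB.MP

end
end ZBRIB_013_1

/-! ### bundled: `Fermat.Agent.RIB.MP.FacCuspStmt` -/
section ZBRIB_013_2
/-
Row 37, Mazur's principle, piece MP-FAC / FAC-C (helper81): `StmtFacCusp` of `RIB/MP/FacTop.lean`
(factoriality at the cusps), proved.  The proof does not use rigidity: `4 ∣ M`, `q ≠ 2` only serve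
to discharge (`q = 2 → 3 ∣ M`), (`q = 3 → 2 ∣ M`).
-/

set_option autoImplicit false
set_option linter.style.haveILetI false
set_option linter.unusedSectionVars false
set_option linter.unusedVariables false
set_option linter.style.longLine false
set_option synthInstance.maxHeartbeats 400000
set_option maxHeartbeats 1000000

namespace Fermat.Agent.RIB.MP

open ModularCurve Polynomial IntermediateField Fermat.Agent.INJ Fermat.Agent.AL AlgebraicCurve
open Fermat.Agent.ES Fermat.Agent.ES.G2 Fermat.Agent.STB Fermat.Agent.UNIP Fermat.Agent.S36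

/-- **FAC-C**: the local rings at the cusps are factorial. -/
theorem ribmp_fcu_stmtFacCusp : StmtFacCusp := by
  intro M q _ _ _ hq hqM hq2 h4 A hA _ π hπ 𝔫 hT
  exact ribmp_fcu_ufd_base hπ hq hqM hA (fun h => absurd h hq2)
    (fun _ => dvd_trans (by norm_num) h4) 𝔫 hT

end Fermat.Agent.RIB.MP


end ZBRIB_013_2
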