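/- GENERATED FILE (helper35, build-time optimisation, NOTES/ZB.md): verbatim concatenation of the modules
   Fermat.Agent.PT.A.InfRes2
   Fermat.Agent.PT.L.InflInj
   Fermat.Agent.PT.L.InfResField
   Fermat.Agent.PT.G3.Carry
   Fermat.Agent.PT.G3.Devissage
   Do not edit; do not import together with these modules. -/
import Fermat.Agent.ZB.PT_001
import Fermat.Agent.ZB.PT_004
import Fermat.Agent.ZB.PT_002

/-! ### bundled: `Fermat.Agent.PT.A.InfRes2` -/
section ZBPT_017_0
/-
PT-A piece `StmtInfRes₂`: inflation–restriction in degree 2 (helper86).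
If `H¹(N, A) = 0` for a normal subgroup `N ≤ G`, then
`0 → H²(G/N, A^N) → H²(G, A) → H²(N, A)` is exact.  Direct cocycle proof.
-/

set_option autoImplicit false
set_option linter.style.haveILetI false
set_option linter.unusedSectionVars false

attribute [-instance] AddCommGroup.toIntModule

namespace Fermat.Agent.PT.InfRes2

open CategoryTheory groupCohomology Rep

variable {G : Type} [Group G] (N : Subgroup G) [N.Normal] (A : Rep.{0} ℤ G)

/-- `H¹(N, A) = 0` in cocycle form. -/
def H1Triv : Prop :=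
  ∀ c : N → A, (∀ n m : N, c (n * m) = A.ρ n (c m) + c n) → ∃ a : A, ∀ n : N, c n = A.ρ n a - a

theorem h1Triv_of_subsingleton (h : Subsingleton (H1 (Rep.res N.subtype A))) : H1Triv N A := by
  intro c hc
  have hc' : c ∈ cocycles₁ (Rep.res N.subtype A) := by
    rw [mem_cocycles₁_iff]
    intro n m
    exact hc n m
  have h0 : H1π (Rep.res N.subtype A) ⟨c, hc'⟩ = 0 := Subsingleton.elim _ _
  rw [H1π_eq_zero_iff] at h0
  obtain ⟨a, ha⟩ := h0
  refine ⟨a, fun n => ?_⟩
  have := congrFun ha n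
  have h2 : (A.ρ n) a - a = c n := by
    simp only [d₀₁_hom_apply] at this
    exact this
  exact h2.symm




section core

variable {N A}

theorem coc {F : G × G → A} (hF : F ∈ cocycles₂ A) (g h j : G) :
    F (g * h, j) + F (g, h) = A.ρ g (F (h, j)) + F (g, h * j) :=
  (mem_cocycles₂_iff F).1 hF g h j

theorem sub_d_mem {F : G × G → A} (hF : F ∈ cocycles₂ A) (x : G → A) :
    F - (d₁₂ A).hom x ∈ cocycles₂ A :=
  Submodule.sub_mem _ hF (d₁₂_apply_mem_cocycles₂ x)

theorem sub_d_apply (F : G × G → A) (x : G → A) (g h : G) :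
    (F - (d₁₂ A).hom x) (g, h) = F (g, h) - (A.ρ g (x h) - x (g * h) + x g) := by
  simp [d₁₂_hom_apply]

/-- Step 0: make the cocycle vanish on `N × N`. -/
theorem step0 {F : G × G → A} (y : N → A)
    (hy : ∀ n m : N, F ((n : G), (m : G)) = A.ρ n (y m) - y (n * m) + y n) :
    ∃ x : G → A, ∀ n ∈ N, ∀ m ∈ N, (F - (d₁₂ A).hom x) (n, m) = 0 := by
  classical
  refine ⟨fun g => if h : g ∈ N then y ⟨g, h⟩ else 0, fun n hn m hm => ?_⟩
  rw [sub_d_apply]
  have hnm : n * m ∈ N := N.mul_mem hn hm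
  simp only [hn, hm, hnm, dif_pos]
  have := hy ⟨n, hn⟩ ⟨m, hm⟩
  simp only [] at this
  rw [this]
  simp


/-- A coset representative of `g` modulo `N`. -/
noncomputable def rep (N : Subgroup G) (g : G) : G := ((g : G ⧸ N)).out

omit [N.Normal] in
theorem rep_spec (g : G) : ((rep N g : G) : G ⧸ N) = (g : G ⧸ N) := by
  unfold rep
  exact QuotientGroup.out_eq' _

theorem rep_mul_left {n : G} (hn : n ∈ N) (g : G) : rep N (n * g) = rep N g := by
  unfold rep
  congr 1
  rw [QuotientGroup.mk_mul, (QuotientGroup.eq_one_iff n).2 hn, one_mul]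

theorem mul_rep_inv_mem (g : G) : g * (rep N g)⁻¹ ∈ N := by
  rw [← QuotientGroup.eq_one_iff, QuotientGroup.mk_mul, QuotientGroup.mk_inv, rep_spec,
    mul_inv_cancel]

theorem rep_mem_of_mem {g : G} (hg : g ∈ N) : rep N g ∈ N := by
  rw [← QuotientGroup.eq_one_iff, rep_spec, QuotientGroup.eq_one_iff]
  exact hg

theorem rep_mem_iff {g : G} : rep N g ∈ N ↔ g ∈ N := by
  rw [← QuotientGroup.eq_one_iff, rep_spec, QuotientGroup.eq_one_iff]

/-- Step 1: make the cocycle vanish on `N × G`. -/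
theorem step1 {F : G × G → A} (hF : F ∈ cocycles₂ A)
    (h0 : ∀ n ∈ N, ∀ m ∈ N, F (n, m) = 0) :
    ∃ x : G → A, ∀ n ∈ N, ∀ g, (F - (d₁₂ A).hom x) (n, g) = 0 := by
  refine ⟨fun g => - F (g * (rep N g)⁻¹, rep N g), fun n hn g => ?_⟩
  rw [sub_d_apply]
  have e1 : rep N (n * g) = rep N g := rep_mul_left hn g
  have e2 : F (n * (rep N n)⁻¹, rep N n) = 0 :=
    h0 _ (mul_rep_inv_mem n) _ (rep_mem_of_mem hn)
  rw [e1, e2]
  have hm : g * (rep N g)⁻¹ ∈ N := mul_rep_inv_mem g
  have key := coc hF n (g * (rep N g)⁻¹) (rep N g)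
  rw [h0 n hn _ hm, inv_mul_cancel_right, ← mul_assoc] at key
  simp only [map_neg]
  linear_combination (norm := abel) -key


/-- Step 2: make the cocycle vanish on `N × G` and on `G × N`. -/
theorem step2 (h1 : H1Triv N A) {F : G × G → A} (hF : F ∈ cocycles₂ A)
    (h0 : ∀ n ∈ N, ∀ g, F (n, g) = 0) :
    ∃ x : G → A, (∀ n ∈ N, ∀ g, (F - (d₁₂ A).hom x) (n, g) = 0) ∧
      (∀ g, ∀ n ∈ N, (F - (d₁₂ A).hom x) (g, n) = 0) := by
  classical
  have hstar : ∀ n ∈ N, ∀ g h, F (n * g, h) = A.ρ n (F (g, h)) := by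
    intro n hn g h
    have := coc hF n g h
    rw [h0 n hn, h0 n hn] at this
    simpa using this
  have hc1 : ∀ g, ∀ n ∈ N, ∀ m, F (g, n * m) = F (g * n, m) + F (g, n) := by
    intro g n hn m
    have := coc hF g n m
    rw [h0 n hn, map_zero, zero_add] at this
    exact this.symm
  have hex : ∀ g : G, ∃ a : A, ∀ n ∈ N, F (g, g⁻¹ * n * g) = A.ρ n a - a := by
    intro g
    obtain ⟨a, ha⟩ := h1 (fun n : N => F (g, g⁻¹ * n * g)) (by
      intro n m
      simp only [Subgroup.coe_mul]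
      have e : g⁻¹ * (↑n * ↑m) * g = (g⁻¹ * n * g) * (g⁻¹ * m * g) := by group
      have hmem : g⁻¹ * (n : G) * g ∈ N := by
        have := Subgroup.Normal.conj_mem ‹N.Normal› (n : G) n.2 g⁻¹
        simpa using this
      rw [e, hc1 g _ hmem _]
      have e2 : g * (g⁻¹ * ↑n * g) = ↑n * g := by group
      rw [e2, hstar n n.2])
    exact ⟨a, fun n hn => ha ⟨n, hn⟩⟩
  choose a ha using hex
  set x : G → A := fun g => if g ∈ N then 0 else - A.ρ (g * (rep N g)⁻¹) (a (rep N g)) with hx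
  have P1 : ∀ n ∈ N, x n = 0 := fun n hn => by simp [hx, hn]
  have P2 : ∀ n ∈ N, ∀ g, x (n * g) = A.ρ n (x g) := by
    intro n hn g
    by_cases hg : g ∈ N
    · rw [P1 g hg, P1 _ (N.mul_mem hn hg), map_zero]
    · have hng : n * g ∉ N := fun h => hg ((Subgroup.mul_mem_cancel_left N hn).1 h)
      simp only [hx, hg, hng, if_false, rep_mul_left hn g, map_neg, map_mul,
        Module.End.mul_apply]
  have P3 : ∀ g, ∀ n ∈ N, F (g, n) + A.ρ (g * n * g⁻¹) (x g) - x g = 0 := by
    intro g n hn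
    by_cases hg : g ∈ N
    · rw [P1 g hg, h0 g hg, map_zero]; simp
    · have hm : g * (rep N g)⁻¹ ∈ N := mul_rep_inv_mem g
      have e1 : F (g, n) = A.ρ (g * (rep N g)⁻¹) (F (rep N g, n)) := by
        rw [← hstar _ hm, inv_mul_cancel_right]
      have hmem : rep N g * n * (rep N g)⁻¹ ∈ N := Subgroup.Normal.conj_mem ‹N.Normal› n hn _
      have e2 : F (rep N g, n) = A.ρ (rep N g * n * (rep N g)⁻¹) (a (rep N g)) - a (rep N g) := by
        rw [← ha (rep N g) _ hmem]
        congr 2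
        group
      have e3 : g * n * g⁻¹ * (g * (rep N g)⁻¹) =
          g * (rep N g)⁻¹ * (rep N g * n * (rep N g)⁻¹) := by group
      have e4 : A.ρ (g * n * g⁻¹) (A.ρ (g * (rep N g)⁻¹) (a (rep N g))) =
          A.ρ (g * (rep N g)⁻¹) (A.ρ (rep N g * n * (rep N g)⁻¹) (a (rep N g))) := by
        rw [← Module.End.mul_apply, ← map_mul, e3, map_mul, Module.End.mul_apply]
      simp only [hx, hg, if_false]
      rw [e1, e2, map_sub, map_neg, e4]
      abel
  refine ⟨x, fun n hn g => ?_, fun g n hn => ?_⟩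
  · rw [sub_d_apply, h0 n hn, P2 n hn, P1 n hn]
    simp
  · rw [sub_d_apply, P1 n hn, map_zero]
    have e : g * n = (g * n * g⁻¹) * g := by group
    have hmem : g * n * g⁻¹ ∈ N := Subgroup.Normal.conj_mem ‹N.Normal› n hn _
    have := P3 g n hn
    rw [e, P2 _ hmem]
    linear_combination (norm := abel) this


/-- Step 3: a cocycle vanishing on `N × G` and `G × N` is inflated from `G ⧸ N`. -/
theorem step3 {F : G × G → A} (hF : F ∈ cocycles₂ A) (hl : ∀ n ∈ N, ∀ g, F (n, g) = 0)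
    (hr : ∀ g, ∀ n ∈ N, F (g, n) = 0) :
    ∃ z : cocycles₂ (A.quotientToInvariants N), ∀ g h : G,
      ((z ((g : G ⧸ N), (h : G ⧸ N)) : A.quotientToInvariants N) : A) = F (g, h) := by
  have hstar : ∀ n ∈ N, ∀ g h, F (n * g, h) = A.ρ n (F (g, h)) := by
    intro n hn g h
    have := coc hF n g h
    rw [hl n hn, hl n hn] at this
    simpa using this
  have hr2 : ∀ g h, ∀ n ∈ N, F (g, h * n) = F (g, h) := by
    intro g h n hn
    have := coc hF g h n
    rw [hr _ n hn, hr _ n hn, map_zero] at this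
    simpa using this.symm
  have hl2 : ∀ g h, ∀ n ∈ N, F (g * n, h) = F (g, h) := by
    intro g h n hn
    have := coc hF g n h
    rw [hr _ n hn, hl n hn, map_zero] at this
    have e : n * h = h * (h⁻¹ * n * h) := by group
    have hmem : h⁻¹ * n * h ∈ N := by
      have := Subgroup.Normal.conj_mem ‹N.Normal› n hn h⁻¹
      simpa using this
    rw [e, hr2 _ _ _ hmem] at this
    simpa using this
  have hinv : ∀ g h, ∀ n ∈ N, A.ρ n (F (g, h)) = F (g, h) := by
    intro g h n hn
    rw [← hstar n hn]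
    have e : n * g = g * (g⁻¹ * n * g) := by group
    have hmem : g⁻¹ * n * g ∈ N := by
      have := Subgroup.Normal.conj_mem ‹N.Normal› n hn g⁻¹
      simpa using this
    rw [e, hl2 _ _ _ hmem]
  let zf : (G ⧸ N) × (G ⧸ N) → A.quotientToInvariants N :=
    fun p => ⟨F (p.1.out, p.2.out), fun n => hinv _ _ n n.2⟩
  have hz : ∀ g h : G, ((zf ((g : G ⧸ N), (h : G ⧸ N)) : A.quotientToInvariants N) : A) =
      F (g, h) := by
    intro g h
    obtain ⟨n₁, hn₁⟩ := QuotientGroup.mk_out_eq_mul N g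
    obtain ⟨n₂, hn₂⟩ := QuotientGroup.mk_out_eq_mul N h
    change F ((g : G ⧸ N).out, (h : G ⧸ N).out) = F (g, h)
    rw [hn₁, hn₂, hl2 _ _ _ n₁.2, hr2 _ _ _ n₂.2]
  refine ⟨⟨zf, ?_⟩, hz⟩
  rw [mem_cocycles₂_iff]
  intro a b c
  induction a using QuotientGroup.induction_on with | H g =>
  induction b using QuotientGroup.induction_on with | H h =>
  induction c using QuotientGroup.induction_on with | H j =>
  apply Subtype.ext
  rw [← QuotientGroup.mk_mul, ← QuotientGroup.mk_mul]
  have hcoe : ∀ (g : G) (v : A.quotientToInvariants N),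
      (((A.quotientToInvariants N).ρ (g : G ⧸ N) v : A.quotientToInvariants N) : A) =
        A.ρ g (v : A) := fun g v => rfl
  have := coc hF g h j
  rw [Submodule.coe_add, Submodule.coe_add, hcoe, hz, hz, hz, hz]
  exact this

end core

/-- inflation on 2-cocycles -/
noncomputable abbrev infCoc : ModuleCat.of ℤ (cocycles₂ (A.quotientToInvariants N)) ⟶
    ModuleCat.of ℤ (cocycles₂ A) :=
  mapCocycles₂ (A := A.quotientToInvariants N) (B := A) (QuotientGroup.mk' N)
    (ofHom (A.ρ.quotientToInvariants_lift N))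

theorem infCoc_apply (x : cocycles₂ (A.quotientToInvariants N)) (g h : G) :
    (infCoc N A x) (g, h) = ((x ((g : G ⧸ N), (h : G ⧸ N)) : A.quotientToInvariants N) : A) := by
  rfl

theorem inf_injective_aux (h1 : H1Triv N A) (x : cocycles₂ (A.quotientToInvariants N))
    (hx : H2π A (infCoc N A x) = 0) :
    H2π (A.quotientToInvariants N) x = 0 := by
  rw [H2π_eq_zero_iff] at hx ⊢
  obtain ⟨y, hy⟩ := hx
  -- `f = infCoc x = d y`
  have hf : ∀ g h : G, A.ρ g (y h) - y (g * h) + y g =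
      ((x ((g : G ⧸ N), (h : G ⧸ N)) : A.quotientToInvariants N) : A) := by
    intro g h
    have := congrFun hy (g, h)
    rw [d₁₂_hom_apply] at this
    exact this
  set c : A := ((x ((1 : G ⧸ N), (1 : G ⧸ N)) : A.quotientToInvariants N) : A) with hc
  have hcinv : ∀ n ∈ N, A.ρ n c = c := fun n hn =>
    (x ((1 : G ⧸ N), (1 : G ⧸ N))).2 ⟨n, hn⟩
  have hmk1 : ∀ n ∈ N, ((n : G) : G ⧸ N) = 1 := fun n hn => (QuotientGroup.eq_one_iff n).2 hn
  -- values of `x` on `(ḡ, 1)` and `(1, ḡ)`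
  have hx1 : ∀ g : G, ((x ((1 : G ⧸ N), (g : G ⧸ N)) : A.quotientToInvariants N) : A) = c := by
    intro g
    rw [cocycles₂_map_one_fst x (g : G ⧸ N)]
  have hx2 : ∀ g : G, ((x ((g : G ⧸ N), (1 : G ⧸ N)) : A.quotientToInvariants N) : A) =
      A.ρ g c := by
    intro g
    rw [cocycles₂_map_one_snd x (g : G ⧸ N)]
    rfl
  -- `y - c` is a 1-cocycle on `N`
  obtain ⟨a, ha⟩ := h1 (fun n : N => y n - c) (by
    intro n m
    have := hf n m
    rw [hmk1 n n.2, hmk1 m m.2] at this
    simp only [Subgroup.coe_mul, map_sub, hcinv n n.2]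
    linear_combination (norm := abel) -this)
  -- modify `y`
  set y₁ : G → A := fun g => y g - (A.ρ g a - a) with hy₁
  have hf₁ : ∀ g h : G, A.ρ g (y₁ h) - y₁ (g * h) + y₁ g =
      ((x ((g : G ⧸ N), (h : G ⧸ N)) : A.quotientToInvariants N) : A) := by
    intro g h
    rw [← hf g h]
    simp only [hy₁, map_sub, map_mul, Module.End.mul_apply]
    abel
  have hy₁N : ∀ n ∈ N, y₁ n = c := by
    intro n hn
    have := ha ⟨n, hn⟩
    simp only [] at this
    simp only [hy₁]
    linear_combination (norm := abel) this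
  have hr : ∀ g, ∀ n ∈ N, y₁ (g * n) = y₁ g := by
    intro g n hn
    have := hf₁ g n
    rw [hmk1 n hn, hx2, hy₁N n hn] at this
    linear_combination (norm := abel) -this
  have hinv : ∀ g, ∀ n ∈ N, A.ρ n (y₁ g) = y₁ g := by
    intro g n hn
    have := hf₁ n g
    rw [hmk1 n hn, hx1, hy₁N n hn] at this
    have e : n * g = g * (g⁻¹ * n * g) := by group
    have hmem : g⁻¹ * n * g ∈ N := by
      have := Subgroup.Normal.conj_mem ‹N.Normal› n hn g⁻¹
      simpa using this
    rw [e, hr _ _ hmem] at this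
    linear_combination (norm := abel) this
  let yb : (G ⧸ N) → A.quotientToInvariants N :=
    fun p => ⟨y₁ p.out, fun n => hinv _ n n.2⟩
  have hyb : ∀ g : G, ((yb (g : G ⧸ N) : A.quotientToInvariants N) : A) = y₁ g := by
    intro g
    obtain ⟨n₁, hn₁⟩ := QuotientGroup.mk_out_eq_mul N g
    change y₁ ((g : G ⧸ N).out) = y₁ g
    rw [hn₁, hr _ _ n₁.2]
  refine ⟨yb, ?_⟩
  funext ⟨p, q⟩
  induction p using QuotientGroup.induction_on with | H g =>
  induction q using QuotientGroup.induction_on with | H h =>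
  apply Subtype.ext
  rw [d₁₂_hom_apply]
  have hcoe : ∀ (g : G) (v : A.quotientToInvariants N),
      (((A.quotientToInvariants N).ρ (g : G ⧸ N) v : A.quotientToInvariants N) : A) =
        A.ρ g (v : A) := fun g v => rfl
  simp only []
  rw [← QuotientGroup.mk_mul, Submodule.coe_add, Submodule.coe_sub, hcoe, hyb, hyb, hyb]
  exact hf₁ g h

theorem inf_res_exact_aux (h1 : H1Triv N A) (x : cocycles₂ A)
    (y : N → A) (hy : ∀ n m : N, x ((n : G), (m : G)) = A.ρ n (y m) - y (n * m) + y n) :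
    ∃ z : cocycles₂ (A.quotientToInvariants N), H2π A (infCoc N A z) = H2π A x := by
  obtain ⟨x₀, h₀⟩ := step0 (F := ⇑x) y hy
  have hF₀ := sub_d_mem x.2 x₀
  obtain ⟨x₁, h₁⟩ := step1 hF₀ h₀
  have hF₁ := sub_d_mem hF₀ x₁
  obtain ⟨x₂, h₂l, h₂r⟩ := step2 h1 hF₁ h₁
  have hF₂ := sub_d_mem hF₁ x₂
  obtain ⟨z, hz⟩ := step3 hF₂ h₂l h₂r
  refine ⟨z, ?_⟩
  rw [H2π_eq_iff]
  refine ⟨-(x₀ + x₁ + x₂), ?_⟩
  funext ⟨g, h⟩
  rw [Pi.sub_apply, infCoc_apply, hz, map_neg, map_add, map_add]
  simp only [Pi.sub_apply, Pi.neg_apply, Pi.add_apply, cocycles₂.val_eq_coe]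
  abel

end Fermat.Agent.PT.InfRes2

namespace Fermat.Agent.PT

open CategoryTheory groupCohomology Rep InfRes2

theorem stmtInfRes₂ : StmtInfRes₂ := by
  intro G _ N _ A hH1
  have h1 := h1Triv_of_subsingleton N A hH1
  constructor
  · rw [injective_iff_map_eq_zero]
    intro x hx
    induction x using H2_induction_on with | @h x =>
    have key := H2π_comp_map_apply (QuotientGroup.mk' N)
      (ofHom (A.ρ.quotientToInvariants_lift N)) x
    exact inf_injective_aux N A h1 x (key.symm.trans hx)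
  · intro x hx
    induction x using H2_induction_on with | @h x =>
    have key := H2π_comp_map_apply N.subtype (𝟙 (Rep.res N.subtype A)) x
    have hx' : H2π (Rep.res N.subtype A) (mapCocycles₂ N.subtype (𝟙 (Rep.res N.subtype A)) x) = 0 :=
      key.symm.trans hx
    rw [H2π_eq_zero_iff] at hx'
    obtain ⟨y, hy⟩ := hx'
    obtain ⟨z, hz⟩ := inf_res_exact_aux N A h1 x y (fun n m => by
      have := congrFun hy (n, m)
      simp only [d₁₂_hom_apply] at this
      exact this.symm)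
    refine ⟨H2π _ z, ?_⟩
    have key2 := H2π_comp_map_apply (QuotientGroup.mk' N)
      (ofHom (A.ρ.quotientToInvariants_lift N)) z
    exact key2.trans hz

end Fermat.Agent.PT


end ZBPT_017_0

/-! ### bundled: `Fermat.Agent.PT.L.InflInj` -/
section ZBPT_017_1
/-
PT-L piece L4a (helper60): inflation `H²(F'/F, F'ˣ) → H²(F''/F, F''ˣ)` is injective (`StmtLd`).

`G = Gal(F''/F)`, `φ : G → Gal(F'/F)` the restriction, `N = ker φ ≅ Gal(F''/F')`,
`A = F''ˣ`.  Hilbert 90 for `F''/F'` gives `H¹(N, A) = 0` in cocycle form (`l4_h1Triv`), so the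
cocycle-level inflation–restriction lemmas of `PT/A/InfRes2.lean` apply.  The comparison with
`infl` uses `e : G ⧸ N ≃* Gal(F'/F)` and the bijection `ι : F'ˣ → (F''ˣ)^N`
(`l4Iota_injective`, `l4_exists_iota`): `infl (H2π c) = inf (H2π (l4Push c))`.
-/

set_option autoImplicit false
set_option linter.style.haveILetI false

namespace Fermat.Agent.PT.L

open CategoryTheory groupCohomology

section l4tower

variable (F F' F'' : Type) [Field F] [Field F'] [Field F''] [Algebra F F'] [Algebra F F'']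
    [Algebra F' F''] [IsScalarTower F F' F'']

/-- The restriction homomorphism `Gal(F''/F) → Gal(F'/F)`. -/
noncomputable abbrev l4Phi [Normal F F'] : (F'' ≃ₐ[F] F'') →* (F' ≃ₐ[F] F') :=
  AlgEquiv.restrictNormalHom (F := F) (K₁ := F'') F'

/-- The kernel of the restriction homomorphism, i.e. `Gal(F''/F')` inside `Gal(F''/F)`. -/
noncomputable abbrev l4N [Normal F F'] : Subgroup (F'' ≃ₐ[F] F'') := (l4Phi F F' F'').ker

variable {F F' F''}

lemma l4_phi_commutes [Normal F F'] (g : F'' ≃ₐ[F] F'') (x : F') :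
    algebraMap F' F'' (l4Phi F F' F'' g x) = g (algebraMap F' F'' x) :=
  AlgEquiv.restrictNormal_commutes g F' x

lemma l4_mem_N_iff [Normal F F'] (g : F'' ≃ₐ[F] F'') :
    g ∈ l4N F F' F'' ↔ ∀ x : F', g (algebraMap F' F'' x) = algebraMap F' F'' x := by
  rw [MonoidHom.mem_ker]
  constructor
  · intro h x
    rw [← l4_phi_commutes, h]
    rfl
  · intro h
    ext x
    apply (algebraMap F' F'').injective
    rw [l4_phi_commutes, h]
    rfl

lemma l4_rs_mem [Normal F F'] (τ : F'' ≃ₐ[F'] F'') :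
    AlgEquiv.restrictScalars F τ ∈ l4N F F' F'' := by
  rw [l4_mem_N_iff]
  intro x
  exact τ.commutes x

/-- An element of the kernel of the restriction, as an `F'`-automorphism of `F''`. -/
noncomputable def l4Lin [Normal F F'] (n : l4N F F' F'') : F'' ≃ₐ[F'] F'' :=
  AlgEquiv.ofRingEquiv (f := ((n : F'' ≃ₐ[F] F'') : F'' ≃+* F''))
    (fun x => (l4_mem_N_iff n.1).1 n.2 x)

@[simp] lemma l4Lin_apply [Normal F F'] (n : l4N F F' F'') (x : F'') :
    l4Lin n x = (n : F'' ≃ₐ[F] F'') x := rfl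

lemma l4Lin_rs [Normal F F'] (n : l4N F F' F'') :
    AlgEquiv.restrictScalars F (l4Lin n) = (n : F'' ≃ₐ[F] F'') := by
  ext x
  rfl

lemma l4Lin_mul [Normal F F'] (n m : l4N F F' F'') : l4Lin (n * m) = l4Lin n * l4Lin m := by
  ext x
  rfl

lemma l4Lin_mk [Normal F F'] (τ : F'' ≃ₐ[F'] F'') :
    l4Lin ⟨AlgEquiv.restrictScalars F τ, l4_rs_mem τ⟩ = τ := by
  ext x
  rfl

/-- Every unit of `F''` fixed by `Gal(F''/F')` comes from `F'`. -/
lemma l4_exists_of_fixed [FiniteDimensional F F''] [IsGalois F F'] [IsGalois F F'']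
    (u : F''ˣ) (hu : ∀ n ∈ l4N F F' F'', n (u : F'') = u) :
    ∃ u' : F'ˣ, Units.map (algebraMap F' F'' : F' →* F'') u' = u := by
  haveI : IsGalois F' F'' := IsGalois.tower_top_of_isGalois F F' F''
  haveI : FiniteDimensional F' F'' := FiniteDimensional.right F F' F''
  have h1 : (u : F'') ∈ (⊥ : IntermediateField F' F'') := by
    rw [IsGalois.mem_bot_iff_fixed]
    intro τ
    exact hu _ (l4_rs_mem τ)
  rw [IntermediateField.mem_bot] at h1
  obtain ⟨x, hx⟩ := h1
  have hx0 : x ≠ 0 := by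
    rintro rfl
    rw [map_zero] at hx
    exact u.ne_zero hx.symm
  refine ⟨Units.mk0 x hx0, ?_⟩
  ext
  exact hx

/-- Hilbert 90 for `F''/F'` in the form needed for inflation–restriction. -/
theorem l4_h1Triv [FiniteDimensional F F''] [Normal F F'] :
    InfRes2.H1Triv (l4N F F' F'') (Rep.ofAlgebraAutOnUnits F F'') := by
  intro c hc
  haveI : FiniteDimensional F' F'' := FiniteDimensional.right F F' F''
  obtain ⟨β, hβ⟩ := isMulCoboundary₁_of_isMulCocycle₁_of_aut_to_units
    (fun τ : F'' ≃ₐ[F'] F'' =>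
      (Additive.toMul (c ⟨AlgEquiv.restrictScalars F τ, l4_rs_mem τ⟩) : F''ˣ)) (by
    intro τ τ'
    have := hc ⟨AlgEquiv.restrictScalars F τ, l4_rs_mem τ⟩
      ⟨AlgEquiv.restrictScalars F τ', l4_rs_mem τ'⟩
    exact congrArg Additive.toMul this)
  refine ⟨Additive.ofMul β, fun n => ?_⟩
  have h := hβ (l4Lin n)
  have h2 : (⟨AlgEquiv.restrictScalars F (l4Lin n), l4_rs_mem (l4Lin n)⟩ : l4N F F' F'') = n :=
    Subtype.ext (l4Lin_rs n)
  simp only [h2] at h
  exact (congrArg Additive.ofMul h).symm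

variable (F F' F'')

/-- The morphism of representations `F'ˣ → F''ˣ` used to define `infl`. -/
noncomputable def l4Iota [Normal F F'] :
    Rep.res (l4Phi F F' F'') (Rep.ofAlgebraAutOnUnits F F') ⟶ Rep.ofAlgebraAutOnUnits F F'' :=
  Rep.ofHom
    { toLinearMap := (Units.map (algebraMap F' F'' : F' →* F'')).toAdditive.toIntLinearMap
      isIntertwining' := fun g => by
        ext x
        show algebraMap F' F'' ((AlgEquiv.restrictNormalHom F' g) ((Additive.toMul x : F'ˣ) : F')) =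
          g (algebraMap F' F'' ((Additive.toMul x : F'ˣ) : F'))
        exact AlgEquiv.restrictNormal_commutes g F' _ }

lemma l4_infl_eq [Normal F F'] :
    infl F F' F'' = groupCohomology.map (l4Phi F F' F'') (l4Iota F F' F'') 2 := rfl

/-- The quotient `Gal(F''/F) ⧸ Gal(F''/F') ≃ Gal(F'/F)`. -/
noncomputable def l4E [Normal F F'] [Normal F F''] :
    (F'' ≃ₐ[F] F'') ⧸ l4N F F' F'' ≃* (F' ≃ₐ[F] F') :=
  QuotientGroup.quotientKerEquivOfSurjective (l4Phi F F' F'')
    (AlgEquiv.restrictNormalHom_surjective F'')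

variable {F F' F''}

@[simp] lemma l4E_mk [Normal F F'] [Normal F F''] (g : F'' ≃ₐ[F] F'') :
    l4E F F' F'' (g : (F'' ≃ₐ[F] F'') ⧸ l4N F F' F'') = l4Phi F F' F'' g := rfl

@[simp] lemma l4E_symm_phi [Normal F F'] [Normal F F''] (g : F'' ≃ₐ[F] F'') :
    (l4E F F' F'').symm (l4Phi F F' F'' g) = (g : (F'' ≃ₐ[F] F'') ⧸ l4N F F' F'') := by
  rw [MulEquiv.symm_apply_eq]
  rfl

lemma l4Iota_apply [Normal F F'] (v : (Rep.ofAlgebraAutOnUnits F F').V) :
    (l4Iota F F' F'').hom v =
      Additive.ofMul (Units.map (algebraMap F' F'' : F' →* F'') (Additive.toMul v)) := rfl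

lemma l4Iota_injective [Normal F F'] : Function.Injective (l4Iota F F' F'').hom := by
  intro v w h
  have h2 : Units.map (algebraMap F' F'' : F' →* F'') (Additive.toMul v) =
      Units.map (algebraMap F' F'' : F' →* F'') (Additive.toMul w) := congrArg Additive.toMul h
  have h3 : ((Additive.toMul v : F'ˣ) : F') = ((Additive.toMul w : F'ˣ) : F') := by
    apply (algebraMap F' F'').injective
    exact congrArg Units.val h2
  exact congrArg Additive.ofMul (Units.ext h3)

lemma l4Iota_rho [Normal F F'] (g : F'' ≃ₐ[F] F'') (v : (Rep.ofAlgebraAutOnUnits F F').V) :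
    (Rep.ofAlgebraAutOnUnits F F'').ρ g ((l4Iota F F' F'').hom v) =
      (l4Iota F F' F'').hom ((Rep.ofAlgebraAutOnUnits F F').ρ (l4Phi F F' F'' g) v) :=
  (Rep.hom_comm_apply (l4Iota F F' F'') g v).symm

lemma l4Iota_mem_invariants [Normal F F'] (v : (Rep.ofAlgebraAutOnUnits F F').V) :
    (l4Iota F F' F'').hom v ∈ Representation.invariants
      ((Rep.ofAlgebraAutOnUnits F F'').ρ.comp (l4N F F' F'').subtype) := by
  intro n
  show (Rep.ofAlgebraAutOnUnits F F'').ρ (n : F'' ≃ₐ[F] F'') ((l4Iota F F' F'').hom v) = _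
  rw [l4Iota_rho]
  have : l4Phi F F' F'' (n : F'' ≃ₐ[F] F'') = 1 := n.2
  rw [this, map_one]
  rfl

/-- Every invariant comes from `F'`. -/
lemma l4_exists_iota [FiniteDimensional F F''] [IsGalois F F'] [IsGalois F F'']
    (x : (Rep.ofAlgebraAutOnUnits F F'').quotientToInvariants (l4N F F' F'')) :
    ∃ v : (Rep.ofAlgebraAutOnUnits F F').V, (l4Iota F F' F'').hom v = x.1 := by
  obtain ⟨u', hu'⟩ := l4_exists_of_fixed (F := F) (F' := F') (Additive.toMul x.1) (by
    intro n hn
    have := x.2 ⟨n, hn⟩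
    exact congrArg (fun t => ((Additive.toMul t : F''ˣ) : F'')) this)
  exact ⟨Additive.ofMul u', congrArg Additive.ofMul hu'⟩

/-- The inverse of `ι` on invariants. -/
noncomputable def l4Pull [FiniteDimensional F F''] [IsGalois F F'] [IsGalois F F'']
    (x : (Rep.ofAlgebraAutOnUnits F F'').quotientToInvariants (l4N F F' F'')) : (Rep.ofAlgebraAutOnUnits F F').V :=
  (l4_exists_iota x).choose

lemma l4Pull_spec [FiniteDimensional F F''] [IsGalois F F'] [IsGalois F F'']
    (x : (Rep.ofAlgebraAutOnUnits F F'').quotientToInvariants (l4N F F' F'')) :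
    (l4Iota F F' F'').hom (l4Pull x) = x.1 :=
  (l4_exists_iota x).choose_spec

/-- The action of the quotient on invariants, through `ι`. -/
lemma l4_rho_quot [IsGalois F F'] [IsGalois F F'']
    (p : (F'' ≃ₐ[F] F'') ⧸ l4N F F' F'')
    (x : (Rep.ofAlgebraAutOnUnits F F'').quotientToInvariants (l4N F F' F''))
    (v : (Rep.ofAlgebraAutOnUnits F F').V) (hv : (l4Iota F F' F'').hom v = x.1) :
    (((Rep.ofAlgebraAutOnUnits F F'').quotientToInvariants (l4N F F' F'')).ρ p x).1 =
      (l4Iota F F' F'').hom ((Rep.ofAlgebraAutOnUnits F F').ρ (l4E F F' F'' p) v) := by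
  induction p using QuotientGroup.induction_on with | H g =>
  rw [l4E_mk, ← l4Iota_rho, hv]
  rfl

/-- Push a `2`-cocycle of `Gal(F'/F)` on `F'ˣ` to the quotient `G ⧸ N` acting on invariants. -/
noncomputable def l4Push [IsGalois F F'] [IsGalois F F'']
    (c : cocycles₂ (Rep.ofAlgebraAutOnUnits F F')) :
    cocycles₂ ((Rep.ofAlgebraAutOnUnits F F'').quotientToInvariants (l4N F F' F'')) :=
  ⟨fun pq => ⟨(l4Iota F F' F'').hom (c (l4E F F' F'' pq.1, l4E F F' F'' pq.2)),
      l4Iota_mem_invariants _⟩, by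
    rw [mem_cocycles₂_iff]
    intro p q r
    apply Subtype.ext
    rw [Submodule.coe_add, Submodule.coe_add,
      l4_rho_quot p _ (c (l4E F F' F'' q, l4E F F' F'' r)) rfl]
    have hc := (mem_cocycles₂_iff (c : _ × _ → _)).1 c.2 (l4E F F' F'' p) (l4E F F' F'' q)
      (l4E F F' F'' r)
    have hc' := congrArg (l4Iota F F' F'').hom hc
    rw [map_add, map_add] at hc'
    simp only [map_mul]
    exact hc'⟩

lemma l4Push_apply [IsGalois F F'] [IsGalois F F'']
    (c : cocycles₂ (Rep.ofAlgebraAutOnUnits F F'))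
    (p q : (F'' ≃ₐ[F] F'') ⧸ l4N F F' F'') :
    ((l4Push (F'' := F'') c (p, q)).1 : (Rep.ofAlgebraAutOnUnits F F'').V) =
      (l4Iota F F' F'').hom (c (l4E F F' F'' p, l4E F F' F'' q)) := rfl

lemma l4_mapCocycles_apply [Normal F F']
    (c : cocycles₂ (Rep.ofAlgebraAutOnUnits F F')) (g h : F'' ≃ₐ[F] F'') :
    (mapCocycles₂ (l4Phi F F' F'') (l4Iota F F' F'') c) (g, h) =
      (l4Iota F F' F'').hom (c (l4Phi F F' F'' g, l4Phi F F' F'' h)) := rfl

lemma l4_infCoc_push [IsGalois F F'] [IsGalois F F'']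
    (c : cocycles₂ (Rep.ofAlgebraAutOnUnits F F')) :
    InfRes2.infCoc (l4N F F' F'') (Rep.ofAlgebraAutOnUnits F F'') (l4Push c) =
      mapCocycles₂ (l4Phi F F' F'') (l4Iota F F' F'') c := by
  apply Subtype.ext
  funext ⟨g, h⟩
  rfl

end l4tower

/-- **(Ld)**: inflation `H²(F'/F) → H²(F''/F)` is injective. -/
theorem stmtLd : StmtLd := by
  intro F F' F'' _ _ _ _ _ _ _ _ _ _
  rw [injective_iff_map_eq_zero]
  intro y hy
  induction y using H2_induction_on with | @h c =>
  have key := H2π_comp_map_apply (l4Phi F F' F'') (l4Iota F F' F'') c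
  have h0 := InfRes2.inf_injective_aux (l4N F F' F'') (Rep.ofAlgebraAutOnUnits F F'')
    (l4_h1Triv (F := F) (F' := F') (F'' := F'')) (l4Push c) (by
      rw [l4_infCoc_push, ← key]
      exact hy)
  rw [H2π_eq_zero_iff] at h0 ⊢
  obtain ⟨w, hw⟩ := h0
  refine ⟨fun s => l4Pull (w ((l4E F F' F'').symm s)), ?_⟩
  funext ⟨s, t⟩
  apply l4Iota_injective (F := F) (F' := F') (F'' := F'')
  rw [d₁₂_hom_apply]
  have h1 := congrArg Subtype.val (congrFun hw ((l4E F F' F'').symm s, (l4E F F' F'').symm t))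
  rw [d₁₂_hom_apply] at h1
  simp only [] at h1
  rw [Submodule.coe_add, Submodule.coe_sub,
    l4_rho_quot _ _ _ (l4Pull_spec (w ((l4E F F' F'').symm t))), ← map_mul,
    ← l4Pull_spec (w ((l4E F F' F'').symm (s * t))),
    ← l4Pull_spec (w ((l4E F F' F'').symm s)), MulEquiv.apply_symm_apply] at h1
  rw [map_add, map_sub]
  rw [h1]
  rw [l4Push_apply, MulEquiv.apply_symm_apply, MulEquiv.apply_symm_apply]

end Fermat.Agent.PT.L


end ZBPT_017_1

/-! ### bundled: `Fermat.Agent.PT.L.InfResField` -/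
section ZBPT_017_2
/-
PT-L piece L4b (helper60): inflation–restriction for fields (`StmtInfResField`): a class of
`H²(F''/F, F''ˣ)` that dies in `H²(F''/F', F''ˣ)` is inflated from `H²(F'/F, F'ˣ)`.

With the notation of `InflInj.lean`: if `resF (H2π c) = 0` then `c` restricted to
`N = Gal(F''/F')` is a coboundary, so `InfRes2.inf_res_exact_aux` (using Hilbert 90) produces a
cocycle `z` of `G ⧸ N` on the invariants with `inf (H2π z) = H2π c`; pulling `z` back along
`e : G ⧸ N ≃* Gal(F'/F)` and `ι : F'ˣ → (F''ˣ)^N` gives the required class.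
-/

set_option autoImplicit false
set_option linter.style.haveILetI false

namespace Fermat.Agent.PT.L

open CategoryTheory groupCohomology

section l4btower

variable {F F' F'' : Type} [Field F] [Field F'] [Field F''] [Algebra F F'] [Algebra F F'']
    [Algebra F' F''] [IsScalarTower F F' F'']

/-- Pull a `2`-cocycle of `G ⧸ N` on the invariants back to `Gal(F'/F)` acting on `F'ˣ`. -/
noncomputable def l4PullCoc [FiniteDimensional F F''] [IsGalois F F'] [IsGalois F F'']
    (z : cocycles₂ ((Rep.ofAlgebraAutOnUnits F F'').quotientToInvariants (l4N F F' F''))) :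
    cocycles₂ (Rep.ofAlgebraAutOnUnits F F') :=
  ⟨fun st => l4Pull (z ((l4E F F' F'').symm st.1, (l4E F F' F'').symm st.2)), by
    rw [mem_cocycles₂_iff]
    intro s t r
    apply l4Iota_injective (F := F) (F' := F') (F'' := F'')
    have hz := congrArg Subtype.val ((mem_cocycles₂_iff (z : _ × _ → _)).1 z.2
      ((l4E F F' F'').symm s) ((l4E F F' F'').symm t) ((l4E F F' F'').symm r))
    rw [Submodule.coe_add, Submodule.coe_add,
      l4_rho_quot _ _ _ (l4Pull_spec (z ((l4E F F' F'').symm t, (l4E F F' F'').symm r))),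
      MulEquiv.apply_symm_apply, ← map_mul, ← map_mul,
      ← l4Pull_spec (z ((l4E F F' F'').symm (s * t), (l4E F F' F'').symm r)),
      ← l4Pull_spec (z ((l4E F F' F'').symm s, (l4E F F' F'').symm t)),
      ← l4Pull_spec (z ((l4E F F' F'').symm s, (l4E F F' F'').symm (t * r)))] at hz
    rw [map_add, map_add]
    exact hz⟩

lemma l4_map_pullCoc [FiniteDimensional F F''] [IsGalois F F'] [IsGalois F F'']
    (z : cocycles₂ ((Rep.ofAlgebraAutOnUnits F F'').quotientToInvariants (l4N F F' F''))) :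
    mapCocycles₂ (l4Phi F F' F'') (l4Iota F F' F'') (l4PullCoc z) =
      InfRes2.infCoc (l4N F F' F'') (Rep.ofAlgebraAutOnUnits F F'') z := by
  apply Subtype.ext
  funext ⟨g, h⟩
  refine (l4_mapCocycles_apply (l4PullCoc z) g h).trans ?_
  refine Eq.trans ?_ (InfRes2.infCoc_apply (l4N F F' F'') (Rep.ofAlgebraAutOnUnits F F'')
    z g h).symm
  show (l4Iota F F' F'').hom (l4Pull (z ((l4E F F' F'').symm (l4Phi F F' F'' g),
    (l4E F F' F'').symm (l4Phi F F' F'' h)))) = _
  rw [l4Pull_spec, l4E_symm_phi, l4E_symm_phi]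

/-- The identity morphism used to define `resF`. -/
noncomputable def l4ResHom :
    Rep.res (AlgEquiv.restrictScalarsHom F : (F'' ≃ₐ[F'] F'') →* (F'' ≃ₐ[F] F''))
      (Rep.ofAlgebraAutOnUnits F F'') ⟶ Rep.ofAlgebraAutOnUnits F' F'' :=
  Rep.ofHom
    { toLinearMap := LinearMap.id
      isIntertwining' := fun _ => rfl }

lemma l4_resF_eq :
    resF F F' F'' = groupCohomology.map
      (AlgEquiv.restrictScalarsHom F : (F'' ≃ₐ[F'] F'') →* (F'' ≃ₐ[F] F'')) l4ResHom 2 := rfl

/-- A cocycle whose restriction to `Gal(F''/F')` is a coboundary is a coboundary on `N`. -/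
lemma l4_res_cob [Normal F F'] (c : cocycles₂ (Rep.ofAlgebraAutOnUnits F F''))
    (hc : (resF F F' F'').hom (H2π _ c) = 0) :
    ∃ y : l4N F F' F'' → (Rep.ofAlgebraAutOnUnits F F'').V, ∀ n m : l4N F F' F'',
      c ((n : F'' ≃ₐ[F] F''), (m : F'' ≃ₐ[F] F'')) =
        (Rep.ofAlgebraAutOnUnits F F'').ρ n (y m) - y (n * m) + y n := by
  have key := H2π_comp_map_apply
    (AlgEquiv.restrictScalarsHom F : (F'' ≃ₐ[F'] F'') →* (F'' ≃ₐ[F] F''))
    (l4ResHom (F := F) (F' := F') (F'' := F'')) c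
  have h0 : H2π (Rep.ofAlgebraAutOnUnits F' F'')
      (mapCocycles₂ (AlgEquiv.restrictScalarsHom F : (F'' ≃ₐ[F'] F'') →* (F'' ≃ₐ[F] F''))
        (l4ResHom (F := F) (F' := F') (F'' := F'')) c) = 0 := key.symm.trans hc
  rw [H2π_eq_zero_iff] at h0
  obtain ⟨b, hb⟩ := h0
  refine ⟨fun n => b (l4Lin n), fun n m => ?_⟩
  have h1 := congrFun hb (l4Lin n, l4Lin m)
  rw [d₁₂_hom_apply] at h1
  simp only [] at h1
  rw [← l4Lin_mul] at h1
  exact h1.symm

end l4btower

/-- **L4b**: inflation–restriction for fields. -/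
theorem stmtInfResField : StmtInfResField := by
  intro F F' F'' _ _ _ _ _ _ _ _ _ _ x hx
  induction x using H2_induction_on with | @h c =>
  obtain ⟨y, hy⟩ := l4_res_cob (F := F) (F' := F') (F'' := F'') c hx
  obtain ⟨z, hz⟩ := InfRes2.inf_res_exact_aux (l4N F F' F'') (Rep.ofAlgebraAutOnUnits F F'')
    (l4_h1Triv (F := F) (F' := F') (F'' := F'')) c y hy
  refine ⟨H2π _ (l4PullCoc z), ?_⟩
  have key := H2π_comp_map_apply (l4Phi F F' F'') (l4Iota F F' F'') (l4PullCoc z)
  rw [l4_map_pullCoc] at key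
  exact key.trans hz

end Fermat.Agent.PT.L


end ZBPT_017_2

/-! ### bundled: `Fermat.Agent.PT.G3.Carry` -/
section ZBPT_017_3
/-
PT-G3 piece `carry` (helper79): the carry class detects Sylow norms.

`stmtCarryZero : StmtCarryZero` — restrict the carry cocycle to a Sylow `p`-subgroup `P`
(on which `θ` stays onto, `carry_sylow_surjective`), where it is the inflation of the carry
cocycle of `P / (P ∩ A) ≃ ℤ/h`; inflation is injective on `H²` by `stmtInfRes₂`
(`H¹(P ∩ A, C) = 0`, transported by `carry_h1_subgroupOf`), then `cmp_norm_of_nsmul_eq_zero`.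
`stmtCarryClass : StmtCarryClass` — the class of `cmpCarry h θ a₀` dies on `B` when `a₀` is a
norm from `B` (`cmpCarry_mem_coboundaries₂`) and its order is controlled by `stmtCarryZero`.
-/

set_option autoImplicit false

open CategoryTheory groupCohomology

namespace Fermat.Agent.PT.G3

attribute [local instance 1100] Rep.hV2

variable {G : Type} [Group G]

/-- A surjection onto a `p`-group stays surjective on a Sylow `p`-subgroup. -/
lemma carry_sylow_surjective (p : ℕ) [Fact p.Prime] [Finite G] {Z : Type} [Group Z]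
    (θ : G →* Z) (hθ : Function.Surjective θ) (hZ : ∃ j : ℕ, Nat.card Z = p ^ j)
    (P : Sylow p G) : Function.Surjective (θ.comp (P : Subgroup G).subtype) := by
  have h1 : ((P : Subgroup G).map θ).index ∣ (P : Subgroup G).index :=
    Subgroup.index_map_dvd _ hθ
  have h2 : ((P : Subgroup G).map θ).index ∣ Nat.card Z := Subgroup.index_dvd_card _
  obtain ⟨j, hj⟩ := hZ
  rw [hj] at h2
  have h3 : ¬ p ∣ (P : Subgroup G).index := P.not_dvd_index
  have hp : p.Prime := Fact.out
  have h4 : ((P : Subgroup G).map θ).index = 1 := by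
    obtain ⟨i, _, hi⟩ := (Nat.dvd_prime_pow hp).1 h2
    rcases Nat.eq_zero_or_pos i with h0 | h0
    · rw [hi, h0, pow_zero]
    · exfalso
      apply h3
      refine dvd_trans ?_ h1
      rw [hi]
      exact dvd_pow_self p (by omega)
  rw [Subgroup.index_eq_one] at h4
  rw [← MonoidHom.range_eq_top, ← MonoidHom.map_range, Subgroup.range_subtype, h4]

/-- `H¹` vanishing transported from `P ⊓ A ≤ G` to `A.subgroupOf P ≤ P`. -/
lemma carry_h1_subgroupOf (C : Rep.{0} ℤ G) (P A : Subgroup G)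
    (h : Subsingleton (H1 (Rep.res (P ⊓ A).subtype C))) :
    Subsingleton (H1 (Rep.res (A.subgroupOf P).subtype (Rep.res P.subtype C))) := by
  suffices h0 : ∀ x : H1 (Rep.res (A.subgroupOf P).subtype (Rep.res P.subtype C)), x = 0 from
    ⟨fun x y => (h0 x).trans (h0 y).symm⟩
  intro x
  induction x using H1_induction_on with
  | h f =>
    rw [H1π_eq_zero_iff]
    have hf := (mem_cocycles₁_iff (f : ↥(A.subgroupOf P) → C.V)).1 f.2
    let f' : ↥(P ⊓ A) → C.V := fun x => f ⟨⟨x.1, x.2.1⟩, Subgroup.mem_subgroupOf.2 x.2.2⟩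
    have hf' : f' ∈ cocycles₁ (Rep.res (P ⊓ A).subtype C) := by
      rw [mem_cocycles₁_iff]
      intro g k
      exact hf ⟨⟨g.1, g.2.1⟩, Subgroup.mem_subgroupOf.2 g.2.2⟩
        ⟨⟨k.1, k.2.1⟩, Subgroup.mem_subgroupOf.2 k.2.2⟩
    have h1 : H1π (Rep.res (P ⊓ A).subtype C) ⟨f', hf'⟩ = 0 := Subsingleton.elim _ _
    rw [H1π_eq_zero_iff] at h1
    obtain ⟨c, hc⟩ := h1
    refine ⟨c, ?_⟩
    funext x
    have := congrFun hc ⟨(x : G), ⟨x.1.2, Subgroup.mem_subgroupOf.1 x.2⟩⟩
    exact this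

/-- **G3-carry**, first half. -/
theorem stmtCarryZero : StmtCarryZero := by
  classical
  intro p _ G _ _ C A _ h _ θ hθ hker hh P hH1 a ha hcob
  -- notation
  let P₀ : Subgroup G := (P : Subgroup G)
  let C' : Rep.{0} ℤ ↥P₀ := Rep.res P₀.subtype C
  let A' : Subgroup ↥P₀ := A.subgroupOf P₀
  let θP : ↥P₀ →* Multiplicative (ZMod h) := θ.comp P₀.subtype
  have hcardZ : ∃ j : ℕ, Nat.card (Multiplicative (ZMod h)) = p ^ j := by
    obtain ⟨j, hj⟩ := hh
    refine ⟨j, ?_⟩
    rw [Nat.card_eq_fintype_card, Fintype.card_multiplicative, ZMod.card, hj]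
  have hsurj : Function.Surjective θP := carry_sylow_surjective p θ hθ hcardZ P
  have hkerP : A' = θP.ker := by
    change A.comap P₀.subtype = (θ.comp P₀.subtype).ker
    rw [← MonoidHom.comap_ker, hker]
  let θbar : (↥P₀ ⧸ A') ≃* Multiplicative (ZMod h) :=
    (QuotientGroup.quotientMulEquivOfEq hkerP).trans
      (QuotientGroup.quotientKerEquivOfSurjective θP hsurj)
  have hθbar : ∀ g : ↥P₀, θbar (g : ↥P₀ ⧸ A') = θ (g : G) := fun g => rfl
  have ha' : ∀ g : ↥P₀, C'.ρ g a = a := fun g => ha (g : G)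
  let _ : Fintype (↥P₀ ⧸ A') := Fintype.ofFinite _
  -- the inflated carry class vanishes
  obtain ⟨w, hw, hwf⟩ := cmp_inf_apply C' A' (cmpCocycle C' A' h θbar a ha')
  have hwcob : (w : ↥P₀ × ↥P₀ → C.V) ∈ coboundaries₂ C' := by
    obtain ⟨c, hc⟩ := hcob
    refine ⟨fun g => c (g : G), ?_⟩
    funext ⟨g₁, g₂⟩
    have h1 := congrFun hc ((g₁ : G), (g₂ : G))
    rw [d₁₂_hom_apply] at h1
    rw [d₁₂_hom_apply]
    refine Eq.trans h1 ?_
    rw [hwf, cmpCarry_apply]
    change _ = (((cmpCarry h θbar.toMonoidHom (cmpInv C' A' a ha')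
      ((g₁ : ↥P₀ ⧸ A'), (g₂ : ↥P₀ ⧸ A'))) : (C'.quotientToInvariants A').V) : C.V)
    rw [cmpCarry_apply]
    change _ = (((if h ≤ cmpIdx h θ (g₁ : G) + cmpIdx h θ (g₂ : G) then cmpInv C' A' a ha'
      else 0 : (C'.quotientToInvariants A').V)) : C.V)
    split_ifs
    · rfl
    · rfl
  have hzero : H2π _ (cmpCocycle C' A' h θbar a ha') = 0 := by
    apply (Fermat.Agent.PT.stmtInfRes₂ ↥P₀ A' C' (carry_h1_subgroupOf C P₀ A hH1)).1
    refine Eq.trans hw ?_
    refine Eq.trans ((H2π_eq_zero_iff w).2 hwcob) ?_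
    exact (map_zero _).symm
  obtain ⟨d, hd1, hd2⟩ := cmp_norm_of_nsmul_eq_zero C' A' h θbar a ha' 1 (by rw [one_smul]; exact hzero)
  refine ⟨d, fun x hx => ?_, ?_⟩
  · exact hd1 ⟨x, hx.1⟩ (Subgroup.mem_subgroupOf.2 hx.2)
  · rw [one_smul] at hd2
    rw [hd2, finsum_eq_sum_of_fintype]
    rfl

/-- **G3-carry**, second half. -/
theorem stmtCarryClass : StmtCarryClass := by
  classical
  intro p _ G _ _ C A B _ h _ θ hθ hker hh P hH1 a₀ ha₀ hB hord
  let _ : Fintype ↥B := Fintype.ofFinite _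
  refine ⟨H2π C ⟨cmpCarry h θ a₀, cmpCarry_mem_cocycles₂ h θ C a₀ ha₀⟩, ?_, ?_⟩
  · -- the restriction to `B` vanishes
    obtain ⟨e, he⟩ := hB
    rw [finsum_eq_sum_of_fintype] at he
    have key := H2π_comp_map_apply B.subtype (𝟙 (Rep.res B.subtype C))
      ⟨cmpCarry h θ a₀, cmpCarry_mem_cocycles₂ h θ C a₀ ha₀⟩
    refine Eq.trans key ?_
    rw [H2π_eq_zero_iff]
    have hfun : ⇑(mapCocycles₂ B.subtype (𝟙 (Rep.res B.subtype C))
        ⟨cmpCarry h θ a₀, cmpCarry_mem_cocycles₂ h θ C a₀ ha₀⟩) =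
        cmpCarry h (θ.comp B.subtype) (∑ b : B, (Rep.res B.subtype C).ρ b e) := by
      funext ⟨b₁, b₂⟩
      have hsum : (∑ b : B, (Rep.res B.subtype C).ρ b e) = a₀ := he.symm
      rw [hsum]
      rfl
    rw [hfun]
    exact cmpCarry_mem_coboundaries₂ h _ (Rep.res B.subtype C) e
  · intro k hk
    apply hord k
    rw [← map_nsmul, H2π_eq_zero_iff] at hk
    have hfun : ⇑(k • (⟨cmpCarry h θ a₀, cmpCarry_mem_cocycles₂ h θ C a₀ ha₀⟩ : cocycles₂ C)) =
        cmpCarry h θ (k • a₀) := by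
      rw [← cmpCarry_nsmul]
      rfl
    rw [hfun] at hk
    exact stmtCarryZero p G C A h θ hθ hker hh P hH1 (k • a₀)
      (fun g => by rw [map_nsmul, ha₀]) hk

end Fermat.Agent.PT.G3


end ZBPT_017_3

/-! ### bundled: `Fermat.Agent.PT.G3.Devissage` -/
section ZBPT_017_4

/-!
# PT-G3 piece `dev` (dévissage)

`stmtDevissage : StmtDevissage`: the layer hypothesis implies `H¹(P, C) = 0` and
`|H²(P, C)| ≤ |P|` for every `p`-subgroup `P`.

Induction on `|P|`: a nontrivial `p`-group `P` has a normal subgroup `P'` of index `p`;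
inflation–restriction in degree 1 (Mathlib `H1InfRes_exact`) and in degree 2 (`stmtInfRes₂`) for
`P' ◁ P`, and the induction hypothesis for the image of `P'` in `G`.
-/

set_option autoImplicit false

namespace Fermat.Agent.PT.G3.Dev

open CategoryTheory groupCohomology Fermat.Agent.PT

attribute [local instance 1100] Rep.hV2

/-- Counting in a sequence `X₁ → X₂ → X₃` exact in the middle. -/
lemma finite_card_le_of_exact {X₁ X₂ X₃ : Type} [AddCommGroup X₁] [AddCommGroup X₂]
    [AddCommGroup X₃] (f : X₁ →+ X₂) (g : X₂ →+ X₃)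
    (hex : ∀ x : X₂, g x = 0 → ∃ y : X₁, f y = x) [Finite X₁] [Finite X₃] :
    Finite X₂ ∧ Nat.card X₂ ≤ Nat.card X₁ * Nat.card X₃ := by
  classical
  -- a section of `g` on its range
  have hs : ∀ z : X₃, ∃ x : X₂, (∃ x' : X₂, g x' = z) → g x = z := by
    intro z
    by_cases h : ∃ x' : X₂, g x' = z
    · obtain ⟨x', hx'⟩ := h
      exact ⟨x', fun _ => hx'⟩
    · exact ⟨0, fun h' => absurd h' h⟩
  choose s hs using hs
  have hk : ∀ x : X₂, g (x - s (g x)) = 0 := by
    intro x
    rw [map_sub, hs (g x) ⟨x, rfl⟩, sub_self]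
  choose σ hσ using fun x : X₂ => hex (x - s (g x)) (hk x)
  let F : X₂ → X₁ × X₃ := fun x => (σ x, g x)
  have hF : Function.Injective F := by
    intro x x' h
    have h1 : σ x = σ x' := congrArg Prod.fst h
    have h2 : g x = g x' := congrArg Prod.snd h
    have h3 : x - s (g x) = x' - s (g x') := by
      rw [← hσ x, ← hσ x', h1]
    rw [h2] at h3
    exact sub_left_injective h3
  have hfin : Finite X₂ := Finite.of_injective F hF
  refine ⟨hfin, ?_⟩
  have := Nat.card_le_card_of_injective F hF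
  rwa [Nat.card_prod] at this

/-- A nontrivial finite `p`-group has a normal subgroup of index `p`. -/
lemma exists_normal_index_eq (p : ℕ) [Fact p.Prime] (P : Type) [Group P] [Finite P]
    (hP : IsPGroup p P) (hne : Nat.card P ≠ 1) :
    ∃ P' : Subgroup P, P'.Normal ∧ P'.index = p := by
  obtain ⟨a, ha⟩ := (IsPGroup.iff_card (p := p) (G := P)).1 hP
  have hp : p.Prime := Fact.out
  have ha0 : a ≠ 0 := by
    rintro rfl
    exact hne (by simpa using ha)
  obtain ⟨b, rfl⟩ : ∃ b, a = b + 1 := ⟨a - 1, by omega⟩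
  obtain ⟨K, hK⟩ := Sylow.exists_subgroup_card_pow_prime p (n := b) (G := P)
    (by rw [ha]; exact pow_dvd_pow p (Nat.le_succ b))
  have hidx : K.index = p := by
    have h1 := K.card_mul_index
    rw [hK, ha, pow_succ] at h1
    exact Nat.eq_of_mul_eq_mul_left (pow_pos hp.pos b) h1
  refine ⟨K, ?_, hidx⟩
  apply Subgroup.normal_of_index_eq_minFac_card
  rw [hidx, ha, hp.pow_minFac (Nat.succ_ne_zero b)]

variable {G : Type} [Group G]

/-- The cohomology of `P' ≤ P ≤ G` is the cohomology of the image of `P'` in `G`. -/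
noncomputable def transIso (C : Rep.{0} ℤ G) (P : Subgroup G) (P' : Subgroup ↥P) (n : ℕ) :
    groupCohomology (Rep.res P'.subtype (Rep.res P.subtype C)) n ≅
      groupCohomology (Rep.res (P'.map P.subtype).subtype C) n :=
  groupCohomology.mapIso (A := Rep.res (P'.map P.subtype).subtype C)
    (B := Rep.res P'.subtype (Rep.res P.subtype C))
    (P'.equivMapOfInjective P.subtype P.subtype_injective)
    (LinearEquiv.refl ℤ C.V) (fun g => by ext; rfl) n

/-- The trivial case. -/
lemma pbound_of_card_eq_one (C : Rep.{0} ℤ G) (P : Subgroup G) (h : Nat.card P = 1) :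
    Subsingleton (H1 (Rep.res P.subtype C)) ∧
    Finite (H2 (Rep.res P.subtype C)) ∧
    Nat.card (H2 (Rep.res P.subtype C)) ≤ Nat.card P := by
  have : Subsingleton ↥P := (Nat.card_eq_one_iff_unique.1 h).1
  have h1 : Subsingleton (H1 (Rep.res P.subtype C)) :=
    ModuleCat.subsingleton_of_isZero
      (isZero_groupCohomology_succ_of_subsingleton (Rep.res P.subtype C) 0)
  have h2 : Subsingleton (H2 (Rep.res P.subtype C)) :=
    ModuleCat.subsingleton_of_isZero
      (isZero_groupCohomology_succ_of_subsingleton (Rep.res P.subtype C) 1)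
  refine ⟨h1, inferInstance, ?_⟩
  rw [h, Nat.card_eq_one_iff_unique.2 ⟨h2, ⟨0⟩⟩]

/-- The induction step. -/
lemma pbound_step (p : ℕ) [Fact p.Prime] [Finite G] (C : Rep.{0} ℤ G) (hL : LayerHyp p C)
    (P : Subgroup G) (hP : IsPGroup p P) (hne : Nat.card P ≠ 1)
    (ih : ∀ Q : Subgroup G, Nat.card Q < Nat.card P → IsPGroup p Q →
      Subsingleton (H1 (Rep.res Q.subtype C)) ∧
      Finite (H2 (Rep.res Q.subtype C)) ∧
      Nat.card (H2 (Rep.res Q.subtype C)) ≤ Nat.card Q) :
    Subsingleton (H1 (Rep.res P.subtype C)) ∧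
    Finite (H2 (Rep.res P.subtype C)) ∧
    Nat.card (H2 (Rep.res P.subtype C)) ≤ Nat.card P := by
  have hp : p.Prime := Fact.out
  obtain ⟨P', hN, hidx⟩ := exists_normal_index_eq p ↥P hP hne
  have := hN
  -- the image of `P'` in `G`
  have hle : P'.map P.subtype ≤ P := Subgroup.map_subtype_le P'
  have hP'' : IsPGroup p ↥(P'.map P.subtype) := hP.to_le hle
  have hcard'' : Nat.card ↥(P'.map P.subtype) = Nat.card ↥P' :=
    (Nat.card_congr (P'.equivMapOfInjective P.subtype P.subtype_injective).toEquiv).symm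
  have hmul : Nat.card ↥P' * p = Nat.card ↥P := by
    rw [← hidx]
    exact P'.card_mul_index
  have hpos : 0 < Nat.card ↥P' := Nat.card_pos
  have hlt : Nat.card ↥(P'.map P.subtype) < Nat.card ↥P := by
    rw [hcard'', ← hmul]
    calc Nat.card ↥P' = Nat.card ↥P' * 1 := (mul_one _).symm
      _ < Nat.card ↥P' * p := Nat.mul_lt_mul_of_pos_left hp.one_lt hpos
  obtain ⟨i1, i2, i3⟩ := ih _ hlt hP''
  -- transport to `P' ≤ P`
  let A : Rep.{0} ℤ ↥P := Rep.res P.subtype C
  have e1 : H1 (Rep.res P'.subtype A) ≃ H1 (Rep.res (P'.map P.subtype).subtype C) :=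
    (transIso C P P' 1).toLinearEquiv.toEquiv
  have e2 : H2 (Rep.res P'.subtype A) ≃ H2 (Rep.res (P'.map P.subtype).subtype C) :=
    (transIso C P P' 2).toLinearEquiv.toEquiv
  have j1 : Subsingleton (H1 (Rep.res P'.subtype A)) := e1.subsingleton
  have j2 : Finite (H2 (Rep.res P'.subtype A)) := Finite.of_equiv _ e2.symm
  have j3 : Nat.card (H2 (Rep.res P'.subtype A)) ≤ Nat.card ↥P' := by
    rw [Nat.card_congr e2, ← hcard'']
    exact i3
  -- the layer
  obtain ⟨l1, l2, l3⟩ := hL P hP P' hidx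
  -- degree 1
  have hX1 : Limits.IsZero (H1InfRes A P').X₁ := @ModuleCat.isZero_of_subsingleton _ _ _ l1
  have hX3 : Limits.IsZero (H1InfRes A P').X₃ := @ModuleCat.isZero_of_subsingleton _ _ _ j1
  have hX2 : Limits.IsZero (H1InfRes A P').X₂ :=
    (H1InfRes_exact A P').isZero_of_both_zeros (hX1.eq_of_src _ _) (hX3.eq_of_tgt _ _)
  have k1 : Subsingleton (H1 A) := ModuleCat.subsingleton_of_isZero hX2
  -- degree 2
  obtain ⟨-, hex⟩ := stmtInfRes₂ ↥P P' A j1
  have : Finite (H2 (A.quotientToInvariants P')) := l2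
  have : Finite (H2 (Rep.res P'.subtype A)) := j2
  obtain ⟨k2, k3⟩ := finite_card_le_of_exact
    (X₁ := H2 (A.quotientToInvariants P')) (X₂ := H2 A) (X₃ := H2 (Rep.res P'.subtype A))
    ((infNatTrans ℤ P' 2).app A).hom.toAddMonoidHom (resSub A P' 2).hom.toAddMonoidHom hex
  refine ⟨k1, k2, k3.trans ?_⟩
  rw [← hmul, mul_comm]
  exact Nat.mul_le_mul j3 l3

end Fermat.Agent.PT.G3.Dev

namespace Fermat.Agent.PT.G3

open CategoryTheory groupCohomology Fermat.Agent.PT

/-- **G3-dev** (dévissage). -/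
theorem stmtDevissage : StmtDevissage := by
  intro p _ G _ _ C hL
  have key : ∀ n : ℕ, ∀ P : Subgroup G, Nat.card P = n → IsPGroup p P →
      Subsingleton (H1 (Rep.res P.subtype C)) ∧
      Finite (H2 (Rep.res P.subtype C)) ∧
      Nat.card (H2 (Rep.res P.subtype C)) ≤ Nat.card P := by
    intro n
    induction n using Nat.strong_induction_on with
    | _ n ih =>
      intro P hn hP
      by_cases h1 : Nat.card P = 1
      · exact Dev.pbound_of_card_eq_one C P h1
      · exact Dev.pbound_step p C hL P hP h1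
          (fun Q hQ hQp => ih (Nat.card Q) (hn ▸ hQ) Q rfl hQp)
  exact fun P hP => key _ P rfl hP

end Fermat.Agent.PT.G3


end ZBPT_017_4
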