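/- GENERATED FILE (helper35, build-time optimisation, NOTES/ZB.md): verbatim concatenation of the modules
   Fermat.Agent.PT.A.Sylow
   Fermat.Agent.PT.L.FundClass
   Fermat.Agent.PT.A.HomCoind
   Fermat.Agent.PT.A.CTAux
   Fermat.Agent.PT.A.CT
   Fermat.Agent.PT.A.FpCTCore
   Fermat.Agent.PT.A.FpCT
   Fermat.Agent.PT.A.Kill
   Fermat.Agent.PT.A.Shapiro
   Fermat.Agent.PT.A.Red
   Fermat.Agent.PT.A.DSDefs
   Fermat.Agent.PT.A.DSHomPre
   Fermat.Agent.PT.A.DSCompat
   Fermat.Agent.PT.A.DSCoind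
   Fermat.Agent.PT.A.DS
   Fermat.Agent.PT.F.InflInj
   Fermat.Agent.PT.F.H2pCyclic
   Fermat.Agent.PT.F.TNDual
   Fermat.Agent.PT.B.TransportFund
   Fermat.Agent.PT.B.H90Sub
   Fermat.Agent.PT.G3.FundOfOrder
   Fermat.Agent.PT.G3.InfSurj
   Do not edit; do not import together with these modules. -/
import Fermat.Agent.ZB.PT_001
import Fermat.Agent.ZB.PT_002
import Fermat.Agent.ZB.PT_007
import Fermat.Agent.ZB.PT_017

/-! ### bundled: `Fermat.Agent.PT.A.Sylow` -/
section ZBPT_022_0
/-
PT-A piece `StmtSylow` (helper11): restriction to a Sylow `p`-subgroup is injective on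
`p`-primary cohomology classes in positive degree.

Route (no corestriction map needed): kernel form of `cor ∘ res = index`,
  `index_smul_eq_zero_of_res_eq_zero : res_H x = 0 → [G : H] • x = 0`  (any `H` of finite index),
by dimension shifting along `0 → A → Coind_1^G A → A' → 0`:
* degree 1: explicit cocycle computation (`index_smul_eq_zero_one`);
* `Coind_1^G A` is acyclic for `G` (Mathlib's Shapiro) and for `H` (Mackey isomorphism
  `Res_H Coind_1^G A ≅ Coind_1^H (G/H → A)` + Shapiro);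
* the connecting homomorphism commutes with restriction (`δ_res_naturality`).
-/

set_option autoImplicit false

namespace Fermat.Agent.PT.SylowRes

open CategoryTheory groupCohomology Limits

variable {G : Type} [Group G]

/-- A 1-cocycle vanishing on `H` is constant on left cosets. -/
lemma cocycle_mul_right_of_vanish (A : Rep.{0} ℤ G) (H : Subgroup G) (f : cocycles₁ A)
    (hf : ∀ h : H, f (h : G) = 0) (g : G) (h : H) : f (g * h) = f g := by
  have := (mem_cocycles₁_iff f).1 f.2 g h
  rw [this, hf h, map_zero, zero_add]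

lemma cocycle_eq_of_coset (A : Rep.{0} ℤ G) (H : Subgroup G) (f : cocycles₁ A)
    (hf : ∀ h : H, f (h : G) = 0) (g g' : G) (h : (g : G ⧸ H) = (g' : G ⧸ H)) : f g = f g' := by
  have h1 : g⁻¹ * g' ∈ H := QuotientGroup.eq.1 h
  have := cocycle_mul_right_of_vanish A H f hf g ⟨_, h1⟩
  simpa using this.symm

/-- Key computation: if a 1-cocycle vanishes on `H` (finite index), then `[G:H] • f` is a
coboundary. -/
lemma index_smul_mem_coboundaries_of_vanish (A : Rep.{0} ℤ G) (H : Subgroup G) [H.FiniteIndex]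
    (f : cocycles₁ A) (hf : ∀ h : H, f (h : G) = 0) :
    (H.index • (f : G → A)) ∈ coboundaries₁ A := by
  classical
  let _ : Fintype (G ⧸ H) := Subgroup.fintypeQuotientOfFiniteIndex
  obtain ⟨b, hb⟩ : ∃ b : A, b = ∑ q : G ⧸ H, f (q.out) := ⟨_, rfl⟩
  refine ⟨-b, ?_⟩
  funext g
  have h1 : ∑ q : G ⧸ H, f (g * q.out) = ∑ q : G ⧸ H, (f g + A.ρ g (f q.out)) := by
    refine Finset.sum_congr rfl fun q _ => ?_
    rw [(mem_cocycles₁_iff f).1 f.2 g q.out, add_comm]
  have h2 : ∑ q : G ⧸ H, f (g * q.out) = ∑ q : G ⧸ H, f ((g • q).out) := by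
    refine Finset.sum_congr rfl fun q _ => ?_
    apply cocycle_eq_of_coset A H f hf
    rw [QuotientGroup.out_eq']
    conv_rhs => rw [← QuotientGroup.out_eq' q]
    rfl
  have h3 : ∑ q : G ⧸ H, f ((g • q).out) = b := by
    rw [hb]
    exact Fintype.sum_equiv (MulAction.toPerm g) _ _ (fun q => rfl)
  have hidx : Fintype.card (G ⧸ H) = H.index := by
    rw [Subgroup.index, Nat.card_eq_fintype_card]
  have h5 : ∑ q : G ⧸ H, (f g + A.ρ g (f q.out)) = H.index • f g + A.ρ g b := by
    rw [Finset.sum_add_distrib, Finset.sum_const, Finset.card_univ, hidx, hb, map_sum]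
  have h4 : b = H.index • f g + A.ρ g b := by
    rw [← h5, ← h1, h2, h3]
  simp only [d₀₁_hom_apply, map_neg, Pi.smul_apply]
  have h6 : H.index • f g = b - A.ρ g b := by
    rw [eq_sub_iff_add_eq]; exact h4.symm
  rw [h6]
  abel

theorem index_smul_eq_zero_one (A : Rep.{0} ℤ G) (H : Subgroup G) [H.FiniteIndex]
    (x : H1 A) (hx : (resSub A H 1).hom x = 0) : H.index • x = 0 := by
  induction x using H1_induction_on with
  | h f =>
    have h1 : (H1π (Rep.res H.subtype A)) (mapCocycles₁ H.subtype (𝟙 _) f) = 0 := by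
      have := H1π_comp_map_apply (A := A) (B := Rep.res H.subtype A) H.subtype (𝟙 _) f
      rw [← this]
      exact hx
    rw [H1π_eq_zero_iff] at h1
    obtain ⟨a, ha⟩ := h1
    -- f' = f - d a
    let f' : cocycles₁ A := f - ⟨(d₀₁ A).hom a, d₀₁_apply_mem_cocycles₁ a⟩
    have hf' : ∀ h : H, f' (h : G) = 0 := by
      intro h
      have := congrFun ha h
      simp only [f']
      change f (h : G) - (d₀₁ A).hom a h = 0
      rw [sub_eq_zero]
      rw [d₀₁_hom_apply] at this ⊢
      rw [coe_mapCocycles₁] at this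
      simpa using this.symm
    have h2 := index_smul_mem_coboundaries_of_vanish A H f' hf'
    have h3 : H.index • (f : G → A) ∈ coboundaries₁ A := by
      have : H.index • (f : G → A) = H.index • (f' : G → A) + H.index • ((d₀₁ A).hom a) := by
        rw [← smul_add]
        congr 1
        funext g
        change f g = (f g - (d₀₁ A).hom a g) + (d₀₁ A).hom a g
        abel
      rw [this]
      exact Submodule.add_mem _ h2 (Submodule.smul_of_tower_mem _ _ ⟨a, rfl⟩)
    rw [← map_nsmul, H1π_eq_zero_iff]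
    exact h3


/-- the morphism of short complexes of cochain complexes given by restriction to `H` -/
noncomputable def resShortComplexHom (X : ShortComplex (Rep.{0} ℤ G)) (H : Subgroup G) :
    X.map (cochainsFunctor ℤ G) ⟶
      (X.map (Rep.resFunctor H.subtype)).map (cochainsFunctor ℤ H) where
  τ₁ := cochainsMap H.subtype (𝟙 (Rep.res H.subtype X.X₁))
  τ₂ := cochainsMap H.subtype (𝟙 (Rep.res H.subtype X.X₂))
  τ₃ := cochainsMap H.subtype (𝟙 (Rep.res H.subtype X.X₃))
  comm₁₂ := by
    ext n f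
    rfl
  comm₂₃ := by
    ext n f
    rfl

theorem δ_res_naturality {X : ShortComplex (Rep.{0} ℤ G)} (hX : X.ShortExact) (H : Subgroup G)
    (i j : ℕ) (hij : i + 1 = j) :
    δ hX i j hij ≫ resSub X.X₁ H j =
      resSub X.X₃ H i ≫ δ ((Rep.shortExact_res H.subtype).2 hX) i j hij :=
  HomologicalComplex.HomologySequence.δ_naturality (resShortComplexHom X H)
    (map_cochainsFunctor_shortExact hX)
    (map_cochainsFunctor_shortExact ((Rep.shortExact_res H.subtype).2 hX)) i j hij


section Mackey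

variable {k : Type} [CommRing k]

/-- the coinduced module from the trivial subgroup -/
noncomputable abbrev coindTriv (A : Rep.{0} k G) : Rep.{0} k G :=
  Rep.coind (⊥ : Subgroup G).subtype (Rep.res (⊥ : Subgroup G).subtype A)

/-- the `H`-component of `g` w.r.t. the chosen left coset representatives -/
noncomputable def hPart (H : Subgroup G) (g : G) : H :=
  ⟨((g : G ⧸ H).out)⁻¹ * g, QuotientGroup.eq.1 (QuotientGroup.out_eq' _)⟩

lemma out_mul_hPart (H : Subgroup G) (g : G) : ((g : G ⧸ H).out) * (hPart H g : G) = g := by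
  simp [hPart]

lemma hPart_mul (H : Subgroup G) (g : G) (h : H) : hPart H (g * h) = hPart H g * h := by
  have h1 : ((g * h : G) : G ⧸ H) = (g : G ⧸ H) := by
    rw [eq_comm, QuotientGroup.eq]; simp
  apply Subtype.ext
  simp only [hPart, h1, Subgroup.coe_mul]
  group

lemma hPart_out_mul (H : Subgroup G) (q : G ⧸ H) (h : H) : hPart H (q.out * h) = h := by
  rw [hPart_mul]
  have : hPart H q.out = 1 := by
    apply Subtype.ext
    simp [hPart]
  rw [this, one_mul]

lemma mk_mul_mem (H : Subgroup G) (g : G) (h : H) : ((g * h : G) : G ⧸ H) = (g : G ⧸ H) := by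
  rw [eq_comm, QuotientGroup.eq]; simp

/-- the representation of `G` on the module coinduced from the trivial subgroup -/
noncomputable abbrev ρTriv (A : Rep.{0} k G) :=
  Representation.coind (⊥ : Subgroup G).subtype (A.ρ.comp (⊥ : Subgroup G).subtype)

/-- the target representation of the Mackey isomorphism -/
noncomputable abbrev σTriv (A : Rep.{0} k G) (H : Subgroup G) :=
  Representation.coind (⊥ : Subgroup H).subtype
    (Representation.trivial k (⊥ : Subgroup H) (G ⧸ H → A.V))

/-- Mackey: the restriction to `H` of a module coinduced from the trivial subgroup of `G` is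
coinduced from the trivial subgroup of `H`. -/
noncomputable def mackeyLinearEquiv (A : Rep.{0} k G) (H : Subgroup G) :
    (Representation.coindV (⊥ : Subgroup G).subtype (A.ρ.comp (⊥ : Subgroup G).subtype)) ≃ₗ[k]
    (Representation.coindV (⊥ : Subgroup H).subtype
      (Representation.trivial k (⊥ : Subgroup H) (G ⧸ H → A.V))) where
  toFun f := ⟨fun h q => f.1 (q.out * h), fun s h => by
    have hs : s = 1 := Subsingleton.elim _ _
    subst hs
    simp⟩
  map_add' f g := by
    apply Subtype.ext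
    funext h q
    rfl
  map_smul' c f := by
    apply Subtype.ext
    funext h q
    rfl
  invFun F := ⟨fun g => F.1 (hPart H g) (g : G ⧸ H), fun s g => by
    have hs : s = 1 := Subsingleton.elim _ _
    subst hs
    simp⟩
  left_inv f := by
    apply Subtype.ext
    funext g
    change f.1 (((g : G ⧸ H).out) * (hPart H g : G)) = f.1 g
    rw [out_mul_hPart]
  right_inv F := by
    apply Subtype.ext
    funext h q
    change F.1 (hPart H (q.out * h)) ((q.out * h : G) : G ⧸ H) = F.1 h q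
    rw [hPart_out_mul, mk_mul_mem, QuotientGroup.out_eq']

noncomputable def mackeyEquiv (A : Rep.{0} k G) (H : Subgroup G) :
    Representation.Equiv ((ρTriv A).comp H.subtype) (σTriv A H) :=
  .mk (mackeyLinearEquiv A H) fun h₀ => by
    apply LinearMap.ext
    intro f
    apply Subtype.ext
    funext h q
    change (f.1 (q.out * h * h₀)) = f.1 (q.out * (h * h₀))
    rw [mul_assoc]

noncomputable def mackeyIso (A : Rep.{0} k G) (H : Subgroup G) :
    Rep.res H.subtype (coindTriv A) ≅
      Rep.coind (⊥ : Subgroup H).subtype (Rep.trivial k (⊥ : Subgroup H) (G ⧸ H → A.V)) :=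
  Rep.mkIso (mackeyEquiv A H)

lemma isZero_res_coindTriv (A : Rep.{0} k G) (H : Subgroup G) (n : ℕ) :
    IsZero (groupCohomology (Rep.res H.subtype (coindTriv A)) (n + 1)) := by
  have h1 : IsZero (groupCohomology (Rep.coind (⊥ : Subgroup H).subtype
      (Rep.trivial k (⊥ : Subgroup H) (G ⧸ H → A.V))) (n + 1)) :=
    (isZero_groupCohomology_succ_of_subsingleton
      (Rep.trivial k (⊥ : Subgroup H) (G ⧸ H → A.V)) n).of_iso (groupCohomology.coindIso _ _)
  exact h1.of_iso ((groupCohomology.functor k H (n + 1)).mapIso (mackeyIso A H))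


end Mackey

noncomputable abbrev unitHom (A : Rep.{0} ℤ G) : A ⟶ coindTriv A :=
  Rep.resCoindToHom (⊥ : Subgroup G).subtype A (Rep.res (⊥ : Subgroup G).subtype A) (𝟙 _)

lemma unitHom_injective (A : Rep.{0} ℤ G) : Function.Injective (unitHom A).hom := by
  intro x y h
  have := congrArg (fun f => f.1 (1 : G)) h
  simpa using this

instance unitHom_mono (A : Rep.{0} ℤ G) : Mono (unitHom A) :=
  (Rep.mono_iff_injective _).2 (unitHom_injective A)

noncomputable abbrev shiftSC (A : Rep.{0} ℤ G) : ShortComplex (Rep.{0} ℤ G) :=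
  ShortComplex.mk (unitHom A) (cokernel.π (unitHom A)) (cokernel.condition _)

lemma shiftSC_shortExact (A : Rep.{0} ℤ G) : (shiftSC A).ShortExact where
  exact := ShortComplex.exact_cokernel _
  mono_f := by dsimp [shiftSC]; infer_instance
  epi_g := by dsimp [shiftSC]; infer_instance

lemma isZero_coindTriv (A : Rep.{0} ℤ G) (n : ℕ) :
    IsZero (groupCohomology (coindTriv A) (n + 1)) :=
  (isZero_groupCohomology_succ_of_subsingleton
    (Rep.res (⊥ : Subgroup G).subtype A) n).of_iso (groupCohomology.coindIso _ _)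

/-- **`cor ∘ res = index`, kernel form**: a class in positive degree whose restriction to a
subgroup `H` of finite index vanishes is killed by `[G : H]`. -/
theorem index_smul_eq_zero_of_res_eq_zero (H : Subgroup G) [H.FiniteIndex] :
    ∀ (n : ℕ) (A : Rep.{0} ℤ G) (x : groupCohomology A (n + 1)),
      (resSub A H (n + 1)).hom x = 0 → H.index • x = 0 := by
  intro n
  induction n with
  | zero => exact fun A x hx => index_smul_eq_zero_one A H x hx
  | succ n ih =>
    intro A x hx
    have hS := shiftSC_shortExact A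
    have hepi : Epi (δ hS (n + 1) (n + 2) rfl) := epi_δ_of_isZero hS (n + 1) (isZero_coindTriv A _)
    have hmono : Mono (δ ((Rep.shortExact_res H.subtype).2 hS) (n + 1) (n + 2) rfl) :=
      mono_δ_of_isZero _ (n + 1) (isZero_res_coindTriv A H n)
    obtain ⟨y, rfl⟩ := (ModuleCat.epi_iff_surjective _).1 hepi x
    have hnat := δ_res_naturality hS H (n + 1) (n + 2) rfl
    have h1 : (δ ((Rep.shortExact_res H.subtype).2 hS) (n + 1) (n + 2) rfl).hom
        ((resSub (shiftSC A).X₃ H (n + 1)).hom y) = 0 :=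
      (congr($(hnat).hom y)).symm.trans hx
    have h2 : (resSub (shiftSC A).X₃ H (n + 1)).hom y = 0 :=
      (ModuleCat.mono_iff_injective _).1 hmono
        (h1.trans (map_zero (δ ((Rep.shortExact_res H.subtype).2 hS) (n + 1) (n + 2) rfl).hom).symm)
    have h3 := ih _ y h2
    have h4 := map_nsmul (δ hS (n + 1) (n + 2) rfl).hom H.index y
    rw [h3, map_zero] at h4
    exact h4.symm

end Fermat.Agent.PT.SylowRes

namespace Fermat.Agent.PT

open CategoryTheory groupCohomology

/-- **Sylow**: restriction to a Sylow `p`-subgroup is injective on `p`-primary classes. -/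
theorem stmtSylow : StmtSylow := by
  intro p _ G _ _ A P n x hn hx hres
  obtain ⟨m, rfl⟩ : ∃ m, n = m + 1 := ⟨n - 1, by omega⟩
  obtain ⟨k, hk⟩ := hx
  have hidx : (P : Subgroup G).index • x = 0 :=
    SylowRes.index_smul_eq_zero_of_res_eq_zero (P : Subgroup G) m A x hres
  have hndvd : ¬ p ∣ (P : Subgroup G).index := P.not_dvd_index
  have hcop : Nat.Coprime (p ^ k) (P : Subgroup G).index :=
    Nat.Coprime.pow_left k ((Nat.Prime.coprime_iff_not_dvd Fact.out).2 hndvd)
  -- Bezout in `ℕ`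
  by_cases hk1 : p ^ k = 1
  · rw [hk1, one_nsmul] at hk
    exact hk
  · have h1lt : 1 < p ^ k := lt_of_le_of_ne (Nat.one_le_pow _ _ (Fact.out : p.Prime).pos)
      (Ne.symm hk1)
    obtain ⟨u, -, hu⟩ := Nat.exists_mul_mod_eq_one_of_coprime hcop.symm h1lt
    have h2 : (P : Subgroup G).index * u = p ^ k * ((P : Subgroup G).index * u / p ^ k) + 1 := by
      have := Nat.div_add_mod ((P : Subgroup G).index * u) (p ^ k)
      rw [hu] at this
      exact this.symm
    have h3 : ((P : Subgroup G).index * u) • x = 0 := by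
      rw [mul_comm, mul_nsmul', hidx, nsmul_zero]
    rw [h2, add_nsmul, mul_comm, mul_nsmul', hk, nsmul_zero, zero_add, one_nsmul] at h3
    exact h3

end Fermat.Agent.PT


end ZBPT_022_0

/-! ### bundled: `Fermat.Agent.PT.L.FundClass` -/
section ZBPT_022_1
/-
PT-L, piece L9 (helper48): the local `p`-fundamental class (`StmtFundClass`) from
`StmtLaGen` (a class of order `[F':F]` in `H²(F'/F)`) and `StmtLa` (`|H²| = [F':F]` for
`p`-extensions).

Route: `u := κ` of order `|G|`. For a `p`-subgroup `H`: transport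
`Hⁿ(H, Res F'ˣ) ≅ Hⁿ(Gal(F'/F'^H), F'ˣ)` (Mathlib `groupCohomology.mapIso`), so `H¹ = 0`
(Hilbert 90) and `|H²| = |H|` (La).  Generation: if `d = ord(res_H κ)` then `res_H (dκ) = 0`,
hence `[G:H]·d·κ = 0` (PT-A, kernel form of `cor ∘ res = index`), so `|H| ∣ d`.
-/

set_option autoImplicit false

open CategoryTheory groupCohomology

namespace Fermat.Agent.PT.L

namespace FC

/-- abstract generation lemma -/
theorem gen_of_addOrderOf {G : Type} [Group G] [Finite G] (C : Rep.{0} ℤ G) (κ : H2 C)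
    (hκ : addOrderOf κ = Nat.card G) (H : Subgroup G)
    (hcard : Nat.card (H2 (Rep.res H.subtype C)) = Nat.card H)
    (x : H2 (Rep.res H.subtype C)) :
    ∃ n : ℤ, n • (resSub C H 2).hom κ = x := by
  have hfin : Finite (H2 (Rep.res H.subtype C)) :=
    Nat.finite_of_card_ne_zero (by rw [hcard]; exact Nat.card_pos.ne')
  set r := (resSub C H 2).hom κ with hr
  set d := addOrderOf r with hd
  have h1 : (resSub C H 2).hom (d • κ) = 0 := by
    rw [map_nsmul, ← hr, hd, addOrderOf_nsmul_eq_zero]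
  have h2 : H.index • (d • κ) = 0 :=
    SylowRes.index_smul_eq_zero_of_res_eq_zero H 1 C (d • κ) h1
  rw [← mul_nsmul'] at h2
  have h3 : Nat.card G ∣ H.index * d := by
    rw [← hκ]; exact addOrderOf_dvd_of_nsmul_eq_zero h2
  have h4 : Nat.card H ∣ d := by
    rw [← Subgroup.index_mul_card H] at h3
    exact Nat.dvd_of_mul_dvd_mul_left (Nat.pos_of_ne_zero Subgroup.index_ne_zero_of_finite) h3
  have h5 : d ∣ Nat.card (H2 (Rep.res H.subtype C)) := addOrderOf_dvd_natCard r
  have h6 : d = Nat.card (H2 (Rep.res H.subtype C)) := by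
    rw [hcard] at h5 ⊢
    exact Nat.dvd_antisymm h5 h4
  have h7 : AddSubgroup.zmultiples r = ⊤ := by
    apply AddSubgroup.eq_top_of_card_eq
    rw [Nat.card_zmultiples, ← h6]
  have : x ∈ AddSubgroup.zmultiples r := by rw [h7]; trivial
  obtain ⟨n, hn⟩ := AddSubgroup.mem_zmultiples_iff.1 this
  exact ⟨n, hn⟩

section transport

variable (F F' : Type) [Field F] [Field F'] [Algebra F F'] [FiniteDimensional F F']
  (H : Subgroup (F' ≃ₐ[F] F'))

/-- `H ≃* Gal(F'/F'^H)` -/
noncomputable def galEquiv :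
    ↥H ≃* (F' ≃ₐ[↥(IntermediateField.fixedField H)] F') :=
  (MulEquiv.subgroupCongr (IntermediateField.fixingSubgroup_fixedField H).symm).trans
    (IntermediateField.fixingSubgroupEquiv (IntermediateField.fixedField H))

/-- transport of cohomology along `galEquiv` -/
noncomputable def cohIso (n : ℕ) :
    groupCohomology (Rep.res H.subtype (Rep.ofAlgebraAutOnUnits F F')) n ≅
      groupCohomology (Rep.ofAlgebraAutOnUnits (↥(IntermediateField.fixedField H)) F') n :=
  groupCohomology.mapIso (galEquiv F F' H) (LinearEquiv.refl ℤ _) (by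
    intro g
    ext x
    rfl) n

theorem h1_subsingleton :
    Subsingleton (H1 (Rep.res H.subtype (Rep.ofAlgebraAutOnUnits F F'))) :=
  (cohIso F F' H 1).toLinearEquiv.toEquiv.subsingleton

theorem card_h2_eq :
    Nat.card (H2 (Rep.res H.subtype (Rep.ofAlgebraAutOnUnits F F'))) =
      Nat.card (H2 (Rep.ofAlgebraAutOnUnits (↥(IntermediateField.fixedField H)) F')) :=
  Nat.card_congr (cohIso F F' H 2).toLinearEquiv.toEquiv

end transport

end FC

/-- **L9**: the local `p`-fundamental class, from `StmtLaGen` and `StmtLa`. -/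
theorem stmtFundClass_of (hGen : StmtLaGen) (hLa : StmtLa) : StmtFundClass := by
  intro q _ p _ F F' _ _ _ _ _ _ _
  obtain ⟨κ, hκ⟩ := hGen q F F'
  have hκ' : addOrderOf κ = Nat.card (F' ≃ₐ[F] F') := by
    rw [hκ, IsGalois.card_aut_eq_finrank]
  have hcard : ∀ H : Subgroup (F' ≃ₐ[F] F'), IsPGroup p H →
      Nat.card (H2 (Rep.res H.subtype (Rep.ofAlgebraAutOnUnits F F'))) = Nat.card H := by
    intro H hH
    obtain ⟨k, hk⟩ := hH.exists_card_eq
    let _ : Algebra ℚ_[q] ↥(IntermediateField.fixedField H) :=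
      ((algebraMap F ↥(IntermediateField.fixedField H)).comp (algebraMap ℚ_[q] F)).toAlgebra
    have _ : IsScalarTower ℚ_[q] F ↥(IntermediateField.fixedField H) :=
      IsScalarTower.of_algebraMap_eq (fun _ => rfl)
    have _ : FiniteDimensional ℚ_[q] ↥(IntermediateField.fixedField H) :=
      Module.Finite.trans F _
    have hfr : Module.finrank ↥(IntermediateField.fixedField H) F' = p ^ k := by
      rw [IntermediateField.finrank_fixedField_eq_card, hk]
    rw [FC.card_h2_eq, (hLa q p k ↥(IntermediateField.fixedField H) F' hfr).2,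
      IntermediateField.finrank_fixedField_eq_card]
  refine ⟨κ, ?_, hcard, ?_⟩
  · intro H _
    exact FC.h1_subsingleton F F' H
  · intro H hH x
    exact FC.gen_of_addOrderOf _ κ hκ' H (hcard H hH) x

end Fermat.Agent.PT.L


end ZBPT_022_1

/-! ### bundled: `Fermat.Agent.PT.A.HomCoind` -/
section ZBPT_022_2

/-!
# PT-A: `Hom_ℤ(N, Coind X) ≅ Coind (Hom_ℤ(N, X))`

For an abelian group `X` (trivial action) and any `G`-module `N`, the `G`-module
`Hom_ℤ(N, Coind_1^G X)` (conjugation action) is isomorphic to `Coind_1^G (Hom_ℤ(N, X))`, hence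
acyclic.  Used by `CT.lean` (and available for `FpCT`).

* `homCoindIso N X : homRep N (coindTriv (Rep.trivial ℤ G X)) ≅ coindTriv (Rep.trivial ℤ G (N.V →+ X))`
* `isZero_homRep_coindTriv N X n : IsZero (groupCohomology (homRep N (coindTriv (Rep.trivial ℤ G X))) (n + 1))`
-/

set_option autoImplicit false

namespace Fermat.Agent.PT.HomCoind

open CategoryTheory groupCohomology Limits
open Fermat.Agent.PT.SylowRes

attribute [local instance 1100] Rep.hV2

variable {G : Type} [Group G]

/-- Every function lies in the module coinduced from the trivial subgroup. -/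
lemma mem_coindV_bot {X : Type} [AddCommGroup X] [Module ℤ X]
    (σ : Representation ℤ (⊥ : Subgroup G) X) (f : G → X) :
    f ∈ Representation.coindV (⊥ : Subgroup G).subtype σ := by
  intro s h
  have hs : s = 1 := Subsingleton.elim _ _
  subst hs
  simp

/-- The trivial-coefficient coinduced module `Coind_1^G X`. -/
noncomputable abbrev cT (X : Type) [AddCommGroup X] : Rep.{0} ℤ G :=
  coindTriv (Rep.trivial ℤ G X)

lemma cT_ρ_apply (X : Type) [AddCommGroup X] (g : G) (f : (cT (G := G) X).V) (x : G) :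
    ((cT (G := G) X).ρ g f).1 x = f.1 (x * g) := rfl

/-- Build an element of `Coind_1^G X` from a function. -/
noncomputable def mkCT (X : Type) [AddCommGroup X] (f : G → X) : (cT (G := G) X).V :=
  ⟨f, mem_coindV_bot _ f⟩

@[simp] lemma mkCT_val (X : Type) [AddCommGroup X] (f : G → X) (x : G) :
    (mkCT (G := G) X f).1 x = f x := rfl

lemma cT_ext (X : Type) [AddCommGroup X] {f f' : (cT (G := G) X).V}
    (h : ∀ x, f.1 x = f'.1 x) : f = f' :=
  Subtype.ext (funext h)

variable (N : Rep.{0} ℤ G) (X : Type) [AddCommGroup X]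

/-- `φ ↦ (x ↦ (n ↦ φ(x⁻¹ n)(x)))`. -/
noncomputable def homCoindAddEquiv :
    (N.V →+ (cT (G := G) X).V) ≃+ (cT (G := G) (N.V →+ X)).V where
  toFun φ := mkCT (N.V →+ X) fun x =>
    { toFun := fun n => (φ (N.ρ x⁻¹ n)).1 x
      map_zero' := by simp
      map_add' := fun a b => by simp }
  invFun Ψ :=
    { toFun := fun n => mkCT X fun x => Ψ.1 x (N.ρ x n)
      map_zero' := by
        apply cT_ext
        intro x
        simp
      map_add' := fun a b => by
        apply cT_ext
        intro x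
        simp }
  left_inv φ := by
    apply AddMonoidHom.ext
    intro n
    apply cT_ext
    intro x
    simp
  right_inv Ψ := by
    apply cT_ext
    intro x
    apply AddMonoidHom.ext
    intro n
    simp
  map_add' φ ψ := by
    apply cT_ext
    intro x
    apply AddMonoidHom.ext
    intro n
    simp

lemma homCoindAddEquiv_apply (φ : N.V →+ (cT (G := G) X).V) (x : G) (n : N.V) :
    (homCoindAddEquiv N X φ).1 x n = (φ (N.ρ x⁻¹ n)).1 x := rfl

/-- The equivalence of representations `Hom(N, Coind X) ≃ Coind (Hom(N, X))`. -/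
noncomputable def homCoindEquiv :
    Representation.Equiv (homRepρ N (cT (G := G) X)) (cT (G := G) (N.V →+ X)).ρ :=
  .mk (homCoindAddEquiv N X).toIntLinearEquiv fun g => by
    apply LinearMap.ext
    intro φ
    apply cT_ext
    intro x
    apply AddMonoidHom.ext
    intro n
    change ((homRepρ N (cT (G := G) X) g φ) (N.ρ x⁻¹ n)).1 x =
      (φ (N.ρ (x * g)⁻¹ n)).1 (x * g)
    rw [homRepρ_apply, cT_ρ_apply, mul_inv_rev, map_mul]
    rfl

/-- `Hom_ℤ(N, Coind_1^G X) ≅ Coind_1^G (Hom_ℤ(N, X))`. -/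
noncomputable def homCoindIso :
    homRep N (cT (G := G) X) ≅ cT (G := G) (N.V →+ X) :=
  Rep.mkIso (homCoindEquiv N X)

/-- `Hom_ℤ(N, Coind_1^G X)` is acyclic. -/
lemma isZero_homRep_coindTriv (n : ℕ) :
    IsZero (groupCohomology (homRep N (cT (G := G) X)) (n + 1)) :=
  (isZero_coindTriv (Rep.trivial ℤ G (N.V →+ X)) n).of_iso
    ((groupCohomology.functor ℤ G (n + 1)).mapIso (homCoindIso N X))

end Fermat.Agent.PT.HomCoind


end ZBPT_022_2

/-! ### bundled: `Fermat.Agent.PT.A.CTAux` -/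
section ZBPT_022_3

/-!
# PT-A / CT — auxiliary lemmas on the long exact sequence (used by `CT.lean`)
-/

set_option autoImplicit false

namespace Fermat.Agent.PT.CTaux

open CategoryTheory groupCohomology Limits

variable {G : Type} [Group G]

/-- `Hⁿ(X₂) = 0` and `Hⁿ⁺¹(X₁) = 0` imply `Hⁿ(X₃) = 0`. -/
lemma isZero_X₃ {X : ShortComplex (Rep.{0} ℤ G)} (hX : X.ShortExact) (n : ℕ)
    (h2 : IsZero (groupCohomology X.X₂ n)) (h1 : IsZero (groupCohomology X.X₁ (n + 1))) :
    IsZero (groupCohomology X.X₃ n) :=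
  (mapShortComplex₃_exact hX (rfl : n + 1 = n + 1)).isZero_of_both_zeros
    (h2.eq_of_src _ _) (h1.eq_of_tgt _ _)

/-- `Hⁿ(X₃) = 0` and `Hⁿ⁺¹(X₂) = 0` imply `Hⁿ⁺¹(X₁) = 0`. -/
lemma isZero_X₁ {X : ShortComplex (Rep.{0} ℤ G)} (hX : X.ShortExact) (n : ℕ)
    (h3 : IsZero (groupCohomology X.X₃ n)) (h2 : IsZero (groupCohomology X.X₂ (n + 1))) :
    IsZero (groupCohomology X.X₁ (n + 1)) :=
  (mapShortComplex₁_exact hX (rfl : n + 1 = n + 1)).isZero_of_both_zeros
    (h3.eq_of_src _ _) (h2.eq_of_tgt _ _)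

/-- If `Hⁿ(X₃) = 0` then `Hⁿ⁺¹(X₁) → Hⁿ⁺¹(X₂)` is injective. -/
lemma injective_map_f {X : ShortComplex (Rep.{0} ℤ G)} (hX : X.ShortExact) (n : ℕ)
    (h3 : IsZero (groupCohomology X.X₃ n)) :
    Function.Injective (groupCohomology.map (MonoidHom.id G) X.f (n + 1)).hom := by
  have hmono : Mono (mapShortComplex₁ hX (rfl : n + 1 = n + 1)).g :=
    (mapShortComplex₁_exact hX (rfl : n + 1 = n + 1)).mono_g (h3.eq_of_src _ _)
  exact (ModuleCat.mono_iff_injective _).1 hmono

/-- The map induced on cohomology by `m • 𝟙` is multiplication by `m`. -/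
lemma map_nsmul_id (R : Rep.{0} ℤ G) (m n : ℕ) (x : groupCohomology R n) :
    (groupCohomology.map (MonoidHom.id G) (m • 𝟙 R) n).hom x = m • x := by
  have h : groupCohomology.map (MonoidHom.id G) (m • 𝟙 R) n = m • 𝟙 (groupCohomology R n) := by
    have h1 : (cochainsFunctor ℤ G ⋙ HomologicalComplex.homologyFunctor (ModuleCat ℤ) _ n).map
        (m • 𝟙 R) =
        m • (cochainsFunctor ℤ G ⋙ HomologicalComplex.homologyFunctor (ModuleCat ℤ) _ n).map
          (𝟙 R) :=
      Functor.map_nsmul _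
    rw [CategoryTheory.Functor.map_id] at h1
    exact h1
  rw [h]
  rfl

end Fermat.Agent.PT.CTaux


end ZBPT_022_3

/-! ### bundled: `Fermat.Agent.PT.A.CT` -/
section ZBPT_022_4

/-!
# PT-A piece CT: cohomological triviality (from `FpCT`, `KILL`, `HOMEX`)

`stmtCT_of : StmtFpCT → StmtKill → StmtHomEx → StmtCT`.

Route (4) of `NOTES/PT-A.md`: `F₀ := Coind_1^G (ℤ^(A)) ↠ A` with kernel `R` (`ℤ`-torsion-free);
`H²(R) = H³(R) = 0`, so `H²(R/p) = 0`; `FpCT` gives `H¹ = H² = 0` for `Hom(N, R/p)`, so `p` is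
injective on `H²`, `H³` of `Hom(N, R)`, which are killed by `|G| = p^k`, hence vanish; and
`Hom(N, F₀)` is acyclic, so `H¹ = H² = 0` for `Hom(N, A)`.
-/

set_option autoImplicit false

namespace Fermat.Agent.PT.CTpf

open CategoryTheory groupCohomology Limits
open Fermat.Agent.PT.SylowRes Fermat.Agent.PT.HomCoind Fermat.Agent.PT.CTaux

attribute [local instance 1100] Rep.hV2

variable {G : Type} [Group G]

/-! ### Functoriality of `homRepMap` -/

lemma homRepMap_comp' (N : Rep.{0} ℤ G) {X Y Z : Rep.{0} ℤ G} (f : X ⟶ Y) (g : Y ⟶ Z) :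
    homRepMap N f ≫ homRepMap N g = homRepMap N (f ≫ g) := by
  apply Rep.hom_ext
  ext φ n
  rfl

lemma homRepMap_zero' (N : Rep.{0} ℤ G) (X Y : Rep.{0} ℤ G) :
    homRepMap N (0 : X ⟶ Y) = 0 := by
  apply Rep.hom_ext
  ext φ n
  rfl

lemma homRepMap_w (N : Rep.{0} ℤ G) {X Y Z : Rep.{0} ℤ G} (f : X ⟶ Y) (g : Y ⟶ Z)
    (w : f ≫ g = 0) : homRepMap N f ≫ homRepMap N g = 0 := by
  rw [homRepMap_comp', w, homRepMap_zero']

lemma homRepMap_nsmul_id (N R : Rep.{0} ℤ G) (m : ℕ) :
    homRepMap N (m • 𝟙 R) = m • 𝟙 (homRep N R) := by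
  apply Rep.hom_ext
  ext φ n
  rfl

/-! ### The acyclic torsion-free cover `F₀ = Coind_1^G (ℤ^(A)) ↠ A` -/

section cover

variable [Fintype G] (A : Rep.{0} ℤ G)

/-- The additive map `ℤ^(A) → A` extending the identity. -/
noncomputable def piAdd : (A.V →₀ ℤ) →+ A.V :=
  Finsupp.liftAddHom (fun a : A.V => zmultiplesHom A.V a)

omit [Fintype G] in
lemma piAdd_single (a : A.V) : piAdd A (Finsupp.single a 1) = a := by
  simp [piAdd]

/-- `f ↦ ∑ₓ x⁻¹ • π (f x)`. -/
noncomputable def epsAdd : (cT (G := G) (A.V →₀ ℤ)).V →+ A.V where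
  toFun f := ∑ x : G, A.ρ x⁻¹ (piAdd A (f.1 x))
  map_zero' := by
    apply Finset.sum_eq_zero
    intro x _
    have : ((0 : (cT (G := G) (A.V →₀ ℤ)).V)).1 x = 0 := rfl
    rw [this, map_zero, map_zero]
  map_add' f g := by
    rw [← Finset.sum_add_distrib]
    apply Finset.sum_congr rfl
    intro x _
    have : (f + g).1 x = f.1 x + g.1 x := rfl
    rw [this, map_add, map_add]

lemma epsAdd_apply (f : (cT (G := G) (A.V →₀ ℤ)).V) :
    epsAdd A f = ∑ x : G, A.ρ x⁻¹ (piAdd A (f.1 x)) := rfl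

lemma epsAdd_equivariant (g : G) (f : (cT (G := G) (A.V →₀ ℤ)).V) :
    epsAdd A ((cT (G := G) (A.V →₀ ℤ)).ρ g f) = A.ρ g (epsAdd A f) := by
  rw [epsAdd_apply, epsAdd_apply, map_sum]
  refine Fintype.sum_equiv (Equiv.mulRight g) _ _ (fun x => ?_)
  rw [cT_ρ_apply]
  change _ = A.ρ g (A.ρ (x * g)⁻¹ (piAdd A (f.1 (x * g))))
  rw [← Module.End.mul_apply, ← map_mul, mul_inv_rev, mul_inv_cancel_left]

/-- The cover `ε : F₀ ⟶ A`. -/
noncomputable def eps : cT (G := G) (A.V →₀ ℤ) ⟶ A :=
  ConcreteCategory.ofHom (C := Rep.{0} ℤ G) (X := cT (G := G) (A.V →₀ ℤ)) (Y := A)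
   (LinearMap.intertwiningMap_of_isIntertwiningMap
    (ρ := (cT (G := G) (A.V →₀ ℤ)).ρ) (σ := A.ρ)
    (f := addToLin (epsAdd A))
    (fun g f => by
      simpa using epsAdd_equivariant A g f))

lemma eps_apply (f : (cT (G := G) (A.V →₀ ℤ)).V) : (eps A).hom f = epsAdd A f := rfl

lemma eps_surjective : Function.Surjective (eps A).hom := by
  classical
  intro a
  refine ⟨mkCT (A.V →₀ ℤ) (fun x => if x = 1 then Finsupp.single a 1 else 0), ?_⟩
  rw [eps_apply, epsAdd_apply, Finset.sum_eq_single (1 : G)]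
  · simp [piAdd_single]
  · intro x _ hx
    simp [hx]
  · intro h
    exact absurd (Finset.mem_univ _) h

omit [Fintype G] in
/-- `F₀` is `ℤ`-torsion-free. -/
lemma cT_finsupp_torsionFree (m : ℕ) (hm : m ≠ 0) (f : (cT (G := G) (A.V →₀ ℤ)).V)
    (hf : m • f = 0) : f = 0 := by
  apply cT_ext
  intro x
  have h1 : m • f.1 x = 0 := by
    have : (m • f).1 x = m • f.1 x := rfl
    rw [← this, hf]
    rfl
  apply Finsupp.ext
  intro a
  have h2 : m • (f.1 x) a = 0 := by
    have : (m • f.1 x) a = m • (f.1 x) a := rfl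
    rw [← this, h1]
    rfl
  have h3 : (m : ℤ) * (f.1 x) a = 0 := by
    rw [← h2]
    simp
  rcases mul_eq_zero.1 h3 with h | h
  · exact absurd (by exact_mod_cast h) hm
  · exact h

/-- The first short exact sequence `0 → R → F₀ → A → 0`. -/
noncomputable abbrev sc1 : ShortComplex (Rep.{0} ℤ G) :=
  ShortComplex.mk (kernel.ι (eps A)) (eps A) (kernel.condition _)

lemma sc1_shortExact : (sc1 A).ShortExact where
  exact := ShortComplex.exact_kernel _
  mono_f := by dsimp [sc1]; infer_instance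
  epi_g := (Rep.epi_iff_surjective _).2 (eps_surjective A)

/-- The kernel `R` of the cover. -/
noncomputable abbrev ker1 : Rep.{0} ℤ G := kernel (eps A)

lemma ker1_torsionFree (m : ℕ) (hm : m ≠ 0) (r : (ker1 A).V) (hr : m • r = 0) : r = 0 := by
  have hinj : Function.Injective (kernel.ι (eps A)).hom :=
    (Rep.mono_iff_injective _).1 inferInstance
  apply hinj
  rw [map_zero]
  apply cT_finsupp_torsionFree A m hm
  rw [← map_nsmul, hr, map_zero]

end cover

/-- The second short exact sequence `0 → R → R → R/m → 0`. -/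
noncomputable abbrev sc2 (R : Rep.{0} ℤ G) (m : ℕ) : ShortComplex (Rep.{0} ℤ G) :=
  ShortComplex.mk (m • 𝟙 R) (cokernel.π (m • 𝟙 R)) (cokernel.condition _)

lemma nsmul_id_hom_apply (R : Rep.{0} ℤ G) (m : ℕ) (r : R.V) : (m • 𝟙 R : R ⟶ R).hom r = m • r :=
  rfl

lemma sc2_shortExact (R : Rep.{0} ℤ G) (m : ℕ) (h : ∀ r : R.V, m • r = 0 → r = 0) :
    (sc2 R m).ShortExact where
  exact := ShortComplex.exact_cokernel _
  mono_f := by
    refine (Rep.mono_iff_injective _).2 ?_
    intro a b hab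
    have h1 : m • (a - b) = 0 := by
      have h2 : (m • 𝟙 R : R ⟶ R).hom (a - b) = 0 := by
        rw [map_sub, sub_eq_zero]
        exact hab
      rw [nsmul_id_hom_apply] at h2
      exact h2
    exact sub_eq_zero.1 (h _ h1)
  epi_g := by dsimp [sc2]; infer_instance

lemma sc2_killed (R : Rep.{0} ℤ G) (m : ℕ) (b : (cokernel (m • 𝟙 R)).V) : m • b = 0 := by
  obtain ⟨r, rfl⟩ := (Rep.epi_iff_surjective (cokernel.π (m • 𝟙 R))).1 inferInstance b
  rw [← map_nsmul, ← nsmul_id_hom_apply]
  have := cokernel.condition (m • 𝟙 R)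
  exact congr($(this).hom r)

/-- If `p` is injective on an abelian group killed by `p ^ k`, the group is trivial. -/
lemma eq_zero_of_pow_nsmul {M : Type} [AddCommGroup M] (p : ℕ)
    (hinj : ∀ x : M, p • x = 0 → x = 0) : ∀ (k : ℕ) (x : M), p ^ k • x = 0 → x = 0 := by
  intro k
  induction k with
  | zero => intro x hx; simpa using hx
  | succ k ih =>
    intro x hx
    apply ih
    apply hinj
    rw [← mul_nsmul', ← pow_succ']
    exact hx

end Fermat.Agent.PT.CTpf

namespace Fermat.Agent.PT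

open CategoryTheory groupCohomology Limits
open Fermat.Agent.PT.SylowRes Fermat.Agent.PT.HomCoind Fermat.Agent.PT.CTaux
  Fermat.Agent.PT.CTpf

/-- **(CT)** from `FpCT`, `KILL` and `HOMEX`. -/
theorem stmtCT_of : StmtFpCT → StmtKill → StmtHomEx → StmtCT := by
  intro hFp hK hH p hp G _ _ hG A h1A h2A N hN
  have hp0 : p ≠ 0 := (Fact.out : p.Prime).ne_zero
  obtain ⟨k, hk⟩ := (IsPGroup.iff_card (p := p) (G := G)).1 hG
  rw [Nat.card_eq_fintype_card] at hk
  -- the two short exact sequences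
  have hS1 := sc1_shortExact A
  have hS2 := sc2_shortExact (ker1 A) p (ker1_torsionFree A p hp0)
  -- `H²(R) = 0 = H³(R)`
  have hA1 : IsZero (groupCohomology A 1) := @ModuleCat.isZero_of_subsingleton _ _ _ h1A
  have hA2 : IsZero (groupCohomology A 2) := @ModuleCat.isZero_of_subsingleton _ _ _ h2A
  have hR2 : IsZero (groupCohomology (ker1 A) 2) :=
    isZero_X₁ hS1 1 hA1 (isZero_coindTriv _ 1)
  have hR3 : IsZero (groupCohomology (ker1 A) 3) :=
    isZero_X₁ hS1 2 hA2 (isZero_coindTriv _ 2)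
  -- `H²(R/p) = 0`
  have hB2 : IsZero (groupCohomology (cokernel (p • 𝟙 (ker1 A))) 2) :=
    isZero_X₃ hS2 2 hR2 hR3
  -- `FpCT`
  obtain ⟨hNB1, hNB2⟩ := hFp p G hG (cokernel (p • 𝟙 (ker1 A)))
    (fun b => sc2_killed (ker1 A) p b) (ModuleCat.subsingleton_of_isZero hB2) N hN
  have hNB1' : IsZero (groupCohomology (homRep N (cokernel (p • 𝟙 (ker1 A)))) 1) :=
    @ModuleCat.isZero_of_subsingleton _ _ _ hNB1
  have hNB2' : IsZero (groupCohomology (homRep N (cokernel (p • 𝟙 (ker1 A)))) 2) :=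
    @ModuleCat.isZero_of_subsingleton _ _ _ hNB2
  -- `Hom(N, -)` of the two sequences
  have hS2' := hH G N hN _ _ _ _ _ (cokernel.condition (p • 𝟙 (ker1 A)))
    (homRepMap_w N _ _ (cokernel.condition (p • 𝟙 (ker1 A)))) hS2
  have hS1' := hH G N hN _ _ _ _ _ (kernel.condition (eps A))
    (homRepMap_w N _ _ (kernel.condition (eps A))) hS1
  -- `p` is injective on `H²`, `H³` of `Hom(N, R)`
  have hinj : ∀ n : ℕ, IsZero (groupCohomology (homRep N (cokernel (p • 𝟙 (ker1 A)))) n) →
      ∀ x : groupCohomology (homRep N (ker1 A)) (n + 1), p • x = 0 → x = 0 := by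
    intro n hn x hx
    have h := injective_map_f hS2' n hn
    apply h
    rw [map_zero]
    have h3 : (groupCohomology.map (MonoidHom.id G) (homRepMap N (p • 𝟙 (ker1 A))) (n + 1)).hom x
        = p • x := by
      rw [homRepMap_nsmul_id]
      exact map_nsmul_id _ _ _ x
    exact h3.trans hx
  have hNR : ∀ n : ℕ, IsZero (groupCohomology (homRep N (cokernel (p • 𝟙 (ker1 A)))) n) →
      IsZero (groupCohomology (homRep N (ker1 A)) (n + 1)) := by
    intro n hn
    have : Subsingleton (groupCohomology (homRep N (ker1 A)) (n + 1)) := by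
      refine ⟨fun x y => ?_⟩
      have hx : x = 0 := eq_zero_of_pow_nsmul p (hinj n hn) k x (by
        have := hK G (homRep N (ker1 A)) n x
        rw [hk] at this
        exact this)
      have hy : y = 0 := eq_zero_of_pow_nsmul p (hinj n hn) k y (by
        have := hK G (homRep N (ker1 A)) n y
        rw [hk] at this
        exact this)
      rw [hx, hy]
    exact ModuleCat.isZero_of_subsingleton _
  have hNR2 := hNR 1 hNB1'
  have hNR3 := hNR 2 hNB2'
  -- conclusion
  have hNA1 : IsZero (groupCohomology (homRep N A) 1) :=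
    isZero_X₃ hS1' 1 (isZero_homRep_coindTriv N _ 0) hNR2
  have hNA2 : IsZero (groupCohomology (homRep N A) 2) :=
    isZero_X₃ hS1' 2 (isZero_homRep_coindTriv N _ 1) hNR3
  exact ⟨ModuleCat.subsingleton_of_isZero hNA1, ModuleCat.subsingleton_of_isZero hNA2⟩

end Fermat.Agent.PT


end ZBPT_022_4

/-! ### bundled: `Fermat.Agent.PT.A.FpCTCore` -/
section ZBPT_022_5
/-
PT-A piece `FpCT`, part 1 (helper32): linear algebra over `𝔽_p` and the fixed point lemma for
finite `p`-groups (a nonzero stable subgroup of a module killed by `p` contains a nonzero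
invariant).
-/

set_option autoImplicit false
set_option linter.style.haveILetI false

namespace Fermat.Agent.PT.FpCT

open CategoryTheory groupCohomology Limits

attribute [local instance 1100] Rep.hV2

lemma nsmul_eq_zero_of_zmod {p : ℕ} {V : Type} [AddCommGroup V] [Module (ZMod p) V] (v : V) :
    p • v = 0 := by
  have h := Nat.cast_smul_eq_nsmul (ZMod p) p v
  rw [← h, ZMod.natCast_self, zero_smul]

theorem exists_fixed_ne_zero_aux {p : ℕ} [Fact p.Prime] {G : Type} [Group G] [Finite G]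
    (hG : IsPGroup p G) {V : Type} [AddCommGroup V] [Module ℤ V] [Module (ZMod p) V]
    (ρ : Representation ℤ G V)
    (K : AddSubgroup V) (hK : ∀ (g : G) (v : V), v ∈ K → ρ g v ∈ K)
    {x : V} (hxK : x ∈ K) (hx : x ≠ 0) :
    ∃ y : V, y ∈ K ∧ y ≠ 0 ∧ ∀ g : G, ρ g y = y := by
  classical
  let W : Submodule (ZMod p) V := Submodule.span (ZMod p) (Set.range fun g : G => ρ g x)
  have hWfin : Module.Finite (ZMod p) ↥W :=
    Module.Finite.span_of_finite (ZMod p) (Set.finite_range fun g : G => ρ g x)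
  have hfin : Finite ↥W := Module.finite_of_finite (ZMod p)
  have hWK : ∀ w ∈ W, w ∈ K := by
    intro w hw
    have : W ≤ AddSubgroup.toZModSubmodule p K := by
      apply Submodule.span_le.2
      rintro _ ⟨g, rfl⟩
      exact hK g x hxK
    exact this hw
  have hstab : ∀ (g : G) (w : V), w ∈ W → ρ g w ∈ W := by
    intro g w hw
    induction hw using Submodule.span_induction with
    | mem v hv =>
      obtain ⟨h, rfl⟩ := hv
      apply Submodule.subset_span
      refine ⟨g * h, ?_⟩
      simp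
    | zero => simp
    | add a b _ _ ha hb => rw [map_add]; exact W.add_mem ha hb
    | smul c a _ ha =>
      have : ρ g (c • a) = c • ρ g a := ZMod.map_smul (ρ g).toAddMonoidHom c a
      rw [this]
      exact W.smul_mem c ha
  letI : MulAction G ↥W :=
    { smul := fun g w => ⟨ρ g w.1, hstab g w.1 w.2⟩
      one_smul := fun w => by
        apply Subtype.ext
        change ρ 1 w.1 = w.1
        simp
      mul_smul := fun g h w => by
        apply Subtype.ext
        change ρ (g * h) w.1 = ρ g (ρ h w.1)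
        simp }
  have hxW : x ∈ W := Submodule.subset_span ⟨1, by simp⟩
  have hdvd : p ∣ Nat.card ↥W := by
    have h1 : addOrderOf (⟨x, hxW⟩ : ↥W) = p := by
      apply addOrderOf_eq_prime
      · apply Subtype.ext
        simpa using nsmul_eq_zero_of_zmod (p := p) x
      · intro h
        exact hx (congrArg Subtype.val h)
    have h2 := addOrderOf_dvd_natCard (⟨x, hxW⟩ : ↥W)
    rwa [h1] at h2
  have h0 : (0 : ↥W) ∈ MulAction.fixedPoints G ↥W := by
    intro g
    apply Subtype.ext
    change ρ g 0 = 0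
    simp
  obtain ⟨b, hb, hb0⟩ := hG.exists_fixed_point_of_prime_dvd_card_of_fixed_point ↥W hdvd h0
  refine ⟨b.1, hWK _ b.2, ?_, ?_⟩
  · intro h
    exact hb0 (Subtype.ext h.symm)
  · intro g
    exact congrArg Subtype.val (hb g)

/-- **Fixed point lemma**: a finite `p`-group acting additively on an abelian group killed by
`p` fixes a nonzero element of every nonzero stable subgroup. -/
theorem exists_fixed_ne_zero {p : ℕ} [Fact p.Prime] {G : Type} [Group G] [Finite G]
    (hG : IsPGroup p G) {V : Type} [AddCommGroup V] [Module ℤ V] (ρ : Representation ℤ G V)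
    (hp : ∀ v : V, p • v = 0) (K : AddSubgroup V) (hK : ∀ (g : G) (v : V), v ∈ K → ρ g v ∈ K)
    {x : V} (hxK : x ∈ K) (hx : x ≠ 0) :
    ∃ y : V, y ∈ K ∧ y ≠ 0 ∧ ∀ g : G, ρ g y = y :=
  @exists_fixed_ne_zero_aux p _ G _ _ hG V _ _ (AddCommGroup.zmodModule hp) ρ K hK x hxK hx


lemma exists_add_section_aux {p : ℕ} [Fact p.Prime] {A B : Type} [AddCommGroup A]
    [AddCommGroup B] [Module (ZMod p) A] [Module (ZMod p) B] (f : A →+ B)
    (hf : Function.Surjective f) : ∃ s : B →+ A, ∀ b, f (s b) = b := by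
  obtain ⟨g, hg⟩ := LinearMap.exists_rightInverse_of_surjective
    (AddMonoidHom.toZModLinearMap p f) (LinearMap.range_eq_top.2 hf)
  refine ⟨g.toAddMonoidHom, fun b => ?_⟩
  have := LinearMap.congr_fun hg b
  simpa using this

/-- An additive surjection between abelian groups killed by `p` has an additive section. -/
lemma exists_add_section {p : ℕ} [Fact p.Prime] {A B : Type} [AddCommGroup A]
    [AddCommGroup B] (hA : ∀ a : A, p • a = 0) (hB : ∀ b : B, p • b = 0) (f : A →+ B)
    (hf : Function.Surjective f) : ∃ s : B →+ A, ∀ b, f (s b) = b :=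
  @exists_add_section_aux p _ A B _ _ (AddCommGroup.zmodModule hA) (AddCommGroup.zmodModule hB)
    f hf

lemma exists_add_retraction_aux {p : ℕ} [Fact p.Prime] {V : Type} [AddCommGroup V]
    [Module (ZMod p) V] (S : AddSubgroup V) :
    ∃ r : V →+ V, (∀ v, r v ∈ S) ∧ ∀ v ∈ S, r v = v := by
  obtain ⟨C, hC⟩ := Submodule.exists_isCompl (AddSubgroup.toZModSubmodule p S)
  refine ⟨((AddSubgroup.toZModSubmodule p S).subtype.comp
    (Submodule.projectionOnto _ C hC)).toAddMonoidHom, fun v => ?_, fun v hv => ?_⟩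
  · exact (Submodule.projectionOnto _ C hC v).2
  · have := Submodule.projectionOnto_apply_left hC ⟨v, hv⟩
    exact congrArg Subtype.val this

/-- A subgroup of an abelian group killed by `p` is the image of an additive idempotent. -/
lemma exists_add_retraction {p : ℕ} [Fact p.Prime] {V : Type} [AddCommGroup V]
    (hV : ∀ v : V, p • v = 0) (S : AddSubgroup V) :
    ∃ r : V →+ V, (∀ v, r v ∈ S) ∧ ∀ v ∈ S, r v = v :=
  @exists_add_retraction_aux p _ V _ (AddCommGroup.zmodModule hV) S

end Fermat.Agent.PT.FpCT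


end ZBPT_022_5

/-! ### bundled: `Fermat.Agent.PT.A.FpCT` -/
section ZBPT_022_6
/-
PT-A piece `FpCT` (helper32): cohomological triviality over `𝔽_p`.

`G` a finite `p`-group, `B` killed by `p` with `H²(G, B) = 0`.  Then `H¹` and `H²` of
`Hom(N, B)` vanish (for every `N`).

Route (`NOTES/PT-A.md`, step 5):
* `X := Coind B / B` is killed by `p` and `H¹(G, X) ↪ H²(G, B) = 0`;
* structure lemma: `φ : X → Coind (X^G)`, `x ↦ (g ↦ r (g x))` (`r` an additive retraction onto
  the invariants) is bijective — injective because its kernel has no invariants, surjective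
  because the invariants of its cokernel inject into `H¹(G, X)` (fixed point lemma for
  `p`-groups, `FpCTCore.lean`);
* hence `Coind B → X` has an equivariant section (`Coind Y` is "free": `t ↦ ∑ g, g⁻¹ s₀ (t g)`),
  so `B` is a retract of `Coind B`;
* then `Hom(N, B)` is a retract of `Coind (Hom(N, B))`, which is acyclic.
-/

set_option autoImplicit false
set_option linter.style.haveILetI false

namespace Fermat.Agent.PT.FpCT

open CategoryTheory groupCohomology Limits
open Fermat.Agent.PT.SylowRes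

attribute [local instance 1100] Rep.hV2

variable {G : Type} [Group G]

/-! ### Morphisms of `Rep ℤ G` from additive maps -/

/-- A `G`-equivariant additive map, as a morphism of `Rep ℤ G`. -/
noncomputable def mkHom {A B : Rep.{0} ℤ G} (f : A.V →+ B.V)
    (hf : ∀ (g : G) (a : A.V), f (A.ρ g a) = B.ρ g (f a)) : A ⟶ B :=
  ConcreteCategory.ofHom (C := Rep.{0} ℤ G) (X := A) (Y := B)
    (LinearMap.intertwiningMap_of_isIntertwiningMap (ρ := A.ρ) (σ := B.ρ) (f := addToLin f) hf)

@[simp] lemma mkHom_apply {A B : Rep.{0} ℤ G} (f : A.V →+ B.V)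
    (hf : ∀ (g : G) (a : A.V), f (A.ρ g a) = B.ρ g (f a)) (a : A.V) :
    (mkHom f hf).hom a = f a := rfl

lemma hom_ext_apply {A B : Rep.{0} ℤ G} {f g : A ⟶ B} (h : ∀ a : A.V, f.hom a = g.hom a) :
    f = g :=
  Rep.hom_ext (Representation.IntertwiningMap.ext (LinearMap.ext h))

/-! ### Elements of `coindTriv Y` -/

/-- An element of `coindTriv Y` from an arbitrary function. -/
noncomputable def ctMk (Y : Rep.{0} ℤ G) (f : G → Y.V) : (coindTriv Y).V :=
  ⟨f, fun s h => by
    have hs : s = 1 := Subsingleton.elim _ _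
    subst hs
    simp⟩

@[simp] lemma ctMk_val (Y : Rep.{0} ℤ G) (f : G → Y.V) (g : G) : (ctMk Y f).1 g = f g := rfl

lemma ct_ext {Y : Rep.{0} ℤ G} {t t' : (coindTriv Y).V} (h : ∀ g, t.1 g = t'.1 g) : t = t' :=
  Subtype.ext (funext h)

@[simp] lemma ct_ρ_apply (Y : Rep.{0} ℤ G) (t : (coindTriv Y).V) (g h : G) :
    ((coindTriv Y).ρ g t).1 h = t.1 (h * g) := rfl

lemma ctMk_add (Y : Rep.{0} ℤ G) (f f' : G → Y.V) : ctMk Y (f + f') = ctMk Y f + ctMk Y f' :=
  rfl

lemma ctMk_zero (Y : Rep.{0} ℤ G) : ctMk Y (0 : G → Y.V) = 0 := rfl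

/-- Evaluation at `g`, as an additive map. -/
noncomputable def ctEval (Y : Rep.{0} ℤ G) (g : G) : (coindTriv Y).V →+ Y.V where
  toFun t := t.1 g
  map_zero' := rfl
  map_add' _ _ := rfl

@[simp] lemma ctEval_apply (Y : Rep.{0} ℤ G) (g : G) (t : (coindTriv Y).V) :
    ctEval Y g t = t.1 g := rfl

open Classical in
/-- The function supported at `1` with value `y`, as an additive map. -/
noncomputable def ctSingle (Y : Rep.{0} ℤ G) : Y.V →+ (coindTriv Y).V where
  toFun y := ctMk Y (Pi.single 1 y)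
  map_zero' := ct_ext (fun g => by simp)
  map_add' a b := ct_ext (fun g => by
    change (Pi.single 1 (a + b) : G → Y.V) g =
      (Pi.single 1 a : G → Y.V) g + (Pi.single 1 b : G → Y.V) g
    rw [Pi.single_add]
    rfl)

open Classical in
lemma ctSingle_val (Y : Rep.{0} ℤ G) (y : Y.V) (g : G) :
    (ctSingle Y y).1 g = if g = 1 then y else 0 := by
  change (Pi.single 1 y : G → Y.V) g = _
  rw [Pi.single_apply]

lemma ct_nsmul_eq_zero {p : ℕ} (Y : Rep.{0} ℤ G) (hp : ∀ y : Y.V, p • y = 0)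
    (t : (coindTriv Y).V) : p • t = 0 := by
  apply ct_ext
  intro g
  change p • t.1 g = 0
  exact hp _

/-! ### Injectivity and surjectivity criteria for `p`-groups -/

/-- A morphism out of a module killed by `p` (for a finite `p`-group) which is injective on
invariants is injective. -/
lemma injective_of_injective_on_invariants [Finite G] {p : ℕ} [Fact p.Prime]
    (hG : IsPGroup p G) {X T : Rep.{0} ℤ G} (φ : X ⟶ T) (hp : ∀ x : X.V, p • x = 0)
    (h : ∀ x : X.V, (∀ g : G, X.ρ g x = x) → φ.hom x = 0 → x = 0) :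
    Function.Injective φ.hom := by
  rw [injective_iff_map_eq_zero]
  intro x hx
  by_contra hx0
  let K : AddSubgroup X.V :=
    { carrier := {x | φ.hom x = 0}
      zero_mem' := map_zero _
      add_mem' := fun {a b} ha hb => by
        change φ.hom (a + b) = 0
        rw [map_add, ha, hb, add_zero]
      neg_mem' := fun {a} ha => by
        change φ.hom (-a) = 0
        rw [map_neg, ha, neg_zero] }
  obtain ⟨y, hyK, hy0, hy⟩ := exists_fixed_ne_zero hG X.ρ hp K
    (fun g v hv => by
      change φ.hom (X.ρ g v) = 0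
      rw [Rep.hom_comm_apply, hv, map_zero]) hx hx0
  exact hy0 (h y hy hyK)

/-- An injective morphism into a module killed by `p` (for a finite `p`-group), with source of
trivial `H¹`, whose range contains all invariants, is surjective. -/
lemma surjective_of_invariants_mem_range [Finite G] {p : ℕ} [Fact p.Prime]
    (hG : IsPGroup p G) {X T : Rep.{0} ℤ G} (φ : X ⟶ T) (hpT : ∀ t : T.V, p • t = 0)
    (h1 : Subsingleton (H1 X)) (hinj : Function.Injective φ.hom)
    (h : ∀ t : T.V, (∀ g : G, T.ρ g t = t) → ∃ x, φ.hom x = t) :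
    Function.Surjective φ.hom := by
  let I : Submodule ℤ T.V := LinearMap.range φ.hom.toLinearMap
  have hI : ∀ g, I ≤ I.comap (T.ρ g) := by
    rintro g _ ⟨x, rfl⟩
    exact ⟨X.ρ g x, Rep.hom_comm_apply φ g x⟩
  let Q : Rep.{0} ℤ G := Rep.quotient T I hI
  intro t
  by_contra ht
  have hpQ : ∀ q : Q.V, p • q = 0 := by
    intro q
    obtain ⟨t, rfl⟩ := Submodule.Quotient.mk_surjective _ q
    have := map_nsmul (Submodule.mkQ I) p t
    rw [hpT, map_zero] at this
    exact this.symm
  have hq0 : (Submodule.Quotient.mk t : Q.V) ≠ 0 := by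
    rw [Ne, Submodule.Quotient.mk_eq_zero]
    exact ht
  obtain ⟨y, -, hy0, hy⟩ := @exists_fixed_ne_zero p _ G _ _ hG Q.V _ Q.hV2 Q.ρ hpQ ⊤
    (fun _ _ _ => trivial) (Submodule.Quotient.mk t) (AddSubgroup.mem_top _) hq0
  obtain ⟨t', rfl⟩ := Submodule.Quotient.mk_surjective _ y
  apply hy0
  rw [Submodule.Quotient.mk_eq_zero]
  have hc : ∀ g : G, ∃ x, φ.hom x = T.ρ g t' - t' := by
    intro g
    have h2 : (Submodule.Quotient.mk (T.ρ g t' - t') : T.V ⧸ I) = 0 := by
      rw [Submodule.Quotient.mk_sub, sub_eq_zero]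
      exact hy g
    exact (Submodule.Quotient.mk_eq_zero _).1 h2
  choose c hc using hc
  have hcoc : c ∈ cocycles₁ X := by
    rw [mem_cocycles₁_iff]
    intro g h
    apply hinj
    rw [map_add, Rep.hom_comm_apply, hc, hc, hc, map_mul]
    simp
  have hcob : c ∈ coboundaries₁ X :=
    (H1π_eq_zero_iff (⟨c, hcoc⟩ : cocycles₁ X)).1 (Subsingleton.elim _ _)
  obtain ⟨x, hx⟩ := hcob
  have hx' : ∀ g, X.ρ g x - x = c g := fun g => by
    rw [← hx]
    simp [d₀₁_hom_apply]
  obtain ⟨x₀, hx₀⟩ := h (t' - φ.hom x) (fun g => by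
    rw [map_sub, ← Rep.hom_comm_apply]
    have := hc g
    rw [← hx' g, map_sub] at this
    rw [sub_eq_sub_iff_add_eq_add]
    rw [sub_eq_sub_iff_add_eq_add] at this
    rw [← this]
    abel)
  refine ⟨x + x₀, ?_⟩
  change φ.hom (x + x₀) = t'
  rw [map_add, hx₀]
  abel

/-! ### The structure lemma `X ≅ Coind (X^G)` -/

/-- A module `Y` identified (via `ι`) with the invariants of `X`, together with an additive
retraction `r` of `X` onto it. -/
structure InvData (X Y : Rep.{0} ℤ G) where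
  /-- the inclusion of the invariants -/
  ι : Y.V →+ X.V
  /-- the retraction onto the invariants -/
  r : X.V →+ Y.V
  r_ι : ∀ y, r (ι y) = y
  inv : ∀ (g : G) (y : Y.V), X.ρ g (ι y) = ι y
  ι_r : ∀ x : X.V, (∀ g : G, X.ρ g x = x) → ι (r x) = x

/-- The invariants of `X`, as an additive subgroup. -/
def invSub (X : Rep.{0} ℤ G) : AddSubgroup X.V where
  carrier := {x | ∀ g : G, X.ρ g x = x}
  zero_mem' := fun g => map_zero _
  add_mem' := fun {a b} ha hb g => by rw [map_add, ha g, hb g]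
  neg_mem' := fun {a} ha g => by rw [map_neg, ha g]

/-- The invariants of `X` with the trivial action. -/
noncomputable def invRep (X : Rep.{0} ℤ G) : Rep.{0} ℤ G := Rep.trivial ℤ G ↥(invSub X)

lemma exists_invData {p : ℕ} [Fact p.Prime] (X : Rep.{0} ℤ G) (hp : ∀ x : X.V, p • x = 0) :
    Nonempty (InvData X (invRep X)) := by
  obtain ⟨r₀, hr1, hr2⟩ := exists_add_retraction hp (invSub X)
  exact ⟨{ ι := (invSub X).subtype
           r := r₀.codRestrict (invSub X) hr1
           r_ι := fun y => Subtype.ext (hr2 _ y.2)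
           inv := fun g y => y.2 g
           ι_r := fun x hx => hr2 x hx }⟩

namespace InvData

variable {X Y : Rep.{0} ℤ G} (D : InvData X Y)

/-- `x ↦ (g ↦ r (g x))`. -/
noncomputable def phiAdd : X.V →+ (coindTriv Y).V where
  toFun x := ctMk Y (fun g => D.r (X.ρ g x))
  map_zero' := ct_ext (fun g => by simp)
  map_add' a b := ct_ext (fun g => by simp)

lemma phiAdd_val (x : X.V) (g : G) : (D.phiAdd x).1 g = D.r (X.ρ g x) := rfl

lemma phiAdd_comm (g : G) (x : X.V) : D.phiAdd (X.ρ g x) = (coindTriv Y).ρ g (D.phiAdd x) := by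
  apply ct_ext
  intro h
  change D.r (X.ρ h (X.ρ g x)) = D.r (X.ρ (h * g) x)
  rw [map_mul]
  rfl

/-- The comparison morphism `X ⟶ Coind (X^G)`. -/
noncomputable def phi : X ⟶ coindTriv Y := mkHom D.phiAdd D.phiAdd_comm

lemma phi_val (x : X.V) (g : G) : (D.phi.hom x).1 g = D.r (X.ρ g x) := rfl

lemma ι_injective : Function.Injective D.ι := fun a b h => by
  rw [← D.r_ι a, ← D.r_ι b, h]

include D in
lemma nsmul_eq_zero {p : ℕ} (hp : ∀ x : X.V, p • x = 0) (y : Y.V) : p • y = 0 :=
  D.ι_injective (by rw [map_nsmul, hp, map_zero])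

lemma phi_injective [Finite G] {p : ℕ} [Fact p.Prime] (hG : IsPGroup p G)
    (hp : ∀ x : X.V, p • x = 0) : Function.Injective D.phi.hom := by
  apply injective_of_injective_on_invariants hG D.phi hp
  intro x hx h0
  have h2 := congrArg (fun t : (coindTriv Y).V => t.1 1) h0
  have h3 : D.r (X.ρ 1 x) = 0 := h2
  rw [← D.ι_r x hx]
  have h4 : D.r x = 0 := by simpa using h3
  rw [h4, map_zero]

lemma phi_surjective [Finite G] {p : ℕ} [Fact p.Prime] (hG : IsPGroup p G)
    (hp : ∀ x : X.V, p • x = 0) (h1 : Subsingleton (H1 X)) :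
    Function.Surjective D.phi.hom := by
  apply surjective_of_invariants_mem_range hG D.phi
    (ct_nsmul_eq_zero Y (D.nsmul_eq_zero hp)) h1 (D.phi_injective hG hp)
  intro t ht
  refine ⟨D.ι (t.1 1), ?_⟩
  apply ct_ext
  intro g
  change D.r (X.ρ g (D.ι (t.1 1))) = t.1 g
  rw [D.inv, D.r_ι]
  have := congrArg (fun t : (coindTriv Y).V => t.1 1) (ht g)
  have h3 : t.1 (1 * g) = t.1 1 := this
  rw [one_mul] at h3
  exact h3.symm

end InvData

/-! ### `Coind Y` is "free": sections of surjections onto it -/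

section Section

variable [Fintype G] {E Y : Rep.{0} ℤ G} (s₀ : Y.V →+ E.V)

/-- `t ↦ ∑ g, g⁻¹ • s₀ (t g)`. -/
noncomputable def secAdd : (coindTriv Y).V →+ E.V :=
  ∑ g : G, (actAdd E g⁻¹).comp (s₀.comp (ctEval Y g))

lemma secAdd_apply (t : (coindTriv Y).V) :
    secAdd s₀ t = ∑ g : G, E.ρ g⁻¹ (s₀ (t.1 g)) := by
  simp only [secAdd, AddMonoidHom.finsetSum_apply]
  rfl

lemma secAdd_comm (h : G) (t : (coindTriv Y).V) :
    secAdd s₀ ((coindTriv Y).ρ h t) = E.ρ h (secAdd s₀ t) := by
  rw [secAdd_apply, secAdd_apply, map_sum]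
  refine Fintype.sum_equiv (Equiv.mulRight h) _ _ (fun g => ?_)
  change E.ρ g⁻¹ (s₀ (t.1 (g * h))) = E.ρ h (E.ρ (g * h)⁻¹ (s₀ (t.1 (g * h))))
  rw [← Module.End.mul_apply, ← map_mul]
  congr 2
  group

/-- The morphism `Coind Y ⟶ E` attached to an additive map `s₀ : Y → E`. -/
noncomputable def sec : coindTriv Y ⟶ E := mkHom (secAdd s₀) (secAdd_comm s₀)

lemma sec_comp (q : E ⟶ coindTriv Y) (h : ∀ y, q.hom (s₀ y) = ctSingle Y y) :
    sec s₀ ≫ q = 𝟙 _ := by
  classical
  apply hom_ext_apply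
  intro t
  change q.hom (secAdd s₀ t) = t
  rw [secAdd_apply, map_sum]
  apply ct_ext
  intro x
  have h1 : ∀ g : G, q.hom (E.ρ g⁻¹ (s₀ (t.1 g))) = (coindTriv Y).ρ g⁻¹ (ctSingle Y (t.1 g)) :=
    fun g => by rw [Rep.hom_comm_apply, h]
  simp only [h1]
  have h2 := map_sum (ctEval Y x) (fun g => (coindTriv Y).ρ g⁻¹ (ctSingle Y (t.1 g)))
    Finset.univ
  change ctEval Y x _ = _
  rw [h2]
  have h3 : ∀ g : G, ctEval Y x ((coindTriv Y).ρ g⁻¹ (ctSingle Y (t.1 g))) =
      if g = x then t.1 g else 0 := by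
    intro g
    change (ctSingle Y (t.1 g)).1 (x * g⁻¹) = _
    rw [ctSingle_val]
    by_cases hg : g = x
    · subst hg; simp
    · rw [if_neg hg, if_neg]
      intro h'
      apply hg
      rw [mul_inv_eq_one] at h'
      exact h'.symm
  simp only [h3]
  simp

/-- A surjection `E → Coind Y` of modules killed by `p` has an equivariant section. -/
lemma exists_section_coind {p : ℕ} [Fact p.Prime] (hE : ∀ e : E.V, p • e = 0)
    (hY : ∀ y : Y.V, p • y = 0) (q : E ⟶ coindTriv Y) (hq : Function.Surjective q.hom) :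
    ∃ s : coindTriv Y ⟶ E, s ≫ q = 𝟙 _ := by
  obtain ⟨σ, hσ⟩ := exists_add_section hE (ct_nsmul_eq_zero Y hY) (homAdd q) hq
  exact ⟨sec (σ.comp (ctSingle Y)), sec_comp _ q (fun y => hσ _)⟩

end Section

/-! ### Retracts of `Coind` -/

section HomRetract

variable (N : Rep.{0} ℤ G) {B : Rep.{0} ℤ G} (r : coindTriv B ⟶ B)

/-- `n ↦ r (x ↦ Φ x (x n))`, for fixed `Φ`. -/
noncomputable def homRetrFun (Φ : (coindTriv (homRep N B)).V) : N.V →+ B.V where
  toFun n := r.hom (ctMk B (fun x => (Φ.1 x : N.V →+ B.V) (N.ρ x n)))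
  map_zero' := by
    have : (fun x => (Φ.1 x : N.V →+ B.V) (N.ρ x 0)) = (0 : G → B.V) := by
      funext x; simp
    rw [this, ctMk_zero, map_zero]
  map_add' a b := by
    have : (fun x => (Φ.1 x : N.V →+ B.V) (N.ρ x (a + b))) =
        (fun x => (Φ.1 x : N.V →+ B.V) (N.ρ x a)) +
          (fun x => (Φ.1 x : N.V →+ B.V) (N.ρ x b)) := by
      funext x; simp
    rw [this, ctMk_add, map_add]

/-- The retraction `Coind (Hom(N,B)) → Hom(N,B)` induced by a retraction `Coind B → B`. -/
noncomputable def homRetrAdd : (coindTriv (homRep N B)).V →+ (homRep N B).V where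
  toFun Φ := homRetrFun N r Φ
  map_zero' := by
    ext n
    change r.hom (ctMk B
      (fun x => ((0 : (coindTriv (homRep N B)).V).1 x : N.V →+ B.V) (N.ρ x n))) = 0
    have : (fun x => ((0 : (coindTriv (homRep N B)).V).1 x : N.V →+ B.V) (N.ρ x n))
        = (0 : G → B.V) := by
      funext x; rfl
    rw [this, ctMk_zero, map_zero]
  map_add' Φ Ψ := by
    ext n
    change r.hom (ctMk B (fun x => ((Φ + Ψ).1 x : N.V →+ B.V) (N.ρ x n))) =
      r.hom (ctMk B (fun x => (Φ.1 x : N.V →+ B.V) (N.ρ x n))) +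
      r.hom (ctMk B (fun x => (Ψ.1 x : N.V →+ B.V) (N.ρ x n)))
    have : (fun x => ((Φ + Ψ).1 x : N.V →+ B.V) (N.ρ x n)) =
        (fun x => (Φ.1 x : N.V →+ B.V) (N.ρ x n)) +
          (fun x => (Ψ.1 x : N.V →+ B.V) (N.ρ x n)) := by
      funext x; rfl
    rw [this, ctMk_add, map_add]

lemma homRetrAdd_apply (Φ : (coindTriv (homRep N B)).V) (n : N.V) :
    (homRetrAdd N r Φ : N.V →+ B.V) n =
      r.hom (ctMk B (fun x => (Φ.1 x : N.V →+ B.V) (N.ρ x n))) := rfl

lemma homRetrAdd_comm (h : G) (Φ : (coindTriv (homRep N B)).V) :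
    homRetrAdd N r ((coindTriv (homRep N B)).ρ h Φ) = (homRep N B).ρ h (homRetrAdd N r Φ) := by
  ext n
  change r.hom (ctMk B (fun x => (Φ.1 (x * h) : N.V →+ B.V) (N.ρ x n))) =
    B.ρ h (r.hom (ctMk B (fun x => (Φ.1 x : N.V →+ B.V) (N.ρ x (N.ρ h⁻¹ n)))))
  rw [← Rep.hom_comm_apply]
  congr 1
  apply ct_ext
  intro x
  change (Φ.1 (x * h) : N.V →+ B.V) (N.ρ x n) =
    (Φ.1 (x * h) : N.V →+ B.V) (N.ρ (x * h) (N.ρ h⁻¹ n))
  rw [← Module.End.mul_apply, ← map_mul]
  congr 2
  group

/-- The retraction `Coind (Hom(N,B)) ⟶ Hom(N,B)`. -/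
noncomputable def homRetr : coindTriv (homRep N B) ⟶ homRep N B :=
  mkHom (homRetrAdd N r) (homRetrAdd_comm N r)

lemma unitHom_homRetr (hr : unitHom B ≫ r = 𝟙 B) :
    unitHom (homRep N B) ≫ homRetr N r = 𝟙 _ := by
  apply hom_ext_apply
  intro a
  change homRetrAdd N r ((unitHom (homRep N B)).hom a) = a
  ext n
  rw [homRetrAdd_apply]
  have h1 : ctMk B (fun x => (((unitHom (homRep N B)).hom a).1 x : N.V →+ B.V) (N.ρ x n)) =
      (unitHom B).hom ((a : N.V →+ B.V) n) := by
    apply ct_ext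
    intro x
    change B.ρ x ((a : N.V →+ B.V) (N.ρ x⁻¹ (N.ρ x n))) = B.ρ x ((a : N.V →+ B.V) n)
    rw [← Module.End.mul_apply, ← map_mul]
    simp
  rw [h1]
  have := congrArg (fun f : B ⟶ B => f.hom ((a : N.V →+ B.V) n)) hr
  exact this

end HomRetract

/-- A retract of `Coind A` is acyclic. -/
lemma isZero_of_retract (A : Rep.{0} ℤ G) (r : coindTriv A ⟶ A) (hr : unitHom A ≫ r = 𝟙 A)
    (n : ℕ) : IsZero (groupCohomology A (n + 1)) := by
  have h0 : IsZero ((groupCohomology.functor ℤ G (n + 1)).obj (coindTriv A)) :=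
    isZero_coindTriv A n
  have h1 : (groupCohomology.functor ℤ G (n + 1)).map (unitHom A) ≫
      (groupCohomology.functor ℤ G (n + 1)).map r = 𝟙 _ := by
    rw [← CategoryTheory.Functor.map_comp, hr, CategoryTheory.Functor.map_id]
  have h2 : 𝟙 ((groupCohomology.functor ℤ G (n + 1)).obj A) = 0 := by
    rw [← h1, h0.eq_of_tgt ((groupCohomology.functor ℤ G (n + 1)).map (unitHom A)) 0,
      zero_comp]
  exact (IsZero.iff_id_eq_zero _).2 h2

/-! ### The splitting -/

/-- **Key step**: for a finite `p`-group `G` and `B` killed by `p` with `H²(G, B) = 0`,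
`B` is a retract of `Coind B`. -/
theorem exists_retraction_coind [Fintype G] {p : ℕ} [Fact p.Prime] (hG : IsPGroup p G)
    (B : Rep.{0} ℤ G) (hpB : ∀ b : B.V, p • b = 0) (hH2 : Subsingleton (H2 B)) :
    ∃ r : coindTriv B ⟶ B, unitHom B ≫ r = 𝟙 B := by
  have hS := shiftSC_shortExact B
  have hπ : Function.Surjective (shiftSC B).g.hom := (Rep.epi_iff_surjective _).1 hS.epi_g
  have hpE : ∀ e : (coindTriv B).V, p • e = 0 := ct_nsmul_eq_zero B hpB
  have hpX : ∀ x : (shiftSC B).X₃.V, p • x = 0 := by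
    intro x
    obtain ⟨e, rfl⟩ := hπ x
    rw [← map_nsmul, hpE, map_zero]
  have hH1 : Subsingleton (H1 (shiftSC B).X₃) := by
    have hmono : Mono (δ hS 1 2 rfl) := mono_δ_of_isZero hS 1 (isZero_coindTriv B 0)
    have hinj := (ModuleCat.mono_iff_injective _).1 hmono
    exact hinj.subsingleton
  obtain ⟨D⟩ := exists_invData (shiftSC B).X₃ hpX
  have hφi := D.phi_injective hG hpX
  have hφs := D.phi_surjective hG hpX hH1
  obtain ⟨s, hs⟩ := exists_section_coind hpE (D.nsmul_eq_zero hpX) ((shiftSC B).g ≫ D.phi)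
    (hφs.comp hπ)
  have hmono : Mono D.phi := (Rep.mono_iff_injective _).2 hφi
  have hsec : (D.phi ≫ s) ≫ (shiftSC B).g = 𝟙 _ := by
    rw [← cancel_mono D.phi, Category.assoc, Category.assoc, hs, Category.comp_id,
      Category.id_comp]
  exact ⟨(ShortComplex.Splitting.ofExactOfSection (shiftSC B) hS.exact _ hsec hS.mono_f).r,
    (ShortComplex.Splitting.ofExactOfSection (shiftSC B) hS.exact _ hsec hS.mono_f).f_r⟩

end Fermat.Agent.PT.FpCT

namespace Fermat.Agent.PT

open CategoryTheory groupCohomology Limits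

/-- **(FpCT)** Cohomological triviality over `𝔽_p`. -/
theorem stmtFpCT : StmtFpCT := by
  intro p _ G _ _ hG B hpB hH2 N _
  obtain ⟨r, hr⟩ := FpCT.exists_retraction_coind hG B hpB hH2
  have h := FpCT.isZero_of_retract (homRep N B) (FpCT.homRetr N r) (FpCT.unitHom_homRetr N r hr)
  exact ⟨ModuleCat.isZero_iff_subsingleton.1 (h 0), ModuleCat.isZero_iff_subsingleton.1 (h 1)⟩

end Fermat.Agent.PT


end ZBPT_022_6

/-! ### bundled: `Fermat.Agent.PT.A.Kill` -/
section ZBPT_022_7
/-
PT-A piece `KILL` (helper11): `Hⁿ(G, X)` is killed by `|G|` for `n ≥ 1`.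
Immediate from `SylowRes.index_smul_eq_zero_of_res_eq_zero` with `H = ⊥`.
-/

set_option autoImplicit false

namespace Fermat.Agent.PT

open CategoryTheory groupCohomology Limits

/-- **(KILL)** `Hⁿ(G, X)` is killed by `|G|` for `n ≥ 1`. -/
theorem stmtKill : StmtKill := by
  intro G _ _ X n x
  have h0 : IsZero (groupCohomology (Rep.res (⊥ : Subgroup G).subtype X) (n + 1)) :=
    isZero_groupCohomology_succ_of_subsingleton _ n
  have h1 : (resSub X (⊥ : Subgroup G) (n + 1)).hom x = 0 :=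
    (ModuleCat.isZero_iff_subsingleton.1 h0).elim _ _
  have h2 := SylowRes.index_smul_eq_zero_of_res_eq_zero (⊥ : Subgroup G) n X x h1
  rwa [Subgroup.index_bot, Nat.card_eq_fintype_card] at h2

end Fermat.Agent.PT


end ZBPT_022_7

/-! ### bundled: `Fermat.Agent.PT.A.Shapiro` -/
section ZBPT_022_8
/-
PT-A (helper11): the EXPLICIT Shapiro map
  `shMap P Y n = map P.subtype ev₁ n : Hⁿ(G, Coind_P^G Y) ⟶ Hⁿ(P, Y)`   (`ev₁ F = F 1`)
is bijective in degrees 1 and 2 (`shMap_one_injective`, `shMap_one_surjective`,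
`shMap_two_bijective`), for every subgroup `P ≤ G` and every `Y : Rep k P`.
Degree 1: cocycle computation.  Degree 2: dimension shifting along `0 → Y → Coind_1^P Y → Y' → 0`
(`shiftK`), using that `Coind_P^G` is exact (`coind_shortExact`) and that the connecting maps commute
with `shMap` (`δ_shMap`).
-/

set_option autoImplicit false

namespace Fermat.Agent.PT.Red

open CategoryTheory groupCohomology Limits

variable {k : Type} [CommRing k] {G : Type} [Group G] (P : Subgroup G)

/-- evaluation at `1`: the counit `Res_P Coind_P^G Y ⟶ Y` -/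
noncomputable def evC (Y : Rep.{0} k P) : Rep.res P.subtype (Rep.coind P.subtype Y) ⟶ Y :=
  (Rep.resCoindHomEquiv P.subtype (Rep.coind P.subtype Y) Y).symm (𝟙 _)

lemma evC_apply (Y : Rep.{0} k P) (F : (Rep.coind P.subtype Y).V) :
    (evC P Y).hom F = F.1 1 := rfl

/-- the explicit Shapiro map `Hⁿ(G, Coind_P^G Y) ⟶ Hⁿ(P, Y)` -/
noncomputable def shMap (Y : Rep.{0} k P) (n : ℕ) :
    groupCohomology (Rep.coind P.subtype Y) n ⟶ groupCohomology Y n :=
  groupCohomology.map P.subtype (evC P Y) n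

section DegreeOne

variable (Y : Rep.{0} k P)

lemma coind_mem (F : (Rep.coind P.subtype Y).V) (p : P) (x : G) :
    F.1 ((p : G) * x) = Y.ρ p (F.1 x) := F.2 p x

lemma coind_ρ_apply (F : (Rep.coind P.subtype Y).V) (g x : G) :
    ((Rep.coind P.subtype Y).ρ g F).1 x = F.1 (x * g) := rfl

lemma cocycle_coind_apply (f : cocycles₁ (Rep.coind P.subtype Y)) (g h x : G) :
    (f (g * h)).1 x = (f h).1 (x * g) + (f g).1 x := by
  have := (mem_cocycles₁_iff f).1 f.2 g h
  rw [this]
  rfl

lemma shMap_H1π (f : cocycles₁ (Rep.coind P.subtype Y)) :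
    (shMap P Y 1).hom (H1π _ f) = H1π Y (mapCocycles₁ P.subtype (evC P Y) f) :=
  H1π_comp_map_apply (A := Rep.coind P.subtype Y) (B := Y) P.subtype (evC P Y) f

lemma mapCocycles₁_evC_apply (f : cocycles₁ (Rep.coind P.subtype Y)) (h : P) :
    (mapCocycles₁ P.subtype (evC P Y) f) h = (f (h : G)).1 1 := rfl

theorem shMap_one_injective : Function.Injective (shMap P Y 1).hom := by
  rw [injective_iff_map_eq_zero]
  intro x hx
  induction x using H1_induction_on with
  | h f =>
    rw [shMap_H1π, H1π_eq_zero_iff] at hx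
    obtain ⟨y, hy⟩ := hx
    have hy' : ∀ p : P, (f (p : G)).1 1 = Y.ρ p y - y := by
      intro p
      have := congrFun hy p
      rw [d₀₁_hom_apply, mapCocycles₁_evC_apply] at this
      exact this.symm
    rw [H1π_eq_zero_iff]
    refine ⟨⟨fun g => y + (f g).1 1, ?_⟩, ?_⟩
    · intro p x
      simp only
      change y + (f ((p : G) * x)).1 1 = Y.ρ p (y + (f x).1 1)
      rw [cocycle_coind_apply, hy', one_mul, map_add]
      have h2 : (f x).1 (p : G) = Y.ρ p ((f x).1 1) := by
        have := coind_mem P Y (f x) p 1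
        rwa [mul_one] at this
      rw [h2]
      abel
    · funext g
      apply Subtype.ext
      funext x
      rw [d₀₁_hom_apply]
      change (y + (f (x * g)).1 1) - (y + (f x).1 1) = (f g).1 x
      rw [cocycle_coind_apply, one_mul]
      abel

/-- the `P`-component of `x` w.r.t. right cosets: `x = rPart x * r`, `r` a representative -/
noncomputable def rPart (x : G) : P := (SylowRes.hPart P x⁻¹)⁻¹

lemma rPart_mul (p : P) (x : G) : rPart P ((p : G) * x) = p * rPart P x := by
  unfold rPart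
  rw [mul_inv_rev]
  have := SylowRes.hPart_mul P x⁻¹ p⁻¹
  rw [Subgroup.coe_inv] at this
  rw [this, mul_inv_rev, inv_inv]

/-- extension of a cocycle of `P` to a function on `G` -/
noncomputable def extC (c : cocycles₁ Y) (x : G) : Y.V := c (rPart P x)

lemma extC_mul (c : cocycles₁ Y) (p : P) (x : G) :
    extC P Y c ((p : G) * x) = Y.ρ p (extC P Y c x) + c p := by
  unfold extC
  rw [rPart_mul]
  exact (mem_cocycles₁_iff c).1 c.2 p (rPart P x)

/-- the lift of a cocycle of `P` with values in `Y` to a cocycle of `G` with values in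
`Coind_P^G Y` -/
noncomputable def liftC (c : cocycles₁ Y) : cocycles₁ (Rep.coind P.subtype Y) :=
  ⟨fun g => ⟨fun x => extC P Y c (x * g) - extC P Y c x, by
      intro p x
      change extC P Y c ((p : G) * x * g) - extC P Y c ((p : G) * x) = Y.ρ p (_ - _)
      rw [mul_assoc, extC_mul, extC_mul, map_sub]
      abel⟩, by
    rw [mem_cocycles₁_iff]
    intro g h
    apply Subtype.ext
    funext x
    change extC P Y c (x * (g * h)) - extC P Y c x =
      (extC P Y c (x * g * h) - extC P Y c (x * g)) + (extC P Y c (x * g) - extC P Y c x)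
    rw [mul_assoc]
    abel⟩

lemma liftC_apply (c : cocycles₁ Y) (g x : G) :
    ((liftC P Y c) g).1 x = extC P Y c (x * g) - extC P Y c x := rfl

theorem shMap_one_surjective : Function.Surjective (shMap P Y 1).hom := by
  intro z
  induction z using H1_induction_on with
  | h c =>
    refine ⟨H1π _ (liftC P Y c), ?_⟩
    rw [shMap_H1π, H1π_eq_iff]
    refine ⟨c (rPart P 1), ?_⟩
    funext h
    rw [d₀₁_hom_apply]
    change _ = (liftC P Y c (h : G)).1 1 - c h
    rw [liftC_apply, one_mul]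
    have h1 : extC P Y c (h : G) = Y.ρ h (c (rPart P 1)) + c h := by
      have := extC_mul P Y c h 1
      rwa [mul_one] at this
    rw [h1]
    change _ = Y.ρ h (c (rPart P 1)) + c h - c (rPart P 1) - c h
    abel

end DegreeOne


section Shift

variable {Γ : Type} [Group Γ]

/-- the unit `Y ⟶ Coind_1^Γ Y` (generic coefficient ring) -/
noncomputable abbrev unitK (Y : Rep.{0} k Γ) : Y ⟶ SylowRes.coindTriv Y :=
  Rep.resCoindToHom (⊥ : Subgroup Γ).subtype Y (Rep.res (⊥ : Subgroup Γ).subtype Y) (𝟙 _)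

lemma unitK_injective (Y : Rep.{0} k Γ) : Function.Injective (unitK Y).hom := by
  intro x y h
  have := congrArg (fun f => f.1 (1 : Γ)) h
  simpa using this

instance unitK_mono (Y : Rep.{0} k Γ) : Mono (unitK Y) :=
  (Rep.mono_iff_injective _).2 (unitK_injective Y)

/-- the dimension shifting sequence `0 → Y → Coind_1^Γ Y → Y' → 0` -/
noncomputable abbrev shiftK (Y : Rep.{0} k Γ) : ShortComplex (Rep.{0} k Γ) :=
  ShortComplex.mk (unitK Y) (cokernel.π (unitK Y)) (cokernel.condition _)

lemma shiftK_shortExact (Y : Rep.{0} k Γ) : (shiftK Y).ShortExact where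
  exact := ShortComplex.exact_cokernel _
  mono_f := by dsimp [shiftK]; infer_instance
  epi_g := by dsimp [shiftK]; infer_instance

lemma isZero_coindTrivK (Y : Rep.{0} k Γ) (n : ℕ) :
    IsZero (groupCohomology (SylowRes.coindTriv Y) (n + 1)) :=
  (isZero_groupCohomology_succ_of_subsingleton
    (Rep.res (⊥ : Subgroup Γ).subtype Y) n).of_iso (groupCohomology.coindIso _ _)

end Shift

section CoindExact

/-- `Coind_P^G` preserves short exact sequences -/
lemma coind_shortExact {S : ShortComplex (Rep.{0} k P)} (hS : S.ShortExact) :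
    (S.map (Rep.coindFunctor k P.subtype)).ShortExact := by
  have hmono : Function.Injective S.f.hom := (Rep.mono_iff_injective _).1 hS.mono_f
  have hexact := (ShortComplex.moduleCat_exact_iff _).1
    (hS.exact.map (forget₂ (Rep.{0} k P) (ModuleCat k)))
  refine { exact := ?_, mono_f := ?_, epi_g := ?_ }
  · rw [← ShortComplex.exact_map_iff_of_faithful _ (forget₂ (Rep.{0} k G) (ModuleCat k)),
      ShortComplex.moduleCat_exact_iff]
    intro F hF
    have hF' : ∀ x : G, S.g.hom (F.1 x) = 0 := by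
      intro x
      have := congrArg (fun F' : (Rep.coind P.subtype S.X₃).V => F'.1 x) hF
      exact this
    have hexact' : ∀ y : S.X₂.V, S.g.hom y = 0 → ∃ x : S.X₁.V, S.f.hom x = y :=
      fun y hy => hexact y hy
    have hex2 : ∀ x : G, ∃ y : S.X₁.V, S.f.hom y = F.1 x := fun x => hexact' (F.1 x) (hF' x)
    choose F₀ hF₀ using hex2
    refine ⟨⟨F₀, ?_⟩, ?_⟩
    · intro p x
      apply hmono
      have h1 : S.f.hom (F₀ ((p : G) * x)) = F.1 ((p : G) * x) := hF₀ _
      have h2 : S.f.hom (F₀ x) = F.1 x := hF₀ _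
      have h3 : S.f.hom (S.X₁.ρ p (F₀ x)) = S.X₂.ρ p (S.f.hom (F₀ x)) :=
        Rep.hom_comm_apply S.f p (F₀ x)
      have h4 : F.1 ((p : G) * x) = S.X₂.ρ p (F.1 x) := F.2 p x
      exact h1.trans (h4.trans ((congrArg (S.X₂.ρ p) h2.symm).trans h3.symm))
    · apply Subtype.ext
      funext x
      exact hF₀ x
  · rw [Rep.mono_iff_injective]
    intro F F' h
    apply Subtype.ext
    funext x
    apply hmono
    have := congrArg (fun F' : (Rep.coind P.subtype S.X₂).V => F'.1 x) h
    exact this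
  · have := hS.epi_g
    exact inferInstanceAs (Epi ((Rep.coindFunctor k P.subtype).map S.g))

end CoindExact


section DeltaCompat

/-- the Shapiro maps as a morphism of short complexes of cochain complexes -/
noncomputable def shShortComplexHom (S : ShortComplex (Rep.{0} k P)) :
    (S.map (Rep.coindFunctor k P.subtype)).map (cochainsFunctor k G) ⟶
      S.map (cochainsFunctor k P) where
  τ₁ := cochainsMap P.subtype (evC P S.X₁)
  τ₂ := cochainsMap P.subtype (evC P S.X₂)
  τ₃ := cochainsMap P.subtype (evC P S.X₃)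
  comm₁₂ := by
    ext n f
    rfl
  comm₂₃ := by
    ext n f
    rfl

theorem δ_shMap {S : ShortComplex (Rep.{0} k P)} (hS : S.ShortExact) (i j : ℕ)
    (hij : i + 1 = j) :
    δ (coind_shortExact P hS) i j hij ≫ shMap P S.X₁ j = shMap P S.X₃ i ≫ δ hS i j hij :=
  HomologicalComplex.HomologySequence.δ_naturality (shShortComplexHom P S)
    (map_cochainsFunctor_shortExact (coind_shortExact P hS))
    (map_cochainsFunctor_shortExact hS) i j hij

end DeltaCompat

section DegreeTwo

variable (Y : Rep.{0} k P)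

lemma isZero_coind_coindTriv (n : ℕ) :
    IsZero (groupCohomology (Rep.coind P.subtype (SylowRes.coindTriv Y)) (n + 1)) :=
  (isZero_coindTrivK Y n).of_iso (groupCohomology.coindIso _ _)

theorem shMap_two_bijective : Function.Bijective (shMap P Y 2).hom := by
  have hS := shiftK_shortExact Y
  have hcS := coind_shortExact P hS
  have hisoG : IsIso (δ hcS 1 2 rfl) :=
    isIso_δ_of_isZero hcS 1 (isZero_coind_coindTriv P Y 0) (isZero_coind_coindTriv P Y 1)
  have hisoP : IsIso (δ hS 1 2 rfl) :=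
    isIso_δ_of_isZero hS 1 (isZero_coindTrivK Y 0) (isZero_coindTrivK Y 1)
  have hcomm := δ_shMap P hS 1 2 rfl
  have h1 : Function.Bijective (shMap P (shiftK Y).X₃ 1).hom :=
    ⟨shMap_one_injective P _, shMap_one_surjective P _⟩
  have hG : Function.Bijective (δ hcS 1 2 rfl).hom :=
    ⟨(ModuleCat.mono_iff_injective _).1 inferInstance,
      (ModuleCat.epi_iff_surjective _).1 inferInstance⟩
  have hP : Function.Bijective (δ hS 1 2 rfl).hom :=
    ⟨(ModuleCat.mono_iff_injective _).1 inferInstance,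
      (ModuleCat.epi_iff_surjective _).1 inferInstance⟩
  have key : ∀ w, (shMap P Y 2).hom ((δ hcS 1 2 rfl).hom w) =
      (δ hS 1 2 rfl).hom ((shMap P (shiftK Y).X₃ 1).hom w) := fun w => congr($(hcomm).hom w)
  constructor
  · intro a b hab
    obtain ⟨a', rfl⟩ := hG.2 a
    obtain ⟨b', rfl⟩ := hG.2 b
    rw [key, key] at hab
    rw [h1.1 (hP.1 hab)]
  · intro z
    obtain ⟨z', rfl⟩ := hP.2 z
    obtain ⟨w, rfl⟩ := h1.2 z'
    exact ⟨(δ hcS 1 2 rfl).hom w, key w⟩

end DegreeTwo

end Fermat.Agent.PT.Red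


end ZBPT_022_8

/-! ### bundled: `Fermat.Agent.PT.A.Red` -/
section ZBPT_022_9
/-
PT-A piece RED (helper11): Sylow reduction `stmtRedR : StmtRedR`, `stmtRedL : StmtRedL`.

No cochain-level transfer is used.  With `I X = Coind_P^G Res_P X`:
* `unitC P X : X ⟶ I X`, `trC P X : I X ⟶ X` (trace), `unitC ≫ trC = [G:P]` (`unitC_trC_eq`),
  `trC` natural (`trC_naturality`);
* the explicit Shapiro map `shMap` (Shapiro.lean) is bijective on `H²`, natural, and
  `unit_* ≫ Sh = res`  (`map_unit_shMap`),  `(unit ≫ Coind g')_* ≫ Sh = g'_* ∘ res`;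
* core (`sh_eq_zero_of_tr_eq_zero`): `t_* w = 0 ⇒ Sh w = 0` when `H²(P, C)` is generated by
  the restriction of a global class.
-/

set_option autoImplicit false

namespace Fermat.Agent.PT.Red

open CategoryTheory groupCohomology Limits

variable {k : Type} [CommRing k] {G : Type} [Group G] (P : Subgroup G)

section Trace

variable (X : Rep.{0} k G)

/-- the summand of the trace: `y ↦ y • F(y⁻¹)`, constant on left cosets of `P` -/
noncomputable def trTerm (F : (Rep.coind P.subtype (Rep.res P.subtype X)).V) (y : G) : X.V :=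
  X.ρ y (F.1 y⁻¹)

lemma trTerm_mul (F : (Rep.coind P.subtype (Rep.res P.subtype X)).V) (y : G) (p : P) :
    trTerm P X F (y * p) = trTerm P X F y := by
  unfold trTerm
  have h1 : F.1 ((y * (p : G))⁻¹) = X.ρ (p : G)⁻¹ (F.1 y⁻¹) := by
    rw [mul_inv_rev]
    exact F.2 p⁻¹ y⁻¹
  rw [h1, map_mul, Module.End.mul_apply, ← Module.End.mul_apply (X.ρ (p : G)), ← map_mul,
    mul_inv_cancel, map_one, Module.End.one_apply]

lemma trTerm_eq_of_coset (F : (Rep.coind P.subtype (Rep.res P.subtype X)).V) (y y' : G)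
    (h : (y : G ⧸ P) = (y' : G ⧸ P)) : trTerm P X F y = trTerm P X F y' := by
  have h1 : y⁻¹ * y' ∈ P := QuotientGroup.eq.1 h
  have := trTerm_mul P X F y ⟨_, h1⟩
  simpa using this.symm

lemma trTerm_smul (F : (Rep.coind P.subtype (Rep.res P.subtype X)).V) (g y : G) :
    trTerm P X ((Rep.coind P.subtype (Rep.res P.subtype X)).ρ g F) y =
      X.ρ g (trTerm P X F (g⁻¹ * y)) := by
  unfold trTerm
  change X.ρ y (F.1 (y⁻¹ * g)) = _
  rw [mul_inv_rev, inv_inv, ← Module.End.mul_apply, ← map_mul, mul_inv_cancel_left]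

variable [P.FiniteIndex]

/-- the trace `Coind_P^G Res_P X → X` as a linear map -/
noncomputable def trLin : (Rep.coind P.subtype (Rep.res P.subtype X)).V →ₗ[k] X.V :=
  letI : Fintype (G ⧸ P) := Subgroup.fintypeQuotientOfFiniteIndex
  { toFun := fun F => ∑ c : G ⧸ P, trTerm P X F c.out
    map_add' := fun F F' => by
      rw [← Finset.sum_add_distrib]
      refine Finset.sum_congr rfl fun c _ => ?_
      unfold trTerm
      rw [← map_add]
      rfl
    map_smul' := fun a F => by
      rw [RingHom.id_apply, Finset.smul_sum]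
      refine Finset.sum_congr rfl fun c _ => ?_
      unfold trTerm
      rw [← map_smul]
      rfl }

lemma trLin_apply (F : (Rep.coind P.subtype (Rep.res P.subtype X)).V) :
    letI : Fintype (G ⧸ P) := Subgroup.fintypeQuotientOfFiniteIndex
    trLin P X F = ∑ c : G ⧸ P, trTerm P X F c.out := rfl

lemma trLin_comm (g : G) (F : (Rep.coind P.subtype (Rep.res P.subtype X)).V) :
    trLin P X ((Rep.coind P.subtype (Rep.res P.subtype X)).ρ g F) = X.ρ g (trLin P X F) := by
  classical
  let _ : Fintype (G ⧸ P) := Subgroup.fintypeQuotientOfFiniteIndex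
  rw [trLin_apply, trLin_apply, map_sum]
  have h1 : ∀ c : G ⧸ P, trTerm P X ((Rep.coind P.subtype (Rep.res P.subtype X)).ρ g F) c.out =
      X.ρ g (trTerm P X F ((g⁻¹ • c).out)) := by
    intro c
    rw [trTerm_smul]
    congr 1
    apply trTerm_eq_of_coset
    rw [QuotientGroup.out_eq']
    conv_rhs => rw [← QuotientGroup.out_eq' c]
    rfl
  rw [Finset.sum_congr rfl (fun c _ => h1 c)]
  exact Fintype.sum_equiv (MulAction.toPerm g⁻¹) _ _ (fun c => rfl)

/-- the trace `Coind_P^G Res_P X ⟶ X` -/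
noncomputable def trC : Rep.coind P.subtype (Rep.res P.subtype X) ⟶ X :=
  ConcreteCategory.ofHom (C := Rep.{0} k G)
    (X := Rep.coind P.subtype (Rep.res P.subtype X)) (Y := X)
    (LinearMap.intertwiningMap_of_isIntertwiningMap
      (ρ := (Rep.coind P.subtype (Rep.res P.subtype X)).ρ) (σ := X.ρ) (f := trLin P X)
      (fun g F => trLin_comm P X g F))

lemma trC_apply (F : (Rep.coind P.subtype (Rep.res P.subtype X)).V) :
    (trC P X).hom F = trLin P X F := rfl

/-- the unit `X ⟶ Coind_P^G Res_P X` -/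
noncomputable def unitC (P : Subgroup G) (X : Rep.{0} k G) :
    X ⟶ Rep.coind P.subtype (Rep.res P.subtype X) :=
  Rep.resCoindHomEquiv P.subtype X (Rep.res P.subtype X) (𝟙 _)

omit [P.FiniteIndex] in
lemma unitC_apply (x : X.V) (g : G) : ((unitC P X).hom x).1 g = X.ρ g x := rfl

lemma trC_unitC_apply (x : X.V) : (trC P X).hom ((unitC P X).hom x) = P.index • x := by
  classical
  let _ : Fintype (G ⧸ P) := Subgroup.fintypeQuotientOfFiniteIndex
  rw [trC_apply, trLin_apply]
  have h1 : ∀ c : G ⧸ P, trTerm P X ((unitC P X).hom x) c.out = x := by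
    intro c
    unfold trTerm
    rw [unitC_apply, ← Module.End.mul_apply, ← map_mul, mul_inv_cancel, map_one,
      Module.End.one_apply]
  rw [Finset.sum_congr rfl (fun c _ => h1 c), Finset.sum_const, Finset.card_univ]
  congr 1
  rw [Subgroup.index, Nat.card_eq_fintype_card]

end Trace


section Naturality

variable [P.FiniteIndex]

/-- naturality of the trace -/
lemma trC_naturality {X X' : Rep.{0} k G} (g : X ⟶ X') :
    trC P X ≫ g = Rep.coindMap P.subtype ((Rep.resFunctor P.subtype).map g) ≫ trC P X' := by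
  classical
  ext F
  change g.hom (trLin P X F) = trLin P X' _
  let _ : Fintype (G ⧸ P) := Subgroup.fintypeQuotientOfFiniteIndex
  rw [trLin_apply, trLin_apply, map_sum]
  refine Finset.sum_congr rfl fun c _ => ?_
  unfold trTerm
  rw [Rep.hom_comm_apply]
  rfl

lemma unitC_trC (X : Rep.{0} k G) : ∀ x : X.V, (unitC P X ≫ trC P X).hom x = P.index • x :=
  fun x => trC_unitC_apply P X x

end Naturality

section ShapiroCompat

/-- `Sh ∘ (Coind g')_* ∘ unit_* = g'_* ∘ res` -/
lemma map_unit_coindMap_shMap {M C : Rep.{0} k G}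
    (g' : Rep.res P.subtype M ⟶ Rep.res P.subtype C) (n : ℕ) :
    map (MonoidHom.id G) (unitC P M ≫ Rep.coindMap P.subtype g') n ≫
      shMap P (Rep.res P.subtype C) n = map P.subtype g' n := by
  unfold shMap
  rw [← map_comp]
  refine map_congr (MonoidHom.id_comp _) ?_ n
  ext m
  change g'.hom (M.ρ (1 : G) m) = g'.hom m
  rw [map_one]
  rfl

/-- `g'_* ∘ res` as a single `map` -/
lemma map_res_push {M C : Rep.{0} k G}
    (g' : Rep.res P.subtype M ⟶ Rep.res P.subtype C) (n : ℕ) :
    map P.subtype (𝟙 (Rep.res P.subtype M)) n ≫ map (MonoidHom.id P) g' n =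
      map P.subtype g' n := by
  rw [← map_comp]
  exact map_congr (MonoidHom.comp_id _) (by ext m; rfl) n

/-- naturality of the Shapiro map -/
lemma shMap_naturality {Y Y' : Rep.{0} k P} (φ : Y ⟶ Y') (n : ℕ) :
    map (MonoidHom.id G) (Rep.coindMap P.subtype φ) n ≫ shMap P Y' n =
      shMap P Y n ≫ map (MonoidHom.id P) φ n := by
  unfold shMap
  rw [← map_comp, ← map_comp]
  exact map_congr ((MonoidHom.id_comp _).trans (MonoidHom.comp_id _).symm) (by ext F; rfl) n

end ShapiroCompat


section Additivity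

lemma map_id_nsmul {X X' : Rep.{0} k G} (φ : X ⟶ X') (m n : ℕ) :
    map (MonoidHom.id G) (m • φ) n = m • map (MonoidHom.id G) φ n := by
  have h1 : ∀ ψ : X ⟶ X', map (MonoidHom.id G) ψ n =
      (HomologicalComplex.homologyFunctor (ModuleCat k) _ n).map
        ((cochainsFunctor k G).map ψ) := fun ψ => rfl
  rw [h1, h1, Functor.map_nsmul, Functor.map_nsmul]
  rfl

lemma unitC_trC_eq [P.FiniteIndex] (X : Rep.{0} k G) :
    unitC P X ≫ trC P X = P.index • 𝟙 X := by
  ext x
  refine (unitC_trC P X x).trans ?_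
  rw [Rep.nsmul_hom]
  rfl

lemma map_unit_tr [P.FiniteIndex] (X : Rep.{0} k G) (n : ℕ) (x : groupCohomology X n) :
    (map (MonoidHom.id G) (trC P X) n).hom ((map (MonoidHom.id G) (unitC P X) n).hom x) =
      P.index • x := by
  have h1 : map (MonoidHom.id G) (unitC P X) n ≫ map (MonoidHom.id G) (trC P X) n =
      P.index • 𝟙 _ := by
    have h2 := unitC_trC_eq P X
    rw [← map_id_comp, h2, map_id_nsmul, map_id]
  have := congr($(h1).hom x)
  exact this

lemma map_unit_shMap (X : Rep.{0} k G) (n : ℕ) :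
    map (MonoidHom.id G) (unitC P X) n ≫ shMap P (Rep.res P.subtype X) n =
      map P.subtype (𝟙 (Rep.res P.subtype X)) n := by
  unfold shMap
  rw [← map_comp]
  refine map_congr (MonoidHom.id_comp _) ?_ n
  ext m
  change X.ρ (1 : G) m = m
  rw [map_one]
  rfl

end Additivity


section Final

variable {G : Type} [Group G]

/-- push-forward along a `G`-morphism (abbreviation fixing the elaboration order) -/
noncomputable abbrev pushG {X X' : Rep.{0} ℤ G} (φ : X ⟶ X') (n : ℕ) :
    groupCohomology X n ⟶ groupCohomology X' n :=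
  map (MonoidHom.id G) φ n

/-- two coprime annihilators -/
lemma eq_zero_of_coprime_nsmul {X : Type*} [AddCommGroup X] (x : X) {a b : ℕ}
    (hab : Nat.Coprime a b) (ha : a • x = 0) (hb : b • x = 0) : x = 0 := by
  have h1 : (Nat.gcd a b) • x = 0 := by
    have h2 : ((Nat.gcd a b : ℕ) : ℤ) • x = 0 := by
      rw [Nat.gcd_eq_gcd_ab, add_smul, mul_comm (a : ℤ), mul_comm (b : ℤ), mul_smul, mul_smul,
        natCast_zsmul, natCast_zsmul, ha, hb, smul_zero, smul_zero, add_zero]
    rwa [natCast_zsmul] at h2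
  rw [hab.gcd_eq_one, one_nsmul] at h1
  exact h1

/-- **core of the Sylow reduction**: a class `w ∈ H²(G, Coind_P^G C)` with vanishing trace has
vanishing Shapiro image, if `H²(P, C)` is generated by the restriction of a global class. -/
theorem sh_eq_zero_of_tr_eq_zero (p : ℕ) [Fact p.Prime] [Fintype G] (P : Sylow p G)
    (C : Rep.{0} ℤ G) (u : H2 C) (hu : IsPFundClass p C u)
    (w : groupCohomology
      (Rep.coind (P : Subgroup G).subtype (Rep.res (P : Subgroup G).subtype C)) 2)
    (hw : (map (MonoidHom.id G) (trC (P : Subgroup G) C) 2).hom w = 0) :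
    (shMap (P : Subgroup G) (Rep.res (P : Subgroup G).subtype C) 2).hom w = 0 := by
  classical
  obtain ⟨n, hn⟩ := hu.h2_gen (P : Subgroup G) P.isPGroup'
    ((shMap (P : Subgroup G) (Rep.res (P : Subgroup G).subtype C) 2).hom w)
  -- `res u = Sh (unit_* u)`
  have hres : (resSub C (P : Subgroup G) 2).hom u =
      (shMap (P : Subgroup G) (Rep.res (P : Subgroup G).subtype C) 2).hom
        ((map (MonoidHom.id G) (unitC (P : Subgroup G) C) 2).hom u) :=
    (congr($(map_unit_shMap (P : Subgroup G) C 2).hom u)).symm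
  have hw' : w = n • (map (MonoidHom.id G) (unitC (P : Subgroup G) C) 2).hom u := by
    apply (shMap_two_bijective (P : Subgroup G) _).1
    rw [map_zsmul, ← hres, hn]
  -- `0 = t_* w = n • index • u`
  have h0 : n • ((P : Subgroup G).index • u) = 0 := by
    rw [← map_unit_tr (P : Subgroup G) C 2 u, ← map_zsmul, ← hw', hw]
  -- restrict to `P`
  have h1 : (P : Subgroup G).index •
      (shMap (P : Subgroup G) (Rep.res (P : Subgroup G).subtype C) 2).hom w = 0 := by
    rw [← hn, smul_comm, ← map_nsmul, ← map_zsmul, h0, map_zero]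
  have h2 : Fintype.card (P : Subgroup G) •
      (shMap (P : Subgroup G) (Rep.res (P : Subgroup G).subtype C) 2).hom w = 0 :=
    stmtKill (P : Subgroup G) _ 1 _
  obtain ⟨m, hm⟩ := IsPGroup.iff_card.1 P.isPGroup'
  rw [← Nat.card_eq_fintype_card, hm] at h2
  have hcop : Nat.Coprime (p ^ m) (P : Subgroup G).index :=
    Nat.Coprime.pow_left m ((Nat.Prime.coprime_iff_not_dvd Fact.out).2 P.not_dvd_index)
  exact eq_zero_of_coprime_nsmul _ hcop h2 h1


end Final

end Fermat.Agent.PT.Red

namespace Fermat.Agent.PT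

open CategoryTheory groupCohomology Limits Red

/-- **(RedR)** -/
theorem stmtRedR : StmtRedR := by
  intro p _ G _ _ P C u hu M y hy g'
  classical
  -- the `G`-morphism `N(g') = t ∘ Coind(g') ∘ unit`
  have h1 := hy (unitC (P : Subgroup G) M ≫ Rep.coindMap (P : Subgroup G).subtype g' ≫
    trC (P : Subgroup G) C)
  set w := (map (MonoidHom.id G)
    (unitC (P : Subgroup G) M ≫ Rep.coindMap (P : Subgroup G).subtype g') 2).hom y with hw
  have h2 : (map (MonoidHom.id G) (trC (P : Subgroup G) C) 2).hom w = 0 := by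
    have h3 : map (MonoidHom.id G) (unitC (P : Subgroup G) M ≫
        Rep.coindMap (P : Subgroup G).subtype g' ≫ trC (P : Subgroup G) C) 2 =
        map (MonoidHom.id G) (unitC (P : Subgroup G) M ≫
          Rep.coindMap (P : Subgroup G).subtype g') 2 ≫
        map (MonoidHom.id G) (trC (P : Subgroup G) C) 2 := by
      rw [← map_id_comp, Category.assoc]
    have := congr($(h3).hom y)
    exact this.symm.trans h1
  have h4 := sh_eq_zero_of_tr_eq_zero p P C u hu w h2
  have h5 : (shMap (P : Subgroup G) (Rep.res (P : Subgroup G).subtype C) 2).hom w =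
      (map (P : Subgroup G).subtype g' 2).hom y :=
    congr($(map_unit_coindMap_shMap (P : Subgroup G) g' 2).hom y)
  have h6 : (push₂ g').hom ((resSub M (P : Subgroup G) 2).hom y) =
      (map (P : Subgroup G).subtype g' 2).hom y :=
    congr($(map_res_push (P : Subgroup G) g' 2).hom y)
  rw [h6, ← h5, h4]

/-- **(RedL)** -/
theorem stmtRedL : StmtRedL := by
  intro p _ G _ _ P C u hu M g hg y'
  classical
  obtain ⟨yt, hyt⟩ := (shMap_two_bijective (P : Subgroup G)
    (Rep.res (P : Subgroup G).subtype M)).2 y'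
  -- `yt` is killed by `|P|`
  obtain ⟨m, hm⟩ := IsPGroup.iff_card.1 P.isPGroup'
  have h1 : (p ^ m) • yt = 0 := by
    apply (shMap_two_bijective (P : Subgroup G) (Rep.res (P : Subgroup G).subtype M)).1
    rw [map_nsmul, map_zero, hyt, ← hm, Nat.card_eq_fintype_card]
    exact stmtKill (P : Subgroup G) _ 1 _
  -- so its trace is `p`-torsion
  have h2 : IsPTors p ((map (MonoidHom.id G) (trC (P : Subgroup G) M) 2).hom yt) :=
    ⟨m, by rw [← map_nsmul, h1, map_zero]⟩
  have h3 := hg _ h2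
  -- naturality of the trace
  set w := (map (MonoidHom.id G) (Rep.coindMap (P : Subgroup G).subtype
    ((Rep.resFunctor (P : Subgroup G).subtype).map g)) 2).hom yt with hw
  have h4 : (map (MonoidHom.id G) (trC (P : Subgroup G) C) 2).hom w = 0 := by
    have h5 : pushG (trC (P : Subgroup G) M) 2 ≫ push₂ g =
        pushG (Rep.coindMap (P : Subgroup G).subtype
          ((Rep.resFunctor (P : Subgroup G).subtype).map g)) 2 ≫
        pushG (trC (P : Subgroup G) C) 2 := by
      rw [← map_id_comp, ← map_id_comp, trC_naturality]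
    have := congr($(h5).hom yt)
    exact this.symm.trans h3
  have h6 := sh_eq_zero_of_tr_eq_zero p P C u hu w h4
  have h7 : (shMap (P : Subgroup G) (Rep.res (P : Subgroup G).subtype C) 2).hom w =
      (push₂ ((Rep.resFunctor (P : Subgroup G).subtype).map g)).hom
        ((shMap (P : Subgroup G) (Rep.res (P : Subgroup G).subtype M) 2).hom yt) :=
    congr($(shMap_naturality (P : Subgroup G)
      ((Rep.resFunctor (P : Subgroup G).subtype).map g) 2).hom yt)
  rw [← hyt, ← h7, h6]

end Fermat.Agent.PT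


end ZBPT_022_9

/-! ### bundled: `Fermat.Agent.PT.A.DSDefs` -/
section ZBPT_022_10
/-
PT-A piece `DS` (double dimension shift) — interface of the sub-pieces (helper79).

`IsWI X` ("weakly injective"): the identity of `X` is the norm of an additive endomorphism.
Such `X` have `H¹ = H² = 0` and all their invariants are norms; `Coind_1^G A` and
`Hom(E, C)` for `E` weakly injective are weakly injective.

`StmtDSAbs`: the statement of `StmtDS` for ANY pair of short exact sequences
`0 → M → E → M₁ → 0`, `0 → M₁ → E₁ → M₂ → 0` with `E`, `E₁` weakly injective and additively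
split.  `StmtDS` follows with `E = Coind_1^G M`, `E₁ = Coind_1^G M₁`.
-/

set_option autoImplicit false

namespace Fermat.Agent.PT

open CategoryTheory groupCohomology

attribute [local instance 1100] Rep.hV2

variable {G : Type} [Group G]

/-- `X` is weakly injective: the identity of `X` is the norm of an additive endomorphism. -/
def IsWI [Fintype G] (X : Rep.{0} ℤ G) : Prop :=
  ∃ h : X.V →+ X.V, ∀ x : X.V, ∑ γ : G, X.ρ γ (h (X.ρ γ⁻¹ x)) = x

/-- Pre-composition with an additive map, as an additive map of Hom groups. -/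
noncomputable def preAdd {X Y : Type} [AddCommGroup X] [AddCommGroup Y] (Z : Type)
    [AddCommGroup Z] (f : X →+ Y) : (Y →+ Z) →+ (X →+ Z) :=
  AddMonoidHom.mk' (fun φ => φ.comp f) (fun φ ψ => by ext x; rfl)

@[simp] lemma preAdd_apply {X Y : Type} [AddCommGroup X] [AddCommGroup Y] (Z : Type)
    [AddCommGroup Z] (f : X →+ Y) (φ : Y →+ Z) (x : X) : preAdd Z f φ x = φ (f x) := rfl

/-- Pre-composition with a morphism `f : A ⟶ B`, as a morphism `Hom(B, C) ⟶ Hom(A, C)`. -/
noncomputable def homRepPre {A B : Rep.{0} ℤ G} (f : A ⟶ B) (C : Rep.{0} ℤ G) :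
    homRep B C ⟶ homRep A C :=
  Rep.ofHom (LinearMap.intertwiningMap_of_isIntertwiningMap
    (ρ := homRepρ B C) (σ := homRepρ A C)
    (f := addToLin (preAdd C.V (homAdd f)))
    (fun g φ => by
      ext a
      simp [Rep.hom_comm_apply]))

@[simp] lemma homRepPre_apply {A B : Rep.{0} ℤ G} (f : A ⟶ B) (C : Rep.{0} ℤ G)
    (φ : B.V →+ C.V) (a : A.V) :
    ((homRepPre f C).hom φ : A.V →+ C.V) a = φ (f.hom a) := rfl

/-! ## The sub-pieces of `DS` (one `Prop` each) -/

/-- **(DS-WI0)** In a weakly injective module every invariant is a norm. -/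
def StmtWI0 : Prop :=
  ∀ (G : Type) [Group G] [Fintype G] (X : Rep.{0} ℤ G), IsWI X →
    ∀ x : X.V, (∀ g : G, X.ρ g x = x) → IsNormElt X x

/-- **(DS-WI1)** `H¹` of a weakly injective module vanishes.
(For a cocycle `y` put `c = ∑ γ, γ • h (γ⁻¹ • y γ)`; then `y σ = c - σ • c`.) -/
def StmtWI1 : Prop :=
  ∀ (G : Type) [Group G] [Fintype G] (X : Rep.{0} ℤ G), IsWI X → Subsingleton (H1 X)

/-- **(DS-WI2)** `H²` of a weakly injective module vanishes (`stmtNormZero` for `𝟙 X`). -/
def StmtWI2 : Prop :=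
  ∀ (G : Type) [Group G] [Fintype G] (X : Rep.{0} ℤ G), IsWI X → Subsingleton (H2 X)

/-- **(DS-CoindWI)** `Coind_1^G A` is weakly injective (`h f = f 1 • δ₁`). -/
def StmtCoindWI : Prop :=
  ∀ (G : Type) [Group G] [Fintype G] (A : Rep.{0} ℤ G), IsWI (SylowRes.coindTriv A)

/-- **(DS-HomWI)** `Hom(E, C)` is weakly injective when `E` is (`φ ↦ φ ∘ h`). -/
def StmtHomWI : Prop :=
  ∀ (G : Type) [Group G] [Fintype G] (E C : Rep.{0} ℤ G), IsWI E → IsWI (homRep E C)

/-- **(DS-ShiftFree)** The cokernel of `A → Coind_1^G A` is `ℤ`-free of finite rank when `A` is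
(`G` finite). -/
def StmtShiftFree : Prop :=
  ∀ (G : Type) [Group G] [Fintype G] (A : Rep.{0} ℤ G), IsZFree A →
    IsZFree (SylowRes.shiftSC A).X₃

/-- **(DS-HomPre)** `Hom(-, C)` turns an additively split short exact sequence into a short
exact sequence. -/
def StmtHomPre : Prop :=
  ∀ (G : Type) [Group G] (C X Y Z : Rep.{0} ℤ G) (f : X ⟶ Y) (g : Y ⟶ Z) (w : f ≫ g = 0)
    (w' : homRepPre g C ≫ homRepPre f C = 0),
    (ShortComplex.mk f g w).ShortExact →
    (∃ r : Y.V →+ X.V, ∀ x : X.V, r (f.hom x) = x) →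
    (ShortComplex.mk (homRepPre g C) (homRepPre f C) w').ShortExact

/-- **(DS-Abs)** The statement of `StmtDS` for ANY two short exact sequences
`0 → M → E → M₁ → 0`, `0 → M₁ → E₁ → M₂ → 0` which are additively split and have weakly
injective middle terms (sign `ε = -1`). -/
def StmtDSAbs : Prop :=
  ∀ (G : Type) [Group G] [Fintype G] (M C E M₁ E₁ M₂ : Rep.{0} ℤ G)
    (ι : M ⟶ E) (π : E ⟶ M₁) (ι₁ : M₁ ⟶ E₁) (π₁ : E₁ ⟶ M₂) (w : ι ≫ π = 0) (w₁ : ι₁ ≫ π₁ = 0),
    (ShortComplex.mk ι π w).ShortExact → (ShortComplex.mk ι₁ π₁ w₁).ShortExact →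
    IsWI E → IsWI E₁ →
    (∃ r : E.V →+ M.V, ∀ x : M.V, r (ι.hom x) = x) →
    (∃ r₁ : E₁.V →+ M₁.V, ∀ x : M₁.V, r₁ (ι₁.hom x) = x) →
    ∃ (dM : {m : M₂.V // ∀ g : G, M₂.ρ g m = m} → H2 M)
      (dH : (M ⟶ C) → H2 (homRep M₂ C)),
      Function.Surjective dM ∧ Function.Surjective dH ∧
      (∀ m, dM m = 0 ↔ IsNormElt M₂ m.1) ∧
      (∀ g : M ⟶ C, dH g = 0 ↔ IsNormHom g) ∧
      (∀ (g : M ⟶ C) (m : {m : M₂.V // ∀ g : G, M₂.ρ g m = m}),
        (push₂ (evHom M₂ C m.1 m.2)).hom (dH g) = (-1 : ℤ) • (push₂ g).hom (dM m))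

/-- **(DS-Compat)** The cocycle identity behind the compatibility of the two double shifts:
with lifts `e₁ ↦ m`, `ι₁ ∘ a = d e₁`, `π ∘ ẽ = a`, `ι ∘ y = d ẽ` on the module side and
`g̃ ∘ ι = g`, `b σ ∘ π = (d g̃) σ`, `b̃ σ ∘ ι₁ = b σ`, `z (σ, τ) ∘ π₁ = (d b̃) (σ, τ)` on the `Hom`
side, `z (σ, τ) m = - g (y (σ, τ)) + (d c) (σ, τ)` for
`c σ = b̃ σ e₁ + b σ (a σ) + g̃ (ẽ σ)`. -/
def StmtDSCompat : Prop :=
  ∀ (G : Type) [Group G] (M C E M₁ E₁ M₂ : Rep.{0} ℤ G)
    (ι : M ⟶ E) (π : E ⟶ M₁) (ι₁ : M₁ ⟶ E₁) (π₁ : E₁ ⟶ M₂),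
    Function.Injective ι₁.hom → Function.Surjective π.hom →
    ∀ (e₁ : E₁.V) (a : G → M₁.V) (et : G → E.V) (y : G × G → M.V)
      (g : M ⟶ C) (gt : E.V →+ C.V) (b : G → (M₁.V →+ C.V)) (bt : G → (E₁.V →+ C.V))
      (z : G × G → (M₂.V →+ C.V)),
      (∀ σ : G, ι₁.hom (a σ) = E₁.ρ σ e₁ - e₁) →
      (∀ σ : G, π.hom (et σ) = a σ) →
      (∀ σ τ : G, ι.hom (y (σ, τ)) = E.ρ σ (et τ) - et (σ * τ) + et σ) →
      (∀ m : M.V, gt (ι.hom m) = g.hom m) →
      (∀ (σ : G) (x : E.V), b σ (π.hom x) = C.ρ σ (gt (E.ρ σ⁻¹ x)) - gt x) →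
      (∀ (σ : G) (x : M₁.V), bt σ (ι₁.hom x) = b σ x) →
      (∀ (σ τ : G) (x : E₁.V), z (σ, τ) (π₁.hom x) =
        C.ρ σ (bt τ (E₁.ρ σ⁻¹ x)) - bt (σ * τ) x + bt σ x) →
      ∃ c : G → C.V, ∀ σ τ : G,
        z (σ, τ) (π₁.hom e₁) = - g.hom (y (σ, τ)) + (C.ρ σ (c τ) - c (σ * τ) + c σ)

end Fermat.Agent.PT


end ZBPT_022_10

/-! ### bundled: `Fermat.Agent.PT.A.DSHomPre` -/
section ZBPT_022_11
/-
PT-A piece `DS`, sub-piece `DS-HomPre` (helper9): `Hom(-, C)` turns an additively split short
exact sequence into a short exact sequence.  `stmtHomPre : StmtHomPre`.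
-/

set_option autoImplicit false

namespace Fermat.Agent.PT

open CategoryTheory groupCohomology

attribute [local instance 1100] Rep.hV2

variable {G : Type} [Group G]

/-- Exactness of a short complex of `Rep ℤ G`, elementwise. -/
lemma homPre_exact_iff (S : ShortComplex (Rep.{0} ℤ G)) :
    S.Exact ↔ ∀ y : S.X₂.V, S.g.hom y = 0 → ∃ x : S.X₁.V, S.f.hom x = y := by
  rw [← ShortComplex.exact_map_iff_of_faithful S (forget₂ (Rep.{0} ℤ G) (ModuleCat ℤ)),
    ShortComplex.moduleCat_exact_iff]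
  rfl

/-- **(DS-HomPre)** -/
theorem stmtHomPre : StmtHomPre := by
  intro G _ C X Y Z f g w w' hS hr
  obtain ⟨r, hr⟩ := hr
  have hsurj : Function.Surjective g.hom := (Rep.epi_iff_surjective g).1 hS.epi_g
  have hex : ∀ y : Y.V, g.hom y = 0 → ∃ x : X.V, f.hom x = y :=
    (homPre_exact_iff (ShortComplex.mk f g w)).1 hS.exact
  refine { exact := ?_, mono_f := ?_, epi_g := ?_ }
  · -- exactness in the middle
    rw [homPre_exact_iff]
    intro (ψ : Y.V →+ C.V) hψ
    have hψ' : ∀ x : X.V, ψ (f.hom x) = 0 := fun x => by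
      have := DFunLike.congr_fun (show ((homRepPre f C).hom ψ : X.V →+ C.V) = 0 from hψ) x
      exact this
    have hker : ∀ y : Y.V, g.hom y = 0 → ψ y = 0 := by
      intro y hy
      obtain ⟨x, rfl⟩ := hex y hy
      exact hψ' x
    choose s hs using hsurj
    have hwd : ∀ y : Y.V, ψ (s (g.hom y)) = ψ y := by
      intro y
      have : ψ (s (g.hom y) - y) = 0 := hker _ (by rw [map_sub, hs, sub_self])
      rw [map_sub, sub_eq_zero] at this
      exact this
    refine ⟨(AddMonoidHom.mk' (fun z => ψ (s z)) (fun a b => ?_) : Z.V →+ C.V), ?_⟩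
    · have : ψ (s (a + b) - s a - s b) = 0 :=
        hker _ (by rw [map_sub, map_sub, hs, hs, hs]; abel)
      rw [map_sub, map_sub, sub_sub, sub_eq_zero] at this
      exact this
    · apply AddMonoidHom.ext
      intro y
      exact hwd y
  · -- mono
    refine (Rep.mono_iff_injective _).2 ?_
    intro (φ₁ : Z.V →+ C.V) (φ₂ : Z.V →+ C.V) h
    apply AddMonoidHom.ext
    intro z
    obtain ⟨y, rfl⟩ := hsurj z
    have := DFunLike.congr_fun (show ((homRepPre g C).hom φ₁ : Y.V →+ C.V)
      = (homRepPre g C).hom φ₂ from h) y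
    exact this
  · -- epi
    refine (Rep.epi_iff_surjective _).2 ?_
    intro (χ : X.V →+ C.V)
    refine ⟨(χ.comp r : Y.V →+ C.V), ?_⟩
    apply AddMonoidHom.ext
    intro x
    change χ (r (f.hom x)) = χ x
    rw [hr]

end Fermat.Agent.PT


end ZBPT_022_11

/-! ### bundled: `Fermat.Agent.PT.A.DSCompat` -/
section ZBPT_022_12
/-
PT-A piece `DS-Compat` (helper60): the cocycle identity behind the compatibility of the two
double dimension shifts.

With `d f (σ, τ) = σ • f τ - f (σ τ) + f σ`: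
 1. `a`, `b` are cocycles (`ι₁` injective, `π` surjective) and `a σ⁻¹ = - σ⁻¹ • a σ`;
 2. `σ⁻¹ • e₁ = e₁ + ι₁ (a σ⁻¹)`, so `z (σ, τ) (π₁ e₁) = d β - P` with `β σ = b̃ σ e₁` and
    `P = σ • b τ (σ⁻¹ • a σ) = b (σ τ) (a σ) - b σ (a σ)`;
 3. with `w σ = b σ (a σ)` and `Q = b σ (σ • a τ)`: `P + Q = - d w`;
 4. `Q = σ • g̃ (ẽ τ) - g̃ (σ • ẽ τ) = d γ - g (y)` with `γ σ = g̃ (ẽ σ)`.
Hence `z (σ, τ) (π₁ e₁) = - g (y (σ, τ)) + d (β + w + γ) (σ, τ)`.
-/

set_option autoImplicit false

namespace Fermat.Agent.PT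

open CategoryTheory groupCohomology

attribute [local instance 1100] Rep.hV2

/-- **(DS-Compat)** The cocycle identity behind the compatibility of the two double shifts. -/
theorem stmtDSCompat : StmtDSCompat := by
  intro G _ M C E M₁ E₁ M₂ ι π ι₁ π₁ hι₁ hπ e₁ a et y g gt b bt z ha het hy hgt hb hbt hz
  -- `a` is a cocycle
  have ha_coc : ∀ σ τ : G, a (σ * τ) = M₁.ρ σ (a τ) + a σ := by
    intro σ τ
    apply hι₁
    rw [map_add, Rep.hom_comm_apply, ha, ha, ha, map_mul, Module.End.mul_apply, map_sub]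
    abel
  -- `a σ⁻¹ = - σ⁻¹ • a σ`
  have ha_inv : ∀ σ : G, a σ⁻¹ = - M₁.ρ σ⁻¹ (a σ) := by
    intro σ
    apply hι₁
    rw [map_neg, Rep.hom_comm_apply, ha, ha, map_sub]
    have : E₁.ρ σ⁻¹ (E₁.ρ σ e₁) = e₁ := by
      rw [← Module.End.mul_apply, ← map_mul, inv_mul_cancel, map_one, Module.End.one_apply]
    rw [this]
    abel
  -- `b` is a cocycle
  have hb_coc : ∀ (σ τ : G) (x : M₁.V),
      b (σ * τ) x = C.ρ σ (b τ (M₁.ρ σ⁻¹ x)) + b σ x := by
    intro σ τ x
    obtain ⟨x', rfl⟩ := hπ x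
    rw [← Rep.hom_comm_apply, hb, hb, hb, map_sub, mul_inv_rev, map_mul (E.ρ),
      Module.End.mul_apply, map_mul (C.ρ), Module.End.mul_apply]
    abel
  -- `σ⁻¹ • e₁ = e₁ + ι₁ (a σ⁻¹)`
  have he₁ : ∀ σ : G, E₁.ρ σ⁻¹ e₁ = e₁ + ι₁.hom (a σ⁻¹) := by
    intro σ
    rw [ha]
    abel
  refine ⟨fun σ => bt σ e₁ + b σ (a σ) + gt (et σ), ?_⟩
  intro σ τ
  -- the term `P`
  have hP : C.ρ σ (b τ (M₁.ρ σ⁻¹ (a σ))) = b (σ * τ) (a σ) - b σ (a σ) := by
    rw [hb_coc σ τ (a σ)]
    abel
  -- the term `Q`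
  have hQ : b σ (M₁.ρ σ (a τ)) = C.ρ σ (gt (et τ)) - gt (E.ρ σ (et τ)) := by
    rw [← het τ, ← Rep.hom_comm_apply, hb]
    have : E.ρ σ⁻¹ (E.ρ σ (et τ)) = et τ := by
      rw [← Module.End.mul_apply, ← map_mul, inv_mul_cancel, map_one, Module.End.one_apply]
    rw [this]
  -- `b (σ τ) (σ • a τ) = σ • b τ (a τ) + Q`
  have hR : b (σ * τ) (M₁.ρ σ (a τ)) = C.ρ σ (b τ (a τ)) + b σ (M₁.ρ σ (a τ)) := by
    rw [hb_coc σ τ]
    have : M₁.ρ σ⁻¹ (M₁.ρ σ (a τ)) = a τ := by
      rw [← Module.End.mul_apply, ← map_mul, inv_mul_cancel, map_one, Module.End.one_apply]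
    rw [this]
  -- `g (y (σ, τ))`
  have hg : g.hom (y (σ, τ)) = gt (E.ρ σ (et τ)) - gt (et (σ * τ)) + gt (et σ) := by
    rw [← hgt, hy, map_add, map_sub]
  -- the left-hand side
  have hz' : z (σ, τ) (π₁.hom e₁) =
      C.ρ σ (bt τ e₁) + C.ρ σ (b τ (a σ⁻¹)) - bt (σ * τ) e₁ + bt σ e₁ := by
    rw [hz, he₁ σ, map_add, hbt, map_add]
  have hw : b (σ * τ) (a (σ * τ)) = b (σ * τ) (M₁.ρ σ (a τ)) + b (σ * τ) (a σ) := by
    rw [ha_coc, map_add]
  have hneg : C.ρ σ (b τ (a σ⁻¹)) = - C.ρ σ (b τ (M₁.ρ σ⁻¹ (a σ))) := by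
    rw [ha_inv, map_neg, map_neg]
  rw [hz', hneg, hP, hg]
  simp only [map_add]
  rw [hw, hR, hQ]
  abel

end Fermat.Agent.PT


end ZBPT_022_12

/-! ### bundled: `Fermat.Agent.PT.A.DSCoind` -/
section ZBPT_022_13

/-!
# PT-A piece DS-Coind: `Coind_1^G A` is weakly injective, and `A → Coind_1^G A` is additively
split.

* `stmtCoindWI : StmtCoindWI`
* `coindTriv_retraction A : ∃ r : (coindTriv A).V →+ A.V, ∀ a, r ((unitHom A).hom a) = a`
-/

set_option autoImplicit false

namespace Fermat.Agent.PT.DSCoind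

open CategoryTheory groupCohomology
open Fermat.Agent.PT.SylowRes Fermat.Agent.PT.HomCoind

attribute [local instance 1100] Rep.hV2

variable {G : Type} [Group G]

/-- Build an element of `Coind_1^G A` from a function. -/
noncomputable def mkCoind (A : Rep.{0} ℤ G) (f : G → A.V) : (coindTriv A).V :=
  ⟨f, mem_coindV_bot _ f⟩

@[simp] lemma mkCoind_val (A : Rep.{0} ℤ G) (f : G → A.V) (x : G) :
    (mkCoind A f).1 x = f x := rfl

lemma coindTriv_ρ_apply (A : Rep.{0} ℤ G) (g : G) (f : (coindTriv A).V) (x : G) :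
    ((coindTriv A).ρ g f).1 x = f.1 (x * g) := rfl

lemma coindTriv_ext (A : Rep.{0} ℤ G) {f f' : (coindTriv A).V}
    (h : ∀ x, f.1 x = f'.1 x) : f = f' :=
  Subtype.ext (funext h)

lemma unitHom_apply (A : Rep.{0} ℤ G) (a : A.V) (x : G) :
    ((unitHom A).hom a).1 x = A.ρ x a := rfl

/-- Evaluation at `x`, as an additive map `Coind_1^G A → A`. -/
noncomputable def evalAt (A : Rep.{0} ℤ G) (x : G) : (coindTriv A).V →+ A.V where
  toFun f := f.1 x
  map_zero' := rfl
  map_add' _ _ := rfl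

@[simp] lemma evalAt_apply (A : Rep.{0} ℤ G) (x : G) (f : (coindTriv A).V) :
    evalAt A x f = f.1 x := rfl

lemma sum_val_apply {ι : Type} (A : Rep.{0} ℤ G) (s : Finset ι) (F : ι → (coindTriv A).V)
    (x : G) : (∑ i ∈ s, F i).1 x = ∑ i ∈ s, (F i).1 x :=
  map_sum (evalAt A x) F s

/-- `f ↦ f 1 • δ₁`. -/
noncomputable def deltaOne [DecidableEq G] (A : Rep.{0} ℤ G) :
    (coindTriv A).V →+ (coindTriv A).V where
  toFun f := mkCoind A (fun x => if x = 1 then f.1 1 else 0)
  map_zero' := by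
    apply coindTriv_ext
    intro x
    change (if x = 1 then (0 : A.V) else 0) = 0
    simp
  map_add' f g := by
    apply coindTriv_ext
    intro x
    change (if x = 1 then (f.1 1 + g.1 1) else 0) =
      (if x = 1 then f.1 1 else 0) + (if x = 1 then g.1 1 else 0)
    split_ifs <;> simp

lemma deltaOne_apply [DecidableEq G] (A : Rep.{0} ℤ G) (f : (coindTriv A).V) (x : G) :
    (deltaOne A f).1 x = if x = 1 then f.1 1 else 0 := rfl

end Fermat.Agent.PT.DSCoind

namespace Fermat.Agent.PT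

open CategoryTheory groupCohomology
open Fermat.Agent.PT.SylowRes Fermat.Agent.PT.HomCoind Fermat.Agent.PT.DSCoind

attribute [local instance 1100] Rep.hV2

/-- The unit `A → Coind_1^G A` is additively split (evaluation at `1`). -/
theorem coindTriv_retraction {G : Type} [Group G] (A : Rep.{0} ℤ G) :
    ∃ r : (coindTriv A).V →+ A.V, ∀ a : A.V, r ((unitHom A).hom a) = a := by
  refine ⟨evalAt A 1, fun a => ?_⟩
  rw [evalAt_apply, unitHom_apply, map_one]
  rfl

/-- **(DS-CoindWI)** `Coind_1^G A` is weakly injective. -/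
theorem stmtCoindWI : StmtCoindWI := by
  classical
  intro G _ _ A
  refine ⟨deltaOne A, fun f => ?_⟩
  apply coindTriv_ext
  intro x
  rw [sum_val_apply, Finset.sum_eq_single (x⁻¹ : G)]
  · rw [coindTriv_ρ_apply, deltaOne_apply, if_pos (mul_inv_cancel x), coindTriv_ρ_apply,
      inv_inv, one_mul]
  · intro γ _ hγ
    rw [coindTriv_ρ_apply, deltaOne_apply, if_neg]
    intro h
    exact hγ (eq_inv_of_mul_eq_one_right h)
  · intro h
    exact absurd (Finset.mem_univ _) h

end Fermat.Agent.PT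


end ZBPT_022_13

/-! ### bundled: `Fermat.Agent.PT.A.DS` -/
section ZBPT_022_14
/-
PT-A piece `DS`, final assembly (helper9):
`stmtDS_of : StmtDSAbs → StmtCoindWI → StmtShiftFree → StmtDS`
(`E = Coind_1^G M`, `M₁ = E / M`, `E₁ = Coind_1^G M₁`, `M₂ = E₁ / M₁`, sign `ε = -1`).
-/

set_option autoImplicit false

namespace Fermat.Agent.PT

open CategoryTheory groupCohomology

attribute [local instance 1100] Rep.hV2

theorem stmtDS_of (hAbs : StmtDSAbs) (hWI : StmtCoindWI) (hFree : StmtShiftFree) : StmtDS := by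
  intro G _ _ M C hM
  have hM₁ : IsZFree (SylowRes.shiftSC M).X₃ := hFree G M hM
  have hM₂ : IsZFree (SylowRes.shiftSC (SylowRes.shiftSC M).X₃).X₃ := hFree G _ hM₁
  obtain ⟨dM, dH, h1, h2, h3, h4, h5⟩ :=
    hAbs G M C (SylowRes.coindTriv M) (SylowRes.shiftSC M).X₃
      (SylowRes.coindTriv (SylowRes.shiftSC M).X₃)
      (SylowRes.shiftSC (SylowRes.shiftSC M).X₃).X₃
      (SylowRes.shiftSC M).f (SylowRes.shiftSC M).g
      (SylowRes.shiftSC (SylowRes.shiftSC M).X₃).f (SylowRes.shiftSC (SylowRes.shiftSC M).X₃).g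
      (SylowRes.shiftSC M).zero (SylowRes.shiftSC (SylowRes.shiftSC M).X₃).zero
      (SylowRes.shiftSC_shortExact M) (SylowRes.shiftSC_shortExact _)
      (hWI G M) (hWI G _)
      (coindTriv_retraction M) (coindTriv_retraction _)
  exact ⟨_, dM, dH, -1, hM₂, Or.inr rfl, h1, h2, h3, h4, h5⟩

end Fermat.Agent.PT


end ZBPT_022_14

/-! ### bundled: `Fermat.Agent.PT.F.InflInj` -/
section ZBPT_022_15
/-
PT-F piece F1a-fin `StmtInflInjFin` (helper86): `p`-primary inflation is injective in degree 2.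

Direct cocycle proof (no quotient groups, no norm map):
* `h1Kill_of_pgroups`: if `H¹(H, C') = 0` for all `p`-subgroups `H ≤ Γ'`, then for `K = ker φ`
  every 1-cocycle `K → C'` is killed by `m = [K : Q]` (`Q` a Sylow `p`-subgroup of `K`) up to a
  coboundary (helper11's `index_smul_mem_coboundaries_of_vanish`);
* `inflInj_aux`: the `m`-version of the injectivity part of inflation–restriction: if every
  1-cocycle on `K` becomes a coboundary after multiplication by `m`, then `m` kills the kernel of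
  `H²(Γ, C₀) → H²(Γ', C')`;
* Bezout.
-/

set_option autoImplicit false
set_option linter.style.haveILetI false
set_option linter.unusedSectionVars false

attribute [-instance] AddCommGroup.toIntModule

namespace Fermat.Agent.PT.F.InflInj

open CategoryTheory groupCohomology Rep Fermat.Agent.PT

variable {Γ' Γ : Type} [Group Γ'] [Group Γ]

/-- Every 1-cocycle `K → C'` becomes a coboundary after multiplication by `m`. -/
def H1Kill (K : Subgroup Γ') (C' : Rep.{0} ℤ Γ') (m : ℕ) : Prop :=
  ∀ c : K → C'.V, (∀ n k : K, c (n * k) = C'.ρ n (c k) + c n) →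
    ∃ a : C'.V, ∀ n : K, m • c n = C'.ρ n a - a

theorem h1Kill_of_pgroups (p : ℕ) [Fact p.Prime] [Finite Γ'] (K : Subgroup Γ')
    (C' : Rep.{0} ℤ Γ')
    (h : ∀ H : Subgroup Γ', IsPGroup p H → Subsingleton (H1 (Rep.res H.subtype C'))) :
    ∃ m : ℕ, ¬ p ∣ m ∧ H1Kill K C' m := by
  classical
  obtain ⟨Q⟩ : Nonempty (Sylow p K) := inferInstance
  refine ⟨(Q : Subgroup K).index, Q.not_dvd_index, ?_⟩
  intro c hc
  set H : Subgroup Γ' := (Q : Subgroup K).map K.subtype with hH
  have hHp : IsPGroup p H := Q.2.map K.subtype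
  have hHK : ∀ g ∈ H, g ∈ K := by
    rintro g ⟨q, -, rfl⟩
    exact q.2
  have hHQ : ∀ g (hg : g ∈ H), (⟨g, hHK g hg⟩ : K) ∈ (Q : Subgroup K) := by
    rintro g ⟨q, hq, rfl⟩
    exact hq
  have hQH : ∀ q : K, q ∈ (Q : Subgroup K) → (q : Γ') ∈ H := fun q hq => ⟨q, hq, rfl⟩
  have hsub := h H hHp
  let c' : H → C'.V := fun g => c ⟨g.1, hHK g.1 g.2⟩
  have hc' : c' ∈ cocycles₁ (Rep.res H.subtype C') := by
    rw [mem_cocycles₁_iff]
    intro a b
    exact hc ⟨a.1, hHK a.1 a.2⟩ ⟨b.1, hHK b.1 b.2⟩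
  have h0 : H1π (Rep.res H.subtype C') ⟨c', hc'⟩ = 0 := Subsingleton.elim _ _
  rw [H1π_eq_zero_iff] at h0
  obtain ⟨a, ha⟩ := h0
  have ha' : ∀ q : K, q ∈ (Q : Subgroup K) → c q = C'.ρ q a - a := by
    intro q hq
    have := congrFun ha ⟨(q : Γ'), hQH q hq⟩
    simp only [d₀₁_hom_apply] at this
    exact this.symm
  have hcK : c ∈ cocycles₁ (Rep.res K.subtype C') := by
    rw [mem_cocycles₁_iff]
    exact fun n k => hc n k
  let f' : cocycles₁ (Rep.res K.subtype C') :=
    ⟨c, hcK⟩ - ⟨(d₀₁ (Rep.res K.subtype C')).hom a,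
      d₀₁_apply_mem_cocycles₁ (A := Rep.res K.subtype C') a⟩
  have hf'v : ∀ n : K, f' n = c n - (C'.ρ n a - a) := fun n => rfl
  have hf' : ∀ q : (Q : Subgroup K), f' (q : K) = 0 := by
    intro q
    rw [hf'v, ha' q q.2, sub_self]
  obtain ⟨b, hb⟩ := SylowRes.index_smul_mem_coboundaries_of_vanish (Rep.res K.subtype C')
    (Q : Subgroup K) f' hf'
  refine ⟨b + (Q : Subgroup K).index • a, fun n => ?_⟩
  have h1 := congrFun hb n
  rw [d₀₁_hom_apply] at h1
  have h2 : (Q : Subgroup K).index • (c n - (C'.ρ n a - a)) = C'.ρ n b - b := by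
    rw [← hf'v]
    exact h1.symm
  rw [map_add, map_nsmul]
  rw [smul_sub, smul_sub] at h2
  linear_combination (norm := abel) h2

theorem inflInj_aux (φ : Γ' →* Γ) (hφ : Function.Surjective φ) (C' : Rep.{0} ℤ Γ')
    (C₀ : Rep.{0} ℤ Γ) (ι : Rep.res φ C₀ ⟶ C') (hι : Function.Injective ι.hom)
    (hinvar : ∀ c : C'.V, (∀ γ : Γ', φ γ = 1 → C'.ρ γ c = c) → ∃ c₀ : C₀.V, ι.hom c₀ = c)
    (m : ℕ) (hK : H1Kill φ.ker C' m)
    (x : cocycles₂ C₀) (hx : H2π C' (mapCocycles₂ φ ι x) = 0) :
    m • H2π C₀ x = 0 := by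
  classical
  rw [H2π_eq_zero_iff] at hx
  obtain ⟨y, hy⟩ := hx
  have hιρ : ∀ (g : Γ') (v : C₀.V), ι.hom (C₀.ρ (φ g) v) = C'.ρ g (ι.hom v) := fun g v =>
    Rep.hom_comm_apply ι g v
  have hf : ∀ g h : Γ', C'.ρ g (y h) - y (g * h) + y g = ι.hom (x (φ g, φ h)) := by
    intro g h
    have := congrFun hy (g, h)
    rw [d₁₂_hom_apply] at this
    exact this
  set c : C'.V := ι.hom (x (1, 1)) with hc
  have hmem : ∀ n : Γ', n ∈ φ.ker ↔ φ n = 1 := fun n => MonoidHom.mem_ker
  have hcinv : ∀ n ∈ φ.ker, C'.ρ n c = c := by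
    intro n hn
    rw [hc, ← hιρ, (hmem n).1 hn, map_one]
    rfl
  have hx1 : ∀ g : Γ', ι.hom (x (1, φ g)) = c := by
    intro g
    rw [cocycles₂_map_one_fst x (φ g)]
  have hx2 : ∀ g : Γ', ι.hom (x (φ g, 1)) = C'.ρ g c := by
    intro g
    rw [cocycles₂_map_one_snd x (φ g), hιρ]
  obtain ⟨a, ha⟩ := hK (fun n : φ.ker => y n - c) (by
    intro n k
    have := hf n k
    rw [(hmem n).1 n.2, (hmem k).1 k.2] at this
    simp only [Subgroup.coe_mul, map_sub, hcinv n n.2]
    linear_combination (norm := abel) -this)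
  set y₁ : Γ' → C'.V := fun g => m • y g - (C'.ρ g a - a) with hy₁
  have hf₁ : ∀ g h : Γ', C'.ρ g (y₁ h) - y₁ (g * h) + y₁ g = m • ι.hom (x (φ g, φ h)) := by
    intro g h
    rw [← hf g h]
    simp only [hy₁, map_sub, map_mul, Module.End.mul_apply, map_nsmul, smul_add, smul_sub]
    abel
  have hy₁N : ∀ n ∈ φ.ker, y₁ n = m • c := by
    intro n hn
    have := ha ⟨n, hn⟩
    simp only [] at this
    simp only [hy₁]
    rw [smul_sub] at this
    linear_combination (norm := abel) this
  have hr : ∀ g, ∀ n ∈ φ.ker, y₁ (g * n) = y₁ g := by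
    intro g n hn
    have := hf₁ g n
    rw [(hmem n).1 hn, hx2, hy₁N n hn, map_nsmul] at this
    linear_combination (norm := abel) -this
  have hnorm : ∀ (g n : Γ'), n ∈ φ.ker → g⁻¹ * n * g ∈ φ.ker := by
    intro g n hn
    rw [hmem] at hn ⊢
    simp [hn]
  have hinv : ∀ g, ∀ n ∈ φ.ker, C'.ρ n (y₁ g) = y₁ g := by
    intro g n hn
    have := hf₁ n g
    rw [(hmem n).1 hn, hx1, hy₁N n hn] at this
    have e : n * g = g * (g⁻¹ * n * g) := by group
    rw [e, hr _ _ (hnorm g n hn)] at this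
    linear_combination (norm := abel) this
  have hex : ∀ γ : Γ, ∃ c₀ : C₀.V, ι.hom c₀ = y₁ (Function.surjInv hφ γ) := fun γ =>
    hinvar _ (fun n hn => hinv _ n ((hmem n).2 hn))
  choose yb hyb0 using hex
  have hyb : ∀ g : Γ', ι.hom (yb (φ g)) = y₁ g := by
    intro g
    rw [hyb0]
    have h1 : φ (Function.surjInv hφ (φ g)) = φ g := Function.surjInv_eq hφ (φ g)
    have h2 : g⁻¹ * Function.surjInv hφ (φ g) ∈ φ.ker := by
      rw [hmem, map_mul, map_inv, h1, inv_mul_cancel]
    have := hr g _ h2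
    rw [mul_inv_cancel_left] at this
    exact this
  rw [← map_nsmul, H2π_eq_zero_iff]
  refine ⟨yb, ?_⟩
  funext ⟨γ, δ⟩
  obtain ⟨g, rfl⟩ := hφ γ
  obtain ⟨h, rfl⟩ := hφ δ
  apply hι
  rw [d₁₂_hom_apply]
  simp only []
  rw [map_add, map_sub, hιρ, ← map_mul, hyb, hyb, hyb, hf₁]
  change m • ι.hom (x (φ g, φ h)) = ι.hom (m • (x (φ g, φ h)))
  rw [map_nsmul]

end Fermat.Agent.PT.F.InflInj

namespace Fermat.Agent.PT.F

open CategoryTheory groupCohomology Rep Fermat.Agent.PT InflInj

theorem stmtInflInjFin : StmtInflInjFin := by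
  intro p _ Γ' Γ _ _ _ φ hφ C' C₀ ι hι hinvar hH x hx hx0
  obtain ⟨m, hm, hK⟩ := h1Kill_of_pgroups p φ.ker C' hH
  obtain ⟨k, hk⟩ := hx
  have hmx : m • x = 0 := by
    induction x using H2_induction_on with | @h x =>
    have key := H2π_comp_map_apply φ ι x
    exact inflInj_aux φ hφ C' C₀ ι hι hinvar m hK x (key.symm.trans hx0)
  have hcop : Nat.Coprime (p ^ k) m :=
    Nat.Coprime.pow_left k ((Nat.Prime.coprime_iff_not_dvd Fact.out).2 hm)
  by_cases hk1 : p ^ k = 1
  · rw [hk1, one_nsmul] at hk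
    exact hk
  · have h1lt : 1 < p ^ k := lt_of_le_of_ne (Nat.one_le_pow _ _ (Fact.out : p.Prime).pos)
      (Ne.symm hk1)
    obtain ⟨u, -, hu⟩ := Nat.exists_mul_mod_eq_one_of_coprime hcop.symm h1lt
    have h2 : m * u = p ^ k * (m * u / p ^ k) + 1 := by
      have := Nat.div_add_mod (m * u) (p ^ k)
      rw [hu] at this
      exact this.symm
    have h3 : (m * u) • x = 0 := by
      rw [mul_comm, mul_nsmul', hmx, nsmul_zero]
    rw [h2, add_nsmul, mul_comm, mul_nsmul', hk, nsmul_zero, zero_add, one_nsmul] at h3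
    exact h3

end Fermat.Agent.PT.F


end ZBPT_022_15

/-! ### bundled: `Fermat.Agent.PT.F.H2pCyclic` -/
section ZBPT_022_16

/-!
# PT-F / F1b-fin: with a `p`-fundamental class, `H²(Γ, C)[p]` is cyclic

Restriction to a Sylow `p`-subgroup `P` is injective on `p`-primary classes (`stmtSylow`), and
`H²(P, C)` is a finite cyclic group; in a finite cyclic group every nonzero element killed by `p`
generates the `p`-torsion.
-/

set_option autoImplicit false

open CategoryTheory groupCohomology Fermat.Agent.PT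

namespace Fermat.Agent.PT.F

/-- In a finite cyclic group, a nonzero element killed by the prime `p` generates the
`p`-torsion. -/
theorem h2p_exists_nsmul_eq_of_cyclic {Z : Type*} [AddCommGroup Z] [Finite Z] [IsAddCyclic Z]
    {p : ℕ} (hp : p.Prime) {a b : Z} (ha : p • a = 0) (hb : p • b = 0) (ha0 : a ≠ 0) :
    ∃ n : ℕ, b = n • a := by
  classical
  have : Fintype Z := Fintype.ofFinite Z
  have ho : addOrderOf a = p := by
    have : Fact p.Prime := ⟨hp⟩
    exact addOrderOf_eq_prime ha ha0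
  set T : Finset Z := Finset.univ.filter (fun z => p • z = 0) with hT
  have hTcard : T.card ≤ p := IsAddCyclic.card_nsmul_eq_zero_le hp.pos
  set S : Finset Z := (Finset.range p).image (fun i => i • a) with hS
  have hScard : S.card = p := by
    rw [hS, Finset.card_image_of_injOn, Finset.card_range]
    intro i hi j hj hij
    have hi' : i ∈ Set.Iio (addOrderOf a) := by
      rw [ho]; simpa using hi
    have hj' : j ∈ Set.Iio (addOrderOf a) := by
      rw [ho]; simpa using hj
    exact nsmul_injOn_Iio_addOrderOf hi' hj' hij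
  have hST : S ⊆ T := by
    intro z hz
    rw [hS, Finset.mem_image] at hz
    obtain ⟨i, -, rfl⟩ := hz
    rw [hT, Finset.mem_filter]
    refine ⟨Finset.mem_univ _, ?_⟩
    rw [smul_comm, ha, smul_zero]
  have hEq : S = T := Finset.eq_of_subset_of_card_le hST (by rw [hScard]; exact hTcard)
  have hbT : b ∈ T := by
    rw [hT, Finset.mem_filter]
    exact ⟨Finset.mem_univ _, hb⟩
  rw [← hEq, hS, Finset.mem_image] at hbT
  obtain ⟨i, -, hi⟩ := hbT
  exact ⟨i, hi.symm⟩

/-- **F1b-fin**. -/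
theorem stmtH2pCyclic : StmtH2pCyclic := by
  intro p _ Γ _ _ C u hu x y hx hy hx0
  have hp : p.Prime := Fact.out
  obtain ⟨P⟩ : Nonempty (Sylow p Γ) := inferInstance
  have hP : IsPGroup p (P : Subgroup Γ) := P.isPGroup'
  set r := (resSub C (P : Subgroup Γ) 2).hom with hr
  -- the target is finite cyclic
  have hcard := hu.h2_card (P : Subgroup Γ) hP
  have hfin : Finite (H2 (Rep.res (P : Subgroup Γ).subtype C)) := by
    apply Nat.finite_of_card_ne_zero
    rw [hcard]
    exact Nat.card_pos.ne'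
  have hcyc : IsAddCyclic (H2 (Rep.res (P : Subgroup Γ).subtype C)) := by
    refine ⟨⟨r u, fun z => ?_⟩⟩
    obtain ⟨n, hn⟩ := hu.h2_gen (P : Subgroup Γ) hP z
    exact AddSubgroup.mem_zmultiples_iff.2 ⟨n, hn⟩
  -- Sylow injectivity
  have hinj : ∀ z : H2 C, p • z = 0 → r z = 0 → z = 0 := by
    intro z hz hrz
    exact stmtSylow p Γ C P 2 z (by norm_num) ⟨1, by rwa [pow_one]⟩ hrz
  have hrx0 : r x ≠ 0 := fun h => hx0 (hinj x hx h)
  have hrx : p • r x = 0 := by rw [← map_nsmul, hx, map_zero]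
  have hry : p • r y = 0 := by rw [← map_nsmul, hy, map_zero]
  obtain ⟨n, hn⟩ := h2p_exists_nsmul_eq_of_cyclic hp hrx hry hrx0
  refine ⟨n, ?_⟩
  have hz : p • (y - n • x) = 0 := by
    rw [smul_sub, hy, smul_comm, hx, smul_zero, sub_zero]
  have hrz : r (y - n • x) = 0 := by
    rw [map_sub, map_nsmul, hn, sub_self]
  exact sub_eq_zero.1 (hinj _ hz hrz)

end Fermat.Agent.PT.F


end ZBPT_022_16

/-! ### bundled: `Fermat.Agent.PT.F.TNDual` -/
section ZBPT_022_17

/-!
# PT-F / F-TNDual: `StmtTN'` implies `StmtTNDual`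

Pontryagin duality for finite abelian groups (Mathlib: `CommGroup.subgroupOrderIsoSubgroupMonoidHom`)
with values in the finite cyclic group `Z = H²(P, C)`, `P` a Sylow `p`-subgroup:
* `N ≤ H²(G, M)` is finite (`H²(G, M)` is of finite type and killed by `|G|`) and killed by `|P|`;
* the maps `y ↦ res_P (g_* y)`, `g : M ⟶ C`, form a subgroup of `Hom(N, Z)` separating the points
  of `N` (`StmtTN'` and Sylow injectivity), hence all of `Hom(N, Z)`;
* so `res_P ∘ ψ = res_P ∘ g_*` for some `g`, and `ψ = g_*` on `N` by Sylow injectivity again.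
-/

set_option autoImplicit false

namespace Fermat.Agent.PT.F

/-- A finite cyclic group has enough roots of unity of order its cardinality. -/
theorem tnd_hasEnough (Z : Type*) [AddCommGroup Z] [Finite Z] [IsAddCyclic Z] :
    HasEnoughRootsOfUnity (Multiplicative Z) (Nat.card Z) where
  prim := by
    obtain ⟨g, hg⟩ := IsCyclic.exists_generator (α := Multiplicative Z)
    refine ⟨g, ?_⟩
    have h : orderOf g = Nat.card (Multiplicative Z) := orderOf_eq_card_of_forall_mem_zpowers hg
    rw [IsPrimitiveRoot.iff_orderOf, h]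
    rfl
  cyc := by
    have : IsCyclic (Multiplicative Z)ˣ :=
      isCyclic_of_surjective (toUnits (G := Multiplicative Z)) (toUnits (G := Multiplicative Z)).surjective
    infer_instance

/-- Pontryagin duality for a finite abelian group `N` with values in a finite cyclic group `Z`
whose order kills `N`: a subgroup of `Hom(N, Z)` which separates the points of `N` is everything. -/
theorem tnd_mem_of_separating {N Z : Type*} [AddCommGroup N] [Finite N] [AddCommGroup Z] [Finite Z]
    [IsAddCyclic Z] (hexp : ∀ y : N, Nat.card Z • y = 0)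
    (E : AddSubgroup (N →+ Z)) (hsep : ∀ y : N, y ≠ 0 → ∃ e ∈ E, e y ≠ 0) (ψ : N →+ Z) :
    ψ ∈ E := by
  classical
  let Θ : (N →+ Z) → (Multiplicative N →* (Multiplicative Z)ˣ) := fun ψ =>
    (toUnits (G := Multiplicative Z)).toMonoidHom.comp (AddMonoidHom.toMultiplicative ψ)
  have hΘ : ∀ (ψ : N →+ Z) (g : Multiplicative N),
      ((Θ ψ g : (Multiplicative Z)ˣ) : Multiplicative Z) = Multiplicative.ofAdd (ψ g.toAdd) :=
    fun ψ g => rfl
  have hΘ1 : ∀ (ψ : N →+ Z) (g : Multiplicative N), Θ ψ g = 1 ↔ ψ g.toAdd = 0 := by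
    intro ψ g
    rw [← Units.val_inj, hΘ]
    exact Iff.rfl
  have hΘinj : Function.Injective Θ := by
    intro a b hab
    ext y
    have := congrArg (fun χ : Multiplicative N →* (Multiplicative Z)ˣ =>
      ((χ (Multiplicative.ofAdd y) : (Multiplicative Z)ˣ) : Multiplicative Z)) hab
    exact this
  let Φ : Subgroup (Multiplicative N →* (Multiplicative Z)ˣ) :=
    { carrier := {χ | ∃ e ∈ E, Θ e = χ}
      one_mem' := ⟨0, E.zero_mem, by ext g; rfl⟩
      mul_mem' := by
        rintro _ _ ⟨a, ha, rfl⟩ ⟨b, hb, rfl⟩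
        exact ⟨a + b, E.add_mem ha hb, by ext g; rfl⟩
      inv_mem' := by
        rintro _ ⟨a, ha, rfl⟩
        exact ⟨-a, E.neg_mem ha, by ext g; rfl⟩ }
  have hne : NeZero (Nat.card Z) := ⟨Nat.card_pos.ne'⟩
  have hexpdvd : Monoid.exponent (Multiplicative N) ∣ Nat.card Z :=
    Monoid.exponent_dvd_of_forall_pow_eq_one fun g => by
      have := hexp g.toAdd
      exact congrArg Multiplicative.ofAdd this
  have h1 : HasEnoughRootsOfUnity (Multiplicative Z) (Nat.card Z) := tnd_hasEnough Z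
  have h2 : HasEnoughRootsOfUnity (Multiplicative Z) (Monoid.exponent (Multiplicative N)) :=
    HasEnoughRootsOfUnity.of_dvd (Multiplicative Z) hexpdvd
  let iso := CommGroup.subgroupOrderIsoSubgroupMonoidHom (Multiplicative N) (Multiplicative Z)
  have hbot : iso.symm (OrderDual.toDual Φ) = ⊥ := by
    rw [eq_bot_iff]
    intro g hg
    rw [CommGroup.mem_subgroupOrderIsoSubgroupMonoidHom_symm_iff] at hg
    rw [Subgroup.mem_bot]
    by_contra hg1
    have hy : g.toAdd ≠ 0 := fun h => hg1 (by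
      have := congrArg Multiplicative.ofAdd h
      simpa using this)
    obtain ⟨e, he, hey⟩ := hsep _ hy
    exact hey ((hΘ1 e g).1 (hg (Θ e) ⟨e, he, rfl⟩))
  have hΦ : Φ = OrderDual.ofDual (iso ⊥) := by
    rw [← hbot, OrderIso.apply_symm_apply]
    rfl
  have hmem : Θ ψ ∈ Φ := by
    rw [hΦ, CommGroup.mem_subgroupOrderIsoSubgroupMonoidHom_iff]
    intro g hg
    rw [Subgroup.mem_bot] at hg
    rw [hg, map_one]
  obtain ⟨e, he, heq⟩ := hmem
  rwa [← hΘinj heq]


open CategoryTheory groupCohomology Fermat.Agent.PT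

/-- A torsion abelian group which is the image of a `ℤ`-module of finite type is finite
(instance-free form: the `ℤ`-module structure on the source is arbitrary). -/
theorem tnd_finite_of_surjective {A B : Type*} [AddCommGroup A] [AddCommGroup B]
    (instA : Module ℤ A) (hA : @Module.Finite ℤ A _ _ instA) (f : A →+ B)
    (hf : Function.Surjective f) (n : ℕ) (hn : 0 < n) (hk : ∀ b : B, n • b = 0) : Finite B := by
  obtain rfl : instA = AddCommGroup.toIntModule A := Subsingleton.elim _ _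
  have h4 : Module.Finite ℤ B := Module.Finite.of_surjective f.toIntLinearMap hf
  apply Module.finite_of_fg_torsion
  intro x
  refine ⟨⟨(n : ℤ), ?_⟩, ?_⟩
  · rw [mem_nonZeroDivisors_iff_ne_zero]
    exact_mod_cast hn.ne'
  · show (n : ℤ) • x = 0
    rw [natCast_zsmul]
    exact hk x

/-- Submodules of a finite power of a module of finite type over a noetherian ring are of
finite type (stated for a general ring so that the instance paths are the generic ones). -/
theorem tnd_finite_submodule_pi {R ι V : Type*} [CommRing R] [IsNoetherianRing R] [Finite ι]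
    [AddCommGroup V] [Module R V] [Module.Finite R V] (S : Submodule R (ι → V)) :
    Module.Finite R S := by
  have : IsNoetherian R (ι → V) := inferInstance
  infer_instance

/-- `H²(G, M)` is finite for a finite group `G` and a `ℤ`-module `M` of finite type. -/
theorem tnd_finite_H2 {G : Type} [Group G] [Fintype G] (M : Rep.{0} ℤ G)
    (instM : Module ℤ M.V) (hfin : @Module.Finite ℤ M.V _ _ instM) : Finite (H2 M) := by
  obtain rfl : instM = M.hV2 := Subsingleton.elim _ _
  have h3 := @tnd_finite_submodule_pi ℤ (G × G) M.V _ _ _ _ M.hV2 hfin (cocycles₂ M)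
  have hsurj : Function.Surjective (H2π M).hom :=
    (ModuleCat.epi_iff_surjective _).1 inferInstance
  refine tnd_finite_of_surjective (A := cocycles₂ M) _ h3
    (AddMonoidHom.mk' (fun c => (H2π M).hom c) (fun a b => map_add _ a b)) hsurj
    (Fintype.card G) Fintype.card_pos (fun x => stmtKill G M 1 x)

theorem tnd_eq_zero_of_coprime {A : Type*} [AddCommGroup A] {a b : ℕ} (h : Nat.Coprime a b)
    {w : A} (ha : a • w = 0) (hb : b • w = 0) : w = 0 := by
  have h1 : addOrderOf w ∣ a := addOrderOf_dvd_of_nsmul_eq_zero ha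
  have h2 : addOrderOf w ∣ b := addOrderOf_dvd_of_nsmul_eq_zero hb
  have h3 : addOrderOf w ∣ 1 := by
    have := Nat.dvd_gcd h1 h2
    rwa [h.gcd_eq_one] at this
  exact AddMonoid.addOrderOf_eq_one_iff.1 (Nat.dvd_one.1 h3)

/-- **F-TNDual**: `StmtTN'` implies `StmtTNDual`. -/
theorem stmtTNDualOfTN : StmtTNDualOfTN := by
  intro hTN p _ G _ _ C u hu M hfree hfin N hN ψ
  have hp : p.Prime := Fact.out
  obtain ⟨P⟩ : Nonempty (Sylow p G) := inferInstance
  have hP : IsPGroup p (P : Subgroup G) := P.isPGroup'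
  set r := (resSub C (P : Subgroup G) 2).hom with hr
  -- the target `Z = H²(P, C)` is finite cyclic of order `|P|`
  have hcard := hu.h2_card (P : Subgroup G) hP
  have hZfin : Finite (H2 (Rep.res (P : Subgroup G).subtype C)) := by
    apply Nat.finite_of_card_ne_zero
    rw [hcard]
    exact Nat.card_pos.ne'
  have hZcyc : IsAddCyclic (H2 (Rep.res (P : Subgroup G).subtype C)) := by
    refine ⟨⟨r u, fun z => ?_⟩⟩
    obtain ⟨n, hn⟩ := hu.h2_gen (P : Subgroup G) hP z
    exact AddSubgroup.mem_zmultiples_iff.2 ⟨n, hn⟩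
  have hinj : ∀ z : H2 C, IsPTors p z → r z = 0 → z = 0 := fun z hz hrz =>
    stmtSylow p G C P 2 z (by norm_num) hz hrz
  -- `N` is finite and killed by `|P|`
  have hH2fin : Finite (H2 M) := tnd_finite_H2 M _ hfin
  have hNfin : Finite N := inferInstance
  have hexp : ∀ y : N, Nat.card (H2 (Rep.res (P : Subgroup G).subtype C)) • y = 0 := by
    intro y
    rw [hcard]
    apply Subtype.ext
    rw [AddSubgroup.coe_nsmul, AddSubgroup.coe_zero]
    obtain ⟨k, hk⟩ := hN y.1 y.2
    have hG : Fintype.card G • (y : H2 M) = 0 := stmtKill G M 1 (y : H2 M)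
    have hidx : (P : Subgroup G).index • (Nat.card (P : Subgroup G) • (y : H2 M)) = 0 := by
      rw [← mul_smul, mul_comm, Subgroup.card_mul_index, Nat.card_eq_fintype_card]
      exact hG
    have hpk : p ^ k • (Nat.card (P : Subgroup G) • (y : H2 M)) = 0 := by
      rw [smul_comm, hk, smul_zero]
    have hcop : Nat.Coprime (p ^ k) (P : Subgroup G).index :=
      Nat.Coprime.pow_left k ((Nat.Prime.coprime_iff_not_dvd hp).2 P.not_dvd_index)
    exact tnd_eq_zero_of_coprime hcop hpk hidx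
  -- push-forward classes are `p`-primary
  have hpush : ∀ (g : M ⟶ C) (y : N), IsPTors p ((push₂ g).hom (y : H2 M)) := by
    intro g y
    obtain ⟨k, hk⟩ := hN y.1 y.2
    exact ⟨k, by rw [← map_nsmul, hk, map_zero]⟩
  have hψ : ∀ y : N, IsPTors p (ψ y) := by
    intro y
    obtain ⟨k, hk⟩ := hN y.1 y.2
    refine ⟨k, ?_⟩
    have : p ^ k • y = 0 := by
      apply Subtype.ext
      rw [AddSubgroup.coe_nsmul, AddSubgroup.coe_zero]
      exact hk
    rw [← map_nsmul, this, map_zero]
  -- the subgroup of `Hom(N, Z)` of the maps `y ↦ res (g_* y)`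
  let ra : H2 C →+ H2 (Rep.res (P : Subgroup G).subtype C) :=
    AddMonoidHom.mk' (fun z => r z) (fun a b => map_add r a b)
  let pa : (M ⟶ C) → (H2 M →+ H2 C) := fun g =>
    AddMonoidHom.mk' (fun z => (push₂ g).hom z) (fun a b => map_add (push₂ g).hom a b)
  have hpa_add : ∀ (g g' : M ⟶ C) (z : H2 M), pa (g + g') z = pa g z + pa g' z := by
    intro g g' z
    show (push₂ (g + g')).hom z = (push₂ g).hom z + (push₂ g').hom z
    rw [show push₂ (g + g') = push₂ g + push₂ g' from map_id_add g g' 2]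
    rfl
  let Φ : (M ⟶ C) →+ (N →+ H2 (Rep.res (P : Subgroup G).subtype C)) :=
    AddMonoidHom.mk' (fun g => (ra.comp (pa g)).comp N.subtype) (by
      intro g g'
      ext y
      show ra (pa (g + g') y) = ra (pa g y) + ra (pa g' y)
      rw [hpa_add, map_add])
  have hsep : ∀ y : N, y ≠ 0 → ∃ e ∈ Φ.range, e y ≠ 0 := by
    intro y hy
    have hy' : (y : H2 M) ≠ 0 := fun h => hy (Subtype.ext h)
    have hex : ∃ g : M ⟶ C, (push₂ g).hom (y : H2 M) ≠ 0 := by
      by_contra hcon
      have hcon' : ∀ g : M ⟶ C, (push₂ g).hom (y : H2 M) = 0 := fun g =>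
        by_contra fun h => hcon ⟨g, h⟩
      exact hy' ((hTN p G C u hu M hfree hfin).1 (y : H2 M) (hN y.1 y.2) hcon')
    obtain ⟨g, hg⟩ := hex
    refine ⟨Φ g, ⟨g, rfl⟩, fun h0 => hg (hinj _ (hpush g y) h0)⟩
  obtain ⟨g, hg⟩ := tnd_mem_of_separating hexp Φ.range hsep (ra.comp ψ)
  refine ⟨g, fun y => ?_⟩
  have h1 : r ((push₂ g).hom (y : H2 M)) = r (ψ y) := DFunLike.congr_fun hg y
  have hz : IsPTors p ((push₂ g).hom (y : H2 M) - ψ y) := by
    obtain ⟨k, hk⟩ := hpush g y
    obtain ⟨l, hl⟩ := hψ y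
    refine ⟨k + l, ?_⟩
    have e1 : p ^ (k + l) • (push₂ g).hom (y : H2 M) = 0 := by
      rw [pow_add, mul_comm, mul_smul, hk, smul_zero]
    have e2 : p ^ (k + l) • ψ y = 0 := by
      rw [pow_add, mul_smul, hl, smul_zero]
    rw [smul_sub, e1, e2, sub_zero]
  exact sub_eq_zero.1 (hinj _ hz (by rw [map_sub, h1, sub_self]))

end Fermat.Agent.PT.F


end ZBPT_022_17

/-! ### bundled: `Fermat.Agent.PT.B.TransportFund` -/
section ZBPT_022_18
/-
PT-B piece T-fund (helper57): a `p`-fundamental class transports backwards along a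
`p`-isomorphism of pairs, `stmtFundPIso : StmtFundPIso`.

Route (no long exact sequence): `f : A → A'` injective with `m • A' ⊆ f A` has an "inverse up to
`m`", `g : A' → A`, `g ∘ f = m`, `f ∘ g = m`. On `Hⁿ(H, -)`, `H` a `p`-group, `n = 1, 2`,
multiplication by `m` is bijective (`|H|` kills `Hⁿ`), so `f_*` and `g_*` are bijective.
-/

set_option autoImplicit false
set_option linter.unusedSectionVars false
set_option linter.style.haveILetI false

namespace Fermat.Agent.PT.B

namespace TF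

open CategoryTheory groupCohomology Fermat.Agent.PT

/-! ### Abstract: multiplication by `m` on a group killed by `N`, `gcd (m, N) = 1` -/

lemma smul_cancel {X : Type*} [AddCommGroup X] {m N : ℕ} (hco : Nat.Coprime m N) {x y : X}
    (hx : N • x = 0) (hy : N • y = 0) (h : m • x = m • y) : x = y := by
  have hz : N • (x - y) = 0 := by rw [smul_sub, hx, hy, sub_zero]
  have hm : m • (x - y) = 0 := by rw [smul_sub, h, sub_self]
  have h1 : (Nat.gcd m N) • (x - y) = 0 := by
    have hd : addOrderOf (x - y) ∣ Nat.gcd m N :=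
      Nat.dvd_gcd (addOrderOf_dvd_of_nsmul_eq_zero hm) (addOrderOf_dvd_of_nsmul_eq_zero hz)
    exact addOrderOf_dvd_iff_nsmul_eq_zero.1 hd
  rw [hco, one_smul] at h1
  exact sub_eq_zero.1 h1

lemma exists_smul_eq {X : Type*} [AddCommGroup X] {m N : ℕ} (hco : Nat.Coprime m N) {x : X}
    (hx : N • x = 0) : ∃ s : ℤ, m • (s • x) = x := by
  have h := Nat.gcd_eq_gcd_ab m N
  rw [hco] at h
  refine ⟨Nat.gcdA m N, ?_⟩
  have h1 : ((m : ℤ) * Nat.gcdA m N + (N : ℤ) * Nat.gcdB m N) • x = x := by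
    rw [← h]
    simp
  rw [add_smul, mul_smul, mul_smul] at h1
  have h2 : (N : ℤ) • (Nat.gcdB m N • x) = 0 := by
    rw [smul_comm, natCast_zsmul, hx, smul_zero]
  rw [h2, add_zero, natCast_zsmul] at h1
  exact h1

/-- `|K|` kills `H^{n+1}(K, X)`. -/
lemma card_smul_eq_zero {K : Type} [Group K] [Finite K] (X : Rep.{0} ℤ K) (n : ℕ)
    (x : groupCohomology X (n + 1)) : Nat.card K • x = 0 := by
  have hz := isZero_groupCohomology_succ_of_subsingleton
    (Rep.res (⊥ : Subgroup K).subtype X) n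
  have hsub : Subsingleton (groupCohomology (Rep.res (⊥ : Subgroup K).subtype X) (n + 1)) :=
    ModuleCat.subsingleton_of_isZero hz
  have h0 : (resSub X (⊥ : Subgroup K) (n + 1)).hom x = 0 := Subsingleton.elim _ _
  have := SylowRes.index_smul_eq_zero_of_res_eq_zero (⊥ : Subgroup K) n X x h0
  rwa [Subgroup.index_bot] at this

attribute [-instance] AddCommGroup.toIntModule

/-! ### The inverse up to `m` -/

section

variable {p : ℕ} {G G' : Type} [Group G] [Group G'] {A : Rep.{0} ℤ G} {A' : Rep.{0} ℤ G'}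
  (e : PairPIso p A A')

/-- `g : A' → A` with `f ∘ g = m`. -/
noncomputable def gFun (a' : A'.V) : A.V := (e.surj a').choose

lemma f_gFun (a' : A'.V) : e.f (gFun e a') = e.m • a' := (e.surj a').choose_spec

lemma gFun_f (a : A.V) : gFun e (e.f a) = e.m • a :=
  e.inj (by rw [f_gFun, map_nsmul])

lemma gFun_add (a' b' : A'.V) : gFun e (a' + b') = gFun e a' + gFun e b' :=
  e.inj (by rw [map_add, f_gFun, f_gFun, f_gFun, smul_add])

lemma gFun_comm (g : G) (a' : A'.V) : gFun e (A'.ρ (e.φ g) a') = A.ρ g (gFun e a') :=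
  e.inj (by rw [e.comm, f_gFun, f_gFun, map_nsmul])

/-- `g` as a linear map. -/
noncomputable def gLin : A'.V →ₗ[ℤ] A.V :=
  { toFun := gFun e
    map_add' := gFun_add e
    map_smul' := fun n a' => by
      have := map_intCast_smul (AddMonoidHom.mk' (gFun e) (gFun_add e)) ℤ ℤ n a'
      simpa using this }

lemma gLin_apply (a' : A'.V) : gLin e a' = gFun e a' := rfl

/-- `f` as a linear map. -/
noncomputable def fLin : A.V →ₗ[ℤ] A'.V :=
  { toFun := e.f
    map_add' := map_add e.f
    map_smul' := fun n a => by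
      have := map_intCast_smul e.f ℤ ℤ n a
      simpa using this }

lemma fLin_apply (a : A.V) : fLin e a = e.f a := rfl

variable (H : Subgroup G)

/-- The image subgroup. -/
abbrev H' : Subgroup G' := H.map (e.φ : G →* G')

/-- `H →* H'`. -/
noncomputable def ψ : H →* H' e H := (e.φ.subgroupMap H : H →* H.map (e.φ : G →* G'))

/-- `H' →* H`. -/
noncomputable def ψinv : H' e H →* H := ((e.φ.subgroupMap H).symm : H.map (e.φ : G →* G') →* H)

lemma ψinv_ψ (h : H) : ψinv e H (ψ e H h) = h := (e.φ.subgroupMap H).symm_apply_apply h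

lemma ψ_ψinv (h' : H' e H) : ψ e H (ψinv e H h') = h' := (e.φ.subgroupMap H).apply_symm_apply h'

lemma coe_ψ (h : H) : ((ψ e H h : H' e H) : G') = e.φ (h : G) := rfl

/-- `g` on the restrictions to `H`, `H'`. -/
noncomputable def gH :
    Rep.res (ψ e H) (Rep.res (H' e H).subtype A') ⟶ Rep.res H.subtype A :=
  Rep.ofHom
    { toLinearMap := (gLin (A := A) (A' := A') e : A'.V →ₗ[ℤ] A.V)
      isIntertwining' := fun h => LinearMap.ext fun a' => gFun_comm e (h : G) a' }

/-- `f` on the restrictions to `H`, `H'`. -/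
noncomputable def fH :
    Rep.res (ψinv e H) (Rep.res H.subtype A) ⟶ Rep.res (H' e H).subtype A' :=
  Rep.ofHom
    { toLinearMap := (fLin (A := A) (A' := A') e : A.V →ₗ[ℤ] A'.V)
      isIntertwining' := fun h' => LinearMap.ext fun a => by
        have h1 := e.comm ((ψinv e H h' : H) : G) a
        have h2 : e.φ ((ψinv e H h' : H) : G) = (h' : G') := by
          rw [← coe_ψ, ψ_ψinv]
        rw [h2] at h1
        exact h1 }

/-- `g` on the whole groups. -/
noncomputable def gG : Rep.res (e.φ : G →* G') A' ⟶ A :=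
  Rep.ofHom
    { toLinearMap := (gLin (A := A) (A' := A') e : A'.V →ₗ[ℤ] A.V)
      isIntertwining' := fun g => LinearMap.ext fun a' => gFun_comm e g a' }

end


/-! ### The maps on cohomology -/

section coh

variable {p : ℕ} {G G' : Type} [Group G] [Group G'] {A : Rep.{0} ℤ G} {A' : Rep.{0} ℤ G'}
  (e : PairPIso p A A') (H : Subgroup G)

/-- `α : Hⁿ(H', A') → Hⁿ(H, A)`, induced by `g`. -/
noncomputable def α (n : ℕ) :
    groupCohomology (Rep.res (H' e H).subtype A') n ⟶ groupCohomology (Rep.res H.subtype A) n :=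
  groupCohomology.map (ψ e H) (gH e H) n

/-- `β : Hⁿ(H, A) → Hⁿ(H', A')`, induced by `f`. -/
noncomputable def β (n : ℕ) :
    groupCohomology (Rep.res H.subtype A) n ⟶ groupCohomology (Rep.res (H' e H).subtype A') n :=
  groupCohomology.map (ψinv e H) (fH e H) n

lemma α_β₂ (x : H2 (Rep.res H.subtype A)) : (α e H 2).hom ((β e H 2).hom x) = e.m • x := by
  induction x using H2_induction_on with | h c => ?_
  unfold α β
  erw [H2π_comp_map_apply, H2π_comp_map_apply]
  rw [← map_nsmul]
  congr 1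
  apply cocycles₂_ext
  intro g h
  show gFun e (e.f (c (ψinv e H (ψ e H g), ψinv e H (ψ e H h)))) = e.m • c (g, h)
  rw [gFun_f, ψinv_ψ, ψinv_ψ]

lemma β_α₂ (x : H2 (Rep.res (H' e H).subtype A')) :
    (β e H 2).hom ((α e H 2).hom x) = e.m • x := by
  induction x using H2_induction_on with | h c => ?_
  unfold α β
  erw [H2π_comp_map_apply, H2π_comp_map_apply]
  rw [← map_nsmul]
  congr 1
  apply cocycles₂_ext
  intro g h
  show e.f (gFun e (c (ψ e H (ψinv e H g), ψ e H (ψinv e H h)))) = e.m • c (g, h)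
  rw [f_gFun, ψ_ψinv, ψ_ψinv]

lemma α_β₁ (x : H1 (Rep.res H.subtype A)) : (α e H 1).hom ((β e H 1).hom x) = e.m • x := by
  induction x using H1_induction_on with | h c => ?_
  unfold α β
  erw [H1π_comp_map_apply, H1π_comp_map_apply]
  rw [← map_nsmul]
  congr 1
  apply cocycles₁_ext
  intro g
  show gFun e (e.f (c (ψinv e H (ψ e H g)))) = e.m • c g
  rw [gFun_f, ψinv_ψ]

end coh


section main

variable {p : ℕ} {G G' : Type} [Group G] [Group G'] {A : Rep.{0} ℤ G} {A' : Rep.{0} ℤ G'}
  (e : PairPIso p A A') (H : Subgroup G)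

/-- compatibility of `α` with the restrictions -/
lemma α_res (u' : H2 A') :
    (α e H 2).hom ((resSub A' (H' e H) 2).hom u') =
      (resSub A H 2).hom ((groupCohomology.map (e.φ : G →* G') (gG e) 2).hom u') := by
  induction u' using H2_induction_on with | h c => ?_
  unfold α resSub
  erw [H2π_comp_map_apply, H2π_comp_map_apply, H2π_comp_map_apply, H2π_comp_map_apply]
  congr 1

lemma coprime_card [Fact p.Prime] [Finite G] (hH : IsPGroup p H) :
    Nat.Coprime e.m (Nat.card H) := by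
  obtain ⟨n, hn⟩ := IsPGroup.iff_card.1 hH
  rw [hn]
  exact Nat.Coprime.pow_right n
    (((Fact.out : p.Prime).coprime_iff_not_dvd).2 e.hm).symm

lemma card_H' : Nat.card (H' e H) = Nat.card H :=
  (Nat.card_congr (e.φ.subgroupMap H).toEquiv).symm

lemma isPGroup_H' (hH : IsPGroup p H) : IsPGroup p (H' e H) := hH.map _

end main


section main2

variable {p : ℕ} [Fact p.Prime] {G G' : Type} [Group G] [Group G'] [Finite G]
  {A : Rep.{0} ℤ G} {A' : Rep.{0} ℤ G'} (e : PairPIso p A A') (H : Subgroup G)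

lemma finite_G' {p : ℕ} {G G' : Type} [Group G] [Group G'] [Finite G]
    {A : Rep.{0} ℤ G} {A' : Rep.{0} ℤ G'} (e : PairPIso p A A') : Finite G' :=
  Finite.of_equiv G e.φ.toEquiv

lemma β_inj₁ (hH : IsPGroup p H) : Function.Injective (β e H 1).hom := by
  intro x y hxy
  apply smul_cancel (coprime_card e H hH) (card_smul_eq_zero _ 0 x) (card_smul_eq_zero _ 0 y)
  rw [← α_β₁, ← α_β₁, hxy]

lemma β_inj₂ (hH : IsPGroup p H) : Function.Injective (β e H 2).hom := by
  intro x y hxy
  apply smul_cancel (coprime_card e H hH) (card_smul_eq_zero _ 1 x) (card_smul_eq_zero _ 1 y)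
  rw [← α_β₂, ← α_β₂, hxy]

lemma β_surj₂ (hH : IsPGroup p H) : Function.Surjective (β e H 2).hom := by
  intro x'
  haveI : Finite G' := finite_G' e
  have hco : Nat.Coprime e.m (Nat.card (H' e H)) := by
    rw [card_H']
    exact coprime_card e H hH
  obtain ⟨s, hs⟩ := exists_smul_eq hco (card_smul_eq_zero _ 1 x')
  exact ⟨(α e H 2).hom (s • x'), by rw [β_α₂, hs]⟩

end main2

end TF

open TF groupCohomology in
/-- **T-fund**: a `p`-fundamental class transports backwards along a `p`-isomorphism of pairs. -/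
theorem stmtFundPIso : StmtFundPIso := by
  intro p _ G G' _ _ _ A A' ⟨e⟩ ⟨u', hu'⟩
  haveI : Finite G' := finite_G' e
  refine ⟨(groupCohomology.map (e.φ : G →* G') (gG e) 2).hom u', ?_, ?_, ?_⟩
  · intro H hH
    have hsub := hu'.h1 (H' e H) (isPGroup_H' e H hH)
    exact ⟨fun x y => β_inj₁ e H hH (Subsingleton.elim _ _)⟩
  · intro H hH
    rw [← card_H' e H, ← hu'.h2_card (H' e H) (isPGroup_H' e H hH)]
    exact Nat.card_congr (Equiv.ofBijective _ ⟨β_inj₂ e H hH, β_surj₂ e H hH⟩)
  · intro H hH x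
    obtain ⟨s, hs⟩ := exists_smul_eq (coprime_card e H hH) (card_smul_eq_zero _ 1 x)
    obtain ⟨n, hn⟩ := hu'.h2_gen (H' e H) (isPGroup_H' e H hH) ((β e H 2).hom (s • x))
    refine ⟨n, ?_⟩
    have h1 : (α e H 2).hom ((β e H 2).hom (s • x)) = x := by rw [α_β₂, hs]
    rw [← h1, ← hn, ← α_res]
    first
      | exact (map_zsmul (α e H 2).hom n _).symm
      | exact (LinearMap.map_smul (α e H 2).hom n _).symm
      | exact (map_zsmul ((α e H 2).hom : _ →+ _) n _).symm
      | exact (map_zsmul (α e H 2).hom.toAddMonoidHom n _).symm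

end Fermat.Agent.PT.B



end ZBPT_022_18

/-! ### bundled: `Fermat.Agent.PT.B.H90Sub` -/
section ZBPT_022_19
/-
PT-B, piece I4 (helper48): Hilbert 90 for every subgroup of `Gal(F/K)`.
Immediate from `Fermat.Agent.PT.L.FC.h1_subsingleton` (PT/L/FundClass.lean): transport
`H¹(H, Res F^×) ≅ H¹(Gal(F/F^H), F^×)` and Mathlib's Hilbert 90.
-/

set_option autoImplicit false

namespace Fermat.Agent.PT.B

/-- **I4**: `H¹(H, Fˣ) = 0` for every subgroup `H` of `Gal(F/K)`. -/
theorem stmtH90Sub : StmtH90Sub := by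
  intro K F _ _ _ _ _ H
  exact Fermat.Agent.PT.L.FC.h1_subsingleton K F H

end Fermat.Agent.PT.B


end ZBPT_022_19

/-! ### bundled: `Fermat.Agent.PT.G3.FundOfOrder` -/
section ZBPT_022_20
/-
PT-G3, piece `fund` (helper30): a class `u ∈ H²(G, C)` whose order is divisible by the `p`-part
of `|G|` is a `p`-fundamental class as soon as `|H²(P, C)| ≤ |P|` and `H¹(P, C) = 0` for all
`p`-subgroups `P` (`cor ∘ res = index`).
-/

set_option autoImplicit false

namespace Fermat.Agent.PT.G3

open CategoryTheory groupCohomology Fermat.Agent.PT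

/-- Arithmetic: if `p ^ v_p(p^b * i)` divides `i * k` then `p ^ b` divides `k`. -/
theorem fundOfOrder_dvd {p : ℕ} (hp : p.Prime) {b i k : ℕ} (hi : i ≠ 0)
    (h : p ^ (p ^ b * i).factorization p ∣ i * k) : p ^ b ∣ k := by
  by_cases hk : k = 0
  · subst hk; exact dvd_zero _
  have hpb : p ^ b ≠ 0 := pow_ne_zero _ hp.ne_zero
  have h1 : (p ^ b * i).factorization p = b + i.factorization p := by
    rw [Nat.factorization_mul hpb hi, Finsupp.add_apply, Nat.factorization_pow,
      Finsupp.smul_apply, hp.factorization_self, smul_eq_mul, mul_one]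
  rw [h1, hp.pow_dvd_iff_le_factorization (mul_ne_zero hi hk), Nat.factorization_mul hi hk,
    Finsupp.add_apply] at h
  rw [hp.pow_dvd_iff_le_factorization hk]
  omega

/-- A finite abelian group of order `≤ m` containing an element whose order is divisible by `m`
is cyclic of order `m`, generated by this element. -/
theorem fundOfOrder_cyclic {X : Type*} [AddCommGroup X] [Finite X] {m : ℕ} (_hm : 0 < m)
    (hcard : Nat.card X ≤ m) (r : X) (hr : ∀ k : ℕ, k • r = 0 → m ∣ k) :
    Nat.card X = m ∧ ∀ x : X, ∃ n : ℤ, n • r = x := by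
  have h1 : m ∣ addOrderOf r := hr _ (addOrderOf_nsmul_eq_zero r)
  have h2 : addOrderOf r ∣ Nat.card X := addOrderOf_dvd_natCard r
  have hpos : 0 < addOrderOf r := addOrderOf_pos r
  have hXpos : 0 < Nat.card X := Nat.card_pos
  have h3 : m ≤ addOrderOf r := Nat.le_of_dvd hpos h1
  have h4 : addOrderOf r ≤ Nat.card X := Nat.le_of_dvd hXpos h2
  have hcardeq : Nat.card X = m := le_antisymm hcard (h3.trans h4)
  have hord : addOrderOf r = Nat.card X := le_antisymm h4 (hcardeq ▸ h3)
  refine ⟨hcardeq, fun x => ?_⟩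
  have htop : AddSubgroup.zmultiples r = ⊤ := by
    apply AddSubgroup.eq_top_of_card_eq
    rw [Nat.card_zmultiples, hord]
  have hx : x ∈ AddSubgroup.zmultiples r := by rw [htop]; trivial
  exact AddSubgroup.mem_zmultiples_iff.mp hx

/-- **G3-fund**. -/
theorem stmtFundOfOrder : StmtFundOfOrder := by
  intro p _ G _ _ C u hB hord
  have hp : p.Prime := Fact.out
  -- key: for every `p`-subgroup `H`, the order of `res_H u` is divisible by `|H|`
  have key : ∀ H : Subgroup G, IsPGroup p H → ∀ k : ℕ,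
      k • (resSub C H 2).hom u = 0 → Nat.card H ∣ k := by
    intro H hH k hk
    have h1 : (resSub C H 2).hom (k • u) = 0 := by rw [map_nsmul, hk]
    have h2 : H.index • (k • u) = 0 :=
      SylowRes.index_smul_eq_zero_of_res_eq_zero H 1 C (k • u) h1
    rw [← mul_smul] at h2
    have h3 := hord _ h2
    obtain ⟨b, hb⟩ := hH.exists_card_eq
    have hidx : H.index ≠ 0 := Subgroup.index_ne_zero_of_finite
    rw [← Subgroup.card_mul_index H, hb] at h3
    rw [hb]
    exact fundOfOrder_dvd hp hidx h3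
  have hcyc : ∀ H : Subgroup G, IsPGroup p H →
      Nat.card (H2 (Rep.res H.subtype C)) = Nat.card H ∧
        ∀ x : H2 (Rep.res H.subtype C), ∃ n : ℤ, n • (resSub C H 2).hom u = x := by
    intro H hH
    obtain ⟨-, hfin, hcard⟩ := hB H hH
    exact fundOfOrder_cyclic Nat.card_pos hcard _ (key H hH)
  exact ⟨fun H hH => (hB H hH).1, fun H hH => (hcyc H hH).1, fun H hH => (hcyc H hH).2⟩

end Fermat.Agent.PT.G3


end ZBPT_022_20

/-! ### bundled: `Fermat.Agent.PT.G3.InfSurj` -/
section ZBPT_022_21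
/-
PT-G3, piece `infsurj` (helper30): inflation–restriction in degree 2 along a surjection
`f : G ↠ Q`, for a `Q`-module `D` identified with `C ^ ker f` by `φ`.
Cocycle proof: steps 0–2 of PT/A/InfRes2.lean (helper86) for `N = ker f`, then descent to `Q`;
injectivity is `inflInj_aux` of PT/F/InflInj.lean (helper86) with `m = 1`.
-/

set_option autoImplicit false
set_option linter.unusedSectionVars false

attribute [-instance] AddCommGroup.toIntModule

namespace Fermat.Agent.PT.G3

open CategoryTheory groupCohomology Rep Fermat.Agent.PT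

section

variable {G Q : Type} [Group G] [Group Q]

/-- Step 3 along a surjection: a cocycle vanishing on `N × G` and `G × N` (`N = ker f`) is
inflated from `Q`. -/
theorem infSurj_step3 (f : G →* Q) (hf : Function.Surjective f) (D : Rep.{0} ℤ Q)
    (C : Rep.{0} ℤ G) (φ : Rep.res f D ⟶ C) (hφ : Function.Injective φ.hom)
    (hinvar : ∀ c : C.V, (∀ g ∈ f.ker, C.ρ g c = c) → ∃ d : D.V, φ.hom d = c)
    {F : G × G → C} (hF : F ∈ cocycles₂ C) (hl : ∀ n ∈ f.ker, ∀ g, F (n, g) = 0)
    (hr : ∀ g, ∀ n ∈ f.ker, F (g, n) = 0) :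
    ∃ z : cocycles₂ D, ∀ g h : G, φ.hom (z (f g, f h)) = F (g, h) := by
  have hconj : ∀ (h n : G), n ∈ f.ker → h⁻¹ * n * h ∈ f.ker := by
    intro h n hn
    rw [MonoidHom.mem_ker] at hn ⊢
    simp [hn]
  have hstar : ∀ n ∈ f.ker, ∀ g h, F (n * g, h) = C.ρ n (F (g, h)) := by
    intro n hn g h
    have := InfRes2.coc hF n g h
    rw [hl n hn, hl n hn] at this
    simpa using this
  have hr2 : ∀ g h, ∀ n ∈ f.ker, F (g, h * n) = F (g, h) := by
    intro g h n hn
    have := InfRes2.coc hF g h n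
    rw [hr _ n hn, hr _ n hn, map_zero] at this
    simpa using this.symm
  have hl2 : ∀ g h, ∀ n ∈ f.ker, F (g * n, h) = F (g, h) := by
    intro g h n hn
    have := InfRes2.coc hF g n h
    rw [hr _ n hn, hl n hn, map_zero] at this
    have e : n * h = h * (h⁻¹ * n * h) := by group
    rw [e, hr2 _ _ _ (hconj h n hn)] at this
    simpa using this
  have hinv : ∀ g h, ∀ n ∈ f.ker, C.ρ n (F (g, h)) = F (g, h) := by
    intro g h n hn
    rw [← hstar n hn]
    have e : n * g = g * (g⁻¹ * n * g) := by group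
    rw [e, hl2 _ _ _ (hconj g n hn)]
  have hex : ∀ p : Q × Q, ∃ d : D.V,
      φ.hom d = F (Function.surjInv hf p.1, Function.surjInv hf p.2) :=
    fun p => hinvar _ (fun n hn => hinv _ _ n hn)
  choose zf hzf using hex
  have hsurj : ∀ g : G, ∃ n ∈ f.ker, Function.surjInv hf (f g) = g * n := by
    intro g
    refine ⟨g⁻¹ * Function.surjInv hf (f g), ?_, by group⟩
    rw [MonoidHom.mem_ker, map_mul, map_inv, Function.surjInv_eq hf, inv_mul_cancel]
  have hz : ∀ g h : G, φ.hom (zf (f g, f h)) = F (g, h) := by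
    intro g h
    obtain ⟨n₁, hn₁, e₁⟩ := hsurj g
    obtain ⟨n₂, hn₂, e₂⟩ := hsurj h
    rw [hzf]
    show F (Function.surjInv hf (f g), Function.surjInv hf (f h)) = F (g, h)
    rw [e₁, e₂, hl2 _ _ _ hn₁, hr2 _ _ _ hn₂]
  have hφρ : ∀ (g : G) (v : D.V), φ.hom (D.ρ (f g) v) = C.ρ g (φ.hom v) := fun g v =>
    Rep.hom_comm_apply φ g v
  refine ⟨⟨zf, ?_⟩, hz⟩
  rw [mem_cocycles₂_iff]
  intro a b c
  obtain ⟨g, rfl⟩ := hf a
  obtain ⟨h, rfl⟩ := hf b
  obtain ⟨j, rfl⟩ := hf c
  apply hφ
  rw [map_add, map_add, hφρ, ← map_mul, ← map_mul, hz, hz, hz, hz]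
  exact InfRes2.coc hF g h j

end

/-- **G3-infsurj**. -/
theorem stmtInfSurj : StmtInfSurj := by
  intro G Q _ _ f hf D C φ hφ hinvar hH1
  have h1 := InfRes2.h1Triv_of_subsingleton f.ker C hH1
  constructor
  · rw [injective_iff_map_eq_zero]
    intro x hx
    induction x using H2_induction_on with | @h x =>
    have key := H2π_comp_map_apply f φ x
    have hK : F.InflInj.H1Kill f.ker C 1 := by
      intro c hc
      obtain ⟨a, ha⟩ := h1 c hc
      exact ⟨a, fun n => by rw [one_smul]; exact ha n⟩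
    have h2 := F.InflInj.inflInj_aux f hf C D φ hφ
      (fun c hc => hinvar c (fun g hg => hc g (MonoidHom.mem_ker.mp hg))) 1 hK x
      (key.symm.trans hx)
    rwa [one_smul] at h2
  · intro x hx
    induction x using H2_induction_on with | @h x =>
    have key := H2π_comp_map_apply f.ker.subtype (𝟙 (Rep.res f.ker.subtype C)) x
    have hx' : H2π (Rep.res f.ker.subtype C)
        (mapCocycles₂ f.ker.subtype (𝟙 (Rep.res f.ker.subtype C)) x) = 0 :=
      key.symm.trans hx
    rw [H2π_eq_zero_iff] at hx'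
    obtain ⟨y, hy⟩ := hx'
    have hy' : ∀ n m : f.ker, x ((n : G), (m : G)) = C.ρ n (y m) - y (n * m) + y n := by
      intro n m
      have := congrFun hy (n, m)
      simp only [d₁₂_hom_apply] at this
      exact this.symm
    obtain ⟨x₀, h₀⟩ := InfRes2.step0 (F := ⇑x) y hy'
    have hF₀ := InfRes2.sub_d_mem x.2 x₀
    obtain ⟨x₁, h₁⟩ := InfRes2.step1 hF₀ h₀
    have hF₁ := InfRes2.sub_d_mem hF₀ x₁
    obtain ⟨x₂, h₂l, h₂r⟩ := InfRes2.step2 h1 hF₁ h₁
    have hF₂ := InfRes2.sub_d_mem hF₁ x₂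
    obtain ⟨z, hz⟩ := infSurj_step3 f hf D C φ hφ hinvar hF₂ h₂l h₂r
    refine ⟨H2π D z, ?_⟩
    have key2 := H2π_comp_map_apply f φ z
    refine key2.trans ?_
    rw [H2π_eq_iff]
    refine ⟨-(x₀ + x₁ + x₂), ?_⟩
    funext ⟨g, h⟩
    have hmc : (mapCocycles₂ f φ z) (g, h) = φ.hom (z (f g, f h)) := rfl
    rw [Pi.sub_apply, hmc, hz, map_neg, map_add, map_add]
    simp only [Pi.sub_apply, Pi.neg_apply, Pi.add_apply, cocycles₂.val_eq_coe]
    abel

end Fermat.Agent.PT.G3


end ZBPT_022_21
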