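/- GENERATED FILE (helper35, build-time optimisation, NOTES/ZB.md): verbatim concatenation of the modules
   Fermat.Agent.PT.G1.UnitsHQ
   Fermat.Agent.PT.G.SecondInequality
   Do not edit; do not import together with these modules. -/
import Fermat.Agent.ZB.PT_006
import Fermat.Agent.ZB.PT_008

/-! ### bundled: `Fermat.Agent.PT.G1.UnitsHQ` -/
section ZBPT_059_0

/-!
# PT-G1, piece U-main: the Herbrand quotient of the `N`-units

`stmtUnitsHQ_of : StmtRank → StmtUnitRank → StmtUnitFixed → StmtInfCount → StmtPrimeCount →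
StmtUnitsHQ`: for `σ` of odd prime order `p` on a number field `L`, `h(E_N) = p ^ (f - 1)`,
`f = #{P ∣ N : σ P ⊆ P}`.  `K` is the fixed field of `⟨σ⟩`; `L/K` is cyclic of degree `p`.
-/

set_option autoImplicit false

namespace Fermat.Agent.PT.G1

open NumberField IntermediateField

section functoriality

variable {L : Type*} [Field L]

theorem uhq_nUnitsEnd_apply (N : ℕ) (σ : L ≃+* L) (u : Additive (nUnits N L)) :
    nUnitsEnd N σ u = Additive.ofMul (nUnitsHom N σ (Additive.toMul u)) := rfl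

theorem uhq_nUnitsEnd_one (N : ℕ) : nUnitsEnd N (1 : L ≃+* L) = 1 := by
  apply LinearMap.ext
  intro u
  rw [uhq_nUnitsEnd_apply]
  apply Additive.toMul.injective
  apply Subtype.ext
  apply Units.ext
  rfl

theorem uhq_nUnitsEnd_mul (N : ℕ) (σ τ : L ≃+* L) :
    nUnitsEnd N (σ * τ) = nUnitsEnd N σ * nUnitsEnd N τ := by
  apply LinearMap.ext
  intro u
  rw [uhq_nUnitsEnd_apply]
  apply Additive.toMul.injective
  apply Subtype.ext
  apply Units.ext
  rfl

theorem uhq_nUnitsEnd_pow (N : ℕ) (σ : L ≃+* L) (n : ℕ) :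
    nUnitsEnd N (σ ^ n) = nUnitsEnd N σ ^ n := by
  induction n with
  | zero => rw [pow_zero, pow_zero, uhq_nUnitsEnd_one]
  | succ n ih => rw [pow_succ, pow_succ, uhq_nUnitsEnd_mul, ih]

end functoriality

section fixedField

variable {L : Type} [Field L] [NumberField L]

/-- `L` is Galois over the fixed field of any subgroup of `Aut(L/ℚ)`. -/
theorem uhq_isGalois_fixedField (H : Subgroup (L ≃ₐ[ℚ] L)) :
    IsGalois (IntermediateField.fixedField H) L := by
  apply IsGalois.of_card_aut_eq_finrank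
  rw [IntermediateField.finrank_fixedField_eq_card H,
    ← Nat.card_congr (IntermediateField.fixingSubgroupEquiv
      (IntermediateField.fixedField H)).toEquiv,
    IntermediateField.fixingSubgroup_fixedField H]

theorem uhq_orderOf_toRatAlgEquiv (σ : L ≃+* L) : orderOf σ.toRatAlgEquiv = orderOf σ := by
  let f : (L ≃ₐ[ℚ] L) →* (L ≃+* L) :=
    { toFun := fun τ => (τ : L ≃+* L)
      map_one' := rfl
      map_mul' := fun _ _ => rfl }
  have hf : Function.Injective f := by
    intro a b hab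
    ext x
    exact congrArg (fun g : L ≃+* L => g x) hab
  have : f σ.toRatAlgEquiv = σ := by
    ext x
    rfl
  rw [← orderOf_injective f hf, this]

end fixedField

theorem stmtUnitsHQ_of (hR : StmtRank) (hU : StmtUnitRank) (hF : StmtUnitFixed)
    (hI : StmtInfCount) (hC : StmtPrimeCount) : StmtUnitsHQ := by
  intro p _ hp2 L _ _ σ hσ N hN
  have hp : p.Prime := Fact.out
  -- the fixed field `K` of `⟨σ⟩`
  set σ' : L ≃ₐ[ℚ] L := σ.toRatAlgEquiv with hσ'
  set K : IntermediateField ℚ L := IntermediateField.fixedField (Subgroup.zpowers σ') with hK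
  have hfix : K.fixingSubgroup = Subgroup.zpowers σ' :=
    IntermediateField.fixingSubgroup_fixedField (Subgroup.zpowers σ')
  haveI : IsGalois K L := uhq_isGalois_fixedField (Subgroup.zpowers σ')
  have hdeg : Module.finrank K L = p := by
    rw [hK, IntermediateField.finrank_fixedField_eq_card, Nat.card_zpowers,
      uhq_orderOf_toRatAlgEquiv, hσ]
  have hσK : σ' ∈ K.fixingSubgroup := by
    rw [hfix]
    exact Subgroup.mem_zpowers σ'
  set σK : L ≃ₐ[K] L := IntermediateField.fixingSubgroupEquiv K ⟨σ', hσK⟩ with hσKdef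
  have hcoe : (σK : L ≃+* L) = σ := by
    ext x
    rfl
  have hgen : ∀ τ : L ≃ₐ[K] L, τ ∈ Subgroup.zpowers σK := by
    intro τ
    obtain ⟨⟨τ', hτ'⟩, rfl⟩ := (IntermediateField.fixingSubgroupEquiv K).surjective τ
    have hmem : τ' ∈ Subgroup.zpowers σ' := by rwa [hfix] at hτ'
    obtain ⟨k, hk⟩ := Subgroup.mem_zpowers_iff.mp hmem
    refine Subgroup.mem_zpowers_iff.mpr ⟨k, ?_⟩
    rw [hσKdef, ← map_zpow]
    congr 1
    apply Subtype.ext
    simpa using hk
  -- the inputs
  have h1 := hU L N hN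
  have h2 := hU K N hN
  have h3 := hF K L σK hgen N hN
  have h4 := hI p (hp.odd_of_ne_two hp2) K L hdeg
  have h5 := hC p K L σK hdeg hgen N hN
  rw [hcoe] at h3 h5
  haveI := h1.1
  have hpow : nUnitsEnd N σ ^ p = 1 := by
    rw [← uhq_nUnitsEnd_pow, ← hσ, pow_orderOf_eq_one, uhq_nUnitsEnd_one]
  refine hR p (Additive (nUnits N L)) (nUnitsEnd N σ) hpow _ ?_
  rw [h3, h1.2, h2.2]
  have h4' : ((Units.rank L : ℤ) + 1) = (p : ℤ) * ((Units.rank K : ℤ) + 1) := by
    exact_mod_cast h4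
  have h5' : ((primesAbove N L).ncard : ℤ) + ((p : ℤ) - 1) * (fixedPrimesAbove N σ).ncard =
      (p : ℤ) * (primesAbove N K).ncard := by
    have := congrArg (fun n : ℕ => (n : ℤ)) h5
    simp only [Nat.cast_add, Nat.cast_mul, Nat.cast_sub hp.one_lt.le, Nat.cast_one] at this
    exact this
  push_cast
  linear_combination h4' + h5'

end Fermat.Agent.PT.G1


end ZBPT_059_0

/-! ### bundled: `Fermat.Agent.PT.G.SecondInequality` -/
section ZBPT_059_1
/-
Project PT — shared model, piece **G2-glue** (helper63): from PT-G2's idelic second inequality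
(`G2.StmtIdelicSecond`) to `StmtCSH0`:  `|C_S(L)^σ / N C_S(L)| ≤ p` for `σ` of prime order `p`,
`L / L^σ` unramified outside `S`.
`K` := the fixed field of `σ`, `B := csMap⁻¹ (N C_S(L))`, `C_S(K) ⧸ B ≃ C_S(L)^σ / N C_S(L)`.
-/

set_option autoImplicit false

namespace Fermat.Agent.PT.G

open NumberField IsDedekindDomain Fermat.Agent.PT.G1

section

variable (S : Finset Nat.Primes) {L : Type} [Field L] [NumberField L]

lemma si_csOfDiv_equivariant (σ : L ≃ₐ[ℚ] L) (d : DivS S L) :
    csEnd S σ (csOfDiv S L d) = csOfDiv S L (divEnd S σ d) := by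
  show csMk S L (jdEnd S σ (0, d)) = csMk S L (0, divEnd S σ d)
  have h : jdEnd S σ ((0, d) : Additive (JL S L) × DivS S L) = (0, divEnd S σ d) := by
    apply Prod.ext
    · show jlEnd S σ 0 = 0
      rw [map_zero]
    · rfl
  rw [h]

lemma si_pow_apply_of_fixed (σ : L ≃ₐ[ℚ] L) (c : CS S L) (hc : csEnd S σ c = c) (i : ℕ) :
    (csEnd S σ ^ i) c = c := by
  induction i with
  | zero => rfl
  | succ i ih => rw [pow_succ, Module.End.mul_apply, hc, ih]

lemma si_nEnd_of_fixed (σ : L ≃ₐ[ℚ] L) (c : CS S L) (hc : csEnd S σ c = c) (n : ℕ) :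
    nEnd (csEnd S σ) n c = n • c := by
  rw [nEnd, LinearMap.sum_apply]
  rw [Finset.sum_congr rfl (fun i _ => si_pow_apply_of_fixed S σ c hc i)]
  rw [Finset.sum_const, Finset.card_range]

lemma si_nEnd_csOfDiv (σ : L ≃ₐ[ℚ] L) (d : DivS S L) (n : ℕ) :
    nEnd (csEnd S σ) n (csOfDiv S L d) =
      csOfDiv S L (∑ i ∈ Finset.range n, divEnd S (σ ^ i) d) := by
  rw [nEnd, LinearMap.sum_apply, map_sum]
  refine Finset.sum_congr rfl fun i _ => ?_
  rw [csEnd_pow, si_csOfDiv_equivariant]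

/-- the stabiliser of `c ∈ C_S(L)` in `Aut(L)` -/
def csStab (c : CS S L) : Subgroup (L ≃ₐ[ℚ] L) where
  carrier := {τ | csEnd S τ c = c}
  mul_mem' := by
    intro a b ha hb
    show csEnd S (a * b) c = c
    have h : csEnd S (a * b) = csEnd S a * csEnd S b := map_mul (csRho S L) a b
    rw [h, Module.End.mul_apply]
    rw [show csEnd S b c = c from hb]
    exact ha
  one_mem' := by
    show csEnd S 1 c = c
    have h : csEnd S (1 : L ≃ₐ[ℚ] L) = 1 := map_one (csRho S L)
    rw [h]; rfl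
  inv_mem' := by
    intro a ha
    show csEnd S a⁻¹ c = c
    have h : csEnd S (a⁻¹ * a) = csEnd S a⁻¹ * csEnd S a := map_mul (csRho S L) a⁻¹ a
    have h1 : csEnd S (a⁻¹ * a) c = c := by
      rw [inv_mul_cancel]
      have h : csEnd S (1 : L ≃ₐ[ℚ] L) = 1 := map_one (csRho S L)
      rw [h]; rfl
    rw [h, Module.End.mul_apply, show csEnd S a c = c from ha] at h1
    exact h1

end

/-- `StmtCSH0` with the unramifiedness hypothesis in relative form
(`L / L^σ` has `e = 1` off `S`). -/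
def StmtCSH0Rel : Prop :=
  ∀ (p : ℕ) [Fact p.Prime], p ≠ 2 → ∀ (L : Type) [Field L] [NumberField L] (σ : L ≃ₐ[ℚ] L),
    orderOf σ = p → ∀ S : Finset Nat.Primes, S.Nonempty →
      UnramOffRel S ↥(IntermediateField.fixedField (Subgroup.zpowers σ)) L →
      hqCard (csEnd S σ - 1) (nEnd (csEnd S σ) p) ≠ 0 ∧
      hqCard (csEnd S σ - 1) (nEnd (csEnd S σ) p) ≤ p

/-- `StmtCSCyclic` with the unramifiedness hypothesis in relative form. -/
def StmtCSCyclicRel : Prop :=
  ∀ (p : ℕ) [Fact p.Prime], p ≠ 2 → ∀ (L : Type) [Field L] [NumberField L] (σ : L ≃ₐ[ℚ] L),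
    orderOf σ = p → ∀ S : Finset Nat.Primes, S.Nonempty →
      UnramOffRel S ↥(IntermediateField.fixedField (Subgroup.zpowers σ)) L →
      hqCard (csEnd S σ - 1) (nEnd (csEnd S σ) p) = p ∧
      hqCard (nEnd (csEnd S σ) p) (csEnd S σ - 1) = 1

/-- **G2-glue** (relative form): the idelic second inequality gives
`|Ĥ⁰(⟨σ⟩, C_S(L))| ≤ p`. -/
theorem stmtCSH0Rel_of (h2 : Fermat.Agent.PT.G2.StmtIdelicSecond) (hD : StmtCSDescent)
    (hN : StmtSplitNorm) : StmtCSH0Rel := by
  intro p _ hp2 L _ _ σ hσ S hS hunr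
  have hp : p.Prime := Fact.out
  -- the fixed field
  set K : IntermediateField ℚ L := IntermediateField.fixedField (Subgroup.zpowers σ) with hK
  have hfix : K.fixingSubgroup = Subgroup.zpowers σ :=
    IntermediateField.fixingSubgroup_fixedField (Subgroup.zpowers σ)
  have : IsGalois K L := uhq_isGalois_fixedField (Subgroup.zpowers σ)
  have hdeg : Module.finrank K L = p := by
    rw [hK, IntermediateField.finrank_fixedField_eq_card, Nat.card_zpowers, hσ]
  have hfixσ : ∀ x : K, σ (algebraMap K L x) = algebraMap K L x := by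
    intro x
    have h1 : σ ∈ K.fixingSubgroup := by
      rw [hfix]; exact Subgroup.mem_zpowers σ
    exact (IntermediateField.mem_fixingSubgroup_iff K σ).1 h1 x x.2
  have hgen : ∀ τ : L ≃ₐ[ℚ] L, (∀ x : K, τ (algebraMap K L x) = algebraMap K L x) →
      τ ∈ Subgroup.zpowers σ := by
    intro τ hτ
    rw [← hfix, IntermediateField.mem_fixingSubgroup_iff]
    intro x hx
    exact hτ ⟨x, hx⟩
  -- the norm subgroup
  set Nm : Module.End ℤ (CS S L) := nEnd (csEnd S σ) p with hNm
  set B : Submodule ℤ (CS S K) := (LinearMap.range Nm).comap (csMap S K L) with hB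
  have hinv : ∀ c : CS S K, csEnd S σ (csMap S K L c) = csMap S K L c :=
    fun c => csEnd_csMap_of_fixes S hfixσ c
  have h1 : ∀ y : Additive (JL S K), p • csOfJ S K y ∈ B := by
    intro y
    show csMap S K L (p • csOfJ S K y) ∈ LinearMap.range Nm
    rw [map_nsmul]
    exact ⟨csMap S K L (csOfJ S K y), si_nEnd_of_fixed S σ _ (hinv _) p⟩
  have h2' : ∀ v : OffS S K,
      (∃ w : HeightOneSpectrum (𝓞 L),
        Ideal.comap (algebraMap (𝓞 K) (𝓞 L)) w.asIdeal = v.1.asIdeal ∧
          Ideal.absNorm w.asIdeal = Ideal.absNorm v.1.asIdeal) →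
      csOfDiv S K (Finsupp.single v 1) ∈ B := by
    rintro v ⟨w, hw1, hw2⟩
    have hwoff : ((sProd S : ℕ) : 𝓞 L) ∉ w.asIdeal := by
      intro h
      apply v.2
      rw [← hw1, Ideal.mem_comap, map_natCast]
      exact h
    have hunder : offUnder S K (⟨w, hwoff⟩ : OffS S L) = v := by
      apply Subtype.ext
      apply HeightOneSpectrum.ext
      ext x
      rw [← hw1]
      exact mem_primeUnder K w x
    have h3 := hN p S K L σ hfixσ hdeg hσ hunr v ⟨w, hwoff⟩ hunder hw2
    show csMap S K L (csOfDiv S K (Finsupp.single v 1)) ∈ LinearMap.range Nm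
    rw [csMap_csOfDiv, h3]
    exact ⟨csOfDiv S L (Finsupp.single ⟨w, hwoff⟩ 1), si_nEnd_csOfDiv S σ _ p⟩
  obtain ⟨hfin, hcard⟩ := h2 K L S B p hp.pos h1 h2'
  rw [hdeg] at hcard
  -- `C_S(K) ⧸ B ≃ ker (σ - 1) ⧸ im N`
  set Z : Submodule ℤ (CS S L) := LinearMap.ker (csEnd S σ - 1) with hZ
  have hmemZ : ∀ c : CS S L, c ∈ Z ↔ csEnd S σ c = c := by
    intro c
    rw [hZ, LinearMap.mem_ker, LinearMap.sub_apply, sub_eq_zero]
    rfl
  set φ : CS S K →ₗ[ℤ] ↥Z :=
    LinearMap.codRestrict Z (csMap S K L) (fun c => (hmemZ _).2 (hinv c)) with hφ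
  set ψ : CS S K →ₗ[ℤ] (↥Z ⧸ (LinearMap.range Nm).submoduleOf Z) :=
    ((LinearMap.range Nm).submoduleOf Z).mkQ ∘ₗ φ with hψ
  have hψsurj : Function.Surjective ψ := by
    intro z
    obtain ⟨z, rfl⟩ := Submodule.mkQ_surjective _ z
    have hz : csEnd S σ (z : CS S L) = z := (hmemZ _).1 z.2
    have hall : ∀ τ : L ≃ₐ[ℚ] L, (∀ x : K, τ (algebraMap K L x) = algebraMap K L x) →
        csEnd S τ (z : CS S L) = z := by
      intro τ hτ
      have h3 : Subgroup.zpowers σ ≤ csStab S (z : CS S L) := by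
        rw [Subgroup.zpowers_le]
        exact hz
      exact h3 (hgen τ hτ)
    obtain ⟨c₀, hc₀⟩ := hD S K L hS hunr (z : CS S L) hall
    refine ⟨c₀, ?_⟩
    show ((LinearMap.range Nm).submoduleOf Z).mkQ (φ c₀) = _
    congr 1
    exact Subtype.ext hc₀
  have hψker : LinearMap.ker ψ = B := by
    ext c
    rw [LinearMap.mem_ker, hψ, LinearMap.comp_apply, Submodule.mkQ_apply,
      Submodule.Quotient.mk_eq_zero]
    exact Iff.rfl
  have e : (CS S K ⧸ B) ≃ₗ[ℤ] (↥Z ⧸ (LinearMap.range Nm).submoduleOf Z) :=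
    (Submodule.quotEquivOfEq _ _ hψker.symm).trans (ψ.quotKerEquivOfSurjective hψsurj)
  have hcardeq : hqCard (csEnd S σ - 1) Nm = Nat.card (CS S K ⧸ B) := by
    rw [hqCard]
    exact (Nat.card_congr e.toEquiv).symm
  rw [hcardeq]
  exact ⟨Nat.card_pos.ne', hcard⟩

/-- **G2-glue**: the idelic second inequality gives `|Ĥ⁰(⟨σ⟩, C_S(L))| ≤ p`. -/
theorem stmtCSH0_of (h2 : Fermat.Agent.PT.G2.StmtIdelicSecond) (hD : StmtCSDescent)
    (hU : StmtUnramOff) (hN : StmtSplitNorm) : StmtCSH0 := by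
  intro p _ hp2 L _ _ σ hσ S hS hun
  refine stmtCSH0Rel_of h2 hD hN p hp2 L σ hσ S hS ?_
  have hfix : (IntermediateField.fixedField (Subgroup.zpowers σ)).fixingSubgroup =
      Subgroup.zpowers σ :=
    IntermediateField.fixingSubgroup_fixedField (Subgroup.zpowers σ)
  have : IsGalois ↥(IntermediateField.fixedField (Subgroup.zpowers σ)) L :=
    uhq_isGalois_fixedField (Subgroup.zpowers σ)
  have hdeg : Module.finrank ↥(IntermediateField.fixedField (Subgroup.zpowers σ)) L = p := by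
    rw [IntermediateField.finrank_fixedField_eq_card, Nat.card_zpowers, hσ]
  have hfixσ : ∀ x : ↥(IntermediateField.fixedField (Subgroup.zpowers σ)),
      σ (algebraMap ↥(IntermediateField.fixedField (Subgroup.zpowers σ)) L x) =
        algebraMap ↥(IntermediateField.fixedField (Subgroup.zpowers σ)) L x := by
    intro x
    have h1 : σ ∈ (IntermediateField.fixedField (Subgroup.zpowers σ)).fixingSubgroup := by
      rw [hfix]; exact Subgroup.mem_zpowers σ
    exact (IntermediateField.mem_fixingSubgroup_iff _ σ).1 h1 x x.2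
  exact hU p S _ L σ hfixσ hdeg hσ hun

/-- The cyclic case (relative form) from the two inequalities. -/
theorem stmtCSCyclicRel_of (h1 : StmtCSHQ) (h2 : StmtCSH0Rel) : StmtCSCyclicRel := by
  intro p _ hp2 L _ _ σ hσ S hS hun
  obtain ⟨-, ha, hb, hab⟩ := h1 p hp2 L σ hσ S hS
  obtain ⟨-, hle⟩ := h2 p hp2 L σ hσ S hS hun
  set a := hqCard (csEnd S σ - 1) (nEnd (csEnd S σ) p)
  set b := hqCard (nEnd (csEnd S σ) p) (csEnd S σ - 1)
  have hab' : a = p * b := by exact_mod_cast hab
  have hb1 : b = 1 := by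
    have hp0 : 0 < p := (Fact.out : p.Prime).pos
    have hbpos : 0 < b := Nat.pos_of_ne_zero hb
    have : p * b ≤ p * 1 := by rw [mul_one, ← hab']; exact hle
    have := Nat.le_of_mul_le_mul_left this hp0
    omega
  exact ⟨by rw [hab', hb1, mul_one], hb1⟩

end Fermat.Agent.PT.G


end ZBPT_059_1
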