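/- GENERATED FILE (helper35, build-time optimisation, NOTES/ZB.md): verbatim concatenation of the modules
   Fermat.Agent.PT.G1.Rank
   Do not edit; do not import together with these modules. -/
import Fermat.Agent.ZB.PT_006

/-! ### bundled: `Fermat.Agent.PT.G1.Rank` -/
section ZBPT_062_0
/-
PT-G1 piece HQ-rank (helper72): the rank formula for the Herbrand quotient of an automorphism of
prime order `p` of a finitely generated abelian group,
`h(M) = p ^ e`, `(p - 1) e = p · rk (M^σ) - rk M`.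
-/

set_option autoImplicit false

namespace Fermat.Agent.PT.G1

namespace Rk

section Basic

variable {X : Type*} [AddCommGroup X]

theorem rk_hqCard_eq (D N : X →ₗ[ℤ] X) :
    hqCard D N = (LinearMap.range N).toAddSubgroup.relIndex (LinearMap.ker D).toAddSubgroup :=
  rfl

/-- `hqCard 0 f = [X : f X]`. -/
theorem rk_hqCard_zero_left (f : X →ₗ[ℤ] X) :
    hqCard (0 : Module.End ℤ X) f = (LinearMap.range f).toAddSubgroup.index := by
  rw [rk_hqCard_eq]
  have : (LinearMap.ker (0 : Module.End ℤ X)) = ⊤ := LinearMap.ker_zero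
  rw [this]
  exact AddSubgroup.relIndex_top_right _

/-- `hqCard f 0 = |ker f|`. -/
theorem rk_hqCard_zero_right (f : X →ₗ[ℤ] X) (hf : Function.Injective f) :
    hqCard f (0 : Module.End ℤ X) = 1 := by
  rw [rk_hqCard_eq]
  have h1 : (LinearMap.ker f) = ⊥ := LinearMap.ker_eq_bot.mpr hf
  rw [h1]
  simp

variable [Module.Free ℤ X] [Module.Finite ℤ X]

/-- The index of the range of an injective endomorphism of a free module of finite rank. -/
theorem rk_index_range (f : X →ₗ[ℤ] X) (hf : Function.Injective f) :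
    (LinearMap.range f).toAddSubgroup.index = (LinearMap.det f).natAbs := by
  have h := Submodule.natAbs_det_equiv (LinearMap.range f) (LinearEquiv.ofInjective f hf)
  have h2 : (LinearMap.range f).subtype ∘ₗ
      (AddMonoidHom.toIntLinearMap ((LinearEquiv.ofInjective f hf : X ≃ₗ[ℤ] _) : X →+ _)) = f := by
    ext x
    rfl
  rw [h2] at h
  rw [h]
  rfl

omit [Module.Finite ℤ X] in
theorem rk_natCast_injective (c : ℕ) (hc : c ≠ 0) :
    Function.Injective ((c : Module.End ℤ X) : X →ₗ[ℤ] X) := by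
  have : IsAddTorsionFree X := IsAddTorsionFree.of_isTorsionFree ℤ X
  intro x y hxy
  exact IsAddTorsionFree.nsmul_right_injective hc hxy

omit [Module.Finite ℤ X] in
theorem rk_det_natCast (c : ℕ) :
    LinearMap.det ((c : Module.End ℤ X) : X →ₗ[ℤ] X) = (c : ℤ) ^ Module.finrank ℤ X := by
  have h := LinearMap.det_smul (c : ℤ) (LinearMap.id : X →ₗ[ℤ] X)
  rw [LinearMap.det_id, mul_one] at h
  rw [← h]
  congr 1
  ext x
  simp only [Module.End.natCast_apply, LinearMap.smul_apply, LinearMap.id_coe, id_eq]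
  exact (Nat.cast_smul_eq_nsmul ℤ c x).symm

/-- `|X / c X| = c ^ rank`. -/
theorem rk_index_range_natCast (c : ℕ) (hc : c ≠ 0) :
    (LinearMap.range ((c : Module.End ℤ X) : X →ₗ[ℤ] X)).toAddSubgroup.index =
      c ^ Module.finrank ℤ X := by
  rw [rk_index_range _ (rk_natCast_injective c hc), rk_det_natCast, Int.natAbs_pow,
    Int.natAbs_natCast]

/-- Base case A: trivial action on a free module of rank `a`: `h = p ^ a`. -/
theorem rk_baseA (p : ℕ) (hp : p ≠ 0) :
    HasHQ (0 : Module.End ℤ X) (p : Module.End ℤ X)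
      ((p : ℚ) ^ (Module.finrank ℤ X : ℤ)) := by
  have h1 : hqCard (0 : Module.End ℤ X) (p : Module.End ℤ X) =
      p ^ Module.finrank ℤ X := by
    rw [rk_hqCard_zero_left, rk_index_range_natCast _ hp]
  have h2 : hqCard (p : Module.End ℤ X) (0 : Module.End ℤ X) = 1 :=
    rk_hqCard_zero_right _ (rk_natCast_injective p hp)
  refine ⟨?_, ?_, ?_⟩
  · rw [h1]; exact pow_ne_zero _ hp
  · rw [h2]; exact one_ne_zero
  · rw [h1, h2]; simp

/-- Base case B: `N = 0`; the relation `p (1 + D g) + D ^ (p - 1) = 0` forces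
`|X / D X| ^ (p - 1) = p ^ rank`. -/
theorem rk_baseB (p : ℕ) (hp : p.Prime) (D g : Module.End ℤ X)
    (hcx : ∀ x : X, D (g x) = g (D x))
    (hrelx : ∀ x : X, p • x + p • D (g x) + (D ^ (p - 1)) x = 0) :
    ∃ b : ℕ, (p - 1) * b = Module.finrank ℤ X ∧
      HasHQ D (0 : Module.End ℤ X) ((p : ℚ) ^ (-(b : ℤ))) := by
  have : IsAddTorsionFree X := IsAddTorsionFree.of_isTorsionFree ℤ X
  have hp1 : p - 1 ≠ 0 := by have := hp.two_le; omega
  obtain ⟨n, hn⟩ : ∃ n, p - 1 = n + 1 := ⟨p - 2, by have := hp.two_le; omega⟩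
  -- `D` is injective
  have hDinj : Function.Injective D := by
    rw [← LinearMap.ker_eq_bot, LinearMap.ker_eq_bot']
    intro x hx
    have h := hrelx x
    rw [hcx, hx, map_zero, smul_zero, add_zero, hn, pow_succ, Module.End.mul_apply, hx, map_zero,
      add_zero] at h
    have h0 : p • x = p • (0 : X) := by rw [h, smul_zero]
    exact IsAddTorsionFree.nsmul_right_injective hp.ne_zero h0
  have hDpinj : Function.Injective (D ^ (p - 1)) := by
    rw [Module.End.coe_pow]
    exact hDinj.iterate _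
  -- `p X ⊆ D ^ k X` for `k ≤ p - 1`
  have hiter : ∀ k : ℕ, k ≤ p - 1 → ∀ x : X, ∃ y : X, p • x = (D ^ k) y := by
    intro k
    induction k with
    | zero => intro _ x; exact ⟨p • x, by simp⟩
    | succ k ih =>
      intro hk x
      obtain ⟨y', hy'⟩ := ih (by omega) (g x)
      obtain ⟨m, hm⟩ : ∃ m, p - 1 = m + (k + 1) := ⟨p - 1 - (k + 1), by omega⟩
      refine ⟨-((D ^ m) x) - y', ?_⟩
      have h := hrelx x
      have e1 : (D ^ (p - 1)) x = (D ^ (k + 1)) ((D ^ m) x) := by
        rw [← Module.End.mul_apply, ← pow_add, hm, add_comm]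
      have e2 : p • D (g x) = (D ^ (k + 1)) y' := by
        rw [← map_nsmul, hy', pow_succ', Module.End.mul_apply]
      rw [e1, e2] at h
      rw [map_sub, map_neg]
      have : p • x = -((D ^ (k + 1)) y' + (D ^ (k + 1)) ((D ^ m) x)) := by
        rw [eq_neg_iff_add_eq_zero, ← add_assoc]
        exact h
      rw [this]
      abel
  -- the two ranges coincide
  have hrange : LinearMap.range (D ^ (p - 1)) =
      LinearMap.range ((p : Module.End ℤ X) : X →ₗ[ℤ] X) := by
    apply le_antisymm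
    · rintro _ ⟨x, rfl⟩
      refine ⟨-(x + D (g x)), ?_⟩
      have h := hrelx x
      change p • (-(x + D (g x))) = (D ^ (p - 1)) x
      rw [smul_neg, smul_add]
      exact (eq_neg_of_add_eq_zero_right h).symm
    · rintro _ ⟨x, rfl⟩
      obtain ⟨y, hy⟩ := hiter (p - 1) le_rfl x
      exact ⟨y, hy.symm⟩
  -- determinants
  have hdet : (LinearMap.det D).natAbs ^ (p - 1) = p ^ Module.finrank ℤ X := by
    have h1 := rk_index_range (D ^ (p - 1)) hDpinj
    rw [hrange, rk_index_range_natCast _ hp.ne_zero] at h1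
    rw [h1]
    have : LinearMap.det (D ^ (p - 1)) = LinearMap.det D ^ (p - 1) := map_pow _ _ _
    rw [this, Int.natAbs_pow]
  set c := (LinearMap.det D).natAbs with hcdef
  obtain ⟨b, -, hb⟩ := (Nat.dvd_prime_pow hp).mp (hdet ▸ dvd_pow_self c hp1)
  have hbr : (p - 1) * b = Module.finrank ℤ X := by
    rw [hb, ← pow_mul] at hdet
    have := Nat.pow_right_injective hp.two_le hdet
    rw [mul_comm]; exact this
  have h1 : hqCard D (0 : Module.End ℤ X) = 1 := rk_hqCard_zero_right _ hDinj
  have h2 : hqCard (0 : Module.End ℤ X) D = p ^ b := by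
    rw [rk_hqCard_zero_left, rk_index_range _ hDinj, ← hcdef, hb]
  refine ⟨b, hbr, ?_, ?_, ?_⟩
  · rw [h1]; exact one_ne_zero
  · rw [h2]; exact pow_ne_zero _ hp.ne_zero
  · rw [h1, h2]
    have hpq : (p : ℚ) ≠ 0 := by exact_mod_cast hp.ne_zero
    push_cast
    rw [zpow_neg, zpow_natCast, inv_mul_cancel₀ (pow_ne_zero _ hpq)]

end Basic

section Identity

open Polynomial

/-- `∑_{i<p} (1 + X)^i = p (1 + X G) + X^(p-1)` in `ℤ[X]`. -/
theorem rk_poly (p : ℕ) (hp : p.Prime) :
    ∃ G : ℤ[X], (∑ i ∈ Finset.range p, (1 + X : ℤ[X]) ^ i) =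
      (p : ℤ[X]) * (1 + X * G) + X ^ (p - 1) := by
  have h := geom_sum_X_comp_X_add_one_eq_sum (R := ℤ) p
  have h1 : (∑ i ∈ Finset.range p, (X : ℤ[X]) ^ i).comp (X + 1) =
      ∑ i ∈ Finset.range p, (1 + X : ℤ[X]) ^ i := by
    rw [Polynomial.sum_comp]
    refine Finset.sum_congr rfl fun i _ => ?_
    rw [X_pow_comp, add_comm]
  rw [h1] at h
  obtain ⟨n, rfl⟩ : ∃ n, p = n + 2 := ⟨p - 2, by have := hp.two_le; omega⟩
  refine ⟨∑ j ∈ Finset.range n, (((n + 2).choose (j + 2) / (n + 2) : ℕ) : ℤ[X]) * X ^ j, ?_⟩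
  rw [h, Finset.sum_range_succ, Finset.sum_range_succ']
  have hmid : ∀ j ∈ Finset.range n, (((n + 2).choose (j + 1 + 1) : ℕ) : ℤ[X]) * X ^ (j + 1) =
      ((n + 2 : ℕ) : ℤ[X]) * (X * ((((n + 2).choose (j + 2) / (n + 2) : ℕ) : ℤ[X]) * X ^ j)) := by
    intro j hj
    have hj' := Finset.mem_range.mp hj
    have hdvd : (n + 2) ∣ (n + 2).choose (j + 2) :=
      hp.dvd_choose_self (by omega) (by omega)
    obtain ⟨c, hc⟩ := hdvd
    rw [hc, Nat.mul_div_cancel_left _ (by omega : 0 < n + 2)]
    push_cast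
    ring
  rw [Finset.sum_congr rfl hmid, ← Finset.mul_sum, ← Finset.mul_sum]
  simp only [Nat.choose_self, Nat.cast_one, one_mul, zero_add, Nat.choose_one_right, pow_zero,
    mul_one]
  have : n + 2 - 1 = n + 1 := by omega
  rw [this]
  ring

/-- The identity `∑_{i<p} σ^i = p (1 + D g) + D^(p-1)`, `D = σ - 1`, in any ring. -/
theorem rk_ring_identity {R : Type*} [Ring R] (p : ℕ) (hp : p.Prime) (σ : R) :
    ∃ g : R, (σ - 1) * g = g * (σ - 1) ∧
      (∑ i ∈ Finset.range p, σ ^ i) = (p : R) * (1 + (σ - 1) * g) + (σ - 1) ^ (p - 1) := by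
  obtain ⟨G, hG⟩ := rk_poly p hp
  refine ⟨aeval (σ - 1) G, ?_, ?_⟩
  · have h1 : (σ - 1) * aeval (σ - 1) G = aeval (σ - 1) (X * G) := by
      rw [map_mul, aeval_X]
    have h2 : aeval (σ - 1) G * (σ - 1) = aeval (σ - 1) (G * X) := by
      rw [map_mul, aeval_X]
    rw [h1, h2, mul_comm]
  · have := congrArg (aeval (σ - 1)) hG
    simpa using this

end Identity

section Reduction

theorem rk_finite_sub {M : Type*} [AddCommGroup M] [Module.Finite ℤ M] (S : Submodule ℤ M) :
    Module.Finite ℤ S :=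
  (inferInstance : @Module.Finite ℤ S _ _ S.module)

theorem rk_finite_quot {M : Type*} [AddCommGroup M] [Module.Finite ℤ M] (S : Submodule ℤ M) :
    Module.Finite ℤ (M ⧸ S) :=
  (inferInstance : @Module.Finite ℤ (M ⧸ S) _ _ (Submodule.Quotient.module S))

theorem rk_free_quot (M : Type*) [AddCommGroup M] [Module.Finite ℤ M] :
    Module.Free ℤ (M ⧸ Submodule.torsion ℤ M) :=
  have := rk_finite_quot (Submodule.torsion ℤ M)
  haveI : Module.IsTorsionFree ℤ (M ⧸ Submodule.torsion ℤ M) :=
    (inferInstance : @Module.IsTorsionFree ℤ (M ⧸ Submodule.torsion ℤ M) _ _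
      (Submodule.Quotient.module _))
  inferInstance

theorem rk_finrank_quot (M : Type*) [AddCommGroup M] :
    Module.finrank ℤ (M ⧸ Submodule.torsion ℤ M) = Module.finrank ℤ M :=
  finrank_quotient_eq_of_le_torsion le_rfl

theorem rk_finite_torsion (M : Type*) [AddCommGroup M] [Module.Finite ℤ M] :
    Finite (Submodule.torsion ℤ M) :=
  have := rk_finite_sub (Submodule.torsion ℤ M)
  Module.finite_of_fg_torsion _ (Submodule.torsion_isTorsion)

/-- Endomorphisms preserve the torsion submodule. -/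
theorem rk_torsion_stable {M : Type*} [AddCommGroup M] (f : Module.End ℤ M) :
    ∀ x ∈ Submodule.torsion ℤ M, f x ∈ Submodule.torsion ℤ M := by
  intro x hx
  rw [Submodule.mem_torsion_iff] at hx ⊢
  obtain ⟨a, ha⟩ := hx
  refine ⟨a, ?_⟩
  rw [Submonoid.smul_def] at ha ⊢
  rw [← map_smul, ha, map_zero]

/-- Torsion reduction: the Herbrand quotient of `M` is that of `M / torsion`. -/
theorem rk_torsion_reduction (hex : StmtHexagon) (fin : StmtFinite)
    (M : Type) [AddCommGroup M] [Module.Finite ℤ M]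
    (D N : Module.End ℤ M) (hDN : D * N = 0) (hND : N * D = 0)
    (D' N' : Module.End ℤ (M ⧸ Submodule.torsion ℤ M))
    (hD : D' ∘ₗ (Submodule.torsion ℤ M).mkQ = (Submodule.torsion ℤ M).mkQ ∘ₗ D)
    (hN : N' ∘ₗ (Submodule.torsion ℤ M).mkQ = (Submodule.torsion ℤ M).mkQ ∘ₗ N)
    (q : ℚ) (h : HasHQ D' N' q) : HasHQ D N q := by
  have hfinT : Finite (Submodule.torsion ℤ M) := rk_finite_torsion M
  have hDNx : ∀ x, D (N x) = 0 := fun x => congrArg (fun f : Module.End ℤ M => f x) hDN
  have hNDx : ∀ x, N (D x) = 0 := fun x => congrArg (fun f : Module.End ℤ M => f x) hND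
  have hDx : ∀ x, D' ((Submodule.torsion ℤ M).mkQ x) = (Submodule.torsion ℤ M).mkQ (D x) :=
    fun x => congrArg (fun f => f x) hD
  have hNx : ∀ x, N' ((Submodule.torsion ℤ M).mkQ x) = (Submodule.torsion ℤ M).mkQ (N x) :=
    fun x => congrArg (fun f => f x) hN
  have hA : HasHQ (D.restrict (rk_torsion_stable D)) (N.restrict (rk_torsion_stable N)) 1 := by
    refine fin _ _ _ ?_ ?_
    · ext x
      simp [hDNx]
    · ext x
      simp [hNDx]
  have hD'N' : D' * N' = 0 := by
    refine LinearMap.ext fun y => ?_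
    obtain ⟨x, rfl⟩ := (Submodule.torsion ℤ M).mkQ_surjective y
    rw [Module.End.mul_apply, hNx, hDx, hDNx, map_zero]
    rfl
  have hN'D' : N' * D' = 0 := by
    refine LinearMap.ext fun y => ?_
    obtain ⟨x, rfl⟩ := (Submodule.torsion ℤ M).mkQ_surjective y
    rw [Module.End.mul_apply, hDx, hNx, hNDx, map_zero]
    rfl
  have key := (hex (Submodule.torsion ℤ M) M (M ⧸ Submodule.torsion ℤ M)
    (D.restrict (rk_torsion_stable D)) (N.restrict (rk_torsion_stable N)) D N D' N'
    (Submodule.torsion ℤ M).subtype (Submodule.torsion ℤ M).mkQ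
    (by ext x; simp [hDNx]) (by ext x; simp [hNDx]) hDN hND hD'N' hN'D'
    (Submodule.torsion ℤ M).injective_subtype (Submodule.torsion ℤ M).mkQ_surjective
    (by rw [Submodule.range_subtype, Submodule.ker_mkQ])
    (by ext x; rfl) (by ext x; rfl) hD.symm hN.symm 1 0 q).1 hA h
  simpa using key

/-- Base case A for finitely generated modules. -/
theorem rk_baseA' (hex : StmtHexagon) (fin : StmtFinite)
    (X : Type) [AddCommGroup X] [Module.Finite ℤ X] (p : ℕ) (hp : p ≠ 0) :
    HasHQ (0 : Module.End ℤ X) (p : Module.End ℤ X)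
      ((p : ℚ) ^ (Module.finrank ℤ X : ℤ)) := by
  have := rk_finite_quot (Submodule.torsion ℤ X)
  have := rk_free_quot X
  have h := rk_baseA (X := X ⧸ Submodule.torsion ℤ X) p hp
  rw [rk_finrank_quot] at h
  refine rk_torsion_reduction hex fin X 0 p (by simp) (by simp) 0 p ?_ ?_ _ h
  · ext x; simp
  · ext x; simp

/-- Base case B for finitely generated modules. -/
theorem rk_baseB' (hex : StmtHexagon) (fin : StmtFinite)
    (X : Type) [AddCommGroup X] [Module.Finite ℤ X] (p : ℕ) (hp : p.Prime)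
    (D g : Module.End ℤ X) (hcx : ∀ x : X, D (g x) = g (D x))
    (hrelx : ∀ x : X, p • x + p • D (g x) + (D ^ (p - 1)) x = 0) :
    ∃ b : ℕ, (p - 1) * b = Module.finrank ℤ X ∧
      HasHQ D (0 : Module.End ℤ X) ((p : ℚ) ^ (-(b : ℤ))) := by
  have := rk_finite_quot (Submodule.torsion ℤ X)
  have := rk_free_quot X
  have hDle : Submodule.torsion ℤ X ≤ (Submodule.torsion ℤ X).comap D := rk_torsion_stable D
  have hgle : Submodule.torsion ℤ X ≤ (Submodule.torsion ℤ X).comap g := rk_torsion_stable g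
  set D' : Module.End ℤ (X ⧸ Submodule.torsion ℤ X) :=
    (Submodule.torsion ℤ X).mapQ (Submodule.torsion ℤ X) D hDle with hD'
  set g' : Module.End ℤ (X ⧸ Submodule.torsion ℤ X) :=
    (Submodule.torsion ℤ X).mapQ (Submodule.torsion ℤ X) g hgle with hg'
  have hDx : ∀ x, D' ((Submodule.torsion ℤ X).mkQ x) = (Submodule.torsion ℤ X).mkQ (D x) :=
    fun x => rfl
  have hgx : ∀ x, g' ((Submodule.torsion ℤ X).mkQ x) = (Submodule.torsion ℤ X).mkQ (g x) :=
    fun x => rfl
  have hpow : ∀ (k : ℕ) (x : X),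
      (D' ^ k) ((Submodule.torsion ℤ X).mkQ x) = (Submodule.torsion ℤ X).mkQ ((D ^ k) x) := by
    intro k
    induction k with
    | zero => intro x; simp
    | succ k ih =>
      intro x
      rw [pow_succ, Module.End.mul_apply, hDx, ih, pow_succ, Module.End.mul_apply]
  obtain ⟨b, hb, hB⟩ := rk_baseB (X := X ⧸ Submodule.torsion ℤ X) p hp D' g' (by
      intro y
      obtain ⟨x, rfl⟩ := (Submodule.torsion ℤ X).mkQ_surjective y
      rw [hgx, hDx, hDx, hgx, hcx]) (by
      intro y
      obtain ⟨x, rfl⟩ := (Submodule.torsion ℤ X).mkQ_surjective y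
      rw [hgx, hDx, hpow, ← map_nsmul, ← map_nsmul, ← map_add, ← map_add, hrelx, map_zero])
  rw [rk_finrank_quot] at hb
  refine ⟨b, hb, ?_⟩
  refine rk_torsion_reduction hex fin X D 0 (by simp) (by simp) D' 0 ?_ ?_ _ hB
  · ext x; rfl
  · ext x; simp

end Reduction

end Rk

open Rk in
/-- **HQ-rank**: the rank formula for the Herbrand quotient, from the hexagon and the finite
case. -/
theorem stmtRank_of (hex : StmtHexagon) (fin : StmtFinite) : StmtRank := by
  intro p hp M _ inst _ σ hσ e he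
  obtain rfl : inst = AddCommGroup.toIntModule M := Subsingleton.elim _ _
  have hpp : p.Prime := hp.out
  have := rk_finite_sub (LinearMap.ker (σ - 1 : Module.End ℤ M))
  have := rk_finite_sub (LinearMap.range (σ - 1 : Module.End ℤ M))
  obtain ⟨g, hgc, hid⟩ := rk_ring_identity p hpp σ
  have hDN : (σ - 1) * nEnd σ p = 0 := by rw [nEnd, mul_geom_sum, hσ, sub_self]
  have hND : nEnd σ p * (σ - 1) = 0 := by rw [nEnd, geom_sum_mul, hσ, sub_self]
  refine ⟨hσ, ?_⟩
  have hDNx : ∀ x, (σ - 1) (nEnd σ p x) = 0 :=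
    fun x => congrArg (fun f : Module.End ℤ M => f x) hDN
  have hNDx : ∀ x, nEnd σ p ((σ - 1) x) = 0 :=
    fun x => congrArg (fun f : Module.End ℤ M => f x) hND
  have hNx : ∀ x, nEnd σ p x = p • x + p • (σ - 1) (g x) + ((σ - 1) ^ (p - 1)) x := by
    intro x
    have := congrArg (fun f : Module.End ℤ M => f x) hid
    simpa [nEnd, mul_add, smul_add, add_assoc] using this
  have hgcx : ∀ x, (σ - 1) (g x) = g ((σ - 1) x) :=
    fun x => congrArg (fun f : Module.End ℤ M => f x) hgc
  -- the two base cases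
  have hA := rk_baseA' hex fin (LinearMap.ker (σ - 1 : Module.End ℤ M)) p hpp.ne_zero
  have hCstabD : ∀ x ∈ LinearMap.range (σ - 1 : Module.End ℤ M),
      (σ - 1 : Module.End ℤ M) x ∈ LinearMap.range (σ - 1 : Module.End ℤ M) :=
    fun x _ => ⟨x, rfl⟩
  have hCstabg : ∀ x ∈ LinearMap.range (σ - 1 : Module.End ℤ M),
      g x ∈ LinearMap.range (σ - 1 : Module.End ℤ M) := by
    rintro _ ⟨y, rfl⟩
    exact ⟨g y, hgcx y⟩
  have hpowC : ∀ (k : ℕ) (c : LinearMap.range (σ - 1 : Module.End ℤ M)),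
      ((((σ - 1 : Module.End ℤ M).restrict hCstabD ^ k) c : _) : M) =
        ((σ - 1 : Module.End ℤ M) ^ k) (c : M) := by
    intro k
    induction k with
    | zero => intro c; simp
    | succ k ih =>
      intro c
      rw [pow_succ, Module.End.mul_apply, ih, pow_succ, Module.End.mul_apply]
      rfl
  obtain ⟨b, hb, hC⟩ := rk_baseB' hex fin (LinearMap.range (σ - 1 : Module.End ℤ M)) p hpp
    ((σ - 1 : Module.End ℤ M).restrict hCstabD) (g.restrict hCstabg) (by
      intro c
      apply Subtype.ext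
      exact hgcx c.1) (by
      intro c
      apply Subtype.ext
      obtain ⟨y, hy⟩ := c.2
      have h1 := hNx c.1
      rw [← hy, hNDx, hy] at h1
      simp only [Submodule.coe_add, hpowC, Submodule.coe_zero]
      exact h1.symm)
  have key := (hex (LinearMap.ker (σ - 1 : Module.End ℤ M)) M
    (LinearMap.range (σ - 1 : Module.End ℤ M))
    0 (p : Module.End ℤ _) (σ - 1) (nEnd σ p) ((σ - 1 : Module.End ℤ M).restrict hCstabD) 0
    (LinearMap.ker (σ - 1 : Module.End ℤ M)).subtype (σ - 1 : Module.End ℤ M).rangeRestrict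
    (by simp) (by simp) hDN hND (by simp) (by simp)
    (LinearMap.ker (σ - 1 : Module.End ℤ M)).injective_subtype
    (LinearMap.surjective_rangeRestrict _)
    (by rw [Submodule.range_subtype, LinearMap.ker_rangeRestrict])
    (by
      ext x
      have := x.2
      rw [LinearMap.mem_ker] at this
      simp [this])
    (by
      ext x
      have hx := x.2
      rw [LinearMap.mem_ker] at hx
      have h1 := hNx x.1
      have h2 : ((σ - 1 : Module.End ℤ M) ^ (p - 1)) x.1 = 0 := by
        obtain ⟨n, hn⟩ : ∃ n, p - 1 = n + 1 := ⟨p - 2, by have := hpp.two_le; omega⟩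
        rw [hn, pow_succ, Module.End.mul_apply, hx, map_zero]
      rw [hgcx, hx, map_zero, smul_zero, add_zero, h2, add_zero] at h1
      simp [h1])
    (by ext x; rfl)
    (by
      ext x
      simp [hDNx])
    _ 0 _).1 hA hC
  -- the exponent
  have hrank : Module.finrank ℤ (LinearMap.range (σ - 1 : Module.End ℤ M)) +
      Module.finrank ℤ (LinearMap.ker (σ - 1 : Module.End ℤ M)) = Module.finrank ℤ M := by
    rw [← (LinearMap.ker (σ - 1 : Module.End ℤ M)).finrank_quotient_add_finrank,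
      LinearEquiv.finrank_eq (σ - 1 : Module.End ℤ M).quotKerEquivRange]
  have hp1 : ((p : ℤ) - 1) ≠ 0 := by
    have := hpp.two_le
    have : (2 : ℤ) ≤ p := by exact_mod_cast this
    omega
  have hbZ : ((p : ℤ) - 1) * b =
      (Module.finrank ℤ (LinearMap.range (σ - 1 : Module.End ℤ M)) : ℤ) := by
    have := hpp.one_le
    rw [← hb]
    push_cast [Nat.cast_sub this]
    ring
  have he' : e = (Module.finrank ℤ (LinearMap.ker (σ - 1 : Module.End ℤ M)) : ℤ) + -(b : ℤ) := by
    apply mul_left_cancel₀ hp1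
    rw [he, mul_add, mul_neg, hbZ, ← hrank]
    push_cast
    ring
  have hpq : (p : ℚ) ≠ 0 := by exact_mod_cast hpp.ne_zero
  rw [he', zpow_add₀ hpq]
  exact key

end Fermat.Agent.PT.G1


end ZBPT_062_0
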