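/- GENERATED FILE (helper35, build-time optimisation, NOTES/ZB.md): verbatim concatenation of the modules
   Fermat.Agent.PT.G1.InfCount
   Do not edit; do not import together with these modules. -/
import Fermat.Agent.ZB.PT_006

/-! ### bundled: `Fermat.Agent.PT.G1.InfCount` -/
section ZBPT_064_0

/-!
# PT-G1, piece U-inf: infinite places in a Galois extension of odd degree

In a Galois extension `L/K` of number fields of odd degree `p` every infinite place is unramified,
so `#(infinite places of L) = p · #(infinite places of K)`, i.e. `r_L + 1 = p (r_K + 1)`.
-/

set_option autoImplicit false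

namespace Fermat.Agent.PT.G1

open NumberField

/-- The number of infinite places of a number field is `rank + 1`. -/
theorem infCount_rank_add_one (K : Type*) [Field K] [NumberField K] :
    Units.rank K + 1 = Fintype.card (InfinitePlace K) := by
  have h : 0 < Fintype.card (InfinitePlace K) := Fintype.card_pos
  unfold Units.rank
  omega

/-- **U-inf.** -/
theorem stmtInfCount : StmtInfCount := by
  intro p hp K L _ _ _ _ _ _ hdeg
  have hodd : Odd (Module.finrank K L) := by rw [hdeg]; exact hp
  have : IsUnramifiedAtInfinitePlaces K L := IsUnramifiedAtInfinitePlaces_of_odd_finrank hodd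
  rw [infCount_rank_add_one, infCount_rank_add_one,
    IsUnramifiedAtInfinitePlaces.card_infinitePlace K L, hdeg, mul_comm]

end Fermat.Agent.PT.G1


end ZBPT_064_0
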