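/- GENERATED FILE (helper35, build-time optimisation, NOTES/ZB.md): verbatim concatenation of the modules
   Fermat.Agent.PT.G3.LocalSymbol
   Fermat.Agent.PT.G3.IdeleSymbol
   Fermat.Agent.PT.G3.SymbolCS
   Fermat.Agent.PT.G3.Plan3
   Fermat.Agent.PT.G3.GA
   Fermat.Agent.PT.G3.PsiTors
   Fermat.Agent.PT.G3.CycPlan
   Fermat.Agent.PT.G3.CycGal
   Fermat.Agent.PT.G3.CycLambda
   Fermat.Agent.PT.G3.CycEPrime
   Fermat.Agent.PT.G3.CycExt
   Fermat.Agent.PT.G3.CycTheta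
   Fermat.Agent.PT.G3.PlanGB
   Fermat.Agent.PT.G3.GBRed
   Fermat.Agent.PT.G3.GBPsiNontriv
   Do not edit; do not import together with these modules. -/
import Mathlib
import Fermat.Agent.ZB.PT_006
import Fermat.Agent.ZB.PT_007
import Fermat.Agent.ZB.PT_009

/-! ### bundled: `Fermat.Agent.PT.G3.LocalSymbol` -/
section ZBPT_078_0

/-!
# Project PT, piece G3-S3: the local norm symbols on `ℚ_[q]ˣ` and the product formula

For primes `p`, `q` and `n : ℕ` we define `psiQ p n q : ℚ_[q]ˣ →* (ZMod (p^(n+1)))ˣ`: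

* `q ≠ p` : `x ↦ q ^ ((p-1) * v_q(x))`  (the unramified symbol, `Frob_q ^ v_q(x)`);
* `q = p` : `x ↦ (x / p^(v_p x) mod p^(n+1)) ^ (-(p-1))`  (the cyclotomic symbol).

**Product formula** (`finprod_psiRat`): for `x : ℚˣ`, `∏ᶠ q, psiQ p n q x = 1` (`p` odd).
This is the reciprocity law of the cyclotomic `ℤ_p`-extension of `ℚ` in idelic form.
-/

set_option autoImplicit false

namespace Fermat.Agent.PT.G3

section UnitPart

variable (p : ℕ) [hp : Fact p.Prime]

theorem norm_mul_zpow_neg_valuation {x : ℚ_[p]} (hx : x ≠ 0) :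
    ‖x * (p : ℚ_[p]) ^ (-x.valuation)‖ = 1 := by
  have hp0 : (p : ℝ) ≠ 0 := by exact_mod_cast hp.out.ne_zero
  rw [norm_mul, Padic.norm_p_zpow, Padic.norm_eq_zpow_neg_valuation hx, neg_neg,
    ← zpow_add₀ hp0]
  simp

/-- The unit part `x ↦ x · p^(-v_p(x))`, as a homomorphism `ℚ_[p]ˣ →* ℤ_[p]ˣ`. -/
noncomputable def padicUnitPart : ℚ_[p]ˣ →* ℤ_[p]ˣ where
  toFun x := PadicInt.mkUnits (norm_mul_zpow_neg_valuation p x.ne_zero)
  map_one' := by
    apply Units.ext
    apply Subtype.ext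
    simp [PadicInt.val_mkUnits]
  map_mul' x y := by
    apply Units.ext
    apply Subtype.ext
    simp only [Units.val_mul, PadicInt.val_mkUnits]
    show (x : ℚ_[p]) * y * (p : ℚ_[p]) ^ (-((x : ℚ_[p]) * y).valuation) =
      ((x : ℚ_[p]) * (p : ℚ_[p]) ^ (-(x : ℚ_[p]).valuation)) *
        ((y : ℚ_[p]) * (p : ℚ_[p]) ^ (-(y : ℚ_[p]).valuation))
    rw [Padic.valuation_mul x.ne_zero y.ne_zero, neg_add,
      zpow_add₀ (by exact_mod_cast hp.out.ne_zero : (p : ℚ_[p]) ≠ 0)]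
    ring

theorem coe_padicUnitPart (x : ℚ_[p]ˣ) :
    (((padicUnitPart p x : ℤ_[p]ˣ) : ℤ_[p]) : ℚ_[p]) = (x : ℚ_[p]) * (p : ℚ_[p]) ^ (-(x : ℚ_[p]).valuation) :=
  rfl

end UnitPart

section Local

variable (p n : ℕ) [hp : Fact p.Prime]

/-- The symbol at `p`: `x ↦ (unit part of x mod p^(n+1)) ^ (-(p-1))`. -/
noncomputable def psiP : ℚ_[p]ˣ →* (ZMod (p ^ (n + 1)))ˣ :=
  (((Units.map (PadicInt.toZModPow (n + 1) : ℤ_[p] →+* ZMod (p ^ (n + 1))).toMonoidHom).comp
    (padicUnitPart p)) ^ (p - 1))⁻¹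

theorem psiP_apply (x : ℚ_[p]ˣ) :
    psiP p n x = ((Units.map (PadicInt.toZModPow (n + 1) : ℤ_[p] →+* ZMod (p ^ (n + 1))).toMonoidHom
      (padicUnitPart p x)) ^ (p - 1))⁻¹ := rfl

theorem coprime_pow_of_ne {q : ℕ} (hq : q.Prime) (h : q ≠ p) : q.Coprime (p ^ (n + 1)) :=
  Nat.Coprime.pow_right _ ((Nat.coprime_primes hq hp.out).mpr h)

/-- The symbol at `q ≠ p`: `x ↦ q ^ ((p-1) * v_q(x))`. -/
noncomputable def psiAway (q : ℕ) [hq : Fact q.Prime] (h : q ≠ p) :
    ℚ_[q]ˣ →* (ZMod (p ^ (n + 1)))ˣ where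
  toFun x := (ZMod.unitOfCoprime q (coprime_pow_of_ne p n hq.out h)) ^
    (((p - 1 : ℕ) : ℤ) * (x : ℚ_[q]).valuation)
  map_one' := by simp
  map_mul' x y := by
    rw [Units.val_mul, Padic.valuation_mul x.ne_zero y.ne_zero, mul_add, zpow_add]

/-- The local symbol `ψ_q : ℚ_[q]ˣ →* (ℤ/p^(n+1))ˣ`. -/
noncomputable def psiQ (q : ℕ) [hq : Fact q.Prime] : ℚ_[q]ˣ →* (ZMod (p ^ (n + 1)))ˣ :=
  if h : q = p then h ▸ psiP p n else psiAway p n q h

theorem psiQ_self : psiQ p n p = psiP p n := by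
  simp [psiQ]

theorem psiQ_of_ne (q : ℕ) [hq : Fact q.Prime] (h : q ≠ p) : psiQ p n q = psiAway p n q h := by
  simp [psiQ, h]

/-- The local symbol restricted to `ℚˣ` (trivial if `q` is not prime). -/
noncomputable def psiRat (q : ℕ) : ℚˣ →* (ZMod (p ^ (n + 1)))ˣ :=
  if hq : q.Prime then
    haveI : Fact q.Prime := ⟨hq⟩
    (psiQ p n q).comp (Units.map (Rat.castHom ℚ_[q]).toMonoidHom)
  else 1

end Local

section Rational

variable (p n : ℕ) [hp : Fact p.Prime]

theorem psiRat_of_not_prime {q : ℕ} (hq : ¬ q.Prime) (x : ℚˣ) : psiRat p n q x = 1 := by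
  simp [psiRat, hq]

theorem psiRat_of_ne {q : ℕ} (hq : q.Prime) (h : q ≠ p) (x : ℚˣ) :
    psiRat p n q x = (ZMod.unitOfCoprime q (coprime_pow_of_ne p n hq h)) ^
      (((p - 1 : ℕ) : ℤ) * padicValRat q (x : ℚ)) := by
  haveI : Fact q.Prime := ⟨hq⟩
  simp only [psiRat, hq, dif_pos, MonoidHom.comp_apply]
  rw [psiQ_of_ne p n q h]
  simp only [psiAway, MonoidHom.coe_mk, OneHom.coe_mk, Units.coe_map, RingHom.toMonoidHom_eq_coe,
    MonoidHom.coe_coe, Rat.coe_castHom, Padic.valuation_ratCast]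

theorem psiRat_of_ne_of_padicValRat_eq_zero {q : ℕ} (h : q ≠ p) (x : ℚˣ)
    (hx : padicValRat q (x : ℚ) = 0) : psiRat p n q x = 1 := by
  by_cases hq : q.Prime
  · rw [psiRat_of_ne p n hq h, hx, mul_zero, zpow_zero]
  · exact psiRat_of_not_prime p n hq x

theorem psiRat_self (x : ℚˣ) :
    psiRat p n p x = ((Units.map (PadicInt.toZModPow (n + 1) : ℤ_[p] →+* ZMod (p ^ (n + 1))).toMonoidHom
      (padicUnitPart p (Units.map (Rat.castHom ℚ_[p]).toMonoidHom x))) ^ (p - 1))⁻¹ := by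
  simp only [psiRat, hp.out, dif_pos, MonoidHom.comp_apply]
  rw [psiQ_self, psiP_apply]

/-- For an integer `a` prime to `p`, the symbol at `p` is `a ^ (-(p-1))`. -/
theorem coe_psiRat_self_inv_of_int (x : ℚˣ) (a : ℤ) (hxa : (x : ℚ) = a) (ha : ¬ (p : ℤ) ∣ a) :
    (((psiRat p n p x)⁻¹ : (ZMod (p ^ (n + 1)))ˣ) : ZMod (p ^ (n + 1))) =
      (a : ZMod (p ^ (n + 1))) ^ (p - 1) := by
  rw [psiRat_self, inv_inv, Units.val_pow_eq_pow_val]
  congr 1
  have ha0 : a ≠ 0 := by rintro rfl; exact ha (dvd_zero _)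
  have hval : ((a : ℚ_[p])).valuation = 0 := by
    rw [Padic.valuation_intCast]
    exact_mod_cast padicValInt.eq_zero_of_not_dvd ha
  have h1 : (padicUnitPart p (Units.map (Rat.castHom ℚ_[p]).toMonoidHom x) : ℤ_[p]) =
      (a : ℤ_[p]) := by
    apply Subtype.ext
    rw [coe_padicUnitPart]
    have : ((Units.map (Rat.castHom ℚ_[p]).toMonoidHom x : ℚ_[p]ˣ) : ℚ_[p]) = (a : ℚ_[p]) := by
      simp [hxa]
    rw [this, hval]
    simp
  simp only [Units.coe_map, RingHom.toMonoidHom_eq_coe, MonoidHom.coe_coe]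
  have h2 := congrArg (PadicInt.toZModPow (n + 1) : ℤ_[p] →+* ZMod (p ^ (n + 1))) h1
  rw [map_intCast] at h2
  exact h2

/-- The support of `q ↦ ψ_q(x)` is finite. -/
theorem finite_mulSupport_psiRat (x : ℚˣ) :
    (Function.mulSupport fun q : ℕ => psiRat p n q x).Finite := by
  have hsub : (Function.mulSupport fun q : ℕ => psiRat p n q x) ⊆
      insert p (((x : ℚ).num.natAbs.primeFactors ∪ (x : ℚ).den.primeFactors : Finset ℕ) : Set ℕ) := by
    intro q hq
    rw [Function.mem_mulSupport] at hq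
    by_cases hqp : q = p
    · left; exact hqp
    right
    by_cases hqprime : q.Prime
    · by_contra hmem
      apply hq
      apply psiRat_of_ne_of_padicValRat_eq_zero p n hqp x
      haveI : Fact q.Prime := ⟨hqprime⟩
      simp only [Finset.coe_union, Set.mem_union, Finset.mem_coe, Nat.mem_primeFactors,
        not_or, not_and, not_not] at hmem
      have hnum : (x : ℚ).num ≠ 0 := Rat.num_ne_zero.mpr x.ne_zero
      have h1 : ¬ q ∣ (x : ℚ).num.natAbs := fun hd =>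
        (Int.natAbs_ne_zero.mpr hnum) (hmem.1 hqprime hd)
      have h2 : ¬ q ∣ (x : ℚ).den := fun hd => (x : ℚ).den_ne_zero (hmem.2 hqprime hd)
      rw [padicValRat, padicValInt, padicValNat.eq_zero_of_not_dvd h1,
        padicValNat.eq_zero_of_not_dvd h2]
      simp
    · exact absurd (psiRat_of_not_prime p n hqprime x) hq
  exact Set.Finite.subset (Set.Finite.insert _ (Finset.finite_toSet _)) hsub

/-- The total symbol `x ↦ ∏_q ψ_q(x)` on `ℚˣ`. -/
noncomputable def psiTot : ℚˣ →* (ZMod (p ^ (n + 1)))ˣ where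
  toFun x := ∏ᶠ q : ℕ, psiRat p n q x
  map_one' := by simp
  map_mul' x y := by
    simp_rw [map_mul]
    exact finprod_mul_distrib (finite_mulSupport_psiRat p n x) (finite_mulSupport_psiRat p n y)

theorem psiTot_apply (x : ℚˣ) : psiTot p n x = ∏ᶠ q : ℕ, psiRat p n q x := rfl

/-- `ψ_p(p) = 1`. -/
theorem psiRat_self_prime (x : ℚˣ) (hx : (x : ℚ) = p) : psiRat p n p x = 1 := by
  rw [psiRat_self]
  have h1 : padicUnitPart p (Units.map (Rat.castHom ℚ_[p]).toMonoidHom x) = 1 := by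
    apply Units.ext
    apply Subtype.ext
    rw [coe_padicUnitPart]
    have : ((Units.map (Rat.castHom ℚ_[p]).toMonoidHom x : ℚ_[p]ˣ) : ℚ_[p]) = (p : ℚ_[p]) := by
      simp [hx]
    rw [this, Padic.valuation_p]
    have hp0 : (p : ℚ_[p]) ≠ 0 := by exact_mod_cast hp.out.ne_zero
    simp [hp0]
  rw [h1]; simp

/-- The product formula at a prime `ℓ`. -/
theorem psiTot_prime (hodd : Odd p) (ℓ : ℕ) (hℓ : ℓ.Prime) (x : ℚˣ) (hx : (x : ℚ) = ℓ) :
    psiTot p n x = 1 := by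
  rw [psiTot_apply]
  by_cases hℓp : ℓ = p
  · subst hℓp
    have hsupp : ∀ q : ℕ, q ≠ ℓ → psiRat ℓ n q x = 1 := by
      intro q hq
      apply psiRat_of_ne_of_padicValRat_eq_zero ℓ n hq x
      by_cases hqprime : q.Prime
      · haveI : Fact q.Prime := ⟨hqprime⟩
        rw [hx]
        have : padicValRat q (ℓ : ℚ) = padicValNat q ℓ := by exact_mod_cast padicValRat.of_nat
        rw [this]
        have hnd : ¬ q ∣ ℓ := fun hd => hq ((Nat.prime_dvd_prime_iff_eq hqprime hℓ).mp hd)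
        exact_mod_cast padicValNat.eq_zero_of_not_dvd hnd
      · rw [hx]
        have : padicValRat q (ℓ : ℚ) = padicValNat q ℓ := by exact_mod_cast padicValRat.of_nat
        rw [this]
        have h0 : padicValNat q ℓ = 0 := by
          rcases Nat.lt_or_ge 1 q with h1 | h1
          · apply padicValNat.eq_zero_of_not_dvd
            intro hd
            rcases (Nat.dvd_prime hℓ).mp hd with h2 | h2
            · omega
            · exact hqprime (h2 ▸ hℓ)
          · interval_cases q <;> simp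
        exact_mod_cast h0
    rw [finprod_eq_single _ ℓ hsupp]
    exact psiRat_self_prime ℓ n x hx
  · -- two factors: at `ℓ` and at `p`
    have hsupp : ∀ q : ℕ, q ∉ ({ℓ, p} : Finset ℕ) → psiRat p n q x = 1 := by
      intro q hq
      simp only [Finset.mem_insert, Finset.mem_singleton, not_or] at hq
      apply psiRat_of_ne_of_padicValRat_eq_zero p n hq.2 x
      rw [hx]
      have : padicValRat q (ℓ : ℚ) = padicValNat q ℓ := by exact_mod_cast padicValRat.of_nat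
      rw [this]
      have h0 : padicValNat q ℓ = 0 := by
        rcases Nat.lt_or_ge 1 q with h1 | h1
        · apply padicValNat.eq_zero_of_not_dvd
          intro hd
          rcases (Nat.dvd_prime hℓ).mp hd with h2 | h2
          · omega
          · exact hq.1 h2
        · interval_cases q <;> simp
      exact_mod_cast h0
    rw [finprod_eq_prod_of_mulSupport_subset (s := ({ℓ, p} : Finset ℕ))]
    · rw [Finset.prod_pair hℓp]
      -- `ψ_ℓ(ℓ) = ℓ^(p-1)`, `ψ_p(ℓ) = ℓ^(-(p-1))`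
      have h1 : psiRat p n ℓ x = (ZMod.unitOfCoprime ℓ (coprime_pow_of_ne p n hℓ hℓp)) ^ (p - 1) := by
        rw [psiRat_of_ne p n hℓ hℓp, hx]
        haveI : Fact ℓ.Prime := ⟨hℓ⟩
        have : padicValRat ℓ (ℓ : ℚ) = 1 := by
          have := padicValRat.self (p := ℓ) hℓ.one_lt
          exact_mod_cast this
        rw [this, mul_one, zpow_natCast]
      have h2 : (psiRat p n p x)⁻¹ =
          (ZMod.unitOfCoprime ℓ (coprime_pow_of_ne p n hℓ hℓp)) ^ (p - 1) := by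
        apply Units.ext
        have hnd : ¬ (p : ℤ) ∣ (ℓ : ℤ) := by
          intro hd
          have : p ∣ ℓ := by exact_mod_cast hd
          exact hℓp ((Nat.prime_dvd_prime_iff_eq hp.out hℓ).mp this).symm
        rw [coe_psiRat_self_inv_of_int p n x (ℓ : ℤ) (by rw [hx]; simp) hnd]
        simp
      rw [h1, ← h2, inv_mul_cancel]
    · intro q hq
      rw [Function.mem_mulSupport] at hq
      by_contra hmem
      exact hq (hsupp q hmem)

/-- The product formula at `-1`. -/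
theorem psiTot_neg_one (hodd : Odd p) : psiTot p n (-1) = 1 := by
  rw [psiTot_apply]
  have hsupp : ∀ q : ℕ, q ≠ p → psiRat p n q (-1) = 1 := by
    intro q hq
    apply psiRat_of_ne_of_padicValRat_eq_zero p n hq
    simp
  rw [finprod_eq_single _ p hsupp]
  have hnd : ¬ (p : ℤ) ∣ (-1 : ℤ) := by
    intro hd
    have : (p : ℤ) ∣ 1 := (dvd_neg).mp hd
    have : p ∣ 1 := by exact_mod_cast this
    exact hp.out.one_lt.ne' (Nat.dvd_one.mp this)
  have h := coe_psiRat_self_inv_of_int p n (-1 : ℚˣ) (-1 : ℤ) (by simp) hnd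
  obtain ⟨k, hk⟩ := hodd
  have hp1 : p - 1 = 2 * k := by omega
  rw [hp1, pow_mul] at h
  simp only [Int.cast_neg, Int.cast_one, even_two, Even.neg_pow, one_pow] at h
  have h2 : (psiRat p n p (-1))⁻¹ = 1 := Units.ext (by rw [h]; simp)
  exact inv_eq_one.mp h2

/-- The product formula on positive integers. -/
theorem psiTot_natCast (hodd : Odd p) (m : ℕ) : ∀ (x : ℚˣ), (x : ℚ) = m → psiTot p n x = 1 := by
  induction m using Nat.recOnMul with
  | zero => intro x hx; exact absurd hx (by simp)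
  | one =>
    intro x hx
    have : x = 1 := Units.ext (by simpa using hx)
    rw [this, map_one]
  | prime ℓ hℓ => intro x hx; exact psiTot_prime p n hodd ℓ hℓ x hx
  | mul a b iha ihb =>
    intro x hx
    have hab : ((a : ℚ) * b) ≠ 0 := by
      rw [← Nat.cast_mul, ← hx]; exact x.ne_zero
    have ha : (a : ℚ) ≠ 0 := left_ne_zero_of_mul hab
    have hb : (b : ℚ) ≠ 0 := right_ne_zero_of_mul hab
    have hxab : x = Units.mk0 (a : ℚ) ha * Units.mk0 (b : ℚ) hb := by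
      apply Units.ext
      rw [hx]; simp
    rw [hxab, map_mul, iha _ rfl, ihb _ rfl, one_mul]

/-- **Product formula** (reciprocity law for the cyclotomic `ℤ_p`-extension of `ℚ`):
`∏_q ψ_q(x) = 1` for every `x ∈ ℚˣ`. -/
theorem psiTot_eq_one (hodd : Odd p) (x : ℚˣ) : psiTot p n x = 1 := by
  have hnum : ((x : ℚ).num : ℚ) ≠ 0 := by exact_mod_cast Rat.num_ne_zero.mpr x.ne_zero
  have hden : (((x : ℚ).den : ℕ) : ℚ) ≠ 0 := by exact_mod_cast (x : ℚ).den_ne_zero
  have habs : (((x : ℚ).num.natAbs : ℕ) : ℚ) ≠ 0 := by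
    exact_mod_cast Int.natAbs_ne_zero.mpr (Rat.num_ne_zero.mpr x.ne_zero)
  have hx : x = Units.mk0 _ hnum * (Units.mk0 _ hden)⁻¹ := by
    apply Units.ext
    simp only [Units.val_mul, Units.val_mk0, Units.val_inv_eq_inv_val]
    rw [← div_eq_mul_inv, Rat.num_div_den]
  have h1 : psiTot p n (Units.mk0 _ hden) = 1 := psiTot_natCast p n hodd _ _ rfl
  have h2 : psiTot p n (Units.mk0 _ habs) = 1 := psiTot_natCast p n hodd _ _ rfl
  have h3 : psiTot p n (Units.mk0 _ hnum) = 1 := by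
    rcases Int.natAbs_eq (x : ℚ).num with h | h
    · have : Units.mk0 _ hnum = Units.mk0 _ habs := by
        apply Units.ext
        simp only [Units.val_mk0]
        conv_lhs => rw [h]
        simp
      rw [this, h2]
    · have : Units.mk0 _ hnum = -1 * Units.mk0 _ habs := by
        apply Units.ext
        simp only [Units.val_mk0, Units.val_mul, Units.val_neg, Units.val_one]
        conv_lhs => rw [h]
        simp
      rw [this, map_mul, psiTot_neg_one p n hodd, h2, one_mul]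
  rw [hx, map_mul, map_inv, h1, h3, inv_one, one_mul]

/-- Product formula in finprod form. -/
theorem finprod_psiRat (hodd : Odd p) (x : ℚˣ) : ∏ᶠ q : ℕ, psiRat p n q x = 1 :=
  psiTot_eq_one p n hodd x

end Rational

section LocalField

variable (p n q : ℕ) [hp : Fact p.Prime] [hq : Fact q.Prime]

/-- The symbol of a local field `F/ℚ_q`: `ψ_F = ψ_q ∘ N_{F/ℚ_q}`. -/
noncomputable def psiF (F : Type*) [Field F] [Algebra ℚ_[q] F] : Fˣ →* (ZMod (p ^ (n + 1)))ˣ :=
  (psiQ p n q).comp (Units.map (Algebra.norm ℚ_[q] : F →* ℚ_[q]))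

theorem psiF_apply (F : Type*) [Field F] [Algebra ℚ_[q] F] (x : Fˣ) :
    psiF p n q F x = psiQ p n q (Units.map (Algebra.norm ℚ_[q] : F →* ℚ_[q]) x) := rfl

/-- `ψ_F(N_{F'/F} y) = ψ_{F'}(y)`. -/
theorem psiF_norm (F F' : Type*) [Field F] [Field F'] [Algebra ℚ_[q] F] [Algebra ℚ_[q] F']
    [Algebra F F'] [IsScalarTower ℚ_[q] F F'] [FiniteDimensional ℚ_[q] F]
    [FiniteDimensional F F'] (y : F'ˣ) :
    psiF p n q F (Units.map (Algebra.norm F : F' →* F) y) = psiF p n q F' y := by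
  rw [psiF_apply, psiF_apply]
  congr 1
  apply Units.ext
  simp only [Units.coe_map]
  exact Algebra.norm_norm (R := ℚ_[q]) (S := F) (A := F') (a := (y : F'))

/-- `ψ_{F'}(x) = ψ_F(x)^[F':F]` for `x ∈ F`. -/
theorem psiF_algebraMap (F F' : Type*) [Field F] [Field F'] [Algebra ℚ_[q] F] [Algebra ℚ_[q] F']
    [Algebra F F'] [IsScalarTower ℚ_[q] F F'] [FiniteDimensional ℚ_[q] F]
    [FiniteDimensional F F'] (x : Fˣ) :
    psiF p n q F' (Units.map (algebraMap F F').toMonoidHom x) =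
      psiF p n q F x ^ Module.finrank F F' := by
  rw [← psiF_norm p n q F F', ← map_pow]
  congr 1
  apply Units.ext
  simp only [Units.coe_map, MonoidHom.coe_coe, RingHom.toMonoidHom_eq_coe, Units.val_pow_eq_pow_val]
  exact Algebra.norm_algebraMap (x : F)

end LocalField

end Fermat.Agent.PT.G3


end ZBPT_078_0

/-! ### bundled: `Fermat.Agent.PT.G3.IdeleSymbol` -/
section ZBPT_078_1

/-!
# Project PT, piece G3-S4: the idelic norm symbol on `J_L = ∏_{q ∈ S} (ℚ_q ⊗ L)ˣ`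

In the tensor model of `PT/G1/Plan2.lean`:

* `psiSemi p n q L : (ℚ_[q] ⊗[ℚ] L)ˣ →* (ZMod (p^(n+1)))ˣ`, `x ↦ ψ_q (N_{(ℚ_q ⊗ L)/ℚ_q} x)`;
* `psiJ p n S L : J_L →* (ZMod (p^(n+1)))ˣ`, the product over `q ∈ S`;
* `psiSemi_includeRight` : on the diagonal, `ψ(1 ⊗ a) = ψ_q (N_{L/ℚ} a)`;
* `psiSemi_semiMap`, `psiJ_jlHom` : invariance under `Aut(L)`;
* `psiJ_jlDiag` : `ψ_J(a) = ∏_{q ∈ S} ψ_q(N_{L/ℚ} a)`.
-/

set_option autoImplicit false

namespace Fermat.Agent.PT.G3

open NumberField TensorProduct Fermat.Agent.PT.G1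

/-- Base change of the norm: `N_{(A ⊗ B)/A} (1 ⊗ b) = N_{B/R} b`. -/
theorem norm_one_tmul {R A B : Type*} [CommRing R] [CommRing A] [CommRing B] [Algebra R A]
    [Algebra R B] [Module.Free R B] [Module.Finite R B] (b : B) :
    Algebra.norm A ((1 : A) ⊗ₜ[R] b) = algebraMap R A (Algebra.norm R b) := by
  rw [Algebra.norm_apply, Algebra.norm_apply, ← LinearMap.det_baseChange]
  congr 1
  exact (Algebra.baseChange_lmul (A := A) b).symm

section Semi

variable (p n q : ℕ) [hp : Fact p.Prime] [hq : Fact q.Prime]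
variable (L : Type) [Field L] [NumberField L]

/-- The semilocal symbol at `q`: `x ↦ ψ_q (N x)` on `(ℚ_q ⊗ L)ˣ`. -/
noncomputable def psiSemi : (semiAlg q L)ˣ →* (ZMod (p ^ (n + 1)))ˣ :=
  (psiQ p n q).comp (Units.map (Algebra.norm ℚ_[q] : semiAlg q L →* ℚ_[q]))

theorem psiSemi_apply (x : (semiAlg q L)ˣ) :
    psiSemi p n q L x = psiQ p n q (Units.map (Algebra.norm ℚ_[q] : semiAlg q L →* ℚ_[q]) x) :=
  rfl

/-- On the diagonal: `ψ(1 ⊗ a) = ψ_q(N_{L/ℚ} a)`. -/
theorem psiSemi_includeRight (a : Lˣ) :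
    psiSemi p n q L (Units.map (Algebra.TensorProduct.includeRight :
      L →ₐ[ℚ] semiAlg q L).toMonoidHom a) =
      psiRat p n q (Units.map (Algebra.norm ℚ : L →* ℚ) a) := by
  have hq' : q.Prime := hq.out
  simp only [psiRat, hq', dif_pos, MonoidHom.comp_apply, psiSemi_apply]
  congr 1
  apply Units.ext
  simp only [Units.coe_map, MonoidHom.coe_coe, RingHom.toMonoidHom_eq_coe, Rat.coe_castHom]
  have h2 := norm_one_tmul (R := ℚ) (A := ℚ_[q]) (B := L) (a : L)
  refine Eq.trans ?_ (h2.trans ?_)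
  · rfl
  · simp

/-- The automorphism of `ℚ_q ⊗ L` induced by `σ ∈ Aut(L)`. -/
noncomputable def semiEquiv {L : Type} [Field L] [NumberField L] (σ : L ≃ₐ[ℚ] L) :
    semiAlg q L ≃ₐ[ℚ_[q]] semiAlg q L :=
  Algebra.TensorProduct.congr (AlgEquiv.refl (R := ℚ_[q]) (A₁ := ℚ_[q])) σ

theorem semiEquiv_apply {L : Type} [Field L] [NumberField L] (σ : L ≃ₐ[ℚ] L) (x : semiAlg q L) :
    semiEquiv q σ x = semiMap q σ x := by
  induction x using TensorProduct.induction_on with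
  | zero => simp
  | tmul a b => simp [semiEquiv, semiMap]
  | add x y hx hy => simp [hx, hy]

/-- The semilocal symbol is invariant under `Aut(L)`. -/
theorem psiSemi_semiMap {L : Type} [Field L] [NumberField L] (σ : L ≃ₐ[ℚ] L)
    (x : (semiAlg q L)ˣ) :
    psiSemi p n q L (Units.map (semiMap q σ : semiAlg q L →* semiAlg q L) x) =
      psiSemi p n q L x := by
  rw [psiSemi_apply, psiSemi_apply]
  congr 1
  apply Units.ext
  simp only [Units.coe_map, MonoidHom.coe_coe]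
  rw [← semiEquiv_apply]
  exact Algebra.norm_eq_of_algEquiv (semiEquiv q σ) (x : semiAlg q L)

end Semi

section JL

variable (p n : ℕ) [hp : Fact p.Prime] (S : Finset Nat.Primes)
variable (L : Type) [Field L] [NumberField L]

/-- The idelic symbol `ψ_J : J_L = ∏_{q ∈ S} (ℚ_q ⊗ L)ˣ →* (ℤ/p^(n+1))ˣ`. -/
noncomputable def psiJ : JL S L →* (ZMod (p ^ (n + 1)))ˣ :=
  ∏ q : ↥S, (psiSemi p n ((q : Nat.Primes) : ℕ) L).comp (Pi.evalMonoidHom _ q)

theorem psiJ_apply (x : JL S L) :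
    psiJ p n S L x = ∏ q : ↥S, psiSemi p n ((q : Nat.Primes) : ℕ) L (x q) := by
  simp [psiJ]

/-- `ψ_J` on the diagonal: `ψ_J(a) = ∏_{q ∈ S} ψ_q(N_{L/ℚ} a)`. -/
theorem psiJ_jlDiag (a : Lˣ) :
    psiJ p n S L (jlDiag S L a) =
      ∏ q : ↥S, psiRat p n ((q : Nat.Primes) : ℕ) (Units.map (Algebra.norm ℚ : L →* ℚ) a) := by
  rw [psiJ_apply]
  refine Finset.prod_congr rfl fun q _ => ?_
  exact psiSemi_includeRight p n ((q : Nat.Primes) : ℕ) L a

/-- `ψ_J` is invariant under `Aut(L)`. -/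
theorem psiJ_jlHom {L : Type} [Field L] [NumberField L] (σ : L ≃ₐ[ℚ] L) (x : JL S L) :
    psiJ p n S L (jlHom S σ x) = psiJ p n S L x := by
  rw [psiJ_apply, psiJ_apply]
  refine Finset.prod_congr rfl fun q _ => ?_
  exact psiSemi_semiMap p n ((q : Nat.Primes) : ℕ) σ (x q)

/-- The part of the product formula outside `S`: for `a ∈ Lˣ`,
`ψ_J(a) · ∏_{ℓ ∉ S} ψ_ℓ(N_{L/ℚ} a) = 1`. -/
theorem psiJ_jlDiag_mul_finprod (hodd : Odd p) (a : Lˣ) :
    psiJ p n S L (jlDiag S L a) *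
      ∏ᶠ (ℓ : ℕ) (_ : ∀ q : ↥S, ((q : Nat.Primes) : ℕ) ≠ ℓ),
        psiRat p n ℓ (Units.map (Algebra.norm ℚ : L →* ℚ) a) = 1 := by
  classical
  set A : ℚˣ := Units.map (Algebra.norm ℚ : L →* ℚ) a with hA
  have htot := finprod_psiRat p n hodd A
  have hfin := finite_mulSupport_psiRat p n A
  -- split the total product into the part in `S` and the part outside `S`
  let T : Set ℕ := {ℓ | ∃ q : ↥S, ((q : Nat.Primes) : ℕ) = ℓ}
  have hsplit := finprod_mem_mul_sdiff' (s := T) (t := Set.univ) (f := fun ℓ => psiRat p n ℓ A)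
    (Set.subset_univ _) (hfin.subset Set.inter_subset_right)
  rw [finprod_mem_univ, htot, ← Set.compl_eq_univ_sdiff] at hsplit
  rw [psiJ_jlDiag]
  have h1 : ∏ q : ↥S, psiRat p n ((q : Nat.Primes) : ℕ) A = ∏ᶠ ℓ ∈ T, psiRat p n ℓ A := by
    have hinj : Function.Injective (fun q : ↥S => ((q : Nat.Primes) : ℕ)) := by
      intro q₁ q₂ h
      exact Subtype.ext (Subtype.ext h)
    have hT : T = Set.range (fun q : ↥S => ((q : Nat.Primes) : ℕ)) := by
      ext ℓ; simp [T]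
    rw [hT, finprod_mem_range hinj, finprod_eq_prod_of_fintype]
  have h2 : (∏ᶠ (ℓ : ℕ) (_ : ∀ q : ↥S, ((q : Nat.Primes) : ℕ) ≠ ℓ), psiRat p n ℓ A) =
      ∏ᶠ ℓ ∈ Tᶜ, psiRat p n ℓ A := by
    apply finprod_congr
    intro ℓ
    have : (∀ q : ↥S, ((q : Nat.Primes) : ℕ) ≠ ℓ) ↔ ℓ ∈ Tᶜ := by
      simp [T]
    simp only [this]
  rw [h1, h2, hsplit]

end JL

end Fermat.Agent.PT.G3


end ZBPT_078_1

/-! ### bundled: `Fermat.Agent.PT.G3.SymbolCS` -/
section ZBPT_078_2

/-!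
# Project PT, piece G3-psi: the norm symbol on the `S`-idèle class module `C_S(L)`

`psiC p n S L : CS S L →+ Additive (ZMod (p^(n+1)))ˣ`, for `p ∈ S`, `p` odd:
the class of `(x, d) ∈ J_L × Div_S(L)` goes to `ψ_J(x) · ∏_P ψ(P)^(d P)`, where `ψ(P) = N(P)^(p-1)`
is the ideal norm symbol of `Symbol.lean`.  It is well defined on `C_S(L) = (J_L × Div_S)/Lˣ` by the
product formula (`psiJ_jlDiag_mul_psiDiv`), and invariant under `Aut(L)`.
-/

set_option autoImplicit false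

namespace Fermat.Agent.PT.G3

open NumberField IsDedekindDomain Fermat.Agent.PT.G1 Fermat.Agent.PT.X Fermat.Agent.PT.G
open scoped nonZeroDivisors

section Sigma

variable (p n : ℕ) [hp : Fact p.Prime] (S : Finset Nat.Primes)

/-- `σ_S = ∏_{q ∈ S} ψ_q` on `ℚˣ`. -/
noncomputable def sigmaS : ℚˣ →* (ZMod (p ^ (n + 1)))ˣ :=
  ∏ q : ↥S, psiRat p n ((q : Nat.Primes) : ℕ)

theorem sigmaS_apply (x : ℚˣ) :
    sigmaS p n S x = ∏ q : ↥S, psiRat p n ((q : Nat.Primes) : ℕ) x := by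
  simp [sigmaS]

/-- Product formula, split at `S`. -/
theorem sigmaS_mul_finprod_off (hodd : Odd p) (A : ℚˣ) :
    sigmaS p n S A *
      ∏ᶠ (ℓ : ℕ) (_ : ∀ q : ↥S, ((q : Nat.Primes) : ℕ) ≠ ℓ), psiRat p n ℓ A = 1 := by
  classical
  have htot := finprod_psiRat p n hodd A
  have hfin := finite_mulSupport_psiRat p n A
  let T : Set ℕ := {ℓ | ∃ q : ↥S, ((q : Nat.Primes) : ℕ) = ℓ}
  have hsplit := finprod_mem_mul_sdiff' (s := T) (t := Set.univ) (f := fun ℓ => psiRat p n ℓ A)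
    (Set.subset_univ _) (hfin.subset Set.inter_subset_right)
  rw [finprod_mem_univ, htot, ← Set.compl_eq_univ_sdiff] at hsplit
  rw [sigmaS_apply]
  have h1 : ∏ q : ↥S, psiRat p n ((q : Nat.Primes) : ℕ) A = ∏ᶠ ℓ ∈ T, psiRat p n ℓ A := by
    have hinj : Function.Injective (fun q : ↥S => ((q : Nat.Primes) : ℕ)) := by
      intro q₁ q₂ h
      exact Subtype.ext (Subtype.ext h)
    have hT : T = Set.range (fun q : ↥S => ((q : Nat.Primes) : ℕ)) := by
      ext ℓ; simp [T]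
    rw [hT, finprod_mem_range hinj, finprod_eq_prod_of_fintype]
  have h2 : (∏ᶠ (ℓ : ℕ) (_ : ∀ q : ↥S, ((q : Nat.Primes) : ℕ) ≠ ℓ), psiRat p n ℓ A) =
      ∏ᶠ ℓ ∈ Tᶜ, psiRat p n ℓ A := by
    apply finprod_congr
    intro ℓ
    have : (∀ q : ↥S, ((q : Nat.Primes) : ℕ) ≠ ℓ) ↔ ℓ ∈ Tᶜ := by
      simp [T]
    simp only [this]
  rw [h1, h2, hsplit]

/-- `σ_S` of an `S`-smooth positive integer is trivial. -/
theorem sigmaS_eq_one_of_smooth (hodd : Odd p) (hpS : (⟨p, hp.out⟩ : Nat.Primes) ∈ S)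
    (x : ℚˣ) (m : ℕ) (hx : (x : ℚ) = m)
    (hm : ∀ ℓ : ℕ, ℓ.Prime → ℓ ∣ m → ∃ q : ↥S, ((q : Nat.Primes) : ℕ) = ℓ) :
    sigmaS p n S x = 1 := by
  have h := sigmaS_mul_finprod_off p n S hodd x
  have hoff : ∏ᶠ (ℓ : ℕ) (_ : ∀ q : ↥S, ((q : Nat.Primes) : ℕ) ≠ ℓ), psiRat p n ℓ x = 1 := by
    apply finprod_eq_one_of_forall_eq_one
    intro ℓ
    rw [finprod_eq_if]
    split_ifs with hℓ
    · by_cases hprime : ℓ.Prime
      · have hℓp : ℓ ≠ p := fun h => hℓ ⟨⟨p, hp.out⟩, hpS⟩ h.symm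
        apply psiRat_of_ne_of_padicValRat_eq_zero p n hℓp
        rw [hx]
        have : padicValRat ℓ (m : ℚ) = padicValNat ℓ m := by exact_mod_cast padicValRat.of_nat
        rw [this]
        have hnd : ¬ ℓ ∣ m := fun hd => by
          obtain ⟨q, hq⟩ := hm ℓ hprime hd
          exact hℓ q hq
        exact_mod_cast padicValNat.eq_zero_of_not_dvd hnd
      · exact psiRat_of_not_prime p n hprime x
    · rfl
  rw [hoff, mul_one] at h
  exact h

/-- `σ_S(-1) = 1`. -/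
theorem sigmaS_neg_one (hodd : Odd p) : sigmaS p n S (-1) = 1 := by
  rw [sigmaS_apply]
  apply Finset.prod_eq_one
  intro q _
  by_cases hq : ((q : Nat.Primes) : ℕ) = p
  · rw [hq]
    have hnd : ¬ (p : ℤ) ∣ (-1 : ℤ) := by
      intro h
      have h1 : (p : ℤ) ∣ 1 := (dvd_neg).mp h
      have h2 : p ∣ 1 := by exact_mod_cast h1
      exact hp.out.one_lt.ne' (Nat.dvd_one.mp h2)
    have h := coe_psiRat_self_inv_of_int p n (-1 : ℚˣ) (-1 : ℤ) (by simp) hnd
    have heven : Even (p - 1) := by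
      obtain ⟨k, hk⟩ := hodd
      exact ⟨k, by omega⟩
    have h1 : (((-1 : ℤ) : ZMod (p ^ (n + 1)))) ^ (p - 1) = 1 := by
      push_cast
      exact heven.neg_one_pow
    rw [h1] at h
    have h2 : (psiRat p n p (-1))⁻¹ = 1 := Units.ext h
    exact inv_eq_one.mp h2
  · apply psiRat_of_ne_of_padicValRat_eq_zero p n hq
    simp

/-- For a positive integer `m` prime to all `q ∈ S`: `σ_S(m)⁻¹ = m^(p-1)`. -/
theorem coe_sigmaS_inv_of_coprime (hpS : (⟨p, hp.out⟩ : Nat.Primes) ∈ S)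
    (x : ℚˣ) (m : ℕ) (hx : (x : ℚ) = m) (hm : m.Coprime (sProd S)) :
    (((sigmaS p n S x)⁻¹ : (ZMod (p ^ (n + 1)))ˣ) : ZMod (p ^ (n + 1))) =
      (m : ZMod (p ^ (n + 1))) ^ (p - 1) := by
  classical
  have hdvd : ∀ q : ↥S, ((q : Nat.Primes) : ℕ) ∣ sProd S := fun q =>
    Finset.dvd_prod_of_mem (fun q : Nat.Primes => (q : ℕ)) q.2
  have hnd : ∀ q : ↥S, ¬ ((q : Nat.Primes) : ℕ) ∣ m := by
    intro q hq
    have h1 : ((q : Nat.Primes) : ℕ) ∣ Nat.gcd m (sProd S) := Nat.dvd_gcd hq (hdvd q)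
    rw [hm] at h1
    exact (q : Nat.Primes).2.one_lt.ne' (Nat.dvd_one.mp h1)
  have hsingle : sigmaS p n S x = psiRat p n p x := by
    rw [sigmaS_apply]
    rw [Finset.prod_eq_single (⟨⟨p, hp.out⟩, hpS⟩ : ↥S)]
    · intro q _ hq
      have hqp : ((q : Nat.Primes) : ℕ) ≠ p := by
        intro h
        apply hq
        exact Subtype.ext (Subtype.ext h)
      apply psiRat_of_ne_of_padicValRat_eq_zero p n hqp
      rw [hx]
      have : padicValRat ((q : Nat.Primes) : ℕ) (m : ℚ) = padicValNat ((q : Nat.Primes) : ℕ) m := by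
        exact_mod_cast padicValRat.of_nat
      rw [this]
      exact_mod_cast padicValNat.eq_zero_of_not_dvd (hnd q)
    · intro h
      exact absurd (Finset.mem_univ _) h
  rw [hsingle]
  have hpm : ¬ (p : ℤ) ∣ (m : ℤ) := by
    intro h
    have : p ∣ m := by exact_mod_cast h
    exact hnd ⟨⟨p, hp.out⟩, hpS⟩ this
  have h := coe_psiRat_self_inv_of_int p n x (m : ℤ) (by rw [hx]; simp) hpm
  rw [h]
  push_cast
  rfl

end Sigma

section Ideals

variable (p n : ℕ) [hp : Fact p.Prime] (S : Finset Nat.Primes)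
variable (L : Type) [Field L] [NumberField L]

/-- A prime of `𝓞 L`, as a unit of the monoid of fractional ideals. -/
noncomputable def primeUnit (v : HeightOneSpectrum (𝓞 L)) : (FractionalIdeal (𝓞 L)⁰ L)ˣ :=
  Units.mk0 (v.asIdeal : FractionalIdeal (𝓞 L)⁰ L) (FractionalIdeal.coeIdeal_ne_zero.mpr v.ne_bot)

@[simp] theorem coe_primeUnit (v : HeightOneSpectrum (𝓞 L)) :
    ((primeUnit L v : (FractionalIdeal (𝓞 L)⁰ L)ˣ) : FractionalIdeal (𝓞 L)⁰ L) =
      (v.asIdeal : FractionalIdeal (𝓞 L)⁰ L) := rfl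

/-- The absolute norm, on the group of invertible fractional ideals. -/
noncomputable def absNormUnits : (FractionalIdeal (𝓞 L)⁰ L)ˣ →* ℚˣ :=
  Units.map (FractionalIdeal.absNorm (R := 𝓞 L) (K := L)).toMonoidHom

@[simp] theorem coe_absNormUnits (I : (FractionalIdeal (𝓞 L)⁰ L)ˣ) :
    ((absNormUnits L I : ℚˣ) : ℚ) = FractionalIdeal.absNorm (I : FractionalIdeal (𝓞 L)⁰ L) := rfl

theorem coe_absNormUnits_primeUnit (v : HeightOneSpectrum (𝓞 L)) :
    ((absNormUnits L (primeUnit L v) : ℚˣ) : ℚ) = (Ideal.absNorm v.asIdeal : ℕ) := by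
  rw [coe_absNormUnits, coe_primeUnit, FractionalIdeal.coeIdeal_absNorm]

/-- `Φ = σ_S ∘ N` on invertible fractional ideals. -/
noncomputable def sigmaIdeal : (FractionalIdeal (𝓞 L)⁰ L)ˣ →* (ZMod (p ^ (n + 1)))ˣ :=
  (sigmaS p n S).comp (absNormUnits L)

theorem sigmaIdeal_apply (I : (FractionalIdeal (𝓞 L)⁰ L)ˣ) :
    sigmaIdeal p n S L I = sigmaS p n S (absNormUnits L I) := rfl

variable {L}

/-- The norm of a prime not over `S` is prime to `∏ S`. -/
theorem absNorm_coprime_sProd (P : OffS S L) :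
    (Ideal.absNorm P.1.asIdeal).Coprime (sProd S) := by
  apply absNorm_coprime_of_isCoprime
  rw [Ideal.isCoprime_iff_sup_eq]
  by_contra hne
  have hmax : P.1.asIdeal.IsMaximal := P.1.isMaximal
  have h1 : P.1.asIdeal = P.1.asIdeal ⊔ Ideal.span {((sProd S : ℕ) : 𝓞 L)} :=
    hmax.eq_of_le hne le_sup_left
  apply P.2
  rw [h1]
  exact Ideal.mem_sup_right (Ideal.subset_span rfl)

theorem absNorm_coprime_pow_of_off (hpS : (⟨p, hp.out⟩ : Nat.Primes) ∈ S) (P : OffS S L) :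
    (Ideal.absNorm P.1.asIdeal).Coprime (p ^ (n + 1)) := by
  apply Nat.Coprime.pow_right
  apply Nat.Coprime.coprime_dvd_right _ (absNorm_coprime_sProd S P)
  exact Finset.dvd_prod_of_mem (fun q : Nat.Primes => (q : ℕ)) hpS

/-- At a prime not over `S`: `Φ(P) = ψ(P)⁻¹`. -/
theorem sigmaIdeal_primeUnit_off (hpS : (⟨p, hp.out⟩ : Nat.Primes) ∈ S) (P : OffS S L) :
    sigmaIdeal p n S L (primeUnit L P.1) = (normSymbol p n P.1.asIdeal)⁻¹ := by
  rw [sigmaIdeal_apply]
  have h1 := coe_sigmaS_inv_of_coprime p n S hpS (absNormUnits L (primeUnit L P.1))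
    (Ideal.absNorm P.1.asIdeal) (coe_absNormUnits_primeUnit L P.1) (absNorm_coprime_sProd S P)
  have h2 := coe_normSymbol_of_coprime (absNorm_coprime_pow_of_off p n S hpS P)
  have h3 : (sigmaS p n S (absNormUnits L (primeUnit L P.1)))⁻¹ = normSymbol p n P.1.asIdeal :=
    Units.ext (h1.trans h2.symm)
  rw [← h3, inv_inv]

/-- At a prime over `S`: `Φ(v) = 1`. -/
theorem sigmaIdeal_primeUnit_on (hodd : Odd p) (hpS : (⟨p, hp.out⟩ : Nat.Primes) ∈ S)
    (v : HeightOneSpectrum (𝓞 L)) (hv : ((sProd S : ℕ) : 𝓞 L) ∈ v.asIdeal) :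
    sigmaIdeal p n S L (primeUnit L v) = 1 := by
  classical
  rw [sigmaIdeal_apply]
  have hprime : v.asIdeal.IsPrime := v.isPrime
  have hv' : ∏ q ∈ S, ((q : ℕ) : 𝓞 L) ∈ v.asIdeal := by
    have : ((sProd S : ℕ) : 𝓞 L) = ∏ q ∈ S, ((q : ℕ) : 𝓞 L) := by
      rw [sProd, Nat.cast_prod]
    rwa [this] at hv
  obtain ⟨q, hqS, hq⟩ := (Ideal.IsPrime.prod_mem_iff).mp hv'
  have hqprime : Prime ((q : ℕ) : ℤ) := Nat.prime_iff_prime_int.mp q.2
  have hlies : v.asIdeal.LiesOver (Ideal.span {((q : ℕ) : ℤ)}) := by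
    rw [Ideal.liesOver_span_iff hprime.ne_top hqprime]
    simpa using hq
  have hnorm := Ideal.absNorm_eq_pow_inertiaDeg' v.asIdeal q.2
  apply sigmaS_eq_one_of_smooth p n S hodd hpS _ (Ideal.absNorm v.asIdeal)
    (coe_absNormUnits_primeUnit L v)
  intro ℓ hℓ hdvd
  rw [hnorm] at hdvd
  have h1 : ℓ ∣ (q : ℕ) := hℓ.dvd_of_dvd_pow hdvd
  have h2 : ℓ = (q : ℕ) := (Nat.prime_dvd_prime_iff_eq hℓ q.2).mp h1
  exact ⟨⟨q, hqS⟩, h2.symm⟩

/-! ### Factorisation in the group of invertible fractional ideals -/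

variable (L) in
theorem finite_mulSupport_primeUnit_zpow (I : (FractionalIdeal (𝓞 L)⁰ L)ˣ) :
    (Function.mulSupport fun v : HeightOneSpectrum (𝓞 L) =>
      primeUnit L v ^ FractionalIdeal.count L v (I : FractionalIdeal (𝓞 L)⁰ L)).Finite := by
  have h := FractionalIdeal.finite_factors (R := 𝓞 L) (K := L)
    (I : FractionalIdeal (𝓞 L)⁰ L)
  rw [Filter.eventually_cofinite] at h
  refine h.subset ?_
  intro v hv
  rw [Function.mem_mulSupport] at hv
  intro h0
  apply hv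
  change FractionalIdeal.count L v (I : FractionalIdeal (𝓞 L)⁰ L) = 0 at h0
  rw [h0, zpow_zero]

variable (L) in
theorem prod_primeUnit_zpow_count (I : (FractionalIdeal (𝓞 L)⁰ L)ˣ) :
    ∏ᶠ v : HeightOneSpectrum (𝓞 L),
      primeUnit L v ^ FractionalIdeal.count L v (I : FractionalIdeal (𝓞 L)⁰ L) = I := by
  apply Units.ext
  have h := MonoidHom.map_finprod (Units.coeHom (FractionalIdeal (𝓞 L)⁰ L))
    (finite_mulSupport_primeUnit_zpow L I)
  rw [Units.coeHom_apply] at h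
  rw [h]
  have h2 := FractionalIdeal.finprod_heightOneSpectrum_factorization' (R := 𝓞 L) (K := L)
    (I := (I : FractionalIdeal (𝓞 L)⁰ L)) I.ne_zero
  conv_rhs => rw [← h2]
  apply finprod_congr
  intro v
  rw [Units.coeHom_apply, Units.val_zpow_eq_zpow_val, coe_primeUnit]

/-- `Φ(I) = ∏_{P ∉ S} ψ(P)^(-ord_P I)`. -/
theorem sigmaIdeal_eq_finprod (hodd : Odd p) (hpS : (⟨p, hp.out⟩ : Nat.Primes) ∈ S)
    (I : (FractionalIdeal (𝓞 L)⁰ L)ˣ) :
    sigmaIdeal p n S L I = ∏ᶠ P : OffS S L,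
      (normSymbol p n P.1.asIdeal)⁻¹ ^
        FractionalIdeal.count L P.1 (I : FractionalIdeal (𝓞 L)⁰ L) := by
  classical
  conv_lhs => rw [← prod_primeUnit_zpow_count L I]
  rw [MonoidHom.map_finprod _ (finite_mulSupport_primeUnit_zpow L I)]
  have h1 : ∀ v : HeightOneSpectrum (𝓞 L),
      sigmaIdeal p n S L
        (primeUnit L v ^ FractionalIdeal.count L v (I : FractionalIdeal (𝓞 L)⁰ L)) =
      ∏ᶠ (_ : ((sProd S : ℕ) : 𝓞 L) ∉ v.asIdeal),
        (normSymbol p n v.asIdeal)⁻¹ ^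
          FractionalIdeal.count L v (I : FractionalIdeal (𝓞 L)⁰ L) := by
    intro v
    rw [map_zpow, finprod_eq_if]
    split_ifs with hv
    · rw [sigmaIdeal_primeUnit_on p n S hodd hpS v hv, one_zpow]
    · rw [sigmaIdeal_primeUnit_off p n S hpS ⟨v, hv⟩]
  rw [finprod_congr h1]
  exact (finprod_subtype_eq_finprod_cond
    (f := fun v : HeightOneSpectrum (𝓞 L) => (normSymbol p n v.asIdeal)⁻¹ ^
      FractionalIdeal.count L v (I : FractionalIdeal (𝓞 L)⁰ L))
    (fun v : HeightOneSpectrum (𝓞 L) => ((sProd S : ℕ) : 𝓞 L) ∉ v.asIdeal)).symm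

variable (L) in
/-- The principal fractional ideal of `a ∈ Lˣ`, as a unit. -/
noncomputable def principalUnit (a : Lˣ) : (FractionalIdeal (𝓞 L)⁰ L)ˣ :=
  Units.mk0 (FractionalIdeal.spanSingleton (𝓞 L)⁰ (a : L)) (spanSingleton_units_ne_zero a)

/-- `Φ((a)) = σ_S(N_{L/ℚ} a)`. -/
theorem sigmaIdeal_principalUnit (hodd : Odd p) (a : Lˣ) :
    sigmaIdeal p n S L (principalUnit L a) =
      sigmaS p n S (Units.map (Algebra.norm ℚ : L →* ℚ) a) := by
  rw [sigmaIdeal_apply]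
  have habs : ((absNormUnits L (principalUnit L a) : ℚˣ) : ℚ) = |Algebra.norm ℚ (a : L)| := by
    rw [coe_absNormUnits]
    exact FractionalIdeal.absNorm_span_singleton (𝓞 L) (a : L)
  rcases abs_choice (Algebra.norm ℚ (a : L)) with h | h
  · congr 1
    apply Units.ext
    rw [habs, h]
    rfl
  · have : absNormUnits L (principalUnit L a) = -1 * Units.map (Algebra.norm ℚ : L →* ℚ) a := by
      apply Units.ext
      rw [habs, h]
      simp
    rw [this, map_mul, sigmaS_neg_one p n S hodd, one_mul]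

end Ideals

section ClassSymbol

variable (p n : ℕ) [hp : Fact p.Prime] (S : Finset Nat.Primes)
variable (L : Type) [Field L] [NumberField L]

/-- The symbol on `Div_S(L)`: `d ↦ ∏_P ψ(P)^(d P)`. -/
noncomputable def psiDiv : DivS S L →+ Additive (ZMod (p ^ (n + 1)))ˣ :=
  Finsupp.liftAddHom fun P : OffS S L =>
    zmultiplesHom (Additive (ZMod (p ^ (n + 1)))ˣ) (Additive.ofMul (normSymbol p n P.1.asIdeal))

omit hp in
theorem psiDiv_single (P : OffS S L) (k : ℤ) :
    psiDiv p n S L (Finsupp.single P k) = Additive.ofMul (normSymbol p n P.1.asIdeal ^ k) := by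
  rw [psiDiv, Finsupp.liftAddHom_apply_single]
  rfl

omit hp in
theorem toMul_psiDiv (d : DivS S L) :
    Additive.toMul (psiDiv p n S L d) = d.prod fun P k => normSymbol p n P.1.asIdeal ^ k := by
  rw [psiDiv, Finsupp.liftAddHom_apply, Finsupp.sum, Finsupp.prod, toMul_sum]
  rfl

omit hp in
theorem toMul_psiDiv_eq_finprod (d : DivS S L) :
    Additive.toMul (psiDiv p n S L d) = ∏ᶠ P : OffS S L, normSymbol p n P.1.asIdeal ^ d P := by
  rw [toMul_psiDiv, Finsupp.prod]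
  symm
  apply finprod_eq_prod_of_mulSupport_subset
  intro P hP
  rw [Function.mem_mulSupport] at hP
  rw [Finset.mem_coe, Finsupp.mem_support_iff]
  intro h0
  apply hP
  rw [h0, zpow_zero]

/-- **Product formula on `C_S`**: `ψ_J(a) · ψ_Div(div a) = 1` for `a ∈ Lˣ`. -/
theorem psiJ_jlDiag_mul_psiDiv (hodd : Odd p) (hpS : (⟨p, hp.out⟩ : Nat.Primes) ∈ S) (a : Lˣ) :
    psiJ p n S L (jlDiag S L a) * Additive.toMul (psiDiv p n S L (divFun S L a)) = 1 := by
  have h1 : psiJ p n S L (jlDiag S L a) = sigmaIdeal p n S L (principalUnit L a) := by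
    rw [psiJ_jlDiag, sigmaIdeal_principalUnit p n S hodd, sigmaS_apply]
  rw [h1, sigmaIdeal_eq_finprod p n S hodd hpS, toMul_psiDiv_eq_finprod]
  have h2 : ∀ P : OffS S L, (normSymbol p n P.1.asIdeal)⁻¹ ^
      FractionalIdeal.count L P.1 ((principalUnit L a : (FractionalIdeal (𝓞 L)⁰ L)ˣ) :
        FractionalIdeal (𝓞 L)⁰ L) = (normSymbol p n P.1.asIdeal ^ divFun S L a P)⁻¹ := by
    intro P
    rw [inv_zpow]
    rfl
  rw [finprod_congr h2, finprod_inv_distrib, inv_mul_cancel]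

/-- The symbol on `J_L × Div_S(L)`. -/
noncomputable def psiJD : Additive (JL S L) × DivS S L →ₗ[ℤ] Additive (ZMod (p ^ (n + 1)))ˣ :=
  ((MonoidHom.toAdditive (psiJ p n S L)).coprod (psiDiv p n S L)).toIntLinearMap

theorem psiJD_apply (y : Additive (JL S L) × DivS S L) :
    psiJD p n S L y =
      Additive.ofMul (psiJ p n S L (Additive.toMul y.1)) + psiDiv p n S L y.2 := rfl

theorem psiJD_iotaHom (hodd : Odd p) (hpS : (⟨p, hp.out⟩ : Nat.Primes) ∈ S) (x : Additive Lˣ) :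
    psiJD p n S L (iotaHom S L x) = 0 := by
  rw [psiJD_apply]
  apply Additive.toMul.injective
  rw [toMul_add, toMul_ofMul, toMul_zero]
  exact psiJ_jlDiag_mul_psiDiv p n S L hodd hpS (Additive.toMul x)

theorem range_iotaHom_le_ker_psiJD (hodd : Odd p) (hpS : (⟨p, hp.out⟩ : Nat.Primes) ∈ S) :
    LinearMap.range (iotaHom S L) ≤ LinearMap.ker (psiJD p n S L) := by
  rintro _ ⟨x, rfl⟩
  exact psiJD_iotaHom p n S L hodd hpS x

/-- **The norm symbol on the `S`-idèle class module** `Ψ_L : C_S(L) → (ℤ/p^(n+1))ˣ`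
(zero unless `p` is odd and `p ∈ S`). -/
noncomputable def psiC : CS S L →ₗ[ℤ] Additive (ZMod (p ^ (n + 1)))ˣ :=
  haveI := Classical.propDecidable (Odd p ∧ (⟨p, hp.out⟩ : Nat.Primes) ∈ S)
  if h : Odd p ∧ (⟨p, hp.out⟩ : Nat.Primes) ∈ S then
    (LinearMap.range (iotaHom S L)).liftQ (psiJD p n S L)
      (range_iotaHom_le_ker_psiJD p n S L h.1 h.2)
  else 0

theorem psiC_mk (hodd : Odd p) (hpS : (⟨p, hp.out⟩ : Nat.Primes) ∈ S)
    (y : Additive (JL S L) × DivS S L) :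
    psiC p n S L (csMk S L y) = psiJD p n S L y := by
  rw [psiC, dif_pos ⟨hodd, hpS⟩]
  rfl

theorem psiC_csOfJ (hodd : Odd p) (hpS : (⟨p, hp.out⟩ : Nat.Primes) ∈ S)
    (x : Additive (JL S L)) :
    psiC p n S L (csOfJ S L x) = Additive.ofMul (psiJ p n S L (Additive.toMul x)) := by
  rw [csOfJ_apply, psiC_mk p n S L hodd hpS, psiJD_apply, map_zero, add_zero]

theorem psiC_csOfDiv (hodd : Odd p) (hpS : (⟨p, hp.out⟩ : Nat.Primes) ∈ S) (d : DivS S L) :
    psiC p n S L (csOfDiv S L d) = psiDiv p n S L d := by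
  rw [csOfDiv_apply, psiC_mk p n S L hodd hpS, psiJD_apply]
  simp

/-- The value of `Ψ` on the class of a prime `P ∉ S` is the ideal norm symbol `N(P)^(p-1)`. -/
theorem psiC_csOfDiv_single (hodd : Odd p) (hpS : (⟨p, hp.out⟩ : Nat.Primes) ∈ S)
    (P : OffS S L) (k : ℤ) :
    psiC p n S L (csOfDiv S L (Finsupp.single P k)) =
      Additive.ofMul (normSymbol p n P.1.asIdeal ^ k) := by
  rw [psiC_csOfDiv p n S L hodd hpS, psiDiv_single]

/-! ### Invariance under `Aut(L)` -/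

variable {L}

theorem absNorm_primeMap (σ : L ≃ₐ[ℚ] L) (P : HeightOneSpectrum (𝓞 L)) :
    Ideal.absNorm (primeMap σ P).asIdeal = Ideal.absNorm P.asIdeal := by
  have hmap : P.asIdeal =
      ((primeMap σ P).asIdeal).map
        ((RingOfIntegers.mapRingEquiv (σ.symm : L ≃+* L) : 𝓞 L ≃+* 𝓞 L) : 𝓞 L →+* 𝓞 L) := by
    show P.asIdeal = (P.asIdeal.comap (RingOfIntegers.mapRingEquiv (σ.symm : L ≃+* L))).map _
    exact (Ideal.map_comap_of_surjective _
      (RingOfIntegers.mapRingEquiv (σ.symm : L ≃+* L)).surjective _).symm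
  rw [Ideal.absNorm_apply, Ideal.absNorm_apply, Submodule.cardQuot_apply,
    Submodule.cardQuot_apply]
  exact Nat.card_congr (Ideal.quotientEquiv _ _ _ hmap).toEquiv

omit hp in
theorem normSymbol_primeMap (σ : L ≃ₐ[ℚ] L) (P : HeightOneSpectrum (𝓞 L)) :
    normSymbol p n (primeMap σ P).asIdeal = normSymbol p n P.asIdeal := by
  unfold normSymbol
  rw [absNorm_primeMap]

theorem divEnd_single (σ : L ≃ₐ[ℚ] L) (P : OffS S L) (k : ℤ) :
    divEnd S σ (Finsupp.single P k) = Finsupp.single (offEquiv S σ P) k := by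
  simp [divEnd, Finsupp.domLCongr_apply, Finsupp.domCongr_apply]

omit hp in
theorem psiDiv_divEnd (σ : L ≃ₐ[ℚ] L) (d : DivS S L) :
    psiDiv p n S L (divEnd S σ d) = psiDiv p n S L d := by
  have h : (psiDiv p n S L).comp (divEnd S σ).toAddMonoidHom = psiDiv p n S L := by
    apply Finsupp.addHom_ext
    intro P k
    rw [AddMonoidHom.comp_apply]
    show psiDiv p n S L (divEnd S σ (Finsupp.single P k)) = _
    rw [divEnd_single, psiDiv_single, psiDiv_single]
    congr 2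
    exact normSymbol_primeMap p n σ P.1
  exact DFunLike.congr_fun h d

theorem psiJD_jdEnd (σ : L ≃ₐ[ℚ] L) (y : Additive (JL S L) × DivS S L) :
    psiJD p n S L (jdEnd S σ y) = psiJD p n S L y := by
  rw [psiJD_apply, psiJD_apply]
  have h1 : (jdEnd S σ y).1 = jlEnd S σ y.1 := rfl
  have h2 : (jdEnd S σ y).2 = divEnd S σ y.2 := rfl
  rw [h1, h2, psiDiv_divEnd]
  congr 2
  exact psiJ_jlHom p n S σ (Additive.toMul y.1)

/-- `Ψ_L` is invariant under `Aut(L)`. -/
theorem psiC_csEnd (σ : L ≃ₐ[ℚ] L) (c : CS S L) :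
    psiC p n S L (csEnd S σ c) = psiC p n S L c := by
  by_cases h : Odd p ∧ (⟨p, hp.out⟩ : Nat.Primes) ∈ S
  · induction c using Submodule.Quotient.induction_on with
    | _ y =>
      show psiC p n S L (csEnd S σ (csMk S L y)) = psiC p n S L (csMk S L y)
      rw [csEnd_mk, psiC_mk p n S L h.1 h.2, psiC_mk p n S L h.1 h.2, psiJD_jdEnd]
  · rw [psiC, dif_neg h]
    rfl

/-- `Ψ_L` is invariant under the representation `csRep`. -/
theorem psiC_csRho (σ : L ≃ₐ[ℚ] L) (c : CS S L) :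
    psiC p n S L (csRho S L σ c) = psiC p n S L c :=
  psiC_csEnd p n S σ c

end ClassSymbol

end Fermat.Agent.PT.G3


end ZBPT_078_2

/-! ### bundled: `Fermat.Agent.PT.G3.Plan3` -/
section ZBPT_078_3
/-
PT-G3 — INTERFACE FILE, part 3: the pieces about the class symbol `Ψ = psiC` (G3/SymbolCS.lean),
the cyclotomic auxiliary field `N = L·ℚ_n`, and the final statement (GA).
Sub-captain helper47; mathematics and piece table: NOTES/PT-G3.md.

`T = (ZMod (p^(n+1)))ˣ`; `psiC p n S F : CS S F →ₗ[ℤ] Additive T` takes values in the subgroup of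
`(p-1)`-th powers, cyclic of order `p^n`.
-/

set_option autoImplicit false
set_option linter.unusedSectionVars false

namespace Fermat.Agent.PT.G3

open CategoryTheory groupCohomology NumberField IsDedekindDomain
open Fermat.Agent.PT Fermat.Agent.PT.G Fermat.Agent.PT.G1

/-! ### Properties of the symbol -/

/-- **psi-M**: `Ψ_L ∘ csMap = [L : K] • Ψ_K`. -/
def StmtPsiMap : Prop :=
  ∀ (p n : ℕ) [hp : Fact p.Prime] (S : Finset Nat.Primes), Odd p →
    (⟨p, hp.out⟩ : Nat.Primes) ∈ S →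
    ∀ (K L : Type) [Field K] [NumberField K] [Field L] [NumberField L] [Algebra K L]
      (c : CS S K), psiC p n S L (csMap S K L c) = Module.finrank K L • psiC p n S K c

/-- **psi-N** (norm compatibility, Galois form): if `M / F` is Galois and
`csMap c = Σ_{σ ∈ Gal(M/F)} σ d`, then `Ψ_F c = Ψ_M d`.
(`Ψ` is defined through the norms to `ℚ_q` and the absolute norms of ideals; on `J`:
`N_{(ℚ_q⊗M)/(ℚ_q⊗F)}` is the product over `Gal(M/F)`; `csMap` is injective.) -/
def StmtPsiNormGal : Prop :=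
  ∀ (p n : ℕ) [hp : Fact p.Prime] (S : Finset Nat.Primes), Odd p →
    (⟨p, hp.out⟩ : Nat.Primes) ∈ S →
    ∀ (F M : Type) [Field F] [NumberField F] [Field M] [NumberField M] [Algebra F M]
      [IsGalois F M] (c : CS S F) (d : CS S M),
      csMap S F M c = galNorm S F M d → psiC p n S F c = psiC p n S M d

/-- **psi-up**: if `Ψ_E = 0` then `Ψ_M = 0` for every finite extension `M / E`
(`Ψ_M = Ψ_E ∘ csNorm`, PT/G/Norm.lean; no Galois hypothesis). -/
def StmtPsiUp : Prop :=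
  ∀ (p n : ℕ) [hp : Fact p.Prime] (S : Finset Nat.Primes), Odd p →
    (⟨p, hp.out⟩ : Nat.Primes) ∈ S →
    ∀ (E M : Type) [Field E] [NumberField E] [Field M] [NumberField M] [Algebra E M],
      (∀ c : CS S E, psiC p n S E c = 0) → ∀ c : CS S M, psiC p n S M c = 0

/-- **psi-zeta**: if `E'` contains a primitive `p^(n+1)`-th root of unity then `Ψ_{E'} = 0`.
(On divisors: `normSymbol_eq_one_of_primitiveRoot`.  On `J`: `ψ_q ∘ N` is trivial on
`1 + q^k (ℤ_q ⊗ 𝓞)` (continuity), weak approximation (`G2.StmtWeakApprox`) and the product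
formula reduce to divisors.) -/
def StmtPsiZeta : Prop :=
  ∀ (p n : ℕ) [hp : Fact p.Prime] (S : Finset Nat.Primes), Odd p →
    (⟨p, hp.out⟩ : Nat.Primes) ∈ S →
    ∀ (E' : Type) [Field E'] [NumberField E'] (ζ : 𝓞 E'), IsPrimitiveRoot ζ (p ^ (n + 1)) →
      ∀ c : CS S E', psiC p n S E' c = 0

/-- **psi-Z**: if `E` has an extension `E'` of degree prime to `p` containing a primitive
`p^(n+1)`-th root of unity (e.g. `E = ℚ_n`), then `Ψ_E = 0`.
(psi-M: `[E' : E] • Ψ_E c = Ψ_{E'} (csMap c) = 0`, and `Ψ_E c` is killed by `p^n`.) -/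
def StmtPsiZ : Prop :=
  ∀ (p n : ℕ) [hp : Fact p.Prime] (S : Finset Nat.Primes), Odd p →
    (⟨p, hp.out⟩ : Nat.Primes) ∈ S →
    ∀ (E E' : Type) [Field E] [NumberField E] [Field E'] [NumberField E'] [Algebra E E'],
      (Module.finrank E E').Coprime p → ∀ ζ : 𝓞 E', IsPrimitiveRoot ζ (p ^ (n + 1)) →
      ∀ c : CS S E, psiC p n S E c = 0

/-- **psi-pow**: the values of `Ψ` are killed by `p^n`. -/
def StmtPsiTors : Prop :=
  ∀ (p n : ℕ) [Fact p.Prime] (S : Finset Nat.Primes)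
    (F : Type) [Field F] [NumberField F] (c : CS S F), p ^ n • psiC p n S F c = 0

/-- **psi-gen**: there is a rational prime `ℓ ∉ S` whose class `[ℓ] ∈ C_S(ℚ)` has symbol of exact
order `p^n`: `k • Ψ_ℚ [ℓ] = 0 → p^n ∣ k`.
(`symCheb_absNorm_exists_generator` for `K = ℚ`: the `(p-1)`-th powers of the units mod `p^(n+1)`
form a cyclic group of order `p^n`, generated by `ℓ^(p-1)`.) -/
def StmtPsiGen : Prop :=
  ∀ (p n : ℕ) [hp : Fact p.Prime] (S : Finset Nat.Primes), p ≠ 2 →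
    (⟨p, hp.out⟩ : Nat.Primes) ∈ S →
    ∃ v : OffS S ℚ, ∀ k : ℕ, k • psiC p n S ℚ (csOfDiv S ℚ (Finsupp.single v 1)) = 0 → p ^ n ∣ k

/-- **G3-clt** (cyclic layer theorem): let `N / L` be Galois, unramified outside `S`, with
`Ψ_N = 0` and `[N : L] ≤ |image of the ideal symbol of L|`.  Then the kernel of `Ψ_L` is the norm
subgroup of `N / L`.
(`StmtNormIndexLe`: `|C_S(L)/B| ≤ [N : L]`; psi-N: `Ψ_L` kills `B`; the image of `Ψ_L` contains the
ideal symbols; count.) -/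
def StmtCLT : Prop :=
  ∀ (p n : ℕ) [hp : Fact p.Prime] (S : Finset Nat.Primes), Odd p →
    (⟨p, hp.out⟩ : Nat.Primes) ∈ S →
    ∀ (L N : Type) [Field L] [NumberField L] [Field N] [NumberField N] [Algebra L N]
      [IsGalois L N], UnramOffRel S L N →
      (∀ c : CS S N, psiC p n S N c = 0) →
      Module.finrank L N ≤ Nat.card {u : (ZMod (p ^ (n + 1)))ˣ | ∃ I : Ideal (𝓞 L),
        (Ideal.absNorm I).Coprime (p ^ (n + 1)) ∧ normSymbol p n I = u} →
      ∀ c : CS S L, psiC p n S L c = 0 → c ∈ NormSub S L N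

/-! ### The cyclotomic auxiliary field -/

/-- The auxiliary field `N = L·ℚ_n` (`ℚ_n` = the `n`-th layer of the cyclotomic `ℤ_p`-extension)
with everything the construction of the fundamental class needs.
Construction: `N' := CyclotomicField (p^(n+1)) L = L(ζ)`, `χ : Aut(N') → (ℤ/p^(n+1))ˣ` the
cyclotomic character, `R := {σ ∈ Gal(N'/L) | χ(σ)^(p-1) = 1}`, `N := N'^R`;
`θ(σ) := χ(σ̃)^(p-1)` (identify the `(p-1)`-th powers with `ℤ/p^n`); `E := N^{ker θ} = ℚ_n`,
`E' := E(ζ) ⊂ N'` of degree `p - 1` over `E`. -/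
structure CycData (p n : ℕ) (S : Finset Nat.Primes) (L : Type) [Field L] [NumberField L] where
  /-- the field `N = L·ℚ_n` -/
  N : Type
  [fieldN : Field N]
  [nfN : NumberField N]
  [algLN : Algebra L N]
  galQ : IsGalois ℚ N
  galL : IsGalois L N
  /-- `N / ℚ` is unramified outside `S` (`p ∈ S`) -/
  unram : UnramOffRel S ℚ N
  /-- `Gal(N/L)` is a `p`-group -/
  pgroup : IsPGroup p ↥(relAut L N)
  /-- `[N : L]` is at most the number of values of the ideal symbol of `L` -/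
  card_le : Module.finrank L N ≤ Nat.card {u : (ZMod (p ^ (n + 1)))ˣ | ∃ I : Ideal (𝓞 L),
    (Ideal.absNorm I).Coprime (p ^ (n + 1)) ∧ normSymbol p n I = u}
  /-- `θ : Gal(N/ℚ) ↠ Gal(ℚ_n/ℚ) ≅ ℤ/p^n` -/
  θ : (N ≃ₐ[ℚ] N) →* Multiplicative (ZMod (p ^ n))
  θ_surj : Function.Surjective θ
  /-- an extension of `E = N^{ker θ}` of degree prime to `p` containing `ζ_{p^(n+1)}` -/
  E' : Type
  [fieldE' : Field E']
  [nfE' : NumberField E']
  [algE' : Algebra ↥(IntermediateField.fixedField θ.ker) E']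
  coprime : (Module.finrank ↥(IntermediateField.fixedField θ.ker) E').Coprime p
  ζ : 𝓞 E'
  hζ : IsPrimitiveRoot ζ (p ^ (n + 1))

attribute [instance] CycData.fieldN CycData.nfN CycData.algLN CycData.fieldE' CycData.nfE'
  CycData.algE'

/-- **G3-cyc**: the auxiliary field exists for every `L` Galois over `ℚ`, unramified outside
`S ∋ p`, `p` odd, and every `n`. -/
def StmtCyc : Prop :=
  ∀ (p n : ℕ) [hp : Fact p.Prime] (S : Finset Nat.Primes), p ≠ 2 →
    (⟨p, hp.out⟩ : Nat.Primes) ∈ S →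
    ∀ (L : Type) [Field L] [NumberField L] [IsGalois ℚ L], UnramOffRel S ℚ L →
      Nonempty (CycData p n S L)

/-! ### The final statement -/

/-- **(GA)**: for `L / ℚ` Galois, unramified outside `S ∋ p`, `p` odd, the `S`-idèle class module
`C_S(L)` has a `p`-fundamental class. -/
def StmtGA : Prop :=
  ∀ (p : ℕ) [hp : Fact p.Prime] (S : Finset Nat.Primes), p ≠ 2 →
    (⟨p, hp.out⟩ : Nat.Primes) ∈ S →
    ∀ (L : Type) [Field L] [NumberField L] [IsGalois ℚ L], UnramOffRel S ℚ L →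
      ∃ u : H2 (csRep S L), IsPFundClass p (csRep S L) u

end Fermat.Agent.PT.G3


end ZBPT_078_3

/-! ### bundled: `Fermat.Agent.PT.G3.GA` -/
section ZBPT_078_4
/-
PT-G3 / GA (helper72): assembly of the `p`-fundamental class of `C_S(L)`.

`stmtGA_of` : all the PT-G3 pieces together give `StmtGA` (and `B.StmtGA`):
for `L / ℚ` Galois, unramified outside `S ∋ p`, `p` odd, the class module `C_S(L)` has a
`p`-fundamental class.  Recipe: helper47 (NOTES/PT-G3.md): `N = L·ℚ_n` from `StmtCyc`,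
`G = Aut(N) ↠ Q = Aut(L)`, `a₀` = the image of the class of a prime `ℓ` whose symbol generates.
-/

set_option autoImplicit false
set_option maxHeartbeats 400000
set_option linter.style.haveILetI false
set_option linter.unusedSectionVars false

namespace Fermat.Agent.PT.G3

open CategoryTheory groupCohomology NumberField IsDedekindDomain
open Fermat.Agent.PT Fermat.Agent.PT.G Fermat.Agent.PT.G1

section fields

variable (S : Finset Nat.Primes)
variable (L N : Type) [Field L] [NumberField L] [Field N] [NumberField N] [Algebra L N]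

/-- restriction `Aut(N) → Aut(L)` for `L / ℚ` normal. -/
noncomputable def gaRes [Normal ℚ L] : (N ≃ₐ[ℚ] N) →* (L ≃ₐ[ℚ] L) :=
  AlgEquiv.restrictNormalHom L

lemma ga_restricts [Normal ℚ L] (σ : N ≃ₐ[ℚ] N) : Restricts σ (gaRes L N σ) := by
  intro x
  exact (AlgEquiv.restrictNormal_commutes σ L x).symm

lemma ga_res_surjective [Normal ℚ L] [Normal ℚ N] : Function.Surjective (gaRes L N) :=
  AlgEquiv.restrictNormalHom_surjective N

lemma ga_ker_res [Normal ℚ L] : (gaRes L N).ker = relAut L N := by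
  ext σ
  rw [MonoidHom.mem_ker, mem_relAut]
  constructor
  · intro h x
    have := ga_restricts L N σ x
    rw [h] at this
    exact this
  · intro h
    apply AlgEquiv.ext
    intro x
    apply (algebraMap L N).injective
    rw [← ga_restricts L N σ x, h x]
    rfl

/-- `csMap` as a morphism of representations. -/
noncomputable def gaPhi [Normal ℚ L] : Rep.res (gaRes L N) (csRep S L) ⟶ csRep S N :=
  Rep.ofHom
    { toLinearMap := csMap S L N
      isIntertwining' := fun g => LinearMap.ext fun c =>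
        (csEnd_csMap S (ga_restricts L N g) c).symm }

lemma gaPhi_hom [Normal ℚ L] (c : CS S L) : (gaPhi S L N).hom c = csMap S L N c := rfl

end fields

section fixed

variable (N : Type) [Field N] [NumberField N]

lemma ga_relAut_fixedField (H : Subgroup (N ≃ₐ[ℚ] N)) :
    relAut ↥(IntermediateField.fixedField H) N = H := by
  conv_rhs => rw [← IntermediateField.fixingSubgroup_fixedField H]
  ext σ
  rw [mem_relAut, IntermediateField.mem_fixingSubgroup_iff]
  constructor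
  · intro h x hx
    exact h ⟨x, hx⟩
  · intro h x
    exact h x.1 x.2

lemma ga_finrank_fixedField [IsGalois ℚ N] (H : Subgroup (N ≃ₐ[ℚ] N)) :
    Module.finrank ℚ ↥(IntermediateField.fixedField H) = H.index := by
  have h1 := IntermediateField.finrank_fixedField_eq_card H
  have h2 := Module.finrank_mul_finrank ℚ ↥(IntermediateField.fixedField H) N
  have h3 := IsGalois.card_aut_eq_finrank ℚ N
  have h4 := H.index_mul_card
  rw [h1, ← h3, ← h4] at h2
  have hpos : 0 < Nat.card ↥H := Nat.card_pos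
  exact Nat.eq_of_mul_eq_mul_right hpos h2

/-- the inclusion algebra between fixed fields -/
noncomputable abbrev gaAlg {P H : Subgroup (N ≃ₐ[ℚ] N)} (hle : H ≤ P) :
    Algebra ↥(IntermediateField.fixedField P) ↥(IntermediateField.fixedField H) :=
  (IntermediateField.inclusion (IntermediateField.fixedField_antitone hle)).toRingHom.toAlgebra

lemma ga_tower {P H : Subgroup (N ≃ₐ[ℚ] N)} (hle : H ≤ P) :
    letI := gaAlg N hle
    IsScalarTower ↥(IntermediateField.fixedField P) ↥(IntermediateField.fixedField H) N := by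
  letI := gaAlg N hle
  exact IsScalarTower.of_algebraMap_eq (fun x => rfl)

lemma ga_isGalois [IsGalois ℚ N] {P H : Subgroup (N ≃ₐ[ℚ] N)} (hle : H ≤ P)
    (hn : ∀ σ ∈ P, ∀ τ ∈ H, σ⁻¹ * τ * σ ∈ H) :
    letI := gaAlg N hle
    IsGalois ↥(IntermediateField.fixedField P) ↥(IntermediateField.fixedField H) := by
  letI := gaAlg N hle
  have hFM : IntermediateField.fixedField P ≤ IntermediateField.fixedField H :=
    IntermediateField.fixedField_antitone hle
  haveI : IsGalois ↥(IntermediateField.fixedField P) N := IsGalois.tower_top_intermediateField _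
  set M' := IntermediateField.extendScalars hFM with hM'
  have hnorm : Normal ↥(IntermediateField.fixedField P) ↥M' := by
    rw [IntermediateField.normal_iff_forall_map_le']
    intro σ y hy
    rw [IntermediateField.mem_map] at hy
    obtain ⟨x, hx, rfl⟩ := hy
    rw [hM', IntermediateField.mem_extendScalars] at hx ⊢
    rw [IntermediateField.mem_fixedField_iff] at hx ⊢
    intro τ hτ
    have hσP : (σ.restrictScalars ℚ) ∈ P := by
      have hmem : (σ.restrictScalars ℚ) ∈ (IntermediateField.fixedField P).fixingSubgroup := by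
        rw [IntermediateField.mem_fixingSubgroup_iff]
        intro z hz
        exact σ.commutes ⟨z, hz⟩
      rwa [IntermediateField.fixingSubgroup_fixedField] at hmem
    have := hx _ (hn _ hσP τ hτ)
    have h2 : (σ.restrictScalars ℚ) (((σ.restrictScalars ℚ)⁻¹ * τ * (σ.restrictScalars ℚ)) x) = τ (σ x) := by
      show (σ.restrictScalars ℚ) ((σ.restrictScalars ℚ).symm (τ (σ x))) = τ (σ x)
      exact (σ.restrictScalars ℚ).apply_symm_apply _
    rw [this] at h2
    exact h2.symm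
  haveI : IsGalois ↥(IntermediateField.fixedField P) ↥M' := ⟨⟩
  let e : ↥M' ≃ₐ[↥(IntermediateField.fixedField P)] ↥(IntermediateField.fixedField H) :=
    { toFun := fun x => ⟨x.1, (IntermediateField.mem_extendScalars hFM).1 x.2⟩
      invFun := fun x => ⟨x.1, (IntermediateField.mem_extendScalars hFM).2 x.2⟩
      left_inv := fun x => rfl
      right_inv := fun x => rfl
      map_mul' := fun x y => rfl
      map_add' := fun x y => rfl
      commutes' := fun x => rfl }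
  exact IsGalois.of_algEquiv e

end fixed

section transport

lemma ga_sum_sub {G X : Type} [Group G] [AddCommMonoid X] (ρ : G → X → X) (d x : X)
    (B B' : Subgroup G) (hB : B' = B) (h : x = ∑ᶠ b : ↥B', ρ (b : G) d) :
    x = ∑ᶠ b : ↥B, ρ (b : G) d := by
  subst hB; exact h

lemma ga_sum_quot {G X : Type} [Group G] [AddCommMonoid X] (ρ : G → X → X) (d x : X)
    (P A P' H' : Subgroup G) (hP : P' = P) (hH : H' = P ⊓ A)
    (h : x = ∑ᶠ t : ↥P ⧸ A.subgroupOf P, ρ ((Quotient.out t : ↥P) : G) d) :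
    x = ∑ᶠ t : ↥P' ⧸ H'.subgroupOf P', ρ ((Quotient.out t : ↥P') : G) d := by
  subst hP hH
  have e : (P' ⊓ A).subgroupOf P' = A.subgroupOf P' := Subgroup.inf_subgroupOf_left ..
  rw [e]; exact h

end transport

section core

/-- The assembly, with the cyclotomic data unbundled. -/
theorem ga_core (hFA : StmtFundAbs) (hLayer : StmtLayer) (hInj : G.StmtCSMapInj)
    (hDesc : G.StmtCSDescent) (hComp : StmtCSMapComp) (hTower : StmtUnramTower)
    (hSyl : StmtSylowNorm) (hM : StmtPsiMap) (hN : StmtPsiNormGal) (hUp : StmtPsiUp)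
    (hZ : StmtPsiZ) (hTors : StmtPsiTors) (hCLT : StmtCLT)
    (p : ℕ) [hp : Fact p.Prime] (S : Finset Nat.Primes) (hp2 : p ≠ 2)
    (hpS : (⟨p, hp.out⟩ : Nat.Primes) ∈ S)
    (L : Type) [Field L] [NumberField L] [IsGalois ℚ L] (hL : UnramOffRel S ℚ L)
    (n : ℕ) (hn : n = (Nat.card (L ≃ₐ[ℚ] L)).factorization p)
    (v : OffS S ℚ)
    (hv : ∀ k : ℕ, k • psiC p n S ℚ (csOfDiv S ℚ (Finsupp.single v 1)) = 0 → p ^ n ∣ k)
    (N : Type) [Field N] [NumberField N] [Algebra L N] [IsGalois ℚ N] [IsGalois L N]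
    (unram : UnramOffRel S ℚ N) (pgroup : IsPGroup p ↥(relAut L N))
    (card_le : Module.finrank L N ≤ Nat.card {u : (ZMod (p ^ (n + 1)))ˣ | ∃ I : Ideal (𝓞 L),
      (Ideal.absNorm I).Coprime (p ^ (n + 1)) ∧ normSymbol p n I = u})
    (θ : (N ≃ₐ[ℚ] N) →* Multiplicative (ZMod (p ^ n))) (θ_surj : Function.Surjective θ)
    (E' : Type) [Field E'] [NumberField E'] [Algebra ↥(IntermediateField.fixedField θ.ker) E']
    (coprime : (Module.finrank ↥(IntermediateField.fixedField θ.ker) E').Coprime p)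
    (ζ : 𝓞 E') (hζ : IsPrimitiveRoot ζ (p ^ (n + 1))) :
    ∃ u : H2 (csRep S L), IsPFundClass p (csRep S L) u := by
  have hS : S.Nonempty := ⟨_, hpS⟩
  have hodd : Odd p := hp.out.odd_of_ne_two hp2
  obtain ⟨hLN, -⟩ := hTower S ℚ L N unram
  set c₀ : CS S ℚ := csOfDiv S ℚ (Finsupp.single v 1) with hc₀
  -- `Ψ = 0` on `E = N^{ker θ}` and on `N`
  have hΨE : ∀ c : CS S ↥(IntermediateField.fixedField θ.ker),
      psiC p n S ↥(IntermediateField.fixedField θ.ker) c = 0 :=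
    hZ p n S hodd hpS _ E' coprime ζ hζ
  have hΨN : ∀ c : CS S N, psiC p n S N c = 0 := hUp p n S hodd hpS _ N hΨE
  haveI : NeZero (p ^ n) := inferInstance
  obtain ⟨P⟩ : Nonempty (Sylow p (N ≃ₐ[ℚ] N)) := inferInstance
  have hker : (gaRes L N).ker = relAut L N := ga_ker_res L N
  refine hFA p (N ≃ₐ[ℚ] N) (L ≃ₐ[ℚ] L) (gaRes L N) (ga_res_surjective L N) ?_
    (csRep S L) (csRep S N) (gaPhi S L N) ?_ ?_ ?_ ?_ θ.ker (p ^ n) θ θ_surj rfl ?_ P
    (csMap S ℚ N c₀) ?_ ?_ ?_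
  · -- the kernel is a `p`-group
    rw [hker]; exact pgroup
  · -- injectivity
    exact hInj S L N hS
  · -- descent
    intro c hc
    refine hDesc S L N hS hLN c ?_
    intro σ hσ
    exact hc σ (hker ▸ (mem_relAut L N σ).2 hσ)
  · exact hLayer p hp2 S hS N unram
  · exact hLayer p hp2 S hS L hL
  · rw [hn]
  · -- `a₀` is invariant
    intro g
    exact csEnd_csMap_of_fixes S (fun x => g.commutes x) c₀
  · -- (i) `a₀` is a norm from `ker f`
    have hΨL : psiC p n S L (csMap S ℚ L c₀) = 0 := by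
      rw [hM p n S hodd hpS ℚ L c₀]
      have hdvd : p ^ n ∣ Module.finrank ℚ L := by
        rw [← IsGalois.card_aut_eq_finrank ℚ L, hn]
        exact Nat.ordProj_dvd _ _
      obtain ⟨m, hm⟩ := hdvd
      rw [hm, mul_comm, mul_smul, hTors p n S ℚ c₀, smul_zero]
    obtain ⟨d, hd⟩ := hCLT p n S hodd hpS L N hLN hΨN card_le (csMap S ℚ L c₀) hΨL
    rw [hComp S ℚ L N c₀] at hd
    exact ⟨d, ga_sum_sub (fun g x => csEnd S g x) d _ _ _ hker.symm hd⟩
  · -- (iii) no multiple `k a₀`, `p^n ∤ k`, is a Sylow norm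
    rintro k ⟨d, hdinv, hdsum⟩
    have hle : (P : Subgroup (N ≃ₐ[ℚ] N)) ⊓ θ.ker ≤ (P : Subgroup (N ≃ₐ[ℚ] N)) := inf_le_left
    have hle' : (P : Subgroup (N ≃ₐ[ℚ] N)) ⊓ θ.ker ≤ θ.ker := inf_le_right
    letI algFM := gaAlg N hle
    haveI := ga_tower N hle
    haveI : IsGalois ↥(IntermediateField.fixedField (P : Subgroup (N ≃ₐ[ℚ] N)))
        ↥(IntermediateField.fixedField ((P : Subgroup (N ≃ₐ[ℚ] N)) ⊓ θ.ker)) := by
      refine ga_isGalois N hle ?_
      intro σ hσ τ hτ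
      refine ⟨?_, ?_⟩
      · exact Subgroup.mul_mem _ (Subgroup.mul_mem _ (Subgroup.inv_mem _ hσ) hτ.1) hσ
      · have h3 : σ⁻¹ * τ * σ = σ⁻¹ * τ * σ⁻¹⁻¹ := by rw [inv_inv]
        rw [h3]
        exact (inferInstance : θ.ker.Normal).conj_mem τ hτ.2 σ⁻¹
    have hP₀ := ga_relAut_fixedField N (P : Subgroup (N ≃ₐ[ℚ] N))
    have hP₁ := ga_relAut_fixedField N ((P : Subgroup (N ≃ₐ[ℚ] N)) ⊓ θ.ker)
    have hsyl := hSyl S hS N unram ↥(IntermediateField.fixedField (P : Subgroup (N ≃ₐ[ℚ] N)))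
      ↥(IntermediateField.fixedField ((P : Subgroup (N ≃ₐ[ℚ] N)) ⊓ θ.ker)) (k • c₀) d
      (fun x hx => hdinv x (hP₁ ▸ hx))
      (by
        rw [map_nsmul]
        exact ga_sum_quot (fun g x => csEnd S g x) d _ _ _ _ _ hP₀ hP₁ hdsum)
    obtain ⟨d', hd'⟩ := hsyl
    have h1 := hN p n S hodd hpS _ _ _ d' hd'
    letI algEM := gaAlg N hle'
    have hΨM : ∀ c : CS S ↥(IntermediateField.fixedField ((P : Subgroup (N ≃ₐ[ℚ] N)) ⊓ θ.ker)),
        psiC p n S _ c = 0 := hUp p n S hodd hpS _ _ hΨE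
    rw [hΨM d', hM p n S hodd hpS ℚ _ (k • c₀), map_nsmul, ← mul_smul] at h1
    have h2 := hv _ h1
    rw [ga_finrank_fixedField] at h2
    have hcop : Nat.Coprime (p ^ n) (P : Subgroup (N ≃ₐ[ℚ] N)).index :=
      Nat.Coprime.pow_left n ((Nat.Prime.coprime_iff_not_dvd hp.out).2 P.not_dvd_index)
    exact hcop.dvd_of_dvd_mul_left h2

/-- **(GA)** from the pieces of PT-G3. -/
theorem stmtGA_of (hFA : StmtFundAbs) (hLayer : StmtLayer) (hInj : G.StmtCSMapInj)
    (hDesc : G.StmtCSDescent) (hComp : StmtCSMapComp) (hTower : StmtUnramTower)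
    (hSyl : StmtSylowNorm) (hM : StmtPsiMap) (hN : StmtPsiNormGal) (hUp : StmtPsiUp)
    (hZ : StmtPsiZ) (hTors : StmtPsiTors) (hGen : StmtPsiGen) (hCLT : StmtCLT)
    (hCyc : StmtCyc) : StmtGA := by
  intro p hp S hp2 hpS L _ _ _ hL
  obtain ⟨v, hv⟩ := hGen p ((Nat.card (L ≃ₐ[ℚ] L)).factorization p) S hp2 hpS
  obtain ⟨cd⟩ := hCyc p ((Nat.card (L ≃ₐ[ℚ] L)).factorization p) S hp2 hpS L hL
  haveI := cd.galQ
  haveI := cd.galL
  exact ga_core hFA hLayer hInj hDesc hComp hTower hSyl hM hN hUp hZ hTors hCLT p S hp2 hpS L hL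
    _ rfl v hv cd.N cd.unram cd.pgroup cd.card_le cd.θ cd.θ_surj cd.E' cd.coprime cd.ζ cd.hζ

/-- **(GA)** in the shape consumed by PT-B (PT/B/Plan4.lean). -/
theorem stmtGA_B_of (hFA : StmtFundAbs) (hLayer : StmtLayer) (hInj : G.StmtCSMapInj)
    (hDesc : G.StmtCSDescent) (hComp : StmtCSMapComp) (hTower : StmtUnramTower)
    (hSyl : StmtSylowNorm) (hM : StmtPsiMap) (hN : StmtPsiNormGal) (hUp : StmtPsiUp)
    (hZ : StmtPsiZ) (hTors : StmtPsiTors) (hGen : StmtPsiGen) (hCLT : StmtCLT)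
    (hCyc : StmtCyc) : Fermat.Agent.PT.B.StmtGA := by
  intro p hp hp2 S hpS L _ _ _ hL
  exact stmtGA_of hFA hLayer hInj hDesc hComp hTower hSyl hM hN hUp hZ hTors hGen hCLT hCyc
    p S hp2 hpS L hL

end core

end Fermat.Agent.PT.G3


end ZBPT_078_4

/-! ### bundled: `Fermat.Agent.PT.G3.PsiTors` -/
section ZBPT_078_5

/-!
# PT-G3, piece psiTors: the values of the class symbol `Ψ` are killed by `p^n`

All local symbols are `(p-1)`-th powers (or inverses of such) in `T = (ZMod (p^(n+1)))ˣ`, a group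
of order `φ(p^(n+1)) = p^n (p-1)`.
-/

set_option autoImplicit false

namespace Fermat.Agent.PT.G3

open NumberField IsDedekindDomain
open Fermat.Agent.PT Fermat.Agent.PT.G Fermat.Agent.PT.G1

section

variable (p n : ℕ) [hp : Fact p.Prime]

/-- a `(p-1)`-th power in `(ZMod (p^(n+1)))ˣ` is killed by `p^n`. -/
theorem psiTors_pow (u : (ZMod (p ^ (n + 1)))ˣ) : (u ^ (p - 1)) ^ (p ^ n) = 1 := by
  have hφ : Nat.totient (p ^ (n + 1)) = p ^ n * (p - 1) :=
    Nat.totient_prime_pow_succ hp.out n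
  rw [← pow_mul, mul_comm, ← hφ]
  exact ZMod.pow_totient u

theorem psiTors_zpow (u : (ZMod (p ^ (n + 1)))ˣ) (k : ℤ) :
    (u ^ (((p - 1 : ℕ) : ℤ) * k)) ^ (p ^ n) = 1 := by
  rw [zpow_mul, zpow_natCast, ← zpow_natCast, ← zpow_mul, mul_comm, zpow_mul, zpow_natCast,
    psiTors_pow, one_zpow]

theorem psiTors_psiP (x : ℚ_[p]ˣ) : psiP p n x ^ (p ^ n) = 1 := by
  rw [psiP_apply, inv_pow, psiTors_pow, inv_one]

theorem psiTors_psiAway (q : ℕ) [hq : Fact q.Prime] (h : q ≠ p) (x : ℚ_[q]ˣ) :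
    psiAway p n q h x ^ (p ^ n) = 1 :=
  psiTors_zpow p n _ _

theorem psiTors_psiQ (q : ℕ) [hq : Fact q.Prime] (x : ℚ_[q]ˣ) : psiQ p n q x ^ (p ^ n) = 1 := by
  by_cases h : q = p
  · subst h
    rw [psiQ_self]
    exact psiTors_psiP q n x
  · rw [psiQ_of_ne p n q h]
    exact psiTors_psiAway p n q h x

theorem psiTors_normSymbol {K : Type*} [Field K] [NumberField K] (I : Ideal (𝓞 K)) :
    normSymbol p n I ^ (p ^ n) = 1 := by
  unfold normSymbol
  split_ifs with h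
  · exact psiTors_pow p n _
  · exact one_pow _

variable (S : Finset Nat.Primes) (L : Type) [Field L] [NumberField L]

theorem psiTors_psiJ (x : JL S L) : psiJ p n S L x ^ (p ^ n) = 1 := by
  rw [psiJ_apply, ← Finset.prod_pow]
  refine Finset.prod_eq_one fun q _ => ?_
  rw [psiSemi_apply]
  exact psiTors_psiQ p n ((q : Nat.Primes) : ℕ) _

theorem psiTors_psiDiv (d : DivS S L) : p ^ n • psiDiv p n S L d = 0 := by
  induction d using Finsupp.induction_linear with
  | zero => simp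
  | add f g hf hg => rw [map_add, nsmul_add, hf, hg, add_zero]
  | single P k =>
    rw [psiDiv_single]
    apply Additive.toMul.injective
    rw [toMul_nsmul, toMul_ofMul, toMul_zero, ← zpow_natCast, ← zpow_mul, mul_comm, zpow_mul,
      zpow_natCast, psiTors_normSymbol, one_zpow]

theorem psiTors_psiJD (y : Additive (JL S L) × DivS S L) : p ^ n • psiJD p n S L y = 0 := by
  rw [psiJD_apply, nsmul_add, psiTors_psiDiv, add_zero]
  apply Additive.toMul.injective
  rw [toMul_nsmul, toMul_ofMul, toMul_zero]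
  exact psiTors_psiJ p n S L _

end

/-- **psi-pow**: the values of `Ψ` are killed by `p^n`. -/
theorem stmtPsiTors : StmtPsiTors := by
  intro p n hp S F _ _ c
  by_cases h : Odd p ∧ (⟨p, hp.out⟩ : Nat.Primes) ∈ S
  · induction c using Submodule.Quotient.induction_on with
    | _ y =>
      show p ^ n • psiC p n S F (csMk S F y) = 0
      rw [psiC_mk p n S F h.1 h.2]
      exact psiTors_psiJD p n S F y
  · rw [psiC, dif_neg h]
    simp

end Fermat.Agent.PT.G3


end ZBPT_078_5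

/-! ### bundled: `Fermat.Agent.PT.G3.CycPlan` -/
section ZBPT_078_6
/-
PT-G3, piece `cyc` (sub-captain helper75): the cyclotomic auxiliary field `N = L·ℚ_n`
(`StmtCyc`, `CycData` of Plan3.lean).  INTERFACE FILE: definitions + statements of the sub-pieces.
Piece table: NOTES/PT-G3-cyc.md.

`m = p^(n+1)`, `N' = CycTop p n L = CyclotomicField m L = L(ζ)`, `χ = cycChi : Aut(N'/ℚ) → (ℤ/m)ˣ`,
`R = cycR = {σ | χ(σ)^(p-1) = 1, σ|_L = id}`, `N = CycN p n L = N'^R` (an `IntermediateField ℚ N'`),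
`Algebra L N` (`cycAlgebraLN`), `lam : (ℤ/m)ˣ ↠ ℤ/p^n` with kernel the `(p-1)`-torsion,
`θ(σ) = lam (χ(σ̃))`.
-/

set_option autoImplicit false

namespace Fermat.Agent.PT.G3

open NumberField IsDedekindDomain
open Fermat.Agent.PT Fermat.Agent.PT.G Fermat.Agent.PT.G1

section defs

variable (p n : ℕ) [hp : Fact p.Prime] (L : Type) [Field L] [NumberField L]

instance cycNeZeroPow : NeZero (p ^ (n + 1)) := ⟨pow_ne_zero _ hp.out.ne_zero⟩

/-- `N' = L(ζ)`, `ζ` a primitive `p^(n+1)`-th root of unity. -/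
abbrev CycTop : Type := CyclotomicField (p ^ (n + 1)) L

/-- the primitive root `ζ ∈ N'`. -/
noncomputable def cycZeta : CycTop p n L :=
  IsCyclotomicExtension.zeta (p ^ (n + 1)) L (CycTop p n L)

theorem cycZeta_spec : IsPrimitiveRoot (cycZeta p n L) (p ^ (n + 1)) :=
  IsCyclotomicExtension.zeta_spec (p ^ (n + 1)) L (CycTop p n L)

/-- the cyclotomic character `χ : Aut(N') → (ℤ/p^(n+1))ˣ`, `σ ζ = ζ ^ χ(σ)`. -/
noncomputable def cycChi : (CycTop p n L ≃ₐ[ℚ] CycTop p n L) →* (ZMod (p ^ (n + 1)))ˣ :=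
  (cycZeta_spec p n L).autToPow ℚ

/-- `R = {σ ∈ Aut(N') | χ(σ)^(p-1) = 1, σ|_L = id}`. -/
noncomputable def cycR : Subgroup (CycTop p n L ≃ₐ[ℚ] CycTop p n L) where
  carrier := {σ | cycChi p n L σ ^ (p - 1) = 1 ∧
    ∀ x : L, σ (algebraMap L (CycTop p n L) x) = algebraMap L (CycTop p n L) x}
  mul_mem' := by
    rintro σ τ ⟨h1, h2⟩ ⟨h3, h4⟩
    refine ⟨by rw [map_mul, mul_pow, h1, h3, one_mul], fun x => ?_⟩
    show σ (τ _) = _
    rw [h4, h2]
  one_mem' := ⟨by rw [map_one, one_pow], fun _ => rfl⟩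
  inv_mem' := by
    rintro σ ⟨h1, h2⟩
    refine ⟨by rw [map_inv, inv_pow, h1, inv_one], fun x => ?_⟩
    have h := h2 x
    show σ⁻¹ _ = _
    conv_lhs => rw [← h]
    exact σ.symm_apply_apply _

/-- `N = N'^R = L·ℚ_n`. -/
abbrev CycN : Type := ↥(IntermediateField.fixedField (cycR p n L))


theorem cyc_algebraMap_mem (x : L) :
    algebraMap L (CycTop p n L) x ∈ IntermediateField.fixedField (cycR p n L) := by
  intro σ
  exact σ.2.2 x

/-- `L → N`. -/
noncomputable def cycIncl : L →+* CycN p n L where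
  toFun x := ⟨algebraMap L (CycTop p n L) x, cyc_algebraMap_mem p n L x⟩
  map_one' := Subtype.ext (map_one _)
  map_mul' x y := Subtype.ext (map_mul _ x y)
  map_zero' := Subtype.ext (map_zero _)
  map_add' x y := Subtype.ext (map_add _ x y)

noncomputable instance cycAlgebraLN : Algebra L (CycN p n L) := (cycIncl p n L).toAlgebra

instance cycTowerLN : IsScalarTower L (CycN p n L) (CycTop p n L) :=
  IsScalarTower.of_algebraMap_eq (fun _ => rfl)

instance cycTowerQN : IsScalarTower ℚ (CycN p n L) (CycTop p n L) :=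
  IsScalarTower.of_algebraMap_eq (fun x => by rw [eq_ratCast, eq_ratCast, map_ratCast])

end defs

/-! ### The sub-pieces -/

/-- **cyc-gal**: `N' = L(ζ)` is Galois over `ℚ` if `L` is. -/
def StmtCycGalois : Prop :=
  ∀ (p n : ℕ) [Fact p.Prime] (L : Type) [Field L] [NumberField L] [IsGalois ℚ L],
    IsGalois ℚ (CycTop p n L)

/-- **cyc-chi**: the cyclotomic character of `Aut(N'/ℚ)` is onto `(ℤ/p^(n+1))ˣ`. -/
def StmtCycChiSurj : Prop :=
  ∀ (p n : ℕ) [Fact p.Prime] (L : Type) [Field L] [NumberField L] [IsGalois ℚ L],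
    Function.Surjective (cycChi p n L)

/-- **cyc-lam**: for `p` odd there is a surjective homomorphism `(ℤ/p^(n+1))ˣ → ℤ/p^n` whose kernel
is the `(p-1)`-torsion. -/
def StmtCycLambda : Prop :=
  ∀ (p n : ℕ) [Fact p.Prime], p ≠ 2 →
    ∃ lam : (ZMod (p ^ (n + 1)))ˣ →* Multiplicative (ZMod (p ^ n)),
      Function.Surjective lam ∧ ∀ u, lam u = 1 ↔ u ^ (p - 1) = 1

/-- **cyc-normal**: `R` is a normal subgroup of `Aut(N'/ℚ)`. -/
def StmtCycRNormal : Prop :=
  ∀ (p n : ℕ) [Fact p.Prime] (L : Type) [Field L] [NumberField L] [IsGalois ℚ L],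
    (cycR p n L).Normal

/-- **cyc-unram**: `N' / ℚ` is unramified outside `S ∋ p` if `L / ℚ` is.
(An element `σ` of an inertia group `I_{P'}`, `P' ∤ S`, fixes `ζ` (`symCheb_root_eq_of_sub_mem`) and
restricts to an element of the inertia group of `P' ∩ L`, which is trivial (`uo_card_inertia`); so
`σ` fixes `L(ζ) = N'`.) -/
def StmtCycUnramTop : Prop :=
  ∀ (p n : ℕ) [hp : Fact p.Prime] (S : Finset Nat.Primes), (⟨p, hp.out⟩ : Nat.Primes) ∈ S →
    ∀ (L : Type) [Field L] [NumberField L] [IsGalois ℚ L], UnramOffRel S ℚ L →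
      UnramOffRel S ℚ (CycTop p n L)

/-- `σ' ∈ Aut(N')` extends `σ ∈ Aut(N)`. -/
def CycExtends (p n : ℕ) [Fact p.Prime] (L : Type) [Field L] [NumberField L]
    (σ' : CycTop p n L ≃ₐ[ℚ] CycTop p n L) (σ : CycN p n L ≃ₐ[ℚ] CycN p n L) : Prop :=
  ∀ x : CycN p n L, σ' (x : CycTop p n L) = ((σ x : CycN p n L) : CycTop p n L)

/-- **cyc-ext**: every automorphism of `N` extends to `N'`, every automorphism of `N'` restricts to
`N`, and two extensions of the same automorphism differ by an element of `R`. -/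
def StmtCycExt : Prop :=
  ∀ (p n : ℕ) [Fact p.Prime] (L : Type) [Field L] [NumberField L] [IsGalois ℚ L],
    (∀ σ : CycN p n L ≃ₐ[ℚ] CycN p n L, ∃ σ', CycExtends p n L σ' σ) ∧
    (∀ σ' : CycTop p n L ≃ₐ[ℚ] CycTop p n L, ∃ σ, CycExtends p n L σ' σ) ∧
    (∀ σ (σ' σ'' : CycTop p n L ≃ₐ[ℚ] CycTop p n L), CycExtends p n L σ' σ →
      CycExtends p n L σ'' σ → σ'⁻¹ * σ'' ∈ cycR p n L)

/-- **cyc-theta**: `θ := lam ∘ χ` descends to `Aut(N)`. -/
def StmtCycTheta : Prop :=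
  ∀ (p n : ℕ) [Fact p.Prime] (L : Type) [Field L] [NumberField L] [IsGalois ℚ L]
    (lam : (ZMod (p ^ (n + 1)))ˣ →* Multiplicative (ZMod (p ^ n))),
    (∀ u, u ^ (p - 1) = 1 → lam u = 1) →
    ∃ θ : (CycN p n L ≃ₐ[ℚ] CycN p n L) →* Multiplicative (ZMod (p ^ n)),
      ∀ σ' σ, CycExtends p n L σ' σ → θ σ = lam (cycChi p n L σ')

/-- **cyc-card**: `[N : L]` is the number of `(p-1)`-th powers of values of the cyclotomic character
on `Gal(N'/L)`, i.e. (`symbolCheb_pow`) the number of values of the ideal symbol of `L`; and it is a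
power of `p`. -/
def StmtCycCard : Prop :=
  ∀ (p n : ℕ) [Fact p.Prime], p ≠ 2 → ∀ (L : Type) [Field L] [NumberField L] [IsGalois ℚ L],
    Module.finrank L (CycN p n L) =
      Nat.card {u : (ZMod (p ^ (n + 1)))ˣ | ∃ I : Ideal (𝓞 L),
        (Ideal.absNorm I).Coprime (p ^ (n + 1)) ∧ normSymbol p n I = u} ∧
    ∃ k : ℕ, Module.finrank L (CycN p n L) = p ^ k

/-- **cyc-E'**: for `θ = lam ∘ χ` on `Aut(N)` (kernel of `lam` = the `(p-1)`-torsion), the field
`E = N^{ker θ}` has an extension `E' = E(ζ) ⊂ N'` of degree prime to `p` containing `ζ`.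
(`Gal(N'/E) = ker (lam ∘ χ) =: H`, `Gal(N'/E(ζ)) = ker χ`, `[E(ζ) : E] = |χ(H)|`, and `χ(H)` is killed
by `p - 1`.) -/
def StmtCycEPrime : Prop :=
  ∀ (p n : ℕ) [Fact p.Prime] (L : Type) [Field L] [NumberField L] [IsGalois ℚ L]
    (lam : (ZMod (p ^ (n + 1)))ˣ →* Multiplicative (ZMod (p ^ n))),
    (∀ u, lam u = 1 ↔ u ^ (p - 1) = 1) →
    ∀ θ : (CycN p n L ≃ₐ[ℚ] CycN p n L) →* Multiplicative (ZMod (p ^ n)),
      (∀ σ' σ, CycExtends p n L σ' σ → θ σ = lam (cycChi p n L σ')) →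
      ∃ (E' : Type) (_ : Field E') (_ : NumberField E')
        (_ : Algebra ↥(IntermediateField.fixedField θ.ker) E'),
        (Module.finrank ↥(IntermediateField.fixedField θ.ker) E').Coprime p ∧
        ∃ ζ : 𝓞 E', IsPrimitiveRoot ζ (p ^ (n + 1))

end Fermat.Agent.PT.G3


end ZBPT_078_6

/-! ### bundled: `Fermat.Agent.PT.G3.CycGal` -/
section ZBPT_078_7
/-
PT-G3 / cyc, pieces cyc-gal, cyc-chi, cyc-normal (helper48).

* `stmtCycGalois`  : `N' = L(ζ)` is Galois over `ℚ` if `L` is (compositum of the normal fields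
  `L` and `ℚ(ζ)`).
* `stmtCycChiSurj` : the cyclotomic character of `Aut(N'/ℚ)` is onto `(ℤ/p^(n+1))ˣ`
  (`Gal(ℚ(ζ)/ℚ) ≅ (ℤ/m)ˣ` and lifting along the normal extension `N'/ℚ(ζ)`).
* `stmtCycRNormal` : `R` is a normal subgroup of `Aut(N'/ℚ)`.

The field-theoretic lemmas are proved over a GENERIC base field `F` (so that the only
`Algebra F ↥K` instance for an intermediate field `K` is the canonical one) and then specialised
to `F = ℚ`.
-/

set_option autoImplicit false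

namespace Fermat.Agent.PT.G3

open NumberField IsDedekindDomain Polynomial
open Fermat.Agent.PT Fermat.Agent.PT.G Fermat.Agent.PT.G1

section generic

variable {F L N : Type} [Field F] [Field L] [Field N] [Algebra F L] [Algebra L N] [Algebra F N]
  [IsScalarTower F L N]

/-- `L · F(ζ) = N` if `N = L[ζ]`. -/
theorem cycGal_sup_eq_top (ζ : N) (hadj : Algebra.adjoin L ({ζ} : Set N) = ⊤) :
    (IsScalarTower.toAlgHom F L N).fieldRange ⊔ IntermediateField.adjoin F {ζ} = ⊤ := by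
  rw [eq_top_iff]
  intro x _
  have hx : x ∈ Algebra.adjoin L ({ζ} : Set N) := by
    rw [hadj]
    trivial
  let T : Subalgebra L N :=
    { ((IsScalarTower.toAlgHom F L N).fieldRange ⊔
        IntermediateField.adjoin F {ζ}).toSubfield.toSubring with
      algebraMap_mem' := fun y =>
        (le_sup_left : (IsScalarTower.toAlgHom F L N).fieldRange ≤ _) ⟨y, rfl⟩ }
  have hle : Algebra.adjoin L ({ζ} : Set N) ≤ T := by
    rw [Algebra.adjoin_le_iff]
    intro y hy
    rw [Set.mem_singleton_iff] at hy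
    subst hy
    exact (le_sup_right : IntermediateField.adjoin F {y} ≤ _)
      (IntermediateField.mem_adjoin_simple_self F _)
  exact hle hx

/-- `N = L(ζ)` is normal over `F` if `L` is (`ζ` a primitive root of unity). -/
theorem cycGal_normal_generic [Normal F L] [Algebra.IsIntegral F N] (m : ℕ) [NeZero m] (ζ : N)
    (hζ : IsPrimitiveRoot ζ m) (hadj : Algebra.adjoin L ({ζ} : Set N) = ⊤) : Normal F N := by
  have h1 : Normal F ↥((IsScalarTower.toAlgHom F L N).fieldRange) :=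
    Normal.of_algEquiv (AlgEquiv.ofInjectiveField (IsScalarTower.toAlgHom F L N))
  have h2 : IsCyclotomicExtension {m} F ↥(IntermediateField.adjoin F {ζ}) :=
    hζ.intermediateField_adjoin_isCyclotomicExtension F
  have h3 : Normal F ↥(IntermediateField.adjoin F {ζ}) :=
    (IsCyclotomicExtension.isGalois {m} F ↥(IntermediateField.adjoin F {ζ})).to_normal
  have h : Normal F ↥((IsScalarTower.toAlgHom F L N).fieldRange ⊔
      IntermediateField.adjoin F {ζ}) := inferInstance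
  rw [cycGal_sup_eq_top ζ hadj] at h
  exact Normal.of_algEquiv (IntermediateField.topEquiv (F := F) (E := N))

omit [Field L] [Algebra F L] [Algebra L N] [IsScalarTower F L N] in
/-- If the cyclotomic polynomial is irreducible over `F` and `N/F` is normal, every unit `u` mod `m`
is realised by an automorphism of `N`: `σ ζ = ζ ^ u`. -/
theorem cycGal_exists_aut [Normal F N] (m : ℕ) [NeZero m] [NeZero (m : F)] (ζ : N)
    (hζ : IsPrimitiveRoot ζ m) (hirr : Irreducible (cyclotomic m F)) (u : (ZMod m)ˣ) :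
    ∃ σ : N ≃ₐ[F] N, σ ζ = ζ ^ (u : ZMod m).val := by
  have _ : Algebra.IsAlgebraic F N := Normal.toIsAlgebraic
  have h2 : IsCyclotomicExtension {m} F ↥(IntermediateField.adjoin F {ζ}) :=
    hζ.intermediateField_adjoin_isCyclotomicExtension F
  -- `ζ` as an element of `F(ζ)`
  let ζ' : ↥(IntermediateField.adjoin F {ζ}) := ⟨ζ, IntermediateField.mem_adjoin_simple_self F ζ⟩
  have hζ' : IsPrimitiveRoot ζ' m :=
    IsPrimitiveRoot.of_map_of_injective (f := algebraMap ↥(IntermediateField.adjoin F {ζ}) N)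
      (by exact hζ) (algebraMap ↥(IntermediateField.adjoin F {ζ}) N).injective
  have hμ : IsPrimitiveRoot (ζ' ^ (u : ZMod m).val) m :=
    hζ'.pow_of_coprime _ (ZMod.val_coe_unit_coprime u)
  have hmin : minpoly F (hζ'.powerBasis F).gen = minpoly F (hμ.powerBasis F).gen := by
    simp only [IsPrimitiveRoot.powerBasis_gen]
    exact (hζ'.minpoly_eq_cyclotomic_of_irreducible hirr).symm.trans
      (hμ.minpoly_eq_cyclotomic_of_irreducible hirr)
  let τ : ↥(IntermediateField.adjoin F {ζ}) ≃ₐ[F] ↥(IntermediateField.adjoin F {ζ}) :=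
    (hζ'.powerBasis F).equivOfMinpoly (hμ.powerBasis F) hmin
  have hτ : τ ζ' = ζ' ^ (u : ZMod m).val := by
    have := (hζ'.powerBasis F).equivOfMinpoly_gen (hμ.powerBasis F) hmin
    simpa only [IsPrimitiveRoot.powerBasis_gen] using this
  refine ⟨τ.liftNormal N, ?_⟩
  have h := τ.liftNormal_commutes N ζ'
  rw [hτ, map_pow] at h
  exact h

end generic

section

variable (p n : ℕ) [hp : Fact p.Prime] (L : Type) [Field L] [NumberField L]

theorem cycGal_adjoin :
    Algebra.adjoin L ({cycZeta p n L} : Set (CycTop p n L)) = ⊤ :=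
  IsCyclotomicExtension.adjoin_primitive_root_eq_top (cycZeta_spec p n L)

instance cycGal_numberField : NumberField (CycTop p n L) :=
  IsCyclotomicExtension.numberField {p ^ (n + 1)} L (CycTop p n L)

theorem cycGal_normal [IsGalois ℚ L] : Normal ℚ (CycTop p n L) :=
  cycGal_normal_generic (F := ℚ) (L := L) (p ^ (n + 1)) (cycZeta p n L) (cycZeta_spec p n L)
    (cycGal_adjoin p n L)

end

/-- **cyc-gal**. -/
theorem stmtCycGalois : StmtCycGalois := by
  intro p n _ L _ _ _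
  have _ := cycGal_normal p n L
  exact ⟨⟩

/-- **cyc-chi**. -/
theorem stmtCycChiSurj : StmtCycChiSurj := by
  intro p n hp L _ _ _
  have _ := cycGal_normal p n L
  intro u
  obtain ⟨σ, hσ⟩ := cycGal_exists_aut (F := ℚ) (p ^ (n + 1)) (cycZeta p n L)
    (cycZeta_spec p n L) (cyclotomic.irreducible_rat (NeZero.pos _)) u
  refine ⟨σ, ?_⟩
  have h1 := (cycZeta_spec p n L).autToPow_spec ℚ σ
  rw [hσ] at h1
  have h2 := (cycZeta_spec p n L).pow_inj (ZMod.val_lt _) (ZMod.val_lt _) h1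
  exact Units.ext (ZMod.val_injective _ h2)

/-- **cyc-normal**. -/
theorem stmtCycRNormal : StmtCycRNormal := by
  intro p n hp L _ _ _
  refine ⟨fun σ hσ τ => ⟨?_, fun x => ?_⟩⟩
  · rw [map_mul, map_mul, mul_comm, ← mul_assoc, map_inv, inv_mul_cancel, one_mul]
    exact hσ.1
  · -- `τ⁻¹ x ∈ L`
    have h1 : τ⁻¹ (algebraMap L (CycTop p n L) x) =
        algebraMap L (CycTop p n L) ((τ⁻¹).restrictNormal L x) :=
      ((τ⁻¹).restrictNormal_commutes L x).symm
    show τ (σ (τ⁻¹ (algebraMap L (CycTop p n L) x))) = _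
    rw [h1, hσ.2, ← h1]
    exact τ.apply_symm_apply _

end Fermat.Agent.PT.G3


end ZBPT_078_7

/-! ### bundled: `Fermat.Agent.PT.G3.CycLambda` -/
section ZBPT_078_8
/-
PT-G3, piece `cyc-lam` (helper1): for `p` odd there is a surjective homomorphism
`lam : (ℤ/p^(n+1))ˣ → ℤ/p^n` whose kernel is the `(p-1)`-torsion.

Pure finite group theory: `(ℤ/p^(n+1))ˣ` is cyclic of order `p^n (p-1)`; `lam` is the discrete
logarithm followed by the reduction `ℤ/(p^n (p-1)) → ℤ/p^n`.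
-/

set_option autoImplicit false

namespace Fermat.Agent.PT.G3

/-- abstract form: a finite cyclic group of order `a * b` surjects onto `ℤ/a` with kernel the
`b`-torsion. -/
theorem cycLam_abstract (G : Type) [CommGroup G] [IsCyclic G] [Finite G] (a b : ℕ) [NeZero a]
    (hcard : Nat.card G = a * b) :
    ∃ lam : G →* Multiplicative (ZMod a),
      Function.Surjective lam ∧ ∀ u, lam u = 1 ↔ u ^ b = 1 := by
  classical
  have hb : b ≠ 0 := by
    rintro rfl
    rw [mul_zero] at hcard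
    exact (Nat.card_pos (α := G)).ne' hcard
  have : NeZero (Nat.card G) := ⟨(Nat.card_pos (α := G)).ne'⟩
  -- the discrete logarithm
  let e : Multiplicative (ZMod (Nat.card G)) ≃* G := zmodCyclicMulEquiv (inferInstance : IsCyclic G)
  have hdvd : a ∣ Nat.card G := ⟨b, hcard⟩
  let c : ZMod (Nat.card G) →+ ZMod a := (ZMod.castHom hdvd (ZMod a)).toAddMonoidHom
  let lam : G →* Multiplicative (ZMod a) :=
    (AddMonoidHom.toMultiplicative c).comp e.symm.toMonoidHom
  refine ⟨lam, ?_, ?_⟩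
  · intro y
    obtain ⟨x, hx⟩ := ZMod.castHom_surjective hdvd (Multiplicative.toAdd y)
    refine ⟨e (Multiplicative.ofAdd x), ?_⟩
    show Multiplicative.ofAdd (c (Multiplicative.toAdd (e.symm (e (Multiplicative.ofAdd x))))) = y
    rw [MulEquiv.symm_apply_apply]
    show Multiplicative.ofAdd (ZMod.castHom hdvd (ZMod a) x) = y
    rw [hx]; rfl
  · intro u
    obtain ⟨x, rfl⟩ := e.surjective u
    have h1 : lam (e x) =
        Multiplicative.ofAdd (ZMod.castHom hdvd (ZMod a) (Multiplicative.toAdd x)) := by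
      show Multiplicative.ofAdd (c (Multiplicative.toAdd (e.symm (e x)))) = _
      rw [MulEquiv.symm_apply_apply]; rfl
    rw [h1]
    have h2 : (e x) ^ b = 1 ↔ x ^ b = 1 := by
      rw [← map_pow]
      constructor
      · intro h
        have := congrArg e.symm h
        rwa [MulEquiv.symm_apply_apply, map_one] at this
      · intro h; rw [h, map_one]
    rw [h2]
    -- now everything is in `ZMod (card G)`
    obtain ⟨k, rfl⟩ : ∃ k : ℕ, x = Multiplicative.ofAdd ((k : ℕ) : ZMod (Nat.card G)) := by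
      refine ⟨(Multiplicative.toAdd x).val, ?_⟩
      rw [ZMod.natCast_zmod_val]; rfl
    have h3 : (Multiplicative.ofAdd ((k : ℕ) : ZMod (Nat.card G))) ^ b = 1 ↔
        (Nat.card G) ∣ b * k := by
      rw [← ofAdd_nsmul, ofAdd_eq_one, nsmul_eq_mul, ← Nat.cast_mul,
        ZMod.natCast_eq_zero_iff]
    rw [h3]
    have h4 : Multiplicative.ofAdd (ZMod.castHom hdvd (ZMod a)
        (Multiplicative.toAdd (Multiplicative.ofAdd ((k : ℕ) : ZMod (Nat.card G))))) = 1 ↔
          a ∣ k := by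
      rw [ofAdd_eq_one, toAdd_ofAdd, map_natCast, ZMod.natCast_eq_zero_iff]
    rw [h4, hcard]
    constructor
    · intro h
      rw [mul_comm a b]
      exact Nat.mul_dvd_mul_left b h
    · intro h
      rw [mul_comm a b] at h
      exact (Nat.mul_dvd_mul_iff_left (Nat.pos_of_ne_zero hb)).mp h

/-- the order of `(ℤ/p^(n+1))ˣ`. -/
theorem cycLam_card (p n : ℕ) [hp : Fact p.Prime] :
    Nat.card (ZMod (p ^ (n + 1)))ˣ = p ^ n * (p - 1) := by
  rw [Nat.card_eq_fintype_card, ZMod.card_units_eq_totient, Nat.totient_prime_pow_succ hp.out]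

/-- **cyc-lam**. -/
theorem stmtCycLambda : StmtCycLambda := by
  intro p n hp hp2
  haveI : IsCyclic (ZMod (p ^ (n + 1)))ˣ := ZMod.isCyclic_units_of_prime_pow p hp.out hp2 (n + 1)
  haveI : NeZero (p ^ n) := ⟨pow_ne_zero _ hp.out.ne_zero⟩
  exact cycLam_abstract (ZMod (p ^ (n + 1)))ˣ (p ^ n) (p - 1) (cycLam_card p n)

end Fermat.Agent.PT.G3


end ZBPT_078_8

/-! ### bundled: `Fermat.Agent.PT.G3.CycEPrime` -/
section ZBPT_078_9
/-
PT-G3 / cyc, piece cyc-E' (helper67): `stmtCycEPrime_of : StmtCycGalois → StmtCycRNormal →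
StmtCycEPrime`.

`E = N^{ker θ}`, `E' := N'^{ker χ} ∋ ζ`.  With `res : Aut(N') ↠ Aut(N)` (kernel `R`) and
`θ ∘ res = lam ∘ χ`, `H := ker (lam ∘ χ)`:
`[E' : E] · |ker χ| = [N' : E] = |ker θ| · |R| = |H|`, so `[E' : E] = |χ(H)|`, and `χ(H)` is killed
by `p - 1`, hence of order prime to `p` (Cauchy).
-/

set_option autoImplicit false
set_option linter.style.haveILetI false
set_option linter.unusedSectionVars false

namespace Fermat.Agent.PT.G3

open NumberField IsDedekindDomain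

/-! ### group theory -/

section group

variable {G' G A B : Type} [Group G'] [Group G] [Group A] [Group B] [Finite G']

/-- the counting lemma -/
theorem cep_count (res : G' →* G) (hres : Function.Surjective res) (θ : G →* B)
    (χ : G' →* A) (lam : A →* B) (hθ : ∀ σ', θ (res σ') = lam (χ σ'))
    (p k : ℕ) [Fact p.Prime] (hk : ¬ p ∣ k) (hlam : ∀ u, lam u = 1 → u ^ k = 1)
    (d : ℕ) (hd : d * Nat.card χ.ker = Nat.card θ.ker * Nat.card res.ker) : d.Coprime p := by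
  classical
  have : Finite G := Finite.of_surjective res hres
  set H : Subgroup G' := θ.ker.comap res with hH
  -- `|H| = |ker θ| · |ker res|`
  have h1 : Nat.card H * θ.ker.index = Nat.card G' := by
    rw [← Subgroup.index_comap_of_surjective θ.ker hres]
    exact Subgroup.card_mul_index H
  have h2 : Nat.card θ.ker * θ.ker.index = Nat.card G := Subgroup.card_mul_index _
  have h3 : Nat.card res.ker * Nat.card G = Nat.card G' := by
    have := Subgroup.card_mul_index res.ker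
    rw [Subgroup.index_ker, MonoidHom.range_eq_top.2 hres, Subgroup.card_top] at this
    exact this
  have hi : θ.ker.index ≠ 0 := Subgroup.index_ne_zero_of_finite
  have h4 : Nat.card H = Nat.card θ.ker * Nat.card res.ker := by
    apply Nat.eq_of_mul_eq_mul_right (Nat.pos_of_ne_zero hi)
    rw [h1, ← h3, ← h2]
    ring
  -- `χ` restricted to `H`
  set f : ↥H →* A := χ.comp H.subtype with hf
  have hker : χ.ker ≤ H := fun σ hσ => by
    show θ (res σ) = 1
    rw [hθ, MonoidHom.mem_ker.1 hσ, map_one]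
  have h5 : Nat.card f.ker = Nat.card χ.ker := by
    have e : f.ker = χ.ker.subgroupOf H := by
      ext x
      simp [hf, Subgroup.mem_subgroupOf, MonoidHom.mem_ker]
    rw [e]
    exact Nat.card_congr (Subgroup.subgroupOfEquivOfLe hker).toEquiv
  have h6 : Nat.card f.ker * Nat.card f.range = Nat.card H := by
    have := Subgroup.card_mul_index f.ker
    rwa [Subgroup.index_ker] at this
  have hc : Nat.card χ.ker ≠ 0 := Nat.card_pos.ne'
  have h7 : d = Nat.card f.range := by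
    apply Nat.eq_of_mul_eq_mul_right (Nat.pos_of_ne_zero hc)
    rw [hd, ← h4, ← h6, h5, mul_comm]
  rw [h7]
  apply Nat.Coprime.symm
  rw [Nat.Prime.coprime_iff_not_dvd (Fact.out : p.Prime)]
  intro hp
  have : Finite f.range := Finite.of_surjective f.rangeRestrict f.rangeRestrict_surjective
  obtain ⟨x, hx⟩ := exists_prime_orderOf_dvd_card' (G := f.range) p hp
  apply hk
  rw [← hx]
  apply orderOf_dvd_of_pow_eq_one
  obtain ⟨⟨_, σ, rfl⟩, rfl⟩ : ∃ y : f.range, y = x := ⟨x, rfl⟩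
  apply Subtype.ext
  show (f σ) ^ k = 1
  apply hlam
  show lam (χ (σ : G')) = 1
  rw [← hθ]
  exact σ.2

end group

/-! ### Galois theory (generic base field) -/

section field

open IntermediateField

variable {F N' : Type} [Field F] [Field N'] [Algebra F N'] [FiniteDimensional F N']
  [IsGalois F N'] (R : Subgroup (N' ≃ₐ[F] N')) [R.Normal]
  {A B : Type} [Group A] [Group B]
  (χ : (N' ≃ₐ[F] N') →* A) (lam : A →* B)
  (θ : (↥(fixedField R) ≃ₐ[F] ↥(fixedField R)) →* B)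

/-- the restriction `Aut(N') → Aut(N)`, `N = N'^R` -/
noncomputable def cepRes : (N' ≃ₐ[F] N') →* (↥(fixedField R) ≃ₐ[F] ↥(fixedField R)) :=
  AlgEquiv.restrictNormalHom (F := F) (K₁ := N') ↥(fixedField R)

lemma cepRes_apply (σ' : N' ≃ₐ[F] N') (x : ↥(fixedField R)) :
    ((cepRes R σ' x : ↥(fixedField R)) : N') = σ' (x : N') :=
  AlgEquiv.restrictNormalHom_apply (fixedField R) σ' x

lemma cepRes_surjective : Function.Surjective (cepRes R) :=
  AlgEquiv.restrictNormalHom_surjective N'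

lemma cepRes_ker : (cepRes R).ker = R :=
  (fixedField R).restrictNormalHom_ker.trans (fixingSubgroup_fixedField R)

variable {R χ lam θ}

lemma cep_mem
    (hθ : ∀ (σ' : N' ≃ₐ[F] N') (σ : ↥(fixedField R) ≃ₐ[F] ↥(fixedField R)),
      (∀ x : ↥(fixedField R), σ' (x : N') = ((σ x : ↥(fixedField R)) : N')) →
      θ σ = lam (χ σ'))
    (x : ↥(fixedField θ.ker)) : ((x : ↥(fixedField R)) : N') ∈ fixedField χ.ker := by
  rw [IntermediateField.mem_fixedField_iff]
  intro σ' hσ'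
  have h1 : cepRes R σ' ∈ θ.ker := by
    rw [MonoidHom.mem_ker, hθ σ' (cepRes R σ') (fun y => (cepRes_apply R σ' y).symm),
      MonoidHom.mem_ker.1 hσ', map_one]
  have h2 := (IntermediateField.mem_fixedField_iff _ _).1 x.2 _ h1
  rw [← cepRes_apply, h2]

/-- the inclusion `E = N^{ker θ} → E' = N'^{ker χ}` -/
noncomputable def cepIncl
    (hθ : ∀ (σ' : N' ≃ₐ[F] N') (σ : ↥(fixedField R) ≃ₐ[F] ↥(fixedField R)),
      (∀ x : ↥(fixedField R), σ' (x : N') = ((σ x : ↥(fixedField R)) : N')) →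
      θ σ = lam (χ σ')) :
    ↥(fixedField θ.ker) →+* ↥(fixedField χ.ker) where
  toFun x := ⟨((x : ↥(fixedField R)) : N'), cep_mem hθ x⟩
  map_one' := rfl
  map_mul' _ _ := rfl
  map_zero' := rfl
  map_add' _ _ := rfl

theorem cep_coprime
    (hθ : ∀ (σ' : N' ≃ₐ[F] N') (σ : ↥(fixedField R) ≃ₐ[F] ↥(fixedField R)),
      (∀ x : ↥(fixedField R), σ' (x : N') = ((σ x : ↥(fixedField R)) : N')) →
      θ σ = lam (χ σ'))
    (p k : ℕ) [Fact p.Prime] (hk : ¬ p ∣ k) (hlam : ∀ u, lam u = 1 → u ^ k = 1) :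
    (@Module.finrank ↥(fixedField θ.ker) ↥(fixedField χ.ker) _ _
      (cepIncl hθ).toAlgebra.toModule).Coprime p := by
  letI a0 : Algebra ↥(fixedField θ.ker) ↥(fixedField χ.ker) := (cepIncl hθ).toAlgebra
  letI a1 : Algebra ↥(fixedField θ.ker) N' :=
    ((algebraMap ↥(fixedField R) N').comp
      (algebraMap ↥(fixedField θ.ker) ↥(fixedField R))).toAlgebra
  haveI t1 : IsScalarTower ↥(fixedField θ.ker) ↥(fixedField R) N' :=
    IsScalarTower.of_algebraMap_eq (fun _ => rfl)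
  haveI t2 : IsScalarTower ↥(fixedField θ.ker) ↥(fixedField χ.ker) N' :=
    IsScalarTower.of_algebraMap_eq (fun _ => rfl)
  have e1 := Module.finrank_mul_finrank ↥(fixedField θ.ker) ↥(fixedField R) N'
  have e2 := Module.finrank_mul_finrank ↥(fixedField θ.ker) ↥(fixedField χ.ker) N'
  rw [finrank_fixedField_eq_card, finrank_fixedField_eq_card] at e1
  rw [finrank_fixedField_eq_card] at e2
  refine cep_count (cepRes R) (cepRes_surjective R) θ χ lam
    (fun σ' => hθ σ' _ (fun y => (cepRes_apply R σ' y).symm)) p k hk hlam _ ?_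
  rw [e2, ← e1, cepRes_ker]

end field

/-! ### the statement -/

/-- **cyc-E'**. -/
theorem stmtCycEPrime_of (hG : StmtCycGalois) (hN : StmtCycRNormal) : StmtCycEPrime := by
  intro p n _ L _ _ _ lam hlam θ hθ
  haveI := hG p n L
  haveI := hN p n L
  have hp2 : 2 ≤ p := (Fact.out : p.Prime).two_le
  have hk : ¬ p ∣ (p - 1) := fun h => by
    have := Nat.le_of_dvd (by omega) h
    omega
  refine ⟨↥(IntermediateField.fixedField (cycChi p n L).ker), inferInstance, inferInstance,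
    (cepIncl (R := cycR p n L) (χ := cycChi p n L) (lam := lam) (θ := θ) hθ).toAlgebra, ?_, ?_⟩
  · exact cep_coprime (R := cycR p n L) (χ := cycChi p n L) (lam := lam) (θ := θ) hθ p (p - 1) hk
      (fun u hu => (hlam u).1 hu)
  · have hζ : cycZeta p n L ∈ IntermediateField.fixedField (cycChi p n L).ker := by
      rw [IntermediateField.mem_fixedField_iff]
      intro σ' hσ'
      have h1 := (cycZeta_spec p n L).autToPow_spec ℚ σ'
      have h2 : (cycZeta_spec p n L).autToPow ℚ σ' = 1 := MonoidHom.mem_ker.1 hσ'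
      rw [h2, Units.val_one, ZMod.val_one_eq_one_mod, Nat.mod_eq_of_lt, pow_one] at h1
      · exact h1.symm
      · exact Nat.one_lt_pow (by omega) (by omega)
    have hζ' : IsPrimitiveRoot (⟨cycZeta p n L, hζ⟩ :
        ↥(IntermediateField.fixedField (cycChi p n L).ker)) (p ^ (n + 1)) :=
      IsPrimitiveRoot.of_map_of_injective
        (f := (IntermediateField.fixedField (cycChi p n L).ker).val)
        (cycZeta_spec p n L)
        (IntermediateField.fixedField (cycChi p n L).ker).val.injective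
    exact ⟨hζ'.toInteger, hζ'.toInteger_isPrimitiveRoot⟩

/-- **cyc-E'**, unconditional. -/
theorem stmtCycEPrime : StmtCycEPrime := stmtCycEPrime_of stmtCycGalois stmtCycRNormal

end Fermat.Agent.PT.G3


end ZBPT_078_9

/-! ### bundled: `Fermat.Agent.PT.G3.CycExt` -/
section ZBPT_078_10
/-
PT-G3, piece `cyc-ext` (helper75): automorphisms of `N = N'^R` extend to `N'`, automorphisms of
`N'` restrict to `N` (`R` normal), two extensions differ by an element of `R`.
-/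

set_option autoImplicit false

namespace Fermat.Agent.PT.G3

open NumberField IsDedekindDomain
open Fermat.Agent.PT Fermat.Agent.PT.G Fermat.Agent.PT.G1

section

variable (p n : ℕ) [hp : Fact p.Prime] (L : Type) [Field L] [NumberField L]

theorem cycExt_fixing :
    (IntermediateField.fixedField (cycR p n L)).fixingSubgroup = cycR p n L :=
  IntermediateField.fixingSubgroup_fixedField _

/-- two extensions of the same automorphism differ by an element of `R`. -/
theorem cycExt_diff (σ : CycN p n L ≃ₐ[ℚ] CycN p n L)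
    (σ' σ'' : CycTop p n L ≃ₐ[ℚ] CycTop p n L)
    (h1 : CycExtends p n L σ' σ) (h2 : CycExtends p n L σ'' σ) :
    σ'⁻¹ * σ'' ∈ cycR p n L := by
  rw [← cycExt_fixing, IntermediateField.mem_fixingSubgroup_iff]
  intro x hx
  have e1 := h1 ⟨x, hx⟩
  have e2 := h2 ⟨x, hx⟩
  show σ'⁻¹ (σ'' x) = x
  have e3 : σ'' x = σ' x := by
    simpa using e2.trans e1.symm
  rw [e3]
  exact σ'.symm_apply_apply x

/-- `σ'` maps `N` into `N` (`R` normal). -/
theorem cycExt_mem (hR : (cycR p n L).Normal) (σ' : CycTop p n L ≃ₐ[ℚ] CycTop p n L)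
    (x : CycTop p n L) (hx : x ∈ IntermediateField.fixedField (cycR p n L)) :
    σ' x ∈ IntermediateField.fixedField (cycR p n L) := by
  intro τ
  have h1 : σ'⁻¹ * (τ : CycTop p n L ≃ₐ[ℚ] CycTop p n L) * σ' ∈ cycR p n L := by
    have := hR.conj_mem _ τ.2 σ'⁻¹
    rwa [inv_inv] at this
  have h2 := hx ⟨_, h1⟩
  have h3 : σ'⁻¹ ((τ : CycTop p n L ≃ₐ[ℚ] CycTop p n L) (σ' x)) = x := h2
  have h4 := congrArg σ' h3
  rw [show σ' (σ'⁻¹ ((τ : CycTop p n L ≃ₐ[ℚ] CycTop p n L) (σ' x))) =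
    (τ : CycTop p n L ≃ₐ[ℚ] CycTop p n L) (σ' x) from σ'.apply_symm_apply _] at h4
  exact h4

/-- the restriction of `σ'` to `N`. -/
noncomputable def cycExtRestrict (hR : (cycR p n L).Normal)
    (σ' : CycTop p n L ≃ₐ[ℚ] CycTop p n L) : CycN p n L ≃ₐ[ℚ] CycN p n L :=
  AlgEquiv.ofRingEquiv
    (f := { toFun := fun x => ⟨σ' x.1, cycExt_mem p n L hR σ' x.1 x.2⟩
            invFun := fun x => ⟨σ'⁻¹ x.1, cycExt_mem p n L hR σ'⁻¹ x.1 x.2⟩
            left_inv := fun x => Subtype.ext (σ'.symm_apply_apply x.1)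
            right_inv := fun x => Subtype.ext (σ'.apply_symm_apply x.1)
            map_mul' := fun x y => Subtype.ext (map_mul σ' x.1 y.1)
            map_add' := fun x y => Subtype.ext (map_add σ' x.1 y.1) })
    (fun r => by
      rw [eq_ratCast]
      exact map_ratCast _ r)

theorem cycExt_restrict_spec (hR : (cycR p n L).Normal)
    (σ' : CycTop p n L ≃ₐ[ℚ] CycTop p n L) :
    CycExtends p n L σ' (cycExtRestrict p n L hR σ') :=
  fun _ => rfl

/-- the extension of `σ` to `N'`. -/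
theorem cycExt_lift [Normal ℚ (CycTop p n L)] (σ : CycN p n L ≃ₐ[ℚ] CycN p n L) :
    ∃ σ', CycExtends p n L σ' σ :=
  ⟨σ.liftNormal (CycTop p n L), fun x => σ.liftNormal_commutes (CycTop p n L) x⟩

end

/-- **cyc-ext** from cyc-gal and cyc-normal. -/
theorem stmtCycExt_of (hG : StmtCycGalois) (hN : StmtCycRNormal) : StmtCycExt := by
  intro p n _ L _ _ _
  have : IsGalois ℚ (CycTop p n L) := hG p n L
  have hR := hN p n L
  exact ⟨fun σ => cycExt_lift p n L σ,
    fun σ' => ⟨cycExtRestrict p n L hR σ', cycExt_restrict_spec p n L hR σ'⟩,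
    fun σ σ' σ'' h1 h2 => cycExt_diff p n L σ σ' σ'' h1 h2⟩

end Fermat.Agent.PT.G3


end ZBPT_078_10

/-! ### bundled: `Fermat.Agent.PT.G3.CycTheta` -/
section ZBPT_078_11
/-
PT-G3, piece `cyc-theta` (helper75): `θ := lam ∘ χ ∘ (extension)` on `Aut(N)`.
-/

set_option autoImplicit false

namespace Fermat.Agent.PT.G3

open NumberField IsDedekindDomain
open Fermat.Agent.PT Fermat.Agent.PT.G Fermat.Agent.PT.G1

section

variable (p n : ℕ) [hp : Fact p.Prime] (L : Type) [Field L] [NumberField L]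

theorem cycTheta_extends_one : CycExtends p n L 1 1 := fun _ => rfl

theorem cycTheta_extends_mul {σ₁' σ₂' : CycTop p n L ≃ₐ[ℚ] CycTop p n L}
    {σ₁ σ₂ : CycN p n L ≃ₐ[ℚ] CycN p n L}
    (h1 : CycExtends p n L σ₁' σ₁) (h2 : CycExtends p n L σ₂' σ₂) :
    CycExtends p n L (σ₁' * σ₂') (σ₁ * σ₂) := by
  intro x
  show σ₁' (σ₂' (x : CycTop p n L)) = ((σ₁ (σ₂ x) : CycN p n L) : CycTop p n L)
  rw [h2 x, h1 (σ₂ x)]

/-- `lam ∘ χ` takes the same value on two extensions of the same automorphism. -/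
theorem cycTheta_indep (lam : (ZMod (p ^ (n + 1)))ˣ →* Multiplicative (ZMod (p ^ n)))
    (hlam : ∀ u, u ^ (p - 1) = 1 → lam u = 1)
    (hdiff : ∀ σ (σ' σ'' : CycTop p n L ≃ₐ[ℚ] CycTop p n L), CycExtends p n L σ' σ →
      CycExtends p n L σ'' σ → σ'⁻¹ * σ'' ∈ cycR p n L)
    (σ : CycN p n L ≃ₐ[ℚ] CycN p n L) (σ' σ'' : CycTop p n L ≃ₐ[ℚ] CycTop p n L)
    (h1 : CycExtends p n L σ' σ) (h2 : CycExtends p n L σ'' σ) :
    lam (cycChi p n L σ') = lam (cycChi p n L σ'') := by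
  have h := (hdiff σ σ' σ'' h1 h2).1
  have h3 := hlam _ h
  rw [map_mul, map_mul, map_inv, map_inv] at h3
  exact (inv_mul_eq_one.mp h3)

end

/-- **cyc-theta** from cyc-ext. -/
theorem stmtCycTheta_of (hE : StmtCycExt) : StmtCycTheta := by
  intro p n _ L _ _ _ lam hlam
  obtain ⟨hext, -, hdiff⟩ := hE p n L
  choose ext hextspec using hext
  have key : ∀ σ' σ, CycExtends p n L σ' σ →
      lam (cycChi p n L (ext σ)) = lam (cycChi p n L σ') := fun σ' σ h =>
    cycTheta_indep p n L lam hlam hdiff σ (ext σ) σ' (hextspec σ) h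
  refine ⟨{ toFun := fun σ => lam (cycChi p n L (ext σ))
            map_one' := ?_
            map_mul' := ?_ }, fun σ' σ h => key σ' σ h⟩
  · rw [key 1 1 (cycTheta_extends_one p n L), map_one, map_one]
  · intro σ τ
    rw [key (ext σ * ext τ) (σ * τ) (cycTheta_extends_mul p n L (hextspec σ) (hextspec τ)),
      map_mul, map_mul]

end Fermat.Agent.PT.G3


end ZBPT_078_11

/-! ### bundled: `Fermat.Agent.PT.G3.PlanGB` -/
section ZBPT_078_12
/-
PT-G3 — INTERFACE FILE for (GB) = `Fermat.Agent.PT.B.StmtGB` (finite-level `surv`).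
Plan: helper55 (PT captain), with the analysis of helper47.  Mathematics + piece table:
NOTES/PT-GB.md.  Definitions and statements only; a piece `X` is DONE when
`theorem stmtX : StmtX` (or `stmtX_of : … → StmtX`) is landed in its own file
`Fermat/Agent/PT/G3/GB<File>.lean`, namespace `Fermat.Agent.PT.G3`, sorry-free, std axioms.

Route (all at FINITE level, tensor model).  `L/ℚ` Galois, unramified outside `S ∋ p`, `q ∈ S`,
`y ∈ Z²(Aut L, J_L)` supported at `q`, `p • y ∼ 0`, `csOfJ ∘ y ∼ 0`.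
 0. WLOG `p • y ∼ 0` (`StmtGBRed`).
 1. choose `n`, `b₁ ∈ ℚ_qˣ` with `ψ_q(b₁) ≠ 1` (`StmtPsiNontriv`), `D : CycData p n S L`, `N = D.N`,
    `θ = D.θ : Aut N ↠ ℤ/p^n`.
 2. `y_N := Inf y` on `Aut N` (`gbInf`); it suffices to kill `y_N` (`StmtGBInfJ`).
 3. `X := semiRep q N`.  `H²(Aut N, X)[p]` has order `≤ p` (`StmtSemiCycOne`, helper47's sub-plan)
    and contains a NONZERO carry class (`StmtCarryNZ`: `ψ_q(b₁) ≠ 1`); hence
    `y_N ∼ cmpCarry (p^n) θ (gbConst b)` for some `b ∈ ℚ_qˣ`.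
 4. `csOfJ(y_N) ∼ 0` ⇒ the carry cocycle of `csMap [b]` is a coboundary in `C_S(N)` ⇒
    `Ψ_ℚ [b] = ψ_q(b) = 1` (`StmtGBPsi`: CarryZero + SylowNorm + psi-N/M/Z).
 5. `ψ_q(b) = 1` ⇒ `b^(p-1)` is a norm from `(ℚ_q ⊗ ℚ(ζ_{p^(n+1)}))ˣ` (`StmtLocNormCyc`, LOCAL)
    ⇒ `b` is a norm from `X^{ker θ}` (`StmtNormTransfer`) ⇒ the carry cocycle of `b` is a
    coboundary (`StmtCarryOfNorm`) ⇒ `y_N ∼ 0` ⇒ `y ∼ 0`.
-/

set_option autoImplicit false
set_option linter.unusedSectionVars false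

noncomputable section

namespace Fermat.Agent.PT.G3

open CategoryTheory groupCohomology NumberField IsDedekindDomain
open Fermat.Agent.PT Fermat.Agent.PT.G Fermat.Agent.PT.G1
open scoped TensorProduct

/-! ### Vocabulary -/

/-- The constant idèle `b ⊗ 1 ∈ (ℚ_q ⊗ N)ˣ` attached to `b ∈ ℚ_qˣ`, as an element of
`semiRep q N` (it is `Aut(N)`-invariant: `gbConst_invariant` is part of piece `carryOfNorm`). -/
def gbConst (q : ℕ) [Fact q.Prime] (N : Type) [Field N] [NumberField N] (b : ℚ_[q]ˣ) :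
    (semiRep q N).V :=
  Additive.ofMul (Units.map ((algebraMap ℚ_[q] (semiAlg q N) : ℚ_[q] →* semiAlg q N)) b)

/-- restriction of automorphisms `Aut(N) → Aut(L)` (`L/ℚ` normal) -/
def gbRes (L N : Type) [Field L] [NumberField L] [Field N] [NumberField N] [Algebra L N]
    [Normal ℚ L] : (N ≃ₐ[ℚ] N) →* (L ≃ₐ[ℚ] L) :=
  haveI : IsScalarTower ℚ L N := IsScalarTower.of_algebraMap_eq (fun x => by
    rw [eq_ratCast, eq_ratCast, map_ratCast])
  AlgEquiv.restrictNormalHom (F := ℚ) (K₁ := N) L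

/-- inflation of a 2-cochain of `Aut(L)` with values in `J_L` to `Aut(N)` with values in `J_N` -/
def gbInf (S : Finset Nat.Primes) (L N : Type) [Field L] [NumberField L] [Field N]
    [NumberField N] [Algebra L N] [Normal ℚ L]
    (y : (L ≃ₐ[ℚ] L) × (L ≃ₐ[ℚ] L) → (jlRep S L).V) :
    (N ≃ₐ[ℚ] N) × (N ≃ₐ[ℚ] N) → (jlRep S N).V :=
  fun gg => jlMapLin S L N (y (gbRes L N gg.1, gbRes L N gg.2))

/-! ### (GB) for classes killed by `p`, and the reduction -/

/-- **(GB₁)** = (GB) for classes killed by `p`. -/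
def StmtGBOne : Prop :=
  ∀ (p : ℕ) [hp : Fact p.Prime], p ≠ 2 → ∀ (S : Finset Nat.Primes),
    (⟨p, hp.out⟩ : Nat.Primes) ∈ S →
    ∀ (L : Type) [Field L] [NumberField L] [IsGalois ℚ L], UnramOffRel S ℚ L →
    ∀ (q : ↥S) (y : (L ≃ₐ[ℚ] L) × (L ≃ₐ[ℚ] L) → (jlRep S L).V),
      y ∈ cocycles₂ (jlRep S L) →
      (∀ q' : ↥S, q' ≠ q → ∀ gg, (Additive.toMul (y gg : Additive (JL S L)) : JL S L) q' = 1) →
      p • y ∈ coboundaries₂ (jlRep S L) →
      (fun gg => (csOfJRep S L).hom (y gg)) ∈ coboundaries₂ (csRep S L) →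
      y ∈ coboundaries₂ (jlRep S L)

/-- (GB) in the shape of `Fermat.Agent.PT.B.StmtGB` (PT/B/Plan4.lean), restated here to avoid an
import cycle; `B.StmtGB` is definitionally this. -/
def StmtGBAll : Prop :=
  ∀ (p : ℕ) [hp : Fact p.Prime], p ≠ 2 → ∀ (S : Finset Nat.Primes),
    (⟨p, hp.out⟩ : Nat.Primes) ∈ S →
    ∀ (L : Type) [Field L] [NumberField L] [IsGalois ℚ L], UnramOffRel S ℚ L →
    ∀ (q : ↥S) (y : (L ≃ₐ[ℚ] L) × (L ≃ₐ[ℚ] L) → (jlRep S L).V),
      y ∈ cocycles₂ (jlRep S L) →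
      (∀ q' : ↥S, q' ≠ q → ∀ gg, (Additive.toMul (y gg : Additive (JL S L)) : JL S L) q' = 1) →
      (∃ (k : ℕ) (t : (L ≃ₐ[ℚ] L) → (jlRep S L).V), (d₁₂ (jlRep S L)).hom t = (p ^ k) • y) →
      (∃ t : (L ≃ₐ[ℚ] L) → (csRep S L).V,
        (d₁₂ (csRep S L)).hom t = fun gg => (csOfJRep S L).hom (y gg)) →
      ∃ t : (L ≃ₐ[ℚ] L) → (jlRep S L).V, (d₁₂ (jlRep S L)).hom t = y

/-- **gbRed** (R0): (GB₁) ⇒ (GB).  Induction on `k`: if `p^(k+1) • y ∼ 0`, apply (GB₁) to
`p^k • y` (a cocycle supported at `q`, dying in `C_S(L)`), get `p^k • y ∼ 0`, induct. -/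
def StmtGBRed : Prop := StmtGBOne → StmtGBAll

/-! ### Step 1: a prime power level with `ψ_q ≠ 1` -/

/-- **psiNontriv**: for `p` odd and every prime `q` the local symbol `ψ_q` is nontrivial at some
level `n`.  (`q ≠ p`: `b = q`, `n ≥ v_p(q^(p-1) - 1)`: `ψ_q(q) = [q^(p-1)] ≠ 1` in
`(ℤ/p^(n+1))ˣ`.  `q = p`: `b = 1 + p`, `n = 1`: `ψ_p(1+p) = [(1+p)^(p-1)]⁻¹ ≠ 1` mod `p²`.) -/
def StmtPsiNontriv : Prop :=
  ∀ (p : ℕ) [Fact p.Prime], p ≠ 2 → ∀ (q : ℕ) [Fact q.Prime],
    ∃ (n : ℕ) (b : ℚ_[q]ˣ), psiQ p n q b ≠ 1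

/-! ### Step 2: inflation for `J` -/

/-- **h90semi** (Hilbert 90 for the semilocal algebra): `H¹(H, (ℚ_q ⊗ N)ˣ) = 0` for every
subgroup `H ≤ Aut(N)`.  (`ℚ_q ⊗ N` is a product of fields permuted by `H`; Shapiro + Hilbert 90
for fields; or directly: `(ℚ_q ⊗ N)ˣ ≅ coind` of `(A/𝔪)ˣ` — helper47's (SD).) -/
def StmtH90Semi : Prop :=
  ∀ (q : ℕ) [Fact q.Prime] (N : Type) [Field N] [NumberField N] (H : Subgroup (N ≃ₐ[ℚ] N)),
    Subsingleton (H1 (Rep.res H.subtype (semiRep q N)))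

/-- **gbInfJ**: inflation `H²(Aut L, J_L) → H²(Aut N, J_N)` is injective, in cocycle form
(`N/L` Galois, `L/ℚ`, `N/ℚ` Galois).
(`StmtInfSurj` with `f = gbRes`, `D = jlRep S L`, `C = jlRep S N`, `φ = jlMapLin`:
injective (`semiIncl` is injective: flatness), `J_N^{Gal(N/L)} = jlMap(J_L)` (`StmtSemiInv`),
`H¹(Gal(N/L), J_N) = 0` (`StmtH90Semi`, componentwise).) -/
def StmtGBInfJ : Prop :=
  StmtH90Semi →
  ∀ (S : Finset Nat.Primes) (L N : Type) [Field L] [NumberField L] [Field N] [NumberField N]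
    [Algebra L N] [IsGalois ℚ L] [IsGalois ℚ N] [IsGalois L N]
    (y : (L ≃ₐ[ℚ] L) × (L ≃ₐ[ℚ] L) → (jlRep S L).V),
    y ∈ cocycles₂ (jlRep S L) →
    gbInf S L N y ∈ coboundaries₂ (jlRep S N) → y ∈ coboundaries₂ (jlRep S L)

/-! ### Step 3: the local structure -/

/-- **semiCycOne** (helper47's sub-plan `SemiCyc`, in the form used here): the classes killed by
`p` in `H²(Aut N, (ℚ_q ⊗ N)ˣ)` form a group of order `≤ p`: if `y₁ ≁ 0` then every `y₂` is
cohomologous to a multiple of `y₁`.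
(`(ℚ_q ⊗ N)ˣ ≅ coind_{Γ_w}^{Aut N} (N_w)ˣ`, Shapiro, PT-L `fundClass`: `H²(Γ_w, N_wˣ)(p)` is
cyclic.) -/
def StmtSemiCycOne : Prop :=
  ∀ (p : ℕ) [Fact p.Prime] (q : ℕ) [Fact q.Prime] (N : Type) [Field N] [NumberField N]
    [IsGalois ℚ N] (y₁ y₂ : (N ≃ₐ[ℚ] N) × (N ≃ₐ[ℚ] N) → (semiRep q N).V),
    y₁ ∈ cocycles₂ (semiRep q N) → y₂ ∈ cocycles₂ (semiRep q N) →
    p • y₁ ∈ coboundaries₂ (semiRep q N) → p • y₂ ∈ coboundaries₂ (semiRep q N) →
    y₁ ∉ coboundaries₂ (semiRep q N) →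
    ∃ j : ℕ, y₂ - j • y₁ ∈ coboundaries₂ (semiRep q N)

/-- **carryOfNorm** (abstract, easy direction of periodicity): if `a = N_{G/ker θ}(d)` with `d`
fixed by `ker θ`, then the carry cocycle of `a` is a coboundary.
(Explicit: `φ(g) = Σ_{t ∈ G/ker θ, idx(t) < idx(g)} t • d`, as in `cmpCarry_mem_coboundaries₂`.) -/
def StmtCarryOfNorm : Prop :=
  ∀ (G : Type) [Group G] [Finite G] (C : Rep.{0} ℤ G) (m : ℕ) [NeZero m]
    (θ : G →* Multiplicative (ZMod m)) (d : C.V), (∀ g ∈ θ.ker, C.ρ g d = d) →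
    cmpCarry m θ (∑ᶠ t : G ⧸ θ.ker, C.ρ (Quotient.out t : G) d) ∈ coboundaries₂ C

/-- **carryNZ**: if `ψ_q(b) ≠ 1` then the carry cocycle of `b` is NOT a coboundary in
`(ℚ_q ⊗ N)ˣ`.
(If it is: inflation from `Aut N / ker θ ≅ ℤ/p^n` is injective (`StmtInfSurj`, `StmtH90Semi` for
`ker θ`, `StmtSemiInv`), so `b = N(x)`, `x ∈ (ℚ_q ⊗ E)ˣ`, `E = N^{ker θ}`
(`cmpCarry_norm_of_mem_coboundaries₂`); the product over `Gal(E/ℚ)` is `Algebra.norm ℚ_q`
(`ℚ_q ⊗ E` is a Galois algebra: as in psi-N); `ψ_q(norm x) = Ψ_E(csOfJ x) = 0` by psi-Z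
(`E' ⊇ E` contains `ζ`, degree prime to `p`).  Contradiction.) -/
def StmtCarryNZ : Prop :=
  StmtH90Semi →
  ∀ (p n : ℕ) [hp : Fact p.Prime] (S : Finset Nat.Primes), p ≠ 2 →
    (⟨p, hp.out⟩ : Nat.Primes) ∈ S →
    ∀ (L : Type) [Field L] [NumberField L] [IsGalois ℚ L] (D : CycData p n S L)
      (q : ↥S) (b : ℚ_[(q : Nat.Primes)]ˣ),
      haveI : Fact ((q : Nat.Primes) : ℕ).Prime := ⟨(q : Nat.Primes).2⟩
      haveI : NeZero (p ^ n) := ⟨pow_ne_zero _ hp.out.ne_zero⟩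
      psiQ p n ((q : Nat.Primes) : ℕ) b ≠ 1 →
      cmpCarry (p ^ n) D.θ (gbConst ((q : Nat.Primes) : ℕ) D.N b) ∉
        coboundaries₂ (semiRep ((q : Nat.Primes) : ℕ) D.N)

/-! ### Step 4: the global step -/

/-- **gbPsi** (R4): if the carry cocycle of `csMap c₀`, `c₀ ∈ C_S(ℚ)`, is a coboundary in `C_S(N)`
then `Ψ_ℚ(c₀) = 0`.
(`StmtCarryZero` [`H¹(P ⊓ ker θ, C_S(N)) = 0`: `csPBound`] ⇒ `csMap c₀ = N_{P/(P ∩ A)} d` ⇒
`StmtSylowNorm` ⇒ `csMap S ℚ F₀ c₀ ∈ NormSub S F₀ M₀` (`F₀ = N^P`, `M₀ = N^{P ∩ A} ⊇ E`) ⇒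
psi-N + (`Ψ_{M₀} = 0`: psi-Z for `E`, psi-up) ⇒ `Ψ_{F₀}(csMap c₀) = 0` ⇒ psi-M:
`[F₀ : ℚ] • Ψ_ℚ c₀ = 0`, `[F₀ : ℚ]` prime to `p`, psi-tors ⇒ `Ψ_ℚ c₀ = 0`.
This is computation (iii) of the GA recipe — share the lemma with `GA.lean`.) -/
def StmtGBPsi : Prop :=
  ∀ (p n : ℕ) [hp : Fact p.Prime] (S : Finset Nat.Primes), p ≠ 2 →
    (⟨p, hp.out⟩ : Nat.Primes) ∈ S →
    ∀ (L : Type) [Field L] [NumberField L] [IsGalois ℚ L], UnramOffRel S ℚ L →
    ∀ (D : CycData p n S L) (c₀ : CS S ℚ),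
      haveI : NeZero (p ^ n) := ⟨pow_ne_zero _ hp.out.ne_zero⟩
      cmpCarry (p ^ n) D.θ (csMap S ℚ D.N c₀ : (csRep S D.N).V) ∈ coboundaries₂ (csRep S D.N) →
      psiC p n S ℚ c₀ = 0

/-! ### Step 5: local norms -/

/-- **locNormCyc** (LOCAL, the arithmetic heart): if `ψ_q(b) = 1` then `b^(p-1)` is a norm from
`(ℚ_q ⊗ K)ˣ`, `K = ℚ(ζ_{p^(n+1)})`.
* `q = p`: `b = p^a u`, `u^(p-1) ≡ 1 mod p^(n+1)`.  `p = N_{K/ℚ}(1 - ζ)` and
  `Algebra.norm ℚ_p (1 ⊗ x) = N_{K/ℚ} x` (`norm_one_tmul`);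
  `u^(p-1) ∈ 1 + p^(n+1) ℤ_p = {c^(p^n (p-1)) | c ∈ 1 + p ℤ_p}` and `c^([K:ℚ]) = norm (c ⊗ 1)`.
* `q ≠ p`: `b = q^a u`, `ord(q mod p^(n+1)) ∣ a (p-1)`.  `ℚ_q ⊗ K ≅ ∏_𝔪 F_𝔪`
  (G1 `tensUnitsEquiv`), `F_𝔪 = ℚ_q(ζ)` unramified cyclic of degree `f = ord(q mod p^(n+1))` over
  `ℚ_q`; `N(F_𝔪ˣ) ∋ q^f` and `⊇ ℤ_qˣ` (PT-L `unitNorm`). -/
def StmtLocNormCyc : Prop :=
  ∀ (p n : ℕ) [Fact p.Prime], p ≠ 2 → ∀ (q : ℕ) [Fact q.Prime] (b : ℚ_[q]ˣ),
    psiQ p n q b = 1 →
    ∃ x : (semiAlg q (CyclotomicField (p ^ (n + 1)) ℚ))ˣ,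
      Algebra.norm ℚ_[q] (x : semiAlg q (CyclotomicField (p ^ (n + 1)) ℚ)) =
        (b : ℚ_[q]) ^ (p - 1)

/-- **normTransfer**: from norms of `ℚ_q ⊗ ℚ(ζ)` to norms `N_{Aut N / ker θ}` in `(ℚ_q ⊗ N)ˣ`.
(`K = ℚ(ζ) → E'` (`ζ ↦ D.ζ`), `E = N^{ker θ} ⊂ E'`, `[E' : K]` prime to `p`;
`norm_{ℚ_q}(x') = (b^(p-1))^[E':K]` for the image `x'` of `x` in `ℚ_q ⊗ E'` (`Algebra.norm_norm`);
`y := norm_{(ℚ_q⊗E')/(ℚ_q⊗E)} x'`; `norm_{ℚ_q} b = b^(p^n)`; Bezout; the product over
`Gal(E/ℚ) ≅ Aut N / ker θ` of the conjugates of `z ∈ ℚ_q ⊗ E` is `norm_{ℚ_q} z`.) -/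
def StmtNormTransfer : Prop :=
  ∀ (p n : ℕ) [hp : Fact p.Prime] (S : Finset Nat.Primes), p ≠ 2 →
    ∀ (L : Type) [Field L] [NumberField L] [IsGalois ℚ L] (D : CycData p n S L)
      (q : ℕ) [Fact q.Prime] (b : ℚ_[q]ˣ),
      (∃ x : (semiAlg q (CyclotomicField (p ^ (n + 1)) ℚ))ˣ,
        Algebra.norm ℚ_[q] (x : semiAlg q (CyclotomicField (p ^ (n + 1)) ℚ)) =
          (b : ℚ_[q]) ^ (p - 1)) →
      ∃ d : (semiRep q D.N).V, (∀ g ∈ D.θ.ker, (semiRep q D.N).ρ g d = d) ∧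
        gbConst q D.N b =
          ∑ᶠ t : (D.N ≃ₐ[ℚ] D.N) ⧸ D.θ.ker, (semiRep q D.N).ρ (Quotient.out t) d

/-! ### Assembly -/

/-- **gbAsm**: (GB₁) from the pieces (see the header; `StmtCyc` provides `CycData`). -/
def StmtGBAsm : Prop :=
  StmtCyc → StmtPsiNontriv → StmtH90Semi → StmtGBInfJ → StmtSemiCycOne → StmtCarryOfNorm →
    StmtCarryNZ → StmtGBPsi → StmtLocNormCyc → StmtNormTransfer → StmtGBOne

end Fermat.Agent.PT.G3

end


end ZBPT_078_12

/-! ### bundled: `Fermat.Agent.PT.G3.GBRed` -/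
section ZBPT_078_13
/-
PT-GB, piece gbRed (helper74): `StmtGBRed : StmtGBOne → StmtGBAll`.

Induction on `k`: if `p^(k+1) • y ∼ 0`, apply (GB₁) to `p^k • y` (a cocycle supported at `q`,
dying in `C_S(L)`), get `p^k • y ∼ 0`, induct.
-/

set_option autoImplicit false
set_option linter.unusedSectionVars false

noncomputable section

namespace Fermat.Agent.PT.G3

open CategoryTheory groupCohomology NumberField IsDedekindDomain
open Fermat.Agent.PT Fermat.Agent.PT.G Fermat.Agent.PT.G1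
open scoped TensorProduct

/-- **gbRed**: (GB₁) ⇒ (GB). -/
theorem stmtGBRed : StmtGBRed := by
  intro hOne p hp hp2 S hpS L _ _ _ hun q y hy hsupp hk hcs
  obtain ⟨k, hk⟩ := hk
  induction k with
  | zero =>
    obtain ⟨t, ht⟩ := hk
    exact ⟨t, by rw [ht, pow_zero, one_smul]⟩
  | succ k ih =>
    apply ih
    have hmem : (p ^ k) • y ∈ coboundaries₂ (jlRep S L) := by
      apply hOne p hp2 S hpS L hun q ((p ^ k) • y)
      · exact (cocycles₂ (jlRep S L)).smul_of_tower_mem (p ^ k) hy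
      · intro q' hq' gg
        have h1 := hsupp q' hq' gg
        have h3 : (Additive.toMul (((p ^ k) • y) gg : Additive (JL S L)) : JL S L)
            = (Additive.toMul (y gg : Additive (JL S L)) : JL S L) ^ (p ^ k) := rfl
        rw [h3, Pi.pow_apply, h1, one_pow]
      · obtain ⟨t, ht⟩ := hk
        refine ⟨t, ?_⟩
        rw [ht, pow_succ, mul_comm, mul_smul]
      · obtain ⟨t, ht⟩ := hcs
        refine ⟨(p ^ k) • t, ?_⟩
        rw [map_nsmul, ht]
        funext gg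
        have h2 : ((p ^ k) • y) gg = (p ^ k) • (y gg) := rfl
        rw [h2, map_nsmul]
        rfl
    obtain ⟨t, ht⟩ := hmem
    exact ⟨t, ht⟩

end Fermat.Agent.PT.G3

end
end ZBPT_078_13

/-! ### bundled: `Fermat.Agent.PT.G3.GBPsiNontriv` -/
section ZBPT_078_14
/-
PT-GB — piece **psiNontriv** (helper32): for `p` odd and every prime `q` the local symbol
`ψ_q : ℚ_qˣ → (ℤ/p^(n+1))ˣ` is nontrivial at some level `n`.

* `q ≠ p`: `b = q`, `n = q^(p-1)`: `ψ_q(q) = [q]^(p-1) ≠ 1` since `1 < q^(p-1) < p^(n+1)`.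
* `q = p`: `b = 1 + p`, `n = 1`: `ψ_p(1+p) = ([1+p]^(p-1))⁻¹`; `[1+p]^p = 1` mod `p²`, so
  `[1+p]^(p-1) = 1` would give `[1+p] = 1`, i.e. `p² ∣ p`.
-/

set_option autoImplicit false

namespace Fermat.Agent.PT.G3

/-- `q ≠ p`: `ψ_q(q) ≠ 1` at level `n = q^(p-1)`. -/
theorem psiNontriv_away (p : ℕ) [hp : Fact p.Prime] (_hp2 : p ≠ 2) (q : ℕ) [hq : Fact q.Prime]
    (h : q ≠ p) :
    ∃ (n : ℕ) (b : ℚ_[q]ˣ), psiQ p n q b ≠ 1 := by
  have hq0 : (q : ℚ_[q]) ≠ 0 := by exact_mod_cast hq.out.ne_zero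
  refine ⟨q ^ (p - 1), Units.mk0 (q : ℚ_[q]) hq0, ?_⟩
  rw [psiQ_of_ne p _ q h]
  intro h1
  have h2 : (ZMod.unitOfCoprime q (coprime_pow_of_ne p (q ^ (p - 1)) hq.out h)) ^
      (((p - 1 : ℕ) : ℤ) * ((Units.mk0 (q : ℚ_[q]) hq0 : ℚ_[q]ˣ) : ℚ_[q]).valuation) = 1 := h1
  rw [Units.val_mk0, Padic.valuation_p, mul_one, zpow_natCast] at h2
  have h3 := congrArg (fun u : (ZMod (p ^ (q ^ (p - 1) + 1)))ˣ =>
    (u : ZMod (p ^ (q ^ (p - 1) + 1)))) h2
  simp only [Units.val_pow_eq_pow_val, ZMod.coe_unitOfCoprime, Units.val_one] at h3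
  have h4 : ((q ^ (p - 1) : ℕ) : ZMod (p ^ (q ^ (p - 1) + 1))) = ((1 : ℕ) : ZMod _) := by
    rw [Nat.cast_pow, Nat.cast_one]
    exact h3
  rw [ZMod.natCast_eq_natCast_iff'] at h4
  have hlt : q ^ (p - 1) + 1 < p ^ (q ^ (p - 1) + 1) := Nat.lt_pow_self hp.out.one_lt
  have hp1 : 1 ≤ p - 1 := by
    have := hp.out.two_le
    omega
  have hq1 : 1 < q ^ (p - 1) := Nat.one_lt_pow (by omega) hq.out.one_lt
  rw [Nat.mod_eq_of_lt (by omega), Nat.mod_eq_of_lt (by omega)] at h4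
  omega

/-- `[1 + p]^p = 1` in `ℤ/p²`. -/
theorem psiNontriv_pow_p (p : ℕ) :
    (((p + 1 : ℕ) : ZMod (p ^ (1 + 1)))) ^ p = 1 := by
  have h := dvd_sub_pow_of_dvd_sub (R := ℤ) (p := p) (a := ((p + 1 : ℕ) : ℤ)) (b := 1)
    (by simp) 1
  rw [pow_one, one_pow] at h
  have h2 := (ZMod.intCast_zmod_eq_zero_iff_dvd _ (p ^ (1 + 1))).2
    (by exact_mod_cast h)
  push_cast at h2
  have h3 := sub_eq_zero.1 h2
  push_cast
  exact h3

/-- `[1 + p]^(p-1) ≠ 1` in `ℤ/p²`. -/
theorem psiNontriv_pow_ne (p : ℕ) [hp : Fact p.Prime] :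
    (((p + 1 : ℕ) : ZMod (p ^ (1 + 1)))) ^ (p - 1) ≠ 1 := by
  intro h
  have h0 := psiNontriv_pow_p p
  have h1 : (((p + 1 : ℕ) : ZMod (p ^ (1 + 1)))) ^ (p - 1) *
      ((p + 1 : ℕ) : ZMod (p ^ (1 + 1))) = 1 := by
    rw [← pow_succ, Nat.sub_add_cancel hp.out.one_le]
    exact h0
  rw [h, one_mul] at h1
  have h2 : ((p : ℕ) : ZMod (p ^ (1 + 1))) = 0 := by
    have h3 : ((p + 1 : ℕ) : ZMod (p ^ (1 + 1))) = ((p : ℕ) : ZMod (p ^ (1 + 1))) + 1 := by
      push_cast
      rfl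
    rw [h3] at h1
    simpa using h1
  rw [ZMod.natCast_eq_zero_iff] at h2
  have h4 := Nat.le_of_dvd hp.out.pos h2
  have h5 : p * 2 ≤ p * p := Nat.mul_le_mul_left p hp.out.two_le
  have h6 : p ^ (1 + 1) = p * p := by ring
  have := hp.out.pos
  omega

/-- `q = p`: `ψ_p(1 + p) ≠ 1` at level `n = 1`. -/
theorem psiNontriv_self (p : ℕ) [hp : Fact p.Prime] :
    ∃ (n : ℕ) (b : ℚ_[p]ˣ), psiQ p n p b ≠ 1 := by
  have hb0 : ((p + 1 : ℕ) : ℚ_[p]) ≠ 0 := by exact_mod_cast Nat.succ_ne_zero p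
  refine ⟨1, Units.mk0 ((p + 1 : ℕ) : ℚ_[p]) hb0, ?_⟩
  rw [psiQ_self, psiP_apply]
  intro h
  rw [inv_eq_one] at h
  have hval : (((p + 1 : ℕ) : ℚ_[p])).valuation = 0 := by
    rw [Padic.valuation_natCast]
    have hnd : ¬ p ∣ p + 1 := by
      intro hd
      have := (Nat.dvd_add_right (dvd_refl p)).1 hd
      exact hp.out.one_lt.ne' (Nat.dvd_one.1 this)
    exact_mod_cast padicValNat.eq_zero_of_not_dvd hnd
  have hu2 : ((padicUnitPart p (Units.mk0 ((p + 1 : ℕ) : ℚ_[p]) hb0) : ℤ_[p]ˣ) : ℤ_[p]) =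
      ((p + 1 : ℕ) : ℤ_[p]) := by
    apply Subtype.ext
    rw [coe_padicUnitPart, Units.val_mk0, hval, neg_zero, zpow_zero, mul_one]
    simp
  have h3 := congrArg (fun u : (ZMod (p ^ (1 + 1)))ˣ => (u : ZMod (p ^ (1 + 1)))) h
  simp only [Units.val_pow_eq_pow_val, Units.coe_map, Units.val_one] at h3
  apply psiNontriv_pow_ne p
  rw [← h3]
  congr 1
  show _ = (PadicInt.toZModPow (1 + 1)) _
  rw [hu2, map_natCast]

/-- **psiNontriv**. -/
theorem stmtPsiNontriv : StmtPsiNontriv := by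
  intro p _ hp2 q hq
  by_cases h : q = p
  · subst h
    exact psiNontriv_self q
  · exact psiNontriv_away p hp2 q h

end Fermat.Agent.PT.G3


end ZBPT_078_14
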