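/- GENERATED FILE (helper35, build-time optimisation, NOTES/ZB.md): verbatim concatenation of the modules
   Fermat.Agent.PT.G1.TensorHQ
   Fermat.Agent.PT.G3.PlanGBLocal
   Fermat.Agent.PT.G3.GBFinal
   Fermat.Agent.PT.G3.GBAsm
   Fermat.Agent.PT.G3.GBPsiPGen
   Fermat.Agent.PT.G3.GBCarryH
   Fermat.Agent.PT.G3.GBSemiCyc
   Fermat.Agent.PT.G3.GBSDProj
   Fermat.Agent.PT.G3.GBCycAbs
   Do not edit; do not import together with these modules. -/
import Fermat.Agent.ZB.PT_006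
import Fermat.Agent.ZB.PT_078
import Fermat.Agent.ZB.PT_022
import Fermat.Agent.ZB.PT_009

/-! ### bundled: `Fermat.Agent.PT.G1.TensorHQ` -/
section ZBPT_066_0

/-!
# PT-G1, piece J-tens: the Herbrand quotient of `(ℚ_q ⊗ L)ˣ`

`stmtTensorHQ_of : StmtOrbit → StmtLocalHQ → StmtTensorHQ`.

Part 1: transport of `HasHQc` along a linear equivalence.
Part 2: a reduced Artinian ring `A` with an automorphism `s`, `s ^ p = 1`: the units of `A` are the
product of the units of the residue fields, `s` permutes the factors (HQ-orbit).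
Part 3: `A = ℚ_q ⊗ L`.
-/

set_option autoImplicit false

namespace Fermat.Agent.PT.G1

/-! ## Part 1: transport -/

section transport

variable {M M' : Type*} [AddCommGroup M] [AddCommGroup M'] [Module ℤ M] [Module ℤ M']

theorem tens_comp_pow (e : M →ₗ[ℤ] M') (σ : Module.End ℤ M) (σ' : Module.End ℤ M')
    (h : e ∘ₗ σ = σ' ∘ₗ e) (k : ℕ) : e ∘ₗ (σ ^ k) = (σ' ^ k) ∘ₗ e := by
  induction k with
  | zero => rfl
  | succ k ih =>
    rw [pow_succ, pow_succ]
    ext x
    have h1 : e (σ x) = σ' (e x) := LinearMap.congr_fun h x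
    have h2 : e ((σ ^ k) (σ x)) = (σ' ^ k) (e (σ x)) := LinearMap.congr_fun ih (σ x)
    change e ((σ ^ k) (σ x)) = (σ' ^ k) (σ' (e x))
    rw [h2, h1]

theorem tens_comp_nEnd (e : M →ₗ[ℤ] M') (σ : Module.End ℤ M) (σ' : Module.End ℤ M')
    (h : e ∘ₗ σ = σ' ∘ₗ e) (n : ℕ) : e ∘ₗ (nEnd σ n) = (nEnd σ' n) ∘ₗ e := by
  unfold nEnd
  ext x
  simp only [LinearMap.comp_apply, LinearMap.sum_apply, map_sum]
  refine Finset.sum_congr rfl fun i _ => ?_
  exact LinearMap.congr_fun (tens_comp_pow e σ σ' h i) x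

theorem tens_comp_sub_one (e : M →ₗ[ℤ] M') (σ : Module.End ℤ M) (σ' : Module.End ℤ M')
    (h : e ∘ₗ σ = σ' ∘ₗ e) : e ∘ₗ (σ - 1) = (σ' - 1) ∘ₗ e := by
  ext x
  have h1 : e (σ x) = σ' (e x) := LinearMap.congr_fun h x
  simp only [LinearMap.comp_apply, LinearMap.sub_apply, Module.End.one_apply, map_sub, h1]

/-- transport of the Herbrand quotient along an isomorphism -/
theorem tens_hasHQc_congr (e : M ≃ₗ[ℤ] M') (σ : Module.End ℤ M) (σ' : Module.End ℤ M')
    (h : e.toLinearMap ∘ₗ σ = σ' ∘ₗ e.toLinearMap) (n : ℕ) (q : ℚ) (H : HasHQc σ' n q) :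
    HasHQc σ n q := by
  obtain ⟨H1, H2, H3, H4⟩ := H
  have hD := tens_comp_sub_one e.toLinearMap σ σ' h
  have hN := tens_comp_nEnd e.toLinearMap σ σ' h n
  have c1 : hqCard (σ - 1) (nEnd σ n) = hqCard (σ' - 1) (nEnd σ' n) :=
    fin_card_quot_congr (σ - 1) (nEnd σ n) (σ' - 1) (nEnd σ' n) e hD hN
  have c2 : hqCard (nEnd σ n) (σ - 1) = hqCard (nEnd σ' n) (σ' - 1) :=
    fin_card_quot_congr (nEnd σ n) (σ - 1) (nEnd σ' n) (σ' - 1) e hN hD
  refine ⟨?_, ?_, ?_, ?_⟩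
  · ext x
    apply e.injective
    have := LinearMap.congr_fun (tens_comp_pow e.toLinearMap σ σ' h n) x
    simp only [LinearMap.comp_apply, LinearEquiv.coe_coe] at this
    rw [this, H1]
    rfl
  · rw [c1]; exact H2
  · rw [c2]; exact H3
  · rw [c1, c2]; exact H4

end transport

/-! ## Part 2: reduced Artinian rings -/

theorem tens_unitsEnd_apply {R : Type*} [CommMonoid R] (s : R →* R) (u : Rˣ) :
    unitsEnd s (Additive.ofMul u) = Additive.ofMul (Units.map s u) := rfl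

section artinian

variable (A : Type) [CommRing A] [IsArtinianRing A] [IsReduced A]

/-- the units of a reduced Artinian ring are the product of the units of its residue fields -/
noncomputable def tensUnitsEquiv : Aˣ ≃* (∀ t : MaximalSpectrum A, (A ⧸ t.asIdeal)ˣ) :=
  (Units.mapEquiv (IsArtinianRing.equivPi A).toRingEquiv.toMulEquiv).trans MulEquiv.piUnits

theorem tensUnitsEquiv_apply (u : Aˣ) (t : MaximalSpectrum A) :
    ((tensUnitsEquiv A u t : (A ⧸ t.asIdeal)ˣ) : A ⧸ t.asIdeal) =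
      Ideal.Quotient.mk t.asIdeal (u : A) := by
  simp [tensUnitsEquiv, IsArtinianRing.equivPi_apply]

/-- additive version -/
noncomputable def tensAddEquiv :
    Additive Aˣ ≃+ (∀ t : MaximalSpectrum A, Additive (A ⧸ t.asIdeal)ˣ) where
  toFun x t := Additive.ofMul (tensUnitsEquiv A (Additive.toMul x) t)
  invFun y := Additive.ofMul ((tensUnitsEquiv A).symm fun t => Additive.toMul (y t))
  left_inv x := by
    apply Additive.toMul.injective
    simp
  right_inv y := by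
    funext t
    simp
  map_add' x y := by
    funext t
    simp [map_mul]

theorem tensAddEquiv_apply (u : Aˣ) (t : MaximalSpectrum A) :
    ((Additive.toMul (tensAddEquiv A (Additive.ofMul u) t) : (A ⧸ t.asIdeal)ˣ) : A ⧸ t.asIdeal) =
      Ideal.Quotient.mk t.asIdeal (u : A) :=
  tensUnitsEquiv_apply A u t

/-- linear version -/
noncomputable def tensLin :
    Additive Aˣ ≃ₗ[ℤ] (∀ t : MaximalSpectrum A, Additive (A ⧸ t.asIdeal)ˣ) :=
  (tensAddEquiv A).toIntLinearEquiv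

theorem tensLin_apply (u : Aˣ) (t : MaximalSpectrum A) :
    ((Additive.toMul (tensLin A (Additive.ofMul u) t) : (A ⧸ t.asIdeal)ˣ) : A ⧸ t.asIdeal) =
      Ideal.Quotient.mk t.asIdeal (u : A) :=
  tensUnitsEquiv_apply A u t

/-- the conjugate of `unitsEnd s` on the product -/
noncomputable def tensConj (s : A →* A) :
    Module.End ℤ (∀ t : MaximalSpectrum A, Additive (A ⧸ t.asIdeal)ˣ) :=
  (tensLin A).toLinearMap ∘ₗ unitsEnd s ∘ₗ (tensLin A).symm.toLinearMap

theorem tensLin_comp (s : A →* A) :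
    (tensLin A).toLinearMap ∘ₗ unitsEnd s = tensConj A s ∘ₗ (tensLin A).toLinearMap := by
  ext x
  simp [tensConj]

theorem tensConj_apply (s : A →* A) (u : Aˣ) (t : MaximalSpectrum A) :
    ((Additive.toMul (tensConj A s (tensLin A (Additive.ofMul u)) t) : (A ⧸ t.asIdeal)ˣ) :
      A ⧸ t.asIdeal) = Ideal.Quotient.mk t.asIdeal (s (u : A)) := by
  have h : tensConj A s (tensLin A (Additive.ofMul u)) =
      tensLin A (Additive.ofMul (Units.map s u)) := by
    simp [tensConj, tens_unitsEnd_apply]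
  rw [h, tensLin_apply]
  rfl

end artinian


section perm

variable (A : Type) [CommRing A]

/-- the action of a ring automorphism on the maximal spectrum: `t ↦ s(t)` -/
noncomputable def tensPerm (s : A ≃+* A) : Equiv.Perm (MaximalSpectrum A) where
  toFun t := ⟨Ideal.comap s.symm t.asIdeal,
    haveI := t.isMaximal
    Ideal.comap_isMaximal_of_equiv s.symm⟩
  invFun t := ⟨Ideal.comap s t.asIdeal,
    haveI := t.isMaximal
    Ideal.comap_isMaximal_of_equiv s⟩
  left_inv t := by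
    apply MaximalSpectrum.ext
    ext x
    change s.symm (s x) ∈ t.asIdeal ↔ x ∈ t.asIdeal
    rw [RingEquiv.symm_apply_apply]
  right_inv t := by
    apply MaximalSpectrum.ext
    ext x
    change s (s.symm x) ∈ t.asIdeal ↔ x ∈ t.asIdeal
    rw [RingEquiv.apply_symm_apply]

theorem tens_mem_tensPerm (s : A ≃+* A) (t : MaximalSpectrum A) (x : A) :
    x ∈ (tensPerm A s t).asIdeal ↔ s.symm x ∈ t.asIdeal := Iff.rfl

theorem tens_apply_mem_tensPerm (s : A ≃+* A) (t : MaximalSpectrum A) {x : A} (hx : x ∈ t.asIdeal) :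
    s x ∈ (tensPerm A s t).asIdeal := by
  rw [tens_mem_tensPerm, RingEquiv.symm_apply_apply]
  exact hx

theorem tensPerm_eq_self_iff (s : A ≃+* A) (t : MaximalSpectrum A) :
    tensPerm A s t = t ↔ ∀ x ∈ t.asIdeal, s x ∈ t.asIdeal := by
  constructor
  · intro h x hx
    have := tens_apply_mem_tensPerm A s t hx
    rwa [h] at this
  · intro h
    apply MaximalSpectrum.ext
    have hle : (tensPerm A s t).asIdeal ≤ t.asIdeal := by
      intro x hx
      rw [tens_mem_tensPerm] at hx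
      have := h _ hx
      rwa [RingEquiv.apply_symm_apply] at this
    exact (tensPerm A s t).isMaximal.eq_of_le t.isMaximal.ne_top hle

theorem tens_mem_tensPerm_pow (s : A ≃+* A) (k : ℕ) (t : MaximalSpectrum A) (x : A) :
    x ∈ ((tensPerm A s ^ k) t).asIdeal ↔ (⇑s.symm)^[k] x ∈ t.asIdeal := by
  induction k generalizing x with
  | zero => rfl
  | succ k ih =>
    rw [pow_succ', Equiv.Perm.mul_apply, tens_mem_tensPerm, ih, Function.iterate_succ_apply]

theorem tensPerm_pow_eq_one (s : A ≃+* A) (p : ℕ) (hs : ∀ a, (⇑s)^[p] a = a) :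
    tensPerm A s ^ p = 1 := by
  apply Equiv.ext
  intro t
  apply MaximalSpectrum.ext
  ext x
  rw [tens_mem_tensPerm_pow]
  have h1 : (⇑s.symm)^[p] x = x := by
    have h2 : (⇑s.symm)^[p] ((⇑s)^[p] x) = x :=
      Function.LeftInverse.iterate s.symm_apply_apply p x
    rwa [hs x] at h2
  rw [h1]
  rfl

end perm

section main

variable (A : Type) [CommRing A] [IsArtinianRing A] [IsReduced A]

omit [IsArtinianRing A] [IsReduced A] in
theorem tens_unitsEnd_pow_apply (s : A →* A) (k : ℕ) (u : Aˣ) :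
    ((Additive.toMul ((unitsEnd s ^ k) (Additive.ofMul u)) : Aˣ) : A) = (⇑s)^[k] (u : A) := by
  induction k generalizing u with
  | zero => rfl
  | succ k ih =>
    rw [pow_succ, Module.End.mul_apply, tens_unitsEnd_apply, ih, Function.iterate_succ_apply]
    rfl

omit [IsArtinianRing A] [IsReduced A] in
theorem tens_unitsEnd_pow_eq_one (s : A →* A) (p : ℕ) (hs : ∀ a, (⇑s)^[p] a = a) :
    unitsEnd s ^ p = 1 := by
  refine LinearMap.ext fun x => ?_
  apply Additive.toMul.injective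
  apply Units.ext
  have := tens_unitsEnd_pow_apply A s p (Additive.toMul x)
  rw [hs] at this
  exact this

theorem tensConj_pow_eq_one (s : A →* A) (p : ℕ) (hs : ∀ a, (⇑s)^[p] a = a) :
    tensConj A s ^ p = 1 := by
  have h := tens_comp_pow (tensLin A).toLinearMap (unitsEnd s) (tensConj A s) (tensLin_comp A s) p
  rw [tens_unitsEnd_pow_eq_one A s p hs] at h
  refine LinearMap.ext fun x => ?_
  obtain ⟨y, rfl⟩ := (tensLin A).surjective x
  have := LinearMap.congr_fun h y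
  simp only [LinearMap.comp_apply, LinearEquiv.coe_coe, Module.End.one_apply] at this
  rw [← this]
  rfl

/-- the value at `t` of an element of the product, as a class of a unit of `A` -/
theorem tens_exists_unit (x : ∀ t : MaximalSpectrum A, Additive (A ⧸ t.asIdeal)ˣ) :
    ∃ u : Aˣ, x = tensLin A (Additive.ofMul u) :=
  ⟨Additive.toMul ((tensLin A).symm x), ((tensLin A).apply_symm_apply x).symm⟩

/-- **abstract J-tens**: Herbrand quotient of the units of a reduced Artinian ring under an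
automorphism of order dividing `p`, from HQ-orbit and the Herbrand quotients of the residue
fields at the stable maximal ideals. -/
theorem tens_hasHQc_of_orbit (hO : StmtOrbit) (p : ℕ) [Fact p.Prime] (s : A ≃+* A)
    (hs : ∀ a, (⇑s)^[p] a = a) (c : ℚ)
    (τ : ∀ t : MaximalSpectrum A, (A ⧸ t.asIdeal) →* (A ⧸ t.asIdeal))
    (hτ : ∀ t : MaximalSpectrum A, (∀ x ∈ t.asIdeal, s x ∈ t.asIdeal) →
      ∀ a : A, τ t (Ideal.Quotient.mk t.asIdeal a) = Ideal.Quotient.mk t.asIdeal (s a))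
    (hc : ∀ t : MaximalSpectrum A, (∀ x ∈ t.asIdeal, s x ∈ t.asIdeal) →
      HasHQc (unitsEnd (τ t)) p c) :
    HasHQc (unitsEnd ((s : A →+* A) : A →* A)) p
      (c ^ {t : MaximalSpectrum A | ∀ x ∈ t.asIdeal, s x ∈ t.asIdeal}.ncard) := by
  classical
  haveI : Fintype (MaximalSpectrum A) := Fintype.ofFinite _
  set s' : A →* A := ((s : A →+* A) : A →* A) with hs'
  have hs'' : ∀ a, (⇑s')^[p] a = a := hs
  apply tens_hasHQc_congr (tensLin A) _ (tensConj A s') (tensLin_comp A s') p _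
  have key := hO p (MaximalSpectrum A) (fun t => Additive (A ⧸ t.asIdeal)ˣ) (tensPerm A s)
    (tensConj A s') (fun t => unitsEnd (τ t)) (fun _ => c)
    (tensPerm_pow_eq_one A s p hs) (tensConj_pow_eq_one A s' p hs'') ?_ ?_ ?_
  · have hcard : (Finset.univ.filter fun t : MaximalSpectrum A => tensPerm A s t = t).card =
        {t : MaximalSpectrum A | ∀ x ∈ t.asIdeal, s x ∈ t.asIdeal}.ncard := by
      rw [Set.ncard_eq_toFinset_card']
      congr 1
      ext t
      simp only [Finset.mem_filter, Finset.mem_univ, true_and, Set.mem_toFinset, Set.mem_ofPred_eq]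
      exact tensPerm_eq_self_iff A s t
    rw [Finset.prod_const, hcard] at key
    exact key
  · intro t x hx
    obtain ⟨u, rfl⟩ := tens_exists_unit A x
    apply Additive.toMul.injective
    apply Units.ext
    rw [tensConj_apply]
    have h1 : Ideal.Quotient.mk t.asIdeal (u : A) = 1 := by
      rw [← tensLin_apply A u t, hx]
      rfl
    have h2 : (u : A) - 1 ∈ t.asIdeal := by
      rw [← Ideal.Quotient.eq_zero_iff_mem, map_sub, h1, map_one, sub_self]
    have h3 := tens_apply_mem_tensPerm A s t h2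
    rw [map_sub, map_one, ← Ideal.Quotient.eq_zero_iff_mem, map_sub, map_one, sub_eq_zero] at h3
    exact h3
  · intro t ht x
    obtain ⟨u, rfl⟩ := tens_exists_unit A x
    apply Additive.toMul.injective
    apply Units.ext
    rw [tensConj_apply]
    have hst := (tensPerm_eq_self_iff A s t).1 ht
    have h1 : ((Additive.toMul (unitsEnd (τ t) (tensLin A (Additive.ofMul u) t)) :
        (A ⧸ t.asIdeal)ˣ) : A ⧸ t.asIdeal) =
        τ t ((Additive.toMul (tensLin A (Additive.ofMul u) t) : (A ⧸ t.asIdeal)ˣ) :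
          A ⧸ t.asIdeal) := rfl
    rw [h1, tensLin_apply, hτ t hst]
    rfl
  · intro t ht
    exact hc t ((tensPerm_eq_self_iff A s t).1 ht)

end main

/-! ## Part 3: `A = ℚ_q ⊗ L` -/

section semi

open TensorProduct NumberField

variable (q : ℕ) [Fact q.Prime] {L : Type} [Field L] [NumberField L]

theorem tens_semiAlg_isReduced (L : Type) [Field L] [NumberField L] : IsReduced (semiAlg q L) := by
  have _i : Algebra.FormallyUnramified ℚ L := Algebra.FormallyUnramified.of_isSeparable ℚ L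
  exact Algebra.FormallyUnramified.isReduced_of_field ℚ_[q] (semiAlg q L)

theorem tens_semiAlg_isArtinian (L : Type) [Field L] [NumberField L] :
    IsArtinianRing (semiAlg q L) :=
  IsArtinianRing.of_finite ℚ_[q] (semiAlg q L)

/-- `semiMap` as an algebra automorphism -/
noncomputable def tens_semiEquiv (σ : L ≃ₐ[ℚ] L) : semiAlg q L ≃ₐ[ℚ_[q]] semiAlg q L :=
  Algebra.TensorProduct.congr AlgEquiv.refl σ

theorem tens_semiEquiv_apply (σ : L ≃ₐ[ℚ] L) (z : semiAlg q L) :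
    tens_semiEquiv q σ z = semiMap q σ z := rfl

theorem tens_semiMap_tmul (σ : L ≃ₐ[ℚ] L) (a : ℚ_[q]) (x : L) :
    semiMap q σ (a ⊗ₜ[ℚ] x) = a ⊗ₜ[ℚ] σ x := rfl

theorem tens_semiMap_mul (σ τ : L ≃ₐ[ℚ] L) (z : semiAlg q L) :
    semiMap q (σ * τ) z = semiMap q σ (semiMap q τ z) := by
  induction z using TensorProduct.induction_on with
  | zero => simp
  | tmul a x => rfl
  | add x y hx hy => rw [map_add, map_add, map_add, hx, hy]

theorem tens_semiMap_one (z : semiAlg q L) : semiMap q (1 : L ≃ₐ[ℚ] L) z = z := by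
  induction z using TensorProduct.induction_on with
  | zero => simp
  | tmul a x => rfl
  | add x y hx hy => rw [map_add, hx, hy]

theorem tens_semiMap_iterate (σ : L ≃ₐ[ℚ] L) (k : ℕ) (z : semiAlg q L) :
    (⇑(semiMap q σ))^[k] z = semiMap q (σ ^ k) z := by
  induction k generalizing z with
  | zero => rw [Function.iterate_zero, id, pow_zero, tens_semiMap_one]
  | succ k ih => rw [Function.iterate_succ_apply, ih, pow_succ, tens_semiMap_mul]

theorem tens_semiMap_iterate_eq (σ : L ≃ₐ[ℚ] L) (p : ℕ) (hσ : σ ^ p = 1) (z : semiAlg q L) :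
    (⇑(semiMap q σ))^[p] z = z := by
  rw [tens_semiMap_iterate, hσ, tens_semiMap_one]

end semi

section final

open TensorProduct NumberField

variable (q : ℕ) [Fact q.Prime] {L : Type} [Field L] [NumberField L]

theorem tens_semi_map_eq (σ : L ≃ₐ[ℚ] L) (t : MaximalSpectrum (semiAlg q L))
    (h : ∀ x ∈ t.asIdeal, semiMap q σ x ∈ t.asIdeal) :
    t.asIdeal = Ideal.map (tens_semiEquiv q σ : semiAlg q L →+* semiAlg q L) t.asIdeal := by
  have hle : Ideal.map (tens_semiEquiv q σ : semiAlg q L →+* semiAlg q L) t.asIdeal ≤ t.asIdeal := by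
    rw [Ideal.map_le_iff_le_comap]
    intro x hx
    exact h x hx
  haveI := t.isMaximal
  have hmax : (Ideal.map (tens_semiEquiv q σ : semiAlg q L →+* semiAlg q L) t.asIdeal).IsMaximal :=
    Ideal.map_isMaximal_of_equiv (tens_semiEquiv q σ)
  exact (hmax.eq_of_le t.isMaximal.ne_top hle).symm

/-- the residue automorphism at a stable maximal ideal -/
noncomputable def tens_semiResEquiv (σ : L ≃ₐ[ℚ] L) (t : MaximalSpectrum (semiAlg q L))
    (h : ∀ x ∈ t.asIdeal, semiMap q σ x ∈ t.asIdeal) :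
    (semiAlg q L ⧸ t.asIdeal) ≃ₐ[ℚ_[q]] (semiAlg q L ⧸ t.asIdeal) :=
  Ideal.quotientEquivAlg t.asIdeal t.asIdeal (tens_semiEquiv q σ) (tens_semi_map_eq q σ t h)

theorem tens_semiResEquiv_mk (σ : L ≃ₐ[ℚ] L) (t : MaximalSpectrum (semiAlg q L))
    (h : ∀ x ∈ t.asIdeal, semiMap q σ x ∈ t.asIdeal) (a : semiAlg q L) :
    tens_semiResEquiv q σ t h (Ideal.Quotient.mk t.asIdeal a) =
      Ideal.Quotient.mk t.asIdeal (semiMap q σ a) :=
  Ideal.quotientEquivAlg_mk _ _ _ a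

theorem tens_semiResEquiv_pow_mk (σ : L ≃ₐ[ℚ] L) (t : MaximalSpectrum (semiAlg q L))
    (h : ∀ x ∈ t.asIdeal, semiMap q σ x ∈ t.asIdeal) (k : ℕ) (a : semiAlg q L) :
    (tens_semiResEquiv q σ t h ^ k) (Ideal.Quotient.mk t.asIdeal a) =
      Ideal.Quotient.mk t.asIdeal ((⇑(semiMap q σ))^[k] a) := by
  induction k generalizing a with
  | zero => rfl
  | succ k ih =>
    rw [pow_succ, AlgEquiv.mul_apply, tens_semiResEquiv_mk, ih, Function.iterate_succ_apply]

theorem tens_semiResEquiv_orderOf (p : ℕ) [Fact p.Prime] (σ : L ≃ₐ[ℚ] L) (hσ : orderOf σ = p)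
    (t : MaximalSpectrum (semiAlg q L))
    (h : ∀ x ∈ t.asIdeal, semiMap q σ x ∈ t.asIdeal) :
    orderOf (tens_semiResEquiv q σ t h) = p := by
  have hp : σ ^ p = 1 := hσ ▸ pow_orderOf_eq_one σ
  apply orderOf_eq_prime
  · apply AlgEquiv.ext
    intro y
    obtain ⟨a, rfl⟩ := Ideal.Quotient.mk_surjective y
    rw [tens_semiResEquiv_pow_mk, tens_semiMap_iterate_eq q σ p hp]
    rfl
  · intro h1
    have hne : σ ≠ 1 := by
      intro h2
      rw [h2, orderOf_one] at hσ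
      exact (Fact.out : p.Prime).one_lt.ne hσ
    apply hne
    apply AlgEquiv.ext
    intro x
    haveI := t.isMaximal
    let ι : L →+* (semiAlg q L ⧸ t.asIdeal) :=
      (Ideal.Quotient.mk t.asIdeal).comp
        (Algebra.TensorProduct.includeRight : L →ₐ[ℚ] semiAlg q L).toRingHom
    have hι : Function.Injective ι := ι.injective
    apply hι
    have h3 := congrArg (fun f : (semiAlg q L ⧸ t.asIdeal) ≃ₐ[ℚ_[q]] (semiAlg q L ⧸ t.asIdeal) =>
      f (Ideal.Quotient.mk t.asIdeal ((1 : ℚ_[q]) ⊗ₜ[ℚ] x))) h1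
    simp only [tens_semiResEquiv_mk, tens_semiMap_tmul, AlgEquiv.one_apply] at h3
    exact h3

end final

section assembly

open TensorProduct NumberField

/-- **J-tens**: the Herbrand quotient of `(ℚ_q ⊗ L)ˣ` under `σ` of prime order `p` is `p ^ f`,
`f` the number of `σ`-stable maximal ideals. -/
theorem stmtTensorHQ_of (hO : StmtOrbit) (hL : StmtLocalHQ) : StmtTensorHQ := by
  intro q _ p _ L _ _ σ hσ
  classical
  haveI := tens_semiAlg_isReduced q L
  haveI := tens_semiAlg_isArtinian q L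
  have hp : σ ^ p = 1 := hσ ▸ pow_orderOf_eq_one σ
  let τ : ∀ t : MaximalSpectrum (semiAlg q L),
      (semiAlg q L ⧸ t.asIdeal) →* (semiAlg q L ⧸ t.asIdeal) := fun t =>
    if h : ∀ x ∈ t.asIdeal, semiMap q σ x ∈ t.asIdeal then
      ((tens_semiResEquiv q σ t h : (semiAlg q L ⧸ t.asIdeal) ≃ₐ[ℚ_[q]] (semiAlg q L ⧸ t.asIdeal)) :
        (semiAlg q L ⧸ t.asIdeal) →* (semiAlg q L ⧸ t.asIdeal))
    else 1
  have key := tens_hasHQc_of_orbit (semiAlg q L) hO p (tens_semiEquiv q σ).toRingEquiv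
    (tens_semiMap_iterate_eq q σ p hp) (p : ℚ) τ ?_ ?_
  · have hset : (fixedMax q σ).ncard =
        {t : MaximalSpectrum (semiAlg q L) |
          ∀ x ∈ t.asIdeal, (tens_semiEquiv q σ).toRingEquiv x ∈ t.asIdeal}.ncard := by
      rw [← Set.ncard_image_of_injective _
        (f := fun t : MaximalSpectrum (semiAlg q L) => t.asIdeal)
        (fun a b hab => MaximalSpectrum.ext hab)]
      congr 1
      ext 𝔪
      constructor
      · rintro ⟨hmax, hst⟩
        exact ⟨⟨𝔪, hmax⟩, hst, rfl⟩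
      · rintro ⟨t, ht, rfl⟩
        exact ⟨t.isMaximal, ht⟩
    rw [hset]
    exact key
  · intro t ht a
    have : τ t = ((tens_semiResEquiv q σ t ht :
        (semiAlg q L ⧸ t.asIdeal) ≃ₐ[ℚ_[q]] (semiAlg q L ⧸ t.asIdeal)) :
        (semiAlg q L ⧸ t.asIdeal) →* (semiAlg q L ⧸ t.asIdeal)) := dif_pos ht
    rw [this]
    exact tens_semiResEquiv_mk q σ t ht a
  · intro t ht
    have : τ t = ((tens_semiResEquiv q σ t ht :
        (semiAlg q L ⧸ t.asIdeal) ≃ₐ[ℚ_[q]] (semiAlg q L ⧸ t.asIdeal)) :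
        (semiAlg q L ⧸ t.asIdeal) →* (semiAlg q L ⧸ t.asIdeal)) := dif_pos ht
    rw [this]
    haveI := t.isMaximal
    letI : Field (semiAlg q L ⧸ t.asIdeal) := Ideal.Quotient.field t.asIdeal
    exact hL q p (semiAlg q L ⧸ t.asIdeal) (tens_semiResEquiv q σ t ht)
      (tens_semiResEquiv_orderOf q p σ hσ t ht)

end assembly

end Fermat.Agent.PT.G1


end ZBPT_066_0

/-! ### bundled: `Fermat.Agent.PT.G3.PlanGBLocal` -/
section ZBPT_066_1
/-
PT-G3 — INTERFACE FILE for (GB) = `Fermat.Agent.PT.B.StmtGB`, LOCAL part and assembly shape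
(sub-captain helper47; mathematics: board note "PT-G3 (GB): no local norm computation needed").

Every `Stmt…` below is a `Prop`; the piece `X` is DONE when `theorem stmtX : StmtX` (or
`stmtX_of : deps → StmtX`) is landed, sorry-free, in its own file `Fermat/Agent/PT/G3/<File>.lean`.

This file complements G3/PlanGB.lean (helper55) by
 * the sub-plan for `StmtSemiCycOne` (semilocal decomposition, Shapiro, PT-L `fundClass`);
 * a replacement of step 5 of PlanGB.lean (local norm groups `StmtLocNormCyc`,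
   `StmtNormTransfer`) by the much cheaper (K) below; the modified assembly is `StmtGBAsm'`.

ROUTE.  `N = L·ℚ_n` (`CycData p n S L`), `Γ = Aut N`, `θ : Γ ↠ ℤ/h`, `h = p^n`.
For `b ∈ ℚ_qˣ` let `c_b = [cmpCarry h θ (gbConst b)] ∈ H²(Γ, (ℚ_q ⊗ N)ˣ)`.
 (A)  the `p`-primary part of `H²(Γ, (ℚ_q ⊗ N)ˣ)` is cyclic        (`StmtSemiCyc`, `StmtSemiCycOne`)
 (CP) `cmpCarry h θ (csMap c₀) ∼ 0` in `C_S(N)` ⇒ `Ψ_ℚ(c₀) = 0`      (`StmtGBPsi` of PlanGB.lean)
 (K)  ONE `b₁ ∈ ℚ_qˣ` with `ψ_q(b₁) ≠ 1` and `f • c_{b₁} = 0`, `f = orderOf ψ_q(b₁)`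
      (`q = p`: `f = h`, `StmtCarryH`;  `q ≠ p`: `b₁ = q`, `StmtSemiCarryKill` + `CycData.HasDec`)
 ⇒ if `[x] = i • c_{b₁}` dies in `C_S(N)` then `ψ_q(b₁)^i = 1`, `f ∣ i`, `[x] = 0`.
-/

set_option autoImplicit false
set_option linter.unusedSectionVars false

namespace Fermat.Agent.PT.G3

open CategoryTheory groupCohomology NumberField IsDedekindDomain
open Fermat.Agent.PT Fermat.Agent.PT.G Fermat.Agent.PT.G1

/-! ### Cyclicity of the `p`-primary part of `H²` -/

/-- The `p`-primary part of `H²(G, C)` is cyclic, in the form: two `p`-primary classes are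
comparable. -/
def PCyclicH2 (p : ℕ) {G : Type} [Group G] (C : Rep.{0} ℤ G) : Prop :=
  ∀ x y : H2 C, IsPTors p x → IsPTors p y → (∃ n : ℤ, n • x = y) ∨ (∃ n : ℤ, n • y = x)

/-- **gb-cycabs**: if `C` has a `p`-fundamental class `u`, then every `p`-primary class of
`H²(G, C)` is a multiple of `u` (`res_P x = n res_P u` for a Sylow subgroup `P`, `cor ∘ res = [G:P]`
prime to `p`), hence the `p`-primary part is cyclic (multiples of one element of a finite group
which have `p`-power order are comparable). -/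
def StmtPCyclicOfFund : Prop :=
  ∀ (p : ℕ) [Fact p.Prime] (G : Type) [Group G] [Finite G] (C : Rep.{0} ℤ G) (u : H2 C),
    IsPFundClass p C u → PCyclicH2 p C

/-! ### The semilocal decomposition: definitions -/

section SD

variable (q : ℕ) [Fact q.Prime] (N : Type) [Field N] [NumberField N]
  (t : MaximalSpectrum (semiAlg q N))

/-- The decomposition group of the maximal ideal `t` of `ℚ_q ⊗ N`. -/
def sdStab : Subgroup (N ≃ₐ[ℚ] N) where
  carrier := {σ | ∀ x ∈ t.asIdeal, semiMap q σ x ∈ t.asIdeal}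
  mul_mem' := by
    intro σ τ hσ hτ x hx
    rw [tens_semiMap_mul]
    exact hσ _ (hτ x hx)
  one_mem' := by
    intro x hx
    rw [tens_semiMap_one]
    exact hx
  inv_mem' := by
    intro σ hσ x hx
    have h1 := tens_semi_map_eq q σ t hσ
    rw [h1] at hx
    obtain ⟨y, hy, rfl⟩ := (Ideal.mem_map_iff_of_surjective
      (tens_semiEquiv q σ : semiAlg q N →+* semiAlg q N) (tens_semiEquiv q σ).surjective).1 hx
    have h2 : semiMap q σ⁻¹ (semiMap q σ y) = y := by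
      rw [← tens_semiMap_mul, inv_mul_cancel, tens_semiMap_one]
    show semiMap q σ⁻¹ (semiMap q σ y) ∈ t.asIdeal
    rw [h2]
    exact hy

lemma mem_sdStab (σ : N ≃ₐ[ℚ] N) :
    σ ∈ sdStab q N t ↔ ∀ x ∈ t.asIdeal, semiMap q σ x ∈ t.asIdeal := Iff.rfl

/-- The residue field `(ℚ_q ⊗ N) / t` (a finite extension of `ℚ_q`: the completion `N_w`). -/
abbrev sdField : Type := semiAlg q N ⧸ t.asIdeal

noncomputable instance sdFieldField : Field (sdField q N t) :=
  @Ideal.Quotient.field _ _ t.asIdeal t.isMaximal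

lemma sdStab_prop (σ : ↥(sdStab q N t)) :
    ∀ x ∈ t.asIdeal, semiMap q (σ : N ≃ₐ[ℚ] N) x ∈ t.asIdeal :=
  (mem_sdStab q N t _).1 σ.2

/-- The action of the decomposition group on the residue field. -/
noncomputable def sdRes : ↥(sdStab q N t) →* (sdField q N t ≃ₐ[ℚ_[q]] sdField q N t) where
  toFun σ := tens_semiResEquiv q (σ : N ≃ₐ[ℚ] N) t (sdStab_prop q N t σ)
  map_one' := by
    apply AlgEquiv.ext
    intro y
    obtain ⟨a, rfl⟩ := Ideal.Quotient.mk_surjective y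
    rw [tens_semiResEquiv_mk]
    show Ideal.Quotient.mk t.asIdeal (semiMap q (1 : N ≃ₐ[ℚ] N) a) = _
    rw [tens_semiMap_one]
    rfl
  map_mul' := by
    intro σ τ
    apply AlgEquiv.ext
    intro y
    obtain ⟨a, rfl⟩ := Ideal.Quotient.mk_surjective y
    rw [AlgEquiv.mul_apply, tens_semiResEquiv_mk, tens_semiResEquiv_mk, tens_semiResEquiv_mk]
    show Ideal.Quotient.mk t.asIdeal (semiMap q ((σ : N ≃ₐ[ℚ] N) * (τ : N ≃ₐ[ℚ] N)) a) = _
    rw [tens_semiMap_mul]

lemma sdRes_mk (σ : ↥(sdStab q N t)) (a : semiAlg q N) :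
    sdRes q N t σ (Ideal.Quotient.mk t.asIdeal a) =
      Ideal.Quotient.mk t.asIdeal (semiMap q (σ : N ≃ₐ[ℚ] N) a) :=
  tens_semiResEquiv_mk q _ t (sdStab_prop q N t σ) a

/-- The local module: the units of the residue field, with the action of the decomposition
group. -/
noncomputable def sdY : Rep.{0} ℤ ↥(sdStab q N t) :=
  Rep.res (sdRes q N t) (Rep.ofAlgebraAutOnUnits ℚ_[q] (sdField q N t))

/-- The projection `(ℚ_q ⊗ N)ˣ → ((ℚ_q ⊗ N)/t)ˣ`, additively. -/
noncomputable def sdProjLin : Additive (semiAlg q N)ˣ →ₗ[ℤ] Additive (sdField q N t)ˣ :=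
  (MonoidHom.toAdditive
    (Units.map ((Ideal.Quotient.mk t.asIdeal : semiAlg q N →+* sdField q N t) :
      semiAlg q N →* sdField q N t))).toIntLinearMap

lemma sdProjLin_apply (u : (semiAlg q N)ˣ) :
    ((Additive.toMul (sdProjLin q N t (Additive.ofMul u)) : (sdField q N t)ˣ) : sdField q N t) =
      Ideal.Quotient.mk t.asIdeal (u : semiAlg q N) := rfl

end SD

/-! ### The semilocal decomposition: statements -/

/-- **gb-sdproj**: the projection `(ℚ_q ⊗ N)ˣ → ((ℚ_q ⊗ N)/t)ˣ` is equivariant for the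
decomposition group: it is a morphism `Res (semiRep q N) ⟶ sdY` of `Rep ℤ (sdStab q N t)`
whose underlying map is `sdProjLin`. -/
def StmtSDProj : Prop :=
  ∀ (q : ℕ) [Fact q.Prime] (N : Type) [Field N] [NumberField N]
    (t : MaximalSpectrum (semiAlg q N)),
    ∃ π : Rep.res (sdStab q N t).subtype (semiRep q N) ⟶ sdY q N t,
      ∀ x : Additive (semiAlg q N)ˣ, π.hom x = sdProjLin q N t x

/-- **gb-sdshapiro** (semilocal Shapiro, degree 2): for `N / ℚ` Galois, "restrict to the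
decomposition group and project to the residue field" is a bijection
`H²(Aut N, (ℚ_q ⊗ N)ˣ) → H²(D_t, ((ℚ_q ⊗ N)/t)ˣ)`.
(`Aut N` is transitive on the maximal ideals (`mcPhi` of G1/MaxSpecCount.lean + transitivity on
the primes over `q`); `x ↦ (g ↦ π(g x))` is an isomorphism `semiRep q N ≅ coind_{D_t} sdY`
(`tensUnitsEquiv`); `PT.Red.shMap_two_bijective`.) -/
def StmtSDShapiro : Prop :=
  ∀ (q : ℕ) [Fact q.Prime] (N : Type) [Field N] [NumberField N] [IsGalois ℚ N]
    (t : MaximalSpectrum (semiAlg q N))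
    (π : Rep.res (sdStab q N t).subtype (semiRep q N) ⟶ sdY q N t),
    (∀ x : Additive (semiAlg q N)ˣ, π.hom x = sdProjLin q N t x) →
    Function.Bijective (groupCohomology.map (sdStab q N t).subtype π 2).hom

/-- **gb-sdgal**: for `N / ℚ` Galois the residue field `(ℚ_q ⊗ N)/t` is a finite Galois extension
of `ℚ_q` and the decomposition group maps isomorphically onto its Galois group.
(Injective: `N → (ℚ_q ⊗ N)/t` is injective.  Fixed field `ℚ_q`: the idempotent of `t`, transitivity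
and `(ℚ_q ⊗ N)^{Aut N} = ℚ_q` (`G.StmtSemiInv` with `K = ℚ`); then Artin.) -/
def StmtSDGalois : Prop :=
  ∀ (q : ℕ) [Fact q.Prime] (N : Type) [Field N] [NumberField N] [IsGalois ℚ N]
    (t : MaximalSpectrum (semiAlg q N)),
    FiniteDimensional ℚ_[q] (sdField q N t) ∧ IsGalois ℚ_[q] (sdField q N t) ∧
      Function.Bijective (sdRes q N t)

/-- **gb-sdfund**: the local module `sdY` has a `p`-fundamental class
(`PT.L.fundClass` for `(ℚ_q ⊗ N)/t` over `ℚ_q`, transported along the isomorphism `sdRes`). -/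
def StmtSDFund : Prop :=
  ∀ (p : ℕ) [Fact p.Prime] (q : ℕ) [Fact q.Prime] (N : Type) [Field N] [NumberField N]
    [IsGalois ℚ N] (t : MaximalSpectrum (semiAlg q N)),
    ∃ u : H2 (sdY q N t), IsPFundClass p (sdY q N t) u

/-- **(A) gb-semicyc**: for `N / ℚ` Galois the `p`-primary part of `H²(Aut N, (ℚ_q ⊗ N)ˣ)` is
cyclic.  (`StmtSDProj`, `StmtSDShapiro`, `StmtSDFund`, `StmtPCyclicOfFund`; `ℚ_q ⊗ N ≠ 0` has a
maximal ideal.) -/
def StmtSemiCyc : Prop :=
  ∀ (p : ℕ) [Fact p.Prime] (q : ℕ) [Fact q.Prime] (N : Type) [Field N] [NumberField N]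
    [IsGalois ℚ N], PCyclicH2 p (semiRep q N)

/-- **(K) gb-carrykill**: let `a ∈ (ℚ_q ⊗ N)ˣ` be `Aut N`-invariant and `f` an exponent killing
`θ` on the decomposition group of one maximal ideal `t`.  Then `f • cmpCarry h θ a` is a
coboundary.
(On `D_t`: `f • cmpCarry h θ a = d(s)`, `s(g) = (cmpIdx h θ g / (h / f'))• a`, `f' = |θ(D_t)|`
— or: `θ|_{D_t}` factors through `ℤ/f'`; then `StmtSDShapiro` (injectivity).
For `f = h` the formula `s(g) = cmpIdx h θ g • a` works on all of `Aut N`.) -/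
def StmtSemiCarryKill : Prop :=
  ∀ (q : ℕ) [Fact q.Prime] (N : Type) [Field N] [NumberField N] [IsGalois ℚ N]
    (t : MaximalSpectrum (semiAlg q N)) (h : ℕ) [NeZero h]
    (θ : (N ≃ₐ[ℚ] N) →* Multiplicative (ZMod h)) (a : (semiRep q N).V),
    (∀ σ : N ≃ₐ[ℚ] N, (semiRep q N).ρ σ a = a) → ∀ f : ℕ,
    (∀ σ ∈ sdStab q N t, θ σ ^ f = 1) →
    f • cmpCarry h θ a ∈ coboundaries₂ (semiRep q N)

/-! ### The cyclotomic auxiliary field: decomposition groups -/

/-- The element `q` of `ℚ_qˣ`. -/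
noncomputable def qUnit (q : ℕ) [hq : Fact q.Prime] : ℚ_[q]ˣ :=
  Units.mk0 (q : ℚ_[q]) (by exact_mod_cast hq.out.ne_zero)

/-- The decomposition groups at `q ≠ p` of the auxiliary field are generated by Frobenius:
`θ(σ)` has order dividing the order of `ψ_q(q) = [q^(p-1)]` for every `σ` in a decomposition
group over `q`. -/
def CycData.HasDec {p n : ℕ} [Fact p.Prime] {S : Finset Nat.Primes} {L : Type} [Field L]
    [NumberField L] (D : CycData p n S L) : Prop :=
  ∀ (q : ℕ) [Fact q.Prime], q ≠ p → ∀ (t : MaximalSpectrum (semiAlg q D.N)),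
    ∀ σ ∈ sdStab q D.N t, D.θ σ ^ orderOf (psiQ p n q (qUnit q)) = 1

/-- **gb-cycdec**: the auxiliary field can be chosen with `HasDec`.
(Same construction as `StmtCyc` (G3/Cyc.lean); `σ ∈ D_t` extends to `σ'` in a decomposition group
of `N' = N(ζ)`; `σ'` acts on the residue field of `𝓞_{N'}` as a power of Frobenius, so
`σ' ζ = ζ^{q^j}` (`symCheb_root_eq_of_sub_mem`), `χ(σ') = q^j`, `θ(σ) = lam(q)^j`.) -/
def StmtCycDec : Prop :=
  ∀ (p n : ℕ) [hp : Fact p.Prime] (S : Finset Nat.Primes), p ≠ 2 →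
    (⟨p, hp.out⟩ : Nat.Primes) ∈ S →
    ∀ (L : Type) [Field L] [NumberField L] [IsGalois ℚ L], UnramOffRel S ℚ L →
      ∃ D : CycData p n S L, D.HasDec

/-! ### The element `b₁` and the modified assembly -/

/-- **gb-carryh** (abstract): `h • cmpCarry h θ a` is a coboundary for every invariant `a`
(`= d(s)`, `s(g) = cmpIdx h θ g • a`). -/
def StmtCarryH : Prop :=
  ∀ (G : Type) [Group G] (C : Rep.{0} ℤ G) (h : ℕ) [NeZero h]
    (θ : G →* Multiplicative (ZMod h)) (a : C.V), (∀ g : G, C.ρ g a = a) →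
    h • cmpCarry h θ a ∈ coboundaries₂ C

/-- **gb-psipgen**: there is `b₀ ∈ ℚ_pˣ` whose symbol `ψ_p(b₀)` at level `n` has exact order
`p^n` (e.g. `b₀ = 1 + p`). -/
def StmtPsiPGen : Prop :=
  ∀ (p n : ℕ) [Fact p.Prime], p ≠ 2 →
    ∃ b₀ : ℚ_[p]ˣ, ∀ k : ℕ, psiQ p n p b₀ ^ k = 1 → p ^ n ∣ k

/-- **gb-psiqnontriv**: for `q ≠ p` there is a level `n ≥ 1` with `ψ_q(q) = [q^(p-1)] ≠ 1`
(`n = v_p(q^(p-1) - 1)`). -/
def StmtPsiQNontriv : Prop :=
  ∀ (p : ℕ) [Fact p.Prime], p ≠ 2 → ∀ (q : ℕ) [Fact q.Prime], q ≠ p →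
    ∃ n : ℕ, 1 ≤ n ∧ psiQ p n q (qUnit q) ≠ 1

/-- **gb-carrynz'**: `StmtCarryNZ` (PlanGB.lean) follows from `StmtGBPsi` alone: push the
coboundary along `csOfJRep ∘ jIncl`; `csOfJ (jIncl (gbConst_N b)) = csMap S ℚ N (csOfJ (jIncl
(gbConst_ℚ b)))` (`csMap_csOfJ`); `Ψ_ℚ (csOfJ (jIncl (gbConst_ℚ b))) = ψ_q(b)` (`psiC_csOfJ`,
`ℚ_q ⊗ ℚ` has rank one); `UnramOffRel S ℚ L` from `D.unram` and `StmtUnramTower`. -/
def StmtCarryNZOfPsi : Prop := StmtGBPsi → StmtUnramTower → StmtCarryNZ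

/-- **gbAsm'** (assembly WITHOUT local norm groups): (GB₁) from the pieces.
Choose `n`, `b₁`: for `q = p` any `n ≥ 1` and `b₁` with `ψ_p(b₁)` of order `p^n` (`StmtPsiPGen`), so
`f := orderOf ψ(b₁) = p^n` and `f • carry(b₁) ∼ 0` by `StmtCarryH`; for `q ≠ p` the level of
`StmtPsiQNontriv`, `b₁ = q`, `f := orderOf ψ_q(q)` and `f • carry(b₁) ∼ 0` by
`StmtSemiCarryKill` + `HasDec`.  `D` from `StmtCycDec`.  Inflate (`StmtGBInfJ`); `carry(b₁) ≁ 0`
(`StmtCarryNZ`); `y_q ∼ carry(b₁^i)` (`StmtSemiCycOne` — both classes are `p`-primary; use it for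
`y₁ := (f/p) • carry(b₁)`, of order exactly `p`); `ψ_q(b₁)^i = 1` (`StmtGBPsi`), so `f ∣ i` and
`carry(b₁^i) = (i/f) • (f • carry(b₁)) ∼ 0`. -/
def StmtGBAsm' : Prop :=
  StmtCycDec → StmtPsiPGen → StmtPsiQNontriv → StmtCarryH → StmtSemiCarryKill → StmtH90Semi →
    StmtGBInfJ → StmtSemiCycOne → StmtCarryNZ → StmtGBPsi → StmtGBOne

/-- **gb-semicycone**: `StmtSemiCycOne` (PlanGB.lean) from `StmtSemiCyc`. -/
def StmtSemiCycOneOf : Prop := StmtSemiCyc → StmtSemiCycOne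

end Fermat.Agent.PT.G3


end ZBPT_066_1

/-! ### bundled: `Fermat.Agent.PT.G3.GBFinal` -/
section ZBPT_066_2
/-
PT-GB, piece gbFinal (helper74): `B.StmtGB` (PT/B/Plan4.lean) from `StmtGBAll` / `StmtGBOne`
(PT/G3/PlanGB.lean) and from the assembly `StmtGBAsm'` (PT/G3/PlanGBLocal.lean).
-/

set_option autoImplicit false
set_option linter.unusedSectionVars false

noncomputable section

namespace Fermat.Agent.PT.G3

open CategoryTheory groupCohomology NumberField IsDedekindDomain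
open Fermat.Agent.PT Fermat.Agent.PT.G Fermat.Agent.PT.G1
open scoped TensorProduct

/-- `B.StmtGB` is (GB) in the shape `StmtGBAll`. -/
theorem gbFinal_of_all (h : StmtGBAll) : Fermat.Agent.PT.B.StmtGB := by
  intro p hp hp2 S hpS L _ _ _ hun q y hy hsupp hk hcs
  exact h p hp2 S hpS L hun q y hy hsupp hk hcs

/-- `B.StmtGB` from (GB₁). -/
theorem gbFinal_of_one (h : StmtGBOne) : Fermat.Agent.PT.B.StmtGB :=
  gbFinal_of_all (stmtGBRed h)

/-- **gbFinal**: `B.StmtGB` from the assembly `StmtGBAsm'` and its inputs. -/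
theorem stmtGB_of (hAsm : StmtGBAsm') (h1 : StmtCycDec) (h2 : StmtPsiPGen)
    (h3 : StmtPsiQNontriv) (h4 : StmtCarryH) (h5 : StmtSemiCarryKill) (h6 : StmtH90Semi)
    (h7 : StmtGBInfJ) (h8 : StmtSemiCycOne) (h9 : StmtCarryNZ) (h10 : StmtGBPsi) :
    Fermat.Agent.PT.B.StmtGB :=
  gbFinal_of_one (hAsm h1 h2 h3 h4 h5 h6 h7 h8 h9 h10)

/-- variant for the old assembly `StmtGBAsm` (PlanGB.lean). -/
theorem stmtGB_of_old (hAsm : StmtGBAsm) (h1 : StmtCyc) (h2 : StmtPsiNontriv)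
    (h3 : StmtH90Semi) (h4 : StmtGBInfJ) (h5 : StmtSemiCycOne) (h6 : StmtCarryOfNorm)
    (h7 : StmtCarryNZ) (h8 : StmtGBPsi) (h9 : StmtLocNormCyc) (h10 : StmtNormTransfer) :
    Fermat.Agent.PT.B.StmtGB :=
  gbFinal_of_one (hAsm h1 h2 h3 h4 h5 h6 h7 h8 h9 h10)

end Fermat.Agent.PT.G3

end
end ZBPT_066_2

/-! ### bundled: `Fermat.Agent.PT.G3.GBAsm` -/
section ZBPT_066_3
/-
PT-GB piece gbAsm (helper68): the assembly of (GB₁) — (GB) for classes killed by `p` — from the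
pieces of `PlanGB.lean`.

* `gbAsm_core`  : steps 1–5 with an abstract closing hypothesis
  (`ψ_q(b₁^k) = 1 ⇒ carry(b₁^k) ∼ 0`), so that both closings (local norms / helper47's
  `(K)`) can be plugged in;  the non-vanishing of the carry class of `b₁` is DERIVED from
  `StmtGBPsi` (so `StmtCarryNZ` is not needed);
* `stmtGBAsm' : StmtGBAsm'` (PlanGBLocal.lean, THE official assembly: no local norm groups);
* `stmtGBAsm : StmtGBAsm` (PlanGB.lean, the first plan: closing by local norm groups).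
-/

set_option autoImplicit false
set_option linter.unusedSectionVars false
set_option linter.unusedVariables false
set_option linter.style.haveILetI false

noncomputable section

namespace Fermat.Agent.PT.G3

open CategoryTheory groupCohomology NumberField IsDedekindDomain
open Fermat.Agent.PT Fermat.Agent.PT.G Fermat.Agent.PT.G1
open scoped TensorProduct

/-! ### Generic cochain lemmas -/

section Generic

variable {G : Type} [Group G]

lemma gbAsm_mem_coboundaries₂_iff (A : Rep.{0} ℤ G) (y : G × G → A.V) :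
    y ∈ coboundaries₂ A ↔ ∃ t : G → A.V, (d₁₂ A).hom t = y := Iff.rfl

/-- push-forward of a 2-cocycle along a morphism of representations -/
lemma gbAsm_push_cocycles₂ {A B : Rep.{0} ℤ G} (φ : A ⟶ B) {y : G × G → A.V}
    (hy : y ∈ cocycles₂ A) : (fun gg => φ.hom (y gg)) ∈ cocycles₂ B := by
  rw [mem_cocycles₂_iff] at hy ⊢
  intro g h j
  have h1 := congrArg φ.hom (hy g h j)
  rw [map_add, map_add, Rep.hom_comm_apply] at h1
  exact h1

/-- push-forward of a 2-coboundary along a morphism of representations -/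
lemma gbAsm_push_coboundaries₂ {A B : Rep.{0} ℤ G} (φ : A ⟶ B) {y : G × G → A.V}
    (hy : y ∈ coboundaries₂ A) : (fun gg => φ.hom (y gg)) ∈ coboundaries₂ B := by
  obtain ⟨t, rfl⟩ := hy
  refine ⟨fun g => φ.hom (t g), ?_⟩
  funext ⟨g, h⟩
  rw [d₁₂_hom_apply]
  show _ = φ.hom ((d₁₂ A).hom t (g, h))
  rw [d₁₂_hom_apply, map_add, map_sub, Rep.hom_comm_apply]

/-- the carry cochain commutes with additive maps -/
lemma gbAsm_map_cmpCarry (m : ℕ) (θ : G →* Multiplicative (ZMod m)) {V W : Type}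
    [AddCommGroup V] [AddCommGroup W] (f : V →+ W) (a : V) (gg : G × G) :
    f (cmpCarry m θ a gg) = cmpCarry m θ (f a) gg := by
  obtain ⟨g, h⟩ := gg
  rw [cmpCarry_apply, cmpCarry_apply]
  split_ifs
  · rfl
  · exact map_zero f

/-- `m • carry(a)` is a coboundary for every invariant `a` (explicit: `t g = idx(g) • a`). -/
lemma gbAsm_smul_cmpCarry_mem (m : ℕ) [NeZero m] (θ : G →* Multiplicative (ZMod m))
    (C : Rep.{0} ℤ G) (a : C.V) (ha : ∀ g : G, C.ρ g a = a) :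
    m • cmpCarry m θ a ∈ coboundaries₂ C := by
  refine ⟨fun g => cmpIdx m θ g • a, ?_⟩
  funext ⟨g, h⟩
  rw [d₁₂_hom_apply, Pi.smul_apply, cmpCarry_apply]
  dsimp only
  rw [map_nsmul, ha, cmpIdx_mul m θ g h]
  have hg := cmpIdx_lt m θ g
  have hh := cmpIdx_lt m θ h
  split_ifs with hc
  · have e : cmpIdx m θ h • a + cmpIdx m θ g • a =
        m • a + (cmpIdx m θ g + cmpIdx m θ h - m) • a := by
      rw [← add_nsmul, ← add_nsmul]
      congr 1
      omega
    rw [sub_add_eq_add_sub, e, add_sub_cancel_right]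
  · rw [add_nsmul, smul_zero]
    abel

/-- inflation of a 2-cocycle along a group homomorphism and a compatible additive map -/
lemma gbAsm_infl_cocycles₂ {G' : Type} [Group G'] (r : G' →* G) (A : Rep.{0} ℤ G)
    (A' : Rep.{0} ℤ G') (φ : A.V →+ A'.V)
    (hφ : ∀ (g : G') (a : A.V), φ (A.ρ (r g) a) = A'.ρ g (φ a)) {y : G × G → A.V}
    (hy : y ∈ cocycles₂ A) : (fun gg : G' × G' => φ (y (r gg.1, r gg.2))) ∈ cocycles₂ A' := by
  rw [mem_cocycles₂_iff] at hy ⊢
  intro g h j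
  have h1 := congrArg φ (hy (r g) (r h) (r j))
  rw [map_add, map_add, hφ, ← map_mul, ← map_mul] at h1
  exact h1

/-- inflation of a 2-coboundary along a group homomorphism and a compatible additive map -/
lemma gbAsm_infl_coboundaries₂ {G' : Type} [Group G'] (r : G' →* G) (A : Rep.{0} ℤ G)
    (A' : Rep.{0} ℤ G') (φ : A.V →+ A'.V)
    (hφ : ∀ (g : G') (a : A.V), φ (A.ρ (r g) a) = A'.ρ g (φ a)) {y : G × G → A.V}
    (hy : y ∈ coboundaries₂ A) :
    (fun gg : G' × G' => φ (y (r gg.1, r gg.2))) ∈ coboundaries₂ A' := by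
  obtain ⟨t, rfl⟩ := hy
  refine ⟨fun g => φ (t (r g)), ?_⟩
  funext ⟨g, h⟩
  rw [d₁₂_hom_apply]
  show _ = φ ((d₁₂ A).hom t (r g, r h))
  rw [d₁₂_hom_apply, map_add, map_sub, hφ, map_mul]

end Generic

/-! ### The constant idèle -/

section Const

variable (q : ℕ) [Fact q.Prime] (N : Type) [Field N] [NumberField N]

lemma gbAsm_gbConst_invariant (b : ℚ_[q]ˣ) (g : N ≃ₐ[ℚ] N) :
    (semiRep q N).ρ g (gbConst q N b) = gbConst q N b := by
  apply congrArg Additive.ofMul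
  apply Units.ext
  show semiMap q g (algebraMap ℚ_[q] (semiAlg q N) (b : ℚ_[q])) = algebraMap ℚ_[q] (semiAlg q N) b
  exact (semiMap q g).commutes _

lemma gbAsm_gbConst_pow (b : ℚ_[q]ˣ) (k : ℕ) : gbConst q N (b ^ k) = k • gbConst q N b := by
  show Additive.ofMul (Units.map ((algebraMap ℚ_[q] (semiAlg q N) : ℚ_[q] →* semiAlg q N))
    (b ^ k)) = k • Additive.ofMul (Units.map
      ((algebraMap ℚ_[q] (semiAlg q N) : ℚ_[q] →* semiAlg q N)) b)
  rw [map_pow]
  rfl

lemma gbAsm_gbConst_mem_cocycles₂ (m : ℕ) [NeZero m]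
    (θ : (N ≃ₐ[ℚ] N) →* Multiplicative (ZMod m)) (b : ℚ_[q]ˣ) :
    cmpCarry m θ (gbConst q N b) ∈ cocycles₂ (semiRep q N) :=
  cmpCarry_mem_cocycles₂ m θ (semiRep q N) _ (gbAsm_gbConst_invariant q N b)

end Const

/-! ### The constant idèle and the class symbol over `ℚ` -/

section Symbol

variable (p n : ℕ) [hp : Fact p.Prime] (S : Finset Nat.Primes)

/-- the class of the constant idèle `b` at `q` in `C_S(ℚ)` -/
def gbAsm_c₀ (q : ↥S) (b : ℚ_[((q : Nat.Primes) : ℕ)]ˣ) :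
    haveI : Fact ((q : Nat.Primes) : ℕ).Prime := ⟨(q : Nat.Primes).2⟩
    CS S ℚ :=
  haveI : Fact ((q : Nat.Primes) : ℕ).Prime := ⟨(q : Nat.Primes).2⟩
  csOfJ S ℚ (jInclLin S ℚ q (gbConst ((q : Nat.Primes) : ℕ) ℚ b))

lemma gbAsm_psiJ_mulSingle (L : Type) [Field L] [NumberField L] (q : ↥S)
    (u : (semiAlg ((q : Nat.Primes) : ℕ) L)ˣ) :
    psiJ p n S L (Pi.mulSingle q u : JL S L) = psiSemi p n ((q : Nat.Primes) : ℕ) L u := by
  rw [psiJ_apply, Finset.prod_eq_single q]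
  · rw [Pi.mulSingle_eq_same]
  · intro q' _ hq'
    rw [Pi.mulSingle_eq_of_ne hq', map_one]
  · intro h
    exact absurd (Finset.mem_univ q) h

lemma gbAsm_psiC_c₀ (hodd : Odd p) (hpS : (⟨p, hp.out⟩ : Nat.Primes) ∈ S) (q : ↥S)
    (b : ℚ_[((q : Nat.Primes) : ℕ)]ˣ) :
    haveI : Fact ((q : Nat.Primes) : ℕ).Prime := ⟨(q : Nat.Primes).2⟩
    psiC p n S ℚ (gbAsm_c₀ S q b) = Additive.ofMul (psiQ p n ((q : Nat.Primes) : ℕ) b) := by
  haveI : Fact ((q : Nat.Primes) : ℕ).Prime := ⟨(q : Nat.Primes).2⟩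
  unfold gbAsm_c₀
  rw [psiC_csOfJ p n S ℚ hodd hpS]
  congr 1
  show psiJ p n S ℚ (Pi.mulSingle q (Units.map
    ((algebraMap ℚ_[((q : Nat.Primes) : ℕ)] (semiAlg ((q : Nat.Primes) : ℕ) ℚ) :
      ℚ_[((q : Nat.Primes) : ℕ)] →* semiAlg ((q : Nat.Primes) : ℕ) ℚ)) b) : JL S ℚ) = _
  rw [gbAsm_psiJ_mulSingle, psiSemi_apply]
  congr 1
  apply Units.ext
  show Algebra.norm ℚ_[((q : Nat.Primes) : ℕ)]
    (algebraMap ℚ_[((q : Nat.Primes) : ℕ)] (semiAlg ((q : Nat.Primes) : ℕ) ℚ)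
      (b : ℚ_[((q : Nat.Primes) : ℕ)])) = b
  rw [Algebra.norm_algebraMap, Module.finrank_baseChange, Module.finrank_self, pow_one]

end Symbol

/-! ### Inflation from `L` to `N` -/

section Infl

variable (S : Finset Nat.Primes) (L N : Type) [Field L] [NumberField L] [Field N]
  [NumberField N] [Algebra L N] [Normal ℚ L]

lemma gbAsm_restricts (σ : N ≃ₐ[ℚ] N) : Restricts σ (gbRes L N σ) := by
  haveI : IsScalarTower ℚ L N := IsScalarTower.of_algebraMap_eq (fun x => by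
    rw [eq_ratCast, eq_ratCast, map_ratCast])
  intro x
  exact (AlgEquiv.restrictNormal_commutes σ L x).symm

lemma gbAsm_jlMap_equivariant (σ : N ≃ₐ[ℚ] N) (a : (jlRep S L).V) :
    (jlMapLin S L N : Additive (JL S L) →+ Additive (JL S N)) ((jlRep S L).ρ (gbRes L N σ) a) =
      (jlRep S N).ρ σ (jlMapLin S L N a) :=
  (jlEnd_jlMapLin S (gbAsm_restricts L N σ) a).symm

lemma gbAsm_csMap_equivariant (σ : N ≃ₐ[ℚ] N) (c : (csRep S L).V) :
    (csMap S L N : CS S L →+ CS S N) ((csRep S L).ρ (gbRes L N σ) c) =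
      (csRep S N).ρ σ (csMap S L N c) :=
  (csEnd_csMap S (gbAsm_restricts L N σ) c).symm

lemma gbAsm_gbInf_mem_cocycles₂ {y : (L ≃ₐ[ℚ] L) × (L ≃ₐ[ℚ] L) → (jlRep S L).V}
    (hy : y ∈ cocycles₂ (jlRep S L)) : gbInf S L N y ∈ cocycles₂ (jlRep S N) :=
  gbAsm_infl_cocycles₂ (gbRes L N) (jlRep S L) (jlRep S N)
    (jlMapLin S L N : Additive (JL S L) →+ Additive (JL S N))
    (gbAsm_jlMap_equivariant S L N) hy

lemma gbAsm_gbInf_mem_coboundaries₂ {y : (L ≃ₐ[ℚ] L) × (L ≃ₐ[ℚ] L) → (jlRep S L).V}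
    (hy : y ∈ coboundaries₂ (jlRep S L)) : gbInf S L N y ∈ coboundaries₂ (jlRep S N) :=
  gbAsm_infl_coboundaries₂ (gbRes L N) (jlRep S L) (jlRep S N)
    (jlMapLin S L N : Additive (JL S L) →+ Additive (JL S N))
    (gbAsm_jlMap_equivariant S L N) hy

lemma gbAsm_gbInf_nsmul (k : ℕ) (y : (L ≃ₐ[ℚ] L) × (L ≃ₐ[ℚ] L) → (jlRep S L).V) :
    gbInf S L N (k • y) = k • gbInf S L N y := by
  funext gg
  show jlMapLin S L N (k • y (gbRes L N gg.1, gbRes L N gg.2)) =
    k • jlMapLin S L N (y (gbRes L N gg.1, gbRes L N gg.2))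
  exact map_nsmul _ _ _

/-- the class of the inflation in `C_S(N)` is the inflation of the class in `C_S(L)` -/
lemma gbAsm_csOfJ_gbInf_mem {y : (L ≃ₐ[ℚ] L) × (L ≃ₐ[ℚ] L) → (jlRep S L).V}
    (hy : (fun gg => (csOfJRep S L).hom (y gg)) ∈ coboundaries₂ (csRep S L)) :
    (fun gg => (csOfJRep S N).hom (gbInf S L N y gg)) ∈ coboundaries₂ (csRep S N) := by
  have h := gbAsm_infl_coboundaries₂ (gbRes L N) (csRep S L) (csRep S N)
    (csMap S L N : CS S L →+ CS S N) (gbAsm_csMap_equivariant S L N) hy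
  have e : (fun gg => (csOfJRep S N).hom (gbInf S L N y gg)) =
      (fun gg : (N ≃ₐ[ℚ] N) × (N ≃ₐ[ℚ] N) => (csMap S L N : CS S L →+ CS S N)
        ((csOfJRep S L).hom (y (gbRes L N gg.1, gbRes L N gg.2)))) := by
    funext gg
    exact (csMap_csOfJ S L N (y (gbRes L N gg.1, gbRes L N gg.2))).symm
  rw [e]
  exact h

/-- inflation preserves the support -/
lemma gbAsm_gbInf_support (q : ↥S) {y : (L ≃ₐ[ℚ] L) × (L ≃ₐ[ℚ] L) → (jlRep S L).V}
    (hsupp : ∀ q' : ↥S, q' ≠ q → ∀ gg,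
      (Additive.toMul (y gg : Additive (JL S L)) : JL S L) q' = 1)
    (q' : ↥S) (hq' : q' ≠ q) (gg : (N ≃ₐ[ℚ] N) × (N ≃ₐ[ℚ] N)) :
    (Additive.toMul (gbInf S L N y gg : Additive (JL S N)) : JL S N) q' = 1 := by
  show Units.map _ ((Additive.toMul (y (gbRes L N gg.1, gbRes L N gg.2) :
    Additive (JL S L)) : JL S L) q') = 1
  rw [hsupp q' hq', map_one]

end Infl

/-! ### Components -/

section Comp

variable (S : Finset Nat.Primes) (N : Type) [Field N] [NumberField N]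

/-- an idèle supported at `q` is the inclusion of its `q`-component -/
lemma gbAsm_jIncl_jProj (q : ↥S) (x : Additive (JL S N))
    (hx : ∀ q' : ↥S, q' ≠ q → (Additive.toMul x : JL S N) q' = 1) :
    jInclLin S N q (jProjLin S N q x) = x := by
  apply Additive.toMul.injective
  funext q'
  show (Pi.mulSingle q ((Additive.toMul x : JL S N) q) : JL S N) q' = _
  by_cases h : q' = q
  · subst h
    rw [Pi.mulSingle_eq_same]
  · rw [Pi.mulSingle_eq_of_ne h, hx q' h]

/-- the constant idèle at `q` in `J_N` is the image of the constant idèle in `J_ℚ` -/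
lemma gbAsm_jlMap_const (q : ↥S) (b : ℚ_[((q : Nat.Primes) : ℕ)]ˣ) :
    haveI : Fact ((q : Nat.Primes) : ℕ).Prime := ⟨(q : Nat.Primes).2⟩
    jlMapLin S ℚ N (jInclLin S ℚ q (gbConst ((q : Nat.Primes) : ℕ) ℚ b)) =
      jInclLin S N q (gbConst ((q : Nat.Primes) : ℕ) N b) := by
  haveI : Fact ((q : Nat.Primes) : ℕ).Prime := ⟨(q : Nat.Primes).2⟩
  apply Additive.toMul.injective
  funext q'
  show Units.map _ ((Pi.mulSingle q (Units.map
      ((algebraMap ℚ_[((q : Nat.Primes) : ℕ)] (semiAlg ((q : Nat.Primes) : ℕ) ℚ) :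
        ℚ_[((q : Nat.Primes) : ℕ)] →* semiAlg ((q : Nat.Primes) : ℕ) ℚ)) b) : JL S ℚ) q') =
    (Pi.mulSingle q (Units.map
      ((algebraMap ℚ_[((q : Nat.Primes) : ℕ)] (semiAlg ((q : Nat.Primes) : ℕ) N) :
        ℚ_[((q : Nat.Primes) : ℕ)] →* semiAlg ((q : Nat.Primes) : ℕ) N)) b) : JL S N) q'
  by_cases h : q' = q
  · subst h
    rw [Pi.mulSingle_eq_same, Pi.mulSingle_eq_same]
    apply Units.ext
    exact (semiIncl ℚ N ((q' : Nat.Primes) : ℕ)).commutes _
  · rw [Pi.mulSingle_eq_of_ne h, Pi.mulSingle_eq_of_ne h, map_one]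

/-- the class of the constant idèle in `C_S(N)` comes from `C_S(ℚ)` -/
lemma gbAsm_csOfJ_const (q : ↥S) (b : ℚ_[((q : Nat.Primes) : ℕ)]ˣ) :
    haveI : Fact ((q : Nat.Primes) : ℕ).Prime := ⟨(q : Nat.Primes).2⟩
    csOfJ S N (jInclLin S N q (gbConst ((q : Nat.Primes) : ℕ) N b)) =
      csMap S ℚ N (gbAsm_c₀ S q b) := by
  haveI : Fact ((q : Nat.Primes) : ℕ).Prime := ⟨(q : Nat.Primes).2⟩
  unfold gbAsm_c₀
  rw [csMap_csOfJ, gbAsm_jlMap_const]

end Comp

/-! ### The core of the assembly -/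

section Core

variable (p n : ℕ) [hp : Fact p.Prime] (S : Finset Nat.Primes)

/-- Step 4: if the class of the carry cocycle of `b` dies in `C_S(N)`, then `ψ_q(b) = 1`. -/
lemma gbAsm_psi_of_carry (hPsi : StmtGBPsi) (hp2 : p ≠ 2)
    (hpS : (⟨p, hp.out⟩ : Nat.Primes) ∈ S)
    (L : Type) [Field L] [NumberField L] [IsGalois ℚ L] (hL : UnramOffRel S ℚ L)
    (D : CycData p n S L) (q : ↥S) (b : ℚ_[((q : Nat.Primes) : ℕ)]ˣ)
    (h : (fun gg => (csOfJRep S D.N).hom ((jIncl S D.N q).hom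
      (cmpCarry (p ^ n) D.θ (gbConst ((q : Nat.Primes) : ℕ) D.N b) gg))) ∈
        coboundaries₂ (csRep S D.N)) :
    psiQ p n ((q : Nat.Primes) : ℕ) b = 1 := by
  haveI : NeZero (p ^ n) := ⟨pow_ne_zero _ hp.out.ne_zero⟩
  have hodd : Odd p := hp.out.odd_of_ne_two hp2
  have e : (fun gg => (csOfJRep S D.N).hom ((jIncl S D.N q).hom
      (cmpCarry (p ^ n) D.θ (gbConst ((q : Nat.Primes) : ℕ) D.N b) gg))) =
      cmpCarry (p ^ n) D.θ (csMap S ℚ D.N (gbAsm_c₀ S q b) : (csRep S D.N).V) := by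
    funext gg
    rw [← gbAsm_csOfJ_const]
    exact gbAsm_map_cmpCarry (p ^ n) D.θ
      (((csOfJ S D.N : Additive (JL S D.N) →+ CS S D.N)).comp
        (jInclLin S D.N q : Additive (semiAlg ((q : Nat.Primes) : ℕ) D.N)ˣ →+
          Additive (JL S D.N))) _ gg
  rw [e] at h
  have h0 := hPsi p n S hp2 hpS L hL D (gbAsm_c₀ S q b) h
  rw [gbAsm_psiC_c₀ p n S hodd hpS q b] at h0
  exact congrArg Additive.toMul h0

/-- **The core of the assembly of (GB₁)**: steps 1–5 for a given auxiliary field `D`, a given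
`b₁` with `ψ_q(b₁) ≠ 1` and a closing hypothesis: the carry cocycle of a power of `b₁` with
trivial symbol is a coboundary. -/
theorem gbAsm_core (hH90 : StmtH90Semi) (hInf : StmtGBInfJ) (hCyc1 : StmtSemiCycOne)
    (hPsi : StmtGBPsi) (hp2 : p ≠ 2) (hpS : (⟨p, hp.out⟩ : Nat.Primes) ∈ S)
    (L : Type) [Field L] [NumberField L] [IsGalois ℚ L] (hL : UnramOffRel S ℚ L)
    (D : CycData p n S L) (q : ↥S) (b₁ : ℚ_[((q : Nat.Primes) : ℕ)]ˣ)
    (hb₁ : psiQ p n ((q : Nat.Primes) : ℕ) b₁ ≠ 1)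
    (hclose : ∀ k : ℕ, psiQ p n ((q : Nat.Primes) : ℕ) (b₁ ^ k) = 1 →
      cmpCarry (p ^ n) D.θ (gbConst ((q : Nat.Primes) : ℕ) D.N (b₁ ^ k)) ∈
        coboundaries₂ (semiRep ((q : Nat.Primes) : ℕ) D.N))
    (y : (L ≃ₐ[ℚ] L) × (L ≃ₐ[ℚ] L) → (jlRep S L).V) (hy : y ∈ cocycles₂ (jlRep S L))
    (hsupp : ∀ q' : ↥S, q' ≠ q → ∀ gg,
      (Additive.toMul (y gg : Additive (JL S L)) : JL S L) q' = 1)
    (hpy : p • y ∈ coboundaries₂ (jlRep S L))
    (hcs : (fun gg => (csOfJRep S L).hom (y gg)) ∈ coboundaries₂ (csRep S L)) :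
    y ∈ coboundaries₂ (jlRep S L) := by
  haveI : NeZero (p ^ n) := ⟨pow_ne_zero _ hp.out.ne_zero⟩
  haveI := D.galQ
  haveI := D.galL
  -- step 2: inflate
  refine hInf hH90 S L D.N y hy ?_
  set yN := gbInf S L D.N y with hyN
  have hyNc : yN ∈ cocycles₂ (jlRep S D.N) := gbAsm_gbInf_mem_cocycles₂ S L D.N hy
  have hyNp : p • yN ∈ coboundaries₂ (jlRep S D.N) := by
    rw [hyN, ← gbAsm_gbInf_nsmul]
    exact gbAsm_gbInf_mem_coboundaries₂ S L D.N hpy
  have hyNcs : (fun gg => (csOfJRep S D.N).hom (yN gg)) ∈ coboundaries₂ (csRep S D.N) :=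
    gbAsm_csOfJ_gbInf_mem S L D.N hcs
  have hyNs : ∀ q' : ↥S, q' ≠ q → ∀ gg,
      (Additive.toMul (yN gg : Additive (JL S D.N)) : JL S D.N) q' = 1 :=
    fun q' hq' gg => gbAsm_gbInf_support S L D.N q hsupp q' hq' gg
  -- step 3: the `q`-component
  set X := semiRep ((q : Nat.Primes) : ℕ) D.N with hX
  set yq : (D.N ≃ₐ[ℚ] D.N) × (D.N ≃ₐ[ℚ] D.N) → X.V :=
    fun gg => (jProj S D.N q).hom (yN gg) with hyq
  have hyqc : yq ∈ cocycles₂ X := gbAsm_push_cocycles₂ (jProj S D.N q) hyNc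
  have hyqp : p • yq ∈ coboundaries₂ X := by
    have h1 := gbAsm_push_coboundaries₂ (jProj S D.N q) hyNp
    have e : (fun gg => (jProj S D.N q).hom ((p • yN) gg)) = p • yq := by
      funext gg
      show jProjLin S D.N q (p • yN gg) = p • jProjLin S D.N q (yN gg)
      exact map_nsmul _ _ _
    rw [e] at h1
    exact h1
  have hyNq : yN = fun gg => (jIncl S D.N q).hom (yq gg) := by
    funext gg
    exact (gbAsm_jIncl_jProj S D.N q (yN gg) (fun q' hq' => hyNs q' hq' gg)).symm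
  -- the carry cocycle of `b₁`
  set c₁ := cmpCarry (p ^ n) D.θ (gbConst ((q : Nat.Primes) : ℕ) D.N b₁) with hc₁
  have hc₁c : c₁ ∈ cocycles₂ X := gbAsm_gbConst_mem_cocycles₂ _ D.N (p ^ n) D.θ b₁
  have hcarry : ∀ k : ℕ, k • c₁ =
      cmpCarry (p ^ n) D.θ (gbConst ((q : Nat.Primes) : ℕ) D.N (b₁ ^ k)) := by
    intro k
    rw [hc₁, cmpCarry_nsmul, gbAsm_gbConst_pow]
  -- a multiple of `c₁` which dies in `C_S(N)` is a coboundary
  have hkey : ∀ k : ℕ, (fun gg => (csOfJRep S D.N).hom ((jIncl S D.N q).hom ((k • c₁) gg))) ∈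
      coboundaries₂ (csRep S D.N) → k • c₁ ∈ coboundaries₂ X := by
    intro k hk
    rw [hcarry k] at hk ⊢
    exact hclose k (gbAsm_psi_of_carry p n S hPsi hp2 hpS L hL D q (b₁ ^ k) hk)
  have hpush : ∀ z : (D.N ≃ₐ[ℚ] D.N) × (D.N ≃ₐ[ℚ] D.N) → X.V, z ∈ coboundaries₂ X →
      (fun gg => (csOfJRep S D.N).hom ((jIncl S D.N q).hom (z gg))) ∈
        coboundaries₂ (csRep S D.N) := fun z hz =>
    gbAsm_push_coboundaries₂ (csOfJRep S D.N) (gbAsm_push_coboundaries₂ (jIncl S D.N q) hz)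
  -- `c₁` is not a coboundary
  have hc₁nz : c₁ ∉ coboundaries₂ X := by
    intro h
    have h1 := hpush c₁ h
    rw [hc₁] at h1
    exact hb₁ (gbAsm_psi_of_carry p n S hPsi hp2 hpS L hL D q b₁ h1)
  -- the last multiple `z = p^j • c₁` which is not a coboundary
  have hpn : p ^ n • c₁ ∈ coboundaries₂ X :=
    gbAsm_smul_cmpCarry_mem (p ^ n) D.θ X (gbConst ((q : Nat.Primes) : ℕ) D.N b₁)
      (gbAsm_gbConst_invariant _ D.N b₁)
  have hgen : ∀ m : ℕ, m = p ^ n → m • c₁ ∈ coboundaries₂ X := by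
    intro m hm
    rw [hm]
    exact hpn
  have hex : ∃ j : ℕ, p ^ (j + 1) • c₁ ∈ coboundaries₂ X := by
    rcases Nat.eq_zero_or_pos n with h0 | hpos
    · exfalso
      apply hc₁nz
      have := hgen 1 (by rw [h0, pow_zero])
      rwa [one_smul] at this
    · refine ⟨n - 1, ?_⟩
      exact hgen _ (by rw [Nat.sub_add_cancel hpos])
  classical
  set j := Nat.find hex with hj
  have hj1 : p ^ (j + 1) • c₁ ∈ coboundaries₂ X := Nat.find_spec hex
  have hj0 : p ^ j • c₁ ∉ coboundaries₂ X := by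
    rcases Nat.eq_zero_or_pos j with h0 | hpos
    · rw [h0, pow_zero, one_smul]
      exact hc₁nz
    · intro h
      have := Nat.find_min hex (m := j - 1) (by omega)
      apply this
      rw [Nat.sub_add_cancel hpos]
      exact h
  have hzc : p ^ j • c₁ ∈ cocycles₂ X := (cocycles₂ X).smul_of_tower_mem _ hc₁c
  have hzp : p • (p ^ j • c₁) ∈ coboundaries₂ X := by
    rw [smul_smul, ← pow_succ']
    exact hj1
  obtain ⟨i, hi⟩ := hCyc1 p ((q : Nat.Primes) : ℕ) D.N (p ^ j • c₁) yq hzc hyqc hzp hyqp hj0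
  -- step 4
  have hi' : yq - (i * p ^ j) • c₁ ∈ coboundaries₂ X := by
    rw [mul_smul]
    exact hi
  have h4 : (fun gg => (csOfJRep S D.N).hom ((jIncl S D.N q).hom (((i * p ^ j) • c₁) gg))) ∈
      coboundaries₂ (csRep S D.N) := by
    have h5 := hpush _ hi'
    have h6 : (fun gg => (csOfJRep S D.N).hom ((jIncl S D.N q).hom (yq gg))) ∈
        coboundaries₂ (csRep S D.N) := by
      have e : (fun gg => (csOfJRep S D.N).hom ((jIncl S D.N q).hom (yq gg))) =
          fun gg => (csOfJRep S D.N).hom (yN gg) := by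
        funext gg
        rw [congrFun hyNq gg]
      rw [e]
      exact hyNcs
    have e : (fun gg => (csOfJRep S D.N).hom ((jIncl S D.N q).hom (((i * p ^ j) • c₁) gg))) =
        (fun gg => (csOfJRep S D.N).hom ((jIncl S D.N q).hom (yq gg))) -
        (fun gg => (csOfJRep S D.N).hom ((jIncl S D.N q).hom
          ((yq - (i * p ^ j) • c₁) gg))) := by
      funext gg
      rw [Pi.sub_apply, Pi.sub_apply, map_sub, map_sub]
      abel
    rw [e]
    exact (coboundaries₂ (csRep S D.N)).sub_mem h6 h5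
  -- step 5
  have h7 : (i * p ^ j) • c₁ ∈ coboundaries₂ X := hkey _ h4
  have h8 : yq ∈ coboundaries₂ X := by
    have := (coboundaries₂ X).add_mem hi' h7
    rwa [sub_add_cancel] at this
  rw [hyNq]
  exact gbAsm_push_coboundaries₂ (jIncl S D.N q) h8

end Core

/-! ### The two assemblies -/

section Final

variable (p n : ℕ) [hp : Fact p.Prime] (S : Finset Nat.Primes)

/-- closing hypothesis of `gbAsm_core` from an exponent `f` which kills the carry class of `b₁`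
and divides every exponent killing `ψ_q(b₁)` -/
lemma gbAsm_close (L : Type) [Field L] [NumberField L] (D : CycData p n S L) (q : ↥S)
    (b₁ : ℚ_[((q : Nat.Primes) : ℕ)]ˣ) (f : ℕ)
    (hf : ∀ k : ℕ, psiQ p n ((q : Nat.Primes) : ℕ) b₁ ^ k = 1 → f ∣ k)
    (hkill : f • cmpCarry (p ^ n) D.θ (gbConst ((q : Nat.Primes) : ℕ) D.N b₁) ∈
      coboundaries₂ (semiRep ((q : Nat.Primes) : ℕ) D.N)) (k : ℕ)
    (hk : psiQ p n ((q : Nat.Primes) : ℕ) (b₁ ^ k) = 1) :
    cmpCarry (p ^ n) D.θ (gbConst ((q : Nat.Primes) : ℕ) D.N (b₁ ^ k)) ∈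
      coboundaries₂ (semiRep ((q : Nat.Primes) : ℕ) D.N) := by
  rw [map_pow] at hk
  obtain ⟨m, rfl⟩ := hf k hk
  rw [gbAsm_gbConst_pow, ← cmpCarry_nsmul, mul_comm, mul_smul]
  exact (coboundaries₂ (semiRep ((q : Nat.Primes) : ℕ) D.N)).smul_of_tower_mem m hkill

/-- `StmtPsiPGen`, transported to a prime `Q = p` -/
lemma gbAsm_psiPGen (hG : StmtPsiPGen) (hp2 : p ≠ 2) (Q : ℕ) [Fact Q.Prime] (hQ : Q = p) :
    ∃ b₀ : ℚ_[Q]ˣ, ∀ k : ℕ, psiQ p n Q b₀ ^ k = 1 → p ^ n ∣ k := by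
  subst hQ
  exact hG Q n hp2

/-- **gbAsm'**: (GB₁) from the pieces, without local norm groups. -/
theorem stmtGBAsm' : StmtGBAsm' := by
  intro hCycDec hPGen hQNt hCarryH hKill hH90 hInf hCyc1 _ hPsi p hp hp2 S hpS L _ _ _ hL q y hy
    hsupp hpy hcs
  by_cases hqp : ((q : Nat.Primes) : ℕ) = p
  · -- `q = p`
    obtain ⟨b₀, hb₀⟩ := gbAsm_psiPGen p 1 hPGen hp2 ((q : Nat.Primes) : ℕ) hqp
    obtain ⟨D, -⟩ := hCycDec p 1 S hp2 hpS L hL
    haveI : NeZero (p ^ 1) := ⟨pow_ne_zero _ hp.out.ne_zero⟩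
    have hne : psiQ p 1 ((q : Nat.Primes) : ℕ) b₀ ≠ 1 := by
      intro h
      have h1 := hb₀ 1 (by rw [pow_one]; exact h)
      rw [pow_one, Nat.dvd_one] at h1
      exact hp.out.one_lt.ne' h1
    have hkill := hCarryH (D.N ≃ₐ[ℚ] D.N) (semiRep ((q : Nat.Primes) : ℕ) D.N) (p ^ 1) D.θ
      (gbConst ((q : Nat.Primes) : ℕ) D.N b₀) (gbAsm_gbConst_invariant _ D.N b₀)
    exact gbAsm_core p 1 S hH90 hInf hCyc1 hPsi hp2 hpS L hL D q b₀ hne
      (gbAsm_close p 1 S L D q b₀ (p ^ 1) hb₀ hkill) y hy hsupp hpy hcs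
  · -- `q ≠ p`
    obtain ⟨n, -, hne⟩ := hQNt p hp2 ((q : Nat.Primes) : ℕ) hqp
    obtain ⟨D, hDec⟩ := hCycDec p n S hp2 hpS L hL
    haveI : NeZero (p ^ n) := ⟨pow_ne_zero _ hp.out.ne_zero⟩
    haveI := D.galQ
    obtain ⟨t⟩ : Nonempty (MaximalSpectrum (semiAlg ((q : Nat.Primes) : ℕ) D.N)) :=
      inferInstance
    have hkill := hKill ((q : Nat.Primes) : ℕ) D.N t (p ^ n) D.θ
      (gbConst ((q : Nat.Primes) : ℕ) D.N (qUnit ((q : Nat.Primes) : ℕ)))
      (gbAsm_gbConst_invariant _ D.N _)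
      (orderOf (psiQ p n ((q : Nat.Primes) : ℕ) (qUnit ((q : Nat.Primes) : ℕ))))
      (hDec ((q : Nat.Primes) : ℕ) hqp t)
    exact gbAsm_core p n S hH90 hInf hCyc1 hPsi hp2 hpS L hL D q
      (qUnit ((q : Nat.Primes) : ℕ)) hne
      (gbAsm_close p n S L D q _ _ (fun k hk => orderOf_dvd_of_pow_eq_one hk) hkill)
      y hy hsupp hpy hcs

/-- **gbAsm** (first plan): (GB₁) from the pieces of PlanGB.lean, closing by local norm
groups. -/
theorem stmtGBAsm : StmtGBAsm := by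
  intro hCyc hNt hH90 hInf hCyc1 hCoN _ hPsi hLoc hNT p hp hp2 S hpS L _ _ _ hL q y hy hsupp hpy
    hcs
  obtain ⟨n, b₁, hb₁⟩ := hNt p hp2 ((q : Nat.Primes) : ℕ)
  obtain ⟨D⟩ := hCyc p n S hp2 hpS L hL
  haveI : NeZero (p ^ n) := ⟨pow_ne_zero _ hp.out.ne_zero⟩
  refine gbAsm_core p n S hH90 hInf hCyc1 hPsi hp2 hpS L hL D q b₁ hb₁ (fun k hk => ?_)
    y hy hsupp hpy hcs
  obtain ⟨d, hd, hsum⟩ := hNT p n S hp2 L D ((q : Nat.Primes) : ℕ) (b₁ ^ k)
    (hLoc p n hp2 ((q : Nat.Primes) : ℕ) (b₁ ^ k) hk)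
  have h := hCoN (D.N ≃ₐ[ℚ] D.N) (semiRep ((q : Nat.Primes) : ℕ) D.N) (p ^ n) D.θ d hd
  rw [← hsum] at h
  exact h

end Final

end Fermat.Agent.PT.G3

end


end ZBPT_066_3

/-! ### bundled: `Fermat.Agent.PT.G3.GBPsiPGen` -/
section ZBPT_066_4
/-
PT-GB — pieces **psiPGen** and **psiQNontriv** (helper32).

* `stmtPsiPGen`: `ψ_p(1 + p)` has exact order `p^n` in `(ℤ/p^(n+1))ˣ` (`p` odd);
* `stmtPsiQNontriv`: for `q ≠ p`, `ψ_q(q) = [q]^(p-1) ≠ 1` at the level `n = q^(p-1) ≥ 1`.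
-/

set_option autoImplicit false

namespace Fermat.Agent.PT.G3

/-- the unit part of `1 + p ∈ ℚ_pˣ` reduces to `[1 + p]` modulo `p^(n+1)` -/
theorem psiPGen_unit (p n : ℕ) [hp : Fact p.Prime] (hb0 : ((p + 1 : ℕ) : ℚ_[p]) ≠ 0) :
    ((Units.map (PadicInt.toZModPow (n + 1) : ℤ_[p] →+* ZMod (p ^ (n + 1))).toMonoidHom
      (padicUnitPart p (Units.mk0 ((p + 1 : ℕ) : ℚ_[p]) hb0)) : (ZMod (p ^ (n + 1)))ˣ) :
        ZMod (p ^ (n + 1))) = 1 + (p : ZMod (p ^ (n + 1))) := by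
  have hval : (((p + 1 : ℕ) : ℚ_[p])).valuation = 0 := by
    rw [Padic.valuation_natCast]
    have hnd : ¬ p ∣ p + 1 := by
      intro hd
      have := (Nat.dvd_add_right (dvd_refl p)).1 hd
      exact hp.out.one_lt.ne' (Nat.dvd_one.1 this)
    exact_mod_cast padicValNat.eq_zero_of_not_dvd hnd
  have hu2 : ((padicUnitPart p (Units.mk0 ((p + 1 : ℕ) : ℚ_[p]) hb0) : ℤ_[p]ˣ) : ℤ_[p]) =
      ((p + 1 : ℕ) : ℤ_[p]) := by
    apply Subtype.ext
    rw [coe_padicUnitPart, Units.val_mk0, hval, neg_zero, zpow_zero, mul_one]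
    simp
  show (PadicInt.toZModPow (n + 1)) _ = _
  rw [hu2, map_natCast]
  push_cast
  ring

/-- **psiPGen**. -/
theorem stmtPsiPGen : StmtPsiPGen := by
  intro p n hp hp2
  have hb0 : ((p + 1 : ℕ) : ℚ_[p]) ≠ 0 := by exact_mod_cast Nat.succ_ne_zero p
  refine ⟨Units.mk0 ((p + 1 : ℕ) : ℚ_[p]) hb0, fun k hk => ?_⟩
  rw [psiQ_self, psiP_apply, inv_pow, inv_eq_one, ← pow_mul] at hk
  have h1 := congrArg (fun u : (ZMod (p ^ (n + 1)))ˣ => (u : ZMod (p ^ (n + 1)))) hk
  simp only [Units.val_pow_eq_pow_val, Units.val_one] at h1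
  rw [psiPGen_unit p n hb0] at h1
  have h2 := orderOf_dvd_of_pow_eq_one h1
  rw [ZMod.orderOf_one_add_prime hp.out hp2 n] at h2
  have hcop : (p ^ n).Coprime (p - 1) := by
    apply Nat.Coprime.pow_left
    have h3 : p.Coprime (p - 1) := by
      have h4 : (p - 1 + 1).Coprime (p - 1) := by
        rw [Nat.coprime_self_add_left]
        exact Nat.coprime_one_left _
      rwa [Nat.sub_add_cancel hp.out.one_le] at h4
    exact h3
  exact hcop.dvd_of_dvd_mul_left h2

/-- **psiQNontriv**. -/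
theorem stmtPsiQNontriv : StmtPsiQNontriv := by
  intro p hp hp2 q hq h
  refine ⟨q ^ (p - 1), Nat.one_le_pow _ _ hq.out.pos, ?_⟩
  rw [psiQ_of_ne p _ q h]
  intro h1
  have h2 : (ZMod.unitOfCoprime q (coprime_pow_of_ne p (q ^ (p - 1)) hq.out h)) ^
      (((p - 1 : ℕ) : ℤ) * ((qUnit q : ℚ_[q]ˣ) : ℚ_[q]).valuation) = 1 := h1
  rw [qUnit, Units.val_mk0, Padic.valuation_p, mul_one, zpow_natCast] at h2
  have h3 := congrArg (fun u : (ZMod (p ^ (q ^ (p - 1) + 1)))ˣ =>
    (u : ZMod (p ^ (q ^ (p - 1) + 1)))) h2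
  simp only [Units.val_pow_eq_pow_val, ZMod.coe_unitOfCoprime, Units.val_one] at h3
  have h4 : ((q ^ (p - 1) : ℕ) : ZMod (p ^ (q ^ (p - 1) + 1))) = ((1 : ℕ) : ZMod _) := by
    rw [Nat.cast_pow, Nat.cast_one]
    exact h3
  rw [ZMod.natCast_eq_natCast_iff'] at h4
  have hlt : q ^ (p - 1) + 1 < p ^ (q ^ (p - 1) + 1) := Nat.lt_pow_self hp.out.one_lt
  have hp1 : 1 ≤ p - 1 := by
    have := hp.out.two_le
    omega
  have hq1 : 1 < q ^ (p - 1) := Nat.one_lt_pow (by omega) hq.out.one_lt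
  rw [Nat.mod_eq_of_lt (by omega), Nat.mod_eq_of_lt (by omega)] at h4
  omega

end Fermat.Agent.PT.G3


end ZBPT_066_4

/-! ### bundled: `Fermat.Agent.PT.G3.GBCarryH` -/
section ZBPT_066_5

/-!
# PT-GB, piece carryH: multiples of the carry cocycle which are coboundaries

`carryH_smul_mem_coboundaries₂`: if `θ : G → ℤ/h` satisfies `θ(g)^f = 1` for all `g`, then
`f • cmpCarry h θ a = d(s)` with `s(g) = (f · idx(g) / h) • a`, for every invariant `a`.
`stmtCarryH : StmtCarryH` is the case `f = h`.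
-/

set_option autoImplicit false

namespace Fermat.Agent.PT.G3

open CategoryTheory groupCohomology

/-- `θ(g)^f = 1` means `h ∣ f · idx(g)`. -/
theorem carryH_dvd {G : Type} [Group G] (h : ℕ) [NeZero h] (θ : G →* Multiplicative (ZMod h))
    (f : ℕ) (g : G) (hf : θ g ^ f = 1) : h ∣ f * cmpIdx h θ g := by
  have h1 : f • Multiplicative.toAdd (θ g) = 0 := by
    have := congrArg Multiplicative.toAdd hf
    simpa using this
  rw [← ZMod.natCast_eq_zero_iff]
  rw [nsmul_eq_mul] at h1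
  unfold cmpIdx
  rw [Nat.cast_mul, ZMod.natCast_zmod_val]
  exact h1

/-- If `θ^f = 1` on `G`, then `f • cmpCarry h θ a` is a coboundary, for every invariant `a`. -/
theorem carryH_smul_mem_coboundaries₂ {G : Type} [Group G] (C : Rep.{0} ℤ G) (h : ℕ) [NeZero h]
    (θ : G →* Multiplicative (ZMod h)) (a : C.V) (ha : ∀ g : G, C.ρ g a = a) (f : ℕ)
    (hf : ∀ g : G, θ g ^ f = 1) : f • cmpCarry h θ a ∈ coboundaries₂ C := by
  have hdiv : ∀ g : G, ∃ c : ℕ, f * cmpIdx h θ g = h * c := fun g =>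
    carryH_dvd h θ f g (hf g)
  choose c hc using hdiv
  have hh : 0 < h := Nat.pos_of_ne_zero (NeZero.ne h)
  refine ⟨fun g => c g • a, ?_⟩
  funext ⟨g₁, g₂⟩
  rw [d₁₂_hom_apply]
  show C.ρ g₁ (c g₂ • a) - c (g₁ * g₂) • a + c g₁ • a = f • cmpCarry h θ a (g₁, g₂)
  rw [map_nsmul, ha, cmpCarry_apply]
  have hmul := cmpIdx_mul h θ g₁ g₂
  have h1 := hc g₁
  have h2 := hc g₂
  have h12 := hc (g₁ * g₂)
  split_ifs with hcarry
  · rw [if_pos hcarry] at hmul
    have key : c g₁ + c g₂ = c (g₁ * g₂) + f := by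
      apply Nat.eq_of_mul_eq_mul_left hh
      rw [mul_add, mul_add, ← h1, ← h2, ← h12, hmul, ← mul_add, Nat.mul_sub, mul_comm f h,
        mul_comm h f]
      have : f * h ≤ f * (cmpIdx h θ g₁ + cmpIdx h θ g₂) := Nat.mul_le_mul_left f hcarry
      omega
    have key2 : c g₁ • a + c g₂ • a = c (g₁ * g₂) • a + f • a := by
      rw [← add_nsmul, ← add_nsmul, key]
    rw [sub_add_eq_add_sub, sub_eq_iff_eq_add, add_comm (c g₂ • a), key2, add_comm]
  · rw [if_neg hcarry] at hmul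
    have key : c g₁ + c g₂ = c (g₁ * g₂) := by
      apply Nat.eq_of_mul_eq_mul_left hh
      rw [mul_add, ← h1, ← h2, ← h12, hmul, mul_add]
    have key2 : c g₁ • a + c g₂ • a = c (g₁ * g₂) • a := by
      rw [← add_nsmul, key]
    rw [smul_zero, sub_add_eq_add_sub, sub_eq_zero, add_comm (c g₂ • a), key2]

/-- **gb-carryh**: `h • cmpCarry h θ a` is a coboundary for every invariant `a`. -/
theorem stmtCarryH : StmtCarryH := by
  intro G _ C h _ θ a ha
  apply carryH_smul_mem_coboundaries₂ C h θ a ha h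
  intro g
  have h2 : Multiplicative.toAdd (θ g ^ h) = Multiplicative.toAdd (1 : Multiplicative (ZMod h)) := by
    rw [toAdd_pow, toAdd_one, nsmul_eq_mul, ZMod.natCast_self, zero_mul]
  exact Multiplicative.toAdd.injective h2

end Fermat.Agent.PT.G3


end ZBPT_066_5

/-! ### bundled: `Fermat.Agent.PT.G3.GBSemiCyc` -/
section ZBPT_066_6
/-
PT-GB, piece `semiCyc` (helper1): the `p`-primary part of `H²(Aut N, (ℚ_q ⊗ N)ˣ)` is cyclic
(`StmtSemiCyc`), as glue of `StmtSDProj`, `StmtSDShapiro`, `StmtSDFund`, `StmtPCyclicOfFund`;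
and `StmtSemiCycOne` (PlanGB.lean) from `StmtSemiCyc`.
-/

set_option autoImplicit false

namespace Fermat.Agent.PT.G3

open CategoryTheory groupCohomology NumberField IsDedekindDomain
open Fermat.Agent.PT Fermat.Agent.PT.G Fermat.Agent.PT.G1

/-- `PCyclicH2` is inherited along an injective additive map on `H²`. -/
theorem gbsc_pcyclic_of_injective (p : ℕ) {G H : Type} [Group G] [Group H]
    (C : Rep.{0} ℤ G) (D : Rep.{0} ℤ H) (φ : H2 C →+ H2 D) (hφ : Function.Injective φ)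
    (hD : PCyclicH2 p D) : PCyclicH2 p C := by
  intro x y hx hy
  have hx' : IsPTors p (φ x) := by
    obtain ⟨k, hk⟩ := hx
    exact ⟨k, by rw [← map_nsmul, hk, map_zero]⟩
  have hy' : IsPTors p (φ y) := by
    obtain ⟨k, hk⟩ := hy
    exact ⟨k, by rw [← map_nsmul, hk, map_zero]⟩
  rcases hD (φ x) (φ y) hx' hy' with ⟨n, hn⟩ | ⟨n, hn⟩
  · left
    refine ⟨n, hφ ?_⟩
    rw [map_zsmul, hn]
  · right
    refine ⟨n, hφ ?_⟩
    rw [map_zsmul, hn]

/-- the semilocal algebra is not the zero ring. -/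
theorem gbsc_nontrivial (q : ℕ) [Fact q.Prime] (N : Type) [Field N] [NumberField N] :
    Nontrivial (semiAlg q N) := by
  infer_instance

/-- **(A) gb-semicyc**. -/
theorem stmtSemiCyc_of (hproj : StmtSDProj) (hsh : StmtSDShapiro) (hfund : StmtSDFund)
    (hcyc : StmtPCyclicOfFund) : StmtSemiCyc := by
  intro p _ q _ N _ _ _
  haveI : Nontrivial (semiAlg q N) := gbsc_nontrivial q N
  obtain ⟨I, hI⟩ := Ideal.exists_maximal (semiAlg q N)
  let t : MaximalSpectrum (semiAlg q N) := ⟨I, hI⟩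
  obtain ⟨π, hπ⟩ := hproj q N t
  have hbij := hsh q N t π hπ
  obtain ⟨u, hu⟩ := hfund p q N t
  have hD : PCyclicH2 p (sdY q N t) := hcyc p _ (sdY q N t) u hu
  exact gbsc_pcyclic_of_injective p _ _
    (groupCohomology.map (sdStab q N t).subtype π 2).hom.toAddMonoidHom hbij.1 hD

/-- in a group killed by `p` on `x`, integer multiples of `x` are natural multiples. -/
theorem gbsc_zsmul_eq_nsmul {X : Type*} [AddCommGroup X] (p : ℕ) (hp0 : p ≠ 0) (x : X)
    (hx : p • x = 0) (a : ℤ) : ∃ j : ℕ, a • x = j • x := by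
  refine ⟨(a % (p : ℤ)).toNat, ?_⟩
  have hp' : (p : ℤ) ≠ 0 := by exact_mod_cast hp0
  have h1 : 0 ≤ a % (p : ℤ) := Int.emod_nonneg a hp'
  have h2 : ((a % (p : ℤ)).toNat : ℤ) = a % (p : ℤ) := Int.toNat_of_nonneg h1
  have h3 : a = (p : ℤ) * (a / (p : ℤ)) + a % (p : ℤ) := (Int.mul_ediv_add_emod a p).symm
  have h4 : ((p : ℤ)) • x = 0 := by rw [natCast_zsmul]; exact hx
  calc a • x = ((p : ℤ) * (a / (p : ℤ)) + a % (p : ℤ)) • x := by rw [← h3]
    _ = (a / (p : ℤ)) • ((p : ℤ) • x) + (a % (p : ℤ)) • x := by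
        rw [add_smul, mul_comm, mul_smul]
    _ = (a % (p : ℤ)) • x := by rw [h4, smul_zero, zero_add]
    _ = (((a % (p : ℤ)).toNat : ℤ)) • x := by rw [h2]
    _ = (a % (p : ℤ)).toNat • x := natCast_zsmul _ _

/-- abstract form of `StmtSemiCycOneOf`. -/
theorem gbsc_one_abstract {X : Type*} [AddCommGroup X] (p : ℕ) (hp : p.Prime) (x₁ x₂ : X)
    (h₁ : p • x₁ = 0) (h₂ : p • x₂ = 0) (hne : x₁ ≠ 0)
    (h : (∃ n : ℤ, n • x₁ = x₂) ∨ (∃ n : ℤ, n • x₂ = x₁)) : ∃ j : ℕ, x₂ = j • x₁ := by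
  rcases h with ⟨n, hn⟩ | ⟨n, hn⟩
  · obtain ⟨j, hj⟩ := gbsc_zsmul_eq_nsmul p hp.ne_zero x₁ h₁ n
    exact ⟨j, by rw [← hj, hn]⟩
  · have h₂' : ((p : ℤ)) • x₂ = 0 := by rw [natCast_zsmul]; exact h₂
    have hcop : IsCoprime n (p : ℤ) := by
      rw [isCoprime_comm]
      refine (Nat.prime_iff_prime_int.1 hp).coprime_iff_not_dvd.2 ?_
      rintro ⟨m, rfl⟩
      apply hne
      rw [← hn, mul_comm, mul_smul, h₂', smul_zero]
    obtain ⟨a, b, hab⟩ := hcop
    have h5 : x₂ = a • x₁ := by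
      calc x₂ = (1 : ℤ) • x₂ := (one_smul _ _).symm
        _ = (a * n + b * (p : ℤ)) • x₂ := by rw [hab]
        _ = a • (n • x₂) + b • ((p : ℤ) • x₂) := by rw [add_smul, mul_smul, mul_smul]
        _ = a • x₁ := by rw [hn, h₂', smul_zero, add_zero]
    obtain ⟨j, hj⟩ := gbsc_zsmul_eq_nsmul p hp.ne_zero x₁ h₁ a
    exact ⟨j, by rw [h5, hj]⟩

/-- **gb-semicycone**: `StmtSemiCycOne` (PlanGB.lean) from `StmtSemiCyc`. -/
theorem stmtSemiCycOneOf : StmtSemiCycOneOf := by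
  intro h p hp q _ N _ _ _ y₁ y₂ hy₁ hy₂ hp₁ hp₂ hne
  have hcyc := h p q N
  have hx₁ : p • H2π (semiRep q N) ⟨y₁, hy₁⟩ = 0 := by
    rw [← map_nsmul, H2π_eq_zero_iff]
    exact hp₁
  have hx₂ : p • H2π (semiRep q N) ⟨y₂, hy₂⟩ = 0 := by
    rw [← map_nsmul, H2π_eq_zero_iff]
    exact hp₂
  have hx₁ne : H2π (semiRep q N) ⟨y₁, hy₁⟩ ≠ 0 := fun h0 =>
    hne ((H2π_eq_zero_iff (⟨y₁, hy₁⟩ : cocycles₂ (semiRep q N))).1 h0)
  have hcmp := hcyc (H2π (semiRep q N) ⟨y₁, hy₁⟩) (H2π (semiRep q N) ⟨y₂, hy₂⟩)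
    ⟨1, by rw [pow_one]; exact hx₁⟩ ⟨1, by rw [pow_one]; exact hx₂⟩
  obtain ⟨j, hj⟩ := gbsc_one_abstract p hp.out _ _ hx₁ hx₂ hx₁ne hcmp
  refine ⟨j, ?_⟩
  rw [← map_nsmul, H2π_eq_iff] at hj
  exact hj

end Fermat.Agent.PT.G3


end ZBPT_066_6

/-! ### bundled: `Fermat.Agent.PT.G3.GBSDProj` -/
section ZBPT_066_7
/-
PT-GB, piece sdProj (helper11): the projection `(ℚ_q ⊗ N)ˣ → ((ℚ_q ⊗ N)/t)ˣ` is a morphism of
`Rep ℤ (sdStab q N t)`.  `stmtSDProj : StmtSDProj`.
-/

set_option autoImplicit false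
set_option linter.unusedSectionVars false

noncomputable section

namespace Fermat.Agent.PT.G3

open CategoryTheory groupCohomology NumberField IsDedekindDomain
open Fermat.Agent.PT Fermat.Agent.PT.G Fermat.Agent.PT.G1

/-- **gb-sdproj**. -/
theorem stmtSDProj : StmtSDProj := by
  intro q _ N _ _ t
  refine ⟨Rep.ofHom ⟨sdProjLin q N t, fun σ => LinearMap.ext fun x => ?_⟩, fun x => rfl⟩
  apply congrArg Additive.ofMul
  apply Units.ext
  exact (sdRes_mk q N t σ _).symm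

end Fermat.Agent.PT.G3

end


end ZBPT_066_7

/-! ### bundled: `Fermat.Agent.PT.G3.GBCycAbs` -/
section ZBPT_066_8
/-
PT-GB / cycabs (helper9): a `p`-fundamental class makes the `p`-primary part of `H²` cyclic.

`stmtPCyclicOfFund : StmtPCyclicOfFund`.
 1. `cycabs_mem_zmultiples`: every `p`-primary class `z` of `H²(G, C)` is an integer multiple of
    the fundamental class `u` (`res_P z = n • res_P u` on a Sylow subgroup `P`, and
    `res_P w = 0 ⇒ [G : P] • w = 0`, `[G : P]` prime to `p`).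
 2. `cycabs_comparable`: two `p`-primary integer multiples of one element are comparable
    (Bezout; no finiteness needed).
-/

set_option autoImplicit false

namespace Fermat.Agent.PT.G3

open CategoryTheory groupCohomology
open Fermat.Agent.PT

/-- If `p^k • w = 0` and `c` is prime to `p`, then `w` is an integer multiple of `c • w`. -/
lemma cycabs_unit_smul {X : Type*} [AddCommGroup X] (p : ℕ) [hp : Fact p.Prime] (k : ℕ)
    (w : X) (hw : (p ^ k) • w = 0) (c : ℤ) (hc : ¬ (p : ℤ) ∣ c) :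
    ∃ e : ℤ, e • (c • w) = w := by
  have hcop : IsCoprime c ((p : ℤ) ^ k) := by
    apply IsCoprime.pow_right
    exact ((Nat.prime_iff_prime_int.1 hp.out).coprime_iff_not_dvd.2 hc).symm
  obtain ⟨e, d, hed⟩ := hcop
  refine ⟨e, ?_⟩
  have hw' : ((p : ℤ) ^ k) • w = 0 := by
    have : ((p ^ k : ℕ) : ℤ) • w = 0 := by rw [natCast_zsmul]; exact hw
    rwa [Nat.cast_pow] at this
  calc e • (c • w) = (e * c + d * (p : ℤ) ^ k) • w := by
        rw [add_smul, mul_smul, mul_smul, hw', smul_zero, add_zero]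
    _ = w := by rw [hed, one_smul]

/-- Two `p`-primary integer multiples of one element `w`, with coprime coefficients, are
comparable. -/
lemma cycabs_comparable_aux {X : Type*} [AddCommGroup X] (p : ℕ) [hp : Fact p.Prime] (w : X)
    (a' b' : ℤ) (hcop : Int.gcd a' b' = 1)
    (hx : IsPTors p (a' • w)) (hy : IsPTors p (b' • w)) :
    (∃ n : ℤ, n • (a' • w) = b' • w) ∨ (∃ n : ℤ, n • (b' • w) = a' • w) := by
  obtain ⟨kx, hkx⟩ := hx
  obtain ⟨ky, hky⟩ := hy
  have hcop' : IsCoprime a' b' := Int.isCoprime_iff_gcd_eq_one.2 hcop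
  obtain ⟨s, t, hst⟩ := hcop'
  have hw : (p ^ (kx + ky)) • w = 0 := by
    have h1 : w = s • (a' • w) + t • (b' • w) := by
      rw [← mul_smul, ← mul_smul, ← add_smul, hst, one_smul]
    have h2 : (p ^ (kx + ky)) • (a' • w) = 0 := by
      rw [pow_add, mul_comm, mul_smul, hkx, smul_zero]
    have h3 : (p ^ (kx + ky)) • (b' • w) = 0 := by
      rw [pow_add, mul_smul, hky, smul_zero]
    rw [h1, smul_add, smul_comm _ s, smul_comm _ t, h2, h3, smul_zero, smul_zero, add_zero]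
  by_cases hpa : (p : ℤ) ∣ a'
  · have hpb : ¬ (p : ℤ) ∣ b' := by
      intro hpb
      have h1 : (p : ℤ) ∣ (Int.gcd a' b' : ℤ) := Int.dvd_coe_gcd hpa hpb
      rw [hcop] at h1
      have h2 : (p : ℤ) ∣ 1 := by exact_mod_cast h1
      have h3 := Int.natAbs_dvd_natAbs.2 h2
      simp only [Int.natAbs_natCast, Int.natAbs_one, Nat.dvd_one] at h3
      exact hp.out.one_lt.ne' h3
    obtain ⟨e, he⟩ := cycabs_unit_smul p (kx + ky) w hw b' hpb
    refine Or.inr ⟨a' * e, ?_⟩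
    rw [mul_smul, he]
  · obtain ⟨e, he⟩ := cycabs_unit_smul p (kx + ky) w hw a' hpa
    refine Or.inl ⟨b' * e, ?_⟩
    rw [mul_smul, he]

/-- Two `p`-primary integer multiples of one element `u` are comparable. -/
theorem cycabs_comparable {X : Type*} [AddCommGroup X] (p : ℕ) [hp : Fact p.Prime] (u x y : X)
    (hx : IsPTors p x) (hy : IsPTors p y) (hxu : ∃ a : ℤ, a • u = x) (hyu : ∃ b : ℤ, b • u = y) :
    (∃ n : ℤ, n • x = y) ∨ (∃ n : ℤ, n • y = x) := by
  obtain ⟨a, rfl⟩ := hxu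
  obtain ⟨b, rfl⟩ := hyu
  by_cases h0 : Int.gcd a b = 0
  · have ha : a = 0 := (Int.gcd_eq_zero_iff.1 h0).1
    have hb : b = 0 := (Int.gcd_eq_zero_iff.1 h0).2
    subst ha hb
    exact Or.inl ⟨0, by simp⟩
  obtain ⟨a', b', hcop, ha, hb⟩ := Int.exists_gcd_one (Nat.pos_of_ne_zero h0)
  obtain ⟨g, hg⟩ : ∃ g : ℤ, g = (Int.gcd a b : ℤ) := ⟨_, rfl⟩
  rw [← hg] at ha hb
  clear hg h0
  subst ha hb
  have hxw : (a' * g) • u = a' • (g • u) := mul_smul _ _ _
  have hyw : (b' * g) • u = b' • (g • u) := mul_smul _ _ _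
  rw [hxw] at hx
  rw [hyw] at hy
  rw [hxw, hyw]
  exact cycabs_comparable_aux p _ a' b' hcop hx hy

/-- Bezout step: if `p^k • z = 0` and `idx • (z - n • u) = 0` with `idx` prime to `p`, then `z`
is a multiple of `u`. -/
lemma cycabs_bezout {X : Type*} [AddCommGroup X] (p : ℕ) [hp : Fact p.Prime] (k idx : ℕ)
    (hndvd : ¬ p ∣ idx) (z u : X) (n : ℤ) (hk : (p ^ k) • z = 0)
    (hidx : idx • (z - n • u) = 0) : ∃ a : ℤ, a • u = z := by
  have hcop : IsCoprime ((p : ℤ) ^ k) (idx : ℤ) := by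
    apply IsCoprime.pow_left
    rw [Nat.isCoprime_iff_coprime]
    exact (Nat.Prime.coprime_iff_not_dvd hp.out).2 hndvd
  obtain ⟨s, t, hst⟩ := hcop
  have hk' : ((p : ℤ) ^ k) • z = 0 := by
    have : ((p ^ k : ℕ) : ℤ) • z = 0 := by rw [natCast_zsmul]; exact hk
    rwa [Nat.cast_pow] at this
  have hidx' : (idx : ℤ) • z = (idx : ℤ) • (n • u) := by
    have : (idx : ℤ) • (z - n • u) = 0 := by rw [natCast_zsmul]; exact hidx
    rw [smul_sub, sub_eq_zero] at this
    exact this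
  refine ⟨t * (idx : ℤ) * n, ?_⟩
  calc (t * (idx : ℤ) * n) • u
      = t • ((idx : ℤ) • (n • u)) := by rw [mul_smul, mul_smul]
    _ = t • ((idx : ℤ) • z) := by rw [hidx']
    _ = (s * (p : ℤ) ^ k + t * (idx : ℤ)) • z := by
        rw [add_smul, mul_smul, mul_smul, hk', smul_zero, zero_add]
    _ = z := by rw [hst, one_smul]

/-- Every `p`-primary class of `H²(G, C)` is an integer multiple of a `p`-fundamental class. -/
theorem cycabs_mem_zmultiples (p : ℕ) [hp : Fact p.Prime] (G : Type) [Group G] [Finite G]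
    (C : Rep.{0} ℤ G) (u : H2 C) (hu : IsPFundClass p C u) (z : H2 C) (hz : IsPTors p z) :
    ∃ a : ℤ, a • u = z := by
  classical
  obtain ⟨P⟩ : Nonempty (Sylow p G) := inferInstance
  obtain ⟨n, hn⟩ := hu.h2_gen (P : Subgroup G) P.isPGroup' ((resSub C (P : Subgroup G) 2).hom z)
  have hres : (resSub C (P : Subgroup G) 2).hom (z - n • u) = 0 := by
    rw [map_sub, map_zsmul, hn, sub_self]
  have hidx : (P : Subgroup G).index • (z - n • u) = 0 :=
    SylowRes.index_smul_eq_zero_of_res_eq_zero (P : Subgroup G) 1 C (z - n • u) hres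
  obtain ⟨k, hk⟩ := hz
  exact cycabs_bezout p k (P : Subgroup G).index P.not_dvd_index z u n hk hidx

/-- **gb-cycabs**: a `p`-fundamental class makes the `p`-primary part of `H²(G, C)` cyclic. -/
theorem stmtPCyclicOfFund : StmtPCyclicOfFund := by
  intro p _ G _ _ C u hu x y hx hy
  exact cycabs_comparable p u x y hx hy
    (cycabs_mem_zmultiples p G C u hu x hx) (cycabs_mem_zmultiples p G C u hu y hy)

end Fermat.Agent.PT.G3


end ZBPT_066_8
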