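/- GENERATED FILE (helper35, build-time optimisation, NOTES/ZB.md): verbatim concatenation of the modules
   Fermat.Agent.PT.G1.LocalHQ
   Do not edit; do not import together with these modules. -/
import Fermat.Agent.ZB.PT_006
import Fermat.Agent.ZB.PT_004

/-! ### bundled: `Fermat.Agent.PT.G1.LocalHQ` -/
section ZBPT_068_0

/-!
# PT-G1, piece J-loc: the Herbrand quotient of the multiplicative group of a local field

Let `τ` be an automorphism of prime order `p` of a field `F'`, finite over a base field `K₀`, and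
`F` the fixed field of `τ`.  Then `F'/F` is cyclic of degree `p` with group `⟨τ⟩`, and for the
`ℤ`-module `Additive F'ˣ` with `σ = τ`:  `ker (σ - 1) = Fˣ`, `im (1 + σ + ⋯ + σ^(p-1))` = norms,
and `ker N = im (σ - 1)` by Hilbert 90.  Hence the Herbrand quotient is the norm index
`[Fˣ : N F'ˣ]`, which is `p` for local fields (PT-L, `StmtNormIndex`).

* `Fermat.Agent.PT.G1.localHQ_of_index` : the abstract statement (any base field);
* `Fermat.Agent.PT.G1.stmtLocalHQ_of : PT.L.StmtNormIndex → StmtLocalHQ`.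
-/

set_option autoImplicit false

namespace Fermat.Agent.PT.G1

open IntermediateField

/-- Products over a finite cyclic group are products over the powers of a generator. -/
theorem lhq_prod_eq {G M : Type*} [Group G] [Fintype G] [CommMonoid M] (g : G)
    (hg : ∀ x, x ∈ Subgroup.zpowers g) (f : G → M) :
    ∏ x : G, f x = ∏ i ∈ Finset.range (Fintype.card G), f (g ^ i) := by
  classical
  have hord : orderOf g = Fintype.card G := by
    rw [orderOf_eq_card_of_forall_mem_zpowers hg, Nat.card_eq_fintype_card]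
  rw [← hord]
  have himg : (Finset.univ : Finset G) =
      Finset.image (fun i => g ^ i) (Finset.range (orderOf g)) := by
    ext x
    simp only [Finset.mem_univ, true_iff]
    exact mem_zpowers_iff_mem_range_orderOf.mp (hg x)
  rw [himg, Finset.prod_image]
  intro i hi j hj h
  exact pow_injOn_Iio_orderOf (by simpa using hi) (by simpa using hj) h

section

variable {K₀ F' : Type} [Field K₀] [Field F'] [Algebra K₀ F']

/-- The coordinate of an element of `Additive F'ˣ`. -/
def lhqVal (u : Additive F'ˣ) : F' := ((Additive.toMul u : F'ˣ) : F')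

theorem lhqVal_injective : Function.Injective (lhqVal : Additive F'ˣ → F') := by
  intro u v h
  have : (Additive.toMul u : F'ˣ) = Additive.toMul v := Units.ext h
  exact this

theorem lhqVal_ne_zero (u : Additive F'ˣ) : lhqVal u ≠ 0 := Units.ne_zero _

@[simp] theorem lhqVal_zero : lhqVal (0 : Additive F'ˣ) = 1 := rfl

@[simp] theorem lhqVal_add (u v : Additive F'ˣ) : lhqVal (u + v) = lhqVal u * lhqVal v := rfl

@[simp] theorem lhqVal_neg (u : Additive F'ˣ) : lhqVal (-u) = (lhqVal u)⁻¹ := by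
  show ((((Additive.toMul u : F'ˣ))⁻¹ : F'ˣ) : F') = _
  rw [Units.val_inv_eq_inv_val]
  rfl

@[simp] theorem lhqVal_sub (u v : Additive F'ˣ) : lhqVal (u - v) = lhqVal u / lhqVal v := by
  rw [sub_eq_add_neg, lhqVal_add, lhqVal_neg, div_eq_mul_inv]

theorem lhqVal_sum {ι : Type*} (s : Finset ι) (f : ι → Additive F'ˣ) :
    lhqVal (∑ i ∈ s, f i) = ∏ i ∈ s, lhqVal (f i) := by
  classical
  induction s using Finset.induction_on with
  | empty => simp
  | insert a t ha ih => rw [Finset.sum_insert ha, Finset.prod_insert ha, lhqVal_add, ih]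

theorem lhqVal_ofMul (u : F'ˣ) : lhqVal (Additive.ofMul u) = (u : F') := rfl

theorem lhqVal_unitsEnd (f : F' →* F') (u : Additive F'ˣ) :
    lhqVal (unitsEnd f u) = f (lhqVal u) := rfl

theorem lhqVal_unitsEnd_pow (τ : F' ≃ₐ[K₀] F') (n : ℕ) (u : Additive F'ˣ) :
    lhqVal ((unitsEnd (τ : F' →* F') ^ n) u) = (τ ^ n) (lhqVal u) := by
  induction n generalizing u with
  | zero => simp
  | succ n ih =>
    rw [pow_succ, Module.End.mul_apply, ih, lhqVal_unitsEnd, pow_succ]
    rfl

theorem lhqVal_nEnd (τ : F' ≃ₐ[K₀] F') (n : ℕ) (u : Additive F'ˣ) :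
    lhqVal (nEnd (unitsEnd (τ : F' →* F')) n u) =
      ∏ i ∈ Finset.range n, (τ ^ i) (lhqVal u) := by
  unfold nEnd
  rw [LinearMap.sum_apply, lhqVal_sum]
  refine Finset.prod_congr rfl fun i _ => ?_
  exact lhqVal_unitsEnd_pow τ i u

theorem lhqVal_sub_one (τ : F' ≃ₐ[K₀] F') (u : Additive F'ˣ) :
    lhqVal ((unitsEnd (τ : F' →* F') - 1) u) = τ (lhqVal u) / lhqVal u := by
  rw [LinearMap.sub_apply, lhqVal_sub, lhqVal_unitsEnd]
  rfl

theorem lhq_unitsEnd_pow_orderOf (τ : F' ≃ₐ[K₀] F') :
    unitsEnd (τ : F' →* F') ^ orderOf τ = 1 := by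
  refine LinearMap.ext fun u => lhqVal_injective ?_
  rw [lhqVal_unitsEnd_pow, pow_orderOf_eq_one]
  rfl

variable [FiniteDimensional K₀ F']

/-- `F'` is Galois over the fixed field of any subgroup of `Aut(F'/K₀)`. -/
theorem lhq_isGalois_fixedField (H : Subgroup (F' ≃ₐ[K₀] F')) :
    IsGalois (IntermediateField.fixedField H) F' := by
  apply IsGalois.of_card_aut_eq_finrank
  rw [IntermediateField.finrank_fixedField_eq_card H,
    ← Nat.card_congr (IntermediateField.fixingSubgroupEquiv
      (IntermediateField.fixedField H)).toEquiv,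
    IntermediateField.fixingSubgroup_fixedField H]

/-- The generator `τ` as an automorphism over its fixed field. -/
noncomputable def lhqGen (τ : F' ≃ₐ[K₀] F') :
    F' ≃ₐ[IntermediateField.fixedField (Subgroup.zpowers τ)] F' :=
  IntermediateField.subgroupEquivAlgEquiv (Subgroup.zpowers τ) ⟨τ, Subgroup.mem_zpowers τ⟩

theorem lhqGen_apply (τ : F' ≃ₐ[K₀] F') (x : F') : lhqGen τ x = τ x := rfl

theorem lhqGen_pow_apply (τ : F' ≃ₐ[K₀] F') (n : ℕ) (x : F') : (lhqGen τ ^ n) x = (τ ^ n) x := by
  induction n generalizing x with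
  | zero => rfl
  | succ n ih =>
    rw [pow_succ, pow_succ, AlgEquiv.mul_apply, AlgEquiv.mul_apply, ih, lhqGen_apply]

theorem lhqGen_mem_zpowers (τ : F' ≃ₐ[K₀] F')
    (x : F' ≃ₐ[IntermediateField.fixedField (Subgroup.zpowers τ)] F') :
    x ∈ Subgroup.zpowers (lhqGen τ) := by
  obtain ⟨⟨h, hh⟩, rfl⟩ :=
    (IntermediateField.subgroupEquivAlgEquiv (Subgroup.zpowers τ)).surjective x
  obtain ⟨k, rfl⟩ := Subgroup.mem_zpowers_iff.mp hh
  refine Subgroup.mem_zpowers_iff.mpr ⟨k, ?_⟩
  unfold lhqGen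
  rw [← map_zpow]
  rfl

theorem lhq_finrank (τ : F' ≃ₐ[K₀] F') :
    Module.finrank (IntermediateField.fixedField (Subgroup.zpowers τ)) F' = orderOf τ := by
  rw [IntermediateField.finrank_fixedField_eq_card, Nat.card_zpowers]

theorem lhq_card_aut (τ : F' ≃ₐ[K₀] F') :
    Nat.card (F' ≃ₐ[IntermediateField.fixedField (Subgroup.zpowers τ)] F') = orderOf τ := by
  rw [← Nat.card_congr (IntermediateField.subgroupEquivAlgEquiv (Subgroup.zpowers τ)).toEquiv,
    Nat.card_zpowers]

/-- The norm to the fixed field is the product of the conjugates. -/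
theorem lhq_norm_eq (τ : F' ≃ₐ[K₀] F') (x : F') :
    algebraMap (IntermediateField.fixedField (Subgroup.zpowers τ)) F'
      (Algebra.norm (IntermediateField.fixedField (Subgroup.zpowers τ)) x) =
      ∏ i ∈ Finset.range (orderOf τ), (τ ^ i) x := by
  have := lhq_isGalois_fixedField (Subgroup.zpowers τ)
  rw [Algebra.norm_eq_prod_automorphisms, lhq_prod_eq (lhqGen τ) (lhqGen_mem_zpowers τ),
    ← Nat.card_eq_fintype_card, lhq_card_aut]
  refine Finset.prod_congr rfl fun i _ => ?_
  exact lhqGen_pow_apply τ i x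

omit [FiniteDimensional K₀ F'] in
theorem lhq_mem_fixedField_iff (τ : F' ≃ₐ[K₀] F') (x : F') :
    x ∈ IntermediateField.fixedField (Subgroup.zpowers τ) ↔ τ x = x := by
  rw [IntermediateField.mem_fixedField_iff]
  constructor
  · intro h
    exact h τ (Subgroup.mem_zpowers τ)
  · intro h f hf
    have hstab : τ ∈ MulAction.stabilizer (F' ≃ₐ[K₀] F') x := by
      rw [MulAction.mem_stabilizer_iff]
      exact h
    have := (Subgroup.zpowers_le.mpr hstab) hf
    rw [MulAction.mem_stabilizer_iff] at this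
    exact this

/-- **J-loc, abstract form.**  If the norm index of `F'` over the fixed field of `τ` is `p`, the
Herbrand quotient of `(F'ˣ, τ)` is `p`. -/
theorem localHQ_of_index (p : ℕ) [Fact p.Prime] (τ : F' ≃ₐ[K₀] F') (hτ : orderOf τ = p)
    (hidx : (PT.L.normSubgroup (IntermediateField.fixedField (Subgroup.zpowers τ)) F').index = p) :
    HasHQc (unitsEnd (τ : F' →* F')) p p := by
  have hp : p.Prime := Fact.out
  have hgal := lhq_isGalois_fixedField (Subgroup.zpowers τ)
  set F := IntermediateField.fixedField (Subgroup.zpowers τ) with hF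
  set σ := unitsEnd (τ : F' →* F') with hσ
  -- the inclusion `Fˣ → F'ˣ`, additively
  let φ : Additive Fˣ →+ Additive F'ˣ :=
    MonoidHom.toAdditive (Units.map (algebraMap F F' : F →* F'))
  have hφval : ∀ x : Additive Fˣ, lhqVal (φ x) = algebraMap F F' ((Additive.toMul x : Fˣ) : F) :=
    fun _ => rfl
  -- `range φ = ker (σ - 1)`
  have hrange : φ.range = (σ - 1 : Module.End ℤ (Additive F'ˣ)).toAddMonoidHom.ker := by
    ext u
    rw [AddMonoidHom.mem_ker, AddMonoidHom.mem_range]
    constructor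
    · rintro ⟨x, rfl⟩
      apply lhqVal_injective
      show lhqVal ((σ - 1) (φ x)) = lhqVal 0
      rw [lhqVal_sub_one, lhqVal_zero, hφval]
      have hx : algebraMap F F' ((Additive.toMul x : Fˣ) : F) ∈ F := ((Additive.toMul x : Fˣ) : F).2
      rw [(lhq_mem_fixedField_iff τ _).mp hx]
      exact div_self (by rw [← hφval]; exact lhqVal_ne_zero _)
    · intro h
      have h1 : lhqVal ((σ - 1) u) = 1 := by
        have : (σ - 1) u = 0 := h
        rw [this, lhqVal_zero]
      rw [lhqVal_sub_one, div_eq_one_iff_eq (lhqVal_ne_zero u)] at h1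
      have hmem : lhqVal u ∈ F := (lhq_mem_fixedField_iff τ _).mpr h1
      have hne : (⟨lhqVal u, hmem⟩ : F) ≠ 0 := by
        intro h0
        exact lhqVal_ne_zero u (congrArg Subtype.val h0)
      refine ⟨Additive.ofMul (Units.mk0 ⟨lhqVal u, hmem⟩ hne), ?_⟩
      apply lhqVal_injective
      rw [hφval]
      rfl
  -- `comap φ (range N) = norms`
  have hcomap : (nEnd σ p : Module.End ℤ (Additive F'ˣ)).toAddMonoidHom.range.comap φ =
      Subgroup.toAddSubgroup (PT.L.normSubgroup F F') := by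
    ext x
    rw [AddSubgroup.mem_comap, AddMonoidHom.mem_range]
    constructor
    · rintro ⟨u, hu⟩
      have h1 : lhqVal (nEnd σ p u) = lhqVal (φ x) := congrArg lhqVal hu
      rw [lhqVal_nEnd, hφval, ← hτ, ← lhq_norm_eq] at h1
      have h2 := (algebraMap F F').injective h1
      show Additive.toMul x ∈ PT.L.normSubgroup F F'
      exact ⟨Additive.toMul u, Units.ext h2⟩
    · rintro ⟨u, hu⟩
      refine ⟨Additive.ofMul u, ?_⟩
      apply lhqVal_injective
      show lhqVal (nEnd σ p (Additive.ofMul u)) = lhqVal (φ x)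
      rw [lhqVal_nEnd, hφval, ← hτ, ← lhq_norm_eq]
      congr 1
      have := congrArg (fun w : Fˣ => (w : F)) hu
      exact this
  -- Hilbert 90: `ker N ≤ range (σ - 1)`
  have hcyc : IsCyclic (F' ≃ₐ[F] F') := ⟨⟨lhqGen τ, lhqGen_mem_zpowers τ⟩⟩
  have h90 : (nEnd σ p : Module.End ℤ (Additive F'ˣ)).toAddMonoidHom.ker ≤
      (σ - 1 : Module.End ℤ (Additive F'ˣ)).toAddMonoidHom.range := by
    intro u hu
    have h1 : lhqVal (nEnd σ p u) = 1 := by
      have : nEnd σ p u = 0 := hu
      rw [this, lhqVal_zero]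
    rw [lhqVal_nEnd, ← hτ, ← lhq_norm_eq] at h1
    have h2 : Algebra.norm F (lhqVal u) = 1 := by
      apply (algebraMap F F').injective
      rw [h1, map_one]
    obtain ⟨y, hy⟩ := groupCohomology.exists_div_of_norm_eq_one (K := F) (L := F')
      (g := lhqGen τ) (lhqGen_mem_zpowers τ) h2
    refine ⟨Additive.ofMul y⁻¹, ?_⟩
    apply lhqVal_injective
    show lhqVal ((σ - 1) (Additive.ofMul y⁻¹)) = lhqVal u
    rw [lhqVal_sub_one, lhqVal_ofMul, ← hy, lhqGen_apply, Units.val_inv_eq_inv_val, map_inv₀]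
    have hy0 : (y : F') ≠ 0 := Units.ne_zero y
    have hτy0 : τ (y : F') ≠ 0 := by
      rw [Ne, map_eq_zero]
      exact hy0
    field_simp
  -- the two numbers
  have hA : hqCard (σ - 1) (nEnd σ p) = p := by
    show (nEnd σ p : Module.End ℤ (Additive F'ˣ)).toAddMonoidHom.range.relIndex
      (σ - 1 : Module.End ℤ (Additive F'ˣ)).toAddMonoidHom.ker = p
    rw [← hrange, ← AddSubgroup.index_comap, hcomap, Subgroup.index_toAddSubgroup, hidx]
  have hB : hqCard (nEnd σ p) (σ - 1) = 1 := by
    show (σ - 1 : Module.End ℤ (Additive F'ˣ)).toAddMonoidHom.range.relIndex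
      (nEnd σ p : Module.End ℤ (Additive F'ˣ)).toAddMonoidHom.ker = 1
    rw [AddSubgroup.relIndex_eq_one]
    exact h90
  refine ⟨?_, ?_, ?_, ?_⟩
  · rw [← hτ]
    exact lhq_unitsEnd_pow_orderOf τ
  · rw [hA]
    exact hp.ne_zero
  · rw [hB]
    exact one_ne_zero
  · rw [hA, hB]
    simp

end

/-- **J-loc.** -/
theorem stmtLocalHQ_of (hN : PT.L.StmtNormIndex) : StmtLocalHQ := by
  intro q _ p _ F' _ _ _ τ hτ
  refine localHQ_of_index p τ hτ ?_
  have hgal := lhq_isGalois_fixedField (Subgroup.zpowers τ)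
  have hcyc : IsCyclic (F' ≃ₐ[IntermediateField.fixedField (Subgroup.zpowers τ)] F') :=
    ⟨⟨lhqGen τ, lhqGen_mem_zpowers τ⟩⟩
  rw [hN q (IntermediateField.fixedField (Subgroup.zpowers τ)) F' hcyc, lhq_finrank, hτ]

end Fermat.Agent.PT.G1


end ZBPT_068_0
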