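/- GENERATED FILE (helper35, build-time optimisation, NOTES/ZB.md): verbatim concatenation of the modules
   Fermat.Agent.PT.G1.PrimeCount
   Fermat.Agent.PT.G1.PrimeSplit
   Fermat.Agent.PT.G.FirstInequality
   Do not edit; do not import together with these modules. -/
import Fermat.Agent.ZB.PT_006
import Fermat.Agent.ZB.PT_007
import Fermat.Agent.ZB.PT_060
import Fermat.Agent.ZB.PT_061
import Fermat.Agent.ZB.PT_059
import Fermat.Agent.ZB.PT_062
import Fermat.Agent.ZB.PT_063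
import Fermat.Agent.ZB.PT_064
import Fermat.Agent.ZB.PT_067
import Fermat.Agent.ZB.PT_066
import Fermat.Agent.ZB.PT_068

/-! ### bundled: `Fermat.Agent.PT.G1.PrimeCount` -/
section ZBPT_065_0

/-!
# PT-G1, piece U-cnt: counting the primes above `N` in a cyclic extension of prime degree

`stmtPrimeCount : StmtPrimeCount`: for `L/K` cyclic of prime degree `p` with generator `σ`,
`#{P ∣ N} + (p - 1) · #{P ∣ N, σ P ⊆ P} = p · #{𝔭 ∣ N}`.

Over each prime `𝔭` of `K` there are `1` or `p` primes of `L` (fundamental identity in the Galois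
case); in the first case the prime is `σ`-stable, in the second case none is (transitivity).
-/

set_option autoImplicit false

namespace Fermat.Agent.PT.G1

open NumberField Ideal

open scoped Pointwise

/-- The primes above `N ≠ 0` form a finite set. -/
theorem pc_primesAbove_finite (L : Type*) [Field L] [NumberField L] {N : ℕ} (hN : N ≠ 0) :
    (primesAbove N L).Finite := by
  refine (finite_minimalPrimes_of_isNoetherianRing (𝓞 L) (Ideal.span {(N : 𝓞 L)})).subset ?_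
  rintro P ⟨hP, hNP⟩
  have hN0 : (N : 𝓞 L) ≠ 0 := by exact_mod_cast hN
  refine ⟨⟨hP, (Ideal.span_singleton_le_iff_mem P).mpr hNP⟩, ?_⟩
  rintro Q ⟨hQ, hNQ⟩ hQP
  have hQ0 : Q ≠ ⊥ := by
    rintro rfl
    exact hN0 ((Ideal.mem_bot).mp ((Ideal.span_singleton_le_iff_mem _).mp hNQ))
  have hQmax : Q.IsMaximal := hQ.isMaximal hQ0
  exact (hQmax.eq_of_le hP.ne_top hQP).ge

theorem pc_fixedPrimesAbove_subset (N : ℕ) {L : Type*} [Field L] (σ : L ≃+* L) :
    fixedPrimesAbove N σ ⊆ primesAbove N L := fun _ hP => ⟨hP.1, hP.2.1⟩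

section Galois

variable {K L : Type} [Field K] [Field L] [Algebra K L]

/-- The map `P ↦ P ∩ 𝓞 K` sends primes above `N` to primes above `N`. -/
theorem pc_under_mem {N : ℕ} {P : Ideal (𝓞 L)} (hP : P ∈ primesAbove N L) :
    P.under (𝓞 K) ∈ primesAbove N K := by
  obtain ⟨hP1, hP2⟩ := hP
  refine ⟨hP1.under (𝓞 K), ?_⟩
  rw [Ideal.under, Ideal.mem_comap, map_natCast]
  exact hP2

theorem pc_mem_of_under {N : ℕ} {𝔭 : Ideal (𝓞 K)} (h𝔭 : 𝔭 ∈ primesAbove N K) {P : Ideal (𝓞 L)}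
    (hP : P.IsPrime) (hu : P.under (𝓞 K) = 𝔭) : P ∈ primesAbove N L := by
  refine ⟨hP, ?_⟩
  have : (N : 𝓞 K) ∈ P.under (𝓞 K) := hu ▸ h𝔭.2
  rw [Ideal.under, Ideal.mem_comap, map_natCast] at this
  exact this

/-- The fibre of `P ↦ P ∩ 𝓞 K` over `𝔭 ∣ N` is the set of primes over `𝔭`. -/
theorem pc_fibre_eq {N : ℕ} {𝔭 : Ideal (𝓞 K)} (h𝔭 : 𝔭 ∈ primesAbove N K) :
    {P | P ∈ primesAbove N L ∧ P.under (𝓞 K) = 𝔭} = 𝔭.primesOver (𝓞 L) := by
  ext P
  constructor
  · rintro ⟨hP, hu⟩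
    exact ⟨hP.1, ⟨hu.symm⟩⟩
  · rintro ⟨hP, hu⟩
    exact ⟨pc_mem_of_under h𝔭 hP hu.over.symm, hu.over.symm⟩

/-- The ideal `σ⁻¹(P)`. -/
theorem pc_comap_mem (σ : L ≃ₐ[K] L) {𝔭 : Ideal (𝓞 K)} {P : Ideal (𝓞 L)}
    (hP : P ∈ 𝔭.primesOver (𝓞 L)) :
    Ideal.comap (RingOfIntegers.mapRingEquiv (σ : L ≃+* L)) P ∈ 𝔭.primesOver (𝓞 L) := by
  obtain ⟨hP1, hP2⟩ := hP
  refine ⟨Ideal.comap_isPrime _ P, ⟨?_⟩⟩
  rw [hP2.over]
  ext a
  simp only [Ideal.under, Ideal.mem_comap]
  have : RingOfIntegers.mapRingEquiv (σ : L ≃+* L) (algebraMap (𝓞 K) (𝓞 L) a) =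
      algebraMap (𝓞 K) (𝓞 L) a := by
    apply RingOfIntegers.ext
    show σ (algebraMap (𝓞 K) (𝓞 L) a : L) = _
    have h1 : ((algebraMap (𝓞 K) (𝓞 L) a : 𝓞 L) : L) = algebraMap K L (a : K) := rfl
    rw [h1, σ.commutes]
  rw [this]

/-- Pointwise action versus `mapRingEquiv`. -/
theorem pc_smul_eq (σ : L ≃ₐ[K] L) (x : 𝓞 L) :
    σ • x = RingOfIntegers.mapRingEquiv (σ : L ≃+* L) x := rfl

variable [NumberField K] [NumberField L]

omit [NumberField K] in
/-- If `σ P ⊆ P` for a prime `P ∣ N` then `σ • P = P`. -/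
theorem pc_smul_eq_self (σ : L ≃ₐ[K] L) {N : ℕ} (hN : N ≠ 0) {P : Ideal (𝓞 L)}
    (hP : P ∈ fixedPrimesAbove N (σ : L ≃+* L)) : σ • P = P := by
  obtain ⟨hP1, hP2, hP3⟩ := hP
  have hN0 : (N : 𝓞 L) ≠ 0 := by exact_mod_cast hN
  have hP0 : P ≠ ⊥ := by
    rintro rfl
    exact hN0 (Ideal.mem_bot.mp hP2)
  have hPmax : P.IsMaximal := hP1.isMaximal hP0
  have hle : P ≤ Ideal.comap (RingOfIntegers.mapRingEquiv (σ : L ≃+* L)) P := fun x hx => hP3 x hx
  have hQ : (Ideal.comap (RingOfIntegers.mapRingEquiv (σ : L ≃+* L)) P).IsPrime :=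
    Ideal.comap_isPrime _ P
  have heq := hPmax.eq_of_le hQ.ne_top hle
  ext x
  rw [Ideal.mem_pointwise_smul_iff_inv_smul_mem]
  constructor
  · intro hx
    have := hP3 _ hx
    rwa [← pc_smul_eq, smul_inv_smul] at this
  · intro hx
    have h2 : σ⁻¹ • x ∈ Ideal.comap (RingOfIntegers.mapRingEquiv (σ : L ≃+* L)) P := by
      rw [Ideal.mem_comap, ← pc_smul_eq, smul_inv_smul]
      exact hx
    rwa [← heq] at h2

variable [IsGalois K L]

/-- The key local count. -/
theorem pc_local_count {p : ℕ} [Fact p.Prime] (σ : L ≃ₐ[K] L) (hdeg : Module.finrank K L = p)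
    (hσ : ∀ τ : L ≃ₐ[K] L, τ ∈ Subgroup.zpowers σ) {N : ℕ} (hN : N ≠ 0) {𝔭 : Ideal (𝓞 K)}
    (h𝔭 : 𝔭 ∈ primesAbove N K) :
    (𝔭.primesOver (𝓞 L)).ncard +
      (p - 1) * (fixedPrimesAbove N (σ : L ≃+* L) ∩ 𝔭.primesOver (𝓞 L)).ncard = p := by
  classical
  have hp : p.Prime := Fact.out
  haveI : 𝔭.IsPrime := h𝔭.1
  have hfin : (𝔭.primesOver (𝓞 L)).Finite := by
    rw [← pc_fibre_eq h𝔭]
    exact (pc_primesAbove_finite L hN).subset fun P hP => hP.1
  have hid := Ideal.ncard_primesOver_mul_ramificationIdxIn_mul_inertiaDegIn 𝔭 (𝓞 L) (L ≃ₐ[K] L)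
  rw [IsGalois.card_aut_eq_finrank K L, hdeg] at hid
  have hdvd : (𝔭.primesOver (𝓞 L)).ncard ∣ p := ⟨_, hid.symm⟩
  rcases hp.eq_one_or_self_of_dvd _ hdvd with h1 | h1
  · -- one prime: it is stable
    obtain ⟨P₀, hP₀⟩ := Set.ncard_eq_one.mp h1
    have hP₀mem : P₀ ∈ 𝔭.primesOver (𝓞 L) := by rw [hP₀]; exact Set.mem_singleton _
    have hfix : P₀ ∈ fixedPrimesAbove N (σ : L ≃+* L) := by
      have hmem := pc_comap_mem σ hP₀mem
      rw [hP₀, Set.mem_singleton_iff] at hmem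
      have hPA : P₀ ∈ primesAbove N L := by
        have : P₀ ∈ {P | P ∈ primesAbove N L ∧ P.under (𝓞 K) = 𝔭} := by
          rw [pc_fibre_eq h𝔭]; exact hP₀mem
        exact this.1
      refine ⟨hPA.1, hPA.2, fun x hx => ?_⟩
      have : x ∈ Ideal.comap (RingOfIntegers.mapRingEquiv (σ : L ≃+* L)) P₀ := by
        rw [hmem]; exact hx
      exact this
    have hinter : fixedPrimesAbove N (σ : L ≃+* L) ∩ 𝔭.primesOver (𝓞 L) = {P₀} := by
      rw [hP₀]
      ext P
      simp only [Set.mem_inter_iff, Set.mem_singleton_iff]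
      constructor
      · rintro ⟨-, h⟩; exact h
      · rintro rfl; exact ⟨hfix, rfl⟩
    rw [h1, hinter, Set.ncard_singleton, mul_one]
    have := hp.one_lt
    omega
  · -- `p` primes: none is stable
    have hinter : fixedPrimesAbove N (σ : L ≃+* L) ∩ 𝔭.primesOver (𝓞 L) = ∅ := by
      rw [Set.eq_empty_iff_forall_notMem]
      rintro P ⟨hPfix, hPover⟩
      have hstab : σ • P = P := pc_smul_eq_self σ hN hPfix
      have hall : ∀ τ : L ≃ₐ[K] L, τ • P = P := by
        intro τ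
        have hle : Subgroup.zpowers σ ≤ MulAction.stabilizer (L ≃ₐ[K] L) P :=
          Subgroup.zpowers_le.mpr (MulAction.mem_stabilizer_iff.mpr hstab)
        exact MulAction.mem_stabilizer_iff.mp (hle (hσ τ))
      have hsub : 𝔭.primesOver (𝓞 L) ⊆ {P} := by
        rintro Q ⟨hQ1, hQ2⟩
        haveI := hPover.1
        haveI := hPover.2
        haveI := hQ1
        haveI := hQ2
        obtain ⟨τ, hτ⟩ := Ideal.exists_smul_eq_of_isGaloisGroup 𝔭 P Q (L ≃ₐ[K] L)
        rw [hall τ] at hτ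
        exact hτ.symm
      have hle : (𝔭.primesOver (𝓞 L)).ncard ≤ 1 := by
        have := Set.ncard_le_ncard hsub (Set.finite_singleton P)
        rwa [Set.ncard_singleton] at this
      have := hp.one_lt
      omega
    rw [h1, hinter, Set.ncard_empty, mul_zero, add_zero]

theorem stmtPrimeCount : StmtPrimeCount := by
  intro p _ K L _ _ _ _ _ _ σ hdeg hσ N hN
  classical
  have hfL := pc_primesAbove_finite L hN
  have hfK := pc_primesAbove_finite K hN
  have hfF : (fixedPrimesAbove N (σ : L ≃+* L)).Finite :=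
    hfL.subset (pc_fixedPrimesAbove_subset N _)
  rw [Set.ncard_eq_toFinset_card _ hfL, Set.ncard_eq_toFinset_card _ hfK,
    Set.ncard_eq_toFinset_card _ hfF]
  have h1 : hfL.toFinset.card =
      ∑ 𝔭 ∈ hfK.toFinset, (hfL.toFinset.filter (fun P => P.under (𝓞 K) = 𝔭)).card :=
    Finset.card_eq_sum_card_fiberwise (fun P hP => by
      rw [Finset.mem_coe, Set.Finite.mem_toFinset] at hP ⊢
      exact pc_under_mem hP)
  have h2 : hfF.toFinset.card =
      ∑ 𝔭 ∈ hfK.toFinset, (hfF.toFinset.filter (fun P => P.under (𝓞 K) = 𝔭)).card :=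
    Finset.card_eq_sum_card_fiberwise (fun P hP => by
      rw [Finset.mem_coe, Set.Finite.mem_toFinset] at hP ⊢
      exact pc_under_mem (pc_fixedPrimesAbove_subset N _ hP))
  rw [h1, h2, Finset.mul_sum, ← Finset.sum_add_distrib]
  have hterm : ∀ 𝔭 ∈ hfK.toFinset,
      (hfL.toFinset.filter (fun P => P.under (𝓞 K) = 𝔭)).card +
        (p - 1) * (hfF.toFinset.filter (fun P => P.under (𝓞 K) = 𝔭)).card = p := by
    intro 𝔭 h𝔭
    rw [Set.Finite.mem_toFinset] at h𝔭
    have e1 : (hfL.toFinset.filter (fun P => P.under (𝓞 K) = 𝔭)).card =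
        (𝔭.primesOver (𝓞 L)).ncard := by
      rw [← Set.ncard_coe_finset, ← pc_fibre_eq h𝔭]
      congr 1
      ext P
      simp
    have e2 : (hfF.toFinset.filter (fun P => P.under (𝓞 K) = 𝔭)).card =
        (fixedPrimesAbove N (σ : L ≃+* L) ∩ 𝔭.primesOver (𝓞 L)).ncard := by
      rw [← Set.ncard_coe_finset]
      congr 1
      ext P
      simp only [Finset.coe_filter, Set.Finite.mem_toFinset, Set.mem_ofPred_eq, Set.mem_inter_iff]
      constructor
      · rintro ⟨hP, hu⟩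
        refine ⟨hP, ?_⟩
        have : P ∈ {P | P ∈ primesAbove N L ∧ P.under (𝓞 K) = 𝔭} :=
          ⟨pc_fixedPrimesAbove_subset N _ hP, hu⟩
        rwa [pc_fibre_eq h𝔭] at this
      · rintro ⟨hP, hu⟩
        exact ⟨hP, hu.2.over.symm⟩
    rw [e1, e2]
    exact pc_local_count σ hdeg hσ hN h𝔭
  rw [Finset.sum_congr rfl hterm, Finset.sum_const, smul_eq_mul, mul_comm]

end Galois

end Fermat.Agent.PT.G1


end ZBPT_065_0

/-! ### bundled: `Fermat.Agent.PT.G1.PrimeSplit` -/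
section ZBPT_065_1

/-!
# PT-G1, piece U-split: stable primes dividing a squarefree `N`

The `σ`-stable primes of `𝓞 L` dividing `N = ∏_{q ∈ S} q` are the `σ`-stable primes over the
`q ∈ S`, and a prime lies over only one `q`.
-/

set_option autoImplicit false

namespace Fermat.Agent.PT.G1

open NumberField

section

variable {L : Type*} [Field L] (σ : L ≃+* L)

theorem psplit_mem_mul_iff (a b : ℕ) (P : Ideal (𝓞 L)) :
    P ∈ fixedPrimesAbove (a * b) σ ↔ P ∈ fixedPrimesAbove a σ ∨ P ∈ fixedPrimesAbove b σ := by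
  constructor
  · rintro ⟨hP, hab, hσ⟩
    rw [Nat.cast_mul] at hab
    rcases hP.mem_or_mem hab with h | h
    · exact Or.inl ⟨hP, h, hσ⟩
    · exact Or.inr ⟨hP, h, hσ⟩
  · rintro (⟨hP, ha, hσ⟩ | ⟨hP, hb, hσ⟩)
    · refine ⟨hP, ?_, hσ⟩
      rw [Nat.cast_mul]
      exact P.mul_mem_right _ ha
    · refine ⟨hP, ?_, hσ⟩
      rw [Nat.cast_mul]
      exact P.mul_mem_left _ hb

theorem psplit_mul_eq (a b : ℕ) :
    fixedPrimesAbove (a * b) σ = fixedPrimesAbove a σ ∪ fixedPrimesAbove b σ := by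
  ext P
  rw [Set.mem_union]
  exact psplit_mem_mul_iff σ a b P

theorem psplit_disjoint {a b : ℕ} (hab : Nat.Coprime a b) :
    Disjoint (fixedPrimesAbove a σ) (fixedPrimesAbove b σ) := by
  rw [Set.disjoint_left]
  rintro P ⟨hP, ha, -⟩ ⟨-, hb, -⟩
  apply hP.ne_top
  rw [Ideal.eq_top_iff_one]
  have h1 : ((a : ℤ).gcd (b : ℤ) : ℤ) = 1 := by
    rw [Int.gcd_natCast_natCast]
    exact_mod_cast hab
  have h2 := Int.gcd_eq_gcd_ab (a : ℤ) (b : ℤ)
  rw [h1] at h2
  have h3 : (1 : 𝓞 L) = (a : 𝓞 L) * ((Int.gcdA a b : ℤ) : 𝓞 L) +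
      (b : 𝓞 L) * ((Int.gcdB a b : ℤ) : 𝓞 L) := by
    have := congrArg (fun z : ℤ => (z : 𝓞 L)) h2
    simpa using this
  rw [h3]
  exact P.add_mem (P.mul_mem_right _ ha) (P.mul_mem_right _ hb)

theorem psplit_one : fixedPrimesAbove 1 σ = ∅ := by
  ext P
  simp only [Set.mem_empty_iff_false, iff_false]
  rintro ⟨hP, h1, -⟩
  apply hP.ne_top
  rw [Ideal.eq_top_iff_one]
  simpa using h1

end

/-- **U-split.** -/
theorem stmtPrimeSplit : StmtPrimeSplit := by
  classical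
  intro L _ _ σ S
  induction S using Finset.induction_on with
  | empty =>
    simp only [Finset.prod_empty, Finset.sum_empty]
    rw [psplit_one]
    exact Set.ncard_empty _
  | insert q S hq ih =>
    rw [Finset.prod_insert hq, Finset.sum_insert hq, psplit_mul_eq, ← ih]
    have hcop : Nat.Coprime (q : ℕ) (∏ x ∈ S, (x : ℕ)) := by
      apply Nat.Coprime.prod_right
      intro x hx
      rw [Nat.coprime_primes q.2 x.2]
      intro h
      exact hq (by rwa [Subtype.ext h])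
    have hfin1 : (fixedPrimesAbove (q : ℕ) σ).Finite :=
      (pc_primesAbove_finite L q.2.ne_zero).subset (pc_fixedPrimesAbove_subset _ σ)
    have hfin2 : (fixedPrimesAbove (∏ x ∈ S, (x : ℕ)) σ).Finite := by
      refine (pc_primesAbove_finite L ?_).subset (pc_fixedPrimesAbove_subset _ σ)
      exact Finset.prod_ne_zero_iff.mpr fun x _ => x.2.ne_zero
    exact Set.ncard_union_eq (psplit_disjoint σ hcop) hfin1 hfin2

end Fermat.Agent.PT.G1


end ZBPT_065_1

/-! ### bundled: `Fermat.Agent.PT.G.FirstInequality` -/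
section ZBPT_065_2
/-
Project PT — the FIRST INEQUALITY for the class module `C_S(L)`: assembly of the PT-G1 pieces.
Remaining inputs: `StmtMaxSpecCount` (T-cnt) and `StmtCSExact` (CS-exact).
-/

set_option autoImplicit false

namespace Fermat.Agent.PT.G

open Fermat.Agent.PT.G1

/-- the rank formula, unconditional -/
theorem g1_rank : StmtRank := stmtRank_of stmtHexagon stmtFinite

/-- `h(E_{L,S}) = p ^ (f - 1)`, unconditional -/
theorem g1_unitsHQ : StmtUnitsHQ :=
  stmtUnitsHQ_of g1_rank stmtUnitRank stmtUnitFixed stmtInfCount stmtPrimeCount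

/-- `h(F'ˣ) = p` for local fields, unconditional -/
theorem g1_localHQ : StmtLocalHQ := stmtLocalHQ_of Fermat.Agent.PT.L.normIndex

/-- `h((ℚ_q ⊗ L)ˣ) = p ^ f_T`, unconditional -/
theorem g1_tensorHQ : StmtTensorHQ := stmtTensorHQ_of stmtOrbit g1_localHQ

/-- the four-term lemma, unconditional -/
theorem g1_fourTerm : StmtFourTerm := stmtFourTerm_of stmtHexagon stmtFinite

/-- `h(J_L) = p ^ f` from T-cnt -/
theorem g1_jMain_of (hM : StmtMaxSpecCount) : StmtJMain :=
  stmtJMain_of stmtHexagon g1_tensorHQ hM stmtPrimeSplit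

/-- C-main from T-cnt -/
theorem g1_classHQ_of (hM : StmtMaxSpecCount) : StmtClassHQ :=
  stmtClassHQ_of g1_fourTerm g1_unitsHQ (g1_jMain_of hM)

/-- **The first inequality** for `C_S(L)` from T-cnt and CS-exact. -/
theorem firstInequality_of (hM : StmtMaxSpecCount) (hE : StmtCSExact) : StmtCSHQ :=
  stmtCSHQ_of (g1_classHQ_of hM) hE

end Fermat.Agent.PT.G


end ZBPT_065_2
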