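/- GENERATED FILE (helper35, build-time optimisation, NOTES/ZB.md): verbatim concatenation of the modules
   Fermat.Agent.PT.L.PowCardVal
   Fermat.Agent.PT.L.PowCardW
   Fermat.Agent.PT.G2.LocalPow
   Do not edit; do not import together with these modules. -/
import Mathlib
import Fermat.Agent.ZB.PT_004
import Fermat.Agent.ZB.PT_008
import Fermat.Agent.ZB.PT_069

/-! ### bundled: `Fermat.Agent.PT.L.PowCardVal` -/
section ZBPT_013_0
/-
PT-L / L7 (helper74): abstract calculus for an integer-valued valuation `w : F → ℤ` on a field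
(value at `0` irrelevant), and extraction of `n`-th roots by successive approximation.

* `L7Val w`   : `w 1 = 0`, `w (x y) = w x + w y`, ultrametric inequality (for nonzero arguments).
* `l7Ge w k x`: `x = 0 ∨ k ≤ w x`  ("`x ∈ {w ≥ k}`"), with the usual closure properties.
* `l7_exists_root` : if `w` is complete, `e = w n`, `m ≥ e + 1`, `m ≥ 1` and `u ≡ 1 mod {w ≥ m + e}`
  then `u = y ^ n` with `y ≡ 1 mod {w ≥ m}`.
-/

set_option autoImplicit false
set_option linter.unusedSectionVars false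

namespace Fermat.Agent.PT.L

variable {F : Type*} [Field F]

/-- Abstract valuation data (only nonzero arguments matter). -/
structure L7Val (w : F → ℤ) : Prop where
  map_one : w 1 = 0
  map_mul : ∀ x y : F, x ≠ 0 → y ≠ 0 → w (x * y) = w x + w y
  map_add : ∀ x y : F, x ≠ 0 → y ≠ 0 → x + y ≠ 0 → min (w x) (w y) ≤ w (x + y)

/-- `x ∈ {w ≥ k}`. -/
def l7Ge (w : F → ℤ) (k : ℤ) (x : F) : Prop := x = 0 ∨ k ≤ w x

/-- Completeness: sequences with `s (k+1) ≡ s k mod {w ≥ k}` converge. -/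
def L7Complete (w : F → ℤ) : Prop :=
  ∀ s : ℕ → F, (∀ k : ℕ, l7Ge w (k : ℤ) (s (k + 1) - s k)) →
    ∃ y : F, ∀ k : ℕ, l7Ge w (k : ℤ) (y - s k)

namespace L7Val

variable {w : F → ℤ} (hw : L7Val w)
include hw

lemma neg_one : w (-1) = 0 := by
  have h := hw.map_mul (-1) (-1) (by simp) (by simp)
  rw [neg_mul_neg, one_mul, hw.map_one] at h
  omega

lemma map_neg (x : F) : w (-x) = w x := by
  rcases eq_or_ne x 0 with rfl | hx
  · simp
  · have h := hw.map_mul (-1) x (by simp) hx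
    rw [neg_one_mul, hw.neg_one, zero_add] at h
    exact h

lemma map_inv (x : F) (hx : x ≠ 0) : w x⁻¹ = - w x := by
  have h := hw.map_mul x x⁻¹ hx (inv_ne_zero hx)
  rw [mul_inv_cancel₀ hx, hw.map_one] at h
  omega

lemma map_pow (x : F) (hx : x ≠ 0) (n : ℕ) : w (x ^ n) = n * w x := by
  induction n with
  | zero => simp [hw.map_one]
  | succ n ih =>
    rw [pow_succ, hw.map_mul _ _ (pow_ne_zero n hx) hx, ih]
    push_cast
    ring

lemma ge_zero (k : ℤ) : l7Ge w k (0 : F) := Or.inl rfl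

lemma ge_mono {k k' : ℤ} {x : F} (h : l7Ge w k x) (hk : k' ≤ k) : l7Ge w k' x := by
  rcases h with h | h
  · exact Or.inl h
  · exact Or.inr (hk.trans h)

lemma ge_add {k : ℤ} {x y : F} (hx : l7Ge w k x) (hy : l7Ge w k y) : l7Ge w k (x + y) := by
  rcases eq_or_ne x 0 with rfl | hx0
  · simpa using hy
  rcases eq_or_ne y 0 with rfl | hy0
  · simpa using hx
  rcases eq_or_ne (x + y) 0 with h | h
  · exact Or.inl h
  rcases hx with hx | hx
  · exact absurd hx hx0
  rcases hy with hy | hy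
  · exact absurd hy hy0
  exact Or.inr ((le_min hx hy).trans (hw.map_add x y hx0 hy0 h))

lemma ge_neg {k : ℤ} {x : F} (hx : l7Ge w k x) : l7Ge w k (-x) := by
  rcases hx with hx | hx
  · exact Or.inl (by simp [hx])
  · exact Or.inr (by rw [hw.map_neg]; exact hx)

lemma ge_sub {k : ℤ} {x y : F} (hx : l7Ge w k x) (hy : l7Ge w k y) : l7Ge w k (x - y) := by
  rw [sub_eq_add_neg]
  exact hw.ge_add hx (hw.ge_neg hy)

lemma ge_mul {a b : ℤ} {x y : F} (hx : l7Ge w a x) (hy : l7Ge w b y) :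
    l7Ge w (a + b) (x * y) := by
  rcases eq_or_ne x 0 with rfl | hx0
  · exact Or.inl (by simp)
  rcases eq_or_ne y 0 with rfl | hy0
  · exact Or.inl (by simp)
  rcases hx with hx | hx
  · exact absurd hx hx0
  rcases hy with hy | hy
  · exact absurd hy hy0
  exact Or.inr (by rw [hw.map_mul x y hx0 hy0]; omega)

lemma ge_one : l7Ge w 0 (1 : F) := Or.inr (by rw [hw.map_one])

lemma ge_mul_int {k : ℤ} {x y : F} (hx : l7Ge w 0 x) (hy : l7Ge w k y) : l7Ge w k (x * y) := by
  have := hw.ge_mul hx hy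
  rwa [zero_add] at this

lemma ge_mul_int' {k : ℤ} {x y : F} (hx : l7Ge w k x) (hy : l7Ge w 0 y) : l7Ge w k (x * y) := by
  have := hw.ge_mul hx hy
  rwa [add_zero] at this

lemma ge_pow {a : ℤ} {x : F} (hx : l7Ge w a x) (n : ℕ) : l7Ge w (n * a) (x ^ n) := by
  induction n with
  | zero => simpa using hw.ge_one
  | succ n ih =>
    rw [pow_succ]
    have := hw.ge_mul ih hx
    convert this using 1
    push_cast
    ring

lemma ge_pow_int {x : F} (hx : l7Ge w 0 x) (n : ℕ) : l7Ge w 0 (x ^ n) := by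
  have := hw.ge_pow hx n
  simpa using this

lemma ge_natCast (n : ℕ) : l7Ge w 0 (n : F) := by
  induction n with
  | zero => simpa using hw.ge_zero 0
  | succ n ih =>
    push_cast
    exact hw.ge_add ih hw.ge_one

lemma ge_sum {ι : Type*} (s : Finset ι) (f : ι → F) (k : ℤ) (h : ∀ i ∈ s, l7Ge w k (f i)) :
    l7Ge w k (∑ i ∈ s, f i) := by
  classical
  induction s using Finset.induction_on with
  | empty => simpa using hw.ge_zero k
  | insert a s ha ih =>
    rw [Finset.sum_insert ha]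
    exact hw.ge_add (h a (Finset.mem_insert_self a s))
      (ih fun i hi => h i (Finset.mem_insert_of_mem hi))

/-- An element `≡ 1 mod {w ≥ 1}` is a unit of valuation `0`. -/
lemma unit_of_ge {x : F} {k : ℤ} (hk : 1 ≤ k) (hx : l7Ge w k (x - 1)) : x ≠ 0 ∧ w x = 0 := by
  have hx0 : x ≠ 0 := by
    rintro rfl
    rcases hx with hx | hx
    · simp at hx
    · rw [zero_sub, hw.neg_one] at hx
      omega
  refine ⟨hx0, ?_⟩
  rcases eq_or_ne (x - 1) 0 with h | h
  · rw [sub_eq_zero] at h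
    rw [h, hw.map_one]
  rcases hx with hx | hx
  · exact absurd hx h
  have h1 : min (w 1) (w (x - 1)) ≤ w (1 + (x - 1)) :=
    hw.map_add 1 (x - 1) one_ne_zero h (by simpa using hx0)
  have h2 : min (w x) (w (-(x - 1))) ≤ w (x + -(x - 1)) :=
    hw.map_add x (-(x - 1)) hx0 (neg_ne_zero.mpr h) (by simp)
  rw [hw.map_one, add_sub_cancel] at h1
  rw [hw.map_neg, show x + -(x - 1) = 1 by ring, hw.map_one] at h2
  rcases le_total (w x) (w (x - 1)) with h3 | h3
  · rw [min_eq_left h3] at h2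
    have : 0 ≤ w x := by
      rcases le_total 0 (w (x - 1)) with h4 | h4
      · rw [min_eq_left h4] at h1; exact h1
      · omega
    omega
  · rw [min_eq_right h3] at h2
    omega

lemma ge_zero_of_ge {x : F} {k : ℤ} (hk : 1 ≤ k) (hx : l7Ge w k (x - 1)) : l7Ge w 0 x :=
  Or.inr (by rw [(hw.unit_of_ge hk hx).2])

lemma ge_inv_of_unit {x : F} (hx0 : x ≠ 0) (hx : w x = 0) : l7Ge w 0 x⁻¹ :=
  Or.inr (by rw [hw.map_inv x hx0, hx]; simp)

/-- Separatedness. -/
lemma eq_zero_of_forall_ge {x : F} (h : ∀ k : ℕ, l7Ge w (k : ℤ) x) : x = 0 := by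
  by_contra hx
  rcases h (w x + 1).toNat with h1 | h1
  · exact hx h1
  · have := Int.self_le_toNat (w x + 1)
    omega

end L7Val

/-! ### Extraction of `n`-th roots -/

/-- `(1 + t) ^ n = 1 + n t + t² G_n(t)`. -/
def l7G (t : F) : ℕ → F
  | 0 => 0
  | n + 1 => n + (1 + t) * l7G t n

lemma l7_one_add_pow (t : F) (n : ℕ) : (1 + t) ^ n = 1 + n * t + t ^ 2 * l7G t n := by
  induction n with
  | zero => simp [l7G]
  | succ n ih =>
    rw [pow_succ, ih, l7G]
    push_cast
    ring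

lemma l7G_ge {w : F → ℤ} (hw : L7Val w) {t : F} (ht : l7Ge w 0 t) (n : ℕ) :
    l7Ge w 0 (l7G t n) := by
  induction n with
  | zero => exact hw.ge_zero 0
  | succ n ih =>
    rw [l7G]
    exact hw.ge_add (hw.ge_natCast n) (hw.ge_mul_int (hw.ge_add hw.ge_one ht) ih)

/-- The Newton sequence for `y ^ n = u` starting at `1`. -/
noncomputable def l7Seq (n : ℕ) (u : F) : ℕ → F
  | 0 => 1
  | k + 1 => l7Seq n u k * (1 + (u - l7Seq n u k ^ n) / (n * l7Seq n u k ^ n))

lemma l7Seq_step {w : F → ℤ} (hw : L7Val w) {n : ℕ} (hn : (n : F) ≠ 0) {e m : ℤ}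
    (he : w (n : F) = e) (hm : e + 1 ≤ m) (hm1 : 1 ≤ m) {u Y : F} (k : ℕ)
    (hY : l7Ge w m (Y - 1)) (hu : l7Ge w (m + e + k) (u - Y ^ n)) :
    l7Ge w (m + k) ((u - Y ^ n) / (n * Y ^ n)) ∧
    l7Ge w m (Y * (1 + (u - Y ^ n) / (n * Y ^ n)) - 1) ∧
    l7Ge w (m + e + (k + 1 : ℕ)) (u - (Y * (1 + (u - Y ^ n) / (n * Y ^ n))) ^ n) := by
  obtain ⟨hY0, hYw⟩ := hw.unit_of_ge hm1 hY
  have hYn0 : Y ^ n ≠ 0 := pow_ne_zero n hY0
  have hYnw : w (Y ^ n) = 0 := by rw [hw.map_pow Y hY0, hYw, mul_zero]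
  have hYint : l7Ge w 0 Y := Or.inr (by rw [hYw])
  have hYnint : l7Ge w 0 (Y ^ n) := Or.inr (by rw [hYnw])
  set t : F := (u - Y ^ n) / (n * Y ^ n) with ht
  have htge : l7Ge w (m + k) t := by
    have h1 : l7Ge w (-e) ((n : F)⁻¹) := Or.inr (by rw [hw.map_inv _ hn, he])
    have h2 : l7Ge w 0 ((Y ^ n)⁻¹) := hw.ge_inv_of_unit hYn0 hYnw
    have h3 : t = (u - Y ^ n) * ((n : F)⁻¹ * (Y ^ n)⁻¹) := by
      rw [ht, div_eq_mul_inv, mul_inv]
    rw [h3]
    have h4 := hw.ge_mul hu (hw.ge_mul h1 h2)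
    exact hw.ge_mono h4 (by omega)
  have htint : l7Ge w 0 t := hw.ge_mono htge (by omega)
  refine ⟨htge, ?_, ?_⟩
  · have h1 : Y * (1 + t) - 1 = (Y - 1) + Y * t := by ring
    rw [h1]
    exact hw.ge_add hY (hw.ge_mono (hw.ge_mul_int hYint htge) (by omega))
  · have h1 : u - (Y * (1 + t)) ^ n = -(Y ^ n * (t ^ 2 * l7G t n)) := by
      rw [mul_pow, l7_one_add_pow]
      have h2 : Y ^ n * ((n : F) * t) = u - Y ^ n := by
        rw [ht]
        field_simp
      linear_combination -h2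
    rw [h1]
    apply hw.ge_neg
    have h3 : l7Ge w (2 * (m + k)) (t ^ 2) := by
      have := hw.ge_pow htge 2
      simpa using this
    have h4 := hw.ge_mul_int hYnint (hw.ge_mul_int' h3 (l7G_ge hw htint n))
    exact hw.ge_mono h4 (by push_cast; omega)

lemma l7Seq_inv {w : F → ℤ} (hw : L7Val w) {n : ℕ} (hn : (n : F) ≠ 0) {e m : ℤ}
    (he : w (n : F) = e) (hm : e + 1 ≤ m) (hm1 : 1 ≤ m) {u : F}
    (hu : l7Ge w (m + e) (u - 1)) (k : ℕ) :
    l7Ge w m (l7Seq n u k - 1) ∧ l7Ge w (m + e + k) (u - l7Seq n u k ^ n) := by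
  induction k with
  | zero =>
    refine ⟨by simpa [l7Seq] using hw.ge_zero m, ?_⟩
    simpa [l7Seq] using hu
  | succ k ih =>
    obtain ⟨-, h2, h3⟩ := l7Seq_step hw hn he hm hm1 k ih.1 ih.2
    exact ⟨h2, h3⟩

/-- **Root extraction**: if `w` is complete, `e = w n`, `m ≥ max (e + 1) 1` and
`u ≡ 1 mod {w ≥ m + e}`, then `u = y ^ n` with `y ≡ 1 mod {w ≥ m}`. -/
theorem l7_exists_root {w : F → ℤ} (hw : L7Val w) (hc : L7Complete w) {n : ℕ}
    (hn : (n : F) ≠ 0) {e m : ℤ} (he : w (n : F) = e) (hm : e + 1 ≤ m) (hm1 : 1 ≤ m) {u : F}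
    (hu : l7Ge w (m + e) (u - 1)) : ∃ y : F, l7Ge w m (y - 1) ∧ y ^ n = u := by
  have he0 : 0 ≤ e := by
    rcases hw.ge_natCast (w := w) n with h | h
    · exact absurd h hn
    · rw [he] at h; exact h
  have hinv := l7Seq_inv hw hn he hm hm1 hu
  have hclose : ∀ k : ℕ, l7Ge w (k : ℤ) (l7Seq n u (k + 1) - l7Seq n u k) := by
    intro k
    obtain ⟨h1, -, -⟩ := l7Seq_step hw hn he hm hm1 k (hinv k).1 (hinv k).2
    have h2 : l7Seq n u (k + 1) - l7Seq n u k =
        l7Seq n u k * ((u - l7Seq n u k ^ n) / (n * l7Seq n u k ^ n)) := by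
      rw [l7Seq]; ring
    rw [h2]
    exact hw.ge_mono (hw.ge_mul_int (hw.ge_zero_of_ge hm1 (hinv k).1) h1) (by omega)
  obtain ⟨y, hy⟩ := hc (l7Seq n u) hclose
  have hym : l7Ge w m (y - 1) := by
    have h1 : y - 1 = (y - l7Seq n u m.toNat) + (l7Seq n u m.toNat - 1) := by ring
    rw [h1]
    refine hw.ge_add (hw.ge_mono (hy m.toNat) ?_) (hinv m.toNat).1
    rw [Int.toNat_of_nonneg (by omega)]
  refine ⟨y, hym, ?_⟩
  have hyint : l7Ge w 0 y := hw.ge_zero_of_ge hm1 hym
  have key : ∀ k : ℕ, l7Ge w (k : ℤ) (u - y ^ n) := by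
    intro k
    have h1 : u - y ^ n = (u - l7Seq n u k ^ n) +
        (∑ i ∈ Finset.range n, l7Seq n u k ^ i * y ^ (n - 1 - i)) * (l7Seq n u k - y) := by
      rw [Commute.geom_sum₂_mul (Commute.all _ _)]
      ring
    rw [h1]
    refine hw.ge_add (hw.ge_mono (hinv k).2 (by omega)) ?_
    refine hw.ge_mul_int ?_ ?_
    · refine hw.ge_sum _ _ 0 (fun i _ => ?_)
      exact hw.ge_mul_int (hw.ge_pow_int (hw.ge_zero_of_ge hm1 (hinv k).1) i)
        (hw.ge_pow_int hyint _)
    · have := hw.ge_neg (hy k)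
      rwa [neg_sub] at this
  have := L7Val.eq_zero_of_forall_ge hw key
  rw [sub_eq_zero] at this
  exact this.symm

end Fermat.Agent.PT.L


end ZBPT_013_0

/-! ### bundled: `Fermat.Agent.PT.L.PowCardW` -/
section ZBPT_013_1
/-
PT-L / L7 (helper74): the concrete valuation `wv q` of a local field satisfies the abstract
calculus of `PowCardVal.lean` (given the L0 statements `StmtWAdd`, `StmtWComplete`).
-/

set_option autoImplicit false
set_option linter.unusedSectionVars false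

namespace Fermat.Agent.PT.L

variable (q : ℕ) [Fact q.Prime] (F : Type) [Field F] [Algebra ℚ_[q] F]
  [FiniteDimensional ℚ_[q] F]

lemma l7_norm_ne_zero {x : F} (hx : x ≠ 0) : Algebra.norm ℚ_[q] x ≠ 0 :=
  Algebra.norm_ne_zero_iff.mpr hx

lemma l7_wv_one : wv q (1 : F) = 0 := by
  rw [wv, map_one, Padic.valuation_one]

lemma l7_wv_mul {x y : F} (hx : x ≠ 0) (hy : y ≠ 0) : wv q (x * y) = wv q x + wv q y := by
  rw [wv, wv, wv, map_mul, Padic.valuation_mul (l7_norm_ne_zero q F hx) (l7_norm_ne_zero q F hy)]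

/-- `wv q` satisfies the abstract valuation calculus. -/
lemma l7_val (hAdd : StmtWAdd) : L7Val (wv q (F := F)) where
  map_one := l7_wv_one q F
  map_mul _ _ hx hy := l7_wv_mul q F hx hy
  map_add x y hx hy hxy := hAdd q F x y hx hy hxy

lemma l7_ge_iff_close (k : ℤ) (x y : F) : l7Ge (wv q (F := F)) k (x - y) ↔ Close q k x y := by
  unfold l7Ge Close
  rw [sub_eq_zero]

lemma l7_complete (hC : StmtWComplete) : L7Complete (wv q (F := F)) := by
  intro s hs
  obtain ⟨y, hy⟩ := hC q F s (fun k => (l7_ge_iff_close q F _ _ _).mp (hs k))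
  exact ⟨y, fun k => (l7_ge_iff_close q F _ _ _).mpr (hy k)⟩

lemma l7_wv_algebraMap (a : ℚ_[q]) :
    wv q (algebraMap ℚ_[q] F a) = (Module.finrank ℚ_[q] F : ℤ) * Padic.valuation a := by
  rw [wv, Algebra.norm_algebraMap, Padic.valuation_pow]

include q in
lemma l7_natCast_ne_zero (n : ℕ) (hn : n ≠ 0) : (n : F) ≠ 0 := by
  have h : (n : F) = algebraMap ℚ_[q] F (n : ℚ_[q]) := by simp
  rw [h]
  exact (map_ne_zero_iff _ (algebraMap ℚ_[q] F).injective).mpr (Nat.cast_ne_zero.mpr hn)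

lemma l7_wv_natCast (n : ℕ) :
    wv q ((n : F)) = (Module.finrank ℚ_[q] F : ℤ) * (padicValNat q n : ℤ) := by
  have h : (n : F) = algebraMap ℚ_[q] F (n : ℚ_[q]) := by simp
  rw [h, l7_wv_algebraMap, Padic.valuation_natCast]

/-- `w(p) = [F : ℚ_q]` if `p = q` and `0` otherwise (`p` prime). -/
lemma l7_wv_prime (p : ℕ) [hp : Fact p.Prime] :
    wv q ((p : F)) = if q = p then (Module.finrank ℚ_[q] F : ℤ) else 0 := by
  rw [l7_wv_natCast]
  split_ifs with h
  · subst h
    rw [padicValNat_self]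
    simp
  · have : padicValNat q p = 0 := by
      apply padicValNat.eq_zero_of_not_dvd
      intro hdvd
      exact h ((Nat.prime_dvd_prime_iff_eq (Fact.out : q.Prime) hp.out).mp hdvd)
    rw [this]
    simp

/-- Multiplication by a `q`-adic integer does not decrease `w`. -/
lemma l7_ge_smul (hAdd : StmtWAdd) (a : ℚ_[q]) (ha : ‖a‖ ≤ 1) (k : ℤ) (x : F)
    (hx : l7Ge (wv q (F := F)) k x) : l7Ge (wv q (F := F)) k (a • x) := by
  rw [Algebra.smul_def]
  refine (l7_val q F hAdd).ge_mul_int ?_ hx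
  rcases eq_or_ne a 0 with rfl | ha0
  · exact Or.inl (by simp)
  · right
    rw [l7_wv_algebraMap]
    have h1 : 0 ≤ Padic.valuation a := by
      have h2 := Padic.norm_eq_zpow_neg_valuation ha0
      rw [h2] at ha
      by_contra hneg
      rw [not_le] at hneg
      have h3 : (1 : ℝ) < (q : ℝ) ^ (-Padic.valuation a) := by
        apply one_lt_zpow₀
        · exact_mod_cast (Fact.out : q.Prime).one_lt
        · omega
      linarith
    positivity

end Fermat.Agent.PT.L


end ZBPT_013_1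

/-! ### bundled: `Fermat.Agent.PT.G2.LocalPow` -/
section ZBPT_013_2
/-
PT-G2 piece G2I-P (helper26): local `d`-th powers in the tensor model (`stmtLocalPow`):
the elements of `(ℚ_q ⊗ K)ˣ` which are `≡ 1 mod q^n R_q`, `n = 2 v_q(d) + 1`, are `d`-th powers.

Route: `A = ℚ_q ⊗ K` is a reduced artinian ring, `A ≃ ∏_𝔪 A/𝔪` (`IsArtinianRing.equivPi`); in each
local field `A/𝔪` the root exists by PT-L (`l7_exists_root`, successive approximation).
-/

set_option autoImplicit false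
set_option linter.unusedSectionVars false
set_option linter.style.haveILetI false

namespace Fermat.Agent.PT.G2

open NumberField TensorProduct Polynomial
open Fermat.Agent.PT.G1 Fermat.Agent.PT.L

section Local

variable (q : ℕ) [Fact q.Prime] {K : Type} [Field K] [NumberField K]
  {F : Type} [Field F] [Algebra ℚ_[q] F] [FiniteDimensional ℚ_[q] F]
  (π : semiAlg q K →ₐ[ℚ_[q]] F)

/-- The image of `R_q` in a local field consists of integral elements. -/
theorem lp_isInt_of_mem_semiInt {r : semiAlg q K} (hr : r ∈ semiInt q K) :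
    l7Ge (wv q (F := F)) 0 (π r) := by
  show IsInt q (π r)
  rw [stmtWInt q F]
  induction hr using AddSubgroup.closure_induction with
  | mem x hx =>
    obtain ⟨z, y, rfl⟩ := hx
    have h1 : π ((z : ℚ_[q]) ⊗ₜ[ℚ] (y : K)) =
        algebraMap ℚ_[q] F (z : ℚ_[q]) * π ((1 : ℚ_[q]) ⊗ₜ[ℚ] (y : K)) := by
      rw [← Algebra.smul_def, ← map_smul, TensorProduct.smul_tmul', smul_eq_mul, mul_one]
    rw [h1]
    refine RingHom.IsIntegralElem.mul _ ?_ ?_
    · exact RingHom.isIntegralElem_map (f := (algebraMap ℚ_[q] F).comp PadicInt.Coe.ringHom)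
        (x := z)
    · have hy : IsIntegral ℤ (π ((1 : ℚ_[q]) ⊗ₜ[ℚ] (y : K))) :=
        map_isIntegral_int π (map_isIntegral_int
          (Algebra.TensorProduct.includeRight : K →ₐ[ℚ] semiAlg q K)
          (RingOfIntegers.isIntegral_coe y))
      obtain ⟨P, hP, hPx⟩ := hy
      refine ⟨P.map (Int.castRingHom ℤ_[q]), hP.map _, ?_⟩
      rw [eval₂_map]
      have : ((algebraMap ℚ_[q] F).comp (PadicInt.Coe.ringHom (p := q))).comp
          (Int.castRingHom ℤ_[q]) = algebraMap ℤ F := RingHom.ext_int _ _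
      rw [this]
      exact hPx
  | zero =>
    rw [map_zero]
    exact RingHom.isIntegralElem_zero _
  | add x y _ _ hx hy =>
    rw [map_add]
    exact RingHom.IsIntegralElem.add _ hx hy
  | neg x _ hx =>
    rw [map_neg]
    exact RingHom.IsIntegralElem.neg _ hx

/-- Root extraction in a local field quotient of `ℚ_q ⊗ K`. -/
theorem lp_exists_root_local {d : ℕ} (hd : 0 < d) {j : semiAlg q K}
    (hj : SemiCong q K (2 * padicValNat q d + 1) j 1) : ∃ y : F, y ^ d = π j := by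
  have hw : L7Val (wv q (F := F)) := l7_val q F stmtWAdd
  have hc : L7Complete (wv q (F := F)) := l7_complete q F stmtWComplete
  obtain ⟨r, hr, hjr⟩ := hj
  have hf : 0 < Module.finrank ℚ_[q] F := Module.finrank_pos
  set f : ℤ := (Module.finrank ℚ_[q] F : ℤ) with hfdef
  set v : ℤ := (padicValNat q d : ℤ) with hvdef
  have hf1 : 1 ≤ f := by rw [hfdef]; exact_mod_cast hf
  have hv0 : 0 ≤ v := by rw [hvdef]; exact_mod_cast Nat.zero_le _
  have hdF : ((d : ℕ) : F) ≠ 0 := l7_natCast_ne_zero q F d hd.ne'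
  have he : wv q ((d : ℕ) : F) = f * v := by
    have h : ((d : ℕ) : F) = algebraMap ℚ_[q] F (d : ℚ_[q]) := by simp
    rw [h, l7_wv_algebraMap, Padic.valuation_natCast]
  have hqF : l7Ge (wv q (F := F)) f ((q : ℕ) : F) := by
    right
    have h : ((q : ℕ) : F) = algebraMap ℚ_[q] F (q : ℚ_[q]) := by simp
    rw [h, l0b_wv_q]
  have hu : l7Ge (wv q (F := F)) ((f * v + 1) + f * v) (π j - 1) := by
    have h1 : π j - 1 = ((q : ℕ) : F) ^ (2 * padicValNat q d + 1) * π r := by
      rw [← map_one π, ← map_sub, hjr, map_mul, map_pow, map_natCast]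
    rw [h1]
    have h2 := hw.ge_mul (hw.ge_pow hqF (2 * padicValNat q d + 1))
      (lp_isInt_of_mem_semiInt q π hr)
    refine hw.ge_mono h2 ?_
    have h3 : ((2 * padicValNat q d + 1 : ℕ) : ℤ) = 2 * v + 1 := by
      rw [hvdef, Nat.cast_add, Nat.cast_mul, Nat.cast_ofNat, Nat.cast_one]
    rw [h3]
    nlinarith
  obtain ⟨y, -, hy⟩ := l7_exists_root hw hc hdF he (le_refl _) (by nlinarith) hu
  exact ⟨y, hy⟩

end Local

/-- **G2I-P**: local `d`-th powers. -/
theorem stmtLocalPow : StmtLocalPow := by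
  intro d hd q _ K _ _
  refine ⟨2 * padicValNat q d + 1, fun j hj => ?_⟩
  haveI : IsArtinianRing (semiAlg q K) := mc_isArtinianRing q
  haveI : IsReduced (semiAlg q K) := mc_isReduced q
  have hloc : ∀ 𝔪 : MaximalSpectrum (semiAlg q K),
      ∃ y : semiAlg q K ⧸ 𝔪.asIdeal, y ^ d = Ideal.Quotient.mk 𝔪.asIdeal (j : semiAlg q K) := by
    intro 𝔪
    letI := Ideal.Quotient.field 𝔪.asIdeal
    exact lp_exists_root_local q (Ideal.Quotient.mkₐ ℚ_[q] 𝔪.asIdeal) hd hj
  choose y hy using hloc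
  set Y : semiAlg q K := (IsArtinianRing.equivPi (semiAlg q K)).symm y with hY
  have hYd : Y ^ d = (j : semiAlg q K) := by
    apply (IsArtinianRing.equivPi (semiAlg q K)).injective
    rw [map_pow, hY, AlgEquiv.apply_symm_apply]
    funext 𝔪
    rw [Pi.pow_apply, hy 𝔪, IsArtinianRing.equivPi_apply]
  have hunit : IsUnit Y := by
    have h1 : IsUnit (Y ^ d) := by rw [hYd]; exact j.isUnit
    exact (isUnit_pow_iff hd.ne').mp h1
  refine ⟨hunit.unit, ?_⟩
  apply Units.ext
  rw [Units.val_pow_eq_pow_val, IsUnit.unit_spec, hYd]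

end Fermat.Agent.PT.G2


end ZBPT_013_2
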