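/- GENERATED FILE (helper35, build-time optimisation, NOTES/ZB.md): verbatim concatenation of the modules
   Fermat.Agent.PT.L.PowCardLattice
   Fermat.Agent.PT.L.PowCard
   Fermat.Agent.TW.L.PowCardQp
   Fermat.Agent.TW.L.LKumFinal
   Do not edit; do not import together with these modules. -/
import Mathlib
import Fermat.Agent.ZB.PT_004
import Fermat.Agent.ZB.PT_002
import Fermat.Agent.ZB.PT_013
import Fermat.Agent.ZB.PT_014
import Fermat.Agent.ZB.PT_003
import Fermat.Agent.ZB.PT_012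

/-! ### bundled: `Fermat.Agent.PT.L.PowCardLattice` -/
section ZBPT_015_0
/-
PT-L / L7 (helper74): a `ℤ_p`-stable additive subgroup `Λ` of a `ℚ_p`-vector space of dimension `n`
has `|Λ / pΛ| ≤ p ^ n`.
-/

set_option autoImplicit false

namespace Fermat.Agent.PT.L

variable {p : ℕ} [hp : Fact p.Prime] {F : Type*} [AddCommGroup F] [Module ℚ_[p] F]
  [FiniteDimensional ℚ_[p] F]

/-- Reduction of a `p`-adic number of norm `≤ 1`: `b = r + p c` with `r ∈ {0, …, p-1}`, `‖c‖ ≤ 1`,
and `r ≡ 1` if `b = 1`. -/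
lemma l7_padic_reduce (b : ℚ_[p]) (hb : ‖b‖ ≤ 1) :
    ∃ (r : ZMod p) (c : ℚ_[p]), ‖c‖ ≤ 1 ∧ b = (r.val : ℚ_[p]) + p * c ∧ (b = 1 → r = 1) := by
  set bI : ℤ_[p] := ⟨b, hb⟩ with hbI
  have hspec := PadicInt.toZMod_spec bI
  rw [PadicInt.maximalIdeal_eq_span_p, Ideal.mem_span_singleton] at hspec
  obtain ⟨c, hc⟩ := hspec
  refine ⟨PadicInt.toZMod bI, (c : ℚ_[p]), c.2, ?_, ?_⟩
  · have h1 : ((bI - (ZMod.cast (PadicInt.toZMod bI) : ℤ_[p]) : ℤ_[p]) : ℚ_[p]) =
        ((p * c : ℤ_[p]) : ℚ_[p]) := congrArg _ hc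
    have h2 : ((ZMod.cast (PadicInt.toZMod bI) : ℤ_[p]) : ℚ_[p]) =
        ((PadicInt.toZMod bI).val : ℚ_[p]) := by
      rw [← ZMod.natCast_val]
      push_cast
      rfl
    push_cast at h1
    rw [h2] at h1
    have h3 : ((bI : ℤ_[p]) : ℚ_[p]) = b := rfl
    rw [h3] at h1
    linear_combination h1
  · intro h1
    have : bI = 1 := by
      apply Subtype.ext
      exact h1
    rw [this, map_one]

/-- A vector space over `𝔽_p` of rank `≤ n` has at most `p ^ n` elements. -/
lemma l7_card_le_of_rank_le (V : Type*) [AddCommGroup V] [Module (ZMod p) V] (n : ℕ)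
    (h : Module.rank (ZMod p) V ≤ (n : ℕ)) : Finite V ∧ Nat.card V ≤ p ^ n := by
  have hfin : Module.Finite (ZMod p) V :=
    Module.rank_lt_aleph0_iff.mp (lt_of_le_of_lt h (Cardinal.natCast_lt_aleph0))
  have : Finite V := Module.finite_of_finite (ZMod p)
  refine ⟨this, ?_⟩
  have : Fintype V := Fintype.ofFinite _
  rw [Nat.card_eq_fintype_card, Module.card_eq_pow_finrank (K := ZMod p), ZMod.card]
  exact Nat.pow_le_pow_right hp.out.pos (Module.finrank_le_of_rank_le h)

/-- **Lattice count**: `|Λ / pΛ| ≤ p ^ dim` for a `ℤ_p`-stable subgroup `Λ`. -/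
theorem l7_lattice_card (Λ : AddSubgroup F)
    (hΛ : ∀ a : ℚ_[p], ‖a‖ ≤ 1 → ∀ x ∈ Λ, a • x ∈ Λ) :
    Finite (Λ ⧸ (nsmulAddMonoidHom (α := Λ) p).range) ∧
      Nat.card (Λ ⧸ (nsmulAddMonoidHom (α := Λ) p).range) ≤ p ^ Module.finrank ℚ_[p] F := by
  classical
  set P : AddSubgroup Λ := (nsmulAddMonoidHom (α := Λ) p).range with hP
  have hkill : ∀ v : Λ ⧸ P, p • v = 0 := by
    intro v
    induction v using QuotientAddGroup.induction_on with
    | H x =>
      rw [← QuotientAddGroup.mk_nsmul, QuotientAddGroup.eq_zero_iff]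
      exact ⟨x, rfl⟩
  let _ : Module (ZMod p) (Λ ⧸ P) := AddCommGroup.zmodModule hkill
  have hsmul : ∀ (r : ZMod p) (v : Λ ⧸ P), r • v = r.val • v := by
    intro r v
    conv_lhs => rw [← ZMod.natCast_zmod_val r]
    exact Nat.cast_smul_eq_nsmul (ZMod p) r.val v
  have hrank : Module.rank (ZMod p) (Λ ⧸ P) ≤ (Module.finrank ℚ_[p] F : ℕ) := by
    apply rank_le
    intro s hs
    by_contra hlt
    rw [not_le] at hlt
    -- lifts
    let lift : (Λ ⧸ P) → Λ := Function.surjInv (QuotientAddGroup.mk_surjective (s := P))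
    have hlift : ∀ v, (QuotientAddGroup.mk (lift v) : Λ ⧸ P) = v :=
      Function.surjInv_eq (QuotientAddGroup.mk_surjective (s := P))
    let x : s → F := fun i => ((lift i.1 : Λ) : F)
    have hdep : ¬ LinearIndependent ℚ_[p] x := by
      intro hli
      have := hli.fintype_card_le_finrank
      rw [Fintype.card_coe] at this
      omega
    obtain ⟨g, hsum, i₀, hi₀⟩ := Fintype.not_linearIndependent_iff.mp hdep
    obtain ⟨j, -, hj⟩ := Finset.exists_max_image Finset.univ (fun i => ‖g i‖) ⟨i₀, Finset.mem_univ _⟩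
    have hgj : g j ≠ 0 := by
      intro h
      have h1 := hj i₀ (Finset.mem_univ _)
      rw [h, norm_zero] at h1
      exact hi₀ (norm_le_zero_iff.mp h1)
    have hb : ∀ i, ‖g i / g j‖ ≤ 1 := by
      intro i
      rw [norm_div]
      exact div_le_one_of_le₀ (hj i (Finset.mem_univ _)) (norm_nonneg _)
    have hsum' : ∑ i, (g i / g j) • x i = 0 := by
      have : ∑ i, (g i / g j) • x i = (g j)⁻¹ • ∑ i, g i • x i := by
        rw [Finset.smul_sum]
        refine Finset.sum_congr rfl (fun i _ => ?_)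
        rw [smul_smul, div_eq_inv_mul]
      rw [this, hsum, smul_zero]
    choose r c hc hbr hr1 using fun i => l7_padic_reduce (g i / g j) (hb i)
    -- the relation mod p
    have hrel : ∑ i, r i • (i : Λ ⧸ P) = 0 := by
      have h1 : ∀ i : s, r i • ((i : Λ ⧸ P)) =
          (QuotientAddGroup.mk ((r i).val • lift i.1) : Λ ⧸ P) := by
        intro i
        rw [hsmul, QuotientAddGroup.mk_nsmul, hlift]
      rw [Finset.sum_congr rfl (fun i _ => h1 i), ← QuotientAddGroup.mk_sum,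
        QuotientAddGroup.eq_zero_iff]
      -- the element `y = - ∑ c i • x i ∈ Λ`
      have hyΛ : (-∑ i, c i • x i) ∈ Λ := by
        apply Λ.neg_mem
        apply Λ.sum_mem
        intro i _
        exact hΛ (c i) (hc i) _ (lift i.1).2
      refine ⟨⟨_, hyΛ⟩, ?_⟩
      apply Subtype.ext
      simp only [nsmulAddMonoidHom_apply, AddSubgroup.coe_nsmul, AddSubgroup.val_finsetSum]
      have h2 : ∀ i : s, ((r i).val : ℚ_[p]) • x i = (g i / g j) • x i - (p : ℚ_[p]) • (c i • x i) := by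
        intro i
        rw [smul_smul, ← sub_smul]
        congr 1
        rw [hbr i]
        ring
      have h3 : ∀ i : s, (r i).val • x i = ((r i).val : ℚ_[p]) • x i := fun i =>
        (Nat.cast_smul_eq_nsmul ℚ_[p] _ _).symm
      have h4 : p • (-∑ i, c i • x i) = (p : ℚ_[p]) • (-∑ i, c i • x i) :=
        (Nat.cast_smul_eq_nsmul ℚ_[p] _ _).symm
      rw [h4, Finset.sum_congr rfl (fun i _ => (h3 i).trans (h2 i)), Finset.sum_sub_distrib,
        hsum', zero_sub, smul_neg, Finset.smul_sum]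
    have hzero := (Fintype.linearIndependent_iff.mp hs) r hrel j
    have hone : r j = 1 := hr1 j (div_self hgj)
    rw [hone] at hzero
    have : Fact (1 < p) := ⟨hp.out.one_lt⟩
    exact one_ne_zero hzero
  exact l7_card_le_of_rank_le (Λ ⧸ P) _ hrank

end Fermat.Agent.PT.L


end ZBPT_015_0

/-! ### bundled: `Fermat.Agent.PT.L.PowCard` -/
section ZBPT_015_1
/-
PT-L / L7a + L7c (helper74): the index of `p`-th powers in the multiplicative group of a local field.

Main results (UNCONDITIONAL; the L0 statements `stmtWAdd`, `stmtWComplete`, `stmtWFinite` are used):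
* `l7_pow_index_of` : `StmtWAdd → StmtWComplete → StmtWFinite →`
     `[Fˣ : Fˣᵖ] ≠ 0 ∧ [Fˣ : Fˣᵖ] ≤ p ^ (2 + if q = p then [F : ℚ_q] else 0)`;
* `l7_pow_index`    : the same without hypotheses (no root of unity is needed for the bound);
* `stmtPowFinite`   : `StmtPowFinite`   (L7a);
* `stmtPowCard`     : `StmtPowCard`     (L7c of `Plan2.lean`, the count requested by PT-X).
-/

set_option autoImplicit false
set_option linter.unusedSectionVars false

namespace Fermat.Agent.PT.L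

open Fermat.Agent.PT.X

variable (q : ℕ) [Fact q.Prime] (F : Type) [Field F] [Algebra ℚ_[q] F]
  [FiniteDimensional ℚ_[q] F]

/-- The valuation as a homomorphism `Fˣ → ℤ`. -/
noncomputable def l7wHom : Fˣ →* Multiplicative ℤ where
  toFun x := Multiplicative.ofAdd (wv q (x : F))
  map_one' := by simp [l7_wv_one]
  map_mul' x y := by
    rw [Units.val_mul, l7_wv_mul q F x.ne_zero y.ne_zero]
    rfl

/-- The units of the valuation ring. -/
noncomputable abbrev l7U : Subgroup Fˣ := (l7wHom q F).ker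

lemma l7_mem_U (x : Fˣ) : x ∈ l7U q F ↔ wv q (x : F) = 0 := by
  rw [MonoidHom.mem_ker]
  change Multiplicative.ofAdd (wv q (x : F)) = 1 ↔ _
  rw [← ofAdd_zero, Multiplicative.ofAdd.injective.eq_iff]

variable {q F}

lemma l7_U_int (_hw : L7Val (wv q (F := F))) (u : l7U q F) :
    l7Ge (wv q (F := F)) 0 ((u : Fˣ) : F) :=
  Or.inr (by rw [(l7_mem_U q F u).mp u.2])

lemma l7_U_inv_int (hw : L7Val (wv q (F := F))) (u : l7U q F) :
    l7Ge (wv q (F := F)) 0 (((u : Fˣ) : F)⁻¹) :=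
  hw.ge_inv_of_unit (u : Fˣ).ne_zero ((l7_mem_U q F u).mp u.2)

/-- The higher unit groups `U_m = {u : u ≡ 1 mod {w ≥ m}}` as subgroups of `U`. -/
def l7Um (hw : L7Val (wv q (F := F))) (m : ℤ) : Subgroup (l7U q F) where
  carrier := {u | l7Ge (wv q (F := F)) m (((u : Fˣ) : F) - 1)}
  one_mem' := by
    change l7Ge _ m (((1 : Fˣ) : F) - 1)
    simpa using hw.ge_zero m
  mul_mem' := by
    intro u v hu hv
    change l7Ge _ m ((((u : Fˣ) : F) * ((v : Fˣ) : F)) - 1)
    have h : (((u : Fˣ) : F) * ((v : Fˣ) : F)) - 1 =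
        (((u : Fˣ) : F) - 1) * ((v : Fˣ) : F) + (((v : Fˣ) : F) - 1) := by ring
    rw [h]
    exact hw.ge_add (hw.ge_mul_int' hu (l7_U_int hw v)) hv
  inv_mem' := by
    intro u hu
    change l7Ge _ m ((((u⁻¹ : l7U q F) : Fˣ) : F) - 1)
    have h : (((u⁻¹ : l7U q F) : Fˣ) : F) - 1 =
        -((((u : Fˣ) : F) - 1) * (((u : Fˣ) : F))⁻¹) := by
      have := (u : Fˣ).ne_zero
      push_cast
      field_simp
      ring
    rw [h]
    exact hw.ge_neg (hw.ge_mul_int' hu (l7_U_inv_int hw u))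

lemma l7_mem_Um (hw : L7Val (wv q (F := F))) (m : ℤ) (u : l7U q F) :
    u ∈ l7Um hw m ↔ l7Ge (wv q (F := F)) m (((u : Fˣ) : F) - 1) := Iff.rfl

/-- `u⁻¹ u' ∈ U_k` if `u' - u ∈ {w ≥ k}`. -/
lemma l7_inv_mul_mem (hw : L7Val (wv q (F := F))) (k : ℤ) (u u' : l7U q F)
    (h : l7Ge (wv q (F := F)) k (((u' : Fˣ) : F) - ((u : Fˣ) : F))) : u⁻¹ * u' ∈ l7Um hw k := by
  rw [l7_mem_Um]
  have h1 : (((u⁻¹ * u' : l7U q F) : Fˣ) : F) - 1 =
      (((u : Fˣ) : F))⁻¹ * (((u' : Fˣ) : F) - ((u : Fˣ) : F)) := by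
    have := (u : Fˣ).ne_zero
    push_cast
    field_simp
  rw [h1]
  exact hw.ge_mul_int (l7_U_inv_int hw u) h

/-- `U_m` has finite index in `U`. -/
lemma l7_Um_index_ne_zero (hw : L7Val (wv q (F := F))) (hF : StmtWFinite) (m : ℕ) :
    (l7Um hw (m : ℤ)).index ≠ 0 := by
  classical
  obtain ⟨R, hR⟩ := hF q F m
  have hex : ∀ c : l7U q F ⧸ l7Um hw (m : ℤ),
      ∃ r : R, Close q (m : ℤ) (((c.out : l7U q F) : Fˣ) : F) (r : F) := by
    intro c
    obtain ⟨r, hr, hcl⟩ := hR (((c.out : l7U q F) : Fˣ) : F)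
      (Or.inr (by rw [(l7_mem_U q F c.out).mp c.out.2]))
    exact ⟨⟨r, hr⟩, hcl⟩
  choose g hg using hex
  have hinj : Function.Injective g := by
    intro c c' hcc
    have h1 := (l7_ge_iff_close q F _ _ _).mpr (hg c)
    have h2 := (l7_ge_iff_close q F _ _ _).mpr (hg c')
    rw [hcc] at h1
    have h3 : l7Ge (wv q (F := F)) (m : ℤ)
        ((((c'.out : l7U q F) : Fˣ) : F) - (((c.out : l7U q F) : Fˣ) : F)) := by
      have := hw.ge_sub h2 h1
      simpa using this
    have h4 := l7_inv_mul_mem hw (m : ℤ) c.out c'.out h3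
    rw [← QuotientGroup.out_eq' c, ← QuotientGroup.out_eq' c']
    exact QuotientGroup.eq.mpr h4
  have : Finite (l7U q F ⧸ l7Um hw (m : ℤ)) := Finite.of_injective g hinj
  exact Subgroup.index_ne_zero_of_finite

/-- Hensel: `U_{m+e} ⊆ (U_m)ᵖ` for `e = w(n)`, `m ≥ e + 1`, `m ≥ 1`. -/
lemma l7_Um_le_map (hw : L7Val (wv q (F := F))) (hc : L7Complete (wv q (F := F))) (n : ℕ)
    (hn : (n : F) ≠ 0) {e m : ℤ} (he : wv q ((n : F)) = e) (hm : e + 1 ≤ m) (hm1 : 1 ≤ m) :
    l7Um hw (m + e) ≤ (l7Um hw m).map (powMonoidHom n : l7U q F →* l7U q F) := by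
  intro u hu
  rw [l7_mem_Um] at hu
  obtain ⟨y, hy, hyu⟩ := l7_exists_root hw hc hn he hm hm1 hu
  obtain ⟨hy0, hyw⟩ := hw.unit_of_ge hm1 hy
  have hyU : Units.mk0 y hy0 ∈ l7U q F := (l7_mem_U q F _).mpr (by simpa using hyw)
  refine ⟨⟨Units.mk0 y hy0, hyU⟩, ?_, ?_⟩
  · change l7Ge _ m (((Units.mk0 y hy0 : Fˣ) : F) - 1)
    simpa using hy
  · apply Subtype.ext
    apply Units.ext
    simpa using hyu

/-- The `p`-torsion of `U` has at most `p` elements. -/
lemma l7_card_torsion (p : ℕ) [hp : Fact p.Prime] :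
    Finite (powMonoidHom p : l7U q F →* l7U q F).ker ∧
      Nat.card (powMonoidHom p : l7U q F →* l7U q F).ker ≤ p := by
  have : NeZero p := ⟨hp.out.ne_zero⟩
  let g : (powMonoidHom p : l7U q F →* l7U q F).ker → rootsOfUnity p F := fun t =>
    ⟨((t : l7U q F) : Fˣ), by
      rw [mem_rootsOfUnity]
      have h := t.2
      rw [MonoidHom.mem_ker] at h
      have h2 := congrArg (fun z : l7U q F => (z : Fˣ)) h
      simpa using h2⟩
  have hg : Function.Injective g := by
    intro t t' h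
    apply Subtype.ext
    apply Subtype.ext
    exact congrArg (fun z : rootsOfUnity p F => (z : Fˣ)) h
  have hfin : Finite (rootsOfUnity p F) := inferInstance
  refine ⟨Finite.of_injective g hg, ?_⟩
  exact (Nat.card_le_card_of_injective g hg).trans (card_rootsOfUnity F p)

/-- The range of the valuation has finite index in `ℤ`, hence `|range/rangeᵖ| = p`. -/
lemma l7_card_range (p : ℕ) :
    Nat.card ((l7wHom q F).range ⧸ powRange (l7wHom q F).range p) = p := by
  have hfi : (l7wHom q F).range.FiniteIndex := by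
    have hn : (Module.finrank ℚ_[q] F : ℤ) ≠ 0 := by
      have : 0 < Module.finrank ℚ_[q] F := Module.finrank_pos
      omega
    have hq0 : (q : F) ≠ 0 := l7_natCast_ne_zero q F q (Fact.out : q.Prime).ne_zero
    have hmem : Multiplicative.ofAdd (Module.finrank ℚ_[q] F : ℤ) ∈ (l7wHom q F).range := by
      refine ⟨Units.mk0 (q : F) hq0, ?_⟩
      change Multiplicative.ofAdd (wv q ((q : F))) = _
      rw [l7_wv_natCast, padicValNat_self]
      simp
    have h1 : (AddSubgroup.toSubgroup (AddSubgroup.zmultiples (Module.finrank ℚ_[q] F : ℤ))).index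
        ≠ 0 := by
      rw [AddSubgroup.index_toSubgroup, Int.index_zmultiples]
      exact Int.natAbs_ne_zero.mpr hn
    have h2 : AddSubgroup.toSubgroup (AddSubgroup.zmultiples (Module.finrank ℚ_[q] F : ℤ)) ≤
        (l7wHom q F).range := by
      intro x hx
      have hx' : Multiplicative.toAdd x ∈
          AddSubgroup.zmultiples (Module.finrank ℚ_[q] F : ℤ) := hx
      obtain ⟨k, hk⟩ := AddSubgroup.mem_zmultiples_iff.mp hx'
      have : x = (Multiplicative.ofAdd (Module.finrank ℚ_[q] F : ℤ)) ^ k := by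
        rw [← ofAdd_zsmul, hk, ofAdd_toAdd]
      rw [this]
      exact Subgroup.zpow_mem _ hmem k
    have : (AddSubgroup.toSubgroup
        (AddSubgroup.zmultiples (Module.finrank ℚ_[q] F : ℤ))).FiniteIndex := ⟨h1⟩
    exact Subgroup.finiteIndex_of_le h2
  rw [card_powQuot_of_finiteIndex ℤ (l7wHom q F).range p, Module.finrank_self, pow_one]

/-- The additive subgroup `{w ≥ m}`. -/
def l7Lam (hw : L7Val (wv q (F := F))) (m : ℤ) : AddSubgroup F where
  carrier := {x | l7Ge (wv q (F := F)) m x}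
  zero_mem' := hw.ge_zero m
  add_mem' := hw.ge_add
  neg_mem' := hw.ge_neg

/-- `[U_m : U_{m+n}] ≤ q ^ n`, `n = [F : ℚ_q]`. -/
lemma l7_relIndex_le (hAdd : StmtWAdd) (hw : L7Val (wv q (F := F))) (m : ℤ) :
    (l7Um hw (m + (Module.finrank ℚ_[q] F : ℤ))).relIndex (l7Um hw m) ≠ 0 ∧
      (l7Um hw (m + (Module.finrank ℚ_[q] F : ℤ))).relIndex (l7Um hw m) ≤
        q ^ Module.finrank ℚ_[q] F := by
  classical
  obtain ⟨hfin, hcard⟩ := l7_lattice_card (p := q) (l7Lam hw m)
    (fun a ha x hx => l7_ge_smul q F hAdd a ha m x hx)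
  set A := l7Um hw m with hA
  set A' := l7Um hw (m + (Module.finrank ℚ_[q] F : ℤ)) with hA'
  let g : (A ⧸ A'.subgroupOf A) →
      (l7Lam hw m ⧸ (nsmulAddMonoidHom (α := l7Lam hw m) q).range) := fun c =>
    QuotientAddGroup.mk ⟨((((c.out : A) : l7U q F) : Fˣ) : F) - 1, (c.out : A).2⟩
  have hg : Function.Injective g := by
    intro c c' hcc
    have h1 := QuotientAddGroup.eq.mp hcc
    obtain ⟨y, hy⟩ := h1
    have hy' : (q : F) * (y : F) =
        ((((c'.out : A) : l7U q F) : Fˣ) : F) - ((((c.out : A) : l7U q F) : Fˣ) : F) := by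
      have h2 := congrArg (fun z : l7Lam hw m => (z : F)) hy
      simp only [nsmulAddMonoidHom_apply, AddSubgroup.coe_nsmul, nsmul_eq_mul,
        AddSubgroup.coe_add, AddSubgroup.coe_neg] at h2
      rw [h2]
      ring
    have hq : l7Ge (wv q (F := F)) (Module.finrank ℚ_[q] F : ℤ) ((q : F)) := by
      right
      rw [l7_wv_natCast, padicValNat_self]
      simp
    have h3 : l7Ge (wv q (F := F)) (m + (Module.finrank ℚ_[q] F : ℤ))
        (((((c'.out : A) : l7U q F) : Fˣ) : F) - ((((c.out : A) : l7U q F) : Fˣ) : F)) := by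
      rw [← hy', add_comm]
      exact hw.ge_mul hq y.2
    have h4 := l7_inv_mul_mem hw _ ((c.out : A) : l7U q F) ((c'.out : A) : l7U q F) h3
    rw [← QuotientGroup.out_eq' c, ← QuotientGroup.out_eq' c']
    apply QuotientGroup.eq.mpr
    rw [Subgroup.mem_subgroupOf]
    exact h4
  have hfinA : Finite (A ⧸ A'.subgroupOf A) := Finite.of_injective g hg
  refine ⟨Subgroup.index_ne_zero_of_finite, ?_⟩
  exact (Nat.card_le_card_of_injective g hg).trans hcard

variable (q F)

/-- **L7a + L7c**: `[Fˣ : Fˣᵖ]` is finite and at most `p ^ (2 + [F : ℚ_q]·[q = p])`. -/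
theorem l7_pow_index_of (hAdd : StmtWAdd) (hC : StmtWComplete) (hF : StmtWFinite)
    (p : ℕ) [hp : Fact p.Prime] :
    (powMonoidHom p : Fˣ →* Fˣ).range.index ≠ 0 ∧
      (powMonoidHom p : Fˣ →* Fˣ).range.index ≤
        p ^ (2 + if q = p then Module.finrank ℚ_[q] F else 0) := by
  have hw : L7Val (wv q (F := F)) := l7_val q F hAdd
  have hc : L7Complete (wv q (F := F)) := l7_complete q F hC
  have hp0 : (p : F) ≠ 0 := l7_natCast_ne_zero q F p hp.out.ne_zero
  set e' : ℕ := if q = p then Module.finrank ℚ_[q] F else 0 with he'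
  have he : wv q ((p : F)) = (e' : ℤ) := by
    rw [l7_wv_prime q F p, he']
    split_ifs <;> simp
  set A := l7Um hw (((e' + 1 : ℕ) : ℤ)) with hA
  set A' := l7Um hw (((e' + 1 : ℕ) : ℤ) + (e' : ℤ)) with hA'
  have hAidx : A.index ≠ 0 := l7_Um_index_ne_zero hw hF (e' + 1)
  have hle : A' ≤ A.map (powMonoidHom p : l7U q F →* l7U q F) :=
    l7_Um_le_map hw hc p hp0 he (by push_cast; omega) (by push_cast; omega)
  have hrel : A'.relIndex A ≠ 0 ∧ A'.relIndex A ≤ p ^ e' := by
    by_cases hqp : q = p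
    · subst hqp
      have h1 : e' = Module.finrank ℚ_[q] F := by rw [he', if_pos rfl]
      have := l7_relIndex_le hAdd hw (((e' + 1 : ℕ) : ℤ))
      rw [← h1] at this
      exact this
    · have h1 : e' = 0 := by rw [he', if_neg hqp]
      have h2 : A' = A := by
        rw [hA', hA, h1]
        simp
      rw [h2, Subgroup.relIndex_self, h1]
      simp
  have hAn : (A.map (powMonoidHom p : l7U q F →* l7U q F)).relIndex A ≠ 0 := by
    intro h
    have := Subgroup.relIndex_dvd_of_le_left A hle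
    rw [h, zero_dvd_iff] at this
    exact hrel.1 this
  have hAn' : (A.map (powMonoidHom p : l7U q F →* l7U q F)).relIndex A ≤ p ^ e' :=
    (Subgroup.relIndex_le_of_le_left hle hrel.1).trans hrel.2
  obtain ⟨hTfin, hTcard⟩ := l7_card_torsion (q := q) (F := F) p
  obtain ⟨hU0, hUle⟩ := l7_index_powRange_le A p hAidx hAn
  have htf : ∀ c : Multiplicative ℤ, c ^ p = 1 → c = 1 := by
    intro c hc
    have h1 : p • Multiplicative.toAdd c = 0 := by
      have := congrArg Multiplicative.toAdd hc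
      simpa using this
    have h2 : Multiplicative.toAdd c = 0 := by
      rcases smul_eq_zero.mp h1 with h | h
      · exact absurd h hp.out.ne_zero
      · exact h
    rw [← ofAdd_toAdd c, h2, ofAdd_zero]
  have hmain : (powMonoidHom p : Fˣ →* Fˣ).range.index =
      (powRange (l7U q F) p).index * p := by
    have h := card_powQuot_eq_mul_range p (l7wHom q F) htf
    rw [l7_card_range] at h
    exact h
  rw [hmain]
  refine ⟨mul_ne_zero hU0 hp.out.ne_zero, ?_⟩
  calc (powRange (l7U q F) p).index * p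
      ≤ ((A.map (powMonoidHom p : l7U q F →* l7U q F)).relIndex A *
          Nat.card (powMonoidHom p : l7U q F →* l7U q F).ker) * p :=
        Nat.mul_le_mul_right _ hUle
    _ ≤ (p ^ e' * p) * p :=
        Nat.mul_le_mul_right _ (Nat.mul_le_mul hAn' hTcard)
    _ = p ^ (2 + e') := by ring

/-- **L7a + L7c**, unconditional. -/
theorem l7_pow_index (p : ℕ) [Fact p.Prime] :
    (powMonoidHom p : Fˣ →* Fˣ).range.index ≠ 0 ∧
      (powMonoidHom p : Fˣ →* Fˣ).range.index ≤
        p ^ (2 + if q = p then Module.finrank ℚ_[q] F else 0) :=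
  l7_pow_index_of q F stmtWAdd stmtWComplete stmtWFinite p

/-- **L7a**: `StmtPowFinite`. -/
theorem stmtPowFinite : StmtPowFinite := by
  intro q _ p _ F _ _ _
  exact ⟨(l7_pow_index q F p).1⟩

/-- **L7c**: `StmtPowCard` (the hypothesis on the root of unity is not used). -/
theorem stmtPowCard : StmtPowCard := by
  intro q p _ _ F _ _ _ _ _
  exact (l7_pow_index q F p).2

end Fermat.Agent.PT.L


end ZBPT_015_1

/-! ### bundled: `Fermat.Agent.TW.L.PowCardQp` -/
section ZBPT_015_2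
/-
TW-L / L-cnt (helper32): `[ℚ_pˣ : (ℚ_pˣ)^p] ≤ p²` for `p` odd.

Main result: `stmtPowCardQp : StmtPowCardQp` (statement in `TW/L/Plan.lean`).

Proof: the count of PT-L (`PT/L/PowCard.lean`, helper74) for `F = ℚ_p` gives
`[Fˣ : Fˣᵖ] = p · [U : Uᵖ]` and `[U : Uᵖ] ≤ [U₂ : U₃] · |U[p]| ≤ p · |U[p]|`; here the `p`-torsion
`U[p]` is trivial, because `ℚ_p` (`p` odd) contains no `p`-th root of unity except `1`
(`lcnt_padic_eq_one`: `Σ_{i<p} xⁱ = p + (x - 1) z` with `z ≡ p(p-1)/2 ≡ 0 mod p`).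
-/

set_option autoImplicit false

namespace Fermat.Agent.TW.L

open Fermat.Agent.PT.L Fermat.Agent.PT.X

/-- `x ^ i - 1 = (x - 1) * Σ_{j<i} x^j`. -/
lemma lcnt_pow_sub_one {R : Type*} [CommRing R] (x : R) (i : ℕ) :
    x ^ i - 1 = (x - 1) * ∑ j ∈ Finset.range i, x ^ j := by
  rw [mul_comm, geom_sum_mul]

/-- In `ℤ_p`, `p` odd, the only `p`-th root of unity is `1`. -/
lemma lcnt_padicInt_eq_one (p : ℕ) [hp : Fact p.Prime] (hp2 : p ≠ 2) (x : ℤ_[p])
    (hx : x ^ p = 1) : x = 1 := by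
  by_contra hne
  have ht : x - 1 ≠ 0 := sub_ne_zero.mpr hne
  -- reduction mod p
  have hx1 : PadicInt.toZMod x = 1 := by
    have h1 : (PadicInt.toZMod x) ^ p = 1 := by rw [← map_pow, hx, map_one]
    rwa [ZMod.pow_card] at h1
  -- the geometric sum vanishes
  have hS : ∑ i ∈ Finset.range p, x ^ i = 0 := by
    have h := lcnt_pow_sub_one x p
    rw [hx, sub_self] at h
    rcases mul_eq_zero.mp h.symm with h | h
    · exact absurd h ht
    · exact h
  -- Σ x^i = p + (x - 1) * z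
  set z : ℤ_[p] := ∑ i ∈ Finset.range p, ∑ j ∈ Finset.range i, x ^ j with hz
  have hSz : ∑ i ∈ Finset.range p, x ^ i = (p : ℤ_[p]) + (x - 1) * z := by
    have : ∑ i ∈ Finset.range p, x ^ i = ∑ i ∈ Finset.range p, (1 + (x ^ i - 1)) :=
      Finset.sum_congr rfl (fun i _ => by ring)
    rw [this, Finset.sum_add_distrib, hz, Finset.mul_sum]
    congr 1
    · simp
    · exact Finset.sum_congr rfl (fun i _ => lcnt_pow_sub_one x i)
  -- z ≡ 0 mod p
  have hz0 : PadicInt.toZMod z = 0 := by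
    have h1 : PadicInt.toZMod z = ∑ i ∈ Finset.range p, (i : ZMod p) := by
      rw [hz, map_sum]
      refine Finset.sum_congr rfl (fun i _ => ?_)
      rw [map_sum]
      simp [hx1]
    have h2 : (∑ i ∈ Finset.range p, (i : ZMod p)) * 2 = 0 := by
      have := congrArg (fun n : ℕ => (n : ZMod p)) (Finset.sum_range_id_mul_two p)
      simp only [Nat.cast_mul, Nat.cast_sum, Nat.cast_ofNat] at this
      rw [this]
      simp
    have h3 : (2 : ZMod p) ≠ 0 := by
      intro h
      have : ((2 : ℕ) : ZMod p) = 0 := by exact_mod_cast h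
      rw [ZMod.natCast_eq_zero_iff] at this
      have := (Nat.prime_dvd_prime_iff_eq hp.out Nat.prime_two).mp this
      exact hp2 this
    rw [h1]
    exact (mul_eq_zero.mp h2).resolve_right h3
  have hx0 : PadicInt.toZMod (x - 1) = 0 := by rw [map_sub, hx1, map_one, sub_self]
  -- divisibility by p
  have hdvd : ∀ y : ℤ_[p], PadicInt.toZMod y = 0 → ∃ w, y = (p : ℤ_[p]) * w := by
    intro y hy
    have : y ∈ RingHom.ker (PadicInt.toZMod (p := p)) := hy
    rw [PadicInt.ker_toZMod, PadicInt.maximalIdeal_eq_span_p, Ideal.mem_span_singleton] at this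
    exact this
  obtain ⟨a, ha⟩ := hdvd _ hx0
  obtain ⟨b, hb⟩ := hdvd _ hz0
  rw [hSz, ha, hb] at hS
  have hp0 : (p : ℤ_[p]) ≠ 0 := by exact_mod_cast hp.out.ne_zero
  have h4 : (p : ℤ_[p]) * (1 + (p : ℤ_[p]) * (a * b)) = 0 := by
    rw [← hS]; ring
  have h5 : (1 + (p : ℤ_[p]) * (a * b)) = 0 := (mul_eq_zero.mp h4).resolve_left hp0
  have h6 := congrArg (PadicInt.toZMod (p := p)) h5
  simp at h6

/-- In `ℚ_p`, `p` odd, the only `p`-th root of unity is `1`. -/
lemma lcnt_padic_eq_one (p : ℕ) [hp : Fact p.Prime] (hp2 : p ≠ 2) (x : ℚ_[p])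
    (hx : x ^ p = 1) : x = 1 := by
  have hn : ‖x‖ = 1 := by
    have h1 : ‖x‖ ^ p = 1 := by rw [← norm_pow, hx, norm_one]
    exact (pow_eq_one_iff_of_nonneg (norm_nonneg x) hp.out.ne_zero).mp h1
  have h2 := lcnt_padicInt_eq_one p hp2 ⟨x, hn.le⟩ (by
    apply Subtype.ext
    simpa using hx)
  simpa using congrArg (fun y : ℤ_[p] => (y : ℚ_[p])) h2

/-- The `p`-torsion of the unit group of `ℚ_p` (`p` odd) is trivial. -/
lemma lcnt_card_torsion (p : ℕ) [hp : Fact p.Prime] (hp2 : p ≠ 2) :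
    Nat.card (powMonoidHom p : l7U p ℚ_[p] →* l7U p ℚ_[p]).ker = 1 := by
  have hsub : Subsingleton (powMonoidHom p : l7U p ℚ_[p] →* l7U p ℚ_[p]).ker := by
    refine ⟨fun s t => ?_⟩
    have key : ∀ u : (powMonoidHom p : l7U p ℚ_[p] →* l7U p ℚ_[p]).ker, u = 1 := by
      intro u
      have h := u.2
      rw [MonoidHom.mem_ker] at h
      have h2 := congrArg (fun z : l7U p ℚ_[p] => ((z : ℚ_[p]ˣ) : ℚ_[p])) h
      have h3 : (((u : l7U p ℚ_[p]) : ℚ_[p]ˣ) : ℚ_[p]) ^ p = 1 := by simpa using h2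
      have h4 := lcnt_padic_eq_one p hp2 _ h3
      apply Subtype.ext
      apply Subtype.ext
      apply Units.ext
      simpa using h4
    rw [key s, key t]
  exact Nat.card_unique

/-- `[ℚ_pˣ : (ℚ_pˣ)^p]` is finite and at most `p²` (`p` odd). -/
theorem lcnt_pow_index (p : ℕ) [hp : Fact p.Prime] (hp2 : p ≠ 2) :
    (powMonoidHom p : ℚ_[p]ˣ →* ℚ_[p]ˣ).range.index ≠ 0 ∧
      (powMonoidHom p : ℚ_[p]ˣ →* ℚ_[p]ˣ).range.index ≤ p ^ 2 := by
  have hw : L7Val (wv p (F := ℚ_[p])) := l7_val p ℚ_[p] stmtWAdd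
  have hc : L7Complete (wv p (F := ℚ_[p])) := l7_complete p ℚ_[p] stmtWComplete
  have hp0 : ((p : ℕ) : ℚ_[p]) ≠ 0 := l7_natCast_ne_zero p ℚ_[p] p hp.out.ne_zero
  have he : wv p (((p : ℕ) : ℚ_[p])) = ((1 : ℕ) : ℤ) := by
    rw [l7_wv_prime p ℚ_[p] p, if_pos rfl, Module.finrank_self]
  set A := l7Um hw (((1 + 1 : ℕ) : ℤ)) with hA
  set A' := l7Um hw (((1 + 1 : ℕ) : ℤ) + ((1 : ℕ) : ℤ)) with hA'
  have hAidx : A.index ≠ 0 := l7_Um_index_ne_zero hw stmtWFinite (1 + 1)
  have hle : A' ≤ A.map (powMonoidHom p : l7U p ℚ_[p] →* l7U p ℚ_[p]) :=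
    l7_Um_le_map hw hc p hp0 he (by norm_num) (by norm_num)
  have hrel : A'.relIndex A ≠ 0 ∧ A'.relIndex A ≤ p ^ 1 := by
    have := l7_relIndex_le stmtWAdd hw (((1 + 1 : ℕ) : ℤ))
    rw [Module.finrank_self] at this
    exact this
  have hAn : (A.map (powMonoidHom p : l7U p ℚ_[p] →* l7U p ℚ_[p])).relIndex A ≠ 0 := by
    intro h
    have := Subgroup.relIndex_dvd_of_le_left A hle
    rw [h, zero_dvd_iff] at this
    exact hrel.1 this
  have hAn' : (A.map (powMonoidHom p : l7U p ℚ_[p] →* l7U p ℚ_[p])).relIndex A ≤ p ^ 1 :=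
    (Subgroup.relIndex_le_of_le_left hle hrel.1).trans hrel.2
  have hTcard := lcnt_card_torsion p hp2
  have hTfin : Finite (powMonoidHom p : l7U p ℚ_[p] →* l7U p ℚ_[p]).ker :=
    Nat.finite_of_card_ne_zero (by rw [hTcard]; exact one_ne_zero)
  obtain ⟨hU0, hUle⟩ := l7_index_powRange_le A p hAidx hAn
  have htf : ∀ c : Multiplicative ℤ, c ^ p = 1 → c = 1 := by
    intro c hc
    have h1 : p • Multiplicative.toAdd c = 0 := by
      have := congrArg Multiplicative.toAdd hc
      simpa using this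
    have h2 : Multiplicative.toAdd c = 0 := by
      rcases smul_eq_zero.mp h1 with h | h
      · exact absurd h hp.out.ne_zero
      · exact h
    rw [← ofAdd_toAdd c, h2, ofAdd_zero]
  have hmain : (powMonoidHom p : ℚ_[p]ˣ →* ℚ_[p]ˣ).range.index =
      (powRange (l7U p ℚ_[p]) p).index * p := by
    have h := card_powQuot_eq_mul_range p (l7wHom p ℚ_[p]) htf
    rw [l7_card_range] at h
    exact h
  rw [hmain]
  refine ⟨mul_ne_zero hU0 hp.out.ne_zero, ?_⟩
  calc (powRange (l7U p ℚ_[p]) p).index * p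
      ≤ ((A.map (powMonoidHom p : l7U p ℚ_[p] →* l7U p ℚ_[p])).relIndex A *
          Nat.card (powMonoidHom p : l7U p ℚ_[p] →* l7U p ℚ_[p]).ker) * p :=
        Nat.mul_le_mul_right _ hUle
    _ ≤ (p ^ 1 * 1) * p :=
        Nat.mul_le_mul_right _ (Nat.mul_le_mul hAn' hTcard.le)
    _ = p ^ 2 := by ring

/-- **L-cnt**: `StmtPowCardQp`. -/
theorem stmtPowCardQp : StmtPowCardQp := by
  intro p _ hp2
  obtain ⟨h0, hle⟩ := lcnt_pow_index p hp2
  have hfi : (powMonoidHom p : ℚ_[p]ˣ →* ℚ_[p]ˣ).range.FiniteIndex := ⟨h0⟩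
  exact ⟨Subgroup.finite_quotient_of_finiteIndex, hle⟩

end Fermat.Agent.TW.L


end ZBPT_015_2

/-! ### bundled: `Fermat.Agent.TW.L.LKumFinal` -/
section ZBPT_015_3
/-
TW-L, piece L-kum, unconditional form (helper30): `stmtLKum : StmtLKum`
(= `stmtLKum_of` applied to helper32's `stmtPowCardQp`).
-/

set_option autoImplicit false

namespace Fermat.Agent.TW.L

/-- **L-kum** (Kummer theory for `G_{ℚ_p}`), unconditional. -/
theorem stmtLKum : StmtLKum := stmtLKum_of stmtPowCardQp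

end Fermat.Agent.TW.L


end ZBPT_015_3
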