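/- GENERATED FILE (helper35, build-time optimisation, NOTES/ZB.md): verbatim concatenation of the modules
   Fermat.Agent.PT.L.UnramExistsFinal
   Do not edit; do not import together with these modules. -/
import Fermat.Agent.ZB.PT_004

/-! ### bundled: `Fermat.Agent.PT.L.UnramExistsFinal` -/
section ZBPT_016_0
/-
PT-L, piece L3a (helper48): `stmtUnramExists : StmtUnramExists`, unconditional
(`UnramExists.lean` + the landed L0 pieces `stmtWAdd`, `stmtWComplete`, `stmtWFinite`).
-/

set_option autoImplicit false

namespace Fermat.Agent.PT.L

/-- **L3a**: the unramified extension of every degree `m ≥ 1` exists and is cyclic. -/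
theorem stmtUnramExists : StmtUnramExists :=
  UE.stmtUnramExists_of stmtWAdd stmtWComplete stmtWFinite

end Fermat.Agent.PT.L


end ZBPT_016_0
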