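/- GENERATED FILE (helper35, build-time optimisation, NOTES/ZB.md): verbatim concatenation of the modules
   Fermat.Agent.PT.L.LaGenCocycle
   Do not edit; do not import together with these modules. -/
import Mathlib

/-! ### bundled: `Fermat.Agent.PT.L.LaGenCocycle` -/
section ZBPT_018_0
/-
PT-L piece L6a, part 1 (abstract): the periodicity 2-cocycle of a finite cyclic group.

For a group `G`, a homomorphism `ψ : G →* Multiplicative (ZMod n)` and `x` in a `G`-module `M`
(multiplicative), `l6Coc n ψ x (g, h) = x ^ carry`, where `carry = 1` if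
`val (ψ g) + val (ψ h) ≥ n` and `0` otherwise.

* `l6_isMulCocycle₂`     : it is a 2-cocycle if `x` is `G`-fixed;
* `l6_isMulCoboundary₂`  : it is a 2-coboundary if `x = ∏_{g ∈ G} g • y` (ANY `ψ`);
* `l6_exists_norm`       : if `ψ` is bijective and it is a 2-coboundary, then `x` is a norm.
-/

set_option autoImplicit false

namespace Fermat.Agent.PT.L

open groupCohomology

/-- The carry of the addition `a + b` modulo `n`. -/
def l6Carry (n a b : ℕ) : ℕ := if n ≤ a + b then 1 else 0

theorem l6Carry_assoc (n a b c : ℕ) (ha : a < n) (hb : b < n) (hc : c < n) :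
    l6Carry n ((a + b) % n) c + l6Carry n a b = l6Carry n b c + l6Carry n a ((b + c) % n) := by
  have h1 : (a + b) % n = a + b ∨ (a + b) % n + n = a + b := by
    rcases Nat.lt_or_ge (a + b) n with h | h
    · left; exact Nat.mod_eq_of_lt h
    · right
      rw [Nat.mod_eq_sub_mod h, Nat.mod_eq_of_lt (by omega)]
      omega
  have h2 : (b + c) % n = b + c ∨ (b + c) % n + n = b + c := by
    rcases Nat.lt_or_ge (b + c) n with h | h
    · left; exact Nat.mod_eq_of_lt h
    · right
      rw [Nat.mod_eq_sub_mod h, Nat.mod_eq_of_lt (by omega)]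
      omega
  have h3 : (a + b) % n < n := Nat.mod_lt _ (by omega)
  have h4 : (b + c) % n < n := Nat.mod_lt _ (by omega)
  unfold l6Carry
  split_ifs <;> omega

section

variable {G M : Type} [Group G] [CommGroup M] [MulDistribMulAction G M]

/-- The logarithm of `g` with respect to `ψ`, as a natural number `< n`. -/
def l6Log (n : ℕ) (ψ : G →* Multiplicative (ZMod n)) (g : G) : ℕ := (Multiplicative.toAdd (ψ g)).val

theorem l6Log_lt (n : ℕ) [NeZero n] (ψ : G →* Multiplicative (ZMod n)) (g : G) :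
    l6Log n ψ g < n := ZMod.val_lt _

theorem l6Log_mul (n : ℕ) [NeZero n] (ψ : G →* Multiplicative (ZMod n)) (g h : G) :
    l6Log n ψ (g * h) = (l6Log n ψ g + l6Log n ψ h) % n := by
  unfold l6Log
  rw [map_mul, toAdd_mul, ZMod.val_add]

/-- The periodicity cochain. -/
def l6Coc (n : ℕ) (ψ : G →* Multiplicative (ZMod n)) (x : M) : G × G → M :=
  fun p => x ^ l6Carry n (l6Log n ψ p.1) (l6Log n ψ p.2)

omit [MulDistribMulAction G M] in
theorem l6Coc_apply (n : ℕ) (ψ : G →* Multiplicative (ZMod n)) (x : M) (g h : G) :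
    l6Coc n ψ x (g, h) = x ^ l6Carry n (l6Log n ψ g) (l6Log n ψ h) := rfl

omit [MulDistribMulAction G M] in
theorem l6Coc_pow (n : ℕ) (ψ : G →* Multiplicative (ZMod n)) (x : M) (m : ℕ) (p : G × G) :
    l6Coc n ψ (x ^ m) p = (l6Coc n ψ x p) ^ m := by
  unfold l6Coc
  rw [← pow_mul, ← pow_mul, mul_comm]

theorem l6_isMulCocycle₂ (n : ℕ) [NeZero n] (ψ : G →* Multiplicative (ZMod n)) (x : M)
    (hx : ∀ g : G, g • x = x) : IsMulCocycle₂ (l6Coc n ψ x) := by
  intro g h j
  simp only [l6Coc_apply, smul_pow', hx, ← pow_add]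
  congr 1
  rw [l6Log_mul, l6Log_mul]
  exact l6Carry_assoc n _ _ _ (l6Log_lt n ψ g) (l6Log_lt n ψ h) (l6Log_lt n ψ j)

variable [Fintype G]

/-- The 1-cochain whose coboundary is the periodicity cocycle of a norm. -/
noncomputable def l6Prim (n : ℕ) (ψ : G →* Multiplicative (ZMod n)) (y : M) (h : G) : M :=
  ∏ k : G, if l6Log n ψ k < l6Log n ψ h then k • y else 1

theorem l6_smul_prim (n : ℕ) (ψ : G →* Multiplicative (ZMod n)) (y : M) (g h : G) :
    g • l6Prim n ψ y h = ∏ k : G, if l6Log n ψ (g⁻¹ * k) < l6Log n ψ h then k • y else 1 := by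
  unfold l6Prim
  rw [Finset.smul_prod']
  refine Fintype.prod_equiv (Equiv.mulLeft g) _ _ ?_
  intro k
  simp only [Equiv.coe_mulLeft, inv_mul_cancel_left]
  split_ifs
  · rw [mul_smul]
  · rw [smul_one]

theorem l6_isMulCoboundary₂ (n : ℕ) [NeZero n] (ψ : G →* Multiplicative (ZMod n)) (y : M) :
    IsMulCoboundary₂ (l6Coc n ψ (∏ g : G, g • y)) := by
  refine ⟨l6Prim n ψ y, fun g h => ?_⟩
  rw [l6Coc_apply, div_mul_eq_mul_div, div_eq_iff_eq_mul, l6_smul_prim, ← Finset.prod_pow]
  unfold l6Prim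
  rw [← Finset.prod_mul_distrib, ← Finset.prod_mul_distrib]
  refine Finset.prod_congr rfl fun k _ => ?_
  have hA := l6Log_lt n ψ g
  have hB := l6Log_lt n ψ h
  have hK := l6Log_lt n ψ k
  have hD := l6Log_lt n ψ (g⁻¹ * k)
  have hC := l6Log_lt n ψ (g * h)
  have h1 : l6Log n ψ (g * h) = l6Log n ψ g + l6Log n ψ h ∨
      l6Log n ψ (g * h) + n = l6Log n ψ g + l6Log n ψ h := by
    rw [l6Log_mul]
    rcases Nat.lt_or_ge (l6Log n ψ g + l6Log n ψ h) n with h | h
    · left; exact Nat.mod_eq_of_lt h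
    · right
      rw [Nat.mod_eq_sub_mod h, Nat.mod_eq_of_lt (by omega)]
      omega
  have h2 : l6Log n ψ k = l6Log n ψ g + l6Log n ψ (g⁻¹ * k) ∨
      l6Log n ψ k + n = l6Log n ψ g + l6Log n ψ (g⁻¹ * k) := by
    have : l6Log n ψ k = (l6Log n ψ g + l6Log n ψ (g⁻¹ * k)) % n := by
      rw [← l6Log_mul, mul_inv_cancel_left]
    rw [this]
    rcases Nat.lt_or_ge (l6Log n ψ g + l6Log n ψ (g⁻¹ * k)) n with h | h
    · left; exact Nat.mod_eq_of_lt h
    · right
      rw [Nat.mod_eq_sub_mod h, Nat.mod_eq_of_lt (by omega)]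
      omega
  unfold l6Carry
  split_ifs <;> first | (exfalso; omega) | simp

theorem l6_exists_norm (n : ℕ) [NeZero n] (ψ : G →* Multiplicative (ZMod n))
    (hψ : Function.Bijective ψ) (x : M) (h : IsMulCoboundary₂ (l6Coc n ψ x)) :
    ∃ y : M, ∏ g : G, g • y = x := by
  obtain ⟨b, hb⟩ := h
  rcases Nat.lt_or_ge 1 n with hn | hn
  · -- `n ≥ 2`
    have : Fact (1 < n) := ⟨hn⟩
    obtain ⟨σ, hσ⟩ := hψ.2 (Multiplicative.ofAdd 1)
    obtain ⟨g₀, hg₀⟩ := hψ.2 (Multiplicative.ofAdd (-1))
    have hlσ : l6Log n ψ σ = 1 := by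
      unfold l6Log
      rw [hσ, toAdd_ofAdd, ZMod.val_one]
    have hlg₀ : l6Log n ψ g₀ = n - 1 := by
      unfold l6Log
      rw [hg₀, toAdd_ofAdd]
      obtain ⟨m, rfl⟩ : ∃ m, n = m + 1 := ⟨n - 1, by omega⟩
      rw [ZMod.val_neg_one]
      rfl
    refine ⟨b σ, ?_⟩
    have key : ∏ g : G, (g • b σ / b (g * σ) * b g) = ∏ g : G, l6Coc n ψ x (g, σ) :=
      Finset.prod_congr rfl fun g _ => hb g σ
    have e1 : ∏ g : G, (g • b σ / b (g * σ) * b g) = ∏ g : G, g • b σ := by
      rw [Finset.prod_mul_distrib, Finset.prod_div_distrib]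
      have : ∏ g : G, b (g * σ) = ∏ g : G, b g :=
        Fintype.prod_equiv (Equiv.mulRight σ) _ _ fun _ => rfl
      rw [this, div_mul_cancel]
    have e2 : ∏ g : G, l6Coc n ψ x (g, σ) = x := by
      rw [Finset.prod_eq_single g₀]
      · rw [l6Coc_apply, hlσ, hlg₀]
        unfold l6Carry
        rw [if_pos (by omega), pow_one]
      · intro g _ hg
        rw [l6Coc_apply, hlσ]
        have hne : l6Log n ψ g ≠ n - 1 := by
          intro h'
          apply hg
          apply hψ.1
          have : Multiplicative.toAdd (ψ g) = Multiplicative.toAdd (ψ g₀) := by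
            apply ZMod.val_injective n
            exact h'.trans hlg₀.symm
          exact this
        have := l6Log_lt n ψ g
        unfold l6Carry
        rw [if_neg (by omega), pow_zero]
      · intro h'
        exact absurd (Finset.mem_univ _) h'
    rw [← e1, key, e2]
  · -- `n = 1`: the group is trivial
    have hn1 : n = 1 := by
      have := NeZero.pos n
      omega
    subst hn1
    refine ⟨x, ?_⟩
    have hsub : ∀ g : G, g = 1 := by
      intro g
      apply hψ.1
      exact Subsingleton.elim _ _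
    rw [Finset.prod_eq_single 1]
    · rw [one_smul]
    · intro g _ hg
      exact absurd (hsub g) hg
    · intro h'
      exact absurd (Finset.mem_univ _) h'

end

end Fermat.Agent.PT.L


end ZBPT_018_0
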