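/- GENERATED FILE (helper35, build-time optimisation, NOTES/ZB.md): verbatim concatenation of the modules
   Fermat.Agent.PT.G1.Bridge
   Fermat.Agent.PT.L.H2Le
   Fermat.Agent.PT.G3.Layer
   Do not edit; do not import together with these modules. -/
import Fermat.Agent.ZB.PT_006
import Fermat.Agent.ZB.PT_005
import Fermat.Agent.ZB.PT_009
import Fermat.Agent.ZB.PT_059

/-! ### bundled: `Fermat.Agent.PT.G1.Bridge` -/
section ZBPT_020_0

/-!
# PT-G1, piece HQ-bridge: Mathlib's `H¹`, `H²` of a finite cyclic group and the Herbrand numbers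

For a finite cyclic group `G = ⟨g⟩` and `A : Rep ℤ G`:
`|H²(G, A)| = |ker (ρ g - 1) / im N|` and `|H¹(G, A)| = |ker N / im (ρ g - 1)|`, where
`N = 1 + ρ g + ⋯ + (ρ g)^(n-1)`, `n = |G|`.
-/

set_option autoImplicit false

namespace Fermat.Agent.PT.G1

open CategoryTheory

/-- Sums over a finite cyclic group are sums over the powers of a generator. -/
theorem bridge_sum_eq {G M : Type*} [Group G] [Fintype G] [AddCommMonoid M] (g : G)
    (hg : ∀ x, x ∈ Subgroup.zpowers g) (f : G → M) :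
    ∑ x : G, f x = ∑ i ∈ Finset.range (Fintype.card G), f (g ^ i) := by
  classical
  have hord : orderOf g = Fintype.card G := by
    rw [orderOf_eq_card_of_forall_mem_zpowers hg, Nat.card_eq_fintype_card]
  rw [← hord]
  have himg : (Finset.univ : Finset G) = Finset.image (fun i => g ^ i) (Finset.range (orderOf g)) := by
    ext x
    simp only [Finset.mem_univ, true_iff]
    exact mem_zpowers_iff_mem_range_orderOf.mp (hg x)
  rw [himg, Finset.sum_image]
  intro i hi j hj h
  exact pow_injOn_Iio_orderOf (by simpa using hi) (by simpa using hj) h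

/-- The norm of a representation of a finite cyclic group in terms of a generator. -/
theorem bridge_norm_eq {k G V : Type*} [CommRing k] [Group G] [Fintype G] [AddCommGroup V]
    [Module k V] (ρ : Representation k G V) (g : G) (hg : ∀ x, x ∈ Subgroup.zpowers g) :
    Representation.norm ρ = ∑ i ∈ Finset.range (Fintype.card G), (ρ g) ^ i := by
  unfold Representation.norm
  rw [bridge_sum_eq g hg]
  refine Finset.sum_congr rfl fun i _ => ?_
  rw [map_pow]

/-- Counting lemma: a surjection from `ker D` with kernel `im N ∩ ker D`. -/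
theorem bridge_card {R V W : Type*} [Ring R] [AddCommGroup V] [Module R V] [AddCommGroup W]
    [Module R W] (D N : V →ₗ[R] V) (π : ↥(LinearMap.ker D) →ₗ[R] W)
    (hsurj : Function.Surjective π) (hker : ∀ x, π x = 0 ↔ (x : V) ∈ LinearMap.range N) :
    Nat.card W =
      Nat.card (↥(LinearMap.ker D) ⧸ (LinearMap.range N).submoduleOf (LinearMap.ker D)) := by
  have hk : LinearMap.ker π = (LinearMap.range N).submoduleOf (LinearMap.ker D) := by
    ext x
    rw [LinearMap.mem_ker, hker]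
    rfl
  have e := LinearMap.quotKerEquivOfSurjective π hsurj
  rw [← Nat.card_congr e.toEquiv, hk]

section generic

variable {k G : Type} [CommRing k] [CommGroup G] [Fintype G] (A : Rep.{0} k G) (g : G)
  (hg : ∀ x, x ∈ Subgroup.zpowers g)

include hg

theorem bridge_H2 :
    Nat.card (groupCohomology.H2 A) =
      Nat.card (↥(LinearMap.ker (A.ρ g - 1 : Module.End k A.V)) ⧸
        (LinearMap.range (∑ i ∈ Finset.range (Fintype.card G), (A.ρ g) ^ i :
          Module.End k A.V)).submoduleOf (LinearMap.ker (A.ρ g - 1 : Module.End k A.V))) := by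
  have hepi : Epi (Rep.FiniteCyclicGroup.groupCohomologyπEven A g hg 2 ⟨1, rfl⟩) := by
    unfold Rep.FiniteCyclicGroup.groupCohomologyπEven
    infer_instance
  have hsurj := (ModuleCat.epi_iff_surjective _).mp hepi
  rw [← bridge_norm_eq A.ρ g hg]
  exact bridge_card (A.ρ g - 1 : Module.End k A.V) (Representation.norm A.ρ)
    (Rep.FiniteCyclicGroup.groupCohomologyπEven A g hg 2 ⟨1, rfl⟩).hom hsurj
    (fun x => Rep.FiniteCyclicGroup.groupCohomologyπEven_eq_zero_iff A g hg 2 ⟨1, rfl⟩ x)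

theorem bridge_H1 :
    Nat.card (groupCohomology.H1 A) =
      Nat.card (↥(LinearMap.ker (∑ i ∈ Finset.range (Fintype.card G), (A.ρ g) ^ i :
          Module.End k A.V)) ⧸
        (LinearMap.range (A.ρ g - 1 : Module.End k A.V)).submoduleOf
          (LinearMap.ker (∑ i ∈ Finset.range (Fintype.card G), (A.ρ g) ^ i :
            Module.End k A.V))) := by
  have hepi : Epi (Rep.FiniteCyclicGroup.groupCohomologyπOdd A g hg 1 ⟨0, rfl⟩) := by
    unfold Rep.FiniteCyclicGroup.groupCohomologyπOdd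
    infer_instance
  have hsurj := (ModuleCat.epi_iff_surjective _).mp hepi
  rw [← bridge_norm_eq A.ρ g hg]
  exact bridge_card (Representation.norm A.ρ) (A.ρ g - 1 : Module.End k A.V)
    (Rep.FiniteCyclicGroup.groupCohomologyπOdd A g hg 1 ⟨0, rfl⟩).hom hsurj
    (fun x => Rep.FiniteCyclicGroup.groupCohomologyπOdd_eq_zero_iff A g hg 1 ⟨0, rfl⟩ x)

end generic

/-- **HQ-bridge.** -/
theorem stmtBridge : StmtBridge := by
  intro G _ _ A g hg
  exact ⟨bridge_H2 A g hg, bridge_H1 A g hg⟩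

end Fermat.Agent.PT.G1


end ZBPT_020_0

/-! ### bundled: `Fermat.Agent.PT.L.H2Le` -/
section ZBPT_020_1

/-!
# PT-L, piece L5: the upper bound `|H²(F'/F, F'ˣ)| ≤ [F' : F]` for `p`-extensions (`StmtH2Le`)
-/

set_option autoImplicit false
set_option linter.unusedSectionVars false
set_option linter.style.haveILetI false

namespace Fermat.Agent.PT.L

open Additive CategoryTheory groupCohomology

section Cyclic

variable {F F' : Type} [Field F] [Field F'] [Algebra F F'] [FiniteDimensional F F'] [IsGalois F F']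

lemma l5_rho_pow (σ : F' ≃ₐ[F] F') (i : ℕ) (x : Additive F'ˣ) :
    (((Rep.ofAlgebraAutOnUnits F F').ρ σ) ^ i) x = ((l2σ σ) ^ i) x := by
  induction i generalizing x with
  | zero => rfl
  | succ i ih =>
    rw [pow_succ, pow_succ]
    exact ih (l2σ σ x)

lemma l5_nEnd_apply_aux (σ : F' ≃ₐ[F] F') (n : ℕ) (x : Additive F'ˣ) :
    (Fermat.Agent.PT.G1.nEnd ((Rep.ofAlgebraAutOnUnits F F').ρ σ) n) x =
      ∑ i ∈ Finset.range n, (((Rep.ofAlgebraAutOnUnits F F').ρ σ) ^ i) x := by
  induction n with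
  | zero =>
    have e1 : Fermat.Agent.PT.G1.nEnd ((Rep.ofAlgebraAutOnUnits F F').ρ σ) 0 = 0 :=
      Finset.sum_range_zero _
    rw [e1, Finset.sum_range_zero]
    rfl
  | succ k ih =>
    have e1 : Fermat.Agent.PT.G1.nEnd ((Rep.ofAlgebraAutOnUnits F F').ρ σ) (k + 1) =
        Fermat.Agent.PT.G1.nEnd ((Rep.ofAlgebraAutOnUnits F F').ρ σ) k +
          ((Rep.ofAlgebraAutOnUnits F F').ρ σ) ^ k := Finset.sum_range_succ _ _
    rw [e1, Finset.sum_range_succ, ← ih]
    rfl

lemma l5_nEnd_apply (σ : F' ≃ₐ[F] F') (n : ℕ) (x : Additive F'ˣ) :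
    (Fermat.Agent.PT.G1.nEnd ((Rep.ofAlgebraAutOnUnits F F').ρ σ) n) x = hqNorm (l2σ σ) n x := by
  rw [l2_hqNorm_apply, l5_nEnd_apply_aux]
  exact Finset.sum_congr rfl fun i _ => l5_rho_pow σ i x

lemma l5_D_apply (σ : F' ≃ₐ[F] F') (x : Additive F'ˣ) :
    ((Rep.ofAlgebraAutOnUnits F F').ρ σ - 1) x = hqDelta (l2σ σ) x := rfl

attribute [local instance] IsCyclic.commGroup in
/-- For a cyclic extension, `|H²(F'/F, F'ˣ)|` is the norm index. -/
theorem l5_card_H2_cyclic [IsCyclic (F' ≃ₐ[F] F')] (σ : F' ≃ₐ[F] F')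
    (hσ : ∀ τ, τ ∈ Subgroup.zpowers σ) :
    Nat.card (H2 (Rep.ofAlgebraAutOnUnits F F')) = (normSubgroup F F').index := by
  have hb := (Fermat.Agent.PT.G1.stmtBridge (F' ≃ₐ[F] F') (Rep.ofAlgebraAutOnUnits F F') σ hσ).1
  rw [hb, ← l2_hq0_units σ hσ]
  have hcard : Fintype.card (F' ≃ₐ[F] F') = Module.finrank F F' := by
    rw [← Nat.card_eq_fintype_card, IsGalois.card_aut_eq_finrank]
  rw [hcard, Fermat.Agent.PT.G1.Hex.hqCard_eq_relIndex]
  unfold hq0
  have h1 : (LinearMap.toAddMonoidHom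
      (Fermat.Agent.PT.G1.nEnd ((Rep.ofAlgebraAutOnUnits F F').ρ σ)
        (Module.finrank F F'))).range = (hqNorm (l2σ σ) (Module.finrank F F')).range := by
    ext x
    constructor
    · rintro ⟨y, rfl⟩
      exact ⟨y, (l5_nEnd_apply σ _ y).symm⟩
    · rintro ⟨y, rfl⟩
      exact ⟨y, l5_nEnd_apply σ _ y⟩
  have h2 : ((Rep.ofAlgebraAutOnUnits F F').ρ σ - 1).toAddMonoidHom.ker =
      (hqDelta (l2σ σ)).ker := by
    ext x
    rfl
  rw [h1, h2]
  rfl

end Cyclic

/-! ### A counting lemma -/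

lemma l5_card_le {A B C : Type*} [AddCommGroup A] [AddCommGroup B] [AddCommGroup C]
    (f : A →+ B) (g : B →+ C) (hex : ∀ x, g x = 0 → ∃ y, f y = x) [Finite A] [Finite C] :
    Finite B ∧ Nat.card B ≤ Nat.card A * Nat.card C := by
  classical
  -- `ker g` injects into `A`
  have hker : ∀ x : g.ker, ∃ y : A, f y = (x : B) := fun x => hex x x.2
  choose φ hφ using hker
  have hφinj : Function.Injective φ := by
    intro x y hxy
    apply Subtype.ext
    rw [← hφ x, ← hφ y, hxy]
  have hkerfin : Finite g.ker := Finite.of_injective φ hφinj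
  have hkerle : Nat.card g.ker ≤ Nat.card A := Nat.card_le_card_of_injective φ hφinj
  have hrangefin : Finite g.range := inferInstance
  have hrangele : Nat.card g.range ≤ Nat.card C :=
    Nat.card_le_card_of_injective (fun x : g.range => (x : C)) Subtype.val_injective
  have hquot : Nat.card (B ⧸ g.ker) = Nat.card g.range :=
    Nat.card_congr (QuotientAddGroup.quotientKerEquivRange g).toEquiv
  have hcard : Nat.card B = Nat.card (B ⧸ g.ker) * Nat.card g.ker :=
    AddSubgroup.card_eq_card_quotient_mul_card_addSubgroup g.ker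
  rw [hquot] at hcard
  have hne : Nat.card B ≠ 0 := by
    rw [hcard]
    exact mul_ne_zero Nat.card_pos.ne' Nat.card_pos.ne'
  refine ⟨Nat.finite_of_card_ne_zero hne, ?_⟩
  rw [hcard, mul_comm]
  exact Nat.mul_le_mul hkerle hrangele

/-! ### The cyclic case -/

section CyclicLocal

lemma l5_cyclic (q : ℕ) [Fact q.Prime] {F F' : Type} [Field F] [Field F'] [Algebra ℚ_[q] F]
    [FiniteDimensional ℚ_[q] F] [Algebra F F'] [FiniteDimensional F F'] [IsGalois F F']
    (hN : StmtNormIndex) (hcyc : IsCyclic (F' ≃ₐ[F] F')) :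
    Finite (H2 (Rep.ofAlgebraAutOnUnits F F')) ∧
      Nat.card (H2 (Rep.ofAlgebraAutOnUnits F F')) = Module.finrank F F' := by
  obtain ⟨σ, hσ⟩ := hcyc.exists_generator
  have h1 : Nat.card (H2 (Rep.ofAlgebraAutOnUnits F F')) = Module.finrank F F' := by
    rw [l5_card_H2_cyclic σ hσ]
    exact hN q F F' hcyc
  refine ⟨Nat.finite_of_card_ne_zero ?_, h1⟩
  rw [h1]
  exact (Module.finrank_pos).ne'

end CyclicLocal

/-! ### The induction -/

/-- The inductive step, for a normal subgroup `Z` of order `p`. -/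
theorem l5_step (hN : StmtNormIndex) (hIR : StmtInfResField) (q : ℕ) [Fact q.Prime] (p : ℕ)
    [Fact p.Prime] (k : ℕ)
    (ih : ∀ (F F' : Type) [Field F] [Field F'] [Algebra ℚ_[q] F]
      [FiniteDimensional ℚ_[q] F] [Algebra F F'] [FiniteDimensional F F'] [IsGalois F F'],
      Module.finrank F F' = p ^ k →
        Finite (H2 (Rep.ofAlgebraAutOnUnits F F')) ∧
        Nat.card (H2 (Rep.ofAlgebraAutOnUnits F F')) ≤ p ^ k)
    (F F' : Type) [Field F] [Field F'] [Algebra ℚ_[q] F]
    [FiniteDimensional ℚ_[q] F] [Algebra F F'] [FiniteDimensional F F'] [IsGalois F F']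
    (hdeg : Module.finrank F F' = p ^ (k + 1))
    (Z : Subgroup (F' ≃ₐ[F] F')) (hZn : Z.Normal) (hZcard : Nat.card Z = p) :
    Finite (H2 (Rep.ofAlgebraAutOnUnits F F')) ∧
      Nat.card (H2 (Rep.ofAlgebraAutOnUnits F F')) ≤ p ^ (k + 1) := by
  have hp : p.Prime := Fact.out
  -- the intermediate field
  have h1 : Module.finrank (IntermediateField.fixedField Z) F' = p := by
    rw [IntermediateField.finrank_fixedField_eq_card, hZcard]
  have h2 : Module.finrank F (IntermediateField.fixedField Z) = p ^ k := by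
    have := Module.finrank_mul_finrank F (IntermediateField.fixedField Z) F'
    rw [h1, hdeg, pow_succ] at this
    exact Nat.eq_of_mul_eq_mul_right hp.pos this
  have hgal : IsGalois F (IntermediateField.fixedField Z) :=
    IsGalois.of_fixedField_normal_subgroup Z
  obtain ⟨hAfin, hAle⟩ := ih F (IntermediateField.fixedField Z) h2
  -- the top layer is cyclic of degree `p`
  letI : Algebra ℚ_[q] (IntermediateField.fixedField Z) :=
    ((algebraMap F (IntermediateField.fixedField Z)).comp (algebraMap ℚ_[q] F)).toAlgebra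
  haveI : IsScalarTower ℚ_[q] F (IntermediateField.fixedField Z) :=
    IsScalarTower.of_algebraMap_eq (fun x => rfl)
  haveI : FiniteDimensional ℚ_[q] (IntermediateField.fixedField Z) :=
    FiniteDimensional.trans ℚ_[q] F (IntermediateField.fixedField Z)
  have hcardC : Nat.card (F' ≃ₐ[IntermediateField.fixedField Z] F') = p := by
    rw [IsGalois.card_aut_eq_finrank, h1]
  have hcyc : IsCyclic (F' ≃ₐ[IntermediateField.fixedField Z] F') :=
    isCyclic_of_prime_card hcardC
  obtain ⟨hCfin, hCcard⟩ := l5_cyclic q (F := IntermediateField.fixedField Z) (F' := F') hN hcyc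
  rw [h1] at hCcard
  -- inflation-restriction
  have hex : ∀ x, (resF F (IntermediateField.fixedField Z) F').hom x = 0 →
      ∃ y, (infl F (IntermediateField.fixedField Z) F').hom y = x :=
    fun x hx => hIR F (IntermediateField.fixedField Z) F' x hx
  obtain ⟨hBfin, hBle⟩ := l5_card_le
    ((infl F (IntermediateField.fixedField Z) F').hom : _ →ₗ[ℤ] _).toAddMonoidHom
    ((resF F (IntermediateField.fixedField Z) F').hom : _ →ₗ[ℤ] _).toAddMonoidHom hex
  refine ⟨hBfin, hBle.trans ?_⟩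
  rw [hCcard, pow_succ]
  exact Nat.mul_le_mul_right p hAle

theorem l5_main (hN : StmtNormIndex) (hIR : StmtInfResField) (q : ℕ) [Fact q.Prime] (p : ℕ)
    [Fact p.Prime] : ∀ (k : ℕ) (F F' : Type) [Field F] [Field F'] [Algebra ℚ_[q] F]
    [FiniteDimensional ℚ_[q] F] [Algebra F F'] [FiniteDimensional F F'] [IsGalois F F'],
    Module.finrank F F' = p ^ k →
      Finite (H2 (Rep.ofAlgebraAutOnUnits F F')) ∧
      Nat.card (H2 (Rep.ofAlgebraAutOnUnits F F')) ≤ p ^ k := by
  intro k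
  induction k with
  | zero =>
    intro F F' _ _ _ _ _ _ _ hdeg
    rw [pow_zero] at hdeg
    have hcard : Nat.card (F' ≃ₐ[F] F') = 1 := by
      rw [IsGalois.card_aut_eq_finrank, hdeg]
    have hsub : Subsingleton (F' ≃ₐ[F] F') := (Nat.card_eq_one_iff_unique.mp hcard).1
    have hcyc : IsCyclic (F' ≃ₐ[F] F') := isCyclic_of_subsingleton
    obtain ⟨h1, h2⟩ := l5_cyclic q hN hcyc
    exact ⟨h1, by rw [h2, hdeg, pow_zero]⟩
  | succ k ih =>
    intro F F' _ _ _ _ _ _ _ hdeg
    have hp : p.Prime := Fact.out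
    have hcard : Nat.card (F' ≃ₐ[F] F') = p ^ (k + 1) := by
      rw [IsGalois.card_aut_eq_finrank, hdeg]
    have hpg : IsPGroup p (F' ≃ₐ[F] F') := IsPGroup.of_card hcard
    have hnt : Nontrivial (F' ≃ₐ[F] F') := by
      rw [← Finite.one_lt_card_iff_nontrivial, hcard]
      exact Nat.one_lt_pow (Nat.succ_ne_zero k) hp.one_lt
    -- a central element of order `p`
    have hcnt : Nontrivial (Subgroup.center (F' ≃ₐ[F] F')) := hpg.center_nontrivial
    have hcpg : IsPGroup p (Subgroup.center (F' ≃ₐ[F] F')) := hpg.to_subgroup _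
    obtain ⟨m, hm⟩ := IsPGroup.iff_card.mp hcpg
    have hm0 : m ≠ 0 := by
      rintro rfl
      rw [pow_zero] at hm
      have := (Nat.card_eq_one_iff_unique.mp hm).1
      exact not_subsingleton _ this
    have hdvd : p ∣ Nat.card (Subgroup.center (F' ≃ₐ[F] F')) := by
      rw [hm]
      exact dvd_pow_self p hm0
    obtain ⟨z, hz⟩ := exists_prime_orderOf_dvd_card' p hdvd
    have hzc : ∀ h ∈ Subgroup.zpowers (z : F' ≃ₐ[F] F'), h ∈ Subgroup.center (F' ≃ₐ[F] F') :=
      fun h hh => (Subgroup.zpowers_le.mpr z.2) hh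
    have hZn : (Subgroup.zpowers (z : F' ≃ₐ[F] F')).Normal := by
      constructor
      intro h hh g
      have hc := Subgroup.mem_center_iff.mp (hzc h hh) g
      have : g * h * g⁻¹ = h := by
        rw [hc, mul_assoc, mul_inv_cancel, mul_one]
      rw [this]
      exact hh
    have hZcard : Nat.card (Subgroup.zpowers (z : F' ≃ₐ[F] F')) = p := by
      rw [Nat.card_zpowers, Subgroup.orderOf_coe, hz]
    exact l5_step hN hIR q p k ih F F' hdeg (Subgroup.zpowers (z : F' ≃ₐ[F] F')) hZn hZcard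

/-- **L5**: `|H²(F'/F, F'ˣ)| ≤ [F' : F]` for Galois extensions of `p`-power degree. -/
theorem stmtH2Le (hN : StmtNormIndex) (hIR : StmtInfResField) : StmtH2Le := by
  intro q _ p _ k F F' _ _ _ _ _ _ _ hdeg
  exact l5_main hN hIR q p k F F' hdeg

end Fermat.Agent.PT.L


end ZBPT_020_1

/-! ### bundled: `Fermat.Agent.PT.G3.Layer` -/
section ZBPT_020_2
/-
PT-G3, piece **layer** (helper63): the layer hypothesis `LayerHyp p (csRep S L)` for the class
module `C_S(L)`, from the cyclic case (`G.StmtCSCyclicRel`), Galois descent (`G.StmtCSDescent`),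
injectivity of `csMap` (`G.StmtCSMapInj`) and unramifiedness in towers (`StmtUnramTower`).

`P ≤ Aut(L)` a `p`-group, `P' ◁ P` of index `p`, `K := L^{P'}`, `g ∈ P ∖ P'`, `σ' := g|_K` of order
`p`; `csMap : C_S(K) ≃ C_S(L)^{P'}` intertwines `σ'` and the action of `g P'`; HQ-bridge.
-/

set_option autoImplicit false

namespace Fermat.Agent.PT.G3

open CategoryTheory groupCohomology NumberField IsDedekindDomain
open Fermat.Agent.PT Fermat.Agent.PT.G Fermat.Agent.PT.G1

section Restrict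

variable {L : Type} [Field L] [NumberField L]

/-- `g` maps the fixed field of `H` into itself when `g⁻¹ H g ⊆ H`. -/
lemma layer_mem_fixedField (H : Subgroup (L ≃ₐ[ℚ] L)) (g : L ≃ₐ[ℚ] L)
    (hg : ∀ h ∈ H, g⁻¹ * h * g ∈ H) (x : L) (hx : x ∈ IntermediateField.fixedField H) :
    g x ∈ IntermediateField.fixedField H := by
  rw [IntermediateField.mem_fixedField_iff] at hx ⊢
  intro h hh
  have h1 := hx (g⁻¹ * h * g) (hg h hh)
  have h2 : (g⁻¹ * h * g) x = g⁻¹ (h (g x)) := rfl
  rw [h2] at h1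
  have h3 : g (g⁻¹ (h (g x))) = h (g x) := g.apply_symm_apply _
  rw [← h3, h1]

/-- the restriction of `g` to the fixed field of `H`, as an algebra endomorphism -/
noncomputable def layerResHom (H : Subgroup (L ≃ₐ[ℚ] L)) (g : L ≃ₐ[ℚ] L)
    (hg : ∀ h ∈ H, g⁻¹ * h * g ∈ H) :
    ↥(IntermediateField.fixedField H) →ₐ[ℚ] ↥(IntermediateField.fixedField H) where
  toFun x := ⟨g (x : L), layer_mem_fixedField H g hg x x.2⟩
  map_one' := Subtype.ext (map_one g)
  map_mul' x y := Subtype.ext (map_mul g (x : L) (y : L))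
  map_zero' := Subtype.ext (map_zero g)
  map_add' x y := Subtype.ext (map_add g (x : L) (y : L))
  commutes' r := Subtype.ext (g.commutes r)

/-- the restriction of `g` to the fixed field of `H`, as an automorphism -/
noncomputable def layerRes (H : Subgroup (L ≃ₐ[ℚ] L)) (g : L ≃ₐ[ℚ] L)
    (hg : ∀ h ∈ H, g⁻¹ * h * g ∈ H) :
    ↥(IntermediateField.fixedField H) ≃ₐ[ℚ] ↥(IntermediateField.fixedField H) :=
  AlgEquiv.ofBijective (layerResHom H g hg) (AlgHom.bijective _)

lemma layerRes_apply (H : Subgroup (L ≃ₐ[ℚ] L)) (g : L ≃ₐ[ℚ] L)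
    (hg : ∀ h ∈ H, g⁻¹ * h * g ∈ H) (x : ↥(IntermediateField.fixedField H)) :
    ((layerRes H g hg x : ↥(IntermediateField.fixedField H)) : L) = g (x : L) := rfl

lemma layerRes_restricts (H : Subgroup (L ≃ₐ[ℚ] L)) (g : L ≃ₐ[ℚ] L)
    (hg : ∀ h ∈ H, g⁻¹ * h * g ∈ H) : Restricts g (layerRes H g hg) := fun _ => rfl

lemma layerRes_pow_apply (H : Subgroup (L ≃ₐ[ℚ] L)) (g : L ≃ₐ[ℚ] L)
    (hg : ∀ h ∈ H, g⁻¹ * h * g ∈ H) (n : ℕ) (x : ↥(IntermediateField.fixedField H)) :
    (((layerRes H g hg ^ n) x : ↥(IntermediateField.fixedField H)) : L) = (g ^ n) (x : L) := by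
  induction n generalizing x with
  | zero => rfl
  | succ n ih =>
    rw [pow_succ, pow_succ]
    show (((layerRes H g hg ^ n) (layerRes H g hg x) : ↥(IntermediateField.fixedField H)) : L) =
      (g ^ n) (g (x : L))
    rw [ih]
    rfl

end Restrict

lemma layer_nEnd_comm {A B : Type} [AddCommGroup A] [AddCommGroup B] [Module ℤ A] [Module ℤ B]
    (f : A →ₗ[ℤ] B) (σA : Module.End ℤ A) (σB : Module.End ℤ B) (h : f ∘ₗ σA = σB ∘ₗ f) (n : ℕ) :
    f ∘ₗ nEnd σA n = nEnd σB n ∘ₗ f := by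
  have hpow : ∀ i : ℕ, f ∘ₗ (σA ^ i) = (σB ^ i) ∘ₗ f := by
    intro i
    induction i with
    | zero => rfl
    | succ i ih =>
      rw [pow_succ, pow_succ]
      show (f ∘ₗ (σA ^ i)) ∘ₗ σA = (σB ^ i) ∘ₗ (σB ∘ₗ f)
      rw [ih, ← h]
      rfl
  apply LinearMap.ext
  intro x
  rw [LinearMap.comp_apply, LinearMap.comp_apply, nEnd, nEnd, LinearMap.sum_apply,
    LinearMap.sum_apply, map_sum]
  refine Finset.sum_congr rfl fun i _ => ?_
  exact LinearMap.congr_fun (hpow i) x

/-- **G3-layer**: the layer hypothesis for `C_S(L)`, `L / ℚ` unramified outside `S ≠ ∅`, `p` odd. -/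
theorem stmtLayer_of (hC : G.StmtCSCyclicRel) (hD : G.StmtCSDescent) (hI : G.StmtCSMapInj)
    (hT : StmtUnramTower) : StmtLayer := by
  intro p _ hp2 S hS L _ _ hun P hP P' _ hidx
  have hp : p.Prime := Fact.out
  set A : Rep.{0} ℤ (↥P ⧸ P') := (Rep.res P.subtype (csRep S L)).quotientToInvariants P' with hA
  -- the fixed field
  set H : Subgroup (L ≃ₐ[ℚ] L) := P'.map P.subtype with hH
  set K : IntermediateField ℚ L := IntermediateField.fixedField H with hK
  have hfix : K.fixingSubgroup = H := IntermediateField.fixingSubgroup_fixedField H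
  have hGal : IsGalois K L := uhq_isGalois_fixedField H
  have hmemH : ∀ τ : L ≃ₐ[ℚ] L, τ ∈ H ↔ ∀ x : K, τ (algebraMap K L x) = algebraMap K L x := by
    intro τ
    rw [← hfix, IntermediateField.mem_fixingSubgroup_iff]
    constructor
    · intro h x
      exact h x x.2
    · intro h x hx
      exact h ⟨x, hx⟩
  obtain ⟨hunKL, hunK⟩ := hT S ℚ K L hun
  -- invariants
  set Inv : Submodule ℤ (CS S L) := Representation.invariants
      ((Rep.res P.subtype (csRep S L)).ρ.comp P'.subtype) with hInv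
  have hinvmem : ∀ c : CS S L, c ∈ Inv ↔ ∀ τ ∈ H, csEnd S τ c = c := by
    intro c
    constructor
    · intro h τ hτ
      obtain ⟨s, hs, rfl⟩ := hτ
      exact h ⟨s, hs⟩
    · intro h s
      exact h _ ⟨s, s.2, rfl⟩
  set φ : CS S K →ₗ[ℤ] ↥Inv := LinearMap.codRestrict Inv (csMap S K L) (fun c => by
    rw [hinvmem]
    intro τ hτ
    exact csEnd_csMap_of_fixes S ((hmemH τ).1 hτ) c) with hφ
  have hφinj : Function.Injective φ := by
    intro a b hab
    apply hI S K L hS
    exact congrArg Subtype.val hab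
  have hφsurj : Function.Surjective φ := by
    intro c
    obtain ⟨c₀, hc₀⟩ := hD S K L hS hunKL (c : CS S L) (fun τ hτ =>
      (hinvmem _).1 c.2 τ ((hmemH τ).2 hτ))
    exact ⟨c₀, Subtype.ext hc₀⟩
  set e : CS S K ≃ₗ[ℤ] ↥Inv := LinearEquiv.ofBijective φ ⟨hφinj, hφsurj⟩ with he
  -- a generator
  have hcardQ : Nat.card (↥P ⧸ P') = p := by rw [← Subgroup.index_eq_card, hidx]
  have hne : P' ≠ ⊤ := by
    intro h
    rw [h, Subgroup.index_top] at hidx
    exact hp.one_lt.ne hidx
  obtain ⟨g, hg⟩ : ∃ g : ↥P, g ∉ P' := by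
    by_contra hcon
    exact hne (Subgroup.eq_top_iff' P' |>.2 fun x => by
      by_contra hx
      exact hcon ⟨x, hx⟩)
  set gq : ↥P ⧸ P' := QuotientGroup.mk g with hgq
  have hgq1 : gq ≠ 1 := by
    intro h
    exact hg ((QuotientGroup.eq_one_iff g).1 h)
  have hgen : ∀ x : ↥P ⧸ P', x ∈ Subgroup.zpowers gq := fun x =>
    mem_zpowers_of_prime_card hcardQ hgq1
  -- the restriction of `g` to `K`
  have hgnorm : ∀ h ∈ H, (g : L ≃ₐ[ℚ] L)⁻¹ * h * (g : L ≃ₐ[ℚ] L) ∈ H := by
    rintro _ ⟨s, hs, rfl⟩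
    exact ⟨g⁻¹ * s * g, Subgroup.Normal.conj_mem' inferInstance s hs g, rfl⟩
  set σ' : ↥K ≃ₐ[ℚ] ↥K := layerRes H (g : L ≃ₐ[ℚ] L) hgnorm with hσ'
  have hres : Restricts (g : L ≃ₐ[ℚ] L) σ' := layerRes_restricts H _ hgnorm
  have hgp : g ^ p ∈ P' := by
    rw [← QuotientGroup.eq_one_iff, QuotientGroup.mk_pow, ← hcardQ]
    exact pow_card_eq_one'
  have hσp : σ' ^ p = 1 := by
    apply AlgEquiv.ext
    intro x
    apply Subtype.ext
    rw [hσ', layerRes_pow_apply]
    have h1 : ((g : L ≃ₐ[ℚ] L) ^ p) ∈ H := ⟨g ^ p, hgp, rfl⟩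
    exact (hmemH _).1 h1 x
  have hσ1 : σ' ≠ 1 := by
    intro h
    apply hg
    have h1 : (g : L ≃ₐ[ℚ] L) ∈ H := by
      rw [hmemH]
      intro x
      have h2 := hres x
      rw [h] at h2
      exact h2
    obtain ⟨s, hs, hsg⟩ := h1
    have : s = g := Subtype.ext hsg
    rw [← this]
    exact hs
  have hord : orderOf σ' = p := orderOf_eq_prime hσp hσ1
  obtain ⟨hunr, -⟩ := hT S ℚ ↥(IntermediateField.fixedField (Subgroup.zpowers σ')) ↥K hunK
  obtain ⟨hc0, hc1⟩ := hC p hp2 ↥K σ' hord S hS hunr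
  -- the action of `g P'` on the invariants
  set ρg : Module.End ℤ ↥Inv := A.ρ gq with hρg
  have hint : e.toLinearMap ∘ₗ csEnd S σ' = ρg ∘ₗ e.toLinearMap := by
    apply LinearMap.ext
    intro c
    apply Subtype.ext
    show csMap S ↥K L (csEnd S σ' c) = csEnd S (g : L ≃ₐ[ℚ] L) (csMap S ↥K L c)
    rw [csEnd_csMap S hres]
  have hintD : e.toLinearMap ∘ₗ (csEnd S σ' - 1) = (ρg - 1) ∘ₗ e.toLinearMap := by
    rw [LinearMap.comp_sub, LinearMap.sub_comp, hint]
    rfl
  have hintN : e.toLinearMap ∘ₗ nEnd (csEnd S σ') p = nEnd ρg p ∘ₗ e.toLinearMap :=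
    layer_nEnd_comm _ _ _ hint p
  obtain ⟨hi0, hi1⟩ := stmtIso (CS S ↥K) ↥Inv (csEnd S σ' - 1) (nEnd (csEnd S σ') p)
    (ρg - 1) (nEnd ρg p) e hintD hintN
  rw [hc0] at hi0
  rw [hc1] at hi1
  -- the bridge
  have hfinQ : Finite (↥P ⧸ P') := Nat.finite_of_card_ne_zero (by rw [hcardQ]; exact hp.ne_zero)
  let _ : Fintype (↥P ⧸ P') := Fintype.ofFinite _
  have : IsCyclic (↥P ⧸ P') := isCyclic_of_prime_card hcardQ
  let _ : CommGroup (↥P ⧸ P') := IsCyclic.commGroup
  obtain ⟨hb2, hb1⟩ := stmtBridge (↥P ⧸ P') A gq hgen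
  have hcardF : Fintype.card (↥P ⧸ P') = p := by
    rw [← Nat.card_eq_fintype_card]; exact hcardQ
  rw [hcardF] at hb2 hb1
  have h2 : Nat.card (H2 A) = p := hb2.trans hi0.symm
  have h1 : Nat.card (H1 A) = 1 := hb1.trans hi1.symm
  refine ⟨?_, ?_, ?_⟩
  · exact (Nat.card_eq_one_iff_unique.1 h1).1
  · exact Nat.finite_of_card_ne_zero (by rw [h2]; exact hp.ne_zero)
  · exact h2.le

end Fermat.Agent.PT.G3


end ZBPT_020_2
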