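/- GENERATED FILE (helper35, build-time optimisation, NOTES/ZB.md): verbatim concatenation of the modules
   Fermat.Agent.PT.X.Tate
   Do not edit; do not import together with these modules. -/
import Fermat.Agent.ZB.PT_002

/-! ### bundled: `Fermat.Agent.PT.X.Tate` -/
section ZBPT_024_0
/-
PT-X, piece X6 (helper69): **Tate's theorem in degree 0**, counting form, from Tate–Nakayama.

For a finite group `G` of exponent `p` with a fundamental class `u ∈ H²(G, C)`:
* (T1) `tateExp : StmtTNp → StmtTateExp`: `p • C^G ⊆ N_G C`;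
* (T2) `tateIdx : StmtTNp → StmtNormZero → StmtTateIdx`: if `G` is abelian, then
  `|G| ≤ [C^G : N_G C]` (when the index is finite).

Inputs (as hypotheses): `StmtTNp` (Tate–Nakayama for `p`-groups) and `StmtNormZero`, both of
`PT/A/Plan2.lean`, applied to `M = ℤ`.  The proof uses explicit cocycles only:
the classes `β(χ) = [d(χ̃)/p] ∈ H²(G, ℤ)` of the characters `χ : G → μ_p`.
-/

set_option autoImplicit false
set_option linter.style.haveILetI false
set_option linter.unusedSectionVars false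

namespace Fermat.Agent.PT.X

open CategoryTheory groupCohomology Fermat.Agent.PT

/-- (T1) -/
def StmtTateExp : Prop :=
  ∀ (p : ℕ) [Fact p.Prime] (G : Type) [Group G] [Fintype G], (∀ g : G, g ^ p = 1) →
    ∀ (C : Rep.{0} ℤ G) (u : H2 C), IsFundClass C u →
    ∀ c : C.V, (∀ g : G, C.ρ g c = c) → IsNormElt C (p • c)

/-- (T2) -/
def StmtTateIdx : Prop :=
  ∀ (p : ℕ) [Fact p.Prime] (G : Type) [Group G] [Fintype G],
    (∀ a b : G, a * b = b * a) → (∀ g : G, g ^ p = 1) →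
    ∀ (C : Rep.{0} ℤ G) (u : H2 C), IsFundClass C u →
    ∀ (I N : AddSubgroup C.V), (∀ c, c ∈ I ↔ ∀ g : G, C.ρ g c = c) →
      (∀ c, c ∈ N ↔ IsNormElt C c) →
      N.relIndex I ≠ 0 → Nat.card G ≤ N.relIndex I


namespace TateZero

attribute [local instance 1100] Rep.hV2

variable {G : Type} [Group G]

/-- The trivial module `ℤ` is `ℤ`-free of finite rank. -/
theorem isZFree_trivial : IsZFree (Rep.trivial ℤ G ℤ) :=
  ⟨1, ⟨(AddEquiv.funUnique (Fin 1) ℤ).symm⟩⟩

/-- The morphism `ℤ ⟶ C`, `m ↦ m • c`, attached to a `G`-invariant element `c`. -/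
noncomputable def unitHom (C : Rep.{0} ℤ G) (c : C.V) (hc : ∀ g : G, C.ρ g c = c) :
    Rep.trivial ℤ G ℤ ⟶ C :=
  ConcreteCategory.ofHom (C := Rep.{0} ℤ G) (X := Rep.trivial ℤ G ℤ) (Y := C)
   (LinearMap.intertwiningMap_of_isIntertwiningMap
    (ρ := (Rep.trivial ℤ G ℤ).ρ) (σ := C.ρ)
    (f := addToLin (zmultiplesHom C.V c))
    (fun g m => by
      simp [hc]))

theorem unitHom_apply (C : Rep.{0} ℤ G) (c : C.V) (hc : ∀ g : G, C.ρ g c = c) (m : ℤ) :
    (unitHom C c hc).hom m = zmultiplesHom C.V c m := rfl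

theorem trivial_ρ_apply' (g : G) (m : ℤ) : (Rep.trivial ℤ G ℤ).ρ g m = m := by
  simp

/-- the pairing at cocycle level -/
noncomputable def pairCl (C : Rep.{0} ℤ G) (x : cocycles₂ (Rep.trivial ℤ G ℤ)) (c : C.V)
    (hc : ∀ g : G, C.ρ g c = c) : H2 C :=
  H2π C (mapCocycles₂ (MonoidHom.id G) (unitHom C c hc) x)

theorem push_unitHom (C : Rep.{0} ℤ G) (x : cocycles₂ (Rep.trivial ℤ G ℤ)) (c : C.V)
    (hc : ∀ g : G, C.ρ g c = c) :
    (push₂ (unitHom C c hc)).hom (H2π _ x) = pairCl C x c hc :=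
  H2π_comp_map_apply _ _ x

theorem mapCocycles₂_unitHom_apply (C : Rep.{0} ℤ G) (x : cocycles₂ (Rep.trivial ℤ G ℤ)) (c : C.V)
    (hc : ∀ g : G, C.ρ g c = c) (ab : G × G) :
    (mapCocycles₂ (MonoidHom.id G) (unitHom C c hc) x : G × G → C.V) ab =
      zmultiplesHom C.V c (x.1 ab) := rfl

theorem push_eq_unitHom (C : Rep.{0} ℤ G) (g : Rep.trivial ℤ G ℤ ⟶ C) :
    ∃ (c : C.V) (hc : ∀ s : G, C.ρ s c = c), g = unitHom C c hc := by
  refine ⟨g.hom (1 : ℤ), fun s => ?_, ?_⟩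
  · have := Rep.hom_comm_apply g s (1 : ℤ)
    simpa using this.symm
  · ext
    exact (one_zsmul _).symm


/-! ### The cocycles attached to `p`-quasi-characters -/

/-- `(a x + a y - a (x y)) / p` -/
def quasiCoc (p : ℕ) (a : G → ℤ) : G × G → ℤ :=
  fun xy => (a xy.1 + a xy.2 - a (xy.1 * xy.2)) / (p : ℤ)

/-- `a : G → ℤ` is additive modulo `p`. -/
def IsQuasi (p : ℕ) (a : G → ℤ) : Prop := ∀ x y : G, (p : ℤ) ∣ a x + a y - a (x * y)

theorem quasiCoc_mul {p : ℕ} {a : G → ℤ} (ha : IsQuasi p a) (x y : G) :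
    (p : ℤ) * quasiCoc p a (x, y) = a x + a y - a (x * y) :=
  Int.mul_ediv_cancel' (ha x y)

theorem quasiCoc_mem {p : ℕ} (hp : p ≠ 0) {a : G → ℤ} (ha : IsQuasi p a) :
    quasiCoc p a ∈ cocycles₂ (Rep.trivial ℤ G ℤ) := by
  rw [mem_cocycles₂_iff]
  intro g h j
  have hp' : (p : ℤ) ≠ 0 := by exact_mod_cast hp
  apply mul_left_cancel₀ hp'
  have e : (Rep.trivial ℤ G ℤ).ρ g (quasiCoc p a (h, j)) = quasiCoc p a (h, j) := by simp
  rw [e, mul_add, mul_add, quasiCoc_mul ha, quasiCoc_mul ha, quasiCoc_mul ha, quasiCoc_mul ha,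
    mul_assoc]
  ring

/-- a homomorphism from a finite group to `ℤ` vanishes -/
theorem eq_zero_of_additive [Finite G] (φ : G → ℤ) (h : ∀ x y : G, φ (x * y) = φ x + φ y)
    (g : G) : φ g = 0 := by
  let ψ : G →* Multiplicative ℤ :=
    { toFun := fun x => Multiplicative.ofAdd (φ x)
      map_one' := by
        have := h 1 1
        rw [mul_one] at this
        have h0 : φ 1 = 0 := by linarith
        simp [h0]
      map_mul' := fun x y => by simp [h x y] }
  have h1 : ψ g ^ orderOf g = 1 := by rw [← map_pow, pow_orderOf_eq_one, map_one]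
  have h2 : (orderOf g) • φ g = 0 := by
    have := congrArg Multiplicative.toAdd h1
    simpa [ψ] using this
  have h3 : 0 < orderOf g := orderOf_pos g
  rcases smul_eq_zero.1 h2 with h4 | h4
  · omega
  · exact h4

theorem quasi_dvd_of_coboundary [Finite G] {p : ℕ} {a a' : G → ℤ} (ha : IsQuasi p a)
    (ha' : IsQuasi p a')
    (h : quasiCoc p a - quasiCoc p a' ∈ coboundaries₂ (Rep.trivial ℤ G ℤ)) (g : G) :
    (p : ℤ) ∣ a g - a' g := by
  obtain ⟨t, ht⟩ := h
  have key : ∀ x y : G, t y - t (x * y) + t x = quasiCoc p a (x, y) - quasiCoc p a' (x, y) := by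
    intro x y
    have := congrFun ht (x, y)
    simpa [d₁₂_hom_apply] using this
  have hφ := eq_zero_of_additive (fun x => a x - a' x - p * t x) (fun x y => by
    have h1 := quasiCoc_mul ha x y
    have h2 := quasiCoc_mul ha' x y
    have h3 := key x y
    have h4 : (p : ℤ) * (t y - t (x * y) + t x) =
        (p : ℤ) * quasiCoc p a (x, y) - p * quasiCoc p a' (x, y) := by rw [h3]; ring
    simp only
    linarith) g
  exact ⟨t g, by simp only at hφ; linarith⟩


/-! ### Characters -/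

/-- a finite cyclic group has an injective character -/
theorem exists_injective_char (H : Type) [CommGroup H] [Finite H] [IsCyclic H] :
    ∃ ι : H →* ℂˣ, Function.Injective ι := by
  classical
  haveI hne : NeZero ((Monoid.exponent H : ℕ) : ℂ) :=
    ⟨by exact_mod_cast Monoid.exponent_ne_zero_of_finite⟩
  obtain ⟨e⟩ := CommGroup.monoidHom_mulEquiv_of_hasEnoughRootsOfUnity H ℂ
  haveI hc : IsCyclic (H →* ℂˣ) := isCyclic_of_surjective e.symm e.symm.surjective
  obtain ⟨φ, hφ⟩ := IsCyclic.exists_generator (α := H →* ℂˣ)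
  refine ⟨φ, (injective_iff_map_eq_one φ).2 fun x hx => ?_⟩
  rw [← CommGroup.forall_apply_eq_apply_iff (M := ℂ) H]
  intro ψ
  obtain ⟨k, rfl⟩ := Subgroup.mem_zpowers_iff.1 (hφ ψ)
  simp [hx]

theorem card_char_eq (G : Type) [Group G] [Finite G] (hcomm : ∀ a b : G, a * b = b * a) :
    Nat.card (G →* ℂˣ) = Nat.card G := by
  letI : CommGroup G := { (inferInstance : Group G) with mul_comm := hcomm }
  haveI : NeZero ((Monoid.exponent G : ℕ) : ℂ) :=
    ⟨by exact_mod_cast Monoid.exponent_ne_zero_of_finite⟩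
  exact CommGroup.card_monoidHom_of_hasEnoughRootsOfUnity G ℂ

theorem card_char_le (Q : Type) [AddCommGroup Q] [Finite Q] (X : Type)
    (Θ : X → (Multiplicative Q →* ℂˣ)) (hΘ : Function.Injective Θ) :
    Nat.card X ≤ Nat.card Q := by
  haveI : NeZero ((Monoid.exponent (Multiplicative Q) : ℕ) : ℂ) :=
    ⟨by exact_mod_cast Monoid.exponent_ne_zero_of_finite⟩
  have h := CommGroup.card_monoidHom_of_hasEnoughRootsOfUnity (Multiplicative Q) ℂ
  have h2 : Nat.card (Multiplicative Q) = Nat.card Q := Nat.card_congr Multiplicative.toAdd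
  rw [← h2, ← h]
  exact Nat.card_le_card_of_injective Θ hΘ


/-! ### The pairing `C^G × Z²(G, ℤ) → H²(G, C)` -/

section pairing

variable (C : Rep.{0} ℤ G) (I : AddSubgroup C.V) (hI : ∀ c, c ∈ I ↔ ∀ g : G, C.ρ g c = c)

/-- the pairing with a fixed cocycle, as an additive map on the invariants -/
noncomputable def pairHom (x : cocycles₂ (Rep.trivial ℤ G ℤ)) : ↥I →+ H2 C where
  toFun c := pairCl C x c.1 ((hI c.1).1 c.2)
  map_zero' := by
    unfold pairCl
    rw [← map_zero (ConcreteCategory.hom (H2π C))]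
    congr 1
    apply Subtype.ext
    funext ab
    change zmultiplesHom C.V (0 : C.V) (x.1 ab) = 0
    simp only [zmultiplesHom_apply]
    exact zsmul_zero _
  map_add' c c' := by
    unfold pairCl
    rw [← map_add (ConcreteCategory.hom (H2π C))]
    congr 1
    apply Subtype.ext
    funext ab
    change zmultiplesHom C.V (c.1 + c'.1) (x.1 ab) =
      zmultiplesHom C.V c.1 (x.1 ab) + zmultiplesHom C.V c'.1 (x.1 ab)
    simp only [zmultiplesHom_apply]
    exact zsmul_add _ _ _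

theorem pairHom_apply (x : cocycles₂ (Rep.trivial ℤ G ℤ)) (c : ↥I) :
    pairHom C I hI x c = pairCl C x c.1 ((hI c.1).1 c.2) := rfl

theorem pairHom_sub (x y : cocycles₂ (Rep.trivial ℤ G ℤ)) (c : ↥I) :
    pairHom C I hI (x - y) c = pairHom C I hI x c - pairHom C I hI y c := by
  rw [pairHom_apply, pairHom_apply, pairHom_apply]
  unfold pairCl
  rw [← map_sub (ConcreteCategory.hom (H2π C))]
  congr 1
  apply Subtype.ext
  funext ab
  change zmultiplesHom C.V c.1 (x.1 ab - y.1 ab) =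
    zmultiplesHom C.V c.1 (x.1 ab) - zmultiplesHom C.V c.1 (y.1 ab)
  simp only [zmultiplesHom_apply]
  rw [sub_eq_add_neg (x.1 ab • c.1)]
  exact sub_zsmul (c.1 : C.V) _ _

/-- norms pair to zero -/
theorem pairHom_norm [Fintype G] (hN0 : StmtNormZero) (x : cocycles₂ (Rep.trivial ℤ G ℤ))
    (c : ↥I) (hc : IsNormElt C c.1) : pairHom C I hI x c = 0 := by
  rw [pairHom_apply, ← push_unitHom]
  refine hN0 G (Rep.trivial ℤ G ℤ) C _ ?_ _
  obtain ⟨a, ha⟩ := hc
  refine ⟨zmultiplesHom C.V a, fun m => ?_⟩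
  rw [normAdd_apply, unitHom_apply, ha]
  simp only [zmultiplesHom_apply]
  rw [← zsmulAddGroupHom_apply, map_sum]
  refine Finset.sum_congr rfl fun γ _ => ?_
  simp

/-- (R) in terms of `pairHom` -/
theorem eq_zero_of_pairHom (hR : ∀ y : H2 (Rep.trivial ℤ G ℤ),
      (∀ g : Rep.trivial ℤ G ℤ ⟶ C, (push₂ g).hom y = 0) → y = 0)
    (x : cocycles₂ (Rep.trivial ℤ G ℤ)) (h : ∀ c : ↥I, pairHom C I hI x c = 0) :
    (x : G × G → ℤ) ∈ coboundaries₂ (Rep.trivial ℤ G ℤ) := by
  rw [← H2π_eq_zero_iff]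
  apply hR
  intro g
  obtain ⟨c, hc, rfl⟩ := push_eq_unitHom C g
  rw [push_unitHom]
  exact h ⟨c, (hI c).2 hc⟩

end pairing

/-! ### Lifting characters -/

section lift

variable {p : ℕ} {ζ : ℂ}

theorem exists_lift (hp : p ≠ 0) (hζ : IsPrimitiveRoot ζ p) (hexp : ∀ g : G, g ^ p = 1)
    (χ : G →* ℂˣ) : ∃ a : G → ℤ, ∀ g, ζ ^ (a g) = (χ g : ℂ) := by
  have : ∀ g, ∃ i : ℤ, ζ ^ i = (χ g : ℂ) := by
    intro g
    have h1 : ((χ g : ℂˣ) : ℂ) ^ p = 1 := by
      rw [← Units.val_pow_eq_pow_val, ← map_pow, hexp g, map_one, Units.val_one]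
    haveI : NeZero p := ⟨hp⟩
    obtain ⟨i, -, hi⟩ := hζ.eq_pow_of_pow_eq_one h1
    exact ⟨i, by simpa using hi⟩
  exact ⟨fun g => (this g).choose, fun g => (this g).choose_spec⟩

theorem isQuasi_of_lift (hp : p ≠ 0) (hζ : IsPrimitiveRoot ζ p) (χ : G →* ℂˣ) (a : G → ℤ)
    (ha : ∀ g, ζ ^ (a g) = (χ g : ℂ)) : IsQuasi p a := by
  intro x y
  rw [← hζ.zpow_eq_one_iff_dvd]
  have h0 : ζ ≠ 0 := hζ.ne_zero hp
  rw [zpow_sub₀ h0, zpow_add₀ h0, ha, ha, ha, map_mul]
  simp

theorem char_eq_of_dvd (hp : p ≠ 0) (hζ : IsPrimitiveRoot ζ p) (χ χ' : G →* ℂˣ) (a a' : G → ℤ)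
    (ha : ∀ g, ζ ^ (a g) = (χ g : ℂ)) (ha' : ∀ g, ζ ^ (a' g) = (χ' g : ℂ))
    (h : ∀ g, (p : ℤ) ∣ a g - a' g) : χ = χ' := by
  ext g
  rw [← ha, ← ha']
  have h1 := (hζ.zpow_eq_one_iff_dvd _).2 (h g)
  have h0 : ζ ≠ 0 := hζ.ne_zero hp
  rw [zpow_sub₀ h0] at h1
  have h2 : ζ ^ a' g ≠ 0 := zpow_ne_zero _ h0
  field_simp at h1
  exact h1

end lift

end TateZero

open TateZero

attribute [local instance 1100] Rep.hV2

/-! ### (T2) -/

theorem tateIdx (hTN : StmtTNp) (hN0 : StmtNormZero) : StmtTateIdx := by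
  classical
  intro p hp G _ _ hcomm hexp C u hu I N hI hN hfin
  have hp0 : p ≠ 0 := hp.out.ne_zero
  have hpG : IsPGroup p G := fun g => ⟨1, by simpa using hexp g⟩
  obtain ⟨hR, -⟩ := hTN p G hpG C u hu (Rep.trivial ℤ G ℤ) isZFree_trivial
  have hζ : IsPrimitiveRoot (Complex.exp (2 * Real.pi * Complex.I / p)) p :=
    Complex.isPrimitiveRoot_exp p hp0
  set ζ := Complex.exp (2 * Real.pi * Complex.I / p) with hζdef
  choose lift hlift using exists_lift (G := G) hp0 hζ hexp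
  have hquasi : ∀ χ, IsQuasi p (lift χ) := fun χ => isQuasi_of_lift hp0 hζ χ _ (hlift χ)
  -- the cocycles
  let x : (G →* ℂˣ) → cocycles₂ (Rep.trivial ℤ G ℤ) :=
    fun χ => ⟨quasiCoc p (lift χ), quasiCoc_mem hp0 (hquasi χ)⟩
  -- the quotient
  let Q := ↥I ⧸ N.addSubgroupOf I
  have hQcard : Nat.card Q = N.relIndex I := (AddSubgroup.index_eq_card _).symm
  haveI hQfin : Finite Q := Nat.finite_of_card_ne_zero (by rw [hQcard]; exact hfin)
  -- the pairing on the quotient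
  have hker : ∀ χ, N.addSubgroupOf I ≤ (pairHom C I hI (x χ)).ker := by
    intro χ c hc
    rw [AddMonoidHom.mem_ker]
    exact pairHom_norm C I hI hN0 (x χ) c ((hN c.1).1 (AddSubgroup.mem_addSubgroupOf.1 hc))
  let Ψ : (G →* ℂˣ) → (Q →+ H2 C) := fun χ =>
    QuotientAddGroup.lift (N.addSubgroupOf I) (pairHom C I hI (x χ)) (hker χ)
  -- an injective character of `H²(G, C)`
  haveI hH2fin : Finite (H2 C) :=
    Nat.finite_of_card_ne_zero (by rw [hu.h2_card]; exact Nat.card_pos.ne')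
  haveI : IsAddCyclic (H2 C) := ⟨⟨u, fun y => by
    obtain ⟨n, hn⟩ := hu.h2_gen y
    exact ⟨n, by rw [← hn]⟩⟩⟩
  obtain ⟨ι, hι⟩ := exists_injective_char (Multiplicative (H2 C))
  let Θ : (G →* ℂˣ) → (Multiplicative Q →* ℂˣ) := fun χ =>
    ι.comp (AddMonoidHom.toMultiplicative (Ψ χ))
  have hΘ : Function.Injective Θ := by
    intro χ χ' h
    have h1 : ∀ c : ↥I, pairHom C I hI (x χ) c = pairHom C I hI (x χ') c := by
      intro c
      have h2 := DFunLike.congr_fun h (Multiplicative.ofAdd (QuotientAddGroup.mk c : Q))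
      have h3 := hι h2
      exact Multiplicative.ofAdd.injective h3
    have h4 : ∀ c : ↥I, pairHom C I hI (x χ - x χ') c = 0 := by
      intro c
      rw [pairHom_sub, h1 c, sub_self]
    have h5 := eq_zero_of_pairHom C I hI hR (x χ - x χ') h4
    exact char_eq_of_dvd hp0 hζ χ χ' _ _ (hlift χ) (hlift χ')
      (quasi_dvd_of_coboundary (hquasi χ) (hquasi χ') h5)
  have h6 := card_char_le Q (G →* ℂˣ) Θ hΘ
  rw [card_char_eq G hcomm, hQcard] at h6
  exact h6


namespace TateZero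

variable {G : Type} [Group G]

/-! ### (T1) -/

/-- `p · H²(G, ℤ) = 0` for a finite group of exponent `p`, on cocycles. -/
theorem nsmul_mem_coboundaries [Fintype G] {p : ℕ} (hexp : ∀ g : G, g ^ p = 1)
    (x : cocycles₂ (Rep.trivial ℤ G ℤ)) :
    ((p : ℤ) • (x : G × G → ℤ)) ∈ coboundaries₂ (Rep.trivial ℤ G ℤ) := by
  classical
  set n : ℕ := Fintype.card G with hn
  have hn0 : n ≠ 0 := Fintype.card_ne_zero
  have hcoc : ∀ g h j : G, x.1 (g * h, j) + x.1 (g, h) = x.1 (h, j) + x.1 (g, h * j) := by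
    intro g h j
    have := (mem_cocycles₂_iff x.1).1 x.2 g h j
    simpa using this
  let t₀ : G → ℤ := fun g => ∑ j : G, x.1 (g, j)
  have hsum : ∀ g h : G, (n : ℤ) * x.1 (g, h) = t₀ g + t₀ h - t₀ (g * h) := by
    intro g h
    have h1 : ∑ j : G, (x.1 (g * h, j) + x.1 (g, h)) = ∑ j : G, (x.1 (h, j) + x.1 (g, h * j)) :=
      Finset.sum_congr rfl fun j _ => hcoc g h j
    rw [Finset.sum_add_distrib, Finset.sum_add_distrib, Finset.sum_const, Finset.card_univ] at h1
    have h2 : ∑ j : G, x.1 (g, h * j) = t₀ g :=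
      Fintype.sum_equiv (Equiv.mulLeft h) _ _ (fun j => rfl)
    rw [h2] at h1
    simp only [nsmul_eq_mul] at h1
    simp only [t₀]
    rw [← hn] at h1
    linarith
  -- `t₀` is a homomorphism mod `n`
  let ψ : G →* Multiplicative (ZMod n) :=
    { toFun := fun g => Multiplicative.ofAdd ((t₀ g : ℤ) : ZMod n)
      map_one' := by
        have := hsum 1 1
        rw [mul_one] at this
        have h0 : (n : ℤ) ∣ t₀ 1 := ⟨x.1 (1, 1), by linarith⟩
        rw [← ZMod.intCast_zmod_eq_zero_iff_dvd] at h0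
        simp [h0]
      map_mul' := fun g h => by
        have := hsum g h
        have h0 : (n : ℤ) ∣ t₀ g + t₀ h - t₀ (g * h) := ⟨x.1 (g, h), by linarith⟩
        rw [← ZMod.intCast_zmod_eq_zero_iff_dvd] at h0
        push_cast at h0
        rw [← ofAdd_add]
        congr 1
        linear_combination -h0 }
  have hdvd : ∀ g : G, (n : ℤ) ∣ (p : ℤ) * t₀ g := by
    intro g
    have h1 : ψ g ^ p = 1 := by rw [← map_pow, hexp g, map_one]
    have h2 : (p : ℕ) • ((t₀ g : ℤ) : ZMod n) = 0 := by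
      have := congrArg Multiplicative.toAdd h1
      simpa [ψ] using this
    rw [← ZMod.intCast_zmod_eq_zero_iff_dvd]
    push_cast
    simpa [nsmul_eq_mul] using h2
  choose t ht using hdvd
  refine ⟨t, ?_⟩
  funext ⟨g, h⟩
  rw [d₁₂_hom_apply]
  have e : (Rep.trivial ℤ G ℤ).ρ g (t h) = t h := by simp
  rw [e]
  have hn' : (n : ℤ) ≠ 0 := by exact_mod_cast hn0
  apply mul_left_cancel₀ hn'
  have h3 := hsum g h
  have h4 := ht g
  have h5 := ht h
  have h6 := ht (g * h)
  change (n : ℤ) * (t h - t (g * h) + t g) = (n : ℤ) * ((p : ℤ) * x.1 (g, h))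
  have h7 : (n : ℤ) * ((p : ℤ) * x.1 (g, h)) = (p : ℤ) * ((n : ℤ) * x.1 (g, h)) := by ring
  rw [h7, h3]
  linear_combination -h5 + h6 - h4

theorem pairCl_nsmul (C : Rep.{0} ℤ G) (x : cocycles₂ (Rep.trivial ℤ G ℤ)) (c : C.V)
    (hc : ∀ g : G, C.ρ g c = c) (p : ℕ) (hpc : ∀ g : G, C.ρ g (p • c) = p • c) :
    pairCl C x (p • c) hpc = pairCl C ((p : ℤ) • x) c hc := by
  unfold pairCl
  congr 1
  apply Subtype.ext
  funext ab
  change zmultiplesHom C.V (p • c) (x.1 ab) = zmultiplesHom C.V c ((p : ℤ) * x.1 ab)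
  simp only [zmultiplesHom_apply]
  rw [mul_comm, mul_zsmul, natCast_zsmul]

end TateZero

theorem tateExp (hTN : StmtTNp) : StmtTateExp := by
  classical
  intro p hp G _ _ hexp C u hu c hc
  have hpG : IsPGroup p G := fun g => ⟨1, by simpa using hexp g⟩
  obtain ⟨-, hL⟩ := hTN p G hpG C u hu (Rep.trivial ℤ G ℤ) isZFree_trivial
  have hpc : ∀ g : G, C.ρ g (p • c) = p • c := by
    intro g
    rw [map_nsmul, hc g]
  have key : ∀ y : H2 (Rep.trivial ℤ G ℤ), (push₂ (unitHom C (p • c) hpc)).hom y = 0 := by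
    intro y
    induction y using H2_induction_on with | @h x =>
    rw [push_unitHom, pairCl_nsmul C x c hc p hpc, ← push_unitHom]
    have h0 : H2π (Rep.trivial ℤ G ℤ) ((p : ℤ) • x) = 0 := by
      rw [H2π_eq_zero_iff]
      exact nsmul_mem_coboundaries hexp x
    rw [h0, map_zero]
  obtain ⟨h, hh⟩ := hL _ key
  refine ⟨h 1, ?_⟩
  have h1 := hh 1
  rw [normAdd_apply, unitHom_apply] at h1
  simp only [zmultiplesHom_apply, one_zsmul] at h1
  rw [h1]
  refine Finset.sum_congr rfl fun γ _ => ?_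
  simp

end Fermat.Agent.PT.X


end ZBPT_024_0
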