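/- GENERATED FILE (helper35, build-time optimisation, NOTES/ZB.md): verbatim concatenation of the modules
   Fermat.Agent.PT.G.NormSemi
   Do not edit; do not import together with these modules. -/
import Fermat.Agent.ZB.PT_007

/-! ### bundled: `Fermat.Agent.PT.G.NormSemi` -/
section ZBPT_081_0

/-!
# Project PT — shared model, piece **Defs-norm**, semilocal half (helper87)

For an extension `L / K` of number fields and a prime `q`:
* `semiAlgebra K L q : Algebra (ℚ_q ⊗ K) (ℚ_q ⊗ L)` (via `semiIncl`), free of rank `[L : K]`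
  (`semiBasis`);
* `semiNorm K L q : ℚ_q ⊗ L →* ℚ_q ⊗ K`, the norm.
-/

set_option autoImplicit false
set_option linter.unusedSectionVars false
set_option linter.style.haveILetI false

namespace Fermat.Agent.PT.G

open NumberField IsDedekindDomain Fermat.Agent.PT.G1 Fermat.Agent.PT.X TensorProduct

variable (K L : Type) [Field K] [NumberField K] [Field L] [NumberField L] [Algebra K L]
  (q : ℕ) [Fact q.Prime]

/-- `ℚ_q ⊗ L` as an algebra over `ℚ_q ⊗ K`. -/
noncomputable abbrev semiAlgebra : Algebra (semiAlg q K) (semiAlg q L) :=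
  (semiIncl K L q).toRingHom.toAlgebra

lemma semiAlgebra_algebraMap (x : semiAlg q K) :
    letI := semiAlgebra K L q
    algebraMap (semiAlg q K) (semiAlg q L) x = semiIncl K L q x := rfl

lemma semiAlgebra_smul_def (s : semiAlg q K) (x : semiAlg q L) :
    letI := semiAlgebra K L q
    s • x = semiIncl K L q s * x := rfl

/-- The `ℚ_q`-linear isomorphism `ℚ_q ⊗ L ≃ (ι → ℚ_q ⊗ K)` attached to a `K`-basis of `L`. -/
noncomputable def semiEquivPi {ι : Type} [Fintype ι] [DecidableEq ι] (b : Module.Basis ι K L) :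
    semiAlg q L ≃ₗ[ℚ_[q]] (ι → semiAlg q K) :=
  (TensorProduct.AlgebraTensorModule.congr (LinearEquiv.refl ℚ_[q] ℚ_[q])
    (b.equivFun.restrictScalars ℚ)).trans
    (TensorProduct.piRight ℚ ℚ_[q] ℚ_[q] (fun _ : ι => K))

lemma semiEquivPi_tmul {ι : Type} [Fintype ι] [DecidableEq ι] (b : Module.Basis ι K L)
    (a : ℚ_[q]) (l : L) (i : ι) :
    semiEquivPi K L q b (a ⊗ₜ[ℚ] l) i = a ⊗ₜ[ℚ] b.repr l i := by
  simp [semiEquivPi]

lemma semiEquivPi_smul {ι : Type} [Fintype ι] [DecidableEq ι] (b : Module.Basis ι K L)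
    (s : semiAlg q K) (x : semiAlg q L) (i : ι) :
    semiEquivPi K L q b (semiIncl K L q s * x) i = s * semiEquivPi K L q b x i := by
  induction s using TensorProduct.induction_on with
  | zero => simp
  | add s₁ s₂ h₁ h₂ =>
    rw [map_add, add_mul, map_add, Pi.add_apply, h₁, h₂, add_mul]
  | tmul a k =>
    induction x using TensorProduct.induction_on with
    | zero => simp
    | add x₁ x₂ h₁ h₂ =>
      rw [mul_add, map_add, map_add, Pi.add_apply, Pi.add_apply, h₁, h₂, mul_add]
    | tmul c l =>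
      rw [semiIncl_tmul, Algebra.TensorProduct.tmul_mul_tmul, semiEquivPi_tmul,
        semiEquivPi_tmul, Algebra.TensorProduct.tmul_mul_tmul]
      congr 1
      rw [← Algebra.smul_def, map_smul]
      rfl

/-- The `ℚ_q ⊗ K`-linear isomorphism `ℚ_q ⊗ L ≃ (ι → ℚ_q ⊗ K)` attached to a `K`-basis of `L`. -/
noncomputable def semiEquivPiLin {ι : Type} [Fintype ι] [DecidableEq ι]
    (b : Module.Basis ι K L) :
    letI := semiAlgebra K L q
    semiAlg q L ≃ₗ[semiAlg q K] (ι → semiAlg q K) :=
  letI := semiAlgebra K L q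
  { (semiEquivPi K L q b).toAddEquiv with
    map_smul' := fun s x => by
      funext i
      exact semiEquivPi_smul K L q b s x i }

/-- The basis `(1 ⊗ b i)` of `ℚ_q ⊗ L` over `ℚ_q ⊗ K`. -/
noncomputable def semiBasis {ι : Type} [Fintype ι] [DecidableEq ι] (b : Module.Basis ι K L) :
    letI := semiAlgebra K L q
    Module.Basis ι (semiAlg q K) (semiAlg q L) :=
  letI := semiAlgebra K L q
  Module.Basis.ofEquivFun (semiEquivPiLin K L q b)

lemma semiBasis_repr {ι : Type} [Fintype ι] [DecidableEq ι] (b : Module.Basis ι K L)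
    (x : semiAlg q L) (i : ι) :
    letI := semiAlgebra K L q
    (semiBasis K L q b).repr x i = semiEquivPi K L q b x i := rfl

lemma semiBasis_apply {ι : Type} [Fintype ι] [DecidableEq ι] (b : Module.Basis ι K L) (i : ι) :
    letI := semiAlgebra K L q
    semiBasis K L q b i = (1 : ℚ_[q]) ⊗ₜ[ℚ] b i := by
  let _ := semiAlgebra K L q
  apply (semiEquivPi K L q b).injective
  funext j
  have h1 : semiEquivPi K L q b (semiBasis K L q b i) j =
      (semiBasis K L q b).repr (semiBasis K L q b i) j := rfl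
  rw [h1, Module.Basis.repr_self, semiEquivPi_tmul, Module.Basis.repr_self]
  by_cases h : i = j
  · subst h
    simp [Algebra.TensorProduct.one_def]
  · simp [h]

/-- The norm `ℚ_q ⊗ L → ℚ_q ⊗ K`. -/
noncomputable def semiNorm : semiAlg q L →* semiAlg q K :=
  letI := semiAlgebra K L q
  Algebra.norm (semiAlg q K)

lemma semiNorm_eq_det {ι : Type} [Fintype ι] [DecidableEq ι] (b : Module.Basis ι K L)
    (x : semiAlg q L) :
    semiNorm K L q x = Matrix.det (Matrix.of fun i j : ι =>
      semiEquivPi K L q b (x * ((1 : ℚ_[q]) ⊗ₜ[ℚ] b j)) i) := by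
  letI := semiAlgebra K L q
  have h := Algebra.norm_eq_matrix_det (semiBasis K L q b) x
  rw [semiNorm, h]
  congr 1
  ext i j
  rw [Algebra.leftMulMatrix_eq_repr_mul, semiBasis_repr, semiBasis_apply]
  rfl

/-- `N(x) = x ^ [L : K]` for `x ∈ ℚ_q ⊗ K`. -/
lemma semiNorm_semiIncl (x : semiAlg q K) :
    semiNorm K L q (semiIncl K L q x) = x ^ Module.finrank K L := by
  letI := semiAlgebra K L q
  have h := Algebra.norm_algebraMap_of_basis (semiBasis K L q (Module.finBasis K L)) x
  rw [Fintype.card_fin] at h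
  exact h

/-- `N(1 ⊗ y) = 1 ⊗ N_{L/K}(y)`. -/
lemma semiNorm_one_tmul (y : L) :
    semiNorm K L q ((1 : ℚ_[q]) ⊗ₜ[ℚ] y) = (1 : ℚ_[q]) ⊗ₜ[ℚ] Algebra.norm K y := by
  classical
  rw [semiNorm_eq_det K L q (Module.finBasis K L),
    Algebra.norm_eq_matrix_det (Module.finBasis K L) y]
  have h : (1 : ℚ_[q]) ⊗ₜ[ℚ] Matrix.det (Algebra.leftMulMatrix (Module.finBasis K L) y) =
      (Algebra.TensorProduct.includeRight : K →ₐ[ℚ] semiAlg q K).toRingHom
        (Matrix.det (Algebra.leftMulMatrix (Module.finBasis K L) y)) := rfl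
  rw [h, RingHom.map_det]
  congr 1
  ext i j
  rw [Matrix.of_apply, Algebra.TensorProduct.tmul_mul_tmul, one_mul, semiEquivPi_tmul,
    RingHom.mapMatrix_apply, Matrix.map_apply, Algebra.leftMulMatrix_eq_repr_mul]
  rfl

/-! ### Equivariance -/

variable {K L}

/-- The automorphism of `ℚ_q ⊗ L` induced by `σ ∈ Aut(L)`, as a ring isomorphism. -/
noncomputable def semiRingEquiv (σ : L ≃ₐ[ℚ] L) : semiAlg q L ≃+* semiAlg q L where
  toFun := semiMap q σ
  invFun := semiMap q σ⁻¹
  left_inv x := by rw [← semiMap_mul, inv_mul_cancel, semiMap_one]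
  right_inv x := by rw [← semiMap_mul, mul_inv_cancel, semiMap_one]
  map_mul' := map_mul _
  map_add' := map_add _

@[simp] lemma semiRingEquiv_apply (σ : L ≃ₐ[ℚ] L) (x : semiAlg q L) :
    semiRingEquiv q σ x = semiMap q σ x := rfl

/-- The norm is equivariant. -/
lemma semiNorm_semiMap {σ : L ≃ₐ[ℚ] L} {τ : K ≃ₐ[ℚ] K} (h : Restricts σ τ) (x : semiAlg q L) :
    semiNorm K L q (semiMap q σ x) = semiMap q τ (semiNorm K L q x) := by
  letI := semiAlgebra K L q
  have he : RingHom.comp (algebraMap (semiAlg q K) (semiAlg q L))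
      ((semiRingEquiv q τ : semiAlg q K ≃+* semiAlg q K) : semiAlg q K →+* semiAlg q K) =
      RingHom.comp ((semiRingEquiv q σ : semiAlg q L ≃+* semiAlg q L) :
        semiAlg q L →+* semiAlg q L) (algebraMap (semiAlg q K) (semiAlg q L)) := by
    apply RingHom.ext
    intro y
    exact (semiMap_semiIncl h q y).symm
  have h1 := Algebra.norm_eq_of_equiv_equiv (semiRingEquiv q τ) (semiRingEquiv q σ) he x
  have h2 := congrArg (semiRingEquiv q τ) h1
  rw [RingEquiv.apply_symm_apply] at h2
  exact h2.symm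

variable (K L)

/-! ### Transitivity -/

lemma semiAlgebra_isScalarTower :
    letI := semiAlgebra K L q
    IsScalarTower ℚ_[q] (semiAlg q K) (semiAlg q L) := by
  letI := semiAlgebra K L q
  apply IsScalarTower.of_algebraMap_eq'
  exact (semiIncl K L q).comp_algebraMap.symm

lemma semiAlgebra_free :
    letI := semiAlgebra K L q
    Module.Free (semiAlg q K) (semiAlg q L) := by
  classical
  letI := semiAlgebra K L q
  exact Module.Free.of_basis (semiBasis K L q (Module.finBasis K L))

lemma semiAlgebra_finite :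
    letI := semiAlgebra K L q
    Module.Finite (semiAlg q K) (semiAlg q L) := by
  classical
  letI := semiAlgebra K L q
  exact Module.Finite.of_basis (semiBasis K L q (Module.finBasis K L))

/-- `N_{ℚ_q ⊗ K / ℚ_q} ∘ N_{ℚ_q ⊗ L / ℚ_q ⊗ K} = N_{ℚ_q ⊗ L / ℚ_q}`. -/
lemma norm_semiNorm (x : semiAlg q L) :
    Algebra.norm ℚ_[q] (semiNorm K L q x) = Algebra.norm ℚ_[q] x := by
  letI := semiAlgebra K L q
  haveI := semiAlgebra_isScalarTower K L q
  haveI := semiAlgebra_free K L q
  exact Algebra.norm_norm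

/-! ### The Galois case: `N(x) = ∏ σ(x)` -/

section Galois

open MvPolynomial

/-- The norm of the generic element `∑ X_k b_k`, a polynomial over `K`. -/
noncomputable def normPoly {n : ℕ} (b : Module.Basis (Fin n) K L) : MvPolynomial (Fin n) K :=
  Matrix.det (Matrix.of fun i j : Fin n => ∑ k, X k * C (b.repr (b k * b j) i))

/-- The product of the conjugates of the generic element `∑ X_k b_k`, a polynomial over `L`. -/
noncomputable def prodPoly {n : ℕ} (b : Module.Basis (Fin n) K L) : MvPolynomial (Fin n) L :=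
  ∏ σ : L ≃ₐ[K] L, ∑ k, X k * C (σ (b k))

lemma repr_sum_mul {n : ℕ} (b : Module.Basis (Fin n) K L) (c : Fin n → K) (i j : Fin n) :
    b.repr ((∑ k, c k • b k) * b j) i = ∑ k, c k * b.repr (b k * b j) i := by
  rw [Finset.sum_mul, map_sum, Finsupp.coe_finsetSum, Finset.sum_apply]
  refine Finset.sum_congr rfl fun k _ => ?_
  rw [smul_mul_assoc, map_smul]
  rfl

lemma ringHom_normPoly {n : ℕ} (b : Module.Basis (Fin n) K L) {R : Type} [CommRing R]
    (f : MvPolynomial (Fin n) K →+* R) :
    f (normPoly K L b) =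
      Matrix.det (Matrix.of fun i j : Fin n => ∑ k, f (X k) * f (C (b.repr (b k * b j) i))) := by
  rw [normPoly, RingHom.map_det]
  congr 1
  ext i j
  simp [RingHom.mapMatrix_apply, Matrix.map_apply, map_sum]

lemma eval_normPoly {n : ℕ} (b : Module.Basis (Fin n) K L) (c : Fin n → K) :
    eval c (normPoly K L b) = Algebra.norm K (∑ k, c k • b k) := by
  rw [ringHom_normPoly, Algebra.norm_eq_matrix_det b]
  congr 1
  ext i j
  rw [Matrix.of_apply, Algebra.leftMulMatrix_eq_repr_mul, repr_sum_mul]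
  simp

lemma ringHom_prodPoly {n : ℕ} (b : Module.Basis (Fin n) K L) {R : Type} [CommRing R]
    (f : MvPolynomial (Fin n) L →+* R) :
    f (prodPoly K L b) = ∏ σ : L ≃ₐ[K] L, ∑ k, f (X k) * f (C (σ (b k))) := by
  simp [prodPoly, map_prod, map_sum]

lemma map_normPoly_eq [IsGalois K L] {n : ℕ} (b : Module.Basis (Fin n) K L) :
    MvPolynomial.map (algebraMap K L) (normPoly K L b) = prodPoly K L b := by
  apply MvPolynomial.funext_set (fun _ : Fin n => Set.range (algebraMap K L))
  · intro _
    exact Set.infinite_range_of_injective (algebraMap K L).injective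
  · intro x hx
    have hx' : ∀ k, ∃ c : K, algebraMap K L c = x k := fun k => hx k (Set.mem_univ k)
    choose c hc using hx'
    have hxc : x = fun k => algebraMap K L (c k) := funext fun k => (hc k).symm
    subst hxc
    have h1 : eval₂ (algebraMap K L) (fun k => algebraMap K L (c k)) (normPoly K L b) =
        algebraMap K L (eval c (normPoly K L b)) := by
      have := MvPolynomial.eval₂_comp_left (algebraMap K L) (RingHom.id K) c (normPoly K L b)
      rw [RingHom.comp_id] at this
      exact this.symm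
    rw [MvPolynomial.eval_map, h1, eval_normPoly, Algebra.norm_eq_prod_automorphisms,
      ringHom_prodPoly]
    refine Finset.prod_congr rfl fun σ _ => ?_
    rw [map_sum]
    refine Finset.sum_congr rfl fun k _ => ?_
    rw [eval_X, eval_C, Algebra.smul_def, map_mul, AlgEquiv.commutes]

/-- Expansion in the basis `(1 ⊗ b k)`. -/
lemma semi_expand {ι : Type} [Fintype ι] [DecidableEq ι] (b : Module.Basis ι K L)
    (x : semiAlg q L) :
    x = ∑ k, semiIncl K L q (semiEquivPi K L q b x k) * ((1 : ℚ_[q]) ⊗ₜ[ℚ] b k) := by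
  letI := semiAlgebra K L q
  have h := (semiBasis K L q b).sum_repr x
  conv_lhs => rw [← h]
  refine Finset.sum_congr rfl fun k _ => ?_
  rw [semiBasis_repr, semiBasis_apply]
  rfl

lemma semiEquivPi_mul_basis {ι : Type} [Fintype ι] [DecidableEq ι] (b : Module.Basis ι K L)
    (x : semiAlg q L) (i j : ι) :
    semiEquivPi K L q b (x * ((1 : ℚ_[q]) ⊗ₜ[ℚ] b j)) i =
      ∑ k, semiEquivPi K L q b x k * ((1 : ℚ_[q]) ⊗ₜ[ℚ] b.repr (b k * b j) i) := by
  conv_lhs => rw [semi_expand K L q b x]
  rw [Finset.sum_mul, map_sum, Finset.sum_apply]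
  refine Finset.sum_congr rfl fun k _ => ?_
  rw [mul_assoc, Algebra.TensorProduct.tmul_mul_tmul, one_mul, semiEquivPi_smul,
    semiEquivPi_tmul]

lemma semiMap_restrictScalars_semiIncl (σ : L ≃ₐ[K] L) (y : semiAlg q K) :
    semiMap q (σ.restrictScalars ℚ) (semiIncl K L q y) = semiIncl K L q y := by
  have h : Restricts (σ.restrictScalars ℚ) (1 : K ≃ₐ[ℚ] K) := fun x => σ.commutes x
  rw [semiMap_semiIncl h, semiMap_one]

lemma semiMap_one_tmul (σ : L ≃ₐ[ℚ] L) (l : L) :
    semiMap q σ ((1 : ℚ_[q]) ⊗ₜ[ℚ] l) = (1 : ℚ_[q]) ⊗ₜ[ℚ] σ l := by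
  simp [semiMap]

/-- **The norm in the Galois case**: `N(x) = ∏_{σ ∈ Gal(L/K)} σ(x)` in `ℚ_q ⊗ L`. -/
theorem semiIncl_semiNorm [IsGalois K L] (x : semiAlg q L) :
    semiIncl K L q (semiNorm K L q x) =
      ∏ σ : L ≃ₐ[K] L, semiMap q (σ.restrictScalars ℚ) x := by
  classical
  let b := Module.finBasis K L
  let β : Fin (Module.finrank K L) → semiAlg q K := fun k => semiEquivPi K L q b x k
  let ψK : MvPolynomial (Fin (Module.finrank K L)) K →+* semiAlg q K :=
    eval₂Hom (Algebra.TensorProduct.includeRight : K →ₐ[ℚ] semiAlg q K).toRingHom β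
  let ψL : MvPolynomial (Fin (Module.finrank K L)) L →+* semiAlg q L :=
    eval₂Hom (Algebra.TensorProduct.includeRight : L →ₐ[ℚ] semiAlg q L).toRingHom
      (fun k => semiIncl K L q (β k))
  have hcomp : ((semiIncl K L q : semiAlg q K →+* semiAlg q L).comp ψK) =
      ψL.comp (MvPolynomial.map (algebraMap K L)) := by
    apply MvPolynomial.ringHom_ext
    · intro k
      simp [ψK, ψL]
    · intro k
      simp [ψK, ψL]
  have hN : semiNorm K L q x = ψK (normPoly K L b) := by
    rw [semiNorm_eq_det K L q b, ringHom_normPoly]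
    congr 1
    ext i j
    rw [Matrix.of_apply, Matrix.of_apply, semiEquivPi_mul_basis]
    refine Finset.sum_congr rfl fun k _ => ?_
    simp [ψK, β]
  have hP : ψL (prodPoly K L b) = ∏ σ : L ≃ₐ[K] L, semiMap q (σ.restrictScalars ℚ) x := by
    rw [ringHom_prodPoly]
    refine Finset.prod_congr rfl fun σ _ => ?_
    conv_rhs => rw [semi_expand K L q b x, map_sum]
    refine Finset.sum_congr rfl fun k _ => ?_
    rw [map_mul, semiMap_restrictScalars_semiIncl, semiMap_one_tmul]
    simp [ψL, β]
  have h1 : semiIncl K L q (ψK (normPoly K L b)) =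
      ψL (MvPolynomial.map (algebraMap K L) (normPoly K L b)) :=
    congrArg (fun f : MvPolynomial (Fin (Module.finrank K L)) K →+* semiAlg q L =>
      f (normPoly K L b)) hcomp
  rw [hN, h1, map_normPoly_eq, hP]

end Galois

end Fermat.Agent.PT.G


end ZBPT_081_0
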