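/- GENERATED FILE (helper35, build-time optimisation, NOTES/ZB.md): verbatim concatenation of the modules
   Fermat.Agent.PT.G.NormDiv
   Fermat.Agent.PT.G.NormJD
   Fermat.Agent.PT.G.NormOrd
   Fermat.Agent.PT.G.Norm
   Fermat.Agent.PT.G.NormGal
   Do not edit; do not import together with these modules. -/
import Fermat.Agent.ZB.PT_007
import Fermat.Agent.ZB.PT_081

/-! ### bundled: `Fermat.Agent.PT.G.NormDiv` -/
section ZBPT_082_0

/-!
# Project PT — shared model, piece **Defs-norm**, divisor half: definitions (helper87)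

For an extension `L / K` of number fields:
* `inertDeg K P = f(P | P ∩ K)`;
* `divNorm S K L : Div_S(L) →ₗ[ℤ] Div_S(K)`, `P ↦ f(P | 𝔭) · 𝔭` with `𝔭 = P ∩ K`.
-/

set_option autoImplicit false
set_option linter.unusedSectionVars false

namespace Fermat.Agent.PT.G

open NumberField IsDedekindDomain Fermat.Agent.PT.G1 Fermat.Agent.PT.X

variable (S : Finset Nat.Primes) (K L : Type) [Field K] [NumberField K] [Field L] [NumberField L]
  [Algebra K L]

variable {L}

/-- The inertia degree `f(P | P ∩ K)`. -/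
noncomputable def inertDeg (P : HeightOneSpectrum (𝓞 L)) : ℕ :=
  P.asIdeal.inertiaDeg (𝓞 K)

variable (L)

/-- `Div_S(L) → Div_S(K)`: `P ↦ f(P | 𝔭) · 𝔭`, `𝔭 = P ∩ K`. -/
noncomputable def divNorm : DivS S L →ₗ[ℤ] DivS S K :=
  Finsupp.lsum ℤ (fun P : OffS S L =>
    (inertDeg K P.1 : ℤ) • (Finsupp.lsingle (offUnder S K P) : ℤ →ₗ[ℤ] DivS S K))

lemma divNorm_single (P : OffS S L) (n : ℤ) :
    divNorm S K L (Finsupp.single P n) =
      Finsupp.single (offUnder S K P) ((inertDeg K P.1 : ℤ) * n) := by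
  simp [divNorm]

/-- The primes of `L` off `S` over a prime of `K`. -/
noncomputable def offFiber (𝔭 : OffS S K) : Finset (OffS S L) :=
  (finite_fiber_offUnder S K (L := L) 𝔭).toFinset

variable {L} in
lemma mem_offFiber (𝔭 : OffS S K) (P : OffS S L) :
    P ∈ offFiber S K L 𝔭 ↔ offUnder S K P = 𝔭 := by
  simp [offFiber]

lemma divNorm_apply (d : DivS S L) (𝔭 : OffS S K) :
    divNorm S K L d 𝔭 = ∑ P ∈ offFiber S K L 𝔭, (inertDeg K P.1 : ℤ) * d P := by
  classical
  induction d using Finsupp.induction_linear with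
  | zero => simp
  | add d₁ d₂ h₁ h₂ =>
    rw [map_add, Finsupp.add_apply, h₁, h₂, ← Finset.sum_add_distrib]
    refine Finset.sum_congr rfl fun P _ => ?_
    rw [Finsupp.add_apply, mul_add]
  | single P n =>
    rw [divNorm_single]
    by_cases h : offUnder S K P = 𝔭
    · rw [h, Finsupp.single_eq_same, Finset.sum_eq_single P]
      · rw [Finsupp.single_eq_same]
      · intro P' _ hP'
        rw [Finsupp.single_eq_of_ne hP', mul_zero]
      · intro hP
        exact absurd ((mem_offFiber S K 𝔭 P).2 h) hP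
    · rw [Finsupp.single_eq_of_ne (Ne.symm h)]
      symm
      apply Finset.sum_eq_zero
      intro P' hP'
      have hne : P ≠ P' := by
        rintro rfl
        exact h ((mem_offFiber S K 𝔭 P).1 hP')
      rw [Finsupp.single_eq_of_ne hne.symm, mul_zero]

end Fermat.Agent.PT.G


end ZBPT_082_0

/-! ### bundled: `Fermat.Agent.PT.G.NormJD` -/
section ZBPT_082_1

/-!
# Project PT — shared model, piece **Defs-norm**: the norm on `J_L` and equivariance (helper87)

* `jlNorm S K L : J_L →* J_K`, `jlNormLin` (additive), `jlNorm_jlDiag`, `jlNorm_jlMap`,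
  `jlMap_jlNorm` (Galois), `jlEnd_jlNormLin` (equivariance);
* `inertDeg_primeMap`, `divEnd_divNorm` (equivariance of the divisor norm).
-/

set_option autoImplicit false
set_option linter.unusedSectionVars false
set_option linter.style.haveILetI false

namespace Fermat.Agent.PT.G

open NumberField IsDedekindDomain Fermat.Agent.PT.G1 Fermat.Agent.PT.X TensorProduct

variable (S : Finset Nat.Primes) (K L : Type) [Field K] [NumberField K] [Field L] [NumberField L]
  [Algebra K L]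

/-! ### The idèle part -/

/-- `J_L → J_K`, the norm. -/
noncomputable def jlNorm : JL S L →* JL S K :=
  MonoidHom.pi fun q =>
    (Units.map (semiNorm K L ((q : Nat.Primes) : ℕ))).comp (Pi.evalMonoidHom _ q)

@[simp] lemma jlNorm_apply (x : JL S L) (q : ↥S) :
    ((jlNorm S K L x q : (semiAlg ((q : Nat.Primes) : ℕ) K)ˣ) : semiAlg ((q : Nat.Primes) : ℕ) K) =
      semiNorm K L ((q : Nat.Primes) : ℕ) (x q : semiAlg ((q : Nat.Primes) : ℕ) L) := rfl

lemma jlNorm_jlDiag (x : Lˣ) :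
    jlNorm S K L (jlDiag S L x) = jlDiag S K (Units.map (Algebra.norm K : L →* K) x) := by
  funext q
  apply Units.ext
  show semiNorm K L ((q : Nat.Primes) : ℕ) ((1 : ℚ_[((q : Nat.Primes) : ℕ)]) ⊗ₜ[ℚ] (x : L)) =
    (1 : ℚ_[((q : Nat.Primes) : ℕ)]) ⊗ₜ[ℚ] (Algebra.norm K (x : L))
  exact semiNorm_one_tmul K L _ _

/-- `N ∘ incl = [L : K]` on `J_K`. -/
lemma jlNorm_jlMap (x : JL S K) : jlNorm S K L (jlMap S K L x) = x ^ Module.finrank K L := by
  funext q
  apply Units.ext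
  show semiNorm K L ((q : Nat.Primes) : ℕ) (semiIncl K L ((q : Nat.Primes) : ℕ) (x q)) = _
  rw [semiNorm_semiIncl]
  rfl

/-- `incl ∘ N = ∏ σ` on `J_L` in the Galois case. -/
lemma jlMap_jlNorm [IsGalois K L] (x : JL S L) :
    jlMap S K L (jlNorm S K L x) = ∏ σ : L ≃ₐ[K] L, jlHom S (σ.restrictScalars ℚ) x := by
  funext q
  apply Units.ext
  have h1 : ((jlMap S K L (jlNorm S K L x) q : (semiAlg ((q : Nat.Primes) : ℕ) L)ˣ) :
      semiAlg ((q : Nat.Primes) : ℕ) L) =
      semiIncl K L ((q : Nat.Primes) : ℕ) (semiNorm K L ((q : Nat.Primes) : ℕ) (x q)) := rfl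
  rw [h1, semiIncl_semiNorm, Finset.prod_apply, Units.coe_prod]
  rfl

/-- `J_L → J_K`, additively. -/
noncomputable def jlNormLin : Additive (JL S L) →ₗ[ℤ] Additive (JL S K) :=
  (MonoidHom.toAdditive (jlNorm S K L)).toIntLinearMap

variable {K L} in
/-- Equivariance of the norm on `J_L`. -/
lemma jlEnd_jlNormLin {σ : L ≃ₐ[ℚ] L} {τ : K ≃ₐ[ℚ] K} (h : Restricts σ τ)
    (j : Additive (JL S L)) :
    jlNormLin S K L (jlEnd S σ j) = jlEnd S τ (jlNormLin S K L j) := by
  apply Additive.toMul.injective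
  funext q
  apply Units.ext
  exact semiNorm_semiMap _ h _

/-! ### The divisor part -/

variable {L} in
lemma card_quot_primeMap (σ : L ≃ₐ[ℚ] L) (P : HeightOneSpectrum (𝓞 L)) :
    Nat.card (𝓞 L ⧸ (primeMap σ P).asIdeal) = Nat.card (𝓞 L ⧸ P.asIdeal) :=
  (Nat.card_congr (Ideal.quotientEquiv P.asIdeal (primeMap σ P).asIdeal
    (RingOfIntegers.mapRingEquiv (σ : L ≃+* L)) (primeMap_asIdeal_eq_map σ P)).toEquiv).symm

variable {L} in
lemma two_le_card_quot (P : HeightOneSpectrum (𝓞 L)) : 2 ≤ Nat.card (𝓞 L ⧸ P.asIdeal) := by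
  haveI : Finite (𝓞 L ⧸ P.asIdeal) := Ideal.finiteQuotientOfFreeOfNeBot P.asIdeal P.ne_bot
  haveI : Nontrivial (𝓞 L ⧸ P.asIdeal) := Ideal.Quotient.nontrivial_iff.2 P.isPrime.ne_top
  exact Finite.one_lt_card

variable {L} in
lemma card_quot_pow_inertDeg (P : HeightOneSpectrum (𝓞 L)) :
    Nat.card (𝓞 K ⧸ (primeUnder K P).asIdeal) ^ inertDeg K P = Nat.card (𝓞 L ⧸ P.asIdeal) := by
  haveI : (primeUnder K P).asIdeal.IsMaximal := (primeUnder K P).isMaximal
  haveI : P.asIdeal.IsMaximal := P.isMaximal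
  exact Ideal.cardQuot_pow_inertiaDeg (primeUnder K P).asIdeal P.asIdeal

variable {K L} in
/-- The inertia degree is invariant under automorphisms. -/
lemma inertDeg_primeMap {σ : L ≃ₐ[ℚ] L} {τ : K ≃ₐ[ℚ] K} (h : Restricts σ τ)
    (P : HeightOneSpectrum (𝓞 L)) : inertDeg K (primeMap σ P) = inertDeg K P := by
  have h1 := card_quot_pow_inertDeg K (primeMap σ P)
  have h2 := card_quot_pow_inertDeg K P
  rw [primeUnder_primeMap h, card_quot_primeMap, card_quot_primeMap, ← h2] at h1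
  exact Nat.pow_right_injective (two_le_card_quot (primeUnder K P)) h1

variable {K L} in
/-- Equivariance of the divisor norm. -/
lemma divEnd_divNorm {σ : L ≃ₐ[ℚ] L} {τ : K ≃ₐ[ℚ] K} (h : Restricts σ τ) (d : DivS S L) :
    divNorm S K L (divEnd S σ d) = divEnd S τ (divNorm S K L d) := by
  classical
  induction d using Finsupp.induction_linear with
  | zero => simp
  | add d₁ d₂ h₁ h₂ => rw [map_add, map_add, map_add, map_add, h₁, h₂]
  | single P n =>
    have hs : ∀ (ρ : L ≃ₐ[ℚ] L) (Q : OffS S L) (m : ℤ),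
        divEnd S ρ (Finsupp.single Q m) = Finsupp.single (offEquiv S ρ Q) m := by
      intro ρ Q m
      simp [divEnd, Finsupp.domLCongr_apply, Finsupp.domCongr_apply]
    have hs' : ∀ (ρ : K ≃ₐ[ℚ] K) (Q : OffS S K) (m : ℤ),
        divEnd S ρ (Finsupp.single Q m) = Finsupp.single (offEquiv S ρ Q) m := by
      intro ρ Q m
      simp [divEnd, Finsupp.domLCongr_apply, Finsupp.domCongr_apply]
    rw [hs, divNorm_single, divNorm_single, hs', offUnder_offEquiv S h]
    have : inertDeg K (offEquiv S σ P).1 = inertDeg K P.1 := inertDeg_primeMap h P.1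
    rw [this]

end Fermat.Agent.PT.G


end ZBPT_082_1

/-! ### bundled: `Fermat.Agent.PT.G.NormOrd` -/
section ZBPT_082_2
/-
Project PT — PT-G / Norm-ord (helper59): the order of a norm.

For an extension `L / K` of number fields, a prime `𝔭` of `K` and `x ∈ Lˣ`:
`ord_𝔭 (N_{L/K} x) = ∑_{P ∣ 𝔭} f(P ∣ 𝔭) · ord_P x`   (`ordAt_norm`),
with `inertDeg K P = f(P ∣ P ∩ K)` (Mathlib's `Ideal.inertiaDeg`).
Route: `Ideal.relNorm` is multiplicative, `relNorm P = 𝔭 ^ f`, `relNorm (a) = (N a)`.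
-/

set_option autoImplicit false
set_option linter.unusedSectionVars false

namespace Fermat.Agent.PT.G

open NumberField IsDedekindDomain Fermat.Agent.PT.X FractionalIdeal
open scoped nonZeroDivisors

variable (K : Type) {L : Type} [Field K] [NumberField K] [Field L] [NumberField L] [Algebra K L]

lemma inertDeg_ne_zero (P : HeightOneSpectrum (𝓞 L)) : inertDeg K P ≠ 0 := by
  have := P.isPrime
  exact (Ideal.inertiaDeg_pos P.asIdeal (𝓞 K)).ne'

/-- `N_{L/K}(P) = 𝔭 ^ f`. -/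
lemma relNorm_asIdeal (P : HeightOneSpectrum (𝓞 L)) :
    Ideal.relNorm (𝓞 K) P.asIdeal = (primeUnder K P).asIdeal ^ inertDeg K P := by
  have := P.isMaximal
  have := (primeUnder K P).isMaximal
  exact Ideal.relNorm_eq_pow_of_isMaximal P.asIdeal (primeUnder K P).asIdeal

/-- The primes of `L` over a prime of `K` form a finite type. -/
lemma finite_over (𝔭 : HeightOneSpectrum (𝓞 K)) :
    Finite {P : HeightOneSpectrum (𝓞 L) // primeUnder K P = 𝔭} :=
  (finite_fiber_primeUnder K (L := L) 𝔭).to_subtype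

open Classical in
lemma count_relNorm_asIdeal (𝔭 : HeightOneSpectrum (𝓞 K)) (P : HeightOneSpectrum (𝓞 L)) :
    count K 𝔭 ((Ideal.relNorm (𝓞 K) P.asIdeal : Ideal (𝓞 K)) : FractionalIdeal (𝓞 K)⁰ K) =
      if primeUnder K P = 𝔭 then (inertDeg K P : ℤ) else 0 := by
  rw [relNorm_asIdeal, coeIdeal_pow, count_pow, count_maximal]
  split_ifs <;> simp

open Classical in
lemma finsum_inertDeg_mul_count_asIdeal (𝔭 : HeightOneSpectrum (𝓞 K))
    (P : HeightOneSpectrum (𝓞 L)) :
    ∑ᶠ Q : {Q : HeightOneSpectrum (𝓞 L) // primeUnder K Q = 𝔭},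
        (inertDeg K Q.1 : ℤ) * count L Q.1 ((P.asIdeal : Ideal (𝓞 L)) : FractionalIdeal (𝓞 L)⁰ L) =
      if primeUnder K P = 𝔭 then (inertDeg K P : ℤ) else 0 := by
  split_ifs with h
  · rw [finsum_eq_single _ (⟨P, h⟩ : {Q : HeightOneSpectrum (𝓞 L) // primeUnder K Q = 𝔭})]
    · rw [count_self, mul_one]
    · intro Q hQ
      have hne : P ≠ Q.1 := fun hPQ => hQ (Subtype.ext hPQ.symm)
      rw [count_maximal_coprime L Q.1 hne, mul_zero]
  · apply finsum_eq_zero_of_forall_eq_zero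
    intro Q
    have hne : P ≠ Q.1 := by
      rintro rfl
      exact h Q.2
    rw [count_maximal_coprime L Q.1 hne, mul_zero]

/-- `ord_𝔭 (N I) = ∑_{P ∣ 𝔭} f(P ∣ 𝔭) · ord_P I` for a nonzero ideal `I` of `𝓞 L`. -/
theorem count_relNorm (𝔭 : HeightOneSpectrum (𝓞 K)) (I : Ideal (𝓞 L)) (hI : I ≠ ⊥) :
    count K 𝔭 ((Ideal.relNorm (𝓞 K) I : Ideal (𝓞 K)) : FractionalIdeal (𝓞 K)⁰ K) =
      ∑ᶠ Q : {Q : HeightOneSpectrum (𝓞 L) // primeUnder K Q = 𝔭},
        (inertDeg K Q.1 : ℤ) * count L Q.1 ((I : Ideal (𝓞 L)) : FractionalIdeal (𝓞 L)⁰ L) := by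
  have hfin := finite_over K (L := L) 𝔭
  induction I using UniqueFactorizationMonoid.induction_on_prime with
  | h₁ => exact absurd rfl hI
  | h₂ I hu =>
    have h1 : I = ⊤ := Ideal.isUnit_iff.1 hu
    subst h1
    rw [Ideal.relNorm_top, coeIdeal_top, count_one]
    symm
    apply finsum_eq_zero_of_forall_eq_zero
    intro Q
    rw [coeIdeal_top, count_one, mul_zero]
  | h₃ J P hJ hP ih =>
    have hJ' : J ≠ ⊥ := hJ
    have hP0 : P ≠ ⊥ := hP.ne_zero
    have hPprime : P.IsPrime := (Ideal.prime_iff_isPrime hP0).1 hP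
    set P' : HeightOneSpectrum (𝓞 L) := ⟨P, hPprime, hP0⟩ with hP'
    have hPas : P = P'.asIdeal := rfl
    have hcJ : ((J : Ideal (𝓞 L)) : FractionalIdeal (𝓞 L)⁰ L) ≠ 0 :=
      coeIdeal_ne_zero.2 hJ'
    have hcP : ((P : Ideal (𝓞 L)) : FractionalIdeal (𝓞 L)⁰ L) ≠ 0 :=
      coeIdeal_ne_zero.2 hP0
    have hnJ : ((Ideal.relNorm (𝓞 K) J : Ideal (𝓞 K)) : FractionalIdeal (𝓞 K)⁰ K) ≠ 0 :=
      coeIdeal_ne_zero.2 (fun h => hJ' (Ideal.relNorm_eq_bot_iff.1 h))
    have hnP : ((Ideal.relNorm (𝓞 K) P : Ideal (𝓞 K)) : FractionalIdeal (𝓞 K)⁰ K) ≠ 0 :=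
      coeIdeal_ne_zero.2 (fun h => hP0 (Ideal.relNorm_eq_bot_iff.1 h))
    rw [map_mul, coeIdeal_mul, count_mul K 𝔭 hnP hnJ, ih hJ']
    have h2 : ∀ Q : {Q : HeightOneSpectrum (𝓞 L) // primeUnder K Q = 𝔭},
        (inertDeg K Q.1 : ℤ) * count L Q.1 (((P * J : Ideal (𝓞 L)) : Ideal (𝓞 L)) :
          FractionalIdeal (𝓞 L)⁰ L) =
        (inertDeg K Q.1 : ℤ) * count L Q.1 ((P : Ideal (𝓞 L)) : FractionalIdeal (𝓞 L)⁰ L) +
        (inertDeg K Q.1 : ℤ) * count L Q.1 ((J : Ideal (𝓞 L)) : FractionalIdeal (𝓞 L)⁰ L) := by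
      intro Q
      rw [coeIdeal_mul, count_mul L Q.1 hcP hcJ, mul_add]
    rw [finsum_congr h2, finsum_add_distrib (Set.toFinite _) (Set.toFinite _)]
    congr 1
    rw [hPas, count_relNorm_asIdeal, finsum_inertDeg_mul_count_asIdeal]

/-- The two sides of `ordAt_norm`, as functions of `x`. -/
lemma ordAt_norm_mul_aux (𝔭 : HeightOneSpectrum (𝓞 K)) (x y : Lˣ) :
    ∑ᶠ P : {P : HeightOneSpectrum (𝓞 L) // primeUnder K P = 𝔭},
        (inertDeg K P.1 : ℤ) * ordAt P.1 (x * y) =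
      (∑ᶠ P : {P : HeightOneSpectrum (𝓞 L) // primeUnder K P = 𝔭},
        (inertDeg K P.1 : ℤ) * ordAt P.1 x) +
      ∑ᶠ P : {P : HeightOneSpectrum (𝓞 L) // primeUnder K P = 𝔭},
        (inertDeg K P.1 : ℤ) * ordAt P.1 y := by
  have hfin := finite_over K (L := L) 𝔭
  rw [← finsum_add_distrib (Set.toFinite _) (Set.toFinite _)]
  apply finsum_congr
  intro P
  rw [ordAt_mul, mul_add]

/-- `ordAt_norm` for nonzero integers. -/
theorem ordAt_norm_of_integer (𝔭 : HeightOneSpectrum (𝓞 K)) (x : Lˣ) (a : 𝓞 L)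
    (ha : algebraMap (𝓞 L) L a = (x : L)) :
    ordAt 𝔭 (Units.map (Algebra.norm K : L →* K) x) =
      ∑ᶠ P : {P : HeightOneSpectrum (𝓞 L) // primeUnder K P = 𝔭},
        (inertDeg K P.1 : ℤ) * ordAt P.1 x := by
  have ha0 : a ≠ 0 := by
    rintro rfl
    rw [map_zero] at ha
    exact x.ne_zero ha.symm
  have hI : Ideal.span ({a} : Set (𝓞 L)) ≠ ⊥ := by
    rw [Ne, Ideal.span_singleton_eq_bot]
    exact ha0
  have h1 := count_relNorm K 𝔭 (Ideal.span ({a} : Set (𝓞 L))) hI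
  rw [Ideal.relNorm_singleton, coeIdeal_span_singleton, coeIdeal_span_singleton,
    Algebra.algebraMap_intNorm (A := 𝓞 K) (K := K) (L := L) (B := 𝓞 L) a, ha] at h1
  exact h1

/-- **The order of a norm**: `ord_𝔭 (N_{L/K} x) = ∑_{P ∣ 𝔭} f(P ∣ 𝔭) · ord_P x`. -/
theorem ordAt_norm (𝔭 : HeightOneSpectrum (𝓞 K)) (x : Lˣ) :
    ordAt 𝔭 (Units.map (Algebra.norm K : L →* K) x) =
      ∑ᶠ P : {P : HeightOneSpectrum (𝓞 L) // primeUnder K P = 𝔭},
        (inertDeg K P.1 : ℤ) * ordAt P.1 x := by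
  obtain ⟨a, b, hb, hab⟩ := IsFractionRing.div_surjective (A := 𝓞 L) (x : L)
  have hb0 : algebraMap (𝓞 L) L b ≠ 0 :=
    map_ne_zero_of_mem_nonZeroDivisors _ (IsFractionRing.injective (𝓞 L) L) hb
  set y : Lˣ := Units.mk0 (algebraMap (𝓞 L) L b) hb0 with hy
  have hxy : algebraMap (𝓞 L) L a = ((x * y : Lˣ) : L) := by
    rw [Units.val_mul, hy, Units.val_mk0, ← hab, div_mul_cancel₀ _ hb0]
  have h1 := ordAt_norm_of_integer K 𝔭 (x * y) a hxy
  have h2 := ordAt_norm_of_integer K 𝔭 y b rfl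
  rw [map_mul, ordAt_mul, ordAt_norm_mul_aux, h2] at h1
  exact add_right_cancel h1

/-! ### The fundamental identity `∑ e f = [L : K]` -/

/-- The primes of `L` over `𝔭`, as a subtype of `HeightOneSpectrum`, versus Mathlib's
`Ideal.primesOver`. -/
noncomputable def overEquivPrimesOver (𝔭 : HeightOneSpectrum (𝓞 K)) :
    {P : HeightOneSpectrum (𝓞 L) // primeUnder K P = 𝔭} ≃ 𝔭.asIdeal.primesOver (𝓞 L) where
  toFun P := ⟨P.1.asIdeal, P.1.isPrime, ⟨(congrArg HeightOneSpectrum.asIdeal P.2).symm⟩⟩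
  invFun Q := ⟨⟨Q.1, Q.2.1, Ideal.ne_bot_of_mem_primesOver 𝔭.ne_bot Q.2⟩,
    HeightOneSpectrum.ext (Q.2.2.over).symm⟩
  left_inv _ := Subtype.ext (HeightOneSpectrum.ext rfl)
  right_inv _ := Subtype.ext rfl

lemma ramIdx_eq_ramificationIdx (P : HeightOneSpectrum (𝓞 L)) :
    ramIdx K P = P.asIdeal.ramificationIdx (𝓞 K) := by
  have := P.isPrime
  exact Ideal.ramificationIdx'_eq_ramificationIdx (primeUnder K P).asIdeal P.asIdeal
    (primeUnder K P).ne_bot

/-- **The fundamental identity**: `∑_{P ∣ 𝔭} e(P ∣ 𝔭) f(P ∣ 𝔭) = [L : K]`. -/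
theorem sum_ramIdx_mul_inertDeg (𝔭 : HeightOneSpectrum (𝓞 K)) :
    ∑ᶠ P : {P : HeightOneSpectrum (𝓞 L) // primeUnder K P = 𝔭}, ramIdx K P.1 * inertDeg K P.1 =
      Module.finrank K L := by
  classical
  have := 𝔭.isPrime
  have hfin := finite_over K (L := L) 𝔭
  have h := Ideal.sum_ramification_inertia_eq_finrank 𝔭.asIdeal (𝓞 L)
  rw [← IsFractionRing.finrank_eq (𝓞 K) K (𝓞 L) L] at h
  rw [← h, ← finsum_eq_sum_of_fintype]
  rw [← finsum_comp_equiv (overEquivPrimesOver K (L := L) 𝔭)]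
  apply finsum_congr
  intro P
  rw [ramIdx_eq_ramificationIdx]
  rfl

/-! ### The divisor form -/

section DivForm

open Fermat.Agent.PT.G1

variable (S : Finset Nat.Primes)

/-- The primes of `L` off `S` over `𝔭` (off `S`) are all the primes of `L` over `𝔭`. -/
noncomputable def offFiberEquiv (𝔭 : OffS S K) :
    {P : OffS S L // P ∈ offFiber S K L 𝔭} ≃
      {P : HeightOneSpectrum (𝓞 L) // primeUnder K P = 𝔭.1} where
  toFun P := ⟨P.1.1, congrArg Subtype.val ((mem_offFiber S K 𝔭 P.1).1 P.2)⟩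
  invFun Q := ⟨⟨Q.1, fun h => 𝔭.2 (by
      have h1 := (natCast_mem_primeUnder_iff K L Q.1 (sProd S)).2 h
      rwa [Q.2] at h1)⟩,
    (mem_offFiber S K 𝔭 _).2 (Subtype.ext Q.2)⟩
  left_inv _ := Subtype.ext (Subtype.ext rfl)
  right_inv _ := Subtype.ext rfl

/-- **The order of a norm, divisor form**: `div (N_{L/K} x) = N_{L/K} (div x)`. -/
theorem divNorm_divHom (x : Additive Lˣ) :
    divNorm S K L (divHom S L x) =
      divHom S K (Additive.ofMul (Units.map (Algebra.norm K : L →* K) (Additive.toMul x))) := by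
  ext 𝔭
  rw [divNorm_apply, divHom_apply]
  show _ = ordAt 𝔭.1 (Units.map (Algebra.norm K : L →* K) (Additive.toMul x))
  rw [ordAt_norm, ← finsum_comp_equiv (offFiberEquiv K S 𝔭), finsum_eq_sum_of_fintype,
    ← Finset.sum_coe_sort]
  rfl

end DivForm

end Fermat.Agent.PT.G


end ZBPT_082_2

/-! ### bundled: `Fermat.Agent.PT.G.Norm` -/
section ZBPT_082_3

/-!
# Project PT — shared model, piece **Defs-norm**: the norm `C_S(L) → C_S(K)` (helper87)

For an extension `L / K` of number fields (types, `[Algebra K L]`):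
* `csNorm S K L : C_S(L) →ₗ[ℤ] C_S(K)`, induced by the norms `ℚ_q ⊗ L → ℚ_q ⊗ K` (`semiNorm`)
  and by `P ↦ f(P | 𝔭) · 𝔭` on divisors (`divNorm`);
* `csNorm_csMap : csNorm (csMap c) = [L : K] • c`;
* `csEnd_csNorm`: equivariance, `csNorm ∘ σ = τ ∘ csNorm` if `σ ∈ Aut(L)` restricts to `τ ∈ Aut(K)`.
The Galois formula `csMap ∘ csNorm = ∑ σ` is in `NormGal.lean`.
-/

set_option autoImplicit false
set_option linter.unusedSectionVars false

namespace Fermat.Agent.PT.G

open NumberField IsDedekindDomain Fermat.Agent.PT.G1 Fermat.Agent.PT.X TensorProduct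

variable (S : Finset Nat.Primes) (K L : Type) [Field K] [NumberField K] [Field L] [NumberField L]
  [Algebra K L]

/-- `N ∘ incl = [L : K]` on divisors. -/
lemma divNorm_divMap (d : DivS S K) :
    divNorm S K L (divMap S K L d) = (Module.finrank K L : ℤ) • d := by
  classical
  ext 𝔭
  rw [divNorm_apply, Finsupp.smul_apply, smul_eq_mul]
  have h1 : ∀ P ∈ offFiber S K L 𝔭, (inertDeg K P.1 : ℤ) * divMap S K L d P =
      ((ramIdx K P.1 * inertDeg K P.1 : ℕ) : ℤ) * d 𝔭 := by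
    intro P hP
    rw [divMap_apply, (mem_offFiber S K 𝔭 P).1 hP]
    push_cast
    ring
  rw [Finset.sum_congr rfl h1, ← Finset.sum_mul, ← Nat.cast_sum]
  congr 2
  rw [← sum_ramIdx_mul_inertDeg K (L := L) 𝔭.1, ← finsum_comp_equiv (offFiberEquiv K S 𝔭),
    finsum_eq_sum_of_fintype, ← Finset.sum_coe_sort]
  rfl

/-! ### The class module -/

/-- `J_L × Div_S(L) → J_K × Div_S(K)`. -/
noncomputable def jdNorm : Additive (JL S L) × DivS S L →ₗ[ℤ] Additive (JL S K) × DivS S K :=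
  LinearMap.prodMap (jlNormLin S K L) (divNorm S K L)

lemma jdNorm_iotaHom (x : Additive Lˣ) :
    jdNorm S K L (iotaHom S L x) =
      iotaHom S K (Additive.ofMul (Units.map (Algebra.norm K : L →* K) (Additive.toMul x))) := by
  apply Prod.ext
  · exact congrArg Additive.ofMul (jlNorm_jlDiag S K L (Additive.toMul x))
  · exact divNorm_divHom K S x

lemma range_iotaHom_le_comap_jdNorm :
    LinearMap.range (iotaHom S L) ≤ (LinearMap.range (iotaHom S K)).comap (jdNorm S K L) := by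
  rintro _ ⟨x, rfl⟩
  exact ⟨_, (jdNorm_iotaHom S K L x).symm⟩

/-- **The norm `C_S(L) → C_S(K)`** for an extension `L / K` of number fields. -/
noncomputable def csNorm : CS S L →ₗ[ℤ] CS S K :=
  Submodule.mapQ _ _ (jdNorm S K L) (range_iotaHom_le_comap_jdNorm S K L)

@[simp] lemma csNorm_mk (y : Additive (JL S L) × DivS S L) :
    csNorm S K L (csMk S L y) = csMk S K (jdNorm S K L y) := rfl

lemma csNorm_csOfJ (j : Additive (JL S L)) :
    csNorm S K L (csOfJ S L j) = csOfJ S K (jlNormLin S K L j) := by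
  rw [csOfJ_apply, csNorm_mk, csOfJ_apply]
  congr 1

lemma csNorm_csOfDiv (d : DivS S L) :
    csNorm S K L (csOfDiv S L d) = csOfDiv S K (divNorm S K L d) := by
  rw [csOfDiv_apply, csNorm_mk, csOfDiv_apply]
  congr 1
  apply Prod.ext
  · exact map_zero (jlNormLin S K L)
  · rfl

lemma jdNorm_jdMap (y : Additive (JL S K) × DivS S K) :
    jdNorm S K L (jdMap S K L y) = (Module.finrank K L : ℤ) • y := by
  apply Prod.ext
  · show jlNormLin S K L (jlMapLin S K L y.1) = (Module.finrank K L : ℤ) • y.1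
    apply Additive.toMul.injective
    have h := jlNorm_jlMap S K L (Additive.toMul y.1)
    rw [natCast_zsmul]
    exact h
  · exact divNorm_divMap S K L y.2

/-- **`csNorm ∘ csMap = [L : K]`.** -/
theorem csNorm_csMap (c : CS S K) :
    csNorm S K L (csMap S K L c) = (Module.finrank K L : ℤ) • c := by
  induction c using Submodule.Quotient.induction_on with
  | _ y =>
    show csMk S K (jdNorm S K L (jdMap S K L y)) = (Module.finrank K L : ℤ) • csMk S K y
    rw [jdNorm_jdMap, map_smul]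

/-! ### Equivariance -/

variable {K L}

lemma jdEnd_jdNorm {σ : L ≃ₐ[ℚ] L} {τ : K ≃ₐ[ℚ] K} (h : Restricts σ τ)
    (y : Additive (JL S L) × DivS S L) :
    jdNorm S K L (jdEnd S σ y) = jdEnd S τ (jdNorm S K L y) := by
  apply Prod.ext
  · exact jlEnd_jlNormLin S h y.1
  · exact divEnd_divNorm S h y.2

/-- **Equivariance of `csNorm`.** -/
theorem csEnd_csNorm {σ : L ≃ₐ[ℚ] L} {τ : K ≃ₐ[ℚ] K} (h : Restricts σ τ) (c : CS S L) :
    csNorm S K L (csEnd S σ c) = csEnd S τ (csNorm S K L c) := by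
  induction c using Submodule.Quotient.induction_on with
  | _ y =>
    show csMk S K (jdNorm S K L (jdEnd S σ y)) = csMk S K (jdEnd S τ (jdNorm S K L y))
    rw [jdEnd_jdNorm S h]

end Fermat.Agent.PT.G


end ZBPT_082_3

/-! ### bundled: `Fermat.Agent.PT.G.NormGal` -/
section ZBPT_082_4

/-!
# Project PT — shared model, piece **Defs-norm**: the Galois formula `csMap ∘ csNorm = ∑ σ`

`csMap_csNorm_of`: for `L / K` Galois, `csMap (csNorm c) = ∑_{σ ∈ Gal(L/K)} σ c` on `C_S(L)`,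
from the same formula on divisors (`divMap ∘ divNorm = ∑ σ`, piece Norm-divgal).
-/

set_option autoImplicit false
set_option linter.unusedSectionVars false

namespace Fermat.Agent.PT.G

open NumberField IsDedekindDomain Fermat.Agent.PT.G1 Fermat.Agent.PT.X TensorProduct

variable (S : Finset Nat.Primes) (K L : Type) [Field K] [NumberField K] [Field L] [NumberField L]
  [Algebra K L]

/-- The Galois formula on divisors (piece Norm-divgal). -/
def StmtDivGal : Prop :=
  ∀ d : DivS S L, divMap S K L (divNorm S K L d) =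
    ∑ σ : L ≃ₐ[K] L, divEnd S (σ.restrictScalars ℚ) d

lemma jlMapLin_jlNormLin [IsGalois K L] (j : Additive (JL S L)) :
    jlMapLin S K L (jlNormLin S K L j) = ∑ σ : L ≃ₐ[K] L, jlEnd S (σ.restrictScalars ℚ) j := by
  apply Additive.toMul.injective
  have h := jlMap_jlNorm S K L (Additive.toMul j)
  rw [toMul_sum]
  exact h

lemma jdMap_jdNorm [IsGalois K L] (hdiv : StmtDivGal S K L)
    (y : Additive (JL S L) × DivS S L) :
    jdMap S K L (jdNorm S K L y) = ∑ σ : L ≃ₐ[K] L, jdEnd S (σ.restrictScalars ℚ) y := by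
  apply Prod.ext
  · rw [Prod.fst_sum]
    exact jlMapLin_jlNormLin S K L y.1
  · rw [Prod.snd_sum]
    exact hdiv y.2

/-- **`csMap ∘ csNorm = ∑_{σ ∈ Gal(L/K)} σ`** (from the formula on divisors). -/
theorem csMap_csNorm_of [IsGalois K L] (hdiv : StmtDivGal S K L) (c : CS S L) :
    csMap S K L (csNorm S K L c) = ∑ σ : L ≃ₐ[K] L, csEnd S (σ.restrictScalars ℚ) c := by
  induction c using Submodule.Quotient.induction_on with
  | _ y =>
    show csMk S L (jdMap S K L (jdNorm S K L y)) =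
      ∑ σ : L ≃ₐ[K] L, csMk S L (jdEnd S (σ.restrictScalars ℚ) y)
    rw [jdMap_jdNorm S K L hdiv, map_sum]

end Fermat.Agent.PT.G


end ZBPT_082_4
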