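/- GENERATED FILE (helper35, build-time optimisation, NOTES/ZB.md): verbatim concatenation of the modules
   Fermat.Agent.PT.G3.SymbolCheb
   Fermat.Agent.PT.G3.PsiGen
   Fermat.Agent.PT.G3.CLT
   Fermat.Agent.PT.G3.CycCard
   Do not edit; do not import together with these modules. -/
import Mathlib
import Fermat.Agent.ZB.Cheb_002
import Fermat.Agent.ZB.PT_009
import Fermat.Agent.ZB.PT_078

/-! ### bundled: `Fermat.Agent.PT.G3.SymbolCheb` -/
section ZBPT_083_0
/-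
PT-G3, piece S2 = (C): for a number field `K`, a prime `p` and `L = K(ζ)`, `ζ` a primitive
`p^(n+1)`-th root of unity, the classes `N(I) mod p^(n+1)` of the absolute norms of the ideals `I`
of `𝓞 K` prime to `p` are exactly the values of the cyclotomic character on `Gal(L/K)`.

* `symCheb_frob`  : `⊆`, by Frobenius elements (Mathlib `IsArithFrobAt`);
* `symCheb_gen`   : `⊇`, by the weak Chebotarev theorem for cyclic extensions (`Cheb.stmtCyclic`):
  there is a prime `v ∤ p` of `K` such that every `σ ∈ Gal(L/K)` acts on `ζ` as a power of `N v`;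
* `symbolCheb`    : the equality of the two sets;  `symbolCheb_pow` : the same for `(p-1)`-th powers.
-/

set_option autoImplicit false
set_option linter.style.haveILetI false

namespace Fermat.Agent.PT.G3

open NumberField IsDedekindDomain
open scoped Pointwise

/-- Roots of unity of order `m` are distinct modulo a proper ideal `Q` with `m ∉ Q` (in a domain). -/
theorem symCheb_root_eq_of_sub_mem {S : Type*} [CommRing S] [IsDomain S] {Q : Ideal S} {m : ℕ}
    (hm : (m : S) ∉ Q) {x y : S} (hx : x ^ m = 1) (hy : y ^ m = 1) (h : x - y ∈ Q) : x = y := by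
  have hm0 : m ≠ 0 := by
    rintro rfl
    exact hm (by simp)
  obtain ⟨k, rfl⟩ : ∃ k, m = k + 1 := Nat.exists_eq_succ_of_ne_zero hm0
  set η : S := x * y ^ k with hη
  have hy' : y * y ^ k = 1 := by rw [← pow_succ', hy]
  have hηm : η ^ (k + 1) = 1 := by
    rw [hη, mul_pow, hx, one_mul, ← pow_mul, mul_comm, pow_mul, hy, one_pow]
  have hη1 : η - 1 ∈ Q := by
    have : η - 1 = (x - y) * y ^ k := by rw [hη, sub_mul, hy']
    rw [this]
    exact Q.mul_mem_right _ h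
  have hgeom := geom_sum_mul η (k + 1)
  rw [hηm, sub_self, mul_eq_zero] at hgeom
  rcases hgeom with h0 | h1
  · exfalso
    apply hm
    have hsum : ∑ i ∈ Finset.range (k + 1), (η ^ i - 1) ∈ Q := by
      refine Q.sum_mem fun i _ => ?_
      obtain ⟨c, hc⟩ := sub_dvd_pow_sub_pow η 1 i
      rw [one_pow] at hc
      rw [hc]
      exact Q.mul_mem_right _ hη1
    rw [Finset.sum_sub_distrib, h0, Finset.sum_const, Finset.card_range, zero_sub,
      nsmul_eq_mul, mul_one] at hsum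
    simpa using Q.neg_mem hsum
  · have hη' : η = 1 := sub_eq_zero.mp h1
    calc x = x * (y ^ k * y) := by rw [mul_comm (y ^ k) y, hy', mul_one]
      _ = η * y := by rw [hη]; ring
      _ = y := by rw [hη', one_mul]

/-- A prime ideal whose norm is prime to `p` does not contain `p`. -/
theorem symCheb_notMem_of_coprime {K : Type*} [Field K] [NumberField K] (p : ℕ)
    (Q : Ideal (𝓞 K)) [hQ : Q.IsPrime] (hcop : (Ideal.absNorm Q).Coprime p) :
    (p : 𝓞 K) ∉ Q := by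
  intro hpQ
  have hN : ((Ideal.absNorm Q : ℕ) : 𝓞 K) ∈ Q := Ideal.absNorm_mem Q
  obtain ⟨a, b, hab⟩ := Nat.Coprime.isCoprime hcop
  have h1 := congrArg (Int.cast : ℤ → 𝓞 K) hab
  push_cast at h1
  have h2 : (1 : 𝓞 K) ∈ Q := by
    rw [← h1]
    exact Q.add_mem (Q.mul_mem_left _ hN) (Q.mul_mem_left _ hpQ)
  exact hQ.ne_top ((Ideal.eq_top_iff_one Q).mpr h2)

section

variable (p n : ℕ) [Fact p.Prime] (K L : Type) [Field K] [NumberField K] [Field L] [NumberField L]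
  [Algebra K L] [IsGalois K L] (ζ : L) (hζ : IsPrimitiveRoot ζ (p ^ (n + 1)))

include hζ

/-- `⊆` for a prime: the Frobenius at a prime `v ∤ p` raises `ζ` to the power `N v`. -/
theorem symCheb_frob_prime (v : Ideal (𝓞 K)) [v.IsPrime] (hv0 : v ≠ ⊥)
    (hpv : (p : 𝓞 K) ∉ v) : ∃ σ : L ≃ₐ[K] L, σ ζ = ζ ^ (Ideal.absNorm v) := by
  haveI : NeZero (p ^ (n + 1)) := ⟨pow_ne_zero _ (Fact.out : p.Prime).ne_zero⟩
  obtain ⟨Q, hQ⟩ := Ideal.nonempty_primesOver (S := 𝓞 L) v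
  haveI hQprime : Q.IsPrime := hQ.1
  haveI hQover : Q.LiesOver v := hQ.2
  have hQ0 : Q ≠ ⊥ := Ideal.ne_bot_of_liesOver_of_ne_bot hv0 Q
  haveI : Finite (𝓞 L ⧸ Q) := Ideal.finiteQuotientOfFreeOfNeBot Q hQ0
  obtain ⟨σ, hσ⟩ := IsArithFrobAt.exists_of_isInvariant (𝓞 K) (L ≃ₐ[K] L) Q
  refine ⟨σ, ?_⟩
  have hζ' : (hζ.toInteger : 𝓞 L) ^ (p ^ (n + 1)) = 1 := hζ.toInteger_isPrimitiveRoot.pow_eq_one
  have hmQ : ((p ^ (n + 1) : ℕ) : 𝓞 L) ∉ Q := by
    intro hmem
    rw [Nat.cast_pow] at hmem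
    have hp : (p : 𝓞 L) ∈ Q := hQprime.mem_of_pow_mem _ hmem
    apply hpv
    rw [hQover.over, Ideal.under_def, Ideal.mem_comap, map_natCast]
    exact hp
  have h := AlgHom.IsArithFrobAt.apply_of_pow_eq_one hσ hζ' hmQ
  have hcard : Nat.card (𝓞 K ⧸ Q.under (𝓞 K)) = Ideal.absNorm v := by
    rw [← hQover.over, Ideal.absNorm_apply, Submodule.cardQuot_apply]
  rw [hcard] at h
  have h2 := congrArg (fun x : 𝓞 L => (x : L)) h
  have h3 : (((MulSemiringAction.toAlgHom (𝓞 K) (𝓞 L) σ) hζ.toInteger : 𝓞 L) : L) = σ ζ := rfl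
  have h4 : ((hζ.toInteger ^ Ideal.absNorm v : 𝓞 L) : L) = ζ ^ Ideal.absNorm v :=
    (algebraMap (𝓞 L) L).map_pow _ _
  exact h3.symm.trans (h2.trans h4)


/-- `⊆`: for every ideal `I` of norm prime to `p` there is `σ ∈ Gal(L/K)` with
`σ ζ = ζ ^ N(I)`. -/
theorem symCheb_frob (I : Ideal (𝓞 K)) (hI : (Ideal.absNorm I).Coprime p) :
    ∃ σ : L ≃ₐ[K] L, σ ζ = ζ ^ (Ideal.absNorm I) := by
  classical
  have hI0 : I ≠ ⊥ := by
    rintro rfl
    rw [Ideal.absNorm_bot, Nat.coprime_zero_left] at hI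
    exact (Fact.out : p.Prime).one_lt.ne' hI
  have key : ∃ σ : L ≃ₐ[K] L,
      σ ζ = ζ ^ (Ideal.absNorm (UniqueFactorizationMonoid.normalizedFactors I).prod) := by
    refine Multiset.prod_induction
      (fun J : Ideal (𝓞 K) => ∃ σ : L ≃ₐ[K] L, σ ζ = ζ ^ (Ideal.absNorm J)) _ ?_ ?_ ?_
    · rintro J₁ J₂ ⟨σ₁, h₁⟩ ⟨σ₂, h₂⟩
      refine ⟨σ₁ * σ₂, ?_⟩
      rw [AlgEquiv.mul_apply, h₂, map_pow, h₁, ← pow_mul, map_mul]
    · exact ⟨1, by simp⟩
    · intro Q hQ
      have hQ0 : Q ≠ ⊥ := UniqueFactorizationMonoid.ne_zero_of_mem_normalizedFactors hQ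
      rw [Ideal.mem_normalizedFactors_iff hI0] at hQ
      haveI := hQ.1
      refine symCheb_frob_prime p n K L ζ hζ Q hQ0 ?_
      have hdvd : Ideal.absNorm Q ∣ Ideal.absNorm I := Ideal.absNorm_dvd_absNorm_of_le hQ.2
      exact symCheb_notMem_of_coprime p Q (Nat.Coprime.coprime_dvd_left hdvd hI)
  rwa [Ideal.prod_normalizedFactors_eq_self hI0] at key

attribute [local instance] Ideal.Quotient.field in
/-- `⊇`, cyclic case: if `Gal(L/K)` is cyclic there is a prime `v` of `K` of prime norm `ℓ ∉ S`,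
`ℓ ≠ p`, such that every `σ ∈ Gal(L/K)` raises `ζ` to a power of `N v`. -/
theorem symCheb_gen_of_isCyclic [IsCyclic (L ≃ₐ[K] L)] (S : Finset ℕ) :
    ∃ v : HeightOneSpectrum (𝓞 K), (Ideal.absNorm v.asIdeal).Prime ∧
      Ideal.absNorm v.asIdeal ∉ S ∧ Ideal.absNorm v.asIdeal ≠ p ∧
      ∀ σ : L ≃ₐ[K] L, ∃ j : ℕ, σ ζ = ζ ^ ((Ideal.absNorm v.asIdeal) ^ j) := by
  classical
  haveI : NeZero (p ^ (n + 1)) := ⟨pow_ne_zero _ (Fact.out : p.Prime).ne_zero⟩
  obtain ⟨v, hvprime, hvS, hcard⟩ :=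
    Fermat.Agent.Cheb.stmtCyclic Fermat.Agent.Cheb.stmtPrimeSum
      (Fermat.Agent.Cheb.stmtSplit Fermat.Agent.Cheb.stmtPrimeSum)
      Fermat.Agent.Cheb.stmtCyclicSplit K L (insert p S)
  have hvp : Ideal.absNorm v.asIdeal ≠ p := fun h => hvS (h ▸ Finset.mem_insert_self _ _)
  refine ⟨v, hvprime, fun h => hvS (Finset.mem_insert_of_mem h), hvp, ?_⟩
  intro σ
  obtain ⟨Q, hQ⟩ : ∃ Q, Ideal.primesOver v.asIdeal (𝓞 L) = {Q} := Set.ncard_eq_one.mp hcard
  have hQmem : Q ∈ Ideal.primesOver v.asIdeal (𝓞 L) := by rw [hQ]; rfl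
  haveI hQprime : Q.IsPrime := hQmem.1
  haveI hQover : Q.LiesOver v.asIdeal := hQmem.2
  have hσQ : σ • Q = Q := by
    have h1 : σ • Q ∈ Ideal.primesOver v.asIdeal (𝓞 L) := ⟨inferInstance, inferInstance⟩
    rw [hQ] at h1
    exact h1
  have hv0 : v.asIdeal ≠ ⊥ := v.ne_bot
  haveI hvprime' : v.asIdeal.IsPrime := v.isPrime
  have hQ0 : Q ≠ ⊥ := Ideal.ne_bot_of_liesOver_of_ne_bot hv0 Q
  haveI : Finite (𝓞 L ⧸ Q) := Ideal.finiteQuotientOfFreeOfNeBot Q hQ0
  haveI : Finite (𝓞 K ⧸ v.asIdeal) := Ideal.finiteQuotientOfFreeOfNeBot _ hv0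
  haveI hvmax : v.asIdeal.IsMaximal := v.isMaximal
  haveI hQmax : Q.IsMaximal := Ideal.IsPrime.isMaximal inferInstance hQ0
  let σs : MulAction.stabilizer (L ≃ₐ[K] L) Q := ⟨σ, hσQ⟩
  letI : Fintype (𝓞 K ⧸ v.asIdeal) := Fintype.ofFinite _
  obtain ⟨j, hj⟩ := (FiniteField.bijective_frobeniusAlgEquivOfAlgebraic_pow (𝓞 K ⧸ v.asIdeal)
    (𝓞 L ⧸ Q)).2 (Ideal.Quotient.stabilizerHom Q v.asIdeal (L ≃ₐ[K] L) σs)
  refine ⟨j, ?_⟩
  have h2 : ∀ x : 𝓞 L, σ • x - x ^ (Ideal.absNorm v.asIdeal ^ (j : ℕ)) ∈ Q := by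
    intro x
    have h := congrArg
      (fun f : (𝓞 L ⧸ Q) ≃ₐ[𝓞 K ⧸ v.asIdeal] (𝓞 L ⧸ Q) => f (Ideal.Quotient.mk Q x)) hj
    simp only [AlgEquiv.coe_pow, FiniteField.coe_frobeniusAlgEquivOfAlgebraic_iterate,
      Ideal.Quotient.stabilizerHom_apply] at h
    have hcardv : Fintype.card (𝓞 K ⧸ v.asIdeal) = Ideal.absNorm v.asIdeal := by
      rw [← Nat.card_eq_fintype_card, Ideal.absNorm_apply, Submodule.cardQuot_apply]
    rw [← Ideal.Quotient.eq, map_pow, ← hcardv]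
    exact h.symm
  -- apply to the integral root of unity
  have hpv : (p : 𝓞 K) ∉ v.asIdeal := by
    refine symCheb_notMem_of_coprime p v.asIdeal ?_
    exact (Nat.coprime_primes hvprime (Fact.out : p.Prime)).mpr hvp
  have hmQ : ((p ^ (n + 1) : ℕ) : 𝓞 L) ∉ Q := by
    intro hmem
    rw [Nat.cast_pow] at hmem
    have hp : (p : 𝓞 L) ∈ Q := hQprime.mem_of_pow_mem _ hmem
    apply hpv
    rw [hQover.over, Ideal.under_def, Ideal.mem_comap, map_natCast]
    exact hp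
  have hζ' : (hζ.toInteger : 𝓞 L) ^ (p ^ (n + 1)) = 1 := hζ.toInteger_isPrimitiveRoot.pow_eq_one
  have hx : (σ • (hζ.toInteger : 𝓞 L)) ^ (p ^ (n + 1)) = 1 := by
    rw [← smul_pow', hζ', smul_one]
  have hy : ((hζ.toInteger : 𝓞 L) ^ (Ideal.absNorm v.asIdeal ^ (j : ℕ))) ^ (p ^ (n + 1)) = 1 := by
    rw [← pow_mul, mul_comm, pow_mul, hζ', one_pow]
  have h := symCheb_root_eq_of_sub_mem hmQ hx hy (h2 hζ.toInteger)
  have h3 := congrArg (fun x : 𝓞 L => (x : L)) h
  have h4 : ((σ • (hζ.toInteger : 𝓞 L) : 𝓞 L) : L) = σ ζ := rfl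
  have h5 : ((hζ.toInteger ^ (Ideal.absNorm v.asIdeal ^ (j : ℕ)) : 𝓞 L) : L) =
      ζ ^ (Ideal.absNorm v.asIdeal ^ (j : ℕ)) :=
    (algebraMap (𝓞 L) L).map_pow _ _
  exact h4.symm.trans (h3.trans h5)


omit [NumberField K] [NumberField L] in
/-- If `L = K(ζ)` then `L/K` is a cyclotomic extension. -/
theorem symCheb_isCyclotomicExtension_of_adjoin (htop : IntermediateField.adjoin K {ζ} = ⊤) :
    IsCyclotomicExtension {p ^ (n + 1)} K L := by
  haveI : NeZero (p ^ (n + 1)) := ⟨pow_ne_zero _ (Fact.out : p.Prime).ne_zero⟩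
  rw [IsCyclotomicExtension.iff_singleton]
  refine ⟨⟨ζ, hζ⟩, fun x => ?_⟩
  have h1 : Algebra.adjoin K {ζ} = ⊤ := by
    rw [← IntermediateField.adjoin_simple_toSubalgebra_of_isAlgebraic
      (Algebra.IsAlgebraic.isAlgebraic ζ), htop, IntermediateField.top_toSubalgebra]
  have h2 : Algebra.adjoin K {ζ} ≤ Algebra.adjoin K {b : L | b ^ (p ^ (n + 1)) = 1} :=
    Algebra.adjoin_mono (Set.singleton_subset_iff.mpr hζ.pow_eq_one)
  exact h2 (h1 ▸ Algebra.mem_top)

omit [NumberField K] [NumberField L] [IsGalois K L] in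
/-- For odd `p` the Galois group of `K(ζ)/K` is cyclic. -/
theorem symCheb_isCyclic [IsCyclotomicExtension {p ^ (n + 1)} K L] (hp2 : p ≠ 2) :
    IsCyclic (L ≃ₐ[K] L) := by
  haveI : NeZero (p ^ (n + 1)) := ⟨pow_ne_zero _ (Fact.out : p.Prime).ne_zero⟩
  haveI := ZMod.isCyclic_units_of_prime_pow p (Fact.out) hp2 (n + 1)
  exact isCyclic_of_injective (hζ.autToPow K) (hζ.autToPow_injective K)

/-- `⊇`: for `p` odd and `L = K(ζ)` there is a prime `v` of `K` of prime norm `ℓ ∉ S`, `ℓ ≠ p`,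
such that every `σ ∈ Gal(L/K)` raises `ζ` to a power of `N v`. -/
theorem symCheb_gen [IsCyclotomicExtension {p ^ (n + 1)} K L] (hp2 : p ≠ 2) (S : Finset ℕ) :
    ∃ v : HeightOneSpectrum (𝓞 K), (Ideal.absNorm v.asIdeal).Prime ∧
      Ideal.absNorm v.asIdeal ∉ S ∧ Ideal.absNorm v.asIdeal ≠ p ∧
      ∀ σ : L ≃ₐ[K] L, ∃ j : ℕ, σ ζ = ζ ^ ((Ideal.absNorm v.asIdeal) ^ j) := by
  haveI := symCheb_isCyclic p n K L ζ hζ hp2
  exact symCheb_gen_of_isCyclic p n K L ζ hζ S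

end

section ZModForm

variable (p n : ℕ) [Fact p.Prime] [NeZero (p ^ (n + 1))] (K L : Type) [Field K] [NumberField K]
  [Field L] [NumberField L] [Algebra K L] [IsGalois K L] (ζ : L)
  (hζ : IsPrimitiveRoot ζ (p ^ (n + 1)))

omit [Fact p.Prime] [NumberField K] [NumberField L] [IsGalois K L] in
/-- `σ ζ = ζ ^ k` iff the cyclotomic character of `σ` is the class of `k`. -/
theorem symCheb_apply_eq_pow_iff (σ : L ≃ₐ[K] L) (k : ℕ) :
    σ ζ = ζ ^ k ↔
      ((hζ.autToPow K σ : (ZMod (p ^ (n + 1)))ˣ) : ZMod (p ^ (n + 1))) = (k : ZMod (p ^ (n + 1))) := by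
  have hfin : IsOfFinOrder ζ :=
    isOfFinOrder_iff_pow_eq_one.mpr ⟨p ^ (n + 1), Nat.pos_of_ne_zero (NeZero.ne _), hζ.pow_eq_one⟩
  rw [← hζ.autToPow_spec K σ, hfin.pow_eq_pow_iff_modEq, ← hζ.eq_orderOf,
    ← ZMod.natCast_eq_natCast_iff, ZMod.natCast_zmod_val]

/-- `⊆` for the norm symbol: `ψ_K(I)` is the `(p-1)`-th power of the cyclotomic character of some
`σ ∈ Gal(L/K)`. -/
theorem symCheb_normSymbol_mem (I : Ideal (𝓞 K)) (hI : (Ideal.absNorm I).Coprime (p ^ (n + 1))) :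
    ∃ σ : L ≃ₐ[K] L, normSymbol p n I = hζ.autToPow K σ ^ (p - 1) := by
  have hI' : (Ideal.absNorm I).Coprime p :=
    (Nat.coprime_pow_right_iff (Nat.succ_pos n) _ _).mp hI
  obtain ⟨σ, hσ⟩ := symCheb_frob p n K L ζ hζ I hI'
  refine ⟨σ, ?_⟩
  apply Units.ext
  rw [coe_normSymbol_of_coprime hI, Units.val_pow_eq_pow_val,
    (symCheb_apply_eq_pow_iff p n K L ζ hζ σ _).mp hσ]

/-- `⊇` for the norm symbol (`p` odd, `L = K(ζ)`): there is a prime `v ∤ p` of `K`, of prime norm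
outside `S`, such that the `(p-1)`-th power of the cyclotomic character of every `σ ∈ Gal(L/K)`
is a power of `ψ_K(v)`. -/
theorem symCheb_exists_generator [IsCyclotomicExtension {p ^ (n + 1)} K L] (hp2 : p ≠ 2)
    (S : Finset ℕ) :
    ∃ v : HeightOneSpectrum (𝓞 K), (Ideal.absNorm v.asIdeal).Prime ∧
      Ideal.absNorm v.asIdeal ∉ S ∧ (Ideal.absNorm v.asIdeal).Coprime (p ^ (n + 1)) ∧
      ∀ σ : L ≃ₐ[K] L, ∃ j : ℕ, hζ.autToPow K σ ^ (p - 1) = normSymbol p n v.asIdeal ^ j := by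
  obtain ⟨v, hvprime, hvS, hvp, hv⟩ := symCheb_gen p n K L ζ hζ hp2 S
  have hcop : (Ideal.absNorm v.asIdeal).Coprime (p ^ (n + 1)) :=
    Nat.Coprime.pow_right _ ((Nat.coprime_primes hvprime (Fact.out : p.Prime)).mpr hvp)
  refine ⟨v, hvprime, hvS, hcop, fun σ => ?_⟩
  obtain ⟨j, hj⟩ := hv σ
  refine ⟨j, ?_⟩
  apply Units.ext
  rw [Units.val_pow_eq_pow_val, Units.val_pow_eq_pow_val, coe_normSymbol_of_coprime hcop,
    (symCheb_apply_eq_pow_iff p n K L ζ hζ σ _).mp hj, Nat.cast_pow, ← pow_mul, ← pow_mul,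
    mul_comm]

/-- **(C)** The image of the norm symbol `ψ_K` on the ideals prime to `p` is the image of
`Gal(K(ζ)/K)` under the `(p-1)`-th power of the cyclotomic character. -/
theorem symbolCheb_pow [IsCyclotomicExtension {p ^ (n + 1)} K L] (hp2 : p ≠ 2) :
    {u : (ZMod (p ^ (n + 1)))ˣ | ∃ I : Ideal (𝓞 K), (Ideal.absNorm I).Coprime (p ^ (n + 1)) ∧
        normSymbol p n I = u} =
      Set.range fun σ : L ≃ₐ[K] L => hζ.autToPow K σ ^ (p - 1) := by
  ext u
  constructor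
  · rintro ⟨I, hI, rfl⟩
    obtain ⟨σ, hσ⟩ := symCheb_normSymbol_mem p n K L ζ hζ I hI
    exact ⟨σ, hσ.symm⟩
  · rintro ⟨σ, rfl⟩
    obtain ⟨v, -, -, hcop, hv⟩ := symCheb_exists_generator p n K L ζ hζ hp2 ∅
    obtain ⟨j, hj⟩ := hv σ
    refine ⟨v.asIdeal ^ j, ?_, ?_⟩
    · rw [map_pow]; exact Nat.Coprime.pow_left j hcop
    · rw [normSymbol_pow hcop]
      exact hj.symm

/-- **(C)**, unpowered form: the classes mod `p^(n+1)` of the norms of the ideals prime to `p` are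
exactly the values of the cyclotomic character on `Gal(K(ζ)/K)`. -/
theorem symbolCheb [IsCyclotomicExtension {p ^ (n + 1)} K L] (hp2 : p ≠ 2) :
    {u : ZMod (p ^ (n + 1)) | ∃ I : Ideal (𝓞 K), (Ideal.absNorm I).Coprime (p ^ (n + 1)) ∧
        ((Ideal.absNorm I : ℕ) : ZMod (p ^ (n + 1))) = u} =
      Set.range fun σ : L ≃ₐ[K] L =>
        ((hζ.autToPow K σ : (ZMod (p ^ (n + 1)))ˣ) : ZMod (p ^ (n + 1))) := by
  ext u
  constructor
  · rintro ⟨I, hI, rfl⟩
    have hI' : (Ideal.absNorm I).Coprime p :=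
      (Nat.coprime_pow_right_iff (Nat.succ_pos n) _ _).mp hI
    obtain ⟨σ, hσ⟩ := symCheb_frob p n K L ζ hζ I hI'
    exact ⟨σ, (symCheb_apply_eq_pow_iff p n K L ζ hζ σ _).mp hσ⟩
  · rintro ⟨σ, rfl⟩
    obtain ⟨v, hvprime, -, hvp, hv⟩ := symCheb_gen p n K L ζ hζ hp2 ∅
    obtain ⟨j, hj⟩ := hv σ
    have hcop : (Ideal.absNorm v.asIdeal).Coprime (p ^ (n + 1)) :=
      Nat.Coprime.pow_right _ ((Nat.coprime_primes hvprime (Fact.out : p.Prime)).mpr hvp)
    refine ⟨v.asIdeal ^ j, ?_, ?_⟩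
    · rw [map_pow]; exact Nat.Coprime.pow_left j hcop
    · rw [map_pow]
      exact ((symCheb_apply_eq_pow_iff p n K L ζ hζ σ _).mp hj).symm

end ZModForm

section Intrinsic

variable (p n : ℕ) [Fact p.Prime] (K : Type) [Field K] [NumberField K]

/-- **(C), intrinsic form**: for `p` odd the norms of the ideals of `𝓞 K` prime to `p` are, modulo
`p^(n+1)`, powers of the norm of a single prime `v` of prime norm `ℓ ∉ S`, `ℓ ≠ p`. -/
theorem symCheb_absNorm_exists_generator (hp2 : p ≠ 2) (S : Finset ℕ) :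
    ∃ v : HeightOneSpectrum (𝓞 K), (Ideal.absNorm v.asIdeal).Prime ∧
      Ideal.absNorm v.asIdeal ∉ S ∧ (Ideal.absNorm v.asIdeal).Coprime (p ^ (n + 1)) ∧
      ∀ I : Ideal (𝓞 K), (Ideal.absNorm I).Coprime (p ^ (n + 1)) →
        ∃ j : ℕ, ((Ideal.absNorm I : ℕ) : ZMod (p ^ (n + 1))) =
          ((Ideal.absNorm v.asIdeal : ℕ) : ZMod (p ^ (n + 1))) ^ j := by
  haveI : NeZero (p ^ (n + 1)) := ⟨pow_ne_zero _ (Fact.out : p.Prime).ne_zero⟩
  let L := CyclotomicField (p ^ (n + 1)) K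
  haveI : NumberField L := IsCyclotomicExtension.numberField {p ^ (n + 1)} K L
  haveI : IsGalois K L := IsCyclotomicExtension.isGalois {p ^ (n + 1)} K L
  have hζ : IsPrimitiveRoot (IsCyclotomicExtension.zeta (p ^ (n + 1)) K L) (p ^ (n + 1)) :=
    IsCyclotomicExtension.zeta_spec (p ^ (n + 1)) K L
  obtain ⟨v, hvprime, hvS, hvp, hv⟩ := symCheb_gen p n K L _ hζ hp2 S
  have hcop : (Ideal.absNorm v.asIdeal).Coprime (p ^ (n + 1)) :=
    Nat.Coprime.pow_right _ ((Nat.coprime_primes hvprime (Fact.out : p.Prime)).mpr hvp)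
  refine ⟨v, hvprime, hvS, hcop, fun I hI => ?_⟩
  have hI' : (Ideal.absNorm I).Coprime p :=
    (Nat.coprime_pow_right_iff (Nat.succ_pos n) _ _).mp hI
  obtain ⟨σ, hσ⟩ := symCheb_frob p n K L _ hζ I hI'
  obtain ⟨j, hj⟩ := hv σ
  refine ⟨j, ?_⟩
  rw [← (symCheb_apply_eq_pow_iff p n K L _ hζ σ _).mp hσ,
    (symCheb_apply_eq_pow_iff p n K L _ hζ σ _).mp hj, Nat.cast_pow]

/-- **(C), intrinsic form for the norm symbol**: for `p` odd the image of `ψ_K` is generated by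
the symbol of a single prime `v` of prime norm `ℓ ∉ S`, `ℓ ≠ p`. -/
theorem normSymbol_exists_generator (hp2 : p ≠ 2) (S : Finset ℕ) :
    ∃ v : HeightOneSpectrum (𝓞 K), (Ideal.absNorm v.asIdeal).Prime ∧
      Ideal.absNorm v.asIdeal ∉ S ∧ (Ideal.absNorm v.asIdeal).Coprime (p ^ (n + 1)) ∧
      ∀ I : Ideal (𝓞 K), (Ideal.absNorm I).Coprime (p ^ (n + 1)) →
        ∃ j : ℕ, normSymbol p n I = normSymbol p n v.asIdeal ^ j := by
  obtain ⟨v, hvprime, hvS, hcop, hv⟩ := symCheb_absNorm_exists_generator p n K hp2 S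
  refine ⟨v, hvprime, hvS, hcop, fun I hI => ?_⟩
  obtain ⟨j, hj⟩ := hv I hI
  refine ⟨j, ?_⟩
  apply Units.ext
  rw [Units.val_pow_eq_pow_val, coe_normSymbol_of_coprime hI, coe_normSymbol_of_coprime hcop, hj,
    ← pow_mul, ← pow_mul, mul_comm]

end Intrinsic

end Fermat.Agent.PT.G3


end ZBPT_083_0

/-! ### bundled: `Fermat.Agent.PT.G3.PsiGen` -/
section ZBPT_083_1
/-
PT-G3, piece psiGen (helper48): there is a rational prime `ℓ ∉ S` whose class `[ℓ] ∈ C_S(ℚ)` has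
symbol `Ψ_ℚ[ℓ]` of exact order `p^n`.
(`normSymbol_exists_generator` for `K = ℚ`; `(ℤ/p^(n+1))ˣ` is cyclic of order `(p-1)p^n` and every
unit is the class of the norm of a principal ideal `(m)` of `𝓞 ℚ`.)
-/

set_option autoImplicit false

namespace Fermat.Agent.PT.G3

open NumberField IsDedekindDomain Fermat.Agent.PT.G Fermat.Agent.PT.G1

/-- the absolute norm of the ideal `(m)` of `𝓞 ℚ` is `m` -/
theorem psiGen_absNorm_span (m : ℕ) :
    Ideal.absNorm (Ideal.span {((m : ℕ) : 𝓞 ℚ)}) = m := by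
  rw [Ideal.absNorm_span_singleton]
  have h1 : ((m : ℕ) : 𝓞 ℚ) = algebraMap ℤ (𝓞 ℚ) (m : ℤ) := by simp
  rw [h1, Algebra.norm_algebraMap, RingOfIntegers.rank, Module.finrank_self, pow_one]
  simp

/-- every unit mod `p^(n+1)` has its `(p-1)`-th power among the values of the norm symbol of `ℚ` -/
theorem psiGen_normSymbol_surj (p n : ℕ) [hp : Fact p.Prime] (g : (ZMod (p ^ (n + 1)))ˣ) :
    ∃ I : Ideal (𝓞 ℚ), (Ideal.absNorm I).Coprime (p ^ (n + 1)) ∧
      normSymbol p n I = g ^ (p - 1) := by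
  have _ : NeZero (p ^ (n + 1)) := ⟨pow_ne_zero _ hp.out.ne_zero⟩
  set m : ℕ := (g : ZMod (p ^ (n + 1))).val with hm
  have hmg : ((m : ℕ) : ZMod (p ^ (n + 1))) = (g : ZMod (p ^ (n + 1))) :=
    ZMod.natCast_zmod_val _
  have hcop : m.Coprime (p ^ (n + 1)) := by
    rw [← ZMod.isUnit_iff_coprime, hmg]
    exact g.isUnit
  refine ⟨Ideal.span {((m : ℕ) : 𝓞 ℚ)}, by rw [psiGen_absNorm_span]; exact hcop, ?_⟩
  have hcop' : (Ideal.absNorm (Ideal.span {((m : ℕ) : 𝓞 ℚ)})).Coprime (p ^ (n + 1)) := by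
    rw [psiGen_absNorm_span]; exact hcop
  apply Units.ext
  rw [coe_normSymbol_of_coprime hcop', psiGen_absNorm_span, hmg, Units.val_pow_eq_pow_val]

/-- a prime of `𝓞 ℚ` of prime norm outside `S` is off `S` -/
theorem psiGen_off (S : Finset Nat.Primes) (v : HeightOneSpectrum (𝓞 ℚ))
    (hprime : (Ideal.absNorm v.asIdeal).Prime)
    (hS : Ideal.absNorm v.asIdeal ∉ S.image (fun q : Nat.Primes => (q : ℕ))) :
    ((sProd S : ℕ) : 𝓞 ℚ) ∉ v.asIdeal := by
  intro hmem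
  have hℓ : ((Ideal.absNorm v.asIdeal : ℕ) : 𝓞 ℚ) ∈ v.asIdeal := Ideal.absNorm_mem v.asIdeal
  have hcop : (Ideal.absNorm v.asIdeal).Coprime (sProd S) := by
    rw [Nat.Prime.coprime_iff_not_dvd hprime]
    intro hdvd
    rw [sProd, Prime.dvd_finsetProd_iff (Nat.prime_iff.1 hprime)] at hdvd
    obtain ⟨q, hq, hqd⟩ := hdvd
    have : Ideal.absNorm v.asIdeal = (q : ℕ) := (Nat.prime_dvd_prime_iff_eq hprime q.2).1 hqd
    exact hS (Finset.mem_image.2 ⟨q, hq, this.symm⟩)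
  have h1 : ((1 : ℕ) : 𝓞 ℚ) ∈ v.asIdeal := by
    have hgcd : ((Nat.gcd (Ideal.absNorm v.asIdeal) (sProd S) : ℕ) : ℤ) =
        (Ideal.absNorm v.asIdeal : ℤ) * Nat.gcdA (Ideal.absNorm v.asIdeal) (sProd S) +
          (sProd S : ℤ) * Nat.gcdB (Ideal.absNorm v.asIdeal) (sProd S) :=
      Nat.gcd_eq_gcd_ab _ _
    rw [hcop] at hgcd
    have h2 := congrArg (fun z : ℤ => (z : 𝓞 ℚ)) hgcd
    simp only [Int.cast_add, Int.cast_mul, Int.cast_natCast] at h2
    rw [h2]
    exact v.asIdeal.add_mem (v.asIdeal.mul_mem_right _ hℓ) (v.asIdeal.mul_mem_right _ hmem)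
  have hone : (1 : 𝓞 ℚ) ∈ v.asIdeal := by simpa using h1
  exact v.isPrime.ne_top ((Ideal.eq_top_iff_one _).2 hone)

/-- **psi-gen**. -/
theorem stmtPsiGen : StmtPsiGen := by
  intro p n hp S hp2 hpS
  have _ : NeZero (p ^ (n + 1)) := ⟨pow_ne_zero _ hp.out.ne_zero⟩
  have hodd : Odd p := hp.out.odd_of_ne_two hp2
  obtain ⟨v, hvprime, hvS, hcop, hv⟩ :=
    normSymbol_exists_generator p n ℚ hp2 (S.image (fun q : Nat.Primes => (q : ℕ)))
  refine ⟨⟨v, psiGen_off S v hvprime hvS⟩, fun k hk => ?_⟩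
  have hsingle := psiC_csOfDiv_single p n S ℚ hodd hpS ⟨v, psiGen_off S v hvprime hvS⟩ 1
  rw [zpow_one] at hsingle
  rw [hsingle] at hk
  have hk' : normSymbol p n v.asIdeal ^ k = 1 := by
    have := congrArg Additive.toMul hk
    simpa using this
  -- a generator of the cyclic group `(ℤ/p^(n+1))ˣ`
  have _ := ZMod.isCyclic_units_of_prime_pow p hp.out hp2 (n + 1)
  obtain ⟨g, hg⟩ := IsCyclic.exists_generator (α := (ZMod (p ^ (n + 1)))ˣ)
  obtain ⟨I, hI, hIg⟩ := psiGen_normSymbol_surj p n g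
  obtain ⟨j, hj⟩ := hv I hI
  have h1 : g ^ ((p - 1) * k) = 1 := by
    rw [pow_mul, ← hIg, hj, ← pow_mul, mul_comm, pow_mul, hk', one_pow]
  have h2 : orderOf g = (p - 1) * p ^ n := by
    rw [orderOf_eq_card_of_forall_mem_zpowers hg, Nat.card_eq_fintype_card, ZMod.card_units_eq_totient,
      Nat.totient_prime_pow_succ hp.out, mul_comm]
  have h3 : (p - 1) * p ^ n ∣ (p - 1) * k := by
    rw [← h2]
    exact orderOf_dvd_of_pow_eq_one h1
  exact Nat.dvd_of_mul_dvd_mul_left (Nat.sub_pos_of_lt hp.out.one_lt) h3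

end Fermat.Agent.PT.G3


end ZBPT_083_1

/-! ### bundled: `Fermat.Agent.PT.G3.CLT` -/
section ZBPT_083_2
/-
PT-G3, piece `clt` (helper26): the cyclic layer theorem
`stmtCLT_of : StmtPsiNormGal → StmtNormIndexLe → StmtCLT`:
for `N / L` Galois, unramified outside `S`, with `Ψ_N = 0` and `[N : L] ≤ |ideal-symbol values|`,
the kernel of `Ψ_L` is contained in the norm subgroup of `N / L`.

Proof: `B := NormSub ⊆ ker Ψ_L` (psi-N), `|C/B| ≤ [N : L]` (normindex), the image of `Ψ_L` contains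
the ideal-symbol values (they are powers of the symbol of one prime off `S`), so
`|C/B| ≤ |im Ψ_L|` and the induced map `C/B → im Ψ_L` is injective.
-/

set_option autoImplicit false
set_option linter.unusedSectionVars false
set_option linter.style.haveILetI false

namespace Fermat.Agent.PT.G3

open NumberField IsDedekindDomain
open Fermat.Agent.PT Fermat.Agent.PT.G Fermat.Agent.PT.G1

/-- A prime whose norm is a rational prime outside `S` is a prime off `S`. -/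
theorem clt_off_of_absNorm (S : Finset Nat.Primes) {L : Type} [Field L] [NumberField L]
    (v : HeightOneSpectrum (𝓞 L)) (hprime : (Ideal.absNorm v.asIdeal).Prime)
    (hS : Ideal.absNorm v.asIdeal ∉ S.image (fun q : Nat.Primes => (q : ℕ))) :
    ((sProd S : ℕ) : 𝓞 L) ∉ v.asIdeal := by
  intro hmem
  have hmem' : (∏ q ∈ S, ((q : ℕ) : 𝓞 L)) ∈ v.asIdeal := by
    have : ((sProd S : ℕ) : 𝓞 L) = ∏ q ∈ S, ((q : ℕ) : 𝓞 L) := by
      unfold sProd
      push_cast
      rfl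
    rwa [this] at hmem
  obtain ⟨q, hqS, hq⟩ := (Ideal.IsPrime.prod_mem_iff (hp := v.isPrime)).mp hmem'
  have hne : (q : ℕ) ≠ Ideal.absNorm v.asIdeal := by
    intro h
    apply hS
    rw [Finset.mem_image]
    exact ⟨q, hqS, h⟩
  have hcop : Nat.Coprime (q : ℕ) (Ideal.absNorm v.asIdeal) :=
    (Nat.coprime_primes q.2 hprime).mpr hne
  have hmem2 : ((Ideal.absNorm v.asIdeal : ℕ) : 𝓞 L) ∈ v.asIdeal := Ideal.absNorm_mem v.asIdeal
  obtain ⟨a, b, hab⟩ := Nat.isCoprime_iff_coprime.mpr hcop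
  have h3 : ((a * ((q : ℕ) : ℤ) + b * (Ideal.absNorm v.asIdeal : ℤ) : ℤ) : 𝓞 L) ∈ v.asIdeal := by
    push_cast
    exact v.asIdeal.add_mem (v.asIdeal.mul_mem_left _ hq) (v.asIdeal.mul_mem_left _ hmem2)
  rw [hab] at h3
  exact v.isPrime.ne_top ((Ideal.eq_top_iff_one _).mpr (by simpa using h3))

/-- **G3-clt**. -/
theorem stmtCLT_of (hN : StmtPsiNormGal) (hI : StmtNormIndexLe) : StmtCLT := by
  intro p n hp S hodd hpS L N _ _ _ _ _ _ hun hΨN hcard c hc
  obtain ⟨B, hB, hfin, hle⟩ := hI S L N hun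
  -- `B ≤ ker Ψ_L`
  have hBker : B ≤ LinearMap.ker (psiC p n S L) := by
    intro b hb
    have hb' : b ∈ NormSub S L N := by rw [← hB]; exact hb
    obtain ⟨d, hd⟩ := hb'
    rw [LinearMap.mem_ker, hN p n S hodd hpS L N b d hd, hΨN d]
  set f := B.liftQ (psiC p n S L) hBker with hf
  have hp2 : p ≠ 2 := by
    rintro rfl
    exact absurd hodd (by decide)
  -- the image of `f` contains the ideal-symbol values
  obtain ⟨v, hvprime, hvS, -, hv⟩ :=
    normSymbol_exists_generator p n L hp2 (S.image (fun q : Nat.Primes => (q : ℕ)))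
  set v' : OffS S L := ⟨v, clt_off_of_absNorm S v hvprime hvS⟩ with hv'
  have hval : ∀ u : {u : (ZMod (p ^ (n + 1)))ˣ | ∃ I : Ideal (𝓞 L),
      (Ideal.absNorm I).Coprime (p ^ (n + 1)) ∧ normSymbol p n I = u},
      Additive.ofMul (u : (ZMod (p ^ (n + 1)))ˣ) ∈ Set.range f := by
    rintro ⟨u, I, hIcop, rfl⟩
    obtain ⟨j, hj⟩ := hv I hIcop
    refine ⟨B.mkQ (csOfDiv S L (Finsupp.single v' (j : ℤ))), ?_⟩
    rw [hf, Submodule.mkQ_apply, Submodule.liftQ_apply, psiC_csOfDiv_single p n S L hodd hpS,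
      zpow_natCast]
    show Additive.ofMul (normSymbol p n v.asIdeal ^ j) = Additive.ofMul (normSymbol p n I)
    rw [hj]
  haveI : Finite (CS S L ⧸ B) := hfin
  have hcard1 : Nat.card {u : (ZMod (p ^ (n + 1)))ˣ | ∃ I : Ideal (𝓞 L),
      (Ideal.absNorm I).Coprime (p ^ (n + 1)) ∧ normSymbol p n I = u} ≤
      Nat.card (Set.range f) := by
    haveI : Finite (Set.range f) := Set.finite_range f
    refine Nat.card_le_card_of_injective (fun u => ⟨Additive.ofMul (u : (ZMod (p ^ (n + 1)))ˣ),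
      hval u⟩) ?_
    intro u u' huu'
    have h1 := congrArg Subtype.val huu'
    exact Subtype.ext (Additive.ofMul.injective h1)
  have hsurj : Function.Surjective (Set.rangeFactorization f) := Set.rangeFactorization_surjective
  have hbij : Function.Bijective (Set.rangeFactorization f) :=
    hsurj.bijective_of_nat_card_le (hle.trans (hcard.trans hcard1))
  have hinj : Function.Injective f := by
    intro x y hxy
    apply hbij.1
    exact Subtype.ext hxy
  have h0 : B.mkQ c = 0 := by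
    apply hinj
    rw [map_zero, hf, Submodule.mkQ_apply, Submodule.liftQ_apply]
    exact hc
  have hcB : c ∈ B := (Submodule.Quotient.mk_eq_zero B).mp h0
  have : c ∈ (B : Set (CS S L)) := hcB
  rwa [hB] at this

end Fermat.Agent.PT.G3


end ZBPT_083_2

/-! ### bundled: `Fermat.Agent.PT.G3.CycCard` -/
section ZBPT_083_3
/-
PT-G3 piece cyc-card (helper60): `[N : L]` is the number of values of the norm symbol of `L`,
and a power of `p`.

`N' = L(ζ)`, `f = χ_L^(p-1) : Gal(N'/L) → (ℤ/p^(n+1))ˣ`.  By `symbolCheb_pow` the set of values of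
the norm symbol is `range f`.  The kernel of `f` is in bijection with `R`
(`σ ↦ σ.restrictScalars ℚ`), `[N' : N] = |R|`, `[N' : L] = |Gal(N'/L)| = |ker f| · |range f|`,
hence `[N : L] = |range f|`.  Every element of `range f` is killed by `p^n`
(`u^((p-1) p^n) = 1`), so `range f` is a `p`-group.
-/

set_option autoImplicit false
set_option linter.style.haveILetI false
set_option linter.unusedSectionVars false

namespace Fermat.Agent.PT.G3

open NumberField IsDedekindDomain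
open Fermat.Agent.PT Fermat.Agent.PT.G Fermat.Agent.PT.G1

section cycCard

variable (p n : ℕ) [hp : Fact p.Prime] (L : Type) [Field L] [NumberField L]

/-- `f = χ_L^(p-1)` on `Gal(N'/L)`. -/
noncomputable def cycCardF : (CycTop p n L ≃ₐ[L] CycTop p n L) →* (ZMod (p ^ (n + 1)))ˣ :=
  (powMonoidHom (p - 1)).comp ((cycZeta_spec p n L).autToPow L)

lemma cycCardF_apply (σ : CycTop p n L ≃ₐ[L] CycTop p n L) :
    cycCardF p n L σ = (cycZeta_spec p n L).autToPow L σ ^ (p - 1) := rfl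

/-- The two cyclotomic characters agree. -/
lemma cycCard_chi_restrictScalars (σ : CycTop p n L ≃ₐ[L] CycTop p n L) :
    cycChi p n L (σ.restrictScalars ℚ) = (cycZeta_spec p n L).autToPow L σ := by
  have h1 := (cycZeta_spec p n L).autToPow_spec ℚ (σ.restrictScalars ℚ)
  have h2 := (cycZeta_spec p n L).autToPow_spec L σ
  have h3 : (σ.restrictScalars ℚ) (cycZeta p n L) = σ (cycZeta p n L) := rfl
  rw [h3, ← h2] at h1
  have h4 := (cycZeta_spec p n L).pow_inj (ZMod.val_lt _) (ZMod.val_lt _) h1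
  exact Units.ext (ZMod.val_injective _ h4)

/-- An element of `R`, as an `L`-automorphism of `N'`. -/
noncomputable def cycCardLin (τ : cycR p n L) : CycTop p n L ≃ₐ[L] CycTop p n L :=
  AlgEquiv.ofRingEquiv (f := ((τ : CycTop p n L ≃ₐ[ℚ] CycTop p n L) : CycTop p n L ≃+* CycTop p n L))
    (fun x => τ.2.2 x)

lemma cycCardLin_restrictScalars (τ : cycR p n L) :
    (cycCardLin p n L τ).restrictScalars ℚ = (τ : CycTop p n L ≃ₐ[ℚ] CycTop p n L) := by
  ext x
  rfl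

lemma cycCardLin_mem_ker (τ : cycR p n L) : cycCardLin p n L τ ∈ (cycCardF p n L).ker := by
  rw [MonoidHom.mem_ker, cycCardF_apply, ← cycCard_chi_restrictScalars,
    cycCardLin_restrictScalars]
  exact τ.2.1

lemma cycCard_restrictScalars_mem (σ : (cycCardF p n L).ker) :
    (σ : CycTop p n L ≃ₐ[L] CycTop p n L).restrictScalars ℚ ∈ cycR p n L := by
  refine ⟨?_, fun x => (σ : CycTop p n L ≃ₐ[L] CycTop p n L).commutes x⟩
  rw [cycCard_chi_restrictScalars]
  exact σ.2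

/-- `ker f ≃ R`. -/
noncomputable def cycCardKerEquiv : (cycCardF p n L).ker ≃ cycR p n L where
  toFun σ := ⟨_, cycCard_restrictScalars_mem p n L σ⟩
  invFun τ := ⟨_, cycCardLin_mem_ker p n L τ⟩
  left_inv σ := by
    apply Subtype.ext
    ext x
    rfl
  right_inv τ := by
    apply Subtype.ext
    ext x
    rfl

/-- `[N : L] = |range f|`. -/
theorem cycCard_finrank_eq :
    Module.finrank L (CycN p n L) = Nat.card (cycCardF p n L).range := by
  haveI : IsGalois L (CycTop p n L) :=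
    IsCyclotomicExtension.isGalois {p ^ (n + 1)} L (CycTop p n L)
  have h1 : Module.finrank (CycN p n L) (CycTop p n L) = Nat.card (cycR p n L) :=
    IntermediateField.finrank_fixedField_eq_card (cycR p n L)
  have h2 : Module.finrank L (CycN p n L) * Module.finrank (CycN p n L) (CycTop p n L) =
      Module.finrank L (CycTop p n L) := Module.finrank_mul_finrank L (CycN p n L) (CycTop p n L)
  have h3 : Nat.card (CycTop p n L ≃ₐ[L] CycTop p n L) = Module.finrank L (CycTop p n L) :=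
    IsGalois.card_aut_eq_finrank L (CycTop p n L)
  have h4 : Nat.card (CycTop p n L ≃ₐ[L] CycTop p n L) =
      Nat.card ((CycTop p n L ≃ₐ[L] CycTop p n L) ⧸ (cycCardF p n L).ker) *
        Nat.card (cycCardF p n L).ker :=
    Subgroup.card_eq_card_quotient_mul_card_subgroup _
  have h5 : Nat.card ((CycTop p n L ≃ₐ[L] CycTop p n L) ⧸ (cycCardF p n L).ker) =
      Nat.card (cycCardF p n L).range :=
    Nat.card_congr (QuotientGroup.quotientKerEquivRange (cycCardF p n L)).toEquiv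
  have h6 : Nat.card (cycCardF p n L).ker = Nat.card (cycR p n L) :=
    Nat.card_congr (cycCardKerEquiv p n L)
  have h7 : 0 < Nat.card (cycR p n L) := by
    rw [← h6]
    exact Nat.card_pos
  rw [h1, ← h3, h4, h5, h6] at h2
  exact Nat.eq_of_mul_eq_mul_right h7 h2

/-- `range f` is a `p`-group. -/
theorem cycCard_isPGroup : IsPGroup p (cycCardF p n L).range := by
  rintro ⟨u, σ, rfl⟩
  refine ⟨n, Subtype.ext ?_⟩
  have h1 : (p - 1) * p ^ n = Nat.totient (p ^ (n + 1)) := by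
    rw [Nat.totient_prime_pow_succ hp.out, mul_comm]
  show (cycCardF p n L σ) ^ p ^ n = 1
  rw [cycCardF_apply, ← pow_mul, h1]
  exact ZMod.pow_totient _

end cycCard

/-- **cyc-card**. -/
theorem stmtCycCard : StmtCycCard := by
  intro p n _ hp2 L _ _ _
  haveI : IsGalois L (CycTop p n L) :=
    IsCyclotomicExtension.isGalois {p ^ (n + 1)} L (CycTop p n L)
  have hset := symbolCheb_pow p n L (CycTop p n L) (cycZeta p n L) (cycZeta_spec p n L) hp2
  have hcard : Module.finrank L (CycN p n L) =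
      Nat.card {u : (ZMod (p ^ (n + 1)))ˣ | ∃ I : Ideal (𝓞 L),
        (Ideal.absNorm I).Coprime (p ^ (n + 1)) ∧ normSymbol p n I = u} := by
    rw [cycCard_finrank_eq, hset]
    rfl
  refine ⟨hcard, ?_⟩
  obtain ⟨k, hk⟩ := (cycCard_isPGroup p n L).exists_card_eq
  exact ⟨k, by rw [cycCard_finrank_eq, hk]⟩

end Fermat.Agent.PT.G3


end ZBPT_083_3
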