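/- GENERATED FILE (helper35, build-time optimisation, NOTES/ZB.md): verbatim concatenation of the modules
   Fermat.Agent.PT.G.Descent
   Fermat.Agent.PT.G.UnramOff
   Fermat.Agent.PT.G.SplitNorm
   Fermat.Agent.PT.G.NormDivGal
   Fermat.Agent.PT.G3.CycUnram
   Do not edit; do not import together with these modules. -/
import Fermat.Agent.ZB.PT_008
import Fermat.Agent.ZB.PT_082
import Fermat.Agent.ZB.PT_078
import Fermat.Agent.ZB.PT_083

/-! ### bundled: `Fermat.Agent.PT.G.Descent` -/
section ZBPT_049_0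
/-
Project PT — shared model, piece **C-descent** (helper63): if `L / K` is Galois and unramified
outside `S ≠ ∅`, the `Gal(L/K)`-invariants of `C_S(L)` are the image of `C_S(K)`
(Hilbert 90 + invariants of `J_L` and of `Div_S(L)`).
-/

set_option autoImplicit false

namespace Fermat.Agent.PT.G

open NumberField IsDedekindDomain Fermat.Agent.PT.G1 groupCohomology

section

variable (S : Finset Nat.Primes) {K L : Type} [Field K] [NumberField K] [Field L] [NumberField L]
  [Algebra K L]

/-- An element of `Gal(L/K)` as an automorphism of `L` over `ℚ`. -/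
def galToAut (τ : L ≃ₐ[K] L) : L ≃ₐ[ℚ] L := τ.restrictScalars ℚ

@[simp] lemma galToAut_apply (τ : L ≃ₐ[K] L) (x : L) : galToAut τ x = τ x := rfl

lemma galToAut_fixes (τ : L ≃ₐ[K] L) (x : K) :
    galToAut τ (algebraMap K L x) = algebraMap K L x := τ.commutes x

lemma galToAut_mul (τ τ' : L ≃ₐ[K] L) : galToAut (τ * τ') = galToAut τ * galToAut τ' := rfl

/-- An automorphism of `L` fixing `K` as an element of `Gal(L/K)`. -/
def autToGal (σ : L ≃ₐ[ℚ] L) (h : ∀ x : K, σ (algebraMap K L x) = algebraMap K L x) :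
    L ≃ₐ[K] L :=
  { (σ : L ≃+* L) with commutes' := h }

lemma galToAut_autToGal (σ : L ≃ₐ[ℚ] L)
    (h : ∀ x : K, σ (algebraMap K L x) = algebraMap K L x) : galToAut (autToGal σ h) = σ := by
  ext x; rfl

variable (L) in
/-- `Lˣ → J_L × Div_S(L)` is injective when `S ≠ ∅`. -/
lemma iotaHom_injective (hS : S.Nonempty) : Function.Injective (iotaHom S L) := by
  obtain ⟨q⟩ := hS.coe_sort
  intro u v huv
  have h1 : (jlDiag S L) (Additive.toMul u) = (jlDiag S L) (Additive.toMul v) :=
    congrArg (fun y : Additive (JL S L) × DivS S L => Additive.toMul y.1) huv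
  have h2 := congrFun h1 q
  have h3 : ((Algebra.TensorProduct.includeRight :
      L →ₐ[ℚ] semiAlg ((q : Nat.Primes) : ℕ) L) ((Additive.toMul u : Lˣ) : L)) =
      ((Algebra.TensorProduct.includeRight :
      L →ₐ[ℚ] semiAlg ((q : Nat.Primes) : ℕ) L) ((Additive.toMul v : Lˣ) : L)) :=
    congrArg Units.val h2
  have h4 := (Algebra.TensorProduct.includeRight :
      L →ₐ[ℚ] semiAlg ((q : Nat.Primes) : ℕ) L).toRingHom.injective h3
  exact Additive.toMul.injective (Units.ext h4)

lemma jdEnd_sub (σ : L ≃ₐ[ℚ] L) (y z : Additive (JL S L) × DivS S L) :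
    jdEnd S σ (y - z) = jdEnd S σ y - jdEnd S σ z := map_sub _ _ _

end

/-- **C-descent** from D-semi and D-div. -/
theorem stmtCSDescent_of (hJ : StmtSemiInv) (hD : StmtDivInv) : StmtCSDescent := by
  intro S K L _ _ _ _ _ _ hS hun c hc
  obtain ⟨y, rfl⟩ := Submodule.mkQ_surjective _ c
  -- the cocycle
  have hmem : ∀ τ : L ≃ₐ[K] L, jdEnd S (galToAut τ) y - y ∈ LinearMap.range (iotaHom S L) := by
    intro τ
    have h := hc (galToAut τ) (galToAut_fixes τ)
    have h' : csMk S L (jdEnd S (galToAut τ) y) = csMk S L y := h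
    exact (Submodule.Quotient.eq _).1 h'
  choose f hf using hmem
  have hinj := iotaHom_injective S L hS
  have hcoc : ∀ τ τ' : L ≃ₐ[K] L,
      f (τ * τ') = unitsEnd ((galToAut τ : L ≃ₐ[ℚ] L) : L →* L) (f τ') + f τ := by
    intro τ τ'
    apply hinj
    rw [map_add, iotaHom_equivariant, hf, hf, hf, galToAut_mul, jdEnd_mul, jdEnd_sub]
    abel
  have hF : IsMulCocycle₁ (fun τ : L ≃ₐ[K] L => (Additive.toMul (f τ) : Lˣ)) := by
    intro τ τ'
    have := hcoc τ τ'
    exact congrArg Additive.toMul this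
  obtain ⟨β, hβ⟩ := isMulCoboundary₁_of_isMulCocycle₁_of_aut_to_units _ hF
  have hβ' : ∀ τ : L ≃ₐ[K] L,
      f τ = unitsEnd ((galToAut τ : L ≃ₐ[ℚ] L) : L →* L) (Additive.ofMul β) - Additive.ofMul β := by
    intro τ
    have := hβ τ
    exact congrArg Additive.ofMul this.symm
  -- the invariant representative
  set y' : Additive (JL S L) × DivS S L := y - iotaHom S L (Additive.ofMul β) with hy'
  have hinv : ∀ σ : L ≃ₐ[ℚ] L, (∀ x : K, σ (algebraMap K L x) = algebraMap K L x) →
      jdEnd S σ y' = y' := by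
    intro σ hσ
    have h1 := hf (autToGal σ hσ)
    rw [galToAut_autToGal] at h1
    have h2 := hβ' (autToGal σ hσ)
    rw [galToAut_autToGal] at h2
    rw [hy', jdEnd_sub, ← iotaHom_equivariant]
    have h3 : iotaHom S L (unitsEnd ((σ : L ≃ₐ[ℚ] L) : L →* L) (Additive.ofMul β)) =
        iotaHom S L (f (autToGal σ hσ)) + iotaHom S L (Additive.ofMul β) := by
      rw [h2, map_sub]; abel
    rw [h3, h1]
    abel
  have hyc : csMk S L y' = csMk S L y := by
    rw [hy', map_sub]
    have : csMk S L (iotaHom S L (Additive.ofMul β)) = 0 :=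
      (Submodule.Quotient.mk_eq_zero _).2 ⟨_, rfl⟩
    rw [this, sub_zero]
  -- descend the two components
  have hJinv : ∀ q : ↥S, ∃ b : (semiAlg ((q : Nat.Primes) : ℕ) K)ˣ,
      semiIncl K L ((q : Nat.Primes) : ℕ) (b : semiAlg ((q : Nat.Primes) : ℕ) K) =
        ((Additive.toMul y'.1 : JL S L) q : semiAlg ((q : Nat.Primes) : ℕ) L) := by
    intro q
    apply hJ ((q : Nat.Primes) : ℕ) K L ((Additive.toMul y'.1 : JL S L) q)
    intro σ hσ
    have h := congrArg (fun z : Additive (JL S L) × DivS S L => (Additive.toMul z.1 : JL S L) q)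
      (hinv σ hσ)
    exact congrArg Units.val h
  choose b hb using hJinv
  obtain ⟨d₀, hd₀⟩ := hD S K L hun y'.2 (fun σ hσ =>
    congrArg (fun z : Additive (JL S L) × DivS S L => z.2) (hinv σ hσ))
  refine ⟨csMk S K (Additive.ofMul (b : JL S K), d₀), ?_⟩
  rw [csMap_mk, ← hyc]
  congr 1
  apply Prod.ext
  · apply Additive.toMul.injective
    funext q
    apply Units.ext
    exact hb q
  · exact hd₀

end Fermat.Agent.PT.G


end ZBPT_049_0

/-! ### bundled: `Fermat.Agent.PT.G.UnramOff` -/
section ZBPT_049_1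
/-
Project PT — shared model, piece **D-unram** (helper26): for `L / K` Galois of prime degree `p`
and `σ ∈ Aut(L)` fixing `K`, `UnramOff S σ` (`σ` in no inertia group off `S`) implies that
`L / K` is unramified outside `S` (`stmtUnramOff`).

Route: `|I_P| = e(P | 𝔭)` (Mathlib `Ideal.card_inertia_eq_ramificationIdxIn`), `I_P` is a subgroup
of a group of prime order which does not contain `σ`, hence trivial.
-/

set_option autoImplicit false
set_option linter.unusedSectionVars false
set_option linter.style.haveILetI false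

namespace Fermat.Agent.PT.G

open NumberField IsDedekindDomain Fermat.Agent.PT.G1

section

variable {K L : Type} [Field K] [NumberField K] [Field L] [NumberField L] [Algebra K L]
  [IsGalois K L]

/-- The order of the inertia group of `P` in `Gal(L/K)` is the ramification index `ramIdx K P`. -/
theorem uo_card_inertia (P : HeightOneSpectrum (𝓞 L)) :
    Nat.card (P.asIdeal.inertia (L ≃ₐ[K] L)) = ramIdx K P := by
  haveI : P.asIdeal.IsPrime := P.isPrime
  haveI : (primeUnder K P).asIdeal.IsPrime := (primeUnder K P).isPrime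
  haveI : P.asIdeal.LiesOver (primeUnder K P).asIdeal := primeUnder_liesOver K P
  have h1 : Nat.card (P.asIdeal.inertia (L ≃ₐ[K] L)) =
      (primeUnder K P).asIdeal.ramificationIdxIn (𝓞 L) :=
    Ideal.card_inertia_eq_ramificationIdxIn (G := L ≃ₐ[K] L) (primeUnder K P).asIdeal P.asIdeal
  have h2 : (primeUnder K P).asIdeal.ramificationIdxIn (𝓞 L) = P.asIdeal.ramificationIdx (𝓞 K) :=
    Ideal.ramificationIdxIn_eq_ramificationIdx (primeUnder K P).asIdeal P.asIdeal (L ≃ₐ[K] L)
  have h3 : (primeUnder K P).asIdeal.ramificationIdx' P.asIdeal =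
      P.asIdeal.ramificationIdx (𝓞 K) :=
    Ideal.ramificationIdx'_eq_ramificationIdx (primeUnder K P).asIdeal P.asIdeal
      (primeUnder K P).ne_bot
  rw [h1, h2, ← h3]
  rfl

end

/-- **D-unram**. -/
theorem stmtUnramOff : StmtUnramOff := by
  intro p _ S K L _ _ _ _ _ _ σ hfix hdeg _ hun P
  have hp : p.Prime := Fact.out
  rw [← uo_card_inertia (K := K) P.1]
  have hG : Nat.card (L ≃ₐ[K] L) = p := by rw [IsGalois.card_aut_eq_finrank, hdeg]
  obtain ⟨x, hx⟩ := hun P
  have hτ : autToGal σ hfix ∉ P.1.asIdeal.inertia (L ≃ₐ[K] L) := fun h => hx (h x)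
  have hdvd := Subgroup.card_subgroup_dvd_card (P.1.asIdeal.inertia (L ≃ₐ[K] L))
  rw [hG] at hdvd
  rcases (Nat.dvd_prime hp).mp hdvd with h | h
  · exact h
  · exfalso
    apply hτ
    have htop : P.1.asIdeal.inertia (L ≃ₐ[K] L) = ⊤ := by
      haveI : Finite (L ≃ₐ[K] L) := inferInstance
      apply Subgroup.eq_top_of_card_eq
      rw [h, hG]
    rw [htop]
    exact Subgroup.mem_top _

end Fermat.Agent.PT.G


end ZBPT_049_1

/-! ### bundled: `Fermat.Agent.PT.G.SplitNorm` -/
section ZBPT_049_2
/-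
Project PT — shared model, piece **D-split** (helper26): for `L / K` cyclic of prime degree `p`
with generator `σ`, unramified outside `S`, and a prime `v` of `K` off `S` with a prime `w` of
degree one above it: `[v] = Σ_{i<p} σ^i [w]` in `Div_S(L)` (`stmtSplitNorm`).

Route: `Gal(L/K)` acts transitively on the primes over `v` (Mathlib), the stabiliser of `w` has
order `e f = 1` (Mathlib `Ideal.card_stabilizer_eq`), so `i ↦ σ^i w` is a bijection from
`{0, …, p-1}` onto the primes over `v`.
-/

set_option autoImplicit false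
set_option linter.unusedSectionVars false
set_option linter.style.haveILetI false

namespace Fermat.Agent.PT.G

open NumberField IsDedekindDomain Fermat.Agent.PT.G1

open scoped Pointwise

section

variable (S : Finset Nat.Primes) {K L : Type} [Field K] [NumberField K] [Field L] [NumberField L]
  [Algebra K L]

/-- The action of `Aut(L)` on the generators of `Div_S(L)`. -/
theorem sn_divEnd_single (τ : L ≃ₐ[ℚ] L) (w : OffS S L) :
    divEnd S τ (Finsupp.single w 1) = Finsupp.single (offEquiv S τ w) 1 := by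
  unfold divEnd
  rw [LinearEquiv.coe_coe, Finsupp.domLCongr_single]

/-- `primeMap` of an element of `Gal(L/K)` is the pointwise action on ideals. -/
theorem sn_primeMap_eq_smul (τ : L ≃ₐ[K] L) (P : HeightOneSpectrum (𝓞 L)) :
    (primeMap (galToAut τ) P).asIdeal = τ • P.asIdeal := by
  rw [primeMap_asIdeal_eq_map, Ideal.pointwise_smul_def]
  rfl

/-- An element of `Gal(L/K)` restricts to the identity of `K`. -/
theorem sn_restricts (τ : L ≃ₐ[ℚ] L) (h : ∀ x : K, τ (algebraMap K L x) = algebraMap K L x) :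
    Restricts τ (1 : K ≃ₐ[ℚ] K) := fun x => h x

variable [IsGalois K L]

/-- The order of the decomposition group of `P` in `Gal(L/K)` is `1` if `e = f = 1`. -/
theorem sn_card_stabilizer (P : HeightOneSpectrum (𝓞 L)) (he : ramIdx K P = 1)
    (hf : Ideal.absNorm P.asIdeal = Ideal.absNorm (primeUnder K P).asIdeal) :
    Nat.card (MulAction.stabilizer (L ≃ₐ[K] L) P.asIdeal) = 1 := by
  haveI : P.asIdeal.IsPrime := P.isPrime
  haveI : (primeUnder K P).asIdeal.IsPrime := (primeUnder K P).isPrime
  haveI : P.asIdeal.LiesOver (primeUnder K P).asIdeal := primeUnder_liesOver K P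
  have h1 := Ideal.card_stabilizer_eq (G := L ≃ₐ[K] L) (primeUnder K P).asIdeal P.asIdeal
  have h2 : (primeUnder K P).asIdeal.ramificationIdxIn (𝓞 L) = 1 := by
    have := Ideal.card_inertia_eq_ramificationIdxIn (G := L ≃ₐ[K] L)
      (primeUnder K P).asIdeal P.asIdeal
    rw [← this, uo_card_inertia, he]
  have h3 : (primeUnder K P).asIdeal.inertiaDegIn (𝓞 L) = 1 := by
    rw [Ideal.inertiaDegIn_eq_inertiaDeg (primeUnder K P).asIdeal P.asIdeal (L ≃ₐ[K] L)]
    have h4 := Ideal.absNorm_pow_inertiaDeg (primeUnder K P).asIdeal P.asIdeal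
    rw [hf] at h4
    have h5 : 1 < Ideal.absNorm (primeUnder K P).asIdeal := by
      have h6 : Ideal.absNorm (primeUnder K P).asIdeal ≠ 1 := by
        rw [Ne, Ideal.absNorm_eq_one_iff]
        exact (primeUnder K P).isPrime.ne_top
      have h7 : Ideal.absNorm (primeUnder K P).asIdeal ≠ 0 := by
        rw [Ne, Ideal.absNorm_eq_zero_iff]
        exact (primeUnder K P).ne_bot
      omega
    have h8 : Ideal.absNorm (primeUnder K P).asIdeal ^ (P.asIdeal.inertiaDeg (𝓞 K)) =
        Ideal.absNorm (primeUnder K P).asIdeal ^ 1 := by rw [h4, pow_one]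
    exact Nat.pow_right_injective h5 h8
  rw [h1, h2, h3]

end

/-- **D-split**. -/
theorem stmtSplitNorm : StmtSplitNorm := by
  intro p _ S K L _ _ _ _ _ _ σ hfix hdeg hord hun v w hwv hnorm
  classical
  have hp : p.Prime := Fact.out
  set σ' : L ≃ₐ[K] L := autToGal σ hfix with hσ'
  have hσσ' : galToAut σ' = σ := galToAut_autToGal σ hfix
  have hG : Nat.card (L ≃ₐ[K] L) = p := by rw [IsGalois.card_aut_eq_finrank, hdeg]
  have hpow : ∀ i : ℕ, galToAut (σ' ^ i) = σ ^ i := by
    intro i
    induction i with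
    | zero => rfl
    | succ i ih => rw [pow_succ, pow_succ, galToAut_mul, ih, hσσ']
  have hinj : Function.Injective (galToAut : (L ≃ₐ[K] L) → (L ≃ₐ[ℚ] L)) := by
    intro a b hab
    ext x
    have := congrArg (fun f : L ≃ₐ[ℚ] L => f x) hab
    exact this
  have hord' : orderOf σ' = p := by
    have h1 : orderOf σ' ∣ p := hG ▸ orderOf_dvd_natCard σ'
    rcases (Nat.dvd_prime hp).mp h1 with h | h
    · exfalso
      rw [orderOf_eq_one_iff] at h
      have : σ = 1 := by rw [← hσσ', h]; rfl
      rw [this, orderOf_one] at hord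
      exact hp.one_lt.ne hord
    · exact h
  have hfixi : ∀ i : ℕ, ∀ x : K, (σ ^ i) (algebraMap K L x) = algebraMap K L x := by
    intro i x
    rw [← hpow]
    exact galToAut_fixes _ x
  -- the stabiliser of `w` is trivial
  have hstab : Nat.card (MulAction.stabilizer (L ≃ₐ[K] L) w.1.asIdeal) = 1 := by
    apply sn_card_stabilizer (K := K) w.1 (hun w)
    rw [hnorm, ← hwv]
    rfl
  have hstab' : ∀ τ : L ≃ₐ[K] L, τ • w.1.asIdeal = w.1.asIdeal → τ = 1 := by
    intro τ hτ
    have h1 : MulAction.stabilizer (L ≃ₐ[K] L) w.1.asIdeal = ⊥ := Subgroup.card_eq_one.mp hstab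
    have h2 : τ ∈ MulAction.stabilizer (L ≃ₐ[K] L) w.1.asIdeal := MulAction.mem_stabilizer_iff.mpr hτ
    rw [h1, Subgroup.mem_bot] at h2
    exact h2
  -- both sides, evaluated at `P`
  ext P
  rw [divMap_apply, hun P, Nat.cast_one, one_mul, Finsupp.coe_finsetSum, Finset.sum_apply]
  simp only [sn_divEnd_single, Finsupp.single_apply]
  by_cases hPv : offUnder S K P = v
  · rw [if_pos hPv.symm]
    -- transitivity
    haveI : P.1.asIdeal.IsPrime := P.1.isPrime
    haveI : w.1.asIdeal.IsPrime := w.1.isPrime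
    haveI : v.1.asIdeal.IsPrime := v.1.isPrime
    haveI : P.1.asIdeal.LiesOver v.1.asIdeal := by
      rw [← hPv]; exact primeUnder_liesOver K P.1
    haveI : w.1.asIdeal.LiesOver v.1.asIdeal := by
      rw [← hwv]; exact primeUnder_liesOver K w.1
    obtain ⟨τ, hτ⟩ := Ideal.exists_smul_eq_of_isGaloisGroup v.1.asIdeal w.1.asIdeal P.1.asIdeal
      (L ≃ₐ[K] L)
    have hτmem : τ ∈ Subgroup.zpowers σ' := by
      have htop : Subgroup.zpowers σ' = ⊤ := by
        apply zpowers_eq_top_of_prime_card hG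
        intro h1
        rw [h1, orderOf_one] at hord'
        exact hp.one_lt.ne hord'
      rw [htop]
      exact Subgroup.mem_top _
    rw [mem_zpowers_iff_mem_range_orderOf, hord', Finset.mem_image] at hτmem
    obtain ⟨i₀, hi₀, hτi⟩ := hτmem
    have hkey : ∀ i : ℕ, offEquiv S (σ ^ i) w = P ↔ σ' ^ i • w.1.asIdeal = P.1.asIdeal := by
      intro i
      rw [← sn_primeMap_eq_smul, hpow]
      constructor
      · intro h
        rw [← h]
        rfl
      · intro h
        exact Subtype.ext (HeightOneSpectrum.ext h)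
    rw [Finset.sum_eq_single i₀]
    · rw [if_pos]
      rw [hkey, hτi]
      exact hτ
    · intro i hi hne
      rw [if_neg]
      intro h
      apply hne
      have h1 : σ' ^ i • w.1.asIdeal = σ' ^ i₀ • w.1.asIdeal := by
        rw [(hkey i).mp h, hτi, hτ]
      -- `σ'^i = σ'^i₀`
      have h2 : (σ' ^ i₀)⁻¹ * σ' ^ i = 1 := by
        apply hstab'
        rw [mul_smul, h1, inv_smul_smul]
      have h3 : σ' ^ i = σ' ^ i₀ := by
        rw [inv_mul_eq_one] at h2
        exact h2.symm
      rw [Finset.mem_range] at hi hi₀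
      exact pow_injOn_Iio_orderOf (by rw [hord']; exact hi) (by rw [hord']; exact hi₀) h3
    · intro h
      exact absurd hi₀ h
  · rw [if_neg (fun h => hPv h.symm)]
    symm
    apply Finset.sum_eq_zero
    intro i _
    rw [if_neg]
    intro h
    apply hPv
    rw [← h, offUnder_offEquiv S (sn_restricts (σ ^ i) (hfixi i)), offEquiv_one, hwv]
    rfl

end Fermat.Agent.PT.G


end ZBPT_049_2

/-! ### bundled: `Fermat.Agent.PT.G.NormDivGal` -/
section ZBPT_049_3
/-
Project PT — shared model, piece **Norm-divgal** (helper6): for `L / K` Galois,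
`incl ∘ N = Σ_σ σ` on `Div_S(L)`:

  `divMap S K L (divNorm S K L d) = ∑ σ : Gal(L/K), divEnd S σ d`   (`divMap_divNorm`).

Route: `Gal(L/K)` acts transitively on the primes over `𝔭` (Mathlib), and the stabiliser of `P`
has order `e f` (Mathlib `Ideal.card_stabilizer_eq`); so the number of `σ` with `σ P = P'`
is `e f` if `P, P'` lie over the same prime of `K` and `0` otherwise.
-/

set_option autoImplicit false
set_option linter.unusedSectionVars false
set_option linter.style.haveILetI false

namespace Fermat.Agent.PT.G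

open NumberField IsDedekindDomain Fermat.Agent.PT.G1

open scoped Pointwise

section

variable (S : Finset Nat.Primes) (K L : Type) [Field K] [NumberField K] [Field L] [NumberField L]
  [Algebra K L]

variable {L}

/-- In the Galois case `ramIdx K P` is `e(𝔭)`, the common ramification index over `𝔭 = P ∩ K`. -/
theorem ndg_ramIdx_eq_in [IsGalois K L] (P : HeightOneSpectrum (𝓞 L)) :
    ramIdx K P = (primeUnder K P).asIdeal.ramificationIdxIn (𝓞 L) := by
  haveI : P.asIdeal.IsPrime := P.isPrime
  haveI : (primeUnder K P).asIdeal.IsPrime := (primeUnder K P).isPrime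
  haveI : P.asIdeal.LiesOver (primeUnder K P).asIdeal := primeUnder_liesOver K P
  have h2 : (primeUnder K P).asIdeal.ramificationIdxIn (𝓞 L) = P.asIdeal.ramificationIdx (𝓞 K) :=
    Ideal.ramificationIdxIn_eq_ramificationIdx (primeUnder K P).asIdeal P.asIdeal (L ≃ₐ[K] L)
  have h3 : (primeUnder K P).asIdeal.ramificationIdx' P.asIdeal =
      P.asIdeal.ramificationIdx (𝓞 K) :=
    Ideal.ramificationIdx'_eq_ramificationIdx (primeUnder K P).asIdeal P.asIdeal
      (primeUnder K P).ne_bot
  rw [h2, ← h3]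
  rfl

/-- In the Galois case `inertDeg K P` is `f(𝔭)`, the common inertia degree over `𝔭 = P ∩ K`. -/
theorem ndg_inertDeg_eq_in [IsGalois K L] (P : HeightOneSpectrum (𝓞 L)) :
    inertDeg K P = (primeUnder K P).asIdeal.inertiaDegIn (𝓞 L) := by
  haveI : P.asIdeal.IsPrime := P.isPrime
  haveI : (primeUnder K P).asIdeal.IsPrime := (primeUnder K P).isPrime
  haveI : P.asIdeal.LiesOver (primeUnder K P).asIdeal := primeUnder_liesOver K P
  rw [Ideal.inertiaDegIn_eq_inertiaDeg (primeUnder K P).asIdeal P.asIdeal (L ≃ₐ[K] L)]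
  rfl

/-- The order of the decomposition group of `P` in `Gal(L/K)` is `e f`. -/
theorem ndg_card_stabilizer [IsGalois K L] (P : HeightOneSpectrum (𝓞 L)) :
    Nat.card (MulAction.stabilizer (L ≃ₐ[K] L) P.asIdeal) = ramIdx K P * inertDeg K P := by
  haveI : P.asIdeal.IsPrime := P.isPrime
  haveI : (primeUnder K P).asIdeal.IsPrime := (primeUnder K P).isPrime
  haveI : P.asIdeal.LiesOver (primeUnder K P).asIdeal := primeUnder_liesOver K P
  rw [Ideal.card_stabilizer_eq (G := L ≃ₐ[K] L) (primeUnder K P).asIdeal P.asIdeal,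
    ndg_ramIdx_eq_in, ndg_inertDeg_eq_in]

/-- The number of `σ ∈ Gal(L/K)` with `σ P = P'` is `e f` if `P` and `P'` lie over the same prime
of `K`. -/
theorem ndg_card_transporter [IsGalois K L] (P P' : HeightOneSpectrum (𝓞 L))
    (h : primeUnder K P = primeUnder K P') :
    Nat.card {σ : L ≃ₐ[K] L // σ • P.asIdeal = P'.asIdeal} = ramIdx K P' * inertDeg K P := by
  haveI : P.asIdeal.IsPrime := P.isPrime
  haveI : P'.asIdeal.IsPrime := P'.isPrime
  haveI : (primeUnder K P).asIdeal.IsPrime := (primeUnder K P).isPrime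
  haveI : P.asIdeal.LiesOver (primeUnder K P).asIdeal := primeUnder_liesOver K P
  haveI : P'.asIdeal.LiesOver (primeUnder K P).asIdeal := by
    rw [h]; exact primeUnder_liesOver K P'
  obtain ⟨τ, hτ⟩ := Ideal.exists_smul_eq_of_isGaloisGroup (primeUnder K P).asIdeal P.asIdeal
    P'.asIdeal (L ≃ₐ[K] L)
  have he : ramIdx K P' = ramIdx K P := by
    rw [ndg_ramIdx_eq_in, ndg_ramIdx_eq_in, h]
  rw [he, ← ndg_card_stabilizer]
  refine Nat.card_congr ?_
  refine
    { toFun := fun σ => ⟨τ⁻¹ * σ.1, ?_⟩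
      invFun := fun σ => ⟨τ * σ.1, ?_⟩
      left_inv := ?_
      right_inv := ?_ }
  · rw [MulAction.mem_stabilizer_iff, mul_smul, σ.2, ← hτ, inv_smul_smul]
  · have := MulAction.mem_stabilizer_iff.mp σ.2
    rw [mul_smul, this, hτ]
  · intro σ
    apply Subtype.ext
    simp
  · intro σ
    apply Subtype.ext
    simp

variable (L)

/-- **Norm-divgal**: `incl ∘ N = Σ_{σ ∈ Gal(L/K)} σ` on `Div_S(L)`. -/
theorem divMap_divNorm [IsGalois K L] (d : DivS S L) :
    divMap S K L (divNorm S K L d) = ∑ σ : L ≃ₐ[K] L, divEnd S (σ.restrictScalars ℚ) d := by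
  classical
  induction d using Finsupp.induction_linear with
  | zero => simp
  | add f g hf hg =>
    rw [map_add, map_add, hf, hg, ← Finset.sum_add_distrib]
    refine Finset.sum_congr rfl fun σ _ => ?_
    rw [map_add]
  | single P n =>
    ext P'
    rw [divNorm_single, divMap_apply, Finsupp.coe_finsetSum, Finset.sum_apply]
    have hsingle : ∀ σ : L ≃ₐ[K] L, divEnd S (σ.restrictScalars ℚ) (Finsupp.single P n) =
        Finsupp.single (offEquiv S (galToAut σ) P) n := by
      intro σ
      unfold divEnd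
      rw [LinearEquiv.coe_coe, Finsupp.domLCongr_single]
      rfl
    simp only [hsingle, Finsupp.single_apply]
    have hkey : ∀ σ : L ≃ₐ[K] L, offEquiv S (galToAut σ) P = P' ↔
        σ • P.1.asIdeal = P'.1.asIdeal := by
      intro σ
      rw [← sn_primeMap_eq_smul]
      constructor
      · intro h
        rw [← h]
        rfl
      · intro h
        exact Subtype.ext (HeightOneSpectrum.ext h)
    by_cases hPP : offUnder S K P = offUnder S K P'
    · rw [if_pos hPP]
      have hu : primeUnder K P.1 = primeUnder K P'.1 := congrArg Subtype.val hPP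
      have hcard := ndg_card_transporter K P.1 P'.1 hu
      rw [Finset.sum_ite, Finset.sum_const_zero, add_zero, Finset.sum_const, nsmul_eq_mul]
      have hc : (Finset.univ.filter fun σ : L ≃ₐ[K] L => offEquiv S (galToAut σ) P = P').card =
          ramIdx K P'.1 * inertDeg K P.1 := by
        rw [← hcard, Nat.card_eq_fintype_card, Fintype.card_subtype]
        congr 1
        ext σ
        simp only [Finset.mem_filter, Finset.mem_univ, true_and]
        exact hkey σ
      rw [hc]
      push_cast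
      ring
    · rw [if_neg hPP, mul_zero]
      symm
      apply Finset.sum_eq_zero
      intro σ _
      rw [if_neg]
      intro h
      apply hPP
      rw [← h, offUnder_offEquiv S (sn_restricts (galToAut σ) (galToAut_fixes σ)), offEquiv_one]
      rfl

end

end Fermat.Agent.PT.G


end ZBPT_049_3

/-! ### bundled: `Fermat.Agent.PT.G3.CycUnram` -/
section ZBPT_049_4
/-
PT-G3, piece **cyc-unram** (helper26): the cyclotomic top field `N' = L(ζ)`, `ζ` a primitive
`p^(n+1)`-th root of unity, is unramified over `ℚ` outside `S ∋ p` if `L / ℚ` is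
(`stmtCycUnramTop_of : StmtCycGalois → StmtCycUnramTop`).

Route: `e(P' | ℚ) = |I_{P'}|` (`G.uo_card_inertia`, `N' / ℚ` Galois).  An element `σ` of the inertia
group `I_{P'}`, `P' ∤ S`, fixes `ζ` (roots of unity of order `p^(n+1)` are distinct modulo `P'`,
`symCheb_root_eq_of_sub_mem`), and its restriction to `L` lies in the inertia group of `P' ∩ L`,
which is trivial since `L / ℚ` is unramified at `P' ∩ L`.  As `N' = L(ζ)`, `σ = 1`.
-/

set_option autoImplicit false
set_option linter.unusedSectionVars false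
set_option linter.style.haveILetI false

namespace Fermat.Agent.PT.G3

open NumberField IsDedekindDomain
open Fermat.Agent.PT Fermat.Agent.PT.G Fermat.Agent.PT.G1

section

variable {K L : Type} [Field K] [NumberField K] [Field L] [NumberField L] [Algebra K L]

/-- A prime off `S` does not contain a power of a prime of `S`. -/
theorem cu_pow_notMem (S : Finset Nat.Primes) {q : Nat.Primes} (hq : q ∈ S) (k : ℕ)
    (P : OffS S L) : (((q : ℕ) ^ k : ℕ) : 𝓞 L) ∉ P.1.asIdeal := by
  obtain ⟨P, hP⟩ := P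
  show (((q : ℕ) ^ k : ℕ) : 𝓞 L) ∉ P.asIdeal
  intro hmem
  haveI := P.isPrime
  rw [Nat.cast_pow] at hmem
  have hqP : (((q : ℕ) : ℕ) : 𝓞 L) ∈ P.asIdeal := P.isPrime.mem_of_pow_mem _ hmem
  apply hP
  obtain ⟨c, hc⟩ : (q : ℕ) ∣ sProd S := Finset.dvd_prod_of_mem (fun q : Nat.Primes => (q : ℕ)) hq
  rw [hc, Nat.cast_mul]
  exact P.asIdeal.mul_mem_right _ hqP

/-- If `L / K` is Galois and `e(P | P ∩ K) = 1`, the inertia group of `P` is trivial. -/
theorem cu_inertia_eq_bot [IsGalois K L] (P : HeightOneSpectrum (𝓞 L)) (h : ramIdx K P = 1)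
    (τ : L ≃ₐ[K] L) (hτ : τ ∈ P.asIdeal.inertia (L ≃ₐ[K] L)) : τ = 1 := by
  have hcard : Nat.card (P.asIdeal.inertia (L ≃ₐ[K] L)) = 1 := by
    rw [uo_card_inertia (K := K) P, h]
  haveI : Subsingleton (P.asIdeal.inertia (L ≃ₐ[K] L)) :=
    (Nat.card_eq_one_iff_unique.mp hcard).1
  have := Subsingleton.elim (⟨τ, hτ⟩ : P.asIdeal.inertia (L ≃ₐ[K] L)) 1
  exact congrArg Subtype.val this

/-- If the inertia group of `P` is trivial (`L / K` Galois), then `e(P | P ∩ K) = 1`. -/
theorem cu_ramIdx_eq_one [IsGalois K L] (P : HeightOneSpectrum (𝓞 L))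
    (h : ∀ τ : L ≃ₐ[K] L, τ ∈ P.asIdeal.inertia (L ≃ₐ[K] L) → τ = 1) : ramIdx K P = 1 := by
  rw [← uo_card_inertia (K := K) P]
  haveI : Subsingleton (P.asIdeal.inertia (L ≃ₐ[K] L)) :=
    ⟨fun a b => Subtype.ext ((h a.1 a.2).trans (h b.1 b.2).symm)⟩
  exact Nat.card_unique

end

/-- **cyc-unram**, given cyc-gal. -/
theorem stmtCycUnramTop_of (hgal : StmtCycGalois) : StmtCycUnramTop := by
  intro p n hp S hpS L _ _ _ hL P'
  haveI : IsGalois ℚ (CycTop p n L) := hgal p n L
  refine cu_ramIdx_eq_one (K := ℚ) P'.1 fun σ hσ => ?_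
  have hσ' : ∀ x : 𝓞 (CycTop p n L), σ • x - x ∈ P'.1.asIdeal := hσ
  -- `σ` fixes `ζ`
  have hζ := cycZeta_spec p n L
  have hmQ : ((p ^ (n + 1) : ℕ) : 𝓞 (CycTop p n L)) ∉ P'.1.asIdeal :=
    cu_pow_notMem S hpS (n + 1) P'
  have hζ1 : (hζ.toInteger : 𝓞 (CycTop p n L)) ^ (p ^ (n + 1)) = 1 :=
    hζ.toInteger_isPrimitiveRoot.pow_eq_one
  have hζ2 : (σ • (hζ.toInteger : 𝓞 (CycTop p n L))) ^ (p ^ (n + 1)) = 1 := by
    rw [← smul_pow', hζ1, smul_one]
  have hζ3 := symCheb_root_eq_of_sub_mem hmQ hζ2 hζ1 (hσ' hζ.toInteger)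
  have hζfix : σ (cycZeta p n L) = cycZeta p n L :=
    congrArg (fun x : 𝓞 (CycTop p n L) => (x : CycTop p n L)) hζ3
  -- `σ` fixes `L`
  have hLfix : ∀ x : L, σ (algebraMap L (CycTop p n L) x) = algebraMap L (CycTop p n L) x := by
    have hτ : σ.restrictNormal L = 1 := by
      refine cu_inertia_eq_bot (K := ℚ) (primeUnder L P'.1) (hL (offUnder S L P')) _ ?_
      intro y
      show (σ.restrictNormal L) • y - y ∈ (primeUnder L P'.1).asIdeal
      rw [mem_primeUnder]
      have h1 := hσ' (algebraMap (𝓞 L) (𝓞 (CycTop p n L)) y)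
      have h2 : algebraMap (𝓞 L) (𝓞 (CycTop p n L)) ((σ.restrictNormal L) • y - y) =
          σ • (algebraMap (𝓞 L) (𝓞 (CycTop p n L)) y) -
            algebraMap (𝓞 L) (𝓞 (CycTop p n L)) y := by
        rw [map_sub]
        congr 1
        apply RingOfIntegers.ext
        exact AlgEquiv.restrictNormal_commutes σ L (y : L)
      rw [h2]
      exact h1
    intro x
    rw [← AlgEquiv.restrictNormal_commutes σ L x, hτ]
    rfl
  -- `N' = L(ζ)`
  have htop : Algebra.adjoin L {cycZeta p n L} = ⊤ :=
    IsCyclotomicExtension.adjoin_primitive_root_eq_top (n := p ^ (n + 1)) hζ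
  let φ₁ : CycTop p n L →ₐ[L] CycTop p n L :=
    { (σ : CycTop p n L →+* CycTop p n L) with commutes' := hLfix }
  have hφ : φ₁ = AlgHom.id L (CycTop p n L) := by
    refine AlgHom.ext_of_adjoin_eq_top htop ?_
    intro x hx
    rw [Set.mem_singleton_iff] at hx
    subst hx
    exact hζfix
  ext x
  exact congrArg (fun f : CycTop p n L →ₐ[L] CycTop p n L => f x) hφ

end Fermat.Agent.PT.G3


end ZBPT_049_4
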