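/- GENERATED FILE (helper35, build-time optimisation, NOTES/ZB.md): verbatim concatenation of the modules
   Fermat.Agent.PT.X.Kummer
   Fermat.Agent.PT.L.KummerMax
   Fermat.Agent.PT.L.FinalOf
   Fermat.Agent.PT.L.Final
   Fermat.Agent.PT.X.Plan
   Fermat.Agent.PT.X.PlanTower
   Fermat.Agent.PT.X.KummerTower
   Fermat.Agent.PT.X.KumTowerExt
   Fermat.Agent.PT.X.KummerRam
   Fermat.Agent.PT.B.CmLoc
   Fermat.Agent.PT.X.JCount
   Fermat.Agent.PT.G3.GBSDFund
   Do not edit; do not import together with these modules. -/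
import Mathlib
import Fermat.Agent.ZB.PT_004
import Fermat.Agent.ZB.PT_006
import Fermat.Agent.ZB.PT_016
import Fermat.Agent.ZB.PT_017
import Fermat.Agent.ZB.PT_019
import Fermat.Agent.ZB.PT_020
import Fermat.Agent.ZB.PT_021
import Fermat.Agent.ZB.PT_022
import Fermat.Agent.ZB.PT_015
import Fermat.Agent.ZB.PT_008
import Fermat.Agent.ZB.PT_049
import Fermat.Agent.ZB.PT_057
import Fermat.Agent.ZB.PT_024
import Fermat.Agent.ZB.PT_002
import Fermat.Agent.ZB.PT_009
import Fermat.Agent.ZB.PT_003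
import Fermat.Agent.ZB.S05_001
import Fermat.Agent.ZB.PT_012
import Fermat.Agent.ZB.PT_069
import Fermat.Agent.ZB.PT_065
import Fermat.Agent.ZB.PT_067
import Fermat.Agent.ZB.PT_066

/-! ### bundled: `Fermat.Agent.PT.X.Kummer` -/
section ZBPT_023_0

/-!
# PT-X, piece X2 (X-K): Kummer theory for a finite subgroup of `Kˣ / Kˣᵖ`

`K` a field containing a primitive `p`-th root of unity (`p` prime), `W ≤ Kˣ`,
`E = K(W^{1/p})` (`IsKummerExt p W E`).  If `W Kˣᵖ / Kˣᵖ` is finite then `E / K` is a finite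
Galois extension, abelian of exponent `p`, of degree `|W Kˣᵖ / Kˣᵖ| = [W : W ∩ Kˣᵖ]`.
-/

set_option autoImplicit false

noncomputable section

namespace Fermat.Agent.PT.X

open IntermediateField Polynomial

variable {K : Type*} [Field K]

/-- the `p`-th roots in `E` of the elements of `W ≤ Kˣ` -/
def kumRoots (p : ℕ) (W : Subgroup Kˣ) (E : Type*) [Field E] [Algebra K E] : Set E :=
  {β | ∃ a ∈ W, β ^ p = algebraMap K E (a : K)}

/-- `E = K(W^{1/p})`: `E` is generated over `K` by `p`-th roots of the elements of `W`, and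
every element of `W` has a `p`-th root in `E`. -/
structure IsKummerExt (p : ℕ) (W : Subgroup Kˣ) (E : Type*) [Field E] [Algebra K E] : Prop where
  gen : IntermediateField.adjoin K (kumRoots p W E) = ⊤
  root : ∀ a ∈ W, ∃ β : E, β ^ p = algebraMap K E (a : K)

variable {E : Type*} [Field E] [Algebra K E]

section basic

variable {p : ℕ} {ζ : K}

theorem kum_root_ne_zero (hp : p ≠ 0) {a : Kˣ} {β : E} (hβ : β ^ p = algebraMap K E (a : K)) :
    β ≠ 0 := by
  rintro rfl
  rw [zero_pow hp] at hβ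
  exact (a.ne_zero) ((algebraMap K E).injective (by rw [← hβ, map_zero]))

/-- `p`-th roots of unity of `E` lie in `K` -/
theorem kum_exists_pow_eq (hp : p ≠ 0) (hζ : IsPrimitiveRoot ζ p) {x : E} (hx : x ^ p = 1) :
    ∃ k : ℕ, x = algebraMap K E (ζ ^ k) := by
  haveI : NeZero p := ⟨hp⟩
  have hζ' : IsPrimitiveRoot (algebraMap K E ζ) p :=
    hζ.map_of_injective (algebraMap K E).injective
  obtain ⟨k, _, hk⟩ := hζ'.eq_pow_of_pow_eq_one hx
  exact ⟨k, by rw [map_pow, hk]⟩

/-- two `p`-th roots of the same element differ by an element of `K` -/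
theorem kum_root_eq_mul (hp : p ≠ 0) (hζ : IsPrimitiveRoot ζ p) {a : Kˣ} {β β₀ : E}
    (hβ : β ^ p = algebraMap K E (a : K)) (hβ₀ : β₀ ^ p = algebraMap K E (a : K)) :
    ∃ k : ℕ, β = algebraMap K E (ζ ^ k) * β₀ := by
  have h0 := kum_root_ne_zero hp hβ₀
  have hx : (β / β₀) ^ p = 1 := by
    rw [div_pow, hβ, hβ₀, div_self]
    rw [← hβ₀]
    exact pow_ne_zero _ h0
  obtain ⟨k, hk⟩ := kum_exists_pow_eq hp hζ hx
  exact ⟨k, by rw [← hk, div_mul_cancel₀ _ h0]⟩

theorem kum_exists_char (hp : p ≠ 0) (hζ : IsPrimitiveRoot ζ p) (σ : E ≃ₐ[K] E) (a : Kˣ) :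
    ∃ c : Kˣ, ∀ β : E, β ^ p = algebraMap K E (a : K) → σ β = algebraMap K E (c : K) * β := by
  by_cases h : ∃ β₀ : E, β₀ ^ p = algebraMap K E (a : K)
  · obtain ⟨β₀, hβ₀⟩ := h
    have hσ : (σ β₀) ^ p = algebraMap K E (a : K) := by
      rw [← map_pow, hβ₀, AlgEquiv.commutes]
    obtain ⟨k, hk⟩ := kum_root_eq_mul hp hζ hσ hβ₀
    have hu : IsUnit ζ := hζ.isUnit hp
    refine ⟨hu.unit ^ k, fun β hβ => ?_⟩
    obtain ⟨j, hj⟩ := kum_root_eq_mul hp hζ hβ hβ₀
    have hc : ((hu.unit ^ k : Kˣ) : K) = ζ ^ k := by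
      rw [Units.val_pow_eq_pow_val, IsUnit.unit_spec]
    rw [hc, hj, map_mul, AlgEquiv.commutes, hk]
    ring
  · exact ⟨1, fun β hβ => absurd ⟨β, hβ⟩ h⟩

end basic

/-- the Kummer character `⟨σ, a⟩`, defined by `σ β = ⟨σ, a⟩ β` for `βᵖ = a` -/
def kumChar (p : ℕ) (σ : E ≃ₐ[K] E) (a : Kˣ) : Kˣ :=
  Classical.epsilon fun c : Kˣ =>
    ∀ β : E, β ^ p = algebraMap K E (a : K) → σ β = algebraMap K E (c : K) * β

section char

variable {p : ℕ} {ζ : K}

theorem kumChar_spec (hp : p ≠ 0) (hζ : IsPrimitiveRoot ζ p) (σ : E ≃ₐ[K] E) (a : Kˣ) {β : E}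
    (hβ : β ^ p = algebraMap K E (a : K)) :
    σ β = algebraMap K E (kumChar p σ a : K) * β :=
  Classical.epsilon_spec (kum_exists_char hp hζ σ a) β hβ

theorem kumChar_eq (hp : p ≠ 0) (hζ : IsPrimitiveRoot ζ p) (σ : E ≃ₐ[K] E) (a : Kˣ) {β : E}
    (hβ : β ^ p = algebraMap K E (a : K)) {c : Kˣ} (hc : σ β = algebraMap K E (c : K) * β) :
    kumChar p σ a = c := by
  have h := kumChar_spec hp hζ σ a hβ
  rw [hc] at h
  have h0 := kum_root_ne_zero hp hβ
  have := mul_right_cancel₀ h0 h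
  exact Units.ext ((algebraMap K E).injective this.symm)

theorem kumChar_mul_left (hp : p ≠ 0) (hζ : IsPrimitiveRoot ζ p) (σ τ : E ≃ₐ[K] E) (a : Kˣ)
    (ha : ∃ β : E, β ^ p = algebraMap K E (a : K)) :
    kumChar p (σ * τ) a = kumChar p σ a * kumChar p τ a := by
  obtain ⟨β, hβ⟩ := ha
  apply kumChar_eq hp hζ _ a hβ
  rw [AlgEquiv.mul_apply, kumChar_spec hp hζ τ a hβ, map_mul, AlgEquiv.commutes,
    kumChar_spec hp hζ σ a hβ, Units.val_mul, map_mul]
  ring

theorem kumChar_one_left (hp : p ≠ 0) (hζ : IsPrimitiveRoot ζ p) (a : Kˣ)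
    (ha : ∃ β : E, β ^ p = algebraMap K E (a : K)) :
    kumChar p (1 : E ≃ₐ[K] E) a = 1 := by
  obtain ⟨β, hβ⟩ := ha
  apply kumChar_eq hp hζ _ a hβ
  simp

theorem kumChar_mul_right (hp : p ≠ 0) (hζ : IsPrimitiveRoot ζ p) (σ : E ≃ₐ[K] E) (a b : Kˣ)
    (ha : ∃ β : E, β ^ p = algebraMap K E (a : K))
    (hb : ∃ β : E, β ^ p = algebraMap K E (b : K)) :
    kumChar p σ (a * b) = kumChar p σ a * kumChar p σ b := by
  obtain ⟨β, hβ⟩ := ha
  obtain ⟨γ, hγ⟩ := hb
  have hβγ : (β * γ) ^ p = algebraMap K E ((a * b : Kˣ) : K) := by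
    rw [mul_pow, hβ, hγ, Units.val_mul, map_mul]
  apply kumChar_eq hp hζ _ _ hβγ
  rw [map_mul, kumChar_spec hp hζ σ a hβ, kumChar_spec hp hζ σ b hγ, Units.val_mul, map_mul]
  ring

theorem kumChar_pow_self (hp : p ≠ 0) (hζ : IsPrimitiveRoot ζ p) (σ : E ≃ₐ[K] E) (c : Kˣ) :
    kumChar p σ (c ^ p) = 1 := by
  have hβ : (algebraMap K E (c : K)) ^ p = algebraMap K E ((c ^ p : Kˣ) : K) := by
    rw [Units.val_pow_eq_pow_val, map_pow]
  apply kumChar_eq hp hζ _ _ hβ
  rw [AlgEquiv.commutes, Units.val_one, map_one, one_mul]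

theorem kumChar_one_right (hp : p ≠ 0) (hζ : IsPrimitiveRoot ζ p) (σ : E ≃ₐ[K] E) :
    kumChar p σ (1 : Kˣ) = 1 := by
  have := kumChar_pow_self hp hζ σ (1 : Kˣ)
  rwa [one_pow] at this

end char

section galois

variable {p : ℕ} {ζ : K} {W : Subgroup Kˣ}

theorem kum_natCast_ne_zero (hp : p ≠ 0) (hζ : IsPrimitiveRoot ζ p) : (p : K) ≠ 0 := by
  haveI : NeZero p := ⟨hp⟩
  exact (hζ.neZero').ne

theorem kum_isIntegral (hp : p ≠ 0) {β : E} (hβ : β ∈ kumRoots p W E) : IsIntegral K β := by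
  obtain ⟨a, _, ha⟩ := hβ
  refine ⟨X ^ p - C (a : K), monic_X_pow_sub_C _ hp, ?_⟩
  simp [ha]

theorem kum_minpoly_dvd {a : Kˣ} {β : E} (hβ : β ^ p = algebraMap K E (a : K)) :
    minpoly K β ∣ X ^ p - C (a : K) := by
  apply minpoly.dvd
  simp [hβ]

theorem kum_minpoly_splits (hp : p ≠ 0) (hζ : IsPrimitiveRoot ζ p) {β : E}
    (hβ : β ∈ kumRoots p W E) : ((minpoly K β).map (algebraMap K E)).Splits := by
  obtain ⟨a, _, ha⟩ := hβ
  have h1 : ((X ^ p - C (a : K) : K[X]).map (algebraMap K E)).Splits := by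
    have h2 : (X ^ p - C (a : K) : K[X]).map (algebraMap K E) =
        X ^ p - C (algebraMap K E (a : K)) := by
      simp
    rw [h2]
    exact X_pow_sub_C_splits_of_isPrimitiveRoot
      (hζ.map_of_injective (algebraMap K E).injective) ha
  exact Splits.of_dvd h1 (by
    intro h0
    have := congrArg Polynomial.natDegree h0
    have h2 : (X ^ p - C (a : K) : K[X]).map (algebraMap K E) =
        X ^ p - C (algebraMap K E (a : K)) := by
      simp
    rw [h2, natDegree_X_pow_sub_C, natDegree_zero] at this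
    exact hp this) (Polynomial.map_dvd _ (kum_minpoly_dvd ha))

theorem kum_isSeparable (hp : p ≠ 0) (hζ : IsPrimitiveRoot ζ p) {β : E}
    (hβ : β ∈ kumRoots p W E) : IsSeparable K β := by
  obtain ⟨a, _, ha⟩ := hβ
  exact (separable_X_pow_sub_C (a : K) (kum_natCast_ne_zero hp hζ) a.ne_zero).of_dvd
    (kum_minpoly_dvd ha)

theorem IsKummerExt.isAlgebraic (h : IsKummerExt p W E) (hp : p ≠ 0) :
    Algebra.IsAlgebraic K E := by
  have h1 : Algebra.IsAlgebraic K (adjoin K (kumRoots p W E)) :=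
    isAlgebraic_adjoin fun x hx => kum_isIntegral hp hx
  rw [h.gen] at h1
  exact (IntermediateField.topEquiv (F := K) (E := E)).isAlgebraic

theorem IsKummerExt.normal (h : IsKummerExt p W E) (hp : p ≠ 0) (hζ : IsPrimitiveRoot ζ p) :
    Normal K E := by
  haveI := h.isAlgebraic hp
  refine normal_iff.mpr fun x => ⟨Algebra.IsIntegral.isIntegral x, ?_⟩
  have hx : x ∈ adjoin K (kumRoots p W E) := by rw [h.gen]; trivial
  exact splits_of_mem_adjoin K E (fun y hy => ⟨kum_isIntegral hp hy, kum_minpoly_splits hp hζ hy⟩) hx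

theorem IsKummerExt.isSeparable (h : IsKummerExt p W E) (hp : p ≠ 0)
    (hζ : IsPrimitiveRoot ζ p) : Algebra.IsSeparable K E := by
  have h1 : Algebra.IsSeparable K (adjoin K (kumRoots p W E)) :=
    (isSeparable_adjoin_iff_isSeparable K E).mpr fun x hx => kum_isSeparable hp hζ hx
  rw [h.gen] at h1
  exact Algebra.IsSeparable.of_algHom K (⊤ : IntermediateField K E)
    (IntermediateField.topEquiv (F := K) (E := E)).symm.toAlgHom

theorem IsKummerExt.isGalois (h : IsKummerExt p W E) (hp : p ≠ 0)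
    (hζ : IsPrimitiveRoot ζ p) : IsGalois K E :=
  haveI := h.normal hp hζ
  haveI := h.isSeparable hp hζ
  ⟨⟩

end galois


section pairing

variable {p : ℕ} {ζ : K} {W : Subgroup Kˣ}

theorem kumChar_pow_eq_one (hp : p ≠ 0) (hζ : IsPrimitiveRoot ζ p) (σ : E ≃ₐ[K] E) (a : Kˣ)
    (ha : ∃ β : E, β ^ p = algebraMap K E (a : K)) : kumChar p σ a ^ p = 1 := by
  obtain ⟨β, hβ⟩ := ha
  have h1 : (σ β) ^ p = β ^ p := by rw [← map_pow, hβ, AlgEquiv.commutes]
  rw [kumChar_spec hp hζ σ a hβ, mul_pow] at h1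
  have h0 : β ^ p ≠ 0 := pow_ne_zero _ (kum_root_ne_zero hp hβ)
  have h2 : (algebraMap K E (kumChar p σ a : K)) ^ p = 1 := by
    have := mul_right_cancel₀ h0 (h1.trans (one_mul _).symm)
    exact this
  apply Units.ext
  apply (algebraMap K E).injective
  rw [Units.val_pow_eq_pow_val, map_pow, h2, Units.val_one, map_one]

theorem kumChar_pow_left (hp : p ≠ 0) (hζ : IsPrimitiveRoot ζ p) (σ : E ≃ₐ[K] E) (a : Kˣ)
    (ha : ∃ β : E, β ^ p = algebraMap K E (a : K)) (n : ℕ) :
    kumChar p (σ ^ n) a = kumChar p σ a ^ n := by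
  induction n with
  | zero => rw [pow_zero, pow_zero, kumChar_one_left hp hζ a ha]
  | succ n ih => rw [pow_succ, pow_succ, kumChar_mul_left hp hζ _ _ a ha, ih]

/-- the Kummer characters separate the points of the Galois group -/
theorem IsKummerExt.eq_of_kumChar_eq (h : IsKummerExt p W E) (hp : p ≠ 0)
    (hζ : IsPrimitiveRoot ζ p) {σ τ : E ≃ₐ[K] E}
    (hστ : ∀ a ∈ W, kumChar p σ a = kumChar p τ a) : σ = τ := by
  apply AlgEquiv.ext
  intro x
  have hx : x ∈ adjoin K (kumRoots p W E) := by rw [h.gen]; trivial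
  induction hx using adjoin_induction with
  | mem x hx =>
    obtain ⟨a, haW, ha⟩ := hx
    rw [kumChar_spec hp hζ σ a ha, kumChar_spec hp hζ τ a ha, hστ a haW]
  | algebraMap x => rw [AlgEquiv.commutes, AlgEquiv.commutes]
  | add x y _ _ hx hy => rw [map_add, map_add, hx, hy]
  | inv x _ hx => rw [map_inv₀, map_inv₀, hx]
  | mul x y _ _ hx hy => rw [map_mul, map_mul, hx, hy]

/-- the Galois group of a Kummer extension is abelian -/
theorem IsKummerExt.gal_mul_comm (h : IsKummerExt p W E) (hp : p ≠ 0)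
    (hζ : IsPrimitiveRoot ζ p) (σ τ : E ≃ₐ[K] E) : σ * τ = τ * σ :=
  h.eq_of_kumChar_eq hp hζ fun a ha => by
    rw [kumChar_mul_left hp hζ σ τ a (h.root a ha), kumChar_mul_left hp hζ τ σ a (h.root a ha),
      mul_comm]

/-- the Galois group of a Kummer extension has exponent `p` -/
theorem IsKummerExt.gal_pow_eq_one (h : IsKummerExt p W E) (hp : p ≠ 0)
    (hζ : IsPrimitiveRoot ζ p) (σ : E ≃ₐ[K] E) : σ ^ p = 1 :=
  h.eq_of_kumChar_eq hp hζ fun a ha => by
    rw [kumChar_pow_left hp hζ σ a (h.root a ha), kumChar_pow_eq_one hp hζ σ a (h.root a ha),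
      kumChar_one_left hp hζ a (h.root a ha)]

/-- the Kummer pairing as a homomorphism `W →* (Gal(E/K) →* Kˣ)` -/
def kumHom (h : IsKummerExt p W E) (hp : p ≠ 0) (hζ : IsPrimitiveRoot ζ p) :
    W →* ((E ≃ₐ[K] E) →* Kˣ) where
  toFun a :=
    { toFun := fun σ => kumChar p σ (a : Kˣ)
      map_one' := kumChar_one_left hp hζ (a : Kˣ) (h.root a a.2)
      map_mul' := fun σ τ => kumChar_mul_left hp hζ σ τ (a : Kˣ) (h.root a a.2) }
  map_one' := by
    ext σ
    exact congrArg Units.val (kumChar_one_right hp hζ σ)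
  map_mul' a b := by
    ext σ
    exact congrArg Units.val
      (kumChar_mul_right hp hζ σ (a : Kˣ) (b : Kˣ) (h.root a a.2) (h.root b b.2))

@[simp] theorem kumHom_apply (h : IsKummerExt p W E) (hp : p ≠ 0) (hζ : IsPrimitiveRoot ζ p)
    (a : W) (σ : E ≃ₐ[K] E) : kumHom h hp hζ a σ = kumChar p σ (a : Kˣ) := rfl

/-- the kernel of the Kummer pairing is `W ∩ Kˣᵖ` -/
theorem ker_kumHom (h : IsKummerExt p W E) (hp : p ≠ 0) (hζ : IsPrimitiveRoot ζ p) :
    (kumHom h hp hζ).ker = (powMonoidHom p : Kˣ →* Kˣ).range.subgroupOf W := by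
  haveI := h.isGalois hp hζ
  ext a
  rw [MonoidHom.mem_ker, Subgroup.mem_subgroupOf, MonoidHom.mem_range]
  constructor
  · intro ha
    obtain ⟨β, hβ⟩ := h.root a a.2
    have hfix : ∀ σ : E ≃ₐ[K] E, σ β = β := by
      intro σ
      have h1 : kumChar p σ (a : Kˣ) = 1 := by
        have := congrArg (fun χ : (E ≃ₐ[K] E) →* Kˣ => χ σ) ha
        simpa using this
      rw [kumChar_spec hp hζ σ a hβ, h1, Units.val_one, map_one, one_mul]
    have hbot : β ∈ (⊥ : IntermediateField K E) := (InfiniteGalois.mem_bot_iff_fixed β).2 hfix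
    rw [IntermediateField.mem_bot] at hbot
    obtain ⟨c, hc⟩ := hbot
    have hc0 : c ≠ 0 := by
      rintro rfl
      rw [map_zero] at hc
      exact kum_root_ne_zero hp hβ hc.symm
    refine ⟨Units.mk0 c hc0, ?_⟩
    apply Units.ext
    apply (algebraMap K E).injective
    rw [powMonoidHom_apply, Units.val_pow_eq_pow_val, Units.val_mk0, map_pow, hc, hβ]
  · rintro ⟨c, hc⟩
    ext σ
    rw [kumHom_apply, ← hc, powMonoidHom_apply, kumChar_pow_self hp hζ σ c]
    rfl

theorem card_range_kumHom (h : IsKummerExt p W E) (hp : p ≠ 0) (hζ : IsPrimitiveRoot ζ p) :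
    Nat.card (kumHom h hp hζ).range = (powMonoidHom p : Kˣ →* Kˣ).range.relIndex W := by
  rw [← Subgroup.index_ker, ker_kumHom, Subgroup.relIndex]

end pairing


section count

variable {p : ℕ} {ζ : K} {W : Subgroup Kˣ}

theorem IsKummerExt.finiteDimensional (h : IsKummerExt p W E) (hp : p ≠ 0)
    (hζ : IsPrimitiveRoot ζ p)
    (hfin : (powMonoidHom p : Kˣ →* Kˣ).range.relIndex W ≠ 0) : FiniteDimensional K E := by
  have hR : Finite (kumHom h hp hζ).range :=
    Nat.finite_of_card_ne_zero (by rw [card_range_kumHom]; exact hfin)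
  have hrep : ∀ χ : (kumHom h hp hζ).range, ∃ a : W, kumHom h hp hζ a = χ := fun χ => χ.2
  choose rep hrep using hrep
  have hroot : ∀ χ, ∃ β : E, β ^ p = algebraMap K E ((rep χ : Kˣ) : K) :=
    fun χ => h.root _ (rep χ).2
  choose β hβ using hroot
  have hS : ∀ x ∈ Set.range β, IsIntegral K x := by
    rintro _ ⟨χ, rfl⟩
    exact kum_isIntegral hp ⟨_, (rep χ).2, hβ χ⟩
  haveI : FiniteDimensional K (adjoin K (Set.range β)) := finiteDimensional_adjoin hS
  have hle : adjoin K (kumRoots p W E) ≤ adjoin K (Set.range β) := by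
    rw [adjoin_le_iff]
    rintro γ ⟨a, haW, ha⟩
    let χ : (kumHom h hp hζ).range := ⟨kumHom h hp hζ ⟨a, haW⟩, ⟨_, rfl⟩⟩
    have hker : (rep χ)⁻¹ * ⟨a, haW⟩ ∈ (kumHom h hp hζ).ker := by
      rw [MonoidHom.mem_ker, map_mul, map_inv, hrep χ]
      exact inv_mul_cancel _
    rw [ker_kumHom, Subgroup.mem_subgroupOf, MonoidHom.mem_range] at hker
    obtain ⟨c, hc⟩ := hker
    have ha' : a = (rep χ : Kˣ) * c ^ p := by
      rw [powMonoidHom_apply] at hc
      rw [hc]
      simp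
    have h2 : (β χ * algebraMap K E (c : K)) ^ p = algebraMap K E (a : K) := by
      rw [mul_pow, hβ χ, ← map_pow, ← map_mul, ha', Units.val_mul, Units.val_pow_eq_pow_val]
    obtain ⟨k, hk⟩ := kum_root_eq_mul hp hζ ha h2
    rw [hk]
    exact mul_mem (IntermediateField.algebraMap_mem _ _)
      (mul_mem (subset_adjoin K _ ⟨χ, rfl⟩) (IntermediateField.algebraMap_mem _ _))
  rw [h.gen, top_le_iff] at hle
  have hfd : FiniteDimensional K (⊤ : IntermediateField K E) := hle ▸ inferInstance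
  exact (IntermediateField.topEquiv (F := K) (E := E)).toLinearEquiv.finiteDimensional

/-- Dedekind: a finite group has at most `|G|` characters with values in a field -/
theorem kum_card_le_of_injective_monoidHom {G : Type*} [Group G] [Finite G] {ι : Type*} [Finite ι]
    (f : ι → (G →* Kˣ)) (hf : Function.Injective f) : Nat.card ι ≤ Nat.card G := by
  classical
  haveI := Fintype.ofFinite ι
  haveI := Fintype.ofFinite G
  have hli := linearIndependent_monoidHom G K
  let g : ι → (G →* K) := fun i => (Units.coeHom K).comp (f i)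
  have hg : Function.Injective g := by
    intro i j hij
    apply hf
    ext x
    exact congrArg (fun φ : G →* K => φ x) hij
  have := (hli.comp g hg).fintype_card_le_finrank
  rw [Module.finrank_fintype_fun_eq_card] at this
  rwa [Nat.card_eq_fintype_card, Nat.card_eq_fintype_card]

/-- the order of the Galois group of a Kummer extension -/
theorem IsKummerExt.card_gal (h : IsKummerExt p W E) (hp : p.Prime) (hζ : IsPrimitiveRoot ζ p)
    (hfin : (powMonoidHom p : Kˣ →* Kˣ).range.relIndex W ≠ 0) :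
    Nat.card (E ≃ₐ[K] E) = (powMonoidHom p : Kˣ →* Kˣ).range.relIndex W := by
  have hp0 : p ≠ 0 := hp.ne_zero
  haveI := h.finiteDimensional hp0 hζ hfin
  haveI := h.isGalois hp0 hζ
  haveI hR : Finite (kumHom h hp0 hζ).range :=
    Nat.finite_of_card_ne_zero (by rw [card_range_kumHom]; exact hfin)
  rw [← card_range_kumHom h hp0 hζ]
  apply le_antisymm
  · have hexp : Monoid.exponent (kumHom h hp0 hζ).range ∣ p := by
      apply Monoid.exponent_dvd_of_forall_pow_eq_one
      rintro ⟨_, a, rfl⟩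
      apply Subtype.ext
      ext σ
      have := kumChar_pow_eq_one hp0 hζ σ (a : Kˣ) (h.root a a.2)
      simpa using congrArg Units.val this
    haveI : NeZero p := ⟨hp0⟩
    haveI : HasEnoughRootsOfUnity K p := ⟨⟨ζ, hζ⟩, inferInstance⟩
    haveI : HasEnoughRootsOfUnity K (Monoid.exponent (kumHom h hp0 hζ).range) :=
      HasEnoughRootsOfUnity.of_dvd K hexp
    have hcard := CommGroup.card_monoidHom_of_hasEnoughRootsOfUnity (kumHom h hp0 hζ).range K
    haveI : Finite ((kumHom h hp0 hζ).range →* Kˣ) :=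
      Nat.finite_of_card_ne_zero (by rw [hcard]; exact Nat.card_pos.ne')
    rw [← hcard]
    refine Nat.card_le_card_of_injective
      (fun σ : E ≃ₐ[K] E => (MonoidHom.eval σ).comp (kumHom h hp0 hζ).range.subtype) ?_
    intro σ τ hστ
    apply h.eq_of_kumChar_eq hp0 hζ
    intro a ha
    have := congrArg (fun f : (kumHom h hp0 hζ).range →* Kˣ =>
      f ⟨kumHom h hp0 hζ ⟨a, ha⟩, ⟨_, rfl⟩⟩) hστ
    simpa using this
  · exact kum_card_le_of_injective_monoidHom (fun χ : (kumHom h hp0 hζ).range => χ.1)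
      Subtype.val_injective

/-- **Kummer degree**: `[K(W^{1/p}) : K] = [W : W ∩ Kˣᵖ]` -/
theorem IsKummerExt.finrank_eq (h : IsKummerExt p W E) (hp : p.Prime) (hζ : IsPrimitiveRoot ζ p)
    (hfin : (powMonoidHom p : Kˣ →* Kˣ).range.relIndex W ≠ 0) :
    Module.finrank K E = (powMonoidHom p : Kˣ →* Kˣ).range.relIndex W := by
  haveI := h.finiteDimensional hp.ne_zero hζ hfin
  haveI := h.isGalois hp.ne_zero hζ
  rw [← IsGalois.card_aut_eq_finrank K E, h.card_gal hp hζ hfin]

end count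


section ambient

variable {Ω : Type*} [Field Ω] [Algebra K Ω] {p : ℕ} {ζ : K} {W : Subgroup Kˣ}

/-- `K(W^{1/p})` inside `Ω` -/
def kumField (p : ℕ) (W : Subgroup Kˣ) (Ω : Type*) [Field Ω] [Algebra K Ω] :
    IntermediateField K Ω :=
  IntermediateField.adjoin K (kumRoots p W Ω)

theorem isKummerExt_kumField (hroot : ∀ a ∈ W, ∃ β : Ω, β ^ p = algebraMap K Ω (a : K)) :
    IsKummerExt p W (kumField p W Ω) where
  gen := by
    apply IntermediateField.lift_injective
    rw [lift_top, lift_adjoin]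
    have hS : Subtype.val '' (kumRoots p W (kumField p W Ω)) = kumRoots p W Ω := by
      ext β
      constructor
      · rintro ⟨⟨β, hβL⟩, ⟨a, ha, hβ⟩, rfl⟩
        exact ⟨a, ha, congrArg Subtype.val hβ⟩
      · rintro ⟨a, ha, hβ⟩
        exact ⟨⟨β, subset_adjoin K _ ⟨a, ha, hβ⟩⟩, ⟨a, ha, Subtype.ext hβ⟩, rfl⟩
    rw [hS]
    rfl
  root := fun a ha => by
    obtain ⟨β, hβ⟩ := hroot a ha
    exact ⟨⟨β, subset_adjoin K _ ⟨a, ha, hβ⟩⟩, Subtype.ext hβ⟩

/-- `[W : W ∩ Kˣᵖ]` is the order of the image of `W` in `Kˣ / Kˣᵖ` -/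
theorem kum_relIndex_eq_card_map (p : ℕ) (W : Subgroup Kˣ) :
    (powMonoidHom p : Kˣ →* Kˣ).range.relIndex W =
      Nat.card (W.map (QuotientGroup.mk' (powMonoidHom p : Kˣ →* Kˣ).range)) := by
  have h1 : ((QuotientGroup.mk' (powMonoidHom p : Kˣ →* Kˣ).range).comp W.subtype).ker =
      (powMonoidHom p : Kˣ →* Kˣ).range.subgroupOf W := by
    ext a
    rw [MonoidHom.mem_ker, Subgroup.mem_subgroupOf, MonoidHom.comp_apply,
      QuotientGroup.mk'_apply, QuotientGroup.eq_one_iff]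
    rfl
  have h2 : ((QuotientGroup.mk' (powMonoidHom p : Kˣ →* Kˣ).range).comp W.subtype).range =
      W.map (QuotientGroup.mk' (powMonoidHom p : Kˣ →* Kˣ).range) := by
    rw [MonoidHom.range_comp, Subgroup.range_subtype]
  rw [Subgroup.relIndex, ← h1, Subgroup.index_ker, h2]

/-- **Kummer theory for a finite subgroup of `Kˣ / Kˣᵖ`** (`p` prime, `ζ_p ∈ K`): if every element
of `W` has a `p`-th root in `Ω` and `[W : W ∩ Kˣᵖ]` is finite, then `K(W^{1/p}) / K` is finite
Galois, abelian of exponent `p`, of degree `[W : W ∩ Kˣᵖ]`. -/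
theorem kummer_degree (hp : p.Prime) (hζ : IsPrimitiveRoot ζ p)
    (hroot : ∀ a ∈ W, ∃ β : Ω, β ^ p = algebraMap K Ω (a : K))
    (hfin : (powMonoidHom p : Kˣ →* Kˣ).range.relIndex W ≠ 0) :
    FiniteDimensional K (kumField p W Ω) ∧ IsGalois K (kumField p W Ω) ∧
      (∀ σ τ : kumField p W Ω ≃ₐ[K] kumField p W Ω, σ * τ = τ * σ) ∧
      (∀ σ : kumField p W Ω ≃ₐ[K] kumField p W Ω, σ ^ p = 1) ∧
      Module.finrank K (kumField p W Ω) = (powMonoidHom p : Kˣ →* Kˣ).range.relIndex W := by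
  have h := isKummerExt_kumField (Ω := Ω) hroot
  exact ⟨h.finiteDimensional hp.ne_zero hζ hfin, h.isGalois hp.ne_zero hζ,
    h.gal_mul_comm hp.ne_zero hζ, h.gal_pow_eq_one hp.ne_zero hζ, h.finrank_eq hp hζ hfin⟩

end ambient

end Fermat.Agent.PT.X

end


end ZBPT_023_0

/-! ### bundled: `Fermat.Agent.PT.L.KummerMax` -/
section ZBPT_023_1

/-!
# PT-L, piece L7b: the maximal abelian extension of exponent `p` of a local field

`stmtKummerMax_of : StmtPowFinite → StmtKummerMax`: with `μ_p ⊂ F` and `[Fˣ : Fˣᵖ] < ∞`,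
`E := F(Fˣ^{1/p})` inside an algebraic closure is finite Galois, abelian of exponent `p`, of degree
`[Fˣ : Fˣᵖ]` (Kummer theory, `Fermat.Agent.PT.X.kummer_degree` with `W = ⊤`).
-/

set_option autoImplicit false

namespace Fermat.Agent.PT.L

open Fermat.Agent.PT.X

/-- Kummer theory for the full group `Fˣ` over any field with `[Fˣ : Fˣᵖ]` finite. -/
theorem kummerMax_of_finiteIndex (p : ℕ) [Fact p.Prime] (F : Type) [Field F] (ζ : F)
    (hζ : IsPrimitiveRoot ζ p) (hfin : (powMonoidHom p : Fˣ →* Fˣ).range.FiniteIndex) :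
    ∃ (E : Type) (_ : Field E) (_ : Algebra F E), FiniteDimensional F E ∧ IsGalois F E ∧
      Module.finrank F E = (powMonoidHom p : Fˣ →* Fˣ).range.index ∧
      (∀ g h : E ≃ₐ[F] E, g * h = h * g) ∧ (∀ g : E ≃ₐ[F] E, g ^ p = 1) := by
  have hp : p.Prime := Fact.out
  have hroot : ∀ a ∈ (⊤ : Subgroup Fˣ),
      ∃ β : AlgebraicClosure F, β ^ p = algebraMap F (AlgebraicClosure F) (a : F) := by
    intro a _
    exact IsAlgClosed.exists_pow_nat_eq _ hp.pos
  have hrel : (powMonoidHom p : Fˣ →* Fˣ).range.relIndex (⊤ : Subgroup Fˣ) ≠ 0 := by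
    rw [Subgroup.relIndex_top_right]
    exact hfin.index_ne_zero
  obtain ⟨h1, h2, h3, h4, h5⟩ :=
    kummer_degree (Ω := AlgebraicClosure F) (W := (⊤ : Subgroup Fˣ)) hp hζ hroot hrel
  refine ⟨↥(kumField p (⊤ : Subgroup Fˣ) (AlgebraicClosure F)), inferInstance, inferInstance,
    h1, h2, ?_, h3, h4⟩
  rw [h5, Subgroup.relIndex_top_right]

theorem stmtKummerMax_of (hF : StmtPowFinite) : StmtKummerMax := by
  intro q _ p _ F _ _ _ ζ hζ
  exact kummerMax_of_finiteIndex p F ζ hζ (hF q p F)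

end Fermat.Agent.PT.L


end ZBPT_023_1

/-! ### bundled: `Fermat.Agent.PT.L.FinalOf` -/
section ZBPT_023_2
/-
PT-L: FINAL WIRING (helper57). Everything of PT-L, conditional only on
`StmtCompositumNorm` (piece U).  The unconditional versions are in `Final.lean`.
-/

set_option autoImplicit false

namespace Fermat.Agent.PT.L

/-- L5, unconditional: `|H²(F'/F, F'ˣ)| ≤ [F' : F]` for `p`-extensions. -/
theorem h2Le : StmtH2Le := stmtH2Le normIndex stmtInfResField

/-- L7b, unconditional. -/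
theorem kummerMax : StmtKummerMax := stmtKummerMax_of stmtPowFinite

/-- L6a from U. -/
theorem laGen_of (hC : StmtCompositumNorm) : StmtLaGen :=
  stmtLaGen_of stmtUnramExists hC stmtLd stmtInfResField

/-- **(La)** from U. -/
theorem la_of (hC : StmtCompositumNorm) : StmtLa := stmtLa (laGen_of hC) h2Le

/-- **(CM-loc)** from U. -/
theorem fundClass_of (hC : StmtCompositumNorm) : StmtFundClass :=
  stmtFundClass_of (laGen_of hC) (la_of hC)

end Fermat.Agent.PT.L


end ZBPT_023_2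

/-! ### bundled: `Fermat.Agent.PT.L.Final` -/
section ZBPT_023_3
/-
PT-L: FINAL RESULTS, all UNCONDITIONAL (helper57, wiring of the pieces of
helper30/48/60/61/65/67/72/74/75/57; see NOTES/PT-L-plan.md).

  `la         : StmtLa`          (La)  H²(Gal(F'/F), F'ˣ) cyclic of order [F':F] = p^k
  `laGen      : StmtLaGen`             a class of order [F':F] in H²(F'/F), any degree
  `fundClass  : StmtFundClass`   (CM-loc) F'ˣ has a p-fundamental class
  `stmtLd     : StmtLd`          (Ld)  inflation is injective           (InflInj.lean)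
  `normIndex  : StmtNormIndex`   (Lc)  [Fˣ : N F'ˣ] = [F':F], cyclic    (CyclicFinal.lean)
  `unitNorm   : StmtUnitNorm`    (Lc)  units are norms, unramified      (CyclicFinal.lean)
  `h2Le`, `kummerMax`, `stmtPowFinite`, `stmtPowCard`, `stmtUnramExists`, `stmtInfResField`.
-/

set_option autoImplicit false

namespace Fermat.Agent.PT.L

/-- U, unconditional. -/
theorem compositumNorm : StmtCompositumNorm := stmtCompositumNorm_of_res stmtRes

/-- L6a, unconditional: a class of order `[F' : F]` in `H²(F'/F, F'ˣ)`. -/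
theorem laGen : StmtLaGen := laGen_of compositumNorm

/-- **(La)**, unconditional: for a Galois extension `F'/F` of local fields of degree `p ^ k`,
`H²(Gal(F'/F), F'ˣ)` is cyclic of order `[F' : F]`. -/
theorem la : StmtLa := la_of compositumNorm

/-- **(CM-loc)**, unconditional: `F'ˣ` has a `p`-fundamental class for every finite Galois
extension `F'/F` of local fields. -/
theorem fundClass : StmtFundClass := fundClass_of compositumNorm

end Fermat.Agent.PT.L


end ZBPT_023_3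

/-! ### bundled: `Fermat.Agent.PT.X.Plan` -/
section ZBPT_023_4
/-
PT-X (existence theorem mod `p`) — INTERFACE FILE (definitions and statements only).
Sub-captain helper69; mathematics and piece table: NOTES/PT-X.md.

Type-level model of PT/G (`CS S L`, `csMap`, `jlMap`, …).  `K` is a number field containing `μ_p`,
`p ∈ S`.  `selV p S K` is the Selmer group `{a ∈ Kˣ | p ∣ ord_P a for all P ∤ S}` and
`selVloc p S K` its subgroup of elements which are `p`-th powers in `J_K = ∏_{q ∈ S} (ℚ_q ⊗ K)ˣ`.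

Every `Stmt…` is a `Prop`; the piece `X` is DONE when `theorem stmtX : StmtX` (or the
`stmtX_of : … → StmtX` of NOTES/PT-X.md) is landed, sorry-free.
-/

set_option autoImplicit false

namespace Fermat.Agent.PT.X

open NumberField IsDedekindDomain Fermat.Agent.PT.G Fermat.Agent.PT.G1 Fermat.Agent.PT
open CategoryTheory groupCohomology Fermat.Agent.PT.G3

/-! ### The Selmer groups -/

section Selmer

variable (p : ℕ) (S : Finset Nat.Primes) (K : Type) [Field K] [NumberField K]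

/-- `V = {a ∈ Kˣ | p ∣ ord_P(a) for every prime P of K not over S}`. -/
def selV : Subgroup Kˣ where
  carrier := {a | ∀ P : OffS S K, (p : ℤ) ∣ ordAt P.1 a}
  mul_mem' := fun {a b} ha hb P => by
    rw [ordAt_mul]
    exact dvd_add (ha P) (hb P)
  one_mem' := fun P => by simp [ordAt_one]
  inv_mem' := fun {a} ha P => by
    rw [ordAt_inv]
    exact (dvd_neg).2 (ha P)

/-- `V_loc = {a ∈ V | a is a p-th power in J_K}`. -/
def selVloc : Subgroup Kˣ where
  carrier := {a | a ∈ selV p S K ∧ ∃ j : JL S K, jlDiag S K a = j ^ p}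
  mul_mem' := fun {a b} ha hb => by
    refine ⟨(selV p S K).mul_mem ha.1 hb.1, ?_⟩
    obtain ⟨j, hj⟩ := ha.2
    obtain ⟨j', hj'⟩ := hb.2
    exact ⟨j * j', by rw [map_mul, hj, hj', mul_pow]⟩
  one_mem' := ⟨(selV p S K).one_mem, 1, by simp⟩
  inv_mem' := fun {a} ha => by
    refine ⟨(selV p S K).inv_mem ha.1, ?_⟩
    obtain ⟨j, hj⟩ := ha.2
    exact ⟨j⁻¹, by rw [map_inv, hj, inv_pow]⟩

lemma selVloc_le : selVloc p S K ≤ selV p S K := fun _ h => h.1

end Selmer

/-! ### The counts (pieces X-J, X-E) -/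

/-- **X-J** (semilocal count): `[J_K : p J_K] ≤ p ^ (2 #{P | S} + [K : ℚ])` when `μ_p ⊂ K`, `p ∈ S`.
(Local input: `PT.L.StmtPowCard`; `ℚ_q ⊗ K = ∏ (A/𝔪)` (PT/G1/TensorHQ.lean), the number of
maximal ideals of `ℚ_q ⊗ K` is the number of primes of `K` over `q` (`G1.StmtMaxSpecCount`,
`σ = 1`), `Σ_𝔪 [A/𝔪 : ℚ_q] = [K : ℚ]`.) -/
def StmtJCount : Prop :=
  ∀ (p : ℕ) [Fact p.Prime] (S : Finset Nat.Primes), (∃ q ∈ S, (q : ℕ) = p) →
    ∀ (K : Type) [Field K] [NumberField K] (ζ : K), IsPrimitiveRoot ζ p →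
      (nMul p (Additive (JL S K))).index ≠ 0 ∧
      (nMul p (Additive (JL S K))).index ≤
        p ^ (2 * (primesAbove (sProd S) K).ncard + Module.finrank ℚ K)

/-- **X-E** (unit count): for `E = ker(div) = ` the `S`-units of `K ⊃ μ_p`, `p` odd:
`[E : E ∩ Kˣᵖ] = [E : Eᵖ] = p ^ (#{P | S} + [K : ℚ] / 2)`; we only need `≥` for the square.
(`G1.stmtUnitRank`, `G.cse_divHom_eq_zero_iff`, `K` is totally complex.) -/
def StmtECount : Prop :=
  ∀ (p : ℕ) [Fact p.Prime], p ≠ 2 → ∀ (S : Finset Nat.Primes) (K : Type) [Field K]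
    [NumberField K] (ζ : K), IsPrimitiveRoot ζ p →
      (nMul p (Additive Kˣ)).relIndex (LinearMap.ker (divHom S K)).toAddSubgroup ≠ 0 ∧
      p ^ (2 * (primesAbove (sProd S) K).ncard + Module.finrank ℚ K) ≤
        ((nMul p (Additive Kˣ)).relIndex (LinearMap.ker (divHom S K)).toAddSubgroup) ^ 2

/-! ### Kummer extensions of `K` (pieces X-SPL, X-UNR)

`IsKummerExt p W L` (PT/X/Kummer.lean): `L = K(W^{1/p})` — `L` is generated over `K` by the
`p`-th roots of the elements of `W ≤ Kˣ`, and every element of `W` has a `p`-th root in `L`. -/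

/-- **X-SPL** (split places): if `L = K(W^{1/p})` with `W ≤ V_loc` (every `a ∈ W` is a `p`-th
power in `J_K`), then every idèle of `K` is a norm from `L`: `J_K ⊂ N_{L/K} J_L`.
(`ℚ_q ⊗ L = (ℚ_q ⊗ K) ⊗_K L` is a product of copies of `ℚ_q ⊗ K` permuted simply transitively by
`Gal(L/K)`: orthogonal idempotents `e_σ` from `θ = (1 ⊗ β)/b`, `θ^p = 1`; `j' = 1 + (j - 1) e_1`.) -/
def StmtSplitIdele : Prop :=
  ∀ (p : ℕ) [Fact p.Prime] (S : Finset Nat.Primes) (K L : Type) [Field K] [NumberField K]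
    [Field L] [NumberField L] [Algebra K L] [IsGalois K L] (ζ : K), IsPrimitiveRoot ζ p →
    ∀ W : Subgroup Kˣ, W ≤ selVloc p S K → IsKummerExt p W L →
    ∀ j : JL S K, ∃ j' : JL S L, jlMap S K L j = ∏ σ : L ≃ₐ[K] L, jlHom S (galToAut σ) j'

/-- **X-UNR** (Kummer extensions by Selmer elements are unramified outside `S ∋ p`): if
`L = K(W^{1/p})` with `W ≤ V`, then `e(P | P ∩ K) = 1` for all primes `P ∤ S` of `L`.
(For `1 ≠ σ ∈ Gal(L/K)` pick `β`, `β^p = a ∈ W`, `σ β = ζ^k β ≠ β`; scale `β` by an element of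
`K` to a `P`-unit: `σ β - β = (ζ^k - 1) β ∉ P`, so `σ ∉ I_P`; `e = #I_P`, cf. PT-G/D-unram.) -/
def StmtKummerUnram : Prop :=
  ∀ (p : ℕ) [Fact p.Prime] (S : Finset Nat.Primes), (∃ q ∈ S, (q : ℕ) = p) →
    ∀ (K L : Type) [Field K] [NumberField K] [Field L] [NumberField L] [Algebra K L]
      [IsGalois K L] (ζ : K), IsPrimitiveRoot ζ p →
      ∀ W : Subgroup Kˣ, W ≤ selV p S K → IsKummerExt p W L → UnramOffRel S K L

/-! ### The existence theorem mod `p`, type level (piece X-ASM) -/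

/-- **X-ASM-TL** (existence theorem mod `p`, type level).  `K ⊃ μ_p`, `p ∈ S` odd,
`L = K(V^{1/p})`, `L' = K(V_loc^{1/p})`, and `C_S(L)`, `C_S(L')` have `p`-fundamental classes.
Then the norm subgroup of `L / K` (`G3.NormSub`: the `c ∈ C_S(K)` with `csMap c ∈ N_{L/K} C_S(L)`)
is contained in `p • C_S(K)`. -/
def StmtExistTL : Prop :=
  ∀ (p : ℕ) [Fact p.Prime], p ≠ 2 → ∀ (S : Finset Nat.Primes), (∃ q ∈ S, (q : ℕ) = p) →
    ∀ (K L L' : Type) [Field K] [NumberField K] [Field L] [NumberField L] [Field L']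
      [NumberField L'] [Algebra K L] [IsGalois K L] [Algebra K L'] [IsGalois K L'] (ζ : K),
      IsPrimitiveRoot ζ p →
      IsKummerExt p (selV p S K) L → IsKummerExt p (selVloc p S K) L' →
      (∃ u : H2 (csRep S L), IsPFundClass p (csRep S L) u) →
      (∃ u : H2 (csRep S L'), IsPFundClass p (csRep S L') u) →
      ∀ c ∈ NormSub S K L, ∃ c₁ : CS S K, c = p • c₁

end Fermat.Agent.PT.X


end ZBPT_023_4

/-! ### bundled: `Fermat.Agent.PT.X.PlanTower` -/
section ZBPT_023_5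
/-
PT-X — INTERFACE FILE 2: the Kummer extensions `K(W^{1/p}) ⊂ ℚ̄` stay in the tower `𝓕_S`
(fields unramified outside `S` in the prelude's sense, Galois over `ℚ`).
Sub-captain helper69; piece table: NOTES/PT-X.md.
-/

set_option autoImplicit false

namespace Fermat.Agent.PT.X

open NumberField IsDedekindDomain Fermat.Agent.PT.G Fermat.Agent.PT.G1 Fermat.Agent.PT
open Fermat.Agent.PT.B

/-- **X-KUM** (Kummer extensions in the tower): let `K ⊂ ℚ̄` be in the tower `𝓕_S` (`p ∈ S`),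
`μ_p ⊂ K`, and `W ≤ V = selV p S K` a subgroup stable under `Aut(K)` with `W / W ∩ Kˣᵖ` finite.
Then `K(W^{1/p}) ⊂ ℚ̄` (`kumField`, PT/X/Kummer.lean) is in the tower.

Proof: finite by `kummer_degree`; normal over `ℚ` since `W` and `K` are Galois-stable;
unramified outside `S`: for a valuation subring `A` of `ℚ̄` over `q ∉ S` and `a ∈ W`, the prime
`P = A.maximalIdeal ∩ 𝓞_K` is off `S`, `p ∣ ord_P a`, so `a = b^p u` with `b ∈ Kˣ`, `u ∈ Aˣ`
(`b = π^k`, `π` a uniformiser at `P`), and the inertia group `I_A` fixes `K` and the `p`-th roots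
of `u` (`Fermat.Agent.PT.X.inertia_fixes_root_of_unit`, KummerUnram.lean). -/
def StmtKummerTower : Prop :=
  ∀ (p : ℕ) [Fact p.Prime] (S : Finset Nat.Primes), (∃ q ∈ S, (q : ℕ) = p) →
    ∀ (K : QbarField) [NumberField ↥K], IsTowerField S K →
    ∀ (ζ : ↥K), IsPrimitiveRoot ζ p →
    ∀ W : Subgroup (↥K)ˣ, W ≤ selV p S ↥K →
      (∀ (σ : ↥K ≃ₐ[ℚ] ↥K), ∀ a ∈ W, Units.map ((σ : ↥K ≃ₐ[ℚ] ↥K) : ↥K →* ↥K) a ∈ W) →
      (powMonoidHom p : (↥K)ˣ →* (↥K)ˣ).range.relIndex W ≠ 0 →
      IsTowerField S ((kumField p W (AlgebraicClosure ℚ)).restrictScalars ℚ)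

end Fermat.Agent.PT.X


end ZBPT_023_5

/-! ### bundled: `Fermat.Agent.PT.X.KummerTower` -/
section ZBPT_023_6
/-
PT-X, piece X-KUM (helper61): `stmtKummerTower : StmtKummerTower` — the Kummer extensions
`K(W^{1/p}) ⊂ ℚ̄`, `W ≤ selV p S K` Galois-stable with `W / W ∩ Kˣᵖ` finite, stay in the tower
`𝓕_S` (finite Galois over `ℚ`, unramified outside `S` in the prelude's sense).
-/

set_option autoImplicit false

noncomputable section

namespace Fermat.Agent.PT.X

open NumberField IsDedekindDomain Fermat.Agent.PT.G Fermat.Agent.PT.G1 Fermat.Agent.PT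
open Fermat.Agent.PT.B IntermediateField

/-! ### Valuation subrings of `ℚ̄` and primes of `𝓞 K` -/

section Place

/-- elements integral over `ℤ` lie in every valuation subring -/
theorem ktow_mem_of_isIntegral {L : Type*} [Field L] (A : ValuationSubring L) {x : L}
    (hx : IsIntegral ℤ x) : x ∈ A := by
  have hx' : IsIntegral A x := hx.tower_top
  obtain ⟨y, hy⟩ := IsIntegrallyClosed.isIntegral_iff.mp hx'
  rw [← hy]
  exact y.2

variable (K : QbarField) (A : ValuationSubring (AlgebraicClosure ℚ))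

/-- the embedding `𝓞 K → ℚ̄` -/
def ktowEmb : 𝓞 ↥K →+* AlgebraicClosure ℚ :=
  (algebraMap ↥K (AlgebraicClosure ℚ)).comp (algebraMap (𝓞 ↥K) ↥K)

theorem ktowEmb_apply (x : 𝓞 ↥K) : ktowEmb K x = ((x : ↥K) : AlgebraicClosure ℚ) := rfl

theorem ktowEmb_mem (x : 𝓞 ↥K) : ktowEmb K x ∈ A := by
  apply ktow_mem_of_isIntegral
  have h : IsIntegral ℤ (x : ↥K) := x.2
  exact h.map (IsScalarTower.toAlgHom ℤ ↥K (AlgebraicClosure ℚ))

theorem ktowEmb_val_le (x : 𝓞 ↥K) : A.valuation (ktowEmb K x) ≤ 1 :=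
  (ValuationSubring.valuation_le_one_iff A _).2 (ktowEmb_mem K A x)

/-- the prime of `𝓞 K` below `A` -/
def ktowIdeal : Ideal (𝓞 ↥K) where
  carrier := {x | A.valuation (ktowEmb K x) < 1}
  zero_mem' := by simp
  add_mem' := fun {x y} hx hy => by
    show A.valuation (ktowEmb K (x + y)) < 1
    rw [map_add]
    exact lt_of_le_of_lt (A.valuation.map_add _ _) (max_lt hx hy)
  smul_mem' := fun c x hx => by
    show A.valuation (ktowEmb K (c • x)) < 1
    rw [smul_eq_mul, map_mul, map_mul]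
    calc A.valuation (ktowEmb K c) * A.valuation (ktowEmb K x)
        ≤ 1 * A.valuation (ktowEmb K x) := by gcongr; exact ktowEmb_val_le K A c
      _ < 1 := by rw [one_mul]; exact hx

theorem mem_ktowIdeal (x : 𝓞 ↥K) : x ∈ ktowIdeal K A ↔ A.valuation (ktowEmb K x) < 1 := Iff.rfl

theorem not_mem_ktowIdeal (x : 𝓞 ↥K) : x ∉ ktowIdeal K A ↔ A.valuation (ktowEmb K x) = 1 := by
  rw [mem_ktowIdeal, not_lt]
  exact ⟨fun h => le_antisymm (ktowEmb_val_le K A x) h, fun h => h.ge⟩

instance ktowIdeal_isPrime : (ktowIdeal K A).IsPrime where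
  ne_top' := by
    rw [Ideal.ne_top_iff_one, not_mem_ktowIdeal, map_one, map_one]
  mem_or_mem' := fun {x y} hxy => by
    by_contra h
    rw [not_or, not_mem_ktowIdeal, not_mem_ktowIdeal] at h
    rw [mem_ktowIdeal, map_mul, map_mul, h.1, h.2, one_mul] at hxy
    exact lt_irrefl _ hxy

theorem ktow_natCast_mem {q : ℕ} (hA : A.LiesOverPrime q) : (q : 𝓞 ↥K) ∈ ktowIdeal K A := by
  rw [mem_ktowIdeal, map_natCast]
  exact (ValuationSubring.mem_nonunits_iff A).1 hA

theorem ktowIdeal_ne_bot {q : ℕ} (hq : q.Prime) (hA : A.LiesOverPrime q) :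
    ktowIdeal K A ≠ ⊥ := by
  intro h
  have h1 := ktow_natCast_mem K A hA
  rw [h, Ideal.mem_bot] at h1
  exact hq.ne_zero (by exact_mod_cast h1)

/-- the height one prime of `𝓞 K` below `A` -/
def ktowPrime {q : ℕ} (hq : q.Prime) (hA : A.LiesOverPrime q) : HeightOneSpectrum (𝓞 ↥K) :=
  ⟨ktowIdeal K A, ktowIdeal_isPrime K A, ktowIdeal_ne_bot K A hq hA⟩

theorem ktow_natCast_val_eq_one {q : ℕ} (hq : q.Prime) (hA : A.LiesOverPrime q) {r : ℕ}
    (hr : r.Prime) (hrq : r ≠ q) : A.valuation (r : AlgebraicClosure ℚ) = 1 := by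
  have h1 : (r : AlgebraicClosure ℚ) ∉ A.nonunits :=
    natCast_not_mem_nonunits_of_liesOver A hr hq hrq hA
  have h2 : A.valuation (r : AlgebraicClosure ℚ) ≤ 1 := by
    rw [ValuationSubring.valuation_le_one_iff]
    exact ktow_mem_of_isIntegral A (isIntegral_algebraMap (R := ℤ) (x := (r : ℤ)) |> fun h => by
      simpa using h)
  rw [ValuationSubring.mem_nonunits_iff, not_lt] at h1
  exact le_antisymm h2 h1

theorem ktow_sProd_not_mem (S : Finset Nat.Primes) {q : Nat.Primes} (hqS : q ∉ S)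
    (hA : A.LiesOverPrime (q : ℕ)) : ((sProd S : ℕ) : 𝓞 ↥K) ∉ ktowIdeal K A := by
  rw [not_mem_ktowIdeal, map_natCast, sProd, Nat.cast_prod, map_prod]
  refine Finset.prod_eq_one fun r hr => ?_
  refine ktow_natCast_val_eq_one A q.2 hA r.2 ?_
  intro h
  exact hqS ((Subtype.ext h : r = q) ▸ hr)

/-- the prime of `𝓞 K` below `A`, as a prime off `S` -/
def ktowOff (S : Finset Nat.Primes) {q : Nat.Primes} (hqS : q ∉ S)
    (hA : A.LiesOverPrime (q : ℕ)) : OffS S ↥K :=
  ⟨ktowPrime K A q.2 hA, ktow_sProd_not_mem K A S hqS hA⟩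

/-- elements of `K` which are integral at the prime below `A` lie in `A` -/
theorem ktow_val_le_one [NumberField ↥K] {q : ℕ} (hq : q.Prime) (hA : A.LiesOverPrime q) (x : ↥K)
    (hx : (ktowPrime K A hq hA).valuation ↥K x ≤ 1) :
    A.valuation (x : AlgebraicClosure ℚ) ≤ 1 := by
  obtain ⟨n, d, hnd⟩ :=
    HeightOneSpectrum.exists_primeCompl_mul_eq_of_integer (ktowPrime K A hq hA) x hx
  have hd : A.valuation (ktowEmb K (d : 𝓞 ↥K)) = 1 := (not_mem_ktowIdeal K A _).1 d.2
  have hn : A.valuation (ktowEmb K n) ≤ 1 := ktowEmb_val_le K A n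
  have h := congrArg (fun y : ↥K => A.valuation (y : AlgebraicClosure ℚ)) hnd
  simp only [MulMemClass.coe_mul, map_mul] at h
  rw [← ktowEmb_apply, ← ktowEmb_apply, hd, mul_one] at h
  rw [h]
  exact hn

/-- **Local decomposition**: if `p ∣ ord_P a` at the prime `P` of `K` below `A`, then
`a = u · β ^ p` with `β, u ∈ K` and `u` a unit of `A`. -/
theorem ktow_decomp [NumberField ↥K] {q : ℕ} (hq : q.Prime) (hA : A.LiesOverPrime q) (p : ℕ)
    (a : (↥K)ˣ) (ha : (p : ℤ) ∣ ordAt (ktowPrime K A hq hA) a) :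
    ∃ β u : AlgebraicClosure ℚ, β ∈ K ∧ u ∈ K ∧ u ∈ A ∧ u ∉ A.nonunits ∧
      ((a : ↥K) : AlgebraicClosure ℚ) = u * β ^ p := by
  set P := ktowPrime K A hq hA with hP
  obtain ⟨k, hk⟩ := ha
  obtain ⟨π, hπ⟩ := P.valuation_exists_uniformizer ↥K
  have hπ0 : π ≠ 0 := by
    rintro rfl
    rw [map_zero] at hπ
    exact WithZero.zero_ne_coe hπ
  let πu : (↥K)ˣ := Units.mk0 π hπ0
  have hπu : P.valuationOfNeZero πu = Multiplicative.ofAdd (-1 : ℤ) := by
    rw [← WithZero.coe_inj, HeightOneSpectrum.valuationOfNeZero_eq]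
    exact hπ
  let b : (↥K)ˣ := πu ^ k
  let u : (↥K)ˣ := a * (b ^ p)⁻¹
  have hu : P.valuationOfNeZero u = 1 := by
    show P.valuationOfNeZero (a * ((πu ^ k) ^ p)⁻¹) = 1
    rw [map_mul, map_inv, map_pow, map_zpow, valuationOfNeZero_eq_ordAt, hπu, hk]
    rw [← ofAdd_zsmul, ← ofAdd_nsmul, ← ofAdd_neg, ← ofAdd_add, ← ofAdd_zero]
    congr 1
    simp only [smul_eq_mul, nsmul_eq_mul]
    ring
  have hu1 : P.valuation ↥K (u : ↥K) = 1 := by
    rw [← HeightOneSpectrum.valuationOfNeZero_eq, hu]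
    rfl
  have hu2 : P.valuation ↥K ((u⁻¹ : (↥K)ˣ) : ↥K) = 1 := by
    rw [← HeightOneSpectrum.valuationOfNeZero_eq, map_inv, hu]
    rfl
  have h1 : A.valuation ((u : ↥K) : AlgebraicClosure ℚ) ≤ 1 :=
    ktow_val_le_one K A hq hA _ hu1.le
  have h2 : A.valuation (((u⁻¹ : (↥K)ˣ) : ↥K) : AlgebraicClosure ℚ) ≤ 1 :=
    ktow_val_le_one K A hq hA _ hu2.le
  have hu0 : ((u : ↥K) : AlgebraicClosure ℚ) ≠ 0 := by
    have : (u : ↥K) ≠ 0 := u.ne_zero
    exact_mod_cast this
  have h3 : A.valuation ((u : ↥K) : AlgebraicClosure ℚ) = 1 := by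
    refine le_antisymm h1 ?_
    have h4 : (((u⁻¹ : (↥K)ˣ) : ↥K) : AlgebraicClosure ℚ) =
        ((u : ↥K) : AlgebraicClosure ℚ)⁻¹ := by
      rw [Units.val_inv_eq_inv_val]
      push_cast
      rfl
    rw [h4, map_inv₀] at h2
    have hne : A.valuation ((u : ↥K) : AlgebraicClosure ℚ) ≠ 0 :=
      (Valuation.ne_zero_iff _).2 hu0
    rwa [inv_le_one₀ (zero_lt_iff.2 hne)] at h2
  refine ⟨((b : ↥K) : AlgebraicClosure ℚ), ((u : ↥K) : AlgebraicClosure ℚ), (b : ↥K).2,
    (u : ↥K).2, (ValuationSubring.valuation_le_one_iff A _).1 h3.le, ?_, ?_⟩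
  · rw [ValuationSubring.mem_nonunits_iff, h3]
    exact lt_irrefl _
  · have h5 : a = u * b ^ p := by
      show a = a * (b ^ p)⁻¹ * b ^ p
      rw [inv_mul_cancel_right]
    conv_lhs => rw [h5]
    push_cast
    rfl

end Place

/-! ### The Kummer field over `ℚ` -/

section Tower

variable (p : ℕ) (K : QbarField) (W : Subgroup (↥K)ˣ)

/-- the generators of `K(W^{1/p})` over `ℚ` -/
def ktowGen : Set (AlgebraicClosure ℚ) := (K : Set (AlgebraicClosure ℚ)) ∪ kumRoots p W (AlgebraicClosure ℚ)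

theorem ktow_restrictScalars_eq :
    (kumField p W (AlgebraicClosure ℚ)).restrictScalars ℚ = adjoin ℚ (ktowGen p K W) :=
  restrictScalars_adjoin ℚ K _

/-- an automorphism fixing the generators lies in the fixing subgroup -/
theorem ktow_mem_fixingSubgroup (T : Set (AlgebraicClosure ℚ))
    (σ : AlgebraicClosure ℚ ≃ₐ[ℚ] AlgebraicClosure ℚ) (h : ∀ x ∈ T, σ x = x) :
    σ ∈ (adjoin ℚ T).fixingSubgroup := by
  have hle : adjoin ℚ T ≤ IntermediateField.fixedField (Subgroup.zpowers σ) := by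
    apply IntermediateField.adjoin_le_iff.mpr
    intro x hx
    rw [SetLike.mem_coe, IntermediateField.mem_fixedField_iff]
    intro g hg
    obtain ⟨n, rfl⟩ := Subgroup.mem_zpowers_iff.mp hg
    have hfix : σ • x = x := h x hx
    exact MulAction.mem_stabilizer_iff.mp
      (Subgroup.zpow_mem _ (MulAction.mem_stabilizer_iff.mpr hfix) n)
  have := (IntermediateField.le_iff_le (Subgroup.zpowers σ) (adjoin ℚ T)).mp hle
  exact this (Subgroup.mem_zpowers σ)

/-- Galois stability of the generators -/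
theorem ktow_gen_stable [Normal ℚ ↥K]
    (hW : ∀ (σ : ↥K ≃ₐ[ℚ] ↥K), ∀ a ∈ W, Units.map ((σ : ↥K ≃ₐ[ℚ] ↥K) : ↥K →* ↥K) a ∈ W)
    (σ : AlgebraicClosure ℚ ≃ₐ[ℚ] AlgebraicClosure ℚ) {x : AlgebraicClosure ℚ}
    (hx : x ∈ ktowGen p K W) : σ x ∈ ktowGen p K W := by
  rcases hx with hx | ⟨a, ha, hx⟩
  · left
    have h := AlgEquiv.restrictNormal_commutes σ ↥K ⟨x, hx⟩
    have h' : σ x = ((σ.restrictNormal ↥K ⟨x, hx⟩ : ↥K) : AlgebraicClosure ℚ) := h.symm
    rw [SetLike.mem_coe, h']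
    exact (σ.restrictNormal ↥K ⟨x, hx⟩).2
  · right
    refine ⟨Units.map ((σ.restrictNormal ↥K : ↥K ≃ₐ[ℚ] ↥K) : ↥K →* ↥K) a, hW _ a ha, ?_⟩
    rw [← map_pow, hx]
    exact (AlgEquiv.restrictNormal_commutes σ ↥K (a : ↥K)).symm

end Tower

/-- **X-KUM** -/
theorem stmtKummerTower : StmtKummerTower := by
  intro p hp S hpS K _ hK ζ hζ W hWV hWstab hfin
  obtain ⟨pS, hpS1, hpS2⟩ := hpS
  have : IsGalois ℚ ↥K := hK.2
  have : IsAlgClosure ℚ (AlgebraicClosure ℚ) := ⟨inferInstance, AlgebraicClosure.isAlgebraic ℚ⟩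
  have : Normal ℚ (AlgebraicClosure ℚ) := IsAlgClosure.normal ℚ (AlgebraicClosure ℚ)
  have hroot : ∀ a ∈ W, ∃ β : AlgebraicClosure ℚ,
      β ^ p = algebraMap ↥K (AlgebraicClosure ℚ) (a : ↥K) := fun a _ =>
    IsAlgClosed.exists_pow_nat_eq _ hp.out.pos
  obtain ⟨hfd, -, -, -, -⟩ := kummer_degree (Ω := AlgebraicClosure ℚ) hp.out hζ hroot hfin
  -- finite over `ℚ`
  have hfdQ : FiniteDimensional ℚ ((kumField p W (AlgebraicClosure ℚ)).restrictScalars ℚ) := by
    have := hfd
    have : FiniteDimensional ℚ (kumField p W (AlgebraicClosure ℚ)) :=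
      Module.Finite.trans ↥K _
    exact this
  refine ⟨⟨hfdQ, ?_⟩, ?_⟩
  · -- unramified outside `S`
    intro q hq A hA σ hσ
    rw [ktow_restrictScalars_eq]
    apply ktow_mem_fixingSubgroup
    have hσK : σ ∈ K.fixingSubgroup := hK.1.2 q hq A hA hσ
    rintro x (hx | ⟨a, ha, hx⟩)
    · exact (IntermediateField.mem_fixingSubgroup_iff K σ).1 hσK x hx
    · have hloc : ∀ q : Nat.Primes, q ∉ S → ∀ A : ValuationSubring (AlgebraicClosure ℚ),
          A.LiesOverPrime (q : ℕ) → ∃ β u : AlgebraicClosure ℚ, β ∈ K ∧ u ∈ K ∧ u ∈ A ∧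
            u ∉ A.nonunits ∧ ((a : ↥K) : AlgebraicClosure ℚ) = u * β ^ ((pS : ℕ)) := by
        intro q' hq' A' hA'
        rw [hpS2]
        exact ktow_decomp K A' q'.2 hA' p a (hWV ha (ktowOff K A' S hq' hA'))
      have hun := isUnramifiedOutside_adjoin_root S pS hpS1 K hK.1
        ((a : ↥K) : AlgebraicClosure ℚ) x (by rw [hpS2]; exact hx) hloc
      have hσ' := hun.2 q hq A hA hσ
      rw [IntermediateField.fixingSubgroup_sup] at hσ'
      exact (IntermediateField.mem_fixingSubgroup_iff _ σ).1 hσ'.2 x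
        (mem_adjoin_simple_self ℚ x)
  · -- Galois over `ℚ`
    have hN : ∀ σ : AlgebraicClosure ℚ ≃ₐ[ℚ] AlgebraicClosure ℚ,
        ((kumField p W (AlgebraicClosure ℚ)).restrictScalars ℚ).map
          (σ : AlgebraicClosure ℚ →ₐ[ℚ] AlgebraicClosure ℚ) ≤
          (kumField p W (AlgebraicClosure ℚ)).restrictScalars ℚ := by
      intro σ
      rw [ktow_restrictScalars_eq, adjoin_map]
      apply adjoin.mono
      rintro _ ⟨x, hx, rfl⟩
      exact ktow_gen_stable p K W hWstab σ hx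
    have hN' := (IntermediateField.normal_iff_forall_map_le'
      (K := (kumField p W (AlgebraicClosure ℚ)).restrictScalars ℚ)).2 hN
    exact { to_isSeparable := inferInstance, to_normal := hN' }

end Fermat.Agent.PT.X

end


end ZBPT_023_6

/-! ### bundled: `Fermat.Agent.PT.X.KumTowerExt` -/
section ZBPT_023_7
/-
PT-X, sub-piece `kte` of X-FIN (helper61, for helper56): the Kummer field `K(W^{1/p}) ⊂ ℚ̄`,
restricted to `ℚ`, contains `K` and is a Kummer extension of `K` for the algebra structure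
`B.algebraOfLe` (the one used by PT-B / PT-G for tower fields).
-/

set_option autoImplicit false
set_option linter.style.haveILetI false

noncomputable section

namespace Fermat.Agent.PT.X

open IntermediateField Fermat.Agent.PT.B

/-- `IsKummerExt` is invariant under isomorphisms of `K`-algebras. -/
theorem kte_of_algEquiv {K : Type*} [Field K] {E E' : Type*} [Field E] [Algebra K E] [Field E']
    [Algebra K E'] {p : ℕ} {W : Subgroup Kˣ} (e : E ≃ₐ[K] E') (h : IsKummerExt p W E) :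
    IsKummerExt p W E' where
  gen := by
    have himg : (e : E →ₐ[K] E') '' kumRoots p W E = kumRoots p W E' := by
      ext x
      constructor
      · rintro ⟨y, ⟨a, ha, hy⟩, rfl⟩
        refine ⟨a, ha, ?_⟩
        show (e y) ^ p = _
        rw [← map_pow, hy, AlgEquiv.commutes]
      · rintro ⟨a, ha, hx⟩
        refine ⟨e.symm x, ⟨a, ha, ?_⟩, by simp⟩
        rw [← map_pow, hx, AlgEquiv.commutes]
    rw [← himg, ← adjoin_map, h.gen]
    rw [← AlgHom.fieldRange_eq_map]
    exact AlgHom.fieldRange_eq_top.2 e.surjective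
  root := fun a ha => by
    obtain ⟨β, hβ⟩ := h.root a ha
    exact ⟨e β, by rw [← map_pow, hβ, AlgEquiv.commutes]⟩

section

variable (p : ℕ) (K : QbarField) (W : Subgroup (↥K)ˣ)

/-- `K ≤ K(W^{1/p})` -/
theorem kte_le : K ≤ (kumField p W (AlgebraicClosure ℚ)).restrictScalars ℚ := fun x hx =>
  (kumField p W (AlgebraicClosure ℚ)).algebraMap_mem ⟨x, hx⟩

/-- the identity of `K(W^{1/p})`, from the `IntermediateField` algebra structure over `K` to the
structure `B.algebraOfLe` -/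
def kteEquiv :
    letI := algebraOfLe (kte_le p K W)
    ↥(kumField p W (AlgebraicClosure ℚ)) ≃ₐ[↥K]
      ↥((kumField p W (AlgebraicClosure ℚ)).restrictScalars ℚ) :=
  letI := algebraOfLe (kte_le p K W)
  { RingEquiv.refl ↥(kumField p W (AlgebraicClosure ℚ)) with
    commutes' := fun _ => rfl }

/-- `K(W^{1/p}) ⊂ ℚ̄` is a Kummer extension of `K` for the algebra structure `B.algebraOfLe`. -/
theorem kte_isKummerExt (hp : p ≠ 0) :
    letI := algebraOfLe (kte_le p K W)
    IsKummerExt p W ↥((kumField p W (AlgebraicClosure ℚ)).restrictScalars ℚ) := by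
  letI := algebraOfLe (kte_le p K W)
  have hroot : ∀ a ∈ W, ∃ β : AlgebraicClosure ℚ,
      β ^ p = algebraMap ↥K (AlgebraicClosure ℚ) (a : ↥K) := fun a _ =>
    IsAlgClosed.exists_pow_nat_eq _ (Nat.pos_of_ne_zero hp)
  exact kte_of_algEquiv (kteEquiv p K W) (isKummerExt_kumField (Ω := AlgebraicClosure ℚ) hroot)

end

end Fermat.Agent.PT.X

end


end ZBPT_023_7

/-! ### bundled: `Fermat.Agent.PT.X.KummerRam` -/
section ZBPT_023_8
/-
PT-X, piece X-UNR (helper81): Kummer extensions by Selmer elements are unramified outside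
`S ∋ p`.  `stmtKummerUnram : StmtKummerUnram`.

Proof.  `e(P | 𝔭) = #I_P` (`G.uo_card_inertia`).  Let `σ ∈ I_P` and `β^p = a ∈ W`.  Then
`σ β = ξ β` with `ξ^p = 1`.  As `p ∣ ord_𝔭(a)` there is `c ∈ Kˣ` with `w(c β) = 1`
(`w` the valuation of `P`).  The congruence `σ x ≡ x mod P` extends from `𝓞 L` to the valuation
ring of `w`, so `w((ξ - 1) c β) < 1`, i.e. `w(ξ - 1) < 1`.  If `ξ ≠ 1` then
`p = ∑_{i<p} (1 - ξ^i)` has `w(p) < 1`, but `p ∉ P`.  Hence `σ β = β` for all generators, `σ = 1`.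
-/

set_option autoImplicit false
set_option linter.unusedSectionVars false
set_option linter.style.haveILetI false

noncomputable section

namespace Fermat.Agent.PT.X

open NumberField IsDedekindDomain Fermat.Agent.PT.G Fermat.Agent.PT.G1

section General

variable {K L : Type} [Field K] [NumberField K] [Field L] [NumberField L] [Algebra K L]

/-- The action of `Gal(L/K)` on `𝓞 L` is the restriction of the action on `L`. -/
theorem kram_coe_smul (σ : L ≃ₐ[K] L) (x : 𝓞 L) : ((σ • x : 𝓞 L) : L) = σ (x : L) := rfl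

/-- An element of the inertia group of `P` moves no element of the valuation ring of `P`
modulo the maximal ideal. -/
theorem kram_val_sub_lt_one (P : HeightOneSpectrum (𝓞 L)) (σ : L ≃ₐ[K] L)
    (hσ : σ ∈ P.asIdeal.inertia (L ≃ₐ[K] L)) (y : L) (hy : P.valuation L y ≤ 1) :
    P.valuation L (σ y - y) < 1 := by
  obtain ⟨n, d, h⟩ := P.exists_primeCompl_mul_eq_of_integer y hy
  have hd : (d : 𝓞 L) ∉ P.asIdeal := d.2
  have hσd : σ • (d : 𝓞 L) ∉ P.asIdeal := fun hmem => hd (by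
    have h1 := hσ (d : 𝓞 L)
    have h2 := P.asIdeal.sub_mem hmem h1
    simpa using h2)
  have h1 : σ y * algebraMap (𝓞 L) L (σ • (d : 𝓞 L)) = algebraMap (𝓞 L) L (σ • n) := by
    have := congrArg σ h
    rw [map_mul] at this
    exact this
  have key : (σ y - y) * (algebraMap (𝓞 L) L (d : 𝓞 L) * algebraMap (𝓞 L) L (σ • (d : 𝓞 L))) =
      algebraMap (𝓞 L) L ((σ • n - n) * d - n * (σ • (d : 𝓞 L) - d)) := by
    simp only [map_sub, map_mul]
    linear_combination (algebraMap (𝓞 L) L (d : 𝓞 L)) * h1 -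
      (algebraMap (𝓞 L) L (σ • (d : 𝓞 L))) * h
  have hmem : (σ • n - n) * d - n * (σ • (d : 𝓞 L) - d) ∈ P.asIdeal :=
    P.asIdeal.sub_mem (P.asIdeal.mul_mem_right _ (hσ n)) (P.asIdeal.mul_mem_left _ (hσ d))
  have hlt : P.valuation L
      (algebraMap (𝓞 L) L ((σ • n - n) * d - n * (σ • (d : 𝓞 L) - d))) < 1 :=
    (HeightOneSpectrum.valuation_lt_one_iff_mem (K := L) P _).2 hmem
  rw [← key, map_mul, map_mul,
    (HeightOneSpectrum.valuation_eq_one_iff_notMem (K := L) P).2 hd,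
    (HeightOneSpectrum.valuation_eq_one_iff_notMem (K := L) P).2 hσd, mul_one, mul_one] at hlt
  exact hlt

/-- If `ξ ≠ 1` is a `p`-th root of unity with `w(ξ - 1) < 1` then `w(p) < 1`. -/
theorem kram_val_natCast_lt_one {Γ₀ : Type*} [LinearOrderedCommGroupWithZero Γ₀]
    (w : Valuation L Γ₀) (p : ℕ) (ξ : L) (hξ : ξ ^ p = 1) (hξ1 : ξ ≠ 1)
    (hw : w (ξ - 1) < 1) : w (p : L) < 1 := by
  have hsum : ∑ i ∈ Finset.range p, ξ ^ i = 0 := by
    have h := geom_sum_mul ξ p
    rw [hξ, sub_self] at h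
    rcases mul_eq_zero.1 h with h | h
    · exact h
    · exact absurd (sub_eq_zero.1 h) hξ1
  have hpow : ∀ i : ℕ, w (ξ ^ i - 1) < 1 := by
    intro i
    induction i with
    | zero => simp
    | succ i ih =>
      have e : ξ ^ (i + 1) - 1 = ξ * (ξ ^ i - 1) + (ξ - 1) := by ring
      rw [e]
      refine Valuation.map_add_lt w ?_ hw
      rw [map_mul]
      have hξw : w ξ ≤ 1 := by
        have h0 : w (ξ - 1 + 1) ≤ max (w (ξ - 1)) (w 1) := w.map_add _ _
        rw [sub_add_cancel, map_one] at h0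
        exact h0.trans (max_le hw.le le_rfl)
      calc w ξ * w (ξ ^ i - 1) ≤ 1 * w (ξ ^ i - 1) := by gcongr
        _ = w (ξ ^ i - 1) := one_mul _
        _ < 1 := ih
  have hp : (p : L) = - ∑ i ∈ Finset.range p, (ξ ^ i - 1) := by
    rw [Finset.sum_sub_distrib, hsum, Finset.sum_const, Finset.card_range, nsmul_one]
    ring
  rw [hp, Valuation.map_neg]
  exact Valuation.map_sum_lt w one_ne_zero fun i _ => hpow i

end General

section Main

variable {K L : Type} [Field K] [NumberField K] [Field L] [NumberField L] [Algebra K L]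

/-- Scaling a `p`-th root of a Selmer element to a unit at `P`. -/
theorem kram_exists_scale (p : ℕ) (hp : p ≠ 0) (P : HeightOneSpectrum (𝓞 L)) (a : Kˣ)
    (ha : (p : ℤ) ∣ ordAt (primeUnder K P) a) (β : L) (hβ : β ^ p = algebraMap K L (a : K)) :
    ∃ c : Kˣ, P.valuation L (algebraMap K L (c : K) * β) = 1 := by
  obtain ⟨m, hm⟩ := ha
  obtain ⟨π, hπ⟩ := (primeUnder K P).valuation_exists_uniformizer K
  have hπ0 : π ≠ 0 := by
    rintro rfl
    rw [map_zero] at hπ
    exact WithZero.exp_ne_zero hπ.symm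
  let πu : Kˣ := Units.mk0 π hπ0
  have hπu : (primeUnder K P).valuationOfNeZero πu = Multiplicative.ofAdd (-1 : ℤ) := by
    rw [← WithZero.coe_inj, HeightOneSpectrum.valuationOfNeZero_eq]
    exact hπ
  let c : Kˣ := πu ^ (-m)
  have hc : (primeUnder K P).valuationOfNeZero (c ^ p * a) = 1 := by
    rw [map_mul, map_pow, map_zpow, hπu, valuationOfNeZero_eq_ordAt, hm]
    apply Multiplicative.toAdd.injective
    simp only [toAdd_mul, toAdd_pow, toAdd_zpow, toAdd_ofAdd, toAdd_one]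
    simp only [smul_eq_mul, nsmul_eq_mul]
    ring
  refine ⟨c, ?_⟩
  have h1 : (algebraMap K L (c : K) * β) ^ p = algebraMap K L ((c ^ p * a : Kˣ) : K) := by
    rw [mul_pow, hβ, ← map_pow, ← map_mul]
    simp
  have h2 : P.valuation L (algebraMap K L (c : K) * β) ^ p = 1 := by
    rw [← map_pow, h1, valuation_algebraMap_eq_pow, ← HeightOneSpectrum.valuationOfNeZero_eq,
      hc]
    simp
  exact (pow_eq_one_iff_of_nonneg zero_le hp).1 h2

/-- An element of the inertia group of `P` (off `p`) fixes every `p`-th root of an element of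
`K` whose order at `P ∩ K` is divisible by `p`. -/
theorem kram_inertia_fixes_root (p : ℕ) (hp : p ≠ 0) (P : HeightOneSpectrum (𝓞 L))
    (hpP : (p : 𝓞 L) ∉ P.asIdeal) (σ : L ≃ₐ[K] L)
    (hσ : σ ∈ P.asIdeal.inertia (L ≃ₐ[K] L)) (a : Kˣ)
    (ha : (p : ℤ) ∣ ordAt (primeUnder K P) a) (β : L) (hβ : β ^ p = algebraMap K L (a : K)) :
    σ β = β := by
  by_contra hne
  have hβ0 : β ≠ 0 := kum_root_ne_zero hp hβ
  obtain ⟨c, hc⟩ := kram_exists_scale p hp P a ha β hβ
  set ξ : L := σ β / β with hξdef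
  have hξβ : σ β = ξ * β := by rw [hξdef, div_mul_cancel₀ _ hβ0]
  have hξp : ξ ^ p = 1 := by
    rw [hξdef, div_pow, ← map_pow, hβ, AlgEquiv.commutes, div_self]
    rw [← hβ]
    exact pow_ne_zero _ hβ0
  have hξ1 : ξ ≠ 1 := by
    intro h
    apply hne
    rw [hξβ, h, one_mul]
  have hlt := kram_val_sub_lt_one P σ hσ (algebraMap K L (c : K) * β) hc.le
  have e : σ (algebraMap K L (c : K) * β) - algebraMap K L (c : K) * β =
      (ξ - 1) * (algebraMap K L (c : K) * β) := by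
    rw [map_mul, AlgEquiv.commutes, hξβ]
    ring
  rw [e, map_mul, hc, mul_one] at hlt
  have hp1 := kram_val_natCast_lt_one (P.valuation L) p ξ hξp hξ1 hlt
  have hp2 : P.valuation L (algebraMap (𝓞 L) L (p : 𝓞 L)) = 1 :=
    (HeightOneSpectrum.valuation_eq_one_iff_notMem (K := L) P).2 hpP
  rw [map_natCast] at hp2
  rw [hp2] at hp1
  exact lt_irrefl _ hp1

end Main

/-- **X-UNR**: Kummer extensions by Selmer elements are unramified outside `S ∋ p`. -/
theorem stmtKummerUnram : StmtKummerUnram := by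
  intro p _ S hpS K L _ _ _ _ _ _ ζ hζ W hW hKum P
  have hp : p.Prime := Fact.out
  have hp0 : p ≠ 0 := hp.ne_zero
  obtain ⟨P, hP⟩ := P
  show ramIdx K P = 1
  have hpP : (p : 𝓞 L) ∉ P.asIdeal := by
    intro hmem
    apply hP
    obtain ⟨q, hqS, hqp⟩ := hpS
    have hdvd : (q : ℕ) ∣ sProd S := Finset.dvd_prod_of_mem (fun q : Nat.Primes => (q : ℕ)) hqS
    rw [hqp] at hdvd
    obtain ⟨c, hc⟩ := hdvd
    rw [hc, Nat.cast_mul]
    exact Ideal.mul_mem_right _ _ hmem
  rw [← uo_card_inertia (K := K) P]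
  have hbot : P.asIdeal.inertia (L ≃ₐ[K] L) = ⊥ := by
    rw [Subgroup.eq_bot_iff_forall]
    intro σ hσ
    apply AlgEquiv.ext
    intro x
    have hx : x ∈ IntermediateField.adjoin K (kumRoots p W L) := by rw [hKum.gen]; trivial
    show σ x = x
    induction hx using IntermediateField.adjoin_induction with
    | mem x hx =>
      obtain ⟨a, haW, ha⟩ := hx
      exact kram_inertia_fixes_root p hp0 P hpP σ hσ a
        (hW haW (⟨primeUnder K P, fun h => hP ((natCast_mem_primeUnder_iff K L P _).1 h)⟩ :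
          OffS S K)) x ha
    | algebraMap x => rw [AlgEquiv.commutes]
    | add x y _ _ hx hy => rw [map_add, hx, hy]
    | inv x _ hx => rw [map_inv₀, hx]
    | mul x y _ _ hx hy => rw [map_mul, hx, hy]
  rw [hbot]
  exact Subgroup.card_bot

end Fermat.Agent.PT.X

end


end ZBPT_023_8

/-! ### bundled: `Fermat.Agent.PT.B.CmLoc` -/
section ZBPT_023_9
/-
PT-B, piece B-cmloc (helper11): the datum axiom `cm_loc` for `JlocQ q = ℚ̄_qˣ`.
`(G_{ℚ_q}/V, (ℚ̄_qˣ)^V) ≅ (Gal(K'/ℚ_q), K'ˣ)` (LocLevelField.lean), which has a `p`-fundamental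
class (PT-L `fundClass`); transport by `stmtFundPIso`.
-/

set_option autoImplicit false
set_option linter.style.haveILetI false

noncomputable section

namespace Fermat.Agent.PT.B

open Fermat.Agent.PT CategoryTheory groupCohomology ExtCitation

/-- **B-cmloc**. -/
theorem stmtCmLoc : StmtCmLoc := by
  intro p _ q _ V _ hV
  obtain ⟨K', hfin, hgal, hVK⟩ := cmLoc_exists_field q V hV
  subst hVK
  haveI := hfin
  haveI := hgal
  obtain ⟨e⟩ := cmLoc_pairIso q K'
  haveI : Finite (GQq q ⧸ K'.fixingSubgroup) := by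
    haveI := (towerLoc q).finiteIndex _ hV
    infer_instance
  exact stmtFundPIso p _ _ _ _ ⟨e.toPairPIso p⟩ (Fermat.Agent.PT.L.fundClass q p ℚ_[q] ↥K')

end Fermat.Agent.PT.B

end


end ZBPT_023_9

/-! ### bundled: `Fermat.Agent.PT.X.JCount` -/
section ZBPT_023_10
/-
PT-X piece X-J (helper74): the semilocal count
`[J_K : p J_K] ≤ p ^ (2 #{P | S} + [K : ℚ])` for `μ_p ⊂ K`, `p ∈ S`.

`J_K = ∏_{q ∈ S} (ℚ_q ⊗ K)ˣ`, `(ℚ_q ⊗ K)ˣ ≅ ∏_𝔪 (A/𝔪)ˣ` (`G1.tensAddEquiv`), the local count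
`[Fˣ : Fˣᵖ] ≤ p ^ (2 + [F : ℚ_q]·[q = p])` (`L.stmtPowCard`), `Σ_𝔪 [A/𝔪 : ℚ_q] = [K : ℚ]`,
`#MaxSpec (ℚ_q ⊗ K) = #{P | q}` (`G1.stmtMaxSpecCount`), `Σ_q #{P | q} = #{P | S}`
(`G1.stmtPrimeSplit`).
-/

set_option autoImplicit false

namespace Fermat.Agent.PT.X

open NumberField IsDedekindDomain Fermat.Agent.PT.G Fermat.Agent.PT.G1 Fermat.Agent.PT
open TensorProduct

section local_

variable (q : ℕ) [Fact q.Prime] (p : ℕ) [Fact p.Prime] (K : Type) [Field K] [NumberField K]

/-- the local count at a maximal ideal of `ℚ_q ⊗ K` -/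
theorem jc_local (ζ : K) (hζ : IsPrimitiveRoot ζ p) (t : MaximalSpectrum (semiAlg q K)) :
    (nMul p (Additive (semiAlg q K ⧸ t.asIdeal)ˣ)).index ≠ 0 ∧
    (nMul p (Additive (semiAlg q K ⧸ t.asIdeal)ˣ)).index ≤
      p ^ (2 + if q = p then Module.finrank ℚ_[q] (semiAlg q K ⧸ t.asIdeal) else 0) := by
  have := t.isMaximal
  let _ : Field (semiAlg q K ⧸ t.asIdeal) := Ideal.Quotient.field _
  let ι : K →+* (semiAlg q K ⧸ t.asIdeal) :=
    (Ideal.Quotient.mk t.asIdeal).comp
      (Algebra.TensorProduct.includeRight : K →ₐ[ℚ] semiAlg q K).toRingHom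
  have hζ' : IsPrimitiveRoot (ι ζ) p := hζ.map_of_injective ι.injective
  rw [jc_index_nMul_additive]
  refine ⟨?_, L.stmtPowCard q p (semiAlg q K ⧸ t.asIdeal) (ι ζ) hζ'⟩
  have := L.stmtPowFinite q p (semiAlg q K ⧸ t.asIdeal)
  exact this.index_ne_zero

/-- `Σ_𝔪 [A/𝔪 : ℚ_q] = [K : ℚ]` for `A = ℚ_q ⊗ K`. -/
theorem jc_sum_finrank [Fintype (MaximalSpectrum (semiAlg q K))] :
    ∑ t : MaximalSpectrum (semiAlg q K), Module.finrank ℚ_[q] (semiAlg q K ⧸ t.asIdeal) =
      Module.finrank ℚ K := by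
  have hred : IsReduced (semiAlg q K) := tens_semiAlg_isReduced q K
  have hart : IsArtinianRing (semiAlg q K) := tens_semiAlg_isArtinian q K
  have e : semiAlg q K ≃ₗ[ℚ_[q]] (∀ t : MaximalSpectrum (semiAlg q K), semiAlg q K ⧸ t.asIdeal) :=
    ((IsArtinianRing.equivPi (semiAlg q K)).restrictScalars ℚ_[q]).toLinearEquiv
  have h1 := e.finrank_eq
  have hfree : ∀ t : MaximalSpectrum (semiAlg q K),
      Module.Free ℚ_[q] (semiAlg q K ⧸ t.asIdeal) := fun t => Module.Free.of_divisionRing _ _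
  have hfin : ∀ t : MaximalSpectrum (semiAlg q K),
      Module.Finite ℚ_[q] (semiAlg q K ⧸ t.asIdeal) := fun t => Module.Finite.quotient _ _
  rw [Module.finrank_pi_fintype ℚ_[q]] at h1
  rw [← h1]
  exact Module.finrank_baseChange

/-- `#MaxSpec(ℚ_q ⊗ K) = #{P | q}`. -/
theorem jc_card_maxSpec :
    Nat.card (MaximalSpectrum (semiAlg q K)) = (primesAbove q K).ncard := by
  have h := stmtMaxSpecCount q K (1 : K ≃ₐ[ℚ] K)
  have h1 : fixedMax q (1 : K ≃ₐ[ℚ] K) = {𝔪 : Ideal (semiAlg q K) | 𝔪.IsMaximal} := by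
    ext 𝔪
    constructor
    · rintro ⟨hm, -⟩
      exact hm
    · intro hm
      exact ⟨hm, fun x hx => by rw [tens_semiMap_one]; exact hx⟩
  have h2 : fixedPrimesAbove q ((1 : K ≃ₐ[ℚ] K) : K ≃+* K) = primesAbove q K := by
    ext P
    constructor
    · rintro ⟨hP, hq, -⟩
      exact ⟨hP, hq⟩
    · rintro ⟨hP, hq⟩
      refine ⟨hP, hq, fun x hx => ?_⟩
      have : RingOfIntegers.mapRingEquiv ((1 : K ≃ₐ[ℚ] K) : K ≃+* K) x = x := by
        apply RingOfIntegers.ext
        rfl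
      rw [this]
      exact hx
  rw [h1, h2] at h
  rw [← h, ← Nat.card_coe_set_eq]
  exact Nat.card_congr
    { toFun := fun t => ⟨t.asIdeal, t.isMaximal⟩
      invFun := fun 𝔪 => ⟨𝔪.1, 𝔪.2⟩
      left_inv := fun _ => rfl
      right_inv := fun _ => rfl }

/-- the count for `(ℚ_q ⊗ K)ˣ` -/
theorem jc_semi (ζ : K) (hζ : IsPrimitiveRoot ζ p) :
    (nMul p (Additive (semiAlg q K)ˣ)).index ≠ 0 ∧
    (nMul p (Additive (semiAlg q K)ˣ)).index ≤
      p ^ (2 * (primesAbove q K).ncard + if q = p then Module.finrank ℚ K else 0) := by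
  classical
  have hred : IsReduced (semiAlg q K) := tens_semiAlg_isReduced q K
  have hart : IsArtinianRing (semiAlg q K) := tens_semiAlg_isArtinian q K
  let _ : Fintype (MaximalSpectrum (semiAlg q K)) := Fintype.ofFinite _
  have hidx : (nMul p (Additive (semiAlg q K)ˣ)).index =
      ∏ t : MaximalSpectrum (semiAlg q K),
        (nMul p (Additive (semiAlg q K ⧸ t.asIdeal)ˣ)).index := by
    rw [jc_index_nMul_congr (tensAddEquiv (semiAlg q K)) p, jc_index_nMul_pi]
  rw [hidx]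
  refine ⟨Finset.prod_ne_zero_iff.2 fun t _ => (jc_local q p K ζ hζ t).1, ?_⟩
  refine (Finset.prod_le_prod' fun t _ => (jc_local q p K ζ hζ t).2).trans ?_
  rw [Finset.prod_pow_eq_pow_sum]
  apply Nat.pow_le_pow_right (Fact.out : p.Prime).pos
  rw [Finset.sum_add_distrib, Finset.sum_const, Finset.card_univ, smul_eq_mul,
    ← Nat.card_eq_fintype_card, jc_card_maxSpec, mul_comm]
  apply Nat.add_le_add_left
  split_ifs with h
  · exact (jc_sum_finrank q K).le
  · simp

end local_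

/-! ### The product over `S` -/

section global_

variable (p : ℕ) [Fact p.Prime] (S : Finset Nat.Primes) (K : Type) [Field K] [NumberField K]

/-- `Σ_{q ∈ S} #{P | q} = #{P | ∏ S}` -/
theorem jc_sum_primes :
    ∑ q : ↥S, (primesAbove ((q : Nat.Primes) : ℕ) K).ncard = (primesAbove (sProd S) K).ncard := by
  have h := stmtPrimeSplit K (RingEquiv.refl K) S
  have h2 : ∀ N : ℕ, fixedPrimesAbove N (RingEquiv.refl K) = primesAbove N K := by
    intro N
    ext P
    constructor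
    · rintro ⟨hP, hq, -⟩
      exact ⟨hP, hq⟩
    · rintro ⟨hP, hq⟩
      refine ⟨hP, hq, fun x hx => ?_⟩
      have : RingOfIntegers.mapRingEquiv (RingEquiv.refl K) x = x := by
        apply RingOfIntegers.ext
        rfl
      rw [this]
      exact hx
  simp only [h2] at h
  rw [sProd, h]
  exact Finset.sum_coe_sort S fun q => (primesAbove (q : ℕ) K).ncard

/-- **X-J**. -/
theorem stmtJCount : StmtJCount := by
  classical
  intro p _ S hpS K _ _ ζ hζ
  obtain ⟨q₀, hq₀S, hq₀⟩ := hpS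
  have hidx : (nMul p (Additive (JL S K))).index =
      ∏ q : ↥S, (nMul p (Additive (semiAlg ((q : Nat.Primes) : ℕ) K)ˣ)).index := by
    rw [jc_index_nMul_congr (jmAddEquiv S K) p, jc_index_nMul_pi]
  rw [hidx]
  refine ⟨Finset.prod_ne_zero_iff.2 fun q _ => (jc_semi _ p K ζ hζ).1, ?_⟩
  refine (Finset.prod_le_prod' fun q _ => (jc_semi _ p K ζ hζ).2).trans ?_
  rw [Finset.prod_pow_eq_pow_sum]
  apply Nat.pow_le_pow_right (Fact.out : p.Prime).pos
  rw [Finset.sum_add_distrib, ← Finset.mul_sum, jc_sum_primes]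
  apply Nat.add_le_add_left
  have h1 : ∀ q : ↥S, (if ((q : Nat.Primes) : ℕ) = p then Module.finrank ℚ K else 0) =
      if q = ⟨q₀, hq₀S⟩ then Module.finrank ℚ K else 0 := by
    intro q
    have : (((q : Nat.Primes) : ℕ) = p) ↔ q = ⟨q₀, hq₀S⟩ := by
      constructor
      · intro h
        apply Subtype.ext
        apply Subtype.ext
        rw [h, hq₀]
      · rintro rfl
        exact hq₀
    simp only [this]
  simp only [h1]
  rw [Finset.sum_ite_eq' Finset.univ (⟨q₀, hq₀S⟩ : ↥S)]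
  simp

end global_

end Fermat.Agent.PT.X


end ZBPT_023_10

/-! ### bundled: `Fermat.Agent.PT.G3.GBSDFund` -/
section ZBPT_023_11
/-
PT-GB, piece sdFund (helper74): `stmtSDFund_of : StmtSDGalois → StmtSDFund`.

The local module `sdY q N t` (units of the residue field `(ℚ_q ⊗ N)/t` with the action of the
decomposition group) has a `p`-fundamental class: PT-L `fundClass` for `(ℚ_q ⊗ N)/t` over `ℚ_q`,
transported along the isomorphism `sdRes` (PT-B `stmtFundPIso`).
-/

set_option autoImplicit false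
set_option linter.unusedSectionVars false

noncomputable section

namespace Fermat.Agent.PT.G3

open CategoryTheory groupCohomology NumberField IsDedekindDomain
open Fermat.Agent.PT Fermat.Agent.PT.G Fermat.Agent.PT.G1

/-- the isomorphism of pairs `(D_t, sdY) ≅ (Gal(((ℚ_q ⊗ N)/t)/ℚ_q), units)` -/
def sdFund_pairIso (q : ℕ) [Fact q.Prime] (N : Type) [Field N] [NumberField N]
    (t : MaximalSpectrum (semiAlg q N)) (hbij : Function.Bijective (sdRes q N t)) :
    Fermat.Agent.PT.B.PairIso (sdY q N t) (Rep.ofAlgebraAutOnUnits ℚ_[q] (sdField q N t)) where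
  φ := MulEquiv.ofBijective (sdRes q N t) hbij
  f := AddEquiv.refl _
  comm := fun _ _ => rfl

/-- **gb-sdfund**: the local module `sdY` has a `p`-fundamental class. -/
theorem stmtSDFund_of (hGal : StmtSDGalois) : StmtSDFund := by
  intro p _ q _ N _ _ _ t
  obtain ⟨hfd, hgal, hbij⟩ := hGal q N t
  have hu := Fermat.Agent.PT.L.fundClass q p ℚ_[q] (sdField q N t)
  exact Fermat.Agent.PT.B.stmtFundPIso p _ _ (sdY q N t)
    (Rep.ofAlgebraAutOnUnits ℚ_[q] (sdField q N t))
    ⟨(sdFund_pairIso q N t hbij).toPairPIso p⟩ hu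

end Fermat.Agent.PT.G3

end
end ZBPT_023_11
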