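/- GENERATED FILE (helper35, build-time optimisation, NOTES/ZB.md): verbatim concatenation of the modules
   Fermat.Agent.PT.A.TN
   Do not edit; do not import together with these modules. -/
import Fermat.Agent.ZB.PT_002

/-! ### bundled: `Fermat.Agent.PT.A.TN` -/
section ZBPT_025_0
/-
PT-A, final assembly (helper9):
* `stmtTNadd_of_pieces : StmtTNp → StmtRedR → StmtRedL → StmtSylow → StmtTNadd`
  (Sylow reduction of Tate–Nakayama (0,2) to the `p`-group case);
* `stmtTN'_of_TNadd : StmtTNadd → StmtTN'` (back to `Module.Free`/`Module.Finite`/`normHom`).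
-/

set_option autoImplicit false

namespace Fermat.Agent.PT

open CategoryTheory groupCohomology

variable {G : Type} [Group G]

section

attribute [local instance 1100] Rep.hV2

namespace TNAux

/-- Decomposition of a sum over `G` along a subgroup `P`: if all the coset sums
`∑ π : P, F (t * π)` are equal to `c`, then `∑ γ, F γ = [G : P] • c`. -/
lemma sum_eq_index_smul [Fintype G] {A : Type*} [AddCommGroup A] (P : Subgroup G)
    [Fintype P] (F : G → A) (c : A)
    (h : ∀ t : G, ∑ π : P, F (t * (π : G)) = c) : ∑ γ : G, F γ = P.index • c := by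
  classical
  obtain ⟨S, hS, -⟩ := Subgroup.exists_isComplement_left P 1
  have : Fintype S := Fintype.ofFinite _
  have hbij : Function.Bijective (fun x : S × P => (x.1 : G) * (x.2 : G)) := hS
  rw [← hbij.sum_comp F, Fintype.sum_prod_type]
  simp only [h]
  rw [Finset.sum_const, Finset.card_univ, ← Nat.card_eq_fintype_card, hS.card_left]

end TNAux

/-- **Sylow reduction**: Tate–Nakayama `(0,2)` for a finite group with a `p`-fundamental class
follows from the `p`-group case. -/
theorem stmtTNadd_of_pieces (hTNp : StmtTNp) (hRR : StmtRedR) (hRL : StmtRedL)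
    (hSyl : StmtSylow) : StmtTNadd := by
  intro p _ G _ _ C u hu M hM
  classical
  obtain ⟨P⟩ : Nonempty (Sylow p G) := inferInstance
  let _ : Fintype (P : Subgroup G) := Fintype.ofFinite _
  have hfund : IsFundClass (Rep.res (P : Subgroup G).subtype C)
      ((resSub C (P : Subgroup G) 2).hom u) :=
    ⟨hu.h1 _ P.isPGroup', hu.h2_card _ P.isPGroup', hu.h2_gen _ P.isPGroup'⟩
  have hMP : IsZFree (Rep.res (P : Subgroup G).subtype M) := hM
  obtain ⟨hR, hL⟩ := hTNp p (P : Subgroup G) P.isPGroup' _ _ hfund _ hMP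
  refine ⟨?_, ?_⟩
  · intro y hy hkill
    apply hSyl p G M P 2 y (by norm_num) hy
    apply hR
    intro g'
    exact hRR p G P C u hu M y hkill g'
  · intro g hg
    obtain ⟨h', hh'⟩ := hL ((Rep.resFunctor (P : Subgroup G).subtype).map g)
      (hRL p G P C u hu M g hg)
    refine ⟨(P : Subgroup G).index, h', P.not_dvd_index, ?_⟩
    intro m
    rw [normAdd_apply]
    symm
    apply TNAux.sum_eq_index_smul (P : Subgroup G) (fun γ => C.ρ γ (h' (M.ρ γ⁻¹ m))) (g.hom m)
    intro t
    have key := hh' (M.ρ t⁻¹ m)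
    rw [normAdd_apply] at key
    have h2 : C.ρ t (g.hom (M.ρ t⁻¹ m)) = g.hom m := by
      rw [← Rep.hom_comm_apply]
      simp
    rw [← h2]
    change _ = C.ρ t (((Rep.resFunctor (P : Subgroup G).subtype).map g).hom (M.ρ t⁻¹ m))
    rw [key, map_sum]
    refine Finset.sum_congr rfl fun π _ => ?_
    simp [mul_inv_rev]

end

/-- From the instance-free form back to the form of `Plan.lean`. -/
theorem stmtTN'_of_TNadd (h : StmtTNadd) : StmtTN' := by
  intro p _ G _ _ C u hu M hfree hfin
  have hM : IsZFree M :=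
    ⟨_, ⟨(Module.finBasis ℤ M.V).equivFun.toAddEquiv⟩⟩
  obtain ⟨hR, hL⟩ := h p G C u hu M hM
  refine ⟨hR, ?_⟩
  intro g hg
  obtain ⟨n, h', hn, hh'⟩ := hL g hg
  refine ⟨n, addToLin h', hn, ?_⟩
  intro m
  rw [hh' m, normAdd_apply]
  simp [normHom, LinearMap.sum_apply]

end Fermat.Agent.PT


end ZBPT_025_0
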