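/- GENERATED FILE (helper35, build-time optimisation, NOTES/ZB.md): verbatim concatenation of the modules
   Fermat.Agent.PT.A.TNp
   Do not edit; do not import together with these modules. -/
import Fermat.Agent.ZB.PT_002

/-! ### bundled: `Fermat.Agent.PT.A.TNp` -/
section ZBPT_026_0
/-
PT-A, assembly of the `p`-group case (helper9):
`StmtTN0 → StmtDS → StmtD00 → StmtD00' → StmtNormZero → StmtTNp`.
-/

set_option autoImplicit false

namespace Fermat.Agent.PT

open CategoryTheory groupCohomology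

attribute [local instance 1100] Rep.hV2

variable {G : Type} [Group G]

namespace TNpAux

lemma push₂_comp {A B C : Rep.{0} ℤ G} (f : A ⟶ B) (g : B ⟶ C) (y : H2 A) :
    (push₂ (f ≫ g)).hom y = (push₂ g).hom ((push₂ f).hom y) := by
  have h : push₂ (f ≫ g) = push₂ f ≫ push₂ g := groupCohomology.map_id_comp f g 2
  rw [h]
  rfl

lemma push₂_zsmul {A B : Rep.{0} ℤ G} (f : A ⟶ B) (k : ℤ) : push₂ (k • f) = k • push₂ f := by
  change (HomologicalComplex.homologyFunctor _ _ 2).map ((cochainsFunctor ℤ G).map (k • f)) =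
    k • (HomologicalComplex.homologyFunctor _ _ 2).map ((cochainsFunctor ℤ G).map f)
  rw [Functor.map_zsmul, Functor.map_zsmul]

lemma push₂_zsmul_id (C : Rep.{0} ℤ G) (k : ℤ) (y : H2 C) :
    (push₂ (k • 𝟙 C)).hom y = k • y := by
  have h : push₂ (k • 𝟙 C) = k • 𝟙 (H2 C) := by
    rw [push₂_zsmul]
    congr 1
    exact groupCohomology.map_id 2
  rw [h]
  rfl

lemma sum_zsmul' {A : Type*} [AddCommGroup A] {ι : Type*} (s : Finset ι) (f : ι → ℤ) (c : A) :
    (∑ i ∈ s, f i) • c = ∑ i ∈ s, f i • c := by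
  exact map_sum (zmultiplesHom A c) f s

lemma mul_comp_ev (N C : Rep.{0} ℤ G) (x : N.V →+ ℤ)
    (hx : ∀ (g : G) (m : N.V), x (N.ρ g m) = x m) (m : N.V) (hm : ∀ g : G, N.ρ g m = m) :
    mulHom N C x hx ≫ evHom N C m hm = (x m) • 𝟙 C := by
  apply Rep.hom_ext
  ext c
  simp only [Rep.hom_comp]
  change (evHom N C m hm).hom ((mulHom N C x hx).hom c) = _
  rw [evHom_apply, mulHom_apply]
  rfl

/-- The order of a fundamental class is `|G|`. -/
lemma dvd_of_zsmul_eq_zero [Fintype G] {C : Rep.{0} ℤ G} {u : H2 C} (hu : IsFundClass C u)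
    {k : ℤ} (hk : k • u = 0) : (Fintype.card G : ℤ) ∣ k := by
  have hgen : ∀ x : H2 C, x ∈ AddSubgroup.zmultiples u := by
    intro x
    obtain ⟨n, hn⟩ := hu.h2_gen x
    exact ⟨n, hn⟩
  have hord : addOrderOf u = Nat.card (H2 C) := addOrderOf_eq_card_of_forall_mem_zmultiples hgen
  rw [hu.h2_card, Nat.card_eq_fintype_card] at hord
  rw [← hord]
  exact (addOrderOf_dvd_iff_zsmul_eq_zero).2 hk

end TNpAux

open TNpAux

theorem stmtTNp_of_pieces (hTN0 : StmtTN0) (hDS : StmtDS) (hD : StmtD00) (hD' : StmtD00')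
    (hN0 : StmtNormZero) : StmtTNp := by
  intro p _ G _ _ hG C u hu M hM
  obtain ⟨M₂, dM, dH, ε, hM₂, hε, hdM, hdH, hkM, hkH, hcompat⟩ := hDS G M C hM
  have hε2 : ∀ z : H2 C, ε • z = 0 → z = 0 := by
    intro z hz
    rcases hε with h | h
    · simpa [h] using hz
    · simpa [h] using hz
  refine ⟨?_, ?_⟩
  · -- right kernel
    intro y hy
    obtain ⟨m, rfl⟩ := hdM y
    rw [hkM]
    apply hD G M₂ hM₂ m.1 m.2
    intro x hx
    apply dvd_of_zsmul_eq_zero hu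
    -- x m • u = ev_m ((mul x)_* u)
    have h1 : (push₂ (evHom M₂ C m.1 m.2)).hom ((push₂ (mulHom M₂ C x hx)).hom u) = (x m.1) • u := by
      rw [← push₂_comp, mul_comp_ev, push₂_zsmul_id]
    rw [← h1]
    obtain ⟨g, hg⟩ := hdH ((push₂ (mulHom M₂ C x hx)).hom u)
    rw [← hg, hcompat g m, hy g]
    exact zsmul_zero ε
  · -- left kernel
    intro g hg
    rw [← hkH]
    obtain ⟨x, hx, hζ⟩ := hTN0 p G hG C u hu M₂ hM₂ (dH g)
    have hdiv : ∀ m : M₂.V, (∀ γ : G, M₂.ρ γ m = m) → (Fintype.card G : ℤ) ∣ x m := by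
      intro m hm
      apply dvd_of_zsmul_eq_zero hu
      have h1 : (push₂ (evHom M₂ C m hm)).hom ((push₂ (mulHom M₂ C x hx)).hom u) = (x m) • u := by
        rw [← push₂_comp, mul_comp_ev, push₂_zsmul_id]
      rw [← h1, ← hζ, hcompat g ⟨m, hm⟩, hg]
      exact zsmul_zero ε
    obtain ⟨ξ, hξ⟩ := hD' G M₂ hM₂ x hx hdiv
    rw [hζ]
    apply hN0 G C (homRep M₂ C) (mulHom M₂ C x hx)
    refine ⟨mulAdd M₂ C ξ, ?_⟩
    intro c
    apply DFunLike.ext
    intro m
    rw [mulHom_apply, normAdd_apply, hξ]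
    change _ = (∑ γ : G, (homRep M₂ C).ρ γ ((mulAdd M₂ C ξ) (C.ρ γ⁻¹ c)) : M₂.V →+ C.V) m
    rw [AddMonoidHom.finsetSum_apply, sum_zsmul']
    rw [← Equiv.sum_comp (Equiv.inv G)]
    refine Finset.sum_congr rfl fun γ _ => ?_
    change _ = C.ρ γ ((mulAdd M₂ C ξ) (C.ρ γ⁻¹ c) (M₂.ρ γ⁻¹ m))
    rw [mulAdd_apply]
    simp

end Fermat.Agent.PT


end ZBPT_026_0
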