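/- GENERATED FILE (helper35, build-time optimisation, NOTES/ZB.md): verbatim concatenation of the modules
   Fermat.Agent.PT.A.D00
   Do not edit; do not import together with these modules. -/
import Fermat.Agent.ZB.PT_002

/-! ### bundled: `Fermat.Agent.PT.A.D00` -/
section ZBPT_029_0
/-
PT-A, piece D00 (helper81): elementary duality in degree `(0,0)`.

* `d00_pure`, `d00'_pure` : the statements for an abelian group `A ≃+ ℤⁿ` with an action of a finite
  group by additive maps (no `Rep`, no `Module` instances in the statements).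
* `stmtD00 : StmtD00`, `stmtD00' : StmtD00'`.
-/

set_option autoImplicit false
set_option linter.unusedVariables false
set_option linter.unusedSectionVars false

namespace Fermat.Agent.PT

section Pure

variable {G : Type} [Group G] [Fintype G] {A : Type} [AddCommGroup A]

/-- `A ≃+ ℤⁿ` is torsion-free. -/
theorem d00_torsionFree {n : ℕ} (e : A ≃+ (Fin n → ℤ)) (k : ℤ) (a : A) (hk : k ≠ 0)
    (h : k • a = 0) : a = 0 := by
  have h1 : k • e a = 0 := by rw [← map_zsmul, h, map_zero]
  have h2 : e a = 0 := by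
    ext i
    have := congrFun h1 i
    simpa [hk] using this
  exact e.injective (by rw [h2, map_zero])

/-- the norm `ν = ∑ g, act g` is invariant under precomposition with the action -/
theorem d00_norm_act (act : G → A →+ A) (hmul : ∀ g h a, act (g * h) a = act g (act h a))
    (g : G) (a : A) : ∑ h : G, act h (act g a) = ∑ h : G, act h a := by
  simp_rw [← hmul]
  exact Fintype.sum_bijective (· * g) (Group.mulRight_bijective g) _ _ (fun h => rfl)

/-- **D00, pure form.** -/
theorem d00_pure {n : ℕ} (e : A ≃+ (Fin n → ℤ)) (act : G → A →+ A)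
    (hmul : ∀ g h a, act (g * h) a = act g (act h a))
    (m : A) (hm : ∀ g, act g m = m)
    (hx : ∀ x : A →+ ℤ, (∀ g a, x (act g a) = x a) → (Fintype.card G : ℤ) ∣ x m) :
    ∃ a : A, m = ∑ γ : G, act γ a := by
  classical
  have hfin : Module.Finite ℤ A := Module.Finite.equiv e.toIntLinearEquiv.symm
  -- the norm
  let ν : A →+ A := ∑ g : G, act g
  have hν : ∀ a, ν a = ∑ g, act g a := fun a => by simp [ν]
  have hνact : ∀ g a, ν (act g a) = ν a := fun g a => by
    rw [hν, hν]; exact d00_norm_act act hmul g a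
  -- the augmentation submodule
  let D : Submodule ℤ A := Submodule.span ℤ {d | ∃ g a, d = act g a - a}
  have hνD : ∀ d ∈ D, ν d = 0 := by
    intro d hd
    induction hd using Submodule.span_induction with
    | mem d hd =>
      obtain ⟨g, a, rfl⟩ := hd
      rw [map_sub, hνact, sub_self]
    | zero => exact map_zero ν
    | add x y _ _ hx hy => rw [map_add, hx, hy, add_zero]
    | smul k x _ hx => rw [map_zsmul, hx, smul_zero]
  -- coinvariants modulo torsion
  let T : Submodule ℤ (A ⧸ D) := Submodule.torsion ℤ (A ⧸ D)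
  let π : A →ₗ[ℤ] ((A ⧸ D) ⧸ T) := T.mkQ ∘ₗ D.mkQ
  have hπsurj : Function.Surjective π := (T.mkQ_surjective).comp D.mkQ_surjective
  have hfree : Module.Free ℤ ((A ⧸ D) ⧸ T) := Module.free_of_finite_type_torsion_free'
  let b := Module.Free.chooseBasis ℤ ((A ⧸ D) ⧸ T)
  have hπact : ∀ g a, π (act g a) = π a := by
    intro g a
    have h0 : D.mkQ (act g a - a) = 0 :=
      (Submodule.Quotient.mk_eq_zero D).mpr (Submodule.subset_span ⟨g, a, rfl⟩)
    have h1 : π (act g a - a) = 0 := by
      show T.mkQ (D.mkQ (act g a - a)) = 0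
      rw [h0, map_zero]
    rw [map_sub] at h1
    exact sub_eq_zero.mp h1
  have hdiv : ∀ i, (Fintype.card G : ℤ) ∣ b.repr (π m) i := by
    intro i
    have := hx ((b.coord i ∘ₗ π).toAddMonoidHom) (fun g a => by
      show b.coord i (π (act g a)) = b.coord i (π a)
      rw [hπact])
    exact this
  choose c hc using hdiv
  obtain ⟨a, ha⟩ := hπsurj (∑ i, c i • b i)
  have h1 : π (m - (Fintype.card G : ℤ) • a) = 0 := by
    rw [map_sub, map_zsmul, ha, Finset.smul_sum, sub_eq_zero]
    conv_lhs => rw [← b.sum_repr (π m)]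
    refine Finset.sum_congr rfl fun i _ => ?_
    rw [hc i, smul_smul]
  have h2 : D.mkQ (m - (Fintype.card G : ℤ) • a) ∈ T :=
    (Submodule.Quotient.mk_eq_zero T).mp h1
  rw [Submodule.mem_torsion_iff] at h2
  obtain ⟨k, hk⟩ := h2
  have h3 : (k : ℤ) • (m - (Fintype.card G : ℤ) • a) ∈ D := by
    rw [← Submodule.Quotient.mk_eq_zero D]
    exact hk
  have h4 := hνD _ h3
  rw [map_zsmul] at h4
  have h5 : ν (m - (Fintype.card G : ℤ) • a) = 0 :=
    d00_torsionFree e k _ (nonZeroDivisors.coe_ne_zero k) h4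
  have h6 : ν m = (Fintype.card G : ℤ) • m := by
    rw [hν]
    simp [hm, Finset.sum_const, Finset.card_univ]
  have h7 : (Fintype.card G : ℤ) • (m - ν a) = 0 := by
    rw [smul_sub, ← h6, ← map_zsmul ν, ← map_sub]
    exact h5
  have hcard : (Fintype.card G : ℤ) ≠ 0 := by
    exact_mod_cast Fintype.card_ne_zero
  have h8 : m - ν a = 0 := d00_torsionFree e _ _ hcard h7
  exact ⟨a, by rw [← hν]; exact sub_eq_zero.mp h8⟩

/-- **D00', pure form.** -/
theorem d00'_pure {n : ℕ} (e : A ≃+ (Fin n → ℤ)) (act : G → A →+ A)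
    (hmul : ∀ g h a, act (g * h) a = act g (act h a))
    (x : A →+ ℤ) (hx : ∀ g a, x (act g a) = x a)
    (hdiv : ∀ m : A, (∀ g, act g m = m) → (Fintype.card G : ℤ) ∣ x m) :
    ∃ ξ : A →+ ℤ, ∀ a : A, x a = ∑ γ : G, ξ (act γ a) := by
  classical
  have hfin : Module.Finite ℤ A := Module.Finite.equiv e.toIntLinearEquiv.symm
  have hcard : (Fintype.card G : ℤ) ≠ 0 := by
    exact_mod_cast Fintype.card_ne_zero
  -- the invariants
  let I : Submodule ℤ A :=
    { carrier := {m | ∀ g, act g m = m}
      add_mem' := fun {a b} ha hb g => by rw [map_add, ha g, hb g]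
      zero_mem' := fun g => map_zero _
      smul_mem' := fun k a ha g => by rw [map_zsmul, ha g] }
  have hI : ∀ m, m ∈ I ↔ ∀ g, act g m = m := fun m => Iff.rfl
  -- `A ⧸ I` is torsion-free
  have htf : ∀ (k : ℤ) (q : A ⧸ I), k ≠ 0 → k • q = 0 → q = 0 := by
    intro k q hk hq
    obtain ⟨a, rfl⟩ := I.mkQ_surjective q
    have h1 : k • a ∈ I := by
      rw [← Submodule.Quotient.mk_eq_zero I]
      exact hq
    have h2 : a ∈ I := by
      intro g
      have h3 := h1 g
      rw [map_zsmul] at h3
      have h4 : k • (act g a - a) = 0 := by rw [smul_sub, h3, sub_self]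
      exact sub_eq_zero.mp (d00_torsionFree e k _ hk h4)
    exact (Submodule.Quotient.mk_eq_zero I).mpr h2
  have hTF : Module.IsTorsionFree ℤ (A ⧸ I) :=
    ⟨fun r hr y₁ y₂ h => by
      have hr0 : r ≠ 0 := hr.ne_zero
      have h1 : r • (y₁ - y₂) = 0 := by
        rw [smul_sub]
        exact sub_eq_zero.mpr h
      exact sub_eq_zero.mp (htf r _ hr0 h1)⟩
  have hfree : Module.Free ℤ (A ⧸ I) := Module.free_of_finite_type_torsion_free'
  obtain ⟨s, hs⟩ := Module.projective_lifting_property I.mkQ (LinearMap.id : (A ⧸ I) →ₗ[ℤ] (A ⧸ I))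
    I.mkQ_surjective
  have hs' : ∀ q, I.mkQ (s q) = q := fun q => by
    have := congrArg (fun f : (A ⧸ I) →ₗ[ℤ] (A ⧸ I) => f q) hs
    simpa using this
  -- the retraction onto `I`
  let r : A →+ A := (LinearMap.id - s ∘ₗ I.mkQ : A →ₗ[ℤ] A).toAddMonoidHom
  have hr : ∀ a, r a = a - s (I.mkQ a) := fun a => rfl
  have hrI : ∀ a, r a ∈ I := by
    intro a
    rw [← Submodule.Quotient.mk_eq_zero I, hr]
    have : I.mkQ (a - s (I.mkQ a)) = 0 := by rw [map_sub, hs', sub_self]
    exact this
  have hr_of_mem : ∀ a ∈ I, r a = a := by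
    intro a ha
    have h0 : I.mkQ a = 0 := (Submodule.Quotient.mk_eq_zero I).mpr ha
    rw [hr, h0, map_zero, sub_zero]
  have hdvd : ∀ a, (Fintype.card G : ℤ) ∣ x (r a) := fun a => hdiv _ ((hI _).mp (hrI a))
  let ξ : A →+ ℤ :=
    { toFun := fun a => x (r a) / (Fintype.card G : ℤ)
      map_zero' := by simp
      map_add' := fun a b => by
        show x (r (a + b)) / (Fintype.card G : ℤ) = _
        rw [map_add, map_add, Int.add_ediv_of_dvd_left (hdvd a)] }
  have hξ : ∀ a, ξ a = x (r a) / (Fintype.card G : ℤ) := fun a => rfl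
  refine ⟨ξ, fun a => ?_⟩
  have hνI : (∑ γ : G, act γ a) ∈ I := by
    intro g
    rw [map_sum]
    simp_rw [← hmul]
    exact Fintype.sum_bijective (g * ·) (Group.mulLeft_bijective g) _ _ (fun h => rfl)
  rw [← map_sum, hξ, hr_of_mem _ hνI, map_sum]
  simp_rw [hx]
  rw [Finset.sum_const, Finset.card_univ, nsmul_eq_mul, Int.mul_ediv_cancel_left _ hcard]

end Pure

/-! ### the statements of `Plan2.lean` -/

section Stmt

attribute [local instance 1100] Rep.hV2

theorem d00_actAdd_mul {G : Type} [Group G] (N : Rep.{0} ℤ G) (g h : G) (a : N.V) :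
    actAdd N (g * h) a = actAdd N g (actAdd N h a) := by
  simp only [actAdd_apply, map_mul]
  rfl

theorem stmtD00 : StmtD00 := by
  intro G _ _ N hfree m hm hx
  obtain ⟨n, ⟨e⟩⟩ := hfree
  exact d00_pure e (fun g => actAdd N g) (d00_actAdd_mul N) m hm hx

theorem stmtD00' : StmtD00' := by
  intro G _ _ N hfree x hx hdiv
  obtain ⟨n, ⟨e⟩⟩ := hfree
  exact d00'_pure e (fun g => actAdd N g) (d00_actAdd_mul N) x hx hdiv

end Stmt

end Fermat.Agent.PT


end ZBPT_029_0
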