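/- GENERATED FILE (helper35, build-time optimisation, NOTES/ZB.md): verbatim concatenation of the modules
   Fermat.Agent.PT.A.NormZero
   Fermat.Agent.PT.A.DSWI
   Do not edit; do not import together with these modules. -/
import Fermat.Agent.ZB.PT_002
import Fermat.Agent.ZB.PT_022

/-! ### bundled: `Fermat.Agent.PT.A.NormZero` -/
section ZBPT_030_0
/-
PT-A piece `NORM0` (helper60): push-forward along the norm of an additive map is zero on `H²`.

For a `2`-cocycle `y` of `M` and `g = N(h) = ∑ γ, γ ∘ h ∘ γ⁻¹` put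
`b σ = ∑ γ, γ • h (y (γ⁻¹, σ))`. The cocycle identity at `(γ⁻¹, σ, τ)` gives
`γ⁻¹ • y (σ, τ) = y (γ⁻¹ σ, τ) - y (γ⁻¹, σ τ) + y (γ⁻¹, σ)`, hence
`g (y (σ, τ)) = σ • b τ - b (σ τ) + b σ`, i.e. `g ∘ y = d b`.
-/

set_option autoImplicit false

namespace Fermat.Agent.PT

open CategoryTheory groupCohomology

attribute [local instance 1100] Rep.hV2

/-- The `1`-cochain `b σ = ∑ γ, γ • h (y (γ⁻¹, σ))` bounding `N(h) ∘ y`. -/
noncomputable def normZeroCochain {G : Type} [Group G] [Fintype G] (M C : Rep.{0} ℤ G)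
    (h : M.V →+ C.V) (y : G × G → M.V) : G → C.V :=
  fun σ => ∑ γ : G, C.ρ γ (h (y (γ⁻¹, σ)))

/-- The key identity `N(h) (y (σ, τ)) = σ • b τ - b (σ τ) + b σ` for a `2`-cocycle `y`. -/
theorem normZero_key {G : Type} [Group G] [Fintype G] (M C : Rep.{0} ℤ G)
    (h : M.V →+ C.V) (y : G × G → M.V) (hy : y ∈ cocycles₂ M) (σ τ : G) :
    normAdd M C h (y (σ, τ)) =
      C.ρ σ (normZeroCochain M C h y τ) - normZeroCochain M C h y (σ * τ) +
        normZeroCochain M C h y σ := by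
  have hcoc : ∀ γ : G, M.ρ γ⁻¹ (y (σ, τ)) =
      y (γ⁻¹ * σ, τ) - y (γ⁻¹, σ * τ) + y (γ⁻¹, σ) := by
    intro γ
    have := (mem_cocycles₂_def y).1 hy γ⁻¹ σ τ
    rw [sub_eq_zero] at this
    rw [← sub_eq_zero, ← this]
    abel
  have h1 : C.ρ σ (normZeroCochain M C h y τ) =
      ∑ γ : G, C.ρ γ (h (y (γ⁻¹ * σ, τ))) := by
    simp only [normZeroCochain, map_sum]
    refine Fintype.sum_equiv (Equiv.mulLeft σ) _ _ fun δ => ?_
    simp only [Equiv.coe_mulLeft, mul_inv_rev, inv_mul_cancel_right, map_mul,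
      Module.End.mul_apply]
  rw [normAdd_apply, h1]
  simp only [normZeroCochain, ← Finset.sum_sub_distrib, ← Finset.sum_add_distrib]
  refine Finset.sum_congr rfl fun γ _ => ?_
  rw [hcoc γ]
  simp only [map_add, map_sub]

/-- **(NORM0)** Push-forward along the norm of an additive map is zero on `H²`. -/
theorem stmtNormZero : StmtNormZero := by
  intro G _ _ M C g hg y
  obtain ⟨h, hgh⟩ := hg
  induction y using H2_induction_on with
  | h x =>
    have key := H2π_comp_map_apply (MonoidHom.id G) g x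
    rw [key, H2π_eq_zero_iff]
    refine ⟨normZeroCochain M C h x, ?_⟩
    funext στ
    obtain ⟨σ, τ⟩ := στ
    have h2 := normZero_key M C h x x.2 σ τ
    simp only [d₁₂_hom_apply]
    rw [← h2, ← hgh]
    rfl

end Fermat.Agent.PT


end ZBPT_030_0

/-! ### bundled: `Fermat.Agent.PT.A.DSWI` -/
section ZBPT_030_1
/-
PT-A piece `DS`, sub-piece `DS-WI` (helper9): weakly injective modules.
`stmtWI0`, `stmtWI1`, `stmtWI2`, `stmtHomWI`.
-/

set_option autoImplicit false

namespace Fermat.Agent.PT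

open CategoryTheory groupCohomology

attribute [local instance 1100] Rep.hV2

/-- **(DS-WI0)** In a weakly injective module every invariant is a norm. -/
theorem stmtWI0 : StmtWI0 := by
  intro G _ _ X hX x hx
  obtain ⟨h, hh⟩ := hX
  refine ⟨h x, ?_⟩
  have := hh x
  simp only [hx] at this
  exact this.symm

/-- **(DS-WI1)** `H¹` of a weakly injective module vanishes. -/
theorem stmtWI1 : StmtWI1 := by
  intro G _ _ X hX
  obtain ⟨h, hh⟩ := hX
  refine ⟨fun a b => ?_⟩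
  suffices H : ∀ x : H1 X, x = 0 by rw [H a, H b]
  intro x
  induction x using H1_induction_on with
  | h y =>
    rw [H1π_eq_zero_iff]
    have hcoc : ∀ σ τ : G, y (σ * τ) = X.ρ σ (y τ) + y σ := (mem_cocycles₁_iff y).1 y.2
    refine ⟨-∑ γ : G, X.ρ γ (h (X.ρ γ⁻¹ (y γ))), ?_⟩
    funext σ
    have h1 : X.ρ σ (∑ γ : G, X.ρ γ (h (X.ρ γ⁻¹ (y γ)))) =
        ∑ γ : G, X.ρ γ (h (X.ρ γ⁻¹ (y γ - y σ))) := by
      rw [map_sum]
      refine Fintype.sum_equiv (Equiv.mulLeft σ) _ _ fun δ => ?_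
      have e1 : y (σ * δ) - y σ = X.ρ σ (y δ) := by rw [hcoc]; abel
      simp only [Equiv.coe_mulLeft, e1, mul_inv_rev, map_mul, Module.End.mul_apply]
      congr 2
      rw [← Module.End.mul_apply, ← map_mul]
      simp
    have h2 : ∑ γ : G, X.ρ γ (h (X.ρ γ⁻¹ (y γ - y σ))) =
        ∑ γ : G, X.ρ γ (h (X.ρ γ⁻¹ (y γ))) - y σ := by
      simp only [map_sub, Finset.sum_sub_distrib]
      rw [hh (y σ)]
    simp only [d₀₁_hom_apply, map_neg]
    rw [h1, h2]
    abel

/-- **(DS-WI2)** `H²` of a weakly injective module vanishes. -/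
theorem stmtWI2 : StmtWI2 := by
  intro G _ _ X hX
  obtain ⟨h, hh⟩ := hX
  have hN : IsNormHom (𝟙 X) := by
    refine ⟨h, fun m => ?_⟩
    rw [normAdd_apply, hh m]
    rfl
  have key := stmtNormZero G X X (𝟙 X) hN
  refine ⟨fun a b => ?_⟩
  suffices H : ∀ x : H2 X, x = 0 by rw [H a, H b]
  intro x
  have hx := key x
  have hid : push₂ (𝟙 X) = 𝟙 (H2 X) := groupCohomology.map_id 2
  rw [hid] at hx
  exact hx

/-- **(DS-HomWI)** `Hom(E, C)` is weakly injective when `E` is. -/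
theorem stmtHomWI : StmtHomWI := by
  intro G _ _ E C hE
  obtain ⟨h, hh⟩ := hE
  refine ⟨preAdd C.V h, fun φ => ?_⟩
  change ∑ γ : G, (homRepρ E C γ) (preAdd C.V h ((homRepρ E C γ⁻¹) φ)) = φ
  ext e
  rw [AddMonoidHom.finsetSum_apply]
  have : ∀ γ : G, ((homRepρ E C γ) (preAdd C.V h ((homRepρ E C γ⁻¹) φ))) e =
      φ (E.ρ γ (h (E.ρ γ⁻¹ e))) := by
    intro γ
    simp only [homRepρ_apply, preAdd_apply, inv_inv]
    rw [← Module.End.mul_apply, ← map_mul]
    simp
  simp only [this]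
  rw [← map_sum, hh e]

end Fermat.Agent.PT


end ZBPT_030_1
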