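/- GENERATED FILE (helper35, build-time optimisation, NOTES/ZB.md): verbatim concatenation of the modules
   Fermat.Agent.PT.F.SeqKappa
   Do not edit; do not import together with these modules. -/
import Fermat.Agent.ZB.PT_002

/-! ### bundled: `Fermat.Agent.PT.F.SeqKappa` -/
section ZBPT_041_0
/-
PT-F §6, piece S0b (helper61): `stmtKappa : StmtKappa`.

`κ(a)(m) = ((ε m) a).val • ζ` is additive in `a` and in `m`, `G`-equivariant, injective, and onto
the additive maps `M₀ → E` vanishing on `M₁`.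
-/

set_option autoImplicit false

noncomputable section

namespace Fermat.Agent.PT.F

open CategoryTheory groupCohomology Fermat.Agent.PT

section KapAux

variable {p : ℕ} [Fact p.Prime] {E : Type} [AddCommGroup E]

/-- `x ↦ x.val • ζ` -/
def kapVal (ζ : E) (x : ZMod p) : E := x.val • ζ

omit [Fact p.Prime] in
lemma kap_mod_nsmul {ζ : E} (hζ : p • ζ = 0) (n : ℕ) : (n % p) • ζ = n • ζ := by
  conv_rhs => rw [← Nat.mod_add_div n p]
  rw [add_nsmul, mul_nsmul, hζ, smul_zero, add_zero]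

lemma kapVal_natCast {ζ : E} (hζ : p • ζ = 0) (n : ℕ) : kapVal ζ (n : ZMod p) = n • ζ := by
  rw [kapVal, ZMod.val_natCast, kap_mod_nsmul hζ]

lemma kapVal_add {ζ : E} (hζ : p • ζ = 0) (x y : ZMod p) :
    kapVal ζ (x + y) = kapVal ζ x + kapVal ζ y := by
  rw [kapVal, kapVal, kapVal, ZMod.val_add, kap_mod_nsmul hζ, add_nsmul]

lemma kapVal_mul {ζ : E} (hζ : p • ζ = 0) (x y : ZMod p) :
    kapVal ζ (x * y) = x.val • kapVal ζ y := by
  rw [kapVal, kapVal, ZMod.val_mul, kap_mod_nsmul hζ, mul_nsmul']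

lemma kapVal_eq_zero {ζ : E} (hζ : p • ζ = 0) (hne : ζ ≠ 0) {x : ZMod p}
    (hx : kapVal ζ x = 0) : x = 0 := by
  have hp : p.Prime := Fact.out
  have h1 : addOrderOf ζ ∣ p := addOrderOf_dvd_of_nsmul_eq_zero hζ
  have h2 : addOrderOf ζ = p := by
    rcases (Nat.dvd_prime hp).1 h1 with h | h
    · exact absurd (AddMonoid.addOrderOf_eq_one_iff.1 h) hne
    · exact h
  have h3 : p ∣ x.val := h2 ▸ addOrderOf_dvd_of_nsmul_eq_zero (x := ζ) (n := x.val) hx
  have h4 : x.val = 0 := Nat.eq_zero_of_dvd_of_lt h3 (ZMod.val_lt x)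
  exact (ZMod.val_eq_zero x).1 h4

lemma kapVal_injective {ζ : E} (hζ : p • ζ = 0) (hne : ζ ≠ 0) :
    Function.Injective (kapVal (p := p) ζ) := by
  intro x y hxy
  have h : kapVal ζ (x - y) = 0 := by
    have h1 := kapVal_add hζ (x - y) y
    rw [sub_add_cancel, hxy] at h1
    have h2 : kapVal ζ (x - y) + kapVal ζ y = 0 + kapVal ζ y := by rw [zero_add]; exact h1.symm
    exact add_right_cancel h2
  exact sub_eq_zero.1 (kapVal_eq_zero hζ hne h)

end KapAux

section KapMain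

variable {p : ℕ} [Fact p.Prime] {G : Type} [Group G] {ι : Type} {Gloc : ι → Type}
  [∀ v, Group (Gloc v)] (D : PTDatum p G ι Gloc)
  (A : Rep.{0} (ZMod p) G) (P : Presentation D.𝒯 (A.dualTwist D.χ))

/-- the augmentation with values in the dual of `A` -/
def kapEps : P.M₀.V →+ Module.Dual (ZMod p) A.V := P.ε

lemma kappaFun_eq (a : A.V) (m : P.M₀.V) :
    kappaFun D A P a m = kapVal D.ζ (kapEps D A P m a) := rfl

lemma kap_add_left (a b : A.V) (m : P.M₀.V) :
    kappaFun D A P (a + b) m = kappaFun D A P a m + kappaFun D A P b m := by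
  rw [kappaFun_eq, kappaFun_eq, kappaFun_eq, map_add, kapVal_add D.ζ_tors]

lemma kap_add_right (a : A.V) (m m' : P.M₀.V) :
    kappaFun D A P a (m + m') = kappaFun D A P a m + kappaFun D A P a m' := by
  rw [kappaFun_eq, kappaFun_eq, kappaFun_eq, map_add, LinearMap.add_apply,
    kapVal_add D.ζ_tors]

lemma kapEps_ρ (σ : G) (m : P.M₀.V) (a : A.V) :
    kapEps D A P (P.M₀.ρ σ m) a = (D.χ σ : ZMod p) * kapEps D A P m (A.ρ σ⁻¹ a) := by
  have h := P.ε_ρ σ m
  have h2 : kapEps D A P (P.M₀.ρ σ m) = (D.χ σ : ZMod p) • (kapEps D A P m ∘ₗ A.ρ σ⁻¹) := h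
  rw [h2]
  rfl

lemma kap_equivariant (σ : G) (a : A.V) (m : P.M₀.V) :
    kappaFun D A P (A.ρ σ a) m = D.E.ρ σ (kappaFun D A P a (P.M₀.ρ σ⁻¹ m)) := by
  rw [kappaFun_eq, kappaFun_eq, kapEps_ρ, inv_inv, kapVal_mul D.ζ_tors]
  set y : ZMod p := kapEps D A P m (A.ρ σ a) with hy
  have h1 : D.E.ρ σ (kapVal D.ζ y) = kapVal D.ζ (y * (D.χ σ : ZMod p)) := by
    rw [kapVal_mul D.ζ_tors]
    show D.E.ρ σ (y.val • D.ζ) = y.val • ((D.χ σ : ZMod p).val • D.ζ)
    rw [map_nsmul, D.ζ_char]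
  rw [map_nsmul, h1, ← kapVal_mul D.ζ_tors]
  congr 1
  rw [map_inv, mul_comm y, ← mul_assoc, Units.inv_mul, one_mul]

lemma kapEps_surjective : Function.Surjective (kapEps D A P) := P.ε_surjective

lemma kap_injective (a : A.V) (h : ∀ m, kappaFun D A P a m = 0) : a = 0 := by
  refine (Module.forall_dual_apply_eq_zero_iff (ZMod p) a).1 fun f => ?_
  obtain ⟨m, rfl⟩ := kapEps_surjective D A P f
  exact kapVal_eq_zero D.ζ_tors D.ζ_ne (h m)

lemma kapEps_eq_zero_iff (m : P.M₀.V) :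
    kapEps D A P m = 0 ↔ ∃ m₁ : P.M₁.V, P.inc.hom m₁ = m := P.exact m

lemma kapEps_nsmul (m : P.M₀.V) : kapEps D A P (p • m) = 0 := by
  rw [map_nsmul]
  exact ZModModule.char_nsmul_eq_zero p _

lemma kap_surjective [FiniteDimensional (ZMod p) A.V] (h : P.M₀.V →+ D.E.V)
    (hh : ∀ m₁, h (P.inc.hom m₁) = 0) : ∃ a : A.V, ∀ m, kappaFun D A P a m = h m := by
  -- `h` kills the kernel of `ε`
  have hker : ∀ m, kapEps D A P m = 0 → h m = 0 := by
    intro m hm
    obtain ⟨m₁, rfl⟩ := (kapEps_eq_zero_iff D A P m).1 hm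
    exact hh m₁
  have hfac : ∀ m m', kapEps D A P m = kapEps D A P m' → h m = h m' := by
    intro m m' hmm
    have : h (m - m') = 0 := hker _ (by rw [map_sub, hmm, sub_self])
    rwa [map_sub, sub_eq_zero] at this
  -- values are `p`-torsion, hence multiples of `ζ`
  have htors : ∀ m, p • h m = 0 := by
    intro m
    rw [← map_nsmul]
    exact hker _ (kapEps_nsmul D A P m)
  choose n hn using fun m => D.ζ_gen (h m) (htors m)
  choose sec hsec using kapEps_surjective D A P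
  have hval : ∀ m, h m = kapVal D.ζ ((n m : ℕ) : ZMod p) := by
    intro m
    rw [kapVal_natCast D.ζ_tors]
    exact hn m
  -- the induced map on the dual
  let φ₀ : Module.Dual (ZMod p) A.V → ZMod p := fun f => ((n (sec f) : ℕ) : ZMod p)
  have hφ₀ : ∀ m, h m = kapVal D.ζ (φ₀ (kapEps D A P m)) := by
    intro m
    rw [← hval]
    exact hfac _ _ (hsec _).symm
  have hφ₀' : ∀ f, kapVal D.ζ (φ₀ f) = h (sec f) := fun f => (hval _).symm
  have hadd : ∀ f g, φ₀ (f + g) = φ₀ f + φ₀ g := by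
    intro f g
    apply kapVal_injective D.ζ_tors D.ζ_ne
    rw [kapVal_add D.ζ_tors, hφ₀', hφ₀', hφ₀', ← map_add]
    apply hfac
    rw [map_add, hsec, hsec, hsec]
  let φadd : Module.Dual (ZMod p) A.V →+ ZMod p := AddMonoidHom.mk' φ₀ hadd
  let φ : Module.Dual (ZMod p) (Module.Dual (ZMod p) A.V) := φadd.toZModLinearMap p
  refine ⟨(Module.evalEquiv (ZMod p) A.V).symm φ, fun m => ?_⟩
  rw [kappaFun_eq, hφ₀ m]
  congr 1
  exact Module.apply_evalEquiv_symm_apply (ZMod p) A.V (kapEps D A P m) φ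

end KapMain

/-- **S0b**. -/
theorem stmtKappa : StmtKappa := by
  intro p _ G _ ι _ Gloc _ D A _ P
  exact ⟨kap_add_left D A P, kap_add_right D A P, kap_equivariant D A P, kap_injective D A P,
    kap_surjective D A P⟩

end Fermat.Agent.PT.F

end


end ZBPT_041_0
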