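/- GENERATED FILE (helper35, build-time optimisation, NOTES/ZB.md): verbatim concatenation of the modules
   Fermat.Agent.PT.F.SeqExactH2
   Fermat.Agent.PT.F.SeqDelUnique
   Do not edit; do not import together with these modules. -/
import Fermat.Agent.ZB.PT_002
import Fermat.Agent.ZB.PT_041
import Fermat.Agent.ZB.PT_032

/-! ### bundled: `Fermat.Agent.PT.F.SeqExactH2` -/
section ZBPT_042_0
/-
PT-F §6 piece S8 `StmtExactH2` (helper86): exactness of the sequence at `H²_lev(G, A)`.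

`stmtExactH2_of : StmtKappa → StmtExactH2`.

Proof (blueprint §6 (F6d), sketch of helper55): for a level 2-cocycle `w` which is locally a level
coboundary, `y := i ∘ κ ∘ w` is a level 2-cocycle in `Hom(M₀, J)` killed by `p` and locally a
coboundary, so `y = d t` (In2); `π ∘ t` is a level 1-cocycle in `Hom(M₀, C)`, so
`n • π t = d⁰ c₀` (In1), `c₀ = π ∘ t₀`; `n • t - d⁰ t₀ = i ∘ z̃` with `d z̃ = κ (n • w)`;
`z := z̃ ∘ inc` is a 1-cocycle, locally a coboundary (In4), so `i z = d⁰ g̃` (In3 for `M₁`);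
`g := π ∘ g̃` is equivariant and `IsDel g (n • w)`; finally scale by `m` with `m n ≡ 1 mod p`.
-/

set_option autoImplicit false
set_option linter.style.haveILetI false
set_option linter.unusedSectionVars false

noncomputable section

namespace Fermat.Agent.PT.F.ExactH2

open CategoryTheory groupCohomology Fermat.Agent.PT

attribute [local instance 1100] Rep.hV2

/-! ### General algebra of `conjAdd`, `dZero`, `dOne` -/

section General

variable {G : Type} [Group G]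

lemma conjAdd_mul (M Y : Rep.{0} ℤ G) (σ τ : G) (h : M.V →+ Y.V) :
    conjAdd M Y (σ * τ) h = conjAdd M Y σ (conjAdd M Y τ h) := by
  ext m
  simp [mul_inv_rev]

lemma conjAdd_one (M Y : Rep.{0} ℤ G) (h : M.V →+ Y.V) : conjAdd M Y 1 h = h := by
  ext m
  simp

/-- post-composition with a morphism commutes with conjugation -/
lemma comp_conjAdd {Y Y' : Rep.{0} ℤ G} (f : Y ⟶ Y') (M : Rep.{0} ℤ G) (σ : G)
    (h : M.V →+ Y.V) :
    (homAdd f).comp (conjAdd M Y σ h) = conjAdd M Y' σ ((homAdd f).comp h) := by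
  ext m
  simp [Rep.hom_comm_apply]

/-- pre-composition with a morphism commutes with conjugation -/
lemma conjAdd_comp {M M' : Rep.{0} ℤ G} (f : M' ⟶ M) (Y : Rep.{0} ℤ G) (σ : G)
    (h : M.V →+ Y.V) :
    (conjAdd M Y σ h).comp (homAdd f) = conjAdd M' Y σ (h.comp (homAdd f)) := by
  ext m
  simp [Rep.hom_comm_apply]

lemma dZero_apply (M Y : Rep.{0} ℤ G) (h : M.V →+ Y.V) (σ : G) (m : M.V) :
    dZero M Y h σ m = Y.ρ σ (h (M.ρ σ⁻¹ m)) - h m := rfl

lemma dOne_apply (M Y : Rep.{0} ℤ G) (t : G → (M.V →+ Y.V)) (σ τ : G) (m : M.V) :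
    dOne M Y t (σ, τ) m = Y.ρ σ (t τ (M.ρ σ⁻¹ m)) - t (σ * τ) m + t σ m := rfl

lemma dOne_dZero (M Y : Rep.{0} ℤ G) (h : M.V →+ Y.V) (στ : G × G) :
    dOne M Y (dZero M Y h) στ = 0 := by
  obtain ⟨σ, τ⟩ := στ
  ext m
  simp only [dOne_apply, dZero_apply, map_sub, AddMonoidHom.zero_apply, mul_inv_rev, map_mul,
    Module.End.mul_apply]
  abel

lemma comp_dZero {Y Y' : Rep.{0} ℤ G} (f : Y ⟶ Y') (M : Rep.{0} ℤ G) (h : M.V →+ Y.V) (σ : G) :
    (homAdd f).comp (dZero M Y h σ) = dZero M Y' ((homAdd f).comp h) σ := by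
  ext m
  simp [dZero_apply, Rep.hom_comm_apply]

lemma dZero_comp {M M' : Rep.{0} ℤ G} (f : M' ⟶ M) (Y : Rep.{0} ℤ G) (h : M.V →+ Y.V) (σ : G) :
    (dZero M Y h σ).comp (homAdd f) = dZero M' Y (h.comp (homAdd f)) σ := by
  ext m
  simp [dZero_apply, Rep.hom_comm_apply]

lemma comp_dOne {Y Y' : Rep.{0} ℤ G} (f : Y ⟶ Y') (M : Rep.{0} ℤ G) (t : G → (M.V →+ Y.V))
    (στ : G × G) :
    (homAdd f).comp (dOne M Y t στ) = dOne M Y' (fun σ => (homAdd f).comp (t σ)) στ := by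
  obtain ⟨σ, τ⟩ := στ
  ext m
  simp [dOne_apply, Rep.hom_comm_apply]

lemma dOne_comp {M M' : Rep.{0} ℤ G} (f : M' ⟶ M) (Y : Rep.{0} ℤ G) (t : G → (M.V →+ Y.V))
    (στ : G × G) :
    (dOne M Y t στ).comp (homAdd f) = dOne M' Y (fun σ => (t σ).comp (homAdd f)) στ := by
  obtain ⟨σ, τ⟩ := στ
  ext m
  simp [dOne_apply, Rep.hom_comm_apply]

lemma dOne_sub (M Y : Rep.{0} ℤ G) (t t' : G → (M.V →+ Y.V)) (στ : G × G) :
    dOne M Y (fun σ => t σ - t' σ) στ = dOne M Y t στ - dOne M Y t' στ := by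
  obtain ⟨σ, τ⟩ := στ
  ext m
  simp only [dOne_apply, AddMonoidHom.sub_apply, map_sub]
  abel

lemma dOne_nsmul (M Y : Rep.{0} ℤ G) (n : ℕ) (t : G → (M.V →+ Y.V)) (στ : G × G) :
    dOne M Y (fun σ => n • t σ) στ = n • dOne M Y t στ := by
  obtain ⟨σ, τ⟩ := στ
  ext m
  simp only [dOne_apply, AddMonoidHom.nsmul_apply, map_nsmul, smul_add, smul_sub]

lemma dZero_nsmul (M Y : Rep.{0} ℤ G) (n : ℕ) (h : M.V →+ Y.V) (σ : G) :
    dZero M Y (n • h) σ = n • dZero M Y h σ := by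
  ext m
  simp only [dZero_apply, AddMonoidHom.nsmul_apply, map_nsmul, smul_sub]

end General


/-! ### The datum -/

section Datum

variable {p : ℕ} {G : Type} [Group G] {ι : Type} {Gloc : ι → Type}
  [∀ v, Group (Gloc v)] (D : PTDatum p G ι Gloc)

/-- `J` is discrete when there are finitely many places. -/
lemma ptj_isDiscrete [Finite ι] : IsDiscrete D.𝒯 (PTJ D) := by
  classical
  intro x
  choose U hU hUx using fun v => (x.2 v).2
  haveI := Fintype.ofFinite ι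
  refine ⟨Finset.univ.inf U, tower_finset_inf_mem D.𝒯 _ _ (fun v _ => hU v), fun s hs => ?_⟩
  apply Subtype.ext
  funext v g
  show x.1 v (g * s) = x.1 v g
  exact hUx v g s ((Finset.inf_le (Finset.mem_univ v) : Finset.univ.inf U ≤ U v) hs)

/-- the local embedding `E → J_v` as an additive map -/
def jAdd (v : ι) : D.E.V →+ (D.Jloc v).V :=
  AddMonoidHom.mk' (fun e => (D.j v).hom e) (fun a b => map_add (D.j v).hom a b)

@[simp] lemma jAdd_apply (v : ι) (e : D.E.V) : jAdd D v e = (D.j v).hom e := rfl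

lemma ev_i (v : ι) (e : D.E.V) : ev D v (D.i.hom e) = (D.j v).hom e := by
  rw [ev_apply, D.i_apply, map_one]
  rfl

lemma ev_comp_i (v : ι) : (ev D v).comp (homAdd D.i) = jAdd D v := by
  ext e
  exact ev_i D v e

lemma pi_i (e : D.E.V) : D.π.hom (D.i.hom e) = 0 := (D.exact _).2 ⟨e, rfl⟩

lemma pi_comp_i : (homAdd D.π).comp (homAdd D.i) = 0 := by
  ext e
  exact pi_i D e

/-- `j_v` intertwines conjugation by `r d` on `Hom(M, E)` with conjugation by `d` on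
`Hom(M, J_v)`. -/
lemma jAdd_comp_conjAdd (M : Rep.{0} ℤ G) (v : ι) (d : Gloc v) (h : M.V →+ D.E.V) :
    (jAdd D v).comp (conjAdd M D.E (D.r v d) h) =
      conjAdd (Rep.res (D.r v) M) (D.Jloc v) d ((jAdd D v).comp h) := by
  ext m
  simp only [AddMonoidHom.comp_apply, conjAdd_apply, jAdd_apply]
  have h1 := Rep.hom_comm_apply (D.j v) d (h (M.ρ (D.r v d)⁻¹ m))
  have h2 : (Rep.res (D.r v) M).ρ d⁻¹ m = M.ρ (D.r v d)⁻¹ m := by
    show M.ρ (D.r v d⁻¹) m = M.ρ (D.r v d)⁻¹ m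
    rw [map_inv]
  rw [h2]
  exact h1

lemma jAdd_comp_dOne (M : Rep.{0} ℤ G) (v : ι) (t : G → (M.V →+ D.E.V)) (dd : Gloc v × Gloc v) :
    (jAdd D v).comp (dOne M D.E t (D.r v dd.1, D.r v dd.2)) =
      dOne (Rep.res (D.r v) M) (D.Jloc v) (fun d => (jAdd D v).comp (t (D.r v d))) dd := by
  obtain ⟨d, d'⟩ := dd
  simp only [dOne, AddMonoidHom.comp_add, AddMonoidHom.comp_sub, jAdd_comp_conjAdd, map_mul]


/-! ### `κ` as an additive equivariant map -/

variable (A : Rep.{0} (ZMod p) G) (P : Presentation D.𝒯 (A.dualTwist D.χ))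

/-- the facts about `κ` (part of `StmtKappa`) used in this file -/
structure KFacts : Prop where
  add_a : ∀ (a b : A.V) (m : P.M₀.V),
    kappaFun D A P (a + b) m = kappaFun D A P a m + kappaFun D A P b m
  add_m : ∀ (a : A.V) (m m' : P.M₀.V),
    kappaFun D A P a (m + m') = kappaFun D A P a m + kappaFun D A P a m'
  equiv : ∀ (σ : G) (a : A.V) (m : P.M₀.V),
    kappaFun D A P (A.ρ σ a) m = D.E.ρ σ (kappaFun D A P a (P.M₀.ρ σ⁻¹ m))

variable {D A P}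

/-- `κ : A → Hom_ℤ(M₀, E)` as an additive map -/
def kap (hk : KFacts D A P) : A.V →+ (P.M₀.V →+ D.E.V) :=
  AddMonoidHom.mk' (fun a => AddMonoidHom.mk' (kappaFun D A P a) (hk.add_m a))
    (fun a b => by
      ext m
      exact hk.add_a a b m)

@[simp] lemma kap_apply (hk : KFacts D A P) (a : A.V) (m : P.M₀.V) :
    kap hk a m = kappaFun D A P a m := rfl

lemma kap_conj (hk : KFacts D A P) (σ : G) (a : A.V) :
    kap hk (A.ρ σ a) = conjAdd P.M₀ D.E σ (kap hk a) := by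
  ext m
  exact hk.equiv σ a m

lemma kap_inc (hk : KFacts D A P) (a : A.V) : (kap hk a).comp (homAdd P.inc) = 0 := by
  ext m₁
  have h0 : P.ε (P.inc.hom m₁) = 0 := (P.exact _).2 ⟨m₁, rfl⟩
  show kappaFun D A P a (P.inc.hom m₁) = 0
  unfold kappaFun
  rw [h0]
  simp

lemma nsmul_p_eq_zero (a : A.V) : p • a = 0 := by
  rw [← Nat.cast_smul_eq_nsmul (ZMod p) p a, ZMod.natCast_self, zero_smul]

lemma kap_p (hk : KFacts D A P) (a : A.V) : p • kap hk a = 0 := by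
  rw [← map_nsmul, nsmul_p_eq_zero, map_zero]

/-- `Φ = i ∘ κ : A → Hom_ℤ(M₀, J)` -/
def phi (hk : KFacts D A P) : A.V →+ (P.M₀.V →+ (PTJ D).V) :=
  (AddMonoidHom.compHom (homAdd D.i)).comp (kap hk)

lemma phi_apply (hk : KFacts D A P) (a : A.V) : phi hk a = (homAdd D.i).comp (kap hk a) := rfl

lemma phi_conj (hk : KFacts D A P) (σ : G) (a : A.V) :
    phi hk (A.ρ σ a) = conjAdd P.M₀ (PTJ D) σ (phi hk a) := by
  rw [phi_apply, phi_apply, kap_conj, comp_conjAdd]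

/-- Step 1: `i ∘ κ ∘ w = d t` for a level 1-cochain `t` (In2). -/
lemma step1 (hk : KFacts D A P) (hin2 : In2 D P.M₀) (w : G × G → A.V)
    (hw : w ∈ levCocycles₂ D.𝒯 A)
    (b : ∀ v, Gloc v → A.V) (hb : ∀ v, IsLevel₁ (D.𝒯loc v) (b v))
    (hbw : ∀ v (d d' : Gloc v), w (D.r v d, D.r v d') =
      A.ρ (D.r v d) (b v d') - b v (d * d') + b v d) :
    ∃ t : G → (P.M₀.V →+ (PTJ D).V), IsLevel₁ D.𝒯 t ∧
      ∀ στ, phi hk (w στ) = dOne P.M₀ (PTJ D) t στ := by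
  obtain ⟨hwc, hwl⟩ := (mem_levCocycles₂_iff D.𝒯 A w).1 hw
  rw [mem_cocycles₂_iff] at hwc
  obtain ⟨t, ht, hty⟩ := hin2 (fun στ => phi hk (w στ)) (hwl.comp _)
    (fun σ τ ρ => by
      rw [← phi_conj, ← map_sub, ← map_add, ← map_sub]
      have := hwc σ τ ρ
      have h0 : A.ρ σ (w (τ, ρ)) - w (σ * τ, ρ) + w (σ, τ * ρ) - w (σ, τ) = 0 := by
        linear_combination (norm := abel) -this
      rw [h0, map_zero])
    (fun στ => by
      rw [← map_nsmul, nsmul_p_eq_zero, map_zero])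
    (fun v => by
      refine ⟨fun d => (jAdd D v).comp (kap hk (b v d)),
        ((hb v).comp (fun a => (jAdd D v).comp (kap hk a)) :), fun dd => ?_⟩
      obtain ⟨d, d'⟩ := dd
      show (ev D v).comp (phi hk (w (D.r v d, D.r v d'))) = _
      rw [phi_apply, ← AddMonoidHom.comp_assoc, ev_comp_i, hbw, map_add, map_sub, kap_conj,
        AddMonoidHom.comp_add, AddMonoidHom.comp_sub, jAdd_comp_conjAdd]
      rfl)
  exact ⟨t, ht, hty⟩


/-! ### Lifting lemmas -/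

lemma i_comp_injective {M : Type} [AddCommGroup M] {z z' : M →+ D.E.V}
    (h : (homAdd D.i).comp z = (homAdd D.i).comp z') : z = z' := by
  ext m
  apply D.i_injective
  exact DFunLike.congr_fun h m

lemma exists_lift_i {M : Type} [AddCommGroup M] (u : M →+ (PTJ D).V)
    (hu : (homAdd D.π).comp u = 0) : ∃ z : M →+ D.E.V, (homAdd D.i).comp z = u := by
  have h1 : ∀ m, ∃ e : D.E.V, D.i.hom e = u m := fun m =>
    (D.exact (u m)).1 (DFunLike.congr_fun hu m)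
  choose f hf using h1
  refine ⟨AddMonoidHom.mk' f (fun a b => ?_), ?_⟩
  · apply D.i_injective
    rw [map_add, hf, hf, hf, map_add]
  · ext m
    exact hf m

lemma basis_ext {Y : Type} [AddCommGroup Y] {h h' : P.M₀.V →+ Y}
    (hb : ∀ j, h (P.basis₀ j) = h' (P.basis₀ j)) : h = h' :=
  (P.basis₀_spec Y (fun j => h' (P.basis₀ j))).unique hb (fun _ => rfl)

lemma exists_lift_pi (c₀ : P.M₀.V →+ D.C.V) :
    ∃ t₀ : P.M₀.V →+ (PTJ D).V, (homAdd D.π).comp t₀ = c₀ := by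
  choose x hx using fun j => D.π_surj (c₀ (P.basis₀ j))
  obtain ⟨t₀, ht₀, -⟩ := P.basis₀_spec (PTJ D).V x
  refine ⟨t₀, basis_ext (P := P) fun j => ?_⟩
  show D.π.hom (t₀ (P.basis₀ j)) = c₀ (P.basis₀ j)
  rw [ht₀, hx]

lemma isLevel_dZero [Finite ι] (t₀ : P.M₀.V →+ (PTJ D).V) :
    IsLevel₁ D.𝒯 (dZero P.M₀ (PTJ D) t₀) := by
  obtain ⟨U, hU, hUx⟩ := (ptj_isDiscrete D).exists_level_of_finite
    (Set.finite_range (fun j => t₀ (P.basis₀ j)))
  refine ⟨P.U₀ ⊓ U, D.𝒯.inf_mem _ _ P.U₀_mem hU, fun σ s hs => ?_⟩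
  have h1 : conjAdd P.M₀ (PTJ D) s t₀ = t₀ := by
    apply basis_ext (P := P)
    intro j
    rw [conjAdd_apply, P.triv₀ s⁻¹ (P.U₀.inv_mem hs.1)]
    exact hUx _ ⟨j, rfl⟩ s hs.2
  unfold dZero
  rw [conjAdd_mul, h1]

/-- Step 2: from `i ∘ κ ∘ w = d t` to `κ ∘ (n • w) = d z̃` with `z̃` a level 1-cochain in
`Hom(M₀, E)` (In1 and lifting along `π`). -/
lemma step2 [Finite ι] (hk : KFacts D A P) (hin1 : In1 D P.M₀) (w : G × G → A.V)
    (t : G → (P.M₀.V →+ (PTJ D).V)) (ht : IsLevel₁ D.𝒯 t)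
    (hty : ∀ στ, phi hk (w στ) = dOne P.M₀ (PTJ D) t στ) :
    ∃ n : ℕ, ¬ p ∣ n ∧ ∃ zt : G → (P.M₀.V →+ D.E.V), IsLevel₁ D.𝒯 zt ∧
      ∀ στ, dOne P.M₀ D.E zt στ = n • kap hk (w στ) := by
  obtain ⟨n, hn, c₀, hc₀⟩ := hin1 (fun σ => (homAdd D.π).comp (t σ))
    ((ht.comp (fun h => (homAdd D.π).comp h) :))
    (fun στ => by
      rw [← comp_dOne, ← hty, phi_apply, ← AddMonoidHom.comp_assoc, pi_comp_i,
        AddMonoidHom.zero_comp])
  obtain ⟨t₀, ht₀⟩ := exists_lift_pi (D := D) (P := P) c₀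
  set u : G → (P.M₀.V →+ (PTJ D).V) := fun σ => n • t σ - dZero P.M₀ (PTJ D) t₀ σ with hu
  have hπu : ∀ σ, (homAdd D.π).comp (u σ) = 0 := by
    intro σ
    rw [hu]
    beta_reduce
    rw [AddMonoidHom.comp_sub, comp_dZero, ht₀, ← hc₀ σ]
    ext m
    simp
  choose zt hzt using fun σ => exists_lift_i (D := D) (u σ) (hπu σ)
  have hul : IsLevel₁ D.𝒯 u := by
    obtain ⟨U, hU, hUt⟩ := ht
    obtain ⟨U', hU', hUd⟩ := isLevel_dZero (D := D) (P := P) t₀
    refine ⟨U ⊓ U', D.𝒯.inf_mem _ _ hU hU', fun σ s hs => ?_⟩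
    rw [hu]
    beta_reduce
    rw [hUt σ s hs.1, hUd σ s hs.2]
  refine ⟨n, hn, zt, ?_, fun στ => ?_⟩
  · obtain ⟨U, hU, hUu⟩ := hul
    refine ⟨U, hU, fun σ s hs => i_comp_injective (D := D) ?_⟩
    rw [hzt, hzt, hUu σ s hs]
  · apply i_comp_injective (D := D)
    rw [comp_dOne]
    have h1 : (fun σ => (homAdd D.i).comp (zt σ)) = u := funext hzt
    rw [h1, hu, dOne_sub, dOne_nsmul, dOne_dZero, sub_zero, ← hty, phi_apply]
    ext m
    simp


lemma isLevel₁_map₂ {H : Type} [Group H] {𝒯 : Tower H} {X Y Z : Type*} {f : H → X} {f' : H → Y}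
    (hf : IsLevel₁ 𝒯 f) (hf' : IsLevel₁ 𝒯 f') (φ : X → Y → Z) :
    IsLevel₁ 𝒯 (fun g => φ (f g) (f' g)) := by
  obtain ⟨U, hU, h⟩ := hf
  obtain ⟨U', hU', h'⟩ := hf'
  refine ⟨U ⊓ U', 𝒯.inf_mem U U' hU hU', fun g s hs => ?_⟩
  beta_reduce
  rw [h g s hs.1, h' g s hs.2]

/-- the local 1-cochain `d ↦ j_v ∘ κ (b d)` has coboundary `j_v ∘ κ ∘ (d b)` -/
lemma dOne_jAdd_kap (hk : KFacts D A P) (v : ι) (b : Gloc v → A.V) (d d' : Gloc v) :
    dOne (Rep.res (D.r v) P.M₀) (D.Jloc v) (fun d => (jAdd D v).comp (kap hk (b d))) (d, d') =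
      (jAdd D v).comp (kap hk (A.ρ (D.r v d) (b d') - b (d * d') + b d)) := by
  rw [map_add, map_sub, kap_conj, AddMonoidHom.comp_add, AddMonoidHom.comp_sub,
    jAdd_comp_conjAdd]
  rfl

/-- Step 3: `i ∘ z̃ ∘ inc = d⁰ g̃` (In4 for `M₀`, In3 for `M₁`). -/
lemma step3 (hk : KFacts D A P) (hin4 : In4 D P.M₀) (hin3 : In3 D P.M₁) (w : G × G → A.V)
    (b : ∀ v, Gloc v → A.V) (hb : ∀ v, IsLevel₁ (D.𝒯loc v) (b v))
    (hbw : ∀ v (d d' : Gloc v), w (D.r v d, D.r v d') =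
      A.ρ (D.r v d) (b v d') - b v (d * d') + b v d)
    (n : ℕ) (zt : G → (P.M₀.V →+ D.E.V)) (hzt : IsLevel₁ D.𝒯 zt)
    (hd : ∀ στ, dOne P.M₀ D.E zt στ = n • kap hk (w στ)) :
    ∃ gt : P.M₁.V →+ (PTJ D).V,
      ∀ σ, (homAdd D.i).comp ((zt σ).comp (homAdd P.inc)) = dZero P.M₁ (PTJ D) gt σ := by
  -- the local cochains
  have hloc : ∀ v, ∃ T : P.M₀.V →+ (D.Jloc v).V, ∀ d : Gloc v,
      (jAdd D v).comp (zt (D.r v d)) - n • (jAdd D v).comp (kap hk (b v d)) =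
        dZero (Rep.res (D.r v) P.M₀) (D.Jloc v) T d := by
    intro v
    have hl1 : IsLevel₁ (D.𝒯loc v) (fun d => zt (D.r v d)) :=
      IsLevel₁.precomp D.𝒯 (D.𝒯loc v) (D.r v) (D.comap_mem v) hzt
    refine hin4 v (fun d => (jAdd D v).comp (zt (D.r v d)) -
      n • (jAdd D v).comp (kap hk (b v d)))
      (isLevel₁_map₂ hl1 (hb v)
        (fun z a => (jAdd D v).comp z - n • (jAdd D v).comp (kap hk a))) (fun dd => ?_)
    obtain ⟨d, d'⟩ := dd
    rw [dOne_sub (Rep.res (D.r v) P.M₀) (D.Jloc v), dOne_nsmul (Rep.res (D.r v) P.M₀) (D.Jloc v),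
      dOne_jAdd_kap, ← hbw, ← jAdd_comp_dOne D P.M₀ v zt (d, d'), hd]
    ext m
    simp
  choose T hT using hloc
  refine hin3 (fun σ => (homAdd D.i).comp ((zt σ).comp (homAdd P.inc)))
    ((hzt.comp (fun z => (homAdd D.i).comp (z.comp (homAdd P.inc))) :))
    (fun στ => ?_) (fun v => ⟨(T v).comp (homAdd P.inc), fun d => ?_⟩)
  · have h1 : (fun σ => (homAdd D.i).comp ((zt σ).comp (homAdd P.inc))) =
        fun σ => ((homAdd D.i).comp (zt σ)).comp (homAdd P.inc) := by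
      funext σ
      rw [AddMonoidHom.comp_assoc]
    rw [h1, ← dOne_comp, ← comp_dOne, hd, AddMonoidHom.comp_assoc]
    have h2 : (n • kap hk (w στ)).comp (homAdd P.inc) = 0 := by
      ext m₁
      have := DFunLike.congr_fun (kap_inc hk (w στ)) m₁
      simp only [AddMonoidHom.comp_apply, AddMonoidHom.nsmul_apply, AddMonoidHom.zero_apply]
        at this ⊢
      rw [this, smul_zero]
    rw [h2, AddMonoidHom.comp_zero]
  · show (ev D v).comp ((homAdd D.i).comp ((zt (D.r v d)).comp (homAdd P.inc))) = _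
    rw [← AddMonoidHom.comp_assoc, ev_comp_i, ← AddMonoidHom.comp_assoc]
    have h1 : (jAdd D v).comp (zt (D.r v d)) =
        dZero (Rep.res (D.r v) P.M₀) (D.Jloc v) (T v) d +
          n • (jAdd D v).comp (kap hk (b v d)) := by
      rw [← hT v d]
      abel
    rw [h1]
    ext m₁
    have h3 : kap hk (b v d) (P.inc.hom m₁) = 0 := DFunLike.congr_fun (kap_inc hk (b v d)) m₁
    have h4 : (Rep.res (D.r v) P.M₀).ρ d⁻¹ (P.inc.hom m₁) =
        P.inc.hom ((Rep.res (D.r v) P.M₁).ρ d⁻¹ m₁) :=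
      (Rep.hom_comm_apply P.inc (D.r v d⁻¹) m₁).symm
    simp only [AddMonoidHom.comp_apply, AddMonoidHom.add_apply, AddMonoidHom.nsmul_apply,
      dZero_apply, homAdd_apply, jAdd_apply, h4]
    rw [h3, map_zero, smul_zero, add_zero]


lemma exists_inv_mod [Fact p.Prime] (n : ℕ) (hn : ¬ p ∣ n) :
    ∃ k : ℕ, ((k * n : ℕ) : ZMod p) = 1 := by
  have hne : (n : ZMod p) ≠ 0 := by
    rw [Ne, ZMod.natCast_eq_zero_iff]
    exact hn
  refine ⟨((n : ZMod p)⁻¹).val, ?_⟩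
  rw [Nat.cast_mul, ZMod.natCast_zmod_val, inv_mul_cancel₀ hne]

lemma nsmul_eq_self_of_cast (k : ℕ) (hk : ((k : ℕ) : ZMod p) = 1) (a : A.V) : k • a = a := by
  rw [← Nat.cast_smul_eq_nsmul (ZMod p) k a, hk, one_smul]

/-- Step 4: `g := π ∘ g̃` is equivariant, `IsDel g (n • w)`; scale by `k` with `k n ≡ 1`. -/
lemma step4 [Fact p.Prime] (hk : KFacts D A P) (w : G × G → A.V) (n : ℕ) (hn : ¬ p ∣ n)
    (zt : G → (P.M₀.V →+ D.E.V)) (hzt : IsLevel₁ D.𝒯 zt)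
    (hd : ∀ στ, dOne P.M₀ D.E zt στ = n • kap hk (w στ))
    (gt : P.M₁.V →+ (PTJ D).V)
    (hgt : ∀ σ, (homAdd D.i).comp ((zt σ).comp (homAdd P.inc)) = dZero P.M₁ (PTJ D) gt σ) :
    ∃ g : P.M₁ ⟶ D.C, IsDel D A P g w := by
  obtain ⟨k, hk1⟩ := exists_inv_mod (p := p) n hn
  set g₀ : P.M₁.V →+ D.C.V := (homAdd D.π).comp gt with hg₀
  have hg₀z : ∀ σ, dZero P.M₁ D.C g₀ σ = 0 := by
    intro σ
    rw [hg₀, ← comp_dZero, ← hgt σ, ← AddMonoidHom.comp_assoc, pi_comp_i,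
      AddMonoidHom.zero_comp]
  have hg₀e : ∀ (σ : G) (m : P.M₁.V), g₀ (P.M₁.ρ σ m) = D.C.ρ σ (g₀ m) := by
    intro σ m
    have := DFunLike.congr_fun (hg₀z σ) (P.M₁.ρ σ m)
    rw [dZero_apply] at this
    have e : P.M₁.ρ σ⁻¹ (P.M₁.ρ σ m) = m := by
      rw [← Module.End.mul_apply, ← map_mul, inv_mul_cancel, map_one]
      rfl
    rw [e] at this
    exact (sub_eq_zero.1 this).symm
  refine ⟨k • mkHom g₀ hg₀e, k • gt, fun σ => k • zt σ, ?_, ?_, ?_, ?_⟩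
  · intro m
    rw [rep_nsmul_apply, mkHom_apply, AddMonoidHom.nsmul_apply, map_nsmul]
    rfl
  · exact (hzt.comp (fun z => k • z) :)
  · intro σ m
    rw [dZero_nsmul, AddMonoidHom.nsmul_apply, AddMonoidHom.nsmul_apply, map_nsmul, ← hgt σ]
    rfl
  · intro στ m
    rw [dOne_nsmul, hd, smul_smul, ← map_nsmul, nsmul_eq_self_of_cast (k * n) hk1]
    rfl

end Datum

end Fermat.Agent.PT.F.ExactH2

namespace Fermat.Agent.PT.F

open CategoryTheory groupCohomology Fermat.Agent.PT ExactH2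

/-- **S8** (exactness at `H²_lev(G, A)`), from the facts on `κ`. -/
theorem stmtExactH2_of (hκ : StmtKappa) : StmtExactH2 := by
  intro p _ G _ ι _ Gloc _ D A _ P hin w hw hloc
  obtain ⟨h1, h2, h3, -, -⟩ := hκ p G ι Gloc D A P
  have hk : KFacts D A P := ⟨h1, h2, h3⟩
  have hb' : ∀ v, ∃ b : Gloc v → A.V, IsLevel₁ (D.𝒯loc v) b ∧
      ∀ d d' : Gloc v, w (D.r v d, D.r v d') = A.ρ (D.r v d) (b d') - b (d * d') + b d := by
    intro v
    obtain ⟨x, hx, hxw⟩ := (mem_levCoboundaries₂_iff _ _ _).1 (hloc v)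
    refine ⟨x, hx, fun d d' => ?_⟩
    have := congrFun hxw (d, d')
    rw [d₁₂_hom_apply] at this
    exact this.symm
  choose b hb hbw using hb'
  obtain ⟨t, ht, hty⟩ := step1 hk hin.in2 w hw b hb hbw
  obtain ⟨n, hn, zt, hzt, hd⟩ := step2 hk hin.in1 w t ht hty
  obtain ⟨gt, hgt⟩ := step3 hk hin.in4 hin.in3₁ w b hb hbw n zt hzt hd
  obtain ⟨g, hg⟩ := step4 hk w n hn zt hzt hd gt hgt
  exact ⟨g, w, hg, by rw [sub_self]; exact zero_mem _⟩

end Fermat.Agent.PT.F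

end


end ZBPT_042_0

/-! ### bundled: `Fermat.Agent.PT.F.SeqDelUnique` -/
section ZBPT_042_1
/-
PT-F §6, piece S2 (helper67): `∂ g` is well defined.

Two witnesses `(g̃, z̃, w)`, `(g̃', z̃', w')` of `IsDel g`: `g̃ - g̃' = i ∘ e` with `e : M₁ → E`
(exactness of `E → J → C`), extend `e` to `ẽ : M₀ → E` (S0a: `E` is `p`-divisible, `p M₀ ⊆ M₁`);
`u σ := z̃ σ - z̃' σ - d⁰ẽ σ` vanishes on `M₁`, so `u σ = κ (c σ)` (S0b), `c` is a level
1-cochain and `κ (w - w') = d u = κ (d c)`.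
-/

set_option autoImplicit false

noncomputable section

namespace Fermat.Agent.PT.F

open CategoryTheory groupCohomology Fermat.Agent.PT

attribute [local instance 1100] Rep.hV2

section

variable {p : ℕ} {G : Type} [Group G] {ι : Type} {Gloc : ι → Type}
  [∀ v, Group (Gloc v)] (D : PTDatum p G ι Gloc)
  {A' : Rep.{0} (ZMod p) G} (P : Presentation D.𝒯 A')

lemma s2_basis_ext {Y : Type} [AddCommGroup Y] {h h' : P.M₀.V →+ Y}
    (hb : ∀ j, h (P.basis₀ j) = h' (P.basis₀ j)) : h = h' :=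
  (P.basis₀_spec Y (fun j => h' (P.basis₀ j))).unique hb (fun _ => rfl)

/-- `d⁰` of an additive map `M₀ → E` is a level cochain. -/
lemma s2_isLevel_dZero (t₀ : P.M₀.V →+ D.E.V) : IsLevel₁ D.𝒯 (dZero P.M₀ D.E t₀) := by
  have hE : IsDiscrete D.𝒯 D.E := D.E_discrete
  obtain ⟨U, hU, hUx⟩ := hE.exists_level_of_finite
    (Set.finite_range (fun j => t₀ (P.basis₀ j)))
  refine ⟨P.U₀ ⊓ U, D.𝒯.inf_mem _ _ P.U₀_mem hU, fun σ s hs => ?_⟩
  have h1 : conjAdd P.M₀ D.E s t₀ = t₀ := by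
    apply s2_basis_ext (P := P)
    intro j
    rw [conjAdd_apply, P.triv₀ s⁻¹ (P.U₀.inv_mem hs.1)]
    exact hUx _ ⟨j, rfl⟩ s hs.2
  unfold dZero
  rw [ExactH2.conjAdd_mul, h1]

end

/-- **S2** (`∂ g` is well defined), from S0a and S0b. -/
theorem stmtDelUnique_of (hK : StmtKappa) (hExt : StmtExt) : StmtDelUnique := by
  intro p _ G _ ι _ Gloc _ D A _ P g w w' hw hw'
  obtain ⟨hadd, haddm, hequiv, hinj, hsurj⟩ := hK p G ι Gloc D A P
  have hk : ExactH2.KFacts D A P := ⟨hadd, haddm, hequiv⟩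
  obtain ⟨gt, zt, hgt, hztL, hzt, hκ⟩ := hw
  obtain ⟨gt', zt', hgt', hztL', hzt', hκ'⟩ := hw'
  -- `g̃ - g̃' = i ∘ e`
  obtain ⟨e, he⟩ := ExactH2.exists_lift_i (D := D) (gt - gt') (by
    ext m
    show D.π.hom (gt m - gt' m) = 0
    rw [map_sub, hgt, hgt', sub_self])
  -- extend `e` to `M₀`
  obtain ⟨et, het⟩ := hExt p (Fact.out) P.M₀.V P.M₁.V D.E.V (homAdd P.inc) P.inc_injective
    (fun m => (kapEps_eq_zero_iff D A P (p • m)).1 (kapEps_nsmul D A P m)) D.E_div e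
  -- the difference cochain
  set u : G → (P.M₀.V →+ D.E.V) := fun σ => zt σ - zt' σ - dZero P.M₀ D.E et σ with hu
  have hu0 : ∀ σ m₁, u σ (P.inc.hom m₁) = 0 := by
    intro σ m₁
    apply D.i_injective
    have h1 : D.i.hom (et (P.inc.hom m₁)) = gt m₁ - gt' m₁ := by
      have := het m₁
      rw [homAdd_apply] at this
      rw [this]
      exact DFunLike.congr_fun he m₁
    have h2 : D.i.hom (et (P.M₀.ρ σ⁻¹ (P.inc.hom m₁))) =
        gt (P.M₁.ρ σ⁻¹ m₁) - gt' (P.M₁.ρ σ⁻¹ m₁) := by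
      rw [← Rep.hom_comm_apply P.inc σ⁻¹ m₁]
      have := het (P.M₁.ρ σ⁻¹ m₁)
      rw [homAdd_apply] at this
      rw [this]
      exact DFunLike.congr_fun he _
    simp only [hu, AddMonoidHom.sub_apply, map_sub, map_zero, hzt, hzt', ExactH2.dZero_apply,
      Rep.hom_comm_apply, h1, h2]
    abel
  choose c hc using fun σ => hsurj (u σ) (hu0 σ)
  have hkc : ∀ σ, ExactH2.kap hk (c σ) = u σ := fun σ => by
    ext m
    exact hc σ m
  have hkinj : Function.Injective (ExactH2.kap hk) := by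
    rw [injective_iff_map_eq_zero]
    intro a ha
    exact hinj a (fun m => DFunLike.congr_fun ha m)
  -- `u` is a level cochain
  have huL : IsLevel₁ D.𝒯 u := by
    have h1 : IsLevel₁ D.𝒯 (fun σ => zt σ - zt' σ) := by
      obtain ⟨U, hU, h⟩ := hztL
      obtain ⟨U', hU', h'⟩ := hztL'
      exact ⟨U ⊓ U', D.𝒯.inf_mem U U' hU hU', fun g s hs => by
        show zt (g * s) - zt' (g * s) = zt g - zt' g
        rw [h g s hs.1, h' g s hs.2]⟩
    obtain ⟨U, hU, h⟩ := h1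
    obtain ⟨U', hU', h'⟩ := s2_isLevel_dZero D P et
    exact ⟨U ⊓ U', D.𝒯.inf_mem U U' hU hU', fun g s hs => by
      have := h g s hs.1
      show zt (g * s) - zt' (g * s) - dZero P.M₀ D.E et (g * s) =
        zt g - zt' g - dZero P.M₀ D.E et g
      rw [h' g s hs.2]
      exact congrArg (· - dZero P.M₀ D.E et g) this⟩
  have hcL : IsLevel₁ D.𝒯 c := by
    obtain ⟨U, hU, h⟩ := huL
    exact ⟨U, hU, fun g s hs => hkinj (by rw [hkc, hkc, h g s hs])⟩
  refine (mem_levCoboundaries₂_iff D.𝒯 A _).2 ⟨c, hcL, ?_⟩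
  funext στ
  obtain ⟨σ, τ⟩ := στ
  apply hkinj
  have h1 : ExactH2.kap hk ((w - w') (σ, τ)) =
      dOne P.M₀ D.E zt (σ, τ) - dOne P.M₀ D.E zt' (σ, τ) := by
    ext m
    show kappaFun D A P (w (σ, τ) - w' (σ, τ)) m = _
    have := DFunLike.congr_fun (map_sub (ExactH2.kap hk) (w (σ, τ)) (w' (σ, τ))) m
    simp only [ExactH2.kap_apply, AddMonoidHom.sub_apply] at this
    rw [this, hκ, hκ']
    rfl
  have h2 : ExactH2.kap hk ((d₁₂ A).hom c (σ, τ)) = dOne P.M₀ D.E u (σ, τ) := by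
    rw [d₁₂_hom_apply, map_add, map_sub, ExactH2.kap_conj, hkc, hkc, hkc]
    rfl
  have h3 : dOne P.M₀ D.E u (σ, τ) =
      dOne P.M₀ D.E zt (σ, τ) - dOne P.M₀ D.E zt' (σ, τ) := by
    have e1 := ExactH2.dOne_sub P.M₀ D.E (fun σ => zt σ - zt' σ) (dZero P.M₀ D.E et) (σ, τ)
    have e2 := ExactH2.dOne_sub P.M₀ D.E zt zt' (σ, τ)
    calc dOne P.M₀ D.E u (σ, τ)
        = dOne P.M₀ D.E (fun σ => zt σ - zt' σ) (σ, τ) -
            dOne P.M₀ D.E (dZero P.M₀ D.E et) (σ, τ) := e1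
      _ = dOne P.M₀ D.E zt (σ, τ) - dOne P.M₀ D.E zt' (σ, τ) := by
          rw [ExactH2.dOne_dZero, sub_zero, e2]
  rw [h2, h3, h1]

/-- **S2**, unconditional. -/
theorem stmtDelUnique : StmtDelUnique := stmtDelUnique_of stmtKappa stmtExt

end Fermat.Agent.PT.F

end


end ZBPT_042_1
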