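/- GENERATED FILE (helper35, build-time optimisation, NOTES/ZB.md): verbatim concatenation of the modules
   Fermat.Agent.PT.X.SUnit
   Fermat.Agent.PT.X.ECount
   Fermat.Agent.PT.X.SelFinite
   Do not edit; do not import together with these modules. -/
import Mathlib
import Fermat.Agent.ZB.PT_007
import Fermat.Agent.ZB.PT_023
import Fermat.Agent.ZB.PT_006

/-! ### bundled: `Fermat.Agent.PT.X.SUnit` -/
section ZBPT_058_0
/-
PT-X / X-U (helper74): Dirichlet's `S`-unit theorem in counting form.

`K` a number field, `S` a finite set of primes of `𝓞 K`, `E_S = (S : Set _).unit K`. For `n ≠ 0`: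
* `card_sunit_powQuot`:
    `|E_S / E_Sⁿ| = n ^ (rank K + |S|) * |μ(K)[n]|`   (`rank K = r₁ + r₂ - 1`);
* `finite_sunit_powQuot`: `E_S / E_Sⁿ` is finite                                  (X-U (a));
* `le_card_sunit_powQuot`: if `K` contains a primitive `p`-th root of unity (`p` prime) then
    `p ^ (|S| + [K:ℚ]/2) ≤ |E_S / E_S^p|`                                          (X-U (b)).
Generic Dedekind part: `sunitOrd`, `sunitOrd_range_finiteIndex`, `unitsEquivKer`,
`card_sunit_powQuot_dedekind`.
-/

set_option autoImplicit false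
set_option linter.unusedSectionVars false

open IsDedekindDomain IsDedekindDomain.HeightOneSpectrum FractionalIdeal
open scoped nonZeroDivisors

namespace Fermat.Agent.PT.X

section dedekind

variable {R : Type*} [CommRing R] [IsDedekindDomain R] {K : Type*} [Field K] [Algebra R K]
  [IsFractionRing R K] (S : Finset (HeightOneSpectrum R))

/-- The vector of orders at the primes of `S` of an `S`-unit. -/
noncomputable def sunitOrd :
    (S : Set (HeightOneSpectrum R)).unit K →* Multiplicative (↥S →₀ ℤ) where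
  toFun x := Multiplicative.ofAdd
    (Finsupp.equivFunOnFinite.symm (fun v : ↥S => ordAt v.1 (x : Kˣ)))
  map_one' := by
    rw [← ofAdd_zero]
    congr 1
    ext v
    simp [ordAt_one]
  map_mul' x y := by
    rw [← ofAdd_add]
    congr 1
    ext v
    simp [ordAt_mul]

@[simp] lemma sunitOrd_apply (x : (S : Set (HeightOneSpectrum R)).unit K) (v : ↥S) :
    Multiplicative.toAdd (sunitOrd S x) v = ordAt v.1 (x : Kˣ) := rfl

/-- If the class group is finite, the orders of the `S`-units at `S` form a subgroup of finite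
index of `ℤ^S`. -/
theorem sunitOrd_range_finiteIndex [Finite (ClassGroup R)] :
    (sunitOrd (K := K) S).range.FiniteIndex := by
  have hinj : Function.Injective (Subtype.val : ↥S → HeightOneSpectrum R) :=
    Subtype.val_injective
  have : (classHom K (Subtype.val : ↥S → HeightOneSpectrum R)).ker.FiniteIndex :=
    Subgroup.finiteIndex_ker _
  refine Subgroup.finiteIndex_of_le
    (H := (classHom K (Subtype.val : ↥S → HeightOneSpectrum R)).ker) ?_
  intro d hd
  obtain ⟨x, hx, hx'⟩ := exists_ordAt_eq_of_mem_ker _ hinj d hd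
  have hxS : x ∈ (S : Set (HeightOneSpectrum R)).unit K := by
    rw [mem_unit_iff_ordAt]
    intro w hw
    apply hx'
    rintro ⟨i, hi⟩ rfl
    exact hw hi
  refine ⟨⟨x, hxS⟩, ?_⟩
  rw [← ofAdd_toAdd (sunitOrd S ⟨x, hxS⟩), ← ofAdd_toAdd d]
  congr 1
  ext v
  simpa using hx v

/-- An element of `Kˣ` all of whose orders vanish comes from a unit of `R`. -/
lemma exists_unit_of_ordAt_eq_zero (x : Kˣ) (hx : ∀ v : HeightOneSpectrum R, ordAt v x = 0) :
    ∃ u : Rˣ, Units.map (algebraMap R K : R →* K) u = x := by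
  have hval : ∀ (y : Kˣ), (∀ v : HeightOneSpectrum R, ordAt v y = 0) →
      ∃ a : R, algebraMap R K a = (y : K) := by
    intro y hy
    have := HeightOneSpectrum.mem_integers_of_valuation_le_one (R := R) K (y : K) (fun v => by
      rw [← valuationOfNeZero_eq, valuationOfNeZero_eq_ordAt, hy v]
      simp)
    obtain ⟨a, ha⟩ := this
    exact ⟨a, ha⟩
  obtain ⟨a, ha⟩ := hval x hx
  obtain ⟨b, hb⟩ := hval x⁻¹ (fun v => by rw [ordAt_inv, hx v, neg_zero])
  have hab : a * b = 1 := by
    apply IsFractionRing.injective R K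
    rw [map_mul, ha, hb, map_one]
    simp
  refine ⟨⟨a, b, hab, by rw [mul_comm]; exact hab⟩, ?_⟩
  apply Units.ext
  simpa using ha

lemma ordAt_units_map (v : HeightOneSpectrum R) (u : Rˣ) :
    ordAt v (Units.map (algebraMap R K : R →* K) u) = 0 := by
  have h := valuationOfNeZero_eq_ordAt (K := K) v (Units.map (algebraMap R K : R →* K) u)
  rw [valuation_of_unit_eq] at h
  have h2 : -(ordAt v (Units.map (algebraMap R K : R →* K) u)) = 0 := by
    have := congrArg Multiplicative.toAdd h
    simpa using this.symm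
  linarith

lemma units_map_mem_unit (u : Rˣ) :
    Units.map (algebraMap R K : R →* K) u ∈ (S : Set (HeightOneSpectrum R)).unit K := by
  rw [mem_unit_iff_ordAt]
  intro v _
  exact ordAt_units_map v u

lemma units_map_mem_ker (u : Rˣ) :
    (⟨Units.map (algebraMap R K : R →* K) u, units_map_mem_unit S u⟩ :
      (S : Set (HeightOneSpectrum R)).unit K) ∈ (sunitOrd (K := K) S).ker := by
  rw [MonoidHom.mem_ker, ← ofAdd_toAdd (sunitOrd S _), ← ofAdd_zero]
  congr 1
  ext v
  rw [sunitOrd_apply]
  exact ordAt_units_map v.1 u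

/-- The kernel of `sunitOrd` is the image of `Rˣ`. -/
noncomputable def unitsToKer : Rˣ →* (sunitOrd (K := K) S).ker where
  toFun u := ⟨⟨Units.map (algebraMap R K : R →* K) u, units_map_mem_unit S u⟩,
    units_map_mem_ker S u⟩
  map_one' := by
    apply Subtype.ext
    apply Subtype.ext
    simp
  map_mul' u u' := by
    apply Subtype.ext
    apply Subtype.ext
    simp

lemma unitsToKer_bijective : Function.Bijective (unitsToKer (K := K) S) := by
  constructor
  · intro u u' h
    have h1 : Units.map (algebraMap R K : R →* K) u = Units.map (algebraMap R K : R →* K) u' :=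
      congrArg (fun z : (sunitOrd (K := K) S).ker => (z.1.1 : Kˣ)) h
    apply Units.ext
    apply IsFractionRing.injective R K
    have := congrArg (fun z : Kˣ => (z : K)) h1
    simpa using this
  · rintro ⟨⟨x, hxS⟩, hxk⟩
    have hall : ∀ v : HeightOneSpectrum R, ordAt v x = 0 := by
      intro v
      by_cases hv : v ∈ S
      · rw [MonoidHom.mem_ker] at hxk
        have := congrArg (fun d : Multiplicative (↥S →₀ ℤ) => Multiplicative.toAdd d ⟨v, hv⟩) hxk
        simpa using this
      · exact (mem_unit_iff_ordAt _ x).mp hxS v (by simpa using hv)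
    obtain ⟨u, hu⟩ := exists_unit_of_ordAt_eq_zero x hall
    refine ⟨u, ?_⟩
    apply Subtype.ext
    apply Subtype.ext
    exact hu

/-- `Rˣ ≃* ker (sunitOrd)`. -/
noncomputable def unitsEquivKer : Rˣ ≃* (sunitOrd (K := K) S).ker :=
  MulEquiv.ofBijective (unitsToKer S) (unitsToKer_bijective S)

/-- **`S`-unit count, Dedekind form**: `|E_S/E_Sⁿ| = |Rˣ/(Rˣ)ⁿ| · n ^ |S|` if the class group is
finite and `n ≠ 0`. -/
theorem card_sunit_powQuot_dedekind [Finite (ClassGroup R)] (n : ℕ) (hn : n ≠ 0) :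
    Nat.card ((S : Set (HeightOneSpectrum R)).unit K ⧸
        powRange ((S : Set (HeightOneSpectrum R)).unit K) n) =
      Nat.card (Rˣ ⧸ powRange Rˣ n) * n ^ S.card := by
  have htf : ∀ c : Multiplicative (↥S →₀ ℤ), c ^ n = 1 → c = 1 := by
    intro c hc
    have h1 : n • Multiplicative.toAdd c = 0 := by
      have := congrArg Multiplicative.toAdd hc
      simpa using this
    have h2 : Multiplicative.toAdd c = 0 := by
      rcases smul_eq_zero.mp h1 with h | h
      · exact absurd h hn
      · exact h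
    rw [← ofAdd_toAdd c, h2, ofAdd_zero]
  rw [card_powQuot_eq_mul_range n (sunitOrd (K := K) S) htf,
    ← card_powQuot_congr (unitsEquivKer (K := K) S) n]
  congr 1
  have := sunitOrd_range_finiteIndex (K := K) S
  rw [card_powQuot_of_finiteIndex (↥S →₀ ℤ) (sunitOrd (K := K) S).range n]
  congr 1
  rw [Module.finrank_finsupp_self, Fintype.card_coe]

end dedekind

section numberField

open NumberField NumberField.Units

variable (K : Type*) [Field K] [NumberField K]

/-- `|𝓞ˣ/(𝓞ˣ)ⁿ| = n ^ rank · |μ(K)[n]|`. -/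
theorem card_units_powQuot (n : ℕ) (hn : n ≠ 0) :
    Nat.card ((𝓞 K)ˣ ⧸ powRange (𝓞 K)ˣ n) =
      n ^ Units.rank K * Nat.card (powMonoidHom n : torsion K →* torsion K).ker := by
  have htf : ∀ c : (𝓞 K)ˣ ⧸ torsion K, c ^ n = 1 → c = 1 := by
    intro c hc
    induction c using QuotientGroup.induction_on with
    | H g =>
      rw [← QuotientGroup.mk_pow, QuotientGroup.eq_one_iff] at hc
      rw [QuotientGroup.eq_one_iff]
      rw [torsion, CommGroup.mem_torsion] at hc ⊢
      exact hc.of_pow hn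
  have h := card_powQuot_eq_mul (B := (𝓞 K)ˣ) (C := (𝓞 K)ˣ ⧸ torsion K) n
    (f := QuotientGroup.mk' (torsion K)) (QuotientGroup.mk'_surjective _) htf
  rw [h, card_powQuot_of_free ((𝓞 K)ˣ ⧸ torsion K) n, finrank_modTorsion,
    card_powQuot_subgroup_congr (QuotientGroup.ker_mk' (torsion K)) n,
    card_powQuot_of_finite, mul_comm]

variable (S : Finset (HeightOneSpectrum (𝓞 K)))

/-- **Dirichlet's `S`-unit theorem, counting form**:
`|E_S/E_Sⁿ| = n ^ (rank K + |S|) · |μ(K)[n]|` for `n ≠ 0`. -/
theorem card_sunit_powQuot (n : ℕ) (hn : n ≠ 0) :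
    Nat.card ((S : Set (HeightOneSpectrum (𝓞 K))).unit K ⧸
        powRange ((S : Set (HeightOneSpectrum (𝓞 K))).unit K) n) =
      n ^ (Units.rank K + S.card) * Nat.card (powMonoidHom n : torsion K →* torsion K).ker := by
  rw [card_sunit_powQuot_dedekind S n hn, card_units_powQuot K n hn, pow_add]
  ring

/-- **X-U (a)**: `E_S/E_Sⁿ` is finite (`n ≠ 0`). -/
theorem finite_sunit_powQuot (n : ℕ) (hn : n ≠ 0) :
    Finite ((S : Set (HeightOneSpectrum (𝓞 K))).unit K ⧸
      (powMonoidHom n : (S : Set (HeightOneSpectrum (𝓞 K))).unit K →* _).range) := by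
  apply Nat.finite_of_card_ne_zero
  have h := card_sunit_powQuot K S n hn
  change Nat.card ((S : Set (HeightOneSpectrum (𝓞 K))).unit K ⧸
        powRange ((S : Set (HeightOneSpectrum (𝓞 K))).unit K) n) ≠ 0
  rw [h]
  exact mul_ne_zero (pow_ne_zero _ hn) Nat.card_pos.ne'

/-- The number of `p`-torsion elements of `μ(K)` is at least `p` if `K` contains a primitive
`p`-th root of unity. -/
lemma le_card_torsion_ker (p : ℕ) (hp : p ≠ 0) {ζ : K} (hζ : IsPrimitiveRoot ζ p) :
    p ≤ Nat.card (powMonoidHom p : torsion K →* torsion K).ker := by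
  have : NeZero p := ⟨hp⟩
  -- `ζ` as a unit of `𝓞 K`
  have hz : IsPrimitiveRoot hζ.toInteger p := hζ.toInteger_isPrimitiveRoot
  have hu : IsPrimitiveRoot (hz.isUnit hp).unit p := hz.isUnit_unit hp
  have hup : (hz.isUnit hp).unit ^ p = 1 := hu.pow_eq_one
  have hut : (hz.isUnit hp).unit ∈ torsion K := by
    rw [torsion, CommGroup.mem_torsion, isOfFinOrder_iff_pow_eq_one]
    exact ⟨p, Nat.pos_of_ne_zero hp, hup⟩
  have htk : (⟨(hz.isUnit hp).unit, hut⟩ : torsion K) ∈
      (powMonoidHom p : torsion K →* torsion K).ker := by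
    rw [MonoidHom.mem_ker]
    apply Subtype.ext
    simpa using hup
  have hord : orderOf (⟨(hz.isUnit hp).unit, hut⟩ : torsion K) = p := by
    rw [← Subgroup.orderOf_coe]
    exact hu.eq_orderOf.symm
  have h1 : Nat.card (Subgroup.zpowers (⟨(hz.isUnit hp).unit, hut⟩ : torsion K)) = p := by
    rw [Nat.card_zpowers, hord]
  have h2 : Subgroup.zpowers (⟨(hz.isUnit hp).unit, hut⟩ : torsion K) ≤
      (powMonoidHom p : torsion K →* torsion K).ker := by
    rw [Subgroup.zpowers_le]
    exact htk
  have h3 := Subgroup.card_le_of_le h2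
  rw [h1] at h3
  exact h3

/-- **X-U (b)**: if `K` contains a primitive `p`-th root of unity, `p ≠ 0`, then
`p ^ (|S| + [K:ℚ]/2) ≤ |E_S/E_S^p|`. -/
theorem le_card_sunit_powQuot (p : ℕ) (hp : p ≠ 0) {ζ : K} (hζ : IsPrimitiveRoot ζ p) :
    p ^ (S.card + Module.finrank ℚ K / 2) ≤
      Nat.card ((S : Set (HeightOneSpectrum (𝓞 K))).unit K ⧸
        (powMonoidHom p : (S : Set (HeightOneSpectrum (𝓞 K))).unit K →* _).range) := by
  change _ ≤ Nat.card ((S : Set (HeightOneSpectrum (𝓞 K))).unit K ⧸
        powRange ((S : Set (HeightOneSpectrum (𝓞 K))).unit K) p)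
  rw [card_sunit_powQuot K S p hp]
  have h1 : Module.finrank ℚ K / 2 ≤ Units.rank K + 1 := by
    have h2 := InfinitePlace.card_add_two_mul_card_eq_rank K
    have h3 := InfinitePlace.card_eq_nrRealPlaces_add_nrComplexPlaces K
    have h4 : 0 < Fintype.card (InfinitePlace K) := Fintype.card_pos
    have h5 : Units.rank K = Fintype.card (InfinitePlace K) - 1 := rfl
    omega
  calc p ^ (S.card + Module.finrank ℚ K / 2)
      ≤ p ^ (Units.rank K + S.card + 1) := by
        apply Nat.pow_le_pow_right (Nat.pos_of_ne_zero hp)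
        omega
    _ = p ^ (Units.rank K + S.card) * p := by rw [pow_succ]
    _ ≤ p ^ (Units.rank K + S.card) *
          Nat.card (powMonoidHom p : torsion K →* torsion K).ker :=
        Nat.mul_le_mul_left _ (le_card_torsion_ker K p hp hζ)

end numberField

end Fermat.Agent.PT.X


end ZBPT_058_0

/-! ### bundled: `Fermat.Agent.PT.X.ECount` -/
section ZBPT_058_1
/-
Project PT — PT-X / X-E (helper56): the unit count.  For `E = ker(div_S)` (the `S`-units of a
number field `K ⊃ μ_p`): `[E : E ∩ Kˣᵖ] = [E : Eᵖ] ≥ p ^ (#{P | S} + r₁ + r₂)`, hence its square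
is at least `p ^ (2 #{P | S} + [K : ℚ])`.
-/

set_option autoImplicit false

namespace Fermat.Agent.PT.X

open NumberField NumberField.Units IsDedekindDomain
open Fermat.Agent.PT.G Fermat.Agent.PT.G1 Fermat.Agent.PT

section

variable (S : Finset Nat.Primes) (K : Type) [Field K] [NumberField K]

lemma ecount_finite :
    {P : HeightOneSpectrum (𝓞 K) | ((sProd S : ℕ) : 𝓞 K) ∈ P.asIdeal}.Finite := by
  have h : Finite (UrS K (sProd S)) := ur_finite (sProd_ne_zero S)
  exact Set.finite_coe_iff.mp h

/-- The finite set of primes of `K` over `S`. -/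
noncomputable def ecountT : Finset (HeightOneSpectrum (𝓞 K)) := (ecount_finite S K).toFinset

lemma mem_ecountT (P : HeightOneSpectrum (𝓞 K)) :
    P ∈ ecountT S K ↔ ((sProd S : ℕ) : 𝓞 K) ∈ P.asIdeal := by
  rw [ecountT, Set.Finite.mem_toFinset]
  rfl

lemma card_ecountT : (ecountT S K).card = (primesAbove (sProd S) K).ncard := by
  rw [ur_ncard_primesAbove (sProd_ne_zero S), ecountT,
    ← Set.ncard_eq_toFinset_card _ (ecount_finite S K), ← _root_.Nat.card_coe_set_eq]
  rfl

/-- `ker(div_S)` is the group of `S`-units. -/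
lemma ecount_ker_eq :
    (LinearMap.ker (divHom S K)).toAddSubgroup =
      Subgroup.toAddSubgroup ((ecountT S K : Set (HeightOneSpectrum (𝓞 K))).unit K) := by
  ext x
  show x ∈ LinearMap.ker (divHom S K) ↔
    Additive.toMul x ∈ (ecountT S K : Set (HeightOneSpectrum (𝓞 K))).unit K
  rw [LinearMap.mem_ker, mem_unit_iff_ordAt]
  constructor
  · intro h v hv
    have hv' : ((sProd S : ℕ) : 𝓞 K) ∉ v.asIdeal := fun hh =>
      hv (Finset.mem_coe.2 ((mem_ecountT S K v).2 hh))
    have h1 : divHom S K x (⟨v, hv'⟩ : OffS S K) = (0 : DivS S K) (⟨v, hv'⟩ : OffS S K) := by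
      rw [h]
    exact h1
  · intro h
    ext P
    exact h P.1 (fun hh => P.2 ((mem_ecountT S K P.1).1 (Finset.mem_coe.1 hh)))

lemma ecount_nMul_eq (p : ℕ) :
    nMul p (Additive Kˣ) = Subgroup.toAddSubgroup (powRange Kˣ p) := by
  ext x
  show x ∈ nMul p (Additive Kˣ) ↔ Additive.toMul x ∈ powRange Kˣ p
  rw [mem_nMul, mem_powRange]
  constructor
  · rintro ⟨b, rfl⟩
    exact ⟨Additive.toMul b, rfl⟩
  · rintro ⟨c, hc⟩
    exact ⟨Additive.ofMul c, Additive.toMul.injective hc⟩

variable {K} in
/-- A `p`-th root of an `S`-unit is an `S`-unit. -/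
lemma ecount_root_mem (T : Set (HeightOneSpectrum (𝓞 K))) (p : ℕ) (hp : p ≠ 0) (c : Kˣ)
    (hc : c ^ p ∈ T.unit K) : c ∈ T.unit K := by
  rw [mem_unit_iff_ordAt] at hc ⊢
  intro v hv
  have h := hc v hv
  rw [cse_ordAt_pow] at h
  rcases mul_eq_zero.1 h with h | h
  · exact absurd (by exact_mod_cast h) hp
  · exact h

lemma ecount_subgroupOf_eq (T : Set (HeightOneSpectrum (𝓞 K))) (p : ℕ) (hp : p ≠ 0) :
    (powRange Kˣ p).subgroupOf (T.unit K) = powRange (T.unit K) p := by
  ext x
  rw [Subgroup.mem_subgroupOf, mem_powRange, mem_powRange]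
  constructor
  · rintro ⟨c, hc⟩
    have hcm : c ∈ T.unit K := ecount_root_mem T p hp c (by rw [hc]; exact x.2)
    exact ⟨⟨c, hcm⟩, Subtype.ext hc⟩
  · rintro ⟨c, rfl⟩
    exact ⟨(c : Kˣ), rfl⟩

/-- The index `[E : E ∩ Kˣᵖ]` is the order of `E_S / E_Sᵖ`. -/
lemma ecount_relIndex_eq (p : ℕ) (hp : p ≠ 0) :
    (nMul p (Additive Kˣ)).relIndex (LinearMap.ker (divHom S K)).toAddSubgroup =
      Nat.card ((ecountT S K : Set (HeightOneSpectrum (𝓞 K))).unit K ⧸
        powRange ((ecountT S K : Set (HeightOneSpectrum (𝓞 K))).unit K) p) := by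
  rw [ecount_ker_eq, ecount_nMul_eq, Subgroup.relIndex_toAddSubgroup, Subgroup.relIndex,
    ecount_subgroupOf_eq _ _ p hp, Subgroup.index_eq_card]

lemma ecount_finrank_le : Module.finrank ℚ K ≤ 2 * (Units.rank K + 1) := by
  have h2 := InfinitePlace.card_add_two_mul_card_eq_rank K
  have h3 := InfinitePlace.card_eq_nrRealPlaces_add_nrComplexPlaces K
  have h4 : 0 < Fintype.card (InfinitePlace K) := Fintype.card_pos
  have h5 : Units.rank K = Fintype.card (InfinitePlace K) - 1 := rfl
  omega

end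

/-- **X-E.** -/
theorem stmtECount : StmtECount := by
  intro p _ _ S K _ _ ζ hζ
  have hp0 : p ≠ 0 := (Fact.out : p.Prime).ne_zero
  have h1 := ecount_relIndex_eq S K p hp0
  rw [card_sunit_powQuot K (ecountT S K) p hp0] at h1
  have hc := le_card_torsion_ker K p hp0 hζ
  have hc0 : Nat.card (powMonoidHom p : torsion K →* torsion K).ker ≠ 0 := by
    have := Nat.pos_of_ne_zero hp0
    omega
  rw [h1]
  refine ⟨mul_ne_zero (pow_ne_zero _ hp0) hc0, ?_⟩
  calc p ^ (2 * (primesAbove (sProd S) K).ncard + Module.finrank ℚ K)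
      ≤ p ^ (2 * (Units.rank K + (ecountT S K).card + 1)) := by
        apply Nat.pow_le_pow_right (Nat.pos_of_ne_zero hp0)
        have := ecount_finrank_le K
        rw [← card_ecountT]
        omega
    _ = (p ^ (Units.rank K + (ecountT S K).card) * p) ^ 2 := by
        rw [← pow_succ, ← pow_mul, mul_comm]
    _ ≤ (p ^ (Units.rank K + (ecountT S K).card) *
          Nat.card (powMonoidHom p : torsion K →* torsion K).ker) ^ 2 :=
        Nat.pow_le_pow_left (Nat.mul_le_mul_left _ hc) 2

end Fermat.Agent.PT.X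


end ZBPT_058_1

/-! ### bundled: `Fermat.Agent.PT.X.SelFinite` -/
section ZBPT_058_2
/-
Project PT — PT-X / X-FIN, part 1 (helper56): the Selmer groups `selV`, `selVloc` of a number
field are stable under automorphisms and finite modulo `p`-th powers.
-/

set_option autoImplicit false

namespace Fermat.Agent.PT.X

open NumberField IsDedekindDomain
open Fermat.Agent.PT.G Fermat.Agent.PT.G1 Fermat.Agent.PT

section

variable (p : ℕ) (S : Finset Nat.Primes) (K : Type) [Field K] [NumberField K]

/-- `V` is stable under `Aut(K)`. -/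
lemma xfin_selV_stable (σ : K ≃ₐ[ℚ] K) (a : Kˣ) (ha : a ∈ selV p S K) :
    Units.map ((σ : K ≃ₐ[ℚ] K) : K →* K) a ∈ selV p S K := by
  intro P
  obtain ⟨Q, rfl⟩ := (offEquiv S σ).surjective P
  have h := ordAt_primeMap σ Q.1 a
  have h2 : (offEquiv S σ Q).1 = primeMap σ Q.1 := rfl
  rw [h2, h]
  exact ha Q

/-- `V_loc` is stable under `Aut(K)`. -/
lemma xfin_selVloc_stable (σ : K ≃ₐ[ℚ] K) (a : Kˣ) (ha : a ∈ selVloc p S K) :
    Units.map ((σ : K ≃ₐ[ℚ] K) : K →* K) a ∈ selVloc p S K := by
  refine ⟨xfin_selV_stable p S K σ a ha.1, ?_⟩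
  obtain ⟨j, hj⟩ := ha.2
  refine ⟨jlHom S σ j, ?_⟩
  rw [jlDiag_equivariant, hj, map_pow]

/-- The divisor classes: `Div_S(K) → Cl(K)`, additively. -/
noncomputable def xfinClass : DivS S K →+ Additive (ClassGroup (𝓞 K)) :=
  MonoidHom.toAdditiveRight (cseClass S K)

lemma xfin_ker_le_range :
    (xfinClass S K).ker ≤ (divHom S K).toAddMonoidHom.range := by
  intro d hd
  have hker : Multiplicative.ofAdd d ∈ (cseClass S K).ker := by
    rw [MonoidHom.mem_ker]
    exact Additive.ofMul.injective (AddMonoidHom.mem_ker.1 hd)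
  obtain ⟨x, hx, -⟩ := exists_ordAt_eq_of_mem_ker (K := K) (fun P : OffS S K => P.1)
    Subtype.val_injective _ hker
  refine ⟨Additive.ofMul x, ?_⟩
  ext P
  exact hx P

/-- The principal divisors have finite index in `Div_S(K)`. -/
lemma xfin_range_divHom_index : (divHom S K).toAddMonoidHom.range.index ≠ 0 := by
  haveI : (xfinClass S K).ker.FiniteIndex := AddSubgroup.finiteIndex_ker _
  haveI := AddSubgroup.finiteIndex_of_le (xfin_ker_le_range S K)
  exact AddSubgroup.FiniteIndex.index_ne_zero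

lemma xfin_divS_torsionFree (hp : p ≠ 0) (d : DivS S K) (h : p • d = 0) : d = 0 := by
  rcases smul_eq_zero.1 h with h | h
  · exact absurd h hp
  · exact h

/-- `V` in the abstract form of Count.lean. -/
lemma xfin_kummerV_eq (hp : p ≠ 0) :
    kummerV p (divHom S K).toAddMonoidHom = Subgroup.toAddSubgroup (selV p S K) := by
  ext a
  show (divHom S K) a ∈ nMul p (DivS S K) ↔ Additive.toMul a ∈ selV p S K
  rw [mem_nMul]
  constructor
  · rintro ⟨d, hd⟩ P
    have h1 : (p • d) P = divHom S K a P := by rw [hd]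
    rw [divHom_apply] at h1
    rw [← h1]
    exact ⟨d P, by simp⟩
  · intro h
    refine ⟨(divHom S K a).mapRange (fun n => n / (p : ℤ)) (by simp), ?_⟩
    ext P
    have h1 : (p : ℤ) ∣ divHom S K a P := h P
    simp only [Finsupp.coe_smul, Pi.smul_apply, Finsupp.mapRange_apply, nsmul_eq_mul]
    exact Int.mul_ediv_cancel' h1

/-- **`V` is finite modulo `p`-th powers.** -/
theorem xfin_selV_relIndex (hp : p ≠ 0) :
    (powMonoidHom p : Kˣ →* Kˣ).range.relIndex (selV p S K) ≠ 0 := by
  have h1 := relIndex_kummerV (p := p) (dv := (divHom S K).toAddMonoidHom)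
    (xfin_divS_torsionFree p S K hp)
  have h2 : (nMul p (Additive Kˣ)).relIndex (divHom S K).toAddMonoidHom.ker ≠ 0 := by
    rw [← LinearMap.ker_toAddSubgroup, ecount_relIndex_eq S K p hp,
      card_sunit_powQuot K (ecountT S K) p hp]
    exact mul_ne_zero (pow_ne_zero _ hp) Nat.card_pos.ne'
  have h3 : (divHom S K).toAddMonoidHom.range.relIndex
      ((divHom S K).toAddMonoidHom.range.comap (nsmulAddMonoidHom p : DivS S K →+ DivS S K)) ≠
      0 := by
    intro h0
    have h4 := AddSubgroup.relIndex_dvd_index_of_normal (divHom S K).toAddMonoidHom.range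
      ((divHom S K).toAddMonoidHom.range.comap (nsmulAddMonoidHom p : DivS S K →+ DivS S K))
    rw [h0, zero_dvd_iff] at h4
    exact xfin_range_divHom_index S K h4
  have h5 : (nMul p (Additive Kˣ)).relIndex (kummerV p (divHom S K).toAddMonoidHom) ≠ 0 := by
    rw [h1]
    exact mul_ne_zero h2 h3
  rw [xfin_kummerV_eq p S K hp, ecount_nMul_eq, Subgroup.relIndex_toAddSubgroup] at h5
  exact h5

/-- **`V_loc` is finite modulo `p`-th powers.** -/
theorem xfin_selVloc_relIndex (hp : p ≠ 0) :
    (powMonoidHom p : Kˣ →* Kˣ).range.relIndex (selVloc p S K) ≠ 0 := fun h0 =>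
  xfin_selV_relIndex p S K hp (Subgroup.relIndex_eq_zero_of_le_right (selVloc_le p S K) h0)

end

end Fermat.Agent.PT.X


end ZBPT_058_2
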