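/- GENERATED FILE (helper35, build-time optimisation, NOTES/ZB.md): verbatim concatenation of the modules
   Fermat.Agent.PT.A.HomEx
   Fermat.Agent.PT.A.DSAbs
   Fermat.Agent.PT.A.DSFree
   Fermat.Agent.PT.A.DSFinal
   Fermat.Agent.PT.A.Final
   Fermat.Agent.TW.L.Lb
   Fermat.Agent.PT.F.StdPres
   Fermat.Agent.PT.F.FinLevel
   Fermat.Agent.PT.F.SeqInPlan
   Fermat.Agent.PT.F.SeqDelExists
   Fermat.Agent.PT.F.SeqIn
   Fermat.Agent.PT.F.SeqInIn1b
   Fermat.Agent.PT.F.SeqInIn4b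
   Fermat.Agent.PT.F.SeqInM1Free
   Fermat.Agent.PT.F.SeqInPermSh1
   Fermat.Agent.PT.X.ExistTLBase
   Fermat.Agent.PT.X.ExistTL
   Do not edit; do not import together with these modules. -/
import Fermat.Agent.ZB.PT_002
import Fermat.Agent.ZB.PT_022
import Fermat.Agent.ZB.PT_030
import Fermat.Agent.ZB.PT_025
import Fermat.Agent.ZB.PT_026
import Fermat.Agent.ZB.PT_027
import Fermat.Agent.ZB.PT_028
import Fermat.Agent.ZB.PT_029
import Fermat.Agent.ZB.PT_023
import Fermat.Agent.ZB.PT_024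
import Fermat.Agent.ZB.PT_042
import Fermat.Agent.ZB.PT_041
import Fermat.Agent.ZB.PT_032
import Fermat.Agent.ZB.PT_058
import Fermat.Agent.ZB.PT_007

/-! ### bundled: `Fermat.Agent.PT.A.HomEx` -/
section ZBPT_031_0

/-!
# PT-A piece HOMEX: `Hom_ℤ(N, -)` preserves short exact sequences of `G`-modules when `N` is
`ℤ`-free of finite rank.

`stmtHomEx : StmtHomEx`.
-/

set_option autoImplicit false

namespace Fermat.Agent.PT

open CategoryTheory groupCohomology

attribute [local instance 1100] Rep.hV2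

variable {G : Type} [Group G]

/-- Exactness of a short complex of `Rep ℤ G`, elementwise. -/
lemma homEx_exact_iff (S : ShortComplex (Rep.{0} ℤ G)) :
    S.Exact ↔ ∀ y : S.X₂.V, S.g.hom y = 0 → ∃ x : S.X₁.V, S.f.hom x = y := by
  rw [← ShortComplex.exact_map_iff_of_faithful S (forget₂ (Rep.{0} ℤ G) (ModuleCat ℤ)),
    ShortComplex.moduleCat_exact_iff]
  rfl

/-- An additive map out of `Fin n → ℤ` with prescribed values on the standard basis. -/
noncomputable def homEx_lift {Y : Type} [AddCommGroup Y] (n : ℕ) (y : Fin n → Y) :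
    (Fin n → ℤ) →+ Y :=
  ∑ i : Fin n, (zmultiplesHom Y (y i)).comp (Pi.evalAddMonoidHom (fun _ : Fin n => ℤ) i)

lemma homEx_lift_single {Y : Type} [AddCommGroup Y] (n : ℕ) (y : Fin n → Y) (i : Fin n) :
    homEx_lift n y (Pi.single i 1) = y i := by
  classical
  simp only [homEx_lift, AddMonoidHom.finset_sum_apply, AddMonoidHom.comp_apply,
    Pi.evalAddMonoidHom_apply, zmultiplesHom_apply]
  rw [Finset.sum_eq_single i]
  · simp
  · intro j _ hj
    simp [Pi.single_eq_of_ne hj]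
  · intro h; exact absurd (Finset.mem_univ i) h

/-- Two additive maps out of `Fin n → ℤ` agreeing on the standard basis are equal. -/
lemma homEx_ext {Y : Type} [AddCommGroup Y] (n : ℕ) (a b : (Fin n → ℤ) →+ Y)
    (h : ∀ i, a (Pi.single i 1) = b (Pi.single i 1)) : a = b := by
  classical
  apply AddMonoidHom.functions_ext
  intro i k
  have h1 : ∀ c : (Fin n → ℤ) →+ Y, c (Pi.single i k) = k • c (Pi.single i 1) := by
    intro c
    rw [← map_zsmul c, ← Pi.single_smul, smul_eq_mul, mul_one]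
  rw [h1 a, h1 b, h i]

/-- **(HOMEX)** -/
theorem stmtHomEx : StmtHomEx := by
  intro G _ N hN X Y Z f g w w' hS
  obtain ⟨n, ⟨e⟩⟩ := hN
  have hinj : Function.Injective f.hom := (Rep.mono_iff_injective f).1 hS.mono_f
  have hsurj : Function.Surjective g.hom := (Rep.epi_iff_surjective g).1 hS.epi_g
  have hex : ∀ y : Y.V, g.hom y = 0 → ∃ x : X.V, f.hom x = y :=
    (homEx_exact_iff (ShortComplex.mk f g w)).1 hS.exact
  refine { exact := ?_, mono_f := ?_, epi_g := ?_ }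
  · -- exactness in the middle
    rw [homEx_exact_iff]
    intro (ψ : N.V →+ Y.V) hψ
    have hψ' : ∀ m : N.V, g.hom (ψ m) = 0 := fun m => by
      have := DFunLike.congr_fun (show ((homRepMap N g).hom ψ : N.V →+ Z.V) = 0 from hψ) m
      exact this
    choose φ hφ using fun m => hex (ψ m) (hψ' m)
    refine ⟨(AddMonoidHom.mk' φ (fun a b => hinj ?_) : N.V →+ X.V), ?_⟩
    · rw [map_add, hφ, hφ, hφ, map_add]
    · apply AddMonoidHom.ext
      intro m
      exact hφ m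
  · -- mono
    refine (Rep.mono_iff_injective _).2 ?_
    intro (φ₁ : N.V →+ X.V) (φ₂ : N.V →+ X.V) h
    apply AddMonoidHom.ext
    intro m
    apply hinj
    have := DFunLike.congr_fun (show ((homRepMap N f).hom φ₁ : N.V →+ Y.V)
      = (homRepMap N f).hom φ₂ from h) m
    exact this
  · -- epi
    refine (Rep.epi_iff_surjective _).2 ?_
    intro (χ : N.V →+ Z.V)
    choose y hy using fun i : Fin n => hsurj (χ (e.symm (Pi.single i 1)))
    refine ⟨((homEx_lift n y).comp e.toAddMonoidHom : N.V →+ Y.V), ?_⟩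
    apply AddMonoidHom.ext
    intro m
    change g.hom (homEx_lift n y (e m)) = χ m
    have h1 : (homAdd g).comp (homEx_lift n y) = χ.comp e.symm.toAddMonoidHom := by
      apply homEx_ext
      intro i
      simp only [AddMonoidHom.comp_apply, homEx_lift_single, homAdd_apply, hy]
      rfl
    have h2 := DFunLike.congr_fun h1 (e m)
    simpa using h2

end Fermat.Agent.PT


end ZBPT_031_0

/-! ### bundled: `Fermat.Agent.PT.A.DSAbs` -/
section ZBPT_031_1
/-
PT-A piece `DS-Abs` (helper79): the double dimension shift for two additively split short exact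
sequences `0 → M → E → M₁ → 0`, `0 → M₁ → E₁ → M₂ → 0` with weakly injective middle terms.

`dsMap h h₁ : A₂^G → H²(A₀)` is `δ₁ ∘ δ₀ ∘ H0Iso⁻¹`; it is computed on explicit lifts
(`IsDSLift`, `dsMap_eq_of_lift`), is surjective when `H¹(E₁) = H²(E) = 0` and, when `H¹(E) = 0`,
vanishes exactly on the images of the invariants of `E₁`.
`stmtDSAbs_of` : the sub-pieces `WI0, WI1, WI2, HomWI, HomPre, DSCompat` imply `StmtDSAbs`.
-/

set_option autoImplicit false

namespace Fermat.Agent.PT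

open CategoryTheory groupCohomology

attribute [local instance 1100] Rep.hV2

variable {G : Type} [Group G]

section shift

variable {X : ShortComplex (Rep.{0} ℤ G)} (hX : X.ShortExact)

include hX in
/-- pointwise lifting along `X.g` -/
lemma dsAbs_exists_lift_g (z : X.X₃.V) : ∃ y : X.X₂.V, X.g.hom y = z :=
  (Rep.epi_iff_surjective X.g).1 hX.epi_g z

include hX in
lemma dsAbs_exists_lift_f (y : X.X₂.V) (hy : X.g.hom y = 0) : ∃ x : X.X₁.V, X.f.hom x = y :=
  (homEx_exact_iff X).1 hX.exact y hy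

include hX in
lemma dsAbs_f_injective : Function.Injective X.f.hom :=
  (Rep.mono_iff_injective X.f).1 hX.mono_f

include hX in
/-- Lifts for `δ₀`. -/
lemma dsAbs_exists_lift₀ (z : X.X₃.V) (hz : ∀ g : G, X.X₃.ρ g z = z) :
    ∃ (y : X.X₂.V) (x : G → X.X₁.V), X.g.hom y = z ∧ X.f.hom ∘ x = d₀₁ X.X₂ y := by
  obtain ⟨y, hy⟩ := dsAbs_exists_lift_g hX z
  have h1 : ∀ g : G, X.g.hom (X.X₂.ρ g y - y) = 0 := by
    intro g
    rw [map_sub, Rep.hom_comm_apply, hy, hz, sub_self]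
  choose x hx using fun g => dsAbs_exists_lift_f hX _ (h1 g)
  refine ⟨y, x, hy, ?_⟩
  funext g
  simp [hx]

include hX in
/-- Lifts for `δ₁`. -/
lemma dsAbs_exists_lift₁ (z : G → X.X₃.V) (hz : z ∈ cocycles₁ X.X₃) :
    ∃ (y : G → X.X₂.V) (x : G × G → X.X₁.V), X.g.hom ∘ y = z ∧ X.f.hom ∘ x = d₁₂ X.X₂ y := by
  choose y hy using fun g => dsAbs_exists_lift_g hX (z g)
  have h1 : ∀ p : G × G, X.g.hom (d₁₂ X.X₂ y p) = 0 := by
    intro p
    have := (mem_cocycles₁_def z).1 hz p.1 p.2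
    simp only [d₁₂_hom_apply, map_add, map_sub, Rep.hom_comm_apply, hy]
    rw [this]
  choose x hx using fun p => dsAbs_exists_lift_f hX _ (h1 p)
  exact ⟨y, x, funext hy, funext hx⟩

include hX in
/-- The connecting map `δ₀` vanishes exactly on the images of invariants. -/
lemma dsAbs_δ₀_eq_zero_iff (z : X.X₃.ρ.invariants) :
    (δ hX 0 1 rfl).hom ((H0Iso X.X₃).inv.hom z) = 0 ↔
      ∃ y : X.X₂.V, (∀ g : G, X.X₂.ρ g y = y) ∧ X.g.hom y = z.1 := by
  constructor
  · intro h0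
    obtain ⟨y, x, hy, hx⟩ := dsAbs_exists_lift₀ hX z.1 (fun g => z.2 g)
    have h1 := δ₀_apply hX z y hy x hx
    have h2 : H1π X.X₁ ⟨x, mem_cocycles₁_of_comp_eq_d₀₁ hX hx⟩ = 0 := by
      rw [← h1]; exact h0
    rw [H1π_eq_zero_iff] at h2
    obtain ⟨x₀, hx₀⟩ := h2
    refine ⟨y - X.f.hom x₀, fun g => ?_, ?_⟩
    · have h3 := congrFun hx g
      have h4 := congrFun hx₀ g
      simp only [Function.comp_apply, d₀₁_hom_apply] at h3 h4
      change X.X₁.ρ g x₀ - x₀ = x g at h4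
      rw [← h4, map_sub, Rep.hom_comm_apply] at h3
      rw [map_sub]
      have h5 : X.X₂.ρ g y = X.X₂.ρ g (X.f.hom x₀) - X.f.hom x₀ + y := by rw [h3]; abel
      rw [h5]; abel
    · rw [map_sub]
      have : X.g.hom (X.f.hom x₀) = 0 := by
        have := X.zero
        have h5 := congrArg (fun φ => φ.hom x₀) this
        exact h5
      rw [this, sub_zero, hy]
  · rintro ⟨y, hy, hyz⟩
    have hx : X.f.hom ∘ (0 : G → X.X₁.V) = d₀₁ X.X₂ y := by
      funext g
      simp [hy g]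
    have h1 := δ₀_apply hX z y hyz 0 hx
    refine Eq.trans h1 ?_
    have : (⟨0, mem_cocycles₁_of_comp_eq_d₀₁ hX hx⟩ : cocycles₁ X.X₁) = 0 := rfl
    rw [this, map_zero]

include hX in
lemma dsAbs_δ₀_surjective (h1 : Subsingleton (H1 X.X₂)) (c : H1 X.X₁) :
    ∃ z : X.X₃.ρ.invariants, (δ hX 0 1 rfl).hom ((H0Iso X.X₃).inv.hom z) = c := by
  have : Epi (δ hX 0 1 rfl) := epi_δ_of_isZero hX 0 (ModuleCat.isZero_of_subsingleton _)
  obtain ⟨c', hc'⟩ := (ModuleCat.epi_iff_surjective (δ hX 0 1 rfl)).1 inferInstance c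
  refine ⟨(H0Iso X.X₃).hom.hom c', ?_⟩
  rw [← hc']
  congr 1
  exact Iso.hom_inv_id_apply (H0Iso X.X₃) c'

include hX in
lemma dsAbs_δ₁_surjective (h2 : Subsingleton (H2 X.X₂)) :
    Function.Surjective (δ hX 1 2 rfl).hom := by
  have : Epi (δ hX 1 2 rfl) := epi_δ_of_isZero hX 1 (ModuleCat.isZero_of_subsingleton _)
  exact (ModuleCat.epi_iff_surjective (δ hX 1 2 rfl)).1 inferInstance

include hX in
lemma dsAbs_δ₁_injective (h1 : Subsingleton (H1 X.X₂)) :
    Function.Injective (δ hX 1 2 rfl).hom := by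
  have : Mono (δ hX 1 2 rfl) := mono_δ_of_isZero hX 1 (ModuleCat.isZero_of_subsingleton _)
  exact (ModuleCat.mono_iff_injective (δ hX 1 2 rfl)).1 inferInstance

end shift

section double

variable {A₀ E A₁ E₁ A₂ : Rep.{0} ℤ G} {f : A₀ ⟶ E} {g : E ⟶ A₁} {f₁ : A₁ ⟶ E₁} {g₁ : E₁ ⟶ A₂}
  {w : f ≫ g = 0} {w₁ : f₁ ≫ g₁ = 0}
  (h : (ShortComplex.mk f g w).ShortExact) (h₁ : (ShortComplex.mk f₁ g₁ w₁).ShortExact)

/-- The double connecting map `A₂^G → H²(A₀)`. -/
noncomputable def dsMap (m : {m : A₂.V // ∀ γ : G, A₂.ρ γ m = m}) : H2 A₀ :=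
  (δ h 1 2 rfl).hom ((δ h₁ 0 1 rfl).hom ((H0Iso A₂).inv.hom ⟨m.1, m.2⟩))

lemma dsMap_surjective (h1 : Subsingleton (H1 E₁)) (h2 : Subsingleton (H2 E)) :
    Function.Surjective (dsMap h h₁) := by
  intro c
  obtain ⟨c₁, hc₁⟩ := dsAbs_δ₁_surjective h h2 c
  obtain ⟨z, hz⟩ := dsAbs_δ₀_surjective h₁ h1 c₁
  refine ⟨⟨z.1, z.2⟩, ?_⟩
  rw [← hc₁, ← hz]
  rfl

lemma dsMap_eq_zero_iff (h1 : Subsingleton (H1 E)) (m : {m : A₂.V // ∀ γ : G, A₂.ρ γ m = m}) :
    dsMap h h₁ m = 0 ↔ ∃ y : E₁.V, (∀ γ : G, E₁.ρ γ y = y) ∧ g₁.hom y = m.1 := by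
  rw [← dsAbs_δ₀_eq_zero_iff h₁ ⟨m.1, m.2⟩]
  constructor
  · intro h0
    apply dsAbs_δ₁_injective h h1
    rw [map_zero]
    exact h0
  · intro h0
    unfold dsMap
    rw [h0, map_zero]

/-- A system of lifts computing the double connecting map. -/
def IsDSLift (f : A₀ ⟶ E) (g : E ⟶ A₁) (f₁ : A₁ ⟶ E₁) (g₁ : E₁ ⟶ A₂) (m : A₂.V) (e₁ : E₁.V)
    (a : G → A₁.V) (et : G → E.V) (y : G × G → A₀.V) : Prop :=
  g₁.hom e₁ = m ∧ (∀ σ : G, f₁.hom (a σ) = E₁.ρ σ e₁ - e₁) ∧ (∀ σ : G, g.hom (et σ) = a σ) ∧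
    (∀ σ τ : G, f.hom (y (σ, τ)) = E.ρ σ (et τ) - et (σ * τ) + et σ)

include h h₁ in
lemma dsMap_exists_lift (m : {m : A₂.V // ∀ γ : G, A₂.ρ γ m = m}) :
    ∃ (e₁ : E₁.V) (a : G → A₁.V) (et : G → E.V) (y : G × G → A₀.V),
      IsDSLift f g f₁ g₁ m.1 e₁ a et y := by
  obtain ⟨e₁, a, he₁, ha⟩ := dsAbs_exists_lift₀ h₁ m.1 m.2
  have hac : a ∈ cocycles₁ A₁ := mem_cocycles₁_of_comp_eq_d₀₁ h₁ ha
  obtain ⟨et, y, het, hy⟩ := dsAbs_exists_lift₁ h a hac
  refine ⟨e₁, a, et, y, he₁, fun σ => ?_, fun σ => congrFun het σ, fun σ τ => ?_⟩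
  · have := congrFun ha σ
    simpa using this
  · have := congrFun hy (σ, τ)
    simpa using this

lemma dsMap_eq_of_lift (m : {m : A₂.V // ∀ γ : G, A₂.ρ γ m = m}) (e₁ : E₁.V)
    (a : G → A₁.V) (et : G → E.V) (y : G × G → A₀.V) (hl : IsDSLift f g f₁ g₁ m.1 e₁ a et y) :
    ∃ hy : y ∈ cocycles₂ A₀, dsMap h h₁ m = H2π A₀ ⟨y, hy⟩ := by
  obtain ⟨he₁, ha, het, hy⟩ := hl
  have ha' : (ShortComplex.mk f₁ g₁ w₁).f.hom ∘ a = d₀₁ (ShortComplex.mk f₁ g₁ w₁).X₂ e₁ := by
    funext σ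
    simpa using ha σ
  have k1 := δ₀_apply h₁ ⟨m.1, m.2⟩ e₁ he₁ a ha'
  have het' : (ShortComplex.mk f g w).g.hom ∘ et =
      (⟨a, mem_cocycles₁_of_comp_eq_d₀₁ h₁ ha'⟩ : cocycles₁ A₁) := funext het
  have hy' : (ShortComplex.mk f g w).f.hom ∘ y = d₁₂ (ShortComplex.mk f g w).X₂ et := by
    funext p
    simpa using hy p.1 p.2
  have k2 := δ₁_apply h ⟨a, mem_cocycles₁_of_comp_eq_d₀₁ h₁ ha'⟩ et het' y hy'
  refine ⟨mem_cocycles₂_of_comp_eq_d₁₂ h hy', ?_⟩
  unfold dsMap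
  refine Eq.trans ?_ k2
  congr 1

end double

section apply

lemma dsAbs_comp_zero {X Y Z : Rep.{0} ℤ G} (f : X ⟶ Y) (g : Y ⟶ Z) (w : f ≫ g = 0)
    (C : Rep.{0} ℤ G) : homRepPre g C ≫ homRepPre f C = 0 := by
  have hw : ∀ x, g.hom (f.hom x) = 0 := fun x => congrArg (fun φ => φ.hom x) w
  ext φ a
  change (φ : Z.V →+ C.V) (g.hom (f.hom a)) = 0
  rw [hw, map_zero]

/-- The push-forward of the class of a cocycle. -/
lemma dsAbs_push_H2π {A B : Rep.{0} ℤ G} (φ : A ⟶ B) (y : G × G → A.V) (hy : y ∈ cocycles₂ A) :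
    ∃ hy' : (fun p => φ.hom (y p)) ∈ cocycles₂ B,
      (push₂ φ).hom (H2π A ⟨y, hy⟩) = H2π B ⟨fun p => φ.hom (y p), hy'⟩ := by
  have key := H2π_comp_map_apply (MonoidHom.id G) φ ⟨y, hy⟩
  refine ⟨(mapCocycles₂ (MonoidHom.id G) φ ⟨y, hy⟩).2, ?_⟩
  exact key

/-- Two cocycles differing by a coboundary, up to sign. -/
lemma dsAbs_H2π_eq_neg (B : Rep.{0} ℤ G) (u v : G × G → B.V) (hu : u ∈ cocycles₂ B)
    (hv : v ∈ cocycles₂ B) (c : G → B.V)
    (huv : ∀ σ τ : G, u (σ, τ) = - v (σ, τ) + (B.ρ σ (c τ) - c (σ * τ) + c σ)) :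
    H2π B ⟨u, hu⟩ = (-1 : ℤ) • H2π B ⟨v, hv⟩ := by
  rw [← map_zsmul, H2π_eq_iff]
  refine ⟨c, ?_⟩
  funext p
  obtain ⟨σ, τ⟩ := p
  simp only [d₁₂_hom_apply]
  have := huv σ τ
  change B.ρ σ (c τ) - c (σ * τ) + c σ = u (σ, τ) - ((-1 : ℤ) • v) (σ, τ)
  rw [this]
  simp

/-- The morphism of representations attached to an invariant additive map. -/
noncomputable def dsAbs_mkHom (M C : Rep.{0} ℤ G) (φ : M.V →+ C.V)
    (hφ : ∀ γ : G, (homRep M C).ρ γ φ = φ) : M ⟶ C :=
  ConcreteCategory.ofHom (C := Rep.{0} ℤ G) (X := M) (Y := C)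
    (LinearMap.intertwiningMap_of_isIntertwiningMap (ρ := M.ρ) (σ := C.ρ) (f := addToLin φ)
      (fun γ m => by
        have := DFunLike.congr_fun (hφ γ) (M.ρ γ m)
        have h2 : C.ρ γ (φ (M.ρ γ⁻¹ (M.ρ γ m))) = φ (M.ρ γ m) := this
        have h3 : M.ρ γ⁻¹ (M.ρ γ m) = m := by
          rw [← Module.End.mul_apply, ← map_mul, inv_mul_cancel, map_one, Module.End.one_apply]
        rw [h3] at h2
        exact h2.symm))

lemma dsAbs_mkHom_apply (M C : Rep.{0} ℤ G) (φ : M.V →+ C.V)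
    (hφ : ∀ γ : G, (homRep M C).ρ γ φ = φ) (m : M.V) :
    (dsAbs_mkHom M C φ hφ).hom m = φ m := rfl

lemma dsAbs_homAdd_invariant {M C : Rep.{0} ℤ G} (g : M ⟶ C) (γ : G) :
    (homRep M C).ρ γ (homAdd g) = homAdd g := by
  apply AddMonoidHom.ext
  intro m
  change C.ρ γ (g.hom (M.ρ γ⁻¹ m)) = g.hom m
  rw [← Rep.hom_comm_apply, ← Module.End.mul_apply, ← map_mul, mul_inv_cancel, map_one,
    Module.End.one_apply]

variable [Fintype G]

/-- A norm is invariant. -/
lemma dsAbs_norm_invariant (X : Rep.{0} ℤ G) (a : X.V) (σ : G) :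
    X.ρ σ (∑ γ : G, X.ρ γ a) = ∑ γ : G, X.ρ γ a := by
  rw [map_sum]
  refine Fintype.sum_equiv (Equiv.mulLeft σ) _ _ fun γ => ?_
  simp only [Equiv.coe_mulLeft, map_mul, Module.End.mul_apply]

/-- **(DS-Abs)** from the sub-pieces. -/
theorem stmtDSAbs_of (h0 : StmtWI0) (h1 : StmtWI1) (h2 : StmtWI2) (hHW : StmtHomWI)
    (hHP : StmtHomPre) (hC : StmtDSCompat) : StmtDSAbs := by
  intro G _ _ M C E M₁ E₁ M₂ ι π ι₁ π₁ w w₁ h h₁ hE hE₁ hr hr₁
  have w' : homRepPre π C ≫ homRepPre ι C = 0 := dsAbs_comp_zero ι π w C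
  have w₁' : homRepPre π₁ C ≫ homRepPre ι₁ C = 0 := dsAbs_comp_zero ι₁ π₁ w₁ C
  have hH := hHP G C M E M₁ ι π w w' h hr
  have hH₁ := hHP G C M₁ E₁ M₂ ι₁ π₁ w₁ w₁' h₁ hr₁
  have e1 : Subsingleton (H1 E) := h1 G E hE
  have e2 : Subsingleton (H2 E) := h2 G E hE
  have e1' : Subsingleton (H1 E₁) := h1 G E₁ hE₁
  have hHE : IsWI (homRep E C) := hHW G E C hE
  have hHE₁ : IsWI (homRep E₁ C) := hHW G E₁ C hE₁
  have f1 : Subsingleton (H1 (homRep E C)) := h1 G _ hHE
  have f1' : Subsingleton (H1 (homRep E₁ C)) := h1 G _ hHE₁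
  have f2' : Subsingleton (H2 (homRep E₁ C)) := h2 G _ hHE₁
  refine ⟨dsMap h h₁, fun g => dsMap hH₁ hH ⟨homAdd g, dsAbs_homAdd_invariant g⟩,
    dsMap_surjective h h₁ e1' e2, ?_, ?_, ?_, ?_⟩
  · -- surjectivity of dH
    intro c
    obtain ⟨⟨φ, hφ⟩, hc⟩ := dsMap_surjective hH₁ hH f1 f2' c
    refine ⟨dsAbs_mkHom M C φ hφ, ?_⟩
    rw [← hc]
    rfl
  · -- kernel of dM
    intro m
    rw [dsMap_eq_zero_iff h h₁ e1 m]
    constructor
    · rintro ⟨y, hy, hym⟩
      obtain ⟨a, ha⟩ := h0 G E₁ hE₁ y hy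
      refine ⟨π₁.hom a, ?_⟩
      rw [← hym, ha, map_sum]
      refine Finset.sum_congr rfl fun γ _ => ?_
      rw [Rep.hom_comm_apply]
    · rintro ⟨a', ha'⟩
      obtain ⟨e, he⟩ := dsAbs_exists_lift_g h₁ a'
      refine ⟨∑ γ : G, E₁.ρ γ e, dsAbs_norm_invariant E₁ e, ?_⟩
      rw [map_sum, ha']
      refine Finset.sum_congr rfl fun γ _ => ?_
      rw [Rep.hom_comm_apply]
      exact congrArg _ he
  · -- kernel of dH
    intro g
    rw [dsMap_eq_zero_iff hH₁ hH f1' ⟨homAdd g, dsAbs_homAdd_invariant g⟩]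
    constructor
    · rintro ⟨φ, hφ, hφg⟩
      obtain ⟨ψ, hψ⟩ := h0 G (homRep E C) hHE φ hφ
      refine ⟨(ψ : E.V →+ C.V).comp (homAdd ι), fun m => ?_⟩
      have k1 : g.hom m = (φ : E.V →+ C.V) (ι.hom m) := (DFunLike.congr_fun hφg m).symm
      rw [k1, normAdd_apply, hψ]
      have k2 : ((∑ γ : G, (homRep E C).ρ γ ψ : (homRep E C).V) : E.V →+ C.V) (ι.hom m) =
          ∑ γ : G, ((homRep E C).ρ γ ψ : E.V →+ C.V) (ι.hom m) :=
        AddMonoidHom.finsetSum_apply _ _ _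
      refine k2.trans ?_
      refine Finset.sum_congr rfl fun γ _ => ?_
      change C.ρ γ ((ψ : E.V →+ C.V) (E.ρ γ⁻¹ (ι.hom m))) = _
      rw [← Rep.hom_comm_apply]
      rfl
    · rintro ⟨hh, hg⟩
      obtain ⟨r, hr⟩ := hr
      refine ⟨∑ γ : G, (homRep E C).ρ γ (hh.comp r : E.V →+ C.V),
        dsAbs_norm_invariant (homRep E C) _, ?_⟩
      apply AddMonoidHom.ext
      intro m
      change ((∑ γ : G, (homRep E C).ρ γ (hh.comp r : E.V →+ C.V) : (homRep E C).V) :
        E.V →+ C.V) (ι.hom m) = g.hom m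
      have k2 : ((∑ γ : G, (homRep E C).ρ γ (hh.comp r : E.V →+ C.V) : (homRep E C).V) :
          E.V →+ C.V) (ι.hom m) =
          ∑ γ : G, ((homRep E C).ρ γ (hh.comp r : E.V →+ C.V) : E.V →+ C.V) (ι.hom m) :=
        AddMonoidHom.finsetSum_apply _ _ _
      rw [k2, hg m, normAdd_apply]
      refine Finset.sum_congr rfl fun γ _ => ?_
      change C.ρ γ (hh (r (E.ρ γ⁻¹ (ι.hom m)))) = _
      rw [← Rep.hom_comm_apply, hr]
  · -- compatibility
    intro g m
    obtain ⟨e₁, a, et, y, hl⟩ := dsMap_exists_lift h h₁ m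
    obtain ⟨gt, b, bt, z, hl'⟩ :=
      dsMap_exists_lift hH₁ hH ⟨homAdd g, dsAbs_homAdd_invariant g⟩
    obtain ⟨hy, hdM⟩ := dsMap_eq_of_lift h h₁ m e₁ a et y hl
    obtain ⟨hz, hdH⟩ := dsMap_eq_of_lift hH₁ hH _ gt b bt z hl'
    obtain ⟨hy', k1⟩ := dsAbs_push_H2π g y hy
    obtain ⟨hz', k2⟩ := dsAbs_push_H2π (evHom M₂ C m.1 m.2) z hz
    change (push₂ (evHom M₂ C m.1 m.2)).hom (dsMap hH₁ hH ⟨homAdd g, _⟩) =
      (-1 : ℤ) • (push₂ g).hom (dsMap h h₁ m)
    rw [hdM, hdH, k1, k2]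
    obtain ⟨c, hc⟩ := hC G M C E M₁ E₁ M₂ ι π ι₁ π₁ (dsAbs_f_injective h₁)
      ((Rep.epi_iff_surjective π).1 h.epi_g) e₁ a et y g gt b bt z hl.2.1 hl.2.2.1 hl.2.2.2
      (fun x => DFunLike.congr_fun hl'.1 x)
      (fun σ x => DFunLike.congr_fun (hl'.2.1 σ) x)
      (fun σ x => DFunLike.congr_fun (hl'.2.2.1 σ) x)
      (fun σ τ x => DFunLike.congr_fun (hl'.2.2.2 σ τ) x)
    apply dsAbs_H2π_eq_neg C _ _ hz' hy' c
    intro σ τ
    have := hc σ τ
    rw [hl.1] at this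
    exact this

end apply

end Fermat.Agent.PT


end ZBPT_031_1

/-! ### bundled: `Fermat.Agent.PT.A.DSFree` -/
section ZBPT_031_2

/-!
# PT-A piece DS-Free: the cokernel of `A → Coind_1^G A` is `ℤ`-free of finite rank when `A` is.

`stmtShiftFree : StmtShiftFree`.

The additive map `f ↦ (x ↦ f x - x • f 1)` identifies the cokernel with the functions
`G ∖ {1} → A`.
-/

set_option autoImplicit false

namespace Fermat.Agent.PT.DSFree

open CategoryTheory groupCohomology Limits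
open Fermat.Agent.PT.SylowRes Fermat.Agent.PT.HomCoind Fermat.Agent.PT.DSCoind

attribute [local instance 1100] Rep.hV2

/-- Two surjective additive maps with the same kernel have isomorphic targets. -/
lemma addEquiv_of_surjective_of_ker {Y Z W : Type} [AddCommGroup Y] [AddCommGroup Z]
    [AddCommGroup W] (π : Y →+ Z) (q : Y →+ W) (hπ : Function.Surjective π)
    (hq : Function.Surjective q) (h : ∀ y, π y = 0 ↔ q y = 0) : Nonempty (Z ≃+ W) := by
  have hker : π.ker = q.ker := by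
    ext y
    simp only [AddMonoidHom.mem_ker]
    exact h y
  exact ⟨(QuotientAddGroup.quotientKerEquivOfSurjective π hπ).symm.trans
    ((QuotientAddGroup.quotientAddEquivOfEq hker).trans
      (QuotientAddGroup.quotientKerEquivOfSurjective q hq))⟩

/-- Functions from a finite type into a `ℤ`-free group of finite rank form a `ℤ`-free group of
finite rank. -/
lemma isZFree_pi (X : Type) [AddCommGroup X] (ι : Type) [Fintype ι]
    (hX : ∃ n : ℕ, Nonempty (X ≃+ (Fin n → ℤ))) :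
    ∃ m : ℕ, Nonempty ((ι → X) ≃+ (Fin m → ℤ)) := by
  obtain ⟨n, ⟨e⟩⟩ := hX
  refine ⟨Fintype.card (ι × Fin n), ⟨?_⟩⟩
  have e1 : (ι → X) ≃+ (ι → Fin n → ℤ) := AddEquiv.piCongrRight (fun _ => e)
  have e2 : (ι → Fin n → ℤ) ≃+ (ι × Fin n → ℤ) :=
    (LinearEquiv.curry ℤ ℤ ι (Fin n)).symm.toAddEquiv
  have e3 : (ι × Fin n → ℤ) ≃+ (Fin (Fintype.card (ι × Fin n)) → ℤ) :=
    (LinearEquiv.funCongrLeft ℤ ℤ (Fintype.equivFin (ι × Fin n)).symm).toAddEquiv
  exact e1.trans (e2.trans e3)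

variable {G : Type} [Group G]

/-- `f ↦ (x ↦ f x - x • f 1)` on `G ∖ {1}`. -/
noncomputable def qAdd (A : Rep.{0} ℤ G) : (coindTriv A).V →+ ({x : G // x ≠ 1} → A.V) where
  toFun f := fun x => f.1 x.1 - A.ρ x.1 (f.1 1)
  map_zero' := by
    funext x
    change (0 : A.V) - A.ρ x.1 (0 : A.V) = 0
    simp
  map_add' f g := by
    funext x
    change (f.1 x.1 + g.1 x.1) - A.ρ x.1 (f.1 1 + g.1 1) =
      (f.1 x.1 - A.ρ x.1 (f.1 1)) + (g.1 x.1 - A.ρ x.1 (g.1 1))
    rw [map_add]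
    abel

lemma qAdd_apply (A : Rep.{0} ℤ G) (f : (coindTriv A).V) (x : {x : G // x ≠ 1}) :
    qAdd A f x = f.1 x.1 - A.ρ x.1 (f.1 1) := rfl

lemma qAdd_surjective (A : Rep.{0} ℤ G) : Function.Surjective (qAdd A) := by
  classical
  intro w
  refine ⟨mkCoind A (fun x => if h : x = 1 then 0 else w ⟨x, h⟩), ?_⟩
  funext x
  rw [qAdd_apply, mkCoind_val, mkCoind_val, dif_neg x.2, dif_pos rfl, map_zero, sub_zero]

lemma qAdd_eq_zero_iff (A : Rep.{0} ℤ G) (f : (coindTriv A).V) :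
    qAdd A f = 0 ↔ ∃ a : A.V, (unitHom A).hom a = f := by
  constructor
  · intro h
    refine ⟨f.1 1, ?_⟩
    apply coindTriv_ext
    intro x
    rw [unitHom_apply]
    by_cases hx : x = 1
    · subst hx
      rw [map_one]
      rfl
    · have := congrFun h ⟨x, hx⟩
      rw [qAdd_apply] at this
      exact (sub_eq_zero.1 this).symm
  · rintro ⟨a, rfl⟩
    funext x
    rw [qAdd_apply, unitHom_apply, unitHom_apply, map_one]
    change A.ρ x.1 a - A.ρ x.1 a = 0
    exact sub_self _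

end Fermat.Agent.PT.DSFree

namespace Fermat.Agent.PT

open CategoryTheory groupCohomology Limits
open Fermat.Agent.PT.SylowRes Fermat.Agent.PT.HomCoind Fermat.Agent.PT.DSCoind
  Fermat.Agent.PT.DSFree

attribute [local instance 1100] Rep.hV2

/-- **(DS-ShiftFree)** -/
theorem stmtShiftFree : StmtShiftFree := by
  classical
  intro G _ _ A hA
  have hS := shiftSC_shortExact A
  have hsurj : Function.Surjective (cokernel.π (unitHom A)).hom :=
    (Rep.epi_iff_surjective _).1 hS.epi_g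
  have hex : ∀ y : (coindTriv A).V, (cokernel.π (unitHom A)).hom y = 0 →
      ∃ x : A.V, (unitHom A).hom x = y :=
    (homEx_exact_iff (shiftSC A)).1 hS.exact
  have hzero : ∀ a : A.V, (cokernel.π (unitHom A)).hom ((unitHom A).hom a) = 0 := by
    intro a
    have := cokernel.condition (unitHom A)
    exact congr($(this).hom a)
  obtain ⟨e⟩ := addEquiv_of_surjective_of_ker (homAdd (cokernel.π (unitHom A))) (qAdd A)
    hsurj (qAdd_surjective A) (fun y => by
      rw [qAdd_eq_zero_iff]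
      constructor
      · intro h
        exact hex y h
      · rintro ⟨a, rfl⟩
        exact hzero a)
  obtain ⟨m, ⟨e'⟩⟩ := isZFree_pi A.V {x : G // x ≠ 1} hA
  exact ⟨m, ⟨e.trans e'⟩⟩

end Fermat.Agent.PT


end ZBPT_031_2

/-! ### bundled: `Fermat.Agent.PT.A.DSFinal` -/
section ZBPT_031_3
/-
PT-A piece `DS` (double dimension shift with compatibility), unconditional:
`stmtDSAbs : StmtDSAbs` and `stmtDS : StmtDS`, assembled from the sub-pieces
`DSWI` (helper9), `DSHomPre` (helper9), `DSCompat` (helper60), `DSCoind`, `DSFree` (helper87),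
`DSAbs` (helper79) and `DS` (`stmtDS_of`, helper9).
-/

set_option autoImplicit false

namespace Fermat.Agent.PT

/-- **(DS-Abs)**, unconditional. -/
theorem stmtDSAbs : StmtDSAbs :=
  stmtDSAbs_of stmtWI0 stmtWI1 stmtWI2 stmtHomWI stmtHomPre stmtDSCompat

/-- **(DS)** Double dimension shift with compatibility, unconditional. -/
theorem stmtDS : StmtDS :=
  stmtDS_of stmtDSAbs stmtCoindWI stmtShiftFree

end Fermat.Agent.PT


end ZBPT_031_3

/-! ### bundled: `Fermat.Agent.PT.A.Final` -/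
section ZBPT_031_4
/-
PT-A, final wiring (helper9): **Tate–Nakayama duality in degree (0,2), `p`-part**, unconditional.

* `stmtTNp   : StmtTNp`   — the `p`-group case (fundamental class `IsFundClass`);
* `stmtTNadd : StmtTNadd` — finite `G` with a `p`-fundamental class, instance-free form;
* `stmtTN'   : StmtTN'`   — the same in the form of `Plan.lean` (`Module.Free`, `normHom`).

Pieces: KILL, Sylow, RED (helper11), NORM0, DS-Compat (helper60), D00, D00', TN0 (helper81),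
HOMEX (helper91), FpCT (helper32), CT, DS-Coind, DS-Free (helper87), SM, InfRes₂ (helper86),
DS-Abs (helper79), DS-WI, DS-HomPre, assembly TNp/TN (helper9).
-/

set_option autoImplicit false

namespace Fermat.Agent.PT

/-- **(CT)** cohomological triviality, unconditional. -/
theorem stmtCT : StmtCT := stmtCT_of stmtFpCT stmtKill stmtHomEx

/-- **(TN0)** unconditional. -/
theorem stmtTN0 : StmtTN0 := stmtTN0_of stmtSM stmtCT stmtHomEx

/-- **Tate–Nakayama (0,2) for a `p`-group** with a fundamental class. -/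
theorem stmtTNp : StmtTNp :=
  stmtTNp_of_pieces stmtTN0 stmtDS stmtD00 stmtD00' stmtNormZero

/-- **Tate–Nakayama (0,2), `p`-part**, instance-free form. -/
theorem stmtTNadd : StmtTNadd :=
  stmtTNadd_of_pieces stmtTNp stmtRedR stmtRedL stmtSylow

/-- **Tate–Nakayama (0,2), `p`-part** (the goal of PT-A). -/
theorem stmtTN' : StmtTN' := stmtTN'_of_TNadd stmtTNadd

end Fermat.Agent.PT


end ZBPT_031_4

/-! ### bundled: `Fermat.Agent.TW.L.Lb` -/
section ZBPT_031_5
/-
TW-L / L-lb (helper30): **(Lb)** local existence mod `p`.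

If the local field `F` (finite over `ℚ_q`) contains the `p`-th roots of unity, then there is a
finite Galois extension `E/F` all of whose norms are `p`-th powers.

`E` is the maximal abelian extension of exponent `p` (`PT.L.kummerMax`, degree `[Fˣ : Fˣᵖ]`);
`H²(Gal(E/F), Eˣ)` is cyclic of order `[E : F]` (`PT.L.la`) and `H¹ = 0` (Hilbert 90), so `Eˣ`
has a fundamental class; Tate's theorem in the forms (T1) `p • (Eˣ)^G ⊂ N Eˣ` and
(T2) `|G| ≤ [(Eˣ)^G : N Eˣ]` (`PT.X.tateExp`, `PT.X.tateIdx`) gives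
`Fˣᵖ ⊂ N Eˣ` and `[E : F] ≤ [Fˣ : N Eˣ] ≤ [Fˣ : Fˣᵖ] = [E : F]`, hence `N Eˣ = Fˣᵖ`.

  `stmtLb : Fermat.Agent.PT.L.StmtLb`
-/

set_option autoImplicit false

namespace Fermat.Agent.TW.L

open groupCohomology Fermat.Agent.PT Fermat.Agent.PT.L

section abstract

variable (F E : Type) [Field F] [Field E] [Algebra F E]

/-- The inclusion `Fˣ → Eˣ`. -/
noncomputable def llbIncl : Fˣ →* Eˣ := Units.map (algebraMap F E : F →* E)

/-- The norm `Eˣ → Fˣ`. -/
noncomputable def llbNorm : Eˣ →* Fˣ := Units.map (Algebra.norm F : E →* F)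

lemma llbIncl_injective : Function.Injective (llbIncl F E) :=
  Units.map_injective (f := (algebraMap F E : F →* E)) (algebraMap F E).injective

lemma llbIncl_val (x : Fˣ) : ((llbIncl F E x : Eˣ) : E) = algebraMap F E x := rfl

lemma llbNorm_val (y : Eˣ) : ((llbNorm F E y : Fˣ) : F) = Algebra.norm F (y : E) := rfl

variable [FiniteDimensional F E] [IsGalois F E]

/-- The invariants of `Eˣ` are the image of `Fˣ`. -/
lemma llb_inv_iff (c : Additive Eˣ) :
    c ∈ Subgroup.toAddSubgroup (llbIncl F E).range ↔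
      ∀ g : E ≃ₐ[F] E, (Rep.ofAlgebraAutOnUnits F E).ρ g c = c := by
  constructor
  · rintro ⟨x, hx⟩ g
    have hx' : llbIncl F E x = c.toMul := hx
    change Additive.ofMul (g • c.toMul) = c
    have : g • c.toMul = c.toMul := by
      rw [← hx']
      ext
      change g (algebraMap F E x) = algebraMap F E x
      exact g.commutes _
    rw [this]
    rfl
  · intro h
    have hfix : ∀ g : E ≃ₐ[F] E, g (c.toMul : E) = (c.toMul : E) := by
      intro g
      have := h g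
      change Additive.ofMul (g • c.toMul) = c at this
      have h2 : g • c.toMul = c.toMul := this
      exact congrArg Units.val h2
    obtain ⟨x0, hx0⟩ := (IsGalois.mem_range_algebraMap_iff_fixed (F := F) (c.toMul : E)).2 hfix
    have hx0ne : x0 ≠ 0 := by
      rintro rfl
      rw [map_zero] at hx0
      exact c.toMul.ne_zero hx0.symm
    refine ⟨Units.mk0 x0 hx0ne, ?_⟩
    ext
    exact hx0

/-- The norm of an element of `Eˣ`, computed in `Additive Eˣ`. -/
lemma llb_sum_eq (a : Additive Eˣ) :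
    (∑ γ : E ≃ₐ[F] E, (Additive.ofMul (γ • a.toMul) : Additive Eˣ)) =
      Additive.ofMul (llbIncl F E (llbNorm F E a.toMul)) := by
  rw [← ofMul_prod]
  congr 1
  ext
  rw [Units.coe_prod, llbIncl_val, llbNorm_val, Algebra.norm_eq_prod_automorphisms]
  rfl

/-- The norm elements of `Eˣ` are the image of the norms. -/
lemma llb_norm_iff (c : Additive Eˣ) :
    c ∈ Subgroup.toAddSubgroup ((llbNorm F E).range.map (llbIncl F E)) ↔
      IsNormElt (Rep.ofAlgebraAutOnUnits F E) c := by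
  constructor
  · rintro ⟨x, ⟨a, rfl⟩, hx⟩
    refine ⟨Additive.ofMul a, ?_⟩
    have h := llb_sum_eq F E (Additive.ofMul a)
    have hx' : c = Additive.ofMul (llbIncl F E (llbNorm F E a)) :=
      congrArg Additive.ofMul hx.symm
    exact hx'.trans h.symm
  · rintro ⟨a, ha⟩
    let a' : Additive Eˣ := a
    have ha' : c = ∑ γ : E ≃ₐ[F] E, (Additive.ofMul (γ • Additive.toMul a') : Additive Eˣ) := ha
    refine ⟨llbNorm F E (Additive.toMul a'), ⟨_, rfl⟩, ?_⟩
    exact ((llb_sum_eq F E a').symm.trans ha'.symm)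

variable (p : ℕ) [Fact p.Prime]

/-- (T1) for `E/F`: `Fˣᵖ ⊂ N Eˣ`. -/
lemma llb_pow_le (hexp : ∀ g : E ≃ₐ[F] E, g ^ p = 1)
    (u : H2 (Rep.ofAlgebraAutOnUnits F E)) (hu : IsFundClass (Rep.ofAlgebraAutOnUnits F E) u) :
    (powMonoidHom p : Fˣ →* Fˣ).range ≤ (llbNorm F E).range := by
  rintro _ ⟨x, rfl⟩
  have hc := (llb_inv_iff F E (Additive.ofMul (llbIncl F E x))).1 ⟨x, rfl⟩
  have hn := X.tateExp stmtTNp p (E ≃ₐ[F] E) hexp _ u hu _ hc
  obtain ⟨z, ⟨a, rfl⟩, hz⟩ := (llb_norm_iff F E _).2 hn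
  refine ⟨a, llbIncl_injective F E ?_⟩
  rw [hz]
  change _ = llbIncl F E (x ^ p)
  rw [map_pow]
  rfl

/-- (T2) for `E/F`: `[E : F] ≤ [Fˣ : N Eˣ]`. -/
lemma llb_card_le (hcomm : ∀ g h : E ≃ₐ[F] E, g * h = h * g) (hexp : ∀ g : E ≃ₐ[F] E, g ^ p = 1)
    (u : H2 (Rep.ofAlgebraAutOnUnits F E)) (hu : IsFundClass (Rep.ofAlgebraAutOnUnits F E) u)
    (hfin : (llbNorm F E).range.index ≠ 0) :
    Module.finrank F E ≤ (llbNorm F E).range.index := by
  have hrel : (Subgroup.toAddSubgroup ((llbNorm F E).range.map (llbIncl F E))).relIndex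
      (Subgroup.toAddSubgroup (llbIncl F E).range) = (llbNorm F E).range.index := by
    rw [Subgroup.relIndex_toAddSubgroup, ← Subgroup.index_comap,
      Subgroup.comap_map_eq_self_of_injective (llbIncl_injective F E)]
  rw [← IsGalois.card_aut_eq_finrank, ← hrel]
  refine X.tateIdx stmtTNp stmtNormZero p (E ≃ₐ[F] E) hcomm hexp _ u hu _ _
    (fun c => llb_inv_iff F E c) (fun c => llb_norm_iff F E c) ?_
  exact fun h => hfin (hrel.symm.trans h)

/-- Abstract core of (Lb). -/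
theorem llb_core (hcomm : ∀ g h : E ≃ₐ[F] E, g * h = h * g) (hexp : ∀ g : E ≃ₐ[F] E, g ^ p = 1)
    (u : H2 (Rep.ofAlgebraAutOnUnits F E)) (hu : IsFundClass (Rep.ofAlgebraAutOnUnits F E) u)
    (hidx : Module.finrank F E = (powMonoidHom p : Fˣ →* Fˣ).range.index) :
    ∀ y : E, ∃ x : F, Algebra.norm F y = x ^ p := by
  have hp0 : p ≠ 0 := (Fact.out : p.Prime).ne_zero
  have hPne : (powMonoidHom p : Fˣ →* Fˣ).range.index ≠ 0 := by
    rw [← hidx]
    exact Module.finrank_pos.ne'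
  have hle := llb_pow_le F E p hexp u hu
  have hdvd := Subgroup.index_dvd_of_le hle
  have hNne : (llbNorm F E).range.index ≠ 0 := fun h0 => hPne (by
    rw [h0] at hdvd
    exact Nat.eq_zero_of_zero_dvd hdvd)
  have h1 := llb_card_le F E p hcomm hexp u hu hNne
  have h2 : (llbNorm F E).range.index ≤ (powMonoidHom p : Fˣ →* Fˣ).range.index :=
    Nat.le_of_dvd (Nat.pos_of_ne_zero hPne) hdvd
  have heq : (llbNorm F E).range.index = (powMonoidHom p : Fˣ →* Fˣ).range.index :=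
    le_antisymm h2 (hidx ▸ h1)
  have hrel : (powMonoidHom p : Fˣ →* Fˣ).range.relIndex (llbNorm F E).range = 1 := by
    have := Subgroup.relIndex_mul_index hle
    rw [heq] at this
    exact Nat.eq_of_mul_eq_mul_right (Nat.pos_of_ne_zero hPne) (by rw [this, one_mul])
  have hge : (llbNorm F E).range ≤ (powMonoidHom p : Fˣ →* Fˣ).range :=
    Subgroup.relIndex_eq_one.1 hrel
  intro y
  by_cases hy : y = 0
  · refine ⟨0, ?_⟩
    rw [hy, zero_pow hp0]
    exact Algebra.norm_zero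
  · obtain ⟨x, hx⟩ := hge ⟨Units.mk0 y hy, rfl⟩
    refine ⟨(x : F), ?_⟩
    have := congrArg Units.val hx
    change ((x ^ p : Fˣ) : F) = Algebra.norm F y at this
    rw [← this, Units.val_pow_eq_pow_val]

end abstract

/-- **(Lb)**, unconditional: local existence mod `p`. -/
theorem stmtLb : StmtLb := by
  intro q _ p _ F _ _ _ ζ hζ
  obtain ⟨E, hE, hA, hfd, hgal, hidx, hcomm, hexp⟩ := kummerMax q p F ζ hζ
  refine ⟨E, hE, hA, hfd, hgal, ?_⟩
  have hpG : IsPGroup p (E ≃ₐ[F] E) := fun g => ⟨1, by simpa using hexp g⟩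
  obtain ⟨k, hk⟩ := (IsPGroup.iff_card (p := p) (G := E ≃ₐ[F] E)).1 hpG
  have hdeg : Module.finrank F E = p ^ k := by
    rw [← IsGalois.card_aut_eq_finrank, hk]
  obtain ⟨hcyc, hcard⟩ := la q p k F E hdeg
  obtain ⟨u, hu⟩ := hcyc.exists_generator
  have hfund : IsFundClass (Rep.ofAlgebraAutOnUnits F E) u := by
    refine ⟨inferInstance, ?_, fun x => ?_⟩
    · rw [hcard, IsGalois.card_aut_eq_finrank]
    · obtain ⟨n, hn⟩ := AddSubgroup.mem_zmultiples_iff.1 (hu x)
      exact ⟨n, hn⟩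
  exact llb_core F E p hcomm hexp u hfund hidx

end Fermat.Agent.TW.L


end ZBPT_031_5

/-! ### bundled: `Fermat.Agent.PT.F.StdPres` -/
section ZBPT_031_6
/-
PT-F — the STANDARD PRESENTATION (helper55), built to helper68's requirements:

* `Γ₀ = G ⧸ U₀`; `stdA0 : Rep ℤ Γ₀` has carrier `A'.V` (definitionally) with the induced action;
* `stdOmega = Γ₀ × A'.V` with `Γ₀` acting on the first factor (a free `Γ₀`-set);
* `stdX : ShortComplex (Rep ℤ Γ₀)` is `0 → kernel → Rep.ofMulAction ℤ Γ₀ Ω → stdA0 → 0`, short exact;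
* every other group sees it through `Rep.res`.
-/

set_option autoImplicit false

noncomputable section

namespace Fermat.Agent.PT.F

open CategoryTheory CategoryTheory.Limits groupCohomology Fermat.Agent.PT

attribute [local instance 1100] Rep.hV2

section Std

variable {G : Type} [Group G] (U₀ : Subgroup G) [U₀.Normal] {k : Type} [CommRing k]
  (A' : Rep.{0} k G)

/-- the action of `G` on `A'.V` by `ℤ`-linear maps -/
def stdActG : G →* Module.End ℤ A'.V where
  toFun g := addToLin (A'.ρ g).toAddMonoidHom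
  map_one' := by ext a; simp
  map_mul' g h := by ext a; simp

@[simp] lemma stdActG_apply (g : G) (a : A'.V) : stdActG A' g a = A'.ρ g a := rfl

variable (htriv : ∀ s ∈ U₀, ∀ a : A'.V, A'.ρ s a = a)

/-- the induced action of `Γ₀ = G ⧸ U₀` on `A'.V` -/
def stdAct : Representation ℤ (G ⧸ U₀) A'.V :=
  QuotientGroup.lift U₀ (stdActG A') (fun s hs => by
    rw [MonoidHom.mem_ker]
    ext a
    simpa using htriv s hs a)

@[simp] lemma stdAct_mk (g : G) (a : A'.V) :
    stdAct U₀ A' htriv (QuotientGroup.mk g) a = A'.ρ g a := rfl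

/-- `A'` as a representation of `Γ₀ = G ⧸ U₀` over `ℤ` (same carrier). -/
abbrev stdA0 : Rep.{0} ℤ (G ⧸ U₀) := Rep.of (stdAct U₀ A' htriv)

/-- the free `Γ₀`-set `Ω = Γ₀ × A'.V` -/
def stdOmega (_U₀ : Subgroup G) (_A' : Rep.{0} k G) : Type := (G ⧸ _U₀) × _A'.V

instance : MulAction (G ⧸ U₀) (stdOmega U₀ A') where
  smul γ ω := (γ * ω.1, ω.2)
  one_smul ω := by
    show ((1 : G ⧸ U₀) * ω.1, ω.2) = (ω.1, ω.2)
    rw [one_mul]
  mul_smul γ γ' ω := by
    show ((γ * γ') * ω.1, ω.2) = (γ * (γ' * ω.1), ω.2)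
    rw [mul_assoc]

/-- the point `(γ, a)` of `Ω` -/
def stdPt (γ : G ⧸ U₀) (a : A'.V) : stdOmega U₀ A' := (γ, a)

@[simp] lemma stdPt_fst (γ : G ⧸ U₀) (a : A'.V) : (stdPt U₀ A' γ a).1 = γ := rfl
@[simp] lemma stdPt_snd (γ : G ⧸ U₀) (a : A'.V) : (stdPt U₀ A' γ a).2 = a := rfl

lemma stdOmega_smul (γ : G ⧸ U₀) (ω : stdOmega U₀ A') : γ • ω = stdPt U₀ A' (γ * ω.1) ω.2 := rfl

instance [Finite (G ⧸ U₀)] [Finite A'.V] : Finite (stdOmega U₀ A') :=
  inferInstanceAs (Finite ((G ⧸ U₀) × A'.V))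

lemma stdOmega_free (γ : G ⧸ U₀) (ω : stdOmega U₀ A') (h : γ • ω = ω) : γ = 1 := by
  have h1 : γ * ω.1 = ω.1 := congrArg Prod.fst h
  exact mul_eq_right.1 h1

/-- the free module `M₀ = ℤ[Ω]` over `Γ₀` -/
abbrev stdM0 : Rep.{0} ℤ (G ⧸ U₀) := Rep.ofMulAction ℤ (G ⧸ U₀) (stdOmega U₀ A')

/-- the augmentation `ℤ[Ω] → A'`, `[γ, a] ↦ γ • a`, as an additive map -/
def stdEpsAdd : (stdM0 U₀ A').V →+ A'.V :=
  (Finsupp.liftAddHom (fun ω : stdOmega U₀ A' =>
    (zmultiplesHom A'.V (stdAct U₀ A' htriv ω.1 ω.2)))).comp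
    (MonoidAlgebra.coeffAddEquiv (R := ℤ) (M := stdOmega U₀ A')).toAddMonoidHom

lemma stdEpsAdd_single (ω : stdOmega U₀ A') (n : ℤ) :
    stdEpsAdd U₀ A' htriv (MonoidAlgebra.single ω n) = n • stdAct U₀ A' htriv ω.1 ω.2 := by
  simp [stdEpsAdd, MonoidAlgebra.coeffAddEquiv]

lemma stdEpsAdd_ρ (γ : G ⧸ U₀) (m : (stdM0 U₀ A').V) :
    stdEpsAdd U₀ A' htriv ((stdM0 U₀ A').ρ γ m) =
      stdAct U₀ A' htriv γ (stdEpsAdd U₀ A' htriv m) := by
  induction m using MonoidAlgebra.induction_linear with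
  | zero => simp
  | add x y hx hy => simp only [map_add, hx, hy]
  | single ω n =>
    have h1 : (stdM0 U₀ A').ρ γ (MonoidAlgebra.single ω n) = MonoidAlgebra.single (γ • ω) n :=
      Representation.ofMulAction_single γ ω n
    rw [h1, stdEpsAdd_single, stdEpsAdd_single, stdOmega_smul, stdPt_fst, stdPt_snd, map_mul]
    simp

/-- the augmentation as a morphism of `Rep ℤ Γ₀` -/
def stdEps : stdM0 U₀ A' ⟶ stdA0 U₀ A' htriv :=
  mkHom (stdEpsAdd U₀ A' htriv) (fun γ m => stdEpsAdd_ρ U₀ A' htriv γ m)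

lemma stdEpsAdd_single_one (a : A'.V) :
    stdEpsAdd U₀ A' htriv (MonoidAlgebra.single (stdPt U₀ A' 1 a) 1) = a := by
  rw [stdEpsAdd_single, one_zsmul, stdPt_fst, stdPt_snd, map_one]
  rfl

lemma stdEps_surjective : Function.Surjective (stdEps U₀ A' htriv).hom := fun a =>
  ⟨MonoidAlgebra.single (stdPt U₀ A' 1 a) 1, stdEpsAdd_single_one U₀ A' htriv a⟩

instance : Epi (stdEps U₀ A' htriv) :=
  (Rep.epi_iff_surjective _).2 (stdEps_surjective U₀ A' htriv)

/-- **the standard presentation over `Γ₀`**: `0 → M₁ → ℤ[Ω] → A' → 0`. -/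
def stdX : ShortComplex (Rep.{0} ℤ (G ⧸ U₀)) :=
  ShortComplex.mk (kernel.ι (stdEps U₀ A' htriv)) (stdEps U₀ A' htriv)
    (kernel.condition (stdEps U₀ A' htriv))

lemma stdX_shortExact : (stdX U₀ A' htriv).ShortExact where
  exact := ShortComplex.exact_of_f_is_kernel _ (kernelIsKernel (stdEps U₀ A' htriv))
  mono_f := by dsimp [stdX]; infer_instance
  epi_g := by dsimp [stdX]; infer_instance

/-- elementwise exactness of the standard presentation -/
lemma stdX_exact (m : (stdM0 U₀ A').V) (hm : stdEpsAdd U₀ A' htriv m = 0) :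
    ∃ m₁ : (stdX U₀ A' htriv).X₁.V, (stdX U₀ A' htriv).f.hom m₁ = m :=
  (Fermat.Agent.PT.homEx_exact_iff (stdX U₀ A' htriv)).1 (stdX_shortExact U₀ A' htriv).exact m hm

lemma stdX_f_injective : Function.Injective (stdX U₀ A' htriv).f.hom :=
  (Rep.mono_iff_injective _).1 (stdX_shortExact U₀ A' htriv).mono_f

lemma stdX_zero (m₁ : (stdX U₀ A' htriv).X₁.V) :
    stdEpsAdd U₀ A' htriv ((stdX U₀ A' htriv).f.hom m₁) = 0 := by
  have h := (stdX U₀ A' htriv).zero
  have h2 := congrArg (fun φ => φ.hom m₁) h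
  exact h2

/-- the set-theoretic section `a ↦ [1, a]` of the augmentation -/
def stdSec (a : A'.V) : (stdM0 U₀ A').V := MonoidAlgebra.single (stdPt U₀ A' 1 a) 1

lemma stdEpsAdd_stdSec (a : A'.V) : stdEpsAdd U₀ A' htriv (stdSec U₀ A' a) = a :=
  stdEpsAdd_single_one U₀ A' htriv a

end Std

section Pres

variable {G : Type} [Group G] (𝒯 : Tower G) (U₀ : Subgroup G) [hn : U₀.Normal]
  (hU₀ : U₀ ∈ 𝒯.lev) {k : Type} [CommRing k] (A' : Rep.{0} k G) [Finite A'.V]
  (htriv : ∀ s ∈ U₀, ∀ a : A'.V, A'.ρ s a = a)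

include hU₀ in
lemma std_finite_quot : Finite (G ⧸ U₀) :=
  haveI := 𝒯.finiteIndex U₀ hU₀
  Subgroup.finite_quotient_of_finiteIndex

/-- **The standard presentation of `A'` as a `G`-module**: the restriction of `stdX` along
`G → Γ₀ = G ⧸ U₀`. -/
def stdPres : Presentation 𝒯 A' :=
  haveI : Finite (G ⧸ U₀) := std_finite_quot 𝒯 U₀ hU₀
  { U₀ := U₀
    U₀_mem := hU₀
    U₀_normal := hn
    M₀ := Rep.res (QuotientGroup.mk' U₀) (stdM0 U₀ A')
    M₁ := Rep.res (QuotientGroup.mk' U₀) (stdX U₀ A' htriv).X₁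
    inc := (Rep.resFunctor (QuotientGroup.mk' U₀)).map (stdX U₀ A' htriv).f
    ε := stdEpsAdd U₀ A' htriv
    ε_ρ := fun g m => stdEpsAdd_ρ U₀ A' htriv (QuotientGroup.mk g) m
    inc_injective := stdX_f_injective U₀ A' htriv
    ε_surjective := fun a => ⟨stdSec U₀ A' a, stdEpsAdd_stdSec U₀ A' htriv a⟩
    exact := fun m => ⟨fun hm => stdX_exact U₀ A' htriv m hm, by
      rintro ⟨m₁, rfl⟩
      exact stdX_zero U₀ A' htriv m₁⟩
    triv₀ := fun s hs m => by
      show (stdM0 U₀ A').ρ (QuotientGroup.mk s) m = m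
      rw [(QuotientGroup.eq_one_iff s).2 hs, map_one]
      rfl
    n := Nat.card (stdOmega U₀ A')
    basis₀ := fun j => MonoidAlgebra.single ((Finite.equivFin (stdOmega U₀ A')).symm j) 1
    basis₀_spec := fun Y _ f => by
      refine ⟨(Finsupp.liftAddHom (fun ω : stdOmega U₀ A' =>
          (zmultiplesHom Y (f (Finite.equivFin (stdOmega U₀ A') ω))))).comp
          (MonoidAlgebra.coeffAddEquiv (R := ℤ) (M := stdOmega U₀ A')).toAddMonoidHom, ?_, ?_⟩
      · intro j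
        simp [MonoidAlgebra.coeffAddEquiv]
      · intro h hh
        apply MonoidAlgebra.addMonoidHom_ext
        intro ω n
        have h1 : (MonoidAlgebra.single ω n : MonoidAlgebra ℤ (stdOmega U₀ A')) =
            n • MonoidAlgebra.single ω 1 := by
          rw [MonoidAlgebra.smul_single, smul_eq_mul, mul_one]
        have h2 := hh (Finite.equivFin (stdOmega U₀ A') ω)
        rw [Equiv.symm_apply_apply] at h2
        rw [h1, map_zsmul, map_zsmul, h2]
        simp [MonoidAlgebra.coeffAddEquiv] }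

end Pres




section Level

variable {p : ℕ} {G : Type} [Group G] {ι : Type} {Gloc : ι → Type}
  [∀ v, Group (Gloc v)] (D : PTDatum p G ι Gloc)

/-- **F2a**: a normal level on which `A`, `χ` and `A' = A.dualTwist χ` are trivial. -/
lemma exists_level_triv (A : Rep.{0} (ZMod p) G) (hA : ∃ U ∈ D.𝒯.lev, ∀ s ∈ U, A.ρ s = 1) :
    ∃ U₀ ∈ D.𝒯.lev, U₀.Normal ∧ (∀ s ∈ U₀, ∀ a : A.V, A.ρ s a = a) ∧ (∀ s ∈ U₀, D.χ s = 1) ∧
      ∀ s ∈ U₀, ∀ a' : (A.dualTwist D.χ).V, (A.dualTwist D.χ).ρ s a' = a' := by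
  obtain ⟨U, hU, hUA⟩ := hA
  obtain ⟨V, hV, hVχ⟩ := D.χ_level
  obtain ⟨U₀, hU₀, hle, hn⟩ := D.𝒯.exists_normal (U ⊓ V) (D.𝒯.inf_mem U V hU hV)
  have h1 : ∀ s ∈ U₀, ∀ a : A.V, A.ρ s a = a := fun s hs a => by
    rw [hUA s (hle hs).1]; rfl
  have h2 : ∀ s ∈ U₀, D.χ s = 1 := fun s hs => hVχ s (hle hs).2
  refine ⟨U₀, hU₀, hn, h1, h2, fun s hs f => ?_⟩
  have hs' : s⁻¹ ∈ U₀ := U₀.inv_mem hs
  apply LinearMap.ext
  intro a
  have := Rep.dualTwist_ρ_apply A D.χ s f
  rw [this, h2 s hs]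
  simp only [Units.val_one, one_smul, LinearMap.comp_apply]
  rw [h1 s⁻¹ hs' a]

end Level

end Fermat.Agent.PT.F

end


end ZBPT_031_6

/-! ### bundled: `Fermat.Agent.PT.F.FinLevel` -/
section ZBPT_031_7

/-!
# PT-F / F4 (helper68): the finite-level bridge

For a presentation `P` of `A'` and a normal subgroup `U ≤ P.U₀`:
* `intRep A'`   : `A'` as an object of `Rep ℤ G`;
* `presX P`     : the short exact sequence `0 → M₁ → M₀ → A' → 0` in `Rep ℤ G`;
* `finX P U`    : its image under `Rep.quotientToInvariantsFunctor ℤ U`, a short exact sequence of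
  `G ⧸ U`-modules;
* `ext_duality_right` : the right-kernel half of `ext_duality` (no norm hypothesis).
-/

set_option autoImplicit false

noncomputable section

namespace Fermat.Agent.PT.F

open CategoryTheory groupCohomology Fermat.Agent.PT

/-- the right-kernel half of `ext_duality` (needs neither `StmtTNDual` nor the norm hypothesis) -/
theorem ext_duality_right (hTN : StmtTN') {G : Type} [Group G]
    (p : ℕ) [Fact p.Prime] [Fintype G]
    (C : Rep.{0} ℤ G) (u : H2 C) (hu : IsPFundClass p C u)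
    (X : ShortComplex (Rep.{0} ℤ G)) (hX : X.ShortExact)
    [Module.Free ℤ X.X₂.V] [Module.Finite ℤ X.X₂.V]
    (hp : ∀ a : X.X₃.V, p • a = 0)
    (hH1 : Subsingleton (H1 X.X₂))
    (c : H1 X.X₃) (hc : ∀ g : X.X₁ ⟶ C, (push₂ g).hom ((δ hX 1 2 rfl).hom c) = 0) : c = 0 := by
  have := hX.mono_f
  obtain ⟨hfree, hfin⟩ := free_finite_of_mono X.f
  have hTN₁ := hTN p G C u hu X.X₁ hfree hfin
  have hpt : IsPTors p ((δ hX 1 2 rfl).hom c) := by
    refine ⟨1, ?_⟩
    rw [pow_one, ← map_nsmul, nsmul_eq_zero_of_forall p hp 1 c, map_zero]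
  have h0 : (δ hX 1 2 rfl).hom c = 0 := hTN₁.1 _ hpt hc
  have : Mono (δ hX 1 2 rfl) :=
    mono_δ_of_isZero hX 1 (ModuleCat.isZero_of_iff_subsingleton.2 hH1)
  have hinj : Function.Injective (δ hX 1 2 rfl).hom :=
    (ModuleCat.mono_iff_injective _).1 inferInstance
  exact hinj (by rw [h0, map_zero])

section IntRep

variable {G : Type} [Group G] {k : Type} [CommRing k] (A' : Rep.{0} k G)

/-- the action of `G` on `A'.V` by `ℤ`-linear maps -/
def intAct : Representation ℤ G A'.V where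
  toFun g := (A'.ρ g).toAddMonoidHom.toIntLinearMap
  map_one' := by ext a; simp
  map_mul' g h := by ext a; simp

@[simp] lemma intAct_apply (g : G) (a : A'.V) : intAct A' g a = A'.ρ g a := rfl

/-- `A'` as an object of `Rep ℤ G` (same carrier, same action) -/
abbrev intRep : Rep.{0} ℤ G := Rep.of (intAct A')

lemma mem_cocycles₁_intRep_iff (c : G → A'.V) :
    c ∈ cocycles₁ (intRep A') ↔ c ∈ cocycles₁ A' := by
  rw [mem_cocycles₁_iff, mem_cocycles₁_iff]
  rfl

lemma mem_coboundaries₁_intRep_iff (c : G → A'.V) :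
    c ∈ coboundaries₁ (intRep A') ↔ c ∈ coboundaries₁ A' := by
  constructor
  · rintro ⟨a, rfl⟩
    exact ⟨a, rfl⟩
  · rintro ⟨a, rfl⟩
    exact ⟨a, rfl⟩

end IntRep

section PresX

variable {G : Type} [Group G] {𝒯 : Tower G} {k : Type} [CommRing k] {A' : Rep.{0} k G}
  (P : Presentation 𝒯 A')

/-- the augmentation as a morphism of `Rep ℤ G` -/
def Presentation.εHom : P.M₀ ⟶ intRep A' :=
  mkHom P.ε (fun g m => P.ε_ρ g m)

@[simp] lemma Presentation.εHom_apply (m : P.M₀.V) : P.εHom.hom m = P.ε m := rfl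

lemma Presentation.inc_εHom : P.inc ≫ P.εHom = 0 := by
  apply rep_hom_ext'
  intro m
  show P.ε (P.inc.hom m) = 0
  exact (P.exact _).2 ⟨m, rfl⟩

/-- the presentation as a short complex of `Rep ℤ G` -/
def presX : ShortComplex (Rep.{0} ℤ G) := ShortComplex.mk P.inc P.εHom P.inc_εHom

lemma presX_shortExact : (presX P).ShortExact where
  exact := (homEx_exact_iff _).2 fun m hm => (P.exact m).1 hm
  mono_f := (Rep.mono_iff_injective _).2 P.inc_injective
  epi_g := (Rep.epi_iff_surjective _).2 P.ε_surjective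

/-- `A'` is trivial on `U₀` -/
lemma Presentation.triv_A' (s : G) (hs : s ∈ P.U₀) (a : A'.V) : A'.ρ s a = a := by
  obtain ⟨m, rfl⟩ := P.ε_surjective a
  rw [← P.ε_ρ, P.triv₀ s hs]

/-- `M₁` is trivial on `U₀` -/
lemma Presentation.triv₁ (s : G) (hs : s ∈ P.U₀) (m : P.M₁.V) : P.M₁.ρ s m = m := by
  apply P.inc_injective
  rw [Rep.hom_comm_apply, P.triv₀ s hs]

end PresX

section FinX

variable {G : Type} [Group G] {𝒯 : Tower G} {k : Type} [CommRing k] {A' : Rep.{0} k G}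
  (P : Presentation 𝒯 A') (U : Subgroup G) [U.Normal]

lemma q2i_map_zero (X Y : Rep.{0} ℤ G) :
    (Rep.quotientToInvariantsFunctor ℤ U).map (0 : X ⟶ Y) = 0 := by
  apply rep_hom_ext'
  intro a
  exact Subtype.ext rfl

/-- the presentation at the finite level `G ⧸ U` -/
def finX : ShortComplex (Rep.{0} ℤ (G ⧸ U)) :=
  ShortComplex.mk ((Rep.quotientToInvariantsFunctor ℤ U).map P.inc)
    ((Rep.quotientToInvariantsFunctor ℤ U).map P.εHom) (by
      rw [← Functor.map_comp, P.inc_εHom, q2i_map_zero])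

lemma finX_f_apply (m : (P.M₁.quotientToInvariants U).V) :
    (show (P.M₀.quotientToInvariants U).V from (finX P U).f.hom m).1 = P.inc.hom m.1 := rfl

lemma finX_g_apply (m : (P.M₀.quotientToInvariants U).V) :
    (show ((intRep A').quotientToInvariants U).V from (finX P U).g.hom m).1 = P.ε m.1 := rfl

variable {U}

lemma finX_shortExact (hU : U ≤ P.U₀) : (finX P U).ShortExact where
  exact := (homEx_exact_iff _).2 fun m hm => by
    have h0 : P.ε m.1 = 0 := congrArg Subtype.val hm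
    obtain ⟨m₁, hm₁⟩ := (P.exact m.1).1 h0
    exact ⟨⟨m₁, fun s => P.triv₁ s.1 (hU s.2) m₁⟩, Subtype.ext hm₁⟩
  mono_f := (Rep.mono_iff_injective _).2 fun a b hab => by
    have h1 : P.inc.hom a.1 = P.inc.hom b.1 := congrArg Subtype.val hab
    exact Subtype.ext (P.inc_injective h1)
  epi_g := (Rep.epi_iff_surjective _).2 fun a => by
    obtain ⟨m, hm⟩ := P.ε_surjective a.1
    exact ⟨⟨m, fun s => P.triv₀ s.1 (hU s.2) m⟩, Subtype.ext hm⟩

/-- `M₀ ≃ ℤⁿ` from the universal property of the basis -/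
def Presentation.equivFin : P.M₀.V ≃+ (Fin P.n → ℤ) :=
  let φ : P.M₀.V →+ (Fin P.n → ℤ) :=
    Classical.choose (P.basis₀_spec (Fin P.n → ℤ) (fun j => Pi.single j 1)).exists
  have hφ : ∀ j, φ (P.basis₀ j) = Pi.single j 1 :=
    Classical.choose_spec (P.basis₀_spec (Fin P.n → ℤ) (fun j => Pi.single j 1)).exists
  let ψ : (Fin P.n → ℤ) →+ P.M₀.V := homEx_lift P.n P.basis₀
  have hψ : ∀ j, ψ (Pi.single j 1) = P.basis₀ j := homEx_lift_single P.n P.basis₀
  { toFun := φ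
    invFun := ψ
    left_inv := fun m => by
      have h1 : ψ.comp φ = AddMonoidHom.id _ :=
        (P.basis₀_spec P.M₀.V P.basis₀).unique (fun j => by simp [hφ, hψ]) (fun j => rfl)
      exact DFunLike.congr_fun h1 m
    right_inv := fun x => by
      have h1 : φ.comp ψ = AddMonoidHom.id _ :=
        homEx_ext P.n _ _ (fun j => by simp [hφ, hψ])
      exact DFunLike.congr_fun h1 x
    map_add' := fun a b => map_add φ a b }

/-- the invariants of `U ≤ U₀` in `M₀` are everything -/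
def Presentation.invEquiv (hU : U ≤ P.U₀) : (P.M₀.quotientToInvariants U).V ≃+ P.M₀.V where
  toFun m := m.1
  invFun m := ⟨m, fun s => P.triv₀ s.1 (hU s.2) m⟩
  left_inv _ := rfl
  right_inv _ := rfl
  map_add' _ _ := rfl

lemma finX_free_finite (hU : U ≤ P.U₀) [inst : Module ℤ (finX P U).X₂.V] :
    Module.Free ℤ (finX P U).X₂.V ∧ Module.Finite ℤ (finX P U).X₂.V := by
  let e : (finX P U).X₂.V ≃+ (Fin P.n → ℤ) :=
    (P.invEquiv hU).trans P.equivFin
  let e' : (finX P U).X₂.V ≃ₗ[ℤ] (Fin P.n → ℤ) :=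
    LinearEquiv.ofLinearMap (addToLin (e : _ →+ _)) (addToLin (e.symm : _ →+ _))
      (by ext x; simp) (by ext x; simp)
  exact ⟨Module.Free.of_equiv e'.symm, Module.Finite.equiv e'.symm⟩

end FinX

section Bridge

variable {G : Type} [Group G] {𝒯 : Tower G} {k : Type} [CommRing k] {A' : Rep.{0} k G}
  (P : Presentation 𝒯 A') {U : Subgroup G} [U.Normal] (hle : U ≤ P.U₀)

/-- extension to `G` of a morphism of `G ⧸ U`-modules `M^U → C^U` when `U` acts trivially on `M` -/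
def extHom {M C : Rep.{0} ℤ G} (hM : ∀ s ∈ U, ∀ m : M.V, M.ρ s m = m)
    (gb : M.quotientToInvariants U ⟶ C.quotientToInvariants U) : M ⟶ C :=
  mkHom
    { toFun := fun m => (gb.hom ⟨m, fun s => hM s.1 s.2 m⟩).1
      map_zero' := by
        have h0 : (⟨0, fun s => hM s.1 s.2 0⟩ : (M.quotientToInvariants U).V) = 0 := rfl
        rw [h0, map_zero]
        rfl
      map_add' := fun a b => by
        have h0 : (⟨a + b, fun s => hM s.1 s.2 (a + b)⟩ : (M.quotientToInvariants U).V) =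
            ⟨a, fun s => hM s.1 s.2 a⟩ + ⟨b, fun s => hM s.1 s.2 b⟩ := rfl
        rw [h0, map_add]
        rfl }
    (fun σ m => by
      have h1 := Rep.hom_comm_apply gb (σ : G ⧸ U) ⟨m, fun s => hM s.1 s.2 m⟩
      exact congrArg Subtype.val h1)

lemma extHom_apply {M C : Rep.{0} ℤ G} (hM : ∀ s ∈ U, ∀ m : M.V, M.ρ s m = m)
    (gb : M.quotientToInvariants U ⟶ C.quotientToInvariants U) (m : (M.quotientToInvariants U).V) :
    (extHom hM gb).hom m.1 = (gb.hom m).1 := rfl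

omit [U.Normal] in
include hle in
lemma desc_c {c : G → A'.V} (hcU : ∀ g s : G, s ∈ U → c (g * s) = c g) :
    Desc₁ (intRep A') U c :=
  ⟨hcU, fun g s hs => P.triv_A' s (hle hs) (c g)⟩

omit [U.Normal] in
include hle in
lemma desc_ct {c : G → A'.V} (hcU : ∀ g s : G, s ∈ U → c (g * s) = c g) :
    Desc₁ P.M₀ U (fun σ => P.sec (c σ)) :=
  ⟨fun g s hs => by simp only [hcU g s hs], fun g s hs => P.triv₀ s (hle hs) _⟩

/-- the 2-cochain `inc⁻¹ ∘ d (s ∘ c)` with values in `M₁` -/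
def zCoc (c : G → A'.V) : G × G → P.M₁.V :=
  fun στ => P.incInv ((d₁₂ P.M₀).hom (fun σ => P.sec (c σ)) στ)

lemma pairCoc_eq {C : Rep.{0} ℤ G} (g : P.M₁ ⟶ C) (c : G → A'.V) (στ : G × G) :
    pairCoc P g c στ = g.hom (zCoc P c στ) := rfl

lemma ε_d₁₂ (ct : G → P.M₀.V) (στ : G × G) :
    P.ε ((d₁₂ P.M₀).hom ct στ) = (d₁₂ A').hom (fun σ => P.ε (ct σ)) στ := by
  simp only [d₁₂_hom_apply, map_add, map_sub, P.ε_ρ]

lemma inc_zCoc {c : G → A'.V} (hc : c ∈ cocycles₁ A') (στ : G × G) :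
    P.inc.hom (zCoc P c στ) = (d₁₂ P.M₀).hom (fun σ => P.sec (c σ)) στ := by
  apply P.inc_incInv
  rw [ε_d₁₂]
  simp only [Presentation.ε_sec]
  have : (d₁₂ A').hom c = 0 := hc
  rw [show (fun σ => c σ) = c from rfl, this]
  rfl

include hle in
lemma desc_z {c : G → A'.V} (hcU : ∀ g s : G, s ∈ U → c (g * s) = c g) :
    Desc₂ P.M₁ U (zCoc P c) := by
  refine ⟨fun g g' s s' hs hs' => ?_, fun gg s hs => P.triv₁ s (hle hs) _⟩
  unfold zCoc
  congr 1
  simp only [d₁₂_hom_apply]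
  have h1 : g * s * (g' * s') = g * g' * (g'⁻¹ * s * g' * s') := by group
  have h2 : g'⁻¹ * s * g' * s' ∈ U :=
    U.mul_mem (by simpa using Subgroup.Normal.conj_mem ‹U.Normal› s hs g'⁻¹) hs'
  have hρ : ∀ x : P.M₀.V, P.M₀.ρ (g * s) x = P.M₀.ρ g (P.M₀.ρ s x) := fun x => by
    rw [map_mul]; rfl
  rw [h1, hcU _ _ h2, hcU g' s' hs', hcU g s hs, hρ, P.triv₀ s (hle hs)]

/-- the descended cocycle of `A'` at the finite level `G ⧸ U` -/
def finCoc {c : G → A'.V} (hc : c ∈ cocycles₁ A')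
    (hcU : ∀ g s : G, s ∈ U → c (g * s) = c g) : cocycles₁ (finX P U).X₃ :=
  ⟨descend₁ c (desc_c P hle hcU), by
    have h := (infl₁_mem_cocycles₁_iff (X := intRep A') (U := U)
      (descend₁ c (desc_c P hle hcU))).1
    apply h
    rw [infl₁_descend₁]
    exact (mem_cocycles₁_intRep_iff A' c).2 hc⟩

lemma finX_g_comp {c : G → A'.V} (hcU : ∀ g s : G, s ∈ U → c (g * s) = c g) :
    (finX P U).g.hom ∘ descend₁ (fun σ => P.sec (c σ)) (desc_ct P hle hcU) =
      descend₁ c (desc_c P hle hcU) := by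
  funext q
  apply Subtype.ext
  show P.ε (P.sec (c q.out)) = c q.out
  rw [P.ε_sec]

lemma finX_f_comp {c : G → A'.V} (hc : c ∈ cocycles₁ A')
    (hcU : ∀ g s : G, s ∈ U → c (g * s) = c g) :
    (finX P U).f.hom ∘ descend₂ (zCoc P c) (desc_z P hle hcU) =
      (d₁₂ (finX P U).X₂).hom (descend₁ (fun σ => P.sec (c σ)) (desc_ct P hle hcU)) := by
  apply infl₂_injective (X := P.M₀) (U := U)
  have h1 : infl₂ P.M₀ U ((d₁₂ (P.M₀.quotientToInvariants U)).hom
      (descend₁ (fun σ => P.sec (c σ)) (desc_ct P hle hcU))) =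
      (d₁₂ P.M₀).hom (fun σ => P.sec (c σ)) := by
    rw [infl₂_d₁₂, infl₁_descend₁]
  refine Eq.trans ?_ h1.symm
  funext στ
  show P.inc.hom (infl₂ P.M₁ U (descend₂ (zCoc P c) (desc_z P hle hcU)) στ) = _
  rw [infl₂_descend₂, inc_zCoc P hc]

/-- the connecting homomorphism on the descended cocycle -/
theorem delta_finCoc {c : G → A'.V} (hc : c ∈ cocycles₁ A')
    (hcU : ∀ g s : G, s ∈ U → c (g * s) = c g) :
    (δ (finX_shortExact P hle) 1 2 rfl).hom ((H1π (finX P U).X₃).hom (finCoc P hle hc hcU)) =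
      (H2π (finX P U).X₁).hom ⟨descend₂ (zCoc P c) (desc_z P hle hcU),
        mem_cocycles₂_of_comp_eq_d₁₂ (finX_shortExact P hle) (finX_f_comp P hle hc hcU)⟩ :=
  δ₁_apply (finX_shortExact P hle) (finCoc P hle hc hcU) _ (finX_g_comp P hle hcU) _
    (finX_f_comp P hle hc hcU)

/-- **the bridge**: if `pairCoc P g c` is a level coboundary, then at the finite level
`ḡ_* (δ [c̄]) = 0`. -/
theorem push_delta_eq_zero (hInj : StmtInflInjFin) (p : ℕ) [Fact p.Prime] {C : Rep.{0} ℤ G}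
    (hC : IsDiscrete 𝒯 C) (hcm : HasPFund 𝒯 C p) (hp : ∀ a : A'.V, p • a = 0)
    (hU : U ∈ 𝒯.lev) {c : G → A'.V} (hc : c ∈ cocycles₁ A')
    (hcU : ∀ g s : G, s ∈ U → c (g * s) = c g)
    (g : P.M₁ ⟶ C) (gb : (finX P U).X₁ ⟶ C.quotientToInvariants U)
    (hg : ∀ m : (P.M₁.quotientToInvariants U).V, (gb.hom m).1 = g.hom m.1)
    (hpair : pairCoc P g c ∈ levCoboundaries₂ 𝒯 C) :
    (push₂ gb).hom ((δ (finX_shortExact P hle) 1 2 rfl).hom
      ((H1π (finX P U).X₃).hom (finCoc P hle hc hcU))) = 0 := by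
  rw [delta_finCoc P hle hc hcU]
  have h1 := H2π_comp_map_apply (MonoidHom.id (G ⧸ U)) gb
    ⟨descend₂ (zCoc P c) (desc_z P hle hcU),
      mem_cocycles₂_of_comp_eq_d₁₂ (finX_shortExact P hle) (finX_f_comp P hle hc hcU)⟩
  refine Eq.trans h1 ?_
  apply infl_injective_pPrimary hInj p hC hcm hU
  · -- `p`-primary
    refine ⟨1, ?_⟩
    rw [pow_one]
    have h2 : p • (H1π (finX P U).X₃).hom (finCoc P hle hc hcU) = 0 :=
      nsmul_eq_zero_of_forall (A := (finX P U).X₃) p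
        (fun (a : ((intRep A').quotientToInvariants U).V) => Subtype.ext (hp a.1)) 1 _
    have h3 := congrArg (fun x => (push₂ gb).hom ((δ (finX_shortExact P hle) 1 2 rfl).hom x)) h2
    simp only [map_nsmul, map_zero] at h3
    rw [delta_finCoc P hle hc hcU] at h3
    rw [← h3]
    congr 1
    exact h1.symm
  · -- the inflation is `pairCoc P g c`
    convert hpair using 1
    funext στ
    obtain ⟨σ, τ⟩ := στ
    show (gb.hom (descend₂ (zCoc P c) (desc_z P hle hcU) ((σ : G ⧸ U), (τ : G ⧸ U)))).1 = _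
    rw [hg]
    have h4 := congrFun (infl₂_descend₂ (zCoc P c) (desc_z P hle hcU)) (σ, τ)
    rw [infl₂_apply] at h4
    rw [h4]
    rfl

end Bridge

/-- **F4a** -/
theorem stmtRightKer_of (hTN : StmtTN') (hInj : StmtInflInjFin) : StmtRightKer := by
  intro p _ G _ 𝒯 C hC hcm k _ A' P hp hInd c hc hlev hpair
  obtain ⟨Uc, hUc, hcU⟩ := hlev
  obtain ⟨U, hU, hle1, hle2, hn⟩ := tower_exists_normal_le₂ 𝒯 hUc P.U₀_mem
  have hcU' : ∀ g s : G, s ∈ U → c (g * s) = c g := fun g s hs => hcU g s (hle1 hs)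
  have hfin := 𝒯.finiteIndex U hU
  have : Finite (G ⧸ U) := Subgroup.finite_quotient_of_finiteIndex
  have : Fintype (G ⧸ U) := Fintype.ofFinite _
  obtain ⟨u, hu⟩ := hcm U hU
  have hfree : Module.Free ℤ (finX P U).X₂.V := (finX_free_finite P hle2).1
  have hfinite : Module.Finite ℤ (finX P U).X₂.V := (finX_free_finite P hle2).2
  have hH1 : Subsingleton (H1 (finX P U).X₂) :=
    hInd G (MonoidHom.id G) U hfin (fun s hs m => P.triv₀ s (hle2 hs) m)
  have key := ext_duality_right hTN p (C.quotientToInvariants U) u hu (finX P U)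
    (finX_shortExact P hle2)
    (fun (a : ((intRep A').quotientToInvariants U).V) => Subtype.ext (hp a.1)) hH1
    ((H1π (finX P U).X₃).hom (finCoc P hle2 hc hcU')) (fun gb =>
      push_delta_eq_zero P hle2 hInj p hC hcm hp hU hc hcU'
        (extHom (fun s hs m => P.triv₁ s (hle2 hs) m) gb) gb (fun m => rfl) (hpair _))
  rw [H1π_eq_zero_iff] at key
  obtain ⟨a, ha⟩ := key
  refine ⟨(show ((intRep A').quotientToInvariants U).V from a).1, ?_⟩
  funext σ
  have h1 := congrArg Subtype.val (congrFun ha (σ : G ⧸ U))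
  have h2 := congrFun (infl₁_descend₁ c (desc_c P hle2 hcU')) σ
  rw [infl₁_apply] at h2
  rw [← h2]
  exact h1

end Fermat.Agent.PT.F

end


end ZBPT_031_7

/-! ### bundled: `Fermat.Agent.PT.F.SeqInPlan` -/
section ZBPT_031_8
/-
PT-F §6 — the cohomological INPUTS `In1 … In4` of the exact sequence (interface file, helper55).
Statements only.  A piece `X` is DONE when `theorem stmtX : StmtX` is landed
(own file `Fermat/Agent/PT/F/SeqIn<X>.lean`, namespace `Fermat.Agent.PT.F`, sorry-free).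
Proof sketches: NOTES/PT-F.md (section "§6 inputs").  All formulas are EXPLICIT (no homological
algebra): the only non-formal inputs are `D.h90_loc` and `D.cm_glob` (through the dictionary
of PT/F/Level.lean).
-/

set_option autoImplicit false

noncomputable section

namespace Fermat.Agent.PT.F

open CategoryTheory groupCohomology Fermat.Agent.PT

/-- `c : N → Y` is a 1-cocycle on the subgroup `N` of `H`. -/
def IsCocycleOn {H : Type} [Group H] (N : Subgroup H) (Y : Rep.{0} ℤ H) (c : N → Y.V) : Prop :=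
  ∀ s s' : N, c (s * s') = c s + Y.ρ (s : H) (c s')

/-- `c : N → Y` is right-invariant under `U ∩ N` for some level `U`. -/
def IsLevelOn {H : Type} [Group H] (𝒯 : Tower H) (N : Subgroup H) {Y : Type} (c : N → Y) :
    Prop :=
  ∃ U ∈ 𝒯.lev, ∀ s u : N, (u : H) ∈ U → c (s * u) = c s

/-- **PermSh1** (Shapiro in degree 1 for permutation modules, explicit).
`φ : H → Γ` a homomorphism, `Ω` a finite free `Γ`-set, `M = res_φ ℤ[Ω]`, `N = ker φ` a level of the
tower `𝒯` of `H`, `Y` an `H`-module, `S` a multiplicatively closed set of integers.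
If every level 1-cocycle `N → Y` becomes a coboundary after multiplication by some `n ∈ S`, then
the same holds for every level 1-cocycle `H → Hom_ℤ(M, Y)`.
(Formula: for orbit representatives `x₀` and `c_{x₀}(s) := c(s)(x₀) = s t_{x₀} - t_{x₀}` put
`t(g x₀) := g t_{x₀} - c(g)(g x₀)`.) -/
def StmtPermSh1 : Prop :=
  ∀ (H Γ : Type) [Group H] [Group Γ] (𝒯 : Tower H) (φ : H →* Γ) (Ω : Type) [MulAction Γ Ω]
    [Finite Ω], (∀ (γ : Γ) (ω : Ω), γ • ω = ω → γ = 1) → φ.ker ∈ 𝒯.lev →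
    ∀ (Y : Rep.{0} ℤ H) (S : Submonoid ℕ),
    (∀ c : φ.ker → Y.V, IsCocycleOn φ.ker Y c → IsLevelOn 𝒯 φ.ker c →
      ∃ n ∈ S, ∃ t : Y.V, ∀ s : φ.ker, n • c s = Y.ρ (s : H) t - t) →
    ∀ c : H → ((Rep.res φ (Rep.ofMulAction ℤ Γ Ω)).V →+ Y.V), IsLevel₁ 𝒯 c →
      (∀ στ, dOne (Rep.res φ (Rep.ofMulAction ℤ Γ Ω)) Y c στ = 0) →
      ∃ n ∈ S, ∃ t : (Rep.res φ (Rep.ofMulAction ℤ Γ Ω)).V →+ Y.V,
        ∀ σ, n • c σ = dZero (Rep.res φ (Rep.ofMulAction ℤ Γ Ω)) Y t σ

variable {p : ℕ} {G : Type} [Group G] {ι : Type} {Gloc : ι → Type}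
  [∀ v, Group (Gloc v)]

/-- **In1b**: level 1-cocycles `U → C` on a level `U` are coboundaries up to a prime-to-`p`
multiple.  (Dictionary + `cm_glob.h1` + Sylow + "`|Γ|` kills `H¹(Γ, -)`".) -/
def StmtIn1b : Prop :=
  ∀ (p : ℕ) [Fact p.Prime] (G : Type) [Group G] (ι : Type) [Fintype ι] (Gloc : ι → Type)
    [∀ v, Group (Gloc v)] (D : PTDatum p G ι Gloc) (U : Subgroup G), U ∈ D.𝒯.lev →
    ∀ c : U → D.C.V, IsCocycleOn U D.C c → IsLevelOn D.𝒯 U c →
      ∃ n : ℕ, ¬ p ∣ n ∧ ∃ t : D.C.V, ∀ s : U, n • c s = D.C.ρ (s : G) t - t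

/-- **In4b** (Hilbert 90, level form): level 1-cocycles `V → J_v` on a local level `V` are
coboundaries.  (Dictionary + `h90_loc`.) -/
def StmtIn4b : Prop :=
  ∀ (p : ℕ) [Fact p.Prime] (G : Type) [Group G] (ι : Type) [Fintype ι] (Gloc : ι → Type)
    [∀ v, Group (Gloc v)] (D : PTDatum p G ι Gloc) (v : ι) (V : Subgroup (Gloc v)),
    V ∈ (D.𝒯loc v).lev →
    ∀ c : V → (D.Jloc v).V, IsCocycleOn V (D.Jloc v) c → IsLevelOn (D.𝒯loc v) V c →
      ∃ t : (D.Jloc v).V, ∀ s : V, c s = (D.Jloc v).ρ (s : Gloc v) t - t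

/-- **In3** (semilocal Shapiro, degree 1, explicit): holds for EVERY `M`.
(Formula: `t(m)(v)(σ) := (y σ (σ m))(v)(1) + t_v(σ m)`; it lies in `J` because of the local
coboundary relation, and `y = d⁰ t` by the cocycle identity.) -/
def StmtIn3 : Prop :=
  ∀ (p : ℕ) [Fact p.Prime] (G : Type) [Group G] (ι : Type) [Fintype ι] (Gloc : ι → Type)
    [∀ v, Group (Gloc v)] (D : PTDatum p G ι Gloc) (M : Rep.{0} ℤ G),
    IsLevTriv D.𝒯 M → In3 D M

/-- the hypothesis of `In2` with the local cochains level for the PULLED-BACK towers -/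
def In2a (D : PTDatum p G ι Gloc) (M : Rep.{0} ℤ G) : Prop :=
  ∀ y : G × G → (M.V →+ (PTJ D).V), IsLevel₂ D.𝒯 y →
    (∀ σ τ ρ : G, conjAdd M (PTJ D) σ (y (τ, ρ)) - y (σ * τ, ρ) + y (σ, τ * ρ) - y (σ, τ) = 0) →
    (∀ v, ∃ t : Gloc v → (M.V →+ (D.Jloc v).V),
      (∃ U ∈ D.𝒯.lev, ∀ d s : Gloc v, D.r v s ∈ U → t (d * s) = t d) ∧
      ∀ dd, (ev D v).comp (resTwo D v y dd) = dOne (Rep.res (D.r v) M) (D.Jloc v) t dd) →
    ∃ t : G → (M.V →+ (PTJ D).V), IsLevel₁ D.𝒯 t ∧ ∀ στ, y στ = dOne M (PTJ D) t στ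

/-- **In2a** (semilocal Shapiro, degree 2, explicit, pulled-back towers).
(Formula: choose `b_v : G → Hom(M, J_v)` with `b_v(r(d) g) = d b_v(g) d⁻¹ + ev_v y(r d, g) - t_v(d)`
— on representatives of `r(G_v) \ G` — and put `T(σ)(m)(v)(g) := [ev_v y(g, σ) + b_v(g) - b_v(g σ)]`
suitably conjugated; see NOTES/PT-F.md.) -/
def StmtIn2a : Prop :=
  ∀ (p : ℕ) [Fact p.Prime] (G : Type) [Group G] (ι : Type) [Fintype ι] (Gloc : ι → Type)
    [∀ v, Group (Gloc v)] (D : PTDatum p G ι Gloc) (M : Rep.{0} ℤ G),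
    IsLevTriv D.𝒯 M → In2a D M

/-- **In2b** (local inflation is injective in degree 2, from Hilbert 90): a 2-cochain on `G_v`
with values in `Hom_ℤ(M, J_v)` which is level for the pulled-back tower and is the coboundary
of a 1-cochain which is level for the big local tower, is the coboundary of a 1-cochain which is
level for the pulled-back tower.  `M` is `ℤ`-free of finite rank and trivial on a level.
(Dictionary + `stmtInfRes₂` + `h90_loc`.) -/
def StmtIn2b : Prop :=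
  ∀ (p : ℕ) [Fact p.Prime] (G : Type) [Group G] (ι : Type) [Fintype ι] (Gloc : ι → Type)
    [∀ v, Group (Gloc v)] (D : PTDatum p G ι Gloc) (M : Rep.{0} ℤ G),
    IsLevTriv D.𝒯 M →
    (∃ (n : ℕ) (b : Fin n → M.V), ∀ (Y : Type) [AddCommGroup Y] (f : Fin n → Y),
      ∃! h : M.V →+ Y, ∀ j, h (b j) = f j) →
    ∀ (v : ι) (z : Gloc v × Gloc v → (M.V →+ (D.Jloc v).V)),
      (∃ U ∈ D.𝒯.lev, ∀ d d' s s' : Gloc v, D.r v s ∈ U → D.r v s' ∈ U →
        z (d * s, d' * s') = z (d, d')) →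
      (∃ t : Gloc v → (M.V →+ (D.Jloc v).V), IsLevel₁ (D.𝒯loc v) t ∧
        ∀ dd, z dd = dOne (Rep.res (D.r v) M) (D.Jloc v) t dd) →
      ∃ t : Gloc v → (M.V →+ (D.Jloc v).V),
        (∃ U ∈ D.𝒯.lev, ∀ d s : Gloc v, D.r v s ∈ U → t (d * s) = t d) ∧
        ∀ dd, z dd = dOne (Rep.res (D.r v) M) (D.Jloc v) t dd

/-- **M1free**: the relation module of a presentation is `ℤ`-free of finite rank. -/
def StmtM1Free : Prop :=
  ∀ (G : Type) [Group G] (𝒯 : Tower G) (k : Type) [CommRing k] (A' : Rep.{0} k G)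
    (P : Presentation 𝒯 A'),
    ∃ (n : ℕ) (b : Fin n → P.M₁.V), ∀ (Y : Type) [AddCommGroup Y] (f : Fin n → Y),
      ∃! h : P.M₁.V →+ Y, ∀ j, h (b j) = f j

/-- **SeqIn** (wiring): all inputs hold for the standard presentation. -/
def StmtSeqIn : Prop :=
  ∀ (p : ℕ) [Fact p.Prime] (G : Type) [Group G] (ι : Type) [Fintype ι] (Gloc : ι → Type)
    [∀ v, Group (Gloc v)] (D : PTDatum p G ι Gloc) (A : Rep.{0} (ZMod p) G)
    [Finite (A.dualTwist D.χ).V] (U₀ : Subgroup G) [U₀.Normal] (hU₀ : U₀ ∈ D.𝒯.lev)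
    (htriv : ∀ s ∈ U₀, ∀ a : (A.dualTwist D.χ).V, (A.dualTwist D.χ).ρ s a = a),
    SeqInputs D A (stdPres D.𝒯 U₀ hU₀ (A.dualTwist D.χ) htriv)

end Fermat.Agent.PT.F

end


end ZBPT_031_8

/-! ### bundled: `Fermat.Agent.PT.F.SeqDelExists` -/
section ZBPT_031_9
/-
PT-F §6 piece S1 `StmtDelExists` (helper55): every `g : M₁ ⟶ C` has a level 2-cocycle `w`
with `IsDel g w`.

`stmtDelExists_of : StmtM1Free → StmtDelExists`  (uses `stmtKappa`, `stmtExt`).

Proof: lift `g` to an additive `g̃ : M₁ → J` on a basis of `M₁` (`π` is surjective);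
`σ ↦ σ g̃ σ⁻¹ - g̃` has values in `ker π = im i`, so it is `i ∘ z₁(σ)`, `z₁` a level 1-cochain in
`Hom(M₁, E)`; extend `z₁(σ)` to `z̃(σ) : M₀ → E` (S0a; `E` is `p`-divisible and `p M₀ ⊆ M₁`),
by a choice depending only on `z₁(σ)`, so that `z̃` is level; `d z̃` vanishes on `M₁`, hence is
`κ ∘ w` for a unique `w`, which is a level 2-cocycle because `κ` is injective and equivariant.
-/

set_option autoImplicit false
set_option linter.unusedSectionVars false

noncomputable section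

namespace Fermat.Agent.PT.F

open CategoryTheory groupCohomology Fermat.Agent.PT ExactH2

attribute [local instance 1100] Rep.hV2

namespace DelExists

section General

variable {G : Type} [Group G]

/-- `d¹ ∘ d¹ = 0` in the form of the 2-cocycle identity. -/
lemma dOne_cocycle (M Y : Rep.{0} ℤ G) (t : G → (M.V →+ Y.V)) (g h j : G) :
    dOne M Y t (g * h, j) + dOne M Y t (g, h) =
      conjAdd M Y g (dOne M Y t (h, j)) + dOne M Y t (g, h * j) := by
  simp only [dOne, map_add, map_sub, conjAdd_mul, mul_assoc]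
  abel

end General

variable {p : ℕ} {G : Type} [Group G] {ι : Type} {Gloc : ι → Type}
  [∀ v, Group (Gloc v)] (D : PTDatum p G ι Gloc)

lemma e_isDiscrete : IsDiscrete D.𝒯 D.E := D.E_discrete

variable {k : Type} [CommRing k] {A' : Rep.{0} k G} (P : Presentation D.𝒯 A')

/-- `M₁` is trivial on `U₀`. -/
lemma triv₁ (s : G) (hs : s ∈ P.U₀) (m : P.M₁.V) : P.M₁.ρ s m = m := by
  apply P.inc_injective
  rw [Rep.hom_comm_apply, P.triv₀ s hs]

/-- `d¹` of a level 1-cochain with values in `Hom(M₀, Y)`, `Y` discrete, is a level 2-cochain. -/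
lemma isLevel₂_dOne {Y : Rep.{0} ℤ G} (hY : IsDiscrete D.𝒯 Y) (t : G → (P.M₀.V →+ Y.V))
    (ht : IsLevel₁ D.𝒯 t) : IsLevel₂ D.𝒯 (dOne P.M₀ Y t) := by
  obtain ⟨U₁, hU₁, h₁⟩ := ht
  have hfin : (Set.range (fun x : G × Fin P.n => t x.1 (P.basis₀ x.2))).Finite := by
    have h1 : (Set.range t).Finite := isLevel₁_finite_range (𝒯 := D.𝒯) ⟨U₁, hU₁, h₁⟩
    have h2 : Set.range (fun x : G × Fin P.n => t x.1 (P.basis₀ x.2)) ⊆
        (fun y : (P.M₀.V →+ Y.V) × Fin P.n => y.1 (P.basis₀ y.2)) ''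
          ((Set.range t) ×ˢ (Set.univ : Set (Fin P.n))) := by
      rintro _ ⟨⟨σ, j⟩, rfl⟩
      exact ⟨(t σ, j), ⟨⟨σ, rfl⟩, Set.mem_univ _⟩, rfl⟩
    exact ((h1.prod Set.finite_univ).image _).subset h2
  obtain ⟨U₂, hU₂, h₂⟩ := hY.exists_level_of_finite hfin
  obtain ⟨V, hV, hVle, hVn⟩ := D.𝒯.exists_normal _
    (D.𝒯.inf_mem _ _ (D.𝒯.inf_mem _ _ hU₁ hU₂) P.U₀_mem)
  refine ⟨V, hV, fun g g' s s' hs hs' => ?_⟩
  have hs1 : s ∈ U₁ := (hVle hs).1.1
  have hs2 : s ∈ U₂ := (hVle hs).1.2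
  have hs0 : s ∈ P.U₀ := (hVle hs).2
  have hs'1 : s' ∈ U₁ := (hVle hs').1.1
  have hconj : ∀ τ, conjAdd P.M₀ Y s (t τ) = t τ := by
    intro τ
    refine (P.basis₀_spec Y.V (fun j => t τ (P.basis₀ j))).unique (fun j => ?_) (fun _ => rfl)
    rw [conjAdd_apply, P.triv₀ s⁻¹ (P.U₀.inv_mem hs0)]
    exact h₂ _ ⟨(τ, j), rfl⟩ s hs2
  have e1 : g * s * (g' * s') = g * g' * (g'⁻¹ * s * g' * s') := by group
  have e2 : g'⁻¹ * s * g' * s' ∈ U₁ := by
    have h3 : g'⁻¹ * s * g' ∈ V := by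
      have := hVn.conj_mem s hs g'⁻¹
      simpa using this
    exact (hVle (V.mul_mem h3 hs')).1.1
  show conjAdd P.M₀ Y (g * s) (t (g' * s')) - t (g * s * (g' * s')) + t (g * s) =
    conjAdd P.M₀ Y g (t g') - t (g * g') + t g
  rw [h₁ g' s' hs'1, h₁ g s hs1, e1, h₁ (g * g') _ e2, conjAdd_mul, hconj]

end DelExists

open DelExists

theorem stmtDelExists_of (hfree : StmtM1Free) : StmtDelExists := by
  intro p _ G _ ι _ Gloc _ D A _ P g
  obtain ⟨κadd, κaddm, κeq, κinj, κsurj⟩ := stmtKappa p G ι Gloc D A P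
  have hk : KFacts D A P := ⟨κadd, κaddm, κeq⟩
  have hp : p.Prime := Fact.out
  have kinj : Function.Injective (kap hk) := by
    intro a b hab
    rw [← sub_eq_zero]
    apply κinj
    intro m
    have h1 : kap hk (a - b) m = 0 := by
      rw [map_sub, hab, sub_self]
      rfl
    exact h1
  -- Step 1: lift `g` to `g̃`
  obtain ⟨n, b, hb⟩ := hfree G D.𝒯 (ZMod p) (A.dualTwist D.χ) P
  have bext : ∀ {Y : Type} [AddCommGroup Y] {h h' : P.M₁.V →+ Y},
      (∀ j, h (b j) = h' (b j)) → h = h' := fun {Y} _ {h h'} hh =>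
    (hb Y (fun j => h' (b j))).unique hh (fun _ => rfl)
  choose x hx using fun j => D.π_surj (g.hom (b j))
  obtain ⟨gt, hgt, -⟩ := hb (PTJ D).V x
  have hπgt : (homAdd D.π).comp gt = homAdd g := by
    apply bext
    intro j
    show D.π.hom (gt (b j)) = g.hom (b j)
    rw [hgt, hx]
  -- Step 2: `d⁰ g̃` has values in `im i`
  have hz : ∀ σ, (homAdd D.π).comp (dZero P.M₁ (PTJ D) gt σ) = 0 := by
    intro σ
    rw [comp_dZero, hπgt]
    ext m
    rw [dZero_apply, homAdd_apply, homAdd_apply, ← Rep.hom_comm_apply, ← Module.End.mul_apply,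
      ← map_mul, mul_inv_cancel, map_one, Module.End.one_apply, sub_self]
    rfl
  choose z₁ hz₁ using fun σ => exists_lift_i (D := D) (dZero P.M₁ (PTJ D) gt σ) (hz σ)
  -- Step 3: `z₁` is level
  have hlev : IsLevel₁ D.𝒯 (dZero P.M₁ (PTJ D) gt) := by
    obtain ⟨U, hU, hUx⟩ := (ptj_isDiscrete D).exists_level_of_finite
      (Set.finite_range (fun j => gt (b j)))
    refine ⟨P.U₀ ⊓ U, D.𝒯.inf_mem _ _ P.U₀_mem hU, fun σ s hs => ?_⟩
    have h1 : conjAdd P.M₁ (PTJ D) s gt = gt := by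
      apply bext
      intro j
      rw [conjAdd_apply, triv₁ D P s⁻¹ (P.U₀.inv_mem hs.1)]
      exact hUx _ ⟨j, rfl⟩ s hs.2
    unfold dZero
    rw [conjAdd_mul, h1]
  have hz₁lev : IsLevel₁ D.𝒯 z₁ := by
    obtain ⟨U, hU, h⟩ := hlev
    refine ⟨U, hU, fun σ s hs => i_comp_injective (D := D) ?_⟩
    rw [hz₁, hz₁, h σ s hs]
  -- Step 4: extend to `M₀`
  have hpM : ∀ m : P.M₀.V, ∃ m₁ : P.M₁.V, homAdd P.inc m₁ = p • m := by
    intro m
    apply (P.exact (p • m)).1
    rw [map_nsmul]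
    exact ZModModule.char_nsmul_eq_zero p _
  choose ext hext using fun z : P.M₁.V →+ D.E.V =>
    stmtExt p hp P.M₀.V P.M₁.V D.E.V (homAdd P.inc) P.inc_injective hpM D.E_div z
  obtain ⟨zt, hztdef⟩ : ∃ zt : G → (P.M₀.V →+ D.E.V), ∀ σ, zt σ = ext (z₁ σ) :=
    ⟨fun σ => ext (z₁ σ), fun _ => rfl⟩
  have hzt : ∀ σ, (zt σ).comp (homAdd P.inc) = z₁ σ := by
    intro σ
    ext m₁
    rw [hztdef]
    exact hext (z₁ σ) m₁
  have hztlev : IsLevel₁ D.𝒯 zt := by
    obtain ⟨U, hU, h⟩ := hz₁lev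
    refine ⟨U, hU, fun σ s hs => ?_⟩
    rw [hztdef, hztdef, h σ s hs]
  -- Step 5: `d z̃` vanishes on `M₁`
  have hd : ∀ στ, (dOne P.M₀ D.E zt στ).comp (homAdd P.inc) = 0 := by
    intro στ
    rw [dOne_comp]
    apply i_comp_injective (D := D)
    rw [comp_dOne, AddMonoidHom.comp_zero]
    have h1 : (fun σ => (homAdd D.i).comp ((zt σ).comp (homAdd P.inc))) =
        dZero P.M₁ (PTJ D) gt := by
      funext σ
      rw [hzt, hz₁]
    rw [h1]
    exact dOne_dZero _ _ gt στ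
  choose w hw using fun στ => κsurj (dOne P.M₀ D.E zt στ)
    (fun m₁ => DFunLike.congr_fun (hd στ) m₁)
  have hw' : ∀ στ, kap hk (w στ) = dOne P.M₀ D.E zt στ := by
    intro στ
    ext m
    exact hw στ m
  refine ⟨w, (mem_levCocycles₂_iff D.𝒯 A w).2 ⟨?_, ?_⟩, gt, zt, ?_, hztlev, ?_, ?_⟩
  · -- cocycle
    rw [mem_cocycles₂_iff]
    intro g' h j
    apply kinj
    rw [map_add, map_add, kap_conj, hw', hw', hw', hw']
    exact dOne_cocycle _ _ zt g' h j
  · -- level
    obtain ⟨U, hU, h⟩ := isLevel₂_dOne D P (e_isDiscrete D) zt hztlev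
    refine ⟨U, hU, fun g' g'' s s' hs hs' => kinj ?_⟩
    rw [hw', hw', h g' g'' s s' hs hs']
  · intro m
    exact DFunLike.congr_fun hπgt m
  · intro σ m
    have h1 := DFunLike.congr_fun (hz₁ σ) m
    have h2 := DFunLike.congr_fun (hzt σ) m
    show D.i.hom (zt σ (P.inc.hom m)) = _
    rw [← h1]
    show D.i.hom (zt σ (P.inc.hom m)) = D.i.hom (z₁ σ m)
    rw [← h2]
    rfl
  · intro στ m
    exact hw στ m

end Fermat.Agent.PT.F

end


end ZBPT_031_9

/-! ### bundled: `Fermat.Agent.PT.F.SeqIn` -/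
section ZBPT_031_10
/-
PT-F §6 input piece SeqIn `StmtSeqIn` (helper86): wiring of the inputs `In1 … In4` for the
standard presentation.

* `In1` = PermSh1 (`H = G`, `φ = mk' U₀`, `S` = prime-to-`p` integers) + In1b;
* `In4` = PermSh1 (`H = G_v`, `φ = mk' U₀ ∘ r v`, `S = {1}`) + In4b;
* `In2` = In2b (make the local cochains level for the pulled-back tower) + In2a;
* `In3` for `M₀`, `M₁` from `StmtIn3` (both are trivial on `U₀`).
-/

set_option autoImplicit false
set_option linter.style.haveILetI false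
set_option linter.unusedSectionVars false

noncomputable section

namespace Fermat.Agent.PT.F.SeqInW

open CategoryTheory groupCohomology Fermat.Agent.PT

attribute [local instance 1100] Rep.hV2

variable {p : ℕ} {G : Type} [Group G] {ι : Type} {Gloc : ι → Type}
  [∀ v, Group (Gloc v)] (D : PTDatum p G ι Gloc)

/-- the prime-to-`p` integers -/
def primeTo (p : ℕ) [Fact p.Prime] : Submonoid ℕ where
  carrier := {n | ¬ p ∣ n}
  one_mem' := by
    show ¬ p ∣ 1
    exact (Fact.out : p.Prime).one_lt.ne' ∘ Nat.dvd_one.1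
  mul_mem' := by
    intro a b ha hb h
    rcases (Nat.Prime.dvd_mul (Fact.out : p.Prime)).1 h with h | h
    · exact ha h
    · exact hb h

lemma mem_primeTo {p : ℕ} [Fact p.Prime] (n : ℕ) : n ∈ primeTo p ↔ ¬ p ∣ n := Iff.rfl

/-- `M₁` of a presentation is trivial on `U₀`. -/
lemma isLevTriv_M₁ {𝒯 : Tower G} {k : Type} [CommRing k] {A' : Rep.{0} k G}
    (P : Presentation 𝒯 A') : IsLevTriv 𝒯 P.M₁ := by
  refine ⟨P.U₀, P.U₀_mem, fun s hs m => P.inc_injective ?_⟩
  rw [Rep.hom_comm_apply, P.triv₀ s hs]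

lemma isLevTriv_M₀ {𝒯 : Tower G} {k : Type} [CommRing k] {A' : Rep.{0} k G}
    (P : Presentation 𝒯 A') : IsLevTriv 𝒯 P.M₀ :=
  ⟨P.U₀, P.U₀_mem, P.triv₀⟩

/-- `In2` from `In2a` and the conclusion of In2b. -/
lemma in2_of (M : Rep.{0} ℤ G) (h2a : In2a D M)
    (h2b : ∀ (v : ι) (z : Gloc v × Gloc v → (M.V →+ (D.Jloc v).V)),
      (∃ U ∈ D.𝒯.lev, ∀ d d' s s' : Gloc v, D.r v s ∈ U → D.r v s' ∈ U →
        z (d * s, d' * s') = z (d, d')) →
      (∃ t : Gloc v → (M.V →+ (D.Jloc v).V), IsLevel₁ (D.𝒯loc v) t ∧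
        ∀ dd, z dd = dOne (Rep.res (D.r v) M) (D.Jloc v) t dd) →
      ∃ t : Gloc v → (M.V →+ (D.Jloc v).V),
        (∃ U ∈ D.𝒯.lev, ∀ d s : Gloc v, D.r v s ∈ U → t (d * s) = t d) ∧
        ∀ dd, z dd = dOne (Rep.res (D.r v) M) (D.Jloc v) t dd) :
    In2 D M := by
  intro y hy hcoc _ hloc
  refine h2a y hy hcoc (fun v => ?_)
  obtain ⟨t, ht, hty⟩ := hloc v
  refine h2b v (fun dd => (ev D v).comp (resTwo D v y dd)) ?_ ⟨t, ht, hty⟩
  obtain ⟨U, hU, hUy⟩ := hy
  refine ⟨U, hU, fun d d' s s' hs hs' => ?_⟩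
  show (ev D v).comp (y (D.r v (d * s), D.r v (d' * s'))) = (ev D v).comp (y (D.r v d, D.r v d'))
  rw [map_mul, map_mul, hUy _ _ _ _ hs hs']

end Fermat.Agent.PT.F.SeqInW

namespace Fermat.Agent.PT.F

open CategoryTheory groupCohomology Fermat.Agent.PT SeqInW

attribute [local instance 1100] Rep.hV2

/-- **SeqIn** (wiring), with exactly the hypotheses that are used. -/
theorem stmtSeqIn_of' (hPerm : StmtPermSh1) (h1b : StmtIn1b) (h4b : StmtIn4b) (h3 : StmtIn3)
    (h2a : StmtIn2a) (h2b : StmtIn2b) : StmtSeqIn := by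
  intro p _ G _ ι _ Gloc _ D A _ U₀ _ hU₀ htriv
  haveI : Finite (G ⧸ U₀) := std_finite_quot D.𝒯 U₀ hU₀
  have hker : (QuotientGroup.mk' U₀).ker = U₀ := QuotientGroup.ker_mk' U₀
  have hL0 := isLevTriv_M₀ (stdPres D.𝒯 U₀ hU₀ (A.dualTwist D.χ) htriv)
  have hL1 := isLevTriv_M₁ (stdPres D.𝒯 U₀ hU₀ (A.dualTwist D.χ) htriv)
  refine ⟨?_, ?_, ?_, ?_, ?_⟩
  · -- In1
    intro c hc hcoc
    have hkermem : (QuotientGroup.mk' U₀).ker ∈ D.𝒯.lev := by rw [hker]; exact hU₀
    obtain ⟨n, hn, t, ht⟩ := hPerm G (G ⧸ U₀) D.𝒯 (QuotientGroup.mk' U₀)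
      (stdOmega U₀ (A.dualTwist D.χ)) (stdOmega_free U₀ (A.dualTwist D.χ)) hkermem D.C
      (primeTo p)
      (fun c' hc' hl' => by
        obtain ⟨n, hn, t, ht⟩ := h1b p G ι Gloc D _ hkermem c' hc' hl'
        exact ⟨n, hn, t, ht⟩)
      c hc hcoc
    exact ⟨n, hn, t, ht⟩
  · -- In2
    refine in2_of D _ (h2a p G ι Gloc D _ hL0) (fun v z hz ht => ?_)
    exact h2b p G ι Gloc D _ hL0
      ⟨_, (stdPres D.𝒯 U₀ hU₀ (A.dualTwist D.χ) htriv).basis₀,
        (stdPres D.𝒯 U₀ hU₀ (A.dualTwist D.χ) htriv).basis₀_spec⟩ v z hz ht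
  · exact h3 p G ι Gloc D _ hL0
  · exact h3 p G ι Gloc D _ hL1
  · -- In4
    intro v c hc hcoc
    have hkermem : ((QuotientGroup.mk' U₀).comp (D.r v)).ker ∈ (D.𝒯loc v).lev := by
      rw [← MonoidHom.comap_ker, hker]
      exact D.comap_mem v U₀ hU₀
    obtain ⟨n, hn, t, ht⟩ := hPerm (Gloc v) (G ⧸ U₀) (D.𝒯loc v)
      ((QuotientGroup.mk' U₀).comp (D.r v))
      (stdOmega U₀ (A.dualTwist D.χ)) (stdOmega_free U₀ (A.dualTwist D.χ)) hkermem (D.Jloc v)
      (⊥ : Submonoid ℕ)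
      (fun c' hc' hl' => by
        obtain ⟨t, ht⟩ := h4b p G ι Gloc D v _ hkermem c' hc' hl'
        exact ⟨1, Submonoid.mem_bot.2 rfl, t, fun s => by rw [one_nsmul]; exact ht s⟩)
      c hc hcoc
    have hn1 : n = 1 := Submonoid.mem_bot.1 hn
    subst hn1
    exact ⟨t, fun d => (one_nsmul (c d)).symm.trans (ht d)⟩

/-- **SeqIn** (wiring), in the form announced in NOTES/PT-F.md. -/
theorem stmtSeqIn_of (hPerm : StmtPermSh1) (h1b : StmtIn1b) (h4b : StmtIn4b) (h3 : StmtIn3)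
    (h2a : StmtIn2a) (h2b : StmtIn2b) (_hM : StmtM1Free) : StmtSeqIn :=
  stmtSeqIn_of' hPerm h1b h4b h3 h2a h2b

end Fermat.Agent.PT.F

end


end ZBPT_031_10

/-! ### bundled: `Fermat.Agent.PT.F.SeqInIn1b` -/
section ZBPT_031_11
/-
PT-F §6 input piece In1b `StmtIn1b` (helper86): level 1-cocycles `U → C` on a level `U` are
coboundaries up to a prime-to-`p` multiple.

Proof: choose a normal level `W ≤ U ⊓ U'` (`U'` a level of right-invariance of `c`); `c` vanishes
on `W`, has values in `C^W` and descends to a 1-cocycle of `U/W ≤ G/W` with values in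
`C.quotientToInvariants W`; `cm_glob` at `W` gives `H¹(H, C^W) = 0` for all `p`-subgroups `H` of
`G/W`, and `InflInj.h1Kill_of_pgroups` (Sylow + index) finishes.
-/

set_option autoImplicit false
set_option linter.style.haveILetI false
set_option linter.unusedSectionVars false

attribute [-instance] AddCommGroup.toIntModule

namespace Fermat.Agent.PT.F.In1b

open CategoryTheory groupCohomology Fermat.Agent.PT

variable {G : Type} [Group G]

/-- Descent of a level 1-cocycle on a subgroup `U` to the finite quotient `G ⧸ W`: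
abstract form (any module `C`, any normal `W ≤ U` on which `c` is right-invariant). -/
theorem descend_kill (C : Rep.{0} ℤ G) (U W : Subgroup G) [W.Normal] (hWU : W ≤ U)
    (c : U → C.V) (hc : ∀ s s' : U, c (s * s') = c s + C.ρ (s : G) (c s'))
    (hcW : ∀ s u : U, (u : G) ∈ W → c (s * u) = c s)
    (m : ℕ) (hK : InflInj.H1Kill (U.map (QuotientGroup.mk' W)) (C.quotientToInvariants W) m) :
    ∃ t : C.V, ∀ s : U, m • c s = C.ρ (s : G) t - t := by
  classical
  have hc1 : c 1 = 0 := by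
    have := hc 1 1
    simp only [mul_one, OneMemClass.coe_one, map_one] at this
    have h2 : c 1 = c 1 + c 1 := this
    have h3 : c 1 + 0 = c 1 + c 1 := by rw [add_zero]; exact h2
    exact (add_left_cancel h3).symm
  have hcu : ∀ u : U, (u : G) ∈ W → c u = 0 := by
    intro u hu
    have := hcW 1 u hu
    rw [one_mul] at this
    rw [this, hc1]
  -- values are `W`-invariant
  have hinv : ∀ (s : U) (w : G), w ∈ W → C.ρ w (c s) = c s := by
    intro s w hw
    have hwU : w ∈ U := hWU hw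
    have h1 := hc ⟨w, hwU⟩ s
    rw [hcu ⟨w, hwU⟩ hw, zero_add] at h1
    have hconj : (s : G)⁻¹ * w * s ∈ W := by
      have := Subgroup.Normal.conj_mem ‹W.Normal› w hw (s : G)⁻¹
      simpa using this
    have hconjU : (s : G)⁻¹ * w * s ∈ U := hWU hconj
    have e : (⟨w, hwU⟩ : U) * s = s * ⟨(s : G)⁻¹ * w * s, hconjU⟩ := by
      apply Subtype.ext
      show w * (s : G) = (s : G) * ((s : G)⁻¹ * w * s)
      group
    rw [e, hcW s _ hconj] at h1
    exact h1.symm
  -- the descended cocycle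
  have hpre : ∀ k : U.map (QuotientGroup.mk' W), ∃ s : U, QuotientGroup.mk' W (s : G) = k := by
    rintro ⟨k, s, hs, rfl⟩
    exact ⟨⟨s, hs⟩, rfl⟩
  choose pre hpre' using hpre
  have hwd : ∀ s s' : U, QuotientGroup.mk' W (s : G) = QuotientGroup.mk' W (s' : G) →
      c s = c s' := by
    intro s s' h
    have hmem : (s : G)⁻¹ * s' ∈ W := QuotientGroup.eq.1 h
    have e : s' = s * (s⁻¹ * s') := by group
    rw [e]
    exact (hcW s (s⁻¹ * s') hmem).symm
  let cb : U.map (QuotientGroup.mk' W) → (C.quotientToInvariants W).V :=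
    fun k => ⟨c (pre k), fun w => hinv (pre k) w w.2⟩
  have hcb : ∀ s : U, ∀ hk : QuotientGroup.mk' W (s : G) ∈ U.map (QuotientGroup.mk' W),
      ((cb ⟨QuotientGroup.mk' W (s : G), hk⟩ : (C.quotientToInvariants W).V) : C.V) = c s := by
    intro s hk
    exact hwd _ _ (hpre' ⟨_, hk⟩)
  have hmemk : ∀ s : U, QuotientGroup.mk' W (s : G) ∈ U.map (QuotientGroup.mk' W) :=
    fun s => ⟨s, s.2, rfl⟩
  obtain ⟨a, ha⟩ := hK cb (by
    intro k k'
    obtain ⟨s, hs⟩ : ∃ s : U, (⟨QuotientGroup.mk' W (s : G), hmemk s⟩ :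
        U.map (QuotientGroup.mk' W)) = k := ⟨pre k, Subtype.ext (hpre' k)⟩
    obtain ⟨s', hs'⟩ : ∃ s : U, (⟨QuotientGroup.mk' W (s : G), hmemk s⟩ :
        U.map (QuotientGroup.mk' W)) = k' := ⟨pre k', Subtype.ext (hpre' k')⟩
    subst hs hs'
    apply Subtype.ext
    have e : (⟨QuotientGroup.mk' W (s : G), hmemk s⟩ : U.map (QuotientGroup.mk' W)) *
        ⟨QuotientGroup.mk' W (s' : G), hmemk s'⟩ =
        ⟨QuotientGroup.mk' W ((s * s' : U) : G), hmemk (s * s')⟩ := by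
      apply Subtype.ext
      simp
    rw [e, hcb, Submodule.coe_add, hcb]
    have hcoe : ∀ (g : G) (v : (C.quotientToInvariants W).V),
        (((C.quotientToInvariants W).ρ (QuotientGroup.mk' W g) v :
          (C.quotientToInvariants W).V) : C.V) = C.ρ g (v : C.V) := fun g v => rfl
    rw [hcoe, hcb, hc, add_comm])
  refine ⟨(a : C.V), fun s => ?_⟩
  have h1 := ha ⟨QuotientGroup.mk' W (s : G), hmemk s⟩
  have h2 := congrArg (fun v : (C.quotientToInvariants W).V => (v : C.V)) h1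
  simp only [] at h2
  rw [Submodule.coe_sub] at h2
  have h3 : ((m • cb ⟨QuotientGroup.mk' W (s : G), hmemk s⟩ :
      (C.quotientToInvariants W).V) : C.V) = m • c s := by
    rw [← hcb s (hmemk s)]
    rfl
  rw [h3] at h2
  exact h2

end Fermat.Agent.PT.F.In1b

namespace Fermat.Agent.PT.F

open CategoryTheory groupCohomology Fermat.Agent.PT

/-- **In1b**: level 1-cocycles `U → C` are coboundaries up to a prime-to-`p` multiple. -/
theorem stmtIn1b : StmtIn1b := by
  intro p _ G _ ι _ Gloc _ D U hU c hc hcl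
  obtain ⟨U', hU', hcU'⟩ := hcl
  obtain ⟨W, hW, hWU, hWU', hWn⟩ := tower_exists_normal_le₂ D.𝒯 hU hU'
  haveI := hWn
  haveI := D.𝒯.finiteIndex W hW
  haveI : Finite (G ⧸ W) := Subgroup.finite_quotient_of_finiteIndex
  obtain ⟨u, hu⟩ := D.cm_glob W hW
  obtain ⟨m, hm, hK⟩ := InflInj.h1Kill_of_pgroups p (U.map (QuotientGroup.mk' W))
    (D.C.quotientToInvariants W) hu.h1
  obtain ⟨t, ht⟩ := In1b.descend_kill D.C U W hWU c hc (fun s u hu => hcU' s u (hWU' hu)) m hK
  exact ⟨m, hm, t, ht⟩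

end Fermat.Agent.PT.F


end ZBPT_031_11

/-! ### bundled: `Fermat.Agent.PT.F.SeqInIn4b` -/
section ZBPT_031_12
/-
PT-F §6 inputs, piece In4b (helper81): level 1-cocycles `V → J_v` on a local level `V` are
coboundaries (Hilbert 90, level form).  `stmtIn4b : StmtIn4b`.
Proof: helper86's descent `In1b.descend_kill` with `m = 1`, the vanishing coming from `h90_loc`.
-/

set_option autoImplicit false
set_option linter.style.haveILetI false

attribute [-instance] AddCommGroup.toIntModule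

namespace Fermat.Agent.PT.F

open CategoryTheory groupCohomology Fermat.Agent.PT

/-- If `H¹(K, C') = 0` then every 1-cocycle on `K` is a coboundary (`H1Kill` with `m = 1`). -/
theorem in4b_h1Kill_one {Γ' : Type} [Group Γ'] (K : Subgroup Γ') (C' : Rep.{0} ℤ Γ')
    (h : Subsingleton (H1 (Rep.res K.subtype C'))) : InflInj.H1Kill K C' 1 := by
  intro c hc
  have hc' : c ∈ cocycles₁ (Rep.res K.subtype C') := by
    rw [mem_cocycles₁_iff]
    exact fun a b => hc a b
  have h0 : H1π (Rep.res K.subtype C') ⟨c, hc'⟩ = 0 := Subsingleton.elim _ _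
  rw [H1π_eq_zero_iff] at h0
  obtain ⟨a, ha⟩ := h0
  refine ⟨a, fun n => ?_⟩
  have := congrFun ha n
  simp only [d₀₁_hom_apply] at this
  rw [one_smul]
  exact this.symm

/-- **In4b**: level 1-cocycles `V → J_v` on a local level are coboundaries. -/
theorem stmtIn4b : StmtIn4b := by
  intro p _ G _ ι _ Gloc _ D v V hV c hc hcl
  obtain ⟨V', hV', hcV'⟩ := hcl
  obtain ⟨W, hW, hWV, hWV', hWn⟩ := tower_exists_normal_le₂ (D.𝒯loc v) hV hV'
  haveI := hWn
  have hK := in4b_h1Kill_one (V.map (QuotientGroup.mk' W)) ((D.Jloc v).quotientToInvariants W)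
    (D.h90_loc v W hW (V.map (QuotientGroup.mk' W)))
  obtain ⟨t, ht⟩ := In1b.descend_kill (D.Jloc v) V W hWV c hc
    (fun s u hu => hcV' s u (hWV' hu)) 1 hK
  exact ⟨t, fun s => by rw [← ht s, one_smul]⟩

end Fermat.Agent.PT.F


end ZBPT_031_12

/-! ### bundled: `Fermat.Agent.PT.F.SeqInM1Free` -/
section ZBPT_031_13
/-
PT-F §6 inputs, piece M1Free (helper81): the relation module of a presentation is `ℤ`-free of
finite rank.  `stmtM1Free : StmtM1Free`.
-/

set_option autoImplicit false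

noncomputable section

namespace Fermat.Agent.PT.F

open CategoryTheory groupCohomology Fermat.Agent.PT

/-- A group with a finite "basis" in the sense of the universal property is isomorphic to
`Fin n → ℤ`. -/
theorem m1free_equiv_of_univ (M₀ : Type) [AddCommGroup M₀] (n : ℕ) (b₀ : Fin n → M₀)
    (hb : ∀ (Y : Type) [AddCommGroup Y] (f : Fin n → Y), ∃! h : M₀ →+ Y, ∀ j, h (b₀ j) = f j) :
    Nonempty (M₀ ≃+ (Fin n → ℤ)) := by
  classical
  obtain ⟨ψ, hψ, -⟩ := hb (Fin n → ℤ) (fun j => Pi.single j (1 : ℤ))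
  let φL : (Fin n → ℤ) →ₗ[ℤ] M₀ := Fintype.linearCombination ℤ b₀
  let φ : (Fin n → ℤ) →+ M₀ := φL.toAddMonoidHom
  have hφ : ∀ j, φ (Pi.single j (1 : ℤ)) = b₀ j := fun j => by
    show Fintype.linearCombination ℤ b₀ (Pi.single j (1 : ℤ)) = b₀ j
    rw [Fintype.linearCombination_apply_single, one_smul]
  have h1 : φ.comp ψ = AddMonoidHom.id M₀ := by
    refine (hb M₀ b₀).unique (fun j => ?_) (fun j => rfl)
    rw [AddMonoidHom.comp_apply, hψ, hφ]
  have h2 : ψ.comp φ = AddMonoidHom.id (Fin n → ℤ) := by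
    ext i j
    show ψ (φ (Pi.single i (1 : ℤ))) j = (Pi.single i (1 : ℤ) : Fin n → ℤ) j
    rw [hφ, hψ]
  exact ⟨{ toFun := ψ
           invFun := φ
           left_inv := fun x => DFunLike.congr_fun h1 x
           right_inv := fun x => DFunLike.congr_fun h2 x
           map_add' := ψ.map_add }⟩

/-- A free `ℤ`-module of finite rank has a finite "basis" in the sense of the universal
property. -/
theorem m1free_univ_of_free (M : Type) [AddCommGroup M] [Module.Free ℤ M] [Module.Finite ℤ M] :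
    ∃ (n : ℕ) (b : Fin n → M), ∀ (Y : Type) [AddCommGroup Y] (f : Fin n → Y),
      ∃! h : M →+ Y, ∀ j, h (b j) = f j := by
  classical
  let B := Module.finBasis ℤ M
  refine ⟨Module.finrank ℤ M, B, fun Y _ f => ?_⟩
  refine ⟨(B.constr ℤ f).toAddMonoidHom, fun j => ?_, fun h hh => ?_⟩
  · show B.constr ℤ f (B j) = f j
    exact B.constr_basis ℤ f j
  · have : h.toIntLinearMap = B.constr ℤ f := by
      refine B.ext fun j => ?_
      rw [B.constr_basis]
      exact hh j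
    ext x
    exact DFunLike.congr_fun this x

/-- Subgroups of groups with a finite basis have a finite basis. -/
theorem m1free_aux (M₀ M₁ : Type) [AddCommGroup M₀] [AddCommGroup M₁] (inc : M₁ →+ M₀)
    (hinc : Function.Injective inc) (n : ℕ) (b₀ : Fin n → M₀)
    (hb : ∀ (Y : Type) [AddCommGroup Y] (f : Fin n → Y), ∃! h : M₀ →+ Y, ∀ j, h (b₀ j) = f j) :
    ∃ (n' : ℕ) (b : Fin n' → M₁), ∀ (Y : Type) [AddCommGroup Y] (f : Fin n' → Y),
      ∃! h : M₁ →+ Y, ∀ j, h (b j) = f j := by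
  classical
  obtain ⟨e⟩ := m1free_equiv_of_univ M₀ n b₀ hb
  let g : M₁ →ₗ[ℤ] (Fin n → ℤ) := (e.toAddMonoidHom.comp inc).toIntLinearMap
  have hg : Function.Injective g := fun x y hxy => hinc (e.injective hxy)
  let E : M₁ ≃ₗ[ℤ] LinearMap.range g := LinearEquiv.ofInjective g hg
  have : Module.Finite ℤ M₁ := Module.Finite.equiv E.symm
  have : Module.Free ℤ M₁ := Module.Free.of_equiv E.symm
  exact m1free_univ_of_free M₁

/-- **M1Free**: the relation module of a presentation is `ℤ`-free of finite rank. -/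
theorem stmtM1Free : StmtM1Free := by
  intro G _ 𝒯 k _ A' P
  exact m1free_aux P.M₀.V P.M₁.V (AddMonoidHom.mk' (fun a => P.inc.hom a)
    (fun a b => map_add P.inc.hom a b)) P.inc_injective P.n P.basis₀ P.basis₀_spec

end Fermat.Agent.PT.F

end


end ZBPT_031_13

/-! ### bundled: `Fermat.Agent.PT.F.SeqInPermSh1` -/
section ZBPT_031_14
/-
PT-F §6 — **PermSh1** (helper30): Shapiro's lemma in degree 1 for permutation modules, explicit.
`φ : H → Γ`, `Ω` a finite free `Γ`-set, `M = res_φ ℤ[Ω]`, `N = ker φ`.  If every level 1-cocycle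
`N → Y` becomes a coboundary after multiplication by some `n ∈ S`, the same holds for every level
1-cocycle `H → Hom_ℤ(M, Y)`.
Formula: for orbit representatives `x₀` and `n • c(s)(x₀) = s t_{x₀} - t_{x₀}` (`s ∈ N`) put
`t(g x₀) := g t_{x₀} - n • c(g)(g x₀)`.
-/

set_option autoImplicit false

noncomputable section

namespace Fermat.Agent.PT.F

open CategoryTheory groupCohomology Fermat.Agent.PT

attribute [local instance 1100] Rep.hV2

section Core

variable {H Γ : Type} [Group H] [Group Γ] (φ : H →* Γ) {Ω : Type} [MulAction Γ Ω]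

/-- a representative of the `H`-orbit of `ω` (depending only on the orbit) -/
def permSh1_rep (ω : Ω) : Ω :=
  @Classical.epsilon Ω ⟨ω⟩ (fun x => ∃ g : H, φ g • x = ω)

lemma permSh1_rep_spec (ω : Ω) : ∃ g : H, φ g • permSh1_rep φ ω = ω :=
  @Classical.epsilon_spec Ω (fun x => ∃ g : H, φ g • x = ω) ⟨ω, 1, by simp⟩

lemma permSh1_rep_smul (σ : H) (ω : Ω) : permSh1_rep φ (φ σ • ω) = permSh1_rep φ ω := by
  have h : (fun x => ∃ g : H, φ g • x = φ σ • ω) = (fun x => ∃ g : H, φ g • x = ω) := by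
    funext x
    apply propext
    constructor
    · rintro ⟨g, hg⟩
      refine ⟨σ⁻¹ * g, ?_⟩
      rw [map_mul, mul_smul, hg, map_inv, inv_smul_smul]
    · rintro ⟨g, hg⟩
      refine ⟨σ * g, ?_⟩
      rw [map_mul, mul_smul, hg]
  unfold permSh1_rep
  rw [h]

/-- an element of `H` moving the representative to `ω` -/
def permSh1_g (ω : Ω) : H := Classical.choose (permSh1_rep_spec φ ω)

lemma permSh1_g_spec (ω : Ω) : φ (permSh1_g φ ω) • permSh1_rep φ ω = ω :=
  Classical.choose_spec (permSh1_rep_spec φ ω)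

/-- the combinatorial core of `PermSh1`, for functions `c : H → Ω → A`. -/
theorem permSh1_core (hfree : ∀ (γ : Γ) (ω : Ω), γ • ω = ω → γ = 1)
    {A : Type} [AddCommGroup A] (act : H → A →+ A)
    (hact : ∀ σ τ a, act (σ * τ) a = act σ (act τ a))
    (c : H → Ω → A)
    (hc : ∀ σ τ ω, c (σ * τ) ω = c σ ω + act σ (c τ ((φ σ)⁻¹ • ω)))
    (n : ℕ) (t' : Ω → A)
    (ht' : ∀ s : H, φ s = 1 → ∀ ω, n • c s ω = act s (t' ω) - t' ω) :
    ∃ t : Ω → A, ∀ σ ω, n • c σ ω = act σ (t ((φ σ)⁻¹ • ω)) - t ω := by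
  refine ⟨fun ω => act (permSh1_g φ ω) (t' (permSh1_rep φ ω)) - n • c (permSh1_g φ ω) ω,
    fun σ ω => ?_⟩
  have hrep : permSh1_rep φ ((φ σ)⁻¹ • ω) = permSh1_rep φ ω := by
    rw [← map_inv]; exact permSh1_rep_smul φ σ⁻¹ ω
  have hg : φ (permSh1_g φ ω) • permSh1_rep φ ω = ω := permSh1_g_spec φ ω
  have hg' : φ (permSh1_g φ ((φ σ)⁻¹ • ω)) • permSh1_rep φ ω = (φ σ)⁻¹ • ω := by
    rw [← hrep]; exact permSh1_g_spec φ ((φ σ)⁻¹ • ω)
  simp only [hrep]
  generalize permSh1_rep φ ω = x₀ at hg hg' ⊢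
  generalize permSh1_g φ ω = g at hg ⊢
  generalize permSh1_g φ ((φ σ)⁻¹ • ω) = g' at hg' ⊢
  have hs : φ (g⁻¹ * σ * g') = 1 := by
    apply hfree _ x₀
    rw [map_mul, map_mul, mul_smul, mul_smul, hg', smul_inv_smul, map_inv, ← hg, inv_smul_smul]
  have hσg' : σ * g' = g * (g⁻¹ * σ * g') := by group
  have hx₀ : (φ g)⁻¹ • ω = x₀ := by rw [← hg, inv_smul_smul]
  have h1 := hc σ g' ω
  have h2 := hc g (g⁻¹ * σ * g') ω
  rw [← hσg', hx₀] at h2
  have h3 := ht' _ hs x₀
  have e1 : c σ ω = c g ω + act g (c (g⁻¹ * σ * g') x₀) - act σ (c g' ((φ σ)⁻¹ • ω)) := by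
    rw [← h2, h1]; abel
  have h3' : act (g⁻¹ * σ * g') (t' x₀) = t' x₀ + n • c (g⁻¹ * σ * g') x₀ := by
    rw [h3]; abel
  have e2 : act σ (act g' (t' x₀)) = act g (t' x₀) + n • act g (c (g⁻¹ * σ * g') x₀) := by
    rw [← hact, hσg', hact, h3', map_add, map_nsmul]
  rw [map_sub, map_nsmul, e2, e1, smul_sub, smul_add]
  abel

end Core

section Wrapper

variable {H Γ : Type} [Group H] [Group Γ] (φ : H →* Γ) (Ω : Type) [MulAction Γ Ω]

/-- the action on the basis of `res_φ ℤ[Ω]` -/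
lemma permSh1_ρ_single (σ : H) (ω : Ω) (z : ℤ) :
    (Rep.res φ (Rep.ofMulAction ℤ Γ Ω)).ρ σ (MonoidAlgebra.single ω z) =
      MonoidAlgebra.single (φ σ • ω) z :=
  Representation.ofMulAction_single (φ σ) ω z

/-- the additive map `ℤ[Ω] → A` with prescribed values on the basis -/
def permSh1_lift {A : Type} [AddCommGroup A] (t : Ω → A) :
    (Rep.res φ (Rep.ofMulAction ℤ Γ Ω)).V →+ A :=
  (Finsupp.liftAddHom (fun ω : Ω => zmultiplesHom A (t ω))).comp
    (MonoidAlgebra.coeffAddEquiv (R := ℤ) (M := Ω)).toAddMonoidHom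

lemma permSh1_lift_single {A : Type} [AddCommGroup A] (t : Ω → A) (ω : Ω) (z : ℤ) :
    permSh1_lift φ Ω t (MonoidAlgebra.single ω z) = z • t ω := by
  simp [permSh1_lift, MonoidAlgebra.coeffAddEquiv]

/-- additive maps out of `ℤ[Ω]` agree if they agree on the basis -/
lemma permSh1_ext {A : Type} [AddCommGroup A]
    (f f' : (Rep.res φ (Rep.ofMulAction ℤ Γ Ω)).V →+ A)
    (h : ∀ ω : Ω, f (MonoidAlgebra.single ω 1) = f' (MonoidAlgebra.single ω 1)) : f = f' := by
  apply MonoidAlgebra.addMonoidHom_ext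
  intro ω z
  have h1 : (MonoidAlgebra.single ω z : MonoidAlgebra ℤ Ω) = z • MonoidAlgebra.single ω 1 := by
    rw [MonoidAlgebra.smul_single, smul_eq_mul, mul_one]
  rw [h1, map_zsmul, map_zsmul, h ω]

lemma permSh1_dZero_apply (M Y : Rep.{0} ℤ H) (h : M.V →+ Y.V) (σ : H) (m : M.V) :
    dZero M Y h σ m = Y.ρ σ (h (M.ρ σ⁻¹ m)) - h m := rfl

lemma permSh1_dOne_apply (M Y : Rep.{0} ℤ H) (t : H → (M.V →+ Y.V)) (σ τ : H) (m : M.V) :
    dOne M Y t (σ, τ) m = Y.ρ σ (t τ (M.ρ σ⁻¹ m)) - t (σ * τ) m + t σ m := rfl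

end Wrapper

/-- **PermSh1**: Shapiro's lemma in degree 1 for permutation modules (explicit form). -/
theorem stmtPermSh1 : StmtPermSh1 := by
  intro H Γ _ _ 𝒯 φ Ω _ _ hfree hker Y S hyp c hlev hcoc
  -- the cocycle identity on basis elements
  have hc' : ∀ (σ τ : H) (ω : Ω), c (σ * τ) (MonoidAlgebra.single ω 1) =
      c σ (MonoidAlgebra.single ω 1) +
        actAdd Y σ (c τ (MonoidAlgebra.single ((φ σ)⁻¹ • ω) 1)) := by
    intro σ τ ω
    have h := DFunLike.congr_fun (hcoc (σ, τ)) (MonoidAlgebra.single ω 1)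
    rw [permSh1_dOne_apply, AddMonoidHom.zero_apply, permSh1_ρ_single, map_inv] at h
    rw [actAdd_apply]
    calc c (σ * τ) (MonoidAlgebra.single ω 1)
        = c (σ * τ) (MonoidAlgebra.single ω 1) +
          (Y.ρ σ (c τ (MonoidAlgebra.single ((φ σ)⁻¹ • ω) 1)) -
            c (σ * τ) (MonoidAlgebra.single ω 1) + c σ (MonoidAlgebra.single ω 1)) := by
          rw [h, add_zero]
      _ = _ := by abel
  -- the restrictions to `ker φ` are level cocycles
  have hω : ∀ ω : Ω, ∃ n ∈ S, ∃ t : Y.V, ∀ s : H, φ s = 1 →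
      n • c s (MonoidAlgebra.single ω 1) = actAdd Y s t - t := by
    intro ω
    have hcoc1 : IsCocycleOn φ.ker Y (fun s => c (s : H) (MonoidAlgebra.single ω 1)) := by
      intro s s'
      have h := hc' s s' ω
      have hs1 : (φ (s : H))⁻¹ • ω = ω := by rw [MonoidHom.mem_ker.1 s.2]; simp
      rw [hs1] at h
      exact h
    have hlev1 : IsLevelOn 𝒯 φ.ker (fun s => c (s : H) (MonoidAlgebra.single ω 1)) := by
      obtain ⟨U, hU, hUc⟩ := hlev
      exact ⟨U, hU, fun s u hu => by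
        show c ((s * u : φ.ker) : H) _ = _
        rw [Subgroup.coe_mul, hUc s u hu]⟩
    obtain ⟨n, hn, t, ht⟩ := hyp _ hcoc1 hlev1
    exact ⟨n, hn, t, fun s hs => ht ⟨s, MonoidHom.mem_ker.2 hs⟩⟩
  choose nω hnS tω htω using hω
  obtain ⟨_⟩ := nonempty_fintype Ω
  have hn : (∏ ω, nω ω) ∈ S := Submonoid.prod_mem S (fun ω _ => hnS ω)
  have hdvd : ∀ ω, ∃ k, (∏ ω, nω ω) = k * nω ω := fun ω => by
    obtain ⟨k, hk⟩ := Finset.dvd_prod_of_mem nω (Finset.mem_univ ω)
    exact ⟨k, by rw [hk, mul_comm]⟩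
  choose k hk using hdvd
  have ht' : ∀ s : H, φ s = 1 → ∀ ω : Ω,
      (∏ ω, nω ω) • c s (MonoidAlgebra.single ω 1) =
        actAdd Y s (k ω • tω ω) - k ω • tω ω := by
    intro s hs ω
    rw [hk ω, mul_smul, htω ω s hs, smul_sub, map_nsmul]
  obtain ⟨t, ht⟩ := permSh1_core φ hfree (fun σ => actAdd Y σ)
    (fun σ τ a => by simp only [actAdd_apply, map_mul]; rfl)
    (fun σ ω => c σ (MonoidAlgebra.single ω 1)) hc' (∏ ω, nω ω) (fun ω => k ω • tω ω) ht'
  refine ⟨_, hn, permSh1_lift φ Ω t, fun σ => permSh1_ext φ Ω _ _ (fun ω => ?_)⟩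
  rw [permSh1_dZero_apply, permSh1_ρ_single, permSh1_lift_single, permSh1_lift_single, one_zsmul,
    one_zsmul, map_inv]
  exact ht σ ω

end Fermat.Agent.PT.F

end


end ZBPT_031_14

/-! ### bundled: `Fermat.Agent.PT.X.ExistTLBase` -/
section ZBPT_031_15
/-
PT-X, piece X-ASM (helper69), part 1: the dictionary between the type-level model (`CS S K`,
`divHom`, `jlDiag`, `selV`, `selVloc`) and the abstract count of PT/X/Count.lean, the norm
subgroup, the two consequences (T1), (T2) of Tate-Nakayama for `C_S(L)`, and the finiteness of the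
Selmer groups modulo `p`-th powers.
-/

set_option autoImplicit false
set_option linter.style.haveILetI false
set_option linter.unusedSectionVars false

namespace Fermat.Agent.PT.X

open NumberField IsDedekindDomain Fermat.Agent.PT.G Fermat.Agent.PT.G1 Fermat.Agent.PT
open CategoryTheory groupCohomology Fermat.Agent.PT.G3 AddSubgroup

namespace ExistTL

section maps

variable (S : Finset Nat.Primes) (K : Type) [Field K] [NumberField K]

/-- `div : Kˣ → Div_S(K)`, additive. -/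
noncomputable def xDv : Additive Kˣ →+ DivS S K := (divHom S K).toAddMonoidHom

/-- `diag : Kˣ → J_K`, additive. -/
noncomputable def xLc : Additive Kˣ →+ Additive (JL S K) := MonoidHom.toAdditive (jlDiag S K)

/-- `J_K × Div_S(K) → C_S(K)`, additive. -/
noncomputable def xPi : Additive (JL S K) × DivS S K →+ CS S K := (csMk S K).toAddMonoidHom

lemma xPi_surjective : Function.Surjective (xPi S K) := Submodule.mkQ_surjective _

lemma xPi_ker : (xPi S K).ker = ((xLc S K).prod (xDv S K)).range := by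
  ext y
  rw [AddMonoidHom.mem_ker]
  show csMk S K y = 0 ↔ _
  rw [Submodule.mkQ_apply, Submodule.Quotient.mk_eq_zero]
  constructor
  · rintro ⟨x, rfl⟩
    exact ⟨x, rfl⟩
  · rintro ⟨x, rfl⟩
    exact ⟨x, rfl⟩

lemma xD_torsionFree (p : ℕ) (hp : p ≠ 0) (d : DivS S K) (h : p • d = 0) : d = 0 := by
  ext P
  have := DFunLike.congr_fun h P
  simp only [Finsupp.smul_apply, Finsupp.zero_apply, nsmul_eq_mul] at this
  rcases mul_eq_zero.1 this with h1 | h1
  · exact absurd (by exact_mod_cast h1) hp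
  · simpa using h1

/-- the class group is finite: `div(Kˣ)` has finite index in `Div_S(K)`. -/
lemma xDv_range_index_ne_zero : (xDv S K).range.index ≠ 0 := by
  classical
  let f : DivS S K →+ Additive (ClassGroup (𝓞 K)) := MonoidHom.toAdditiveRight (cseClass S K)
  have hle : f.ker ≤ (xDv S K).range := by
    intro d hd
    have hker : Multiplicative.ofAdd d ∈ (cseClass S K).ker := by
      rw [MonoidHom.mem_ker]
      exact congrArg Additive.toMul hd
    obtain ⟨x, hx, -⟩ := exists_ordAt_eq_of_mem_ker (K := K) (fun P : OffS S K => P.1)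
      Subtype.val_injective _ hker
    refine ⟨Additive.ofMul x, ?_⟩
    ext P
    show divHom S K (Additive.ofMul x) P = d P
    rw [divHom_apply]
    exact hx P
  have h1 : f.ker.index ≠ 0 := by
    rw [AddSubgroup.index_ker]
    exact Nat.card_pos.ne'
  exact fun h0 => h1 (Nat.eq_zero_of_zero_dvd (h0 ▸ AddSubgroup.index_dvd_of_le hle))

lemma nMul_units_eq (p : ℕ) :
    nMul p (Additive Kˣ) = Subgroup.toAddSubgroup (powMonoidHom p : Kˣ →* Kˣ).range := by
  ext a
  rw [mem_nMul]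
  constructor
  · rintro ⟨b, rfl⟩
    exact ⟨Additive.toMul b, rfl⟩
  · rintro ⟨b, hb⟩
    exact ⟨Additive.ofMul b, hb⟩

lemma kummerV_eq (p : ℕ) (hp : p ≠ 0) :
    kummerV p (xDv S K) = Subgroup.toAddSubgroup (selV p S K) := by
  ext a
  rw [mem_kummerV, mem_nMul]
  constructor
  · rintro ⟨d, hd⟩ P
    have := DFunLike.congr_fun hd P
    simp only [Finsupp.smul_apply, nsmul_eq_mul] at this
    refine ⟨d P, ?_⟩
    show ordAt P.1 (Additive.toMul a) = _
    have h2 : xDv S K a P = ordAt P.1 (Additive.toMul a) := rfl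
    rw [← h2, ← this]
  · intro h
    have hp' : (p : ℤ) ≠ 0 := by exact_mod_cast hp
    have hsupp : (Function.support fun P : OffS S K => ordAt P.1 (Additive.toMul a) / (p : ℤ)).Finite := by
      refine (ordAt_finite_support S K (Additive.toMul a)).subset ?_
      intro P hP
      simp only [Function.mem_support, ne_eq] at hP ⊢
      intro h0
      rw [h0] at hP
      simp at hP
    refine ⟨Finsupp.ofSupportFinite _ hsupp, ?_⟩
    ext P
    simp only [Finsupp.smul_apply, nsmul_eq_mul]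
    show (p : ℤ) * (ordAt P.1 (Additive.toMul a) / (p : ℤ)) = ordAt P.1 (Additive.toMul a)
    exact Int.mul_ediv_cancel' (h P)

lemma kummerVloc_eq (p : ℕ) (hp : p ≠ 0) :
    kummerVloc p (xDv S K) (xLc S K) = Subgroup.toAddSubgroup (selVloc p S K) := by
  ext a
  rw [mem_kummerVloc]
  have h1 : xDv S K a ∈ nMul p (DivS S K) ↔ Additive.toMul a ∈ selV p S K := by
    have := kummerV_eq S K p hp
    have h2 : a ∈ kummerV p (xDv S K) ↔ a ∈ Subgroup.toAddSubgroup (selV p S K) := by rw [this]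
    exact h2
  rw [h1, mem_nMul]
  constructor
  · rintro ⟨hv, j, hj⟩
    exact ⟨hv, Additive.toMul j, by
      have := congrArg Additive.toMul hj
      exact this.symm⟩
  · rintro ⟨hv, j, hj⟩
    exact ⟨hv, Additive.ofMul j, congrArg Additive.ofMul hj.symm⟩

end maps

section norm

variable (S : Finset Nat.Primes) (K L : Type) [Field K] [NumberField K] [Field L] [NumberField L]
  [Algebra K L]

noncomputable instance fintypeRelAut : Fintype ↥(relAut K L) := Fintype.ofFinite _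

/-- `N_{L/K}` on `C_S(L)` as an additive map. -/
noncomputable def xNorm : CS S L →+ CS S L :=
  ∑ σ : ↥(relAut K L), (csEnd S (σ : L ≃ₐ[ℚ] L)).toAddMonoidHom

lemma xNorm_apply (c : CS S L) :
    xNorm S K L c = ∑ σ : ↥(relAut K L), csEnd S (σ : L ≃ₐ[ℚ] L) c := by
  simp [xNorm]

lemma galNorm_eq_xNorm (c : CS S L) : galNorm S K L c = xNorm S K L c := by
  rw [xNorm_apply, galNorm, finsum_eq_sum_of_fintype]

/-- the invariants of `Gal(L/K)` in `C_S(L)` -/
def xInv : AddSubgroup (CS S L) where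
  carrier := {c | ∀ σ ∈ relAut K L, csEnd S σ c = c}
  add_mem' := fun {a b} ha hb σ hσ => by rw [map_add, ha σ hσ, hb σ hσ]
  zero_mem' := fun σ _ => map_zero _
  neg_mem' := fun {a} ha σ hσ => by rw [map_neg, ha σ hσ]

/-- the norm subgroup of `C_S(K)` -/
noncomputable def xN : AddSubgroup (CS S K) :=
  (xNorm S K L).range.comap (csMap S K L).toAddMonoidHom

lemma mem_xN_iff (c : CS S K) : c ∈ xN S K L ↔ c ∈ NormSub S K L := by
  constructor
  · rintro ⟨d, hd⟩
    exact ⟨d, by rw [galNorm_eq_xNorm]; exact hd.symm⟩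
  · rintro ⟨d, hd⟩
    exact ⟨d, by rw [← galNorm_eq_xNorm]; exact hd.symm⟩

lemma csMap_mem_xInv (c : CS S K) : csMap S K L c ∈ xInv S K L :=
  fun _ hσ => csEnd_csMap_of_fixes S hσ c

lemma range_csMap_eq_xInv [IsGalois K L] (hDesc : StmtCSDescent) (hS : S.Nonempty)
    (hun : UnramOffRel S K L) :
    (csMap S K L).toAddMonoidHom.range = xInv S K L := by
  apply le_antisymm
  · rintro _ ⟨c, rfl⟩
    exact csMap_mem_xInv S K L c
  · intro c hc
    obtain ⟨c₀, hc₀⟩ := hDesc S K L hS hun c hc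
    exact ⟨c₀, hc₀⟩

lemma xN_index [IsGalois K L] (hDesc : StmtCSDescent) (hS : S.Nonempty)
    (hun : UnramOffRel S K L) :
    (xN S K L).index = (xNorm S K L).range.relIndex (xInv S K L) := by
  rw [xN, AddSubgroup.index_comap, range_csMap_eq_xInv S K L hDesc hS hun]

end norm

section tate

variable (p : ℕ) [Fact p.Prime] (S : Finset Nat.Primes) (K L : Type) [Field K] [NumberField K]
  [Field L] [NumberField L] [Algebra K L]

/-- `Gal(L/K) ≃ relAut K L`. -/
noncomputable def relAutEquiv : (L ≃ₐ[K] L) ≃* ↥(relAut K L) where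
  toFun τ := ⟨galToAut τ, galToAut_fixes τ⟩
  invFun σ := autToGal σ.1 σ.2
  left_inv τ := by ext x; rfl
  right_inv σ := Subtype.ext (galToAut_autToGal σ.1 σ.2)
  map_mul' τ τ' := rfl

lemma relAut_pow (hexp : ∀ τ : L ≃ₐ[K] L, τ ^ p = 1) (σ : ↥(relAut K L)) : σ ^ p = 1 := by
  obtain ⟨τ, rfl⟩ := (relAutEquiv K L).surjective σ
  rw [← map_pow, hexp, map_one]

lemma relAut_comm (hcomm : ∀ σ τ : L ≃ₐ[K] L, σ * τ = τ * σ) (σ τ : ↥(relAut K L)) :
    σ * τ = τ * σ := by
  obtain ⟨σ, rfl⟩ := (relAutEquiv K L).surjective σ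
  obtain ⟨τ, rfl⟩ := (relAutEquiv K L).surjective τ
  rw [← map_mul, hcomm, map_mul]

lemma card_relAut [IsGalois K L] : Nat.card ↥(relAut K L) = Module.finrank K L := by
  rw [← Nat.card_congr (relAutEquiv K L).toEquiv, IsGalois.card_aut_eq_finrank]

lemma isFundClass_res (hexp : ∀ τ : L ≃ₐ[K] L, τ ^ p = 1) (u : H2 (csRep S L))
    (hu : IsPFundClass p (csRep S L) u) :
    IsFundClass (Rep.res (relAut K L).subtype (csRep S L))
      ((resSub (csRep S L) (relAut K L) 2).hom u) := by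
  have hpH : IsPGroup p ↥(relAut K L) := fun σ => ⟨1, by simpa using relAut_pow p K L hexp σ⟩
  exact ⟨hu.h1 _ hpH, hu.h2_card _ hpH, hu.h2_gen _ hpH⟩

/-- (T1) for `L / K`: `p • C_S(L)^{Gal} ⊂ N C_S(L)`. -/
lemma nsmul_mem_range_xNorm (hexp : ∀ τ : L ≃ₐ[K] L, τ ^ p = 1) (u : H2 (csRep S L))
    (hu : IsPFundClass p (csRep S L) u) (x : CS S L) (hx : x ∈ xInv S K L) :
    p • x ∈ (xNorm S K L).range := by
  obtain ⟨a, ha⟩ := tateExp stmtTNp p ↥(relAut K L) (relAut_pow p K L hexp) _ _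
    (isFundClass_res p S K L hexp u hu) x (fun g => hx g.1 g.2)
  have ha' : p • x = ∑ σ : ↥(relAut K L), csEnd S (σ : L ≃ₐ[ℚ] L) (a : CS S L) := ha
  exact ⟨a, (xNorm_apply S K L a).trans ha'.symm⟩

/-- (T2) for `L / K`: `[L : K] ≤ [C_S(L)^{Gal} : N C_S(L)]`. -/
lemma finrank_le_relIndex [IsGalois K L] (hexp : ∀ τ : L ≃ₐ[K] L, τ ^ p = 1)
    (hcomm : ∀ σ τ : L ≃ₐ[K] L, σ * τ = τ * σ) (u : H2 (csRep S L))
    (hu : IsPFundClass p (csRep S L) u)
    (hfin : (xNorm S K L).range.relIndex (xInv S K L) ≠ 0) :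
    Module.finrank K L ≤ (xNorm S K L).range.relIndex (xInv S K L) := by
  rw [← card_relAut K L]
  refine tateIdx stmtTNp stmtNormZero p ↥(relAut K L) (relAut_comm K L hcomm)
    (relAut_pow p K L hexp) _ _ (isFundClass_res p S K L hexp u hu)
    (xInv S K L) (xNorm S K L).range (fun c => ?_) (fun c => ?_) hfin
  · constructor
    · intro h g
      exact h g.1 g.2
    · intro h σ hσ
      exact h ⟨σ, hσ⟩
  · constructor
    · rintro ⟨a, ha⟩
      have ha' : ∑ σ : ↥(relAut K L), csEnd S (σ : L ≃ₐ[ℚ] L) (a : CS S L) = c :=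
        (xNorm_apply S K L a).symm.trans ha
      exact ⟨a, ha'.symm⟩
    · rintro ⟨a, ha⟩
      have ha' : c = ∑ σ : ↥(relAut K L), csEnd S (σ : L ≃ₐ[ℚ] L) (a : CS S L) := ha
      exact ⟨a, (xNorm_apply S K L a).trans ha'.symm⟩

end tate

section selfin

variable (p : ℕ) [Fact p.Prime] (S : Finset Nat.Primes) (K : Type) [Field K] [NumberField K]

lemma xDv_ker_eq : (xDv S K).ker = (LinearMap.ker (divHom S K)).toAddSubgroup := by
  ext a
  exact Iff.rfl

/-- `Cl_S(K)[p]` is finite. -/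
lemma relIndex_comap_range_ne_zero :
    (xDv S K).range.relIndex
      ((xDv S K).range.comap (nsmulAddMonoidHom p : DivS S K →+ DivS S K)) ≠ 0 := by
  intro h0
  have h := AddSubgroup.relIndex_dvd_index_of_normal (H := (xDv S K).range)
    (K := (xDv S K).range.comap (nsmulAddMonoidHom p : DivS S K →+ DivS S K))
  rw [h0] at h
  exact xDv_range_index_ne_zero S K (Nat.eq_zero_of_zero_dvd h)

/-- `E / E ∩ Kˣᵖ` is finite (`E` the `S`-units), from X-E. -/
lemma relIndex_ker_ne_zero (hp2 : p ≠ 2) (ζ : K) (hζ : IsPrimitiveRoot ζ p) :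
    (nMul p (Additive Kˣ)).relIndex (xDv S K).ker ≠ 0 := by
  rw [xDv_ker_eq]
  exact (stmtECount p hp2 S K ζ hζ).1

lemma kummerV_relIndex_ne_zero (hp2 : p ≠ 2) (ζ : K) (hζ : IsPrimitiveRoot ζ p) :
    (nMul p (Additive Kˣ)).relIndex (kummerV p (xDv S K)) ≠ 0 := by
  rw [relIndex_kummerV p (xDv S K) (xD_torsionFree S K p (Fact.out : p.Prime).ne_zero)]
  exact mul_ne_zero (relIndex_ker_ne_zero p S K hp2 ζ hζ) (relIndex_comap_range_ne_zero p S K)

/-- The Selmer group `V = selV p S K` is finite modulo `p`-th powers (`p` odd, `μ_p ⊂ K`). -/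
theorem selV_relIndex_ne_zero (hp2 : p ≠ 2) (ζ : K) (hζ : IsPrimitiveRoot ζ p) :
    (powMonoidHom p : Kˣ →* Kˣ).range.relIndex (selV p S K) ≠ 0 := by
  have h := kummerV_relIndex_ne_zero p S K hp2 ζ hζ
  rwa [kummerV_eq S K p (Fact.out : p.Prime).ne_zero, nMul_units_eq,
    Subgroup.relIndex_toAddSubgroup] at h

/-- Every subgroup of the Selmer group is finite modulo `p`-th powers. -/
theorem relIndex_ne_zero_of_le_selV (hp2 : p ≠ 2) (ζ : K) (hζ : IsPrimitiveRoot ζ p)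
    (W : Subgroup Kˣ) (hW : W ≤ selV p S K) :
    (powMonoidHom p : Kˣ →* Kˣ).range.relIndex W ≠ 0 := by
  intro h0
  exact selV_relIndex_ne_zero p S K hp2 ζ hζ (Subgroup.relIndex_eq_zero_of_le_right hW h0)

theorem selVloc_relIndex_ne_zero (hp2 : p ≠ 2) (ζ : K) (hζ : IsPrimitiveRoot ζ p) :
    (powMonoidHom p : Kˣ →* Kˣ).range.relIndex (selVloc p S K) ≠ 0 :=
  relIndex_ne_zero_of_le_selV p S K hp2 ζ hζ _ (selVloc_le p S K)

end selfin

end ExistTL

end Fermat.Agent.PT.X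


end ZBPT_031_15

/-! ### bundled: `Fermat.Agent.PT.X.ExistTL` -/
section ZBPT_031_16
/-
PT-X, piece X-ASM (helper69), part 2: the existence theorem mod `p`, type level (`StmtExistTL`),
from the pieces X-J, X-E, X-SPL, X-UNR, C-descent, and the landed results `existence_count`
(Count.lean), `tateExp`/`tateIdx` (Tate.lean), Kummer theory (Kummer.lean), CS-exact
(PT/G/Exact.lean), Tate–Nakayama (PT/A/Final.lean).
-/

set_option autoImplicit false
set_option linter.style.haveILetI false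
set_option linter.unusedSectionVars false

namespace Fermat.Agent.PT.X

open NumberField IsDedekindDomain Fermat.Agent.PT.G Fermat.Agent.PT.G1 Fermat.Agent.PT
open CategoryTheory groupCohomology Fermat.Agent.PT.G3 AddSubgroup

namespace ExistTL

section abstract

variable {Kx J D C : Type*} [AddCommGroup Kx] [AddCommGroup J] [AddCommGroup D] [AddCommGroup C]
variable {p : ℕ} {dv : Kx →+ D} {lc : Kx →+ J} {π : J × D →+ C}

/-- `C / pC` is finite. -/
theorem index_nMul_ne_zero_of_data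
    (hD : ∀ d : D, p • d = 0 → d = 0)
    (hπ : Function.Surjective π) (hker : π.ker = (lc.prod dv).range)
    (hCl : dv.range.index ≠ 0) (hJ : (nMul p J).index ≠ 0)
    (hE : (nMul p Kx).relIndex dv.ker ≠ 0) :
    (nMul p C).index ≠ 0 := by
  have huw : (nMul p Kx).relIndex (kummerVloc p dv lc) *
      (kummerVloc p dv lc).relIndex (kummerV p dv) = (nMul p Kx).relIndex (kummerV p dv) :=
    relIndex_mul_relIndex _ _ _ (nMul_le_kummerVloc p dv lc) (kummerVloc_le p dv lc)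
  have hI1 := index_bigA_mul p dv lc
  have hc' : (nMul p D ⊔ dv.range).index =
      dv.range.relIndex (dv.range.comap (nsmulAddMonoidHom p : D →+ D)) :=
    index_nMul_sup_eq dv.range hCl
  have hI2 := relIndex_kummerV p dv hD
  rw [← hc'] at hI2
  have hc0 : (nMul p D ⊔ dv.range).index ≠ 0 := by
    intro h0
    have := index_dvd_of_le (le_sup_right : dv.range ≤ nMul p D ⊔ dv.range)
    rw [h0, zero_dvd_iff] at this
    exact hCl this
  have hv0 : (nMul p Kx).relIndex (kummerV p dv) ≠ 0 := by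
    rw [hI2]; exact mul_ne_zero hE hc0
  have hw0 : (kummerVloc p dv lc).relIndex (kummerV p dv) ≠ 0 := by
    intro h0; rw [h0, mul_zero] at huw; exact hv0 huw.symm
  have ha0 : (bigA p dv lc).index ≠ 0 := by
    intro h0
    rw [h0, zero_mul] at hI1
    exact (mul_ne_zero hc0 hJ) hI1.symm
  have hcomap : (nMul p C).comap π = bigA p dv lc := by
    rw [← map_nMul_of_surjective π hπ, comap_map_eq, hker, bigA, sup_comm]
  rw [← index_comap_of_surjective _ hπ, hcomap]
  exact ha0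

end abstract

section main

variable (p : ℕ) [Fact p.Prime] (S : Finset Nat.Primes) (K L : Type) [Field K] [NumberField K]
  [Field L] [NumberField L] [Algebra K L]

/-- `p • C_S(K) ⊂ N_{L/K}`-subgroup, from (T1). -/
lemma nMul_le_xN (hexp : ∀ τ : L ≃ₐ[K] L, τ ^ p = 1) (u : H2 (csRep S L))
    (hu : IsPFundClass p (csRep S L) u) : nMul p (CS S K) ≤ xN S K L := by
  intro c hc
  obtain ⟨c₁, rfl⟩ := mem_nMul.1 hc
  show (csMap S K L).toAddMonoidHom (p • c₁) ∈ (xNorm S K L).range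
  rw [map_nsmul]
  exact nsmul_mem_range_xNorm p S K L hexp u hu _ (csMap_mem_xInv S K L c₁)

lemma csEnd_csOfJ (σ : L ≃ₐ[ℚ] L) (j : JL S L) :
    csEnd S σ (csOfJ S L (Additive.ofMul j)) = csOfJ S L (Additive.ofMul (jlHom S σ j)) := by
  rw [csOfJ_apply, csEnd_mk, csOfJ_apply]
  congr 1

/-- idèles of `K` which are norms from `J_L` give norms in `C_S`. -/
lemma xPi_inl_mem_xN [Fintype (L ≃ₐ[K] L)] (j : Additive (JL S K))
    (h : ∃ j' : JL S L, jlMap S K L (Additive.toMul j) =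
      ∏ σ : L ≃ₐ[K] L, jlHom S (galToAut σ) j') :
    xPi S K (j, 0) ∈ xN S K L := by
  obtain ⟨j', hj'⟩ := h
  refine ⟨csOfJ S L (Additive.ofMul j'), ?_⟩
  show xNorm S K L (csOfJ S L (Additive.ofMul j')) = csMap S K L (csOfJ S K j)
  rw [csMap_csOfJ, xNorm_apply]
  simp only [csEnd_csOfJ]
  rw [← map_sum]
  congr 1
  show _ = Additive.ofMul (jlMap S K L (Additive.toMul j))
  rw [hj', ofMul_prod]
  exact (Fintype.sum_equiv (relAutEquiv K L).toEquiv _ _ (fun τ => rfl)).symm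

end main

/-- **X-ASM**: the existence theorem mod `p`, type level, from the pieces. -/
theorem stmtExistTL_of (hJ : StmtJCount) (hSpl : StmtSplitIdele) (hUnr : StmtKummerUnram)
    (hDesc : StmtCSDescent) : StmtExistTL := by
  intro p _ hp2 S hpS K L L' _ _ _ _ _ _ _ _ _ _ ζ hζ hL hL' hu hu' c hc
  obtain ⟨u, hu⟩ := hu
  obtain ⟨u', hu'⟩ := hu'
  have hp : p.Prime := Fact.out
  have hp0 : p ≠ 0 := hp.ne_zero
  have hS : S.Nonempty := by
    obtain ⟨q, hq, -⟩ := hpS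
    exact ⟨q, hq⟩
  -- the data of the abstract count
  have hD := xD_torsionFree S K p hp0
  have hπ := xPi_surjective S K
  have hker := xPi_ker S K
  have hCl := xDv_range_index_ne_zero S K
  obtain ⟨hJ0, hJle⟩ := hJ p S hpS K ζ hζ
  obtain ⟨-, hEle⟩ := stmtECount p hp2 S K ζ hζ
  have hE0 : (nMul p (Additive Kˣ)).relIndex (xDv S K).ker ≠ 0 :=
    relIndex_ker_ne_zero p S K hp2 ζ hζ
  have hcount : (nMul p (Additive (JL S K))).index ≤
      ((nMul p (Additive Kˣ)).relIndex (xDv S K).ker) ^ 2 := by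
    rw [xDv_ker_eq]
    exact hJle.trans hEle
  -- Kummer theory
  have hexp := hL.gal_pow_eq_one hp0 hζ
  have hcomm := hL.gal_mul_comm hp0 hζ
  have hexp' := hL'.gal_pow_eq_one hp0 hζ
  have hcomm' := hL'.gal_mul_comm hp0 hζ
  have hun := hUnr p S hpS K L ζ hζ (selV p S K) le_rfl hL
  have hun' := hUnr p S hpS K L' ζ hζ (selVloc p S K) (selVloc_le p S K) hL'
  -- the norm subgroups
  have hN : nMul p (CS S K) ≤ xN S K L := nMul_le_xN p S K L hexp u hu
  have hN' : nMul p (CS S K) ≤ xN S K L' := nMul_le_xN p S K L' hexp' u' hu'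
  have hJN' : ∀ j : Additive (JL S K), xPi S K (j, 0) ∈ xN S K L' := fun j =>
    xPi_inl_mem_xN S K L' j (hSpl p S K L' ζ hζ (selVloc p S K) le_rfl hL' (Additive.toMul j))
  have hC0 : (nMul p (CS S K)).index ≠ 0 :=
    index_nMul_ne_zero_of_data hD hπ hker hCl hJ0 hE0
  have hN0 : (xN S K L).index ≠ 0 := by
    intro h
    have := index_dvd_of_le hN
    rw [h, zero_dvd_iff] at this
    exact hC0 this
  have hN'0 : (xN S K L').index ≠ 0 := by
    intro h
    have := index_dvd_of_le hN'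
    rw [h, zero_dvd_iff] at this
    exact hC0 this
  have hNi : (nMul p (Additive Kˣ)).relIndex (kummerV p (xDv S K)) ≤ (xN S K L).index := by
    rw [xN_index S K L hDesc hS hun] at hN0 ⊢
    rw [kummerV_eq S K p hp0, nMul_units_eq, Subgroup.relIndex_toAddSubgroup,
      ← hL.finrank_eq hp hζ (selV_relIndex_ne_zero p S K hp2 ζ hζ)]
    exact finrank_le_relIndex p S K L hexp hcomm u hu hN0
  have hN'i : (nMul p (Additive Kˣ)).relIndex (kummerVloc p (xDv S K) (xLc S K)) ≤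
      (xN S K L').index := by
    rw [xN_index S K L' hDesc hS hun'] at hN'0 ⊢
    rw [kummerVloc_eq S K p hp0, nMul_units_eq, Subgroup.relIndex_toAddSubgroup,
      ← hL'.finrank_eq hp hζ (selVloc_relIndex_ne_zero p S K hp2 ζ hζ)]
    exact finrank_le_relIndex p S K L' hexp' hcomm' u' hu' hN'0
  have hfin := existence_count hD hπ hker hCl hJ0 hE0 hcount (xN S K L) (xN S K L') hN hN' hJN'
    hNi hN'i
  have hc' : c ∈ xN S K L := (mem_xN_iff S K L c).2 hc
  rw [hfin] at hc'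
  obtain ⟨c₁, hc₁⟩ := mem_nMul.1 hc'
  exact ⟨c₁, hc₁.symm⟩

end ExistTL

end Fermat.Agent.PT.X


end ZBPT_031_16
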