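/- GENERATED FILE (helper35, build-time optimisation, NOTES/ZB.md): verbatim concatenation of the modules
   Fermat.Agent.PT.F.Ind
   Fermat.Agent.PT.F.HasIndStd
   Fermat.Agent.PT.F.HasInd
   Fermat.Agent.TW.F.LocRight
   Fermat.Agent.TW.F.LocLeft
   Do not edit; do not import together with these modules. -/
import Fermat.Agent.ZB.PT_002
import Fermat.Agent.ZB.PT_031
import Fermat.Agent.ZB.TW_006

/-! ### bundled: `Fermat.Agent.PT.F.Ind` -/
section ZBPT_034_0

/-!
# PT-F / F-Ind: `H¹(G, res_φ ℤ[Ω]) = 0` for finite `G` and finite `Ω`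

Proof: for a cocycle `c` put `B ω = ∑_g c(g)(ω)`; then `|G| · c(h)(ω) = B(ω) - B(h⁻¹ ω)`.
So `-B` is constant mod `|G|` on `G`-orbits; subtracting its value at an orbit representative and
dividing by `|G|` gives `b ∈ ℤ[Ω]` with `c = d b`.  (Freeness of the action is not needed.)
-/

set_option autoImplicit false

open CategoryTheory groupCohomology

namespace Fermat.Agent.PT.F

section Coeff

variable {Γ : Type} [Group Γ] {Ω : Type} [MulAction Γ Ω]

/-- coefficients of a translate in the permutation module `ℤ[Ω]`. -/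
theorem ind_coeff_ofMulAction (γ : Γ) (x : MonoidAlgebra ℤ Ω) (ω : Ω) :
    (Representation.ofMulAction ℤ Γ Ω γ x).coeff ω = x.coeff (γ⁻¹ • ω) := by
  rw [Representation.ofMulAction_def]
  have h : ω = γ • (γ⁻¹ • ω) := by simp
  conv_lhs => rw [h]
  exact Finsupp.mapDomain_apply (MulAction.injective γ) _ _

end Coeff

section Main

variable {G Γ : Type} [Group G] [Group Γ] (φ : G →* Γ) {Ω : Type} [MulAction Γ Ω]

/-- The orbit relation of `G` acting on `Ω` through `φ`. -/
def indSetoid : Setoid Ω where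
  r ω ω' := ∃ g : G, φ g • ω = ω'
  iseqv :=
    { refl := fun ω => ⟨1, by simp⟩
      symm := by
        rintro ω ω' ⟨g, rfl⟩
        exact ⟨g⁻¹, by simp⟩
      trans := by
        rintro ω ω' ω'' ⟨g, rfl⟩ ⟨h, rfl⟩
        exact ⟨h * g, by simp [mul_smul]⟩ }

/-- A chosen representative of the `G`-orbit of `ω`. -/
noncomputable def indRep (ω : Ω) : Ω :=
  (Quotient.mk (indSetoid φ) ω).out

theorem indRep_smul (g : G) (ω : Ω) : indRep φ (φ g • ω) = indRep φ ω := by
  unfold indRep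
  congr 1
  exact Quotient.sound (s := indSetoid φ) ⟨g⁻¹, by simp⟩

theorem exists_smul_indRep (ω : Ω) : ∃ g : G, φ g • indRep φ ω = ω := by
  have h : (indSetoid φ).r (indRep φ ω) ω :=
    Quotient.exact (s := indSetoid φ) (Quotient.out_eq (Quotient.mk (indSetoid φ) ω))
  exact h

end Main

/-- **F-Ind**. -/
theorem stmtInd : StmtInd := by
  intro G Γ _ _ _ _ φ Ω _ _ _
  classical
  have : Fintype G := Fintype.ofFinite G
  set A : Rep.{0} ℤ G := Rep.res φ (Rep.ofMulAction ℤ Γ Ω) with hA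
  refine ⟨fun x y => ?_⟩
  suffices h : ∀ z : H1 A, z = 0 by rw [h x, h y]
  intro z
  induction z using H1_induction_on with
  | h c =>
    rw [H1π_eq_zero_iff]
    -- the action in coordinates
    have hρ : ∀ (g : G) (v : MonoidAlgebra ℤ Ω) (ω : Ω),
        (show MonoidAlgebra ℤ Ω from A.ρ g v).coeff ω = v.coeff ((φ g)⁻¹ • ω) := by
      intro g v ω
      exact ind_coeff_ofMulAction (φ g) v ω
    -- the cocycle in coordinates
    set ct : G → Ω → ℤ := fun g ω => (show MonoidAlgebra ℤ Ω from c g).coeff ω with hct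
    have hcoc : ∀ (g h : G) (ω : Ω), ct (g * h) ω = ct h ((φ g)⁻¹ • ω) + ct g ω := by
      intro g h ω
      have h1 := (mem_cocycles₁_iff (A := A) (⇑c)).1 c.2 g h
      have h2 : (show MonoidAlgebra ℤ Ω from c (g * h)).coeff ω
          = (show MonoidAlgebra ℤ Ω from A.ρ g (c h) + c g).coeff ω :=
        congrArg (fun v : MonoidAlgebra ℤ Ω => v.coeff ω) h1
      rw [hct]
      change (show MonoidAlgebra ℤ Ω from c (g * h)).coeff ω = _
      rw [h2]
      change ((show MonoidAlgebra ℤ Ω from A.ρ g (c h)) + (show MonoidAlgebra ℤ Ω from c g)).coeff ω = _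
      rw [MonoidAlgebra.coeff_add, Finsupp.add_apply, hρ]
    -- averaging
    set B : Ω → ℤ := fun ω => ∑ g : G, ct g ω with hB
    have havg : ∀ (h : G) (ω : Ω),
        (Fintype.card G : ℤ) * ct h ω = B ω - B ((φ h)⁻¹ • ω) := by
      intro h ω
      have e1 : B ω = ∑ g : G, ct (h * g) ω :=
        (Fintype.sum_equiv (Equiv.mulLeft h) (fun g => ct (h * g) ω) (fun g => ct g ω)
          (fun g => rfl)).symm
      have e2 : ∑ g : G, ct (h * g) ω = B ((φ h)⁻¹ • ω) + (Fintype.card G : ℤ) * ct h ω := by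
        simp only [hcoc, Finset.sum_add_distrib, Finset.sum_const, Finset.card_univ, hB,
          nsmul_eq_mul]
      rw [e1, e2]
      ring
    -- normalisation on orbits
    set r : Ω → ℤ := fun ω => B (indRep φ ω) - B ω with hr
    have hr_step : ∀ (h : G) (ω : Ω),
        r ((φ h)⁻¹ • ω) - r ω = (Fintype.card G : ℤ) * ct h ω := by
      intro h ω
      have e : indRep φ ((φ h)⁻¹ • ω) = indRep φ ω := by
        have := indRep_smul φ h⁻¹ ω
        rwa [map_inv] at this
      simp only [hr, e, havg]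
      ring
    have hr_dvd : ∀ ω : Ω, (Fintype.card G : ℤ) ∣ r ω := by
      intro ω
      obtain ⟨g, hg⟩ := exists_smul_indRep φ ω
      have e : (φ g)⁻¹ • ω = indRep φ ω := by rw [inv_smul_eq_iff]; exact hg.symm
      refine ⟨-ct g ω, ?_⟩
      have := havg g ω
      rw [e] at this
      simp only [hr]
      linarith
    have hcard : (Fintype.card G : ℤ) ≠ 0 := by
      exact_mod_cast Fintype.card_ne_zero
    set b : Ω → ℤ := fun ω => r ω / (Fintype.card G : ℤ) with hb
    have hb_mul : ∀ ω, (Fintype.card G : ℤ) * b ω = r ω := fun ω =>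
      Int.mul_ediv_cancel' (hr_dvd ω)
    -- the coboundary
    refine ⟨(MonoidAlgebra.ofCoeff (Finsupp.equivFunOnFinite.symm b) : MonoidAlgebra ℤ Ω), ?_⟩
    funext g
    rw [d₀₁_hom_apply]
    apply MonoidAlgebra.coeff_injective
    ext ω
    change ((show MonoidAlgebra ℤ Ω from A.ρ g (MonoidAlgebra.ofCoeff
        (Finsupp.equivFunOnFinite.symm b))) - MonoidAlgebra.ofCoeff
        (Finsupp.equivFunOnFinite.symm b)).coeff ω = ct g ω
    rw [MonoidAlgebra.coeff_sub, Finsupp.sub_apply, hρ, MonoidAlgebra.coeff_ofCoeff,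
      Finsupp.coe_equivFunOnFinite_symm]
    apply mul_left_cancel₀ hcard
    rw [mul_sub, hb_mul, hb_mul, hr_step]

end Fermat.Agent.PT.F


end ZBPT_034_0

/-! ### bundled: `Fermat.Agent.PT.F.HasIndStd` -/
section ZBPT_034_1

/-!
# PT-F / F-HasInd: the standard presentation has property (Ind)

`M₀ = res_π ℤ[Ω]` with `Ω` a nonempty finite free `Γ`-set.  For `φ : H → G` and `V ◁ H` of finite
index acting trivially on `M₀`, freeness gives `π φ (V) = 1`, so `π ∘ φ` factors through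
`ψ : H ⧸ V → Γ`; the `V`-invariants of `res_φ M₀` are everything, and a `1`-cocycle of `H ⧸ V` in
the invariants is a `1`-cocycle of `res_ψ ℤ[Ω]`, hence a coboundary by `stmtInd`.
-/

set_option autoImplicit false

noncomputable section

namespace Fermat.Agent.PT.F

open CategoryTheory groupCohomology Fermat.Agent.PT

/-- **(Ind)** for restrictions of permutation modules on nonempty finite free sets. -/
theorem hasInd_res_ofMulAction {G Γ : Type} [Group G] [Group Γ] [Finite Γ] (π : G →* Γ)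
    (Ω : Type) [MulAction Γ Ω] [Finite Ω] [Nonempty Ω]
    (hfree : ∀ (γ : Γ) (ω : Ω), γ • ω = ω → γ = 1) :
    HasInd (Rep.res π (Rep.ofMulAction ℤ Γ Ω)) := by
  intro H _ φ V _ hfin hV
  classical
  -- `π ∘ φ` kills `V`
  have hker : ∀ s ∈ V, π (φ s) = 1 := by
    intro s hs
    obtain ⟨ω₀⟩ := (inferInstance : Nonempty Ω)
    have h1 := hV s hs (MonoidAlgebra.single ω₀ (1 : ℤ))
    have h2 : (Rep.res π (Rep.ofMulAction ℤ Γ Ω)).ρ (φ s) (MonoidAlgebra.single ω₀ (1 : ℤ))
        = MonoidAlgebra.single (π (φ s) • ω₀) (1 : ℤ) :=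
      Representation.ofMulAction_single (π (φ s)) ω₀ 1
    rw [h2] at h1
    have h3 := congrArg (fun x : MonoidAlgebra ℤ Ω => x.coeff ω₀) h1
    simp only [MonoidAlgebra.coeff_single] at h3
    by_contra hne
    have hne' : π (φ s) • ω₀ ≠ ω₀ := fun h => hne (hfree _ _ h)
    rw [Finsupp.single_eq_of_ne (Ne.symm hne'), Finsupp.single_eq_same] at h3
    exact zero_ne_one h3
  -- the induced homomorphism of finite groups
  let ψ : H ⧸ V →* Γ := QuotientGroup.lift V (π.comp φ) (fun s hs => hker s hs)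
  have hψ : ∀ h : H, ψ (h : H ⧸ V) = π (φ h) := fun h => rfl
  have : Finite (H ⧸ V) := Subgroup.finite_quotient_of_finiteIndex
  have hY : Subsingleton (H1 (Rep.res ψ (Rep.ofMulAction ℤ Γ Ω))) :=
    stmtInd (H ⧸ V) Γ ψ Ω hfree
  refine ⟨fun x y => ?_⟩
  suffices h : ∀ z : H1 ((Rep.res φ (Rep.res π (Rep.ofMulAction ℤ Γ Ω))).quotientToInvariants V),
      z = 0 by rw [h x, h y]
  intro z
  induction z using H1_induction_on with
  | h c =>
    rw [H1π_eq_zero_iff]
    -- the cocycle with values in `ℤ[Ω]`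
    let c' : H ⧸ V → (Rep.res ψ (Rep.ofMulAction ℤ Γ Ω)).V := fun q => (c q).1
    have hc' : c' ∈ cocycles₁ (Rep.res ψ (Rep.ofMulAction ℤ Γ Ω)) := by
      rw [mem_cocycles₁_iff]
      intro q q'
      obtain ⟨g, rfl⟩ := QuotientGroup.mk_surjective q
      have h1 := (mem_cocycles₁_iff (⇑c)).1 c.2 (g : H ⧸ V) q'
      exact congrArg Subtype.val h1
    have h0 : (H1π (Rep.res ψ (Rep.ofMulAction ℤ Γ Ω))).hom ⟨c', hc'⟩ = 0 :=
      Subsingleton.elim _ _
    rw [H1π_eq_zero_iff] at h0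
    obtain ⟨b, hb⟩ := h0
    have hbinv : ∀ s : V, (Rep.res φ (Rep.res π (Rep.ofMulAction ℤ Γ Ω))).ρ (s : H) b = b :=
      fun s => hV s.1 s.2 b
    refine ⟨⟨b, hbinv⟩, ?_⟩
    funext q
    obtain ⟨g, rfl⟩ := QuotientGroup.mk_surjective q
    apply Subtype.ext
    have := congrFun hb (g : H ⧸ V)
    rw [d₀₁_hom_apply] at this ⊢
    exact this

/-- **F-HasInd**: the module `M₀` of the standard presentation has property (Ind). -/
theorem stmtHasInd_std {G : Type} [Group G] (𝒯 : Tower G) (U₀ : Subgroup G) [hn : U₀.Normal]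
    (hU₀ : U₀ ∈ 𝒯.lev) {k : Type} [CommRing k] (A' : Rep.{0} k G) [Finite A'.V]
    (htriv : ∀ s ∈ U₀, ∀ a : A'.V, A'.ρ s a = a) :
    HasInd (stdPres 𝒯 U₀ hU₀ A' htriv).M₀ := by
  have : Finite (G ⧸ U₀) := std_finite_quot 𝒯 U₀ hU₀
  have : Nonempty (stdOmega U₀ A') := ⟨stdPt U₀ A' 1 0⟩
  exact hasInd_res_ofMulAction (QuotientGroup.mk' U₀) (stdOmega U₀ A')
    (fun γ ω h => stdOmega_free U₀ A' γ ω h)

end Fermat.Agent.PT.F

end


end ZBPT_034_1

/-! ### bundled: `Fermat.Agent.PT.F.HasInd` -/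
section ZBPT_034_2

/-!
# PT-F / F-HasInd, under the name of the piece table

`hasInd_stdPres` is `stmtHasInd_std` (HasIndStd.lean).
-/

set_option autoImplicit false

noncomputable section

namespace Fermat.Agent.PT.F

open Fermat.Agent.PT

/-- **F-HasInd**: the module `M₀` of the standard presentation has property (Ind). -/
theorem hasInd_stdPres {G : Type} [Group G] (𝒯 : Tower G) (U₀ : Subgroup G) [hn : U₀.Normal]
    (hU₀ : U₀ ∈ 𝒯.lev) {k : Type} [CommRing k] (A' : Rep.{0} k G) [Finite A'.V]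
    (htriv : ∀ s ∈ U₀, ∀ a : A'.V, A'.ρ s a = a) :
    HasInd (stdPres 𝒯 U₀ hU₀ A' htriv).M₀ :=
  stmtHasInd_std 𝒯 U₀ hU₀ A' htriv

end Fermat.Agent.PT.F

end


end ZBPT_034_2

/-! ### bundled: `Fermat.Agent.TW.F.LocRight` -/
section ZBPT_034_3
/-
TW-F, piece F-locRight (helper30): local Tate duality, right kernel.
`StmtRightKer` for `(G_v, 𝒯loc v, J_v)` with the standard presentation of `B|_{G_v}`, and the
comparison `StmtConnCmp` of the PT-F pairing with the cup product.
-/

set_option autoImplicit false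

noncomputable section

namespace Fermat.Agent.TW.F

open CategoryTheory groupCohomology Module Fermat.Agent.PT Fermat.Agent.PT.F

/-- the local data `(χ_v, J_v, ζ_v)` are of Kummer type -/
theorem flr_isKummer {p : ℕ} [Fact p.Prime] {G : Type} [Group G] {ι : Type} {Gloc : ι → Type}
    [∀ v, Group (Gloc v)] (D : PTDatum p G ι Gloc) (v : ι) :
    IsKummer (D.χ.comp (D.r v)) (D.Jloc v) (zetaLoc D v) := by
  refine ⟨?_, fun d => ?_⟩
  · show p • (D.j v).hom D.ζ = 0
    rw [← map_nsmul, D.ζ_tors, map_zero]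
  · show (D.Jloc v).ρ d ((D.j v).hom D.ζ) = _ • (D.j v).hom D.ζ
    have h1 : (D.j v).hom (D.E.ρ (D.r v d) D.ζ) = (D.Jloc v).ρ d ((D.j v).hom D.ζ) :=
      Rep.hom_comm_apply (D.j v) d D.ζ
    rw [← h1, D.ζ_char, map_nsmul]
    rfl

theorem flr_zetaLoc_ne {p : ℕ} [Fact p.Prime] {G : Type} [Group G] {ι : Type} {Gloc : ι → Type}
    [∀ v, Group (Gloc v)] (D : PTDatum p G ι Gloc) (v : ι) : zetaLoc D v ≠ 0 := by
  intro h
  apply D.ζ_ne
  apply D.j_injective v
  rw [map_zero]
  exact h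

/-- a normal local level on which a module trivial on a global level is trivial -/
theorem flr_exists_level {p : ℕ} [Fact p.Prime] {G : Type} [Group G] {ι : Type} {Gloc : ι → Type}
    [∀ v, Group (Gloc v)] (D : PTDatum p G ι Gloc) (B : Rep.{0} (ZMod p) G)
    (hB : TrivOnLevel D.𝒯 B) (v : ι) :
    ∃ V ∈ (D.𝒯loc v).lev, V.Normal ∧ ∀ s ∈ V, ∀ b : B.V, (Rep.res (D.r v) B).ρ s b = b := by
  obtain ⟨U, hU, hUt⟩ := hB
  obtain ⟨V, hV, hVle, hVn⟩ := (D.𝒯loc v).exists_normal _ (D.comap_mem v U hU)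
  refine ⟨V, hV, hVn, fun s hs b => ?_⟩
  have h1 : B.ρ (D.r v s) = 1 := hUt _ (hVle hs)
  show B.ρ (D.r v s) b = b
  rw [h1]
  rfl

/-- **F-locRight** from `StmtRightKer` and `StmtConnCmp`. -/
theorem stmtLocRight_of (hRK : StmtRightKer) (hCC : StmtConnCmp) : StmtLocRight := by
  intro p _ G _ ι _ Gloc _ D A B _ _ P hA hB v y hy hyl hyx
  obtain ⟨V, hV, hVn, hVt⟩ := flr_exists_level D B hB v
  have := hVn
  have hfinB : Finite (Rep.res (D.r v) B).V := by
    change Finite B.V
    exact Module.finite_of_finite (ZMod p)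
  have : FiniteDimensional (ZMod p) (Rep.res (D.r v) A) :=
    (inferInstance : FiniteDimensional (ZMod p) A)
  have : FiniteDimensional (ZMod p) (Rep.res (D.r v) B) :=
    (inferInstance : FiniteDimensional (ZMod p) B)
  refine hRK p (Gloc v) (D.𝒯loc v) (D.Jloc v) (D.Jloc_discrete v) (fun U _ hU => D.cm_loc v U hU)
    (ZMod p) (Rep.res (D.r v) B) (stdPres (D.𝒯loc v) V hV (Rep.res (D.r v) B) hVt)
    (fun a => ZModModule.char_nsmul_eq_zero p a)
    (hasInd_stdPres (D.𝒯loc v) V hV (Rep.res (D.r v) B) hVt) y hy hyl (fun g => ?_)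
  obtain ⟨x, hx, hxl, hcmp⟩ := hCC p (Gloc v) (D.𝒯loc v) (D.χ.comp (D.r v))
    (Rep.res (D.r v) A) (Rep.res (D.r v) B) (P.res (D.r v)) (D.Jloc v) (zetaLoc D v)
    (flr_isKummer D v) (D.Jloc_discrete v) (D.J_div v) (D.J_tors v) (flr_zetaLoc_ne D v)
    (stdPres (D.𝒯loc v) V hV (Rep.res (D.r v) B) hVt) g
  have h1 := hcmp y hy hyl
  have h2 : cupCoc (P.res (D.r v)) (D.Jloc v) (zetaLoc D v) x y ∈
      levCoboundaries₂ (D.𝒯loc v) (D.Jloc v) := hyx x hx hxl
  have h3 := (levCoboundaries₂ (D.𝒯loc v) (D.Jloc v)).sub_mem h1 h2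
  rwa [add_sub_cancel_right] at h3

end Fermat.Agent.TW.F

end


end ZBPT_034_3

/-! ### bundled: `Fermat.Agent.TW.F.LocLeft` -/
section ZBPT_034_4
/-
TW-F, piece F-locLeft (helper30): local Tate duality, left kernel — from `StmtLocRight` for the
flipped pair and anticommutativity `StmtCupAnti`.
-/

set_option autoImplicit false

noncomputable section

namespace Fermat.Agent.TW.F

open CategoryTheory groupCohomology Module Fermat.Agent.PT Fermat.Agent.PT.F

/-- **F-locLeft** from `StmtLocRight` and `StmtCupAnti`. -/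
theorem stmtLocLeft_of (hLR : StmtLocRight) (hAnti : StmtCupAnti) : StmtLocLeft := by
  intro p _ G _ ι _ Gloc _ D A B _ _ P hA hB v x hx hxl hxy
  refine hLR p G ι Gloc D B A P.flip hB hA v x hx hxl (fun y hy hyl => ?_)
  have h1 := hAnti p (Gloc v) (D.𝒯loc v) (D.χ.comp (D.r v)) (Rep.res (D.r v) A)
    (Rep.res (D.r v) B) (P.res (D.r v)) (D.Jloc v) (zetaLoc D v) (flr_isKummer D v) x y hx hy
    hxl hyl
  have h2 : cupCoc (P.res (D.r v)) (D.Jloc v) (zetaLoc D v) x y ∈
      levCoboundaries₂ (D.𝒯loc v) (D.Jloc v) := hxy y hy hyl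
  have h3 := (levCoboundaries₂ (D.𝒯loc v) (D.Jloc v)).sub_mem h1 h2
  rw [add_sub_cancel_left] at h3
  exact h3

end Fermat.Agent.TW.F

end


end ZBPT_034_4
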