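/- GENERATED FILE (helper35, build-time optimisation, NOTES/ZB.md): verbatim concatenation of the modules
   Fermat.Agent.PT.F.PairBasic
   Fermat.Agent.TW.F.ConnCmp
   Fermat.Agent.TW.F.Cup
   Fermat.Agent.TW.F.CupAnti
   Fermat.Agent.TW.F.LocFinal
   Do not edit; do not import together with these modules. -/
import Fermat.Agent.ZB.PT_002
import Fermat.Agent.ZB.TW_006
import Fermat.Agent.ZB.PT_032
import Fermat.Agent.ZB.PT_034
import Fermat.Agent.ZB.PT_031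
import Fermat.Agent.ZB.PT_022

/-! ### bundled: `Fermat.Agent.PT.F.PairBasic` -/
section ZBPT_033_0
/-
PT-F piece F3 (helper79): `stmtPairBasic : StmtPairBasic`, the 7 clauses of the level cochain
calculus of the pairing cochain `pairLift P g c̃ = g ∘ inc⁻¹ ∘ d c̃`.

Reusable lemmas (all for a presentation `P`): `pb_incInv_add/sub/nsmul/ρ` (`inc⁻¹` is additive and
equivariant on `ker ε`), `pb_ε_d₁₂` (`d c̃` has values in `ker ε` when `ε ∘ c̃` is a cocycle),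
`pb_pairLift_inc` (`pairLift g (inc ∘ u) = d (g ∘ u)`), `pb_isLevel₂_d₁₂`, `pb_triv_A'`,
`pb_clause1 … pb_clause7`.
-/

set_option autoImplicit false

noncomputable section

namespace Fermat.Agent.PT.F

open CategoryTheory groupCohomology Fermat.Agent.PT

attribute [local instance 1100] Rep.hV2

section PB

variable {G : Type} [Group G] {𝒯 : Tower G} {k : Type} [CommRing k] {A' : Rep.{0} k G}
  (P : Presentation 𝒯 A')

lemma pb_ε_inc (m : P.M₁.V) : P.ε (P.inc.hom m) = 0 := (P.exact _).2 ⟨m, rfl⟩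

lemma pb_incInv_zero : P.incInv 0 = 0 := by
  have := P.incInv_inc 0
  rwa [map_zero] at this

lemma pb_incInv_add {x y : P.M₀.V} (hx : P.ε x = 0) (hy : P.ε y = 0) :
    P.incInv (x + y) = P.incInv x + P.incInv y := by
  apply P.inc_injective
  rw [map_add, P.inc_incInv hx, P.inc_incInv hy, P.inc_incInv (by rw [map_add, hx, hy, add_zero])]

lemma pb_incInv_sub {x y : P.M₀.V} (hx : P.ε x = 0) (hy : P.ε y = 0) :
    P.incInv (x - y) = P.incInv x - P.incInv y := by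
  apply P.inc_injective
  rw [map_sub, P.inc_incInv hx, P.inc_incInv hy, P.inc_incInv (by rw [map_sub, hx, hy, sub_zero])]

lemma pb_incInv_nsmul (n : ℕ) {x : P.M₀.V} (hx : P.ε x = 0) :
    P.incInv (n • x) = n • P.incInv x := by
  apply P.inc_injective
  rw [map_nsmul, P.inc_incInv hx, P.inc_incInv (by rw [map_nsmul, hx, smul_zero])]

/-- `d₁₂` of a cochain, pointwise. -/
lemma pb_d₁₂_apply (M : Rep.{0} ℤ G) (f : G → M.V) (σ τ : G) :
    (d₁₂ M).hom f (σ, τ) = M.ρ σ (f τ) - f (σ * τ) + f σ := rfl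

/-- the coboundary of a lift of a cocycle has values in `ker ε` -/
lemma pb_ε_d₁₂ (ct : G → P.M₀.V) (h : (fun σ => P.ε (ct σ)) ∈ cocycles₁ A') (στ : G × G) :
    P.ε ((d₁₂ P.M₀).hom ct στ) = 0 := by
  obtain ⟨σ, τ⟩ := στ
  have h1 := (mem_cocycles₁_iff _).1 h σ τ
  rw [pb_d₁₂_apply, map_add, map_sub, P.ε_ρ]
  have h2 : P.ε (ct (σ * τ)) = A'.ρ σ (P.ε (ct τ)) + P.ε (ct σ) := h1
  rw [h2]
  abel

lemma pb_d₁₂_inc (u : G → P.M₁.V) (στ : G × G) :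
    (d₁₂ P.M₀).hom (fun σ => P.inc.hom (u σ)) στ = P.inc.hom ((d₁₂ P.M₁).hom u στ) := by
  obtain ⟨σ, τ⟩ := στ
  rw [pb_d₁₂_apply, pb_d₁₂_apply, map_add, map_sub, Rep.hom_comm_apply]

/-- the pairing cochain of a cochain with values in `M₁` is a coboundary -/
lemma pb_pairLift_inc {C : Rep.{0} ℤ G} (g : P.M₁ ⟶ C) (u : G → P.M₁.V) :
    pairLift P g (fun σ => P.inc.hom (u σ)) = (d₁₂ C).hom (fun σ => g.hom (u σ)) := by
  funext στ
  obtain ⟨σ, τ⟩ := στ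
  unfold pairLift
  rw [pb_d₁₂_inc, P.incInv_inc, pb_d₁₂_apply, pb_d₁₂_apply, map_add, map_sub,
    Rep.hom_comm_apply]

lemma pb_incInv_ρ (σ : G) {x : P.M₀.V} (hx : P.ε x = 0) :
    P.incInv (P.M₀.ρ σ x) = P.M₁.ρ σ (P.incInv x) := by
  apply P.inc_injective
  rw [Rep.hom_comm_apply, P.inc_incInv hx, P.inc_incInv (by rw [P.ε_ρ, hx, map_zero])]

/-- two level cochains have a common normal level inside `U₀` -/
lemma pb_exists_level {X Y : Type} (ct : G → X) (ct' : G → Y) (hct : IsLevel₁ 𝒯 ct)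
    (hct' : IsLevel₁ 𝒯 ct') :
    ∃ U ∈ 𝒯.lev, U.Normal ∧ U ≤ P.U₀ ∧ (∀ g s : G, s ∈ U → ct (g * s) = ct g) ∧
      (∀ g s : G, s ∈ U → ct' (g * s) = ct' g) := by
  obtain ⟨U₁, hU₁, h₁⟩ := hct
  obtain ⟨U₂, hU₂, h₂⟩ := hct'
  obtain ⟨V, hV, hVle, hVn⟩ := 𝒯.exists_normal (P.U₀ ⊓ (U₁ ⊓ U₂))
    (𝒯.inf_mem _ _ P.U₀_mem (𝒯.inf_mem _ _ hU₁ hU₂))
  exact ⟨V, hV, hVn, fun x hx => (hVle hx).1, fun g s hs => h₁ g s (hVle hs).2.1,
    fun g s hs => h₂ g s (hVle hs).2.2⟩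

lemma pb_isLevel₁_sub {X : Type} [Sub X] (ct ct' : G → X) (hct : IsLevel₁ 𝒯 ct)
    (hct' : IsLevel₁ 𝒯 ct') : IsLevel₁ 𝒯 (fun σ => ct σ - ct' σ) := by
  obtain ⟨U₁, hU₁, h₁⟩ := hct
  obtain ⟨U₂, hU₂, h₂⟩ := hct'
  exact ⟨U₁ ⊓ U₂, 𝒯.inf_mem _ _ hU₁ hU₂, fun g s hs => by
    change ct (g * s) - ct' (g * s) = ct g - ct' g
    rw [h₁ g s hs.1, h₂ g s hs.2]⟩

/-- the coboundary of a level cochain of `M₀` is a level cochain -/
lemma pb_isLevel₂_d₁₂ (ct : G → P.M₀.V) (hct : IsLevel₁ 𝒯 ct) :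
    IsLevel₂ 𝒯 ((d₁₂ P.M₀).hom ct) := by
  obtain ⟨U, hU, hUn, hU₀, h₁, -⟩ := pb_exists_level P ct ct hct hct
  refine ⟨U, hU, fun g g' s s' hs hs' => ?_⟩
  rw [pb_d₁₂_apply, pb_d₁₂_apply]
  have e1 : g * s * (g' * s') = g * g' * (g'⁻¹ * s * g' * s') := by group
  have e2 : g'⁻¹ * s * g' * s' ∈ U := by
    refine U.mul_mem ?_ hs'
    simpa using hUn.conj_mem s hs g'⁻¹
  rw [e1, h₁ _ _ e2, h₁ _ _ hs, h₁ _ _ hs', map_mul, Module.End.mul_apply,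
    P.triv₀ s (hU₀ hs)]

variable {C : Rep.{0} ℤ G}

/-- clause 1 -/
lemma pb_clause1 (g : P.M₁ ⟶ C) (ct : G → P.M₀.V) (hct : IsLevel₁ 𝒯 ct)
    (hc : (fun σ => P.ε (ct σ)) ∈ cocycles₁ A') : pairLift P g ct ∈ levCocycles₂ 𝒯 C := by
  refine ⟨?_, (pb_isLevel₂_d₁₂ P ct hct).comp (fun x => g.hom (P.incInv x))⟩
  refine (mem_cocycles₂_iff (pairLift P g ct)).2 ?_
  intro a b c
  have hz := (mem_cocycles₂_iff _).1 (d₁₂_apply_mem_cocycles₂ (A := P.M₀) ct) a b c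
  have hε := pb_ε_d₁₂ P ct hc
  unfold pairLift
  rw [← map_add, ← pb_incInv_add P (hε _) (hε _), ← Rep.hom_comm_apply, ← pb_incInv_ρ P a (hε _),
    ← map_add, ← pb_incInv_add P (by rw [P.ε_ρ, hε, map_zero]) (hε _)]
  exact congrArg (fun x => g.hom (P.incInv x)) hz

/-- clause 2 -/
lemma pb_clause2 (g : P.M₁ ⟶ C) (ct ct' : G → P.M₀.V) (hct : IsLevel₁ 𝒯 ct)
    (hct' : IsLevel₁ 𝒯 ct') (hc : (fun σ => P.ε (ct σ)) ∈ cocycles₁ A')
    (hcc : ∀ σ, P.ε (ct σ) = P.ε (ct' σ)) :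
    pairLift P g ct - pairLift P g ct' ∈ levCoboundaries₂ 𝒯 C := by
  have hc' : (fun σ => P.ε (ct' σ)) ∈ cocycles₁ A' := by
    have : (fun σ => P.ε (ct' σ)) = (fun σ => P.ε (ct σ)) := funext fun σ => (hcc σ).symm
    rw [this]; exact hc
  have hε := pb_ε_d₁₂ P ct hc
  have hε' := pb_ε_d₁₂ P ct' hc'
  have hd : ∀ σ, P.ε (ct σ - ct' σ) = 0 := fun σ => by rw [map_sub, hcc, sub_self]
  rw [mem_levCoboundaries₂_iff]
  refine ⟨fun σ => g.hom (P.incInv (ct σ - ct' σ)),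
    (pb_isLevel₁_sub ct ct' hct hct').comp (fun x => g.hom (P.incInv x)), ?_⟩
  rw [← pb_pairLift_inc]
  funext στ
  rw [Pi.sub_apply]
  unfold pairLift
  rw [← map_sub, ← pb_incInv_sub P (hε _) (hε' _)]
  congr 2
  have h1 : (fun σ => P.inc.hom (P.incInv (ct σ - ct' σ))) = ct - ct' :=
    funext fun σ => P.inc_incInv (hd σ)
  rw [h1, map_sub]
  rfl

lemma pb_isLevel₁_sec (c : G → A'.V) (hc : IsLevel₁ 𝒯 c) :
    IsLevel₁ 𝒯 (fun σ => P.sec (c σ)) := hc.comp P.sec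

lemma pb_ε_sec_cocycle (c : G → A'.V) (hc : c ∈ cocycles₁ A') :
    (fun σ => P.ε (P.sec (c σ))) ∈ cocycles₁ A' := by
  have : (fun σ => P.ε (P.sec (c σ))) = c := funext fun σ => P.ε_sec (c σ)
  rw [this]; exact hc

/-- clause 3 -/
lemma pb_clause3 (g g' : P.M₁ ⟶ C) (c : G → A'.V) :
    pairCoc P (g + g') c = pairCoc P g c + pairCoc P g' c := by
  funext στ
  simp only [pairCoc, pairLift, Pi.add_apply, rep_add_apply]

/-- clause 4 -/
lemma pb_clause4 (g : P.M₁ ⟶ C) (c c' : G → A'.V) (hc : c ∈ cocycles₁ A')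
    (hc' : c' ∈ cocycles₁ A') (hl : IsLevel₁ 𝒯 c) (hl' : IsLevel₁ 𝒯 c') :
    pairCoc P g (c + c') - (pairCoc P g c + pairCoc P g c') ∈ levCoboundaries₂ 𝒯 C := by
  have hcc : c + c' ∈ cocycles₁ A' := (cocycles₁ A').add_mem hc hc'
  have key : pairCoc P g c + pairCoc P g c' =
      pairLift P g ((fun σ => P.sec (c σ)) + (fun σ => P.sec (c' σ))) := by
    funext στ
    simp only [pairCoc, pairLift, Pi.add_apply]
    rw [map_add, Pi.add_apply, pb_incInv_add P (pb_ε_d₁₂ P _ (pb_ε_sec_cocycle P c hc) _)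
      (pb_ε_d₁₂ P _ (pb_ε_sec_cocycle P c' hc') _), map_add]
  rw [key]
  refine pb_clause2 P g _ _ (pb_isLevel₁_sec P _ (hl.add hl'))
    ((pb_isLevel₁_sec P _ hl).add (pb_isLevel₁_sec P _ hl')) (pb_ε_sec_cocycle P _ hcc) ?_
  intro σ
  simp only [Pi.add_apply, map_add, P.ε_sec]

/-- `A'` is trivial on `U₀`. -/
lemma pb_triv_A' (s : G) (hs : s ∈ P.U₀) (a : A'.V) : A'.ρ s a = a := by
  obtain ⟨m, rfl⟩ := P.ε_surjective a
  rw [← P.ε_ρ, P.triv₀ s hs]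

/-- clause 5 -/
lemma pb_clause5 (g : P.M₁ ⟶ C) (c : G → A'.V) (hc : c ∈ coboundaries₁ A') :
    pairCoc P g c ∈ levCoboundaries₂ 𝒯 C := by
  have hcoc : c ∈ cocycles₁ A' := coboundaries₁_le_cocycles₁ A' hc
  obtain ⟨a, ha⟩ := hc
  have hca : ∀ σ, c σ = A'.ρ σ a - a := fun σ => (congrFun ha σ).symm
  have hl : IsLevel₁ 𝒯 c := ⟨P.U₀, P.U₀_mem, fun g s hs => by
    rw [hca, hca, map_mul, Module.End.mul_apply, pb_triv_A' P s hs]⟩
  let ct' : G → P.M₀.V := fun σ => P.M₀.ρ σ (P.sec a) - P.sec a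
  have hl' : IsLevel₁ 𝒯 ct' := ⟨P.U₀, P.U₀_mem, fun g s hs => by
    change P.M₀.ρ (g * s) (P.sec a) - P.sec a = P.M₀.ρ g (P.sec a) - P.sec a
    rw [map_mul, Module.End.mul_apply, P.triv₀ s hs]⟩
  have h0 : pairLift P g ct' = 0 := by
    funext στ
    obtain ⟨σ, τ⟩ := στ
    unfold pairLift
    have : (d₁₂ P.M₀).hom ct' (σ, τ) = 0 := by
      rw [pb_d₁₂_apply]
      change P.M₀.ρ σ (P.M₀.ρ τ (P.sec a) - P.sec a) - (P.M₀.ρ (σ * τ) (P.sec a) - P.sec a) +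
        (P.M₀.ρ σ (P.sec a) - P.sec a) = 0
      rw [map_sub, map_mul, Module.End.mul_apply]
      abel
    rw [this, pb_incInv_zero, map_zero]
    rfl
  have h2 := pb_clause2 P g (fun σ => P.sec (c σ)) ct' (pb_isLevel₁_sec P c hl) hl'
    (pb_ε_sec_cocycle P c hcoc) (fun σ => by
      change P.ε (P.sec (c σ)) = P.ε (P.M₀.ρ σ (P.sec a) - P.sec a)
      rw [P.ε_sec, map_sub, P.ε_ρ, P.ε_sec, hca])
  rw [h0, sub_zero] at h2
  exact h2

/-- clause 6 -/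
lemma pb_clause6 (h : P.M₀ ⟶ C) (c : G → A'.V) (hc : c ∈ cocycles₁ A') (hl : IsLevel₁ 𝒯 c) :
    pairCoc P (P.inc ≫ h) c ∈ levCoboundaries₂ 𝒯 C := by
  rw [mem_levCoboundaries₂_iff]
  refine ⟨fun σ => h.hom (P.sec (c σ)), (pb_isLevel₁_sec P c hl).comp (fun x => h.hom x), ?_⟩
  funext στ
  obtain ⟨σ, τ⟩ := στ
  simp only [pairCoc, pairLift, rep_comp_apply]
  rw [P.inc_incInv (pb_ε_d₁₂ P _ (pb_ε_sec_cocycle P c hc) _), pb_d₁₂_apply, pb_d₁₂_apply,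
    map_add, map_sub, Rep.hom_comm_apply]

/-- clause 7 -/
lemma pb_clause7 (p : ℕ) (hp : ∀ a : A'.V, p • a = 0) (g : P.M₁ ⟶ C) (c : G → A'.V)
    (hc : c ∈ cocycles₁ A') (hl : IsLevel₁ 𝒯 c) :
    p • pairCoc P g c ∈ levCoboundaries₂ 𝒯 C := by
  have hε : ∀ σ, P.ε (p • P.sec (c σ)) = 0 := fun σ => by rw [map_nsmul, hp]
  rw [mem_levCoboundaries₂_iff]
  refine ⟨fun σ => g.hom (P.incInv (p • P.sec (c σ))),
    (pb_isLevel₁_sec P c hl).comp (fun x => g.hom (P.incInv (p • x))), ?_⟩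
  rw [← pb_pairLift_inc]
  funext στ
  simp only [pairCoc, pairLift, Pi.smul_apply]
  rw [← map_nsmul, ← pb_incInv_nsmul P p (pb_ε_d₁₂ P _ (pb_ε_sec_cocycle P c hc) _)]
  congr 2
  have h1 : (fun σ => P.inc.hom (P.incInv (p • P.sec (c σ)))) = p • (fun σ => P.sec (c σ)) :=
    funext fun σ => P.inc_incInv (hε σ)
  rw [h1, map_nsmul]
  rfl

end PB

/-- **F3** -/
theorem stmtPairBasic : StmtPairBasic := by
  intro G _ 𝒯 k _ A' P C
  exact ⟨fun g ct h1 h2 => pb_clause1 P g ct h1 h2,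
    fun g ct ct' h1 h2 h3 h4 => pb_clause2 P g ct ct' h1 h2 h3 h4,
    fun g g' c => pb_clause3 P g g' c,
    fun g c c' h1 h2 h3 h4 => pb_clause4 P g c c' h1 h2 h3 h4,
    fun g c h => pb_clause5 P g c h,
    fun h c h1 h2 => pb_clause6 P h c h1 h2,
    fun p hp g c h1 h2 => pb_clause7 P p hp g c h1 h2⟩

end Fermat.Agent.PT.F

end


end ZBPT_033_0

/-! ### bundled: `Fermat.Agent.TW.F.ConnCmp` -/
section ZBPT_033_1
/-
TW-F, piece F-conn (helper30): the connecting cocycle of `g : M₁ ⟶ J` and the comparison of the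
PT-F pairing `pairCoc` with the cup product `cupCoc`.

`g̃ : M₀ →+ J` an additive extension of `g` (`stmtExt`); `σ g̃ σ⁻¹ - g̃` vanishes on `M₁`, is killed
by `p`, hence equals `m ↦ β(x σ, ε m) ζ` for a unique `x σ ∈ A` (perfect duality).  `x` is a level
1-cocycle and `pairCoc Pr g c + x ∪ c = d u`, `u σ = g̃ (sec (c σ))`.
-/

set_option autoImplicit false

noncomputable section

namespace Fermat.Agent.TW.F

open CategoryTheory groupCohomology Module Fermat.Agent.PT Fermat.Agent.PT.F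

section Kz

variable {p : ℕ} [Fact p.Prime] {V : Type} [AddCommGroup V]

/-- `a ↦ a.val • ζ`, additive because `p • ζ = 0` -/
def fconnKz (ζ : V) (hζ : p • ζ = 0) : ZMod p →+ V :=
  ZMod.lift p ⟨zmultiplesHom V ζ, by
    show ((p : ℕ) : ℤ) • ζ = 0
    rw [natCast_zsmul]; exact hζ⟩

theorem fconnKz_natCast (ζ : V) (hζ : p • ζ = 0) (n : ℕ) :
    fconnKz ζ hζ (n : ZMod p) = n • ζ := by
  have := ZMod.lift_coe p (⟨zmultiplesHom V ζ, by
    show ((p : ℕ) : ℤ) • ζ = 0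
    rw [natCast_zsmul]; exact hζ⟩ : {f : ℤ →+ V // f p = 0}) (n : ℤ)
  simp only [Int.cast_natCast] at this
  rw [fconnKz, this]
  simp

theorem fconnKz_apply (ζ : V) (hζ : p • ζ = 0) (a : ZMod p) :
    fconnKz ζ hζ a = a.val • ζ := by
  have : NeZero p := ⟨(Fact.out : p.Prime).ne_zero⟩
  conv_lhs => rw [← ZMod.natCast_zmod_val a]
  exact fconnKz_natCast ζ hζ _

theorem fconnKz_mul (ζ : V) (hζ : p • ζ = 0) (a b : ZMod p) :
    fconnKz ζ hζ (a * b) = a.val • fconnKz ζ hζ b := by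
  have : NeZero p := ⟨(Fact.out : p.Prime).ne_zero⟩
  have : a * b = ((a.val * b.val : ℕ) : ZMod p) := by
    push_cast
    rw [ZMod.natCast_zmod_val, ZMod.natCast_zmod_val]
  rw [this, fconnKz_natCast, fconnKz_apply, mul_smul]

theorem fconnKz_injective (ζ : V) (hζ : p • ζ = 0) (hζ0 : ζ ≠ 0) :
    Function.Injective (fconnKz ζ hζ) := by
  have : NeZero p := ⟨(Fact.out : p.Prime).ne_zero⟩
  rw [injective_iff_map_eq_zero]
  intro a ha
  by_contra hne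
  apply hζ0
  have h1 : fconnKz ζ hζ (a⁻¹ * a) = 0 := by rw [fconnKz_mul, ha, smul_zero]
  rw [inv_mul_cancel₀ hne] at h1
  have h2 := fconnKz_natCast ζ hζ 1
  rw [Nat.cast_one, one_smul] at h2
  rw [← h2, h1]

theorem fconnKz_surj (ζ : V) (hζ : p • ζ = 0) (x : V) (hx : ∃ n : ℕ, x = n • ζ) :
    ∃ a : ZMod p, fconnKz ζ hζ a = x := by
  obtain ⟨n, rfl⟩ := hx
  exact ⟨n, fconnKz_natCast ζ hζ n⟩

end Kz

theorem fconn_self_inv {k : Type} [CommRing k] {G : Type} [Group G] (X : Rep.{0} k G) (σ : G)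
    (x : X.V) : X.ρ σ (X.ρ σ⁻¹ x) = x := by
  have h : X.ρ σ * X.ρ σ⁻¹ = 1 := by rw [← map_mul, mul_inv_cancel, map_one]
  exact congrArg (fun f : Module.End k X.V => f x) h

theorem fconn_inv_self {k : Type} [CommRing k] {G : Type} [Group G] (X : Rep.{0} k G) (σ : G)
    (x : X.V) : X.ρ σ⁻¹ (X.ρ σ x) = x := by
  have h : X.ρ σ⁻¹ * X.ρ σ = 1 := by rw [← map_mul, inv_mul_cancel, map_one]
  exact congrArg (fun f : Module.End k X.V => f x) h

/-- a perfect pairing of finite-dimensional spaces represents every linear form -/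
theorem fconn_exists_rep {p : ℕ} [Fact p.Prime] {G : Type} [Group G] {χ : G →* (ZMod p)ˣ}
    {A B : Rep.{0} (ZMod p) G} [FiniteDimensional (ZMod p) A] [FiniteDimensional (ZMod p) B]
    (P : DualPair χ A B) (ℓ : B.V →ₗ[ZMod p] ZMod p) : ∃ a : A.V, P.β a = ℓ := by
  have hinj : Function.Injective P.β := by
    rw [injective_iff_map_eq_zero]
    intro a ha
    exact P.left a fun b => by rw [ha]; rfl
  have hinj' : Function.Injective P.β.flip := by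
    rw [injective_iff_map_eq_zero]
    intro b hb
    exact P.right b fun a => by
      have := congrArg (fun f : A.V →ₗ[ZMod p] ZMod p => f a) hb
      simpa using this
  have h1 : finrank (ZMod p) A.V ≤ finrank (ZMod p) (Module.Dual (ZMod p) B.V) :=
    LinearMap.finrank_le_finrank_of_injective hinj
  have h2 : finrank (ZMod p) B.V ≤ finrank (ZMod p) (Module.Dual (ZMod p) A.V) :=
    LinearMap.finrank_le_finrank_of_injective hinj'
  rw [Subspace.dual_finrank_eq] at h1 h2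
  have h3 : finrank (ZMod p) A.V = finrank (ZMod p) (Module.Dual (ZMod p) B.V) := by
    rw [Subspace.dual_finrank_eq]
    exact le_antisymm h1 h2
  exact (LinearMap.injective_iff_surjective_of_finrank_eq_finrank h3).1 hinj ℓ

/-- **F-conn**. -/
theorem stmtConnCmp : StmtConnCmp := by
  intro p _ G _ 𝒯 χ A B _ _ P J ζ hK hdisc hdiv htors hζ0 Pr g
  have hp : p.Prime := Fact.out
  obtain ⟨hζp, hζχ⟩ := hK
  have kz_inj := fconnKz_injective ζ hζp hζ0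
  have kz_ρ : ∀ (σ : G) (a : ZMod p),
      J.ρ σ (fconnKz ζ hζp a) = fconnKz ζ hζp ((χ σ : ZMod p) * a) := by
    intro σ a
    rw [fconnKz_mul, fconnKz_apply, map_nsmul, hζχ, smul_comm]
  have hpM : ∀ m : Pr.M₀.V, ∃ m₁ : Pr.M₁.V, homAdd Pr.inc m₁ = p • m := by
    intro m
    apply (Pr.exact (p • m)).1
    rw [map_nsmul]
    exact ZModModule.char_nsmul_eq_zero p _
  obtain ⟨gt, hgt⟩ := stmtExt p hp Pr.M₀.V Pr.M₁.V J.V (homAdd Pr.inc) Pr.inc_injective hpM hdiv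
    (homAdd g)
  have hgt' : ∀ m₁ : Pr.M₁.V, gt (Pr.inc.hom m₁) = g.hom m₁ := hgt
  -- the difference `σ g̃ σ⁻¹ - g̃`
  obtain ⟨Dm, Dm_apply⟩ : ∃ Dm : G → Pr.M₀.V → J.V,
      ∀ σ m, Dm σ m = J.ρ σ (gt (Pr.M₀.ρ σ⁻¹ m)) - gt m := ⟨_, fun _ _ => rfl⟩
  have Dadd : ∀ σ m m', Dm σ (m + m') = Dm σ m + Dm σ m' := by
    intro σ m m'
    simp only [Dm_apply, map_add]
    abel
  have Dzero : ∀ σ, Dm σ 0 = 0 := by
    intro σ
    simp only [Dm_apply, map_zero, sub_zero]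
  have Dnsmul : ∀ σ (n : ℕ) m, Dm σ (n • m) = n • Dm σ m := by
    intro σ n m
    induction n with
    | zero => rw [zero_smul, zero_smul, Dzero]
    | succ n ih => rw [succ_nsmul, succ_nsmul, Dadd, ih]
  have Dinc : ∀ σ (m₁ : Pr.M₁.V), Dm σ (Pr.inc.hom m₁) = 0 := by
    intro σ m₁
    have h3 : Pr.M₀.ρ σ⁻¹ (Pr.inc.hom m₁) = Pr.inc.hom (Pr.M₁.ρ σ⁻¹ m₁) :=
      (Rep.hom_comm_apply Pr.inc _ _).symm
    rw [Dm_apply, h3, hgt', hgt', ← Rep.hom_comm_apply, fconn_self_inv, sub_self]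
  have Dtors : ∀ σ m, p • Dm σ m = 0 := by
    intro σ m
    obtain ⟨m₁, hm₁⟩ := hpM m
    rw [← Dnsmul, ← hm₁]
    exact Dinc σ m₁
  -- values in `⟨ζ⟩`
  have Dkz : ∀ σ m, ∃ a : ZMod p, fconnKz ζ hζp a = Dm σ m := fun σ m =>
    fconnKz_surj ζ hζp _ (htors _ (Dtors σ m))
  choose φ hφ using Dkz
  have φadd : ∀ σ m m', φ σ (m + m') = φ σ m + φ σ m' := by
    intro σ m m'
    apply kz_inj
    rw [map_add, hφ, hφ, hφ, Dadd]
  have φinc : ∀ σ m, Pr.ε m = 0 → φ σ m = 0 := by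
    intro σ m hm
    obtain ⟨m₁, rfl⟩ := (Pr.exact m).1 hm
    apply kz_inj
    rw [hφ, Dinc, map_zero]
  have φε : ∀ σ m m', Pr.ε m = Pr.ε m' → φ σ m = φ σ m' := by
    intro σ m m' h
    have h1 := φinc σ (m - m') (by rw [map_sub, h, sub_self])
    have h2 := φadd σ (m - m') m'
    rw [sub_add_cancel, h1, zero_add] at h2
    exact h2
  -- the linear forms on `B`
  have hℓ : ∀ σ, ∃ ℓ : B.V →ₗ[ZMod p] ZMod p, ∀ m, ℓ (Pr.ε m) = φ σ m := by
    intro σ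
    refine ⟨AddMonoidHom.toZModLinearMap p
      (AddMonoidHom.mk' (fun b => φ σ (Pr.sec b)) (fun b b' => by
        rw [← φadd]
        exact φε σ _ _ (by simp only [map_add, Pr.ε_sec]))), fun m => ?_⟩
    exact φε σ _ _ (Pr.ε_sec _)
  choose ℓ hℓ using hℓ
  have hx : ∀ σ, ∃ a : A.V, P.β a = ℓ σ := fun σ => fconn_exists_rep P (ℓ σ)
  choose x hx using hx
  have key : ∀ σ m, Dm σ m = fconnKz ζ hζp (P.β (x σ) (Pr.ε m)) := by
    intro σ m
    rw [hx, hℓ, hφ]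
  -- `x` is a cocycle
  have xcoc : ∀ σ τ, x (σ * τ) = A.ρ σ (x τ) + x σ := by
    intro σ τ
    rw [← sub_eq_zero]
    apply P.left
    intro b
    obtain ⟨m, rfl⟩ := Pr.ε_surjective b
    apply kz_inj
    rw [map_zero, map_sub, LinearMap.sub_apply, map_sub, map_add, LinearMap.add_apply, map_add,
      ← key, ← key]
    have h1 : P.β (A.ρ σ (x τ)) (Pr.ε m) =
        (χ σ : ZMod p) * P.β (x τ) (Pr.ε (Pr.M₀.ρ σ⁻¹ m)) := by
      rw [← P.equivariant, Pr.ε_ρ, fconn_self_inv]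
    rw [h1, ← kz_ρ, ← key]
    simp only [Dm_apply, mul_inv_rev, map_mul, Module.End.mul_apply, map_sub]
    abel
  -- `x` vanishes on a level
  obtain ⟨U₁, hU₁, hU₁fix⟩ := hdisc.exists_level_of_finite
    (Set.finite_range (fun j => gt (Pr.basis₀ j)))
  have hfixgt : ∀ s ∈ U₁, ∀ m, J.ρ s (gt m) = gt m := by
    intro s hs m
    obtain ⟨h₀, -, huniq⟩ := Pr.basis₀_spec J.V (fun j => gt (Pr.basis₀ j))
    have e1 : (actAdd J s).comp gt = h₀ := huniq _ (fun j => by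
      rw [AddMonoidHom.comp_apply, actAdd_apply]
      exact hU₁fix _ ⟨j, rfl⟩ s hs)
    have e2 : gt = h₀ := huniq _ (fun _ => rfl)
    have := congrArg (fun f : Pr.M₀.V →+ J.V => f m) (e1.trans e2.symm)
    simpa using this
  have xU : ∀ s ∈ Pr.U₀ ⊓ U₁, x s = 0 := by
    intro s hs
    apply P.left
    intro b
    obtain ⟨m, rfl⟩ := Pr.ε_surjective b
    apply kz_inj
    rw [map_zero, ← key, Dm_apply, Pr.triv₀ s⁻¹ (Pr.U₀.inv_mem hs.1), hfixgt s hs.2, sub_self]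
  have xlev : IsLevel₁ 𝒯 x := ⟨Pr.U₀ ⊓ U₁, 𝒯.inf_mem _ _ Pr.U₀_mem hU₁, fun g s hs => by
    rw [xcoc, xU s hs, map_zero, zero_add]⟩
  refine ⟨x, (mem_cocycles₁_iff x).2 xcoc, xlev, fun c hc hcl => ?_⟩
  -- the comparison
  rw [mem_levCoboundaries₂_iff]
  refine ⟨fun σ => gt (Pr.sec (c σ)), hcl.comp (fun b => gt (Pr.sec b)), ?_⟩
  funext στ
  obtain ⟨σ, τ⟩ := στ
  have hε := pb_ε_d₁₂ Pr (fun σ => Pr.sec (c σ)) (pb_ε_sec_cocycle Pr c hc) (σ, τ)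
  have h1 : pairCoc Pr g c (σ, τ) =
      gt ((d₁₂ Pr.M₀).hom (fun σ => Pr.sec (c σ)) (σ, τ)) := by
    show g.hom (Pr.incInv _) = _
    rw [← hgt', Pr.inc_incInv hε]
  have h2 : cupCoc P J ζ x c (σ, τ) = Dm σ (Pr.M₀.ρ σ (Pr.sec (c τ))) := by
    rw [key, Pr.ε_ρ, Pr.ε_sec, fconnKz_apply]
    rfl
  rw [Pi.add_apply, h1, h2, Dm_apply, pb_d₁₂_apply, pb_d₁₂_apply,
    fconn_inv_self, map_add, map_sub]
  abel

end Fermat.Agent.TW.F

end


end ZBPT_033_1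

/-! ### bundled: `Fermat.Agent.TW.F.Cup` -/
section ZBPT_033_2
/-
TW-F, piece F-cup (helper30): cochain calculus of the cup product
`cupCoc P J ζ x y (σ, τ) = β(x σ, σ • y τ).val • ζ`.
All identities are proved in `𝔽_p` and transported by the additive map `fconnKz : a ↦ a.val • ζ`.
-/

set_option autoImplicit false

noncomputable section

namespace Fermat.Agent.TW.F

open CategoryTheory groupCohomology Module Fermat.Agent.PT Fermat.Agent.PT.F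

section

variable {p : ℕ} [Fact p.Prime] {G : Type} [Group G] {χ : G →* (ZMod p)ˣ}
  {A B : Rep.{0} (ZMod p) G} (P : DualPair χ A B) (J : Rep.{0} ℤ G) (ζ : J.V)

theorem fcup_apply (hζp : p • ζ = 0) (x : G → A.V) (y : G → B.V) (σ τ : G) :
    cupCoc P J ζ x y (σ, τ) = fconnKz ζ hζp (P.β (x σ) (B.ρ σ (y τ))) :=
  (fconnKz_apply ζ hζp _).symm

theorem fcup_kz_ρ (hζp : p • ζ = 0) (hζχ : ∀ g : G, J.ρ g ζ = ((χ g : ZMod p).val) • ζ)
    (σ : G) (a : ZMod p) :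
    J.ρ σ (fconnKz ζ hζp a) = fconnKz ζ hζp ((χ σ : ZMod p) * a) := by
  rw [fconnKz_mul, fconnKz_apply, map_nsmul, hζχ, smul_comm]

/-- clause 1: the cup product of level cocycles is a level 2-cocycle -/
theorem fcup_cocycle {𝒯 : Tower G} (hK : IsKummer χ J ζ) (hB : TrivOnLevel 𝒯 B)
    (x : G → A.V) (y : G → B.V) (hx : x ∈ cocycles₁ A) (hy : y ∈ cocycles₁ B)
    (hxl : IsLevel₁ 𝒯 x) (hyl : IsLevel₁ 𝒯 y) : cupCoc P J ζ x y ∈ levCocycles₂ 𝒯 J := by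
  obtain ⟨hζp, hζχ⟩ := hK
  have xc := (mem_cocycles₁_iff x).1 hx
  have yc := (mem_cocycles₁_iff y).1 hy
  refine (mem_levCocycles₂_iff 𝒯 J _).2 ⟨(mem_cocycles₂_iff _).2 fun g h j => ?_, ?_⟩
  · rw [fcup_apply P J ζ hζp, fcup_apply P J ζ hζp, fcup_apply P J ζ hζp,
      fcup_apply P J ζ hζp, fcup_kz_ρ J ζ hζp hζχ, ← map_add, ← map_add]
    congr 1
    rw [xc g h, yc h j, ← P.equivariant g (x h) (B.ρ h (y j))]
    simp only [map_add, LinearMap.add_apply, map_mul, Module.End.mul_apply]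
    ring
  · obtain ⟨U₁, hU₁, h₁⟩ := hxl
    obtain ⟨U₂, hU₂, h₂⟩ := hyl
    obtain ⟨U₃, hU₃, h₃⟩ := hB
    refine ⟨U₁ ⊓ (U₂ ⊓ U₃), 𝒯.inf_mem _ _ hU₁ (𝒯.inf_mem _ _ hU₂ hU₃), fun g g' s s' hs hs' => ?_⟩
    show cupCoc P J ζ x y (g * s, g' * s') = cupCoc P J ζ x y (g, g')
    rw [fcup_apply P J ζ hζp, fcup_apply P J ζ hζp, h₁ g s hs.1, h₂ g' s' hs'.2.1, map_mul,
      h₃ s hs.2.2, mul_one]

/-- clause 2 -/
theorem fcup_add_left (hζp : p • ζ = 0) (x x' : G → A.V) (y : G → B.V) :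
    cupCoc P J ζ (x + x') y = cupCoc P J ζ x y + cupCoc P J ζ x' y := by
  funext στ
  obtain ⟨σ, τ⟩ := στ
  rw [Pi.add_apply, fcup_apply P J ζ hζp, fcup_apply P J ζ hζp, fcup_apply P J ζ hζp, ← map_add,
    Pi.add_apply, map_add, LinearMap.add_apply]

/-- clause 3 -/
theorem fcup_add_right (hζp : p • ζ = 0) (x : G → A.V) (y y' : G → B.V) :
    cupCoc P J ζ x (y + y') = cupCoc P J ζ x y + cupCoc P J ζ x y' := by
  funext στ
  obtain ⟨σ, τ⟩ := στ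
  rw [Pi.add_apply, fcup_apply P J ζ hζp, fcup_apply P J ζ hζp, fcup_apply P J ζ hζp, ← map_add,
    Pi.add_apply, map_add, map_add]

/-- clause 4: `coboundary ∪ cocycle` -/
theorem fcup_cob_left {𝒯 : Tower G} (hK : IsKummer χ J ζ)
    (x : G → A.V) (y : G → B.V) (hx : x ∈ coboundaries₁ A) (hy : y ∈ cocycles₁ B)
    (hyl : IsLevel₁ 𝒯 y) : cupCoc P J ζ x y ∈ levCoboundaries₂ 𝒯 J := by
  obtain ⟨hζp, hζχ⟩ := hK
  obtain ⟨a, rfl⟩ := hx
  have yc := (mem_cocycles₁_iff y).1 hy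
  rw [mem_levCoboundaries₂_iff]
  refine ⟨fun τ => fconnKz ζ hζp (P.β a (y τ)), hyl.comp (fun b => fconnKz ζ hζp (P.β a b)), ?_⟩
  funext στ
  obtain ⟨σ, τ⟩ := στ
  rw [pb_d₁₂_apply, fcup_apply P J ζ hζp, fcup_kz_ρ J ζ hζp hζχ, ← map_sub, ← map_add]
  congr 1
  rw [yc σ τ, ← P.equivariant σ a (y τ)]
  show _ = P.β (A.ρ σ a - a) (B.ρ σ (y τ))
  simp only [map_add, map_sub, LinearMap.sub_apply]
  ring

/-- clause 5: `cocycle ∪ coboundary` -/
theorem fcup_cob_right {𝒯 : Tower G} (hK : IsKummer χ J ζ) (hB : TrivOnLevel 𝒯 B)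
    (x : G → A.V) (y : G → B.V) (hx : x ∈ cocycles₁ A) (hxl : IsLevel₁ 𝒯 x)
    (hy : y ∈ coboundaries₁ B) : cupCoc P J ζ x y ∈ levCoboundaries₂ 𝒯 J := by
  obtain ⟨hζp, hζχ⟩ := hK
  obtain ⟨b, rfl⟩ := hy
  have xc := (mem_cocycles₁_iff x).1 hx
  rw [mem_levCoboundaries₂_iff]
  refine ⟨fun σ => fconnKz ζ hζp (- P.β (x σ) (B.ρ σ b)), ?_, ?_⟩
  · obtain ⟨U₁, hU₁, h₁⟩ := hxl
    obtain ⟨U₃, hU₃, h₃⟩ := hB
    refine ⟨U₁ ⊓ U₃, 𝒯.inf_mem _ _ hU₁ hU₃, fun g s hs => ?_⟩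
    show fconnKz ζ hζp (- P.β (x (g * s)) (B.ρ (g * s) b)) =
      fconnKz ζ hζp (- P.β (x g) (B.ρ g b))
    rw [h₁ g s hs.1, map_mul, h₃ s hs.2, mul_one]
  · funext στ
    obtain ⟨σ, τ⟩ := στ
    rw [pb_d₁₂_apply, fcup_apply P J ζ hζp, fcup_kz_ρ J ζ hζp hζχ, ← map_sub, ← map_add]
    congr 1
    rw [xc σ τ, mul_neg, ← P.equivariant σ (x τ) (B.ρ τ b)]
    show _ = P.β (x σ) (B.ρ σ (B.ρ τ b - b))
    simp only [map_add, map_sub, LinearMap.add_apply, map_mul, Module.End.mul_apply]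
    ring

/-- clause 6 -/
theorem fcup_tors (hζp : p • ζ = 0) (x : G → A.V) (y : G → B.V) :
    p • cupCoc P J ζ x y = 0 := by
  funext στ
  obtain ⟨σ, τ⟩ := στ
  rw [Pi.smul_apply, fcup_apply P J ζ hζp, ← map_nsmul]
  rw [ZModModule.char_nsmul_eq_zero p, map_zero]
  rfl

end

/-- **F-cup**. -/
theorem stmtCupBasic : StmtCupBasic := by
  intro p _ G _ 𝒯 χ A B P J ζ hK hA hB
  refine ⟨fun x y hx hy hxl hyl => fcup_cocycle P J ζ hK hB x y hx hy hxl hyl,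
    fun x x' y => ?_, fun x y y' => ?_,
    fun x y hx hy hyl => fcup_cob_left P J ζ hK x y hx hy hyl,
    fun x y hx hxl hy => fcup_cob_right P J ζ hK hB x y hx hxl hy,
    fun x y => fcup_tors P J ζ hK.1 x y⟩
  · rw [fcup_add_left P J ζ hK.1, sub_self]
    exact (levCoboundaries₂ 𝒯 J).zero_mem
  · rw [fcup_add_right P J ζ hK.1, sub_self]
    exact (levCoboundaries₂ 𝒯 J).zero_mem

end Fermat.Agent.TW.F

end


end ZBPT_033_2

/-! ### bundled: `Fermat.Agent.TW.F.CupAnti` -/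
section ZBPT_033_3
/-
TW-F, piece F-anti (helper30): anticommutativity of the cup product,
`x ∪ y + (y ∪_flip x) = d h`, `h σ = -β(x σ, y σ) ζ`.
-/

set_option autoImplicit false

noncomputable section

namespace Fermat.Agent.TW.F

open CategoryTheory groupCohomology Module Fermat.Agent.PT Fermat.Agent.PT.F

/-- **F-anti**. -/
theorem stmtCupAnti : StmtCupAnti := by
  intro p _ G _ 𝒯 χ A B P J ζ hK x y hx hy hxl hyl
  obtain ⟨hζp, hζχ⟩ := hK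
  have xc := (mem_cocycles₁_iff x).1 hx
  have yc := (mem_cocycles₁_iff y).1 hy
  rw [mem_levCoboundaries₂_iff]
  refine ⟨fun σ => fconnKz ζ hζp (- P.β (x σ) (y σ)), ?_, ?_⟩
  · obtain ⟨U₁, hU₁, h₁⟩ := hxl
    obtain ⟨U₂, hU₂, h₂⟩ := hyl
    refine ⟨U₁ ⊓ U₂, 𝒯.inf_mem _ _ hU₁ hU₂, fun g s hs => ?_⟩
    show fconnKz ζ hζp (- P.β (x (g * s)) (y (g * s))) = fconnKz ζ hζp (- P.β (x g) (y g))
    rw [h₁ g s hs.1, h₂ g s hs.2]
  · funext στ
    obtain ⟨σ, τ⟩ := στ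
    rw [pb_d₁₂_apply, Pi.add_apply, fcup_apply P J ζ hζp, fcup_apply P.flip J ζ hζp,
      fcup_kz_ρ J ζ hζp hζχ, ← map_sub, ← map_add, ← map_add]
    congr 1
    rw [xc σ τ, yc σ τ, mul_neg, ← P.equivariant σ (x τ) (y τ)]
    show _ = P.β (x σ) (B.ρ σ (y τ)) + P.β (A.ρ σ (x τ)) (y σ)
    simp only [map_add, LinearMap.add_apply]
    ring

end Fermat.Agent.TW.F

end


end ZBPT_033_3

/-! ### bundled: `Fermat.Agent.TW.F.LocFinal` -/
section ZBPT_033_4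
/-
TW-F, pieces F-locRight and F-locLeft, unconditional forms (helper30):
local Tate duality for `H¹` — both kernels of the local cup product pairing are trivial.
-/

set_option autoImplicit false

namespace Fermat.Agent.TW.F

open Fermat.Agent.PT Fermat.Agent.PT.F

/-- **F-locRight**, unconditional. -/
theorem stmtLocRight : StmtLocRight :=
  stmtLocRight_of (stmtRightKer_of stmtTN' stmtInflInjFin) stmtConnCmp

/-- **F-locLeft**, unconditional. -/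
theorem stmtLocLeft : StmtLocLeft := stmtLocLeft_of stmtLocRight stmtCupAnti

end Fermat.Agent.TW.F


end ZBPT_033_4
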