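/- GENERATED FILE (helper35, build-time optimisation, NOTES/ZB.md): verbatim concatenation of the modules
   Fermat.Agent.PT.F.PairH1
   Fermat.Agent.TW.F.LocPair
   Do not edit; do not import together with these modules. -/
import Fermat.Agent.ZB.PT_002
import Fermat.Agent.ZB.PT_033
import Fermat.Agent.ZB.PT_034

/-! ### bundled: `Fermat.Agent.PT.F.PairH1` -/
section ZBPT_035_0

/-!
# PT-F / F3-H1: the pairing on classes

`Pg g [c] := inv [pairCoc P g c]`, where `inv : H²_lev(G, C)[p] → 𝔽_p` is the injective map of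
`exists_inv` (Level.lean).  Well defined and additive by `StmtPairBasic`.
-/

set_option autoImplicit false

noncomputable section

namespace Fermat.Agent.PT.F

open CategoryTheory groupCohomology Fermat.Agent.PT

theorem isLevel₁_sub {G : Type} [Group G] {𝒯 : Tower G} {X : Type*} [AddGroup X]
    {f f' : G → X} (hf : IsLevel₁ 𝒯 f) (hf' : IsLevel₁ 𝒯 f') : IsLevel₁ 𝒯 (f - f') := by
  obtain ⟨U, hU, h⟩ := hf
  obtain ⟨U', hU', h'⟩ := hf'
  refine ⟨U ⊓ U', 𝒯.inf_mem U U' hU hU', fun g s hs => ?_⟩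
  simp only [Pi.sub_apply]
  rw [h g s hs.1, h' g s hs.2]

/-- **F3-H1**. -/
theorem stmtPairH1_of (hB : StmtPairBasic) (hCyc : StmtH2pCyclic) : StmtPairH1 := by
  intro p _ G _ ι _ Gloc _ D A' P
  classical
  obtain ⟨h1, -, h3, h4, h5, -, h7⟩ := hB G D.𝒯 (ZMod p) A' P D.C
  have hX : IsDiscrete D.𝒯 D.C := D.C_discrete
  have hcm : HasPFund D.𝒯 D.C p := fun U _ hU => D.cm_glob U hU
  obtain ⟨inv, hinv⟩ := exists_inv hCyc p hX hcm
  have hpA : ∀ a : A'.V, p • a = 0 := by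
    intro a
    rw [← Nat.cast_smul_eq_nsmul (ZMod p) p a, ZMod.natCast_self, zero_smul]
  -- the pairing cocycle is a level cocycle
  have hcoc : ∀ (g : P.M₁ ⟶ D.C) (c : G → A'.V), c ∈ cocycles₁ A' → IsLevel₁ D.𝒯 c →
      pairCoc P g c ∈ levCocycles₂ D.𝒯 D.C := by
    intro g c hc hl
    refine h1 g (fun σ => P.sec (c σ)) (hl.comp P.sec) ?_
    have : (fun σ => P.ε (P.sec (c σ))) = c := funext fun σ => P.ε_sec (c σ)
    rw [this]
    exact hc
  -- the class of the pairing cocycle, as an element of the `p`-torsion of `levH2`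
  let cls : ∀ (g : P.M₁ ⟶ D.C) (c : G → A'.V), c ∈ cocycles₁ A' → IsLevel₁ D.𝒯 c →
      pTors p (levH2 D.𝒯 D.C) := fun g c hc hl =>
    ⟨levH2π D.𝒯 D.C ⟨pairCoc P g c, hcoc g c hc hl⟩, by
      rw [mem_pTors, ← map_nsmul]
      exact (levH2π_eq_zero_iff D.𝒯 D.C _).2 (h7 p hpA g c hc hl)⟩
  have hcls_val : ∀ g c hc hl, ((cls g c hc hl : pTors p (levH2 D.𝒯 D.C)) : levH2 D.𝒯 D.C)
      = levH2π D.𝒯 D.C ⟨pairCoc P g c, hcoc g c hc hl⟩ := fun _ _ _ _ => rfl
  have hcls_zero : ∀ g c hc hl, cls g c hc hl = 0 ↔ pairCoc P g c ∈ levCoboundaries₂ D.𝒯 D.C := by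
    intro g c hc hl
    rw [← levH2π_eq_zero_iff D.𝒯 D.C ⟨pairCoc P g c, hcoc g c hc hl⟩, ← hcls_val g c hc hl]
    exact ⟨fun h => by rw [h]; rfl, fun h => Subtype.ext h⟩
  -- difference of classes
  have hcls_eq : ∀ g c c' hc hl hc' hl',
      pairCoc P g c - pairCoc P g c' ∈ levCoboundaries₂ D.𝒯 D.C →
      cls g c hc hl = cls g c' hc' hl' := by
    intro g c c' hc hl hc' hl' hd
    apply Subtype.ext
    rw [hcls_val g c hc hl, hcls_val g c' hc' hl', ← sub_eq_zero, ← map_sub,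
      levH2π_eq_zero_iff]
    exact hd
  -- additivity in `c`
  have hcls_add : ∀ g c c' hc hl hc' hl',
      cls g (c + c') ((cocycles₁ A').add_mem hc hc') (hl.add hl')
        = cls g c hc hl + cls g c' hc' hl' := by
    intro g c c' hc hl hc' hl'
    apply Subtype.ext
    rw [AddSubgroup.coe_add, hcls_val g c hc hl, hcls_val g c' hc' hl',
      hcls_val g (c + c') ((cocycles₁ A').add_mem hc hc') (hl.add hl'), ← map_add,
      ← sub_eq_zero, ← map_sub, levH2π_eq_zero_iff]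
    exact h4 g c c' hc hc' hl hl'
  -- independence of the representative
  have hcls_indep : ∀ g c c' hc hl hc' hl',
      c - c' ∈ coboundaries₁ A' → cls g c hc hl = cls g c' hc' hl' := by
    intro g c c' hc hl hc' hl' hb
    have hbc : c - c' ∈ cocycles₁ A' := coboundaries₁_le_cocycles₁ A' hb
    have hbl : IsLevel₁ D.𝒯 (c - c') := isLevel₁_sub hl hl'
    have e : c' + (c - c') = c := by abel
    have h0 : cls g (c - c') hbc hbl = 0 := (hcls_zero g _ hbc hbl).2 (h5 g _ hb)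
    have := hcls_add g c' (c - c') hc' hl' hbc hbl
    rw [h0, add_zero] at this
    rw [← this]
    congr 1
    exact e.symm
  -- additivity in `g`
  have hcls_addg : ∀ g g' c hc hl,
      cls (g + g') c hc hl = cls g c hc hl + cls g' c hc hl := by
    intro g g' c hc hl
    apply Subtype.ext
    rw [AddSubgroup.coe_add, hcls_val g c hc hl, hcls_val g' c hc hl,
      hcls_val (g + g') c hc hl, ← map_add]
    exact congrArg _ (Subtype.ext (h3 g g' c))
  -- representatives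
  have hrep : ∀ x : ↥(levH1 D.𝒯 A'), ∃ c : cocycles₁ A', IsLevel₁ D.𝒯 (c : G → A'.V) ∧
      (H1π A').hom c = x := fun x => (mem_levH1_iff D.𝒯 A' _).1 x.2
  choose rep hrepl hrepx using hrep
  have hrep_eq : ∀ (x : ↥(levH1 D.𝒯 A')) (c : cocycles₁ A') (hl : IsLevel₁ D.𝒯 (c : G → A'.V)),
      (H1π A').hom c = x → ∀ g, cls g (rep x) (rep x).2 (hrepl x) = cls g c c.2 hl := by
    intro x c hl hx g
    have : (H1π A').hom (rep x) = (H1π A').hom c := by rw [hrepx, hx]
    exact hcls_indep g _ _ (rep x).2 (hrepl x) c.2 hl ((H1π_eq_iff _ _).1 this)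
  -- the pairing
  let F : (P.M₁ ⟶ D.C) → (↥(levH1 D.𝒯 A') →+ ZMod p) := fun g =>
    AddMonoidHom.mk' (fun x => inv (cls g (rep x) (rep x).2 (hrepl x))) (by
      intro x y
      have hxy : (H1π A').hom (rep x + rep y) = ((x + y : ↥(levH1 D.𝒯 A')) : H1 A') := by
        rw [map_add, hrepx, hrepx]
        rfl
      rw [hrep_eq (x + y) (rep x + rep y) ((hrepl x).add (hrepl y)) hxy g, ← map_add]
      congr 1
      exact hcls_add g _ _ (rep x).2 (hrepl x) (rep y).2 (hrepl y))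
  refine ⟨AddMonoidHom.mk' (fun g => (F g).toZModLinearMap p) ?_, ?_⟩
  · intro g g'
    apply LinearMap.ext
    intro x
    show inv (cls (g + g') (rep x) (rep x).2 (hrepl x))
      = inv (cls g (rep x) (rep x).2 (hrepl x)) + inv (cls g' (rep x) (rep x).2 (hrepl x))
    exact (congrArg inv (hcls_addg g g' _ (rep x).2 (hrepl x))).trans (map_add inv _ _)
  · intro g c hc
    show inv (cls g (rep _) (rep _).2 (hrepl _)) = 0 ↔ _
    rw [hrep_eq _ c hc rfl g, ← hcls_zero g c c.2 hc]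
    constructor
    · intro h
      exact hinv (by rw [h, map_zero])
    · intro h
      rw [h, map_zero]

end Fermat.Agent.PT.F

end


end ZBPT_035_0

/-! ### bundled: `Fermat.Agent.TW.F.LocPair` -/
section ZBPT_035_1
/-
TW-F, piece F-pair (helper9): the local pairings on classes.

For additive maps `λ_v : H²_lev(G_v, J_v)[p] → 𝔽_p` there are bilinear maps
`B_v : H¹_lev(G_v, A) × H¹_lev(G_v, B) → 𝔽_p` with `B_v([x], [y]) = λ_v [x ∪ y]` on level
cocycles.  Generic over `(G, 𝒯, χ, A, B, P, J, ζ)` (`fpair_generic`), from `StmtCupBasic`;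
same technique as PT-F `stmtPairH1_of`.
-/

set_option autoImplicit false

noncomputable section

namespace Fermat.Agent.TW.F

open CategoryTheory groupCohomology Module Fermat.Agent.PT Fermat.Agent.PT.F

/-- **F-pair, generic form**: the cup product induces a bilinear pairing on level classes,
composed with any additive map on `H²_lev(G, J)[p]`. -/
theorem fpair_generic (hC : StmtCupBasic) (p : ℕ) [Fact p.Prime] (G : Type) [Group G]
    (𝒯 : Tower G) (χ : G →* (ZMod p)ˣ) (A B : Rep.{0} (ZMod p) G) (P : DualPair χ A B)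
    (J : Rep.{0} ℤ G) (ζ : J.V) (hK : IsKummer χ J ζ) (hA : TrivOnLevel 𝒯 A)
    (hB : TrivOnLevel 𝒯 B) (lam : ↥(pTors p (levH2 𝒯 J)) →+ ZMod p) :
    ∃ Bv : ↥(levH1 𝒯 A) →ₗ[ZMod p] ↥(levH1 𝒯 B) →ₗ[ZMod p] ZMod p,
      ∀ (cx : cocycles₁ A) (cy : cocycles₁ B) (hx : IsLevel₁ 𝒯 (cx : G → A.V))
        (hy : IsLevel₁ 𝒯 (cy : G → B.V)) (w : ↥(levCocycles₂ 𝒯 J))
        (_ : (w : G × G → J.V) = cupCoc P J ζ cx cy)
        (hp : levH2π 𝒯 J w ∈ pTors p (levH2 𝒯 J)),
        Bv ⟨(H1π A).hom cx, (mem_levH1_iff _ _ _).2 ⟨cx, hx, rfl⟩⟩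
            ⟨(H1π B).hom cy, (mem_levH1_iff _ _ _).2 ⟨cy, hy, rfl⟩⟩ =
          lam ⟨levH2π 𝒯 J w, hp⟩ := by
  classical
  obtain ⟨h1, h2, h3, h4, h5, h6⟩ := hC p G 𝒯 χ A B P J ζ hK hA hB
  -- the class of the cup product, as an element of the `p`-torsion of `levH2`
  let cls : ∀ (x : G → A.V) (y : G → B.V), x ∈ cocycles₁ A → IsLevel₁ 𝒯 x → y ∈ cocycles₁ B →
      IsLevel₁ 𝒯 y → pTors p (levH2 𝒯 J) := fun x y hx hlx hy hly =>
    ⟨levH2π 𝒯 J ⟨cupCoc P J ζ x y, h1 x y hx hy hlx hly⟩, by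
      rw [mem_pTors, ← map_nsmul]
      apply (levH2π_eq_zero_iff 𝒯 J _).2
      show p • cupCoc P J ζ x y ∈ levCoboundaries₂ 𝒯 J
      rw [h6 x y]
      exact zero_mem _⟩
  have hcls_val : ∀ x y hx hlx hy hly,
      ((cls x y hx hlx hy hly : pTors p (levH2 𝒯 J)) : levH2 𝒯 J)
        = levH2π 𝒯 J ⟨cupCoc P J ζ x y, h1 x y hx hy hlx hly⟩ := fun _ _ _ _ _ _ => rfl
  have hcls_zero : ∀ x y hx hlx hy hly, cupCoc P J ζ x y ∈ levCoboundaries₂ 𝒯 J →
      cls x y hx hlx hy hly = 0 := by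
    intro x y hx hlx hy hly h
    apply Subtype.ext
    rw [hcls_val x y hx hlx hy hly]
    exact (levH2π_eq_zero_iff 𝒯 J ⟨cupCoc P J ζ x y, h1 x y hx hy hlx hly⟩).2 h
  -- additivity in `x`
  have hcls_addx : ∀ x x' y hx hlx hx' hlx' hy hly,
      cls (x + x') y ((cocycles₁ A).add_mem hx hx') (hlx.add hlx') hy hly
        = cls x y hx hlx hy hly + cls x' y hx' hlx' hy hly := by
    intro x x' y hx hlx hx' hlx' hy hly
    apply Subtype.ext
    rw [AddSubgroup.coe_add, hcls_val x y hx hlx hy hly, hcls_val x' y hx' hlx' hy hly,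
      hcls_val (x + x') y ((cocycles₁ A).add_mem hx hx') (hlx.add hlx') hy hly, ← map_add,
      ← sub_eq_zero, ← map_sub, levH2π_eq_zero_iff]
    exact h2 x x' y
  -- additivity in `y`
  have hcls_addy : ∀ x y y' hx hlx hy hly hy' hly',
      cls x (y + y') hx hlx ((cocycles₁ B).add_mem hy hy') (hly.add hly')
        = cls x y hx hlx hy hly + cls x y' hx hlx hy' hly' := by
    intro x y y' hx hlx hy hly hy' hly'
    apply Subtype.ext
    rw [AddSubgroup.coe_add, hcls_val x y hx hlx hy hly, hcls_val x y' hx hlx hy' hly',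
      hcls_val x (y + y') hx hlx ((cocycles₁ B).add_mem hy hy') (hly.add hly'), ← map_add,
      ← sub_eq_zero, ← map_sub, levH2π_eq_zero_iff]
    exact h3 x y y'
  -- independence of the representative of `x`
  have hcls_indepx : ∀ x x' y hx hlx hx' hlx' hy hly, x - x' ∈ coboundaries₁ A →
      cls x y hx hlx hy hly = cls x' y hx' hlx' hy hly := by
    intro x x' y hx hlx hx' hlx' hy hly hb
    have hbc : x - x' ∈ cocycles₁ A := coboundaries₁_le_cocycles₁ A hb
    have hbl : IsLevel₁ 𝒯 (x - x') := isLevel₁_sub hlx hlx'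
    have e : x' + (x - x') = x := by abel
    have h0 : cls (x - x') y hbc hbl hy hly = 0 :=
      hcls_zero _ _ hbc hbl hy hly (h4 _ _ hb hy hly)
    have := hcls_addx x' (x - x') y hx' hlx' hbc hbl hy hly
    rw [h0, add_zero] at this
    rw [← this]
    congr 1
    exact e.symm
  -- independence of the representative of `y`
  have hcls_indepy : ∀ x y y' hx hlx hy hly hy' hly', y - y' ∈ coboundaries₁ B →
      cls x y hx hlx hy hly = cls x y' hx hlx hy' hly' := by
    intro x y y' hx hlx hy hly hy' hly' hb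
    have hbc : y - y' ∈ cocycles₁ B := coboundaries₁_le_cocycles₁ B hb
    have hbl : IsLevel₁ 𝒯 (y - y') := isLevel₁_sub hly hly'
    have e : y' + (y - y') = y := by abel
    have h0 : cls x (y - y') hx hlx hbc hbl = 0 :=
      hcls_zero _ _ hx hlx hbc hbl (h5 _ _ hx hlx hb)
    have := hcls_addy x y' (y - y') hx hlx hy' hly' hbc hbl
    rw [h0, add_zero] at this
    rw [← this]
    congr 1
    exact e.symm
  -- representatives
  have hrepA : ∀ X : ↥(levH1 𝒯 A), ∃ c : cocycles₁ A, IsLevel₁ 𝒯 (c : G → A.V) ∧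
      (H1π A).hom c = X := fun X => (mem_levH1_iff 𝒯 A _).1 X.2
  choose repA hrepAl hrepAx using hrepA
  have hrepB : ∀ Y : ↥(levH1 𝒯 B), ∃ c : cocycles₁ B, IsLevel₁ 𝒯 (c : G → B.V) ∧
      (H1π B).hom c = Y := fun Y => (mem_levH1_iff 𝒯 B _).1 Y.2
  choose repB hrepBl hrepBx using hrepB
  have hrep_eq : ∀ (X : ↥(levH1 𝒯 A)) (Y : ↥(levH1 𝒯 B)) (cx : cocycles₁ A)
      (cy : cocycles₁ B) (hlx : IsLevel₁ 𝒯 (cx : G → A.V)) (hly : IsLevel₁ 𝒯 (cy : G → B.V)),
      (H1π A).hom cx = X → (H1π B).hom cy = Y →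
      cls (repA X) (repB Y) (repA X).2 (hrepAl X) (repB Y).2 (hrepBl Y)
        = cls cx cy cx.2 hlx cy.2 hly := by
    intro X Y cx cy hlx hly hX hY
    have hA' : (H1π A).hom (repA X) = (H1π A).hom cx := by rw [hrepAx, hX]
    have hB' : (H1π B).hom (repB Y) = (H1π B).hom cy := by rw [hrepBx, hY]
    exact (hcls_indepx _ _ _ (repA X).2 (hrepAl X) cx.2 hlx (repB Y).2 (hrepBl Y)
      ((H1π_eq_iff _ _).1 hA')).trans
      (hcls_indepy _ _ _ cx.2 hlx (repB Y).2 (hrepBl Y) cy.2 hly ((H1π_eq_iff _ _).1 hB'))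
  -- the pairing, additive in the second variable
  let F : ↥(levH1 𝒯 A) → (↥(levH1 𝒯 B) →+ ZMod p) := fun X =>
    AddMonoidHom.mk' (fun Y => lam (cls (repA X) (repB Y) (repA X).2 (hrepAl X) (repB Y).2
      (hrepBl Y))) (by
      intro Y Y'
      have hYY : (H1π B).hom (repB Y + repB Y') = ((Y + Y' : ↥(levH1 𝒯 B)) : H1 B) := by
        rw [map_add, hrepBx, hrepBx]
        rfl
      rw [hrep_eq X (Y + Y') (repA X) (repB Y + repB Y') (hrepAl X)
        ((hrepBl Y).add (hrepBl Y')) (hrepAx X) hYY, ← map_add]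
      congr 1
      exact hcls_addy _ _ _ (repA X).2 (hrepAl X) (repB Y).2 (hrepBl Y) (repB Y').2 (hrepBl Y'))
  -- additive in the first variable
  let F2 : ↥(levH1 𝒯 A) →+ (↥(levH1 𝒯 B) →ₗ[ZMod p] ZMod p) :=
    AddMonoidHom.mk' (fun X => (F X).toZModLinearMap p) (by
      intro X X'
      apply LinearMap.ext
      intro Y
      show lam (cls (repA (X + X')) (repB Y) (repA (X + X')).2 (hrepAl (X + X')) (repB Y).2
          (hrepBl Y))
        = lam (cls (repA X) (repB Y) (repA X).2 (hrepAl X) (repB Y).2 (hrepBl Y))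
          + lam (cls (repA X') (repB Y) (repA X').2 (hrepAl X') (repB Y).2 (hrepBl Y))
      have hXX : (H1π A).hom (repA X + repA X') = ((X + X' : ↥(levH1 𝒯 A)) : H1 A) := by
        rw [map_add, hrepAx, hrepAx]
        rfl
      rw [hrep_eq (X + X') Y (repA X + repA X') (repB Y) ((hrepAl X).add (hrepAl X'))
        (hrepBl Y) hXX (hrepBx Y), ← map_add]
      congr 1
      exact hcls_addx _ _ _ (repA X).2 (hrepAl X) (repA X').2 (hrepAl X') (repB Y).2 (hrepBl Y))
  refine ⟨F2.toZModLinearMap p, ?_⟩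
  intro cx cy hx hy w hw hp
  have e1 := hrep_eq ⟨(H1π A).hom cx, (mem_levH1_iff _ _ _).2 ⟨cx, hx, rfl⟩⟩
    ⟨(H1π B).hom cy, (mem_levH1_iff _ _ _).2 ⟨cy, hy, rfl⟩⟩ cx cy hx hy rfl rfl
  have e2 : cls cx cy cx.2 hx cy.2 hy = ⟨levH2π 𝒯 J w, hp⟩ := by
    apply Subtype.ext
    show levH2π 𝒯 J ⟨cupCoc P J ζ cx cy, _⟩ = levH2π 𝒯 J w
    exact congrArg _ (Subtype.ext hw.symm)
  exact congrArg lam (e1.trans e2)

/-- restriction to `G_v` of a module which is trivial on a level is trivial on a local level -/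
theorem fpair_trivOnLevel {p : ℕ} [Fact p.Prime] {G : Type} [Group G] {ι : Type}
    {Gloc : ι → Type} [∀ v, Group (Gloc v)] (D : PTDatum p G ι Gloc) (A : Rep.{0} (ZMod p) G)
    (hA : TrivOnLevel D.𝒯 A) (v : ι) : TrivOnLevel (D.𝒯loc v) (Rep.res (D.r v) A) := by
  obtain ⟨U, hU, hUt⟩ := hA
  exact ⟨_, D.comap_mem v U hU, fun s hs => hUt (D.r v s) hs⟩

/-- **F-pair** from `StmtCupBasic`. -/
theorem stmtLocPair_of (hC : StmtCupBasic) : StmtLocPair := by
  intro p _ G _ ι _ Gloc _ D lam A B P hA hB v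
  exact fpair_generic hC p (Gloc v) (D.𝒯loc v) (D.χ.comp (D.r v)) (Rep.res (D.r v) A)
    (Rep.res (D.r v) B) (P.res (D.r v)) (D.Jloc v) (zetaLoc D v) (flr_isKummer D v)
    (fpair_trivOnLevel D A hA v) (fpair_trivOnLevel D B hB v) (lam v)

/-- **F-pair**, unconditional. -/
theorem stmtLocPair : StmtLocPair := stmtLocPair_of stmtCupBasic

end Fermat.Agent.TW.F

end


end ZBPT_035_1
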