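/- GENERATED FILE (helper35, build-time optimisation, NOTES/ZB.md): verbatim concatenation of the modules
   Fermat.Agent.PT.F.DescSub
   Fermat.Agent.PT.F.SeqInIn2b
   Fermat.Agent.TW.F.In2Z
   Fermat.Agent.TW.F.Rec
   Do not edit; do not import together with these modules. -/
import Fermat.Agent.ZB.PT_002
import Fermat.Agent.ZB.PT_031
import Fermat.Agent.ZB.TW_006
import Fermat.Agent.ZB.PT_047
import Fermat.Agent.ZB.PT_033
import Fermat.Agent.ZB.PT_022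

/-! ### bundled: `Fermat.Agent.PT.F.DescSub` -/
section ZBPT_048_0
/-
PT-F, dictionary for SUBGROUPS (helper9): `descSub_exists_coboundary` — a 1-cocycle on a subgroup
`W ≥ V` (`V` normal in `Γ`) which is right-`V`-invariant is a coboundary on `W` as soon as
`H¹(W/V, X^V) = 0`, where `W/V = W.map (mk' V) ≤ Γ ⧸ V` and `X^V = X.quotientToInvariants V`.
Used for In2b (and usable for In1b, In4b).
-/

set_option autoImplicit false

noncomputable section

namespace Fermat.Agent.PT.F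

open CategoryTheory groupCohomology Fermat.Agent.PT

attribute [local instance 1100] Rep.hV2

/-- **Descent to a finite quotient, degree 1, on a subgroup.**  `V ⊴ Γ`, `V ≤ W ≤ Γ`,
`c : Γ → X` a 1-cocycle on `W`, right-`V`-invariant on `W`.  If `H¹(W/V, X^V) = 0`, then `c` is
a coboundary on `W`. -/
theorem descSub_exists_coboundary {Γ : Type} [Group Γ] (X : Rep.{0} ℤ Γ)
    (V : Subgroup Γ) [V.Normal] (W : Subgroup Γ) (hVW : V ≤ W) (c : Γ → X.V)
    (hc : ∀ s ∈ W, ∀ s' ∈ W, c (s * s') = X.ρ s (c s') + c s)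
    (hcV : ∀ s ∈ W, ∀ u ∈ V, c (s * u) = c s)
    (hH : Subsingleton (H1 (Rep.res (W.map (QuotientGroup.mk' V)).subtype
      (X.quotientToInvariants V)))) :
    ∃ x : X.V, ∀ s ∈ W, c s = X.ρ s x - x := by
  classical
  -- basic consequences
  have c1 : c 1 = 0 := by
    have := hc 1 W.one_mem 1 W.one_mem
    simpa using this
  have cV : ∀ u ∈ V, c u = 0 := by
    intro u hu
    have := hcV 1 W.one_mem u hu
    rw [one_mul, c1] at this
    exact this
  have cinv : ∀ s ∈ W, ∀ u ∈ V, X.ρ u (c s) = c s := by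
    intro s hs u hu
    have h1 := hc u (hVW hu) s hs
    rw [cV u hu, add_zero] at h1
    have h2 : u * s = s * (s⁻¹ * u * s) := by group
    have h3 : s⁻¹ * u * s ∈ V := by
      have := Subgroup.Normal.conj_mem' (inferInstance : V.Normal) u hu s
      simpa using this
    rw [← h1, h2, hcV s hs _ h3]
  -- extension by zero
  obtain ⟨c₀, hc₀⟩ : ∃ c₀ : Γ → X.V, ∀ g, c₀ g = if g ∈ W then c g else 0 := ⟨_, fun _ => rfl⟩
  have hc₀W : ∀ s ∈ W, c₀ s = c s := fun s hs => by rw [hc₀, if_pos hs]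
  have hdesc : Desc₁ X V c₀ := by
    refine ⟨fun g u hu => ?_, fun g u hu => ?_⟩
    · by_cases hg : g ∈ W
      · rw [hc₀W _ (W.mul_mem hg (hVW hu)), hc₀W _ hg, hcV g hg u hu]
      · have : g * u ∉ W := fun h => hg (by
          have := W.mul_mem h (W.inv_mem (hVW hu))
          simpa using this)
        rw [hc₀, hc₀, if_neg hg, if_neg this]
    · by_cases hg : g ∈ W
      · rw [hc₀W _ hg]
        exact cinv g hg u hu
      · rw [hc₀, if_neg hg, map_zero]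
  have hinfl : ∀ g : Γ, ((descend₁ c₀ hdesc) (g : Γ ⧸ V)).1 = c₀ g :=
    fun g => congrFun (infl₁_descend₁ c₀ hdesc) g
  -- the cocycle on `H = W/V`
  let H : Subgroup (Γ ⧸ V) := W.map (QuotientGroup.mk' V)
  let f : H → (X.quotientToInvariants V).V := fun h => descend₁ c₀ hdesc h.1
  have hf : f ∈ cocycles₁ (Rep.res H.subtype (X.quotientToInvariants V)) := by
    rw [mem_cocycles₁_iff]
    rintro ⟨h, s, hs, rfl⟩ ⟨h', s', hs', rfl⟩
    apply Subtype.ext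
    change ((descend₁ c₀ hdesc) (((s * s' : Γ)) : Γ ⧸ V)).1 =
      X.ρ s ((descend₁ c₀ hdesc) (s' : Γ ⧸ V)).1 + ((descend₁ c₀ hdesc) (s : Γ ⧸ V)).1
    rw [hinfl, hinfl, hinfl, hc₀W _ (W.mul_mem hs hs'), hc₀W _ hs, hc₀W _ hs', hc s hs s' hs']
  have hzero : H1π (Rep.res H.subtype (X.quotientToInvariants V)) ⟨f, hf⟩ = 0 :=
    Subsingleton.elim _ _
  rw [H1π_eq_zero_iff] at hzero
  obtain ⟨x, hx⟩ := hzero
  refine ⟨x.1, fun s hs => ?_⟩
  have h1 := congrFun hx ⟨(s : Γ ⧸ V), s, hs, rfl⟩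
  have h2 := congrArg Subtype.val h1
  rw [← hc₀W s hs, ← hinfl s]
  exact h2.symm

end Fermat.Agent.PT.F

end


end ZBPT_048_0

/-! ### bundled: `Fermat.Agent.PT.F.SeqInIn2b` -/
section ZBPT_048_1
/-
PT-F §6 inputs, piece In2b (helper9): local inflation is injective in degree 2 (from Hilbert 90).
`stmtIn2b : StmtIn2b`.

Proof (NOTES/PT-F.md, "In2b").  `z = d¹ t`, `z` right-invariant under `W = r⁻¹U`, `M` trivial on
`W`, `t` right-invariant under a normal local level `V ≤ W`.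
(1) `z = t 1` on `W × W` and `s • t 1 = t 1` for `s ∈ W`.
(2) `u := t - t 1` is a 1-cocycle on `W`, right-`V`-invariant.
(3) Hilbert 90 for `W/V` and the basis of `M`: `u s = s • h - h` on `W`.
(4) `t' := t - d⁰ h` has `d¹ t' = z` and is right-`W`-invariant.
-/

set_option autoImplicit false

noncomputable section

namespace Fermat.Agent.PT.F

open CategoryTheory groupCohomology Fermat.Agent.PT

attribute [local instance 1100] Rep.hV2

namespace In2b

variable {H : Type} [Group H]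

lemma conjAdd_one (M Y : Rep.{0} ℤ H) (h : M.V →+ Y.V) : conjAdd M Y 1 h = h := by
  ext m
  simp

lemma conjAdd_mul (M Y : Rep.{0} ℤ H) (g g' : H) (h : M.V →+ Y.V) :
    conjAdd M Y (g * g') h = conjAdd M Y g (conjAdd M Y g' h) := by
  ext m
  simp [mul_inv_rev]

/-- `d¹ (t - d⁰ h) = d¹ t`. -/
lemma dOne_sub_dZero (M Y : Rep.{0} ℤ H) (t : H → (M.V →+ Y.V)) (h : M.V →+ Y.V)
    (dd : H × H) :
    dOne M Y (fun d => t d - dZero M Y h d) dd = dOne M Y t dd := by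
  obtain ⟨d, d'⟩ := dd
  simp only [dOne, dZero, map_sub, conjAdd_mul]
  abel

end In2b

open In2b

theorem stmtIn2b : StmtIn2b := by
  intro p _ G _ ι _ Gloc _ D M hM hbasis v z hz ht
  classical
  obtain ⟨UM, hUM, hMtriv⟩ := hM
  obtain ⟨n, b, hb⟩ := hbasis
  obtain ⟨U, hU, hzU⟩ := hz
  obtain ⟨t, ⟨V₀, hV₀, htV₀⟩, htz⟩ := ht
  -- levels
  have hU₁ : U ⊓ UM ∈ D.𝒯.lev := D.𝒯.inf_mem _ _ hU hUM
  obtain ⟨W, hWdef⟩ : ∃ W : Subgroup (Gloc v), W = (U ⊓ UM).comap (D.r v) := ⟨_, rfl⟩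
  have hWmem : ∀ s, s ∈ W ↔ D.r v s ∈ U ∧ D.r v s ∈ UM := by
    intro s
    rw [hWdef]
    rfl
  have hWlev : W ∈ (D.𝒯loc v).lev := by
    rw [hWdef]
    exact D.comap_mem v _ hU₁
  obtain ⟨V, hV, hVle, hVn⟩ := (D.𝒯loc v).exists_normal (V₀ ⊓ W)
    ((D.𝒯loc v).inf_mem _ _ hV₀ hWlev)
  have hVW : V ≤ W := hVle.trans inf_le_right
  have htV : ∀ d s, s ∈ V → t (d * s) = t d := fun d s hs => htV₀ d s (hVle hs).1
  -- `M` is trivial on `W`
  have hMW' : ∀ s ∈ W, ∀ m : M.V, M.ρ (D.r v s)⁻¹ m = m :=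
    fun s hs m => hMtriv _ (inv_mem ((hWmem s).1 hs).2) m
  have hconjW : ∀ s ∈ W, ∀ (h : M.V →+ (D.Jloc v).V) (m : M.V),
      conjAdd (Rep.res (D.r v) M) (D.Jloc v) s h m = (D.Jloc v).ρ s (h m) := by
    intro s hs h m
    rw [conjAdd_apply]
    change (D.Jloc v).ρ s (h (M.ρ (D.r v s⁻¹) m)) = _
    rw [map_inv, hMW' s hs]
  -- step (1)
  have hz11 : z (1, 1) = t 1 := by
    rw [htz (1, 1)]
    simp only [dOne, conjAdd_one, mul_one]
    abel
  have hzW : ∀ s ∈ W, ∀ s' ∈ W, z (s, s') = t 1 := by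
    intro s hs s' hs'
    have := hzU 1 1 s s' ((hWmem s).1 hs).1 ((hWmem s').1 hs').1
    rw [one_mul, one_mul] at this
    rw [this, hz11]
  have hzd : ∀ d, ∀ s ∈ W, z (d, s) = z (d, 1) := by
    intro d s hs
    have := hzU d 1 1 s (by rw [map_one]; exact U.one_mem) ((hWmem s).1 hs).1
    rw [mul_one, one_mul] at this
    exact this
  have hfix : ∀ s ∈ W, conjAdd (Rep.res (D.r v) M) (D.Jloc v) s (t 1) = t 1 := by
    intro s hs
    have h1 := hzW s hs 1 W.one_mem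
    rw [htz (s, 1)] at h1
    simp only [dOne, mul_one] at h1
    rw [sub_add_cancel] at h1
    exact h1
  -- step (2)
  have htmul : ∀ s ∈ W, ∀ s' ∈ W,
      t (s * s') = conjAdd (Rep.res (D.r v) M) (D.Jloc v) s (t s') + t s - t 1 := by
    intro s hs s' hs'
    have h1 := hzW s hs s' hs'
    rw [htz (s, s')] at h1
    simp only [dOne] at h1
    rw [← h1]
    abel
  have hc : ∀ j, ∀ s ∈ W, ∀ s' ∈ W, (t (s * s') - t 1) (b j) =
      (D.Jloc v).ρ s ((t s' - t 1) (b j)) + (t s - t 1) (b j) := by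
    intro j s hs s' hs'
    rw [htmul s hs s' hs']
    have h2 := DFunLike.congr_fun (hfix s hs) (b j)
    rw [hconjW s hs] at h2
    simp only [AddMonoidHom.sub_apply, AddMonoidHom.add_apply, hconjW s hs, map_sub, h2]
    abel
  have hcV : ∀ j, ∀ s ∈ W, ∀ u ∈ V, (t (s * u) - t 1) (b j) = (t s - t 1) (b j) := by
    intro j s _ u hu
    rw [htV s u hu]
  -- step (3)
  have : V.Normal := hVn
  have hH := D.h90_loc v V hV (W.map (QuotientGroup.mk' V))
  have hx : ∀ j, ∃ x : (D.Jloc v).V, ∀ s ∈ W, (t s - t 1) (b j) = (D.Jloc v).ρ s x - x :=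
    fun j => descSub_exists_coboundary (D.Jloc v) V W hVW (fun d => (t d - t 1) (b j))
      (hc j) (hcV j) hH
  choose x hx using hx
  obtain ⟨h, hh, huniq⟩ := hb (D.Jloc v).V x
  have hext : ∀ f f' : M.V →+ (D.Jloc v).V, (∀ j, f (b j) = f' (b j)) → f = f' := by
    intro f f' hff'
    obtain ⟨h₀, -, hu₀⟩ := hb (D.Jloc v).V (fun j => f' (b j))
    rw [hu₀ f hff', hu₀ f' (fun _ => rfl)]
  have hu : ∀ s ∈ W, t s - t 1 = dZero (Rep.res (D.r v) M) (D.Jloc v) h s := by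
    intro s hs
    apply hext
    intro j
    rw [hx j s hs]
    simp only [dZero, AddMonoidHom.sub_apply, hconjW s hs, hh]
  -- step (4)
  refine ⟨fun d => t d - dZero (Rep.res (D.r v) M) (D.Jloc v) h d,
    ⟨U ⊓ UM, hU₁, ?_⟩, fun dd => by rw [dOne_sub_dZero, htz dd]⟩
  intro d s hs
  have hsW : s ∈ W := (hWmem s).2 hs
  have ht'W : ∀ s' ∈ W, t s' - dZero (Rep.res (D.r v) M) (D.Jloc v) h s' = t 1 := by
    intro s' hs'
    rw [← hu s' hs']
    abel
  have h1 := hzd d s hsW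
  rw [htz (d, s), htz (d, 1), ← dOne_sub_dZero (Rep.res (D.r v) M) (D.Jloc v) t h (d, s),
    ← dOne_sub_dZero (Rep.res (D.r v) M) (D.Jloc v) t h (d, 1)] at h1
  simp only [dOne, mul_one, ht'W s hsW, ht'W 1 W.one_mem] at h1
  have h2 : ∀ a b c e : (M.V →+ (D.Jloc v).V), a - b + c = a - e + e → b = c := by
    intro a b c e h
    have : a - b + c = a := by rw [h]; abel
    have h3 : c - b = 0 := by
      have h4 : a - b + c - a = 0 := by rw [this]; abel
      rw [← h4]; abel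
    exact (sub_eq_zero.mp h3).symm
  exact h2 _ _ _ _ h1

end F
end PT
end Agent
end Fermat
end
end ZBPT_048_1

/-! ### bundled: `Fermat.Agent.TW.F.In2Z` -/
section ZBPT_048_2
/-
TW-F (helper68): semilocal Shapiro injectivity in degree 2 for `J`-valued cochains
(= PT-F `In2` for the trivial module `M = ℤ`), in the language of `levCocycles₂`/`levCoboundaries₂`.

`in2Z` : a level 2-cocycle `Z : G × G → J` with `p • Z = 0` all of whose local components
`dd ↦ (Z (r dd.1, r dd.2)) v 1` are level coboundaries of `J_v` (for the big local towers) is a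
level coboundary of `J`.
Used by F-rec (reciprocity) and F-h2rank.
-/

set_option autoImplicit false

noncomputable section

namespace Fermat.Agent.TW.F

open CategoryTheory groupCohomology Module Fermat.Agent.PT Fermat.Agent.PT.F

attribute [local instance 1100] Rep.hV2

variable {p : ℕ} {G : Type} [Group G] {ι : Type} {Gloc : ι → Type} [∀ v, Group (Gloc v)]

/-- the trivial `G`-module `ℤ` -/
abbrev in2Z_M (G : Type) [Group G] : Rep.{0} ℤ G := Rep.trivial ℤ G ℤ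

lemma in2Z_M_levTriv (𝒯 : Tower G) : IsLevTriv 𝒯 (in2Z_M G) :=
  ⟨⊤, 𝒯.top_mem, fun _ _ _ => rfl⟩

lemma in2Z_M_basis : ∃ (n : ℕ) (b : Fin n → (in2Z_M G).V),
    ∀ (Y : Type) [AddCommGroup Y] (f : Fin n → Y),
      ∃! h : (in2Z_M G).V →+ Y, ∀ j, h (b j) = f j := by
  refine ⟨1, fun _ => (1 : ℤ), fun Y _ f => ⟨zmultiplesHom Y (f 0), fun j => ?_, fun h hh => ?_⟩⟩
  · have : j = 0 := Subsingleton.elim _ _
    subst this
    show (zmultiplesHom Y (f 0)) (1 : ℤ) = f 0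
    simp
  · apply AddMonoidHom.ext_int
    show h (1 : ℤ) = (zmultiplesHom Y (f 0)) (1 : ℤ)
    rw [hh 0]
    simp

/-- `In2` holds for the trivial module `ℤ`. -/
theorem in2Z_in2 [Fact p.Prime] [Fintype ι] (D : PTDatum p G ι Gloc) : In2 D (in2Z_M G) :=
  SeqInW.in2_of D _ (stmtIn2a p G ι Gloc D _ (in2Z_M_levTriv D.𝒯)) (fun v z hz ht =>
    stmtIn2b p G ι Gloc D _ (in2Z_M_levTriv D.𝒯) in2Z_M_basis v z hz ht)

/-- **Semilocal Shapiro injectivity in degree 2** for `J`-valued cochains. -/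
theorem in2Z [Fact p.Prime] [Fintype ι] (D : PTDatum p G ι Gloc) (Z : G × G → (PTJ D).V)
    (hZ : Z ∈ levCocycles₂ D.𝒯 (PTJ D)) (hp : ∀ gg, p • Z gg = 0)
    (hloc : ∀ v, (fun dd : Gloc v × Gloc v => ev D v (Z (D.r v dd.1, D.r v dd.2))) ∈
      levCoboundaries₂ (D.𝒯loc v) (D.Jloc v)) :
    Z ∈ levCoboundaries₂ D.𝒯 (PTJ D) := by
  have hcoc := (mem_cocycles₂_def Z).1 hZ.1
  obtain ⟨t, ht, hty⟩ := in2Z_in2 D (fun gg => zmultiplesHom (PTJ D).V (Z gg))
    (hZ.2.comp _)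
    (fun σ τ ρ => by
      apply AddMonoidHom.ext_int
      show (PTJ D).ρ σ ((1 : ℤ) • Z (τ, ρ)) - (1 : ℤ) • Z (σ * τ, ρ) + (1 : ℤ) • Z (σ, τ * ρ)
        - (1 : ℤ) • Z (σ, τ) = 0
      rw [one_smul, one_smul, one_smul, one_smul]
      exact hcoc σ τ ρ)
    (fun gg => by
      apply AddMonoidHom.ext_int
      show p • ((1 : ℤ) • Z gg) = 0
      rw [one_smul, hp])
    (fun v => by
      obtain ⟨x, hx, hxZ⟩ := (mem_levCoboundaries₂_iff (D.𝒯loc v) (D.Jloc v) _).1 (hloc v)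
      refine ⟨fun d => zmultiplesHom (D.Jloc v).V (x d), hx.comp _, fun dd => ?_⟩
      apply AddMonoidHom.ext_int
      show ev D v ((1 : ℤ) • Z (D.r v dd.1, D.r v dd.2)) =
        (D.Jloc v).ρ dd.1 ((1 : ℤ) • x dd.2) - (1 : ℤ) • x (dd.1 * dd.2) + (1 : ℤ) • x dd.1
      rw [one_smul, one_smul, one_smul, one_smul]
      have := congrFun hxZ dd
      rw [d₁₂_hom_apply] at this
      exact this.symm)
  refine (mem_levCoboundaries₂_iff D.𝒯 (PTJ D) _).2 ⟨fun σ => t σ (1 : ℤ), ?_, ?_⟩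
  · exact ht.comp (fun h : (in2Z_M G).V →+ (PTJ D).V => h (1 : ℤ))
  · funext gg
    rw [d₁₂_hom_apply]
    have := congrArg (fun h : (in2Z_M G).V →+ (PTJ D).V => h (1 : ℤ)) (hty gg)
    simp only at this
    have h1 : (zmultiplesHom (PTJ D).V (Z gg)) (1 : ℤ) = Z gg := by simp
    rw [h1] at this
    rw [this]
    rfl

end Fermat.Agent.TW.F

end


end ZBPT_048_2

/-! ### bundled: `Fermat.Agent.TW.F.Rec` -/
section ZBPT_048_3
/-
TW-F, piece **F-rec** (helper68): the reciprocity law `Σ_v λ_v [res_v x ∪ res_v y] = 0`.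

* `λ_v := c_v • inv_v`, where `inv_v : H²_lev(G_v, J_v)[p] ↪ 𝔽_p` (`exists_inv`) and the constant
  `c_v` is chosen such that `λ_v [res_v Z] = inv_glob [π ∘ Z]` for all `v`-SUPPORTED level
  2-cocycles `Z` of `J` with `p • Z = 0` (`frec_lam_exists`; `in2Z` shows that `[π ∘ Z]` depends only
  on `[res_v Z]`, and `surv` that `c_v ≠ 0`).
* the global cup product `x ∪ y` has values in `μ_p ⊆ E`; its image in `J` is the sum of the
  `v`-supported cocycles `Z_v = cupCoc P J ζ_v^J x y`, where `ζ_v^J ∈ J` is the `v`-part of `i(ζ)`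
  (`frecZ`); hence `Σ_v π ∘ Z_v = π ∘ i ∘ (…) = 0`.
-/

set_option autoImplicit false

noncomputable section

namespace Fermat.Agent.TW.F

open CategoryTheory groupCohomology Module Fermat.Agent.PT Fermat.Agent.PT.F

attribute [local instance 1100] Rep.hV2

variable {p : ℕ} {G : Type} [Group G] {ι : Type} {Gloc : ι → Type} [∀ v, Group (Gloc v)]

/-! ### The `v`-part of `i(ζ)` -/

lemma frecZ_mem (D : PTDatum p G ι Gloc) (v : ι) :
    hatFun D.Jloc D.E v (homAdd (D.j v)) D.ζ ∈ semilocalSub D.𝒯 D.r D.Jloc := by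
  intro v'
  by_cases h : v = v'
  · subst h
    refine ⟨fun d g => ?_, ?_⟩
    · rw [hatFun_same, hatFun_same, map_mul]
      exact Rep.hom_comm_apply (D.j v) d (D.E.ρ g D.ζ)
    · obtain ⟨U, hU, hUM⟩ := D.E_discrete D.ζ
      refine ⟨U, hU, fun g s hs => ?_⟩
      rw [hatFun_same, hatFun_same, map_mul]
      show (D.j v).hom (D.E.ρ g (D.E.ρ s D.ζ)) = (D.j v).hom (D.E.ρ g D.ζ)
      rw [hUM s hs]
  · refine ⟨fun d g => ?_, ?_⟩
    · rw [hatFun_ne _ _ _ _ _ h, hatFun_ne _ _ _ _ _ h, map_zero]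
    · refine ⟨⊤, D.𝒯.top_mem, fun g s _ => ?_⟩
      rw [hatFun_ne _ _ _ _ _ h, hatFun_ne _ _ _ _ _ h]

/-- the `v`-part `ζ_v^J` of `i(ζ) ∈ J`: `v`-component `g ↦ j_v(g ζ)`, other components `0` -/
def frecZ (D : PTDatum p G ι Gloc) (v : ι) : (PTJ D).V :=
  ⟨hatFun D.Jloc D.E v (homAdd (D.j v)) D.ζ, frecZ_mem D v⟩

lemma frecZ_same (D : PTDatum p G ι Gloc) (v : ι) (g : G) :
    (frecZ D v).1 v g = (D.j v).hom (D.E.ρ g D.ζ) :=
  hatFun_same D.Jloc D.E v (homAdd (D.j v)) D.ζ g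

lemma frecZ_ne (D : PTDatum p G ι Gloc) (v : ι) {v' : ι} (h : v ≠ v') (g : G) :
    (frecZ D v).1 v' g = 0 :=
  hatFun_ne D.Jloc D.E v (homAdd (D.j v)) D.ζ h g

lemma frecZ_nsmul_apply (D : PTDatum p G ι Gloc) (v : ι) (n : ℕ) (v' : ι) (g : G) :
    (n • frecZ D v).1 v' g = n • (frecZ D v).1 v' g := rfl

lemma frecZ_kummer (D : PTDatum p G ι Gloc) (v : ι) : IsKummer D.χ (PTJ D) (frecZ D v) := by
  refine ⟨?_, fun g => ?_⟩
  · apply Subtype.ext
    funext v' g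
    show p • (frecZ D v).1 v' g = 0
    by_cases h : v = v'
    · subst h
      rw [frecZ_same, ← map_nsmul, ← map_nsmul, D.ζ_tors, map_zero, map_zero]
    · rw [frecZ_ne D v h, smul_zero]
  · apply Subtype.ext
    funext v' h
    show (frecZ D v).1 v' (h * g) = ((D.χ g : ZMod p).val) • (frecZ D v).1 v' h
    by_cases hv : v = v'
    · subst hv
      rw [frecZ_same, frecZ_same, map_mul]
      show (D.j v).hom (D.E.ρ h (D.E.ρ g D.ζ)) = _
      rw [D.ζ_char g, map_nsmul, map_nsmul]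
    · rw [frecZ_ne D v hv, frecZ_ne D v hv, smul_zero]

lemma frecZ_sum [Fintype ι] (D : PTDatum p G ι Gloc) :
    ∑ v, frecZ D v = D.i.hom D.ζ := by
  classical
  apply Subtype.ext
  funext v' g
  rw [D.i_apply]
  have h1 : ((∑ v, frecZ D v : (PTJ D).V)).1 v' g = ∑ v, (frecZ D v).1 v' g := by
    have := AddSubmonoidClass.coe_finsetSum (S := semilocalSub D.𝒯 D.r D.Jloc)
      (fun v => frecZ D v) Finset.univ
    show ((∑ v, frecZ D v : ↥(semilocalSub D.𝒯 D.r D.Jloc)) : ∀ v, G → (D.Jloc v).V) v' g = _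
    rw [this, Finset.sum_apply, Finset.sum_apply]
  rw [h1, Finset.sum_eq_single v' (fun v _ hv => frecZ_ne D v hv g)
    (fun h => absurd (Finset.mem_univ v') h), frecZ_same]

/-! ### `v`-supported cocycles -/

/-- `Z` is a `v`-supported level 2-cocycle of `J` killed by `p` -/
def FrecSupp (D : PTDatum p G ι Gloc) (v : ι) (Z : G × G → (PTJ D).V) : Prop :=
  Z ∈ levCocycles₂ D.𝒯 (PTJ D) ∧ (∀ gg, p • Z gg = 0) ∧
    ∀ v' : ι, v' ≠ v → ∀ g g' h : G, (Z (g, g')).1 v' h = 0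

/-- the local component at `v` of a 2-cochain of `J` -/
def frecLoc (D : PTDatum p G ι Gloc) (v : ι) (Z : G × G → (PTJ D).V) :
    Gloc v × Gloc v → (D.Jloc v).V :=
  fun dd => ev D v (Z (D.r v dd.1, D.r v dd.2))

/-- the image in `C` of a 2-cochain of `J` -/
def frecPi (D : PTDatum p G ι Gloc) (Z : G × G → (PTJ D).V) : G × G → D.C.V :=
  fun gg => D.π.hom (Z gg)

lemma frecLoc_sub_nsmul (D : PTDatum p G ι Gloc) (v : ι) (Z Z₀ : G × G → (PTJ D).V) (n : ℕ) :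
    frecLoc D v (Z - n • Z₀) = frecLoc D v Z - n • frecLoc D v Z₀ := by
  funext dd
  show ev D v (Z _ - n • Z₀ _) = ev D v (Z _) - n • ev D v (Z₀ _)
  rw [map_sub, map_nsmul]

lemma frecPi_sub_nsmul (D : PTDatum p G ι Gloc) (Z Z₀ : G × G → (PTJ D).V) (n : ℕ) :
    frecPi D (Z - n • Z₀) = frecPi D Z - n • frecPi D Z₀ := by
  funext gg
  show D.π.hom (Z _ - n • Z₀ _) = D.π.hom (Z _) - n • D.π.hom (Z₀ _)
  rw [map_sub, map_nsmul]

lemma frecPi_mem_cocycles (D : PTDatum p G ι Gloc) {Z : G × G → (PTJ D).V}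
    (hZ : Z ∈ levCocycles₂ D.𝒯 (PTJ D)) : frecPi D Z ∈ levCocycles₂ D.𝒯 D.C := by
  have hcoc := (mem_cocycles₂_def Z).1 hZ.1
  refine ⟨(mem_cocycles₂_def _).2 fun g h j => ?_, hZ.2.comp _⟩
  have := congrArg D.π.hom (hcoc g h j)
  rw [map_zero, map_sub, map_add, map_sub, Rep.hom_comm_apply] at this
  exact this

lemma frecPi_mem_coboundaries (D : PTDatum p G ι Gloc) {Z : G × G → (PTJ D).V}
    (hZ : Z ∈ levCoboundaries₂ D.𝒯 (PTJ D)) : frecPi D Z ∈ levCoboundaries₂ D.𝒯 D.C := by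
  obtain ⟨t, ht, htZ⟩ := (mem_levCoboundaries₂_iff D.𝒯 (PTJ D) _).1 hZ
  refine (mem_levCoboundaries₂_iff D.𝒯 D.C _).2 ⟨fun g => D.π.hom (t g), ht.comp _, ?_⟩
  funext gg
  rw [d₁₂_hom_apply]
  show _ = D.π.hom (Z gg)
  rw [← htZ, d₁₂_hom_apply, map_add, map_sub, Rep.hom_comm_apply]

lemma FrecSupp.sub_nsmul {D : PTDatum p G ι Gloc} {v : ι} {Z Z₀ : G × G → (PTJ D).V}
    (hZ : FrecSupp D v Z) (hZ₀ : FrecSupp D v Z₀) (n : ℕ) : FrecSupp D v (Z - n • Z₀) := by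
  refine ⟨(levCocycles₂ D.𝒯 (PTJ D)).sub_mem hZ.1 ((levCocycles₂ D.𝒯 (PTJ D)).smul_of_tower_mem
    n hZ₀.1), fun gg => ?_, fun v' hv' g g' h => ?_⟩
  · show p • (Z gg - n • Z₀ gg) = 0
    rw [smul_sub, smul_comm, hZ.2.1, hZ₀.2.1, smul_zero, sub_zero]
  · show (Z (g, g')).1 v' h - n • (Z₀ (g, g')).1 v' h = 0
    rw [hZ.2.2 v' hv', hZ₀.2.2 v' hv', smul_zero, sub_zero]

/-- (K) if the local class of a `v`-supported cocycle vanishes then so does its image in `C`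
(semilocal Shapiro injectivity `in2Z`). -/
theorem frec_K [Fact p.Prime] [Fintype ι] (D : PTDatum p G ι Gloc) (v : ι)
    {Z : G × G → (PTJ D).V} (hZ : FrecSupp D v Z)
    (hloc : frecLoc D v Z ∈ levCoboundaries₂ (D.𝒯loc v) (D.Jloc v)) :
    frecPi D Z ∈ levCoboundaries₂ D.𝒯 D.C := by
  apply frecPi_mem_coboundaries
  refine in2Z D Z hZ.1 hZ.2.1 fun v' => ?_
  by_cases h : v' = v
  · subst h
    exact hloc
  · have : (fun dd : Gloc v' × Gloc v' => ev D v' (Z (D.r v' dd.1, D.r v' dd.2))) = 0 := by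
      funext dd
      exact hZ.2.2 v' h _ _ 1
    rw [this]
    exact (levCoboundaries₂ (D.𝒯loc v') (D.Jloc v')).zero_mem

/-- (S) if the image in `C` of a `v`-supported cocycle is a coboundary then so is its local
component (the datum axiom `surv`). -/
theorem frec_S (D : PTDatum p G ι Gloc) (v : ι)
    {Z : G × G → (PTJ D).V} (hZ : FrecSupp D v Z)
    (hpi : frecPi D Z ∈ levCoboundaries₂ D.𝒯 D.C) :
    frecLoc D v Z ∈ levCoboundaries₂ (D.𝒯loc v) (D.Jloc v) := by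
  have hy_p : ∃ (k : ℕ) (t : G → (PTJ D).V), IsLevel₁ D.𝒯 t ∧
      (d₁₂ (PTJ D)).hom t = (p ^ k) • Z := by
    refine ⟨1, 0, ⟨⊤, D.𝒯.top_mem, fun _ _ _ => rfl⟩, ?_⟩
    rw [map_zero, pow_one]
    funext gg
    exact (hZ.2.1 gg).symm
  have hy_π : ∃ t : G → D.C.V, IsLevel₁ D.𝒯 t ∧
      (d₁₂ D.C).hom t = fun gg => D.π.hom (Z gg) := by
    obtain ⟨t, ht, hdt⟩ := (mem_levCoboundaries₂_iff _ _ _).1 hpi
    exact ⟨t, ht, by rw [hdt]; rfl⟩
  obtain ⟨t, ht, hdt⟩ := D.surv v Z hZ.1.1 hZ.1.2 hZ.2.2 hy_p hy_π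
  exact (mem_levCoboundaries₂_iff _ _ _).2 ⟨t, ht, hdt⟩

/-! ### The normalised local invariant maps -/

lemma frec_ptors_loc (D : PTDatum p G ι Gloc) (v : ι) {Z : G × G → (PTJ D).V}
    (hZ : FrecSupp D v Z) (w : ↥(levCocycles₂ (D.𝒯loc v) (D.Jloc v)))
    (hw : (w : Gloc v × Gloc v → (D.Jloc v).V) = frecLoc D v Z) :
    levH2π (D.𝒯loc v) (D.Jloc v) w ∈ pTors p (levH2 (D.𝒯loc v) (D.Jloc v)) := by
  rw [mem_pTors, ← map_nsmul]
  have : p • w = 0 := by
    apply Subtype.ext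
    show p • (w : Gloc v × Gloc v → (D.Jloc v).V) = 0
    rw [hw]
    funext dd
    show p • ev D v (Z _) = 0
    rw [← map_nsmul, hZ.2.1, map_zero]
  rw [this, map_zero]

lemma frec_ptors_glob (D : PTDatum p G ι Gloc) {Z : G × G → (PTJ D).V}
    (hZ : ∀ gg, p • Z gg = 0) (c : ↥(levCocycles₂ D.𝒯 D.C))
    (hc : (c : G × G → D.C.V) = frecPi D Z) :
    levH2π D.𝒯 D.C c ∈ pTors p (levH2 D.𝒯 D.C) := by
  rw [mem_pTors, ← map_nsmul]
  have : p • c = 0 := by
    apply Subtype.ext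
    show p • (c : G × G → D.C.V) = 0
    rw [hc]
    funext gg
    show p • D.π.hom (Z gg) = 0
    rw [← map_nsmul, hZ, map_zero]
  rw [this, map_zero]

/-- **The normalised local invariant map** `λ_v`: injective on `H²_lev(G_v, J_v)[p]`, and
`λ_v [res_v Z] = inv_glob [π ∘ Z]` for every `v`-supported level 2-cocycle `Z` of `J` killed by
`p`. -/
theorem frec_lam_exists [Fact p.Prime] [Fintype ι] (D : PTDatum p G ι Gloc) (v : ι)
    (invG : ↥(pTors p (levH2 D.𝒯 D.C)) →+ ZMod p) (hinvG : Function.Injective invG) :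
    ∃ lam : ↥(pTors p (levH2 (D.𝒯loc v) (D.Jloc v))) →+ ZMod p, Function.Injective lam ∧
      ∀ (Z : G × G → (PTJ D).V), FrecSupp D v Z →
        ∀ (w : ↥(levCocycles₂ (D.𝒯loc v) (D.Jloc v)))
          (_ : (w : Gloc v × Gloc v → (D.Jloc v).V) = frecLoc D v Z)
          (hpw : levH2π (D.𝒯loc v) (D.Jloc v) w ∈ pTors p (levH2 (D.𝒯loc v) (D.Jloc v)))
          (c : ↥(levCocycles₂ D.𝒯 D.C)) (_ : (c : G × G → D.C.V) = frecPi D Z)
          (hpc : levH2π D.𝒯 D.C c ∈ pTors p (levH2 D.𝒯 D.C)),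
          lam ⟨levH2π (D.𝒯loc v) (D.Jloc v) w, hpw⟩ = invG ⟨levH2π D.𝒯 D.C c, hpc⟩ := by
  classical
  obtain ⟨invv, hinvv⟩ := exists_inv (𝒯 := D.𝒯loc v) (X := D.Jloc v) stmtH2pCyclic p
    (D.Jloc_discrete v) (fun V _ hV => D.cm_loc v V hV)
  by_cases hex : ∃ Z₀ : G × G → (PTJ D).V, FrecSupp D v Z₀ ∧
      frecLoc D v Z₀ ∈ levCocycles₂ (D.𝒯loc v) (D.Jloc v) ∧
      frecLoc D v Z₀ ∉ levCoboundaries₂ (D.𝒯loc v) (D.Jloc v)
  · obtain ⟨Z₀, hZ₀, hw₀, hne⟩ := hex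
    have hpw₀ := frec_ptors_loc D v hZ₀ ⟨frecLoc D v Z₀, hw₀⟩ rfl
    have hpc₀ := frec_ptors_glob D hZ₀.2.1 ⟨frecPi D Z₀, frecPi_mem_cocycles D hZ₀.1⟩ rfl
    have ha0 : invv ⟨_, hpw₀⟩ ≠ 0 := by
      intro h
      have h1 : (⟨_, hpw₀⟩ : ↥(pTors p (levH2 (D.𝒯loc v) (D.Jloc v)))) = 0 :=
        hinvv (by rw [h, map_zero])
      have h2 : levH2π (D.𝒯loc v) (D.Jloc v) ⟨frecLoc D v Z₀, hw₀⟩ = 0 :=
        congrArg Subtype.val h1
      exact hne ((levH2π_eq_zero_iff _ _ _).1 h2)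
    have hb0 : invG ⟨_, hpc₀⟩ ≠ 0 := by
      intro h
      have h1 : (⟨_, hpc₀⟩ : ↥(pTors p (levH2 D.𝒯 D.C))) = 0 := hinvG (by rw [h, map_zero])
      have h2 : levH2π D.𝒯 D.C ⟨frecPi D Z₀, frecPi_mem_cocycles D hZ₀.1⟩ = 0 :=
        congrArg Subtype.val h1
      exact hne (frec_S D v hZ₀ ((levH2π_eq_zero_iff _ _ _).1 h2))
    obtain ⟨a, ha⟩ : ∃ a : ZMod p, invv ⟨_, hpw₀⟩ = a := ⟨_, rfl⟩
    obtain ⟨b, hb⟩ : ∃ b : ZMod p, invG ⟨_, hpc₀⟩ = b := ⟨_, rfl⟩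
    rw [ha] at ha0
    rw [hb] at hb0
    refine ⟨(AddMonoidHom.mulLeft (b * a⁻¹)).comp invv, ?_, ?_⟩
    · intro s t hst
      apply hinvv
      have : b * a⁻¹ * invv s = b * a⁻¹ * invv t := hst
      exact mul_left_cancel₀ (mul_ne_zero hb0 (inv_ne_zero ha0)) this
    · intro Z hZ w hw hpw c hc hpc
      obtain ⟨n, hn⟩ : ∃ n : ZMod p, invv ⟨_, hpw⟩ * a⁻¹ = n := ⟨_, rfl⟩
      have hna : invv ⟨_, hpw⟩ = n * a := by
        rw [← hn, mul_assoc, inv_mul_cancel₀ ha0, mul_one]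
      have hnval : ((n.val : ℕ) : ZMod p) = n := by
        rw [ZMod.natCast_val, ZMod.cast_id', id]
      -- `Z' = Z - n • Z₀`
      have hZ' := hZ.sub_nsmul hZ₀ n.val
      have hw' : ((w - n.val • ⟨frecLoc D v Z₀, hw₀⟩ : ↥(levCocycles₂ (D.𝒯loc v) (D.Jloc v))) :
          Gloc v × Gloc v → (D.Jloc v).V) = frecLoc D v (Z - n.val • Z₀) := by
        rw [frecLoc_sub_nsmul, ← hw]
        rfl
      have hc' : ((c - n.val • ⟨frecPi D Z₀, frecPi_mem_cocycles D hZ₀.1⟩ :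
          ↥(levCocycles₂ D.𝒯 D.C)) : G × G → D.C.V) = frecPi D (Z - n.val • Z₀) := by
        rw [frecPi_sub_nsmul, ← hc]
        rfl
      have h1 : levH2π (D.𝒯loc v) (D.Jloc v) (w - n.val • ⟨frecLoc D v Z₀, hw₀⟩) = 0 := by
        have h2 : (⟨_, hpw⟩ - n.val • ⟨_, hpw₀⟩ :
            ↥(pTors p (levH2 (D.𝒯loc v) (D.Jloc v)))) = 0 := by
          apply hinvv
          rw [map_sub, map_nsmul, map_zero, ha, hna, nsmul_eq_mul, hnval, sub_self]
        have h3 := congrArg Subtype.val h2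
        rw [map_sub, map_nsmul]
        exact h3
      have h4 : levH2π D.𝒯 D.C (c - n.val • ⟨frecPi D Z₀, frecPi_mem_cocycles D hZ₀.1⟩) = 0 := by
        rw [levH2π_eq_zero_iff, hc']
        apply frec_K D v hZ'
        rw [← hw', ← levH2π_eq_zero_iff]
        exact h1
      have h5 : (⟨_, hpc⟩ : ↥(pTors p (levH2 D.𝒯 D.C))) = n.val • ⟨_, hpc₀⟩ := by
        apply Subtype.ext
        rw [map_sub, map_nsmul, sub_eq_zero] at h4
        exact h4
      show b * a⁻¹ * invv ⟨_, hpw⟩ = invG ⟨_, hpc⟩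
      rw [h5, map_nsmul, hb, hna, nsmul_eq_mul, hnval]
      field_simp
  · push Not at hex
    refine ⟨invv, hinvv, ?_⟩
    intro Z hZ w hw hpw c hc hpc
    have hwcob : frecLoc D v Z ∈ levCoboundaries₂ (D.𝒯loc v) (D.Jloc v) := by
      apply hex Z hZ
      rw [← hw]
      exact w.2
    have h1 : (⟨_, hpw⟩ : ↥(pTors p (levH2 (D.𝒯loc v) (D.Jloc v)))) = 0 := by
      apply Subtype.ext
      show levH2π _ _ w = 0
      rw [levH2π_eq_zero_iff, hw]
      exact hwcob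
    have h2 : (⟨_, hpc⟩ : ↥(pTors p (levH2 D.𝒯 D.C))) = 0 := by
      apply Subtype.ext
      show levH2π _ _ c = 0
      rw [levH2π_eq_zero_iff, hc]
      exact frec_K D v hZ hwcob
    rw [h1, h2, map_zero, map_zero]

/-! ### Reciprocity -/

/-- the local component of the `v`-supported global cup product is the local cup product -/
lemma frecLoc_cup (D : PTDatum p G ι Gloc) {A B : Rep.{0} (ZMod p) G} (P : DualPair D.χ A B)
    (v : ι) (x : G → A.V) (y : G → B.V) :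
    frecLoc D v (cupCoc P (PTJ D) (frecZ D v) x y) =
      cupLoc D P v (resOne D v x) (resOne D v y) := by
  funext dd
  show ev D v ((P.β (x (D.r v dd.1)) (B.ρ (D.r v dd.1) (y (D.r v dd.2)))).val • frecZ D v) = _
  rw [map_nsmul, ev_apply, frecZ_same, map_one]
  rfl

/-- **F-rec**: the reciprocity law for the local cup products. -/
theorem stmtRec : StmtRec := by
  intro p _ G _ ι _ Gloc _ D
  classical
  obtain ⟨invG, hinvG⟩ := exists_inv (𝒯 := D.𝒯) (X := D.C) stmtH2pCyclic p D.C_discrete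
    (fun U _ hU => D.cm_glob U hU)
  choose lam hlam_inj hlam using fun v => frec_lam_exists D v invG hinvG
  refine ⟨lam, hlam_inj, ?_⟩
  intro A B P hA hB x y hx hy hlx hly w hw hp
  -- the `v`-supported cup products
  have hcup : ∀ v, cupCoc P (PTJ D) (frecZ D v) x y ∈ levCocycles₂ D.𝒯 (PTJ D) := fun v =>
    (stmtCupBasic p G D.𝒯 D.χ A B P (PTJ D) (frecZ D v) (frecZ_kummer D v) hA hB).1
      x y hx hy hlx hly
  have hcup_p : ∀ v gg, p • cupCoc P (PTJ D) (frecZ D v) x y gg = 0 := fun v gg =>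
    congrFun ((stmtCupBasic p G D.𝒯 D.χ A B P (PTJ D) (frecZ D v)
      (frecZ_kummer D v) hA hB).2.2.2.2.2 x y) gg
  have hsupp : ∀ v, FrecSupp D v (cupCoc P (PTJ D) (frecZ D v) x y) := fun v =>
    ⟨hcup v, hcup_p v, fun v' hv' g g' h => by
      show (_ • frecZ D v).1 v' h = 0
      rw [frecZ_nsmul_apply, frecZ_ne D v (Ne.symm hv'), smul_zero]⟩
  -- their classes in `C`
  let c : ∀ v, ↥(levCocycles₂ D.𝒯 D.C) := fun v =>
    ⟨frecPi D (cupCoc P (PTJ D) (frecZ D v) x y), frecPi_mem_cocycles D (hcup v)⟩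
  have hpc : ∀ v, levH2π D.𝒯 D.C (c v) ∈ pTors p (levH2 D.𝒯 D.C) := fun v =>
    frec_ptors_glob D (hcup_p v) (c v) rfl
  have hterm : ∀ v, lam v ⟨levH2π (D.𝒯loc v) (D.Jloc v) (w v), hp v⟩ =
      invG ⟨levH2π D.𝒯 D.C (c v), hpc v⟩ := fun v =>
    hlam v _ (hsupp v) (w v) ((hw v).trans (frecLoc_cup D P v x y).symm) (hp v) (c v) rfl (hpc v)
  rw [Finset.sum_congr rfl (fun v _ => hterm v), ← map_sum]
  have hsum : ∑ v, (⟨levH2π D.𝒯 D.C (c v), hpc v⟩ : ↥(pTors p (levH2 D.𝒯 D.C))) = 0 := by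
    apply Subtype.ext
    rw [AddSubmonoidClass.coe_finsetSum]
    show ∑ v, levH2π D.𝒯 D.C (c v) = 0
    rw [← map_sum]
    have : ∑ v, c v = 0 := by
      apply Subtype.ext
      rw [AddSubmonoidClass.coe_finsetSum]
      funext gg
      rw [Finset.sum_apply]
      show ∑ v, D.π.hom ((P.β (x gg.1) (B.ρ gg.1 (y gg.2))).val • frecZ D v) = 0
      rw [← map_sum, ← Finset.smul_sum, frecZ_sum, ← map_nsmul]
      exact (D.exact _).2 ⟨_, rfl⟩
    rw [this, map_zero]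
  rw [hsum, map_zero]

end Fermat.Agent.TW.F

end


end ZBPT_048_3
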