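/- GENERATED FILE (helper35, build-time optimisation, NOTES/ZB.md): verbatim concatenation of the modules
   Fermat.Agent.PT.G.DivInv
   Fermat.Agent.PT.G3.NormSub
   Fermat.Agent.PT.X.ExistCS
   Fermat.Agent.PT.G3.Cyc
   Do not edit; do not import together with these modules. -/
import Fermat.Agent.ZB.PT_008
import Fermat.Agent.ZB.PT_009
import Fermat.Agent.ZB.PT_058
import Fermat.Agent.ZB.PT_023
import Fermat.Agent.ZB.PT_003
import Fermat.Agent.ZB.PT_078

/-! ### bundled: `Fermat.Agent.PT.G.DivInv` -/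
section ZBPT_051_0
/-
Project PT — PT-G / D-div (helper56): for `L / K` Galois and unramified outside `S`, the
`Gal(L/K)`-invariant divisors of `L` off `S` come from `K`.
-/

set_option autoImplicit false

namespace Fermat.Agent.PT.G

open NumberField IsDedekindDomain Fermat.Agent.PT.G1 Fermat.Agent.PT.X

open scoped Pointwise

section DivInv

variable (S : Finset Nat.Primes) {K L : Type} [Field K] [Field L] [NumberField L]
  [Algebra K L]

/-- An element of `Gal(L/K)` as an element of `Aut(L)`. -/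
noncomputable def dinvAut (τ : L ≃ₐ[K] L) : L ≃ₐ[ℚ] L :=
  { (τ : L ≃+* L) with
    commutes' := fun r => by
      show τ (algebraMap ℚ L r) = algebraMap ℚ L r
      exact map_ratCast τ r }

@[simp] lemma dinvAut_apply (τ : L ≃ₐ[K] L) (x : L) : dinvAut τ x = τ x := rfl

lemma dinvAut_fixes (τ : L ≃ₐ[K] L) (x : K) :
    dinvAut τ (algebraMap K L x) = algebraMap K L x := τ.commutes x

lemma dinv_primeMap_asIdeal (τ : L ≃ₐ[K] L) (P : HeightOneSpectrum (𝓞 L)) :
    (primeMap (dinvAut τ) P).asIdeal = τ • P.asIdeal := by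
  ext x
  rw [mem_primeMap, Ideal.mem_pointwise_smul_iff_inv_smul_mem]
  have h : RingOfIntegers.mapRingEquiv (((dinvAut τ).symm : L ≃ₐ[ℚ] L) : L ≃+* L) x = τ⁻¹ • x := by
    apply RingOfIntegers.ext
    rfl
  rw [h]

variable [NumberField K] [IsGalois K L]

/-- `Gal(L/K)` is transitive on the primes of `L` over a prime of `K`. -/
lemma dinv_exists_primeMap_eq (P P' : HeightOneSpectrum (𝓞 L))
    (h : primeUnder K P = primeUnder K P') :
    ∃ τ : L ≃ₐ[K] L, primeMap (dinvAut τ) P = P' := by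
  haveI h1 : P.asIdeal.LiesOver (primeUnder K P).asIdeal := primeUnder_liesOver K P
  haveI h2 : P'.asIdeal.LiesOver (primeUnder K P).asIdeal := by
    rw [h]; exact primeUnder_liesOver K P'
  haveI := P.isPrime
  haveI := P'.isPrime
  obtain ⟨τ, hτ⟩ := Ideal.exists_smul_eq_of_isGaloisGroup (primeUnder K P).asIdeal
    P.asIdeal P'.asIdeal (L ≃ₐ[K] L)
  refine ⟨τ, HeightOneSpectrum.ext ?_⟩
  rw [dinv_primeMap_asIdeal, hτ]

/-- An invariant divisor is constant on the fibres of `offUnder`. -/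
lemma dinv_const (d : DivS S L)
    (hd : ∀ σ : L ≃ₐ[ℚ] L, (∀ x : K, σ (algebraMap K L x) = algebraMap K L x) →
      divEnd S σ d = d) (P P' : OffS S L) (h : offUnder S K P = offUnder S K P') :
    d P = d P' := by
  have h0 : primeUnder K P.1 = primeUnder K P'.1 := congrArg Subtype.val h
  obtain ⟨τ, hτ⟩ := dinv_exists_primeMap_eq (K := K) P.1 P'.1 h0
  have h1 : offEquiv S (dinvAut τ) P = P' := Subtype.ext hτ
  have h2 := divEnd_apply S (dinvAut τ) d P
  rw [hd (dinvAut τ) (dinvAut_fixes τ), h1] at h2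
  exact h2.symm

end DivInv

/-- **D-div.** -/
theorem stmtDivInv : StmtDivInv := by
  classical
  intro S K L _ _ _ _ _ _ hun d hd
  let f : OffS S K → ℤ := fun 𝔭 =>
    if h : ∃ P : OffS S L, offUnder S K P = 𝔭 then d h.choose else 0
  have hf : ∀ 𝔭, f 𝔭 ≠ 0 → 𝔭 ∈ d.support.image (offUnder S K) := by
    intro 𝔭 h𝔭
    by_cases h : ∃ P : OffS S L, offUnder S K P = 𝔭
    · have h1 : f 𝔭 = d h.choose := dif_pos h
      rw [h1] at h𝔭
      exact Finset.mem_image.2 ⟨h.choose, Finsupp.mem_support_iff.2 h𝔭, h.choose_spec⟩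
    · have h1 : f 𝔭 = 0 := dif_neg h
      exact absurd h1 h𝔭
  refine ⟨Finsupp.onFinset _ f hf, ?_⟩
  ext P
  rw [divMap_apply, hun P, Nat.cast_one, one_mul, Finsupp.onFinset_apply]
  have h : ∃ P' : OffS S L, offUnder S K P' = offUnder S K P := ⟨P, rfl⟩
  have h1 : f (offUnder S K P) = d h.choose := dif_pos h
  rw [h1]
  exact dinv_const S d hd _ _ h.choose_spec

end Fermat.Agent.PT.G


end ZBPT_051_0

/-! ### bundled: `Fermat.Agent.PT.G3.NormSub` -/
section ZBPT_051_1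
/-
Project PT — PT-G3 / normsub (helper56): the norm subgroup `NormSub S F M` of `C_S(F)`:
`galNorm` is additive, `[M : F] • c` is a norm, split primes are norms.
-/

set_option autoImplicit false

namespace Fermat.Agent.PT.G3

open NumberField IsDedekindDomain
open Fermat.Agent.PT Fermat.Agent.PT.G Fermat.Agent.PT.G1

section Norm

variable (S : Finset Nat.Primes) (F M : Type) [Field F] [NumberField F] [Field M] [NumberField M]
  [Algebra F M]

instance nsub_finite_relAut : Finite ↥(relAut F M) :=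
  Finite.of_injective (fun σ : ↥(relAut F M) => (σ : M ≃ₐ[ℚ] M)) Subtype.val_injective

lemma nsub_galNorm_eq_sum [Fintype ↥(relAut F M)] (c : CS S M) :
    galNorm S F M c = ∑ σ : ↥(relAut F M), csEnd S (σ : M ≃ₐ[ℚ] M) c :=
  finsum_eq_sum_of_fintype _

lemma nsub_galNorm_add (c d : CS S M) :
    galNorm S F M (c + d) = galNorm S F M c + galNorm S F M d := by
  classical
  letI : Fintype ↥(relAut F M) := Fintype.ofFinite _
  rw [nsub_galNorm_eq_sum, nsub_galNorm_eq_sum, nsub_galNorm_eq_sum, ← Finset.sum_add_distrib]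
  exact Finset.sum_congr rfl fun σ _ => map_add _ _ _

lemma nsub_galNorm_neg (c : CS S M) : galNorm S F M (-c) = -galNorm S F M c := by
  classical
  letI : Fintype ↥(relAut F M) := Fintype.ofFinite _
  rw [nsub_galNorm_eq_sum, nsub_galNorm_eq_sum, ← Finset.sum_neg_distrib]
  exact Finset.sum_congr rfl fun σ _ => map_neg _ _

/-- The norm of an invariant class. -/
lemma nsub_galNorm_of_inv (c : CS S M) (hc : ∀ σ ∈ relAut F M, csEnd S σ c = c) :
    galNorm S F M c = Nat.card ↥(relAut F M) • c := by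
  classical
  letI : Fintype ↥(relAut F M) := Fintype.ofFinite _
  rw [nsub_galNorm_eq_sum, Finset.sum_congr rfl fun σ _ => hc σ.1 σ.2, Finset.sum_const,
    Finset.card_univ, Nat.card_eq_fintype_card]

/-- `Gal(M/F)` inside `Aut(M)` versus `M ≃ₐ[F] M`. -/
noncomputable def nsubEquiv : ↥(relAut F M) ≃ (M ≃ₐ[F] M) where
  toFun σ := { ((σ : M ≃ₐ[ℚ] M) : M ≃+* M) with commutes' := σ.2 }
  invFun τ := ⟨dinvAut τ, dinvAut_fixes τ⟩
  left_inv σ := Subtype.ext (AlgEquiv.ext fun _ => rfl)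
  right_inv τ := AlgEquiv.ext fun _ => rfl

@[simp] lemma nsubEquiv_symm_coe (τ : M ≃ₐ[F] M) :
    (((nsubEquiv F M).symm τ : ↥(relAut F M)) : M ≃ₐ[ℚ] M) = dinvAut τ := rfl

lemma nsub_card_relAut [IsGalois F M] : Nat.card ↥(relAut F M) = Module.finrank F M := by
  rw [Nat.card_congr (nsubEquiv F M), IsGalois.card_aut_eq_finrank]

end Norm

section Split

open scoped Pointwise

variable (S : Finset Nat.Primes) {F M : Type} [Field F] [NumberField F] [Field M] [NumberField M]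
  [Algebra F M] [IsGalois F M]

lemma nsub_two_le_absNorm (v : HeightOneSpectrum (𝓞 F)) : 2 ≤ Ideal.absNorm v.asIdeal := by
  have h0 : Ideal.absNorm v.asIdeal ≠ 0 := by
    rw [Ne, Ideal.absNorm_eq_zero_iff]
    exact v.ne_bot
  have h1 : Ideal.absNorm v.asIdeal ≠ 1 := by
    rw [Ne, Ideal.absNorm_eq_one_iff]
    exact v.isPrime.ne_top
  omega

/-- The decomposition group of an unramified prime of degree one is trivial. -/
lemma nsub_stabilizer_card (w : HeightOneSpectrum (𝓞 M)) (he : ramIdx F w = 1)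
    (hf : Ideal.absNorm w.asIdeal = Ideal.absNorm (primeUnder F w).asIdeal) :
    Nat.card (MulAction.stabilizer (M ≃ₐ[F] M) w.asIdeal) = 1 := by
  haveI : w.asIdeal.IsPrime := w.isPrime
  haveI : (primeUnder F w).asIdeal.IsPrime := (primeUnder F w).isPrime
  haveI : w.asIdeal.LiesOver (primeUnder F w).asIdeal := primeUnder_liesOver F w
  have h1 := Ideal.card_stabilizer_eq (G := M ≃ₐ[F] M) (primeUnder F w).asIdeal w.asIdeal
  have h2 : (primeUnder F w).asIdeal.ramificationIdxIn (𝓞 M) = w.asIdeal.ramificationIdx (𝓞 F) :=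
    Ideal.ramificationIdxIn_eq_ramificationIdx (primeUnder F w).asIdeal w.asIdeal (M ≃ₐ[F] M)
  have h3 : (primeUnder F w).asIdeal.ramificationIdx' w.asIdeal =
      w.asIdeal.ramificationIdx (𝓞 F) :=
    Ideal.ramificationIdx'_eq_ramificationIdx (primeUnder F w).asIdeal w.asIdeal
      (primeUnder F w).ne_bot
  have h4 : (primeUnder F w).asIdeal.inertiaDegIn (𝓞 M) = w.asIdeal.inertiaDeg (𝓞 F) :=
    Ideal.inertiaDegIn_eq_inertiaDeg (primeUnder F w).asIdeal w.asIdeal (M ≃ₐ[F] M)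
  have h5 : (primeUnder F w).asIdeal.absNorm ^ w.asIdeal.inertiaDeg (𝓞 F) = w.asIdeal.absNorm :=
    Ideal.absNorm_pow_inertiaDeg (primeUnder F w).asIdeal w.asIdeal
  have h6 : w.asIdeal.inertiaDeg (𝓞 F) = 1 := by
    rw [hf] at h5
    exact Nat.pow_right_injective (nsub_two_le_absNorm (primeUnder F w))
      (h5.trans (pow_one _).symm)
  have h7 : w.asIdeal.ramificationIdx (𝓞 F) = 1 := by
    rw [← h3]; exact he
  rw [h1, h2, h4, h6, h7]

/-- The orbit map of an unramified prime of degree one is injective. -/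
lemma nsub_orbit_injective (w : HeightOneSpectrum (𝓞 M)) (he : ramIdx F w = 1)
    (hf : Ideal.absNorm w.asIdeal = Ideal.absNorm (primeUnder F w).asIdeal)
    (σ τ : M ≃ₐ[F] M) (h : primeMap (dinvAut σ) w = primeMap (dinvAut τ) w) : σ = τ := by
  have h1 : σ • w.asIdeal = τ • w.asIdeal := by
    rw [← dinv_primeMap_asIdeal, ← dinv_primeMap_asIdeal, h]
  have h2 : (τ⁻¹ * σ) • w.asIdeal = w.asIdeal := by
    rw [mul_smul, h1, inv_smul_smul]
  have h3 : τ⁻¹ * σ ∈ MulAction.stabilizer (M ≃ₐ[F] M) w.asIdeal :=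
    MulAction.mem_stabilizer_iff.2 h2
  have h4 : MulAction.stabilizer (M ≃ₐ[F] M) w.asIdeal = ⊥ :=
    Subgroup.card_eq_one.1 (nsub_stabilizer_card w he hf)
  rw [h4, Subgroup.mem_bot] at h3
  exact (inv_mul_eq_one.1 h3).symm

lemma nsub_divEnd_single (σ : M ≃ₐ[ℚ] M) (w : OffS S M) :
    divEnd S σ (Finsupp.single w 1) = Finsupp.single (offEquiv S σ w) 1 := by
  simp [divEnd]

lemma nsub_offUnder_relAut (σ : ↥(relAut F M)) (w : OffS S M) :
    offUnder S F (offEquiv S (σ : M ≃ₐ[ℚ] M) w) = offUnder S F w := by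
  have h : Restricts (σ : M ≃ₐ[ℚ] M) (1 : F ≃ₐ[ℚ] F) := fun x => σ.2 x
  rw [offUnder_offEquiv S h, offEquiv_one]
  rfl

/-- **A split prime is the norm of a prime above it** (divisor form, any Galois extension). -/
lemma nsub_divMap_single [Fintype ↥(relAut F M)] (hun : UnramOffRel S F M) (v : OffS S F)
    (w : OffS S M) (hwv : offUnder S F w = v)
    (hf : Ideal.absNorm w.1.asIdeal = Ideal.absNorm v.1.asIdeal) :
    divMap S F M (Finsupp.single v 1) =
      ∑ σ : ↥(relAut F M), divEnd S (σ : M ≃ₐ[ℚ] M) (Finsupp.single w 1) := by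
  classical
  have hf' : Ideal.absNorm w.1.asIdeal = Ideal.absNorm (primeUnder F w.1).asIdeal := by
    rw [hf, ← hwv]; rfl
  ext P
  rw [divMap_apply, hun P, Nat.cast_one, one_mul, Finsupp.finsetSum_apply]
  simp only [nsub_divEnd_single, Finsupp.single_apply]
  by_cases hP : offUnder S F P = v
  · have h0 : primeUnder F w.1 = primeUnder F P.1 :=
      congrArg Subtype.val (hwv.trans hP.symm)
    obtain ⟨τ, hτ⟩ := dinv_exists_primeMap_eq (K := F) w.1 P.1 h0
    have key : ∀ σ : ↥(relAut F M),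
        offEquiv S (σ : M ≃ₐ[ℚ] M) w = P ↔ σ = (nsubEquiv F M).symm τ := by
      intro σ
      constructor
      · intro h
        have h1 : primeMap (dinvAut (nsubEquiv F M σ)) w.1 = primeMap (dinvAut τ) w.1 := by
          rw [hτ]
          exact congrArg Subtype.val h
        have h2 := nsub_orbit_injective w.1 (hun w) hf' _ _ h1
        rw [← h2, Equiv.symm_apply_apply]
      · rintro rfl
        exact Subtype.ext hτ
    rw [if_pos hP.symm]
    simp only [key]
    rw [Finset.sum_ite_eq' Finset.univ ((nsubEquiv F M).symm τ) (fun _ => (1 : ℤ)),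
      if_pos (Finset.mem_univ _)]
  · rw [if_neg (fun h => hP h.symm)]
    symm
    apply Finset.sum_eq_zero
    intro σ _
    rw [if_neg]
    intro h
    apply hP
    rw [← h, nsub_offUnder_relAut, hwv]

lemma nsub_csEnd_csOfDiv (σ : M ≃ₐ[ℚ] M) (d : DivS S M) :
    csEnd S σ (csOfDiv S M d) = csOfDiv S M (divEnd S σ d) := by
  rw [csOfDiv_apply, csEnd_mk, csOfDiv_apply]
  congr 1
  apply Prod.ext
  · exact map_zero (jlEnd S σ)
  · rfl

end Split

/-- **G3-normsub**, additivity of the norm. -/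
theorem stmtGalNormAdd : StmtGalNormAdd := by
  intro S F M _ _ _ _ _ c d
  exact ⟨nsub_galNorm_add S F M c d, nsub_galNorm_neg S F M c⟩

/-- **G3-normJ.** -/
theorem stmtNormSubJ : StmtNormSubJ := by
  intro S F M _ _ _ _ _ _ c
  refine ⟨csMap S F M c, ?_⟩
  rw [nsub_galNorm_of_inv S F M _ (fun σ hσ => csEnd_csMap_of_fixes S hσ c), nsub_card_relAut,
    map_nsmul]

/-- **G3-normsplit.** -/
theorem stmtNormSubSplit : StmtNormSubSplit := by
  classical
  intro S F M _ _ _ _ _ _ hun v hw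
  obtain ⟨w, hw1, hw2⟩ := hw
  letI : Fintype ↥(relAut F M) := Fintype.ofFinite _
  have hu : primeUnder F w = v.1 := HeightOneSpectrum.ext hw1
  have hN : ((sProd S : ℕ) : 𝓞 M) ∉ w.asIdeal := by
    intro h
    apply v.2
    rw [← hu]
    exact (natCast_mem_primeUnder_iff F M w _).2 h
  have hwv : offUnder S F (⟨w, hN⟩ : OffS S M) = v := Subtype.ext hu
  refine ⟨csOfDiv S M (Finsupp.single (⟨w, hN⟩ : OffS S M) 1), ?_⟩
  rw [csMap_csOfDiv, nsub_galNorm_eq_sum, nsub_divMap_single S hun v ⟨w, hN⟩ hwv hw2, map_sum]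
  exact Finset.sum_congr rfl fun σ _ => (nsub_csEnd_csOfDiv S _ _).symm

end Fermat.Agent.PT.G3


end ZBPT_051_1

/-! ### bundled: `Fermat.Agent.PT.X.ExistCS` -/
section ZBPT_051_2
/-
Project PT — PT-X / X-FIN (helper56): the existence theorem mod `p` in the shape consumed by PT-B
(`B.StmtExistCS`): above every tower field there are tower fields `L₁ ≤ L'` with
`N_{L'/L₁} C_S(L') ⊆ p · C_S(L₁)`.
-/

set_option autoImplicit false

namespace Fermat.Agent.PT.X

open NumberField IsDedekindDomain IntermediateField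
open Fermat.Agent.PT.G Fermat.Agent.PT.G1 Fermat.Agent.PT Fermat.Agent.PT.B Fermat.Agent.PT.G3
open ExtCitation

/-- `K(W^{1/p}) ⊂ ℚ̄` as a subfield of `ℚ̄`. -/
noncomputable abbrev xfinKum (p : ℕ) (K : QbarField) (W : Subgroup (↥K)ˣ) : QbarField :=
  (kumField p W (AlgebraicClosure ℚ)).restrictScalars ℚ

/-- Above every tower field there is a tower field containing `μ_p`. -/
lemma xfin_exists_L1 (p : ℕ) [Fact p.Prime] (S : Finset Nat.Primes) (hpS : pPrime p ∈ S)
    (L : QbarField) (hL : IsTowerField S L) :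
    ∃ L₁ : QbarField, IsTowerField S L₁ ∧ L ≤ L₁ ∧ ∃ ζ : ↥L₁, IsPrimitiveRoot ζ p := by
  haveI : NeZero p := ⟨(Fact.out : p.Prime).ne_zero⟩
  obtain ⟨ζ, hζ⟩ := cycloField_exists_primitiveRoot p
  have hζm : ζ ∈ cycloField p := IntermediateField.subset_adjoin ℚ _ hζ.pow_eq_one
  refine ⟨L ⊔ cycloField p, isTowerField_sup hL (cycloField_isTowerField p S hpS), le_sup_left,
    ⟨ζ, (le_sup_right : cycloField p ≤ L ⊔ cycloField p) hζm⟩, ?_⟩
  exact IsPrimitiveRoot.of_map_of_injective (f := (L ⊔ cycloField p).val) hζ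
    Subtype.val_injective

/-- The norm `Σ_{τ ∈ Gal(M/F)} τ c` is `Gal(M/F)`-invariant. -/
lemma xfin_galNorm_inv (S : Finset Nat.Primes) (F M : Type) [Field F] [NumberField F] [Field M]
    [NumberField M] [Algebra F M] (c : CS S M) (σ : M ≃ₐ[ℚ] M)
    (hσ : ∀ x : F, σ (algebraMap F M x) = algebraMap F M x) :
    csEnd S σ (galNorm S F M c) = galNorm S F M c := by
  classical
  letI : Fintype ↥(relAut F M) := Fintype.ofFinite _
  rw [nsub_galNorm_eq_sum, map_sum]
  refine Fintype.sum_equiv (Equiv.mulLeft (⟨σ, hσ⟩ : ↥(relAut F M))) _ _ (fun τ => ?_)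
  have h := map_mul (csRho S M) σ (τ : M ≃ₐ[ℚ] M)
  exact (LinearMap.congr_fun h c).symm

/-- **X-FIN**: the existence theorem mod `p` in the tower. -/
theorem stmtExistCS_of (hTL : StmtExistTL) (hKT : StmtKummerTower) (hGA : B.StmtGA)
    (hRam : B.StmtRamRel) (hDesc : G.StmtCSDescent) (hKU : StmtKummerUnram) : B.StmtExistCS := by
  intro p _ hp2 S hpS L hL
  have hp0 : p ≠ 0 := (Fact.out : p.Prime).ne_zero
  obtain ⟨L₁, hL₁, hLL₁, ζ, hζ⟩ := xfin_exists_L1 p S hpS L hL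
  haveI hNF₁ : NumberField ↥L₁ := numberField_of_isTowerField hL₁
  have hq : ∃ q ∈ S, (q : ℕ) = p := ⟨pPrime p, hpS, rfl⟩
  have hV : IsTowerField S (xfinKum p L₁ (selV p S ↥L₁)) :=
    hKT p S hq L₁ hL₁ ζ hζ (selV p S ↥L₁) le_rfl
      (fun σ a ha => xfin_selV_stable p S ↥L₁ σ a ha) (xfin_selV_relIndex p S ↥L₁ hp0)
  have hVloc : IsTowerField S (xfinKum p L₁ (selVloc p S ↥L₁)) :=
    hKT p S hq L₁ hL₁ ζ hζ (selVloc p S ↥L₁) (selVloc_le p S ↥L₁)
      (fun σ a ha => xfin_selVloc_stable p S ↥L₁ σ a ha) (xfin_selVloc_relIndex p S ↥L₁ hp0)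
  refine ⟨L₁, xfinKum p L₁ (selV p S ↥L₁), hL₁, hV, hLL₁, kte_le p L₁ _, ?_⟩
  haveI hNF' : NumberField ↥(xfinKum p L₁ (selV p S ↥L₁)) := numberField_of_isTowerField hV
  haveI hNF'' : NumberField ↥(xfinKum p L₁ (selVloc p S ↥L₁)) :=
    numberField_of_isTowerField hVloc
  letI alg' : Algebra ↥L₁ ↥(xfinKum p L₁ (selV p S ↥L₁)) :=
    algebraOfLe (kte_le p L₁ (selV p S ↥L₁))
  letI alg'' : Algebra ↥L₁ ↥(xfinKum p L₁ (selVloc p S ↥L₁)) :=
    algebraOfLe (kte_le p L₁ (selVloc p S ↥L₁))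
  have hK' : IsKummerExt p (selV p S ↥L₁) ↥(xfinKum p L₁ (selV p S ↥L₁)) :=
    kte_isKummerExt p L₁ (selV p S ↥L₁) hp0
  have hK'' : IsKummerExt p (selVloc p S ↥L₁) ↥(xfinKum p L₁ (selVloc p S ↥L₁)) :=
    kte_isKummerExt p L₁ (selVloc p S ↥L₁) hp0
  haveI hG' : IsGalois ↥L₁ ↥(xfinKum p L₁ (selV p S ↥L₁)) := hK'.isGalois hp0 hζ
  haveI hG'' : IsGalois ↥L₁ ↥(xfinKum p L₁ (selVloc p S ↥L₁)) := hK''.isGalois hp0 hζ
  haveI hGQ' : IsGalois ℚ ↥(xfinKum p L₁ (selV p S ↥L₁)) := hV.2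
  haveI hGQ'' : IsGalois ℚ ↥(xfinKum p L₁ (selVloc p S ↥L₁)) := hVloc.2
  have hu' := hGA p hp2 S hpS ↥(xfinKum p L₁ (selV p S ↥L₁)) (hRam S _ hV.1)
  have hu'' := hGA p hp2 S hpS ↥(xfinKum p L₁ (selVloc p S ↥L₁)) (hRam S _ hVloc.1)
  have hmain := hTL p hp2 S hq ↥L₁ ↥(xfinKum p L₁ (selV p S ↥L₁))
    ↥(xfinKum p L₁ (selVloc p S ↥L₁)) ζ hζ hK' hK'' hu' hu''
  have hun : UnramOffRel S ↥L₁ ↥(xfinKum p L₁ (selV p S ↥L₁)) :=
    hKU p S hq ↥L₁ ↥(xfinKum p L₁ (selV p S ↥L₁)) ζ hζ (selV p S ↥L₁) le_rfl hK'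
  intro c
  obtain ⟨c₀, hc₀⟩ := hDesc S ↥L₁ ↥(xfinKum p L₁ (selV p S ↥L₁)) ⟨pPrime p, hpS⟩ hun
    (galNorm S ↥L₁ ↥(xfinKum p L₁ (selV p S ↥L₁)) c)
    (fun σ hσ => xfin_galNorm_inv S ↥L₁ ↥(xfinKum p L₁ (selV p S ↥L₁)) c σ hσ)
  obtain ⟨c₁, hc₁⟩ := hmain c₀ ⟨c, hc₀⟩
  exact ⟨c₁, by rw [← hc₁, hc₀]⟩

end Fermat.Agent.PT.X


end ZBPT_051_2

/-! ### bundled: `Fermat.Agent.PT.G3.Cyc` -/
section ZBPT_051_3
/-
PT-G3, piece `cyc` (helper75): assembly of `CycData` from the sub-pieces of CycPlan.lean.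
-/

set_option autoImplicit false

namespace Fermat.Agent.PT.G3

open NumberField IsDedekindDomain
open Fermat.Agent.PT Fermat.Agent.PT.G Fermat.Agent.PT.G1

section

variable (p n : ℕ) [hp : Fact p.Prime] (L : Type) [Field L] [NumberField L]

/-- `N / ℚ` is Galois (`R` normal, `N' / ℚ` Galois). -/
theorem cycFinal_galQ [IsGalois ℚ (CycTop p n L)] (hR : (cycR p n L).Normal) :
    IsGalois ℚ (CycN p n L) := by
  have h := IsGalois.of_fixedField_normal_subgroup (cycR p n L)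
  convert h
  exact Subsingleton.elim _ _

end

/-- **G3-cyc**, assembly. -/
theorem stmtCyc_of (hG : StmtCycGalois) (hχ : StmtCycChiSurj) (hlam : StmtCycLambda)
    (hN : StmtCycRNormal) (hU : StmtCycUnramTop) (hE : StmtCycExt) (hθ : StmtCycTheta)
    (hC : StmtCycCard) (hE' : StmtCycEPrime) (htower : StmtUnramTower) : StmtCyc := by
  intro p n hp S hp2 hpS L _ _ _ hunr
  have hGal : IsGalois ℚ (CycTop p n L) := hG p n L
  have hR : (cycR p n L).Normal := hN p n L
  have hgalQ : IsGalois ℚ (CycN p n L) := cycFinal_galQ p n L hR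
  have hgalL : IsGalois L (CycN p n L) := IsGalois.tower_top_of_isGalois ℚ L (CycN p n L)
  obtain ⟨lam, hlsurj, hlker⟩ := hlam p n hp2
  obtain ⟨θ, hθspec⟩ := hθ p n L lam (fun u hu => (hlker u).mpr hu)
  obtain ⟨E', fE', nfE', algE', hcop, ζ, hζ⟩ := hE' p n L lam hlker θ hθspec
  obtain ⟨hcard, k, hk⟩ := hC p n hp2 L
  obtain ⟨-, hres, -⟩ := hE p n L
  refine ⟨{ N := CycN p n L
            galQ := hgalQ
            galL := hgalL
            unram := (htower S ℚ (CycN p n L) (CycTop p n L) (hU p n S hpS L hunr)).2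
            pgroup := ?_
            card_le := hcard.le
            θ := θ
            θ_surj := ?_
            E' := E'
            coprime := hcop
            ζ := ζ
            hζ := hζ }⟩
  · refine IsPGroup.of_card (n := k) ?_
    rw [nsub_card_relAut, hk]
  · intro y
    obtain ⟨u, hu⟩ := hlsurj y
    obtain ⟨σ', hσ'⟩ := hχ p n L u
    obtain ⟨σ, hσ⟩ := hres σ'
    exact ⟨σ, by rw [hθspec σ' σ hσ, hσ', hu]⟩

end Fermat.Agent.PT.G3


end ZBPT_051_3
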