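/- GENERATED FILE (helper35, build-time optimisation, NOTES/ZB.md): verbatim concatenation of the modules
   Fermat.Agent.PT.G.SemiInv
   Fermat.Agent.PT.G.MapInj
   Fermat.Agent.PT.X.ExistTLFinal
   Fermat.Agent.PT.G3.SymbolCSMap
   Fermat.Agent.PT.G3.GBInfJ
   Fermat.Agent.PT.G3.GBSDGal
   Do not edit; do not import together with these modules. -/
import Fermat.Agent.ZB.PT_008
import Fermat.Agent.ZB.PT_007
import Fermat.Agent.ZB.PT_031
import Fermat.Agent.ZB.PT_023
import Fermat.Agent.ZB.PT_077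
import Fermat.Agent.ZB.PT_051
import Fermat.Agent.ZB.PT_049
import Fermat.Agent.ZB.PT_078
import Fermat.Agent.ZB.PT_082
import Fermat.Agent.ZB.PT_022
import Fermat.Agent.ZB.PT_066

/-! ### bundled: `Fermat.Agent.PT.G.SemiInv` -/
section ZBPT_050_0
/-
Project PT — PT-G / D-semi (helper59): for `L / K` Galois, the invariants of `Gal(L/K)` in
`(ℚ_q ⊗ L)ˣ` are the image of `(ℚ_q ⊗ K)ˣ`.

Generic part (`semiInv_mem_range`): for vector spaces over a field `F` and a set `G` of
endomorphisms of `L` whose common fixed points are the image of `ι : K → L`, the elements of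
`A ⊗ L` fixed by all `1 ⊗ σ` are the image of `A ⊗ K` (coordinates w.r.t. a basis of `A`).
-/

set_option autoImplicit false

namespace Fermat.Agent.PT.G

open NumberField Fermat.Agent.PT.G1 TensorProduct

section Generic

variable {F A K L : Type*} [Field F] [AddCommGroup A] [Module F A] [AddCommGroup K] [Module F K]
  [AddCommGroup L] [Module F L]

/-- The coordinates w.r.t. a basis of the left factor are natural in the right factor. -/
lemma semiInv_coord_nat {ι : Type*} [DecidableEq ι] (ℬ : Module.Basis ι F A) (f : K →ₗ[F] L)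
    (x : A ⊗[F] K) (i : ι) :
    TensorProduct.equivFinsuppOfBasisLeft ℬ (f.lTensor A x) i =
      f (TensorProduct.equivFinsuppOfBasisLeft ℬ x i) := by
  induction x using TensorProduct.induction_on with
  | zero => simp
  | tmul m n =>
    rw [LinearMap.lTensor_tmul, TensorProduct.equivFinsuppOfBasisLeft_apply_tmul_apply,
      TensorProduct.equivFinsuppOfBasisLeft_apply_tmul_apply, map_smul]
  | add x y hx hy =>
    rw [map_add, map_add, Finsupp.add_apply, hx, hy, map_add, Finsupp.add_apply, map_add]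

/-- `A ⊗ K → A ⊗ L` is injective if `K → L` is. -/
lemma semiInv_lTensor_injective (f : K →ₗ[F] L) (hf : Function.Injective f) :
    Function.Injective (f.lTensor A) := by
  classical
  intro x y hxy
  apply (TensorProduct.equivFinsuppOfBasisLeft (Module.Basis.ofVectorSpace F A)).injective
  ext i
  apply hf
  rw [← semiInv_coord_nat, ← semiInv_coord_nat, hxy]

/-- The invariants of `A ⊗ L` under a set `G` of endomorphisms of `L` with fixed points `ι(K)`
are `A ⊗ K`. -/
theorem semiInv_mem_range (ι : K →ₗ[F] L) (G : Set (L →ₗ[F] L))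
    (hfix : ∀ l : L, (∀ σ ∈ G, σ l = l) → l ∈ LinearMap.range ι)
    (a : A ⊗[F] L) (ha : ∀ σ ∈ G, LinearMap.lTensor A σ a = a) :
    a ∈ LinearMap.range (ι.lTensor A) := by
  classical
  set ℬ := Module.Basis.ofVectorSpace F A with hℬ
  set c := TensorProduct.equivFinsuppOfBasisLeft ℬ a with hc
  have hci : ∀ i, c i ∈ LinearMap.range ι := by
    intro i
    apply hfix
    intro σ hσ
    rw [hc, ← semiInv_coord_nat, ha σ hσ]
  choose k hk using hci
  refine ⟨∑ i ∈ c.support, ℬ i ⊗ₜ[F] k i, ?_⟩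
  rw [map_sum]
  have h1 : ∀ i ∈ c.support, (ι.lTensor A) (ℬ i ⊗ₜ[F] k i) = ℬ i ⊗ₜ[F] c i := by
    intro i _
    rw [LinearMap.lTensor_tmul, hk]
  rw [Finset.sum_congr rfl h1]
  have h2 := TensorProduct.equivFinsuppOfBasisLeft_symm_apply ℬ c
  rw [hc, LinearEquiv.symm_apply_apply] at h2
  rw [h2]
  rfl

end Generic

section Semi

variable (q : ℕ) [Fact q.Prime] (K L : Type) [Field K] [NumberField K] [Field L] [NumberField L]
  [Algebra K L]

lemma semiMap_eq_lTensor (σ : L ≃ₐ[ℚ] L) (x : semiAlg q L) :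
    semiMap q σ x = LinearMap.lTensor ℚ_[q] (σ.toLinearMap) x := by
  induction x using TensorProduct.induction_on with
  | zero => simp
  | tmul m n => simp [semiMap]
  | add x y hx hy => rw [map_add, map_add, hx, hy]

lemma semiIncl_eq_lTensor (x : semiAlg q K) :
    semiIncl K L q x = LinearMap.lTensor ℚ_[q] (ratIncl K L).toLinearMap x := by
  induction x using TensorProduct.induction_on with
  | zero => simp
  | tmul m n => simp [semiIncl]
  | add x y hx hy => rw [map_add, map_add, hx, hy]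

lemma semiIncl_injective : Function.Injective (semiIncl K L q) := by
  intro x y hxy
  rw [semiIncl_eq_lTensor, semiIncl_eq_lTensor] at hxy
  exact semiInv_lTensor_injective (ratIncl K L).toLinearMap
    (algebraMap K L).injective hxy

/-- The invariants of `Gal(L/K)` in `ℚ_q ⊗ L` are the image of `ℚ_q ⊗ K`. -/
theorem semiInv_exists [IsGalois K L] (a : semiAlg q L)
    (ha : ∀ σ : L ≃ₐ[ℚ] L, (∀ x : K, σ (algebraMap K L x) = algebraMap K L x) →
      semiMap q σ a = a) :
    ∃ b : semiAlg q K, semiIncl K L q b = a := by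
  have h := semiInv_mem_range (A := ℚ_[q]) (ratIncl K L).toLinearMap
    {φ | ∃ σ : L ≃ₐ[ℚ] L, (∀ x : K, σ (algebraMap K L x) = algebraMap K L x) ∧
      φ = σ.toLinearMap} ?_ a ?_
  · obtain ⟨b, hb⟩ := h
    exact ⟨b, by rw [semiIncl_eq_lTensor]; exact hb⟩
  · intro l hl
    have h1 : l ∈ Set.range (algebraMap K L) := by
      rw [InfiniteGalois.mem_range_algebraMap_iff_fixed]
      intro τ
      have h2 := hl (τ.restrictScalars ℚ).toLinearMap
        ⟨τ.restrictScalars ℚ, fun x => τ.commutes x, rfl⟩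
      exact h2
    obtain ⟨x, hx⟩ := h1
    exact ⟨x, hx⟩
  · rintro φ ⟨σ, hσ, rfl⟩
    rw [← semiMap_eq_lTensor]
    exact ha σ hσ

end Semi

/-- **D-semi**. -/
theorem stmtSemiInv : StmtSemiInv := by
  intro q _ K L _ _ _ _ _ _ a ha
  obtain ⟨b, hb⟩ := semiInv_exists q K L (a : semiAlg q L) ha
  have ha' : ∀ σ : L ≃ₐ[ℚ] L, (∀ x : K, σ (algebraMap K L x) = algebraMap K L x) →
      semiMap q σ ((a⁻¹ : (semiAlg q L)ˣ) : semiAlg q L) = ((a⁻¹ : (semiAlg q L)ˣ) : semiAlg q L) := by
    intro σ hσ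
    have h1 : Units.map (semiMap q σ : semiAlg q L →* semiAlg q L) a = a :=
      Units.ext (ha σ hσ)
    have h2 : Units.map (semiMap q σ : semiAlg q L →* semiAlg q L) a⁻¹ = a⁻¹ := by
      rw [map_inv, h1]
    exact congrArg Units.val h2
  obtain ⟨b', hb'⟩ := semiInv_exists q K L ((a⁻¹ : (semiAlg q L)ˣ) : semiAlg q L) ha'
  have h1 : b * b' = 1 := by
    apply semiIncl_injective q K L
    rw [map_mul, hb, hb', map_one, Units.mul_inv]
  have h2 : b' * b = 1 := by rw [mul_comm, h1]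
  exact ⟨⟨b, b', h1, h2⟩, hb⟩

end Fermat.Agent.PT.G


end ZBPT_050_0

/-! ### bundled: `Fermat.Agent.PT.G.MapInj` -/
section ZBPT_050_1
/-
Project PT — PT-G / D-inj (helper59): `csMap S K L : C_S(K) → C_S(L)` is injective for `S ≠ ∅`.

If `(j, d) ∈ J_K × Div_S(K)` becomes `(diag a, div a)` in `J_L × Div_S(L)` with `a ∈ Lˣ`, then at a
place `q ∈ S` the element `1 ⊗ a` lies in the image of `ℚ_q ⊗ K`, hence `a ∈ K` (coordinates
w.r.t. a `ℚ`-basis of `ℚ_q`); `J_K → J_L` and `Div_S(K) → Div_S(L)` are injective.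
-/

set_option autoImplicit false

namespace Fermat.Agent.PT.G

open NumberField IsDedekindDomain Fermat.Agent.PT.G1 Fermat.Agent.PT.X TensorProduct

section Generic

variable {F A K L : Type*} [Field F] [AddCommGroup A] [Module F A] [AddCommGroup K] [Module F K]
  [AddCommGroup L] [Module F L]

/-- If `e ⊗ a` (`e ≠ 0`) lies in the image of `A ⊗ K → A ⊗ L`, then `a` lies in the image of
`K → L`. -/
lemma mapInj_mem_range_of_tmul (ι : K →ₗ[F] L) (e : A) (he : e ≠ 0) (a : L) (b : A ⊗[F] K)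
    (hb : ι.lTensor A b = e ⊗ₜ[F] a) : a ∈ LinearMap.range ι := by
  classical
  set ℬ := Module.Basis.ofVectorSpace F A with hℬ
  obtain ⟨i, hi⟩ : ∃ i, ℬ.repr e i ≠ 0 := by
    by_contra h
    rw [not_exists] at h
    have h : ∀ i, ℬ.repr e i = 0 := fun i => not_not.1 (h i)
    apply he
    apply ℬ.repr.injective
    ext i
    rw [h i, map_zero]
    rfl
  have h1 := semiInv_coord_nat ℬ ι b i
  rw [hb, TensorProduct.equivFinsuppOfBasisLeft_apply_tmul_apply] at h1
  refine ⟨(ℬ.repr e i)⁻¹ • (TensorProduct.equivFinsuppOfBasisLeft ℬ b i), ?_⟩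
  rw [map_smul, ← h1, smul_smul, inv_mul_cancel₀ hi, one_smul]

end Generic

section Main

variable (S : Finset Nat.Primes) (K L : Type) [Field K] [NumberField K] [Field L] [NumberField L]
  [Algebra K L]

/-- If `1 ⊗ a ∈ ℚ_q ⊗ L` comes from `ℚ_q ⊗ K`, then `a ∈ K`. -/
lemma mapInj_mem_range (q : ℕ) [Fact q.Prime] (a : L) (b : semiAlg q K)
    (hb : semiIncl K L q b = (1 : ℚ_[q]) ⊗ₜ[ℚ] a) : a ∈ Set.range (algebraMap K L) := by
  rw [semiIncl_eq_lTensor] at hb
  obtain ⟨x, hx⟩ := mapInj_mem_range_of_tmul (ratIncl K L).toLinearMap (1 : ℚ_[q]) one_ne_zero a b hb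
  exact ⟨x, hx⟩

lemma mapInj_jlMap_injective : Function.Injective (jlMap S K L) := by
  intro x y hxy
  funext q
  apply Units.ext
  apply semiIncl_injective ((q : Nat.Primes) : ℕ) K L
  have h := congrArg (fun z : JL S L => ((z q : (semiAlg ((q : Nat.Primes) : ℕ) L)ˣ) :
    semiAlg ((q : Nat.Primes) : ℕ) L)) hxy
  exact h

variable {L} in
/-- Every prime of `K` off `S` lies under a prime of `L` off `S`. -/
lemma mapInj_exists_offUnder (𝔭 : OffS S K) : ∃ P : OffS S L, offUnder S K P = 𝔭 := by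
  have : 𝔭.1.asIdeal.IsMaximal := 𝔭.1.isMaximal
  obtain ⟨Q, hQmax, hQ⟩ := Ideal.exists_maximal_ideal_liesOver_of_isIntegral (S := 𝓞 L) 𝔭.1.asIdeal
  have hQ' : Q.under (𝓞 K) = 𝔭.1.asIdeal := ((Ideal.liesOver_iff _ _).1 hQ).symm
  have hQne : Q ≠ ⊥ := by
    rintro rfl
    apply 𝔭.1.ne_bot
    rw [← hQ', eq_bot_iff]
    intro x hx
    have h1 : algebraMap (𝓞 K) (𝓞 L) x = 0 := hx
    have h2 := (FaithfulSMul.algebraMap_injective (𝓞 K) (𝓞 L)) (h1.trans (map_zero _).symm)
    exact h2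
  have hP : primeUnder K (⟨Q, hQmax.isPrime, hQne⟩ : HeightOneSpectrum (𝓞 L)) = 𝔭.1 :=
    HeightOneSpectrum.ext hQ'
  refine ⟨⟨⟨Q, hQmax.isPrime, hQne⟩, ?_⟩, Subtype.ext hP⟩
  intro h
  apply 𝔭.2
  rw [← hP]
  exact (natCast_mem_primeUnder_iff K L _ _).2 h

lemma mapInj_divMap_injective : Function.Injective (divMap S K L) := by
  intro d d' h
  ext 𝔭
  obtain ⟨P, rfl⟩ := mapInj_exists_offUnder S K (L := L) 𝔭
  have h1 := DFunLike.congr_fun h P
  rw [divMap_apply, divMap_apply] at h1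
  exact mul_left_cancel₀ (Nat.cast_ne_zero.2 (ramIdx_ne_zero K P.1)) h1

lemma mapInj_jdMap_injective : Function.Injective (jdMap S K L) := by
  intro y y' h
  apply Prod.ext
  · have h1 : jlMapLin S K L y.1 = jlMapLin S K L y'.1 := congrArg Prod.fst h
    have h2 := mapInj_jlMap_injective S K L (congrArg Additive.toMul h1)
    exact congrArg Additive.ofMul h2
  · exact mapInj_divMap_injective S K L (congrArg Prod.snd h)

/-- The elements of `J_K × Div_S(K)` that become principal in `L` are principal (`S ≠ ∅`). -/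
theorem mapInj_principal (hS : S.Nonempty) (y : Additive (JL S K) × DivS S K)
    (hy : csMk S L (jdMap S K L y) = 0) : csMk S K y = 0 := by
  rw [csMk_eq_zero_iff] at hy
  obtain ⟨a, ha⟩ := hy
  obtain ⟨q⟩ : Nonempty ↥S := hS.to_subtype
  -- the `q`-component
  have h1 : jlMap S K L (Additive.toMul y.1) = jlDiag S L a :=
    congrArg Additive.toMul (congrArg Prod.fst ha)
  have h2 : semiIncl K L ((q : Nat.Primes) : ℕ)
      ((Additive.toMul y.1 q : (semiAlg ((q : Nat.Primes) : ℕ) K)ˣ) :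
        semiAlg ((q : Nat.Primes) : ℕ) K) =
      (1 : ℚ_[((q : Nat.Primes) : ℕ)]) ⊗ₜ[ℚ] (a : L) :=
    congrArg (fun z : JL S L => ((z q : (semiAlg ((q : Nat.Primes) : ℕ) L)ˣ) :
      semiAlg ((q : Nat.Primes) : ℕ) L)) h1
  obtain ⟨a₀, ha₀⟩ := mapInj_mem_range K L _ (a : L) _ h2
  have ha₀ne : a₀ ≠ 0 := by
    rintro rfl
    rw [map_zero] at ha₀
    exact a.ne_zero ha₀.symm
  have hu : Units.map (algebraMap K L : K →* L) (Units.mk0 a₀ ha₀ne) = a := Units.ext ha₀
  rw [csMk_eq_zero_iff']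
  refine ⟨Additive.ofMul (Units.mk0 a₀ ha₀ne), ?_⟩
  apply mapInj_jdMap_injective S K L
  rw [jdMap_iotaHom, ha]
  show iotaHom S L (Additive.ofMul (Units.map (algebraMap K L : K →* L) (Units.mk0 a₀ ha₀ne))) = _
  rw [hu]
  rfl

end Main

/-- **D-inj**: `C_S(K) → C_S(L)` is injective (`S ≠ ∅`). -/
theorem stmtCSMapInj : StmtCSMapInj := by
  intro S K L _ _ _ _ _ hS
  rw [injective_iff_map_eq_zero]
  intro c hc
  obtain ⟨y, rfl⟩ := csMk_surjective S K c
  rw [csMap_mk] at hc
  exact mapInj_principal S K L hS y hc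

end Fermat.Agent.PT.G


end ZBPT_050_1

/-! ### bundled: `Fermat.Agent.PT.X.ExistTLFinal` -/
section ZBPT_050_2
/-
PT-X, piece X-ASM (helper69), part 3: the existence theorem mod `p`, type level, unconditionally:
`stmtExistTL : StmtExistTL`.
-/

set_option autoImplicit false

namespace Fermat.Agent.PT.X

/-- **X-ASM**: the existence theorem mod `p`, type level. -/
theorem stmtExistTL : StmtExistTL :=
  ExistTL.stmtExistTL_of stmtJCount stmtSplitIdele stmtKummerUnram
    (Fermat.Agent.PT.G.stmtCSDescent_of Fermat.Agent.PT.G.stmtSemiInv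
      Fermat.Agent.PT.G.stmtDivInv)

end Fermat.Agent.PT.X


end ZBPT_050_2

/-! ### bundled: `Fermat.Agent.PT.G3.SymbolCSMap` -/
section ZBPT_050_3

/-!
# PT-G3, pieces psiN, psiM, psiUp: the class symbol and the maps `csNorm`, `csMap`

* `psiC_csNorm` (**(N)**): `Ψ_K ∘ csNorm = Ψ_L` (transitivity of the norms to `ℚ_q`;
  `N(P) = N(𝔭)^f`).
* `psiC_csMap`, `stmtPsiMap` (**(M)**): `Ψ_L ∘ csMap = [L : K] • Ψ_K` (from (N) and
  `csNorm ∘ csMap = [L : K]`).
* `stmtPsiUp`: `Ψ_E = 0 ⇒ Ψ_M = 0`.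
* `stmtPsiNormGal`: if `M / F` is Galois and `csMap c = Σ_{σ ∈ Gal(M/F)} σ d` then `Ψ_F c = Ψ_M d`.
-/

set_option autoImplicit false

namespace Fermat.Agent.PT.G3

open NumberField IsDedekindDomain Fermat.Agent.PT.G1 Fermat.Agent.PT.X Fermat.Agent.PT.G
open scoped nonZeroDivisors

section Norm

variable (p n : ℕ) [hp : Fact p.Prime] (S : Finset Nat.Primes)
variable (K L : Type) [Field K] [NumberField K] [Field L] [NumberField L] [Algebra K L]

/-- The semilocal symbol is compatible with the norm `ℚ_q ⊗ L → ℚ_q ⊗ K`. -/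
theorem psiSemi_semiNorm (q : ℕ) [Fact q.Prime] (x : (semiAlg q L)ˣ) :
    psiSemi p n q K (Units.map (semiNorm K L q) x) = psiSemi p n q L x := by
  rw [psiSemi_apply, psiSemi_apply]
  congr 1
  apply Units.ext
  exact norm_semiNorm K L q (x : semiAlg q L)

/-- `ψ_J` is compatible with the norm `J_L → J_K`. -/
theorem psiJ_jlNorm (x : JL S L) : psiJ p n S K (jlNorm S K L x) = psiJ p n S L x := by
  rw [psiJ_apply, psiJ_apply]
  refine Finset.prod_congr rfl fun q _ => ?_
  exact psiSemi_semiNorm p n K L _ (x q)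

variable {L} in
/-- `N(P) = N(𝔭)^f`. -/
theorem absNorm_eq_pow_inertDeg (P : HeightOneSpectrum (𝓞 L)) :
    Ideal.absNorm P.asIdeal = Ideal.absNorm (primeUnder K P).asIdeal ^ inertDeg K P := by
  have h := card_quot_pow_inertDeg K P
  rw [Ideal.absNorm_apply, Ideal.absNorm_apply, Submodule.cardQuot_apply,
    Submodule.cardQuot_apply]
  exact h.symm

variable {L} in
/-- `ψ(𝔭)^f = ψ(P)`. -/
theorem normSymbol_offUnder_pow (hpS : (⟨p, hp.out⟩ : Nat.Primes) ∈ S) (P : OffS S L) :
    normSymbol p n (offUnder S K P).1.asIdeal ^ inertDeg K P.1 = normSymbol p n P.1.asIdeal := by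
  apply Units.ext
  rw [Units.val_pow_eq_pow_val,
    coe_normSymbol_of_coprime (absNorm_coprime_pow_of_off p n S hpS (offUnder S K P)),
    coe_normSymbol_of_coprime (absNorm_coprime_pow_of_off p n S hpS P),
    absNorm_eq_pow_inertDeg K P.1, offUnder_val, Nat.cast_pow, ← pow_mul, ← pow_mul, mul_comm]

/-- The divisor symbol is compatible with the norm `Div_S(L) → Div_S(K)`. -/
theorem psiDiv_divNorm (hpS : (⟨p, hp.out⟩ : Nat.Primes) ∈ S) (d : DivS S L) :
    psiDiv p n S K (divNorm S K L d) = psiDiv p n S L d := by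
  have h : (psiDiv p n S K).comp (divNorm S K L).toAddMonoidHom = psiDiv p n S L := by
    apply Finsupp.addHom_ext
    intro P k
    rw [AddMonoidHom.comp_apply]
    show psiDiv p n S K (divNorm S K L (Finsupp.single P k)) = _
    rw [divNorm_single, psiDiv_single, psiDiv_single, zpow_mul, zpow_natCast,
      normSymbol_offUnder_pow p n S K hpS P]
  exact DFunLike.congr_fun h d

theorem psiJD_jdNorm (hpS : (⟨p, hp.out⟩ : Nat.Primes) ∈ S)
    (y : Additive (JL S L) × DivS S L) :
    psiJD p n S K (jdNorm S K L y) = psiJD p n S L y := by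
  rw [psiJD_apply, psiJD_apply]
  have h1 : (jdNorm S K L y).1 = jlNormLin S K L y.1 := rfl
  have h2 : (jdNorm S K L y).2 = divNorm S K L y.2 := rfl
  rw [h1, h2, psiDiv_divNorm p n S K L hpS]
  congr 2
  exact psiJ_jlNorm p n S K L (Additive.toMul y.1)

/-- **(N)**: `Ψ_K ∘ csNorm = Ψ_L`. -/
theorem psiC_csNorm (hodd : Odd p) (hpS : (⟨p, hp.out⟩ : Nat.Primes) ∈ S) (c : CS S L) :
    psiC p n S K (csNorm S K L c) = psiC p n S L c := by
  induction c using Submodule.Quotient.induction_on with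
  | _ y =>
    show psiC p n S K (csNorm S K L (csMk S L y)) = psiC p n S L (csMk S L y)
    rw [csNorm_mk, psiC_mk p n S K hodd hpS, psiC_mk p n S L hodd hpS, psiJD_jdNorm p n S K L hpS]

/-- **(M)**: `Ψ_L ∘ csMap = [L : K] • Ψ_K`. -/
theorem psiC_csMap (hodd : Odd p) (hpS : (⟨p, hp.out⟩ : Nat.Primes) ∈ S) (c : CS S K) :
    psiC p n S L (csMap S K L c) = Module.finrank K L • psiC p n S K c := by
  rw [← psiC_csNorm p n S K L hodd hpS, csNorm_csMap, map_zsmul, natCast_zsmul]

end Norm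

/-- **psi-M**. -/
theorem stmtPsiMap : StmtPsiMap := by
  intro p n hp S hodd hpS K L _ _ _ _ _ c
  exact psiC_csMap p n S K L hodd hpS c

/-- **psi-up**. -/
theorem stmtPsiUp : StmtPsiUp := by
  intro p n hp S hodd hpS E M _ _ _ _ _ hE c
  rw [← psiC_csNorm p n S E M hodd hpS]
  exact hE _

section Gal

variable (S : Finset Nat.Primes)
variable (F M : Type) [Field F] [NumberField F] [Field M] [NumberField M] [Algebra F M]

/-- The Galois norm is `csMap ∘ csNorm`. -/
theorem galNorm_eq_csMap_csNorm [IsGalois F M] (d : CS S M) :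
    galNorm S F M d = csMap S F M (csNorm S F M d) := by
  classical
  letI : Fintype ↥(relAut F M) := Fintype.ofFinite _
  rw [nsub_galNorm_eq_sum, csMap_csNorm_of S F M (divMap_divNorm S F M)]
  apply Fintype.sum_equiv (nsubEquiv F M)
  intro σ
  congr 1

end Gal

/-- **psi-N** (Galois form). -/
theorem stmtPsiNormGal : StmtPsiNormGal := by
  intro p n hp S hodd hpS F M _ _ _ _ _ _ c d hcd
  have hS : S.Nonempty := ⟨_, hpS⟩
  rw [galNorm_eq_csMap_csNorm] at hcd
  have h := stmtCSMapInj S F M hS hcd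
  rw [h, psiC_csNorm p n S F M hodd hpS]

end Fermat.Agent.PT.G3


end ZBPT_050_3

/-! ### bundled: `Fermat.Agent.PT.G3.GBInfJ` -/
section ZBPT_050_4
/-
PT-GB, piece **gbInfJ** (helper30): inflation `H²(Aut L, J_L) → H²(Aut N, J_N)` is injective, in
cocycle form.  Proof: `inflInj_aux` (PT/F/InflInj.lean, helper86) with `m = 1` for
`f = gbRes : Aut N ↠ Aut L`, `φ = jlMapLin`:
* `φ` is injective (`semiIncl_injective`), equivariant (`jlEnd_jlMapLin`);
* `J_N^{ker f} = φ(J_L)` (`stmtSemiInv`, componentwise);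
* `H¹(ker f, J_N) = 0` (`StmtH90Semi`, componentwise).
-/

set_option autoImplicit false
set_option linter.unusedSectionVars false
set_option linter.style.haveILetI false

noncomputable section

namespace Fermat.Agent.PT.G3

open CategoryTheory groupCohomology NumberField IsDedekindDomain
open Fermat.Agent.PT Fermat.Agent.PT.G Fermat.Agent.PT.G1

section

variable (S : Finset Nat.Primes) (L N : Type) [Field L] [NumberField L] [Field N]
  [NumberField N] [Algebra L N] [IsGalois ℚ L] [IsGalois ℚ N]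

lemma gbInfJ_restricts (σ : N ≃ₐ[ℚ] N) : Restricts σ (gbRes L N σ) := by
  intro x
  haveI : IsScalarTower ℚ L N := IsScalarTower.of_algebraMap_eq (fun x => by
    rw [eq_ratCast, eq_ratCast, map_ratCast])
  exact (AlgEquiv.restrictNormal_commutes σ L x).symm

lemma gbInfJ_gbRes_surjective : Function.Surjective (gbRes L N) := by
  haveI : IsScalarTower ℚ L N := IsScalarTower.of_algebraMap_eq (fun x => by
    rw [eq_ratCast, eq_ratCast, map_ratCast])
  exact AlgEquiv.restrictNormalHom_surjective (F := ℚ) (K₁ := L) N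

lemma gbInfJ_fixes_of_mem_ker (σ : N ≃ₐ[ℚ] N) (hσ : gbRes L N σ = 1) (x : L) :
    σ (algebraMap L N x) = algebraMap L N x := by
  rw [gbInfJ_restricts L N σ x, hσ]
  rfl

lemma gbInfJ_mem_ker_of_fixes (σ : N ≃ₐ[ℚ] N)
    (hσ : ∀ x : L, σ (algebraMap L N x) = algebraMap L N x) : gbRes L N σ = 1 := by
  apply AlgEquiv.ext
  intro x
  apply (algebraMap L N).injective
  rw [← gbInfJ_restricts L N σ x, hσ]
  rfl

/-- `jlMapLin` as a morphism `res (jlRep S L) ⟶ jlRep S N`. -/
def gbInfJ_phi : Rep.res (gbRes L N) (jlRep S L) ⟶ jlRep S N :=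
  Rep.ofHom ⟨jlMapLin S L N, fun σ => LinearMap.ext fun x =>
    (jlEnd_jlMapLin S (gbInfJ_restricts L N σ) x).symm⟩

lemma gbInfJ_phi_apply (x : (jlRep S L).V) : (gbInfJ_phi S L N).hom x = jlMapLin S L N x := rfl

lemma gbInfJ_phi_injective : Function.Injective (gbInfJ_phi S L N).hom := by
  intro x y hxy
  apply Additive.toMul.injective
  funext q
  apply Units.ext
  apply semiIncl_injective ((q : Nat.Primes) : ℕ) L N
  have h := congrArg (fun z : Additive (JL S N) => ((Additive.toMul z q :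
    (semiAlg ((q : Nat.Primes) : ℕ) N)ˣ) : semiAlg ((q : Nat.Primes) : ℕ) N)) hxy
  exact h

lemma gbInfJ_ext {x y : Additive (JL S N)}
    (h : ∀ q : ↥S, jProjLin S N q x = jProjLin S N q y) : x = y := by
  apply Additive.toMul.injective
  funext q
  exact congrArg Additive.toMul (h q)

lemma gbInfJ_invar [IsGalois L N] (c : (jlRep S N).V)
    (hc : ∀ γ : N ≃ₐ[ℚ] N, gbRes L N γ = 1 → (jlRep S N).ρ γ c = c) :
    ∃ c₀ : (jlRep S L).V, (gbInfJ_phi S L N).hom c₀ = c := by
  have h : ∀ q : ↥S, ∃ b : (semiAlg ((q : Nat.Primes) : ℕ) L)ˣ,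
      semiIncl L N ((q : Nat.Primes) : ℕ) (b : semiAlg ((q : Nat.Primes) : ℕ) L) =
        ((Additive.toMul (c : Additive (JL S N)) q : (semiAlg ((q : Nat.Primes) : ℕ) N)ˣ) :
          semiAlg ((q : Nat.Primes) : ℕ) N) := by
    intro q
    apply stmtSemiInv ((q : Nat.Primes) : ℕ) L N (Additive.toMul (c : Additive (JL S N)) q)
    intro σ hσ
    have h1 := hc σ (gbInfJ_mem_ker_of_fixes L N σ hσ)
    have h2 := congrArg (fun z : Additive (JL S N) => ((Additive.toMul z q :
      (semiAlg ((q : Nat.Primes) : ℕ) N)ˣ) : semiAlg ((q : Nat.Primes) : ℕ) N)) h1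
    exact h2
  choose b hb using h
  refine ⟨Additive.ofMul (fun q => b q), ?_⟩
  apply Additive.toMul.injective
  funext q
  apply Units.ext
  exact hb q

lemma gbInfJ_h1Kill (hH90 : StmtH90Semi) :
    F.InflInj.H1Kill (gbRes L N).ker (jlRep S N) 1 := by
  intro c hc
  have h : ∀ q : ↥S, ∃ a : (semiRep ((q : Nat.Primes) : ℕ) N).V, ∀ n : (gbRes L N).ker,
      jProjLin S N q (c n) =
        (semiRep ((q : Nat.Primes) : ℕ) N).ρ (n : N ≃ₐ[ℚ] N) a - a := by
    intro q
    have h1 := InfRes2.h1Triv_of_subsingleton (gbRes L N).ker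
      (semiRep ((q : Nat.Primes) : ℕ) N) (hH90 _ N (gbRes L N).ker)
    apply h1 (fun n => jProjLin S N q (c n))
    intro n m
    rw [hc n m]
    exact (jProjLin S N q).map_add _ _
  choose a ha using h
  refine ⟨Additive.ofMul (fun q => Additive.toMul (a q)), fun n => ?_⟩
  rw [one_smul]
  apply gbInfJ_ext S N
  intro q
  rw [ha q n]
  exact ((jProjLin S N q).map_sub
    ((jlRep S N).ρ (n : N ≃ₐ[ℚ] N) (Additive.ofMul (fun q => Additive.toMul (a q)) :
      Additive (JL S N)))
    (Additive.ofMul (fun q => Additive.toMul (a q)) : Additive (JL S N))).symm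

end

/-- **gbInfJ**. -/
theorem stmtGBInfJ : StmtGBInfJ := by
  intro hH90 S L N _ _ _ _ _ _ _ _ y hy hinf
  have hx : H2π (jlRep S N)
      (mapCocycles₂ (gbRes L N) (gbInfJ_phi S L N) ⟨y, hy⟩) = 0 := by
    rw [H2π_eq_zero_iff]
    exact hinf
  have key := F.InflInj.inflInj_aux (gbRes L N) (gbInfJ_gbRes_surjective L N) (jlRep S N)
    (jlRep S L) (gbInfJ_phi S L N) (gbInfJ_phi_injective S L N) (gbInfJ_invar S L N) 1
    (gbInfJ_h1Kill S L N hH90) ⟨y, hy⟩ hx
  rw [one_smul, H2π_eq_zero_iff] at key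
  exact key

end Fermat.Agent.PT.G3

end


end ZBPT_050_4

/-! ### bundled: `Fermat.Agent.PT.G3.GBSDGal` -/
section ZBPT_050_5
/-
PT-G3 (GB), piece **sdGal** (helper87): `stmtSDGalois : StmtSDGalois`.

For `N / ℚ` Galois and a maximal ideal `t` of `A = ℚ_q ⊗ N`, the residue field `E = A / t` is a
finite Galois extension of `ℚ_q` and the decomposition group `D = sdStab q N t` maps
isomorphically onto `Gal(E / ℚ_q)`.

* injective: `N → E` is injective;
* the fixed field of the image of `D` is `ℚ_q`: for `y = a mod t` fixed by `D` and `e` the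
  idempotent of `t`, the average `b = |D|⁻¹ ∑_{σ ∈ Aut N} σ (e a)` is `Aut N`-invariant, hence in
  `ℚ_q` (`G.semiInv_exists` with `K = ℚ`), and `b ≡ y mod t`;
* Artin (`IntermediateField.fixingSubgroup_fixedField`, `IsGalois.of_fixedField_eq_bot`).
-/

set_option autoImplicit false
set_option linter.unusedSectionVars false
set_option linter.style.haveILetI false

namespace Fermat.Agent.PT.G3

open NumberField TensorProduct
open Fermat.Agent.PT Fermat.Agent.PT.G Fermat.Agent.PT.G1

section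

variable (q : ℕ) [Fact q.Prime] (N : Type) [Field N] [NumberField N]
  (t : MaximalSpectrum (semiAlg q N))

/-- The residue field is finite dimensional over `ℚ_q`. -/
theorem sdGal_finite : FiniteDimensional ℚ_[q] (sdField q N t) :=
  Module.Finite.of_surjective (Ideal.Quotient.mkₐ ℚ_[q] t.asIdeal).toLinearMap
    (Ideal.Quotient.mkₐ_surjective ℚ_[q] t.asIdeal)

/-- The decomposition group acts faithfully on the residue field. -/
theorem sdGal_injective : Function.Injective (sdRes q N t) := by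
  rw [injective_iff_map_eq_one]
  intro σ hσ
  apply Subtype.ext
  apply AlgEquiv.ext
  intro x
  haveI := t.isMaximal
  let ι : N →+* sdField q N t :=
    (Ideal.Quotient.mk t.asIdeal).comp
      (Algebra.TensorProduct.includeRight : N →ₐ[ℚ] semiAlg q N).toRingHom
  apply ι.injective
  have h3 := congrArg (fun f : sdField q N t ≃ₐ[ℚ_[q]] sdField q N t =>
    f (Ideal.Quotient.mk t.asIdeal ((1 : ℚ_[q]) ⊗ₜ[ℚ] x))) hσ
  simp only [sdRes_mk, tens_semiMap_tmul, AlgEquiv.one_apply] at h3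
  exact h3

open scoped Classical in
/-- The idempotent of the maximal ideal `t`: it is `1` modulo `t` and `0` modulo every other
maximal ideal. -/
noncomputable def sdGalIdem : semiAlg q N :=
  haveI := tens_semiAlg_isReduced q N
  haveI := tens_semiAlg_isArtinian q N
  (IsArtinianRing.equivPi (semiAlg q N)).symm (Pi.single t 1)

theorem sdGalIdem_mk_self :
    Ideal.Quotient.mk t.asIdeal (sdGalIdem q N t) = 1 := by
  classical
  haveI := tens_semiAlg_isReduced q N
  haveI := tens_semiAlg_isArtinian q N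
  have h := congrFun ((IsArtinianRing.equivPi (semiAlg q N)).apply_symm_apply (Pi.single t 1)) t
  rw [Pi.single_eq_same] at h
  exact h

theorem sdGalIdem_mem {t' : MaximalSpectrum (semiAlg q N)} (h : t' ≠ t) :
    sdGalIdem q N t ∈ t'.asIdeal := by
  classical
  haveI := tens_semiAlg_isReduced q N
  haveI := tens_semiAlg_isArtinian q N
  have h1 := congrFun ((IsArtinianRing.equivPi (semiAlg q N)).apply_symm_apply (Pi.single t 1)) t'
  rw [Pi.single_eq_of_ne h] at h1
  exact Ideal.Quotient.eq_zero_iff_mem.mp h1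

/-- `σ e ≡ 1 mod t` for `σ` in the decomposition group. -/
theorem sdGal_idem_of_mem {σ : N ≃ₐ[ℚ] N} (hσ : σ ∈ sdStab q N t) :
    Ideal.Quotient.mk t.asIdeal (semiMap q σ (sdGalIdem q N t)) = 1 := by
  have h1 : sdGalIdem q N t - 1 ∈ t.asIdeal := by
    rw [← Ideal.Quotient.eq_zero_iff_mem, map_sub, sdGalIdem_mk_self, map_one, sub_self]
  have h2 := hσ _ h1
  rw [map_sub, map_one] at h2
  have h3 := Ideal.Quotient.eq_zero_iff_mem.mpr h2
  rw [map_sub, map_one, sub_eq_zero] at h3
  exact h3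

/-- `σ e ≡ 0 mod t` for `σ` outside the decomposition group. -/
theorem sdGal_idem_of_not_mem {σ : N ≃ₐ[ℚ] N} (hσ : σ ∉ sdStab q N t) :
    Ideal.Quotient.mk t.asIdeal (semiMap q σ (sdGalIdem q N t)) = 0 := by
  rw [Ideal.Quotient.eq_zero_iff_mem]
  -- the maximal ideal `σ⁻¹ t`
  let s : semiAlg q N ≃+* semiAlg q N := (tens_semiEquiv q σ).toRingEquiv
  have hs : ∀ x, s x = semiMap q σ x := fun x => tens_semiEquiv_apply q σ x
  set t' : MaximalSpectrum (semiAlg q N) := (tensPerm (semiAlg q N) s).symm t with ht'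
  have hmem : ∀ x, x ∈ t'.asIdeal ↔ semiMap q σ x ∈ t.asIdeal := by
    intro x
    have h1 : tensPerm (semiAlg q N) s t' = t := Equiv.apply_symm_apply _ _
    constructor
    · intro hx
      have h2 := tens_apply_mem_tensPerm (semiAlg q N) s t' hx
      rw [h1, hs] at h2
      exact h2
    · intro hx
      have h2 : semiMap q σ x ∈ (tensPerm (semiAlg q N) s t').asIdeal := by rw [h1]; exact hx
      rw [tens_mem_tensPerm, ← hs, RingEquiv.symm_apply_apply] at h2
      exact h2
  have hne : t' ≠ t := by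
    intro h
    apply hσ
    intro x hx
    rw [← hmem, h]
    exact hx
  exact (hmem _).mp (sdGalIdem_mem q N t hne)

end

section fixed

variable (q : ℕ) [Fact q.Prime] (N : Type) [Field N] [NumberField N] [IsGalois ℚ N]
  (t : MaximalSpectrum (semiAlg q N))

/-- An `Aut N`-invariant element of `ℚ_q ⊗ N` is a scalar. -/
theorem sdGal_invariant_scalar (b : semiAlg q N)
    (hb : ∀ σ : N ≃ₐ[ℚ] N, semiMap q σ b = b) :
    ∃ c : ℚ_[q], algebraMap ℚ_[q] (semiAlg q N) c = b := by
  obtain ⟨b₀, hb₀⟩ := semiInv_exists q ℚ N b (fun σ _ => hb σ)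
  refine ⟨Algebra.TensorProduct.rid ℚ ℚ_[q] ℚ_[q] b₀, ?_⟩
  have h1 : b₀ = (Algebra.TensorProduct.rid ℚ ℚ_[q] ℚ_[q] b₀) ⊗ₜ[ℚ] (1 : ℚ) := by
    have := (Algebra.TensorProduct.rid ℚ ℚ_[q] ℚ_[q]).symm_apply_apply b₀
    rw [Algebra.TensorProduct.rid_symm_apply] at this
    exact this.symm
  rw [← hb₀, h1, semiIncl_tmul, map_one, Algebra.TensorProduct.algebraMap_apply]
  simp

/-- The elements of the residue field fixed by the decomposition group are in `ℚ_q`. -/
theorem sdGal_fixed (y : sdField q N t)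
    (hy : ∀ σ : ↥(sdStab q N t), sdRes q N t σ y = y) :
    ∃ c : ℚ_[q], algebraMap ℚ_[q] (sdField q N t) c = y := by
  classical
  obtain ⟨a, rfl⟩ := Ideal.Quotient.mk_surjective y
  set e := sdGalIdem q N t with he
  -- the number of elements of the decomposition group
  set d : ℕ := (Finset.univ.filter fun σ : N ≃ₐ[ℚ] N => σ ∈ sdStab q N t).card with hd
  have hd0 : (d : ℚ_[q]) ≠ 0 := by
    have h1 : 0 < d := Finset.card_pos.mpr
      ⟨1, Finset.mem_filter.mpr ⟨Finset.mem_univ _, (sdStab q N t).one_mem⟩⟩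
    exact_mod_cast h1.ne'
  set b : semiAlg q N := (d : ℚ_[q])⁻¹ • ∑ σ : N ≃ₐ[ℚ] N, semiMap q σ (e * a) with hb
  have hbinv : ∀ τ : N ≃ₐ[ℚ] N, semiMap q τ b = b := by
    intro τ
    rw [hb, map_smul, map_sum]
    congr 1
    have h1 : ∀ σ : N ≃ₐ[ℚ] N, semiMap q τ (semiMap q σ (e * a)) = semiMap q (τ * σ) (e * a) :=
      fun σ => (tens_semiMap_mul q τ σ (e * a)).symm
    rw [Finset.sum_congr rfl (fun σ _ => h1 σ)]
    exact Fintype.sum_equiv (Equiv.mulLeft τ) _ _ (fun σ => rfl)
  obtain ⟨c, hc⟩ := sdGal_invariant_scalar q N b hbinv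
  refine ⟨c, ?_⟩
  have h2 : algebraMap ℚ_[q] (sdField q N t) c = Ideal.Quotient.mk t.asIdeal b := by
    rw [← hc]
    rfl
  rw [h2, hb]
  have h3 : Ideal.Quotient.mk t.asIdeal ((d : ℚ_[q])⁻¹ • ∑ σ : N ≃ₐ[ℚ] N, semiMap q σ (e * a)) =
      (d : ℚ_[q])⁻¹ • ∑ σ : N ≃ₐ[ℚ] N, Ideal.Quotient.mk t.asIdeal (semiMap q σ (e * a)) := by
    rw [← map_sum]
    exact map_smul (Ideal.Quotient.mkₐ ℚ_[q] t.asIdeal) _ _
  rw [h3]
  have h4 : ∀ σ : N ≃ₐ[ℚ] N, Ideal.Quotient.mk t.asIdeal (semiMap q σ (e * a)) =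
      if σ ∈ sdStab q N t then Ideal.Quotient.mk t.asIdeal a else 0 := by
    intro σ
    rw [map_mul, map_mul]
    split_ifs with hσ
    · rw [sdGal_idem_of_mem q N t hσ, one_mul]
      have := hy ⟨σ, hσ⟩
      rw [sdRes_mk] at this
      exact this
    · rw [sdGal_idem_of_not_mem q N t hσ, zero_mul]
  rw [Finset.sum_congr rfl (fun σ _ => h4 σ), ← Finset.sum_filter, Finset.sum_const, ← hd,
    ← Nat.cast_smul_eq_nsmul ℚ_[q], smul_smul, inv_mul_cancel₀ hd0, one_smul]

end fixed

/-- **gb-sdgal**. -/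
theorem stmtSDGalois : StmtSDGalois := by
  intro q _ N _ _ _ t
  haveI := sdGal_finite q N t
  have hfix : IntermediateField.fixedField (sdRes q N t).range = ⊥ := by
    apply le_antisymm _ bot_le
    intro y hy
    rw [IntermediateField.mem_fixedField_iff] at hy
    rw [IntermediateField.mem_bot]
    obtain ⟨c, hc⟩ := sdGal_fixed q N t y (fun σ => hy _ ⟨σ, rfl⟩)
    exact ⟨c, hc⟩
  have htop : (sdRes q N t).range = ⊤ := by
    have h := IntermediateField.fixingSubgroup_fixedField (sdRes q N t).range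
    rw [hfix, IntermediateField.fixingSubgroup_bot] at h
    exact h.symm
  refine ⟨inferInstance, ?_, sdGal_injective q N t, MonoidHom.range_eq_top.mp htop⟩
  apply IsGalois.of_fixedField_eq_bot
  rw [← htop]
  exact hfix

end Fermat.Agent.PT.G3


end ZBPT_050_5
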