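/- GENERATED FILE (helper35, build-time optimisation, NOTES/ZB.md): verbatim concatenation of the modules
   Fermat.Agent.PT.G3.MapComp
   Fermat.Agent.PT.B.Compare2
   Fermat.Agent.PT.B.Compare3
   Fermat.Agent.PT.B.Compare
   Fermat.Agent.PT.B.RamRel
   Fermat.Agent.PT.X.Cap
   Fermat.Agent.PT.X.CapFinal
   Fermat.Agent.PT.G3.CycFinal
   Fermat.Agent.PT.G3.GBCycDec
   Fermat.Agent.PT.G3.GBCarryNZ
   Fermat.Agent.PT.G3.GBCarryKill
   Do not edit; do not import together with these modules. -/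
import Fermat.Agent.ZB.PT_009
import Fermat.Agent.ZB.PT_049
import Fermat.Agent.ZB.PT_050
import Fermat.Agent.ZB.PT_051
import Fermat.Agent.ZB.PT_054
import Fermat.Agent.ZB.PT_003
import Fermat.Agent.ZB.PT_023
import Fermat.Agent.ZB.PT_078
import Fermat.Agent.ZB.PT_083
import Fermat.Agent.ZB.PT_066
import Fermat.Agent.ZB.PT_069

/-! ### bundled: `Fermat.Agent.PT.G3.MapComp` -/
section ZBPT_052_0
/-
Project PT — PT-G3 / comp (helper56): `csMap` is transitive in towers `K ⊂ L ⊂ M`, the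
ramification index is multiplicative, unramifiedness outside `S` passes to the two layers.
-/

set_option autoImplicit false

namespace Fermat.Agent.PT.G3

open NumberField IsDedekindDomain
open Fermat.Agent.PT Fermat.Agent.PT.G Fermat.Agent.PT.G1

section Tower

variable (S : Finset Nat.Primes) (K L M : Type) [Field K] [NumberField K] [Field L]
  [NumberField L] [Field M] [NumberField M] [Algebra K L] [Algebra L M] [Algebra K M]
  [IsScalarTower K L M]

lemma mcomp_semiIncl (q : ℕ) [Fact q.Prime] (x : semiAlg q K) :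
    semiIncl L M q (semiIncl K L q x) = semiIncl K M q x := by
  have h : (semiIncl L M q).comp (semiIncl K L q) = semiIncl K M q := by
    apply Algebra.TensorProduct.ext'
    intro a b
    simp [semiIncl, ← IsScalarTower.algebraMap_apply]
  exact DFunLike.congr_fun h x

lemma mcomp_jlMapLin (j : Additive (JL S K)) :
    jlMapLin S L M (jlMapLin S K L j) = jlMapLin S K M j := by
  apply Additive.toMul.injective
  funext q
  apply Units.ext
  exact mcomp_semiIncl K L M _ _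

omit [NumberField K] [NumberField L] [NumberField M] in
lemma mcomp_algebraMap_int (x : 𝓞 K) :
    algebraMap (𝓞 L) (𝓞 M) (algebraMap (𝓞 K) (𝓞 L) x) = algebraMap (𝓞 K) (𝓞 M) x := by
  apply RingOfIntegers.ext
  show algebraMap L M (algebraMap K L (x : K)) = algebraMap K M (x : K)
  rw [← IsScalarTower.algebraMap_apply]

variable {M}

lemma mcomp_primeUnder (P : HeightOneSpectrum (𝓞 M)) :
    primeUnder K (primeUnder L P) = primeUnder K P := by
  apply HeightOneSpectrum.ext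
  ext x
  rw [mem_primeUnder, mem_primeUnder, mem_primeUnder, mcomp_algebraMap_int]

/-- **Multiplicativity of the ramification index.** -/
lemma mcomp_ramIdx (P : HeightOneSpectrum (𝓞 M)) :
    ramIdx K P = ramIdx L P * ramIdx K (primeUnder L P) := by
  obtain ⟨π, hπ⟩ := (primeUnder K P).valuation_exists_uniformizer K
  have h1 : P.valuation M (algebraMap K M π) = WithZero.exp (-1 : ℤ) ^ ramIdx K P := by
    rw [valuation_algebraMap_eq_pow, hπ]
  have h2 : P.valuation M (algebraMap K M π) =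
      WithZero.exp (-1 : ℤ) ^ (ramIdx L P * ramIdx K (primeUnder L P)) := by
    rw [IsScalarTower.algebraMap_apply K L M, valuation_algebraMap_eq_pow L P,
      valuation_algebraMap_eq_pow K (primeUnder L P), mcomp_primeUnder, hπ, ← pow_mul, mul_comm]
  rw [h1] at h2
  rw [← WithZero.exp_nsmul, ← WithZero.exp_nsmul, WithZero.exp_inj] at h2
  have h3 : ((ramIdx K P : ℕ) : ℤ) = ((ramIdx L P * ramIdx K (primeUnder L P) : ℕ) : ℤ) := by
    simpa using h2
  exact_mod_cast h3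

lemma mcomp_offUnder (P : OffS S M) : offUnder S K (offUnder S L P) = offUnder S K P :=
  Subtype.ext (mcomp_primeUnder K L P.1)

variable (M)

lemma mcomp_divMap (d : DivS S K) : divMap S L M (divMap S K L d) = divMap S K M d := by
  ext P
  rw [divMap_apply, divMap_apply, divMap_apply, mcomp_offUnder, mcomp_ramIdx K L P.1]
  have h : (offUnder S L P).1 = primeUnder L P.1 := rfl
  rw [h]
  push_cast
  ring

lemma mcomp_jdMap (y : Additive (JL S K) × DivS S K) :
    jdMap S L M (jdMap S K L y) = jdMap S K M y := by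
  apply Prod.ext
  · exact mcomp_jlMapLin S K L M y.1
  · exact mcomp_divMap S K L M y.2

lemma mcomp_csMap (c : CS S K) : csMap S L M (csMap S K L c) = csMap S K M c := by
  induction c using Submodule.Quotient.induction_on with
  | _ y =>
    show csMk S M (jdMap S L M (jdMap S K L y)) = csMk S M (jdMap S K M y)
    rw [mcomp_jdMap]

variable {L} in
/-- Every prime of `L` off `S` lies under a prime of `M` off `S`. -/
lemma mcomp_exists_over (Q : OffS S L) : ∃ P : OffS S M, offUnder S L P = Q := by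
  haveI := Q.1.isPrime
  obtain ⟨⟨P, hP1, hP2⟩⟩ := Q.1.asIdeal.nonempty_primesOver (S := 𝓞 M)
  have hP0 : P ≠ ⊥ := by
    rintro rfl
    apply Q.1.ne_bot
    rw [hP2.over, Ideal.under, eq_bot_iff]
    intro x hx
    rw [Ideal.mem_comap, Ideal.mem_bot] at hx
    rw [Ideal.mem_bot]
    exact FaithfulSMul.algebraMap_injective (𝓞 L) (𝓞 M) (hx.trans (map_zero _).symm)
  have hu : primeUnder L (⟨P, hP1, hP0⟩ : HeightOneSpectrum (𝓞 M)) = Q.1 := by
    apply HeightOneSpectrum.ext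
    exact hP2.over.symm
  have hN : ((sProd S : ℕ) : 𝓞 M) ∉ P := by
    intro h
    apply Q.2
    rw [← hu]
    exact (natCast_mem_primeUnder_iff L M _ _).2 h
  exact ⟨⟨⟨P, hP1, hP0⟩, hN⟩, Subtype.ext hu⟩

end Tower

/-- **G3-comp.** -/
theorem stmtCSMapComp : StmtCSMapComp := by
  intro S K L M _ _ _ _ _ _ _ _ _ _ c
  exact mcomp_csMap S K L M c

/-- **G3-unramtower.** -/
theorem stmtUnramTower : StmtUnramTower := by
  intro S K L M _ _ _ _ _ _ _ _ _ _ hun
  have key : ∀ P : OffS S M, ramIdx L P.1 = 1 ∧ ramIdx K (primeUnder L P.1) = 1 := by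
    intro P
    have h := hun P
    rw [mcomp_ramIdx K L P.1] at h
    exact ⟨Nat.eq_one_of_mul_eq_one_right h, Nat.eq_one_of_mul_eq_one_left h⟩
  refine ⟨fun P => (key P).1, fun Q => ?_⟩
  obtain ⟨P, rfl⟩ := mcomp_exists_over S (L := L) M Q
  exact (key P).2

end Fermat.Agent.PT.G3


end ZBPT_052_0

/-! ### bundled: `Fermat.Agent.PT.B.Compare2` -/
section ZBPT_052_1
/-
PT-B, piece **compare**, part 2: `csMap` for tower fields `L ≤ L'` inside `ℚ̄`
(transitivity, injectivity, Galois descent), in instance-free form.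
-/

set_option autoImplicit false
set_option linter.style.haveILetI false
set_option linter.unusedSectionVars false

noncomputable section

namespace Fermat.Agent.PT.B

open Fermat.Agent.PT CategoryTheory groupCohomology ExtCitation
open Fermat.Agent.PT.G Fermat.Agent.PT.G1 Fermat.Agent.PT.G3
open scoped Pointwise TensorProduct

section

variable (S : Finset Nat.Primes) {L L' L'' : QbarField} [NumberField L] [NumberField L']
  [NumberField L'']

/-- `csMap` for `L ≤ L'`. -/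
abbrev csMapLe (hle : L ≤ L') : CS S ↥L →ₗ[ℤ] CS S ↥L' :=
  @csMap S ↥L ↥L' _ _ _ _ (algebraOfLe hle)

/-- `jlMapLin` for `L ≤ L'`. -/
abbrev jlMapLe (hle : L ≤ L') : Additive (JL S ↥L) →ₗ[ℤ] Additive (JL S ↥L') :=
  @jlMapLin S ↥L ↥L' _ _ _ _ (algebraOfLe hle)

theorem cmp_isScalarTower (h₁ : L ≤ L') (h₂ : L' ≤ L'') :
    @IsScalarTower ↥L ↥L' ↥L'' (algebraOfLe h₁).toSMul (algebraOfLe h₂).toSMul
      (algebraOfLe (h₁.trans h₂)).toSMul :=
  letI := algebraOfLe h₁
  letI := algebraOfLe h₂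
  letI := algebraOfLe (h₁.trans h₂)
  IsScalarTower.of_algebraMap_eq (fun _ => rfl)

theorem csMapLe_comp (h₁ : L ≤ L') (h₂ : L' ≤ L'') (c : CS S ↥L) :
    csMapLe S h₂ (csMapLe S h₁ c) = csMapLe S (h₁.trans h₂) c := by
  letI := algebraOfLe h₁
  letI := algebraOfLe h₂
  letI := algebraOfLe (h₁.trans h₂)
  haveI := cmp_isScalarTower h₁ h₂
  exact stmtCSMapComp S ↥L ↥L' ↥L'' c

theorem csMapLe_csOfJ (hle : L ≤ L') (z : Additive (JL S ↥L)) :
    csMapLe S hle (csOfJ S ↥L z) = csOfJ S ↥L' (jlMapLe S hle z) := by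
  letI := algebraOfLe hle
  exact csMap_csOfJ S ↥L ↥L' z

theorem csMapLe_injective (hS : S.Nonempty) (hle : L ≤ L') :
    Function.Injective (csMapLe S hle) := by
  letI := algebraOfLe hle
  exact stmtCSMapInj S ↥L ↥L' hS

theorem thetaL_jlMapLe (hL : L.IsUnramifiedOutside S) (hL' : L'.IsUnramifiedOutside S)
    (hle : L ≤ L') (z : Additive (JL S ↥L)) :
    thetaL S L' hL' (jlMapLe S hle z) = thetaL S L hL z :=
  thetaL_jlMapLin S hL hL' hle z

theorem csEnd_csMapLe (hle : L ≤ L') (σ' : ↥L' ≃ₐ[ℚ] ↥L') (σ : ↥L ≃ₐ[ℚ] ↥L)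
    (h : ∀ x : ↥L, (σ' (IntermediateField.inclusion hle x) : AlgebraicClosure ℚ) = σ x)
    (c : CS S ↥L) :
    csEnd S σ' (csMapLe S hle c) = csMapLe S hle (csEnd S σ c) := by
  letI := algebraOfLe hle
  refine csEnd_csMap S ?_ c
  intro x
  exact Subtype.ext (h x)

theorem csEnd_csMapLe_of_fixes (hle : L ≤ L') (σ' : ↥L' ≃ₐ[ℚ] ↥L')
    (h : ∀ x : ↥L, (σ' (IntermediateField.inclusion hle x) : AlgebraicClosure ℚ) = x)
    (c : CS S ↥L) :
    csEnd S σ' (csMapLe S hle c) = csMapLe S hle c := by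
  letI := algebraOfLe hle
  refine csEnd_csMap_of_fixes S ?_ c
  intro x
  exact Subtype.ext (h x)

/-- Galois descent for `C_S(·)` along tower fields. -/
theorem csMapLe_descent (hR : StmtRamRel) (hS : S.Nonempty) (hL' : L'.IsUnramifiedOutside S)
    (hG' : IsGalois ℚ L') (hle : L ≤ L') (c : CS S ↥L')
    (hc : ∀ σ' : ↥L' ≃ₐ[ℚ] ↥L',
      (∀ x : ↥L, (σ' (IntermediateField.inclusion hle x) : AlgebraicClosure ℚ) = x) →
        csEnd S σ' c = c) :
    ∃ c₀ : CS S ↥L, csMapLe S hle c₀ = c := by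
  letI := algebraOfLe hle
  haveI : IsScalarTower ℚ ↥L ↥L' := IsScalarTower.of_algebraMap_eq (fun _ => rfl)
  haveI : IsGalois ↥L ↥L' := IsGalois.tower_top_of_isGalois ℚ ↥L ↥L'
  have hun : UnramOffRel S ↥L ↥L' := (stmtUnramTower S ℚ ↥L ↥L' (hR S L' hL')).1
  refine stmtCSDescent_of stmtSemiInv stmtDivInv S ↥L ↥L' hS hun c ?_
  intro σ' hσ'
  exact hc σ' (fun x => congrArg Subtype.val (hσ' x))

end

end Fermat.Agent.PT.B

end


end ZBPT_052_1

/-! ### bundled: `Fermat.Agent.PT.B.Compare3` -/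
section ZBPT_052_2
/-
PT-B, piece **compare**, part 3: the comparison relation `CmpRel` between `C_S = J_S/E_S` and
`C_S(L)`, its existence and uniqueness, and the comparison family.
-/

set_option autoImplicit false
set_option linter.style.haveILetI false
set_option linter.unusedSectionVars false

noncomputable section

namespace Fermat.Agent.PT.B

open Fermat.Agent.PT CategoryTheory groupCohomology ExtCitation
open Fermat.Agent.PT.G Fermat.Agent.PT.G1 Fermat.Agent.PT.G3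
open scoped Pointwise TensorProduct

variable (S : Finset Nat.Primes)

/-- `c₀ ∈ C_S(L)` is a comparison value of `c ∈ C_S = J_S/E_S`: there are a tower field
`L' ≥ L` and `z ∈ J_{L'}` with `c = π(θ_{L'} z)` and `csMap_{L'/L} c₀ = csOfJ z`. -/
def CmpRel {L : QbarField} [NumberField L] (c : (CRep S).V) (c₀ : CS S ↥L) : Prop :=
  ∃ (L' : QbarField) (hL' : IsTowerField S L') (hle : L ≤ L'),
    ∃ z : Additive (@JL S ↥L' _ (numberField_of_isTowerField hL')),
      (piC S).hom (@thetaL S L' (numberField_of_isTowerField hL') hL'.1 z) = c ∧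
      @csMapLe S L L' _ (numberField_of_isTowerField hL') hle c₀ =
        @csOfJ S ↥L' _ (numberField_of_isTowerField hL') z

/-- the witness of `CmpRel` can be moved up -/
theorem CmpRel.up {L : QbarField} [NumberField L] {c : (CRep S).V} {c₀ : CS S ↥L}
    {L' L'' : QbarField} [NumberField L'] [NumberField L''] (hL' : L'.IsUnramifiedOutside S)
    (hL'' : L''.IsUnramifiedOutside S) (hle : L ≤ L') (hle' : L' ≤ L'')
    (z : Additive (JL S ↥L')) (h1 : (piC S).hom (thetaL S L' hL' z) = c)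
    (h2 : csMapLe S hle c₀ = csOfJ S ↥L' z) :
    (piC S).hom (thetaL S L'' hL'' (jlMapLe S hle' z)) = c ∧
      csMapLe S (hle.trans hle') c₀ = csOfJ S ↥L'' (jlMapLe S hle' z) := by
  refine ⟨?_, ?_⟩
  · rw [thetaL_jlMapLe S hL' hL'' hle' z, h1]
  · rw [← csMapLe_comp S hle hle', h2, csMapLe_csOfJ]

/-- the witness of `CmpRel` can be chosen above any given tower field -/
theorem CmpRel.exists_ge {L : QbarField} [NumberField L] {c : (CRep S).V} {c₀ : CS S ↥L}
    (h : CmpRel S c c₀) (L₁ : QbarField) (hL₁ : L₁.IsUnramifiedOutside S) :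
    ∃ (L' : QbarField) (hL' : IsTowerField S L') (hle : L ≤ L') (_ : L₁ ≤ L'),
      ∃ z : Additive (@JL S ↥L' _ (numberField_of_isTowerField hL')),
        (piC S).hom (@thetaL S L' (numberField_of_isTowerField hL') hL'.1 z) = c ∧
        @csMapLe S L L' _ (numberField_of_isTowerField hL') hle c₀ =
          @csOfJ S ↥L' _ (numberField_of_isTowerField hL') z := by
  obtain ⟨L', hL', hle, z, h1, h2⟩ := h
  haveI := numberField_of_isTowerField hL'
  obtain ⟨L'', hle', hle₁, hL''⟩ := exists_isTowerField_ge hL'.1 hL₁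
  haveI := numberField_of_isTowerField hL''
  obtain ⟨h3, h4⟩ := CmpRel.up S hL'.1 hL''.1 hle hle' z h1 h2
  exact ⟨L'', hL'', hle.trans hle', hle₁, jlMapLe S hle' z, h3, h4⟩

/-- **Uniqueness** of the comparison value. -/
theorem CmpRel.unique (hT : StmtTens) (hU : StmtUnitsS) (hS : S.Nonempty) {L : QbarField}
    [NumberField L] {c : (CRep S).V} {c₀ c₀' : CS S ↥L} (h : CmpRel S c c₀)
    (h' : CmpRel S c c₀') : c₀ = c₀' := by
  obtain ⟨L', hL', hle, z, h1, h2⟩ := h
  haveI := numberField_of_isTowerField hL'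
  obtain ⟨L'', hL'', hle'', hle', z', h1', h2'⟩ := h'.exists_ge S L' hL'.1
  haveI := numberField_of_isTowerField hL''
  obtain ⟨h3, h4⟩ := CmpRel.up S hL'.1 hL''.1 hle hle' z h1 h2
  apply csMapLe_injective S hS hle''
  rw [h4, h2']
  have h5 : (piC S).hom (thetaL S L'' hL''.1 (jlMapLe S hle' z - z')) = 0 := by
    rw [map_sub, map_sub, h3, h1', sub_self]
  have h6 := (piC_thetaL_eq_zero_iff hT hU S hS L'' hL''.1 hL''.2 _).1 h5
  rw [map_sub, sub_eq_zero] at h6
  exact h6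

/-- the class of `θ_{L'} z` is `G_L`-invariant iff `csOfJ z` is `Gal(L'/L)`-invariant
(direction used for the existence of the comparison value) -/
theorem cmp_csEnd_csOfJ_of_invariant (hT : StmtTens) (hU : StmtUnitsS) (hS : S.Nonempty)
    {L L' : QbarField} [NumberField L'] (hL' : IsTowerField S L') (hle : L ≤ L')
    (z : Additive (JL S ↥L')) (hc : (piC S).hom (thetaL S L' hL'.1 z) ∈ CInv S L)
    (σ' : ↥L' ≃ₐ[ℚ] ↥L')
    (hσ' : ∀ x : ↥L, (σ' (IntermediateField.inclusion hle x) : AlgebraicClosure ℚ) = x) :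
    csEnd S σ' (csOfJ S ↥L' z) = csOfJ S ↥L' z := by
  obtain ⟨g, hg⟩ := cmp_exists_lift L' hL'.2 σ'
  have hgL : g ∈ L.fixingSubgroup := by
    rw [IntermediateField.mem_fixingSubgroup_iff]
    intro y hy
    have h1 := hg (IntermediateField.inclusion hle ⟨y, hy⟩)
    have h2 := hσ' ⟨y, hy⟩
    exact h1.trans h2
  have h1 : csEnd S σ' (csOfJ S ↥L' z) = csOfJ S ↥L' (jlEnd S σ' z) :=
    (LinearMap.congr_fun (csOfJ_equivariant S σ') z).symm
  rw [h1, ← sub_eq_zero, ← map_sub]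
  apply (piC_thetaL_eq_zero_iff hT hU S hS L' hL'.1 hL'.2 _).1
  rw [map_sub, map_sub, thetaL_jlEnd S L' hL'.1 g σ' hg z,
    Rep.hom_comm_apply (piC S) g, hc g hgL, sub_self]

/-- **Existence** of the comparison value on `C_S^{G_L}`. -/
theorem CmpRel.exists_of_mem (hT : StmtTens) (hU : StmtUnitsS) (hR : StmtRamRel)
    (hS : S.Nonempty) {L : QbarField} [NumberField L] (hL : L.IsUnramifiedOutside S)
    (c : (CRep S).V) (hc : c ∈ CInv S L) : ∃ c₀ : CS S ↥L, CmpRel S c c₀ := by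
  obtain ⟨x, rfl⟩ := piC_surjective S c
  obtain ⟨L₀, hL₀, z₀, hz₀⟩ := exists_thetaL_eq hT S x
  haveI := numberField_of_isTowerField hL₀
  obtain ⟨L', hle₀, hle, hL'⟩ := exists_isTowerField_ge hL₀.1 hL
  haveI := numberField_of_isTowerField hL'
  have hz : thetaL S L' hL'.1 (jlMapLe S hle₀ z₀) = x := by
    rw [thetaL_jlMapLe S hL₀.1 hL'.1 hle₀ z₀, hz₀]
  have hc' : (piC S).hom (thetaL S L' hL'.1 (jlMapLe S hle₀ z₀)) ∈ CInv S L := by
    rw [hz]; exact hc
  obtain ⟨c₀, hc₀⟩ := csMapLe_descent S hR hS hL'.1 hL'.2 hle (csOfJ S ↥L' (jlMapLe S hle₀ z₀))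
    (fun σ' hσ' => cmp_csEnd_csOfJ_of_invariant S hT hU hS hL' hle _ hc' σ' hσ')
  exact ⟨c₀, L', hL', hle, jlMapLe S hle₀ z₀, by rw [hz], hc₀⟩

/-! ### Properties of the relation -/

theorem CmpRel.add {L : QbarField} [NumberField L] {c c' : (CRep S).V} {c₀ c₀' : CS S ↥L}
    (h : CmpRel S c c₀) (h' : CmpRel S c' c₀') : CmpRel S (c + c') (c₀ + c₀') := by
  obtain ⟨L', hL', hle, z, h1, h2⟩ := h
  haveI := numberField_of_isTowerField hL'
  obtain ⟨L'', hL'', hle'', hle', z', h1', h2'⟩ := h'.exists_ge S L' hL'.1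
  haveI := numberField_of_isTowerField hL''
  obtain ⟨h3, h4⟩ := CmpRel.up S hL'.1 hL''.1 hle hle' z h1 h2
  refine ⟨L'', hL'', hle'', jlMapLe S hle' z + z', ?_, ?_⟩
  · rw [map_add, map_add, h3, h1']
  · rw [map_add, map_add, h4, h2']

theorem CmpRel.eq_zero (hT : StmtTens) (hU : StmtUnitsS) (hS : S.Nonempty) {L : QbarField}
    [NumberField L] {c : (CRep S).V} (h : CmpRel S c (0 : CS S ↥L)) : c = 0 := by
  obtain ⟨L', hL', hle, z, h1, h2⟩ := h
  haveI := numberField_of_isTowerField hL'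
  rw [map_zero] at h2
  rw [← h1]
  exact (piC_thetaL_eq_zero_iff hT hU S hS L' hL'.1 hL'.2 z).2 h2.symm

theorem CmpRel.smul {L : QbarField} [NumberField L] (hG : IsGalois ℚ L) {c : (CRep S).V}
    {c₀ : CS S ↥L} (h : CmpRel S c c₀) (g : GQ) (σ : ↥L ≃ₐ[ℚ] ↥L)
    (hσ : ∀ x : ↥L, g (x : AlgebraicClosure ℚ) = σ x) :
    CmpRel S ((CRep S).ρ g c) (csEnd S σ c₀) := by
  obtain ⟨L', hL', hle, z, h1, h2⟩ := h
  haveI := numberField_of_isTowerField hL'
  refine ⟨L', hL', hle, jlEnd S (cmpRestrict L' hL'.2 g) z, ?_, ?_⟩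
  · rw [thetaL_jlEnd S L' hL'.1 g (cmpRestrict L' hL'.2 g) (cmpRestrict_apply L' hL'.2 g) z,
      Rep.hom_comm_apply (piC S) g, h1]
  · have h3 : csEnd S (cmpRestrict L' hL'.2 g) (csMapLe S hle c₀) =
        csMapLe S hle (csEnd S σ c₀) := by
      refine csEnd_csMapLe S hle _ σ (fun x => ?_) c₀
      rw [← cmpRestrict_apply L' hL'.2 g, ← hσ x]
      rfl
    rw [← h3, h2]
    exact (LinearMap.congr_fun (csOfJ_equivariant S (cmpRestrict L' hL'.2 g)) z).symm

theorem CmpRel.idelic (hT : StmtTens) {L : QbarField} [NumberField L] (hL : IsTowerField S L)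
    (z : Additive (JL S ↥L)) :
    CmpRel S ((piC S).hom (thetaL S L hL.1 z)) (csOfJ S ↥L z) := by
  refine ⟨L, hL, le_refl L, z, rfl, ?_⟩
  rw [csMapLe_csOfJ]
  congr 1
  apply (hT S L hL.1 hL.2).1
  exact thetaL_jlMapLe S hL.1 hL.1 (le_refl L) z

theorem CmpRel.natural {L L₁ : QbarField} [NumberField L] [NumberField L₁]
    (hL₁ : L₁.IsUnramifiedOutside S) (hle : L ≤ L₁) {c : (CRep S).V} {c₀ : CS S ↥L}
    (h : CmpRel S c c₀) : CmpRel S c (csMapLe S hle c₀) := by
  obtain ⟨L', hL', hle', hle₁, z, h1, h2⟩ := h.exists_ge S L₁ hL₁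
  haveI := numberField_of_isTowerField hL'
  refine ⟨L', hL', hle₁, z, h1, ?_⟩
  rw [csMapLe_comp S hle hle₁]
  exact h2

/-- the cokernel is killed by an integer prime to `p` -/
theorem CmpRel.pcoker (p : ℕ) [Fact p.Prime] (hT : StmtTens) (hU : StmtUnitsS)
    (hC : StmtCapCS) (hpS : pPrime p ∈ S) {L : QbarField} [NumberField L]
    (hL : IsTowerField S L) :
    ∃ m : ℕ, ¬ p ∣ m ∧ ∀ c' : CS S ↥L, ∃ c ∈ CInv S L, CmpRel S c (m • c') := by
  have hS : S.Nonempty := ⟨_, hpS⟩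
  haveI : Finite (CS S ↥L ⧸ LinearMap.range (csOfJ S ↥L)) := (stmtCSExact S ↥L).2
  have hn0 : Nat.card (CS S ↥L ⧸ LinearMap.range (csOfJ S ↥L)) ≠ 0 := Nat.card_pos.ne'
  obtain ⟨a, m, hm, hnm⟩ := Nat.exists_eq_pow_mul_and_not_dvd hn0 p
    (Fact.out : p.Prime).ne_one
  refine ⟨m, hm, fun c' => ?_⟩
  -- `p ^ a • (m • c')` is idelic
  have h1 : (p ^ a) • (m • c') ∈ LinearMap.range (csOfJ S ↥L) := by
    rw [← mul_smul, ← hnm, ← Submodule.Quotient.mk_eq_zero, Submodule.Quotient.mk_smul]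
    exact card_nsmul_eq_zero'
  obtain ⟨L', hL', hle, z, hz⟩ := hC p S hpS L hL (m • c') ⟨a, h1⟩
  haveI := numberField_of_isTowerField hL'
  have hz' : csOfJ S ↥L' z = csMapLe S hle (m • c') := hz
  refine ⟨(piC S).hom (thetaL S L' hL'.1 z), ?_, L', hL', hle, z, rfl, hz'.symm⟩
  -- invariance
  intro s hs
  rw [IntermediateField.mem_fixingSubgroup_iff] at hs
  rw [← Rep.hom_comm_apply (piC S) s,
    ← thetaL_jlEnd S L' hL'.1 s (cmpRestrict L' hL'.2 s) (cmpRestrict_apply L' hL'.2 s) z,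
    ← sub_eq_zero, ← map_sub, ← map_sub]
  apply (piC_thetaL_eq_zero_iff hT hU S hS L' hL'.1 hL'.2 _).2
  rw [map_sub, sub_eq_zero]
  have h5 : csOfJ S ↥L' (jlEnd S (cmpRestrict L' hL'.2 s) z) =
      csEnd S (cmpRestrict L' hL'.2 s) (csOfJ S ↥L' z) :=
    LinearMap.congr_fun (csOfJ_equivariant S (cmpRestrict L' hL'.2 s)) z
  rw [h5, hz']
  refine csEnd_csMapLe_of_fixes S hle _ (fun x => ?_) _
  rw [← cmpRestrict_apply L' hL'.2 s]
  exact hs x x.2

end Fermat.Agent.PT.B

end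


end ZBPT_052_2

/-! ### bundled: `Fermat.Agent.PT.B.Compare` -/
section ZBPT_052_3
/-
PT-B, piece **compare** (I5/I6): the comparison family
`f_L : (J_S/E_S)^{G_L} → C_S(L)` exists (`StmtCompare`, PT/B/Plan4.lean), given the tensor model
(`StmtTens`), the dictionary of units (`StmtUnitsS`), ramification (`StmtRamRel`) and
`p`-capitulation (`StmtCapCS`).
-/

set_option autoImplicit false
set_option linter.style.haveILetI false
set_option linter.unusedSectionVars false

noncomputable section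

namespace Fermat.Agent.PT.B

open Fermat.Agent.PT CategoryTheory groupCohomology ExtCitation
open Fermat.Agent.PT.G Fermat.Agent.PT.G1 Fermat.Agent.PT.G3
open scoped Pointwise TensorProduct

variable (S : Finset Nat.Primes)

/-- the comparison value of `c ∈ C_S^{G_L}` -/
def cmpFun (hT : StmtTens) (hU : StmtUnitsS) (hR : StmtRamRel) (hS : S.Nonempty)
    (L : QbarField) (hL : IsTowerField S L) (c : ↥(CInv S L)) :
    @CS S ↥L _ (numberField_of_isTowerField hL) :=
  Classical.choose (@CmpRel.exists_of_mem S hT hU hR hS L (numberField_of_isTowerField hL)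
    hL.1 c.1 c.2)

theorem cmpFun_spec (hT : StmtTens) (hU : StmtUnitsS) (hR : StmtRamRel) (hS : S.Nonempty)
    (L : QbarField) (hL : IsTowerField S L) (c : ↥(CInv S L)) :
    @CmpRel S L (numberField_of_isTowerField hL) c.1 (cmpFun S hT hU hR hS L hL c) :=
  Classical.choose_spec (@CmpRel.exists_of_mem S hT hU hR hS L (numberField_of_isTowerField hL)
    hL.1 c.1 c.2)

/-- `cmpFun` is characterised by `CmpRel`. -/
theorem cmpFun_eq (hT : StmtTens) (hU : StmtUnitsS) (hR : StmtRamRel) (hS : S.Nonempty)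
    (L : QbarField) (hL : IsTowerField S L) (c : ↥(CInv S L))
    (c₀ : @CS S ↥L _ (numberField_of_isTowerField hL))
    (h : @CmpRel S L (numberField_of_isTowerField hL) c.1 c₀) :
    cmpFun S hT hU hR hS L hL c = c₀ :=
  @CmpRel.unique S hT hU hS L (numberField_of_isTowerField hL) _ _ _
    (cmpFun_spec S hT hU hR hS L hL c) h

/-- **The comparison family.** -/
def cmpFamily (hT : StmtTens) (hU : StmtUnitsS) (hR : StmtRamRel) (hS : S.Nonempty) :
    CompareFamily S := fun L hL =>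
  AddMonoidHom.mk' (cmpFun S hT hU hR hS L hL) (fun c c' =>
    cmpFun_eq S hT hU hR hS L hL (c + c') _
      (@CmpRel.add S L (numberField_of_isTowerField hL) _ _ _ _
        (cmpFun_spec S hT hU hR hS L hL c) (cmpFun_spec S hT hU hR hS L hL c')))

theorem cmpFamily_apply (hT : StmtTens) (hU : StmtUnitsS) (hR : StmtRamRel) (hS : S.Nonempty)
    (L : QbarField) (hL : IsTowerField S L) (c : ↥(CInv S L)) :
    cmpFamily S hT hU hR hS L hL c = cmpFun S hT hU hR hS L hL c := rfl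

/-- **I5/I6**: the comparison maps exist. -/
theorem stmtCompare_of (hT : StmtTens) (hU : StmtUnitsS) (hR : StmtRamRel) (hC : StmtCapCS) :
    StmtCompare := by
  intro p _ S hpS
  have hS : S.Nonempty := ⟨_, hpS⟩
  refine ⟨cmpFamily S hT hU hR hS, ?_, ?_, ?_, ?_, ?_⟩
  · -- injective
    intro L hL
    haveI := numberField_of_isTowerField hL
    rw [injective_iff_map_eq_zero]
    intro c hc
    have h := cmpFun_spec S hT hU hR hS L hL c
    rw [cmpFamily_apply] at hc
    rw [hc] at h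
    exact Subtype.ext (CmpRel.eq_zero S hT hU hS h)
  · -- cokernel
    intro L hL
    haveI := numberField_of_isTowerField hL
    obtain ⟨m, hm, h⟩ := CmpRel.pcoker S p hT hU hC hpS hL
    refine ⟨m, hm, fun c' => ?_⟩
    obtain ⟨c, hc, hrel⟩ := h c'
    exact ⟨⟨c, hc⟩, cmpFun_eq S hT hU hR hS L hL ⟨c, hc⟩ _ hrel⟩
  · -- equivariant
    intro L hL g σ hσ c
    haveI := numberField_of_isTowerField hL
    exact cmpFun_eq S hT hU hR hS L hL _ _
      (CmpRel.smul S hL.2 (cmpFun_spec S hT hU hR hS L hL c) g σ hσ)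
  · -- idelic
    intro L hL z
    haveI := numberField_of_isTowerField hL
    exact cmpFun_eq S hT hU hR hS L hL _ _ (CmpRel.idelic S hT hL z)
  · -- natural
    intro L L' hL hL' hle c
    haveI := numberField_of_isTowerField hL
    haveI := numberField_of_isTowerField hL'
    exact (cmpFun_eq S hT hU hR hS L' hL' _ _
      (CmpRel.natural S hL'.1 hle (cmpFun_spec S hT hU hR hS L hL c))).symm

end Fermat.Agent.PT.B

end


end ZBPT_052_3

/-! ### bundled: `Fermat.Agent.PT.B.RamRel` -/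
section ZBPT_052_4
/-
PT-B, piece I1' (helper11): a field unramified outside `S` in the prelude's sense (inertia
groups of valuation subrings of `ℚ̄`) is unramified outside `S` in the ideal-theoretic sense
of PT/G/Plan2.lean.  `stmtRamRel : StmtRamRel`.

Proof: `L` lies in a tower field `N` (`stmtNormalClosure`); in `N` all inertia groups at primes
off `S` are trivial (`stmtRam`), so `e(𝔓 | q) = |I_𝔓| = 1` (`uo_card_inertia`); then descend
along `ℚ ⊆ L ⊆ N` (`stmtUnramTower`).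
-/

set_option autoImplicit false
set_option linter.style.haveILetI false

noncomputable section

namespace Fermat.Agent.PT.B

open NumberField IsDedekindDomain Fermat.Agent.PT.G Fermat.Agent.PT.G1

/-- A tower field is unramified outside `S` over `ℚ` in the ideal-theoretic sense. -/
theorem ramRel_of_isTowerField (S : Finset Nat.Primes) (N : QbarField) (hN : IsTowerField S N) :
    haveI := numberField_of_isTowerField hN
    UnramOffRel S ℚ ↥N := by
  haveI := numberField_of_isTowerField hN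
  haveI : IsGalois ℚ ↥N := hN.2
  intro P
  rw [← uo_card_inertia (K := ℚ) P.1]
  rw [Nat.card_eq_one_iff_unique]
  refine ⟨⟨fun a b => ?_⟩, ⟨1⟩⟩
  have key : ∀ σ : ↥(P.1.asIdeal.inertia (↥N ≃ₐ[ℚ] ↥N)), σ = 1 := by
    intro σ
    by_contra hσ
    have hσ1 : (σ : ↥N ≃ₐ[ℚ] ↥N) ≠ 1 := fun h => hσ (Subtype.ext h)
    obtain ⟨x, hx⟩ := stmtRam S N hN (σ : ↥N ≃ₐ[ℚ] ↥N) hσ1 P
    exact hx (σ.2 x)
  rw [key a, key b]

/-- **I1'** (RAM-rel). -/
theorem stmtRamRel : StmtRamRel := by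
  intro S L hL
  obtain ⟨N, hle, hN⟩ := stmtNormalClosure S L hL
  haveI := numberField_of_isUnramifiedOutside hL
  haveI := numberField_of_isTowerField hN
  letI := algebraOfLe hle
  haveI : IsScalarTower ℚ ↥L ↥N := IsScalarTower.of_algebraMap_eq fun x => by
    apply Subtype.ext
    rfl
  exact (Fermat.Agent.PT.G3.stmtUnramTower S ℚ ↥L ↥N (ramRel_of_isTowerField S N hN)).2

end Fermat.Agent.PT.B

end


end ZBPT_052_4

/-! ### bundled: `Fermat.Agent.PT.X.Cap` -/
section ZBPT_052_5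
/-
PT-X — piece **X-CAP** (helper32): `p`-capitulation in the tower `𝓕_S`.

`stmtCapCS_of : StmtKummerTower → B.StmtCapCS`: a class `c ∈ C_S(L)` with `p^k c` idelic becomes
idelic in a larger tower field.  Induction on `k`: `c = [(j, d)]`, `p^(k+1) d = div x`, `x ∈ Lˣ`;
`W` := the subgroup generated by the `Aut(L)`-orbit of `x` (`≤ selV`, stable, finitely generated);
`L₁ := L(W^{1/p})` is in the tower (X-KUM); `β^p = x` in `L₁` gives `div β = p^k · divMap d`.
-/

set_option autoImplicit false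
set_option linter.style.haveILetI false
set_option linter.unusedSectionVars false

noncomputable section

namespace Fermat.Agent.PT.X

open NumberField IsDedekindDomain Fermat.Agent.PT.G Fermat.Agent.PT.G1 Fermat.Agent.PT
open Fermat.Agent.PT.B Fermat.Agent.PT.G3 ExtCitation

/-! ### Type level: idelic classes and divisors -/

section TypeLevel

variable (S : Finset Nat.Primes) (K L : Type) [Field K] [NumberField K] [Field L] [NumberField L]
  [Algebra K L]

/-- If `n • [(j, d)]` is idelic then `n • d` is principal. -/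
lemma xcap_div_of_smul_mem (n : ℕ) (j : Additive (JL S K)) (d : DivS S K)
    (h : n • csMk S K (j, d) ∈ LinearMap.range (csOfJ S K)) :
    ∃ x : Additive Kˣ, divHom S K x = n • d := by
  obtain ⟨j₀, hj₀⟩ := h
  rw [csOfJ_apply, ← map_nsmul, eq_comm] at hj₀
  have h1 : csMk S K (n • (j, d) - (j₀, 0)) = 0 := by
    rw [map_sub, hj₀, sub_self]
  rw [Submodule.mkQ_apply, Submodule.Quotient.mk_eq_zero] at h1
  obtain ⟨x, hx⟩ := h1
  refine ⟨x, ?_⟩
  have h2 := congrArg Prod.snd hx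
  simpa [iotaHom] using h2

/-- If `n • d` is principal then `n • [(j, d)]` is idelic. -/
lemma xcap_smul_mem_of_div (n : ℕ) (j : Additive (JL S K)) (d : DivS S K) (y : Additive Kˣ)
    (h : divHom S K y = n • d) :
    n • csMk S K (j, d) ∈ LinearMap.range (csOfJ S K) := by
  refine ⟨n • j - (MonoidHom.toAdditive (jlDiag S K)).toIntLinearMap y, ?_⟩
  rw [csOfJ_apply, ← map_nsmul, eq_comm]
  have h1 : n • (j, d) - (n • j - (MonoidHom.toAdditive (jlDiag S K)).toIntLinearMap y, 0) =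
      iotaHom S K y := by
    apply Prod.ext
    · simp [iotaHom]
    · simp [iotaHom, h]
  have h2 : csMk S K (n • (j, d) -
      (n • j - (MonoidHom.toAdditive (jlDiag S K)).toIntLinearMap y, 0)) = 0 := by
    rw [h1, Submodule.mkQ_apply, Submodule.Quotient.mk_eq_zero]
    exact ⟨y, rfl⟩
  rw [map_sub, sub_eq_zero] at h2
  exact h2

/-- `Div_S` has no `n`-torsion. -/
lemma xcap_divS_cancel {n : ℕ} (hn : n ≠ 0) {a b : DivS S L} (h : n • a = n • b) : a = b := by
  ext P
  have h1 := DFunLike.congr_fun h P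
  simp only [Finsupp.smul_apply, nsmul_eq_mul] at h1
  exact mul_left_cancel₀ (Nat.cast_ne_zero.2 hn) h1

/-- The key computation: `p^(k+1) d = div x`, `β^p = x` in `L` ⟹ `div β = p^k · divMap d`. -/
lemma xcap_root_div (p : ℕ) (hp : p ≠ 0) (k : ℕ) (d : DivS S K) (x : Kˣ)
    (hx : divHom S K (Additive.ofMul x) = (p ^ (k + 1)) • d) (β : Lˣ)
    (hβ : β ^ p = Units.map (algebraMap K L : K →* L) x) :
    divHom S L (Additive.ofMul β) = (p ^ k) • divMap S K L d := by
  apply xcap_divS_cancel S L hp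
  have h1 : p • divHom S L (Additive.ofMul β) = divHom S L (Additive.ofMul (β ^ p)) := by
    rw [← map_nsmul]
    rfl
  rw [h1, hβ]
  have h2 := divMap_divHom S K L (Additive.ofMul x)
  rw [show Additive.toMul (Additive.ofMul x) = x from rfl] at h2
  rw [← h2, hx, map_nsmul, pow_succ, mul_comm, mul_smul]

end TypeLevel

/-! ### The subgroup generated by the orbit of an element -/

section Orbit

variable (p : ℕ) (S : Finset Nat.Primes) (K : Type) [Field K] [NumberField K]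

/-- the subgroup of `Kˣ` generated by the `Aut(K)`-orbit of `x` -/
def xcapOrbit (x : Kˣ) : Subgroup Kˣ :=
  Subgroup.closure (Set.range fun σ : K ≃ₐ[ℚ] K => Units.map ((σ : K ≃ₐ[ℚ] K) : K →* K) x)

variable {K}

lemma xcap_self_mem (x : Kˣ) : x ∈ xcapOrbit K x := by
  apply Subgroup.subset_closure
  refine ⟨1, ?_⟩
  ext
  rfl

lemma xcap_selV_stable (σ : K ≃ₐ[ℚ] K) {a : Kˣ} (ha : a ∈ selV p S K) :
    Units.map ((σ : K ≃ₐ[ℚ] K) : K →* K) a ∈ selV p S K := by
  intro P
  obtain ⟨Q, rfl⟩ := (offEquiv S σ).surjective P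
  have h := ordAt_primeMap σ Q.1 a
  have h2 : (offEquiv S σ Q).1 = primeMap σ Q.1 := rfl
  rw [h2, h]
  exact ha Q

lemma xcapOrbit_le_selV {x : Kˣ} (hx : x ∈ selV p S K) : xcapOrbit K x ≤ selV p S K := by
  rw [xcapOrbit, Subgroup.closure_le]
  rintro _ ⟨σ, rfl⟩
  exact xcap_selV_stable p S σ hx

lemma xcapOrbit_stable (x : Kˣ) (σ : K ≃ₐ[ℚ] K) {a : Kˣ} (ha : a ∈ xcapOrbit K x) :
    Units.map ((σ : K ≃ₐ[ℚ] K) : K →* K) a ∈ xcapOrbit K x := by
  have h : xcapOrbit K x ≤ (xcapOrbit K x).comap (Units.map ((σ : K ≃ₐ[ℚ] K) : K →* K)) := by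
    rw [xcapOrbit, Subgroup.closure_le]
    rintro _ ⟨τ, rfl⟩
    rw [SetLike.mem_coe, Subgroup.mem_comap]
    apply Subgroup.subset_closure
    refine ⟨σ * τ, ?_⟩
    ext
    rfl
  exact h ha

lemma xcapOrbit_relIndex_ne_zero (hp : p ≠ 0) (x : Kˣ) :
    (powMonoidHom p : Kˣ →* Kˣ).range.relIndex (xcapOrbit K x) ≠ 0 := by
  rw [kum_relIndex_eq_card_map]
  set Q := (xcapOrbit K x).map (QuotientGroup.mk' (powMonoidHom p : Kˣ →* Kˣ).range) with hQ
  haveI : Finite (K ≃ₐ[ℚ] K) := inferInstance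
  have hfg : Q.FG := by
    rw [hQ, xcapOrbit, MonoidHom.map_closure]
    exact (Subgroup.fg_iff _).2 ⟨_, rfl, (Set.finite_range _).image _⟩
  haveI : Group.FG Q := (Group.fg_iff_subgroup_fg Q).2 hfg
  have htors : IsMulTorsion Q := by
    rintro ⟨q, hq⟩
    rw [isOfFinOrder_iff_pow_eq_one]
    refine ⟨p, Nat.pos_of_ne_zero hp, ?_⟩
    apply Subtype.ext
    obtain ⟨a, -, rfl⟩ := hq
    show (QuotientGroup.mk' (powMonoidHom p : Kˣ →* Kˣ).range a) ^ p = 1
    rw [← map_pow, QuotientGroup.mk'_apply, QuotientGroup.eq_one_iff]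
    exact ⟨a, rfl⟩
  haveI : Finite Q := CommGroup.finite_of_fg_isMulTorsion Q htors
  exact Nat.card_pos.ne'

end Orbit

/-! ### Tower level -/

section Tower

variable {S : Finset Nat.Primes}

/-- the inclusions of a tower `L₀ ≤ L₁ ≤ L₂` form a scalar tower -/
lemma xcap_isScalarTower {L₀ L₁ L₂ : QbarField} (h₀₁ : L₀ ≤ L₁) (h₁₂ : L₁ ≤ L₂) :
    @IsScalarTower ↥L₀ ↥L₁ ↥L₂ (algebraOfLe h₀₁).toSMul (algebraOfLe h₁₂).toSMul
      (algebraOfLe (h₀₁.trans h₁₂)).toSMul :=
  letI := algebraOfLe h₀₁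
  letI := algebraOfLe h₁₂
  letI := algebraOfLe (h₀₁.trans h₁₂)
  IsScalarTower.of_algebraMap_eq (fun _ => rfl)

/-- transitivity of `csMap` along inclusions -/
lemma xcap_csMap_trans {L₀ L₁ L₂ : QbarField} [NumberField ↥L₀] [NumberField ↥L₁]
    [NumberField ↥L₂] (h₀₁ : L₀ ≤ L₁) (h₁₂ : L₁ ≤ L₂) (c : CS S ↥L₀) :
    @csMap S ↥L₁ ↥L₂ _ _ _ _ (algebraOfLe h₁₂) (@csMap S ↥L₀ ↥L₁ _ _ _ _ (algebraOfLe h₀₁) c) =
      @csMap S ↥L₀ ↥L₂ _ _ _ _ (algebraOfLe (h₀₁.trans h₁₂)) c := by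
  letI := algebraOfLe h₀₁
  letI := algebraOfLe h₁₂
  letI := algebraOfLe (h₀₁.trans h₁₂)
  haveI := xcap_isScalarTower h₀₁ h₁₂
  exact mcomp_csMap S ↥L₀ ↥L₁ ↥L₂ c

/-- idelic classes stay idelic -/
lemma xcap_csMap_mem_range (K L : Type) [Field K] [NumberField K] [Field L] [NumberField L]
    [Algebra K L] (n : ℕ) (c : CS S K) (h : n • c ∈ LinearMap.range (csOfJ S K)) :
    n • csMap S K L c ∈ LinearMap.range (csOfJ S L) := by
  obtain ⟨j, hj⟩ := h
  exact ⟨jlMapLin S K L j, by rw [← csMap_csOfJ, hj, map_nsmul]⟩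

/-- **The inductive step**: over a tower field containing `μ_p`, the exponent drops by one in
the Kummer extension generated by the orbit of `x`, `div x = p^(k+1) d`. -/
lemma xcap_step (hKT : StmtKummerTower) (p : ℕ) [Fact p.Prime] (hpS : pPrime p ∈ S) (k : ℕ)
    (L₀ : QbarField) [NumberField ↥L₀] (hL₀ : IsTowerField S L₀) (ζ : ↥L₀)
    (hζ : IsPrimitiveRoot ζ p) (c₀ : CS S ↥L₀)
    (h : (p ^ (k + 1)) • c₀ ∈ LinearMap.range (csOfJ S ↥L₀)) :
    ∃ (L₁ : QbarField) (_ : NumberField ↥L₁) (_ : IsTowerField S L₁) (hle : L₀ ≤ L₁),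
      (p ^ k) • @csMap S ↥L₀ ↥L₁ _ _ _ _ (algebraOfLe hle) c₀ ∈
        LinearMap.range (csOfJ S ↥L₁) := by
  have hp : p ≠ 0 := (Fact.out : p.Prime).ne_zero
  obtain ⟨⟨j, d⟩, rfl⟩ := Submodule.mkQ_surjective _ c₀
  obtain ⟨x, hx⟩ := xcap_div_of_smul_mem S ↥L₀ (p ^ (k + 1)) j d h
  have hxV : Additive.toMul x ∈ selV p S ↥L₀ := by
    intro P
    have h1 := DFunLike.congr_fun hx P
    rw [divHom_apply] at h1
    rw [h1]
    simp only [Finsupp.smul_apply, nsmul_eq_mul, Nat.cast_pow]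
    exact Dvd.intro ((p : ℤ) ^ k * d P) (by ring)
  set W : Subgroup (↥L₀)ˣ := xcapOrbit ↥L₀ (Additive.toMul x) with hW
  have hT := hKT p S ⟨pPrime p, hpS, rfl⟩ L₀ hL₀ ζ hζ W (xcapOrbit_le_selV p S hxV)
    (fun σ a ha => xcapOrbit_stable (Additive.toMul x) σ ha)
    (xcapOrbit_relIndex_ne_zero p hp (Additive.toMul x))
  have hle : L₀ ≤ (kumField p W (AlgebraicClosure ℚ)).restrictScalars ℚ := by
    intro y hy
    exact (kumField p W (AlgebraicClosure ℚ)).algebraMap_mem (⟨y, hy⟩ : ↥L₀)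
  haveI hN₁ : NumberField ↥((kumField p W (AlgebraicClosure ℚ)).restrictScalars ℚ) :=
    numberField_of_isTowerField hT
  refine ⟨(kumField p W (AlgebraicClosure ℚ)).restrictScalars ℚ, hN₁, hT, hle, ?_⟩
  obtain ⟨b, hb⟩ := IsAlgClosed.exists_pow_nat_eq
    (((Additive.toMul x : (↥L₀)ˣ) : ↥L₀) : AlgebraicClosure ℚ) (Nat.pos_of_ne_zero hp)
  have hbmem : b ∈ (kumField p W (AlgebraicClosure ℚ)).restrictScalars ℚ := by
    apply IntermediateField.subset_adjoin
    exact ⟨Additive.toMul x, xcap_self_mem _, hb⟩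
  have hb0 : (⟨b, hbmem⟩ : ↥((kumField p W (AlgebraicClosure ℚ)).restrictScalars ℚ)) ≠ 0 := by
    intro h0
    have h1 : b = 0 := congrArg Subtype.val h0
    rw [h1, zero_pow hp] at hb
    have h2 : ((Additive.toMul x : (↥L₀)ˣ) : ↥L₀) = 0 := Subtype.ext hb.symm
    exact (Additive.toMul x).ne_zero h2
  letI := algebraOfLe hle
  have hβ : (Units.mk0 _ hb0) ^ p =
      Units.map (algebraMap ↥L₀ ↥((kumField p W (AlgebraicClosure ℚ)).restrictScalars ℚ) :
        ↥L₀ →* ↥((kumField p W (AlgebraicClosure ℚ)).restrictScalars ℚ)) (Additive.toMul x) := by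
    apply Units.ext
    apply Subtype.ext
    exact hb
  have hdiv := xcap_root_div S ↥L₀ ↥((kumField p W (AlgebraicClosure ℚ)).restrictScalars ℚ)
    p hp k d (Additive.toMul x) hx (Units.mk0 _ hb0) hβ
  exact xcap_smul_mem_of_div S _ (p ^ k) _ _ _ hdiv

/-- **`p`-capitulation**, by induction on the exponent. -/
theorem xcap_main (hKT : StmtKummerTower) (p : ℕ) [Fact p.Prime] (hpS : pPrime p ∈ S) (k : ℕ) :
    ∀ (L : QbarField) [NumberField ↥L] (_ : IsTowerField S L) (c : CS S ↥L),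
      (p ^ k) • c ∈ LinearMap.range (csOfJ S ↥L) →
      ∃ (L' : QbarField) (_ : NumberField ↥L') (_ : IsTowerField S L') (hle : L ≤ L'),
        @csMap S ↥L ↥L' _ _ _ _ (algebraOfLe hle) c ∈ LinearMap.range (csOfJ S ↥L') := by
  induction k with
  | zero =>
    intro L _ hL c h
    refine ⟨L, inferInstance, hL, le_rfl, ?_⟩
    have h1 := @xcap_csMap_mem_range S ↥L ↥L _ _ _ _ (algebraOfLe le_rfl) 1 c
      (by rw [one_smul]; rwa [pow_zero, one_smul] at h)
    rwa [one_smul] at h1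
  | succ k ih =>
    intro L _ hL c h
    have hp : p ≠ 0 := (Fact.out : p.Prime).ne_zero
    haveI : NeZero p := ⟨hp⟩
    -- adjoin `μ_p`
    have hL₀ : IsTowerField S (L ⊔ cycloField p) :=
      isTowerField_sup hL (cycloField_isTowerField p S hpS)
    haveI : NumberField ↥(L ⊔ cycloField p) := numberField_of_isTowerField hL₀
    have hle₀ : L ≤ L ⊔ cycloField p := le_sup_left
    obtain ⟨z, hz⟩ := cycloField_exists_primitiveRoot p
    have hzmem : z ∈ L ⊔ cycloField p :=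
      (le_sup_right : cycloField p ≤ L ⊔ cycloField p)
        (IntermediateField.subset_adjoin ℚ _ hz.pow_eq_one)
    have hζ : IsPrimitiveRoot (⟨z, hzmem⟩ : ↥(L ⊔ cycloField p)) p :=
      IsPrimitiveRoot.of_map_of_injective (f := (L ⊔ cycloField p).val)
        (by exact hz) (L ⊔ cycloField p).val.injective
    have h₀ := @xcap_csMap_mem_range S ↥L ↥(L ⊔ cycloField p) _ _ _ _ (algebraOfLe hle₀)
      (p ^ (k + 1)) c h
    obtain ⟨L₁, hN₁, hL₁, hle₁, h₁⟩ := xcap_step hKT p hpS k (L ⊔ cycloField p) hL₀ _ hζ _ h₀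
    obtain ⟨L', hN', hL', hle', h'⟩ := ih L₁ hL₁ _ h₁
    refine ⟨L', hN', hL', hle₀.trans (hle₁.trans hle'), ?_⟩
    rw [xcap_csMap_trans hle₁ hle', xcap_csMap_trans hle₀ (hle₁.trans hle')] at h'
    exact h'

end Tower

/-- **X-CAP**: `p`-capitulation in the tower, from X-KUM. -/
theorem stmtCapCS_of (hKT : StmtKummerTower) : B.StmtCapCS := by
  intro p _ S hpS L hL c hc
  obtain ⟨k, hk⟩ := hc
  haveI := numberField_of_isTowerField hL
  obtain ⟨L', _, hL', hle, h⟩ := xcap_main hKT p hpS k L hL c hk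
  exact ⟨L', hL', hle, h⟩

end Fermat.Agent.PT.X

end


end ZBPT_052_5

/-! ### bundled: `Fermat.Agent.PT.X.CapFinal` -/
section ZBPT_052_6
/-
PT-X — **X-CAP**, unconditional (helper30): `p`-capitulation for `C_S(·)` in the tower,
`stmtCapCS : B.StmtCapCS`, from `stmtCapCS_of` (Cap.lean) and `stmtKummerTower` (KummerTower.lean).
-/

set_option autoImplicit false

namespace Fermat.Agent.PT.X

/-- **X-CAP**, unconditional. -/
theorem stmtCapCS : Fermat.Agent.PT.B.StmtCapCS := stmtCapCS_of stmtKummerTower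

end Fermat.Agent.PT.X


end ZBPT_052_6

/-! ### bundled: `Fermat.Agent.PT.G3.CycFinal` -/
section ZBPT_052_7
/-
PT-G3, piece `cyc` (sub-captain helper75): `StmtCyc`, UNCONDITIONAL.
Pieces: cyc-gal, cyc-chi, cyc-normal (helper48, CycGal.lean), cyc-unram (helper26, CycUnram.lean),
cyc-lam (helper1, CycLambda.lean), cyc-card (helper60, CycCard.lean), cyc-E' (helper67,
CycEPrime.lean), cyc-ext, cyc-theta, assembly (helper75, CycExt/CycTheta/Cyc.lean).
-/

set_option autoImplicit false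

namespace Fermat.Agent.PT.G3

/-- **cyc-ext**, unconditional. -/
theorem stmtCycExt : StmtCycExt := stmtCycExt_of stmtCycGalois stmtCycRNormal

/-- **cyc-theta**, unconditional. -/
theorem stmtCycTheta : StmtCycTheta := stmtCycTheta_of stmtCycExt

/-- **cyc-unram**, unconditional. -/
theorem stmtCycUnramTop : StmtCycUnramTop := stmtCycUnramTop_of stmtCycGalois

/-- **G3-cyc**: the cyclotomic auxiliary field `N = L·ℚ_n` exists (`CycData`). UNCONDITIONAL. -/
theorem stmtCyc : StmtCyc :=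
  stmtCyc_of stmtCycGalois stmtCycChiSurj stmtCycLambda stmtCycRNormal stmtCycUnramTop
    stmtCycExt stmtCycTheta stmtCycCard stmtCycEPrime stmtUnramTower

end Fermat.Agent.PT.G3


end ZBPT_052_7

/-! ### bundled: `Fermat.Agent.PT.G3.GBCycDec` -/
section ZBPT_052_8
/-
PT-GB, piece `cycDec` (helper75): the cyclotomic auxiliary field `N = L·ℚ_n` of `StmtCyc` has
`HasDec`: on the decomposition group of a maximal ideal of `ℚ_q ⊗ N`, `q ≠ p`, the character
`θ = lam ∘ χ` takes values in the group generated by `lam [q]`.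

* `cycDec_frob`   : a ring endomorphism stabilising a maximal ideal with finite residue field of
                    characteristic `q` acts on the residue field as a power of the Frobenius;
* `cycDec_root`   : an automorphism stabilising a prime over `q ≠ p` raises `ζ_{p^m}` to a power
                    of `q`;
* `cycDec_adjust` : an extension of `σ` can be modified by `Gal(M/K)` to stabilise a prime over `P`;
* `cycDec_key`, `stmtCycDec`.
-/

set_option autoImplicit false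

namespace Fermat.Agent.PT.G3

open NumberField IsDedekindDomain
open Fermat.Agent.PT Fermat.Agent.PT.G Fermat.Agent.PT.G1
open scoped Pointwise

/-- A ring endomorphism of `B` stabilising a maximal ideal `Q` with finite residue field of
characteristic `q` acts on `B ⧸ Q` as a power of the Frobenius. -/
theorem cycDec_frob {B : Type*} [CommRing B] (Q : Ideal B) [hQ : Q.IsMaximal] [Finite (B ⧸ Q)]
    (q : ℕ) [hq : Fact q.Prime] (hqQ : (q : B) ∈ Q) (f : B →+* B) (hf : ∀ x ∈ Q, f x ∈ Q) :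
    ∃ j : ℕ, ∀ x : B, f x - x ^ (q ^ j) ∈ Q := by
  letI : Field (B ⧸ Q) := Ideal.Quotient.field Q
  have : CharP (B ⧸ Q) q := by
    have h0 : ((q : ℕ) : B ⧸ Q) = 0 := by
      have := Ideal.Quotient.eq_zero_iff_mem.mpr hqQ
      simpa using this
    obtain ⟨r, hr⟩ := CharP.exists (B ⧸ Q)
    have hdvd : r ∣ q := (CharP.cast_eq_zero_iff (B ⧸ Q) r q).mp h0
    rcases (Nat.dvd_prime hq.out).mp hdvd with h1 | h1
    · exact absurd h1 (CharP.char_ne_one (B ⧸ Q) r)
    · subst h1; exact hr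
  letI : Algebra (ZMod q) (B ⧸ Q) := ZMod.algebra _ q
  let φ0 : (B ⧸ Q) →+* (B ⧸ Q) := Ideal.quotientMap Q f (fun x hx => hf x hx)
  have hcomm : ∀ r : ZMod q, φ0 (algebraMap (ZMod q) (B ⧸ Q) r) = algebraMap (ZMod q) (B ⧸ Q) r := by
    intro r
    have h : (φ0.comp (algebraMap (ZMod q) (B ⧸ Q))) = algebraMap (ZMod q) (B ⧸ Q) :=
      Subsingleton.elim _ _
    exact DFunLike.congr_fun h r
  let φ : (B ⧸ Q) →ₐ[ZMod q] (B ⧸ Q) := AlgHom.mk φ0 hcomm
  obtain ⟨j, hj⟩ := (FiniteField.bijective_frobeniusAlgHom_pow (ZMod q) (B ⧸ Q)).2 φ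
  refine ⟨j.1, fun x => ?_⟩
  have h1 := DFunLike.congr_fun hj (Ideal.Quotient.mk Q x)
  simp only [AlgHom.coe_pow, FiniteField.coe_frobeniusAlgHom, pow_iterate, ZMod.card] at h1
  rw [← Ideal.Quotient.eq, map_pow]
  exact h1.symm

/-- An automorphism stabilising a prime `Q ∋ q`, `q ≠ p`, raises a `p`-power root of unity to a
power of `q`. -/
theorem cycDec_root (p m : ℕ) [hp : Fact p.Prime] (M : Type) [Field M] [NumberField M]
    (ζ : M) (hζ : IsPrimitiveRoot ζ (p ^ m)) (q : ℕ) [hq : Fact q.Prime] (hqp : q ≠ p)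
    (Q : Ideal (𝓞 M)) [hQ : Q.IsPrime] (hqQ : (q : 𝓞 M) ∈ Q)
    (σ : M ≃ₐ[ℚ] M) (hσ : ∀ x ∈ Q, σ • x ∈ Q) :
    ∃ j : ℕ, σ ζ = ζ ^ (q ^ j) := by
  haveI : NeZero (p ^ m) := ⟨pow_ne_zero _ hp.out.ne_zero⟩
  have hQ0 : Q ≠ ⊥ := by
    rintro rfl
    have h0 : (q : 𝓞 M) = 0 := by simpa using hqQ
    exact hq.out.ne_zero (by exact_mod_cast h0)
  haveI : Q.IsMaximal := hQ.isMaximal hQ0
  haveI : Finite (𝓞 M ⧸ Q) := Ideal.finiteQuotientOfFreeOfNeBot Q hQ0
  obtain ⟨j, hj⟩ := cycDec_frob Q q hqQ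
    (MulSemiringAction.toRingHom (M ≃ₐ[ℚ] M) (𝓞 M) σ) hσ
  refine ⟨j, ?_⟩
  have hpQ : ((p ^ m : ℕ) : 𝓞 M) ∉ Q := by
    intro hmem
    rw [Nat.cast_pow] at hmem
    have hpmem : (p : 𝓞 M) ∈ Q := hQ.mem_of_pow_mem _ hmem
    have hcop : Nat.Coprime p q := (Nat.coprime_primes hp.out hq.out).mpr (Ne.symm hqp)
    obtain ⟨a, b, hab⟩ := Nat.Coprime.isCoprime hcop
    have h1 := congrArg (Int.cast : ℤ → 𝓞 M) hab
    push_cast at h1
    have h2 : (1 : 𝓞 M) ∈ Q := by
      rw [← h1]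
      exact Q.add_mem (Q.mul_mem_left _ hpmem) (Q.mul_mem_left _ hqQ)
    exact hQ.ne_top ((Ideal.eq_top_iff_one Q).mpr h2)
  have hζ' : (hζ.toInteger : 𝓞 M) ^ (p ^ m) = 1 := hζ.toInteger_isPrimitiveRoot.pow_eq_one
  have hx : (MulSemiringAction.toRingHom (M ≃ₐ[ℚ] M) (𝓞 M) σ hζ.toInteger) ^ (p ^ m) = 1 := by
    rw [← map_pow, hζ', map_one]
  have hy : ((hζ.toInteger : 𝓞 M) ^ (q ^ j)) ^ (p ^ m) = 1 := by
    rw [← pow_mul, mul_comm, pow_mul, hζ', one_pow]
  have h := symCheb_root_eq_of_sub_mem hpQ hx hy (hj hζ.toInteger)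
  have h2 := congrArg (fun x : 𝓞 M => (x : M)) h
  have h3 : (((MulSemiringAction.toRingHom (M ≃ₐ[ℚ] M) (𝓞 M) σ) hζ.toInteger : 𝓞 M) : M) = σ ζ :=
    rfl
  have h4 : ((hζ.toInteger ^ (q ^ j) : 𝓞 M) : M) = ζ ^ (q ^ j) :=
    (algebraMap (𝓞 M) M).map_pow _ _
  exact h3.symm.trans (h2.trans h4)

section T

variable (K M : Type) [Field K] [NumberField K] [Field M] [NumberField M] [Algebra K M]
  [IsGalois K M]

/-- An extension `σ'₀` of an automorphism `σ` of `K` stabilising the prime `P` can be modified by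
an element of `Gal(M/K)` so that it stabilises a given prime `P'` over `P`. -/
theorem cycDec_adjust (P : Ideal (𝓞 K)) (P' : Ideal (𝓞 M)) [hP' : P'.IsPrime]
    (hover : P'.under (𝓞 K) = P)
    (σ : K ≃ₐ[ℚ] K) (σ' : M ≃ₐ[ℚ] M) (hres : Restricts σ' σ)
    (hσ : ∀ x ∈ P, ∀ y : 𝓞 K, (y : K) = σ.symm (x : K) → y ∈ P)
    (hσ2 : ∀ x ∈ P, ∀ y : 𝓞 K, (y : K) = σ (x : K) → y ∈ P) :
    ∃ g : M ≃ₐ[K] M, ∀ x ∈ P', (g.restrictScalars ℚ * σ') • x ∈ P' := by
  have hunder : (σ' • P').under (𝓞 K) = P'.under (𝓞 K) := by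
    ext x
    rw [Ideal.under_def, Ideal.under_def, Ideal.mem_comap, Ideal.mem_comap,
      Ideal.mem_pointwise_smul_iff_inv_smul_mem]
    -- σ'⁻¹ • algebraMap x = algebraMap (σ⁻¹ x)
    obtain ⟨y, hy⟩ : ∃ y : 𝓞 K, (y : K) = σ.symm (x : K) :=
      ⟨RingOfIntegers.mapRingEquiv (σ.symm : K ≃+* K) x, rfl⟩
    have hxy : (x : K) = σ (y : K) := by rw [hy]; exact (σ.apply_symm_apply _).symm
    have key : σ'⁻¹ • (algebraMap (𝓞 K) (𝓞 M) x) = algebraMap (𝓞 K) (𝓞 M) y := by
      apply RingOfIntegers.ext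
      show σ'⁻¹ (algebraMap K M (x : K)) = algebraMap K M (y : K)
      rw [hxy, ← hres (y : K)]
      exact σ'.symm_apply_apply _
    rw [key]
    have h1 : algebraMap (𝓞 K) (𝓞 M) y ∈ P' ↔ y ∈ P := by
      rw [← hover, Ideal.under_def, Ideal.mem_comap]
    have h2 : algebraMap (𝓞 K) (𝓞 M) x ∈ P' ↔ x ∈ P := by
      rw [← hover, Ideal.under_def, Ideal.mem_comap]
    rw [h1, h2]
    exact ⟨fun h => hσ2 y h x hxy, fun h => hσ x h y hy⟩
  haveI : (σ' • P').IsPrime := hP'.smul σ'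
  obtain ⟨g, hg⟩ := Algebra.IsInvariant.exists_smul_of_under_eq (𝓞 K) (𝓞 M) (M ≃ₐ[K] M)
    (σ' • P') P' hunder
  refine ⟨g, fun x hx => ?_⟩
  have h1 : (g.restrictScalars ℚ * σ') • x = g • (σ' • x) := by
    apply RingOfIntegers.ext
    rfl
  rw [h1, hg]
  exact Ideal.smul_mem_pointwise_smul _ _ _ (Ideal.smul_mem_pointwise_smul _ _ _ hx)

end T

section key

variable (p n : ℕ) [hp : Fact p.Prime] (L : Type) [Field L] [NumberField L] [IsGalois ℚ L]

/-- the value of the local symbol at `q`: `ψ_q(q) = [q]^(p-1)`. -/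
theorem cycDec_psiQ (q : ℕ) [hq : Fact q.Prime] (hqp : q ≠ p) :
    psiQ p n q (qUnit q) = ZMod.unitOfCoprime q (coprime_pow_of_ne p n hq.out hqp) ^ (p - 1) := by
  rw [psiQ_of_ne p n q hqp]
  show ZMod.unitOfCoprime q (coprime_pow_of_ne p n hq.out hqp) ^
    (((p - 1 : ℕ) : ℤ) * ((qUnit q : ℚ_[q]ˣ) : ℚ_[q]).valuation) = _
  have hv : ((qUnit q : ℚ_[q]ˣ) : ℚ_[q]).valuation = 1 := Padic.valuation_p
  rw [hv, mul_one, zpow_natCast]

/-- **Key step**: on a decomposition group over `q ≠ p`, `θ = lam ∘ χ` takes values in the group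
generated by `lam [q]`. -/
theorem cycDec_key
    (lam : (ZMod (p ^ (n + 1)))ˣ →* Multiplicative (ZMod (p ^ n)))
    (hlam : ∀ u, lam u = 1 ↔ u ^ (p - 1) = 1)
    (θ : (CycN p n L ≃ₐ[ℚ] CycN p n L) →* Multiplicative (ZMod (p ^ n)))
    (hθ : ∀ σ' σ, CycExtends p n L σ' σ → θ σ = lam (cycChi p n L σ'))
    (q : ℕ) [hq : Fact q.Prime] (hqp : q ≠ p) (t : MaximalSpectrum (semiAlg q (CycN p n L)))
    (σ : CycN p n L ≃ₐ[ℚ] CycN p n L) (hσ : σ ∈ sdStab q (CycN p n L) t) :
    θ σ ^ orderOf (psiQ p n q (qUnit q)) = 1 := by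
  haveI : IsGalois ℚ (CycTop p n L) := stmtCycGalois p n L
  -- the prime `P` of `N` attached to `t`
  have hPprime : (mcPhi q t.asIdeal t.isMaximal).IsPrime := mcPhi_isPrime q t.asIdeal t.isMaximal
  have hqP : (q : 𝓞 (CycN p n L)) ∈ mcPhi q t.asIdeal t.isMaximal :=
    q_mem_mcPhi q t.asIdeal t.isMaximal
  have hst := mcPhi_stable q σ t.asIdeal t.isMaximal ((mem_sdStab q _ t σ).1 hσ)
  have hst' := mcPhi_stable q σ⁻¹ t.asIdeal t.isMaximal
    ((mem_sdStab q _ t σ⁻¹).1 (inv_mem hσ))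
  -- an extension of `σ`
  obtain ⟨σ₀, hσ₀⟩ := cycExt_lift p n L σ
  -- a prime `P'` of `N'` over `P`
  obtain ⟨P', hP'⟩ := Ideal.nonempty_primesOver (S := 𝓞 (CycTop p n L))
    (mcPhi q t.asIdeal t.isMaximal)
  haveI hP'prime : P'.IsPrime := hP'.1
  have hover : P'.under (𝓞 (CycN p n L)) = mcPhi q t.asIdeal t.isMaximal := hP'.2.over.symm
  obtain ⟨g, hg⟩ := cycDec_adjust (CycN p n L) (CycTop p n L) (mcPhi q t.asIdeal t.isMaximal) P'
    hover σ σ₀ (fun x => hσ₀ x)
    (fun x hx y hy => by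
      have h := hst' x hx
      have e : y = RingOfIntegers.mapRingEquiv ((σ⁻¹ : CycN p n L ≃ₐ[ℚ] CycN p n L) :
          CycN p n L ≃+* CycN p n L) x := RingOfIntegers.ext hy
      rw [e]; exact h)
    (fun x hx y hy => by
      have h := hst x hx
      have e : y = RingOfIntegers.mapRingEquiv ((σ : CycN p n L ≃ₐ[ℚ] CycN p n L) :
          CycN p n L ≃+* CycN p n L) x := RingOfIntegers.ext hy
      rw [e]; exact h)
  -- the adjusted extension
  have hext : CycExtends p n L (g.restrictScalars ℚ * σ₀) σ := by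
    intro x
    show g (σ₀ (x : CycTop p n L)) = _
    rw [hσ₀ x]
    exact g.commutes (σ x)
  have hqP' : (q : 𝓞 (CycTop p n L)) ∈ P' := by
    have h1 : (q : 𝓞 (CycN p n L)) ∈ P'.under (𝓞 (CycN p n L)) := by rw [hover]; exact hqP
    rw [Ideal.under_def, Ideal.mem_comap, map_natCast] at h1
    exact h1
  obtain ⟨j, hj⟩ := cycDec_root p (n + 1) (CycTop p n L) (cycZeta p n L) (cycZeta_spec p n L)
    q hqp P' hqP' (g.restrictScalars ℚ * σ₀) hg
  -- the cyclotomic character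
  have hχ : cycChi p n L (g.restrictScalars ℚ * σ₀) =
      ZMod.unitOfCoprime q (coprime_pow_of_ne p n hq.out hqp) ^ j := by
    apply Units.ext
    have h1 := (symCheb_apply_eq_pow_iff p n ℚ (CycTop p n L) (cycZeta p n L)
      (cycZeta_spec p n L) (g.restrictScalars ℚ * σ₀) (q ^ j)).mp hj
    rw [Units.val_pow_eq_pow_val, ZMod.coe_unitOfCoprime, ← Nat.cast_pow]
    exact h1
  rw [hθ _ σ hext, hχ, ← map_pow, ← pow_mul, mul_comm, pow_mul, map_pow]
  have h2 : lam (ZMod.unitOfCoprime q (coprime_pow_of_ne p n hq.out hqp) ^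
      orderOf (psiQ p n q (qUnit q))) = 1 := by
    rw [hlam, ← pow_mul, mul_comm, pow_mul, ← cycDec_psiQ p n q hqp]
    exact pow_orderOf_eq_one _
  rw [h2, one_pow]

end key

/-- **gb-cycdec**: the auxiliary field `N = L·ℚ_n` of `StmtCyc`, with `HasDec`. -/
theorem stmtCycDec : StmtCycDec := by
  intro p n hp S hp2 hpS L _ _ _ hunr
  have hGal : IsGalois ℚ (CycTop p n L) := stmtCycGalois p n L
  have hR : (cycR p n L).Normal := stmtCycRNormal p n L
  have hgalQ : IsGalois ℚ (CycN p n L) := cycFinal_galQ p n L hR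
  have hgalL : IsGalois L (CycN p n L) := IsGalois.tower_top_of_isGalois ℚ L (CycN p n L)
  obtain ⟨lam, hlsurj, hlker⟩ := stmtCycLambda p n hp2
  obtain ⟨θ, hθspec⟩ := stmtCycTheta p n L lam (fun u hu => (hlker u).mpr hu)
  obtain ⟨E', fE', nfE', algE', hcop, ζ, hζ⟩ := stmtCycEPrime p n L lam hlker θ hθspec
  obtain ⟨hcard, k, hk⟩ := stmtCycCard p n hp2 L
  obtain ⟨-, hres, -⟩ := stmtCycExt p n L
  refine ⟨{ N := CycN p n L
            galQ := hgalQ
            galL := hgalL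
            unram := (stmtUnramTower S ℚ (CycN p n L) (CycTop p n L)
              (stmtCycUnramTop p n S hpS L hunr)).2
            pgroup := ?_
            card_le := hcard.le
            θ := θ
            θ_surj := ?_
            E' := E'
            coprime := hcop
            ζ := ζ
            hζ := hζ }, ?_⟩
  · refine IsPGroup.of_card (n := k) ?_
    rw [nsub_card_relAut, hk]
  · intro y
    obtain ⟨u, hu⟩ := hlsurj y
    obtain ⟨σ', hσ'⟩ := stmtCycChiSurj p n L u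
    obtain ⟨σ, hσ⟩ := hres σ'
    exact ⟨σ, by rw [hθspec σ' σ hσ, hσ', hu]⟩
  · intro q _ hqp t σ hσ
    exact cycDec_key p n L lam hlker θ hθspec q hqp t σ hσ

end Fermat.Agent.PT.G3


end ZBPT_052_8

/-! ### bundled: `Fermat.Agent.PT.G3.GBCarryNZ` -/
section ZBPT_052_9

/-!
# PT-GB / carryNZ (helper79)

`theorem stmtCarryNZ_of : StmtGBPsi → StmtCarryNZ`: if `ψ_q(b) ≠ 1` then the carry cocycle of the
constant idèle `b ⊗ 1` is not a coboundary in `(ℚ_q ⊗ N)ˣ`.

Proof: push a coboundary forward along `semiRep q N → jlRep S N → csRep S N`; the image of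
`b ⊗ 1` is `csMap S ℚ N c₀`, `c₀ = [b at q] ∈ C_S(ℚ)`; by `StmtGBPsi`, `Ψ_ℚ(c₀) = 0`; but
`Ψ_ℚ(c₀) = ψ_q(norm (b ⊗ 1)) = ψ_q(b)`.  (No Hilbert 90 is needed on this route.)
-/

set_option autoImplicit false
set_option linter.unusedSectionVars false

noncomputable section

namespace Fermat.Agent.PT.G3

open CategoryTheory groupCohomology NumberField IsDedekindDomain
open Fermat.Agent.PT Fermat.Agent.PT.G Fermat.Agent.PT.G1
open scoped TensorProduct

/-- a linear map commutes with the carry cochain -/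
lemma carryNZ_map_cmpCarry {G : Type} [Group G] (m : ℕ) (θ : G →* Multiplicative (ZMod m))
    {V W : Type} [AddCommGroup V] [AddCommGroup W] (f : V → W) (hf : f 0 = 0) (a : V)
    (gg : G × G) :
    f (cmpCarry m θ a gg) = cmpCarry m θ (f a) gg := by
  obtain ⟨g, h⟩ := gg
  rw [cmpCarry_apply, cmpCarry_apply]
  split_ifs
  · rfl
  · exact hf

/-- a morphism of representations maps coboundaries to coboundaries -/
lemma carryNZ_map_coboundaries₂ {G : Type} [Group G] {X C : Rep.{0} ℤ G} (f : X ⟶ C)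
    (y : G × G → X.V) (hy : y ∈ coboundaries₂ X) :
    (fun gg => f.hom (y gg)) ∈ coboundaries₂ C := by
  obtain ⟨t, ht⟩ := hy
  refine ⟨fun g => f.hom (t g), ?_⟩
  funext ⟨g, h⟩
  rw [d₁₂_hom_apply]
  have h1 := congrFun ht (g, h)
  rw [d₁₂_hom_apply] at h1
  dsimp only at h1 ⊢
  rw [← h1, map_add, map_sub]
  congr 2
  exact (Rep.hom_comm_apply f g (t h)).symm

section model

variable (S : Finset Nat.Primes) (N : Type) [Field N] [NumberField N]

/-- the class in `C_S(ℚ)` of the idèle `b` at `q` -/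
def carryNZClass (q : ↥S) (b : ℚ_[((q : Nat.Primes) : ℕ)]ˣ) : CS S ℚ :=
  csOfJ S ℚ (jInclLin S ℚ q (gbConst ((q : Nat.Primes) : ℕ) ℚ b))

lemma carryNZ_jlMap_jIncl (q : ↥S) (b : ℚ_[((q : Nat.Primes) : ℕ)]ˣ) :
    jlMapLin S ℚ N (jInclLin S ℚ q (gbConst ((q : Nat.Primes) : ℕ) ℚ b)) =
      jInclLin S N q (gbConst ((q : Nat.Primes) : ℕ) N b) := by
  classical
  apply Additive.toMul.injective
  funext q'
  apply Units.ext
  show semiIncl ℚ N ((q' : Nat.Primes) : ℕ)
      (((Pi.mulSingle q (Additive.toMul (gbConst ((q : Nat.Primes) : ℕ) ℚ b)) : JL S ℚ) q' :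
        (semiAlg ((q' : Nat.Primes) : ℕ) ℚ)ˣ) : semiAlg ((q' : Nat.Primes) : ℕ) ℚ) =
    (((Pi.mulSingle q (Additive.toMul (gbConst ((q : Nat.Primes) : ℕ) N b)) : JL S N) q' :
        (semiAlg ((q' : Nat.Primes) : ℕ) N)ˣ) : semiAlg ((q' : Nat.Primes) : ℕ) N)
  by_cases h : q' = q
  · subst h
    rw [Pi.mulSingle_eq_same, Pi.mulSingle_eq_same]
    show semiIncl ℚ N ((q' : Nat.Primes) : ℕ) (algebraMap _ _ (b : ℚ_[((q' : Nat.Primes) : ℕ)])) =
      algebraMap _ _ (b : ℚ_[((q' : Nat.Primes) : ℕ)])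
    exact AlgHom.commutes _ _
  · rw [Pi.mulSingle_eq_of_ne h, Pi.mulSingle_eq_of_ne h, Units.val_one, Units.val_one, map_one]

lemma carryNZ_csMap (q : ↥S) (b : ℚ_[((q : Nat.Primes) : ℕ)]ˣ) :
    csMap S ℚ N (carryNZClass S q b) =
      csOfJ S N (jInclLin S N q (gbConst ((q : Nat.Primes) : ℕ) N b)) := by
  rw [carryNZClass, csMap_csOfJ, carryNZ_jlMap_jIncl]

lemma carryNZ_norm_const (q : ℕ) [Fact q.Prime] (b : ℚ_[q]) :
    Algebra.norm ℚ_[q] (algebraMap ℚ_[q] (semiAlg q ℚ) b) = b := by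
  rw [Algebra.norm_algebraMap]
  have h : Module.finrank ℚ_[q] (semiAlg q ℚ) = 1 := by
    show Module.finrank ℚ_[q] (ℚ_[q] ⊗[ℚ] ℚ) = 1
    rw [Module.finrank_baseChange, Module.finrank_self]
  rw [h, pow_one]

lemma carryNZ_psiC {p : ℕ} [hp : Fact p.Prime] (n : ℕ) (hodd : Odd p)
    (hpS : (⟨p, hp.out⟩ : Nat.Primes) ∈ S) (q : ↥S) (b : ℚ_[((q : Nat.Primes) : ℕ)]ˣ) :
    psiC p n S ℚ (carryNZClass S q b) =
      Additive.ofMul (psiQ p n ((q : Nat.Primes) : ℕ) b) := by
  classical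
  rw [carryNZClass, psiC_csOfJ p n S ℚ hodd hpS, psiJ_apply]
  congr 1
  rw [Finset.prod_eq_single q]
  · rw [psiSemi_apply]
    congr 1
    apply Units.ext
    show Algebra.norm ℚ_[((q : Nat.Primes) : ℕ)]
      (((Pi.mulSingle q (Additive.toMul (gbConst ((q : Nat.Primes) : ℕ) ℚ b)) : JL S ℚ) q :
        (semiAlg ((q : Nat.Primes) : ℕ) ℚ)ˣ) : semiAlg ((q : Nat.Primes) : ℕ) ℚ) = _
    rw [Pi.mulSingle_eq_same]
    exact carryNZ_norm_const ((q : Nat.Primes) : ℕ) _
  · intro q' _ hq'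
    have h1 : (Additive.toMul (jInclLin S ℚ q (gbConst ((q : Nat.Primes) : ℕ) ℚ b)) : JL S ℚ) q'
        = 1 := by
      show (Pi.mulSingle q (Additive.toMul (gbConst ((q : Nat.Primes) : ℕ) ℚ b)) : JL S ℚ) q' = 1
      rw [Pi.mulSingle_eq_of_ne hq']
    rw [h1, map_one]
  · intro h
    exact absurd (Finset.mem_univ q) h

end model

/-- **carryNZ** (from `StmtGBPsi`; Hilbert 90 is not needed on this route). -/
theorem stmtCarryNZ_of (hPsi : StmtGBPsi) : StmtCarryNZ := by
  intro _ p n hp S hp2 hpS L _ _ _ D q b hψ hcob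
  have : NeZero (p ^ n) := ⟨pow_ne_zero _ hp.out.ne_zero⟩
  have hodd : Odd p := hp.out.odd_of_ne_two hp2
  have : IsScalarTower ℚ L D.N := IsScalarTower.of_algebraMap_eq (fun x => by
    rw [eq_ratCast, eq_ratCast, map_ratCast])
  have hunL : UnramOffRel S ℚ L := (stmtUnramTower S ℚ L D.N D.unram).2
  -- push the coboundary forward to `C_S(N)`
  have h1 := carryNZ_map_coboundaries₂ (jIncl S D.N q ≫ csOfJRep S D.N) _ hcob
  have h2 : (fun gg => (jIncl S D.N q ≫ csOfJRep S D.N).hom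
      (cmpCarry (p ^ n) D.θ (gbConst ((q : Nat.Primes) : ℕ) D.N b) gg)) =
      cmpCarry (p ^ n) D.θ (csMap S ℚ D.N (carryNZClass S q b) : (csRep S D.N).V) := by
    funext gg
    rw [carryNZ_csMap]
    exact carryNZ_map_cmpCarry (p ^ n) D.θ
      (fun x => (jIncl S D.N q ≫ csOfJRep S D.N).hom x) (map_zero _) _ gg
  rw [h2] at h1
  have h3 := hPsi p n S hp2 hpS L hunL D (carryNZClass S q b) h1
  rw [carryNZ_psiC S n hodd hpS q b] at h3
  exact hψ (Additive.ofMul.injective h3)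

end Fermat.Agent.PT.G3

end
end ZBPT_052_9

/-! ### bundled: `Fermat.Agent.PT.G3.GBCarryKill` -/
section ZBPT_052_10

/-!
# PT-GB, piece (K) carryKill

`stmtSemiCarryKill_of : StmtSDProj → StmtSDShapiro → StmtSemiCarryKill`: if `a ∈ (ℚ_q ⊗ N)ˣ` is
invariant and `θ^f = 1` on the decomposition group `D_t` of one maximal ideal `t`, then
`f • cmpCarry h θ a` is a coboundary: its image under "restrict to `D_t` and project to the
residue field" is `f • cmpCarry h (θ|D_t) (π a)`, a coboundary by `carryH_smul_mem_coboundaries₂`,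
and this map is injective on `H²` (semilocal Shapiro).
-/

set_option autoImplicit false

namespace Fermat.Agent.PT.G3

open CategoryTheory groupCohomology
open Fermat.Agent.PT Fermat.Agent.PT.G Fermat.Agent.PT.G1

/-- Abstract form of (K): if "restrict along `ι` and push along `π`" is injective on `H²`, and
`θ^f = 1` on the source of `ι`, then `f • cmpCarry h θ a` is a coboundary for invariant `a`. -/
theorem carryKill_of_injective {G D : Type} [Group G] [Group D] (ι : D →* G)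
    (C : Rep.{0} ℤ G) (Y : Rep.{0} ℤ D) (π : Rep.res ι C ⟶ Y)
    (hinj : Function.Injective (groupCohomology.map ι π 2).hom)
    (h : ℕ) [NeZero h] (θ : G →* Multiplicative (ZMod h)) (a : C.V)
    (ha : ∀ g : G, C.ρ g a = a) (f : ℕ) (hf : ∀ d : D, θ (ι d) ^ f = 1) :
    f • cmpCarry h θ a ∈ coboundaries₂ C := by
  rw [cmpCarry_nsmul]
  have hfa : ∀ g : G, C.ρ g (f • a) = f • a := fun g => by rw [map_nsmul, ha]
  have hcoc := cmpCarry_mem_cocycles₂ h θ C (f • a) hfa
  have key := H2π_comp_map_apply ι π ⟨cmpCarry h θ (f • a), hcoc⟩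
  have hfun : ⇑(mapCocycles₂ ι π ⟨cmpCarry h θ (f • a), hcoc⟩) =
      f • cmpCarry h (θ.comp ι) (π.hom a) := by
    rw [cmpCarry_nsmul]
    funext ⟨d₁, d₂⟩
    have h1 : (mapCocycles₂ ι π ⟨cmpCarry h θ (f • a), hcoc⟩) (d₁, d₂) =
        π.hom (cmpCarry h θ (f • a) (ι d₁, ι d₂)) := rfl
    rw [h1, carryNZ_map_cmpCarry h θ (fun x => π.hom x) (map_zero _) (f • a) (ι d₁, ι d₂),
      map_nsmul]
    rfl
  have hπa : ∀ d : D, Y.ρ d (π.hom a) = π.hom a := by
    intro d
    have h1 := Rep.hom_comm_apply π d a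
    rw [← h1]
    congr 1
    exact ha (ι d)
  have hcob : ⇑(mapCocycles₂ ι π ⟨cmpCarry h θ (f • a), hcoc⟩) ∈ coboundaries₂ Y := by
    rw [hfun]
    exact carryH_smul_mem_coboundaries₂ Y h (θ.comp ι) (π.hom a) hπa f hf
  have hzero : (groupCohomology.map ι π 2).hom (H2π C ⟨cmpCarry h θ (f • a), hcoc⟩) = 0 := by
    refine Eq.trans key ?_
    rw [H2π_eq_zero_iff]
    exact hcob
  have h0 : H2π C ⟨cmpCarry h θ (f • a), hcoc⟩ = 0 :=
    hinj (hzero.trans (map_zero _).symm)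
  rw [H2π_eq_zero_iff] at h0
  exact h0

/-- **(K) gb-carrykill** from the semilocal projection and Shapiro. -/
theorem stmtSemiCarryKill_of : StmtSDProj → StmtSDShapiro → StmtSemiCarryKill := by
  intro hProj hSh q _ N _ _ _ t h _ θ a ha f hf
  obtain ⟨π, hπ⟩ := hProj q N t
  have hbij := hSh q N t π hπ
  exact carryKill_of_injective (sdStab q N t).subtype (semiRep q N) (sdY q N t) π hbij.1 h θ a ha f
    (fun d => hf d d.2)

end Fermat.Agent.PT.G3


end ZBPT_052_10
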