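/- GENERATED FILE (helper35, build-time optimisation, NOTES/ZB.md): verbatim concatenation of the modules
   Fermat.Agent.PT.B.SurvAbs
   Fermat.Agent.PT.B.Surv
   Do not edit; do not import together with these modules. -/
import Mathlib
import Fermat.Agent.ZB.PT_009
import Fermat.Agent.ZB.PT_002

/-! ### bundled: `Fermat.Agent.PT.B.SurvAbs` -/
section ZBPT_055_0
/-
PT-B, piece B-surv, abstract part (helper9): transport of the `surv` statement along a quotient
`φ : G ↠ Γ` (kernel `N`), an equivariant isomorphism `θ : X̄ ≅ X^N` and an equivariant additive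
map `f : C^N → C̄` with `f ∘ π ∘ θ = π̄`.

`survAbs`: if `surv` holds for `(Γ, X̄, C̄)` (hypothesis `hGB`), then every 2-cocycle `y` of `G`
in `X` which is defined at level `N`, is `p`-primary up to level-`N` coboundaries and dies in
`C` (at level `N`) is the coboundary of a right-`N`-invariant 1-cochain.
-/

set_option autoImplicit false

namespace Fermat.Agent.PT.B

open CategoryTheory groupCohomology

attribute [local instance 1100] Rep.hV2

theorem survAbs {G Γ : Type} [Group G] [Group Γ] (φ : G →* Γ) (hφ : Function.Surjective φ)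
    (X C : Rep.{0} ℤ G) (Xb Cb : Rep.{0} ℤ Γ) (π : X ⟶ C) (πb : Xb ⟶ Cb)
    (θ : Xb.V →+ X.V) (f : C.V → Cb.V)
    (hθinj : Function.Injective θ)
    (hθeq : ∀ g z, θ (Xb.ρ (φ g) z) = X.ρ g (θ z))
    (hθsurj : ∀ x : X.V, (∀ s ∈ φ.ker, X.ρ s x = x) → ∃ z, θ z = x)
    (hfadd : ∀ c c' : C.V, (∀ s ∈ φ.ker, C.ρ s c = c) → (∀ s ∈ φ.ker, C.ρ s c' = c') →
      f (c + c') = f c + f c')
    (hfeq : ∀ (g : G) (c : C.V), (∀ s ∈ φ.ker, C.ρ s c = c) → f (C.ρ g c) = Cb.ρ (φ g) (f c))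
    (hfπ : ∀ z : Xb.V, f (π.hom (θ z)) = πb.hom z)
    (p : ℕ) (Q : Xb.V → Prop)
    (hGB : ∀ yb : Γ × Γ → Xb.V, yb ∈ cocycles₂ Xb → (∀ gg, Q (yb gg)) →
      (∃ (k : ℕ) (t : Γ → Xb.V), (d₁₂ Xb).hom t = (p ^ k) • yb) →
      (∃ t : Γ → Cb.V, (d₁₂ Cb).hom t = fun gg => πb.hom (yb gg)) →
      ∃ t : Γ → Xb.V, (d₁₂ Xb).hom t = yb)
    (y : G × G → X.V) (hy : y ∈ cocycles₂ X)
    (hyN : ∀ g g' s s', s ∈ φ.ker → s' ∈ φ.ker → y (g * s, g' * s') = y (g, g'))
    (hyinv : ∀ gg, ∀ s ∈ φ.ker, X.ρ s (y gg) = y gg)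
    (hyQ : ∀ gg z, θ z = y gg → Q z)
    (ht : ∃ (k : ℕ) (t : G → X.V), (∀ g s, s ∈ φ.ker → t (g * s) = t g) ∧
      (∀ g, ∀ s ∈ φ.ker, X.ρ s (t g) = t g) ∧ (d₁₂ X).hom t = (p ^ k) • y)
    (ht' : ∃ t' : G → C.V, (∀ g s, s ∈ φ.ker → t' (g * s) = t' g) ∧
      (∀ g, ∀ s ∈ φ.ker, C.ρ s (t' g) = t' g) ∧ (d₁₂ C).hom t' = fun gg => π.hom (y gg)) :
    ∃ s : G → X.V, (∀ g s', s' ∈ φ.ker → s (g * s') = s g) ∧ (d₁₂ X).hom s = y := by
  classical
  obtain ⟨k, t, htN, htinv, hdt⟩ := ht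
  obtain ⟨t', ht'N, ht'inv, hdt'⟩ := ht'
  -- a set-theoretic section of `φ`
  obtain ⟨σ, hσ⟩ : ∃ σ : Γ → G, ∀ γ, φ (σ γ) = γ :=
    ⟨fun γ => (hφ γ).choose, fun γ => (hφ γ).choose_spec⟩
  have hσ' : ∀ g : G, ∃ s ∈ φ.ker, σ (φ g) = g * s := by
    intro g
    refine ⟨g⁻¹ * σ (φ g), ?_, by group⟩
    rw [MonoidHom.mem_ker, map_mul, map_inv, hσ, inv_mul_cancel]
  -- normality: `g • x` is `N`-invariant if `x` is
  have hinvC : ∀ (g : G) (c : C.V), (∀ s ∈ φ.ker, C.ρ s c = c) →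
      ∀ s ∈ φ.ker, C.ρ s (C.ρ g c) = C.ρ g c := by
    intro g c hc s hs
    have h1 : g⁻¹ * s * g ∈ φ.ker := by
      have := (inferInstance : φ.ker.Normal).conj_mem s hs g⁻¹
      simpa using this
    have h2 := hc _ h1
    have h3 : C.ρ s (C.ρ g c) = C.ρ g (C.ρ (g⁻¹ * s * g) c) := by
      rw [← Module.End.mul_apply, ← Module.End.mul_apply, ← map_mul, ← map_mul]
      congr 2
      group
    rw [h3, h2]
  -- `f` on invariants
  have hf0 : f 0 = 0 := by
    have := hfadd 0 0 (fun s _ => map_zero _) (fun s _ => map_zero _)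
    rw [add_zero] at this
    exact left_eq_add.mp this
  have hfneg : ∀ c : C.V, (∀ s ∈ φ.ker, C.ρ s c = c) → f (-c) = -f c := by
    intro c hc
    have := hfadd c (-c) hc (fun s hs => by rw [map_neg, hc s hs])
    rw [add_neg_cancel, hf0] at this
    exact (neg_eq_of_add_eq_zero_right this.symm).symm
  have hfd : ∀ a b c : C.V, (∀ s ∈ φ.ker, C.ρ s a = a) → (∀ s ∈ φ.ker, C.ρ s b = b) →
      (∀ s ∈ φ.ker, C.ρ s c = c) → f (a - b + c) = f a - f b + f c := by
    intro a b c ha hb hc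
    have hab : ∀ s ∈ φ.ker, C.ρ s (a - b) = a - b := fun s hs => by
      rw [map_sub, ha s hs, hb s hs]
    have hnb : ∀ s ∈ φ.ker, C.ρ s (-b) = -b := fun s hs => by rw [map_neg, hb s hs]
    rw [hfadd _ _ hab hc, sub_eq_add_neg, hfadd _ _ ha hnb, hfneg b hb, ← sub_eq_add_neg]
  -- the descended cochains
  have hyb : ∀ γ γ' : Γ, ∃ z, θ z = y (σ γ, σ γ') := fun γ γ' => hθsurj _ (hyinv _)
  choose yb hyb using hyb
  have hyb' : ∀ g g' : G, θ (yb (φ g) (φ g')) = y (g, g') := by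
    intro g g'
    obtain ⟨s, hs, h1⟩ := hσ' g
    obtain ⟨s', hs', h2⟩ := hσ' g'
    rw [hyb, h1, h2, hyN g g' s s' hs hs']
  have htb : ∀ γ : Γ, ∃ z, θ z = t (σ γ) := fun γ => hθsurj _ (htinv _)
  choose tb htb using htb
  have htb' : ∀ g : G, θ (tb (φ g)) = t g := by
    intro g
    obtain ⟨s, hs, h1⟩ := hσ' g
    rw [htb, h1, htN g s hs]
  have ht'σ : ∀ g : G, t' (σ (φ g)) = t' g := by
    intro g
    obtain ⟨s, hs, h1⟩ := hσ' g
    rw [h1, ht'N g s hs]
  -- apply the finite-level statement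
  obtain ⟨sb, hsb⟩ := hGB (fun gg => yb gg.1 gg.2)
    (by
      rw [mem_cocycles₂_iff]
      intro a b c
      obtain ⟨g, rfl⟩ := hφ a
      obtain ⟨g', rfl⟩ := hφ b
      obtain ⟨g'', rfl⟩ := hφ c
      apply hθinj
      have h := (mem_cocycles₂_iff y).1 hy g g' g''
      simp only [map_add, ← map_mul, hyb', hθeq]
      exact h)
    (fun gg => by
      obtain ⟨a, b⟩ := gg
      obtain ⟨g, rfl⟩ := hφ a
      obtain ⟨g', rfl⟩ := hφ b
      exact hyQ (g, g') _ (hyb' g g'))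
    ⟨k, tb, by
      funext gg
      obtain ⟨a, b⟩ := gg
      obtain ⟨g, rfl⟩ := hφ a
      obtain ⟨g', rfl⟩ := hφ b
      apply hθinj
      have h := congrFun hdt (g, g')
      rw [d₁₂_hom_apply] at h
      rw [d₁₂_hom_apply]
      simp only [map_add, map_sub, ← map_mul, htb', hθeq, Pi.smul_apply, map_nsmul, hyb']
      exact h⟩
    ⟨fun γ => f (t' (σ γ)), by
      funext gg
      obtain ⟨a, b⟩ := gg
      obtain ⟨g, rfl⟩ := hφ a
      obtain ⟨g', rfl⟩ := hφ b
      have h := congrFun hdt' (g, g')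
      rw [d₁₂_hom_apply] at h
      rw [d₁₂_hom_apply]
      simp only [← map_mul, ht'σ]
      rw [← hfeq g _ (ht'inv g'), ← hfd _ _ _ (hinvC g _ (ht'inv g')) (ht'inv _) (ht'inv _), h,
        ← hyb' g g', hfπ]⟩
  refine ⟨fun g => θ (sb (φ g)), fun g s' hs' => ?_, ?_⟩
  · show θ (sb (φ (g * s'))) = θ (sb (φ g))
    rw [map_mul, (MonoidHom.mem_ker).1 hs', mul_one]
  · funext gg
    obtain ⟨g, g'⟩ := gg
    have h := congrFun hsb (φ g, φ g')
    rw [d₁₂_hom_apply] at h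
    rw [d₁₂_hom_apply, ← hyb' g g']
    show X.ρ g (θ (sb (φ g'))) - θ (sb (φ (g * g'))) + θ (sb (φ g)) = θ (yb (φ g) (φ g'))
    rw [← hθeq, map_mul, ← map_sub, ← map_add, h]

end Fermat.Agent.PT.B


end ZBPT_055_0

/-! ### bundled: `Fermat.Agent.PT.B.Surv` -/
section ZBPT_055_1
/-
PT-B, piece **B-surv** (helper9): the datum axiom `surv` for the concrete datum.
`stmtSurvC_of : StmtGB → StmtTens → StmtRamRel → StmtCompare → StmtSurvC`.

Proof: pick a tower field `L` such that `y`, `t`, `t'` are defined at level `G_L`; transport to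
`Gal(L/ℚ)` by `θ_L⁻¹` and `f_L` (abstract part: `survAbs`, PT/B/SurvAbs.lean); (GB) gives
`y = d s` with `s` right-`G_L`-invariant; then `τ(d) := (s (r d)).1 v 1`.
-/

set_option autoImplicit false
set_option linter.style.haveILetI false

noncomputable section

namespace Fermat.Agent.PT.B

open Fermat.Agent.PT CategoryTheory groupCohomology ExtCitation
open Fermat.Agent.PT.G Fermat.Agent.PT.G1 Fermat.Agent.PT.F
open scoped Pointwise TensorProduct

attribute [local instance 1100] Rep.hV2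

namespace Surv

/-- `θ_L z` vanishes at `q'` only if `z q' = 1` (from the injectivity of `θ_L`). -/
theorem thetaL_component (S : Finset Nat.Primes) (L : QbarField) [NumberField L]
    (hL : L.IsUnramifiedOutside S) (hinj : Function.Injective (thetaL S L hL))
    (z : Additive (JL S ↥L)) (q' : ↥S) (h : ∀ g : GQ, (thetaL S L hL z).1 q' g = 0) :
    (Additive.toMul z : JL S ↥L) q' = 1 := by
  classical
  have h1 : thetaL S L hL (Additive.ofMul (Function.update (Additive.toMul z) q' 1)) =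
      thetaL S L hL z := by
    apply Subtype.ext
    funext v g
    by_cases hv : v = q'
    · subst hv
      rw [h g, thetaL_apply]
      simp only [toMul_ofMul, Function.update_self, map_one]
      rfl
    · rw [thetaL_apply, thetaL_apply]
      simp only [toMul_ofMul, Function.update_of_ne hv]
  have h2 := hinj h1
  have h3 := congrFun (congrArg Additive.toMul h2) q'
  simp only [toMul_ofMul, Function.update_self] at h3
  exact h3.symm

end Surv

open Surv

theorem stmtSurvC_of (hGB : StmtGB) (hT : StmtTens) (hRR : StmtRamRel) (hCmp : StmtCompare) :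
    StmtSurvC := by
  intro p _ hp2 S hpS v y hy hyl hsupp ht ht'
  classical
  haveI : IsAlgClosure ℚ (AlgebraicClosure ℚ) :=
    ⟨inferInstance, AlgebraicClosure.isAlgebraic ℚ⟩
  haveI : Normal ℚ (AlgebraicClosure ℚ) := IsAlgClosure.normal ℚ (AlgebraicClosure ℚ)
  obtain ⟨k, t, htl, hdt⟩ := ht
  obtain ⟨t', ht'l, hdt'⟩ := ht'
  obtain ⟨fam, hfam⟩ := hCmp p S hpS
  -- a common level
  obtain ⟨U₁, hU₁, hy1⟩ := exists_desc₂ (𝒯 := towerS S) (X := JS S) (JS_discrete S) hyl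
  obtain ⟨U₂, hU₂, ht1⟩ := exists_desc₁ (𝒯 := towerS S) (X := JS S) (JS_discrete S) htl
  obtain ⟨U₃, hU₃, ht'1⟩ := exists_desc₁ (𝒯 := towerS S) (X := CRep S) (CRep_discrete S) ht'l
  obtain ⟨L, hL, hLU⟩ := exists_isTowerField_fixingSubgroup_le S (U₁ ⊓ U₂ ⊓ U₃)
    ((towerS S).inf_mem _ _ ((towerS S).inf_mem _ _ hU₁ hU₂) hU₃)
  have hL1 : L.fixingSubgroup ≤ U₁ := fun s hs => (hLU hs).1.1
  have hL2 : L.fixingSubgroup ≤ U₂ := fun s hs => (hLU hs).1.2
  have hL3 : L.fixingSubgroup ≤ U₃ := fun s hs => (hLU hs).2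
  haveI hNF : NumberField ↥L := numberField_of_isTowerField hL
  haveI hGal : IsGalois ℚ ↥L := hL.2
  haveI hNor : Normal ℚ ↥L := IsGalois.to_normal
  obtain ⟨hθinj, hθsurj⟩ := hT S L hL.1 hL.2
  -- the restriction homomorphism
  obtain ⟨φ, hφdef⟩ : ∃ φ : GQ →* (↥L ≃ₐ[ℚ] ↥L),
      φ = AlgEquiv.restrictNormalHom (F := ℚ) (K₁ := AlgebraicClosure ℚ) ↥L := ⟨_, rfl⟩
  have hφsurj : Function.Surjective φ := by
    rw [hφdef]
    exact AlgEquiv.restrictNormalHom_surjective (AlgebraicClosure ℚ)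
  have hφker : φ.ker = L.fixingSubgroup := by
    rw [hφdef]
    exact @IntermediateField.restrictNormalHom_ker ℚ (AlgebraicClosure ℚ) _ _ _ L hNor
  have hφapp : ∀ (g : GQ) (x : ↥L), g (x : AlgebraicClosure ℚ) = (φ g x : ↥L) := by
    intro g x
    rw [hφdef]
    exact (AlgEquiv.restrictNormal_commutes g ↥L x).symm
  have hinvker : ∀ (c : (CRep S).V), (∀ s ∈ φ.ker, (CRep S).ρ s c = c) → c ∈ CInv S L := by
    intro c hc s hs
    exact hc s (by rw [hφker]; exact hs)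
  -- the comparison map, extended by zero
  obtain ⟨f, hf⟩ : ∃ f : (CRep S).V → CS S ↥L, ∀ (c : (CRep S).V) (hc : c ∈ CInv S L),
      f c = fam L hL ⟨c, hc⟩ :=
    ⟨fun c => if hc : c ∈ CInv S L then fam L hL ⟨c, hc⟩ else 0,
      fun c hc => by simp only [dif_pos hc]⟩
  -- the abstract transport
  obtain ⟨s, hsN, hds⟩ := survAbs φ hφsurj (JS S) (CRep S) (jlRep S ↥L) (csRep S ↥L) (piC S)
    (csOfJRep S ↥L) (thetaL S L hL.1) f hθinj
    (fun g z => thetaL_jlEnd S L hL.1 g (φ g) (hφapp g) z)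
    (fun x hx => hθsurj x (fun s hs => hx s (by rw [hφker]; exact hs)))
    (fun c c' hc hc' =>
      (hf (c + c') ((CInv S L).add_mem (hinvker c hc) (hinvker c' hc'))).trans
        ((map_add (fam L hL) ⟨c, hinvker c hc⟩ ⟨c', hinvker c' hc'⟩).trans
          (congrArg₂ (fun a b => a + b) (hf c (hinvker c hc)) (hf c' (hinvker c' hc'))).symm))
    (fun g c hc =>
      (hf _ (smul_mem_CInv S hL.2 g (hinvker c hc))).trans
        ((hfam.equivariant L hL g (φ g) (hφapp g) ⟨c, hinvker c hc⟩).trans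
          (congrArg (csEnd S (φ g)) (hf c (hinvker c hc)).symm)))
    (fun z => (hf _ (piC_thetaL_mem_CInv S L hL.1 z)).trans (hfam.idelic L hL z))
    p (fun z => ∀ q' : ↥S, q' ≠ v → (Additive.toMul z : JL S ↥L) q' = 1)
    (fun yb hyb hQ hpk hC =>
      hGB p hp2 S hpS ↥L (hRR S L hL.1) v yb hyb (fun q' hq' gg => hQ gg q' hq') hpk hC)
    y hy
    (fun g g' s s' hs hs' => hy1.1 g g' s s' (hL1 (by rw [← hφker]; exact hs))
      (hL1 (by rw [← hφker]; exact hs')))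
    (fun gg s hs => hy1.2 gg s (hL1 (by rw [← hφker]; exact hs)))
    (fun gg z hz q' hq' => thetaL_component S L hL.1 hθinj z q' (fun g =>
      (congrArg (fun x : (JS S).V => x.1 q' g) hz).trans (hsupp q' hq' gg.1 gg.2 g)))
    ⟨k, t, fun g s hs => ht1.1 g s (hL2 (by rw [← hφker]; exact hs)),
      fun g s hs => ht1.2 g s (hL2 (by rw [← hφker]; exact hs)), hdt⟩
    ⟨t', fun g s hs => ht'1.1 g s (hL3 (by rw [← hφker]; exact hs)),
      fun g s hs => ht'1.2 g s (hL3 (by rw [← hφker]; exact hs)), hdt'⟩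
  -- the local cochain
  refine ⟨fun d => (s (rS S v d)).1 v 1, ?_, ?_⟩
  · refine ⟨L.fixingSubgroup.comap (rS S v),
      (letI : Fact ((v.1 : Nat.Primes) : ℕ).Prime := ⟨v.1.2⟩
       comap_mem_towerLoc S ((v.1 : Nat.Primes) : ℕ) _ ⟨L, hL.1, rfl⟩), fun d u hu => ?_⟩
    show (s (rS S v (d * u))).1 v 1 = (s (rS S v d)).1 v 1
    rw [map_mul, hsN _ _ (by rw [hφker]; exact hu)]
  · funext dd
    obtain ⟨d, d'⟩ := dd
    have h1 := congrFun hds (rS S v d, rS S v d')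
    rw [d₁₂_hom_apply] at h1
    have h2 := congrArg (fun x : (JS S).V => x.1 v 1) h1
    rw [d₁₂_hom_apply]
    have h3 : ((JS S).ρ (rS S v d) (s (rS S v d'))).1 v 1 =
        (JlocS S v).ρ d ((s (rS S v d')).1 v 1) := by
      have h4 := ((s (rS S v d')).2 v).1 d 1
      rw [mul_one] at h4
      rw [← h4]
      show (s (rS S v d')).1 v (1 * rS S v d) = _
      rw [one_mul]
    show (JlocS S v).ρ d ((s (rS S v d')).1 v 1) - (s (rS S v (d * d'))).1 v 1 +
      (s (rS S v d)).1 v 1 = (y (rS S v d, rS S v d')).1 v 1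
    rw [← h3, map_mul]
    exact h2

end Fermat.Agent.PT.B

end


end ZBPT_055_1
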