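/- GENERATED FILE (helper35, build-time optimisation, NOTES/ZB.md): verbatim concatenation of the modules
   Fermat.Agent.PT.B.Exist
   Do not edit; do not import together with these modules. -/
import Fermat.Agent.ZB.PT_009

/-! ### bundled: `Fermat.Agent.PT.B.Exist` -/
section ZBPT_056_0
/-
PT-B piece B-exist (helper86): the datum axiom `exist` for the concrete class module
`CRep S = J_S / E_S`, from the existence theorem mod `p` for the type-level class modules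
(`StmtExistCS`, PT-X) and the comparison maps (`StmtCompare`).

`stmtExistC_of : StmtExistCS → StmtCompare → StmtExistC`.

Proof: `U = G_F`, `F ≤ L` tower field, `L ≤ L₁ ≤ L'` from `StmtExistCS`, `U₁ = G_{L₁}`,
`U' = G_{L'}`.  For `c ∈ C^{U'}` put `N c = Σ_{t ∈ U₁/U'} t c`.  Then
`f_{L'}(N c) = galNorm (f_{L'} c) = csMap (p • c₁)`, `m • c₁ = f_{L₁}(x₁)` (`pcoker`), hence
`f_{L'}(p • x₁) = f_{L'}(m • N c)` and `p • x₁ = m • N c`; Bezout `a m + b p = 1` gives
`N c = p • (a • x₁ + b • N c)`.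
-/

set_option autoImplicit false
set_option linter.style.haveILetI false
set_option linter.unusedSectionVars false

noncomputable section

namespace Fermat.Agent.PT.B.Exist

open Fermat.Agent.PT CategoryTheory groupCohomology ExtCitation
open Fermat.Agent.PT.G Fermat.Agent.PT.G1 Fermat.Agent.PT.G3 Fermat.Agent.PT.B

section Abstract

variable {G : Type} [Group G] (X : Rep.{0} ℤ G)

/-- the representative of `s • t` differs from `s * (representative of t)` by an element of the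
subgroup -/
lemma exist_out_smul (U₁ U' : Subgroup G) (s : ↥U₁) (t : ↥U₁ ⧸ U'.subgroupOf U₁) :
    ∃ u : ↥U₁, (u : G) ∈ U' ∧ (Quotient.out (s • t) : ↥U₁) = s * Quotient.out t * u := by
  have h1 : s • t = ((s * Quotient.out t : ↥U₁) : ↥U₁ ⧸ U'.subgroupOf U₁) := by
    conv_lhs => rw [← QuotientGroup.out_eq' t]
    rfl
  obtain ⟨h, hh⟩ := QuotientGroup.mk_out_eq_mul (U'.subgroupOf U₁) (s * Quotient.out t)
  refine ⟨(h : ↥U₁), Subgroup.mem_subgroupOf.1 h.2, ?_⟩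
  rw [h1]
  exact hh

/-- The norm `Σ_{t ∈ U₁/U'} t c` of a `U'`-invariant element is `U₁`-invariant. -/
lemma exist_norm_invariant (U₁ U' : Subgroup G) [Finite (↥U₁ ⧸ U'.subgroupOf U₁)] (c : X.V)
    (hc : ∀ s ∈ U', X.ρ s c = c) (s : G) (hs : s ∈ U₁) :
    X.ρ s (∑ᶠ t : ↥U₁ ⧸ U'.subgroupOf U₁, X.ρ ((Quotient.out t : ↥U₁) : G) c) =
      ∑ᶠ t : ↥U₁ ⧸ U'.subgroupOf U₁, X.ρ ((Quotient.out t : ↥U₁) : G) c := by
  have hfin : Function.HasFiniteSupport
      (fun t : ↥U₁ ⧸ U'.subgroupOf U₁ => X.ρ ((Quotient.out t : ↥U₁) : G) c) :=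
    Set.toFinite _
  have h1 := AddMonoidHom.map_finsum (X.ρ s : X.V →ₗ[ℤ] X.V).toAddMonoidHom hfin
  have h1' : X.ρ s (∑ᶠ t : ↥U₁ ⧸ U'.subgroupOf U₁, X.ρ ((Quotient.out t : ↥U₁) : G) c) =
      ∑ᶠ t : ↥U₁ ⧸ U'.subgroupOf U₁, X.ρ s (X.ρ ((Quotient.out t : ↥U₁) : G) c) := h1
  rw [h1']
  refine finsum_eq_of_bijective (fun t => (⟨s, hs⟩ : ↥U₁) • t)
    (MulAction.bijective (⟨s, hs⟩ : ↥U₁)) (fun t => ?_)
  obtain ⟨u, hu, hout⟩ := exist_out_smul U₁ U' ⟨s, hs⟩ t
  rw [hout]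
  simp only [Subgroup.coe_mul, map_mul, Module.End.mul_apply]
  rw [hc u hu]

end Abstract


section Concrete

/-- restriction of `g ∈ G_ℚ` to a Galois field `L'` -/
lemma exist_restrict_apply (L' : QbarField) [Normal ℚ ↥L'] (g : GQ) (x : ↥L') :
    g (x : AlgebraicClosure ℚ) =
      ((AlgEquiv.restrictNormalHom (F := ℚ) (K₁ := AlgebraicClosure ℚ) ↥L' g) x :
        AlgebraicClosure ℚ) :=
  (AlgEquiv.restrictNormal_commutes g ↥L' x).symm

/-- elements of `G_{L₁}` restrict to `Gal(L'/L₁)` -/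
lemma exist_restrict_mem (L₁ L' : QbarField) [NumberField ↥L₁] [NumberField ↥L']
    [Normal ℚ ↥L'] (hle : L₁ ≤ L') (g : GQ)
    (hg : g ∈ L₁.fixingSubgroup) :
    letI := algebraOfLe hle
    AlgEquiv.restrictNormalHom (F := ℚ) (K₁ := AlgebraicClosure ℚ) ↥L' g ∈ relAut ↥L₁ ↥L' := by
  letI := algebraOfLe hle
  intro x
  apply Subtype.ext
  rw [← exist_restrict_apply L' g, algebraOfLe_apply hle x]
  exact (IntermediateField.mem_fixingSubgroup_iff L₁ g).1 hg x x.2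

/-- elements of `G_{L'}` restrict to the identity of `L'` -/
lemma exist_restrict_eq_one (L' : QbarField) [Normal ℚ ↥L'] (g : GQ)
    (hg : g ∈ L'.fixingSubgroup) :
    AlgEquiv.restrictNormalHom (F := ℚ) (K₁ := AlgebraicClosure ℚ) ↥L' g = 1 := by
  have h1 := @IntermediateField.restrictNormalHom_ker ℚ (AlgebraicClosure ℚ) _ _ _ L' ‹_›
  exact MonoidHom.mem_ker.1 ((SetLike.ext_iff.1 h1 g).2 hg)

lemma exist_mem_of_restrict_eq_one (L' : QbarField) [Normal ℚ ↥L'] (g : GQ)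
    (hg : AlgEquiv.restrictNormalHom (F := ℚ) (K₁ := AlgebraicClosure ℚ) ↥L' g = 1) :
    g ∈ L'.fixingSubgroup := by
  have h1 := @IntermediateField.restrictNormalHom_ker ℚ (AlgebraicClosure ℚ) _ _ _ L' ‹_›
  exact (SetLike.ext_iff.1 h1 g).1 (MonoidHom.mem_ker.2 hg)

/-- the bijection `G_{L₁}/G_{L'} → Gal(L'/L₁)`, `t ↦ (representative of t)|_{L'}` -/
lemma exist_bijective (L₁ L' : QbarField) [NumberField ↥L₁] [NumberField ↥L']
    [Normal ℚ ↥L'] (hle : L₁ ≤ L') :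
    letI := algebraOfLe hle
    Function.Bijective (fun t : ↥L₁.fixingSubgroup ⧸
        L'.fixingSubgroup.subgroupOf L₁.fixingSubgroup =>
      (⟨AlgEquiv.restrictNormalHom (F := ℚ) (K₁ := AlgebraicClosure ℚ) ↥L'
          ((Quotient.out t : ↥L₁.fixingSubgroup) : GQ),
        exist_restrict_mem L₁ L' hle _ (Quotient.out t : ↥L₁.fixingSubgroup).2⟩ :
        ↥(relAut ↥L₁ ↥L'))) := by
  letI := algebraOfLe hle
  haveI : IsAlgClosure ℚ (AlgebraicClosure ℚ) :=
    ⟨inferInstance, AlgebraicClosure.isAlgebraic ℚ⟩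
  haveI : Normal ℚ (AlgebraicClosure ℚ) := IsAlgClosure.normal ℚ (AlgebraicClosure ℚ)
  constructor
  · intro t t' h
    have h1 : AlgEquiv.restrictNormalHom (F := ℚ) (K₁ := AlgebraicClosure ℚ) ↥L'
          ((Quotient.out t : ↥L₁.fixingSubgroup) : GQ) =
        AlgEquiv.restrictNormalHom (F := ℚ) (K₁ := AlgebraicClosure ℚ) ↥L'
          ((Quotient.out t' : ↥L₁.fixingSubgroup) : GQ) :=
      congrArg (fun σ : ↥(relAut ↥L₁ ↥L') => (σ : ↥L' ≃ₐ[ℚ] ↥L')) h
    have h2 : ((Quotient.out t : ↥L₁.fixingSubgroup) : GQ)⁻¹ *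
        ((Quotient.out t' : ↥L₁.fixingSubgroup) : GQ) ∈ L'.fixingSubgroup := by
      apply exist_mem_of_restrict_eq_one
      rw [map_mul, map_inv, h1, inv_mul_cancel]
    rw [← QuotientGroup.out_eq' t, ← QuotientGroup.out_eq' t']
    exact QuotientGroup.eq.2 (Subgroup.mem_subgroupOf.2 h2)
  · intro σ
    obtain ⟨g, hg⟩ := AlgEquiv.restrictNormalHom_surjective (F := ℚ) (K₁ := ↥L')
      (AlgebraicClosure ℚ) (σ : ↥L' ≃ₐ[ℚ] ↥L')
    have hgmem : g ∈ L₁.fixingSubgroup := by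
      rw [IntermediateField.mem_fixingSubgroup_iff]
      intro x hx
      have h1 := exist_restrict_apply L' g ⟨x, hle hx⟩
      rw [hg] at h1
      have h2 := σ.2 ⟨x, hx⟩
      have h3 : (algebraMap ↥L₁ ↥L' ⟨x, hx⟩ : ↥L') = ⟨x, hle hx⟩ := rfl
      rw [h3] at h2
      rw [h2] at h1
      exact h1
    obtain ⟨h, hh⟩ := QuotientGroup.mk_out_eq_mul
      (L'.fixingSubgroup.subgroupOf L₁.fixingSubgroup) (⟨g, hgmem⟩ : ↥L₁.fixingSubgroup)
    refine ⟨((⟨g, hgmem⟩ : ↥L₁.fixingSubgroup) :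
      ↥L₁.fixingSubgroup ⧸ L'.fixingSubgroup.subgroupOf L₁.fixingSubgroup), ?_⟩
    apply Subtype.ext
    show AlgEquiv.restrictNormalHom (F := ℚ) (K₁ := AlgebraicClosure ℚ) ↥L' _ = (σ : _)
    rw [hh]
    simp only [Subgroup.coe_mul, map_mul]
    rw [exist_restrict_eq_one L' _ (Subgroup.mem_subgroupOf.1 h.2), mul_one, hg]


/-- **Core of B-exist**: for tower fields `L₁ ≤ L'` with `N C_S(L') ⊆ p C_S(L₁)`, the norm of a
`G_{L'}`-invariant class of `C = J_S/E_S` is `p` times a `G_{L₁}`-invariant class. -/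
lemma exist_core (p : ℕ) [Fact p.Prime] (S : Finset Nat.Primes) (f : CompareFamily S)
    (hf : IsCompare p S f) (L₁ L' : QbarField) (hL₁ : IsTowerField S L₁)
    (hL' : IsTowerField S L') (hle : L₁ ≤ L')
    (hex : haveI := numberField_of_isTowerField hL₁
        haveI := numberField_of_isTowerField hL'
        letI := algebraOfLe hle
        ∀ c : CS S ↥L', ∃ c₁ : CS S ↥L₁,
          csMap S ↥L₁ ↥L' (p • c₁) = Fermat.Agent.PT.G3.galNorm S ↥L₁ ↥L' c)
    (c : (CRep S).V) (hc : ∀ s ∈ L'.fixingSubgroup, (CRep S).ρ s c = c) :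
    ∃ c' : (CRep S).V, (∀ s ∈ L₁.fixingSubgroup, (CRep S).ρ s c' = c') ∧
      p • c' = ∑ᶠ t : ↥L₁.fixingSubgroup ⧸ L'.fixingSubgroup.subgroupOf L₁.fixingSubgroup,
        (CRep S).ρ ((Quotient.out t : ↥L₁.fixingSubgroup) : GQ) c := by
  haveI nf₁ := numberField_of_isTowerField hL₁
  haveI nf' := numberField_of_isTowerField hL'
  letI alg := algebraOfLe hle
  haveI hG' : IsGalois ℚ ↥L' := hL'.2
  haveI hNorm' : Normal ℚ ↥L' := hG'.to_normal
  haveI hfi : L'.fixingSubgroup.FiniteIndex := finiteIndex_fixingSubgroup L' hL'.1.1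
  haveI hfin : Finite (↥L₁.fixingSubgroup ⧸ L'.fixingSubgroup.subgroupOf L₁.fixingSubgroup) :=
    Subgroup.finite_quotient_of_finiteIndex
  -- the elements `t c` of `C^{G_{L'}}`
  set gc : GQ → ↥(CInv S L') := fun g => ⟨(CRep S).ρ g c, smul_mem_CInv S hL'.2 g hc⟩ with hgc
  set cL' : ↥(CInv S L') := ⟨c, hc⟩ with hcL'
  set N' : ↥(CInv S L') :=
    ∑ᶠ t : ↥L₁.fixingSubgroup ⧸ L'.fixingSubgroup.subgroupOf L₁.fixingSubgroup,
      gc ((Quotient.out t : ↥L₁.fixingSubgroup) : GQ) with hN'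
  set NC : (CRep S).V :=
    ∑ᶠ t : ↥L₁.fixingSubgroup ⧸ L'.fixingSubgroup.subgroupOf L₁.fixingSubgroup,
      (CRep S).ρ ((Quotient.out t : ↥L₁.fixingSubgroup) : GQ) c with hNC
  have hcoe : ((N' : ↥(CInv S L')) : (CRep S).V) = NC := by
    rw [hN', hNC]
    exact AddMonoidHom.map_finsum (CInv S L').subtype (Set.toFinite _)
  -- `f_{L'} (N c) = galNorm (f_{L'} c)`
  have hfN : f L' hL' N' = Fermat.Agent.PT.G3.galNorm S ↥L₁ ↥L' (f L' hL' cL') := by
    rw [hN', AddMonoidHom.map_finsum (f L' hL') (Set.toFinite _)]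
    unfold Fermat.Agent.PT.G3.galNorm
    refine finsum_eq_of_bijective _ (exist_bijective L₁ L' hle) (fun t => ?_)
    exact hf.equivariant L' hL' _ _ (fun x => exist_restrict_apply L' _ x) cL'
  obtain ⟨c₁, hc₁⟩ := hex (f L' hL' cL')
  obtain ⟨m, hm, hpc⟩ := hf.pcoker L₁ hL₁
  obtain ⟨x₁, hx₁⟩ := hpc c₁
  have hnat := hf.natural L₁ L' hL₁ hL' hle x₁
  set x₁' : ↥(CInv S L') := ⟨x₁.1, CInv_mono S hle x₁.2⟩ with hx₁'
  have hkey : f L' hL' (p • x₁') = f L' hL' (m • N') := by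
    rw [map_nsmul, map_nsmul, ← hnat, hx₁, hfN, ← hc₁, map_nsmul, map_nsmul]
    exact smul_comm p m _
  have hkey2 : p • x₁' = m • N' := hf.inj L' hL' hkey
  have hkey3 : p • (x₁.1 : (CRep S).V) = m • NC := by
    have := congrArg (fun y : ↥(CInv S L') => (y : (CRep S).V)) hkey2
    simp only [AddSubgroup.coe_nsmul] at this
    rw [hcoe] at this
    exact this
  -- Bezout
  have hcop : IsCoprime (p : ℤ) (m : ℤ) :=
    Nat.isCoprime_iff_coprime.2 ((Nat.Prime.coprime_iff_not_dvd Fact.out).2 hm)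
  obtain ⟨a, b, hab⟩ := hcop
  have hNCinv : ∀ s ∈ L₁.fixingSubgroup, (CRep S).ρ s NC = NC := fun s hs =>
    exist_norm_invariant (CRep S) L₁.fixingSubgroup L'.fixingSubgroup c hc s hs
  refine ⟨b • (x₁.1 : (CRep S).V) + a • NC, fun s hs => ?_, ?_⟩
  · rw [map_add, map_zsmul, map_zsmul, x₁.2 s hs, hNCinv s hs]
  · have h1 : (p : ℤ) • (b • (x₁.1 : (CRep S).V) + a • NC) = NC := by
      have h2 : (p : ℤ) • (x₁.1 : (CRep S).V) = (m : ℤ) • NC := by
        rw [natCast_zsmul, natCast_zsmul]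
        exact hkey3
      calc (p : ℤ) • (b • (x₁.1 : (CRep S).V) + a • NC)
          = b • ((p : ℤ) • (x₁.1 : (CRep S).V)) + (a * p) • NC := by
            rw [smul_add, smul_comm (p : ℤ) b, smul_smul (p : ℤ) a, mul_comm (p : ℤ) a]
        _ = (a * p + b * m) • NC := by
            rw [h2, smul_smul, add_smul, add_comm]
        _ = NC := by rw [hab, one_smul]
    rw [← natCast_zsmul]
    exact h1

end Concrete

end Fermat.Agent.PT.B.Exist

namespace Fermat.Agent.PT.B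

open Fermat.Agent.PT CategoryTheory groupCohomology ExtCitation
open Fermat.Agent.PT.G Fermat.Agent.PT.G1 Fermat.Agent.PT.G3 Exist

/-- **B-exist**: the datum axiom `exist` for `CRep S`. -/
theorem stmtExistC_of (hX : StmtExistCS) (hC : StmtCompare) : StmtExistC := by
  intro p _ hp2 S hpS U hU
  obtain ⟨F, hF, rfl⟩ := hU
  obtain ⟨L, hFL, hL⟩ := stmtNormalClosure S F hF
  obtain ⟨L₁, L', hL₁, hL', hLL₁, hle, hex⟩ := hX p hp2 S hpS L hL
  obtain ⟨f, hf⟩ := hC p S hpS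
  haveI : IsAlgClosure ℚ (AlgebraicClosure ℚ) :=
    ⟨inferInstance, AlgebraicClosure.isAlgebraic ℚ⟩
  haveI : IsGalois ℚ (AlgebraicClosure ℚ) := inferInstance
  haveI hN₁ : L₁.fixingSubgroup.Normal := (InfiniteGalois.normal_iff_isGalois L₁).2 hL₁.2
  haveI hN' : L'.fixingSubgroup.Normal := (InfiniteGalois.normal_iff_isGalois L').2 hL'.2
  exact ⟨L₁.fixingSubgroup, ⟨L₁, hL₁.1, rfl⟩, L'.fixingSubgroup, ⟨L', hL'.1, rfl⟩,
    (IntermediateField.fixingSubgroup_antitone hLL₁).trans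
      (IntermediateField.fixingSubgroup_antitone hFL),
    IntermediateField.fixingSubgroup_antitone hle, hN₁, hN',
    fun c hc => exist_core p S f hf L₁ L' hL₁ hL' hle hex c hc⟩

end Fermat.Agent.PT.B

end


end ZBPT_056_0
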