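/- GENERATED FILE (helper35, build-time optimisation, NOTES/ZB.md): verbatim concatenation of the modules
   Fermat.Agent.PT.G2.RayEuler
   Fermat.Agent.PT.G2.Final
   Fermat.Agent.PT.G2.IdelicCore
   Fermat.Agent.PT.G2.IdelicSecond
   Do not edit; do not import together with these modules. -/
import Mathlib
import Fermat.Agent.ZB.S14_001
import Fermat.Agent.ZB.PT_008
import Fermat.Agent.ZB.S14_002
import Fermat.Agent.ZB.PT_070
import Fermat.Agent.ZB.PT_071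

/-! ### bundled: `Fermat.Agent.PT.G2.RayEuler` -/
section ZBPT_073_0

/-!
# Project PT, piece G2-E: Euler products of the ray class `L`-series

`rayEulerStatement : RayEulerStatement`: for a ray datum `c` modulo `𝔪` with finite target `A`
there is a constant `C > 0` such that for all `s ∈ (1, 2]` and every finite set `T` of primes
`v ∤ 𝔪` with `c v = 1`

  `(∏_{v ∈ T} (1 - N v ^ (-s))⁻¹) ^ #A ≤ C * ∏_χ ‖L(s, χ ∘ c)‖`.

Proof: `I ↦ χ (c I) N(I)^(-s)` (zero off the ideals coprime to `𝔪`) is multiplicative, so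
`L(s, χ ∘ c)` is an Euler product (`Fermat.Agent.S14.eulerHasProd`). For a prime `v` put
`P_v = ∏_χ ‖1 - χ (c v) x_v‖`, `x_v = N v ^ (-s)`. Then `P_v = (1 - x_v) ^ #A` for `v ∈ T`, and
`P_v ^ 2 ≤ exp (#A * x_v ^ 2)` for every `v` (from `1 + u ≤ exp u` and `Re ∑_χ χ a ≥ 0`), and
`∑_v x_v ^ 2 ≤ ∑_v N v ^ (-2) < ∞`.
-/

set_option autoImplicit false
set_option linter.style.haveILetI false

open NumberField IsDedekindDomain Filter Topology
open scoped nonZeroDivisors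

namespace Fermat.Agent.PT.G2

section CharProd

variable {A : Type} [CommGroup A] [Finite A]

/-- The values of a character of a finite group have norm one. -/
lemma g2e_norm_char (χ : A →* ℂˣ) (a : A) : ‖((χ a : ℂˣ) : ℂ)‖ = 1 := by
  have h : ((χ a : ℂˣ) : ℂ) ^ (orderOf a) = 1 := by
    rw [← Units.val_pow_eq_pow_val, ← map_pow, pow_orderOf_eq_one, map_one, Units.val_one]
  exact Complex.norm_eq_one_of_pow_eq_one h (orderOf_pos a).ne'

/-- The character group of a finite abelian group is finite. -/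
lemma g2e_finite_char : Finite (A →* ℂˣ) := by
  haveI : NeZero (Monoid.exponent A : ℂ) :=
    ⟨Nat.cast_ne_zero.mpr (Monoid.exponent_ne_zero_of_finite)⟩
  obtain ⟨e⟩ := CommGroup.monoidHom_mulEquiv_of_hasEnoughRootsOfUnity A ℂ
  exact Finite.of_equiv A e.symm.toEquiv

/-- The sum of the values at `a` of all characters has nonnegative real part. -/
lemma g2e_sum_char_re_nonneg [Fintype (A →* ℂˣ)] (a : A) :
    0 ≤ (∑ χ : A →* ℂˣ, ((χ a : ℂˣ) : ℂ)).re := by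
  by_cases ha : a = 1
  · subst ha
    simp
  · haveI : NeZero (Monoid.exponent A : ℂ) :=
      ⟨Nat.cast_ne_zero.mpr (Monoid.exponent_ne_zero_of_finite)⟩
    obtain ⟨ψ, hψ⟩ := CommGroup.exists_apply_ne_one_of_hasEnoughRootsOfUnity A ℂ ha
    have h1 : ∑ χ : A →* ℂˣ, ((χ a : ℂˣ) : ℂ) =
        ((ψ a : ℂˣ) : ℂ) * ∑ χ : A →* ℂˣ, ((χ a : ℂˣ) : ℂ) := by
      rw [Finset.mul_sum]
      refine (Fintype.sum_equiv (Equiv.mulLeft ψ) _ _ fun χ => ?_).symm
      simp [MonoidHom.mul_apply]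
    have h2 : (1 - ((ψ a : ℂˣ) : ℂ)) * ∑ χ : A →* ℂˣ, ((χ a : ℂˣ) : ℂ) = 0 := by
      rw [sub_mul, one_mul, ← h1, sub_self]
    have h3 : (1 : ℂ) - ((ψ a : ℂˣ) : ℂ) ≠ 0 := by
      intro h
      apply hψ
      have h4 : ((ψ a : ℂˣ) : ℂ) = 1 := (sub_eq_zero.mp h).symm
      exact Units.ext h4
    rcases mul_eq_zero.mp h2 with h | h
    · exact absurd h h3
    · rw [h]; simp

/-- `‖1 - u x‖ ^ 2 = 1 + (x ^ 2 - 2 x Re u)` for `‖u‖ = 1` and real `x`. -/
lemma g2e_norm_sq (u : ℂ) (hu : ‖u‖ = 1) (x : ℝ) :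
    ‖(1 : ℂ) - u * (x : ℂ)‖ ^ 2 = 1 + (x ^ 2 - 2 * x * u.re) := by
  have h1 : u.re * u.re + u.im * u.im = 1 := by
    have := Complex.normSq_eq_norm_sq u
    rw [hu, Complex.normSq_apply] at this
    simpa using this
  rw [← Complex.normSq_eq_norm_sq, Complex.normSq_apply]
  simp only [Complex.sub_re, Complex.one_re, Complex.mul_re, Complex.ofReal_re, Complex.ofReal_im,
    mul_zero, sub_zero, Complex.sub_im, Complex.one_im, Complex.mul_im, zero_add, zero_sub]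
  nlinarith [h1]

/-- The local character product: `∏_χ ‖1 - χ a x‖ ^ 2 ≤ exp (#A x ^ 2)`. -/
lemma g2e_prod_norm_sq_le [Fintype (A →* ℂˣ)] (a : A) (x : ℝ) (hx : 0 ≤ x) :
    ∏ χ : A →* ℂˣ, ‖(1 : ℂ) - ((χ a : ℂˣ) : ℂ) * (x : ℂ)‖ ^ 2 ≤
      Real.exp ((Fintype.card (A →* ℂˣ) : ℝ) * x ^ 2) := by
  calc ∏ χ : A →* ℂˣ, ‖(1 : ℂ) - ((χ a : ℂˣ) : ℂ) * (x : ℂ)‖ ^ 2
      ≤ ∏ χ : A →* ℂˣ, Real.exp (x ^ 2 - 2 * x * (((χ a : ℂˣ) : ℂ)).re) := by
        refine Finset.prod_le_prod (fun χ _ => by positivity) fun χ _ => ?_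
        rw [g2e_norm_sq _ (g2e_norm_char χ a) x, add_comm]
        exact Real.add_one_le_exp _
    _ = Real.exp (∑ χ : A →* ℂˣ, (x ^ 2 - 2 * x * (((χ a : ℂˣ) : ℂ)).re)) :=
        (Real.exp_sum _ _).symm
    _ ≤ Real.exp ((Fintype.card (A →* ℂˣ) : ℝ) * x ^ 2) := by
        apply Real.exp_le_exp.mpr
        rw [Finset.sum_sub_distrib, Finset.sum_const, Finset.card_univ, nsmul_eq_mul,
          ← Finset.mul_sum, ← Complex.re_sum]
        have := g2e_sum_char_re_nonneg a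
        nlinarith [mul_nonneg hx this]

end CharProd

section Euler

variable {K : Type} [Field K] [NumberField K]

lemma g2e_coprime_mul {𝔪 : Ideal (𝓞 K)} (I J : (Ideal (𝓞 K))⁰) :
    (I * J) ∈ coprimeTo 𝔪 ↔ I ∈ coprimeTo 𝔪 ∧ J ∈ coprimeTo 𝔪 := by
  show IsCoprime ((I * J : (Ideal (𝓞 K))⁰) : Ideal (𝓞 K)) 𝔪 ↔
    IsCoprime (I : Ideal (𝓞 K)) 𝔪 ∧ IsCoprime (J : Ideal (𝓞 K)) 𝔪
  rw [Submonoid.coe_mul]
  exact IsCoprime.mul_left_iff

/-- `rayTerm` as a monoid homomorphism. -/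
noncomputable def rayTermHom (𝔪 : Ideal (𝓞 K)) {A : Type} [CommGroup A] {c : Ideal (𝓞 K) → A}
    (hc : IsRayDatum K 𝔪 c) (χ : A →* ℂˣ) (s : ℝ) : (Ideal (𝓞 K))⁰ →* ℂ where
  toFun := rayTerm 𝔪 c χ s
  map_one' := by
    have h1 : (1 : (Ideal (𝓞 K))⁰) ∈ coprimeTo 𝔪 := by
      show IsCoprime ((1 : (Ideal (𝓞 K))⁰) : Ideal (𝓞 K)) 𝔪
      rw [Submonoid.coe_one]
      exact isCoprime_one_left
    have hc1 : c (⊤ : Ideal (𝓞 K)) = 1 := by
      have := hc.map_principal 1 one_ne_zero (by simp)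
      rwa [Ideal.span_singleton_one] at this
    simp [rayTerm, Set.indicator_of_mem h1, hc1]
  map_mul' I J := by
    have hI0 : (I : Ideal (𝓞 K)) ≠ ⊥ := mem_nonZeroDivisors_iff_ne_zero.mp I.2
    have hJ0 : (J : Ideal (𝓞 K)) ≠ ⊥ := mem_nonZeroDivisors_iff_ne_zero.mp J.2
    by_cases hI : I ∈ coprimeTo 𝔪
    · by_cases hJ : J ∈ coprimeTo 𝔪
      · have hIJ : I * J ∈ coprimeTo 𝔪 := (g2e_coprime_mul I J).mpr ⟨hI, hJ⟩
        simp only [rayTerm, Set.indicator_of_mem hIJ, Set.indicator_of_mem hI,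
          Set.indicator_of_mem hJ]
        rw [Submonoid.coe_mul, hc.map_mul _ _ hI0 hJ0 hI hJ, map_mul, map_mul, Nat.cast_mul,
          Real.mul_rpow (Nat.cast_nonneg _) (Nat.cast_nonneg _)]
        push_cast
        ring
      · have hIJ : I * J ∉ coprimeTo 𝔪 := fun h => hJ ((g2e_coprime_mul I J).mp h).2
        simp [rayTerm, Set.indicator_of_notMem hIJ, Set.indicator_of_notMem hJ]
    · have hIJ : I * J ∉ coprimeTo 𝔪 := fun h => hI ((g2e_coprime_mul I J).mp h).1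
      simp [rayTerm, Set.indicator_of_notMem hIJ, Set.indicator_of_notMem hI]

lemma g2e_norm_rayTerm_le (𝔪 : Ideal (𝓞 K)) {A : Type} [CommGroup A] [Finite A]
    (c : Ideal (𝓞 K) → A) (χ : A →* ℂˣ) (s : ℝ) (I : (Ideal (𝓞 K))⁰) :
    ‖rayTerm 𝔪 c χ s I‖ ≤ (Ideal.absNorm (I : Ideal (𝓞 K)) : ℝ) ^ (-s) := by
  have h0 : (0 : ℝ) ≤ (Ideal.absNorm (I : Ideal (𝓞 K)) : ℝ) ^ (-s) :=
    Real.rpow_nonneg (Nat.cast_nonneg _) _
  by_cases hI : I ∈ coprimeTo 𝔪
  · simp only [rayTerm, Set.indicator_of_mem hI, norm_mul, g2e_norm_char, one_mul,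
      Complex.norm_real, Real.norm_eq_abs]
    rw [abs_of_nonneg h0]
  · simp only [rayTerm, Set.indicator_of_notMem hI, norm_zero]
    exact h0

/-- The value of `rayTerm` at a prime coprime to `𝔪`. -/
lemma g2e_rayTerm_prime (𝔪 : Ideal (𝓞 K)) {A : Type} [CommGroup A]
    (c : Ideal (𝓞 K) → A) (χ : A →* ℂˣ) (s : ℝ) (v : HeightOneSpectrum (𝓞 K))
    (hv : IsCoprime v.asIdeal 𝔪) :
    rayTerm 𝔪 c χ s (Fermat.Agent.S14.primeIdeal₀ v) =
      ((χ (c v.asIdeal) : ℂˣ) : ℂ) * (((Ideal.absNorm v.asIdeal : ℝ) ^ (-s) : ℝ) : ℂ) := by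
  have h : Fermat.Agent.S14.primeIdeal₀ v ∈ coprimeTo 𝔪 := hv
  simp [rayTerm, Set.indicator_of_mem h]

lemma g2e_rayTerm_prime_not (𝔪 : Ideal (𝓞 K)) {A : Type} [CommGroup A]
    (c : Ideal (𝓞 K) → A) (χ : A →* ℂˣ) (s : ℝ) (v : HeightOneSpectrum (𝓞 K))
    (hv : ¬ IsCoprime v.asIdeal 𝔪) :
    rayTerm 𝔪 c χ s (Fermat.Agent.S14.primeIdeal₀ v) = 0 := by
  have h : Fermat.Agent.S14.primeIdeal₀ v ∉ coprimeTo 𝔪 := hv
  simp [rayTerm, Set.indicator_of_notMem h]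

/-- The Euler product of the ray class `L`-series, norm form. -/
theorem g2e_tendsto_norm (𝔪 : Ideal (𝓞 K)) {A : Type} [CommGroup A] [Finite A]
    {c : Ideal (𝓞 K) → A} (hc : IsRayDatum K 𝔪 c) (χ : A →* ℂˣ) {s : ℝ} (hs : 1 < s) :
    Tendsto (fun T : Finset (HeightOneSpectrum (𝓞 K)) =>
        ∏ v ∈ T, ‖(1 : ℂ) - rayTerm 𝔪 c χ s (Fermat.Agent.S14.primeIdeal₀ v)‖⁻¹)
      atTop (𝓝 ‖rayL 𝔪 c χ s‖) := by
  have hsum : Summable (fun I => ‖rayTermHom 𝔪 hc χ s I‖) :=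
    Summable.of_nonneg_of_le (fun _ => norm_nonneg _) (g2e_norm_rayTerm_le 𝔪 c χ s)
      (Fermat.Agent.S14.summable_absNorm_rpow K hs)
  have hlt : ∀ v : HeightOneSpectrum (𝓞 K),
      ‖rayTermHom 𝔪 hc χ s (Fermat.Agent.S14.primeIdeal₀ v)‖ < 1 := fun v =>
    lt_of_le_of_lt (g2e_norm_rayTerm_le 𝔪 c χ s _)
      (Fermat.Agent.S14.absNorm_rpow_lt_one K v (by linarith))
  have h := (Fermat.Agent.S14.eulerHasProd (rayTermHom 𝔪 hc χ s) hsum hlt).norm
  simp only [norm_inv] at h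
  exact h

lemma g2e_primeIdeal₀_injective :
    Function.Injective (Fermat.Agent.S14.primeIdeal₀ : HeightOneSpectrum (𝓞 K) → (Ideal (𝓞 K))⁰) := by
  intro v w h
  have h1 : v.asIdeal = w.asIdeal := congrArg (fun I : (Ideal (𝓞 K))⁰ => (I : Ideal (𝓞 K))) h
  exact HeightOneSpectrum.ext h1

/-- `x_v = N v ^ (-s)`, basic bounds. -/
lemma g2e_x_sq_le (v : HeightOneSpectrum (𝓞 K)) {s : ℝ} (hs : 1 < s) :
    ((Ideal.absNorm v.asIdeal : ℝ) ^ (-s)) ^ 2 ≤ (Ideal.absNorm v.asIdeal : ℝ) ^ (-(2 : ℝ)) := by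
  have h1 : (1 : ℝ) ≤ (Ideal.absNorm v.asIdeal : ℝ) := by
    have := Fermat.Agent.S14.two_le_absNorm K v
    exact_mod_cast (by omega : 1 ≤ Ideal.absNorm v.asIdeal)
  have h2 : ((Ideal.absNorm v.asIdeal : ℝ) ^ (-s)) ^ 2 = (Ideal.absNorm v.asIdeal : ℝ) ^ (-s * 2) := by
    rw [Real.rpow_mul (by linarith) (-s) 2]
    norm_cast
  rw [h2]
  exact Real.rpow_le_rpow_of_exponent_le h1 (by linarith)

/-- The local factor `∏_χ ‖1 - t_χ(v)‖` is at most `exp (#A x_v ^ 2 / 2)`. -/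
lemma g2e_local_le (𝔪 : Ideal (𝓞 K)) {A : Type} [CommGroup A] [Finite A] [Fintype (A →* ℂˣ)]
    (c : Ideal (𝓞 K) → A) (s : ℝ) (v : HeightOneSpectrum (𝓞 K)) :
    ∏ χ : A →* ℂˣ, ‖(1 : ℂ) - rayTerm 𝔪 c χ s (Fermat.Agent.S14.primeIdeal₀ v)‖ ≤
      Real.exp ((Fintype.card (A →* ℂˣ) : ℝ) / 2 * ((Ideal.absNorm v.asIdeal : ℝ) ^ (-s)) ^ 2) := by
  set x : ℝ := (Ideal.absNorm v.asIdeal : ℝ) ^ (-s) with hx
  have hx0 : 0 ≤ x := Real.rpow_nonneg (Nat.cast_nonneg _) _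
  by_cases hv : IsCoprime v.asIdeal 𝔪
  · have h1 := g2e_prod_norm_sq_le (A := A) (c v.asIdeal) x hx0
    rw [Finset.prod_pow] at h1
    have h2 : (0 : ℝ) ≤ ∏ χ : A →* ℂˣ, ‖(1 : ℂ) - ((χ (c v.asIdeal) : ℂˣ) : ℂ) * (x : ℂ)‖ :=
      Finset.prod_nonneg fun _ _ => norm_nonneg _
    have h3 : Real.exp ((Fintype.card (A →* ℂˣ) : ℝ) * x ^ 2) =
        (Real.exp ((Fintype.card (A →* ℂˣ) : ℝ) / 2 * x ^ 2)) ^ 2 := by
      rw [← Real.exp_nat_mul]
      congr 1
      push_cast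
      ring
    rw [h3] at h1
    simp only [g2e_rayTerm_prime 𝔪 c _ s v hv]
    exact (pow_le_pow_iff_left₀ h2 (Real.exp_pos _).le two_ne_zero).mp h1
  · simp only [g2e_rayTerm_prime_not 𝔪 c _ s v hv, sub_zero, norm_one, Finset.prod_const_one]
    exact Real.one_le_exp (by positivity)

/-- **G2-E**. -/
theorem rayEulerStatement : RayEulerStatement := by
  intro K _ _ 𝔪 _ A _ _ c hc
  classical
  haveI : Finite (A →* ℂˣ) := g2e_finite_char
  letI : Fintype (A →* ℂˣ) := Fintype.ofFinite _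
  have hcard : Fintype.card (A →* ℂˣ) = Nat.card A := by
    haveI : NeZero (Monoid.exponent A : ℂ) :=
      ⟨Nat.cast_ne_zero.mpr (Monoid.exponent_ne_zero_of_finite)⟩
    rw [← Nat.card_eq_fintype_card]
    exact CommGroup.card_monoidHom_of_hasEnoughRootsOfUnity A ℂ
  have hZsum : Summable (fun v : HeightOneSpectrum (𝓞 K) =>
      (Ideal.absNorm v.asIdeal : ℝ) ^ (-(2 : ℝ))) := by
    have h2 : Summable (fun I : (Ideal (𝓞 K))⁰ =>
        (Ideal.absNorm (I : Ideal (𝓞 K)) : ℝ) ^ (-(2 : ℝ))) :=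
      Fermat.Agent.S14.summable_absNorm_rpow K (by norm_num : (1 : ℝ) < 2)
    have h3 := h2.comp_injective (g2e_primeIdeal₀_injective (K := K))
    refine h3.congr fun v => ?_
    simp only [Function.comp_apply, Fermat.Agent.S14.coe_primeIdeal₀]
  obtain ⟨Z, hZ⟩ : ∃ Z : ℝ, Z = ∑' v : HeightOneSpectrum (𝓞 K),
      (Ideal.absNorm v.asIdeal : ℝ) ^ (-(2 : ℝ)) := ⟨_, rfl⟩
  obtain ⟨h, hh⟩ : ∃ h : ℝ, h = (Fintype.card (A →* ℂˣ) : ℝ) := ⟨_, rfl⟩
  have hh0 : 0 ≤ h := hh ▸ Nat.cast_nonneg _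
  refine ⟨Real.exp (h / 2 * Z), Real.exp_pos _, fun s hs1 _ T hT => ?_⟩
  rw [finprod_eq_prod_of_fintype, ← hcard]
  have hten : Tendsto (fun T' : Finset (HeightOneSpectrum (𝓞 K)) =>
      ∏ χ : A →* ℂˣ, ∏ v ∈ T', ‖(1 : ℂ) - rayTerm 𝔪 c χ s (Fermat.Agent.S14.primeIdeal₀ v)‖⁻¹)
      atTop (𝓝 (∏ χ : A →* ℂˣ, ‖rayL 𝔪 c χ s‖)) :=
    tendsto_finsetProd _ fun χ _ => g2e_tendsto_norm 𝔪 hc χ hs1
  obtain ⟨B, hB⟩ : ∃ B : ℝ, B = (∏ v ∈ T, (1 - (Ideal.absNorm v.asIdeal : ℝ) ^ (-s))⁻¹) ^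
    Fintype.card (A →* ℂˣ) := ⟨_, rfl⟩
  rw [← hB]
  have hB0 : 0 ≤ B := by
    rw [hB]
    refine pow_nonneg (Finset.prod_nonneg fun v _ => inv_nonneg.mpr ?_) _
    have := Fermat.Agent.S14.absNorm_rpow_lt_one K v (by linarith : (0 : ℝ) < s)
    linarith
  have hbound : ∀ T' : Finset (HeightOneSpectrum (𝓞 K)), T ≤ T' →
      B * Real.exp (-(h / 2 * Z)) ≤
        ∏ χ : A →* ℂˣ, ∏ v ∈ T', ‖(1 : ℂ) - rayTerm 𝔪 c χ s (Fermat.Agent.S14.primeIdeal₀ v)‖⁻¹ := by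
    intro T' hTT'
    rw [Finset.prod_comm, ← Finset.prod_sdiff hTT', mul_comm]
    -- the part over `T`
    have h1 : ∏ v ∈ T, ∏ χ : A →* ℂˣ,
        ‖(1 : ℂ) - rayTerm 𝔪 c χ s (Fermat.Agent.S14.primeIdeal₀ v)‖⁻¹ = B := by
      rw [hB, ← Finset.prod_pow]
      refine Finset.prod_congr rfl fun v hv => ?_
      obtain ⟨hv1, hv2⟩ := hT v hv
      have hx1 := Fermat.Agent.S14.absNorm_rpow_lt_one K v (by linarith : (0 : ℝ) < s)
      have h2 : ∀ χ : A →* ℂˣ,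
          ‖(1 : ℂ) - rayTerm 𝔪 c χ s (Fermat.Agent.S14.primeIdeal₀ v)‖⁻¹ =
            (1 - (Ideal.absNorm v.asIdeal : ℝ) ^ (-s))⁻¹ := by
        intro χ
        rw [g2e_rayTerm_prime 𝔪 c χ s v hv1, hv2, map_one, Units.val_one, one_mul,
          ← Complex.ofReal_one, ← Complex.ofReal_sub, Complex.norm_real, Real.norm_eq_abs,
          abs_of_nonneg (by linarith)]
      rw [Finset.prod_congr rfl fun χ _ => h2 χ, Finset.prod_const, Finset.card_univ]
    -- the part over `T' \ T`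
    have h3 : Real.exp (-(h / 2 * Z)) ≤ ∏ v ∈ T' \ T, ∏ χ : A →* ℂˣ,
        ‖(1 : ℂ) - rayTerm 𝔪 c χ s (Fermat.Agent.S14.primeIdeal₀ v)‖⁻¹ := by
      have h4 : ∀ v ∈ T' \ T,
          Real.exp (-(h / 2 * ((Ideal.absNorm v.asIdeal : ℝ) ^ (-s)) ^ 2)) ≤
            ∏ χ : A →* ℂˣ, ‖(1 : ℂ) - rayTerm 𝔪 c χ s (Fermat.Agent.S14.primeIdeal₀ v)‖⁻¹ := by
        intro v _
        rw [Finset.prod_inv_distrib, Real.exp_neg]
        have hpos : 0 < ∏ χ : A →* ℂˣ,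
            ‖(1 : ℂ) - rayTerm 𝔪 c χ s (Fermat.Agent.S14.primeIdeal₀ v)‖ := by
          refine Finset.prod_pos fun χ _ => norm_pos_iff.mpr ?_
          intro h0
          have h5 : ‖rayTerm 𝔪 c χ s (Fermat.Agent.S14.primeIdeal₀ v)‖ < 1 :=
            lt_of_le_of_lt (g2e_norm_rayTerm_le 𝔪 c χ s _)
              (Fermat.Agent.S14.absNorm_rpow_lt_one K v (by linarith))
          rw [← sub_eq_zero.mp h0, norm_one] at h5
          exact lt_irrefl _ h5
        have := g2e_local_le 𝔪 c s v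
        rw [← hh] at this
        exact inv_anti₀ hpos this
      calc Real.exp (-(h / 2 * Z))
          ≤ Real.exp (∑ v ∈ T' \ T, -(h / 2 * ((Ideal.absNorm v.asIdeal : ℝ) ^ (-s)) ^ 2)) := by
            apply Real.exp_le_exp.mpr
            rw [Finset.sum_neg_distrib, ← Finset.mul_sum, neg_le_neg_iff]
            refine mul_le_mul_of_nonneg_left ?_ (by positivity)
            calc ∑ v ∈ T' \ T, ((Ideal.absNorm v.asIdeal : ℝ) ^ (-s)) ^ 2
                ≤ ∑ v ∈ T' \ T, (Ideal.absNorm v.asIdeal : ℝ) ^ (-(2 : ℝ)) :=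
                  Finset.sum_le_sum fun v _ => g2e_x_sq_le v hs1
              _ ≤ Z := hZ ▸ hZsum.sum_le_tsum _ fun v _ => Real.rpow_nonneg (Nat.cast_nonneg _) _
        _ = ∏ v ∈ T' \ T, Real.exp (-(h / 2 * ((Ideal.absNorm v.asIdeal : ℝ) ^ (-s)) ^ 2)) :=
            Real.exp_sum _ _
        _ ≤ _ := Finset.prod_le_prod (fun v _ => (Real.exp_pos _).le) h4
    rw [h1]
    exact mul_le_mul_of_nonneg_right h3 hB0
  have hfin := ge_of_tendsto hten (eventually_atTop.mpr ⟨T, hbound⟩)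
  have hexp : Real.exp (h / 2 * Z) * Real.exp (-(h / 2 * Z)) = 1 := by
    rw [← Real.exp_add, add_neg_cancel, Real.exp_zero]
  calc B = Real.exp (h / 2 * Z) * (B * Real.exp (-(h / 2 * Z))) := by
        rw [mul_comm B, ← mul_assoc, hexp, one_mul]
    _ ≤ Real.exp (h / 2 * Z) * ∏ χ : A →* ℂˣ, ‖rayL 𝔪 c χ s‖ :=
        mul_le_mul_of_nonneg_left hfin (Real.exp_pos _).le

end Euler

end Fermat.Agent.PT.G2


end ZBPT_073_0

/-! ### bundled: `Fermat.Agent.PT.G2.Final` -/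
section ZBPT_073_1

/-!
# Project PT, piece G2: the second inequality (unconditional)

* `secondInequalityStatement : SecondInequalityStatement` — for every finite extension `L / K` of
  number fields, every nonzero modulus `𝔪` and every ray datum `c : Ideal (𝓞 K) → A` modulo `𝔪`
  which kills the primes `v ∤ 𝔪` of `K` having a prime of `L` of residue degree one above them:
  `A` is finite and `#A ≤ [L : K]`.
* `secondInequalityNormStatement : SecondInequalityNormStatement` — the same for a ray datum which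
  kills the relative norms of the primes of `L`.
-/

set_option autoImplicit false

namespace Fermat.Agent.PT.G2

/-- **Second inequality** of class field theory, ideal-theoretic form. -/
theorem secondInequalityStatement : SecondInequalityStatement :=
  secondInequality_of_pieces rayFiniteStatement rayLBoundedStatement rayEulerStatement
    splitDensityStatement

/-- **Second inequality** of class field theory, norm form. -/
theorem secondInequalityNormStatement : SecondInequalityNormStatement :=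
  secondInequalityNorm_of secondInequalityStatement

end Fermat.Agent.PT.G2


end ZBPT_073_1

/-! ### bundled: `Fermat.Agent.PT.G2.IdelicCore` -/
section ZBPT_073_2
/-
PT-G2 part 2, piece G2I-core (helper75): the second inequality for an idèle-class quotient,
`stmtIdelicCore_of : StmtWeakApprox → StmtSemiInt → StmtIdelicCore`.

The ray datum is `c := φD` modulo `𝔪 = (N^(n+1))`, `N = ∏ S`:
* `α ≡ 1 mod 𝔪` ⇒ `1 ⊗ α ≡ 1 mod q^n R_q` ⇒ `φJ (α) = 1` ⇒ `φD ((α)) = 1`;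
* onto: an idèle is a principal idèle times an idèle `≡ 1` (weak approximation, `ic_approx`), the
  primes over `S` are killed by `φD` (`ic_strip`), and classes of ideals prime to `𝔪` have
  inverses of the same kind (`ic_invert`);
then `secondInequalityStatement` (PT/G2/Final.lean).
-/

set_option autoImplicit false

namespace Fermat.Agent.PT.G2

open NumberField TensorProduct IsDedekindDomain
open Fermat.Agent.PT.G1 Fermat.Agent.PT.G

section basic

variable (q : ℕ) [Fact q.Prime] (K : Type) [Field K] [NumberField K]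

theorem ic_tmul_mem (z : ℤ_[q]) (x : 𝓞 K) : (z : ℚ_[q]) ⊗ₜ[ℚ] (x : K) ∈ semiInt q K :=
  AddSubgroup.subset_closure ⟨z, x, rfl⟩

theorem ic_one_tmul_mem (x : 𝓞 K) : (1 : ℚ_[q]) ⊗ₜ[ℚ] (x : K) ∈ semiInt q K := by
  have := ic_tmul_mem q K 1 x
  simpa using this

/-- `1 ⊗ (m x) = m * (1 ⊗ x)` for a natural number `m`. -/
theorem ic_one_tmul_natCast_mul (m : ℕ) (x : K) :
    (1 : ℚ_[q]) ⊗ₜ[ℚ] ((m : K) * x) = (m : semiAlg q K) * ((1 : ℚ_[q]) ⊗ₜ[ℚ] x) := by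
  have h1 : (m : semiAlg q K) = (m : ℚ_[q]) ⊗ₜ[ℚ] (1 : K) := by
    rw [← map_natCast (algebraMap ℚ_[q] (semiAlg q K)) m, Algebra.TensorProduct.algebraMap_apply]
    rfl
  rw [h1, Algebra.TensorProduct.tmul_mul_tmul, one_mul, mul_one]
  have h2 : (m : K) * x = (m : ℚ) • x := by
    rw [Algebra.smul_def, map_natCast]
  have h3 : (m : ℚ_[q]) = (m : ℚ) • (1 : ℚ_[q]) := by
    rw [Algebra.smul_def, map_natCast, mul_one]
  rw [h2, h3, TensorProduct.smul_tmul]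

variable {q K}

theorem SemiCong.refl' (n : ℕ) (a : semiAlg q K) : SemiCong q K n a a :=
  ⟨0, (semiInt q K).zero_mem, by simp⟩

theorem SemiCong.trans' {n : ℕ} {a b c : semiAlg q K} (h1 : SemiCong q K n a b)
    (h2 : SemiCong q K n b c) : SemiCong q K n a c := by
  obtain ⟨r, hr, e1⟩ := h1
  obtain ⟨s, hs, e2⟩ := h2
  refine ⟨r + s, (semiInt q K).add_mem hr hs, ?_⟩
  rw [mul_add, ← e1, ← e2]
  ring

theorem SemiCong.symm' {n : ℕ} {a b : semiAlg q K} (h1 : SemiCong q K n a b) :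
    SemiCong q K n b a := by
  obtain ⟨r, hr, e1⟩ := h1
  refine ⟨-r, (semiInt q K).neg_mem hr, ?_⟩
  rw [mul_neg, ← e1]
  ring

/-- `1 ⊗ (m^k x) ≡ 0 mod q^k` if `q ∣ m`. -/
theorem ic_semiCong_of_dvd (m : ℕ) (hqm : q ∣ m) (k : ℕ) (x : 𝓞 K) :
    SemiCong q K k ((1 : ℚ_[q]) ⊗ₜ[ℚ] (((m : 𝓞 K) ^ k * x : 𝓞 K) : K)) 0 := by
  obtain ⟨m', rfl⟩ := hqm
  refine ⟨(1 : ℚ_[q]) ⊗ₜ[ℚ] ((((m' : 𝓞 K) ^ k * x : 𝓞 K)) : K), ic_one_tmul_mem q K _, ?_⟩
  rw [sub_zero]
  have h := ic_one_tmul_natCast_mul q K (q ^ k) ((((m' : 𝓞 K) ^ k * x : 𝓞 K)) : K)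
  rw [Nat.cast_pow (α := semiAlg q K)] at h
  rw [← h]
  congr 1
  push_cast
  ring

end basic

section principal

variable {K : Type} [Field K] [NumberField K] (S : Finset Nat.Primes)

/-- the modulus `(N^(n+1))`, `N = ∏ S`. -/
noncomputable def icMod (K : Type) [Field K] [NumberField K] (S : Finset Nat.Primes) (n : ℕ) :
    Ideal (𝓞 K) :=
  Ideal.span {((sProd S : ℕ) : 𝓞 K) ^ (n + 1)}

theorem ic_dvd_sProd (q : ↥S) : ((q : Nat.Primes) : ℕ) ∣ sProd S :=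
  Finset.dvd_prod_of_mem (fun q : Nat.Primes => (q : ℕ)) q.2

/-- `α ≡ 1 mod (N^(n+1))` implies `1 ⊗ α ≡ 1 mod q^n R_q`. -/
theorem ic_semiCong_of_mem (n : ℕ) (α : 𝓞 K) (hα : α - 1 ∈ icMod K S n) (q : ↥S) :
    SemiCong ((q : Nat.Primes) : ℕ) K n
      ((1 : ℚ_[((q : Nat.Primes) : ℕ)]) ⊗ₜ[ℚ] (α : K)) 1 := by
  obtain ⟨β, hβ⟩ := Ideal.mem_span_singleton'.mp hα
  have h1 := ic_semiCong_of_dvd (q := ((q : Nat.Primes) : ℕ)) (K := K) (sProd S)
    (ic_dvd_sProd S q) n (((sProd S : ℕ) : 𝓞 K) * β)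
  have h2 : ((((sProd S : ℕ) : 𝓞 K) ^ n * (((sProd S : ℕ) : 𝓞 K) * β) : 𝓞 K) : K) =
      (α : K) - 1 := by
    have : ((sProd S : ℕ) : 𝓞 K) ^ n * (((sProd S : ℕ) : 𝓞 K) * β) = α - 1 := by
      rw [← hβ]; ring
    rw [this]
    push_cast
    ring
  rw [h2] at h1
  obtain ⟨r, hr, e⟩ := h1
  refine ⟨r, hr, ?_⟩
  rw [← e, sub_zero, TensorProduct.tmul_sub]
  rfl


/-- a prime containing the modulus contains some `q ∈ S`. -/

theorem icMod_ne_bot (n : ℕ) : icMod K S n ≠ ⊥ := by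
  rw [icMod, Ne, Ideal.span_singleton_eq_bot]
  exact pow_ne_zero _ (Nat.cast_ne_zero.mpr (sProd_ne_zero S))

/-- a prime containing the modulus contains some `q ∈ S`. -/
theorem ic_exists_mem_of_le (n : ℕ) (P : Ideal (𝓞 K)) [P.IsPrime] (h : icMod K S n ≤ P) :
    ∃ q ∈ S, (((q : Nat.Primes) : ℕ) : 𝓞 K) ∈ P := by
  have h1 : ((sProd S : ℕ) : 𝓞 K) ^ (n + 1) ∈ P := h (Ideal.subset_span rfl)
  have h2 : ((sProd S : ℕ) : 𝓞 K) ∈ P := Ideal.IsPrime.mem_of_pow_mem inferInstance _ h1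
  rw [sProd, Nat.cast_prod] at h2
  obtain ⟨q, hq, hqP⟩ := (Ideal.IsPrime.prod_mem_iff (p := P)).mp h2
  exact ⟨q, hq, hqP⟩

/-- a prime containing some `q ∈ S` contains the modulus. -/
theorem ic_le_of_mem (n : ℕ) (P : Ideal (𝓞 K)) (q : Nat.Primes) (hq : q ∈ S)
    (h : (((q : Nat.Primes) : ℕ) : 𝓞 K) ∈ P) : icMod K S n ≤ P := by
  rw [icMod, Ideal.span_singleton_le_iff_mem]
  apply Ideal.pow_mem_of_mem _ _ _ (Nat.succ_pos n)
  rw [sProd, Nat.cast_prod, ← Finset.mul_prod_erase S _ hq]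
  exact P.mul_mem_right _ h

/-- stripping the primes over `S`. -/
theorem ic_strip {A : Type} [CommGroup A] (φD : Ideal (𝓞 K) → A) (n : ℕ)
    (hmul : ∀ I J : Ideal (𝓞 K), I ≠ ⊥ → J ≠ ⊥ → φD (I * J) = φD I * φD J)
    (hS : ∀ P : Ideal (𝓞 K), P.IsPrime → ∀ q ∈ S, (((q : Nat.Primes) : ℕ) : 𝓞 K) ∈ P → φD P = 1)
    (I : Ideal (𝓞 K)) (hI : I ≠ ⊥) :
    ∃ I₀ : Ideal (𝓞 K), I₀ ≠ ⊥ ∧ IsCoprime I₀ (icMod K S n) ∧ φD I₀ = φD I := by
  induction I using UniqueFactorizationMonoid.induction_on_prime with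
  | h₁ => exact absurd rfl hI
  | h₂ x hx =>
    have hx' : x = ⊤ := Ideal.isUnit_iff.mp hx
    subst hx'
    exact ⟨⊤, top_ne_bot, Ideal.isCoprime_iff_sup_eq.mpr (top_sup_eq _), rfl⟩
  | h₃ a P ha hP ih =>
    have ha' : a ≠ ⊥ := ha
    obtain ⟨I₀, hI₀, hco, hφ⟩ := ih ha'
    have hPprime : P.IsPrime := Ideal.isPrime_of_prime hP
    have hP0 : P ≠ ⊥ := hP.ne_zero
    by_cases hq : ∃ q ∈ S, (((q : Nat.Primes) : ℕ) : 𝓞 K) ∈ P
    · obtain ⟨q, hqS, hqP⟩ := hq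
      refine ⟨I₀, hI₀, hco, ?_⟩
      rw [hφ, hmul P a hP0 ha', hS P hPprime q hqS hqP, one_mul]
    · refine ⟨P * I₀, mul_ne_zero hP0 hI₀, IsCoprime.mul_left ?_ hco, ?_⟩
      · have hmax : P.IsMaximal := hPprime.isMaximal hP0
        rw [Ideal.isCoprime_iff_sup_eq]
        by_contra hne
        have h1 : P = P ⊔ icMod K S n := hmax.eq_of_le hne le_sup_left
        have h2 : icMod K S n ≤ P := by
          rw [h1]
          exact le_sup_right
        exact hq (ic_exists_mem_of_le S n P h2)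
      · rw [hmul P I₀ hP0 hI₀, hmul P a hP0 ha', hφ]


/-- inverting the class of an ideal prime to the modulus. -/
theorem ic_invert {A : Type} [CommGroup A] (φD : Ideal (𝓞 K) → A) (n : ℕ)
    (hmul : ∀ I J : Ideal (𝓞 K), I ≠ ⊥ → J ≠ ⊥ → φD (I * J) = φD I * φD J)
    (hP1 : ∀ α : 𝓞 K, α ≠ 0 → α - 1 ∈ icMod K S n → φD (Ideal.span {α}) = 1)
    (I : Ideal (𝓞 K)) (hI : I ≠ ⊥) (hco : IsCoprime I (icMod K S n)) :
    ∃ I₃ : Ideal (𝓞 K), I₃ ≠ ⊥ ∧ IsCoprime I₃ (icMod K S n) ∧ φD I * φD I₃ = 1 := by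
  obtain ⟨β, hβI, hβ0, hβ1⟩ : ∃ β ∈ I, β ≠ 0 ∧ β - 1 ∈ icMod K S n := by
    obtain ⟨i, hi, j, hj, hij⟩ := Ideal.isCoprime_iff_exists.mp hco
    by_cases hi0 : i = 0
    · have h1 : (1 : 𝓞 K) ∈ icMod K S n := by
        rw [← hij, hi0, zero_add]; exact hj
      have htop : icMod K S n = ⊤ := (Ideal.eq_top_iff_one _).mpr h1
      obtain ⟨β, hβ, hβ0⟩ := Submodule.exists_mem_ne_zero_of_ne_bot hI
      exact ⟨β, hβ, hβ0, by rw [htop]; trivial⟩
    · refine ⟨i, hi, hi0, ?_⟩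
      have : i - 1 = -j := by rw [← hij]; ring
      rw [this]
      exact (icMod K S n).neg_mem hj
  have hle : Ideal.span {β} ≤ I := (Ideal.span_singleton_le_iff_mem I).mpr hβI
  obtain ⟨I₃, hI₃⟩ := Ideal.dvd_iff_le.mpr hle
  have hspan0 : Ideal.span {β} ≠ (⊥ : Ideal (𝓞 K)) := by
    rw [Ne, Ideal.span_singleton_eq_bot]; exact hβ0
  have hI₃0 : I₃ ≠ ⊥ := by
    rintro rfl
    rw [Ideal.mul_bot] at hI₃
    exact hspan0 hI₃
  have hcoβ : IsCoprime (Ideal.span {β}) (icMod K S n) := by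
    rw [Ideal.isCoprime_iff_exists]
    refine ⟨β, Ideal.subset_span rfl, 1 - β, ?_, by ring⟩
    have : (1 : 𝓞 K) - β = -(β - 1) := by ring
    rw [this]
    exact (icMod K S n).neg_mem hβ1
  refine ⟨I₃, hI₃0, ?_, ?_⟩
  · rw [hI₃] at hcoβ
    exact hcoβ.of_mul_left_right
  · rw [← hmul I I₃ hI hI₃0, ← hI₃]
    exact hP1 β hβ0 hβ1

end principal

section approx

variable {K : Type} [Field K] [NumberField K] (S : Finset Nat.Primes)

theorem ic_natCast_pow_mem (hR : StmtSemiInt) (q : ℕ) [Fact q.Prime] (k : ℕ) :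
    (q : semiAlg q K) ^ k ∈ semiInt q K := by
  obtain ⟨h1, hmul, -⟩ := hR q K
  have hq : (q : semiAlg q K) ∈ semiInt q K := by
    have : (q : semiAlg q K) = q • (1 : semiAlg q K) := by simp
    rw [this]
    exact (semiInt q K).nsmul_mem h1 q
  induction k with
  | zero => simpa using h1
  | succ k ih => rw [pow_succ]; exact hmul _ ih _ hq

theorem SemiCong.mono' (hR : StmtSemiInt) {q : ℕ} [Fact q.Prime] {n m : ℕ} (h : n ≤ m)
    {a b : semiAlg q K} (hab : SemiCong q K m a b) : SemiCong q K n a b := by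
  obtain ⟨r, hr, e⟩ := hab
  obtain ⟨k, rfl⟩ := Nat.exists_eq_add_of_le h
  refine ⟨(q : semiAlg q K) ^ k * r, (hR q K).2.1 _ (ic_natCast_pow_mem hR q k) _ hr, ?_⟩
  rw [e, pow_add, mul_assoc]

/-- weak approximation for units: every idèle is a principal idèle times an idèle `≡ 1`. -/
theorem ic_approx (hW : StmtWeakApprox) (hR : StmtSemiInt) (j : JL S K) (n : ℕ) :
    ∃ α : Kˣ, ∀ q : ↥S, SemiCong ((q : Nat.Primes) : ℕ) K n
      (((jlDiag S K α * j⁻¹ : JL S K) q : (semiAlg ((q : Nat.Primes) : ℕ) K)ˣ) :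
        semiAlg ((q : Nat.Primes) : ℕ) K) 1 := by
  classical
  -- denominators of `j⁻¹`
  have hden : ∀ q : ↥S, ∃ m : ℕ, (((q : Nat.Primes) : ℕ) : semiAlg ((q : Nat.Primes) : ℕ) K) ^ m *
      (((j q)⁻¹ : (semiAlg ((q : Nat.Primes) : ℕ) K)ˣ) : semiAlg ((q : Nat.Primes) : ℕ) K) ∈
        semiInt ((q : Nat.Primes) : ℕ) K := fun q => (hR _ K).2.2 _
  choose m hm using hden
  set M : ℕ := n + Finset.univ.sup m with hM
  obtain ⟨α₀, hα₀⟩ := hW K S (fun q => ((j q : (semiAlg ((q : Nat.Primes) : ℕ) K)ˣ) :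
    semiAlg ((q : Nat.Primes) : ℕ) K)) M
  -- a nonzero approximation
  obtain ⟨α, hα0, hα⟩ : ∃ α : K, α ≠ 0 ∧ ∀ q : ↥S, SemiCong ((q : Nat.Primes) : ℕ) K M
      ((1 : ℚ_[((q : Nat.Primes) : ℕ)]) ⊗ₜ[ℚ] α)
      ((j q : (semiAlg ((q : Nat.Primes) : ℕ) K)ˣ) : semiAlg ((q : Nat.Primes) : ℕ) K) := by
    by_cases h0 : α₀ = 0
    · refine ⟨(((sProd S : ℕ) : 𝓞 K) ^ M * 1 : 𝓞 K), ?_, fun q => ?_⟩
      · have : (((sProd S : ℕ) : 𝓞 K) ^ M * 1 : 𝓞 K) ≠ 0 :=
          mul_ne_zero (pow_ne_zero _ (Nat.cast_ne_zero.mpr (sProd_ne_zero S))) one_ne_zero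
        exact_mod_cast this
      · have h1 := ic_semiCong_of_dvd (q := ((q : Nat.Primes) : ℕ)) (K := K) (sProd S)
          (ic_dvd_sProd S q) M (1 : 𝓞 K)
        have h2 := hα₀ q
        rw [h0, TensorProduct.tmul_zero] at h2
        exact h1.trans' h2
    · exact ⟨α₀, h0, hα₀⟩
  refine ⟨Units.mk0 α hα0, fun q => ?_⟩
  obtain ⟨r, hr, e⟩ := hα q
  have hmq : m q ≤ Finset.univ.sup m := Finset.le_sup (Finset.mem_univ q)
  obtain ⟨k, hk⟩ := Nat.exists_eq_add_of_le hmq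
  refine ⟨(((q : Nat.Primes) : ℕ) : semiAlg ((q : Nat.Primes) : ℕ) K) ^ k * r *
    ((((q : Nat.Primes) : ℕ) : semiAlg ((q : Nat.Primes) : ℕ) K) ^ m q *
      (((j q)⁻¹ : (semiAlg ((q : Nat.Primes) : ℕ) K)ˣ) : semiAlg ((q : Nat.Primes) : ℕ) K)),
    (hR _ K).2.1 _ ((hR _ K).2.1 _ (ic_natCast_pow_mem hR _ k) _ hr) _ (hm q), ?_⟩
  have hval : (((jlDiag S K (Units.mk0 α hα0) * j⁻¹ : JL S K) q :
      (semiAlg ((q : Nat.Primes) : ℕ) K)ˣ) : semiAlg ((q : Nat.Primes) : ℕ) K) =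
      ((1 : ℚ_[((q : Nat.Primes) : ℕ)]) ⊗ₜ[ℚ] α) *
        (((j q)⁻¹ : (semiAlg ((q : Nat.Primes) : ℕ) K)ˣ) : semiAlg ((q : Nat.Primes) : ℕ) K) := rfl
  have hinv : ((j q : (semiAlg ((q : Nat.Primes) : ℕ) K)ˣ) : semiAlg ((q : Nat.Primes) : ℕ) K) *
      (((j q)⁻¹ : (semiAlg ((q : Nat.Primes) : ℕ) K)ˣ) : semiAlg ((q : Nat.Primes) : ℕ) K) = 1 :=
    Units.mul_inv _
  rw [hval]
  have e' : (1 : ℚ_[((q : Nat.Primes) : ℕ)]) ⊗ₜ[ℚ] α =
      ((j q : (semiAlg ((q : Nat.Primes) : ℕ) K)ˣ) : semiAlg ((q : Nat.Primes) : ℕ) K) +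
        (((q : Nat.Primes) : ℕ) : semiAlg ((q : Nat.Primes) : ℕ) K) ^ M * r := by
    rw [← e]; ring
  rw [e', add_mul, hinv, hM, hk]
  ring

end approx

/-- **G2I-core**: the second inequality for an idèle-class quotient. -/
theorem stmtIdelicCore_of (hW : StmtWeakApprox) (hR : StmtSemiInt) : StmtIdelicCore := by
  intro K L _ _ _ _ _ S A _ φJ φD n hmul hS hprin hcond hsplit hgen
  classical
  -- principal ideals `≡ 1`
  have hP1 : ∀ α : 𝓞 K, α ≠ 0 → α - 1 ∈ icMod K S n → φD (Ideal.span {α}) = 1 := by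
    intro α hα hα1
    have hαK : (α : K) ≠ 0 := by exact_mod_cast hα
    have h1 := hprin α hαK
    have h2 : φJ (jlDiag S K (Units.mk0 (α : K) hαK)) = 1 := by
      apply hcond
      intro q
      exact ic_semiCong_of_mem S n α hα1 q
    rwa [h2, one_mul] at h1
  -- the ray datum
  have hc : IsRayDatum K (icMod K S n) φD := by
    refine ⟨fun I J hI hJ _ _ => hmul I J hI hJ, hP1, fun a => ?_⟩
    obtain ⟨j, I, I', hI, hI', haI⟩ := hgen a
    -- Step 1: approximate `j` by a principal idèle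
    obtain ⟨α, hα⟩ := ic_approx S hW hR j n
    have h1 : φJ (jlDiag S K α) = φJ j := by
      have := hcond _ hα
      rw [map_mul, map_inv, mul_inv_eq_one] at this
      exact this
    -- Step 2: `α = β / γ`
    obtain ⟨β, γ, hγ, hαβγ⟩ : ∃ β γ : 𝓞 K, γ ≠ 0 ∧ (α : K) * (γ : K) = (β : K) := by
      obtain ⟨β, γ, hγ, h⟩ := IsFractionRing.div_surjective (A := 𝓞 K) (α : K)
      refine ⟨β, γ, nonZeroDivisors.ne_zero hγ, ?_⟩
      have hγK : algebraMap (𝓞 K) K γ ≠ 0 := fun h =>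
        nonZeroDivisors.ne_zero hγ ((IsFractionRing.injective (𝓞 K) K) (h.trans (map_zero _).symm))
      rw [← h]
      exact div_mul_cancel₀ _ hγK
    have hγK : (γ : K) ≠ 0 := by exact_mod_cast hγ
    have hβK : (β : K) ≠ 0 := by
      rw [← hαβγ]
      exact mul_ne_zero α.ne_zero hγK
    have hβ : β ≠ 0 := by
      rintro rfl
      exact hβK rfl
    have h2 : φJ (jlDiag S K α) * φJ (jlDiag S K (Units.mk0 (γ : K) hγK)) =
        φJ (jlDiag S K (Units.mk0 (β : K) hβK)) := by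
      rw [← map_mul, ← map_mul]
      congr 2
      apply Units.ext
      exact hαβγ
    have h3 := hprin β hβK
    have h4 := hprin γ hγK
    have hspanβ : Ideal.span {β} ≠ (⊥ : Ideal (𝓞 K)) := by
      rw [Ne, Ideal.span_singleton_eq_bot]; exact hβ
    have hspanγ : Ideal.span {γ} ≠ (⊥ : Ideal (𝓞 K)) := by
      rw [Ne, Ideal.span_singleton_eq_bot]; exact hγ
    -- `a * φD (I' * (β)) = φD ((γ) * I)`
    have h5 : a * φD (I' * Ideal.span {β}) = φD (Ideal.span {γ} * I) := by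
      have e : φJ (jlDiag S K α) * φD (Ideal.span {β}) = φD (Ideal.span {γ}) := by
        apply mul_right_cancel (b := φJ (jlDiag S K (Units.mk0 (γ : K) hγK)))
        rw [mul_right_comm, h2, h3, mul_comm, h4]
      rw [hmul _ _ hI' hspanβ, hmul _ _ hspanγ hI, ← mul_assoc, haI, ← h1, ← e, mul_right_comm]
    -- Step 3: strip the primes over `S`
    obtain ⟨I₁, hI₁, hco₁, hφ₁⟩ := ic_strip S φD n hmul hS (Ideal.span {γ} * I)
      (mul_ne_zero hspanγ hI)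
    obtain ⟨I₂, hI₂, hco₂, hφ₂⟩ := ic_strip S φD n hmul hS (I' * Ideal.span {β})
      (mul_ne_zero hI' hspanβ)
    -- Step 4: invert
    obtain ⟨I₃, hI₃, hco₃, hφ₃⟩ := ic_invert S φD n hmul hP1 I₂ hI₂ hco₂
    refine ⟨I₁ * I₃, mul_ne_zero hI₁ hI₃, hco₁.mul_left hco₃, ?_⟩
    rw [hmul _ _ hI₁ hI₃, hφ₁, ← h5, ← hφ₂, mul_assoc, hφ₃, mul_one]
  refine secondInequalityStatement K L (icMod K S n) (icMod_ne_bot S n) A φD hc ?_
  rintro v ⟨hv, w, hw1, hw2⟩
  refine hsplit v (fun q hq hmem => ?_) ⟨w, hw1, hw2⟩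
  have hle := ic_le_of_mem S n v.asIdeal q hq hmem
  have htop : v.asIdeal ⊔ icMod K S n = ⊤ := Ideal.isCoprime_iff_sup_eq.mp hv
  rw [sup_eq_left.mpr hle] at htop
  exact v.isPrime.ne_top htop

end Fermat.Agent.PT.G2


end ZBPT_073_2

/-! ### bundled: `Fermat.Agent.PT.G2.IdelicSecond` -/
section ZBPT_073_3
/-
PT-G2 part 2, piece G2I-final (helper75): the idèle-class form of the second inequality,
`stmtIdelicSecond_of : StmtIdelicCore → StmtLocalPow → StmtSemiInt → StmtIdelicSecond`.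

`A := C_S(F) / B`, `φJ j := [csOfJ j]`, `φD I := [csOfDiv (div_S I)]` (`divOfIdeal`); the conductor
exponent is the maximum of the exponents of `StmtLocalPow` for `q ∈ S`.
-/

set_option autoImplicit false

namespace Fermat.Agent.PT.G2

open NumberField TensorProduct IsDedekindDomain
open Fermat.Agent.PT.G1 Fermat.Agent.PT.G Fermat.Agent.PT.X
open scoped nonZeroDivisors

section divisors

variable (S : Finset Nat.Primes) (F : Type) [Field F] [NumberField F]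

theorem if_count_finite_support (I : Ideal (𝓞 F)) :
    (Function.support fun P : OffS S F =>
      FractionalIdeal.count F P.1 (I : FractionalIdeal (𝓞 F)⁰ F)).Finite := by
  have h := FractionalIdeal.finite_factors (R := 𝓞 F) (K := F) (I : FractionalIdeal (𝓞 F)⁰ F)
  rw [Filter.eventually_cofinite] at h
  refine Set.Finite.of_injOn (f := Subtype.val) ?_ Subtype.val_injective.injOn h
  intro P hP
  exact hP

/-- The divisor of an ideal of `𝓞 F`, away from `S` (`0` for the zero ideal). -/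
noncomputable def divOfIdeal (I : Ideal (𝓞 F)) : DivS S F :=
  Finsupp.ofSupportFinite
    (fun P : OffS S F => FractionalIdeal.count F P.1 (I : FractionalIdeal (𝓞 F)⁰ F))
    (if_count_finite_support S F I)

@[simp] theorem divOfIdeal_apply (I : Ideal (𝓞 F)) (P : OffS S F) :
    divOfIdeal S F I P = FractionalIdeal.count F P.1 (I : FractionalIdeal (𝓞 F)⁰ F) := rfl

theorem divOfIdeal_mul {I J : Ideal (𝓞 F)} (hI : I ≠ ⊥) (hJ : J ≠ ⊥) :
    divOfIdeal S F (I * J) = divOfIdeal S F I + divOfIdeal S F J := by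
  ext P
  rw [Finsupp.add_apply, divOfIdeal_apply, divOfIdeal_apply, divOfIdeal_apply,
    FractionalIdeal.coeIdeal_mul,
    FractionalIdeal.count_mul F P.1 (FractionalIdeal.coeIdeal_ne_zero.mpr hI)
      (FractionalIdeal.coeIdeal_ne_zero.mpr hJ)]

theorem divOfIdeal_top : divOfIdeal S F ⊤ = 0 := by
  ext P
  rw [divOfIdeal_apply, FractionalIdeal.coeIdeal_top, FractionalIdeal.count_one]
  rfl

theorem divOfIdeal_span (α : 𝓞 F) (hα : (α : F) ≠ 0) :
    divOfIdeal S F (Ideal.span {α}) = divFun S F (Units.mk0 (α : F) hα) := by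
  ext P
  rw [divOfIdeal_apply, divFun_apply, ordAt, FractionalIdeal.coeIdeal_span_singleton]
  rfl

theorem divOfIdeal_prime (v : OffS S F) : divOfIdeal S F v.1.asIdeal = Finsupp.single v 1 := by
  classical
  ext P
  rw [divOfIdeal_apply, FractionalIdeal.count_maximal, Finsupp.single_apply]
  by_cases h : v = P
  · subst h
    simp
  · rw [if_neg (fun e => h (Subtype.ext e)), if_neg h]

theorem divOfIdeal_pow (v : OffS S F) (n : ℕ) :
    divOfIdeal S F (v.1.asIdeal ^ n) = Finsupp.single v (n : ℤ) := by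
  induction n with
  | zero =>
    rw [pow_zero, Ideal.one_eq_top, divOfIdeal_top]
    simp
  | succ n ih =>
    rw [pow_succ, divOfIdeal_mul S F (pow_ne_zero n v.1.ne_bot) v.1.ne_bot, ih, divOfIdeal_prime,
      ← Finsupp.single_add]
    push_cast
    rfl

theorem divOfIdeal_of_mem (P : Ideal (𝓞 F)) (hP : P.IsPrime) (q : Nat.Primes) (hq : q ∈ S)
    (hqP : (((q : Nat.Primes) : ℕ) : 𝓞 F) ∈ P) : divOfIdeal S F P = 0 := by
  classical
  have hP0 : P ≠ ⊥ := by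
    rintro rfl
    have h0 : (((q : Nat.Primes) : ℕ) : 𝓞 F) = 0 := hqP
    have := q.2.ne_zero
    exact this (by exact_mod_cast h0)
  ext Q
  set w : HeightOneSpectrum (𝓞 F) := ⟨P, hP, hP0⟩ with hw
  have : divOfIdeal S F P Q = FractionalIdeal.count F Q.1
      ((w.asIdeal : Ideal (𝓞 F)) : FractionalIdeal (𝓞 F)⁰ F) := rfl
  rw [this, FractionalIdeal.count_maximal, if_neg, Finsupp.zero_apply]
  intro e
  apply Q.2
  rw [← e]
  show ((sProd S : ℕ) : 𝓞 F) ∈ P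
  rw [sProd, Nat.cast_prod, ← Finset.mul_prod_erase S _ hq]
  exact P.mul_mem_right _ hqP

/-- every divisor is a difference of divisors of ideals. -/
theorem exists_divOfIdeal (D : DivS S F) :
    ∃ I I' : Ideal (𝓞 F), I ≠ ⊥ ∧ I' ≠ ⊥ ∧ D + divOfIdeal S F I' = divOfIdeal S F I := by
  induction D using Finsupp.induction_linear with
  | zero => exact ⟨⊤, ⊤, top_ne_bot, top_ne_bot, by rw [zero_add]⟩
  | add D₁ D₂ h₁ h₂ =>
    obtain ⟨I₁, I₁', hI₁, hI₁', e₁⟩ := h₁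
    obtain ⟨I₂, I₂', hI₂, hI₂', e₂⟩ := h₂
    refine ⟨I₁ * I₂, I₁' * I₂', mul_ne_zero hI₁ hI₂, mul_ne_zero hI₁' hI₂', ?_⟩
    rw [divOfIdeal_mul S F hI₁ hI₂, divOfIdeal_mul S F hI₁' hI₂', ← e₁, ← e₂]
    abel
  | single v k =>
    rcases le_total 0 k with hk | hk
    · refine ⟨v.1.asIdeal ^ k.toNat, ⊤, pow_ne_zero _ v.1.ne_bot, top_ne_bot, ?_⟩
      rw [divOfIdeal_top, add_zero, divOfIdeal_pow, Int.toNat_of_nonneg hk]
    · refine ⟨⊤, v.1.asIdeal ^ (-k).toNat, top_ne_bot, pow_ne_zero _ v.1.ne_bot, ?_⟩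
      rw [divOfIdeal_top, divOfIdeal_pow, Int.toNat_of_nonneg (by omega), ← Finsupp.single_add]
      simp

end divisors

section final

variable (S : Finset Nat.Primes) (F : Type) [Field F] [NumberField F]

theorem if_csOfJ_add_csOfDiv (x : Additive (JL S F)) (D : DivS S F) :
    csOfJ S F x + csOfDiv S F D = csMk S F (x, D) := by
  rw [csOfJ_apply, csOfDiv_apply, ← map_add]
  congr 1
  ext <;> simp

theorem if_csMk_iota (u : Fˣ) :
    csMk S F (Additive.ofMul (jlDiag S F u), divFun S F u) = 0 := by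
  have h : ((Additive.ofMul (jlDiag S F u), divFun S F u) :
      Additive (JL S F) × DivS S F) = iotaHom S F (Additive.ofMul u) := rfl
  rw [h]
  exact (Submodule.Quotient.mk_eq_zero _).mpr ⟨_, rfl⟩

end final

/-- **G2-idelic**: `[C_S(F) : B] ≤ [M : F]`. -/
theorem stmtIdelicSecond_of (hC : StmtIdelicCore) (hP : StmtLocalPow) (hR : StmtSemiInt) :
    StmtIdelicSecond := by
  intro F M _ _ _ _ _ S B d hd hBJ hBv
  classical
  -- the conductor exponent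
  have hn : ∀ q : ↥S, ∃ n : ℕ, ∀ j : (semiAlg ((q : Nat.Primes) : ℕ) F)ˣ,
      SemiCong ((q : Nat.Primes) : ℕ) F n (j : semiAlg ((q : Nat.Primes) : ℕ) F) 1 →
        ∃ y : (semiAlg ((q : Nat.Primes) : ℕ) F)ˣ, y ^ d = j := fun q => hP d hd _ F
  choose nq hnq using hn
  set n : ℕ := Finset.univ.sup nq with hndef
  -- the maps
  let φJ : JL S F →* Multiplicative (CS S F ⧸ B) :=
    { toFun := fun j => Multiplicative.ofAdd (B.mkQ (csOfJ S F (Additive.ofMul j)))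
      map_one' := by
        show Multiplicative.ofAdd (B.mkQ (csOfJ S F 0)) = 1
        rw [map_zero, map_zero]; rfl
      map_mul' := fun j j' => by
        show Multiplicative.ofAdd (B.mkQ (csOfJ S F (Additive.ofMul j + Additive.ofMul j'))) = _
        rw [map_add, map_add]; rfl }
  let φD : Ideal (𝓞 F) → Multiplicative (CS S F ⧸ B) :=
    fun I => Multiplicative.ofAdd (B.mkQ (csOfDiv S F (divOfIdeal S F I)))
  have key := hC F M S (Multiplicative (CS S F ⧸ B)) φJ φD n ?_ ?_ ?_ ?_ ?_ ?_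
  · obtain ⟨hfin, hcard⟩ := key
    have := hfin
    have hfin' : Finite (CS S F ⧸ B) := Finite.of_equiv _ Multiplicative.toAdd
    refine ⟨hfin', ?_⟩
    rw [← Nat.card_congr (Multiplicative.toAdd (α := CS S F ⧸ B))]
    exact hcard
  · -- multiplicativity
    intro I J hI hJ
    show Multiplicative.ofAdd _ = Multiplicative.ofAdd _ * Multiplicative.ofAdd _
    rw [divOfIdeal_mul S F hI hJ, map_add, map_add]
    rfl
  · -- primes over `S`
    intro P hPp q hq hqP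
    show Multiplicative.ofAdd _ = 1
    rw [divOfIdeal_of_mem S F P hPp q hq hqP, map_zero, map_zero]
    rfl
  · -- principal idèles
    intro α hα
    show Multiplicative.ofAdd _ * Multiplicative.ofAdd _ = 1
    rw [← ofAdd_add, ← map_add, if_csOfJ_add_csOfDiv, divOfIdeal_span S F α hα, if_csMk_iota,
      map_zero]
    rfl
  · -- conductor
    intro j hj
    have h1 : ∀ q : ↥S, ∃ y : (semiAlg ((q : Nat.Primes) : ℕ) F)ˣ, y ^ d = j q := fun q =>
      hnq q (j q) (SemiCong.mono' hR (Finset.le_sup (Finset.mem_univ q)) (hj q))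
    choose y hy using h1
    have h2 : j = (fun q => y q) ^ d := by
      funext q
      exact (hy q).symm
    show Multiplicative.ofAdd (B.mkQ (csOfJ S F (Additive.ofMul j))) = 1
    have h3 : csOfJ S F (Additive.ofMul j) ∈ B := by
      have h4 : (Additive.ofMul j : Additive (JL S F)) =
          d • (Additive.ofMul (fun q => y q) : Additive (JL S F)) := by
        rw [h2]; rfl
      rw [h4, map_nsmul]
      exact hBJ _
    have h5 : B.mkQ (csOfJ S F (Additive.ofMul j)) = 0 := (Submodule.Quotient.mk_eq_zero B).mpr h3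
    exact congrArg Multiplicative.ofAdd h5
  · -- split primes
    intro v hv hw
    have hvS : ((sProd S : ℕ) : 𝓞 F) ∉ v.asIdeal := by
      intro h
      rw [sProd, Nat.cast_prod] at h
      obtain ⟨q, hq, hqv⟩ := (Ideal.IsPrime.prod_mem_iff (p := v.asIdeal)).mp h
      exact hv q hq hqv
    have h1 := hBv ⟨v, hvS⟩ hw
    show Multiplicative.ofAdd (B.mkQ (csOfDiv S F (divOfIdeal S F v.asIdeal))) = 1
    have h2 : divOfIdeal S F v.asIdeal = Finsupp.single (⟨v, hvS⟩ : OffS S F) 1 :=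
      divOfIdeal_prime S F ⟨v, hvS⟩
    have h3 : B.mkQ (csOfDiv S F (Finsupp.single (⟨v, hvS⟩ : OffS S F) 1)) = 0 :=
      (Submodule.Quotient.mk_eq_zero B).mpr h1
    rw [h2]
    exact congrArg Multiplicative.ofAdd h3
  · -- generation
    intro a
    obtain ⟨c, hc⟩ := B.mkQ_surjective (Multiplicative.toAdd a)
    obtain ⟨⟨x, D⟩, hxD⟩ := (LinearMap.range (iotaHom S F)).mkQ_surjective c
    obtain ⟨I, I', hI, hI', e⟩ := exists_divOfIdeal S F D
    refine ⟨Additive.toMul x, I, I', hI, hI', ?_⟩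
    show a * Multiplicative.ofAdd _ = Multiplicative.ofAdd _ * Multiplicative.ofAdd _
    have ha : a = Multiplicative.ofAdd (B.mkQ c) := by rw [hc]; rfl
    rw [ha, ← ofAdd_add, ← ofAdd_add, ← map_add, ← map_add]
    congr 2
    have hx : Additive.ofMul (Additive.toMul x) = x := rfl
    rw [hx, if_csOfJ_add_csOfDiv, ← e, ← hxD]
    show csMk S F (x, D) + csOfDiv S F (divOfIdeal S F I') = _
    rw [csOfDiv_apply, ← map_add]
    congr 1
    ext <;> simp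

end Fermat.Agent.PT.G2


end ZBPT_073_3
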