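/- GENERATED FILE (helper35, build-time optimisation, NOTES/ZB.md): verbatim concatenation of the modules
   Fermat.Agent.PT.G2.SemiInt
   Do not edit; do not import together with these modules. -/
import Fermat.Agent.ZB.PT_008

/-! ### bundled: `Fermat.Agent.PT.G2.SemiInt` -/
section ZBPT_074_0
/-
PT-G2 part 2, piece G2I-R (helper75): the integral elements `R_q = ℤ_q ⊗ 𝓞_K` of
`A_q(K) = ℚ_q ⊗ K` contain `1`, are closed under multiplication, and every element of `A_q(K)` has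
a denominator `q^m`.
-/

set_option autoImplicit false

namespace Fermat.Agent.PT.G2

open NumberField TensorProduct
open Fermat.Agent.PT.G1

section

variable (q : ℕ) [Fact q.Prime] (K : Type) [Field K] [NumberField K]

theorem si_tmul_mem (z : ℤ_[q]) (x : 𝓞 K) : (z : ℚ_[q]) ⊗ₜ[ℚ] (x : K) ∈ semiInt q K :=
  AddSubgroup.subset_closure ⟨z, x, rfl⟩

theorem si_one_mem : (1 : semiAlg q K) ∈ semiInt q K := by
  have h := si_tmul_mem q K 1 1
  have e : (((1 : ℤ_[q]) : ℚ_[q])) ⊗ₜ[ℚ] (((1 : 𝓞 K)) : K) = (1 : semiAlg q K) := by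
    rw [Algebra.TensorProduct.one_def]
    simp
  rwa [e] at h

theorem si_mul_mem {a b : semiAlg q K} (ha : a ∈ semiInt q K) (hb : b ∈ semiInt q K) :
    a * b ∈ semiInt q K := by
  unfold semiInt at ha hb ⊢
  induction ha using AddSubgroup.closure_induction with
  | mem a ha =>
    obtain ⟨z, x, rfl⟩ := ha
    induction hb using AddSubgroup.closure_induction with
    | mem b hb =>
      obtain ⟨z', x', rfl⟩ := hb
      rw [Algebra.TensorProduct.tmul_mul_tmul]
      refine AddSubgroup.subset_closure ⟨z * z', x * x', ?_⟩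
      push_cast
      rfl
    | zero => rw [mul_zero]; exact AddSubgroup.zero_mem _
    | add b c _ _ hb hc => rw [mul_add]; exact AddSubgroup.add_mem _ hb hc
    | neg b _ hb => rw [mul_neg]; exact AddSubgroup.neg_mem _ hb
  | zero => rw [zero_mul]; exact AddSubgroup.zero_mem _
  | add a c _ _ ha hc => rw [add_mul]; exact AddSubgroup.add_mem _ ha hc
  | neg a _ ha => rw [neg_mul]; exact AddSubgroup.neg_mem _ ha

theorem si_natCast_mem (m : ℕ) : (m : semiAlg q K) ∈ semiInt q K := by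
  have : (m : semiAlg q K) = m • (1 : semiAlg q K) := by simp
  rw [this]
  exact (semiInt q K).nsmul_mem (si_one_mem q K) m

theorem si_pow_mem (k : ℕ) : (q : semiAlg q K) ^ k ∈ semiInt q K := by
  induction k with
  | zero => simpa using si_one_mem q K
  | succ k ih => rw [pow_succ]; exact si_mul_mem q K ih (si_natCast_mem q K q)

/-- a power of `q` times a `q`-adic number is a `q`-adic integer. -/
theorem si_exists_padicInt (z : ℚ_[q]) : ∃ (m : ℕ) (u : ℤ_[q]), (q : ℚ_[q]) ^ m * z = (u : ℚ_[q]) := by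
  have h1q : 1 < (q : ℝ) := by exact_mod_cast (Fact.out : q.Prime).one_lt
  obtain ⟨m, hm⟩ := pow_unbounded_of_one_lt ‖z‖ h1q
  have hnorm : ‖(q : ℚ_[q]) ^ m * z‖ ≤ 1 := by
    rw [norm_mul, norm_pow, Padic.norm_p, inv_pow]
    have hpos : (0 : ℝ) < (q : ℝ) ^ m := by positivity
    rw [inv_mul_le_iff₀ hpos, mul_one]
    exact hm.le
  exact ⟨m, ⟨_, hnorm⟩, rfl⟩

/-- `(m : A_q) ^ k * (z ⊗ x) = (m ^ k z) ⊗ x`. -/
theorem si_pow_mul_tmul (m k : ℕ) (z : ℚ_[q]) (x : K) :
    (m : semiAlg q K) ^ k * (z ⊗ₜ[ℚ] x) = ((m : ℚ_[q]) ^ k * z) ⊗ₜ[ℚ] x := by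
  have h1 : (m : semiAlg q K) ^ k = ((m : ℚ_[q]) ^ k) ⊗ₜ[ℚ] (1 : K) := by
    rw [← Nat.cast_pow, ← Nat.cast_pow,
      ← map_natCast (algebraMap ℚ_[q] (semiAlg q K)) (m ^ k),
      Algebra.TensorProduct.algebraMap_apply]
    rfl
  rw [h1, Algebra.TensorProduct.tmul_mul_tmul, one_mul]

theorem si_exists_pow_mul_mem (a : semiAlg q K) :
    ∃ m : ℕ, (q : semiAlg q K) ^ m * a ∈ semiInt q K := by
  induction a using TensorProduct.induction_on with
  | zero => exact ⟨0, by rw [mul_zero]; exact (semiInt q K).zero_mem⟩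
  | tmul z x =>
    -- `x = x'' / d` with `x''` integral
    have halg : IsAlgebraic ℤ x :=
      (IsFractionRing.isAlgebraic_iff ℤ ℚ K).mpr (Algebra.IsAlgebraic.isAlgebraic x)
    obtain ⟨d, hd, hint⟩ := halg.exists_integral_multiple
    have hdQ : (d : ℚ) ≠ 0 := by exact_mod_cast hd
    have hx' : x = ((d : ℚ)⁻¹) • (d • x) := by
      rw [Algebra.smul_def, zsmul_eq_mul, ← mul_assoc]
      have : (algebraMap ℚ K ((d : ℚ)⁻¹)) * (d : K) = 1 := by
        rw [map_inv₀, map_intCast]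
        exact inv_mul_cancel₀ (by exact_mod_cast hd)
      rw [this, one_mul]
    obtain ⟨m, u, hu⟩ := si_exists_padicInt q ((d : ℚ)⁻¹ • z)
    refine ⟨m, ?_⟩
    obtain ⟨y, hy⟩ : ∃ y : 𝓞 K, (y : K) = d • x := ⟨⟨d • x, hint⟩, rfl⟩
    have e : (q : semiAlg q K) ^ m * (z ⊗ₜ[ℚ] x) = (u : ℚ_[q]) ⊗ₜ[ℚ] (y : K) := by
      rw [si_pow_mul_tmul, ← hu, hy]
      conv_lhs => rw [hx']
      rw [TensorProduct.tmul_smul, TensorProduct.smul_tmul', mul_smul_comm]
    rw [e]
    exact si_tmul_mem q K u y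
  | add a b ha hb =>
    obtain ⟨m₁, h₁⟩ := ha
    obtain ⟨m₂, h₂⟩ := hb
    refine ⟨m₁ + m₂, ?_⟩
    have e : (q : semiAlg q K) ^ (m₁ + m₂) * (a + b) =
        (q : semiAlg q K) ^ m₂ * ((q : semiAlg q K) ^ m₁ * a) +
          (q : semiAlg q K) ^ m₁ * ((q : semiAlg q K) ^ m₂ * b) := by
      rw [pow_add]; ring
    rw [e]
    exact (semiInt q K).add_mem (si_mul_mem q K (si_pow_mem q K m₂) h₁)
      (si_mul_mem q K (si_pow_mem q K m₁) h₂)

end

/-- **G2I-R**. -/
theorem stmtSemiInt : StmtSemiInt := fun q _ K _ _ =>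
  ⟨si_one_mem q K, fun _ ha _ hb => si_mul_mem q K ha hb, si_exists_pow_mul_mem q K⟩

end Fermat.Agent.PT.G2


end ZBPT_074_0
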