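/- GENERATED FILE (helper35, build-time optimisation, NOTES/ZB.md): verbatim concatenation of the modules
   Fermat.Agent.PT.G3.FundAbs
   Do not edit; do not import together with these modules. -/
import Fermat.Agent.ZB.PT_002

/-! ### bundled: `Fermat.Agent.PT.G3.FundAbs` -/
section ZBPT_079_0
/-
PT-G3, piece `fundabs` (helper30): abstract assembly of the `p`-fundamental class from the
dévissage, the order criterion, the carry class and inflation–restriction along `f : G ↠ Q`.
-/

set_option autoImplicit false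

namespace Fermat.Agent.PT.G3

open CategoryTheory groupCohomology Fermat.Agent.PT

/-- **G3-abs**: assembly. -/
theorem stmtFundAbs_of (hDev : StmtDevissage) (hFund : StmtFundOfOrder) (hCarry : StmtCarryClass)
    (hInf : StmtInfSurj) : StmtFundAbs := by
  intro p _ G Q _ _ _ _ f hf hker D C φ hφ hinvar hLC hLD A _ h _ θ hθ hθA hh P a₀ ha₀ hnorm hsyl
  have hBC : PBound p C := hDev p G C hLC
  have hBD : PBound p D := hDev p Q D hLD
  -- `H¹(P ∩ A, C) = 0`
  have hPA : IsPGroup p ↥((P : Subgroup G) ⊓ A) :=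
    P.isPGroup'.to_le inf_le_left
  have hH1PA : Subsingleton (H1 (Rep.res ((P : Subgroup G) ⊓ A).subtype C)) := (hBC _ hPA).1
  -- the carry class
  obtain ⟨y, hyres, hyord⟩ := hCarry p G C A f.ker h θ hθ hθA ⟨_, hh⟩ P hH1PA a₀ ha₀ hnorm hsyl
  -- it is inflated from `Q`
  have hH1ker : Subsingleton (H1 (Rep.res f.ker.subtype C)) := (hBC _ hker).1
  obtain ⟨hinj, hexact⟩ := hInf G Q f hf D C φ hφ hinvar hH1ker
  obtain ⟨u, hu⟩ := hexact y hyres
  refine ⟨u, hFund p Q D u hBD ?_⟩
  intro k hk
  rw [← hh]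
  apply hyord
  rw [← hu, ← map_nsmul, hk, map_zero]

end Fermat.Agent.PT.G3


end ZBPT_079_0
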