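/- GENERATED FILE (helper35, build-time optimisation, NOTES/ZB.md): verbatim concatenation of the modules
   Fermat.Agent.PT.G2.WeakApproxQ
   Fermat.Agent.PT.G2.WeakApprox
   Fermat.Agent.PT.G2.IdelicFinal
   Fermat.Agent.PT.G.CyclicFinal
   Fermat.Agent.PT.B.CompareFinal
   Fermat.Agent.PT.G3.LayerFinal
   Fermat.Agent.PT.G3.SymbolZ
   Fermat.Agent.PT.G3.PsiZ
   Fermat.Agent.PT.G3.NormIndex
   Fermat.Agent.PT.G3.GAFinal
   Fermat.Agent.PT.G3.GBPsi
   Do not edit; do not import together with these modules. -/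
import Fermat.Agent.ZB.PT_008
import Fermat.Agent.ZB.PT_073
import Fermat.Agent.ZB.PT_074
import Fermat.Agent.ZB.PT_013
import Fermat.Agent.ZB.PT_059
import Fermat.Agent.ZB.PT_069
import Fermat.Agent.ZB.PT_049
import Fermat.Agent.ZB.PT_050
import Fermat.Agent.ZB.PT_051
import Fermat.Agent.ZB.PT_052
import Fermat.Agent.ZB.PT_053
import Fermat.Agent.ZB.PT_007
import Fermat.Agent.ZB.PT_055
import Fermat.Agent.ZB.PT_056
import Fermat.Agent.ZB.PT_023
import Fermat.Agent.ZB.PT_020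
import Fermat.Agent.ZB.PT_017
import Fermat.Agent.ZB.PT_078
import Fermat.Agent.ZB.PT_009
import Fermat.Agent.ZB.PT_079
import Fermat.Agent.ZB.PT_022
import Fermat.Agent.ZB.PT_080
import Fermat.Agent.ZB.PT_083

/-! ### bundled: `Fermat.Agent.PT.G2.WeakApproxQ` -/
section ZBPT_075_0
/-
PT-G2 part 2, piece G2I-Q (helper60): weak approximation for `ℚ`.

Finitely many `q`-adic numbers `z_q` (`q ∈ S`) are simultaneously approximated by one rational
number `t`: `t - z_q ∈ q^n ℤ_q`.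

Proof: `N = ∏ S`, `m` with `‖z_q‖ ≤ q^m` for all `q`; then `w_q = N^m z_q ∈ ℤ_q`; let
`a_q = appr w_q (n + m)`, `k ≡ a_q mod q^(n+m)` (Chinese remainder theorem) and `t = k / N^m`.
As `‖N‖_q = q⁻¹`, `‖t - z_q‖ = q^m ‖k - w_q‖ ≤ q^(-n)`.
-/

set_option autoImplicit false

namespace Fermat.Agent.PT.G2

open Fermat.Agent.PT.G1 Fermat.Agent.PT.G

section g2iqLocal

variable {p : ℕ} [hp : Fact p.Prime]

/-- An element of `ℚ_p` of norm `≤ p^(-n)` is `p^n` times a `p`-adic integer. -/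
lemma g2iq_exists_of_norm_le (x : ℚ_[p]) (n : ℕ) (h : ‖x‖ ≤ (p : ℝ) ^ (-(n : ℤ))) :
    ∃ u : ℤ_[p], x = (p : ℚ_[p]) ^ n * u := by
  have hp0 : (p : ℚ_[p]) ≠ 0 := by
    exact_mod_cast hp.out.ne_zero
  have hpR : (0 : ℝ) < p := by exact_mod_cast hp.out.pos
  have hy : ‖x / (p : ℚ_[p]) ^ n‖ ≤ 1 := by
    rw [norm_div, Padic.norm_p_pow, div_le_one (zpow_pos hpR _)]
    exact h
  refine ⟨⟨x / (p : ℚ_[p]) ^ n, hy⟩, ?_⟩
  show x = (p : ℚ_[p]) ^ n * (x / (p : ℚ_[p]) ^ n)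
  field_simp

/-- Every element of `ℚ_p` has norm at most some power of `p`. -/
lemma g2iq_exists_bound (x : ℚ_[p]) : ∃ m : ℕ, ‖x‖ ≤ (p : ℝ) ^ m := by
  have h1 : (1 : ℝ) < p := by exact_mod_cast hp.out.one_lt
  obtain ⟨m, hm⟩ := pow_unbounded_of_one_lt ‖x‖ h1
  exact ⟨m, hm.le⟩

/-- The norm of a natural number `p * c` with `c` prime to `p`. -/
lemma g2iq_norm_mul_coprime (c : ℕ) (hc : p.Coprime c) :
    ‖((p * c : ℕ) : ℚ_[p])‖ = (p : ℝ)⁻¹ := by
  rw [Nat.cast_mul, norm_mul, Padic.norm_p, Padic.norm_natCast_eq_one_iff.2 hc, mul_one]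

end g2iqLocal

/-- **G2I-Q** (weak approximation for `ℚ`). -/
theorem stmtWeakApproxQ : StmtWeakApproxQ := by
  intro S z n
  choose mq hmq using fun q : ↥S => g2iq_exists_bound (z q)
  obtain ⟨m, hm⟩ : ∃ m : ℕ, m = ∑ q : ↥S, mq q := ⟨_, rfl⟩
  have hmle : ∀ q : ↥S, mq q ≤ m := by
    intro q
    rw [hm]
    exact Finset.single_le_sum (f := mq) (fun _ _ => Nat.zero_le _) (Finset.mem_univ q)
  obtain ⟨N, hN⟩ : ∃ N : ℕ, N = ∏ q : ↥S, ((q : Nat.Primes) : ℕ) := ⟨_, rfl⟩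
  have hN0 : N ≠ 0 := by
    rw [hN]
    exact Finset.prod_ne_zero_iff.2 fun q _ => (q : Nat.Primes).2.ne_zero
  -- the norm of `N` at `q`
  have hNnorm : ∀ q : ↥S, ‖(N : ℚ_[((q : Nat.Primes) : ℕ)])‖ =
      ((((q : Nat.Primes) : ℕ)) : ℝ)⁻¹ := by
    intro q
    have h1 : N = ((q : Nat.Primes) : ℕ) *
        ∏ q' ∈ (Finset.univ : Finset ↥S).erase q, ((q' : Nat.Primes) : ℕ) := by
      rw [hN, Finset.mul_prod_erase (Finset.univ : Finset ↥S)
        (fun q' : ↥S => ((q' : Nat.Primes) : ℕ)) (Finset.mem_univ q)]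
    have h2 : (((q : Nat.Primes) : ℕ)).Coprime
        (∏ q' ∈ (Finset.univ : Finset ↥S).erase q, ((q' : Nat.Primes) : ℕ)) := by
      apply Nat.Coprime.prod_right
      intro q' hq'
      rw [Nat.coprime_primes (q : Nat.Primes).2 (q' : Nat.Primes).2]
      intro h
      exact (Finset.ne_of_mem_erase hq') (Subtype.ext (Subtype.ext h)).symm
    rw [h1]
    exact g2iq_norm_mul_coprime _ h2
  have hqR : ∀ q : ↥S, (0 : ℝ) < (((q : Nat.Primes) : ℕ) : ℝ) := fun q => by
    exact_mod_cast (q : Nat.Primes).2.pos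
  have hq1 : ∀ q : ↥S, (1 : ℝ) ≤ (((q : Nat.Primes) : ℕ) : ℝ) := fun q => by
    exact_mod_cast (q : Nat.Primes).2.one_lt.le
  -- `w_q = N^m z_q` is integral
  have hw : ∀ q : ↥S, ‖(N : ℚ_[((q : Nat.Primes) : ℕ)]) ^ m * z q‖ ≤ 1 := by
    intro q
    rw [norm_mul, norm_pow, hNnorm, inv_pow]
    calc ((((q : Nat.Primes) : ℕ) : ℝ) ^ m)⁻¹ * ‖z q‖
        ≤ ((((q : Nat.Primes) : ℕ) : ℝ) ^ m)⁻¹ * (((q : Nat.Primes) : ℕ) : ℝ) ^ m := by
          apply mul_le_mul_of_nonneg_left _ (inv_nonneg.2 (pow_nonneg (hqR q).le _))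
          exact (hmq q).trans (pow_le_pow_right₀ (hq1 q) (hmle q))
      _ = 1 := inv_mul_cancel₀ (pow_ne_zero _ (hqR q).ne')
  obtain ⟨w, hwdef⟩ : ∃ w : ∀ q : ↥S, ℤ_[((q : Nat.Primes) : ℕ)],
      ∀ q : ↥S, ((w q : ℤ_[((q : Nat.Primes) : ℕ)]) : ℚ_[((q : Nat.Primes) : ℕ)]) =
        (N : ℚ_[((q : Nat.Primes) : ℕ)]) ^ m * z q :=
    ⟨fun q => ⟨_, hw q⟩, fun q => rfl⟩
  -- Chinese remainder theorem
  obtain ⟨k, hk⟩ := Nat.chineseRemainderOfFinset (fun q : ↥S => (w q).appr (n + m))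
    (fun q : ↥S => ((q : Nat.Primes) : ℕ) ^ (n + m)) (Finset.univ : Finset ↥S)
    (fun q _ => pow_ne_zero _ (q : Nat.Primes).2.ne_zero)
    (by
      intro q _ q' _ hne
      apply Nat.Coprime.pow
      rw [Nat.coprime_primes (q : Nat.Primes).2 (q' : Nat.Primes).2]
      intro h
      exact hne (Subtype.ext (Subtype.ext h)))
  refine ⟨(k : ℚ) / (N : ℚ) ^ m, fun q => ?_⟩
  apply g2iq_exists_of_norm_le
  have hNq : (N : ℚ_[((q : Nat.Primes) : ℕ)]) ≠ 0 := by exact_mod_cast hN0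
  -- `k - w_q` has norm `≤ q^(-(n+m))`
  have h1 : ‖(k : ℚ_[((q : Nat.Primes) : ℕ)]) - (((w q).appr (n + m) : ℕ) :
      ℚ_[((q : Nat.Primes) : ℕ)])‖ ≤ ((((q : Nat.Primes) : ℕ)) : ℝ) ^ (-((n + m : ℕ) : ℤ)) := by
    have hdvd : ((((q : Nat.Primes) : ℕ) ^ (n + m) : ℕ) : ℤ) ∣
        ((k : ℤ) - ((w q).appr (n + m) : ℤ)) :=
      (Nat.modEq_iff_dvd.1 (hk q (Finset.mem_univ q)).symm)
    have := (Padic.norm_int_le_pow_iff_dvd (p := ((q : Nat.Primes) : ℕ))
      ((k : ℤ) - ((w q).appr (n + m) : ℤ)) (n + m)).2 (by exact_mod_cast hdvd)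
    push_cast at this ⊢
    exact this
  have h2 : ‖(((w q).appr (n + m) : ℕ) : ℚ_[((q : Nat.Primes) : ℕ)]) -
      ((w q : ℤ_[((q : Nat.Primes) : ℕ)]) : ℚ_[((q : Nat.Primes) : ℕ)])‖ ≤
      ((((q : Nat.Primes) : ℕ)) : ℝ) ^ (-((n + m : ℕ) : ℤ)) := by
    have := (PadicInt.norm_le_pow_iff_mem_span_pow _ _).2 (PadicInt.appr_spec (n + m) (w q))
    rw [← norm_neg, neg_sub]
    have e : ‖(w q - ((w q).appr (n + m) : ℤ_[((q : Nat.Primes) : ℕ)]))‖ =
        ‖((w q : ℤ_[((q : Nat.Primes) : ℕ)]) : ℚ_[((q : Nat.Primes) : ℕ)]) -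
          (((w q).appr (n + m) : ℕ) : ℚ_[((q : Nat.Primes) : ℕ)])‖ := by
      rw [PadicInt.norm_def]
      push_cast
      rfl
    rw [← e]
    exact this
  have h3 : ‖(k : ℚ_[((q : Nat.Primes) : ℕ)]) -
      (N : ℚ_[((q : Nat.Primes) : ℕ)]) ^ m * z q‖ ≤
      ((((q : Nat.Primes) : ℕ)) : ℝ) ^ (-((n + m : ℕ) : ℤ)) := by
    rw [← hwdef q]
    have := Padic.nonarchimedean
      ((k : ℚ_[((q : Nat.Primes) : ℕ)]) - (((w q).appr (n + m) : ℕ) :
        ℚ_[((q : Nat.Primes) : ℕ)]))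
      ((((w q).appr (n + m) : ℕ) : ℚ_[((q : Nat.Primes) : ℕ)]) -
        ((w q : ℤ_[((q : Nat.Primes) : ℕ)]) : ℚ_[((q : Nat.Primes) : ℕ)]))
    rw [sub_add_sub_cancel] at this
    exact this.trans (max_le h1 h2)
  have h4 : (((k : ℚ) / (N : ℚ) ^ m : ℚ) : ℚ_[((q : Nat.Primes) : ℕ)]) - z q =
      ((k : ℚ_[((q : Nat.Primes) : ℕ)]) - (N : ℚ_[((q : Nat.Primes) : ℕ)]) ^ m * z q) /
        (N : ℚ_[((q : Nat.Primes) : ℕ)]) ^ m := by
    push_cast
    field_simp
  rw [h4, norm_div, norm_pow, hNnorm, inv_pow, div_inv_eq_mul]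
  calc ‖(k : ℚ_[((q : Nat.Primes) : ℕ)]) - (N : ℚ_[((q : Nat.Primes) : ℕ)]) ^ m * z q‖ *
        (((q : Nat.Primes) : ℕ) : ℝ) ^ m
      ≤ ((((q : Nat.Primes) : ℕ)) : ℝ) ^ (-((n + m : ℕ) : ℤ)) *
        (((q : Nat.Primes) : ℕ) : ℝ) ^ m :=
        mul_le_mul_of_nonneg_right h3 (pow_nonneg (hqR q).le _)
    _ = ((((q : Nat.Primes) : ℕ)) : ℝ) ^ (-(n : ℤ)) := by
        rw [← zpow_natCast ((((q : Nat.Primes) : ℕ)) : ℝ) m, ← zpow_add₀ (hqR q).ne']
        congr 1
        push_cast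
        ring

end Fermat.Agent.PT.G2


end ZBPT_075_0

/-! ### bundled: `Fermat.Agent.PT.G2.WeakApprox` -/
section ZBPT_075_1
/-
PT-G2 part 2, piece G2I-W (helper60): weak approximation in the tensor model.

`K` is dense in `∏_{q ∈ S} ℚ_q ⊗ K`: with an integral basis `b_i` of `K`, every `a_q` is
`∑ i, z_{q,i} ⊗ b_i`; approximate the `z_{q,i}` (`q ∈ S`) by one `t_i ∈ ℚ` (G2I-Q) and put
`α = ∑ i, t_i b_i`.
-/

set_option autoImplicit false

namespace Fermat.Agent.PT.G2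

open NumberField TensorProduct
open Fermat.Agent.PT.G1 Fermat.Agent.PT.G

section g2iwLocal

variable (q : ℕ) [Fact q.Prime] (K : Type) [Field K] [NumberField K]

/-- Every element of `ℚ_q ⊗ K` is `∑ i, z_i ⊗ b_i` for the integral basis `b`. -/
lemma g2iw_exists_coord (a : semiAlg q K) :
    ∃ z : Module.Free.ChooseBasisIndex ℤ (𝓞 K) → ℚ_[q],
      a = ∑ i, (z i) ⊗ₜ[ℚ] (integralBasis K i) := by
  refine ⟨fun i => (Algebra.TensorProduct.basis ℚ_[q] (integralBasis K)).repr a i, ?_⟩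
  conv_lhs => rw [← (Algebra.TensorProduct.basis ℚ_[q] (integralBasis K)).sum_repr a]
  refine Finset.sum_congr rfl fun i _ => ?_
  rw [Algebra.TensorProduct.basis_repr_symm_apply']

/-- A pure tensor `u ⊗ b_i` with `u ∈ ℤ_q` is integral. -/
lemma g2iw_tmul_mem (u : ℤ_[q]) (i : Module.Free.ChooseBasisIndex ℤ (𝓞 K)) :
    (u : ℚ_[q]) ⊗ₜ[ℚ] (integralBasis K i) ∈ semiInt q K := by
  apply AddSubgroup.subset_closure
  exact ⟨u, RingOfIntegers.basis K i, by rw [integralBasis_apply]⟩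

end g2iwLocal

/-- **G2I-W** (weak approximation in the tensor model), from G2I-Q. -/
theorem stmtWeakApprox_of (hQ : StmtWeakApproxQ) : StmtWeakApprox := by
  intro K _ _ S a n
  choose z hz using fun q : ↥S => g2iw_exists_coord ((q : Nat.Primes) : ℕ) K (a q)
  choose t ht using fun i : Module.Free.ChooseBasisIndex ℤ (𝓞 K) =>
    hQ S (fun q => z q i) n
  choose u hu using ht
  refine ⟨∑ i, t i • integralBasis K i, fun q => ?_⟩
  refine ⟨∑ i, ((u i q : ℤ_[((q : Nat.Primes) : ℕ)]) : ℚ_[((q : Nat.Primes) : ℕ)]) ⊗ₜ[ℚ]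
    (integralBasis K i), AddSubgroup.sum_mem _ fun i _ => g2iw_tmul_mem _ K _ i, ?_⟩
  rw [hz q, TensorProduct.tmul_sum, ← Finset.sum_sub_distrib, Finset.mul_sum]
  refine Finset.sum_congr rfl fun i _ => ?_
  rw [← TensorProduct.smul_tmul, ← TensorProduct.sub_tmul]
  have h1 : (t i • (1 : ℚ_[((q : Nat.Primes) : ℕ)])) - z q i =
      (((q : Nat.Primes) : ℕ) : ℚ_[((q : Nat.Primes) : ℕ)]) ^ n * (u i q) := by
    rw [← hu i q, Algebra.smul_def, mul_one]
    rfl
  rw [h1, Algebra.TensorProduct.natCast_def, Algebra.TensorProduct.tmul_pow, one_pow,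
    Algebra.TensorProduct.tmul_mul_tmul, one_mul]

/-- **G2I-W** (weak approximation in the tensor model), unconditional. -/
theorem stmtWeakApprox : StmtWeakApprox := stmtWeakApprox_of stmtWeakApproxQ

end Fermat.Agent.PT.G2


end ZBPT_075_1

/-! ### bundled: `Fermat.Agent.PT.G2.IdelicFinal` -/
section ZBPT_075_2
/-
PT-G2 part 2 (G2-idelic), UNCONDITIONAL: `stmtIdelicSecond : StmtIdelicSecond`, the idèle-class
form of the second inequality `[C_S(F) : B] ≤ [M : F]` in the tensor model.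
-/

set_option autoImplicit false

namespace Fermat.Agent.PT.G2

/-- the second inequality for an idèle-class quotient. -/
theorem stmtIdelicCore : StmtIdelicCore := stmtIdelicCore_of stmtWeakApprox stmtSemiInt

/-- **G2-idelic**: `[C_S(F) : B] ≤ [M : F]` for every subgroup `B` of `C_S(F)` containing
`d • (image of J_F)` and the classes of the primes not over `S` with a prime of degree one of `M`
above. -/
theorem stmtIdelicSecond : StmtIdelicSecond :=
  stmtIdelicSecond_of stmtIdelicCore stmtLocalPow stmtSemiInt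

end Fermat.Agent.PT.G2


end ZBPT_075_2

/-! ### bundled: `Fermat.Agent.PT.G.CyclicFinal` -/
section ZBPT_075_3
/-
Project PT — shared model, FINAL WIRING of the cyclic case (helper63), UNCONDITIONAL:
* `stmtCSDescent : StmtCSDescent`      Galois descent `C_S(L)^{Gal(L/K)} = C_S(K)`,
* `secondInequality : StmtCSH0`        `|Ĥ⁰(⟨σ⟩, C_S(L))| ≤ p`,
* `csCyclic : StmtCSCyclic`            `|Ĥ⁰(⟨σ⟩, C_S(L))| = p`, `Ĥ¹(⟨σ⟩, C_S(L)) = 0`,
and the variants `secondInequalityRel`, `csCyclicRel` with the unramifiedness hypothesis in the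
relative form `UnramOffRel S (L^σ) L`.
Pieces: PT-G1 (first inequality), PT-G2 (idelic second inequality), D-semi, D-div, D-unram,
D-split (helper59, helper56, helper26), CS-exact (helper56), Map (helper47).
-/

set_option autoImplicit false

namespace Fermat.Agent.PT.G

/-- **C-descent**: `C_S(L)^{Gal(L/K)} = csMap (C_S(K))` for `L / K` Galois, unramified outside
`S ≠ ∅`. -/
theorem stmtCSDescent : StmtCSDescent := stmtCSDescent_of stmtSemiInv stmtDivInv

/-- **Second inequality** (relative form). -/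
theorem secondInequalityRel : StmtCSH0Rel :=
  stmtCSH0Rel_of Fermat.Agent.PT.G2.stmtIdelicSecond stmtCSDescent stmtSplitNorm

/-- **Second inequality**: `|C_S(L)^σ / N C_S(L)| ≤ p`. -/
theorem secondInequality : StmtCSH0 :=
  stmtCSH0_of Fermat.Agent.PT.G2.stmtIdelicSecond stmtCSDescent stmtUnramOff stmtSplitNorm

/-- **The cyclic case of the class formation axiom** for `C_S`. -/
theorem csCyclic : StmtCSCyclic := stmtCSCyclic_of firstInequality secondInequality

/-- **The cyclic case**, relative form. -/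
theorem csCyclicRel : StmtCSCyclicRel := stmtCSCyclicRel_of firstInequality secondInequalityRel

end Fermat.Agent.PT.G


end ZBPT_075_3

/-! ### bundled: `Fermat.Agent.PT.B.CompareFinal` -/
section ZBPT_075_4
/-
PT-B: the comparison maps exist, UNCONDITIONALLY (`stmtCompare : StmtCompare`), and the datum
axioms `surv`, `exist` reduced to the campaign statements `StmtGB`, `StmtGA`, `X.StmtExistTL`.
-/

set_option autoImplicit false

namespace Fermat.Agent.PT.B

/-- **The comparison maps exist.** -/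
theorem stmtCompare : StmtCompare := stmtCompare_of stmtTens stmtUnitsS stmtRamRel Fermat.Agent.PT.X.stmtCapCS

/-- the datum axiom `surv` from (GB) -/
theorem stmtSurvC_of_GB (hGB : StmtGB) : StmtSurvC :=
  stmtSurvC_of hGB stmtTens stmtRamRel stmtCompare

/-- the existence theorem mod `p` for the type-level class modules, from (GA) and `ExistTL` -/
theorem stmtExistCS_of_GA (hGA : StmtGA) (hTL : Fermat.Agent.PT.X.StmtExistTL) : StmtExistCS :=
  Fermat.Agent.PT.X.stmtExistCS_of hTL Fermat.Agent.PT.X.stmtKummerTower hGA stmtRamRel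
    Fermat.Agent.PT.G.stmtCSDescent Fermat.Agent.PT.X.stmtKummerUnram

/-- the datum axiom `exist` from (GA) and `ExistTL` -/
theorem stmtExistC_of_GA (hGA : StmtGA) (hTL : Fermat.Agent.PT.X.StmtExistTL) : StmtExistC :=
  stmtExistC_of (stmtExistCS_of_GA hGA hTL) stmtCompare

end Fermat.Agent.PT.B


end ZBPT_075_4

/-! ### bundled: `Fermat.Agent.PT.G3.LayerFinal` -/
section ZBPT_075_5
/-
PT-G3, piece **layer**, UNCONDITIONAL (helper63): `stmtLayer : StmtLayer` — the class module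
`C_S(L)` of a number field `L` unramified outside `S ≠ ∅` satisfies the layer hypothesis at every
odd prime `p`; hence (`stmtDevissage`) `H¹(P, C_S(L)) = 0` and `|H²(P, C_S(L))| ≤ |P|` for every
`p`-subgroup `P ≤ Aut(L)`.
-/

set_option autoImplicit false

namespace Fermat.Agent.PT.G3

open Fermat.Agent.PT Fermat.Agent.PT.G

/-- **G3-layer**. -/
theorem stmtLayer : StmtLayer :=
  stmtLayer_of csCyclicRel stmtCSDescent stmtCSMapInj stmtUnramTower

/-- `H¹(P, C_S(L)) = 0` and `|H²(P, C_S(L))| ≤ |P|` for every `p`-subgroup `P ≤ Aut(L)`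
(`p` odd, `L / ℚ` unramified outside `S ≠ ∅`). -/
theorem csPBound (p : ℕ) [Fact p.Prime] (hp2 : p ≠ 2) (S : Finset Nat.Primes) (hS : S.Nonempty)
    (L : Type) [Field L] [NumberField L] (hun : UnramOffRel S ℚ L) :
    PBound p (csRep S L) :=
  stmtDevissage p (L ≃ₐ[ℚ] L) (csRep S L) (stmtLayer p hp2 S hS L hun)

end Fermat.Agent.PT.G3


end ZBPT_075_5

/-! ### bundled: `Fermat.Agent.PT.G3.SymbolZ` -/
section ZBPT_075_6

/-!
# Project PT, piece G3-Z: the class symbol is trivial on fields which (almost) contain `ζ_{p^(n+1)}`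

* `psiSemi_eq_one_of_semiCong`, `psiJ_eq_one_of_semiCong` ("continuity"): `ψ_J` is trivial on the
  idèles `≡ 1 mod q^N R_q` (`N` large) — these are `|T|`-th powers (`G2.stmtLocalPow`).
* `psiC_eq_zero_of_tower` (**(Z')**): if `F' / F` has degree prime to `p` and `F'` contains a
  primitive `p^(n+1)`-th root of unity, then `Ψ_F = 0` on `C_S(F)`.
  (Weak approximation `G2.ic_approx` + product formula + `normSymbol_eq_one_of_tower`.)
-/

set_option autoImplicit false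

namespace Fermat.Agent.PT.G3

open NumberField IsDedekindDomain Fermat.Agent.PT.G1 Fermat.Agent.PT.X Fermat.Agent.PT.G
open Fermat.Agent.PT.G2
open scoped nonZeroDivisors

section Cont

variable (p n : ℕ) [hp : Fact p.Prime]

/-- "Continuity" of the semilocal symbol: it is trivial on the units `≡ 1 mod q^N R_q`. -/
theorem psiSemi_eq_one_of_semiCong (q : ℕ) [Fact q.Prime] (K : Type) [Field K] [NumberField K] :
    ∃ N : ℕ, ∀ j : (semiAlg q K)ˣ, SemiCong q K N (j : semiAlg q K) 1 →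
      psiSemi p n q K j = 1 := by
  have : NeZero (p ^ (n + 1)) := ⟨pow_ne_zero _ hp.out.ne_zero⟩
  have hd : 0 < Fintype.card (ZMod (p ^ (n + 1)))ˣ := Fintype.card_pos
  obtain ⟨N, hN⟩ := stmtLocalPow (Fintype.card (ZMod (p ^ (n + 1)))ˣ) hd q K
  refine ⟨N, fun j hj => ?_⟩
  obtain ⟨y, hy⟩ := hN j hj
  rw [← hy, map_pow, pow_card_eq_one]

/-- "Continuity" of `ψ_J`: it is trivial on the idèles `≡ 1 mod q^N R_q` for all `q ∈ S`. -/
theorem psiJ_eq_one_of_semiCong (S : Finset Nat.Primes) (K : Type) [Field K] [NumberField K] :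
    ∃ N : ℕ, ∀ j : JL S K,
      (∀ q : ↥S, SemiCong ((q : Nat.Primes) : ℕ) K N
        ((j q : (semiAlg ((q : Nat.Primes) : ℕ) K)ˣ) : semiAlg ((q : Nat.Primes) : ℕ) K) 1) →
      psiJ p n S K j = 1 := by
  classical
  have h := fun q : ↥S => psiSemi_eq_one_of_semiCong p n ((q : Nat.Primes) : ℕ) K
  choose N hN using h
  refine ⟨Finset.univ.sup N, fun j hj => ?_⟩
  rw [psiJ_apply]
  apply Finset.prod_eq_one
  intro q _
  apply hN q
  exact SemiCong.mono' stmtSemiInt (Finset.le_sup (Finset.mem_univ q)) (hj q)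

end Cont

section Z

variable (p n : ℕ) [hp : Fact p.Prime] (S : Finset Nat.Primes)

/-- A prime off `S` is coprime to `p^(n+1)` (`p ∈ S`). -/
theorem isCoprime_off_span_pow (hpS : (⟨p, hp.out⟩ : Nat.Primes) ∈ S)
    {F : Type} [Field F] [NumberField F] (P : OffS S F) :
    IsCoprime P.1.asIdeal (Ideal.span {((p ^ (n + 1) : ℕ) : 𝓞 F)}) := by
  rw [Ideal.isCoprime_iff_sup_eq]
  by_contra hne
  have hmax : P.1.asIdeal.IsMaximal := P.1.isMaximal
  have hprime : P.1.asIdeal.IsPrime := P.1.isPrime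
  have h1 : P.1.asIdeal = P.1.asIdeal ⊔ Ideal.span {((p ^ (n + 1) : ℕ) : 𝓞 F)} :=
    hmax.eq_of_le hne le_sup_left
  have h2 : ((p ^ (n + 1) : ℕ) : 𝓞 F) ∈ P.1.asIdeal := by
    rw [h1]
    exact Ideal.mem_sup_right (Ideal.subset_span rfl)
  have h3 : ((p : ℕ) : 𝓞 F) ∈ P.1.asIdeal := by
    rw [Nat.cast_pow] at h2
    exact hprime.mem_of_pow_mem _ h2
  apply P.2
  obtain ⟨k, hk⟩ : p ∣ sProd S :=
    Finset.dvd_prod_of_mem (fun q : Nat.Primes => (q : ℕ)) hpS
  have h4 : ((sProd S : ℕ) : 𝓞 F) = ((p : ℕ) : 𝓞 F) * ((k : ℕ) : 𝓞 F) := by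
    rw [hk, Nat.cast_mul]
  have h5 : ((p : ℕ) : 𝓞 F) * ((k : ℕ) : 𝓞 F) ∈ P.1.asIdeal := Ideal.mul_mem_right _ _ h3
  have h6 : ∀ x y : 𝓞 F, x = y → y ∈ P.1.asIdeal → x ∈ P.1.asIdeal := fun x y hxy hy => by
    rw [hxy]; exact hy
  exact h6 _ _ h4 h5

/-- **(Z')**: if `F' / F` has degree prime to `p` and `F'` contains a primitive `p^(n+1)`-th root
of unity, then the class symbol `Ψ_F` vanishes identically. -/
theorem psiC_eq_zero_of_tower (hodd : Odd p) (hpS : (⟨p, hp.out⟩ : Nat.Primes) ∈ S)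
    (F F' : Type) [Field F] [NumberField F] [Field F'] [NumberField F'] [Algebra F F']
    (hdeg : (Module.finrank F F').Coprime p) (ζ : 𝓞 F') (hζ : IsPrimitiveRoot ζ (p ^ (n + 1)))
    (c : CS S F) : psiC p n S F c = 0 := by
  classical
  -- the divisor part is trivial
  have hns : ∀ P : OffS S F, normSymbol p n P.1.asIdeal = 1 := fun P =>
    normSymbol_eq_one_of_tower hp.out hdeg hζ P.1.asIdeal (isCoprime_off_span_pow p n S hpS P)
  have hdiv : ∀ d : DivS S F, psiDiv p n S F d = 0 := by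
    intro d
    apply Additive.toMul.injective
    rw [toMul_psiDiv, toMul_zero]
    apply Finset.prod_eq_one
    intro P _
    show normSymbol p n P.1.asIdeal ^ d P = 1
    rw [hns P, one_zpow]
  -- principal idèles
  have hprin : ∀ α : Fˣ, psiJ p n S F (jlDiag S F α) = 1 := by
    intro α
    have h := psiJ_jlDiag_mul_psiDiv p n S F hodd hpS α
    rwa [hdiv, toMul_zero, mul_one] at h
  -- all idèles, by weak approximation
  obtain ⟨N, hN⟩ := psiJ_eq_one_of_semiCong p n S F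
  have hJ : ∀ x : JL S F, psiJ p n S F x = 1 := by
    intro x
    obtain ⟨α, hα⟩ := ic_approx S stmtWeakApprox stmtSemiInt x N
    have h1 := hN _ hα
    rw [map_mul, hprin, one_mul, map_inv, inv_eq_one] at h1
    exact h1
  induction c using Submodule.Quotient.induction_on with
  | _ y =>
    show psiC p n S F (csMk S F y) = 0
    rw [psiC_mk p n S F hodd hpS, psiJD_apply, hdiv, add_zero, hJ]
    rfl

/-- **(Z)**: if `F` contains a primitive `p^(n+1)`-th root of unity, `Ψ_F = 0`. -/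
theorem psiC_eq_zero_of_primitiveRoot (hodd : Odd p) (hpS : (⟨p, hp.out⟩ : Nat.Primes) ∈ S)
    (F : Type) [Field F] [NumberField F] (ζ : 𝓞 F) (hζ : IsPrimitiveRoot ζ (p ^ (n + 1)))
    (c : CS S F) : psiC p n S F c = 0 :=
  psiC_eq_zero_of_tower p n S hodd hpS F F (by rw [Module.finrank_self]; exact Nat.coprime_one_left p)
    ζ hζ c

end Z

end Fermat.Agent.PT.G3


end ZBPT_075_6

/-! ### bundled: `Fermat.Agent.PT.G3.PsiZ` -/
section ZBPT_075_7

/-!
# PT-G3, pieces psiZeta and psiZ: the class symbol vanishes on fields (almost) containing `ζ_{p^(n+1)}`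

`stmtPsiZeta : StmtPsiZeta`, `stmtPsiZ : StmtPsiZ` — both are restatements of
`psiC_eq_zero_of_primitiveRoot` / `psiC_eq_zero_of_tower` (G3/SymbolZ.lean).
-/

set_option autoImplicit false

namespace Fermat.Agent.PT.G3

open NumberField IsDedekindDomain Fermat.Agent.PT.G1 Fermat.Agent.PT.G

/-- **psi-zeta**: if `E'` contains a primitive `p^(n+1)`-th root of unity then `Ψ_{E'} = 0`. -/
theorem stmtPsiZeta : StmtPsiZeta := by
  intro p n hp S hodd hpS E' _ _ ζ hζ c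
  exact psiC_eq_zero_of_primitiveRoot p n S hodd hpS E' ζ hζ c

/-- **psi-Z**: if `E` has an extension `E'` of degree prime to `p` containing a primitive
`p^(n+1)`-th root of unity, then `Ψ_E = 0`. -/
theorem stmtPsiZ : StmtPsiZ := by
  intro p n hp S hodd hpS E E' _ _ _ _ _ hdeg ζ hζ c
  exact psiC_eq_zero_of_tower p n S hodd hpS E E' hdeg ζ hζ c

end Fermat.Agent.PT.G3


end ZBPT_075_7

/-! ### bundled: `Fermat.Agent.PT.G3.NormIndex` -/
section ZBPT_075_8
/-
PT-G3, piece `normindex` (helper75): the second inequality in norm-subgroup form,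
`stmtNormIndexLe_of : StmtGalNormAdd → StmtNormSubJ → StmtNormSubSplit → StmtNormIndexLe`:
for `M / F` Galois and unramified outside `S`, `[C_S(F) : NormSub] ≤ [M : F]`.
(`G2.stmtIdelicSecond` with `B = NormSub`, `d = [M : F]`.)
-/

set_option autoImplicit false

namespace Fermat.Agent.PT.G3

open NumberField IsDedekindDomain
open Fermat.Agent.PT Fermat.Agent.PT.G Fermat.Agent.PT.G1

section

variable (S : Finset Nat.Primes) (F M : Type) [Field F] [NumberField F] [Field M] [NumberField M]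
  [Algebra F M]

theorem ni_galNorm_zero (hA : StmtGalNormAdd) : galNorm S F M 0 = 0 := by
  have h := (hA S F M 0 0).1
  rw [add_zero] at h
  have h2 : galNorm S F M 0 + 0 = galNorm S F M 0 + galNorm S F M 0 := by
    rw [add_zero]; exact h
  exact (add_left_cancel h2).symm

/-- The norm subgroup, as a `ℤ`-submodule of `C_S(F)`. -/
noncomputable def normSubmodule (hA : StmtGalNormAdd) : Submodule ℤ (CS S F) :=
  AddSubgroup.toIntSubmodule
    { carrier := NormSub S F M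
      zero_mem' := ⟨0, by rw [map_zero, ni_galNorm_zero S F M hA]⟩
      add_mem' := by
        rintro c c' ⟨d, hd⟩ ⟨d', hd'⟩
        exact ⟨d + d', by rw [map_add, hd, hd', (hA S F M d d').1]⟩
      neg_mem' := by
        rintro c ⟨d, hd⟩
        exact ⟨-d, by rw [map_neg, hd, (hA S F M d d).2]⟩ }

theorem coe_normSubmodule (hA : StmtGalNormAdd) :
    (normSubmodule S F M hA : Set (CS S F)) = NormSub S F M := rfl

theorem mem_normSubmodule (hA : StmtGalNormAdd) (c : CS S F) :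
    c ∈ normSubmodule S F M hA ↔ c ∈ NormSub S F M := Iff.rfl

end

/-- **G3-normindex**. -/
theorem stmtNormIndexLe_of (hA : StmtGalNormAdd) (hJ : StmtNormSubJ) (hSp : StmtNormSubSplit) :
    StmtNormIndexLe := by
  intro S F M _ _ _ _ _ _ hun
  refine ⟨normSubmodule S F M hA, coe_normSubmodule S F M hA, ?_⟩
  refine G2.stmtIdelicSecond F M S (normSubmodule S F M hA) (Module.finrank F M)
    Module.finrank_pos ?_ ?_
  · intro y
    exact (mem_normSubmodule S F M hA _).mpr (hJ S F M (csOfJ S F y))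
  · intro v hv
    exact (mem_normSubmodule S F M hA _).mpr (hSp S F M hun v hv)

end Fermat.Agent.PT.G3


end ZBPT_075_8

/-! ### bundled: `Fermat.Agent.PT.G3.GAFinal` -/
section ZBPT_075_9
/-
PT-G3 / (GA), UNCONDITIONAL (helper72): `stmtGA : StmtGA` and `stmtGA_B : B.StmtGA` —
for `L / ℚ` Galois, unramified outside `S ∋ p`, `p` odd, the `S`-idèle class module `C_S(L)`
(`csRep S L`, tensor model of PT/G/Defs.lean) has a `p`-fundamental class.
All fifteen pieces of the piece table of NOTES/PT-G3.md are inserted into `stmtGA_of` (G3/GA.lean).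
-/

set_option autoImplicit false

namespace Fermat.Agent.PT.G3

open Fermat.Agent.PT Fermat.Agent.PT.G

/-- **G3-abs**, unconditional. -/
theorem stmtFundAbs : StmtFundAbs :=
  stmtFundAbs_of stmtDevissage stmtFundOfOrder stmtCarryClass stmtInfSurj

/-- **G3-normindex**, unconditional. -/
theorem stmtNormIndexLe : StmtNormIndexLe :=
  stmtNormIndexLe_of stmtGalNormAdd stmtNormSubJ stmtNormSubSplit

/-- **G3-sylownorm**, unconditional. -/
theorem stmtSylowNorm : StmtSylowNorm :=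
  stmtSylowNorm_of stmtCSDescent stmtCSMapInj stmtCSMapComp stmtUnramTower

/-- **G3-clt**, unconditional. -/
theorem stmtCLT : StmtCLT :=
  stmtCLT_of stmtPsiNormGal stmtNormIndexLe

/-- **(GA)**, unconditional: `C_S(L)` has a `p`-fundamental class. -/
theorem stmtGA : StmtGA :=
  stmtGA_of stmtFundAbs stmtLayer stmtCSMapInj stmtCSDescent stmtCSMapComp stmtUnramTower
    stmtSylowNorm stmtPsiMap stmtPsiNormGal stmtPsiUp stmtPsiZ stmtPsiTors stmtPsiGen stmtCLT
    stmtCyc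

/-- **(GA)** in the shape consumed by PT-B (PT/B/Plan4.lean), unconditional. -/
theorem stmtGA_B : Fermat.Agent.PT.B.StmtGA :=
  stmtGA_B_of stmtFundAbs stmtLayer stmtCSMapInj stmtCSDescent stmtCSMapComp stmtUnramTower
    stmtSylowNorm stmtPsiMap stmtPsiNormGal stmtPsiUp stmtPsiZ stmtPsiTors stmtPsiGen stmtCLT
    stmtCyc

end Fermat.Agent.PT.G3


end ZBPT_075_9

/-! ### bundled: `Fermat.Agent.PT.G3.GBPsi` -/
section ZBPT_075_10
/-
PT-GB / gbPsi (helper86): the global step (R4) of (GB).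

`stmtGBPsi : StmtGBPsi` — if the carry cocycle of `csMap c₀`, `c₀ ∈ C_S(ℚ)`, along
`θ : Aut(N) ↠ ℤ/p^n` (`N = L·ℚ_n`) is a coboundary in `C_S(N)`, then `Ψ_ℚ(c₀) = 0`.

Proof (computation (iii) of the GA recipe, with `k = 1` and a general class `c₀`):
`H¹(P ⊓ ker θ, C_S(N)) = 0` (`csPBound`) ⇒ (`stmtCarryZero`) `csMap c₀ = N_{P/(P ∩ A)} d` ⇒
(`stmtSylowNorm`) the image of `c₀` in `C_S(F₀)` is a norm from `M₀` (`F₀ = N^P`,
`M₀ = N^{P ∩ A} ⊇ E = N^A`) ⇒ (psi-N, psi-Z for `E`, psi-up) `Ψ_{F₀}(csMap c₀) = 0` ⇒ (psi-M)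
`[F₀ : ℚ] • Ψ_ℚ c₀ = 0`; `[F₀ : ℚ]` is prime to `p` and `p^n • Ψ_ℚ c₀ = 0` (psi-tors).
-/

set_option autoImplicit false
set_option maxHeartbeats 400000
set_option linter.style.haveILetI false
set_option linter.unusedSectionVars false

namespace Fermat.Agent.PT.G3

open CategoryTheory groupCohomology NumberField IsDedekindDomain
open Fermat.Agent.PT Fermat.Agent.PT.G Fermat.Agent.PT.G1

/-- an element of an additive group killed by two coprime integers is zero -/
lemma gbPsi_eq_zero_of_coprime {X : Type} [AddCommGroup X] (x : X) (a b : ℕ)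
    (hab : Nat.Coprime a b) (ha : a • x = 0) (hb : b • x = 0) : x = 0 := by
  have h1 : (Nat.gcd a b) • x = 0 := by
    have h2 : ((Nat.gcd a b : ℕ) : ℤ) • x = 0 := by
      rw [Nat.gcd_eq_gcd_ab, add_smul, mul_smul, mul_smul, natCast_zsmul, natCast_zsmul,
        smul_comm, ha, smul_zero, smul_comm, hb, smul_zero, add_zero]
    rwa [natCast_zsmul] at h2
  rw [hab.gcd_eq_one, one_smul] at h1
  exact h1

/-- The global step, with the cyclotomic data unbundled. -/
theorem gbPsi_core (p n : ℕ) [hp : Fact p.Prime] (S : Finset Nat.Primes) (hp2 : p ≠ 2)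
    (hpS : (⟨p, hp.out⟩ : Nat.Primes) ∈ S)
    (N : Type) [Field N] [NumberField N] [IsGalois ℚ N]
    (unram : UnramOffRel S ℚ N)
    (θ : (N ≃ₐ[ℚ] N) →* Multiplicative (ZMod (p ^ n))) (θ_surj : Function.Surjective θ)
    (E' : Type) [Field E'] [NumberField E'] [Algebra ↥(IntermediateField.fixedField θ.ker) E']
    (coprime : (Module.finrank ↥(IntermediateField.fixedField θ.ker) E').Coprime p)
    (ζ : 𝓞 E') (hζ : IsPrimitiveRoot ζ (p ^ (n + 1)))
    (c₀ : CS S ℚ) [NeZero (p ^ n)]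
    (hcarry : cmpCarry (p ^ n) θ (csMap S ℚ N c₀ : (csRep S N).V) ∈
      coboundaries₂ (csRep S N)) :
    psiC p n S ℚ c₀ = 0 := by
  have hS : S.Nonempty := ⟨_, hpS⟩
  have hodd : Odd p := hp.out.odd_of_ne_two hp2
  -- `Ψ = 0` on `E = N^{ker θ}`
  have hΨE : ∀ c : CS S ↥(IntermediateField.fixedField θ.ker),
      psiC p n S ↥(IntermediateField.fixedField θ.ker) c = 0 :=
    stmtPsiZ p n S hodd hpS _ E' coprime ζ hζ
  obtain ⟨P⟩ : Nonempty (Sylow p (N ≃ₐ[ℚ] N)) := inferInstance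
  -- `H¹(P ⊓ ker θ, C_S(N)) = 0`
  have hH1 : Subsingleton (H1 (Rep.res ((P : Subgroup (N ≃ₐ[ℚ] N)) ⊓ θ.ker).subtype
      (csRep S N))) :=
    (csPBound p hp2 S hS N unram _ (P.isPGroup'.to_le inf_le_left)).1
  -- the class is a Sylow norm
  obtain ⟨d, hdinv, hdsum⟩ := stmtCarryZero p (N ≃ₐ[ℚ] N) (csRep S N) θ.ker (p ^ n) θ θ_surj rfl
    ⟨n, rfl⟩ P hH1 (csMap S ℚ N c₀)
    (fun g => csEnd_csMap_of_fixes S (fun x => g.commutes x) c₀) hcarry
  have hle : (P : Subgroup (N ≃ₐ[ℚ] N)) ⊓ θ.ker ≤ (P : Subgroup (N ≃ₐ[ℚ] N)) := inf_le_left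
  have hle' : (P : Subgroup (N ≃ₐ[ℚ] N)) ⊓ θ.ker ≤ θ.ker := inf_le_right
  letI algFM := gaAlg N hle
  haveI := ga_tower N hle
  haveI : IsGalois ↥(IntermediateField.fixedField (P : Subgroup (N ≃ₐ[ℚ] N)))
      ↥(IntermediateField.fixedField ((P : Subgroup (N ≃ₐ[ℚ] N)) ⊓ θ.ker)) := by
    refine ga_isGalois N hle ?_
    intro σ hσ τ hτ
    refine ⟨?_, ?_⟩
    · exact Subgroup.mul_mem _ (Subgroup.mul_mem _ (Subgroup.inv_mem _ hσ) hτ.1) hσ
    · have h3 : σ⁻¹ * τ * σ = σ⁻¹ * τ * σ⁻¹⁻¹ := by rw [inv_inv]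
      rw [h3]
      exact (inferInstance : θ.ker.Normal).conj_mem τ hτ.2 σ⁻¹
  have hP₀ := ga_relAut_fixedField N (P : Subgroup (N ≃ₐ[ℚ] N))
  have hP₁ := ga_relAut_fixedField N ((P : Subgroup (N ≃ₐ[ℚ] N)) ⊓ θ.ker)
  have hsyl := stmtSylowNorm_of stmtCSDescent stmtCSMapInj stmtCSMapComp stmtUnramTower
    S hS N unram ↥(IntermediateField.fixedField (P : Subgroup (N ≃ₐ[ℚ] N)))
    ↥(IntermediateField.fixedField ((P : Subgroup (N ≃ₐ[ℚ] N)) ⊓ θ.ker)) c₀ d
    (fun x hx => hdinv x (hP₁ ▸ hx))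
    (ga_sum_quot (fun g x => csEnd S g x) d _ _ _ _ _ hP₀ hP₁ hdsum)
  obtain ⟨d', hd'⟩ := hsyl
  have h1 := stmtPsiNormGal p n S hodd hpS _ _ _ d' hd'
  letI algEM := gaAlg N hle'
  have hΨM : ∀ c : CS S ↥(IntermediateField.fixedField ((P : Subgroup (N ≃ₐ[ℚ] N)) ⊓ θ.ker)),
      psiC p n S _ c = 0 := stmtPsiUp p n S hodd hpS _ _ hΨE
  rw [hΨM d', stmtPsiMap p n S hodd hpS ℚ _ c₀, ga_finrank_fixedField] at h1
  have hcop : Nat.Coprime (P : Subgroup (N ≃ₐ[ℚ] N)).index (p ^ n) :=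
    (Nat.Coprime.pow_left n
      ((Nat.Prime.coprime_iff_not_dvd hp.out).2 P.not_dvd_index)).symm
  exact gbPsi_eq_zero_of_coprime _ _ _ hcop h1 (stmtPsiTors p n S ℚ c₀)

/-- **gbPsi** (R4). -/
theorem stmtGBPsi : StmtGBPsi := by
  intro p n hp S hp2 hpS L _ _ _ _ D c₀ hcarry
  haveI := D.galQ
  haveI : NeZero (p ^ n) := ⟨pow_ne_zero _ hp.out.ne_zero⟩
  exact gbPsi_core p n S hp2 hpS D.N D.unram D.θ D.θ_surj D.E' D.coprime D.ζ D.hζ c₀ hcarry

end Fermat.Agent.PT.G3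


end ZBPT_075_10
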