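/- GENERATED FILE (helper35, build-time optimisation, NOTES/ZB.md): verbatim concatenation of the modules
   Fermat.Agent.PT.B.TransportH1
   Fermat.Agent.PT.B.H90Loc
   Do not edit; do not import together with these modules. -/
import Fermat.Agent.ZB.PT_007
import Fermat.Agent.ZB.PT_012
import Fermat.Agent.ZB.PT_022

/-! ### bundled: `Fermat.Agent.PT.B.TransportH1` -/
section ZBPT_076_0
/-
PT-B, piece T-h1 (helper48): vanishing of `H¹` of all subgroups transports along an isomorphism
of pairs `(G, A) ≅ (G', A')`.  Also: the cohomology isomorphism `Hⁿ(H, A) ≅ Hⁿ(φ(H), A')` for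
subgroups (Mathlib `groupCohomology.mapIso`), for use in T-fund.
-/

set_option autoImplicit false

noncomputable section

namespace Fermat.Agent.PT.B

open Fermat.Agent.PT CategoryTheory groupCohomology

attribute [local instance 1100] Rep.hV2

/-- an additive equivalence is `ℤ`-linear for ANY two `ℤ`-module structures -/
def th1_linEquiv {X Y : Type} [AddCommGroup X] [AddCommGroup Y] [Module ℤ X] [Module ℤ Y]
    (f : X ≃+ Y) : X ≃ₗ[ℤ] Y :=
  { f with
    map_smul' := fun n x => by
      have := map_intCast_smul f ℤ ℤ n x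
      simpa using this }

@[simp] lemma th1_linEquiv_apply {X Y : Type} [AddCommGroup X] [AddCommGroup Y] [Module ℤ X]
    [Module ℤ Y] (f : X ≃+ Y) (x : X) : th1_linEquiv f x = f x := rfl

/-- For an isomorphism of pairs `e : (G, A) ≅ (G', A')` and a subgroup `H ≤ G`:
`Hⁿ(H, A) ≅ Hⁿ(φ(H), A')`. -/
def th1_cohIso {G G' : Type} [Group G] [Group G'] {A : Rep.{0} ℤ G} {A' : Rep.{0} ℤ G'}
    (e : PairIso A A') (H : Subgroup G) (n : ℕ) :
    groupCohomology (Rep.res H.subtype A) n ≅
      groupCohomology (Rep.res (H.map e.φ.toMonoidHom).subtype A') n :=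
  groupCohomology.mapIso (e.φ.subgroupMap H) (th1_linEquiv e.f) (by
    intro g
    ext x
    exact e.comm g x) n

/-- **T-h1**: vanishing of `H¹` of all subgroups transports along an isomorphism of pairs. -/
theorem stmtH1Iso : StmtH1Iso := by
  intro G G' _ _ A A' ⟨e⟩ h H
  have := h (H.map e.φ.toMonoidHom)
  exact (th1_cohIso e H 1).toLinearEquiv.toEquiv.subsingleton

end Fermat.Agent.PT.B

end


end ZBPT_076_0

/-! ### bundled: `Fermat.Agent.PT.B.H90Loc` -/
section ZBPT_076_1
/-
PT-B, piece B-h90loc (helper11): the datum axiom `h90_loc` for `JlocQ q = ℚ̄_qˣ`.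
`(G_{ℚ_q}/V, (ℚ̄_qˣ)^V) ≅ (Gal(K'/ℚ_q), K'ˣ)` (LocLevelField.lean), which satisfies Hilbert 90 for
all subgroups (`stmtH90Sub`); transport by `stmtH1Iso`.
-/

set_option autoImplicit false
set_option linter.style.haveILetI false

noncomputable section

namespace Fermat.Agent.PT.B

open Fermat.Agent.PT CategoryTheory groupCohomology ExtCitation

/-- **B-h90loc**. -/
theorem stmtH90Loc : StmtH90Loc := by
  intro q _ V _ hV
  obtain ⟨K', hfin, hgal, hVK⟩ := cmLoc_exists_field q V hV
  subst hVK
  haveI := hfin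
  haveI := hgal
  obtain ⟨e⟩ := cmLoc_pairIso q K'
  exact stmtH1Iso _ _ _ _ ⟨e⟩ (stmtH90Sub ℚ_[q] ↥K')

end Fermat.Agent.PT.B

end


end ZBPT_076_1
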