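/- GENERATED FILE (helper35, build-time optimisation, NOTES/ZB.md): verbatim concatenation of the modules
   Fermat.Agent.PT.F.SeqExactE
   Fermat.Agent.PT.F.In3
   Fermat.Agent.PT.F.SeqInIn3
   Fermat.Agent.PT.F.Final
   Fermat.Agent.TW.F.LocFin
   Fermat.Agent.TW.F.GloFin
   Fermat.Agent.TW.F.ShaEq
   Fermat.Agent.PT.B.Final
   Do not edit; do not import together with these modules. -/
import Fermat.Agent.ZB.PT_002
import Fermat.Agent.ZB.PT_031
import Fermat.Agent.ZB.PT_036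
import Fermat.Agent.ZB.PT_033
import Fermat.Agent.ZB.PT_035
import Fermat.Agent.ZB.PT_022
import Fermat.Agent.ZB.PT_038
import Fermat.Agent.ZB.PT_039
import Fermat.Agent.ZB.PT_040
import Fermat.Agent.ZB.PT_041
import Fermat.Agent.ZB.PT_032
import Fermat.Agent.ZB.PT_042
import Fermat.Agent.ZB.PT_043
import Fermat.Agent.ZB.PT_044
import Fermat.Agent.ZB.PT_045
import Fermat.Agent.ZB.PT_047
import Fermat.Agent.ZB.PT_048
import Fermat.Agent.ZB.PT_034
import Fermat.Agent.ZB.TW_006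
import Fermat.Agent.ZB.PT_009
import Fermat.Agent.ZB.PT_075
import Fermat.Agent.ZB.PT_012
import Fermat.Agent.ZB.PT_023
import Fermat.Agent.ZB.PT_076

/-! ### bundled: `Fermat.Agent.PT.F.SeqExactE` -/
section ZBPT_046_0
/-
PT-F §6, piece S7 (helper32): exactness at `𝔈`.

If `∂ g = 0` (a representative `w` of `∂ g` is a level coboundary `d b`), then
`g ∈ im(⊕_v 𝔈_v) + res Hom_G(M₀, C)`.

Proof (blueprint §6, (F6c)): `z' := z̃ - κ ∘ b` is a level 1-cocycle `G → Hom(M₀, E)` extending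
`z`; `i ∘ z'` is locally a coboundary (In4), hence a coboundary `d⁰ t` (In3 for `M₀`);
`h := π ∘ t` is equivariant, `u := g̃ - t ∘ inc : M₁ → J` is equivariant, and an equivariant map
into the semilocal module is the sum of the `hat`s of its local components.
The properties of `κ` (S0b, `StmtKappa`) are taken as a hypothesis.
-/

set_option autoImplicit false

noncomputable section

namespace Fermat.Agent.PT.F

open CategoryTheory groupCohomology Fermat.Agent.PT

namespace ExactE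

attribute [local instance 1100] Rep.hV2

variable {p : ℕ} {G : Type} [Group G] {ι : Type} {Gloc : ι → Type}
  [∀ v, Group (Gloc v)] (D : PTDatum p G ι Gloc)

/-- evaluation at `(v, σ)`, as an additive map `J → J_v` -/
def evAt (v : ι) (σ : G) : (PTJ D).V →+ (D.Jloc v).V where
  toFun f := f.1 v σ
  map_zero' := rfl
  map_add' _ _ := rfl

@[simp] lemma evAt_apply (v : ι) (σ : G) (f : (PTJ D).V) : evAt D v σ f = f.1 v σ := rfl

lemma J_ext {f f' : (PTJ D).V} (h : ∀ v σ, f.1 v σ = f'.1 v σ) : f = f' :=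
  Subtype.ext (funext fun v => funext fun σ => h v σ)

lemma J_ρ_apply (τ : G) (f : (PTJ D).V) (v : ι) (σ : G) :
    ((PTJ D).ρ τ f).1 v σ = f.1 v (σ * τ) := rfl

/-- `ev_v` is `G_v`-equivariant. -/
lemma ev_ρ (v : ι) (d : Gloc v) (f : (PTJ D).V) :
    ev D v ((PTJ D).ρ (D.r v d) f) = (D.Jloc v).ρ d (ev D v f) := by
  change f.1 v (1 * D.r v d) = (D.Jloc v).ρ d (f.1 v 1)
  rw [one_mul, ← (f.2 v).1 d 1, mul_one]

lemma π_i (e : D.E.V) : D.π.hom (D.i.hom e) = 0 := (D.exact _).2 ⟨e, rfl⟩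


section Kappa

variable (A : Rep.{0} (ZMod p) G) (P : Presentation D.𝒯 (A.dualTwist D.χ))

/-- `κ(a) : M₀ → E` as an additive map (additivity in `m` assumed). -/
def kapM (hm : ∀ (a : A.V) (m m' : P.M₀.V),
    kappaFun D A P a (m + m') = kappaFun D A P a m + kappaFun D A P a m') (a : A.V) :
    P.M₀.V →+ D.E.V :=
  AddMonoidHom.mk' (kappaFun D A P a) (hm a)

/-- `κ : A → Hom(M₀, E)` as an additive map. -/
def kap (ha : ∀ (a b : A.V) (m : P.M₀.V),
      kappaFun D A P (a + b) m = kappaFun D A P a m + kappaFun D A P b m)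
    (hm : ∀ (a : A.V) (m m' : P.M₀.V),
      kappaFun D A P a (m + m') = kappaFun D A P a m + kappaFun D A P a m') :
    A.V →+ (P.M₀.V →+ D.E.V) :=
  AddMonoidHom.mk' (kapM D A P hm) (fun a b => by
    ext m
    exact ha a b m)

lemma kap_apply (ha : ∀ (a b : A.V) (m : P.M₀.V),
      kappaFun D A P (a + b) m = kappaFun D A P a m + kappaFun D A P b m)
    (hm : ∀ (a : A.V) (m m' : P.M₀.V),
      kappaFun D A P a (m + m') = kappaFun D A P a m + kappaFun D A P a m')
    (a : A.V) (m : P.M₀.V) : kap D A P ha hm a m = kappaFun D A P a m := rfl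

lemma kappaFun_inc (a : A.V) (m₁ : P.M₁.V) : kappaFun D A P a (P.inc.hom m₁) = 0 := by
  have h : P.ε (P.inc.hom m₁) = 0 := (P.exact _).2 ⟨m₁, rfl⟩
  unfold kappaFun
  rw [h]
  simp

end Kappa

end ExactE

open ExactE

attribute [local instance 1100] Rep.hV2

/-- **S7** (exactness at `𝔈`), assuming the properties of `κ` (S0b). -/
theorem stmtExactE_of (hκ : StmtKappa) : StmtExactE := by
  intro p _ G _ ι _ Gloc _ D A _ P hM hin g w hdel hw
  classical
  obtain ⟨hκa, hκm, hκρ, -, -⟩ := hκ p G ι Gloc D A P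
  obtain ⟨gt, zt, hgt, hzt_lev, hzt, hw_eq⟩ := hdel
  obtain ⟨b, hb_lev, hb⟩ := (mem_levCoboundaries₂_iff D.𝒯 A w).1 hw
  -- the corrected cochain `z' = z̃ - κ ∘ b`
  set κ := kap D A P hκa hκm with hκdef
  have hκ_apply : ∀ a m, κ a m = kappaFun D A P a m := fun a m => rfl
  have hz'_lev : IsLevel₁ D.𝒯 (fun σ => zt σ - κ (b σ)) := by
    have h1 : IsLevel₁ D.𝒯 (fun σ => κ (b σ)) := hb_lev.comp κ
    obtain ⟨U, hU, h⟩ := hzt_lev
    obtain ⟨U', hU', h'⟩ := h1
    exact ⟨U ⊓ U', D.𝒯.inf_mem U U' hU hU', fun g s hs => by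
      change zt (g * s) - κ (b (g * s)) = zt g - κ (b g)
      rw [h g s hs.1]
      have := h' g s hs.2
      simp only at this
      rw [this]⟩
  -- `z'` is a cocycle
  have hz'_coc : ∀ στ : G × G, dOne P.M₀ D.E (fun σ => zt σ - κ (b σ)) στ = 0 := by
    rintro ⟨σ, τ⟩
    ext m
    have h1 := hw_eq (σ, τ) m
    have h2 : w (σ, τ) = A.ρ σ (b τ) - b (σ * τ) + b σ := by
      rw [← hb]
      rfl
    have h3 : κ (w (σ, τ)) m = κ (A.ρ σ (b τ)) m - κ (b (σ * τ)) m + κ (b σ) m := by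
      rw [h2, map_add, map_sub]
      rfl
    have h4 : κ (A.ρ σ (b τ)) m = D.E.ρ σ (κ (b τ) (P.M₀.ρ σ⁻¹ m)) := hκρ σ (b τ) m
    have h5 : dOne P.M₀ D.E zt (σ, τ) m =
        D.E.ρ σ (zt τ (P.M₀.ρ σ⁻¹ m)) - zt (σ * τ) m + zt σ m := rfl
    have key : D.E.ρ σ (zt τ (P.M₀.ρ σ⁻¹ m)) - zt (σ * τ) m + zt σ m =
        D.E.ρ σ (κ (b τ) (P.M₀.ρ σ⁻¹ m)) - κ (b (σ * τ)) m + κ (b σ) m := by
      rw [← h5, ← h1, ← h4, ← h3]
      rfl
    change D.E.ρ σ ((zt τ - κ (b τ)) (P.M₀.ρ σ⁻¹ m)) - (zt (σ * τ) - κ (b (σ * τ))) m +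
      (zt σ - κ (b σ)) m = 0
    simp only [AddMonoidHom.sub_apply, map_sub]
    have h6 : D.E.ρ σ (zt τ (P.M₀.ρ σ⁻¹ m)) - D.E.ρ σ (κ (b τ) (P.M₀.ρ σ⁻¹ m)) -
        (zt (σ * τ) m - κ (b (σ * τ)) m) + (zt σ m - κ (b σ) m) =
        (D.E.ρ σ (zt τ (P.M₀.ρ σ⁻¹ m)) - zt (σ * τ) m + zt σ m) -
        (D.E.ρ σ (κ (b τ) (P.M₀.ρ σ⁻¹ m)) - κ (b (σ * τ)) m + κ (b σ) m) := by abel
    rw [h6, key, sub_self]
  -- `y = i ∘ z'` is a level cocycle with values in `Hom(M₀, J)`
  have hy_lev : IsLevel₁ D.𝒯 (fun σ => (homAdd D.i).comp (zt σ - κ (b σ))) :=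
    hz'_lev.comp (fun z => (homAdd D.i).comp z)
  have hy_coc : ∀ στ : G × G,
      dOne P.M₀ (PTJ D) (fun σ => (homAdd D.i).comp (zt σ - κ (b σ))) στ = 0 := by
    rintro ⟨σ, τ⟩
    ext m
    have h1 := congrArg (fun f : P.M₀.V →+ D.E.V => D.i.hom (f m)) (hz'_coc (σ, τ))
    simp only [AddMonoidHom.zero_apply, map_zero] at h1
    refine Eq.trans ?_ h1
    change (PTJ D).ρ σ (D.i.hom ((zt τ - κ (b τ)) (P.M₀.ρ σ⁻¹ m))) -
        D.i.hom ((zt (σ * τ) - κ (b (σ * τ))) m) + D.i.hom ((zt σ - κ (b σ)) m) =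
      D.i.hom (D.E.ρ σ ((zt τ - κ (b τ)) (P.M₀.ρ σ⁻¹ m)) - (zt (σ * τ) - κ (b (σ * τ))) m +
        (zt σ - κ (b σ)) m)
    rw [map_add, map_sub, Rep.hom_comm_apply]
  -- locally `y` is a coboundary (In4)
  have hloc : ∀ v, ∃ t : P.M₀.V →+ (D.Jloc v).V, ∀ d,
      (ev D v).comp (resOne D v (fun σ => (homAdd D.i).comp (zt σ - κ (b σ))) d) =
        dZero (Rep.res (D.r v) P.M₀) (D.Jloc v) t d := by
    intro v
    apply hin.in4 v
      (fun d => (ev D v).comp ((homAdd D.i).comp (zt (D.r v d) - κ (b (D.r v d)))))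
    · obtain ⟨U, hU, h⟩ := hy_lev
      refine ⟨U.comap (D.r v), D.comap_mem v U hU, fun d s hs => ?_⟩
      have h2 := h (D.r v d) (D.r v s) hs
      simp only at h2
      simp only [map_mul]
      rw [h2]
    · rintro ⟨d, d'⟩
      ext m
      have h1 := congrArg (fun f : P.M₀.V →+ (PTJ D).V => ev D v (f m))
        (hy_coc (D.r v d, D.r v d'))
      simp only [AddMonoidHom.zero_apply, map_zero] at h1
      refine Eq.trans ?_ h1
      change (D.Jloc v).ρ d (ev D v (D.i.hom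
          ((zt (D.r v d') - κ (b (D.r v d'))) (P.M₀.ρ (D.r v d⁻¹) m)))) -
          ev D v (D.i.hom ((zt (D.r v (d * d')) - κ (b (D.r v (d * d')))) m)) +
          ev D v (D.i.hom ((zt (D.r v d) - κ (b (D.r v d))) m)) =
        ev D v ((PTJ D).ρ (D.r v d) (D.i.hom
          ((zt (D.r v d') - κ (b (D.r v d'))) (P.M₀.ρ (D.r v d)⁻¹ m))) -
          D.i.hom ((zt (D.r v d * D.r v d') - κ (b (D.r v d * D.r v d'))) m) +
          D.i.hom ((zt (D.r v d) - κ (b (D.r v d))) m))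
      rw [map_add, map_sub, ev_ρ, map_mul, map_inv]
  -- globally `y = d⁰ t` (In3)
  obtain ⟨t, ht⟩ := hin.in3₀ _ hy_lev hy_coc hloc
  have ht' : ∀ (σ : G) (m : P.M₀.V), D.i.hom ((zt σ - κ (b σ)) m) =
      (PTJ D).ρ σ (t (P.M₀.ρ σ⁻¹ m)) - t m := fun σ m =>
    congrArg (fun f : P.M₀.V →+ (PTJ D).V => f m) (ht σ)
  -- `h = π ∘ t` is equivariant
  have hπt : ∀ (σ : G) (m : P.M₀.V),
      D.π.hom (t (P.M₀.ρ σ m)) = D.C.ρ σ (D.π.hom (t m)) := by
    intro σ m
    have h1 := congrArg D.π.hom (ht' σ (P.M₀.ρ σ m))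
    rw [π_i, map_sub, Rep.hom_comm_apply] at h1
    have h2 : P.M₀.ρ σ⁻¹ (P.M₀.ρ σ m) = m := by
      rw [← Module.End.mul_apply, ← map_mul]
      simp
    rw [h2] at h1
    exact (sub_eq_zero.1 h1.symm).symm
  let h : P.M₀ ⟶ D.C := mkHom ((homAdd D.π).comp t) hπt
  -- `u = g̃ - t ∘ inc` is equivariant
  have hu0 : ∀ (σ : G) (m : P.M₁.V),
      (PTJ D).ρ σ ((gt - t.comp (homAdd P.inc)) (P.M₁.ρ σ⁻¹ m)) =
        (gt - t.comp (homAdd P.inc)) m := by
    intro σ m
    have h1 := hzt σ m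
    have h2 := ht' σ (P.inc.hom m)
    have h3 : (zt σ - κ (b σ)) (P.inc.hom m) = zt σ (P.inc.hom m) := by
      change zt σ (P.inc.hom m) - kappaFun D A P (b σ) (P.inc.hom m) = _
      rw [kappaFun_inc, sub_zero]
    rw [h3, h1] at h2
    have h4 : dZero P.M₁ (PTJ D) gt σ m = (PTJ D).ρ σ (gt (P.M₁.ρ σ⁻¹ m)) - gt m := rfl
    rw [h4, ← Rep.hom_comm_apply] at h2
    change (PTJ D).ρ σ (gt (P.M₁.ρ σ⁻¹ m) - t (P.inc.hom (P.M₁.ρ σ⁻¹ m))) =
      gt m - t (P.inc.hom m)
    rw [map_sub]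
    rw [sub_eq_sub_iff_add_eq_add] at h2 ⊢
    rw [h2]
    abel
  have hu : ∀ (σ : G) (m : P.M₁.V),
      (gt - t.comp (homAdd P.inc)) (P.M₁.ρ σ m) =
        (PTJ D).ρ σ ((gt - t.comp (homAdd P.inc)) m) := by
    intro σ m
    have h1 := hu0 σ (P.M₁.ρ σ m)
    have h2 : P.M₁.ρ σ⁻¹ (P.M₁.ρ σ m) = m := by
      rw [← Module.End.mul_apply, ← map_mul]
      simp
    rw [h2] at h1
    exact h1.symm
  -- the local components of `u`
  let gv : ∀ v, Rep.res (D.r v) P.M₁ ⟶ D.Jloc v := fun v =>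
    mkHom (A := Rep.res (D.r v) P.M₁) (B := D.Jloc v)
      ((ev D v).comp (gt - t.comp (homAdd P.inc))) (fun d m => by
        change ev D v ((gt - t.comp (homAdd P.inc)) (P.M₁.ρ (D.r v d) m)) =
          (D.Jloc v).ρ d (ev D v ((gt - t.comp (homAdd P.inc)) m))
        rw [hu, ev_ρ])
  refine ⟨gv, h, ?_⟩
  apply rep_hom_ext'
  intro m
  rw [rep_add_apply]
  have hsum : (∑ v, hat D P.M₁ hM v (gv v) ≫ D.π).hom m =
      ∑ v, D.π.hom ((hat D P.M₁ hM v (gv v)).hom m) :=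
    map_sum (repEval (B := D.C) m) (fun v => hat D P.M₁ hM v (gv v) ≫ D.π) Finset.univ
  rw [hsum, ← map_sum]
  have hJ : ∑ v, (hat D P.M₁ hM v (gv v)).hom m = (gt - t.comp (homAdd P.inc)) m := by
    apply J_ext
    intro v' σ
    have h1 := map_sum (evAt D v' σ) (fun v => (hat D P.M₁ hM v (gv v)).hom m) Finset.univ
    change evAt D v' σ _ = _
    rw [h1]
    rw [Finset.sum_eq_single v']
    · change ((hat D P.M₁ hM v' (gv v')).hom m).1 v' σ = _
      rw [hat_apply_same]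
      change ((gt - t.comp (homAdd P.inc)) (P.M₁.ρ σ m)).1 v' 1 = _
      rw [hu, J_ρ_apply, one_mul]
    · intro v _ hv
      change ((hat D P.M₁ hM v (gv v)).hom m).1 v' σ = 0
      exact hat_apply_ne D P.M₁ hM v (gv v) m hv σ
    · intro hv
      exact absurd (Finset.mem_univ v') hv
  rw [hJ]
  change g.hom m = D.π.hom (gt m - t (P.inc.hom m)) + D.π.hom (t (P.inc.hom m))
  rw [map_sub, hgt]
  abel

end Fermat.Agent.PT.F

end


end ZBPT_046_0

/-! ### bundled: `Fermat.Agent.PT.F.In3` -/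
section ZBPT_046_1
/-
PT-F §5/§6 input (In3), helper32: Shapiro injectivity in degree 1 for `Hom_ℤ(M, J)`, for every
`G`-module `M` which is trivial on a level.

A level 1-cocycle `y : G → Hom_ℤ(M, J)` with `ev_v ∘ y(r d) = d t_v d⁻¹ - t_v` on every `G_v`
is the coboundary of `t`, `t(m)_v(σ) := ev_v (y(σ)(σ m)) + t_v (σ m)`.
-/

set_option autoImplicit false

noncomputable section

namespace Fermat.Agent.PT.F

open CategoryTheory groupCohomology Fermat.Agent.PT

namespace In3Aux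

open ExactE

attribute [local instance 1100] Rep.hV2

variable {p : ℕ} {G : Type} [Group G] {ι : Type} {Gloc : ι → Type}
  [∀ v, Group (Gloc v)] (D : PTDatum p G ι Gloc) (M : Rep.{0} ℤ G)
  (y : G → (M.V →+ (PTJ D).V)) (tv : ∀ v, M.V →+ (D.Jloc v).V)

/-- the family of functions underlying `t(m)` -/
def tFun (m : M.V) : ∀ v, G → (D.Jloc v).V :=
  fun v σ => ev D v (y σ (M.ρ σ m)) + tv v (M.ρ σ m)

lemma cocycle_apply (hy : ∀ στ, dOne M (PTJ D) y στ = 0) (σ τ : G) (m : M.V) :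
    y (σ * τ) m = (PTJ D).ρ σ (y τ (M.ρ σ⁻¹ m)) + y σ m := by
  have h := congrArg (fun f : M.V →+ (PTJ D).V => f m) (hy (σ, τ))
  have h2 : (PTJ D).ρ σ (y τ (M.ρ σ⁻¹ m)) - y (σ * τ) m + y σ m = 0 := h
  rw [sub_add_eq_add_sub, sub_eq_zero] at h2
  exact h2.symm

lemma ρ_inv_ρ (σ : G) (m : M.V) : M.ρ σ⁻¹ (M.ρ σ m) = m := by
  rw [← Module.End.mul_apply, ← map_mul]
  simp

lemma tFun_mem (hy_lev : IsLevel₁ D.𝒯 y) (hy : ∀ στ, dOne M (PTJ D) y στ = 0)
    (htv : ∀ v d, (ev D v).comp (resOne D v y d) =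
      dZero (Rep.res (D.r v) M) (D.Jloc v) (tv v) d)
    (hM : IsLevTriv D.𝒯 M) (m : M.V) :
    tFun D M y tv m ∈ semilocalSub D.𝒯 D.r D.Jloc := by
  intro v
  refine ⟨fun d g => ?_, ?_⟩
  · change ev D v (y (D.r v d * g) (M.ρ (D.r v d * g) m)) + tv v (M.ρ (D.r v d * g) m) =
      (D.Jloc v).ρ d (ev D v (y g (M.ρ g m)) + tv v (M.ρ g m))
    have h1 : M.ρ (D.r v d * g) m = M.ρ (D.r v d) (M.ρ g m) := by
      rw [map_mul]; rfl
    rw [h1, cocycle_apply D M y hy, ρ_inv_ρ, map_add, ev_ρ, map_add]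
    have h2 := congrArg (fun f : M.V →+ (D.Jloc v).V => f (M.ρ (D.r v d) (M.ρ g m))) (htv v d)
    have h3 : ev D v (y (D.r v d) (M.ρ (D.r v d) (M.ρ g m))) =
        (D.Jloc v).ρ d (tv v (M.ρ (D.r v d⁻¹) (M.ρ (D.r v d) (M.ρ g m)))) -
          tv v (M.ρ (D.r v d) (M.ρ g m)) := h2
    rw [h3, map_inv, ρ_inv_ρ]
    abel
  · obtain ⟨U, hU, h⟩ := hy_lev
    obtain ⟨U₁, hU₁, hM⟩ := hM
    refine ⟨U ⊓ U₁, D.𝒯.inf_mem U U₁ hU hU₁, fun g s hs => ?_⟩
    change ev D v (y (g * s) (M.ρ (g * s) m)) + tv v (M.ρ (g * s) m) =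
      ev D v (y g (M.ρ g m)) + tv v (M.ρ g m)
    have h1 : M.ρ (g * s) m = M.ρ g m := by
      rw [map_mul]
      change M.ρ g (M.ρ s m) = _
      rw [hM s hs.2]
    rw [h1, h g s hs.1]

/-- `t : M → J` -/
def tAdd (hy_lev : IsLevel₁ D.𝒯 y) (hy : ∀ στ, dOne M (PTJ D) y στ = 0)
    (htv : ∀ v d, (ev D v).comp (resOne D v y d) =
      dZero (Rep.res (D.r v) M) (D.Jloc v) (tv v) d)
    (hM : IsLevTriv D.𝒯 M) : M.V →+ (PTJ D).V where
  toFun m := ⟨tFun D M y tv m, tFun_mem D M y tv hy_lev hy htv hM m⟩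
  map_zero' := by
    apply J_ext
    intro v σ
    change ev D v (y σ (M.ρ σ 0)) + tv v (M.ρ σ 0) = 0
    rw [map_zero, map_zero, map_zero, map_zero, add_zero]
  map_add' a b := by
    apply J_ext
    intro v σ
    change ev D v (y σ (M.ρ σ (a + b))) + tv v (M.ρ σ (a + b)) =
      (ev D v (y σ (M.ρ σ a)) + tv v (M.ρ σ a)) + (ev D v (y σ (M.ρ σ b)) + tv v (M.ρ σ b))
    simp only [map_add]
    abel

lemma tAdd_val (hy_lev : IsLevel₁ D.𝒯 y) (hy : ∀ στ, dOne M (PTJ D) y στ = 0)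
    (htv : ∀ v d, (ev D v).comp (resOne D v y d) =
      dZero (Rep.res (D.r v) M) (D.Jloc v) (tv v) d)
    (hM : IsLevTriv D.𝒯 M) (m : M.V) (v : ι) (σ : G) :
    (tAdd D M y tv hy_lev hy htv hM m).1 v σ = ev D v (y σ (M.ρ σ m)) + tv v (M.ρ σ m) := rfl

end In3Aux

open In3Aux ExactE

attribute [local instance 1100] Rep.hV2

/-- **(In3)** Shapiro injectivity in degree 1 for `Hom_ℤ(M, J)`, for every module `M` which is
trivial on a level. -/
theorem in3_of_levTriv {p : ℕ} {G : Type} [Group G] {ι : Type} {Gloc : ι → Type}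
    [∀ v, Group (Gloc v)] (D : PTDatum p G ι Gloc) (M : Rep.{0} ℤ G) (hM : IsLevTriv D.𝒯 M) :
    In3 D M := by
  intro y hy_lev hy hloc
  choose tv htv using hloc
  refine ⟨tAdd D M y tv hy_lev hy htv hM, fun σ => ?_⟩
  ext m
  apply J_ext
  intro v g
  change (y σ m).1 v g =
    ((PTJ D).ρ σ (tAdd D M y tv hy_lev hy htv hM (M.ρ σ⁻¹ m)) -
      tAdd D M y tv hy_lev hy htv hM m).1 v g
  change (y σ m).1 v g =
    (tAdd D M y tv hy_lev hy htv hM (M.ρ σ⁻¹ m)).1 v (g * σ) -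
      (tAdd D M y tv hy_lev hy htv hM m).1 v g
  rw [tAdd_val, tAdd_val]
  have h1 : M.ρ (g * σ) (M.ρ σ⁻¹ m) = M.ρ g m := by
    rw [← Module.End.mul_apply, ← map_mul]
    congr 2
    group
  rw [h1, cocycle_apply D M y hy g σ, ρ_inv_ρ, map_add]
  have h2 : ev D v ((PTJ D).ρ g (y σ m)) = (y σ m).1 v g := by
    change (y σ m).1 v (1 * g) = _
    rw [one_mul]
  rw [h2]
  abel

/-- `In3` for both modules of a presentation. -/
theorem in3_presentation {p : ℕ} {G : Type} [Group G] {ι : Type} {Gloc : ι → Type}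
    [∀ v, Group (Gloc v)] (D : PTDatum p G ι Gloc) {k : Type} [CommRing k] (A' : Rep.{0} k G)
    (P : Presentation D.𝒯 A') : In3 D P.M₀ ∧ In3 D P.M₁ := by
  refine ⟨in3_of_levTriv D P.M₀ ⟨P.U₀, P.U₀_mem, P.triv₀⟩,
    in3_of_levTriv D P.M₁ ⟨P.U₀, P.U₀_mem, fun s hs m => ?_⟩⟩
  apply P.inc_injective
  rw [Rep.hom_comm_apply, P.triv₀ s hs]

end Fermat.Agent.PT.F

end


end ZBPT_046_1

/-! ### bundled: `Fermat.Agent.PT.F.SeqInIn3` -/
section ZBPT_046_2
/-
PT-F §6 inputs, piece In3 (helper32): `stmtIn3 : StmtIn3`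
(semilocal Shapiro injectivity in degree 1; the proof is `in3_of_levTriv` of `PT/F/In3.lean`).
-/

set_option autoImplicit false

namespace Fermat.Agent.PT.F

open CategoryTheory groupCohomology Fermat.Agent.PT

/-- **In3** (semilocal Shapiro, degree 1). -/
theorem stmtIn3 : StmtIn3 :=
  fun _ _ _ _ _ _ _ _ D M hM => in3_of_levTriv D M hM

end Fermat.Agent.PT.F


end ZBPT_046_2

/-! ### bundled: `Fermat.Agent.PT.F.Final` -/
section ZBPT_046_3

/-!
# PT-F: the abstract Poitou–Tate theorem `StmtPTF` (helper68)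

* `stmtPTF_of : StmtTN' → StmtIn2a → StmtPTF` — the wiring of all PT-F pieces, with the two
  inputs that were proved last kept as hypotheses (`StmtTN'` = Tate–Nakayama, PT-A;
  `StmtIn2a` = semilocal Shapiro in degree 2);
* `stmtPTF : StmtPTF` — **unconditional**, from `stmtTN'` (PT-A, helper9's crew) and
  `stmtIn2a`.
-/

set_option autoImplicit false

noncomputable section

namespace Fermat.Agent.PT.F

open CategoryTheory groupCohomology Fermat.Agent.PT

theorem stmtPTF_of (hTN : StmtTN') (h2a : StmtIn2a) : StmtPTF := by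
  intro p _ G _ ι _ Gloc _ D A _ hA
  obtain ⟨U₀, hU₀, hn, -, -, htriv⟩ := exists_level_triv D A hA
  haveI := hn
  haveI hfinA : Finite (A.dualTwist D.χ).V := by
    change Finite (Module.Dual (ZMod p) A.V)
    haveI : Module.Finite (ZMod p) (Module.Dual (ZMod p) A.V) := inferInstance
    exact Module.finite_of_finite (ZMod p)
  have hRK := stmtRightKer_of hTN stmtInflInjFin
  have hLK := stmtLeftKer_of hTN (stmtTNDualOfTN hTN) stmtInflInjFin
  have hPH1 := stmtPairH1_of stmtPairBasic stmtH2pCyclic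
  exact stmtAssembly stmtPairBasic hPH1 hRK hLK (stmtH1Finite_of hRK hLK stmtPairBasic hPH1)
    stmtCMP (stmtLocNondeg_of hRK stmtPairBasic) stmtKappa (stmtDelExists_of stmtM1Free)
    stmtDelUnique (stmtDelAdd_of stmtKappa) stmtDelRes stmtDelHat
    (stmtLocDel_of stmtKappa stmtExt) (stmtExactE_of stmtKappa) (stmtExactH2_of stmtKappa)
    p G ι Gloc D A (stdPres D.𝒯 U₀ hU₀ (A.dualTwist D.χ) htriv)
    (hasInd_stdPres D.𝒯 U₀ hU₀ (A.dualTwist D.χ) htriv)
    (stmtSeqIn_of stmtPermSh1 stmtIn1b stmtIn4b stmtIn3 h2a stmtIn2b stmtM1Free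
      p G ι Gloc D A U₀ hU₀ htriv)

/-- **The abstract Poitou–Tate theorem**, unconditional. -/
theorem stmtPTF : StmtPTF := stmtPTF_of stmtTN' stmtIn2a

end Fermat.Agent.PT.F

end


end ZBPT_046_3

/-! ### bundled: `Fermat.Agent.TW.F.LocFin` -/
section ZBPT_046_4

/-!
# TW-F / F-fin (helper9): finiteness of local level cohomology

`stmtLocFin : StmtLocFin`.  The PT-F proofs of `StmtLeftKer`, `StmtPairH1`, `StmtH1Finite` use the
datum only through `C_discrete`, `cm_glob`, `exist`; here they are redone for a general class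
module `(G, 𝒯, C)` with `IsDiscrete`, `HasPFund`, `HasExist` (`ffin_leftKer`, `ffin_pairH1`,
`ffin_h1Finite`: the proofs of helper68 / helper48, made generic) and applied to
`(G_v, 𝒯loc v, J_v)` with the standard presentation of `Res A`.
-/

set_option autoImplicit false

noncomputable section

namespace Fermat.Agent.TW.F

open CategoryTheory groupCohomology Module Fermat.Agent.PT Fermat.Agent.PT.F

/-- generic form of PT-F `StmtLeftKer` for a class module `(G, 𝒯, C)` with `HasExist` -/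
theorem ffin_leftKer (hTN : StmtTN') (hD : StmtTNDual) (hInj : StmtInflInjFin)
    (p : ℕ) [Fact p.Prime] (G : Type) [Group G] (𝒯 : Tower G) (C : Rep.{0} ℤ G)
    (hdisc : IsDiscrete 𝒯 C) (hcm : HasPFund 𝒯 C p) (hex : HasExist p 𝒯 C)
    (k : Type) [CommRing k] (A' : Rep.{0} k G) (P : Presentation 𝒯 A')
    (hp : ∀ a : A'.V, p • a = 0) (hInd : HasInd P.M₀) :
    ∃ U' ∈ 𝒯.lev, ∀ g : P.M₁ ⟶ C,
      (∀ c : G → A'.V, c ∈ cocycles₁ A' → (∀ σ s : G, s ∈ U' → c (σ * s) = c σ) →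
        pairCoc P g c ∈ levCoboundaries₂ 𝒯 C) →
      ∃ g₀ : P.M₀ ⟶ C, P.inc ≫ g₀ = g := by
  obtain ⟨U₁, hU₁, U', hU', h1, h2, hn₁, hn', hex⟩ := hex P.U₀ P.U₀_mem
  refine ⟨U', hU', fun g hg => ?_⟩
  have hle : U' ≤ P.U₀ := h2.trans h1
  have hfin := 𝒯.finiteIndex U' hU'
  have : Finite (G ⧸ U') := Subgroup.finite_quotient_of_finiteIndex
  have : Fintype (G ⧸ U') := Fintype.ofFinite _
  obtain ⟨u, hu⟩ := hcm U' hU'
  have hfree : Module.Free ℤ (finX P U').X₂.V := (finX_free_finite P hle).1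
  have hfinite : Module.Finite ℤ (finX P U').X₂.V := (finX_free_finite P hle).2
  have hH1 : Subsingleton (H1 (finX P U').X₂) :=
    hInd G (MonoidHom.id G) U' hfin (fun s hs m => P.triv₀ s (hle hs) m)
  have hmono : Mono (finX P U').f := (finX_shortExact P hle).mono_f
  obtain ⟨hfree₁, hfinite₁⟩ := free_finite_of_mono (finX P U').f
  -- the norm hypothesis
  have hHn : (U₁.map (QuotientGroup.mk' U')).Normal :=
    Subgroup.Normal.map hn₁ _ (QuotientGroup.mk'_surjective U')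
  have : Fintype ↥(U₁.map (QuotientGroup.mk' U')) := Fintype.ofFinite _
  have hexist : ∀ h : (finX P U').X₁.V →ₗ[ℤ] (C.quotientToInvariants U').V,
      ∃ g₁ : (finX P U').X₁ ⟶ C.quotientToInvariants U',
        ∀ m, normHom (finX P U').X₁ (C.quotientToInvariants U') h m = p • g₁.hom m := by
    refine stmtNormTrick p (G ⧸ U') (U₁.map (QuotientGroup.mk' U')) (finX P U').X₁
      (C.quotientToInvariants U') hfree₁ hfinite₁ ?_ ?_
    · rintro η ⟨s, hs, rfl⟩ m
      exact Subtype.ext (P.triv₁ s (h1 hs) _)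
    · intro x
      obtain ⟨y, hy1, hy2⟩ := stmtExistBridge p G C U₁ U' h2 hfin hex x
      refine ⟨y, hy1, ?_⟩
      rw [← hy2, finsum_eq_sum_of_fintype]
  have key := (ext_duality hTN hD p (C.quotientToInvariants U') u hu (finX P U')
    (finX_shortExact P hle)
    (fun (a : ((intRep A').quotientToInvariants U').V) => Subtype.ext (hp a.1)) hH1 hexist).2
    ((Rep.quotientToInvariantsFunctor ℤ U').map g) (fun x => by
      induction x using H1_induction_on with
      | h cb =>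
        have hc : infl₁ (intRep A') U' cb.1 ∈ cocycles₁ A' :=
          (mem_cocycles₁_intRep_iff A' _).1 ((infl₁_mem_cocycles₁_iff _).2 cb.2)
        have hcU : ∀ σ s : G, s ∈ U' → infl₁ (intRep A') U' cb.1 (σ * s) =
            infl₁ (intRep A') U' cb.1 σ := (desc₁_infl₁ cb.1).1
        have h3 := push_delta_eq_zero P hle hInj p hdisc
          hcm hp hU' hc hcU g
          ((Rep.quotientToInvariantsFunctor ℤ U').map g) (fun m => rfl) (hg _ hc hcU)
        have h4 : finCoc P hle hc hcU = cb := by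
          apply Subtype.ext
          apply infl₁_injective (X := intRep A') (U := U')
          exact infl₁_descend₁ (infl₁ (intRep A') U' cb.1) (desc_c P hle hcU)
        rw [h4] at h3
        exact h3)
  obtain ⟨gb₀, hgb₀⟩ := key
  refine ⟨extHom (fun s hs m => P.triv₀ s (hle hs) m) gb₀, ?_⟩
  apply rep_hom_ext'
  intro m
  have h5 := congrArg (fun φ => (φ.hom ⟨m, fun s => P.triv₁ s.1 (hle s.2) m⟩).1) hgb₀
  exact h5


/-- generic form of PT-F `StmtPairH1` for a class module `(G, 𝒯, C)` -/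
theorem ffin_pairH1 (hB : StmtPairBasic) (hCyc : StmtH2pCyclic)
    (p : ℕ) [Fact p.Prime] (G : Type) [Group G] (𝒯 : Tower G) (C : Rep.{0} ℤ G)
    (hdisc : IsDiscrete 𝒯 C) (hcm' : HasPFund 𝒯 C p)
    (A' : Rep.{0} (ZMod p) G) (P : Presentation 𝒯 A') :
    ∃ Pg : (P.M₁ ⟶ C) →+ (↥(levH1 𝒯 A') →ₗ[ZMod p] ZMod p),
      ∀ (g : P.M₁ ⟶ C) (c : cocycles₁ A') (hc : IsLevel₁ 𝒯 (c : G → A'.V)),
        Pg g ⟨(H1π A').hom c, (mem_levH1_iff 𝒯 A' _).2 ⟨c, hc, rfl⟩⟩ = 0 ↔
          pairCoc P g c ∈ levCoboundaries₂ 𝒯 C := by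
  classical
  obtain ⟨h1, -, h3, h4, h5, -, h7⟩ := hB G 𝒯 (ZMod p) A' P C
  have hX : IsDiscrete 𝒯 C := hdisc
  have hcm : HasPFund 𝒯 C p := hcm'
  obtain ⟨inv, hinv⟩ := exists_inv hCyc p hX hcm
  have hpA : ∀ a : A'.V, p • a = 0 := by
    intro a
    rw [← Nat.cast_smul_eq_nsmul (ZMod p) p a, ZMod.natCast_self, zero_smul]
  -- the pairing cocycle is a level cocycle
  have hcoc : ∀ (g : P.M₁ ⟶ C) (c : G → A'.V), c ∈ cocycles₁ A' → IsLevel₁ 𝒯 c →
      pairCoc P g c ∈ levCocycles₂ 𝒯 C := by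
    intro g c hc hl
    refine h1 g (fun σ => P.sec (c σ)) (hl.comp P.sec) ?_
    have : (fun σ => P.ε (P.sec (c σ))) = c := funext fun σ => P.ε_sec (c σ)
    rw [this]
    exact hc
  -- the class of the pairing cocycle, as an element of the `p`-torsion of `levH2`
  let cls : ∀ (g : P.M₁ ⟶ C) (c : G → A'.V), c ∈ cocycles₁ A' → IsLevel₁ 𝒯 c →
      pTors p (levH2 𝒯 C) := fun g c hc hl =>
    ⟨levH2π 𝒯 C ⟨pairCoc P g c, hcoc g c hc hl⟩, by
      rw [mem_pTors, ← map_nsmul]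
      exact (levH2π_eq_zero_iff 𝒯 C _).2 (h7 p hpA g c hc hl)⟩
  have hcls_val : ∀ g c hc hl, ((cls g c hc hl : pTors p (levH2 𝒯 C)) : levH2 𝒯 C)
      = levH2π 𝒯 C ⟨pairCoc P g c, hcoc g c hc hl⟩ := fun _ _ _ _ => rfl
  have hcls_zero : ∀ g c hc hl, cls g c hc hl = 0 ↔ pairCoc P g c ∈ levCoboundaries₂ 𝒯 C := by
    intro g c hc hl
    rw [← levH2π_eq_zero_iff 𝒯 C ⟨pairCoc P g c, hcoc g c hc hl⟩, ← hcls_val g c hc hl]
    exact ⟨fun h => by rw [h]; rfl, fun h => Subtype.ext h⟩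
  -- difference of classes
  have hcls_eq : ∀ g c c' hc hl hc' hl',
      pairCoc P g c - pairCoc P g c' ∈ levCoboundaries₂ 𝒯 C →
      cls g c hc hl = cls g c' hc' hl' := by
    intro g c c' hc hl hc' hl' hd
    apply Subtype.ext
    rw [hcls_val g c hc hl, hcls_val g c' hc' hl', ← sub_eq_zero, ← map_sub,
      levH2π_eq_zero_iff]
    exact hd
  -- additivity in `c`
  have hcls_add : ∀ g c c' hc hl hc' hl',
      cls g (c + c') ((cocycles₁ A').add_mem hc hc') (hl.add hl')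
        = cls g c hc hl + cls g c' hc' hl' := by
    intro g c c' hc hl hc' hl'
    apply Subtype.ext
    rw [AddSubgroup.coe_add, hcls_val g c hc hl, hcls_val g c' hc' hl',
      hcls_val g (c + c') ((cocycles₁ A').add_mem hc hc') (hl.add hl'), ← map_add,
      ← sub_eq_zero, ← map_sub, levH2π_eq_zero_iff]
    exact h4 g c c' hc hc' hl hl'
  -- independence of the representative
  have hcls_indep : ∀ g c c' hc hl hc' hl',
      c - c' ∈ coboundaries₁ A' → cls g c hc hl = cls g c' hc' hl' := by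
    intro g c c' hc hl hc' hl' hb
    have hbc : c - c' ∈ cocycles₁ A' := coboundaries₁_le_cocycles₁ A' hb
    have hbl : IsLevel₁ 𝒯 (c - c') := isLevel₁_sub hl hl'
    have e : c' + (c - c') = c := by abel
    have h0 : cls g (c - c') hbc hbl = 0 := (hcls_zero g _ hbc hbl).2 (h5 g _ hb)
    have := hcls_add g c' (c - c') hc' hl' hbc hbl
    rw [h0, add_zero] at this
    rw [← this]
    congr 1
    exact e.symm
  -- additivity in `g`
  have hcls_addg : ∀ g g' c hc hl,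
      cls (g + g') c hc hl = cls g c hc hl + cls g' c hc hl := by
    intro g g' c hc hl
    apply Subtype.ext
    rw [AddSubgroup.coe_add, hcls_val g c hc hl, hcls_val g' c hc hl,
      hcls_val (g + g') c hc hl, ← map_add]
    exact congrArg _ (Subtype.ext (h3 g g' c))
  -- representatives
  have hrep : ∀ x : ↥(levH1 𝒯 A'), ∃ c : cocycles₁ A', IsLevel₁ 𝒯 (c : G → A'.V) ∧
      (H1π A').hom c = x := fun x => (mem_levH1_iff 𝒯 A' _).1 x.2
  choose rep hrepl hrepx using hrep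
  have hrep_eq : ∀ (x : ↥(levH1 𝒯 A')) (c : cocycles₁ A') (hl : IsLevel₁ 𝒯 (c : G → A'.V)),
      (H1π A').hom c = x → ∀ g, cls g (rep x) (rep x).2 (hrepl x) = cls g c c.2 hl := by
    intro x c hl hx g
    have : (H1π A').hom (rep x) = (H1π A').hom c := by rw [hrepx, hx]
    exact hcls_indep g _ _ (rep x).2 (hrepl x) c.2 hl ((H1π_eq_iff _ _).1 this)
  -- the pairing
  let F : (P.M₁ ⟶ C) → (↥(levH1 𝒯 A') →+ ZMod p) := fun g =>
    AddMonoidHom.mk' (fun x => inv (cls g (rep x) (rep x).2 (hrepl x))) (by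
      intro x y
      have hxy : (H1π A').hom (rep x + rep y) = ((x + y : ↥(levH1 𝒯 A')) : H1 A') := by
        rw [map_add, hrepx, hrepx]
        rfl
      rw [hrep_eq (x + y) (rep x + rep y) ((hrepl x).add (hrepl y)) hxy g, ← map_add]
      congr 1
      exact hcls_add g _ _ (rep x).2 (hrepl x) (rep y).2 (hrepl y))
  refine ⟨AddMonoidHom.mk' (fun g => (F g).toZModLinearMap p) ?_, ?_⟩
  · intro g g'
    apply LinearMap.ext
    intro x
    show inv (cls (g + g') (rep x) (rep x).2 (hrepl x))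
      = inv (cls g (rep x) (rep x).2 (hrepl x)) + inv (cls g' (rep x) (rep x).2 (hrepl x))
    exact (congrArg inv (hcls_addg g g' _ (rep x).2 (hrepl x))).trans (map_add inv _ _)
  · intro g c hc
    show inv (cls g (rep _) (rep _).2 (hrepl _)) = 0 ↔ _
    rw [hrep_eq _ c hc rfl g, ← hcls_zero g c c.2 hc]
    constructor
    · intro h
      exact hinv (by rw [h, map_zero])
    · intro h
      rw [h, map_zero]


/-- generic form of PT-F `StmtH1Finite` for a class module `(G, 𝒯, C)` with `HasExist` -/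
theorem ffin_h1Finite (hTN : StmtTN') (hD : StmtTNDual) (hInj : StmtInflInjFin)
    (hR : StmtRightKer) (hB : StmtPairBasic) (hCyc : StmtH2pCyclic)
    (p : ℕ) [Fact p.Prime] (G : Type) [Group G] (𝒯 : Tower G) (C : Rep.{0} ℤ G)
    (hdisc : IsDiscrete 𝒯 C) (hcm : HasPFund 𝒯 C p) (hex : HasExist p 𝒯 C)
    (A' : Rep.{0} (ZMod p) G) [FiniteDimensional (ZMod p) A'] (P : Presentation 𝒯 A')
    (hInd : HasInd P.M₀) : Finite ↥(levH1 𝒯 A') := by
  have hpA : ∀ a : A'.V, p • a = 0 := by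
    intro a
    rw [← Nat.cast_smul_eq_nsmul (ZMod p), ZMod.natCast_self, zero_smul]
  obtain ⟨U', hU', hLK⟩ := ffin_leftKer hTN hD hInj p G 𝒯 C hdisc hcm hex (ZMod p) A' P hpA hInd
  obtain ⟨Pg, hPg⟩ := ffin_pairH1 hB hCyc p G 𝒯 C hdisc hcm A' P
  have hB6 := (hB G 𝒯 (ZMod p) A' P C).2.2.2.2.2.1
  have _ : U'.FiniteIndex := 𝒯.finiteIndex U' hU'
  have _ : Finite A'.V := Module.finite_of_finite (ZMod p)
  have _ := f4c_invCocycles_finite A' U'
  -- the subspace `W` of classes of right-`U'`-invariant cocycles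
  have hlev : ∀ c : ↥(f4c_invCocycles A' U'), IsLevel₁ 𝒯 ((c : cocycles₁ A') : G → A'.V) :=
    fun c => ⟨U', hU', c.2⟩
  let W : Submodule (ZMod p) ↥(levH1 𝒯 A') :=
    ((f4c_invCocycles A' U').map (H1π A').hom).comap (levH1 𝒯 A').subtype
  have _ : Finite ↥W := by
    have hsurj : Function.Surjective (fun c : ↥(f4c_invCocycles A' U') =>
        (⟨⟨(H1π A').hom (c : cocycles₁ A'),
          (mem_levH1_iff 𝒯 A' _).2 ⟨c, hlev c, rfl⟩⟩,
          ⟨c, c.2, rfl⟩⟩ : ↥W)) := by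
      rintro ⟨⟨y, hy⟩, c, hc, hcy⟩
      refine ⟨⟨c, hc⟩, ?_⟩
      apply Subtype.ext
      apply Subtype.ext
      exact hcy
    exact Finite.of_surjective _ hsurj
  have hright : ∀ y : ↥(levH1 𝒯 A'), (∀ g, Pg g y = 0) → y = 0 := by
    rintro ⟨y, hy⟩ h
    obtain ⟨c, hc, rfl⟩ := (mem_levH1_iff 𝒯 A' _).1 hy
    have h1 : ∀ g : P.M₁ ⟶ C, pairCoc P g c ∈ levCoboundaries₂ 𝒯 C :=
      fun g => (hPg g c hc).1 (h g)
    have h2 := hR p G 𝒯 C hdisc hcm (ZMod p) A' P hpA hInd c c.2 hc h1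
    apply Subtype.ext
    exact (H1π_eq_zero_iff c).2 h2
  have hleft : ∀ g, (∀ y ∈ W, Pg g y = 0) → ∀ y, Pg g y = 0 := by
    intro g hg
    obtain ⟨g₀, rfl⟩ := hLK g (by
      intro c hc hinv
      let c' : ↥(f4c_invCocycles A' U') := ⟨⟨c, hc⟩, hinv⟩
      have h1 := hg ⟨(H1π A').hom (c' : cocycles₁ A'),
        (mem_levH1_iff 𝒯 A' _).2 ⟨c', hlev c', rfl⟩⟩ ⟨c', c'.2, rfl⟩
      exact (hPg g ⟨c, hc⟩ (hlev c')).1 h1)
    rintro ⟨y, hy⟩
    obtain ⟨c, hc, rfl⟩ := (mem_levH1_iff 𝒯 A' _).1 hy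
    exact (hPg (P.inc ≫ g₀) c hc).2 (hB6 g₀ c c.2 hc)
  have hW := f4c_linalg p W Pg hright hleft
  have : Finite ↥(⊤ : Submodule (ZMod p) ↥(levH1 𝒯 A')) := hW ▸ inferInstance
  exact Finite.of_equiv _ (Submodule.topEquiv (R := ZMod p) (M := ↥(levH1 𝒯 A'))).toEquiv


/-- **F-fin**: the local level cohomology `H¹_lev(G_v, A)` is finite. -/
theorem stmtLocFin : StmtLocFin := by
  intro p _ G _ ι _ Gloc _ D hLE A _ hA v
  obtain ⟨U, hU, hUA⟩ := hA
  obtain ⟨V₀, hV₀, hle, hn⟩ :=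
    (D.𝒯loc v).exists_normal (U.comap (D.r v)) (D.comap_mem v U hU)
  haveI := hn
  have htriv : ∀ s ∈ V₀, ∀ a : (Rep.res (D.r v) A).V, (Rep.res (D.r v) A).ρ s a = a := by
    intro s hs a
    have h1 : D.r v s ∈ U := hle hs
    show A.ρ (D.r v s) a = a
    rw [hUA _ h1]
    rfl
  haveI hfd : FiniteDimensional (ZMod p) (Rep.res (D.r v) A) :=
    (inferInstance : FiniteDimensional (ZMod p) A)
  haveI : Finite (Rep.res (D.r v) A).V := Module.finite_of_finite (ZMod p)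
  have hRK := stmtRightKer_of stmtTN' stmtInflInjFin
  exact ffin_h1Finite stmtTN' (stmtTNDualOfTN stmtTN') stmtInflInjFin hRK stmtPairBasic
    stmtH2pCyclic p (Gloc v) (D.𝒯loc v) (D.Jloc v) (D.Jloc_discrete v)
    (fun V _ hV => D.cm_loc v V hV) (hLE v) (Rep.res (D.r v) A)
    (stdPres (D.𝒯loc v) V₀ hV₀ (Rep.res (D.r v) A) htriv)
    (hasInd_stdPres (D.𝒯loc v) V₀ hV₀ (Rep.res (D.r v) A) htriv)

end Fermat.Agent.TW.F

end


end ZBPT_046_4

/-! ### bundled: `Fermat.Agent.TW.F.GloFin` -/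
section ZBPT_046_5

/-!
# TW-F / F-glofin (helper9): finiteness of global level cohomology

`stmtGloFin : StmtGloFin` — PT-F `stmtH1Finite_of` with the standard presentation of `A`
(wiring as in PT/F/Final.lean).
-/

set_option autoImplicit false

noncomputable section

namespace Fermat.Agent.TW.F

open CategoryTheory groupCohomology Module Fermat.Agent.PT Fermat.Agent.PT.F

/-- **F-glofin**: `H¹_lev(G, A)` is finite for a finite `𝔽_p[G]`-module `A` trivial on a level. -/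
theorem stmtGloFin : StmtGloFin := by
  intro p _ G _ ι _ Gloc _ D A _ hA
  obtain ⟨U₀, hU₀, hn, htriv, -, -⟩ := exists_level_triv D A hA
  haveI := hn
  haveI : Finite A.V := Module.finite_of_finite (ZMod p)
  have hRK := stmtRightKer_of stmtTN' stmtInflInjFin
  have hLK := stmtLeftKer_of stmtTN' (stmtTNDualOfTN stmtTN') stmtInflInjFin
  have hPH1 := stmtPairH1_of stmtPairBasic stmtH2pCyclic
  exact stmtH1Finite_of hRK hLK stmtPairBasic hPH1 p G ι Gloc D A
    (stdPres D.𝒯 U₀ hU₀ A htriv) (hasInd_stdPres D.𝒯 U₀ hU₀ A htriv)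

end Fermat.Agent.TW.F

end


end ZBPT_046_5

/-! ### bundled: `Fermat.Agent.TW.F.ShaEq` -/
section ZBPT_046_6

/-!
# TW-F / F-sha (helper88): `dim Ш¹(A) = dim Ш²(B)` for a dual pair

* `fsha_map_mem` : a morphism of representations maps `Ш¹` into `Ш¹`;
* `fsha_equiv` : an equivariant linear equivalence `A ≃ A'` induces `Ш¹(A) ≃ Ш¹(A')`;
* `fsha_finrank_of_pairing` : a bilinear pairing with trivial kernels on both sides (one side
  finite-dimensional) has sides of equal dimension;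
* `fsha_dualEquiv` : a dual pair gives an equivariant equivalence `A ≃ B^*(χ)`, `a ↦ β(a, ·)`;
* `stmtShaEq_of : StmtGloFin → StmtShaEq` (with the abstract Poitou–Tate theorem `stmtPTF`);
* `stmtShaEq : StmtShaEq`, unconditional (with `stmtGloFin`).
-/

set_option autoImplicit false

noncomputable section

namespace Fermat.Agent.TW.F

open CategoryTheory groupCohomology Module Fermat.Agent.PT Fermat.Agent.PT.F

section Transport

variable {p : ℕ} [Fact p.Prime] {G : Type} [Group G] {ι : Type} {Gloc : ι → Type}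
  [∀ v, Group (Gloc v)] (D : PTDatum p G ι Gloc)

/-- a morphism of representations maps `Ш¹` to `Ш¹` -/
theorem fsha_map_mem {A A' : Rep.{0} (ZMod p) G} (φ : A ⟶ A') (x : H1 A) (hx : x ∈ D.shaOne A) :
    (map (MonoidHom.id G) φ 1).hom x ∈ D.shaOne A' := by
  obtain ⟨hlev, hloc⟩ := Submodule.mem_inf.1 hx
  obtain ⟨c, hc, rfl⟩ := (mem_levH1_iff _ _ _).1 hlev
  have key : (map (MonoidHom.id G) φ 1).hom ((H1π A).hom c)
      = (H1π A').hom ((mapCocycles₁ (MonoidHom.id G) φ).hom c) :=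
    H1π_comp_map_apply _ _ _
  rw [key]
  refine Submodule.mem_inf.2
    ⟨(mem_levH1_iff _ _ _).2 ⟨(mapCocycles₁ (MonoidHom.id G) φ).hom c, ?_, rfl⟩, ?_⟩
  · obtain ⟨U, hU, h⟩ := hc
    refine ⟨U, hU, fun g s hs => ?_⟩
    show φ.hom (c (g * s)) = φ.hom (c g)
    rw [h g s hs]
  · rw [LinearMap.mem_ker, Asm.locTotal_eq_zero_iff]
    rw [LinearMap.mem_ker, Asm.locTotal_eq_zero_iff] at hloc
    intro v
    obtain ⟨a, ha⟩ := hloc v
    refine ⟨φ.hom a, ?_⟩
    funext d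
    have h1 := congrFun ha d
    simp only [d₀₁_hom_apply] at h1 ⊢
    show _ = φ.hom (c (D.r v d))
    have h2 : (c : G → A.V) (D.r v d) = A.ρ (D.r v d) a - a := h1.symm
    rw [h2, map_sub, Rep.hom_comm_apply]
    rfl

/-- the morphism of representations defined by an equivariant linear map -/
def fshaHom {A A' : Rep.{0} (ZMod p) G} (f : A.V →ₗ[ZMod p] A'.V)
    (hf : ∀ (g : G) (a : A.V), f (A.ρ g a) = A'.ρ g (f a)) : A ⟶ A' :=
  Rep.ofHom (LinearMap.intertwiningMap_of_isIntertwiningMap (ρ := A.ρ) (σ := A'.ρ) (f := f) hf)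

theorem fshaHom_apply {A A' : Rep.{0} (ZMod p) G} (f : A.V →ₗ[ZMod p] A'.V)
    (hf : ∀ (g : G) (a : A.V), f (A.ρ g a) = A'.ρ g (f a)) (a : A.V) :
    (fshaHom f hf).hom a = f a := rfl

/-- transport of `Ш¹` along an equivariant linear equivalence -/
theorem fsha_equiv {A A' : Rep.{0} (ZMod p) G} (e : A.V ≃ₗ[ZMod p] A'.V)
    (he : ∀ (g : G) (a : A.V), e (A.ρ g a) = A'.ρ g (e a)) :
    Nonempty (↥(D.shaOne A) ≃ₗ[ZMod p] ↥(D.shaOne A')) := by
  have he' : ∀ (g : G) (b : A'.V), e.symm (A'.ρ g b) = A.ρ g (e.symm b) := by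
    intro g b
    apply e.injective
    rw [he, e.apply_symm_apply, e.apply_symm_apply]
  let φ : A ⟶ A' := fshaHom e.toLinearMap he
  let ψ : A' ⟶ A := fshaHom e.symm.toLinearMap he'
  have hφψ : φ ≫ ψ = 𝟙 A := by
    apply Rep.hom_ext
    ext a
    exact e.symm_apply_apply a
  have hψφ : ψ ≫ φ = 𝟙 A' := by
    apply Rep.hom_ext
    ext a
    exact e.apply_symm_apply a
  let f : H1 A →ₗ[ZMod p] H1 A' := (map (MonoidHom.id G) φ 1).hom
  let g : H1 A' →ₗ[ZMod p] H1 A := (map (MonoidHom.id G) ψ 1).hom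
  have hgf : ∀ x, g (f x) = x := by
    intro x
    have h := map_id_comp φ ψ 1
    rw [hφψ, map_id] at h
    have h2 := congrArg (fun m => m.hom x) h
    simpa using h2.symm
  have hfg : ∀ y, f (g y) = y := by
    intro y
    have h := map_id_comp ψ φ 1
    rw [hψφ, map_id] at h
    have h2 := congrArg (fun m => m.hom y) h
    simpa using h2.symm
  refine ⟨
    { toFun := fun x => ⟨f x.1, fsha_map_mem D φ x.1 x.2⟩
      map_add' := fun x y => Subtype.ext (by simp)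
      map_smul' := fun c x => Subtype.ext (by simp)
      invFun := fun y => ⟨g y.1, fsha_map_mem D ψ y.1 y.2⟩
      left_inv := fun x => Subtype.ext (hgf x.1)
      right_inv := fun y => Subtype.ext (hfg y.1) }⟩

end Transport

section Pairing

/-- a bilinear pairing with trivial kernels on both sides, one side finite-dimensional:
equal dimensions -/
theorem fsha_finrank_of_pairing {k X Y : Type*} [Field k] [AddCommGroup X] [Module k X]
    [AddCommGroup Y] [Module k Y] [Module.Finite k X]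
    (B : X →ₗ[k] Y →ₗ[k] k) (hl : ∀ x, (∀ y, B x y = 0) → x = 0)
    (hr : ∀ y, (∀ x, B x y = 0) → y = 0) : finrank k X = finrank k Y := by
  have hinjr : Function.Injective B.flip := by
    rw [← LinearMap.ker_eq_bot, LinearMap.ker_eq_bot']
    intro y hy
    exact hr y fun x => by
      have := congrArg (fun f => f x) hy
      simpa using this
  have hinjl : Function.Injective B := by
    rw [← LinearMap.ker_eq_bot, LinearMap.ker_eq_bot']
    intro x hx
    exact hl x fun y => by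
      have := congrArg (fun f => f y) hx
      simpa using this
  have : Module.Finite k Y := Module.Finite.of_injective B.flip hinjr
  have h1 : finrank k Y ≤ finrank k X := by
    have := LinearMap.finrank_le_finrank_of_injective hinjr
    rwa [Subspace.dual_finrank_eq] at this
  have h2 : finrank k X ≤ finrank k Y := by
    have := LinearMap.finrank_le_finrank_of_injective hinjl
    rwa [Subspace.dual_finrank_eq] at this
  exact le_antisymm h2 h1

end Pairing

section Main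

variable {p : ℕ} [Fact p.Prime] {G : Type} [Group G]

/-- the equivariant linear equivalence `A ≃ B^*(χ)`, `a ↦ β(a, ·)` of a dual pair -/
theorem fsha_dualEquiv {χ : G →* (ZMod p)ˣ} {A B : Rep.{0} (ZMod p) G}
    [FiniteDimensional (ZMod p) A] [FiniteDimensional (ZMod p) B] (P : DualPair χ A B) :
    ∃ e : A.V ≃ₗ[ZMod p] (B.dualTwist χ).V,
      ∀ (g : G) (a : A.V), e (A.ρ g a) = (B.dualTwist χ).ρ g (e a) := by
  have hdim : finrank (ZMod p) A.V = finrank (ZMod p) B.V :=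
    fsha_finrank_of_pairing P.β P.left P.right
  have hinj : Function.Injective P.β := by
    rw [← LinearMap.ker_eq_bot, LinearMap.ker_eq_bot']
    intro x hx
    exact P.left x fun y => by
      have := congrArg (fun f => f y) hx
      simpa using this
  have hdim' : finrank (ZMod p) A.V = finrank (ZMod p) (Module.Dual (ZMod p) B.V) := by
    rw [Subspace.dual_finrank_eq, hdim]
  refine ⟨LinearMap.linearEquivOfInjective P.β hinj hdim', fun g a => ?_⟩
  rw [Rep.dualTwist_ρ_apply]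
  apply LinearMap.ext
  intro b
  simp only [LinearMap.linearEquivOfInjective_apply, LinearMap.smul_apply, LinearMap.coe_comp,
    Function.comp_apply, smul_eq_mul]
  have h := P.equivariant g a (B.ρ g⁻¹ b)
  rw [← Module.End.mul_apply, ← map_mul, mul_inv_cancel, map_one, Module.End.one_apply] at h
  exact h

/-- **F-sha**: `dim Ш¹(A) = dim Ш²(B)` for a dual pair. -/
theorem stmtShaEq_of (hGF : StmtGloFin) : StmtShaEq := by
  intro p _ G _ ι _ Gloc _ D A B _ _ P hA hB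
  obtain ⟨Bil, hl, hr⟩ := stmtPTF p G ι Gloc D B hB
  obtain ⟨e, he⟩ := fsha_dualEquiv P
  obtain ⟨E⟩ := fsha_equiv D e he
  have : Finite ↥(levH1 D.𝒯 A) := hGF p G ι Gloc D A hA
  have : Finite ↥(D.shaOne A) :=
    Finite.of_injective (Submodule.inclusion (inf_le_left : D.shaOne A ≤ levH1 D.𝒯 A))
      (Submodule.inclusion_injective _)
  have : Module.Finite (ZMod p) ↥(D.shaOne A) := Module.Finite.of_finite
  have : Module.Finite (ZMod p) ↥(D.shaOne (B.dualTwist D.χ)) := Module.Finite.equiv E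
  rw [E.finrank_eq]
  exact fsha_finrank_of_pairing Bil hl hr

/-- **F-sha**, unconditional. -/
theorem stmtShaEq : StmtShaEq := stmtShaEq_of stmtGloFin

end Main

end Fermat.Agent.TW.F

end
end ZBPT_046_6

/-! ### bundled: `Fermat.Agent.PT.B.Final` -/
section ZBPT_046_7
/-
PT-B, FINAL WIRING: S55 (Poitou–Tate) from the three remaining campaign statements
`StmtGA`, `StmtGB` (PT-G3; shapes in PT/B/Plan4.lean) and `X.StmtExistTL` (PT-X).
Everything else (abstract theorem PT-F, local class field theory PT-L, the bridge PT-B,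
capitulation PT-X) is landed and proved.
-/

set_option autoImplicit false

namespace Fermat.Agent.PT.B

open Fermat.Agent.PT CategoryTheory groupCohomology ExtCitation

/-- the datum axiom `cm_glob` from (GA) -/
theorem stmtCmGlob_of_GA (hGA : StmtGA) : StmtCmGlob :=
  stmtCmGlob_of hGA stmtRamRel stmtCompare stmtFundPIso

/-- **S55 from (GA), (GB) and `ExistTL`.** -/
theorem s55_of_GA_GB (hGA : StmtGA) (hGB : StmtGB) (hTL : Fermat.Agent.PT.X.StmtExistTL)
    {p : ℕ} [Fact p.Prime] (hp2 : p ≠ 2) (S : Finset Nat.Primes) (hpS : pPrime p ∈ S)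
    (M : Rep (ZMod p) (AlgebraicClosure ℚ ≃ₐ[ℚ] AlgebraicClosure ℚ))
    [FiniteDimensional (ZMod p) M]
    (hsm : ∀ m : M, ∃ F : IntermediateField ℚ (AlgebraicClosure ℚ), FiniteDimensional ℚ F ∧
      ∀ s ∈ F.fixingSubgroup, M.ρ s m = m)
    (hMur : ∀ q : Nat.Primes, q ∉ S → ∀ A : ValuationSubring (AlgebraicClosure ℚ),
      A.LiesOverPrime (q : ℕ) → ∀ g ∈ A.inertiaSubgroupIn ℚ, M.ρ g = 1) :
    ∃ B : sha₁ S (M.dualTwist (cycloChar p)) →ₗ[ZMod p] sha₂ S M →ₗ[ZMod p] ZMod p,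
      (∀ y, (∀ x, B y x = 0) → y = 0) ∧ (∀ x, (∀ y, B y x = 0) → x = 0) :=
  s55_of Fermat.Agent.PT.F.stmtPTF (stmtCmGlob_of_GA hGA) stmtCmLoc stmtH90Loc
    (stmtExistC_of_GA hGA hTL) (stmtSurvC_of_GB hGB) hp2 S hpS M hsm hMur

end Fermat.Agent.PT.B


end ZBPT_046_7
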