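/- GENERATED FILE (helper35, build-time optimisation, NOTES/ZB.md): verbatim concatenation of the modules
   Fermat.Agent.PT.G3.GBH90Abs
   Fermat.Agent.PT.G3.GBH90Semi
   Fermat.Agent.PT.B.FinalWire
   Do not edit; do not import together with these modules. -/
import Mathlib
import Fermat.Agent.ZB.PT_078
import Fermat.Agent.ZB.PT_046
import Fermat.Agent.ZB.PT_050
import Fermat.Agent.ZB.PT_075
import Fermat.Agent.ZB.PT_066
import Fermat.Agent.ZB.PT_052
import Fermat.Agent.ZB.PT_023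

/-! ### bundled: `Fermat.Agent.PT.G3.GBH90Abs` -/
section ZBPT_084_0
/-
PT-GB / h90semi, part 1 (helper9): Noether's proof of Hilbert 90 for a finite-dimensional
commutative algebra `B` over an infinite field `K`, acted on by a finite group `H` through
`K`-algebra endomorphisms which are pairwise distinct modulo every maximal ideal.

`h90semi_abs`: every multiplicative 1-cocycle `f : H → Bˣ` is of the form `σ ↦ σ(β) / β`.
-/

set_option autoImplicit false

namespace Fermat.Agent.PT.G3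

/-- Dedekind independence modulo a maximal ideal: a sum `∑ τ, f τ * act τ c` with unit
coefficients cannot lie in a maximal ideal `t` for all `c`, if the `act τ` are pairwise distinct
modulo `t`. -/
theorem h90semi_dedekind {K B H : Type*} [Field K] [CommRing B] [Algebra K B]
    [Group H] [Fintype H] (act : H → (B →ₐ[K] B))
    (t : Ideal B) (ht : t.IsMaximal)
    (hdist : ∀ σ τ : H, σ ≠ τ → ∃ x : B, act σ x - act τ x ∉ t)
    (f : H → Bˣ) : ∃ c : B, (∑ τ : H, (f τ : B) * act τ c) ∉ t := by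
  classical
  by_contra hcon
  push Not at hcon
  have : t.IsPrime := ht.isPrime
  let χ : H → (B →* B ⧸ t) := fun τ =>
    ((Ideal.Quotient.mk t : B →+* B ⧸ t) : B →* B ⧸ t).comp ((act τ : B →ₐ[K] B) : B →* B)
  have hχ : Function.Injective χ := by
    intro σ τ h
    by_contra hne
    obtain ⟨x, hx⟩ := hdist σ τ hne
    apply hx
    have h1 : χ σ x = χ τ x := by rw [h]
    have h2 : (Ideal.Quotient.mk t) (act σ x) = (Ideal.Quotient.mk t) (act τ x) := h1
    rw [← Ideal.Quotient.eq_zero_iff_mem, map_sub, h2, sub_self]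
  have hli : LinearIndependent (B ⧸ t) (fun τ : H => (χ τ : B → B ⧸ t)) :=
    LinearIndependent.comp (linearIndependent_monoidHom B (B ⧸ t)) χ hχ
  have hzero : ∑ τ : H, (Ideal.Quotient.mk t (f τ : B)) • (χ τ : B → B ⧸ t) = 0 := by
    funext c
    rw [Finset.sum_apply]
    have := hcon c
    rw [← Ideal.Quotient.eq_zero_iff_mem, map_sum] at this
    simp only [Pi.smul_apply, smul_eq_mul, Pi.zero_apply]
    rw [← this]
    apply Finset.sum_congr rfl
    intro τ _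
    rw [map_mul]
    rfl
  have h1 := Fintype.linearIndependent_iff.1 hli _ hzero 1
  have h2 : (f 1 : B) ∈ t := Ideal.Quotient.eq_zero_iff_mem.1 h1
  exact ht.ne_top (Ideal.eq_top_of_isUnit_mem t h2 (f 1).isUnit)

/-- **Noether's Hilbert 90 for semilocal algebras.** -/
theorem h90semi_abs {K B H : Type*} [Field K] [Infinite K] [CommRing B] [Algebra K B]
    [Module.Finite K B] [Group H] [Finite H] (act : H → (B →ₐ[K] B))
    (hmul : ∀ (σ τ : H) (x : B), act (σ * τ) x = act σ (act τ x))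
    (hdist : ∀ (t : Ideal B), t.IsMaximal → ∀ σ τ : H, σ ≠ τ → ∃ x : B, act σ x - act τ x ∉ t)
    (f : H → Bˣ)
    (hf : ∀ σ τ : H, f (σ * τ) = Units.map ((act σ : B →ₐ[K] B) : B →* B) (f τ) * f σ) :
    ∃ β : Bˣ, ∀ σ : H, f σ = Units.map ((act σ : B →ₐ[K] B) : B →* B) β / β := by
  classical
  cases nonempty_fintype H
  let bsum : B →ₗ[K] B := ∑ τ : H, (LinearMap.mulLeft K (f τ : B)).comp (act τ).toLinearMap
  have hbsum : ∀ c, bsum c = ∑ τ : H, (f τ : B) * act τ c := by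
    intro c
    simp [bsum, LinearMap.sum_apply]
  have : IsArtinianRing B := IsArtinianRing.of_finite K B
  have : Finite (MaximalSpectrum B) := inferInstance
  let p : MaximalSpectrum B → Submodule K B := fun t =>
    LinearMap.ker ((Ideal.Quotient.mkₐ K t.asIdeal).toLinearMap.comp bsum)
  have hmem : ∀ (t : MaximalSpectrum B) (c : B), c ∈ p t ↔ bsum c ∈ t.asIdeal := by
    intro t c
    simp only [p, LinearMap.mem_ker, LinearMap.comp_apply, AlgHom.toLinearMap_apply,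
      Ideal.Quotient.mkₐ_eq_mk, Ideal.Quotient.eq_zero_iff_mem]
  have hp : ∀ t, p t ≠ ⊤ := by
    intro t htop
    obtain ⟨c, hc⟩ := h90semi_dedekind act t.asIdeal t.isMaximal (hdist t.asIdeal t.isMaximal) f
    apply hc
    rw [← hbsum, ← hmem, htop]
    trivial
  have hne : ⋃ t, (p t : Set B) ≠ Set.univ := fun h => by
    obtain ⟨t, ht⟩ := Subspace.exists_eq_top_of_iUnion_eq_univ h
    exact hp t ht
  obtain ⟨c, hc⟩ : ∃ c, c ∉ ⋃ t, (p t : Set B) := by
    by_contra hcon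
    push Not at hcon
    exact hne (Set.eq_univ_of_forall hcon)
  have hunit : IsUnit (bsum c) := by
    by_contra hnu
    obtain ⟨I, hI, hIm⟩ := exists_max_ideal_of_mem_nonunits hnu
    apply hc
    simp only [Set.mem_iUnion]
    exact ⟨⟨I, hI⟩, (hmem ⟨I, hI⟩ c).2 hIm⟩
  -- the key identity
  have hkey : ∀ σ : H, act σ (bsum c) * (f σ : B) = bsum c := by
    intro σ
    rw [hbsum, map_sum, Finset.sum_mul]
    rw [← Equiv.sum_comp (Equiv.mulLeft σ) (fun τ => (f τ : B) * act τ c)]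
    apply Finset.sum_congr rfl
    intro τ _
    have h1 : ((f (σ * τ) : Bˣ) : B) = act σ (f τ : B) * (f σ : B) := by
      rw [hf σ τ]
      rfl
    simp only [Equiv.coe_mulLeft]
    rw [h1, map_mul, hmul]
    ring
  refine ⟨hunit.unit⁻¹, fun σ => ?_⟩
  have hk' : Units.map ((act σ : B →ₐ[K] B) : B →* B) hunit.unit * f σ = hunit.unit := by
    apply Units.ext
    exact hkey σ
  have hgen : ∀ (M u x : Bˣ), M * x = u → x = M⁻¹ / u⁻¹ := by
    intro M u x h
    rw [← h, div_eq_mul_inv, inv_inv, inv_mul_cancel_left]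
  rw [map_inv]
  exact hgen _ _ _ hk'

end Fermat.Agent.PT.G3


end ZBPT_084_0

/-! ### bundled: `Fermat.Agent.PT.G3.GBH90Semi` -/
section ZBPT_084_1
/-
PT-GB / h90semi (helper9): Hilbert 90 for the semilocal algebra `ℚ_q ⊗ N`:
`H¹(H, (ℚ_q ⊗ N)ˣ) = 0` for every subgroup `H ≤ Aut(N)`.

Noether's proof, directly for the Galois algebra (`GBH90Abs.lean`): the ring homomorphisms
`π_t ∘ σ : ℚ_q ⊗ N → (ℚ_q ⊗ N)/t`, `σ ∈ Aut N`, are pairwise distinct for every maximal ideal `t`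
(`1 ⊗ (σ n - τ n)` is a unit), so Dedekind independence applies modulo each `t`, and a vector
space over the infinite field `ℚ_q` is not a finite union of proper subspaces.
-/

set_option autoImplicit false

namespace Fermat.Agent.PT.G3

open CategoryTheory groupCohomology NumberField
open Fermat.Agent.PT Fermat.Agent.PT.G Fermat.Agent.PT.G1
open scoped TensorProduct

/-- `1 ⊗ u` is a unit of `ℚ_q ⊗ N` for `u ≠ 0`. -/
lemma h90semi_isUnit_one_tmul (q : ℕ) [Fact q.Prime] (N : Type) [Field N] [NumberField N]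
    (u : N) (hu : u ≠ 0) : IsUnit ((1 : ℚ_[q]) ⊗ₜ[ℚ] u : semiAlg q N) := by
  refine ⟨⟨(1 : ℚ_[q]) ⊗ₜ[ℚ] u, (1 : ℚ_[q]) ⊗ₜ[ℚ] u⁻¹, ?_, ?_⟩, rfl⟩
  · rw [Algebra.TensorProduct.tmul_mul_tmul, mul_one, mul_inv_cancel₀ hu]
    rfl
  · rw [Algebra.TensorProduct.tmul_mul_tmul, mul_one, inv_mul_cancel₀ hu]
    rfl

/-- Distinct automorphisms of `N` are distinct modulo every maximal ideal of `ℚ_q ⊗ N`. -/
lemma h90semi_dist (q : ℕ) [Fact q.Prime] (N : Type) [Field N] [NumberField N]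
    (t : Ideal (semiAlg q N)) (ht : t.IsMaximal) (σ τ : N ≃ₐ[ℚ] N) (h : σ ≠ τ) :
    ∃ x : semiAlg q N, semiMap q σ x - semiMap q τ x ∉ t := by
  obtain ⟨n, hn⟩ : ∃ n, σ n ≠ τ n := by
    by_contra hcon
    push Not at hcon
    exact h (AlgEquiv.ext hcon)
  refine ⟨(1 : ℚ_[q]) ⊗ₜ[ℚ] n, fun hmem => ?_⟩
  have h1 : semiMap q σ ((1 : ℚ_[q]) ⊗ₜ[ℚ] n) - semiMap q τ ((1 : ℚ_[q]) ⊗ₜ[ℚ] n) =
      (1 : ℚ_[q]) ⊗ₜ[ℚ] (σ n - τ n) := by
    simp [semiMap, TensorProduct.tmul_sub]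
  rw [h1] at hmem
  exact ht.ne_top (Ideal.eq_top_of_isUnit_mem t hmem
    (h90semi_isUnit_one_tmul q N _ (sub_ne_zero.2 hn)))

/-- Multiplicative form: every 1-cocycle of `H ≤ Aut(N)` in `(ℚ_q ⊗ N)ˣ` is a coboundary. -/
theorem h90semi_mul (q : ℕ) [Fact q.Prime] (N : Type) [Field N] [NumberField N]
    (H : Subgroup (N ≃ₐ[ℚ] N)) (f : H → (semiAlg q N)ˣ)
    (hf : ∀ σ τ : H, f (σ * τ) =
      Units.map ((semiMap q (σ : N ≃ₐ[ℚ] N) : semiAlg q N →ₐ[ℚ_[q]] semiAlg q N) :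
        semiAlg q N →* semiAlg q N) (f τ) * f σ) :
    ∃ β : (semiAlg q N)ˣ, ∀ σ : H, f σ =
      Units.map ((semiMap q (σ : N ≃ₐ[ℚ] N) : semiAlg q N →ₐ[ℚ_[q]] semiAlg q N) :
        semiAlg q N →* semiAlg q N) β / β := by
  have hfin : Finite (N ≃ₐ[ℚ] N) := inferInstance
  have hfinH : Finite H := inferInstance
  have hmf : Module.Finite ℚ_[q] (semiAlg q N) := inferInstance
  exact h90semi_abs (K := ℚ_[q]) (B := semiAlg q N) (H := H)
    (fun σ => semiMap q (σ : N ≃ₐ[ℚ] N))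
    (fun σ τ x => semiMap_mul q (σ : N ≃ₐ[ℚ] N) (τ : N ≃ₐ[ℚ] N) x)
    (fun t ht σ τ hne => h90semi_dist q N t ht σ τ (fun h => hne (Subtype.ext h)))
    f hf

/-- **h90semi**: `H¹(H, (ℚ_q ⊗ N)ˣ) = 0` for every subgroup `H ≤ Aut(N)`. -/
theorem stmtH90Semi : StmtH90Semi := by
  intro q _ N _ _ H
  have key : ∀ a : H1 (Rep.res H.subtype (semiRep q N)), a = 0 := by
    intro a
    induction a using H1_induction_on with
    | h c =>
      rw [H1π_eq_zero_iff]
      have hc := (mem_cocycles₁_iff (c : H → (Rep.res H.subtype (semiRep q N)).V)).1 c.2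
      obtain ⟨β, hβ⟩ := h90semi_mul q N H (fun σ => Additive.toMul (c.1 σ))
        (fun σ τ => congrArg Additive.toMul (hc σ τ))
      refine ⟨Additive.ofMul β, ?_⟩
      funext g
      rw [d₀₁_hom_apply]
      exact (congrArg Additive.ofMul (hβ g)).symm
  exact ⟨fun a b => by rw [key a, key b]⟩

end Fermat.Agent.PT.G3


end ZBPT_084_1

/-! ### bundled: `Fermat.Agent.PT.B.FinalWire` -/
section ZBPT_084_2
/-
PT-B, FINAL WIRING (2): S55 (Poitou–Tate) from the single remaining PT-GB statement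
`G3.StmtSDShapiro`.  (GA) is `G3.stmtGA_B` (PT/G3/GAFinal.lean); (GB) is assembled here from
the landed PT-GB pieces (`G3.stmtGB_of`, PT/G3/GBFinal.lean).
-/

set_option autoImplicit false

namespace Fermat.Agent.PT.B

open Fermat.Agent.PT CategoryTheory groupCohomology ExtCitation

/-- (GB) from the Shapiro step of the semilocal computation; every other PT-GB piece is
landed. -/
theorem stmtGB_of_sdShapiro (hsh : Fermat.Agent.PT.G3.StmtSDShapiro) : StmtGB :=
  Fermat.Agent.PT.G3.stmtGB_of Fermat.Agent.PT.G3.stmtGBAsm' Fermat.Agent.PT.G3.stmtCycDec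
    Fermat.Agent.PT.G3.stmtPsiPGen Fermat.Agent.PT.G3.stmtPsiQNontriv
    Fermat.Agent.PT.G3.stmtCarryH
    (Fermat.Agent.PT.G3.stmtSemiCarryKill_of Fermat.Agent.PT.G3.stmtSDProj hsh)
    Fermat.Agent.PT.G3.stmtH90Semi Fermat.Agent.PT.G3.stmtGBInfJ
    (Fermat.Agent.PT.G3.stmtSemiCycOneOf
      (Fermat.Agent.PT.G3.stmtSemiCyc_of Fermat.Agent.PT.G3.stmtSDProj hsh
        (Fermat.Agent.PT.G3.stmtSDFund_of Fermat.Agent.PT.G3.stmtSDGalois)
        Fermat.Agent.PT.G3.stmtPCyclicOfFund))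
    (Fermat.Agent.PT.G3.stmtCarryNZ_of Fermat.Agent.PT.G3.stmtGBPsi)
    Fermat.Agent.PT.G3.stmtGBPsi

/-- **S55 from `StmtSDShapiro`.** -/
theorem s55_of_sdShapiro (hsh : Fermat.Agent.PT.G3.StmtSDShapiro)
    {p : ℕ} [Fact p.Prime] (hp2 : p ≠ 2) (S : Finset Nat.Primes) (hpS : pPrime p ∈ S)
    (M : Rep (ZMod p) (AlgebraicClosure ℚ ≃ₐ[ℚ] AlgebraicClosure ℚ))
    [FiniteDimensional (ZMod p) M]
    (hsm : ∀ m : M, ∃ F : IntermediateField ℚ (AlgebraicClosure ℚ), FiniteDimensional ℚ F ∧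
      ∀ s ∈ F.fixingSubgroup, M.ρ s m = m)
    (hMur : ∀ q : Nat.Primes, q ∉ S → ∀ A : ValuationSubring (AlgebraicClosure ℚ),
      A.LiesOverPrime (q : ℕ) → ∀ g ∈ A.inertiaSubgroupIn ℚ, M.ρ g = 1) :
    ∃ B : sha₁ S (M.dualTwist (cycloChar p)) →ₗ[ZMod p] sha₂ S M →ₗ[ZMod p] ZMod p,
      (∀ y, (∀ x, B y x = 0) → y = 0) ∧ (∀ x, (∀ y, B y x = 0) → x = 0) :=
  s55_of_GA_GB Fermat.Agent.PT.G3.stmtGA_B (stmtGB_of_sdShapiro hsh)
    Fermat.Agent.PT.X.stmtExistTL hp2 S hpS M hsm hMur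

end Fermat.Agent.PT.B


end ZBPT_084_2
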