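/- GENERATED FILE (helper35, build-time optimisation, NOTES/ZB.md): verbatim concatenation of the modules
   Fermat.Agent.TW.S.Line
   Fermat.Agent.TW.S.OrdRed
   Fermat.Agent.TW.S.OrdGlueFinal
   Fermat.Agent.TW.S.Ord
   Fermat.Agent.TW.S.SelCardFinal
   Fermat.Agent.TW.G.Wire.ChiSurj
   Fermat.Agent.TW.W.GBIrrStr
   Do not edit; do not import together with these modules. -/
import Fermat.Agent.ZB.TW_001
import Fermat.Agent.ZB.TW_016
import Fermat.Agent.ZB.TW_017
import Fermat.Agent.ZB.TW_009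
import Fermat.Agent.ZB.TW_018
import Fermat.Agent.ZB.TW_070
import Fermat.Agent.ZB.TW_010
import Fermat.Agent.ZB.TW_011

/-! ### bundled: `Fermat.Agent.TW.S.Line` -/
section ZBTW_020_0
/-
TW-S piece S-line (helper35): the ordinary line of `ρ̄` at `p` is unique when `det ρ̄` is
cyclotomic (`p` odd).

`stmtLine_of : StmtCycloRam → StmtLine` and `stmtLine : StmtLine`.

Proof.  Two different lines `L₁ ≠ L₂` of `V̄` meet in `0`.  For `σ` in the inertia group of
`padicPlace p` and all `v`: `ρ̄(σ) v - v ∈ L₁ ∩ L₂ = 0`, so `ρ̄(σ) = 1` and `det ρ̄(σ) = 1`.  Since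
`det ρ̄` is cyclotomic and `p = 0` in `k`, `χ̄(σ) = 1` for every such `σ`, against S-cycram.
-/

set_option autoImplicit false

namespace Fermat.Agent.TW.S

open ExtCitation Fermat.Agent.PT Fermat.Agent.PT.B Fermat.Agent.TW.L

/-- Two submodules of dimension `1` of a vector space, one contained in the other, are equal. -/
theorem sline_eq_of_le {k V : Type*} [Field k] [AddCommGroup V] [Module k V]
    [FiniteDimensional k V] {L₁ L₂ : Submodule k V} (h₁ : Module.finrank k L₁ = 1)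
    (h₂ : Module.finrank k L₂ = 1) (hle : L₁ ≤ L₂) : L₁ = L₂ :=
  Submodule.eq_of_le_of_finrank_eq hle (h₁.trans h₂.symm)

/-- Two different lines meet in `0`. -/
theorem sline_inf_eq_bot {k V : Type*} [Field k] [AddCommGroup V] [Module k V]
    [FiniteDimensional k V] {L₁ L₂ : Submodule k V} (h₁ : Module.finrank k L₁ = 1)
    (h₂ : Module.finrank k L₂ = 1) (hne : L₁ ≠ L₂) : L₁ ⊓ L₂ = ⊥ := by
  by_contra hbot
  have hpos : 0 < Module.finrank k ↥(L₁ ⊓ L₂) := by
    rw [Module.finrank_pos_iff, Submodule.nontrivial_iff_ne_bot]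
    exact hbot
  have hle1 : Module.finrank k ↥(L₁ ⊓ L₂) ≤ 1 := by
    rw [← h₁]
    exact Submodule.finrank_mono inf_le_left
  have h1 : Module.finrank k ↥(L₁ ⊓ L₂) = 1 := le_antisymm hle1 hpos
  have e1 : L₁ ⊓ L₂ = L₁ := sline_eq_of_le h1 h₁ inf_le_left
  have e2 : L₁ ⊓ L₂ = L₂ := sline_eq_of_le h1 h₂ inf_le_right
  exact hne (e1.symm.trans e2)

/-- The action of `σ` on the `p`-th roots of unity is the `χ̄(σ)`-th power. -/
theorem sline_cycloChar_spec (p : ℕ) [Fact p.Prime] (σ : GQ) (μ : AlgebraicClosure ℚ)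
    (hμ : μ ^ p = 1) : σ μ = μ ^ ((cycloChar p σ : (ZMod p)ˣ) : ZMod p).val := by
  have hp : p.Prime := Fact.out
  have : NeZero p := ⟨hp.ne_zero⟩
  have hμ0 : μ ≠ 0 := by
    rintro rfl
    rw [zero_pow hp.ne_zero] at hμ
    exact zero_ne_one hμ
  set t : (AlgebraicClosure ℚ)ˣ := Units.mk0 μ hμ0 with ht
  have htmem : t ∈ rootsOfUnity p (AlgebraicClosure ℚ) := by
    rw [mem_rootsOfUnity]
    ext
    simpa [ht] using hμ
  have h := modularCyclotomicCharacter.spec (AlgebraicClosure ℚ) (card_rootsOfUnity_eq_self p)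
    (σ : AlgebraicClosure ℚ ≃+* AlgebraicClosure ℚ) htmem
  simpa [ht, cycloChar] using h

/-- If `det ρ̄` is cyclotomic, then `χ̄(σ) = 1` as soon as `ρ̄(σ) = 1`. -/
theorem sline_cycloChar_eq_one (p : ℕ) [Fact p.Prime] (k : Type) [Field k] [CharP k p]
    (ρbar : ResidualGaloisRep k)
    (hdet : (GaloisRepAdic.ofResidualGaloisRep ρbar).DetIsCyclotomic p) (σ : GQ)
    (hσ : ρbar.ρ σ = 1) : cycloChar p σ = 1 := by
  have hp : p.Prime := Fact.out
  have : NeZero p := ⟨hp.ne_zero⟩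
  set a : ℕ := ((cycloChar p σ : (ZMod p)ˣ) : ZMod p).val with ha
  have h1 := hdet.2 1 σ a (fun μ hμ => by
    rw [pow_one] at hμ
    exact sline_cycloChar_spec p σ μ hμ)
  have hρ : (GaloisRepAdic.ofResidualGaloisRep ρbar).ρ σ = 1 := hσ
  rw [hρ, map_one, pow_one, CharP.cast_eq_zero k p,
    Ideal.mem_span_singleton, zero_dvd_iff, sub_eq_zero] at h1
  -- `(a : k) = 1`, so `a ≡ 1 mod p`
  have h2 : ((a : ℕ) : k) = ((1 : ℕ) : k) := by rw [← h1, Nat.cast_one]
  have h3 : ((a : ℕ) : ZMod p) = ((1 : ℕ) : ZMod p) := by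
    rw [ZMod.natCast_eq_natCast_iff]
    exact (CharP.natCast_eq_natCast k p).mp h2
  apply Units.ext
  rw [Units.val_one, ← ZMod.natCast_zmod_val ((cycloChar p σ : (ZMod p)ˣ) : ZMod p), ← ha, h3,
    Nat.cast_one]

/-- **S-line** from S-cycram. -/
theorem stmtLine_of (hcyc : StmtCycloRam) : StmtLine := by
  intro p _ hp2 k _ _ ρbar hdet L₁ L₂ h₁ h₂
  by_contra hne
  have : Module.Finite k ρbar.V := Module.finite_of_finrank_eq_succ ρbar.finrank_eq
  have hbot : L₁ ⊓ L₂ = ⊥ := sline_inf_eq_bot h₁.1 h₂.1 hne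
  obtain ⟨σ, hσI, hσ⟩ := hcyc p hp2
  apply hσ
  apply sline_cycloChar_eq_one p k ρbar hdet σ
  apply LinearMap.ext
  intro v
  have hv : ρbar.ρ σ v - v ∈ L₁ ⊓ L₂ := ⟨h₁.2.2 σ hσI v, h₂.2.2 σ hσI v⟩
  rw [hbot, Submodule.mem_bot, sub_eq_zero] at hv
  rw [hv, Module.End.one_apply]

/-- **S-line**. -/
theorem stmtLine : StmtLine := stmtLine_of stmtCycloRam

end Fermat.Agent.TW.S


end ZBTW_020_0

/-! ### bundled: `Fermat.Agent.TW.S.OrdRed` -/
section ZBTW_020_1
/-
TW-S, piece S-ord / O2 (helper22): the ordinary line of a strictly ordinary deformation `ρ` of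
`ρ̄` to `k[ε]` reduces modulo `ε` to THE ordinary line `L̄` of `ρ̄`.

* `sordRed D w = Σ (w i).fst • D.b i` : reduction modulo `ε` of coordinates, read in the basis
  `D.b` of `V̄`;
* `sordRed_add`, `sordRed_sub`, `sordRed_smul`, `sordRed_mulVec`, `sordRed_liftMat`,
  `sordRed_surjective`, `sordRed_eq_zero_iff`;
* `sord_det_residual` : `det ρ` cyclotomic ⇒ `det ρ̄` cyclotomic;
* `sord_red_line`     : the reduction of an ordinary line of `ρ` is an ordinary line of `ρ̄`;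
* `sord_red`          : for ANY `e` conjugating `ρ` to `(1 + εc)ρ̄` and ANY ordinary line
  `L = A ∙ b 0` of `ρ` at `padicPlace p`: `sordRed D (e (b 0)) ≠ 0` and `∈ L̄`.
-/

set_option autoImplicit false
set_option linter.unusedSectionVars false
set_option linter.unusedVariables false
set_option linter.style.haveILetI false

noncomputable section

namespace Fermat.Agent.TW.S

open CategoryTheory groupCohomology IsLocalRing
open Fermat.Agent.PT Fermat.Agent.PT.B Fermat.Agent.S53 Fermat.Agent.TW.L ExtCitation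

section Red

variable {𝒪 : Type} [CommRing 𝒪] [IsLocalRing 𝒪]
  {ρbar : ResidualGaloisRep (ResidueField 𝒪)} (D : RigidDatum 𝒪 ρbar)

/-- Reduction modulo `ε` of coordinates, read in the basis `D.b` of `V̄`. -/
def sordRed (w : Fin 2 → DualNumber (ResidueField 𝒪)) : ρbar.V :=
  ∑ i, (w i).fst • D.b i

lemma sordRed_eq (w : Fin 2 → DualNumber (ResidueField 𝒪)) :
    sordRed D w = D.b.equivFun.symm (fun i => (w i).fst) := by
  rw [Module.Basis.equivFun_symm_apply]
  rfl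

lemma sordRed_add (w w' : Fin 2 → DualNumber (ResidueField 𝒪)) :
    sordRed D (w + w') = sordRed D w + sordRed D w' := by
  simp only [sordRed, Pi.add_apply, TrivSqZeroExt.fst_add, add_smul, Finset.sum_add_distrib]

lemma sordRed_zero : sordRed D (0 : Fin 2 → DualNumber (ResidueField 𝒪)) = 0 := by
  simp only [sordRed, Pi.zero_apply, TrivSqZeroExt.fst_zero, zero_smul, Finset.sum_const_zero]

lemma sordRed_smul (a : DualNumber (ResidueField 𝒪)) (w : Fin 2 → DualNumber (ResidueField 𝒪)) :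
    sordRed D (a • w) = a.fst • sordRed D w := by
  simp only [sordRed, Pi.smul_apply, smul_eq_mul, TrivSqZeroExt.fst_mul, Finset.smul_sum,
    mul_smul]

lemma sordRed_neg (w : Fin 2 → DualNumber (ResidueField 𝒪)) :
    sordRed D (-w) = - sordRed D w := by
  simp only [sordRed, Pi.neg_apply, TrivSqZeroExt.fst_neg, neg_smul, Finset.sum_neg_distrib]

lemma sordRed_sub (w w' : Fin 2 → DualNumber (ResidueField 𝒪)) :
    sordRed D (w - w') = sordRed D w - sordRed D w' := by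
  rw [sub_eq_add_neg, sordRed_add, sordRed_neg, ← sub_eq_add_neg]

lemma sordRed_eq_zero_iff (w : Fin 2 → DualNumber (ResidueField 𝒪)) :
    sordRed D w = 0 ↔ ∀ i, (w i).fst = 0 := by
  rw [sordRed_eq, LinearEquiv.map_eq_zero_iff]
  constructor
  · intro h i
    exact congrFun h i
  · intro h
    funext i
    exact h i

lemma sordRed_surjective (v : ρbar.V) :
    ∃ w : Fin 2 → DualNumber (ResidueField 𝒪), sordRed D w = v := by
  refine ⟨fun i => TrivSqZeroExt.inl (D.b.equivFun v i), ?_⟩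
  rw [sordRed_eq]
  simp only [TrivSqZeroExt.fst_inl]
  exact D.b.equivFun.symm_apply_apply v

/-- Reduction commutes with matrices. -/
lemma sordRed_mulVec (M : M2 (DualNumber (ResidueField 𝒪)))
    (w : Fin 2 → DualNumber (ResidueField 𝒪)) :
    sordRed D (M.mulVec w) = Matrix.toLin D.b D.b (dnFst M) (sordRed D w) := by
  rw [Matrix.toLin_apply, sordRed_eq D w]
  have h1 : ∀ j, D.b.repr (D.b.equivFun.symm (fun i => (w i).fst)) j = (w j).fst := by
    intro j
    have := congrFun (D.b.equivFun.apply_symm_apply (fun i => (w i).fst)) j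
    simpa [Module.Basis.equivFun_apply] using this
  unfold sordRed
  refine Finset.sum_congr rfl (fun i _ => ?_)
  congr 1
  simp only [Matrix.mulVec, dotProduct, TrivSqZeroExt.fst_sum, TrivSqZeroExt.fst_mul,
    dnFst_apply, h1]

end Red

section Lift

variable {𝒪 : Type} [CommRing 𝒪] [IsLocalRing 𝒪] (p : ℕ) [Fact p.Prime]
  [CharP (ResidueField 𝒪) p] {ρbar : ResidualGaloisRep (ResidueField 𝒪)}
  (D : RigidDatum 𝒪 ρbar)

/-- Reduction intertwines `(1 + εc)ρ̄` and `ρ̄`. -/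
lemma sordRed_liftMat (c : GQ → (adRep p ρbar).V) (σ : GQ)
    (w : Fin 2 → DualNumber (ResidueField 𝒪)) :
    sordRed D ((liftMat p D c σ).mulVec w) = ρbar.ρ σ (sordRed D w) := by
  rw [sordRed_mulVec, dnFst_liftMat, D.ρm_eq σ, Matrix.toLin_toMatrix]

/-- `ε ≠ 0`. -/
lemma sord_eps_ne_zero : (TrivSqZeroExt.inr 1 : DualNumber (ResidueField 𝒪)) ≠ 0 := by
  intro h
  have := congrArg TrivSqZeroExt.snd h
  rw [TrivSqZeroExt.snd_inr, TrivSqZeroExt.snd_zero] at this
  exact one_ne_zero this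

/-- `det ρ` cyclotomic ⇒ `det ρ̄` cyclotomic. -/
theorem sord_det_residual (ρ : GaloisRepAdic (DualNumber (ResidueField 𝒪)))
    (c : GQ → (adRep p ρbar).V) (hdet : ρ.DetIsCyclotomic p)
    (hdetρ : ∀ σ : GQ, LinearMap.det (ρ.ρ σ) = (liftMat p D c σ).det) :
    (GaloisRepAdic.ofResidualGaloisRep ρbar).DetIsCyclotomic p := by
  have hp0 : ((p : ℕ) : ResidueField 𝒪) = 0 := CharP.cast_eq_zero _ p
  refine ⟨?_, fun n σ a ha => ?_⟩
  · rw [hp0]
    exact Ideal.zero_mem _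
  · have h1 := hdet.2 n σ a ha
    rw [Ideal.mem_span_singleton] at h1 ⊢
    obtain ⟨t, ht⟩ := h1
    refine ⟨t.fst, ?_⟩
    have h2 := congrArg TrivSqZeroExt.fst ht
    rw [TrivSqZeroExt.fst_sub, TrivSqZeroExt.fst_mul, TrivSqZeroExt.fst_natCast,
      TrivSqZeroExt.fst_natCast, hdetρ σ] at h2
    have h3 : ((liftMat p D c σ).det).fst = LinearMap.det (ρbar.ρ σ) := by
      have e1 := RingHom.map_det
        (TrivSqZeroExt.fstHom (ResidueField 𝒪) (ResidueField 𝒪) (ResidueField 𝒪)).toRingHom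
        (liftMat p D c σ)
      have e2 : (TrivSqZeroExt.fstHom (ResidueField 𝒪) (ResidueField 𝒪)
          (ResidueField 𝒪)).toRingHom.mapMatrix (liftMat p D c σ) = D.ρm σ :=
        dnFst_liftMat p D c σ
      rw [e2] at e1
      have e3 : ((liftMat p D c σ).det).fst = (D.ρm σ).det := e1
      rw [e3, D.ρm_eq σ, LinearMap.det_toMatrix]
    rw [h3] at h2
    exact h2

end Lift

section Line

variable {k : Type} [Field k] {A : Type} [CommRing A]
  {M : Type} [AddCommGroup M] [Module A M] {V : Type} [AddCommGroup V] [Module k V]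
  {G : Type}

/-- Abstract form: a semilinear surjection `π : M → V` over `φ : A → k`, equivariant, maps an
ordinary line `A ∙ m₀` with `π m₀ ≠ 0` onto an ordinary line. -/
theorem sord_red_line_abs (φ : A → k) (π : M → V)
    (hadd : ∀ x y, π (x - y) = π x - π y) (hsmul : ∀ (a : A) (x : M), π (a • x) = φ a • π x)
    (hsurj : Function.Surjective π)
    (r : G → M →ₗ[A] M) (rb : G → V →ₗ[k] V) (heq : ∀ σ x, π (r σ x) = rb σ (π x))
    (DD II : Set G) (L : Submodule A M) (m₀ : M) (hL : L = A ∙ m₀) (hm₀ : π m₀ ≠ 0)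
    (hD : ∀ σ ∈ DD, ∀ v ∈ L, r σ v ∈ L)
    (hI : ∀ σ ∈ II, ∀ v : M, r σ v - v ∈ L) :
    Module.finrank k (k ∙ π m₀) = 1 ∧
      (∀ σ ∈ DD, ∀ v ∈ k ∙ π m₀, rb σ v ∈ k ∙ π m₀) ∧
      (∀ σ ∈ II, ∀ v : V, rb σ v - v ∈ k ∙ π m₀) := by
  have hLπ : ∀ x ∈ L, π x ∈ k ∙ π m₀ := by
    intro x hx
    rw [hL, Submodule.mem_span_singleton] at hx
    obtain ⟨a, rfl⟩ := hx
    rw [hsmul]
    exact Submodule.smul_mem _ _ (Submodule.mem_span_singleton_self _)
  refine ⟨finrank_span_singleton hm₀, ?_, ?_⟩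
  · intro σ hσ v hv
    rw [Submodule.mem_span_singleton] at hv
    obtain ⟨t, rfl⟩ := hv
    rw [map_smul]
    refine Submodule.smul_mem _ _ ?_
    rw [← heq]
    exact hLπ _ (hD σ hσ m₀ (by rw [hL]; exact Submodule.mem_span_singleton_self _))
  · intro σ hσ v
    obtain ⟨x, rfl⟩ := hsurj v
    rw [← heq, ← hadd]
    exact hLπ _ (hI σ hσ x)

end Line

/-- **S-ord / O2**: for any `e` conjugating `ρ` to its matrix form `(1 + εc)ρ̄` and any ordinary
line `L = A ∙ b 0` of `ρ` at `padicPlace p`, the reduction modulo `ε` of the coordinates of the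
generator is a nonzero vector of THE ordinary line `L̄` of `ρ̄`. -/
theorem sord_red (𝒪 : Type) [CommRing 𝒪] [IsLocalRing 𝒪] (p : ℕ) [Fact p.Prime]
    [CharP (ResidueField 𝒪) p] (ρbar : ResidualGaloisRep (ResidueField 𝒪))
    (D : RigidDatum 𝒪 ρbar) (ρ : GaloisRepAdic (DualNumber (ResidueField 𝒪)))
    (c : GQ → (adRep p ρbar).V) (Lbar : Submodule (ResidueField 𝒪) ρbar.V)
    (hp2 : p ≠ 2) (hdet : ρ.DetIsCyclotomic p) (hLbar : IsOrdLine p ρbar Lbar)
    (e : ρ.V ≃ₗ[DualNumber (ResidueField 𝒪)] (Fin 2 → DualNumber (ResidueField 𝒪)))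
    (he : ∀ σ : GQ, ρ.ρ σ = e.symm.conj (Matrix.toLin' (liftMat p D c σ)))
    (L : Submodule (DualNumber (ResidueField 𝒪)) ρ.V)
    (b : Module.Basis (Fin 2) (DualNumber (ResidueField 𝒪)) ρ.V)
    (hL : L = DualNumber (ResidueField 𝒪) ∙ b 0)
    (hD : ∀ σ ∈ (padicPlace p).decompositionSubgroup ℚ, ∀ v ∈ L, ρ.ρ σ v ∈ L)
    (hI : ∀ σ ∈ (padicPlace p).inertiaSubgroupIn ℚ, ∀ v : ρ.V, ρ.ρ σ v - v ∈ L) :
    sordRed D (e (b 0)) ≠ 0 ∧ sordRed D (e (b 0)) ∈ Lbar := by
  -- equivariance of `e`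
  have hee : ∀ (σ : GQ) (x : ρ.V), e (ρ.ρ σ x) = (liftMat p D c σ).mulVec (e x) := by
    intro σ x
    rw [he σ, LinearEquiv.conj_apply_apply, LinearEquiv.symm_symm, LinearEquiv.apply_symm_apply,
      Matrix.toLin'_apply]
  -- the determinant
  have hdetρ : ∀ σ : GQ, LinearMap.det (ρ.ρ σ) = (liftMat p D c σ).det := by
    intro σ
    rw [he σ, LinearEquiv.conj_apply, LinearMap.comp_assoc, LinearMap.det_conj,
      LinearMap.det_toLin']
  have hdetbar := sord_det_residual p D ρ c hdet hdetρ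
  -- the generator reduces to a nonzero vector
  have hne : sordRed D (e (b 0)) ≠ 0 := by
    intro h0
    rw [sordRed_eq_zero_iff] at h0
    have h1 : (TrivSqZeroExt.inr 1 : DualNumber (ResidueField 𝒪)) • e (b 0) = 0 := by
      funext i
      rw [Pi.smul_apply, smul_eq_mul, Pi.zero_apply]
      apply TrivSqZeroExt.ext
      · rw [TrivSqZeroExt.fst_mul, TrivSqZeroExt.fst_inr, zero_mul, TrivSqZeroExt.fst_zero]
      · rw [TrivSqZeroExt.snd_mul, TrivSqZeroExt.fst_inr, h0 i, TrivSqZeroExt.snd_zero]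
        simp
    rw [← map_smul, LinearEquiv.map_eq_zero_iff] at h1
    have h2 := congrArg (fun x => b.repr x 0) h1
    simp only [map_smul, Module.Basis.repr_self, Finsupp.smul_single, smul_eq_mul, mul_one,
      Finsupp.single_eq_same, map_zero, Finsupp.coe_zero, Pi.zero_apply] at h2
    exact sord_eps_ne_zero h2
  -- the reduced line is ordinary
  obtain ⟨h1, h2, h3⟩ := sord_red_line_abs (k := ResidueField 𝒪)
    (fun a : DualNumber (ResidueField 𝒪) => a.fst) (fun x : ρ.V => sordRed D (e x))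
    (fun x y => by
      show sordRed D (e (x - y)) = sordRed D (e x) - sordRed D (e y)
      rw [map_sub, sordRed_sub])
    (fun a x => by
      show sordRed D (e (a • x)) = a.fst • sordRed D (e x)
      rw [map_smul, sordRed_smul])
    (fun v => by
      obtain ⟨w, hw⟩ := sordRed_surjective D v
      refine ⟨e.symm w, ?_⟩
      show sordRed D (e (e.symm w)) = v
      rw [LinearEquiv.apply_symm_apply, hw])
    (fun σ => ρ.ρ σ) (fun σ => ρbar.ρ σ)
    (fun σ x => by
      show sordRed D (e (ρ.ρ σ x)) = ρbar.ρ σ (sordRed D (e x))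
      rw [hee, sordRed_liftMat])
    ((padicPlace p).decompositionSubgroup ℚ : Set GQ)
    ((padicPlace p).inertiaSubgroupIn ℚ : Set GQ) L (b 0) hL hne hD hI
  have hline : IsOrdLine p ρbar ((ResidueField 𝒪) ∙ sordRed D (e (b 0))) := ⟨h1, h2, h3⟩
  have heq := stmtLine p hp2 (ResidueField 𝒪) ρbar hdetbar _ _ hline hLbar
  exact ⟨hne, heq ▸ Submodule.mem_span_singleton_self _⟩

end Fermat.Agent.TW.S

end


end ZBTW_020_1

/-! ### bundled: `Fermat.Agent.TW.S.OrdGlueFinal` -/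
section ZBTW_020_2
/-
TW-S / S-ord, GLUE (helper48): the unconditional `stmtOrdRed : StmtOrdRed`
(O1 `stmtOrdScalar` + O2 `sord_red` + `stmtOrdRed_of`).
-/

set_option autoImplicit false

noncomputable section

namespace Fermat.Agent.TW.S

open CategoryTheory groupCohomology IsLocalRing
open Fermat.Agent.PT Fermat.Agent.PT.B Fermat.Agent.S53 Fermat.Agent.TW.L ExtCitation

/-- **O1** in the shape of `OrdPlan.lean`. -/
theorem stmtOrdScalar' : StmtOrdScalar :=
  fun _ _ p _ _ hp2 ρ hdet hord => stmtOrdScalar p hp2 ρ hdet hord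

/-- **GLUE of S-ord**, unconditional. -/
theorem stmtOrdRed : StmtOrdRed :=
  stmtOrdRed_of stmtOrdScalar'
    (fun 𝒪 _ _ p _ _ ρbar D ρ c Lbar hp2 hdet hLbar e he L b hL hD hI =>
      sord_red 𝒪 p ρbar D ρ c Lbar hp2 hdet hLbar e he L b hL hD hI)

end Fermat.Agent.TW.S

end


end ZBTW_020_2

/-! ### bundled: `Fermat.Agent.TW.S.Ord` -/
section ZBTW_020_3

/-!
# TW-S / S-ord: the final statement

`stmtOrd : StmtOrd`, unconditional: O1 (`stmtOrdScalar`, helper48) + O2 (`sord_red`, helper22) +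
glue (`stmtOrdRed`, helper48) + O3/O4 (`stmtOrd_of_red`, helper24).
-/

set_option autoImplicit false

namespace Fermat.Agent.TW.S

/-- **S-ord.** -/
theorem stmtOrd : StmtOrd := stmtOrd_of_red stmtOrdRed

end Fermat.Agent.TW.S


end ZBTW_020_3

/-! ### bundled: `Fermat.Agent.TW.S.SelCardFinal` -/
section ZBTW_020_4
/-
TW-S, FINAL (helper54): the two counting statements of TW-S, unconditional.
Import this file to use TW-S.

  `stmtSelCardOrd  : StmtSelCardOrd`   (S-asm + S-ord `stmtOrd`)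
  `stmtSelCardFlat : StmtSelCardFlat`  (TW/S/SelCard.lean)
-/

set_option autoImplicit false

namespace Fermat.Agent.TW.S

/-- **S-asm (ord)**, unconditional. -/
theorem stmtSelCardOrd : StmtSelCardOrd := stmtSelCardOrd_of stmtOrd

end Fermat.Agent.TW.S


end ZBTW_020_4

/-! ### bundled: `Fermat.Agent.TW.G.Wire.ChiSurj` -/
section ZBTW_020_5
/-
TW-G / G-wire, piece W1b (helper88): the mod `p` cyclotomic character `G_ℚ → (ℤ/p)ˣ` is
surjective.

`Gal(ℚ(ζ_p)/ℚ) ≃ (ℤ/p)ˣ` (irreducibility of the cyclotomic polynomial over `ℚ`, Mathlib's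
`IsCyclotomicExtension.Rat.galEquivZMod`), and every automorphism of `ℚ(ζ_p)` extends to `ℚ̄`
(`AlgEquiv.liftNormal`).

`stmtWChiSurj : StmtWChiSurj`.
-/

set_option autoImplicit false

noncomputable section

namespace Fermat.Agent.TW.G.Wire

open Fermat.Agent.PT Fermat.Agent.PT.B ExtCitation IntermediateField Fermat.Agent.TW.S

/-- `ℚ̄ / ℚ` is normal (for the instance of `Algebra ℚ ℚ̄` found by unification) -/
theorem gwc_qbar_normal : Normal ℚ (AlgebraicClosure ℚ) := by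
  have h1 : @Normal ℚ (AlgebraicClosure ℚ) _ _ (AlgebraicClosure.instAlgebra ℚ) := inferInstance
  convert h1
  exact Subsingleton.elim _ _

/-- every `u ∈ (ℤ/p)ˣ` is realised on a primitive `p`-th root of unity by an element of `G_ℚ` -/
theorem gwc_exists (p : ℕ) [NeZero p] {ζ : AlgebraicClosure ℚ} (hζ : IsPrimitiveRoot ζ p)
    (u : (ZMod p)ˣ) : ∃ σ : GQ, σ ζ = ζ ^ (u : ZMod p).val := by
  have hnorm : Normal ℚ (AlgebraicClosure ℚ) := gwc_qbar_normal
  have hint : Algebra.IsIntegral ℚ (AlgebraicClosure ℚ) := inferInstance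
  have hcyc : IsCyclotomicExtension {p} ℚ ℚ⟮ζ⟯ :=
    hζ.intermediateField_adjoin_isCyclotomicExtension ℚ
  have : NumberField ℚ⟮ζ⟯ := IsCyclotomicExtension.numberField {p} ℚ _
  let τ : ℚ⟮ζ⟯ ≃ₐ[ℚ] ℚ⟮ζ⟯ := (IsCyclotomicExtension.Rat.galEquivZMod p ℚ⟮ζ⟯).symm u
  have hτ : IsCyclotomicExtension.Rat.galEquivZMod p ℚ⟮ζ⟯ τ = u :=
    MulEquiv.apply_symm_apply _ u
  let z : ℚ⟮ζ⟯ := ⟨ζ, mem_adjoin_simple_self ℚ ζ⟩
  have hz : z ^ p = 1 := Subtype.ext (by
    show ζ ^ p = 1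
    exact hζ.pow_eq_one)
  have h1 := IsCyclotomicExtension.Rat.galEquivZMod_apply_of_pow_eq p ℚ⟮ζ⟯ τ hz
  rw [hτ] at h1
  refine ⟨τ.liftNormal (AlgebraicClosure ℚ), ?_⟩
  have h2 := AlgEquiv.liftNormal_commutes τ (AlgebraicClosure ℚ) z
  have h3 : algebraMap ℚ⟮ζ⟯ (AlgebraicClosure ℚ) z = ζ := rfl
  rw [h3, h1] at h2
  rw [h2]
  rfl

/-- **W1b** -/
theorem stmtWChiSurj : StmtWChiSurj := by
  intro p _ u
  have hp : p.Prime := Fact.out
  have : NeZero p := ⟨hp.ne_zero⟩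
  obtain ⟨ζ, hζ⟩ := HasEnoughRootsOfUnity.exists_primitiveRoot (AlgebraicClosure ℚ) p
  obtain ⟨σ, hσ⟩ := gwc_exists p hζ u
  refine ⟨σ, ?_⟩
  have h3 := sline_cycloChar_spec p σ ζ hζ.pow_eq_one
  apply Units.ext
  apply ZMod.val_injective p
  exact hζ.pow_inj (ZMod.val_lt _) (ZMod.val_lt _) (h3.symm.trans hσ)

end Fermat.Agent.TW.G.Wire

end


end ZBTW_020_5

/-! ### bundled: `Fermat.Agent.TW.W.GBIrrStr` -/
section ZBTW_020_6
/-
TW-W / IRR-STR (helper48): `stmtGBIrrStr : StmtGBIrrStr` (interface `TW/W/GBPlan.lean`).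

`ρ̄|_{G_p}` irreducible, `det ρ̄ = ω`, split characteristic polynomials, `p` odd.  Then
* wild inertia acts trivially and inertia acts through a cyclic group generated by `g = ρ̄(t)`
  of order prime to `p`, `ρ̄(φ) g ρ̄(φ)⁻¹ = g ^ p` (`wgis_global_theta`, `wgis_abstract`);
* `g` has two eigenlines with eigenvalues `α ≠ β = α ^ p`, swapped by `ρ̄(φ)`;
* `ρ̄(G_p)` is monomial, of exponent `2 (|k| - 1)`: the field cut out by `ρ̄|_{G_p}` and `ω` is good;
* `H⁰(G_p, ad⁰ ρ̄) = 0`.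
-/

set_option autoImplicit false
set_option linter.style.haveILetI false
set_option linter.unusedSectionVars false

noncomputable section

namespace Fermat.Agent.TW.W

open CategoryTheory groupCohomology Polynomial
open Fermat.Agent.PT Fermat.Agent.PT.B Fermat.Agent.TW.L Fermat.Agent.TW.S ExtCitation

section Aux

variable {k : Type*} [Field k] {V : Type*} [AddCommGroup V] [Module k V]

/-- the determinant of a diagonal endomorphism -/
theorem wgis_det_diag [Module.Finite k V] (hfr : Module.finrank k V = 2) {v₁ v₂ : V}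
    (hli : LinearIndependent k ![v₁, v₂]) {x : Module.End k V} {a d : k} (h₁ : x v₁ = a • v₁)
    (h₂ : x v₂ = d • v₂) : LinearMap.det x = a * d := by
  have hcard : Fintype.card (Fin 2) = Module.finrank k V := by rw [hfr]; rfl
  let bs := basisOfLinearIndependentOfCardEqFinrank hli hcard
  have hb0 : bs 0 = v₁ := by simp [bs]
  have hb1 : bs 1 = v₂ := by simp [bs]
  rw [← LinearMap.det_toMatrix bs, Matrix.det_fin_two, LinearMap.toMatrix_apply,
    LinearMap.toMatrix_apply, LinearMap.toMatrix_apply, LinearMap.toMatrix_apply, hb0, hb1, h₁,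
    h₂, ← hb0, ← hb1]
  simp

end Aux

/-- `det ρ̄ = ω` in `k`. -/
theorem wgis_det_eq {k : Type} [Field k] (p : ℕ) [Fact p.Prime] [CharP k p] [Algebra (ZMod p) k]
    (ρbar : ResidualGaloisRep k)
    (hdet : (GaloisRepAdic.ofResidualGaloisRep ρbar).DetIsCyclotomic p) (σ : GQ) :
    LinearMap.det (ρbar.ρ σ) =
      algebraMap (ZMod p) k ((cycloChar p σ : (ZMod p)ˣ) : ZMod p) := by
  have hp : p.Prime := Fact.out
  haveI : NeZero p := ⟨hp.ne_zero⟩
  have h1 := hdet.2 1 σ ((cycloChar p σ : (ZMod p)ˣ) : ZMod p).val (fun μ hμ => by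
    rw [pow_one] at hμ
    exact sline_cycloChar_spec p σ μ hμ)
  have hρ : (GaloisRepAdic.ofResidualGaloisRep ρbar).ρ σ = ρbar.ρ σ := rfl
  rw [hρ, pow_one, CharP.cast_eq_zero k p, Ideal.mem_span_singleton, zero_dvd_iff,
    sub_eq_zero] at h1
  refine h1.trans ?_
  rw [← map_natCast (algebraMap (ZMod p) k), ZMod.natCast_zmod_val]

/-- **IRR-STR**. -/
theorem stmtGBIrrStr : StmtGBIrrStr := by
  intro p _ hp2 k _ _ _ _ ρbar hdet hsplit hirr
  classical
  have hp : p.Prime := Fact.out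
  have hfr := ρbar.finrank_eq
  -- the representation of `G_p`
  let ρ : GQq p →* Module.End k ρbar.V := ρbar.ρ.comp (localGaloisToGlobal p)
  obtain ⟨L, hL, hρL⟩ := ρbar.factorsThroughFiniteLevel
  haveI := hL
  have hlev : ∃ U ∈ (towerLoc p).lev, ∀ s ∈ U, ρ s = 1 :=
    ⟨L.fixingSubgroup.comap (localGaloisToGlobal p), ⟨L, hL, rfl⟩, fun s hs =>
      hρL _ (fun x hx => (IntermediateField.mem_fixingSubgroup_iff L _).1 hs x hx)⟩
  -- the tame character
  obtain ⟨B, _, _, Θ, t, hB, hθ1, hθ2, hθ3⟩ := wgis_global_theta hp (padicPlace p)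
    (lfrobex_liesOverPrime p) L ((localGaloisToGlobal p).comp (inertiaQ p).subtype)
    (fun y => y.2)
  obtain ⟨φ, hφ⟩ := stmtFrobExists p
  have hθ1' : ∀ y : ↥(inertiaQ p), Θ y = 1 → ∃ m : ℕ, ρ (y : GQq p) ^ (p ^ m) = 1 := by
    intro y hy
    obtain ⟨m, hm⟩ := hθ1 y hy
    refine ⟨m, ?_⟩
    have h1 : ρbar.ρ (localGaloisToGlobal p (y : GQq p) ^ (p ^ m)) = 1 :=
      hρL _ (fun x hx => (IntermediateField.mem_fixingSubgroup_iff L _).1 hm x hx)
    rw [map_pow] at h1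
    exact h1
  have hθ3' : ∀ s s' : ↥(inertiaQ p), (s' : GQq p) = φ * (s : GQq p) * φ⁻¹ →
      Θ s' = Θ s ^ p := by
    intro s s' h
    refine hθ3 s s' (localGaloisToGlobal p φ) hφ ?_
    show localGaloisToGlobal p (s' : GQq p) = _
    rw [h, map_mul, map_mul, map_inv]
    rfl
  have hgen : ∀ τ : GQq p, ∃ (j : ℕ) (i : GQq p), i ∈ inertiaQ p ∧ ρ τ = ρ φ ^ j * ρ i := by
    obtain ⟨U, hU, hρU⟩ := hlev
    intro τ
    obtain ⟨j, i, v, hi, hv, rfl⟩ := stmtFrobGen p φ hφ U hU τ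
    exact ⟨j, i, hi, by rw [map_mul, map_mul, map_pow, hρU v hv, mul_one]⟩
  obtain ⟨v₁, v₂, α, β, hli, hne, hβ, hα, h₁, h₂, ⟨b, hb⟩, ⟨c, hc⟩, hcyc, hall⟩ :=
    wgis_abstract p ρ (inertiaQ p) Θ hfr (fun γ σ hσ => ltw_conj_mem_inertiaQ γ hσ) hB t φ
      hθ1' hθ2 hθ3' hgen hirr (fun τ => hsplit _)
  have hv₁ : v₁ ≠ 0 := hli.ne_zero 0
  have hv₂ : v₂ ≠ 0 := hli.ne_zero 1
  -- `ρ̄(G_p)` is monomial
  have hmono : ∀ τ : GQq p, WgisMono v₁ v₂ (ρ τ) := by
    intro τ
    obtain ⟨j, m, h⟩ := hall τ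
    rw [h]
    exact wgisMono_mul (wgisMono_pow (Or.inr ⟨⟨b, hb⟩, ⟨c, hc⟩⟩) j)
      (wgisMono_pow (Or.inl ⟨⟨α, h₁⟩, ⟨β, h₂⟩⟩) m)
  have hinj : ∀ τ : GQq p, Function.Injective (ρ τ) := by
    intro τ
    have h1 : ∀ v, ρ τ⁻¹ (ρ τ v) = v := by
      intro v
      rw [← Module.End.mul_apply, ← map_mul, inv_mul_cancel, map_one, Module.End.one_apply]
    exact Function.LeftInverse.injective h1
  have hk : ∀ a : k, a ≠ 0 → a ^ (Nat.card k - 1) = 1 := by
    intro a ha
    letI : Fintype k := Fintype.ofFinite k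
    rw [Nat.card_eq_fintype_card]
    exact FiniteField.pow_card_sub_one_eq_one a ha
  have hE : ∀ τ : GQq p, ρ τ ^ (2 * (Nat.card k - 1)) = 1 := fun τ =>
    wgis_pow_eq_one hfr hli (Nat.card k - 1) hk (hmono τ) (hinj τ)
  have hpE : ¬ p ∣ 2 * (Nat.card k - 1) := by
    intro h
    rcases (Nat.Prime.dvd_mul hp).1 h with h3 | h3
    · exact hp2 ((Nat.prime_dvd_prime_iff_eq hp Nat.prime_two).1 h3)
    · refine wgbct_not_dvd_card_units p (k := k) ?_
      letI : Fintype k := Fintype.ofFinite k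
      rw [Nat.card_eq_fintype_card, Fintype.card_units, ← Nat.card_eq_fintype_card]
      exact h3
  have h2k : (2 : k) ≠ 0 := by
    have h1 : ((2 : ℕ) : k) ≠ 0 := by
      rw [Ne, CharP.cast_eq_zero_iff k p]
      intro h
      exact hp2 ((Nat.prime_dvd_prime_iff_eq hp Nat.prime_two).1 h)
    exact_mod_cast h1
  have hb0 : b ≠ 0 := by
    rintro rfl
    rw [zero_smul] at hb
    exact hv₁ (hinj φ (hb.trans (map_zero _).symm))
  refine ⟨⟨wgisT p ρ, wgis_isGoodField p ρ hlev _ hpE hE, fun σ hσ =>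
    ((wgis_mem_fixingSubgroup p ρ hlev σ).1 hσ).1⟩, ?_, ?_, ?_⟩
  · -- `ad⁰` is smooth
    obtain ⟨U, hU, hρU⟩ := hlev
    refine ⟨U, hU, fun s hs => LinearMap.ext fun x => ?_⟩
    apply ad0Val_injective p ρbar
    have h1 : ρbar.ρ (localGaloisToGlobal p s) = 1 := hρU s hs
    have h2 : ρbar.ρ (localGaloisToGlobal p s)⁻¹ = 1 := by
      have := rho_inv_mul ρbar (localGaloisToGlobal p s)
      rwa [h1, mul_one] at this
    show ρbar.ρ (localGaloisToGlobal p s) * ad0Val p ρbar x *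
      ρbar.ρ (localGaloisToGlobal p s)⁻¹ = ad0Val p ρbar x
    rw [h1, h2, one_mul, mul_one]
  · -- no invariants
    have hbot : (locRep p (ad0Rep p ρbar)).ρ.invariants = ⊥ := by
      rw [Submodule.eq_bot_iff]
      intro x hx
      apply ad0Val_injective p ρbar
      rw [map_zero]
      have hcomm : ∀ τ : GQq p, ad0Val p ρbar x * ρ τ = ρ τ * ad0Val p ρbar x := by
        intro τ
        have h1 : (locRep p (ad0Rep p ρbar)).ρ τ x = x := hx τ
        have h2 : ρbar.ρ (localGaloisToGlobal p τ) * ad0Val p ρbar x *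
            ρbar.ρ (localGaloisToGlobal p τ)⁻¹ = ad0Val p ρbar x :=
          congrArg (ad0Val p ρbar) h1
        show ad0Val p ρbar x * ρbar.ρ (localGaloisToGlobal p τ) =
          ρbar.ρ (localGaloisToGlobal p τ) * ad0Val p ρbar x
        calc ad0Val p ρbar x * ρbar.ρ (localGaloisToGlobal p τ)
            = ρbar.ρ (localGaloisToGlobal p τ) * ad0Val p ρbar x *
                ρbar.ρ (localGaloisToGlobal p τ)⁻¹ * ρbar.ρ (localGaloisToGlobal p τ) := by
              rw [h2]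
          _ = ρbar.ρ (localGaloisToGlobal p τ) * ad0Val p ρbar x *
                (ρbar.ρ (localGaloisToGlobal p τ)⁻¹ * ρbar.ρ (localGaloisToGlobal p τ)) := by
              rw [mul_assoc]
          _ = ρbar.ρ (localGaloisToGlobal p τ) * ad0Val p ρbar x := by
              rw [rho_inv_mul, mul_one]
      exact wgis_comm_zero hfr hli hne (ρ (t : GQq p)) (ρ φ) h₁ h₂ hb0 hb h2k _
        (hcomm _) (hcomm _) (trace_ad0Val p ρbar x)
    rw [hbot]
    exact finrank_bot _ _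
  · -- the characters on inertia
    have hex : ∀ σ : GQq p, ∃ m : ℕ, σ ∈ inertiaQ p → ρ σ = ρ (t : GQq p) ^ m := by
      intro σ
      by_cases hσ : σ ∈ inertiaQ p
      · obtain ⟨m, hm⟩ := hcyc σ hσ
        exact ⟨m, fun _ => hm⟩
      · exact ⟨0, fun h => absurd h hσ⟩
    choose m hm using hex
    have hact₁ : ∀ σ ∈ inertiaQ p, rhoLoc p ρbar σ v₁ = α ^ m σ • v₁ := by
      intro σ hσ
      show ρ σ v₁ = _
      rw [hm σ hσ, wgis_pow_eigen _ h₁]
    have hact₂ : ∀ σ ∈ inertiaQ p, rhoLoc p ρbar σ v₂ = β ^ m σ • v₂ := by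
      intro σ hσ
      show ρ σ v₂ = _
      rw [hm σ hσ, wgis_pow_eigen _ h₂]
    refine ⟨v₁, v₂, fun σ => α ^ m σ, fun σ => β ^ m σ, hli,
      fun σ hσ => ⟨hact₁ σ hσ, hact₂ σ hσ⟩, ⟨(t : GQq p), t.2, ?_⟩, fun σ _ => ⟨?_, ?_⟩,
      fun σ hσ => ?_⟩
    · -- `ψ₁ t = α ≠ β = ψ₂ t`
      have e1 : α ^ m (t : GQq p) • v₁ = α • v₁ := by
        rw [← hact₁ _ t.2]
        exact h₁
      have e2 : β ^ m (t : GQq p) • v₂ = β • v₂ := by
        rw [← hact₂ _ t.2]
        exact h₂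
      have e1' : α ^ m (t : GQq p) = α := smul_left_injective k hv₁ e1
      have e2' : β ^ m (t : GQq p) = β := smul_left_injective k hv₂ e2
      show α ^ m (t : GQq p) ≠ β ^ m (t : GQq p)
      rw [e1', e2']
      exact hne
    · show β ^ m σ = (α ^ m σ) ^ p
      rw [hβ, ← pow_mul, ← pow_mul, mul_comm]
    · show α ^ m σ = (β ^ m σ) ^ p
      rw [← pow_mul, mul_comm, pow_mul, ← hα]
    · show α ^ m σ * β ^ m σ = _
      rw [← wgis_det_diag hfr hli (hact₁ σ hσ) (hact₂ σ hσ)]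
      exact wgis_det_eq p ρbar hdet (localGaloisToGlobal p σ)

end Fermat.Agent.TW.W

end


end ZBTW_020_6
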