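/- GENERATED FILE (helper35, build-time optimisation, NOTES/ZB.md): verbatim concatenation of the modules
   Fermat.Agent.TW.S.ResOrd
   Fermat.Agent.TW.S.ResStrictAbs
   Do not edit; do not import together with these modules. -/
import Fermat.Agent.ZB.TW_001
import Fermat.Agent.ZB.PT_003

/-! ### bundled: `Fermat.Agent.TW.S.ResOrd` -/
section ZBTW_021_0
/-
TW-S, piece S-res (helper22): if a strictly ordinary deformation of `ρ̄` to `k[ε]` exists, then
`ρ̄` has an ordinary line at `p`.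
-/

set_option autoImplicit false
set_option linter.unusedSectionVars false
set_option linter.unusedVariables false
set_option linter.style.haveILetI false

noncomputable section

namespace Fermat.Agent.TW.S

open CategoryTheory groupCohomology IsLocalRing
open Fermat.Agent.PT Fermat.Agent.PT.B Fermat.Agent.S53 Fermat.Agent.TW.L ExtCitation
open scoped TensorProduct

section Descent

variable {k κ : Type} [Field k] [Field κ] [Algebra k κ] {V : Type} [AddCommGroup V] [Module k V]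

/-- `v ↦ 1 ⊗ v` is injective (`k → κ` is a field extension). -/
lemma sres_one_tmul_injective : Function.Injective (fun v : V => (1 : κ) ⊗ₜ[k] v) := by
  have h1 : Function.Injective (Algebra.linearMap k κ) := (algebraMap k κ).injective
  have h2 := Module.Flat.rTensor_preserves_injective_linearMap (M := V) (Algebra.linearMap k κ) h1
  intro v w hvw
  have e : ∀ x : V, (1 : κ) ⊗ₜ[k] x =
      (LinearMap.rTensor V (Algebra.linearMap k κ)) ((TensorProduct.lid k V).symm x) := by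
    intro x
    rw [TensorProduct.lid_symm_apply, LinearMap.rTensor_tmul, Algebra.linearMap_apply, map_one]
  have h3 : (LinearMap.rTensor V (Algebra.linearMap k κ)) ((TensorProduct.lid k V).symm v) =
      (LinearMap.rTensor V (Algebra.linearMap k κ)) ((TensorProduct.lid k V).symm w) := by
    rw [← e, ← e]; exact hvw
  exact (TensorProduct.lid k V).symm.injective (h2 h3)

/-- `c • (1 ⊗ v) = 1 ⊗ (c' • v)` when `c` is the image of `c'`. -/
lemma sres_smul_one_tmul (c' : k) (v : V) :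
    (algebraMap k κ c') • ((1 : κ) ⊗ₜ[k] v) = (1 : κ) ⊗ₜ[k] (c' • v) := by
  rw [TensorProduct.smul_tmul', smul_eq_mul, mul_one, TensorProduct.tmul_smul,
    TensorProduct.smul_tmul', Algebra.smul_def, mul_one]

/-- Every element of `κ ⊗ V` is `1 ⊗ v` when `k → κ` is surjective. -/
lemma sres_one_tmul_surjective (hs : Function.Surjective (algebraMap k κ)) (x : κ ⊗[k] V) :
    ∃ v : V, (1 : κ) ⊗ₜ[k] v = x := by
  induction x using TensorProduct.induction_on with
  | zero => exact ⟨0, by rw [TensorProduct.tmul_zero]⟩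
  | tmul c v =>
    obtain ⟨c', rfl⟩ := hs c
    refine ⟨c' • v, ?_⟩
    rw [← sres_smul_one_tmul, TensorProduct.smul_tmul', smul_eq_mul, mul_one]
  | add x y hx hy =>
    obtain ⟨v, rfl⟩ := hx
    obtain ⟨w, rfl⟩ := hy
    exact ⟨v + w, by rw [TensorProduct.tmul_add]⟩

end Descent

/-- The abstract core of S-res, in terms of tensor products only. -/
theorem sres_abs {A κ k : Type} [CommRing A] [Field κ] [Field k] [Algebra A κ] [Algebra k κ]
    (hs : Function.Surjective (algebraMap k κ))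
    {M : Type} [AddCommGroup M] [Module A M] {V : Type} [AddCommGroup V] [Module k V]
    {G : Type} (r : G → M →ₗ[A] M) (rb : G → V →ₗ[k] V)
    (e : (κ ⊗[A] M) ≃ₗ[κ] (κ ⊗[k] V))
    (he : ∀ (σ : G) (x : κ ⊗[A] M), e ((r σ).baseChange κ x) = (rb σ).baseChange κ (e x))
    (DD II : Set G)
    (L : Submodule A M) (b : Module.Basis (Fin 2) A M) (hL : L = A ∙ b 0)
    (hD : ∀ σ ∈ DD, ∀ v ∈ L, r σ v ∈ L)
    (hI : ∀ σ ∈ II, ∀ v : M, r σ v - v ∈ L) :
    ∃ Lbar : Submodule k V, Module.finrank k Lbar = 1 ∧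
      (∀ σ ∈ DD, ∀ v ∈ Lbar, rb σ v ∈ Lbar) ∧
      (∀ σ ∈ II, ∀ v : V, rb σ v - v ∈ Lbar) := by
  -- the generator of the reduced line
  set u₀ : κ ⊗[A] M := (1 : κ) ⊗ₜ[A] b 0 with hu₀
  have hu₀ne : u₀ ≠ 0 := by
    have := (b.baseChange κ).ne_zero 0
    rwa [Module.Basis.baseChange_apply] at this
  obtain ⟨v₀, hv₀⟩ := sres_one_tmul_surjective (V := V) hs (e u₀)
  have hv₀ne : v₀ ≠ 0 := by
    rintro rfl
    rw [TensorProduct.tmul_zero] at hv₀
    exact hu₀ne (e.map_eq_zero_iff.mp hv₀.symm)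
  -- elements of `L` reduce to multiples of `u₀`
  have hLred : ∀ (c : κ) (x : M), x ∈ L → ∃ d : κ, c ⊗ₜ[A] x = d • u₀ := by
    intro c x hx
    rw [hL, Submodule.mem_span_singleton] at hx
    obtain ⟨a, rfl⟩ := hx
    refine ⟨c * algebraMap A κ a, ?_⟩
    rw [hu₀, TensorProduct.tmul_smul, TensorProduct.smul_tmul', TensorProduct.smul_tmul',
      Algebra.smul_def, smul_eq_mul, mul_one, mul_comm]
  -- multiples of `e u₀` are of the form `1 ⊗ (c' • v₀)`
  have hmul : ∀ d : κ, ∃ c' : k, e (d • u₀) = (1 : κ) ⊗ₜ[k] (c' • v₀) := by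
    intro d
    obtain ⟨c', rfl⟩ := hs d
    refine ⟨c', ?_⟩
    rw [map_smul, ← hv₀, sres_smul_one_tmul]
  refine ⟨k ∙ v₀, finrank_span_singleton hv₀ne, ?_, ?_⟩
  · -- stability under the decomposition group
    intro σ hσ v hv
    rw [Submodule.mem_span_singleton] at hv
    obtain ⟨c, rfl⟩ := hv
    rw [map_smul]
    refine Submodule.smul_mem _ _ ?_
    obtain ⟨d, hd⟩ := hLred 1 _
      (hD σ hσ (b 0) (by rw [hL]; exact Submodule.mem_span_singleton_self _))
    obtain ⟨c', hc'⟩ := hmul d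
    have h1 : (1 : κ) ⊗ₜ[k] (rb σ v₀) = (1 : κ) ⊗ₜ[k] (c' • v₀) := by
      rw [← LinearMap.baseChange_tmul, hv₀, ← he, hu₀, LinearMap.baseChange_tmul, hd, hc']
    rw [sres_one_tmul_injective h1]
    exact Submodule.smul_mem _ _ (Submodule.mem_span_singleton_self _)
  · -- inertia acts trivially on the quotient
    intro σ hσ v
    have hall : ∀ y : κ ⊗[A] M, ∃ d : κ, (r σ).baseChange κ y - y = d • u₀ := by
      intro y
      induction y using TensorProduct.induction_on with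
      | zero => exact ⟨0, by rw [map_zero, sub_zero, zero_smul]⟩
      | tmul c x =>
        obtain ⟨d, hd⟩ := hLred c _ (hI σ hσ x)
        exact ⟨d, by rw [LinearMap.baseChange_tmul, ← TensorProduct.tmul_sub, hd]⟩
      | add y z hy hz =>
        obtain ⟨d, hd⟩ := hy
        obtain ⟨d', hd'⟩ := hz
        exact ⟨d + d', by rw [map_add, add_sub_add_comm, hd, hd', add_smul]⟩
    obtain ⟨d, hd⟩ := hall (e.symm ((1 : κ) ⊗ₜ[k] v))
    obtain ⟨c', hc'⟩ := hmul d
    have h1 : (1 : κ) ⊗ₜ[k] (rb σ v - v) = (1 : κ) ⊗ₜ[k] (c' • v₀) := by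
      rw [← hc', ← hd, map_sub, he, LinearEquiv.apply_symm_apply, LinearMap.baseChange_tmul,
        TensorProduct.tmul_sub]
    rw [sres_one_tmul_injective h1]
    exact Submodule.smul_mem _ _ (Submodule.mem_span_singleton_self _)

/-- The core of S-res: an ordinary line of `ρ` reduces to an ordinary line of `ρ̄`. -/
theorem sres_core {A : Type} [CommRing A] [IsLocalRing A] {k : Type} [Field k]
    [Algebra k (ResidueField A)] (hs : Function.Surjective (algebraMap k (ResidueField A)))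
    (ρ : GaloisRepAdic A) (ρbar : ResidualGaloisRep k)
    (e : ResidualGaloisRep.Equiv ρ.residual (ρbar.baseChange (ResidueField A)))
    (P : ValuationSubring (AlgebraicClosure ℚ))
    (L : Submodule A ρ.V) (b : Module.Basis (Fin 2) A ρ.V) (hL : L = A ∙ b 0)
    (hD : ∀ σ ∈ P.decompositionSubgroup ℚ, ∀ v ∈ L, ρ.ρ σ v ∈ L)
    (hI : ∀ σ ∈ P.inertiaSubgroupIn ℚ, ∀ v : ρ.V, ρ.ρ σ v - v ∈ L) :
    ∃ Lbar : Submodule k ρbar.V, Module.finrank k Lbar = 1 ∧
      (∀ σ ∈ P.decompositionSubgroup ℚ, ∀ v ∈ Lbar, ρbar.ρ σ v ∈ Lbar) ∧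
      (∀ σ ∈ P.inertiaSubgroupIn ℚ, ∀ v : ρbar.V, ρbar.ρ σ v - v ∈ Lbar) :=
  sres_abs (κ := ResidueField A) hs (fun σ => ρ.ρ σ) (fun σ => ρbar.ρ σ) e.toLinearEquiv
    e.map_apply (P.decompositionSubgroup ℚ : Set _) (P.inertiaSubgroupIn ℚ : Set _) L b hL hD hI

/-- `k → ResidueField (k[ε])` is surjective. -/
lemma sres_dnRes_surjective (𝒪 : Type) [CommRing 𝒪] [IsLocalRing 𝒪] :
    Function.Surjective
      ((IsLocalRing.residue (DualNumber (ResidueField 𝒪))).comp
        (algebraMap (ResidueField 𝒪) (DualNumber (ResidueField 𝒪)))) := by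
  intro y
  obtain ⟨x, rfl⟩ := IsLocalRing.residue_surjective y
  refine ⟨x.fst, ?_⟩
  rw [RingHom.comp_apply, ← sub_eq_zero, ← map_sub, IsLocalRing.residue_eq_zero_iff]
  change _ ∈ nonunits _
  rw [mem_nonunits_iff, TrivSqZeroExt.isUnit_iff_isUnit_fst]
  have : (algebraMap (ResidueField 𝒪) (DualNumber (ResidueField 𝒪)) x.fst - x).fst = 0 := by
    rw [TrivSqZeroExt.fst_sub]
    change x.fst - x.fst = 0
    exact sub_self _
  rw [this]
  exact not_isUnit_zero

/-- **S-res.** -/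
theorem stmtResOrd : StmtResOrd := by
  intro 𝒪 _ _ p _ _ ρbar ρ hres hord
  letI := dnResAlg 𝒪
  obtain ⟨L, ⟨b, hb⟩, hD, hI, -⟩ := hord.2 (padicPlace p) (lfrobex_liesOverPrime p)
  obtain ⟨e⟩ := hres
  exact sres_core (sres_dnRes_surjective 𝒪) ρ ρbar e (padicPlace p) L b hb hD hI

end Fermat.Agent.TW.S

end


end ZBTW_021_0

/-! ### bundled: `Fermat.Agent.TW.S.ResStrictAbs` -/
section ZBTW_021_1
/-
TW-Core, piece C-resstrict, abstract part (helper22): the reduction of a STRICTLY ordinary line.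
Extends `sres_abs` of `TW/S/ResOrd.lean`: the scalars `x, z` by which `σ` acts on the line and on
the quotient reduce to scalars of `k` with the same properties.
-/

set_option autoImplicit false
set_option linter.unusedSectionVars false
set_option linter.unusedVariables false

noncomputable section

namespace Fermat.Agent.TW.S

open scoped TensorProduct

section

variable {A κ : Type} [CommRing A] [Field κ] [Algebra A κ] {M : Type} [AddCommGroup M]
  [Module A M]

/-- `c ⊗ (a • m) = ā • (c ⊗ m)`. -/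
lemma srs_tmul_smul (a : A) (c : κ) (m : M) :
    c ⊗ₜ[A] (a • m) = (algebraMap A κ a) • (c ⊗ₜ[A] m) := by
  have h1 : c ⊗ₜ[A] (a • m) = (a • c) ⊗ₜ[A] m := by
    rw [TensorProduct.tmul_smul, TensorProduct.smul_tmul']
  have h2 : (algebraMap A κ a) • (c ⊗ₜ[A] m) = ((algebraMap A κ a) * c) ⊗ₜ[A] m := by
    rw [TensorProduct.smul_tmul', smul_eq_mul]
  rw [h1, h2, Algebra.smul_def]

/-- If `f - a` has image in the line `A ∙ m₀`, then `f ⊗ κ - ā` has image in `κ ∙ (1 ⊗ m₀)`. -/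
lemma srs_baseChange_sub (m₀ : M) (f : M →ₗ[A] M) (a : A)
    (h : ∀ m : M, f m - a • m ∈ A ∙ m₀) (y : κ ⊗[A] M) :
    ∃ d : κ, f.baseChange κ y - (algebraMap A κ a) • y = d • ((1 : κ) ⊗ₜ[A] m₀) := by
  induction y using TensorProduct.induction_on with
  | zero => exact ⟨0, by rw [map_zero, smul_zero, sub_zero, zero_smul]⟩
  | tmul c m =>
    obtain ⟨t, ht⟩ := Submodule.mem_span_singleton.mp (h m)
    refine ⟨c * algebraMap A κ t, ?_⟩
    rw [LinearMap.baseChange_tmul, ← srs_tmul_smul, ← TensorProduct.tmul_sub, ← ht,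
      srs_tmul_smul, TensorProduct.smul_tmul', smul_eq_mul, mul_comm, TensorProduct.smul_tmul',
      smul_eq_mul, mul_one]
  | add y y' hy hy' =>
    obtain ⟨d, hd⟩ := hy
    obtain ⟨d', hd'⟩ := hy'
    exact ⟨d + d', by rw [map_add, smul_add, add_sub_add_comm, hd, hd', add_smul]⟩

end

/-- The abstract core of C-resstrict, in terms of tensor products only.  `Q` is any property of
the scalars, passed through. -/
theorem srs_abs {A κ k : Type} [CommRing A] [Field κ] [Field k] [Algebra A κ] [Algebra k κ]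
    (hs : Function.Surjective (algebraMap k κ))
    {M : Type} [AddCommGroup M] [Module A M] {V : Type} [AddCommGroup V] [Module k V]
    {G : Type} (r : G → M →ₗ[A] M) (rb : G → V →ₗ[k] V)
    (e : (κ ⊗[A] M) ≃ₗ[κ] (κ ⊗[k] V))
    (he : ∀ (σ : G) (x : κ ⊗[A] M), e ((r σ).baseChange κ x) = (rb σ).baseChange κ (e x))
    (DD II : Set G)
    (L : Submodule A M) (b : Module.Basis (Fin 2) A M) (hL : L = A ∙ b 0)
    (hD : ∀ σ ∈ DD, ∀ v ∈ L, r σ v ∈ L)
    (hI : ∀ σ ∈ II, ∀ v : M, r σ v - v ∈ L)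
    (Q : G → A → A → Prop)
    (hstr : ∀ σ ∈ DD, ∃ x z : A, (∀ w ∈ L, r σ w = x • w) ∧ (∀ v : M, r σ v - z • v ∈ L) ∧
      Q σ x z) :
    ∃ Lbar : Submodule k V, Module.finrank k Lbar = 1 ∧
      (∀ σ ∈ DD, ∀ v ∈ Lbar, rb σ v ∈ Lbar) ∧
      (∀ σ ∈ II, ∀ v : V, rb σ v - v ∈ Lbar) ∧
      ∀ σ ∈ DD, ∃ (x z : A) (x' z' : k), algebraMap k κ x' = algebraMap A κ x ∧
        algebraMap k κ z' = algebraMap A κ z ∧ Q σ x z ∧
        (∀ w ∈ Lbar, rb σ w = x' • w) ∧ (∀ v : V, rb σ v - z' • v ∈ Lbar) := by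
  subst hL
  -- the generator of the reduced line
  have hu₀ne : (1 : κ) ⊗ₜ[A] b 0 ≠ 0 := by
    have := (b.baseChange κ).ne_zero 0
    rwa [Module.Basis.baseChange_apply] at this
  obtain ⟨v₀, hv₀⟩ := sres_one_tmul_surjective (V := V) hs (e ((1 : κ) ⊗ₜ[A] b 0))
  have hv₀ne : v₀ ≠ 0 := by
    rintro rfl
    rw [TensorProduct.tmul_zero] at hv₀
    exact hu₀ne (e.map_eq_zero_iff.mp hv₀.symm)
  have hb0 : b 0 ∈ A ∙ b 0 := Submodule.mem_span_singleton_self _
  have hself : v₀ ∈ k ∙ v₀ := Submodule.mem_span_singleton_self _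
  -- (E): eigenvector
  have hE : ∀ (σ : G) (a : A) (a' : k), algebraMap k κ a' = algebraMap A κ a →
      r σ (b 0) = a • b 0 → rb σ v₀ = a' • v₀ := by
    intro σ a a' ha hr
    apply sres_one_tmul_injective (k := k) (κ := κ) (V := V)
    show (1 : κ) ⊗ₜ[k] (rb σ v₀) = (1 : κ) ⊗ₜ[k] (a' • v₀)
    calc (1 : κ) ⊗ₜ[k] (rb σ v₀) = (rb σ).baseChange κ ((1 : κ) ⊗ₜ[k] v₀) := by
          rw [LinearMap.baseChange_tmul]
      _ = e ((r σ).baseChange κ ((1 : κ) ⊗ₜ[A] b 0)) := by rw [hv₀, he]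
      _ = e ((algebraMap A κ a) • ((1 : κ) ⊗ₜ[A] b 0)) := by
          rw [LinearMap.baseChange_tmul, hr, srs_tmul_smul]
      _ = (algebraMap k κ a') • ((1 : κ) ⊗ₜ[k] v₀) := by rw [map_smul, ← hv₀, ha]
      _ = (1 : κ) ⊗ₜ[k] (a' • v₀) := sres_smul_one_tmul a' v₀
  -- (K'): action on the quotient
  have hK : ∀ (σ : G) (a : A) (a' : k), algebraMap k κ a' = algebraMap A κ a →
      (∀ m : M, r σ m - a • m ∈ A ∙ b 0) → ∀ v : V, rb σ v - a' • v ∈ k ∙ v₀ := by
    intro σ a a' ha hr v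
    obtain ⟨d, hd⟩ := srs_baseChange_sub (κ := κ) (b 0) (r σ) a hr (e.symm ((1 : κ) ⊗ₜ[k] v))
    obtain ⟨c', hc'⟩ := hs d
    have h1 : (1 : κ) ⊗ₜ[k] (rb σ v - a' • v) = (1 : κ) ⊗ₜ[k] (c' • v₀) := by
      calc (1 : κ) ⊗ₜ[k] (rb σ v - a' • v)
          = (rb σ).baseChange κ ((1 : κ) ⊗ₜ[k] v) -
              (algebraMap k κ a') • ((1 : κ) ⊗ₜ[k] v) := by
            rw [TensorProduct.tmul_sub, LinearMap.baseChange_tmul, sres_smul_one_tmul]
        _ = e ((r σ).baseChange κ (e.symm ((1 : κ) ⊗ₜ[k] v)) -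
              (algebraMap A κ a) • (e.symm ((1 : κ) ⊗ₜ[k] v))) := by
            rw [map_sub, he, map_smul, LinearEquiv.apply_symm_apply, ha]
        _ = (algebraMap k κ c') • ((1 : κ) ⊗ₜ[k] v₀) := by
            rw [hd, map_smul, ← hv₀, hc']
        _ = (1 : κ) ⊗ₜ[k] (c' • v₀) := sres_smul_one_tmul c' v₀
    rw [sres_one_tmul_injective h1]
    exact Submodule.smul_mem _ _ hself
  refine ⟨k ∙ v₀, finrank_span_singleton hv₀ne, ?_, ?_, ?_⟩
  · -- stability under the decomposition group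
    intro σ hσ v hv
    obtain ⟨c, rfl⟩ := Submodule.mem_span_singleton.mp hv
    obtain ⟨a, ha⟩ := Submodule.mem_span_singleton.mp (hD σ hσ (b 0) hb0)
    obtain ⟨a', ha'⟩ := hs (algebraMap A κ a)
    rw [map_smul, hE σ a a' ha' ha.symm]
    exact Submodule.smul_mem _ _ (Submodule.smul_mem _ _ hself)
  · -- inertia acts trivially on the quotient
    intro σ hσ v
    have := hK σ 1 1 (by rw [map_one, map_one]) (fun m => by rw [one_smul]; exact hI σ hσ m) v
    rwa [one_smul] at this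
  · -- the scalars
    intro σ hσ
    obtain ⟨x, z, hx, hz, hQ⟩ := hstr σ hσ
    obtain ⟨x', hx'⟩ := hs (algebraMap A κ x)
    obtain ⟨z', hz'⟩ := hs (algebraMap A κ z)
    refine ⟨x, z, x', z', hx', hz', hQ, ?_, hK σ z z' hz' hz⟩
    intro w hw
    obtain ⟨t, rfl⟩ := Submodule.mem_span_singleton.mp hw
    rw [map_smul, hE σ x x' hx' (hx _ hb0), smul_comm]

end Fermat.Agent.TW.S

end


end ZBTW_021_1
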