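/- GENERATED FILE (helper35, build-time optimisation, NOTES/ZB.md): verbatim concatenation of the modules
   Fermat.Agent.TW.L.Plan3
   Fermat.Agent.TW.S.ResStrictCore
   Fermat.Agent.TW.L.AdSmooth
   Fermat.Agent.TW.L.AdUnram
   Fermat.Agent.TW.L.AdOrd
   Fermat.Agent.TW.L.AdGlob0
   Fermat.Agent.TW.L.AdGlob1
   Fermat.Agent.TW.G.Wire.Phi
   Fermat.Agent.TW.G.Wire.Final
   Do not edit; do not import together with these modules. -/
import Fermat.Agent.ZB.TW_001
import Fermat.Agent.ZB.PT_003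
import Fermat.Agent.ZB.TW_021
import Fermat.Agent.ZB.TW_020
import Mathlib
import Fermat.Agent.ZB.TW_018

/-! ### bundled: `Fermat.Agent.TW.L.Plan3` -/
section ZBTW_012_0
/-
TW-L (S56, local computations) — INTERFACE FILE 3 (helper11): the GLUE layer.
The local terms of the Greenberg–Wiles inequality for `A = ad⁰ ρ̄` in the packaging of TW-S
(`TW/S/Ad.lean`, `TW/S/Defs.lean`: `ad0Rep p ρbar`, `locRep q A`, `ordH1 p ρbar Lbar`).

Every `Stmt…` is a `Prop`; piece `X` is DONE when `theorem stmtX_of : deps → StmtX` is landed in its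
own file `Fermat/Agent/TW/L/<File>.lean` (deps = statements of TW/L/Plan.lean as hypotheses).
`f = [k : 𝔽_p] = Module.finrank (ZMod p) k`.
-/

set_option autoImplicit false

noncomputable section

namespace Fermat.Agent.TW.L

open CategoryTheory groupCohomology Polynomial
open Fermat.Agent.PT Fermat.Agent.PT.B Fermat.Agent.TW.S ExtCitation

/-- The Frobenius elements at `q` have two distinct eigenvalues in `k` (as in S56). -/
def FrobDistinct {k : Type} [Field k] (ρbar : ResidualGaloisRep k) (q : ℕ) : Prop :=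
  ∀ P : ValuationSubring (AlgebraicClosure ℚ), P.LiesOverPrime q →
    ∀ φ : AlgebraicClosure ℚ ≃ₐ[ℚ] AlgebraicClosure ℚ, P.IsFrobeniusAt φ q →
      ∃ α β : k, α ≠ β ∧ LinearMap.charpoly (ρbar.ρ φ) = (X - C α) * (X - C β)

/-- `Lbar` is a STRICTLY ordinary line of `ρ̄` at `padicPlace p`: an ordinary line such that the
decomposition group acts on `L̄` by `χ̄` times its character on `V̄/L̄`. -/
def IsStrictOrdLine {k : Type} [Field k] (p : ℕ) [Fact p.Prime] [CharP k p]
    [Algebra (ZMod p) k] (ρbar : ResidualGaloisRep k) (Lbar : Submodule k ρbar.V) : Prop :=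
  IsOrdLine p ρbar Lbar ∧
    ∀ σ ∈ (padicPlace p).decompositionSubgroup ℚ, ∃ x z : k,
      (∀ w ∈ Lbar, ρbar.ρ σ w = x • w) ∧ (∀ v : ρbar.V, ρbar.ρ σ v - z • v ∈ Lbar) ∧
        x = algebraMap (ZMod p) k ((cycloChar p σ : (ZMod p)ˣ) : ZMod p) * z

/-- **G-smooth**: `ad⁰ ρ̄` restricted to `G_{ℚ_q}` is smooth.
(`ρbar.factorsThroughFiniteLevel`.) -/
def StmtAdSmooth : Prop :=
  ∀ (p : ℕ) [Fact p.Prime] (k : Type) [Field k] [CharP k p] (ρbar : ResidualGaloisRep k)
    (q : ℕ) [Fact q.Prime], IsSmoothQ q (locRep q (ad0Rep p ρbar))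

/-- **G-unr**: `ad⁰ ρ̄` is unramified at `q` if `ρ̄` is. -/
def StmtAdUnram : Prop :=
  ∀ (p : ℕ) [Fact p.Prime] (k : Type) [Field k] [CharP k p] (ρbar : ResidualGaloisRep k)
    (q : ℕ) [Fact q.Prime], ρbar.IsUnramifiedAt q → IsUnramQ q (locRep q (ad0Rep p ρbar))

/-- **G-h0**: `h⁰(G_q, ad⁰) ≤ f` if the Frobenius elements at `q` have distinct eigenvalues.
(L-frobex, L-sl2: the invariants lie in `adZeroFix (ρ̄ (r φ))`, a `k`-line.) -/
def StmtAdInvLe : Prop :=
  ∀ (p : ℕ) [Fact p.Prime] (k : Type) [Field k] [CharP k p] [Algebra (ZMod p) k] [Finite k]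
    (ρbar : ResidualGaloisRep k) (q : ℕ) [Fact q.Prime], FrobDistinct ρbar q →
    Module.finrank (ZMod p) (locRep q (ad0Rep p ρbar)).ρ.invariants ≤ Module.finrank (ZMod p) k

/-- **G-tw** (the local term at a Taylor–Wiles prime): `q ≡ 1 mod p`, `ρ̄` unramified at `q`,
Frobenius with distinct eigenvalues ⇒ `dim H¹_lev(G_q, ad⁰) ≤ h⁰(G_q, ad⁰) + f`.
(L-tw + G-smooth + G-unr + G-h0.) -/
def StmtAdTw : Prop :=
  ∀ (p : ℕ) [Fact p.Prime] (k : Type) [Field k] [CharP k p] [Algebra (ZMod p) k] [Finite k]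
    (ρbar : ResidualGaloisRep k) (q : ℕ) [Fact q.Prime], (q : ZMod p) = 1 →
    ρbar.IsUnramifiedAt q → FrobDistinct ρbar q →
    Module.Finite (ZMod p) (levH1 (towerLoc q) (locRep q (ad0Rep p ρbar))) ∧
      Module.finrank (ZMod p) (levH1 (towerLoc q) (locRep q (ad0Rep p ρbar))) ≤
        Module.finrank (ZMod p) (locRep q (ad0Rep p ρbar)).ρ.invariants +
          Module.finrank (ZMod p) k

/-- **G-min** (the local term at `v ∈ Smin ∖ p`): `dim H¹_unr(G_v, ad⁰) ≤ h⁰(G_v, ad⁰)`.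
(L-min + G-smooth.) -/
def StmtAdMin : Prop :=
  ∀ (p : ℕ) [Fact p.Prime] (k : Type) [Field k] [CharP k p] [Finite k]
    (ρbar : ResidualGaloisRep k) (q : ℕ) [Fact q.Prime],
    Module.Finite (ZMod p) (unrH1 q (locRep q (ad0Rep p ρbar))) ∧
      Module.finrank (ZMod p) (unrH1 q (locRep q (ad0Rep p ρbar))) ≤
        Module.finrank (ZMod p) (locRep q (ad0Rep p ρbar)).ρ.invariants

/-- **G-ord** (the local term at `p`, ordinary case): `dim L_p^{ord} ≤ f + h⁰(G_p, ad⁰)`.
(L-ord for `N = ordSub ⊆ ad⁰`: `G_p` acts on `N` through `χ̄` (strictness), and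
`(ad⁰/N)^{G_p} ⊇ B⁰/N ≅ k`, `B⁰` = the trace-zero endomorphisms preserving `L̄`.) -/
def StmtAdOrd : Prop :=
  ∀ (p : ℕ) [Fact p.Prime], p ≠ 2 → ∀ (k : Type) [Field k] [CharP k p] [Algebra (ZMod p) k]
    [Finite k] (ρbar : ResidualGaloisRep k) (Lbar : Submodule k ρbar.V),
    IsStrictOrdLine p ρbar Lbar →
    Module.Finite (ZMod p) (ordH1 p ρbar Lbar p) ∧
      Module.finrank (ZMod p) (ordH1 p ρbar Lbar p) ≤
        Module.finrank (ZMod p) k +
          Module.finrank (ZMod p) (locRep p (ad0Rep p ρbar)).ρ.invariants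

/-- **G-arch**: `h⁰(G_ℝ, ad⁰) = f`.  (L-arch + L-sl2.) -/
def StmtAdArch : Prop :=
  ∀ (p : ℕ) [Fact p.Prime], p ≠ 2 → ∀ (k : Type) [Field k] [CharP k p] [Algebra (ZMod p) k]
    [Finite k] (ρbar : ResidualGaloisRep k),
    (GaloisRepAdic.ofResidualGaloisRep ρbar).DetIsCyclotomic p →
    Module.finrank (ZMod p) (Rep.res archimedeanLoc (ad0Rep p ρbar)).ρ.invariants =
      Module.finrank (ZMod p) k

/-- **G-glob0**: `H⁰(G_ℚ, ad⁰) = 0`.  (L-glob0.) -/
def StmtAdGlob0 : Prop :=
  ∀ (p : ℕ) [Fact p.Prime], p ≠ 2 → ∀ (k : Type) [Field k] [CharP k p]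
    (ρbar : ResidualGaloisRep k), ρbar.IsAbsolutelyIrreducible →
    (ad0Rep p ρbar).ρ.invariants = ⊥

/-- **G-glob1**: `H⁰(G_ℚ, ad⁰(1)) = 0` for `ad⁰(1) = (ad⁰).dualTwist χ̄`.
(Trace form: an invariant functional is `a ↦ Tr_{k/𝔽_p} tr(X a)` with
`ρ̄(σ) X = χ̄(σ)^{±1} X ρ̄(σ)`; L-glob1.) -/
def StmtAdGlob1 : Prop :=
  ∀ (p : ℕ) [Fact p.Prime], p ≠ 2 → ∀ (k : Type) [Field k] [CharP k p] [Algebra (ZMod p) k]
    [Finite k] (ρbar : ResidualGaloisRep k), ρbar.IsAbsolutelyIrreducible →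
    (∀ (K : Type) [Field K] [Algebra k K]
      (G : Subgroup (AlgebraicClosure ℚ ≃ₐ[ℚ] AlgebraicClosure ℚ)), G.index = 2 →
      ∀ V : Submodule K (ρbar.baseChange K).V,
        (∀ σ ∈ G, ∀ x ∈ V, (ρbar.baseChange K).ρ σ x ∈ V) → V = ⊥ ∨ V = ⊤) →
    ((ad0Rep p ρbar).dualTwist (cycloChar p)).ρ.invariants = ⊥

end Fermat.Agent.TW.L

end


end ZBTW_012_0

/-! ### bundled: `Fermat.Agent.TW.S.ResStrictCore` -/
section ZBTW_012_1
/-
TW-Core, piece C-resstrict, core (helper22): if a strictly ordinary deformation of `ρ̄` to `k[ε]`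
exists, then `ρ̄` has a STRICTLY ordinary line at `p` (`TW.L.IsStrictOrdLine`).
-/

set_option autoImplicit false
set_option linter.unusedSectionVars false
set_option linter.unusedVariables false
set_option linter.style.haveILetI false

noncomputable section

namespace Fermat.Agent.TW.S

open CategoryTheory groupCohomology IsLocalRing
open Fermat.Agent.PT Fermat.Agent.PT.B Fermat.Agent.S53 Fermat.Agent.TW.L ExtCitation
open scoped TensorProduct

/-- `p = 0` in `k[ε]`. -/
lemma srs_p_eq_zero {k : Type} [Field k] (p : ℕ) [CharP k p] : ((p : ℕ) : DualNumber k) = 0 := by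
  apply TrivSqZeroExt.ext
  · rw [TrivSqZeroExt.fst_natCast, TrivSqZeroExt.fst_zero]
    exact CharP.cast_eq_zero k p
  · rw [TrivSqZeroExt.snd_natCast, TrivSqZeroExt.snd_zero]

/-- The core of C-resstrict, for any algebra structure `k → ResidueField (k[ε])` which is
surjective. -/
theorem srs_core {k : Type} [Field k] (p : ℕ) [Fact p.Prime] [CharP k p] [Algebra (ZMod p) k]
    [Algebra k (ResidueField (DualNumber k))]
    (hs : Function.Surjective (algebraMap k (ResidueField (DualNumber k))))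
    (ρbar : ResidualGaloisRep k) (ρ : GaloisRepAdic (DualNumber k))
    (hres : ρ.residual.IsEquiv (ρbar.baseChange (ResidueField (DualNumber k))))
    (hord : ρ.IsStrictOrdinaryAt p) :
    ∃ Lbar : Submodule k ρbar.V, IsStrictOrdLine p ρbar Lbar := by
  have hp : p.Prime := Fact.out
  have : NeZero p := ⟨hp.ne_zero⟩
  obtain ⟨L, ⟨b, hb⟩, hD, hI, hstr⟩ := hord.2 (padicPlace p) (lfrobex_liesOverPrime p)
  obtain ⟨e⟩ := hres
  obtain ⟨Lbar, h1, h2, h3, h4⟩ := srs_abs (κ := ResidueField (DualNumber k)) hs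
    (fun σ => ρ.ρ σ) (fun σ => ρbar.ρ σ) e.toLinearEquiv e.map_apply
    ((padicPlace p).decompositionSubgroup ℚ : Set _) ((padicPlace p).inertiaSubgroupIn ℚ : Set _)
    L b hb hD hI
    (fun σ x z => ∀ (n a : ℕ), (∀ μ : AlgebraicClosure ℚ, μ ^ p ^ n = 1 → σ μ = μ ^ a) →
      x - (a : DualNumber k) * z ∈ Ideal.span {((p ^ n : ℕ) : DualNumber k)})
    hstr
  refine ⟨Lbar, ⟨h1, h2, h3⟩, fun σ hσ => ?_⟩
  obtain ⟨x, z, x', z', hx', hz', hQ, hx, hz⟩ := h4 σ hσ
  refine ⟨x', z', hx, hz, ?_⟩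
  set a : ℕ := ((cycloChar p σ : (ZMod p)ˣ) : ZMod p).val with ha
  have h5 := hQ 1 a (fun μ hμ => by
    rw [pow_one] at hμ
    exact sline_cycloChar_spec p σ μ hμ)
  rw [pow_one, srs_p_eq_zero, Ideal.mem_span_singleton, zero_dvd_iff, sub_eq_zero] at h5
  -- `x = a z` in `k[ε]`, hence in the residue field, hence in `k`
  have h6 : algebraMap k (ResidueField (DualNumber k)) x' =
      algebraMap k (ResidueField (DualNumber k)) ((a : k) * z') := by
    rw [hx', h5, map_mul, map_mul, hz', map_natCast, map_natCast]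
  have h7 : x' = (a : k) * z' := (algebraMap k (ResidueField (DualNumber k))).injective h6
  rw [h7]
  congr 1
  rw [ha, ← map_natCast (algebraMap (ZMod p) k), ZMod.natCast_zmod_val]

/-- The concrete form for `k = ResidueField 𝒪` with the algebra structure `dnResAlg`. -/
theorem srs_main (𝒪 : Type) [CommRing 𝒪] [IsLocalRing 𝒪] (p : ℕ) [Fact p.Prime]
    [CharP (ResidueField 𝒪) p] [Algebra (ZMod p) (ResidueField 𝒪)]
    (ρbar : ResidualGaloisRep (ResidueField 𝒪))
    (ρ : GaloisRepAdic (DualNumber (ResidueField 𝒪)))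
    (hres : letI : Algebra (ResidueField 𝒪) (ResidueField (DualNumber (ResidueField 𝒪))) :=
        dnResAlg 𝒪
      ρ.residual.IsEquiv (ρbar.baseChange (ResidueField (DualNumber (ResidueField 𝒪)))))
    (hord : ρ.IsStrictOrdinaryAt p) :
    ∃ Lbar : Submodule (ResidueField 𝒪) ρbar.V, IsStrictOrdLine p ρbar Lbar := by
  letI := dnResAlg 𝒪
  exact srs_core p (sres_dnRes_surjective 𝒪) ρbar ρ hres hord

end Fermat.Agent.TW.S

end


end ZBTW_012_1

/-! ### bundled: `Fermat.Agent.TW.L.AdSmooth` -/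
section ZBTW_012_2
/-
TW-L / G-smooth (helper32): `ad⁰ ρ̄` restricted to `G_{ℚ_q}` is smooth.

Main result: `stmtAdSmooth : StmtAdSmooth` (statement in `TW/L/Plan3.lean`), unconditional.

Proof: `ρ̄` is trivial on `Gal(ℚ̄/L)` for a finite `L/ℚ` (`ρbar.factorsThroughFiniteLevel`); the
level `r⁻¹ Gal(ℚ̄/L)` of `towerLoc q` acts trivially by conjugation.
-/

set_option autoImplicit false

namespace Fermat.Agent.TW.L

open CategoryTheory
open Fermat.Agent.PT Fermat.Agent.PT.B Fermat.Agent.TW.S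

/-- **G-smooth**: `StmtAdSmooth`. -/
theorem stmtAdSmooth : StmtAdSmooth := by
  intro p _ k _ _ ρbar q _
  obtain ⟨L, hL, hρ⟩ := ρbar.factorsThroughFiniteLevel
  refine ⟨L.fixingSubgroup.comap (localGaloisToGlobal q), ⟨L, hL, rfl⟩, fun s hs => ?_⟩
  have key : ∀ t : GQq q, t ∈ L.fixingSubgroup.comap (localGaloisToGlobal q) →
      ρbar.ρ (localGaloisToGlobal q t) = 1 := by
    intro t ht
    refine hρ _ (fun x hx => ?_)
    have h1 : localGaloisToGlobal q t ∈ L.fixingSubgroup := ht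
    rw [IntermediateField.mem_fixingSubgroup_iff] at h1
    exact h1 x hx
  have h1 : ρbar.ρ (localGaloisToGlobal q s) = 1 := key s hs
  have h2 : ρbar.ρ (localGaloisToGlobal q s)⁻¹ = 1 := by
    rw [← map_inv]
    exact key s⁻¹ (inv_mem hs)
  apply LinearMap.ext
  intro x
  apply ad0Val_injective p ρbar
  change ad0Val p ρbar ((ad0Rep p ρbar).ρ (localGaloisToGlobal q s) x) = ad0Val p ρbar x
  rw [ad0Val_ρ, h1, h2, one_mul, mul_one]

end Fermat.Agent.TW.L


end ZBTW_012_2

/-! ### bundled: `Fermat.Agent.TW.L.AdUnram` -/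
section ZBTW_012_3
/-
TW-L / G-unr (helper32): `ad⁰ ρ̄` is unramified at `q` if `ρ̄` is.

Main result: `stmtAdUnram : StmtAdUnram` (statement in `TW/L/Plan3.lean`), unconditional.

Proof: `inertiaQ q = r⁻¹(I_P)` for `P = padicPlace q`, which lies over `q`
(`lfrobex_liesOverPrime`); so `ρ̄(r τ) = 1` for `τ ∈ inertiaQ q` and conjugation by it is trivial.
-/

set_option autoImplicit false

namespace Fermat.Agent.TW.L

open CategoryTheory
open Fermat.Agent.PT Fermat.Agent.PT.B Fermat.Agent.TW.S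

/-- `ρ̄` is trivial on the image of `inertiaQ q` if it is unramified at `q`. -/
lemma gunr_rho_eq_one {k : Type} [Field k] (ρbar : ResidualGaloisRep k) (q : ℕ) [Fact q.Prime]
    (h : ρbar.IsUnramifiedAt q) (τ : GQq q) (hτ : τ ∈ inertiaQ q) :
    ρbar.ρ (localGaloisToGlobal q τ) = 1 :=
  h (padicPlace q) (lfrobex_liesOverPrime q) _ ((mem_inertiaQ q τ).mp hτ)

/-- **G-unr**: `StmtAdUnram`. -/
theorem stmtAdUnram : StmtAdUnram := by
  intro p _ k _ _ ρbar q _ h τ hτ
  have h1 : ρbar.ρ (localGaloisToGlobal q τ) = 1 := gunr_rho_eq_one ρbar q h τ hτ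
  have h2 : ρbar.ρ (localGaloisToGlobal q τ)⁻¹ = 1 := by
    rw [← map_inv]
    exact gunr_rho_eq_one ρbar q h τ⁻¹ (inv_mem hτ)
  apply LinearMap.ext
  intro x
  apply ad0Val_injective p ρbar
  change ad0Val p ρbar ((ad0Rep p ρbar).ρ (localGaloisToGlobal q τ) x) = ad0Val p ρbar x
  rw [ad0Val_ρ, h1, h2, one_mul, mul_one]

end Fermat.Agent.TW.L


end ZBTW_012_3

/-! ### bundled: `Fermat.Agent.TW.L.AdOrd` -/
section ZBTW_012_4
/-
TW-L / G-ord (helper48): the local term at `p` in the ordinary case,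
`dim L_p^{ord} ≤ f + h⁰(G_p, ad⁰)`.

`stmtAdOrd_of : StmtLOrd → StmtLKum → StmtAdSmooth → StmtAdOrd`.

Proof.  `N = ordSub = Hom(V̄/L̄, L̄) ⊆ A = ad⁰` is stable under `G_p`, which acts on it through the
cyclotomic character (strictness); `N ↪ k` (`x ↦` the coefficient of `x e₂` along `e₁`) and
`k ↪ (A/N)^{G_p}` (`a ↦ a·diag(1, -1)`), in a basis `e₁ ∈ L̄, e₂`.  Then `L-ord` applies, and
`ordH1 ⊆ imH1`.
-/

set_option autoImplicit false
set_option linter.style.haveILetI false
set_option linter.unusedSectionVars false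

noncomputable section

namespace Fermat.Agent.TW.L

open CategoryTheory groupCohomology Polynomial
open Fermat.Agent.PT Fermat.Agent.PT.B Fermat.Agent.TW.S ExtCitation

section gordLA

variable {k : Type} [Field k] {V : Type} [AddCommGroup V] [Module k V]

/-- a basis of a plane adapted to a line -/
theorem gord_exists_basis (hV : Module.finrank k V = 2) (L : Submodule k V)
    (hL : Module.finrank k L = 1) :
    ∃ b : Module.Basis (Fin 2) k V, ∀ v : V, v ∈ L ↔ b.repr v 1 = 0 := by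
  haveI : Module.Finite k V := Module.finite_of_finrank_eq_succ hV
  obtain ⟨w₀, hw₀, hspan⟩ := finrank_eq_one_iff'.mp hL
  have hw : (w₀ : V) ≠ 0 := fun h => hw₀ (Subtype.ext h)
  have hLtop : L ≠ ⊤ := by
    intro h
    rw [h, finrank_top, hV] at hL
    omega
  obtain ⟨e, he⟩ : ∃ e : V, e ∉ L := by
    by_contra hcon
    simp only [not_exists, not_not] at hcon
    exact hLtop (Submodule.eq_top_iff'.mpr hcon)
  have hli : LinearIndependent k ![(w₀ : V), e] := by
    rw [LinearIndependent.pair_iff]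
    intro s t hst
    have ht : t = 0 := by
      by_contra ht
      apply he
      have h1 : e = (-(t⁻¹ * s)) • (w₀ : V) := by
        have h2 : t • e = -(s • (w₀ : V)) := by
          rw [eq_neg_iff_add_eq_zero, add_comm]; exact hst
        have h3 : e = t⁻¹ • (t • e) := by rw [smul_smul, inv_mul_cancel₀ ht, one_smul]
        rw [h3, h2, smul_neg, smul_smul, neg_smul]
      rw [h1]
      exact L.smul_mem _ w₀.2
    refine ⟨?_, ht⟩
    rw [ht, zero_smul, add_zero] at hst
    exact (smul_eq_zero.mp hst).resolve_right hw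
  let b : Module.Basis (Fin 2) k V :=
    basisOfLinearIndependentOfCardEqFinrank hli (by simp [hV])
  have hb : ⇑b = ![(w₀ : V), e] := coe_basisOfLinearIndependentOfCardEqFinrank hli _
  have hb0 : b 0 = (w₀ : V) := by rw [hb]; rfl
  have hb1 : b 1 = e := by rw [hb]; rfl
  refine ⟨b, fun v => ⟨fun hv => ?_, fun hv => ?_⟩⟩
  · obtain ⟨c, hc⟩ := hspan ⟨v, hv⟩
    have h1 : v = c • b 0 := by
      rw [hb0]
      exact (congrArg Subtype.val hc).symm
    rw [h1, map_smul, Module.Basis.repr_self]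
    simp
  · have h1 := b.sum_repr v
    rw [Fin.sum_univ_two, hv, zero_smul, add_zero, hb0] at h1
    rw [← h1]
    exact L.smul_mem _ w₀.2

variable (b : Module.Basis (Fin 2) k V)

/-- `diag(1, -1)` -/
def gordH : Module.End k V := b.constr k ![b 0, -b 1]

lemma gordH_apply_zero : gordH b (b 0) = b 0 := by
  unfold gordH
  rw [Module.Basis.constr_basis]
  rfl

lemma gordH_apply_one : gordH b (b 1) = -b 1 := by
  unfold gordH
  rw [Module.Basis.constr_basis]
  rfl

lemma gordH_repr_zero (v : V) : b.repr (gordH b v) 0 = b.repr v 0 := by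
  conv_lhs => rw [← b.sum_repr v]
  rw [Fin.sum_univ_two, map_add, map_smul, map_smul, gordH_apply_zero, gordH_apply_one]
  simp

lemma gordH_repr_one (v : V) : b.repr (gordH b v) 1 = -b.repr v 1 := by
  conv_lhs => rw [← b.sum_repr v]
  rw [Fin.sum_univ_two, map_add, map_smul, map_smul, gordH_apply_zero, gordH_apply_one]
  simp

lemma gordH_trace : LinearMap.trace k V (gordH b) = 0 := by
  rw [LinearMap.trace_eq_matrix_trace k b, Matrix.trace_fin_two, LinearMap.toMatrix_apply,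
    LinearMap.toMatrix_apply, gordH_repr_zero, gordH_repr_one]
  simp

lemma gordH_eq_self {v : V} (hv : b.repr v 1 = 0) : gordH b v = v := by
  apply b.repr.injective
  ext i
  fin_cases i
  · exact gordH_repr_zero b v
  · show b.repr (gordH b v) 1 = b.repr v 1
    rw [gordH_repr_one, hv, neg_zero]

lemma gordH_add_self (v : V) : b.repr (gordH b v + v) 1 = 0 := by
  rw [map_add, Finsupp.add_apply, gordH_repr_one, neg_add_cancel]

/-- an endomorphism with image in the line, killing the line, is determined by one coefficient -/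
lemma gord_eq_zero_of_coeff (X : Module.End k V) (h1 : ∀ v, b.repr (X v) 1 = 0)
    (h2 : ∀ v, b.repr v 1 = 0 → X v = 0) (h3 : b.repr (X (b 1)) 0 = 0) : X = 0 := by
  apply b.ext
  intro i
  fin_cases i
  · show X (b 0) = (0 : Module.End k V) (b 0)
    rw [LinearMap.zero_apply]
    apply h2
    rw [Module.Basis.repr_self]
    simp
  · show X (b 1) = (0 : Module.End k V) (b 1)
    rw [LinearMap.zero_apply]
    apply b.repr.injective
    ext i
    fin_cases i
    · simpa using h3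
    · simpa using h1 (b 1)

end gordLA

section gordRep

variable (p : ℕ) [Fact p.Prime] {k : Type} [Field k] [CharP k p] (ρbar : ResidualGaloisRep k)
  (Lbar : Submodule k ρbar.V)

lemma gord_ad0Val_smul [Algebra (ZMod p) k] (a : ZMod p) (x : (ad0Rep p ρbar).V) :
    ad0Val p ρbar (a • x) = algebraMap (ZMod p) k a • ad0Val p ρbar x := by
  have ha : a • x = a.val • x := by
    conv_lhs => rw [← ZMod.natCast_zmod_val a]
    exact Nat.cast_smul_eq_nsmul (ZMod p) a.val x
  have hb : algebraMap (ZMod p) k a = ((a.val : ℕ) : k) := by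
    conv_lhs => rw [← ZMod.natCast_zmod_val a]
    rw [map_natCast]
  rw [ha, hb, map_nsmul, Nat.cast_smul_eq_nsmul]

lemma gord_loc_mem (τ : GQq p) :
    localGaloisToGlobal p τ ∈ (padicPlace p).decompositionSubgroup ℚ :=
  localGaloisToGlobal_mem_decompositionSubgroup p τ

lemma gord_val_locρ (τ : GQq p) (x : (ad0Rep p ρbar).V) (v : ρbar.V) :
    ad0Val p ρbar ((locRep p (ad0Rep p ρbar)).ρ τ x) v =
      ρbar.ρ (localGaloisToGlobal p τ)
        (ad0Val p ρbar x (ρbar.ρ (localGaloisToGlobal p τ)⁻¹ v)) := rfl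

lemma gord_rho_rho_inv (σ : GQ) (v : ρbar.V) : ρbar.ρ σ (ρbar.ρ σ⁻¹ v) = v := by
  show (ρbar.ρ σ * ρbar.ρ σ⁻¹) v = v
  rw [rho_mul_inv]
  rfl

/-- `N = ordSub` is stable under `G_p` -/
lemma gord_le_comap
    (hD : ∀ σ ∈ (padicPlace p).decompositionSubgroup ℚ, ∀ v ∈ Lbar, ρbar.ρ σ v ∈ Lbar)
    (τ : GQq p) :
    ordSub p ρbar Lbar ≤ (ordSub p ρbar Lbar).comap ((locRep p (ad0Rep p ρbar)).ρ τ) := by
  intro x hx
  rw [Submodule.mem_comap, mem_ordSub]
  obtain ⟨h1, h2⟩ := (mem_ordSub p ρbar Lbar x).1 hx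
  have hσ := gord_loc_mem p τ
  have hσ' : (localGaloisToGlobal p τ)⁻¹ ∈ (padicPlace p).decompositionSubgroup ℚ :=
    Subgroup.inv_mem _ hσ
  refine ⟨fun v => ?_, fun v hv => ?_⟩
  · rw [gord_val_locρ]
    exact hD _ hσ _ (h1 _)
  · rw [gord_val_locρ, h2 _ (hD _ hσ' v hv), map_zero]

/-- `G_p` acts on `N` through the cyclotomic character -/
lemma gord_cyc [Algebra (ZMod p) k] (hS : IsStrictOrdLine p ρbar Lbar) (τ : GQq p)
    (x : (ad0Rep p ρbar).V) (hx : x ∈ ordSub p ρbar Lbar) :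
    (locRep p (ad0Rep p ρbar)).ρ τ x =
      ((cycloChar p (localGaloisToGlobal p τ) : (ZMod p)ˣ) : ZMod p) • x := by
  apply ad0Val_injective p ρbar
  rw [gord_ad0Val_smul]
  obtain ⟨h1, h2⟩ := (mem_ordSub p ρbar Lbar x).1 hx
  obtain ⟨a, z, ha, hz, haz⟩ := hS.2 _ (gord_loc_mem p τ)
  ext v
  rw [gord_val_locρ, LinearMap.smul_apply]
  have h3 : ad0Val p ρbar x v =
      z • ad0Val p ρbar x (ρbar.ρ (localGaloisToGlobal p τ)⁻¹ v) := by
    have h4 := h2 _ (hz (ρbar.ρ (localGaloisToGlobal p τ)⁻¹ v))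
    rw [gord_rho_rho_inv, map_sub, map_smul, sub_eq_zero] at h4
    exact h4
  rw [ha _ (h1 _), h3, haz, smul_smul]

variable (b : Module.Basis (Fin 2) k ρbar.V)

/-- the coefficient map `N → k` -/
def gordC : ↥(ordSub p ρbar Lbar) →+ k :=
  AddMonoidHom.mk' (fun x => b.repr (ad0Val p ρbar (x : (ad0Rep p ρbar).V) (b 1)) 0) (by
    intro x y
    simp only [Submodule.coe_add, map_add, LinearMap.add_apply, Finsupp.add_apply])

lemma gordC_injective (hbL : ∀ v, v ∈ Lbar ↔ b.repr v 1 = 0) :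
    Function.Injective (gordC p ρbar Lbar b) := by
  rw [injective_iff_map_eq_zero]
  intro x hx
  apply Subtype.ext
  apply ad0Val_injective p ρbar
  obtain ⟨h1, h2⟩ := (mem_ordSub p ρbar Lbar x).1 x.2
  have := gord_eq_zero_of_coeff b _ (fun v => (hbL _).1 (h1 v))
    (fun v hv => h2 v ((hbL v).2 hv)) hx
  rw [this]
  exact (map_zero (ad0Val p ρbar)).symm

/-- `a ↦ a · diag(1, -1)` -/
def gordT : k →+ (ad0Rep p ρbar).V :=
  AddMonoidHom.mk' (fun a => (Ad0.mk p ρbar (a • gordH b)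
      (by rw [map_smul, gordH_trace, smul_zero]) : (ad0Rep p ρbar).V)) (by
    intro a a'
    apply ad0Val_injective p ρbar
    refine Eq.trans ?_ (map_add (ad0Val p ρbar) _ _).symm
    exact add_smul a a' (gordH b))

lemma ad0Val_gordT (a : k) : ad0Val p ρbar (gordT p ρbar b a) = a • gordH b := rfl

lemma gordT_sub_mem
    (hD : ∀ σ ∈ (padicPlace p).decompositionSubgroup ℚ, ∀ v ∈ Lbar, ρbar.ρ σ v ∈ Lbar)
    (hbL : ∀ v, v ∈ Lbar ↔ b.repr v 1 = 0) (a : k) (τ : GQq p) :
    (locRep p (ad0Rep p ρbar)).ρ τ (gordT p ρbar b a) - gordT p ρbar b a ∈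
      ordSub p ρbar Lbar := by
  rw [mem_ordSub]
  have hσ := gord_loc_mem p τ
  have hσ' : (localGaloisToGlobal p τ)⁻¹ ∈ (padicPlace p).decompositionSubgroup ℚ :=
    Subgroup.inv_mem _ hσ
  refine ⟨fun v => ?_, fun v hv => ?_⟩
  · rw [map_sub, LinearMap.sub_apply, gord_val_locρ, ad0Val_gordT, LinearMap.smul_apply,
      LinearMap.smul_apply, map_smul, ← smul_sub]
    apply Lbar.smul_mem
    have e : ρbar.ρ (localGaloisToGlobal p τ)
          (gordH b (ρbar.ρ (localGaloisToGlobal p τ)⁻¹ v)) - gordH b v =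
        ρbar.ρ (localGaloisToGlobal p τ) (gordH b (ρbar.ρ (localGaloisToGlobal p τ)⁻¹ v) +
          ρbar.ρ (localGaloisToGlobal p τ)⁻¹ v) - (gordH b v + v) := by
      rw [map_add, gord_rho_rho_inv]
      abel
    rw [e]
    exact Lbar.sub_mem (hD _ hσ _ ((hbL _).2 (gordH_add_self b _)))
      ((hbL _).2 (gordH_add_self b v))
  · rw [map_sub, LinearMap.sub_apply, gord_val_locρ, ad0Val_gordT, LinearMap.smul_apply,
      LinearMap.smul_apply, map_smul, ← smul_sub]
    have hu' : ρbar.ρ (localGaloisToGlobal p τ)⁻¹ v ∈ Lbar := hD _ hσ' v hv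
    rw [gordH_eq_self b ((hbL _).1 hu'), gord_rho_rho_inv, gordH_eq_self b ((hbL _).1 hv),
      sub_self, smul_zero]

lemma gordT_mem_iff (hbL : ∀ v, v ∈ Lbar ↔ b.repr v 1 = 0) (a : k)
    (h : gordT p ρbar b a ∈ ordSub p ρbar Lbar) : a = 0 := by
  obtain ⟨-, h2⟩ := (mem_ordSub p ρbar Lbar _).1 h
  have h3 := h2 (b 0) ((hbL _).2 (by rw [Module.Basis.repr_self]; simp))
  rw [ad0Val_gordT, LinearMap.smul_apply, gordH_apply_zero] at h3
  exact (smul_eq_zero.mp h3).resolve_right (b.ne_zero 0)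

end gordRep

section gordGen

variable {k : Type} [CommRing k] {G : Type} [Group G] (𝒯 : Tower G) (A : Rep.{0} k G)
  (W : Submodule k A.V) (hstab : ∀ g, W ≤ W.comap (A.ρ g))

/-- the class of a level cocycle with values in a subrepresentation comes from its `H¹_lev` -/
lemma gord_im_of_values (c : cocycles₁ A) (hlev : IsLevel₁ 𝒯 (c : G → A.V))
    (hval : ∀ g, (c : G → A.V) g ∈ W) :
    (H1π A).hom c ∈ imH1 𝒯 (Rep.subtype A W hstab) := by
  let c' : G → (Rep.subrepresentation A W hstab).V := fun τ => ⟨(c : G → _) τ, hval τ⟩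
  have hc' : c' ∈ cocycles₁ (Rep.subrepresentation A W hstab) := by
    rw [mem_cocycles₁_iff]
    intro g h
    apply Subtype.ext
    exact (mem_cocycles₁_iff (c : G → _)).1 c.2 g h
  have hlev' : IsLevel₁ 𝒯 c' := by
    obtain ⟨U, hU, h⟩ := hlev
    exact ⟨U, hU, fun g s hs => Subtype.ext (h g s hs)⟩
  unfold imH1
  rw [Submodule.mem_map]
  refine ⟨(H1π _).hom ⟨c', hc'⟩, (mem_levH1_iff _ _ _).2 ⟨⟨c', hc'⟩, hlev', rfl⟩, ?_⟩
  have h1 := H1π_comp_map_apply (A := Rep.subrepresentation A W hstab) (B := A)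
    (MonoidHom.id G) (Rep.subtype A W hstab) ⟨c', hc'⟩
  refine h1.trans ?_
  congr 1

end gordGen

section gordFinal

variable (p : ℕ) [Fact p.Prime] {k : Type} [Field k] [CharP k p] (ρbar : ResidualGaloisRep k)
  (Lbar : Submodule k ρbar.V)

lemma gord_finite_ad0 [Finite k] : Finite (ad0Rep p ρbar).V := by
  haveI : Finite ρbar.V := Module.finite_of_finite k
  haveI : Finite (Module.End k ρbar.V) := DFunLike.finite _
  exact inferInstanceAs (Finite ↥(ad0Sub ρbar))

lemma gord_ordH1_le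
    (hstab : ∀ τ : GQq p,
      ordSub p ρbar Lbar ≤ (ordSub p ρbar Lbar).comap ((locRep p (ad0Rep p ρbar)).ρ τ)) :
    ordH1 p ρbar Lbar p ≤ imH1 (towerLoc p)
      (Rep.subtype (locRep p (ad0Rep p ρbar)) (ordSub p ρbar Lbar) hstab) := by
  intro x hx
  obtain ⟨c, hlev, hval, rfl⟩ := (mem_ordH1 p ρbar Lbar p x).1 hx
  exact gord_im_of_values (towerLoc p) (locRep p (ad0Rep p ρbar)) (ordSub p ρbar Lbar) hstab c
    hlev hval

end gordFinal

/-- **G-ord** from `L-ord`, `L-kum` and `G-smooth`. -/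
theorem stmtAdOrd_of (hord : StmtLOrd) (hkum : StmtLKum) (hsm : StmtAdSmooth) : StmtAdOrd := by
  intro p _ hp2 k _ _ _ _ ρbar Lbar hS
  obtain ⟨b, hbL⟩ := gord_exists_basis ρbar.finrank_eq Lbar hS.1.1
  have hD := hS.1.2.1
  have hstab := gord_le_comap p ρbar Lbar hD
  haveI : Finite (ad0Rep p ρbar).V := gord_finite_ad0 p ρbar
  haveI : Module.Finite (ZMod p) (locRep p (ad0Rep p ρbar)).V :=
    inferInstanceAs (Module.Finite (ZMod p) (ad0Rep p ρbar).V)
  haveI : Module.Finite (ZMod p)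
      (Rep.subrepresentation (locRep p (ad0Rep p ρbar)) (ordSub p ρbar Lbar) hstab).V :=
    inferInstanceAs (Module.Finite (ZMod p) ↥(ordSub p ρbar Lbar))
  haveI : Module.Finite (ZMod p) k := Module.Finite.of_finite
  have hi : Function.Injective
      (Rep.subtype (locRep p (ad0Rep p ρbar)) (ordSub p ρbar Lbar) hstab).hom :=
    Subtype.val_injective
  have hπ : Function.Surjective
      (Rep.mkQ (locRep p (ad0Rep p ρbar)) (ordSub p ρbar Lbar) hstab).hom :=
    (ordSub p ρbar Lbar).mkQ_surjective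
  have hex : ∀ a : (locRep p (ad0Rep p ρbar)).V,
      (Rep.mkQ (locRep p (ad0Rep p ρbar)) (ordSub p ρbar Lbar) hstab).hom a = 0 ↔
        ∃ n : (Rep.subrepresentation (locRep p (ad0Rep p ρbar)) (ordSub p ρbar Lbar) hstab).V,
          (Rep.subtype (locRep p (ad0Rep p ρbar)) (ordSub p ρbar Lbar) hstab).hom n = a := by
    intro a
    show (ordSub p ρbar Lbar).mkQ a = 0 ↔ _
    rw [Submodule.mkQ_apply, Submodule.Quotient.mk_eq_zero]
    exact ⟨fun h => ⟨⟨a, h⟩, rfl⟩, fun ⟨n, hn⟩ => hn ▸ n.2⟩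
  have hcyc : ∀ (τ : GQq p)
      (m : (Rep.subrepresentation (locRep p (ad0Rep p ρbar)) (ordSub p ρbar Lbar) hstab).V),
      (Rep.subrepresentation (locRep p (ad0Rep p ρbar)) (ordSub p ρbar Lbar) hstab).ρ τ m =
        ((cycloChar p (localGaloisToGlobal p τ) : (ZMod p)ˣ) : ZMod p) • m := by
    intro τ m
    apply Subtype.ext
    exact gord_cyc p ρbar Lbar hS τ m.1 m.2
  have hNk : Module.finrank (ZMod p)
      (Rep.subrepresentation (locRep p (ad0Rep p ρbar)) (ordSub p ρbar Lbar) hstab).V ≤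
        Module.finrank (ZMod p) k :=
    LinearMap.finrank_le_finrank_of_injective
      (f := AddMonoidHom.toZModLinearMap p (gordC p ρbar Lbar b))
      (gordC_injective p ρbar Lbar b hbL)
  have hinv : ∀ a : k, (ordSub p ρbar Lbar).mkQ (gordT p ρbar b a) ∈
      (Rep.quotient (locRep p (ad0Rep p ρbar)) (ordSub p ρbar Lbar) hstab).ρ.invariants := by
    intro a τ
    show (ordSub p ρbar Lbar).mkQ ((locRep p (ad0Rep p ρbar)).ρ τ (gordT p ρbar b a)) =
      (ordSub p ρbar Lbar).mkQ (gordT p ρbar b a)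
    rw [Submodule.mkQ_apply, Submodule.mkQ_apply, Submodule.Quotient.eq]
    exact gordT_sub_mem p ρbar Lbar b hD hbL a τ
  have hkB : Module.finrank (ZMod p) k ≤ Module.finrank (ZMod p)
      (Rep.quotient (locRep p (ad0Rep p ρbar)) (ordSub p ρbar Lbar) hstab).ρ.invariants := by
    let T : k →+ ↥((Rep.quotient (locRep p (ad0Rep p ρbar))
        (ordSub p ρbar Lbar) hstab).ρ.invariants) :=
      AddMonoidHom.mk' (fun a => ⟨(ordSub p ρbar Lbar).mkQ (gordT p ρbar b a), hinv a⟩) (by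
        intro a a'
        apply Subtype.ext
        show (ordSub p ρbar Lbar).mkQ (gordT p ρbar b (a + a')) =
          (ordSub p ρbar Lbar).mkQ (gordT p ρbar b a) +
            (ordSub p ρbar Lbar).mkQ (gordT p ρbar b a')
        rw [map_add, map_add])
    have hT : Function.Injective T := by
      rw [injective_iff_map_eq_zero]
      intro a ha
      have h1 : (ordSub p ρbar Lbar).mkQ (gordT p ρbar b a) = 0 :=
        congrArg Subtype.val ha
      rw [Submodule.mkQ_apply, Submodule.Quotient.mk_eq_zero] at h1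
      exact gordT_mem_iff p ρbar Lbar b hbL a h1
    exact LinearMap.finrank_le_finrank_of_injective
      (f := AddMonoidHom.toZModLinearMap p T) hT
  obtain ⟨hfin, -⟩ := hkum p hp2 _ hcyc
  have h1 := hord p hp2 _ _ _ _ _ hi hπ hex (hsm p k ρbar p) hcyc (hNk.trans hkB)
  have hle := gord_ordH1_le p ρbar Lbar hstab
  haveI : Module.Finite (ZMod p) (imH1 (towerLoc p)
      (Rep.subtype (locRep p (ad0Rep p ρbar)) (ordSub p ρbar Lbar) hstab)) := by
    unfold imH1
    exact Module.Finite.map _ _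
  haveI hfo : Module.Finite (ZMod p) (ordH1 p ρbar Lbar p) :=
    Module.Finite.of_injective (Submodule.inclusion hle) (Submodule.inclusion_injective hle)
  refine ⟨hfo, ?_⟩
  have h2 := Submodule.finrank_mono hle
  omega

end Fermat.Agent.TW.L

end


end ZBTW_012_4

/-! ### bundled: `Fermat.Agent.TW.L.AdGlob0` -/
section ZBTW_012_5

/-!
# TW-L / G-glob0: `H⁰(G_ℚ, ad⁰ ρ̄) = 0`

`stmtAdGlob0_of : StmtGlobAd → StmtAdGlob0`.
-/

set_option autoImplicit false

noncomputable section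

namespace Fermat.Agent.TW.L

open CategoryTheory Fermat.Agent.TW.S

/-- `2 ≠ 0` in a field of odd characteristic -/
theorem gglob0_two_ne_zero (p : ℕ) [Fact p.Prime] (hp : p ≠ 2) (k : Type) [Field k] [CharP k p] :
    (2 : k) ≠ 0 := by
  intro h
  have h2 : ((2 : ℕ) : k) = 0 := by exact_mod_cast h
  rw [CharP.cast_eq_zero_iff k p] at h2
  exact hp ((Nat.prime_dvd_prime_iff_eq (Fact.out : p.Prime) Nat.prime_two).1 h2)

/-- an invariant of `ad⁰ ρ̄` commutes with `ρ̄` -/
theorem gglob0_comm (p : ℕ) [Fact p.Prime] {k : Type} [Field k] [CharP k p]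
    (ρbar : ResidualGaloisRep k) (x : (ad0Rep p ρbar).V) (σ : GQ')
    (hx : (ad0Rep p ρbar).ρ σ x = x) :
    ρbar.ρ σ * ad0Val p ρbar x = ad0Val p ρbar x * ρbar.ρ σ := by
  have h := congrArg (ad0Val p ρbar) hx
  rw [ad0Val_ρ] at h
  calc ρbar.ρ σ * ad0Val p ρbar x
      = ρbar.ρ σ * ad0Val p ρbar x * (ρbar.ρ σ⁻¹ * ρbar.ρ σ) := by
        rw [rho_inv_mul, mul_one]
    _ = (ρbar.ρ σ * ad0Val p ρbar x * ρbar.ρ σ⁻¹) * ρbar.ρ σ := by
        simp only [mul_assoc]
    _ = ad0Val p ρbar x * ρbar.ρ σ := by rw [h]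

/-- **G-glob0** from **L-glob0**. -/
theorem stmtAdGlob0_of (h0 : StmtGlobAd) : StmtAdGlob0 := by
  intro p _ hp k _ _ ρbar hirr
  rw [eq_bot_iff]
  intro x hx
  rw [Representation.mem_invariants] at hx
  rw [Submodule.mem_bot]
  apply ad0Val_injective p ρbar
  rw [map_zero]
  exact h0 k ρbar (gglob0_two_ne_zero p hp k) hirr (ad0Val p ρbar x)
    (fun σ => gglob0_comm p ρbar x σ (hx σ)) (trace_ad0Val p ρbar x)

end Fermat.Agent.TW.L

end
end ZBTW_012_5

/-! ### bundled: `Fermat.Agent.TW.L.AdGlob1` -/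
section ZBTW_012_6

/-!
# TW-L / G-glob1: `H⁰(G_ℚ, ad⁰ ρ̄(1)) = 0`

`stmtAdGlob1_of : StmtGlobAdTwist → StmtAdGlob1`.

The pairing `(X, a) ↦ Tr_{k/𝔽_p} tr(X a)` on `ad⁰` is perfect for `p` odd; an invariant functional
of the dual twist is `a ↦ Tr tr(X a)` with `ρ̄(σ) X = χ̄(σ)⁻¹ X ρ̄(σ)`, so `X = 0` by L-glob1.
-/

set_option autoImplicit false
set_option linter.unusedSectionVars false

noncomputable section

namespace Fermat.Agent.TW.L

open CategoryTheory Fermat.Agent.TW.S ExtCitation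

section TraceForm

variable {k : Type} [Field k] {V : Type} [AddCommGroup V] [Module k V] [Module.Finite k V]

/-- nondegeneracy of the trace form on `End V` -/
theorem gglob1_trace_nondeg (X : Module.End k V)
    (h : ∀ b : Module.End k V, LinearMap.trace k V (X * b) = 0) : X = 0 := by
  apply LinearMap.ext
  intro w
  rw [LinearMap.zero_apply, ← Module.forall_dual_apply_eq_zero_iff k]
  intro φ
  have h1 := h (φ.smulRight w)
  have e : X * (φ.smulRight w) = φ.smulRight (X w) := by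
    apply LinearMap.ext
    intro v
    rw [Module.End.mul_apply, LinearMap.smulRight_apply, LinearMap.smulRight_apply, map_smul]
  rw [e, LinearMap.trace_smulRight] at h1
  exact h1

/-- nondegeneracy of the trace form on the trace-zero endomorphisms, `dim V = 2`, `2 ≠ 0` -/
theorem gglob1_trace_nondeg0 (h2 : (2 : k) ≠ 0) (hdim : Module.finrank k V = 2)
    (X : Module.End k V) (hX : LinearMap.trace k V X = 0)
    (h : ∀ a : Module.End k V, LinearMap.trace k V a = 0 → LinearMap.trace k V (X * a) = 0) :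
    X = 0 := by
  apply gglob1_trace_nondeg
  intro b
  have ha : LinearMap.trace k V (b - (LinearMap.trace k V b / 2) • (1 : Module.End k V)) = 0 := by
    rw [map_sub, map_smul, LinearMap.trace_one, hdim, smul_eq_mul]
    push_cast
    field_simp
    ring
  have h1 := h _ ha
  rw [mul_sub, mul_smul_comm, mul_one, map_sub, map_smul, hX, smul_zero, sub_zero] at h1
  exact h1

end TraceForm

section Pairing

variable (p : ℕ) [Fact p.Prime] {k : Type} [Field k] [CharP k p] [Algebra (ZMod p) k] [Finite k]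
  (ρbar : ResidualGaloisRep k)

/-- the pairing `Tr_{k/𝔽_p} tr(X a)` -/
def gglob1Pair (X : Module.End k ρbar.V) (a : (ad0Rep p ρbar).V) : ZMod p :=
  Algebra.trace (ZMod p) k (LinearMap.trace k ρbar.V (X * ad0Val p ρbar a))

theorem gglob1Pair_add_right (X : Module.End k ρbar.V) (a b : (ad0Rep p ρbar).V) :
    gglob1Pair p ρbar X (a + b) = gglob1Pair p ρbar X a + gglob1Pair p ρbar X b := by
  unfold gglob1Pair
  rw [map_add, mul_add, map_add, map_add]

theorem gglob1Pair_add_left (X Y : Module.End k ρbar.V) (a : (ad0Rep p ρbar).V) :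
    gglob1Pair p ρbar (X + Y) a = gglob1Pair p ρbar X a + gglob1Pair p ρbar Y a := by
  unfold gglob1Pair
  rw [add_mul, map_add, map_add]

/-- the pairing is nondegenerate on the left -/
theorem gglob1_inj (hp : p ≠ 2) (X : Module.End k ρbar.V) (hX : LinearMap.trace k ρbar.V X = 0)
    (h : ∀ a : (ad0Rep p ρbar).V, gglob1Pair p ρbar X a = 0) : X = 0 := by
  have hfin : FiniteDimensional (ZMod p) k := Module.Finite.of_finite
  apply gglob1_trace_nondeg0 (gglob0_two_ne_zero p hp k) ρbar.finrank_eq X hX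
  intro a ha
  apply (traceForm_nondegenerate (ZMod p) k).1
  intro c
  rw [Algebra.traceForm_apply]
  have hca : LinearMap.trace k ρbar.V (c • a) = 0 := by rw [map_smul, ha, smul_zero]
  obtain ⟨a', ha'⟩ := exists_ad0Val_eq p ρbar (c • a) hca
  have h1 := h a'
  unfold gglob1Pair at h1
  rw [ha', mul_smul_comm, map_smul, smul_eq_mul, mul_comm] at h1
  exact h1

/-- the functional `a ↦ Tr tr(X a)` -/
def gglob1Fun (X : Module.End k ρbar.V) : Module.Dual (ZMod p) (ad0Rep p ρbar).V :=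
  AddMonoidHom.toZModLinearMap p
    (AddMonoidHom.mk' (fun a => gglob1Pair p ρbar X a) (gglob1Pair_add_right p ρbar X))

theorem gglob1Fun_apply (X : Module.End k ρbar.V) (a : (ad0Rep p ρbar).V) :
    gglob1Fun p ρbar X a = gglob1Pair p ρbar X a := rfl

/-- the map `x ↦ (a ↦ Tr tr(x a))` -/
def gglob1Map : (ad0Rep p ρbar).V →ₗ[ZMod p] Module.Dual (ZMod p) (ad0Rep p ρbar).V :=
  AddMonoidHom.toZModLinearMap p
    (AddMonoidHom.mk' (fun x => gglob1Fun p ρbar (ad0Val p ρbar x)) (by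
      intro x y
      apply LinearMap.ext
      intro a
      rw [LinearMap.add_apply, gglob1Fun_apply, gglob1Fun_apply, gglob1Fun_apply, map_add,
        gglob1Pair_add_left]))

theorem gglob1Map_apply (x a : (ad0Rep p ρbar).V) :
    gglob1Map p ρbar x a = gglob1Pair p ρbar (ad0Val p ρbar x) a := rfl

theorem gglob1_finite : Finite (ad0Rep p ρbar).V := by
  have : Finite ρbar.V := Module.finite_of_finite k
  have : Finite (Module.End k ρbar.V) := DFunLike.finite _
  exact Finite.of_injective _ (ad0Val_injective p ρbar)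

theorem gglob1Map_injective (hp : p ≠ 2) : Function.Injective (gglob1Map p ρbar) := by
  rw [injective_iff_map_eq_zero]
  intro x hx
  apply ad0Val_injective p ρbar
  rw [map_zero]
  apply gglob1_inj p ρbar hp _ (trace_ad0Val p ρbar x)
  intro a
  rw [← gglob1Map_apply, hx, LinearMap.zero_apply]

theorem gglob1Map_surjective (hp : p ≠ 2) : Function.Surjective (gglob1Map p ρbar) := by
  have := gglob1_finite p ρbar
  have : FiniteDimensional (ZMod p) (ad0Rep p ρbar).V := Module.Finite.of_finite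
  have hfr : Module.finrank (ZMod p) (ad0Rep p ρbar).V =
      Module.finrank (ZMod p) (Module.Dual (ZMod p) (ad0Rep p ρbar).V) :=
    Subspace.dual_finrank_eq.symm
  exact (LinearMap.injective_iff_surjective_of_finrank_eq_finrank hfr).1
    (gglob1Map_injective p ρbar hp)

/-- invariance of `a ↦ Tr tr(X a)` under the dual twist gives the twisted commutation relation -/
theorem gglob1_twist (hp : p ≠ 2) (x : (ad0Rep p ρbar).V)
    (hinv : ∀ σ : GQ', ((ad0Rep p ρbar).dualTwist (cycloChar p)).ρ σ (gglob1Map p ρbar x) =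
      gglob1Map p ρbar x) (σ : GQ') :
    ρbar.ρ σ * ad0Val p ρbar x =
      algebraMap (ZMod p) k ((((cycloChar p σ) ^ (-1 : ℤ) : (ZMod p)ˣ)) : ZMod p) •
        (ad0Val p ρbar x * ρbar.ρ σ) := by
  obtain ⟨X, hXdef⟩ : ∃ X : Module.End k ρbar.V, X = ad0Val p ρbar x := ⟨_, rfl⟩
  obtain ⟨u, hu⟩ : ∃ u : (ZMod p)ˣ, u = cycloChar p σ := ⟨_, rfl⟩
  rw [← hXdef, ← hu]
  have hX : LinearMap.trace k ρbar.V X = 0 := by rw [hXdef]; exact trace_ad0Val p ρbar x
  have hkey : algebraMap (ZMod p) k (u : ZMod p) • (ρbar.ρ σ * X * ρbar.ρ σ⁻¹) - X = 0 := by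
    apply gglob1_inj p ρbar hp
    · rw [map_sub, map_smul, trace_conj, hX, smul_zero, sub_zero]
    · intro a
      have h1 := congrArg (fun f : Module.Dual (ZMod p) (ad0Rep p ρbar).V => f a) (hinv σ)
      simp only [] at h1
      rw [Rep.dualTwist_ρ_apply, LinearMap.smul_apply, LinearMap.comp_apply, gglob1Map_apply,
        gglob1Map_apply, ← hXdef, ← hu] at h1
      unfold gglob1Pair at h1 ⊢
      rw [ad0Val_ρ, inv_inv] at h1
      rw [sub_mul, map_sub, map_sub, smul_mul_assoc, map_smul, Algebra.algebraMap_eq_smul_one,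
        smul_assoc, one_smul, map_smul, sub_eq_zero, ← h1]
      congr 2
      calc LinearMap.trace k ρbar.V (ρbar.ρ σ * X * ρbar.ρ σ⁻¹ * ad0Val p ρbar a)
          = LinearMap.trace k ρbar.V (ρbar.ρ σ * (X * ρbar.ρ σ⁻¹ * ad0Val p ρbar a)) := by
            simp only [mul_assoc]
        _ = LinearMap.trace k ρbar.V ((X * ρbar.ρ σ⁻¹ * ad0Val p ρbar a) * ρbar.ρ σ) :=
            LinearMap.trace_mul_comm k _ _
        _ = LinearMap.trace k ρbar.V (X * (ρbar.ρ σ⁻¹ * ad0Val p ρbar a * ρbar.ρ σ)) := by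
            simp only [mul_assoc]
  have hc : algebraMap (ZMod p) k (((u ^ (-1 : ℤ) : (ZMod p)ˣ)) : ZMod p) *
      algebraMap (ZMod p) k (u : ZMod p) = 1 := by
    rw [← map_mul, zpow_neg_one, ← Units.val_mul, inv_mul_cancel, Units.val_one, map_one]
  have h2 : algebraMap (ZMod p) k (u : ZMod p) • (ρbar.ρ σ * X * ρbar.ρ σ⁻¹) = X :=
    sub_eq_zero.1 hkey
  have h3 : X * ρbar.ρ σ = algebraMap (ZMod p) k (u : ZMod p) • (ρbar.ρ σ * X) := by
    conv_lhs => rw [← h2]
    rw [smul_mul_assoc, mul_assoc, rho_inv_mul, mul_one]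
  rw [h3, smul_smul, hc, one_smul]

/-- **G-glob1** from **L-glob1**. -/
theorem stmtAdGlob1_of (h1 : StmtGlobAdTwist) : StmtAdGlob1 := by
  intro p _ hp k _ _ _ _ ρbar hirr hidx
  rw [eq_bot_iff]
  intro f hf
  rw [Representation.mem_invariants] at hf
  rw [Submodule.mem_bot]
  obtain ⟨x, rfl⟩ := gglob1Map_surjective p ρbar hp f
  have hX0 : ad0Val p ρbar x = 0 :=
    h1 p hp k ρbar hirr hidx (-1) (Or.inr rfl) (ad0Val p ρbar x)
      (fun σ => gglob1_twist p ρbar hp x hf σ)
  have hx0 : x = 0 := by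
    apply ad0Val_injective p ρbar
    rw [hX0, map_zero]
  rw [hx0, map_zero]

end Pairing

end Fermat.Agent.TW.L

end
end ZBTW_012_6

/-! ### bundled: `Fermat.Agent.TW.G.Wire.Phi` -/
section ZBTW_012_7

/-!
# TW-G / G-wire W2 (helper26): the dictionary `ad⁰(1) ≅ (trace-zero matrices, twisted adjoint action)`

`stmtWPhi_of : StmtWDet → StmtWPhi`.
`Φ(f) =` the matrix (in the basis `b`) of the unique trace-zero endomorphism `x` with
`f(a) = Tr_{k/𝔽_p} tr(x a)` (`TW/L/AdGlob1.lean`, helper83).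
-/

set_option autoImplicit false
set_option linter.unusedSectionVars false
set_option linter.unusedVariables false
set_option linter.style.haveILetI false

noncomputable section

namespace Fermat.Agent.TW.G.Wire

open CategoryTheory groupCohomology Polynomial IsLocalRing
open Fermat.Agent.PT Fermat.Agent.PT.B Fermat.Agent.TW.S Fermat.Agent.TW.L ExtCitation
open Fermat.Agent.TW.G.Sel

/-- the twisted adjoint action in terms of a left inverse -/
lemma gwp_act {k : Type} [Field k] (R Rinv X : M2 k) (h : Rinv * R = 1) :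
    act R X = R.det • (R * X * Rinv) := by
  unfold act
  have h1 : R * R.adjugate = R.det • (1 : M2 k) := Matrix.mul_adjugate R
  calc R * X * R.adjugate = R * X * ((Rinv * R) * R.adjugate) := by rw [h, one_mul]
    _ = R * X * (Rinv * (R * R.adjugate)) := by rw [mul_assoc Rinv]
    _ = R * X * (Rinv * (R.det • (1 : M2 k))) := by rw [h1]
    _ = R.det • (R * X * Rinv) := by
      rw [Matrix.mul_smul, Matrix.mul_one, Matrix.mul_smul]

variable {k : Type} [Field k] [Finite k] (p : ℕ) [Fact p.Prime] [CharP k p]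
  [Algebra (ZMod p) k] (ρbar : ResidualGaloisRep k)

/-- the scalars of `𝔽_p` act on `ad⁰` through `k` -/
lemma gwp_val_smul (a : ZMod p) (y : (ad0Rep p ρbar).V) :
    ad0Val p ρbar (a • y) = ((a.val : ℕ) : k) • ad0Val p ρbar y := by
  have h1 : a • y = a.val • y := by
    conv_lhs => rw [← ZMod.natCast_zmod_val a]
    exact Nat.cast_smul_eq_nsmul (ZMod p) a.val y
  rw [h1, map_nsmul, Nat.cast_smul_eq_nsmul]

/-- the dual twist in terms of the trace form -/
lemma gwp_twist (σ : GQ) (x : (ad0Rep p ρbar).V) :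
    (adTw p ρbar).ρ σ (gglob1Map p ρbar x) =
      gglob1Map p ρbar (((cycloChar p σ : (ZMod p)ˣ) : ZMod p) • (ad0Rep p ρbar).ρ σ x) := by
  apply LinearMap.ext
  intro a
  rw [map_smul, LinearMap.smul_apply, Rep.dualTwist_ρ_apply, LinearMap.smul_apply,
    LinearMap.comp_apply, gglob1Map_apply, gglob1Map_apply]
  congr 1
  unfold gglob1Pair
  rw [ad0Val_ρ, ad0Val_ρ, inv_inv]
  congr 1
  calc LinearMap.trace k ρbar.V
        (ad0Val p ρbar x * (ρbar.ρ σ⁻¹ * ad0Val p ρbar a * ρbar.ρ σ))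
      = LinearMap.trace k ρbar.V
        ((ad0Val p ρbar x * ρbar.ρ σ⁻¹ * ad0Val p ρbar a) * ρbar.ρ σ) := by
          simp only [mul_assoc]
    _ = LinearMap.trace k ρbar.V
        (ρbar.ρ σ * (ad0Val p ρbar x * ρbar.ρ σ⁻¹ * ad0Val p ρbar a)) :=
          LinearMap.trace_mul_comm k _ _
    _ = LinearMap.trace k ρbar.V
        (ρbar.ρ σ * ad0Val p ρbar x * ρbar.ρ σ⁻¹ * ad0Val p ρbar a) := by
          simp only [mul_assoc]

/-- **W2** from **W1a**. -/
theorem stmtWPhi_of (hdet : StmtWDet) : StmtWPhi := by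
  intro k _ _ p _ _ hp ρbar hcyc b
  letI : Algebra (ZMod p) k := ZMod.algebra k p
  let e : (ad0Rep p ρbar).V ≃ₗ[ZMod p] Module.Dual (ZMod p) (ad0Rep p ρbar).V :=
    LinearEquiv.ofBijective (gglob1Map p ρbar)
      ⟨gglob1Map_injective p ρbar hp, gglob1Map_surjective p ρbar hp⟩
  have he : ∀ x, e x = gglob1Map p ρbar x := fun x => rfl
  let Φ : (adTw p ρbar).V →+ M2 k :=
    { toFun := fun f => LinearMap.toMatrix b b (ad0Val p ρbar (e.symm f))
      map_zero' := by rw [map_zero, map_zero, map_zero]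
      map_add' := fun f g => by rw [map_add, map_add, map_add] }
  have hΦ : ∀ f, Φ f = LinearMap.toMatrix b b (ad0Val p ρbar (e.symm f)) := fun f => rfl
  refine ⟨Φ, ?_, ?_, ?_, ?_⟩
  · intro f g hfg
    rw [hΦ, hΦ] at hfg
    have h1 := (LinearMap.toMatrix b b).injective hfg
    have h2 := ad0Val_injective p ρbar h1
    exact e.symm.injective h2
  · intro f
    rw [hΦ, ← LinearMap.trace_eq_matrix_trace k b]
    exact trace_ad0Val p ρbar _
  · intro m hm
    obtain ⟨X, hX⟩ : ∃ X : Module.End k ρbar.V, LinearMap.toMatrix b b X = m :=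
      (LinearMap.toMatrix b b).surjective m
    have hXtr : LinearMap.trace k ρbar.V X = 0 := by
      rw [LinearMap.trace_eq_matrix_trace k b, hX]
      exact hm
    obtain ⟨x, hx⟩ := exists_ad0Val_eq p ρbar X hXtr
    refine ⟨e x, ?_⟩
    rw [hΦ, LinearEquiv.symm_apply_apply, hx, hX]
  · intro σ f
    obtain ⟨x, rfl⟩ := e.surjective f
    have hinv : LinearMap.toMatrix b b (ρbar.ρ σ⁻¹) * (rhoGL ρbar b σ).1 = 1 := by
      rw [rhoGL_val, ← LinearMap.toMatrix_mul, rho_inv_mul, LinearMap.toMatrix_one]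
    rw [hΦ, hΦ, LinearEquiv.symm_apply_apply, he, gwp_twist, ← he, LinearEquiv.symm_apply_apply,
      gwp_val_smul, ad0Val_ρ, map_smul, LinearMap.toMatrix_mul, LinearMap.toMatrix_mul,
      gwp_act (rhoGL ρbar b σ).1 (LinearMap.toMatrix b b (ρbar.ρ σ⁻¹)) _ hinv,
      hdet k p ρbar hcyc b σ, rhoGL_val]

/-- **W2.** -/
theorem stmtWPhi : StmtWPhi := stmtWPhi_of stmtWDet

end Fermat.Agent.TW.G.Wire

end


end ZBTW_012_7

/-! ### bundled: `Fermat.Agent.TW.G.Wire.Final` -/
section ZBTW_012_8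

/-!
# TW-G / G-wire (helper26): the final deliverable `stmtGKill : StmtGKill`, unconditional

Taylor–Wiles primes kill any finite-dimensional space of level classes of `H¹(G_ℚ, ad⁰ρ̄(1))`.
-/

set_option autoImplicit false

namespace Fermat.Agent.TW.G.Wire

open Fermat.Agent.TW.G.Sel

/-- **W1**: the hypotheses of S56 give the abstract hypotheses of G-sel. -/
theorem stmtWHyp : StmtWHyp :=
  stmtWHypAsm stmtWDet stmtWChiSurj stmtWIrr stmtWCyc

/-- **The final deliverable of TW-G.** -/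
theorem stmtGKill : StmtGKill :=
  stmtWAsm stmtGSel stmtWHyp stmtWPhi stmtWTransfer

end Fermat.Agent.TW.G.Wire


end ZBTW_012_8
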