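/- GENERATED FILE (helper35, build-time optimisation, NOTES/ZB.md): verbatim concatenation of the modules
   Fermat.Agent.TW.L.Centralizer
   Fermat.Agent.TW.L.AdInvLe
   Fermat.Agent.TW.L.AdArch
   Do not edit; do not import together with these modules. -/
import Fermat.Agent.ZB.PT_003
import Mathlib
import Fermat.Agent.ZB.TW_012
import Fermat.Agent.ZB.TW_010
import Fermat.Agent.ZB.TW_027

/-! ### bundled: `Fermat.Agent.TW.L.Centralizer` -/
section ZBTW_026_0

/-!
# TW-L / L-sl2: the trace-zero centraliser of a regular semisimple element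

`stmtCentralizer : StmtCentralizer`: for `g ∈ End(V)`, `dim V = 2`, with characteristic polynomial
`(X - α)(X - β)`, `α ≠ β`, the space `{X | g X = X g, tr X = 0}` is one-dimensional
(all characteristics).
-/

set_option autoImplicit false
set_option linter.unusedSectionVars false

noncomputable section

namespace Fermat.Agent.TW.L

open Polynomial Module

section

variable {k : Type} [Field k] {V : Type} [AddCommGroup V] [Module k V] [Module.Finite k V]

/-- eigenvectors for the two roots of the characteristic polynomial -/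
theorem lsl2_exists_eigen (g : Module.End k V) (α β : k)
    (hχ : LinearMap.charpoly g = (X - C α) * (X - C β)) :
    (∃ v : V, v ≠ 0 ∧ g v = α • v) ∧ ∃ v : V, v ≠ 0 ∧ g v = β • v := by
  have hα : g.HasEigenvalue α := by
    rw [Module.End.hasEigenvalue_iff_isRoot_charpoly, hχ]
    simp
  have hβ : g.HasEigenvalue β := by
    rw [Module.End.hasEigenvalue_iff_isRoot_charpoly, hχ]
    simp
  obtain ⟨v, hv⟩ := hα.exists_hasEigenvector
  obtain ⟨w, hw⟩ := hβ.exists_hasEigenvector
  exact ⟨⟨v, hv.2, hv.apply_eq_smul⟩, ⟨w, hw.2, hw.apply_eq_smul⟩⟩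

/-- an eigenbasis -/
theorem lsl2_exists_basis (hV : Module.finrank k V = 2) (g : Module.End k V) (α β : k)
    (hαβ : α ≠ β) (hχ : LinearMap.charpoly g = (X - C α) * (X - C β)) :
    ∃ b : Basis (Fin 2) k V, g (b 0) = α • b 0 ∧ g (b 1) = β • b 1 := by
  obtain ⟨⟨v, hv0, hv⟩, ⟨w, hw0, hw⟩⟩ := lsl2_exists_eigen g α β hχ
  have hli : LinearIndependent k ![v, w] := by
    rw [LinearIndependent.pair_iff]
    intro s t hst
    have h1 := congrArg g hst
    rw [map_add, map_smul, map_smul, hv, hw, map_zero] at h1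
    -- `s α v + t β w = 0` and `s v + t w = 0`
    have h2 : (t * (β - α)) • w = 0 := by
      have h3 : s • α • v + t • β • w - α • (s • v + t • w) = 0 := by rw [h1, hst, smul_zero, sub_zero]
      have h4 : s • α • v + t • β • w - α • (s • v + t • w) = (t * (β - α)) • w := by
        simp only [smul_add, smul_smul, sub_smul, mul_sub]
        rw [mul_comm s α, mul_comm α t]
        abel
      rw [← h4, h3]
    have ht : t = 0 := by
      rcases smul_eq_zero.mp h2 with h | h
      · rcases mul_eq_zero.mp h with h | h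
        · exact h
        · exact absurd (sub_eq_zero.mp h).symm hαβ
      · exact absurd h hw0
    rw [ht, zero_smul, add_zero] at hst
    rcases smul_eq_zero.mp hst with h | h
    · exact ⟨h, ht⟩
    · exact absurd h hv0
  have hcard : Fintype.card (Fin 2) = Module.finrank k V := by rw [hV]; rfl
  refine ⟨basisOfLinearIndependentOfCardEqFinrank hli hcard, ?_, ?_⟩
  · rw [coe_basisOfLinearIndependentOfCardEqFinrank]
    exact hv
  · rw [coe_basisOfLinearIndependentOfCardEqFinrank]
    exact hw

/-- the `α`-eigenspace is the line of `b 0` -/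
theorem lsl2_eigen_zero (b : Basis (Fin 2) k V) (g : Module.End k V) {α β : k} (hαβ : α ≠ β)
    (h0 : g (b 0) = α • b 0) (h1 : g (b 1) = β • b 1) {z : V} (hz : g z = α • z) :
    z = b.repr z 0 • b 0 := by
  have hsum : z = b.repr z 0 • b 0 + b.repr z 1 • b 1 := by
    conv_lhs => rw [← b.sum_repr z, Fin.sum_univ_two]
  have h2 : (b.repr z 1 * (β - α)) • b 1 = 0 := by
    have h3 : g z - α • z = 0 := by rw [hz, sub_self]
    have h4 : g z - α • z = (b.repr z 1 * (β - α)) • b 1 := by
      conv_lhs => rw [hsum]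
      rw [map_add, map_smul, map_smul, h0, h1]
      simp only [smul_add, smul_smul, sub_smul, mul_sub]
      rw [mul_comm (b.repr z 0) α, mul_comm α (b.repr z 1)]
      abel
    rw [← h4, h3]
  have hy : b.repr z 1 = 0 := by
    rcases smul_eq_zero.mp h2 with h | h
    · rcases mul_eq_zero.mp h with h | h
      · exact h
      · exact absurd (sub_eq_zero.mp h).symm hαβ
    · exact absurd h (b.ne_zero 1)
  rw [hy, zero_smul, add_zero] at hsum
  exact hsum

/-- the `β`-eigenspace is the line of `b 1` -/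
theorem lsl2_eigen_one (b : Basis (Fin 2) k V) (g : Module.End k V) {α β : k} (hαβ : α ≠ β)
    (h0 : g (b 0) = α • b 0) (h1 : g (b 1) = β • b 1) {z : V} (hz : g z = β • z) :
    z = b.repr z 1 • b 1 := by
  have hsum : z = b.repr z 0 • b 0 + b.repr z 1 • b 1 := by
    conv_lhs => rw [← b.sum_repr z, Fin.sum_univ_two]
  have h2 : (b.repr z 0 * (α - β)) • b 0 = 0 := by
    have h3 : g z - β • z = 0 := by rw [hz, sub_self]
    have h4 : g z - β • z = (b.repr z 0 * (α - β)) • b 0 := by
      conv_lhs => rw [hsum]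
      rw [map_add, map_smul, map_smul, h0, h1]
      simp only [smul_add, smul_smul, sub_smul, mul_sub]
      rw [mul_comm (b.repr z 1) β, mul_comm β (b.repr z 0)]
      abel
    rw [← h4, h3]
  have hy : b.repr z 0 = 0 := by
    rcases smul_eq_zero.mp h2 with h | h
    · rcases mul_eq_zero.mp h with h | h
      · exact h
      · exact absurd (sub_eq_zero.mp h) hαβ
    · exact absurd h (b.ne_zero 0)
  rw [hy, zero_smul, zero_add] at hsum
  exact hsum

/-- trace in a basis of `Fin 2` -/
theorem lsl2_trace (b : Basis (Fin 2) k V) (X : Module.End k V) :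
    LinearMap.trace k V X = b.repr (X (b 0)) 0 + b.repr (X (b 1)) 1 := by
  rw [LinearMap.trace_eq_matrix_trace k b X, Matrix.trace_fin_two, LinearMap.toMatrix_apply,
    LinearMap.toMatrix_apply]

end

/-- **L-sl2.** -/
theorem stmtCentralizer : StmtCentralizer := by
  intro k _ V _ _ _ hV g α β hαβ hχ
  obtain ⟨b, h0, h1⟩ := lsl2_exists_basis hV g α β hαβ hχ
  -- the generator
  set D : Module.End k V := b.constr k ![b 0, - b 1] with hD
  have hD0 : D (b 0) = b 0 := by rw [hD, Basis.constr_basis]; rfl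
  have hD1 : D (b 1) = - b 1 := by rw [hD, Basis.constr_basis]; rfl
  have hDmem : D ∈ adZeroFix g := by
    refine ⟨?_, ?_⟩
    · refine b.ext fun i => ?_
      fin_cases i
      · show g (D (b 0)) = D (g (b 0))
        rw [hD0, h0, map_smul, hD0]
      · show g (D (b 1)) = D (g (b 1))
        rw [hD1, map_neg, h1, map_smul, hD1, smul_neg]
    · rw [lsl2_trace b D, hD0, hD1, map_neg]
      simp
  have hDne : (⟨D, hDmem⟩ : adZeroFix g) ≠ 0 := by
    intro h
    have h' : D = 0 := congrArg Subtype.val h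
    have := hD0
    rw [h', LinearMap.zero_apply] at this
    exact b.ne_zero 0 this.symm
  rw [finrank_eq_one_iff']
  refine ⟨⟨D, hDmem⟩, hDne, ?_⟩
  rintro ⟨X, hXc, hXt⟩
  have hX0 : g (X (b 0)) = α • X (b 0) := by
    have := congrArg (fun Y : Module.End k V => Y (b 0)) hXc
    simp only [Module.End.mul_apply] at this
    rw [this, h0, map_smul]
  have hX1 : g (X (b 1)) = β • X (b 1) := by
    have := congrArg (fun Y : Module.End k V => Y (b 1)) hXc
    simp only [Module.End.mul_apply] at this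
    rw [this, h1, map_smul]
  have e0 := lsl2_eigen_zero b g hαβ h0 h1 hX0
  have e1 := lsl2_eigen_one b g hαβ h0 h1 hX1
  rw [lsl2_trace b X] at hXt
  refine ⟨b.repr (X (b 0)) 0, ?_⟩
  apply Subtype.ext
  show b.repr (X (b 0)) 0 • D = X
  refine b.ext fun i => ?_
  fin_cases i
  · show (b.repr (X (b 0)) 0 • D) (b 0) = X (b 0)
    rw [LinearMap.smul_apply, hD0]
    exact e0.symm
  · show (b.repr (X (b 0)) 0 • D) (b 1) = X (b 1)
    rw [LinearMap.smul_apply, hD1]
    have : b.repr (X (b 0)) 0 = - b.repr (X (b 1)) 1 := eq_neg_of_add_eq_zero_left hXt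
    rw [this, neg_smul, smul_neg, neg_neg]
    exact e1.symm

end Fermat.Agent.TW.L

end
end ZBTW_026_0

/-! ### bundled: `Fermat.Agent.TW.L.AdInvLe` -/
section ZBTW_026_1
/-
TW-L / G-h0 (helper32): `h⁰(G_q, ad⁰ ρ̄) ≤ f = [k : 𝔽_p]` if the Frobenius elements at `q` have
distinct eigenvalues.

Main results: `stmtAdInvLe_of : StmtFrobExists → StmtCentralizer → StmtAdInvLe` and the
unconditional `stmtAdInvLe : StmtAdInvLe` (statements in `TW/L/Plan.lean`, `TW/L/Plan3.lean`).

Proof: for a Frobenius element `φ ∈ G_{ℚ_q}` (L-frobex) the invariants embed into the trace-zero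
centraliser `adZeroFix (ρ̄ (r φ))`, a `k`-line (L-sl2); compare cardinalities.
-/

set_option autoImplicit false

namespace Fermat.Agent.TW.L

open CategoryTheory
open Fermat.Agent.PT Fermat.Agent.PT.B Fermat.Agent.TW.S

/-- The invariants of `ad⁰ ρ̄` under `G_{ℚ_q}` embed into the trace-zero centraliser of the image
of any element. -/
lemma gh0_exists_inj (p : ℕ) [Fact p.Prime] {k : Type} [Field k] [CharP k p]
    (ρbar : ResidualGaloisRep k) (q : ℕ) [Fact q.Prime] (φ : GQq q) :
    ∃ f : (locRep q (ad0Rep p ρbar)).ρ.invariants →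
        adZeroFix (ρbar.ρ (localGaloisToGlobal q φ)), Function.Injective f := by
  have key : ∀ x : (locRep q (ad0Rep p ρbar)).ρ.invariants,
      ρbar.ρ (localGaloisToGlobal q φ) * ad0Val p ρbar x.1 =
        ad0Val p ρbar x.1 * ρbar.ρ (localGaloisToGlobal q φ) := by
    intro x
    have hx : (ad0Rep p ρbar).ρ (localGaloisToGlobal q φ) x.1 = x.1 := x.2 φ
    have h1 := congrArg (ad0Val p ρbar) hx
    rw [ad0Val_ρ] at h1
    calc ρbar.ρ (localGaloisToGlobal q φ) * ad0Val p ρbar x.1
        = ρbar.ρ (localGaloisToGlobal q φ) * ad0Val p ρbar x.1 *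
            (ρbar.ρ (localGaloisToGlobal q φ)⁻¹ * ρbar.ρ (localGaloisToGlobal q φ)) := by
          rw [rho_inv_mul, mul_one]
      _ = (ρbar.ρ (localGaloisToGlobal q φ) * ad0Val p ρbar x.1 *
            ρbar.ρ (localGaloisToGlobal q φ)⁻¹) * ρbar.ρ (localGaloisToGlobal q φ) := by
          simp only [mul_assoc]
      _ = ad0Val p ρbar x.1 * ρbar.ρ (localGaloisToGlobal q φ) := by rw [h1]
  refine ⟨fun x => ⟨ad0Val p ρbar x.1, key x, trace_ad0Val p ρbar x.1⟩, fun x y h => ?_⟩
  apply Subtype.ext
  apply ad0Val_injective p ρbar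
  exact congrArg (fun z : adZeroFix (ρbar.ρ (localGaloisToGlobal q φ)) =>
    (z : Module.End k ρbar.V)) h

/-- **G-h0** from L-frobex and L-sl2. -/
theorem stmtAdInvLe_of (hF : StmtFrobExists) (hC : StmtCentralizer) : StmtAdInvLe := by
  intro p hp k _ _ _ _ ρbar q _ hdist
  obtain ⟨φ, hφ⟩ := hF q
  obtain ⟨α, β, hαβ, hχ⟩ := hdist (padicPlace q) (lfrobex_liesOverPrime q)
    (localGaloisToGlobal q φ) hφ
  have h1 : Module.finrank k (adZeroFix (ρbar.ρ (localGaloisToGlobal q φ))) = 1 :=
    hC k ρbar.V ρbar.finrank_eq (ρbar.ρ (localGaloisToGlobal q φ)) α β hαβ hχ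
  obtain ⟨f, hf⟩ := gh0_exists_inj p ρbar q φ
  have hfinV : Finite ρbar.V := Module.finite_of_finite k
  have hfinE : Finite (Module.End k ρbar.V) := Module.finite_of_finite k
  have hfinZ : Finite (adZeroFix (ρbar.ρ (localGaloisToGlobal q φ))) := inferInstance
  have hfinI : Finite (locRep q (ad0Rep p ρbar)).ρ.invariants := Finite.of_injective f hf
  have hle : Nat.card (locRep q (ad0Rep p ρbar)).ρ.invariants ≤
      Nat.card (adZeroFix (ρbar.ρ (localGaloisToGlobal q φ))) :=
    Nat.card_le_card_of_injective f hf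
  have hfinMI : Module.Finite (ZMod p) (locRep q (ad0Rep p ρbar)).ρ.invariants :=
    Module.Finite.of_finite
  have hfinMk : Module.Finite (ZMod p) k := Module.Finite.of_finite
  rw [Module.natCard_eq_pow_finrank (K := ZMod p), Module.natCard_eq_pow_finrank (K := k)
    (V := adZeroFix (ρbar.ρ (localGaloisToGlobal q φ))), h1, pow_one,
    Module.natCard_eq_pow_finrank (K := ZMod p) (V := k), Nat.card_zmod] at hle
  exact (Nat.pow_le_pow_iff_right hp.out.one_lt).mp hle

/-- **G-h0**: `StmtAdInvLe`, unconditional. -/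
theorem stmtAdInvLe : StmtAdInvLe := stmtAdInvLe_of stmtFrobExists stmtCentralizer

end Fermat.Agent.TW.L


end ZBTW_026_1

/-! ### bundled: `Fermat.Agent.TW.L.AdArch` -/
section ZBTW_026_2
/-
TW-L / G-arch (helper1): `h⁰(G_ℝ, ad⁰ ρ̄) = f = [k : 𝔽_p]` for `p ≠ 2` and cyclotomic determinant.

Main results: `stmtAdArch_of : StmtArch → StmtCentralizer → StmtAdArch` and the unconditional
`stmtAdArch : StmtAdArch` (statements in `TW/L/Plan.lean`, `TW/L/Plan3.lean`).

Proof: the invariants of `⟨c⟩` on `ad⁰` are in bijection with the trace-zero centraliser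
`adZeroFix (ρ̄ c)`, a `k`-line by L-sl2 (eigenvalues `1 ≠ -1` by L-arch); compare cardinalities.
-/

set_option autoImplicit false

namespace Fermat.Agent.TW.L

open CategoryTheory
open Fermat.Agent.PT Fermat.Agent.PT.B Fermat.Agent.TW.S ExtCitation

/-- The elements of `G_ℚ` whose image commutes with `X`. -/
def garchComm {k : Type} [Field k] (ρbar : ResidualGaloisRep k) (X : Module.End k ρbar.V) :
    Subgroup (AlgebraicClosure ℚ ≃ₐ[ℚ] AlgebraicClosure ℚ) where
  carrier := {g | ρbar.ρ g * X = X * ρbar.ρ g}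
  mul_mem' := by
    intro a b ha hb
    show ρbar.ρ (a * b) * X = X * ρbar.ρ (a * b)
    have ha' : ρbar.ρ a * X = X * ρbar.ρ a := ha
    have hb' : ρbar.ρ b * X = X * ρbar.ρ b := hb
    rw [map_mul, mul_assoc, hb', ← mul_assoc, ha', mul_assoc]
  one_mem' := by
    show ρbar.ρ 1 * X = X * ρbar.ρ 1
    rw [map_one, one_mul, mul_one]
  inv_mem' := by
    intro a ha
    show ρbar.ρ a⁻¹ * X = X * ρbar.ρ a⁻¹
    have ha' : ρbar.ρ a * X = X * ρbar.ρ a := ha
    calc ρbar.ρ a⁻¹ * X = ρbar.ρ a⁻¹ * X * (ρbar.ρ a * ρbar.ρ a⁻¹) := by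
          rw [rho_mul_inv, mul_one]
      _ = ρbar.ρ a⁻¹ * (X * ρbar.ρ a) * ρbar.ρ a⁻¹ := by simp only [mul_assoc]
      _ = ρbar.ρ a⁻¹ * (ρbar.ρ a * X) * ρbar.ρ a⁻¹ := by rw [ha']
      _ = (ρbar.ρ a⁻¹ * ρbar.ρ a) * X * ρbar.ρ a⁻¹ := by simp only [mul_assoc]
      _ = X * ρbar.ρ a⁻¹ := by rw [rho_inv_mul, one_mul]

/-- An endomorphism commuting with `ρ̄(c)` commutes with `ρ̄(g)` for every `g ∈ ⟨c⟩`. -/
lemma garch_comm_of_mem {k : Type} [Field k] (ρbar : ResidualGaloisRep k)
    (X : Module.End k ρbar.V)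
    (hX : ρbar.ρ complexConjugation * X = X * ρbar.ρ complexConjugation)
    (g : archimedeanDecomposition) :
    ρbar.ρ (archimedeanLoc g) * X = X * ρbar.ρ (archimedeanLoc g) := by
  have hle : Subgroup.zpowers complexConjugation ≤ garchComm ρbar X :=
    (Subgroup.zpowers_le).2 hX
  exact hle g.2

/-- The invariants of `⟨c⟩` on `ad⁰ ρ̄` are in bijection with the trace-zero centraliser of
`ρ̄(c)`. -/
lemma garch_exists_bij (p : ℕ) [Fact p.Prime] {k : Type} [Field k] [CharP k p]
    (ρbar : ResidualGaloisRep k) :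
    ∃ f : (Rep.res archimedeanLoc (ad0Rep p ρbar)).ρ.invariants →
        adZeroFix (ρbar.ρ complexConjugation), Function.Bijective f := by
  have key : ∀ x : (Rep.res archimedeanLoc (ad0Rep p ρbar)).ρ.invariants,
      ρbar.ρ complexConjugation * ad0Val p ρbar x.1 =
        ad0Val p ρbar x.1 * ρbar.ρ complexConjugation := by
    intro x
    have hx : (ad0Rep p ρbar).ρ complexConjugation x.1 = x.1 := x.2 archimedeanGen
    have h1 := congrArg (ad0Val p ρbar) hx
    rw [ad0Val_ρ] at h1
    calc ρbar.ρ complexConjugation * ad0Val p ρbar x.1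
        = ρbar.ρ complexConjugation * ad0Val p ρbar x.1 *
            (ρbar.ρ complexConjugation⁻¹ * ρbar.ρ complexConjugation) := by
          rw [rho_inv_mul, mul_one]
      _ = (ρbar.ρ complexConjugation * ad0Val p ρbar x.1 *
            ρbar.ρ complexConjugation⁻¹) * ρbar.ρ complexConjugation := by
          simp only [mul_assoc]
      _ = ad0Val p ρbar x.1 * ρbar.ρ complexConjugation := by rw [h1]
  refine ⟨fun x => ⟨ad0Val p ρbar x.1, key x, trace_ad0Val p ρbar x.1⟩, fun x y h => ?_,
    fun Y => ?_⟩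
  · apply Subtype.ext
    apply ad0Val_injective p ρbar
    exact congrArg (fun z : adZeroFix (ρbar.ρ complexConjugation) =>
      (z : Module.End k ρbar.V)) h
  · obtain ⟨x, hx⟩ := exists_ad0Val_eq p ρbar (Y : Module.End k ρbar.V) Y.2.2
    have hinv : x ∈ (Rep.res archimedeanLoc (ad0Rep p ρbar)).ρ.invariants := by
      intro g
      show (ad0Rep p ρbar).ρ (archimedeanLoc g) x = x
      apply ad0Val_injective p ρbar
      rw [ad0Val_ρ, hx, garch_comm_of_mem ρbar (Y : Module.End k ρbar.V) Y.2.1 g, mul_assoc,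
        rho_mul_inv, mul_one]
    refine ⟨⟨x, hinv⟩, ?_⟩
    apply Subtype.ext
    exact hx

/-- **G-arch** from L-arch and L-sl2. -/
theorem stmtAdArch_of (hA : StmtArch) (hC : StmtCentralizer) : StmtAdArch := by
  intro p hp hp2 k _ _ _ _ ρbar hdet
  have hχ := hA p hp2 k ρbar hdet
  have h2 : (2 : k) ≠ 0 := by
    intro h
    have h2' : ((2 : ℕ) : k) = 0 := by exact_mod_cast h
    have hdvd : p ∣ 2 := (CharP.cast_eq_zero_iff k p 2).1 h2'
    exact hp2 ((Nat.prime_dvd_prime_iff_eq hp.out Nat.prime_two).1 hdvd)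
  have hne : (1 : k) ≠ -1 := by
    intro h
    apply h2
    have : (1 : k) + 1 = 0 := by nth_rewrite 2 [h]; exact add_neg_cancel 1
    rw [← this]; norm_num
  have h1 : Module.finrank k (adZeroFix (ρbar.ρ complexConjugation)) = 1 :=
    hC k ρbar.V ρbar.finrank_eq (ρbar.ρ complexConjugation) 1 (-1) hne hχ
  obtain ⟨f, hf⟩ := garch_exists_bij p ρbar
  have hfinV : Finite ρbar.V := Module.finite_of_finite k
  have hfinE : Finite (Module.End k ρbar.V) := Module.finite_of_finite k
  have hfinZ : Finite (adZeroFix (ρbar.ρ complexConjugation)) := inferInstance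
  have hfinI : Finite (Rep.res archimedeanLoc (ad0Rep p ρbar)).ρ.invariants :=
    Finite.of_injective f hf.1
  have heq : Nat.card (Rep.res archimedeanLoc (ad0Rep p ρbar)).ρ.invariants =
      Nat.card (adZeroFix (ρbar.ρ complexConjugation)) :=
    Nat.card_eq_of_bijective f hf
  have hfinMI : Module.Finite (ZMod p)
      (Rep.res archimedeanLoc (ad0Rep p ρbar)).ρ.invariants := Module.Finite.of_finite
  have hfinMk : Module.Finite (ZMod p) k := Module.Finite.of_finite
  rw [Module.natCard_eq_pow_finrank (K := ZMod p), Module.natCard_eq_pow_finrank (K := k)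
    (V := adZeroFix (ρbar.ρ complexConjugation)), h1, pow_one,
    Module.natCard_eq_pow_finrank (K := ZMod p) (V := k), Nat.card_zmod] at heq
  exact Nat.pow_right_injective hp.out.two_le heq

/-- **G-arch**: `StmtAdArch`, unconditional. -/
theorem stmtAdArch : StmtAdArch := stmtAdArch_of stmtArch stmtCentralizer

end Fermat.Agent.TW.L


end ZBTW_026_2
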