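/- GENERATED FILE (helper35, build-time optimisation, NOTES/ZB.md): verbatim concatenation of the modules
   Fermat.Agent.TW.W.LevelCore
   Fermat.Agent.TW.W.LevelStar
   Fermat.Agent.TW.W.LevelContra
   Fermat.Agent.TW.W.LevelMain
   Fermat.Agent.TW.W.LevelFinal
   Fermat.Agent.TW.W.LevelFieldA
   Fermat.Agent.TW.W.LevelFieldB
   Fermat.Agent.TW.W.LevelFieldC
   Fermat.Agent.TW.W.LevelFieldD
   Fermat.Agent.TW.W.LevelField
   Fermat.Agent.TW.W.LevelDesc
   Fermat.Agent.TW.W.LevelAsm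
   Fermat.Agent.TW.W.LvtUnr
   Fermat.Agent.TW.W.LvtMid
   Fermat.Agent.TW.W.LvtInertia
   Fermat.Agent.TW.W.Lev
   Fermat.Agent.R38.EPeuLev
   Do not edit; do not import together with these modules. -/
import Mathlib
import Fermat.Agent.ZB.TW_003
import Fermat.Agent.ZB.PT_004
import Fermat.Agent.ZB.TW_004
import Fermat.Agent.ZB.TW_001
import Fermat.Agent.ZB.PT_006

/-! ### bundled: `Fermat.Agent.TW.W.LevelCore` -/
section ZBTW_005_0

/-!
# S56 / TW-W, piece W-K in the form (LEVEL): the abstract core (helper57)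

`A ⊂ B` discrete valuation rings, `p = ε π ^ ((p-1) e₁)` in `A` (`π` a uniformiser, `ε` a unit),
`B` generated over `A` by a root `x` of an Eisenstein polynomial `F` (universal property `TwlvUP`).
Hypotheses:
* `TwlvTwist`   : the coefficient twists `s : A → A/π^N`, `π ↦ π (1 + a π^j)`, exist;
* `TwlvTransfer`: for every Eisenstein `F'` of the degree of `F` there is an `A`-algebra `C` with a
  root of `F'` such that, as soon as there is a ring homomorphism `B → C/π^N` (`N > p e₁`), every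
  `w ∈ A` which is a `p`-th power in `C` up to `1 + π^(p e₁ + 1) C` is a `p`-th power in `B`
  (this is Fontaine's property `(P_m)` + Hensel, for the field of fractions of `B`);
* `TwlvCount`   : at most `bound < |k|` classes of units of `A` modulo `p`-th powers become
  `p`-th powers in `B` (Kummer theory, `bound = [Frac B : Frac A]`);
* `ν ^ (p-1) = -ε` is solvable in the residue field (`ζ_p ∈ Frac A`).
Conclusion (`twlv_core`): if `π ^ r * u` (`u` a unit of `A`) is a `p`-th power in `B` then `p ∣ r`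
and `u ∈ (1 + p A) · (Aˣ)^p`.
-/

set_option autoImplicit false

namespace Fermat.Agent.TW.W

open Polynomial IsLocalRing

/-- `(1 + x)^p = 1 + x^p + p x (1 + x G)`. -/
theorem twlv_binom (p : ℕ) (hp : p.Prime) {R : Type*} [CommRing R] (x : R) :
    ∃ G : R, (1 + x) ^ p = 1 + x ^ p + (p : R) * x * (1 + x * G) := by
  obtain ⟨r, hr⟩ := exists_add_pow_prime_eq hp (1 : ℤ[X]) X
  have h1 : r.coeff 0 = 1 := by
    have h := congrArg (fun f => f.coeff 1) hr
    simp only [one_pow, mul_one] at h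
    rw [coeff_one_add_X_pow, coeff_add, coeff_add, coeff_one, coeff_X_pow] at h
    have hp1 : (1 : ℕ) ≠ p := hp.one_lt.ne
    have hcoef : ((p : ℤ[X]) * X * r).coeff 1 = (p : ℤ) * r.coeff 0 := by
      rw [mul_assoc, ← C_eq_natCast, coeff_C_mul, coeff_X_mul]
    rw [hcoef] at h
    simp [hp1] at h
    have hp0 : (p : ℤ) ≠ 0 := by exact_mod_cast hp.ne_zero
    have : (p : ℤ) * 1 = p * r.coeff 0 := by simpa using h
    exact (mul_left_cancel₀ hp0 this).symm
  have hr' : r = 1 + X * r.divX := by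
    conv_lhs => rw [← divX_mul_X_add r, h1]
    simp [mul_comm, add_comm]
  refine ⟨(r.divX).eval₂ (Int.castRingHom R) x, ?_⟩
  have h2 := congrArg (fun f => f.eval₂ (Int.castRingHom R) x) hr
  simp only [one_pow, mul_one] at h2
  rw [hr'] at h2
  simpa [eval₂_add, eval₂_mul, eval₂_pow] using h2

/-- `(1 + x)^i = 1 + i x + x^2 G`. -/
theorem twlv_binom2 {R : Type*} [CommRing R] (x : R) (i : ℕ) :
    ∃ G : R, (1 + x) ^ i = 1 + (i : R) * x + x ^ 2 * G := by
  induction i with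
  | zero => exact ⟨0, by simp⟩
  | succ i ih =>
    obtain ⟨G, hG⟩ := ih
    refine ⟨G + x * G + i, ?_⟩
    rw [pow_succ, hG]; push_cast; ring

section DVR
variable {A : Type*} [CommRing A] [IsDomain A]
variable {p : ℕ} {π : A}

/-- cancel a power of `π` in a divisibility. -/
theorem twlv_cancel (hπ : Irreducible π) {a : ℕ} {x : A} (k : ℕ) (h : π ^ (a + k) ∣ π ^ a * x) :
    π ^ k ∣ x := by
  rw [pow_add] at h
  exact (mul_dvd_mul_iff_left (pow_ne_zero a hπ.ne_zero)).1 h

variable [IsDiscreteValuationRing A]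

/-- `p`-th powers of units have level `≡ 0 mod p` below the top level `p e₁`. -/
theorem twlv_pw (hp : p.Prime) (hπ : Irreducible π) {e₁ : ℕ}
    (hpe : π ^ ((p - 1) * e₁) ∣ (p : A)) (z c : A) (t : ℕ) (hc : ¬ π ∣ c)
    (ht : t < p * e₁) (h : π ^ (t + 1) ∣ z ^ p - (1 + c * π ^ t)) : p ∣ t := by
  have hπp : Prime π := hπ.prime
  rcases Nat.eq_zero_or_pos t with rfl | htpos
  · exact dvd_zero p
  have he₁ : 0 < e₁ := by
    rcases Nat.eq_zero_or_pos e₁ with h0 | h0
    · subst h0; simp at ht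
    · exact h0
  have hp1 : 1 ≤ p - 1 := by have := hp.two_le; omega
  obtain ⟨ε, hε⟩ := hpe
  have hπdvdp : π ∣ (p : A) := by
    rw [hε]; exact Dvd.dvd.mul_right (dvd_pow_self π (by positivity)) _
  have h1 : π ∣ z ^ p - 1 := by
    have ha : π ∣ z ^ p - (1 + c * π ^ t) := dvd_trans (dvd_pow_self π (by omega)) h
    have hb : π ∣ c * π ^ t := Dvd.dvd.mul_left (dvd_pow_self π (by omega)) c
    have : z ^ p - 1 = (z ^ p - (1 + c * π ^ t)) + c * π ^ t := by ring
    rw [this]; exact dvd_add ha hb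
  have h2 : π ∣ z - 1 := by
    obtain ⟨r, hr⟩ := exists_add_pow_prime_eq hp (z - 1) 1
    have : (z - 1) ^ p = (z ^ p - 1) - (p : A) * ((z - 1) * r) := by
      have : (z - 1 + 1) ^ p = z ^ p := by ring_nf
      rw [this] at hr; rw [hr]; ring
    have h3 : π ∣ (z - 1) ^ p := by
      rw [this]; exact dvd_sub h1 (Dvd.dvd.mul_right hπdvdp _)
    exact hπp.dvd_of_dvd_pow h3
  obtain ⟨z₁', hz₁'⟩ := h2
  set z₁ : A := z - 1 with hz₁def
  have hz : z = 1 + z₁ := by rw [hz₁def]; ring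
  obtain ⟨r, hr⟩ := exists_add_pow_prime_eq hp (1 : A) z₁
  have hzp : z ^ p - 1 = z₁ ^ p + (p : A) * z₁ * r := by
    rw [hz, hr]; ring
  have hnot : ¬ π ^ (t + 1) ∣ z ^ p - 1 := by
    intro h'
    have : π ^ (t + 1) ∣ c * π ^ t := by
      have e1 : c * π ^ t = (z ^ p - 1) - (z ^ p - (1 + c * π ^ t)) := by ring
      rw [e1]; exact dvd_sub h' h
    rw [mul_comm] at this
    exact hc (by simpa using twlv_cancel hπ 1 this)
  rcases eq_or_ne z₁ 0 with h0 | h0
  · exfalso; apply hnot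
    rw [hzp, h0, zero_pow hp.ne_zero]; simp
  obtain ⟨l, u, hu⟩ := IsDiscreteValuationRing.eq_unit_mul_pow_irreducible h0 hπ
  have hl : 1 ≤ l := by
    rcases Nat.eq_zero_or_pos l with hl0 | hl0
    · exfalso
      subst hl0
      rw [pow_zero, mul_one] at hu
      have : π ∣ (u : A) := by rw [← hu, hz₁']; exact dvd_mul_right _ _
      exact hπ.not_isUnit (isUnit_of_dvd_unit this u.isUnit)
    · exact hl0
  have hzp2 : z ^ p - 1 =
      (u : A) ^ p * π ^ (p * l) + π ^ ((p - 1) * e₁ + l) * (ε * (u : A) * r) := by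
    rw [hzp, hu, hε]; ring
  by_cases hcase : p * l < (p - 1) * e₁ + l
  · obtain ⟨d, hd⟩ := Nat.exists_eq_add_of_lt hcase
    have hU : z ^ p - 1 = π ^ (p * l) * ((u : A) ^ p + π ^ (d + 1) * (ε * (u : A) * r)) := by
      rw [hzp2, hd]; ring
    have hUnot : ¬ π ∣ ((u : A) ^ p + π ^ (d + 1) * (ε * (u : A) * r)) := by
      intro hdiv
      have : π ∣ (u : A) ^ p := by
        have := dvd_sub hdiv
          (Dvd.dvd.mul_right (dvd_pow_self π (Nat.succ_ne_zero d)) (ε * (u : A) * r))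
        simpa using this
      exact hπ.not_isUnit (isUnit_of_dvd_unit (hπp.dvd_of_dvd_pow this) u.isUnit)
    rcases lt_trichotomy (p * l) t with hlt | heq | hgt
    · exfalso
      apply hUnot
      have h4 : π ^ (p * l + 1) ∣ z ^ p - 1 := by
        have e1 : z ^ p - 1 = (z ^ p - (1 + c * π ^ t)) + c * π ^ t := by ring
        rw [e1]
        exact dvd_add (dvd_trans (pow_dvd_pow π (by omega)) h)
          (Dvd.dvd.mul_left (pow_dvd_pow π (by omega)) c)
      rw [hU] at h4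
      simpa using twlv_cancel hπ 1 h4
    · exact ⟨l, heq.symm⟩
    · exfalso; apply hnot
      rw [hU]; exact Dvd.dvd.mul_right (pow_dvd_pow π (by omega)) _
  · exfalso; apply hnot
    have hcase' : (p - 1) * e₁ + l ≤ p * l := Nat.le_of_not_lt hcase
    have hle : e₁ ≤ l := by
      by_contra hcon
      have hcon' : l < e₁ := Nat.lt_of_not_le hcon
      have h5 : (p - 1) * l < (p - 1) * e₁ := Nat.mul_lt_mul_of_pos_left hcon' (by omega)
      have h6 : p * l = (p - 1) * l + l := by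
        conv_lhs => rw [show p = (p - 1) + 1 from by omega]
        ring
      omega
    have h7 : p * e₁ = (p - 1) * e₁ + e₁ := by
      conv_lhs => rw [show p = (p - 1) + 1 from by omega]
      ring
    have h8 : p * e₁ ≤ p * l := Nat.mul_le_mul_left p hle
    rw [hzp2]
    exact dvd_add (Dvd.dvd.mul_left (pow_dvd_pow π (by omega)) _)
      (Dvd.dvd.mul_right (pow_dvd_pow π (by omega)) _)

end DVR

section TOP
variable {A : Type*} [CommRing A]
variable {B : Type*} [CommRing B] [IsDomain B] [IsDiscreteValuationRing B] [Algebra A B]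
variable {p : ℕ} {π : A}

/-- top level: a `p`-th power in `B` of the form `1 + c π^(p e₁) + …` has `c` in the image of
`z ↦ z^p + z` on the residue field. -/
theorem twlv_top (hp : p.Prime) {e₁ : ℕ} (he₁ : 0 < e₁) (ε : A)
    (hpe : (p : A) = ε * π ^ ((p - 1) * e₁))
    (hinj : Function.Injective (algebraMap A B)) (hπ0 : π ≠ 0)
    (hπB : algebraMap A B π ∈ maximalIdeal B)
    (hloc : ∀ a : A, algebraMap A B a ∈ maximalIdeal B → π ∣ a)
    (hres : ∀ b : B, ∃ a : A, b - algebraMap A B a ∈ maximalIdeal B)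
    (Y : B) (c : A) (x' : B)
    (h : Y ^ p = 1 + algebraMap A B (c * π ^ (p * e₁)) + algebraMap A B (π ^ (p * e₁ + 1)) * x') :
    ∃ z : A, π ∣ z ^ p + ε * z - c := by
  set 𝔪 := maximalIdeal B with h𝔪
  set E : B := algebraMap A B ε with hE
  set P : B := algebraMap A B π with hP
  set Λ : B := P ^ e₁ with hΛ
  set c' : B := algebraMap A B c with hc'
  have hp1 : 1 ≤ p - 1 := by have := hp.two_le; omega
  have hpp : p = (p - 1) + 1 := by omega
  have hΛ0 : Λ ≠ 0 := by
    rw [hΛ, hP]; exact pow_ne_zero _ (fun h0 => hπ0 (hinj (by rw [h0, map_zero])))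
  have hΛ𝔪 : Λ ∈ 𝔪 := by
    rw [hΛ]; exact Ideal.pow_mem_of_mem _ hπB _ he₁
  have hpB : (p : B) = E * Λ ^ (p - 1) := by
    have := congrArg (algebraMap A B) hpe
    rw [map_natCast, map_mul, map_pow] at this
    rw [this, hΛ, ← pow_mul, mul_comm e₁ (p - 1)]
  have hY : Y ^ p - 1 = Λ ^ p * (c' + P * x') := by
    rw [h, map_mul, map_pow, map_pow]
    have : P ^ (p * e₁) = Λ ^ p := by rw [hΛ, ← pow_mul, mul_comm]
    rw [← hP, ← hc', pow_succ, this]; ring
  set Y₁ : B := Y - 1 with hY₁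
  have hYY : Y = 1 + Y₁ := by rw [hY₁]; ring
  obtain ⟨G, hG⟩ := twlv_binom p hp Y₁
  have hY2 : Y ^ p - 1 = Y₁ ^ p + (p : B) * Y₁ * (1 + Y₁ * G) := by
    rw [hYY, hG]; ring
  have hdiv : Λ ∣ Y₁ := by
    rcases ValuationRing.dvd_total Λ Y₁ with h1 | ⟨m, hm⟩
    · exact h1
    · by_cases hmu : IsUnit m
      · obtain ⟨u, rfl⟩ := hmu
        exact ⟨(↑u⁻¹ : B), by rw [hm]; simp [mul_assoc]⟩
      · exfalso
        have hm𝔪 : m ∈ 𝔪 := by rwa [h𝔪, mem_maximalIdeal, mem_nonunits_iff]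
        have hY₁0 : Y₁ ≠ 0 := by
          intro h0; apply hΛ0; rw [hm, h0, zero_mul]
        have e1 : Y₁ ^ p * (1 + E * m ^ (p - 1) * (1 + Y₁ * G)) =
            Y₁ ^ p * (m ^ p * (c' + P * x')) := by
          have a1 : Y₁ ^ p * (1 + E * m ^ (p - 1) * (1 + Y₁ * G)) =
              Y₁ ^ p + (p : B) * Y₁ * (1 + Y₁ * G) := by
            rw [hpB, hm, mul_pow]
            have : Y₁ ^ p = Y₁ ^ (p - 1) * Y₁ := by
              conv_lhs => rw [hpp, pow_succ]
            rw [this]; ring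
          rw [a1, ← hY2, hY, hm, mul_pow]; ring
        have e2 := mul_left_cancel₀ (pow_ne_zero p hY₁0) e1
        have : (1 : B) ∈ 𝔪 := by
          have e3 : (1 : B) = m ^ p * (c' + P * x') - m ^ (p - 1) * (E * (1 + Y₁ * G)) := by
            rw [← e2]; ring
          rw [e3]
          exact Ideal.sub_mem _ (Ideal.mul_mem_right _ _ (Ideal.pow_mem_of_mem _ hm𝔪 _ hp.pos))
            (Ideal.mul_mem_right _ _ (Ideal.pow_mem_of_mem _ hm𝔪 _ hp1))
        exact (Ideal.ne_top_iff_one 𝔪).1 (maximalIdeal.isMaximal B).ne_top this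
  obtain ⟨Z, hZ⟩ := hdiv
  have e4 : Λ ^ p * (c' + P * x') = Λ ^ p * (Z ^ p + E * Z + E * Λ * Z ^ 2 * G) := by
    rw [← hY, hY2, hZ, hpB]
    have : Λ ^ p = Λ ^ (p - 1) * Λ := by
      conv_lhs => rw [hpp, pow_succ]
    rw [mul_pow, this]; ring
  have e5 := mul_left_cancel₀ (pow_ne_zero p hΛ0) e4
  have e6 : Z ^ p + E * Z - c' ∈ 𝔪 := by
    have : Z ^ p + E * Z - c' = P * x' - Λ * (E * Z ^ 2 * G) := by
      have : Z ^ p + E * Z = c' + P * x' - E * Λ * Z ^ 2 * G := by rw [e5]; ring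
      rw [this]; ring
    rw [this]
    exact Ideal.sub_mem _ (Ideal.mul_mem_right _ _ hπB) (Ideal.mul_mem_right _ _ hΛ𝔪)
  obtain ⟨z, hz⟩ := hres Z
  refine ⟨z, hloc _ ?_⟩
  have e7 : algebraMap A B (z ^ p + ε * z - c) =
      (Z ^ p + E * Z - c') - ((Z ^ p - (algebraMap A B z) ^ p) + E * (Z - algebraMap A B z)) := by
    rw [map_sub, map_add, map_pow, map_mul]; ring
  rw [e7]
  refine Ideal.sub_mem _ e6 (Ideal.add_mem _ ?_ (Ideal.mul_mem_left _ _ hz))
  obtain ⟨d, hd⟩ := sub_dvd_pow_sub_pow Z (algebraMap A B z) p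
  rw [hd]; exact Ideal.mul_mem_right _ _ hz

end TOP

/-! ### The hypotheses -/

/-- The coefficient twists `s : A → A/π^N`, `π ↦ π(1 + a π^j)`, `s x ≡ x mod a π^(j+1)`. -/
def TwlvTwist {A : Type*} [CommRing A] (π : A) (e : ℕ) : Prop :=
  ∀ (N j : ℕ) (a : A), 1 ≤ j → N ≤ e + j →
    ∃ s : A →+* A ⧸ Ideal.span {π ^ N},
      s π = Ideal.Quotient.mk _ (π * (1 + a * π ^ j)) ∧
      ∀ x : A, ∃ x' : A, s x = Ideal.Quotient.mk _ (x + π * (a * π ^ j) * x')

/-- Universal property of `B = A[x]/(F)`. -/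
def TwlvUP {A B : Type*} [CommRing A] [CommRing B] [Algebra A B] (F : A[X]) (x : B) : Prop :=
  ∀ (R : Type) [CommRing R] (s : A →+* R) (r : R), F.eval₂ s r = 0 →
    ∃ η : B →+* R, (∀ a : A, η (algebraMap A B a) = s a) ∧ η x = r

/-- Transfer of `p`-th roots from the Eisenstein ring of any `F'` of degree `n` to `B`
(Fontaine's property `(P_m)` for `Frac B`, plus Hensel in `C`). -/
def TwlvTransfer (A B : Type*) [CommRing A] [CommRing B] [Algebra A B] (p : ℕ) (π : A)
    (e₁ n : ℕ) : Prop :=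
  ∀ F' : A[X], F'.Monic → F'.natDegree = n → F'.IsEisensteinAt (Ideal.span {π}) →
    ∃ (C : Type) (_ : CommRing C) (_ : Algebra A C) (x' : C), aeval x' F' = 0 ∧
      ∀ N : ℕ, p * e₁ < N → (B →+* C ⧸ Ideal.span {algebraMap A C (π ^ N)}) →
        ∀ w : A, (∃ z c : C,
            z ^ p = algebraMap A C w * (1 + algebraMap A C (π ^ (p * e₁ + 1)) * c)) →
          ∃ y : B, y ^ p = algebraMap A B w

/-- At most `bound` classes of units of `A` modulo `p`-th powers become `p`-th powers in `B`. -/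
def TwlvCount (A B : Type*) [CommRing A] [CommRing B] [Algebra A B] (p : ℕ) (bound : ℕ) : Prop :=
  ∀ S : Finset A, (∀ w ∈ S, IsUnit w ∧ ∃ y : B, y ^ p = algebraMap A B w) →
    (∀ w ∈ S, ∀ w' ∈ S, (∃ ζ : A, w = w' * ζ ^ p) → w = w') → S.card ≤ bound

end Fermat.Agent.TW.W


end ZBTW_005_0

/-! ### bundled: `Fermat.Agent.TW.W.LevelStar` -/
section ZBTW_005_1

/-!
# S56 / TW-W (LEVEL), abstract core, part 2: the twist step `(★)` (helper57)

If `π^r u` is a `p`-th power in `B`, then for every twist `s` (`π ↦ π(1 + a π^j)`, `j ≥ e₁+1+r`) and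
every lift `ũ` of `s u`, the element `(1 + a π^j)^r ũ / u` is a `p`-th power in `B`.
-/

set_option autoImplicit false

namespace Fermat.Agent.TW.W

open Polynomial IsLocalRing

section Aux
variable {A : Type*} [CommRing A] [IsLocalRing A]

theorem twlv_isUnit_of_dvd_sub {π x y : A} (hπ : ¬ IsUnit π) (hx : IsUnit x) (h : π ∣ y - x) :
    IsUnit y := by
  by_contra hy
  have hy' : y ∈ maximalIdeal A := by rwa [mem_maximalIdeal, mem_nonunits_iff]
  have hπ' : π ∈ maximalIdeal A := by rwa [mem_maximalIdeal, mem_nonunits_iff]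
  obtain ⟨m, hm⟩ := h
  have : x ∈ maximalIdeal A := by
    have e : x = y - π * m := by rw [← hm]; ring
    rw [e]; exact Ideal.sub_mem _ hy' (Ideal.mul_mem_right _ _ hπ')
  exact (mem_nonunits_iff.1 ((mem_maximalIdeal x).1 this)) hx

end Aux

section Star
variable {A : Type*} [CommRing A] [IsDomain A] [IsDiscreteValuationRing A]
variable {B : Type*} [CommRing B] [IsDomain B] [IsDiscreteValuationRing B] [Algebra A B]
variable {p : ℕ} {π : A}

theorem twlv_star (hp : p.Prime) (hπ : Irreducible π) {e₁ n : ℕ}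
    (hinj : Function.Injective (algebraMap A B))
    (F : A[X]) (hFm : F.Monic) (hFn : F.natDegree = n) (hFe : F.IsEisensteinAt (Ideal.span {π}))
    (x : B) (hUP : TwlvUP F x)
    (hTw : TwlvTwist π ((p - 1) * e₁))
    (hTr : TwlvTransfer A B p π e₁ n)
    (r : ℕ) (u : A) (hu : IsUnit u) (y : B) (hy : y ^ p = algebraMap A B (π ^ r * u))
    (j : ℕ) (hj : e₁ + 1 + r ≤ j) (a : A) :
    ∃ s : A →+* A ⧸ Ideal.span {π ^ (p * e₁ + 1 + r)},
      s π = Ideal.Quotient.mk _ (π * (1 + a * π ^ j)) ∧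
      (∀ x : A, ∃ x' : A, s x = Ideal.Quotient.mk _ (x + π * (a * π ^ j) * x')) ∧
      ∀ ũ : A, s u = Ideal.Quotient.mk _ ũ →
        ∃ Y : B, Y ^ p * algebraMap A B u = algebraMap A B ((1 + a * π ^ j) ^ r * ũ) := by
  classical
  have hp1 : 1 ≤ p - 1 := by have := hp.two_le; omega
  have hpe₁ : p * e₁ = (p - 1) * e₁ + e₁ := by
    conv_lhs => rw [show p = (p - 1) + 1 from by omega]
    ring
  have hj1 : 1 ≤ j := by omega
  obtain ⟨s, hsπ, hsx⟩ := hTw (p * e₁ + 1 + r) j a hj1 (by omega)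
  refine ⟨s, hsπ, hsx, ?_⟩
  intro ũ hũ
  have hπnu : ¬ IsUnit π := hπ.not_isUnit
  -- `ũ` is a unit
  have hũu : IsUnit ũ := by
    obtain ⟨m, hm⟩ := hsx u
    rw [hũ] at hm
    have h1 : ũ - (u + π * (a * π ^ j) * m) ∈ Ideal.span {π ^ (p * e₁ + 1 + r)} :=
      Ideal.Quotient.eq.1 hm
    rw [Ideal.mem_span_singleton] at h1
    have h2 : π ∣ ũ - (u + π * (a * π ^ j) * m) := dvd_trans (dvd_pow_self π (by omega)) h1
    have h3 : π ∣ ũ - u := by
      have e : ũ - u = (ũ - (u + π * (a * π ^ j) * m)) + π * ((a * π ^ j) * m) := by ring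
      rw [e]; exact dvd_add h2 (dvd_mul_right _ _)
    exact twlv_isUnit_of_dvd_sub hπnu hu h3
  choose xs hxs using hsx
  -- the twisted polynomial
  set g : ℕ → A := fun l => F.coeff l + π * (a * π ^ j) * xs (F.coeff l) with hg
  set Q : A[X] := ∑ l ∈ Finset.range n, C (g l) * X ^ l with hQ
  have hdeg : Q.degree < n := by
    refine lt_of_le_of_lt (degree_sum_le _ _) ?_
    rw [Finset.sup_lt_iff (by exact WithBot.bot_lt_coe n)]
    intro l hl
    refine lt_of_le_of_lt (degree_C_mul_X_pow_le l (g l)) ?_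
    exact_mod_cast Finset.mem_range.1 hl
  set F' : A[X] := X ^ n + Q with hF'
  have hF'm : F'.Monic := monic_X_pow_add hdeg
  have hF'n : F'.natDegree = n := by
    rw [hF', natDegree_add_eq_left_of_degree_lt (by rw [degree_X_pow]; exact hdeg), natDegree_X_pow]
  have hF'c : ∀ l, l < n → F'.coeff l = g l := by
    intro l hl
    rw [hF', coeff_add, coeff_X_pow, if_neg (by omega), zero_add, hQ, finsetSum_coeff]
    simp only [coeff_C_mul_X_pow]
    rw [Finset.sum_ite_eq]
    simp [hl]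
  have hne : Ideal.span ({π} : Set A) ≠ ⊤ := by
    rw [Ne, Ideal.span_singleton_eq_top]; exact hπnu
  have hF'e : F'.IsEisensteinAt (Ideal.span {π}) := by
    refine hF'm.isEisensteinAt_of_mem_of_notMem hne ?_ ?_
    · intro l hl
      rw [hF'n] at hl
      rw [hF'c l hl, hg]
      refine Ideal.add_mem _ (hFe.mem (by rw [hFn]; exact hl)) ?_
      rw [mul_assoc]
      exact Ideal.mul_mem_right _ _ (Ideal.subset_span rfl)
    · intro hmem
      rcases Nat.eq_zero_or_pos n with hn0 | hn0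
      · -- degree 0: coefficient 0 is 1
        have : F'.coeff 0 = 1 := by
          have := hF'm.coeff_natDegree
          rwa [hF'n, hn0] at this
        rw [this] at hmem
        exact hne ((Ideal.eq_top_iff_one _).2 (Ideal.pow_le_self two_ne_zero hmem))
      · rw [hF'c 0 hn0, hg] at hmem
        apply hFe.notMem
        have e : F.coeff 0 = (F.coeff 0 + π * (a * π ^ j) * xs (F.coeff 0)) -
            π * (a * π ^ j) * xs (F.coeff 0) := by ring
        rw [e]
        refine Ideal.sub_mem _ hmem ?_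
        obtain ⟨j', rfl⟩ : ∃ j', j = j' + 1 := ⟨j - 1, by omega⟩
        have e2 : π * (a * π ^ (j' + 1)) * xs (F.coeff 0) =
            (π * π) * (a * π ^ j' * xs (F.coeff 0)) := by ring
        rw [e2, pow_two]
        exact Ideal.mul_mem_right _ _ (Ideal.mul_mem_mul (Ideal.subset_span rfl)
          (Ideal.subset_span rfl))
  obtain ⟨C, instC, instAlg, x', hx', htr⟩ := hTr F' hF'm hF'n hF'e
  set J : Ideal C := Ideal.span {algebraMap A C (π ^ (p * e₁ + 1 + r))} with hJ
  have hle : Ideal.span {π ^ (p * e₁ + 1 + r)} ≤ Ideal.comap (algebraMap A C) J := by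
    rw [Ideal.span_le]
    intro z hz
    rw [Set.mem_singleton_iff] at hz
    subst hz
    exact Ideal.subset_span rfl
  set ι : A ⧸ Ideal.span {π ^ (p * e₁ + 1 + r)} →+* C ⧸ J :=
    Ideal.quotientMap J (algebraMap A C) hle with hι
  set i : A →+* C ⧸ J := ι.comp s with hi
  have hi1 : ∀ z : A, i z =
      Ideal.Quotient.mk J (algebraMap A C (z + π * (a * π ^ j) * xs z)) := by
    intro z
    rw [hi, RingHom.comp_apply, hxs z, hι, Ideal.quotientMap_mk]
  have heval : F.eval₂ i (Ideal.Quotient.mk J x') = 0 := by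
    rw [eval₂_eq_sum_range, hFn, Finset.sum_range_succ]
    have h1 : F.coeff n = 1 := by rw [← hFn]; exact hFm.coeff_natDegree
    rw [h1, map_one, one_mul]
    have h2 : aeval x' F' = x' ^ n + ∑ l ∈ Finset.range n, algebraMap A C (g l) * x' ^ l := by
      rw [hF', hQ, map_add, map_pow, aeval_X, map_sum]
      congr 1
      refine Finset.sum_congr rfl (fun l _ => ?_)
      rw [map_mul, aeval_C, map_pow, aeval_X]
    have h3 : ∑ l ∈ Finset.range n, i (F.coeff l) * (Ideal.Quotient.mk J x') ^ l +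
        (Ideal.Quotient.mk J x') ^ n = Ideal.Quotient.mk J (aeval x' F') := by
      rw [h2, map_add, map_pow, map_sum, add_comm]
      congr 1
      refine Finset.sum_congr rfl (fun l _ => ?_)
      rw [hi1, map_mul, map_pow]
    rw [h3, hx', map_zero]
  obtain ⟨η, hηa, hηx⟩ := hUP (C ⧸ J) i (Ideal.Quotient.mk J x') heval
  -- the twisted element
  obtain ⟨v', hv'⟩ : ∃ v' : A, v' = (1 + a * π ^ j) ^ r * ũ := ⟨_, rfl⟩
  have hv'u : IsUnit v' := by
    rw [hv']
    refine IsUnit.mul (IsUnit.pow _ ?_) hũu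
    refine twlv_isUnit_of_dvd_sub hπnu isUnit_one ?_
    have e : (1 + a * π ^ j) - 1 = π ^ j * a := by ring
    rw [e]; exact Dvd.dvd.mul_right (dvd_pow_self π (by omega)) _
  have hηy : η y ^ p = Ideal.Quotient.mk J (algebraMap A C (π ^ r * v')) := by
    rw [← map_pow, hy, hηa, map_mul, map_pow]
    have e1 : i π = Ideal.Quotient.mk J (algebraMap A C (π * (1 + a * π ^ j))) := by
      rw [hi, RingHom.comp_apply, hsπ, hι, Ideal.quotientMap_mk]
    have e2 : i u = Ideal.Quotient.mk J (algebraMap A C ũ) := by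
      rw [hi, RingHom.comp_apply, hũ, hι, Ideal.quotientMap_mk]
    have e3 : (π * (1 + a * π ^ j)) ^ r * ũ = π ^ r * v' := by rw [hv', mul_pow]; ring
    rw [e1, e2, ← map_pow, ← map_pow, ← map_mul, ← map_mul, e3]
  obtain ⟨yt, hyt⟩ := Ideal.Quotient.mk_surjective (η y)
  have h4 : yt ^ p - algebraMap A C (π ^ r * v') ∈ J := by
    rw [← Ideal.Quotient.eq, map_pow, hyt, hηy]
  rw [hJ, Ideal.mem_span_singleton] at h4
  obtain ⟨c, hc⟩ := h4
  obtain ⟨q, hq⟩ := hv'u.exists_right_inv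
  have h5 : ∃ y' : B, y' ^ p = algebraMap A B (π ^ r * v') := by
    refine htr (p * e₁ + 1 + r) (by omega) η (π ^ r * v') ⟨yt, algebraMap A C q * c, ?_⟩
    have e4 : π ^ r * v' * π ^ (p * e₁ + 1) * q = π ^ (p * e₁ + 1 + r) := by
      rw [pow_add π (p * e₁ + 1) r]
      calc π ^ r * v' * π ^ (p * e₁ + 1) * q = π ^ (p * e₁ + 1) * π ^ r * (v' * q) := by ring
        _ = π ^ (p * e₁ + 1) * π ^ r := by rw [hq, mul_one]
    calc yt ^ p = algebraMap A C (π ^ r * v') + algebraMap A C (π ^ (p * e₁ + 1 + r)) * c := by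
          rw [← hc]; ring
      _ = algebraMap A C (π ^ r * v') +
            algebraMap A C (π ^ r * v' * π ^ (p * e₁ + 1) * q) * c := by rw [e4]
      _ = _ := by simp only [map_mul]; ring
  obtain ⟨y', hy'⟩ := h5
  have hπ0 : π ≠ 0 := hπ.ne_zero
  have hy0 : y ≠ 0 := by
    intro h0
    rw [h0, zero_pow hp.ne_zero] at hy
    have := hinj (by rw [← hy, map_zero] : algebraMap A B (π ^ r * u) = algebraMap A B 0)
    exact (mul_ne_zero (pow_ne_zero r hπ0) hu.ne_zero) this
  have hy'0 : y' ≠ 0 := by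
    intro h0
    rw [h0, zero_pow hp.ne_zero] at hy'
    have := hinj (by rw [← hy', map_zero] : algebraMap A B (π ^ r * v') = algebraMap A B 0)
    exact (mul_ne_zero (pow_ne_zero r hπ0) hv'u.ne_zero) this
  have hkey : y' ^ p * algebraMap A B u = y ^ p * algebraMap A B v' := by
    rw [hy, hy', ← map_mul, ← map_mul]; congr 1; ring
  have hdvd : y ∣ y' := by
    rcases ValuationRing.dvd_total y y' with h1 | ⟨m, hm⟩
    · exact h1
    · have e4 : y' ^ p * algebraMap A B u = y' ^ p * (m ^ p * algebraMap A B v') := by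
        rw [hkey, hm, mul_pow]; ring
      have e5 := mul_left_cancel₀ (pow_ne_zero p hy'0) e4
      have hmu : IsUnit (m ^ p * algebraMap A B v') := by
        rw [← e5]; exact hu.map (algebraMap A B)
      have hm' : IsUnit m := by
        have := isUnit_of_mul_isUnit_left hmu
        exact (isUnit_pow_iff hp.ne_zero).1 this
      obtain ⟨mu, rfl⟩ := hm'
      exact ⟨(↑mu⁻¹ : B), by rw [hm]; simp [mul_assoc]⟩
  obtain ⟨Y, hY⟩ := hdvd
  refine ⟨Y, ?_⟩
  rw [← hv']
  have e6 : y ^ p * (Y ^ p * algebraMap A B u) = y ^ p * algebraMap A B v' := by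
    rw [← hkey, hY, mul_pow]; ring
  exact mul_left_cancel₀ (pow_ne_zero p hy0) e6

end Star

end Fermat.Agent.TW.W


end ZBTW_005_1

/-! ### bundled: `Fermat.Agent.TW.W.LevelContra` -/
section ZBTW_005_2

/-!
# S56 / TW-W (LEVEL), abstract core, part 3: the counting / top-level contradiction (helper57)
-/

set_option autoImplicit false

namespace Fermat.Agent.TW.W

open Polynomial IsLocalRing

section Res
variable {A : Type*} [CommRing A] [IsDomain A] [IsDiscreteValuationRing A] {π : A}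

theorem twlv_residue_eq_zero (hπ : Irreducible π) (a : A) : residue A a = 0 ↔ π ∣ a := by
  rw [residue_eq_zero_iff, (IsDiscreteValuationRing.irreducible_iff_uniformizer π).1 hπ,
    Ideal.mem_span_singleton]

theorem twlv_not_dvd_of_isUnit (hπ : Irreducible π) {a : A} (ha : IsUnit a) : ¬ π ∣ a :=
  fun h => hπ.not_isUnit (isUnit_of_dvd_unit h ha)

theorem twlv_isUnit_of_not_dvd (hπ : Irreducible π) {a : A} (ha : ¬ π ∣ a) : IsUnit a := by
  by_contra h
  apply ha
  have : a ∈ maximalIdeal A := by rwa [mem_maximalIdeal, mem_nonunits_iff]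
  rwa [(IsDiscreteValuationRing.irreducible_iff_uniformizer π).1 hπ,
    Ideal.mem_span_singleton] at this

end Res

section Contra
variable {A : Type*} [CommRing A] [IsDomain A] [IsDiscreteValuationRing A]
variable {B : Type*} [CommRing B] [IsDomain B] [IsDiscreteValuationRing B] [Algebra A B]
variable {p : ℕ} {π : A}

theorem twlv_contra_top (hp : p.Prime) (hπ : Irreducible π) {e₁ : ℕ} (he₁ : 0 < e₁) (ε : A)
    (hpe : (p : A) = ε * π ^ ((p - 1) * e₁))
    [Finite (ResidueField A)]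
    (hinj : Function.Injective (algebraMap A B))
    (hπB : algebraMap A B π ∈ maximalIdeal B)
    (hloc : ∀ a : A, algebraMap A B a ∈ maximalIdeal B → π ∣ a)
    (hres : ∀ b : B, ∃ a : A, b - algebraMap A B a ∈ maximalIdeal B)
    (hν : ∃ ν : A, ¬ π ∣ ν ∧ π ∣ ν ^ (p - 1) + ε)
    (θ : A) (hθ : IsUnit θ)
    (h : ∀ a : A, ∃ (Y : B) (X : A),
      Y ^ p = algebraMap A B (1 + θ * a * π ^ (p * e₁) + π ^ (p * e₁ + 1) * X)) : False := by
  obtain ⟨θ', hθ'⟩ := hθ.exists_right_inv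
  have hsurj : Function.Surjective (fun z : ResidueField A => z ^ p + residue A ε * z) := by
    intro cbar
    obtain ⟨c, rfl⟩ := residue_surjective cbar
    obtain ⟨Y, X, hY⟩ := h (θ' * c)
    have e1 : θ * (θ' * c) = c := by rw [← mul_assoc, hθ', one_mul]
    rw [e1] at hY
    have hY' : Y ^ p = 1 + algebraMap A B (c * π ^ (p * e₁)) +
        algebraMap A B (π ^ (p * e₁ + 1)) * algebraMap A B X := by
      rw [hY]; simp only [map_add, map_mul, map_one]
    obtain ⟨z, hz⟩ := twlv_top hp he₁ ε hpe hinj hπ.ne_zero hπB hloc hres Y c _ hY'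
    refine ⟨residue A z, ?_⟩
    have := (twlv_residue_eq_zero hπ _).2 hz
    rw [map_sub, map_add, map_pow, map_mul, sub_eq_zero] at this
    exact this
  have hinj' := Finite.injective_iff_surjective.2 hsurj
  obtain ⟨ν, hν1, hν2⟩ := hν
  have hp1 : p = (p - 1) + 1 := by have := hp.two_le; omega
  have e2 : (fun z : ResidueField A => z ^ p + residue A ε * z) (residue A ν) =
      (fun z : ResidueField A => z ^ p + residue A ε * z) 0 := by
    simp only
    rw [zero_pow hp.ne_zero, mul_zero, add_zero]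
    have := (twlv_residue_eq_zero hπ _).2 hν2
    rw [map_add, map_pow] at this
    have e3 : residue A ν ^ p + residue A ε * residue A ν =
        residue A ν * (residue A ν ^ (p - 1) + residue A ε) := by
      conv_lhs => rw [hp1, pow_succ]
      ring
    rw [e3, this, mul_zero]
  exact hν1 ((twlv_residue_eq_zero hπ _).1 (hinj' e2))

theorem twlv_contra_count (hp : p.Prime) (hπ : Irreducible π) {e₁ : ℕ}
    (hpe : π ^ ((p - 1) * e₁) ∣ (p : A))
    [Finite (ResidueField A)]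
    (bound : ℕ) (hCount : TwlvCount A B p bound) (hbound : bound < Nat.card (ResidueField A))
    (θ : A) (hθ : IsUnit θ) (t : ℕ) (ht1 : 1 ≤ t) (ht : t < p * e₁) (hpt : ¬ p ∣ t)
    (h : ∀ a : A, ∃ (Y : B) (X : A),
      Y ^ p = algebraMap A B (1 + θ * a * π ^ t + π ^ (t + 1) * X)) : False := by
  classical
  letI : Fintype (ResidueField A) := Fintype.ofFinite _
  choose Y X hYX using h
  set σ : ResidueField A → A := Function.surjInv (residue_surjective (R := A)) with hσ
  have hσr : ∀ κ, residue A (σ κ) = κ := Function.surjInv_eq _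
  set w : ResidueField A → A := fun κ => 1 + θ * σ κ * π ^ t + π ^ (t + 1) * X (σ κ) with hw
  obtain ⟨t', rfl⟩ : ∃ t', t = t' + 1 := ⟨t - 1, by omega⟩
  have hwm : ∀ κ, w κ = 1 + π * (θ * σ κ * π ^ t' + π ^ (t' + 1) * X (σ κ)) := by
    intro κ; rw [hw]; ring
  have hwu : ∀ κ, IsUnit (w κ) := by
    intro κ
    refine twlv_isUnit_of_dvd_sub hπ.not_isUnit isUnit_one ?_
    rw [hwm]; exact ⟨θ * σ κ * π ^ t' + π ^ (t' + 1) * X (σ κ), by ring⟩
  have hkey : ∀ κ κ', (∃ ζ : A, w κ = w κ' * ζ ^ p) → κ = κ' := by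
    rintro κ κ' ⟨ζ, hζ⟩
    by_contra hne
    set c : A := θ * (σ κ - σ κ') with hc
    have hcnd : ¬ π ∣ c := by
      intro hd
      rcases hπ.prime.dvd_or_dvd hd with h1 | h1
      · exact twlv_not_dvd_of_isUnit hπ hθ h1
      · have := (twlv_residue_eq_zero hπ _).2 h1
        rw [map_sub, hσr, hσr, sub_eq_zero] at this
        exact hne this
    set D : A := ζ ^ p - 1 with hD
    have e1 : w κ' * D = c * π ^ (t' + 1) + π ^ (t' + 1 + 1) * (X (σ κ) - X (σ κ')) := by
      have : w κ' * D = w κ - w κ' := by rw [hD, hζ]; ring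
      rw [this, hw, hc]; ring
    -- π ^ (t'+1) ∣ D
    obtain ⟨q, hq⟩ := (hwu κ').exists_right_inv
    have e2 : D = q * (w κ' * D) := by
      calc D = (w κ' * q) * D := by rw [hq, one_mul]
        _ = q * (w κ' * D) := by ring
    have hdD : π ^ (t' + 1) ∣ D := by
      rw [e2, e1]
      refine Dvd.dvd.mul_left (dvd_add (Dvd.dvd.mul_left dvd_rfl _) ?_) _
      exact Dvd.dvd.mul_right (pow_dvd_pow π (by omega)) _
    obtain ⟨D', hD'⟩ := hdD
    have e3 : ζ ^ p - (1 + c * π ^ (t' + 1)) =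
        π ^ (t' + 1 + 1) * ((X (σ κ) - X (σ κ')) -
          (θ * σ κ' * π ^ t' + π ^ (t' + 1) * X (σ κ')) * D') := by
      have e4 : ζ ^ p - (1 + c * π ^ (t' + 1)) = D - c * π ^ (t' + 1) := by rw [hD]; ring
      have e5 : D = w κ' * D - π * (θ * σ κ' * π ^ t' + π ^ (t' + 1) * X (σ κ')) * D := by
        rw [hwm κ']; ring
      rw [e4, e5, e1]
      conv_lhs => rw [hD']
      ring
    exact hpt (twlv_pw hp hπ hpe ζ c (t' + 1) hcnd ht ⟨_, e3⟩)
  have hwinj : Function.Injective w := by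
    intro κ κ' hκ
    exact hkey κ κ' ⟨1, by rw [one_pow, mul_one, hκ]⟩
  have hcard := hCount (Finset.univ.image w) (by
      intro z hz
      obtain ⟨κ, -, rfl⟩ := Finset.mem_image.1 hz
      exact ⟨hwu κ, Y (σ κ), hYX (σ κ)⟩) (by
      intro z hz z' hz' hex
      obtain ⟨κ, -, rfl⟩ := Finset.mem_image.1 hz
      obtain ⟨κ', -, rfl⟩ := Finset.mem_image.1 hz'
      rw [hkey κ κ' hex])
  rw [Finset.card_image_of_injective _ hwinj, Finset.card_univ, ← Nat.card_eq_fintype_card] at hcard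
  omega

end Contra

end Fermat.Agent.TW.W


end ZBTW_005_2

/-! ### bundled: `Fermat.Agent.TW.W.LevelMain` -/
section ZBTW_005_3

/-!
# S56 / TW-W (LEVEL), abstract core, part 4: the main theorem `twlv_core` (helper57)

Under `TwlvData`: if `π ^ r * u` (`u` a unit of `A`) is a `p`-th power in `B`, then `p ∣ r` and
`u ∈ (1 + p A) · (Aˣ)^p`  (`p = ε π^e`, `ε` a unit).
-/

set_option autoImplicit false

namespace Fermat.Agent.TW.W

open Polynomial IsLocalRing

/-- The hypotheses of the abstract (LEVEL) theorem. -/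
structure TwlvData (A B : Type*) [CommRing A] [IsDomain A] [IsDiscreteValuationRing A]
    [CommRing B] [IsDomain B] [IsDiscreteValuationRing B] [Algebra A B]
    (p : ℕ) (π : A) (ε : A) (e₁ : ℕ) : Prop where
  hp : p.Prime
  hp2 : p ≠ 2
  hπ : Irreducible π
  he₁ : 0 < e₁
  hε : IsUnit ε
  hpe : (p : A) = ε * π ^ ((p - 1) * e₁)
  hfin : Finite (ResidueField A)
  hinj : Function.Injective (algebraMap A B)
  hπB : algebraMap A B π ∈ maximalIdeal B
  hres : ∀ b : B, ∃ a : A, b - algebraMap A B a ∈ maximalIdeal B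
  hν : ∃ ν : A, ¬ π ∣ ν ∧ π ∣ ν ^ (p - 1) + ε
  hF : ∃ (F : A[X]) (x : B) (n : ℕ), F.Monic ∧ F.natDegree = n ∧
    F.IsEisensteinAt (Ideal.span {π}) ∧ TwlvUP F x ∧ TwlvTransfer A B p π e₁ n
  hTw : TwlvTwist π ((p - 1) * e₁)
  hCount : ∃ bound, TwlvCount A B p bound ∧ bound < Nat.card (ResidueField A)

section Main
variable {A : Type*} [CommRing A] [IsDomain A] [IsDiscreteValuationRing A]
variable {B : Type*} [CommRing B] [IsDomain B] [IsDiscreteValuationRing B] [Algebra A B]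
variable {p : ℕ} {π : A} {ε : A} {e₁ : ℕ}

namespace TwlvData

variable (D : TwlvData A B p π ε e₁)
include D

theorem hloc (a : A) (h : algebraMap A B a ∈ maximalIdeal B) : π ∣ a := by
  by_contra hnd
  have hu := twlv_isUnit_of_not_dvd D.hπ hnd
  have := hu.map (algebraMap A B)
  exact (mem_nonunits_iff.1 ((mem_maximalIdeal _).1 h)) this

theorem hpe' : π ^ ((p - 1) * e₁) ∣ (p : A) := ⟨ε, by rw [D.hpe]; ring⟩

theorem three_le : 3 ≤ p := by
  have := D.hp.two_le
  have := D.hp2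
  omega

theorem charP : CharP (ResidueField A) p := by
  rw [CharP.charP_iff_prime_eq_zero D.hp]
  have : π ∣ (p : A) := by
    rw [D.hpe]
    refine Dvd.dvd.mul_left (dvd_pow_self π ?_) _
    have := D.three_le
    have := D.he₁
    exact Nat.mul_ne_zero (by omega) (by omega)
  have h0 := (twlv_residue_eq_zero D.hπ _).2 this
  rwa [map_natCast] at h0

/-- Frobenius is surjective on the residue field: every `b` is `β^p` modulo `π`. -/
theorem exists_pow_sub (b : A) : ∃ β : A, π ∣ β ^ p - b := by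
  have := D.hfin
  have := D.charP
  have : Fact p.Prime := ⟨D.hp⟩
  have hinj : Function.Injective (frobenius (ResidueField A) p) := frobenius_inj _ p
  have hsurj := Finite.injective_iff_surjective.1 hinj
  obtain ⟨βbar, hβ⟩ := hsurj (residue A b)
  obtain ⟨β, rfl⟩ := residue_surjective βbar
  refine ⟨β, (twlv_residue_eq_zero D.hπ _).1 ?_⟩
  rw [map_sub, map_pow, sub_eq_zero]
  exact hβ

theorem natCast_isUnit (i : ℕ) (hi : ¬ p ∣ i) : IsUnit (i : A) := by
  refine twlv_isUnit_of_not_dvd D.hπ (fun h => hi ?_)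
  have := D.charP
  have h0 := (twlv_residue_eq_zero D.hπ _).2 h
  rw [map_natCast] at h0
  exact (CharP.cast_eq_zero_iff (ResidueField A) p i).1 h0

/-- the family of `p`-th powers produced by the twists, unit case. -/
theorem unit_fam (i : ℕ) (hi1 : 1 ≤ i) (b : A) (y : B)
    (hy : y ^ p = algebraMap A B (1 + b * π ^ i)) (j : ℕ) (hj : e₁ + 1 ≤ j) (a : A) :
    ∃ (Y : B) (X : A),
      Y ^ p = algebraMap A B (1 + ((i : A) * b) * a * π ^ (i + j) + π ^ (i + j + 1) * X) := by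
  obtain ⟨F, x, n, hFm, hFn, hFe, hUP, hTr⟩ := D.hF
  have hu : IsUnit (1 + b * π ^ i) := by
    refine twlv_isUnit_of_dvd_sub D.hπ.not_isUnit isUnit_one ?_
    exact ⟨b * π ^ (i - 1), by
      obtain ⟨i', rfl⟩ : ∃ i', i = i' + 1 := ⟨i - 1, by omega⟩
      simp only [Nat.add_sub_cancel]; ring⟩
  have hy' : y ^ p = algebraMap A B (π ^ 0 * (1 + b * π ^ i)) := by rw [pow_zero, one_mul]; exact hy
  obtain ⟨s, hsπ, hsx, hstar⟩ := twlv_star D.hp D.hπ D.hinj F hFm hFn hFe x hUP D.hTw hTr 0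
    (1 + b * π ^ i) hu y hy' j (by omega) a
  obtain ⟨b', hb'⟩ := hsx b
  have hsu : s (1 + b * π ^ i) = Ideal.Quotient.mk _
      (1 + (b + π * (a * π ^ j) * b') * (π * (1 + a * π ^ j)) ^ i) := by
    rw [map_add, map_one, map_mul, map_pow, hsπ, hb']
    simp only [map_add, map_mul, map_pow, map_one]
  obtain ⟨Y, hY⟩ := hstar _ hsu
  obtain ⟨q, hq⟩ := hu.exists_right_inv
  obtain ⟨G, hG⟩ := twlv_binom2 (a * π ^ j) i
  obtain ⟨i', rfl⟩ : ∃ i', i = i' + 1 := ⟨i - 1, by omega⟩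
  obtain ⟨j', rfl⟩ : ∃ j', j = j' + 1 := ⟨j - 1, by omega⟩
  refine ⟨Y, (b * a ^ 2 * π ^ j' * G + a * b' * (1 + a * π ^ (j' + 1)) ^ (i' + 1)) -
    (((i' + 1 : ℕ) : A) * b * a + π * (b * a ^ 2 * π ^ j' * G +
      a * b' * (1 + a * π ^ (j' + 1)) ^ (i' + 1))) * b * π ^ i' * q, ?_⟩
  have e1 : Y ^ p = algebraMap A B
      ((1 + (b + π * (a * π ^ (j' + 1)) * b') * (π * (1 + a * π ^ (j' + 1))) ^ (i' + 1)) * q) := by
    have : Y ^ p = Y ^ p * algebraMap A B (1 + b * π ^ (i' + 1)) * algebraMap A B q := by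
      rw [mul_assoc, ← map_mul, hq, map_one, mul_one]
    rw [this, hY, pow_zero, one_mul, ← map_mul]
  rw [e1]
  congr 1
  rw [mul_pow]
  generalize (1 + a * π ^ (j' + 1)) ^ (i' + 1) = E at hG ⊢
  subst hG
  linear_combination (1 + ((1 + (b + π * (a * π ^ (j' + 1)) * b') * (π ^ (i' + 1) *
    (1 + ((i' + 1 : ℕ) : A) * (a * π ^ (j' + 1)) + (a * π ^ (j' + 1)) ^ 2 * G))) -
    (1 + b * π ^ (i' + 1)))) * hq

/-- the family of `p`-th powers produced by the twists, valuation case. -/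
theorem val_fam (u : A) (hu : IsUnit u) (y : B)
    (hy : y ^ p = algebraMap A B (π * u)) (j : ℕ) (hj : e₁ + 2 ≤ j) (a : A) :
    ∃ (Y : B) (X : A),
      Y ^ p = algebraMap A B (1 + 1 * a * π ^ j + π ^ (j + 1) * X) := by
  obtain ⟨F, x, n, hFm, hFn, hFe, hUP, hTr⟩ := D.hF
  have hy' : y ^ p = algebraMap A B (π ^ 1 * u) := by rw [pow_one]; exact hy
  obtain ⟨s, hsπ, hsx, hstar⟩ := twlv_star D.hp D.hπ D.hinj F hFm hFn hFe x hUP D.hTw hTr 1
    u hu y hy' j (by omega) a
  obtain ⟨x', hx'⟩ := hsx u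
  obtain ⟨Y, hY⟩ := hstar _ hx'
  obtain ⟨q, hq⟩ := hu.exists_right_inv
  refine ⟨Y, (1 + a * π ^ j) * a * x' * q, ?_⟩
  have e1 : Y ^ p = algebraMap A B
      ((1 + a * π ^ j) ^ 1 * (u + π * (a * π ^ j) * x') * q) := by
    have : Y ^ p = Y ^ p * algebraMap A B u * algebraMap A B q := by
      rw [mul_assoc, ← map_mul, hq, map_one, mul_one]
    rw [this, hY, ← map_mul]
  rw [e1]
  congr 1
  linear_combination (1 + a * π ^ j) * hq

/-- No `p`-th power of `B` has the form `1 + θ a π^t + …` for all `a` when `t ≤ p e₁` and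
(`t = p e₁` or `p ∤ t`). -/
theorem no_fam (θ : A) (hθ : IsUnit θ) (t : ℕ) (ht1 : 1 ≤ t) (ht : t ≤ p * e₁)
    (hpt : t = p * e₁ ∨ ¬ p ∣ t)
    (h : ∀ a : A, ∃ (Y : B) (X : A),
      Y ^ p = algebraMap A B (1 + θ * a * π ^ t + π ^ (t + 1) * X)) : False := by
  have := D.hfin
  rcases eq_or_lt_of_le ht with heq | hlt
  · subst heq
    exact twlv_contra_top D.hp D.hπ D.he₁ ε D.hpe D.hinj D.hπB D.hloc D.hres D.hν θ hθ h
  · rcases hpt with h1 | h1
    · omega
    · obtain ⟨bound, hC, hb⟩ := D.hCount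
      exact twlv_contra_count D.hp D.hπ D.hpe' bound hC hb θ hθ t ht1 hlt h1 h

theorem pe₁ : p * e₁ = (p - 1) * e₁ + e₁ := by
  have := D.three_le
  conv_lhs => rw [show p = (p - 1) + 1 from by omega]
  ring

/-- choice of the level `t = i + j`. -/
theorem exists_level (i : ℕ) (j₀ : ℕ) (h : i + j₀ ≤ p * e₁) :
    ∃ j, j₀ ≤ j ∧ i + j ≤ p * e₁ ∧ (i + j = p * e₁ ∨ ¬ p ∣ i + j) := by
  have hp3 := D.three_le
  by_cases h1 : i + j₀ = p * e₁
  · exact ⟨j₀, le_rfl, h, Or.inl h1⟩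
  · by_cases h2 : p ∣ i + j₀
    · refine ⟨j₀ + 1, by omega, by omega, Or.inr ?_⟩
      intro h3
      have : p ∣ (i + (j₀ + 1)) - (i + j₀) := Nat.dvd_sub h3 h2
      have e : (i + (j₀ + 1)) - (i + j₀) = 1 := by omega
      rw [e] at this
      have := Nat.le_of_dvd one_pos this
      omega
    · exact ⟨j₀, le_rfl, h, Or.inr h2⟩

/-- a unit `1 + b π^i` with `π ∤ b`, `p ∤ i`, `i < e` is not a `p`-th power in `B`. -/
theorem no_unit_level (i : ℕ) (hi1 : 1 ≤ i) (hie : i < (p - 1) * e₁) (hpi : ¬ p ∣ i) (b : A)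
    (hb : ¬ π ∣ b) (y : B) (hy : y ^ p = algebraMap A B (1 + b * π ^ i)) : False := by
  have hpe₁ := D.pe₁
  obtain ⟨j, hj0, hj1, hj2⟩ := D.exists_level i (e₁ + 1) (by omega)
  refine D.no_fam ((i : A) * b) ?_ (i + j) (by omega) hj1 hj2 (D.unit_fam i hi1 b y hy j hj0)
  exact (D.natCast_isUnit i hpi).mul (twlv_isUnit_of_not_dvd D.hπ hb)

/-- `π u` is not a `p`-th power in `B`. -/
theorem no_val (u : A) (hu : IsUnit u) (y : B) (hy : y ^ p = algebraMap A B (π * u)) : False := by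
  have hpe₁ := D.pe₁
  have hp3 := D.three_le
  have he₁ := D.he₁
  have h2 : 2 ≤ (p - 1) * e₁ := by
    calc 2 = 2 * 1 := by norm_num
      _ ≤ (p - 1) * e₁ := Nat.mul_le_mul (by omega) (by omega)
  obtain ⟨j, hj0, hj1, hj2⟩ := D.exists_level 0 (e₁ + 2) (by omega)
  rw [zero_add] at hj1 hj2
  exact D.no_fam 1 isUnit_one j (by omega) hj1 hj2 (D.val_fam u hu y hy j hj0)

end TwlvData

end Main

end Fermat.Agent.TW.W


end ZBTW_005_3

/-! ### bundled: `Fermat.Agent.TW.W.LevelFinal` -/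
section ZBTW_005_4

/-!
# S56 / TW-W (LEVEL), abstract core, part 5: `twlv_core` (helper57)

`TwlvData A B p π ε e₁` ⇒ if `π ^ r * u` (`u` a unit of `A`) is a `p`-th power in `B` then `p ∣ r`
and there is a unit `w` of `A` with `u * w ^ p ≡ 1 mod π ^ ((p-1) e₁)` (`= mod p`).
-/

set_option autoImplicit false

namespace Fermat.Agent.TW.W

open Polynomial IsLocalRing

section VR
variable {B : Type*} [CommRing B] [IsDomain B] [ValuationRing B]

theorem twlv_dvd_of_pow_dvd_pow {a b : B} {n : ℕ} (hn : n ≠ 0) (h : a ^ n ∣ b ^ n) : a ∣ b := by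
  rcases ValuationRing.dvd_total a b with h1 | ⟨m, hm⟩
  · exact h1
  · rcases eq_or_ne b 0 with hb | hb
    · rw [hb]; exact dvd_zero a
    · obtain ⟨c, hc⟩ := h
      have e1 : b ^ n * 1 = b ^ n * (m ^ n * c) := by
        rw [mul_one]
        conv_lhs => rw [hc, hm, mul_pow]
        ring
      have e2 := mul_left_cancel₀ (pow_ne_zero n hb) e1
      have hmu : IsUnit m := by
        have : IsUnit (m ^ n) := IsUnit.of_mul_eq_one c e2.symm
        exact (isUnit_pow_iff hn).1 this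
      obtain ⟨mu, rfl⟩ := hmu
      exact ⟨(↑mu⁻¹ : B), by rw [hm]; simp [mul_assoc]⟩

end VR

section Final
variable {A : Type*} [CommRing A] [IsDomain A] [IsDiscreteValuationRing A]
variable {B : Type*} [CommRing B] [IsDomain B] [IsDiscreteValuationRing B] [Algebra A B]
variable {p : ℕ} {π : A} {ε : A} {e₁ : ℕ}

namespace TwlvData

variable (D : TwlvData A B p π ε e₁)
include D

theorem units_aux (d : ℕ) : ∀ (i : ℕ) (u : A), 1 ≤ i → i + d = (p - 1) * e₁ → π ^ i ∣ u - 1 →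
    (∃ y : B, y ^ p = algebraMap A B u) →
    ∃ w : A, IsUnit w ∧ π ^ ((p - 1) * e₁) ∣ u * w ^ p - 1 := by
  induction d with
  | zero =>
    intro i u _ hi hu _
    refine ⟨1, isUnit_one, ?_⟩
    rw [add_zero] at hi
    rw [one_pow, mul_one, ← hi]; exact hu
  | succ d ih =>
    intro i u hi1 hi hu ⟨y, hy⟩
    obtain ⟨b, hb⟩ := hu
    have hu' : u = 1 + b * π ^ i := by
      have : u = (u - 1) + 1 := by ring
      rw [this, hb]; ring
    by_cases hbd : π ∣ b
    · refine ih (i + 1) u (by omega) (by omega) ?_ ⟨y, hy⟩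
      obtain ⟨b₁, rfl⟩ := hbd
      exact ⟨b₁, by rw [hb, pow_succ]; ring⟩
    · by_cases hpi : p ∣ i
      · obtain ⟨l, rfl⟩ := hpi
        have hl1 : 1 ≤ l := by
          rcases Nat.eq_zero_or_pos l with h0 | h0
          · subst h0; omega
          · exact h0
        obtain ⟨β, m, hβ⟩ := D.exists_pow_sub b
        have hvu : IsUnit (1 + β * π ^ l) := by
          refine twlv_isUnit_of_dvd_sub D.hπ.not_isUnit isUnit_one ?_
          have e : (1 + β * π ^ l) - 1 = π ^ l * β := by ring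
          rw [e]; exact Dvd.dvd.mul_right (dvd_pow_self π (by omega)) _
        obtain ⟨q, hq⟩ := hvu.exists_right_inv
        have hqu : IsUnit q := IsUnit.of_mul_eq_one _ (by rw [mul_comm]; exact hq)
        obtain ⟨G, hG⟩ := twlv_binom p D.hp (β * π ^ l)
        -- exponent bookkeeping
        obtain ⟨k, hk⟩ : ∃ k, (p - 1) * e₁ + l = p * l + 1 + k := ⟨(p - 1) * e₁ + l - (p * l + 1), by omega⟩
        have key : u * q ^ p - 1 = π ^ (p * l + 1) *
            ((- m - ε * π ^ k * β * (1 + β * π ^ l * G)) * q ^ p) := by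
          have e1 : u * q ^ p - 1 = (u - (1 + β * π ^ l) ^ p) * q ^ p := by
            have : (1 + β * π ^ l) ^ p * q ^ p = 1 := by rw [← mul_pow, hq, one_pow]
            linear_combination this
          have e2 : u - (1 + β * π ^ l) ^ p =
              π ^ (p * l + 1) * (- m - ε * π ^ k * β * (1 + β * π ^ l * G)) := by
            rw [hG, D.hpe, hu']
            have e3 : ε * π ^ ((p - 1) * e₁) * (β * π ^ l) =
                π ^ (p * l + 1) * (ε * π ^ k * β) := by
              calc ε * π ^ ((p - 1) * e₁) * (β * π ^ l) = π ^ ((p - 1) * e₁ + l) * (ε * β) := by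
                    rw [pow_add]; ring
                _ = π ^ (p * l + 1) * (ε * π ^ k * β) := by rw [hk, pow_add]; ring
            have e4 : (β * π ^ l) ^ p = β ^ p * π ^ (p * l) := by
              rw [mul_pow, ← pow_mul, mul_comm l p]
            rw [e4]
            linear_combination (-(π ^ (p * l))) * hβ - (1 + β * π ^ l * G) * e3
          rw [e1, e2]; ring
        obtain ⟨w₂, hw₂, hdw⟩ := ih (p * l + 1) (u * q ^ p) (by omega) (by omega) ⟨_, key⟩
          ⟨y * algebraMap A B q, by rw [mul_pow, hy, ← map_pow, ← map_mul]⟩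
        refine ⟨q * w₂, hqu.mul hw₂, ?_⟩
        have e5 : u * (q * w₂) ^ p - 1 = u * q ^ p * w₂ ^ p - 1 := by ring
        rw [e5]; exact hdw
      · exact (D.no_unit_level i hi1 (by omega) hpi b hbd y (by rw [hy, hu'])).elim

/-- units of `A` which are `p`-th powers in `B` lie in `(1 + p A) (Aˣ)^p`. -/
theorem units (u : A) (hu : IsUnit u) (h : ∃ y : B, y ^ p = algebraMap A B u) :
    ∃ w : A, IsUnit w ∧ π ^ ((p - 1) * e₁) ∣ u * w ^ p - 1 := by
  obtain ⟨y, hy⟩ := h
  obtain ⟨q, hq⟩ := hu.exists_right_inv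
  have hqu : IsUnit q := IsUnit.of_mul_eq_one _ (by rw [mul_comm]; exact hq)
  obtain ⟨β, m, hβ⟩ := D.exists_pow_sub q
  have hβu : IsUnit β := by
    have h1 : IsUnit (β ^ p) := by
      refine twlv_isUnit_of_dvd_sub D.hπ.not_isUnit hqu ⟨m, hβ⟩
    exact (isUnit_pow_iff D.hp.ne_zero).1 h1
  have hp3 := D.three_le
  have he₁ := D.he₁
  have h2 : 2 ≤ (p - 1) * e₁ := by
    calc 2 = 2 * 1 := by norm_num
      _ ≤ (p - 1) * e₁ := Nat.mul_le_mul (by omega) (by omega)
  obtain ⟨w₂, hw₂, hdw⟩ := D.units_aux ((p - 1) * e₁ - 1) 1 (u * β ^ p) le_rfl (by omega)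
    ⟨u * m, by rw [pow_one]; linear_combination u * hβ + hq⟩
    ⟨y * algebraMap A B β, by rw [mul_pow, hy, ← map_pow, ← map_mul]⟩
  refine ⟨β * w₂, hβu.mul hw₂, ?_⟩
  have e5 : u * (β * w₂) ^ p - 1 = u * β ^ p * w₂ ^ p - 1 := by ring
  rw [e5]; exact hdw

/-- the valuation of an element of `A` which is a `p`-th power in `B` is divisible by `p`. -/
theorem val (r : ℕ) (u : A) (hu : IsUnit u) (h : ∃ y : B, y ^ p = algebraMap A B (π ^ r * u)) :
    p ∣ r := by
  by_contra hpr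
  obtain ⟨y, hy⟩ := h
  have hcop : Nat.Coprime r p := ((Nat.Prime.coprime_iff_not_dvd D.hp).2 hpr).symm
  obtain ⟨r', -, hr'⟩ := Nat.exists_mul_mod_eq_one_of_coprime hcop D.hp.one_lt
  have hdm := Nat.div_add_mod (r * r') p
  rw [hr'] at hdm
  set q' := r * r' / p with hq'
  have e1 : (y ^ r') ^ p = (algebraMap A B (π ^ q')) ^ p * algebraMap A B (π * u ^ r') := by
    rw [← pow_mul, mul_comm r' p, pow_mul, hy, ← map_pow, ← map_pow, ← map_mul]
    congr 1
    rw [mul_pow, ← pow_mul, ← hdm, pow_add, pow_one, ← pow_mul, mul_comm p q']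
    ring
  have hdvd : algebraMap A B (π ^ q') ∣ y ^ r' :=
    twlv_dvd_of_pow_dvd_pow D.hp.ne_zero ⟨_, e1⟩
  obtain ⟨Y, hY⟩ := hdvd
  have hne : algebraMap A B (π ^ q') ≠ 0 := by
    intro h0
    exact pow_ne_zero q' D.hπ.ne_zero (D.hinj (by rw [h0, map_zero]))
  have e2 : algebraMap A B (π ^ q') ^ p * Y ^ p =
      algebraMap A B (π ^ q') ^ p * algebraMap A B (π * u ^ r') := by
    rw [← e1, hY, mul_pow]
  exact D.no_val (u ^ r') (hu.pow r') Y (mul_left_cancel₀ (pow_ne_zero p hne) e2)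

/-- **(LEVEL), abstract form.** -/
theorem core (r : ℕ) (u : A) (hu : IsUnit u)
    (h : ∃ y : B, y ^ p = algebraMap A B (π ^ r * u)) :
    p ∣ r ∧ ∃ w : A, IsUnit w ∧ π ^ ((p - 1) * e₁) ∣ u * w ^ p - 1 := by
  have hpr := D.val r u hu h
  refine ⟨hpr, ?_⟩
  obtain ⟨r₀, rfl⟩ := hpr
  obtain ⟨y, hy⟩ := h
  have e1 : y ^ p = (algebraMap A B (π ^ r₀)) ^ p * algebraMap A B u := by
    rw [hy, ← map_pow, ← map_mul, ← pow_mul, mul_comm r₀ p]
  have hdvd : algebraMap A B (π ^ r₀) ∣ y := twlv_dvd_of_pow_dvd_pow D.hp.ne_zero ⟨_, e1⟩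
  obtain ⟨Y, hY⟩ := hdvd
  have hne : algebraMap A B (π ^ r₀) ≠ 0 := by
    intro h0
    exact pow_ne_zero r₀ D.hπ.ne_zero (D.hinj (by rw [h0, map_zero]))
  have e2 : algebraMap A B (π ^ r₀) ^ p * Y ^ p =
      algebraMap A B (π ^ r₀) ^ p * algebraMap A B u := by
    rw [← e1, hY, mul_pow]
  exact D.units u hu ⟨Y, mul_left_cancel₀ (pow_ne_zero p hne) e2⟩

end TwlvData

/-- **(LEVEL), abstract form**, restated. -/
theorem twlv_core (D : TwlvData A B p π ε e₁) (r : ℕ) (u : A) (hu : IsUnit u)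
    (h : ∃ y : B, y ^ p = algebraMap A B (π ^ r * u)) :
    p ∣ r ∧ ∃ w : A, IsUnit w ∧ π ^ ((p - 1) * e₁) ∣ u * w ^ p - 1 :=
  D.core r u hu h

end Final

end Fermat.Agent.TW.W


end ZBTW_005_4

/-! ### bundled: `Fermat.Agent.TW.W.LevelFieldA` -/
section ZBTW_005_5
/-
TW-W chain A (helper57): field-level (LEVEL), part A — the valuation ring of a local field
(PT-L API) as a discrete valuation ring; dictionary divisibility ↔ `wv`; the cyclotomic data
`p = ε π^((p-1) e₁)`, `ν^(p-1) ≡ -ε`; residue fields of a totally ramified extension.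
-/

set_option autoImplicit false
set_option linter.unusedSectionVars false
set_option linter.style.haveILetI false

open Polynomial IsLocalRing

namespace Fermat.Agent.TW.W

open Fermat.Agent.PT.L

section One

variable (q : ℕ) [Fact q.Prime] {X : Type} [Field X] [Algebra ℚ_[q] X]
  [FiniteDimensional ℚ_[q] X]

/-- the valuation ring of a local field is a DVR -/
theorem twlf_isDVR : IsDiscreteValuationRing (UE.OV q stmtWAdd X) := by
  haveI : IsPrincipalIdealRing (UE.OV q stmtWAdd X) := LU.lu_pid q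
  refine { not_a_field' := ?_ }
  obtain ⟨π, hπ⟩ := stmtWUnif q X
  intro h
  have h1 : twwPmUnif q hπ ∈ maximalIdeal (UE.OV q stmtWAdd X) := by
    rw [UE.mem_maximalIdeal_iff]
    right
    show 1 ≤ wv q π
    have := hπ.2.1
    omega
  rw [h] at h1
  exact twwPmUnif_ne_zero q hπ ((Submodule.mem_bot _).1 h1)

/-- a uniformiser is irreducible -/
theorem twlf_irreducible {π : X} (hπ : IsUnif q π) : Irreducible (twwPmUnif q hπ) := by
  haveI := twlf_isDVR q (X := X)
  rw [IsDiscreteValuationRing.irreducible_iff_uniformizer]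
  exact LU.lu_maximalIdeal_eq q hπ _

/-- units of the valuation ring -/
theorem twlf_isUnit_iff (x : UE.OV q stmtWAdd X) : IsUnit x ↔ (x : X) ≠ 0 ∧ wv q (x : X) = 0 :=
  UE.isUnit_iff q stmtWAdd x

/-- divisibility by the uniformiser -/
theorem twlf_dvd_iff {π : X} (hπ : IsUnif q π) (x : UE.OV q stmtWAdd X) :
    twwPmUnif q hπ ∣ x ↔ geW q (wv q π) (x : X) := by
  have := tww_pmv_pow_dvd_iff q hπ 1 x
  rwa [pow_one, Nat.cast_one, one_mul] at this

end One

section Cyc

variable (q : ℕ) [Fact q.Prime] {X : Type} [Field X] [Algebra ℚ_[q] X]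
  [FiniteDimensional ℚ_[q] X]

/-- the cyclotomic data: `p = ε π^((p-1) e₁)`, `ν^(p-1) ≡ -ε mod π`, from `ζ_p ∈ X` -/
theorem twlf_cyc {π : X} (hπ : IsUnif q π) {ζ : X} (hζ1 : ζ ≠ 1) (hζp : ζ ^ q = 1) :
    ∃ (e₁ : ℕ) (ε ν : UE.OV q stmtWAdd X), 0 < e₁ ∧ IsUnit ε ∧
      ((q : ℕ) : UE.OV q stmtWAdd X) = ε * (twwPmUnif q hπ) ^ ((q - 1) * e₁) ∧
      ¬ twwPmUnif q hπ ∣ ν ∧ twwPmUnif q hπ ∣ ν ^ (q - 1) + ε ∧
      (Module.finrank ℚ_[q] X : ℤ) = (((q - 1) * e₁ : ℕ) : ℤ) * wv q π := by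
  have hq : q.Prime := Fact.out
  obtain ⟨hlpos, hlval, c, hpow, -⟩ := wgr_zeta_sub_one q hζ1 hζp
  set l : X := ζ - 1 with hl
  have hl0 : l ≠ 0 := sub_ne_zero.2 hζ1
  have hf : 0 < wv q π := hπ.2.1
  have hπ0 : π ≠ 0 := hπ.1
  obtain ⟨c₁, hc₁⟩ := hπ.2.2 l hl0
  have hc₁pos : 0 < c₁ := by
    by_contra hcon
    rw [not_lt] at hcon
    have : wv q π * c₁ ≤ 0 := mul_nonpos_of_nonneg_of_nonpos hf.le hcon
    omega
  obtain ⟨e₁, rfl⟩ := Int.eq_ofNat_of_zero_le hc₁pos.le
  have he₁ : 0 < e₁ := by exact_mod_cast hc₁pos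
  have hqm1 : ((q - 1 : ℕ) : ℤ) = (q : ℤ) - 1 := by
    have := hq.one_le
    push_cast [Nat.cast_sub this]
    ring
  have hn : (Module.finrank ℚ_[q] X : ℤ) = (((q - 1) * e₁ : ℕ) : ℤ) * wv q π := by
    rw [← hlval, hc₁]
    push_cast [hqm1]
    ring
  have hq0 : ((q : ℕ) : X) ≠ 0 := wgr_natCast_ne_zero q
  have hpk0 : π ^ ((q - 1) * e₁) ≠ 0 := pow_ne_zero _ hπ0
  have hpe0 : π ^ e₁ ≠ 0 := pow_ne_zero _ hπ0
  -- ε
  have hεw : wv q (((q : ℕ) : X) / π ^ ((q - 1) * e₁)) = 0 := by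
    rw [l0b_wv_div q hq0 hpk0, wgr_wv_natCast, l0b_wv_pow, hn]
    ring
  have hε0 : ((q : ℕ) : X) / π ^ ((q - 1) * e₁) ≠ 0 := div_ne_zero hq0 hpk0
  -- ν
  have hνw : wv q (l / π ^ e₁) = 0 := by
    rw [l0b_wv_div q hl0 hpe0, l0b_wv_pow, hc₁]
    ring
  have hν0 : l / π ^ e₁ ≠ 0 := div_ne_zero hl0 hpe0
  -- integrality of `c(l)`
  have hζ0 : ζ ≠ 0 := by
    intro h
    rw [h, zero_pow hq.ne_zero] at hζp
    exact zero_ne_one hζp
  have hlint : geW q 0 l := Or.inr hlpos.le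
  have hclint : geW q 0 (eval₂ (Int.castRingHom X) l c) := wgr_eval_int q c hlint
  refine ⟨e₁, ⟨_, Or.inr hεw.ge⟩, ⟨_, Or.inr hνw.ge⟩, he₁, ?_, ?_, ?_, ?_, hn⟩
  · rw [twlf_isUnit_iff]
    exact ⟨hε0, hεw⟩
  · apply Subtype.ext
    show ((q : ℕ) : X) = ((q : ℕ) : X) / π ^ ((q - 1) * e₁) * π ^ ((q - 1) * e₁)
    rw [div_mul_cancel₀ _ hpk0]
  · rw [twlf_dvd_iff]
    rintro (h | h)
    · exact hν0 h
    · have h' : wv q π ≤ wv q (l / π ^ e₁) := h
      rw [hνw] at h'
      omega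
  · rw [twlf_dvd_iff]
    show geW q (wv q π) ((l / π ^ e₁) ^ (q - 1) + ((q : ℕ) : X) / π ^ ((q - 1) * e₁))
    have e : (l / π ^ e₁) ^ (q - 1) + ((q : ℕ) : X) / π ^ ((q - 1) * e₁) =
        -(((q : ℕ) : X) / π ^ ((q - 1) * e₁)) * (l * eval₂ (Int.castRingHom X) l c) := by
      rw [div_pow, hpow, ← pow_mul, mul_comm e₁ (q - 1)]
      field_simp
      ring
    rw [e]
    have h1 : geW q 0 (-(((q : ℕ) : X) / π ^ ((q - 1) * e₁))) :=
      geW_neg q (Or.inr hεw.ge)
    have h2 : geW q (wv q π) l := by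
      right
      rw [hc₁]
      have : (1 : ℤ) ≤ (e₁ : ℤ) := by exact_mod_cast he₁
      nlinarith
    have h3 := geW_mul q h1 (geW_mul q h2 hclint)
    simpa using h3

end Cyc

section Pair

variable (q : ℕ) [Fact q.Prime] {K L : Type} [Field K] [Field L] [Algebra ℚ_[q] K]
  [FiniteDimensional ℚ_[q] K] [Algebra K L] [Algebra ℚ_[q] L] [IsScalarTower ℚ_[q] K L]
  [FiniteDimensional K L] [FiniteDimensional ℚ_[q] L]

theorem twlf_iota_injective :
    Function.Injective (UE.iota q stmtWAdd : UE.OV q stmtWAdd K →+* UE.OV q stmtWAdd L) := by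
  intro a b h
  have h1 := congrArg (fun z : UE.OV q stmtWAdd L => (z : L)) h
  simp only [UE.coe_iota] at h1
  exact Subtype.ext ((algebraMap K L).injective h1)

variable {πK : K} {π : L}

theorem twlf_iota_unif_mem (hK : IsUnif q πK) :
    UE.iota q stmtWAdd (E := L) (twwPmUnif q hK) ∈ maximalIdeal (UE.OV q stmtWAdd L) := by
  rw [UE.mem_maximalIdeal_iff]
  right
  rw [UE.coe_iota, wv_algebraMap_tower]
  have h1 : (0 : ℤ) < Module.finrank K L := by exact_mod_cast Module.finrank_pos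
  have h2 := hK.2.1
  show (1 : ℤ) ≤ (Module.finrank K L : ℤ) * wv q πK
  nlinarith

/-- the residue fields of a totally ramified extension coincide -/
theorem twlf_res (hK : IsUnif q πK) (hL : IsUnif q π) (htot : wv q π = wv q πK)
    (b : UE.OV q stmtWAdd L) :
    ∃ a : UE.OV q stmtWAdd K, b - UE.iota q stmtWAdd a ∈ maximalIdeal (UE.OV q stmtWAdd L) := by
  obtain ⟨P₀, -, hP₀⟩ := wr_int_exists_poly q hK hL htot b
  refine ⟨P₀.coeff 0, ?_⟩
  have h1 : P₀ = P₀.divX * X + C (P₀.coeff 0) := (Polynomial.divX_mul_X_add P₀).symm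
  have h2 : b = eval₂ (UE.iota q stmtWAdd) (⟨π, wr_unif_mem q hL⟩ : UE.OV q stmtWAdd L) P₀.divX *
      ⟨π, wr_unif_mem q hL⟩ + UE.iota q stmtWAdd (P₀.coeff 0) := by
    rw [← hP₀]
    conv_lhs => rw [h1]
    rw [eval₂_add, eval₂_mul, eval₂_X, eval₂_C]
  have h3 : b - UE.iota q stmtWAdd (P₀.coeff 0) =
      eval₂ (UE.iota q stmtWAdd) (⟨π, wr_unif_mem q hL⟩ : UE.OV q stmtWAdd L) P₀.divX *
      ⟨π, wr_unif_mem q hL⟩ := by
    rw [h2]
    ring
  rw [h3]
  apply Ideal.mul_mem_left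
  rw [UE.mem_maximalIdeal_iff]
  right
  show 1 ≤ wv q π
  have := hL.2.1
  omega

end Pair

end Fermat.Agent.TW.W


end ZBTW_005_5

/-! ### bundled: `Fermat.Agent.TW.W.LevelFieldB` -/
section ZBTW_005_6
/-
TW-W chain A (helper57): field-level (LEVEL), part B — the twist `TwlvTwist` of `𝒪_T` for `T/K`
totally ramified, `K/ℚ_p` unramified: `π ↦ π (1 + a π^j)` modulo `π^(e + j)`.
-/

set_option autoImplicit false
set_option linter.unusedSectionVars false
set_option linter.style.haveILetI false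

open Polynomial IsLocalRing

namespace Fermat.Agent.TW.W

open Fermat.Agent.PT.L

section Twist

variable (q : ℕ) [Fact q.Prime] {K L : Type} [Field K] [Field L] [Algebra ℚ_[q] K]
  [FiniteDimensional ℚ_[q] K] [Algebra K L] [Algebra ℚ_[q] L] [IsScalarTower ℚ_[q] K L]
  [FiniteDimensional K L] [FiniteDimensional ℚ_[q] L]

variable {π : L}

/-- `r^i - π^i` is divisible by `π^j` when `r = π (1 + a π^j)` -/
theorem twlf_pow_sub_dvd {A : Type*} [CommRing A] (ϖ a : A) (j i : ℕ) :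
    ϖ ^ (i + j) ∣ (ϖ * (1 + a * ϖ ^ j)) ^ i - ϖ ^ i := by
  have h1 : (1 + a * ϖ ^ j) - 1 ∣ (1 + a * ϖ ^ j) ^ i - 1 ^ i := sub_dvd_pow_sub_pow _ _ i
  rw [one_pow, add_sub_cancel_left] at h1
  obtain ⟨c, hc⟩ := h1
  refine ⟨a * c, ?_⟩
  rw [mul_pow, pow_add]
  linear_combination ϖ ^ i * hc

theorem twlf_twist (hK : IsUnif q ((q : ℕ) : K)) (hL : IsUnif q π)
    (htot : wv q π = wv q ((q : ℕ) : K)) (ε : UE.OV q stmtWAdd L)
    (hpe : ((q : ℕ) : UE.OV q stmtWAdd L) = ε * (twwPmUnif q hL) ^ (Module.finrank K L)) :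
    TwlvTwist (twwPmUnif q hL) (Module.finrank K L) := by
  intro N j a hj hN
  obtain ⟨g, hmon, hdeg, hg0, -⟩ := wr_exists_eis q hK hL htot
  have hE := wr_isEisensteinAt q hK hL htot g hmon hdeg hg0
  set e := Module.finrank K L with he
  set ϖ : UE.OV q stmtWAdd L := twwPmUnif q hL with hϖ
  have hg0' : eval₂ (UE.iota q stmtWAdd) ϖ g = 0 := hg0
  set r₀ : UE.OV q stmtWAdd L := ϖ * (1 + a * ϖ ^ j) with hr₀
  -- the maximal ideal of `𝒪_K` is `(p)`
  have hmax : maximalIdeal (UE.OV q stmtWAdd K) = Ideal.span {((q : ℕ) : UE.OV q stmtWAdd K)} := by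
    rw [LU.lu_maximalIdeal_eq q hK (wr_unif_mem q hK)]
    rfl
  -- the key divisibility
  have hkey : ϖ ^ (e + j) ∣ eval₂ (UE.iota q stmtWAdd) r₀ g := by
    have h1 : eval₂ (UE.iota q stmtWAdd) r₀ g =
        eval₂ (UE.iota q stmtWAdd) r₀ g - eval₂ (UE.iota q stmtWAdd) ϖ g := by
      rw [hg0', sub_zero]
    rw [h1, eval₂_eq_sum_range, eval₂_eq_sum_range, ← Finset.sum_sub_distrib]
    apply Finset.dvd_sum
    intro i hi
    rw [← mul_sub]
    rw [Finset.mem_range, hdeg] at hi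
    have h2 := twlf_pow_sub_dvd ϖ a j i
    rw [← hr₀] at h2
    rcases Nat.lt_succ_iff_lt_or_eq.1 hi with hlt | heq
    · -- `i < e`: the coefficient is divisible by `p`
      have h3 : g.coeff i ∈ maximalIdeal (UE.OV q stmtWAdd K) := by
        apply hE.mem
        rw [hdeg]
        exact hlt
      rw [hmax, Ideal.mem_span_singleton'] at h3
      obtain ⟨b, hb⟩ := h3
      have h4 : ϖ ^ e ∣ UE.iota q stmtWAdd (E := L) (g.coeff i) := by
        rw [← hb, map_mul, map_natCast, hpe]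
        exact Dvd.dvd.mul_left (Dvd.intro_left _ rfl) _
      have h5 : ϖ ^ j ∣ r₀ ^ i - ϖ ^ i :=
        dvd_trans (pow_dvd_pow ϖ (Nat.le_add_left j i)) h2
      rw [pow_add]
      exact mul_dvd_mul h4 h5
    · rw [heq] at h2 ⊢
      exact Dvd.dvd.mul_left h2 _
  have hkeyN : ϖ ^ N ∣ eval₂ (UE.iota q stmtWAdd) r₀ g :=
    dvd_trans (pow_dvd_pow ϖ hN) hkey
  set I : Ideal (UE.OV q stmtWAdd L) := Ideal.span {ϖ ^ N} with hI
  set s₀ : UE.OV q stmtWAdd K →+* UE.OV q stmtWAdd L ⧸ I :=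
    (Ideal.Quotient.mk I).comp (UE.iota q stmtWAdd) with hs₀
  have hr : eval₂ s₀ (Ideal.Quotient.mk I r₀) g = 0 := by
    rw [hs₀, ← Polynomial.hom_eval₂, Ideal.Quotient.eq_zero_iff_mem, hI,
      Ideal.mem_span_singleton]
    exact hkeyN
  obtain ⟨η, -, h2, h3⟩ := wr_universal q hK hL htot g hmon hdeg hg0 _ s₀ _ hr
  refine ⟨η, h2, ?_⟩
  intro x
  obtain ⟨P₀, -, hP₀⟩ := wr_int_exists_poly q hK hL htot x
  have h4 := h3 P₀
  rw [hP₀] at h4
  have h5 : r₀ - ϖ ∣ eval₂ (UE.iota q stmtWAdd) r₀ P₀ - eval₂ (UE.iota q stmtWAdd) ϖ P₀ := by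
    rw [eval₂_eq_eval_map, eval₂_eq_eval_map]
    exact Polynomial.sub_dvd_eval_sub _ _ _
  obtain ⟨x', hx'⟩ := h5
  have hP₀' : eval₂ (UE.iota q stmtWAdd) ϖ P₀ = x := hP₀
  rw [hP₀'] at hx'
  refine ⟨x', ?_⟩
  rw [h4, hs₀, ← Polynomial.hom_eval₂]
  congr 1
  have h6 : r₀ - ϖ = ϖ * (a * ϖ ^ j) := by rw [hr₀]; ring
  rw [h6] at hx'
  linear_combination hx'

end Twist

end Fermat.Agent.TW.W


end ZBTW_005_6

/-! ### bundled: `Fermat.Agent.TW.W.LevelFieldC` -/
section ZBTW_005_7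
/-
TW-W chain A (helper57): field-level (LEVEL), part C — the Kummer count `TwlvCount`: for `M/T`
Galois, the units of `𝒪_T` which are `p`-th powers in `𝒪_M` form at most `p ^ [M : T]` classes
modulo `p`-th powers of `𝒪_T`.
-/

set_option autoImplicit false
set_option linter.unusedSectionVars false
set_option linter.style.haveILetI false

open Polynomial IsLocalRing

namespace Fermat.Agent.TW.W

open Fermat.Agent.PT.L

section Count

variable (q : ℕ) [Fact q.Prime] {K L : Type} [Field K] [Field L] [Algebra ℚ_[q] K]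
  [FiniteDimensional ℚ_[q] K] [Algebra K L] [Algebra ℚ_[q] L] [IsScalarTower ℚ_[q] K L]
  [FiniteDimensional K L] [FiniteDimensional ℚ_[q] L]

/-- the Kummer cocycle `σ ↦ σ y / y` of a `p`-th root `y` of an element of `K` -/
theorem twlf_kum_mem {y : L} (hy0 : y ≠ 0) {w : K} (hy : y ^ q = algebraMap K L w)
    (σ : L ≃ₐ[K] L) : Units.mk0 (σ y / y) (div_ne_zero (by simpa using hy0) hy0) ∈
      rootsOfUnity q L := by
  rw [mem_rootsOfUnity]
  apply Units.ext
  rw [Units.val_pow_eq_pow_val, Units.val_mk0, Units.val_one, div_pow, ← map_pow, hy,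
    AlgEquiv.commutes]
  exact div_self (by rw [← hy]; exact pow_ne_zero _ hy0)

theorem twlf_count [IsGalois K L] (d : ℕ) (hd : Module.finrank K L ≤ d) :
    letI := LU.lu_algOO q K L
    TwlvCount (UE.OV q stmtWAdd K) (UE.OV q stmtWAdd L) q (q ^ d) := by
  classical
  letI := LU.lu_algOO q K L
  have hq : q.Prime := Fact.out
  haveI : NeZero q := ⟨hq.ne_zero⟩
  intro S hS hdist
  have hex : ∀ w : S, ∃ y : UE.OV q stmtWAdd L,
      y ^ q = UE.iota q stmtWAdd (w : UE.OV q stmtWAdd K) := fun w => (hS w w.2).2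
  choose y hy using hex
  have hwu : ∀ w : S, ((w : UE.OV q stmtWAdd K) : K) ≠ 0 ∧
      wv q ((w : UE.OV q stmtWAdd K) : K) = 0 := fun w =>
    (twlf_isUnit_iff q _).1 (hS w w.2).1
  have hyL : ∀ w : S, ((y w : UE.OV q stmtWAdd L) : L) ^ q =
      algebraMap K L ((w : UE.OV q stmtWAdd K) : K) := by
    intro w
    have := congrArg (fun z : UE.OV q stmtWAdd L => (z : L)) (hy w)
    simpa using this
  have hy0 : ∀ w : S, ((y w : UE.OV q stmtWAdd L) : L) ≠ 0 := by
    intro w h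
    have h1 := hyL w
    rw [h, zero_pow hq.ne_zero] at h1
    exact (hwu w).1 ((map_eq_zero (algebraMap K L)).1 h1.symm)
  let Φ : S → ((L ≃ₐ[K] L) → rootsOfUnity q L) := fun w σ =>
    ⟨_, twlf_kum_mem q (hy0 w) (hyL w) σ⟩
  have hΦ : Function.Injective Φ := by
    intro w w' h
    apply Subtype.ext
    apply hdist _ w.2 _ w'.2
    -- `y w / y w'` is fixed by the Galois group
    have hfix : ∀ σ : L ≃ₐ[K] L, σ ((y w : L) / (y w' : L)) = (y w : L) / (y w' : L) := by
      intro σ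
      have h1 := congrArg (fun f => ((f σ : rootsOfUnity q L) : Lˣ).val) h
      simp only [Φ, Units.val_mk0] at h1
      rw [map_div₀]
      have ha := hy0 w
      have hb := hy0 w'
      have hσa : σ (y w : L) ≠ 0 := by simpa using ha
      have hσb : σ (y w' : L) ≠ 0 := by simpa using hb
      field_simp at h1 ⊢
      linear_combination h1
    have hbot : (y w : L) / (y w' : L) ∈ (⊥ : IntermediateField K L) :=
      (IsGalois.mem_bot_iff_fixed _).2 hfix
    rw [IntermediateField.mem_bot] at hbot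
    obtain ⟨ξ, hξ⟩ := hbot
    have hξ0 : ξ ≠ 0 := by
      intro h0
      rw [h0, map_zero] at hξ
      exact div_ne_zero (hy0 w) (hy0 w') hξ.symm
    have hrel : ((w : UE.OV q stmtWAdd K) : K) = ((w' : UE.OV q stmtWAdd K) : K) * ξ ^ q := by
      apply (algebraMap K L).injective
      rw [map_mul, map_pow, hξ, ← hyL w, ← hyL w', div_pow,
        mul_div_cancel₀ _ (pow_ne_zero _ (hy0 w'))]
    have hξw : wv q ξ = 0 := by
      have h1 := congrArg (wv q) hrel
      rw [l0b_wv_mul q (hwu w').1 (pow_ne_zero _ hξ0), (hwu w).2, (hwu w').2, l0b_wv_pow,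
        zero_add] at h1
      have hq0 : (q : ℤ) ≠ 0 := by exact_mod_cast hq.ne_zero
      rcases mul_eq_zero.1 h1.symm with h2 | h2
      · exact absurd h2 hq0
      · exact h2
    refine ⟨⟨ξ, Or.inr hξw.ge⟩, Subtype.ext ?_⟩
    exact hrel
  have h1 : S.card = Nat.card S := by
    rw [Nat.card_eq_fintype_card, Fintype.card_coe]
  have h2 : Nat.card S ≤ Nat.card ((L ≃ₐ[K] L) → rootsOfUnity q L) :=
    Nat.card_le_card_of_injective Φ hΦ
  have h3 : Nat.card ((L ≃ₐ[K] L) → rootsOfUnity q L) =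
      Nat.card (rootsOfUnity q L) ^ Nat.card (L ≃ₐ[K] L) := Nat.card_fun
  have h4 : Nat.card (rootsOfUnity q L) ≤ q := card_rootsOfUnity L q
  have h5 : Nat.card (L ≃ₐ[K] L) = Module.finrank K L := IsGalois.card_aut_eq_finrank K L
  have h6 : 0 < Nat.card (rootsOfUnity q L) := Nat.card_pos
  calc S.card = Nat.card S := h1
    _ ≤ Nat.card (rootsOfUnity q L) ^ Nat.card (L ≃ₐ[K] L) := by rw [← h3]; exact h2
    _ ≤ q ^ Nat.card (L ≃ₐ[K] L) := Nat.pow_le_pow_left h4 _
    _ ≤ q ^ d := Nat.pow_le_pow_right hq.pos (by rw [h5]; exact hd)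

end Count

end Fermat.Agent.TW.W


end ZBTW_005_7

/-! ### bundled: `Fermat.Agent.TW.W.LevelFieldD` -/
section ZBTW_005_8
/-
TW-W chain A (helper57): field-level (LEVEL), part D — the transfer `TwlvTransfer` from
Fontaine's property (P_m): for every Eisenstein polynomial `F'` of degree `[M : T]` over `𝒪_T`,
with `E = T[X]/(F')`: a ring homomorphism `𝒪_M → 𝒪_E/π^N`, `N > p e₁`, forces `M ≅ E` over `T`,
and `p`-th roots transfer (sharp Hensel in `E`).
-/

set_option autoImplicit false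
set_option linter.unusedSectionVars false
set_option linter.style.haveILetI false

open Polynomial IsLocalRing

namespace Fermat.Agent.TW.W

open Fermat.Agent.PT.L

section Transfer

variable (q : ℕ) [Fact q.Prime] {K L : Type} [Field K] [Field L] [Algebra ℚ_[q] K]
  [FiniteDimensional ℚ_[q] K] [Algebra K L] [Algebra ℚ_[q] L] [IsScalarTower ℚ_[q] K L]
  [FiniteDimensional K L] [FiniteDimensional ℚ_[q] L]

/-- Fontaine's property (P_m) for the pair `L/K` (threshold `v_p > p/(p-1)`). -/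
def TwlfPm : Prop :=
  ∀ (E : Type) [Field E] [Algebra ℚ_[q] E] [FiniteDimensional ℚ_[q] E] [Algebra K E]
    [IsScalarTower ℚ_[q] K E] [FiniteDimensional K E] (k : ℕ),
    q * Module.finrank ℚ_[q] E < (q - 1) * k →
    (UE.OV q stmtWAdd L →+* UE.OV q stmtWAdd E ⧸ UE.lvl q stmtWAdd k) → Nonempty (L →ₐ[K] E)

variable {πK : K}

theorem twlf_transfer (hK : IsUnif q πK) (e₁ : ℕ)
    (hn : (Module.finrank ℚ_[q] K : ℤ) = (((q - 1) * e₁ : ℕ) : ℤ) * wv q πK)
    (hPm : TwlfPm q (K := K) (L := L)) :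
    letI := LU.lu_algOO q K L
    TwlvTransfer (UE.OV q stmtWAdd K) (UE.OV q stmtWAdd L) q (twwPmUnif q hK) e₁
      (Module.finrank K L) := by
  classical
  letI := LU.lu_algOO q K L
  have hq : q.Prime := Fact.out
  intro F' hmon hdeg hEis
  have hEis' : F'.IsEisensteinAt (maximalIdeal (UE.OV q stmtWAdd K)) := by
    rw [LU.lu_maximalIdeal_eq q hK (wr_unif_mem q hK)]
    exact hEis
  have hdegpos : 0 < F'.natDegree := by rw [hdeg]; exact Module.finrank_pos
  obtain ⟨E, _, _, _, _, _, _, x, hfr, hxU, hxw, hx0⟩ := wr_eis_field q hK F' hmon hEis' hdegpos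
  letI algC : Algebra (UE.OV q stmtWAdd K) (UE.OV q stmtWAdd E) := LU.lu_algOO q K E
  refine ⟨UE.OV q stmtWAdd E, inferInstance, algC, ⟨x, wr_unif_mem q hxU⟩, ?_, ?_⟩
  · apply Subtype.ext
    rw [aeval_def]
    show ((eval₂ (UE.iota q stmtWAdd) (⟨x, wr_unif_mem q hxU⟩ : UE.OV q stmtWAdd E) F' :
      UE.OV q stmtWAdd E) : E) = 0
    rw [wr_coe_eval q hxU]
    exact hx0
  intro N hN η₀ w hw
  obtain ⟨z, c, hz⟩ := hw
  by_cases hw0 : w = 0
  · refine ⟨0, ?_⟩
    rw [hw0, map_zero, zero_pow hq.ne_zero]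
  have hw0' : ((w : UE.OV q stmtWAdd K) : K) ≠ 0 := fun h => hw0 (Subtype.ext h)
  have hπ0 : πK ≠ 0 := hK.1
  have hfpos : 0 < wv q πK := hK.2.1
  obtain ⟨f, hf⟩ := Int.eq_ofNat_of_zero_le hfpos.le
  have hfpos' : 0 < f := by
    have : (0 : ℤ) < (f : ℤ) := by rw [← hf]; exact hfpos
    exact_mod_cast this
  have hnE : 0 < Module.finrank K E := Module.finrank_pos
  -- valuations in `E`
  have hwvπ : wv q (algebraMap K E πK) = ((Module.finrank K E * f : ℕ) : ℤ) := by
    rw [wv_algebraMap_tower, hf]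
    push_cast
    ring
  have hπE0 : algebraMap K E πK ≠ 0 := by rwa [Ne, map_eq_zero]
  have hnK : Module.finrank ℚ_[q] K = (q - 1) * e₁ * f := by
    have : (Module.finrank ℚ_[q] K : ℤ) = (((q - 1) * e₁ * f : ℕ) : ℤ) := by
      rw [hn, hf]
      push_cast
      ring
    exact_mod_cast this
  have hnE' : Module.finrank ℚ_[q] E = (q - 1) * e₁ * f * Module.finrank K E := by
    rw [← Module.finrank_mul_finrank ℚ_[q] K E, hnK]
  -- the level
  set k : ℕ := N * (Module.finrank K E * f) with hk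
  have hle : Ideal.span {algebraMap (UE.OV q stmtWAdd K) (UE.OV q stmtWAdd E)
      ((twwPmUnif q hK) ^ N)} ≤ UE.lvl q stmtWAdd (X := E) k := by
    rw [Ideal.span_singleton_le_iff_mem, UE.mem_lvl]
    right
    show (k : ℤ) ≤ wv q (algebraMap K E (πK ^ N))
    rw [map_pow, l0b_wv_pow, hwvπ, hk]
    push_cast
    ring_nf
    exact le_rfl
  have hkk : q * Module.finrank ℚ_[q] E < (q - 1) * k := by
    rw [hnE', hk]
    have h1 : 0 < (q - 1) * f * Module.finrank K E :=
      Nat.mul_pos (Nat.mul_pos (by have := hq.two_le; omega) hfpos') hnE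
    calc q * ((q - 1) * e₁ * f * Module.finrank K E)
        = (q - 1) * f * Module.finrank K E * (q * e₁) := by ring
      _ < (q - 1) * f * Module.finrank K E * N := Nat.mul_lt_mul_of_pos_left hN h1
      _ = (q - 1) * (N * (Module.finrank K E * f)) := by ring
  obtain ⟨φ⟩ := hPm E k hkk ((Ideal.Quotient.factor hle).comp η₀)
  have hφinj : Function.Injective φ := φ.toRingHom.injective
  have hφsurj : Function.Surjective φ := by
    have h1 : Module.finrank K L = Module.finrank K E := by rw [hfr, hdeg]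
    exact (LinearMap.injective_iff_surjective_of_finrank_eq_finrank (f := φ.toLinearMap) h1).1
      hφinj
  -- Hensel in `E`
  have hzE : ((z : UE.OV q stmtWAdd E) : E) ^ q = algebraMap K E (w : K) *
      (1 + algebraMap K E (πK ^ (q * e₁ + 1)) * (c : E)) := by
    have := congrArg (fun t : UE.OV q stmtWAdd E => (t : E)) hz
    exact this
  set s : E := algebraMap K E (πK ^ (q * e₁ + 1)) * (c : E) with hs
  have hqE0 : ((q : ℕ) : E) ≠ 0 := wgr_natCast_ne_zero q
  have hs1 : geW q (((q * e₁ + 1) * (Module.finrank K E * f) : ℕ) : ℤ) s := by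
    have h1 : geW q (((q * e₁ + 1) * (Module.finrank K E * f) : ℕ) : ℤ)
        (algebraMap K E (πK ^ (q * e₁ + 1))) := by
      right
      rw [map_pow, l0b_wv_pow, hwvπ]
      push_cast
      exact le_rfl
    have h2 := geW_mul q h1 (c.2 : geW q 0 (c : E))
    rw [add_zero] at h2
    exact h2
  have hX₀ : s / ((q : ℕ) : E) = 0 ∨
      (Module.finrank ℚ_[q] E : ℤ) < ((q : ℤ) - 1) * wv q (s / ((q : ℕ) : E)) := by
    rcases eq_or_ne s 0 with h0 | h0
    · left
      rw [h0, zero_div]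
    · right
      have h3 := hs1.resolve_left h0
      rw [l0b_wv_div q h0 hqE0, wgr_wv_natCast, hnE']
      have hq1 : (1 : ℤ) ≤ (q : ℤ) - 1 := by
        have := hq.two_le
        have : (2 : ℤ) ≤ (q : ℤ) := by exact_mod_cast this
        omega
      have hqm1 : ((q - 1 : ℕ) : ℤ) = (q : ℤ) - 1 := by
        have := hq.one_le
        push_cast [Nat.cast_sub this]
        ring
      push_cast [hqm1] at h3 ⊢
      have hP : (0 : ℤ) < (Module.finrank K E : ℤ) * f := by
        have h4 : (0 : ℤ) < (Module.finrank K E : ℤ) := by exact_mod_cast hnE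
        have h5 : (0 : ℤ) < (f : ℤ) := by exact_mod_cast hfpos'
        positivity
      nlinarith
  obtain ⟨y₁, -, hy₁⟩ := wgr_root_of_high q hX₀
  have hy₁' : (1 + s / ((q : ℕ) : E) * y₁) ^ q = 1 + s := by
    rw [hy₁, mul_div_cancel₀ _ hqE0]
  set t : E := 1 + s / ((q : ℕ) : E) * y₁ with ht
  have hs2 : geW q 1 s := by
    refine geW_mono q ?_ hs1
    have h4 : 1 ≤ (q * e₁ + 1) * (Module.finrank K E * f) :=
      Nat.mul_pos (Nat.succ_pos _) (Nat.mul_pos hnE hfpos')
    exact_mod_cast h4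
  have htq0 : t ^ q ≠ 0 := by
    rw [hy₁']
    exact (wv_one_add q hs2).1
  have ht0 : t ≠ 0 := fun h => htq0 (by rw [h, zero_pow hq.ne_zero])
  have hy₀ : ((z : E) / t) ^ q = algebraMap K E (w : K) := by
    rw [div_pow, hzE, hy₁', mul_div_assoc, div_self (by rw [← hy₁']; exact htq0), mul_one]
  obtain ⟨yM, hyM⟩ := hφsurj ((z : E) / t)
  have hyMq : yM ^ q = algebraMap K L (w : K) := by
    apply hφinj
    rw [map_pow, hyM, hy₀, AlgHom.commutes]
  have hyM0 : yM ≠ 0 := by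
    intro h
    rw [h, zero_pow hq.ne_zero] at hyMq
    exact hw0' ((map_eq_zero (algebraMap K L)).1 hyMq.symm)
  have hyMint : yM ∈ UE.OV q stmtWAdd L := by
    right
    have h1 := congrArg (wv q) hyMq
    rw [l0b_wv_pow, wv_algebraMap_tower] at h1
    have h2 : 0 ≤ wv q (w : K) := (w.2).resolve_left hw0'
    have h3 : (0 : ℤ) ≤ (Module.finrank K L : ℤ) := by positivity
    have h4 : (0 : ℤ) < (q : ℤ) := by exact_mod_cast hq.pos
    by_contra hneg
    rw [not_le] at hneg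
    nlinarith
  refine ⟨⟨yM, hyMint⟩, Subtype.ext ?_⟩
  exact hyMq

end Transfer

end Fermat.Agent.TW.W


end ZBTW_005_8

/-! ### bundled: `Fermat.Agent.TW.W.LevelField` -/
section ZBTW_005_9
/-
TW-W chain A (helper57): field-level (LEVEL).

`ℚ_p ⊂ K ⊂ T ⊂ M` local fields (PT-L sense), `K/ℚ_p` unramified, `T/K` and `M/T` totally
ramified, `ζ_p ∈ T`, `M/T` Galois, the residue field of `T` has more than `p ^ [M : T]` elements,
and Fontaine's property `TwlfPm` for `M/T`.  Then every `u ∈ Tˣ` which is a `p`-th power in `M`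
lies in `(1 + p 𝒪_T) · T^{×p}`  (`twlf_level`).
-/

set_option autoImplicit false
set_option linter.unusedSectionVars false
set_option linter.style.haveILetI false

open Polynomial IsLocalRing

namespace Fermat.Agent.TW.W

open Fermat.Agent.PT.L

section Level

variable (q : ℕ) [Fact q.Prime] {K T M : Type} [Field K] [Field T] [Field M]
  [Algebra ℚ_[q] K] [FiniteDimensional ℚ_[q] K]
  [Algebra ℚ_[q] T] [FiniteDimensional ℚ_[q] T] [Algebra K T] [IsScalarTower ℚ_[q] K T]
  [FiniteDimensional K T]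
  [Algebra ℚ_[q] M] [FiniteDimensional ℚ_[q] M] [Algebra T M] [IsScalarTower ℚ_[q] T M]
  [FiniteDimensional T M]

variable {πT : T} {πM : M} {ζ : T}

/-- the degree of `T/K` is the absolute ramification index -/
theorem twlf_finrank_eq (_hK : IsUnif q ((q : ℕ) : K)) (_hT : IsUnif q πT)
    (hTK : wv q πT = wv q ((q : ℕ) : K)) (e : ℕ)
    (hn : (Module.finrank ℚ_[q] T : ℤ) = (e : ℤ) * wv q πT) : Module.finrank K T = e := by
  have h1 : wv q ((q : ℕ) : K) = Module.finrank ℚ_[q] K := wgr_wv_natCast q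
  have h2 : Module.finrank ℚ_[q] K * Module.finrank K T = Module.finrank ℚ_[q] T :=
    Module.finrank_mul_finrank ℚ_[q] K T
  have h3 : (0 : ℤ) < Module.finrank ℚ_[q] K := by exact_mod_cast Module.finrank_pos
  rw [hTK, h1, ← h2] at hn
  push_cast at hn
  have h4 : (Module.finrank ℚ_[q] K : ℤ) * ((Module.finrank K T : ℤ) - e) = 0 := by
    linear_combination hn
  rcases mul_eq_zero.1 h4 with h | h
  · omega
  · have : (Module.finrank K T : ℤ) = e := by omega
    exact_mod_cast this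

theorem twlf_data (hq2 : q ≠ 2) [IsGalois T M]
    (hK : IsUnif q ((q : ℕ) : K)) (hT : IsUnif q πT) (hTK : wv q πT = wv q ((q : ℕ) : K))
    (hM : IsUnif q πM) (hMT : wv q πM = wv q πT) (hζ1 : ζ ≠ 1) (hζp : ζ ^ q = 1)
    (d : ℕ) (hd : Module.finrank T M ≤ d)
    (hbig : q ^ d < Nat.card (ResidueField (UE.OV q stmtWAdd T)))
    (hPm : TwlfPm q (K := T) (L := M)) :
    haveI := twlf_isDVR q (X := T)
    haveI := twlf_isDVR q (X := M)
    letI := LU.lu_algOO q T M
    ∃ (e₁ : ℕ) (ε : UE.OV q stmtWAdd T),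
      TwlvData (UE.OV q stmtWAdd T) (UE.OV q stmtWAdd M) q (twwPmUnif q hT) ε e₁ := by
  haveI := twlf_isDVR q (X := T)
  haveI := twlf_isDVR q (X := M)
  letI := LU.lu_algOO q T M
  obtain ⟨e₁, ε, ν, he₁, hε, hpe, hν1, hν2, hn⟩ := twlf_cyc q hT hζ1 hζp
  have hfr : Module.finrank K T = (q - 1) * e₁ := twlf_finrank_eq q hK hT hTK _ hn
  obtain ⟨g, hmon, hdeg, hg0, -⟩ := wr_exists_eis q hT hM hMT
  have hE := wr_isEisensteinAt q hT hM hMT g hmon hdeg hg0
  refine ⟨e₁, ε, ?_⟩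
  refine
    { hp := Fact.out
      hp2 := hq2
      hπ := twlf_irreducible q hT
      he₁ := he₁
      hε := hε
      hpe := hpe
      hfin := UE.finite_residueField q stmtWAdd stmtWFinite
      hinj := twlf_iota_injective q
      hπB := twlf_iota_unif_mem q hT
      hres := twlf_res q hT hM hMT
      hν := ⟨ν, hν1, hν2⟩
      hF := ?_
      hTw := ?_
      hCount := ⟨q ^ d, twlf_count q d hd, hbig⟩ }
  · refine ⟨g, ⟨πM, wr_unif_mem q hM⟩, Module.finrank T M, hmon, hdeg, ?_, ?_, ?_⟩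
    · rw [LU.lu_maximalIdeal_eq q hT (wr_unif_mem q hT)] at hE
      exact hE
    · intro R _ s r hr
      obtain ⟨η, h1, h2, -⟩ := wr_universal q hT hM hMT g hmon hdeg hg0 R s r hr
      exact ⟨η, h1, h2⟩
    · exact twlf_transfer q hT e₁ hn hPm
  · have := twlf_twist q hK hT hTK ε (by rw [hfr]; exact hpe)
    rwa [hfr] at this

/-- **(LEVEL), field form.** -/
theorem twlf_level (hq2 : q ≠ 2) [IsGalois T M]
    (hK : IsUnif q ((q : ℕ) : K)) (hT : IsUnif q πT) (hTK : wv q πT = wv q ((q : ℕ) : K))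
    (hM : IsUnif q πM) (hMT : wv q πM = wv q πT) (hζ1 : ζ ≠ 1) (hζp : ζ ^ q = 1)
    (d : ℕ) (hd : Module.finrank T M ≤ d)
    (hbig : q ^ d < Nat.card (ResidueField (UE.OV q stmtWAdd T)))
    (hPm : TwlfPm q (K := T) (L := M))
    (u : T) (hu : u ≠ 0) (h : ∃ y : M, y ^ q = algebraMap T M u) :
    ∃ c t : T, IsInt q c ∧ t ≠ 0 ∧ u = (1 + ((q : ℕ) : T) * c) * t ^ q := by
  haveI := twlf_isDVR q (X := T)
  haveI := twlf_isDVR q (X := M)
  letI := LU.lu_algOO q T M
  have hq : q.Prime := Fact.out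
  obtain ⟨e₁, ε, D⟩ := twlf_data q hq2 hK hT hTK hM hMT hζ1 hζp d hd hbig hPm
  obtain ⟨y, hy⟩ := h
  have hπ0 : πT ≠ 0 := hT.1
  have hf : 0 < wv q πT := hT.2.1
  obtain ⟨m, hm⟩ := hT.2.2 u hu
  -- make `u` integral
  set k : ℕ := m.natAbs with hk
  have hu'0 : u * πT ^ (q * k) ≠ 0 := mul_ne_zero hu (pow_ne_zero _ hπ0)
  have hu'w : 0 ≤ wv q (u * πT ^ (q * k)) := by
    rw [l0b_wv_mul q hu (pow_ne_zero _ hπ0), l0b_wv_pow, hm]
    have h1 : (0 : ℤ) ≤ m + ((q * k : ℕ) : ℤ) := by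
      have h2 : (k : ℤ) = |m| := by rw [hk]; exact Int.natCast_natAbs m
      have h3 : (k : ℤ) ≤ ((q * k : ℕ) : ℤ) := by
        have := Nat.le_mul_of_pos_left k hq.pos
        exact_mod_cast this
      have h4 : -m ≤ |m| := neg_le_abs m
      omega
    have : wv q πT * m + ((q * k : ℕ) : ℤ) * wv q πT = (m + ((q * k : ℕ) : ℤ)) * wv q πT := by
      ring
    rw [this]
    positivity
  set U : UE.OV q stmtWAdd T := ⟨u * πT ^ (q * k), Or.inr hu'w⟩ with hU
  obtain ⟨i, u₀, hfac, hu₀0, hu₀w, -⟩ := tww_pmv_factor q hT U hu'0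
  have hu₀ : IsUnit u₀ := (twlf_isUnit_iff q u₀).2 ⟨hu₀0, hu₀w⟩
  -- the `p`-th root of `U`
  have hy' : (y * algebraMap T M πT ^ k) ^ q = algebraMap T M (u * πT ^ (q * k)) := by
    rw [mul_pow, hy, map_mul, map_pow, ← pow_mul, mul_comm k q]
  have hy'0 : y * algebraMap T M πT ^ k ≠ 0 := by
    intro h0
    rw [h0, zero_pow hq.ne_zero] at hy'
    exact hu'0 ((map_eq_zero (algebraMap T M)).1 hy'.symm)
  have hy'int : y * algebraMap T M πT ^ k ∈ UE.OV q stmtWAdd M := by
    right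
    have h1 := congrArg (wv q) hy'
    rw [l0b_wv_pow, wv_algebraMap_tower] at h1
    have h3 : (0 : ℤ) ≤ (Module.finrank T M : ℤ) := by positivity
    have h4 : (0 : ℤ) < (q : ℤ) := by exact_mod_cast hq.pos
    by_contra hneg
    rw [not_le] at hneg
    nlinarith
  have hroot : ∃ Y : UE.OV q stmtWAdd M, Y ^ q =
      algebraMap (UE.OV q stmtWAdd T) (UE.OV q stmtWAdd M) ((twwPmUnif q hT) ^ i * u₀) := by
    refine ⟨⟨_, hy'int⟩, Subtype.ext ?_⟩
    rw [← hfac]
    exact hy'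
  obtain ⟨⟨i', hi'⟩, w, hw, b, hb⟩ := twlv_core D i u₀ hu₀ hroot
  obtain ⟨hw0, hww⟩ := (twlf_isUnit_iff q w).1 hw
  obtain ⟨εi, hεi⟩ := D.hε.exists_left_inv
  -- `u₀ w^p = 1 + p c`
  have hc : u₀ * w ^ q = 1 + ((q : ℕ) : UE.OV q stmtWAdd T) * (εi * b) := by
    rw [D.hpe]
    linear_combination hb - (twwPmUnif q hT ^ ((q - 1) * e₁) * b) * hεi
  have hcT : (u₀ : T) * (w : T) ^ q = 1 + ((q : ℕ) : T) * ((εi * b : UE.OV q stmtWAdd T) : T) := by
    have := congrArg (fun t : UE.OV q stmtWAdd T => (t : T)) hc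
    exact this
  have hfacT : u * πT ^ (q * k) = πT ^ i * (u₀ : T) := by
    have := congrArg (fun t : UE.OV q stmtWAdd T => (t : T)) hfac
    exact this
  refine ⟨((εi * b : UE.OV q stmtWAdd T) : T), πT ^ i' / (πT ^ k * (w : T)),
    (εi * b : UE.OV q stmtWAdd T).2, ?_, ?_⟩
  · exact div_ne_zero (pow_ne_zero _ hπ0) (mul_ne_zero (pow_ne_zero _ hπ0) hw0)
  · rw [← hcT, div_pow, mul_pow, ← pow_mul, ← pow_mul, mul_comm i' q, ← hi', mul_comm k q]
    have h1 : πT ^ (q * k) ≠ 0 := pow_ne_zero _ hπ0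
    have h2 : (w : T) ^ q ≠ 0 := pow_ne_zero _ hw0
    field_simp
    linear_combination hfacT

end Level

end Fermat.Agent.TW.W


end ZBTW_005_9

/-! ### bundled: `Fermat.Agent.TW.W.LevelDesc` -/
section ZBTW_005_10
/-
TW-W chain A (helper57): DESCENT of (LEVEL) through an unramified extension `T'/T`.

* `twlv_nf`   : normal form in a DVR with perfect residue field, `p = ε π^((p-1) e₁)`: a class of
                units closed under multiplication by `p`-th powers and containing no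
                `1 + b π^i` (`b` a unit, `p ∤ i`, `1 ≤ i < (p-1) e₁`) consists of elements of
                `(1 + p A) (Aˣ)^p`.
* `twlv_desc` : `A ⊂ A'` DVRs with the same uniformiser: `u ∈ Aˣ ∩ (1 + p A') (A')^p` ⇒
                `u ∈ (1 + p A) (Aˣ)^p`.
* `twlf_desc` : the field form (PT-L API).
-/

set_option autoImplicit false
set_option linter.unusedSectionVars false
set_option linter.style.haveILetI false

open Polynomial IsLocalRing

namespace Fermat.Agent.TW.W

open Fermat.Agent.PT.L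

section NF

variable {A : Type*} [CommRing A] [IsDomain A] [IsDiscreteValuationRing A]
variable {p : ℕ} {π ε : A} {e₁ : ℕ}

theorem twlv_nf_aux (hp : p.Prime) (hπ : Irreducible π)
    (hpe : (p : A) = ε * π ^ ((p - 1) * e₁))
    (hpow : ∀ b : A, ∃ β : A, π ∣ β ^ p - b)
    (P : A → Prop) (hP : ∀ u q : A, P u → IsUnit q → P (u * q ^ p))
    (hno : ∀ (i : ℕ) (b : A), 1 ≤ i → i < (p - 1) * e₁ → ¬ p ∣ i → ¬ π ∣ b →
      ¬ P (1 + b * π ^ i))
    (d : ℕ) : ∀ (i : ℕ) (u : A), 1 ≤ i → i + d = (p - 1) * e₁ → π ^ i ∣ u - 1 → P u →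
      ∃ w : A, IsUnit w ∧ π ^ ((p - 1) * e₁) ∣ u * w ^ p - 1 := by
  induction d with
  | zero =>
    intro i u _ hi hu _
    refine ⟨1, isUnit_one, ?_⟩
    rw [add_zero] at hi
    rw [one_pow, mul_one, ← hi]; exact hu
  | succ d ih =>
    intro i u hi1 hi hu hPu
    obtain ⟨b, hb⟩ := hu
    have hu' : u = 1 + b * π ^ i := by
      have : u = (u - 1) + 1 := by ring
      rw [this, hb]; ring
    by_cases hbd : π ∣ b
    · refine ih (i + 1) u (by omega) (by omega) ?_ hPu
      obtain ⟨b₁, rfl⟩ := hbd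
      exact ⟨b₁, by rw [hb, pow_succ]; ring⟩
    · by_cases hpi : p ∣ i
      · obtain ⟨l, rfl⟩ := hpi
        have hl1 : 1 ≤ l := by
          rcases Nat.eq_zero_or_pos l with h0 | h0
          · subst h0; omega
          · exact h0
        obtain ⟨β, m, hβ⟩ := hpow b
        have hvu : IsUnit (1 + β * π ^ l) := by
          refine twlv_isUnit_of_dvd_sub hπ.not_isUnit isUnit_one ?_
          have e : (1 + β * π ^ l) - 1 = π ^ l * β := by ring
          rw [e]; exact Dvd.dvd.mul_right (dvd_pow_self π (by omega)) _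
        obtain ⟨q, hq⟩ := hvu.exists_right_inv
        have hqu : IsUnit q := IsUnit.of_mul_eq_one _ (by rw [mul_comm]; exact hq)
        obtain ⟨G, hG⟩ := twlv_binom p hp (β * π ^ l)
        obtain ⟨k, hk⟩ : ∃ k, (p - 1) * e₁ + l = p * l + 1 + k :=
          ⟨(p - 1) * e₁ + l - (p * l + 1), by omega⟩
        have key : u * q ^ p - 1 = π ^ (p * l + 1) *
            ((- m - ε * π ^ k * β * (1 + β * π ^ l * G)) * q ^ p) := by
          have e1 : u * q ^ p - 1 = (u - (1 + β * π ^ l) ^ p) * q ^ p := by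
            have : (1 + β * π ^ l) ^ p * q ^ p = 1 := by rw [← mul_pow, hq, one_pow]
            linear_combination this
          have e2 : u - (1 + β * π ^ l) ^ p =
              π ^ (p * l + 1) * (- m - ε * π ^ k * β * (1 + β * π ^ l * G)) := by
            rw [hG, hpe, hu']
            have e3 : ε * π ^ ((p - 1) * e₁) * (β * π ^ l) =
                π ^ (p * l + 1) * (ε * π ^ k * β) := by
              calc ε * π ^ ((p - 1) * e₁) * (β * π ^ l) = π ^ ((p - 1) * e₁ + l) * (ε * β) := by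
                    rw [pow_add]; ring
                _ = π ^ (p * l + 1) * (ε * π ^ k * β) := by rw [hk, pow_add]; ring
            have e4 : (β * π ^ l) ^ p = β ^ p * π ^ (p * l) := by
              rw [mul_pow, ← pow_mul, mul_comm l p]
            rw [e4]
            linear_combination (-(π ^ (p * l))) * hβ - (1 + β * π ^ l * G) * e3
          rw [e1, e2]; ring
        obtain ⟨w₂, hw₂, hdw⟩ := ih (p * l + 1) (u * q ^ p) (by omega) (by omega) ⟨_, key⟩
          (hP u q hPu hqu)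
        refine ⟨q * w₂, hqu.mul hw₂, ?_⟩
        have e5 : u * (q * w₂) ^ p - 1 = u * q ^ p * w₂ ^ p - 1 := by ring
        rw [e5]; exact hdw
      · exact (hno i b hi1 (by omega) hpi hbd (by rw [← hu']; exact hPu)).elim

/-- normal form -/
theorem twlv_nf (hp : p.Prime) (hp2 : p ≠ 2) (hπ : Irreducible π) (he₁ : 0 < e₁)
    (hpe : (p : A) = ε * π ^ ((p - 1) * e₁))
    (hpow : ∀ b : A, ∃ β : A, π ∣ β ^ p - b)
    (P : A → Prop) (hP : ∀ u q : A, P u → IsUnit q → P (u * q ^ p))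
    (hno : ∀ (i : ℕ) (b : A), 1 ≤ i → i < (p - 1) * e₁ → ¬ p ∣ i → ¬ π ∣ b →
      ¬ P (1 + b * π ^ i))
    (u : A) (hu : IsUnit u) (hPu : P u) :
    ∃ w : A, IsUnit w ∧ π ^ ((p - 1) * e₁) ∣ u * w ^ p - 1 := by
  obtain ⟨q, hq⟩ := hu.exists_right_inv
  have hqu : IsUnit q := IsUnit.of_mul_eq_one _ (by rw [mul_comm]; exact hq)
  obtain ⟨β, m, hβ⟩ := hpow q
  have hβu : IsUnit β := by
    have h1 : IsUnit (β ^ p) := by
      refine twlv_isUnit_of_dvd_sub hπ.not_isUnit hqu ⟨m, hβ⟩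
    exact (isUnit_pow_iff hp.ne_zero).1 h1
  have hp3 : 3 ≤ p := by
    have := hp.two_le
    omega
  have h2 : 2 ≤ (p - 1) * e₁ := by
    calc 2 = 2 * 1 := by norm_num
      _ ≤ (p - 1) * e₁ := Nat.mul_le_mul (by omega) (by omega)
  obtain ⟨w₂, hw₂, hdw⟩ := twlv_nf_aux hp hπ hpe hpow P hP hno ((p - 1) * e₁ - 1) 1 (u * β ^ p)
    le_rfl (by omega)
    ⟨u * m, by rw [pow_one]; linear_combination u * hβ + hq⟩
    (hP u β hPu hβu)
  refine ⟨β * w₂, hβu.mul hw₂, ?_⟩
  have e5 : u * (β * w₂) ^ p - 1 = u * β ^ p * w₂ ^ p - 1 := by ring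
  rw [e5]; exact hdw

variable {A' : Type*} [CommRing A'] [IsDomain A'] [IsDiscreteValuationRing A'] [Algebra A A']

/-- descent through an extension of DVRs with the same uniformiser -/
theorem twlv_desc (hp : p.Prime) (hp2 : p ≠ 2) (hπ : Irreducible π)
    (hπ' : Irreducible (algebraMap A A' π)) (he₁ : 0 < e₁)
    (hpe : (p : A) = ε * π ^ ((p - 1) * e₁))
    (hpow : ∀ b : A, ∃ β : A, π ∣ β ^ p - b)
    (u : A) (hu : IsUnit u)
    (h : ∃ c t : A', algebraMap A A' u = (1 + (p : A') * c) * t ^ p) :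
    ∃ w : A, IsUnit w ∧ π ^ ((p - 1) * e₁) ∣ u * w ^ p - 1 := by
  have hpe' : (p : A') = algebraMap A A' ε * algebraMap A A' π ^ ((p - 1) * e₁) := by
    rw [← map_pow, ← map_mul, ← hpe, map_natCast]
  refine twlv_nf hp hp2 hπ he₁ hpe hpow
    (fun u => ∃ c t : A', algebraMap A A' u = (1 + (p : A') * c) * t ^ p) ?_ ?_ u hu h
  · rintro u q ⟨c, t, hct⟩ -
    refine ⟨c, t * algebraMap A A' q, ?_⟩
    rw [map_mul, map_pow, hct, mul_pow]
    ring
  · rintro i b hi1 hie hpi hb ⟨c, t, hct⟩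
    apply hpi
    have hbu : IsUnit (algebraMap A A' b) := (twlv_isUnit_of_not_dvd hπ hb).map _
    refine twlv_pw (A := A') hp hπ' (e₁ := e₁) ⟨algebraMap A A' ε, by rw [hpe']; ring⟩ t
      (algebraMap A A' b) i (twlv_not_dvd_of_isUnit hπ' hbu) ?_ ?_
    · calc i < (p - 1) * e₁ := hie
        _ ≤ p * e₁ := Nat.mul_le_mul_right _ (Nat.sub_le _ _)
    · rw [map_add, map_one, map_mul, map_pow] at hct
      rw [hct]
      obtain ⟨k, hk⟩ : ∃ k, (p - 1) * e₁ = i + 1 + k := ⟨(p - 1) * e₁ - (i + 1), by omega⟩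
      refine ⟨- (algebraMap A A' π ^ k * algebraMap A A' ε * c * t ^ p), ?_⟩
      rw [hpe', hk, pow_add]
      ring

end NF

section FieldDesc

variable (q : ℕ) [Fact q.Prime] {T T' : Type} [Field T] [Field T'] [Algebra ℚ_[q] T]
  [FiniteDimensional ℚ_[q] T] [Algebra T T'] [Algebra ℚ_[q] T'] [IsScalarTower ℚ_[q] T T']
  [FiniteDimensional T T'] [FiniteDimensional ℚ_[q] T']

variable {π : T} {ζ : T}

/-- Frobenius is surjective on the residue field of a local field -/
theorem twlf_pow_sub (hT : IsUnif q π) (b : UE.OV q stmtWAdd T) :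
    ∃ β : UE.OV q stmtWAdd T, twwPmUnif q hT ∣ β ^ q - b := by
  haveI := twlf_isDVR q (X := T)
  have hq : q.Prime := Fact.out
  have hπ := twlf_irreducible q hT
  haveI : Finite (ResidueField (UE.OV q stmtWAdd T)) :=
    UE.finite_residueField q stmtWAdd stmtWFinite
  haveI : CharP (ResidueField (UE.OV q stmtWAdd T)) q := by
    rw [CharP.charP_iff_prime_eq_zero hq]
    have h1 : twwPmUnif q hT ∣ ((q : ℕ) : UE.OV q stmtWAdd T) := by
      rw [twlf_dvd_iff]
      right
      show wv q π ≤ wv q ((q : ℕ) : T)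
      rw [wgr_wv_natCast]
      obtain ⟨c, hc⟩ := hT.2.2 ((q : ℕ) : T) (wgr_natCast_ne_zero q)
      rw [wgr_wv_natCast] at hc
      have hn : (0 : ℤ) < Module.finrank ℚ_[q] T := by exact_mod_cast Module.finrank_pos
      have hf := hT.2.1
      have hc0 : 0 < c := by
        by_contra hcon
        rw [not_lt] at hcon
        have : wv q π * c ≤ 0 := mul_nonpos_of_nonneg_of_nonpos hf.le hcon
        omega
      rw [hc]
      nlinarith
    have h0 := (twlv_residue_eq_zero hπ _).2 h1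
    rwa [map_natCast] at h0
  have hinj : Function.Injective (frobenius (ResidueField (UE.OV q stmtWAdd T)) q) :=
    frobenius_inj _ q
  have hsurj := Finite.injective_iff_surjective.1 hinj
  obtain ⟨βbar, hβ⟩ := hsurj (residue _ b)
  obtain ⟨β, rfl⟩ := residue_surjective βbar
  refine ⟨β, (twlv_residue_eq_zero hπ _).1 ?_⟩
  rw [map_sub, map_pow, sub_eq_zero]
  exact hβ

/-- **Descent of (LEVEL)** through an unramified extension `T'/T` (a uniformiser of `T` stays a
uniformiser of `T'`), `ζ_p ∈ T`. -/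
theorem twlf_desc (hq2 : q ≠ 2) (hT : IsUnif q π) (hT' : IsUnif q (algebraMap T T' π))
    (hζ1 : ζ ≠ 1) (hζp : ζ ^ q = 1) (u : T) (hu : u ≠ 0)
    (h : ∃ c t : T', IsInt q c ∧ t ≠ 0 ∧
      algebraMap T T' u = (1 + ((q : ℕ) : T') * c) * t ^ q) :
    ∃ c t : T, IsInt q c ∧ t ≠ 0 ∧ u = (1 + ((q : ℕ) : T) * c) * t ^ q := by
  haveI := twlf_isDVR q (X := T)
  haveI := twlf_isDVR q (X := T')
  letI := LU.lu_algOO q T T'
  have hq : q.Prime := Fact.out
  obtain ⟨e₁, ε, ν, he₁, hε, hpe, -, -, hn⟩ := twlf_cyc q hT hζ1 hζp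
  obtain ⟨c', t', hc', ht'0, hct⟩ := h
  have hπ0 : π ≠ 0 := hT.1
  have hf : 0 < wv q π := hT.2.1
  have hϖ0 : algebraMap T T' π ≠ 0 := hT'.1
  obtain ⟨m, hm⟩ := hT.2.2 u hu
  -- make `u` integral
  set k : ℕ := m.natAbs with hk
  have hu'0 : u * π ^ (q * k) ≠ 0 := mul_ne_zero hu (pow_ne_zero _ hπ0)
  have hu'w : 0 ≤ wv q (u * π ^ (q * k)) := by
    rw [l0b_wv_mul q hu (pow_ne_zero _ hπ0), l0b_wv_pow, hm]
    have h1 : (0 : ℤ) ≤ m + ((q * k : ℕ) : ℤ) := by
      have h2 : (k : ℤ) = |m| := by rw [hk]; exact Int.natCast_natAbs m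
      have h3 : (k : ℤ) ≤ ((q * k : ℕ) : ℤ) := by
        have := Nat.le_mul_of_pos_left k hq.pos
        exact_mod_cast this
      have h4 : -m ≤ |m| := neg_le_abs m
      omega
    have : wv q π * m + ((q * k : ℕ) : ℤ) * wv q π = (m + ((q * k : ℕ) : ℤ)) * wv q π := by
      ring
    rw [this]
    positivity
  set U : UE.OV q stmtWAdd T := ⟨u * π ^ (q * k), Or.inr hu'w⟩ with hU
  obtain ⟨i, u₀, hfac, hu₀0, hu₀w, hUw⟩ := tww_pmv_factor q hT U hu'0
  have hu₀ : IsUnit u₀ := (twlf_isUnit_iff q u₀).2 ⟨hu₀0, hu₀w⟩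
  have hfacT : u * π ^ (q * k) = π ^ i * (u₀ : T) := by
    have := congrArg (fun t : UE.OV q stmtWAdd T => (t : T)) hfac
    exact this
  -- the element `t'' = t' ϖ^k` of `T'`
  have hqc : geW q 1 (((q : ℕ) : T') * c') := by
    have h1 : geW q (Module.finrank ℚ_[q] T') ((q : ℕ) : T') := Or.inr (wgr_wv_natCast q).ge
    have h2 := geW_mul q h1 hc'
    rw [add_zero] at h2
    refine geW_mono q ?_ h2
    have : (0 : ℤ) < Module.finrank ℚ_[q] T' := by exact_mod_cast Module.finrank_pos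
    omega
  obtain ⟨h1c0, h1cw⟩ := wv_one_add q hqc
  have ht'' : algebraMap T T' (u * π ^ (q * k)) =
      (1 + ((q : ℕ) : T') * c') * (t' * algebraMap T T' π ^ k) ^ q := by
    rw [map_mul, hct, map_pow, mul_pow, ← pow_mul, mul_comm k q]
    ring
  have ht''0 : t' * algebraMap T T' π ^ k ≠ 0 := mul_ne_zero ht'0 (pow_ne_zero _ hϖ0)
  have hnT : (0 : ℤ) < Module.finrank T T' := by exact_mod_cast Module.finrank_pos
  have hq0 : (0 : ℤ) < (q : ℤ) := by exact_mod_cast hq.pos
  have hwt'' : (q : ℤ) * wv q (t' * algebraMap T T' π ^ k) =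
      (Module.finrank T T' : ℤ) * ((i : ℤ) * wv q π) := by
    have h1 := congrArg (wv q) ht''
    rw [wv_algebraMap_tower, l0b_wv_mul q h1c0 (pow_ne_zero _ ht''0), h1cw, zero_add,
      l0b_wv_pow] at h1
    rw [← h1]
    congr 1
  have ht''int : t' * algebraMap T T' π ^ k ∈ UE.OV q stmtWAdd T' := by
    right
    have h3 : (0 : ℤ) ≤ (Module.finrank T T' : ℤ) * ((i : ℤ) * wv q π) := by positivity
    by_contra hneg
    rw [not_le] at hneg
    nlinarith
  obtain ⟨j, t₀, htfac, ht₀0, ht₀w, htw⟩ := tww_pmv_factor q hT'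
    (⟨_, ht''int⟩ : UE.OV q stmtWAdd T') ht''0
  have hij : i = q * j := by
    have h1 : wv q (t' * algebraMap T T' π ^ k) = (j : ℤ) * wv q (algebraMap T T' π) := htw
    rw [h1, wv_algebraMap_tower] at hwt''
    have h2 : (Module.finrank T T' : ℤ) * wv q π * ((q : ℤ) * j - i) = 0 := by
      linear_combination hwt''
    have h3 : (Module.finrank T T' : ℤ) * wv q π ≠ 0 := (mul_pos hnT hf).ne'
    rcases mul_eq_zero.1 h2 with h4 | h4
    · exact absurd h4 h3
    · have : (i : ℤ) = ((q * j : ℕ) : ℤ) := by push_cast; omega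
      exact_mod_cast this
  have htfacT : t' * algebraMap T T' π ^ k = algebraMap T T' π ^ j * (t₀ : T') := by
    have := congrArg (fun t : UE.OV q stmtWAdd T' => (t : T')) htfac
    exact this
  -- `u₀ = (1 + p c') t₀^p` in `T'`
  have hu₀T' : algebraMap T T' (u₀ : T) = (1 + ((q : ℕ) : T') * c') * (t₀ : T') ^ q := by
    have h1 : algebraMap T T' π ^ (q * j) * algebraMap T T' (u₀ : T) =
        algebraMap T T' π ^ (q * j) * ((1 + ((q : ℕ) : T') * c') * (t₀ : T') ^ q) := by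
      have h2 : algebraMap T T' π ^ (q * j) * algebraMap T T' (u₀ : T) =
          algebraMap T T' (u * π ^ (q * k)) := by
        rw [hfacT, hij, map_mul, map_pow]
      rw [h2, ht'', htfacT, mul_pow, ← pow_mul, mul_comm j q]
      ring
    exact mul_left_cancel₀ (pow_ne_zero _ hϖ0) h1
  have hP : ∃ c t : UE.OV q stmtWAdd T',
      algebraMap (UE.OV q stmtWAdd T) (UE.OV q stmtWAdd T') u₀ =
        (1 + ((q : ℕ) : UE.OV q stmtWAdd T') * c) * t ^ q := by
    refine ⟨⟨c', hc'⟩, t₀, Subtype.ext ?_⟩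
    exact hu₀T'
  have hπA' : Irreducible (algebraMap (UE.OV q stmtWAdd T) (UE.OV q stmtWAdd T')
      (twwPmUnif q hT)) := twlf_irreducible q hT'
  obtain ⟨w, hw, b, hb⟩ := twlv_desc hq hq2 (twlf_irreducible q hT) hπA' he₁ hpe
    (twlf_pow_sub q hT) u₀ hu₀ hP
  obtain ⟨hw0, hww⟩ := (twlf_isUnit_iff q w).1 hw
  obtain ⟨εi, hεi⟩ := hε.exists_left_inv
  have hc : u₀ * w ^ q = 1 + ((q : ℕ) : UE.OV q stmtWAdd T) * (εi * b) := by
    rw [hpe]
    linear_combination hb - (twwPmUnif q hT ^ ((q - 1) * e₁) * b) * hεi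
  have hcT : (u₀ : T) * (w : T) ^ q = 1 + ((q : ℕ) : T) * ((εi * b : UE.OV q stmtWAdd T) : T) := by
    have := congrArg (fun t : UE.OV q stmtWAdd T => (t : T)) hc
    exact this
  refine ⟨((εi * b : UE.OV q stmtWAdd T) : T), π ^ j / (π ^ k * (w : T)),
    (εi * b : UE.OV q stmtWAdd T).2, ?_, ?_⟩
  · exact div_ne_zero (pow_ne_zero _ hπ0) (mul_ne_zero (pow_ne_zero _ hπ0) hw0)
  · rw [← hcT, div_pow, mul_pow, ← pow_mul, ← pow_mul, mul_comm j q, ← hij, mul_comm k q]
    have h1 : π ^ (q * k) ≠ 0 := pow_ne_zero _ hπ0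
    have h2 : (w : T) ^ q ≠ 0 := pow_ne_zero _ hw0
    field_simp
    linear_combination hfacT

end FieldDesc

end Fermat.Agent.TW.W


end ZBTW_005_10

/-! ### bundled: `Fermat.Agent.TW.W.LevelAsm` -/
section ZBTW_005_11
/-
TW-W chain A (helper57): ASSEMBLY of (LEVEL′):
`stmtLevPrime_of : StmtLvDict → StmtLvTower → StmtLevPrime`
from the field-level (LEVEL) `twlf_level`, the descent `twlf_desc` and (P_m) `tww_pm_field`.
-/

set_option autoImplicit false
set_option linter.unusedSectionVars false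
set_option linter.style.haveILetI false

noncomputable section

namespace Fermat.Agent.TW.W

open Fermat.Agent.PT Fermat.Agent.PT.B Fermat.Agent.PT.L Fermat.Agent.W1 GaloisRep IsLocalRing

section Incl

variable (p : ℕ) [Fact p.Prime] {E F : IntermediateField ℚ_[p] (PadicAlgCl p)}

/-- the algebra structure of an inclusion of intermediate fields -/
@[reducible] def twlaAlg (h : E ≤ F) : Algebra E F :=
  (IntermediateField.inclusion h).toRingHom.toAlgebra

theorem twla_tower (h : E ≤ F) :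
    letI := twlaAlg p h
    IsScalarTower ℚ_[p] E F := by
  letI := twlaAlg p h
  exact IsScalarTower.of_algebraMap_eq (fun x => rfl)

theorem twla_tower' (h : E ≤ F) :
    letI := twlaAlg p h
    IsScalarTower E F (PadicAlgCl p) := by
  letI := twlaAlg p h
  exact IsScalarTower.of_algebraMap_eq (fun x => rfl)

end Incl

section Pm

variable {p : ℕ} [Fact p.Prime] {M : Type} [AddCommGroup M] [Finite M]
  {act : (AlgebraicClosure ℚ ≃ₐ[ℚ] AlgebraicClosure ℚ) → M → M}
  {H : Subalgebra (ratLocalizedAt p) (M → AlgebraicClosure ℚ)}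

/-- (P_m) for the pair `T' ⊂ T' L₀`. -/
theorem twla_pm (hH : IsHopfLattice (ratLocalizedAt p) act H) (hpM : ∀ m : M, p • m = 0)
    (T' : IntermediateField ℚ_[p] (PadicAlgCl p)) [FiniteDimensional ℚ_[p] T']
    [FiniteDimensional ℚ_[p] (lvCoordField p H)] :
    letI := twlaAlg p (le_sup_left : T' ≤ T' ⊔ lvCoordField p H)
    haveI := twla_tower p (le_sup_left : T' ≤ T' ⊔ lvCoordField p H)
    haveI : FiniteDimensional T' ↥(T' ⊔ lvCoordField p H) :=
      FiniteDimensional.right ℚ_[p] T' _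
    TwlfPm p (K := T') (L := ↥(T' ⊔ lvCoordField p H)) := by
  letI := twlaAlg p (le_sup_left : T' ≤ T' ⊔ lvCoordField p H)
  haveI := twla_tower p (le_sup_left : T' ≤ T' ⊔ lvCoordField p H)
  haveI := twla_tower' p (le_sup_left : T' ≤ T' ⊔ lvCoordField p H)
  haveI : FiniteDimensional T' ↥(T' ⊔ lvCoordField p H) :=
    FiniteDimensional.right ℚ_[p] T' _
  intro E _ _ _ _ _ _ k hk η
  let jE : E →ₐ[T'] PadicAlgCl p := IsAlgClosed.lift
  let jE' : E →ₐ[ℚ_[p]] PadicAlgCl p := jE.restrictScalars ℚ_[p]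
  have hvalL : ∀ h ∈ H, ∀ m : M, ∃ y : ↥(T' ⊔ lvCoordField p H),
      (T' ⊔ lvCoordField p H).val y = padicEmbedding p (h m) := by
    intro h hh m
    have h1 : padicEmbedding p (h m) ∈ lvCoordField p H :=
      IntermediateField.subset_adjoin _ _ ⟨h, hh, m, rfl⟩
    exact ⟨⟨_, (le_sup_right : lvCoordField p H ≤ T' ⊔ lvCoordField p H) h1⟩, rfl⟩
  have h1 := tww_pm_field hH hpM ↥(T' ⊔ lvCoordField p H) E
    (T' ⊔ lvCoordField p H).val jE' hvalL k hk η
  have h2 : lvCoordField p H ≤ jE'.fieldRange := by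
    unfold lvCoordField
    rw [IntermediateField.adjoin_le_iff]
    rintro z ⟨h, hh, m, rfl⟩
    obtain ⟨y, hy⟩ := h1 h hh m
    exact ⟨y, hy⟩
  have h3 : T' ≤ jE'.fieldRange := by
    intro x hx
    refine ⟨algebraMap T' E ⟨x, hx⟩, ?_⟩
    show jE (algebraMap T' E ⟨x, hx⟩) = x
    rw [AlgHom.commutes]
    rfl
  have h4 : T' ⊔ lvCoordField p H ≤ jE'.fieldRange := sup_le h3 h2
  let g : ↥(T' ⊔ lvCoordField p H) →ₐ[T'] PadicAlgCl p :=
    { (T' ⊔ lvCoordField p H).val.toRingHom with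
      commutes' := fun x => rfl }
  have h5 : ∀ y : ↥(T' ⊔ lvCoordField p H), g y ∈ jE.range := by
    intro y
    obtain ⟨e, he⟩ := h4 y.2
    exact ⟨e, he⟩
  exact ⟨(AlgEquiv.ofInjective jE jE.toRingHom.injective).symm.toAlgHom.comp
    (g.codRestrict jE.range h5)⟩

end Pm

/-- **(LEVEL′)** from DICT and TOWER. -/
theorem stmtLevPrime_of (hD : StmtLvDict) (hTw : StmtLvTower) : StmtLevPrime := by
  intro p _ hp2 M _ _ act H hH hpM T hT α hα0 hαM hαT
  have hp : p.Prime := Fact.out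
  obtain ⟨hfin, hnor, -⟩ := hD p M act H hH
  haveI := hfin
  haveI := hnor
  haveI := hT.finite
  haveI : Normal ℚ_[p] T := hT.galois.to_normal
  obtain ⟨K, T', hfT', hTT', hKT', hnT', hKunif, ⟨πT', hπT', hπT'K, πM', hπM', hπM'T'⟩,
    ⟨πT, hπT, hπTT'⟩, hbig⟩ :=
    hTw p T (lvCoordField p H) inferInstance inferInstance inferInstance inferInstance
  haveI := hfT'
  haveI := hnT'
  -- instances
  letI aKT' := twlaAlg p hKT'
  haveI := twla_tower p hKT'
  haveI : FiniteDimensional ℚ_[p] K :=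
    FiniteDimensional.of_injective (IntermediateField.inclusion hKT').toLinearMap
      (IntermediateField.inclusion_injective hKT')
  haveI : FiniteDimensional K T' := FiniteDimensional.right ℚ_[p] K T'
  letI aT'M' := twlaAlg p (le_sup_left : T' ≤ T' ⊔ lvCoordField p H)
  haveI := twla_tower p (le_sup_left : T' ≤ T' ⊔ lvCoordField p H)
  haveI : FiniteDimensional T' ↥(T' ⊔ lvCoordField p H) := FiniteDimensional.right ℚ_[p] T' _
  haveI : Normal T' ↥(T' ⊔ lvCoordField p H) := Normal.tower_top_of_normal ℚ_[p] T' _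
  haveI : IsGalois T' ↥(T' ⊔ lvCoordField p H) := ⟨⟩
  letI aTT' := twlaAlg p hTT'
  haveI := twla_tower p hTT'
  haveI : FiniteDimensional T T' := FiniteDimensional.right ℚ_[p] T T'
  obtain ⟨ζ, hζT, hζ1, hζp⟩ := hT.zeta
  have hαM' : α ∈ T' ⊔ lvCoordField p H := (sup_le_sup_right hTT' _) hαM
  have hKeq : (((p : ℕ) : ℚ_[p]) • (1 : K)) = ((p : ℕ) : K) := by
    rw [Algebra.smul_def, mul_one, map_natCast]
  rw [hKeq] at hKunif hπT'K
  have hd : Module.finrank T' ↥(T' ⊔ lvCoordField p H) ≤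
      Module.finrank ℚ_[p] (lvCoordField p H) := by
    have h1 := IntermediateField.finrank_sup_le T' (lvCoordField p H)
    have h2 := Module.finrank_mul_finrank ℚ_[p] T' ↥(T' ⊔ lvCoordField p H)
    rw [← h2] at h1
    exact Nat.le_of_mul_le_mul_left h1 Module.finrank_pos
  have hu0 : α ^ p ≠ 0 := pow_ne_zero _ hα0
  obtain ⟨c', t', hc', ht', hu'⟩ := twlf_level p hp2 (K := K) (T := T')
    (M := ↥(T' ⊔ lvCoordField p H)) (ζ := ⟨ζ, hTT' hζT⟩) hKunif hπT' hπT'K hπM' hπM'T'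
    (fun h => hζ1 (congrArg Subtype.val h)) (Subtype.ext hζp)
    (Module.finrank ℚ_[p] (lvCoordField p H)) hd hbig (twla_pm hH hpM T')
    ⟨α ^ p, hTT' hαT⟩ (fun h => hu0 (congrArg Subtype.val h))
    ⟨⟨α, hαM'⟩, Subtype.ext rfl⟩
  obtain ⟨c, t, hc, ht, hu⟩ := twlf_desc p hp2 (T := T) (T' := T') (ζ := ⟨ζ, hζT⟩) hπT hπTT'
    (fun h => hζ1 (congrArg Subtype.val h)) (Subtype.ext hζp)
    ⟨α ^ p, hαT⟩ (fun h => hu0 (congrArg Subtype.val h)) ⟨c', t', hc', ht', hu'⟩
  refine ⟨c, c.2, t, t.2, ?_, fun h => ht (Subtype.ext h), ?_⟩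
  · exact (tww_pmd_mem_OV_iff p T.val c).1 hc
  · have := congrArg Subtype.val hu
    exact this

end Fermat.Agent.TW.W

end
end ZBTW_005_11

/-! ### bundled: `Fermat.Agent.TW.W.LvtUnr` -/
section ZBTW_005_12
/-
TW-W chain A, TOWER piece UNR (helper64): `stmtLvtUnr : StmtLvtUnr`.

`K/ℚ_p` finite normal with uniformiser `p` (so unramified), `T/ℚ_p` finite normal.  An inertial
automorphism of `T ⊔ K` over `T` restricts to an inertial automorphism of `K/ℚ_p`, which is
trivial; so it is trivial, `T ⊔ K / T` is unramified and a uniformiser of `T` stays a uniformiser.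
-/

set_option autoImplicit false
set_option linter.unusedSectionVars false
set_option linter.style.haveILetI false

noncomputable section

namespace Fermat.Agent.TW.W

open Fermat.Agent.PT Fermat.Agent.PT.B Fermat.Agent.PT.L IsLocalRing

section

variable (p : ℕ) [Fact p.Prime]

theorem lvtu_wv_self (x : ℚ_[p]) : wv p x = Padic.valuation x := by
  unfold wv
  rw [Algebra.norm_self]
  rfl

/-- `p` is a uniformiser of `ℚ_p`. -/
theorem lvtu_unif_p : IsUnif p ((p : ℕ) : ℚ_[p]) := by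
  refine ⟨by exact_mod_cast (Fact.out : p.Prime).ne_zero, ?_, ?_⟩
  · rw [lvtu_wv_self, Padic.valuation_p]
    exact one_pos
  · intro x _
    rw [lvtu_wv_self, Padic.valuation_p]
    exact one_dvd _

/-- `K/ℚ_p` is unramified if `p` is a uniformiser of `K`. -/
theorem lvtu_unram_of_unif (K : IntermediateField ℚ_[p] (PadicAlgCl p))
    [FiniteDimensional ℚ_[p] K] (hK : IsUnif p ((p : ℕ) : K)) : IsUnram p ℚ_[p] K := by
  refine u2_unram_of_unif p (K := ℚ_[p]) (L := K) (lvtu_unif_p p) hK ?_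
  have h := l3b_wv_algebraMap p (F := ℚ_[p]) (F' := K) ((p : ℕ) : ℚ_[p])
  rwa [map_natCast] at h

/-- An automorphism of `T ⊔ K` over `T` which fixes `K` is trivial. -/
theorem lvtu_eq_one_of_fix (T K : IntermediateField ℚ_[p] (PadicAlgCl p))
    (σ : ↥(T ⊔ K) → ↥(T ⊔ K)) (h0 : σ 0 = 0) (h1 : σ 1 = 1)
    (hadd : ∀ a b, σ (a + b) = σ a + σ b) (hmul : ∀ a b, σ (a * b) = σ a * σ b)
    (hinv : ∀ a, σ a⁻¹ = (σ a)⁻¹)
    (hT : ∀ z : T, σ (IntermediateField.inclusion (le_sup_left : T ≤ T ⊔ K) z) =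
      IntermediateField.inclusion (le_sup_left : T ≤ T ⊔ K) z)
    (hK : ∀ z : K, σ (IntermediateField.inclusion (le_sup_right : K ≤ T ⊔ K) z) =
      IntermediateField.inclusion (le_sup_right : K ≤ T ⊔ K) z) (x : ↥(T ⊔ K)) :
    σ x = x := by
  let Fx : IntermediateField ℚ_[p] ↥(T ⊔ K) :=
    { carrier := {x | σ x = x}
      mul_mem' := fun {a b} ha hb => by
        simp only [Set.mem_ofPred_eq] at ha hb ⊢; rw [hmul, ha, hb]
      one_mem' := h1
      add_mem' := fun {a b} ha hb => by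
        simp only [Set.mem_ofPred_eq] at ha hb ⊢; rw [hadd, ha, hb]
      zero_mem' := h0
      algebraMap_mem' := fun r => by
        have := hT (algebraMap ℚ_[p] T r)
        exact this
      inv_mem' := fun a ha => by
        simp only [Set.mem_ofPred_eq] at ha ⊢; rw [hinv, ha] }
  have hle : T ⊔ K ≤ Fx.map (T ⊔ K).val := by
    refine sup_le ?_ ?_
    · intro t ht
      exact (IntermediateField.mem_map _).2 ⟨⟨t, le_sup_left (b := K) ht⟩, hT ⟨t, ht⟩, rfl⟩
    · intro k hk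
      exact (IntermediateField.mem_map _).2 ⟨⟨k, le_sup_right (a := T) hk⟩, hK ⟨k, hk⟩, rfl⟩
  obtain ⟨y, hy, hyx⟩ := (IntermediateField.mem_map _).1 (hle x.2)
  have hyx' : y = x := Subtype.ext hyx
  rw [← hyx']
  exact hy

end

/-- **UNR** -/
theorem stmtLvtUnr : StmtLvtUnr := by
  intro p _ T K hTf hTn hKf hKn hKu
  haveI := hTf
  haveI := hTn
  haveI := hKf
  haveI := hKn
  have hKunr := lvtu_unram_of_unif p K hKu
  haveI : IsGalois ℚ_[p] K := ⟨⟩
  letI aT := twlaAlg p (le_sup_left : T ≤ T ⊔ K)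
  haveI := twla_tower p (le_sup_left : T ≤ T ⊔ K)
  letI aK := twlaAlg p (le_sup_right : K ≤ T ⊔ K)
  haveI := twla_tower p (le_sup_right : K ≤ T ⊔ K)
  haveI : FiniteDimensional T ↥(T ⊔ K) := FiniteDimensional.right ℚ_[p] T _
  haveI : FiniteDimensional K ↥(T ⊔ K) := FiniteDimensional.right ℚ_[p] K _
  haveI : Normal T ↥(T ⊔ K) := Normal.tower_top_of_normal ℚ_[p] T _
  haveI : IsGalois T ↥(T ⊔ K) := ⟨⟩
  have hin : ∀ σ : ↥(T ⊔ K) ≃ₐ[T] ↥(T ⊔ K), IsInertial p σ → σ = 1 := by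
    intro σ hσ
    have hτ : IsInertial p (AlgEquiv.restrictNormalHom K (σ.restrictScalars ℚ_[p])) :=
      u2_inertial_restrict p (K := K) (L := ↥(T ⊔ K))
        (fun z => AlgEquiv.restrictNormal_commutes (σ.restrictScalars ℚ_[p]) K z) hσ
    have hτ1 := u2_inertial_eq_one_of_unram p (K := ℚ_[p]) (L := K) stmtRes hKunr _ hτ
    have hK : ∀ z : K, σ (algebraMap K ↥(T ⊔ K) z) = algebraMap K ↥(T ⊔ K) z := by
      intro z
      have h := AlgEquiv.restrictNormal_commutes (σ.restrictScalars ℚ_[p]) K z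
      have h' : algebraMap K ↥(T ⊔ K)
          (AlgEquiv.restrictNormalHom K (σ.restrictScalars ℚ_[p]) z) =
          σ (algebraMap K ↥(T ⊔ K) z) := h
      rw [← h', hτ1]
      rfl
    ext x
    have := lvtu_eq_one_of_fix p T K σ (map_zero σ) (map_one σ) (map_add σ) (map_mul σ)
      (fun a => map_inv₀ σ a) (fun z => σ.commutes z) hK x
    rw [this]
    rfl
  obtain ⟨hunr, -⟩ := u2_unram_of_inertial p stmtRes (K := T) (L := ↥(T ⊔ K)) hin
  obtain ⟨πT, hπT⟩ := stmtWUnif p T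
  obtain ⟨πE, hπE⟩ := stmtWUnif p ↥(T ⊔ K)
  have h1 := u2_unif_of_unram p hunr hπT hπE
  have h2 := l3b_wv_algebraMap p (F := T) (F' := ↥(T ⊔ K)) πT
  have h3 : wv p (IntermediateField.inclusion (le_sup_left : T ≤ T ⊔ K) πT) = wv p πE :=
    h2.trans h1.symm
  refine ⟨πT, hπT, ?_, ?_, ?_⟩
  · intro h
    apply hπT.1
    exact (IntermediateField.inclusion_injective (le_sup_left : T ≤ T ⊔ K))
      (h.trans (map_zero _).symm)
  · rw [h3]
    exact hπE.2.1
  · intro x hx
    rw [h3]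
    exact hπE.2.2 x hx

end Fermat.Agent.TW.W

end
end ZBTW_005_12

/-! ### bundled: `Fermat.Agent.TW.W.LvtMid` -/
section ZBTW_005_13
/-
TW-W chain A, TOWER / MID (helper57): `K ≤ N ≤ F` intermediate fields of `ℚ̄_p`, `N`, `F` finite
normal over `ℚ_p`, `F/K` totally ramified (`wv π_F = wv π_K`)  ⇒  `N/K` totally ramified.
-/

set_option autoImplicit false
set_option linter.unusedSectionVars false
set_option linter.style.haveILetI false

noncomputable section

namespace Fermat.Agent.TW.W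

open Fermat.Agent.PT Fermat.Agent.PT.B Fermat.Agent.PT.L IsLocalRing

section Gal

variable (p : ℕ) [Fact p.Prime] {E F : IntermediateField ℚ_[p] (PadicAlgCl p)}

/-- a subfield of a finite extension is finite -/
theorem lvt_finite_of_le (h : E ≤ F) [FiniteDimensional ℚ_[p] F] : FiniteDimensional ℚ_[p] E :=
  FiniteDimensional.of_injective (IntermediateField.inclusion h).toLinearMap
    (IntermediateField.inclusion_injective h)

/-- `F/E` is Galois when `F/ℚ_p` is normal -/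
theorem lvt_isGalois (h : E ≤ F) [Normal ℚ_[p] F] :
    letI := twlaAlg p h
    IsGalois E F := by
  letI := twlaAlg p h
  haveI := twla_tower p h
  haveI : Normal E F := Normal.tower_top_of_normal ℚ_[p] E F
  exact ⟨⟩

end Gal

theorem stmtLvtMid : StmtLvtMid := by
  intro p _ K N F hKN hNF hFf hNn hFn πK πF hπK hπF hFK
  haveI := hFf
  haveI := hNn
  haveI := hFn
  haveI hNf : FiniteDimensional ℚ_[p] N := lvt_finite_of_le p hNF
  haveI hKf : FiniteDimensional ℚ_[p] K := lvt_finite_of_le p hKN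
  obtain ⟨πN, hπN⟩ := stmtWUnif p N
  -- `N/K`
  letI a₂ := twlaAlg p hKN
  haveI := twla_tower p hKN
  haveI : FiniteDimensional K N := FiniteDimensional.right ℚ_[p] K N
  haveI := lvt_isGalois p hKN
  obtain ⟨C₂, _, _, ρ₂, -, -, hc₂⟩ := stmtRes p K N
  have h2 := hc₂ πK πN hπK hπN
  -- `F/N`
  letI a₁ := twlaAlg p hNF
  haveI := twla_tower p hNF
  haveI : FiniteDimensional N F := FiniteDimensional.right ℚ_[p] N F
  haveI := lvt_isGalois p hNF
  obtain ⟨C₁, _, _, ρ₁, -, -, hc₁⟩ := stmtRes p N F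
  have h1 := hc₁ πN πF hπN hπF
  refine ⟨πN, hπN, ?_⟩
  have hK0 : 0 < wv p πK := hπK.2.1
  have hN0 : 0 < wv p πN := hπN.2.1
  have hc1 : (0 : ℤ) ≤ Nat.card C₁ := by positivity
  have hc2 : (0 : ℤ) ≤ Nat.card C₂ := by positivity
  have hc1' : (1 : ℤ) ≤ Nat.card C₁ := by
    by_contra hcon
    have : (Nat.card C₁ : ℤ) = 0 := by omega
    rw [this, zero_mul] at h1
    have := hπF.2.1
    omega
  have hc2' : (1 : ℤ) ≤ Nat.card C₂ := by
    by_contra hcon
    have : (Nat.card C₂ : ℤ) = 0 := by omega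
    rw [this, zero_mul] at h2
    omega
  -- `wv πK ≤ wv πN ≤ wv πF = wv πK`
  have h3 : wv p πK ≤ wv p πN := by nlinarith
  have h4 : wv p πN ≤ wv p πF := by nlinarith
  omega

end Fermat.Agent.TW.W

end
end ZBTW_005_13

/-! ### bundled: `Fermat.Agent.TW.W.LvtInertia` -/
section ZBTW_005_14
/-
TW-W chain A, TOWER / INERTIA (helper57): the maximal unramified subextension `K` of a finite
normal `F/ℚ_p` (`F ⊂ ℚ̄_p`): the fixed field of the inertial automorphisms.
`p` is a uniformiser of `K`, `F/K` is totally ramified, `K/ℚ_p` is normal, and every unramified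
normal `U ≤ F` lies in `K`.
-/

set_option autoImplicit false
set_option linter.unusedSectionVars false
set_option linter.style.haveILetI false

noncomputable section

namespace Fermat.Agent.TW.W

open Fermat.Agent.PT Fermat.Agent.PT.B Fermat.Agent.PT.L IsLocalRing

section Transport

variable (p : ℕ) [Fact p.Prime] {X Y : Type} [Field X] [Field Y] [Algebra ℚ_[p] X]
  [Algebra ℚ_[p] Y]

theorem lvt_wv_algEquiv (e : X ≃ₐ[ℚ_[p]] Y) (x : X) : wv p (e x) = wv p x := by
  unfold wv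
  rw [Algebra.norm_eq_of_algEquiv e x]

theorem lvt_isUnif_algEquiv (e : X ≃ₐ[ℚ_[p]] Y) {x : X} (hx : IsUnif p x) : IsUnif p (e x) := by
  refine ⟨?_, ?_, ?_⟩
  · rw [Ne, map_eq_zero_iff e e.injective]
    exact hx.1
  · rw [lvt_wv_algEquiv]
    exact hx.2.1
  · intro y hy
    obtain ⟨z, rfl⟩ := e.surjective y
    rw [lvt_wv_algEquiv, lvt_wv_algEquiv]
    apply hx.2.2
    rwa [Ne, map_eq_zero_iff e e.injective] at hy

end Transport

section QpUnif

variable (p : ℕ) [Fact p.Prime]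

/-- `p` is a uniformiser of `ℚ_p` -/
theorem lvt_isUnif_p : IsUnif p ((p : ℕ) : ℚ_[p]) := by
  have h1 : wv p ((p : ℕ) : ℚ_[p]) = 1 := by
    rw [Fermat.Agent.PT.G3.gbq_wv_self]
    exact Padic.valuation_p
  refine ⟨?_, ?_, ?_⟩
  · exact_mod_cast (Fact.out : p.Prime).ne_zero
  · rw [h1]; exact one_pos
  · intro x _
    rw [h1]
    exact one_dvd _

end QpUnif

section TypeLevel

variable (p : ℕ) [Fact p.Prime] (F : Type) [Field F] [Algebra ℚ_[p] F]
  [FiniteDimensional ℚ_[p] F] [IsGalois ℚ_[p] F]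

/-- the maximal unramified subextension, type-level form -/
theorem lvt_inertia_type :
    ∃ K₀ : IntermediateField ℚ_[p] F, IsGalois ℚ_[p] K₀ ∧ IsUnif p ((p : ℕ) : K₀) ∧
      (∃ π : F, IsUnif p π ∧ wv p π = wv p ((p : ℕ) : K₀)) ∧
      ∀ x : F, (∀ σ : F ≃ₐ[ℚ_[p]] F, IsInertial p σ → σ x = x) → x ∈ K₀ := by
  classical
  obtain ⟨C, _, _, ρ, hsurj, hker, hcard⟩ := stmtRes p ℚ_[p] F
  set I : Subgroup (F ≃ₐ[ℚ_[p]] F) := ρ.ker with hI
  set K₀ : IntermediateField ℚ_[p] F := IntermediateField.fixedField I with hK₀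
  haveI hgal : IsGalois ℚ_[p] K₀ := IsGalois.of_fixedField_normal_subgroup I
  obtain ⟨πF, hπF⟩ := stmtWUnif p F
  obtain ⟨πK, hπK⟩ := stmtWUnif p K₀
  -- `|C| = wv πF`
  have hwp : wv p ((p : ℕ) : ℚ_[p]) = 1 := by
    rw [Fermat.Agent.PT.G3.gbq_wv_self]
    exact Padic.valuation_p
  have h1 : (Nat.card C : ℤ) = wv p πF := by
    have := hcard _ πF (lvt_isUnif_p p) hπF
    rw [hwp, mul_one] at this
    exact this
  -- `[K₀ : ℚ_p] = |C|`
  have h2 : Module.finrank ℚ_[p] K₀ = Nat.card C := by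
    have e1 : Module.finrank K₀ F = Nat.card I := IntermediateField.finrank_fixedField_eq_card I
    have e2 : Module.finrank ℚ_[p] K₀ * Module.finrank K₀ F = Module.finrank ℚ_[p] F :=
      Module.finrank_mul_finrank ℚ_[p] K₀ F
    have e3 : Nat.card (F ≃ₐ[ℚ_[p]] F) = Module.finrank ℚ_[p] F :=
      IsGalois.card_aut_eq_finrank ℚ_[p] F
    have e4 : Nat.card (F ≃ₐ[ℚ_[p]] F) = Nat.card ((F ≃ₐ[ℚ_[p]] F) ⧸ I) * Nat.card I :=
      Subgroup.card_eq_card_quotient_mul_card_subgroup I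
    have e5 : Nat.card ((F ≃ₐ[ℚ_[p]] F) ⧸ I) = Nat.card C :=
      Nat.card_congr (QuotientGroup.quotientKerEquivOfSurjective ρ hsurj).toEquiv
    have e6 : 0 < Nat.card I := Nat.card_pos
    rw [e1, ← e3, e4, e5] at e2
    exact Nat.eq_of_mul_eq_mul_right e6 e2
  have h3 : wv p ((p : ℕ) : K₀) = wv p πF := by
    rw [wgr_wv_natCast, h2, h1]
  -- `F/K₀` is totally ramified
  obtain ⟨C', _, _, ρ', hsurj', hker', hcard'⟩ := stmtRes p K₀ F
  have hρ' : ∀ σ : F ≃ₐ[K₀] F, ρ' σ = 1 := by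
    intro σ
    rw [hker']
    have hmem : σ.restrictScalars ℚ_[p] ∈ I := by
      have h5 : σ.restrictScalars ℚ_[p] ∈ K₀.fixingSubgroup := by
        rw [IntermediateField.mem_fixingSubgroup_iff]
        intro x hx
        exact σ.commutes ⟨x, hx⟩
      have hfix : K₀.fixingSubgroup = I := IntermediateField.fixingSubgroup_fixedField I
      rw [← hfix]
      exact h5
    have h6 : IsInertial p (σ.restrictScalars ℚ_[p]) := (hker _).1 (MonoidHom.mem_ker.1 hmem)
    exact h6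
  have hC' : Nat.card C' = 1 := by
    haveI : Subsingleton C' := by
      refine ⟨fun a b => ?_⟩
      obtain ⟨σ, rfl⟩ := hsurj' a
      obtain ⟨τ, rfl⟩ := hsurj' b
      rw [hρ' σ, hρ' τ]
    exact Nat.card_unique
  have h4 : wv p (πK : K₀) = wv p πF := by
    have := hcard' πK πF hπK hπF
    rw [hC'] at this
    push_cast at this
    rw [one_mul] at this
    exact this
  refine ⟨K₀, hgal, ⟨wgr_natCast_ne_zero p, ?_, ?_⟩, ⟨πF, hπF, h3.symm⟩, ?_⟩
  · rw [h3]; exact hπF.2.1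
  · intro x hx
    rw [h3, ← h4]
    exact hπK.2.2 x hx
  · intro x hx
    rw [hK₀, IntermediateField.mem_fixedField_iff]
    intro σ hσ
    exact hx σ ((hker σ).1 (MonoidHom.mem_ker.1 hσ))

end TypeLevel

theorem stmtLvtInertia : StmtLvtInertia := by
  intro p _ F hFf hFn
  haveI := hFf
  haveI := hFn
  haveI : IsGalois ℚ_[p] F := ⟨⟩
  obtain ⟨K₀, hgal, hunif, ⟨πF, hπF, hπFK⟩, hmax⟩ := lvt_inertia_type p F
  haveI := hgal
  have hle : IntermediateField.lift K₀ ≤ F := IntermediateField.lift_le K₀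
  have hp0 : IntermediateField.liftAlgEquiv K₀ ((p : ℕ) : K₀) =
      ((p : ℕ) : ↥(IntermediateField.lift K₀)) := map_natCast _ p
  refine ⟨IntermediateField.lift K₀, hle, ?_, ?_, ⟨πF, hπF, ?_⟩, ?_⟩
  · exact Normal.of_algEquiv (IntermediateField.liftAlgEquiv K₀)
  · rw [← hp0]
    exact lvt_isUnif_algEquiv p _ hunif
  · rw [← hp0, lvt_wv_algEquiv]
    exact hπFK
  · intro U hUF hUn hUu x hx
    haveI := hUn
    haveI hUf : FiniteDimensional ℚ_[p] U := lvt_finite_of_le p hUF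
    haveI : IsGalois ℚ_[p] U := ⟨⟩
    letI := twlaAlg p hUF
    haveI := twla_tower p hUF
    haveI : FiniteDimensional U F := FiniteDimensional.right ℚ_[p] U F
    have h1 : (⟨x, hUF hx⟩ : F) ∈ K₀ := by
      apply hmax
      intro σ hσ
      have hcomm : ∀ z : U, algebraMap U F (AlgEquiv.restrictNormal σ U z) =
          σ (algebraMap U F z) := fun z => AlgEquiv.restrictNormal_commutes σ U z
      have hτ : IsInertial p (AlgEquiv.restrictNormal σ U) :=
        u2_inertial_restrict p (K := U) (L := F) hcomm hσ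
      have hτ1 := u2_inertial_eq_one_of_unram p stmtRes hUu (AlgEquiv.restrictNormal σ U) hτ
      have h2 := hcomm ⟨x, hx⟩
      rw [hτ1] at h2
      exact h2.symm
    exact (IntermediateField.mem_lift (⟨x, hUF hx⟩ : F)).2 h1

end Fermat.Agent.TW.W

end
end ZBTW_005_14

/-! ### bundled: `Fermat.Agent.TW.W.Lev` -/
section ZBTW_005_15
/-
TW-W chain A (helper57): **`stmtLev : StmtLev`** — Fontaine's bound in Kummer form.

Assembly: `stmtLev_of` (LevelPlan) from DICT, KUM (helper64) and (LEVEL′) = `stmtLevPrime_of`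
(LevelAsm) from DICT and TOWER = `stmtLvTower_of` (LvTowerPlan) from CYC, UNR (helper64),
INERTIA, MID (helper57).
-/

set_option autoImplicit false

namespace Fermat.Agent.TW.W

/-- TOWER -/
theorem stmtLvTower : StmtLvTower :=
  stmtLvTower_of stmtLvtCyc stmtLvtInertia stmtLvtMid stmtLvtUnr

/-- (LEVEL′) -/
theorem stmtLevPrime : StmtLevPrime := stmtLevPrime_of stmtLvDict stmtLvTower

/-- **W-LEV**: Fontaine's ramification bound, Kummer form. -/
theorem stmtLev : StmtLev := stmtLev_of stmtLvDict stmtLvKum stmtLevPrime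

end Fermat.Agent.TW.W


end ZBTW_005_15

/-! ### bundled: `Fermat.Agent.R38.EPeuLev` -/
section ZBTW_005_16
/-
ROW 38, piece R38-EPEU (helper64), part 3: application of `TW.W.stmtLev`:
`𝒩_T` acts trivially on `M` when `G_T = N`.
-/

set_option autoImplicit false
set_option linter.unusedSectionVars false
set_option linter.style.haveILetI false

noncomputable section

namespace Fermat.Agent.R38

open Fermat.Agent.PT Fermat.Agent.PT.B Fermat.Agent.TW.L Fermat.Agent.TW.W Fermat.Agent.W1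
  ExtCitation GaloisRep

/-- a group of prime order `p` embeds additively into `ZMod p` -/
theorem r38ep_exists_coord {X : Type} [AddCommGroup X] {p : ℕ} [Fact p.Prime]
    (hX : Nat.card X = p) : ∃ e : X →+ ZMod p, Function.Injective e := by
  have hcyc : IsAddCyclic X := isAddCyclic_of_prime_card hX
  let f : X ≃+ ZMod (Nat.card X) := (zmodAddCyclicAddEquiv hcyc).symm
  let g : ZMod (Nat.card X) ≃+ ZMod p := (ZMod.ringEquivCongr hX).toAddEquiv
  exact ⟨(f.trans g).toAddMonoidHom, (f.trans g).injective⟩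

section Lev

variable {p : ℕ} [Fact p.Prime] {M : Type} [AddCommGroup M] [DistribMulAction GQ M] [Finite M]

/-- **`𝒩_T` acts trivially on `M`** -/
theorem r38ep_lvN_trivial (hp2 : p ≠ 2)
    (H : Subalgebra (ratLocalizedAt p) (M → AlgebraicClosure ℚ))
    (hH : IsHopfLattice (ratLocalizedAt p) (r38epAct M) H) (hpM : ∀ m : M, p • m = 0)
    (hcard : Nat.card (r38epC p M) = p) (T : IntermediateField ℚ_[p] (PadicAlgCl p))
    (hT : IsGoodField p T) (hTN : T.fixingSubgroup = r38epN p M) :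
    ∀ τ ∈ lvN p T, ∀ x : M, localGaloisToGlobal p τ • x = x := by
  classical
  intro τ hτ x
  obtain ⟨e, he⟩ := r38ep_exists_coord hcard
  let χ : GQq p → ZMod p := fun γ =>
    if h : localGaloisToGlobal p γ • x - x ∈ r38epC p M then
      e ⟨localGaloisToGlobal p γ • x - x, h⟩ else 0
  have hmemN : ∀ γ ∈ T.fixingSubgroup, γ ∈ r38epN p M := fun γ hγ => by rwa [hTN] at hγ
  have hχ : IsHomOn p T χ := by
    intro σ γ hσ hγ
    have hσN := hmemN σ hσ
    have hγN := hmemN γ hγ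
    have h1 := hσN.2.2 x
    have h2 := hγN.2.2 x
    have h3 := (hmemN (σ * γ) (mul_mem hσ hγ)).2.2 x
    have e1 : localGaloisToGlobal p (σ * γ) • x - x =
        (localGaloisToGlobal p σ • x - x) + (localGaloisToGlobal p γ • x - x) := by
      have e2 : localGaloisToGlobal p (σ * γ) • x - x =
          (localGaloisToGlobal p σ • (localGaloisToGlobal p γ • x - x)) +
            (localGaloisToGlobal p σ • x - x) := by
        rw [map_mul, mul_smul, smul_sub]
        abel
      rw [e2, hσN.2.1 _ h2]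
      abel
    show χ (σ * γ) = χ σ + χ γ
    simp only [χ, dif_pos h1, dif_pos h2, dif_pos h3]
    rw [← map_add]
    congr 1
    exact Subtype.ext e1
  have hχM : ∀ σ ∈ T.fixingSubgroup,
      (∀ m : M, r38epAct M (localGaloisToGlobal p σ) m = m) → χ σ = 0 := by
    intro σ _ hσM
    have h0 : localGaloisToGlobal p σ • x - x = 0 := by
      have := hσM x
      unfold r38epAct at this
      rw [this, sub_self]
    have hmem : localGaloisToGlobal p σ • x - x ∈ r38epC p M := by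
      rw [h0]
      exact zero_mem _
    show χ σ = 0
    simp only [χ, dif_pos hmem]
    have : (⟨localGaloisToGlobal p σ • x - x, hmem⟩ : r38epC p M) = 0 := Subtype.ext h0
    rw [this, map_zero]
  have hz := stmtLev p hp2 M (r38epAct M) H hH hpM T hT χ hχ hχM τ hτ
  have hτN := hmemN τ (lvN_le p T hτ)
  have hmem := hτN.2.2 x
  have hz' : e ⟨localGaloisToGlobal p τ • x - x, hmem⟩ = 0 := by
    have : χ τ = e ⟨localGaloisToGlobal p τ • x - x, hmem⟩ := by
      simp only [χ, dif_pos hmem]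
    rw [← this]
    exact hz
  have h0 : (⟨localGaloisToGlobal p τ • x - x, hmem⟩ : r38epC p M) = 0 :=
    he (hz'.trans (map_zero e).symm)
  have h1 : localGaloisToGlobal p τ • x - x = 0 := congrArg Subtype.val h0
  exact sub_eq_zero.1 h1

end Lev

end Fermat.Agent.R38

end
end ZBTW_005_16
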