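/- GENERATED FILE (helper35, build-time optimisation, NOTES/ZB.md): verbatim concatenation of the modules
   Fermat.Agent.TW.L.UnrFrob
   Do not edit; do not import together with these modules. -/
import Fermat.Agent.ZB.PT_003

/-! ### bundled: `Fermat.Agent.TW.L.UnrFrob` -/
section ZBTW_022_0

/-!
# TW-L / L-ev: Frobenius detects unramified classes

`stmtUnrFrob_of : StmtFrobGen → StmtUnrFrob`.  For an unramified level cocycle `c` with
`c φ = φ m - m`, `m ∈ M^I`, the cocycle `f = c - d m` vanishes at `φ`, on inertia and on a level;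
the zero set of a cocycle is closed under products, so `f = 0` by L-gen.
-/

set_option autoImplicit false

noncomputable section

namespace Fermat.Agent.TW.L

open CategoryTheory groupCohomology
open Fermat.Agent.PT Fermat.Agent.PT.B

/-- the zero set of a function satisfying the cocycle relation is closed under products -/
theorem lev_zero_mul {k G : Type} [CommRing k] [Group G] (M : Rep.{0} k G) (f : G → M)
    (hf : ∀ g h : G, f (g * h) = M.ρ g (f h) + f g) {g h : G} (hg : f g = 0) (hh : f h = 0) :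
    f (g * h) = 0 := by
  rw [hf, hh, map_zero, hg, add_zero]

/-- **L-ev** from **L-gen**. -/
theorem stmtUnrFrob_of (hgen : StmtFrobGen) : StmtUnrFrob := by
  intro q _ k _ M hsm φ hφ c hc hm
  obtain ⟨m, hmI, hmφ⟩ := hm
  obtain ⟨hlev, hcI⟩ := hc
  obtain ⟨V₁, hV₁, hρ⟩ := hsm
  obtain ⟨V₂, hV₂, hcV⟩ := hlev
  have hcoc := (mem_cocycles₁_iff (c : GQq q → M)).1 c.2
  obtain ⟨f, hfdef⟩ : ∃ f : GQq q → M, ∀ g, f g = (c : GQq q → M) g - (M.ρ g m - m) :=
    ⟨_, fun _ => rfl⟩
  have hf : ∀ g h : GQq q, f (g * h) = M.ρ g (f h) + f g := by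
    intro g h
    rw [hfdef, hfdef, hfdef, hcoc g h, map_mul]
    simp only [Module.End.mul_apply, map_sub]
    abel
  have hfφ : f φ = 0 := by
    rw [hfdef, hmφ, sub_self]
  have hfI : ∀ i ∈ inertiaQ q, f i = 0 := by
    intro i hi
    rw [hfdef, hcI i hi, hmI i hi, sub_self, sub_self]
  have hc1 : (c : GQq q → M) 1 = 0 := cocycles₁_map_one c
  have hfV : ∀ v ∈ V₁ ⊓ V₂, f v = 0 := by
    intro v hv
    have h1 : M.ρ v = 1 := hρ v hv.1
    have h2 : (c : GQq q → M) v = 0 := by
      have := hcV 1 v hv.2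
      rw [one_mul] at this
      rw [this]
      exact hc1
    rw [hfdef, h1, h2, Module.End.one_apply, sub_self, sub_self]
  have hf1 : f 1 = 0 := by
    rw [hfdef, hc1, map_one, Module.End.one_apply, sub_self, sub_self]
  have hfpow : ∀ j : ℕ, f (φ ^ j) = 0 := by
    intro j
    induction j with
    | zero => rw [pow_zero]; exact hf1
    | succ j ih => rw [pow_succ]; exact lev_zero_mul M f hf ih hfφ
  have hall : ∀ τ : GQq q, f τ = 0 := by
    intro τ
    obtain ⟨j, i, v, hi, hv, rfl⟩ :=
      hgen q φ hφ (V₁ ⊓ V₂) ((towerLoc q).inf_mem _ _ hV₁ hV₂) τ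
    exact lev_zero_mul M f hf (lev_zero_mul M f hf (hfpow j) (hfI i hi)) (hfV v hv)
  rw [H1π_eq_zero_iff]
  refine ⟨m, ?_⟩
  funext τ
  have := hall τ
  rw [hfdef, sub_eq_zero] at this
  rw [this]
  rfl

end Fermat.Agent.TW.L

end
end ZBTW_022_0
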