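/- GENERATED FILE (helper35, build-time optimisation, NOTES/ZB.md): verbatim concatenation of the modules
   Fermat.Agent.TW.L.UnrLe
   Fermat.Agent.TW.L.AdMin
   Fermat.Agent.TW.L.AdTw
   Do not edit; do not import together with these modules. -/
import Fermat.Agent.ZB.PT_003
import Mathlib
import Fermat.Agent.ZB.TW_012
import Fermat.Agent.ZB.TW_010
import Fermat.Agent.ZB.TW_011
import Fermat.Agent.ZB.TW_022
import Fermat.Agent.ZB.TW_026
import Fermat.Agent.ZB.TW_009

/-! ### bundled: `Fermat.Agent.TW.L.UnrLe` -/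
section ZBTW_023_0

/-!
# TW-L / L-min: `dim H¹_unr(G_q, M) ≤ h⁰(G_q, M)`

`stmtUnrLe_of : StmtFrobExists → StmtFrobGen → StmtUnrFrob → StmtUnrLe`.

`c ↦ c(φ)` maps the unramified cocycles to `M^I`; by L-ev the induced map
`H¹_unr → M^I / (φ - 1) M^I` is injective, and `dim M^I / (φ - 1) M^I = dim ker (φ - 1 | M^I)`,
which is `M^{G_q}` by L-gen.
-/

set_option autoImplicit false
set_option linter.unusedSectionVars false
set_option linter.style.haveILetI false

noncomputable section

namespace Fermat.Agent.TW.L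

open CategoryTheory groupCohomology
open scoped Pointwise
open Fermat.Agent.PT Fermat.Agent.PT.B ExtCitation

section Abstract

variable {k : Type*} [Field k] {U W H : Type*} [AddCommGroup U] [Module k U]
  [AddCommGroup W] [Module k W] [AddCommGroup H] [Module k H] [FiniteDimensional k W]

/-- if `ker g ≤ ker h` and the target of `g` is finite-dimensional, the range of `h` is
finite-dimensional of dimension at most `dim W`. -/
theorem lmin_range_le (g : U →ₗ[k] W) (h : U →ₗ[k] H) (hle : LinearMap.ker g ≤ LinearMap.ker h) :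
    Module.Finite k (LinearMap.range h) ∧
      Module.finrank k (LinearMap.range h) ≤ Module.finrank k W := by
  have e : (U ⧸ LinearMap.ker g) ≃ₗ[k] LinearMap.range g := g.quotKerEquivRange
  haveI : FiniteDimensional k (U ⧸ LinearMap.ker g) := e.symm.finiteDimensional
  have hr : LinearMap.range ((LinearMap.ker g).liftQ h hle) = LinearMap.range h :=
    Submodule.range_liftQ _ _ _
  rw [← hr]
  refine ⟨inferInstance, ?_⟩
  calc Module.finrank k (LinearMap.range ((LinearMap.ker g).liftQ h hle))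
      ≤ Module.finrank k (U ⧸ LinearMap.ker g) := LinearMap.finrank_range_le _
    _ = Module.finrank k (LinearMap.range g) := e.finrank_eq
    _ ≤ Module.finrank k W := Submodule.finrank_le _

/-- `dim V / im f = dim ker f` for an endomorphism of a finite-dimensional space -/
theorem lmin_finrank_quot_range (f : W →ₗ[k] W) :
    Module.finrank k (W ⧸ LinearMap.range f) = Module.finrank k (LinearMap.ker f) := by
  have h1 := Submodule.finrank_quotient_add_finrank (LinearMap.range f)
  have h2 := LinearMap.finrank_range_add_finrank_ker f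
  omega

end Abstract

section Concrete

variable (q : ℕ) [Fact q.Prime] {k : Type} [Field k] (M : Rep.{0} k (GQq q))

/-- conjugation by a Frobenius element preserves inertia -/
theorem lmin_conj {φ : GQq q} (hφ : IsFrobQ q φ) {τ : GQq q} (hτ : τ ∈ inertiaQ q) :
    φ⁻¹ * τ * φ ∈ inertiaQ q := by
  rw [mem_inertiaQ] at hτ ⊢
  rw [map_mul, map_mul, map_inv]
  have hD : localGaloisToGlobal q φ ∈ (padicPlace q).decompositionSubgroup ℚ :=
    hφ.mem_decompositionSubgroup
  have h := conj_mem_inertiaSubgroupIn (padicPlace q) (localGaloisToGlobal q φ)⁻¹ _ hτ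
  rw [inv_inv] at h
  have hs : (localGaloisToGlobal q φ)⁻¹ • (padicPlace q) = padicPlace q :=
    MulAction.mem_stabilizer_iff.mp (inv_mem hD)
  rwa [hs] at h

/-- the inertia invariants `M^I` -/
def lminInv : Submodule k M where
  carrier := {m | ∀ τ ∈ inertiaQ q, M.ρ τ m = m}
  add_mem' := by
    intro a b ha hb τ hτ
    rw [map_add, ha τ hτ, hb τ hτ]
  zero_mem' := fun τ _ => map_zero _
  smul_mem' := by
    intro c a ha τ hτ
    rw [map_smul, ha τ hτ]

theorem mem_lminInv (m : M) : m ∈ lminInv q M ↔ ∀ τ ∈ inertiaQ q, M.ρ τ m = m := Iff.rfl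

variable {q M}

/-- a Frobenius element preserves `M^I` -/
theorem lmin_frob_mem {φ : GQq q} (hφ : IsFrobQ q φ) {m : M} (hm : m ∈ lminInv q M) :
    M.ρ φ m ∈ lminInv q M := by
  intro τ hτ
  have h1 : τ * φ = φ * (φ⁻¹ * τ * φ) := by group
  have h2 : M.ρ τ (M.ρ φ m) = M.ρ (τ * φ) m := by rw [map_mul]; rfl
  rw [h2, h1, map_mul]
  show M.ρ φ (M.ρ (φ⁻¹ * τ * φ) m) = M.ρ φ m
  rw [hm _ (lmin_conj q hφ hτ)]

/-- the value at Frobenius of an unramified cocycle is inertia invariant -/
theorem lmin_ev_mem {φ : GQq q} (hφ : IsFrobQ q φ) {c : cocycles₁ M}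
    (hc : c ∈ unrCocycles q M) : (c : GQq q → M) φ ∈ lminInv q M := by
  intro τ hτ
  have hcoc := (mem_cocycles₁_iff (c : GQq q → M)).mp c.2
  have h1 : τ * φ = φ * (φ⁻¹ * τ * φ) := by group
  have h2 := hcoc τ φ
  have h3 := hcoc φ (φ⁻¹ * τ * φ)
  rw [hc.2 _ (lmin_conj q hφ hτ), map_zero, zero_add] at h3
  rw [hc.2 τ hτ, add_zero] at h2
  rw [← h2, h1]
  exact h3

/-- `φ - 1` on `M^I` -/
def lminF {φ : GQq q} (hφ : IsFrobQ q φ) : lminInv q M →ₗ[k] lminInv q M :=
  LinearMap.restrict (M.ρ φ - 1) (fun m hm => by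
    show M.ρ φ m - m ∈ lminInv q M
    exact (lminInv q M).sub_mem (lmin_frob_mem hφ hm) hm)

theorem lminF_apply {φ : GQq q} (hφ : IsFrobQ q φ) (m : lminInv q M) :
    ((lminF hφ m : lminInv q M) : M) = M.ρ φ m - m := rfl

/-- evaluation at Frobenius `H¹_unr`-cocycles `→ M^I` -/
def lminEv {φ : GQq q} (hφ : IsFrobQ q φ) : unrCocycles q M →ₗ[k] lminInv q M where
  toFun c := ⟨(c.1 : GQq q → M) φ, lmin_ev_mem hφ c.2⟩
  map_add' _ _ := rfl
  map_smul' _ _ := rfl

/-- the kernel of `φ - 1` on `M^I` consists of `G_q`-invariants -/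
theorem lmin_ker_le_invariants (hgen : StmtFrobGen) (hsm : IsSmoothQ q M) {φ : GQq q}
    (hφ : IsFrobQ q φ) {m : lminInv q M} (hm : lminF hφ m = 0) :
    (m : M) ∈ M.ρ.invariants := by
  obtain ⟨V, hV, hVtriv⟩ := hsm
  have hφm : M.ρ φ (m : M) = m := by
    have := congrArg (fun x : lminInv q M => (x : M)) hm
    simp only [lminF_apply] at this
    exact sub_eq_zero.mp this
  have hpow : ∀ j : ℕ, M.ρ (φ ^ j) (m : M) = m := by
    intro j
    induction j with
    | zero => simp
    | succ j ih =>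
      rw [pow_succ, map_mul]
      show M.ρ (φ ^ j) (M.ρ φ (m : M)) = m
      rw [hφm, ih]
  intro τ
  obtain ⟨j, i, v, hi, hv, rfl⟩ := hgen q φ hφ V hV τ
  rw [map_mul, map_mul]
  show M.ρ (φ ^ j) (M.ρ i (M.ρ v (m : M))) = m
  rw [hVtriv v hv]
  show M.ρ (φ ^ j) (M.ρ i (m : M)) = m
  rw [m.2 i hi, hpow]

end Concrete

/-- **L-min** from L-frobex, L-gen, L-ev. -/
theorem stmtUnrLe_of (hfe : StmtFrobExists) (hgen : StmtFrobGen) (hev : StmtUnrFrob) :
    StmtUnrLe := by
  intro q p _ _ M _ hsm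
  obtain ⟨φ, hφ⟩ := hfe q
  -- the two maps
  let g : unrCocycles q M →ₗ[ZMod p] (lminInv q M ⧸ LinearMap.range (lminF (M := M) hφ)) :=
    (LinearMap.range (lminF (M := M) hφ)).mkQ ∘ₗ lminEv hφ
  let h : unrCocycles q M →ₗ[ZMod p] H1 M := (H1π M).hom ∘ₗ (unrCocycles q M).subtype
  have hle : LinearMap.ker g ≤ LinearMap.ker h := by
    intro c hc
    rw [LinearMap.mem_ker] at hc ⊢
    have h1 : lminEv hφ c ∈ LinearMap.range (lminF (M := M) hφ) := by
      rw [← Submodule.Quotient.mk_eq_zero]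
      exact hc
    obtain ⟨m, hm⟩ := h1
    have h2 : (c.1 : GQq q → M) φ = M.ρ φ (m : M) - m := by
      have := congrArg (fun x : lminInv q M => (x : M)) hm
      simp only [lminF_apply] at this
      exact this.symm
    exact hev q (ZMod p) M hsm φ hφ c.1 c.2 ⟨(m : M), m.2, h2⟩
  have hrange : LinearMap.range h = unrH1 q M := by
    show LinearMap.range ((H1π M).hom ∘ₗ (unrCocycles q M).subtype) = _
    rw [LinearMap.range_comp, Submodule.range_subtype]
    rfl
  have key := lmin_range_le g h hle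
  rw [hrange] at key
  refine ⟨key.1, key.2.trans ?_⟩
  rw [lmin_finrank_quot_range]
  -- `ker (φ - 1 | M^I) ↪ M^G`
  let ι : LinearMap.ker (lminF (M := M) hφ) →ₗ[ZMod p] M.ρ.invariants :=
    LinearMap.codRestrict _ ((lminInv q M).subtype ∘ₗ (LinearMap.ker (lminF (M := M) hφ)).subtype)
      (fun x => lmin_ker_le_invariants hgen hsm hφ x.2)
  have hinj : Function.Injective ι := by
    intro x y hxy
    have := congrArg (fun z : M.ρ.invariants => (z : M)) hxy
    exact Subtype.ext (Subtype.ext this)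
  exact LinearMap.finrank_le_finrank_of_injective hinj

end Fermat.Agent.TW.L

end
end ZBTW_023_0

/-! ### bundled: `Fermat.Agent.TW.L.AdMin` -/
section ZBTW_023_1
/-
TW-L / G-min (helper32): the local term at `v ∈ Smin ∖ p`:
`dim H¹_unr(G_v, ad⁰ ρ̄) ≤ h⁰(G_v, ad⁰ ρ̄)`.

Main results: `stmtAdMin_of : StmtUnrLe → StmtAdMin` and the unconditional
`stmtAdMin : StmtAdMin` (statements in `TW/L/Plan.lean`, `TW/L/Plan3.lean`).

Proof: L-min applied to `M = locRep q (ad0Rep p ρbar)`, which is finite (`gmin_finite`) and smooth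
(G-smooth).
-/

set_option autoImplicit false

namespace Fermat.Agent.TW.L

open CategoryTheory
open Fermat.Agent.PT Fermat.Agent.PT.B Fermat.Agent.TW.S

/-- `ad⁰ ρ̄` is a finite set when `k` is finite. -/
lemma gmin_finite (p : ℕ) [Fact p.Prime] {k : Type} [Field k] [CharP k p] [Finite k]
    (ρbar : ResidualGaloisRep k) : Finite (ad0Rep p ρbar).V := by
  have hfinE : Finite (Module.End k ρbar.V) := Module.finite_of_finite k
  exact Finite.of_injective (ad0Val p ρbar) (ad0Val_injective p ρbar)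

/-- `ad⁰ ρ̄` restricted to `G_{ℚ_q}` is finite-dimensional over `𝔽_p` when `k` is finite. -/
lemma gmin_finiteDimensional (p : ℕ) [Fact p.Prime] {k : Type} [Field k] [CharP k p] [Finite k]
    (ρbar : ResidualGaloisRep k) (q : ℕ) [Fact q.Prime] :
    FiniteDimensional (ZMod p) (locRep q (ad0Rep p ρbar)) := by
  have h : Finite (locRep q (ad0Rep p ρbar)).V := gmin_finite p ρbar
  exact Module.Finite.of_finite

/-- **G-min** from L-min. -/
theorem stmtAdMin_of (hmin : StmtUnrLe) : StmtAdMin := by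
  intro p _ k _ _ _ ρbar q _
  have := gmin_finiteDimensional p ρbar q
  exact hmin q p (locRep q (ad0Rep p ρbar)) (stmtAdSmooth p k ρbar q)

/-- **G-min**: `StmtAdMin`, unconditional. -/
theorem stmtAdMin : StmtAdMin :=
  stmtAdMin_of (stmtUnrLe_of stmtFrobExists stmtFrobGen (stmtUnrFrob_of stmtFrobGen))

end Fermat.Agent.TW.L


end ZBTW_023_1

/-! ### bundled: `Fermat.Agent.TW.L.AdTw` -/
section ZBTW_023_2
/-
TW-L / G-tw (helper32): the local term at a Taylor–Wiles prime `q ≡ 1 mod p` (`ρ̄` unramified at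
`q`, Frobenius with distinct eigenvalues):
`dim H¹_lev(G_q, ad⁰ ρ̄) ≤ h⁰(G_q, ad⁰ ρ̄) + f`, `f = [k : 𝔽_p]`.

Main results: `stmtAdTw_of : StmtLTw → StmtAdInvLe → StmtAdTw` and the unconditional
`stmtAdTw : StmtAdTw` (statements in `TW/L/Plan.lean`, `TW/L/Plan3.lean`).

Proof: L-tw gives `dim H¹_lev ≤ 2 h⁰` for the finite smooth unramified module `ad⁰ ρ̄`
(G-smooth, G-unr), and `h⁰ ≤ f` by G-h0.
-/

set_option autoImplicit false

namespace Fermat.Agent.TW.L

open CategoryTheory
open Fermat.Agent.PT Fermat.Agent.PT.B Fermat.Agent.TW.S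

/-- **G-tw** from L-tw and G-h0. -/
theorem stmtAdTw_of (htw : StmtLTw) (hh0 : StmtAdInvLe) : StmtAdTw := by
  intro p _ k _ _ _ _ ρbar q _ hq1 hunr hdist
  have := gmin_finiteDimensional p ρbar q
  obtain ⟨h1, h2⟩ := htw q p hq1 (locRep q (ad0Rep p ρbar)) (stmtAdSmooth p k ρbar q)
    (stmtAdUnram p k ρbar q hunr)
  refine ⟨h1, h2.trans ?_⟩
  have h3 := hh0 p k ρbar q hdist
  omega

/-- **G-tw**: `StmtAdTw`, unconditional. -/
theorem stmtAdTw : StmtAdTw :=
  stmtAdTw_of
    (stmtLTw_of stmtTame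
      (stmtUnrLe_of stmtFrobExists stmtFrobGen (stmtUnrFrob_of stmtFrobGen)) stmtFrobGen
      stmtFrobExists)
    stmtAdInvLe

end Fermat.Agent.TW.L


end ZBTW_023_2
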