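/- GENERATED FILE (helper35, build-time optimisation, NOTES/ZB.md): verbatim concatenation of the modules
   Fermat.Agent.TW.L.ImLe
   Do not edit; do not import together with these modules. -/
import Fermat.Agent.ZB.PT_003

/-! ### bundled: `Fermat.Agent.TW.L.ImLe` -/
section ZBTW_024_0
/-
TW-L / L-les (helper15): the abstract low-degree exact sequence and its dimension count.

`stmtImLe : StmtImLe` — for `0 → N → A → B → 0` (exact on underlying modules), `A` smooth and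
finite-dimensional, `H¹_lev(N)` finite-dimensional:
`dim im(H¹_lev(N) → H¹(A)) + h⁰(B) + h⁰(N) ≤ dim H¹_lev(N) + h⁰(A)`.

Proof: with a linear section `s` of `π` and a linear retraction `r` of `i`, the connecting map
`δ : B^G → H¹_lev(N)`, `b ↦ [g ↦ r (g (s b) - s b)]` lands in the kernel of `H¹_lev(N) → H¹(A)`,
and `ker δ ⊆ π(A^G)`, `i(N^G) ⊆ ker(π | A^G)`; then rank–nullity three times.
-/

set_option autoImplicit false

noncomputable section

namespace Fermat.Agent.TW.L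

open CategoryTheory groupCohomology
open Fermat.Agent.PT

section lles

variable {k : Type} [Field k] {G : Type} [Group G] (𝒯 : Tower G) {N A B : Rep.{0} k G}
  (i : N ⟶ A) (π : A ⟶ B)

/-- the map `H¹_lev(N) → H¹(A)` whose range is `imH1` -/
def lles_f : ↥(levH1 𝒯 N) →ₗ[k] H1 A :=
  (groupCohomology.map (MonoidHom.id G) i 1).hom ∘ₗ (levH1 𝒯 N).subtype

lemma lles_range_f : LinearMap.range (lles_f 𝒯 i) = imH1 𝒯 i := by
  unfold lles_f imH1
  rw [LinearMap.range_comp, Submodule.range_subtype]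

/-- the pre-connecting map: `b ↦ (g ↦ r (g (s b) - s b))` -/
def lles_pre (s : B.V →ₗ[k] A.V) (r : A.V →ₗ[k] N.V) : B.V →ₗ[k] (G → N.V) :=
  LinearMap.pi fun g => r ∘ₗ (A.ρ g - LinearMap.id) ∘ₗ s

lemma lles_pre_apply (s : B.V →ₗ[k] A.V) (r : A.V →ₗ[k] N.V) (b : B.V) (g : G) :
    lles_pre s r b g = r (A.ρ g (s b) - s b) := rfl

variable {i π}

/-- for invariant `b`, `i (c_b g) = g (s b) - s b` -/
lemma lles_i_pre (hex : ∀ a : A.V, π.hom a = 0 ↔ ∃ n : N.V, i.hom n = a)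
    {s : B.V →ₗ[k] A.V} (hs : ∀ b, π.hom (s b) = b) {r : A.V →ₗ[k] N.V}
    (hr : ∀ n, r (i.hom n) = n) {b : B.V} (hb : b ∈ B.ρ.invariants) (g : G) :
    i.hom (lles_pre s r b g) = A.ρ g (s b) - s b := by
  have h0 : π.hom (A.ρ g (s b) - s b) = 0 := by
    rw [map_sub, Rep.hom_comm_apply, hs, hb g, sub_self]
  obtain ⟨n, hn⟩ := (hex _).1 h0
  rw [lles_pre_apply, ← hn, hr]

lemma lles_pre_mem_cocycles (hi : Function.Injective i.hom)
    (hex : ∀ a : A.V, π.hom a = 0 ↔ ∃ n : N.V, i.hom n = a)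
    {s : B.V →ₗ[k] A.V} (hs : ∀ b, π.hom (s b) = b) {r : A.V →ₗ[k] N.V}
    (hr : ∀ n, r (i.hom n) = n) {b : B.V} (hb : b ∈ B.ρ.invariants) :
    lles_pre s r b ∈ cocycles₁ N := by
  rw [mem_cocycles₁_iff]
  intro g h
  apply hi
  rw [map_add, Rep.hom_comm_apply, lles_i_pre hex hs hr hb, lles_i_pre hex hs hr hb,
    lles_i_pre hex hs hr hb, map_sub, map_mul]
  simp only [Module.End.mul_apply]
  abel

lemma lles_pre_isLevel (hA : ∃ U ∈ 𝒯.lev, ∀ s ∈ U, A.ρ s = 1)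
    (s : B.V →ₗ[k] A.V) (r : A.V →ₗ[k] N.V) (b : B.V) :
    IsLevel₁ 𝒯 (lles_pre s r b) := by
  obtain ⟨U, hU, h⟩ := hA
  refine ⟨U, hU, fun g u hu => ?_⟩
  rw [lles_pre_apply, lles_pre_apply, map_mul, h u hu, mul_one]

/-- the connecting map with values in cocycles -/
def lles_δ₀ (hi : Function.Injective i.hom)
    (hex : ∀ a : A.V, π.hom a = 0 ↔ ∃ n : N.V, i.hom n = a)
    {s : B.V →ₗ[k] A.V} (hs : ∀ b, π.hom (s b) = b) {r : A.V →ₗ[k] N.V}
    (hr : ∀ n, r (i.hom n) = n) : ↥(B.ρ.invariants) →ₗ[k] ↥(cocycles₁ N) :=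
  LinearMap.codRestrict (cocycles₁ N) (lles_pre s r ∘ₗ (B.ρ.invariants).subtype)
    (fun b => lles_pre_mem_cocycles hi hex hs hr b.2)

lemma lles_δ₀_apply (hi : Function.Injective i.hom)
    (hex : ∀ a : A.V, π.hom a = 0 ↔ ∃ n : N.V, i.hom n = a)
    {s : B.V →ₗ[k] A.V} (hs : ∀ b, π.hom (s b) = b) {r : A.V →ₗ[k] N.V}
    (hr : ∀ n, r (i.hom n) = n) (b : ↥(B.ρ.invariants)) (g : G) :
    (lles_δ₀ hi hex hs hr b : G → N.V) g = lles_pre s r b.1 g := rfl

/-- the connecting map `B^G → H¹_lev(N)` -/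
def lles_δ (hi : Function.Injective i.hom)
    (hex : ∀ a : A.V, π.hom a = 0 ↔ ∃ n : N.V, i.hom n = a)
    (hA : ∃ U ∈ 𝒯.lev, ∀ s ∈ U, A.ρ s = 1)
    {s : B.V →ₗ[k] A.V} (hs : ∀ b, π.hom (s b) = b) {r : A.V →ₗ[k] N.V}
    (hr : ∀ n, r (i.hom n) = n) : ↥(B.ρ.invariants) →ₗ[k] ↥(levH1 𝒯 N) :=
  LinearMap.codRestrict (levH1 𝒯 N) ((H1π N).hom ∘ₗ lles_δ₀ hi hex hs hr)
    (fun b => (mem_levH1_iff 𝒯 N _).2
      ⟨lles_δ₀ hi hex hs hr b, lles_pre_isLevel 𝒯 hA s r b.1, rfl⟩)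

lemma lles_δ_coe (hi : Function.Injective i.hom)
    (hex : ∀ a : A.V, π.hom a = 0 ↔ ∃ n : N.V, i.hom n = a)
    (hA : ∃ U ∈ 𝒯.lev, ∀ s ∈ U, A.ρ s = 1)
    {s : B.V →ₗ[k] A.V} (hs : ∀ b, π.hom (s b) = b) {r : A.V →ₗ[k] N.V}
    (hr : ∀ n, r (i.hom n) = n) (b : ↥(B.ρ.invariants)) :
    ((lles_δ 𝒯 hi hex hA hs hr b : ↥(levH1 𝒯 N)) : H1 N) =
      (H1π N).hom (lles_δ₀ hi hex hs hr b) := rfl

/-- the image of the connecting map dies in `H¹(A)` -/
lemma lles_range_δ_le (hi : Function.Injective i.hom)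
    (hex : ∀ a : A.V, π.hom a = 0 ↔ ∃ n : N.V, i.hom n = a)
    (hA : ∃ U ∈ 𝒯.lev, ∀ s ∈ U, A.ρ s = 1)
    {s : B.V →ₗ[k] A.V} (hs : ∀ b, π.hom (s b) = b) {r : A.V →ₗ[k] N.V}
    (hr : ∀ n, r (i.hom n) = n) :
    LinearMap.range (lles_δ 𝒯 hi hex hA hs hr) ≤ LinearMap.ker (lles_f 𝒯 i) := by
  rintro _ ⟨b, rfl⟩
  rw [LinearMap.mem_ker]
  show (groupCohomology.map (MonoidHom.id G) i 1).hom
    ((H1π N).hom (lles_δ₀ hi hex hs hr b)) = 0
  have h1 := H1π_comp_map_apply (A := N) (B := A) (MonoidHom.id G) i (lles_δ₀ hi hex hs hr b)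
  refine h1.trans ?_
  refine (H1π_eq_zero_iff _).2 ?_
  refine ⟨s b.1, ?_⟩
  funext g
  rw [d₀₁_hom_apply]
  exact (lles_i_pre hex hs hr b.2 g).symm

/-- the kernel of the connecting map consists of images of invariants of `A` -/
lemma lles_ker_δ_le (hi : Function.Injective i.hom)
    (hex : ∀ a : A.V, π.hom a = 0 ↔ ∃ n : N.V, i.hom n = a)
    (hA : ∃ U ∈ 𝒯.lev, ∀ s ∈ U, A.ρ s = 1)
    {s : B.V →ₗ[k] A.V} (hs : ∀ b, π.hom (s b) = b) {r : A.V →ₗ[k] N.V}
    (hr : ∀ n, r (i.hom n) = n) (b : ↥(B.ρ.invariants))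
    (hb : lles_δ 𝒯 hi hex hA hs hr b = 0) :
    ∃ a ∈ A.ρ.invariants, π.hom a = b.1 := by
  have h0 : (H1π N).hom (lles_δ₀ hi hex hs hr b) = 0 := by
    rw [← lles_δ_coe 𝒯 hi hex hA hs hr b, hb]
    rfl
  obtain ⟨n, hn⟩ := (H1π_eq_zero_iff _).1 h0
  refine ⟨s b.1 - i.hom n, ?_, ?_⟩
  · intro g
    have h1 := congrFun hn g
    rw [d₀₁_hom_apply, lles_δ₀_apply] at h1
    have h2 := congrArg i.hom h1
    rw [lles_i_pre hex hs hr b.2, map_sub, Rep.hom_comm_apply] at h2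
    rw [map_sub]
    have h3 : A.ρ g (s b.1) - A.ρ g (i.hom n) = s b.1 - i.hom n := by
      rw [sub_eq_sub_iff_sub_eq_sub]
      exact h2.symm
    exact h3
  · rw [map_sub, hs, (hex _).2 ⟨n, rfl⟩, sub_zero]

end lles

/-- **L-les**. -/
theorem stmtImLe : StmtImLe := by
  intro k _ G _ 𝒯 N A B _ i π hi hπ hex hA hfin
  classical
  -- finite-dimensionality
  have : FiniteDimensional k N.V :=
    FiniteDimensional.of_injective i.hom.toLinearMap hi
  have : FiniteDimensional k B.V :=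
    Module.Finite.of_surjective π.hom.toLinearMap hπ
  -- a section of `π` and a retraction of `i`
  obtain ⟨s, hs'⟩ := LinearMap.exists_rightInverse_of_surjective π.hom.toLinearMap
    (LinearMap.range_eq_top.2 hπ)
  have hs : ∀ b, π.hom (s b) = b := fun b => LinearMap.congr_fun hs' b
  obtain ⟨r, hr'⟩ := LinearMap.exists_leftInverse_of_injective i.hom.toLinearMap
    (LinearMap.ker_eq_bot.2 hi)
  have hr : ∀ n, r (i.hom n) = n := fun n => LinearMap.congr_fun hr' n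
  -- rank–nullity for `H¹_lev(N) → H¹(A)`
  have e1 := LinearMap.finrank_range_add_finrank_ker (lles_f 𝒯 i)
  rw [lles_range_f] at e1
  -- rank–nullity for the connecting map
  have e2 := LinearMap.finrank_range_add_finrank_ker (lles_δ 𝒯 hi hex hA hs hr)
  have e3 : Module.finrank k (LinearMap.range (lles_δ 𝒯 hi hex hA hs hr)) ≤
      Module.finrank k (LinearMap.ker (lles_f 𝒯 i)) :=
    Submodule.finrank_mono (lles_range_δ_le 𝒯 hi hex hA hs hr)
  -- the restriction of `π` to invariants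
  let f : ↥(A.ρ.invariants) →ₗ[k] B.V := π.hom.toLinearMap ∘ₗ (A.ρ.invariants).subtype
  have e4 := LinearMap.finrank_range_add_finrank_ker f
  -- `ker δ` injects into `range f`
  have e5 : Module.finrank k (LinearMap.ker (lles_δ 𝒯 hi hex hA hs hr)) ≤
      Module.finrank k (LinearMap.range f) := by
    let j : ↥(LinearMap.ker (lles_δ 𝒯 hi hex hA hs hr)) →ₗ[k] ↥(LinearMap.range f) :=
      LinearMap.codRestrict (LinearMap.range f)
        ((B.ρ.invariants).subtype ∘ₗ (LinearMap.ker (lles_δ 𝒯 hi hex hA hs hr)).subtype)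
        (fun b => by
          obtain ⟨a, ha, hab⟩ := lles_ker_δ_le 𝒯 hi hex hA hs hr b.1 b.2
          exact ⟨⟨a, ha⟩, hab⟩)
    refine LinearMap.finrank_le_finrank_of_injective (f := j) ?_
    intro b b' hbb
    have := congrArg Subtype.val hbb
    exact Subtype.ext (Subtype.ext this)
  -- `N^G` injects into `ker f`
  have e6 : Module.finrank k N.ρ.invariants ≤ Module.finrank k (LinearMap.ker f) := by
    let j : ↥(N.ρ.invariants) →ₗ[k] ↥(LinearMap.ker f) :=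
      LinearMap.codRestrict (LinearMap.ker f)
        (LinearMap.codRestrict (A.ρ.invariants)
          (i.hom.toLinearMap ∘ₗ (N.ρ.invariants).subtype)
          (fun n g => by
            show A.ρ g (i.hom n.1) = i.hom n.1
            rw [← Rep.hom_comm_apply, n.2 g]))
        (fun n => by
          rw [LinearMap.mem_ker]
          exact (hex _).2 ⟨n.1, rfl⟩)
    refine LinearMap.finrank_le_finrank_of_injective (f := j) ?_
    intro n n' hnn
    have h1 := congrArg (fun x : ↥(LinearMap.ker f) => (x.1.1 : A.V)) hnn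
    exact Subtype.ext (hi h1)
  omega

end Fermat.Agent.TW.L

end


end ZBTW_024_0
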