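/- GENERATED FILE (helper35, build-time optimisation, NOTES/ZB.md): verbatim concatenation of the modules
   Fermat.Agent.TW.L.LOrd
   Do not edit; do not import together with these modules. -/
import Fermat.Agent.ZB.PT_003

/-! ### bundled: `Fermat.Agent.TW.L.LOrd` -/
section ZBTW_025_0
/-
TW-L, piece `L-ord` (helper1): the ordinary local condition has dimension
`≤ dim N + h⁰(G_p, A)`; glue of `L-les` (`StmtImLe`) and `L-kum` (`StmtLKum`).
-/

set_option autoImplicit false

namespace Fermat.Agent.TW.L

open CategoryTheory groupCohomology Polynomial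
open Fermat.Agent.PT Fermat.Agent.PT.B ExtCitation

/-- **L-ord** from `L-les` and `L-kum`. -/
theorem stmtLOrd_of (hles : StmtImLe) (hkum : StmtLKum) : StmtLOrd := by
  intro p hp hp2 N A B hA i π hi hπ hex hsm hcyc hNB
  haveI : FiniteDimensional (ZMod p) N := Module.Finite.of_injective i.hom.toLinearMap hi
  obtain ⟨hfin, hle⟩ := hkum p hp2 N hcyc
  have h := hles (ZMod p) (GQq p) (towerLoc p) N A B i π hi hπ hex hsm hfin
  omega

end Fermat.Agent.TW.L


end ZBTW_025_0
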