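/- GENERATED FILE (helper35, build-time optimisation, NOTES/ZB.md): verbatim concatenation of the modules
   Fermat.Agent.TW.W.LocT2
   Do not edit; do not import together with these modules. -/
import Fermat.Agent.ZB.TW_004

/-! ### bundled: `Fermat.Agent.TW.W.LocT2` -/
section ZBTW_067_0

/-!
# TW-W (W-et), local lattices 3: (T2) for a lattice of functions, directly on the group algebra

* `tww_ev_inj` (abstract (INJ)): `𝒜` a commutative ring with finitely many additive "evaluations"
  `ev i : 𝒜 →+ K` whose unit balls are sub-multiplicative; `x ^ p = 1` and `x ≡ 1` modulo `c` with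
  `c ^ (p - 1) ∈ p 𝔪_A` imply `ev i (x - 1) = 0`.
* `twwlocEv φ : K[Q] →+ K`, the pairing of the group algebra with a function `φ : Q → K`;
* `twwloc_t2` (**T2** for a lattice of functions): `L ⊂ Map(Q, K)` a finitely generated
  `R₀`-submodule of `A`-valued functions, closed under the comultiplication and separating the
  points; `p q = 0` and `φ q ≡ φ 0` modulo `c` for all `φ ∈ L` imply `q = 0`.
-/

set_option autoImplicit false
set_option linter.unusedSectionVars false
set_option linter.style.haveILetI false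

namespace Fermat.Agent.TW.W

section AbstractInj

variable {K : Type*} [Field K] (A : ValuationSubring K) {𝒜 : Type*} [CommRing 𝒜] {ι : Type*}

/-- `z` is bounded by `g` in all evaluations. -/
def TwwEvBdd (ev : ι → 𝒜 →+ K) (z : 𝒜) (g : A.ValueGroup) : Prop :=
  ∀ i, A.valuation (ev i z) ≤ g

variable {A}

theorem TwwEvBdd.mono {ev : ι → 𝒜 →+ K} {z : 𝒜} {g g' : A.ValueGroup}
    (hz : TwwEvBdd A ev z g) (hg : g ≤ g') : TwwEvBdd A ev z g' := fun i => (hz i).trans hg

theorem TwwEvBdd.add {ev : ι → 𝒜 →+ K} {z z' : 𝒜} {g : A.ValueGroup}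
    (hz : TwwEvBdd A ev z g) (hz' : TwwEvBdd A ev z' g) : TwwEvBdd A ev (z + z') g := fun i => by
  rw [map_add]; exact (A.valuation).map_add_le (hz i) (hz' i)

theorem TwwEvBdd.neg {ev : ι → 𝒜 →+ K} {z : 𝒜} {g : A.ValueGroup}
    (hz : TwwEvBdd A ev z g) : TwwEvBdd A ev (-z) g := fun i => by
  rw [map_neg, Valuation.map_neg]; exact hz i

theorem TwwEvBdd.zero (ev : ι → 𝒜 →+ K) (g : A.ValueGroup) : TwwEvBdd A ev 0 g := fun i => by
  rw [map_zero, map_zero]; exact zero_le

/-- The subring of elements bounded by `1`. -/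
def twwEvSubring (ev : ι → 𝒜 →+ K)
    (hmul : ∀ (z w : 𝒜) (g g' : A.ValueGroup), TwwEvBdd A ev z g → TwwEvBdd A ev w g' →
      TwwEvBdd A ev (z * w) (g * g'))
    (hone : TwwEvBdd A ev 1 1) : Subring 𝒜 where
  carrier := {z | TwwEvBdd A ev z 1}
  mul_mem' hz hz' := by simpa using hmul _ _ _ _ hz hz'
  one_mem' := hone
  add_mem' hz hz' := TwwEvBdd.add hz hz'
  zero_mem' := TwwEvBdd.zero ev 1
  neg_mem' hz := TwwEvBdd.neg hz

theorem TwwEvBdd.pow {ev : ι → 𝒜 →+ K}
    (hmul : ∀ (z w : 𝒜) (g g' : A.ValueGroup), TwwEvBdd A ev z g → TwwEvBdd A ev w g' →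
      TwwEvBdd A ev (z * w) (g * g'))
    (hone : TwwEvBdd A ev 1 1) {z : 𝒜} {g : A.ValueGroup} (hz : TwwEvBdd A ev z g) (n : ℕ) :
    TwwEvBdd A ev (z ^ n) (g ^ n) := by
  induction n with
  | zero => simpa using hone
  | succ n ih => rw [pow_succ, pow_succ]; exact hmul _ _ _ _ ih hz

/-- **Abstract (INJ)**: no small `p`-torsion in a ring with sub-multiplicative evaluations. -/
theorem tww_ev_inj [Finite ι] (ev : ι → 𝒜 →+ K)
    (hmul : ∀ (z w : 𝒜) (g g' : A.ValueGroup), TwwEvBdd A ev z g → TwwEvBdd A ev w g' →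
      TwwEvBdd A ev (z * w) (g * g'))
    (hone : TwwEvBdd A ev 1 1)
    (p : ℕ) (hp : p.Prime) (hpK : (p : K) ≠ 0) (c t : K) (hct : c ^ (p - 1) = (p : K) * t)
    (ht : t ∈ A.nonunits) (x : 𝒜) (hx : x ^ p = 1)
    (hcong : TwwEvBdd A ev (x - 1) (A.valuation c)) : ∀ i, ev i (x - 1) = 0 := by
  classical
  letI : Fintype ι := Fintype.ofFinite ι
  have h2 : 2 ≤ p := hp.two_le
  set v := A.valuation with hv
  have hvp1 : v (p : K) ≤ 1 := (A.valuation_le_one_iff _).mpr (natCast_mem A p)
  have hvp0 : v (p : K) ≠ 0 := (Valuation.ne_zero_iff v).mpr hpK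
  have hvt : v t < 1 := (ValuationSubring.mem_nonunits_iff (A := A)).mp ht
  have hvc : v c < 1 := by
    by_contra hcon
    rw [not_lt] at hcon
    have h1 : (1 : A.ValueGroup) ≤ v c ^ (p - 1) := one_le_pow_of_one_le' hcon _
    rw [← map_pow, hct, map_mul] at h1
    have h3 : v (p : K) * v t < 1 := by
      calc v (p : K) * v t ≤ 1 * v t := mul_le_mul' hvp1 le_rfl
        _ = v t := one_mul _
        _ < 1 := hvt
    exact absurd h1 (not_le.mpr h3)
  set y : 𝒜 := x - 1 with hy
  have hyc : TwwEvBdd A ev y (v c) := hcong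
  have hy1 : TwwEvBdd A ev y 1 := hyc.mono hvc.le
  by_contra hne
  obtain ⟨i₁, hi₁⟩ := not_forall.mp hne
  obtain ⟨s₀, -, hmax⟩ := Finset.exists_max_image (Finset.univ : Finset ι)
    (fun s => v (ev s y)) ⟨i₁, Finset.mem_univ _⟩
  set γ : K := ev s₀ y with hγ
  have hyγ : TwwEvBdd A ev y (v γ) := fun i => hmax i (Finset.mem_univ i)
  have hγ0 : v γ ≠ 0 := by
    intro h0
    apply hi₁
    have := hyγ i₁
    rw [h0] at this
    exact (Valuation.zero_iff v).mp (le_antisymm this zero_le)
  have hγc : v γ ≤ v c := hyc s₀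
  have hγ1 : v γ < 1 := lt_of_le_of_lt hγc hvc
  -- the binomial relation, evaluated at `s₀`
  obtain ⟨c₀, hc₀⟩ := tww_inj_binom p hp (⟨y, hy1⟩ : twwEvSubring ev hmul hone)
  have hbin : (1 + y) ^ p = 1 + (p : 𝒜) * y * (1 + y * c₀.1) + y ^ p := by
    have := congrArg (Subtype.val : twwEvSubring ev hmul hone → 𝒜) hc₀
    simpa using this
  have hc₀b : TwwEvBdd A ev c₀.1 1 := c₀.2
  have hx' : (1 + y) ^ p = 1 := by rw [hy, add_sub_cancel]; exact hx
  rw [hx'] at hbin
  have hrel : (p : 𝒜) * y = -((p : 𝒜) * (y * y * c₀.1) + y ^ p) := by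
    linear_combination -hbin
  have hpy : ∀ z : 𝒜, ev s₀ ((p : 𝒜) * z) = (p : K) * ev s₀ z := by
    intro z
    rw [← nsmul_eq_mul, map_nsmul, nsmul_eq_mul]
  have heval : (p : K) * γ = -((p : K) * ev s₀ (y * y * c₀.1) + ev s₀ (y ^ p)) := by
    have := congrArg (ev s₀) hrel
    rw [hpy, map_neg, map_add, hpy] at this
    exact this
  have hb1 : v (ev s₀ (y * y * c₀.1)) ≤ v γ * v γ := by
    have := (hmul _ _ _ _ (hmul _ _ _ _ hyγ hyγ) hc₀b) s₀
    simpa using this
  have hb2 : v (ev s₀ (y ^ p)) ≤ v γ ^ p := (TwwEvBdd.pow hmul hone hyγ p) s₀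
  have hle : v (p : K) * v γ ≤ max (v (p : K) * (v γ * v γ)) (v γ ^ p) := by
    have h1 : v ((p : K) * γ) = v (p : K) * v γ := map_mul _ _ _
    rw [← h1, heval, Valuation.map_neg]
    refine (v.map_add _ _).trans (max_le_max ?_ hb2)
    rw [map_mul]
    exact mul_le_mul' le_rfl hb1
  rcases le_max_iff.mp hle with h1 | h1
  · have h3 : v (p : K) * v γ * 1 ≤ v (p : K) * v γ * v γ := by
      rw [mul_one, mul_assoc]; exact h1
    have h4 : (1 : A.ValueGroup) ≤ v γ :=
      le_of_mul_le_mul_left h3 (zero_lt_iff.mpr (mul_ne_zero hvp0 hγ0))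
    exact absurd h4 (not_le.mpr hγ1)
  · have hpp : v γ ^ p = v γ ^ (p - 1) * v γ := by
      rw [← pow_succ, show p - 1 + 1 = p by omega]
    rw [hpp] at h1
    have h3 : v (p : K) ≤ v γ ^ (p - 1) :=
      le_of_mul_le_mul_right h1 (zero_lt_iff.mpr hγ0)
    have h4 : v γ ^ (p - 1) ≤ v c ^ (p - 1) := pow_le_pow_left' hγc _
    have h5 : v c ^ (p - 1) = v (p : K) * v t := by rw [← map_pow, hct, map_mul]
    have h6 : v (p : K) * v t < v (p : K) * 1 :=
      mul_lt_mul_of_pos_left hvt (zero_lt_iff.mpr hvp0)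
    rw [mul_one] at h6
    exact absurd (h3.trans (h4.trans h5.le)) (not_le.mpr h6)

end AbstractInj

section GroupAlg

variable {K : Type*} [Field K] {Q : Type*} [AddCommGroup Q]

/-- The pairing of the group algebra `K[Q]` with a function `φ : Q → K`:
`∑ z_P [P] ↦ ∑ z_P φ(P)`. -/
noncomputable def twwlocEv (φ : Q → K) : AddMonoidAlgebra K Q →+ K :=
  (Finsupp.liftAddHom (fun P => AddMonoidHom.mulRight (φ P))).comp
    (AddMonoidAlgebra.coeffAddEquiv (R := K) (M := Q)).toAddMonoidHom

@[simp] theorem twwlocEv_single (φ : Q → K) (m : Q) (r : K) :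
    twwlocEv φ (AddMonoidAlgebra.single m r) = r * φ m := by
  simp [twwlocEv]

theorem twwlocEv_add_fun (φ ψ : Q → K) (z : AddMonoidAlgebra K Q) :
    twwlocEv (φ + ψ) z = twwlocEv φ z + twwlocEv ψ z := by
  have h : twwlocEv (φ + ψ) = twwlocEv φ + twwlocEv ψ := by
    apply AddMonoidAlgebra.addMonoidHom_ext
    intro m r
    simp [mul_add]
  rw [h]; rfl

theorem twwlocEv_smul_fun (c : K) (φ : Q → K) (z : AddMonoidAlgebra K Q) :
    twwlocEv (c • φ) z = c * twwlocEv φ z := by
  have h : twwlocEv (c • φ) = (AddMonoidHom.mulLeft c).comp (twwlocEv φ) := by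
    apply AddMonoidAlgebra.addMonoidHom_ext
    intro m r
    show twwlocEv (c • φ) (AddMonoidAlgebra.single m r) =
      c * twwlocEv φ (AddMonoidAlgebra.single m r)
    simp only [twwlocEv_single, Pi.smul_apply, smul_eq_mul]
    ring
  rw [h]; rfl

theorem twwlocEv_zero_fun (z : AddMonoidAlgebra K Q) : twwlocEv (0 : Q → K) z = 0 := by
  have h : twwlocEv (0 : Q → K) = 0 := by
    apply AddMonoidAlgebra.addMonoidHom_ext
    intro m r
    simp
  rw [h]; rfl

theorem twwlocEv_mul_const (φ : Q → K) (c : K) (z : AddMonoidAlgebra K Q) :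
    twwlocEv (fun P => φ P * c) z = twwlocEv φ z * c := by
  have e : (fun P => φ P * c) = c • φ := by
    funext P; simp [mul_comm]
  rw [e, twwlocEv_smul_fun, mul_comm]

/-- The double pairing with a function on `Q × Q`. -/
noncomputable def twwlocEv₂ (F : Q × Q → K) (z w : AddMonoidAlgebra K Q) : K :=
  twwlocEv (fun P => twwlocEv (fun P' => F (P, P')) w) z

theorem twwlocEv₂_single (F : Q × Q → K) (m m' : Q) (r r' : K) :
    twwlocEv₂ F (AddMonoidAlgebra.single m r) (AddMonoidAlgebra.single m' r') =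
      r * (r' * F (m, m')) := by
  simp [twwlocEv₂]

theorem twwlocEv₂_add (F G : Q × Q → K) (z w : AddMonoidAlgebra K Q) :
    twwlocEv₂ (F + G) z w = twwlocEv₂ F z w + twwlocEv₂ G z w := by
  unfold twwlocEv₂
  have e : (fun P : Q => twwlocEv (fun P' => (F + G) (P, P')) w) =
      (fun P : Q => twwlocEv (fun P' => F (P, P')) w) +
        (fun P : Q => twwlocEv (fun P' => G (P, P')) w) := by
    funext P
    rw [Pi.add_apply, ← twwlocEv_add_fun]
    rfl
  rw [e, twwlocEv_add_fun]

theorem twwlocEv₂_smul (c : K) (F : Q × Q → K) (z w : AddMonoidAlgebra K Q) :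
    twwlocEv₂ (c • F) z w = c * twwlocEv₂ F z w := by
  unfold twwlocEv₂
  have e : (fun P : Q => twwlocEv (fun P' => (c • F) (P, P')) w) =
      c • (fun P : Q => twwlocEv (fun P' => F (P, P')) w) := by
    funext P
    rw [Pi.smul_apply, smul_eq_mul, ← twwlocEv_smul_fun]
    rfl
  rw [e, twwlocEv_smul_fun]

theorem twwlocEv₂_zero (z w : AddMonoidAlgebra K Q) : twwlocEv₂ (0 : Q × Q → K) z w = 0 := by
  unfold twwlocEv₂
  have : (fun P : Q => twwlocEv (fun P' => (0 : Q × Q → K) (P, P')) w) = 0 := by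
    funext P
    exact twwlocEv_zero_fun w
  rw [this, twwlocEv_zero_fun]

theorem twwlocEv₂_tensor (a b : Q → K) (z w : AddMonoidAlgebra K Q) :
    twwlocEv₂ (fun PQ => a PQ.1 * b PQ.2) z w = twwlocEv a z * twwlocEv b w := by
  unfold twwlocEv₂
  have e : (fun P : Q => twwlocEv (fun P' => a P * b P') w) = fun P => a P * twwlocEv b w := by
    funext P
    have : (fun P' => a P * b P') = a P • b := by funext P'; simp
    rw [this, twwlocEv_smul_fun]
  rw [e, twwlocEv_mul_const]

/-- The pairing with a product is the double pairing with the comultiplication. -/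
theorem twwlocEv_mul (φ : Q → K) (z w : AddMonoidAlgebra K Q) :
    twwlocEv φ (z * w) = twwlocEv₂ (fun PQ => φ (PQ.1 + PQ.2)) z w := by
  -- additive in `w`, for a fixed `z`
  have hw : ∀ z : AddMonoidAlgebra K Q,
      (twwlocEv φ).comp (AddMonoidHom.mulLeft z) =
        { toFun := fun w => twwlocEv₂ (fun PQ => φ (PQ.1 + PQ.2)) z w
          map_zero' := by
            unfold twwlocEv₂
            have : (fun P : Q => twwlocEv (fun P' => φ (P + P')) 0) = 0 := by
              funext P; exact map_zero _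
            simp only [this]
            exact twwlocEv_zero_fun z
          map_add' := by
            intro w w'
            unfold twwlocEv₂
            have e : (fun P : Q => twwlocEv (fun P' => φ (P + P')) (w + w')) =
                (fun P : Q => twwlocEv (fun P' => φ (P + P')) w) +
                  (fun P : Q => twwlocEv (fun P' => φ (P + P')) w') := by
              funext P
              rw [Pi.add_apply, map_add]
            simp only [e]
            exact twwlocEv_add_fun _ _ z } := by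
    intro z
    apply AddMonoidAlgebra.addMonoidHom_ext
    intro m' r'
    show twwlocEv φ (z * AddMonoidAlgebra.single m' r') =
      twwlocEv₂ (fun PQ => φ (PQ.1 + PQ.2)) z (AddMonoidAlgebra.single m' r')
    -- additive in `z`
    have hz : (twwlocEv φ).comp (AddMonoidHom.mulRight (AddMonoidAlgebra.single m' r')) =
        twwlocEv (fun P => twwlocEv (fun P' => φ (P + P')) (AddMonoidAlgebra.single m' r')) := by
      apply AddMonoidAlgebra.addMonoidHom_ext
      intro m r
      simp only [AddMonoidHom.comp_apply, AddMonoidHom.mulRight_apply,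
        AddMonoidAlgebra.single_mul_single, twwlocEv_single]
      ring
    exact DFunLike.congr_fun hz z
  exact DFunLike.congr_fun (hw z) w

end GroupAlg

section T2

variable {K : Type*} [Field K] (A : ValuationSubring K) {R₀ : Type*} [CommRing R₀] [Algebra R₀ K]
  {Q : Type*} [AddCommGroup Q]

/-- **(T2) for a lattice of functions.**  `L ⊂ Map(Q, K)` a finitely generated `R₀`-submodule of
`A`-valued functions, closed under the comultiplication and separating the points of the group
`Q`.  If `p q = 0` and `φ q ≡ φ 0` modulo `c` for all `φ ∈ L`, where `c ^ (p - 1) ∈ p 𝔪_A`, then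
`q = 0`. -/
theorem twwloc_t2 (hRA : ∀ r : R₀, algebraMap R₀ K r ∈ A) (L : Submodule R₀ (Q → K))
    (hfg : L.FG) (hval : ∀ φ ∈ L, ∀ P : Q, φ P ∈ A)
    (hcomul : ∀ φ ∈ L, (fun PQ : Q × Q => φ (PQ.1 + PQ.2)) ∈
      Submodule.span R₀ {F : Q × Q → K | ∃ a ∈ L, ∃ b ∈ L, F = fun PQ => a PQ.1 * b PQ.2})
    (hsep : ∀ P P' : Q, (∀ φ ∈ L, φ P = φ P') → P = P')
    (p : ℕ) (hp : p.Prime) (hpK : (p : K) ≠ 0) (c t : K) (hct : c ^ (p - 1) = (p : K) * t)
    (ht : t ∈ A.nonunits) (q : Q) (hq : p • q = 0)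
    (hcong : ∀ φ ∈ L, A.valuation (φ q - φ 0) ≤ A.valuation c) : q = 0 := by
  classical
  obtain ⟨S, hS⟩ := hfg
  set v := A.valuation with hv
  -- the evaluations at the generators
  set ev : S → AddMonoidAlgebra K Q →+ K := fun s => twwlocEv (s : Q → K) with hev
  have hSL : ∀ s : S, (s : Q → K) ∈ L := fun s => by
    rw [← hS]; exact Submodule.subset_span s.2
  -- boundedness extends from the generators to `L`
  have hext : ∀ (z : AddMonoidAlgebra K Q) (g : A.ValueGroup), TwwEvBdd A ev z g →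
      ∀ φ ∈ L, v (twwlocEv φ z) ≤ g := by
    intro z g hz φ hφ
    rw [← hS] at hφ
    induction hφ using Submodule.span_induction with
    | mem s hs => exact hz ⟨s, hs⟩
    | zero => rw [twwlocEv_zero_fun, map_zero]; exact zero_le
    | add a b _ _ ha hb => rw [twwlocEv_add_fun]; exact v.map_add_le ha hb
    | smul r a _ ha =>
      have e : r • a = algebraMap R₀ K r • a := by
        funext P; simp [Algebra.smul_def]
      rw [e, twwlocEv_smul_fun, map_mul]
      calc v (algebraMap R₀ K r) * v (twwlocEv a z) ≤ 1 * g :=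
            mul_le_mul' ((A.valuation_le_one_iff _).mpr (hRA r)) ha
        _ = g := one_mul g
  -- sub-multiplicativity
  have hmul : ∀ (z w : AddMonoidAlgebra K Q) (g g' : A.ValueGroup), TwwEvBdd A ev z g →
      TwwEvBdd A ev w g' → TwwEvBdd A ev (z * w) (g * g') := by
    intro z w g g' hz hw s
    show v (twwlocEv (s : Q → K) (z * w)) ≤ g * g'
    rw [twwlocEv_mul]
    have key : ∀ F ∈ Submodule.span R₀ {F : Q × Q → K |
        ∃ a ∈ L, ∃ b ∈ L, F = fun PQ => a PQ.1 * b PQ.2}, v (twwlocEv₂ F z w) ≤ g * g' := by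
      intro F hF
      induction hF using Submodule.span_induction with
      | mem F hF =>
        obtain ⟨a, ha, b, hb, rfl⟩ := hF
        rw [twwlocEv₂_tensor, map_mul]
        exact mul_le_mul' (hext z g hz a ha) (hext w g' hw b hb)
      | zero => rw [twwlocEv₂_zero, map_zero]; exact zero_le
      | add F G _ _ hF hG => rw [twwlocEv₂_add]; exact v.map_add_le hF hG
      | smul r F _ hF =>
        have e : r • F = algebraMap R₀ K r • F := by
          funext P; simp [Algebra.smul_def]
        rw [e, twwlocEv₂_smul, map_mul]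
        calc v (algebraMap R₀ K r) * v (twwlocEv₂ F z w) ≤ 1 * (g * g') :=
              mul_le_mul' ((A.valuation_le_one_iff _).mpr (hRA r)) hF
          _ = g * g' := one_mul _
    exact key _ (hcomul _ (hSL s))
  have hone : TwwEvBdd A ev 1 1 := by
    intro s
    show v (twwlocEv (s : Q → K) 1) ≤ 1
    rw [AddMonoidAlgebra.one_def, twwlocEv_single, one_mul]
    exact (A.valuation_le_one_iff _).mpr (hval _ (hSL s) 0)
  -- the point `x = [q]`
  set x : AddMonoidAlgebra K Q := AddMonoidAlgebra.single q 1 with hx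
  have hxp : x ^ p = 1 := by
    rw [hx, AddMonoidAlgebra.single_pow, hq, one_pow, AddMonoidAlgebra.one_def]
  have hxev : ∀ φ : Q → K, twwlocEv φ (x - 1) = φ q - φ 0 := by
    intro φ
    rw [map_sub, hx, AddMonoidAlgebra.one_def, twwlocEv_single, twwlocEv_single, one_mul,
      one_mul]
  have hcong' : TwwEvBdd A ev (x - 1) (v c) := by
    intro s
    show v (twwlocEv (s : Q → K) (x - 1)) ≤ v c
    rw [hxev]
    exact hcong _ (hSL s)
  have h0 := tww_ev_inj ev hmul hone p hp hpK c t hct ht x hxp hcong'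
  -- conclude by separation
  refine hsep q 0 fun φ hφ => ?_
  have h1 : v (twwlocEv φ (x - 1)) ≤ 0 := by
    refine hext (x - 1) 0 (fun s => ?_) φ hφ
    rw [h0 s, map_zero]
  rw [hxev] at h1
  exact sub_eq_zero.mp ((Valuation.zero_iff v).mp (le_antisymm h1 zero_le))

end T2

end Fermat.Agent.TW.W


end ZBTW_067_0
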