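/- GENERATED FILE (helper35, build-time optimisation, NOTES/ZB.md): verbatim concatenation of the modules
   Fermat.Agent.TW.W.LocBase
   Fermat.Agent.TW.W.LocQuot
   Fermat.Agent.TW.W.LocGlob
   Fermat.Agent.TW.W.Et
   Do not edit; do not import together with these modules. -/
import Mathlib
import Fermat.Agent.ZB.TW_004
import Fermat.Agent.ZB.UNIP_006
import Fermat.Agent.ZB.TW_001
import Fermat.Agent.ZB.TW_065
import Fermat.Agent.ZB.TW_067
import Fermat.Agent.ZB.W1_003

/-! ### bundled: `Fermat.Agent.TW.W.LocBase` -/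
section ZBTW_066_0

/-!
# TW-W (W-et), local lattices 1: linear algebra over a local base

`W1-SQ` (sub-quotients of Hopf lattices) works over the base `(G_ℚ, R ⊂ ℚ)`.  The étale quotient of
a finite flat group scheme is only stable under the decomposition group, so `W-et` needs the same
theory over the base `(Γ, R₀)`, `Γ ⊂ G_ℚ` a subgroup (the inertia group) and `R₀ ⊂ ℚ̄^Γ` a principal
ideal domain with fraction field `ℚ̄^Γ`.

* `TwwLocBase Γ R₀`     : the hypotheses on the base (`R₀ → ℚ̄` injective, `Γ` fixes `R₀`, every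
  `Γ`-fixed element is a fraction of elements of `R₀`);
* `TwwLocLattice Γ act L` : `L ⊂ Map(M, ℚ̄)` is a finitely generated `R₀`-subalgebra of
  `Γ`-equivariant functions, separating the points, closed under the comultiplication;
* `twwloc_artin`        : Artin's lemma: `Γ`-equivariant functions which are linearly independent
  over `R₀` are linearly independent over `ℚ̄`;
* `twwloc_span_top`, `twwloc_exists_basis`, `twwloc_basis_span_top`, `twwloc_exists_smul_mem`.
-/

set_option autoImplicit false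
set_option linter.unusedSectionVars false
set_option linter.unusedSimpArgs false
set_option linter.style.haveILetI false

namespace Fermat.Agent.TW.W

local notation "Qb" => AlgebraicClosure ℚ

/-- The hypotheses on a local base `(Γ, R₀)`. -/
structure TwwLocBase (Γ : Subgroup (Qb ≃ₐ[ℚ] Qb)) (R₀ : Type) [CommRing R₀] [Algebra R₀ Qb] :
    Prop where
  inj : Function.Injective (algebraMap R₀ Qb)
  fixes : ∀ (r : R₀), ∀ σ ∈ Γ, σ (algebraMap R₀ Qb r) = algebraMap R₀ Qb r
  frac : ∀ x : Qb, (∀ σ ∈ Γ, σ x = x) →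
    ∃ a b : R₀, b ≠ 0 ∧ algebraMap R₀ Qb b * x = algebraMap R₀ Qb a

/-- A local Hopf lattice: a finitely generated `R₀`-algebra of `Γ`-equivariant functions on the
group `M`, separating the points and closed under the comultiplication. -/
structure TwwLocLattice (Γ : Subgroup (Qb ≃ₐ[ℚ] Qb)) {R₀ : Type} [CommRing R₀] [Algebra R₀ Qb]
    {M : Type} [AddCommGroup M] (act : (Qb ≃ₐ[ℚ] Qb) → M → M)
    (L : Subalgebra R₀ (M → Qb)) : Prop where
  fg : (Subalgebra.toSubmodule L).FG
  equivariant : ∀ h ∈ L, ∀ σ ∈ Γ, ∀ P : M, h (act σ P) = σ (h P)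
  separates : ∀ P Q : M, (∀ h ∈ L, h P = h Q) → P = Q
  comul_mem : ∀ h ∈ L, (fun PQ : M × M => h (PQ.1 + PQ.2)) ∈
    Submodule.span R₀ {F : M × M → Qb | ∃ a ∈ L, ∃ b ∈ L, F = fun PQ => a PQ.1 * b PQ.2}

/-- Pull-back of functions along a map, as an `R₀`-algebra homomorphism. -/
noncomputable def twwlocPull (R₀ : Type) [CommRing R₀] [Algebra R₀ Qb] {X Y : Type} (p : Y → X) :
    (X → Qb) →ₐ[R₀] (Y → Qb) :=
  AlgHom.pi (fun y => Pi.evalAlgHom R₀ (fun _ : X => Qb) (p y))

@[simp] theorem twwlocPull_apply (R₀ : Type) [CommRing R₀] [Algebra R₀ Qb] {X Y : Type}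
    (p : Y → X) (f : X → Qb) (y : Y) : twwlocPull R₀ p f y = f (p y) := rfl

theorem twwloc_apply_inv_apply (σ : Qb ≃ₐ[ℚ] Qb) (x : Qb) : σ (σ⁻¹ x) = x := by
  show (σ * σ⁻¹) x = x
  rw [mul_inv_cancel]; rfl

theorem twwloc_inv_apply_apply (σ : Qb ≃ₐ[ℚ] Qb) (x : Qb) : σ⁻¹ (σ x) = x := by
  show (σ⁻¹ * σ) x = x
  rw [inv_mul_cancel]; rfl

section Artin

variable {Γ : Subgroup (Qb ≃ₐ[ℚ] Qb)} {R₀ : Type} [CommRing R₀] [IsDomain R₀] [Algebra R₀ Qb]

/-- **Artin's lemma** over a local base: `Γ`-equivariant functions which are linearly independent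
over `R₀` are linearly independent over `ℚ̄`. -/
theorem twwloc_artin (hB : TwwLocBase Γ R₀) {X ι : Type*} (act : (Qb ≃ₐ[ℚ] Qb) → X → X)
    (h : ι → X → Qb) (hequiv : ∀ i, ∀ σ ∈ Γ, ∀ x : X, h i (act σ x) = σ (h i x))
    (hR : LinearIndependent R₀ h) : LinearIndependent Qb h := by
  classical
  rw [linearIndependent_iff']
  intro s
  induction s using Finset.induction_on with
  | empty => intro g _ i hi; simp at hi
  | insert a s has ih =>
    intro g hg
    -- twisting a relation by `σ`
    have twist : ∀ (t : Finset ι) (c : ι → Qb), ∑ i ∈ t, c i • h i = 0 →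
        ∀ σ ∈ Γ, ∑ i ∈ t, (σ (c i)) • h i = 0 := by
      intro t c hc σ hσ
      funext x
      have hσ' : σ⁻¹ ∈ Γ := Γ.inv_mem hσ
      have h1 := congrFun hc (act σ⁻¹ x)
      simp only [Finset.sum_apply, Pi.smul_apply, smul_eq_mul, Pi.zero_apply] at h1 ⊢
      have h2 := congrArg σ h1
      simp only [map_sum, map_mul, map_zero] at h2
      rw [← h2]
      refine Finset.sum_congr rfl fun i _ => ?_
      rw [hequiv i σ⁻¹ hσ' x, twwloc_apply_inv_apply]
    by_cases hga : g a = 0
    · have hs : ∑ i ∈ s, g i • h i = 0 := by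
        rw [Finset.sum_insert has, hga, zero_smul, zero_add] at hg
        exact hg
      intro i hi
      rcases Finset.mem_insert.1 hi with rfl | hi
      · exact hga
      · exact ih g hs i hi
    · exfalso
      set c : ι → Qb := fun i => (g a)⁻¹ * g i with hc
      have hca : c a = 1 := by simp [hc, hga]
      have hcrel : ∑ i ∈ insert a s, c i • h i = 0 := by
        have : ∑ i ∈ insert a s, c i • h i = (g a)⁻¹ • ∑ i ∈ insert a s, g i • h i := by
          rw [Finset.smul_sum]
          refine Finset.sum_congr rfl fun i _ => ?_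
          simp [hc, mul_smul]
        rw [this, hg, smul_zero]
      have hfix : ∀ i ∈ insert a s, ∀ σ ∈ Γ, σ (c i) = c i := by
        intro i hi σ hσ
        have h1 := twist _ c hcrel σ hσ
        have h2 : ∑ i ∈ s, (σ (c i) - c i) • h i = 0 := by
          have h3 : ∑ i ∈ insert a s, (σ (c i) - c i) • h i = 0 := by
            simp only [sub_smul, Finset.sum_sub_distrib, h1, hcrel, sub_zero]
          rw [Finset.sum_insert has, hca, map_one, sub_self, zero_smul, zero_add] at h3
          exact h3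
        rcases Finset.mem_insert.1 hi with rfl | hi
        · rw [hca, map_one]
        · exact sub_eq_zero.1 (ih _ h2 i hi)
      choose! na nb hnb hnab using fun i (hi : i ∈ insert a s) => hB.frac (c i) (hfix i hi)
      set t := insert a s with ht
      set q : ι → R₀ := fun i => (∏ j ∈ t.erase i, nb j) * na i with hq
      have hqc : ∀ i ∈ t, algebraMap R₀ Qb (q i) = algebraMap R₀ Qb (∏ j ∈ t, nb j) * c i := by
        intro i hi
        rw [← Finset.mul_prod_erase t nb hi]
        simp only [hq, map_mul]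
        rw [← hnab i hi]
        ring
      have hqrel : ∑ i ∈ t, q i • h i = 0 := by
        have h1 : ∑ i ∈ t, q i • h i =
            algebraMap R₀ Qb (∏ j ∈ t, nb j) • ∑ i ∈ t, c i • h i := by
          rw [Finset.smul_sum]
          refine Finset.sum_congr rfl fun i hi => ?_
          funext x
          have e1 : (q i • h i) x = algebraMap R₀ Qb (q i) * h i x := by
            rw [Pi.smul_apply, Algebra.smul_def]
          have e2 : (algebraMap R₀ Qb (∏ j ∈ t, nb j) • c i • h i) x =
              algebraMap R₀ Qb (∏ j ∈ t, nb j) * (c i * h i x) := by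
            simp only [Pi.smul_apply, smul_eq_mul]
          rw [e1, e2, hqc i hi, mul_assoc]
        rw [h1, hcrel, smul_zero]
      have h0 := linearIndependent_iff'.1 hR t q hqrel a (Finset.mem_insert_self a s)
      have h1 := hqc a (Finset.mem_insert_self a s)
      rw [h0, map_zero, hca, mul_one] at h1
      have h2 : (∏ j ∈ t, nb j) = 0 := hB.inj (by rw [← h1, map_zero])
      obtain ⟨j, hj, hj0⟩ := Finset.prod_eq_zero_iff.1 h2
      exact hnb j hj hj0

end Artin

section SpanTop

variable {R₀ : Type} [CommRing R₀] [Algebra R₀ Qb] {M : Type}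

/-- The `ℚ̄`-span of a subalgebra is a `ℚ̄`-subalgebra. -/
theorem twwloc_span_eq_adjoin (L : Subalgebra R₀ (M → Qb)) :
    Submodule.span Qb (L : Set (M → Qb)) =
      Subalgebra.toSubmodule (Algebra.adjoin Qb (L : Set (M → Qb))) := by
  rw [Algebra.adjoin_eq_span]
  congr 1
  have h1 : ((L.toSubsemiring.toSubmonoid : Submonoid (M → Qb)) : Set (M → Qb)) =
      (L : Set (M → Qb)) := rfl
  rw [← h1, Submonoid.closure_eq]

/-- Over a finite set, the `ℚ̄`-span of a separating subalgebra is everything. -/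
theorem twwloc_span_top [Finite M] (L : Subalgebra R₀ (M → Qb))
    (hsep : ∀ P Q : M, (∀ h ∈ L, h P = h Q) → P = Q) :
    Submodule.span Qb (L : Set (M → Qb)) = ⊤ := by
  classical
  haveI : Fintype M := Fintype.ofFinite M
  rw [twwloc_span_eq_adjoin]
  set A := Algebra.adjoin Qb (L : Set (M → Qb)) with hA
  have hex : ∀ P Q : M, P ≠ Q → ∃ h ∈ L, h P ≠ h Q := by
    intro P Q hPQ
    by_contra hcon
    refine hPQ (hsep P Q fun h hh => ?_)
    by_contra hne
    exact hcon ⟨h, hh, hne⟩
  have hind : ∀ P : M, (fun x => if x = P then (1 : Qb) else 0) ∈ A := by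
    intro P
    have hfac : ∀ Q : M, ∃ g ∈ A, g P = 1 ∧ (Q ≠ P → g Q = 0) := by
      intro Q
      by_cases hQ : Q = P
      · exact ⟨1, A.one_mem, rfl, fun h => absurd hQ h⟩
      · obtain ⟨h, hh, hne⟩ := hex P Q (Ne.symm hQ)
        have hne' : h P - h Q ≠ 0 := sub_ne_zero.2 hne
        refine ⟨(h P - h Q)⁻¹ • (h - algebraMap Qb _ (h Q)),
          A.smul_mem (A.sub_mem (Algebra.subset_adjoin hh) (A.algebraMap_mem _)) _, ?_, ?_⟩
        · simp [Pi.algebraMap_apply, hne']
        · intro _
          simp [Pi.algebraMap_apply]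
    choose g hgA hgP hgQ using hfac
    have h1 : (∏ Q ∈ Finset.univ.erase P, g Q) ∈ A := A.prod_mem fun Q _ => hgA Q
    convert h1 using 1
    funext x
    rw [Finset.prod_apply]
    by_cases hx : x = P
    · subst hx
      rw [if_pos rfl]
      symm
      refine Finset.prod_eq_one fun Q hQ => ?_
      exact hgP Q
    · rw [if_neg hx]
      symm
      refine Finset.prod_eq_zero (Finset.mem_erase.2 ⟨hx, Finset.mem_univ x⟩) ?_
      exact hgQ x hx
  rw [eq_top_iff]
  intro f _
  have hf : f = ∑ P : M, f P • (fun x => if x = P then (1 : Qb) else 0) := by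
    funext x
    simp [Finset.sum_apply]
  rw [hf]
  exact (Subalgebra.mem_toSubmodule A).2 (A.sum_mem fun P _ => A.smul_mem (hind P) _)

end SpanTop

section Basis

variable {Γ : Subgroup (Qb ≃ₐ[ℚ] Qb)} {R₀ : Type} [CommRing R₀] [IsDomain R₀] [Algebra R₀ Qb]
  {M : Type} {act : (Qb ≃ₐ[ℚ] Qb) → M → M} {L : Subalgebra R₀ (M → Qb)}

/-- Evaluation of a scalar multiple in a lattice. -/
theorem twwloc_coe_smul_apply (L : Subalgebra R₀ (M → Qb)) (r : R₀) (h : L) (Q : M) :
    ((r • h : L) : M → Qb) Q = algebraMap R₀ Qb r * (h : M → Qb) Q := by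
  show (r • (h : M → Qb)) Q = _
  rw [Pi.smul_apply, Algebra.smul_def]

/-- A lattice of functions is torsion free. -/
theorem twwloc_isTorsionFree (hB : TwwLocBase Γ R₀) (L : Subalgebra R₀ (M → Qb)) :
    Module.IsTorsionFree R₀ L := by
  refine Module.IsTorsionFree.of_smul_eq_zero fun r h hrh => ?_
  by_cases hr : r = 0
  · exact Or.inl hr
  · right
    apply Subtype.ext
    funext P
    have h1 : r • ((h : M → Qb) P) = 0 :=
      congrArg (fun x : L => (x : M → Qb) P) hrh
    rw [Algebra.smul_def] at h1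
    rcases mul_eq_zero.1 h1 with h2 | h2
    · exact absurd (hB.inj (by rw [h2, map_zero])) hr
    · simpa using h2

variable [IsPrincipalIdealRing R₀]

/-- A finitely generated lattice of `Γ`-equivariant functions has an `R₀`-basis which is linearly
independent over `ℚ̄`. -/
theorem twwloc_exists_basis (hB : TwwLocBase Γ R₀) (hfg : (Subalgebra.toSubmodule L).FG)
    (hequiv : ∀ h ∈ L, ∀ σ ∈ Γ, ∀ P : M, h (act σ P) = σ (h P)) :
    ∃ (n : ℕ) (b : Module.Basis (Fin n) R₀ L),
      LinearIndependent Qb (fun i => ((b i : L) : M → Qb)) := by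
  haveI : Module.Finite R₀ L := Module.Finite.iff_fg.2 hfg
  haveI : Module.IsTorsionFree R₀ L := twwloc_isTorsionFree hB L
  haveI : Module.Free R₀ L := Module.free_of_finite_type_torsion_free'
  refine ⟨_, Module.finBasis R₀ L, ?_⟩
  set b := Module.finBasis R₀ L
  have h1 : LinearIndependent R₀ (fun i => ((b i : L) : M → Qb)) := by
    have := b.linearIndependent.map' (Subalgebra.toSubmodule L).subtype
      (Submodule.ker_subtype _)
    exact this
  exact twwloc_artin hB act _ (fun i σ hσ x => hequiv _ (b i).2 σ hσ x) h1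

omit [IsDomain R₀] [IsPrincipalIdealRing R₀] in
/-- An `R₀`-basis of a separating lattice spans all functions over `ℚ̄`. -/
theorem twwloc_basis_span_top [Finite M] (hsep : ∀ P Q : M, (∀ h ∈ L, h P = h Q) → P = Q)
    {n : ℕ} (b : Module.Basis (Fin n) R₀ L) :
    Submodule.span Qb (Set.range fun i => ((b i : L) : M → Qb)) = ⊤ := by
  rw [eq_top_iff, ← twwloc_span_top L hsep, Submodule.span_le]
  intro h hh
  have h1 : (⟨h, hh⟩ : L) = ∑ i, b.repr ⟨h, hh⟩ i • b i := (b.sum_repr _).symm
  have h2 : h = ∑ i, (algebraMap R₀ Qb (b.repr ⟨h, hh⟩ i)) • ((b i : L) : M → Qb) := by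
    have h3 := congrArg (fun x : L => (x : M → Qb)) h1
    simp only [AddSubmonoidClass.coe_finsetSum] at h3
    refine h3.trans ?_
    refine Finset.sum_congr rfl fun i _ => ?_
    funext x
    simp [Algebra.smul_def]
  rw [h2]
  exact Submodule.sum_mem _ fun i _ =>
    Submodule.smul_mem _ _ (Submodule.subset_span ⟨i, rfl⟩)

/-- **`Frac(R₀) L = Map_Γ(M, ℚ̄)`**: every `Γ`-equivariant function has a non-zero multiple in a
separating lattice `L`. -/
theorem twwloc_exists_smul_mem [Finite M] (hB : TwwLocBase Γ R₀)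
    (hfg : (Subalgebra.toSubmodule L).FG)
    (hequiv : ∀ h ∈ L, ∀ σ ∈ Γ, ∀ P : M, h (act σ P) = σ (h P))
    (hsep : ∀ P Q : M, (∀ h ∈ L, h P = h Q) → P = Q)
    (f : M → Qb) (hf : ∀ σ ∈ Γ, ∀ P : M, f (act σ P) = σ (f P)) :
    ∃ d : R₀, d ≠ 0 ∧ d • f ∈ L := by
  classical
  obtain ⟨n, b, hli⟩ := twwloc_exists_basis hB hfg hequiv
  have hspan := twwloc_basis_span_top hsep b
  set v : Fin n → M → Qb := fun i => ((b i : L) : M → Qb) with hv
  have hfmem : f ∈ Submodule.span Qb (Set.range v) := by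
    rw [hspan]; trivial
  obtain ⟨c, hc⟩ := (Submodule.mem_span_range_iff_exists_fun Qb).1 hfmem
  -- the coefficients are `Γ`-invariant
  have hfix : ∀ σ ∈ Γ, ∀ i : Fin n, σ (c i) = c i := by
    intro σ hσ
    have hσ' : σ⁻¹ ∈ Γ := Γ.inv_mem hσ
    have h1 : ∑ i, σ (c i) • v i = f := by
      funext x
      have h2 := congrFun hc (act σ⁻¹ x)
      simp only [Finset.sum_apply, Pi.smul_apply, smul_eq_mul] at h2 ⊢
      have h3 := congrArg σ h2
      rw [hf σ⁻¹ hσ' x, twwloc_apply_inv_apply] at h3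
      simp only [map_sum, map_mul] at h3
      rw [← h3]
      refine Finset.sum_congr rfl fun i _ => ?_
      have h5 : v i (act σ⁻¹ x) = σ⁻¹ (v i x) := hequiv _ (b i).2 σ⁻¹ hσ' x
      rw [h5, twwloc_apply_inv_apply]
    have h4 : ∑ i, (σ (c i) - c i) • v i = 0 := by
      simp only [sub_smul, Finset.sum_sub_distrib, h1, hc, sub_self]
    intro i
    exact sub_eq_zero.1 (Fintype.linearIndependent_iff.1 hli _ h4 i)
  choose na nb hnb hnab using fun i => hB.frac (c i) (fun σ hσ => hfix σ hσ i)
  refine ⟨∏ i, nb i, Finset.prod_ne_zero_iff.2 fun i _ => hnb i, ?_⟩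
  set q : Fin n → R₀ := fun i => (∏ j ∈ Finset.univ.erase i, nb j) * na i with hq
  have hqc : ∀ i, algebraMap R₀ Qb (q i) = algebraMap R₀ Qb (∏ j, nb j) * c i := by
    intro i
    rw [← Finset.mul_prod_erase Finset.univ nb (Finset.mem_univ i)]
    simp only [hq, map_mul]
    rw [← hnab i]
    ring
  have h5 : (∏ i, nb i) • f = ∑ i, q i • v i := by
    rw [← hc, Finset.smul_sum]
    refine Finset.sum_congr rfl fun i _ => ?_
    funext x
    have e1 : (q i • v i) x = algebraMap R₀ Qb (q i) * v i x := by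
      rw [Pi.smul_apply, Algebra.smul_def]
    have e2 : ((∏ i, nb i) • c i • v i) x =
        algebraMap R₀ Qb (∏ j, nb j) * (c i * v i x) := by
      rw [Pi.smul_apply, Algebra.smul_def, Pi.smul_apply, smul_eq_mul]
    rw [e1, e2, hqc i, mul_assoc]
  rw [h5]
  exact L.sum_mem fun i _ => L.smul_mem (b i).2 _

end Basis

end Fermat.Agent.TW.W


end ZBTW_066_0

/-! ### bundled: `Fermat.Agent.TW.W.LocQuot` -/
section ZBTW_066_1

/-!
# TW-W (W-et), local lattices 2: quotients of local Hopf lattices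

`twwloc_quot`: if `L` is a local Hopf lattice on the finite group `M` over the base `(Γ, R₀)` and
`π : M → M''` is a surjective `Γ`-equivariant additive map, then
`L'' = {φ : M'' → ℚ̄ | φ ∘ π ∈ L}` is a local Hopf lattice on `M''`.
(Port of `W1.sq_quot` from the base `(G_ℚ, R ⊂ ℚ)` to a local base.)
-/

set_option autoImplicit false
set_option linter.unusedSectionVars false
set_option linter.unusedSimpArgs false
set_option linter.style.haveILetI false

namespace Fermat.Agent.TW.W

local notation "Qb" => AlgebraicClosure ℚ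

section Quot

variable {Γ : Subgroup (Qb ≃ₐ[ℚ] Qb)} {R₀ : Type} [CommRing R₀] [IsDomain R₀] [Algebra R₀ Qb]
  {M M'' : Type} [AddCommGroup M] [AddCommGroup M'']
  {act : (Qb ≃ₐ[ℚ] Qb) → M → M} {act'' : (Qb ≃ₐ[ℚ] Qb) → M'' → M''}
  {L : Subalgebra R₀ (M → Qb)}

/-- Pull-back along a surjective map is injective. -/
theorem twwloc_pull_injective {π : M → M''} (hπ : Function.Surjective π) :
    Function.Injective (twwlocPull R₀ π) := by
  intro f g hfg
  funext P''
  obtain ⟨P, rfl⟩ := hπ P''
  exact congrFun hfg P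

theorem twwloc_mem_comap {π : M → M''} {φ : M'' → Qb} :
    φ ∈ L.comap (twwlocPull R₀ π) ↔ (fun P => φ (π P)) ∈ L := Iff.rfl

/-- The action is by permutations (1). -/
theorem twwloc_act_inv_act
    (hequiv : ∀ h ∈ L, ∀ σ ∈ Γ, ∀ P : M, h (act σ P) = σ (h P))
    (hsep : ∀ P Q : M, (∀ h ∈ L, h P = h Q) → P = Q)
    {σ : Qb ≃ₐ[ℚ] Qb} (hσ : σ ∈ Γ) (P : M) : act σ⁻¹ (act σ P) = P := by
  refine hsep _ _ fun h hh => ?_
  rw [hequiv h hh _ (Γ.inv_mem hσ), hequiv h hh _ hσ, twwloc_inv_apply_apply]

/-- The action is by permutations (2). -/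
theorem twwloc_act_act_inv
    (hequiv : ∀ h ∈ L, ∀ σ ∈ Γ, ∀ P : M, h (act σ P) = σ (h P))
    (hsep : ∀ P Q : M, (∀ h ∈ L, h P = h Q) → P = Q)
    {σ : Qb ≃ₐ[ℚ] Qb} (hσ : σ ∈ Γ) (P : M) : act σ (act σ⁻¹ P) = P := by
  refine hsep _ _ fun h hh => ?_
  rw [hequiv h hh _ hσ, hequiv h hh _ (Γ.inv_mem hσ), twwloc_apply_inv_apply]

/-- The sum of a function over the fibres of `π`. -/
noncomputable def twwlocTrace [Fintype M] [DecidableEq M''] (π : M → M'')
    (h : M → Qb) : M'' → Qb :=
  fun P'' => ∑ x ∈ Finset.univ.filter (fun x => π x = P''), h x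

/-- The trace of an element of `L` is equivariant. -/
theorem twwloc_trace_equivariant [Fintype M] [DecidableEq M'']
    (hequiv : ∀ h ∈ L, ∀ σ ∈ Γ, ∀ P : M, h (act σ P) = σ (h P))
    (hsep : ∀ P Q : M, (∀ h ∈ L, h P = h Q) → P = Q)
    {π : M → M''} (hπ : Function.Surjective π)
    (hπequiv : ∀ σ ∈ Γ, ∀ P, π (act σ P) = act'' σ (π P))
    (h : M → Qb) (hh : h ∈ L) {σ : Qb ≃ₐ[ℚ] Qb} (hσ : σ ∈ Γ) (P'' : M'') :
    twwlocTrace π h (act'' σ P'') = σ (twwlocTrace π h P'') := by
  unfold twwlocTrace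
  rw [map_sum]
  symm
  have hσ' : σ⁻¹ ∈ Γ := Γ.inv_mem hσ
  refine Finset.sum_nbij' (fun x => act σ x) (fun y => act σ⁻¹ y) ?_ ?_ ?_ ?_ ?_
  · intro a ha
    simp only [Finset.mem_filter, Finset.mem_univ, true_and] at ha ⊢
    rw [hπequiv σ hσ, ha]
  · intro y hy
    simp only [Finset.mem_filter, Finset.mem_univ, true_and] at hy ⊢
    obtain ⟨x₀, rfl⟩ := hπ P''
    rw [hπequiv _ hσ', hy, ← hπequiv _ hσ, ← hπequiv _ hσ', twwloc_act_inv_act hequiv hsep hσ]
  · intro a _
    exact twwloc_act_inv_act hequiv hsep hσ a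
  · intro y _
    exact twwloc_act_act_inv hequiv hsep hσ y
  · intro a _
    exact (hequiv h hh σ hσ a).symm

variable [IsPrincipalIdealRing R₀]

/-- The quotient lattice is finitely generated. -/
theorem twwloc_quot_fg (hfg : (Subalgebra.toSubmodule L).FG) {π : M → M''}
    (hπ : Function.Surjective π) :
    (Subalgebra.toSubmodule (L.comap (twwlocPull R₀ π))).FG := by
  haveI : IsNoetherian R₀ (Subalgebra.toSubmodule L) := isNoetherian_of_fg_of_noetherian _ hfg
  refine Submodule.fg_of_fg_map_injective (twwlocPull R₀ π).toLinearMap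
    (twwloc_pull_injective (R₀ := R₀) hπ) ?_
  have hle : (Subalgebra.toSubmodule (L.comap (twwlocPull R₀ π))).map
      (twwlocPull R₀ π).toLinearMap ≤ Subalgebra.toSubmodule L := by
    rintro _ ⟨f, hf, rfl⟩
    exact hf
  exact isNoetherian_submodule.1 inferInstance _ hle

/-- The quotient lattice is equivariant. -/
theorem twwloc_quot_equivariant
    (hequiv : ∀ h ∈ L, ∀ σ ∈ Γ, ∀ P : M, h (act σ P) = σ (h P))
    {π : M → M''} (hπ : Function.Surjective π)
    (hπequiv : ∀ σ ∈ Γ, ∀ P, π (act σ P) = act'' σ (π P)) :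
    ∀ φ ∈ L.comap (twwlocPull R₀ π), ∀ σ ∈ Γ, ∀ P : M'', φ (act'' σ P) = σ (φ P) := by
  intro φ hφ σ hσ P''
  obtain ⟨P, rfl⟩ := hπ P''
  rw [← hπequiv σ hσ]
  exact hequiv _ hφ σ hσ P

/-- The quotient lattice separates points. -/
theorem twwloc_quot_separates [Finite M] (hB : TwwLocBase Γ R₀)
    (hfg : (Subalgebra.toSubmodule L).FG)
    (hequiv : ∀ h ∈ L, ∀ σ ∈ Γ, ∀ P : M, h (act σ P) = σ (h P))
    (hsep : ∀ P Q : M, (∀ h ∈ L, h P = h Q) → P = Q)
    {π : M → M''} (hπ : Function.Surjective π)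
    (hπequiv : ∀ σ ∈ Γ, ∀ P, π (act σ P) = act'' σ (π P)) :
    ∀ P Q : M'', (∀ φ ∈ L.comap (twwlocPull R₀ π), φ P = φ Q) → P = Q := by
  classical
  haveI : Fintype M := Fintype.ofFinite M
  intro P'' Q'' hPQ
  by_contra hne
  -- traces agree
  have htr : ∀ h ∈ L, twwlocTrace π h P'' = twwlocTrace π h Q'' := by
    intro h hh
    have he : ∀ σ ∈ Γ, ∀ P : M,
        (fun P => twwlocTrace π h (π P)) (act σ P) = σ ((fun P => twwlocTrace π h (π P)) P) := by
      intro σ hσ P
      show twwlocTrace π h (π (act σ P)) = σ (twwlocTrace π h (π P))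
      rw [hπequiv σ hσ]
      exact twwloc_trace_equivariant hequiv hsep hπ hπequiv h hh hσ (π P)
    obtain ⟨d, hd0, hd⟩ := twwloc_exists_smul_mem hB hfg hequiv hsep
      (fun P => twwlocTrace π h (π P)) he
    have h1 : d • twwlocTrace π h ∈ L.comap (twwlocPull R₀ π) := by
      rw [twwloc_mem_comap]
      exact hd
    have h2 := hPQ _ h1
    simp only [Pi.smul_apply, Algebra.smul_def] at h2
    have hdK : algebraMap R₀ Qb d ≠ 0 := fun h0 => hd0 (hB.inj (by rw [h0, map_zero]))
    exact mul_left_cancel₀ hdK h2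
  -- the linear functional
  let Λ : (M → Qb) →ₗ[Qb] Qb :=
    { toFun := fun f => twwlocTrace π f P'' - twwlocTrace π f Q''
      map_add' := by
        intro f g
        simp only [twwlocTrace, Pi.add_apply, Finset.sum_add_distrib]
        ring
      map_smul' := by
        intro c f
        simp only [twwlocTrace, Pi.smul_apply, smul_eq_mul, ← Finset.mul_sum, RingHom.id_apply]
        ring }
  have hΛ : Submodule.span Qb (L : Set (M → Qb)) ≤ LinearMap.ker Λ := by
    rw [Submodule.span_le]
    intro h hh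
    rw [SetLike.mem_coe, LinearMap.mem_ker]
    show twwlocTrace π h P'' - twwlocTrace π h Q'' = 0
    rw [htr h hh, sub_self]
  rw [twwloc_span_top L hsep] at hΛ
  have h3 : Λ (fun x => if π x = P'' then 1 else 0) = 0 :=
    LinearMap.mem_ker.1 (hΛ trivial)
  have h4 : Λ (fun x => if π x = P'' then 1 else 0) =
      ((Finset.univ.filter (fun x => π x = P'')).card : Qb) := by
    show twwlocTrace π _ P'' - twwlocTrace π _ Q'' = _
    have h5 : twwlocTrace π (fun x => if π x = P'' then (1 : Qb) else 0) P'' =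
        ((Finset.univ.filter (fun x => π x = P'')).card : Qb) := by
      unfold twwlocTrace
      rw [Finset.sum_congr rfl (g := fun _ => (1 : Qb))]
      · simp
      · intro x hx
        simp only [Finset.mem_filter, Finset.mem_univ, true_and] at hx
        show (if π x = P'' then (1 : Qb) else 0) = 1
        rw [if_pos hx]
    have h6 : twwlocTrace π (fun x => if π x = P'' then (1 : Qb) else 0) Q'' = 0 := by
      unfold twwlocTrace
      refine Finset.sum_eq_zero fun x hx => ?_
      simp only [Finset.mem_filter, Finset.mem_univ, true_and] at hx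
      show (if π x = P'' then (1 : Qb) else 0) = 0
      rw [if_neg]
      intro h7
      exact hne (h7.symm.trans hx)
    rw [h5, h6, sub_zero]
  rw [h4] at h3
  obtain ⟨x₀, hx₀⟩ := hπ P''
  have h8 : (Finset.univ.filter (fun x => π x = P'')).card ≠ 0 := by
    refine Finset.card_ne_zero.2 ⟨x₀, ?_⟩
    simp [hx₀]
  exact h8 (Nat.cast_eq_zero.1 h3)

omit [IsDomain R₀] [IsPrincipalIdealRing R₀] [AddCommGroup M] in
/-- Comparison of coefficients with respect to a linearly independent family. -/
theorem twwloc_coeff_eq {X Y : Type} {n : ℕ} (v : Fin n → Y → Qb)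
    (hv : LinearIndependent Qb v)
    (g : Fin n → X → Qb) (x x' : X)
    (h : ∀ y, ∑ j, g j x * v j y = ∑ j, g j x' * v j y) : ∀ j, g j x = g j x' := by
  have h1 : ∑ j, (g j x - g j x') • v j = 0 := by
    funext y
    simp only [Finset.sum_apply, Pi.smul_apply, smul_eq_mul, Pi.zero_apply, sub_mul,
      Finset.sum_sub_distrib]
    rw [h y, sub_self]
  intro j
  exact sub_eq_zero.1 (Fintype.linearIndependent_iff.1 hv _ h1 j)

omit [IsDomain R₀] [IsPrincipalIdealRing R₀] in
/-- A function invariant under translation by the kernel of `π` factors through `π`. -/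
theorem twwloc_descend (π : M →+ M'') (hπ : Function.Surjective π)
    (g : M → Qb) (hinv : ∀ P m, π m = 0 → g (P + m) = g P) :
    ∃ g'' : M'' → Qb, ∀ P, g'' (π P) = g P := by
  refine ⟨fun P'' => g (Function.surjInv hπ P''), fun P => ?_⟩
  have h1 : π (Function.surjInv hπ (π P)) = π P := Function.surjInv_eq hπ _
  have h2 : π (P - Function.surjInv hπ (π P)) = 0 := by rw [map_sub, h1, sub_self]
  have h3 := hinv (Function.surjInv hπ (π P)) _ h2
  rw [add_sub_cancel] at h3
  exact h3.symm

/-- The quotient lattice is closed under the comultiplication. -/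
theorem twwloc_quot_comul [Finite M] (hB : TwwLocBase Γ R₀) (hL : TwwLocLattice Γ act L)
    (π : M →+ M'') (hπ : Function.Surjective π)
    (hπequiv : ∀ σ ∈ Γ, ∀ P, π (act σ P) = act'' σ (π P)) :
    ∀ φ ∈ L.comap (twwlocPull R₀ π), (fun PQ : M'' × M'' => φ (PQ.1 + PQ.2)) ∈
      Submodule.span R₀ {F : M'' × M'' → Qb |
        ∃ a ∈ L.comap (twwlocPull R₀ π), ∃ b ∈ L.comap (twwlocPull R₀ π),
          F = fun PQ => a PQ.1 * b PQ.2} := by
  classical
  intro φ hφ
  obtain ⟨n, y, hy⟩ := twwloc_exists_basis hB hL.fg hL.equivariant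
  have hfg'' := twwloc_quot_fg hL.fg hπ
  have hequiv'' := twwloc_quot_equivariant (act'' := act'') hL.equivariant hπ hπequiv
  obtain ⟨k, u, hu⟩ := twwloc_exists_basis hB hfg'' hequiv''
  -- the pulled back basis of `L''` is linearly independent on `M`
  have hu' : LinearIndependent Qb
      (fun i => fun P : M => ((u i : L.comap (twwlocPull R₀ π)) : M'' → Qb) (π P)) := by
    have h1 := hu.map' (LinearMap.funLeft Qb Qb π)
      (LinearMap.ker_eq_bot.2 (LinearMap.funLeft_injective_of_surjective _ _ π hπ))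
    exact h1
  -- Step 1: expansion of `F` in the second variable
  have hstep1 : ∀ F ∈ Submodule.span R₀ {F : M × M → Qb |
      ∃ a ∈ L, ∃ b ∈ L, F = fun PQ => a PQ.1 * b PQ.2},
      ∃ g : Fin n → M → Qb, (∀ j, g j ∈ L) ∧
        ∀ P Q, F (P, Q) = ∑ j, g j P * ((y j : L) : M → Qb) Q := by
    intro F hF
    induction hF using Submodule.span_induction with
    | mem F hF =>
      obtain ⟨a, ha, b, hb, rfl⟩ := hF
      refine ⟨fun j => y.repr ⟨b, hb⟩ j • a, fun j => L.smul_mem ha _, fun P Q => ?_⟩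
      have h1 : (⟨b, hb⟩ : L) = ∑ j, y.repr ⟨b, hb⟩ j • y j := (y.sum_repr _).symm
      have h2 := congrArg (fun x : L => (x : M → Qb) Q) h1
      simp only [AddSubmonoidClass.coe_finsetSum, Finset.sum_apply] at h2
      show a P * b Q = _
      rw [h2, Finset.mul_sum]
      refine Finset.sum_congr rfl fun j _ => ?_
      rw [twwloc_coe_smul_apply]
      show _ = (y.repr ⟨b, hb⟩ j • a) P * _
      rw [Pi.smul_apply, Algebra.smul_def]
      ring
    | zero =>
      exact ⟨fun _ => 0, fun _ => L.zero_mem, fun P Q => by simp⟩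
    | add F G _ _ hF hG =>
      obtain ⟨g, hg, hgF⟩ := hF
      obtain ⟨g', hg', hgG⟩ := hG
      refine ⟨fun j => g j + g' j, fun j => L.add_mem (hg j) (hg' j), fun P Q => ?_⟩
      simp only [Pi.add_apply, hgF, hgG, add_mul, Finset.sum_add_distrib]
    | smul r F _ hF =>
      obtain ⟨g, hg, hgF⟩ := hF
      refine ⟨fun j => r • g j, fun j => L.smul_mem (hg j) _, fun P Q => ?_⟩
      simp only [Pi.smul_apply, hgF, Algebra.smul_def]
      rw [Finset.mul_sum]
      refine Finset.sum_congr rfl fun j _ => ?_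
      ring
  obtain ⟨g, hg, hgF⟩ := hstep1 _ (hL.comul_mem _ hφ)
  have hF : ∀ P Q : M, φ (π (P + Q)) = ∑ j, g j P * ((y j : L) : M → Qb) Q :=
    fun P Q => hgF P Q
  -- Step 2: the `g j` are invariant under the kernel
  have hginv : ∀ j P m, π m = 0 → g j (P + m) = g j P := by
    intro j P m hm
    refine twwloc_coeff_eq _ hy g (P + m) P (fun Q => ?_) j
    rw [← hF, ← hF]
    congr 1
    rw [map_add, map_add, map_add, hm, add_zero]
  choose g'' hg'' using fun j => twwloc_descend π hπ (g j) (hginv j)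
  have hg''mem : ∀ j, g'' j ∈ L.comap (twwlocPull R₀ π) := by
    intro j
    rw [twwloc_mem_comap]
    have : (fun P => g'' j (π P)) = g j := funext (hg'' j)
    rw [this]
    exact hg j
  -- Step 3: expansion in the basis of `L''`
  have hexp : ∀ j (P'' : M''), g'' j P'' =
      ∑ i, algebraMap R₀ Qb (u.repr ⟨g'' j, hg''mem j⟩ i) *
        ((u i : L.comap (twwlocPull R₀ π)) : M'' → Qb) P'' := by
    intro j P''
    have h1 : (⟨g'' j, hg''mem j⟩ : L.comap (twwlocPull R₀ π)) =
        ∑ i, u.repr ⟨g'' j, hg''mem j⟩ i • u i := (u.sum_repr _).symm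
    have h2 := congrArg
      (fun x : L.comap (twwlocPull R₀ π) => (x : M'' → Qb) P'') h1
    simp only [AddSubmonoidClass.coe_finsetSum, Finset.sum_apply] at h2
    refine h2.trans ?_
    refine Finset.sum_congr rfl fun i _ => ?_
    exact twwloc_coe_smul_apply _ _ _ _
  set kk : Fin k → M → Qb := fun i =>
    ∑ j, u.repr ⟨g'' j, hg''mem j⟩ i • ((y j : L) : M → Qb) with hkk
  have hkkmem : ∀ i, kk i ∈ L := fun i =>
    L.sum_mem fun j _ => L.smul_mem (y j).2 _
  have hF2 : ∀ P Q : M, φ (π (P + Q)) =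
      ∑ i, kk i Q * ((u i : L.comap (twwlocPull R₀ π)) : M'' → Qb) (π P) := by
    intro P Q
    rw [hF]
    have h1 : ∀ j, g j P = ∑ i, algebraMap R₀ Qb (u.repr ⟨g'' j, hg''mem j⟩ i) *
        ((u i : L.comap (twwlocPull R₀ π)) : M'' → Qb) (π P) := by
      intro j
      rw [← hg'' j P, hexp]
    simp only [h1, hkk, Finset.sum_apply, Pi.smul_apply, Algebra.smul_def, Finset.sum_mul]
    rw [Finset.sum_comm]
    refine Finset.sum_congr rfl fun i _ => ?_
    refine Finset.sum_congr rfl fun j _ => ?_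
    rw [Pi.mul_apply, Pi.algebraMap_apply]
    ring
  -- Step 4: the `kk i` are invariant under the kernel
  have hkinv : ∀ i Q m, π m = 0 → kk i (Q + m) = kk i Q := by
    intro i Q m hm
    refine twwloc_coeff_eq _ hu' kk (Q + m) Q (fun P => ?_) i
    show ∑ i, kk i (Q + m) * ((u i : L.comap (twwlocPull R₀ π)) : M'' → Qb) (π P) =
      ∑ i, kk i Q * ((u i : L.comap (twwlocPull R₀ π)) : M'' → Qb) (π P)
    rw [← hF2, ← hF2]
    congr 1
    rw [map_add, map_add, map_add, hm, add_zero]
  choose k'' hk'' using fun i => twwloc_descend π hπ (kk i) (hkinv i)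
  have hk''mem : ∀ i, k'' i ∈ L.comap (twwlocPull R₀ π) := by
    intro i
    rw [twwloc_mem_comap]
    have : (fun P => k'' i (π P)) = kk i := funext (hk'' i)
    rw [this]
    exact hkkmem i
  -- Step 5
  have hfinal : (fun PQ : M'' × M'' => φ (PQ.1 + PQ.2)) =
      ∑ i, (fun PQ : M'' × M'' =>
        ((u i : L.comap (twwlocPull R₀ π)) : M'' → Qb) PQ.1 * k'' i PQ.2) := by
    funext ⟨P'', Q''⟩
    obtain ⟨P, rfl⟩ := hπ P''
    obtain ⟨Q, rfl⟩ := hπ Q''
    rw [Finset.sum_apply]
    show φ (π P + π Q) = _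
    rw [← map_add, hF2]
    refine Finset.sum_congr rfl fun i _ => ?_
    rw [hk'' i Q, mul_comm]
  rw [hfinal]
  exact Submodule.sum_mem _ fun i _ =>
    Submodule.subset_span ⟨_, (u i).2, _, hk''mem i, rfl⟩

/-- **(local SQ2)** The quotient of a local Hopf lattice by a `Γ`-equivariant surjection is a
local Hopf lattice. -/
theorem twwloc_quot [Finite M] (hB : TwwLocBase Γ R₀) (hL : TwwLocLattice Γ act L)
    (π : M →+ M'') (hπ : Function.Surjective π)
    (hπequiv : ∀ σ ∈ Γ, ∀ P, π (act σ P) = act'' σ (π P)) :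
    TwwLocLattice Γ act'' (L.comap (twwlocPull R₀ π)) where
  fg := twwloc_quot_fg hL.fg hπ
  equivariant := twwloc_quot_equivariant hL.equivariant hπ hπequiv
  separates := twwloc_quot_separates hB hL.fg hL.equivariant hL.separates hπ hπequiv
  comul_mem := twwloc_quot_comul hB hL π hπ hπequiv

end Quot

end Fermat.Agent.TW.W


end ZBTW_066_1

/-! ### bundled: `Fermat.Agent.TW.W.LocGlob` -/
section ZBTW_066_2

/-!
# TW-W (W-et), local lattices 4: the local lattice of a Hopf lattice over `ℤ_(p)`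

`A ⊂ ℚ̄` a valuation subring over `p`, `I` its inertia group, `E₀ = ℚ̄^I`.

* `twwlocRing A`     : `A₀ = A ∩ E₀` as a subring of `ℚ̄` (a PID: `twwlocRing_isPID`);
* `twwlocBase A`     : `(I, A₀)` is a local base;
* `twwlocOfGlob A H` : the `A₀`-algebra `A₀ · H` generated by a lattice `H` over `ℤ_(p)`;
* `twwloc_ofGlob`    : `A₀ · H` is a local Hopf lattice if `H` is a Hopf lattice over `ℤ_(p)`.
-/

set_option autoImplicit false
set_option linter.unusedSectionVars false
set_option linter.style.haveILetI false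

namespace Fermat.Agent.TW.W

open Fermat.Agent.W1 GaloisRep Fermat.Agent.UNIP

local notation "Qb" => AlgebraicClosure ℚ

/-- `A₀ = A ∩ ℚ̄^I`, as a subring of `ℚ̄`. -/
noncomputable def twwlocRing (A : ValuationSubring Qb) : Subring Qb :=
  A.toSubring ⊓ (beta0Field A).toSubring

theorem mem_twwlocRing {A : ValuationSubring Qb} {x : Qb} :
    x ∈ twwlocRing A ↔ x ∈ A ∧ x ∈ beta0Field A := Iff.rfl

theorem twwlocRing_algebraMap (A : ValuationSubring Qb) (r : twwlocRing A) :
    algebraMap (twwlocRing A) Qb r = (r : Qb) := rfl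

theorem twwlocRing_mem (A : ValuationSubring Qb) (r : twwlocRing A) :
    algebraMap (twwlocRing A) Qb r ∈ A := r.2.1

/-- `(I, A₀)` is a local base. -/
theorem twwlocBase (A : ValuationSubring Qb) :
    TwwLocBase (A.inertiaSubgroupIn ℚ) (twwlocRing A) where
  inj := Subtype.val_injective
  fixes := fun r σ hσ => (mem_beta0Field.mp r.2.2) σ hσ
  frac := by
    intro x hx
    have hxE : x ∈ beta0Field A := mem_beta0Field.mpr hx
    rcases A.mem_or_inv_mem x with h | h
    · exact ⟨⟨x, h, hxE⟩, 1, one_ne_zero, by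
        rw [twwlocRing_algebraMap, twwlocRing_algebraMap]; simp⟩
    · by_cases hx0 : x = 0
      · exact ⟨0, 1, one_ne_zero, by simp [hx0]⟩
      · refine ⟨1, ⟨x⁻¹, h, (beta0Field A).inv_mem hxE⟩, ?_, ?_⟩
        · intro h0
          have := congrArg Subtype.val h0
          exact inv_ne_zero hx0 this
        · rw [twwlocRing_algebraMap, twwlocRing_algebraMap]
          show x⁻¹ * x = 1
          exact inv_mul_cancel₀ hx0

/-- `A₀` is a principal ideal domain. -/
theorem twwlocRing_isPID {p : ℕ} (hp : p.Prime) (A : ValuationSubring Qb)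
    (hA : A.LiesOverPrime p) : IsPrincipalIdealRing (twwlocRing A) := by
  haveI := beta0_isDVR hp hA
  let f : ↥(A.comap (algebraMap (beta0Field A) Qb)) →+* twwlocRing A :=
    { toFun := fun x => ⟨algebraMap (beta0Field A) Qb x.1, x.2, x.1.2⟩
      map_one' := rfl
      map_mul' := fun _ _ => rfl
      map_zero' := rfl
      map_add' := fun _ _ => rfl }
  refine IsPrincipalIdealRing.of_surjective f ?_
  rintro ⟨y, hy1, hy2⟩
  exact ⟨⟨⟨y, hy2⟩, hy1⟩, rfl⟩

/-- `ℤ_(p) ⊂ A₀`. -/
theorem twwloc_ratLoc_mem {p : ℕ} (hp : p.Prime) (A : ValuationSubring Qb)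
    (hA : A.LiesOverPrime p) (r : ratLocalizedAt p) :
    algebraMap (ratLocalizedAt p) Qb r ∈ twwlocRing A := by
  refine ⟨tww_ratLoc_mem hp A hA r, ?_⟩
  have h1 : algebraMap (ratLocalizedAt p) Qb r = algebraMap ℚ Qb (r : ℚ) := rfl
  rw [h1]
  exact (beta0Field A).algebraMap_mem _

section OfGlob

variable {p : ℕ} {M : Type}

/-- The local lattice `A₀ · H` generated by a lattice `H` over `ℤ_(p)`. -/
noncomputable def twwlocOfGlob (A : ValuationSubring Qb)
    (H : Subalgebra (ratLocalizedAt p) (M → Qb)) : Subalgebra (twwlocRing A) (M → Qb) :=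
  Algebra.adjoin (twwlocRing A) (H : Set (M → Qb))

theorem twwlocOfGlob_toSubmodule (A : ValuationSubring Qb)
    (H : Subalgebra (ratLocalizedAt p) (M → Qb)) :
    Subalgebra.toSubmodule (twwlocOfGlob A H) =
      Submodule.span (twwlocRing A) (H : Set (M → Qb)) := by
  rw [twwlocOfGlob, Algebra.adjoin_eq_span]
  congr 1
  have h1 : ((H.toSubsemiring.toSubmonoid : Submonoid (M → Qb)) : Set (M → Qb)) =
      (H : Set (M → Qb)) := rfl
  rw [← h1, Submonoid.closure_eq]

theorem mem_twwlocOfGlob_iff (A : ValuationSubring Qb)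
    (H : Subalgebra (ratLocalizedAt p) (M → Qb)) (f : M → Qb) :
    f ∈ twwlocOfGlob A H ↔ f ∈ Submodule.span (twwlocRing A) (H : Set (M → Qb)) := by
  rw [← twwlocOfGlob_toSubmodule]
  exact Iff.rfl

theorem subset_twwlocOfGlob (A : ValuationSubring Qb)
    (H : Subalgebra (ratLocalizedAt p) (M → Qb)) {h : M → Qb} (hh : h ∈ H) :
    h ∈ twwlocOfGlob A H := Algebra.subset_adjoin hh

/-- Induction principle for the local lattice: a property of functions which holds on `H`, at
`0`, and is stable under addition and multiplication by scalars of `A₀`, holds on `A₀ · H`. -/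
theorem twwlocOfGlob_induction (A : ValuationSubring Qb)
    (H : Subalgebra (ratLocalizedAt p) (M → Qb)) {C : (M → Qb) → Prop}
    (hmem : ∀ h ∈ H, C h) (hzero : C 0) (hadd : ∀ f g, C f → C g → C (f + g))
    (hsmul : ∀ (r : Qb), r ∈ twwlocRing A → ∀ f, C f → C (fun P => r * f P))
    {f : M → Qb} (hf : f ∈ twwlocOfGlob A H) : C f := by
  rw [mem_twwlocOfGlob_iff] at hf
  induction hf using Submodule.span_induction with
  | mem h hh => exact hmem h hh
  | zero => exact hzero
  | add f g _ _ hf hg => exact hadd f g hf hg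
  | smul r f _ hf =>
    have e : r • f = fun P => (r : Qb) * f P := by
      funext P
      rw [Pi.smul_apply, Algebra.smul_def, twwlocRing_algebraMap]
    rw [e]
    exact hsmul _ r.2 f hf

variable [AddCommGroup M] {act : (Qb ≃ₐ[ℚ] Qb) → M → M}
  {H : Subalgebra (ratLocalizedAt p) (M → Qb)}

/-- The values of the local lattice lie in `A`. -/
theorem twwlocOfGlob_val_mem (hp : p.Prime) (hH : IsHopfLattice (ratLocalizedAt p) act H)
    (A : ValuationSubring Qb) (hA : A.LiesOverPrime p) {f : M → Qb}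
    (hf : f ∈ twwlocOfGlob A H) (m : M) : f m ∈ A := by
  refine twwlocOfGlob_induction A H (C := fun f => f m ∈ A) ?_ ?_ ?_ ?_ hf
  · intro h hh
    exact tww_t2_val_mem hH A (tww_ratLoc_mem hp A hA) h hh m
  · exact A.zero_mem
  · intro f g hf hg
    exact A.add_mem _ _ hf hg
  · intro r hr f hf
    exact A.mul_mem _ _ hr.1 hf

/-- **The local lattice of a Hopf lattice over `ℤ_(p)`.** -/
theorem twwloc_ofGlob (hp : p.Prime) (hH : IsHopfLattice (ratLocalizedAt p) act H)
    (A : ValuationSubring Qb) (hA : A.LiesOverPrime p) :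
    TwwLocLattice (A.inertiaSubgroupIn ℚ) act (twwlocOfGlob A H) where
  fg := by
    rw [twwlocOfGlob_toSubmodule]
    obtain ⟨S, hS⟩ := hH.fg
    refine ⟨S, le_antisymm (Submodule.span_mono ?_) (Submodule.span_le.2 ?_)⟩
    · intro s hs
      have : s ∈ Submodule.span (ratLocalizedAt p) (S : Set (M → Qb)) :=
        Submodule.subset_span hs
      rw [hS] at this
      exact this
    · intro h hh
      have hh' : h ∈ Submodule.span (ratLocalizedAt p) (S : Set (M → Qb)) := by
        rw [hS]; exact hh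
      clear hh
      induction hh' using Submodule.span_induction with
      | mem s hs => exact Submodule.subset_span hs
      | zero => exact Submodule.zero_mem _
      | add f g _ _ hf hg => exact Submodule.add_mem _ hf hg
      | smul r f _ hf =>
        have e : r • f = (⟨algebraMap (ratLocalizedAt p) Qb r,
            twwloc_ratLoc_mem hp A hA r⟩ : twwlocRing A) • f := by
          funext P
          rw [Pi.smul_apply, Pi.smul_apply, Algebra.smul_def, Algebra.smul_def,
            twwlocRing_algebraMap]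
        rw [e]
        exact Submodule.smul_mem _ _ hf
  equivariant := by
    intro f hf σ hσ P
    refine twwlocOfGlob_induction A H (C := fun f => f (act σ P) = σ (f P)) ?_ ?_ ?_ ?_ hf
    · intro h hh
      exact hH.equivariant h hh σ P
    · simp
    · intro f g hf hg
      rw [Pi.add_apply, Pi.add_apply, hf, hg, map_add]
    · intro r hr f hf
      show r * f (act σ P) = σ (r * f P)
      rw [map_mul, hf, (mem_beta0Field.mp hr.2) σ hσ]
  separates := by
    intro P Q hPQ
    exact hH.separates P Q fun h hh => hPQ h (subset_twwlocOfGlob A H hh)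
  comul_mem := by
    intro f hf
    refine twwlocOfGlob_induction A H
      (C := fun f => (fun PQ : M × M => f (PQ.1 + PQ.2)) ∈
        Submodule.span (twwlocRing A) {F : M × M → Qb |
          ∃ a ∈ twwlocOfGlob A H, ∃ b ∈ twwlocOfGlob A H, F = fun PQ => a PQ.1 * b PQ.2})
      ?_ ?_ ?_ ?_ hf
    · intro h hh
      have key : ∀ F ∈ Submodule.span (ratLocalizedAt p) {F : M × M → Qb |
          ∃ a ∈ H, ∃ b ∈ H, F = fun PQ => a PQ.1 * b PQ.2},
          F ∈ Submodule.span (twwlocRing A) {F : M × M → Qb |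
            ∃ a ∈ twwlocOfGlob A H, ∃ b ∈ twwlocOfGlob A H,
              F = fun PQ => a PQ.1 * b PQ.2} := by
        intro F h1
        induction h1 using Submodule.span_induction with
        | mem F hF =>
          obtain ⟨a, ha, b, hb, rfl⟩ := hF
          exact Submodule.subset_span
            ⟨a, subset_twwlocOfGlob A H ha, b, subset_twwlocOfGlob A H hb, rfl⟩
        | zero => exact Submodule.zero_mem _
        | add F G _ _ hF hG => exact Submodule.add_mem _ hF hG
        | smul r F _ hF =>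
          have e : r • F = (⟨algebraMap (ratLocalizedAt p) Qb r,
              twwloc_ratLoc_mem hp A hA r⟩ : twwlocRing A) • F := by
            funext P
            rw [Pi.smul_apply, Pi.smul_apply, Algebra.smul_def, Algebra.smul_def,
              twwlocRing_algebraMap]
          rw [e]
          exact Submodule.smul_mem _ _ hF
      exact key _ (hH.comul_mem h hh)
    · exact Submodule.zero_mem _
    · intro f g hf hg
      exact Submodule.add_mem _ hf hg
    · intro r hr f hf
      have e : (fun PQ : M × M => (fun P => r * f P) (PQ.1 + PQ.2)) =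
          (⟨r, hr⟩ : twwlocRing A) • (fun PQ : M × M => f (PQ.1 + PQ.2)) := by
        funext PQ
        rw [Pi.smul_apply, Algebra.smul_def, twwlocRing_algebraMap]
      rw [e]
      exact Submodule.smul_mem _ _ hf

end OfGlob

end Fermat.Agent.TW.W


end ZBTW_066_2

/-! ### bundled: `Fermat.Agent.TW.W.Et` -/
section ZBTW_066_3

/-!
# TW-W / W-et: the étale quotient is the maximal unramified quotient

`(M, act, H)` a Hopf lattice over `ℤ_(p)`, `p` odd, `p M = 0`; `A ⊂ ℚ̄` a valuation subring over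
`p`, `I` its inertia group, `M⁰ = twwRedZero` the connected part.

* `wet_redZero_le` (**(∗)**): `M⁰ ⊆ Y` for every subgroup `Y ⊆ M` such that `I` acts trivially on
  `M / Y`.  (Quotient lattice of `M / Y` over `A₀ = A ∩ ℚ̄^I` (`twwloc_quot`); for `n ∈ M⁰` the
  coordinates `φ (n̄) - φ (0)`, `φ` in the quotient lattice, lie in `𝔪_A ∩ ℚ̄^I = p A₀`; (T2) for the
  quotient lattice (`twwloc_t2`).)
* `wet_redZero_eq` : `M⁰ = I_aug · M`;
* `stmtEt1 : StmtEt1`, `stmtEt2 : StmtEt2`.
-/

set_option autoImplicit false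
set_option linter.unusedSectionVars false
set_option linter.style.haveILetI false

namespace Fermat.Agent.TW.W

open Fermat.Agent.W1 GaloisRep Fermat.Agent.UNIP

local notation "Qb" => AlgebraicClosure ℚ

/-- The place `padicPlace p` of `ℚ̄` lies over `p`. -/
theorem wet_padicPlace_liesOver (q : ℕ) [hq : Fact q.Prime] : (padicPlace q).LiesOverPrime q := by
  have hq0 : ((q : ℕ) : Qb) ≠ 0 := by exact_mod_cast hq.out.ne_zero
  have hnorm : ‖padicEmbedding q ((q : ℕ) : Qb)‖ = (q : ℝ)⁻¹ := by
    rw [map_natCast, ← map_natCast (algebraMap ℚ_[q] (PadicAlgCl q)), PadicAlgCl.norm_extends,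
      Padic.norm_p]
  have hq1 : (1 : ℝ) < q := by exact_mod_cast hq.out.one_lt
  change ((q : ℕ) : Qb) ∈ (padicPlace q).nonunits
  rw [ValuationSubring.mem_nonunits_iff]
  refine lt_of_not_ge (fun h => ?_)
  have h1 : (padicPlace q).valuation (((q : ℕ) : Qb))⁻¹ ≤ 1 :=
    ((padicPlace q).valuation.one_le_val_iff hq0).mp h
  rw [ValuationSubring.valuation_le_one_iff, mem_padicPlace_iff, map_inv₀] at h1
  have h2 : ‖(padicEmbedding q ((q : ℕ) : Qb))⁻¹‖ ≤ 1 := by exact_mod_cast h1
  rw [norm_inv, hnorm, inv_inv] at h2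
  linarith

section Core

variable {p : ℕ} [Fact p.Prime] {M : Type} [AddCommGroup M]
  {act : (Qb ≃ₐ[ℚ] Qb) → M → M} {H : Subalgebra (ratLocalizedAt p) (M → Qb)}

/-- The functions of the local lattice take congruent values at congruent points. -/
theorem wet_cong_loc (A : ValuationSubring Qb) {m m' : M} (hm : TwwCong H A m m') {f : M → Qb}
    (hf : f ∈ twwlocOfGlob A H) : f m - f m' ∈ A.nonunits := by
  refine twwlocOfGlob_induction A H (C := fun f => f m - f m' ∈ A.nonunits) ?_ ?_ ?_ ?_ hf
  · intro h hh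
    exact hm h hh
  · show (0 : Qb) - 0 ∈ A.nonunits
    rw [sub_zero]; exact tww_nonunits_zero A
  · intro f g hf hg
    have e : (f + g) m - (f + g) m' = (f m - f m') + (g m - g m') := by
      simp only [Pi.add_apply]; ring
    rw [e]; exact tww_nonunits_add hf hg
  · intro r hr f hf
    have e : r * f m - r * f m' = r * (f m - f m') := by ring
    show r * f m - r * f m' ∈ A.nonunits
    rw [e]; exact tww_nonunits_mul_left hr.1 hf

variable [Finite M]

/-- **(∗)** The connected part is contained in every subgroup `Y` such that the inertia group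
acts trivially on `M / Y`: the étale quotient is the maximal unramified quotient. -/
theorem wet_redZero_le (hp2 : p ≠ 2) (hH : IsHopfLattice (ratLocalizedAt p) act H)
    (A : ValuationSubring Qb) (hA : A.LiesOverPrime p) (hpM : ∀ m : M, p • m = 0)
    (Y : AddSubgroup M) (hY : ∀ σ ∈ A.inertiaSubgroupIn ℚ, ∀ m : M, act σ m - m ∈ Y) :
    twwRedZero hH A hA ≤ Y := by
  classical
  have hp : p.Prime := Fact.out
  have h3 : 3 ≤ p := by
    have := hp.two_le
    omega
  intro n hn
  haveI : IsPrincipalIdealRing (twwlocRing A) := twwlocRing_isPID hp A hA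
  have hB := twwlocBase A
  have hL := twwloc_ofGlob hp hH A hA
  set π : M →+ M ⧸ Y := QuotientAddGroup.mk' Y with hπdef
  have hπ : Function.Surjective π := QuotientAddGroup.mk'_surjective Y
  have hπequiv : ∀ σ ∈ A.inertiaSubgroupIn ℚ, ∀ P,
      π (act σ P) = (fun _ q => q : (Qb ≃ₐ[ℚ] Qb) → M ⧸ Y → M ⧸ Y) σ (π P) := by
    intro σ hσ P
    show π (act σ P) = π P
    rw [← sub_eq_zero, ← map_sub]
    exact (QuotientAddGroup.eq_zero_iff _).2 (hY σ hσ P)
  have hL'' := twwloc_quot (act'' := fun _ q => q) hB hL π hπ hπequiv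
  have hpK : (p : Qb) ≠ 0 := by exact_mod_cast hp.ne_zero
  have hq : π n = 0 := by
    refine twwloc_t2 A (twwlocRing_mem A)
      (Subalgebra.toSubmodule ((twwlocOfGlob A H).comap (twwlocPull (twwlocRing A) π)))
      hL''.fg ?_ hL''.comul_mem hL''.separates p hp hpK (p : Qb) ((p : Qb) ^ (p - 2)) ?_ ?_
      (π n) ?_ ?_
    · -- values in `A`
      intro φ hφ P
      obtain ⟨m, rfl⟩ := hπ P
      exact twwlocOfGlob_val_mem hp hH A hA (f := fun P => φ (π P)) hφ m
    · rw [← pow_succ', show p - 2 + 1 = p - 1 by omega]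
    · have hpA : (p : Qb) ∈ A.nonunits := hA
      rw [ValuationSubring.mem_nonunits_iff] at hpA ⊢
      rw [map_pow]
      exact pow_lt_one' hpA (by omega)
    · rw [← map_nsmul, hpM, map_zero]
    · intro φ hφ
      have hφ' : (fun P => φ (π P)) ∈ twwlocOfGlob A H := hφ
      have h1 : φ (π n) - φ 0 ∈ A.nonunits := by
        have := wet_cong_loc A hn hφ'
        simpa using this
      have h2 : φ (π n) - φ 0 ∈ beta0Field A := by
        rw [mem_beta0Field]
        intro σ hσ
        rw [map_sub, ← hL''.equivariant φ hφ σ hσ (π n), ← hL''.equivariant φ hφ σ hσ 0]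
      have h4 := beta0_div_mem hp hA h2 h1
      exact (tww_val_le_iff A _ _).mpr ⟨_, h4, by field_simp⟩
  exact (QuotientAddGroup.eq_zero_iff n).1 hq

/-- The subgroup `I_aug · M` generated by the `σ m - m`, `σ` in the inertia group of `A`. -/
def wetAug (A : ValuationSubring Qb) (act : (Qb ≃ₐ[ℚ] Qb) → M → M) : AddSubgroup M :=
  AddSubgroup.closure {x | ∃ σ ∈ A.inertiaSubgroupIn ℚ, ∃ m : M, x = act σ m - m}

omit [Finite M] in
theorem wetAug_le_redZero (hH : IsHopfLattice (ratLocalizedAt p) act H)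
    (A : ValuationSubring Qb) (hA : A.LiesOverPrime p) : wetAug A act ≤ twwRedZero hH A hA := by
  unfold wetAug
  rw [AddSubgroup.closure_le]
  rintro x ⟨σ, hσ, m, rfl⟩
  exact tww_red_inertia_sub_mem hH A hA hσ m

/-- **(∗)** `M⁰ = I_aug · M`. -/
theorem wet_redZero_eq (hp2 : p ≠ 2) (hH : IsHopfLattice (ratLocalizedAt p) act H)
    (A : ValuationSubring Qb) (hA : A.LiesOverPrime p) (hpM : ∀ m : M, p • m = 0) :
    twwRedZero hH A hA = wetAug A act :=
  le_antisymm
    (wet_redZero_le hp2 hH A hA hpM _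
      (fun σ hσ m => AddSubgroup.subset_closure ⟨σ, hσ, m, rfl⟩))
    (wetAug_le_redZero hH A hA)

end Core

/-- **W-et1**: `(I_aug M)^I = 0`. -/
theorem stmtEt1 : StmtEt1 := by
  intro p _ hp2 M _ _ act H hH hpM m hm hfix
  have hA := wet_padicPlace_liesOver p
  have h1 : m ∈ twwRedZero hH (padicPlace p) hA := wetAug_le_redZero hH _ hA hm
  exact tww_red_inter_fixed hp2 hH _ hA m (hpM m) h1 hfix

/-- **W-et2**: `X ∩ I_aug M = I_aug X` for a Galois stable subgroup `X ⊆ M`. -/
theorem stmtEt2 : StmtEt2 := by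
  intro p _ hp2 M _ _ act H hH hpM X hX x hxX hx
  have hA := wet_padicPlace_liesOver p
  -- the restricted lattice on `X`
  let act' : (Qb ≃ₐ[ℚ] Qb) → X → X := fun σ y => ⟨act σ y.1, hX σ y.1 y.2⟩
  have hH' : IsHopfLattice (ratLocalizedAt p) act' (H.map (pullFn (ratLocalizedAt p) X.subtype)) :=
    sq_sub (act' := act') hH X.subtype Subtype.val_injective (fun σ P => rfl)
  have hpX : ∀ m : X, p • m = 0 := fun m => Subtype.ext (by
    rw [AddSubgroup.coe_nsmul, hpM]; rfl)
  have key := wet_redZero_le hp2 hH' (padicPlace p) hA hpX (wetAug (padicPlace p) act')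
    (fun σ hσ m => AddSubgroup.subset_closure ⟨σ, hσ, m, rfl⟩)
  -- `x ∈ X⁰`
  have hxM : x ∈ twwRedZero hH (padicPlace p) hA := wetAug_le_redZero hH _ hA hx
  have hx0 : (⟨x, hxX⟩ : X) ∈ twwRedZero hH' (padicPlace p) hA := by
    rintro f ⟨h, hh, rfl⟩
    exact hxM h hh
  have hxY := key hx0
  -- transfer to `M`
  have hle : (wetAug (padicPlace p) act').map X.subtype ≤
      AddSubgroup.closure
        {y | ∃ σ ∈ (padicPlace p).inertiaSubgroupIn ℚ, ∃ m ∈ X, y = act σ m - m} := by
    unfold wetAug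
    rw [AddMonoidHom.map_closure]
    apply AddSubgroup.closure_mono
    rintro _ ⟨y, ⟨σ, hσ, m, rfl⟩, rfl⟩
    exact ⟨σ, hσ, m.1, m.2, rfl⟩
  exact hle ⟨⟨x, hxX⟩, hxY, rfl⟩

end Fermat.Agent.TW.W


end ZBTW_066_3
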