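/- GENERATED FILE (helper35, build-time optimisation, NOTES/ZB.md): verbatim concatenation of the modules
   Fermat.Agent.TW.W.GBAlgA
   Fermat.Agent.TW.W.GBAlgB
   Fermat.Agent.TW.W.GBAlg
   Do not edit; do not import together with these modules. -/
import Mathlib
import Fermat.Agent.ZB.TW_002

/-! ### bundled: `Fermat.Agent.TW.W.GBAlgA` -/
section ZBTW_068_0
/-
TW-W, block (GB), piece GB-ALG (helper79): general linear-algebra tools for the abstract count
(`StmtGBAlg` of `TW/W/GBAbs.lean`).  Mathlib only.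

* `wgba_linearIndependent`, `wgba_finrank_fixed_le` : semilinear descent, UNBUNDLED form
  (a family of additive maps `A γ`, semilinear over ring maps `g γ` of `L` with common fixed
  field `K`; no group action is needed);
* `wgbaR`, `wgbaR_tmul`, `wgbaR_surjective` : `F ⊗ W ≅ Hom(F^∨, W)`;
* `wgba_exists_tensor`, `wgba_exists_tensor_group` : a map factoring linearly through a family of
  functionals on a finite-dimensional space is represented by a tensor;
* `wgba_average` : Maschke averaging over `G ⧸ N`;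
* `wgba_step` : the rank–nullity step of the dévissage.
-/

set_option autoImplicit false

open scoped TensorProduct

namespace Fermat.Agent.TW.W

open Module

/-! ### Semilinear descent (unbundled) -/

section Semilinear

variable {K L : Type*} [Field K] [Field L] [Algebra K L]
  {Γ : Type*} {V : Type*} [AddCommGroup V] [Module K V] [Module L V] [IsScalarTower K L V]

/-- **Semilinear descent, unbundled.**  `A γ : V → V` additive and `g γ`-semilinear, the common
fixed points of the `g γ` in `L` are `K`: then `K`-linearly independent vectors fixed by all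
`A γ` are `L`-linearly independent. -/
theorem wgba_linearIndependent (g : Γ → L → L) (A : Γ → V →+ V)
    (hg1 : ∀ γ, g γ 1 = 1)
    (hK : ∀ x : L, (∀ γ : Γ, g γ x = x) → ∃ c : K, algebraMap K L c = x)
    (hsemi : ∀ (γ : Γ) (a : L) (v : V), A γ (a • v) = g γ a • A γ v)
    {ι : Type*} (v : ι → V) (hfix : ∀ (γ : Γ) (i : ι), A γ (v i) = v i)
    (hind : LinearIndependent K v) : LinearIndependent L v := by
  classical
  rw [linearIndependent_iff']
  intro s
  induction s using Finset.strongInduction with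
  | H s ih =>
    intro c hc i₀ hi₀
    by_contra hne
    set c' : ι → L := fun i => (c i₀)⁻¹ * c i with hc'
    have hc'0 : c' i₀ = 1 := inv_mul_cancel₀ hne
    have hsum' : ∑ i ∈ s, c' i • v i = 0 := by
      have h : ∑ i ∈ s, c' i • v i = (c i₀)⁻¹ • ∑ i ∈ s, c i • v i := by
        rw [Finset.smul_sum]
        refine Finset.sum_congr rfl (fun i _ => ?_)
        rw [hc', mul_smul]
      rw [h, hc, smul_zero]
    have hfixg : ∀ γ : Γ, ∀ i ∈ s, g γ (c' i) = c' i := by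
      intro γ
      have h1 : ∑ i ∈ s, (g γ (c' i)) • v i = 0 := by
        have h := congrArg (fun x => A γ x) hsum'
        simp only [map_sum, map_zero, hsemi, hfix] at h
        exact h
      have h2 : ∑ i ∈ s.erase i₀, (g γ (c' i) - c' i) • v i = 0 := by
        have h3 : ∑ i ∈ s, (g γ (c' i) - c' i) • v i = 0 := by
          simp only [sub_smul, Finset.sum_sub_distrib, h1, hsum', sub_zero]
        rw [← Finset.add_sum_erase s _ hi₀, hc'0, hg1, sub_self, zero_smul, zero_add] at h3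
        exact h3
      have h4 := ih (s.erase i₀) (Finset.erase_ssubset hi₀) (fun i => g γ (c' i) - c' i) h2
      intro i hi
      by_cases hii : i = i₀
      · rw [hii, hc'0, hg1]
      · exact sub_eq_zero.1 (h4 i (Finset.mem_erase.2 ⟨hii, hi⟩))
    choose! d hd using fun i (hi : i ∈ s) => hK (c' i) (fun γ => hfixg γ i hi)
    have hK0 : ∑ i ∈ s, d i • v i = 0 := by
      rw [← hsum']
      refine Finset.sum_congr rfl (fun i hi => ?_)
      rw [← hd i hi, algebraMap_smul]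
    have h0 := (linearIndependent_iff'.1 hind) s d hK0 i₀ hi₀
    have h5 := hd i₀ hi₀
    rw [h0, map_zero, hc'0] at h5
    exact zero_ne_one h5

/-- **Semilinear descent, dimension form**: a `K`-subspace `Z` of vectors fixed by all `A γ`,
contained in an `L`-subspace `E` of a finite-dimensional `L`-space, is finite-dimensional with
`dim_K Z ≤ dim_L E`. -/
theorem wgba_finrank_fixed_le [Module.Finite L V] (g : Γ → L → L) (A : Γ → V →+ V)
    (hg1 : ∀ γ, g γ 1 = 1)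
    (hK : ∀ x : L, (∀ γ : Γ, g γ x = x) → ∃ c : K, algebraMap K L c = x)
    (hsemi : ∀ (γ : Γ) (a : L) (v : V), A γ (a • v) = g γ a • A γ v)
    (Z : Submodule K V) (E : Submodule L V) (hZfix : ∀ z ∈ Z, ∀ γ, A γ z = z)
    (hZE : ∀ z ∈ Z, z ∈ E) :
    Module.Finite K Z ∧ finrank K Z ≤ finrank L E := by
  classical
  set b := Basis.ofVectorSpace K Z with hb
  have hindK : LinearIndependent K (fun i => ((b i : Z) : V)) :=
    b.linearIndependent.map' Z.subtype (Submodule.ker_subtype _)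
  have hindL : LinearIndependent L (fun i => ((b i : Z) : V)) :=
    wgba_linearIndependent g A hg1 hK hsemi _ (fun γ i => hZfix _ (b i).2 γ) hindK
  have hindE : LinearIndependent L (fun i => (⟨(b i : V), hZE _ (b i).2⟩ : E)) := by
    refine LinearIndependent.of_comp E.subtype ?_
    exact hindL
  have hfin : Finite (Basis.ofVectorSpaceIndex K Z) := hindL.finite
  have := Fintype.ofFinite (Basis.ofVectorSpaceIndex K Z)
  refine ⟨Module.Finite.of_basis b, ?_⟩
  rw [Module.finrank_eq_card_basis b]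
  exact hindE.fintype_card_le_finrank

end Semilinear

/-! ### `F ⊗ W ≅ Hom(F^∨, W)` -/

section Repr

variable {k : Type*} [Field k] {F W : Type*} [AddCommGroup F] [Module k F]
  [AddCommGroup W] [Module k W]

/-- `R : F ⊗ W → Hom(F^∨, W)`, `R (a ⊗ w) d = d a • w`. -/
noncomputable def wgbaR (k F W : Type*) [Field k] [AddCommGroup F] [Module k F]
    [AddCommGroup W] [Module k W] : F ⊗[k] W →ₗ[k] (Module.Dual k F →ₗ[k] W) :=
  (dualTensorHom k (Module.Dual k F) W).comp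
    (TensorProduct.map (Module.Dual.eval k F) LinearMap.id)

lemma wgbaR_tmul (a : F) (w : W) (d : Module.Dual k F) :
    wgbaR k F W (a ⊗ₜ[k] w) d = d a • w := by
  rw [wgbaR, LinearMap.comp_apply, TensorProduct.map_tmul, dualTensorHom_apply,
    Module.Dual.eval_apply, LinearMap.id_apply]

lemma wgbaR_surjective [FiniteDimensional k F] : Function.Surjective (wgbaR k F W) := by
  have h1 : Function.Surjective (dualTensorHom k (Module.Dual k F) W) :=
    (dualTensorHomEquiv k (Module.Dual k F) W).surjective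
  have h2 : Function.Surjective
      (TensorProduct.map (Module.Dual.eval k F) (LinearMap.id : W →ₗ[k] W)) :=
    TensorProduct.map_surjective (Module.evalEquiv k F).surjective Function.surjective_id
  exact h1.comp h2

/-- A family `h : X → W` which factors linearly through a family of functionals `D : X → F^∨`
on a finite-dimensional `F` is represented by a tensor. -/
theorem wgba_exists_tensor [FiniteDimensional k F] {X : Type*} (D : X → Module.Dual k F)
    (h : X → W)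
    (hker : ∀ l : X →₀ k, Finsupp.linearCombination k D l = 0 →
      Finsupp.linearCombination k h l = 0) :
    ∃ z : F ⊗[k] W, ∀ x, wgbaR k F W z (D x) = h x := by
  classical
  set LD := Finsupp.linearCombination k D with hLD
  set Lh := Finsupp.linearCombination k h with hLh
  have hle : LinearMap.ker LD ≤ LinearMap.ker Lh := fun l hl => hker l hl
  -- the induced map on the range of `LD`
  set hbar : LinearMap.range LD →ₗ[k] W :=
    ((LinearMap.ker LD).liftQ Lh hle).comp LD.quotKerEquivRange.symm.toLinearMap with hhbar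
  have hbar_apply : ∀ l : X →₀ k, hbar ⟨LD l, LinearMap.mem_range_self LD l⟩ = Lh l := by
    intro l
    have h1 : LD.quotKerEquivRange.symm ⟨LD l, LinearMap.mem_range_self LD l⟩ =
        Submodule.Quotient.mk l := by
      rw [LinearEquiv.symm_apply_eq]
      exact Subtype.ext (LinearMap.quotKerEquivRange_apply_mk LD l).symm
    rw [hhbar, LinearMap.comp_apply, LinearEquiv.coe_coe, h1, Submodule.liftQ_apply]
  obtain ⟨φ, hφ⟩ := LinearMap.exists_extend hbar
  obtain ⟨z, hz⟩ := wgbaR_surjective (k := k) (F := F) (W := W) φ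
  refine ⟨z, fun x => ?_⟩
  rw [hz]
  have h2 := hbar_apply (Finsupp.single x 1)
  have h3 : LD (Finsupp.single x 1) = D x := by
    rw [hLD, Finsupp.linearCombination_single, one_smul]
  have h4 : Lh (Finsupp.single x 1) = h x := by
    rw [hLh, Finsupp.linearCombination_single, one_smul]
  have h5 := LinearMap.congr_fun hφ ⟨LD (Finsupp.single x 1), LinearMap.mem_range_self LD _⟩
  rw [LinearMap.comp_apply, Submodule.subtype_apply] at h5
  rw [h2, h4] at h5
  rw [← h3]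
  exact h5

end Repr

/-! ### The group form of representability -/

section ReprGroup

variable {p : ℕ} [Fact p.Prime] {F W : Type*} [AddCommGroup F] [Module (ZMod p) F]
  [AddCommGroup W] [Module (ZMod p) W] {G : Type*} [Group G]

/-- An additive map on a subgroup `H`, with values in a `ZMod p`-module. -/
lemma wgba_map_pow {M : Type*} [AddCommGroup M] (H : Subgroup G) (D : G → M)
    (hD : ∀ σ ∈ H, ∀ τ ∈ H, D (σ * τ) = D σ + D τ) (x : G) (hx : x ∈ H) (n : ℕ) :
    D (x ^ n) = n • D x := by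
  have h1 : D 1 = 0 := by
    have h := hD 1 H.one_mem 1 H.one_mem
    rw [mul_one] at h
    exact left_eq_add.mp h
  induction n with
  | zero => rw [pow_zero, h1, zero_smul]
  | succ n ih =>
    rw [pow_succ, hD _ (H.pow_mem hx n) _ hx, ih, succ_nsmul]

/-- A map `h : G → W`, additive on the subgroup `H`, whose kernel on `H` contains the kernel of
a family of functionals `D : G → F^∨` additive on `H`, is represented on `H` by a tensor. -/
theorem wgba_exists_tensor_group [FiniteDimensional (ZMod p) F] (H : Subgroup G)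
    (D : G → Module.Dual (ZMod p) F) (h : G → W)
    (hD : ∀ σ ∈ H, ∀ τ ∈ H, D (σ * τ) = D σ + D τ)
    (hh : ∀ σ ∈ H, ∀ τ ∈ H, h (σ * τ) = h σ + h τ)
    (hker : ∀ τ ∈ H, D τ = 0 → h τ = 0) :
    ∃ z : F ⊗[ZMod p] W, ∀ τ ∈ H, wgbaR (ZMod p) F W z (D τ) = h τ := by
  classical
  have key : ∀ l : H →₀ ZMod p, ∃ x : H,
      Finsupp.linearCombination (ZMod p) (fun τ : H => D τ.1) l = D x.1 ∧
      Finsupp.linearCombination (ZMod p) (fun τ : H => h τ.1) l = h x.1 := by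
    intro l
    induction l using Finsupp.induction_linear with
    | zero =>
      refine ⟨1, ?_, ?_⟩
      · rw [map_zero]
        have := wgba_map_pow H D hD 1 H.one_mem 0
        rw [pow_zero, zero_smul] at this
        exact this.symm
      · rw [map_zero]
        have := wgba_map_pow H h hh 1 H.one_mem 0
        rw [pow_zero, zero_smul] at this
        exact this.symm
    | add f g hf hg =>
      obtain ⟨x, hx1, hx2⟩ := hf
      obtain ⟨y, hy1, hy2⟩ := hg
      refine ⟨x * y, ?_, ?_⟩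
      · rw [map_add, hx1, hy1, Subgroup.coe_mul, hD _ x.2 _ y.2]
      · rw [map_add, hx2, hy2, Subgroup.coe_mul, hh _ x.2 _ y.2]
    | single a c =>
      refine ⟨a ^ c.val, ?_, ?_⟩
      · rw [Finsupp.linearCombination_single, Subgroup.coe_pow,
          wgba_map_pow H D hD a.1 a.2, ← Nat.cast_smul_eq_nsmul (ZMod p), ZMod.natCast_zmod_val]
      · rw [Finsupp.linearCombination_single, Subgroup.coe_pow,
          wgba_map_pow H h hh a.1 a.2, ← Nat.cast_smul_eq_nsmul (ZMod p), ZMod.natCast_zmod_val]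
  obtain ⟨z, hz⟩ := wgba_exists_tensor (k := ZMod p) (F := F) (W := W)
    (fun τ : H => D τ.1) (fun τ : H => h τ.1) (by
      intro l hl
      obtain ⟨x, hx1, hx2⟩ := key l
      rw [hx2]
      exact hker x.1 x.2 (by rw [← hx1]; exact hl))
  exact ⟨z, fun τ hτ => hz ⟨τ, hτ⟩⟩

end ReprGroup

/-! ### Maschke averaging over `G ⧸ N` -/

section Average

variable {k : Type*} [Field k] {G : Type*} [Group G] {B Y : Type*} [AddCommGroup B] [Module k B]
  [AddCommGroup Y] [Module k Y]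

/-- **Averaging.**  `A : G → End B` multiplicative and trivial on `N` of finite index invertible in
`k`; `ℓ : B → Y` linear with `ℓ (A γ z₀) = ℓ z₀` for all `γ`.  Then there is an `A`-invariant `z`
with `ℓ z = ℓ z₀`. -/
theorem wgba_average (A : G → B →ₗ[k] B) (hmul : ∀ γ δ z, A (γ * δ) z = A γ (A δ z))
    (N : Subgroup G) (hN : ∀ ν ∈ N, ∀ z, A ν z = z) (hidx : N.index ≠ 0)
    (hcard : (N.index : k) ≠ 0) (ℓ : B →ₗ[k] Y) (z₀ : B) (hℓ : ∀ γ, ℓ (A γ z₀) = ℓ z₀) :
    ∃ z, (∀ γ, A γ z = z) ∧ ℓ z = ℓ z₀ := by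
  classical
  have : N.FiniteIndex := ⟨hidx⟩
  have : Finite (G ⧸ N) := Subgroup.finite_quotient_of_finiteIndex
  have := Fintype.ofFinite (G ⧸ N)
  -- `A` depends only on the left coset
  have hcoset : ∀ γ δ : G, (γ : G ⧸ N) = δ → ∀ z, A γ z = A δ z := by
    intro γ δ hγδ z
    have h1 : γ⁻¹ * δ ∈ N := QuotientGroup.eq.1 hγδ
    have h2 : δ = γ * (γ⁻¹ * δ) := by group
    rw [h2, hmul, hN _ h1]
  have hcardq : (Fintype.card (G ⧸ N) : k) ≠ 0 := by
    rw [← Nat.card_eq_fintype_card]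
    exact hcard
  refine ⟨(Fintype.card (G ⧸ N) : k)⁻¹ • ∑ q : G ⧸ N, A q.out z₀, fun δ => ?_, ?_⟩
  · rw [map_smul, map_sum]
    congr 1
    refine Fintype.sum_equiv (MulAction.toPerm δ) _ _ (fun q => ?_)
    rw [← hmul]
    refine hcoset _ _ ?_ z₀
    rw [MulAction.toPerm_apply, QuotientGroup.out_eq']
    conv_rhs => rw [← QuotientGroup.out_eq' q]
    rfl
  · rw [map_smul, map_sum, Finset.sum_congr rfl (fun q _ => hℓ q.out), Finset.sum_const,
      Finset.card_univ, ← Nat.cast_smul_eq_nsmul k, smul_smul, inv_mul_cancel₀ hcardq, one_smul]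

end Average

/-! ### The rank–nullity step -/

section Step

variable {k : Type*} [Field k] {V Y : Type*} [AddCommGroup V] [Module k V]
  [AddCommGroup Y] [Module k Y]

/-- `Q ≤ P` subspaces of `V`, `res : V → Y` linear with `P ∩ ker res ⊆ Q` and `res P ⊆ ℓ(Z)` for a
finite-dimensional `Z`; `Q` finite-dimensional.  Then `P` is finite-dimensional and
`dim P ≤ dim Q + dim Z`. -/
theorem wgba_step {B : Type*} [AddCommGroup B] [Module k B] (P Q : Submodule k V)
    (res : V →ₗ[k] Y) (hker : ∀ v ∈ P, res v = 0 → v ∈ Q)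
    (Z : Submodule k B) (ℓ : B →ₗ[k] Y) [Module.Finite k Z]
    (hrange : ∀ v ∈ P, ∃ z ∈ Z, ℓ z = res v) [Module.Finite k Q] :
    Module.Finite k P ∧ finrank k P ≤ finrank k Q + finrank k Z := by
  set T : Submodule k Y := Z.map ℓ with hT
  have : Module.Finite k T := by rw [hT]; infer_instance
  have hTle : finrank k T ≤ finrank k Z := Submodule.finrank_map_le ℓ Z
  set f : P →ₗ[k] T := (res.comp P.subtype).codRestrict T (fun v => by
    obtain ⟨z, hz, hzv⟩ := hrange v.1 v.2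
    exact ⟨z, hz, hzv⟩) with hf
  -- the kernel of `f` embeds in `Q`
  set j : LinearMap.ker f →ₗ[k] Q := (P.subtype.comp (LinearMap.ker f).subtype).codRestrict Q
    (fun v => by
      refine hker v.1.1 v.1.2 ?_
      have h := v.2
      rw [LinearMap.mem_ker] at h
      exact congrArg Subtype.val h) with hj
  have hjinj : Function.Injective j := by
    intro a b hab
    have h := congrArg Subtype.val hab
    exact Subtype.ext (Subtype.ext h)
  have : Module.Finite k (LinearMap.ker f) := Module.Finite.of_injective j hjinj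
  have hkerle : finrank k (LinearMap.ker f) ≤ finrank k Q :=
    LinearMap.finrank_le_finrank_of_injective hjinj
  have : Module.Finite k (LinearMap.range f) := inferInstance
  have : Module.Finite k (P ⧸ LinearMap.ker f) :=
    Module.Finite.equiv f.quotKerEquivRange.symm
  have : Module.Finite k P := Module.Finite.of_submodule_quotient (LinearMap.ker f)
  refine ⟨inferInstance, ?_⟩
  have h1 := LinearMap.finrank_range_add_finrank_ker f
  have h2 : finrank k (LinearMap.range f) ≤ finrank k T := Submodule.finrank_le _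
  omega

end Step

end Fermat.Agent.TW.W


end ZBTW_068_0

/-! ### bundled: `Fermat.Agent.TW.W.GBAlgB` -/
section ZBTW_068_1
/-
TW-W, block (GB), piece GB-ALG (helper79): the structure behind the abstract count.

From `GBAbsKum` + `GBAbsTame` (`TW/W/GBAbs.lean`):
* `wgbaK t` : the subgroup `{τ ∈ J | κ τ = 0 on Fil t}` of `G` (increasing in `t`, normal,
  `wgbaK 0 ⊆ 𝒩`, `wgbaK e' = J`);
* `wgbaA t γ` : the twisted operator `a ⊗ w ↦ (u γ ^ t · γ a) ⊗ ω(γ)⁻¹ ρ(γ) w` on `F ⊗ W`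
  (multiplicative in `γ`, trivial on `N`, `actF γ`-semilinear, and on inertia its fixed vectors lie
  in `E_{e' - t}`);
* `wgba_exists_D` : the functionals `D τ ∈ F^∨`, `D τ (r t x) = κ τ x` (`τ ∈ wgbaK (t + 1)`).
-/

set_option autoImplicit false

open scoped TensorProduct

namespace Fermat.Agent.TW.W

open Module

section Tame

variable {p : ℕ} {G Ω : Type} [Group G] [AddCommGroup Ω] [DistribMulAction G Ω]
  {N I : Subgroup G} {ω : G →* (ZMod p)ˣ}
  {F : Type} [Field F] [Algebra (ZMod p) F] {actF : G →* RingAut F} {u : G → F} {e' : ℕ}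
  {Fil : ℕ → AddSubgroup Ω} {r : ℕ → Ω → F}

lemma wgba_fil_mono (hT : GBAbsTame p N I ω F actF u e' Fil r) {s t : ℕ} (hst : s ≤ t) :
    Fil t ≤ Fil s := by
  induction t with
  | zero =>
    have : s = 0 := Nat.le_zero.1 hst
    rw [this]
  | succ t ih =>
    rcases Nat.lt_or_ge s (t + 1) with h | h
    · exact (hT.anti t).trans (ih (Nat.lt_succ_iff.1 h))
    · have : s = t + 1 := le_antisymm hst h
      rw [this]

lemma wgba_r_zero (hT : GBAbsTame p N I ω F actF u e' Fil r) {t : ℕ} (ht : t < e') :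
    r t 0 = 0 := by
  have h := hT.r_add t ht 0 (Fil t).zero_mem 0 (Fil t).zero_mem
  rw [add_zero] at h
  exact left_eq_add.mp h

lemma wgba_r_sub (hT : GBAbsTame p N I ω F actF u e' Fil r) {t : ℕ} (ht : t < e')
    {x y : Ω} (hx : x ∈ Fil t) (hy : y ∈ Fil t) : r t (x - y) = r t x - r t y := by
  have h := hT.r_add t ht (x - y) ((Fil t).sub_mem hx hy) y hy
  rw [sub_add_cancel] at h
  rw [h, add_sub_cancel_right]

lemma wgba_sub_mem (hT : GBAbsTame p N I ω F actF u e' Fil r) {t : ℕ} (ht : t < e')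
    {x y : Ω} (hx : x ∈ Fil t) (hy : y ∈ Fil t) (hxy : r t x = r t y) :
    x - y ∈ Fil (t + 1) := by
  rw [← hT.r_ker t ht _ ((Fil t).sub_mem hx hy), wgba_r_sub hT ht hx hy, hxy, sub_self]

lemma wgba_u_one (hT : GBAbsTame p N I ω F actF u e' Fil r) {t : ℕ} (ht : t < e') :
    u 1 ^ t = 1 := by
  obtain ⟨x, hx, hx1⟩ := hT.r_surj t ht 1
  have h := hT.r_smul 1 t ht x hx
  rw [one_smul, hx1, map_one, mul_one] at h
  exact h.symm

lemma wgba_u_mul (hT : GBAbsTame p N I ω F actF u e' Fil r) {t : ℕ} (ht : t < e') (γ δ : G) :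
    u (γ * δ) ^ t = u γ ^ t * actF γ (u δ ^ t) := by
  obtain ⟨x, hx, hx1⟩ := hT.r_surj t ht 1
  have h1 := hT.r_smul (γ * δ) t ht x hx
  have h2 := hT.r_smul γ t ht (δ • x) (hT.stable δ t x hx)
  have h3 := hT.r_smul δ t ht x hx
  rw [mul_smul, h2, h3, hx1] at h1
  simp only [map_one, mul_one] at h1
  exact h1.symm

lemma wgba_u_N (hT : GBAbsTame p N I ω F actF u e' Fil r) {t : ℕ} (ht : t < e') {ν : G}
    (hν : ν ∈ N) (a : F) : u ν ^ t * actF ν a = a := by
  obtain ⟨x, hx, hxa⟩ := hT.r_surj t ht a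
  have h := hT.r_smul ν t ht x hx
  rw [hT.fixN ν hν x (wgba_fil_mono hT (Nat.zero_le t) hx), hxa] at h
  exact h.symm

lemma wgba_u_ne_zero [Fact p.Prime] (hT : GBAbsTame p N I ω F actF u e' Fil r) {σ : G}
    (hσ : σ ∈ I)
    (he : 0 < e') : u σ ≠ 0 := by
  intro h0
  have h := hT.omega σ hσ
  rw [h0, zero_pow he.ne'] at h
  have h1 : (((ω σ : (ZMod p)ˣ) : ZMod p)) = 0 :=
    (algebraMap (ZMod p) F).injective (by rw [h, map_zero])
  exact (ω σ).ne_zero h1

end Tame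

/-! ### The subgroups `wgbaK t` -/

section Kum

variable {p : ℕ} {G Ω : Type} [Group G] [AddCommGroup Ω] [DistribMulAction G Ω]
  {N I 𝒩 : Subgroup G} {ω : G →* (ZMod p)ˣ} {κ : G → Ω → ZMod p}
  {F : Type} [Field F] [Algebra (ZMod p) F] {actF : G →* RingAut F} {u : G → F} {e' : ℕ}
  {Fil : ℕ → AddSubgroup Ω} {r : ℕ → Ω → F}

lemma wgba_kappa_one (hK : GBAbsKum p (I ⊓ N) 𝒩 (Fil 0) (Fil e') ω κ) {x : Ω} (hx : x ∈ Fil 0) :
    κ 1 x = 0 := by
  have h := hK.mul_left 1 (I ⊓ N).one_mem 1 (I ⊓ N).one_mem x hx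
  rw [mul_one] at h
  exact left_eq_add.mp h

lemma wgba_kappa_inv (hK : GBAbsKum p (I ⊓ N) 𝒩 (Fil 0) (Fil e') ω κ) {τ : G}
    (hτ : τ ∈ I ⊓ N) {x : Ω} (hx : x ∈ Fil 0) : κ τ⁻¹ x = - κ τ x := by
  have h := hK.mul_left τ⁻¹ ((I ⊓ N).inv_mem hτ) τ hτ x hx
  rw [inv_mul_cancel, wgba_kappa_one hK hx] at h
  exact eq_neg_of_add_eq_zero_left h.symm

/-- `wgbaK t = {τ ∈ J | κ τ = 0 on Fil t}`. -/
def wgbaK (hK : GBAbsKum p (I ⊓ N) 𝒩 (Fil 0) (Fil e') ω κ)
    (hT : GBAbsTame p N I ω F actF u e' Fil r) (t : ℕ) : Subgroup G where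
  carrier := {τ | τ ∈ I ⊓ N ∧ ∀ x ∈ Fil t, κ τ x = 0}
  mul_mem' := by
    rintro σ τ ⟨hσ, hσ'⟩ ⟨hτ, hτ'⟩
    refine ⟨(I ⊓ N).mul_mem hσ hτ, fun x hx => ?_⟩
    rw [hK.mul_left σ hσ τ hτ x (wgba_fil_mono hT (Nat.zero_le t) hx), hσ' x hx, hτ' x hx,
      add_zero]
  one_mem' := ⟨(I ⊓ N).one_mem, fun x hx =>
    wgba_kappa_one hK (wgba_fil_mono hT (Nat.zero_le t) hx)⟩
  inv_mem' := by
    rintro τ ⟨hτ, hτ'⟩
    refine ⟨(I ⊓ N).inv_mem hτ, fun x hx => ?_⟩
    rw [wgba_kappa_inv hK hτ (wgba_fil_mono hT (Nat.zero_le t) hx), hτ' x hx, neg_zero]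

lemma mem_wgbaK (hK : GBAbsKum p (I ⊓ N) 𝒩 (Fil 0) (Fil e') ω κ)
    (hT : GBAbsTame p N I ω F actF u e' Fil r) (t : ℕ) (τ : G) :
    τ ∈ wgbaK hK hT t ↔ τ ∈ I ⊓ N ∧ ∀ x ∈ Fil t, κ τ x = 0 := Iff.rfl

lemma wgbaK_mono (hK : GBAbsKum p (I ⊓ N) 𝒩 (Fil 0) (Fil e') ω κ)
    (hT : GBAbsTame p N I ω F actF u e' Fil r) {s t : ℕ} (hst : s ≤ t) :
    wgbaK hK hT s ≤ wgbaK hK hT t := by
  rintro τ ⟨hτ, hτ'⟩
  exact ⟨hτ, fun x hx => hτ' x (wgba_fil_mono hT hst hx)⟩

lemma wgbaK_zero_le (hK : GBAbsKum p (I ⊓ N) 𝒩 (Fil 0) (Fil e') ω κ)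
    (hT : GBAbsTame p N I ω F actF u e' Fil r) : wgbaK hK hT 0 ≤ 𝒩 := by
  rintro τ ⟨hτ, hτ'⟩
  exact hK.detect τ hτ hτ'

lemma wgbaK_top (hK : GBAbsKum p (I ⊓ N) 𝒩 (Fil 0) (Fil e') ω κ)
    (hT : GBAbsTame p N I ω F actF u e' Fil r) {τ : G} (hτ : τ ∈ I ⊓ N) :
    τ ∈ wgbaK hK hT e' :=
  ⟨hτ, fun x hx => hK.vanish τ hτ x hx⟩

lemma wgba_smul_mem (hT : GBAbsTame p N I ω F actF u e' Fil r) (γ : G) {t : ℕ} {x : Ω}
    (hx : x ∈ Fil t) : γ • x ∈ Fil t := hT.stable γ t x hx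

lemma wgbaK_conj (hK : GBAbsKum p (I ⊓ N) 𝒩 (Fil 0) (Fil e') ω κ)
    (hT : GBAbsTame p N I ω F actF u e' Fil r) (hN : N.Normal) (hI : I.Normal) {t : ℕ}
    (γ : G) {τ : G} (hτ : τ ∈ wgbaK hK hT t) : γ * τ * γ⁻¹ ∈ wgbaK hK hT t := by
  obtain ⟨hτJ, hτ'⟩ := hτ
  refine ⟨⟨hI.conj_mem τ hτJ.1 γ, hN.conj_mem τ hτJ.2 γ⟩, fun x hx => ?_⟩
  have h1 : γ⁻¹ • x ∈ Fil t := hT.stable γ⁻¹ t x hx
  have h2 := hK.conj γ τ hτJ (γ⁻¹ • x) (wgba_fil_mono hT (Nat.zero_le t) h1)
  rw [smul_inv_smul] at h2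
  rw [h2, hτ' _ h1, mul_zero]

/-- two elements of `Fil t` with the same image under `r t` have the same symbol against
`τ ∈ wgbaK (t + 1)` -/
lemma wgba_kappa_eq (hK : GBAbsKum p (I ⊓ N) 𝒩 (Fil 0) (Fil e') ω κ)
    (hT : GBAbsTame p N I ω F actF u e' Fil r) {t : ℕ} (ht : t < e') {τ : G}
    (hτ : τ ∈ wgbaK hK hT (t + 1)) {x y : Ω} (hx : x ∈ Fil t) (hy : y ∈ Fil t)
    (hxy : r t x = r t y) : κ τ x = κ τ y := by
  have h1 : x - y ∈ Fil (t + 1) := wgba_sub_mem hT ht hx hy hxy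
  have h2 := hK.add_right τ hτ.1 (x - y) (wgba_fil_mono hT (Nat.zero_le _) h1) y
    (wgba_fil_mono hT (Nat.zero_le _) hy)
  rw [sub_add_cancel, hτ.2 _ h1, zero_add] at h2
  exact h2

/-- **The functionals `D τ`.** -/
theorem wgba_exists_D [Fact p.Prime] (hK : GBAbsKum p (I ⊓ N) 𝒩 (Fil 0) (Fil e') ω κ)
    (hT : GBAbsTame p N I ω F actF u e' Fil r) {t : ℕ} (ht : t < e') :
    ∃ D : G → Module.Dual (ZMod p) F,
      ∀ τ ∈ wgbaK hK hT (t + 1), ∀ x ∈ Fil t, D τ (r t x) = κ τ x := by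
  classical
  have key : ∀ τ : G, ∃ d : Module.Dual (ZMod p) F,
      τ ∈ wgbaK hK hT (t + 1) → ∀ x ∈ Fil t, d (r t x) = κ τ x := by
    intro τ
    by_cases hτ : τ ∈ wgbaK hK hT (t + 1)
    · choose lift hlift hlift' using hT.r_surj t ht
      have hval : ∀ x ∈ Fil t, κ τ (lift (r t x)) = κ τ x := fun x hx =>
        wgba_kappa_eq hK hT ht hτ (hlift _) hx (hlift' _)
      have hadd : ∀ a b : F, κ τ (lift (a + b)) = κ τ (lift a) + κ τ (lift b) := by
        intro a b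
        have h1 : r t (lift (a + b)) = r t (lift a + lift b) := by
          rw [hT.r_add t ht _ (hlift a) _ (hlift b), hlift', hlift', hlift']
        rw [wgba_kappa_eq hK hT ht hτ (hlift _) ((Fil t).add_mem (hlift a) (hlift b)) h1,
          hK.add_right τ hτ.1 _ (wgba_fil_mono hT (Nat.zero_le _) (hlift a)) _
            (wgba_fil_mono hT (Nat.zero_le _) (hlift b))]
      have hzero : κ τ (lift 0) = 0 := by
        have h := hadd 0 0
        rw [add_zero] at h
        exact left_eq_add.mp h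
      refine ⟨AddMonoidHom.toZModLinearMap p
        { toFun := fun a => κ τ (lift a), map_zero' := hzero, map_add' := hadd }, fun _ x hx => ?_⟩
      exact hval x hx
    · exact ⟨0, fun h => absurd h hτ⟩
  choose D hD using key
  exact ⟨D, hD⟩

end Kum

/-! ### The twisted operators on `F ⊗ W` -/

section Op

variable {p : ℕ} {G : Type} [Group G]
  {F : Type} [Field F] [Algebra (ZMod p) F]
  {W : Type} [AddCommGroup W] [Module (ZMod p) W]

/-- `a ↦ u γ ^ t * γ a` as a `ZMod p`-linear map. -/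
def wgbaM (p : ℕ) {G F : Type} [Group G] [Field F] [Algebra (ZMod p) F]
    (actF : G →* RingAut F) (u : G → F) (t : ℕ) (γ : G) : F →ₗ[ZMod p] F :=
  AddMonoidHom.toZModLinearMap p
    ((AddMonoidHom.mulLeft (u γ ^ t)).comp (RingEquiv.toRingHom (actF γ)).toAddMonoidHom)

lemma wgbaM_apply (actF : G →* RingAut F) (u : G → F) (t : ℕ) (γ : G) (a : F) :
    wgbaM p actF u t γ a = u γ ^ t * actF γ a := rfl

/-- the twisted operator `a ⊗ w ↦ (u γ ^ t · γ a) ⊗ ω(γ)⁻¹ ρ(γ) w` -/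
def wgbaA (p : ℕ) {G F W : Type} [Group G] [Field F] [Algebra (ZMod p) F]
    [AddCommGroup W] [Module (ZMod p) W]
    (actF : G →* RingAut F) (u : G → F) (ω : G →* (ZMod p)ˣ) (ρ : Representation (ZMod p) G W)
    (t : ℕ) (γ : G) : F ⊗[ZMod p] W →ₗ[ZMod p] F ⊗[ZMod p] W :=
  TensorProduct.map (wgbaM p actF u t γ) ((((ω γ)⁻¹ : (ZMod p)ˣ) : ZMod p) • ρ γ)

lemma wgbaA_tmul (actF : G →* RingAut F) (u : G → F) (ω : G →* (ZMod p)ˣ)
    (ρ : Representation (ZMod p) G W) (t : ℕ) (γ : G) (a : F) (w : W) :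
    wgbaA p actF u ω ρ t γ (a ⊗ₜ[ZMod p] w) =
      (u γ ^ t * actF γ a) ⊗ₜ[ZMod p] ((((ω γ)⁻¹ : (ZMod p)ˣ) : ZMod p) • ρ γ w) := by
  rw [wgbaA, TensorProduct.map_tmul, wgbaM_apply, LinearMap.smul_apply]

/-- semilinearity -/
lemma wgbaA_semi (actF : G →* RingAut F) (u : G → F) (ω : G →* (ZMod p)ˣ)
    (ρ : Representation (ZMod p) G W) (t : ℕ) (γ : G) (c : F) (z : F ⊗[ZMod p] W) :
    wgbaA p actF u ω ρ t γ (c • z) = actF γ c • wgbaA p actF u ω ρ t γ z := by
  induction z using TensorProduct.induction_on with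
  | zero => rw [smul_zero, map_zero, smul_zero]
  | tmul a w =>
    rw [TensorProduct.smul_tmul', wgbaA_tmul, wgbaA_tmul, TensorProduct.smul_tmul', smul_eq_mul,
      smul_eq_mul, map_mul]
    congr 1
    ring
  | add x y hx hy => rw [smul_add, map_add, hx, hy, map_add, smul_add]

end Op

section OpTame

variable {p : ℕ} [Fact p.Prime] {G Ω : Type} [Group G] [AddCommGroup Ω] [DistribMulAction G Ω]
  {N I 𝒩 : Subgroup G} {ω : G →* (ZMod p)ˣ} {κ : G → Ω → ZMod p}
  {F : Type} [Field F] [Algebra (ZMod p) F] {actF : G →* RingAut F} {u : G → F} {e' : ℕ}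
  {Fil : ℕ → AddSubgroup Ω} {r : ℕ → Ω → F}
  {W : Type} [AddCommGroup W] [Module (ZMod p) W]

lemma wgbaA_mul (hT : GBAbsTame p N I ω F actF u e' Fil r) (ρ : Representation (ZMod p) G W)
    {t : ℕ} (ht : t < e') (γ δ : G) (z : F ⊗[ZMod p] W) :
    wgbaA p actF u ω ρ t (γ * δ) z =
      wgbaA p actF u ω ρ t γ (wgbaA p actF u ω ρ t δ z) := by
  induction z using TensorProduct.induction_on with
  | zero => rw [map_zero, map_zero, map_zero]
  | tmul a w =>
    rw [wgbaA_tmul, wgbaA_tmul, wgbaA_tmul, wgba_u_mul hT ht, map_mul actF, RingAut.mul_apply,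
      map_mul (actF γ), map_mul ω, mul_inv, Units.val_mul, map_mul ρ, Module.End.mul_apply,
      map_smul, smul_smul, mul_assoc]
  | add x y hx hy => rw [map_add, map_add, map_add, hx, hy]

lemma wgbaA_N (hT : GBAbsTame p N I ω F actF u e' Fil r) (ρ : Representation (ZMod p) G W)
    (hρ : ∀ γ ∈ N, ρ γ = 1) {t : ℕ} (ht : t < e') {ν : G} (hν : ν ∈ N)
    (z : F ⊗[ZMod p] W) : wgbaA p actF u ω ρ t ν z = z := by
  induction z using TensorProduct.induction_on with
  | zero => rw [map_zero]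
  | tmul a w =>
    rw [wgbaA_tmul, wgba_u_N hT ht hν, hT.omegaN ν hν, inv_one, Units.val_one, one_smul, hρ ν hν,
      Module.End.one_apply]
  | add x y hx hy => rw [map_add, hx, hy]

lemma wgbaA_inert (hT : GBAbsTame p N I ω F actF u e' Fil r) (ρ : Representation (ZMod p) G W)
    (t : ℕ) {σ : G} (hσ : σ ∈ I) (z : F ⊗[ZMod p] W) :
    wgbaA p actF u ω ρ t σ z =
      (algebraMap (ZMod p) F (((ω σ)⁻¹ : (ZMod p)ˣ) : ZMod p) * u σ ^ t) •
        (ρ σ).baseChange F z := by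
  induction z using TensorProduct.induction_on with
  | zero => rw [map_zero, map_zero, smul_zero]
  | tmul a w =>
    rw [wgbaA_tmul, LinearMap.baseChange_tmul, hT.act_inert σ hσ, RingAut.one_apply,
      TensorProduct.tmul_smul, ← algebraMap_smul F, TensorProduct.smul_tmul',
      TensorProduct.smul_tmul', smul_eq_mul, smul_eq_mul, mul_assoc]
  | add x y hx hy => rw [map_add, map_add, hx, hy, smul_add]

/-- a vector fixed by the twisted operators of inertia lies in `E_{e' - t}` -/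
lemma wgbaA_fixed_mem (hT : GBAbsTame p N I ω F actF u e' Fil r)
    (ρ : Representation (ZMod p) G W) {t : ℕ} (ht : t < e') (z : F ⊗[ZMod p] W)
    (hz : ∀ σ ∈ I, wgbaA p actF u ω ρ t σ z = z) : z ∈ gbEig p F ρ I u (e' - t) := by
  intro σ hσ
  have h1 := hz σ hσ
  rw [wgbaA_inert hT ρ t hσ] at h1
  have hu : u σ ≠ 0 := wgba_u_ne_zero hT hσ (lt_of_le_of_lt (Nat.zero_le t) ht)
  have h2 : algebraMap (ZMod p) F (((ω σ)⁻¹ : (ZMod p)ˣ) : ZMod p) * u σ ^ e' = 1 := by
    rw [← hT.omega σ hσ, ← map_mul, Units.inv_mul, map_one]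
  have h3 : u σ ^ (e' - t) * (algebraMap (ZMod p) F (((ω σ)⁻¹ : (ZMod p)ˣ) : ZMod p) * u σ ^ t)
      = 1 := by
    rw [← h2, mul_left_comm, ← pow_add, Nat.sub_add_cancel ht.le]
  calc (ρ σ).baseChange F z
      = (u σ ^ (e' - t) * (algebraMap (ZMod p) F (((ω σ)⁻¹ : (ZMod p)ˣ) : ZMod p) * u σ ^ t)) •
          (ρ σ).baseChange F z := by rw [h3, one_smul]
    _ = u σ ^ (e' - t) • z := by rw [mul_smul, h1]

end OpTame

/-! ### Equivariance of `D` and the invariant lift -/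

section Lift

variable {p : ℕ} [Fact p.Prime] {G Ω : Type} [Group G] [AddCommGroup Ω] [DistribMulAction G Ω]
  {N I 𝒩 : Subgroup G} {ω : G →* (ZMod p)ˣ} {κ : G → Ω → ZMod p}
  {F : Type} [Field F] [Algebra (ZMod p) F] {actF : G →* RingAut F} {u : G → F} {e' : ℕ}
  {Fil : ℕ → AddSubgroup Ω} {r : ℕ → Ω → F}
  {W : Type} [AddCommGroup W] [Module (ZMod p) W]

lemma wgba_D_mul (hK : GBAbsKum p (I ⊓ N) 𝒩 (Fil 0) (Fil e') ω κ)
    (hT : GBAbsTame p N I ω F actF u e' Fil r) {t : ℕ} (ht : t < e')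
    (D : G → Module.Dual (ZMod p) F)
    (hD : ∀ τ ∈ wgbaK hK hT (t + 1), ∀ x ∈ Fil t, D τ (r t x) = κ τ x)
    {σ τ : G} (hσ : σ ∈ wgbaK hK hT (t + 1)) (hτ : τ ∈ wgbaK hK hT (t + 1)) :
    D (σ * τ) = D σ + D τ := by
  refine LinearMap.ext (fun a => ?_)
  obtain ⟨x, hx, rfl⟩ := hT.r_surj t ht a
  rw [LinearMap.add_apply, hD _ ((wgbaK hK hT (t + 1)).mul_mem hσ hτ) x hx, hD σ hσ x hx,
    hD τ hτ x hx, hK.mul_left σ hσ.1 τ hτ.1 x (wgba_fil_mono hT (Nat.zero_le t) hx)]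

lemma wgba_D_eq_zero (hK : GBAbsKum p (I ⊓ N) 𝒩 (Fil 0) (Fil e') ω κ)
    (hT : GBAbsTame p N I ω F actF u e' Fil r) {t : ℕ}
    (D : G → Module.Dual (ZMod p) F)
    (hD : ∀ τ ∈ wgbaK hK hT (t + 1), ∀ x ∈ Fil t, D τ (r t x) = κ τ x)
    {τ : G} (hτ : τ ∈ wgbaK hK hT (t + 1)) (h0 : D τ = 0) : τ ∈ wgbaK hK hT t := by
  refine ⟨hτ.1, fun x hx => ?_⟩
  rw [← hD τ hτ x hx, h0, LinearMap.zero_apply]

lemma wgba_D_conj (hK : GBAbsKum p (I ⊓ N) 𝒩 (Fil 0) (Fil e') ω κ)
    (hT : GBAbsTame p N I ω F actF u e' Fil r) (hN : N.Normal) (hI : I.Normal)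
    {t : ℕ} (ht : t < e') (D : G → Module.Dual (ZMod p) F)
    (hD : ∀ τ ∈ wgbaK hK hT (t + 1), ∀ x ∈ Fil t, D τ (r t x) = κ τ x)
    (γ : G) {τ : G} (hτ : τ ∈ wgbaK hK hT (t + 1)) (a : F) :
    D (γ⁻¹ * τ * γ⁻¹⁻¹) a =
      (((ω γ)⁻¹ : (ZMod p)ˣ) : ZMod p) * D τ (u γ ^ t * actF γ a) := by
  obtain ⟨x, hx, rfl⟩ := hT.r_surj t ht a
  have hy : γ • x ∈ Fil t := hT.stable γ t x hx
  have h1 := hK.conj γ⁻¹ τ hτ.1 (γ • x) (wgba_fil_mono hT (Nat.zero_le t) hy)
  rw [inv_smul_smul, map_inv] at h1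
  rw [hD _ (wgbaK_conj hK hT hN hI γ⁻¹ hτ) x hx, h1, ← hT.r_smul γ t ht x hx, hD τ hτ _ hy]

/-- `R (A γ z) (D τ) = ρ γ (R z (D (γ⁻¹ τ γ)))` -/
lemma wgbaR_A (hK : GBAbsKum p (I ⊓ N) 𝒩 (Fil 0) (Fil e') ω κ)
    (hT : GBAbsTame p N I ω F actF u e' Fil r) (hN : N.Normal) (hI : I.Normal)
    (ρ : Representation (ZMod p) G W)
    {t : ℕ} (ht : t < e') (D : G → Module.Dual (ZMod p) F)
    (hD : ∀ τ ∈ wgbaK hK hT (t + 1), ∀ x ∈ Fil t, D τ (r t x) = κ τ x)
    (γ : G) {τ : G} (hτ : τ ∈ wgbaK hK hT (t + 1)) (z : F ⊗[ZMod p] W) :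
    wgbaR (ZMod p) F W (wgbaA p actF u ω ρ t γ z) (D τ) =
      ρ γ (wgbaR (ZMod p) F W z (D (γ⁻¹ * τ * γ⁻¹⁻¹))) := by
  induction z using TensorProduct.induction_on with
  | zero => simp only [map_zero, LinearMap.zero_apply]
  | tmul a w =>
    rw [wgbaA_tmul, wgbaR_tmul, wgbaR_tmul, wgba_D_conj hK hT hN hI ht D hD γ hτ, map_smul,
      smul_smul, mul_comm]
  | add x y hx hy => simp only [map_add, LinearMap.add_apply, hx, hy]

/-- **The invariant lift** (duality + Maschke).  A function `h`, additive on `J`, equivariant,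
vanishing on `wgbaK t`, is on `wgbaK (t + 1)` of the form `τ ↦ R z (D τ)` for a vector `z` fixed by
all twisted operators. -/
theorem wgba_lift [Module.Finite (ZMod p) F]
    (hK : GBAbsKum p (I ⊓ N) 𝒩 (Fil 0) (Fil e') ω κ)
    (hT : GBAbsTame p N I ω F actF u e' Fil r) (hN : N.Normal) (hI : I.Normal)
    (hidx : N.index ≠ 0) (hp : ¬ p ∣ N.index)
    (ρ : Representation (ZMod p) G W) (hρ : ∀ γ ∈ N, ρ γ = 1)
    {t : ℕ} (ht : t < e') (D : G → Module.Dual (ZMod p) F)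
    (hD : ∀ τ ∈ wgbaK hK hT (t + 1), ∀ x ∈ Fil t, D τ (r t x) = κ τ x)
    (h : G → W)
    (hadd : ∀ σ τ, σ ∈ I ⊓ N → τ ∈ I ⊓ N → h (σ * τ) = h σ + h τ)
    (hequiv : ∀ (γ τ : G), τ ∈ I ⊓ N → h (γ * τ * γ⁻¹) = ρ γ (h τ))
    (hvan : ∀ τ ∈ wgbaK hK hT t, h τ = 0) :
    ∃ z : F ⊗[ZMod p] W, (∀ γ, wgbaA p actF u ω ρ t γ z = z) ∧
      ∀ τ ∈ wgbaK hK hT (t + 1), wgbaR (ZMod p) F W z (D τ) = h τ := by
  obtain ⟨z₀, hz₀⟩ := wgba_exists_tensor_group (wgbaK hK hT (t + 1)) D h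
    (fun σ hσ τ hτ => wgba_D_mul hK hT ht D hD hσ hτ)
    (fun σ hσ τ hτ => hadd σ τ hσ.1 hτ.1)
    (fun τ hτ h0 => hvan τ (wgba_D_eq_zero hK hT D hD hτ h0))
  set ℓ : F ⊗[ZMod p] W →ₗ[ZMod p] (wgbaK hK hT (t + 1) → W) :=
    LinearMap.pi (fun τ => (LinearMap.applyₗ (D τ.1)).comp (wgbaR (ZMod p) F W)) with hℓ
  have hℓ_apply : ∀ z (τ : wgbaK hK hT (t + 1)), ℓ z τ = wgbaR (ZMod p) F W z (D τ.1) :=
    fun z τ => rfl
  have hcard : ((N.index : ℕ) : ZMod p) ≠ 0 := by
    rw [Ne, ZMod.natCast_eq_zero_iff]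
    exact hp
  obtain ⟨z, hzfix, hzℓ⟩ := wgba_average (wgbaA p actF u ω ρ t)
    (fun γ δ z => wgbaA_mul hT ρ ht γ δ z) N (fun ν hν z => wgbaA_N hT ρ hρ ht hν z)
    hidx hcard ℓ z₀ (by
      intro γ
      funext τ
      rw [hℓ_apply, hℓ_apply, wgbaR_A hK hT hN hI ρ ht D hD γ τ.2,
        hz₀ _ (wgbaK_conj hK hT hN hI γ⁻¹ τ.2), hz₀ _ τ.2, hequiv γ⁻¹ τ.1 τ.2.1,
        ← Module.End.mul_apply, ← map_mul, mul_inv_cancel, map_one, Module.End.one_apply])
  refine ⟨z, hzfix, fun τ hτ => ?_⟩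
  have h1 := congrFun hzℓ ⟨τ, hτ⟩
  rw [hℓ_apply, hℓ_apply] at h1
  rw [h1, hz₀ τ hτ]

end Lift

end Fermat.Agent.TW.W


end ZBTW_068_1

/-! ### bundled: `Fermat.Agent.TW.W.GBAlg` -/
section ZBTW_068_2
/-
TW-W, block (GB), piece GB-ALG (helper79): **the abstract count** `stmtGBAlg : StmtGBAlg`
(`TW/W/GBAbs.lean`).

Dévissage along `wgbaK 0 ≤ wgbaK 1 ≤ … ≤ wgbaK e' = J` (`wgbaK t = {τ ∈ J | κ τ = 0 on Fil t}`):
`S_t = {h ∈ S | h = 0 on wgbaK t}`, `S_0 = S`, `S_{e'} = 0`, and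
`dim S_t ≤ dim S_{t+1} + dim_F E_{e' - t}`:
the restriction of `h ∈ S_t` to `wgbaK (t + 1)` is `τ ↦ R z (D τ)` for a vector `z ∈ F ⊗ W` fixed
by the twisted operators (`wgba_lift`: duality + Maschke), and the space of such `z` has
`𝔽_p`-dimension `≤ dim_F E_{e' - t}` (semilinear descent, `wgba_finrank_fixed_le`).
-/

set_option autoImplicit false

open scoped TensorProduct

namespace Fermat.Agent.TW.W

open Module

section Main

variable {p : ℕ} [Fact p.Prime] {G Ω : Type} [Group G] [AddCommGroup Ω] [DistribMulAction G Ω]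
  {N I 𝒩 : Subgroup G} {ω : G →* (ZMod p)ˣ} {κ : G → Ω → ZMod p}
  {F : Type} [Field F] [Algebra (ZMod p) F] {actF : G →* RingAut F} {u : G → F} {e' : ℕ}
  {Fil : ℕ → AddSubgroup Ω} {r : ℕ → Ω → F}
  {W : Type} [AddCommGroup W] [Module (ZMod p) W]

/-- the functions `G → W` vanishing on a subgroup -/
def wgbaVan (p : ℕ) {G : Type} [Group G] (W : Type) [AddCommGroup W] [Module (ZMod p) W]
    (H : Subgroup G) : Submodule (ZMod p) (G → W) where
  carrier := {h | ∀ τ ∈ H, h τ = 0}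
  add_mem' := fun {a b} ha hb τ hτ => by rw [Pi.add_apply, ha τ hτ, hb τ hτ, add_zero]
  zero_mem' := fun _ _ => rfl
  smul_mem' := fun c a ha τ hτ => by rw [Pi.smul_apply, ha τ hτ, smul_zero]

/-- the vectors of `F ⊗ W` fixed by the twisted operators -/
def wgbaInv (p : ℕ) {G F W : Type} [Group G] [Field F] [Algebra (ZMod p) F]
    [AddCommGroup W] [Module (ZMod p) W]
    (actF : G →* RingAut F) (u : G → F) (ω : G →* (ZMod p)ˣ) (ρ : Representation (ZMod p) G W)
    (t : ℕ) : Submodule (ZMod p) (F ⊗[ZMod p] W) where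
  carrier := {z | ∀ γ, wgbaA p actF u ω ρ t γ z = z}
  add_mem' := fun {a b} ha hb γ => by rw [map_add, ha γ, hb γ]
  zero_mem' := fun γ => map_zero _
  smul_mem' := fun c a ha γ => by rw [map_smul, ha γ]

/-- **semilinear descent** for the twisted operators -/
theorem wgbaInv_finrank_le [Module.Finite (ZMod p) W]
    (hT : GBAbsTame p N I ω F actF u e' Fil r) (ρ : Representation (ZMod p) G W)
    {t : ℕ} (ht : t < e') :
    Module.Finite (ZMod p) (wgbaInv p actF u ω ρ t) ∧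
      finrank (ZMod p) (wgbaInv p actF u ω ρ t) ≤ finrank F (gbEig p F ρ I u (e' - t)) := by
  refine wgba_finrank_fixed_le (K := ZMod p) (L := F) (V := F ⊗[ZMod p] W) (Γ := G)
    (fun γ a => actF γ a) (fun γ => (wgbaA p actF u ω ρ t γ).toAddMonoidHom)
    (fun γ => map_one _) (fun x hx => hT.act_fix x hx)
    (fun γ a v => wgbaA_semi actF u ω ρ t γ a v)
    (wgbaInv p actF u ω ρ t) (gbEig p F ρ I u (e' - t)) (fun z hz γ => hz γ)
    (fun z hz => wgbaA_fixed_mem hT ρ ht z (fun σ _ => hz σ))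

/-- **the step of the dévissage** -/
theorem wgba_step_main [Module.Finite (ZMod p) W]
    (hK : GBAbsKum p (I ⊓ N) 𝒩 (Fil 0) (Fil e') ω κ)
    (hT : GBAbsTame p N I ω F actF u e' Fil r) (hN : N.Normal) (hI : I.Normal)
    (hidx : N.index ≠ 0) (hp : ¬ p ∣ N.index)
    (ρ : Representation (ZMod p) G W) (hρ : ∀ γ ∈ N, ρ γ = 1)
    (S : Submodule (ZMod p) (G → W))
    (hS : ∀ h ∈ S, (∀ σ, σ ∉ I ⊓ N → h σ = 0) ∧
        (∀ σ τ, σ ∈ I ⊓ N → τ ∈ I ⊓ N → h (σ * τ) = h σ + h τ) ∧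
        (∀ τ ∈ 𝒩, h τ = 0) ∧
        ∀ (γ τ : G), τ ∈ I ⊓ N → h (γ * τ * γ⁻¹) = ρ γ (h τ))
    {t : ℕ} (ht : t < e')
    (hfin : Module.Finite (ZMod p) ↥(S ⊓ wgbaVan p W (wgbaK hK hT (t + 1)))) :
    Module.Finite (ZMod p) ↥(S ⊓ wgbaVan p W (wgbaK hK hT t)) ∧
      finrank (ZMod p) ↥(S ⊓ wgbaVan p W (wgbaK hK hT t)) ≤
        finrank (ZMod p) ↥(S ⊓ wgbaVan p W (wgbaK hK hT (t + 1))) +
          finrank F (gbEig p F ρ I u (e' - t)) := by
  have := hT.finite
  have : Module.Finite (ZMod p) F := Module.Finite.of_finite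
  obtain ⟨D, hD⟩ := wgba_exists_D hK hT ht
  obtain ⟨hZfin, hZle⟩ := wgbaInv_finrank_le (W := W) hT ρ ht
  have key := wgba_step (k := ZMod p) (S ⊓ wgbaVan p W (wgbaK hK hT t))
    (S ⊓ wgbaVan p W (wgbaK hK hT (t + 1)))
    (LinearMap.funLeft (ZMod p) W (Subtype.val : wgbaK hK hT (t + 1) → G))
    (fun v hv hres => ⟨hv.1, fun τ hτ => congrFun hres ⟨τ, hτ⟩⟩)
    (wgbaInv p actF u ω ρ t)
    (LinearMap.pi (fun τ : wgbaK hK hT (t + 1) =>
      (LinearMap.applyₗ (D τ.1)).comp (wgbaR (ZMod p) F W)))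
    (fun v hv => by
      obtain ⟨hv1, hv2, -, hv4⟩ := hS v hv.1
      obtain ⟨z, hzfix, hz⟩ := wgba_lift hK hT hN hI hidx hp ρ hρ ht D hD v hv2 hv4 hv.2
      refine ⟨z, hzfix, ?_⟩
      funext τ
      exact hz τ.1 τ.2)
  refine ⟨key.1, key.2.trans ?_⟩
  omega

end Main

/-- **GB-ALG, the abstract count.** -/
theorem stmtGBAlg : StmtGBAlg := by
  intro p _ G Ω _ _ _ N I 𝒩 hN hI hidx hp ω κ F _ _ actF u e' Fil r hK hT W _ _ _ ρ hρ S hS
  -- the induction along the filtration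
  have main : ∀ s t : ℕ, s + t = e' →
      Module.Finite (ZMod p) ↥(S ⊓ wgbaVan p W (wgbaK hK hT t)) ∧
        finrank (ZMod p) ↥(S ⊓ wgbaVan p W (wgbaK hK hT t)) ≤
          ∑ i ∈ Finset.Icc 1 s, finrank F (gbEig p F ρ I u i) := by
    intro s
    induction s with
    | zero =>
      intro t ht
      have hbot : S ⊓ wgbaVan p W (wgbaK hK hT t) = ⊥ := by
        rw [eq_bot_iff]
        rintro h ⟨hhS, hhV⟩
        rw [Submodule.mem_bot]
        funext σ
        by_cases hσ : σ ∈ I ⊓ N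
        · have h1 : σ ∈ wgbaK hK hT t := by
            have : t = e' := by omega
            rw [this]
            exact wgbaK_top hK hT hσ
          exact hhV σ h1
        · exact (hS h hhS).1 σ hσ
      rw [hbot]
      refine ⟨inferInstance, ?_⟩
      rw [finrank_bot]
      exact Nat.zero_le _
    | succ s ih =>
      intro t ht
      have ht' : t < e' := by omega
      obtain ⟨hfin, hle⟩ := ih (t + 1) (by omega)
      obtain ⟨h1, h2⟩ := wgba_step_main hK hT hN hI hidx hp ρ hρ S hS ht' hfin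
      refine ⟨h1, ?_⟩
      have h3 : e' - t = s + 1 := by omega
      rw [h3] at h2
      rw [Finset.sum_Icc_succ_top (by omega : 1 ≤ s + 1)]
      omega
  have hle : S ≤ wgbaVan p W (wgbaK hK hT 0) := by
    intro h hhS τ hτ
    exact (hS h hhS).2.2.1 τ (wgbaK_zero_le hK hT hτ)
  have h0 := main e' 0 (add_zero e')
  rw [inf_eq_left.2 hle] at h0
  exact h0

end Fermat.Agent.TW.W


end ZBTW_068_2
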