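/- GENERATED FILE (helper35, build-time optimisation, NOTES/ZB.md): verbatim concatenation of the modules
   Fermat.Agent.TW.W.GBGen
   Do not edit; do not import together with these modules. -/
import Fermat.Agent.ZB.TW_001
import Fermat.Agent.ZB.TW_004

/-! ### bundled: `Fermat.Agent.TW.W.GBGen` -/
section ZBTW_069_0
/-
TW-W, block (GB) (helper67): assembly of the general bound,
`stmtGBGen_of : StmtGBTame → StmtGBAlg → StmtGBGen`  (K1 = `stmtGBKum` is used directly).
-/

set_option autoImplicit false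
set_option linter.unusedSectionVars false
set_option linter.style.haveILetI false

namespace Fermat.Agent.TW.W

open CategoryTheory groupCohomology
open Fermat.Agent.PT Fermat.Agent.PT.B Fermat.Agent.TW.L ExtCitation

/-- two balls with the same radius coincide -/
theorem gbBall_congr (p : ℕ) [Fact p.Prime] (T : IntermediateField ℚ_[p] (PadicAlgCl p))
    {y y' : PadicAlgCl p} (h : ‖y‖ = ‖y'‖) : gbBall p T y = gbBall p T y' := by
  ext x
  rw [mem_gbBall, mem_gbBall, h]

/-- **GB-GEN** from K4 and GB-ALG. -/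
theorem stmtGBGen_of (hK4 : StmtGBTame) (hAlg : StmtGBAlg) : StmtGBGen := by
  intro p _ hp2 T hT
  obtain ⟨ζ, hζT, hζ1, hζp⟩ := hT.zeta
  obtain ⟨F, instF, instA, actF, u, e', π, r, htame, hπ, hfaith, -⟩ :=
    hK4 p hp2 T hT ζ hζT hζ1 hζp
  have hkum := stmtGBKum p hp2 T hT ζ hζT hζ1 hζp
  obtain ⟨hnorm, hidx, hpidx⟩ := stmtGoodIndex p T hT
  refine ⟨F, instF, instA, u, e', htame.omega, hfaith, ?_⟩
  intro W _ hW
  have h0 : gbBall p T (π ^ 0) = gbBall p T 1 := by rw [pow_zero]
  have he : gbBall p T (π ^ e') = gbBall p T (ζ - 1) :=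
    gbBall_congr p T (by rw [norm_pow, hπ])
  have hkum' : GBAbsKum p (inertiaQ p ⊓ T.fixingSubgroup) (lvN p T)
      ((fun t => gbBall p T (π ^ t)) 0) ((fun t => gbBall p T (π ^ t)) e') (gbOmega p)
      (gbKappa p ζ) := by
    show GBAbsKum p (inertiaQ p ⊓ T.fixingSubgroup) (lvN p T)
      (gbBall p T (π ^ 0)) (gbBall p T (π ^ e')) (gbOmega p) (gbKappa p ζ)
    rw [h0, he]
    exact hkum
  exact hAlg p (GQq p) (PadicAlgCl p) T.fixingSubgroup (inertiaQ p) (lvN p T) hnorm
    (wgr_inertiaQ_normal p) hidx hpidx (gbOmega p) (gbKappa p ζ) F actF u e'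
    (fun t => gbBall p T (π ^ t)) r hkum' htame W W.ρ hW (gbHom p T W)
    (fun h hh => (mem_gbHom p T W h).1 hh)

end Fermat.Agent.TW.W


end ZBTW_069_0
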