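/- GENERATED FILE (helper35, build-time optimisation, NOTES/ZB.md): verbatim concatenation of the modules
   Fermat.Agent.TW.L.GlobAd
   Fermat.Agent.TW.L.Final
   Fermat.Agent.TW.W.DevA
   Fermat.Agent.TW.W.DevFrame
   Fermat.Agent.TW.W.DevAd
   Fermat.Agent.TW.W.DevCoc
   Fermat.Agent.TW.W.DevPlan
   Fermat.Agent.TW.W.DevFix
   Fermat.Agent.TW.W.DevMaps
   Fermat.Agent.TW.W.DevI
   Fermat.Agent.TW.W.DevCount
   Fermat.Agent.TW.W.DevQ
   Fermat.Agent.TW.W.DevFinal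
   Fermat.Agent.TW.W.DevSwap
   Fermat.Agent.TW.W.DevAO
   Fermat.Agent.TW.W.DevO
   Fermat.Agent.TW.W.Dev2Tors
   Fermat.Agent.TW.W.DevFrameEx
   Fermat.Agent.TW.W.Dev
   Fermat.Agent.TW.W.GBAsm
   Fermat.Agent.TW.W.FinalPre
   Fermat.Agent.TW.W.GBIrrCount
   Fermat.Agent.TW.W.Final
   Do not edit; do not import together with these modules. -/
import Fermat.Agent.ZB.PT_003
import Mathlib.LinearAlgebra.Eigenspace.Triangularizable
import Mathlib.RingTheory.Flat.FaithfullyFlat.Basic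
import Mathlib.LinearAlgebra.Trace
import Fermat.Agent.ZB.TW_010
import Fermat.Agent.ZB.TW_011
import Fermat.Agent.ZB.TW_022
import Fermat.Agent.ZB.TW_023
import Fermat.Agent.ZB.TW_009
import Fermat.Agent.ZB.PT_015
import Fermat.Agent.ZB.TW_024
import Fermat.Agent.ZB.TW_025
import Fermat.Agent.ZB.TW_026
import Fermat.Agent.ZB.TW_027
import Fermat.Agent.ZB.TW_001
import Fermat.Agent.ZB.TW_012
import Fermat.Agent.ZB.TW_020
import Fermat.Agent.ZB.TW_015
import Fermat.Agent.ZB.TW_008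
import Fermat.Agent.ZB.TW_066
import Fermat.Agent.ZB.TW_005
import Fermat.Agent.ZB.TW_068
import Fermat.Agent.ZB.TW_069
import Fermat.Agent.ZB.TW_072
import Fermat.Agent.ZB.TW_071

/-! ### bundled: `Fermat.Agent.TW.L.GlobAd` -/
section ZBTW_028_0
/-
TW-L / L-glob0 (helper44): `h⁰(G_ℚ, ad⁰ ρ̄) = 0` — a trace-zero endomorphism commuting with an
absolutely irreducible two-dimensional `ρ̄` vanishes when `2 ≠ 0` (Schur over `k̄`).
-/

set_option autoImplicit false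

noncomputable section

namespace Fermat.Agent.TW.L

open TensorProduct

/-- Schur's lemma in the form we need: over an algebraically closed field, an endomorphism of a
nonzero finite-dimensional space commuting with a family of endomorphisms having no nontrivial
common stable subspace is a scalar. -/
theorem lglob0_schur {K : Type*} [Field K] [IsAlgClosed K] {W : Type*} [AddCommGroup W]
    [Module K W] [FiniteDimensional K W] [Nontrivial W] {ι : Type*} (r : ι → Module.End K W)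
    (hirr : ∀ U : Submodule K W, (∀ i, ∀ x ∈ U, r i x ∈ U) → U = ⊥ ∨ U = ⊤)
    (Y : Module.End K W) (hY : ∀ i, r i * Y = Y * r i) :
    ∃ c : K, Y = c • (1 : Module.End K W) := by
  obtain ⟨c, hc⟩ := Module.End.exists_eigenvalue Y
  refine ⟨c, ?_⟩
  have hstab : ∀ i, ∀ x ∈ Module.End.eigenspace Y c, r i x ∈ Module.End.eigenspace Y c := by
    intro i x hx
    rw [Module.End.mem_eigenspace_iff] at hx ⊢
    have h1 : Y (r i x) = r i (Y x) := by
      have := congrArg (fun f : Module.End K W => f x) (hY i)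
      simpa [Module.End.mul_apply] using this.symm
    rw [h1, hx, map_smul]
  rcases hirr _ hstab with h | h
  · exact absurd h hc
  · ext x
    have hx : x ∈ Module.End.eigenspace Y c := h ▸ Submodule.mem_top
    rw [Module.End.mem_eigenspace_iff] at hx
    simp [hx]

/-- **L-glob0**. -/
theorem stmtGlobAd : StmtGlobAd := by
  intro k _ ρbar h2 hirr X hcomm htr
  let K := AlgebraicClosure k
  let W := (ρbar.baseChange K).V
  haveI : Nontrivial W := by
    apply Module.nontrivial_of_finrank_pos (R := K)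
    rw [(ρbar.baseChange K).finrank_eq]; norm_num
  have hY : ∀ σ, (ρbar.baseChange K).ρ σ * X.baseChange K = X.baseChange K * (ρbar.baseChange K).ρ σ := by
    intro σ
    show (ρbar.ρ σ).baseChange K * X.baseChange K = X.baseChange K * (ρbar.ρ σ).baseChange K
    rw [← LinearMap.baseChange_mul, ← LinearMap.baseChange_mul, hcomm σ]
  obtain ⟨c, hc⟩ := lglob0_schur (K := K) (W := W) (fun σ => (ρbar.baseChange K).ρ σ)
    (fun U hU => hirr U hU) (X.baseChange K) hY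
  -- trace
  have htr' : LinearMap.trace K W (X.baseChange K) = 0 := by
    rw [LinearMap.trace_baseChange, htr, map_zero]
  have hc0 : c = 0 := by
    rw [hc, map_smul, LinearMap.trace_one, (ρbar.baseChange K).finrank_eq] at htr'
    have h2K : ((2 : ℕ) : K) ≠ 0 := by
      have : ((2 : ℕ) : K) = algebraMap k K 2 := by
        rw [map_ofNat]; norm_num
      rw [this]
      exact (map_ne_zero_iff _ (algebraMap k K).injective).mpr h2
    rw [smul_eq_mul] at htr'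
    rcases mul_eq_zero.mp htr' with h | h
    · exact h
    · exact absurd h h2K
  have hX0 : X.baseChange K = 0 := by rw [hc, hc0, zero_smul]
  ext v
  have h1 : (1 : K) ⊗ₜ[k] (X v) = 0 := by
    have := LinearMap.congr_fun hX0 ((1 : K) ⊗ₜ[k] v)
    rw [LinearMap.baseChange_tmul] at this
    exact this
  exact (Module.FaithfullyFlat.one_tmul_eq_zero_iff k (ρbar.V) (A := K) (X v)).mp h1

end Fermat.Agent.TW.L

end


end ZBTW_028_0

/-! ### bundled: `Fermat.Agent.TW.L.Final` -/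
section ZBTW_028_1
/-
TW-L (local computations for S56; sub-captain helper11): UNCONDITIONAL finals of all fifteen
pieces of `TW/L/Plan.lean` (+ `StmtTameGrp` of Plan2).  Import this file to use TW-L.

  `stmtDecFull`, `stmtFrobExists`, `stmtFrobGen`, `stmtTame`, `stmtTameGrp`, `stmtPowCardQp`,
  `stmtLKum`, `stmtImLe`, `stmtCentralizer`, `stmtArch`, `stmtGlobAd`, `stmtGlobAdTwist`
  are landed in their own files; here:
  `stmtUnrFrob`, `stmtUnrLe`, `stmtLTw`, `stmtLOrd`.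
-/

set_option autoImplicit false

namespace Fermat.Agent.TW.L

/-- **L-ev**, unconditional. -/
theorem stmtUnrFrob : StmtUnrFrob := stmtUnrFrob_of stmtFrobGen

/-- **L-min**, unconditional: `dim H¹_unr(G_q, M) ≤ h⁰(G_q, M)`. -/
theorem stmtUnrLe : StmtUnrLe := stmtUnrLe_of stmtFrobExists stmtFrobGen stmtUnrFrob

/-- **L-tw**, unconditional. -/
theorem stmtLTw : StmtLTw := stmtLTw_of stmtTame stmtUnrLe stmtFrobGen stmtFrobExists

/-- **L-ord**, unconditional. -/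
theorem stmtLOrd : StmtLOrd := stmtLOrd_of stmtImLe stmtLKum

end Fermat.Agent.TW.L


end ZBTW_028_1

/-! ### bundled: `Fermat.Agent.TW.W.DevA` -/
section ZBTW_028_2
/-
TW-W / W-dev (helper74), part A: general lemmas.

* `wdev_exists_submodule` : an additively closed nonempty subset of an `𝔽_p`-vector space is a
  subspace;
* `wdev_mem_levFlat` (Lemma A): `PLev z` forces every level cocycle `c` (of any `W`) which vanishes
  wherever `V_z` is trivial into `levFlatCocycles p W`;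
* `wdev_finrank_range_le` : the abstract two-step count;
* `wdev_count_irr` : `StmtCount` in the locally irreducible case.
-/

set_option autoImplicit false
set_option linter.unusedSectionVars false
set_option linter.unusedVariables false

noncomputable section

namespace Fermat.Agent.TW.W

open CategoryTheory groupCohomology IsLocalRing Polynomial
open Fermat.Agent.PT Fermat.Agent.PT.B Fermat.Agent.TW.L Fermat.Agent.TW.S Fermat.Agent.S53
  Fermat.Agent.W1 ExtCitation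

/-! ### Additively closed subsets of `𝔽_p`-vector spaces -/

section Sub

theorem wdev_nsmul_mem {X : Type*} [AddCommGroup X] (F : Set X) (hadd : ∀ x ∈ F, ∀ y ∈ F, x + y ∈ F) {x : X} (hx : x ∈ F)
    (n : ℕ) : (n + 1) • x ∈ F := by
  induction n with
  | zero => simpa using hx
  | succ n ih =>
    rw [succ_nsmul]
    exact hadd _ ih _ hx

theorem wdev_zero_mem (p : ℕ) [Fact p.Prime] {X : Type*} [AddCommGroup X] [Module (ZMod p) X]
    (F : Set X) (hadd : ∀ x ∈ F, ∀ y ∈ F, x + y ∈ F) {x : X} (hx : x ∈ F) :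
    (0 : X) ∈ F := by
  have hp : p.Prime := Fact.out
  have h := wdev_nsmul_mem F hadd hx (p - 1)
  rw [Nat.sub_add_cancel hp.one_le] at h
  have h0 : (p : ℕ) • x = 0 := by
    rw [← Nat.cast_smul_eq_nsmul (ZMod p), ZMod.natCast_self, zero_smul]
  rwa [h0] at h

/-- An additively closed nonempty subset of an `𝔽_p`-vector space is a subspace. -/
theorem wdev_exists_submodule (p : ℕ) [Fact p.Prime] {X : Type*} [AddCommGroup X]
    [Module (ZMod p) X] (F : Set X) (hadd : ∀ x ∈ F, ∀ y ∈ F, x + y ∈ F)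
    (hne : F.Nonempty) : ∃ Fs : Submodule (ZMod p) X, (Fs : Set X) = F := by
  obtain ⟨x₀, hx₀⟩ := hne
  refine ⟨{ carrier := F
            add_mem' := fun {a b} ha hb => hadd a ha b hb
            zero_mem' := wdev_zero_mem p F hadd hx₀
            smul_mem' := ?_ }, rfl⟩
  intro a x hx
  have ha : a • x = a.val • x := by
    conv_lhs => rw [← ZMod.natCast_zmod_val a]
    exact Nat.cast_smul_eq_nsmul (ZMod p) a.val x
  show a • x ∈ F
  rw [ha]
  rcases Nat.eq_zero_or_pos a.val with h | h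
  · rw [h, zero_smul]
    exact wdev_zero_mem p F hadd hx
  · have := wdev_nsmul_mem F hadd hx (a.val - 1)
    rwa [Nat.sub_add_cancel h] at this

end Sub

/-! ### The abstract count -/

section Abs

variable {K : Type*} [Field K] {Z X U : Type*} [AddCommGroup Z] [Module K Z]
  [AddCommGroup X] [Module K X] [AddCommGroup U] [Module K U]

/-- `π : Z → X`, `α : Z → U` with `ker π ≤ ker α`, `α(Z) ⊆ U₀`, `π(ker α) ⊆ I`:
`dim π(Z) ≤ dim U₀ + dim I`. -/
theorem wdev_finrank_range_le (π : Z →ₗ[K] X) (α : Z →ₗ[K] U) (hker : LinearMap.ker π ≤ LinearMap.ker α)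
    (U₀ : Submodule K U) [Module.Finite K U₀] (hU : ∀ z, α z ∈ U₀)
    (I : Submodule K X) [Module.Finite K I] (hI : ∀ z, α z = 0 → π z ∈ I) :
    Module.Finite K (LinearMap.range π) ∧
      Module.finrank K (LinearMap.range π) ≤ Module.finrank K U₀ + Module.finrank K I := by
  classical
  -- the induced map on `Z ⧸ ker π`
  let αbar : (Z ⧸ LinearMap.ker π) →ₗ[K] U₀ :=
    (LinearMap.ker π).liftQ (α.codRestrict U₀ hU) (by
      intro z hz
      rw [LinearMap.mem_ker]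
      apply Subtype.ext
      exact LinearMap.mem_ker.1 (hker hz))
  let e : (Z ⧸ LinearMap.ker π) ≃ₗ[K] LinearMap.range π := π.quotKerEquivRange
  -- the kernel of `αbar` maps injectively to `I`
  let j : LinearMap.ker αbar →ₗ[K] I :=
    LinearMap.codRestrict I
      ((LinearMap.range π).subtype ∘ₗ e.toLinearMap ∘ₗ (LinearMap.ker αbar).subtype)
      (by
        rintro ⟨q, hq⟩
        obtain ⟨z, rfl⟩ := Submodule.Quotient.mk_surjective _ q
        have h1 : α z = 0 := by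
          have := LinearMap.mem_ker.1 hq
          exact congrArg Subtype.val this
        exact hI z h1)
  have hj : Function.Injective j := by
    intro a b hab
    have h1 := congrArg (fun x : I => (x : X)) hab
    have h2 : ((e a.1 : LinearMap.range π) : X) = ((e b.1 : LinearMap.range π) : X) := h1
    exact Subtype.ext (e.injective (Subtype.ext h2))
  have : Module.Finite K (LinearMap.ker αbar) := Module.Finite.of_injective j hj
  have : Module.Finite K (LinearMap.range αbar) := inferInstance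
  have hfin : Module.Finite K (Z ⧸ LinearMap.ker π) := by
    have hq : Module.Finite K ((Z ⧸ LinearMap.ker π) ⧸ LinearMap.ker αbar) :=
      Module.Finite.equiv αbar.quotKerEquivRange.symm
    exact Module.Finite.of_submodule_quotient (LinearMap.ker αbar)
  have hfinR : Module.Finite K (LinearMap.range π) := Module.Finite.equiv e
  refine ⟨hfinR, ?_⟩
  have e1 := LinearMap.finrank_range_add_finrank_ker αbar
  have e2 : Module.finrank K (LinearMap.range αbar) ≤ Module.finrank K U₀ :=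
    Submodule.finrank_le _
  have e3 : Module.finrank K (LinearMap.ker αbar) ≤ Module.finrank K I :=
    LinearMap.finrank_le_finrank_of_injective hj
  have e4 : Module.finrank K (LinearMap.range π) = Module.finrank K (Z ⧸ LinearMap.ker π) :=
    (LinearEquiv.finrank_eq e).symm
  omega

end Abs

/-! ### Lemma A -/

section LemmaA

variable (p : ℕ) [Fact p.Prime] {k : Type} [Field k] (ρbar : ResidualGaloisRep k)

/-- **Lemma A.**  If `PLev z`, every level cocycle `c` (with values in any `W`) which vanishes at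
the `σ` with `ρ̄(σ) = 1`, `z(σ) = 0` lies in `levFlatCocycles p W`. -/
theorem wdev_mem_levFlat (z : GQq p → Module.End k ρbar.V) (hz : PLev p ρbar z)
    (W : Rep.{0} (ZMod p) (GQq p)) (c : cocycles₁ W)
    (hc : IsLevel₁ (towerLoc p) (c : GQq p → W))
    (h0 : ∀ σ, rhoLoc p ρbar σ = 1 → z σ = 0 → (c : GQq p → W) σ = 0) :
    c ∈ levFlatCocycles p W := by
  refine ⟨hc, fun T hT hW τ hτ => ?_⟩
  rw [← Module.forall_dual_apply_eq_zero_iff (ZMod p)]
  intro φ
  refine hz T hT (fun σ => φ ((c : GQq p → W) σ)) ?_ ?_ τ hτ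
  · intro σ τ' hσ hτ'
    have h1 := (mem_cocycles₁_iff (c : GQq p → W)).1 c.2 σ τ'
    show φ ((c : GQq p → W) (σ * τ')) = φ ((c : GQq p → W) σ) + φ ((c : GQq p → W) τ')
    rw [h1, hW σ hσ, Module.End.one_apply, map_add, add_comm]
  · intro σ hσ h1 h2
    show φ ((c : GQq p → W) σ) = 0
    rw [h0 σ h1 h2, map_zero]

end LemmaA

/-! ### The irreducible case -/

/-- `StmtCount` when `ρ̄|_{G_p}` is irreducible. -/
theorem wdev_count_irr (hirr : StmtGBIrr) (p : ℕ) [Fact p.Prime] (hp2 : p ≠ 2) (k : Type)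
    [Field k] [CharP k p] [Algebra (ZMod p) k] [Finite k] (ρbar : ResidualGaloisRep k)
    (hdet : (GaloisRepAdic.ofResidualGaloisRep ρbar).DetIsCyclotomic p)
    (hsplit : ∀ σ : GQ, ∃ α β : k, LinearMap.charpoly (ρbar.ρ σ) = (X - C α) * (X - C β))
    (hI : IsLocIrr p ρbar)
    (F : Set (H1 (locRep p (ad0Rep p ρbar))))
    (hrep : ∀ x ∈ F, ∃ z : cocycles₁ (locRep p (ad0Rep p ρbar)),
        (H1π (locRep p (ad0Rep p ρbar))).hom z = x ∧
        IsLevel₁ (towerLoc p) (z : GQq p → (ad0Rep p ρbar).V) ∧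
        PLev p ρbar (fun τ => ad0Val p ρbar ((z : GQq p → (ad0Rep p ρbar).V) τ)) ∧
        PEt1 p ρbar ∧
        PEt2 p ρbar (fun τ => ad0Val p ρbar ((z : GQq p → (ad0Rep p ρbar).V) τ))) :
    Module.Finite (ZMod p) (Submodule.span (ZMod p) F) ∧
      Module.finrank (ZMod p) (Submodule.span (ZMod p) F) ≤
        Module.finrank (ZMod p) k +
          Module.finrank (ZMod p) (locRep p (ad0Rep p ρbar)).ρ.invariants := by
  obtain ⟨hfin, hrank⟩ := hirr p hp2 k ρbar hdet hsplit hI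
  have hle : Submodule.span (ZMod p) F ≤ levFlatH1 p (locRep p (ad0Rep p ρbar)) := by
    refine Submodule.span_le.2 ?_
    intro x hx
    obtain ⟨z, hzx, hlev, hplev, -, -⟩ := hrep x hx
    refine (mem_levFlatH1 p _ x).2 ⟨z, ?_, hzx⟩
    refine wdev_mem_levFlat p ρbar _ hplev _ z hlev ?_
    intro σ _ h2
    exact ad0Val_injective p ρbar (by rw [h2, map_zero])
  have : Module.Finite (ZMod p) (levFlatH1 p (locRep p (ad0Rep p ρbar))) := hfin
  refine ⟨Module.Finite.of_injective (Submodule.inclusion hle)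
    (Submodule.inclusion_injective hle), ?_⟩
  have := Submodule.finrank_mono hle
  omega

end Fermat.Agent.TW.W

end


end ZBTW_028_2

/-! ### bundled: `Fermat.Agent.TW.W.DevFrame` -/
section ZBTW_028_3
/-
TW-W / W-dev (helper74), part B: frames.

A FRAME of `ρ̄|_{G_p}` is a basis `b` of `V̄` in which `ρ̄(σ)` is upper triangular for all
`σ ∈ G_p`:  `ρ̄(σ) = [[η₁, β], [0, η₂]]`.  Matrix form of the adjoint action and of cocycles.
-/

set_option autoImplicit false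
set_option linter.unusedSectionVars false
set_option linter.unusedVariables false

noncomputable section

namespace Fermat.Agent.TW.W

open CategoryTheory groupCohomology IsLocalRing Polynomial
open Fermat.Agent.PT Fermat.Agent.PT.B Fermat.Agent.TW.L Fermat.Agent.TW.S Fermat.Agent.S53
  Fermat.Agent.W1 ExtCitation

section Frame

variable (p : ℕ) [Fact p.Prime] {k : Type} [Field k] (ρbar : ResidualGaloisRep k)
  (b : Module.Basis (Fin 2) k ρbar.V)

lemma wdf_rhoLoc_mul (σ τ : GQq p) :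
    rhoLoc p ρbar (σ * τ) = rhoLoc p ρbar σ * rhoLoc p ρbar τ := by
  unfold rhoLoc
  rw [map_mul, map_mul]

lemma wdf_rhoLoc_one : rhoLoc p ρbar 1 = 1 := by
  unfold rhoLoc
  rw [map_one, map_one]

lemma wdf_rhoLoc_mul_inv (σ : GQq p) : rhoLoc p ρbar σ * rhoLoc p ρbar σ⁻¹ = 1 := by
  rw [← wdf_rhoLoc_mul, mul_inv_cancel, wdf_rhoLoc_one]

lemma wdf_rhoLoc_inv_mul (σ : GQq p) : rhoLoc p ρbar σ⁻¹ * rhoLoc p ρbar σ = 1 := by
  rw [← wdf_rhoLoc_mul, inv_mul_cancel, wdf_rhoLoc_one]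

/-- the matrix of `ρ̄(σ)` -/
def wdfM (σ : GQq p) : Matrix (Fin 2) (Fin 2) k := LinearMap.toMatrix b b (rhoLoc p ρbar σ)

lemma wdfM_mul (σ τ : GQq p) : wdfM p ρbar b (σ * τ) = wdfM p ρbar b σ * wdfM p ρbar b τ := by
  unfold wdfM
  rw [wdf_rhoLoc_mul, LinearMap.toMatrix_mul]

lemma wdfM_one : wdfM p ρbar b 1 = 1 := by
  unfold wdfM
  rw [wdf_rhoLoc_one, LinearMap.toMatrix_one]

lemma wdfM_eq_one_iff (σ : GQq p) : wdfM p ρbar b σ = 1 ↔ rhoLoc p ρbar σ = 1 := by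
  unfold wdfM
  constructor
  · intro h
    apply (LinearMap.toMatrix b b).injective
    rw [h, LinearMap.toMatrix_one]
  · intro h
    rw [h, LinearMap.toMatrix_one]

/-- `b` is a FRAME: `ρ̄|_{G_p}` is upper triangular in the basis `b`. -/
def IsFrame : Prop := ∀ σ : GQq p, wdfM p ρbar b σ 1 0 = 0

variable {p ρbar b}

lemma IsFrame.m00_mul (hb : IsFrame p ρbar b) (σ τ : GQq p) :
    wdfM p ρbar b (σ * τ) 0 0 = wdfM p ρbar b σ 0 0 * wdfM p ρbar b τ 0 0 := by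
  rw [wdfM_mul, Matrix.mul_apply, Fin.sum_univ_two, hb τ, mul_zero, add_zero]

lemma IsFrame.m11_mul (hb : IsFrame p ρbar b) (σ τ : GQq p) :
    wdfM p ρbar b (σ * τ) 1 1 = wdfM p ρbar b σ 1 1 * wdfM p ρbar b τ 1 1 := by
  rw [wdfM_mul, Matrix.mul_apply, Fin.sum_univ_two, hb σ, zero_mul, zero_add]

lemma IsFrame.m01_mul (hb : IsFrame p ρbar b) (σ τ : GQq p) :
    wdfM p ρbar b (σ * τ) 0 1 =
      wdfM p ρbar b σ 0 0 * wdfM p ρbar b τ 0 1 + wdfM p ρbar b σ 0 1 * wdfM p ρbar b τ 1 1 := by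
  rw [wdfM_mul, Matrix.mul_apply, Fin.sum_univ_two]

variable (p ρbar b) in
lemma wdfM_one_00 : wdfM p ρbar b 1 0 0 = 1 := by
  rw [wdfM_one]; rfl

variable (p ρbar b) in
lemma wdfM_one_11 : wdfM p ρbar b 1 1 1 = 1 := by
  rw [wdfM_one]; rfl

variable (p ρbar b) in
lemma wdfM_one_01 : wdfM p ρbar b 1 0 1 = 0 := by
  rw [wdfM_one]; rfl

/-- the character `η₁` (on the line `k b₀`) -/
def wdfEta1 (hb : IsFrame p ρbar b) : GQq p →* kˣ :=
  MonoidHom.toHomUnits
    { toFun := fun σ => wdfM p ρbar b σ 0 0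
      map_one' := wdfM_one_00 p ρbar b
      map_mul' := hb.m00_mul }

/-- the character `η₂` (on the quotient) -/
def wdfEta2 (hb : IsFrame p ρbar b) : GQq p →* kˣ :=
  MonoidHom.toHomUnits
    { toFun := fun σ => wdfM p ρbar b σ 1 1
      map_one' := wdfM_one_11 p ρbar b
      map_mul' := hb.m11_mul }

@[simp] lemma wdfEta1_coe (hb : IsFrame p ρbar b) (σ : GQq p) :
    ((wdfEta1 hb σ : kˣ) : k) = wdfM p ρbar b σ 0 0 := rfl

@[simp] lemma wdfEta2_coe (hb : IsFrame p ρbar b) (σ : GQq p) :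
    ((wdfEta2 hb σ : kˣ) : k) = wdfM p ρbar b σ 1 1 := rfl

/-- `χ = η₁ / η₂` -/
def wdfChi (hb : IsFrame p ρbar b) : GQq p →* kˣ := wdfEta1 hb / wdfEta2 hb

lemma wdfChi_mul_eta2 (hb : IsFrame p ρbar b) (σ : GQq p) :
    ((wdfChi hb σ : kˣ) : k) * wdfM p ρbar b σ 1 1 = wdfM p ρbar b σ 0 0 := by
  rw [← wdfEta1_coe hb, ← wdfEta2_coe hb, ← Units.val_mul]
  congr 1
  unfold wdfChi
  rw [MonoidHom.div_apply, div_mul_cancel]

lemma wdfChi_inv_mul_eta1 (hb : IsFrame p ρbar b) (σ : GQq p) :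
    (((wdfChi hb)⁻¹ σ : kˣ) : k) * wdfM p ρbar b σ 0 0 = wdfM p ρbar b σ 1 1 := by
  rw [← wdfEta1_coe hb, ← wdfEta2_coe hb, ← Units.val_mul]
  congr 1
  unfold wdfChi
  rw [MonoidHom.inv_apply, MonoidHom.div_apply, inv_div, div_mul_cancel]

lemma wdf_eta1_ne_zero (hb : IsFrame p ρbar b) (σ : GQq p) : wdfM p ρbar b σ 0 0 ≠ 0 := by
  rw [← wdfEta1_coe hb]
  exact Units.ne_zero _

lemma wdf_eta2_ne_zero (hb : IsFrame p ρbar b) (σ : GQq p) : wdfM p ρbar b σ 1 1 ≠ 0 := by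
  rw [← wdfEta2_coe hb]
  exact Units.ne_zero _

end Frame

end Fermat.Agent.TW.W

end


end ZBTW_028_3

/-! ### bundled: `Fermat.Agent.TW.W.DevAd` -/
section ZBTW_028_4
/-
TW-W / W-dev (helper74), part C: the adjoint representation in a frame.

`wdfMat b x` is the matrix of `x ∈ ad⁰`; the adjoint action `Y = σ·X` satisfies `Y M(σ) = M(σ) X`;
entrywise formulas in a frame; the three "entry cocycles".
-/

set_option autoImplicit false
set_option linter.unusedSectionVars false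
set_option linter.unusedVariables false

noncomputable section

namespace Fermat.Agent.TW.W

open CategoryTheory groupCohomology IsLocalRing Polynomial
open Fermat.Agent.PT Fermat.Agent.PT.B Fermat.Agent.TW.L Fermat.Agent.TW.S Fermat.Agent.S53
  Fermat.Agent.W1 ExtCitation

section Ad

variable (p : ℕ) [Fact p.Prime] {k : Type} [Field k] [CharP k p] (ρbar : ResidualGaloisRep k)
  (b : Module.Basis (Fin 2) k ρbar.V)

/-- the matrix of an element of `ad⁰` -/
def wdfMat : (ad0Rep p ρbar).V →+ Matrix (Fin 2) (Fin 2) k :=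
  ((LinearMap.toMatrix b b).toLinearMap.toAddMonoidHom).comp (ad0Val p ρbar)

lemma wdfMat_apply (x : (ad0Rep p ρbar).V) :
    wdfMat p ρbar b x = LinearMap.toMatrix b b (ad0Val p ρbar x) := rfl

lemma wdfMat_injective : Function.Injective (wdfMat p ρbar b) := by
  intro x y h
  apply ad0Val_injective p ρbar
  exact (LinearMap.toMatrix b b).injective h

lemma wdfMat_trace (x : (ad0Rep p ρbar).V) :
    wdfMat p ρbar b x 0 0 + wdfMat p ρbar b x 1 1 = 0 := by
  have h := trace_ad0Val p ρbar x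
  rw [LinearMap.trace_eq_matrix_trace k b, Matrix.trace_fin_two] at h
  exact h

lemma wdfMat_11 (x : (ad0Rep p ρbar).V) :
    wdfMat p ρbar b x 1 1 = - wdfMat p ρbar b x 0 0 :=
  eq_neg_of_add_eq_zero_right (wdfMat_trace p ρbar b x)

/-- every trace-zero matrix is the matrix of an element of `ad⁰` -/
lemma wdfMat_surj (X : Matrix (Fin 2) (Fin 2) k) (hX : X 0 0 + X 1 1 = 0) :
    ∃ x : (ad0Rep p ρbar).V, wdfMat p ρbar b x = X := by
  obtain ⟨x, hx⟩ := exists_ad0Val_eq p ρbar ((LinearMap.toMatrix b b).symm X) (by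
    rw [LinearMap.trace_eq_matrix_trace k b, LinearEquiv.apply_symm_apply, Matrix.trace_fin_two]
    exact hX)
  refine ⟨x, ?_⟩
  rw [wdfMat_apply, hx, LinearEquiv.apply_symm_apply]

/-- the adjoint action in matrix form: `Y M(σ) = M(σ) X` -/
lemma wdfMat_act (σ : GQq p) (x : (ad0Rep p ρbar).V) :
    wdfMat p ρbar b ((locRep p (ad0Rep p ρbar)).ρ σ x) * wdfM p ρbar b σ =
      wdfM p ρbar b σ * wdfMat p ρbar b x := by
  have h : ad0Val p ρbar ((locRep p (ad0Rep p ρbar)).ρ σ x) =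
      rhoLoc p ρbar σ * ad0Val p ρbar x * rhoLoc p ρbar σ⁻¹ := by
    show ad0Val p ρbar ((ad0Rep p ρbar).ρ (localGaloisToGlobal p σ) x) = _
    rw [ad0Val_ρ]
    unfold rhoLoc
    rw [map_inv (localGaloisToGlobal p) σ]
  rw [wdfMat_apply, wdfMat_apply, wdfM, ← LinearMap.toMatrix_mul, ← LinearMap.toMatrix_mul, h,
    mul_assoc, wdf_rhoLoc_inv_mul, mul_one]

variable {p ρbar b}

/-- entry `(1,0)` of the action -/
lemma IsFrame.act10 (hb : IsFrame p ρbar b) (σ : GQq p) (x : (ad0Rep p ρbar).V) :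
    wdfMat p ρbar b ((locRep p (ad0Rep p ρbar)).ρ σ x) 1 0 =
      (((wdfChi hb)⁻¹ σ : kˣ) : k) * wdfMat p ρbar b x 1 0 := by
  have h := congrFun (congrFun (wdfMat_act p ρbar b σ x) 1) 0
  rw [Matrix.mul_apply, Matrix.mul_apply, Fin.sum_univ_two, Fin.sum_univ_two, hb σ, mul_zero,
    add_zero, zero_mul, zero_add] at h
  have h1 := wdf_eta1_ne_zero hb σ
  rw [← wdfChi_inv_mul_eta1 hb σ] at h
  have h2 : wdfMat p ρbar b ((locRep p (ad0Rep p ρbar)).ρ σ x) 1 0 * wdfM p ρbar b σ 0 0 =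
      ((((wdfChi hb)⁻¹ σ : kˣ) : k) * wdfMat p ρbar b x 1 0) * wdfM p ρbar b σ 0 0 := by
    rw [h]; ring
  exact mul_right_cancel₀ h1 h2

/-- entry `(0,0)` of the action on `B⁰` -/
lemma IsFrame.act00 (hb : IsFrame p ρbar b) (σ : GQq p) (x : (ad0Rep p ρbar).V)
    (hx : wdfMat p ρbar b x 1 0 = 0) :
    wdfMat p ρbar b ((locRep p (ad0Rep p ρbar)).ρ σ x) 0 0 = wdfMat p ρbar b x 0 0 := by
  have h := congrFun (congrFun (wdfMat_act p ρbar b σ x) 0) 0
  rw [Matrix.mul_apply, Matrix.mul_apply, Fin.sum_univ_two, Fin.sum_univ_two, hb σ, mul_zero,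
    add_zero, hx, mul_zero, add_zero] at h
  have h1 := wdf_eta1_ne_zero hb σ
  have h2 : wdfMat p ρbar b ((locRep p (ad0Rep p ρbar)).ρ σ x) 0 0 * wdfM p ρbar b σ 0 0 =
      wdfMat p ρbar b x 0 0 * wdfM p ρbar b σ 0 0 := by
    rw [h]; ring
  exact mul_right_cancel₀ h1 h2

/-- entry `(0,0)` of the action, general form -/
lemma IsFrame.act00' (hb : IsFrame p ρbar b) (σ : GQq p) (x : (ad0Rep p ρbar).V) :
    wdfMat p ρbar b ((locRep p (ad0Rep p ρbar)).ρ σ x) 0 0 * wdfM p ρbar b σ 0 0 =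
      wdfM p ρbar b σ 0 0 * wdfMat p ρbar b x 0 0 +
        wdfM p ρbar b σ 0 1 * wdfMat p ρbar b x 1 0 := by
  have h := congrFun (congrFun (wdfMat_act p ρbar b σ x) 0) 0
  rw [Matrix.mul_apply, Matrix.mul_apply, Fin.sum_univ_two, Fin.sum_univ_two, hb σ, mul_zero,
    add_zero] at h
  exact h

/-- entry `(0,1)` of the action on `B⁰`:
`Y₀₁ η₂ = η₁ X₀₁ - 2 β X₀₀`. -/
lemma IsFrame.act01 (hb : IsFrame p ρbar b) (σ : GQq p) (x : (ad0Rep p ρbar).V)
    (hx : wdfMat p ρbar b x 1 0 = 0) :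
    wdfMat p ρbar b ((locRep p (ad0Rep p ρbar)).ρ σ x) 0 1 * wdfM p ρbar b σ 1 1 =
      wdfM p ρbar b σ 0 0 * wdfMat p ρbar b x 0 1 -
        2 * wdfM p ρbar b σ 0 1 * wdfMat p ρbar b x 0 0 := by
  have h := congrFun (congrFun (wdfMat_act p ρbar b σ x) 0) 1
  rw [Matrix.mul_apply, Matrix.mul_apply, Fin.sum_univ_two, Fin.sum_univ_two,
    hb.act00 σ x hx, wdfMat_11 p ρbar b x] at h
  linear_combination h

end Ad

end Fermat.Agent.TW.W

end


end ZBTW_028_4

/-! ### bundled: `Fermat.Agent.TW.W.DevCoc` -/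
section ZBTW_028_5
/-
TW-W / W-dev (helper74), part D: the entry cocycles of a cocycle with values in `ad⁰`.
-/

set_option autoImplicit false
set_option linter.unusedSectionVars false
set_option linter.unusedVariables false

noncomputable section

namespace Fermat.Agent.TW.W

open CategoryTheory groupCohomology IsLocalRing Polynomial
open Fermat.Agent.PT Fermat.Agent.PT.B Fermat.Agent.TW.L Fermat.Agent.TW.S Fermat.Agent.S53
  Fermat.Agent.W1 ExtCitation

section Coc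

variable {p : ℕ} [Fact p.Prime] {k : Type} [Field k] [CharP k p] [Algebra (ZMod p) k]
  {ρbar : ResidualGaloisRep k} {b : Module.Basis (Fin 2) k ρbar.V}

/-- the cocycle identity for the values -/
lemma wdc_coc (z : cocycles₁ (locRep p (ad0Rep p ρbar))) (σ τ : GQq p) :
    (z : GQq p → (ad0Rep p ρbar).V) (σ * τ) =
      (locRep p (ad0Rep p ρbar)).ρ σ ((z : GQq p → (ad0Rep p ρbar).V) τ) +
        (z : GQq p → (ad0Rep p ρbar).V) σ :=
  (mem_cocycles₁_iff (z : GQq p → (ad0Rep p ρbar).V)).1 z.2 σ τ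

/-- the lower left entry is a cocycle with values in `k(χ⁻¹)` -/
def wdcLow (hb : IsFrame p ρbar b) (z : cocycles₁ (locRep p (ad0Rep p ρbar))) :
    cocycles₁ (charRep p (wdfChi hb)⁻¹) :=
  ⟨fun σ => wdfMat p ρbar b ((z : GQq p → (ad0Rep p ρbar).V) σ) 1 0, by
    refine (mem_cocycles₁_iff _).2 ?_
    intro σ τ
    show wdfMat p ρbar b ((z : GQq p → (ad0Rep p ρbar).V) (σ * τ)) 1 0 =
      (((wdfChi hb)⁻¹ σ : kˣ) : k) * wdfMat p ρbar b ((z : GQq p → (ad0Rep p ρbar).V) τ) 1 0 +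
        wdfMat p ρbar b ((z : GQq p → (ad0Rep p ρbar).V) σ) 1 0
    rw [wdc_coc z σ τ, map_add, Matrix.add_apply, hb.act10]⟩

@[simp] lemma wdcLow_apply (hb : IsFrame p ρbar b) (z : cocycles₁ (locRep p (ad0Rep p ρbar)))
    (σ : GQq p) :
    (wdcLow hb z : GQq p → k) σ = wdfMat p ρbar b ((z : GQq p → (ad0Rep p ρbar).V) σ) 1 0 := rfl

/-- the diagonal entry of a `B⁰`-valued cocycle is a homomorphism -/
def wdcDiag (hb : IsFrame p ρbar b) (z : cocycles₁ (locRep p (ad0Rep p ρbar)))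
    (hz : ∀ σ, wdfMat p ρbar b ((z : GQq p → (ad0Rep p ρbar).V) σ) 1 0 = 0) :
    cocycles₁ (charRep p (1 : GQq p →* kˣ)) :=
  ⟨fun σ => wdfMat p ρbar b ((z : GQq p → (ad0Rep p ρbar).V) σ) 0 0, by
    refine (mem_cocycles₁_iff _).2 ?_
    intro σ τ
    show wdfMat p ρbar b ((z : GQq p → (ad0Rep p ρbar).V) (σ * τ)) 0 0 =
      (((1 : GQq p →* kˣ) σ : kˣ) : k) * wdfMat p ρbar b ((z : GQq p → (ad0Rep p ρbar).V) τ) 0 0 +
        wdfMat p ρbar b ((z : GQq p → (ad0Rep p ρbar).V) σ) 0 0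
    rw [wdc_coc z σ τ, map_add, Matrix.add_apply, hb.act00 σ _ (hz τ), MonoidHom.one_apply,
      Units.val_one, one_mul]⟩

@[simp] lemma wdcDiag_apply (hb : IsFrame p ρbar b) (z : cocycles₁ (locRep p (ad0Rep p ρbar)))
    (hz : ∀ σ, wdfMat p ρbar b ((z : GQq p → (ad0Rep p ρbar).V) σ) 1 0 = 0) (σ : GQq p) :
    (wdcDiag hb z hz : GQq p → k) σ =
      wdfMat p ρbar b ((z : GQq p → (ad0Rep p ρbar).V) σ) 0 0 := rfl

/-- entry `(0,1)` of the action on `N` -/
lemma IsFrame.act01' (hb : IsFrame p ρbar b) (σ : GQq p) (x : (ad0Rep p ρbar).V)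
    (hx : wdfMat p ρbar b x 1 0 = 0) (hx' : wdfMat p ρbar b x 0 0 = 0) :
    wdfMat p ρbar b ((locRep p (ad0Rep p ρbar)).ρ σ x) 0 1 =
      ((wdfChi hb σ : kˣ) : k) * wdfMat p ρbar b x 0 1 := by
  have h := hb.act01 σ x hx
  rw [hx', mul_zero, sub_zero, ← wdfChi_mul_eta2 hb σ] at h
  have h1 := wdf_eta2_ne_zero hb σ
  have h2 : wdfMat p ρbar b ((locRep p (ad0Rep p ρbar)).ρ σ x) 0 1 * wdfM p ρbar b σ 1 1 =
      (((wdfChi hb σ : kˣ) : k) * wdfMat p ρbar b x 0 1) * wdfM p ρbar b σ 1 1 := by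
    rw [h]; ring
  exact mul_right_cancel₀ h1 h2

/-- the upper right entry of an `N`-valued cocycle is a cocycle with values in `k(χ)` -/
def wdcUp (hb : IsFrame p ρbar b) (z : cocycles₁ (locRep p (ad0Rep p ρbar)))
    (hz : ∀ σ, wdfMat p ρbar b ((z : GQq p → (ad0Rep p ρbar).V) σ) 1 0 = 0)
    (hz' : ∀ σ, wdfMat p ρbar b ((z : GQq p → (ad0Rep p ρbar).V) σ) 0 0 = 0) :
    cocycles₁ (charRep p (wdfChi hb)) :=
  ⟨fun σ => wdfMat p ρbar b ((z : GQq p → (ad0Rep p ρbar).V) σ) 0 1, by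
    refine (mem_cocycles₁_iff _).2 ?_
    intro σ τ
    show wdfMat p ρbar b ((z : GQq p → (ad0Rep p ρbar).V) (σ * τ)) 0 1 =
      ((wdfChi hb σ : kˣ) : k) * wdfMat p ρbar b ((z : GQq p → (ad0Rep p ρbar).V) τ) 0 1 +
        wdfMat p ρbar b ((z : GQq p → (ad0Rep p ρbar).V) σ) 0 1
    rw [wdc_coc z σ τ, map_add, Matrix.add_apply, hb.act01' σ _ (hz τ) (hz' τ)]⟩

@[simp] lemma wdcUp_apply (hb : IsFrame p ρbar b) (z : cocycles₁ (locRep p (ad0Rep p ρbar)))
    (hz : ∀ σ, wdfMat p ρbar b ((z : GQq p → (ad0Rep p ρbar).V) σ) 1 0 = 0)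
    (hz' : ∀ σ, wdfMat p ρbar b ((z : GQq p → (ad0Rep p ρbar).V) σ) 0 0 = 0) (σ : GQq p) :
    (wdcUp hb z hz hz' : GQq p → k) σ =
      wdfMat p ρbar b ((z : GQq p → (ad0Rep p ρbar).V) σ) 0 1 := rfl

/-- the extension cocycle `n = β / η₂` of `ρ̄` itself, with values in `k(χ)` -/
def wdcN (hb : IsFrame p ρbar b) : cocycles₁ (charRep p (wdfChi hb)) :=
  ⟨fun σ => wdfM p ρbar b σ 0 1 * (wdfM p ρbar b σ 1 1)⁻¹, by
    refine (mem_cocycles₁_iff _).2 ?_
    intro σ τ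
    show wdfM p ρbar b (σ * τ) 0 1 * (wdfM p ρbar b (σ * τ) 1 1)⁻¹ =
      ((wdfChi hb σ : kˣ) : k) * (wdfM p ρbar b τ 0 1 * (wdfM p ρbar b τ 1 1)⁻¹) +
        wdfM p ρbar b σ 0 1 * (wdfM p ρbar b σ 1 1)⁻¹
    have h1 := wdf_eta2_ne_zero hb σ
    have h2 := wdf_eta2_ne_zero hb τ
    rw [hb.m01_mul, hb.m11_mul, ← wdfChi_mul_eta2 hb σ]
    field_simp⟩

@[simp] lemma wdcN_apply (hb : IsFrame p ρbar b) (σ : GQq p) :
    (wdcN hb : GQq p → k) σ = wdfM p ρbar b σ 0 1 * (wdfM p ρbar b σ 1 1)⁻¹ := rfl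

end Coc

end Fermat.Agent.TW.W

end


end ZBTW_028_5

/-! ### bundled: `Fermat.Agent.TW.W.DevPlan` -/
section ZBTW_028_6
/-
TW-W / W-dev (helper74): INTERFACE of the sub-pieces of the dévissage (reducible case).

Setting: `b` a FRAME of `ρ̄|_{G_p}` (`IsFrame p ρbar b`, `TW/W/DevFrame.lean`):
`wdfM p ρbar b σ = [[η₁, β], [0, η₂]]`, `χ = wdfChi hb = η₁/η₂`; `wdfMat p ρbar b x` = matrix of
`x ∈ ad⁰` (`TW/W/DevAd.lean`); entry cocycles `wdcLow`, `wdcDiag`, `wdcUp`, `wdcN`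
(`TW/W/DevCoc.lean`).  Each piece `X` is DONE when `theorem stmtX : StmtX` is landed in
`TW/W/Dev<X>.lean` (names `wdev<x>_*`).
-/

set_option autoImplicit false

noncomputable section

namespace Fermat.Agent.TW.W

open CategoryTheory groupCohomology IsLocalRing Polynomial
open Fermat.Agent.PT Fermat.Agent.PT.B Fermat.Agent.TW.L Fermat.Agent.TW.S Fermat.Agent.S53
  Fermat.Agent.W1 ExtCitation

/-- **DEV-O** (ordinary shape: `η₂ = 1` on inertia, `η₁ ≠ 1` on inertia).  If `PEt2 z` then the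
lower left entry of `z` is a coboundary of `k(χ⁻¹)`.
(`I_aug V̄ ⊆ k b₀` since inertia acts trivially on `V̄ / k b₀`.  For `σ ∈ I`:
`g_σ := vcAct σ (b₀, 0) - (b₀, 0) = ((η₁(σ) - 1) b₀, η₁(σ) z(σ) b₀) ∈ I_aug V_c`, a `k`-subspace;
`(η₁(σ₀) - 1) g_σ - (η₁(σ) - 1) g_{σ₀} = (0, w)`, so by `PEt2` the `b₁`-coefficient of `w` vanishes:
`η₁(σ) c'(σ) = m' (η₁(σ) - 1)` with `m' = η₁(σ₀) c'(σ₀) / (η₁(σ₀) - 1)`, i.e.
`c'(σ) = (χ⁻¹(σ) - 1)(-m')` on `I`.  Then `c'' = c' - ∂(-m')` vanishes on `I`, and for `g ∈ G_p`: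
`0 = c''(g σ₀ g⁻¹) = (1 - χ⁻¹(σ₀)) c''(g)`.) -/
def StmtDevO : Prop :=
  ∀ (p : ℕ) [Fact p.Prime] (k : Type) [Field k] [CharP k p] [Algebra (ZMod p) k]
    (ρbar : ResidualGaloisRep k) (b : Module.Basis (Fin 2) k ρbar.V) (hb : IsFrame p ρbar b),
    (∀ σ ∈ inertiaQ p, wdfM p ρbar b σ 1 1 = 1) →
    (∃ σ₀ ∈ inertiaQ p, wdfM p ρbar b σ₀ 0 0 ≠ 1) →
    ∀ z : cocycles₁ (locRep p (ad0Rep p ρbar)),
      PEt2 p ρbar (fun τ => ad0Val p ρbar ((z : GQq p → (ad0Rep p ρbar).V) τ)) →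
      ∃ m : k, ∀ σ : GQq p, wdfMat p ρbar b ((z : GQq p → (ad0Rep p ρbar).V) σ) 1 0 =
        ((((wdfChi hb)⁻¹ σ : kˣ) : k) - 1) * m

/-- **DEV-AO** (anti-ordinary shape: `η₁ = 1` on inertia, `η₂ ≠ 1` on inertia).  If `PEt1` then
`ρ̄|_{G_p}` is split: `β = (η₁ - η₂) m`.
(`I_aug V̄` is a `G_p`-stable `k`-subspace (`I` is normal), nonzero (`(σ₀ - 1) b₁ ∉ k b₀`), and
`k b₀ ∩ I_aug V̄ ⊆ (I_aug V̄)^I = 0`: a stable line `k (b₁ - m b₀)` complementary to `k b₀`.) -/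
def StmtDevAO : Prop :=
  ∀ (p : ℕ) [Fact p.Prime] (k : Type) [Field k] [CharP k p]
    (ρbar : ResidualGaloisRep k) (b : Module.Basis (Fin 2) k ρbar.V), IsFrame p ρbar b →
    (∀ σ ∈ inertiaQ p, wdfM p ρbar b σ 0 0 = 1) →
    (∃ σ₀ ∈ inertiaQ p, wdfM p ρbar b σ₀ 1 1 ≠ 1) →
    PEt1 p ρbar →
    ∃ m : k, ∀ σ : GQq p, wdfM p ρbar b σ 0 1 =
      (wdfM p ρbar b σ 0 0 - wdfM p ρbar b σ 1 1) * m

/-- **DEV-swap**: a split frame can be swapped.
(`b' = (b₁ - m b₀, b₀)`.) -/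
def StmtDevSwap : Prop :=
  ∀ (p : ℕ) [Fact p.Prime] (k : Type) [Field k]
    (ρbar : ResidualGaloisRep k) (b : Module.Basis (Fin 2) k ρbar.V), IsFrame p ρbar b →
    (∃ m : k, ∀ σ : GQq p, wdfM p ρbar b σ 0 1 =
      (wdfM p ρbar b σ 0 0 - wdfM p ρbar b σ 1 1) * m) →
    ∃ b' : Module.Basis (Fin 2) k ρbar.V, IsFrame p ρbar b' ∧
      ∀ σ : GQq p, wdfM p ρbar b' σ 0 0 = wdfM p ρbar b σ 1 1 ∧
        wdfM p ρbar b' σ 1 1 = wdfM p ρbar b σ 0 0 ∧ wdfM p ρbar b' σ 0 1 = 0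

/-- **DEV-2tors**: two characters of `G_p` whose squares are trivial on inertia: one of them is
trivial on inertia, or they coincide on inertia.
(`TW.L.stmtTame` for `(q, p) = (p, 2)` applied to `h = (ε₁, ε₂)|_I`, with values in the elements of
square `1` of `kˣ × kˣ`: the image is `{1, h(t)}`.) -/
def StmtDev2Tors : Prop :=
  ∀ (p : ℕ) [Fact p.Prime], p ≠ 2 → ∀ (k : Type) [Field k] (ε₁ ε₂ : GQq p →* kˣ),
    (∃ U ∈ (towerLoc p).lev, ∀ s ∈ U, ε₁ s = 1 ∧ ε₂ s = 1) →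
    (∀ σ ∈ inertiaQ p, ε₁ σ ^ 2 = 1 ∧ ε₂ σ ^ 2 = 1) →
    (∀ σ ∈ inertiaQ p, ε₁ σ = 1) ∨ (∀ σ ∈ inertiaQ p, ε₂ σ = 1) ∨
      (∀ σ ∈ inertiaQ p, ε₁ σ = ε₂ σ)

/-- **DEV-frame**: a `G_p`-stable line gives a frame.  (`TW.L.gord_exists_basis`.) -/
def StmtDevFrame : Prop :=
  ∀ (p : ℕ) [Fact p.Prime] (k : Type) [Field k] (ρbar : ResidualGaloisRep k),
    ¬ IsLocIrr p ρbar → ∃ b : Module.Basis (Fin 2) k ρbar.V, IsFrame p ρbar b

end Fermat.Agent.TW.W

end


end ZBTW_028_6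

/-! ### bundled: `Fermat.Agent.TW.W.DevFix` -/
section ZBTW_028_7
/-
TW-W / W-dev (helper74), part E: modification by coboundaries, and vanishing of flat classes of
characters which are not cyclotomic on inertia.
-/

set_option autoImplicit false
set_option linter.unusedSectionVars false
set_option linter.unusedVariables false

noncomputable section

namespace Fermat.Agent.TW.W

open CategoryTheory groupCohomology IsLocalRing Polynomial
open Fermat.Agent.PT Fermat.Agent.PT.B Fermat.Agent.TW.L Fermat.Agent.TW.S Fermat.Agent.S53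
  Fermat.Agent.W1 ExtCitation

section Smooth

variable (p : ℕ) [Fact p.Prime] {k : Type} [Field k] (ρbar : ResidualGaloisRep k)

/-- `ρ̄|_{G_p}` is trivial on a level. -/
lemma wdx_smooth : ∃ U ∈ (towerLoc p).lev, ∀ s ∈ U, rhoLoc p ρbar s = 1 := by
  obtain ⟨L, hL, hρ⟩ := ρbar.factorsThroughFiniteLevel
  refine ⟨L.fixingSubgroup.comap (localGaloisToGlobal p), ⟨L, hL, rfl⟩, fun s hs => ?_⟩
  refine hρ _ (fun x hx => ?_)
  have h1 : localGaloisToGlobal p s ∈ L.fixingSubgroup := hs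
  rw [IntermediateField.mem_fixingSubgroup_iff] at h1
  exact h1 x hx

variable {p ρbar}

lemma wdx_M_level {b : Module.Basis (Fin 2) k ρbar.V} {U : Subgroup (GQq p)}
    (hU : ∀ s ∈ U, rhoLoc p ρbar s = 1) (g s : GQq p) (hs : s ∈ U) :
    wdfM p ρbar b (g * s) = wdfM p ρbar b g := by
  rw [wdfM_mul, (wdfM_eq_one_iff p ρbar b s).2 (hU s hs), mul_one]

lemma wdx_chi_smooth {b : Module.Basis (Fin 2) k ρbar.V} (hb : IsFrame p ρbar b) :
    ∃ U ∈ (towerLoc p).lev, ∀ s ∈ U, wdfChi hb s = 1 := by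
  obtain ⟨U, hU, h⟩ := wdx_smooth p ρbar
  refine ⟨U, hU, fun s hs => ?_⟩
  have h1 := (wdfM_eq_one_iff p ρbar b s).2 (h s hs)
  have e1 : wdfEta1 hb s = 1 := by
    apply Units.ext
    rw [wdfEta1_coe, h1]; rfl
  have e2 : wdfEta2 hb s = 1 := by
    apply Units.ext
    rw [wdfEta2_coe, h1]; rfl
  unfold wdfChi
  rw [MonoidHom.div_apply, e1, e2, div_one]

lemma wdx_chi_inv_smooth {b : Module.Basis (Fin 2) k ρbar.V} (hb : IsFrame p ρbar b) :
    ∃ U ∈ (towerLoc p).lev, ∀ s ∈ U, (wdfChi hb)⁻¹ s = 1 := by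
  obtain ⟨U, hU, h⟩ := wdx_chi_smooth hb
  exact ⟨U, hU, fun s hs => by rw [MonoidHom.inv_apply, h s hs, inv_one]⟩

end Smooth

section Modify

variable {p : ℕ} [Fact p.Prime] {k : Type} [Field k] [CharP k p]
  {ρbar : ResidualGaloisRep k}

/-- Modification of a cocycle by the coboundary of `x`. -/
theorem wdx_modify (z : cocycles₁ (locRep p (ad0Rep p ρbar))) (x : (ad0Rep p ρbar).V) :
    ∃ z' : cocycles₁ (locRep p (ad0Rep p ρbar)),
      (∀ σ, (z' : GQq p → (ad0Rep p ρbar).V) σ = (z : GQq p → (ad0Rep p ρbar).V) σ -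
        ((locRep p (ad0Rep p ρbar)).ρ σ x - x)) ∧
      (H1π (locRep p (ad0Rep p ρbar))).hom z' = (H1π (locRep p (ad0Rep p ρbar))).hom z ∧
      (IsLevel₁ (towerLoc p) (z : GQq p → (ad0Rep p ρbar).V) →
        IsLevel₁ (towerLoc p) (z' : GQq p → (ad0Rep p ρbar).V)) ∧
      (PLev p ρbar (fun τ => ad0Val p ρbar ((z : GQq p → (ad0Rep p ρbar).V) τ)) →
        PLev p ρbar (fun τ => ad0Val p ρbar ((z' : GQq p → (ad0Rep p ρbar).V) τ))) := by
  have hcob : (d₀₁ (locRep p (ad0Rep p ρbar))).hom x ∈ coboundaries₁ (locRep p (ad0Rep p ρbar)) :=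
    ⟨x, rfl⟩
  let dx : cocycles₁ (locRep p (ad0Rep p ρbar)) :=
    ⟨(d₀₁ (locRep p (ad0Rep p ρbar))).hom x,
      coboundaries₁_le_cocycles₁ (locRep p (ad0Rep p ρbar)) hcob⟩
  have hdx : ∀ σ, (dx : GQq p → (ad0Rep p ρbar).V) σ =
      (locRep p (ad0Rep p ρbar)).ρ σ x - x := fun σ =>
    d₀₁_hom_apply (locRep p (ad0Rep p ρbar)) x σ
  have hval : ∀ σ, ((z - dx : cocycles₁ (locRep p (ad0Rep p ρbar))) :
      GQq p → (ad0Rep p ρbar).V) σ =
      (z : GQq p → (ad0Rep p ρbar).V) σ - ((locRep p (ad0Rep p ρbar)).ρ σ x - x) := by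
    intro σ
    rw [← hdx σ]
    rfl
  refine ⟨z - dx, hval, ?_, ?_, ?_⟩
  · rw [map_sub, sub_eq_self]
    exact (H1π_eq_zero_iff dx).2 hcob
  · intro hz
    obtain ⟨U, hU, h⟩ := hz
    obtain ⟨U', hU', h'⟩ := stmtAdSmooth p k ρbar p
    refine ⟨U ⊓ U', (towerLoc p).inf_mem U U' hU hU', fun g s hs => ?_⟩
    rw [hval, hval, h g s hs.1, map_mul, h' s hs.2, mul_one]
  · intro hz T hT χ hχ h0 τ hτ
    refine hz T hT χ hχ ?_ τ hτ
    intro σ hσ h1 h2
    refine h0 σ hσ h1 ?_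
    show ad0Val p ρbar (((z - dx : cocycles₁ (locRep p (ad0Rep p ρbar))) :
      GQq p → (ad0Rep p ρbar).V) σ) = 0
    have h3 : (locRep p (ad0Rep p ρbar)).ρ σ x = x := by
      apply ad0Val_injective p ρbar
      show ad0Val p ρbar ((ad0Rep p ρbar).ρ (localGaloisToGlobal p σ) x) = _
      have h4 : ρbar.ρ (localGaloisToGlobal p σ) = 1 := h1
      have h5 : ρbar.ρ (localGaloisToGlobal p σ)⁻¹ = 1 := by
        have := rho_inv_mul ρbar (localGaloisToGlobal p σ)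
        rwa [h4, mul_one] at this
      rw [ad0Val_ρ, h4, h5, one_mul, mul_one]
    rw [hval, h3, sub_self, sub_zero]
    exact h2

end Modify

section Vanish

variable {p : ℕ} [Fact p.Prime] {k : Type} [Field k] [CharP k p] [Algebra (ZMod p) k] [Finite k]

lemma wdx_charRep_smooth (ψ : GQq p →* kˣ) (hsm : ∃ U ∈ (towerLoc p).lev, ∀ s ∈ U, ψ s = 1) :
    IsSmoothQ p (charRep p ψ) := by
  obtain ⟨U, hU, h⟩ := hsm
  refine ⟨U, hU, fun s hs => ?_⟩
  apply LinearMap.ext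
  intro x
  show ((ψ s : kˣ) : k) * (id x : k) = (id x : k)
  rw [h s hs, Units.val_one, one_mul]

lemma wdx_invariants_eq_bot (ψ : GQq p →* kˣ) (hne : ∃ σ₁, ψ σ₁ ≠ 1) :
    (charRep p ψ).ρ.invariants = ⊥ := by
  obtain ⟨σ₁, hσ₁⟩ := hne
  rw [eq_bot_iff]
  intro x hx
  rw [Submodule.mem_bot]
  have h1 : ((ψ σ₁ : kˣ) : k) * (id x : k) = (id x : k) := hx σ₁
  have h2 : (((ψ σ₁ : kˣ) : k) - 1) * (id x : k) = 0 := by rw [sub_mul, h1, one_mul, sub_self]
  rcases mul_eq_zero.1 h2 with h | h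
  · exfalso
    apply hσ₁
    apply Units.ext
    rw [Units.val_one]
    exact sub_eq_zero.1 h
  · exact h

/-- flat classes of a nontrivial character which is not cyclotomic on inertia vanish -/
theorem wdx_vanish (hgb : StmtGBChar) (hunr : StmtUnrLe) (hp2 : p ≠ 2)
    (ψ : GQq p →* kˣ) (hsm : ∃ U ∈ (towerLoc p).lev, ∀ s ∈ U, ψ s = 1)
    (hne : ∃ σ₁, ψ σ₁ ≠ 1) (hncyc : ¬ IsCycOnInertia p ψ)
    (c : cocycles₁ (charRep p ψ)) (hc : c ∈ levFlatCocycles p (charRep p ψ)) :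
    ∃ m : k, ∀ σ, (c : GQq p → k) σ = (((ψ σ : kˣ) : k) - 1) * m := by
  obtain ⟨-, h1, -⟩ := hgb p hp2 k ψ hsm
  have hmem : (H1π (charRep p ψ)).hom c ∈ unrH1 p (charRep p ψ) :=
    h1 hncyc ((mem_levFlatH1 p _ _).2 ⟨c, hc, rfl⟩)
  have hfd : FiniteDimensional (ZMod p) (charRep p ψ) :=
    (Module.Finite.of_finite : Module.Finite (ZMod p) k)
  obtain ⟨hfin, hrank⟩ := hunr p p (charRep p ψ) (wdx_charRep_smooth ψ hsm)
  rw [wdx_invariants_eq_bot ψ hne, finrank_bot, Nat.le_zero] at hrank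
  have hbot : unrH1 p (charRep p ψ) = ⊥ := by
    have := hfin
    exact Submodule.finrank_eq_zero.1 hrank
  rw [hbot, Submodule.mem_bot] at hmem
  obtain ⟨m, hm⟩ := (H1π_eq_zero_iff c).1 hmem
  refine ⟨(id m : k), fun σ => ?_⟩
  have h2 := congrFun hm σ
  rw [d₀₁_hom_apply] at h2
  have h3 : ((ψ σ : kˣ) : k) * (id m : k) - (id m : k) = (c : GQq p → k) σ := h2
  rw [sub_mul, one_mul]
  exact h3.symm

end Vanish

end Fermat.Agent.TW.W

end


end ZBTW_028_7

/-! ### bundled: `Fermat.Agent.TW.W.DevMaps` -/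
section ZBTW_028_8
/-
TW-W / W-dev (helper74), part F: the linear maps of the count.

* `wdfOfMat` : the element of `ad⁰` with a given trace-zero matrix;
* `wdmB`     : the `B⁰`-valued cocycles;  `wdmDiag : wdmB → Z¹(k)` (diagonal entry);
* `wdmJ`     : `Z¹(k(χ)) → Z¹(ad⁰)`, `c ↦ c · E₀₁`;
* `wdmN`     : `k → Z¹(k(χ))`, `a ↦ a · n`.
-/

set_option autoImplicit false
set_option linter.unusedSectionVars false
set_option linter.unusedVariables false

noncomputable section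

namespace Fermat.Agent.TW.W

open CategoryTheory groupCohomology IsLocalRing Polynomial
open Fermat.Agent.PT Fermat.Agent.PT.B Fermat.Agent.TW.L Fermat.Agent.TW.S Fermat.Agent.S53
  Fermat.Agent.W1 ExtCitation

section Maps

variable {p : ℕ} [Fact p.Prime] {k : Type} [Field k] [CharP k p] [Algebra (ZMod p) k]
  {ρbar : ResidualGaloisRep k} {b : Module.Basis (Fin 2) k ρbar.V}

variable (p ρbar b) in
/-- the element of `ad⁰` with matrix `X` -/
def wdfOfMat (X : Matrix (Fin 2) (Fin 2) k) (hX : X 0 0 + X 1 1 = 0) : (ad0Rep p ρbar).V :=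
  Ad0.mk p ρbar ((LinearMap.toMatrix b b).symm X) (by
    rw [LinearMap.trace_eq_matrix_trace k b, LinearEquiv.apply_symm_apply, Matrix.trace_fin_two]
    exact hX)

@[simp] lemma wdfMat_ofMat (X : Matrix (Fin 2) (Fin 2) k) (hX : X 0 0 + X 1 1 = 0) :
    wdfMat p ρbar b (wdfOfMat p ρbar b X hX) = X := by
  rw [wdfMat_apply]
  show LinearMap.toMatrix b b ((LinearMap.toMatrix b b).symm X) = X
  rw [LinearEquiv.apply_symm_apply]

/-- two elements of `ad⁰` with the same entries `(0,0)`, `(0,1)`, `(1,0)` are equal -/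
lemma wdf_ext {x y : (ad0Rep p ρbar).V} (h00 : wdfMat p ρbar b x 0 0 = wdfMat p ρbar b y 0 0)
    (h01 : wdfMat p ρbar b x 0 1 = wdfMat p ρbar b y 0 1)
    (h10 : wdfMat p ρbar b x 1 0 = wdfMat p ρbar b y 1 0) : x = y := by
  apply wdfMat_injective p ρbar b
  ext i j
  fin_cases i <;> fin_cases j
  · exact h00
  · exact h01
  · exact h10
  · show wdfMat p ρbar b x 1 1 = wdfMat p ρbar b y 1 1
    rw [wdfMat_11, wdfMat_11, h00]

/-- the upper triangular nilpotent matrix -/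
def wdE01 (a : k) : Matrix (Fin 2) (Fin 2) k := Matrix.of ![![0, a], ![0, 0]]

@[simp] lemma wdE01_00 (a : k) : wdE01 a 0 0 = 0 := rfl
@[simp] lemma wdE01_01 (a : k) : wdE01 a 0 1 = a := rfl
@[simp] lemma wdE01_10 (a : k) : wdE01 a 1 0 = 0 := rfl
@[simp] lemma wdE01_11 (a : k) : wdE01 a 1 1 = 0 := rfl

lemma wdE01_trace (a : k) : wdE01 a 0 0 + wdE01 a 1 1 = 0 := by simp

/-- the value of a cocycle of `k(ψ)`, as an element of `k` -/
def wdcVal {ψ : GQq p →* kˣ} (c : cocycles₁ (charRep p ψ)) (σ : GQq p) : k :=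
  (c : GQq p → (charRep p ψ).V) σ

lemma wdcVal_mul {ψ : GQq p →* kˣ} (c : cocycles₁ (charRep p ψ)) (σ τ : GQq p) :
    wdcVal c (σ * τ) = ((ψ σ : kˣ) : k) * wdcVal c τ + wdcVal c σ :=
  (mem_cocycles₁_iff (c : GQq p → (charRep p ψ).V)).1 c.2 σ τ

lemma wdcVal_ext {ψ : GQq p →* kˣ} {c c' : cocycles₁ (charRep p ψ)}
    (h : ∀ σ, wdcVal c σ = wdcVal c' σ) : c = c' :=
  Subtype.ext (funext h)

lemma wdcVal_add {ψ : GQq p →* kˣ} (c c' : cocycles₁ (charRep p ψ)) (σ : GQq p) :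
    wdcVal (c + c') σ = wdcVal c σ + wdcVal c' σ := rfl

lemma wdcVal_sub {ψ : GQq p →* kˣ} (c c' : cocycles₁ (charRep p ψ)) (σ : GQq p) :
    wdcVal (c - c') σ = wdcVal c σ - wdcVal c' σ := rfl

/-- a cocycle of `k(ψ)` from a function -/
def wdcMk {ψ : GQq p →* kˣ} (f : GQq p → k)
    (hf : ∀ σ τ, f (σ * τ) = ((ψ σ : kˣ) : k) * f τ + f σ) : cocycles₁ (charRep p ψ) :=
  ⟨f, (mem_cocycles₁_iff (A := charRep p ψ) f).2 hf⟩

@[simp] lemma wdcVal_mk {ψ : GQq p →* kˣ} (f : GQq p → k)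
    (hf : ∀ σ τ, f (σ * τ) = ((ψ σ : kˣ) : k) * f τ + f σ) (σ : GQq p) :
    wdcVal (wdcMk (ψ := ψ) f hf) σ = f σ := rfl

lemma wdcVal_low (hb : IsFrame p ρbar b) (z : cocycles₁ (locRep p (ad0Rep p ρbar)))
    (σ : GQq p) :
    wdcVal (wdcLow hb z) σ = wdfMat p ρbar b ((z : GQq p → (ad0Rep p ρbar).V) σ) 1 0 := rfl

lemma wdcVal_diag (hb : IsFrame p ρbar b) (z : cocycles₁ (locRep p (ad0Rep p ρbar)))
    (hz : ∀ σ, wdfMat p ρbar b ((z : GQq p → (ad0Rep p ρbar).V) σ) 1 0 = 0) (σ : GQq p) :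
    wdcVal (wdcDiag hb z hz) σ =
      wdfMat p ρbar b ((z : GQq p → (ad0Rep p ρbar).V) σ) 0 0 := rfl

lemma wdcVal_up (hb : IsFrame p ρbar b) (z : cocycles₁ (locRep p (ad0Rep p ρbar)))
    (hz : ∀ σ, wdfMat p ρbar b ((z : GQq p → (ad0Rep p ρbar).V) σ) 1 0 = 0)
    (hz' : ∀ σ, wdfMat p ρbar b ((z : GQq p → (ad0Rep p ρbar).V) σ) 0 0 = 0) (σ : GQq p) :
    wdcVal (wdcUp hb z hz hz') σ =
      wdfMat p ρbar b ((z : GQq p → (ad0Rep p ρbar).V) σ) 0 1 := rfl

lemma wdcVal_N (hb : IsFrame p ρbar b) (σ : GQq p) :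
    wdcVal (wdcN hb) σ = wdfM p ρbar b σ 0 1 * (wdfM p ρbar b σ 1 1)⁻¹ := rfl

/-- a cocycle of `k(ψ)` is a coboundary iff `c = (ψ - 1) m` -/
lemma wdc_H1π_eq_zero_iff {ψ : GQq p →* kˣ} (c : cocycles₁ (charRep p ψ)) :
    (H1π (charRep p ψ)).hom c = 0 ↔ ∃ m : k, ∀ σ, wdcVal c σ = (((ψ σ : kˣ) : k) - 1) * m := by
  rw [H1π_eq_zero_iff]
  constructor
  · rintro ⟨m, hm⟩
    refine ⟨(id m : k), fun σ => ?_⟩
    have h2 := congrFun hm σ
    rw [d₀₁_hom_apply] at h2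
    have h3 : ((ψ σ : kˣ) : k) * (id m : k) - (id m : k) = wdcVal c σ := h2
    rw [sub_mul, one_mul]
    exact h3.symm
  · rintro ⟨m, hm⟩
    refine ⟨(show (charRep p ψ).V from m), ?_⟩
    funext σ
    rw [d₀₁_hom_apply]
    have h3 : wdcVal c σ = ((ψ σ : kˣ) : k) * m - m := by rw [hm σ]; ring
    exact h3.symm

variable (p ρbar b) in
/-- the `B⁰`-valued cocycles -/
def wdmB : Submodule (ZMod p) (cocycles₁ (locRep p (ad0Rep p ρbar))) where
  carrier := {z | ∀ σ, wdfMat p ρbar b ((z : GQq p → (ad0Rep p ρbar).V) σ) 1 0 = 0}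
  add_mem' := by
    intro z z' hz hz' σ
    show wdfMat p ρbar b ((z : GQq p → (ad0Rep p ρbar).V) σ +
      (z' : GQq p → (ad0Rep p ρbar).V) σ) 1 0 = 0
    rw [map_add, Matrix.add_apply, hz σ, hz' σ, add_zero]
  zero_mem' := by
    intro σ
    show wdfMat p ρbar b (0 : (ad0Rep p ρbar).V) 1 0 = 0
    rw [map_zero]; rfl
  smul_mem' := by
    intro a z hz σ
    have ha : a • z = a.val • z := by
      conv_lhs => rw [← ZMod.natCast_zmod_val a]
      exact Nat.cast_smul_eq_nsmul (ZMod p) a.val z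
    rw [ha]
    show wdfMat p ρbar b (a.val • (z : GQq p → (ad0Rep p ρbar).V) σ) 1 0 = 0
    rw [map_nsmul, Matrix.smul_apply, hz σ, smul_zero]

lemma mem_wdmB (z : cocycles₁ (locRep p (ad0Rep p ρbar))) :
    z ∈ wdmB p ρbar b ↔ ∀ σ, wdfMat p ρbar b ((z : GQq p → (ad0Rep p ρbar).V) σ) 1 0 = 0 :=
  Iff.rfl

/-- the diagonal entry, as a linear map `B⁰`-valued cocycles → `Z¹(G_p, k)` -/
def wdmDiag (hb : IsFrame p ρbar b) :
    wdmB p ρbar b →ₗ[ZMod p] cocycles₁ (charRep p (1 : GQq p →* kˣ)) :=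
  AddMonoidHom.toZModLinearMap p
    (AddMonoidHom.mk' (fun z => wdcDiag hb z.1 ((mem_wdmB z.1).1 z.2)) (by
      intro z z'
      apply wdcVal_ext
      intro σ
      show wdfMat p ρbar b ((z.1 : GQq p → (ad0Rep p ρbar).V) σ +
        (z'.1 : GQq p → (ad0Rep p ρbar).V) σ) 0 0 =
        wdfMat p ρbar b ((z.1 : GQq p → (ad0Rep p ρbar).V) σ) 0 0 +
          wdfMat p ρbar b ((z'.1 : GQq p → (ad0Rep p ρbar).V) σ) 0 0
      rw [map_add, Matrix.add_apply]))

lemma wdcVal_wdmDiag (hb : IsFrame p ρbar b) (z : wdmB p ρbar b) (σ : GQq p) :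
    wdcVal (wdmDiag hb z) σ =
      wdfMat p ρbar b ((z.1 : GQq p → (ad0Rep p ρbar).V) σ) 0 0 := rfl

/-- `c ↦ c · E₀₁` on cocycles -/
def wdmJfun (hb : IsFrame p ρbar b) (c : cocycles₁ (charRep p (wdfChi hb))) :
    cocycles₁ (locRep p (ad0Rep p ρbar)) :=
  ⟨fun σ => wdfOfMat p ρbar b (wdE01 (wdcVal c σ)) (wdE01_trace _), by
    refine (mem_cocycles₁_iff _).2 ?_
    intro σ τ
    have hc := wdcVal_mul c σ τ
    apply wdf_ext (b := b)
    · rw [map_add, Matrix.add_apply, hb.act00 σ _ (by rw [wdfMat_ofMat]; rfl),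
        wdfMat_ofMat, wdfMat_ofMat, wdfMat_ofMat]
      show (0 : k) = 0 + 0
      rw [add_zero]
    · rw [map_add, Matrix.add_apply, hb.act01' σ _ (by rw [wdfMat_ofMat]; rfl)
        (by rw [wdfMat_ofMat]; rfl), wdfMat_ofMat, wdfMat_ofMat, wdfMat_ofMat]
      exact hc
    · rw [map_add, Matrix.add_apply, hb.act10, wdfMat_ofMat, wdfMat_ofMat, wdfMat_ofMat]
      show (0 : k) = _ * 0 + 0
      rw [mul_zero, add_zero]⟩

lemma wdmJfun_apply (hb : IsFrame p ρbar b) (c : cocycles₁ (charRep p (wdfChi hb)))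
    (σ : GQq p) :
    wdfMat p ρbar b ((wdmJfun hb c : GQq p → (ad0Rep p ρbar).V) σ) =
      wdE01 (wdcVal c σ) := by
  show wdfMat p ρbar b (wdfOfMat p ρbar b (wdE01 (wdcVal c σ)) (wdE01_trace _)) = _
  rw [wdfMat_ofMat]

/-- `c ↦ c · E₀₁`, linear -/
def wdmJ (hb : IsFrame p ρbar b) :
    cocycles₁ (charRep p (wdfChi hb)) →ₗ[ZMod p] cocycles₁ (locRep p (ad0Rep p ρbar)) :=
  AddMonoidHom.toZModLinearMap p
    (AddMonoidHom.mk' (wdmJfun hb) (by
      intro c c'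
      apply Subtype.ext
      funext σ
      apply wdfMat_injective p ρbar b
      show wdfMat p ρbar b ((wdmJfun hb (c + c') : GQq p → (ad0Rep p ρbar).V) σ) =
        wdfMat p ρbar b ((wdmJfun hb c : GQq p → (ad0Rep p ρbar).V) σ +
          (wdmJfun hb c' : GQq p → (ad0Rep p ρbar).V) σ)
      rw [map_add, wdmJfun_apply, wdmJfun_apply, wdmJfun_apply, wdcVal_add]
      ext i j
      fin_cases i <;> fin_cases j <;> simp [wdE01]))

lemma wdmJ_apply (hb : IsFrame p ρbar b) (c : cocycles₁ (charRep p (wdfChi hb)))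
    (σ : GQq p) :
    wdfMat p ρbar b ((wdmJ hb c : GQq p → (ad0Rep p ρbar).V) σ) =
      wdE01 (wdcVal c σ) := wdmJfun_apply hb c σ

/-- `a ↦ a · n`, with values in cocycles of `k(χ)` -/
def wdmNfun (hb : IsFrame p ρbar b) (a : k) : cocycles₁ (charRep p (wdfChi hb)) :=
  wdcMk (fun σ => a * wdcVal (wdcN hb) σ) (by
    intro σ τ
    rw [wdcVal_mul]
    ring)

lemma wdcVal_wdmNfun (hb : IsFrame p ρbar b) (a : k) (σ : GQq p) :
    wdcVal (wdmNfun hb a) σ = a * wdcVal (wdcN hb) σ := rfl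

/-- `a ↦ a · n`, linear -/
def wdmN (hb : IsFrame p ρbar b) : k →ₗ[ZMod p] cocycles₁ (charRep p (wdfChi hb)) :=
  AddMonoidHom.toZModLinearMap p
    (AddMonoidHom.mk' (wdmNfun hb) (by
      intro a a'
      apply wdcVal_ext
      intro σ
      rw [wdcVal_add, wdcVal_wdmNfun, wdcVal_wdmNfun, wdcVal_wdmNfun]
      ring))

lemma wdcVal_wdmN (hb : IsFrame p ρbar b) (a : k) (σ : GQq p) :
    wdcVal (wdmN hb a) σ = a * wdcVal (wdcN hb) σ := rfl

end Maps

end Fermat.Agent.TW.W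

end


end ZBTW_028_8

/-! ### bundled: `Fermat.Agent.TW.W.DevI` -/
section ZBTW_028_9
/-
TW-W / W-dev (helper74), part G: the image `𝓘` of the flat classes of `k(χ)` in `H¹(G_p, ad⁰)`
has dimension `≤ h⁰(G_p, ad⁰)`.
-/

set_option autoImplicit false
set_option linter.unusedSectionVars false
set_option linter.unusedVariables false

noncomputable section

namespace Fermat.Agent.TW.W

open CategoryTheory groupCohomology IsLocalRing Polynomial
open Fermat.Agent.PT Fermat.Agent.PT.B Fermat.Agent.TW.L Fermat.Agent.TW.S Fermat.Agent.S53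
  Fermat.Agent.W1 ExtCitation

section Abs2

variable {K : Type*} [Field K] {Z X Y : Type*} [AddCommGroup Z] [Module K Z]
  [AddCommGroup X] [Module K X] [AddCommGroup Y] [Module K Y]

/-- `ker g ≤ ker f`, `range g` finite-dimensional: `dim range f ≤ dim range g`. -/
theorem wdev_finrank_range_mono (f : Z →ₗ[K] X) (g : Z →ₗ[K] Y)
    (hker : LinearMap.ker g ≤ LinearMap.ker f) [Module.Finite K (LinearMap.range g)] :
    Module.Finite K (LinearMap.range f) ∧
      Module.finrank K (LinearMap.range f) ≤ Module.finrank K (LinearMap.range g) := by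
  let fbar : (Z ⧸ LinearMap.ker g) →ₗ[K] X := (LinearMap.ker g).liftQ f hker
  let e : (Z ⧸ LinearMap.ker g) ≃ₗ[K] LinearMap.range g := g.quotKerEquivRange
  have hfin : Module.Finite K (Z ⧸ LinearMap.ker g) := Module.Finite.equiv e.symm
  have hr : LinearMap.range fbar = LinearMap.range f := Submodule.range_liftQ _ f hker
  rw [← hr]
  refine ⟨inferInstance, ?_⟩
  calc Module.finrank K (LinearMap.range fbar) ≤ Module.finrank K (Z ⧸ LinearMap.ker g) :=
        LinearMap.finrank_range_le fbar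
    _ = Module.finrank K (LinearMap.range g) := LinearEquiv.finrank_eq e

end Abs2

section I

variable {p : ℕ} [Fact p.Prime] {k : Type} [Field k] [CharP k p] [Algebra (ZMod p) k] [Finite k]
  {ρbar : ResidualGaloisRep k} {b : Module.Basis (Fin 2) k ρbar.V}

/-- `Θ : levFlatCocycles(k(χ)) → H¹(G_p, ad⁰)`, `c ↦ [c · E₀₁]` -/
def wdnTheta (hb : IsFrame p ρbar b) :
    ↥(levFlatCocycles p (charRep p (wdfChi hb))) →ₗ[ZMod p] H1 (locRep p (ad0Rep p ρbar)) :=
  (H1π (locRep p (ad0Rep p ρbar))).hom ∘ₗ wdmJ hb ∘ₗ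
    (levFlatCocycles p (charRep p (wdfChi hb))).subtype

/-- `𝓘`: the image of the flat classes of `k(χ)` in `H¹(G_p, ad⁰)`. -/
def wdnI (hb : IsFrame p ρbar b) : Submodule (ZMod p) (H1 (locRep p (ad0Rep p ρbar))) :=
  LinearMap.range (wdnTheta hb)

lemma wdnTheta_apply (hb : IsFrame p ρbar b)
    (c : ↥(levFlatCocycles p (charRep p (wdfChi hb)))) :
    wdnTheta hb c = (H1π (locRep p (ad0Rep p ρbar))).hom (wdmJ hb c.1) := rfl

/-- `J` maps coboundaries to coboundaries -/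
lemma wdn_J_cob (hb : IsFrame p ρbar b) (c : cocycles₁ (charRep p (wdfChi hb)))
    (m : k) (hm : ∀ σ, wdcVal c σ = (((wdfChi hb σ : kˣ) : k) - 1) * m) :
    (H1π (locRep p (ad0Rep p ρbar))).hom (wdmJ hb c) = 0 := by
  rw [H1π_eq_zero_iff]
  refine ⟨wdfOfMat p ρbar b (wdE01 m) (wdE01_trace m), ?_⟩
  funext σ
  rw [d₀₁_hom_apply]
  apply wdf_ext (b := b)
  · rw [map_sub, Matrix.sub_apply, hb.act00 σ _ (by rw [wdfMat_ofMat]; rfl), sub_self,
      wdmJ_apply]
    rfl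
  · rw [map_sub, Matrix.sub_apply, hb.act01' σ _ (by rw [wdfMat_ofMat]; rfl)
      (by rw [wdfMat_ofMat]; rfl), wdfMat_ofMat, wdmJ_apply]
    show ((wdfChi hb σ : kˣ) : k) * m - m = wdcVal c σ
    rw [hm σ]; ring
  · rw [map_sub, Matrix.sub_apply, hb.act10, wdfMat_ofMat, wdmJ_apply]
    show _ * (0 : k) - 0 = 0
    rw [mul_zero, sub_zero]

/-- the diagonal matrix `diag(a, -a)` -/
def wdH (a : k) : Matrix (Fin 2) (Fin 2) k := Matrix.of ![![a, 0], ![0, -a]]

lemma wdH_trace (a : k) : wdH a 0 0 + wdH a 1 1 = 0 := by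
  show a + -a = 0
  rw [add_neg_cancel]

/-- `J (a · n)` is a coboundary: `∂ (diag(-a/2, a/2)) = a n E₀₁` -/
lemma wdn_J_N (hp2 : p ≠ 2) (hb : IsFrame p ρbar b) (a : k) :
    (H1π (locRep p (ad0Rep p ρbar))).hom (wdmJ hb (wdmN hb a)) = 0 := by
  have h2 : (2 : k) ≠ 0 := by
    intro h
    have h3 : ((2 : ℕ) : k) = 0 := by exact_mod_cast h
    rw [CharP.cast_eq_zero_iff k p] at h3
    have hp : p.Prime := Fact.out
    have := (Nat.prime_dvd_prime_iff_eq hp Nat.prime_two).1 h3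
    exact hp2 this
  rw [H1π_eq_zero_iff]
  refine ⟨wdfOfMat p ρbar b (wdH (-(a / 2))) (wdH_trace _), ?_⟩
  funext σ
  rw [d₀₁_hom_apply]
  apply wdf_ext (b := b)
  · rw [map_sub, Matrix.sub_apply, hb.act00 σ _ (by rw [wdfMat_ofMat]; rfl), sub_self,
      wdmJ_apply]
    rfl
  · rw [map_sub, Matrix.sub_apply, wdmJ_apply, wdfMat_ofMat]
    have h := hb.act01 σ (wdfOfMat p ρbar b (wdH (-(a / 2))) (wdH_trace _))
      (by rw [wdfMat_ofMat]; rfl)
    rw [wdfMat_ofMat] at h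
    have e1 : wdH (-(a / 2)) 0 1 = 0 := rfl
    have e2 : wdH (-(a / 2)) 0 0 = -(a / 2) := rfl
    rw [e1, e2, mul_zero, zero_sub] at h
    have h1 := wdf_eta2_ne_zero hb σ
    show _ - (0 : k) = wdcVal (wdmN hb a) σ
    rw [sub_zero, wdcVal_wdmN, wdcVal_N]
    have h' : -(2 * wdfM p ρbar b σ 0 1 * -(a / 2)) = a * wdfM p ρbar b σ 0 1 := by
      field_simp
    rw [h'] at h
    rw [← mul_assoc, ← h, mul_assoc, mul_inv_cancel₀ h1, mul_one]
  · rw [map_sub, Matrix.sub_apply, hb.act10, wdfMat_ofMat, wdmJ_apply]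
    show _ * (0 : k) - 0 = 0
    rw [mul_zero, sub_zero]

/-- `a · n` is a flat cocycle of `k(χ)` as soon as SOME cocycle satisfies `PLev` -/
lemma wdn_N_mem (hb : IsFrame p ρbar b) (z₀ : GQq p → Module.End k ρbar.V)
    (hz₀ : PLev p ρbar z₀) (a : k) :
    wdmN hb a ∈ levFlatCocycles p (charRep p (wdfChi hb)) := by
  refine wdev_mem_levFlat p ρbar z₀ hz₀ _ (wdmN hb a) ?_ ?_
  · obtain ⟨U, hU, h⟩ := wdx_smooth p ρbar
    refine ⟨U, hU, fun g s hs => ?_⟩
    show wdcVal (wdmN hb a) (g * s) = wdcVal (wdmN hb a) g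
    rw [wdcVal_wdmN, wdcVal_wdmN, wdcVal_N, wdcVal_N, wdx_M_level h g s hs]
  · intro σ h1 _
    show wdcVal (wdmN hb a) σ = 0
    rw [wdcVal_wdmN, wdcVal_N, (wdfM_eq_one_iff p ρbar b σ).2 h1]
    show a * ((0 : k) * _) = 0
    rw [zero_mul, mul_zero]

/-- the matrix `[[a, 2 m a], [0, -a]]` -/
def wdX1 (m a : k) : Matrix (Fin 2) (Fin 2) k := Matrix.of ![![a, 2 * m * a], ![0, -a]]

lemma wdX1_trace (m a : k) : wdX1 m a 0 0 + wdX1 m a 1 1 = 0 := by
  show a + -a = 0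
  rw [add_neg_cancel]

/-- if `ρ̄|_{G_p}` is split, `h⁰(G_p, ad⁰) ≥ f` -/
lemma wdn_finrank_le_inv (hb : IsFrame p ρbar b) (m : k)
    (hm : ∀ σ, wdcVal (wdcN hb) σ = (((wdfChi hb σ : kˣ) : k) - 1) * m) :
    Module.finrank (ZMod p) k ≤
      Module.finrank (ZMod p) (locRep p (ad0Rep p ρbar)).ρ.invariants := by
  have hfd := gmin_finiteDimensional p ρbar p
  -- `β = (η₁ - η₂) m`
  have hβ : ∀ σ, wdfM p ρbar b σ 0 1 =
      (wdfM p ρbar b σ 0 0 - wdfM p ρbar b σ 1 1) * m := by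
    intro σ
    have h1 := wdf_eta2_ne_zero hb σ
    have h2 := hm σ
    rw [wdcVal_N, ← wdfChi_mul_eta2 hb σ] at *
    have h3 : wdfM p ρbar b σ 0 1 =
        (wdfM p ρbar b σ 0 1 * (wdfM p ρbar b σ 1 1)⁻¹) * wdfM p ρbar b σ 1 1 := by
      rw [mul_assoc, inv_mul_cancel₀ h1, mul_one]
    rw [h3, h2]
    ring
  let f0 : k →+ (ad0Rep p ρbar).V :=
    AddMonoidHom.mk' (fun a => wdfOfMat p ρbar b (wdX1 m a) (wdX1_trace m a)) (by
      intro a a'
      apply wdf_ext (b := b)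
      · rw [map_add, Matrix.add_apply, wdfMat_ofMat, wdfMat_ofMat, wdfMat_ofMat]
        rfl
      · rw [map_add, Matrix.add_apply, wdfMat_ofMat, wdfMat_ofMat, wdfMat_ofMat]
        show 2 * m * (a + a') = 2 * m * a + 2 * m * a'
        ring
      · rw [map_add, Matrix.add_apply, wdfMat_ofMat, wdfMat_ofMat, wdfMat_ofMat]
        show (0 : k) = 0 + 0
        rw [add_zero])
  let f1 : k →ₗ[ZMod p] (locRep p (ad0Rep p ρbar)).V := AddMonoidHom.toZModLinearMap p f0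
  have hf1 : ∀ a, wdfMat p ρbar b (f1 a) = wdX1 m a := fun a =>
    wdfMat_ofMat (wdX1 m a) (wdX1_trace m a)
  let f : k →ₗ[ZMod p] (locRep p (ad0Rep p ρbar)).ρ.invariants :=
    LinearMap.codRestrict _ f1 (by
      intro a σ
      apply wdf_ext (b := b)
      · rw [hb.act00 σ _ (by rw [hf1]; rfl)]
      · have h := hb.act01 σ (f1 a) (by rw [hf1]; rfl)
        rw [hf1] at h
        have e1 : wdX1 m a 0 1 = 2 * m * a := rfl
        have e2 : wdX1 m a 0 0 = a := rfl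
        rw [e1, e2, hβ σ] at h
        have h1 := wdf_eta2_ne_zero hb σ
        rw [hf1, e1]
        apply mul_right_cancel₀ h1
        rw [h]
        ring
      · rw [hb.act10, hf1]
        show _ * (0 : k) = 0
        rw [mul_zero])
  refine LinearMap.finrank_le_finrank_of_injective (f := f) ?_
  intro a a' h
  have h1 := congrArg (fun x : (locRep p (ad0Rep p ρbar)).ρ.invariants =>
    wdfMat p ρbar b (x : (ad0Rep p ρbar).V) 0 0) h
  have h2 : wdfMat p ρbar b (f1 a) 0 0 = wdfMat p ρbar b (f1 a') 0 0 := h1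
  rw [hf1, hf1] at h2
  exact h2

/-- **Lemma I**: `dim 𝓘 ≤ h⁰(G_p, ad⁰)`. -/
theorem wdn_finrank_I (hgb : StmtGBChar) (hunr : StmtUnrLe) (hp2 : p ≠ 2)
    (hb : IsFrame p ρbar b) (hχ : ∃ σ₁, wdfChi hb σ₁ ≠ 1)
    (z₀ : GQq p → Module.End k ρbar.V) (hz₀ : PLev p ρbar z₀) :
    Module.Finite (ZMod p) (wdnI hb) ∧
      Module.finrank (ZMod p) (wdnI hb) ≤
        Module.finrank (ZMod p) (locRep p (ad0Rep p ρbar)).ρ.invariants := by
  have hbotcase : (∀ c : ↥(levFlatCocycles p (charRep p (wdfChi hb))), wdnTheta hb c = 0) →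
      Module.Finite (ZMod p) (wdnI hb) ∧
      Module.finrank (ZMod p) (wdnI hb) ≤
        Module.finrank (ZMod p) (locRep p (ad0Rep p ρbar)).ρ.invariants := by
    intro h
    have hbot : wdnI hb = ⊥ := by
      rw [eq_bot_iff]
      rintro _ ⟨c, rfl⟩
      rw [h c]
      exact Submodule.zero_mem _
    rw [hbot]
    refine ⟨inferInstance, ?_⟩
    rw [finrank_bot]
    exact Nat.zero_le _
  by_cases hcyc : IsCycOnInertia p (wdfChi hb)
  · obtain ⟨hfin, -, h3⟩ := hgb p hp2 k (wdfChi hb) (wdx_chi_smooth hb)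
    have hle := h3 hcyc
    have hfdk : FiniteDimensional (ZMod p) k := Module.Finite.of_finite
    by_cases hn : ∃ m : k, ∀ σ, wdcVal (wdcN hb) σ = (((wdfChi hb σ : kˣ) : k) - 1) * m
    · -- split case
      obtain ⟨m, hm⟩ := hn
      have h2 := wdn_finrank_le_inv hb m hm
      let g : ↥(levFlatCocycles p (charRep p (wdfChi hb))) →ₗ[ZMod p]
          H1 (charRep p (wdfChi hb)) :=
        (H1π (charRep p (wdfChi hb))).hom ∘ₗ (levFlatCocycles p (charRep p (wdfChi hb))).subtype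
      have hrg : LinearMap.range g = levFlatH1 p (charRep p (wdfChi hb)) := by
        show LinearMap.range ((H1π (charRep p (wdfChi hb))).hom ∘ₗ
          (levFlatCocycles p (charRep p (wdfChi hb))).subtype) = _
        rw [LinearMap.range_comp, Submodule.range_subtype]
        rfl
      have hfg : Module.Finite (ZMod p) (LinearMap.range g) := by rw [hrg]; exact hfin
      have hker : LinearMap.ker g ≤ LinearMap.ker (wdnTheta hb) := by
        intro c hc
        rw [LinearMap.mem_ker] at hc ⊢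
        have hc' : (H1π (charRep p (wdfChi hb))).hom c.1 = 0 := hc
        obtain ⟨m', hm'⟩ := (wdc_H1π_eq_zero_iff c.1).1 hc'
        exact wdn_J_cob hb c.1 m' hm'
      obtain ⟨hf, hr⟩ := wdev_finrank_range_mono (wdnTheta hb) g hker
      refine ⟨hf, ?_⟩
      have hr' : Module.finrank (ZMod p) (wdnI hb) ≤
          Module.finrank (ZMod p) (levFlatH1 p (charRep p (wdfChi hb))) := by
        rw [← hrg]
        exact hr
      omega
    · -- non-split case: `𝓘 = 0`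
      apply hbotcase
      let κ : k →ₗ[ZMod p] levFlatH1 p (charRep p (wdfChi hb)) :=
        LinearMap.codRestrict _ ((H1π (charRep p (wdfChi hb))).hom ∘ₗ wdmN hb)
          (fun a => (mem_levFlatH1 p _ _).2 ⟨wdmN hb a, wdn_N_mem hb z₀ hz₀ a, rfl⟩)
      have hκ : ∀ a, ((κ a : levFlatH1 p (charRep p (wdfChi hb))) :
          H1 (charRep p (wdfChi hb))) = (H1π (charRep p (wdfChi hb))).hom (wdmN hb a) :=
        fun _ => rfl
      have hinj : Function.Injective κ := by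
        rw [injective_iff_map_eq_zero]
        intro a ha
        by_contra ha0
        apply hn
        have h1 : (H1π (charRep p (wdfChi hb))).hom (wdmN hb a) = 0 := by
          rw [← hκ, ha]
          rfl
        obtain ⟨m', hm'⟩ := (wdc_H1π_eq_zero_iff _).1 h1
        refine ⟨a⁻¹ * m', fun σ => ?_⟩
        have h2 := hm' σ
        rw [wdcVal_wdmN] at h2
        calc wdcVal (wdcN hb) σ = a⁻¹ * (a * wdcVal (wdcN hb) σ) := by
              rw [← mul_assoc, inv_mul_cancel₀ ha0, one_mul]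
          _ = _ := by rw [h2]; ring
      have hfin' : Module.Finite (ZMod p) (levFlatH1 p (charRep p (wdfChi hb))) := hfin
      have hge := LinearMap.finrank_le_finrank_of_injective hinj
      have heq : Module.finrank (ZMod p) k =
          Module.finrank (ZMod p) (levFlatH1 p (charRep p (wdfChi hb))) :=
        le_antisymm hge hle
      have hsurj : Function.Surjective κ :=
        (LinearMap.injective_iff_surjective_of_finrank_eq_finrank heq).1 hinj
      intro c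
      obtain ⟨a, ha⟩ := hsurj ⟨(H1π (charRep p (wdfChi hb))).hom c.1,
        (mem_levFlatH1 p _ _).2 ⟨c.1, c.2, rfl⟩⟩
      have h1 : (H1π (charRep p (wdfChi hb))).hom (wdmN hb a) =
          (H1π (charRep p (wdfChi hb))).hom c.1 := by
        rw [← hκ, ha]
      have h2 : (H1π (charRep p (wdfChi hb))).hom (c.1 - wdmN hb a) = 0 := by
        rw [map_sub, h1, sub_self]
      obtain ⟨m', hm'⟩ := (wdc_H1π_eq_zero_iff _).1 h2
      have h3 := wdn_J_cob hb _ m' hm'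
      rw [map_sub, map_sub, wdn_J_N hp2 hb a, sub_zero] at h3
      exact h3
  · -- `χ` is not cyclotomic on inertia: all flat classes of `k(χ)` vanish
    apply hbotcase
    intro c
    obtain ⟨m, hm⟩ := wdx_vanish hgb hunr hp2 (wdfChi hb) (wdx_chi_smooth hb) hχ hcyc c.1 c.2
    exact wdn_J_cob hb c.1 m hm

end I

end Fermat.Agent.TW.W

end


end ZBTW_028_9

/-! ### bundled: `Fermat.Agent.TW.W.DevCount` -/
section ZBTW_028_10
/-
TW-W / W-dev (helper74), part H: THE COUNT for a good frame.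

`wdk_count`: `b` a frame with `χ ≠ 1`, `Fs ⊆ H¹(G_p, ad⁰)` a subspace all of whose elements have
`B⁰`-valued level representatives satisfying `PLev`.  Then `dim Fs ≤ f + h⁰(G_p, ad⁰)`.
-/

set_option autoImplicit false
set_option linter.unusedSectionVars false
set_option linter.unusedVariables false

noncomputable section

namespace Fermat.Agent.TW.W

open CategoryTheory groupCohomology IsLocalRing Polynomial
open Fermat.Agent.PT Fermat.Agent.PT.B Fermat.Agent.TW.L Fermat.Agent.TW.S Fermat.Agent.S53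
  Fermat.Agent.W1 ExtCitation

section Count

variable {p : ℕ} [Fact p.Prime] {k : Type} [Field k] [CharP k p] [Algebra (ZMod p) k] [Finite k]
  {ρbar : ResidualGaloisRep k} {b : Module.Basis (Fin 2) k ρbar.V}

lemma wdk_two_ne_zero (hp2 : p ≠ 2) : (2 : k) ≠ 0 := by
  intro h
  have h3 : ((2 : ℕ) : k) = 0 := by exact_mod_cast h
  rw [CharP.cast_eq_zero_iff k p] at h3
  have hp : p.Prime := Fact.out
  exact hp2 ((Nat.prime_dvd_prime_iff_eq hp Nat.prime_two).1 h3)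

/-- the trivial character is not cyclotomic on inertia -/
lemma wdk_not_cyc_one (hp2 : p ≠ 2) : ¬ IsCycOnInertia p (1 : GQq p →* kˣ) := by
  intro h
  obtain ⟨τ, hτ, hτa⟩ := wstr_cyclo_inertiaQ_surjective p (-1 : (ZMod p)ˣ)
  have h1 := h τ hτ
  rw [hτa, MonoidHom.one_apply, Units.val_one, Units.val_neg, Units.val_one, map_neg,
    map_one] at h1
  apply wdk_two_ne_zero (k := k) hp2
  have : (2 : k) = 1 + 1 := by norm_num
  rw [this]
  nth_rewrite 1 [h1]
  rw [neg_add_cancel]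

/-- a coboundary with values in `B⁰` has vanishing diagonal entry (`χ ≠ 1`) -/
lemma wdk_diag_cob (hb : IsFrame p ρbar b) (hχ : ∃ σ₁, wdfChi hb σ₁ ≠ 1)
    (x : (ad0Rep p ρbar).V)
    (hx : ∀ σ, wdfMat p ρbar b ((locRep p (ad0Rep p ρbar)).ρ σ x - x) 1 0 = 0) (σ : GQq p) :
    wdfMat p ρbar b ((locRep p (ad0Rep p ρbar)).ρ σ x - x) 0 0 = 0 := by
  obtain ⟨σ₁, hσ₁⟩ := hχ
  have h1 := hx σ₁
  rw [map_sub, Matrix.sub_apply, hb.act10] at h1
  have h2 : ((((wdfChi hb)⁻¹ σ₁ : kˣ) : k) - 1) * wdfMat p ρbar b x 1 0 = 0 := by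
    rw [sub_mul, one_mul]
    exact h1
  have h3 : wdfMat p ρbar b x 1 0 = 0 := by
    rcases mul_eq_zero.1 h2 with h | h
    · exfalso
      apply hσ₁
      have h4 : (wdfChi hb)⁻¹ σ₁ = 1 := by
        apply Units.ext
        rw [Units.val_one]
        exact sub_eq_zero.1 h
      rw [MonoidHom.inv_apply, inv_eq_one] at h4
      exact h4
    · exact h
  rw [map_sub, Matrix.sub_apply, hb.act00 σ x h3, sub_self]

/-- two cohomologous `B⁰`-valued cocycles have the same diagonal entry (`χ ≠ 1`) -/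
lemma wdk_diag_eq (hb : IsFrame p ρbar b) (hχ : ∃ σ₁, wdfChi hb σ₁ ≠ 1)
    (z z' : cocycles₁ (locRep p (ad0Rep p ρbar)))
    (hz : ∀ σ, wdfMat p ρbar b ((z : GQq p → (ad0Rep p ρbar).V) σ) 1 0 = 0)
    (hz' : ∀ σ, wdfMat p ρbar b ((z' : GQq p → (ad0Rep p ρbar).V) σ) 1 0 = 0)
    (h : (H1π (locRep p (ad0Rep p ρbar))).hom z = (H1π (locRep p (ad0Rep p ρbar))).hom z')
    (σ : GQq p) :
    wdfMat p ρbar b ((z : GQq p → (ad0Rep p ρbar).V) σ) 0 0 =
      wdfMat p ρbar b ((z' : GQq p → (ad0Rep p ρbar).V) σ) 0 0 := by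
  obtain ⟨x, hx⟩ := (H1π_eq_iff z z').1 h
  have hx' : ∀ τ, (locRep p (ad0Rep p ρbar)).ρ τ x - x =
      (z : GQq p → (ad0Rep p ρbar).V) τ - (z' : GQq p → (ad0Rep p ρbar).V) τ := by
    intro τ
    have := congrFun hx τ
    rw [d₀₁_hom_apply] at this
    exact this
  have h1 := wdk_diag_cob hb hχ x (fun τ => by
    rw [hx' τ, map_sub, Matrix.sub_apply, hz τ, hz' τ, sub_self]) σ
  rw [hx' σ, map_sub, Matrix.sub_apply] at h1
  exact sub_eq_zero.1 h1

/-- **The count for a good frame.** -/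
theorem wdk_count (hgb : StmtGBChar) (hunr : StmtUnrLe) (hp2 : p ≠ 2)
    (hb : IsFrame p ρbar b) (hχ : ∃ σ₁, wdfChi hb σ₁ ≠ 1)
    (Fs : Submodule (ZMod p) (H1 (locRep p (ad0Rep p ρbar))))
    (hgood : ∀ x ∈ Fs, ∃ z : cocycles₁ (locRep p (ad0Rep p ρbar)),
        (H1π (locRep p (ad0Rep p ρbar))).hom z = x ∧
        IsLevel₁ (towerLoc p) (z : GQq p → (ad0Rep p ρbar).V) ∧
        PLev p ρbar (fun τ => ad0Val p ρbar ((z : GQq p → (ad0Rep p ρbar).V) τ)) ∧
        ∀ σ, wdfMat p ρbar b ((z : GQq p → (ad0Rep p ρbar).V) σ) 1 0 = 0) :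
    Module.Finite (ZMod p) Fs ∧
      Module.finrank (ZMod p) Fs ≤ Module.finrank (ZMod p) k +
        Module.finrank (ZMod p) (locRep p (ad0Rep p ρbar)).ρ.invariants := by
  classical
  obtain ⟨z₀, -, -, hz₀, -⟩ := hgood 0 Fs.zero_mem
  -- the unramified homomorphisms
  have hfdk : FiniteDimensional (ZMod p) k := Module.Finite.of_finite
  have hfd1 : FiniteDimensional (ZMod p) (charRep p (1 : GQq p →* kˣ)) := hfdk
  have hsm1 : ∃ U ∈ (towerLoc p).lev, ∀ s ∈ U, (1 : GQq p →* kˣ) s = 1 :=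
    ⟨⊤, (towerLoc p).top_mem, fun _ _ => rfl⟩
  obtain ⟨hUfin, hUrank⟩ := hunr p p (charRep p (1 : GQq p →* kˣ)) (wdx_charRep_smooth _ hsm1)
  have hUrank' : Module.finrank (ZMod p) (unrH1 p (charRep p (1 : GQq p →* kˣ))) ≤
      Module.finrank (ZMod p) k :=
    hUrank.trans (Submodule.finrank_le _)
  obtain ⟨-, hgb1, -⟩ := hgb p hp2 k (1 : GQq p →* kˣ) hsm1
  have hlf1 := hgb1 (wdk_not_cyc_one hp2)
  -- `𝓘`
  obtain ⟨hIfin, hIrank⟩ := wdn_finrank_I hgb hunr hp2 hb hχ _ hz₀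
  -- the cocycles
  let 𝒵 : Submodule (ZMod p) (cocycles₁ (locRep p (ad0Rep p ρbar))) :=
    wdmB p ρbar b ⊓ Fs.comap (H1π (locRep p (ad0Rep p ρbar))).hom
  let π : ↥𝒵 →ₗ[ZMod p] H1 (locRep p (ad0Rep p ρbar)) :=
    (H1π (locRep p (ad0Rep p ρbar))).hom ∘ₗ 𝒵.subtype
  let α : ↥𝒵 →ₗ[ZMod p] H1 (charRep p (1 : GQq p →* kˣ)) :=
    (H1π (charRep p (1 : GQq p →* kˣ))).hom ∘ₗ wdmDiag hb ∘ₗ
      Submodule.inclusion (inf_le_left : 𝒵 ≤ wdmB p ρbar b)
  have hπ : ∀ z : ↥𝒵, π z = (H1π (locRep p (ad0Rep p ρbar))).hom z.1 := fun _ => rfl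
  have hα : ∀ z : ↥𝒵, α z = (H1π (charRep p (1 : GQq p →* kˣ))).hom
      (wdcDiag hb z.1 ((mem_wdmB z.1).1 z.2.1)) := fun _ => rfl
  -- good representatives
  have hrep : ∀ z : ↥𝒵, ∃ z' : cocycles₁ (locRep p (ad0Rep p ρbar)),
      (H1π (locRep p (ad0Rep p ρbar))).hom z' = (H1π (locRep p (ad0Rep p ρbar))).hom z.1 ∧
      IsLevel₁ (towerLoc p) (z' : GQq p → (ad0Rep p ρbar).V) ∧
      PLev p ρbar (fun τ => ad0Val p ρbar ((z' : GQq p → (ad0Rep p ρbar).V) τ)) ∧
      (∀ σ, wdfMat p ρbar b ((z' : GQq p → (ad0Rep p ρbar).V) σ) 1 0 = 0) ∧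
      ∀ σ, wdfMat p ρbar b ((z' : GQq p → (ad0Rep p ρbar).V) σ) 0 0 =
        wdfMat p ρbar b ((z.1 : GQq p → (ad0Rep p ρbar).V) σ) 0 0 := by
    intro z
    obtain ⟨z', h1, h2, h3, h4⟩ := hgood _ z.2.2
    exact ⟨z', h1, h2, h3, h4, wdk_diag_eq hb hχ z' z.1 h4 ((mem_wdmB z.1).1 z.2.1) h1⟩
  -- `α` has values in the unramified classes
  have hU : ∀ z : ↥𝒵, α z ∈ unrH1 p (charRep p (1 : GQq p →* kˣ)) := by
    intro z
    obtain ⟨z', h1, h2, h3, h4, h5⟩ := hrep z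
    apply hlf1
    refine (mem_levFlatH1 p _ _).2 ⟨wdcDiag hb z' h4, ?_, ?_⟩
    · refine wdev_mem_levFlat p ρbar _ h3 _ _ ?_ ?_
      · obtain ⟨U, hU, h⟩ := h2
        refine ⟨U, hU, fun g s hs => ?_⟩
        show wdcVal (wdcDiag hb z' h4) (g * s) = wdcVal (wdcDiag hb z' h4) g
        rw [wdcVal_diag, wdcVal_diag, h g s hs]
      · intro σ _ h0
        show wdcVal (wdcDiag hb z' h4) σ = 0
        rw [wdcVal_diag]
        have : (z' : GQq p → (ad0Rep p ρbar).V) σ = 0 :=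
          ad0Val_injective p ρbar (by rw [h0, map_zero])
        rw [this, map_zero]
        rfl
    · rw [hα]
      congr 1
      apply wdcVal_ext
      intro σ
      rw [wdcVal_diag, wdcVal_diag, h5 σ]
  -- `ker π ≤ ker α`
  have hker : LinearMap.ker π ≤ LinearMap.ker α := by
    intro z hz
    rw [LinearMap.mem_ker] at hz ⊢
    rw [hπ] at hz
    rw [hα]
    obtain ⟨x, hx⟩ := (H1π_eq_zero_iff z.1).1 hz
    have hx' : ∀ τ, (locRep p (ad0Rep p ρbar)).ρ τ x - x =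
        (z.1 : GQq p → (ad0Rep p ρbar).V) τ := by
      intro τ
      have := congrFun hx τ
      rw [d₀₁_hom_apply] at this
      exact this
    have h1 : ∀ σ, wdfMat p ρbar b ((z.1 : GQq p → (ad0Rep p ρbar).V) σ) 0 0 = 0 := by
      intro σ
      have := wdk_diag_cob hb hχ x (fun τ => by rw [hx' τ]; exact (mem_wdmB z.1).1 z.2.1 τ) σ
      rwa [hx' σ] at this
    have h2 : wdcDiag hb z.1 ((mem_wdmB z.1).1 z.2.1) = 0 := by
      apply wdcVal_ext
      intro σ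
      rw [wdcVal_diag, h1 σ]
      rfl
    rw [h2, map_zero]
  -- `π (ker α) ⊆ 𝓘`
  have hI : ∀ z : ↥𝒵, α z = 0 → π z ∈ wdnI hb := by
    intro z hz
    rw [hα] at hz
    obtain ⟨m, hm⟩ := (wdc_H1π_eq_zero_iff _).1 hz
    obtain ⟨z', h1, h2, h3, h4, h5⟩ := hrep z
    have h00 : ∀ σ, wdfMat p ρbar b ((z' : GQq p → (ad0Rep p ρbar).V) σ) 0 0 = 0 := by
      intro σ
      rw [h5 σ]
      have := hm σ
      rw [wdcVal_diag, MonoidHom.one_apply, Units.val_one, sub_self, zero_mul] at this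
      exact this
    have hu : wdcUp hb z' h4 h00 ∈ levFlatCocycles p (charRep p (wdfChi hb)) := by
      refine wdev_mem_levFlat p ρbar _ h3 _ _ ?_ ?_
      · obtain ⟨U, hU, h⟩ := h2
        refine ⟨U, hU, fun g s hs => ?_⟩
        show wdcVal (wdcUp hb z' h4 h00) (g * s) = wdcVal (wdcUp hb z' h4 h00) g
        rw [wdcVal_up, wdcVal_up, h g s hs]
      · intro σ _ h0
        show wdcVal (wdcUp hb z' h4 h00) σ = 0
        rw [wdcVal_up]
        have : (z' : GQq p → (ad0Rep p ρbar).V) σ = 0 :=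
          ad0Val_injective p ρbar (by rw [h0, map_zero])
        rw [this, map_zero]
        rfl
    have hJ : wdmJ hb (wdcUp hb z' h4 h00) = z' := by
      apply Subtype.ext
      funext σ
      show (wdmJ hb (wdcUp hb z' h4 h00) : GQq p → (ad0Rep p ρbar).V) σ =
        (z' : GQq p → (ad0Rep p ρbar).V) σ
      apply wdf_ext (b := b)
      · rw [wdmJ_apply, h00 σ]
        rfl
      · rw [wdmJ_apply]
        rfl
      · rw [wdmJ_apply, h4 σ]
        rfl
    refine ⟨⟨wdcUp hb z' h4 h00, hu⟩, ?_⟩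
    rw [wdnTheta_apply, hπ, ← h1]
    show (H1π (locRep p (ad0Rep p ρbar))).hom (wdmJ hb (wdcUp hb z' h4 h00)) = _
    rw [hJ]
  -- the count
  have := hUfin
  have := hIfin
  obtain ⟨hRfin, hRrank⟩ := wdev_finrank_range_le π α hker
    (unrH1 p (charRep p (1 : GQq p →* kˣ))) hU (wdnI hb) hI
  have hle : Fs ≤ LinearMap.range π := by
    intro x hx
    obtain ⟨z', h1, h2, h3, h4⟩ := hgood x hx
    refine ⟨⟨z', (mem_wdmB z').2 h4, ?_⟩, h1⟩
    show (H1π (locRep p (ad0Rep p ρbar))).hom z' ∈ Fs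
    rw [h1]
    exact hx
  have hN : IsNoetherian (ZMod p) (LinearMap.range π) :=
    @isNoetherian_of_isNoetherianRing_of_finite (ZMod p) _ _ _ _ _ hRfin
  refine ⟨@Module.Finite.of_injective (ZMod p) (ZMod p) _ _ _ _ _ _ _ _ hN _ _ _ _
    (Submodule.inclusion hle) (Submodule.inclusion_injective hle), ?_⟩
  have := @Submodule.finrank_mono (ZMod p) _ _ _ _ _ _ _ hRfin hle
  omega

end Count

end Fermat.Agent.TW.W

end


end ZBTW_028_10

/-! ### bundled: `Fermat.Agent.TW.W.DevQ` -/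
section ZBTW_028_11
/-
TW-W / W-dev (helper74), part I: existence of a GOOD frame in the reducible case.
-/

set_option autoImplicit false
set_option linter.unusedSectionVars false
set_option linter.unusedVariables false

noncomputable section

namespace Fermat.Agent.TW.W

open CategoryTheory groupCohomology IsLocalRing Polynomial
open Fermat.Agent.PT Fermat.Agent.PT.B Fermat.Agent.TW.L Fermat.Agent.TW.S Fermat.Agent.S53
  Fermat.Agent.W1 ExtCitation

section Q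

variable {p : ℕ} [Fact p.Prime] {k : Type} [Field k] [CharP k p] [Algebra (ZMod p) k] [Finite k]
  {ρbar : ResidualGaloisRep k} {b : Module.Basis (Fin 2) k ρbar.V}

/-- `algebraMap (ZMod p) k a = (a.val : k)` -/
lemma wdq_algebraMap (a : ZMod p) : algebraMap (ZMod p) k a = ((a.val : ℕ) : k) := by
  conv_lhs => rw [← ZMod.natCast_zmod_val a]
  rw [map_natCast]

/-- `det ρ̄ = ω` -/
lemma wdq_det_eq (hdet : (GaloisRepAdic.ofResidualGaloisRep ρbar).DetIsCyclotomic p) (σ : GQ) :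
    LinearMap.det (ρbar.ρ σ) = algebraMap (ZMod p) k ((cycloChar p σ : (ZMod p)ˣ) : ZMod p) := by
  have h1 := hdet.2 1 σ ((cycloChar p σ : (ZMod p)ˣ) : ZMod p).val (fun μ hμ => by
    rw [pow_one] at hμ
    exact sline_cycloChar_spec p σ μ hμ)
  have hρ : (GaloisRepAdic.ofResidualGaloisRep ρbar).ρ σ = ρbar.ρ σ := rfl
  rw [hρ, pow_one, CharP.cast_eq_zero k p, Ideal.mem_span_singleton, zero_dvd_iff,
    sub_eq_zero] at h1
  exact h1.trans (wdq_algebraMap _).symm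

/-- in a frame, `η₁ η₂ = ω` -/
lemma wdq_eta_mul (hdet : (GaloisRepAdic.ofResidualGaloisRep ρbar).DetIsCyclotomic p)
    (hb : IsFrame p ρbar b) (σ : GQq p) :
    wdfM p ρbar b σ 0 0 * wdfM p ρbar b σ 1 1 =
      algebraMap (ZMod p) k ((cycloChar p (localGaloisToGlobal p σ) : (ZMod p)ˣ) : ZMod p) := by
  rw [← wdq_det_eq hdet, ← LinearMap.det_toMatrix b]
  show _ = Matrix.det (wdfM p ρbar b σ)
  rw [Matrix.det_fin_two, hb σ, mul_zero, sub_zero]

lemma wdq_eta1_smooth (hb : IsFrame p ρbar b) :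
    ∃ U ∈ (towerLoc p).lev, ∀ s ∈ U, wdfEta1 hb s = 1 ∧ wdfEta2 hb s = 1 := by
  obtain ⟨U, hU, h⟩ := wdx_smooth p ρbar
  refine ⟨U, hU, fun s hs => ?_⟩
  have h1 := (wdfM_eq_one_iff p ρbar b s).2 (h s hs)
  constructor
  · apply Units.ext
    rw [wdfEta1_coe, h1]; rfl
  · apply Units.ext
    rw [wdfEta2_coe, h1]; rfl

/-- **`χ ≠ 1`** in every frame (`det = ω` is not a square on inertia). -/
theorem wdq_chi_ne_one (hns : StmtNoSqrt) (hp2 : p ≠ 2)
    (hdet : (GaloisRepAdic.ofResidualGaloisRep ρbar).DetIsCyclotomic p)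
    (hb : IsFrame p ρbar b) : ∃ σ₁, wdfChi hb σ₁ ≠ 1 := by
  by_contra hcon0
  have hcon : ∀ σ, wdfChi hb σ = 1 := fun σ => by
    by_contra h
    exact hcon0 ⟨σ, h⟩
  have heq : ∀ σ, wdfM p ρbar b σ 0 0 = wdfM p ρbar b σ 1 1 := by
    intro σ
    have h := wdfChi_mul_eta2 hb σ
    rw [hcon σ, Units.val_one, one_mul] at h
    exact h.symm
  obtain ⟨U, hU, hsm⟩ := wdq_eta1_smooth hb
  refine hns p hp2 k (wdfEta1 hb) ⟨U, hU, fun s hs => (hsm s hs).1⟩ ?_
  intro σ _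
  rw [wdfEta1_coe, ← wdq_eta_mul hdet hb σ, ← heq σ, sq]

/-- the lower triangular nilpotent matrix -/
def wdE10 (m : k) : Matrix (Fin 2) (Fin 2) k := Matrix.of ![![0, 0], ![m, 0]]

lemma wdE10_trace (m : k) : wdE10 m 0 0 + wdE10 m 1 1 = 0 := by
  show (0 : k) + 0 = 0
  rw [add_zero]

/-- **Fixing**: if the lower left entry of `z` is a coboundary, `z` is cohomologous to a
`B⁰`-valued cocycle, still level and `PLev`. -/
theorem wdq_fix (hb : IsFrame p ρbar b) (z : cocycles₁ (locRep p (ad0Rep p ρbar)))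
    (m : k) (hm : ∀ σ, wdfMat p ρbar b ((z : GQq p → (ad0Rep p ρbar).V) σ) 1 0 =
      ((((wdfChi hb)⁻¹ σ : kˣ) : k) - 1) * m)
    (hlev : IsLevel₁ (towerLoc p) (z : GQq p → (ad0Rep p ρbar).V))
    (hplev : PLev p ρbar (fun τ => ad0Val p ρbar ((z : GQq p → (ad0Rep p ρbar).V) τ))) :
    ∃ z' : cocycles₁ (locRep p (ad0Rep p ρbar)),
      (H1π (locRep p (ad0Rep p ρbar))).hom z' = (H1π (locRep p (ad0Rep p ρbar))).hom z ∧
      IsLevel₁ (towerLoc p) (z' : GQq p → (ad0Rep p ρbar).V) ∧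
      PLev p ρbar (fun τ => ad0Val p ρbar ((z' : GQq p → (ad0Rep p ρbar).V) τ)) ∧
      ∀ σ, wdfMat p ρbar b ((z' : GQq p → (ad0Rep p ρbar).V) σ) 1 0 = 0 := by
  obtain ⟨z', h1, h2, h3, h4⟩ := wdx_modify z (wdfOfMat p ρbar b (wdE10 m) (wdE10_trace m))
  refine ⟨z', h2, h3 hlev, h4 hplev, fun σ => ?_⟩
  rw [h1 σ, map_sub, map_sub, Matrix.sub_apply, Matrix.sub_apply, hb.act10, wdfMat_ofMat, hm σ]
  show _ - (_ * m - m) = 0
  ring

/-- the set `F` has `B⁰`-valued representatives in the frame `b` -/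
def WGood (p : ℕ) [Fact p.Prime] {k : Type} [Field k] [CharP k p] (ρbar : ResidualGaloisRep k)
    (b : Module.Basis (Fin 2) k ρbar.V) (F : Set (H1 (locRep p (ad0Rep p ρbar)))) : Prop :=
  ∀ x ∈ F, ∃ z : cocycles₁ (locRep p (ad0Rep p ρbar)),
    (H1π (locRep p (ad0Rep p ρbar))).hom z = x ∧
    IsLevel₁ (towerLoc p) (z : GQq p → (ad0Rep p ρbar).V) ∧
    PLev p ρbar (fun τ => ad0Val p ρbar ((z : GQq p → (ad0Rep p ρbar).V) τ)) ∧
    ∀ σ, wdfMat p ρbar b ((z : GQq p → (ad0Rep p ρbar).V) σ) 1 0 = 0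

/-- the hypothesis of `StmtCount` on `F` -/
def WRep (p : ℕ) [Fact p.Prime] {k : Type} [Field k] [CharP k p] (ρbar : ResidualGaloisRep k)
    (F : Set (H1 (locRep p (ad0Rep p ρbar)))) : Prop :=
  ∀ x ∈ F, ∃ z : cocycles₁ (locRep p (ad0Rep p ρbar)),
    (H1π (locRep p (ad0Rep p ρbar))).hom z = x ∧
    IsLevel₁ (towerLoc p) (z : GQq p → (ad0Rep p ρbar).V) ∧
    PLev p ρbar (fun τ => ad0Val p ρbar ((z : GQq p → (ad0Rep p ρbar).V) τ)) ∧
    PEt1 p ρbar ∧
    PEt2 p ρbar (fun τ => ad0Val p ρbar ((z : GQq p → (ad0Rep p ρbar).V) τ))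

/-- **Case (i)**: `χ⁻¹` is not cyclotomic on inertia. -/
theorem wdq_good_of_not_cyc (hgb : StmtGBChar) (hunr : StmtUnrLe) (hp2 : p ≠ 2)
    (hb : IsFrame p ρbar b) (hχ : ∃ σ₁, wdfChi hb σ₁ ≠ 1)
    (hncyc : ¬ IsCycOnInertia p (wdfChi hb)⁻¹)
    (F : Set (H1 (locRep p (ad0Rep p ρbar)))) (hrep : WRep p ρbar F) : WGood p ρbar b F := by
  intro x hx
  obtain ⟨z, hzx, hlev, hplev, -, -⟩ := hrep x hx
  have hmem : wdcLow hb z ∈ levFlatCocycles p (charRep p (wdfChi hb)⁻¹) := by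
    refine wdev_mem_levFlat p ρbar _ hplev _ _ ?_ ?_
    · obtain ⟨U, hU, h⟩ := hlev
      refine ⟨U, hU, fun g s hs => ?_⟩
      show wdcVal (wdcLow hb z) (g * s) = wdcVal (wdcLow hb z) g
      rw [wdcVal_low, wdcVal_low, h g s hs]
    · intro σ _ h0
      show wdcVal (wdcLow hb z) σ = 0
      rw [wdcVal_low]
      have : (z : GQq p → (ad0Rep p ρbar).V) σ = 0 :=
        ad0Val_injective p ρbar (by rw [h0, map_zero])
      rw [this, map_zero]
      rfl
  have hne : ∃ σ₁, (wdfChi hb)⁻¹ σ₁ ≠ 1 := by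
    obtain ⟨σ₁, h⟩ := hχ
    refine ⟨σ₁, fun h' => h ?_⟩
    rw [MonoidHom.inv_apply, inv_eq_one] at h'
    exact h'
  obtain ⟨m, hm⟩ := wdx_vanish hgb hunr hp2 (wdfChi hb)⁻¹ (wdx_chi_inv_smooth hb) hne hncyc
    (wdcLow hb z) hmem
  obtain ⟨z', h1, h2, h3, h4⟩ := wdq_fix hb z m (fun σ => (wdcVal_low hb z σ).symm.trans (hm σ))
    hlev hplev
  exact ⟨z', h1.trans hzx, h2, h3, h4⟩

/-- **Shape (O)**: `η₂ = 1` on inertia, `η₁ ≠ 1` on inertia. -/
theorem wdq_good_of_ord (hO : StmtDevO) (hb : IsFrame p ρbar b)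
    (h2 : ∀ σ ∈ inertiaQ p, wdfM p ρbar b σ 1 1 = 1)
    (h1 : ∃ σ₀ ∈ inertiaQ p, wdfM p ρbar b σ₀ 0 0 ≠ 1)
    (F : Set (H1 (locRep p (ad0Rep p ρbar)))) (hrep : WRep p ρbar F) : WGood p ρbar b F := by
  intro x hx
  obtain ⟨z, hzx, hlev, hplev, -, het2⟩ := hrep x hx
  obtain ⟨m, hm⟩ := hO p k ρbar b hb h2 h1 z het2
  obtain ⟨z', h1', h2', h3', h4'⟩ := wdq_fix hb z m hm hlev hplev
  exact ⟨z', h1'.trans hzx, h2', h3', h4'⟩

end Q

end Fermat.Agent.TW.W

end


end ZBTW_028_11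

/-! ### bundled: `Fermat.Agent.TW.W.DevFinal` -/
section ZBTW_028_12
/-
TW-W / W-dev (helper74), part J: ASSEMBLY of the dévissage.

`stmtDev2_of : StmtDevO → StmtDevAO → StmtDevSwap → StmtDev2Tors → StmtDevFrame → StmtDev2`,
i.e. `StmtCount` from (GB) for characters, (GB) in the irreducible case, `TW.L.StmtUnrLe`,
`StmtNoSqrt` and the five sub-pieces of `TW/W/DevPlan.lean`.
-/

set_option autoImplicit false
set_option linter.unusedSectionVars false
set_option linter.unusedVariables false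

noncomputable section

namespace Fermat.Agent.TW.W

open CategoryTheory groupCohomology IsLocalRing Polynomial
open Fermat.Agent.PT Fermat.Agent.PT.B Fermat.Agent.TW.L Fermat.Agent.TW.S Fermat.Agent.S53
  Fermat.Agent.W1 ExtCitation

section Final

variable {p : ℕ} [Fact p.Prime] {k : Type} [Field k] [CharP k p] [Algebra (ZMod p) k] [Finite k]
  {ρbar : ResidualGaloisRep k} {b : Module.Basis (Fin 2) k ρbar.V}

/-- `n = (χ - 1) m` means `β = (η₁ - η₂) m` -/
lemma wdz_beta_of_n (hb : IsFrame p ρbar b) (m : k)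
    (hm : ∀ σ, wdcVal (wdcN hb) σ = (((wdfChi hb σ : kˣ) : k) - 1) * m) (σ : GQq p) :
    wdfM p ρbar b σ 0 1 = (wdfM p ρbar b σ 0 0 - wdfM p ρbar b σ 1 1) * m := by
  have h1 := wdf_eta2_ne_zero hb σ
  have h2 := hm σ
  rw [wdcVal_N] at h2
  have h3 : wdfM p ρbar b σ 0 1 =
      (wdfM p ρbar b σ 0 1 * (wdfM p ρbar b σ 1 1)⁻¹) * wdfM p ρbar b σ 1 1 := by
    rw [mul_assoc, inv_mul_cancel₀ h1, mul_one]
  rw [h3, h2, ← wdfChi_mul_eta2 hb σ]
  ring

/-- there is an element of inertia on which `ω = -1` -/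
lemma wdz_omega_neg_one (p : ℕ) [Fact p.Prime] (k : Type) [Field k] [Algebra (ZMod p) k] :
    ∃ τ ∈ inertiaQ p,
      algebraMap (ZMod p) k ((cycloChar p (localGaloisToGlobal p τ) : (ZMod p)ˣ) : ZMod p) =
        -1 := by
  obtain ⟨τ, hτ, hτa⟩ := wstr_cyclo_inertiaQ_surjective p (-1 : (ZMod p)ˣ)
  refine ⟨τ, hτ, ?_⟩
  rw [hτa, Units.val_neg, Units.val_one, map_neg, map_one]

lemma wdz_neg_one_ne_one (hp2 : p ≠ 2) : (-1 : k) ≠ 1 := by
  intro h
  apply wdk_two_ne_zero (k := k) hp2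
  have : (2 : k) = 1 + 1 := by norm_num
  rw [this]
  nth_rewrite 1 [← h]
  rw [neg_add_cancel]

/-- `IsCycOnInertia` only depends on the values -/
lemma wdz_cyc_congr {ψ ψ' : GQq p →* kˣ} (h : ∀ σ, ((ψ σ : kˣ) : k) = ((ψ' σ : kˣ) : k)) :
    IsCycOnInertia p ψ ↔ IsCycOnInertia p ψ' := by
  unfold IsCycOnInertia
  constructor
  · intro h1 σ hσ
    rw [← h σ]
    exact h1 σ hσ
  · intro h1 σ hσ
    rw [h σ]
    exact h1 σ hσ

/-- after a swap, `χ' ⁻¹ = χ` -/
lemma wdz_chi_swap {b' : Module.Basis (Fin 2) k ρbar.V} (hb : IsFrame p ρbar b)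
    (hb' : IsFrame p ρbar b')
    (h : ∀ σ : GQq p, wdfM p ρbar b' σ 0 0 = wdfM p ρbar b σ 1 1 ∧
        wdfM p ρbar b' σ 1 1 = wdfM p ρbar b σ 0 0 ∧ wdfM p ρbar b' σ 0 1 = 0) (σ : GQq p) :
    ((((wdfChi hb')⁻¹) σ : kˣ) : k) = ((wdfChi hb σ : kˣ) : k) := by
  have h1 := wdfChi_inv_mul_eta1 hb' σ
  have h2 := wdfChi_mul_eta2 hb σ
  rw [(h σ).1, (h σ).2.1] at h1
  have h3 := wdf_eta2_ne_zero hb σ
  apply mul_right_cancel₀ h3
  rw [h1, h2]

/-- **Existence of a good frame** (reducible case, `F` nonempty). -/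
theorem wdz_exists_good (hO : StmtDevO) (hAO : StmtDevAO) (hsw : StmtDevSwap)
    (h2t : StmtDev2Tors) (hgb : StmtGBChar) (hunr : StmtUnrLe) (hns : StmtNoSqrt)
    (hp2 : p ≠ 2) (hdet : (GaloisRepAdic.ofResidualGaloisRep ρbar).DetIsCyclotomic p)
    (hb : IsFrame p ρbar b) (F : Set (H1 (locRep p (ad0Rep p ρbar))))
    (hrep : WRep p ρbar F) (hne : F.Nonempty) :
    ∃ (b' : Module.Basis (Fin 2) k ρbar.V) (hb' : IsFrame p ρbar b'), WGood p ρbar b' F := by
  obtain ⟨x₀, hx₀⟩ := hne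
  obtain ⟨z₀, -, -, hz₀, het1, -⟩ := hrep x₀ hx₀
  have hχ := wdq_chi_ne_one hns hp2 hdet hb
  by_cases hc1 : IsCycOnInertia p (wdfChi hb)⁻¹
  · by_cases hc2 : IsCycOnInertia p (wdfChi hb)
    · -- both cyclotomic on inertia
      obtain ⟨τ, hτ, hτω⟩ := wdz_omega_neg_one p k
      have hω : ∀ σ ∈ inertiaQ p, wdfM p ρbar b σ 0 0 =
          algebraMap (ZMod p) k ((cycloChar p (localGaloisToGlobal p σ) : (ZMod p)ˣ) : ZMod p) *
            wdfM p ρbar b σ 1 1 := by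
        intro σ hσ
        rw [← hc2 σ hσ, wdfChi_mul_eta2]
      have hω' : ∀ σ ∈ inertiaQ p, wdfM p ρbar b σ 1 1 =
          algebraMap (ZMod p) k ((cycloChar p (localGaloisToGlobal p σ) : (ZMod p)ˣ) : ZMod p) *
            wdfM p ρbar b σ 0 0 := by
        intro σ hσ
        rw [← hc1 σ hσ, wdfChi_inv_mul_eta1]
      have hω0 : ∀ σ : GQq p, algebraMap (ZMod p) k
          ((cycloChar p (localGaloisToGlobal p σ) : (ZMod p)ˣ) : ZMod p) ≠ 0 := by
        intro σ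
        rw [← wdq_eta_mul hdet hb σ]
        exact mul_ne_zero (wdf_eta1_ne_zero hb σ) (wdf_eta2_ne_zero hb σ)
      have hsq : ∀ σ ∈ inertiaQ p, wdfEta1 hb σ ^ 2 = 1 ∧ wdfEta2 hb σ ^ 2 = 1 := by
        intro σ hσ
        have e := wdq_eta_mul hdet hb σ
        constructor
        · apply Units.ext
          rw [Units.val_pow_eq_pow_val, wdfEta1_coe, Units.val_one]
          have e1 := hω' σ hσ
          have e2 : algebraMap (ZMod p) k
              ((cycloChar p (localGaloisToGlobal p σ) : (ZMod p)ˣ) : ZMod p) *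
              (wdfM p ρbar b σ 0 0 ^ 2) = algebraMap (ZMod p) k
              ((cycloChar p (localGaloisToGlobal p σ) : (ZMod p)ˣ) : ZMod p) * 1 := by
            linear_combination e - wdfM p ρbar b σ 0 0 * e1
          exact mul_left_cancel₀ (hω0 σ) e2
        · apply Units.ext
          rw [Units.val_pow_eq_pow_val, wdfEta2_coe, Units.val_one]
          have e1 := hω σ hσ
          have e2 : algebraMap (ZMod p) k
              ((cycloChar p (localGaloisToGlobal p σ) : (ZMod p)ˣ) : ZMod p) *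
              (wdfM p ρbar b σ 1 1 ^ 2) = algebraMap (ZMod p) k
              ((cycloChar p (localGaloisToGlobal p σ) : (ZMod p)ˣ) : ZMod p) * 1 := by
            linear_combination e - wdfM p ρbar b σ 1 1 * e1
          exact mul_left_cancel₀ (hω0 σ) e2
      rcases h2t p hp2 k (wdfEta1 hb) (wdfEta2 hb) (wdq_eta1_smooth hb) hsq with h | h | h
      · -- `η₁ = 1` on inertia: anti-ordinary shape, swap
        have h1 : ∀ σ ∈ inertiaQ p, wdfM p ρbar b σ 0 0 = 1 := by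
          intro σ hσ
          rw [← wdfEta1_coe hb, h σ hσ, Units.val_one]
        have h2 : ∃ σ₀ ∈ inertiaQ p, wdfM p ρbar b σ₀ 1 1 ≠ 1 := by
          refine ⟨τ, hτ, ?_⟩
          rw [hω' τ hτ, h1 τ hτ, mul_one, hτω]
          exact wdz_neg_one_ne_one hp2
        obtain ⟨m, hm⟩ := hAO p k ρbar b hb h1 h2 het1
        obtain ⟨b', hb', hsw'⟩ := hsw p k ρbar b hb ⟨m, hm⟩
        refine ⟨b', hb', wdq_good_of_ord hO hb' ?_ ?_ F hrep⟩
        · intro σ hσ
          rw [(hsw' σ).2.1, h1 σ hσ]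
        · obtain ⟨σ₀, hσ₀, hne⟩ := h2
          exact ⟨σ₀, hσ₀, by rw [(hsw' σ₀).1]; exact hne⟩
      · -- `η₂ = 1` on inertia: ordinary shape
        have h2 : ∀ σ ∈ inertiaQ p, wdfM p ρbar b σ 1 1 = 1 := by
          intro σ hσ
          rw [← wdfEta2_coe hb, h σ hσ, Units.val_one]
        refine ⟨b, hb, wdq_good_of_ord hO hb h2 ⟨τ, hτ, ?_⟩ F hrep⟩
        rw [hω τ hτ, h2 τ hτ, mul_one, hτω]
        exact wdz_neg_one_ne_one hp2
      · -- `η₁ = η₂` on inertia: impossible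
        exfalso
        have e1 := hω τ hτ
        have e2 : wdfM p ρbar b τ 0 0 = wdfM p ρbar b τ 1 1 := by
          rw [← wdfEta1_coe hb, ← wdfEta2_coe hb, h τ hτ]
        rw [e2, hτω] at e1
        have e3 : (1 : k) * wdfM p ρbar b τ 1 1 = -1 * wdfM p ρbar b τ 1 1 := by
          rw [one_mul]; exact e1
        have e4 := mul_right_cancel₀ (wdf_eta2_ne_zero hb τ) e3
        exact wdz_neg_one_ne_one (k := k) hp2 e4.symm
    · -- `χ⁻¹` cyclotomic, `χ` not: `ρ̄` is split, swap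
      obtain ⟨m, hm⟩ := wdx_vanish hgb hunr hp2 (wdfChi hb) (wdx_chi_smooth hb) hχ hc2
        (wdmN hb 1) (wdn_N_mem hb _ hz₀ 1)
      have hm' : ∀ σ, wdcVal (wdcN hb) σ = (((wdfChi hb σ : kˣ) : k) - 1) * m := by
        intro σ
        have := hm σ
        have e : wdcVal (wdmN hb 1) σ = (((wdfChi hb σ : kˣ) : k) - 1) * m := this
        rw [wdcVal_wdmN, one_mul] at e
        exact e
      obtain ⟨b', hb', hsw'⟩ := hsw p k ρbar b hb ⟨m, wdz_beta_of_n hb m hm'⟩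
      have hχ' := wdq_chi_ne_one hns hp2 hdet hb'
      refine ⟨b', hb', wdq_good_of_not_cyc hgb hunr hp2 hb' hχ' ?_ F hrep⟩
      rw [wdz_cyc_congr (wdz_chi_swap hb hb' hsw')]
      exact hc2
  · exact ⟨b, hb, wdq_good_of_not_cyc hgb hunr hp2 hb hχ hc1 F hrep⟩

end Final

/-- **W-dev.** -/
theorem stmtDev2_of (hO : StmtDevO) (hAO : StmtDevAO) (hsw : StmtDevSwap)
    (h2t : StmtDev2Tors) (hfr : StmtDevFrame) : StmtDev2 := by
  intro hgb hirr hunr hns p _ hp2 k _ _ _ _ ρbar hdet hsplit F hadd hrep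
  by_cases hne : F.Nonempty
  swap
  · rw [Set.not_nonempty_iff_eq_empty.1 hne, Submodule.span_empty]
    refine ⟨inferInstance, ?_⟩
    rw [finrank_bot]
    exact Nat.zero_le _
  by_cases hI : IsLocIrr p ρbar
  · exact wdev_count_irr hirr p hp2 k ρbar hdet hsplit hI F hrep
  obtain ⟨Fs, hFs⟩ := wdev_exists_submodule p F hadd hne
  have hspan : Submodule.span (ZMod p) F = Fs := by
    rw [← hFs]
    exact Submodule.span_eq Fs
  obtain ⟨b₀, hb₀⟩ := hfr p k ρbar hI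
  obtain ⟨b, hb, hgood⟩ := wdz_exists_good hO hAO hsw h2t hgb hunr hns hp2 hdet hb₀ F hrep hne
  have hχ := wdq_chi_ne_one hns hp2 hdet hb
  rw [hspan]
  refine wdk_count hgb hunr hp2 hb hχ Fs ?_
  intro x hx
  have hx' : x ∈ F := by
    rw [← hFs]
    exact hx
  exact hgood x hx'

end Fermat.Agent.TW.W

end


end ZBTW_028_12

/-! ### bundled: `Fermat.Agent.TW.W.DevSwap` -/
section ZBTW_028_13
/-
TW-W / W-dev, piece DEV-swap (helper86): `stmtDevSwap : StmtDevSwap`.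

A split frame can be swapped: if `β = (η₁ - η₂) m` then `b' = (b₁ - m b₀, b₀)` is a frame in which
`ρ̄|_{G_p}` is diagonal, with the characters `η₂, η₁`.
-/

set_option autoImplicit false
set_option linter.style.haveILetI false

noncomputable section

namespace Fermat.Agent.TW.W

open Fermat.Agent.PT Fermat.Agent.PT.B Fermat.Agent.TW.L

section LinAlg

variable {k : Type*} [Field k] {V : Type*} [AddCommGroup V] [Module k V]

/-- the columns of the matrix of `f` -/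
theorem wdevs_apply_basis (f : Module.End k V) (b : Module.Basis (Fin 2) k V) (j : Fin 2) :
    f (b j) = LinearMap.toMatrix b b f 0 j • b 0 + LinearMap.toMatrix b b f 1 j • b 1 := by
  conv_lhs => rw [← b.sum_repr (f (b j))]
  rw [Fin.sum_univ_two, LinearMap.toMatrix_apply, LinearMap.toMatrix_apply]

/-- the matrix of `f` in a basis of eigenvectors -/
theorem wdevs_toMatrix_of_eigen (f : Module.End k V) (b : Module.Basis (Fin 2) k V) (c : Fin 2 → k)
    (h : ∀ j, f (b j) = c j • b j) (i j : Fin 2) :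
    LinearMap.toMatrix b b f i j = if i = j then c j else 0 := by
  rw [LinearMap.toMatrix_apply, h j, map_smul, Module.Basis.repr_self, Finsupp.smul_apply,
    Finsupp.single_apply, smul_eq_mul]
  by_cases hij : i = j
  · rw [if_pos hij, if_pos hij.symm, mul_one]
  · rw [if_neg hij, if_neg (fun h' => hij h'.symm), mul_zero]

/-- `(b₁ - m b₀, b₀)` is a basis -/
theorem wdevs_swap_li (b : Module.Basis (Fin 2) k V) (m : k) :
    LinearIndependent k ![b 1 - m • b 0, b 0] := by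
  rw [LinearIndependent.pair_iff]
  intro s t hst
  have h1 : (t - s * m) • b 0 + s • b 1 = 0 := by
    rw [← hst, smul_sub, smul_smul, sub_smul]
    abel
  have h2 := b.linearIndependent
  rw [Fintype.linearIndependent_iff] at h2
  have h3 := h2 ![t - s * m, s] (by
    rw [Fin.sum_univ_two]
    simpa using h1)
  have hs : s = 0 := by simpa using h3 1
  have ht : t - s * m = 0 := by simpa using h3 0
  rw [hs, zero_mul, sub_zero] at ht
  exact ⟨hs, ht⟩

end LinAlg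

/-- **DEV-swap.** -/
theorem stmtDevSwap : StmtDevSwap := by
  intro p _ k _ ρbar b hb hsplit
  obtain ⟨m, hm⟩ := hsplit
  have hli := wdevs_swap_li b m
  have hcard : Fintype.card (Fin 2) = Module.finrank k ρbar.V := by
    rw [ρbar.finrank_eq, Fintype.card_fin]
  let b' : Module.Basis (Fin 2) k ρbar.V := basisOfLinearIndependentOfCardEqFinrank hli hcard
  have hb'0 : b' 0 = b 1 - m • b 0 := by
    show basisOfLinearIndependentOfCardEqFinrank hli hcard 0 = _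
    rw [coe_basisOfLinearIndependentOfCardEqFinrank]
    rfl
  have hb'1 : b' 1 = b 0 := by
    show basisOfLinearIndependentOfCardEqFinrank hli hcard 1 = _
    rw [coe_basisOfLinearIndependentOfCardEqFinrank]
    rfl
  have hcol0 : ∀ σ : GQq p, rhoLoc p ρbar σ (b 0) = wdfM p ρbar b σ 0 0 • b 0 := by
    intro σ
    have h := wdevs_apply_basis (rhoLoc p ρbar σ) b 0
    have h10 : LinearMap.toMatrix b b (rhoLoc p ρbar σ) 1 0 = 0 := hb σ
    rw [h10, zero_smul, add_zero] at h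
    exact h
  have hcol1 : ∀ σ : GQq p, rhoLoc p ρbar σ (b 1) =
      wdfM p ρbar b σ 0 1 • b 0 + wdfM p ρbar b σ 1 1 • b 1 := fun σ =>
    wdevs_apply_basis (rhoLoc p ρbar σ) b 1
  have heig : ∀ σ : GQq p, ∀ j : Fin 2, rhoLoc p ρbar σ (b' j) =
      (![wdfM p ρbar b σ 1 1, wdfM p ρbar b σ 0 0] j) • b' j := by
    intro σ j
    fin_cases j
    · show rhoLoc p ρbar σ (b' 0) = wdfM p ρbar b σ 1 1 • b' 0
      rw [hb'0, map_sub, map_smul, hcol0, hcol1, hm σ]
      module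
    · show rhoLoc p ρbar σ (b' 1) = wdfM p ρbar b σ 0 0 • b' 1
      rw [hb'1, hcol0]
  have hmat : ∀ (σ : GQq p) (i j : Fin 2), wdfM p ρbar b' σ i j =
      if i = j then (![wdfM p ρbar b σ 1 1, wdfM p ρbar b σ 0 0] j) else 0 := fun σ i j =>
    wdevs_toMatrix_of_eigen (rhoLoc p ρbar σ) b' _ (heig σ) i j
  refine ⟨b', fun σ => ?_, fun σ => ⟨?_, ?_, ?_⟩⟩
  · rw [hmat σ 1 0, if_neg (by decide)]
  · rw [hmat σ 0 0, if_pos rfl]
    rfl
  · rw [hmat σ 1 1, if_pos rfl]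
    rfl
  · rw [hmat σ 0 1, if_neg (by decide)]

end Fermat.Agent.TW.W

end


end ZBTW_028_13

/-! ### bundled: `Fermat.Agent.TW.W.DevAO` -/
section ZBTW_028_14
/-
TW-W / W-dev, piece DEV-AO (helper86): `stmtDevAO : StmtDevAO`.

Anti-ordinary shape (`η₁ = 1` on inertia, `η₂ ≠ 1` on inertia): if `(I_aug V̄)^I = 0` (`PEt1`) then
`ρ̄|_{G_p}` is split, `β = (η₁ - η₂) m`.

Proof.  `I_aug V̄` is a `G_p`-stable `k`-subspace (inertia is normal).  It contains
`u = (σ₀ - 1)(c⁻¹ b₁) = b₁ - m b₀`, `c = η₂(σ₀) - 1`.  For `g ∈ G_p`: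
`g u - η₂(g) u = d(g) b₀` with `d(g) = β(g) - (η₁(g) - η₂(g)) m`, an element of `I_aug V̄` fixed by
inertia; so `d(g) = 0`.
-/

set_option autoImplicit false
set_option linter.style.haveILetI false

noncomputable section

namespace Fermat.Agent.TW.W

open Fermat.Agent.PT Fermat.Agent.PT.B Fermat.Agent.TW.L

section Aug

variable (p : ℕ) [Fact p.Prime] {k : Type} [Field k] (ρbar : ResidualGaloisRep k)

/-- `I_aug V̄` is stable under scalars. -/
theorem wdevao_smul_mem (a : k) {v : ρbar.V} (hv : v ∈ iAugBar p ρbar) :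
    a • v ∈ iAugBar p ρbar := by
  unfold iAugBar at hv ⊢
  induction hv using AddSubgroup.closure_induction with
  | mem x hx =>
    obtain ⟨σ, hσ, w, rfl⟩ := hx
    apply AddSubgroup.subset_closure
    exact ⟨σ, hσ, a • w, by rw [smul_sub, map_smul]⟩
  | zero => rw [smul_zero]; exact zero_mem _
  | add x y _ _ hx hy => rw [smul_add]; exact add_mem hx hy
  | neg x _ hx => rw [smul_neg]; exact neg_mem hx

/-- `I_aug V̄` is stable under `G_p`. -/
theorem wdevao_act_mem (g : GQq p) {v : ρbar.V} (hv : v ∈ iAugBar p ρbar) :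
    rhoLoc p ρbar g v ∈ iAugBar p ρbar := by
  unfold iAugBar at hv ⊢
  induction hv using AddSubgroup.closure_induction with
  | mem x hx =>
    obtain ⟨σ, hσ, w, rfl⟩ := hx
    apply AddSubgroup.subset_closure
    refine ⟨g * σ * g⁻¹, ltw_conj_mem_inertiaQ g hσ, rhoLoc p ρbar g w, ?_⟩
    have h1 : rhoLoc p ρbar (g * σ * g⁻¹) (rhoLoc p ρbar g w) = rhoLoc p ρbar g (rhoLoc p ρbar σ w) := by
      rw [wdf_rhoLoc_mul, wdf_rhoLoc_mul, Module.End.mul_apply, Module.End.mul_apply,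
        ← Module.End.mul_apply (rhoLoc p ρbar g⁻¹), wdf_rhoLoc_inv_mul, Module.End.one_apply]
    rw [h1, map_sub]
  | zero => rw [map_zero]; exact zero_mem _
  | add x y _ _ hx hy => rw [map_add]; exact add_mem hx hy
  | neg x _ hx => rw [map_neg]; exact neg_mem hx

/-- the generators of `I_aug V̄` -/
theorem wdevao_gen_mem {σ : GQq p} (hσ : σ ∈ inertiaQ p) (w : ρbar.V) :
    rhoLoc p ρbar σ w - w ∈ iAugBar p ρbar :=
  AddSubgroup.subset_closure ⟨σ, hσ, w, rfl⟩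

variable {p ρbar}

/-- first column of a frame -/
theorem wdev_col0 {b : Module.Basis (Fin 2) k ρbar.V} (hb : IsFrame p ρbar b) (σ : GQq p) :
    rhoLoc p ρbar σ (b 0) = wdfM p ρbar b σ 0 0 • b 0 := by
  have h := wdevs_apply_basis (rhoLoc p ρbar σ) b 0
  have h10 : LinearMap.toMatrix b b (rhoLoc p ρbar σ) 1 0 = 0 := hb σ
  rw [h10, zero_smul, add_zero] at h
  exact h

/-- second column of a frame -/
theorem wdev_col1 (b : Module.Basis (Fin 2) k ρbar.V) (σ : GQq p) :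
    rhoLoc p ρbar σ (b 1) = wdfM p ρbar b σ 0 1 • b 0 + wdfM p ρbar b σ 1 1 • b 1 :=
  wdevs_apply_basis (rhoLoc p ρbar σ) b 1

end Aug

/-- **DEV-AO.** -/
theorem stmtDevAO : StmtDevAO := by
  intro p _ k _ _ ρbar b hb h1 hex hE1
  obtain ⟨σ₀, hσ₀, hne⟩ := hex
  have hc0 : wdfM p ρbar b σ₀ 1 1 - 1 ≠ 0 := sub_ne_zero.mpr hne
  obtain ⟨c, hc⟩ : ∃ c : k, c = wdfM p ρbar b σ₀ 1 1 - 1 := ⟨_, rfl⟩
  have hcc : c⁻¹ * (wdfM p ρbar b σ₀ 1 1 - 1) = 1 := by
    rw [← hc]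
    exact inv_mul_cancel₀ (hc ▸ hc0)
  obtain ⟨m, hm⟩ : ∃ m : k, m = -(c⁻¹ * wdfM p ρbar b σ₀ 0 1) := ⟨_, rfl⟩
  -- `u = b₁ - m b₀ ∈ I_aug V̄`
  have hu : b 1 - m • b 0 ∈ iAugBar p ρbar := by
    have e : b 1 - m • b 0 = rhoLoc p ρbar σ₀ (c⁻¹ • b 1) - c⁻¹ • b 1 := by
      rw [map_smul, wdev_col1 b σ₀]
      have e1 : c⁻¹ • (wdfM p ρbar b σ₀ 0 1 • b 0 + wdfM p ρbar b σ₀ 1 1 • b 1) - c⁻¹ • b 1 =
          (c⁻¹ * wdfM p ρbar b σ₀ 0 1) • b 0 + (c⁻¹ * (wdfM p ρbar b σ₀ 1 1 - 1)) • b 1 := by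
        module
      rw [e1, hcc, hm]
      module
    rw [e]
    exact wdevao_gen_mem p ρbar hσ₀ _
  refine ⟨m, fun g => ?_⟩
  obtain ⟨d, hd⟩ : ∃ d : k, d = wdfM p ρbar b g 0 1 -
      (wdfM p ρbar b g 0 0 - wdfM p ρbar b g 1 1) * m := ⟨_, rfl⟩
  have hdmem : d • b 0 ∈ iAugBar p ρbar := by
    have e : d • b 0 = rhoLoc p ρbar g (b 1 - m • b 0) -
        wdfM p ρbar b g 1 1 • (b 1 - m • b 0) := by
      rw [map_sub, map_smul, wdev_col0 hb, wdev_col1, hd]
      module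
    rw [e]
    exact sub_mem (wdevao_act_mem p ρbar g hu) (wdevao_smul_mem p ρbar _ hu)
  have hfix : ∀ σ ∈ inertiaQ p, rhoLoc p ρbar σ (d • b 0) = d • b 0 := by
    intro σ hσ
    rw [map_smul, wdev_col0 hb, h1 σ hσ, one_smul]
  have h0 := hE1 _ hdmem hfix
  have hd0 : d = 0 := (smul_eq_zero.mp h0).resolve_right (b.ne_zero 0)
  rw [hd] at hd0
  exact sub_eq_zero.mp hd0

end Fermat.Agent.TW.W

end


end ZBTW_028_14

/-! ### bundled: `Fermat.Agent.TW.W.DevO` -/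
section ZBTW_028_15
/-
TW-W / W-dev, piece DEV-O (helper86): `stmtDevO : StmtDevO`.

Ordinary shape (`η₂ = 1` on inertia, `η₁ ≠ 1` on inertia): if `PEt2 z` then the lower left entry
`c'` of `z` is a coboundary of `k(χ⁻¹)`.

Proof.  `I_aug V̄ ⊆ k b₀` (inertia acts trivially on `V̄ / k b₀`).  For `σ ∈ I` the element
`g_σ = vcAct σ (b₀, 0) - (b₀, 0) = ((η₁(σ) - 1) b₀, η₁(σ) z(σ) b₀)` lies in `I_aug V_c`, a
`k`-subspace; `(η₁(σ₀) - 1) g_σ - (η₁(σ) - 1) g_{σ₀} = (0, w)`, so by `PEt2` the `b₁`-coefficient of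
`w` vanishes: `(η₁(σ₀) - 1) η₁(σ) c'(σ) = (η₁(σ) - 1) η₁(σ₀) c'(σ₀)`, i.e.
`c'(σ) = (χ⁻¹(σ) - 1) m` on `I`.  Then `c'' = c' - ∂ m` is a cocycle of `k(χ⁻¹)` which vanishes on
`I`, and `0 = c''(g σ₀ g⁻¹) = (1 - χ⁻¹(σ₀)) c''(g)` for `g ∈ G_p`.
-/

set_option autoImplicit false
set_option linter.style.haveILetI false

noncomputable section

namespace Fermat.Agent.TW.W

open CategoryTheory groupCohomology
open Fermat.Agent.PT Fermat.Agent.PT.B Fermat.Agent.TW.L Fermat.Agent.TW.S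

section Abstract

variable {G : Type*} [Group G] {k : Type*} [Field k]

/-- A cocycle of `k(X)` which vanishes on a normal subgroup `I` containing an element `σ₀` with
`X σ₀ ≠ 1` vanishes. -/
theorem wdevo_coc_vanish (X : G →* kˣ) (c : G → k)
    (hc : ∀ σ τ, c (σ * τ) = (X σ : k) * c τ + c σ) (I : Subgroup G)
    (hI : ∀ (g : G) (σ : G), σ ∈ I → g * σ * g⁻¹ ∈ I) (hcI : ∀ σ ∈ I, c σ = 0)
    {σ₀ : G} (hσ₀ : σ₀ ∈ I) (hX : (X σ₀ : k) ≠ 1) (g : G) : c g = 0 := by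
  have h1 : c 1 = 0 := hcI 1 I.one_mem
  have h2 : (X g : k) * c g⁻¹ = - c g := by
    have h := hc g g⁻¹
    rw [mul_inv_cancel, h1] at h
    exact eq_neg_of_add_eq_zero_left h.symm
  have h3 : c (g * σ₀ * g⁻¹) = 0 := hcI _ (hI g σ₀ hσ₀)
  rw [hc (g * σ₀) g⁻¹, hc g σ₀, hcI σ₀ hσ₀, mul_zero, zero_add, map_mul, Units.val_mul,
    mul_comm (X g : k), mul_assoc, h2] at h3
  have h4 : (1 - (X σ₀ : k)) * c g = 0 := by
    rw [← h3]; ring
  rcases mul_eq_zero.mp h4 with h | h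
  · exact absurd (sub_eq_zero.mp h).symm hX
  · exact h

/-- A cocycle of `k(X)` which is the coboundary of `m` on a normal subgroup `I` containing an
element `σ₀` with `X σ₀ ≠ 1` is the coboundary of `m`. -/
theorem wdevo_coc_cob (X : G →* kˣ) (c : G → k)
    (hc : ∀ σ τ, c (σ * τ) = (X σ : k) * c τ + c σ) (I : Subgroup G)
    (hI : ∀ (g : G) (σ : G), σ ∈ I → g * σ * g⁻¹ ∈ I) (m : k)
    (hcI : ∀ σ ∈ I, c σ = ((X σ : k) - 1) * m)
    {σ₀ : G} (hσ₀ : σ₀ ∈ I) (hX : (X σ₀ : k) ≠ 1) (g : G) : c g = ((X g : k) - 1) * m := by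
  have h := wdevo_coc_vanish X (fun σ => c σ - ((X σ : k) - 1) * m) (fun σ τ => by
    show c (σ * τ) - ((X (σ * τ) : k) - 1) * m =
      (X σ : k) * (c τ - ((X τ : k) - 1) * m) + (c σ - ((X σ : k) - 1) * m)
    rw [hc σ τ, map_mul, Units.val_mul]
    ring) I hI (fun σ hσ => by
    show c σ - ((X σ : k) - 1) * m = 0
    rw [hcI σ hσ, sub_self]) hσ₀ hX g
  exact sub_eq_zero.mp h

end Abstract

section Aug

variable (p : ℕ) [Fact p.Prime] {k : Type} [Field k] (ρbar : ResidualGaloisRep k)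

/-- `vcAct` is `k`-linear. -/
theorem wdevo_vcAct_smul (c : GQq p → Module.End k ρbar.V) (σ : GQq p) (a : k)
    (x : ρbar.V × ρbar.V) : vcAct p ρbar c σ (a • x) = a • vcAct p ρbar c σ x := by
  unfold vcAct
  ext
  · simp
  · simp [smul_add]

/-- `I_aug V_c` is stable under scalars. -/
theorem wdevo_smul_mem (c : GQq p → Module.End k ρbar.V) (a : k) {x : ρbar.V × ρbar.V}
    (hx : x ∈ iAugVc p ρbar c) : a • x ∈ iAugVc p ρbar c := by
  unfold iAugVc at hx ⊢
  induction hx using AddSubgroup.closure_induction with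
  | mem x hx =>
    obtain ⟨σ, hσ, y, rfl⟩ := hx
    apply AddSubgroup.subset_closure
    exact ⟨σ, hσ, a • y, by rw [smul_sub, wdevo_vcAct_smul]⟩
  | zero => rw [smul_zero]; exact zero_mem _
  | add x y _ _ hx hy => rw [smul_add]; exact add_mem hx hy
  | neg x _ hx => rw [smul_neg]; exact neg_mem hx

/-- the generators of `I_aug V_c` -/
theorem wdevo_gen_mem (c : GQq p → Module.End k ρbar.V) {σ : GQq p} (hσ : σ ∈ inertiaQ p)
    (y : ρbar.V × ρbar.V) : vcAct p ρbar c σ y - y ∈ iAugVc p ρbar c :=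
  AddSubgroup.subset_closure ⟨σ, hσ, y, rfl⟩

variable {p ρbar}

/-- the `b₁`-coordinate of `f w` -/
theorem wdevo_repr_one (b : Module.Basis (Fin 2) k ρbar.V) (f : Module.End k ρbar.V)
    (w : ρbar.V) :
    b.repr (f w) 1 = LinearMap.toMatrix b b f 1 0 * b.repr w 0 +
      LinearMap.toMatrix b b f 1 1 * b.repr w 1 := by
  have h := congrFun (LinearMap.toMatrix_mulVec_repr b b f w) 1
  rw [Matrix.mulVec, dotProduct, Fin.sum_univ_two] at h
  exact h.symm

/-- if inertia acts trivially on `V̄ / k b₀` then `I_aug V̄ ⊆ k b₀` -/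
theorem wdevo_iAugBar_le {b : Module.Basis (Fin 2) k ρbar.V} (hb : IsFrame p ρbar b)
    (h2 : ∀ σ ∈ inertiaQ p, wdfM p ρbar b σ 1 1 = 1) {v : ρbar.V}
    (hv : v ∈ iAugBar p ρbar) : b.repr v 1 = 0 := by
  unfold iAugBar at hv
  induction hv using AddSubgroup.closure_induction with
  | mem x hx =>
    obtain ⟨σ, hσ, w, rfl⟩ := hx
    have h10 : LinearMap.toMatrix b b (rhoLoc p ρbar σ) 1 0 = 0 := hb σ
    have h11 : LinearMap.toMatrix b b (rhoLoc p ρbar σ) 1 1 = 1 := h2 σ hσ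
    rw [map_sub, Finsupp.sub_apply, wdevo_repr_one, h10, h11, zero_mul, zero_add, one_mul,
      sub_self]
  | zero => rw [map_zero]; rfl
  | add x y _ _ hx hy => rw [map_add, Finsupp.add_apply, hx, hy, add_zero]
  | neg x _ hx => rw [map_neg, Finsupp.neg_apply, hx, neg_zero]

end Aug

/-- **DEV-O.** -/
theorem stmtDevO : StmtDevO := by
  intro p _ k _ _ _ ρbar b hb h2 hex z hE2
  obtain ⟨σ₀, hσ₀, hne⟩ := hex
  -- notation
  obtain ⟨c, hc⟩ : ∃ c : GQq p → Module.End k ρbar.V,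
      c = fun τ => ad0Val p ρbar ((z : GQq p → (ad0Rep p ρbar).V) τ) := ⟨_, rfl⟩
  rw [← hc] at hE2
  have hcmat : ∀ σ : GQq p, b.repr (c σ (b 0)) 1 =
      wdfMat p ρbar b ((z : GQq p → (ad0Rep p ρbar).V) σ) 1 0 := by
    intro σ
    rw [wdfMat_apply, LinearMap.toMatrix_apply, hc]
  -- the cocycle identity of the lower left entry
  have hcoc : ∀ σ τ : GQq p,
      wdfMat p ρbar b ((z : GQq p → (ad0Rep p ρbar).V) (σ * τ)) 1 0 =
        (((wdfChi hb)⁻¹ σ : kˣ) : k) * wdfMat p ρbar b ((z : GQq p → (ad0Rep p ρbar).V) τ) 1 0 +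
          wdfMat p ρbar b ((z : GQq p → (ad0Rep p ρbar).V) σ) 1 0 := by
    intro σ τ
    rw [wdc_coc z σ τ, map_add, Matrix.add_apply, hb.act10]
  -- `χ⁻¹ η₁ = 1` on inertia
  have hX : ∀ σ ∈ inertiaQ p, (((wdfChi hb)⁻¹ σ : kˣ) : k) * wdfM p ρbar b σ 0 0 = 1 := by
    intro σ hσ
    rw [wdfChi_inv_mul_eta1 hb σ, h2 σ hσ]
  have hXσ₀ : (((wdfChi hb)⁻¹ σ₀ : kˣ) : k) ≠ 1 := by
    intro h
    have := hX σ₀ hσ₀
    rw [h, one_mul] at this
    exact hne this
  -- the elements `g_σ`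
  have hg : ∀ σ ∈ inertiaQ p,
      (((wdfM p ρbar b σ 0 0 - 1) • b 0, wdfM p ρbar b σ 0 0 • c σ (b 0)) : ρbar.V × ρbar.V) ∈
        iAugVc p ρbar c := by
    intro σ hσ
    have e : (((wdfM p ρbar b σ 0 0 - 1) • b 0, wdfM p ρbar b σ 0 0 • c σ (b 0)) :
        ρbar.V × ρbar.V) = vcAct p ρbar c σ (b 0, 0) - (b 0, 0) := by
      unfold vcAct
      ext
      · simp only [Prod.fst_sub, wdev_col0 hb σ]
        module
      · simp only [Prod.snd_sub, wdev_col0 hb σ, map_zero, zero_add, sub_zero, map_smul]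
    rw [e]
    exact wdevo_gen_mem p ρbar c hσ _
  -- the relation on inertia
  have hrel : ∀ σ ∈ inertiaQ p,
      (wdfM p ρbar b σ₀ 0 0 - 1) * (wdfM p ρbar b σ 0 0 *
          wdfMat p ρbar b ((z : GQq p → (ad0Rep p ρbar).V) σ) 1 0) =
        (wdfM p ρbar b σ 0 0 - 1) * (wdfM p ρbar b σ₀ 0 0 *
          wdfMat p ρbar b ((z : GQq p → (ad0Rep p ρbar).V) σ₀) 1 0) := by
    intro σ hσ
    have hmem : ((0, (wdfM p ρbar b σ₀ 0 0 - 1) • (wdfM p ρbar b σ 0 0 • c σ (b 0)) -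
        (wdfM p ρbar b σ 0 0 - 1) • (wdfM p ρbar b σ₀ 0 0 • c σ₀ (b 0))) : ρbar.V × ρbar.V) ∈
          iAugVc p ρbar c := by
      have e : ((0, (wdfM p ρbar b σ₀ 0 0 - 1) • (wdfM p ρbar b σ 0 0 • c σ (b 0)) -
          (wdfM p ρbar b σ 0 0 - 1) • (wdfM p ρbar b σ₀ 0 0 • c σ₀ (b 0))) : ρbar.V × ρbar.V) =
          (wdfM p ρbar b σ₀ 0 0 - 1) •
            (((wdfM p ρbar b σ 0 0 - 1) • b 0, wdfM p ρbar b σ 0 0 • c σ (b 0)) :
              ρbar.V × ρbar.V) -
          (wdfM p ρbar b σ 0 0 - 1) •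
            (((wdfM p ρbar b σ₀ 0 0 - 1) • b 0, wdfM p ρbar b σ₀ 0 0 • c σ₀ (b 0)) :
              ρbar.V × ρbar.V) := by
        ext
        · simp only [Prod.fst_sub, Prod.smul_fst]
          module
        · simp only [Prod.snd_sub, Prod.smul_snd]
      rw [e]
      exact sub_mem (wdevo_smul_mem p ρbar c _ (hg σ hσ)) (wdevo_smul_mem p ρbar c _ (hg σ₀ hσ₀))
    have h0 := wdevo_iAugBar_le hb h2 (hE2 _ hmem)
    rw [map_sub, map_smul, map_smul, map_smul, map_smul, Finsupp.sub_apply, Finsupp.smul_apply,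
      Finsupp.smul_apply, Finsupp.smul_apply, Finsupp.smul_apply, hcmat, hcmat, smul_eq_mul,
      smul_eq_mul, smul_eq_mul, smul_eq_mul] at h0
    exact sub_eq_zero.mp h0
  -- the constant `m`
  have hd0 : wdfM p ρbar b σ₀ 0 0 - 1 ≠ 0 := sub_ne_zero.mpr hne
  obtain ⟨m, hm⟩ : ∃ m : k, m = -((wdfM p ρbar b σ₀ 0 0 - 1)⁻¹ * (wdfM p ρbar b σ₀ 0 0 *
      wdfMat p ρbar b ((z : GQq p → (ad0Rep p ρbar).V) σ₀) 1 0)) := ⟨_, rfl⟩
  have hI : ∀ σ ∈ inertiaQ p, wdfMat p ρbar b ((z : GQq p → (ad0Rep p ρbar).V) σ) 1 0 =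
      ((((wdfChi hb)⁻¹ σ : kˣ) : k) - 1) * m := by
    intro σ hσ
    have h1 := hrel σ hσ
    have h3 : wdfM p ρbar b σ 0 0 *
        wdfMat p ρbar b ((z : GQq p → (ad0Rep p ρbar).V) σ) 1 0 =
          (wdfM p ρbar b σ 0 0 - 1) * (-m) := by
      rw [hm, neg_neg]
      field_simp
      linear_combination h1
    have h4 := hX σ hσ
    calc wdfMat p ρbar b ((z : GQq p → (ad0Rep p ρbar).V) σ) 1 0
        = ((((wdfChi hb)⁻¹ σ : kˣ) : k) * wdfM p ρbar b σ 0 0) *
            wdfMat p ρbar b ((z : GQq p → (ad0Rep p ρbar).V) σ) 1 0 := by rw [h4, one_mul]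
      _ = (((wdfChi hb)⁻¹ σ : kˣ) : k) * (wdfM p ρbar b σ 0 0 *
            wdfMat p ρbar b ((z : GQq p → (ad0Rep p ρbar).V) σ) 1 0) := by ring
      _ = (((wdfChi hb)⁻¹ σ : kˣ) : k) * ((wdfM p ρbar b σ 0 0 - 1) * (-m)) := by rw [h3]
      _ = ((((wdfChi hb)⁻¹ σ : kˣ) : k) * wdfM p ρbar b σ 0 0 - (((wdfChi hb)⁻¹ σ : kˣ) : k)) *
            (-m) := by ring
      _ = ((((wdfChi hb)⁻¹ σ : kˣ) : k) - 1) * m := by rw [h4]; ring
  exact ⟨m, fun g => wdevo_coc_cob (wdfChi hb)⁻¹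
    (fun σ => wdfMat p ρbar b ((z : GQq p → (ad0Rep p ρbar).V) σ) 1 0) hcoc (inertiaQ p)
    (fun g σ hσ => ltw_conj_mem_inertiaQ g hσ) m hI hσ₀ hXσ₀ g⟩

end Fermat.Agent.TW.W

end


end ZBTW_028_15

/-! ### bundled: `Fermat.Agent.TW.W.Dev2Tors` -/
section ZBTW_028_16
/-
TW-W / W-dev, piece DEV-2tors (helper86): `stmtDev2Tors : StmtDev2Tors`.

Two characters of `G_p` (`p` odd) whose squares are trivial on inertia: one of them is trivial
on inertia, or they coincide on inertia.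

Proof: `stmtTameGen` for the exponent `2` applied to `h = (ε₁, ε₂)|_I`, with values in the
elements of square `1` of `kˣ × kˣ`: the image consists of powers of `h(t)`.
-/

set_option autoImplicit false
set_option linter.style.haveILetI false

noncomputable section

namespace Fermat.Agent.TW.W

open Fermat.Agent.PT Fermat.Agent.PT.B Fermat.Agent.TW.L

/-- In a field, two units of square `1`, both different from `1`, coincide. -/
theorem wdev2_unit_eq {k : Type*} [Field k] {a b : kˣ} (ha : a ^ 2 = 1) (hb : b ^ 2 = 1)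
    (ha1 : a ≠ 1) (hb1 : b ≠ 1) : a = b := by
  have key : ∀ c : kˣ, c ^ 2 = 1 → c ≠ 1 → (c : k) = -1 := by
    intro c hc hc1
    have h1 : (c : k) ^ 2 = 1 := by
      rw [← Units.val_pow_eq_pow_val, hc, Units.val_one]
    have h2 : ((c : k) - 1) * ((c : k) + 1) = 0 := by
      have : ((c : k) - 1) * ((c : k) + 1) = (c : k) ^ 2 - 1 := by ring
      rw [this, h1, sub_self]
    rcases mul_eq_zero.mp h2 with h | h
    · exact absurd (Units.ext (sub_eq_zero.mp h)) hc1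
    · exact eq_neg_of_add_eq_zero_left h
  exact Units.ext ((key a ha ha1).trans (key b hb hb1).symm)

/-- **DEV-2tors.** -/
theorem stmtDev2Tors : StmtDev2Tors := by
  intro p hpF hp2 k _ ε₁ ε₂ hlev hsq
  have hp : p.Prime := Fact.out
  obtain ⟨U, hU, hUε⟩ := hlev
  have hcop : Nat.Coprime p 2 := (Nat.coprime_primes hp Nat.prime_two).mpr hp2
  obtain ⟨t, ht⟩ := stmtTameGen p 2 hcop U hU
  -- the group of elements of square `1`
  let A : Subgroup (kˣ × kˣ) := (powMonoidHom 2 : (kˣ × kˣ) →* (kˣ × kˣ)).ker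
  have hA : ∀ a : A, a ^ 2 = 1 := by
    intro a
    apply Subtype.ext
    have := a.2
    rw [MonoidHom.mem_ker, powMonoidHom_apply] at this
    simpa using this
  let h₀ : ↥(inertiaQ p) →* (kˣ × kˣ) := (ε₁.prod ε₂).comp (inertiaQ p).subtype
  have hh₀ : ∀ x : ↥(inertiaQ p), h₀ x = (ε₁ (x : GQq p), ε₂ (x : GQq p)) := fun _ => rfl
  have hmem : ∀ x : ↥(inertiaQ p), h₀ x ∈ A := by
    intro x
    rw [MonoidHom.mem_ker, powMonoidHom_apply, hh₀, Prod.pow_mk, (hsq _ x.2).1, (hsq _ x.2).2]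
    rfl
  let h : ↥(inertiaQ p) →* A := h₀.codRestrict A hmem
  have hval : ∀ x : ↥(inertiaQ p), ((h x : A) : kˣ × kˣ) = (ε₁ (x : GQq p), ε₂ (x : GQq p)) :=
    fun _ => rfl
  obtain ⟨h1, -⟩ := ht A h hA (fun x hx => by
    apply Subtype.ext
    rw [hval, (hUε _ hx).1, (hUε _ hx).2]
    rfl)
  -- values as powers of the values at `t`
  have hpow : ∀ σ ∈ inertiaQ p, ∃ m : ℕ, ε₁ σ = ε₁ (t : GQq p) ^ m ∧
      ε₂ σ = ε₂ (t : GQq p) ^ m := by
    intro σ hσ
    obtain ⟨m, hm⟩ := h1 ⟨σ, hσ⟩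
    have e := congrArg (fun z : A => (z : kˣ × kˣ)) hm
    simp only [SubmonoidClass.coe_pow, hval, Prod.pow_mk] at e
    exact ⟨m, (Prod.mk.inj e).1, (Prod.mk.inj e).2⟩
  by_cases h1t : ε₁ (t : GQq p) = 1
  · left
    intro σ hσ
    obtain ⟨m, hm, -⟩ := hpow σ hσ
    rw [hm, h1t, one_pow]
  by_cases h2t : ε₂ (t : GQq p) = 1
  · right; left
    intro σ hσ
    obtain ⟨m, -, hm⟩ := hpow σ hσ
    rw [hm, h2t, one_pow]
  right; right
  intro σ hσ
  obtain ⟨m, hm1, hm2⟩ := hpow σ hσ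
  rw [hm1, hm2, wdev2_unit_eq (hsq _ t.2).1 (hsq _ t.2).2 h1t h2t]

end Fermat.Agent.TW.W

end


end ZBTW_028_16

/-! ### bundled: `Fermat.Agent.TW.W.DevFrameEx` -/
section ZBTW_028_17
/-
TW-W / W-dev, piece DEV-frame (helper86): `stmtDevFrame : StmtDevFrame`.

A `G_p`-stable line gives a frame (`TW.L.gord_exists_basis`).
-/

set_option autoImplicit false
set_option linter.style.haveILetI false

noncomputable section

namespace Fermat.Agent.TW.W

open Fermat.Agent.PT Fermat.Agent.PT.B Fermat.Agent.TW.L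

/-- A proper nonzero subspace of a plane is a line. -/
theorem wdevf_finrank_eq_one {k : Type*} [Field k] {V : Type*} [AddCommGroup V] [Module k V]
    (hV : Module.finrank k V = 2) (W : Submodule k V) (h0 : W ≠ ⊥) (h1 : W ≠ ⊤) :
    Module.finrank k W = 1 := by
  haveI : Module.Finite k V := Module.finite_of_finrank_eq_succ hV
  have hpos : 0 < Module.finrank k W := by
    rw [Module.finrank_pos_iff_exists_ne_zero]
    obtain ⟨x, hx, hx0⟩ := (Submodule.ne_bot_iff W).mp h0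
    exact ⟨⟨x, hx⟩, fun h => hx0 (congrArg Subtype.val h)⟩
  have hlt : Module.finrank k W < 2 := by
    rw [← hV]
    exact Submodule.finrank_lt h1
  omega

/-- A stable line gives a frame. -/
theorem wdevf_frame_of_line (p : ℕ) [Fact p.Prime] {k : Type} [Field k]
    (ρbar : ResidualGaloisRep k) (W : Submodule k ρbar.V)
    (hW : ∀ σ : GQq p, ∀ x ∈ W, rhoLoc p ρbar σ x ∈ W) (h1 : Module.finrank k W = 1) :
    ∃ b : Module.Basis (Fin 2) k ρbar.V, IsFrame p ρbar b ∧ ∀ v : ρbar.V, v ∈ W ↔ b.repr v 1 = 0 := by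
  obtain ⟨b, hb⟩ := gord_exists_basis ρbar.finrank_eq W h1
  refine ⟨b, fun σ => ?_, hb⟩
  have hb0 : b 0 ∈ W := by
    rw [hb, Module.Basis.repr_self, Finsupp.single_apply, if_neg (by decide)]
  have h2 := (hb _).mp (hW σ _ hb0)
  rw [wdfM, LinearMap.toMatrix_apply]
  exact h2

/-- **DEV-frame.** -/
theorem stmtDevFrame : StmtDevFrame := by
  intro p _ k _ ρbar hirr
  unfold IsLocIrr at hirr
  push Not at hirr
  obtain ⟨W, hW, h0, h1⟩ := hirr
  obtain ⟨b, hb, -⟩ := wdevf_frame_of_line p ρbar W hW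
    (wdevf_finrank_eq_one ρbar.finrank_eq W h0 h1)
  exact ⟨b, hb⟩

end Fermat.Agent.TW.W

end


end ZBTW_028_17

/-! ### bundled: `Fermat.Agent.TW.W.Dev` -/
section ZBTW_028_18
/-
TW-W / W-dev (helper74): the dévissage, unconditional modulo (GB).

`stmtDev2 : StmtDev2` and
`stmtCount_of : StmtGBChar → StmtGBIrr → StmtCount`.
-/

set_option autoImplicit false

namespace Fermat.Agent.TW.W

/-- **W-dev**: the count from (GB) for characters and (GB) in the irreducible case. -/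
theorem stmtDev2 : StmtDev2 :=
  stmtDev2_of stmtDevO stmtDevAO stmtDevSwap stmtDev2Tors stmtDevFrame

/-- **W-count**, modulo the two (GB) statements. -/
theorem stmtCount_of (h1 : StmtGBChar) (h2 : StmtGBIrr) : StmtCount :=
  stmtDev2 h1 h2 Fermat.Agent.TW.L.stmtUnrLe stmtNoSqrt

end Fermat.Agent.TW.W


end ZBTW_028_18

/-! ### bundled: `Fermat.Agent.TW.W.GBAsm` -/
section ZBTW_028_19
/-
TW-W, block (GB) (helper67): the final assemblies

  `stmtGBChar_of : StmtGBGen → StmtGBCharCount → StmtGBChar`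
  `stmtGBIrr_of  : StmtGBGen → StmtGBIrrStr → StmtGBIrrCount → StmtGBIrr`

(`stmtGBRed`, `stmtGoodIndex` (GB1), `stmtGBCharT` (CHAR-T) and `TW.L.stmtUnrLe` are used
directly.)
-/

set_option autoImplicit false
set_option linter.unusedSectionVars false
set_option linter.style.haveILetI false

namespace Fermat.Agent.TW.W

open CategoryTheory groupCohomology Polynomial
open Fermat.Agent.PT Fermat.Agent.PT.B Fermat.Agent.TW.L Fermat.Agent.TW.S ExtCitation

/-- a finite-dimensional subspace of dimension `0` is trivial -/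
theorem gbasm_eq_bot {K V : Type*} [Field K] [AddCommGroup V] [Module K V] (S : Submodule K V)
    [Module.Finite K S] (h : Module.finrank K S = 0) : S = ⊥ :=
  Submodule.finrank_eq_zero.1 h

/-- **(GB) for characters**. -/
theorem stmtGBChar_of (hGen : StmtGBGen) (hCount : StmtGBCharCount) : StmtGBChar := by
  intro p _ hp2 k _ _ _ _ ψ hψ
  obtain ⟨⟨T, hT, hTW⟩, hsm, hfin, hpow, hinv⟩ := stmtGBCharT p hp2 k ψ hψ
  obtain ⟨F, instF, instA, u, e', hω, hfaith, hgen⟩ := hGen p hp2 T hT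
  haveI : FiniteDimensional (ZMod p) (charRep p ψ) := hfin
  obtain ⟨hgbfin, hgble⟩ := hgen (charRep p ψ) hTW
  obtain ⟨hcnt, hzero⟩ := hCount p hp2 k ψ hpow F u e' hω hfaith
  obtain ⟨⟨hH1fin, hH1le⟩, hbot⟩ :=
    stmtGBRed stmtUnrLe stmtGoodIndex p (charRep p ψ) hsm T hT hTW hgbfin
  refine ⟨hH1fin, fun hncyc => ?_, fun hcyc => ?_⟩
  · apply hbot
    haveI := hgbfin
    apply gbasm_eq_bot
    apply Nat.le_zero.1
    refine hgble.trans (le_of_eq ?_)
    apply Finset.sum_eq_zero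
    intro i hi
    rw [hzero hncyc i hi]
    exact finrank_bot F (TensorProduct (ZMod p) F (charRep p ψ))
  · calc Module.finrank (ZMod p) (levFlatH1 p (charRep p ψ))
        ≤ Module.finrank (ZMod p) (charRep p ψ).ρ.invariants +
            Module.finrank (ZMod p) (gbHom p T (charRep p ψ)) := hH1le
      _ = Module.finrank (ZMod p) (gbHom p T (charRep p ψ)) := by rw [hinv hcyc, zero_add]
      _ ≤ _ := hgble
      _ ≤ Module.finrank (ZMod p) k := hcnt

/-- `G_T` acts trivially on `ad⁰ ρ̄` if it acts trivially on `V̄`. -/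
theorem gbasm_ad0_trivial (p : ℕ) [Fact p.Prime] {k : Type} [Field k] [CharP k p]
    (ρbar : ResidualGaloisRep k) (σ : GQq p) (h : rhoLoc p ρbar σ = 1) :
    (locRep p (ad0Rep p ρbar)).ρ σ = 1 := by
  have h1 : ρbar.ρ (localGaloisToGlobal p σ) = 1 := h
  have h2 : ρbar.ρ (localGaloisToGlobal p σ)⁻¹ = 1 := by
    have h3 : ρbar.ρ (localGaloisToGlobal p σ) * ρbar.ρ (localGaloisToGlobal p σ)⁻¹ = 1 := by
      rw [← map_mul, mul_inv_cancel, map_one]
    rw [h1, one_mul] at h3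
    exact h3
  apply LinearMap.ext
  intro x
  apply ad0Val_injective p ρbar
  change ad0Val p ρbar ((ad0Rep p ρbar).ρ (localGaloisToGlobal p σ) x) = ad0Val p ρbar x
  rw [ad0Val_ρ, h1, h2, one_mul, mul_one]

/-- **(GB) in the irreducible case**. -/
theorem stmtGBIrr_of (hGen : StmtGBGen) (hStr : StmtGBIrrStr) (hCount : StmtGBIrrCount) :
    StmtGBIrr := by
  intro p _ hp2 k _ _ _ _ ρbar hdet hsplit hirr
  obtain ⟨⟨T, hT, hTρ⟩, hsm, hinv, hstr⟩ := hStr p hp2 k ρbar hdet hsplit hirr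
  obtain ⟨F, instF, instA, u, e', hω, hfaith, hgen⟩ := hGen p hp2 T hT
  haveI : FiniteDimensional (ZMod p) (locRep p (ad0Rep p ρbar)) :=
    gmin_finiteDimensional p ρbar p
  have hTW : ∀ σ ∈ T.fixingSubgroup, (locRep p (ad0Rep p ρbar)).ρ σ = 1 :=
    fun σ hσ => gbasm_ad0_trivial p ρbar σ (hTρ σ hσ)
  obtain ⟨hgbfin, hgble⟩ := hgen (locRep p (ad0Rep p ρbar)) hTW
  have hcnt := hCount p hp2 k ρbar hstr F u e' hω hfaith
  obtain ⟨⟨hH1fin, hH1le⟩, -⟩ :=
    stmtGBRed stmtUnrLe stmtGoodIndex p (locRep p (ad0Rep p ρbar)) hsm T hT hTW hgbfin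
  refine ⟨hH1fin, ?_⟩
  calc Module.finrank (ZMod p) (levFlatH1 p (locRep p (ad0Rep p ρbar)))
      ≤ Module.finrank (ZMod p) (locRep p (ad0Rep p ρbar)).ρ.invariants +
          Module.finrank (ZMod p) (gbHom p T (locRep p (ad0Rep p ρbar))) := hH1le
    _ = Module.finrank (ZMod p) (gbHom p T (locRep p (ad0Rep p ρbar))) := by
        rw [hinv, zero_add]
    _ ≤ _ := hgble
    _ ≤ Module.finrank (ZMod p) k := hcnt

end Fermat.Agent.TW.W


end ZBTW_028_19

/-! ### bundled: `Fermat.Agent.TW.W.FinalPre` -/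
section ZBTW_028_20
/-
TW-W (helper74, sub-captain): the FINAL WIRING of `StmtWFlat`.

  `stmtWFlat_of_gb   : StmtLev → StmtGBChar → StmtGBIrr → StmtWFlat`
  `stmtWFlat_of_open : StmtGBTame → StmtGBCharCount → StmtGBIrrCount → StmtWFlat`

(the second one uses everything which is landed: chain A `stmtLev`, GB-ALG `stmtGBAlg`,
IRR-STR `stmtGBIrrStr`, the assemblies `stmtGBGen_of`, `stmtGBChar_of`, `stmtGBIrr_of`).
-/

set_option autoImplicit false

namespace Fermat.Agent.TW.W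

/-- **W-flat**, modulo chain A (`StmtLev`) and (GB). -/
theorem stmtWFlat_of_gb (hLev : StmtLev) (hChar : StmtGBChar) (hIrr : StmtGBIrr) : StmtWFlat :=
  stmtWFlat_of stmtAdd (stmtBridge_of hLev stmtEt1 stmtEt2) (stmtCount_of hChar hIrr)

/-- **W-flat**, modulo the three open pieces of (GB): K4 and the two counts. -/
theorem stmtWFlat_of_open (hK4 : StmtGBTame) (hCC : StmtGBCharCount) (hIC : StmtGBIrrCount) :
    StmtWFlat :=
  stmtWFlat_of_gb stmtLev
    (stmtGBChar_of (stmtGBGen_of hK4 stmtGBAlg) hCC)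
    (stmtGBIrr_of (stmtGBGen_of hK4 stmtGBAlg) stmtGBIrrStr hIC)

end Fermat.Agent.TW.W


end ZBTW_028_20

/-! ### bundled: `Fermat.Agent.TW.W.GBIrrCount` -/
section ZBTW_028_21
/-
TW-W, block (GB), piece IRR-count (helper86): `stmtGBIrrCount : StmtGBIrrCount`.

If inertia acts on `V̄` through `ψ₁ ≠ ψ₂ = ψ₁^p`, `ψ₁ ψ₂ = ω`, and `(F, u, e')` is as in `StmtGBGen`,
then `Σ_{1 ≤ i ≤ e'} dim_F E_i(ad⁰) ≤ f`.

Proof.  In the basis `(v₁, v₂)` the entries `X₀₀, X₀₁, X₁₀` embed `ad⁰` into `k³`, and inertia acts on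
them through `1, η, η⁻¹`, `η = ψ₁/ψ₂`; so `dim E_i(ad⁰) ≤ dim gbcE 1 i + dim gbcE η i + dim gbcE η⁻¹ i`
(`gbc_finrank_gbEig_le`).  `gbcE 1 i = 0` (`u^i ≠ 1`); the spaces `gbcE η^{±1} i`, `1 ≤ i ≤ e'`, are
pairwise separated in `R = F ⊗ k`: same sign by `u^i ≠ u^j`; opposite signs by `u^{i+j} ≠ 1`, unless
`p = 3`, `i = j = e'`, where `gbcE η e' = 0` because `η = ω = ψ₁ψ₂` on inertia would give `ψ₂² = 1`,
`ψ₁ = ψ₂³ = ψ₂`.  Hence `Σ dim ≤ dim_F R = f` (`gbc_sum_finrank_le`).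
-/

set_option autoImplicit false
set_option linter.style.haveILetI false
set_option linter.unusedSectionVars false

open scoped TensorProduct

noncomputable section

namespace Fermat.Agent.TW.W

open Module
open Fermat.Agent.PT Fermat.Agent.PT.B Fermat.Agent.TW.L Fermat.Agent.TW.S ExtCitation

section Aux

variable {p : ℕ} [Fact p.Prime] {G : Type} [Group G] {F : Type} [Field F] [Algebra (ZMod p) F]
  {I : Subgroup G} {u : G → F} {e' : ℕ}

/-- `u ≠ 0` on `I` -/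
theorem gbc_u_ne_zero (ω : G → (ZMod p)ˣ)
    (hω : ∀ σ ∈ I, algebraMap (ZMod p) F ((ω σ : (ZMod p)ˣ) : ZMod p) = u σ ^ e')
    (he : e' ≠ 0) {σ : G} (hσ : σ ∈ I) : u σ ≠ 0 := by
  intro h
  have h1 := hω σ hσ
  rw [h, zero_pow he] at h1
  have h2 : ((ω σ : (ZMod p)ˣ) : ZMod p) = 0 := by
    apply (algebraMap (ZMod p) F).injective
    rw [h1, map_zero]
  exact (Units.ne_zero _) h2

/-- distinct levels in `[1, e']` are separated by some `σ ∈ I` -/
theorem gbc_exists_pow_ne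
    (hfaith : ∀ t : ℕ, 0 < t → t < (p - 1) * e' → ∃ σ ∈ I, u σ ^ t ≠ 1)
    (hu0 : ∀ σ ∈ I, u σ ≠ 0) {i j : ℕ} (hi : i ∈ Finset.Icc 1 e') (hj : j ∈ Finset.Icc 1 e')
    (hij : i ≠ j) : ∃ σ ∈ I, u σ ^ i ≠ u σ ^ j := by
  have hp1 : 1 ≤ p - 1 := by
    have := (Fact.out : p.Prime).two_le
    omega
  rw [Finset.mem_Icc] at hi hj
  have hle : e' ≤ (p - 1) * e' := Nat.le_mul_of_pos_left e' hp1
  have key : ∀ a b : ℕ, 1 ≤ a → a < b → b ≤ e' → ∃ σ ∈ I, u σ ^ a ≠ u σ ^ b := by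
    intro a b ha hab hb
    obtain ⟨σ, hσ, h⟩ := hfaith (b - a) (by omega) (by omega)
    refine ⟨σ, hσ, fun h' => h ?_⟩
    have e : u σ ^ b = u σ ^ a * u σ ^ (b - a) := by
      rw [← pow_add]
      congr 1
      omega
    rw [e] at h'
    have h3 : u σ ^ a * 1 = u σ ^ a * u σ ^ (b - a) := by rw [mul_one]; exact h'
    exact (mul_left_cancel₀ (pow_ne_zero a (hu0 σ hσ)) h3).symm
  rcases lt_or_gt_of_ne hij with h | h
  · exact key i j hi.1 h hj.2
  · obtain ⟨σ, hσ, h'⟩ := key j i hj.1 h hi.2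
    exact ⟨σ, hσ, fun e => h' e.symm⟩

end Aux

section Entries

variable (p : ℕ) [Fact p.Prime] {k : Type} [Field k] [CharP k p] [Algebra (ZMod p) k]
  (ρbar : ResidualGaloisRep k) (b : Module.Basis (Fin 2) k ρbar.V)

/-- the entry `(a, c)` of the matrix of `x ∈ ad⁰`, as an `𝔽_p`-linear map -/
def gicEntry (a c : Fin 2) : (ad0Rep p ρbar).V →ₗ[ZMod p] k :=
  AddMonoidHom.toZModLinearMap p
    { toFun := fun x => wdfMat p ρbar b x a c
      map_zero' := by rw [map_zero]; rfl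
      map_add' := fun x y => by rw [map_add]; rfl }

lemma gicEntry_apply (a c : Fin 2) (x : (ad0Rep p ρbar).V) :
    gicEntry p ρbar b a c x = wdfMat p ρbar b x a c := rfl

/-- the action of an element acting diagonally, on the entries -/
theorem gic_entry_act (σ : GQq p) (ψ : Fin 2 → k) (hψ0 : ∀ j, ψ j ≠ 0)
    (hσ : ∀ j, rhoLoc p ρbar σ (b j) = ψ j • b j) (a c : Fin 2) (x : (ad0Rep p ρbar).V) :
    wdfMat p ρbar b ((locRep p (ad0Rep p ρbar)).ρ σ x) a c =
      ψ a * (ψ c)⁻¹ * wdfMat p ρbar b x a c := by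
  have hM : ∀ i j : Fin 2, wdfM p ρbar b σ i j = if i = j then ψ j else 0 :=
    wdevs_toMatrix_of_eigen (rhoLoc p ρbar σ) b ψ hσ
  have h := congrFun (congrFun (wdfMat_act p ρbar b σ x) a) c
  rw [Matrix.mul_apply, Matrix.mul_apply, Finset.sum_eq_single c, Finset.sum_eq_single a,
    hM c c, hM a a, if_pos rfl, if_pos rfl] at h
  · rw [mul_comm (ψ a) (ψ c)⁻¹, mul_assoc, ← h, mul_comm _ (ψ c), ← mul_assoc,
      inv_mul_cancel₀ (hψ0 c), one_mul]
  · intro j _ hj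
    rw [hM a j, if_neg (fun e => hj e.symm), zero_mul]
  · intro h'
    exact absurd (Finset.mem_univ a) h'
  · intro j _ hj
    rw [hM j c, if_neg hj, mul_zero]
  · intro h'
    exact absurd (Finset.mem_univ c) h'

/-- the three entries `X₀₀, X₀₁, X₁₀` determine `x ∈ ad⁰` -/
theorem gic_entries_injective (x : (ad0Rep p ρbar).V) (h00 : wdfMat p ρbar b x 0 0 = 0)
    (h01 : wdfMat p ρbar b x 0 1 = 0) (h10 : wdfMat p ρbar b x 1 0 = 0) : x = 0 := by
  apply wdfMat_injective p ρbar b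
  rw [map_zero]
  have h11 : wdfMat p ρbar b x 1 1 = 0 := by rw [wdfMat_11, h00, neg_zero]
  ext i j
  fin_cases i <;> fin_cases j
  · exact h00
  · exact h01
  · exact h10
  · exact h11

end Entries

/-- the rows of the three entries -/
def gicRow : Fin 3 → Fin 2 := ![0, 0, 1]

/-- the columns of the three entries -/
def gicCol : Fin 3 → Fin 2 := ![0, 1, 0]

/-- **IRR-count.** -/
theorem stmtGBIrrCount : StmtGBIrrCount := by
  intro p _ hp2 k _ _ _ _ ρbar hirr F _ _ u e' hω hfaith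
  have hp : p.Prime := Fact.out
  have hp3 : 3 ≤ p := by
    have := hp.two_le
    omega
  haveI : Module.Finite (ZMod p) k := Module.Finite.of_finite
  obtain ⟨v₁, v₂, ψ₁, ψ₂, hli, hact, ⟨σ₀, hσ₀, hne⟩, hpow, hprod⟩ := hirr
  by_cases he : e' = 0
  · rw [he]
    simp
  have he1 : 1 ≤ e' := Nat.one_le_iff_ne_zero.mpr he
  have hu0 : ∀ σ ∈ inertiaQ p, u σ ≠ 0 := fun σ hσ => gbc_u_ne_zero (gbOmega p) hω he hσ
  -- the basis
  have hcard : Fintype.card (Fin 2) = Module.finrank k ρbar.V := by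
    rw [ρbar.finrank_eq, Fintype.card_fin]
  let b : Module.Basis (Fin 2) k ρbar.V := basisOfLinearIndependentOfCardEqFinrank hli hcard
  have hb0 : b 0 = v₁ := by
    show basisOfLinearIndependentOfCardEqFinrank hli hcard 0 = _
    rw [coe_basisOfLinearIndependentOfCardEqFinrank]
    rfl
  have hb1 : b 1 = v₂ := by
    show basisOfLinearIndependentOfCardEqFinrank hli hcard 1 = _
    rw [coe_basisOfLinearIndependentOfCardEqFinrank]
    rfl
  -- the characters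
  obtain ⟨Ψ, hΨ⟩ : ∃ Ψ : Fin 2 → GQq p → k, Ψ = ![ψ₁, ψ₂] := ⟨_, rfl⟩
  have hΨ0 : Ψ 0 = ψ₁ := by rw [hΨ]; rfl
  have hΨ1 : Ψ 1 = ψ₂ := by rw [hΨ]; rfl
  have hψ1 : ∀ σ ∈ inertiaQ p, ψ₁ σ ≠ 0 := by
    intro σ hσ h
    have h1 := hprod σ hσ
    rw [h, zero_mul] at h1
    have h2 : ((gbOmega p σ : (ZMod p)ˣ) : ZMod p) = 0 := by
      apply (algebraMap (ZMod p) k).injective
      rw [← h1, map_zero]
    exact (Units.ne_zero _) h2
  have hψ2 : ∀ σ ∈ inertiaQ p, ψ₂ σ ≠ 0 := by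
    intro σ hσ h
    have h1 := hprod σ hσ
    rw [h, mul_zero] at h1
    have h2 : ((gbOmega p σ : (ZMod p)ˣ) : ZMod p) = 0 := by
      apply (algebraMap (ZMod p) k).injective
      rw [← h1, map_zero]
    exact (Units.ne_zero _) h2
  have hΨne : ∀ σ ∈ inertiaQ p, ∀ j : Fin 2, Ψ j σ ≠ 0 := by
    intro σ hσ j
    fin_cases j
    · show Ψ 0 σ ≠ 0
      rw [hΨ0]; exact hψ1 σ hσ
    · show Ψ 1 σ ≠ 0
      rw [hΨ1]; exact hψ2 σ hσ
  have hΨact : ∀ σ ∈ inertiaQ p, ∀ j : Fin 2, rhoLoc p ρbar σ (b j) = Ψ j σ • b j := by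
    intro σ hσ j
    fin_cases j
    · show rhoLoc p ρbar σ (b 0) = Ψ 0 σ • b 0
      rw [hΨ0, hb0]; exact (hact σ hσ).1
    · show rhoLoc p ρbar σ (b 1) = Ψ 1 σ • b 1
      rw [hΨ1, hb1]; exact (hact σ hσ).2
  obtain ⟨χ, hχ⟩ : ∃ χ : Fin 3 → GQq p → k,
      χ = fun a σ => Ψ (gicRow a) σ * (Ψ (gicCol a) σ)⁻¹ := ⟨_, rfl⟩
  have hχ0 : ∀ σ ∈ inertiaQ p, χ 0 σ = 1 := by
    intro σ hσ
    rw [hχ]
    show Ψ 0 σ * (Ψ 0 σ)⁻¹ = 1
    exact mul_inv_cancel₀ (hΨne σ hσ 0)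
  have hχ1 : ∀ σ, χ 1 σ = ψ₁ σ * (ψ₂ σ)⁻¹ := by
    intro σ
    rw [hχ]
    show Ψ 0 σ * (Ψ 1 σ)⁻¹ = _
    rw [hΨ0, hΨ1]
  have hχ2 : ∀ σ, χ 2 σ = ψ₂ σ * (ψ₁ σ)⁻¹ := by
    intro σ
    rw [hχ]
    show Ψ 1 σ * (Ψ 0 σ)⁻¹ = _
    rw [hΨ0, hΨ1]
  have hχ12 : ∀ σ ∈ inertiaQ p, χ 1 σ * χ 2 σ = 1 := by
    intro σ hσ
    rw [hχ1, hχ2]
    have h1 := hψ1 σ hσ
    have h2 := hψ2 σ hσ
    field_simp
  -- the link
  have hlink : ∀ i, finrank F (gbEig p F (locRep p (ad0Rep p ρbar)).ρ (inertiaQ p) u i) ≤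
      ∑ a : Fin 3, finrank F (gbcE p F k (inertiaQ p) u (χ a) i) := by
    intro i
    refine gbc_finrank_gbEig_le (W := (ad0Rep p ρbar).V) (locRep p (ad0Rep p ρbar)).ρ
      (fun a => gicEntry p ρbar b (gicRow a) (gicCol a)) χ ?_ ?_ i
    · intro w hw
      exact gic_entries_injective p ρbar b w (hw 0) (hw 1) (hw 2)
    · intro a σ hσ w
      rw [gicEntry_apply, gicEntry_apply, hχ]
      exact gic_entry_act p ρbar b σ (fun j => Ψ j σ) (hΨne σ hσ) (hΨact σ hσ) _ _ w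
  -- the trivial character does not occur
  have hE0 : ∀ i ∈ Finset.Icc 1 e', gbcE p F k (inertiaQ p) u (χ 0) i = ⊥ := by
    intro i hi
    rw [Finset.mem_Icc] at hi
    have hlt : i < (p - 1) * e' := by
      have h2 : 2 * e' ≤ (p - 1) * e' := Nat.mul_le_mul_right e' (by omega)
      omega
    obtain ⟨σ, hσ, h⟩ := hfaith i (by omega) hlt
    refine gbcE_eq_bot_of_prime (χ 0) hσ 1 ?_ ?_
    · rw [hχ0 σ hσ, map_one]
    · rw [map_one]; exact h
  -- separation of `η` and `η⁻¹`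
  have hsep12 : ∀ i ∈ Finset.Icc 1 e', ∀ j ∈ Finset.Icc 1 e',
      GbcSep (gbcE p F k (inertiaQ p) u (χ 1) i) (gbcE p F k (inertiaQ p) u (χ 2) j) := by
    intro i hi j hj
    by_cases hex : ∃ σ ∈ inertiaQ p, u σ ^ (i + j) ≠ 1
    · obtain ⟨σ, hσ, h⟩ := hex
      exact gbcSep_inv (χ 1) (χ 2) hσ (hχ12 σ hσ) h
    · push Not at hex
      rw [Finset.mem_Icc] at hi hj
      have hge : (p - 1) * e' ≤ i + j := by
        by_contra hlt
        push Not at hlt
        obtain ⟨σ, hσ, h⟩ := hfaith (i + j) (by omega) hlt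
        exact h (hex σ hσ)
      have hp' : p = 3 := by
        by_contra hp3'
        have h4 : 3 * e' ≤ (p - 1) * e' := Nat.mul_le_mul_right e' (by omega)
        omega
      subst hp'
      have hie : i = e' := by
        have h2 : (3 - 1) * e' = 2 * e' := by norm_num
        omega
      -- `gbcE η e' = 0`
      have hbot : gbcE 3 F k (inertiaQ 3) u (χ 1) i = ⊥ := by
        by_contra hnb
        have hall : ∀ σ ∈ inertiaQ 3, χ 1 σ =
            algebraMap (ZMod 3) k ((gbOmega 3 σ : (ZMod 3)ˣ) : ZMod 3) := by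
          intro σ hσ
          by_contra h
          exact hnb (gbcE_eq_bot_of_prime' (χ 1) hσ _ (by rw [hie]; exact (hω σ hσ).symm) h)
        apply hne
        have h1 := hall σ₀ hσ₀
        rw [hχ1, ← hprod σ₀ hσ₀] at h1
        have h2 : ψ₂ σ₀ ^ 2 = 1 := by
          have h3 := hψ1 σ₀ hσ₀
          have h4 := hψ2 σ₀ hσ₀
          have h5 : ψ₁ σ₀ * ((ψ₂ σ₀)⁻¹ * ψ₂ σ₀) = ψ₁ σ₀ * (ψ₂ σ₀ * ψ₂ σ₀) := by
            rw [← mul_assoc, h1]; ring
          rw [inv_mul_cancel₀ h4] at h5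
          have h6 := mul_left_cancel₀ h3 h5
          rw [pow_two]
          exact h6.symm
        rw [(hpow σ₀ hσ₀).2]
        calc ψ₂ σ₀ ^ 3 = ψ₂ σ₀ ^ 2 * ψ₂ σ₀ := by ring
          _ = ψ₂ σ₀ := by rw [h2, one_mul]
      rw [hbot]
      exact gbcSep_bot_left _
  -- the family indexed by `(i, a)`, `a ∈ {1, 2}`
  have hfam : ∑ x ∈ Finset.Icc 1 e' ×ˢ ({1, 2} : Finset (Fin 3)),
      finrank F (gbcE p F k (inertiaQ p) u (χ x.2) x.1) ≤ finrank F (F ⊗[ZMod p] k) := by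
    refine gbc_sum_finrank_le (fun x : ℕ × Fin 3 => gbcE p F k (inertiaQ p) u (χ x.2) x.1) _ ?_
    rintro ⟨i, a⟩ hx ⟨j, c⟩ hy hxy
    rw [Finset.mem_product] at hx hy
    obtain ⟨hi, ha⟩ := hx
    obtain ⟨hj, hc⟩ := hy
    simp only [Finset.mem_insert, Finset.mem_singleton] at ha hc
    show GbcSep (gbcE p F k (inertiaQ p) u (χ a) i) (gbcE p F k (inertiaQ p) u (χ c) j)
    by_cases hac : a = c
    · subst hac
      have hij : i ≠ j := fun h => hxy (by rw [h])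
      obtain ⟨σ, hσ, h⟩ := gbc_exists_pow_ne hfaith hu0 hi hj hij
      exact gbcSep_same _ hσ h
    · rcases ha with rfl | rfl <;> rcases hc with rfl | rfl
      · exact absurd rfl hac
      · exact hsep12 i hi j hj
      · exact (hsep12 j hj i hi).symm
      · exact absurd rfl hac
  calc ∑ i ∈ Finset.Icc 1 e',
        finrank F (gbEig p F (locRep p (ad0Rep p ρbar)).ρ (inertiaQ p) u i)
      ≤ ∑ i ∈ Finset.Icc 1 e', ∑ a : Fin 3, finrank F (gbcE p F k (inertiaQ p) u (χ a) i) :=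
        Finset.sum_le_sum (fun i _ => hlink i)
    _ = ∑ i ∈ Finset.Icc 1 e', ∑ a ∈ ({1, 2} : Finset (Fin 3)),
          finrank F (gbcE p F k (inertiaQ p) u (χ a) i) := by
        refine Finset.sum_congr rfl (fun i hi => ?_)
        rw [Fin.sum_univ_three, hE0 i hi, finrank_bot, zero_add,
          Finset.sum_insert (by decide), Finset.sum_singleton]
    _ = ∑ x ∈ Finset.Icc 1 e' ×ˢ ({1, 2} : Finset (Fin 3)),
          finrank F (gbcE p F k (inertiaQ p) u (χ x.2) x.1) := by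
        rw [Finset.sum_product]
    _ ≤ finrank F (F ⊗[ZMod p] k) := hfam
    _ = finrank (ZMod p) k := Module.finrank_baseChange

end Fermat.Agent.TW.W

end


end ZBTW_028_21

/-! ### bundled: `Fermat.Agent.TW.W.Final` -/
section ZBTW_028_22
/-
TW-W (helper74, sub-captain): **`stmtWFlat : StmtWFlat`**, UNCONDITIONAL.

The flat wall at `p` of S56: for `p` odd, `ρ̄` with cyclotomic determinant and split
characteristic polynomials, the flat local condition at `p` cuts out a subspace of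
`H¹(G_p, ad⁰ ρ̄)` of dimension `≤ h⁰ + f`.

Inputs (all landed): W-add (`stmtAdd`), W-bridge (`stmtBridge_of`), W-et (`stmtEt1/2`),
chain A (`stmtLev`), W-dev (`stmtCount_of`), (GB) = K1 + K3 + K4 (`stmtGBTame`) + GB-ALG
(`stmtGBAlg`) + GB1 + CHAR-T + CHAR-count (`stmtGBCharCount`) + IRR-STR (`stmtGBIrrStr`) +
IRR-count (`stmtGBIrrCount`).
-/

set_option autoImplicit false

namespace Fermat.Agent.TW.W

/-- (GB-GEN), unconditional. -/
theorem stmtGBGen : StmtGBGen := stmtGBGen_of stmtGBTame stmtGBAlg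

/-- (GB) for characters, unconditional. -/
theorem stmtGBChar : StmtGBChar := stmtGBChar_of stmtGBGen stmtGBCharCount

/-- (GB) in the irreducible case, unconditional. -/
theorem stmtGBIrr : StmtGBIrr := stmtGBIrr_of stmtGBGen stmtGBIrrStr stmtGBIrrCount

/-- W-count, unconditional. -/
theorem stmtCount : StmtCount := stmtCount_of stmtGBChar stmtGBIrr

/-- W-bridge, unconditional. -/
theorem stmtBridge : StmtBridge := stmtBridge_of stmtLev stmtEt1 stmtEt2

/-- **TW-W**: the flat wall at `p`, unconditional. -/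
theorem stmtWFlat : StmtWFlat := stmtWFlat_of stmtAdd stmtBridge stmtCount

end Fermat.Agent.TW.W


end ZBTW_028_22
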