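/- GENERATED FILE (helper35, build-time optimisation, NOTES/ZB.md): verbatim concatenation of the modules
   Fermat.Agent.TW.F.PlanH2
   Fermat.Agent.TW.L.PDepth
   Fermat.Agent.TW.L.Final2
   Fermat.Agent.TW.F.H2Dev
   Do not edit; do not import together with these modules. -/
import Fermat.Agent.ZB.TW_006
import Fermat.Agent.ZB.PT_003
import Fermat.Agent.ZB.PT_016
import Fermat.Agent.ZB.TW_028
import Fermat.Agent.ZB.TW_012
import Fermat.Agent.ZB.TW_026
import Fermat.Agent.ZB.TW_023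
import Fermat.Agent.ZB.PT_031

/-! ### bundled: `Fermat.Agent.TW.F.PlanH2` -/
section ZBTW_013_0
/-
TW-F, block F-h2 (end of the nine-term sequence) — INTERFACE FILE 2 (helper68).
Mathematics: NOTES/TW-F.md §9 (helper63's proof (E1), simplified dévissage by PUSH-FORWARD).
No `H³`, no Euler characteristic, no local duality in degree 2 is used.

For a family `a = (a_v)`, `a_v ∈ A^{G_v}`, let `ψ_a : B → J`, `ψ_a(b)(v)(g) = β(a_v, g b) • ζ_v`
(a `G`-map with values in `J[p]`).  Then `Σ_v inv_v (a_v ∪ res_v z) = inv_glob [π ∘ ψ_a ∘ z]`, and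
`π ∘ ψ_a = 0` iff `a` is diagonal (`a_v = a₀ ∈ A^G`).  So everything follows from

  **(H2Hom)**  a `G`-map `ψ : B → J` with `π ∘ ψ ≠ 0` is detected by some `z ∈ Z²_lev(G, B)`:
               `π ∘ ψ ∘ z` is not a level coboundary of `C`.

and (H2Hom) for `B` follows from (H2Hom) for the permutation module `𝔽_p[G/U]` by pushing a class
forward along `𝔽_p[G/U] → B`, `gU ↦ g b` (`π ψ b ≠ 0`, `U` a level fixing `b`).
-/

set_option autoImplicit false

noncomputable section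

namespace Fermat.Agent.TW.F

open CategoryTheory groupCohomology Module Fermat.Agent.PT Fermat.Agent.PT.F

variable {p : ℕ} {G : Type} [Group G] {ι : Type} {Gloc : ι → Type} [∀ v, Group (Gloc v)]

/-- the BIG-local-tower version of `p`-depth: every local level `V` has a sublevel `W ≤ V` with
`p ∣ [V : W]`.  (Proved for the concrete datum in TW/L/PDepth.lean.  It is TOO WEAK for
`StmtH2Perm` — remark of helper55 — and is kept only for reference; it follows from
`HasPDepth`.) -/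
def HasPDepthBig (D : PTDatum p G ι Gloc) : Prop :=
  ∀ v, ∀ V ∈ (D.𝒯loc v).lev, ∃ W ∈ (D.𝒯loc v).lev, W ≤ V ∧ p ∣ (W.subgroupOf V).index

/-- **(HasPDepth)** — NEW datum hypothesis (not a field of `PTDatum`), in its PULLED-BACK form
(the body is the one of `Fermat.Agent.TW.E.HasPDepthGlob`, TW/E/Plan.lean): below every GLOBAL
level `U` there is a normal GLOBAL level `U' ≤ U` whose LOCAL relative index at `v`,
`[r_v⁻¹ U : r_v⁻¹ U']`, is divisible by `p`, for every `v`.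
Consequence (with `cm_loc`): the `v`-components of the classes of `H²_lev(G, J)[p]` are nonzero.
For the concrete datum: `Fermat.Agent.TW.E.StmtPDepthTower` (cyclotomic `ℤ_p`-extension). -/
def HasPDepth (D : PTDatum p G ι Gloc) : Prop :=
  ∀ (v : ι), ∀ U ∈ D.𝒯.lev, ∃ U' ∈ D.𝒯.lev, U' ≤ U ∧ U'.Normal ∧
    p ∣ (U'.comap (D.r v)).relIndex (U.comap (D.r v))

/-- `ψ` is a `G`-map `B → J` (additive and equivariant) -/
def IsGMap (D : PTDatum p G ι Gloc) (B : Rep.{0} (ZMod p) G) (ψ : B.V →+ (PTJ D).V) : Prop :=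
  ∀ (g : G) (b : B.V), ψ (B.ρ g b) = (PTJ D).ρ g (ψ b)

/-- the 2-cochain `π ∘ ψ ∘ z` of `C` -/
def pushC (D : PTDatum p G ι Gloc) {B : Rep.{0} (ZMod p) G} (ψ : B.V →+ (PTJ D).V)
    (z : G × G → B.V) : G × G → D.C.V :=
  fun gg => D.π.hom (ψ (z gg))

/-- the permutation module `𝔽_p[G/U]` -/
abbrev permRep (p : ℕ) (U : Subgroup G) : Rep.{0} (ZMod p) G :=
  Rep.ofMulAction (ZMod p) G (G ⧸ U)

/-- **F-h2perm** (the permutation case, helper63's (E1) in pairing form): for a normal level `U` on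
which `χ` is trivial, every `G`-map `Ψ : 𝔽_p[G/U] → J` with `π ∘ Ψ ≠ 0` is detected by a level
2-cocycle of `𝔽_p[G/U]`.
Proof sketch (NOTES/TW-F.md §9): untwist `𝔽_p[G/U] ≅ Hom_ℤ(ℤ[G/U], μ_p)`; `Ψ` = a function `m` on
the "places" `r(G_v) \ G / U`, not constant because `π Ψ ≠ 0`; take two places `w₁, w₂` with
`m w₁ ≠ m w₂`, classes `Y₁, Y₂ ∈ H²_lev(G, Hom(ℤ[G/U], J))[p]` supported at `w₁, w₂` with nonzero
invariants (inverse Shapiro + `HasPDepth` + `cm_loc`); a combination `Y₁ - t Y₂` dies in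
`H²_lev(G, Hom(ℤ[G/U], C))[p]` (≤ `p` elements: Shapiro for `C`), hence comes from
`Hom(ℤ[G/U], E)` (exactness, In1) and from `Hom(ℤ[G/U], μ_p)` (`E_div`); its pairing with `Ψ` has
invariant `m w₁ - m w₂ ≠ 0` (`surv`). -/
def StmtH2Perm : Prop :=
  ∀ (p : ℕ) [Fact p.Prime] (G : Type) [Group G] (ι : Type) [Fintype ι] (Gloc : ι → Type)
    [∀ v, Group (Gloc v)] (D : PTDatum p G ι Gloc), HasPDepth D →
    ∀ (U : Subgroup G), U.Normal → U ∈ D.𝒯.lev → (∀ s ∈ U, D.χ s = 1) →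
    ∀ Ψ : (permRep p U).V →+ (PTJ D).V, IsGMap D (permRep p U) Ψ →
      (∃ x, D.π.hom (Ψ x) ≠ 0) →
      ∃ z : G × G → (permRep p U).V, z ∈ levCocycles₂ D.𝒯 (permRep p U) ∧
        pushC D Ψ z ∉ levCoboundaries₂ D.𝒯 D.C

/-- **(H2Hom)**: for every finite `B`, trivial on a level, every `G`-map `ψ : B → J` with
`π ∘ ψ ≠ 0` is detected by a level 2-cocycle of `B`. -/
def StmtH2Hom : Prop :=
  ∀ (p : ℕ) [Fact p.Prime] (G : Type) [Group G] (ι : Type) [Fintype ι] (Gloc : ι → Type)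
    [∀ v, Group (Gloc v)] (D : PTDatum p G ι Gloc), HasPDepth D →
    ∀ (B : Rep.{0} (ZMod p) G) [FiniteDimensional (ZMod p) B], TrivOnLevel D.𝒯 B →
    ∀ ψ : B.V →+ (PTJ D).V, IsGMap D B ψ → (∃ b, D.π.hom (ψ b) ≠ 0) →
      ∃ z : G × G → B.V, z ∈ levCocycles₂ D.𝒯 B ∧ pushC D ψ z ∉ levCoboundaries₂ D.𝒯 D.C

/-- **F-h2dev** (dévissage by push-forward): `stmtH2Hom_of : StmtH2Perm → StmtH2Hom`.
(`b` with `π ψ b ≠ 0`; `U` a normal level acting trivially on `B` and with `χ|_U = 1`;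
`f : 𝔽_p[G/U] → B`, `gU ↦ g b`; apply `StmtH2Perm` to `Ψ := ψ ∘ f` and take `z := f ∘ z_Ω`.) -/
def StmtH2Dev : Prop := StmtH2Perm → StmtH2Hom

/-- **F-h2rank** (the rank inequality `(H2)` consumed by `StmtGW`), with `H²_lev(G, B)` finite
dimensional (TW-E).  `stmtH2Rank_of : StmtH2Hom → StmtH2RankFD`:
`W := ⊕_v A^{G_v} → Hom(H²_lev(G,B), 𝔽_p)`, `a ↦ (z ↦ inv_glob [π ψ_a z])` (`exists_inv` for
`(G, 𝒯, C)`); it kills `ker loc₂` (`In2` for `M = ℤ`: `ψ_a z` is locally `a_v ∪ res_v z`), and its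
kernel is contained in the diagonal `A^G` (`StmtH2Hom`; `π ψ_a = 0 ⇒ a` diagonal because
`ker π ∩ J[p] = 𝔽_p · i(ζ)`). -/
def StmtH2RankFD : Prop :=
  ∀ (p : ℕ) [Fact p.Prime] (G : Type) [Group G] (ι : Type) [Fintype ι] (Gloc : ι → Type)
    [∀ v, Group (Gloc v)] (D : PTDatum p G ι Gloc), HasPDepth D →
    ∀ (A B : Rep.{0} (ZMod p) G) [FiniteDimensional (ZMod p) A] [FiniteDimensional (ZMod p) B]
      (_ : DualPair D.χ A B), TrivOnLevel D.𝒯 A → TrivOnLevel D.𝒯 B →
      FiniteDimensional (ZMod p) (levH2 D.𝒯 B) →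
      (∑ v, finrank (ZMod p) ↥((Rep.res (D.r v) A).ρ.invariants)) ≤
        finrank (ZMod p) ↥(LinearMap.range (D.locTwo B)) + finrank (ZMod p) ↥(A.ρ.invariants)

/-- **THE GREENBERG–WILES INEQUALITY, final form for TW-asm** (route 1): from a datum with the two
extra inputs `LocExist`, `HasPDepth` and the Euler characteristic inequality `(EC)` for `B`
(TW-E).  `stmtGWFinal_of : StmtGW → StmtH2RankFD → StmtGWFinal`. -/
def StmtGWFinal : Prop :=
  ∀ (p : ℕ) [Fact p.Prime] (G : Type) [Group G] (ι : Type) [Fintype ι] (Gloc : ι → Type)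
    [∀ v, Group (Gloc v)] (D : PTDatum p G ι Gloc), LocExist D → HasPDepth D →
    ∀ (A B : Rep.{0} (ZMod p) G) [FiniteDimensional (ZMod p) A] [FiniteDimensional (ZMod p) B]
      (P : DualPair D.χ A B), TrivOnLevel D.𝒯 A → TrivOnLevel D.𝒯 B →
    ∀ (L : ∀ v, Submodule (ZMod p) (H1 (Rep.res (D.r v) A)))
      (L' : ∀ v, Submodule (ZMod p) (H1 (Rep.res (D.r v) B))),
      (∀ v, L v ≤ locH1 D A v) → (∀ v, IsPerp D P v (L v) (L' v)) →
    ∀ (e : ℕ), FiniteDimensional (ZMod p) (levH2 D.𝒯 B) →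
      finrank (ZMod p) ↥(B.ρ.invariants) + finrank (ZMod p) (levH2 D.𝒯 B) + e ≤
        finrank (ZMod p) ↥(levH1 D.𝒯 B) →
      finrank (ZMod p) ↥(selLev D A L) + finrank (ZMod p) ↥(B.ρ.invariants) + e +
          (∑ v, finrank (ZMod p) ↥((Rep.res (D.r v) A).ρ.invariants)) ≤
        finrank (ZMod p) ↥(selLev D B L') + finrank (ZMod p) ↥(A.ρ.invariants) +
          ∑ v, finrank (ZMod p) ↥(L v)

theorem stmtGWFinal_of (hGW : StmtGW) (hH2 : StmtH2RankFD) : StmtGWFinal := by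
  intro p _ G _ ι _ Gloc _ D hLE hPD A B _ _ P hA hB L L' hL hL' e hfin hEC
  exact hGW p G ι Gloc D hLE A B P hA hB L L' hL hL' e hfin hEC
    (hH2 p G ι Gloc D hPD A B P hA hB hfin)

end Fermat.Agent.TW.F

end


end ZBTW_013_0

/-! ### bundled: `Fermat.Agent.TW.L.PDepth` -/
section ZBTW_013_1
/-
TW-L, piece **L-pdepth** (helper11; asked by TW-F, helper68): `HasPDepthBig D` (the big-local-tower
version of p-depth) for the concrete datum.
Every level `V = G_K` (`K = ℚ_q·ι(F)`) of the local tower has a sublevel `W = G_{K'}` with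
`p ∣ [V : W]`: take the unramified extension `K₃/ℚ_q` of degree `p·[K:ℚ_q]` (PT-L `stmtUnramExists`)
inside `ℚ̄_q`, and `K' = ℚ_q·ι(F') ⊇ K·K₃` by Krasner (`stmtKrasner`); `[V:W]·[K:ℚ_q] = [K':ℚ_q]`
(`IntermediateField.finrank_eq_fixingSubgroup_index`) is divisible by `p·[K:ℚ_q]`.
-/

set_option autoImplicit false
set_option linter.style.haveILetI false

noncomputable section

namespace Fermat.Agent.TW.L

open Fermat.Agent.PT Fermat.Agent.PT.B Fermat.Agent.TW.F

/-- **L-pdepth**: every level of the local tower has a sublevel of relative index divisible by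
`p`. -/
def StmtPDepthQ : Prop :=
  ∀ (p : ℕ) [Fact p.Prime] (q : ℕ) [Fact q.Prime], ∀ V ∈ (towerLoc q).lev,
    ∃ W ∈ (towerLoc q).lev, W ≤ V ∧ p ∣ (W.subgroupOf V).index

/-- a finite extension of `ℚ_q` of every degree `n > 0` inside `ℚ̄_q` (the unramified one) -/
theorem lpd_exists_ext (q : ℕ) [Fact q.Prime] (n : ℕ) (hn : 0 < n) :
    ∃ K : IntermediateField ℚ_[q] (PadicAlgCl q), FiniteDimensional ℚ_[q] K ∧
      Module.finrank ℚ_[q] K = n := by
  obtain ⟨E, hE, hA, hA', hT, hfd, hgal, hrk, -, -⟩ :=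
    Fermat.Agent.PT.L.stmtUnramExists q ℚ_[q] n hn
  letI := hE
  letI := hA
  haveI := hfd
  haveI : Algebra.IsAlgebraic ℚ_[q] E := Algebra.IsAlgebraic.of_finite ℚ_[q] E
  let φ : E →ₐ[ℚ_[q]] PadicAlgCl q := IsAlgClosed.lift
  let e : E ≃ₐ[ℚ_[q]] φ.fieldRange := AlgEquiv.ofInjectiveField φ
  refine ⟨φ.fieldRange, ?_, ?_⟩
  · exact Module.Finite.equiv e.toLinearEquiv
  · rw [← e.toLinearEquiv.finrank_eq, hrk]

theorem stmtPDepthQ : StmtPDepthQ := by
  intro p _ q _ V hV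
  obtain ⟨F, hF, rfl⟩ := hV
  haveI := hF
  have hVK : F.fixingSubgroup.comap (localGaloisToGlobal q) =
      (localField q F).fixingSubgroup := by
    ext τ
    rw [Subgroup.mem_comap]
    exact stmtLocalLevel q F τ
  haveI hfin : FiniteDimensional ℚ_[q] (localField q F) := stmtLocalFinite q F hF
  set n := Module.finrank ℚ_[q] (localField q F) with hn
  have hnpos : 0 < n := Module.finrank_pos
  obtain ⟨K₃, hK₃fin, hK₃⟩ := lpd_exists_ext q (p * n) (Nat.mul_pos (Fact.out : p.Prime).pos hnpos)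
  haveI := hK₃fin
  haveI : FiniteDimensional ℚ_[q] ↥(localField q F ⊔ K₃) :=
    IntermediateField.finiteDimensional_sup _ _
  obtain ⟨F', hF', hF'gal, hle⟩ := stmtKrasner q (localField q F ⊔ K₃) inferInstance
  have hWK : F'.fixingSubgroup.comap (localGaloisToGlobal q) =
      (localField q F').fixingSubgroup := by
    ext τ
    rw [Subgroup.mem_comap]
    exact stmtLocalLevel q F' τ
  haveI hfin' : FiniteDimensional ℚ_[q] (localField q F') := stmtLocalFinite q F' hF'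
  have hle1 : localField q F ≤ localField q F' := le_sup_left.trans hle
  have hle3 : K₃ ≤ localField q F' := le_sup_right.trans hle
  refine ⟨_, ⟨F', hF', rfl⟩, ?_, ?_⟩
  · rw [hVK, hWK]
    exact IntermediateField.fixingSubgroup_antitone hle1
  · rw [hVK, hWK]
    have h1 := Subgroup.relIndex_mul_index
      (IntermediateField.fixingSubgroup_antitone hle1 :
        (localField q F').fixingSubgroup ≤ (localField q F).fixingSubgroup)
    rw [← IntermediateField.finrank_eq_fixingSubgroup_index,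
      ← IntermediateField.finrank_eq_fixingSubgroup_index] at h1
    have h3 : p * n ∣ Module.finrank ℚ_[q] (localField q F') := by
      rw [← hK₃]
      exact IntermediateField.finrank_dvd_of_le_right hle3
    rw [← h1, ← hn, mul_comm p n] at h3
    have h4 : (localField q F').fixingSubgroup.relIndex (localField q F).fixingSubgroup * n =
        n * (localField q F').fixingSubgroup.relIndex (localField q F).fixingSubgroup :=
      mul_comm _ _
    rw [h4] at h3
    exact (Nat.mul_dvd_mul_iff_left hnpos).1 h3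

/-- **L-pdepth, wired**: `HasPDepthBig D` for every concrete datum. -/
theorem hasPDepth_of_isConcrete (p : ℕ) [Fact p.Prime] (S : Finset Nat.Primes)
    (D : PTDatum p GQ ↥S (GlocS S)) (hD : IsConcreteDatum p S D) : HasPDepthBig D := by
  intro v V hV
  rw [hD.towerLoc v] at hV ⊢
  exact @stmtPDepthQ p _ ((v : Nat.Primes) : ℕ) ⟨(v : Nat.Primes).2⟩ V hV

end Fermat.Agent.TW.L

end


end ZBTW_013_1

/-! ### bundled: `Fermat.Agent.TW.L.Final2` -/
section ZBTW_013_2
/-
TW-L (local computations for S56; sub-captain helper11): UNCONDITIONAL finals, part 2.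
`import Fermat.Agent.TW.L.Final2` gives ALL of TW-L:

* the fifteen local pieces of Plan.lean/Plan2.lean (via `TW/L/Final.lean`);
* the nine glue pieces of Plan3.lean for `A = ad0Rep p ρbar`:
  `stmtAdSmooth`, `stmtAdUnram`, `stmtAdInvLe`, `stmtAdTw`, `stmtAdMin`, `stmtAdArch` (landed in
  their files) and here `stmtAdOrd`, `stmtAdGlob0`, `stmtAdGlob1`;
* the two new datum inputs of TW-F for the concrete datum:
  `locExist_concreteDatum : LocExist (concreteDatum …)` (local existence theorem mod `p`) and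
  `hasPDepth_of_isConcrete : IsConcreteDatum p S D → HasPDepth D` (TW/L/PDepth.lean).
-/

set_option autoImplicit false

namespace Fermat.Agent.TW.L

open Fermat.Agent.PT Fermat.Agent.PT.B Fermat.Agent.TW.F ExtCitation

/-- **G-ord**, unconditional. -/
theorem stmtAdOrd : StmtAdOrd := stmtAdOrd_of stmtLOrd stmtLKum stmtAdSmooth

/-- **G-glob0**, unconditional. -/
theorem stmtAdGlob0 : StmtAdGlob0 := stmtAdGlob0_of stmtGlobAd

/-- **G-glob1**, unconditional. -/
theorem stmtAdGlob1 : StmtAdGlob1 := stmtAdGlob1_of stmtGlobAdTwist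

/-- **L-exist**, unconditional: the local existence theorem mod `p` in tower form. -/
theorem stmtLocExistQ : StmtLocExistQ := stmtLocExistQ_of stmtLb

/-- **L-exwire**, unconditional: `LocExist` for the concrete datum. -/
theorem locExist_concreteDatum (p : ℕ) [Fact p.Prime]
    (hp2 : p ≠ 2) (S : Finset Nat.Primes) (hpS : pPrime p ∈ S) (hcg : StmtCmGlob)
    (hcl : StmtCmLoc) (hh : StmtH90Loc) (hex : StmtExistC) (hsv : StmtSurvC) :
    LocExist (concreteDatum p hp2 S hpS hcg hcl hh hex hsv) :=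
  locExist_concreteDatum_of stmtLb p hp2 S hpS hcg hcl hh hex hsv

end Fermat.Agent.TW.L


end ZBTW_013_2

/-! ### bundled: `Fermat.Agent.TW.F.H2Dev` -/
section ZBTW_013_3

/-!
# TW-F / F-h2dev (helper86): dévissage of (H2Hom) to permutation modules by push-forward

`stmtH2Hom_of : StmtH2Perm → StmtH2Hom` (= `StmtH2Dev`).

`b ∈ B` with `π ψ b ≠ 0`; `U` a normal level acting trivially on `B` and with `χ|_U = 1`;
`f : 𝔽_p[G/U] → B`, `gU ↦ g b` (a `G`-map); `StmtH2Perm` for `Ψ := ψ ∘ f` gives `z_Ω`, and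
`z := f ∘ z_Ω` works since `π ∘ ψ ∘ z = π ∘ Ψ ∘ z_Ω` on the nose.
-/

set_option autoImplicit false

noncomputable section

namespace Fermat.Agent.TW.F

open CategoryTheory groupCohomology Module Fermat.Agent.PT Fermat.Agent.PT.F

variable {p : ℕ} {G : Type} [Group G]

/-- the orbit map `G/U → B`, `gU ↦ g b`, for `b` fixed by `U` -/
def h2devOrb (B : Rep.{0} (ZMod p) G) (U : Subgroup G) (b : B.V)
    (hb : ∀ s ∈ U, B.ρ s b = b) : G ⧸ U → B.V :=
  Quotient.lift (fun g : G => B.ρ g b) (by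
    intro g g' h
    have h1 : g⁻¹ * g' ∈ U := QuotientGroup.leftRel_apply.1 h
    have h2 := hb _ h1
    show B.ρ g b = B.ρ g' b
    have e : g' = g * (g⁻¹ * g') := by group
    rw [e, map_mul]
    show B.ρ g b = B.ρ g (B.ρ (g⁻¹ * g') b)
    rw [h2])

lemma h2devOrb_mk (B : Rep.{0} (ZMod p) G) (U : Subgroup G) (b : B.V)
    (hb : ∀ s ∈ U, B.ρ s b = b) (g : G) :
    h2devOrb B U b hb (g : G ⧸ U) = B.ρ g b := rfl

/-- the `G`-map `f : 𝔽_p[G/U] → B`, `gU ↦ g b` -/
def h2devF (B : Rep.{0} (ZMod p) G) (U : Subgroup G) (b : B.V)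
    (hb : ∀ s ∈ U, B.ρ s b = b) : MonoidAlgebra (ZMod p) (G ⧸ U) →ₗ[ZMod p] B.V :=
  Finsupp.linearCombination (ZMod p) (h2devOrb B U b hb) ∘ₗ
    (MonoidAlgebra.coeffLinearEquiv (ZMod p)).toLinearMap

lemma h2devF_single (B : Rep.{0} (ZMod p) G) (U : Subgroup G) (b : B.V)
    (hb : ∀ s ∈ U, B.ρ s b = b) (x : G ⧸ U) (c : ZMod p) :
    h2devF B U b hb (MonoidAlgebra.single x c) = c • h2devOrb B U b hb x := by
  show Finsupp.linearCombination (ZMod p) (h2devOrb B U b hb) (MonoidAlgebra.single x c).coeff = _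
  rw [MonoidAlgebra.coeff_single, Finsupp.linearCombination_single]

lemma h2devOrb_smul (B : Rep.{0} (ZMod p) G) (U : Subgroup G) (b : B.V)
    (hb : ∀ s ∈ U, B.ρ s b = b) (g : G) (q : G ⧸ U) :
    h2devOrb B U b hb (g • q) = B.ρ g (h2devOrb B U b hb q) := by
  induction q using QuotientGroup.induction_on with
  | H a =>
    show h2devOrb B U b hb ((g * a : G) : G ⧸ U) = B.ρ g (h2devOrb B U b hb (a : G ⧸ U))
    rw [h2devOrb_mk, h2devOrb_mk, map_mul]
    rfl

lemma h2devF_equiv (B : Rep.{0} (ZMod p) G) (U : Subgroup G) (b : B.V)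
    (hb : ∀ s ∈ U, B.ρ s b = b) (g : G) (x : MonoidAlgebra (ZMod p) (G ⧸ U)) :
    h2devF B U b hb (Representation.ofMulAction (ZMod p) G (G ⧸ U) g x) =
      B.ρ g (h2devF B U b hb x) := by
  induction x using MonoidAlgebra.induction_linear with
  | zero => simp
  | add x y hx hy => simp only [map_add, hx, hy]
  | single q c =>
    rw [Representation.ofMulAction_single, h2devF_single, h2devF_single, map_smul,
      h2devOrb_smul]

/-- **F-h2dev** -/
theorem stmtH2Hom_of (hPerm : StmtH2Perm) : StmtH2Hom := by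
  intro p _ G _ ι _ Gloc _ D hPD B _ hB ψ hψ hne
  obtain ⟨b, hb⟩ := hne
  obtain ⟨U₀, hU₀, hU₀B⟩ := hB
  obtain ⟨U₁, hU₁, hU₁χ⟩ := D.χ_level
  obtain ⟨U, hU, hUle, hUn⟩ := D.𝒯.exists_normal (U₀ ⊓ U₁) (D.𝒯.inf_mem _ _ hU₀ hU₁)
  have hbU : ∀ s ∈ U, B.ρ s b = b := fun s hs => by
    rw [hU₀B s (hUle hs).1]
    rfl
  have hχU : ∀ s ∈ U, D.χ s = 1 := fun s hs => hU₁χ s (hUle hs).2
  let Ψ : (permRep p U).V →+ (PTJ D).V := ψ.comp (h2devF B U b hbU).toAddMonoidHom
  have hΨ : IsGMap D (permRep p U) Ψ := by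
    intro g x
    show ψ (h2devF B U b hbU ((permRep p U).ρ g x)) = (PTJ D).ρ g (ψ (h2devF B U b hbU x))
    rw [← hψ g (h2devF B U b hbU x)]
    congr 1
    exact h2devF_equiv B U b hbU g x
  have hΨne : ∃ x, D.π.hom (Ψ x) ≠ 0 := by
    refine ⟨MonoidAlgebra.single ((1 : G) : G ⧸ U) 1, ?_⟩
    show D.π.hom (ψ (h2devF B U b hbU (MonoidAlgebra.single ((1 : G) : G ⧸ U) 1))) ≠ 0
    rw [h2devF_single, one_smul, h2devOrb_mk, map_one]
    exact hb
  obtain ⟨zΩ, hzΩ, hzΩn⟩ := hPerm p G ι Gloc D hPD U hUn hU hχU Ψ hΨ hΨne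
  refine ⟨fun gg => h2devF B U b hbU (zΩ gg), ?_, hzΩn⟩
  rw [mem_levCocycles₂_iff] at hzΩ ⊢
  refine ⟨?_, hzΩ.2.comp (h2devF B U b hbU)⟩
  have hc := (mem_cocycles₂_iff _).1 hzΩ.1
  rw [mem_cocycles₂_iff]
  intro g h j
  have := congrArg (h2devF B U b hbU) (hc g h j)
  simp only [map_add] at this
  rw [this]
  congr 1
  exact h2devF_equiv B U b hbU g (zΩ (h, j))

/-- **F-h2dev**, in the form of the interface -/
theorem stmtH2Dev : StmtH2Dev := stmtH2Hom_of

end Fermat.Agent.TW.F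

end


end ZBTW_013_3
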