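/- GENERATED FILE (helper35, build-time optimisation, NOTES/ZB.md): verbatim concatenation of the modules
   Fermat.Agent.TW.F.GW1Abs
   Fermat.Agent.TW.F.GW1
   Do not edit; do not import together with these modules. -/
import Fermat.Agent.ZB.TW_006
import Fermat.Agent.ZB.PT_035
import Fermat.Agent.ZB.PT_036

/-! ### bundled: `Fermat.Agent.TW.F.GW1Abs` -/
section ZBTW_029_0
/-
TW-F, piece F-gw1 (helper9), part 1: the abstract form of the first half of Greenberg–Wiles.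

Pure linear algebra on top of `TW/F/GW.lean` (`gw_selmer_le`, `gwPiPair`, `gw_perp_pi`,
`gw_finrank_pi`): the global-to-local maps are given on ambient spaces `X → Y v`, the level
cohomology groups are subspaces `S ≤ X`, `T v ≤ Y v`, the local pairings live on `T v × T' v`.
-/

set_option autoImplicit false

namespace Fermat.Agent.TW.F

open Module

section Abs

variable {k : Type*} [Field k] {ι : Type*} [Fintype ι]
  {X : Type*} [AddCommGroup X] [Module k X]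
  {Y : ι → Type*} [∀ v, AddCommGroup (Y v)] [∀ v, Module k (Y v)]

/-- the restricted total localisation map `S → ∏_v T v` -/
noncomputable def gw1Loc (f : ∀ v, X →ₗ[k] Y v) (S : Submodule k X) (T : ∀ v, Submodule k (Y v))
    (hST : ∀ v, ∀ x ∈ S, f v x ∈ T v) : ↥S →ₗ[k] ∀ v, ↥(T v) :=
  LinearMap.pi fun v => (f v).restrict (hST v)

omit [Fintype ι] in
lemma gw1Loc_apply (f : ∀ v, X →ₗ[k] Y v) (S : Submodule k X) (T : ∀ v, Submodule k (Y v))
    (hST : ∀ v, ∀ x ∈ S, f v x ∈ T v) (x : ↥S) (v : ι) :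
    gw1Loc f S T hST x v = ⟨f v x, hST v x x.2⟩ := rfl

/-- a subspace of a subspace has the dimension of its image in the ambient space -/
lemma gw1_finrank_map_subtype (S : Submodule k X) (N : Submodule k ↥S) :
    finrank k ↥(N.map S.subtype) = finrank k ↥N :=
  (Submodule.equivMapOfInjective S.subtype (Submodule.injective_subtype S) N).finrank_eq.symm

omit [Fintype ι] in
/-- the Selmer group inside `S` as a subspace of the ambient space -/
lemma gw1_finrank_sel (f : ∀ v, X →ₗ[k] Y v) (S : Submodule k X) (T : ∀ v, Submodule k (Y v))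
    (hST : ∀ v, ∀ x ∈ S, f v x ∈ T v) (L : ∀ v, Submodule k (Y v)) :
    finrank k ↥((Submodule.pi Set.univ fun v => (L v).comap (T v).subtype).comap
        (gw1Loc f S T hST)) =
      finrank k ↥(S ⊓ ⨅ v, (L v).comap (f v)) := by
  have hmap : ((Submodule.pi Set.univ fun v => (L v).comap (T v).subtype).comap
      (gw1Loc f S T hST)).map S.subtype = S ⊓ ⨅ v, (L v).comap (f v) := by
    ext x
    simp only [Submodule.mem_map, Submodule.mem_comap, Submodule.mem_pi, Submodule.mem_inf,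
      Submodule.mem_iInf, Submodule.subtype_apply]
    constructor
    · rintro ⟨⟨x, hx⟩, h, rfl⟩
      exact ⟨hx, fun v => h v (Set.mem_univ v)⟩
    · rintro ⟨hx, h⟩
      exact ⟨⟨x, hx⟩, fun v _ => h v, rfl⟩
  rw [← gw1_finrank_map_subtype S, hmap]

omit [Fintype ι] in
/-- the kernel of localisation inside `S` as a subspace of the ambient space -/
lemma gw1_finrank_ker (f : ∀ v, X →ₗ[k] Y v) (S : Submodule k X) (T : ∀ v, Submodule k (Y v))
    (hST : ∀ v, ∀ x ∈ S, f v x ∈ T v) :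
    finrank k ↥(LinearMap.ker (gw1Loc f S T hST)) =
      finrank k ↥(S ⊓ LinearMap.ker (LinearMap.pi f)) := by
  have hmap : (LinearMap.ker (gw1Loc f S T hST)).map S.subtype =
      S ⊓ LinearMap.ker (LinearMap.pi f) := by
    ext x
    simp only [Submodule.mem_map, LinearMap.mem_ker, Submodule.mem_inf, Submodule.subtype_apply]
    constructor
    · rintro ⟨⟨x, hx⟩, h, rfl⟩
      refine ⟨hx, ?_⟩
      funext v
      have := congrFun h v
      rw [gw1Loc_apply] at this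
      exact congrArg Subtype.val this
    · rintro ⟨hx, h⟩
      refine ⟨⟨x, hx⟩, ?_, rfl⟩
      funext v
      rw [gw1Loc_apply]
      apply Subtype.ext
      exact congrFun h v
  rw [← gw1_finrank_map_subtype S, hmap]

variable {X' : Type*} [AddCommGroup X'] [Module k X']
  {Y' : ι → Type*} [∀ v, AddCommGroup (Y' v)] [∀ v, Module k (Y' v)]

/-- **F-gw1, abstract form**: `dim Sel_L + dim S' ≤ dim Ш + Σ_v dim L_v + dim Sel_{L'}`. -/
theorem gw1_abstract (f : ∀ v, X →ₗ[k] Y v) (f' : ∀ v, X' →ₗ[k] Y' v)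
    (S : Submodule k X) (S' : Submodule k X')
    (T : ∀ v, Submodule k (Y v)) (T' : ∀ v, Submodule k (Y' v))
    (hST : ∀ v, ∀ x ∈ S, f v x ∈ T v) (hST' : ∀ v, ∀ x ∈ S', f' v x ∈ T' v)
    [FiniteDimensional k ↥S] [FiniteDimensional k ↥S']
    [∀ v, FiniteDimensional k ↥(T v)] [∀ v, FiniteDimensional k ↥(T' v)]
    (Bv : ∀ v, ↥(T v) →ₗ[k] ↥(T' v) →ₗ[k] k)
    (hBl : ∀ v, ∀ x, (∀ y, Bv v x y = 0) → x = 0)
    (hBr : ∀ v, ∀ y, (∀ x, Bv v x y = 0) → y = 0)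
    (hrec : ∀ (x : ↥S) (y : ↥S'),
      ∑ v, Bv v ⟨f v x, hST v x x.2⟩ ⟨f' v y, hST' v y y.2⟩ = 0)
    (L : ∀ v, Submodule k (Y v)) (L' : ∀ v, Submodule k (Y' v)) (hL : ∀ v, L v ≤ T v)
    (hperp : ∀ v (y : ↥(T' v)), (y : Y' v) ∈ L' v ↔
      ∀ x : ↥(T v), (x : Y v) ∈ L v → Bv v x y = 0) :
    finrank k ↥(S ⊓ ⨅ v, (L v).comap (f v)) + finrank k ↥S' ≤
      finrank k ↥(S ⊓ LinearMap.ker (LinearMap.pi f)) + (∑ v, finrank k ↥(L v)) +
        finrank k ↥(S' ⊓ ⨅ v, (L' v).comap (f' v)) := by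
  classical
  have hrec' : ∀ x y, gwPiPair Bv (gw1Loc f S T hST x) (gw1Loc f' S' T' hST' y) = 0 := by
    intro x y
    rw [gw_piPair_apply]
    exact hrec x y
  have main := gw_selmer_le (gw1Loc f S T hST) (gw1Loc f' S' T' hST') (gwPiPair Bv)
    (gw_piPair_left Bv hBl) (gw_piPair_right Bv hBr) hrec'
    (Submodule.pi Set.univ fun v => (L v).comap (T v).subtype)
  have e1 := gw1_finrank_sel f S T hST L
  have e2 := gw1_finrank_ker f S T hST
  have e3 : finrank k ↥(Submodule.pi Set.univ fun v => (L v).comap (T v).subtype) =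
      ∑ v, finrank k ↥(L v) := by
    rw [gw_finrank_pi]
    refine Finset.sum_congr rfl fun v _ => ?_
    exact (Submodule.comapSubtypeEquivOfLe (hL v)).finrank_eq
  have e4 : gwPerp (gwPiPair Bv) (Submodule.pi Set.univ fun v => (L v).comap (T v).subtype) =
      Submodule.pi Set.univ fun v => (L' v).comap (T' v).subtype := by
    rw [gw_perp_pi]
    congr 1
    funext v
    ext y
    rw [gw_mem_perp, Submodule.mem_comap]
    exact (hperp v y).symm
  have e5 := gw1_finrank_sel f' S' T' hST' L'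
  rw [e4, e5, e1, e2, e3] at main
  exact main

end Abs

end Fermat.Agent.TW.F


end ZBTW_029_0

/-! ### bundled: `Fermat.Agent.TW.F.GW1` -/
section ZBTW_029_1
/-
TW-F, piece F-gw1 (helper9), part 2: the first half of Greenberg–Wiles,
`dim Sel_L(A) + h¹(B) ≤ dim Ш¹(A) + Σ_v dim L_v + dim Sel_{L^⊥}(B)`,
from reciprocity (F-rec), the local pairings (F-pair), local Tate duality (F-locRight/F-locLeft),
finiteness (F-fin, F-glofin) and the cochain calculus (F-cup).  Linear algebra: `gw1_abstract`.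
-/

set_option autoImplicit false

noncomputable section

namespace Fermat.Agent.TW.F

open CategoryTheory groupCohomology Module Fermat.Agent.PT Fermat.Agent.PT.F

section

variable {p : ℕ} [Fact p.Prime] {G : Type} [Group G] {ι : Type} {Gloc : ι → Type}
  [∀ v, Group (Gloc v)] (D : PTDatum p G ι Gloc)

/-- localisation maps level classes to level classes -/
theorem gw1_loc_mem (A : Rep.{0} (ZMod p) G) (v : ι) (x : H1 A) (hx : x ∈ levH1 D.𝒯 A) :
    (locRes D.r A v).hom x ∈ locH1 D A v := by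
  obtain ⟨c, hc, rfl⟩ := (mem_levH1_iff _ _ _).1 hx
  rw [Asm.locRes_H1π]
  refine (mem_levH1_iff _ _ _).2 ⟨mapCocycles₁ (D.r v) (𝟙 (Rep.res (D.r v) A)) c, ?_, rfl⟩
  exact IsLevel₁.precomp D.𝒯 (D.𝒯loc v) (D.r v) (D.comap_mem v) hc

/-- the local cup product of level cocycles is a level cocycle -/
theorem gw1_cup_mem (hC : StmtCupBasic) {A B : Rep.{0} (ZMod p) G} (P : DualPair D.χ A B)
    (hA : TrivOnLevel D.𝒯 A) (hB : TrivOnLevel D.𝒯 B) (v : ι)
    (x : Gloc v → A.V) (y : Gloc v → B.V) (hx : x ∈ cocycles₁ (Rep.res (D.r v) A))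
    (hy : y ∈ cocycles₁ (Rep.res (D.r v) B)) (hlx : IsLevel₁ (D.𝒯loc v) x)
    (hly : IsLevel₁ (D.𝒯loc v) y) :
    cupLoc D P v x y ∈ levCocycles₂ (D.𝒯loc v) (D.Jloc v) :=
  (hC p (Gloc v) (D.𝒯loc v) (D.χ.comp (D.r v)) (Rep.res (D.r v) A) (Rep.res (D.r v) B)
    (P.res (D.r v)) (D.Jloc v) (zetaLoc D v) (flr_isKummer D v) (fpair_trivOnLevel D A hA v)
    (fpair_trivOnLevel D B hB v)).1 x y hx hy hlx hly

/-- the class of a local cup product is killed by `p` -/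
theorem gw1_cup_tors (hC : StmtCupBasic) {A B : Rep.{0} (ZMod p) G} (P : DualPair D.χ A B)
    (hA : TrivOnLevel D.𝒯 A) (hB : TrivOnLevel D.𝒯 B) (v : ι)
    (w : ↥(levCocycles₂ (D.𝒯loc v) (D.Jloc v))) (x : Gloc v → A.V) (y : Gloc v → B.V)
    (hw : (w : Gloc v × Gloc v → (D.Jloc v).V) = cupLoc D P v x y) :
    levH2π (D.𝒯loc v) (D.Jloc v) w ∈ pTors p (levH2 (D.𝒯loc v) (D.Jloc v)) := by
  have h6 := (hC p (Gloc v) (D.𝒯loc v) (D.χ.comp (D.r v)) (Rep.res (D.r v) A)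
    (Rep.res (D.r v) B) (P.res (D.r v)) (D.Jloc v) (zetaLoc D v) (flr_isKummer D v)
    (fpair_trivOnLevel D A hA v) (fpair_trivOnLevel D B hB v)).2.2.2.2.2 x y
  rw [mem_pTors, ← map_nsmul]
  apply (levH2π_eq_zero_iff (D.𝒯loc v) (D.Jloc v) _).2
  show p • (w : Gloc v × Gloc v → (D.Jloc v).V) ∈ levCoboundaries₂ (D.𝒯loc v) (D.Jloc v)
  rw [hw]
  have h6' : p • cupLoc D P v x y = 0 := h6
  rw [h6']
  exact zero_mem _

/-- the local pairing of two classes vanishes iff the cup product of representatives is a level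
coboundary (injectivity of `λ_v`) -/
theorem gw1_key (hC : StmtCupBasic)
    (lam : ∀ v, ↥(pTors p (levH2 (D.𝒯loc v) (D.Jloc v))) →+ ZMod p)
    (hlam : ∀ v, Function.Injective (lam v))
    {A B : Rep.{0} (ZMod p) G} (P : DualPair D.χ A B)
    (hA : TrivOnLevel D.𝒯 A) (hB : TrivOnLevel D.𝒯 B) (v : ι)
    (Bv : ↥(locH1 D A v) →ₗ[ZMod p] ↥(locH1 D B v) →ₗ[ZMod p] ZMod p)
    (hBv : ∀ (cx : cocycles₁ (Rep.res (D.r v) A)) (cy : cocycles₁ (Rep.res (D.r v) B))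
        (hx : IsLevel₁ (D.𝒯loc v) (cx : Gloc v → A.V))
        (hy : IsLevel₁ (D.𝒯loc v) (cy : Gloc v → B.V))
        (w : ↥(levCocycles₂ (D.𝒯loc v) (D.Jloc v)))
        (_ : (w : Gloc v × Gloc v → (D.Jloc v).V) = cupLoc D P v cx cy)
        (hp : levH2π (D.𝒯loc v) (D.Jloc v) w ∈ pTors p (levH2 (D.𝒯loc v) (D.Jloc v))),
        Bv ⟨(H1π _).hom cx, (mem_levH1_iff _ _ _).2 ⟨cx, hx, rfl⟩⟩
            ⟨(H1π _).hom cy, (mem_levH1_iff _ _ _).2 ⟨cy, hy, rfl⟩⟩ =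
          lam v ⟨levH2π (D.𝒯loc v) (D.Jloc v) w, hp⟩)
    (cx : cocycles₁ (Rep.res (D.r v) A)) (cy : cocycles₁ (Rep.res (D.r v) B))
    (hx : IsLevel₁ (D.𝒯loc v) (cx : Gloc v → A.V))
    (hy : IsLevel₁ (D.𝒯loc v) (cy : Gloc v → B.V)) :
    Bv ⟨(H1π _).hom cx, (mem_levH1_iff _ _ _).2 ⟨cx, hx, rfl⟩⟩
        ⟨(H1π _).hom cy, (mem_levH1_iff _ _ _).2 ⟨cy, hy, rfl⟩⟩ = 0 ↔
      cupLoc D P v cx cy ∈ levCoboundaries₂ (D.𝒯loc v) (D.Jloc v) := by
  have hw : cupLoc D P v cx cy ∈ levCocycles₂ (D.𝒯loc v) (D.Jloc v) :=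
    gw1_cup_mem D hC P hA hB v cx cy cx.2 cy.2 hx hy
  have hp := gw1_cup_tors D hC P hA hB v ⟨_, hw⟩ cx cy rfl
  rw [hBv cx cy hx hy ⟨_, hw⟩ rfl hp]
  constructor
  · intro h
    have h0 : (⟨levH2π (D.𝒯loc v) (D.Jloc v) ⟨_, hw⟩, hp⟩ :
        ↥(pTors p (levH2 (D.𝒯loc v) (D.Jloc v)))) = 0 :=
      hlam v (by rw [h, map_zero])
    exact (levH2π_eq_zero_iff (D.𝒯loc v) (D.Jloc v) ⟨_, hw⟩).1 (congrArg Subtype.val h0)
  · intro h
    have h0 : (⟨levH2π (D.𝒯loc v) (D.Jloc v) ⟨_, hw⟩, hp⟩ :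
        ↥(pTors p (levH2 (D.𝒯loc v) (D.Jloc v)))) = 0 :=
      Subtype.ext ((levH2π_eq_zero_iff (D.𝒯loc v) (D.Jloc v) ⟨_, hw⟩).2 h)
    rw [h0, map_zero]

end

/-- **F-gw1** from its inputs. -/
theorem stmtGW1_of (hRec : StmtRec) (hPair : StmtLocPair) (hR : StmtLocRight)
    (hL : StmtLocLeft) (hFin : StmtLocFin) (hGF : StmtGloFin) (hC : StmtCupBasic) :
    StmtGW1 := by
  intro p _ G _ ι _ Gloc _ D hLE A B _ _ P hA hB L L' hLle hPerp
  classical
  obtain ⟨lam, hlam, hrec⟩ := hRec p G ι Gloc D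
  choose Bv hBv using hPair p G ι Gloc D lam A B P hA hB
  -- finiteness
  have : Finite ↥(levH1 D.𝒯 A) := hGF p G ι Gloc D A hA
  have : Finite ↥(levH1 D.𝒯 B) := hGF p G ι Gloc D B hB
  have : ∀ v, Finite ↥(locH1 D A v) := hFin p G ι Gloc D hLE A hA
  have : ∀ v, Finite ↥(locH1 D B v) := hFin p G ι Gloc D hLE B hB
  have : FiniteDimensional (ZMod p) ↥(levH1 D.𝒯 A) := Module.Finite.of_finite
  have : FiniteDimensional (ZMod p) ↥(levH1 D.𝒯 B) := Module.Finite.of_finite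
  have : ∀ v, FiniteDimensional (ZMod p) ↥(locH1 D A v) := fun v => Module.Finite.of_finite
  have : ∀ v, FiniteDimensional (ZMod p) ↥(locH1 D B v) := fun v => Module.Finite.of_finite
  -- the key equivalence
  have key := fun v => gw1_key D hC lam hlam P hA hB v (Bv v) (hBv v)
  -- representatives
  have repA : ∀ v (x : ↥(locH1 D A v)), ∃ (cx : cocycles₁ (Rep.res (D.r v) A))
      (hx : IsLevel₁ (D.𝒯loc v) (cx : Gloc v → A.V)),
      x = ⟨(H1π _).hom cx, (mem_levH1_iff _ _ _).2 ⟨cx, hx, rfl⟩⟩ := by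
    intro v x
    obtain ⟨c, hc, hcx⟩ := (mem_levH1_iff _ _ _).1 x.2
    exact ⟨c, hc, Subtype.ext hcx.symm⟩
  have repB : ∀ v (y : ↥(locH1 D B v)), ∃ (cy : cocycles₁ (Rep.res (D.r v) B))
      (hy : IsLevel₁ (D.𝒯loc v) (cy : Gloc v → B.V)),
      y = ⟨(H1π _).hom cy, (mem_levH1_iff _ _ _).2 ⟨cy, hy, rfl⟩⟩ := by
    intro v y
    obtain ⟨c, hc, hcy⟩ := (mem_levH1_iff _ _ _).1 y.2
    exact ⟨c, hc, Subtype.ext hcy.symm⟩
  -- nondegeneracy
  have hBl : ∀ v, ∀ x, (∀ y, Bv v x y = 0) → x = 0 := by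
    intro v x hx
    obtain ⟨cx, hlx, rfl⟩ := repA v x
    have h1 : (cx : Gloc v → A.V) ∈ coboundaries₁ (Rep.res (D.r v) A) := by
      refine hL p G ι Gloc D A B P hA hB v cx cx.2 hlx ?_
      intro y hy hly
      exact (key v cx ⟨y, hy⟩ hlx hly).1 (hx _)
    exact Subtype.ext ((H1π_eq_zero_iff cx).2 h1)
  have hBr : ∀ v, ∀ y, (∀ x, Bv v x y = 0) → y = 0 := by
    intro v y hy
    obtain ⟨cy, hly, rfl⟩ := repB v y
    have h1 : (cy : Gloc v → B.V) ∈ coboundaries₁ (Rep.res (D.r v) B) := by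
      refine hR p G ι Gloc D A B P hA hB v cy cy.2 hly ?_
      intro x hx hlx
      exact (key v ⟨x, hx⟩ cy hlx hly).1 (hy _)
    exact Subtype.ext ((H1π_eq_zero_iff cy).2 h1)
  -- reciprocity
  have hrec' : ∀ (x : ↥(levH1 D.𝒯 A)) (y : ↥(levH1 D.𝒯 B)),
      ∑ v, Bv v ⟨(locRes D.r A v).hom x, gw1_loc_mem D A v x x.2⟩
        ⟨(locRes D.r B v).hom y, gw1_loc_mem D B v y y.2⟩ = 0 := by
    intro x y
    obtain ⟨cx, hlx, hcx⟩ := (mem_levH1_iff _ _ _).1 x.2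
    obtain ⟨cy, hly, hcy⟩ := (mem_levH1_iff _ _ _).1 y.2
    have hlx' : ∀ v, IsLevel₁ (D.𝒯loc v)
        (mapCocycles₁ (D.r v) (𝟙 (Rep.res (D.r v) A)) cx : Gloc v → A.V) := fun v =>
      IsLevel₁.precomp D.𝒯 (D.𝒯loc v) (D.r v) (D.comap_mem v) hlx
    have hly' : ∀ v, IsLevel₁ (D.𝒯loc v)
        (mapCocycles₁ (D.r v) (𝟙 (Rep.res (D.r v) B)) cy : Gloc v → B.V) := fun v =>
      IsLevel₁.precomp D.𝒯 (D.𝒯loc v) (D.r v) (D.comap_mem v) hly
    have hw : ∀ v, cupLoc D P v (resOne D v (cx : G → A.V)) (resOne D v (cy : G → B.V)) ∈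
        levCocycles₂ (D.𝒯loc v) (D.Jloc v) := fun v =>
      gw1_cup_mem D hC P hA hB v _ _
        (mapCocycles₁ (D.r v) (𝟙 (Rep.res (D.r v) A)) cx).2
        (mapCocycles₁ (D.r v) (𝟙 (Rep.res (D.r v) B)) cy).2 (hlx' v) (hly' v)
    have hp : ∀ v, levH2π (D.𝒯loc v) (D.Jloc v) ⟨_, hw v⟩ ∈
        pTors p (levH2 (D.𝒯loc v) (D.Jloc v)) := fun v =>
      gw1_cup_tors D hC P hA hB v ⟨_, hw v⟩ _ _ rfl
    have h0 := hrec A B P hA hB cx cy cx.2 cy.2 hlx hly (fun v => ⟨_, hw v⟩) (fun v => rfl) hp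
    rw [← h0]
    refine Finset.sum_congr rfl fun v _ => ?_
    have ex : (⟨(locRes D.r A v).hom x, gw1_loc_mem D A v x x.2⟩ : ↥(locH1 D A v)) =
        ⟨(H1π _).hom (mapCocycles₁ (D.r v) (𝟙 (Rep.res (D.r v) A)) cx),
          (mem_levH1_iff _ _ _).2 ⟨_, hlx' v, rfl⟩⟩ := by
      apply Subtype.ext
      show (locRes D.r A v).hom x = _
      rw [← hcx, Asm.locRes_H1π]
    have ey : (⟨(locRes D.r B v).hom y, gw1_loc_mem D B v y y.2⟩ : ↥(locH1 D B v)) =
        ⟨(H1π _).hom (mapCocycles₁ (D.r v) (𝟙 (Rep.res (D.r v) B)) cy),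
          (mem_levH1_iff _ _ _).2 ⟨_, hly' v, rfl⟩⟩ := by
      apply Subtype.ext
      show (locRes D.r B v).hom y = _
      rw [← hcy, Asm.locRes_H1π]
    rw [ex, ey]
    exact hBv v _ _ (hlx' v) (hly' v) ⟨_, hw v⟩ rfl (hp v)
  -- the annihilators
  have hperp : ∀ v (y : ↥(locH1 D B v)), (y : H1 (Rep.res (D.r v) B)) ∈ L' v ↔
      ∀ x : ↥(locH1 D A v), (x : H1 (Rep.res (D.r v) A)) ∈ L v → Bv v x y = 0 := by
    intro v y
    rw [hPerp v (y : H1 (Rep.res (D.r v) B))]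
    constructor
    · rintro ⟨-, h⟩ x hx
      obtain ⟨cx, hlx, rfl⟩ := repA v x
      obtain ⟨cy, hly, rfl⟩ := repB v y
      exact (key v cx cy hlx hly).2
        (h _ hx ((mem_levH1_iff _ _ _).2 ⟨cx, hlx, rfl⟩) cx cy hlx hly rfl rfl)
    · intro h
      refine ⟨y.2, fun x hx hxl cx cy hlx hly hcx hcy => ?_⟩
      have h1 := h ⟨x, hxl⟩ hx
      have ex : (⟨x, hxl⟩ : ↥(locH1 D A v)) =
          ⟨(H1π _).hom cx, (mem_levH1_iff _ _ _).2 ⟨cx, hlx, rfl⟩⟩ := Subtype.ext hcx.symm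
      have ey : y = ⟨(H1π _).hom cy, (mem_levH1_iff _ _ _).2 ⟨cy, hly, rfl⟩⟩ :=
        Subtype.ext hcy.symm
      rw [ex, ey] at h1
      exact (key v cx cy hlx hly).1 h1
  exact gw1_abstract (fun v => (locRes D.r A v).hom) (fun v => (locRes D.r B v).hom)
    (levH1 D.𝒯 A) (levH1 D.𝒯 B) (fun v => locH1 D A v) (fun v => locH1 D B v)
    (fun v x hx => gw1_loc_mem D A v x hx) (fun v y hy => gw1_loc_mem D B v y hy)
    Bv hBl hBr hrec' L L' hLle hperp

end Fermat.Agent.TW.F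

end


end ZBTW_029_1
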