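/- GENERATED FILE (helper35, build-time optimisation, NOTES/ZB.md): verbatim concatenation of the modules
   Fermat.Agent.TW.E.K0Plan
   Fermat.Agent.TW.E.Plan
   Fermat.Agent.TW.E.Plan3
   Fermat.Agent.TW.Core.Plan
   Fermat.Agent.RT.K3.Plan
   Fermat.Agent.TW.Core.Asm
   Fermat.Agent.RT.K3.Count
   Fermat.Agent.RT.K3.Asm
   Fermat.Agent.TW.S.ResStrict
   Fermat.Agent.TW.S.AdLevel
   Fermat.Agent.TW.S.AdRank
   Fermat.Agent.TW.L.ArchDual
   Fermat.Agent.TW.F.Perp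
   Fermat.Agent.TW.E.PDepthTower
   Fermat.Agent.TW.Core.Final
   Fermat.Agent.TW.F.PlanH2Perm
   Fermat.Agent.TW.E.ChaseLift
   Fermat.Agent.TW.F.H2pSeedPair
   Fermat.Agent.TW.E.In1Perm
   Fermat.Agent.TW.F.H2pExact
   Fermat.Agent.TW.F.H2pAsm
   Fermat.Agent.TW.F.H2pMul
   Fermat.Agent.TW.F.H2pWtr
   Fermat.Agent.TW.F.H2pGlue
   Fermat.Agent.TW.F.H2pSeedMod
   Fermat.Agent.TW.F.H2pProj
   Fermat.Agent.TW.E.BrJLocPlan
   Do not edit; do not import together with these modules. -/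
import Mathlib
import Fermat.Agent.ZB.PT_002
import Fermat.Agent.ZB.TW_006
import Fermat.Agent.ZB.PT_009
import Fermat.Prelude.Def_GaloisRep_ComplexConjugation
import Fermat.Agent.ZB.TW_007
import Fermat.Agent.ZB.TW_001
import Fermat.Agent.ZB.TW_012
import Fermat.Agent.ZB.TW_013
import Fermat.Agent.ZB.PT_003
import Fermat.Agent.ZB.PT_011
import Fermat.Agent.ZB.TW_027
import Fermat.Agent.ZB.PT_033
import Fermat.Agent.ZB.PT_035
import Fermat.Agent.ZB.TW_010
import Fermat.Agent.ZB.S33_002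
import Fermat.Agent.ZB.TW_008
import Fermat.Agent.ZB.TW_020
import Fermat.Agent.ZB.TW_030
import Fermat.Agent.ZB.PT_046
import Fermat.Agent.ZB.PT_084
import Fermat.Agent.ZB.PT_069
import Fermat.Agent.ZB.PT_031
import Fermat.Agent.ZB.PT_042
import Fermat.Agent.ZB.PT_034
import Fermat.Agent.ZB.PT_022

/-! ### bundled: `Fermat.Agent.TW.E.K0Plan` -/
section ZBTW_014_0

/-!
# TW-E / E-K0 : Artin induction modulo `p` for additive functions  (INTERFACE)

Mathlib-only.  Goal (`StmtK0`): if `φ : Rep (ZMod p) Γ → ℤ` (`Γ` a finite group) is invariant under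
isomorphism and additive on short exact sequences of finite-dimensional representations, and
`φ` vanishes on every representation coinduced from a cyclic subgroup of order prime to `p`,
then `φ` vanishes on every finite-dimensional representation.

Consumer: TW-E (global Euler characteristic formula), with
`φ B = χ(G_S, B) - h⁰(G_ℝ, B) + dim B`.

Pieces (each a `Prop` below; see `NOTES/TW-E-K0.md` for the table of owners):

* `StmtJH`         (K1a) Jordan–Hölder multiplicities with values of additive functions and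
                   characteristic polynomials;
* `StmtTraceIndep` (K1b) traces of pairwise non-isomorphic simple representations are
                   linearly independent *with a unit on the diagonal* (Jacobson density,
                   little Wedderburn, surjectivity of the trace of finite fields);
* `StmtDescent`    (K1d) pure polynomial algebra: the `p`-adic descent;
* `StmtBN`         (K1)  Brauer–Nesbitt;
* `StmtPermCharpoly` (K2) characteristic polynomial of a permutation representation is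
                   determined by the numbers of fixed points of the powers;
* `StmtMarks`      (K3) Artin's induction theorem on `p`-regular elements, for marks;
* `StmtHomPerm`    (K4) `ψ = φ (B ⊗ -)` (or `φ (Hom(-, B))`);
* `StmtSigmaAdd`   (K5) additive functions on permutation representations of disjoint unions.
-/

namespace Fermat.Agent.TW.E

open CategoryTheory

/-- An isomorphism-invariant function on `Rep k Γ` which is additive on short exact sequences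
with finite-dimensional middle term. -/
structure IsAddFun {k Γ : Type} [Field k] [Group Γ] (φ : Rep.{0} k Γ → ℤ) : Prop where
  iso : ∀ M N : Rep.{0} k Γ, Nonempty (M ≅ N) → φ M = φ N
  add : ∀ (M' M M'' : Rep.{0} k Γ) (f : M' ⟶ M) (g : M ⟶ M''), Module.Finite k M.V →
    Function.Injective f.hom → Function.Surjective g.hom → Function.Exact f.hom g.hom →
    φ M = φ M' + φ M''

/-- The characteristic polynomial of `g` acting on `M` (`1` if `M` is not finite-dimensional). -/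
noncomputable def repCharpoly {k Γ : Type} [Field k] [Group Γ] (M : Rep.{0} k Γ) (g : Γ) :
    Polynomial k :=
  open Classical in
  if h : Module.Finite k M.V then @LinearMap.charpoly k M.V _ _ _ _ h (M.ρ g) else 1

/-- Finite-dimensional irreducible representations. -/
def IsSimpleRep {k Γ : Type} [Field k] [Group Γ] (M : Rep.{0} k Γ) : Prop :=
  Module.Finite k M.V ∧ Representation.IsIrreducible M.ρ

/-- The chosen representative of the isomorphism class of `M`. -/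
noncomputable def canonRep {k Γ : Type} [Field k] [Group Γ] (M : Rep.{0} k Γ) : Rep.{0} k Γ :=
  (Quotient.mk (isIsomorphicSetoid (Rep.{0} k Γ)) M).out

/-- The simple representations which are the chosen representatives of their classes. -/
def SimpleCanon (k Γ : Type) [Field k] [Group Γ] : Type 1 :=
  {M : Rep.{0} k Γ // IsSimpleRep M ∧ canonRep M = M}

/-! ## The final statement -/

/-- **E-K0.** Artin induction modulo `p` for additive functions. -/
def StmtK0 : Prop :=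
  ∀ (p : ℕ) [Fact p.Prime] (Γ : Type) [Group Γ] [Finite Γ] (φ : Rep.{0} (ZMod p) Γ → ℤ),
    IsAddFun φ →
    (∀ C : Subgroup Γ, IsCyclic C → (Nat.card C).Coprime p →
      ∀ M : Rep.{0} (ZMod p) C, Module.Finite (ZMod p) M.V → φ (Rep.coind C.subtype M) = 0) →
    ∀ B : Rep.{0} (ZMod p) Γ, Module.Finite (ZMod p) B.V → φ B = 0

/-! ## K1 : Brauer–Nesbitt -/

/-- **K1.** Brauer–Nesbitt: two finite-dimensional representations over `𝔽_p` on which every
`p`-regular element has the same characteristic polynomial have the same value under every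
additive function. -/
def StmtBN : Prop :=
  ∀ (p : ℕ) [Fact p.Prime] (Γ : Type) [Group Γ] [Finite Γ] (φ : Rep.{0} (ZMod p) Γ → ℤ),
    IsAddFun φ → ∀ M N : Rep.{0} (ZMod p) Γ,
    Module.Finite (ZMod p) M.V → Module.Finite (ZMod p) N.V →
    (∀ g : Γ, (orderOf g).Coprime p → repCharpoly M g = repCharpoly N g) → φ M = φ N

/-- **K1a.** Jordan–Hölder multiplicities (any field, any group). -/
def StmtJH : Prop :=
  ∀ (k Γ : Type) [Field k] [Group Γ] (M : Rep.{0} k Γ), Module.Finite k M.V →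
    ∃ m : SimpleCanon k Γ →₀ ℕ,
      (∀ φ : Rep.{0} k Γ → ℤ, IsAddFun φ → φ M = m.sum fun S e => (e : ℤ) * φ S.1) ∧
      (∀ g : Γ, repCharpoly M g = m.prod fun S e => repCharpoly S.1 g ^ e)

/-- **K1b.** Independence of the traces of pairwise non-isomorphic simple representations of a
finite group over `𝔽_p`, with diagonal value `1`. -/
def StmtTraceIndep : Prop :=
  ∀ (p : ℕ) [Fact p.Prime] (Γ : Type) [Group Γ] [Fintype Γ] (ι : Type) [Finite ι]
    (T : ι → Rep.{0} (ZMod p) Γ), (∀ i, IsSimpleRep (T i)) →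
    (∀ i j, Nonempty (T i ≅ T j) → i = j) → ∀ i₀ : ι,
    ∃ a : Γ → ZMod p,
      (∑ g, a g * LinearMap.trace (ZMod p) (T i₀).V ((T i₀).ρ g) = 1) ∧
      ∀ i, i ≠ i₀ → ∑ g, a g * LinearMap.trace (ZMod p) (T i).V ((T i).ρ g) = 0

/-- **K1d.** The descent, pure polynomial algebra over `𝔽_p`. -/
def StmtDescent : Prop :=
  ∀ (p : ℕ) [Fact p.Prime] (G : Type) [Fintype G] (ι : Type 1)
    (P : ι → G → Polynomial (ZMod p)), (∀ i g, (P i g).Monic) →
    (∀ (F : Finset ι) (i₀ : ι), i₀ ∈ F → ∃ a : G → ZMod p,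
        (∑ g, a g * (P i₀ g).nextCoeff = 1) ∧
        ∀ i ∈ F, i ≠ i₀ → ∑ g, a g * (P i g).nextCoeff = 0) →
    ∀ m n : ι →₀ ℕ,
      (∀ g, (m.prod fun i e => P i g ^ e) = n.prod fun i e => P i g ^ e) → m = n

/-! ## K2, K3 : permutation representations and marks -/

/-- **K2.** The characteristic polynomial of `g` on a permutation representation only depends on
the numbers of fixed points of the powers of `g`. -/
def StmtPermCharpoly : Prop :=
  ∀ (k Γ : Type) [Field k] [Group Γ] (X Y : Type) [Finite X] [Finite Y]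
    [MulAction Γ X] [MulAction Γ Y] (g : Γ),
    (∀ e : ℕ, Nat.card (MulAction.fixedBy X (g ^ e)) = Nat.card (MulAction.fixedBy Y (g ^ e))) →
    repCharpoly (Rep.ofMulAction k Γ X) g = repCharpoly (Rep.ofMulAction k Γ Y) g

/-- **K3.** Artin induction for marks on `p`-regular elements: a positive multiple of the trivial
mark is an integral combination of the marks of `Γ ⧸ C`, `C` cyclic of order prime to `p`. -/
def StmtMarks : Prop :=
  ∀ (p : ℕ) [Fact p.Prime] (Γ : Type) [Group Γ] [Finite Γ],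
    ∃ (n : ℕ) (Cpos Cneg : List (Subgroup Γ)), 0 < n ∧
      (∀ C ∈ Cpos ++ Cneg, IsCyclic C ∧ (Nat.card C).Coprime p) ∧
      ∀ g : Γ, (orderOf g).Coprime p →
        n + (Cneg.map fun C => Nat.card (MulAction.fixedBy (Γ ⧸ C) g)).sum =
          (Cpos.map fun C => Nat.card (MulAction.fixedBy (Γ ⧸ C) g)).sum

/-! ## K4, K5 -/

/-- **K4.** For an additive `φ` and a finite-dimensional `B` there is an additive `ψ`
(`ψ M = φ (B ⊗ M)` or `φ (Hom_k(M, B))`) whose value on the permutation representation of `Γ ⧸ C`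
is `φ (coind_C^Γ res_C B)` and whose value on that of a point is `φ B`. -/
def StmtHomPerm : Prop :=
  ∀ (k Γ : Type) [Field k] [Group Γ] [Finite Γ] (φ : Rep.{0} k Γ → ℤ), IsAddFun φ →
    ∀ B : Rep.{0} k Γ, Module.Finite k B.V →
    ∃ ψ : Rep.{0} k Γ → ℤ, IsAddFun ψ ∧
      (∀ C : Subgroup Γ, ψ (Rep.ofMulAction k Γ (Γ ⧸ C)) =
        φ (Rep.coind C.subtype (Rep.res C.subtype B))) ∧
      ψ (Rep.ofMulAction k Γ (Γ ⧸ (⊤ : Subgroup Γ))) = φ B

/-- **K5.** An additive function on the permutation representation of a finite disjoint union of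
finite `Γ`-sets is the sum of its values on the pieces. -/
def StmtSigmaAdd : Prop :=
  ∀ (k Γ : Type) [Field k] [Group Γ] (ψ : Rep.{0} k Γ → ℤ), IsAddFun ψ →
    ∀ (ι : Type) [Fintype ι] (X : ι → Type) [∀ i, Finite (X i)] [∀ i, MulAction Γ (X i)],
      ψ (Rep.ofMulAction k Γ (Σ i, X i)) = ∑ i, ψ (Rep.ofMulAction k Γ (X i))

end Fermat.Agent.TW.E


end ZBTW_014_0

/-! ### bundled: `Fermat.Agent.TW.E.Plan` -/
section ZBTW_014_1
/-
Project TW (S56, captain helper63) — part TW-E (sub-captain helper69):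
THE GLOBAL EULER CHARACTERISTIC.   INTERFACE FILE 1: block E-add (χ is additive).
Definitions and statements only.  Mathematics and piece table: NOTES/TW-E.md.

Target of TW-E (file Plan3.lean): for the concrete datum, every finite `𝔽_p[G_{ℚ,S}]`-module `B`:
  `h⁰(B) + h²_lev(B) + dim B = h¹_lev(B) + dim B^{c}`   (`c` = complex conjugation).
Route (Tate): (1) `χ = h⁰ - h¹ + h²` is ADDITIVE in short exact sequences [this file];
(2) Artin induction mod `p` (`stmtK0`, DONE, TW/E/K0Final.lean); (3) the formula for modules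
coinduced from subgroups of order prime to `p` [Plan2.lean].

Block E-add.  Everything is stated on cochain FUNCTIONS with values in `Hom_ℤ(M, Y) = (M.V →+ Y.V)`,
`M = ℤ[Ω]` a permutation lattice (`Ω` a finite `G`-set on which a level acts trivially), exactly as
the inputs `In1 … In4` of PT/F/SeqPlan.lean (`conjAdd`, `dZero`, `dOne`).
A piece `X` is DONE when `theorem stmtX : StmtX` (or `stmtX_of : … → StmtX`) is landed in its own
file `Fermat/Agent/TW/E/<File>.lean`, namespace `Fermat.Agent.TW.E`, sorry-free, names prefixed.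
-/

set_option autoImplicit false

noncomputable section

namespace Fermat.Agent.TW.E

open CategoryTheory groupCohomology Module Fermat.Agent.PT Fermat.Agent.PT.F Fermat.Agent.TW.F

/-! ### Degree 3 -/

section Defs

variable {G : Type} [Group G]

/-- `f : G × G × G → X` is right-invariant (in all variables) under some member of the tower. -/
def IsLevel₃ (𝒯 : Tower G) {X : Type*} (f : G × G × G → X) : Prop :=
  ∃ U ∈ 𝒯.lev, ∀ g g' g'' s s' s'' : G, s ∈ U → s' ∈ U → s'' ∈ U →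
    f (g * s, g' * s', g'' * s'') = f (g, g', g'')

/-- The coboundary of a 2-cochain with values in `Hom_ℤ(M, Y)`:
`(σ, τ, ρ) ↦ σ y(τ, ρ) σ⁻¹ - y(στ, ρ) + y(σ, τρ) - y(σ, τ)`. -/
def dTwo (M Y : Rep.{0} ℤ G) (y : G × G → (M.V →+ Y.V)) (s : G × G × G) : M.V →+ Y.V :=
  conjAdd M Y s.1 (y (s.2.1, s.2.2)) - y (s.1 * s.2.1, s.2.2) + y (s.1, s.2.1 * s.2.2)
    - y (s.1, s.2.1)

/-- The coboundary of a 3-cochain with values in `Hom_ℤ(M, Y)`:
`(σ, τ, ρ, κ) ↦ σ z(τ, ρ, κ) σ⁻¹ - z(στ, ρ, κ) + z(σ, τρ, κ) - z(σ, τ, ρκ) + z(σ, τ, ρ)`. -/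
def dThree (M Y : Rep.{0} ℤ G) (z : G × G × G → (M.V →+ Y.V)) (s : G × G × G × G) :
    M.V →+ Y.V :=
  conjAdd M Y s.1 (z (s.2.1, s.2.2.1, s.2.2.2)) - z (s.1 * s.2.1, s.2.2.1, s.2.2.2)
    + z (s.1, s.2.1 * s.2.2.1, s.2.2.2) - z (s.1, s.2.1, s.2.2.1 * s.2.2.2)
    + z (s.1, s.2.1, s.2.2.1)

/-- The coboundary of a 3-cochain with values in a representation. -/
def dThreeRep {k : Type} [CommRing k] (A : Rep.{0} k G) (z : G × G × G → A.V)
    (s : G × G × G × G) : A.V :=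
  A.ρ s.1 (z (s.2.1, s.2.2.1, s.2.2.2)) - z (s.1 * s.2.1, s.2.2.1, s.2.2.2)
    + z (s.1, s.2.1 * s.2.2.1, s.2.2.2) - z (s.1, s.2.1, s.2.2.1 * s.2.2.2)
    + z (s.1, s.2.1, s.2.2.1)

/-- A finite `G`-set on which some level acts trivially. -/
def IsLevSet (𝒯 : Tower G) (Ω : Type) [MulAction G Ω] : Prop :=
  ∃ U ∈ 𝒯.lev, ∀ s ∈ U, ∀ ω : Ω, s • ω = ω

/-- The permutation lattice `ℤ[Ω]`. -/
abbrev permZ (G : Type) [Group G] (Ω : Type) [MulAction G Ω] : Rep.{0} ℤ G :=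
  Rep.ofMulAction ℤ G Ω

end Defs

section Datum

variable {p : ℕ} {G : Type} [Group G] {ι : Type} {Gloc : ι → Type} [∀ v, Group (Gloc v)]

/-- **(HasPDepthGlob)** the NEW datum hypothesis of TW-E: below every GLOBAL level there is a
normal GLOBAL level whose LOCAL index at `v` is divisible by `p`, for every `v`.
(Not to be confused with `Fermat.Agent.TW.F.HasPDepth` of TW/F/PlanH2.lean, which speaks about the
BIG local towers `𝒯loc v`; both hold for the concrete datum, see `StmtPDepthTower` in Plan3.lean.)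
(Concretely: the cyclotomic `ℤ_p`-extension of `ℚ` is unramified outside `p ∈ S` and no prime
splits completely in it.) -/
def HasPDepthGlob (D : PTDatum p G ι Gloc) : Prop :=
  ∀ (v : ι), ∀ U ∈ D.𝒯.lev, ∃ U' ∈ D.𝒯.lev, U' ≤ U ∧ U'.Normal ∧
    p ∣ (U'.comap (D.r v)).relIndex (U.comap (D.r v))

/-- **(In5)** `H³_lev(G, Hom_ℤ(M, J))` has no `p`-torsion: a level 3-cocycle killed by `p` is the
coboundary of a level 2-cochain, up to a multiple prime to `p`. -/
def In5 (D : PTDatum p G ι Gloc) (M : Rep.{0} ℤ G) : Prop :=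
  ∀ z : G × G × G → (M.V →+ (PTJ D).V), IsLevel₃ D.𝒯 z → (∀ s, dThree M (PTJ D) z s = 0) →
    (∀ s, p • z s = 0) →
    ∃ n : ℕ, ¬ p ∣ n ∧ ∃ y : G × G → (M.V →+ (PTJ D).V), IsLevel₂ D.𝒯 y ∧
      ∀ s, n • z s = dTwo M (PTJ D) y s

/-- **(In6)** `H²_lev(G, Hom_ℤ(M, J))` is `p`-divisible (up to multiples prime to `p`). -/
def In6 (D : PTDatum p G ι Gloc) (M : Rep.{0} ℤ G) : Prop :=
  ∀ y : G × G → (M.V →+ (PTJ D).V), IsLevel₂ D.𝒯 y → (∀ s, dTwo M (PTJ D) y s = 0) →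
    ∃ n : ℕ, ¬ p ∣ n ∧ ∃ w : G × G → (M.V →+ (PTJ D).V), IsLevel₂ D.𝒯 w ∧
      (∀ s, dTwo M (PTJ D) w s = 0) ∧
      ∃ t : G → (M.V →+ (PTJ D).V), IsLevel₁ D.𝒯 t ∧
        ∀ s, n • y s = p • w s + dOne M (PTJ D) t s

/-- **(In7)** `H²_lev(G, Hom_ℤ(M, J)) → H²_lev(G, Hom_ℤ(M, C))` is onto, up to multiples prime
to `p`. -/
def In7 (D : PTDatum p G ι Gloc) (M : Rep.{0} ℤ G) : Prop :=
  ∀ c : G × G → (M.V →+ D.C.V), IsLevel₂ D.𝒯 c → (∀ s, dTwo M D.C c s = 0) →
    ∃ n : ℕ, ¬ p ∣ n ∧ ∃ w : G × G → (M.V →+ (PTJ D).V), IsLevel₂ D.𝒯 w ∧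
      (∀ s, dTwo M (PTJ D) w s = 0) ∧
      ∃ t : G → (M.V →+ D.C.V), IsLevel₁ D.𝒯 t ∧
        ∀ s, n • c s = (homAdd D.π).comp (w s) + dOne M D.C t s

/-- **(In7p)** the same on classes killed by `p`: a level 2-cocycle of `Hom_ℤ(M, C)` whose
`p`-th multiple is a level coboundary is, up to a prime-to-`p` multiple and a level coboundary,
the image of a level 2-cocycle of `Hom_ℤ(M, J)` whose `p`-th multiple is a level coboundary. -/
def In7p (D : PTDatum p G ι Gloc) (M : Rep.{0} ℤ G) : Prop :=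
  ∀ c : G × G → (M.V →+ D.C.V), IsLevel₂ D.𝒯 c → (∀ s, dTwo M D.C c s = 0) →
    (∃ t₀ : G → (M.V →+ D.C.V), IsLevel₁ D.𝒯 t₀ ∧ ∀ s, p • c s = dOne M D.C t₀ s) →
    ∃ n : ℕ, ¬ p ∣ n ∧ ∃ w : G × G → (M.V →+ (PTJ D).V), IsLevel₂ D.𝒯 w ∧
      (∀ s, dTwo M (PTJ D) w s = 0) ∧
      (∃ t₁ : G → (M.V →+ (PTJ D).V), IsLevel₁ D.𝒯 t₁ ∧ ∀ s, p • w s = dOne M (PTJ D) t₁ s) ∧
      ∃ t : G → (M.V →+ D.C.V), IsLevel₁ D.𝒯 t ∧
        ∀ s, n • c s = (homAdd D.π).comp (w s) + dOne M D.C t s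

end Datum

/-! ### The pieces of block E-add -/

/-- **A0 (In1 for permutation lattices).** `H¹_lev(G, Hom_ℤ(ℤ[Ω], C))` is prime-to-`p` torsion
for EVERY finite level set `Ω` (PT-F proved it for free `Ω`: `StmtPermSh1` + `stmtIn1b`; in
general the stabilisers are subgroups containing a level, and `cm_glob.h1` holds for all
`p`-subgroups of all finite quotients). -/
def StmtIn1Perm : Prop :=
  ∀ (p : ℕ) [Fact p.Prime] (G : Type) [Group G] (ι : Type) [Fintype ι] (Gloc : ι → Type)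
    [∀ v, Group (Gloc v)] (D : PTDatum p G ι Gloc)
    (Ω : Type) [Fintype Ω] [MulAction G Ω], IsLevSet D.𝒯 Ω → In1 D (permZ G Ω)

/-- **A1 (finite groups; Tate–Nakayama one degree up).** If `Y` has a `p`-fundamental class then
`H³(Γ, Y)` has no `p`-torsion.  (Sylow [`stmtSylow`, all degrees] reduces to a `p`-group `Π` with
a fundamental class; there `H³(Π, Y) ≅ H¹(Π, ℤ) = 0` by the splitting module
`0 → Y → A → I → 0`, `0 → I → ℤ[Π] → ℤ → 0` [PT/A/SplitModule.lean] and cohomological triviality of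
`A` in degree 3 [twin criterion: induction on `|Π|`, inflation–restriction in degree 3, periodicity
for cyclic groups: Mathlib `FiniteCyclic.lean`].) -/
def StmtH3Fund : Prop :=
  ∀ (p : ℕ) [Fact p.Prime] (Γ : Type) [Group Γ] [Fintype Γ] (Y : Rep.{0} ℤ Γ) (u : H2 Y),
    IsPFundClass p Y u → ∀ x : groupCohomology Y 3, IsPTors p x → x = 0

/-- **A1'.** The same for every subgroup and every permutation lattice: `H³(H, Hom_ℤ(ℤ[Ω], Y))`
has no `p`-torsion (`Hom_ℤ(ℤ[Ω], Y) = ∏_{orbits} coind Y`, Shapiro in degree 3 = Mathlib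
`groupCohomology.coindIso`). -/
def StmtH3FundPerm : Prop :=
  ∀ (p : ℕ) [Fact p.Prime] (Γ : Type) [Group Γ] [Fintype Γ] (Y : Rep.{0} ℤ Γ) (u : H2 Y),
    IsPFundClass p Y u → ∀ (Ω : Type) [Fintype Ω] [MulAction Γ Ω]
      (x : groupCohomology (homRep (Rep.ofMulAction ℤ Γ Ω) Y) 3), IsPTors p x → x = 0

/-- **A3 (J3).** `In5` for permutation lattices (descent of level 3-cocycles to a finite level,
`J^U = ∏_v coind_{D_v}^{G/U} J_v^{V}`, `StmtH3FundPerm` for `(D_v, J_v^V)` from `cm_loc`). -/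
def StmtJ3 : Prop :=
  ∀ (p : ℕ) [Fact p.Prime] (G : Type) [Group G] (ι : Type) [Fintype ι] (Gloc : ι → Type)
    [∀ v, Group (Gloc v)] (D : PTDatum p G ι Gloc)
    (Ω : Type) [Fintype Ω] [MulAction G Ω], IsLevSet D.𝒯 Ω → In5 D (permZ G Ω)

/-- **A4 (J2div).** `In6` for permutation lattices, from `HasPDepthGlob` (at a finite level the
`p`-part of `H²(H, J_v^V)` is cyclic of order `|H|_p`; an element of smaller order is a `p`-th
multiple; pass to a deeper level). -/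
def StmtJ2Div : Prop :=
  ∀ (p : ℕ) [Fact p.Prime] (G : Type) [Group G] (ι : Type) [Fintype ι] (Gloc : ι → Type)
    [∀ v, Group (Gloc v)] (D : PTDatum p G ι Gloc), HasPDepthGlob D →
    ∀ (Ω : Type) [Fintype Ω] [MulAction G Ω], IsLevSet D.𝒯 Ω → In6 D (permZ G Ω)

/-- **A5 (C2surj).** `In7` and `In7p` for the trivial lattice `ℤ` (`Ω = PUnit`), from `surv`,
`HasPDepthGlob`, `levH2_pTorsion_cyclic` and `In6` (NOTES/TW-E.md §A5). -/
def StmtC2Surj : Prop :=
  ∀ (p : ℕ) [Fact p.Prime] (G : Type) [Group G] (ι : Type) [Fintype ι] [Nonempty ι]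
    (Gloc : ι → Type) [∀ v, Group (Gloc v)] (D : PTDatum p G ι Gloc), HasPDepthGlob D →
    In7 D (Rep.trivial ℤ G ℤ) ∧ In7p D (Rep.trivial ℤ G ℤ)

/-- **A5' (C2surj for `ℤ[Ω]`, `p ∤ |Ω|`).** `In7` and `In7p` for a transitive `Ω` of cardinality
prime to `p` (the constant-function map `ι : C → Hom(ℤ[Ω], C)` and the trace `tr` satisfy
`tr ∘ ι = |Ω|`; the `p`-part of `H²_lev(G, Hom(ℤ[Ω], C))` is cyclic at every finite level, so
`ι_*` is onto the `p`-primary part). -/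
def StmtC2SurjPerm : Prop :=
  ∀ (p : ℕ) [Fact p.Prime] (G : Type) [Group G] (ι : Type) [Fintype ι] [Nonempty ι]
    (Gloc : ι → Type) [∀ v, Group (Gloc v)] (D : PTDatum p G ι Gloc), HasPDepthGlob D →
    ∀ (Ω : Type) [Fintype Ω] [MulAction G Ω], IsLevSet D.𝒯 Ω → MulAction.IsPretransitive G Ω →
      ¬ p ∣ Fintype.card Ω → In7 D (permZ G Ω) ∧ In7p D (permZ G Ω)

/-- **A6a (E3).** CHASE in `0 → E → J → C → 0`: `In5 + In7 ⇒` a level 3-cocycle of
`Hom_ℤ(M, E)` killed by `p` is a level coboundary up to a multiple prime to `p`.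
(`M` is `ℤ`-free of finite rank: additive maps `M → C` lift to `M → J` by `π_surj`.) -/
def StmtE3 : Prop :=
  ∀ (p : ℕ) [Fact p.Prime] (G : Type) [Group G] (ι : Type) [Fintype ι] (Gloc : ι → Type)
    [∀ v, Group (Gloc v)] (D : PTDatum p G ι Gloc)
    (Ω : Type) [Fintype Ω] [MulAction G Ω], IsLevSet D.𝒯 Ω →
    In5 D (permZ G Ω) → In7 D (permZ G Ω) →
    ∀ z : G × G × G → ((permZ G Ω).V →+ D.E.V), IsLevel₃ D.𝒯 z →
      (∀ s, dThree (permZ G Ω) D.E z s = 0) → (∀ s, p • z s = 0) →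
      ∃ n : ℕ, ¬ p ∣ n ∧ ∃ y : G × G → ((permZ G Ω).V →+ D.E.V), IsLevel₂ D.𝒯 y ∧
        ∀ s, n • z s = dTwo (permZ G Ω) D.E y s

/-- **A6b (E2div).** CHASE: `In6 + In7p + In1 ⇒ H²_lev(G, Hom_ℤ(M, E))` is `p`-divisible up to
multiples prime to `p`. -/
def StmtE2Div : Prop :=
  ∀ (p : ℕ) [Fact p.Prime] (G : Type) [Group G] (ι : Type) [Fintype ι] (Gloc : ι → Type)
    [∀ v, Group (Gloc v)] (D : PTDatum p G ι Gloc)
    (Ω : Type) [Fintype Ω] [MulAction G Ω], IsLevSet D.𝒯 Ω →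
    In1 D (permZ G Ω) → In6 D (permZ G Ω) → In7p D (permZ G Ω) →
    ∀ y : G × G → ((permZ G Ω).V →+ D.E.V), IsLevel₂ D.𝒯 y →
      (∀ s, dTwo (permZ G Ω) D.E y s = 0) →
      ∃ n : ℕ, ¬ p ∣ n ∧ ∃ w : G × G → ((permZ G Ω).V →+ D.E.V), IsLevel₂ D.𝒯 w ∧
        (∀ s, dTwo (permZ G Ω) D.E w s = 0) ∧
        ∃ t : G → ((permZ G Ω).V →+ D.E.V), IsLevel₁ D.𝒯 t ∧
          ∀ s, n • y s = p • w s + dOne (permZ G Ω) D.E t s

/-- **A7 (Mu3; Kummer chase).** `E3 + E2div + E_div ⇒ H³_lev(G, Hom_ℤ(M, μ_p)) = 0`: a level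
3-cocycle of `Hom_ℤ(M, E)` killed by `p` is `d` of a level 2-cochain KILLED BY `p`. -/
def StmtMu3 : Prop :=
  ∀ (p : ℕ) [Fact p.Prime] (G : Type) [Group G] (ι : Type) [Fintype ι] [Nonempty ι]
    (Gloc : ι → Type) [∀ v, Group (Gloc v)] (D : PTDatum p G ι Gloc), HasPDepthGlob D →
    ∀ (Ω : Type) [Fintype Ω] [MulAction G Ω], IsLevSet D.𝒯 Ω → MulAction.IsPretransitive G Ω →
      ¬ p ∣ Fintype.card Ω →
    ∀ z : G × G × G → ((permZ G Ω).V →+ D.E.V), IsLevel₃ D.𝒯 z →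
      (∀ s, dThree (permZ G Ω) D.E z s = 0) → (∀ s, p • z s = 0) →
      ∃ y : G × G → ((permZ G Ω).V →+ D.E.V), IsLevel₂ D.𝒯 y ∧ (∀ s, p • y s = 0) ∧
        ∀ s, z s = dTwo (permZ G Ω) D.E y s

/-- **A8 (H2surj).** For a surjection `f : B → B₂` of finite `𝔽_p[G]`-modules trivial on a
level, every level 2-cocycle of `B₂` is `f ∘ (level 2-cocycle of B)` up to a level coboundary.
(Transfer to a Sylow subgroup `P̄` of `G/U₀` through the `G`-maps `B → Hom(ℤ[Ω], B) → B`,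
`Ω = (G/U₀)/P̄`; the kernel of `Hom(ℤ[Ω], B) → Hom(ℤ[Ω], B₂)` has a filtration with quotients
`≅ Hom_ℤ(ℤ[Ω], μ_p)`; obstruction cocycles die by `StmtMu3`.  NOTES/TW-E.md §A8.) -/
def StmtH2Surj : Prop :=
  ∀ (p : ℕ) [Fact p.Prime] (G : Type) [Group G] (ι : Type) [Fintype ι] [Nonempty ι]
    (Gloc : ι → Type) [∀ v, Group (Gloc v)] (D : PTDatum p G ι Gloc), HasPDepthGlob D →
    ∀ (B B₂ : Rep.{0} (ZMod p) G) [FiniteDimensional (ZMod p) B] [FiniteDimensional (ZMod p) B₂]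
      (f : B ⟶ B₂), Function.Surjective f.hom → TrivOnLevel D.𝒯 B →
    ∀ w₂ : G × G → B₂.V, w₂ ∈ levCocycles₂ D.𝒯 B₂ →
      ∃ w : G × G → B.V, w ∈ levCocycles₂ D.𝒯 B ∧
        (fun s => f.hom (w s)) - w₂ ∈ levCoboundaries₂ D.𝒯 B₂

/-- **A9 (fin2).** `H²_lev(G, B)` is finite-dimensional. -/
def StmtH2Fin : Prop :=
  ∀ (p : ℕ) [Fact p.Prime] (G : Type) [Group G] (ι : Type) [Fintype ι] [Nonempty ι]
    (Gloc : ι → Type) [∀ v, Group (Gloc v)] (D : PTDatum p G ι Gloc), HasPDepthGlob D →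
    ∀ (B : Rep.{0} (ZMod p) G) [FiniteDimensional (ZMod p) B], TrivOnLevel D.𝒯 B →
      FiniteDimensional (ZMod p) (levH2 D.𝒯 B)

/-- **E-add (target of the block).** The Euler characteristic of level cohomology is additive:
for `0 → B₁ → B → B₂ → 0`,  `χ(B) = χ(B₁) + χ(B₂)`, written without subtraction. -/
def StmtAdd : Prop :=
  ∀ (p : ℕ) [Fact p.Prime] (G : Type) [Group G] (ι : Type) [Fintype ι] [Nonempty ι]
    (Gloc : ι → Type) [∀ v, Group (Gloc v)] (D : PTDatum p G ι Gloc), HasPDepthGlob D →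
    ∀ (B₁ B B₂ : Rep.{0} (ZMod p) G) [FiniteDimensional (ZMod p) B]
      (f : B₁ ⟶ B) (g : B ⟶ B₂), Function.Injective f.hom → Function.Surjective g.hom →
      Function.Exact f.hom g.hom → TrivOnLevel D.𝒯 B →
      (finrank (ZMod p) ↥(B.ρ.invariants) + finrank (ZMod p) (levH2 D.𝒯 B) +
          finrank (ZMod p) ↥(levH1 D.𝒯 B₁) + finrank (ZMod p) ↥(levH1 D.𝒯 B₂) : ℕ) =
        finrank (ZMod p) ↥(levH1 D.𝒯 B) +
          (finrank (ZMod p) ↥(B₁.ρ.invariants) + finrank (ZMod p) (levH2 D.𝒯 B₁)) +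
          (finrank (ZMod p) ↥(B₂.ρ.invariants) + finrank (ZMod p) (levH2 D.𝒯 B₂))

end Fermat.Agent.TW.E

end


end ZBTW_014_1

/-! ### bundled: `Fermat.Agent.TW.E.Plan3` -/
section ZBTW_014_2
/-
Project TW (S56) — part TW-E (sub-captain helper69): THE GLOBAL EULER CHARACTERISTIC.
INTERFACE FILE 3: the target `StmtEC`, the concrete input `StmtPDepthTower`, the target of block
E-cyc `StmtCyc`, and the assembly.  Statements only.  Mathematics: NOTES/TW-E.md.

Level cohomology only depends on the tower `towerS S`, so the statements do not mention the datum;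
the PROOFS use `concreteDatum p hp2 S hpS hcg hcl hh hex hsv` (PT/B/Instance.lean), whence the five
hypotheses `StmtCmGlob … StmtSurvC`.
-/

set_option autoImplicit false

noncomputable section

namespace Fermat.Agent.TW.E

open CategoryTheory groupCohomology Module Fermat.Agent.PT Fermat.Agent.PT.F Fermat.Agent.PT.B
  Fermat.Agent.TW.F ExtCitation

/-- The Euler characteristic formula for one module `B` (over the tower `towerS S`):
`H²_lev` is finite-dimensional and `h⁰ + h² + dim B = h¹ + dim B^{c}`,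
`c` = complex conjugation (`archimedeanLoc`). -/
def ECFormula (p : ℕ) [Fact p.Prime] (S : Finset Nat.Primes) (B : Rep.{0} (ZMod p) GQ) : Prop :=
  FiniteDimensional (ZMod p) (levH2 (towerS S) B) ∧
    finrank (ZMod p) ↥(B.ρ.invariants) + finrank (ZMod p) (levH2 (towerS S) B) +
        finrank (ZMod p) B.V =
      finrank (ZMod p) ↥(levH1 (towerS S) B) +
        finrank (ZMod p) ↥((Rep.res archimedeanLoc B).ρ.invariants)

/-- **TW-E, THE TARGET: the global Euler characteristic formula** (Tate).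
For `p` odd, `p ∈ S`, every finite-dimensional `𝔽_p`-representation `B` of `G_ℚ` which is trivial
on a level of `towerS S`:  `h⁰ - h¹ + h² (G_{ℚ,S}, B) = dim B^{c} - dim B`. -/
def StmtEC : Prop :=
  ∀ (p : ℕ) [Fact p.Prime], p ≠ 2 → ∀ (S : Finset Nat.Primes), pPrime p ∈ S →
    StmtCmGlob → StmtCmLoc → StmtH90Loc → StmtExistC → StmtSurvC →
    ∀ (B : Rep.{0} (ZMod p) GQ) [FiniteDimensional (ZMod p) B], TrivOnLevel (towerS S) B →
      ECFormula p S B

/-- The form consumed by TW-F route 1 (helper63): `h⁰(B) + h²(B) + (dim B - dim B^c) ≤ h¹(B)`. -/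
def StmtECle : Prop :=
  ∀ (p : ℕ) [Fact p.Prime], p ≠ 2 → ∀ (S : Finset Nat.Primes), pPrime p ∈ S →
    StmtCmGlob → StmtCmLoc → StmtH90Loc → StmtExistC → StmtSurvC →
    ∀ (B : Rep.{0} (ZMod p) GQ) [FiniteDimensional (ZMod p) B], TrivOnLevel (towerS S) B →
      FiniteDimensional (ZMod p) (levH2 (towerS S) B) ∧
        finrank (ZMod p) ↥(B.ρ.invariants) + finrank (ZMod p) (levH2 (towerS S) B) +
            (finrank (ZMod p) B.V -
              finrank (ZMod p) ↥((Rep.res archimedeanLoc B).ρ.invariants)) ≤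
          finrank (ZMod p) ↥(levH1 (towerS S) B)

/-- **Y-depth** (`HasPDepthGlob` for the concrete towers): below every level `Gal(ℚ̄/F)`, `F`
unramified outside `S ∋ p`, there is a normal one whose local index at `q ∈ S` is divisible by
`p`.  (Take `F' ⊇ F·ℚ(ζ_{p^n})`, Galois, `n` large: the decomposition group of `q` in
`Gal(ℚ(ζ_{p^n})/ℚ)` has order divisible by `p^{n-c}`, and `[F_w : ℚ_q]` is bounded.) -/
def StmtPDepthTower : Prop :=
  ∀ (p : ℕ) [Fact p.Prime] (S : Finset Nat.Primes), pPrime p ∈ S → ∀ (q : ↥S),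
    ∀ U ∈ (towerS S).lev, ∃ U' ∈ (towerS S).lev, U' ≤ U ∧ U'.Normal ∧
      p ∣ (U'.comap (rS S q)).relIndex (U.comap (rS S q))

/-- **E-cyc (target of the block of helper75).** The formula for the modules coinduced from a
cyclic subgroup `C` of order prime to `p` of a finite quotient `G_ℚ ⧸ U₀`.
The proof may assume `StmtAdd` (additivity) and `StmtPDepthTower`: use `stmtCyc_of`. -/
def StmtCyc : Prop :=
  ∀ (p : ℕ) [Fact p.Prime], p ≠ 2 → ∀ (S : Finset Nat.Primes), pPrime p ∈ S →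
    StmtCmGlob → StmtCmLoc → StmtH90Loc → StmtExistC → StmtSurvC →
    ∀ (U₀ : Subgroup GQ) [U₀.Normal], U₀ ∈ (towerS S).lev →
    ∀ (C : Subgroup (GQ ⧸ U₀)), IsCyclic C → (Nat.card C).Coprime p →
    ∀ (M : Rep.{0} (ZMod p) C), Module.Finite (ZMod p) M.V →
      ECFormula p S (Rep.res (QuotientGroup.mk' U₀) (Rep.coind C.subtype M))

/-- **E-asm.** Assembly: additivity + Artin induction (`stmtK0`) + E-cyc ⇒ (EC).
`φ(B̄) := h⁰ - h¹ + h² (infl B̄) + dim B̄ - dim B̄^c` on `Rep (ZMod p) (G_ℚ ⧸ U₀)` is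
isomorphism-invariant and additive (`StmtAdd`; the dimension of the `c`-invariants is additive
because `p` is odd), and vanishes on the coinduced modules (`StmtCyc`). -/
def StmtAsm : Prop :=
  StmtAdd → StmtH2Fin → StmtPDepthTower → StmtCyc → StmtK0 → StmtEC

end Fermat.Agent.TW.E

end


end ZBTW_014_2

/-! ### bundled: `Fermat.Agent.TW.Core.Plan` -/
section ZBTW_014_3
/-
Project TW (Taylor–Wiles primes, S56) — part TW-Core (captain helper63):
THE TOP-LEVEL ASSEMBLY.  INTERFACE FILE: the statements which the assembly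
`TW/Core/Asm.lean` consumes and which are NOT yet a `Prop` of another sub-project's Plan file.
Mathematics: NOTES/TW-Core.md.   ROUTE 1 (ruling 21:10Z): Greenberg–Wiles in the form `F.StmtGW`.

With `A = ad⁰ ρ̄` (`S.ad0Rep p ρbar`), `B = A*(1)` (`A.dualTwist (cycloChar p)`), `f = [k : 𝔽_p]`,
`T = primesOf (Smin ∪ Q)`, `D = concreteDatum p hp2 T …`:
  `F.StmtGWFinal` + (EC) [`E.StmtEC`] + `LocExist D` [`L.StmtLocExistQ`] + `F.HasPDepth D`
  [`E.StmtPDepthTower`] + local terms [TW-L: `StmtAdMin`, `StmtAdTw`, `StmtAdOrd`; TW-W: `W.StmtWFlat`]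
  + `H⁰ = 0` [TW-L: `StmtAdGlob0`] + dual Selmer group `= 0` [`StmtKillAll`, TW-G]
  ⇒ `dim Sel_Q(A) ≤ r·f` ⇒ (TW-S: `StmtSelCardOrd/Flat`) `TwTanCard … (|k|^r)` = `StmtCoreOrd/Flat`.

A piece `X` is DONE when `theorem stmtX : StmtX` (or `stmtX_of : … → StmtX`) is landed, sorry-free.
-/

set_option autoImplicit false
set_option linter.unusedSectionVars false

noncomputable section

namespace Fermat.Agent.TW.Core

open CategoryTheory groupCohomology IsLocalRing Module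
open Fermat.Agent.PT Fermat.Agent.PT.B Fermat.Agent.PT.F Fermat.Agent.S53
open Fermat.Agent.TW.S Fermat.Agent.TW.L Fermat.Agent.TW.F Fermat.Agent.TW.E Fermat.Agent.TW.W
open ExtCitation

/-! ### TW-G: the Taylor–Wiles primes kill the dual Selmer group -/

/-- **G-kill** (owner: TW-G, "G-wire").  Under the hypotheses of S56 there is `r` such that for
every `n` there is a Taylor–Wiles family `qv : Fin r → ℕ` (`IsTWFamily`) such that a level class
of `ad⁰(1)` for the tower of `Smin ∪ Q` which is locally trivial at all `q ∈ Q` is `0`.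
(`r := dim H¹_lev(G_{ℚ,Smin}, ad⁰(1))` (`F.stmtGloFin`); such a class is unramified at `Q`, hence a
level class for `Smin` (`S.StmtTow`); a nonzero class `ψ` is nontrivial at some `σ ∈ N` with
distinct eigenvalues (`G.Sel.StmtGSel`), Chebotarev (`twc_exists_primes`) gives `q` with
`Frob_q ~ σ`, and `res_q ψ ≠ 0` (`ψ(Frob_q) ∉ (Frob_q - 1) ad⁰(1)`, L-tw); induction on the
dimension (`gkill_exists`), padding with arbitrary Taylor–Wiles primes (`G.Sel.StmtDist`).) -/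
def StmtKillAll (𝒪 : Type) [CommRing 𝒪] [IsDomain 𝒪] [IsDiscreteValuationRing 𝒪]
    [IsAdicComplete (maximalIdeal 𝒪) 𝒪] [Finite (ResidueField 𝒪)] : Prop :=
  ∀ (p : ℕ) [Fact p.Prime] [CharP (ResidueField 𝒪) p]
    (ρbar : ResidualGaloisRep (ResidueField 𝒪)) (S Smin : Finset ℕ),
    TWHyp 𝒪 p ρbar S Smin →
    ∃ r : ℕ, ∀ n : ℕ, ∃ qv : Fin r → ℕ, IsTWFamily p ρbar S n r qv ∧
      ∀ x ∈ levH1 (towerS (primesOf (Smin ∪ Finset.univ.image qv)))
          ((ad0Rep p ρbar).dualTwist (cycloChar p)),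
        (∀ (i : Fin r) (hq : (qv i).Prime),
          letI : Fact (qv i).Prime := ⟨hq⟩
          (groupCohomology.map (localGaloisToGlobal (qv i))
            (𝟙 (locRep (qv i) ((ad0Rep p ρbar).dualTwist (cycloChar p)))) 1).hom x = 0) →
        x = 0

/-! ### TW-L: complex conjugation -/

/-- **L-archdual** (owner: TW-L): complex conjugation `c` acts on `μ_p` by `-1`, so
`h⁰(c, A*(1)) + h⁰(c, A) = dim A` (`p` odd; `A = A⁺ ⊕ A⁻`, `A*(1)^{c} = (A⁻)^*`). -/
def StmtArchDual : Prop :=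
  ∀ (p : ℕ) [Fact p.Prime], p ≠ 2 →
    ∀ (A : Rep.{0} (ZMod p) GQ) [FiniteDimensional (ZMod p) A],
      finrank (ZMod p) ↥((Rep.res archimedeanLoc (A.dualTwist (cycloChar p))).ρ.invariants) +
          finrank (ZMod p) ↥((Rep.res archimedeanLoc A).ρ.invariants) =
        finrank (ZMod p) A.V

/-! ### TW-F -/

/-- **F-perp** (owner: TW-F): the exact annihilator of a local condition is a subspace.
(`F.StmtCupBasic`: additivity of the cup product in the second variable modulo coboundaries.) -/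
def StmtPerpExists : Prop :=
  ∀ (p : ℕ) [Fact p.Prime] (G : Type) [Group G] (ι : Type) [Fintype ι] (Gloc : ι → Type)
    [∀ v, Group (Gloc v)] (D : PTDatum p G ι Gloc)
    (A B : Rep.{0} (ZMod p) G) (P : DualPair D.χ A B), TrivOnLevel D.𝒯 A → TrivOnLevel D.𝒯 B →
    ∀ (v : ι) (L : Submodule (ZMod p) (H1 (Rep.res (D.r v) A))),
      ∃ L' : Submodule (ZMod p) (H1 (Rep.res (D.r v) B)), IsPerp D P v L L'

/-! ### TW-S / TW-L: glue -/

/-- **S-adlev** (owner: TW-S): `ad⁰ ρ̄` and `ad⁰ ρ̄(1)` are trivial on a level of the tower of `T`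
if `ρ̄` is unramified outside `T ∋ p`.  (`PT.B.stmtKernelField`, `stmtCycloField`.) -/
def StmtAdLevel : Prop :=
  ∀ (p : ℕ) [Fact p.Prime] (k : Type) [Field k] [CharP k p] [Finite k]
    (ρbar : ResidualGaloisRep k) (T : Finset Nat.Primes), pPrime p ∈ T →
    (∀ q : Nat.Primes, q ∉ T → ρbar.IsUnramifiedAt (q : ℕ)) →
    TrivOnLevel (towerS T) (ad0Rep p ρbar) ∧
      TrivOnLevel (towerS T) ((ad0Rep p ρbar).dualTwist (cycloChar p))

/-- **S-adrank** (owner: TW-S): `dim_{𝔽_p} ad⁰ ρ̄ = 3 f`. -/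
def StmtAdRank : Prop :=
  ∀ (p : ℕ) [Fact p.Prime] (k : Type) [Field k] [CharP k p] [Algebra (ZMod p) k] [Finite k]
    (ρbar : ResidualGaloisRep k),
    finrank (ZMod p) (ad0Rep p ρbar).V = 3 * finrank (ZMod p) k

/-- **S-res, strict form** (owner: TW-S): if a strictly ordinary deformation of `ρ̄` to `k[ε]`
with cyclotomic determinant exists, `ρ̄` has a STRICTLY ordinary line at `p` (`L.IsStrictOrdLine`:
the decomposition group acts on `L̄` by `χ̄ z`, on `V̄/L̄` by `z`).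
(Reduce the line and the relation `x ≡ a z mod p` of `IsStrictOrdinaryAt` (with `n = 1`)
modulo `ε`.) -/
def StmtResStrict : Prop :=
  ∀ (𝒪 : Type) [CommRing 𝒪] [IsLocalRing 𝒪] (p : ℕ) [Fact p.Prime] [CharP (ResidueField 𝒪) p]
    [Algebra (ZMod p) (ResidueField 𝒪)]
    (ρbar : ResidualGaloisRep (ResidueField 𝒪))
    (ρ : GaloisRepAdic (DualNumber (ResidueField 𝒪))),
    (letI : Algebra (ResidueField 𝒪) (ResidueField (DualNumber (ResidueField 𝒪))) := dnResAlg 𝒪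
     ρ.residual.IsEquiv (ρbar.baseChange (ResidueField (DualNumber (ResidueField 𝒪))))) →
    ρ.IsStrictOrdinaryAt p →
    ∃ Lbar : Submodule (ResidueField 𝒪) ρbar.V, IsStrictOrdLine p ρbar Lbar

end Fermat.Agent.TW.Core

end


end ZBTW_014_3

/-! ### bundled: `Fermat.Agent.RT.K3.Plan` -/
section ZBTW_014_4
/-
K-machine (row 37 / S59), piece K3: FRAMED TAYLOR–WILES PRIMES — piece interface of the
sub-captain (helper68).  Top statements: `StmtK3Sel`, `StmtK3Alg` (RT/PlanK3.lean, helper43).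
Mathematics: NOTES/RT-K3.md.  Every piece is a TWIN of landed TW code (design: helper70).

`T` = the trivial primes (`r ≡ 1 mod p`, `ρ̄(D_r) ⊆ {±1}`, `r ∉ Smin`), `Q` = the Taylor–Wiles
primes, `Σ := (Smin ∪ T) ∪ Q`.  The Selmer structure: `S.locCond` outside `T` (condition `Lp` at
`p`, unramified classes at `Smin ∖ p`, everything at `Q`), and `L_r = 0` at `r ∈ T`.

  K3-kill  `StmtK3Kill 𝒪`   : Taylor–Wiles primes which kill the level classes of `ad⁰(1)` for the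
                              tower of `(Smin ∪ T) ∪ Q` (NO condition at `T`), `h ≥ 3|T|` of them;
  K3-count `StmtK3Count 𝒪`  : Greenberg–Wiles: `#Sel_{Q,T} · |k|^(3|T|) ≤ |k|^h`;
  K3-S     `StmtK3S`        : `Tan(rtk3Flat) ↪ Sel_{Q,T}`;
  K3-asm   `stmtK3Sel_of`   : RT/K3/Asm.lean.
-/

set_option autoImplicit false
set_option linter.unusedSectionVars false

noncomputable section

namespace Fermat.Agent.RT

open CategoryTheory groupCohomology IsLocalRing Module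
open Fermat.Agent.PT Fermat.Agent.PT.B Fermat.Agent.PT.F Fermat.Agent.S53
open Fermat.Agent.TW Fermat.Agent.TW.S Fermat.Agent.TW.L Fermat.Agent.TW.F Fermat.Agent.TW.E
open ExtCitation

/-! ### The Selmer group with `L_r = 0` at the trivial primes -/

section Selmer

variable (p : ℕ) [Fact p.Prime] {k : Type} [Field k] [CharP k p] (ρbar : ResidualGaloisRep k)

/-- The local condition at a prime `q`: `0` at `q ∈ T`, `S.locCond` otherwise. -/
def rtk3LocCond (Smin T : Finset ℕ)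
    (Lp : Submodule (ZMod p) (H1 (locRep p (ad0Rep p ρbar)))) (q : ℕ) [Fact q.Prime] :
    Submodule (ZMod p) (H1 (locRep q (ad0Rep p ρbar))) :=
  open Classical in
  if q ∈ T then ⊥ else locCond p ρbar Smin Lp q

lemma rtk3LocCond_of_mem (Smin T : Finset ℕ)
    (Lp : Submodule (ZMod p) (H1 (locRep p (ad0Rep p ρbar)))) (q : ℕ) [Fact q.Prime]
    (hq : q ∈ T) : rtk3LocCond p ρbar Smin T Lp q = ⊥ := by
  unfold rtk3LocCond
  rw [if_pos hq]

lemma rtk3LocCond_of_not_mem (Smin T : Finset ℕ)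
    (Lp : Submodule (ZMod p) (H1 (locRep p (ad0Rep p ρbar)))) (q : ℕ) [Fact q.Prime]
    (hq : q ∉ T) : rtk3LocCond p ρbar Smin T Lp q = locCond p ρbar Smin Lp q := by
  unfold rtk3LocCond
  rw [if_neg hq]

/-- The Selmer structure on the concrete datum for `Σ`. -/
def rtk3SelCond (Smin T : Finset ℕ) (Lp : Submodule (ZMod p) (H1 (locRep p (ad0Rep p ρbar))))
    (Sg : Finset Nat.Primes) :
    ∀ v : ↥Sg, Submodule (ZMod p) (H1 (Rep.res (rS Sg v) (ad0Rep p ρbar))) := fun v =>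
  letI : Fact ((v : Nat.Primes) : ℕ).Prime := ⟨(v : Nat.Primes).2⟩
  rtk3LocCond p ρbar Smin T Lp ((v : Nat.Primes) : ℕ)

/-- **The Selmer group with `L_r = 0` at `T`**: level classes for `towerS Σ` with the local
conditions `rtk3SelCond`. -/
def rtk3SelGroup (Smin T : Finset ℕ)
    (Lp : Submodule (ZMod p) (H1 (locRep p (ad0Rep p ρbar))))
    (Sg : Finset Nat.Primes) : Submodule (ZMod p) (H1 (ad0Rep p ρbar)) :=
  levH1 (towerS Sg) (ad0Rep p ρbar) ⊓
    groupCohomology.selmer (rS Sg) (ad0Rep p ρbar) (rtk3SelCond p ρbar Smin T Lp Sg)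

end Selmer

/-! ### The pieces -/

/-- **K3-kill** (twin of `TW.Core.StmtKillAll`; owner helper26).  There are `h ≥ 3|T|` and, for
every `n`, a Taylor–Wiles family `qv : Fin h → ℕ` such that a level class of `ad⁰(1)` for the
tower of `(Smin ∪ T) ∪ Q` which is locally trivial at all `q ∈ Q` is `0`.
(`D₀ := H¹_lev(G_{ℚ, Smin ∪ T}, ad⁰(1))` in `TW.G.Wire.stmtGKill`, `h := max (dim D₀) (3|T|)`;
`ρ̄` is unramified outside `Smin`, so `ad⁰(1)` is trivial on a level of the tower of `Smin ∪ T`;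
then as in `TW.G.stmtKillAll_of`.) -/
def StmtK3Kill (𝒪 : Type) [CommRing 𝒪] [IsDomain 𝒪] [IsDiscreteValuationRing 𝒪]
    [IsAdicComplete (maximalIdeal 𝒪) 𝒪] [Finite (ResidueField 𝒪)] : Prop :=
  ∀ (p : ℕ) [Fact p.Prime] [CharP (ResidueField 𝒪) p]
    (ρbar : ResidualGaloisRep (ResidueField 𝒪)) (S Smin T : Finset ℕ),
    TWHyp 𝒪 p ρbar S Smin → (∀ r ∈ T, r.Prime) → T ⊆ S →
    ∃ h : ℕ, 3 * T.card ≤ h ∧ ∀ n : ℕ, ∃ qv : Fin h → ℕ, IsTWFamily p ρbar S n h qv ∧
      ∀ x ∈ levH1 (towerS (primesOf ((Smin ∪ T) ∪ Finset.univ.image qv)))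
          ((ad0Rep p ρbar).dualTwist (cycloChar p)),
        (∀ (i : Fin h) (hq : (qv i).Prime),
          letI : Fact (qv i).Prime := ⟨hq⟩
          (groupCohomology.map (localGaloisToGlobal (qv i))
            (𝟙 (locRep (qv i) ((ad0Rep p ρbar).dualTwist (cycloChar p)))) 1).hom x = 0) →
        x = 0

/-- **K3-count** (twin of `TW.Core.casm_sel_card`; owner helper68).  Greenberg–Wiles for the
Selmer structure `rtk3SelCond`: if the `h` Taylor–Wiles primes kill the dual Selmer group and the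
local condition at `p` has dimension `≤ f + h⁰(G_p, ad⁰)`, then
`#Sel_{Q,T} · |k|^(3|T|) ≤ |k|^h`.
(At `r ∈ T`: `dim L_r = 0`, `h⁰(G_r, ad⁰) = 3f`.) -/
def StmtK3Count (𝒪 : Type) [CommRing 𝒪] [IsDomain 𝒪] [IsDiscreteValuationRing 𝒪]
    [IsAdicComplete (maximalIdeal 𝒪) 𝒪] [Finite (ResidueField 𝒪)] : Prop :=
  ∀ (p : ℕ) [Fact p.Prime] [CharP (ResidueField 𝒪) p] [Algebra (ZMod p) (ResidueField 𝒪)]
    (ρbar : ResidualGaloisRep (ResidueField 𝒪)) (S Smin T : Finset ℕ),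
    TWHyp 𝒪 p ρbar S Smin → IsTrivSet p ρbar Smin T → T ⊆ S →
    ∀ (n h : ℕ) (qv : Fin h → ℕ), IsTWFamily p ρbar S n h qv →
    (∀ x ∈ levH1 (towerS (primesOf ((Smin ∪ T) ∪ Finset.univ.image qv)))
          ((ad0Rep p ρbar).dualTwist (cycloChar p)),
        (∀ (i : Fin h) (hq : (qv i).Prime),
          letI : Fact (qv i).Prime := ⟨hq⟩
          (groupCohomology.map (localGaloisToGlobal (qv i))
            (𝟙 (locRep (qv i) ((ad0Rep p ρbar).dualTwist (cycloChar p)))) 1).hom x = 0) →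
        x = 0) →
    ∀ (Lp : Submodule (ZMod p) (H1 (locRep p (ad0Rep p ρbar)))),
    Lp ≤ levH1 (towerLoc p) (locRep p (ad0Rep p ρbar)) →
    Module.Finite (ZMod p) Lp →
    finrank (ZMod p) Lp ≤ finrank (ZMod p) (ResidueField 𝒪) +
      finrank (ZMod p) (locRep p (ad0Rep p ρbar)).ρ.invariants →
    Finite ↥(rtk3SelGroup p ρbar Smin T Lp
        (primesOf ((Smin ∪ T) ∪ Finset.univ.image qv))) ∧
      Nat.card ↥(rtk3SelGroup p ρbar Smin T Lp
          (primesOf ((Smin ∪ T) ∪ Finset.univ.image qv))) *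
        Nat.card (ResidueField 𝒪) ^ (3 * T.card) ≤ Nat.card (ResidueField 𝒪) ^ h

/-- **K3-S** (twin of `TW.S.StmtSelCardFlat` / `TW.S.sasm_main`).  The number of pairwise
inequivalent deformations of type `rtk3Flat` to `k[ε]` is at most the order of the Selmer group
with `L_r = 0` at `T`, for ANY subspace `Lp ⊆ H¹(G_p, ad⁰)` which contains the classes of the flat
deformations.
(As `sasm_main`, with the tower of `(Smin ∪ T) ∪ Q` (the deformation is unramified outside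
`Smin ∪ Q`).  At `r ∈ T`, `σ ∈ D_r`: `ρ(σ) = ±1` ⇒ `ρ(σ²) = 1` ⇒ `c(σ²) = 0` (`S.stmtUnr`);
`ρ̄(σ) = ±1` acts trivially on `ad`, so `c(σ²) = 2 c(σ)` and `c(σ) = 0` (`p` odd): the restriction
of the COCYCLE to `G_{ℚ_r}` is `0`.) -/
def StmtK3S : Prop :=
  ∀ (𝒪 : Type) [CommRing 𝒪] [IsDomain 𝒪] [IsDiscreteValuationRing 𝒪]
    [IsAdicComplete (maximalIdeal 𝒪) 𝒪] (p : ℕ) [Fact p.Prime] [CharP (ResidueField 𝒪) p]
    [Finite (ResidueField 𝒪)]
    (ρbar : ResidualGaloisRep (ResidueField 𝒪)) (D : RigidDatum 𝒪 ρbar), p ≠ 2 →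
    ∀ (Smin Q T : Finset ℕ), p ∈ Smin →
    (∀ q : ℕ, q.Prime → q ≠ p → (q ∈ Smin ↔ ¬ ρbar.IsUnramifiedAt q)) →
    IsTrivSet p ρbar Smin T →
    ∀ (Lp : Submodule (ZMod p) (H1 (locRep p (ad0Rep p ρbar)))),
    (∀ (ρ : GaloisRepAdic (DualNumber (ResidueField 𝒪))) (c : cocycles₁ (ad0Rep p ρbar)),
      IsCocOf p D ρ (fun σ => (ad0Incl p ρbar).hom ((c : GQ → (ad0Rep p ρbar).V) σ)) →
      ρ.DetIsCyclotomic p → ρ.IsFlatAt p →
      (groupCohomology.map (localGaloisToGlobal p) (𝟙 (locRep p (ad0Rep p ρbar))) 1).hom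
        ((H1π (ad0Rep p ρbar)).hom c) ∈ Lp) →
    Finite ↥(rtk3SelGroup p ρbar Smin T Lp (primesOf ((Smin ∪ T) ∪ Q))) →
    TwTanCard 𝒪 ρbar (rtk3Flat 𝒪 p Smin Q T)
      (Nat.card ↥(rtk3SelGroup p ρbar Smin T Lp (primesOf ((Smin ∪ T) ∪ Q))))

end Fermat.Agent.RT

end


end ZBTW_014_4

/-! ### bundled: `Fermat.Agent.TW.Core.Asm` -/
section ZBTW_014_5
/-
Project TW (S56) — TW-Core, THE TOP-LEVEL ASSEMBLY (helper63).
`StmtCoreOrd 𝒪` and `StmtCoreFlat 𝒪` (TW/Plan.lean) from the deliverables of the sub-projects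
TW-S, TW-F, TW-E, TW-L, TW-W, TW-G.   Mathematics: NOTES/TW-Core.md.
-/

set_option autoImplicit false
set_option linter.unusedSectionVars false
set_option linter.unusedVariables false
set_option linter.style.haveILetI false

noncomputable section

namespace Fermat.Agent.TW.Core

open CategoryTheory groupCohomology IsLocalRing Module Polynomial
open Fermat.Agent.PT Fermat.Agent.PT.B Fermat.Agent.PT.F Fermat.Agent.S53
open Fermat.Agent.TW.S Fermat.Agent.TW.L Fermat.Agent.TW.F Fermat.Agent.TW.E Fermat.Agent.TW.W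
open ExtCitation

/-! ### Generalities -/

/-- monotonicity of `TwTanCard` -/
theorem casm_twTanCard_mono {𝒪 : Type} [CommRing 𝒪] [IsDomain 𝒪] [IsDiscreteValuationRing 𝒪]
    [IsAdicComplete (maximalIdeal 𝒪) 𝒪] [Finite (ResidueField 𝒪)]
    {ρbar : ResidualGaloisRep (ResidueField 𝒪)}
    {𝒟 : ∀ ⦃A : Type⦄ [CommRing A] [IsLocalRing A] [Algebra 𝒪 A], GaloisRepAdic A → Prop}
    {N M : ℕ} (h : TwTanCard 𝒪 ρbar 𝒟 N) (hNM : N ≤ M) : TwTanCard 𝒪 ρbar 𝒟 M :=
  fun ι _ t ht => le_trans (h ι t ht) hNM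

/-- `TwTanCard` when there is no deformation at all -/
theorem casm_twTanCard_of_isEmpty {𝒪 : Type} [CommRing 𝒪] [IsDomain 𝒪]
    [IsDiscreteValuationRing 𝒪]
    [IsAdicComplete (maximalIdeal 𝒪) 𝒪] [Finite (ResidueField 𝒪)]
    {ρbar : ResidualGaloisRep (ResidueField 𝒪)}
    {𝒟 : ∀ ⦃A : Type⦄ [CommRing A] [IsLocalRing A] [Algebra 𝒪 A], GaloisRepAdic A → Prop}
    (h : TangentSub 𝒪 ρbar 𝒟 → False) (N : ℕ) : TwTanCard 𝒪 ρbar 𝒟 N := by
  intro ι _ t _
  haveI : IsEmpty ι := ⟨fun i => h (t i)⟩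
  simp

/-- the characteristic of the residue field -/
theorem casm_charP {𝒪 : Type} [CommRing 𝒪] [IsLocalRing 𝒪] (p : ℕ) [hp : Fact p.Prime]
    (hp𝒪 : (p : 𝒪) ∈ maximalIdeal 𝒪) : CharP (ResidueField 𝒪) p := by
  have h0 : ((p : ℕ) : ResidueField 𝒪) = 0 := by
    have h1 : residue 𝒪 (p : 𝒪) = 0 := (residue_eq_zero_iff _).2 hp𝒪
    rw [map_natCast] at h1
    exact h1
  exact (CharP.charP_iff_prime_eq_zero hp.out).2 h0

/-- a sum of indicator terms over a subsingleton set -/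
theorem casm_sum_ite_le_one {ι : Type} [Fintype ι] [DecidableEq ι] (P : ι → Prop)
    [DecidablePred P] (f : ℕ) (h : ∀ i j, P i → P j → i = j) :
    (∑ i, if P i then f else 0) ≤ f := by
  classical
  rw [← Finset.sum_filter, Finset.sum_const, smul_eq_mul]
  have hc : (Finset.univ.filter P).card ≤ 1 := by
    rw [Finset.card_le_one]
    intro a ha b hb
    exact h a b (Finset.mem_filter.1 ha).2 (Finset.mem_filter.1 hb).2
  calc (Finset.univ.filter P).card * f ≤ 1 * f := Nat.mul_le_mul_right f hc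
    _ = f := one_mul f

/-- a sum of indicator terms over a set which injects into a set with `≤ r` elements -/
theorem casm_sum_ite_le {ι : Type} [Fintype ι] [DecidableEq ι] (P : ι → Prop)
    [DecidablePred P] (f r : ℕ) (g : ι → ℕ) (hg : Function.Injective g) (Q : Finset ℕ)
    (hQ : Q.card ≤ r) (h : ∀ i, P i → g i ∈ Q) :
    (∑ i, if P i then f else 0) ≤ r * f := by
  classical
  rw [← Finset.sum_filter, Finset.sum_const, smul_eq_mul]
  have hc : (Finset.univ.filter P).card ≤ Q.card :=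
    Finset.card_le_card_of_injOn g (fun i hi => h i (Finset.mem_filter.1 hi).2)
      (fun a _ b _ hab => hg hab)
  exact Nat.mul_le_mul_right f (le_trans hc hQ)

/-! ### The local conditions -/

section Loc

variable (p : ℕ) [Fact p.Prime] {k : Type} [Field k] [CharP k p] [Algebra (ZMod p) k] [Finite k]
  (ρbar : ResidualGaloisRep k)

/-- the unramified classes are level classes -/
theorem casm_unrH1_le (q : ℕ) [Fact q.Prime] (M : Rep.{0} (ZMod p) (GQq q)) :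
    unrH1 q M ≤ levH1 (towerLoc q) M := by
  intro x hx
  obtain ⟨c, hc1, -, hc3⟩ := (mem_unrH1 q M x).1 hx
  exact (mem_levH1_iff _ _ x).2 ⟨c, hc1, hc3⟩

/-- the local conditions consist of level classes -/
theorem casm_locCond_le (Smin : Finset ℕ)
    (Lp : Submodule (ZMod p) (H1 (locRep p (ad0Rep p ρbar))))
    (hLp : Lp ≤ levH1 (towerLoc p) (locRep p (ad0Rep p ρbar))) (q : ℕ) [Fact q.Prime] :
    locCond p ρbar Smin Lp q ≤ levH1 (towerLoc q) (locRep q (ad0Rep p ρbar)) := by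
  by_cases h : q = p
  · subst h
    exact le_trans (le_of_eq (locCond_self q ρbar Smin Lp)) hLp
  · by_cases hm : q ∈ Smin
    · rw [locCond_of_mem p ρbar Smin Lp q h hm]
      exact casm_unrH1_le p q _
    · rw [locCond_of_not_mem p ρbar Smin Lp q h hm]

/-- the local terms of the count -/
theorem casm_locCond_rank (hmin : StmtAdMin) (htw : StmtAdTw) (Smin : Finset ℕ)
    (Lp : Submodule (ZMod p) (H1 (locRep p (ad0Rep p ρbar))))
    (hLpfin : Module.Finite (ZMod p) Lp)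
    (hLprk : finrank (ZMod p) Lp ≤
      finrank (ZMod p) k + finrank (ZMod p) (locRep p (ad0Rep p ρbar)).ρ.invariants)
    (q : ℕ) [Fact q.Prime]
    (hq : q = p ∨ q ∈ Smin ∨ ((q : ZMod p) = 1 ∧ ρbar.IsUnramifiedAt q ∧ FrobDistinct ρbar q)) :
    Module.Finite (ZMod p) (locCond p ρbar Smin Lp q) ∧
      finrank (ZMod p) (locCond p ρbar Smin Lp q) ≤
        finrank (ZMod p) (locRep q (ad0Rep p ρbar)).ρ.invariants +
          (if q = p ∨ q ∉ Smin then finrank (ZMod p) k else 0) := by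
  by_cases h : q = p
  · subst h
    have e : locCond q ρbar Smin Lp q = Lp := locCond_self q ρbar Smin Lp
    rw [if_pos (Or.inl rfl), e]
    exact ⟨hLpfin, by omega⟩
  · by_cases hm : q ∈ Smin
    · rw [locCond_of_mem p ρbar Smin Lp q h hm, if_neg (by tauto)]
      obtain ⟨h1, h2⟩ := hmin p k ρbar q
      exact ⟨h1, by omega⟩
    · rw [locCond_of_not_mem p ρbar Smin Lp q h hm, if_pos (Or.inr hm)]
      obtain ⟨h3, h4, h5⟩ : (q : ZMod p) = 1 ∧ ρbar.IsUnramifiedAt q ∧ FrobDistinct ρbar q := by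
        rcases hq with hq | hq | hq
        · exact absurd hq h
        · exact absurd hq hm
        · exact hq
      exact htw p k ρbar q h3 h4 h5

end Loc

/-! ### Annihilator of the full local condition -/

/-- the exact annihilator of the full level cohomology is `0` (right kernel of local duality) -/
theorem casm_perp_top (hlr : StmtLocRight) {p : ℕ} [Fact p.Prime] {G : Type} [Group G]
    {ι : Type} [Fintype ι] {Gloc : ι → Type} [∀ v, Group (Gloc v)] (D : PTDatum p G ι Gloc)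
    (A B : Rep.{0} (ZMod p) G) [FiniteDimensional (ZMod p) A] [FiniteDimensional (ZMod p) B]
    (P : DualPair D.χ A B) (hA : TrivOnLevel D.𝒯 A) (hB : TrivOnLevel D.𝒯 B) (v : ι)
    (L : Submodule (ZMod p) (H1 (Rep.res (D.r v) A)))
    (L' : Submodule (ZMod p) (H1 (Rep.res (D.r v) B)))
    (hL : locH1 D A v ≤ L) (hperp : IsPerp D P v L L') (y : H1 (Rep.res (D.r v) B))
    (hy : y ∈ L') : y = 0 := by
  obtain ⟨hy1, hy2⟩ := (hperp y).1 hy
  obtain ⟨cy, hcy1, hcy2⟩ := (mem_levH1_iff (D.𝒯loc v) (Rep.res (D.r v) B) y).1 hy1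
  have hcob : (cy : Gloc v → B.V) ∈ coboundaries₁ (Rep.res (D.r v) B) :=
    hlr p G ι Gloc D A B P hA hB v cy cy.2 hcy1 (fun cx hcx hcxl => by
      have hxl : (H1π (Rep.res (D.r v) A)).hom (⟨cx, hcx⟩ : cocycles₁ (Rep.res (D.r v) A)) ∈
          locH1 D A v :=
        (mem_levH1_iff (D.𝒯loc v) (Rep.res (D.r v) A) _).2 ⟨⟨cx, hcx⟩, hcxl, rfl⟩
      exact hy2 _ (hL hxl) hxl ⟨cx, hcx⟩ cy hcxl hcy1 rfl hcy2)
  have h0 : (H1π (Rep.res (D.r v) B)).hom cy = 0 :=
    (groupCohomology.H1π_eq_zero_iff cy).2 hcob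
  rw [hcy2] at h0
  exact h0

/-! ### The count -/

/-- the inputs of the count (everything but the local condition at `p`, the Taylor–Wiles primes
and TW-S) -/
structure CoreInputs : Prop where
  gw : StmtGWFinal
  ec : StmtEC
  cg : StmtCmGlob
  cl : StmtCmLoc
  h90 : StmtH90Loc
  ex : StmtExistC
  sv : StmtSurvC
  locex : StmtLocExistQ
  pdepth : StmtPDepthTower
  perp : StmtPerpExists
  locRight : StmtLocRight
  gloFin : StmtGloFin
  adLevel : StmtAdLevel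
  adRank : StmtAdRank
  archDual : StmtArchDual
  adArch : StmtAdArch
  adGlob0 : StmtAdGlob0
  adMin : StmtAdMin
  adTw : StmtAdTw

section Count

variable {𝒪 : Type} [CommRing 𝒪] [IsDomain 𝒪] [IsDiscreteValuationRing 𝒪]
  [IsAdicComplete (maximalIdeal 𝒪) 𝒪] [Finite (ResidueField 𝒪)]

/-- membership in `primesOf` -/
theorem casm_mem_primesOf (T : Finset ℕ) (q : Nat.Primes) : q ∈ primesOf T ↔ (q : ℕ) ∈ T :=
  Finset.mem_subtype

/-- `ad⁰ ρ̄` is finite -/
theorem casm_finite_ad0 (p : ℕ) [Fact p.Prime] {k : Type} [Field k] [CharP k p] [Finite k]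
    (ρbar : ResidualGaloisRep k) : Finite (ad0Rep p ρbar).V := by
  haveI : Finite ρbar.V := Module.finite_of_finite k
  haveI : Finite (Module.End k ρbar.V) := DFunLike.finite _
  exact inferInstanceAs (Finite ↥(ad0Sub ρbar))

/-- the arithmetic of the count -/
theorem casm_arith (sel h0B h2B h1B f dA cA cB sumh0 sumL selB h0A r : ℕ)
    (hgw : sel + h0B + f + sumh0 ≤ selB + h0A + sumL)
    (hsumL : sumL ≤ sumh0 + f + r * f) (hselB : selB = 0) (hh0A : h0A = 0) :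
    sel ≤ r * f := by
  omega

/-- **The count**: the Selmer group of `ad⁰ ρ̄` with the conditions `selCond` has at most `|k|^r`
elements, if the `r` Taylor–Wiles primes kill the dual Selmer group and the local condition at
`p` has dimension `≤ f + h⁰(G_p, ad⁰)`. -/
theorem casm_sel_card (I : CoreInputs) (p : ℕ) [Fact p.Prime] [CharP (ResidueField 𝒪) p]
    [Algebra (ZMod p) (ResidueField 𝒪)]
    (ρbar : ResidualGaloisRep (ResidueField 𝒪)) (S Smin : Finset ℕ)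
    (hyp : TWHyp 𝒪 p ρbar S Smin) (n r : ℕ) (qv : Fin r → ℕ)
    (hfam : IsTWFamily p ρbar S n r qv)
    (hkill : ∀ x ∈ levH1 (towerS (primesOf (Smin ∪ Finset.univ.image qv)))
          ((ad0Rep p ρbar).dualTwist (cycloChar p)),
        (∀ (i : Fin r) (hq : (qv i).Prime),
          letI : Fact (qv i).Prime := ⟨hq⟩
          (groupCohomology.map (localGaloisToGlobal (qv i))
            (𝟙 (locRep (qv i) ((ad0Rep p ρbar).dualTwist (cycloChar p)))) 1).hom x = 0) →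
        x = 0)
    (Lp : Submodule (ZMod p) (H1 (locRep p (ad0Rep p ρbar))))
    (hLp : Lp ≤ levH1 (towerLoc p) (locRep p (ad0Rep p ρbar)))
    (hLpfin : Module.Finite (ZMod p) Lp)
    (hLprk : finrank (ZMod p) Lp ≤ finrank (ZMod p) (ResidueField 𝒪) +
      finrank (ZMod p) (locRep p (ad0Rep p ρbar)).ρ.invariants) :
    Finite ↥(selGroup p ρbar Smin Lp (primesOf (Smin ∪ Finset.univ.image qv))) ∧
      Nat.card ↥(selGroup p ρbar Smin Lp (primesOf (Smin ∪ Finset.univ.image qv))) ≤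
        Nat.card (ResidueField 𝒪) ^ r := by
  classical
  have hp2 := hyp.hp2
  have hpT : pPrime p ∈ primesOf (Smin ∪ Finset.univ.image qv) :=
    (casm_mem_primesOf _ _).2 (Finset.mem_union_left _ hyp.hpSmin)
  -- `ρ̄` is unramified outside `T`
  have hunr : ∀ q : Nat.Primes, q ∉ primesOf (Smin ∪ Finset.univ.image qv) →
      ρbar.IsUnramifiedAt (q : ℕ) := by
    intro q hq
    have h1 : (q : ℕ) ∉ Smin ∪ Finset.univ.image qv := fun h => hq ((casm_mem_primesOf _ _).2 h)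
    have h2 : (q : ℕ) ∉ Smin := fun h => h1 (Finset.mem_union_left _ h)
    have h3 : (q : ℕ) ≠ p := fun h => h2 (h ▸ hyp.hpSmin)
    by_contra hc
    exact h2 ((hyp.hmin q q.2 h3).2 hc)
  obtain ⟨hA, hB⟩ := I.adLevel p (ResidueField 𝒪) ρbar _ hpT hunr
  haveI : Finite (ad0Rep p ρbar).V := casm_finite_ad0 p ρbar
  haveI hAfd : FiniteDimensional (ZMod p) (ad0Rep p ρbar).V := Module.Finite.of_finite
  haveI hBfd : FiniteDimensional (ZMod p) ((ad0Rep p ρbar).dualTwist (cycloChar p)).V :=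
    inferInstanceAs (FiniteDimensional (ZMod p) (Module.Dual (ZMod p) (ad0Rep p ρbar).V))
  haveI hkfd : Module.Finite (ZMod p) (ResidueField 𝒪) := Module.Finite.of_finite
  -- the datum
  let D : PTDatum p GQ ↥(primesOf (Smin ∪ Finset.univ.image qv))
      (GlocS (primesOf (Smin ∪ Finset.univ.image qv))) :=
    concreteDatum p hp2 _ hpT I.cg I.cl I.h90 I.ex I.sv
  have hLE : LocExist D := fun v =>
    letI : Fact ((v : Nat.Primes) : ℕ).Prime := ⟨(v : Nat.Primes).2⟩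
    I.locex p ((v : Nat.Primes) : ℕ)
  have hPD : HasPDepth D := fun v U hU => I.pdepth p _ hpT v U hU
  let P : DualPair D.χ (ad0Rep p ρbar) ((ad0Rep p ρbar).dualTwist (cycloChar p)) :=
    DualPair.std (cycloChar p) (ad0Rep p ρbar)
  -- the local conditions and their annihilators
  have hperp := fun v => I.perp p GQ _ _ D _ _ P hA hB v
    (selCond p ρbar Smin Lp (primesOf (Smin ∪ Finset.univ.image qv)) v)
  choose L' hL' using hperp
  have hL : ∀ v, selCond p ρbar Smin Lp (primesOf (Smin ∪ Finset.univ.image qv)) v ≤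
      locH1 D (ad0Rep p ρbar) v := fun v =>
    letI : Fact ((v : Nat.Primes) : ℕ).Prime := ⟨(v : Nat.Primes).2⟩
    casm_locCond_le p ρbar Smin Lp hLp ((v : Nat.Primes) : ℕ)
  -- (EC)
  obtain ⟨hfin2, hec⟩ := I.ec p hp2 _ hpT I.cg I.cl I.h90 I.ex I.sv
    ((ad0Rep p ρbar).dualTwist (cycloChar p)) hB
  have harch := I.adArch p hp2 (ResidueField 𝒪) ρbar hyp.hdet
  have hdual := I.archDual p hp2 (ad0Rep p ρbar)
  have hrank := I.adRank p (ResidueField 𝒪) ρbar
  have hrankB : finrank (ZMod p) ((ad0Rep p ρbar).dualTwist (cycloChar p)).V =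
      finrank (ZMod p) (ad0Rep p ρbar).V := Subspace.dual_finrank_eq
  have hEC : finrank (ZMod p) ↥(((ad0Rep p ρbar).dualTwist (cycloChar p)).ρ.invariants) +
      finrank (ZMod p) (levH2 D.𝒯 ((ad0Rep p ρbar).dualTwist (cycloChar p))) +
        finrank (ZMod p) (ResidueField 𝒪) ≤
      finrank (ZMod p) ↥(levH1 D.𝒯 ((ad0Rep p ρbar).dualTwist (cycloChar p))) := by
    have h1 : finrank (ZMod p) ↥(((ad0Rep p ρbar).dualTwist (cycloChar p)).ρ.invariants) +
        finrank (ZMod p)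
          (levH2 (towerS (primesOf (Smin ∪ Finset.univ.image qv)))
            ((ad0Rep p ρbar).dualTwist (cycloChar p))) +
        finrank (ZMod p) ((ad0Rep p ρbar).dualTwist (cycloChar p)).V =
      finrank (ZMod p) ↥(levH1 (towerS (primesOf (Smin ∪ Finset.univ.image qv)))
          ((ad0Rep p ρbar).dualTwist (cycloChar p))) +
        finrank (ZMod p)
          ↥((Rep.res archimedeanLoc ((ad0Rep p ρbar).dualTwist (cycloChar p))).ρ.invariants) :=
      hec
    show finrank (ZMod p) ↥(((ad0Rep p ρbar).dualTwist (cycloChar p)).ρ.invariants) +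
      finrank (ZMod p) (levH2 (towerS (primesOf (Smin ∪ Finset.univ.image qv)))
        ((ad0Rep p ρbar).dualTwist (cycloChar p))) +
        finrank (ZMod p) (ResidueField 𝒪) ≤
      finrank (ZMod p) ↥(levH1 (towerS (primesOf (Smin ∪ Finset.univ.image qv)))
        ((ad0Rep p ρbar).dualTwist (cycloChar p)))
    omega
  -- Greenberg–Wiles
  have hgw := I.gw p GQ _ _ D hLE hPD (ad0Rep p ρbar) _ P hA hB
    (selCond p ρbar Smin Lp (primesOf (Smin ∪ Finset.univ.image qv))) L' hL hL'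
    (finrank (ZMod p) (ResidueField 𝒪)) hfin2 hEC
  -- the dual Selmer group vanishes
  have hselB : ∀ x ∈ selLev D ((ad0Rep p ρbar).dualTwist (cycloChar p)) L', x = 0 := by
    intro x hx
    obtain ⟨hx1, hx2⟩ := Submodule.mem_inf.1 hx
    refine hkill x hx1 (fun i hq => ?_)
    have hmem : (⟨qv i, hq⟩ : Nat.Primes) ∈ primesOf (Smin ∪ Finset.univ.image qv) :=
      (casm_mem_primesOf _ _).2 (Finset.mem_union_right _
        (Finset.mem_image_of_mem qv (Finset.mem_univ i)))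
    let v : ↥(primesOf (Smin ∪ Finset.univ.image qv)) := ⟨⟨qv i, hq⟩, hmem⟩
    letI : Fact (qv i).Prime := ⟨hq⟩
    have hqS : qv i ∉ S := (hfam.2.1 i).2.1
    have hqSmin : qv i ∉ Smin := fun h => hqS (hyp.hSmin h)
    have hqp : qv i ≠ p := fun h => hqSmin (h ▸ hyp.hpSmin)
    have hy := (mem_selmer_iff _ _ _ x).1 hx2 v
    have hLv : selCond p ρbar Smin Lp (primesOf (Smin ∪ Finset.univ.image qv)) v =
        levH1 (towerLoc (qv i)) (locRep (qv i) (ad0Rep p ρbar)) :=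
      locCond_of_not_mem p ρbar Smin Lp (qv i) hqp hqSmin
    exact casm_perp_top I.locRight D (ad0Rep p ρbar) ((ad0Rep p ρbar).dualTwist (cycloChar p))
      P hA hB v _ (L' v) (le_of_eq hLv.symm) (hL' v) _ hy
  have hselB0 : finrank (ZMod p)
      ↥(selLev D ((ad0Rep p ρbar).dualTwist (cycloChar p)) L') = 0 := by
    have hbot : selLev D ((ad0Rep p ρbar).dualTwist (cycloChar p)) L' = ⊥ :=
      (Submodule.eq_bot_iff _).2 hselB
    rw [hbot]
    exact finrank_bot _ _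
  -- `H⁰(G_ℚ, ad⁰) = 0`
  have hh0A : finrank (ZMod p) ↥((ad0Rep p ρbar).ρ.invariants) = 0 := by
    rw [I.adGlob0 p hp2 (ResidueField 𝒪) ρbar hyp.habs]
    exact finrank_bot _ _
  -- the local terms
  have hterm : ∀ v : ↥(primesOf (Smin ∪ Finset.univ.image qv)),
      finrank (ZMod p) ↥(selCond p ρbar Smin Lp (primesOf (Smin ∪ Finset.univ.image qv)) v) ≤
        finrank (ZMod p) ↥((Rep.res (D.r v) (ad0Rep p ρbar)).ρ.invariants) +
          ((if ((v : Nat.Primes) : ℕ) = p then finrank (ZMod p) (ResidueField 𝒪) else 0) +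
            (if ((v : Nat.Primes) : ℕ) ∉ Smin then finrank (ZMod p) (ResidueField 𝒪) else 0)) := by
    intro v
    letI : Fact ((v : Nat.Primes) : ℕ).Prime := ⟨(v : Nat.Primes).2⟩
    have hvT : ((v : Nat.Primes) : ℕ) ∈ Smin ∪ Finset.univ.image qv :=
      (casm_mem_primesOf _ _).1 v.2
    have hq : ((v : Nat.Primes) : ℕ) = p ∨ ((v : Nat.Primes) : ℕ) ∈ Smin ∨
        ((((v : Nat.Primes) : ℕ) : ZMod p) = 1 ∧ ρbar.IsUnramifiedAt ((v : Nat.Primes) : ℕ) ∧
          FrobDistinct ρbar ((v : Nat.Primes) : ℕ)) := by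
      by_cases hm : ((v : Nat.Primes) : ℕ) ∈ Smin
      · exact Or.inr (Or.inl hm)
      · refine Or.inr (Or.inr ?_)
        rcases Finset.mem_union.1 hvT with h | h
        · exact absurd h hm
        · obtain ⟨i, -, hi⟩ := Finset.mem_image.1 h
          have hvp : ((v : Nat.Primes) : ℕ) ≠ p := fun h => hm (h ▸ hyp.hpSmin)
          rw [← hi] at hm hvp ⊢
          refine ⟨?_, ?_, hfam.2.2 i⟩
          · have hdvd : p ∣ qv i - 1 :=
              dvd_trans (dvd_pow_self p (Nat.succ_ne_zero n)) (hfam.2.1 i).2.2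
            have h0 : ((qv i - 1 : ℕ) : ZMod p) = 0 := (ZMod.natCast_eq_zero_iff _ _).2 hdvd
            have h1 : qv i = (qv i - 1) + 1 := by
              have := (hfam.2.1 i).1.pos
              omega
            rw [h1, Nat.cast_add, h0, Nat.cast_one, zero_add]
          · by_contra hc
            exact hm ((hyp.hmin (qv i) (hfam.2.1 i).1 hvp).2 hc)
    have h1 := (casm_locCond_rank p ρbar I.adMin I.adTw Smin Lp hLpfin hLprk
      ((v : Nat.Primes) : ℕ) hq).2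
    refine le_trans h1 (Nat.add_le_add_left ?_ _)
    by_cases hc1 : ((v : Nat.Primes) : ℕ) = p
    · rw [if_pos (Or.inl hc1), if_pos hc1]
      exact Nat.le_add_right _ _
    · by_cases hc2 : ((v : Nat.Primes) : ℕ) ∉ Smin
      · rw [if_pos (Or.inr hc2), if_neg hc1, if_pos hc2]
        exact Nat.le_add_left _ _
      · rw [if_neg (by tauto)]
        exact Nat.zero_le _
  have hsumL : (∑ v : ↥(primesOf (Smin ∪ Finset.univ.image qv)),
      finrank (ZMod p)
        ↥(selCond p ρbar Smin Lp (primesOf (Smin ∪ Finset.univ.image qv)) v)) ≤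
      (∑ v : ↥(primesOf (Smin ∪ Finset.univ.image qv)),
        finrank (ZMod p) ↥((Rep.res (D.r v) (ad0Rep p ρbar)).ρ.invariants)) +
        finrank (ZMod p) (ResidueField 𝒪) + r * finrank (ZMod p) (ResidueField 𝒪) := by
    refine le_trans (Finset.sum_le_sum (fun v _ => hterm v)) ?_
    rw [Finset.sum_add_distrib, Finset.sum_add_distrib, add_assoc]
    refine Nat.add_le_add_left (Nat.add_le_add ?_ ?_) _
    · exact casm_sum_ite_le_one _ _
        (fun i j hi hj => Subtype.ext (Subtype.ext (hi.trans hj.symm)))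
    · refine casm_sum_ite_le _ _ r (fun v => ((v : Nat.Primes) : ℕ))
        (fun a b hab => Subtype.ext (Subtype.ext hab)) (Finset.univ.image qv)
        (le_trans Finset.card_image_le (by simp)) (fun v hv => ?_)
      rcases Finset.mem_union.1 ((casm_mem_primesOf _ _).1 v.2) with h | h
      · exact absurd h hv
      · exact h
  have hsel : finrank (ZMod p) ↥(selLev D (ad0Rep p ρbar)
      (selCond p ρbar Smin Lp (primesOf (Smin ∪ Finset.univ.image qv)))) ≤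
      r * finrank (ZMod p) (ResidueField 𝒪) :=
    casm_arith _ _ 0 0 _ 0 0 0 _ _ _ _ r hgw hsumL hselB0 hh0A
  -- conclusion
  haveI hfinlev : Finite ↥(levH1 D.𝒯 (ad0Rep p ρbar)) :=
    I.gloFin p GQ _ _ D (ad0Rep p ρbar) hA
  have hle : selGroup p ρbar Smin Lp (primesOf (Smin ∪ Finset.univ.image qv)) ≤
      levH1 D.𝒯 (ad0Rep p ρbar) := inf_le_left
  haveI hfinsel : Finite ↥(selGroup p ρbar Smin Lp (primesOf (Smin ∪ Finset.univ.image qv))) :=
    Finite.of_injective (Submodule.inclusion hle) (Submodule.inclusion_injective hle)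
  refine ⟨hfinsel, ?_⟩
  haveI : Module.Finite (ZMod p)
      ↥(selGroup p ρbar Smin Lp (primesOf (Smin ∪ Finset.univ.image qv))) :=
    Module.Finite.of_finite
  rw [Module.natCard_eq_pow_finrank (K := ZMod p)
      (V := ↥(selGroup p ρbar Smin Lp (primesOf (Smin ∪ Finset.univ.image qv)))),
    Module.natCard_eq_pow_finrank (K := ZMod p) (V := ResidueField 𝒪), Nat.card_zmod,
    ← pow_mul, mul_comm]
  exact Nat.pow_le_pow_right (Fact.out : p.Prime).pos hsel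

/-- the ordinary classes are level classes -/
theorem casm_ordH1_le (p : ℕ) [Fact p.Prime] {k : Type} [Field k] [CharP k p]
    (ρbar : ResidualGaloisRep k) (Lbar : Submodule k ρbar.V) (q : ℕ) [Fact q.Prime] :
    ordH1 p ρbar Lbar q ≤ levH1 (towerLoc q) (locRep q (ad0Rep p ρbar)) := by
  intro x hx
  obtain ⟨c, hc1, -, hc3⟩ := (mem_ordH1 p ρbar Lbar q x).1 hx
  exact (mem_levH1_iff _ _ x).2 ⟨c, hc1, hc3⟩

/-- **TW-Core, ordinary half.** -/
theorem stmtCoreOrd_of (I : CoreInputs) (hkill : StmtKillAll 𝒪) (hsel : StmtSelCardOrd)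
    (hres : StmtResStrict) (hord : StmtAdOrd) : StmtCoreOrd 𝒪 := by
  intro p _ ρbar S Smin hyp
  haveI : CharP (ResidueField 𝒪) p := casm_charP p hyp.hp𝒪
  letI : Algebra (ZMod p) (ResidueField 𝒪) := ZMod.algebra (ResidueField 𝒪) p
  by_cases hex : ∃ Lbar : Submodule (ResidueField 𝒪) ρbar.V, IsStrictOrdLine p ρbar Lbar
  · obtain ⟨Lbar, hLbar⟩ := hex
    obtain ⟨r, hr⟩ := hkill p ρbar S Smin hyp
    refine ⟨r, fun n => ?_⟩
    obtain ⟨qv, hfam, hk⟩ := hr n
    refine ⟨qv, hfam, ?_⟩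
    obtain ⟨hfin, hrk⟩ := hord p hyp.hp2 (ResidueField 𝒪) ρbar Lbar hLbar
    obtain ⟨hsfin, hscard⟩ := casm_sel_card I p ρbar S Smin hyp n r qv hfam hk
      (ordH1 p ρbar Lbar p) (casm_ordH1_le p ρbar Lbar p) hfin hrk
    exact casm_twTanCard_mono (hsel 𝒪 p ρbar hyp.hp2 hyp.habs Smin (Finset.univ.image qv)
      hyp.hpSmin hyp.hmin Lbar hLbar.1 hsfin) hscard
  · refine ⟨0, fun n => ⟨Fin.elim0, ⟨fun i => i.elim0, fun i => i.elim0, fun i => i.elim0⟩,
      casm_twTanCard_of_isEmpty (fun t => hex ?_) _⟩⟩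
    obtain ⟨ρ, h𝒟, hresid⟩ := t
    exact hres 𝒪 p ρbar ρ hresid h𝒟.1.2.1

/-- **TW-Core, flat half.** -/
theorem stmtCoreFlat_of (I : CoreInputs) (hkill : StmtKillAll 𝒪) (hsel : StmtSelCardFlat)
    (hW : StmtWFlat) : StmtCoreFlat 𝒪 := by
  intro p _ ρbar S Smin hyp
  haveI : CharP (ResidueField 𝒪) p := casm_charP p hyp.hp𝒪
  letI : Algebra (ZMod p) (ResidueField 𝒪) := ZMod.algebra (ResidueField 𝒪) p
  obtain ⟨D₀⟩ := nonempty_rigidDatum (𝒪 := 𝒪) ρbar hyp.habs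
  obtain ⟨r, hr⟩ := hkill p ρbar S Smin hyp
  refine ⟨r, fun n => ?_⟩
  obtain ⟨qv, hfam, hk⟩ := hr n
  refine ⟨qv, hfam, ?_⟩
  obtain ⟨hle, hfin, hrk⟩ := hW p hyp.hp2 𝒪 ρbar D₀ hyp.hdet hyp.hsplit
  obtain ⟨hsfin, hscard⟩ := casm_sel_card I p ρbar S Smin hyp n r qv hfam hk
    (flatH1 p D₀) hle hfin hrk
  exact casm_twTanCard_mono (hsel 𝒪 p ρbar D₀ hyp.hp2 Smin (Finset.univ.image qv)
    hyp.hpSmin hyp.hmin (flatH1 p D₀)
    (fun ρ c hc hdet hflat => flatClass_mem_flatH1 p D₀ ρ c hc hdet hflat) hsfin) hscard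

end Count

end Fermat.Agent.TW.Core

end


end ZBTW_014_5

/-! ### bundled: `Fermat.Agent.RT.K3.Count` -/
section ZBTW_014_6
/-
RT-K3, piece K3-count (helper68): Greenberg–Wiles for the Selmer structure with `L_r = 0` at the
trivial primes.  Twin of `TW.Core.casm_sel_card` (TW/Core/Asm.lean, helper63).

  `stmtK3Count_of : Core.CoreInputs → StmtK3Count 𝒪`
  `#Sel_{Q,T} · |k|^(3|T|) ≤ |k|^h`.
-/

set_option autoImplicit false
set_option linter.unusedSectionVars false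
set_option linter.unusedVariables false
set_option linter.style.haveILetI false

noncomputable section

namespace Fermat.Agent.RT

open CategoryTheory groupCohomology IsLocalRing Module Polynomial
open Fermat.Agent.PT Fermat.Agent.PT.B Fermat.Agent.PT.F Fermat.Agent.S53
open Fermat.Agent.TW Fermat.Agent.TW.S Fermat.Agent.TW.L Fermat.Agent.TW.F Fermat.Agent.TW.E
open Fermat.Agent.TW.W Fermat.Agent.TW.Core
open ExtCitation

/-! ### Generalities -/

/-- a sum of indicator terms over a set which contains a copy of `T` -/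
theorem rtk3c_sum_ite_ge {ι : Type} [Fintype ι] [DecidableEq ι] (P : ι → Prop)
    [DecidablePred P] (f : ℕ) (g : ι → ℕ) (T : Finset ℕ)
    (h : ∀ r ∈ T, ∃ i, P i ∧ g i = r) :
    T.card * f ≤ ∑ i, if P i then f else 0 := by
  classical
  rw [← Finset.sum_filter, Finset.sum_const, smul_eq_mul]
  refine Nat.mul_le_mul_right f ?_
  calc T.card ≤ ((Finset.univ.filter P).image g).card :=
        Finset.card_le_card (fun r hr => by
          obtain ⟨i, hi, rfl⟩ := h r hr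
          exact Finset.mem_image.2 ⟨i, Finset.mem_filter.2 ⟨Finset.mem_univ _, hi⟩, rfl⟩)
    _ ≤ (Finset.univ.filter P).card := Finset.card_image_le

/-- the arithmetic of the count -/
theorem rtk3c_arith (sel h0B f sumh0 sumL selB h0A h t : ℕ)
    (hgw : sel + h0B + f + sumh0 ≤ selB + h0A + sumL)
    (hsumL : sumL + t ≤ sumh0 + f + h * f) (hselB : selB = 0) (hh0A : h0A = 0) :
    sel + t ≤ h * f := by
  omega

/-! ### The local term at a trivial prime -/

section Loc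

variable (p : ℕ) [Fact p.Prime] {k : Type} [Field k] [CharP k p] (ρbar : ResidualGaloisRep k)

/-- at a trivial prime the local Galois group acts trivially on `ad⁰` -/
theorem rtk3c_ad0_triv (r : ℕ) [Fact r.Prime]
    (htriv : rtk3TrivAt (GaloisRepAdic.ofResidualGaloisRep ρbar) r) (τ : GQq r) :
    (ad0Rep p ρbar).ρ (localGaloisToGlobal r τ) = 1 := by
  have hmem : localGaloisToGlobal r τ ∈ (padicPlace r).decompositionSubgroup ℚ :=
    localGaloisToGlobal_mem_decompositionSubgroup r τ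
  have hmem' : (localGaloisToGlobal r τ)⁻¹ ∈ (padicPlace r).decompositionSubgroup ℚ :=
    Subgroup.inv_mem _ hmem
  have h1 : ρbar.ρ (localGaloisToGlobal r τ) = 1 ∨ ρbar.ρ (localGaloisToGlobal r τ) = -1 :=
    htriv (padicPlace r) (lfrobex_liesOverPrime r) _ hmem
  have h2 : ρbar.ρ (localGaloisToGlobal r τ) * ρbar.ρ (localGaloisToGlobal r τ)⁻¹ = 1 := by
    rw [← map_mul, mul_inv_cancel, map_one]
  apply LinearMap.ext
  intro x
  apply ad0Val_injective p ρbar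
  rw [ad0Val_ρ]
  rcases h1 with h1 | h1
  · rw [h1, one_mul] at h2
    rw [h1, h2, one_mul, mul_one]
    rfl
  · rw [h1] at h2
    have h3 : ρbar.ρ (localGaloisToGlobal r τ)⁻¹ = -1 := by
      have := congrArg (fun y => -y) h2
      simpa using this
    rw [h1, h3]
    simp

/-- at a trivial prime the invariants of the local Galois group are all of `ad⁰` -/
theorem rtk3c_invariants_top (r : ℕ) [Fact r.Prime]
    (htriv : rtk3TrivAt (GaloisRepAdic.ofResidualGaloisRep ρbar) r) :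
    (locRep r (ad0Rep p ρbar)).ρ.invariants = ⊤ := by
  rw [eq_top_iff]
  intro x _ τ
  have h := rtk3c_ad0_triv p ρbar r htriv τ
  exact congrArg (fun f => f x) h

end Loc

/-! ### The count -/

section Count

variable {𝒪 : Type} [CommRing 𝒪] [IsDomain 𝒪] [IsDiscreteValuationRing 𝒪]
  [IsAdicComplete (maximalIdeal 𝒪) 𝒪] [Finite (ResidueField 𝒪)]

/-- the local conditions consist of level classes -/
theorem rtk3c_locCond_le (p : ℕ) [Fact p.Prime] {k : Type} [Field k] [CharP k p]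
    [Algebra (ZMod p) k] [Finite k] (ρbar : ResidualGaloisRep k) (Smin T : Finset ℕ)
    (Lp : Submodule (ZMod p) (H1 (locRep p (ad0Rep p ρbar))))
    (hLp : Lp ≤ levH1 (towerLoc p) (locRep p (ad0Rep p ρbar))) (q : ℕ) [Fact q.Prime] :
    rtk3LocCond p ρbar Smin T Lp q ≤ levH1 (towerLoc q) (locRep q (ad0Rep p ρbar)) := by
  by_cases h : q ∈ T
  · rw [rtk3LocCond_of_mem p ρbar Smin T Lp q h]
    exact bot_le
  · rw [rtk3LocCond_of_not_mem p ρbar Smin T Lp q h]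
    exact casm_locCond_le p ρbar Smin Lp hLp q

/-- **K3-count.** -/
theorem stmtK3Count_of (I : CoreInputs) : StmtK3Count 𝒪 := by
  intro p _ _ _ ρbar S Smin T hyp hT hTS n h qv hfam hkill Lp hLp hLpfin hLprk
  classical
  have hp2 := hyp.hp2
  have hpT : pPrime p ∈ primesOf ((Smin ∪ T) ∪ Finset.univ.image qv) :=
    (casm_mem_primesOf _ _).2 (Finset.mem_union_left _ (Finset.mem_union_left _ hyp.hpSmin))
  -- `ρ̄` is unramified outside `Σ`
  have hunr : ∀ q : Nat.Primes, q ∉ primesOf ((Smin ∪ T) ∪ Finset.univ.image qv) →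
      ρbar.IsUnramifiedAt (q : ℕ) := by
    intro q hq
    have h1 : (q : ℕ) ∉ (Smin ∪ T) ∪ Finset.univ.image qv :=
      fun h => hq ((casm_mem_primesOf _ _).2 h)
    have h2 : (q : ℕ) ∉ Smin :=
      fun h => h1 (Finset.mem_union_left _ (Finset.mem_union_left _ h))
    have h3 : (q : ℕ) ≠ p := fun h => h2 (h ▸ hyp.hpSmin)
    by_contra hc
    exact h2 ((hyp.hmin q q.2 h3).2 hc)
  obtain ⟨hA, hB⟩ := I.adLevel p (ResidueField 𝒪) ρbar _ hpT hunr
  haveI : Finite (ad0Rep p ρbar).V := casm_finite_ad0 p ρbar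
  haveI hAfd : FiniteDimensional (ZMod p) (ad0Rep p ρbar).V := Module.Finite.of_finite
  haveI hBfd : FiniteDimensional (ZMod p) ((ad0Rep p ρbar).dualTwist (cycloChar p)).V :=
    inferInstanceAs (FiniteDimensional (ZMod p) (Module.Dual (ZMod p) (ad0Rep p ρbar).V))
  haveI hkfd : Module.Finite (ZMod p) (ResidueField 𝒪) := Module.Finite.of_finite
  -- the datum
  let D : PTDatum p GQ ↥(primesOf ((Smin ∪ T) ∪ Finset.univ.image qv))
      (GlocS (primesOf ((Smin ∪ T) ∪ Finset.univ.image qv))) :=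
    concreteDatum p hp2 _ hpT I.cg I.cl I.h90 I.ex I.sv
  have hLE : LocExist D := fun v =>
    letI : Fact ((v : Nat.Primes) : ℕ).Prime := ⟨(v : Nat.Primes).2⟩
    I.locex p ((v : Nat.Primes) : ℕ)
  have hPD : HasPDepth D := fun v U hU => I.pdepth p _ hpT v U hU
  let P : DualPair D.χ (ad0Rep p ρbar) ((ad0Rep p ρbar).dualTwist (cycloChar p)) :=
    DualPair.std (cycloChar p) (ad0Rep p ρbar)
  -- the local conditions and their annihilators
  have hperp := fun v => I.perp p GQ _ _ D _ _ P hA hB v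
    (rtk3SelCond p ρbar Smin T Lp (primesOf ((Smin ∪ T) ∪ Finset.univ.image qv)) v)
  choose L' hL' using hperp
  have hL : ∀ v, rtk3SelCond p ρbar Smin T Lp
      (primesOf ((Smin ∪ T) ∪ Finset.univ.image qv)) v ≤
      locH1 D (ad0Rep p ρbar) v := fun v =>
    letI : Fact ((v : Nat.Primes) : ℕ).Prime := ⟨(v : Nat.Primes).2⟩
    rtk3c_locCond_le p ρbar Smin T Lp hLp ((v : Nat.Primes) : ℕ)
  -- (EC)
  obtain ⟨hfin2, hec⟩ := I.ec p hp2 _ hpT I.cg I.cl I.h90 I.ex I.sv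
    ((ad0Rep p ρbar).dualTwist (cycloChar p)) hB
  have harch := I.adArch p hp2 (ResidueField 𝒪) ρbar hyp.hdet
  have hdual := I.archDual p hp2 (ad0Rep p ρbar)
  have hrank := I.adRank p (ResidueField 𝒪) ρbar
  have hrankB : finrank (ZMod p) ((ad0Rep p ρbar).dualTwist (cycloChar p)).V =
      finrank (ZMod p) (ad0Rep p ρbar).V := Subspace.dual_finrank_eq
  have hEC : finrank (ZMod p) ↥(((ad0Rep p ρbar).dualTwist (cycloChar p)).ρ.invariants) +
      finrank (ZMod p) (levH2 D.𝒯 ((ad0Rep p ρbar).dualTwist (cycloChar p))) +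
        finrank (ZMod p) (ResidueField 𝒪) ≤
      finrank (ZMod p) ↥(levH1 D.𝒯 ((ad0Rep p ρbar).dualTwist (cycloChar p))) := by
    have h1 : finrank (ZMod p) ↥(((ad0Rep p ρbar).dualTwist (cycloChar p)).ρ.invariants) +
        finrank (ZMod p)
          (levH2 (towerS (primesOf ((Smin ∪ T) ∪ Finset.univ.image qv)))
            ((ad0Rep p ρbar).dualTwist (cycloChar p))) +
        finrank (ZMod p) ((ad0Rep p ρbar).dualTwist (cycloChar p)).V =
      finrank (ZMod p) ↥(levH1 (towerS (primesOf ((Smin ∪ T) ∪ Finset.univ.image qv)))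
          ((ad0Rep p ρbar).dualTwist (cycloChar p))) +
        finrank (ZMod p)
          ↥((Rep.res archimedeanLoc ((ad0Rep p ρbar).dualTwist (cycloChar p))).ρ.invariants) :=
      hec
    show finrank (ZMod p) ↥(((ad0Rep p ρbar).dualTwist (cycloChar p)).ρ.invariants) +
      finrank (ZMod p) (levH2 (towerS (primesOf ((Smin ∪ T) ∪ Finset.univ.image qv)))
        ((ad0Rep p ρbar).dualTwist (cycloChar p))) +
        finrank (ZMod p) (ResidueField 𝒪) ≤
      finrank (ZMod p) ↥(levH1 (towerS (primesOf ((Smin ∪ T) ∪ Finset.univ.image qv)))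
        ((ad0Rep p ρbar).dualTwist (cycloChar p)))
    omega
  -- Greenberg–Wiles
  have hgw := I.gw p GQ _ _ D hLE hPD (ad0Rep p ρbar) _ P hA hB
    (rtk3SelCond p ρbar Smin T Lp (primesOf ((Smin ∪ T) ∪ Finset.univ.image qv))) L' hL hL'
    (finrank (ZMod p) (ResidueField 𝒪)) hfin2 hEC
  -- the Taylor–Wiles primes are not in `T`, not in `Smin`, and `≠ p`
  have hqS : ∀ i, qv i ∉ S := fun i => (hfam.2.1 i).2.1
  have hqT : ∀ i, qv i ∉ T := fun i h => hqS i (hTS h)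
  have hqSmin : ∀ i, qv i ∉ Smin := fun i h => hqS i (hyp.hSmin h)
  have hqp : ∀ i, qv i ≠ p := fun i h => hqSmin i (h ▸ hyp.hpSmin)
  -- the dual Selmer group vanishes
  have hselB : ∀ x ∈ selLev D ((ad0Rep p ρbar).dualTwist (cycloChar p)) L', x = 0 := by
    intro x hx
    obtain ⟨hx1, hx2⟩ := Submodule.mem_inf.1 hx
    refine hkill x hx1 (fun i hq => ?_)
    have hmem : (⟨qv i, hq⟩ : Nat.Primes) ∈ primesOf ((Smin ∪ T) ∪ Finset.univ.image qv) :=
      (casm_mem_primesOf _ _).2 (Finset.mem_union_right _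
        (Finset.mem_image_of_mem qv (Finset.mem_univ i)))
    let v : ↥(primesOf ((Smin ∪ T) ∪ Finset.univ.image qv)) := ⟨⟨qv i, hq⟩, hmem⟩
    letI : Fact (qv i).Prime := ⟨hq⟩
    have hy := (mem_selmer_iff _ _ _ x).1 hx2 v
    have hLv : rtk3SelCond p ρbar Smin T Lp
        (primesOf ((Smin ∪ T) ∪ Finset.univ.image qv)) v =
        levH1 (towerLoc (qv i)) (locRep (qv i) (ad0Rep p ρbar)) :=
      (rtk3LocCond_of_not_mem p ρbar Smin T Lp (qv i) (hqT i)).trans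
        (locCond_of_not_mem p ρbar Smin Lp (qv i) (hqp i) (hqSmin i))
    exact casm_perp_top I.locRight D (ad0Rep p ρbar) ((ad0Rep p ρbar).dualTwist (cycloChar p))
      P hA hB v _ (L' v) (le_of_eq hLv.symm) (hL' v) _ hy
  have hselB0 : finrank (ZMod p)
      ↥(selLev D ((ad0Rep p ρbar).dualTwist (cycloChar p)) L') = 0 := by
    have hbot : selLev D ((ad0Rep p ρbar).dualTwist (cycloChar p)) L' = ⊥ :=
      (Submodule.eq_bot_iff _).2 hselB
    rw [hbot]
    exact finrank_bot _ _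
  -- `H⁰(G_ℚ, ad⁰) = 0`
  have hh0A : finrank (ZMod p) ↥((ad0Rep p ρbar).ρ.invariants) = 0 := by
    rw [I.adGlob0 p hp2 (ResidueField 𝒪) ρbar hyp.habs]
    exact finrank_bot _ _
  -- the local terms
  have hterm : ∀ v : ↥(primesOf ((Smin ∪ T) ∪ Finset.univ.image qv)),
      finrank (ZMod p) ↥(rtk3SelCond p ρbar Smin T Lp
          (primesOf ((Smin ∪ T) ∪ Finset.univ.image qv)) v) +
        (if ((v : Nat.Primes) : ℕ) ∈ T then 3 * finrank (ZMod p) (ResidueField 𝒪) else 0) ≤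
        finrank (ZMod p) ↥((Rep.res (D.r v) (ad0Rep p ρbar)).ρ.invariants) +
          ((if ((v : Nat.Primes) : ℕ) = p then finrank (ZMod p) (ResidueField 𝒪) else 0) +
            (if ((v : Nat.Primes) : ℕ) ∉ Smin ∧ ((v : Nat.Primes) : ℕ) ∉ T then
              finrank (ZMod p) (ResidueField 𝒪) else 0)) := by
    intro v
    letI : Fact ((v : Nat.Primes) : ℕ).Prime := ⟨(v : Nat.Primes).2⟩
    have hvT : ((v : Nat.Primes) : ℕ) ∈ (Smin ∪ T) ∪ Finset.univ.image qv :=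
      (casm_mem_primesOf _ _).1 v.2
    by_cases hvt : ((v : Nat.Primes) : ℕ) ∈ T
    · -- a trivial prime
      have hbot : rtk3SelCond p ρbar Smin T Lp
          (primesOf ((Smin ∪ T) ∪ Finset.univ.image qv)) v = ⊥ :=
        rtk3LocCond_of_mem p ρbar Smin T Lp ((v : Nat.Primes) : ℕ) hvt
      have htop : (Rep.res (D.r v) (ad0Rep p ρbar)).ρ.invariants = ⊤ :=
        rtk3c_invariants_top p ρbar ((v : Nat.Primes) : ℕ) (hT _ hvt).2.2.2
      rw [hbot, htop, if_pos hvt, finrank_bot, finrank_top]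
      have h3 : finrank (ZMod p) (Rep.res (D.r v) (ad0Rep p ρbar)).V =
          3 * finrank (ZMod p) (ResidueField 𝒪) := hrank
      rw [h3]
      omega
    · rw [if_neg hvt, add_zero]
      have hcond : rtk3SelCond p ρbar Smin T Lp
          (primesOf ((Smin ∪ T) ∪ Finset.univ.image qv)) v =
          locCond p ρbar Smin Lp ((v : Nat.Primes) : ℕ) :=
        rtk3LocCond_of_not_mem p ρbar Smin T Lp ((v : Nat.Primes) : ℕ) hvt
      rw [hcond]
      have hq : ((v : Nat.Primes) : ℕ) = p ∨ ((v : Nat.Primes) : ℕ) ∈ Smin ∨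
          ((((v : Nat.Primes) : ℕ) : ZMod p) = 1 ∧ ρbar.IsUnramifiedAt ((v : Nat.Primes) : ℕ) ∧
            FrobDistinct ρbar ((v : Nat.Primes) : ℕ)) := by
        by_cases hm : ((v : Nat.Primes) : ℕ) ∈ Smin
        · exact Or.inr (Or.inl hm)
        · refine Or.inr (Or.inr ?_)
          rcases Finset.mem_union.1 hvT with h' | h'
          · rcases Finset.mem_union.1 h' with h'' | h''
            · exact absurd h'' hm
            · exact absurd h'' hvt
          · obtain ⟨i, -, hi⟩ := Finset.mem_image.1 h'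
            have hvp : ((v : Nat.Primes) : ℕ) ≠ p := fun h => hm (h ▸ hyp.hpSmin)
            rw [← hi] at hm hvp ⊢
            refine ⟨?_, ?_, hfam.2.2 i⟩
            · have hdvd : p ∣ qv i - 1 :=
                dvd_trans (dvd_pow_self p (Nat.succ_ne_zero n)) (hfam.2.1 i).2.2
              have h0 : ((qv i - 1 : ℕ) : ZMod p) = 0 := (ZMod.natCast_eq_zero_iff _ _).2 hdvd
              have h1 : qv i = (qv i - 1) + 1 := by
                have := (hfam.2.1 i).1.pos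
                omega
              rw [h1, Nat.cast_add, h0, Nat.cast_one, zero_add]
            · by_contra hc
              exact hm ((hyp.hmin (qv i) (hfam.2.1 i).1 hvp).2 hc)
      have h1 := (casm_locCond_rank p ρbar I.adMin I.adTw Smin Lp hLpfin hLprk
        ((v : Nat.Primes) : ℕ) hq).2
      refine le_trans h1 (Nat.add_le_add_left ?_ _)
      by_cases hc1 : ((v : Nat.Primes) : ℕ) = p
      · rw [if_pos (Or.inl hc1), if_pos hc1]
        exact Nat.le_add_right _ _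
      · by_cases hc2 : ((v : Nat.Primes) : ℕ) ∉ Smin
        · rw [if_pos (Or.inr hc2), if_neg hc1, if_pos ⟨hc2, hvt⟩]
          exact Nat.le_add_left _ _
        · rw [if_neg (by tauto)]
          exact Nat.zero_le _
  have hsumL : (∑ v : ↥(primesOf ((Smin ∪ T) ∪ Finset.univ.image qv)),
      finrank (ZMod p)
        ↥(rtk3SelCond p ρbar Smin T Lp (primesOf ((Smin ∪ T) ∪ Finset.univ.image qv)) v)) +
        T.card * (3 * finrank (ZMod p) (ResidueField 𝒪)) ≤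
      (∑ v : ↥(primesOf ((Smin ∪ T) ∪ Finset.univ.image qv)),
        finrank (ZMod p) ↥((Rep.res (D.r v) (ad0Rep p ρbar)).ρ.invariants)) +
        finrank (ZMod p) (ResidueField 𝒪) + h * finrank (ZMod p) (ResidueField 𝒪) := by
    have hT3 : T.card * (3 * finrank (ZMod p) (ResidueField 𝒪)) ≤
        ∑ v : ↥(primesOf ((Smin ∪ T) ∪ Finset.univ.image qv)),
          (if ((v : Nat.Primes) : ℕ) ∈ T then 3 * finrank (ZMod p) (ResidueField 𝒪) else 0) := by
      refine rtk3c_sum_ite_ge (ι := ↥(primesOf ((Smin ∪ T) ∪ Finset.univ.image qv)))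
        (fun v => ((v : Nat.Primes) : ℕ) ∈ T) _ (fun v => ((v : Nat.Primes) : ℕ)) T
        (fun r hr => ?_)
      have hrp : r.Prime := (hT r hr).1
      exact ⟨⟨⟨r, hrp⟩, (casm_mem_primesOf _ _).2
        (Finset.mem_union_left _ (Finset.mem_union_right _ hr))⟩, hr, rfl⟩
    refine le_trans (Nat.add_le_add_left hT3 _) ?_
    rw [← Finset.sum_add_distrib]
    refine le_trans (Finset.sum_le_sum (fun v _ => hterm v)) ?_
    rw [Finset.sum_add_distrib, Finset.sum_add_distrib, add_assoc]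
    refine Nat.add_le_add_left (Nat.add_le_add ?_ ?_) _
    · exact casm_sum_ite_le_one
        (ι := ↥(primesOf ((Smin ∪ T) ∪ Finset.univ.image qv)))
        (fun v => ((v : Nat.Primes) : ℕ) = p) _
        (fun i j hi hj => Subtype.ext (Subtype.ext (hi.trans hj.symm)))
    · refine casm_sum_ite_le (ι := ↥(primesOf ((Smin ∪ T) ∪ Finset.univ.image qv)))
        (fun v => ((v : Nat.Primes) : ℕ) ∉ Smin ∧ ((v : Nat.Primes) : ℕ) ∉ T)
        _ h (fun v => ((v : Nat.Primes) : ℕ))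
        (fun a b hab => Subtype.ext (Subtype.ext hab)) (Finset.univ.image qv)
        (le_trans Finset.card_image_le (by simp)) (fun v hv => ?_)
      rcases Finset.mem_union.1 ((casm_mem_primesOf _ _).1 v.2) with h' | h'
      · rcases Finset.mem_union.1 h' with h'' | h''
        · exact absurd h'' hv.1
        · exact absurd h'' hv.2
      · exact h'
  have hsel : finrank (ZMod p) ↥(selLev D (ad0Rep p ρbar)
      (rtk3SelCond p ρbar Smin T Lp (primesOf ((Smin ∪ T) ∪ Finset.univ.image qv)))) +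
      T.card * (3 * finrank (ZMod p) (ResidueField 𝒪)) ≤
      h * finrank (ZMod p) (ResidueField 𝒪) :=
    rtk3c_arith _ _ _ _ _ _ _ h _ hgw hsumL hselB0 hh0A
  -- conclusion
  haveI hfinlev : Finite ↥(levH1 D.𝒯 (ad0Rep p ρbar)) :=
    I.gloFin p GQ _ _ D (ad0Rep p ρbar) hA
  have hle : rtk3SelGroup p ρbar Smin T Lp (primesOf ((Smin ∪ T) ∪ Finset.univ.image qv)) ≤
      levH1 D.𝒯 (ad0Rep p ρbar) := inf_le_left
  haveI hfinsel : Finite
      ↥(rtk3SelGroup p ρbar Smin T Lp (primesOf ((Smin ∪ T) ∪ Finset.univ.image qv))) :=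
    Finite.of_injective (Submodule.inclusion hle) (Submodule.inclusion_injective hle)
  refine ⟨hfinsel, ?_⟩
  haveI : Module.Finite (ZMod p)
      ↥(rtk3SelGroup p ρbar Smin T Lp (primesOf ((Smin ∪ T) ∪ Finset.univ.image qv))) :=
    Module.Finite.of_finite
  rw [Module.natCard_eq_pow_finrank (K := ZMod p)
      (V := ↥(rtk3SelGroup p ρbar Smin T Lp (primesOf ((Smin ∪ T) ∪ Finset.univ.image qv)))),
    Module.natCard_eq_pow_finrank (K := ZMod p) (V := ResidueField 𝒪), Nat.card_zmod,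
    ← pow_mul, ← pow_mul, ← pow_add]
  refine Nat.pow_le_pow_right (Fact.out : p.Prime).pos ?_
  have h5 : finrank (ZMod p) (ResidueField 𝒪) * (3 * T.card) =
      T.card * (3 * finrank (ZMod p) (ResidueField 𝒪)) := by ring
  have h6 : finrank (ZMod p) (ResidueField 𝒪) * h = h * finrank (ZMod p) (ResidueField 𝒪) :=
    mul_comm _ _
  rw [h5, h6]
  exact hsel

end Count

end Fermat.Agent.RT

end


end ZBTW_014_6

/-! ### bundled: `Fermat.Agent.RT.K3.Asm` -/
section ZBTW_014_7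
/-
RT-K3, piece K3-asm (helper68): `StmtK3Sel 𝒪` (framed Taylor–Wiles primes, cohomological part)
from the pieces K3-kill, K3-count, K3-S and the flat local condition at `p` (TW-W).
Twin of `TW.Core.stmtCoreFlat_of` (TW/Core/Asm.lean, helper63).
-/

set_option autoImplicit false
set_option linter.unusedSectionVars false
set_option linter.unusedVariables false
set_option linter.style.haveILetI false

noncomputable section

namespace Fermat.Agent.RT

open CategoryTheory groupCohomology IsLocalRing Module Polynomial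
open Fermat.Agent.PT Fermat.Agent.PT.B Fermat.Agent.PT.F Fermat.Agent.S53
open Fermat.Agent.TW Fermat.Agent.TW.S Fermat.Agent.TW.L Fermat.Agent.TW.F Fermat.Agent.TW.E
open Fermat.Agent.TW.W Fermat.Agent.TW.Core
open ExtCitation

variable {𝒪 : Type} [CommRing 𝒪] [IsDomain 𝒪] [IsDiscreteValuationRing 𝒪]
  [IsAdicComplete (maximalIdeal 𝒪) 𝒪] [Finite (ResidueField 𝒪)]

/-- cancellation in the count -/
theorem rtk3asm_card_le (N c h t : ℕ) (hc : 0 < c) (hth : t ≤ h) (hN : N * c ^ t ≤ c ^ h) :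
    N ≤ c ^ (h - t) := by
  have h1 : c ^ h = c ^ (h - t) * c ^ t := by
    rw [← pow_add, Nat.sub_add_cancel hth]
  rw [h1] at hN
  exact Nat.le_of_mul_le_mul_right hN (pow_pos hc t)

/-- **K3-asm.**  `StmtK3Sel` from the pieces. -/
theorem stmtK3Sel_of (I : CoreInputs) (hkill : StmtK3Kill 𝒪) (hsel : StmtK3S)
    (hW : StmtWFlat) : StmtK3Sel 𝒪 := by
  intro p _ ρbar S Smin T hyp hT hTS
  haveI : CharP (ResidueField 𝒪) p := casm_charP p hyp.hp𝒪
  letI : Algebra (ZMod p) (ResidueField 𝒪) := ZMod.algebra (ResidueField 𝒪) p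
  obtain ⟨D₀⟩ := nonempty_rigidDatum (𝒪 := 𝒪) ρbar hyp.habs
  obtain ⟨h, hh, hr⟩ := hkill p ρbar S Smin T hyp (fun r hr => (hT r hr).1) hTS
  refine ⟨h, hh, fun n => ?_⟩
  obtain ⟨qv, hfam, hk⟩ := hr n
  refine ⟨qv, hfam, ?_⟩
  obtain ⟨hle, hfin, hrk⟩ := hW p hyp.hp2 𝒪 ρbar D₀ hyp.hdet hyp.hsplit
  obtain ⟨hsfin, hscard⟩ := stmtK3Count_of (𝒪 := 𝒪) I p ρbar S Smin T hyp hT hTS n h qv hfam hk
    (flatH1 p D₀) hle hfin hrk
  have hcard : Nat.card ↥(rtk3SelGroup p ρbar Smin T (flatH1 p D₀)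
      (primesOf ((Smin ∪ T) ∪ Finset.univ.image qv))) ≤
      Nat.card (ResidueField 𝒪) ^ (h - 3 * T.card) :=
    rtk3asm_card_le _ _ _ _ Nat.card_pos hh hscard
  exact casm_twTanCard_mono (hsel 𝒪 p ρbar D₀ hyp.hp2 Smin (Finset.univ.image qv) T
    hyp.hpSmin hyp.hmin hT (flatH1 p D₀)
    (fun ρ c hc hdet hflat => flatClass_mem_flatH1 p D₀ ρ c hc hdet hflat) hsfin) hcard

end Fermat.Agent.RT

end


end ZBTW_014_7

/-! ### bundled: `Fermat.Agent.TW.S.ResStrict` -/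
section ZBTW_014_8
/-
TW-Core, piece C-resstrict (helper22): if a strictly ordinary deformation of `ρ̄` to `k[ε]`
exists, then `ρ̄` has a STRICTLY ordinary line at `p`.
`stmtResStrict : TW.Core.StmtResStrict` (from `srs_main` in `TW/S/ResStrictCore.lean`).
-/

set_option autoImplicit false

namespace Fermat.Agent.TW.S

/-- **C-resstrict.** -/
theorem stmtResStrict : Fermat.Agent.TW.Core.StmtResStrict :=
  fun 𝒪 _ _ p _ _ _ ρbar ρ hres hord => srs_main 𝒪 p ρbar ρ hres hord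

end Fermat.Agent.TW.S


end ZBTW_014_8

/-! ### bundled: `Fermat.Agent.TW.S.AdLevel` -/
section ZBTW_014_9
/-
TW-Core, piece C-adlev (helper22): `ad⁰ ρ̄` and `ad⁰ ρ̄(1)` are trivial on a level of the tower of
`T` if `ρ̄` is unramified outside `T ∋ p`.
(The kernel `N` of `ρ̄` is a normal subgroup containing `Gal(ℚ̄/F)`, `F` finite, and all inertia
groups outside `T`: `PT.B.isTowerField_fixedField_of_normal`; then `PT.B.stmtDualTwist`.)
-/

set_option autoImplicit false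
set_option linter.unusedSectionVars false
set_option linter.unusedVariables false

noncomputable section

namespace Fermat.Agent.TW.S

open CategoryTheory groupCohomology Module
open Fermat.Agent.PT Fermat.Agent.PT.B Fermat.Agent.TW.F ExtCitation

/-- the kernel of `ρ̄` -/
def sadl_ker {k : Type} [Field k] (ρbar : ResidualGaloisRep k) : Subgroup GQ where
  carrier := {g | ρbar.ρ g = 1}
  one_mem' := map_one _
  mul_mem' := fun {a b} ha hb => by
    show ρbar.ρ (a * b) = 1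
    rw [map_mul, (ha : ρbar.ρ a = 1), (hb : ρbar.ρ b = 1), one_mul]
  inv_mem' := fun {a} ha => by
    show ρbar.ρ a⁻¹ = 1
    have h1 : ρbar.ρ a⁻¹ * ρbar.ρ a = 1 := by rw [← map_mul, inv_mul_cancel, map_one]
    rw [(ha : ρbar.ρ a = 1), mul_one] at h1
    exact h1

theorem sadl_mem_ker {k : Type} [Field k] (ρbar : ResidualGaloisRep k) (g : GQ) :
    g ∈ sadl_ker ρbar ↔ ρbar.ρ g = 1 := Iff.rfl

instance sadl_ker_normal {k : Type} [Field k] (ρbar : ResidualGaloisRep k) :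
    (sadl_ker ρbar).Normal :=
  ⟨fun n hn g => by
    show ρbar.ρ (g * n * g⁻¹) = 1
    rw [map_mul, map_mul, (hn : ρbar.ρ n = 1), mul_one, ← map_mul, mul_inv_cancel, map_one]⟩

/-- `ad⁰ ρ̄` is trivial on the kernel of `ρ̄`. -/
theorem sadl_ad0_eq_one {k : Type} [Field k] (p : ℕ) [Fact p.Prime] [CharP k p]
    (ρbar : ResidualGaloisRep k) (s : GQ) (hs : ρbar.ρ s = 1) : (ad0Rep p ρbar).ρ s = 1 := by
  apply LinearMap.ext
  intro x
  apply ad0Val_injective p ρbar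
  have hs' : ρbar.ρ s⁻¹ = 1 := (sadl_ker ρbar).inv_mem hs
  rw [ad0Val_ρ, hs, hs', one_mul, mul_one]
  rfl

/-- the kernel field of `ρ̄` is in the tower of `T` -/
theorem sadl_tower {k : Type} [Field k] (ρbar : ResidualGaloisRep k) (T : Finset Nat.Primes)
    (hur : ∀ q : Nat.Primes, q ∉ T → ρbar.IsUnramifiedAt (q : ℕ)) :
    IsTowerField T (IntermediateField.fixedField (sadl_ker ρbar)) ∧
      (IntermediateField.fixedField (sadl_ker ρbar)).fixingSubgroup = sadl_ker ρbar := by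
  obtain ⟨F, hF, h⟩ := ρbar.factorsThroughFiniteLevel
  refine isTowerField_fixedField_of_normal T (sadl_ker ρbar) F hF (fun s hs => ?_)
    (fun q hq A hA g hg => hur q hq A hA g hg)
  refine h s (fun x hx => ?_)
  exact (IntermediateField.mem_fixingSubgroup_iff F s).1 hs x hx

/-- **C-adlev.** -/
theorem stmtAdLevel : Fermat.Agent.TW.Core.StmtAdLevel := by
  intro p _ k _ _ _ ρbar T hpT hur
  obtain ⟨hT, hfix⟩ := sadl_tower ρbar T hur
  have htriv : ∀ s ∈ (IntermediateField.fixedField (sadl_ker ρbar)).fixingSubgroup,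
      (ad0Rep p ρbar).ρ s = 1 := by
    intro s hs
    rw [hfix] at hs
    exact sadl_ad0_eq_one p ρbar s hs
  refine ⟨⟨_, ⟨IntermediateField.fixedField (sadl_ker ρbar), hT.1, rfl⟩, htriv⟩, ?_⟩
  haveI : Finite (Module.End k ρbar.V) := Module.finite_of_finite k
  haveI : Finite ↥(ad0Sub ρbar) := inferInstance
  haveI hfin : Finite (ad0Rep p ρbar).V := (inferInstance : Finite ↥(ad0Sub ρbar))
  haveI : FiniteDimensional (ZMod p) (ad0Rep p ρbar) := Module.Finite.of_finite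
  obtain ⟨L', hLL', hL', hcyc, hdual⟩ :=
    stmtDualTwist p T hpT (ad0Rep p ρbar) (IntermediateField.fixedField (sadl_ker ρbar)) hT htriv
  exact ⟨_, ⟨L', hL'.1, rfl⟩, hdual⟩

end Fermat.Agent.TW.S

end


end ZBTW_014_9

/-! ### bundled: `Fermat.Agent.TW.S.AdRank` -/
section ZBTW_014_10
/-
TW-Core, piece C-adrank (helper22): `dim_{𝔽_p} ad⁰ ρ̄ = 3 f`, `f = [k : 𝔽_p]`.
(`ad⁰` is the kernel of the trace on `End_k V̄`, of `k`-dimension `4 - 1 = 3`; then count.)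
-/

set_option autoImplicit false
set_option linter.unusedSectionVars false
set_option linter.unusedVariables false

noncomputable section

namespace Fermat.Agent.TW.S

open Module

/-- `dim_k ad⁰ = 3`. -/
theorem sadr_finrank_ad0Sub {k : Type} [Field k] (ρbar : ResidualGaloisRep k) :
    finrank k ↥(ad0Sub ρbar) = 3 := by
  have h4 : finrank k (Module.End k ρbar.V) = 4 := by
    rw [Module.finrank_linearMap, ρbar.finrank_eq]
  have hsurj : Function.Surjective (LinearMap.trace k ρbar.V) := by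
    apply LinearMap.surjective_of_ne_zero
    intro h0
    have b := Module.finBasisOfFinrankEq k ρbar.V ρbar.finrank_eq
    have h1 := LinearMap.trace_eq_matrix_trace k b (Matrix.toLin b b (Matrix.single 0 0 1))
    rw [LinearMap.toMatrix_toLin, Matrix.trace_single_eq_same, h0] at h1
    exact zero_ne_one h1
  have hr : finrank k ↥(LinearMap.range (LinearMap.trace k ρbar.V)) = 1 := by
    rw [LinearMap.range_eq_top.mpr hsurj, finrank_top, finrank_self]
  have h := LinearMap.finrank_range_add_finrank_ker (LinearMap.trace k ρbar.V)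
  rw [hr] at h
  have h' : 1 + finrank k ↥(LinearMap.ker (LinearMap.trace k ρbar.V)) = 4 := h.trans h4
  have hk : finrank k ↥(ad0Sub ρbar)
      = finrank k ↥(LinearMap.ker (LinearMap.trace k ρbar.V)) := rfl
  rw [hk]
  omega

/-- **C-adrank.** -/
theorem stmtAdRank : Fermat.Agent.TW.Core.StmtAdRank := by
  intro p _ k _ _ _ _ ρbar
  have hp : p.Prime := Fact.out
  have : Finite (Module.End k ρbar.V) := Module.finite_of_finite k
  have : Finite ↥(ad0Sub ρbar) := inferInstance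
  have hfin : Finite (ad0Rep p ρbar).V := (inferInstance : Finite ↥(ad0Sub ρbar))
  have c1 : Nat.card ↥(ad0Sub ρbar) = Nat.card k ^ 3 := by
    rw [natCard_eq_pow_finrank (K := k), sadr_finrank_ad0Sub]
  have c2 : Nat.card k = p ^ finrank (ZMod p) k := by
    rw [natCard_eq_pow_finrank (K := ZMod p) (V := k), Nat.card_zmod]
  have c3 : Nat.card (ad0Rep p ρbar).V = p ^ finrank (ZMod p) (ad0Rep p ρbar).V := by
    rw [natCard_eq_pow_finrank (K := ZMod p) (V := (ad0Rep p ρbar).V), Nat.card_zmod]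
  have c4 : Nat.card (ad0Rep p ρbar).V = Nat.card ↥(ad0Sub ρbar) := rfl
  have h : p ^ finrank (ZMod p) (ad0Rep p ρbar).V = p ^ (3 * finrank (ZMod p) k) := by
    rw [← c3, c4, c1, c2, ← pow_mul, mul_comm]
  exact Nat.pow_right_injective hp.two_le h

end Fermat.Agent.TW.S

end


end ZBTW_014_10

/-! ### bundled: `Fermat.Agent.TW.L.ArchDual` -/
section ZBTW_014_11
/-
TW-Core / C-archdual (helper30): complex conjugation `c` acts on `μ_p` by `-1`, so
`h⁰(c, A*(1)) + h⁰(c, A) = dim A` for `p` odd.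

`A*(1)^c = {f | -(f ∘ c) = f}` is the annihilator of `A⁺ = ker (c - 1)`
(`lad_dual_iff`), and `dim A⁺ + dim (A⁺)^⊥ = dim A`.

  `stmtArchDual : Core.StmtArchDual`, `lad_cycloChar_conj : χ_p(c) = -1`,
  `lad_mem_invariants`, `lad_dual_iff`.
-/

set_option autoImplicit false

noncomputable section

namespace Fermat.Agent.TW.L

open CategoryTheory Module ExtCitation Fermat.Agent.PT.B

/-- complex conjugation acts on `μ_p` by `-1`. -/
theorem lad_cycloChar_conj (p : ℕ) [Fact p.Prime] :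
    ((cycloChar p complexConjugation : (ZMod p)ˣ) : ZMod p) = -1 := by
  have hp : p.Prime := Fact.out
  have : NeZero p := ⟨hp.ne_zero⟩
  have : NeZero (p : AlgebraicClosure ℚ) := ⟨Nat.cast_ne_zero.mpr hp.ne_zero⟩
  obtain ⟨ζ, hζ⟩ := HasEnoughRootsOfUnity.exists_primitiveRoot (AlgebraicClosure ℚ) p
  have h1 := larch_conj_root p hp.pos ζ hζ.pow_eq_one
  have hspec := modularCyclotomicCharacter.spec (AlgebraicClosure ℚ) (card_rootsOfUnity_eq_self p)
    (complexConjugation : AlgebraicClosure ℚ ≃+* AlgebraicClosure ℚ)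
    (t := hζ.toRootsOfUnity) (SetLike.coe_mem hζ.toRootsOfUnity)
  have hspec' : complexConjugation ζ = ζ ^ ((cycloChar p complexConjugation : (ZMod p)ˣ) : ZMod p).val := by
    simpa [cycloChar] using hspec
  rw [h1] at hspec'
  have h3 := hζ.pow_inj (Nat.sub_lt hp.pos Nat.one_pos) (ZMod.val_lt _) hspec'
  have h4 : ((cycloChar p complexConjugation : (ZMod p)ˣ) : ZMod p)
      = ((p - 1 : ℕ) : ZMod p) := by
    rw [h3, ZMod.natCast_zmod_val]
  rw [h4, Nat.cast_sub hp.one_le, ZMod.natCast_self, Nat.cast_one, zero_sub]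

/-- Linear algebra: for an involution `T` (`2 ≠ 0` not even needed for this half) the
`(-1)`-eigenspace of the transpose is the annihilator of the `(+1)`-eigenspace. -/
theorem lad_dual_iff {k V : Type} [Field k] [AddCommGroup V] [Module k V] (h2 : (2 : k) ≠ 0)
    (T : V →ₗ[k] V) (hT : ∀ v, T (T v) = v) (f : Module.Dual k V) :
    (-1 : k) • (f ∘ₗ T) = f ↔ f ∈ (LinearMap.ker (T - 1)).dualAnnihilator := by
  rw [Submodule.mem_dualAnnihilator]
  constructor
  · intro h a ha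
    have ha' : T a = a := by
      have := LinearMap.mem_ker.1 ha
      rwa [LinearMap.sub_apply, Module.End.one_apply, sub_eq_zero] at this
    have h1 := LinearMap.congr_fun h a
    rw [LinearMap.smul_apply, LinearMap.comp_apply, ha', neg_one_smul] at h1
    have h3 : (2 : k) * f a = 0 := by
      rw [two_mul]
      nth_rewrite 1 [← h1]
      exact neg_add_cancel _
    rcases mul_eq_zero.1 h3 with h | h
    · exact absurd h h2
    · exact h
  · intro h
    ext a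
    have hmem : a + T a ∈ LinearMap.ker (T - 1) := by
      rw [LinearMap.mem_ker, LinearMap.sub_apply, Module.End.one_apply, map_add, hT]
      abel
    have h1 := h _ hmem
    rw [map_add] at h1
    rw [LinearMap.smul_apply, LinearMap.comp_apply, neg_one_smul]
    exact (neg_eq_of_add_eq_zero_right h1).symm ▸ (by rw [neg_neg])

/-- invariants under the decomposition group at `∞` = fixed vectors of complex conjugation -/
theorem lad_mem_invariants (p : ℕ) [Fact p.Prime] (B : Rep.{0} (ZMod p) GQ) (v : B.V) :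
    v ∈ (Rep.res archimedeanLoc B).ρ.invariants ↔ B.ρ complexConjugation v = v := by
  constructor
  · intro h
    exact h archimedeanGen
  · intro h g
    let S : Subgroup GQ :=
      { carrier := {g | B.ρ g v = v}
        one_mem' := by simp
        mul_mem' := fun {a b} ha hb => by
          show B.ρ (a * b) v = v
          rw [map_mul, Module.End.mul_apply, hb, ha]
        inv_mem' := fun {a} ha => by
          show B.ρ a⁻¹ v = v
          have ha' : B.ρ a v = v := ha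
          nth_rewrite 1 [← ha']
          rw [← Module.End.mul_apply, ← map_mul, inv_mul_cancel, map_one, Module.End.one_apply] }
    have hle : archimedeanDecomposition ≤ S := by
      rw [archimedeanDecomposition, Subgroup.zpowers_le]
      exact h
    exact hle g.2

/-- **C-archdual**. -/
theorem stmtArchDual : Core.StmtArchDual := by
  intro p _ hp2 A _
  have hpp : p.Prime := Fact.out
  have h2 : (2 : ZMod p) ≠ 0 := by
    intro h
    have h' : ((2 : ℕ) : ZMod p) = 0 := by exact_mod_cast h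
    rw [ZMod.natCast_eq_zero_iff] at h'
    exact hp2 ((Nat.prime_dvd_prime_iff_eq hpp Nat.prime_two).1 h')
  set T : A.V →ₗ[ZMod p] A.V := A.ρ complexConjugation with hT
  have hTT : ∀ v, T (T v) = v := by
    intro v
    rw [hT, ← Module.End.mul_apply, ← map_mul, complexConjugation_mul_self, map_one,
      Module.End.one_apply]
  set W : Submodule (ZMod p) A.V := LinearMap.ker (T - 1) with hW
  -- the invariants of `A`
  have e1 : finrank (ZMod p) ↥((Rep.res archimedeanLoc A).ρ.invariants) = finrank (ZMod p) ↥W := by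
    refine LinearEquiv.finrank_eq
      { toFun := fun x => ⟨x.1, ?_⟩
        invFun := fun x => ⟨x.1, ?_⟩
        map_add' := fun _ _ => rfl
        map_smul' := fun _ _ => rfl
        left_inv := fun _ => rfl
        right_inv := fun _ => rfl }
    · rw [hW, LinearMap.mem_ker, LinearMap.sub_apply, Module.End.one_apply, sub_eq_zero]
      exact (lad_mem_invariants p A x.1).1 x.2
    · apply (lad_mem_invariants p A x.1).2
      have := LinearMap.mem_ker.1 x.2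
      rwa [LinearMap.sub_apply, Module.End.one_apply, sub_eq_zero] at this
  -- the invariants of `A*(1)`
  have e2 : finrank (ZMod p) ↥((Rep.res archimedeanLoc (A.dualTwist (cycloChar p))).ρ.invariants)
      = finrank (ZMod p) ↥W.dualAnnihilator := by
    have key : ∀ f : Module.Dual (ZMod p) A.V,
        (A.dualTwist (cycloChar p)).ρ complexConjugation f = f ↔ f ∈ W.dualAnnihilator := by
      intro f
      rw [Rep.dualTwist_ρ_apply, lad_cycloChar_conj, complexConjugation_inv]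
      exact lad_dual_iff h2 T hTT f
    refine LinearEquiv.finrank_eq
      { toFun := fun x => ⟨x.1, ?_⟩
        invFun := fun x => ⟨x.1, ?_⟩
        map_add' := fun _ _ => rfl
        map_smul' := fun _ _ => rfl
        left_inv := fun _ => rfl
        right_inv := fun _ => rfl }
    · exact (key x.1).1 ((lad_mem_invariants p (A.dualTwist (cycloChar p)) x.1).1 x.2)
    · exact (lad_mem_invariants p (A.dualTwist (cycloChar p)) x.1).2 ((key x.1).2 x.2)
  rw [e1, e2, add_comm]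
  exact Subspace.finrank_add_finrank_dualAnnihilator_eq W

end Fermat.Agent.TW.L

end


end ZBTW_014_11

/-! ### bundled: `Fermat.Agent.TW.F.Perp` -/
section ZBTW_014_12
/-
TW-Core / C-perp (helper30): the exact annihilator of a local condition is a subspace.

`stmtPerpExists : Core.StmtPerpExists`: for a dual pair `P : DualPair χ A B` and a local condition
`L ⊆ H¹(G_v, A)`, the set of level classes `y` of `B` with `x ∪ y = 0` (as a level class) for all
level `x ∈ L` is a `ZMod p`-submodule (`IsPerp`).  From `stmtCupBasic`: the cup product is additive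
in the second variable on the nose, and `cocycle ∪ coboundary` is a level coboundary.

Generic form: `fperp_generic` over `(G, 𝒯, χ, A, B, P, J, ζ)`.
-/

set_option autoImplicit false

noncomputable section

namespace Fermat.Agent.TW.F

open CategoryTheory groupCohomology Module Fermat.Agent.PT Fermat.Agent.PT.F

/-- **C-perp, generic form.** -/
theorem fperp_generic (p : ℕ) [Fact p.Prime] (G : Type) [Group G]
    (𝒯 : Tower G) (χ : G →* (ZMod p)ˣ) (A B : Rep.{0} (ZMod p) G) (P : DualPair χ A B)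
    (J : Rep.{0} ℤ G) (ζ : J.V) (hK : IsKummer χ J ζ) (hA : TrivOnLevel 𝒯 A)
    (hB : TrivOnLevel 𝒯 B) (L : Submodule (ZMod p) (H1 A)) :
    ∃ L' : Submodule (ZMod p) (H1 B), ∀ y, y ∈ L' ↔
      y ∈ levH1 𝒯 B ∧ ∀ x ∈ L, x ∈ levH1 𝒯 A →
        ∀ (cx : cocycles₁ A) (cy : cocycles₁ B),
          IsLevel₁ 𝒯 (cx : G → A.V) → IsLevel₁ 𝒯 (cy : G → B.V) →
          (H1π A).hom cx = x → (H1π B).hom cy = y →
          cupCoc P J ζ cx cy ∈ levCoboundaries₂ 𝒯 J := by
  classical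
  obtain ⟨-, -, h3, -, h5, -⟩ := stmtCupBasic p G 𝒯 χ A B P J ζ hK hA hB
  -- the orthogonality relation
  let Orth : H1 A → H1 B → Prop := fun x y =>
    ∀ (cx : cocycles₁ A) (cy : cocycles₁ B),
      IsLevel₁ 𝒯 (cx : G → A.V) → IsLevel₁ 𝒯 (cy : G → B.V) →
      (H1π A).hom cx = x → (H1π B).hom cy = y →
      cupCoc P J ζ cx cy ∈ levCoboundaries₂ 𝒯 J
  -- zero
  have hzero : ∀ x, Orth x 0 := by
    intro x cx cy hlx _ _ hy
    have hcob : (cy : G → B.V) ∈ coboundaries₁ B := (H1π_eq_zero_iff cy).1 hy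
    exact h5 cx cy cx.2 hlx hcob
  -- additivity
  have hadd : ∀ x y₁ y₂, y₁ ∈ levH1 𝒯 B → Orth x y₁ → Orth x y₂ → Orth x (y₁ + y₂) := by
    intro x y₁ y₂ hy₁ h₁ h₂ cx cy hlx hly hx hy
    obtain ⟨c₁, hl₁, hc₁⟩ := (mem_levH1_iff 𝒯 B y₁).1 hy₁
    have hl₂ : IsLevel₁ 𝒯 ((cy - c₁ : cocycles₁ B) : G → B.V) :=
      pb_isLevel₁_sub (cy : G → B.V) (c₁ : G → B.V) hly hl₁
    have hc₂ : (H1π B).hom (cy - c₁) = y₂ := by
      rw [map_sub, hy, hc₁, add_sub_cancel_left]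
    have e₁ := h₁ cx c₁ hlx hl₁ hx hc₁
    have e₂ := h₂ cx (cy - c₁) hlx hl₂ hx hc₂
    have e₃ := h3 (cx : G → A.V) (c₁ : G → B.V) ((cy - c₁ : cocycles₁ B) : G → B.V)
    have hsum : (c₁ : G → B.V) + ((cy - c₁ : cocycles₁ B) : G → B.V) = (cy : G → B.V) := by
      funext g
      show c₁.1 g + (cy.1 - c₁.1) g = cy.1 g
      rw [Pi.sub_apply, add_sub_cancel]
    rw [hsum] at e₃
    have := (levCoboundaries₂ 𝒯 J).add_mem e₃ ((levCoboundaries₂ 𝒯 J).add_mem e₁ e₂)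
    simpa using this
  -- the submodule
  let S : AddSubmonoid (H1 B) :=
    { carrier := {y | y ∈ levH1 𝒯 B ∧ ∀ x ∈ L, x ∈ levH1 𝒯 A → Orth x y}
      zero_mem' := ⟨(levH1 𝒯 B).zero_mem, fun x _ _ => hzero x⟩
      add_mem' := fun {y₁ y₂} h₁ h₂ => ⟨(levH1 𝒯 B).add_mem h₁.1 h₂.1,
        fun x hx hxl => hadd x y₁ y₂ h₁.1 (h₁.2 x hx hxl) (h₂.2 x hx hxl)⟩ }
  refine ⟨{ carrier := S.carrier
            zero_mem' := S.zero_mem
            add_mem' := fun h₁ h₂ => S.add_mem h₁ h₂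
            smul_mem' := fun a y hy => ?_ }, fun y => Iff.rfl⟩
  have ha : a • y = a.val • y := by
    rw [← Nat.cast_smul_eq_nsmul (ZMod p), ZMod.natCast_zmod_val]
  show a • y ∈ S
  rw [ha]
  exact S.nsmul_mem hy _

/-- **C-perp**: the exact annihilator of a local condition exists. -/
theorem stmtPerpExists : Core.StmtPerpExists := by
  intro p _ G _ ι _ Gloc _ D A B P hA hB v L
  exact fperp_generic p (Gloc v) (D.𝒯loc v) (D.χ.comp (D.r v)) (Rep.res (D.r v) A)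
    (Rep.res (D.r v) B) (P.res (D.r v)) (D.Jloc v) (zetaLoc D v) (flr_isKummer D v)
    (fpair_trivOnLevel D A hA v) (fpair_trivOnLevel D B hB v) L

end Fermat.Agent.TW.F

end


end ZBTW_014_12

/-! ### bundled: `Fermat.Agent.TW.E.PDepthTower` -/
section ZBTW_014_13
/-
TW-E piece Y-depth (helper35): the concrete pulled-back `p`-depth of the towers `towerS S`.

`stmtPDepthTower : StmtPDepthTower`: below every level `U = Gal(ℚ̄/F)` of `towerS S` (`p ∈ S`)
there is a normal level `U'` such that the local index `[r_q⁻¹ U : r_q⁻¹ U']` at `q ∈ S` is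
divisible by `p`.

Proof.  Let `U₁ ≤ U` be a normal level, `d = [G_ℚ : U₁]`, so `g^d ∈ U` for all `g`.
Let `a = q` if `q ≠ p` and `a = 1 + p` if `q = p`, `A = a^(d(p-1)) ≥ 2`, `n := A` (`p^n > A`), and
let `U' ≤ U₁ ∩ Gal(ℚ̄/ℚ(μ_{p^n}))` be a normal level.  There is `τ ∈ G_{ℚ_q}` whose image in `G_ℚ`
raises the `p^n`-th roots of unity to the `a`-th power: a Frobenius element for `q ≠ p`
(`TW.L.stmtFrobExists`), and for `q = p` a lift to the inertia group of `ζ ↦ ζ^(1+p)`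
(`Common.exists_mem_inertiaSubgroupIn_of_congr`, the integers of `ℚ(ζ)` are `ℤ[ζ]` and
`ζ ≡ 1`), which comes from `G_{ℚ_p}` (`TW.L.stmtDecFull`).
`k := τ^(d(p-1))` lies in `r_q⁻¹ U`.  If `p ∤ m := [r_q⁻¹U : r_q⁻¹U']` then `k^m ∈ r_q⁻¹ U'` fixes
`ζ`, so `A^m ≡ 1 mod p^n`; also `A^(p^(n-1)) ≡ 1` (Euler), hence `A ≡ 1 mod p^n`, but
`1 < A < p^n`.
-/

set_option autoImplicit false

namespace Fermat.Agent.TW.E

open ExtCitation Fermat.Agent.PT Fermat.Agent.PT.B Fermat.Agent.TW.L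

/-! ### Arithmetic -/

/-- the arithmetic heart: `A = a^(e(p-1))`, `1 < A < p^n`, `A^m ≡ 1 mod p^n` force `p ∣ m` -/
theorem ydep_arith {p a e n m : ℕ} (hp : p.Prime) (ha : Nat.Coprime a p) (ha2 : 2 ≤ a)
    (he : 0 < e) (hn : a ^ (e * (p - 1)) < p ^ n) (hm : ¬ p ∣ m)
    (h : (a ^ (e * (p - 1))) ^ m ≡ 1 [MOD p ^ n]) : False := by
  set A : ℕ := a ^ (e * (p - 1)) with hA
  have hp1 : 0 < p - 1 := Nat.sub_pos_of_lt hp.one_lt
  have hA2 : 2 ≤ A := by
    have h1 : a ^ 1 ≤ a ^ (e * (p - 1)) :=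
      Nat.pow_le_pow_right (by omega) (Nat.mul_pos he hp1)
    rw [pow_one] at h1
    omega
  have hn0 : n ≠ 0 := by
    rintro rfl
    rw [pow_zero] at hn
    omega
  obtain ⟨n', rfl⟩ := Nat.exists_eq_succ_of_ne_zero hn0
  set N : ℕ := p ^ (n' + 1) with hN
  set x : ZMod N := ((A : ℕ) : ZMod N) with hx
  have hxm : x ^ m = 1 := by
    have := (ZMod.natCast_eq_natCast_iff (A ^ m) 1 N).mpr h
    rw [Nat.cast_pow, Nat.cast_one] at this
    exact this
  have hxp : x ^ (p ^ n') = 1 := by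
    have hcop : Nat.Coprime a N := Nat.Coprime.pow_right _ ha
    have h1 := Nat.ModEq.pow_totient hcop
    rw [hN, Nat.totient_prime_pow hp (Nat.succ_pos n'), Nat.succ_sub_one] at h1
    have h2 := (ZMod.natCast_eq_natCast_iff _ 1 N).mpr h1
    rw [Nat.cast_pow, Nat.cast_one] at h2
    rw [hx, hA, Nat.cast_pow, ← pow_mul]
    have e1 : e * (p - 1) * p ^ n' = (p ^ n' * (p - 1)) * e := by ring
    rw [e1, pow_mul, h2, one_pow]
  have ho1 : orderOf x ∣ m := orderOf_dvd_of_pow_eq_one hxm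
  have ho2 : orderOf x ∣ p ^ n' := orderOf_dvd_of_pow_eq_one hxp
  have hcop : Nat.Coprime m (p ^ n') :=
    Nat.Coprime.pow_right _ ((Nat.Prime.coprime_iff_not_dvd hp).mpr hm).symm
  have ho : orderOf x = 1 := Nat.eq_one_of_dvd_coprimes hcop ho1 ho2
  have hx1 : x = 1 := orderOf_eq_one_iff.mp ho
  have h3 : A ≡ 1 [MOD N] := by
    apply (ZMod.natCast_eq_natCast_iff A 1 N).mp
    rw [Nat.cast_one]
    exact hx1
  have h4 : N ∣ A - 1 := (Nat.modEq_iff_dvd' (by omega)).mp h3.symm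
  have h5 : N ≤ A - 1 := Nat.le_of_dvd (by omega) h4
  omega

/-! ### Roots of unity -/

/-- iterating an automorphism which raises the `M`-th roots of unity to the `a`-th power -/
theorem ydep_pow_root (σ : GQ) (a M : ℕ)
    (h : ∀ x : AlgebraicClosure ℚ, x ^ M = 1 → σ x = x ^ a) (j : ℕ) :
    ∀ x : AlgebraicClosure ℚ, x ^ M = 1 → (σ ^ j) x = x ^ (a ^ j) := by
  induction j with
  | zero => intro x _; simp
  | succ j ih =>
    intro x hx
    rw [pow_succ', AlgEquiv.mul_apply, ih x hx, map_pow, h x hx, ← pow_mul, pow_succ']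

/-- a root of unity of `p`-power order is congruent to `1` at a place over `p` -/
theorem ydep_sub_one_mem_nonunits {p : ℕ} (hp : p.Prime) (n : ℕ)
    (P : ValuationSubring (AlgebraicClosure ℚ)) (hP : P.LiesOverPrime p)
    {μ : AlgebraicClosure ℚ} (hμ : μ ^ (p ^ n) = 1) : μ - 1 ∈ P.nonunits := by
  have hpn0 : p ^ n ≠ 0 := pow_ne_zero _ hp.ne_zero
  have hμP : μ ∈ P := Fermat.Agent.S31.rootOfUnity_mem P hpn0 hμ
  have : Fact p.Prime := ⟨hp⟩
  have hp0 : ((p : ℕ) : IsLocalRing.ResidueField P) = 0 := by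
    have h1 : ((p : P) : AlgebraicClosure ℚ) ∈ P.nonunits := by
      have : ((p : P) : AlgebraicClosure ℚ) = (p : AlgebraicClosure ℚ) := by simp
      rw [this]; exact hP
    rw [ValuationSubring.coe_mem_nonunits_iff, ← IsLocalRing.residue_eq_zero_iff] at h1
    rw [← h1, map_natCast]
  have : CharP (IsLocalRing.ResidueField P) p := (CharP.charP_iff_prime_eq_zero hp).mpr hp0
  set z : P := ⟨μ, hμP⟩ with hz
  have hz1 : z ^ (p ^ n) = 1 := by
    apply Subtype.ext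
    simpa using hμ
  have h2 : (IsLocalRing.residue P z - 1) ^ (p ^ n) = 0 := by
    rw [sub_pow_char_pow, one_pow, ← map_pow, hz1, map_one, sub_self]
  have h3 : IsLocalRing.residue P (z - 1) = 0 := by
    rw [map_sub, map_one]
    exact pow_eq_zero_iff hpn0 |>.mp h2
  rw [IsLocalRing.residue_eq_zero_iff, ← ValuationSubring.coe_mem_nonunits_iff] at h3
  simpa using h3

/-! ### The cyclotomic levels -/

/-- `ℚ(μ_{p^n})` is unramified outside every `S ∋ p`. -/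
theorem ydep_cyclo_unram (p : ℕ) [Fact p.Prime] (n : ℕ) (S : Finset Nat.Primes)
    (hpS : pPrime p ∈ S) : (cycloField (p ^ n)).IsUnramifiedOutside S := by
  have hp : p.Prime := Fact.out
  have : NeZero (p ^ n) := ⟨pow_ne_zero _ hp.ne_zero⟩
  refine ⟨inferInstance, fun q hq A hA σ hσ => ?_⟩
  have hqp : (q : ℕ) ≠ p := by
    intro h
    apply hq
    have : q = pPrime p := Subtype.ext h
    rw [this]
    exact hpS
  rw [mem_fixingSubgroup_cycloField_iff]
  intro x hx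
  have hM : ((p ^ n : ℕ) : AlgebraicClosure ℚ) ∉ A.nonunits :=
    Fermat.Agent.S31.natCast_pow_not_mem_nonunits A hp q.2 hqp hA n
  exact Fermat.Agent.S31.inertia_rootOfUnity A hM (pow_ne_zero _ hp.ne_zero) hσ hx

/-! ### The local elements -/

/-- `q ≠ p`: a Frobenius element of `G_{ℚ_q}` raises the `p^n`-th roots of unity to the `q`-th
power. -/
theorem ydep_exists_frob {p : ℕ} (hp : p.Prime) (q : ℕ) [Fact q.Prime] (hqp : q ≠ p) :
    ∃ τ : GQq q, ∀ (n : ℕ) (x : AlgebraicClosure ℚ), x ^ (p ^ n) = 1 →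
      localGaloisToGlobal q τ x = x ^ q := by
  have hq : q.Prime := Fact.out
  obtain ⟨φ, hφ⟩ := stmtFrobExists q
  refine ⟨φ, fun n x hx => ?_⟩
  have hM : ((p ^ n : ℕ) : AlgebraicClosure ℚ) ∉ (padicPlace q).nonunits :=
    Fermat.Agent.S31.natCast_pow_not_mem_nonunits (padicPlace q) hp hq hqp
      (lfrobex_liesOverPrime q) n
  exact Fermat.Agent.S31.frob_rootOfUnity (padicPlace q) hM (pow_ne_zero _ hp.ne_zero) hφ hx

/-- some element of `G_ℚ` raises the `p^n`-th roots of unity to the `(1+p)`-th power -/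
theorem ydep_exists_global {p : ℕ} (hp : p.Prime) (n : ℕ) :
    ∃ σ : GQ, ∀ x : AlgebraicClosure ℚ, x ^ (p ^ n) = 1 → σ x = x ^ (1 + p) := by
  have hpn : 0 < p ^ n := pow_pos hp.pos n
  have : NeZero (p ^ n) := ⟨hpn.ne'⟩
  have : NeZero ((p ^ n : ℕ) : AlgebraicClosure ℚ) := ⟨Nat.cast_ne_zero.mpr hpn.ne'⟩
  obtain ⟨ζ, hζ⟩ := HasEnoughRootsOfUnity.exists_primitiveRoot (AlgebraicClosure ℚ) (p ^ n)
  have hcop : Nat.Coprime (1 + p) (p ^ n) := by
    apply Nat.Coprime.pow_right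
    rw [Nat.coprime_comm, Nat.coprime_add_self_right]
    exact Nat.coprime_one_right p
  have hζ2 : IsPrimitiveRoot (ζ ^ (1 + p)) (p ^ n) := hζ.pow_of_coprime (1 + p) hcop
  have hmin : minpoly ℚ ζ = Polynomial.cyclotomic (p ^ n) ℚ :=
    (Polynomial.cyclotomic_eq_minpoly_rat hζ hpn).symm
  have hroot : Polynomial.aeval (ζ ^ (1 + p)) (minpoly ℚ ζ) = 0 := by
    rw [hmin]
    have := hζ2.isRoot_cyclotomic hpn
    rw [← Polynomial.map_cyclotomic (p ^ n) (algebraMap ℚ (AlgebraicClosure ℚ))] at this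
    simpa [Polynomial.aeval_def, Polynomial.eval₂_eq_eval_map, Polynomial.IsRoot.def] using this
  have hnorm := Fermat.Agent.S31.qbar_normal
  have halg : IsAlgebraic ℚ ζ := hnorm.isAlgebraic ζ
  obtain ⟨σ, hσ⟩ := minpoly.exists_algEquiv_of_root' halg hroot
  refine ⟨σ, fun x hx => ?_⟩
  obtain ⟨i, -, rfl⟩ := hζ.eq_pow_of_pow_eq_one hx
  rw [map_pow, hσ, ← pow_mul, ← pow_mul, mul_comm]

/-- congruence on `ℤ[ζ]`: if `σ ζ ≡ ζ` modulo the maximal ideal of `P` (`ζ` a root of unity),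
then `σ x ≡ x` for all `x ∈ ℤ[ζ]` -/
theorem ydep_congr_adjoin (P : ValuationSubring (AlgebraicClosure ℚ)) (σ : GQ)
    {ζ : AlgebraicClosure ℚ} (h1 : ζ ∈ P) (h2 : σ ζ ∈ P) (h3 : σ ζ - ζ ∈ P.nonunits) :
    ∀ x ∈ Algebra.adjoin ℤ ({ζ} : Set (AlgebraicClosure ℚ)),
      x ∈ P ∧ σ x ∈ P ∧ σ x - x ∈ P.nonunits := by
  have hval : ∀ x : AlgebraicClosure ℚ, x ∈ P.nonunits ↔ P.valuation x < 1 := fun x =>
    P.mem_nonunits_iff
  have hle : ∀ x : AlgebraicClosure ℚ, x ∈ P ↔ P.valuation x ≤ 1 := fun x =>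
    (P.valuation_le_one_iff x).symm
  intro x hx
  induction hx using Algebra.adjoin_induction with
  | mem x hx =>
    rw [Set.mem_singleton_iff] at hx
    subst hx
    exact ⟨h1, h2, h3⟩
  | algebraMap r =>
    have e1 : (algebraMap ℤ (AlgebraicClosure ℚ) r) = (r : AlgebraicClosure ℚ) := rfl
    rw [e1, map_intCast, sub_self]
    refine ⟨intCast_mem P r, intCast_mem P r, ?_⟩
    rw [hval, map_zero]
    exact zero_lt_one
  | add x y _ _ hx hy =>
    obtain ⟨hx1, hx2, hx3⟩ := hx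
    obtain ⟨hy1, hy2, hy3⟩ := hy
    refine ⟨P.add_mem _ _ hx1 hy1, ?_, ?_⟩
    · rw [map_add]; exact P.add_mem _ _ hx2 hy2
    · rw [hval] at hx3 hy3 ⊢
      have e : σ (x + y) - (x + y) = (σ x - x) + (σ y - y) := by rw [map_add]; ring
      rw [e]
      exact Valuation.map_add_lt _ hx3 hy3
  | mul x y _ _ hx hy =>
    obtain ⟨hx1, hx2, hx3⟩ := hx
    obtain ⟨hy1, hy2, hy3⟩ := hy
    refine ⟨P.mul_mem _ _ hx1 hy1, ?_, ?_⟩
    · rw [map_mul]; exact P.mul_mem _ _ hx2 hy2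
    · rw [hval] at hx3 hy3 ⊢
      rw [hle] at hx1 hy2
      have e : σ (x * y) - x * y = (σ x - x) * σ y + x * (σ y - y) := by rw [map_mul]; ring
      rw [e]
      apply Valuation.map_add_lt
      · rw [map_mul]
        calc P.valuation (σ x - x) * P.valuation (σ y)
            ≤ P.valuation (σ x - x) * 1 := mul_le_mul_right hy2 _
          _ = P.valuation (σ x - x) := mul_one _
          _ < 1 := hx3
      · rw [map_mul]
        calc P.valuation x * P.valuation (σ y - y)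
            ≤ 1 * P.valuation (σ y - y) := mul_le_mul_left hx1 _
          _ = P.valuation (σ y - y) := one_mul _
          _ < 1 := hy3

/-- `ℚ(ζ_{p^n})` is totally ramified at `p`, in the form: some element of the inertia group of a
place over `p` raises the `p^n`-th roots of unity to the `(1+p)`-th power. -/
theorem ydep_exists_inertia_global {p : ℕ} (hp : p.Prime) (n : ℕ)
    (P : ValuationSubring (AlgebraicClosure ℚ)) (hP : P.LiesOverPrime p) :
    ∃ σ ∈ P.inertiaSubgroupIn ℚ, ∀ x : AlgebraicClosure ℚ, x ^ (p ^ n) = 1 →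
      σ x = x ^ (1 + p) := by
  obtain ⟨c, hc⟩ := ydep_exists_global hp n
  have hpn : 0 < p ^ n := pow_pos hp.pos n
  have : NeZero (p ^ n) := ⟨hpn.ne'⟩
  have : NeZero ((p ^ n : ℕ) : AlgebraicClosure ℚ) := ⟨Nat.cast_ne_zero.mpr hpn.ne'⟩
  obtain ⟨ζ, hζ⟩ := HasEnoughRootsOfUnity.exists_primitiveRoot (AlgebraicClosure ℚ) (p ^ n)
  set F : IntermediateField ℚ (AlgebraicClosure ℚ) := IntermediateField.adjoin ℚ {ζ} with hF
  have hζF : ζ ∈ F := IntermediateField.mem_adjoin_simple_self ℚ ζ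
  have hn := Fermat.Agent.S31.qbar_normal
  have : Algebra.IsAlgebraic ℚ (AlgebraicClosure ℚ) := hn.toIsAlgebraic
  have : Algebra.IsIntegral ℚ (AlgebraicClosure ℚ) := Algebra.IsAlgebraic.isIntegral
  have hcyc : IsCyclotomicExtension {p ^ n} ℚ F :=
    hζ.intermediateField_adjoin_isCyclotomicExtension ℚ
  have : IsGalois ℚ F := IsCyclotomicExtension.isGalois {p ^ n} ℚ F
  have hζ1 : ζ ^ (p ^ n) = 1 := hζ.pow_eq_one
  have hζP : ζ ∈ P := Fermat.Agent.S31.rootOfUnity_mem P hpn.ne' hζ1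
  have hcζ : c ζ = ζ ^ (1 + p) := hc ζ hζ1
  have hcζP : c ζ ∈ P := by rw [hcζ]; exact pow_mem hζP _
  have hcong : c ζ - ζ ∈ P.nonunits := by
    have e : c ζ - ζ = ζ * (ζ ^ p - 1) := by rw [hcζ]; ring
    rw [e]
    have h1 : ζ ^ p - 1 ∈ P.nonunits := by
      apply ydep_sub_one_mem_nonunits hp n P hP
      rw [← pow_mul, mul_comm, pow_mul, hζ1, one_pow]
    rw [P.mem_nonunits_iff] at h1 ⊢
    rw [map_mul]
    calc P.valuation ζ * P.valuation (ζ ^ p - 1)
        ≤ 1 * P.valuation (ζ ^ p - 1) :=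
          mul_le_mul_left ((P.valuation_le_one_iff ζ).mpr hζP) _
      _ = P.valuation (ζ ^ p - 1) := one_mul _
      _ < 1 := h1
  have hind := ydep_congr_adjoin P c hζP hcζP hcong
  -- integral elements of `ℚ(ζ)` lie in `ℤ[ζ]`
  have hint : ∀ x ∈ F, IsIntegral ℤ x → x ∈ Algebra.adjoin ℤ ({ζ} : Set (AlgebraicClosure ℚ)) := by
    intro x hx hxi
    set ζ' : F := ⟨ζ, hζF⟩ with hζ'
    have hζ'prim : IsPrimitiveRoot ζ' (p ^ n) :=
      IsPrimitiveRoot.of_map_of_injective (f := algebraMap F (AlgebraicClosure ℚ))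
        (by exact hζ) (algebraMap F (AlgebraicClosure ℚ)).injective
    have hcl := IsCyclotomicExtension.Rat.isIntegralClosure_adjoin_singleton
      (n := p ^ n) (K := F) hζ'prim
    have hxi' : IsIntegral ℤ (⟨x, hx⟩ : F) := by
      have h1 : IsIntegral ℤ (algebraMap F (AlgebraicClosure ℚ) ⟨x, hx⟩) := hxi
      exact (isIntegral_algebraMap_iff (algebraMap F (AlgebraicClosure ℚ)).injective).mp h1
    obtain ⟨y, hy⟩ := hcl.isIntegral_iff.mp hxi'
    have hy' : (⟨x, hx⟩ : F) ∈ Algebra.adjoin ℤ ({ζ'} : Set F) := by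
      rw [← hy]; exact y.2
    have hmap : (Algebra.adjoin ℤ ({ζ'} : Set F)).map
        ((IsScalarTower.toAlgHom ℤ F (AlgebraicClosure ℚ))) =
        Algebra.adjoin ℤ ({ζ} : Set (AlgebraicClosure ℚ)) := by
      rw [AlgHom.map_adjoin, Set.image_singleton]
      rfl
    rw [← hmap]
    exact ⟨⟨x, hx⟩, hy', rfl⟩
  obtain ⟨σ', hσ', hagree⟩ := Fermat.Agent.Common.exists_mem_inertiaSubgroupIn_of_congr F p hp P hP
    c (fun x hx hxi => (hind x (hint x hx hxi)).2.2)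
  refine ⟨σ', hσ', fun μ hμ => ?_⟩
  obtain ⟨i, -, rfl⟩ := hζ.eq_pow_of_pow_eq_one hμ
  rw [hagree _ (pow_mem hζF i), hc _ hμ]

/-- `q = p`: some element of `G_{ℚ_p}` raises the `p^n`-th roots of unity to the `(1+p)`-th
power. -/
theorem ydep_exists_inertia (p : ℕ) [Fact p.Prime] (n : ℕ) :
    ∃ τ : GQq p, ∀ x : AlgebraicClosure ℚ, x ^ (p ^ n) = 1 →
      localGaloisToGlobal p τ x = x ^ (1 + p) := by
  have hp : p.Prime := Fact.out
  obtain ⟨σ, hσI, hσ⟩ := ydep_exists_inertia_global hp n (padicPlace p) (lfrobex_liesOverPrime p)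
  have hσD : σ ∈ (padicPlace p).decompositionSubgroup ℚ := by
    obtain ⟨s, -, rfl⟩ := hσI
    exact s.2
  obtain ⟨τ, hτ⟩ := stmtDecFull p σ hσD
  exact ⟨τ, fun x hx => by rw [hτ]; exact hσ x hx⟩

/-- both cases: there is `a ≥ 2` prime to `p` such that for every `n` some element of `G_{ℚ_q}`
raises the `p^n`-th roots of unity to the `a`-th power -/
theorem ydep_exists_local (p : ℕ) [Fact p.Prime] (q : ℕ) [Fact q.Prime] :
    ∃ a : ℕ, 2 ≤ a ∧ Nat.Coprime a p ∧ ∀ n : ℕ, ∃ τ : GQq q,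
      ∀ x : AlgebraicClosure ℚ, x ^ (p ^ n) = 1 → localGaloisToGlobal q τ x = x ^ a := by
  have hp : p.Prime := Fact.out
  have hq : q.Prime := Fact.out
  by_cases hqp : q = p
  · subst hqp
    refine ⟨1 + q, by have := hp.two_le; omega, ?_, fun n => ydep_exists_inertia q n⟩
    rw [Nat.coprime_add_self_left]
    exact Nat.coprime_one_left q
  · obtain ⟨τ, hτ⟩ := ydep_exists_frob hp q hqp
    exact ⟨q, hq.two_le, (Nat.coprime_primes hq hp).mpr hqp, fun n => ⟨τ, hτ n⟩⟩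

/-! ### The depth -/

/-- **Y-depth**. -/
theorem stmtPDepthTower : StmtPDepthTower := by
  intro p _ S hpS q U hU
  have hp : p.Prime := Fact.out
  have hqF : Fact ((q.1 : Nat.Primes) : ℕ).Prime := ⟨q.1.2⟩
  -- a normal level below `U`
  obtain ⟨U₁, hU₁, hU₁U, hU₁n⟩ := (towerS S).exists_normal U hU
  have hU₁f : U₁.FiniteIndex := (towerS S).finiteIndex U₁ hU₁
  set d : ℕ := U₁.index with hd
  have hd0 : 0 < d := Nat.pos_of_ne_zero hU₁f.index_ne_zero
  -- the local element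
  obtain ⟨a, ha2, hacop, hτ⟩ := ydep_exists_local p ((q.1 : Nat.Primes) : ℕ)
  set A : ℕ := a ^ (d * (p - 1)) with hA
  have hAn : A < p ^ A := Nat.lt_pow_self hp.one_lt
  obtain ⟨τ₀, hτx⟩ := hτ A
  -- the cyclotomic level
  have hC : (cycloField (p ^ A)).fixingSubgroup ∈ (towerS S).lev :=
    ⟨cycloField (p ^ A), ydep_cyclo_unram p A S hpS, rfl⟩
  obtain ⟨U', hU', hU'le, hU'n⟩ := (towerS S).exists_normal _ ((towerS S).inf_mem _ _ hU₁ hC)
  refine ⟨U', hU', hU'le.trans (inf_le_left.trans hU₁U), hU'n, ?_⟩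
  by_contra hm
  -- the element `k = τ^(d(p-1))`
  set r : GlocS S q →* GQ := rS S q with hr
  let τ : GlocS S q := τ₀
  have hrτ : ∀ x : AlgebraicClosure ℚ, x ^ (p ^ A) = 1 → r τ x = x ^ a := hτx
  have hkU : τ ^ (d * (p - 1)) ∈ U.comap r := by
    rw [Subgroup.mem_comap, map_pow, pow_mul]
    exact hU₁U (U₁.pow_mem (U₁.pow_index_mem (r τ)) _)
  have hN : (U'.comap r).Normal := hU'n.comap r
  have hkm := Subgroup.pow_relIndex_mem (U'.comap r) hkU
  set m : ℕ := (U'.comap r).relIndex (U.comap r) with hmdef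
  have hfix : (r τ) ^ (d * (p - 1) * m) ∈ (cycloField (p ^ A)).fixingSubgroup := by
    have h1 : r ((τ ^ (d * (p - 1))) ^ m) ∈ U' := hkm
    rw [← pow_mul, map_pow] at h1
    exact (hU'le h1).2
  -- a primitive root
  have hpn : 0 < p ^ A := pow_pos hp.pos A
  have : NeZero ((p ^ A : ℕ) : AlgebraicClosure ℚ) := ⟨Nat.cast_ne_zero.mpr hpn.ne'⟩
  obtain ⟨ζ, hζ⟩ := HasEnoughRootsOfUnity.exists_primitiveRoot (AlgebraicClosure ℚ) (p ^ A)
  have hζ1 := hζ.pow_eq_one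
  have h2 : ((r τ) ^ (d * (p - 1) * m)) ζ = ζ :=
    (mem_fixingSubgroup_cycloField_iff _).mp hfix ζ hζ1
  rw [ydep_pow_root (r τ) a (p ^ A) hrτ _ ζ hζ1] at h2
  have hpos : 1 ≤ a ^ (d * (p - 1) * m) := Nat.one_le_pow _ _ (by omega)
  have h3 : ζ ^ (a ^ (d * (p - 1) * m) - 1) = 1 := by
    have hζ0 : ζ ≠ 0 := hζ.ne_zero hpn.ne'
    have : ζ ^ (a ^ (d * (p - 1) * m) - 1) * ζ = 1 * ζ := by
      rw [← pow_succ, Nat.sub_add_cancel hpos, h2, one_mul]
    exact mul_right_cancel₀ hζ0 this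
  have h4 : p ^ A ∣ a ^ (d * (p - 1) * m) - 1 := hζ.dvd_of_pow_eq_one _ h3
  have h5 : (a ^ (d * (p - 1))) ^ m ≡ 1 [MOD p ^ A] := by
    rw [← pow_mul]
    exact ((Nat.modEq_iff_dvd' hpos).mpr h4).symm
  exact ydep_arith hp hacop ha2 hd0 hAn hm h5

end Fermat.Agent.TW.E


end ZBTW_014_13

/-! ### bundled: `Fermat.Agent.TW.Core.Final` -/
section ZBTW_014_14
/-
Project TW (S56) — TW-Core, FINAL WIRING (helper63).
S56 from the statements of the sub-projects which are still open; every landed piece is plugged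
in here.  When the four inputs of `s56_of_open` are theorems, `Fermat/Agent/S56.lean` is one line.
-/

set_option autoImplicit false

namespace Fermat.Agent.TW.Core

open Polynomial IsLocalRing

/-- the inputs of the count, from the two open statements `F.StmtH2Perm` (TW-F) and `E.StmtEC`
(TW-E) -/
theorem coreInputs_of (hH2 : Fermat.Agent.TW.F.StmtH2Perm) (hEC : Fermat.Agent.TW.E.StmtEC) :
    CoreInputs where
  gw := Fermat.Agent.TW.F.stmtGWFinal_of_h2perm hH2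
  ec := hEC
  cg := Fermat.Agent.PT.B.stmtCmGlob_of_GA Fermat.Agent.PT.G3.stmtGA_B
  cl := Fermat.Agent.PT.B.stmtCmLoc
  h90 := Fermat.Agent.PT.B.stmtH90Loc
  ex := Fermat.Agent.PT.B.stmtExistC_of_GA Fermat.Agent.PT.G3.stmtGA_B
    Fermat.Agent.PT.X.stmtExistTL
  sv := Fermat.Agent.PT.B.stmtSurvC_of_GB
    (Fermat.Agent.PT.B.stmtGB_of_sdShapiro Fermat.Agent.PT.G3.stmtSDShapiro)
  locex := Fermat.Agent.TW.L.stmtLocExistQ
  pdepth := Fermat.Agent.TW.E.stmtPDepthTower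
  perp := Fermat.Agent.TW.F.stmtPerpExists
  locRight := Fermat.Agent.TW.F.stmtLocRight
  gloFin := Fermat.Agent.TW.F.stmtGloFin
  adLevel := Fermat.Agent.TW.S.stmtAdLevel
  adRank := Fermat.Agent.TW.S.stmtAdRank
  archDual := Fermat.Agent.TW.L.stmtArchDual
  adArch := Fermat.Agent.TW.L.stmtAdArch
  adGlob0 := Fermat.Agent.TW.L.stmtAdGlob0
  adMin := Fermat.Agent.TW.L.stmtAdMin
  adTw := Fermat.Agent.TW.L.stmtAdTw

variable {𝒪 : Type} [CommRing 𝒪] [IsDomain 𝒪] [IsDiscreteValuationRing 𝒪]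
  [IsAdicComplete (maximalIdeal 𝒪) 𝒪] [Finite (ResidueField 𝒪)]

/-- **S56 from the four open statements**: `F.StmtH2Perm` (TW-F, end of the nine-term sequence),
`E.StmtEC` (TW-E, global Euler characteristic), `StmtKillAll` (TW-G, the Taylor–Wiles primes kill
the dual Selmer group) and `W.StmtWFlat` (TW-W, the flat local condition at `p`). -/
theorem s56_of_open (hH2 : Fermat.Agent.TW.F.StmtH2Perm) (hEC : Fermat.Agent.TW.E.StmtEC)
    (hkill : StmtKillAll 𝒪) (hW : Fermat.Agent.TW.W.StmtWFlat)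
    (p : ℕ) [Fact p.Prime] (hp2 : p ≠ 2) (hp𝒪 : (p : 𝒪) ∈ maximalIdeal 𝒪)
    (ρbar : ResidualGaloisRep (ResidueField 𝒪))
    (habs : ρbar.IsAbsolutelyIrreducible)
    (hdet : (GaloisRepAdic.ofResidualGaloisRep ρbar).DetIsCyclotomic p)
    (hsplit : ∀ σ : AlgebraicClosure ℚ ≃ₐ[ℚ] AlgebraicClosure ℚ,
      ∃ α β : ResidueField 𝒪, LinearMap.charpoly (ρbar.ρ σ) = (X - C α) * (X - C β))
    (hTW : ∀ (K : Type) [Field K] [Algebra (ResidueField 𝒪) K]
      (G : Subgroup (AlgebraicClosure ℚ ≃ₐ[ℚ] AlgebraicClosure ℚ)), G.index = 2 →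
      ∀ V : Submodule K (ρbar.baseChange K).V,
        (∀ σ ∈ G, ∀ x ∈ V, (ρbar.baseChange K).ρ σ x ∈ V) → V = ⊥ ∨ V = ⊤)
    (S Smin : Finset ℕ) (hpSmin : p ∈ Smin) (hSmin : Smin ⊆ S) (hS : ∀ q ∈ S, q.Prime)
    (hmin : ∀ q : ℕ, q.Prime → q ≠ p → (q ∈ Smin ↔ ¬ ρbar.IsUnramifiedAt q)) :
    (∃ r : ℕ, ∀ n : ℕ, ∃ qv : Fin r → ℕ, Function.Injective qv ∧
      (∀ i, (qv i).Prime ∧ qv i ∉ S ∧ p ^ (n + 1) ∣ qv i - 1) ∧
      (∀ i, ∀ P : ValuationSubring (AlgebraicClosure ℚ), P.LiesOverPrime (qv i) →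
        ∀ φ : AlgebraicClosure ℚ ≃ₐ[ℚ] AlgebraicClosure ℚ, P.IsFrobeniusAt φ (qv i) →
          ∃ α β : ResidueField 𝒪, α ≠ β ∧ LinearMap.charpoly (ρbar.ρ φ) = (X - C α) * (X - C β)) ∧
      ∀ DQ : GaloisRep.DeformationRingData 𝒪 ρbar (fun _A _ _ _ ρ =>
          GaloisRep.strictOrdinaryCondition 𝒪 p (Smin ∪ Finset.univ.image qv) ρ ∧
            ∀ q ∈ Smin, q.Prime → q ≠ p → ρ.IsUnipotentOnInertiaAt q),
        ∃ γ : MvPowerSeries (Fin r) 𝒪 →ₐ[𝒪] DQ.R, Function.Surjective γ) ∧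
    (∃ r : ℕ, ∀ n : ℕ, ∃ qv : Fin r → ℕ, Function.Injective qv ∧
      (∀ i, (qv i).Prime ∧ qv i ∉ S ∧ p ^ (n + 1) ∣ qv i - 1) ∧
      (∀ i, ∀ P : ValuationSubring (AlgebraicClosure ℚ), P.LiesOverPrime (qv i) →
        ∀ φ : AlgebraicClosure ℚ ≃ₐ[ℚ] AlgebraicClosure ℚ, P.IsFrobeniusAt φ (qv i) →
          ∃ α β : ResidueField 𝒪, α ≠ β ∧ LinearMap.charpoly (ρbar.ρ φ) = (X - C α) * (X - C β)) ∧
      ∀ DQ : GaloisRep.DeformationRingData 𝒪 ρbar (fun _A _ _ _ ρ =>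
          GaloisRep.flatCondition 𝒪 p (Smin ∪ Finset.univ.image qv) ρ ∧
            ∀ q ∈ Smin, q.Prime → q ≠ p → ρ.IsUnipotentOnInertiaAt q),
        ∃ γ : MvPowerSeries (Fin r) 𝒪 →ₐ[𝒪] DQ.R, Function.Surjective γ) :=
  Fermat.Agent.TW.s56_of_core
    (stmtCoreOrd_of (coreInputs_of hH2 hEC) hkill Fermat.Agent.TW.S.stmtSelCardOrd
      Fermat.Agent.TW.S.stmtResStrict Fermat.Agent.TW.L.stmtAdOrd)
    (stmtCoreFlat_of (coreInputs_of hH2 hEC) hkill Fermat.Agent.TW.S.stmtSelCardFlat hW)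
    (Fermat.Agent.TW.stmtBCOrd 𝒪) (Fermat.Agent.TW.stmtBCFlat 𝒪)
    p hp2 hp𝒪 ρbar habs hdet hsplit hTW S Smin hpSmin hSmin hS hmin

end Fermat.Agent.TW.Core


end ZBTW_014_14

/-! ### bundled: `Fermat.Agent.TW.F.PlanH2Perm` -/
section ZBTW_014_15
/-
TW-F, block F-h2perm (the PERMUTATION CASE of F-h2) — INTERFACE FILE (block owner helper55).
Target: `StmtH2Perm` of TW/F/PlanH2.lean.   Mathematics + piece table: NOTES/TW-F-h2perm.md.
Definitions and statements only.  A piece `X` is DONE when `theorem stmtX : StmtX`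
(or `stmtX_of : … → StmtX`) is landed in its own file `Fermat/Agent/TW/F/H2p<X>.lean`,
namespace `Fermat.Agent.TW.F`, sorry-free, lemma names prefixed `h2p<x>_`.

Notation.  `U` a NORMAL level with `χ|_U = 1`, `Ω = G ⧸ U`, `M = ℤ[Ω] = h2pM U`,
`N_Ω = h2pN U = Σ_ω e_ω ∈ M^G`.  Cochains are FUNCTIONS with values in `Hom_ℤ(M, Y) = (M.V →+ Y.V)`
(`conjAdd`, `dOne`, `dTwo` as in PT/F and TW/E).  A PLACE of `U` over `v` is a double coset
`r_v(G_v) g₀ U`; a place function is `m : ι → G → ℕ`, constant on places.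

Route (the chase of helper63's (E1), made explicit):
  Ψ ↔ place function m (not constant mod p)                                   [h2p-untw]
  for every place w a level 2-cocycle Y_w of Hom(M, J), p-torsion, supported at w,
     with π ∘ Y_w(N_Ω) NOT a level coboundary of C      [h2p-supp = seedmod + seedpair + proj + transl]
  two p-torsion classes of H²_lev(G, Hom(M, C)) are linearly dependent mod p
                                                         [h2p-dep = cycU + shinj]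
  a p-torsion class of Hom(M, J) dying in Hom(M, C) comes from a cocycle of Hom(M, E)[p]  [h2p-chase]
  multiplication by a place function P_m on Hom(M, J); weighted trace T_m = ev_N ∘ P_m : Hom(M, J) → J
     (G-maps), T_m Y_w = m(w) • Y_w(N_Ω)                                      [h2p-mul, h2p-wtr]
  assembly                                                                    [h2p-asm]
-/

set_option autoImplicit false

noncomputable section

namespace Fermat.Agent.TW.F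

open CategoryTheory groupCohomology Module Fermat.Agent.PT Fermat.Agent.PT.F Fermat.Agent.TW.E

variable {p : ℕ} {G : Type} [Group G] {ι : Type} {Gloc : ι → Type} [∀ v, Group (Gloc v)]

/-! ### Definitions -/

/-- the permutation lattice `ℤ[G/U]` -/
abbrev h2pM (U : Subgroup G) : Rep.{0} ℤ G := permZ G (G ⧸ U)

/-- the basis vector `e_ω` of `ℤ[G/U]` -/
abbrev h2pE (U : Subgroup G) (ω : G ⧸ U) : (h2pM U).V := MonoidAlgebra.single ω (1 : ℤ)

/-- the norm element `N_Ω = Σ_ω e_ω` of `ℤ[G/U]` (`U` of finite index) -/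
def h2pN (U : Subgroup G) : (h2pM U).V := ∑ᶠ ω : G ⧸ U, h2pE U ω

/-- `m` is a place function for `U`: left-invariant under `r_v(G_v)`, right-invariant under
`U`. -/
def IsPlaceFn (D : PTDatum p G ι Gloc) (U : Subgroup G) (m : ι → G → ℕ) : Prop :=
  (∀ (v : ι) (d : Gloc v) (g : G), m v (D.r v d * g) = m v g) ∧
  (∀ (v : ι) (g u : G), u ∈ U → m v (g * u) = m v g)

/-- `T` is the weighted trace `T_m : Hom_ℤ(ℤ[G/U], J) → J`,
`(T_m F)(v)(g) = Σ_ω m_v(g ω) • F(e_ω)(v)(g)`. -/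
def IsWtr (D : PTDatum p G ι Gloc) (U : Subgroup G) (m : ι → G → ℕ)
    (T : ((h2pM U).V →+ (PTJ D).V) →+ (PTJ D).V) : Prop :=
  ∀ (F : (h2pM U).V →+ (PTJ D).V) (v : ι) (g : G),
    (T F).1 v g = ∑ᶠ ω : G ⧸ U, (m v (g * ω.out)) • (F (h2pE U ω)).1 v g

/-- `F : ℤ[G/U] → J` is supported at the place `r_v(G_v) g₀ U`: the component
`F(e_ω)(v')(g)` vanishes unless `v' = v` and `g ω ∈ r_v(G_v) g₀ U`. -/
def IsSuppAt (D : PTDatum p G ι Gloc) (U : Subgroup G) (v : ι) (g₀ : G)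
    (F : (h2pM U).V →+ (PTJ D).V) : Prop :=
  ∀ (ω : G ⧸ U) (v' : ι) (g : G), (F (h2pE U ω)).1 v' g ≠ 0 →
    v' = v ∧ ∃ d : Gloc v, ∃ u ∈ U, g * ω.out = D.r v d * g₀ * u

/-- `F : ℤ[G/U] → J` is supported at `v`: all components at `v' ≠ v` vanish. -/
def IsSuppV (D : PTDatum p G ι Gloc) (U : Subgroup G) (v : ι)
    (F : (h2pM U).V →+ (PTJ D).V) : Prop :=
  ∀ (m : (h2pM U).V) (v' : ι) (g : G), v' ≠ v → (F m).1 v' g = 0

/-- `Y` is a level 2-cocycle of `Hom_ℤ(M, X)` whose class is killed by `p`. -/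
def IsPTorsCoc (𝒯 : Tower G) (p : ℕ) (M X : Rep.{0} ℤ G) (Y : G × G → (M.V →+ X.V)) : Prop :=
  IsLevel₂ 𝒯 Y ∧ (∀ s, dTwo M X Y s = 0) ∧
    ∃ t : G → (M.V →+ X.V), IsLevel₁ 𝒯 t ∧ ∀ s, p • Y s = dOne M X t s

/-- `w : N × N → X` is right-invariant (in both variables) under `U ∩ N` for some level `U`. -/
def IsLevelOn₂ (𝒯 : Tower G) (N : Subgroup G) {X : Type} (w : N × N → X) : Prop :=
  ∃ U ∈ 𝒯.lev, ∀ g g' s s' : N, (s : G) ∈ U → (s' : G) ∈ U → w (g * s, g' * s') = w (g, g')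

/-! ### The pieces -/

/-- **h2p-mul** (pure algebra on the semilocal module, ~200 lines).  Multiplication by a place
function: for a normal level `U` and a place function `m` there is an additive endomorphism `P_m`
of `Hom_ℤ(ℤ[G/U], J)`, `(P_m F)(e_ω)(v)(g) = m_v(g ω) • F(e_ω)(v)(g)`, `G`-equivariant for the
conjugation action.  (Define on the basis `e_ω`; membership in `semilocalSub`:
`m_v(r(d) g ω) = m_v(g ω)`; level: `U` is normal, so `g ↦ m_v(g ω)` is right-`U`-invariant.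
Equivariance: `out (σ⁻¹ ω) ∈ σ⁻¹ · out ω · U`.) -/
def StmtH2pMul : Prop :=
  ∀ (p : ℕ) [Fact p.Prime] (G : Type) [Group G] (ι : Type) [Fintype ι] (Gloc : ι → Type)
    [∀ v, Group (Gloc v)] (D : PTDatum p G ι Gloc) (U : Subgroup G), U.Normal → U ∈ D.𝒯.lev →
    ∀ m : ι → G → ℕ, IsPlaceFn D U m →
      ∃ P : ((h2pM U).V →+ (PTJ D).V) →+ ((h2pM U).V →+ (PTJ D).V),
        (∀ (F : (h2pM U).V →+ (PTJ D).V) (ω : G ⧸ U) (v : ι) (g : G),
          (P F (h2pE U ω)).1 v g = (m v (g * ω.out)) • (F (h2pE U ω)).1 v g) ∧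
        ∀ (σ : G) (F : (h2pM U).V →+ (PTJ D).V),
          P (conjAdd (h2pM U) (PTJ D) σ F) = conjAdd (h2pM U) (PTJ D) σ (P F)

/-- **h2p-wtr** (~80 lines from h2p-mul: `T_m F := (P_m F)(N_Ω)`; `stmtH2pWtr_of : StmtH2pMul →
StmtH2pWtr`).  For a normal level `U` and a place function `m` the weighted trace exists and is
`G`-equivariant for the conjugation action. -/
def StmtH2pWtr : Prop :=
  ∀ (p : ℕ) [Fact p.Prime] (G : Type) [Group G] (ι : Type) [Fintype ι] (Gloc : ι → Type)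
    [∀ v, Group (Gloc v)] (D : PTDatum p G ι Gloc) (U : Subgroup G), U.Normal → U ∈ D.𝒯.lev →
    ∀ m : ι → G → ℕ, IsPlaceFn D U m →
      ∃ T : ((h2pM U).V →+ (PTJ D).V) →+ (PTJ D).V, IsWtr D U m T ∧
        ∀ (σ : G) (F : (h2pM U).V →+ (PTJ D).V),
          T (conjAdd (h2pM U) (PTJ D) σ F) = (PTJ D).ρ σ (T F)

/-- **h2p-untw** (untwisting `𝔽_p[G/U] ≅ Hom_ℤ(ℤ[G/U], μ_p)`, ~350 lines).  Every `G`-map
`Ψ : 𝔽_p[G/U] → J` has a place function `m` (`Ψ(e_U)(v)(g) = (m_v(g) χ(g)).val • ζ_v`, `J_tors`)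
such that: (1) if `π ∘ Ψ ≠ 0` then `m` is not constant mod `p`; (2) for every level 2-cocycle `y`
of `Hom_ℤ(M, E)` killed by `p` ON THE NOSE there is a level 2-cocycle `z` of `𝔽_p[G/U]` with
`Ψ ∘ z = T_m ∘ (i ∘ y)`.  (`y(s)(e_ω) = n_ω(s) • ζ` by `ζ_gen`; `z(s) := Σ_ω χ(ω)⁻¹ n_ω(s) e_ω`.) -/
def StmtH2pUntw : Prop :=
  ∀ (p : ℕ) [Fact p.Prime] (G : Type) [Group G] (ι : Type) [Fintype ι] (Gloc : ι → Type)
    [∀ v, Group (Gloc v)] (D : PTDatum p G ι Gloc) (U : Subgroup G), U.Normal → U ∈ D.𝒯.lev →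
    (∀ s ∈ U, D.χ s = 1) →
    ∀ Ψ : (permRep p U).V →+ (PTJ D).V, IsGMap D (permRep p U) Ψ →
      ∃ m : ι → G → ℕ, IsPlaceFn D U m ∧
        ((∃ x, D.π.hom (Ψ x) ≠ 0) →
          ∃ (v₁ : ι) (g₁ : G) (v₂ : ι) (g₂ : G), ¬ (m v₁ g₁ ≡ m v₂ g₂ [MOD p])) ∧
        ∀ T : ((h2pM U).V →+ (PTJ D).V) →+ (PTJ D).V, IsWtr D U m T →
          ∀ y : G × G → ((h2pM U).V →+ D.E.V), IsLevel₂ D.𝒯 y →
            (∀ s, dTwo (h2pM U) D.E y s = 0) → (∀ s, p • y s = 0) →
            ∃ z : G × G → (permRep p U).V, z ∈ levCocycles₂ D.𝒯 (permRep p U) ∧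
              ∀ s, Ψ (z s) = T ((homAdd D.i).comp (y s))

/-- **h2p-seedmod** (~350 lines; `HasPDepth`).  The module and the 1-cocycle of the seed: a finite
`G`-module `A'` killed by `p`, trivial on a normal level, and a level 1-cocycle `ĉ` of
`Hom_ℤ(M, A')` whose trace `c := ĉ(·)(N_Ω)` is NOT a coboundary on `G_v`.
Construction: `U'' ≤ U` normal level with `p ∣ [r_v⁻¹U : r_v⁻¹U'']` (`HasPDepth`), `Ω'' = G/U''`,
`A' := ker(𝔽_p[Ω × Ω''] → 𝔽_p[Ω])` (as a `ℤ`-representation; e.g. `Subrepresentation` or a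
categorical kernel as in PT/F/StdPres.lean), `ĉ(σ)(e_ω) := e_{(ω, σ̄)} - e_{(ω, 1̄)}`.
Then `c(σ) = σ X₀ - X₀`, `X₀ = Σ_ω e_{(ω, 1̄)}`; if `c(r d) = r(d) F - F` on `G_v` with `F ∈ A'`, then
`F - X₀` is `r(G_v)`-invariant, so `ω'' ↦ (F - X₀)(1̄, ω'')` is invariant under the image `H` of
`r_v⁻¹ U` in the GROUP `G/U''` (`U` normal: `r_v⁻¹ U` fixes `1̄ ∈ Ω`), acting freely by left
translation; hence `-1 = Σ_{ω''} (F - X₀)(1̄, ω'')` is divisible by `|H| = [r_v⁻¹U : r_v⁻¹U'']`,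
which is `0` in `𝔽_p`: contradiction. -/
def StmtH2pSeedMod : Prop :=
  ∀ (p : ℕ) [Fact p.Prime] (G : Type) [Group G] (ι : Type) [Fintype ι] (Gloc : ι → Type)
    [∀ v, Group (Gloc v)] (D : PTDatum p G ι Gloc), HasPDepth D →
    ∀ (U : Subgroup G), U.Normal → U ∈ D.𝒯.lev → ∀ v : ι,
      ∃ (A' : Rep.{0} ℤ G) (_ : Finite A'.V) (ch : G → ((h2pM U).V →+ A'.V)),
        (∀ a : A'.V, p • a = 0) ∧
        (∃ U₀ ∈ D.𝒯.lev, U₀.Normal ∧ ∀ s ∈ U₀, ∀ a : A'.V, A'.ρ s a = a) ∧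
        IsLevel₁ D.𝒯 ch ∧ (∀ s, dOne (h2pM U) A' ch s = 0) ∧
        (fun d : Gloc v => ch (D.r v d) (h2pN U)) ∉ coboundaries₁ (Rep.res (D.r v) A')

/-- **h2p-seedpair** (~350 lines; PT-F `stdPres`, `hasInd_stdPres`, `stmtLocNondeg`,
`stmtPairBasic`, `hat`).  From a module and a cocycle as in h2p-seedmod: a level 2-cocycle `Y` of
`Hom_ℤ(M, J)`, of `p`-torsion class, supported at `v`, with `π ∘ Y(N_Ω)` not a level coboundary.
Proof: `P := stdPres` of `A'`; `c := ĉ(·)(N_Ω)` is a level 1-cocycle of `A'`, not a coboundary on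
`G_v`, so `stmtLocNondeg` gives `g_v : res M₁ ⟶ J_v` with `pairCoc P (ĝ_v ≫ π) c` not a level
coboundary (`ĝ_v := hat D P.M₁ _ v g_v`).  `C̃(σ) ∈ Hom_ℤ(M, M₀)`, `C̃(σ)(e_ω) := sec(ĉ(σ)(e_ω))`
(a level lift of `ĉ`: `C̃ = Φ ∘ ĉ`); `dOne C̃` has values in `Hom(M, inc M₁)`;
`Y(s) := ĝ_v ∘ inc⁻¹ ∘ (dOne C̃ s)` (additive since `inc⁻¹` is additive on `ker ε`);
`dTwo Y = 0` (`chl_dTwo_dOne`); `p • Y = dOne (ĝ_v ∘ inc⁻¹ ∘ (p • C̃))`; supported at `v`
(`hat_apply_ne`); `Y(·)(N_Ω) = pairLift P ĝ_v c̃`, `c̃(σ) := C̃(σ)(N_Ω)` a level lift of `c`, and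
`pairLift P g c̃ - pairCoc P g c` is a level coboundary (PairBasic, clause 2). -/
def StmtH2pSeedPair : Prop :=
  ∀ (p : ℕ) [Fact p.Prime] (G : Type) [Group G] (ι : Type) [Fintype ι] (Gloc : ι → Type)
    [∀ v, Group (Gloc v)] (D : PTDatum p G ι Gloc)
    (U : Subgroup G), U.Normal → U ∈ D.𝒯.lev → ∀ v : ι,
    ∀ (A' : Rep.{0} ℤ G), Finite A'.V → ∀ (ch : G → ((h2pM U).V →+ A'.V)),
      (∀ a : A'.V, p • a = 0) →
      (∃ U₀ ∈ D.𝒯.lev, U₀.Normal ∧ ∀ s ∈ U₀, ∀ a : A'.V, A'.ρ s a = a) →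
      IsLevel₁ D.𝒯 ch → (∀ s, dOne (h2pM U) A' ch s = 0) →
      (fun d : Gloc v => ch (D.r v d) (h2pN U)) ∉ coboundaries₁ (Rep.res (D.r v) A') →
      ∃ Y : G × G → ((h2pM U).V →+ (PTJ D).V), IsPTorsCoc D.𝒯 p (h2pM U) (PTJ D) Y ∧
        (∀ s, IsSuppV D U v (Y s)) ∧
        (fun s => D.π.hom (Y s (h2pN U))) ∉ levCoboundaries₂ D.𝒯 D.C

/-- **h2p-seed** (= seedmod + seedpair, glue).  For every `v` there is a level 2-cocycle `Y` of
`Hom_ℤ(M, J)`, of `p`-torsion class, supported at `v`, such that `π ∘ Y(N_Ω)` is NOT a level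
coboundary of `C`. -/
def StmtH2pSeed : Prop :=
  ∀ (p : ℕ) [Fact p.Prime] (G : Type) [Group G] (ι : Type) [Fintype ι] (Gloc : ι → Type)
    [∀ v, Group (Gloc v)] (D : PTDatum p G ι Gloc), HasPDepth D →
    ∀ (U : Subgroup G), U.Normal → U ∈ D.𝒯.lev → ∀ v : ι,
      ∃ Y : G × G → ((h2pM U).V →+ (PTJ D).V), IsPTorsCoc D.𝒯 p (h2pM U) (PTJ D) Y ∧
        (∀ s, IsSuppV D U v (Y s)) ∧
        (fun s => D.π.hom (Y s (h2pN U))) ∉ levCoboundaries₂ D.𝒯 D.C

/-- **h2p-proj** (~200 lines from h2p-mul with `m :=` the indicator function of the place).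
`stmtH2pProj_of : StmtH2pMul → StmtH2pProj`.  The projection `P_w` of `Hom_ℤ(M, J)` onto the part
supported at the place `w = r_v(G_v) g₀ U`,
`(P_w F)(e_ω)(v')(g) := [v' = v ∧ g ω ∈ w] · F(e_ω)(v')(g)`, is an additive `G`-map (conjugation
action), and for `F` supported at `v`:  `F = Σ_{w over v} P_w F` (finitely many places).  Hence:
a `p`-torsion level 2-cocycle `Y` supported at `v` with `π ∘ Y(N_Ω)` not a level coboundary has,
for SOME `g₀`, the same property for `P_{(v, g₀)} ∘ Y`, which is supported at `(v, g₀)`. -/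
def StmtH2pProj : Prop :=
  ∀ (p : ℕ) [Fact p.Prime] (G : Type) [Group G] (ι : Type) [Fintype ι] (Gloc : ι → Type)
    [∀ v, Group (Gloc v)] (D : PTDatum p G ι Gloc) (U : Subgroup G), U.Normal → U ∈ D.𝒯.lev →
    ∀ (v : ι) (Y : G × G → ((h2pM U).V →+ (PTJ D).V)), IsPTorsCoc D.𝒯 p (h2pM U) (PTJ D) Y →
      (∀ s, IsSuppV D U v (Y s)) →
      (fun s => D.π.hom (Y s (h2pN U))) ∉ levCoboundaries₂ D.𝒯 D.C →
      ∃ (g₀ : G) (Y' : G × G → ((h2pM U).V →+ (PTJ D).V)),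
        IsPTorsCoc D.𝒯 p (h2pM U) (PTJ D) Y' ∧ (∀ s, IsSuppAt D U v g₀ (Y' s)) ∧
        (fun s => D.π.hom (Y' s (h2pN U))) ∉ levCoboundaries₂ D.𝒯 D.C

/-- **h2p-transl** (~200 lines, pure algebra).  Right translation `R_γ : e_{hU} ↦ e_{hγU}` is a
`G`-automorphism of `M` fixing `N_Ω` (`U` normal); `Y ↦ Y ∘ R_γ` preserves level cocycles,
coboundaries and `Y(N_Ω)`, and moves the support from `(v, g₀)` to `(v, g₀ γ⁻¹)`.  Hence the
conclusion of `StmtH2pProj` holds for EVERY `g₀`. -/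
def StmtH2pTransl : Prop :=
  ∀ (p : ℕ) [Fact p.Prime] (G : Type) [Group G] (ι : Type) [Fintype ι] (Gloc : ι → Type)
    [∀ v, Group (Gloc v)] (D : PTDatum p G ι Gloc) (U : Subgroup G), U.Normal → U ∈ D.𝒯.lev →
    ∀ (v : ι) (g₀ g₁ : G) (Y : G × G → ((h2pM U).V →+ (PTJ D).V)),
      IsPTorsCoc D.𝒯 p (h2pM U) (PTJ D) Y → (∀ s, IsSuppAt D U v g₀ (Y s)) →
      ∃ Y' : G × G → ((h2pM U).V →+ (PTJ D).V),
        IsPTorsCoc D.𝒯 p (h2pM U) (PTJ D) Y' ∧ (∀ s, IsSuppAt D U v g₁ (Y' s)) ∧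
        ∀ s, Y' s (h2pN U) = Y s (h2pN U)

/-- **h2p-supp** (= seed + proj + transl): for EVERY place `(v, g₀)` of `U` there is a level
2-cocycle of `Hom_ℤ(M, J)`, of `p`-torsion class, supported at `(v, g₀)`, whose trace
`π ∘ Y(N_Ω)` is not a level coboundary of `C`. -/
def StmtH2pSupp : Prop :=
  ∀ (p : ℕ) [Fact p.Prime] (G : Type) [Group G] (ι : Type) [Fintype ι] (Gloc : ι → Type)
    [∀ v, Group (Gloc v)] (D : PTDatum p G ι Gloc), HasPDepth D →
    ∀ (U : Subgroup G), U.Normal → U ∈ D.𝒯.lev → ∀ (v : ι) (g₀ : G),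
      ∃ Y : G × G → ((h2pM U).V →+ (PTJ D).V), IsPTorsCoc D.𝒯 p (h2pM U) (PTJ D) Y ∧
        (∀ s, IsSuppAt D U v g₀ (Y s)) ∧
        (fun s => D.π.hom (Y s (h2pN U))) ∉ levCoboundaries₂ D.𝒯 D.C

/-- **h2p-cycU** (~350 lines).  Cyclicity of `H²_lev(U, C)[p]` for a normal level `U`, on cochain
FUNCTIONS `U × U → C`: two level 2-cocycles of `p`-torsion class are linearly dependent mod `p` up
to a level coboundary.
Sketch: all data are right-invariant under a normal level `U' ≤ U` and have values in `C^{U'}`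
(as in `levH2_pTorsion_cyclic`, PT/F/Level.lean); descend to the subgroup `K = U/U'` of
`Γ = G/U'`; `cm_glob U'` gives `u` with `IsPFundClass p (C^{U'}) u`, a property of the
`p`-subgroups of `Γ`, hence of those of `K` (transport as in `InflInj.h1Kill_of_pgroups`);
`stmtSylow` for `K` + cyclicity of `H²(Q, C^{U'})` (`h2_card`, `h2_gen`), `Q` a Sylow subgroup
of `K` (as PT/F/H2pCyclic.lean).  If `[w₁] = 0` take `(a, b) = (1, 0)`; else `[w₂] = n [w₁]`,
`(a, b) = ((p - 1) n, 1)`. -/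
def StmtH2pCycU : Prop :=
  ∀ (p : ℕ) [Fact p.Prime] (G : Type) [Group G] (ι : Type) [Fintype ι] (Gloc : ι → Type)
    [∀ v, Group (Gloc v)] (D : PTDatum p G ι Gloc) (U : Subgroup G), U.Normal → U ∈ D.𝒯.lev →
    ∀ w₁ w₂ : U × U → D.C.V,
      w₁ ∈ cocycles₂ (Rep.res U.subtype D.C) → w₂ ∈ cocycles₂ (Rep.res U.subtype D.C) →
      IsLevelOn₂ D.𝒯 U w₁ → IsLevelOn₂ D.𝒯 U w₂ →
      (∃ ψ : U → D.C.V, IsLevelOn D.𝒯 U ψ ∧ p • w₁ = (d₁₂ (Rep.res U.subtype D.C)).hom ψ) →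
      (∃ ψ : U → D.C.V, IsLevelOn D.𝒯 U ψ ∧ p • w₂ = (d₁₂ (Rep.res U.subtype D.C)).hom ψ) →
      ∃ a b : ℕ, ¬ (p ∣ a ∧ p ∣ b) ∧ ∃ ψ : U → D.C.V, IsLevelOn D.𝒯 U ψ ∧
        a • w₁ + b • w₂ = (d₁₂ (Rep.res U.subtype D.C)).hom ψ

/-- **h2p-shinj** (Shapiro injectivity in degree 2 for `Hom_ℤ(ℤ[G/U], C)`, ~250 lines; tool:
`Fermat.Agent.PT.F.ShapiroHtpy.shapiro₂` with `H := U`, `r := U.subtype`).  A level 2-cocycle `W`
of `Hom_ℤ(ℤ[G/U], C)` whose restriction to `U`, evaluated at `e_{1·U}`, is the coboundary of a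
level cochain `ψ : U → C`, is a level coboundary.
Dictionary: `Φ(g₀, g₁, g₂) := g₀ • W(g₀⁻¹ g₁, g₁⁻¹ g₂)(e_{g₀⁻¹ U})`, `Ψ(d₀, d₁) := d₀ • ψ(d₀⁻¹ d₁)`;
`Φ = dΘ`; `t(σ)(e_{xU}) := x • Θ(x⁻¹, x⁻¹ σ)` (well defined: `Θ` is left-`U`-equivariant).
(The values of a level cocycle are fixed by its level: `σ W(τ,ρ) σ⁻¹ = W(τ,ρ)` for `σ` in a
normal level of `W`, because `W(1, τ) = W(1, 1)`.) -/
def StmtH2pShInj : Prop :=
  ∀ (p : ℕ) [Fact p.Prime] (G : Type) [Group G] (ι : Type) [Fintype ι] (Gloc : ι → Type)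
    [∀ v, Group (Gloc v)] (D : PTDatum p G ι Gloc) (U : Subgroup G), U.Normal → U ∈ D.𝒯.lev →
    ∀ W : G × G → ((h2pM U).V →+ D.C.V), IsLevel₂ D.𝒯 W → (∀ s, dTwo (h2pM U) D.C W s = 0) →
      (∃ ψ : U → D.C.V, IsLevelOn D.𝒯 U ψ ∧ ∀ s t : U,
        W ((s : G), (t : G)) (h2pE U ((1 : G) : G ⧸ U)) =
          (d₁₂ (Rep.res U.subtype D.C)).hom ψ (s, t)) →
      ∃ t : G → ((h2pM U).V →+ D.C.V), IsLevel₁ D.𝒯 t ∧ ∀ s, W s = dOne (h2pM U) D.C t s

/-- **h2p-dep** (= cycU + shinj, glue ~100 lines; `stmtH2pDep_of : StmtH2pCycU → StmtH2pShInj →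
StmtH2pDep`): `H²_lev(G, Hom_ℤ(ℤ[G/U], C))[p]` has at most `p` elements, in the form: two level
2-cocycles of `p`-torsion class are linearly dependent mod `p` up to a level coboundary.
(`w_i(s, t) := W_i(s, t)(e_{1·U})` on `U`: level 2-cocycles of `p`-torsion class of `(U, C)`
because `U` fixes `e_{1·U}`; cycU gives `a, b, ψ`; shinj for `a W₁ + b W₂`.) -/
def StmtH2pDep : Prop :=
  ∀ (p : ℕ) [Fact p.Prime] (G : Type) [Group G] (ι : Type) [Fintype ι] (Gloc : ι → Type)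
    [∀ v, Group (Gloc v)] (D : PTDatum p G ι Gloc) (U : Subgroup G), U.Normal → U ∈ D.𝒯.lev →
    ∀ W₁ W₂ : G × G → ((h2pM U).V →+ D.C.V),
      IsPTorsCoc D.𝒯 p (h2pM U) D.C W₁ → IsPTorsCoc D.𝒯 p (h2pM U) D.C W₂ →
      ∃ a b : ℕ, ¬ (p ∣ a ∧ p ∣ b) ∧ ∃ t : G → ((h2pM U).V →+ D.C.V), IsLevel₁ D.𝒯 t ∧
        ∀ s, a • W₁ s + b • W₂ s = dOne (h2pM U) D.C t s

/-- **h2p-chase** (OWNER helper68, TW/F/H2pExact.lean `h2pex_main`; tools: TW/E/ChaseLift.lean,
`stmtIn1Perm`, `E_div`).  A level 2-cocycle `Y` of `Hom_ℤ(M, J)` of `p`-torsion class whose image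
in `Hom_ℤ(M, C)` is a level coboundary is, up to a multiple `n` prime to `p` and a level
coboundary, `i ∘ W` for a level 2-cocycle `W` of `Hom_ℤ(M, E)` killed by `p` ON THE NOSE.
Proof: lift `t` to `t̃` (`chl_exists_lift_pi`); `Y - d t̃ = i ∘ W₀` (`exact`);
`T := t₁ - p t̃` has `d T = i (p W₀)`, so `π T` is a level 1-cocycle of `Hom(M, C)`: `In1` gives
`n π T = d⁰ t_C`; lift `t_C` to `t_J`; `n T - d⁰ t_J = i ∘ s`, `d s = p (n W₀)`; `E_div`:
`s = p s'` (level: finitely many values); `W := n W₀ - d s'`. -/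
def StmtH2pChase : Prop :=
  ∀ (p : ℕ) [Fact p.Prime] (G : Type) [Group G] (ι : Type) [Fintype ι] (Gloc : ι → Type)
    [∀ v, Group (Gloc v)] (D : PTDatum p G ι Gloc)
    (Ω : Type) [Fintype Ω] [MulAction G Ω], IsLevSet D.𝒯 Ω →
    ∀ Y : G × G → ((permZ G Ω).V →+ (PTJ D).V), IsLevel₂ D.𝒯 Y →
      (∀ s, dTwo (permZ G Ω) (PTJ D) Y s = 0) →
      (∃ t₁ : G → ((permZ G Ω).V →+ (PTJ D).V), IsLevel₁ D.𝒯 t₁ ∧
        ∀ s, p • Y s = dOne (permZ G Ω) (PTJ D) t₁ s) →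
      (∃ t : G → ((permZ G Ω).V →+ D.C.V), IsLevel₁ D.𝒯 t ∧
        ∀ s, (homAdd D.π).comp (Y s) = dOne (permZ G Ω) D.C t s) →
      ∃ n : ℕ, ¬ p ∣ n ∧ ∃ W : G × G → ((permZ G Ω).V →+ D.E.V), IsLevel₂ D.𝒯 W ∧
        (∀ s, dTwo (permZ G Ω) D.E W s = 0) ∧ (∀ s, p • W s = 0) ∧
        ∃ u : G → ((permZ G Ω).V →+ (PTJ D).V), IsLevel₁ D.𝒯 u ∧
          ∀ s, n • Y s = (homAdd D.i).comp (W s) + dOne (permZ G Ω) (PTJ D) u s

/-- **h2p-asm** (assembly, ~400 lines, OWNER helper55): `stmtH2Perm_of`.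
Given `Ψ` with `π Ψ ≠ 0`: `m` and places `w₁ = (v₁, g₁)`, `w₂ = (v₂, g₂)` with
`m w₁ ≢ m w₂ mod p` (untw); `Y₁, Y₂` supported at `w₁, w₂` (supp); `W_i := π ∘ Y_i`;
`a W₁ + b W₂ = d t` (dep); evaluating at `N_Ω` (a `G`-map) and using that both
`π Y_i(N_Ω)` are non-coboundaries of `p`-torsion class gives `p ∤ a`, `p ∤ b`;
`Y := a Y₁ + b Y₂`, chase: `n Y = i W + d u`; `z` from untw (with `y := W`):
`π Ψ z = π T_m(i W) = n (a m(w₁) π Y₁(N) + b m(w₂) π Y₂(N)) - d(π T_m u)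
       ~ n a (m(w₁) - m(w₂)) · π Y₁(N)`, not a level coboundary. -/
def StmtH2pAsm : Prop :=
  StmtH2pWtr → StmtH2pUntw → StmtH2pSupp → StmtH2pDep → StmtH2pChase → StmtH2Perm

end Fermat.Agent.TW.F

end


end ZBTW_014_15

/-! ### bundled: `Fermat.Agent.TW.E.ChaseLift` -/
section ZBTW_014_16
/-
Project TW, part TW-E, block E-add (helper56): SHARED TOOLKIT for the chases with values in
`Hom_ℤ(ℤ[Ω], Y)`  (`Ω` a finite `G`-set trivial on a level).

* `chl_lift`, `chl_ext`, `chl_exists_lift` : additive maps out of `ℤ[Ω]` (basis `single ω 1`),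
  lifting along a surjection;
* `chl_conjAdd_eq` : an element acting trivially on `Ω` and on the values fixes `h`;
* `chl_isLevel₁_dZero`, `chl_isLevel₂_dOne` : coboundaries of level cochains are level cochains;
* algebra of `dTwo`: `chl_comp_dTwo`, `chl_dTwo_dOne`, `chl_dTwo_add/sub/nsmul`, `chl_dOne_add`;
* `chl_exists_lift_pi`, `chl_exists_lift_i₁`, `chl_exists_lift_i₂` : lifting of level cochains
  through `π : J → C` and through `i : E → J`.
-/

set_option autoImplicit false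
set_option linter.unusedSectionVars false

noncomputable section

namespace Fermat.Agent.TW.E

open CategoryTheory groupCohomology Module Fermat.Agent.PT Fermat.Agent.PT.F Fermat.Agent.TW.F
open Fermat.Agent.PT.F.ExactH2

attribute [local instance 1100] Rep.hV2

/-! ### Additive maps out of `ℤ[Ω]` -/

section Perm

variable {G : Type} [Group G] (Ω : Type) [MulAction G Ω]

/-- the action on the basis of `ℤ[Ω]` -/
lemma chl_ρ_single (σ : G) (ω : Ω) (z : ℤ) :
    (permZ G Ω).ρ σ (MonoidAlgebra.single ω z) = MonoidAlgebra.single (σ • ω) z :=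
  Representation.ofMulAction_single σ ω z

/-- the additive map `ℤ[Ω] → A` with prescribed values on the basis -/
def chl_lift {A : Type} [AddCommGroup A] (t : Ω → A) : (permZ G Ω).V →+ A :=
  (Finsupp.liftAddHom (fun ω : Ω => zmultiplesHom A (t ω))).comp
    (MonoidAlgebra.coeffAddEquiv (R := ℤ) (M := Ω)).toAddMonoidHom

lemma chl_lift_single {A : Type} [AddCommGroup A] (t : Ω → A) (ω : Ω) (z : ℤ) :
    chl_lift (G := G) Ω t (MonoidAlgebra.single ω z) = z • t ω := by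
  simp [chl_lift, MonoidAlgebra.coeffAddEquiv]

/-- additive maps out of `ℤ[Ω]` agree if they agree on the basis -/
lemma chl_ext {A : Type} [AddCommGroup A] (f f' : (permZ G Ω).V →+ A)
    (h : ∀ ω : Ω, f (MonoidAlgebra.single ω 1) = f' (MonoidAlgebra.single ω 1)) : f = f' := by
  apply MonoidAlgebra.addMonoidHom_ext
  intro ω z
  have h1 : (MonoidAlgebra.single ω z : MonoidAlgebra ℤ Ω) = z • MonoidAlgebra.single ω 1 := by
    rw [MonoidAlgebra.smul_single, smul_eq_mul, mul_one]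
  rw [h1, map_zsmul, map_zsmul, h ω]

/-- additive maps out of `ℤ[Ω]` lift along surjections -/
lemma chl_exists_lift {A B : Type} [AddCommGroup A] [AddCommGroup B] (π : A →+ B)
    (hπ : Function.Surjective π) (c : (permZ G Ω).V →+ B) :
    ∃ t : (permZ G Ω).V →+ A, π.comp t = c := by
  choose x hx using fun ω : Ω => hπ (c (MonoidAlgebra.single ω 1))
  refine ⟨chl_lift Ω x, chl_ext Ω _ _ fun ω => ?_⟩
  rw [AddMonoidHom.comp_apply, chl_lift_single, one_smul, hx]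

/-- an element which acts trivially on `Ω` and fixes the values of `h` on the basis fixes `h` -/
lemma chl_conjAdd_eq (Y : Rep.{0} ℤ G) (s : G) (hs : ∀ ω : Ω, s • ω = ω)
    (h : (permZ G Ω).V →+ Y.V)
    (hfix : ∀ ω : Ω, Y.ρ s (h (MonoidAlgebra.single ω 1)) = h (MonoidAlgebra.single ω 1)) :
    conjAdd (permZ G Ω) Y s h = h := by
  apply chl_ext
  intro ω
  have hs' : s⁻¹ • ω = ω := by
    conv_lhs => rw [← hs ω]
    exact inv_smul_smul s ω
  rw [conjAdd_apply, chl_ρ_single, hs', hfix]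

variable {Ω}

/-- `d⁰` of an additive map `ℤ[Ω] → Y`, `Y` discrete, is a level 1-cochain -/
lemma chl_isLevel₁_dZero [Finite Ω] {𝒯 : Tower G} (hΩ : IsLevSet 𝒯 Ω) {Y : Rep.{0} ℤ G}
    (hY : IsDiscrete 𝒯 Y) (t₀ : (permZ G Ω).V →+ Y.V) :
    IsLevel₁ 𝒯 (dZero (permZ G Ω) Y t₀) := by
  obtain ⟨U₀, hU₀, hΩ'⟩ := hΩ
  obtain ⟨U, hU, hUx⟩ := hY.exists_level_of_finite
    (Set.finite_range (fun ω : Ω => t₀ (MonoidAlgebra.single ω 1)))
  refine ⟨U₀ ⊓ U, 𝒯.inf_mem _ _ hU₀ hU, fun σ s hs => ?_⟩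
  have h1 : conjAdd (permZ G Ω) Y s t₀ = t₀ :=
    chl_conjAdd_eq Ω Y s (hΩ' s hs.1) t₀ (fun ω => hUx _ ⟨ω, rfl⟩ s hs.2)
  show conjAdd (permZ G Ω) Y (σ * s) t₀ - t₀ = conjAdd (permZ G Ω) Y σ t₀ - t₀
  rw [conjAdd_mul, h1]

/-- `d¹` of a level 1-cochain with values in `Hom(ℤ[Ω], Y)`, `Y` discrete, is a level
2-cochain -/
lemma chl_isLevel₂_dOne [Finite Ω] {𝒯 : Tower G} (hΩ : IsLevSet 𝒯 Ω) {Y : Rep.{0} ℤ G}
    (hY : IsDiscrete 𝒯 Y) (t : G → ((permZ G Ω).V →+ Y.V)) (ht : IsLevel₁ 𝒯 t) :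
    IsLevel₂ 𝒯 (dOne (permZ G Ω) Y t) := by
  obtain ⟨U₀, hU₀, hΩ'⟩ := hΩ
  obtain ⟨U₁, hU₁, h₁⟩ := ht
  have hfin : (Set.range (fun x : G × Ω => t x.1 (MonoidAlgebra.single x.2 1))).Finite := by
    have h1 : (Set.range t).Finite := isLevel₁_finite_range (𝒯 := 𝒯) ⟨U₁, hU₁, h₁⟩
    have h2 : Set.range (fun x : G × Ω => t x.1 (MonoidAlgebra.single x.2 1)) ⊆
        (fun y : ((permZ G Ω).V →+ Y.V) × Ω => y.1 (MonoidAlgebra.single y.2 1)) ''
          ((Set.range t) ×ˢ (Set.univ : Set Ω)) := by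
      rintro _ ⟨⟨σ, ω⟩, rfl⟩
      exact ⟨(t σ, ω), ⟨⟨σ, rfl⟩, Set.mem_univ _⟩, rfl⟩
    exact ((h1.prod Set.finite_univ).image _).subset h2
  obtain ⟨U₂, hU₂, h₂⟩ := hY.exists_level_of_finite hfin
  obtain ⟨V, hV, hVle, hVn⟩ := 𝒯.exists_normal _
    (𝒯.inf_mem _ _ (𝒯.inf_mem _ _ hU₁ hU₂) hU₀)
  refine ⟨V, hV, fun g g' s s' hs hs' => ?_⟩
  have hs1 : s ∈ U₁ := (hVle hs).1.1
  have hs2 : s ∈ U₂ := (hVle hs).1.2
  have hs0 : s ∈ U₀ := (hVle hs).2
  have hs'1 : s' ∈ U₁ := (hVle hs').1.1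
  have hconj : ∀ τ, conjAdd (permZ G Ω) Y s (t τ) = t τ := fun τ =>
    chl_conjAdd_eq Ω Y s (hΩ' s hs0) (t τ) (fun ω => h₂ _ ⟨(τ, ω), rfl⟩ s hs2)
  have e1 : g * s * (g' * s') = g * g' * (g'⁻¹ * s * g' * s') := by group
  have e2 : g'⁻¹ * s * g' * s' ∈ U₁ := by
    have h3 : g'⁻¹ * s * g' ∈ V := by
      have := hVn.conj_mem s hs g'⁻¹
      simpa using this
    exact (hVle (V.mul_mem h3 hs')).1.1
  show conjAdd (permZ G Ω) Y (g * s) (t (g' * s')) - t (g * s * (g' * s')) + t (g * s) =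
    conjAdd (permZ G Ω) Y g (t g') - t (g * g') + t g
  rw [h₁ g' s' hs'1, h₁ g s hs1, e1, h₁ (g * g') _ e2, conjAdd_mul, hconj]

end Perm

/-! ### Algebra of `dOne`, `dTwo` -/

section Algebra

variable {G : Type} [Group G]

lemma chl_dTwo_apply (M Y : Rep.{0} ℤ G) (y : G × G → (M.V →+ Y.V)) (σ τ ρ : G) (m : M.V) :
    dTwo M Y y (σ, τ, ρ) m =
      Y.ρ σ (y (τ, ρ) (M.ρ σ⁻¹ m)) - y (σ * τ, ρ) m + y (σ, τ * ρ) m - y (σ, τ) m := rfl

lemma chl_comp_dTwo {Y Y' : Rep.{0} ℤ G} (f : Y ⟶ Y') (M : Rep.{0} ℤ G)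
    (y : G × G → (M.V →+ Y.V)) (s : G × G × G) :
    (homAdd f).comp (dTwo M Y y s) = dTwo M Y' (fun x => (homAdd f).comp (y x)) s := by
  obtain ⟨σ, τ, ρ⟩ := s
  ext m
  simp [chl_dTwo_apply, Rep.hom_comm_apply]

lemma chl_dTwo_dOne (M Y : Rep.{0} ℤ G) (t : G → (M.V →+ Y.V)) (s : G × G × G) :
    dTwo M Y (dOne M Y t) s = 0 := by
  obtain ⟨σ, τ, ρ⟩ := s
  ext m
  simp only [chl_dTwo_apply, dOne_apply, map_sub, map_add, AddMonoidHom.zero_apply, mul_inv_rev,
    map_mul, Module.End.mul_apply, mul_assoc]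
  abel

lemma chl_dTwo_add (M Y : Rep.{0} ℤ G) (y y' : G × G → (M.V →+ Y.V)) (s : G × G × G) :
    dTwo M Y (fun x => y x + y' x) s = dTwo M Y y s + dTwo M Y y' s := by
  obtain ⟨σ, τ, ρ⟩ := s
  ext m
  simp only [chl_dTwo_apply, AddMonoidHom.add_apply, map_add]
  abel

lemma chl_dTwo_sub (M Y : Rep.{0} ℤ G) (y y' : G × G → (M.V →+ Y.V)) (s : G × G × G) :
    dTwo M Y (fun x => y x - y' x) s = dTwo M Y y s - dTwo M Y y' s := by
  obtain ⟨σ, τ, ρ⟩ := s
  ext m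
  simp only [chl_dTwo_apply, AddMonoidHom.sub_apply, map_sub]
  abel

lemma chl_dTwo_nsmul (M Y : Rep.{0} ℤ G) (n : ℕ) (y : G × G → (M.V →+ Y.V)) (s : G × G × G) :
    dTwo M Y (fun x => n • y x) s = n • dTwo M Y y s := by
  obtain ⟨σ, τ, ρ⟩ := s
  ext m
  simp only [chl_dTwo_apply, AddMonoidHom.nsmul_apply, map_nsmul, smul_add, smul_sub]

lemma chl_dOne_add (M Y : Rep.{0} ℤ G) (t t' : G → (M.V →+ Y.V)) (στ : G × G) :
    dOne M Y (fun σ => t σ + t' σ) στ = dOne M Y t στ + dOne M Y t' στ := by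
  obtain ⟨σ, τ⟩ := στ
  ext m
  simp only [dOne_apply, AddMonoidHom.add_apply, map_add]
  abel

lemma chl_dOne_neg (M Y : Rep.{0} ℤ G) (t : G → (M.V →+ Y.V)) (στ : G × G) :
    dOne M Y (fun σ => - t σ) στ = - dOne M Y t στ := by
  obtain ⟨σ, τ⟩ := στ
  ext m
  simp only [dOne_apply, AddMonoidHom.neg_apply, map_neg]
  abel

end Algebra

/-! ### Level cochains: closure properties in the `fun x => …` form -/

section Level

variable {G : Type} [Group G] {𝒯 : Tower G}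

lemma chl_isLevel₁_nsmul {X : Type*} [AddMonoid X] (n : ℕ) {f : G → X} (hf : IsLevel₁ 𝒯 f) :
    IsLevel₁ 𝒯 (fun x => n • f x) := hf.comp (fun h => n • h)

lemma chl_isLevel₂_nsmul {X : Type*} [AddMonoid X] (n : ℕ) {f : G × G → X}
    (hf : IsLevel₂ 𝒯 f) : IsLevel₂ 𝒯 (fun x => n • f x) := hf.comp (fun h => n • h)

lemma chl_isLevel₁_add {X : Type*} [Add X] {f f' : G → X} (hf : IsLevel₁ 𝒯 f)
    (hf' : IsLevel₁ 𝒯 f') : IsLevel₁ 𝒯 (fun x => f x + f' x) := hf.add hf'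

lemma chl_isLevel₂_add {X : Type*} [Add X] {f f' : G × G → X} (hf : IsLevel₂ 𝒯 f)
    (hf' : IsLevel₂ 𝒯 f') : IsLevel₂ 𝒯 (fun x => f x + f' x) := hf.add hf'

lemma chl_isLevel₁_sub {X : Type*} [SubNegMonoid X] {f f' : G → X} (hf : IsLevel₁ 𝒯 f)
    (hf' : IsLevel₁ 𝒯 f') : IsLevel₁ 𝒯 (fun x => f x - f' x) := by
  have h := hf.add (hf'.comp (fun h => -h))
  refine (?_ : IsLevel₁ 𝒯 (fun x => f x - f' x))
  have e : (fun x => f x - f' x) = f + (fun h => -h) ∘ f' := by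
    funext x
    simp [sub_eq_add_neg]
  rw [e]
  exact h

lemma chl_isLevel₂_sub {X : Type*} [SubNegMonoid X] {f f' : G × G → X} (hf : IsLevel₂ 𝒯 f)
    (hf' : IsLevel₂ 𝒯 f') : IsLevel₂ 𝒯 (fun x => f x - f' x) := by
  have h := hf.add (hf'.comp (fun h => -h))
  have e : (fun x => f x - f' x) = f + (fun h => -h) ∘ f' := by
    funext x
    simp [sub_eq_add_neg]
  rw [e]
  exact h

end Level

/-! ### Post-composition is additive -/

section Comp

variable {A B M : Type} [AddCommGroup A] [AddCommGroup B] [AddCommGroup M]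

lemma chl_comp_nsmul (f : A →+ B) (n : ℕ) (h : M →+ A) : f.comp (n • h) = n • f.comp h := by
  ext m
  simp

lemma chl_comp_neg (f : A →+ B) (h : M →+ A) : f.comp (-h) = -f.comp h := by
  ext m
  simp

end Comp

/-! ### Lifting level cochains through `π` and `i` -/

section Datum

variable {p : ℕ} {G : Type} [Group G] {ι : Type} {Gloc : ι → Type}
  [∀ v, Group (Gloc v)] (D : PTDatum p G ι Gloc) (Ω : Type) [MulAction G Ω]

/-- additive maps `ℤ[Ω] → C` lift to `J` -/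
lemma chl_exists_lift_pi₀ (c : (permZ G Ω).V →+ D.C.V) :
    ∃ t : (permZ G Ω).V →+ (PTJ D).V, (homAdd D.π).comp t = c :=
  chl_exists_lift Ω (homAdd D.π) D.π_surj c

/-- a level 1-cochain of `Hom(ℤ[Ω], C)` lifts to a level 1-cochain of `Hom(ℤ[Ω], J)` -/
lemma chl_exists_lift_pi (t : G → ((permZ G Ω).V →+ D.C.V)) (ht : IsLevel₁ D.𝒯 t) :
    ∃ t' : G → ((permZ G Ω).V →+ (PTJ D).V), IsLevel₁ D.𝒯 t' ∧
      ∀ σ, (homAdd D.π).comp (t' σ) = t σ := by
  choose L hL using fun c : (permZ G Ω).V →+ D.C.V => chl_exists_lift_pi₀ D Ω c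
  exact ⟨fun σ => L (t σ), ht.comp L, fun σ => hL (t σ)⟩

/-- a level 1-cochain of `Hom(M, J)` killed by `π` comes from a level 1-cochain of
`Hom(M, E)` -/
lemma chl_exists_lift_i₁ {M : Type} [AddCommGroup M] (v : G → (M →+ (PTJ D).V))
    (hv : IsLevel₁ D.𝒯 v) (hπ : ∀ σ, (homAdd D.π).comp (v σ) = 0) :
    ∃ y : G → (M →+ D.E.V), IsLevel₁ D.𝒯 y ∧ ∀ σ, (homAdd D.i).comp (y σ) = v σ := by
  choose y hy using fun σ => exists_lift_i (D := D) (v σ) (hπ σ)
  obtain ⟨U, hU, hUv⟩ := hv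
  refine ⟨y, ⟨U, hU, fun g s hs => ?_⟩, hy⟩
  apply i_comp_injective (D := D)
  rw [hy, hy, hUv g s hs]

/-- a level 2-cochain of `Hom(M, J)` killed by `π` comes from a level 2-cochain of
`Hom(M, E)` -/
lemma chl_exists_lift_i₂ {M : Type} [AddCommGroup M] (v : G × G → (M →+ (PTJ D).V))
    (hv : IsLevel₂ D.𝒯 v) (hπ : ∀ x, (homAdd D.π).comp (v x) = 0) :
    ∃ y : G × G → (M →+ D.E.V), IsLevel₂ D.𝒯 y ∧ ∀ x, (homAdd D.i).comp (y x) = v x := by
  choose y hy using fun x => exists_lift_i (D := D) (v x) (hπ x)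
  obtain ⟨U, hU, hUv⟩ := hv
  refine ⟨y, ⟨U, hU, fun g g' s s' hs hs' => ?_⟩, hy⟩
  apply i_comp_injective (D := D)
  rw [hy, hy, hUv g g' s s' hs hs']

end Datum

end Fermat.Agent.TW.E

end


end ZBTW_014_16

/-! ### bundled: `Fermat.Agent.TW.F.H2pSeedPair` -/
section ZBTW_014_17
/-
TW-F, block F-h2perm, piece **h2p-seedpair** (helper55): `stmtH2pSeedPair : StmtH2pSeedPair`.

From a finite `G`-module `A'` killed by `p` and a level 1-cocycle `ĉ` of `Hom_ℤ(M, A')`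
(`M = ℤ[G/U]`) whose trace `c = ĉ(·)(N_Ω)` is not a coboundary on `G_v`, the PT-F pairing with the
standard presentation of `A'` produces a level 2-cocycle `Y` of `Hom_ℤ(M, J)`, of `p`-torsion
class, supported at `v`, with `π ∘ Y(N_Ω)` not a level coboundary of `C`.
-/

set_option autoImplicit false
set_option linter.unusedSectionVars false
set_option linter.style.haveILetI false

noncomputable section

namespace Fermat.Agent.TW.F

open CategoryTheory groupCohomology Module Fermat.Agent.PT Fermat.Agent.PT.F Fermat.Agent.TW.E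
open Fermat.Agent.PT.F.ExactH2 Fermat.Agent.PT.F.SeqInW

attribute [local instance 1100] Rep.hV2

section Gen

variable {G : Type} [Group G] {𝒯 : Tower G} {A' : Rep.{0} ℤ G} (P : Presentation 𝒯 A')
  (M X : Rep.{0} ℤ G) (g : P.M₁ ⟶ X)

/-- `g ∘ inc⁻¹ ∘ f` for an additive map `f : M → M₀` with values in `ker ε` -/
def h2psp_push (f : M.V →+ P.M₀.V) (hf : ∀ m, P.ε (f m) = 0) : M.V →+ X.V :=
  AddMonoidHom.mk' (fun m => g.hom (P.incInv (f m))) (fun a b => by
    show g.hom (P.incInv (f (a + b))) = g.hom (P.incInv (f a)) + g.hom (P.incInv (f b))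
    rw [map_add, pb_incInv_add P (hf a) (hf b), map_add])

@[simp] lemma h2psp_push_apply (f : M.V →+ P.M₀.V) (hf : ∀ m, P.ε (f m) = 0) (m : M.V) :
    h2psp_push P M X g f hf m = g.hom (P.incInv (f m)) := rfl

lemma h2psp_push_congr {f f' : M.V →+ P.M₀.V} (hf : ∀ m, P.ε (f m) = 0)
    (hf' : ∀ m, P.ε (f' m) = 0) (h : f = f') :
    h2psp_push P M X g f hf = h2psp_push P M X g f' hf' := by
  subst h; rfl

/-- `ε ∘ conj` -/
lemma h2psp_ε_conj (σ : G) (f : M.V →+ P.M₀.V) (hf : ∀ m, P.ε (f m) = 0) (m : M.V) :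
    P.ε (conjAdd M P.M₀ σ f m) = 0 := by
  rw [conjAdd_apply, P.ε_ρ, hf, map_zero]

lemma h2psp_push_conj (σ : G) (f : M.V →+ P.M₀.V) (hf : ∀ m, P.ε (f m) = 0) :
    h2psp_push P M X g (conjAdd M P.M₀ σ f) (h2psp_ε_conj P M σ f hf) =
      conjAdd M X σ (h2psp_push P M X g f hf) := by
  ext m
  rw [h2psp_push_apply, conjAdd_apply, conjAdd_apply, h2psp_push_apply,
    pb_incInv_ρ P σ (hf _), Rep.hom_comm_apply]

lemma h2psp_push_add (f f' : M.V →+ P.M₀.V) (hf : ∀ m, P.ε (f m) = 0)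
    (hf' : ∀ m, P.ε (f' m) = 0) :
    h2psp_push P M X g (f + f') (fun m => by
      rw [AddMonoidHom.add_apply, map_add, hf, hf', add_zero]) =
      h2psp_push P M X g f hf + h2psp_push P M X g f' hf' := by
  ext m
  rw [h2psp_push_apply, AddMonoidHom.add_apply, AddMonoidHom.add_apply, h2psp_push_apply,
    h2psp_push_apply, pb_incInv_add P (hf m) (hf' m), map_add]

lemma h2psp_push_sub (f f' : M.V →+ P.M₀.V) (hf : ∀ m, P.ε (f m) = 0)
    (hf' : ∀ m, P.ε (f' m) = 0) :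
    h2psp_push P M X g (f - f') (fun m => by
      rw [AddMonoidHom.sub_apply, map_sub, hf, hf', sub_zero]) =
      h2psp_push P M X g f hf - h2psp_push P M X g f' hf' := by
  ext m
  rw [h2psp_push_apply, AddMonoidHom.sub_apply, AddMonoidHom.sub_apply, h2psp_push_apply,
    h2psp_push_apply, pb_incInv_sub P (hf m) (hf' m), map_sub]

lemma h2psp_push_nsmul (n : ℕ) (f : M.V →+ P.M₀.V) (hf : ∀ m, P.ε (f m) = 0) :
    h2psp_push P M X g (n • f) (fun m => by
      rw [AddMonoidHom.nsmul_apply, map_nsmul, hf, smul_zero]) =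
      n • h2psp_push P M X g f hf := by
  ext m
  rw [h2psp_push_apply, AddMonoidHom.nsmul_apply, AddMonoidHom.nsmul_apply, h2psp_push_apply,
    pb_incInv_nsmul P n (hf m), map_nsmul]

lemma h2psp_push_zero :
    h2psp_push P M X g (0 : M.V →+ P.M₀.V) (fun m => by
      rw [AddMonoidHom.zero_apply, map_zero]) = 0 := by
  ext m
  rw [h2psp_push_apply, AddMonoidHom.zero_apply, AddMonoidHom.zero_apply, pb_incInv_zero,
    map_zero]

/-- `g ∘ inc⁻¹` on three terms of `ker ε` -/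
lemma h2psp_K3 {a b c : P.M₀.V} (ha : P.ε a = 0) (hb : P.ε b = 0) (hc : P.ε c = 0) :
    g.hom (P.incInv a) - g.hom (P.incInv b) + g.hom (P.incInv c) =
      g.hom (P.incInv (a - b + c)) := by
  rw [pb_incInv_add P (by rw [map_sub, ha, hb, sub_zero]) hc, pb_incInv_sub P ha hb, map_add,
    map_sub]

/-- `g ∘ inc⁻¹` on four terms of `ker ε` -/
lemma h2psp_K4 {a b c d : P.M₀.V} (ha : P.ε a = 0) (hb : P.ε b = 0) (hc : P.ε c = 0)
    (hd : P.ε d = 0) :
    g.hom (P.incInv a) - g.hom (P.incInv b) + g.hom (P.incInv c) - g.hom (P.incInv d) =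
      g.hom (P.incInv (a - b + c - d)) := by
  rw [pb_incInv_sub P (by rw [map_add, map_sub, ha, hb, hc, sub_zero, add_zero]) hd,
    pb_incInv_add P (by rw [map_sub, ha, hb, sub_zero]) hc, pb_incInv_sub P ha hb, map_sub,
    map_add, map_sub]

lemma h2psp_Kρ (σ : G) {a : P.M₀.V} (ha : P.ε a = 0) :
    X.ρ σ (g.hom (P.incInv a)) = g.hom (P.incInv (P.M₀.ρ σ a)) := by
  rw [pb_incInv_ρ P σ ha, Rep.hom_comm_apply]

end Gen

section Norm

variable {G : Type} [Group G] (U : Subgroup G)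

/-- the norm element as a finite sum -/
lemma h2psp_N_eq [Fintype (G ⧸ U)] : h2pN U = ∑ ω : G ⧸ U, h2pE U ω := by
  unfold h2pN
  exact finsum_eq_sum_of_fintype _

/-- the norm element is `G`-invariant -/
lemma h2psp_ρ_N [Finite (G ⧸ U)] (σ : G) : (h2pM U).ρ σ (h2pN U) = h2pN U := by
  haveI : Fintype (G ⧸ U) := Fintype.ofFinite _
  rw [h2psp_N_eq, map_sum]
  have h1 : ∀ ω : G ⧸ U, (h2pM U).ρ σ (h2pE U ω) = h2pE U (σ • ω) := fun ω =>
    chl_ρ_single (G ⧸ U) σ ω 1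
  simp only [h1]
  exact Fintype.sum_equiv (MulAction.toPerm σ) _ _ (fun ω => rfl)

/-- a normal subgroup acts trivially on `G ⧸ U` -/
lemma h2psp_smul_eq [hU : U.Normal] (s : G) (hs : s ∈ U) (ω : G ⧸ U) : s • ω = ω := by
  induction ω using QuotientGroup.induction_on with
  | H g =>
    show ((s * g : G) : G ⧸ U) = (g : G ⧸ U)
    rw [QuotientGroup.eq]
    have h1 : (s * g)⁻¹ * g = g⁻¹ * s⁻¹ * g := by group
    rw [h1]
    have := hU.conj_mem s⁻¹ (U.inv_mem hs) g⁻¹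
    simpa using this

lemma h2psp_isLevSet (𝒯 : Tower G) [U.Normal] (hU : U ∈ 𝒯.lev) : IsLevSet 𝒯 (G ⧸ U) :=
  ⟨U, hU, fun s hs ω => h2psp_smul_eq U s hs ω⟩

end Norm

/-- local nondegeneracy, unconditional -/
theorem h2psp_locNondeg : StmtLocNondeg :=
  stmtLocNondeg_of (stmtRightKer_of stmtTN' stmtInflInjFin) stmtPairBasic

/-- **h2p-seedpair**. -/
theorem stmtH2pSeedPair : StmtH2pSeedPair := by
  intro p _ G _ ι _ Gloc _ D U hUn hU v A' hfin ch hp hU₀ hlev hcoc hnc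
  obtain ⟨U₀, hU₀m, hU₀n, htriv⟩ := hU₀
  haveI := hU₀n
  haveI := hUn
  haveI := hfin
  haveI : U.FiniteIndex := D.𝒯.finiteIndex U hU
  haveI : Finite (G ⧸ U) := Subgroup.finite_quotient_of_finiteIndex
  have hΩ : IsLevSet D.𝒯 (G ⧸ U) := h2psp_isLevSet U D.𝒯 hU
  let P : Presentation D.𝒯 A' := stdPres D.𝒯 U₀ hU₀m A' htriv
  have hInd : HasInd P.M₀ := hasInd_stdPres D.𝒯 U₀ hU₀m A' htriv
  have hM₁ : IsLevTriv D.𝒯 P.M₁ := isLevTriv_M₁ P
  have hM₀d : IsDiscrete D.𝒯 P.M₀ := fun x => ⟨P.U₀, P.U₀_mem, fun s hs => P.triv₀ s hs x⟩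
  have hN : ∀ σ : G, (h2pM U).ρ σ (h2pN U) = h2pN U := h2psp_ρ_N U
  -- the trace
  set c : G → A'.V := fun σ => ch σ (h2pN U) with hcdef
  have hc : c ∈ cocycles₁ A' := by
    rw [mem_cocycles₁_iff]
    intro σ τ
    have h1 : dOne (h2pM U) A' ch (σ, τ) (h2pN U) = 0 := by
      rw [hcoc (σ, τ)]; rfl
    rw [dOne_apply, hN, sub_add_eq_add_sub, sub_eq_zero] at h1
    exact h1.symm
  have hclev : IsLevel₁ D.𝒯 c := hlev.comp (fun f : (h2pM U).V →+ A'.V => f (h2pN U))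
  -- local nondegeneracy
  have hex : ∃ gv : Rep.res (D.r v) P.M₁ ⟶ D.Jloc v,
      pairCoc P (hat D P.M₁ hM₁ v gv ≫ D.π) c ∉ levCoboundaries₂ D.𝒯 D.C := by
    by_contra hcon
    push Not at hcon
    exact hnc (h2psp_locNondeg p G ι Gloc D ℤ A' P hp hInd hM₁ v c hc hclev hcon)
  obtain ⟨gv, hgv⟩ := hex
  set gh : P.M₁ ⟶ PTJ D := hat D P.M₁ hM₁ v gv with hgh
  -- the lift of `ĉ`
  let Φ : ((h2pM U).V →+ A'.V) → ((h2pM U).V →+ P.M₀.V) := fun f =>
    chl_lift (G := G) (G ⧸ U) (fun ω => P.sec (f (h2pE U ω)))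
  set Ct : G → ((h2pM U).V →+ P.M₀.V) := fun σ => Φ (ch σ) with hCt
  have hCtlev : IsLevel₁ D.𝒯 Ct := hlev.comp Φ
  have hεΦ : ∀ f : (h2pM U).V →+ A'.V, P.ε.comp (Φ f) = f := fun f => by
    apply chl_ext
    intro ω
    rw [AddMonoidHom.comp_apply]
    show P.ε (chl_lift (G := G) (G ⧸ U) (fun ω => P.sec (f (h2pE U ω)))
      (MonoidAlgebra.single ω 1)) = _
    rw [chl_lift_single, one_smul, P.ε_sec]
  have hεCt : ∀ σ m, P.ε (Ct σ m) = ch σ m := fun σ m =>
    congrArg (fun f : (h2pM U).V →+ A'.V => f m) (hεΦ (ch σ))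
  -- `d Ct` has values in `ker ε`
  have hεd : ∀ s m, P.ε (dOne (h2pM U) P.M₀ Ct s m) = 0 := by
    rintro ⟨σ, τ⟩ m
    have h1 : dOne (h2pM U) A' ch (σ, τ) m = 0 := by
      rw [hcoc (σ, τ)]; rfl
    rw [dOne_apply] at h1
    rw [dOne_apply, map_add, map_sub, P.ε_ρ, hεCt, hεCt, hεCt]
    exact h1
  have hεp : ∀ σ m, P.ε ((p • Ct σ) m) = 0 := fun σ m => by
    rw [AddMonoidHom.nsmul_apply, map_nsmul, hεCt]
    exact hp _
  have hdlev : IsLevel₂ D.𝒯 (dOne (h2pM U) P.M₀ Ct) :=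
    chl_isLevel₂_dOne hΩ hM₀d Ct hCtlev
  -- the cocycle
  refine ⟨fun s => h2psp_push P (h2pM U) (PTJ D) gh (dOne (h2pM U) P.M₀ Ct s) (hεd s),
    ⟨?_, ?_, ?_⟩, ?_, ?_⟩
  · -- level
    obtain ⟨V, hV, hVd⟩ := hdlev
    exact ⟨V, hV, fun g g' s s' hs hs' =>
      h2psp_push_congr P (h2pM U) (PTJ D) gh _ _ (hVd g g' s s' hs hs')⟩
  · -- cocycle
    rintro ⟨σ, τ, ρ⟩
    refine AddMonoidHom.ext fun m => ?_
    have h0 : dTwo (h2pM U) P.M₀ (dOne (h2pM U) P.M₀ Ct) (σ, τ, ρ) m = 0 := by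
      rw [chl_dTwo_dOne]; rfl
    rw [chl_dTwo_apply] at h0
    rw [chl_dTwo_apply, h2psp_push_apply, h2psp_push_apply, h2psp_push_apply, h2psp_push_apply,
      h2psp_Kρ P (PTJ D) gh σ (hεd _ _),
      h2psp_K4 P (PTJ D) gh (by rw [P.ε_ρ, hεd, map_zero]) (hεd _ _) (hεd _ _) (hεd _ _), h0,
      pb_incInv_zero, map_zero]
    rfl
  · -- `p`-torsion class
    refine ⟨fun σ => h2psp_push P (h2pM U) (PTJ D) gh (p • Ct σ) (hεp σ), ?_, ?_⟩
    · obtain ⟨V, hV, hVd⟩ := hCtlev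
      exact ⟨V, hV, fun g s hs =>
        h2psp_push_congr P (h2pM U) (PTJ D) gh _ _ (by rw [hVd g s hs])⟩
    · rintro ⟨σ, τ⟩
      refine AddMonoidHom.ext fun m => ?_
      show p • gh.hom (P.incInv (dOne (h2pM U) P.M₀ Ct (σ, τ) m)) =
        (PTJ D).ρ σ (gh.hom (P.incInv ((p • Ct τ) ((h2pM U).ρ σ⁻¹ m)))) -
          gh.hom (P.incInv ((p • Ct (σ * τ)) m)) + gh.hom (P.incInv ((p • Ct σ) m))
      rw [h2psp_Kρ P (PTJ D) gh σ (hεp _ _),
        h2psp_K3 P (PTJ D) gh (by rw [P.ε_ρ, hεp, map_zero]) (hεp _ _) (hεp _ _),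
        ← map_nsmul, ← pb_incInv_nsmul P p (hεd _ _)]
      congr 2
      rw [dOne_apply]
      simp only [AddMonoidHom.nsmul_apply, map_nsmul, smul_add, smul_sub]
  · -- supported at `v`
    intro s m v' g hv'
    exact hat_apply_ne D P.M₁ hM₁ v gv _ (Ne.symm hv') g
  · -- the trace is the pairing cocycle of a lift of `c`
    intro hcob
    apply hgv
    obtain ⟨-, h2, -, -, -, -, -⟩ := stmtPairBasic G D.𝒯 ℤ A' P D.C
    set ct : G → P.M₀.V := fun σ => Ct σ (h2pN U) with hct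
    have hctlev : IsLevel₁ D.𝒯 ct :=
      hCtlev.comp (fun f : (h2pM U).V →+ P.M₀.V => f (h2pN U))
    have hseclev : IsLevel₁ D.𝒯 (fun σ => P.sec (c σ)) := hclev.comp P.sec
    have hεct : ∀ σ, P.ε (ct σ) = c σ := fun σ => hεCt σ (h2pN U)
    have hcoc' : (fun σ => P.ε (ct σ)) ∈ cocycles₁ A' := by
      have : (fun σ => P.ε (ct σ)) = c := funext hεct
      rw [this]; exact hc
    have hdiff := h2 (gh ≫ D.π) ct (fun σ => P.sec (c σ)) hctlev hseclev hcoc'
      (fun σ => by rw [hεct, P.ε_sec])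
    have hYN : (fun s => D.π.hom (h2psp_push P (h2pM U) (PTJ D) gh
        (dOne (h2pM U) P.M₀ Ct s) (hεd s) (h2pN U))) = pairLift P (gh ≫ D.π) ct := by
      funext s
      obtain ⟨σ, τ⟩ := s
      rw [h2psp_push_apply]
      unfold pairLift
      have h1 : dOne (h2pM U) P.M₀ Ct (σ, τ) (h2pN U) = (d₁₂ P.M₀).hom ct (σ, τ) := by
        rw [dOne_apply, hN, pb_d₁₂_apply]
      rw [h1]
      rfl
    rw [hYN] at hcob
    have h3 : pairCoc P (gh ≫ D.π) c =
        pairLift P (gh ≫ D.π) ct -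
          (pairLift P (gh ≫ D.π) ct - pairLift P (gh ≫ D.π) (fun σ => P.sec (c σ))) := by
      rw [sub_sub_cancel]; rfl
    rw [h3]
    exact Submodule.sub_mem _ hcob hdiff

end Fermat.Agent.TW.F

end


end ZBTW_014_17

/-! ### bundled: `Fermat.Agent.TW.E.In1Perm` -/
section ZBTW_014_18
/-
TW-E / A0 (helper32): `In1` for permutation lattices.

Main result: `stmtIn1Perm : StmtIn1Perm` (statement in `TW/E/Plan.lean`):
`H¹_lev(G, Hom_ℤ(ℤ[Ω], C))` is prime-to-`p` torsion for EVERY finite `G`-set `Ω` on which a level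
acts trivially.

Proof (explicit Shapiro, as PT-F `stmtPermSh1`, but with arbitrary stabilisers).
* `in1p_sub_kill`: a level 1-cocycle `U → C` on ANY subgroup `U` containing a level is a coboundary
  up to a prime-to-`p` multiple (`In1b.descend_kill` + `cm_glob` + `h1Kill_of_pgroups`).
* `in1p_core`: if `n • c(s)(ω) = s t'_ω - t'_ω` for all `s` in the stabiliser of `ω` (all `ω`), then
  `t(g x₀) := g t'_{x₀} - n • c(g)(g x₀)` (`x₀` orbit representatives) satisfies `n • c = d⁰ t`.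
-/

set_option autoImplicit false
set_option linter.style.haveILetI false

noncomputable section

namespace Fermat.Agent.TW.E

open CategoryTheory groupCohomology Fermat.Agent.PT Fermat.Agent.PT.F

attribute [local instance 1100] Rep.hV2

/-- **In1b for subgroups containing a level**: level 1-cocycles `U → C` are coboundaries up to a
prime-to-`p` multiple. -/
theorem in1p_sub_kill {p : ℕ} [Fact p.Prime] {G : Type} [Group G] {ι : Type} [Fintype ι]
    {Gloc : ι → Type} [∀ v, Group (Gloc v)] (D : PTDatum p G ι Gloc) (U U₀ : Subgroup G)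
    (hU₀ : U₀ ∈ D.𝒯.lev) (hU₀U : U₀ ≤ U) (c : U → D.C.V) (hc : IsCocycleOn U D.C c)
    (hcl : IsLevelOn D.𝒯 U c) :
    ∃ n : ℕ, ¬ p ∣ n ∧ ∃ t : D.C.V, ∀ s : U, n • c s = D.C.ρ (s : G) t - t := by
  obtain ⟨U', hU', hcU'⟩ := hcl
  obtain ⟨W, hW, hWU, hWU', hWn⟩ := tower_exists_normal_le₂ D.𝒯 hU₀ hU'
  haveI := hWn
  haveI := D.𝒯.finiteIndex W hW
  haveI : Finite (G ⧸ W) := Subgroup.finite_quotient_of_finiteIndex
  obtain ⟨u, hu⟩ := D.cm_glob W hW
  obtain ⟨m, hm, hK⟩ := InflInj.h1Kill_of_pgroups p (U.map (QuotientGroup.mk' W))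
    (D.C.quotientToInvariants W) hu.h1
  obtain ⟨t, ht⟩ := In1b.descend_kill D.C U W (hWU.trans hU₀U) c hc
    (fun s u hu => hcU' s u (hWU' hu)) m hK
  exact ⟨m, hm, t, ht⟩

section Core

variable {H : Type} [Group H] {Ω : Type} [MulAction H Ω]

/-- the combinatorial core: explicit Shapiro in degree 1 with arbitrary stabilisers. -/
theorem in1p_core {A : Type} [AddCommGroup A] (act : H → A →+ A)
    (hact : ∀ σ τ a, act (σ * τ) a = act σ (act τ a))
    (c : H → Ω → A)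
    (hc : ∀ σ τ ω, c (σ * τ) ω = c σ ω + act σ (c τ (σ⁻¹ • ω)))
    (n : ℕ) (t' : Ω → A)
    (ht' : ∀ (ω : Ω) (s : H), s • ω = ω → n • c s ω = act s (t' ω) - t' ω) :
    ∃ t : Ω → A, ∀ σ ω, n • c σ ω = act σ (t (σ⁻¹ • ω)) - t ω := by
  let φ : H →* H := MonoidHom.id H
  refine ⟨fun ω => act (permSh1_g φ ω) (t' (permSh1_rep φ ω)) - n • c (permSh1_g φ ω) ω,
    fun σ ω => ?_⟩
  have hrep : permSh1_rep φ (σ⁻¹ • ω) = permSh1_rep φ ω := permSh1_rep_smul φ σ⁻¹ ω
  have hg : permSh1_g φ ω • permSh1_rep φ ω = ω := permSh1_g_spec φ ω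
  have hg' : permSh1_g φ (σ⁻¹ • ω) • permSh1_rep φ ω = σ⁻¹ • ω := by
    rw [← hrep]; exact permSh1_g_spec φ (σ⁻¹ • ω)
  simp only [hrep]
  generalize permSh1_rep φ ω = x₀ at hg hg' ⊢
  generalize permSh1_g φ ω = g at hg ⊢
  generalize permSh1_g φ (σ⁻¹ • ω) = g' at hg' ⊢
  have hs : (g⁻¹ * σ * g') • x₀ = x₀ := by
    rw [mul_smul, mul_smul, hg', smul_inv_smul, ← hg, inv_smul_smul]
  have hσg' : σ * g' = g * (g⁻¹ * σ * g') := by group
  have hx₀ : g⁻¹ • ω = x₀ := by rw [← hg, inv_smul_smul]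
  have h1 := hc σ g' ω
  have h2 := hc g (g⁻¹ * σ * g') ω
  rw [← hσg', hx₀] at h2
  have h3 := ht' x₀ _ hs
  have e1 : c σ ω = c g ω + act g (c (g⁻¹ * σ * g') x₀) - act σ (c g' (σ⁻¹ • ω)) := by
    rw [← h2, h1]; abel
  have h3' : act (g⁻¹ * σ * g') (t' x₀) = t' x₀ + n • c (g⁻¹ * σ * g') x₀ := by
    rw [h3]; abel
  have e2 : act σ (act g' (t' x₀)) = act g (t' x₀) + n • act g (c (g⁻¹ * σ * g') x₀) := by
    rw [← hact, hσg', hact, h3', map_add, map_nsmul]
  rw [map_sub, map_nsmul, e2, e1, smul_sub, smul_add]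
  abel

end Core

section Wrapper

variable {G : Type} [Group G] (Ω : Type) [MulAction G Ω]

/-- the action on the basis of `ℤ[Ω]` -/
lemma in1p_ρ_single (σ : G) (ω : Ω) (z : ℤ) :
    (permZ G Ω).ρ σ (MonoidAlgebra.single ω z) = MonoidAlgebra.single (σ • ω) z :=
  Representation.ofMulAction_single σ ω z

/-- the additive map `ℤ[Ω] → A` with prescribed values on the basis -/
def in1p_lift {A : Type} [AddCommGroup A] (t : Ω → A) : (permZ G Ω).V →+ A :=
  (Finsupp.liftAddHom (fun ω : Ω => zmultiplesHom A (t ω))).comp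
    (MonoidAlgebra.coeffAddEquiv (R := ℤ) (M := Ω)).toAddMonoidHom

lemma in1p_lift_single {A : Type} [AddCommGroup A] (t : Ω → A) (ω : Ω) (z : ℤ) :
    in1p_lift (G := G) Ω t (MonoidAlgebra.single ω z) = z • t ω := by
  simp [in1p_lift, MonoidAlgebra.coeffAddEquiv]

/-- additive maps out of `ℤ[Ω]` agree if they agree on the basis -/
lemma in1p_ext {A : Type} [AddCommGroup A] (f f' : (permZ G Ω).V →+ A)
    (h : ∀ ω : Ω, f (MonoidAlgebra.single ω 1) = f' (MonoidAlgebra.single ω 1)) : f = f' := by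
  apply MonoidAlgebra.addMonoidHom_ext
  intro ω z
  have h1 : (MonoidAlgebra.single ω z : MonoidAlgebra ℤ Ω) = z • MonoidAlgebra.single ω 1 := by
    rw [MonoidAlgebra.smul_single, smul_eq_mul, mul_one]
  rw [h1, map_zsmul, map_zsmul, h ω]

end Wrapper

/-- **A0**: `StmtIn1Perm`. -/
theorem stmtIn1Perm : StmtIn1Perm := by
  intro p hp G _ ι _ Gloc _ D Ω _ _ hΩ c hlev hcoc
  obtain ⟨U₀, hU₀, hU₀Ω⟩ := hΩ
  -- the cocycle identity on basis elements
  have hc' : ∀ (σ τ : G) (ω : Ω), c (σ * τ) (MonoidAlgebra.single ω 1) =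
      c σ (MonoidAlgebra.single ω 1) +
        actAdd D.C σ (c τ (MonoidAlgebra.single (σ⁻¹ • ω) 1)) := by
    intro σ τ ω
    have h := DFunLike.congr_fun (hcoc (σ, τ)) (MonoidAlgebra.single ω 1)
    rw [permSh1_dOne_apply, AddMonoidHom.zero_apply, in1p_ρ_single] at h
    rw [actAdd_apply]
    calc c (σ * τ) (MonoidAlgebra.single ω 1)
        = c (σ * τ) (MonoidAlgebra.single ω 1) +
          (D.C.ρ σ (c τ (MonoidAlgebra.single (σ⁻¹ • ω) 1)) -
            c (σ * τ) (MonoidAlgebra.single ω 1) + c σ (MonoidAlgebra.single ω 1)) := by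
          rw [h, add_zero]
      _ = _ := by abel
  -- the restrictions to the stabilisers are level cocycles
  have hω : ∀ ω : Ω, ∃ n : ℕ, ¬ p ∣ n ∧ ∃ t : D.C.V, ∀ s : G, s • ω = ω →
      n • c s (MonoidAlgebra.single ω 1) = actAdd D.C s t - t := by
    intro ω
    have hU₀S : U₀ ≤ MulAction.stabilizer G ω := fun s hs =>
      MulAction.mem_stabilizer_iff.2 (hU₀Ω s hs ω)
    have hcoc1 : IsCocycleOn (MulAction.stabilizer G ω) D.C
        (fun s => c (s : G) (MonoidAlgebra.single ω 1)) := by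
      intro s s'
      have h := hc' s s' ω
      have hs1 : (s : G)⁻¹ • ω = ω := by
        have := MulAction.mem_stabilizer_iff.1 (inv_mem s.2)
        exact this
      rw [hs1] at h
      exact h
    have hlev1 : IsLevelOn D.𝒯 (MulAction.stabilizer G ω)
        (fun s => c (s : G) (MonoidAlgebra.single ω 1)) := by
      obtain ⟨U, hU, hUc⟩ := hlev
      exact ⟨U, hU, fun s u hu => by
        show c ((s * u : MulAction.stabilizer G ω) : G) _ = _
        rw [Subgroup.coe_mul, hUc s u hu]⟩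
    obtain ⟨n, hn, t, ht⟩ := in1p_sub_kill D (MulAction.stabilizer G ω) U₀ hU₀ hU₀S _ hcoc1 hlev1
    exact ⟨n, hn, t, fun s hs => ht ⟨s, MulAction.mem_stabilizer_iff.2 hs⟩⟩
  choose nω hnp tω htω using hω
  have hn : ¬ p ∣ ∏ ω, nω ω := by
    intro h
    obtain ⟨ω, -, hω⟩ := (Prime.dvd_finsetProd_iff (Nat.Prime.prime hp.out) _).1 h
    exact hnp ω hω
  have hdvd : ∀ ω, ∃ k, (∏ ω, nω ω) = k * nω ω := fun ω => by
    obtain ⟨k, hk⟩ := Finset.dvd_prod_of_mem nω (Finset.mem_univ ω)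
    exact ⟨k, by rw [hk, mul_comm]⟩
  choose k hk using hdvd
  have ht' : ∀ (ω : Ω) (s : G), s • ω = ω →
      (∏ ω, nω ω) • c s (MonoidAlgebra.single ω 1) =
        actAdd D.C s (k ω • tω ω) - k ω • tω ω := by
    intro ω s hs
    rw [hk ω, mul_smul, htω ω s hs, smul_sub, map_nsmul]
  obtain ⟨t, ht⟩ := in1p_core (fun σ => actAdd D.C σ)
    (fun σ τ a => by simp only [actAdd_apply, map_mul]; rfl)
    (fun σ ω => c σ (MonoidAlgebra.single ω 1)) hc' (∏ ω, nω ω) (fun ω => k ω • tω ω) ht'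
  refine ⟨_, hn, in1p_lift Ω t, fun σ => in1p_ext Ω _ _ (fun ω => ?_)⟩
  rw [permSh1_dZero_apply, in1p_ρ_single, in1p_lift_single, in1p_lift_single, one_zsmul,
    one_zsmul]
  exact ht σ ω

end Fermat.Agent.TW.E

end


end ZBTW_014_18

/-! ### bundled: `Fermat.Agent.TW.F.H2pExact` -/
section ZBTW_014_19
/-
TW-F, block F-h2perm, the CHASE piece (helper68): exactness at `H²(J)` + `In1` + Kummer lift.

`h2pex_main`: let `M = ℤ[Ω]` (`Ω` a finite level set) and `Y` a level 2-cocycle of `Hom_ℤ(M, J)`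
with `p • Y = d t₁` (i.e. `p [Y] = 0`) whose image in `Hom_ℤ(M, C)` is a level coboundary.  Then,
up to a multiple `n` prime to `p` and a level coboundary, `Y` is the image of a level 2-cocycle
`W` of `Hom_ℤ(M, E)` which is POINTWISE killed by `p` (i.e. `W` has values in `Hom_ℤ(M, μ_p)`).

Proof.  Lift `t` (`π Y = d t`) to a level `t̃`; `Y - d t̃ = i ∘ W₀`, `W₀` a level 2-cocycle of
`Hom(M, E)`.  `i (p W₀) = d T`, `T := t₁ - p t̃`, so `π T` is a level 1-cocycle of `Hom(M, C)`: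
(In1, `stmtIn1Perm`) `n π T = d⁰ t_C`; lift `t_C` to `t_J`; `n T - d⁰ t_J = i ∘ s`, `s` level,
`d s = n p W₀`.  `E_div`: `s = p s'`, `s'` level.  `W := n W₀ - d s'`, `u := n t̃ + i ∘ s'`.
-/

set_option autoImplicit false
set_option linter.unusedSectionVars false

noncomputable section

namespace Fermat.Agent.TW.F

open CategoryTheory groupCohomology Module Fermat.Agent.PT Fermat.Agent.PT.F Fermat.Agent.TW.E
open Fermat.Agent.PT.F.ExactH2

attribute [local instance 1100] Rep.hV2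

variable {p : ℕ} {G : Type} [Group G] {ι : Type} {Gloc : ι → Type} [∀ v, Group (Gloc v)]

/-- `π ∘ i ∘ h = 0` -/
lemma h2pex_pi_i (D : PTDatum p G ι Gloc) {M : Type} [AddCommGroup M] (h : M →+ D.E.V) :
    (homAdd D.π).comp ((homAdd D.i).comp h) = 0 := by
  rw [← AddMonoidHom.comp_assoc, pi_comp_i, AddMonoidHom.zero_comp]

/-- additive maps `ℤ[Ω] → E` are divisible by `p` -/
lemma h2pex_div (D : PTDatum p G ι Gloc) (Ω : Type) [MulAction G Ω]
    (c : (permZ G Ω).V →+ D.E.V) : ∃ c' : (permZ G Ω).V →+ D.E.V, p • c' = c := by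
  choose x hx using fun ω : Ω => D.E_div (c (MonoidAlgebra.single ω 1))
  refine ⟨chl_lift (G := G) Ω x, chl_ext Ω _ _ fun ω => ?_⟩
  rw [AddMonoidHom.nsmul_apply, chl_lift_single, one_zsmul, hx]

/-- **F-h2perm, the chase.** -/
theorem h2pex_main [Fact p.Prime] [Fintype ι] (D : PTDatum p G ι Gloc)
    (Ω : Type) [Fintype Ω] [MulAction G Ω] (hΩ : IsLevSet D.𝒯 Ω)
    (Y : G × G → ((permZ G Ω).V →+ (PTJ D).V)) (hYlev : IsLevel₂ D.𝒯 Y)
    (hYcoc : ∀ s, dTwo (permZ G Ω) (PTJ D) Y s = 0)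
    (hp : ∃ t₁ : G → ((permZ G Ω).V →+ (PTJ D).V), IsLevel₁ D.𝒯 t₁ ∧
      ∀ s, p • Y s = dOne (permZ G Ω) (PTJ D) t₁ s)
    (hπ : ∃ t : G → ((permZ G Ω).V →+ D.C.V), IsLevel₁ D.𝒯 t ∧
      ∀ s, (homAdd D.π).comp (Y s) = dOne (permZ G Ω) D.C t s) :
    ∃ n : ℕ, ¬ p ∣ n ∧ ∃ W : G × G → ((permZ G Ω).V →+ D.E.V), IsLevel₂ D.𝒯 W ∧
      (∀ s, dTwo (permZ G Ω) D.E W s = 0) ∧ (∀ s, p • W s = 0) ∧
      ∃ u : G → ((permZ G Ω).V →+ (PTJ D).V), IsLevel₁ D.𝒯 u ∧
        ∀ s, n • Y s = (homAdd D.i).comp (W s) + dOne (permZ G Ω) (PTJ D) u s := by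
  obtain ⟨t₁, ht₁lev, ht₁⟩ := hp
  obtain ⟨t, htlev, ht⟩ := hπ
  have hJ : IsDiscrete D.𝒯 (PTJ D) := ptj_isDiscrete D
  -- Step 1: lift `t`, define `W₀`
  obtain ⟨tt, httlev, htt⟩ := chl_exists_lift_pi D Ω t htlev
  have httd : IsLevel₂ D.𝒯 (dOne (permZ G Ω) (PTJ D) tt) := chl_isLevel₂_dOne hΩ hJ tt httlev
  have hvlev : IsLevel₂ D.𝒯 (fun x => Y x - dOne (permZ G Ω) (PTJ D) tt x) :=
    chl_isLevel₂_sub hYlev httd
  have hπtt : (fun σ => (homAdd D.π).comp (tt σ)) = t := funext htt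
  have hπv : ∀ x, (homAdd D.π).comp (Y x - dOne (permZ G Ω) (PTJ D) tt x) = 0 := by
    intro x
    rw [AddMonoidHom.comp_sub, comp_dOne, hπtt, ht x, sub_self]
  obtain ⟨W₀, hW₀lev, hW₀⟩ := chl_exists_lift_i₂ D _ hvlev hπv
  have hW₀coc : ∀ x, dTwo (permZ G Ω) D.E W₀ x = 0 := by
    intro x
    apply i_comp_injective (D := D)
    rw [chl_comp_dTwo, AddMonoidHom.comp_zero, funext hW₀, chl_dTwo_sub, hYcoc, chl_dTwo_dOne,
      sub_zero]
  -- Step 2: the 1-cochain `T = t₁ - p t̃`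
  have hTlev : IsLevel₁ D.𝒯 (fun σ => t₁ σ - p • tt σ) :=
    chl_isLevel₁_sub ht₁lev (chl_isLevel₁_nsmul p httlev)
  have hT : ∀ x, dOne (permZ G Ω) (PTJ D) (fun σ => t₁ σ - p • tt σ) x =
      (homAdd D.i).comp (p • W₀ x) := by
    intro x
    rw [dOne_sub, dOne_nsmul, ← ht₁ x, chl_comp_nsmul, hW₀ x, smul_sub]
  have hπT : ∀ x, dOne (permZ G Ω) D.C
      (fun σ => (homAdd D.π).comp (t₁ σ - p • tt σ)) x = 0 := by
    intro x
    rw [← comp_dOne, hT x, h2pex_pi_i]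
  obtain ⟨n, hn, tC, htC⟩ := stmtIn1Perm p G ι Gloc D Ω hΩ
    (fun σ => (homAdd D.π).comp (t₁ σ - p • tt σ))
    (hTlev.comp (fun h => (homAdd D.π).comp h)) hπT
  obtain ⟨tJ, htJ⟩ := chl_exists_lift_pi₀ D Ω tC
  have hv₁lev : IsLevel₁ D.𝒯
      (fun σ => n • (t₁ σ - p • tt σ) - dZero (permZ G Ω) (PTJ D) tJ σ) :=
    chl_isLevel₁_sub (chl_isLevel₁_nsmul n hTlev) (chl_isLevel₁_dZero hΩ hJ tJ)
  have hπv₁ : ∀ σ, (homAdd D.π).comp
      (n • (t₁ σ - p • tt σ) - dZero (permZ G Ω) (PTJ D) tJ σ) = 0 := by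
    intro σ
    rw [AddMonoidHom.comp_sub, chl_comp_nsmul, comp_dZero, htJ, htC σ, sub_self]
  obtain ⟨s, hslev, hs⟩ := chl_exists_lift_i₁ D _ hv₁lev hπv₁
  have hds : ∀ x, dOne (permZ G Ω) D.E s x = n • (p • W₀ x) := by
    intro x
    apply i_comp_injective (D := D)
    rw [comp_dOne, funext hs, dOne_sub, dOne_nsmul, hT x, dOne_dZero, sub_zero, chl_comp_nsmul,
      chl_comp_nsmul, chl_comp_nsmul]
  -- Step 3: `s = p s'`
  choose Dv hDv using h2pex_div D Ω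
  have hs'lev : IsLevel₁ D.𝒯 (fun σ => Dv (s σ)) := hslev.comp Dv
  have hds'lev : IsLevel₂ D.𝒯 (dOne (permZ G Ω) D.E (fun σ => Dv (s σ))) :=
    chl_isLevel₂_dOne hΩ D.E_discrete _ hs'lev
  have hpds' : ∀ x, p • dOne (permZ G Ω) D.E (fun σ => Dv (s σ)) x =
      dOne (permZ G Ω) D.E s x := by
    intro x
    rw [← dOne_nsmul]
    congr 1
    funext σ
    exact hDv (s σ)
  -- Step 4: the result
  refine ⟨n, hn, fun x => n • W₀ x - dOne (permZ G Ω) D.E (fun σ => Dv (s σ)) x,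
    chl_isLevel₂_sub (chl_isLevel₂_nsmul n hW₀lev) hds'lev, fun x => ?_, fun x => ?_,
    fun σ => n • tt σ + (homAdd D.i).comp (Dv (s σ)),
    chl_isLevel₁_add (chl_isLevel₁_nsmul n httlev)
      (hs'lev.comp (fun h => (homAdd D.i).comp h)), fun x => ?_⟩
  · rw [chl_dTwo_sub, chl_dTwo_nsmul, hW₀coc, chl_dTwo_dOne, smul_zero, sub_zero]
  · rw [smul_sub, hpds' x, hds x, smul_comm, sub_self]
  · rw [AddMonoidHom.comp_sub, chl_comp_nsmul, hW₀ x, comp_dOne, chl_dOne_add, dOne_nsmul,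
      smul_sub]
    abel

end Fermat.Agent.TW.F

end


end ZBTW_014_19

/-! ### bundled: `Fermat.Agent.TW.F.H2pAsm` -/
section ZBTW_014_20
/-
TW-F, block F-h2perm, pieces **h2p-chase** and **h2p-asm** (helper68).

* `stmtH2pChase : StmtH2pChase` (= `h2pex_main`, TW/F/H2pExact.lean).
* `stmtH2pAsm : StmtH2pAsm`, i.e.
  `StmtH2pWtr → StmtH2pUntw → StmtH2pSupp → StmtH2pDep → StmtH2pChase → StmtH2Perm`.

Assembly (NOTES/TW-F-h2perm.md): `Ψ ↔ m`, places `w₁, w₂` with `m w₁ ≢ m w₂`; `Y₁, Y₂` supported at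
`w₁, w₂`, `P_i := π ∘ Y_i(N_Ω)` not level coboundaries; `a π Y₁ + b π Y₂ = d t`, hence
`a P₁ + b P₂ ∈ B²` and `p ∤ a`; chase for `Y := a Y₁ + b Y₂`: `n Y = i W + d u`; `z` from `W`;
`π Ψ z = n (a m₁ P₁ + b m₂ P₂) - d(π T u) ≡ n a (m₁ - m₂) P₁ mod B²`, not a level coboundary.
-/

set_option autoImplicit false
set_option linter.unusedSectionVars false
set_option linter.style.haveILetI false

noncomputable section

namespace Fermat.Agent.TW.F

open CategoryTheory groupCohomology Module Fermat.Agent.PT Fermat.Agent.PT.F Fermat.Agent.TW.E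
open Fermat.Agent.PT.F.ExactH2

attribute [local instance 1100] Rep.hV2

variable {p : ℕ} {G : Type} [Group G] {ι : Type} {Gloc : ι → Type} [∀ v, Group (Gloc v)]

/-- **h2p-chase.** -/
theorem stmtH2pChase : StmtH2pChase := by
  intro p _ G _ ι _ Gloc _ D Ω _ _ hΩ Y hY hcoc hp hπ
  exact h2pex_main D Ω hΩ Y hY hcoc hp hπ

/-! ### Small lemmas -/

/-- the norm element is `G`-invariant -/
lemma h2pa_N_inv (U : Subgroup G) [Finite (G ⧸ U)] (g : G) :
    (h2pM U).ρ g (h2pN U) = h2pN U := by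
  classical
  let _ : Fintype (G ⧸ U) := Fintype.ofFinite _
  unfold h2pN
  rw [finsum_eq_sum_of_fintype, map_sum]
  have h1 : ∀ ω : G ⧸ U, (h2pM U).ρ g (h2pE U ω) = h2pE U (g • ω) := fun ω =>
    chl_ρ_single (G ⧸ U) g ω 1
  simp only [h1]
  exact Equiv.sum_comp (MulAction.toPerm g) (fun ω : G ⧸ U => h2pE U ω)

/-- evaluation of `dOne` at an invariant element is the ordinary coboundary -/
lemma h2pa_dOne_eval (M X : Rep.{0} ℤ G) (t : G → (M.V →+ X.V)) (N : M.V)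
    (hN : ∀ g, M.ρ g N = N) (s : G × G) :
    dOne M X t s N = (d₁₂ X).hom (fun σ => t σ N) s := by
  obtain ⟨σ, τ⟩ := s
  rw [d₁₂_hom_apply, dOne_apply, hN]

/-- a `G`-map `T : Hom(M, J) → J` sends `dOne` to the ordinary coboundary -/
lemma h2pa_T_dOne (M X : Rep.{0} ℤ G) (T : (M.V →+ X.V) →+ X.V)
    (hT : ∀ (σ : G) (F : M.V →+ X.V), T (conjAdd M X σ F) = X.ρ σ (T F))
    (u : G → (M.V →+ X.V)) (s : G × G) :
    T (dOne M X u s) = (d₁₂ X).hom (fun σ => T (u σ)) s := by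
  obtain ⟨σ, τ⟩ := s
  rw [d₁₂_hom_apply]
  show T (conjAdd M X σ (u τ) - u (σ * τ) + u σ) = _
  rw [map_add, map_sub, hT]

/-- Bezout: a cochain `P` with `p • P` and `k • P` level coboundaries, `p ∤ k`, is a level
coboundary -/
lemma h2pa_bezout [Fact p.Prime] {𝒯 : Tower G} {X : Rep.{0} ℤ G} (P : G × G → X.V) (k : ℤ)
    (hk : ¬ (p : ℤ) ∣ k) (h1 : p • P ∈ levCoboundaries₂ 𝒯 X)
    (h2 : k • P ∈ levCoboundaries₂ 𝒯 X) : P ∈ levCoboundaries₂ 𝒯 X := by
  have hp : Prime (p : ℤ) := Nat.prime_iff_prime_int.1 Fact.out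
  have hc : IsCoprime (p : ℤ) k := (Prime.coprime_iff_not_dvd hp).2 hk
  obtain ⟨x, y, hxy⟩ := hc
  have h3 : P = x • ((p : ℤ) • P) + y • (k • P) := by
    rw [smul_smul, smul_smul, ← add_smul, hxy, one_smul]
  rw [h3]
  refine (levCoboundaries₂ 𝒯 X).add_mem (zsmul_mem ?_ x) (zsmul_mem h2 y)
  rwa [natCast_zsmul]

/-- the components of `F(N_Ω)` -/
lemma h2pa_eval_N (D : PTDatum p G ι Gloc) (U : Subgroup G) [Fintype (G ⧸ U)]
    (F : (h2pM U).V →+ (PTJ D).V) (v : ι) (g : G) :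
    (F (h2pN U)).1 v g = ∑ ω : G ⧸ U, (F (h2pE U ω)).1 v g := by
  unfold h2pN
  rw [finsum_eq_sum_of_fintype, map_sum]
  have := AddSubmonoidClass.coe_finsetSum (S := semilocalSub D.𝒯 D.r D.Jloc)
    (fun ω : G ⧸ U => F (h2pE U ω)) Finset.univ
  show ((∑ ω, F (h2pE U ω) : ↥(semilocalSub D.𝒯 D.r D.Jloc)) :
    ∀ v, G → (D.Jloc v).V) v g = _
  rw [this, Finset.sum_apply, Finset.sum_apply]

/-- on a map supported at the place `(v, g₀)` the weighted trace is `m v g₀ • F(N_Ω)` -/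
lemma h2pa_wtr_supp (D : PTDatum p G ι Gloc) (U : Subgroup G) [Finite (G ⧸ U)]
    (m : ι → G → ℕ) (hm : IsPlaceFn D U m) (T : ((h2pM U).V →+ (PTJ D).V) →+ (PTJ D).V)
    (hT : IsWtr D U m T) (v : ι) (g₀ : G) (F : (h2pM U).V →+ (PTJ D).V)
    (hF : IsSuppAt D U v g₀ F) : T F = m v g₀ • F (h2pN U) := by
  classical
  let _ : Fintype (G ⧸ U) := Fintype.ofFinite _
  apply Subtype.ext
  funext v' g
  rw [hT F v' g, finsum_eq_sum_of_fintype]
  show _ = m v g₀ • (F (h2pN U)).1 v' g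
  rw [h2pa_eval_N, Finset.smul_sum]
  refine Finset.sum_congr rfl fun ω _ => ?_
  by_cases hx : (F (h2pE U ω)).1 v' g = 0
  · rw [hx, smul_zero, smul_zero]
  · obtain ⟨rfl, d, u, hu, heq⟩ := hF ω v' g hx
    rw [heq, hm.2 _ _ _ hu, hm.1]

/-- `π ∘ Y` is a `p`-torsion cocycle if `Y` is -/
lemma h2pa_pi_ptors (D : PTDatum p G ι Gloc) (M : Rep.{0} ℤ G)
    {Y : G × G → (M.V →+ (PTJ D).V)} (hY : IsPTorsCoc D.𝒯 p M (PTJ D) Y) :
    IsPTorsCoc D.𝒯 p M D.C (fun s => (homAdd D.π).comp (Y s)) := by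
  obtain ⟨hlev, hcoc, t, htlev, ht⟩ := hY
  refine ⟨hlev.comp (fun h => (homAdd D.π).comp h), fun s => ?_,
    fun σ => (homAdd D.π).comp (t σ), htlev.comp (fun h => (homAdd D.π).comp h), fun s => ?_⟩
  · rw [← chl_comp_dTwo, hcoc, AddMonoidHom.comp_zero]
  · rw [← chl_comp_nsmul, ht s, comp_dOne]

/-- linear combinations of `p`-torsion cocycles -/
lemma h2pa_lin_ptors {𝒯 : Tower G} (M X : Rep.{0} ℤ G) {Y₁ Y₂ : G × G → (M.V →+ X.V)}
    (a b : ℕ) (h₁ : IsPTorsCoc 𝒯 p M X Y₁) (h₂ : IsPTorsCoc 𝒯 p M X Y₂) :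
    IsPTorsCoc 𝒯 p M X (fun s => a • Y₁ s + b • Y₂ s) := by
  obtain ⟨hlev₁, hcoc₁, t₁, ht₁lev, ht₁⟩ := h₁
  obtain ⟨hlev₂, hcoc₂, t₂, ht₂lev, ht₂⟩ := h₂
  refine ⟨chl_isLevel₂_add (chl_isLevel₂_nsmul a hlev₁) (chl_isLevel₂_nsmul b hlev₂),
    fun s => ?_, fun σ => a • t₁ σ + b • t₂ σ,
    chl_isLevel₁_add (chl_isLevel₁_nsmul a ht₁lev) (chl_isLevel₁_nsmul b ht₂lev), fun s => ?_⟩
  · rw [chl_dTwo_add, chl_dTwo_nsmul, chl_dTwo_nsmul, hcoc₁, hcoc₂, smul_zero, smul_zero,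
      add_zero]
  · rw [chl_dOne_add, dOne_nsmul, dOne_nsmul, ← ht₁ s, ← ht₂ s, smul_add, smul_comm p a,
      smul_comm p b]

/-- `G ⧸ U` is a level set for a normal level `U` -/
lemma h2pa_isLevSet {𝒯 : Tower G} (U : Subgroup G) (hUn : U.Normal) (hU : U ∈ 𝒯.lev) :
    IsLevSet 𝒯 (G ⧸ U) := by
  refine ⟨U, hU, fun s hs ω => ?_⟩
  induction ω using QuotientGroup.induction_on with
  | H g =>
    show ((s * g : G) : G ⧸ U) = (g : G ⧸ U)
    rw [QuotientGroup.eq]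
    have : (s * g)⁻¹ * g = g⁻¹ * s⁻¹ * g := by group
    rw [this]
    have h := hUn.conj_mem s⁻¹ (U.inv_mem hs) g⁻¹
    simpa using h

/-- `π` commutes with the coboundary -/
lemma h2pa_pi_d₁₂ (D : PTDatum p G ι Gloc) (x : G → (PTJ D).V) (s : G × G) :
    D.π.hom ((d₁₂ (PTJ D)).hom x s) = (d₁₂ D.C).hom (fun σ => D.π.hom (x σ)) s := by
  rw [d₁₂_hom_apply, d₁₂_hom_apply, map_add, map_sub, Rep.hom_comm_apply]

/-- the trace of a `p`-torsion cocycle of `Hom(M, J)` is killed by `p` in `H²_lev(G, C)` -/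
lemma h2pa_p_trace (D : PTDatum p G ι Gloc) (U : Subgroup G) [Finite (G ⧸ U)]
    {Y : G × G → ((h2pM U).V →+ (PTJ D).V)} (hY : IsPTorsCoc D.𝒯 p (h2pM U) (PTJ D) Y) :
    p • (fun s => D.π.hom (Y s (h2pN U))) ∈ levCoboundaries₂ D.𝒯 D.C := by
  obtain ⟨-, -, t, htlev, ht⟩ := hY
  refine (mem_levCoboundaries₂_iff _ _ _).2 ⟨fun σ => D.π.hom (t σ (h2pN U)),
    htlev.comp (fun h => D.π.hom (h (h2pN U))), ?_⟩
  funext s
  show _ = p • D.π.hom (Y s (h2pN U))
  rw [← map_nsmul, ← AddMonoidHom.nsmul_apply, ht s, h2pa_dOne_eval _ _ _ _ (h2pa_N_inv U),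
    h2pa_pi_d₁₂]

/-- **h2p-asm.** -/
theorem stmtH2pAsm : StmtH2pAsm := by
  intro hWtr hUntw hSupp hDep hChase p _ G _ ι _ Gloc _ D hPD U hUn hU hχ Ψ hΨ hne
  classical
  haveI : U.FiniteIndex := D.𝒯.finiteIndex U hU
  haveI : Finite (G ⧸ U) := Subgroup.finite_quotient_of_finiteIndex
  letI : Fintype (G ⧸ U) := Fintype.ofFinite _
  have hp : p.Prime := Fact.out
  have hpZ : Prime (p : ℤ) := Nat.prime_iff_prime_int.1 hp
  have hN : ∀ g, (h2pM U).ρ g (h2pN U) = h2pN U := h2pa_N_inv U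
  -- untwisting
  obtain ⟨m, hm, hnc, hz⟩ := hUntw p G ι Gloc D U hUn hU hχ Ψ hΨ
  obtain ⟨v₁, g₁, v₂, g₂, hm12⟩ := hnc hne
  obtain ⟨T, hT, hTeq⟩ := hWtr p G ι Gloc D U hUn hU m hm
  -- the classes at the two places
  obtain ⟨Y₁, hY₁, hS₁, hN₁⟩ := hSupp p G ι Gloc D hPD U hUn hU v₁ g₁
  obtain ⟨Y₂, hY₂, hS₂, hN₂⟩ := hSupp p G ι Gloc D hPD U hUn hU v₂ g₂
  have hpP₁ := h2pa_p_trace D U hY₁
  have hpP₂ := h2pa_p_trace D U hY₂
  -- linear dependence in `Hom(M, C)`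
  obtain ⟨a, b, hab, t, htlev, ht⟩ := hDep p G ι Gloc D U hUn hU _ _
    (h2pa_pi_ptors D _ hY₁) (h2pa_pi_ptors D _ hY₂)
  have habP : a • (fun s => D.π.hom (Y₁ s (h2pN U))) + b • (fun s => D.π.hom (Y₂ s (h2pN U))) ∈
      levCoboundaries₂ D.𝒯 D.C := by
    refine (mem_levCoboundaries₂_iff _ _ _).2 ⟨fun σ => t σ (h2pN U),
      htlev.comp (fun h => h (h2pN U)), ?_⟩
    funext s
    rw [← h2pa_dOne_eval _ _ _ _ hN, ← ht s]
    rfl
  -- `p ∤ a`
  have hpa : ¬ p ∣ a := by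
    intro hdiv
    obtain ⟨a', rfl⟩ := hdiv
    have hb : ¬ p ∣ b := fun h => hab ⟨Dvd.intro a' rfl, h⟩
    have h1 : (p * a') • (fun s => D.π.hom (Y₁ s (h2pN U))) ∈ levCoboundaries₂ D.𝒯 D.C := by
      rw [mul_comm, mul_smul]
      exact nsmul_mem hpP₁ a'
    have h2 : b • (fun s => D.π.hom (Y₂ s (h2pN U))) ∈ levCoboundaries₂ D.𝒯 D.C := by
      have := (levCoboundaries₂ D.𝒯 D.C).sub_mem habP h1
      rwa [add_sub_cancel_left] at this
    have h3 : ((b : ℤ)) • (fun s => D.π.hom (Y₂ s (h2pN U))) ∈ levCoboundaries₂ D.𝒯 D.C := by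
      rwa [natCast_zsmul]
    exact hN₂ (h2pa_bezout _ (b : ℤ) (fun h => hb (Int.natCast_dvd_natCast.1 h)) hpP₂ h3)
  -- the chase
  have hY := h2pa_lin_ptors (h2pM U) (PTJ D) a b hY₁ hY₂
  have hπY : ∃ t : G → ((h2pM U).V →+ D.C.V), IsLevel₁ D.𝒯 t ∧
      ∀ s, (homAdd D.π).comp (a • Y₁ s + b • Y₂ s) = dOne (h2pM U) D.C t s :=
    ⟨t, htlev, fun s => by
      rw [AddMonoidHom.comp_add, chl_comp_nsmul, chl_comp_nsmul]
      exact ht s⟩
  obtain ⟨n, hn, W, hWlev, hWcoc, hWp, u, hulev, hu⟩ :=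
    hChase p G ι Gloc D (G ⧸ U) (h2pa_isLevSet U hUn hU) _ hY.1 hY.2.1 hY.2.2 hπY
  obtain ⟨z, hzcoc, hzΨ⟩ := hz T hT W hWlev hWcoc hWp
  refine ⟨z, hzcoc, fun hcob => ?_⟩
  -- the formula for `π Ψ z`
  have hTY : ∀ s, T (a • Y₁ s + b • Y₂ s) =
      (a * m v₁ g₁) • Y₁ s (h2pN U) + (b * m v₂ g₂) • Y₂ s (h2pN U) := by
    intro s
    rw [map_add, map_nsmul, map_nsmul, h2pa_wtr_supp D U m hm T hT v₁ g₁ _ (hS₁ s),
      h2pa_wtr_supp D U m hm T hT v₂ g₂ _ (hS₂ s), mul_smul, mul_smul]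
  have hpush : pushC D Ψ z = n • ((a * m v₁ g₁) • (fun s => D.π.hom (Y₁ s (h2pN U))) +
      (b * m v₂ g₂) • (fun s => D.π.hom (Y₂ s (h2pN U)))) -
      (d₁₂ D.C).hom (fun σ => D.π.hom (T (u σ))) := by
    funext s
    show D.π.hom (Ψ (z s)) = _
    rw [hzΨ s]
    have h1 : (homAdd D.i).comp (W s) =
        n • (a • Y₁ s + b • Y₂ s) - dOne (h2pM U) (PTJ D) u s :=
      eq_sub_of_add_eq (hu s).symm
    rw [h1, map_sub, map_nsmul, hTY s, h2pa_T_dOne _ _ T hTeq u s, map_sub, map_nsmul, map_add,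
      map_nsmul, map_nsmul, h2pa_pi_d₁₂]
    rfl
  have h2 : n • ((a * m v₁ g₁) • (fun s => D.π.hom (Y₁ s (h2pN U))) +
      (b * m v₂ g₂) • (fun s => D.π.hom (Y₂ s (h2pN U)))) ∈ levCoboundaries₂ D.𝒯 D.C := by
    have h : n • ((a * m v₁ g₁) • (fun s => D.π.hom (Y₁ s (h2pN U))) +
        (b * m v₂ g₂) • (fun s => D.π.hom (Y₂ s (h2pN U)))) =
        pushC D Ψ z + (d₁₂ D.C).hom (fun σ => D.π.hom (T (u σ))) := by
      rw [hpush, sub_add_cancel]
    rw [h]
    exact (levCoboundaries₂ D.𝒯 D.C).add_mem hcob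
      ((mem_levCoboundaries₂_iff _ _ _).2 ⟨_, hulev.comp (fun h => D.π.hom (T h)), rfl⟩)
  have h3 : ((n : ℤ) * a * ((m v₁ g₁ : ℤ) - m v₂ g₂)) • (fun s => D.π.hom (Y₁ s (h2pN U))) ∈
      levCoboundaries₂ D.𝒯 D.C := by
    have e : ((n : ℤ) * a * ((m v₁ g₁ : ℤ) - m v₂ g₂)) • (fun s => D.π.hom (Y₁ s (h2pN U))) =
        n • ((a * m v₁ g₁) • (fun s => D.π.hom (Y₁ s (h2pN U))) +
          (b * m v₂ g₂) • (fun s => D.π.hom (Y₂ s (h2pN U)))) -
        (n * m v₂ g₂) • (a • (fun s => D.π.hom (Y₁ s (h2pN U))) +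
          b • (fun s => D.π.hom (Y₂ s (h2pN U)))) := by
      module
    rw [e]
    exact (levCoboundaries₂ D.𝒯 D.C).sub_mem h2 (nsmul_mem habP _)
  have hk : ¬ (p : ℤ) ∣ (n : ℤ) * a * ((m v₁ g₁ : ℤ) - m v₂ g₂) := by
    intro h
    rcases hpZ.dvd_mul.1 h with h | h
    · rcases hpZ.dvd_mul.1 h with h | h
      · exact hn (Int.natCast_dvd_natCast.1 h)
      · exact hpa (Int.natCast_dvd_natCast.1 h)
    · apply hm12
      rw [Nat.modEq_iff_dvd]
      have e : ((m v₂ g₂ : ℤ) - m v₁ g₁) = -((m v₁ g₁ : ℤ) - m v₂ g₂) := by ring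
      rw [e]
      exact (dvd_neg).2 h
  exact hN₁ (h2pa_bezout _ _ hk hpP₁ h3)

end Fermat.Agent.TW.F

end


end ZBTW_014_20

/-! ### bundled: `Fermat.Agent.TW.F.H2pMul` -/
section ZBTW_014_21
/-
TW-F, block F-h2perm, piece h2p-mul (helper88): multiplication by a place function on
`Hom_ℤ(ℤ[G/U], J)`.

For a normal level `U` and a place function `m` the additive endomorphism `P_m` of
`Hom_ℤ(ℤ[G/U], J)`, `(P_m F)(e_ω)(v)(g) = m_v(g ω) • F(e_ω)(v)(g)`, is equivariant for the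
conjugation action.

`stmtH2pMul : StmtH2pMul`.
-/

set_option autoImplicit false

noncomputable section

namespace Fermat.Agent.TW.F

open CategoryTheory groupCohomology Module Fermat.Agent.PT Fermat.Agent.PT.F Fermat.Agent.TW.E

attribute [local instance 1100] Rep.hV2

variable {p : ℕ} {G : Type} [Group G] {ι : Type} {Gloc : ι → Type} [∀ v, Group (Gloc v)]
  (D : PTDatum p G ι Gloc) (U : Subgroup G)

/-- a place function only depends on the class of the right factor in `G/U` -/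
lemma h2pmul_congr {m : ι → G → ℕ} (hm : IsPlaceFn D U m) (v : ι) (g h h' : G)
    (hh : (h : G ⧸ U) = (h' : G ⧸ U)) : m v (g * h) = m v (g * h') := by
  have h1 : h⁻¹ * h' ∈ U := QuotientGroup.eq.1 hh
  have h2 : g * h' = g * h * (h⁻¹ * h') := by group
  rw [h2, hm.2 v _ _ h1]

/-- the key identity for equivariance -/
lemma h2pmul_out {m : ι → G → ℕ} (hm : IsPlaceFn D U m) (v : ι) (g σ : G) (ω : G ⧸ U) :
    m v (g * σ * (σ⁻¹ • ω).out) = m v (g * ω.out) := by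
  have h1 : ((σ * (σ⁻¹ • ω).out : G) : G ⧸ U) = ((ω.out : G) : G ⧸ U) := by
    have e1 : ((σ * (σ⁻¹ • ω).out : G) : G ⧸ U) = σ • (((σ⁻¹ • ω).out : G) : G ⧸ U) := rfl
    rw [e1, QuotientGroup.out_eq', QuotientGroup.out_eq', smul_inv_smul]
  rw [mul_assoc]
  exact h2pmul_congr D U hm v g _ _ h1

/-- the function underlying `x ↦ (g ↦ m_v(g h) • x_v(g))` -/
def h2pmulFun (m : ι → G → ℕ) (h : G) (x : (PTJ D).V) : ∀ v, G → (D.Jloc v).V :=
  fun v g => m v (g * h) • x.1 v g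

lemma h2pmulFun_mem (hUn : U.Normal) (hU : U ∈ D.𝒯.lev) {m : ι → G → ℕ}
    (hm : IsPlaceFn D U m) (h : G) (x : (PTJ D).V) :
    h2pmulFun D m h x ∈ semilocalSub D.𝒯 D.r D.Jloc := by
  intro v
  refine ⟨fun d g => ?_, ?_⟩
  · show m v (D.r v d * g * h) • x.1 v (D.r v d * g) = (D.Jloc v).ρ d (m v (g * h) • x.1 v g)
    rw [mul_assoc, hm.1, (x.2 v).1 d g, map_nsmul]
  · obtain ⟨U', hU', hx⟩ := (x.2 v).2
    refine ⟨U ⊓ U', D.𝒯.inf_mem _ _ hU hU', fun g s hs => ?_⟩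
    show m v (g * s * h) • x.1 v (g * s) = m v (g * h) • x.1 v g
    rw [hx g s hs.2]
    have e : g * s * h = g * h * (h⁻¹ * s * h) := by group
    have hc : h⁻¹ * s * h ∈ U := by simpa using hUn.conj_mem s hs.1 h⁻¹
    rw [e, hm.2 v _ _ hc]

/-- multiplication by `g ↦ m_v(g h)` on `J` -/
def h2pmulJ (hUn : U.Normal) (hU : U ∈ D.𝒯.lev) {m : ι → G → ℕ} (hm : IsPlaceFn D U m)
    (h : G) : (PTJ D).V →+ (PTJ D).V where
  toFun x := ⟨h2pmulFun D m h x, h2pmulFun_mem D U hUn hU hm h x⟩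
  map_zero' := by
    apply Subtype.ext
    funext v g
    show m v (g * h) • (0 : (D.Jloc v).V) = 0
    rw [smul_zero]
  map_add' x y := by
    apply Subtype.ext
    funext v g
    show m v (g * h) • (x.1 v g + y.1 v g) = m v (g * h) • x.1 v g + m v (g * h) • y.1 v g
    rw [smul_add]

lemma h2pmulJ_apply (hUn : U.Normal) (hU : U ∈ D.𝒯.lev) {m : ι → G → ℕ} (hm : IsPlaceFn D U m)
    (h : G) (x : (PTJ D).V) (v : ι) (g : G) :
    (h2pmulJ D U hUn hU hm h x).1 v g = m v (g * h) • x.1 v g := rfl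

/-- `P_m` -/
def h2pmulP (hUn : U.Normal) (hU : U ∈ D.𝒯.lev) {m : ι → G → ℕ} (hm : IsPlaceFn D U m) :
    ((h2pM U).V →+ (PTJ D).V) →+ ((h2pM U).V →+ (PTJ D).V) where
  toFun F := chl_lift (G := G) (G ⧸ U) (fun ω => h2pmulJ D U hUn hU hm ω.out (F (h2pE U ω)))
  map_zero' := by
    apply chl_ext
    intro ω
    rw [chl_lift_single, one_smul, AddMonoidHom.zero_apply, map_zero]
  map_add' F F' := by
    apply chl_ext
    intro ω
    rw [AddMonoidHom.add_apply, chl_lift_single, chl_lift_single, chl_lift_single, one_smul,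
      one_smul, one_smul, AddMonoidHom.add_apply, map_add]

lemma h2pmulP_single (hUn : U.Normal) (hU : U ∈ D.𝒯.lev) {m : ι → G → ℕ}
    (hm : IsPlaceFn D U m) (F : (h2pM U).V →+ (PTJ D).V) (ω : G ⧸ U) :
    h2pmulP D U hUn hU hm F (h2pE U ω) = h2pmulJ D U hUn hU hm ω.out (F (h2pE U ω)) := by
  show chl_lift (G := G) (G ⧸ U) _ (MonoidAlgebra.single ω (1 : ℤ)) = _
  rw [chl_lift_single, one_smul]

lemma h2pmulP_conj (hUn : U.Normal) (hU : U ∈ D.𝒯.lev) {m : ι → G → ℕ}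
    (hm : IsPlaceFn D U m) (σ : G) (F : (h2pM U).V →+ (PTJ D).V) :
    h2pmulP D U hUn hU hm (conjAdd (h2pM U) (PTJ D) σ F) =
      conjAdd (h2pM U) (PTJ D) σ (h2pmulP D U hUn hU hm F) := by
  apply chl_ext
  intro ω
  have e1 : (h2pM U).ρ σ⁻¹ (MonoidAlgebra.single ω (1 : ℤ)) =
      MonoidAlgebra.single (σ⁻¹ • ω) (1 : ℤ) := chl_ρ_single (G ⧸ U) σ⁻¹ ω 1
  have h1 := h2pmulP_single D U hUn hU hm (conjAdd (h2pM U) (PTJ D) σ F) ω
  have h2 := h2pmulP_single D U hUn hU hm F (σ⁻¹ • ω)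
  rw [conjAdd_apply, e1]
  show h2pmulP D U hUn hU hm (conjAdd (h2pM U) (PTJ D) σ F) (h2pE U ω) =
    (PTJ D).ρ σ (h2pmulP D U hUn hU hm F (h2pE U (σ⁻¹ • ω)))
  rw [h1, h2, conjAdd_apply]
  show h2pmulJ D U hUn hU hm ω.out ((PTJ D).ρ σ (F ((h2pM U).ρ σ⁻¹ (MonoidAlgebra.single ω 1)))) = _
  rw [e1]
  apply Subtype.ext
  funext v g
  show m v (g * ω.out) • (F (h2pE U (σ⁻¹ • ω))).1 v (g * σ) =
    m v (g * σ * (σ⁻¹ • ω).out) • (F (h2pE U (σ⁻¹ • ω))).1 v (g * σ)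
  rw [h2pmul_out D U hm]

/-- **h2p-mul** -/
theorem stmtH2pMul : StmtH2pMul := by
  intro p _ G _ ι _ Gloc _ D U hUn hU m hm
  refine ⟨h2pmulP D U hUn hU hm, fun F ω v g => ?_, fun σ F => h2pmulP_conj D U hUn hU hm σ F⟩
  rw [h2pmulP_single]
  rfl

end Fermat.Agent.TW.F

end


end ZBTW_014_21

/-! ### bundled: `Fermat.Agent.TW.F.H2pWtr` -/
section ZBTW_014_22
/-
TW-F, block F-h2perm, piece h2p-wtr (helper88): the weighted trace
`T_m = ev_N ∘ P_m : Hom_ℤ(ℤ[G/U], J) → J`, `(T_m F)(v)(g) = Σ_ω m_v(g ω) • F(e_ω)(v)(g)`,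
is a `G`-map for the conjugation action.

`stmtH2pWtr_of : StmtH2pMul → StmtH2pWtr`, `stmtH2pWtr : StmtH2pWtr`.
-/

set_option autoImplicit false

noncomputable section

namespace Fermat.Agent.TW.F

open CategoryTheory groupCohomology Module Fermat.Agent.PT Fermat.Agent.PT.F Fermat.Agent.TW.E

attribute [local instance 1100] Rep.hV2

variable {p : ℕ} {G : Type} [Group G] {ι : Type} {Gloc : ι → Type} [∀ v, Group (Gloc v)]

/-- the norm element is `G`-invariant -/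
lemma h2pwtr_N_inv (U : Subgroup G) [Finite (G ⧸ U)] (g : G) :
    (h2pM U).ρ g (h2pN U) = h2pN U := by
  classical
  let _ : Fintype (G ⧸ U) := Fintype.ofFinite _
  unfold h2pN
  rw [finsum_eq_sum_of_fintype, map_sum]
  have h1 : ∀ ω : G ⧸ U, (h2pM U).ρ g (h2pE U ω) = h2pE U (g • ω) := fun ω =>
    chl_ρ_single (G ⧸ U) g ω 1
  simp only [h1]
  exact Equiv.sum_comp (MulAction.toPerm g) (fun ω : G ⧸ U => h2pE U ω)

/-- the components of `F(N_Ω)` -/
lemma h2pwtr_eval_N (D : PTDatum p G ι Gloc) (U : Subgroup G) [Fintype (G ⧸ U)]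
    (F : (h2pM U).V →+ (PTJ D).V) (v : ι) (g : G) :
    (F (h2pN U)).1 v g = ∑ ω : G ⧸ U, (F (h2pE U ω)).1 v g := by
  unfold h2pN
  rw [finsum_eq_sum_of_fintype, map_sum]
  have := AddSubmonoidClass.coe_finsetSum (S := semilocalSub D.𝒯 D.r D.Jloc)
    (fun ω : G ⧸ U => F (h2pE U ω)) Finset.univ
  show ((∑ ω, F (h2pE U ω) : ↥(semilocalSub D.𝒯 D.r D.Jloc)) :
    ∀ v, G → (D.Jloc v).V) v g = _
  rw [this, Finset.sum_apply, Finset.sum_apply]

/-- evaluation at an element of `M`, as an additive map on `Hom_ℤ(M, J)` -/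
def h2pwtrEval (M X : Rep.{0} ℤ G) (N : M.V) : (M.V →+ X.V) →+ X.V where
  toFun F := F N
  map_zero' := rfl
  map_add' _ _ := rfl

/-- **h2p-wtr** from **h2p-mul** -/
theorem stmtH2pWtr_of (hMul : StmtH2pMul) : StmtH2pWtr := by
  intro p _ G _ ι _ Gloc _ D U hUn hU m hm
  obtain ⟨P, hP1, hP2⟩ := hMul p G ι Gloc D U hUn hU m hm
  have hfi : U.FiniteIndex := D.𝒯.finiteIndex U hU
  have hfin : Finite (G ⧸ U) := Subgroup.finite_quotient_of_finiteIndex
  classical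
  let _ : Fintype (G ⧸ U) := Fintype.ofFinite _
  refine ⟨(h2pwtrEval (h2pM U) (PTJ D) (h2pN U)).comp P, fun F v g => ?_, fun σ F => ?_⟩
  · show (P F (h2pN U)).1 v g = _
    rw [h2pwtr_eval_N, finsum_eq_sum_of_fintype]
    exact Finset.sum_congr rfl fun ω _ => hP1 F ω v g
  · show P (conjAdd (h2pM U) (PTJ D) σ F) (h2pN U) = (PTJ D).ρ σ (P F (h2pN U))
    rw [hP2, conjAdd_apply, h2pwtr_N_inv]

/-- **h2p-wtr** -/
theorem stmtH2pWtr : StmtH2pWtr := stmtH2pWtr_of stmtH2pMul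

end Fermat.Agent.TW.F

end


end ZBTW_014_22

/-! ### bundled: `Fermat.Agent.TW.F.H2pGlue` -/
section ZBTW_014_23
/-
TW-F, block F-h2perm — GLUE (helper55).

* `stmtH2pSeed_of  : StmtH2pSeedMod → StmtH2pSeed`                      (with `stmtH2pSeedPair`)
* `stmtH2pSupp_of  : StmtH2pSeed → StmtH2pProj → StmtH2pTransl → StmtH2pSupp`
* `stmtH2pDep_of   : StmtH2pCycU → StmtH2pShInj → StmtH2pDep`
* `stmtH2Perm_of   : StmtH2pSeedMod → StmtH2pProj → StmtH2pTransl → StmtH2pCycU → StmtH2pShInj →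
                     StmtH2pUntw → StmtH2Perm`       (with `stmtH2pAsm`, `stmtH2pWtr`, `stmtH2pChase`)
-/

set_option autoImplicit false
set_option linter.unusedSectionVars false
set_option linter.style.haveILetI false

noncomputable section

namespace Fermat.Agent.TW.F

open CategoryTheory groupCohomology Module Fermat.Agent.PT Fermat.Agent.PT.F Fermat.Agent.TW.E
open Fermat.Agent.PT.F.ExactH2

attribute [local instance 1100] Rep.hV2

/-- **h2p-seed** from seedmod (and seedpair). -/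
theorem stmtH2pSeed_of (hMod : StmtH2pSeedMod) : StmtH2pSeed := by
  intro p _ G _ ι _ Gloc _ D hPD U hUn hU v
  obtain ⟨A', hfin, ch, hp, hU₀, hlev, hcoc, hnc⟩ := hMod p G ι Gloc D hPD U hUn hU v
  exact stmtH2pSeedPair p G ι Gloc D U hUn hU v A' hfin ch hp hU₀ hlev hcoc hnc

/-- **h2p-supp** from seed, proj and transl. -/
theorem stmtH2pSupp_of (hSeed : StmtH2pSeed) (hProj : StmtH2pProj) (hTr : StmtH2pTransl) :
    StmtH2pSupp := by
  intro p _ G _ ι _ Gloc _ D hPD U hUn hU v g₀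
  obtain ⟨Y, hY, hYs, hYn⟩ := hSeed p G ι Gloc D hPD U hUn hU v
  obtain ⟨g₁, Y', hY', hYs', hYn'⟩ := hProj p G ι Gloc D U hUn hU v Y hY hYs hYn
  obtain ⟨Y'', hY'', hYs'', hYN⟩ := hTr p G ι Gloc D U hUn hU v g₁ g₀ Y' hY' hYs'
  refine ⟨Y'', hY'', hYs'', ?_⟩
  have : (fun s => D.π.hom (Y'' s (h2pN U))) = fun s => D.π.hom (Y' s (h2pN U)) := by
    funext s
    rw [hYN s]
  rw [this]
  exact hYn'

section Dep

variable {p : ℕ} {G : Type} [Group G] {ι : Type} {Gloc : ι → Type} [∀ v, Group (Gloc v)]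

/-- `U` fixes `e_{1·U}` -/
lemma h2pg_ρ_e1 (U : Subgroup G) [U.Normal] (s : G) (hs : s ∈ U) :
    (h2pM U).ρ s (h2pE U ((1 : G) : G ⧸ U)) = h2pE U ((1 : G) : G ⧸ U) := by
  have h1 : (h2pM U).ρ s (h2pE U ((1 : G) : G ⧸ U)) = h2pE U (s • ((1 : G) : G ⧸ U)) :=
    chl_ρ_single (G ⧸ U) s _ 1
  rw [h1, h2psp_smul_eq U s hs]

/-- restriction to `U` and evaluation at `e_{1·U}` of a 2-cochain of `Hom_ℤ(ℤ[G/U], C)` -/
def h2pg_res (U : Subgroup G) (C : Rep.{0} ℤ G) (W : G × G → ((h2pM U).V →+ C.V)) :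
    U × U → C.V :=
  fun st => W ((st.1 : G), (st.2 : G)) (h2pE U ((1 : G) : G ⧸ U))

lemma h2pg_res_cocycle (U : Subgroup G) [U.Normal] (C : Rep.{0} ℤ G)
    (W : G × G → ((h2pM U).V →+ C.V)) (hW : ∀ s, dTwo (h2pM U) C W s = 0) :
    h2pg_res U C W ∈ cocycles₂ (Rep.res U.subtype C) := by
  rw [mem_cocycles₂_iff]
  intro a b c
  have h0 : dTwo (h2pM U) C W ((a : G), (b : G), (c : G)) (h2pE U ((1 : G) : G ⧸ U)) = 0 := by
    rw [hW]; rfl
  rw [chl_dTwo_apply, h2pg_ρ_e1 U _ (U.inv_mem a.2)] at h0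
  show W (((a * b : U) : G), (c : G)) _ + W ((a : G), (b : G)) _ =
    C.ρ (a : G) (W ((b : G), (c : G)) _) + W ((a : G), ((b * c : U) : G)) _
  rw [Subgroup.coe_mul, Subgroup.coe_mul]
  rw [sub_eq_zero] at h0
  rw [← h0]
  abel

lemma h2pg_res_level (𝒯 : Tower G) (U : Subgroup G) (C : Rep.{0} ℤ G)
    (W : G × G → ((h2pM U).V →+ C.V)) (hW : IsLevel₂ 𝒯 W) : IsLevelOn₂ 𝒯 U (h2pg_res U C W) := by
  obtain ⟨V, hV, h⟩ := hW
  refine ⟨V, hV, fun g g' s s' hs hs' => ?_⟩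
  show W (((g * s : U) : G), ((g' * s' : U) : G)) _ = W ((g : G), (g' : G)) _
  rw [Subgroup.coe_mul, Subgroup.coe_mul, h _ _ _ _ hs hs']

lemma h2pg_res_ptors (𝒯 : Tower G) (U : Subgroup G) [U.Normal] (C : Rep.{0} ℤ G) (p : ℕ)
    (W : G × G → ((h2pM U).V →+ C.V)) (t : G → ((h2pM U).V →+ C.V)) (ht : IsLevel₁ 𝒯 t)
    (h : ∀ s, p • W s = dOne (h2pM U) C t s) :
    ∃ ψ : U → C.V, IsLevelOn 𝒯 U ψ ∧
      p • h2pg_res U C W = (d₁₂ (Rep.res U.subtype C)).hom ψ := by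
  refine ⟨fun s => t (s : G) (h2pE U ((1 : G) : G ⧸ U)), ?_, ?_⟩
  · obtain ⟨V, hV, hVt⟩ := ht
    refine ⟨V, hV, fun s u hu => ?_⟩
    show t ((s * u : U) : G) _ = t (s : G) _
    rw [Subgroup.coe_mul, hVt _ _ hu]
  · funext st
    obtain ⟨a, b⟩ := st
    have h1 : (p • W ((a : G), (b : G))) (h2pE U ((1 : G) : G ⧸ U)) =
        dOne (h2pM U) C t ((a : G), (b : G)) (h2pE U ((1 : G) : G ⧸ U)) := by
      rw [h]
    rw [dOne_apply, h2pg_ρ_e1 U _ (U.inv_mem a.2)] at h1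
    show p • W ((a : G), (b : G)) _ = C.ρ (a : G) (t (b : G) _) - t ((a * b : U) : G) _ + t (a : G) _
    rw [Subgroup.coe_mul]
    exact h1

end Dep

/-- **h2p-dep** from cycU and shinj. -/
theorem stmtH2pDep_of (hCyc : StmtH2pCycU) (hSh : StmtH2pShInj) : StmtH2pDep := by
  intro p _ G _ ι _ Gloc _ D U hUn hU W₁ W₂ hW₁ hW₂
  haveI := hUn
  obtain ⟨hl₁, hc₁, t₁, ht₁, hp₁⟩ := hW₁
  obtain ⟨hl₂, hc₂, t₂, ht₂, hp₂⟩ := hW₂
  obtain ⟨a, b, hab, ψ, hψ, hψd⟩ := hCyc p G ι Gloc D U hUn hU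
    (h2pg_res U D.C W₁) (h2pg_res U D.C W₂)
    (h2pg_res_cocycle U D.C W₁ hc₁) (h2pg_res_cocycle U D.C W₂ hc₂)
    (h2pg_res_level D.𝒯 U D.C W₁ hl₁) (h2pg_res_level D.𝒯 U D.C W₂ hl₂)
    (h2pg_res_ptors D.𝒯 U D.C p W₁ t₁ ht₁ hp₁) (h2pg_res_ptors D.𝒯 U D.C p W₂ t₂ ht₂ hp₂)
  refine ⟨a, b, hab, ?_⟩
  have hlev : IsLevel₂ D.𝒯 (fun s => a • W₁ s + b • W₂ s) :=
    chl_isLevel₂_add (chl_isLevel₂_nsmul a hl₁) (chl_isLevel₂_nsmul b hl₂)
  have hcoc : ∀ s, dTwo (h2pM U) D.C (fun s => a • W₁ s + b • W₂ s) s = 0 := by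
    intro s
    rw [chl_dTwo_add (h2pM U) D.C (fun s => a • W₁ s) (fun s => b • W₂ s), chl_dTwo_nsmul,
      chl_dTwo_nsmul, hc₁, hc₂, smul_zero, smul_zero, add_zero]
  obtain ⟨t, ht, htd⟩ := hSh p G ι Gloc D U hUn hU (fun s => a • W₁ s + b • W₂ s) hlev hcoc
    ⟨ψ, hψ, fun s t => by
      have := congrFun hψd (s, t)
      rw [← this]
      rfl⟩
  exact ⟨t, ht, htd⟩

/-- **F-h2perm from the open pieces.** -/
theorem stmtH2Perm_of (hMod : StmtH2pSeedMod) (hProj : StmtH2pProj) (hTr : StmtH2pTransl)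
    (hCyc : StmtH2pCycU) (hSh : StmtH2pShInj) (hUntw : StmtH2pUntw) : StmtH2Perm :=
  stmtH2pAsm stmtH2pWtr hUntw (stmtH2pSupp_of (stmtH2pSeed_of hMod) hProj hTr)
    (stmtH2pDep_of hCyc hSh) stmtH2pChase

end Fermat.Agent.TW.F

end


end ZBTW_014_23

/-! ### bundled: `Fermat.Agent.TW.F.H2pSeedMod` -/
section ZBTW_014_24
/-
TW-F, block F-h2perm, piece **h2p-seedmod** (helper63): the module and the 1-cocycle of the seed.
`A' = {f : Ω × Ω'' → 𝔽_p | Σ_{ω''} f(ω, ω'') = 0 ∀ ω}` (`Ω = G/U`, `Ω'' = G/U''`, `U'' ≤ U` the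
normal level of `HasPDepth`), `ĉ(σ)(m)(ω, ω'') = m(ω) ([ω'' = σ̄] - [ω'' = 1̄])`.
Its trace `c(σ) = ĉ(σ)(N_Ω)` is not a coboundary on `G_v`: if `c(r d) = r(d) F - F`, then
`Z := F - [ω'' = 1̄]` is `r(G_v)`-invariant, so `ω'' ↦ Z(1̄, ω'')` is invariant under the group
`r_v⁻¹ U`, whose orbits on `Ω''` have `[r_v⁻¹U : r_v⁻¹U'']` elements; hence
`-1 = Σ_{ω''} Z(1̄, ω'') = 0` in `𝔽_p`.
-/

set_option autoImplicit false
set_option linter.style.haveILetI false
set_option linter.unusedSectionVars false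
set_option linter.unusedVariables false

noncomputable section

namespace Fermat.Agent.TW.F

open CategoryTheory groupCohomology Module Fermat.Agent.PT Fermat.Agent.PT.F Fermat.Agent.TW.E

/-! ### Sums of invariant functions -/

/-- the sum of an invariant `𝔽_p`-valued function over a finite set vanishes if the index of every
stabiliser is divisible by `p` -/
theorem h2psm_sum_eq_zero {H Q : Type} [Group H] [MulAction H Q] [Fintype Q] (p : ℕ)
    (ψ : Q → ZMod p) (hinv : ∀ (h : H) (x : Q), ψ (h • x) = ψ x)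
    (hidx : ∀ x : Q, p ∣ (MulAction.stabilizer H x).index) : ∑ x, ψ x = 0 := by
  classical
  letI : Fintype (MulAction.orbitRel.Quotient H Q) := Fintype.ofFinite _
  letI : ∀ ω : MulAction.orbitRel.Quotient H Q, Fintype ω.orbit := fun ω => Fintype.ofFinite _
  rw [← Equiv.sum_comp (MulAction.selfEquivSigmaOrbits' H Q).symm ψ, Fintype.sum_sigma]
  refine Finset.sum_eq_zero (fun ω _ => ?_)
  have hω : ω.orbit = MulAction.orbit H ω.out :=
    MulAction.orbitRel.Quotient.orbit_eq_orbit_out ω Quotient.out_eq'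
  have h1 : ∀ y : ω.orbit, ψ ((MulAction.selfEquivSigmaOrbits' H Q).symm ⟨ω, y⟩) = ψ ω.out := by
    intro y
    have hy : (y : Q) ∈ MulAction.orbit H ω.out := hω ▸ y.2
    obtain ⟨h, hh⟩ := hy
    have : (MulAction.selfEquivSigmaOrbits' H Q).symm ⟨ω, y⟩ = (y : Q) := rfl
    rw [this, ← hh]
    exact hinv h _
  rw [Finset.sum_congr rfl (fun y _ => h1 y), Finset.sum_const, Finset.card_univ]
  have hc : Fintype.card ω.orbit = (MulAction.stabilizer H ω.out).index := by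
    rw [← Nat.card_eq_fintype_card, Subgroup.index]
    exact (Nat.card_congr (Equiv.setCongr hω)).trans
      (Nat.card_congr (MulAction.orbitEquivQuotientStabilizer H ω.out))
  rw [hc]
  obtain ⟨m, hm⟩ := hidx ω.out
  rw [hm, mul_smul, nsmul_eq_mul]
  simp

/-! ### The quotient by a normal subgroup as a `G`-set -/

section Quot

variable {G : Type} [Group G]

/-- `g • x = x` on `G ⧸ N`, `N` normal, iff `g ∈ N` -/
theorem h2psm_smul_eq_iff (N : Subgroup G) [N.Normal] (g : G) (x : G ⧸ N) :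
    g • x = x ↔ g ∈ N := by
  induction x using QuotientGroup.induction_on with
  | H a =>
    rw [MulAction.Quotient.smul_mk, smul_eq_mul, QuotientGroup.eq]
    have h1 : (g * a)⁻¹ * a = a⁻¹ * g⁻¹ * a⁻¹⁻¹ := by group
    rw [h1]
    constructor
    · intro h
      have h2 := Subgroup.Normal.conj_mem (inferInstance : N.Normal) _ h a
      have h3 : a * (a⁻¹ * g⁻¹ * a⁻¹⁻¹) * a⁻¹ = g⁻¹ := by group
      rw [h3] at h2
      exact (Subgroup.inv_mem_iff N).1 h2
    · intro h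
      exact Subgroup.Normal.conj_mem inferInstance _ (N.inv_mem h) a⁻¹

/-- the elements of `N` act trivially on `G ⧸ N` -/
theorem h2psm_smul_eq (N : Subgroup G) [N.Normal] (g : G) (hg : g ∈ N) (x : G ⧸ N) :
    g • x = x := (h2psm_smul_eq_iff N g x).2 hg

end Quot

/-! ### The module `A'` -/

section Module

variable {G : Type} [Group G] (p : ℕ) (U U₂ : Subgroup G)

/-- functions on `Ω × Ω''` -/
abbrev h2psmFun : Type := (G ⧸ U) × (G ⧸ U₂) → ZMod p

/-- the action of `G` on the functions on `Ω × Ω''` -/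
def h2psmAct (σ : G) : h2psmFun p U U₂ →ₗ[ℤ] h2psmFun p U U₂ where
  toFun f := fun x => f (σ⁻¹ • x)
  map_add' _ _ := rfl
  map_smul' _ _ := rfl

@[simp] lemma h2psmAct_apply (σ : G) (f : h2psmFun p U U₂) (x : (G ⧸ U) × (G ⧸ U₂)) :
    h2psmAct p U U₂ σ f x = f (σ⁻¹ • x) := rfl

variable [Finite (G ⧸ U₂)]

/-- the submodule `A'`: the sums over the fibres of `Ω × Ω'' → Ω` vanish -/
def h2psmSub : Submodule ℤ (h2psmFun p U U₂) where
  carrier := {f | ∀ ω : G ⧸ U, ∑ᶠ ω₂ : G ⧸ U₂, f (ω, ω₂) = 0}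
  add_mem' := by
    intro f g hf hg ω
    have h1 := hf ω
    have h2 := hg ω
    simp only [Pi.add_apply]
    rw [finsum_add_distrib (Set.toFinite _) (Set.toFinite _), h1, h2, add_zero]
  zero_mem' := by
    intro ω
    simp
  smul_mem' := by
    intro n f hf ω
    have h1 := hf ω
    simp only [Pi.smul_apply]
    rw [← smul_finsum' n (Set.toFinite _), h1, smul_zero]

lemma h2psm_mem_sub (f : h2psmFun p U U₂) :
    f ∈ h2psmSub p U U₂ ↔ ∀ ω : G ⧸ U, ∑ᶠ ω₂ : G ⧸ U₂, f (ω, ω₂) = 0 := Iff.rfl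

/-- `A'` is stable under `G` -/
lemma h2psm_act_mem (σ : G) (f : h2psmFun p U U₂) (hf : f ∈ h2psmSub p U U₂) :
    h2psmAct p U U₂ σ f ∈ h2psmSub p U U₂ := by
  intro ω
  have h1 := hf (σ⁻¹ • ω)
  rw [← h1]
  exact finsum_comp_equiv (MulAction.toPerm σ⁻¹ : (G ⧸ U₂) ≃ (G ⧸ U₂))
    (f := fun ω₂ => f (σ⁻¹ • ω, ω₂))

/-- the representation of `G` on `A'` -/
def h2psmRho : Representation ℤ G ↥(h2psmSub p U U₂) where
  toFun σ := (h2psmAct p U U₂ σ).restrict (h2psm_act_mem p U U₂ σ)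
  map_one' := by
    ext f x
    simp [h2psmAct]
  map_mul' σ τ := by
    ext f x
    simp [h2psmAct, mul_smul]

/-- the module `A'` -/
abbrev h2psmRep : Rep.{0} ℤ G := Rep.of (h2psmRho p U U₂)

lemma h2psmRep_ρ_apply (σ : G) (f : ↥(h2psmSub p U U₂)) (x : (G ⧸ U) × (G ⧸ U₂)) :
    (((h2psmRep p U U₂).ρ σ f : ↥(h2psmSub p U U₂)) : h2psmFun p U U₂) x =
      (f : h2psmFun p U U₂) (σ⁻¹ • x) := rfl

/-- the value `[ω₂ = σ̄] - [ω₂ = 1̄]` -/
def h2psmInd (σ : G) (ω₂ : G ⧸ U₂) : ZMod p :=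
  open Classical in
  (if ω₂ = (σ : G ⧸ U₂) then 1 else 0) - (if ω₂ = ((1 : G) : G ⧸ U₂) then 1 else 0)

omit [Finite (G ⧸ U₂)] in
lemma h2psm_finsum_single (a : G ⧸ U₂) :
    (∑ᶠ ω₂ : G ⧸ U₂, (open Classical in if ω₂ = a then (1 : ZMod p) else 0)) = 1 := by
  classical
  rw [finsum_eq_single _ a (fun x hx => if_neg hx), if_pos rfl]

lemma h2psm_finsum_ind (σ : G) : ∑ᶠ ω₂ : G ⧸ U₂, h2psmInd p U₂ σ ω₂ = 0 := by
  classical
  unfold h2psmInd
  rw [finsum_sub_distrib (Set.toFinite _) (Set.toFinite _), h2psm_finsum_single,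
    h2psm_finsum_single, sub_self]

omit [Finite (G ⧸ U₂)] in
/-- `ĉ` is constant on the cosets of `U₂` -/
lemma h2psmInd_mul (σ s : G) (hs : s ∈ U₂) (ω₂ : G ⧸ U₂) :
    h2psmInd p U₂ (σ * s) ω₂ = h2psmInd p U₂ σ ω₂ := by
  unfold h2psmInd
  rw [QuotientGroup.mk_mul_of_mem σ hs]

omit [Finite (G ⧸ U₂)] in
/-- the cocycle relation for the indicator -/
lemma h2psmInd_cocycle (σ τ : G) (ω₂ : G ⧸ U₂) :
    h2psmInd p U₂ τ (σ⁻¹ • ω₂) - h2psmInd p U₂ (σ * τ) ω₂ + h2psmInd p U₂ σ ω₂ = 0 := by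
  classical
  unfold h2psmInd
  have h1 : (σ⁻¹ • ω₂ = (τ : G ⧸ U₂)) ↔ ω₂ = ((σ * τ : G) : G ⧸ U₂) := by
    rw [inv_smul_eq_iff, MulAction.Quotient.smul_mk, smul_eq_mul]
  have h2 : (σ⁻¹ • ω₂ = ((1 : G) : G ⧸ U₂)) ↔ ω₂ = (σ : G ⧸ U₂) := by
    rw [inv_smul_eq_iff, MulAction.Quotient.smul_mk, smul_eq_mul, mul_one]
  simp only [h1, h2]
  ring

/-- the cocycle `ĉ`, `ĉ(σ)(m)(ω, ω₂) = m(ω) ([ω₂ = σ̄] - [ω₂ = 1̄])` -/
def h2psmCh (σ : G) : (h2pM U).V →+ ↥(h2psmSub p U U₂) where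
  toFun m := ⟨fun x => ((MonoidAlgebra.coeff (m : MonoidAlgebra ℤ (G ⧸ U)) x.1 : ℤ) : ZMod p) * h2psmInd p U₂ σ x.2, by
    intro ω
    show ∑ᶠ ω₂ : G ⧸ U₂, ((MonoidAlgebra.coeff (m : MonoidAlgebra ℤ (G ⧸ U)) ω : ℤ) : ZMod p) * h2psmInd p U₂ σ ω₂ = 0
    rw [← mul_finsum' _ _ (Set.toFinite _), h2psm_finsum_ind, mul_zero]⟩
  map_zero' := by
    apply Subtype.ext
    funext x
    show ((MonoidAlgebra.coeff (0 : MonoidAlgebra ℤ (G ⧸ U)) x.1 : ℤ) : ZMod p) * h2psmInd p U₂ σ x.2 = 0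
    simp
  map_add' m m' := by
    apply Subtype.ext
    funext x
    show ((MonoidAlgebra.coeff (m + m' : MonoidAlgebra ℤ (G ⧸ U)) x.1 : ℤ) : ZMod p) * h2psmInd p U₂ σ x.2 =
      ((MonoidAlgebra.coeff (m : MonoidAlgebra ℤ (G ⧸ U)) x.1 : ℤ) : ZMod p) * h2psmInd p U₂ σ x.2 +
        ((MonoidAlgebra.coeff (m' : MonoidAlgebra ℤ (G ⧸ U)) x.1 : ℤ) : ZMod p) * h2psmInd p U₂ σ x.2
    rw [MonoidAlgebra.coeff_add, Finsupp.add_apply, Int.cast_add, add_mul]

lemma h2psmCh_apply (σ : G) (m : (h2pM U).V) (x : (G ⧸ U) × (G ⧸ U₂)) :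
    ((h2psmCh p U U₂ σ m : ↥(h2psmSub p U U₂)) : h2psmFun p U U₂) x =
      ((MonoidAlgebra.coeff (m : MonoidAlgebra ℤ (G ⧸ U)) x.1 : ℤ) : ZMod p) * h2psmInd p U₂ σ x.2 := rfl

/-- `A'` is killed by `p` -/
lemma h2psm_p_smul (a : ↥(h2psmSub p U U₂)) : p • a = 0 := by
  apply Subtype.ext
  funext x
  show p • ((a : h2psmFun p U U₂) x) = 0
  rw [nsmul_eq_mul, ZMod.natCast_self, zero_mul]

/-- `ĉ` is constant on the cosets of `U₂` -/
lemma h2psmCh_mul (σ s : G) (hs : s ∈ U₂) : h2psmCh p U U₂ (σ * s) = h2psmCh p U U₂ σ := by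
  refine AddMonoidHom.ext (fun m => ?_)
  apply Subtype.ext
  funext x
  rw [h2psmCh_apply, h2psmCh_apply, h2psmInd_mul p U₂ σ s hs]

/-- `ĉ` is a cocycle -/
lemma h2psmCh_cocycle (s : G × G) :
    dOne (h2pM U) (h2psmRep p U U₂) (h2psmCh p U U₂) s = 0 := by
  obtain ⟨σ, τ⟩ := s
  refine AddMonoidHom.ext (fun m => ?_)
  apply Subtype.ext
  funext x
  show ((h2psmRep p U U₂).ρ σ (h2psmCh p U U₂ τ ((h2pM U).ρ σ⁻¹ m)) : h2psmFun p U U₂) x -
      ((h2psmCh p U U₂ (σ * τ) m : ↥(h2psmSub p U U₂)) : h2psmFun p U U₂) x +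
      ((h2psmCh p U U₂ σ m : ↥(h2psmSub p U U₂)) : h2psmFun p U U₂) x = 0
  rw [h2psmRep_ρ_apply, h2psmCh_apply, h2psmCh_apply, h2psmCh_apply]
  have h1 : MonoidAlgebra.coeff ((h2pM U).ρ σ⁻¹ m : MonoidAlgebra ℤ (G ⧸ U)) (σ⁻¹ • x).1 =
      MonoidAlgebra.coeff (m : MonoidAlgebra ℤ (G ⧸ U)) x.1 := by
    show MonoidAlgebra.coeff (Representation.ofMulAction ℤ G (G ⧸ U) σ⁻¹ m) (σ⁻¹ • x.1) = _
    rw [Representation.coeff_ofMulAction, inv_inv, smul_inv_smul]
  rw [h1]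
  have h2 := h2psmInd_cocycle p U₂ σ τ x.2
  have h3 : (σ⁻¹ • x).2 = σ⁻¹ • x.2 := rfl
  rw [h3]
  linear_combination ((MonoidAlgebra.coeff (m : MonoidAlgebra ℤ (G ⧸ U)) x.1 : ℤ) : ZMod p) * h2

/-- a normal subgroup `U₂ ≤ U` acts trivially on `A'` -/
lemma h2psm_triv [U.Normal] [U₂.Normal] (hle : U₂ ≤ U) (s : G) (hs : s ∈ U₂)
    (a : ↥(h2psmSub p U U₂)) : (h2psmRep p U U₂).ρ s a = a := by
  apply Subtype.ext
  funext x
  rw [h2psmRep_ρ_apply]
  have h1 : s⁻¹ • x = x := by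
    apply Prod.ext
    · exact h2psm_smul_eq U s⁻¹ (U.inv_mem (hle hs)) x.1
    · exact h2psm_smul_eq U₂ s⁻¹ (U₂.inv_mem hs) x.2
  rw [h1]

/-- `A'` is finite -/
lemma h2psm_finite [Fact p.Prime] [Finite (G ⧸ U)] : Finite ↥(h2psmSub p U U₂) := by
  haveI : NeZero p := ⟨(Fact.out : p.Prime).ne_zero⟩
  haveI : Finite (h2psmFun p U U₂) := Pi.finite
  exact Subtype.finite

end Module

/-! ### The trace of `ĉ` is not a local coboundary -/

section Main

variable {G : Type} [Group G] (p : ℕ) [Fact p.Prime] (U U₂ : Subgroup G)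

/-- the coefficients of `N_Ω` are `1` -/
lemma h2psm_coeff_N [Finite (G ⧸ U)] (ω : G ⧸ U) :
    MonoidAlgebra.coeff (h2pN U : MonoidAlgebra ℤ (G ⧸ U)) ω = 1 := by
  classical
  letI : Fintype (G ⧸ U) := Fintype.ofFinite _
  unfold h2pN
  rw [finsum_eq_sum_of_fintype, MonoidAlgebra.coeff_sum, Finsupp.finsetSum_apply]
  simp [MonoidAlgebra.coeff_single, Finsupp.single_apply]

variable [U.Normal] [U₂.Normal] [Finite (G ⧸ U)] [Finite (G ⧸ U₂)]

/-- **the trace of `ĉ` is not a coboundary on `Γ`** if `p ∣ [r⁻¹U : r⁻¹U₂]` -/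
theorem h2psm_not_cob {Γ : Type} [Group Γ] (r : Γ →* G)
    (hp : p ∣ (U₂.comap r).relIndex (U.comap r)) :
    (fun d : Γ => h2psmCh p U U₂ (r d) (h2pN U)) ∉
      coboundaries₁ (Rep.res r (h2psmRep p U U₂)) := by
  classical
  rintro ⟨F, hF⟩
  letI : Fintype (G ⧸ U₂) := Fintype.ofFinite _
  -- the coboundary relation, pointwise
  have hF1 : ∀ (d : Γ) (x : (G ⧸ U) × (G ⧸ U₂)),
      (F : h2psmFun p U U₂) ((r d)⁻¹ • x) - (F : h2psmFun p U U₂) x =
        h2psmInd p U₂ (r d) x.2 := by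
    intro d x
    have h1 := congrFun hF d
    have h2 : (h2psmRep p U U₂).ρ (r d) F - F = h2psmCh p U U₂ (r d) (h2pN U) := h1
    have h3 := congrFun (congrArg (fun a : ↥(h2psmSub p U U₂) => (a : h2psmFun p U U₂)) h2) x
    have h4 : ((h2psmRep p U U₂).ρ (r d) F : h2psmFun p U U₂) x - (F : h2psmFun p U U₂) x =
        ((h2psmCh p U U₂ (r d) (h2pN U) : ↥(h2psmSub p U U₂)) : h2psmFun p U U₂) x := h3
    rw [h2psmRep_ρ_apply, h2psmCh_apply, h2psm_coeff_N, Int.cast_one, one_mul] at h4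
    exact h4
  -- the invariant function
  let Z : (G ⧸ U) × (G ⧸ U₂) → ZMod p := fun x =>
    (F : h2psmFun p U U₂) x - (if x.2 = ((1 : G) : G ⧸ U₂) then 1 else 0)
  have hZ : ∀ (d : Γ) (x : (G ⧸ U) × (G ⧸ U₂)), Z ((r d)⁻¹ • x) = Z x := by
    intro d x
    have h1 := hF1 d x
    have h2 : ((r d)⁻¹ • x).2 = ((1 : G) : G ⧸ U₂) ↔ x.2 = ((r d : G) : G ⧸ U₂) := by
      show (r d)⁻¹ • x.2 = _ ↔ _
      rw [inv_smul_eq_iff, MulAction.Quotient.smul_mk, smul_eq_mul, mul_one]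
    show (F : h2psmFun p U U₂) ((r d)⁻¹ • x) - (if ((r d)⁻¹ • x).2 = ((1 : G) : G ⧸ U₂) then 1
      else 0) = (F : h2psmFun p U U₂) x - (if x.2 = ((1 : G) : G ⧸ U₂) then 1 else 0)
    unfold h2psmInd at h1
    simp only [h2]
    linear_combination h1
  let ψ : G ⧸ U₂ → ZMod p := fun ω₂ => Z (((1 : G) : G ⧸ U), ω₂)
  letI : MulAction ↥(U.comap r) (G ⧸ U₂) :=
    MulAction.compHom (G ⧸ U₂) (r.comp (U.comap r).subtype)
  have hsmul : ∀ (h : ↥(U.comap r)) (ω₂ : G ⧸ U₂), h • ω₂ = r (h : Γ) • ω₂ := fun _ _ => rfl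
  have hinv : ∀ (h : ↥(U.comap r)) (ω₂ : G ⧸ U₂), ψ (h • ω₂) = ψ ω₂ := by
    intro h ω₂
    have h1 := hZ ((h : Γ)⁻¹) (((1 : G) : G ⧸ U), ω₂)
    rw [map_inv, inv_inv] at h1
    have h2 : r (h : Γ) • ((((1 : G) : G ⧸ U), ω₂) : (G ⧸ U) × (G ⧸ U₂)) =
        (((1 : G) : G ⧸ U), r (h : Γ) • ω₂) := by
      apply Prod.ext
      · exact h2psm_smul_eq U (r (h : Γ)) (Subgroup.mem_comap.1 h.2) _
      · rfl
    rw [h2] at h1
    rw [hsmul]
    exact h1
  have hidx : ∀ ω₂ : G ⧸ U₂, p ∣ (MulAction.stabilizer ↥(U.comap r) ω₂).index := by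
    intro ω₂
    have h1 : MulAction.stabilizer ↥(U.comap r) ω₂ = (U₂.comap r).subgroupOf (U.comap r) := by
      ext h
      rw [MulAction.mem_stabilizer_iff, Subgroup.mem_subgroupOf, Subgroup.mem_comap, hsmul,
        h2psm_smul_eq_iff]
    rw [h1]
    exact hp
  have hsum := h2psm_sum_eq_zero p ψ hinv hidx
  have hsum2 : ∑ ω₂ : G ⧸ U₂, ψ ω₂ = -1 := by
    have h1 : ∑ ω₂ : G ⧸ U₂, (F : h2psmFun p U U₂) (((1 : G) : G ⧸ U), ω₂) = 0 := by
      rw [← finsum_eq_sum_of_fintype]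
      exact F.2 _
    show ∑ ω₂ : G ⧸ U₂, ((F : h2psmFun p U U₂) (((1 : G) : G ⧸ U), ω₂) -
      (if ω₂ = ((1 : G) : G ⧸ U₂) then 1 else 0)) = -1
    rw [Finset.sum_sub_distrib, h1, Finset.sum_ite_eq' Finset.univ, if_pos (Finset.mem_univ _),
      zero_sub]
  rw [hsum] at hsum2
  have h1 : (1 : ZMod p) = 0 := by linear_combination hsum2
  exact one_ne_zero h1

end Main

/-! ### The piece -/

/-- **h2p-seedmod.** -/
theorem stmtH2pSeedMod : StmtH2pSeedMod := by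
  intro p _ G _ ι _ Gloc _ D hPD U hUn hU v
  obtain ⟨U₂, hU₂, hle, hU₂n, hp⟩ := hPD v U hU
  haveI := hUn
  haveI := hU₂n
  haveI : U.FiniteIndex := D.𝒯.finiteIndex U hU
  haveI : U₂.FiniteIndex := D.𝒯.finiteIndex U₂ hU₂
  haveI : Finite (G ⧸ U) := Subgroup.finite_quotient_of_finiteIndex
  haveI : Finite (G ⧸ U₂) := Subgroup.finite_quotient_of_finiteIndex
  refine ⟨h2psmRep p U U₂, h2psm_finite p U U₂, h2psmCh p U U₂, h2psm_p_smul p U U₂,
    ⟨U₂, hU₂, hU₂n, fun s hs a => h2psm_triv p U U₂ hle s hs a⟩,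
    ⟨U₂, hU₂, fun g s hs => h2psmCh_mul p U U₂ g s hs⟩, h2psmCh_cocycle p U U₂,
    h2psm_not_cob p U U₂ (D.r v) hp⟩

end Fermat.Agent.TW.F

end


end ZBTW_014_24

/-! ### bundled: `Fermat.Agent.TW.F.H2pProj` -/
section ZBTW_014_25
/-
TW-F, block F-h2perm, piece h2p-proj (helper88): projection onto the part supported at a place.

For a place `w` of `U` over `v` (an orbit of `G_v` on `G/U`) let `m_w` be the indicator function
of `w` (a place function) and `P_w := P_{m_w}` (h2p-mul).  For `F` supported at `v`,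
`F = Σ_w P_w F` (finitely many places).  Hence a `p`-torsion level 2-cocycle `Y` supported at `v`
with `π ∘ Y(N_Ω)` not a level coboundary has, for some place `w`, the same property for
`P_w ∘ Y`, which is supported at `w`.

`stmtH2pProj_of : StmtH2pMul → StmtH2pProj`, `stmtH2pProj : StmtH2pProj`.
-/

set_option autoImplicit false

noncomputable section

namespace Fermat.Agent.TW.F

open CategoryTheory groupCohomology Module Fermat.Agent.PT Fermat.Agent.PT.F Fermat.Agent.TW.E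

open scoped Classical

attribute [local instance 1100] Rep.hV2

variable {p : ℕ} {G : Type} [Group G] {ι : Type} {Gloc : ι → Type} [∀ v, Group (Gloc v)]
  (D : PTDatum p G ι Gloc) (U : Subgroup G) (v : ι)

/-- "same place over `v`": the orbit relation of `G_v` on `G/U` -/
def h2pprSetoid : Setoid (G ⧸ U) where
  r ω ω' := ∃ d : Gloc v, ω' = (D.r v d) • ω
  iseqv :=
    ⟨fun ω => ⟨1, by rw [map_one, one_smul]⟩,
      fun {ω ω'} h => by
        obtain ⟨d, h⟩ := h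
        exact ⟨d⁻¹, by rw [h, map_inv, inv_smul_smul]⟩,
      fun {ω ω' ω''} h h' => by
        obtain ⟨d, h⟩ := h
        obtain ⟨d', h'⟩ := h'
        exact ⟨d' * d, by rw [h', h, map_mul, mul_smul]⟩⟩

/-- the places of `U` over `v` -/
abbrev h2pprQ : Type := Quotient (h2pprSetoid D U v)

/-- the place of `g U` -/
def h2pprCls (g : G) : h2pprQ D U v := Quotient.mk (h2pprSetoid D U v) (g : G ⧸ U)

lemma h2pprCls_left (d : Gloc v) (g : G) :
    h2pprCls D U v (D.r v d * g) = h2pprCls D U v g := by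
  apply Quotient.sound
  refine ⟨d⁻¹, ?_⟩
  show ((g : G) : G ⧸ U) = (D.r v d⁻¹) • (((D.r v d * g : G)) : G ⧸ U)
  rw [map_inv]
  show _ = (((D.r v d)⁻¹ * (D.r v d * g) : G) : G ⧸ U)
  rw [inv_mul_cancel_left]

lemma h2pprCls_right (g u : G) (hu : u ∈ U) :
    h2pprCls D U v (g * u) = h2pprCls D U v g := by
  unfold h2pprCls
  rw [QuotientGroup.mk_mul_of_mem g hu]

lemma h2pprCls_eq {g g₀ : G} (h : h2pprCls D U v g = h2pprCls D U v g₀) :
    ∃ d : Gloc v, ∃ u ∈ U, g = D.r v d * g₀ * u := by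
  obtain ⟨d, hd⟩ := Quotient.exact h.symm
  have h1 : ((g : G) : G ⧸ U) = ((D.r v d * g₀ : G) : G ⧸ U) := hd
  have h2 : (D.r v d * g₀)⁻¹ * g ∈ U := QuotientGroup.eq.1 h1.symm
  exact ⟨d, _, h2, by group⟩

/-- a representative of a place -/
def h2pprRep (c : h2pprQ D U v) : G := (Quotient.out c).out

lemma h2pprCls_rep (c : h2pprQ D U v) : h2pprCls D U v (h2pprRep D U v c) = c := by
  unfold h2pprCls h2pprRep
  rw [QuotientGroup.out_eq']
  exact Quotient.out_eq c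

/-- the indicator function of a place -/
def h2pprInd (c : h2pprQ D U v) : ι → G → ℕ :=
  fun v' g => if v' = v ∧ h2pprCls D U v g = c then 1 else 0

lemma h2pprInd_isPlaceFn (c : h2pprQ D U v) : IsPlaceFn D U (h2pprInd D U v c) := by
  refine ⟨fun v' d g => ?_, fun v' g u hu => ?_⟩
  · by_cases hv : v' = v
    · subst hv
      unfold h2pprInd
      rw [h2pprCls_left]
    · unfold h2pprInd
      rw [if_neg (fun h => hv h.1), if_neg (fun h => hv h.1)]
  · unfold h2pprInd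
    rw [h2pprCls_right D U v g u hu]

lemma h2pprInd_ne_zero {c : h2pprQ D U v} {v' : ι} {g : G}
    (h : h2pprInd D U v c v' g ≠ 0) : v' = v ∧ h2pprCls D U v g = c := by
  unfold h2pprInd at h
  by_contra hc
  rw [if_neg hc] at h
  exact h rfl

lemma h2pprInd_sum [Fintype (h2pprQ D U v)] (g : G) :
    ∑ c : h2pprQ D U v, h2pprInd D U v c v g = 1 := by
  unfold h2pprInd
  simp only [true_and]
  rw [Finset.sum_ite_eq Finset.univ (h2pprCls D U v g) (fun _ => (1 : ℕ))]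
  simp

/-- push-forward of a `p`-torsion level cocycle along an additive conjugation-equivariant map -/
lemma h2ppr_push {M X : Rep.{0} ℤ G} {𝒯 : Tower G}
    (P : (M.V →+ X.V) →+ (M.V →+ X.V))
    (hP : ∀ (σ : G) (F : M.V →+ X.V), P (conjAdd M X σ F) = conjAdd M X σ (P F))
    {Y : G × G → (M.V →+ X.V)} (hY : IsPTorsCoc 𝒯 p M X Y) :
    IsPTorsCoc 𝒯 p M X (fun s => P (Y s)) := by
  obtain ⟨hlev, hcoc, t, ht, htY⟩ := hY
  refine ⟨hlev.comp P, fun s => ?_, fun σ => P (t σ), ht.comp P, fun s => ?_⟩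
  · have h1 := congrArg P (hcoc s)
    rw [map_zero] at h1
    rw [← h1]
    show conjAdd M X s.1 (P (Y (s.2.1, s.2.2))) - P (Y (s.1 * s.2.1, s.2.2))
        + P (Y (s.1, s.2.1 * s.2.2)) - P (Y (s.1, s.2.1)) =
      P (conjAdd M X s.1 (Y (s.2.1, s.2.2)) - Y (s.1 * s.2.1, s.2.2)
        + Y (s.1, s.2.1 * s.2.2) - Y (s.1, s.2.1))
    rw [map_sub, map_add, map_sub, hP]
  · have h1 := congrArg P (htY s)
    rw [map_nsmul] at h1
    rw [h1]
    show P (conjAdd M X s.1 (t s.2) - t (s.1 * s.2) + t s.1) =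
      conjAdd M X s.1 (P (t s.2)) - P (t (s.1 * s.2)) + P (t s.1)
    rw [map_add, map_sub, hP]

/-- **h2p-proj** from **h2p-mul** -/
theorem stmtH2pProj_of (hMul : StmtH2pMul) : StmtH2pProj := by
  intro p _ G _ ι _ Gloc _ D U hUn hU v Y hY hsupp hnc
  have hfi : U.FiniteIndex := D.𝒯.finiteIndex U hU
  have hfin : Finite (G ⧸ U) := Subgroup.finite_quotient_of_finiteIndex
  let _ : Fintype (G ⧸ U) := Fintype.ofFinite _
  have hfinQ : Finite (h2pprQ D U v) := Quotient.finite _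
  let _ : Fintype (h2pprQ D U v) := Fintype.ofFinite _
  choose P hP1 hP2 using fun c : h2pprQ D U v =>
    hMul p G ι Gloc D U hUn hU (h2pprInd D U v c) (h2pprInd_isPlaceFn D U v c)
  by_contra hcon
  push Not at hcon
  -- every projected cocycle has trivial trace
  have hall : ∀ c : h2pprQ D U v,
      (fun s => D.π.hom (P c (Y s) (h2pN U))) ∈ levCoboundaries₂ D.𝒯 D.C := by
    intro c
    refine hcon (h2pprRep D U v c) (fun s => P c (Y s)) (h2ppr_push (P c) (hP2 c) hY) ?_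
    intro s ω v' g hne
    rw [hP1 c (Y s) ω v' g] at hne
    have h0 : h2pprInd D U v c v' (g * ω.out) ≠ 0 := by
      intro h0
      rw [h0, zero_smul] at hne
      exact hne rfl
    obtain ⟨hv, hcls⟩ := h2pprInd_ne_zero D U v h0
    refine ⟨hv, ?_⟩
    rw [← h2pprCls_rep D U v c] at hcls
    exact h2pprCls_eq D U v hcls
  -- the decomposition `F = Σ_c P_c F` for `F` supported at `v`
  have hdec : ∀ s, Y s = ∑ c : h2pprQ D U v, P c (Y s) := by
    intro s
    apply chl_ext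
    intro ω
    rw [AddMonoidHom.finsetSum_apply]
    apply Subtype.ext
    funext v' g
    have h1 := AddSubmonoidClass.coe_finsetSum (S := semilocalSub D.𝒯 D.r D.Jloc)
      (fun c : h2pprQ D U v => P c (Y s) (h2pE U ω)) Finset.univ
    show (Y s (h2pE U ω)).1 v' g =
      ((∑ c, P c (Y s) (h2pE U ω) : ↥(semilocalSub D.𝒯 D.r D.Jloc)) :
        ∀ v, G → (D.Jloc v).V) v' g
    rw [h1, Finset.sum_apply, Finset.sum_apply]
    simp only [hP1]
    by_cases hv : v' = v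
    · subst hv
      rw [← Finset.sum_smul, h2pprInd_sum, one_smul]
    · rw [hsupp s (h2pE U ω) v' g hv]
      simp
  apply hnc
  have hsum : (fun s => D.π.hom (Y s (h2pN U))) =
      ∑ c : h2pprQ D U v, (fun s => D.π.hom (P c (Y s) (h2pN U))) := by
    funext s
    rw [Finset.sum_apply]
    conv_lhs => rw [hdec s]
    rw [AddMonoidHom.finsetSum_apply, map_sum]
  rw [hsum]
  exact Submodule.sum_mem _ fun c _ => hall c

/-- **h2p-proj** -/
theorem stmtH2pProj : StmtH2pProj := stmtH2pProj_of stmtH2pMul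

end Fermat.Agent.TW.F

end


end ZBTW_014_25

/-! ### bundled: `Fermat.Agent.TW.E.BrJLocPlan` -/
section ZBTW_014_26
/-
TW-E / E-cyc / K-BrJ, LOCAL piece (owner helper55) — INTERFACE.
`StmtBrJLoc`: for a place `v` and a normal global level `U`, with `K = r_v⁻¹ U ≤ G_v`:
`H²_lev(K, J_v)[p] = ℤ/p · [u|_K]` for a homogeneous level 2-cocycle `u` defined (and equivariant)
on ALL of `G_v`.  Homogeneous cochains, as in `StmtJ2Loc` (TW/E/J2DivPlan.lean); "level" means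
right-invariant under `r_v⁻¹ U'` for a global level `U'`.
Used by the core of K-BrJ (helper11, TW/E/BrJCore.lean).  Proof: TW/E/BrJLoc.lean.
-/

set_option autoImplicit false

noncomputable section

namespace Fermat.Agent.TW.E

open CategoryTheory groupCohomology Fermat.Agent.PT Fermat.Agent.PT.F

attribute [local instance 1100] Rep.hV2

variable {p : ℕ} {G : Type} [Group G] {ι : Type} {Gloc : ι → Type} [∀ v, Group (Gloc v)]

/-- `c : K³ → J_v` is the homogeneous coboundary of a `K`-equivariant 1-cochain `t : K² → J_v`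
which is right-invariant under a pulled-back global level. -/
def BrjlCob (D : PTDatum p G ι Gloc) (v : ι) (K : Subgroup (Gloc v))
    (c : K → K → K → (D.Jloc v).V) : Prop :=
  ∃ t : K → K → (D.Jloc v).V,
    (∀ k k₀ k₁ : K, t (k * k₀) (k * k₁) = (D.Jloc v).ρ (k : Gloc v) (t k₀ k₁)) ∧
    (∃ U' ∈ D.𝒯.lev, ∀ k₀ k₁ s₀ s₁ : K, D.r v s₀ ∈ U' → D.r v s₁ ∈ U' →
      t (k₀ * s₀) (k₁ * s₁) = t k₀ k₁) ∧
    ∀ k₀ k₁ k₂ : K, c k₀ k₁ k₂ = t k₁ k₂ - t k₀ k₂ + t k₀ k₁

/-- **K-BrJ / LOC.**  `K = r_v⁻¹ U`, `U` a normal global level.  There is a homogeneous 2-cocycle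
`u : G_v³ → J_v`, `G_v`-equivariant, right-invariant under `r_v⁻¹ U₁` (`U₁ ≤ U` a normal global
level), whose restriction to `K³`
(1) is killed by `p` up to a level coboundary,
(3) is not a level coboundary,
(4) generates: every `K`-equivariant level 2-cocycle `c` on `K` with `p c` a level coboundary is
`a u + ` a level coboundary.
(Proof: `U₁` from `HasPDepthGlob`; `Γ₁ = G_v ⧸ r_v⁻¹ U₁` with the `p`-fundamental class `u₀` of
`cm_loc`; `u` represents `(m/p) u₀`, `m` the order of `res_{K̄} u₀`; (4) is `StmtH2pCyclic` at a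
common finite level, (3) is `StmtInflInjFin`.) -/
def StmtBrJLoc : Prop :=
  ∀ (p : ℕ) [Fact p.Prime] (G : Type) [Group G] (ι : Type) [Fintype ι] (Gloc : ι → Type)
    [∀ v, Group (Gloc v)] (D : PTDatum p G ι Gloc), HasPDepthGlob D →
    ∀ (v : ι) (U : Subgroup G), U ∈ D.𝒯.lev → U.Normal →
    ∃ u : Gloc v → Gloc v → Gloc v → (D.Jloc v).V,
      (∀ d d₀ d₁ d₂ : Gloc v, u (d * d₀) (d * d₁) (d * d₂) = (D.Jloc v).ρ d (u d₀ d₁ d₂)) ∧
      (∀ d₀ d₁ d₂ d₃ : Gloc v, u d₁ d₂ d₃ - u d₀ d₂ d₃ + u d₀ d₁ d₃ - u d₀ d₁ d₂ = 0) ∧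
      (∃ U₁ ∈ D.𝒯.lev, U₁ ≤ U ∧ U₁.Normal ∧ ∀ d₀ d₁ d₂ s₀ s₁ s₂ : Gloc v,
        D.r v s₀ ∈ U₁ → D.r v s₁ ∈ U₁ → D.r v s₂ ∈ U₁ →
        u (d₀ * s₀) (d₁ * s₁) (d₂ * s₂) = u d₀ d₁ d₂) ∧
      BrjlCob D v (U.comap (D.r v)) (fun k₀ k₁ k₂ => p • u k₀ k₁ k₂) ∧
      ¬ BrjlCob D v (U.comap (D.r v)) (fun k₀ k₁ k₂ => u k₀ k₁ k₂) ∧
      ∀ c : ↥(U.comap (D.r v)) → ↥(U.comap (D.r v)) → ↥(U.comap (D.r v)) → (D.Jloc v).V,
        (∀ k k₀ k₁ k₂ : ↥(U.comap (D.r v)),
          c (k * k₀) (k * k₁) (k * k₂) = (D.Jloc v).ρ (k : Gloc v) (c k₀ k₁ k₂)) →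
        (∀ k₀ k₁ k₂ k₃ : ↥(U.comap (D.r v)),
          c k₁ k₂ k₃ - c k₀ k₂ k₃ + c k₀ k₁ k₃ - c k₀ k₁ k₂ = 0) →
        (∃ U₂ ∈ D.𝒯.lev, ∀ k₀ k₁ k₂ s₀ s₁ s₂ : ↥(U.comap (D.r v)),
          D.r v s₀ ∈ U₂ → D.r v s₁ ∈ U₂ → D.r v s₂ ∈ U₂ →
          c (k₀ * s₀) (k₁ * s₁) (k₂ * s₂) = c k₀ k₁ k₂) →
        BrjlCob D v (U.comap (D.r v)) (fun k₀ k₁ k₂ => p • c k₀ k₁ k₂) →
        ∃ a : ℕ, BrjlCob D v (U.comap (D.r v)) (fun k₀ k₁ k₂ => c k₀ k₁ k₂ - a • u k₀ k₁ k₂)

end Fermat.Agent.TW.E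

end


end ZBTW_014_26
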