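/- GENERATED FILE (helper35, build-time optimisation, NOTES/ZB.md): verbatim concatenation of the modules
   Fermat.Agent.PT.F.ShapiroHtpy
   Fermat.Agent.TW.F.H2pShInj
   Fermat.Agent.TW.E.C2SurjShinj
   Fermat.Agent.TW.E.Shapiro3
   Do not edit; do not import together with these modules. -/
import Mathlib
import Fermat.Agent.ZB.TW_014

/-! ### bundled: `Fermat.Agent.PT.F.ShapiroHtpy` -/
section ZBPT_085_0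
/-
PT-F §6 inputs, helper for In2a (helper32): the explicit Shapiro homotopy in degree 2, in
HOMOGENEOUS form, for an abstract group homomorphism `r : H → G` and a normal subgroup `U` of `G`
(pure group theory: no representations).

`shapiro₂`: an `H`-equivariant, right-`U`-invariant homogeneous 2-cocycle `Φ : G³ → X` whose
restriction to `r(H)³` is `dΨ` (`Ψ` equivariant, right-`r⁻¹U`-invariant) is `dΘ` with `Θ`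
equivariant and right-`U`-invariant:
`Θ(g₀, g₁) = Ψ(πg₀, πg₁) + Φ(rπg₀, g₀, g₁) - Φ(rπg₀, rπg₁, g₁)`, `π : G → H` a choice of
`H`-components with respect to representatives of `r(H) \ G / U`.
Dictionary for In2a: `Φ(g₀,g₁,g₂) = ev_v ∘ (g₀ • y(g₀⁻¹g₁, g₁⁻¹g₂))`, `Ψ(d₀,d₁) = d₀ • t_v(d₀⁻¹d₁)`,
`T(σ)(m)(v)(g) = Θ_v(g, gσ)(g m)`.
-/

set_option autoImplicit false

namespace Fermat.Agent.PT.F.ShapiroHtpy

variable {G H X : Type} [Group G] [Group H] [AddCommGroup X]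

/-- the orbit relation of `H × U` acting on `G` by `g ↦ r(d) g u` -/
def dcSetoid (r : H →* G) (U : Subgroup G) : Setoid G where
  r g g' := ∃ (d : H) (u : G), u ∈ U ∧ g' = r d * g * u
  iseqv :=
    { refl := fun g => ⟨1, 1, U.one_mem, by simp⟩
      symm := by
        rintro g g' ⟨d, u, hu, rfl⟩
        exact ⟨d⁻¹, u⁻¹, U.inv_mem hu, by simp [mul_assoc]⟩
      trans := by
        rintro g g' g'' ⟨d, u, hu, rfl⟩ ⟨d', u', hu', rfl⟩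
        exact ⟨d' * d, u * u', U.mul_mem hu hu', by simp [mul_assoc]⟩ }

/-- A choice of `H`-components: `π : G → H` with `π (r d · g · u) ∈ d · π g · r⁻¹(U)`. -/
lemma exists_proj (r : H →* G) (U : Subgroup G) [hU : U.Normal] :
    ∃ π : G → H, ∀ (d : H) (g u : G), u ∈ U → r ((d * π g)⁻¹ * π (r d * g * u)) ∈ U := by
  classical
  let s := dcSetoid r U
  let ρ : G → G := fun g => (Quotient.out (s := s) (Quotient.mk s g))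
  have hρ : ∀ g, ∃ (d : H) (u : G), u ∈ U ∧ g = r d * ρ g * u := fun g =>
    Quotient.exact (s := s) (Quotient.out_eq (s := s) (Quotient.mk s g))
  choose π u hu hπ using hρ
  refine ⟨π, fun d g u₀ hu₀ => ?_⟩
  have hcls : ρ (r d * g * u₀) = ρ g := by
    have : Quotient.mk s (r d * g * u₀) = Quotient.mk s g :=
      Quotient.sound (s := s) (Setoid.symm' s ⟨d, u₀, hu₀, rfl⟩)
    simp only [ρ, this]
  have h1 := hπ (r d * g * u₀)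
  rw [hcls] at h1
  have h2 := hπ g
  -- r(π g') ρ u₂ = r d r(π g) ρ u₁ u₀
  have h3 : r (π (r d * g * u₀)) * ρ g * u (r d * g * u₀) = r d * (r (π g) * ρ g * u g) * u₀ := by
    rw [← h1, ← h2]
  have h4 : r ((d * π g)⁻¹ * π (r d * g * u₀)) =
      ρ g * (u g * u₀ * (u (r d * g * u₀))⁻¹) * (ρ g)⁻¹ := by
    rw [map_mul, map_inv, map_mul]
    have h5 : r (π (r d * g * u₀)) =
        r d * (r (π g) * ρ g * u g) * u₀ * (u (r d * g * u₀))⁻¹ * (ρ g)⁻¹ := by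
      rw [← h3]
      group
    rw [h5]
    group
  rw [h4]
  exact hU.conj_mem _ (U.mul_mem (U.mul_mem (hu g) hu₀) (U.inv_mem (hu _))) _

/-- **Explicit Shapiro homotopy in degree 2** (homogeneous form). -/
theorem shapiro₂ (r : H →* G) (act : H → X →+ X) (U : Subgroup G) [U.Normal]
    (Φ : G → G → G → X) (Ψ : H → H → X)
    (hΦ1 : ∀ d g₀ g₁ g₂, Φ (r d * g₀) (r d * g₁) (r d * g₂) = act d (Φ g₀ g₁ g₂))
    (hΦ2 : ∀ g₀ g₁ g₂ g₃, Φ g₁ g₂ g₃ - Φ g₀ g₂ g₃ + Φ g₀ g₁ g₃ - Φ g₀ g₁ g₂ = 0)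
    (hΦ3 : ∀ g₀ g₁ g₂ u₀ u₁ u₂, u₀ ∈ U → u₁ ∈ U → u₂ ∈ U →
      Φ (g₀ * u₀) (g₁ * u₁) (g₂ * u₂) = Φ g₀ g₁ g₂)
    (hΨ1 : ∀ d d₀ d₁, Ψ (d * d₀) (d * d₁) = act d (Ψ d₀ d₁))
    (hΨ3 : ∀ d₀ d₁ w₀ w₁, r w₀ ∈ U → r w₁ ∈ U → Ψ (d₀ * w₀) (d₁ * w₁) = Ψ d₀ d₁)
    (hΦΨ : ∀ d₀ d₁ d₂, Φ (r d₀) (r d₁) (r d₂) = Ψ d₁ d₂ - Ψ d₀ d₂ + Ψ d₀ d₁) :
    ∃ Θ : G → G → X,
      (∀ d g₀ g₁, Θ (r d * g₀) (r d * g₁) = act d (Θ g₀ g₁)) ∧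
      (∀ g₀ g₁ u₀ u₁, u₀ ∈ U → u₁ ∈ U → Θ (g₀ * u₀) (g₁ * u₁) = Θ g₀ g₁) ∧
      (∀ g₀ g₁ g₂, Φ g₀ g₁ g₂ = Θ g₁ g₂ - Θ g₀ g₂ + Θ g₀ g₁) := by
  obtain ⟨π, hπ⟩ := exists_proj r U
  -- `π (r d g u) = d π(g) w` with `r w ∈ U`
  have hπ' : ∀ (d : H) (g u : G), u ∈ U → ∃ w : H, r w ∈ U ∧ π (r d * g * u) = d * π g * w :=
    fun d g u hu => ⟨(d * π g)⁻¹ * π (r d * g * u), hπ d g u hu, by group⟩
  refine ⟨fun g₀ g₁ => Ψ (π g₀) (π g₁) + Φ (r (π g₀)) g₀ g₁ - Φ (r (π g₀)) (r (π g₁)) g₁,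
    ?_, ?_, ?_⟩
  · intro d g₀ g₁
    obtain ⟨w₀, hw₀, e₀⟩ := hπ' d g₀ 1 U.one_mem
    obtain ⟨w₁, hw₁, e₁⟩ := hπ' d g₁ 1 U.one_mem
    rw [mul_one] at e₀ e₁
    simp only [e₀, e₁]
    rw [hΨ3 _ _ _ _ hw₀ hw₁, hΨ1]
    have h1 : Φ (r (d * π g₀ * w₀)) (r d * g₀) (r d * g₁) = act d (Φ (r (π g₀)) g₀ g₁) := by
      have := hΦ3 (r d * r (π g₀)) (r d * g₀) (r d * g₁) (r w₀) 1 1 hw₀ U.one_mem U.one_mem
      rw [mul_one, mul_one] at this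
      rw [map_mul, map_mul, this, hΦ1]
    have h2 : Φ (r (d * π g₀ * w₀)) (r (d * π g₁ * w₁)) (r d * g₁) =
        act d (Φ (r (π g₀)) (r (π g₁)) g₁) := by
      have := hΦ3 (r d * r (π g₀)) (r d * r (π g₁)) (r d * g₁) (r w₀) (r w₁) 1 hw₀ hw₁ U.one_mem
      rw [mul_one] at this
      rw [map_mul, map_mul, map_mul, map_mul, this, hΦ1]
    rw [h1, h2, map_sub, map_add]
  · intro g₀ g₁ u₀ u₁ hu₀ hu₁
    obtain ⟨w₀, hw₀, e₀⟩ := hπ' 1 g₀ u₀ hu₀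
    obtain ⟨w₁, hw₁, e₁⟩ := hπ' 1 g₁ u₁ hu₁
    rw [map_one, one_mul, one_mul] at e₀ e₁
    simp only [e₀, e₁]
    rw [hΨ3 _ _ _ _ hw₀ hw₁]
    have h1 : Φ (r (π g₀ * w₀)) (g₀ * u₀) (g₁ * u₁) = Φ (r (π g₀)) g₀ g₁ := by
      rw [map_mul]
      exact hΦ3 _ _ _ _ _ _ hw₀ hu₀ hu₁
    have h2 : Φ (r (π g₀ * w₀)) (r (π g₁ * w₁)) (g₁ * u₁) = Φ (r (π g₀)) (r (π g₁)) g₁ := by
      rw [map_mul, map_mul]
      exact hΦ3 _ _ _ _ _ _ hw₀ hw₁ hu₁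
    rw [h1, h2]
  · intro g₀ g₁ g₂
    have c1 := hΦ2 (r (π g₀)) g₀ g₁ g₂
    have c2 := hΦ2 (r (π g₀)) (r (π g₁)) g₁ g₂
    have c3 := hΦ2 (r (π g₀)) (r (π g₁)) (r (π g₂)) g₂
    have c4 := hΦΨ (π g₀) (π g₁) (π g₂)
    have e1 : Φ g₀ g₁ g₂ = Φ (r (π g₀)) g₁ g₂ - Φ (r (π g₀)) g₀ g₂ + Φ (r (π g₀)) g₀ g₁ := by
      rw [← sub_eq_zero, ← c1]
      abel
    have e2 : Φ (r (π g₁)) g₁ g₂ =
        Φ (r (π g₀)) g₁ g₂ - Φ (r (π g₀)) (r (π g₁)) g₂ + Φ (r (π g₀)) (r (π g₁)) g₁ := by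
      rw [← sub_eq_zero, ← c2]
      abel
    have e3 : Φ (r (π g₁)) (r (π g₂)) g₂ =
        Φ (r (π g₀)) (r (π g₂)) g₂ - Φ (r (π g₀)) (r (π g₁)) g₂ +
          Φ (r (π g₀)) (r (π g₁)) (r (π g₂)) := by
      rw [← sub_eq_zero, ← c3]
      abel
    beta_reduce
    rw [e1, e2, e3, c4]
    abel

end Fermat.Agent.PT.F.ShapiroHtpy


end ZBPT_085_0

/-! ### bundled: `Fermat.Agent.TW.F.H2pShInj` -/
section ZBPT_085_1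
/-
TW-F / block F-h2perm, piece h2p-shinj (helper30): Shapiro injectivity in degree 2 for
`Hom_ℤ(ℤ[G/U], C)`.

A level 2-cocycle `W` of `Hom_ℤ(ℤ[G/U], C)` whose restriction to `U`, evaluated at `e_{1·U}`, is
the coboundary of a level cochain `ψ : U → C`, is a level coboundary.

Tool: `PT.F.ShapiroHtpy.shapiro₂` with `H := U`, `r := U.subtype`, for a normal level `N ≤ U`
below the levels of `W` and `ψ`.  Dictionary: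
`Φ(g₀, g₁, g₂) := g₀ • W(g₀⁻¹ g₁, g₁⁻¹ g₂)(e_{g₀⁻¹ U})`, `Ψ(d₀, d₁) := d₀ • ψ(d₀⁻¹ d₁)`,
`Φ = dΘ`, `t(σ)(e_{xU}) := x • Θ(x⁻¹, x⁻¹ σ)`.

  `stmtH2pShInj : StmtH2pShInj`, generic form `h2psh_generic` (any tower, any module `C`).
-/

set_option autoImplicit false

noncomputable section

namespace Fermat.Agent.TW.F

open CategoryTheory groupCohomology Module Fermat.Agent.PT Fermat.Agent.PT.F Fermat.Agent.TW.E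

attribute [local instance 1100] Rep.hV2

section Tools

variable {G : Type} [Group G] (U : Subgroup G)

/-- the action on the basis of `ℤ[G/U]` -/
lemma h2psh_ρ_single (σ x : G) :
    (h2pM U).ρ σ (h2pE U (x : G ⧸ U)) = h2pE U ((σ * x : G) : G ⧸ U) :=
  Representation.ofMulAction_single σ (x : G ⧸ U) 1

/-- the additive map `ℤ[G/U] → A` with prescribed values on the basis -/
def h2pshLift {A : Type} [AddCommGroup A] (t : G ⧸ U → A) : (h2pM U).V →+ A :=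
  (Finsupp.liftAddHom (fun ω : G ⧸ U => zmultiplesHom A (t ω))).comp
    (MonoidAlgebra.coeffAddEquiv (R := ℤ) (M := G ⧸ U)).toAddMonoidHom

lemma h2pshLift_single {A : Type} [AddCommGroup A] (t : G ⧸ U → A) (ω : G ⧸ U) :
    h2pshLift U t (h2pE U ω) = t ω := by
  simp [h2pshLift, MonoidAlgebra.coeffAddEquiv]

/-- additive maps out of `ℤ[G/U]` agree if they agree on the basis -/
lemma h2psh_ext {A : Type} [AddCommGroup A] (f f' : (h2pM U).V →+ A)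
    (h : ∀ x : G, f (h2pE U (x : G ⧸ U)) = f' (h2pE U (x : G ⧸ U))) : f = f' := by
  apply MonoidAlgebra.addMonoidHom_ext
  intro ω z
  obtain ⟨x, rfl⟩ := QuotientGroup.mk_surjective ω
  have h1 : (MonoidAlgebra.single (x : G ⧸ U) z : MonoidAlgebra ℤ (G ⧸ U)) =
      z • MonoidAlgebra.single (x : G ⧸ U) 1 := by
    rw [MonoidAlgebra.smul_single, smul_eq_mul, mul_one]
  rw [h1, map_zsmul, map_zsmul]
  exact congrArg _ (h x)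

lemma h2psh_conjAdd_one (C : Rep.{0} ℤ G) (F : (h2pM U).V →+ C.V) :
    conjAdd (h2pM U) C 1 F = F := by
  apply AddMonoidHom.ext
  intro m
  rw [conjAdd_apply, inv_one, map_one, map_one, Module.End.one_apply, Module.End.one_apply]

lemma h2psh_dTwo_apply (M C : Rep.{0} ℤ G) (W : G × G → (M.V →+ C.V)) (σ τ ρ : G) :
    dTwo M C W (σ, τ, ρ) =
      conjAdd M C σ (W (τ, ρ)) - W (σ * τ, ρ) + W (σ, τ * ρ) - W (σ, τ) := rfl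

lemma h2psh_dOne_apply (M C : Rep.{0} ℤ G) (t : G → (M.V →+ C.V)) (σ τ : G) :
    dOne M C t (σ, τ) = conjAdd M C σ (t τ) - t (σ * τ) + t σ := rfl

end Tools

section Main

variable {G : Type} [Group G]

/-- **h2p-shinj, generic form.** -/
theorem h2psh_generic (𝒯 : Tower G) (C : Rep.{0} ℤ G) (U : Subgroup G) (_hUn : U.Normal)
    (hU : U ∈ 𝒯.lev) (W : G × G → ((h2pM U).V →+ C.V)) (hW : IsLevel₂ 𝒯 W)
    (hcoc : ∀ s, dTwo (h2pM U) C W s = 0) (ψ : U → C.V) (hψ : IsLevelOn 𝒯 U ψ)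
    (hWψ : ∀ s t : U, W ((s : G), (t : G)) (h2pE U ((1 : G) : G ⧸ U)) =
      (d₁₂ (Rep.res U.subtype C)).hom ψ (s, t)) :
    ∃ t : G → ((h2pM U).V →+ C.V), IsLevel₁ 𝒯 t ∧ ∀ s, W s = dOne (h2pM U) C t s := by
  classical
  -- a common normal level `N ≤ U`
  obtain ⟨V₁, hV₁, hWV⟩ := hW
  obtain ⟨V₂, hV₂, hψV⟩ := hψ
  obtain ⟨N, hN, hNle, hNn⟩ := 𝒯.exists_normal (U ⊓ (V₁ ⊓ V₂))
    (𝒯.inf_mem _ _ hU (𝒯.inf_mem _ _ hV₁ hV₂))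
  have := hNn
  have hNU : ∀ s, s ∈ N → s ∈ U := fun s hs => (hNle hs).1
  have hWN : ∀ g g' s s' : G, s ∈ N → s' ∈ N → W (g * s, g' * s') = W (g, g') :=
    fun g g' s s' hs hs' => hWV g g' s s' (hNle hs).2.1 (hNle hs').2.1
  have hψN : ∀ s u : U, (u : G) ∈ N → ψ (s * u) = ψ s :=
    fun s u hu => hψV s u (hNle hu).2.2
  -- cocycle identity, pointwise
  have hcoc' : ∀ σ τ ρ : G,
      conjAdd (h2pM U) C σ (W (τ, ρ)) = W (σ * τ, ρ) - W (σ, τ * ρ) + W (σ, τ) := by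
    intro σ τ ρ
    have h := hcoc (σ, τ, ρ)
    rw [h2psh_dTwo_apply] at h
    rw [← sub_eq_zero, ← h]
    abel
  -- (a) `W(1, τ) = W(1, 1)`
  have hW1 : ∀ τ : G, W (1, τ) = W (1, 1) := by
    intro τ
    have h := hcoc' 1 1 τ
    rw [h2psh_conjAdd_one, one_mul, one_mul] at h
    have h' : W (1, τ) - W (1, 1) = 0 := by
      nth_rewrite 1 [h]
      abel
    exact sub_eq_zero.1 h'
  -- first variable: left multiplication by `N`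
  have hWl : ∀ (σ τ ρ : G), σ ∈ N → W (σ * τ, ρ) = W (τ, ρ) := by
    intro σ τ ρ hσ
    have h1 : σ * τ = τ * (τ⁻¹ * σ * τ) := by group
    have h2 : τ⁻¹ * σ * τ ∈ N := by
      have := hNn.conj_mem σ hσ τ⁻¹
      rwa [inv_inv] at this
    have h3 := hWN τ ρ (τ⁻¹ * σ * τ) 1 h2 N.one_mem
    rw [mul_one] at h3
    rw [h1, h3]
  have hWs : ∀ (σ τ : G), σ ∈ N → W (σ, τ) = W (1, 1) := by
    intro σ τ hσ
    have := hWl σ 1 τ hσ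
    rw [mul_one] at this
    rw [this, hW1]
  -- (b) the values of `W` are `N`-invariant
  have hWinv : ∀ (σ τ ρ : G), σ ∈ N → conjAdd (h2pM U) C σ (W (τ, ρ)) = W (τ, ρ) := by
    intro σ τ ρ hσ
    rw [hcoc' σ τ ρ, hWl σ τ ρ hσ, hWs σ (τ * ρ) hσ, hWs σ τ hσ]
    abel
  -- `dψ`, pointwise
  have hdψ : ∀ s t : U, W ((s : G), (t : G)) (h2pE U ((1 : G) : G ⧸ U)) =
      C.ρ (s : G) (ψ t) - ψ (s * t) + ψ s := fun s t => hWψ s t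
  -- (c) `w • ψ(w⁻¹ c) = ψ c` for `w ∈ N`
  have hψ1 : W (1, 1) (h2pE U ((1 : G) : G ⧸ U)) = ψ 1 := by
    have h := hdψ 1 1
    rw [mul_one] at h
    have e : (((1 : U) : G)) = 1 := rfl
    rw [e, map_one, Module.End.one_apply] at h
    rw [h]
    abel
  have hψc : ∀ (w c : U), (w : G) ∈ N → C.ρ (w : G) (ψ (w⁻¹ * c)) = ψ c := by
    intro w c hw
    have h := hdψ w (w⁻¹ * c)
    rw [mul_inv_cancel_left] at h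
    have e1 : W ((w : G), ((w⁻¹ * c : U) : G)) = W (1, 1) := hWs _ _ hw
    have e2 : ψ w = ψ 1 := by
      have := hψN 1 w hw
      rwa [one_mul] at this
    rw [e1, hψ1, e2] at h
    have h' : C.ρ (w : G) (ψ (w⁻¹ * c)) - ψ c = 0 := by
      have : ψ 1 - ψ 1 = 0 := sub_self _
      nth_rewrite 1 [h] at this
      rw [← this]
      abel
    exact sub_eq_zero.1 h'
  -- the homogeneous cochains
  let Φ : G → G → G → C.V := fun g₀ g₁ g₂ =>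
    C.ρ g₀ (W (g₀⁻¹ * g₁, g₁⁻¹ * g₂) (h2pE U ((g₀⁻¹ : G) : G ⧸ U)))
  let Ψ : U → U → C.V := fun d₀ d₁ => C.ρ (d₀ : G) (ψ (d₀⁻¹ * d₁))
  let act : U → C.V →+ C.V := fun d => (C.ρ (d : G)).toAddMonoidHom
  have hcoset : ∀ (g : G) (d : U), (((g * (d : G) : G)) : G ⧸ U) = (g : G ⧸ U) := by
    intro g d
    exact (QuotientGroup.mk_mul_of_mem g d.2)
  obtain ⟨Θ, hΘ1, hΘ2, hΘ3⟩ := ShapiroHtpy.shapiro₂ U.subtype act N Φ Ψ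
    (by
      intro d g₀ g₁ g₂
      show C.ρ ((d : G) * g₀) (W (((d : G) * g₀)⁻¹ * ((d : G) * g₁),
        ((d : G) * g₁)⁻¹ * ((d : G) * g₂)) (h2pE U ((((d : G) * g₀)⁻¹ : G) : G ⧸ U))) =
        C.ρ (d : G) (C.ρ g₀ (W (g₀⁻¹ * g₁, g₁⁻¹ * g₂) (h2pE U ((g₀⁻¹ : G) : G ⧸ U))))
      have e1 : ((d : G) * g₀)⁻¹ * ((d : G) * g₁) = g₀⁻¹ * g₁ := by group
      have e2 : ((d : G) * g₁)⁻¹ * ((d : G) * g₂) = g₁⁻¹ * g₂ := by group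
      have e3 : ((((d : G) * g₀)⁻¹ : G) : G ⧸ U) = ((g₀⁻¹ : G) : G ⧸ U) := by
        rw [mul_inv_rev]
        exact hcoset g₀⁻¹ d⁻¹
      rw [e1, e2, e3, map_mul, Module.End.mul_apply])
    (by
      intro g₀ g₁ g₂ g₃
      have h := DFunLike.congr_fun (hcoc' (g₀⁻¹ * g₁) (g₁⁻¹ * g₂) (g₂⁻¹ * g₃))
        (h2pE U ((g₀⁻¹ : G) : G ⧸ U))
      rw [conjAdd_apply, h2psh_ρ_single] at h
      have e1 : (g₀⁻¹ * g₁)⁻¹ * g₀⁻¹ = g₁⁻¹ := by group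
      have e2 : g₀⁻¹ * g₁ * (g₁⁻¹ * g₂) = g₀⁻¹ * g₂ := by group
      have e3 : g₁⁻¹ * g₂ * (g₂⁻¹ * g₃) = g₁⁻¹ * g₃ := by group
      rw [e1, e2, e3] at h
      have h' := congrArg (C.ρ g₀) h
      rw [← Module.End.mul_apply, ← map_mul, mul_inv_cancel_left] at h'
      simp only [AddMonoidHom.add_apply, AddMonoidHom.sub_apply, map_add, map_sub] at h'
      show C.ρ g₁ (W (g₁⁻¹ * g₂, g₂⁻¹ * g₃) (h2pE U ((g₁⁻¹ : G) : G ⧸ U))) -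
        C.ρ g₀ (W (g₀⁻¹ * g₂, g₂⁻¹ * g₃) (h2pE U ((g₀⁻¹ : G) : G ⧸ U))) +
        C.ρ g₀ (W (g₀⁻¹ * g₁, g₁⁻¹ * g₃) (h2pE U ((g₀⁻¹ : G) : G ⧸ U))) -
        C.ρ g₀ (W (g₀⁻¹ * g₁, g₁⁻¹ * g₂) (h2pE U ((g₀⁻¹ : G) : G ⧸ U))) = 0
      rw [h']
      abel)
    (by
      intro g₀ g₁ g₂ u₀ u₁ u₂ hu₀ hu₁ hu₂
      show C.ρ (g₀ * u₀) (W ((g₀ * u₀)⁻¹ * (g₁ * u₁), (g₁ * u₁)⁻¹ * (g₂ * u₂))
        (h2pE U (((g₀ * u₀)⁻¹ : G) : G ⧸ U))) =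
        C.ρ g₀ (W (g₀⁻¹ * g₁, g₁⁻¹ * g₂) (h2pE U ((g₀⁻¹ : G) : G ⧸ U)))
      -- the arguments of `W`
      have e1 : (g₀ * u₀)⁻¹ * (g₁ * u₁) = u₀⁻¹ * (g₀⁻¹ * g₁ * u₁) := by group
      have e2 : (g₁ * u₁)⁻¹ * (g₂ * u₂) = u₁⁻¹ * (g₁⁻¹ * g₂ * u₂) := by group
      have hWeq : W ((g₀ * u₀)⁻¹ * (g₁ * u₁), (g₁ * u₁)⁻¹ * (g₂ * u₂)) =
          W (g₀⁻¹ * g₁, g₁⁻¹ * g₂) := by
        have s2 : (g₁ * u₁)⁻¹ * (g₂ * u₂) =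
            g₁⁻¹ * g₂ * ((g₁⁻¹ * g₂)⁻¹ * u₁⁻¹ * (g₁⁻¹ * g₂) * u₂) := by group
        have m2 : (g₁⁻¹ * g₂)⁻¹ * u₁⁻¹ * (g₁⁻¹ * g₂) * u₂ ∈ N := by
          apply N.mul_mem _ hu₂
          have := hNn.conj_mem u₁⁻¹ (N.inv_mem hu₁) (g₁⁻¹ * g₂)⁻¹
          rwa [inv_inv] at this
        rw [e1, hWl _ _ _ (N.inv_mem hu₀), s2]
        exact hWN _ _ _ _ hu₁ m2
      rw [hWeq, map_mul, Module.End.mul_apply]
      congr 1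
      have h := DFunLike.congr_fun (hWinv u₀ (g₀⁻¹ * g₁) (g₁⁻¹ * g₂) hu₀)
        (h2pE U ((g₀⁻¹ : G) : G ⧸ U))
      rw [conjAdd_apply, h2psh_ρ_single] at h
      rw [mul_inv_rev]
      exact h)
    (by
      intro d d₀ d₁
      show C.ρ ((d * d₀ : U) : G) (ψ ((d * d₀)⁻¹ * (d * d₁))) =
        C.ρ (d : G) (C.ρ (d₀ : G) (ψ (d₀⁻¹ * d₁)))
      have e : (d * d₀)⁻¹ * (d * d₁) = d₀⁻¹ * d₁ := by group
      rw [e, Subgroup.coe_mul, map_mul, Module.End.mul_apply])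
    (by
      intro d₀ d₁ w₀ w₁ hw₀ hw₁
      show C.ρ ((d₀ * w₀ : U) : G) (ψ ((d₀ * w₀)⁻¹ * (d₁ * w₁))) =
        C.ρ (d₀ : G) (ψ (d₀⁻¹ * d₁))
      have e : (d₀ * w₀)⁻¹ * (d₁ * w₁) = w₀⁻¹ * (d₀⁻¹ * d₁) * w₁ := by group
      rw [e, hψN _ w₁ hw₁, Subgroup.coe_mul, map_mul, Module.End.mul_apply,
        hψc w₀ (d₀⁻¹ * d₁) hw₀])
    (by
      intro d₀ d₁ d₂
      show C.ρ (d₀ : G) (W ((d₀ : G)⁻¹ * (d₁ : G), (d₁ : G)⁻¹ * (d₂ : G))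
        (h2pE U (((d₀ : G)⁻¹ : G) : G ⧸ U))) =
        C.ρ (d₁ : G) (ψ (d₁⁻¹ * d₂)) - C.ρ (d₀ : G) (ψ (d₀⁻¹ * d₂)) +
          C.ρ (d₀ : G) (ψ (d₀⁻¹ * d₁))
      have e0 : ((((d₀ : G)⁻¹ : G)) : G ⧸ U) = ((1 : G) : G ⧸ U) := by
        have := hcoset 1 d₀⁻¹
        rwa [one_mul] at this
      have h := hdψ (d₀⁻¹ * d₁) (d₁⁻¹ * d₂)
      have e1 : ((d₀⁻¹ * d₁ : U) : G) = (d₀ : G)⁻¹ * (d₁ : G) := rfl
      have e2 : ((d₁⁻¹ * d₂ : U) : G) = (d₁ : G)⁻¹ * (d₂ : G) := rfl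
      have e3 : d₀⁻¹ * d₁ * (d₁⁻¹ * d₂) = d₀⁻¹ * d₂ := by group
      rw [e1, e2, e3] at h
      rw [e0, h, map_add, map_sub, ← Module.End.mul_apply, ← map_mul, mul_inv_cancel_left])
  -- the cochain `t`
  let t : G → ((h2pM U).V →+ C.V) := fun σ =>
    h2pshLift U (fun ω => C.ρ ω.out (Θ ω.out⁻¹ (ω.out⁻¹ * σ)))
  have ht : ∀ (σ x : G), t σ (h2pE U (x : G ⧸ U)) = C.ρ x (Θ x⁻¹ (x⁻¹ * σ)) := by
    intro σ x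
    show h2pshLift U _ (h2pE U (x : G ⧸ U)) = _
    rw [h2pshLift_single]
    obtain ⟨u, hu⟩ := QuotientGroup.mk_out_eq_mul U x
    rw [hu]
    have h1 := hΘ1 u⁻¹ x⁻¹ (x⁻¹ * σ)
    have e1 : (x * (u : G))⁻¹ = U.subtype u⁻¹ * x⁻¹ := by
      rw [mul_inv_rev]
      rfl
    have e2 : (x * (u : G))⁻¹ * σ = U.subtype u⁻¹ * (x⁻¹ * σ) := by
      rw [e1, mul_assoc]
    rw [e2, e1, h1]
    show C.ρ (x * (u : G)) (C.ρ ((u⁻¹ : U) : G) (Θ x⁻¹ (x⁻¹ * σ))) = _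
    rw [← Module.End.mul_apply, ← map_mul]
    congr 2
    rw [Subgroup.coe_inv, mul_assoc, mul_inv_cancel, mul_one]
  refine ⟨t, ⟨N, hN, fun g s hs => ?_⟩, fun s => ?_⟩
  · apply h2psh_ext
    intro x
    rw [ht, ht]
    congr 1
    have := hΘ2 x⁻¹ (x⁻¹ * g) 1 s N.one_mem hs
    rw [mul_one, mul_assoc] at this
    exact this
  · obtain ⟨σ, τ⟩ := s
    apply h2psh_ext
    intro x
    rw [h2psh_dOne_apply]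
    simp only [AddMonoidHom.add_apply, AddMonoidHom.sub_apply]
    rw [conjAdd_apply, h2psh_ρ_single, ht, ht, ht]
    have h3 := hΘ3 x⁻¹ (x⁻¹ * σ) (x⁻¹ * σ * τ)
    have hΦ : Φ x⁻¹ (x⁻¹ * σ) (x⁻¹ * σ * τ) =
        C.ρ x⁻¹ (W (σ, τ) (h2pE U (x : G ⧸ U))) := by
      show C.ρ x⁻¹ (W (x⁻¹⁻¹ * (x⁻¹ * σ), (x⁻¹ * σ)⁻¹ * (x⁻¹ * σ * τ))
        (h2pE U ((x⁻¹⁻¹ : G) : G ⧸ U))) = _
      have e1 : x⁻¹⁻¹ * (x⁻¹ * σ) = σ := by group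
      have e2 : (x⁻¹ * σ)⁻¹ * (x⁻¹ * σ * τ) = τ := by group
      rw [e1, e2, inv_inv]
    rw [hΦ] at h3
    have h4 := congrArg (C.ρ x) h3
    rw [← Module.End.mul_apply, ← map_mul, mul_inv_cancel, map_one, Module.End.one_apply] at h4
    rw [h4, map_add, map_sub]
    have e1 : (σ⁻¹ * x)⁻¹ = x⁻¹ * σ := by group
    have e2 : x⁻¹ * σ * τ = x⁻¹ * (σ * τ) := by group
    rw [← Module.End.mul_apply, ← map_mul, mul_inv_cancel_left, e1, e2]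

/-- **h2p-shinj**. -/
theorem stmtH2pShInj : StmtH2pShInj := by
  intro p _ G _ ι _ Gloc _ D U hUn hU W hW hcoc hψ
  obtain ⟨ψ, hψl, hψW⟩ := hψ
  exact h2psh_generic D.𝒯 D.C U hUn hU W hW hcoc ψ hψl hψW

end Main

end Fermat.Agent.TW.F

end


end ZBPT_085_1

/-! ### bundled: `Fermat.Agent.TW.E.C2SurjShinj` -/
section ZBPT_085_2
/-
TW-E / A5′ (helper30), part 3: Shapiro injectivity in degree 2 for `Hom_ℤ(ℤ[Ω], C)`, `Ω` a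
transitive `G`-set with base point `ω₀` whose stabiliser `P` contains a level.

A level 2-cocycle `W` of `Hom_ℤ(ℤ[Ω], C)` whose restriction to `P`, evaluated at `e_{ω₀}`, is the
coboundary of a cochain `ψ` (level on `P`), is a level coboundary.
(The proof of `TW.F.h2psh_generic` with `G ⧸ U` replaced by `Ω`.)
-/

set_option autoImplicit false

noncomputable section

namespace Fermat.Agent.TW.E

open CategoryTheory groupCohomology Module Fermat.Agent.PT Fermat.Agent.PT.F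

attribute [local instance 1100] Rep.hV2

section Tools

variable {G : Type} [Group G] (Ω : Type) [MulAction G Ω]

/-- the basis of `ℤ[Ω]` -/
def c2spE (ω : Ω) : (permZ G Ω).V := MonoidAlgebra.single ω (1 : ℤ)

lemma c2sp_ρ_E (σ : G) (ω : Ω) : (permZ G Ω).ρ σ (c2spE Ω ω) = c2spE (G := G) Ω (σ • ω) :=
  in1p_ρ_single Ω σ ω 1

lemma c2sp_lift_E {A : Type} [AddCommGroup A] (t : Ω → A) (ω : Ω) :
    in1p_lift (G := G) Ω t (c2spE Ω ω) = t ω := by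
  show in1p_lift (G := G) Ω t (MonoidAlgebra.single ω 1) = t ω
  rw [in1p_lift_single, one_smul]

lemma c2sp_ext {A : Type} [AddCommGroup A] (f f' : (permZ G Ω).V →+ A)
    (h : ∀ ω : Ω, f (c2spE Ω ω) = f' (c2spE Ω ω)) : f = f' :=
  in1p_ext Ω f f' h

lemma c2sp_conjAdd_one (M C : Rep.{0} ℤ G) (F : M.V →+ C.V) :
    conjAdd M C 1 F = F := by
  apply AddMonoidHom.ext
  intro m
  rw [conjAdd_apply, inv_one, map_one, map_one, Module.End.one_apply, Module.End.one_apply]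

lemma c2sp_dTwo_apply (M C : Rep.{0} ℤ G) (W : G × G → (M.V →+ C.V)) (σ τ ρ : G) :
    dTwo M C W (σ, τ, ρ) =
      conjAdd M C σ (W (τ, ρ)) - W (σ * τ, ρ) + W (σ, τ * ρ) - W (σ, τ) := rfl

lemma c2sp_dOne_apply (M C : Rep.{0} ℤ G) (t : G → (M.V →+ C.V)) (σ τ : G) :
    dOne M C t (σ, τ) = conjAdd M C σ (t τ) - t (σ * τ) + t σ := rfl

end Tools

section Main

variable {G : Type} [Group G]

/-- **Shapiro injectivity in degree 2, transitive `Ω`.** -/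
theorem c2sp_shinj (𝒯 : Tower G) (C : Rep.{0} ℤ G) (Ω : Type) [MulAction G Ω]
    [MulAction.IsPretransitive G Ω] (ω₀ : Ω) (U₀ : Subgroup G) (hU₀ : U₀ ∈ 𝒯.lev)
    (hU₀Ω : ∀ s ∈ U₀, s • ω₀ = ω₀)
    (W : G × G → ((permZ G Ω).V →+ C.V)) (hW : IsLevel₂ 𝒯 W)
    (hcoc : ∀ s, dTwo (permZ G Ω) C W s = 0) (ψ : G → C.V)
    (hψ : ∃ V ∈ 𝒯.lev, ∀ s ∈ MulAction.stabilizer G ω₀, ∀ u ∈ V, ψ (s * u) = ψ s)
    (hWψ : ∀ s ∈ MulAction.stabilizer G ω₀, ∀ t ∈ MulAction.stabilizer G ω₀,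
      W (s, t) (c2spE Ω ω₀) = C.ρ s (ψ t) - ψ (s * t) + ψ s) :
    ∃ t : G → ((permZ G Ω).V →+ C.V), IsLevel₁ 𝒯 t ∧ ∀ s, W s = dOne (permZ G Ω) C t s := by
  classical
  set P : Subgroup G := MulAction.stabilizer G ω₀ with hPdef
  -- a common normal level `N ≤ P`
  obtain ⟨V₁, hV₁, hWV⟩ := hW
  obtain ⟨V₂, hV₂, hψV⟩ := hψ
  obtain ⟨N, hN, hNle, hNn⟩ := 𝒯.exists_normal (U₀ ⊓ (V₁ ⊓ V₂))
    (𝒯.inf_mem _ _ hU₀ (𝒯.inf_mem _ _ hV₁ hV₂))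
  have := hNn
  have hNP : ∀ s, s ∈ N → s ∈ P := fun s hs => hU₀Ω s (hNle hs).1
  have hWN : ∀ g g' s s' : G, s ∈ N → s' ∈ N → W (g * s, g' * s') = W (g, g') :=
    fun g g' s s' hs hs' => hWV g g' s s' (hNle hs).2.1 (hNle hs').2.1
  have hψN : ∀ s ∈ P, ∀ u ∈ N, ψ (s * u) = ψ s :=
    fun s hs u hu => hψV s hs u (hNle hu).2.2
  -- cocycle identity, pointwise
  have hcoc' : ∀ σ τ ρ : G,
      conjAdd (permZ G Ω) C σ (W (τ, ρ)) = W (σ * τ, ρ) - W (σ, τ * ρ) + W (σ, τ) := by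
    intro σ τ ρ
    have h := hcoc (σ, τ, ρ)
    rw [c2sp_dTwo_apply] at h
    rw [← sub_eq_zero, ← h]
    abel
  -- (a) `W(1, τ) = W(1, 1)`
  have hW1 : ∀ τ : G, W (1, τ) = W (1, 1) := by
    intro τ
    have h := hcoc' 1 1 τ
    rw [c2sp_conjAdd_one, one_mul, one_mul] at h
    have h' : W (1, τ) - W (1, 1) = 0 := by
      nth_rewrite 1 [h]
      abel
    exact sub_eq_zero.1 h'
  -- first variable: left multiplication by `N`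
  have hWl : ∀ (σ τ ρ : G), σ ∈ N → W (σ * τ, ρ) = W (τ, ρ) := by
    intro σ τ ρ hσ
    have h1 : σ * τ = τ * (τ⁻¹ * σ * τ) := by group
    have h2 : τ⁻¹ * σ * τ ∈ N := by
      have := hNn.conj_mem σ hσ τ⁻¹
      rwa [inv_inv] at this
    have h3 := hWN τ ρ (τ⁻¹ * σ * τ) 1 h2 N.one_mem
    rw [mul_one] at h3
    rw [h1, h3]
  have hWs : ∀ (σ τ : G), σ ∈ N → W (σ, τ) = W (1, 1) := by
    intro σ τ hσ
    have := hWl σ 1 τ hσ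
    rw [mul_one] at this
    rw [this, hW1]
  -- (b) the values of `W` are `N`-invariant
  have hWinv : ∀ (σ τ ρ : G), σ ∈ N → conjAdd (permZ G Ω) C σ (W (τ, ρ)) = W (τ, ρ) := by
    intro σ τ ρ hσ
    rw [hcoc' σ τ ρ, hWl σ τ ρ hσ, hWs σ (τ * ρ) hσ, hWs σ τ hσ]
    abel
  -- (c) `w • ψ(w⁻¹ c) = ψ c` for `w ∈ N`
  have hψ1 : W (1, 1) (c2spE Ω ω₀) = ψ 1 := by
    have h := hWψ 1 P.one_mem 1 P.one_mem
    rw [mul_one, map_one, Module.End.one_apply] at h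
    rw [h]
    abel
  have hψc : ∀ w ∈ N, ∀ c ∈ P, C.ρ w (ψ (w⁻¹ * c)) = ψ c := by
    intro w hw c hc
    have h := hWψ w (hNP w hw) (w⁻¹ * c) (P.mul_mem (P.inv_mem (hNP w hw)) hc)
    rw [mul_inv_cancel_left] at h
    have e1 : W (w, w⁻¹ * c) = W (1, 1) := hWs _ _ hw
    have e2 : ψ w = ψ 1 := by
      have := hψN 1 P.one_mem w hw
      rwa [one_mul] at this
    rw [e1, hψ1, e2] at h
    have h' : C.ρ w (ψ (w⁻¹ * c)) - ψ c = 0 := by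
      have : ψ 1 - ψ 1 = 0 := sub_self _
      nth_rewrite 1 [h] at this
      rw [← this]
      abel
    exact sub_eq_zero.1 h'
  -- the homogeneous cochains
  let Φ : G → G → G → C.V := fun g₀ g₁ g₂ =>
    C.ρ g₀ (W (g₀⁻¹ * g₁, g₁⁻¹ * g₂) (c2spE Ω (g₀⁻¹ • ω₀)))
  let Ψ : P → P → C.V := fun d₀ d₁ => C.ρ (d₀ : G) (ψ ((d₀ : G)⁻¹ * (d₁ : G)))
  let act : P → C.V →+ C.V := fun d => (C.ρ (d : G)).toAddMonoidHom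
  have hstab : ∀ (g : G) (d : P), (g * (d : G)) • ω₀ = g • ω₀ := by
    intro g d
    rw [mul_smul]
    congr 1
    exact d.2
  obtain ⟨Θ, hΘ1, hΘ2, hΘ3⟩ := ShapiroHtpy.shapiro₂ P.subtype act N Φ Ψ
    (by
      intro d g₀ g₁ g₂
      show C.ρ ((d : G) * g₀) (W (((d : G) * g₀)⁻¹ * ((d : G) * g₁),
        ((d : G) * g₁)⁻¹ * ((d : G) * g₂)) (c2spE Ω (((d : G) * g₀)⁻¹ • ω₀))) =
        C.ρ (d : G) (C.ρ g₀ (W (g₀⁻¹ * g₁, g₁⁻¹ * g₂) (c2spE Ω (g₀⁻¹ • ω₀))))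
      have e1 : ((d : G) * g₀)⁻¹ * ((d : G) * g₁) = g₀⁻¹ * g₁ := by group
      have e2 : ((d : G) * g₁)⁻¹ * ((d : G) * g₂) = g₁⁻¹ * g₂ := by group
      have e3 : ((d : G) * g₀)⁻¹ • ω₀ = g₀⁻¹ • ω₀ := by
        rw [mul_inv_rev]
        exact hstab g₀⁻¹ d⁻¹
      rw [e1, e2, e3, map_mul, Module.End.mul_apply])
    (by
      intro g₀ g₁ g₂ g₃
      have h := DFunLike.congr_fun (hcoc' (g₀⁻¹ * g₁) (g₁⁻¹ * g₂) (g₂⁻¹ * g₃))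
        (c2spE Ω (g₀⁻¹ • ω₀))
      rw [conjAdd_apply, c2sp_ρ_E, ← mul_smul] at h
      have e1 : (g₀⁻¹ * g₁)⁻¹ * g₀⁻¹ = g₁⁻¹ := by group
      have e2 : g₀⁻¹ * g₁ * (g₁⁻¹ * g₂) = g₀⁻¹ * g₂ := by group
      have e3 : g₁⁻¹ * g₂ * (g₂⁻¹ * g₃) = g₁⁻¹ * g₃ := by group
      rw [e1, e2, e3] at h
      have h' := congrArg (C.ρ g₀) h
      rw [← Module.End.mul_apply, ← map_mul, mul_inv_cancel_left] at h'
      simp only [AddMonoidHom.add_apply, AddMonoidHom.sub_apply, map_add, map_sub] at h'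
      show C.ρ g₁ (W (g₁⁻¹ * g₂, g₂⁻¹ * g₃) (c2spE Ω (g₁⁻¹ • ω₀))) -
        C.ρ g₀ (W (g₀⁻¹ * g₂, g₂⁻¹ * g₃) (c2spE Ω (g₀⁻¹ • ω₀))) +
        C.ρ g₀ (W (g₀⁻¹ * g₁, g₁⁻¹ * g₃) (c2spE Ω (g₀⁻¹ • ω₀))) -
        C.ρ g₀ (W (g₀⁻¹ * g₁, g₁⁻¹ * g₂) (c2spE Ω (g₀⁻¹ • ω₀))) = 0
      rw [h']
      abel)
    (by
      intro g₀ g₁ g₂ u₀ u₁ u₂ hu₀ hu₁ hu₂
      show C.ρ (g₀ * u₀) (W ((g₀ * u₀)⁻¹ * (g₁ * u₁), (g₁ * u₁)⁻¹ * (g₂ * u₂))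
        (c2spE Ω ((g₀ * u₀)⁻¹ • ω₀))) =
        C.ρ g₀ (W (g₀⁻¹ * g₁, g₁⁻¹ * g₂) (c2spE Ω (g₀⁻¹ • ω₀)))
      -- the arguments of `W`
      have e1 : (g₀ * u₀)⁻¹ * (g₁ * u₁) = u₀⁻¹ * (g₀⁻¹ * g₁ * u₁) := by group
      have hWeq : W ((g₀ * u₀)⁻¹ * (g₁ * u₁), (g₁ * u₁)⁻¹ * (g₂ * u₂)) =
          W (g₀⁻¹ * g₁, g₁⁻¹ * g₂) := by
        have s2 : (g₁ * u₁)⁻¹ * (g₂ * u₂) =
            g₁⁻¹ * g₂ * ((g₁⁻¹ * g₂)⁻¹ * u₁⁻¹ * (g₁⁻¹ * g₂) * u₂) := by group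
        have m2 : (g₁⁻¹ * g₂)⁻¹ * u₁⁻¹ * (g₁⁻¹ * g₂) * u₂ ∈ N := by
          apply N.mul_mem _ hu₂
          have := hNn.conj_mem u₁⁻¹ (N.inv_mem hu₁) (g₁⁻¹ * g₂)⁻¹
          rwa [inv_inv] at this
        rw [e1, hWl _ _ _ (N.inv_mem hu₀), s2]
        exact hWN _ _ _ _ hu₁ m2
      rw [hWeq, map_mul, Module.End.mul_apply]
      congr 1
      have h := DFunLike.congr_fun (hWinv u₀ (g₀⁻¹ * g₁) (g₁⁻¹ * g₂) hu₀)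
        (c2spE Ω (g₀⁻¹ • ω₀))
      rw [conjAdd_apply, c2sp_ρ_E, ← mul_smul] at h
      rw [mul_inv_rev]
      exact h)
    (by
      intro d d₀ d₁
      show C.ρ ((d * d₀ : P) : G) (ψ (((d * d₀ : P) : G)⁻¹ * ((d * d₁ : P) : G))) =
        C.ρ (d : G) (C.ρ (d₀ : G) (ψ ((d₀ : G)⁻¹ * (d₁ : G))))
      have e : ((d * d₀ : P) : G)⁻¹ * ((d * d₁ : P) : G) = (d₀ : G)⁻¹ * (d₁ : G) := by
        rw [Subgroup.coe_mul, Subgroup.coe_mul]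
        group
      rw [e, Subgroup.coe_mul, map_mul, Module.End.mul_apply])
    (by
      intro d₀ d₁ w₀ w₁ hw₀ hw₁
      show C.ρ ((d₀ * w₀ : P) : G) (ψ (((d₀ * w₀ : P) : G)⁻¹ * ((d₁ * w₁ : P) : G))) =
        C.ρ (d₀ : G) (ψ ((d₀ : G)⁻¹ * (d₁ : G)))
      have e : ((d₀ * w₀ : P) : G)⁻¹ * ((d₁ * w₁ : P) : G) =
          (w₀ : G)⁻¹ * ((d₀ : G)⁻¹ * (d₁ : G)) * (w₁ : G) := by
        rw [Subgroup.coe_mul, Subgroup.coe_mul]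
        group
      have hm : (d₀ : G)⁻¹ * (d₁ : G) ∈ P := P.mul_mem (P.inv_mem d₀.2) d₁.2
      have hm' : (w₀ : G)⁻¹ * ((d₀ : G)⁻¹ * (d₁ : G)) ∈ P := P.mul_mem (P.inv_mem w₀.2) hm
      have hw₀' : (w₀ : G) ∈ N := hw₀
      have hw₁' : (w₁ : G) ∈ N := hw₁
      rw [e, hψN _ hm' _ hw₁', Subgroup.coe_mul, map_mul, Module.End.mul_apply,
        hψc (w₀ : G) hw₀' _ hm])
    (by
      intro d₀ d₁ d₂
      show C.ρ (d₀ : G) (W ((d₀ : G)⁻¹ * (d₁ : G), (d₁ : G)⁻¹ * (d₂ : G))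
        (c2spE Ω ((d₀ : G)⁻¹ • ω₀))) =
        C.ρ (d₁ : G) (ψ ((d₁ : G)⁻¹ * (d₂ : G))) - C.ρ (d₀ : G) (ψ ((d₀ : G)⁻¹ * (d₂ : G))) +
          C.ρ (d₀ : G) (ψ ((d₀ : G)⁻¹ * (d₁ : G)))
      have e0 : (d₀ : G)⁻¹ • ω₀ = ω₀ := (P.inv_mem d₀.2 : (d₀ : G)⁻¹ ∈ P)
      have h := hWψ ((d₀ : G)⁻¹ * (d₁ : G)) (P.mul_mem (P.inv_mem d₀.2) d₁.2)
        ((d₁ : G)⁻¹ * (d₂ : G)) (P.mul_mem (P.inv_mem d₁.2) d₂.2)
      have e3 : (d₀ : G)⁻¹ * (d₁ : G) * ((d₁ : G)⁻¹ * (d₂ : G)) = (d₀ : G)⁻¹ * (d₂ : G) := by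
        group
      rw [e3] at h
      rw [e0, h, map_add, map_sub, ← Module.End.mul_apply, ← map_mul, mul_inv_cancel_left])
  -- the cochain `t`
  have hex : ∀ ω : Ω, ∃ x : G, x • ω₀ = ω := fun ω => MulAction.exists_smul_eq G ω₀ ω
  choose xx hxx using hex
  let t : G → ((permZ G Ω).V →+ C.V) := fun σ =>
    in1p_lift Ω (fun ω => C.ρ (xx ω) (Θ (xx ω)⁻¹ ((xx ω)⁻¹ * σ)))
  have ht : ∀ (σ x : G), t σ (c2spE Ω (x • ω₀)) = C.ρ x (Θ x⁻¹ (x⁻¹ * σ)) := by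
    intro σ x
    show in1p_lift Ω _ (c2spE Ω (x • ω₀)) = _
    rw [c2sp_lift_E]
    have hu : x⁻¹ * xx (x • ω₀) ∈ P := by
      show (x⁻¹ * xx (x • ω₀)) • ω₀ = ω₀
      rw [mul_smul, hxx, inv_smul_smul]
    obtain ⟨u, hu'⟩ : ∃ u : P, xx (x • ω₀) = x * (u : G) :=
      ⟨⟨_, hu⟩, by rw [mul_inv_cancel_left]⟩
    rw [hu']
    have h1 := hΘ1 u⁻¹ x⁻¹ (x⁻¹ * σ)
    have e1 : (x * (u : G))⁻¹ = P.subtype u⁻¹ * x⁻¹ := by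
      rw [mul_inv_rev]
      rfl
    have e2 : (x * (u : G))⁻¹ * σ = P.subtype u⁻¹ * (x⁻¹ * σ) := by
      rw [e1, mul_assoc]
    rw [e2, e1, h1]
    show C.ρ (x * (u : G)) (C.ρ ((u⁻¹ : P) : G) (Θ x⁻¹ (x⁻¹ * σ))) = _
    rw [← Module.End.mul_apply, ← map_mul]
    congr 2
    rw [Subgroup.coe_inv, mul_assoc, mul_inv_cancel, mul_one]
  refine ⟨t, ⟨N, hN, fun g s hs => ?_⟩, fun s => ?_⟩
  · apply c2sp_ext
    intro ω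
    obtain ⟨x, rfl⟩ := MulAction.exists_smul_eq G ω₀ ω
    rw [ht, ht]
    congr 1
    have := hΘ2 x⁻¹ (x⁻¹ * g) 1 s N.one_mem hs
    rw [mul_one, mul_assoc] at this
    exact this
  · obtain ⟨σ, τ⟩ := s
    apply c2sp_ext
    intro ω
    obtain ⟨x, rfl⟩ := MulAction.exists_smul_eq G ω₀ ω
    rw [c2sp_dOne_apply]
    simp only [AddMonoidHom.add_apply, AddMonoidHom.sub_apply]
    rw [conjAdd_apply, c2sp_ρ_E, ← mul_smul, ht, ht, ht]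
    have h3 := hΘ3 x⁻¹ (x⁻¹ * σ) (x⁻¹ * σ * τ)
    have hΦ : Φ x⁻¹ (x⁻¹ * σ) (x⁻¹ * σ * τ) =
        C.ρ x⁻¹ (W (σ, τ) (c2spE Ω (x • ω₀))) := by
      show C.ρ x⁻¹ (W (x⁻¹⁻¹ * (x⁻¹ * σ), (x⁻¹ * σ)⁻¹ * (x⁻¹ * σ * τ))
        (c2spE Ω (x⁻¹⁻¹ • ω₀))) = _
      have e1 : x⁻¹⁻¹ * (x⁻¹ * σ) = σ := by group
      have e2 : (x⁻¹ * σ)⁻¹ * (x⁻¹ * σ * τ) = τ := by group
      rw [e1, e2, inv_inv]
    rw [hΦ] at h3
    have h4 := congrArg (C.ρ x) h3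
    rw [← Module.End.mul_apply, ← map_mul, mul_inv_cancel, map_one, Module.End.one_apply] at h4
    rw [h4, map_add, map_sub]
    have e1 : (σ⁻¹ * x)⁻¹ = x⁻¹ * σ := by group
    have e2 : x⁻¹ * σ * τ = x⁻¹ * (σ * τ) := by group
    rw [← Module.End.mul_apply, ← map_mul, mul_inv_cancel_left, e1, e2]

end Main

end Fermat.Agent.TW.E

end


end ZBPT_085_2

/-! ### bundled: `Fermat.Agent.TW.E.Shapiro3` -/
section ZBPT_085_3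
/-
Project TW (S56) — part TW-E, piece A3 (helper87), file 2: the explicit Shapiro homotopy in
degree 3, in HOMOGENEOUS form (pure group theory; one degree above PT/F/ShapiroHtpy.lean).

`shap3_main`: an `H`-equivariant, right-`U`-invariant homogeneous 3-cocycle `Φ : G⁴ → X` whose
restriction to `r(H)⁴` is `dΨ` (`Ψ` equivariant, right-`r⁻¹U`-invariant) is `dΘ` with `Θ`
equivariant and right-`U`-invariant: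
`Θ(g₀,g₁,g₂) = Ψ(πg₀,πg₁,πg₂) + Φ(rπg₀,g₀,g₁,g₂) - Φ(rπg₀,rπg₁,g₁,g₂) + Φ(rπg₀,rπg₁,rπg₂,g₂)`.
-/

set_option autoImplicit false

namespace Fermat.Agent.TW.E

open Fermat.Agent.PT.F.ShapiroHtpy

variable {G H X : Type} [Group G] [Group H] [AddCommGroup X]

/-- **Explicit Shapiro homotopy in degree 3** (homogeneous form). -/
theorem shap3_main (r : H →* G) (act : H → X →+ X) (U : Subgroup G) [U.Normal]
    (Φ : G → G → G → G → X) (Ψ : H → H → H → X)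
    (hΦ1 : ∀ d g₀ g₁ g₂ g₃,
      Φ (r d * g₀) (r d * g₁) (r d * g₂) (r d * g₃) = act d (Φ g₀ g₁ g₂ g₃))
    (hΦ2 : ∀ g₀ g₁ g₂ g₃ g₄,
      Φ g₁ g₂ g₃ g₄ - Φ g₀ g₂ g₃ g₄ + Φ g₀ g₁ g₃ g₄ - Φ g₀ g₁ g₂ g₄ + Φ g₀ g₁ g₂ g₃ = 0)
    (hΦ3 : ∀ g₀ g₁ g₂ g₃ u₀ u₁ u₂ u₃, u₀ ∈ U → u₁ ∈ U → u₂ ∈ U → u₃ ∈ U →
      Φ (g₀ * u₀) (g₁ * u₁) (g₂ * u₂) (g₃ * u₃) = Φ g₀ g₁ g₂ g₃)
    (hΨ1 : ∀ d d₀ d₁ d₂, Ψ (d * d₀) (d * d₁) (d * d₂) = act d (Ψ d₀ d₁ d₂))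
    (hΨ3 : ∀ d₀ d₁ d₂ w₀ w₁ w₂, r w₀ ∈ U → r w₁ ∈ U → r w₂ ∈ U →
      Ψ (d₀ * w₀) (d₁ * w₁) (d₂ * w₂) = Ψ d₀ d₁ d₂)
    (hΦΨ : ∀ d₀ d₁ d₂ d₃,
      Φ (r d₀) (r d₁) (r d₂) (r d₃) = Ψ d₁ d₂ d₃ - Ψ d₀ d₂ d₃ + Ψ d₀ d₁ d₃ - Ψ d₀ d₁ d₂) :
    ∃ Θ : G → G → G → X,
      (∀ d g₀ g₁ g₂, Θ (r d * g₀) (r d * g₁) (r d * g₂) = act d (Θ g₀ g₁ g₂)) ∧
      (∀ g₀ g₁ g₂ u₀ u₁ u₂, u₀ ∈ U → u₁ ∈ U → u₂ ∈ U →
        Θ (g₀ * u₀) (g₁ * u₁) (g₂ * u₂) = Θ g₀ g₁ g₂) ∧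
      (∀ g₀ g₁ g₂ g₃, Φ g₀ g₁ g₂ g₃ = Θ g₁ g₂ g₃ - Θ g₀ g₂ g₃ + Θ g₀ g₁ g₃ - Θ g₀ g₁ g₂) := by
  obtain ⟨π, hπ⟩ := exists_proj r U
  have hπ' : ∀ (d : H) (g u : G), u ∈ U → ∃ w : H, r w ∈ U ∧ π (r d * g * u) = d * π g * w :=
    fun d g u hu => ⟨(d * π g)⁻¹ * π (r d * g * u), hπ d g u hu, by group⟩
  refine ⟨fun g₀ g₁ g₂ => Ψ (π g₀) (π g₁) (π g₂) + Φ (r (π g₀)) g₀ g₁ g₂
      - Φ (r (π g₀)) (r (π g₁)) g₁ g₂ + Φ (r (π g₀)) (r (π g₁)) (r (π g₂)) g₂, ?_, ?_, ?_⟩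
  · intro d g₀ g₁ g₂
    obtain ⟨w₀, hw₀, e₀⟩ := hπ' d g₀ 1 U.one_mem
    obtain ⟨w₁, hw₁, e₁⟩ := hπ' d g₁ 1 U.one_mem
    obtain ⟨w₂, hw₂, e₂⟩ := hπ' d g₂ 1 U.one_mem
    rw [mul_one] at e₀ e₁ e₂
    simp only [e₀, e₁, e₂]
    rw [hΨ3 _ _ _ _ _ _ hw₀ hw₁ hw₂, hΨ1]
    have h1 : Φ (r (d * π g₀ * w₀)) (r d * g₀) (r d * g₁) (r d * g₂) =
        act d (Φ (r (π g₀)) g₀ g₁ g₂) := by
      have := hΦ3 (r d * r (π g₀)) (r d * g₀) (r d * g₁) (r d * g₂) (r w₀) 1 1 1 hw₀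
        U.one_mem U.one_mem U.one_mem
      rw [mul_one, mul_one, mul_one] at this
      rw [map_mul, map_mul, this, hΦ1]
    have h2 : Φ (r (d * π g₀ * w₀)) (r (d * π g₁ * w₁)) (r d * g₁) (r d * g₂) =
        act d (Φ (r (π g₀)) (r (π g₁)) g₁ g₂) := by
      have := hΦ3 (r d * r (π g₀)) (r d * r (π g₁)) (r d * g₁) (r d * g₂) (r w₀) (r w₁) 1 1
        hw₀ hw₁ U.one_mem U.one_mem
      rw [mul_one, mul_one] at this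
      rw [map_mul, map_mul, map_mul, map_mul, this, hΦ1]
    have h3 : Φ (r (d * π g₀ * w₀)) (r (d * π g₁ * w₁)) (r (d * π g₂ * w₂)) (r d * g₂) =
        act d (Φ (r (π g₀)) (r (π g₁)) (r (π g₂)) g₂) := by
      have := hΦ3 (r d * r (π g₀)) (r d * r (π g₁)) (r d * r (π g₂)) (r d * g₂) (r w₀) (r w₁)
        (r w₂) 1 hw₀ hw₁ hw₂ U.one_mem
      rw [mul_one] at this
      rw [map_mul, map_mul, map_mul, map_mul, map_mul, map_mul, this, hΦ1]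
    rw [h1, h2, h3, map_add, map_sub, map_add]
  · intro g₀ g₁ g₂ u₀ u₁ u₂ hu₀ hu₁ hu₂
    obtain ⟨w₀, hw₀, e₀⟩ := hπ' 1 g₀ u₀ hu₀
    obtain ⟨w₁, hw₁, e₁⟩ := hπ' 1 g₁ u₁ hu₁
    obtain ⟨w₂, hw₂, e₂⟩ := hπ' 1 g₂ u₂ hu₂
    rw [map_one, one_mul, one_mul] at e₀ e₁ e₂
    simp only [e₀, e₁, e₂]
    rw [hΨ3 _ _ _ _ _ _ hw₀ hw₁ hw₂]
    have h1 : Φ (r (π g₀ * w₀)) (g₀ * u₀) (g₁ * u₁) (g₂ * u₂) = Φ (r (π g₀)) g₀ g₁ g₂ := by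
      rw [map_mul]
      exact hΦ3 _ _ _ _ _ _ _ _ hw₀ hu₀ hu₁ hu₂
    have h2 : Φ (r (π g₀ * w₀)) (r (π g₁ * w₁)) (g₁ * u₁) (g₂ * u₂) =
        Φ (r (π g₀)) (r (π g₁)) g₁ g₂ := by
      rw [map_mul, map_mul]
      exact hΦ3 _ _ _ _ _ _ _ _ hw₀ hw₁ hu₁ hu₂
    have h3 : Φ (r (π g₀ * w₀)) (r (π g₁ * w₁)) (r (π g₂ * w₂)) (g₂ * u₂) =
        Φ (r (π g₀)) (r (π g₁)) (r (π g₂)) g₂ := by
      rw [map_mul, map_mul, map_mul]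
      exact hΦ3 _ _ _ _ _ _ _ _ hw₀ hw₁ hw₂ hu₂
    rw [h1, h2, h3]
  · intro g₀ g₁ g₂ g₃
    have c1 := hΦ2 (r (π g₀)) g₀ g₁ g₂ g₃
    have c2 := hΦ2 (r (π g₀)) (r (π g₁)) g₁ g₂ g₃
    have c3 := hΦ2 (r (π g₀)) (r (π g₁)) (r (π g₂)) g₂ g₃
    have c4 := hΦ2 (r (π g₀)) (r (π g₁)) (r (π g₂)) (r (π g₃)) g₃
    have c5 := hΦΨ (π g₀) (π g₁) (π g₂) (π g₃)
    beta_reduce
    rw [← sub_eq_zero]
    have key : Φ g₀ g₁ g₂ g₃ -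
        (Ψ (π g₁) (π g₂) (π g₃) + Φ (r (π g₁)) g₁ g₂ g₃ - Φ (r (π g₁)) (r (π g₂)) g₂ g₃ +
            Φ (r (π g₁)) (r (π g₂)) (r (π g₃)) g₃ -
          (Ψ (π g₀) (π g₂) (π g₃) + Φ (r (π g₀)) g₀ g₂ g₃ - Φ (r (π g₀)) (r (π g₂)) g₂ g₃ +
            Φ (r (π g₀)) (r (π g₂)) (r (π g₃)) g₃) +
          (Ψ (π g₀) (π g₁) (π g₃) + Φ (r (π g₀)) g₀ g₁ g₃ - Φ (r (π g₀)) (r (π g₁)) g₁ g₃ +
            Φ (r (π g₀)) (r (π g₁)) (r (π g₃)) g₃) -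
          (Ψ (π g₀) (π g₁) (π g₂) + Φ (r (π g₀)) g₀ g₁ g₂ - Φ (r (π g₀)) (r (π g₁)) g₁ g₂ +
            Φ (r (π g₀)) (r (π g₁)) (r (π g₂)) g₂)) =
        (Φ g₀ g₁ g₂ g₃ - Φ (r (π g₀)) g₁ g₂ g₃ + Φ (r (π g₀)) g₀ g₂ g₃ -
            Φ (r (π g₀)) g₀ g₁ g₃ + Φ (r (π g₀)) g₀ g₁ g₂) -
          (Φ (r (π g₁)) g₁ g₂ g₃ - Φ (r (π g₀)) g₁ g₂ g₃ + Φ (r (π g₀)) (r (π g₁)) g₂ g₃ -
            Φ (r (π g₀)) (r (π g₁)) g₁ g₃ + Φ (r (π g₀)) (r (π g₁)) g₁ g₂) +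
          (Φ (r (π g₁)) (r (π g₂)) g₂ g₃ - Φ (r (π g₀)) (r (π g₂)) g₂ g₃ +
            Φ (r (π g₀)) (r (π g₁)) g₂ g₃ - Φ (r (π g₀)) (r (π g₁)) (r (π g₂)) g₃ +
            Φ (r (π g₀)) (r (π g₁)) (r (π g₂)) g₂) -
          (Φ (r (π g₁)) (r (π g₂)) (r (π g₃)) g₃ - Φ (r (π g₀)) (r (π g₂)) (r (π g₃)) g₃ +
            Φ (r (π g₀)) (r (π g₁)) (r (π g₃)) g₃ - Φ (r (π g₀)) (r (π g₁)) (r (π g₂)) g₃ +
            Φ (r (π g₀)) (r (π g₁)) (r (π g₂)) (r (π g₃))) +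
          (Φ (r (π g₀)) (r (π g₁)) (r (π g₂)) (r (π g₃)) -
            (Ψ (π g₁) (π g₂) (π g₃) - Ψ (π g₀) (π g₂) (π g₃) + Ψ (π g₀) (π g₁) (π g₃) -
              Ψ (π g₀) (π g₁) (π g₂))) := by
      abel
    rw [key, c1, c2, c3, c4, c5]
    abel

end Fermat.Agent.TW.E


end ZBPT_085_3
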