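/- GENERATED FILE (helper35, build-time optimisation, NOTES/ZB.md): verbatim concatenation of the modules
   Fermat.Agent.TW.E.HerbPlan
   Fermat.Agent.TW.E.Plan2
   Fermat.Agent.TW.E.HerbModels
   Fermat.Agent.TW.E.HerbAdd
   Fermat.Agent.TW.E.CycRed
   Fermat.Agent.TW.E.CycSpl1
   Fermat.Agent.TW.E.CycSpl2
   Fermat.Agent.TW.E.ClFinAbs
   Fermat.Agent.TW.E.ClFin
   Fermat.Agent.TW.E.UnitsCycPlan
   Fermat.Agent.TW.E.UnitsCycFin
   Fermat.Agent.TW.E.UnitsCycFix
   Fermat.Agent.TW.E.UnitsCycInf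
   Fermat.Agent.TW.E.UcycTrace
   Fermat.Agent.TW.E.HerbRank
   Fermat.Agent.TW.E.HerbUnits
   Fermat.Agent.TW.E.HerbFin
   Fermat.Agent.TW.E.HerbFinFinal
   Fermat.Agent.TW.E.HerbLat
   Fermat.Agent.TW.E.HerbRat
   Fermat.Agent.TW.E.HerbPerm
   Fermat.Agent.TW.E.LinkAdd
   Fermat.Agent.TW.E.LinkArch
   Fermat.Agent.TW.E.BrC
   Do not edit; do not import together with these modules. -/
import Fermat.Agent.ZB.TW_014
import Fermat.Agent.ZB.TW_050
import Mathlib
import Fermat.Agent.ZB.PT_003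
import Fermat.Agent.ZB.PT_031
import Fermat.Agent.ZB.PT_046
import Fermat.Agent.ZB.PT_009
import Fermat.Agent.ZB.PT_075
import Fermat.Agent.ZB.PT_007
import Fermat.Agent.ZB.TW_018
import Fermat.Agent.ZB.TW_001
import Fermat.Agent.ZB.S05_001

/-! ### bundled: `Fermat.Agent.TW.E.HerbPlan` -/
section ZBTW_051_0

/-!
# TW-E / E-herb : Herbrand's lemma modulo `p`  (INTERFACE)

Mathlib-only (on top of `K0Plan`).  For a finitely generated `ℤ[Γ]`-module `X` (`X : Rep ℤ Γ`,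
`IsFG X`) and an additive function `ψ` on `Rep (ZMod p) Γ` put
`h_ψ(X) := ψ (X / pX) - ψ (X[p])`.  Then

* `h_ψ` is additive on short exact sequences (`StmtHerbAdd`, the 6-term snake sequence);
* `h_ψ` vanishes on finite modules (`StmtHerbFin`);
* on lattices `h_ψ` only depends on the characteristic polynomials (`StmtHerbLat`, by
  Brauer–Nesbitt `StmtBN`), hence only on the ranks of the fixed modules of the cyclic subgroups
  (`StmtHerbRat`: cyclotomic polynomials are irreducible over `ℚ`);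
* consequently (`StmtHerbRank`, `StmtHerbUnits`): if `rank X^H + 1 = #(H \ S)` for every cyclic
  subgroup `H` and a finite `Γ`-set `S`, then `ψ (X/p) - ψ (X[p]) + ψ (𝔽_p) = ψ (𝔽_p[S])`.

Application (TW-E, E-cyc): `X` = the `Σ`-units of a number field `K` with `Γ = Gal(K/F)`,
`S` = the places of `K` in `Σ ∪ ∞`: the class of `E/p` in `K₀(𝔽_p[Γ])` from the NON-equivariant
unit ranks of the subfields.

Since the quotient `X / pX` and the torsion `X[p]` can be realised in many ways, they enter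
through the predicates `IsModP`, `IsTorP` ("`M` is a model of `X/pX`", "`T` is a model of `X[p]`").
-/

namespace Fermat.Agent.TW.E

open CategoryTheory

/-- `M` is a model of `X / pX`: there is an equivariant additive surjection `X → M` with kernel
`pX`. -/
def IsModP (p : ℕ) {Γ : Type} [Group Γ] (X : Rep.{0} ℤ Γ) (M : Rep.{0} (ZMod p) Γ) : Prop :=
  ∃ f : X.V →+ M.V, Function.Surjective f ∧ (∀ g x, f (X.ρ g x) = M.ρ g (f x)) ∧
    ∀ x, f x = 0 ↔ ∃ y, x = p • y

/-- `T` is a model of `X[p]`: there is an equivariant additive injection `T → X` with image the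
`p`-torsion of `X`. -/
def IsTorP (p : ℕ) {Γ : Type} [Group Γ] (X : Rep.{0} ℤ Γ) (T : Rep.{0} (ZMod p) Γ) : Prop :=
  ∃ f : T.V →+ X.V, Function.Injective f ∧ (∀ g t, f (T.ρ g t) = X.ρ g (f t)) ∧
    ∀ x, p • x = 0 ↔ ∃ t, f t = x

/-- The subgroup of `H`-fixed vectors. Its rank is `Module.finrank ℤ (fixedSub X H)` (for the
canonical `ℤ`-module structure of an additive group: no instance issues). -/
def fixedSub {Γ : Type} [Group Γ] (X : Rep.{0} ℤ Γ) (H : Subgroup Γ) : AddSubgroup X.V where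
  carrier := {x | ∀ h ∈ H, X.ρ h x = x}
  add_mem' := fun {a b} ha hb h hh => by rw [map_add, ha h hh, hb h hh]
  zero_mem' := fun h _ => map_zero _
  neg_mem' := fun {a} ha h hh => by rw [map_neg, ha h hh]

/-- `X` is finitely generated as an abelian group (instance-free). -/
def IsFG {Γ : Type} [Group Γ] (X : Rep.{0} ℤ Γ) : Prop := AddGroup.FG X.V

/-- `X` is a lattice: free of finite rank as an abelian group (instance-free). -/
def IsLat {Γ : Type} [Group Γ] (X : Rep.{0} ℤ Γ) : Prop :=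
  ∃ n : ℕ, Nonempty (X.V ≃+ (Fin n → ℤ))

/-- The characteristic polynomial of `g` on a lattice `X` (and `1` if `X` is not a lattice),
for the `ℤ`-module structure `X.hV2` carried by `X`. -/
noncomputable def latCharpoly {Γ : Type} [Group Γ] (X : Rep.{0} ℤ Γ) (g : Γ) : Polynomial ℤ :=
  open Classical in
  if h : @Module.Free ℤ X.V _ _ X.hV2 ∧ @Module.Finite ℤ X.V _ _ X.hV2 then
    @LinearMap.charpoly ℤ X.V _ _ X.hV2 h.1 h.2 (X.ρ g) else 1

/-- **H-mod.** Models exist, are finite-dimensional for finitely generated `X`, and are unique up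
to isomorphism. -/
def StmtHerbModels : Prop :=
  ∀ (p : ℕ) [Fact p.Prime] (Γ : Type) [Group Γ] (X : Rep.{0} ℤ Γ),
    (∃ M : Rep.{0} (ZMod p) Γ, IsModP p X M) ∧ (∃ T : Rep.{0} (ZMod p) Γ, IsTorP p X T) ∧
    (∀ M M' : Rep.{0} (ZMod p) Γ, IsModP p X M → IsModP p X M' → Nonempty (M ≅ M')) ∧
    (∀ T T' : Rep.{0} (ZMod p) Γ, IsTorP p X T → IsTorP p X T' → Nonempty (T ≅ T')) ∧
    (IsFG X → ∀ M : Rep.{0} (ZMod p) Γ, IsModP p X M → Module.Finite (ZMod p) M.V) ∧
    (IsFG X → ∀ T : Rep.{0} (ZMod p) Γ, IsTorP p X T → Module.Finite (ZMod p) T.V)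

/-- **H-add.** `h_ψ` is additive on short exact sequences of finitely generated modules. -/
def StmtHerbAdd : Prop :=
  ∀ (p : ℕ) [Fact p.Prime] (Γ : Type) [Group Γ] (ψ : Rep.{0} (ZMod p) Γ → ℤ), IsAddFun ψ →
    ∀ (X' X X'' : Rep.{0} ℤ Γ) (f : X' ⟶ X) (g : X ⟶ X''), IsFG X →
    Function.Injective f.hom → Function.Surjective g.hom → Function.Exact f.hom g.hom →
    ∀ M' T' M T M'' T'' : Rep.{0} (ZMod p) Γ,
      IsModP p X' M' → IsTorP p X' T' → IsModP p X M → IsTorP p X T →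
      IsModP p X'' M'' → IsTorP p X'' T'' →
      ψ M - ψ T = (ψ M' - ψ T') + (ψ M'' - ψ T'')

/-- **H-fin.** `h_ψ` vanishes on finite modules. -/
def StmtHerbFin : Prop :=
  ∀ (p : ℕ) [Fact p.Prime] (Γ : Type) [Group Γ] (ψ : Rep.{0} (ZMod p) Γ → ℤ), IsAddFun ψ →
    ∀ (X : Rep.{0} ℤ Γ), Finite X.V → ∀ M T : Rep.{0} (ZMod p) Γ,
      IsModP p X M → IsTorP p X T → ψ M = ψ T

/-- **H-lat.** On lattices `ψ (X/p)` only depends on the characteristic polynomials of the
elements of `Γ` (Brauer–Nesbitt). -/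
def StmtHerbLat : Prop :=
  ∀ (p : ℕ) [Fact p.Prime] (Γ : Type) [Group Γ] [Finite Γ] (ψ : Rep.{0} (ZMod p) Γ → ℤ),
    IsAddFun ψ → ∀ (X Y : Rep.{0} ℤ Γ), IsLat X → IsLat Y →
      (∀ g : Γ, latCharpoly X g = latCharpoly Y g) →
      ∀ M N : Rep.{0} (ZMod p) Γ, IsModP p X M → IsModP p Y N → ψ M = ψ N

/-- **H-rat.** For lattices, the characteristic polynomials of the elements of `Γ` are determined
by the ranks of the fixed modules of the cyclic subgroups. -/
def StmtHerbRat : Prop :=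
  ∀ (Γ : Type) [Group Γ] [Finite Γ] (X Y : Rep.{0} ℤ Γ), IsLat X → IsLat Y →
    (∀ H : Subgroup Γ, IsCyclic H →
      Module.finrank ℤ (fixedSub X H) = Module.finrank ℤ (fixedSub Y H)) →
    ∀ g : Γ, latCharpoly X g = latCharpoly Y g

/-- **H-rank.** Herbrand's lemma modulo `p`: for finitely generated `X`, `Y` with the same ranks of
fixed modules of all cyclic subgroups, `h_ψ(X) = h_ψ(Y)`. -/
def StmtHerbRank : Prop :=
  ∀ (p : ℕ) [Fact p.Prime] (Γ : Type) [Group Γ] [Finite Γ] (ψ : Rep.{0} (ZMod p) Γ → ℤ),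
    IsAddFun ψ → ∀ (X Y : Rep.{0} ℤ Γ), IsFG X → IsFG Y →
      (∀ H : Subgroup Γ, IsCyclic H →
        Module.finrank ℤ (fixedSub X H) = Module.finrank ℤ (fixedSub Y H)) →
      ∀ M T N U : Rep.{0} (ZMod p) Γ, IsModP p X M → IsTorP p X T → IsModP p Y N → IsTorP p Y U →
        ψ M - ψ T = ψ N - ψ U

/-- **H-perm.** The permutation lattice `ℤ[S]`: its reduction is `𝔽_p[S]`, it has no torsion, and
the rank of its `H`-fixed module is the number of `H`-orbits on `S`. -/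
def StmtHerbPerm : Prop :=
  ∀ (p : ℕ) [Fact p.Prime] (Γ : Type) [Group Γ] (S : Type) [Finite S] [MulAction Γ S],
    IsModP p (Rep.ofMulAction ℤ Γ S) (Rep.ofMulAction (ZMod p) Γ S) ∧
    (∀ T : Rep.{0} (ZMod p) Γ, IsTorP p (Rep.ofMulAction ℤ Γ S) T → Subsingleton T.V) ∧
    ∀ H : Subgroup Γ, Module.finrank ℤ (fixedSub (Rep.ofMulAction ℤ Γ S) H) =
      Nat.card (MulAction.orbitRel.Quotient H S)

/-- **H-units.** The form used for units: if `rank X^H + 1 = #(H \ S)` for all cyclic subgroups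
`H`, then `ψ (X/p) - ψ (X[p]) + ψ (𝔽_p) = ψ (𝔽_p[S])`. -/
def StmtHerbUnits : Prop :=
  ∀ (p : ℕ) [Fact p.Prime] (Γ : Type) [Group Γ] [Finite Γ] (ψ : Rep.{0} (ZMod p) Γ → ℤ),
    IsAddFun ψ → ∀ (X : Rep.{0} ℤ Γ), IsFG X →
      ∀ (S : Type) [Finite S] [MulAction Γ S],
      (∀ H : Subgroup Γ, IsCyclic H →
        Module.finrank ℤ (fixedSub X H) + 1 = Nat.card (MulAction.orbitRel.Quotient H S)) →
      ∀ M T : Rep.{0} (ZMod p) Γ, IsModP p X M → IsTorP p X T →
        ψ M - ψ T + ψ (Rep.trivial (ZMod p) Γ (ZMod p)) = ψ (Rep.ofMulAction (ZMod p) Γ S)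

end Fermat.Agent.TW.E


end ZBTW_051_0

/-! ### bundled: `Fermat.Agent.TW.E.Plan2` -/
section ZBTW_051_1
/-
Project TW (S56) — part TW-E, block **E-cyc** (captain helper75): INTERFACE FILE.
Target: `StmtCyc` (Plan3.lean) — the Euler characteristic formula for the modules coinduced from
cyclic subgroups of order prime to `p`.  Mathematics and piece table: NOTES/TW-E-cyc.md.

Notation: `U` a normal level with `χ|_U = 1`, `Γ = G ⧸ U`, `𝓜 = regMu χ U = Hom_ℤ(ℤ[Γ], μ_p)`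
(functions `Γ → 𝔽_p`, `(g ψ)(γ) = χ(g) ψ(ḡ⁻¹ γ)`), on which `Γ` acts by right translations
`R_δ = regRt χ U δ` (`G`-endomorphisms).  By functoriality (`CycFun.lean`) `Γ` acts on
`H^j_lev(G, 𝓜)`: the representations `cycH0`, `cycH1`, `cycH2` of `Γ` over `𝔽_p`.
In the same way `Γ` acts on `H^j_lev(G, Hom_ℤ(ℤ[Γ], Y))` (`cycZ1`, `cycZ2`; `Y = E, J, C`).

  StmtCyc  ⟸ (Y-red)  StmtCycChi  ⟸ (Y-asm2)  StmtKum + StmtLink
  StmtKum  ⟸ (Y-asm1) StmtKumH0, StmtKumH1, StmtKumH2 (Kummer sequences), StmtBrSeq, StmtBrJ,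
                       StmtBrC (the `p`-torsion of `H²(𝓔)`), StmtClFin, StmtUnitsCyc (concrete:
                       class number, Dirichlet), E-herb (`StmtHerbUnits`, `StmtHerbFin`),
                       StmtKumSplice, StmtTorSplice (pure algebra).
  StmtLink : `coind_C^Γ M ≅ Hom_C(M^* ⊗ χ, 𝓜)` + linear functors commute with `Hom_C(N, -)`.

A piece `X` is DONE when `theorem stmtX : StmtX` (or `stmtX_of : … → StmtX`) is landed in its own
file `Fermat/Agent/TW/E/<File>.lean`, namespace `Fermat.Agent.TW.E`, sorry-free, names prefixed.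
-/

set_option autoImplicit false
set_option linter.unusedSectionVars false

noncomputable section

namespace Fermat.Agent.TW.E

open CategoryTheory groupCohomology Module Fermat.Agent.PT Fermat.Agent.PT.F Fermat.Agent.PT.B
  Fermat.Agent.TW.F ExtCitation

/-! ### The regular module `𝓜 = Hom_ℤ(ℤ[Γ], μ_p)`, `Γ = G ⧸ U` -/

section Reg

variable {p : ℕ} {G : Type} [Group G]

/-- The action of `G` on the functions `Γ → 𝔽_p`, `Γ = G ⧸ U`:
`(g ψ)(γ) = χ(g) ψ(ḡ⁻¹ γ)`.  This is `Hom_ℤ(ℤ[Γ], μ_p)` with the conjugation action. -/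
def regMuρ (χ : G →* (ZMod p)ˣ) (U : Subgroup G) [U.Normal] :
    Representation (ZMod p) G ((G ⧸ U) → ZMod p) where
  toFun g :=
    { toFun := fun ψ γ => (χ g : ZMod p) * ψ ((g : G ⧸ U)⁻¹ * γ)
      map_add' := fun ψ ψ' => by
        funext γ
        simp [mul_add]
      map_smul' := fun a ψ => by
        funext γ
        simp [mul_left_comm] }
  map_one' := by
    ext ψ γ
    simp
  map_mul' g h := by
    ext ψ γ
    simp [mul_assoc]

/-- **The regular module** `𝓜_U = Hom_ℤ(ℤ[G ⧸ U], μ_p)` as an `𝔽_p`-representation of `G`. -/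
def regMu (χ : G →* (ZMod p)ˣ) (U : Subgroup G) [U.Normal] : Rep.{0} (ZMod p) G :=
  Rep.of (regMuρ χ U)

@[simp] lemma regMu_ρ_apply (χ : G →* (ZMod p)ˣ) (U : Subgroup G) [U.Normal] (g : G)
    (ψ : (G ⧸ U) → ZMod p) (γ : G ⧸ U) :
    (regMu χ U).ρ g ψ γ = (χ g : ZMod p) * ψ ((g : G ⧸ U)⁻¹ * γ) := rfl

/-- Right translation `(R_δ ψ)(γ) = ψ(γ δ)`, a `G`-endomorphism of `𝓜_U`. -/
def regRt (χ : G →* (ZMod p)ˣ) (U : Subgroup G) [U.Normal] (δ : G ⧸ U) :
    regMu χ U ⟶ regMu χ U :=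
  Rep.ofHom (ρ := regMuρ χ U) (σ := regMuρ χ U)
    ⟨LinearMap.funLeft (ZMod p) (ZMod p) (fun γ : G ⧸ U => γ * δ), fun g => by
      ext ψ γ
      simp [regMuρ, LinearMap.funLeft, mul_assoc]⟩

@[simp] lemma regRt_apply (χ : G →* (ZMod p)ˣ) (U : Subgroup G) [U.Normal] (δ : G ⧸ U)
    (ψ : (G ⧸ U) → ZMod p) (γ : G ⧸ U) : (regRt χ U δ).hom ψ γ = ψ (γ * δ) := rfl

lemma regRt_one (χ : G →* (ZMod p)ˣ) (U : Subgroup G) [U.Normal] :
    regRt χ U 1 = 𝟙 (regMu χ U) := by
  apply Rep.hom_ext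
  ext ψ
  funext γ
  show (ψ : (G ⧸ U) → ZMod p) (γ * 1) = ψ γ
  rw [mul_one]

lemma regRt_mul (χ : G →* (ZMod p)ˣ) (U : Subgroup G) [U.Normal] (δ δ' : G ⧸ U) :
    regRt χ U (δ * δ') = regRt χ U δ' ≫ regRt χ U δ := by
  apply Rep.hom_ext
  ext ψ
  funext γ
  show (ψ : (G ⧸ U) → ZMod p) (γ * (δ * δ')) = ψ (γ * δ * δ')
  rw [mul_assoc]

end Reg

/-! ### The `Γ`-modules `H^j_lev(G, 𝓜)` -/

section CycH

variable {p : ℕ} {G : Type} [Group G] (𝒯 : Tower G) (χ : G →* (ZMod p)ˣ)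
  (U : Subgroup G) [U.Normal]

/-- the action of `Γ = G ⧸ U` on `H⁰(G, 𝓜_U)` -/
def cycH0ρ : Representation (ZMod p) (G ⧸ U) ↥((regMu χ U).ρ.invariants) where
  toFun δ := invMap (regRt χ U δ)
  map_one' := by rw [regRt_one, invMap_id]; rfl
  map_mul' δ δ' := by rw [regRt_mul, invMap_comp]; rfl

/-- the action of `Γ = G ⧸ U` on `H¹_lev(G, 𝓜_U)` -/
def cycH1ρ : Representation (ZMod p) (G ⧸ U) ↥(levH1 𝒯 (regMu χ U)) where
  toFun δ := levH1Map 𝒯 (regRt χ U δ)
  map_one' := by rw [regRt_one, levH1Map_id]; rfl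
  map_mul' δ δ' := by rw [regRt_mul, levH1Map_comp]; rfl

/-- the action of `Γ = G ⧸ U` on `H²_lev(G, 𝓜_U)` -/
def cycH2ρ : Representation (ZMod p) (G ⧸ U) (levH2 𝒯 (regMu χ U)) where
  toFun δ := levH2Map 𝒯 (regRt χ U δ)
  map_one' := by rw [regRt_one, levH2Map_id]; rfl
  map_mul' δ δ' := by rw [regRt_mul, levH2Map_comp]; rfl

/-- `H⁰(G, 𝓜_U)` as a representation of `Γ = G ⧸ U` -/
def cycH0 : Rep.{0} (ZMod p) (G ⧸ U) := Rep.of (cycH0ρ χ U)

/-- `H¹_lev(G, 𝓜_U)` as a representation of `Γ = G ⧸ U` -/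
def cycH1 : Rep.{0} (ZMod p) (G ⧸ U) := Rep.of (cycH1ρ 𝒯 χ U)

/-- `H²_lev(G, 𝓜_U)` as a representation of `Γ = G ⧸ U` -/
def cycH2 : Rep.{0} (ZMod p) (G ⧸ U) := Rep.of (cycH2ρ 𝒯 χ U)

end CycH

/-! ### The `Γ`-modules `H^j_lev(G, Hom_ℤ(ℤ[Γ], Y))`, `Y ∈ {E, J, C}` -/

section CycZ

attribute [local instance 1100] Rep.hV2

variable {G : Type} [Group G] (U : Subgroup G) [U.Normal]

/-- right translation by `δ` on `ℤ[Γ]`, `γ ↦ γ δ` -/
def rtAdd (δ : G ⧸ U) : (permZ G (G ⧸ U)).V →+ (permZ G (G ⧸ U)).V :=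
  ((MonoidAlgebra.coeffAddEquiv (R := ℤ) (M := G ⧸ U)).symm.toAddMonoidHom.comp
    (Finsupp.mapDomain.addMonoidHom (fun γ : G ⧸ U => γ * δ))).comp
    (MonoidAlgebra.coeffAddEquiv (R := ℤ) (M := G ⧸ U)).toAddMonoidHom

lemma rtAdd_single (δ γ : G ⧸ U) (n : ℤ) :
    rtAdd U δ (MonoidAlgebra.single γ n) = MonoidAlgebra.single (γ * δ) n := by
  simp [rtAdd, MonoidAlgebra.coeffAddEquiv]

/-- additive maps out of `ℤ[Γ]` agree if they agree on the basis -/
lemma cyc_ext {A : Type} [AddCommGroup A] (f f' : (permZ G (G ⧸ U)).V →+ A)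
    (h : ∀ (γ : G ⧸ U) (n : ℤ), f (MonoidAlgebra.single γ n) = f' (MonoidAlgebra.single γ n)) :
    f = f' :=
  MonoidAlgebra.addMonoidHom_ext h

/-- left and right translations commute -/
lemma rtAdd_ρ (δ : G ⧸ U) (g : G) (m : (permZ G (G ⧸ U)).V) :
    rtAdd U δ ((permZ G (G ⧸ U)).ρ g m) = (permZ G (G ⧸ U)).ρ g (rtAdd U δ m) := by
  have h : (rtAdd U δ).comp (actAdd (permZ G (G ⧸ U)) g) =
      (actAdd (permZ G (G ⧸ U)) g).comp (rtAdd U δ) := by
    apply cyc_ext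
    intro γ n
    show rtAdd U δ ((permZ G (G ⧸ U)).ρ g (MonoidAlgebra.single γ n)) =
      (permZ G (G ⧸ U)).ρ g (rtAdd U δ (MonoidAlgebra.single γ n))
    rw [rtAdd_single]
    erw [Representation.ofMulAction_single, Representation.ofMulAction_single]
    rw [rtAdd_single]
    congr 1
    obtain ⟨x, rfl⟩ := QuotientGroup.mk_surjective γ
    obtain ⟨d, rfl⟩ := QuotientGroup.mk_surjective δ
    rw [← QuotientGroup.mk_mul, MulAction.Quotient.smul_mk, MulAction.Quotient.smul_mk,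
      ← QuotientGroup.mk_mul, smul_eq_mul, smul_eq_mul, mul_assoc]
  exact DFunLike.congr_fun h m

lemma rtAdd_one_apply (m : (permZ G (G ⧸ U)).V) : rtAdd U 1 m = m := by
  have h : rtAdd U 1 = AddMonoidHom.id _ := by
    apply cyc_ext
    intro γ n
    rw [rtAdd_single, mul_one]
    rfl
  rw [h]
  rfl

lemma rtAdd_mul_apply (δ δ' : G ⧸ U) (m : (permZ G (G ⧸ U)).V) :
    rtAdd U (δ * δ') m = rtAdd U δ' (rtAdd U δ m) := by
  have h : rtAdd U (δ * δ') = (rtAdd U δ').comp (rtAdd U δ) := by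
    apply cyc_ext
    intro γ n
    rw [rtAdd_single, AddMonoidHom.comp_apply, rtAdd_single, rtAdd_single, mul_assoc]
  rw [h]
  rfl

variable (Y : Rep.{0} ℤ G)

/-- `R_δ` on `Hom_ℤ(ℤ[Γ], Y)`: precomposition with the right translation by `δ`;
a `G`-endomorphism. -/
def homRt (δ : G ⧸ U) : homRep (permZ G (G ⧸ U)) Y ⟶ homRep (permZ G (G ⧸ U)) Y :=
  mkHom (AddMonoidHom.compHom' (rtAdd U δ)) (fun g φ => by
    refine AddMonoidHom.ext fun m => ?_
    show (homRepρ (permZ G (G ⧸ U)) Y g φ) (rtAdd U δ m) =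
      homRepρ (permZ G (G ⧸ U)) Y g (φ.comp (rtAdd U δ)) m
    rw [homRepρ_apply, homRepρ_apply, AddMonoidHom.comp_apply, rtAdd_ρ])

@[simp] lemma homRt_apply (δ : G ⧸ U) (φ : (permZ G (G ⧸ U)).V →+ Y.V)
    (m : (permZ G (G ⧸ U)).V) :
    ((homRt U Y δ).hom φ : (permZ G (G ⧸ U)).V →+ Y.V) m = φ (rtAdd U δ m) := rfl

lemma homRt_one : homRt U Y 1 = 𝟙 _ := by
  apply Rep.hom_ext
  apply Representation.IntertwiningMap.ext
  refine LinearMap.ext fun φ => ?_
  refine AddMonoidHom.ext fun m => ?_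
  show (φ : (permZ G (G ⧸ U)).V →+ Y.V) (rtAdd U 1 m) = φ m
  rw [rtAdd_one_apply]

lemma homRt_mul (δ δ' : G ⧸ U) : homRt U Y (δ * δ') = homRt U Y δ' ≫ homRt U Y δ := by
  apply Rep.hom_ext
  apply Representation.IntertwiningMap.ext
  refine LinearMap.ext fun φ => ?_
  refine AddMonoidHom.ext fun m => ?_
  show (φ : (permZ G (G ⧸ U)).V →+ Y.V) (rtAdd U (δ * δ') m) = φ (rtAdd U δ' (rtAdd U δ m))
  rw [rtAdd_mul_apply]

variable (𝒯 : Tower G)

/-- `H¹_lev(G, Hom_ℤ(ℤ[Γ], Y))` as a representation of `Γ = G ⧸ U` over `ℤ` -/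
def cycZ1 : Rep.{0} ℤ (G ⧸ U) :=
  Rep.of (X := ↥(levH1 𝒯 (homRep (permZ G (G ⧸ U)) Y)))
    { toFun := fun δ => levH1Map 𝒯 (homRt U Y δ)
      map_one' := by rw [homRt_one, levH1Map_id]; rfl
      map_mul' := fun δ δ' => by rw [homRt_mul, levH1Map_comp]; rfl }

/-- `H²_lev(G, Hom_ℤ(ℤ[Γ], Y))` as a representation of `Γ = G ⧸ U` over `ℤ` -/
def cycZ2 : Rep.{0} ℤ (G ⧸ U) :=
  Rep.of (X := levH2 𝒯 (homRep (permZ G (G ⧸ U)) Y))
    { toFun := fun δ => levH2Map 𝒯 (homRt U Y δ)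
      map_one' := by rw [homRt_one, levH2Map_id]; rfl
      map_mul' := fun δ δ' => by rw [homRt_mul, levH2Map_comp]; rfl }

end CycZ

/-! ### Splicing predicates (pure algebra) -/

section Splice

variable {Γ : Type} [Group Γ]

/-- A Kummer-type exact sequence  `X —p→ X —a→ V —b→ Y —p→ Y`  of `Γ`-modules (`V` killed by
`p`): `a`, `b` are `Γ`-equivariant additive maps, `ker a = pX`, `ker b = im a`, `im b = Y[p]`. -/
def IsKumSeq (p : ℕ) (X : Rep.{0} ℤ Γ) (V : Rep.{0} (ZMod p) Γ) (Y : Rep.{0} ℤ Γ) : Prop :=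
  ∃ (a : X.V →+ V.V) (b : V.V →+ Y.V),
    (∀ g x, a (X.ρ g x) = V.ρ g (a x)) ∧ (∀ g v, b (V.ρ g v) = Y.ρ g (b v)) ∧
    (∀ x, a x = 0 ↔ ∃ y, x = p • y) ∧ (∀ v, b v = 0 ↔ ∃ x, a x = v) ∧
    (∀ y, p • y = 0 ↔ ∃ v, b v = y)

/-- A sequence  `X —i→ Y —π→ Z`  of `Γ`-modules which is short exact on the `p`-torsion:
`0 → X[p] → Y[p] → Z[p] → 0`. -/
def IsTorSeq (p : ℕ) (X Y Z : Rep.{0} ℤ Γ) : Prop :=
  ∃ (i : X.V →+ Y.V) (π : Y.V →+ Z.V),
    (∀ g x, i (X.ρ g x) = Y.ρ g (i x)) ∧ (∀ g y, π (Y.ρ g y) = Z.ρ g (π y)) ∧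
    (∀ x, p • x = 0 → i x = 0 → x = 0) ∧
    (∀ y, p • y = 0 → (π y = 0 ↔ ∃ x, p • x = 0 ∧ i x = y)) ∧
    (∀ z, p • z = 0 → ∃ y, p • y = 0 ∧ π y = z)

/-- **Y-spl1 (pure algebra).** `ψ(V) = ψ(X/p) + ψ(Y[p])` for a Kummer sequence. -/
def StmtKumSplice : Prop :=
  ∀ (p : ℕ) [Fact p.Prime] (Γ : Type) [Group Γ] (ψ : Rep.{0} (ZMod p) Γ → ℤ), IsAddFun ψ →
    ∀ (X Y : Rep.{0} ℤ Γ) (V : Rep.{0} (ZMod p) Γ), Module.Finite (ZMod p) V.V →
      IsKumSeq p X V Y → ∀ M T : Rep.{0} (ZMod p) Γ, IsModP p X M → IsTorP p Y T →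
        ψ V = ψ M + ψ T

/-- **Y-spl2 (pure algebra).** `ψ(Y[p]) = ψ(X[p]) + ψ(Z[p])` for a sequence which is short exact
on the `p`-torsion. -/
def StmtTorSplice : Prop :=
  ∀ (p : ℕ) [Fact p.Prime] (Γ : Type) [Group Γ] (ψ : Rep.{0} (ZMod p) Γ → ℤ), IsAddFun ψ →
    ∀ (X Y Z : Rep.{0} ℤ Γ), IsTorSeq p X Y Z →
      ∀ T TJ TC : Rep.{0} (ZMod p) Γ, IsTorP p X T → IsTorP p Y TJ → IsTorP p Z TC →
        Module.Finite (ZMod p) TJ.V → ψ TJ = ψ T + ψ TC

end Splice

/-! ### The Kummer package (abstract datum) -/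

section Kummer

variable {p : ℕ} {G : Type} [Group G] {ι : Type} {Gloc : ι → Type} [∀ v, Group (Gloc v)]

/-- the units of the level `U`: `E^U` as a representation of `Γ = G ⧸ U` -/
abbrev cycUnits (D : PTDatum p G ι Gloc) (U : Subgroup G) [U.Normal] : Rep.{0} ℤ (G ⧸ U) :=
  D.E.quotientToInvariants U

/-- the decomposition group of `v` in `Γ = G ⧸ U` -/
def cycDec (D : PTDatum p G ι Gloc) (U : Subgroup G) [U.Normal] (v : ι) : Subgroup (G ⧸ U) :=
  (D.r v).range.map (QuotientGroup.mk' U)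

end Kummer

/-- **K-H0.** `H⁰(G, 𝓜) = μ_p ≅ E^U[p]`, `Γ`-equivariantly (`ψ ↦ ψ(1) • ζ`). -/
def StmtKumH0 : Prop :=
  ∀ (p : ℕ) [Fact p.Prime] (G : Type) [Group G] (ι : Type) [Fintype ι] [Nonempty ι]
    (Gloc : ι → Type) [∀ v, Group (Gloc v)] (D : PTDatum p G ι Gloc)
    (U : Subgroup G) [U.Normal], U ∈ D.𝒯.lev → (∀ s ∈ U, D.χ s = 1) →
      IsTorP p (cycUnits D U) (cycH0 D.χ U)

/-- **K-H1.** The Kummer sequence in degree 1:
`E^U —p→ E^U —∂→ H¹_lev(G, 𝓜) —κ→ H¹_lev(G, 𝓔) —p→ H¹_lev(G, 𝓔)`, `Γ`-equivariantly. -/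
def StmtKumH1 : Prop :=
  ∀ (p : ℕ) [Fact p.Prime] (G : Type) [Group G] (ι : Type) [Fintype ι] [Nonempty ι]
    (Gloc : ι → Type) [∀ v, Group (Gloc v)] (D : PTDatum p G ι Gloc)
    (U : Subgroup G) [U.Normal], U ∈ D.𝒯.lev → (∀ s ∈ U, D.χ s = 1) →
      IsKumSeq p (cycUnits D U) (cycH1 D.𝒯 D.χ U) (cycZ1 U D.E D.𝒯)

/-- **K-H2.** The Kummer sequence in degree 2:
`H¹_lev(𝓔) —p→ H¹_lev(𝓔) —∂→ H²_lev(G, 𝓜) —κ→ H²_lev(G, 𝓔) —p→ H²_lev(G, 𝓔)`. -/
def StmtKumH2 : Prop :=
  ∀ (p : ℕ) [Fact p.Prime] (G : Type) [Group G] (ι : Type) [Fintype ι] [Nonempty ι]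
    (Gloc : ι → Type) [∀ v, Group (Gloc v)] (D : PTDatum p G ι Gloc)
    (U : Subgroup G) [U.Normal], U ∈ D.𝒯.lev → (∀ s ∈ U, D.χ s = 1) →
      IsKumSeq p (cycZ1 U D.E D.𝒯) (cycH2 D.𝒯 D.χ U) (cycZ2 U D.E D.𝒯)

/-- **K-Br.** `0 → H²(𝓔)[p] → H²(𝓙)[p] → H²(𝓒)[p] → 0`, `Γ`-equivariantly
(`In1` for `ℤ[Γ]`: injectivity; `exact`, `π_surj`: exactness in the middle; the generator of
`H²(𝓒)[p]` comes from a local class: surjectivity). -/
def StmtBrSeq : Prop :=
  ∀ (p : ℕ) [Fact p.Prime] (G : Type) [Group G] (ι : Type) [Fintype ι] [Nonempty ι]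
    (Gloc : ι → Type) [∀ v, Group (Gloc v)] (D : PTDatum p G ι Gloc), HasPDepthGlob D →
    ∀ (U : Subgroup G) [U.Normal], U ∈ D.𝒯.lev →
      IsTorSeq p (cycZ2 U D.E D.𝒯) (cycZ2 U (PTJ D) D.𝒯) (cycZ2 U D.C D.𝒯)

/-- **K-BrJ.** `H²_lev(G, Hom(ℤ[Γ], J))[p] ≅ 𝔽_p[⊔_v Γ ⧸ D_v]` as `Γ`-modules: the classes
`e_{v,γ} = (Θ_{v,γ})_* u_v`, `Θ_{v,γ}(x)(γ') = 1_{[γ' ∈ D_v γ]}·x_v`, are permuted by `Γ` and
form a basis. -/
def StmtBrJ : Prop :=
  ∀ (p : ℕ) [Fact p.Prime] (G : Type) [Group G] (ι : Type) [Fintype ι] [Nonempty ι]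
    (Gloc : ι → Type) [∀ v, Group (Gloc v)] (D : PTDatum p G ι Gloc), HasPDepthGlob D →
    ∀ (U : Subgroup G) [U.Normal], U ∈ D.𝒯.lev →
      ∃ T : Rep.{0} (ZMod p) (G ⧸ U), IsTorP p (cycZ2 U (PTJ D) D.𝒯) T ∧
        Nonempty (T ≅ Rep.ofMulAction (ZMod p) (G ⧸ U) (Σ v : ι, (G ⧸ U) ⧸ cycDec D U v))

/-- **K-BrC.** `H²_lev(G, Hom(ℤ[Γ], C))[p] ≅ 𝔽_p` with trivial action of `Γ` (it is generated
by the image of a class of `H²_lev(G, C)` under the constants `C → Hom(ℤ[Γ], C)`, which are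
invariant under right translations). -/
def StmtBrC : Prop :=
  ∀ (p : ℕ) [Fact p.Prime] (G : Type) [Group G] (ι : Type) [Fintype ι] [Nonempty ι]
    (Gloc : ι → Type) [∀ v, Group (Gloc v)] (D : PTDatum p G ι Gloc), HasPDepthGlob D →
    ∀ (U : Subgroup G) [U.Normal], U ∈ D.𝒯.lev →
      ∃ T : Rep.{0} (ZMod p) (G ⧸ U), IsTorP p (cycZ2 U D.C D.𝒯) T ∧
        Nonempty (T ≅ Rep.trivial (ZMod p) (G ⧸ U) (ZMod p))

/-! ### The concrete inputs -/

/-- the image of complex conjugation in `G_ℚ ⧸ U` -/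
def cycConj (U : Subgroup GQ) [U.Normal] : GQ ⧸ U := ((complexConjugation : GQ) : GQ ⧸ U)

/-- the subgroups of `Γ = G ⧸ U` whose coset spaces are the places of the level `U`:
`none ↦ ⟨c̄⟩` (the infinite places), `some v ↦ D_v` (the places above `v`). -/
def cycPl {p : ℕ} {G : Type} [Group G] {ι : Type} {Gloc : ι → Type} [∀ v, Group (Gloc v)]
    (D : PTDatum p G ι Gloc) (U : Subgroup G) [U.Normal] (c : G ⧸ U) :
    Option ι → Subgroup (G ⧸ U) :=
  fun i => i.elim (Subgroup.zpowers c) (cycDec D U)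

/-- **K-Cl (concrete input).** `H¹_lev(G_ℚ, Hom(ℤ[Γ], E_S))` (`= H¹(G_S(L), 𝒪_S^×) = Cl_S(L)`,
`L` the field of `U`) is finite. -/
def StmtClFin : Prop :=
  ∀ (S : Finset Nat.Primes), S.Nonempty → ∀ (U : Subgroup GQ) [U.Normal], U ∈ (towerS S).lev →
    Finite ↥(levH1 (towerS S) (homRep (permZ GQ (GQ ⧸ U)) (ERep S)))

/-- **K-units (concrete input).** Dirichlet's `S`-unit theorem in group-theoretic form: the
`S`-units `E^U` of the field `L` of `U` are finitely generated, and for every (cyclic) subgroup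
`H` of `Γ = Gal(L/ℚ)`:  `rank (E^U)^H + 1 = #(H \ (places of L above S ∪ {∞}))`. -/
def StmtUnitsCyc : Prop :=
  ∀ (p : ℕ) [Fact p.Prime] (hp2 : p ≠ 2) (S : Finset Nat.Primes) (hpS : pPrime p ∈ S)
    (hcg : StmtCmGlob) (hcl : StmtCmLoc) (hh : StmtH90Loc) (hex : StmtExistC) (hsv : StmtSurvC)
    (U : Subgroup GQ) [U.Normal], U ∈ (towerS S).lev →
    IsFG (cycUnits (concreteDatum p hp2 S hpS hcg hcl hh hex hsv) U) ∧
    ∀ H : Subgroup (GQ ⧸ U), IsCyclic H →
      Module.finrank ℤ ↥(fixedSub (cycUnits (concreteDatum p hp2 S hpS hcg hcl hh hex hsv) U) H)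
          + 1 =
        Nat.card (MulAction.orbitRel.Quotient H
          (Σ i : Option ↥S, (GQ ⧸ U) ⧸
            cycPl (concreteDatum p hp2 S hpS hcg hcl hh hex hsv) U (cycConj U) i))

/-! ### The two halves and the targets -/

/-- **E-cyc/Kum (the Kummer package).** For a normal level `U` on which `χ` is trivial, in
`K₀(𝔽_p[Γ])`:  `[H⁰(𝓜)] - [H¹(𝓜)] + [H²(𝓜)] = -[𝔽_p[Γ ⧸ ⟨c̄⟩]]`. -/
def StmtKum : Prop :=
  ∀ (p : ℕ) [Fact p.Prime], p ≠ 2 → ∀ (S : Finset Nat.Primes), pPrime p ∈ S →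
    StmtCmGlob → StmtCmLoc → StmtH90Loc → StmtExistC → StmtSurvC →
    ∀ (U : Subgroup GQ) [U.Normal], U ∈ (towerS S).lev → (∀ s ∈ U, cycloChar p s = 1) →
      Module.Finite (ZMod p) ↥(levH1 (towerS S) (regMu (cycloChar p) U)) ∧
      Module.Finite (ZMod p) (levH2 (towerS S) (regMu (cycloChar p) U)) ∧
      ∀ ψ : Rep.{0} (ZMod p) (GQ ⧸ U) → ℤ, IsAddFun ψ →
        ψ (cycH0 (cycloChar p) U) + ψ (cycH2 (towerS S) (cycloChar p) U) +
            ψ (Rep.ofMulAction (ZMod p) (GQ ⧸ U) ((GQ ⧸ U) ⧸ Subgroup.zpowers (cycConj U))) =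
          ψ (cycH1 (towerS S) (cycloChar p) U)

/-- **E-cyc/Link.** For a subgroup `C ≤ Γ = G ⧸ U` of order prime to `p` and a finite
`𝔽_p[C]`-module `M`, the module `B = coind_C^Γ M` is `Hom_C(M^* ⊗ χ, 𝓜)`; hence for the additive
function `ψ = dim Hom_C(M^* ⊗ χ, -)`:  `h^j_lev(G, B) = ψ(H^j_lev(G, 𝓜))`, and
`dim B - dim B^{c} = ψ(𝔽_p[Γ ⧸ ⟨c̄⟩])` for every `c` with `c² = 1`, `χ(c) = -1`. -/
def StmtLink : Prop :=
  ∀ (p : ℕ) [Fact p.Prime], p ≠ 2 → ∀ (G : Type) [Group G] (𝒯 : Tower G)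
    (χ : G →* (ZMod p)ˣ) (U : Subgroup G) [U.Normal], U ∈ 𝒯.lev → (∀ s ∈ U, χ s = 1) →
    Module.Finite (ZMod p) ↥(levH1 𝒯 (regMu χ U)) →
    Module.Finite (ZMod p) (levH2 𝒯 (regMu χ U)) →
    ∀ (c : G), c * c = 1 → χ c = -1 →
    ∀ (C : Subgroup (G ⧸ U)), (Nat.card C).Coprime p →
    ∀ (M : Rep.{0} (ZMod p) C), Module.Finite (ZMod p) M.V →
      ∃ ψ : Rep.{0} (ZMod p) (G ⧸ U) → ℤ, IsAddFun ψ ∧
        Module.Finite (ZMod p)
          (levH2 𝒯 (Rep.res (QuotientGroup.mk' U) (Rep.coind C.subtype M))) ∧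
        (finrank (ZMod p)
            ↥((Rep.res (QuotientGroup.mk' U) (Rep.coind C.subtype M)).ρ.invariants) : ℤ) =
          ψ (cycH0 χ U) ∧
        (finrank (ZMod p)
            ↥(levH1 𝒯 (Rep.res (QuotientGroup.mk' U) (Rep.coind C.subtype M))) : ℤ) =
          ψ (cycH1 𝒯 χ U) ∧
        (finrank (ZMod p)
            (levH2 𝒯 (Rep.res (QuotientGroup.mk' U) (Rep.coind C.subtype M))) : ℤ) =
          ψ (cycH2 𝒯 χ U) ∧
        (finrank (ZMod p) (Rep.res (QuotientGroup.mk' U) (Rep.coind C.subtype M)).V : ℤ) =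
          finrank (ZMod p) ↥(LinearMap.ker
              ((Rep.res (QuotientGroup.mk' U) (Rep.coind C.subtype M)).ρ c - 1)) +
            ψ (Rep.ofMulAction (ZMod p) (G ⧸ U)
              ((G ⧸ U) ⧸ Subgroup.zpowers ((c : G) : G ⧸ U)))

/-- **E-cyc for levels trivialising `χ`** (and arbitrary subgroups `C` of order prime to `p`). -/
def StmtCycChi : Prop :=
  ∀ (p : ℕ) [Fact p.Prime], p ≠ 2 → ∀ (S : Finset Nat.Primes), pPrime p ∈ S →
    StmtCmGlob → StmtCmLoc → StmtH90Loc → StmtExistC → StmtSurvC →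
    ∀ (U : Subgroup GQ) [U.Normal], U ∈ (towerS S).lev → (∀ s ∈ U, cycloChar p s = 1) →
    ∀ (C : Subgroup (GQ ⧸ U)), (Nat.card C).Coprime p →
    ∀ (M : Rep.{0} (ZMod p) C), Module.Finite (ZMod p) M.V →
      ECFormula p S (Rep.res (QuotientGroup.mk' U) (Rep.coind C.subtype M))

/-- **Y-red.** Reduction of `StmtCyc` to levels trivialising `χ`: `U₁ := U₀ ⊓ ker χ` is a normal
level of index prime to `p` in `U₀`; `C₁ :=` the preimage of `C` in `G ⧸ U₁` has order prime to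
`p`, and `infl coind_C^{G/U₀} M ≅ infl coind_{C₁}^{G/U₁} (res M)`. -/
def StmtCycRed : Prop := StmtCycChi → StmtCyc

/-- **Y-asm1.** `StmtKum` from its pieces. -/
def StmtKumAsm : Prop :=
  StmtH2Fin → StmtPDepthTower → StmtHerbUnits → StmtHerbFin → StmtHerbModels → StmtKumSplice →
    StmtTorSplice → StmtSigmaAdd → StmtKumH0 → StmtKumH1 → StmtKumH2 → StmtBrSeq → StmtBrJ →
    StmtBrC → StmtClFin → StmtUnitsCyc → StmtKum

/-- **Y-asm2.** `StmtCycChi` from the two halves. -/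
def StmtCycChiAsm : Prop := StmtKum → StmtLink → StmtCycChi

/-! ### The pieces of the link (with the explicit additive function) -/

section LinkDefs

variable {p : ℕ} {G : Type} [Group G]

/-- the descent of `χ` to `Γ = G ⧸ U` -/
def cycChi (χ : G →* (ZMod p)ˣ) (U : Subgroup G) [U.Normal] (hχ : ∀ s ∈ U, χ s = 1) :
    (G ⧸ U) →* (ZMod p)ˣ :=
  QuotientGroup.lift U χ (fun s hs => hχ s hs)

/-- `Hom_C(N, V)`: the `C`-equivariant linear maps from a representation `N` of the subgroup `C`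
to (the restriction of) a representation `V` of `Γ`. -/
def homC {Γ : Type} [Group Γ] (C : Subgroup Γ) (N : Rep.{0} (ZMod p) C)
    (V : Rep.{0} (ZMod p) Γ) : Submodule (ZMod p) (N.V →ₗ[ZMod p] V.V) where
  carrier := {Λ | ∀ (c : C) (n : N.V), Λ (N.ρ c n) = V.ρ (c : Γ) (Λ n)}
  add_mem' := fun {a b} ha hb c n => by
    rw [LinearMap.add_apply, LinearMap.add_apply, ha c n, hb c n, map_add]
  zero_mem' := fun c n => by simp
  smul_mem' := fun r a ha c n => by
    rw [LinearMap.smul_apply, LinearMap.smul_apply, ha c n, map_smul]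

/-- the additive function `ψ_N(V) = dim Hom_C(N, V)` on `Rep (ZMod p) Γ` -/
def linkPsi {Γ : Type} [Group Γ] (C : Subgroup Γ) (N : Rep.{0} (ZMod p) C) :
    Rep.{0} (ZMod p) Γ → ℤ :=
  fun V => (finrank (ZMod p) ↥(homC C N V) : ℤ)

end LinkDefs

/-- **L-add (pure algebra).** `ψ_N = dim Hom_C(N, -)` is additive when `p ∤ |C|` (averaging). -/
def StmtLinkAdd : Prop :=
  ∀ (p : ℕ) [Fact p.Prime] (Γ : Type) [Group Γ] [Finite Γ] (C : Subgroup Γ),
    (Nat.card C).Coprime p → ∀ (N : Rep.{0} (ZMod p) C), Module.Finite (ZMod p) N.V →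
      IsAddFun (linkPsi C N)

/-- **L-fun.** `B = coind_C^Γ M ≅ Hom_C(N, 𝓜)`, `N = M^* ⊗ χ` (`= M.dualTwist χ̄`), as
`G`-modules, and the functors `H⁰`, `H¹_lev`, `H²_lev` commute with `Hom_C(N, -)`:
`h^j_lev(G, B) = dim Hom_C(N, H^j_lev(G, 𝓜))`. -/
def StmtLinkFun : Prop :=
  ∀ (p : ℕ) [Fact p.Prime] (G : Type) [Group G] (𝒯 : Tower G)
    (χ : G →* (ZMod p)ˣ) (U : Subgroup G) [U.Normal], U ∈ 𝒯.lev → ∀ (hχ : ∀ s ∈ U, χ s = 1),
    Module.Finite (ZMod p) ↥(levH1 𝒯 (regMu χ U)) →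
    Module.Finite (ZMod p) (levH2 𝒯 (regMu χ U)) →
    ∀ (C : Subgroup (G ⧸ U)), (Nat.card C).Coprime p →
    ∀ (M : Rep.{0} (ZMod p) C), Module.Finite (ZMod p) M.V →
      Module.Finite (ZMod p)
        (levH2 𝒯 (Rep.res (QuotientGroup.mk' U) (Rep.coind C.subtype M))) ∧
      (finrank (ZMod p)
          ↥((Rep.res (QuotientGroup.mk' U) (Rep.coind C.subtype M)).ρ.invariants) : ℤ) =
        linkPsi C (M.dualTwist ((cycChi χ U hχ).comp C.subtype)) (cycH0 χ U) ∧
      (finrank (ZMod p)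
          ↥(levH1 𝒯 (Rep.res (QuotientGroup.mk' U) (Rep.coind C.subtype M))) : ℤ) =
        linkPsi C (M.dualTwist ((cycChi χ U hχ).comp C.subtype)) (cycH1 𝒯 χ U) ∧
      (finrank (ZMod p)
          (levH2 𝒯 (Rep.res (QuotientGroup.mk' U) (Rep.coind C.subtype M))) : ℤ) =
        linkPsi C (M.dualTwist ((cycChi χ U hχ).comp C.subtype)) (cycH2 𝒯 χ U)

/-- **L-arch (pure algebra).** For `c̄ ∈ Γ` with `c̄² = 1`, `χ̄(c̄) = -1` (`p` odd) and
`B = coind_C^Γ M`, `N = M.dualTwist χ̄`:  `dim B = dim B^{c̄} + dim Hom_C(N, 𝔽_p[Γ ⧸ ⟨c̄⟩])`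
(`Hom_C(N, 𝔽_p[Γ/H]) ≅ (coind_C^Γ (M ⊗ χ̄⁻¹))^H ≅ B^{c̄ = -1}`). -/
def StmtLinkArch : Prop :=
  ∀ (p : ℕ) [Fact p.Prime], p ≠ 2 → ∀ (Γ : Type) [Group Γ] [Finite Γ] (χ : Γ →* (ZMod p)ˣ)
    (c : Γ), c * c = 1 → χ c = -1 → ∀ (C : Subgroup Γ), (Nat.card C).Coprime p →
    ∀ (M : Rep.{0} (ZMod p) C), Module.Finite (ZMod p) M.V →
      (finrank (ZMod p) (Rep.coind C.subtype M).V : ℤ) =
        finrank (ZMod p) ↥(LinearMap.ker ((Rep.coind C.subtype M).ρ c - 1)) +
          linkPsi C (M.dualTwist (χ.comp C.subtype))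
            (Rep.ofMulAction (ZMod p) Γ (Γ ⧸ Subgroup.zpowers c))

/-- **Y-asm3.** `StmtLink` from its three pieces. -/
def StmtLinkAsm : Prop := StmtLinkAdd → StmtLinkFun → StmtLinkArch → StmtLink

end Fermat.Agent.TW.E

end


end ZBTW_051_1

/-! ### bundled: `Fermat.Agent.TW.E.HerbModels` -/
section ZBTW_051_2
/-
TW-E / E-herb / H-mod (helper32): models of `X / pX` and of `X[p]` exist, are unique up to
isomorphism, and are finite-dimensional for finitely generated `X`.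

Main result: `stmtHerbModels : StmtHerbModels` (statement in `TW/E/HerbPlan.lean`).
-/

set_option autoImplicit false
set_option linter.style.haveILetI false
set_option linter.unusedSectionVars false

namespace Fermat.Agent.TW.E

open CategoryTheory

section

variable {p : ℕ} [hp : Fact p.Prime] {Γ : Type} [Group Γ]

/-- a finitely generated abelian group carrying an `𝔽_p`-module structure is finite-dimensional -/
lemma hbm_finite_of_fg {A : Type*} [AddCommGroup A] [Module (ZMod p) A] (h : AddGroup.FG A) :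
    Module.Finite (ZMod p) A := by
  obtain ⟨⟨S, hS⟩⟩ := h
  refine ⟨⟨S, eq_top_iff.2 (fun x _ => ?_)⟩⟩
  have hx : x ∈ AddSubgroup.closure (S : Set A) := hS ▸ AddSubgroup.mem_top x
  exact (AddSubgroup.closure_le (K := (Submodule.span (ZMod p) (S : Set A)).toAddSubgroup)).2
    Submodule.subset_span hx

/-- a subgroup of a finitely generated abelian group is finitely generated -/
lemma hbm_fg_of_injective {A B : Type*} [AddCommGroup A] [AddCommGroup B] (f : A →+ B)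
    (hf : Function.Injective f) (hB : AddGroup.FG B) : AddGroup.FG A := by
  haveI : Module.Finite ℤ B := Module.Finite.iff_addGroup_fg.mpr hB
  have : Module.Finite ℤ A := Module.Finite.of_injective f.toIntLinearMap hf
  exact Module.Finite.iff_addGroup_fg.mp this

/-- an additive equivariant bijection of `𝔽_p`-representations is an isomorphism -/
lemma hbm_iso_of_addEquiv (M M' : Rep.{0} (ZMod p) Γ) (e : M.V ≃+ M'.V)
    (he : ∀ g m, e (M.ρ g m) = M'.ρ g (e m)) : Nonempty (M ≅ M') := by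
  let l : M.V ≃ₗ[ZMod p] M'.V :=
    { e with map_smul' := fun c x => ZMod.map_smul e.toAddMonoidHom c x }
  exact ⟨Rep.mkIso (ρ := M.ρ) (σ := M'.ρ)
    (Representation.Equiv.mk l (fun g => LinearMap.ext (fun m => he g m)))⟩

/-- models of `X / pX` are unique -/
lemma hbm_modP_unique (X : Rep.{0} ℤ Γ) (M M' : Rep.{0} (ZMod p) Γ) (hM : IsModP p X M)
    (hM' : IsModP p X M') : Nonempty (M ≅ M') := by
  obtain ⟨f, hfs, hfe, hfk⟩ := hM
  obtain ⟨f', hfs', hfe', hfk'⟩ := hM'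
  have key : ∀ x y, f x = f y ↔ f' x = f' y := by
    intro x y
    rw [← sub_eq_zero, ← map_sub, hfk, ← sub_eq_zero (a := f' x), ← map_sub, hfk']
  let φ : M.V → M'.V := fun m => f' (Function.surjInv hfs m)
  have hφ : ∀ x, φ (f x) = f' x := fun x => (key _ _).1 (Function.surjInv_eq hfs (f x))
  let ψ : M'.V → M.V := fun m => f (Function.surjInv hfs' m)
  have hψ : ∀ x, ψ (f' x) = f x := fun x => (key _ _).2 (Function.surjInv_eq hfs' (f' x))
  let e : M.V ≃+ M'.V :=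
    { toFun := φ
      invFun := ψ
      left_inv := fun m => by obtain ⟨x, rfl⟩ := hfs m; rw [hφ, hψ]
      right_inv := fun m => by obtain ⟨x, rfl⟩ := hfs' m; rw [hψ, hφ]
      map_add' := fun a b => by
        obtain ⟨x, rfl⟩ := hfs a
        obtain ⟨y, rfl⟩ := hfs b
        rw [← map_add, hφ, hφ, hφ, map_add] }
  refine hbm_iso_of_addEquiv M M' e (fun g m => ?_)
  obtain ⟨x, rfl⟩ := hfs m
  change φ (M.ρ g (f x)) = M'.ρ g (φ (f x))
  rw [← hfe, hφ, hφ, hfe']

/-- models of `X[p]` are unique -/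
lemma hbm_torP_unique (X : Rep.{0} ℤ Γ) (T T' : Rep.{0} (ZMod p) Γ) (hT : IsTorP p X T)
    (hT' : IsTorP p X T') : Nonempty (T ≅ T') := by
  obtain ⟨f, hfi, hfe, hfk⟩ := hT
  obtain ⟨f', hfi', hfe', hfk'⟩ := hT'
  have h1 : ∀ t, ∃ t', f' t' = f t := fun t => (hfk' (f t)).1 ((hfk (f t)).2 ⟨t, rfl⟩)
  have h2 : ∀ t', ∃ t, f t = f' t' := fun t' => (hfk (f' t')).1 ((hfk' (f' t')).2 ⟨t', rfl⟩)
  choose φ hφ using h1
  choose ψ hψ using h2
  let e : T.V ≃+ T'.V :=
    { toFun := φ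
      invFun := ψ
      left_inv := fun t => hfi (by rw [hψ, hφ])
      right_inv := fun t => hfi' (by rw [hφ, hψ])
      map_add' := fun a b => hfi' (by rw [hφ, map_add, map_add, hφ, hφ]) }
  refine hbm_iso_of_addEquiv T T' e (fun g t => hfi' ?_)
  change f' (φ (T.ρ g t)) = f' (T'.ρ g (φ t))
  rw [hφ, hfe, hfe', hφ]

/-- models of `X / pX` are finite-dimensional for finitely generated `X` -/
lemma hbm_modP_finite (X : Rep.{0} ℤ Γ) (hX : IsFG X) (M : Rep.{0} (ZMod p) Γ)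
    (hM : IsModP p X M) : Module.Finite (ZMod p) M.V := by
  obtain ⟨f, hfs, -, -⟩ := hM
  haveI : AddGroup.FG X.V := hX
  exact hbm_finite_of_fg (AddGroup.fg_of_surjective hfs)

/-- models of `X[p]` are finite-dimensional for finitely generated `X` -/
lemma hbm_torP_finite (X : Rep.{0} ℤ Γ) (hX : IsFG X) (T : Rep.{0} (ZMod p) Γ)
    (hT : IsTorP p X T) : Module.Finite (ZMod p) T.V := by
  obtain ⟨f, hfi, -, -⟩ := hT
  exact hbm_finite_of_fg (hbm_fg_of_injective f hfi hX)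

/-- a model of `X / pX` exists -/
lemma hbm_exists_modP (X : Rep.{0} ℤ Γ) : ∃ M : Rep.{0} (ZMod p) Γ, IsModP p X M := by
  let N : AddSubgroup X.V := (nsmulAddMonoidHom (α := X.V) p).range
  have hN : ∀ x : X.V, p • x ∈ N := fun x => ⟨x, rfl⟩
  haveI : Module (ZMod p) (X.V ⧸ N) := QuotientAddGroup.zmodModule hN
  have hstab : ∀ g : Γ, N ≤ N.comap (X.ρ g).toAddMonoidHom := by
    rintro g _ ⟨y, rfl⟩
    exact ⟨X.ρ g y, (map_nsmul (X.ρ g) p y).symm⟩
  let F : Γ → Module.End (ZMod p) (X.V ⧸ N) := fun g =>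
    (QuotientAddGroup.map N N (X.ρ g).toAddMonoidHom (hstab g)).toZModLinearMap p
  have hF1 : F 1 = 1 := by
    apply LinearMap.ext
    intro q
    induction q using QuotientAddGroup.induction_on with
    | H x => simp [F]
  have hFmul : ∀ g h, F (g * h) = F g * F h := fun g h => by
    apply LinearMap.ext
    intro q
    induction q using QuotientAddGroup.induction_on with
    | H x => simp [F]
  let ρ : Representation (ZMod p) Γ (X.V ⧸ N) := MonoidHom.mk (OneHom.mk F hF1) hFmul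
  refine ⟨Rep.of ρ, QuotientAddGroup.mk' N, QuotientAddGroup.mk'_surjective N, fun g x => rfl,
    fun x => ?_⟩
  rw [QuotientAddGroup.mk'_apply, QuotientAddGroup.eq_zero_iff]
  constructor
  · rintro ⟨y, hy⟩
    exact ⟨y, hy.symm⟩
  · rintro ⟨y, rfl⟩
    exact ⟨y, rfl⟩

/-- a model of `X[p]` exists -/
lemma hbm_exists_torP (X : Rep.{0} ℤ Γ) : ∃ T : Rep.{0} (ZMod p) Γ, IsTorP p X T := by
  let K : AddSubgroup X.V := (nsmulAddMonoidHom (α := X.V) p).ker
  have hK : ∀ x : K, p • x = 0 := fun x => Subtype.ext x.2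
  haveI : Module (ZMod p) K := AddCommGroup.zmodModule hK
  have hstab : ∀ (g : Γ) (x : K), ((X.ρ g).toAddMonoidHom.comp K.subtype) x ∈ K := by
    intro g x
    change p • X.ρ g x.1 = 0
    rw [← map_nsmul]
    have hx : p • x.1 = 0 := x.2
    rw [hx, map_zero]
  let F : Γ → Module.End (ZMod p) K := fun g =>
    (((X.ρ g).toAddMonoidHom.comp K.subtype).codRestrict K (hstab g)).toZModLinearMap p
  have hF1 : F 1 = 1 := by
    apply LinearMap.ext
    intro x
    apply Subtype.ext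
    simp [F]
  have hFmul : ∀ g h, F (g * h) = F g * F h := fun g h => by
    apply LinearMap.ext
    intro x
    apply Subtype.ext
    simp [F]
  let ρ : Representation (ZMod p) Γ K := MonoidHom.mk (OneHom.mk F hF1) hFmul
  refine ⟨Rep.of ρ, K.subtype, K.subtype_injective, fun g t => rfl, fun x => ?_⟩
  constructor
  · intro hx
    exact ⟨⟨x, hx⟩, rfl⟩
  · rintro ⟨t, rfl⟩
    exact t.2

end

/-- **H-mod.** -/
theorem stmtHerbModels : StmtHerbModels := by
  intro p _ Γ _ X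
  exact ⟨hbm_exists_modP X, hbm_exists_torP X, fun M M' => hbm_modP_unique X M M',
    fun T T' => hbm_torP_unique X T T', fun hX M => hbm_modP_finite X hX M,
    fun hX T => hbm_torP_finite X hX T⟩

end Fermat.Agent.TW.E


end ZBTW_051_2

/-! ### bundled: `Fermat.Agent.TW.E.HerbAdd` -/
section ZBTW_051_3
/-
TW-E / E-herb / H-add (helper32): `h_ψ(X) = ψ (X/pX) - ψ (X[p])` is additive on short exact
sequences of finitely generated `ℤ[Γ]`-modules.

Main result: `stmtHerbAdd : StmtHerbAdd` (statement in `TW/E/HerbPlan.lean`).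

Proof.  The snake lemma for multiplication by `p` on `0 → X' → X → X'' → 0` gives the six-term
exact sequence `0 → X'[p] → X[p] → X''[p] → X'/p → X/p → X''/p → 0` between the GIVEN models
(`hba_torMap`, `hba_delta`, `hba_modMap` construct the maps from functional relations,
`hba_a_inj … hba_d_surj` are the exactness statements), and an additive function has vanishing
alternating sum on a six-term exact sequence (`hba_six`, by cutting it at the images `hbaIm`).
-/

set_option autoImplicit false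
set_option linter.style.haveILetI false
set_option linter.unusedSectionVars false
set_option linter.unusedVariables false

namespace Fermat.Agent.TW.E

open CategoryTheory

section generic

variable {k : Type} [Field k] {Γ : Type} [Group Γ]

/-- the range of a morphism is a stable submodule -/
lemma hba_range_stable {A B : Rep.{0} k Γ} (u : A ⟶ B) (g : Γ) :
    LinearMap.range u.hom.toLinearMap ≤ (LinearMap.range u.hom.toLinearMap).comap (B.ρ g) := by
  rintro _ ⟨a, rfl⟩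
  exact ⟨A.ρ g a, Rep.hom_comm_apply u g a⟩

/-- the image of a morphism, as a representation -/
noncomputable def hbaIm {A B : Rep.{0} k Γ} (u : A ⟶ B) : Rep.{0} k Γ :=
  B.subrepresentation (LinearMap.range u.hom.toLinearMap) (hba_range_stable u)

/-- the inclusion of the image -/
noncomputable def hbaIn {A B : Rep.{0} k Γ} (u : A ⟶ B) : hbaIm u ⟶ B :=
  Rep.subtype B (LinearMap.range u.hom.toLinearMap) (hba_range_stable u)

/-- the corestriction to the image -/
noncomputable def hbaCo {A B : Rep.{0} k Γ} (u : A ⟶ B) : A ⟶ hbaIm u :=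
  Rep.ofHom (ρ := A.ρ)
    (σ := B.ρ.subrepresentation (LinearMap.range u.hom.toLinearMap) (hba_range_stable u))
    ⟨u.hom.toLinearMap.rangeRestrict, fun g => LinearMap.ext (fun a =>
      Subtype.ext (Rep.hom_comm_apply u g a))⟩

lemma hbaIn_apply {A B : Rep.{0} k Γ} (u : A ⟶ B) (y : (hbaIm u).V) :
    ((hbaIn u).hom y : B.V) = (show LinearMap.range u.hom.toLinearMap from y).1 := rfl

lemma hbaCo_apply {A B : Rep.{0} k Γ} (u : A ⟶ B) (a : A.V) :
    (hbaIn u).hom ((hbaCo u).hom a) = u.hom a := rfl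

lemma hbaIn_injective {A B : Rep.{0} k Γ} (u : A ⟶ B) : Function.Injective (hbaIn u).hom :=
  fun _ _ h => Subtype.ext h

lemma hbaCo_surjective {A B : Rep.{0} k Γ} (u : A ⟶ B) : Function.Surjective (hbaCo u).hom := by
  rintro ⟨_, a, rfl⟩
  exact ⟨a, rfl⟩

lemma hbaIn_range {A B : Rep.{0} k Γ} (u : A ⟶ B) (y : B.V) :
    y ∈ Set.range (hbaIn u).hom ↔ y ∈ Set.range u.hom := by
  constructor
  · rintro ⟨⟨_, a, rfl⟩, rfl⟩
    exact ⟨a, rfl⟩
  · rintro ⟨a, rfl⟩
    exact ⟨(hbaCo u).hom a, rfl⟩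

/-- a bijective morphism is an isomorphism -/
lemma hba_iso_of_bijective {A B : Rep.{0} k Γ} (u : A ⟶ B) (hu : Function.Bijective u.hom) :
    Nonempty (A ≅ B) :=
  ⟨Rep.mkIso (ρ := A.ρ) (σ := B.ρ) (u.hom.ofBijective hu)⟩

variable {ψ : Rep.{0} k Γ → ℤ}

/-- (E1) -/
lemma hba_E1 (hψ : IsAddFun ψ) {A B C : Rep.{0} k Γ} (u : A ⟶ B) (v : B ⟶ C)
    (hB : Module.Finite k B.V) (hex : Function.Exact u.hom v.hom) :
    ψ B = ψ (hbaIm u) + ψ (hbaIm v) := by
  refine hψ.add (hbaIm u) B (hbaIm v) (hbaIn u) (hbaCo v) hB (hbaIn_injective u)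
    (hbaCo_surjective v) (fun y => ?_)
  rw [hbaIn_range, ← hex y]
  constructor
  · intro h
    have := congrArg (hbaIn v).hom h
    rwa [hbaCo_apply, map_zero] at this
  · intro h
    apply hbaIn_injective v
    rw [hbaCo_apply, map_zero, h]

/-- (E2) -/
lemma hba_E2 (hψ : IsAddFun ψ) {A B : Rep.{0} k Γ} (u : A ⟶ B)
    (hu : Function.Injective u.hom) : ψ (hbaIm u) = ψ A := by
  refine (hψ.iso _ _ (hba_iso_of_bijective (hbaCo u) ⟨?_, hbaCo_surjective u⟩)).symm
  intro a b hab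
  apply hu
  rw [← hbaCo_apply, hab, hbaCo_apply]

/-- (E3) -/
lemma hba_E3 (hψ : IsAddFun ψ) {B C : Rep.{0} k Γ} (v : B ⟶ C)
    (hv : Function.Surjective v.hom) : ψ (hbaIm v) = ψ C := by
  refine hψ.iso _ _ (hba_iso_of_bijective (hbaIn v) ⟨hbaIn_injective v, fun y => ?_⟩)
  exact (hbaIn_range v y).2 (hv y)

/-- the alternating sum over a six-term exact sequence vanishes -/
lemma hba_six (hψ : IsAddFun ψ) {A1 A2 A3 A4 A5 A6 : Rep.{0} k Γ}
    (u1 : A1 ⟶ A2) (u2 : A2 ⟶ A3) (u3 : A3 ⟶ A4) (u4 : A4 ⟶ A5) (u5 : A5 ⟶ A6)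
    (h2 : Module.Finite k A2.V) (h3 : Module.Finite k A3.V) (h4 : Module.Finite k A4.V)
    (h5 : Module.Finite k A5.V)
    (hinj : Function.Injective u1.hom) (hsurj : Function.Surjective u5.hom)
    (e2 : Function.Exact u1.hom u2.hom) (e3 : Function.Exact u2.hom u3.hom)
    (e4 : Function.Exact u3.hom u4.hom) (e5 : Function.Exact u4.hom u5.hom) :
    ψ A5 - ψ A2 = (ψ A4 - ψ A1) + (ψ A6 - ψ A3) := by
  have k2 := hba_E1 hψ u1 u2 h2 e2
  have k3 := hba_E1 hψ u2 u3 h3 e3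
  have k4 := hba_E1 hψ u3 u4 h4 e4
  have k5 := hba_E1 hψ u4 u5 h5 e5
  have k1 := hba_E2 hψ u1 hinj
  have k6 := hba_E3 hψ u5 hsurj
  omega

end generic

section snake

variable {p : ℕ} [hp : Fact p.Prime] {Γ : Type} [Group Γ]

/-- `π` is a structure map of the model `M` of `X / pX` -/
structure HbaMod (p : ℕ) (X : Rep.{0} ℤ Γ) (M : Rep.{0} (ZMod p) Γ) (π : X.V →+ M.V) : Prop where
  surj : Function.Surjective π
  equiv : ∀ g x, π (X.ρ g x) = M.ρ g (π x)
  ker : ∀ x, π x = 0 ↔ ∃ y, x = p • y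

/-- `ι` is a structure map of the model `T` of `X[p]` -/
structure HbaTor (p : ℕ) (X : Rep.{0} ℤ Γ) (T : Rep.{0} (ZMod p) Γ) (ι : T.V →+ X.V) : Prop where
  inj : Function.Injective ι
  equiv : ∀ g t, ι (T.ρ g t) = X.ρ g (ι t)
  mem : ∀ x, p • x = 0 ↔ ∃ t, ι t = x

/-- a morphism of `𝔽_p`-representations from a functional, additive, equivariant relation -/
lemma hba_mkHom (A B : Rep.{0} (ZMod p) Γ) (P : A.V → B.V → Prop)
    (hex : ∀ a, ∃ b, P a b) (huniq : ∀ a b b', P a b → P a b' → b = b')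
    (hadd : ∀ a b a' b', P a b → P a' b' → P (a + a') (b + b'))
    (hequiv : ∀ γ a b, P a b → P (A.ρ γ a) (B.ρ γ b)) :
    ∃ u : A ⟶ B, ∀ a, P a (u.hom a) := by
  choose φ hφ using hex
  let φA : A.V →+ B.V := AddMonoidHom.mk' φ
    (fun a a' => huniq _ _ _ (hφ (a + a')) (hadd _ _ _ _ (hφ a) (hφ a')))
  let l : A.V →ₗ[ZMod p] B.V := φA.toZModLinearMap p
  let I : A.ρ.IntertwiningMap B.ρ :=
    ⟨l, fun γ => LinearMap.ext (fun a => huniq _ _ _ (hφ (A.ρ γ a)) (hequiv γ a _ (hφ a)))⟩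
  exact ⟨Rep.ofHom (ρ := A.ρ) (σ := B.ρ) I, hφ⟩

/-- functoriality of `X[p]` -/
lemma hba_torMap {X Y : Rep.{0} ℤ Γ} {T U : Rep.{0} (ZMod p) Γ} {ι : T.V →+ X.V}
    {κ : U.V →+ Y.V} (hT : HbaTor p X T ι) (hU : HbaTor p Y U κ) (h : X.V →+ Y.V)
    (hh : ∀ γ x, h (X.ρ γ x) = Y.ρ γ (h x)) :
    ∃ u : T ⟶ U, ∀ t, κ (u.hom t) = h (ι t) := by
  refine hba_mkHom T U (fun t u => κ u = h (ι t)) (fun t => ?_) (fun t u u' h1 h2 => ?_)
    (fun t u t' u' h1 h2 => ?_) (fun γ t u h1 => ?_)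
  · refine (hU.mem (h (ι t))).1 ?_
    rw [← map_nsmul, (hT.mem (ι t)).2 ⟨t, rfl⟩, map_zero]
  · exact hU.inj (h1.trans h2.symm)
  · rw [map_add, map_add, map_add, h1, h2]
  · rw [hU.equiv, hT.equiv, hh, h1]

/-- functoriality of `X / pX` -/
lemma hba_modMap {X Y : Rep.{0} ℤ Γ} {M N : Rep.{0} (ZMod p) Γ} {π : X.V →+ M.V}
    {ϖ : Y.V →+ N.V} (hM : HbaMod p X M π) (hN : HbaMod p Y N ϖ) (h : X.V →+ Y.V)
    (hh : ∀ γ x, h (X.ρ γ x) = Y.ρ γ (h x)) :
    ∃ u : M ⟶ N, ∀ x, u.hom (π x) = ϖ (h x) := by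
  have key : ∀ x y, π x = π y → ϖ (h x) = ϖ (h y) := by
    intro x y hxy
    rw [← sub_eq_zero, ← map_sub, hM.ker] at hxy
    obtain ⟨z, hz⟩ := hxy
    rw [← sub_eq_zero, ← map_sub, ← map_sub, hz, map_nsmul]
    exact (hN.ker _).2 ⟨h z, rfl⟩
  have hex : ∀ m : M.V, ∃ n : N.V, ∃ x, π x = m ∧ ϖ (h x) = n := by
    intro m
    obtain ⟨x, rfl⟩ := hM.surj m
    exact ⟨_, x, rfl, rfl⟩
  have huniq : ∀ (m : M.V) (n n' : N.V), (∃ x, π x = m ∧ ϖ (h x) = n) →
      (∃ x, π x = m ∧ ϖ (h x) = n') → n = n' := by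
    intro m n n' h1 h2
    obtain ⟨x, rfl, rfl⟩ := h1
    obtain ⟨y, hy, rfl⟩ := h2
    exact key _ _ hy.symm
  have hadd : ∀ (m : M.V) (n : N.V) (m' : M.V) (n' : N.V), (∃ x, π x = m ∧ ϖ (h x) = n) →
      (∃ x, π x = m' ∧ ϖ (h x) = n') → ∃ x, π x = m + m' ∧ ϖ (h x) = n + n' := by
    intro m n m' n' h1 h2
    obtain ⟨x, rfl, rfl⟩ := h1
    obtain ⟨y, rfl, rfl⟩ := h2
    exact ⟨x + y, map_add _ _ _, by rw [map_add, map_add]⟩
  have hequiv : ∀ (γ : Γ) (m : M.V) (n : N.V), (∃ x, π x = m ∧ ϖ (h x) = n) →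
      ∃ x, π x = M.ρ γ m ∧ ϖ (h x) = N.ρ γ n := by
    intro γ m n h1
    obtain ⟨x, rfl, rfl⟩ := h1
    exact ⟨X.ρ γ x, hM.equiv γ x, by rw [hh, hN.equiv]⟩
  obtain ⟨u, hu⟩ := hba_mkHom M N (fun m n => ∃ x, π x = m ∧ ϖ (h x) = n) hex huniq hadd hequiv
  refine ⟨u, fun x => ?_⟩
  obtain ⟨y, hy1, hy2⟩ := hu (π x)
  rw [← hy2]
  exact key _ _ hy1

variable {X' X X'' : Rep.{0} ℤ Γ} {M' T' M T M'' T'' : Rep.{0} (ZMod p) Γ}
  {f : X'.V →+ X.V} {g : X.V →+ X''.V}
  {ι' : T'.V →+ X'.V} {ι : T.V →+ X.V} {ι'' : T''.V →+ X''.V}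
  {π' : X'.V →+ M'.V} {π : X.V →+ M.V} {π'' : X''.V →+ M''.V}
  (hf : Function.Injective f) (hg : Function.Surjective g)
  (hfg : ∀ x, g x = 0 ↔ ∃ x', f x' = x)
  (hfe : ∀ γ x, f (X'.ρ γ x) = X.ρ γ (f x)) (hge : ∀ γ x, g (X.ρ γ x) = X''.ρ γ (g x))
  (hT' : HbaTor p X' T' ι') (hT : HbaTor p X T ι) (hT'' : HbaTor p X'' T'' ι'')
  (hM' : HbaMod p X' M' π') (hM : HbaMod p X M π) (hM'' : HbaMod p X'' M'' π'')

include hf hg hfg hfe hge hT'' hM' in
/-- the connecting map `X''[p] → X' / pX'` -/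
lemma hba_delta :
    ∃ δ : T'' ⟶ M', ∀ t x x', g x = ι'' t → p • x = f x' → δ.hom t = π' x' := by
  have key : ∀ t x x' y y', g x = ι'' t → p • x = f x' → g y = ι'' t → p • y = f y' →
      π' x' = π' y' := by
    intro t x x' y y' h1 h2 h3 h4
    have h5 : g (x - y) = 0 := by rw [map_sub, h1, h3, sub_self]
    obtain ⟨z, hz⟩ := (hfg _).1 h5
    have h6 : x' - y' = p • z := by
      apply hf
      rw [map_sub, ← h2, ← h4, map_nsmul, hz, smul_sub]
    rw [← sub_eq_zero, ← map_sub, h6]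
    exact (hM'.ker _).2 ⟨z, rfl⟩
  have hex : ∀ t : T''.V, ∃ m : M'.V, ∃ x x', g x = ι'' t ∧ p • x = f x' ∧ π' x' = m := by
    intro t
    obtain ⟨x, hx⟩ := hg (ι'' t)
    have h1 : g (p • x) = 0 := by
      rw [map_nsmul, hx]
      exact (hT''.mem _).2 ⟨t, rfl⟩
    obtain ⟨x', hx'⟩ := (hfg _).1 h1
    exact ⟨_, x, x', hx, hx'.symm, rfl⟩
  have huniq : ∀ (t : T''.V) (m m' : M'.V),
      (∃ x x', g x = ι'' t ∧ p • x = f x' ∧ π' x' = m) →
      (∃ x x', g x = ι'' t ∧ p • x = f x' ∧ π' x' = m') → m = m' := by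
    intro t m m' h1 h2
    obtain ⟨x, x', h3, h4, rfl⟩ := h1
    obtain ⟨y, y', h5, h6, rfl⟩ := h2
    exact key t x x' y y' h3 h4 h5 h6
  have hadd : ∀ (t : T''.V) (m : M'.V) (t' : T''.V) (m' : M'.V),
      (∃ x x', g x = ι'' t ∧ p • x = f x' ∧ π' x' = m) →
      (∃ x x', g x = ι'' t' ∧ p • x = f x' ∧ π' x' = m') →
      ∃ x x', g x = ι'' (t + t') ∧ p • x = f x' ∧ π' x' = m + m' := by
    intro t m t' m' h1 h2
    obtain ⟨x, x', h3, h4, rfl⟩ := h1
    obtain ⟨y, y', h5, h6, rfl⟩ := h2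
    refine ⟨x + y, x' + y', ?_, ?_, map_add _ _ _⟩
    · rw [map_add, map_add, h3, h5]
    · rw [smul_add, map_add, h4, h6]
  have hequiv : ∀ (γ : Γ) (t : T''.V) (m : M'.V),
      (∃ x x', g x = ι'' t ∧ p • x = f x' ∧ π' x' = m) →
      ∃ x x', g x = ι'' (T''.ρ γ t) ∧ p • x = f x' ∧ π' x' = M'.ρ γ m := by
    intro γ t m h1
    obtain ⟨x, x', h3, h4, rfl⟩ := h1
    refine ⟨X.ρ γ x, X'.ρ γ x', ?_, ?_, hM'.equiv γ x'⟩
    · rw [hge, h3, hT''.equiv]
    · rw [hfe, ← h4, map_nsmul]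
  obtain ⟨δ, hδ⟩ := hba_mkHom T'' M'
    (fun t m => ∃ x x', g x = ι'' t ∧ p • x = f x' ∧ π' x' = m) hex huniq hadd hequiv
  refine ⟨δ, fun t x x' h1 h2 => ?_⟩
  obtain ⟨y, y', h3, h4, h5⟩ := hδ t
  rw [← h5]
  exact key t y y' x x' h3 h4 h1 h2

variable {a : T' ⟶ T} {b : T ⟶ T''} {δ : T'' ⟶ M'} {c : M' ⟶ M} {d : M ⟶ M''}
  (ha : ∀ t, ι (a.hom t) = f (ι' t)) (hb : ∀ t, ι'' (b.hom t) = g (ι t))
  (hδ : ∀ t x x', g x = ι'' t → p • x = f x' → δ.hom t = π' x')
  (hc : ∀ x, c.hom (π' x) = π (f x)) (hd : ∀ x, d.hom (π x) = π'' (g x))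

include hf hT' hT ha in
lemma hba_a_inj : Function.Injective a.hom := by
  intro t s hts
  apply hT'.inj
  apply hf
  rw [← ha, ← ha, hts]

include hf hfg hT' hT hT'' ha hb in
lemma hba_ex_T : Function.Exact a.hom b.hom := by
  intro t
  constructor
  · intro h0
    have h1 : g (ι t) = 0 := by rw [← hb, h0, map_zero]
    obtain ⟨x', hx'⟩ := (hfg _).1 h1
    have h2 : p • x' = 0 := by
      apply hf
      rw [map_nsmul, hx', map_zero]
      exact (hT.mem _).2 ⟨t, rfl⟩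
    obtain ⟨t', ht'⟩ := (hT'.mem _).1 h2
    refine ⟨t', hT.inj ?_⟩
    rw [ha, ht', hx']
  · rintro ⟨t', rfl⟩
    apply hT''.inj
    rw [hb, ha, map_zero]
    exact (hfg _).2 ⟨_, rfl⟩

include hf hg hfg hT hT'' hM' hb hδ in
lemma hba_ex_T'' : Function.Exact b.hom δ.hom := by
  intro t
  constructor
  · intro h0
    obtain ⟨x, hx⟩ := hg (ι'' t)
    have h1 : g (p • x) = 0 := by
      rw [map_nsmul, hx]
      exact (hT''.mem _).2 ⟨t, rfl⟩
    obtain ⟨x', hx'⟩ := (hfg _).1 h1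
    have h2 : π' x' = 0 := by rw [← hδ t x x' hx hx'.symm, h0]
    obtain ⟨y', hy'⟩ := (hM'.ker _).1 h2
    have h3 : p • (x - f y') = 0 := by
      rw [smul_sub, ← hx', hy', map_nsmul, sub_self]
    obtain ⟨s, hs⟩ := (hT.mem _).1 h3
    refine ⟨s, hT''.inj ?_⟩
    rw [hb, hs, map_sub, hx, (hfg _).2 ⟨y', rfl⟩, sub_zero]
  · rintro ⟨s, rfl⟩
    rw [hδ (b.hom s) (ι s) 0 (hb s).symm (by rw [map_zero]; exact (hT.mem _).2 ⟨s, rfl⟩),
      map_zero]

include hg hfg hT'' hM' hM hδ hc in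
lemma hba_ex_M' : Function.Exact δ.hom c.hom := by
  intro m
  constructor
  · intro h0
    obtain ⟨x', rfl⟩ := hM'.surj m
    rw [hc] at h0
    obtain ⟨x, hx⟩ := (hM.ker _).1 h0
    have h1 : p • g x = 0 := by
      rw [← map_nsmul, ← hx]
      exact (hfg _).2 ⟨x', rfl⟩
    obtain ⟨t, ht⟩ := (hT''.mem _).1 h1
    exact ⟨t, hδ t x x' ht.symm hx.symm⟩
  · rintro ⟨t, rfl⟩
    obtain ⟨x, hx⟩ := hg (ι'' t)
    have h1 : g (p • x) = 0 := by
      rw [map_nsmul, hx]
      exact (hT''.mem _).2 ⟨t, rfl⟩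
    obtain ⟨x', hx'⟩ := (hfg _).1 h1
    rw [hδ t x x' hx hx'.symm, hc, hx']
    exact (hM.ker _).2 ⟨x, rfl⟩

include hg hfg hM' hM hM'' hc hd in
lemma hba_ex_M : Function.Exact c.hom d.hom := by
  intro m
  constructor
  · intro h0
    obtain ⟨x, rfl⟩ := hM.surj m
    rw [hd] at h0
    obtain ⟨y'', hy''⟩ := (hM''.ker _).1 h0
    obtain ⟨y, rfl⟩ := hg y''
    have h1 : g (x - p • y) = 0 := by rw [map_sub, hy'', map_nsmul, sub_self]
    obtain ⟨x', hx'⟩ := (hfg _).1 h1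
    refine ⟨π' x', ?_⟩
    rw [hc, hx', map_sub, (hM.ker (p • y)).2 ⟨y, rfl⟩, sub_zero]
  · rintro ⟨m', rfl⟩
    obtain ⟨x', rfl⟩ := hM'.surj m'
    rw [hc, hd, (hfg _).2 ⟨x', rfl⟩, map_zero]

include hg hM hM'' hd in
lemma hba_d_surj : Function.Surjective d.hom := by
  intro m''
  obtain ⟨x'', rfl⟩ := hM''.surj m''
  obtain ⟨x, rfl⟩ := hg x''
  exact ⟨π x, hd x⟩

end snake

section main

attribute [-instance] AddCommGroup.toIntModule

/-- **H-add.** -/
theorem stmtHerbAdd : StmtHerbAdd := by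
  intro p _ Γ _ ψ hψ X' X X'' f g hX hfi hgs hex M' T' M T M'' T'' hM' hT' hM hT hM'' hT''
  have fT : Module.Finite (ZMod p) T.V := hbm_torP_finite X hX T hT
  have fM : Module.Finite (ZMod p) M.V := hbm_modP_finite X hX M hM
  let fA : X'.V →+ X.V := f.hom.toLinearMap.toAddMonoidHom
  let gA : X.V →+ X''.V := g.hom.toLinearMap.toAddMonoidHom
  have hf : Function.Injective fA := hfi
  have hg : Function.Surjective gA := hgs
  have hfg : ∀ x, gA x = 0 ↔ ∃ x', fA x' = x := fun x => hex x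
  have hfe : ∀ γ x, fA (X'.ρ γ x) = X.ρ γ (fA x) := fun γ x => Rep.hom_comm_apply f γ x
  have hge : ∀ γ x, gA (X.ρ γ x) = X''.ρ γ (gA x) := fun γ x => Rep.hom_comm_apply g γ x
  have hX'' : IsFG X'' := by
    haveI : AddGroup.FG X.V := hX
    exact AddGroup.fg_of_surjective (f := gA) hg
  have hX' : IsFG X' := hbm_fg_of_injective fA hf hX
  have fT'' : Module.Finite (ZMod p) T''.V := hbm_torP_finite X'' hX'' T'' hT''
  have fM' : Module.Finite (ZMod p) M'.V := hbm_modP_finite X' hX' M' hM'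
  obtain ⟨π', hπ's, hπ'e, hπ'k⟩ := hM'
  obtain ⟨ι', hι'i, hι'e, hι'm⟩ := hT'
  obtain ⟨π, hπs, hπe, hπk⟩ := hM
  obtain ⟨ι, hιi, hιe, hιm⟩ := hT
  obtain ⟨π'', hπ''s, hπ''e, hπ''k⟩ := hM''
  obtain ⟨ι'', hι''i, hι''e, hι''m⟩ := hT''
  have sM' : HbaMod p X' M' π' := ⟨hπ's, hπ'e, hπ'k⟩
  have sT' : HbaTor p X' T' ι' := ⟨hι'i, hι'e, hι'm⟩
  have sM : HbaMod p X M π := ⟨hπs, hπe, hπk⟩
  have sT : HbaTor p X T ι := ⟨hιi, hιe, hιm⟩
  have sM'' : HbaMod p X'' M'' π'' := ⟨hπ''s, hπ''e, hπ''k⟩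
  have sT'' : HbaTor p X'' T'' ι'' := ⟨hι''i, hι''e, hι''m⟩
  obtain ⟨a, ha⟩ := hba_torMap sT' sT fA hfe
  obtain ⟨b, hb⟩ := hba_torMap sT sT'' gA hge
  obtain ⟨δ, hδ⟩ := hba_delta hf hg hfg hfe hge sT'' sM'
  obtain ⟨c, hc⟩ := hba_modMap sM' sM fA hfe
  obtain ⟨d, hd⟩ := hba_modMap sM sM'' gA hge
  exact hba_six hψ a b δ c d fT fT'' fM' fM
    (hba_a_inj (hf := hf) (hT' := sT') (hT := sT) (ha := ha))
    (hba_d_surj (hg := hg) (hM := sM) (hM'' := sM'') (hd := hd))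
    (hba_ex_T (hf := hf) (hfg := hfg) (hT' := sT') (hT := sT) (hT'' := sT'') (ha := ha)
      (hb := hb))
    (hba_ex_T'' (hf := hf) (hg := hg) (hfg := hfg) (hT := sT) (hT'' := sT'') (hM' := sM')
      (hb := hb) (hδ := hδ))
    (hba_ex_M' (hg := hg) (hfg := hfg) (hT'' := sT'') (hM' := sM') (hM := sM) (hδ := hδ)
      (hc := hc))
    (hba_ex_M (hg := hg) (hfg := hfg) (hM' := sM') (hM := sM) (hM'' := sM'') (hc := hc)
      (hd := hd))

end main

end Fermat.Agent.TW.E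


end ZBTW_051_3

/-! ### bundled: `Fermat.Agent.TW.E.CycRed` -/
section ZBTW_051_4

/-!
# TW-E / E-cyc, piece Y-red (helper82): `stmtCycRed : StmtCycRed` (`StmtCycChi → StmtCyc`)

`U₀` a normal level, `C ≤ Γ₀ = G_ℚ ⧸ U₀` of order prime to `p`, `M` a representation of `C`.

* `cycred_level` : `U₁ := U₀ ⊓ ker χ` is a (normal) level of `towerS S` (`χ` = the mod `p`
  cyclotomic character, `p ∈ S`), on which `χ` is trivial;
* `cycredPi : G ⧸ U₁ →* G ⧸ U₀`, `cycredC1 = ` the preimage `C₁` of `C`, `cycredM1 = res M`;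
* `cycred_card_coprime` : `|C₁|` divides `|C| · (p - 1)`, hence is prime to `p`;
* `cycred_iso` : `infl coind_C^{Γ₀} M ≅ infl coind_{C₁}^{Γ₁} (res M)` (`f ↦ f ∘ π`);
* `cycred_ecFormula_of_iso` : `ECFormula` is invariant under isomorphisms (functoriality of
  `H⁰`, `H¹_lev`, `H²_lev`, `CycFun.lean`).
-/

set_option autoImplicit false
set_option linter.unusedSectionVars false
set_option linter.style.haveILetI false

noncomputable section

namespace Fermat.Agent.TW.E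

open CategoryTheory groupCohomology Module Fermat.Agent.PT Fermat.Agent.PT.F Fermat.Agent.PT.B
  Fermat.Agent.TW.F ExtCitation

/-! ### Invariance of the terms of the formula under isomorphisms -/

section Iso

variable {k : Type} [Field k] {G : Type} [Group G] (𝒯 : Tower G)

/-- `H²_lev` of isomorphic representations -/
def cycredH2Equiv {A B : Rep.{0} k G} (e : A ≅ B) : levH2 𝒯 A ≃ₗ[k] levH2 𝒯 B :=
  LinearEquiv.ofLinearMap (levH2Map 𝒯 e.hom) (levH2Map 𝒯 e.inv)
    (by rw [← levH2Map_comp, e.inv_hom_id, levH2Map_id])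
    (by rw [← levH2Map_comp, e.hom_inv_id, levH2Map_id])

/-- `H¹_lev` of isomorphic representations -/
def cycredH1Equiv {A B : Rep.{0} k G} (e : A ≅ B) : ↥(levH1 𝒯 A) ≃ₗ[k] ↥(levH1 𝒯 B) :=
  LinearEquiv.ofLinearMap (levH1Map 𝒯 e.hom) (levH1Map 𝒯 e.inv)
    (by rw [← levH1Map_comp, e.inv_hom_id, levH1Map_id])
    (by rw [← levH1Map_comp, e.hom_inv_id, levH1Map_id])

/-- the invariants of isomorphic representations -/
def cycredInvEquiv {A B : Rep.{0} k G} (e : A ≅ B) :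
    ↥(A.ρ.invariants) ≃ₗ[k] ↥(B.ρ.invariants) :=
  LinearEquiv.ofLinearMap (invMap e.hom) (invMap e.inv)
    (by rw [← invMap_comp, e.inv_hom_id, invMap_id])
    (by rw [← invMap_comp, e.hom_inv_id, invMap_id])

theorem cycred_hom_inv_apply {A B : Rep.{0} k G} (e : A ≅ B) (x : A.V) :
    e.inv.hom (e.hom.hom x) = x := by
  simp

theorem cycred_inv_hom_apply {A B : Rep.{0} k G} (e : A ≅ B) (y : B.V) :
    e.hom.hom (e.inv.hom y) = y := by
  simp

/-- the underlying spaces of isomorphic representations -/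
def cycredVEquiv {A B : Rep.{0} k G} (e : A ≅ B) : A.V ≃ₗ[k] B.V :=
  LinearEquiv.ofLinearMap e.hom.hom.toLinearMap e.inv.hom.toLinearMap
    (LinearMap.ext fun y => cycred_inv_hom_apply e y)
    (LinearMap.ext fun x => cycred_hom_inv_apply e x)

end Iso

/-- **`ECFormula` is invariant under isomorphisms.** -/
theorem cycred_ecFormula_of_iso {p : ℕ} [Fact p.Prime] (S : Finset Nat.Primes)
    {B B' : Rep.{0} (ZMod p) GQ} (e : B ≅ B') (h : ECFormula p S B) : ECFormula p S B' := by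
  obtain ⟨hfin, heq⟩ := h
  have e2 := cycredH2Equiv (towerS S) e
  have e1 := cycredH1Equiv (towerS S) e
  have e0 := cycredInvEquiv e
  have eV := cycredVEquiv e
  have ec : ↥((Rep.res archimedeanLoc B).ρ.invariants) ≃ₗ[ZMod p]
      ↥((Rep.res archimedeanLoc B').ρ.invariants) :=
    cycredInvEquiv ((Rep.resFunctor archimedeanLoc).mapIso e)
  refine ⟨?_, ?_⟩
  · haveI := hfin
    exact Module.Finite.equiv e2
  · rw [← e2.finrank_eq, ← e1.finrank_eq, ← e0.finrank_eq, ← eV.finrank_eq, ← ec.finrank_eq]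
    exact heq

/-! ### The level `U₀ ⊓ ker χ` -/

/-- `U₀ ⊓ ker χ` is a level of `towerS S` (`p ∈ S`). -/
theorem cycred_level (p : ℕ) [Fact p.Prime] (S : Finset Nat.Primes) (hpS : pPrime p ∈ S)
    (U₀ : Subgroup GQ) [U₀.Normal] (hU₀ : U₀ ∈ (towerS S).lev) :
    U₀ ⊓ (cycloChar p).ker ∈ (towerS S).lev := by
  obtain ⟨F₀, hF₀, hU⟩ := hU₀
  obtain ⟨L, hL, hLχ⟩ := stmtCycloField p S hpS
  have hLker : L.fixingSubgroup ≤ (cycloChar p).ker := fun s hs => MonoidHom.mem_ker.2 (hLχ s hs)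
  haveI : (U₀ ⊓ (cycloChar p).ker).Normal := inferInstance
  have hsup := hF₀.sup hL.1
  obtain ⟨hT, hfix⟩ := isTowerField_fixedField_of_normal S (U₀ ⊓ (cycloChar p).ker) (F₀ ⊔ L)
    hsup.1
    (by
      rw [IntermediateField.fixingSubgroup_sup, hU]
      exact inf_le_inf le_rfl hLker)
    (fun q hq A hA => le_inf (hU ▸ hF₀.2 q hq A hA) ((hL.1.2 q hq A hA).trans hLker))
  exact ⟨_, hT.1, hfix.symm⟩

/-! ### The preimage of `C` and the coinduced representations -/

section Coind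

variable {G : Type} [Group G] (U₀ U₁ : Subgroup G) [U₀.Normal] [U₁.Normal] (h10 : U₁ ≤ U₀)

/-- the projection `G ⧸ U₁ → G ⧸ U₀` -/
def cycredPi : G ⧸ U₁ →* G ⧸ U₀ := QuotientGroup.map U₁ U₀ (MonoidHom.id G) h10

@[simp] theorem cycredPi_mk (g : G) : cycredPi U₀ U₁ h10 (g : G ⧸ U₁) = (g : G ⧸ U₀) := rfl

theorem cycredPi_surjective : Function.Surjective (cycredPi U₀ U₁ h10) := by
  intro γ
  induction γ using QuotientGroup.induction_on with
  | H g => exact ⟨(g : G ⧸ U₁), rfl⟩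

theorem cycredPi_eq_one_iff (g : G) : cycredPi U₀ U₁ h10 (g : G ⧸ U₁) = 1 ↔ g ∈ U₀ := by
  rw [cycredPi_mk]
  exact QuotientGroup.eq_one_iff g

variable (C : Subgroup (G ⧸ U₀))

/-- the preimage `C₁` of `C` in `G ⧸ U₁` -/
def cycredC1 : Subgroup (G ⧸ U₁) := C.comap (cycredPi U₀ U₁ h10)

/-- the projection `C₁ → C` -/
def cycredPiC : cycredC1 U₀ U₁ h10 C →* C := (cycredPi U₀ U₁ h10).subgroupComap C

@[simp] theorem cycredPiC_coe (c : cycredC1 U₀ U₁ h10 C) :
    ((cycredPiC U₀ U₁ h10 C c : C) : G ⧸ U₀) = cycredPi U₀ U₁ h10 (c : G ⧸ U₁) := rfl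

/-- **`|C₁|` is prime to `p`**: `C₁` embeds in `C × 𝔽_p^×`. -/
theorem cycred_card_coprime {p : ℕ} [Fact p.Prime] (χ : G →* (ZMod p)ˣ)
    (hU₁ : ∀ g, g ∈ U₁ ↔ g ∈ U₀ ∧ χ g = 1) (hC : (Nat.card C).Coprime p) :
    (Nat.card (cycredC1 U₀ U₁ h10 C)).Coprime p := by
  have hp : p.Prime := Fact.out
  let χ₁ : G ⧸ U₁ →* (ZMod p)ˣ := QuotientGroup.lift U₁ χ (fun g hg => ((hU₁ g).1 hg).2)
  let φ : cycredC1 U₀ U₁ h10 C →* C × (ZMod p)ˣ :=
    (cycredPiC U₀ U₁ h10 C).prod (χ₁.comp (cycredC1 U₀ U₁ h10 C).subtype)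
  have hinj : Function.Injective φ := by
    rw [injective_iff_map_eq_one]
    rintro ⟨γ, hγ⟩ h1
    induction γ using QuotientGroup.induction_on with
    | H g =>
      have h2 : cycredPiC U₀ U₁ h10 C ⟨(g : G ⧸ U₁), hγ⟩ = 1 := congrArg Prod.fst h1
      have h3 : χ₁ (g : G ⧸ U₁) = 1 := congrArg Prod.snd h1
      have h4 : g ∈ U₀ := by
        rw [← cycredPi_eq_one_iff U₀ U₁ h10]
        have := congrArg (Subtype.val) h2
        simpa using this
      have h5 : χ g = 1 := h3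
      have h6 : g ∈ U₁ := (hU₁ g).2 ⟨h4, h5⟩
      apply Subtype.ext
      exact (QuotientGroup.eq_one_iff g).2 h6
  have hdvd := Subgroup.card_dvd_of_injective φ hinj
  rw [Nat.card_prod] at hdvd
  have hunits : Nat.card (ZMod p)ˣ = p - 1 := by
    rw [Nat.card_eq_fintype_card, ZMod.card_units_eq_totient, Nat.totient_prime hp]
  rw [hunits] at hdvd
  have h1 : (p - 1).Coprime p := by
    have hp2 := hp.two_le
    apply Nat.Coprime.symm
    rw [Nat.Prime.coprime_iff_not_dvd hp]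
    intro hd
    have := Nat.le_of_dvd (by omega) hd
    omega
  exact Nat.Coprime.coprime_dvd_left hdvd (Nat.Coprime.mul_left hC h1)

variable {k : Type} [Field k] (M : Rep.{0} k C)

/-- the restriction of `M` to `C₁` -/
abbrev cycredM1 : Rep.{0} k (cycredC1 U₀ U₁ h10 C) := Rep.res (cycredPiC U₀ U₁ h10 C) M

/-- `f ↦ f ∘ π` on the coinduced modules -/
def cycredLin :
    ↥(Representation.coindV C.subtype M.ρ) →ₗ[k]
      ↥(Representation.coindV (cycredC1 U₀ U₁ h10 C).subtype (cycredM1 U₀ U₁ h10 C M).ρ) :=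
  (LinearMap.funLeft k M.V (cycredPi U₀ U₁ h10)).restrict fun f hf c γ => by
    show f (cycredPi U₀ U₁ h10 ((c : G ⧸ U₁) * γ)) = M.ρ (cycredPiC U₀ U₁ h10 C c)
      (f (cycredPi U₀ U₁ h10 γ))
    rw [map_mul]
    exact hf (cycredPiC U₀ U₁ h10 C c) (cycredPi U₀ U₁ h10 γ)

@[simp] theorem cycredLin_apply (f : ↥(Representation.coindV C.subtype M.ρ)) (γ : G ⧸ U₁) :
    (cycredLin U₀ U₁ h10 C M f).1 γ = f.1 (cycredPi U₀ U₁ h10 γ) := rfl

/-- `f ↦ f ∘ π` as a morphism of representations of `G` -/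
def cycredHom :
    Rep.res (QuotientGroup.mk' U₀) (Rep.coind C.subtype M) ⟶
      Rep.res (QuotientGroup.mk' U₁)
        (Rep.coind (cycredC1 U₀ U₁ h10 C).subtype (cycredM1 U₀ U₁ h10 C M)) :=
  Rep.ofHom (ρ := (Representation.coind C.subtype M.ρ).comp (QuotientGroup.mk' U₀))
    (σ := (Representation.coind (cycredC1 U₀ U₁ h10 C).subtype
      (cycredM1 U₀ U₁ h10 C M).ρ).comp (QuotientGroup.mk' U₁))
    ⟨cycredLin U₀ U₁ h10 C M, fun g => LinearMap.ext fun f => Subtype.ext (funext fun γ => by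
      show f.1 (cycredPi U₀ U₁ h10 γ * (QuotientGroup.mk' U₀ g))
        = f.1 (cycredPi U₀ U₁ h10 (γ * (QuotientGroup.mk' U₁ g)))
      rw [map_mul]
      rfl)⟩

theorem cycredHom_apply
    (f : (Rep.res (QuotientGroup.mk' U₀) (Rep.coind C.subtype M)).V) :
    (cycredHom U₀ U₁ h10 C M).hom f = cycredLin U₀ U₁ h10 C M f := rfl

theorem cycredHom_bijective : Function.Bijective (cycredHom U₀ U₁ h10 C M).hom := by
  constructor
  · intro f f' hff
    have h1 : cycredLin U₀ U₁ h10 C M f = cycredLin U₀ U₁ h10 C M f' := hff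
    apply Subtype.ext
    funext γ
    obtain ⟨γ₁, rfl⟩ := cycredPi_surjective U₀ U₁ h10 γ
    have h2 := congrFun (congrArg Subtype.val h1) γ₁
    exact h2
  · intro F
    -- `F` is constant on the fibres of `π`
    have hF : ∀ (c : cycredC1 U₀ U₁ h10 C) (γ : G ⧸ U₁),
        (F : ↥(Representation.coindV (cycredC1 U₀ U₁ h10 C).subtype
          (cycredM1 U₀ U₁ h10 C M).ρ)).1 ((c : G ⧸ U₁) * γ)
          = M.ρ (cycredPiC U₀ U₁ h10 C c) (F.1 γ) := fun c γ => F.2 c γ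
    have hconst : ∀ γ γ' : G ⧸ U₁, cycredPi U₀ U₁ h10 γ = cycredPi U₀ U₁ h10 γ' →
        F.1 γ = F.1 γ' := by
      intro γ γ' hγ
      have hk : cycredPi U₀ U₁ h10 (γ * γ'⁻¹) = 1 := by
        rw [map_mul, map_inv, hγ, mul_inv_cancel]
      have hkC : γ * γ'⁻¹ ∈ cycredC1 U₀ U₁ h10 C := by
        show cycredPi U₀ U₁ h10 (γ * γ'⁻¹) ∈ C
        rw [hk]
        exact one_mem C
      have h1 := hF ⟨γ * γ'⁻¹, hkC⟩ γ'
      have h2 : cycredPiC U₀ U₁ h10 C ⟨γ * γ'⁻¹, hkC⟩ = 1 := Subtype.ext hk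
      rw [h2, map_one] at h1
      simpa using h1
    let s : G ⧸ U₀ → G ⧸ U₁ := Function.surjInv (cycredPi_surjective U₀ U₁ h10)
    have hs : ∀ γ, cycredPi U₀ U₁ h10 (s γ) = γ :=
      Function.surjInv_eq (cycredPi_surjective U₀ U₁ h10)
    refine ⟨⟨fun γ => F.1 (s γ), fun c γ => ?_⟩, ?_⟩
    · obtain ⟨c₁, hc₁⟩ := cycredPi_surjective U₀ U₁ h10 (c : G ⧸ U₀)
      have hc₁C : c₁ ∈ cycredC1 U₀ U₁ h10 C := by
        show cycredPi U₀ U₁ h10 c₁ ∈ C
        rw [hc₁]
        exact c.2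
      have h1 := hF ⟨c₁, hc₁C⟩ (s γ)
      have h2 : cycredPiC U₀ U₁ h10 C ⟨c₁, hc₁C⟩ = c := Subtype.ext hc₁
      rw [h2] at h1
      show F.1 (s (C.subtype c * γ)) = M.ρ c (F.1 (s γ))
      rw [← h1]
      apply hconst
      rw [hs, map_mul, hs, hc₁]
      rfl
    · apply Subtype.ext
      funext γ
      show F.1 (s (cycredPi U₀ U₁ h10 γ)) = F.1 γ
      exact hconst _ _ (hs _)

/-- **`infl coind_C^{Γ₀} M ≅ infl coind_{C₁}^{Γ₁} (res M)`** -/
theorem cycred_iso :
    Nonempty (Rep.res (QuotientGroup.mk' U₀) (Rep.coind C.subtype M) ≅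
      Rep.res (QuotientGroup.mk' U₁)
        (Rep.coind (cycredC1 U₀ U₁ h10 C).subtype (cycredM1 U₀ U₁ h10 C M))) :=
  hba_iso_of_bijective _ (cycredHom_bijective U₀ U₁ h10 C M)

end Coind

/-! ### Y-red -/

/-- **Y-red.** `StmtCyc` from the levels trivialising `χ`. -/
theorem stmtCycRed : StmtCycRed := by
  intro hchi p _ hp2 S hpS hcg hcl hh hex hsv U₀ _ hU₀ C _ hCcop M hM
  obtain ⟨U₁, hU₁def⟩ : ∃ U₁ : Subgroup GQ, U₁ = U₀ ⊓ (cycloChar p).ker := ⟨_, rfl⟩
  haveI hn : U₁.Normal := by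
    rw [hU₁def]
    infer_instance
  have hU₁ : U₁ ∈ (towerS S).lev := by
    rw [hU₁def]
    exact cycred_level p S hpS U₀ hU₀
  have hmem : ∀ g, g ∈ U₁ ↔ g ∈ U₀ ∧ cycloChar p g = 1 := by
    intro g
    rw [hU₁def, Subgroup.mem_inf, MonoidHom.mem_ker]
  have hχ : ∀ s ∈ U₁, cycloChar p s = 1 := fun s hs => ((hmem s).1 hs).2
  have h10 : U₁ ≤ U₀ := fun g hg => ((hmem g).1 hg).1
  have hcop : (Nat.card (cycredC1 U₀ U₁ h10 C)).Coprime p :=
    cycred_card_coprime U₀ U₁ h10 C (cycloChar p) hmem hCcop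
  have key := hchi p hp2 S hpS hcg hcl hh hex hsv U₁ hU₁ hχ (cycredC1 U₀ U₁ h10 C) hcop
    (cycredM1 U₀ U₁ h10 C M) hM
  obtain ⟨e⟩ := cycred_iso U₀ U₁ h10 C M
  exact cycred_ecFormula_of_iso S e.symm key

end Fermat.Agent.TW.E

end
end ZBTW_051_4

/-! ### bundled: `Fermat.Agent.TW.E.CycSpl1` -/
section ZBTW_051_5

/-!
# TW-E / E-cyc, piece Y-spl1 (helper82): `stmtKumSplice : StmtKumSplice`

Pure algebra.  For a Kummer sequence `X —p→ X —a→ V —b→ Y —p→ Y` of `Γ`-modules (`V` an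
`𝔽_p`-representation of finite dimension), a model `M` of `X / pX` and a model `T` of `Y[p]`,
there is a short exact sequence `0 → M → V → T → 0` of `𝔽_p`-representations, hence
`ψ V = ψ M + ψ T` for every additive function `ψ`.
-/

set_option autoImplicit false
set_option linter.unusedSectionVars false

namespace Fermat.Agent.TW.E

open CategoryTheory

section

variable {p : ℕ} [hp : Fact p.Prime] {Γ : Type} [Group Γ]

/-- the short exact sequence `0 → X/p → V → Y[p] → 0` of a Kummer sequence -/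
theorem cycspl1_exists_ses {X Y : Rep.{0} ℤ Γ} {V M T : Rep.{0} (ZMod p) Γ}
    (hK : IsKumSeq p X V Y) (hM : IsModP p X M) (hT : IsTorP p Y T) :
    ∃ (u : M ⟶ V) (w : V ⟶ T), Function.Injective u.hom ∧ Function.Surjective w.hom ∧
      Function.Exact u.hom w.hom := by
  obtain ⟨a, b, hae, hbe, hka, hkb, hib⟩ := hK
  obtain ⟨f, hfs, hfe, hfk⟩ := hM
  obtain ⟨f', hf'i, hf'e, hf'm⟩ := hT
  -- `a` factors through `f`
  have key : ∀ x y, f x = f y → a x = a y := by
    intro x y hxy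
    rw [← sub_eq_zero, ← map_sub, hfk] at hxy
    rw [← sub_eq_zero, ← map_sub]
    exact (hka _).2 hxy
  obtain ⟨u, hu⟩ := hba_mkHom M V (fun m v => ∃ x, f x = m ∧ a x = v)
    (fun m => by
      obtain ⟨x, rfl⟩ := hfs m
      exact ⟨_, x, rfl, rfl⟩)
    (fun m v v' h1 h2 => by
      obtain ⟨x, rfl, rfl⟩ := h1
      obtain ⟨y, hy, rfl⟩ := h2
      exact key _ _ hy.symm)
    (fun m v m' v' h1 h2 => by
      obtain ⟨x, rfl, rfl⟩ := h1
      obtain ⟨y, rfl, rfl⟩ := h2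
      exact ⟨x + y, map_add _ _ _, map_add _ _ _⟩)
    (fun γ m v h1 => by
      obtain ⟨x, rfl, rfl⟩ := h1
      exact ⟨X.ρ γ x, hfe γ x, hae γ x⟩)
  have hu' : ∀ x, u.hom (f x) = a x := by
    intro x
    obtain ⟨y, hy1, hy2⟩ := hu (f x)
    rw [← hy2]
    exact key _ _ hy1
  -- `b` corestricts to `T`
  obtain ⟨w, hw⟩ := hba_mkHom V T (fun v t => f' t = b v)
    (fun v => (hf'm _).1 ((hib _).2 ⟨v, rfl⟩))
    (fun v t t' h1 h2 => hf'i (h1.trans h2.symm))
    (fun v t v' t' h1 h2 => by rw [map_add, map_add, h1, h2])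
    (fun γ v t h1 => by rw [hf'e, hbe, h1])
  refine ⟨u, w, ?_, ?_, ?_⟩
  · -- injectivity
    intro m m' hmm
    obtain ⟨x, rfl⟩ := hfs m
    obtain ⟨y, rfl⟩ := hfs m'
    rw [hu', hu'] at hmm
    rw [← sub_eq_zero, ← map_sub] at hmm ⊢
    exact (hfk _).2 ((hka _).1 hmm)
  · -- surjectivity
    intro t
    obtain ⟨v, hv⟩ := (hib _).1 ((hf'm _).2 ⟨t, rfl⟩)
    exact ⟨v, hf'i ((hw v).trans hv)⟩
  · -- exactness
    intro v
    constructor
    · intro h0
      have h1 : b v = 0 := by rw [← hw v, h0, map_zero]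
      obtain ⟨x, hx⟩ := (hkb _).1 h1
      exact ⟨f x, (hu' x).trans hx⟩
    · rintro ⟨m, rfl⟩
      obtain ⟨x, rfl⟩ := hfs m
      apply hf'i
      rw [hw, hu', map_zero]
      exact (hkb _).2 ⟨x, rfl⟩

end

/-- **Y-spl1.** `ψ(V) = ψ(X/p) + ψ(Y[p])` for a Kummer sequence. -/
theorem stmtKumSplice : StmtKumSplice := by
  intro p _ Γ _ ψ hψ X Y V hV hK M T hM hT
  obtain ⟨u, w, hu, hw, hex⟩ := cycspl1_exists_ses hK hM hT
  exact hψ.add M V T u w hV hu hw hex

end Fermat.Agent.TW.E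


end ZBTW_051_5

/-! ### bundled: `Fermat.Agent.TW.E.CycSpl2` -/
section ZBTW_051_6

/-!
# TW-E / E-cyc, piece Y-spl2 (helper82): `stmtTorSplice : StmtTorSplice`

Pure algebra.  For a sequence `X —i→ Y —π→ Z` of `Γ`-modules which is short exact on the
`p`-torsion and models `T`, `TJ`, `TC` of `X[p]`, `Y[p]`, `Z[p]`, there is a short exact sequence
`0 → T → TJ → TC → 0` of `𝔽_p`-representations, hence `ψ TJ = ψ T + ψ TC` for every additive
function `ψ`.
-/

set_option autoImplicit false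
set_option linter.unusedSectionVars false

namespace Fermat.Agent.TW.E

open CategoryTheory

section

variable {p : ℕ} [hp : Fact p.Prime] {Γ : Type} [Group Γ]

/-- the short exact sequence `0 → X[p] → Y[p] → Z[p] → 0` of the models -/
theorem cycspl2_exists_ses {X Y Z : Rep.{0} ℤ Γ} {T TJ TC : Rep.{0} (ZMod p) Γ}
    (hS : IsTorSeq p X Y Z) (hT : IsTorP p X T) (hTJ : IsTorP p Y TJ) (hTC : IsTorP p Z TC) :
    ∃ (u : T ⟶ TJ) (w : TJ ⟶ TC), Function.Injective u.hom ∧ Function.Surjective w.hom ∧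
      Function.Exact u.hom w.hom := by
  obtain ⟨i, π, hie, hπe, hinj, hmid, hsurj⟩ := hS
  obtain ⟨fT, hTi, hTe, hTm⟩ := hT
  obtain ⟨fJ, hJi, hJe, hJm⟩ := hTJ
  obtain ⟨fC, hCi, hCe, hCm⟩ := hTC
  obtain ⟨u, hu⟩ := hba_torMap (p := p) (ι := fT) (κ := fJ) ⟨hTi, hTe, hTm⟩ ⟨hJi, hJe, hJm⟩ i hie
  obtain ⟨w, hw⟩ := hba_torMap (p := p) (ι := fJ) (κ := fC) ⟨hJi, hJe, hJm⟩ ⟨hCi, hCe, hCm⟩ π hπe
  refine ⟨u, w, ?_, ?_, ?_⟩
  · -- injectivity
    intro t t' htt
    apply hTi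
    have h1 : i (fT t) = i (fT t') := by rw [← hu, ← hu, htt]
    have h2 : fT (t - t') = 0 := by
      apply hinj _ ((hTm _).2 ⟨t - t', rfl⟩)
      rw [map_sub, map_sub, h1, sub_self]
    rw [map_sub, sub_eq_zero] at h2
    exact h2
  · -- surjectivity
    intro c
    obtain ⟨y, hy, hyc⟩ := hsurj (fC c) ((hCm _).2 ⟨c, rfl⟩)
    obtain ⟨s, rfl⟩ := (hJm _).1 hy
    exact ⟨s, hCi ((hw s).trans hyc)⟩
  · -- exactness
    intro s
    constructor
    · intro h0
      have h1 : π (fJ s) = 0 := by rw [← hw s, h0, map_zero]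
      obtain ⟨x, hx, hxs⟩ := (hmid _ ((hJm _).2 ⟨s, rfl⟩)).1 h1
      obtain ⟨t, rfl⟩ := (hTm _).1 hx
      exact ⟨t, hJi ((hu t).trans hxs)⟩
    · rintro ⟨t, rfl⟩
      apply hCi
      rw [hw, hu, map_zero]
      exact (hmid _ ((hJm _).2 ⟨u.hom t, by rw [hu]⟩)).2 ⟨fT t, (hTm _).2 ⟨t, rfl⟩, rfl⟩

end

/-- **Y-spl2.** `ψ(Y[p]) = ψ(X[p]) + ψ(Z[p])` for a sequence which is short exact on the
`p`-torsion. -/
theorem stmtTorSplice : StmtTorSplice := by
  intro p _ Γ _ ψ hψ X Y Z hS T TJ TC hT hTJ hTC hfin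
  obtain ⟨u, w, hu, hw, hex⟩ := cycspl2_exists_ses hS hT hTJ hTC
  exact hψ.add T TJ TC u w hfin hu hw hex

end Fermat.Agent.TW.E


end ZBTW_051_6

/-! ### bundled: `Fermat.Agent.TW.E.ClFinAbs` -/
section ZBTW_051_7
/-
Project TW (S56) — part TW-E, block E-cyc, piece **K-Cl** (helper69): the abstract part.
`H¹_lev(G, Hom_ℤ(ℤ[G/U], E))` injects into `C^U / π(J^U)`; hence it is finite as soon as `C^U` maps
to a finite set with fibres in `π(J^U)`-cosets.  Names `clf_*`.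
-/

set_option autoImplicit false
set_option linter.style.haveILetI false
set_option linter.unusedSectionVars false

noncomputable section

namespace Fermat.Agent.TW.E

open CategoryTheory groupCohomology Module Fermat.Agent.PT Fermat.Agent.PT.F Fermat.Agent.TW.F

attribute [local instance 1100] Rep.hV2

section Perm

variable {G : Type} [Group G] (U : Subgroup G) [U.Normal]

/-- `ℤ[G ⧸ U]` as a `G`-module is the inflation of the regular representation of `G ⧸ U`. -/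
lemma clf_permZ_eq :
    permZ G (G ⧸ U) =
      Rep.res (QuotientGroup.mk' U) (Rep.ofMulAction ℤ (G ⧸ U) (G ⧸ U)) := by
  have h : Representation.ofMulAction ℤ G (G ⧸ U) =
      (Representation.ofMulAction ℤ (G ⧸ U) (G ⧸ U)).comp (QuotientGroup.mk' U) := by
    ext g x : 2
    ext : 1
    show (Representation.ofMulAction ℤ G (G ⧸ U)) g (MonoidAlgebra.single x 1) =
      (Representation.ofMulAction ℤ (G ⧸ U) (G ⧸ U)) (QuotientGroup.mk' U g)
        (MonoidAlgebra.single x 1)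
    rw [Representation.ofMulAction_single, Representation.ofMulAction_single]
    rfl
  show Rep.of (Representation.ofMulAction ℤ G (G ⧸ U)) = _
  rw [h]

end Perm

section Datum

variable {p : ℕ} [Fact p.Prime] {G : Type} [Group G] {ι : Type} [Fintype ι] {Gloc : ι → Type}
  [∀ v, Group (Gloc v)] (D : PTDatum p G ι Gloc) (U : Subgroup G) [U.Normal]

/-- `In4` for `ℤ[G ⧸ U]` (Shapiro + Hilbert 90). -/
theorem clf_in4 (hU : U ∈ D.𝒯.lev) : In4 D (permZ G (G ⧸ U)) := by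
  rw [clf_permZ_eq U]
  intro v c hc hcoc
  haveI : U.FiniteIndex := D.𝒯.finiteIndex U hU
  haveI : Finite (G ⧸ U) := inferInstance
  have hker : (QuotientGroup.mk' U).ker = U := QuotientGroup.ker_mk' U
  have hkermem : ((QuotientGroup.mk' U).comp (D.r v)).ker ∈ (D.𝒯loc v).lev := by
    rw [← MonoidHom.comap_ker, hker]
    exact D.comap_mem v U hU
  obtain ⟨n, hn, t, ht⟩ := stmtPermSh1 (Gloc v) (G ⧸ U) (D.𝒯loc v)
    ((QuotientGroup.mk' U).comp (D.r v)) (G ⧸ U)
    (fun γ ω h => by simpa using h) hkermem (D.Jloc v) (⊥ : Submonoid ℕ)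
    (fun c' hc' hl' => by
      obtain ⟨t, ht⟩ := stmtIn4b p G ι Gloc D v _ hkermem c' hc' hl'
      exact ⟨1, Submonoid.mem_bot.2 rfl, t, fun s => by rw [one_nsmul]; exact ht s⟩)
    c hc hcoc
  have hn1 : n = 1 := Submonoid.mem_bot.1 hn
  subst hn1
  exact ⟨t, fun d => (one_nsmul (c d)).symm.trans (ht d)⟩

/-- `ev_v` is equivariant: `ev_v (r(d) x) = d (ev_v x)` -/
lemma clf_ev_ρ (v : ι) (d : Gloc v) (x : (PTJ D).V) :
    ev D v ((PTJ D).ρ (D.r v d) x) = (D.Jloc v).ρ d (ev D v x) := by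
  show x.1 v (1 * D.r v d) = (D.Jloc v).ρ d (x.1 v 1)
  rw [one_mul, ← (x.2 v).1 d 1, mul_one]

/-- `H¹_lev(G, Hom_ℤ(ℤ[G ⧸ U], J)) = 0` -/
theorem clf_J_vanish (hU : U ∈ D.𝒯.lev) (y : G → ((permZ G (G ⧸ U)).V →+ (PTJ D).V))
    (hy : IsLevel₁ D.𝒯 y) (hcoc : ∀ στ, dOne (permZ G (G ⧸ U)) (PTJ D) y στ = 0) :
    ∃ t : (permZ G (G ⧸ U)).V →+ (PTJ D).V, ∀ σ, y σ = dZero (permZ G (G ⧸ U)) (PTJ D) t σ := by
  have hM : IsLevTriv D.𝒯 (permZ G (G ⧸ U)) := by
    refine ⟨U, hU, fun s hs m => ?_⟩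
    have h1 : ∀ ω : G ⧸ U, s • ω = ω := by
      intro ω
      obtain ⟨g, rfl⟩ := QuotientGroup.mk_surjective ω
      rw [MulAction.Quotient.smul_mk, smul_eq_mul, QuotientGroup.eq]
      have h := (inferInstance : U.Normal).conj_mem s⁻¹ (U.inv_mem hs) g⁻¹
      simpa [mul_assoc] using h
    induction m using MonoidAlgebra.induction_linear with
    | zero => simp
    | add a b ha hb => rw [map_add, ha, hb]
    | single ω z => rw [chl_ρ_single, h1]
  refine in3_of_levTriv D _ hM y hy hcoc (fun v => ?_)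
  refine clf_in4 D U hU v (fun d => (ev D v).comp (y (D.r v d))) ?_ ?_
  · obtain ⟨U', hU', h⟩ := hy
    refine ⟨U'.comap (D.r v), D.comap_mem v U' hU', fun g s hs => ?_⟩
    show (ev D v).comp (y (D.r v (g * s))) = (ev D v).comp (y (D.r v g))
    rw [MonoidHom.map_mul (D.r v), h _ _ hs]
  · intro dd
    apply AddMonoidHom.ext
    intro m
    have h := DFunLike.congr_fun (hcoc (D.r v dd.1, D.r v dd.2)) m
    simp only [dOne, AddMonoidHom.add_apply, AddMonoidHom.sub_apply,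
      AddMonoidHom.zero_apply] at h
    have h2 := congrArg (ev D v) h
    simp only [map_add, map_sub, map_zero] at h2
    simp only [dOne, AddMonoidHom.add_apply, AddMonoidHom.sub_apply,
      AddMonoidHom.zero_apply, AddMonoidHom.comp_apply, MonoidHom.map_mul]
    have e1 : (conjAdd (Rep.res (D.r v) (permZ G (G ⧸ U))) (D.Jloc v) dd.1
        ((ev D v).comp (y (D.r v dd.2)))) m =
        ev D v ((conjAdd (permZ G (G ⧸ U)) (PTJ D) (D.r v dd.1) (y (D.r v dd.2))) m) := by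
      rw [conjAdd_apply, conjAdd_apply, clf_ev_ρ, ← MonoidHom.map_inv (D.r v)]
      rfl
    rw [e1]
    exact h2

/-- the action of `s ∈ U` fixes `δ_1` -/
lemma clf_ρ_single_one {s : G} (hs : s ∈ U) :
    (permZ G (G ⧸ U)).ρ s (MonoidAlgebra.single (1 : G ⧸ U) 1) =
      MonoidAlgebra.single (1 : G ⧸ U) 1 := by
  rw [chl_ρ_single]
  congr 1
  show s • ((1 : G) : G ⧸ U) = ((1 : G) : G ⧸ U)
  rw [MulAction.Quotient.smul_mk, smul_eq_mul, mul_one]
  exact (QuotientGroup.eq_one_iff s).2 hs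

/-- `δ_{gU} = g δ_1` -/
lemma clf_single_mk (g : G) :
    (MonoidAlgebra.single ((g : G) : G ⧸ U) 1 : (permZ G (G ⧸ U)).V) =
      (permZ G (G ⧸ U)).ρ g (MonoidAlgebra.single (1 : G ⧸ U) 1) := by
  rw [chl_ρ_single]
  congr 1
  show _ = g • ((1 : G) : G ⧸ U)
  rw [MulAction.Quotient.smul_mk, smul_eq_mul, mul_one]

/-- for a `U`-invariant `j`, `g j` only depends on `gU` -/
lemma clf_ρ_eq_of_mk_eq {Y : Rep.{0} ℤ G} {j : Y.V} (hj : ∀ s ∈ U, Y.ρ s j = j) {g g' : G}
    (h : ((g : G) : G ⧸ U) = g') : Y.ρ g j = Y.ρ g' j := by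
  have h1 : g⁻¹ * g' ∈ U := QuotientGroup.eq.1 h
  have h2 : g' = g * (g⁻¹ * g') := by group
  rw [h2, map_mul, Module.End.mul_apply, hj _ h1]

/-- **K-Cl, abstract part.** -/
theorem clf_abs (hU : U ∈ D.𝒯.lev) (X : Type) [Finite X] (φ : D.C.V → X)
    (hφ : ∀ x x' : D.C.V, (∀ s ∈ U, D.C.ρ s x = x) → (∀ s ∈ U, D.C.ρ s x' = x') → φ x = φ x' →
      ∃ j : (PTJ D).V, (∀ s ∈ U, (PTJ D).ρ s j = j) ∧ D.π.hom j = x - x') :
    Finite ↥(levH1 D.𝒯 (homRep (permZ G (G ⧸ U)) D.E)) := by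
  -- notation
  have hπi : ∀ e : D.E.V, D.π.hom (D.i.hom e) = 0 := fun e => (D.exact _).2 ⟨e, rfl⟩
  -- representatives
  have hrep : ∀ x : ↥(levH1 D.𝒯 (homRep (permZ G (G ⧸ U)) D.E)),
      ∃ c : G → ((permZ G (G ⧸ U)).V →+ D.E.V), IsLevel₁ D.𝒯 c ∧
        (∀ g h : G, c (g * h) = conjAdd (permZ G (G ⧸ U)) D.E g (c h) + c g) ∧
        ∃ hc : c ∈ cocycles₁ (homRep (permZ G (G ⧸ U)) D.E),
          (H1π (homRep (permZ G (G ⧸ U)) D.E)).hom ⟨c, hc⟩ = x.1 := by
    intro x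
    obtain ⟨c, hc, hx⟩ := (mem_levH1_iff D.𝒯 _ x.1).1 x.2
    refine ⟨c.1, hc, ?_, c.2, hx⟩
    intro g h
    exact (mem_cocycles₁_iff c.1).1 c.2 g h
  choose c hc_lev hc_coc hc_mem hc_cls using hrep
  -- the images in `Hom(M, J)` are coboundaries
  have ht : ∀ x, ∃ t : (permZ G (G ⧸ U)).V →+ (PTJ D).V,
      ∀ σ, (homAdd D.i).comp (c x σ) = dZero (permZ G (G ⧸ U)) (PTJ D) t σ := by
    intro x
    refine clf_J_vanish D U hU (fun σ => (homAdd D.i).comp (c x σ))
      ((hc_lev x).comp (fun f => (homAdd D.i).comp f)) ?_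
    rintro ⟨σ, τ⟩
    apply AddMonoidHom.ext
    intro m
    have h := DFunLike.congr_fun (hc_coc x σ τ) m
    simp only [AddMonoidHom.add_apply] at h
    rw [conjAdd_apply] at h
    simp only [dOne, AddMonoidHom.add_apply, AddMonoidHom.sub_apply, AddMonoidHom.zero_apply]
    rw [conjAdd_apply]
    simp only [AddMonoidHom.comp_apply, homAdd_apply]
    rw [h, map_add, Rep.hom_comm_apply]
    abel
  choose t ht using ht
  -- the key relation, evaluated
  have hkey : ∀ x σ m, (PTJ D).ρ σ (t x ((permZ G (G ⧸ U)).ρ σ⁻¹ m)) =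
      t x m + D.i.hom (c x σ m) := by
    intro x σ m
    have h := DFunLike.congr_fun (ht x σ) m
    simp only [dZero, AddMonoidHom.sub_apply, AddMonoidHom.comp_apply, homAdd_apply] at h
    rw [conjAdd_apply] at h
    rw [h]
    abel
  have hinv : ∀ x, ∀ s ∈ U, D.C.ρ s (D.π.hom (t x (MonoidAlgebra.single (1 : G ⧸ U) 1))) =
      D.π.hom (t x (MonoidAlgebra.single (1 : G ⧸ U) 1)) := by
    intro x s hs
    have h := hkey x s (MonoidAlgebra.single (1 : G ⧸ U) 1)
    rw [clf_ρ_single_one U (U.inv_mem hs)] at h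
    rw [← Rep.hom_comm_apply, h, map_add, hπi, add_zero]
  refine Finite.of_injective
    (fun x => φ (D.π.hom (t x (MonoidAlgebra.single (1 : G ⧸ U) 1)))) ?_
  intro x x' hxx'
  obtain ⟨j, hj, hπj⟩ := hφ _ _ (hinv x) (hinv x') hxx'
  -- the `G`-homomorphism of `j`
  have htj : ∀ (σ : G) (ω : G ⧸ U),
      (PTJ D).ρ σ ((PTJ D).ρ (Quotient.out (σ⁻¹ • ω)) j) = (PTJ D).ρ (Quotient.out ω) j := by
    intro σ ω
    rw [← Module.End.mul_apply, ← map_mul]
    apply clf_ρ_eq_of_mk_eq U hj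
    have h1 : ((σ * Quotient.out (σ⁻¹ • ω) : G) : G ⧸ U) = σ • (σ⁻¹ • ω) := by
      conv_rhs => rw [← QuotientGroup.out_eq' (σ⁻¹ • ω)]
      rfl
    rw [h1, smul_inv_smul, QuotientGroup.out_eq']
  have htj1 : (PTJ D).ρ (Quotient.out (1 : G ⧸ U)) j = j := by
    have h := clf_ρ_eq_of_mk_eq U hj (g := Quotient.out (1 : G ⧸ U)) (g' := 1)
      (QuotientGroup.out_eq' _)
    rw [h, map_one, Module.End.one_apply]
  -- `T = t x - t x' - t_j` has values in `i(E)`
  have hT0 : ∀ g : G, D.π.hom (t x (MonoidAlgebra.single ((g : G) : G ⧸ U) 1)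
      - t x' (MonoidAlgebra.single ((g : G) : G ⧸ U) 1)
      - (PTJ D).ρ (Quotient.out ((g : G) : G ⧸ U)) j) = 0 := by
    intro g
    have h1 := hkey x g ((permZ G (G ⧸ U)).ρ g (MonoidAlgebra.single (1 : G ⧸ U) 1))
    have h2 := hkey x' g ((permZ G (G ⧸ U)).ρ g (MonoidAlgebra.single (1 : G ⧸ U) 1))
    have h3 : (permZ G (G ⧸ U)).ρ g⁻¹
        ((permZ G (G ⧸ U)).ρ g (MonoidAlgebra.single (1 : G ⧸ U) 1)) =
        MonoidAlgebra.single (1 : G ⧸ U) 1 := by
      rw [← Module.End.mul_apply, ← map_mul, inv_mul_cancel, map_one, Module.End.one_apply]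
    rw [h3, ← clf_single_mk] at h1 h2
    have h4 : (PTJ D).ρ (Quotient.out ((g : G) : G ⧸ U)) j = (PTJ D).ρ g j :=
      clf_ρ_eq_of_mk_eq U hj (QuotientGroup.out_eq' _)
    have e1 : t x (MonoidAlgebra.single ((g : G) : G ⧸ U) 1) =
        (PTJ D).ρ g (t x (MonoidAlgebra.single (1 : G ⧸ U) 1)) -
          D.i.hom (c x g (MonoidAlgebra.single ((g : G) : G ⧸ U) 1)) := by
      rw [h1]; abel
    have e2 : t x' (MonoidAlgebra.single ((g : G) : G ⧸ U) 1) =
        (PTJ D).ρ g (t x' (MonoidAlgebra.single (1 : G ⧸ U) 1)) -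
          D.i.hom (c x' g (MonoidAlgebra.single ((g : G) : G ⧸ U) 1)) := by
      rw [h2]; abel
    rw [e1, e2, h4]
    simp only [map_sub, hπi, sub_zero, Rep.hom_comm_apply]
    rw [← map_sub, ← map_sub, hπj, sub_self, map_zero]
  have hTE : ∀ ω : G ⧸ U, ∃ e : D.E.V, D.i.hom e =
      t x (MonoidAlgebra.single ω 1) - t x' (MonoidAlgebra.single ω 1)
        - (PTJ D).ρ (Quotient.out ω) j := by
    intro ω
    obtain ⟨g, rfl⟩ := QuotientGroup.mk_surjective ω
    exact (D.exact _).1 (hT0 g)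
  choose e he using hTE
  -- `c x - c x' = d⁰ t_E`
  have hfin : ∀ σ, c x σ - c x' σ =
      dZero (permZ G (G ⧸ U)) D.E (chl_lift (G := G) (G ⧸ U) e) σ := by
    intro σ
    apply chl_ext
    intro ω
    apply D.i_injective
    simp only [dZero, AddMonoidHom.sub_apply]
    rw [conjAdd_apply, chl_ρ_single, chl_lift_single, chl_lift_single, one_smul, one_smul,
      map_sub, map_sub, Rep.hom_comm_apply D.i σ, he, he]
    have h1 := hkey x σ (MonoidAlgebra.single ω 1)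
    have h2 := hkey x' σ (MonoidAlgebra.single ω 1)
    rw [chl_ρ_single] at h1 h2
    simp only [map_sub]
    rw [h1, h2, htj σ ω]
    abel
  -- conclusion
  apply Subtype.ext
  rw [← hc_cls x, ← hc_cls x', H1π_eq_iff]
  refine ⟨chl_lift (G := G) (G ⧸ U) e, ?_⟩
  funext σ
  exact (hfin σ).symm

end Datum

end Fermat.Agent.TW.E

end


end ZBTW_051_7

/-! ### bundled: `Fermat.Agent.TW.E.ClFin` -/
section ZBTW_051_8
/-
Project TW (S56) — part TW-E, block E-cyc, piece **K-Cl** (helper69): the concrete part.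
`H¹_lev(G_ℚ, Hom_ℤ(ℤ[Γ], E_S))` is finite (`Γ = G_ℚ ⧸ U`, `U` a normal level of `towerS S`): it injects
into `C_S^U / π(J_S^U)`, and PT-B's comparison map `f_L : C_S^{G_L} → C_S(L)` identifies the latter
with a subgroup of `C_S(L) / im(J_L) = Cl_S(L)`, which is finite (`stmtCSExact`).
The statement is conditional on the five hypotheses of the concrete Poitou–Tate datum, like every
other concrete input of TW-E (`StmtUnitsCyc`, `StmtKum`, …).  Names `clf_*`.
-/

set_option autoImplicit false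
set_option linter.style.haveILetI false
set_option linter.unusedSectionVars false

noncomputable section

namespace Fermat.Agent.TW.E

open CategoryTheory groupCohomology Module Fermat.Agent.PT Fermat.Agent.PT.F Fermat.Agent.PT.B
  Fermat.Agent.PT.G Fermat.Agent.TW.F ExtCitation

/-- **K-Cl (concrete input), in the form in which it is consumed**: for an odd prime `p ∈ S` (and the
five hypotheses of the concrete datum) `H¹_lev(G_ℚ, Hom(ℤ[Γ], E_S))` is finite. -/
def StmtClFin' : Prop :=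
  ∀ (p : ℕ) [Fact p.Prime] (_ : p ≠ 2) (S : Finset Nat.Primes) (_ : pPrime p ∈ S),
    StmtCmGlob → StmtCmLoc → StmtH90Loc → StmtExistC → StmtSurvC →
    ∀ (U : Subgroup GQ) [U.Normal], U ∈ (towerS S).lev →
      Finite ↥(levH1 (towerS S) (homRep (permZ GQ (GQ ⧸ U)) (ERep S)))

/-- the field of a normal level is a tower field -/
theorem clf_towerField (S : Finset Nat.Primes) (U : Subgroup GQ) [hn : U.Normal]
    (hU : U ∈ (towerS S).lev) : ∃ L : QbarField, IsTowerField S L ∧ U = L.fixingSubgroup := by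
  obtain ⟨L, hLur, rfl⟩ := hU
  haveI : IsAlgClosure ℚ (AlgebraicClosure ℚ) :=
    ⟨inferInstance, AlgebraicClosure.isAlgebraic ℚ⟩
  haveI : IsGalois ℚ (AlgebraicClosure ℚ) := inferInstance
  exact ⟨L, ⟨hLur, (InfiniteGalois.normal_iff_isGalois L).1 hn⟩, rfl⟩

theorem stmtClFin' : StmtClFin' := by
  intro p _ hp2 S hpS hcg hcl hh hex hsv U hn hU
  obtain ⟨L, hL, rfl⟩ := clf_towerField S U hU
  haveI := numberField_of_isTowerField hL
  obtain ⟨f, hf⟩ := stmtCompare p S hpS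
  haveI : Finite (CS S ↥L ⧸ LinearMap.range (csOfJ S ↥L)) := (stmtCSExact S ↥L).2
  classical
  refine clf_abs (concreteDatum p hp2 S hpS hcg hcl hh hex hsv) L.fixingSubgroup hU
    (CS S ↥L ⧸ LinearMap.range (csOfJ S ↥L))
    (fun x => if hx : x ∈ CInv S L then Submodule.Quotient.mk (f L hL ⟨x, hx⟩) else 0) ?_
  intro x x' hx hx' hxx'
  have hxm : x ∈ CInv S L := hx
  have hxm' : x' ∈ CInv S L := hx'
  simp only [dif_pos hxm, dif_pos hxm'] at hxx'
  rw [Submodule.Quotient.eq] at hxx'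
  obtain ⟨z, hz⟩ := hxx'
  refine ⟨thetaL S L hL.1 z, thetaL_invariant S L hL.1 z, ?_⟩
  have h1 := hf.idelic L hL z
  have h2 : f L hL (⟨x, hxm⟩ - ⟨x', hxm'⟩) = csOfJ S ↥L z := by
    rw [map_sub]
    exact hz.symm
  have h3 := hf.inj L hL (h1.trans h2.symm)
  exact congrArg Subtype.val h3

end Fermat.Agent.TW.E

end


end ZBTW_051_8

/-! ### bundled: `Fermat.Agent.TW.E.UnitsCycPlan` -/
section ZBTW_051_9
/-
Project TW (S56) — part TW-E, block E-cyc, piece **K-units** (helper48): INTERFACE FILE.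
Target: `StmtUnitsCyc` (Plan2.lean) = Dirichlet's `S`-unit theorem in group-theoretic form.

Notation: `U = Gal(ℚ̄/L)` a normal level of `towerS S`, `Γ = G_ℚ ⧸ U`, `H ≤ Γ`, `V` the preimage of
`H` in `G_ℚ`, `F = ℚ̄^V` (a subfield of `L`, unramified outside `S`, `Gal(ℚ̄/F) = V`).

* **FIX** (`StmtUcycFix`): `(E_S^U)^H ≃ 𝒪_{F,S}^× = nUnits (sProd S) F` (by `stmtUnitsS`);
  hence `rank (E^U)^H = r_F + #{P ∣ sProd S}` (`stmtUnitRank`).
* **INF** (`StmtUcycInf`): the infinite places of `F` are the places `g ↦ |ι_ℂ (g⁻¹ x)|`,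
  `g ∈ G_ℚ`, and two of them agree iff `g' ∈ Gal(ℚ̄/F) g ⟨c⟩`.
* **FIN** (`StmtUcycFin`): the primes of `𝓞 F` over `q` are the traces of the places
  `g • padicPlace q`, and two of them agree iff `g' ∈ Gal(ℚ̄/F) g D_q`,
  `D_q = range (localGaloisToGlobal q)`.
* **ABS** (`UnitsCycAbs.lean`): counting of double cosets and of orbits on a disjoint union.
* assembly (`UnitsCyc.lean`): `stmtUnitsCyc_of : StmtUcycFix → StmtUcycInf → StmtUcycFin →
  StmtUnitsCyc`.
-/

set_option autoImplicit false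
set_option linter.unusedSectionVars false

noncomputable section

namespace Fermat.Agent.TW.E

open CategoryTheory NumberField Fermat.Agent.PT Fermat.Agent.PT.B Fermat.Agent.PT.G
  Fermat.Agent.PT.G1 ExtCitation
open scoped Pointwise

/-- the complex embedding `x ↦ ι_ℂ (g⁻¹ x)` of `F ⊆ ℚ̄` attached to `g ∈ G_ℚ` -/
def ucycEmb (F : QbarField) (g : GQ) : ↥F →+* ℂ :=
  (complexEmbedding.toRingHom.comp
    (((g⁻¹ : GQ) : AlgebraicClosure ℚ ≃ₐ[ℚ] AlgebraicClosure ℚ) :
      AlgebraicClosure ℚ →+* AlgebraicClosure ℚ)).comp (algebraMap ↥F (AlgebraicClosure ℚ))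

@[simp] lemma ucycEmb_apply (F : QbarField) (g : GQ) (x : ↥F) :
    ucycEmb F g x = complexEmbedding ((g⁻¹ : GQ) (x : AlgebraicClosure ℚ)) := rfl

/-- the infinite place `x ↦ |ι_ℂ (g⁻¹ x)|` of `F ⊆ ℚ̄` attached to `g ∈ G_ℚ` -/
def ucycInfPl (F : QbarField) (g : GQ) : InfinitePlace ↥F := InfinitePlace.mk (ucycEmb F g)

/-- the prime of `𝓞 F` below the place `g • padicPlace q` of `ℚ̄` -/
def ucycFinPl (q : ℕ) [Fact q.Prime] (F : QbarField) (g : GQ) : Ideal (𝓞 ↥F) :=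
  Fermat.Agent.TW.twcPrime F (g • padicPlace q)

/-- **K-units/FIX.** The `H`-invariants of the `S`-units of the level `U` are the `S`-units of
the fixed field of the preimage of `H`. -/
def StmtUcycFix : Prop :=
  ∀ (S : Finset Nat.Primes) (U : Subgroup GQ) [U.Normal], U ∈ (towerS S).lev →
    ∀ H : Subgroup (GQ ⧸ U),
      Nonempty (↥(fixedSub ((ERep S).quotientToInvariants U) H) ≃+
        Additive ↥(nUnits (sProd S)
          ↥(IntermediateField.fixedField (H.comap (QuotientGroup.mk' U)))))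

/-- **K-units/INF.** The infinite places of `F` are the `ucycInfPl F g`; two of them agree iff
`g' ∈ Gal(ℚ̄/F) g ⟨c⟩`. -/
def StmtUcycInf : Prop :=
  ∀ (F : QbarField) [NumberField ↥F],
    (∀ w : InfinitePlace ↥F, ∃ g : GQ, ucycInfPl F g = w) ∧
    ∀ g g' : GQ, ucycInfPl F g = ucycInfPl F g' ↔
      ∃ v ∈ F.fixingSubgroup, ∃ d ∈ Subgroup.zpowers (complexConjugation : GQ), g' = v * g * d

/-- **K-units/FIN.** The primes of `𝓞 F` over `q` are the `ucycFinPl q F g`; two of them agree iff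
`g' ∈ Gal(ℚ̄/F) g D_q`. -/
def StmtUcycFin : Prop :=
  ∀ (q : ℕ) [Fact q.Prime] (F : QbarField) [NumberField ↥F],
    (∀ g : GQ, (ucycFinPl q F g).IsPrime ∧ (q : 𝓞 ↥F) ∈ ucycFinPl q F g) ∧
    (∀ P : Ideal (𝓞 ↥F), P.IsPrime → (q : 𝓞 ↥F) ∈ P → ∃ g : GQ, ucycFinPl q F g = P) ∧
    ∀ g g' : GQ, ucycFinPl q F g = ucycFinPl q F g' ↔
      ∃ v ∈ F.fixingSubgroup, ∃ d ∈ (localGaloisToGlobal q).range, g' = v * g * d

/-- **K-units/TR** (used for FIN): the trace on `F` of a valuation subring of `ℚ̄` is determined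
by the prime of `𝓞 F` below it (`𝓞 F` is a Dedekind domain). -/
def StmtUcycTrace : Prop :=
  ∀ (F : QbarField) [NumberField ↥F] (A A' : ValuationSubring (AlgebraicClosure ℚ)),
    Fermat.Agent.TW.twcPrime F A ≠ ⊥ →
    Fermat.Agent.TW.twcPrime F A = Fermat.Agent.TW.twcPrime F A' →
    ∀ x ∈ F, x ∈ A ↔ x ∈ A'

end Fermat.Agent.TW.E

end


end ZBTW_051_9

/-! ### bundled: `Fermat.Agent.TW.E.UnitsCycFin` -/
section ZBTW_051_10
/-
Project TW (S56) — part TW-E, block E-cyc, piece **K-units/FIN** (helper48).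

`stmtUcycFin_of : StmtUcycTrace → StmtUcycFin`: the primes of `𝓞 F` over `q` are the traces of
the places `g • padicPlace q`, `g ∈ G_ℚ`, and two of them agree iff `g' ∈ Gal(ℚ̄/F) g D_q`.

Inputs: `Cheb.exists_valuationSubring_of_ideal` (a place over a prime), `TW.S.sconjp_exists_smul_eq`
(`G_ℚ` is transitive on the places over `q`), `S14.exists_fixing_smul_eq` (`Gal(ℚ̄/F)` is transitive
on the places with the same trace on `F`), `TW.L.stmtDecFull` (`D_q` is the decomposition group).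
-/

set_option autoImplicit false
set_option linter.unusedSectionVars false
set_option linter.style.haveILetI false

noncomputable section

namespace Fermat.Agent.TW.E

open CategoryTheory NumberField Fermat.Agent.PT Fermat.Agent.PT.B Fermat.Agent.PT.G
  Fermat.Agent.PT.G1 ExtCitation Fermat.Agent.TW
open scoped Pointwise

/-- The trace prime is invariant under `Gal(ℚ̄/F)`. -/
theorem ucycfin_prime_smul (F : QbarField) (v : GQ) (hv : v ∈ F.fixingSubgroup)
    (B : ValuationSubring (AlgebraicClosure ℚ)) : twcPrime F (v • B) = twcPrime F B := by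
  ext x
  rw [twc_mem_prime, twc_mem_prime, mem_nonunits_smul_valuationSubring_iff]
  have h1 : v⁻¹ ∈ F.fixingSubgroup := F.fixingSubgroup.inv_mem hv
  rw [IntermediateField.mem_fixingSubgroup_iff] at h1
  have h2 : (v⁻¹ : GQ) (Cheb.intEmb F x) = Cheb.intEmb F x := h1 _ (x : ↥F).2
  rw [h2]

/-- The places `g • padicPlace q` lie over `q`. -/
theorem ucycfin_liesOver (q : ℕ) [Fact q.Prime] (g : GQ) :
    (g • padicPlace q).LiesOverPrime q :=
  liesOverPrime_smul (padicPlace q) g q (Fermat.Agent.TW.L.lfrobex_liesOverPrime q)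

/-- the trace prime of a place over `q` is not zero -/
theorem ucycfin_ne_bot (q : ℕ) [hq : Fact q.Prime] (F : QbarField)
    (A : ValuationSubring (AlgebraicClosure ℚ)) (hA : A.LiesOverPrime q) : twcPrime F A ≠ ⊥ := by
  intro h
  have h1 : (q : 𝓞 ↥F) ∈ twcPrime F A := twc_natCast_mem_prime F A hA
  rw [h, Ideal.mem_bot] at h1
  have h2 : ((q : ℕ) : 𝓞 ↥F) ≠ 0 := by
    exact_mod_cast hq.out.ne_zero
  exact h2 h1

/-- **K-units/FIN** from **K-units/TR**. -/
theorem stmtUcycFin_of (htr : StmtUcycTrace) : StmtUcycFin := by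
  intro q hq F hF
  refine ⟨fun g => ⟨twcPrime_isPrime F _, twc_natCast_mem_prime F _ (ucycfin_liesOver q g)⟩,
    ?_, ?_⟩
  · -- surjectivity
    intro P hP hqP
    have hne : P ≠ ⊥ := by
      intro h
      rw [h, Ideal.mem_bot] at hqP
      have h2 : ((q : ℕ) : 𝓞 ↥F) ≠ 0 := by
        exact_mod_cast hq.out.ne_zero
      exact h2 hqP
    have hmax : P.IsMaximal := hP.isMaximal hne
    obtain ⟨A, hA⟩ := Cheb.exists_valuationSubring_of_ideal F P hP.ne_top
    have hPA : twcPrime F A = P := by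
      ext y
      rw [twc_mem_prime]
      exact ⟨fun hy => Cheb.mem_of_intEmb_mem_nonunits F A P hmax hA y hy, fun hy => hA y hy⟩
    have hAq : A.LiesOverPrime q := by
      have h1 := hA _ hqP
      rw [map_natCast] at h1
      exact h1
    obtain ⟨g, hg⟩ := Fermat.Agent.TW.S.sconjp_exists_smul_eq q hq.out (padicPlace q) A
      (Fermat.Agent.TW.L.lfrobex_liesOverPrime q) hAq
    refine ⟨g, ?_⟩
    show twcPrime F (g • padicPlace q) = P
    rw [hg, hPA]
  · -- the fibres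
    intro g g'
    constructor
    · intro h
      have h1 : twcPrime F (g • padicPlace q) = twcPrime F (g' • padicPlace q) := h
      have h2 := htr F (g • padicPlace q) (g' • padicPlace q)
        (ucycfin_ne_bot q F _ (ucycfin_liesOver q g)) h1
      obtain ⟨ρ, hρF, hρA⟩ := Fermat.Agent.S14.exists_fixing_smul_eq F _ _ h2
      have h3 : (g'⁻¹ * ρ * g) ∈ (padicPlace q).decompositionSubgroup ℚ := by
        show (g'⁻¹ * ρ * g) ∈ MulAction.stabilizer _ (padicPlace q)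
        rw [MulAction.mem_stabilizer_iff, mul_smul, mul_smul]
        have h4 : ρ • g • padicPlace q = g' • padicPlace q := hρA
        rw [h4, inv_smul_smul]
      obtain ⟨τ, hτ⟩ := Fermat.Agent.TW.L.stmtDecFull q _ h3
      refine ⟨ρ, ?_, (localGaloisToGlobal q τ)⁻¹, (localGaloisToGlobal q).range.inv_mem ⟨τ, rfl⟩,
        ?_⟩
      · rw [IntermediateField.mem_fixingSubgroup_iff]
        exact hρF
      · rw [hτ]
        group
    · rintro ⟨v, hv, d, ⟨τ, rfl⟩, rfl⟩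
      show twcPrime F (g • padicPlace q) =
        twcPrime F ((v * g * localGaloisToGlobal q τ) • padicPlace q)
      have h1 : localGaloisToGlobal q τ • padicPlace q = padicPlace q :=
        MulAction.mem_stabilizer_iff.1 (localGaloisToGlobal_mem_decompositionSubgroup q τ)
      rw [mul_smul, mul_smul, h1, ucycfin_prime_smul F v hv]

end Fermat.Agent.TW.E

end


end ZBTW_051_10

/-! ### bundled: `Fermat.Agent.TW.E.UnitsCycFix` -/
section ZBTW_051_11
/-
Project TW (S56) — part TW-E, block E-cyc, piece K-units / **FIX** (helper32).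

`stmtUcycFix : StmtUcycFix` (statement in `TW/E/UnitsCycPlan.lean`): for a normal level
`U = Gal(ℚ̄/L)` of `towerS S` and `H ≤ G_ℚ ⧸ U`, the `H`-invariants of `E_S^U` are the `S`-units
`nUnits (sProd S) F` of the fixed field `F` of the preimage `V` of `H`.

Proof.  An element of `(E_S^U)^H` is an `S`-unit of `ℚ̄` fixed by `V`, i.e. lying in `F`; `F ≤ L`
is unramified outside `S`, so `PT.B.stmtUnitsS` identifies the `S`-units lying in `F` with
`nUnits (sProd S) F`.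
-/

set_option autoImplicit false
set_option linter.style.haveILetI false
set_option linter.unusedSectionVars false
set_option linter.unusedVariables false

noncomputable section

namespace Fermat.Agent.TW.E

open CategoryTheory NumberField Fermat.Agent.PT Fermat.Agent.PT.B Fermat.Agent.PT.G
  Fermat.Agent.PT.G1 ExtCitation

/-- the underlying element of `ℚ̄ˣ` of an element of `E_S^U` -/
def ucycfVal (S : Finset Nat.Primes) (U : Subgroup GQ) [U.Normal]
    (y : ((ERep S).quotientToInvariants U).V) : (AlgebraicClosure ℚ)ˣ :=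
  ((Additive.toMul (α := ↥(unitsS S)) y.1 : ↥(unitsS S)) : (AlgebraicClosure ℚ)ˣ)

lemma ucycfVal_mem (S : Finset Nat.Primes) (U : Subgroup GQ) [U.Normal]
    (y : ((ERep S).quotientToInvariants U).V) : ucycfVal S U y ∈ unitsS S :=
  (Additive.toMul (α := ↥(unitsS S)) y.1 : ↥(unitsS S)).2

lemma ucycfVal_add (S : Finset Nat.Primes) (U : Subgroup GQ) [U.Normal]
    (y z : ((ERep S).quotientToInvariants U).V) :
    ucycfVal S U (y + z) = ucycfVal S U y * ucycfVal S U z := rfl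

lemma ucycfVal_injective (S : Finset Nat.Primes) (U : Subgroup GQ) [U.Normal] :
    Function.Injective (ucycfVal S U) := by
  intro y z h
  apply Subtype.ext
  apply (Additive.toMul (α := ↥(unitsS S))).injective
  exact Subtype.ext h

/-- the action of `G_ℚ ⧸ U` on `E_S^U` -/
lemma ucycfVal_ρ (S : Finset Nat.Primes) (U : Subgroup GQ) [U.Normal] (g : GQ)
    (y : ((ERep S).quotientToInvariants U).V) :
    ucycfVal S U (((ERep S).quotientToInvariants U).ρ (QuotientGroup.mk' U g) y) =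
      g • ucycfVal S U y := rfl

/-- an `S`-unit fixed by `U`, as an element of `E_S^U` -/
def ucycfMk (S : Finset Nat.Primes) (U : Subgroup GQ) [U.Normal] (e : (AlgebraicClosure ℚ)ˣ)
    (he : e ∈ unitsS S) (hU : ∀ u ∈ U, u • e = e) : ((ERep S).quotientToInvariants U).V :=
  ⟨Additive.ofMul (⟨e, he⟩ : ↥(unitsS S)), fun u => by
    apply (Additive.toMul (α := ↥(unitsS S))).injective
    exact Subtype.ext (hU u.1 u.2)⟩

lemma ucycfVal_mk (S : Finset Nat.Primes) (U : Subgroup GQ) [U.Normal] (e : (AlgebraicClosure ℚ)ˣ)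
    (he : e ∈ unitsS S) (hU : ∀ u ∈ U, u • e = e) :
    ucycfVal S U (ucycfMk S U e he hU) = e := rfl

/-- membership in the fixed subgroup, in terms of the preimage of `H` -/
lemma ucycf_mem_fixedSub (S : Finset Nat.Primes) (U : Subgroup GQ) [U.Normal]
    (H : Subgroup (GQ ⧸ U)) (y : ((ERep S).quotientToInvariants U).V) :
    y ∈ fixedSub ((ERep S).quotientToInvariants U) H ↔
      ∀ g ∈ H.comap (QuotientGroup.mk' U), g • ucycfVal S U y = ucycfVal S U y := by
  constructor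
  · intro hy g hg
    rw [← ucycfVal_ρ, hy _ hg]
  · intro hy h hh
    obtain ⟨g, rfl⟩ := QuotientGroup.mk'_surjective U h
    apply ucycfVal_injective
    rw [ucycfVal_ρ]
    exact hy g hh

/-- **K-units/FIX.** -/
theorem stmtUcycFix : StmtUcycFix := by
  intro S U _ hU H
  obtain ⟨L, hL, hUL⟩ := hU
  have hUV : U ≤ H.comap (QuotientGroup.mk' U) := by
    intro u hu
    rw [Subgroup.mem_comap, QuotientGroup.mk'_apply, (QuotientGroup.eq_one_iff u).2 hu]
    exact H.one_mem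
  have hFL : IntermediateField.fixedField (H.comap (QuotientGroup.mk' U)) ≤ L := by
    have h1 := IntermediateField.fixedField_antitone hUV
    have h2 : IntermediateField.fixedField U = L := by
      haveI : IsAlgClosure ℚ (AlgebraicClosure ℚ) :=
        ⟨inferInstance, AlgebraicClosure.isAlgebraic ℚ⟩
      haveI : IsGalois ℚ (AlgebraicClosure ℚ) := inferInstance
      rw [hUL]
      exact InfiniteGalois.fixedField_fixingSubgroup L
    exact h1.trans h2.le
  have hF : (IntermediateField.fixedField (H.comap (QuotientGroup.mk' U))).IsUnramifiedOutside S :=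
    hL.of_le hFL
  have key := stmtUnitsS S _ hF
  -- a unit of `ℚ̄` fixed by `V` is a unit of `F`
  have hfix : ∀ e : (AlgebraicClosure ℚ)ˣ,
      (∀ g ∈ H.comap (QuotientGroup.mk' U), g • e = e) →
      (e : AlgebraicClosure ℚ) ∈
        IntermediateField.fixedField (H.comap (QuotientGroup.mk' U)) := by
    intro e he
    rw [IntermediateField.mem_fixedField_iff]
    intro g hg
    exact congrArg Units.val (he g hg)
  have hfix' : ∀ x : (↥(IntermediateField.fixedField (H.comap (QuotientGroup.mk' U))))ˣ,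
      ∀ g ∈ H.comap (QuotientGroup.mk' U),
        g • Units.map ((IntermediateField.fixedField (H.comap (QuotientGroup.mk' U))).val :
          _ →* AlgebraicClosure ℚ) x = Units.map ((IntermediateField.fixedField
            (H.comap (QuotientGroup.mk' U))).val : _ →* AlgebraicClosure ℚ) x := by
    intro x g hg
    apply Units.ext
    exact (IntermediateField.mem_fixedField_iff _ _).1 x.1.2 g hg
  refine ⟨AddEquiv.mk
    { toFun := fun y => Additive.ofMul
        ⟨Units.mk0 ⟨(ucycfVal S U y.1 : AlgebraicClosure ℚ),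
            hfix _ ((ucycf_mem_fixedSub S U H y.1).1 y.2)⟩
          (fun h => (ucycfVal S U y.1).ne_zero (congrArg Subtype.val h)),
          (key _).1 (by
            convert ucycfVal_mem S U y.1 using 1
            exact Units.ext rfl)⟩
      invFun := fun z =>
        ⟨ucycfMk S U (Units.map ((IntermediateField.fixedField
            (H.comap (QuotientGroup.mk' U))).val : _ →* AlgebraicClosure ℚ) z.toMul.1)
          ((key _).2 z.toMul.2) (fun u hu => hfix' _ u (hUV hu)),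
          (ucycf_mem_fixedSub S U H _).2 (fun g hg => by
            rw [ucycfVal_mk]
            exact hfix' _ g hg)⟩
      left_inv := fun y => by
        apply Subtype.ext
        apply ucycfVal_injective
        rw [ucycfVal_mk]
        exact Units.ext rfl
      right_inv := fun z => by
        apply Additive.toMul.injective
        apply Subtype.ext
        apply Units.ext
        apply Subtype.ext
        rfl } (fun y z => ?_)⟩
  apply Additive.toMul.injective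
  apply Subtype.ext
  apply Units.ext
  apply Subtype.ext
  rfl

end Fermat.Agent.TW.E

end


end ZBTW_051_11

/-! ### bundled: `Fermat.Agent.TW.E.UnitsCycInf` -/
section ZBTW_051_12
/-
Project TW (S56) — part TW-E, block E-cyc, piece **K-units/INF** (helper81).

The infinite places of a number field `F ⊆ ℚ̄` are the places `x ↦ |ι_ℂ (g⁻¹ x)|`, `g ∈ G_ℚ`, and
two of them agree iff `g' ∈ Gal(ℚ̄/F) g ⟨c⟩`.
-/

set_option autoImplicit false
set_option linter.unusedSectionVars false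
set_option linter.style.haveILetI false

noncomputable section

namespace Fermat.Agent.TW.E

open CategoryTheory NumberField Fermat.Agent.PT Fermat.Agent.PT.B Fermat.Agent.PT.G
  Fermat.Agent.PT.G1 ExtCitation
open scoped Pointwise

/-- every ring embedding `F → ℂ` is `ι_ℂ ∘ σ` on `F`, for an automorphism `σ` of `ℚ̄` -/
theorem ucyci_exists_aut (F : QbarField) (φ : ↥F →+* ℂ) :
    ∃ σ : GQ, ∀ x : ↥F, complexEmbedding (σ (x : AlgebraicClosure ℚ)) = φ x := by
  haveI : Algebra.IsAlgebraic ℚ (AlgebraicClosure ℚ) := AlgebraicClosure.isAlgebraic ℚ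
  haveI : IsAlgClosure ℚ (AlgebraicClosure ℚ) := ⟨inferInstance, inferInstance⟩
  haveI : Normal ℚ (AlgebraicClosure ℚ) := IsAlgClosure.normal ℚ (AlgebraicClosure ℚ)
  -- extend `φ` to `ℚ̄`
  letI algF : Algebra ↥F ℂ := φ.toAlgebra
  let ψF : AlgebraicClosure ℚ →ₐ[↥F] ℂ := IsAlgClosed.lift
  have hψF : ∀ x : ↥F, ψF (x : AlgebraicClosure ℚ) = φ x := fun x => ψF.commutes x
  let ψ : AlgebraicClosure ℚ →ₐ[ℚ] ℂ := (ψF : AlgebraicClosure ℚ →+* ℂ).toRatAlgHom
  have hψ : ∀ y : AlgebraicClosure ℚ, ψ y = ψF y := fun y => rfl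
  -- restrict to `ℚ̄ ⊆ ℂ`
  letI algC : Algebra (AlgebraicClosure ℚ) ℂ := complexEmbedding.toRingHom.toAlgebra
  haveI : IsScalarTower ℚ (AlgebraicClosure ℚ) ℂ :=
    IsScalarTower.of_algebraMap_eq' (Subsingleton.elim _ _)
  let σ₀ : AlgebraicClosure ℚ →ₐ[ℚ] AlgebraicClosure ℚ := ψ.restrictNormal (AlgebraicClosure ℚ)
  have hσ₀ : ∀ y : AlgebraicClosure ℚ, complexEmbedding (σ₀ y) = ψ y := fun y =>
    AlgHom.restrictNormal_commutes ψ (AlgebraicClosure ℚ) y
  refine ⟨AlgEquiv.ofBijective σ₀ (Algebra.IsAlgebraic.algHom_bijective σ₀), fun x => ?_⟩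
  show complexEmbedding (σ₀ (x : AlgebraicClosure ℚ)) = φ x
  rw [hσ₀, hψ, hψF]

/-- the elements of `⟨c⟩` -/
theorem ucyci_mem_zpowers {d : GQ} (hd : d ∈ Subgroup.zpowers (complexConjugation : GQ)) :
    d = 1 ∨ d = complexConjugation := by
  obtain ⟨k, rfl⟩ := Subgroup.mem_zpowers_iff.1 hd
  have h2 : (complexConjugation : GQ) ^ (2 : ℤ) = 1 := by
    rw [zpow_ofNat]
    exact complexConjugation_sq
  have h3 : (complexConjugation : GQ) ^ k = complexConjugation ^ (k % 2) := by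
    conv_lhs => rw [← Int.emod_add_mul_ediv k 2]
    rw [zpow_add, zpow_mul, h2, one_zpow, mul_one]
  rw [h3]
  rcases Int.emod_two_eq_zero_or_one k with h | h
  · left
    rw [h, zpow_zero]
  · right
    rw [h, zpow_one]

theorem ucyci_emb_eq_iff (F : QbarField) (g g' : GQ) :
    ucycEmb F g = ucycEmb F g' ↔ g' * g⁻¹ ∈ F.fixingSubgroup := by
  rw [IntermediateField.mem_fixingSubgroup_iff]
  constructor
  · intro h x hx
    have h1 := DFunLike.congr_fun h (⟨x, hx⟩ : ↥F)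
    rw [ucycEmb_apply, ucycEmb_apply] at h1
    have h2 : (g⁻¹ : GQ) x = (g'⁻¹ : GQ) x := complexEmbedding.toRingHom.injective h1
    show g' ((g⁻¹ : GQ) x) = x
    rw [h2]
    exact AlgEquiv.apply_symm_apply g' x
  · intro h
    refine RingHom.ext fun x => ?_
    rw [ucycEmb_apply, ucycEmb_apply]
    congr 1
    have h1 : g' ((g⁻¹ : GQ) (x : AlgebraicClosure ℚ)) = x := h x x.2
    have h2 : (g'⁻¹ : GQ) (g' ((g⁻¹ : GQ) (x : AlgebraicClosure ℚ)))
        = (g⁻¹ : GQ) (x : AlgebraicClosure ℚ) := AlgEquiv.symm_apply_apply g' _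
    rw [← h2, h1]

theorem ucyci_conj_emb (F : QbarField) (g : GQ) :
    ComplexEmbedding.conjugate (ucycEmb F g) = ucycEmb F (g * complexConjugation) := by
  refine RingHom.ext fun x => ?_
  rw [ComplexEmbedding.conjugate_coe_eq, ucycEmb_apply, ucycEmb_apply,
    ← complexEmbedding_complexConjugation, mul_inv_rev, complexConjugation_inv]
  rfl

theorem ucyci_infPl_eq_iff (F : QbarField) [NumberField ↥F] (g g' : GQ) :
    ucycInfPl F g = ucycInfPl F g' ↔
      ∃ v ∈ F.fixingSubgroup, ∃ d ∈ Subgroup.zpowers (complexConjugation : GQ),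
        g' = v * g * d := by
  unfold ucycInfPl
  rw [InfinitePlace.mk_eq_iff]
  constructor
  · rintro (h | h)
    · refine ⟨g' * g⁻¹, (ucyci_emb_eq_iff F g g').1 h, 1, Subgroup.one_mem _, ?_⟩
      group
    · rw [ucyci_conj_emb] at h
      refine ⟨g' * (g * complexConjugation)⁻¹, (ucyci_emb_eq_iff F _ g').1 h, complexConjugation,
        Subgroup.mem_zpowers _, ?_⟩
      rw [mul_inv_rev, complexConjugation_inv]
      have h1 : g' * (complexConjugation * g⁻¹) * g * complexConjugation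
          = g' * (complexConjugation * complexConjugation) := by group
      rw [h1, complexConjugation_mul_self, mul_one]
  · rintro ⟨v, hv, d, hd, rfl⟩
    rcases ucyci_mem_zpowers hd with rfl | rfl
    · left
      rw [ucyci_emb_eq_iff]
      have h1 : v * g * 1 * g⁻¹ = v := by group
      rw [h1]
      exact hv
    · right
      rw [ucyci_conj_emb, ucyci_emb_eq_iff]
      have h1 : v * g * complexConjugation * (g * complexConjugation)⁻¹ = v := by group
      rw [h1]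
      exact hv

/-- **K-units/INF.** -/
theorem stmtUcycInf : StmtUcycInf := by
  intro F _
  refine ⟨fun w => ?_, fun g g' => ucyci_infPl_eq_iff F g g'⟩
  obtain ⟨σ, hσ⟩ := ucyci_exists_aut F w.embedding
  refine ⟨σ⁻¹, ?_⟩
  have h1 : ucycEmb F σ⁻¹ = w.embedding := by
    refine RingHom.ext fun x => ?_
    rw [ucycEmb_apply, inv_inv]
    exact hσ x
  unfold ucycInfPl
  rw [h1, InfinitePlace.mk_embedding]

end Fermat.Agent.TW.E

end


end ZBTW_051_12

/-! ### bundled: `Fermat.Agent.TW.E.UcycTrace` -/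
section ZBTW_051_13
/-
Project TW (S56) — part TW-E, block E-cyc, piece **K-units/TR** (helper82).

`stmtUcycTrace : StmtUcycTrace`: the trace on a number field `F ⊆ ℚ̄` of a valuation subring `A`
of `ℚ̄` is determined by the prime `twcPrime F A` of `𝓞 F` below it, when this prime is nonzero.

Proof: `𝓞 F` is a Dedekind domain, so every `x ∈ F` is `n / d` or `d / n` with `n, d ∈ 𝓞 F`,
`d ∉ P` (`exists_primeCompl_mul_eq_or_mul_eq`).  The elements of `𝓞 F` outside `P` are units of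
`A` and of `A'`; in the second case `x ∈ A` forces `n ∉ P`.
-/

set_option autoImplicit false

noncomputable section

namespace Fermat.Agent.TW.E

open NumberField Fermat.Agent.TW Fermat.Agent.PT.B

/-- the valuation of an integer of `F` is at most one -/
theorem ucyctr_val_le_one (F : QbarField) (A : ValuationSubring (AlgebraicClosure ℚ))
    (z : 𝓞 ↥F) : A.valuation (Cheb.intEmb F z) ≤ 1 :=
  (A.valuation_le_one_iff _).2 (Cheb.intEmb_mem F A z)

/-- the valuation of an integer of `F` outside the prime below `A` is one -/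
theorem ucyctr_val_eq_one_iff (F : QbarField) (A : ValuationSubring (AlgebraicClosure ℚ))
    (z : 𝓞 ↥F) : A.valuation (Cheb.intEmb F z) = 1 ↔ z ∉ twcPrime F A := by
  rw [twc_mem_prime, ValuationSubring.mem_nonunits_iff]
  constructor
  · intro h
    rw [h]
    exact lt_irrefl _
  · intro h
    exact le_antisymm (ucyctr_val_le_one F A z) (not_lt.1 h)

/-- one direction of `StmtUcycTrace` -/
theorem ucyctr_mem_of_mem (F : QbarField) [NumberField ↥F]
    (A A' : ValuationSubring (AlgebraicClosure ℚ)) (hne : twcPrime F A ≠ ⊥)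
    (h : twcPrime F A = twcPrime F A') (x : AlgebraicClosure ℚ) (hxF : x ∈ F) (hxA : x ∈ A) :
    x ∈ A' := by
  let v : IsDedekindDomain.HeightOneSpectrum (𝓞 ↥F) := ⟨twcPrime F A, inferInstance, hne⟩
  obtain ⟨n, d, hnd⟩ := v.exists_primeCompl_mul_eq_or_mul_eq (K := ↥F) ⟨x, hxF⟩
  have hd : (d : 𝓞 ↥F) ∉ twcPrime F A := d.2
  have hdA : A.valuation (Cheb.intEmb F d) = 1 := (ucyctr_val_eq_one_iff F A d).2 hd
  have hdA' : A'.valuation (Cheb.intEmb F d) = 1 := (ucyctr_val_eq_one_iff F A' d).2 (h ▸ hd)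
  rw [← A'.valuation_le_one_iff]
  rcases hnd with hnd | hnd
  · have h1 : x * Cheb.intEmb F d = Cheb.intEmb F n := congrArg Subtype.val hnd
    have h2 := congrArg A'.valuation h1
    rw [map_mul, hdA', mul_one] at h2
    rw [h2]
    exact ucyctr_val_le_one F A' n
  · have h1 : x * Cheb.intEmb F n = Cheb.intEmb F d := congrArg Subtype.val hnd
    have h2 := congrArg A.valuation h1
    rw [map_mul, hdA] at h2
    have hxA1 : A.valuation x ≤ 1 := (A.valuation_le_one_iff _).2 hxA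
    have hnA : A.valuation (Cheb.intEmb F n) = 1 := by
      refine le_antisymm (ucyctr_val_le_one F A n) ?_
      calc (1 : A.ValueGroup) = A.valuation x * A.valuation (Cheb.intEmb F n) := h2.symm
        _ ≤ 1 * A.valuation (Cheb.intEmb F n) := mul_le_mul_left hxA1 _
        _ = A.valuation (Cheb.intEmb F n) := one_mul _
    have hn : n ∉ twcPrime F A := (ucyctr_val_eq_one_iff F A n).1 hnA
    have hnA' : A'.valuation (Cheb.intEmb F n) = 1 := (ucyctr_val_eq_one_iff F A' n).2 (h ▸ hn)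
    have h3 := congrArg A'.valuation h1
    rw [map_mul, hdA', hnA', mul_one] at h3
    exact h3.le

/-- **K-units/TR.** -/
theorem stmtUcycTrace : StmtUcycTrace := by
  intro F _ A A' hne h x hxF
  exact ⟨ucyctr_mem_of_mem F A A' hne h x hxF,
    ucyctr_mem_of_mem F A' A (h ▸ hne) h.symm x hxF⟩

end Fermat.Agent.TW.E

end
end ZBTW_051_13

/-! ### bundled: `Fermat.Agent.TW.E.HerbRank` -/
section ZBTW_051_14
/-
TW-E / E-herb / H-rank (helper32): Herbrand's lemma modulo `p`.  For finitely generated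
`ℤ[Γ]`-modules `X`, `Y` with the same ranks of the fixed modules of all cyclic subgroups,
`ψ (X/p) - ψ (X[p]) = ψ (Y/p) - ψ (Y[p])`.

Main result: `stmtHerbRank_of : StmtHerbAdd → StmtHerbFin → StmtHerbLat → StmtHerbRat →
StmtHerbModels → StmtHerbRank` (statements in `TW/E/HerbPlan.lean`).

Proof.  `T` := torsion subgroup of `X` (`hbkT`, finite), `L := X / T` (`hbkL`, a lattice).
H-add and H-fin give `h(X) = h(L) = ψ (L/p)` (`hbk_reduce`; `L[p] = 0`).  The projection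
`X^H → L^H` has torsion kernel and torsion cokernel (norm argument), so the ranks agree
(`hbk_finrank_fixed`, by `hbk_finrank_eq`: rank-nullity over `ℤ`).  Then H-rat and H-lat.
-/

set_option autoImplicit false
set_option linter.style.haveILetI false
set_option linter.unusedSectionVars false
set_option linter.unusedVariables false

namespace Fermat.Agent.TW.E

open CategoryTheory

section abstract

/-- an additive map with torsion kernel and torsion cokernel preserves the rank -/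
lemma hbk_finrank_eq {A B : Type} [AddCommGroup A] [AddCommGroup B] (φ : A →+ B)
    (hker : ∀ a, φ a = 0 → ∃ n : ℕ, 0 < n ∧ n • a = 0)
    (hcoker : ∀ b, ∃ n : ℕ, 0 < n ∧ ∃ a, φ a = n • b) :
    Module.finrank ℤ A = Module.finrank ℤ B := by
  let f : A →ₗ[ℤ] B := φ.toIntLinearMap
  have h1 := rank_quotient_add_rank_of_isDomain (LinearMap.ker f)
  have h2 := rank_quotient_add_rank_of_isDomain (LinearMap.range f)
  have h3 : Module.rank ℤ (LinearMap.ker f) = 0 := by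
    rw [rank_eq_zero_iff]
    rintro ⟨a, ha⟩
    obtain ⟨n, hn, hna⟩ := hker a ha
    refine ⟨(n : ℤ), by exact_mod_cast hn.ne', Subtype.ext ?_⟩
    simpa using hna
  have h4 : Module.rank ℤ (B ⧸ LinearMap.range f) = 0 := by
    rw [rank_eq_zero_iff]
    intro b
    induction b using Submodule.Quotient.induction_on with
    | H b =>
      obtain ⟨n, hn, a, ha⟩ := hcoker b
      refine ⟨(n : ℤ), by exact_mod_cast hn.ne', ?_⟩
      rw [← Submodule.Quotient.mk_smul, Submodule.Quotient.mk_eq_zero]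
      exact ⟨a, ha.trans (Nat.cast_smul_eq_nsmul ℤ n b).symm⟩
  have h5 : Module.rank ℤ (A ⧸ LinearMap.ker f) = Module.rank ℤ (LinearMap.range f) :=
    LinearEquiv.rank_eq f.quotKerEquivRange
  rw [h3, add_zero, h5] at h1
  rw [h4, zero_add] at h2
  unfold Module.finrank
  rw [← h1, ← h2]

end abstract

section construct

attribute [-instance] AddCommGroup.toIntModule
attribute [-instance] ZSMul.toSMul

variable {Γ : Type} [Group Γ]

/-- a finitely generated abelian group is a finite module, for any module structure -/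
lemma hbk_finite_of_fg {R : Type} [Ring R] {A : Type} [AddCommGroup A] [Module R A]
    (h : AddGroup.FG A) : Module.Finite R A := by
  obtain ⟨⟨S, hS⟩⟩ := h
  refine ⟨⟨S, eq_top_iff.2 (fun x _ => ?_)⟩⟩
  have hx : x ∈ AddSubgroup.closure (S : Set A) := hS ▸ AddSubgroup.mem_top x
  exact (AddSubgroup.closure_le (K := (Submodule.span R (S : Set A)).toAddSubgroup)).2
    Submodule.subset_span hx

/-- the torsion submodule -/
noncomputable def hbkW (X : Rep.{0} ℤ Γ) : Submodule ℤ X.V := Submodule.torsion ℤ X.V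

lemma hbk_mem_W (X : Rep.{0} ℤ Γ) (x : X.V) : x ∈ hbkW X ↔ ∃ n : ℕ, 0 < n ∧ n • x = 0 := by
  constructor
  · rintro ⟨⟨a, ha⟩, hax⟩
    have ha0 : a ≠ 0 := nonZeroDivisors.ne_zero ha
    have hax' : a • x = 0 := hax
    refine ⟨a.natAbs, Int.natAbs_pos.2 ha0, ?_⟩
    rw [← Nat.cast_smul_eq_nsmul ℤ]
    rcases Int.natAbs_eq a with h | h
    · rw [← h, hax']
    · have h2 : ((a.natAbs : ℕ) : ℤ) = -a := by omega
      rw [h2, neg_smul, hax', neg_zero]
  · rintro ⟨n, hn, hnx⟩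
    have hn0 : (n : ℤ) ≠ 0 := by exact_mod_cast hn.ne'
    refine ⟨⟨(n : ℤ), mem_nonZeroDivisors_of_ne_zero hn0⟩, ?_⟩
    change (n : ℤ) • x = 0
    rw [Nat.cast_smul_eq_nsmul ℤ, hnx]

lemma hbk_W_stable (X : Rep.{0} ℤ Γ) (g : Γ) : hbkW X ≤ (hbkW X).comap (X.ρ g) := by
  intro x hx
  rw [Submodule.mem_comap, hbk_mem_W]
  obtain ⟨n, hn, hnx⟩ := (hbk_mem_W X x).1 hx
  exact ⟨n, hn, by rw [← map_nsmul, hnx, map_zero]⟩

/-- the torsion subgroup, as a representation -/
noncomputable def hbkT (X : Rep.{0} ℤ Γ) : Rep.{0} ℤ Γ :=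
  X.subrepresentation (hbkW X) (hbk_W_stable X)

/-- the torsion-free quotient, as a representation -/
noncomputable def hbkL (X : Rep.{0} ℤ Γ) : Rep.{0} ℤ Γ :=
  X.quotient (hbkW X) (hbk_W_stable X)

/-- the inclusion of the torsion subgroup -/
noncomputable def hbkI (X : Rep.{0} ℤ Γ) : hbkT X ⟶ X :=
  Rep.subtype X (hbkW X) (hbk_W_stable X)

/-- the projection to the torsion-free quotient -/
noncomputable def hbkQ (X : Rep.{0} ℤ Γ) : X ⟶ hbkL X :=
  Rep.mkQ X (hbkW X) (hbk_W_stable X)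

lemma hbkI_injective (X : Rep.{0} ℤ Γ) : Function.Injective (hbkI X).hom :=
  fun _ _ h => Subtype.ext h

lemma hbkQ_surjective (X : Rep.{0} ℤ Γ) : Function.Surjective (hbkQ X).hom :=
  fun y => Submodule.mkQ_surjective (hbkW X) y

lemma hbkQ_eq_zero (X : Rep.{0} ℤ Γ) (x : X.V) : (hbkQ X).hom x = 0 ↔ x ∈ hbkW X := by
  change (hbkW X).mkQ x = 0 ↔ _
  rw [← LinearMap.mem_ker, Submodule.ker_mkQ]

lemma hbk_exact (X : Rep.{0} ℤ Γ) : Function.Exact (hbkI X).hom (hbkQ X).hom := by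
  intro x
  rw [hbkQ_eq_zero]
  constructor
  · intro hx
    exact ⟨⟨x, hx⟩, rfl⟩
  · rintro ⟨y, rfl⟩
    exact y.2

/-- the torsion subgroup of a finitely generated module is finite -/
lemma hbkT_finite (X : Rep.{0} ℤ Γ) (hX : IsFG X) : Finite (hbkT X).V := by
  haveI : Module.Finite ℤ X.V := hbk_finite_of_fg hX
  haveI : IsNoetherian ℤ X.V := inferInstance
  haveI : Module.Finite ℤ (Submodule.torsion ℤ X.V) := inferInstance
  exact Module.finite_of_fg_torsion (Submodule.torsion ℤ X.V) Submodule.torsion_isTorsion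

/-- the torsion-free quotient of a finitely generated module is a lattice -/
lemma hbkL_isLat (X : Rep.{0} ℤ Γ) (hX : IsFG X) : IsLat (hbkL X) := by
  haveI : Module.Finite ℤ X.V := hbk_finite_of_fg hX
  haveI : Module.Finite ℤ (X.V ⧸ Submodule.torsion ℤ X.V) := inferInstance
  haveI : Module.Free ℤ (X.V ⧸ Submodule.torsion ℤ X.V) :=
    Module.free_of_finite_type_torsion_free'
  exact ⟨_, ⟨(Module.finBasis ℤ (X.V ⧸ Submodule.torsion ℤ X.V)).equivFun.toAddEquiv⟩⟩

/-- the quotient is torsion-free -/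
lemma hbkL_torsionFree (X : Rep.{0} ℤ Γ) (y : (hbkL X).V) (n : ℕ) (hn : 0 < n)
    (hy : n • y = 0) : y = 0 := by
  obtain ⟨x, rfl⟩ := hbkQ_surjective X y
  rw [← map_nsmul, hbkQ_eq_zero, hbk_mem_W] at hy
  obtain ⟨m, hm, hmx⟩ := hy
  rw [hbkQ_eq_zero, hbk_mem_W]
  exact ⟨m * n, Nat.mul_pos hm hn, by rw [mul_smul, hmx]⟩

end construct

section ranks

attribute [-instance] AddCommGroup.toIntModule
attribute [-instance] ZSMul.toSMul

variable {Γ : Type} [Group Γ]

/-- the norm over a finite subgroup is fixed -/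
lemma hbk_norm_fixed (X : Rep.{0} ℤ Γ) (H : Subgroup Γ) [Fintype H] (x : X.V) :
    (∑ h : H, X.ρ (h : Γ) x) ∈ fixedSub X H := by
  intro h' hh'
  rw [map_sum]
  refine Fintype.sum_bijective (fun h : H => (⟨h', hh'⟩ : H) * h)
    (Group.mulLeft_bijective _) _ _ (fun h => ?_)
  rw [← Module.End.mul_apply, ← map_mul]
  rfl

/-- the projection of the norm -/
lemma hbk_norm_proj (X : Rep.{0} ℤ Γ) (H : Subgroup Γ) [Fintype H] (x : X.V)
    (hx : (hbkQ X).hom x ∈ fixedSub (hbkL X) H) :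
    (hbkQ X).hom (∑ h : H, X.ρ (h : Γ) x) = Fintype.card H • (hbkQ X).hom x := by
  rw [map_sum]
  have h1 : ∀ h : H, (hbkQ X).hom (X.ρ (h : Γ) x) = (hbkQ X).hom x := by
    intro h
    rw [Rep.hom_comm_apply]
    exact hx h.1 h.2
  rw [Finset.sum_congr rfl (fun h _ => h1 h), Finset.sum_const, Finset.card_univ]

/-- the projection on fixed vectors -/
noncomputable def hbkFix (X : Rep.{0} ℤ Γ) (H : Subgroup Γ) :
    fixedSub X H →+ fixedSub (hbkL X) H :=
  AddMonoidHom.mk' (fun x => ⟨(hbkQ X).hom x.1, fun h hh => by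
      rw [← Rep.hom_comm_apply, x.2 h hh]⟩)
    (fun a b => Subtype.ext (map_add (hbkQ X).hom a.1 b.1))

/-- the ranks of the fixed modules of `X` and of its torsion-free quotient agree -/
lemma hbk_finrank_fixed (X : Rep.{0} ℤ Γ) (H : Subgroup Γ) [Finite H] :
    @Module.finrank ℤ (fixedSub X H) _ _ (AddCommGroup.toIntModule _) =
      @Module.finrank ℤ (fixedSub (hbkL X) H) _ _ (AddCommGroup.toIntModule _) := by
  haveI := Fintype.ofFinite H
  refine hbk_finrank_eq (hbkFix X H) (fun a ha => ?_) (fun b => ?_)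
  · have h1 : (hbkQ X).hom a.1 = 0 := congrArg Subtype.val ha
    rw [hbkQ_eq_zero, hbk_mem_W] at h1
    obtain ⟨n, hn, hna⟩ := h1
    exact ⟨n, hn, Subtype.ext hna⟩
  · obtain ⟨y, hy⟩ := b
    obtain ⟨x, rfl⟩ := hbkQ_surjective X y
    refine ⟨Fintype.card H, Fintype.card_pos, ⟨_, hbk_norm_fixed X H x⟩, Subtype.ext ?_⟩
    exact hbk_norm_proj X H x hy

end ranks

section main

variable {p : ℕ} [Fact p.Prime] {Γ : Type} [Group Γ]

/-- an additive function vanishes on zero representations -/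
lemma hbk_psi_zero {ψ : Rep.{0} (ZMod p) Γ → ℤ} (hψ : IsAddFun ψ) (Z : Rep.{0} (ZMod p) Γ)
    (hZ : Subsingleton Z.V) : ψ Z = 0 := by
  have h := hψ.add Z Z Z (𝟙 Z) (𝟙 Z) inferInstance (fun a b _ => Subsingleton.elim a b)
    (fun y => ⟨y, Subsingleton.elim _ _⟩)
    (fun y => ⟨fun _ => ⟨y, Subsingleton.elim _ _⟩, fun _ => Subsingleton.elim _ _⟩)
  omega

/-- `h_ψ(X) = ψ (L / p)` for the torsion-free quotient `L` of `X` -/
lemma hbk_reduce (hAdd : StmtHerbAdd) (hFin : StmtHerbFin) (hMod : StmtHerbModels)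
    {ψ : Rep.{0} (ZMod p) Γ → ℤ} (hψ : IsAddFun ψ) (X : Rep.{0} ℤ Γ) (hX : IsFG X)
    (M T : Rep.{0} (ZMod p) Γ) (hM : IsModP p X M) (hT : IsTorP p X T)
    (ML : Rep.{0} (ZMod p) Γ) (hML : IsModP p (hbkL X) ML) : ψ M - ψ T = ψ ML := by
  obtain ⟨⟨MT, hMT⟩, ⟨TT, hTT⟩, -⟩ := hMod p Γ (hbkT X)
  obtain ⟨-, ⟨TL, hTL⟩, -⟩ := hMod p Γ (hbkL X)
  have h1 := hAdd p Γ ψ hψ (hbkT X) X (hbkL X) (hbkI X) (hbkQ X) hX (hbkI_injective X)
    (hbkQ_surjective X) (hbk_exact X) MT TT M T ML TL hMT hTT hM hT hML hTL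
  have h2 := hFin p Γ ψ hψ (hbkT X) (hbkT_finite X hX) MT TT hMT hTT
  have h3 : ψ TL = 0 := by
    refine hbk_psi_zero hψ TL ?_
    obtain ⟨ι, hιi, -, hιm⟩ := hTL
    have h0 : ∀ t : TL.V, t = 0 := by
      intro t
      apply hιi
      rw [map_zero]
      exact hbkL_torsionFree X (ι t) p (Fact.out : p.Prime).pos ((hιm _).2 ⟨t, rfl⟩)
    exact ⟨fun a b => (h0 a).trans (h0 b).symm⟩
  omega

end main

/-- **H-rank** from H-add, H-fin, H-lat, H-rat and H-mod. -/
theorem stmtHerbRank_of (hAdd : StmtHerbAdd) (hFin : StmtHerbFin) (hLat : StmtHerbLat)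
    (hRat : StmtHerbRat) (hMod : StmtHerbModels) : StmtHerbRank := by
  intro p _ Γ _ _ ψ hψ X Y hX hY hrank M T N U hM hT hN hU
  obtain ⟨⟨ML, hML⟩, -⟩ := hMod p Γ (hbkL X)
  obtain ⟨⟨NL, hNL⟩, -⟩ := hMod p Γ (hbkL Y)
  rw [hbk_reduce hAdd hFin hMod hψ X hX M T hM hT ML hML,
    hbk_reduce hAdd hFin hMod hψ Y hY N U hN hU NL hNL]
  refine hLat p Γ ψ hψ (hbkL X) (hbkL Y) (hbkL_isLat X hX) (hbkL_isLat Y hY)
    (hRat Γ (hbkL X) (hbkL Y) (hbkL_isLat X hX) (hbkL_isLat Y hY) (fun H hH => ?_)) ML NL hML hNL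
  exact (hbk_finrank_fixed X H).symm.trans ((hrank H hH).trans (hbk_finrank_fixed Y H))

end Fermat.Agent.TW.E


end ZBTW_051_14

/-! ### bundled: `Fermat.Agent.TW.E.HerbUnits` -/
section ZBTW_051_15
/-
TW-E / E-herb / H-units (helper32): the form of Herbrand's lemma used for units.  If
`rank X^H + 1 = #(H \ S)` for all cyclic subgroups `H`, then
`ψ (X/p) - ψ (X[p]) + ψ (𝔽_p) = ψ (𝔽_p[S])`.

Main result: `stmtHerbUnits_of : StmtHerbRank → StmtHerbAdd → StmtHerbPerm → StmtHerbModels →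
StmtHerbUnits` (statements in `TW/E/HerbPlan.lean`).

Proof.  `X₁ := X ⊕ ℤ` (`hbuX1`).  H-add on `0 → X → X₁ → ℤ → 0` gives
`h(X₁) = h(X) + ψ (𝔽_p)`; `rank X₁^H = rank X^H + 1` (`hbu_finrank_fixed`, rank-nullity over `ℤ`)
`= rank ℤ[S]^H` (H-perm), so H-rank gives `h(X₁) = h(ℤ[S]) = ψ (𝔽_p[S])`.
-/

set_option autoImplicit false
set_option linter.style.haveILetI false
set_option linter.unusedSectionVars false
set_option linter.unusedVariables false

namespace Fermat.Agent.TW.E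

open CategoryTheory

section abstract

/-- finitely generated, from finiteness for any `ℤ`-module structure -/
lemma hbu_fg_of_finite {A : Type} [AddCommGroup A] (inst : Module ℤ A)
    (h : @Module.Finite ℤ A _ _ inst) : AddGroup.FG A := by
  have e : inst = AddCommGroup.toIntModule A := Subsingleton.elim _ _
  subst e
  exact Module.Finite.iff_addGroup_fg.mp h

/-- the rank of an extension of `ℤ` by `A` -/
lemma hbu_finrank_succ {A B : Type} [AddCommGroup A] [AddCommGroup B] (hB : AddGroup.FG B)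
    (i : A →+ B) (s : B →+ ℤ) (hi : Function.Injective i) (hs : Function.Surjective s)
    (hex : ∀ b, s b = 0 → ∃ a, i a = b) (hsi : ∀ a, s (i a) = 0) :
    Module.finrank ℤ B = Module.finrank ℤ A + 1 := by
  haveI : Module.Finite ℤ B := Module.Finite.iff_addGroup_fg.mpr hB
  haveI : Module.Finite ℤ A := Module.Finite.of_injective i.toIntLinearMap hi
  let f : B →ₗ[ℤ] ℤ := s.toIntLinearMap
  have h := LinearMap.rank_range_add_rank_ker f
  have h1 : LinearMap.range f = ⊤ := LinearMap.range_eq_top.2 hs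
  let e : A ≃ₗ[ℤ] LinearMap.ker f :=
    LinearEquiv.ofBijective (i.toIntLinearMap.codRestrict (LinearMap.ker f) (fun a => hsi a))
      ⟨fun a b hab => hi (congrArg Subtype.val hab), fun ⟨b, hb⟩ => by
        obtain ⟨a, ha⟩ := hex b hb
        exact ⟨a, Subtype.ext ha⟩⟩
  have h2 : Module.rank ℤ (LinearMap.ker f) = Module.rank ℤ A := e.rank_eq.symm
  have h3 : Module.rank ℤ ℤ = 1 := Module.rank_self ℤ
  rw [h1, rank_top, h3, h2, ← Module.finrank_eq_rank ℤ A, ← Module.finrank_eq_rank ℤ B] at h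
  have h4 : ((1 + Module.finrank ℤ A : ℕ) : Cardinal) = ((Module.finrank ℤ B : ℕ) : Cardinal) := by
    push_cast
    exact h
  have h5 := Nat.cast_injective h4
  omega

end abstract

section construct

attribute [-instance] AddCommGroup.toIntModule
attribute [-instance] ZSMul.toSMul

variable {Γ : Type} [Group Γ]

/-- `X ⊕ ℤ` -/
noncomputable def hbuX1 (X : Rep.{0} ℤ Γ) : Rep.{0} ℤ Γ :=
  Rep.of (X.ρ.prod (Representation.trivial ℤ Γ ℤ))

/-- the inclusion `X → X ⊕ ℤ` -/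
noncomputable def hbuInl (X : Rep.{0} ℤ Γ) : X ⟶ hbuX1 X :=
  Rep.ofHom (ρ := X.ρ) (σ := X.ρ.prod (Representation.trivial ℤ Γ ℤ))
    (Representation.IntertwiningMap.inl ℤ X.ρ (Representation.trivial ℤ Γ ℤ))

/-- the projection `X ⊕ ℤ → ℤ` -/
noncomputable def hbuSnd (X : Rep.{0} ℤ Γ) : hbuX1 X ⟶ Rep.trivial ℤ Γ ℤ :=
  Rep.ofHom (ρ := X.ρ.prod (Representation.trivial ℤ Γ ℤ)) (σ := Representation.trivial ℤ Γ ℤ)
    (Representation.IntertwiningMap.snd ℤ X.ρ (Representation.trivial ℤ Γ ℤ))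

lemma hbuInl_apply (X : Rep.{0} ℤ Γ) (x : X.V) :
    (hbuInl X).hom x = ((x, 0) : X.V × ℤ) := rfl

lemma hbuSnd_apply (X : Rep.{0} ℤ Γ) (y : X.V × ℤ) :
    (hbuSnd X).hom y = y.2 := rfl

lemma hbuX1_ρ (X : Rep.{0} ℤ Γ) (g : Γ) (y : X.V × ℤ) :
    (hbuX1 X).ρ g y = ((X.ρ g y.1, y.2) : X.V × ℤ) := rfl

lemma hbuInl_injective (X : Rep.{0} ℤ Γ) : Function.Injective (hbuInl X).hom :=
  fun a b h => congrArg Prod.fst h

lemma hbuSnd_surjective (X : Rep.{0} ℤ Γ) : Function.Surjective (hbuSnd X).hom :=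
  fun n => ⟨((0 : X.V), n), rfl⟩

lemma hbu_exact (X : Rep.{0} ℤ Γ) : Function.Exact (hbuInl X).hom (hbuSnd X).hom := by
  rintro ⟨x, n⟩
  constructor
  · intro h
    have h1 : n = 0 := h
    subst h1
    exact ⟨x, rfl⟩
  · rintro ⟨a, ha⟩
    have h1 : ((a, 0) : X.V × ℤ) = (x, n) := ha
    exact (congrArg Prod.snd h1).symm

lemma hbuX1_fg (X : Rep.{0} ℤ Γ) (hX : IsFG X) : IsFG (hbuX1 X) := by
  haveI : Module.Finite ℤ X.V := hbk_finite_of_fg hX
  have h : Module.Finite ℤ (X.V × ℤ) := inferInstance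
  exact hbu_fg_of_finite (A := X.V × ℤ) _ h

end construct

section ranks

attribute [-instance] AddCommGroup.toIntModule
attribute [-instance] ZSMul.toSMul

variable {Γ : Type} [Group Γ]

/-- the inclusion on fixed vectors -/
noncomputable def hbuFixI (X : Rep.{0} ℤ Γ) (H : Subgroup Γ) :
    fixedSub X H →+ fixedSub (hbuX1 X) H :=
  AddMonoidHom.mk' (fun a => ⟨((a.1, 0) : X.V × ℤ), fun h hh => by
      rw [hbuX1_ρ]
      exact Prod.ext (a.2 h hh) rfl⟩)
    (fun a b => Subtype.ext (Prod.ext rfl (add_zero (0 : ℤ)).symm))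

/-- the projection on fixed vectors -/
noncomputable def hbuFixS (X : Rep.{0} ℤ Γ) (H : Subgroup Γ) : fixedSub (hbuX1 X) H →+ ℤ :=
  AddMonoidHom.mk' (fun b => (b.1 : X.V × ℤ).2) (fun a b => rfl)

/-- `rank (X ⊕ ℤ)^H = rank X^H + 1` -/
lemma hbu_finrank_fixed (X : Rep.{0} ℤ Γ) (hX : IsFG X) (H : Subgroup Γ) :
    @Module.finrank ℤ (fixedSub (hbuX1 X) H) _ _ (AddCommGroup.toIntModule _) =
      @Module.finrank ℤ (fixedSub X H) _ _ (AddCommGroup.toIntModule _) + 1 := by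
  have hfg : AddGroup.FG (fixedSub (hbuX1 X) H) :=
    hbm_fg_of_injective (fixedSub (hbuX1 X) H).subtype Subtype.val_injective (hbuX1_fg X hX)
  refine hbu_finrank_succ hfg (hbuFixI X H) (hbuFixS X H) (fun a b hab => ?_) (fun n => ?_)
    (fun b hb => ?_) (fun a => rfl)
  · apply Subtype.ext
    have h1 : ((a.1, 0) : X.V × ℤ) = (b.1, 0) := congrArg Subtype.val hab
    exact congrArg Prod.fst h1
  · refine ⟨⟨(((0 : X.V), n) : X.V × ℤ), fun h hh => ?_⟩, rfl⟩
    rw [hbuX1_ρ]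
    exact Prod.ext (map_zero _) rfl
  · obtain ⟨⟨x, n⟩, hxn⟩ := b
    have h1 : n = 0 := hb
    subst h1
    refine ⟨⟨x, fun h hh => ?_⟩, rfl⟩
    have h2 := hxn h hh
    rw [hbuX1_ρ] at h2
    exact congrArg Prod.fst h2

variable (p : ℕ) [Fact p.Prime]

/-- `𝔽_p` is a model of `ℤ / p` -/
lemma hbu_modP_int : IsModP p (Rep.trivial ℤ Γ ℤ) (Rep.trivial (ZMod p) Γ (ZMod p)) := by
  refine ⟨Int.castAddHom (ZMod p), ZMod.intCast_surjective, fun g x => rfl, fun x => ?_⟩
  rw [Int.coe_castAddHom, ZMod.intCast_zmod_eq_zero_iff_dvd]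
  constructor
  · rintro ⟨c, rfl⟩
    exact ⟨c, (nsmul_eq_mul p c).symm⟩
  · rintro ⟨y, rfl⟩
    exact ⟨y, nsmul_eq_mul p y⟩

/-- `ℤ` has no `p`-torsion -/
lemma hbu_torP_int (T : Rep.{0} (ZMod p) Γ) (hT : IsTorP p (Rep.trivial ℤ Γ ℤ) T) :
    Subsingleton T.V := by
  obtain ⟨ι, hιi, -, hιm⟩ := hT
  have h0 : ∀ t : T.V, t = 0 := by
    intro t
    apply hιi
    rw [map_zero]
    have h1 : p • ι t = 0 := (hιm _).2 ⟨t, rfl⟩
    rw [nsmul_eq_mul] at h1
    rcases mul_eq_zero.1 h1 with h2 | h2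
    · exact absurd (by exact_mod_cast h2) (Fact.out : p.Prime).ne_zero
    · exact h2
  exact ⟨fun a b => (h0 a).trans (h0 b).symm⟩

/-- `ℤ[S]` is finitely generated -/
lemma hbu_perm_fg (S : Type) [Finite S] [MulAction Γ S] : IsFG (Rep.ofMulAction ℤ Γ S) := by
  have h : Module.Finite ℤ (S →₀ ℤ) := inferInstance
  haveI : AddGroup.FG (S →₀ ℤ) := hbu_fg_of_finite _ h
  exact AddGroup.fg_of_surjective
    (f := (MonoidAlgebra.coeffAddEquiv (R := ℤ) (M := S)).symm.toAddMonoidHom)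
    (MonoidAlgebra.coeffAddEquiv (R := ℤ) (M := S)).symm.surjective

end ranks

/-- **H-units** from H-rank, H-add, H-perm and H-mod. -/
theorem stmtHerbUnits_of (hRank : StmtHerbRank) (hAdd : StmtHerbAdd) (hPerm : StmtHerbPerm)
    (hMod : StmtHerbModels) : StmtHerbUnits := by
  intro p _ Γ _ _ ψ hψ X hX S _ _ hrank M T hM hT
  obtain ⟨⟨M1, hM1⟩, ⟨T1, hT1⟩, -⟩ := hMod p Γ (hbuX1 X)
  obtain ⟨-, ⟨TZ, hTZ⟩, -⟩ := hMod p Γ (Rep.trivial ℤ Γ ℤ)
  obtain ⟨-, ⟨TS, hTS⟩, -⟩ := hMod p Γ (Rep.ofMulAction ℤ Γ S)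
  obtain ⟨hPS, hPT, hPr⟩ := hPerm p Γ S
  have h1 := hAdd p Γ ψ hψ X (hbuX1 X) (Rep.trivial ℤ Γ ℤ) (hbuInl X) (hbuSnd X)
    (hbuX1_fg X hX) (hbuInl_injective X) (hbuSnd_surjective X) (hbu_exact X)
    M T M1 T1 (Rep.trivial (ZMod p) Γ (ZMod p)) TZ hM hT hM1 hT1 (hbu_modP_int p) hTZ
  have h2 : ψ TZ = 0 := hbk_psi_zero hψ TZ (hbu_torP_int p TZ hTZ)
  have h3 : ψ TS = 0 := hbk_psi_zero hψ TS (hPT TS hTS)
  have h4 := hRank p Γ ψ hψ (hbuX1 X) (Rep.ofMulAction ℤ Γ S) (hbuX1_fg X hX)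
    (hbu_perm_fg S) (fun H hH => (hbu_finrank_fixed X hX H).trans ((hrank H hH).trans (hPr H).symm))
    M1 T1 (Rep.ofMulAction (ZMod p) Γ S) TS hM1 hT1 hPS hTS
  omega

end Fermat.Agent.TW.E


end ZBTW_051_15

/-! ### bundled: `Fermat.Agent.TW.E.HerbFin` -/
section ZBTW_051_16
/-
TW-E / E-herb / H-fin (helper32): `h_ψ(X) = ψ (X/pX) - ψ (X[p])` vanishes on finite modules.

Main result: `stmtHerbFin_of : StmtHerbAdd → StmtHerbModels → StmtHerbFin`
(statements in `TW/E/HerbPlan.lean`).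

Proof.  Strong induction on `#X`.  If multiplication by `p` is surjective on `X`, it is bijective
and both `X / pX` and `X[p]` vanish.  Otherwise `0 → X[p] → X → pX → 0` and H-add give
`h(X) = h(X[p]) + h(pX)`; `h(pX) = 0` by induction, and `h(K) = 0` for `K = X[p]` since a model of
`K / pK` is also a model of `K[p]`.
-/

set_option autoImplicit false
set_option linter.style.haveILetI false
set_option linter.unusedSectionVars false
set_option linter.unusedVariables false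

namespace Fermat.Agent.TW.E

open CategoryTheory

section

attribute [-instance] AddCommGroup.toIntModule

variable {p : ℕ} {Γ : Type} [Group Γ]

/-- multiplication by `p` on `X`, as a linear map -/
noncomputable def hbfMul (p : ℕ) (X : Rep.{0} ℤ Γ) : X.V →ₗ[ℤ] X.V :=
  (p : ℤ) • (LinearMap.id : X.V →ₗ[ℤ] X.V)

lemma hbfMul_apply (X : Rep.{0} ℤ Γ) (x : X.V) : hbfMul p X x = p • x := by
  simp [hbfMul]

lemma hbfMul_comm (X : Rep.{0} ℤ Γ) (g : Γ) (x : X.V) :
    hbfMul p X (X.ρ g x) = X.ρ g (hbfMul p X x) := by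
  rw [hbfMul_apply, hbfMul_apply, map_nsmul]

lemma hbf_ker_stable (X : Rep.{0} ℤ Γ) (g : Γ) :
    LinearMap.ker (hbfMul p X) ≤ (LinearMap.ker (hbfMul p X)).comap (X.ρ g) := by
  intro x hx
  rw [Submodule.mem_comap, LinearMap.mem_ker, hbfMul_comm, LinearMap.mem_ker.1 hx, map_zero]

lemma hbf_range_stable (X : Rep.{0} ℤ Γ) (g : Γ) :
    LinearMap.range (hbfMul p X) ≤ (LinearMap.range (hbfMul p X)).comap (X.ρ g) := by
  rintro _ ⟨x, rfl⟩
  exact ⟨X.ρ g x, hbfMul_comm X g x⟩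

/-- `X[p]` as a representation -/
noncomputable def hbfK (p : ℕ) (X : Rep.{0} ℤ Γ) : Rep.{0} ℤ Γ :=
  X.subrepresentation (LinearMap.ker (hbfMul p X)) (hbf_ker_stable X)

/-- `pX` as a representation -/
noncomputable def hbfY (p : ℕ) (X : Rep.{0} ℤ Γ) : Rep.{0} ℤ Γ :=
  X.subrepresentation (LinearMap.range (hbfMul p X)) (hbf_range_stable X)

/-- the inclusion `X[p] → X` -/
noncomputable def hbfI (p : ℕ) (X : Rep.{0} ℤ Γ) : hbfK p X ⟶ X :=
  Rep.subtype X (LinearMap.ker (hbfMul p X)) (hbf_ker_stable X)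

/-- multiplication by `p` as a morphism `X → pX` -/
noncomputable def hbfQ (p : ℕ) (X : Rep.{0} ℤ Γ) : X ⟶ hbfY p X :=
  Rep.ofHom (ρ := X.ρ)
    (σ := X.ρ.subrepresentation (LinearMap.range (hbfMul p X)) (hbf_range_stable X))
    ⟨(hbfMul p X).rangeRestrict, fun g => LinearMap.ext (fun x =>
      Subtype.ext (hbfMul_comm X g x))⟩

lemma hbfI_injective (X : Rep.{0} ℤ Γ) : Function.Injective (hbfI p X).hom :=
  fun _ _ h => Subtype.ext h

lemma hbfQ_surjective (X : Rep.{0} ℤ Γ) : Function.Surjective (hbfQ p X).hom := by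
  rintro ⟨_, x, rfl⟩
  exact ⟨x, rfl⟩

lemma hbfQ_val (X : Rep.{0} ℤ Γ) (x : X.V) :
    ((show LinearMap.range (hbfMul p X) from (hbfQ p X).hom x) : X.V) = hbfMul p X x := rfl

lemma hbf_exact (X : Rep.{0} ℤ Γ) : Function.Exact (hbfI p X).hom (hbfQ p X).hom := by
  intro x
  constructor
  · intro h
    have h1 : hbfMul p X x = 0 := by
      rw [← hbfQ_val, h]
      rfl
    exact ⟨⟨x, h1⟩, rfl⟩
  · rintro ⟨⟨y, hy⟩, rfl⟩
    apply Subtype.ext
    exact hy

/-- elements of `X[p]` are killed by `p` -/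
lemma hbfK_kill (X : Rep.{0} ℤ Γ) (y : (hbfK p X).V) : p • y = 0 := by
  obtain ⟨x, hx⟩ := y
  apply Subtype.ext
  have h1 : hbfMul p X x = 0 := hx
  rw [hbfMul_apply] at h1
  exact h1

/-- a model of `K / pK` is a model of `K[p]` if `K` is killed by `p` -/
lemma hbf_tor_of_mod (K : Rep.{0} ℤ Γ) (hK : ∀ y : K.V, p • y = 0) (M : Rep.{0} (ZMod p) Γ)
    (hM : IsModP p K M) : IsTorP p K M := by
  obtain ⟨π, hπs, hπe, hπk⟩ := hM
  have hπi : Function.Injective π := by
    rw [injective_iff_map_eq_zero]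
    intro x hx
    obtain ⟨y, rfl⟩ := (hπk x).1 hx
    exact hK y
  let e : K.V ≃+ M.V := AddEquiv.ofBijective π ⟨hπi, hπs⟩
  refine ⟨e.symm.toAddMonoidHom, e.symm.injective, fun g m => ?_, fun x => ?_⟩
  · apply hπi
    change e (e.symm (M.ρ g m)) = π (K.ρ g (e.symm m))
    rw [e.apply_symm_apply, hπe]
    change M.ρ g m = M.ρ g (e (e.symm m))
    rw [e.apply_symm_apply]
  · constructor
    · intro _
      exact ⟨e x, e.symm_apply_apply x⟩
    · intro _
      exact hK x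

/-- two representations on trivial modules have the same value under `ψ` -/
lemma hbf_subsingleton [Fact p.Prime] {ψ : Rep.{0} (ZMod p) Γ → ℤ} (hψ : IsAddFun ψ) (M T : Rep.{0} (ZMod p) Γ)
    (hM : ∀ m : M.V, m = 0) (hT : ∀ t : T.V, t = 0) : ψ M = ψ T := by
  haveI : Subsingleton M.V := ⟨fun a b => (hM a).trans (hM b).symm⟩
  haveI : Subsingleton T.V := ⟨fun a b => (hT a).trans (hT b).symm⟩
  exact hψ.iso M T ⟨Rep.mkIso (ρ := M.ρ) (σ := T.ρ)
    (Representation.Equiv.mk (LinearEquiv.ofSubsingleton M.V T.V)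
      (fun g => LinearMap.ext fun m => Subsingleton.elim _ _))⟩

/-- the induction -/
lemma hbf_main [Fact p.Prime] (hAdd : StmtHerbAdd) (hMod : StmtHerbModels) {ψ : Rep.{0} (ZMod p) Γ → ℤ}
    (hψ : IsAddFun ψ) :
    ∀ n : ℕ, ∀ X : Rep.{0} ℤ Γ, Finite X.V → Nat.card X.V = n →
      ∀ M T : Rep.{0} (ZMod p) Γ, IsModP p X M → IsTorP p X T → ψ M = ψ T := by
  intro n
  induction n using Nat.strong_induction_on with
  | _ n ih =>
    intro X hXfin hcard M T hM hT
    by_cases hsurj : Function.Surjective (hbfMul p X)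
    · have hinj : Function.Injective (hbfMul p X) := Finite.injective_iff_surjective.2 hsurj
      obtain ⟨π, hπs, -, hπk⟩ := hM
      obtain ⟨ι, hιi, -, hιm⟩ := hT
      refine hbf_subsingleton hψ M T (fun m => ?_) (fun t => ?_)
      · obtain ⟨x, rfl⟩ := hπs m
        obtain ⟨y, hy⟩ := hsurj x
        exact (hπk x).2 ⟨y, by rw [← hy, hbfMul_apply]⟩
      · apply hιi
        rw [map_zero]
        apply hinj
        rw [hbfMul_apply, map_zero]
        exact (hιm _).2 ⟨t, rfl⟩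
    · obtain ⟨⟨MK, hMK⟩, -, -, -, -, -⟩ := hMod p Γ (hbfK p X)
      obtain ⟨⟨MY, hMY⟩, ⟨TY, hTY⟩, -, -, -, -⟩ := hMod p Γ (hbfY p X)
      have hTK : IsTorP p (hbfK p X) MK := hbf_tor_of_mod (hbfK p X) (hbfK_kill X) MK hMK
      have hYfin : Finite (hbfY p X).V :=
        Finite.of_injective (fun y : LinearMap.range (hbfMul p X) => (y : X.V))
          Subtype.val_injective
      have hlt : Nat.card (hbfY p X).V < n := by
        rw [← hcard]
        haveI := Fintype.ofFinite X.V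
        haveI := Fintype.ofFinite (hbfY p X).V
        rw [Nat.card_eq_fintype_card, Nat.card_eq_fintype_card]
        refine Fintype.card_lt_of_injective_not_surjective
          (fun y : LinearMap.range (hbfMul p X) => (y : X.V)) Subtype.val_injective
          (fun h => hsurj (fun x => ?_))
        obtain ⟨⟨_, z, rfl⟩, rfl⟩ := h x
        exact ⟨z, rfl⟩
      have hY := ih _ hlt (hbfY p X) hYfin rfl MY TY hMY hTY
      have hXfg : IsFG X := by
        unfold IsFG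
        infer_instance
      have key := hAdd p Γ ψ hψ (hbfK p X) X (hbfY p X) (hbfI p X) (hbfQ p X) hXfg
        (hbfI_injective X) (hbfQ_surjective X) (hbf_exact X) MK MK M T MY TY hMK hTK hM hT
        hMY hTY
      omega

end

/-- **H-fin** from H-add and H-mod. -/
theorem stmtHerbFin_of (hAdd : StmtHerbAdd) (hMod : StmtHerbModels) : StmtHerbFin := by
  intro p _ Γ _ ψ hψ X hX M T hM hT
  exact hbf_main hAdd hMod hψ _ X hX rfl M T hM hT

end Fermat.Agent.TW.E


end ZBTW_051_16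

/-! ### bundled: `Fermat.Agent.TW.E.HerbFinFinal` -/
section ZBTW_051_17
/-
TW-E / E-herb / H-fin (helper32), unconditional form: `stmtHerbAdd` (`HerbAdd.lean`) and
`stmtHerbModels` (`HerbModels.lean`) plugged into `stmtHerbFin_of` (`HerbFin.lean`).
-/

set_option autoImplicit false

namespace Fermat.Agent.TW.E

/-- **H-fin**, unconditional. -/
theorem stmtHerbFin : StmtHerbFin := stmtHerbFin_of stmtHerbAdd stmtHerbModels

end Fermat.Agent.TW.E


end ZBTW_051_17

/-! ### bundled: `Fermat.Agent.TW.E.HerbLat` -/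
section ZBTW_051_18
/-
TW-E / E-herb / H-lat (helper32): on lattices `ψ (X/p)` only depends on the characteristic
polynomials of the elements of `Γ`.

Main result: `stmtHerbLat_of : StmtBN → StmtHerbLat` (statements in `TW/E/K0Plan.lean`,
`TW/E/HerbPlan.lean`).

Proof.  Let `b` be a `ℤ`-basis of the lattice `X` and `f : X → M` the structure map of a model `M`
of `X / pX`.  Then `f ∘ b` is a basis of `M` over `𝔽_p` (`hbl_basis`), the matrix of `M.ρ g` in this
basis is the reduction of the matrix of `X.ρ g`, hence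
`repCharpoly M g = (latCharpoly X g).map (ℤ → 𝔽_p)` (`hbl_core`).  Then Brauer–Nesbitt.
-/

set_option autoImplicit false
set_option linter.style.haveILetI false
set_option linter.unusedSectionVars false

namespace Fermat.Agent.TW.E

open Polynomial Module

section

attribute [-instance] AddCommGroup.toIntModule
attribute [-instance] ZSMul.toSMul

variable {p : ℕ} [hp : Fact p.Prime] {Γ : Type} [Group Γ]

/-- an additive map into an `𝔽_p`-module turns integer multiples into `𝔽_p`-multiples -/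
lemma hbl_map_zsmul {A B : Type*} [AddCommGroup A] [Module ℤ A] [AddCommGroup B]
    [Module (ZMod p) B] (f : A →+ B) (z : ℤ) (x : A) : f (z • x) = (z : ZMod p) • f x := by
  have := map_intCast_smul f ℤ (ZMod p) z x
  simpa using this

/-- `p • y` as an integer multiple -/
lemma hbl_nsmul_eq {A : Type*} [AddCommGroup A] [Module ℤ A] (n : ℕ) (y : A) :
    n • y = (n : ℤ) • y := (Nat.cast_smul_eq_nsmul ℤ n y).symm

/-- the reduction of a `ℤ`-basis of `X` is a basis of a model of `X / pX` -/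
lemma hbl_basis (X : Rep.{0} ℤ Γ) (M : Rep.{0} (ZMod p) Γ) {n : ℕ} (b : Basis (Fin n) ℤ X.V)
    (f : X.V →+ M.V) (hfsurj : Function.Surjective f)
    (hfker : ∀ x, f x = 0 ↔ ∃ y, x = p • y) :
    LinearIndependent (ZMod p) (fun i => f (b i)) ∧
      ⊤ ≤ Submodule.span (ZMod p) (Set.range (fun i => f (b i))) := by
  constructor
  · rw [Fintype.linearIndependent_iff]
    intro c hc i
    have h1 : f (∑ j, ((c j).val : ℤ) • b j) = 0 := by
      rw [map_sum, ← hc]
      refine Finset.sum_congr rfl (fun j _ => ?_)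
      rw [hbl_map_zsmul (p := p)]
      congr 1
      simp
    obtain ⟨y, hy⟩ := (hfker _).1 h1
    rw [hbl_nsmul_eq p y] at hy
    have h3 := congrArg (fun x => b.repr x i) hy
    simp only [map_sum, map_smul, Finsupp.coe_finsetSum, Finsupp.coe_smul, Finset.sum_apply,
      Pi.smul_apply, Basis.repr_self, smul_eq_mul] at h3
    rw [Finset.sum_eq_single i (fun j _ hj => by simp [hj])
      (fun h => absurd (Finset.mem_univ i) h)] at h3
    simp only [Finsupp.single_eq_same, mul_one] at h3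
    have h4 : (((c i).val : ℤ) : ZMod p) = 0 := by
      rw [h3]
      simp
    simpa using h4
  · intro m _
    obtain ⟨x, rfl⟩ := hfsurj m
    rw [← b.sum_repr x, map_sum]
    refine Submodule.sum_mem _ (fun j _ => ?_)
    rw [hbl_map_zsmul (p := p)]
    exact Submodule.smul_mem _ _ (Submodule.subset_span ⟨j, rfl⟩)

/-- the characteristic polynomials of a model of `X / pX` are the reductions of those of `X` -/
lemma hbl_core (X : Rep.{0} ℤ Γ) (M : Rep.{0} (ZMod p) Γ) (hX : IsLat X) (hM : IsModP p X M) :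
    Module.Finite (ZMod p) M.V ∧
      ∀ g : Γ, repCharpoly M g = (latCharpoly X g).map (Int.castRingHom (ZMod p)) := by
  classical
  obtain ⟨n, ⟨e⟩⟩ := hX
  obtain ⟨f, hfsurj, hfeq, hfker⟩ := hM
  let e' : X.V ≃ₗ[ℤ] (Fin n → ℤ) := e.toIntLinearEquiv
  let b : Basis (Fin n) ℤ X.V := Basis.ofEquivFun e'
  have hfree : Module.Free ℤ X.V := Module.Free.of_basis b
  have hfin : Module.Finite ℤ X.V := Module.Finite.of_basis b
  obtain ⟨hli, hsp⟩ := hbl_basis X M b f hfsurj hfker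
  let B : Basis (Fin n) (ZMod p) M.V := Basis.mk hli hsp
  have hB : ∀ i, B i = f (b i) := fun i => Basis.mk_apply hli hsp i
  have hMfin : Module.Finite (ZMod p) M.V := Module.Finite.of_basis B
  refine ⟨hMfin, fun g => ?_⟩
  have hc : latCharpoly X g = LinearMap.charpoly (X.ρ g) := by
    unfold latCharpoly
    exact dif_pos ⟨hfree, hfin⟩
  have hr : repCharpoly M g = LinearMap.charpoly (M.ρ g) := by
    unfold repCharpoly
    exact dif_pos hMfin
  have hmat : LinearMap.toMatrix B B (M.ρ g) =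
      (LinearMap.toMatrix b b (X.ρ g)).map (Int.castRingHom (ZMod p)) := by
    ext i j
    rw [LinearMap.toMatrix_apply, Matrix.map_apply, hB, ← hfeq]
    have h1 : X.ρ g (b j) = ∑ k, (LinearMap.toMatrix b b (X.ρ g) k j) • b k := by
      conv_lhs => rw [← b.sum_repr (X.ρ g (b j))]
      refine Finset.sum_congr rfl (fun k _ => ?_)
      rw [LinearMap.toMatrix_apply]
    rw [h1, map_sum]
    have h2 : ∀ k, f ((LinearMap.toMatrix b b (X.ρ g) k j) • b k) =
        ((LinearMap.toMatrix b b (X.ρ g) k j : ℤ) : ZMod p) • B k := by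
      intro k
      rw [hbl_map_zsmul (p := p), hB]
    simp only [h2, map_sum, map_smul, Finsupp.coe_finsetSum, Finsupp.coe_smul, Finset.sum_apply,
      Pi.smul_apply, Basis.repr_self, smul_eq_mul]
    rw [Finset.sum_eq_single i (fun k _ hk => by simp [hk])
      (fun h => absurd (Finset.mem_univ i) h)]
    simp
  rw [hr, hc, ← LinearMap.charpoly_toMatrix (M.ρ g) B, hmat, Matrix.charpoly_map,
    LinearMap.charpoly_toMatrix (X.ρ g) b]

end

/-- **H-lat** from Brauer–Nesbitt. -/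
theorem stmtHerbLat_of (hBN : StmtBN) : StmtHerbLat := by
  intro p _ Γ _ _ ψ hψ X Y hX hY hchar M N hM hN
  obtain ⟨hMfin, hMc⟩ := hbl_core X M hX hM
  obtain ⟨hNfin, hNc⟩ := hbl_core Y N hY hN
  refine hBN p Γ ψ hψ M N hMfin hNfin (fun g _ => ?_)
  rw [hMc g, hNc g, hchar g]

end Fermat.Agent.TW.E


end ZBTW_051_18

/-! ### bundled: `Fermat.Agent.TW.E.HerbRat` -/
section ZBTW_051_19
/-
TW-E / E-herb / H-rat (helper32): for lattices, the characteristic polynomials of the elements of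
`Γ` are determined by the ranks of the fixed modules of the cyclic subgroups.

Main result: `stmtHerbRat : StmtHerbRat` (statement in `TW/E/HerbPlan.lean`).

Proof.  Fix `g` of order `n`, `σ = ρ(g)` on the lattice `X`, `σ_ℂ` its base change to `ℂ ⊗ X`.
* Part A (linear algebra over `ℂ`): `σ_ℂ ^ n = 1`, so `σ_ℂ` is semisimple and
  `dim ker (σ_ℂ - μ) = rootMultiplicity μ χ` (`hbr_finrank_ker_linear`); kernels of pairwise coprime
  polynomials add up (`hbr_finrank_ker_prod`), hence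
  `dim ker (σ_ℂ ^ e - 1) = Σ_{μ ^ e = 1} rootMultiplicity μ χ` (`hbr_finrank_ker_pow`); the roots of
  `χ` are `n`-th roots of unity (`hbr_root_pow`).
* Part B (polynomials): for `P ∈ ℚ[X]` the root multiplicity at a primitive `d`-th root of unity
  only depends on `d`, because `Φ_d` is irreducible over `ℚ` (`hbr_pow_dvd_iff`,
  `hbr_rootMultiplicity_eq`); so the sums over the `e`-th roots of unity are
  `Σ_{d ∣ e} φ(d) m_d` (`hbr_sum_nthRoots`) and determine all `m_d` (`hbr_mult_eq`), hence the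
  polynomial (`hbr_poly_eq`).
* Part C (base change): `rank_ℤ ker h = dim_ℂ ker (h ⊗ ℂ)` by flatness
  (`hbr_finrank_ker_baseChange`), and `fixedSub X ⟨g ^ e⟩ = ker (σ ^ e - 1)`
  (`hbr_finrank_fixedSub`).
-/

set_option autoImplicit false
set_option linter.style.haveILetI false
set_option linter.unusedSectionVars false

namespace Fermat.Agent.TW.E

open Polynomial Module TensorProduct

section PartA

variable {K : Type*} [Field K] {V : Type*} [AddCommGroup V] [Module K V] [FiniteDimensional K V]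

/-- additivity of the dimension of kernels for pairwise coprime polynomials -/
lemma hbr_finrank_ker_prod {ι : Type*} [DecidableEq ι] (s : Finset ι) (P : ι → K[X])
    (hP : (s : Set ι).Pairwise (fun i j => IsCoprime (P i) (P j))) (σ : Module.End K V) :
    finrank K (LinearMap.ker (aeval σ (∏ i ∈ s, P i))) =
      ∑ i ∈ s, finrank K (LinearMap.ker (aeval σ (P i))) := by
  induction s using Finset.induction_on with
  | empty =>
    have key : ∀ Q : K[X], Q = 1 → finrank K (LinearMap.ker (aeval σ Q)) = 0 := by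
      rintro Q rfl
      have h1 : aeval σ (1 : K[X]) = LinearMap.id := map_one _
      rw [h1, LinearMap.ker_id, finrank_bot]
    rw [Finset.sum_empty]
    exact key _ Finset.prod_empty
  | insert a s ha ih =>
    rw [Finset.prod_insert ha, Finset.sum_insert ha]
    have hcop : IsCoprime (P a) (∏ i ∈ s, P i) := by
      refine IsCoprime.prod_right (fun i hi => ?_)
      exact hP (Finset.mem_coe.2 (Finset.mem_insert_self a s))
        (Finset.mem_coe.2 (Finset.mem_insert_of_mem hi)) (fun h => ha (h ▸ hi))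
    have h1 := Polynomial.sup_ker_aeval_eq_ker_aeval_mul_of_coprime σ hcop
    have h2 := Polynomial.disjoint_ker_aeval_of_isCoprime σ hcop
    have h3 := Submodule.finrank_sup_add_finrank_inf_eq (LinearMap.ker (aeval σ (P a)))
      (LinearMap.ker (aeval σ (∏ i ∈ s, P i)))
    rw [h2.eq_bot, finrank_bot, add_zero, h1] at h3
    rw [h3, ih (fun i hi j hj hij => hP (Finset.mem_coe.2 (Finset.mem_insert_of_mem hi))
      (Finset.mem_coe.2 (Finset.mem_insert_of_mem hj)) hij)]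

end PartA

section PartAC

variable {V : Type*} [AddCommGroup V] [Module ℂ V] [FiniteDimensional ℂ V]

/-- an endomorphism of finite order is semisimple: geometric = algebraic multiplicity -/
lemma hbr_finrank_ker_linear (σ : Module.End ℂ V) (n : ℕ) (hn : 0 < n) (hσ : σ ^ n = 1)
    (μ : ℂ) :
    finrank ℂ (LinearMap.ker (aeval σ (X - C μ))) =
      (LinearMap.charpoly σ).rootMultiplicity μ := by
  have hsep : (X ^ n - C (1 : ℂ)).Separable :=
    separable_X_pow_sub_C 1 (by exact_mod_cast hn.ne') one_ne_zero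
  have hss : σ.IsSemisimple :=
    Module.End.isSemisimple_of_squarefree_aeval_eq_zero hsep.squarefree (by simp [hσ])
  have hfs : σ.IsFinitelySemisimple := hss.isFinitelySemisimple
  rw [← LinearMap.finrank_maxGenEigenspace_eq σ μ, hfs.maxGenEigenspace_eq_eigenspace μ,
    Module.End.eigenspace_def]
  have e : aeval σ (X - C μ) = σ - μ • 1 := by
    simp [Algebra.algebraMap_eq_smul_one]
  rw [e]

/-- the rank of the fixed space of `σ ^ e` in terms of the characteristic polynomial -/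
lemma hbr_finrank_ker_pow (σ : Module.End ℂ V) (n : ℕ) (hn : 0 < n) (hσ : σ ^ n = 1)
    (e : ℕ) (he : 0 < e) :
    finrank ℂ (LinearMap.ker (σ ^ e - 1)) =
      ∑ μ ∈ nthRootsFinset e (1 : ℂ), (LinearMap.charpoly σ).rootMultiplicity μ := by
  classical
  have h1 : σ ^ e - 1 = aeval σ (∏ μ ∈ nthRootsFinset e (1 : ℂ), (X - C μ)) := by
    rw [← X_pow_sub_one_eq_prod he (Complex.isPrimitiveRoot_exp e he.ne')]
    simp
  rw [h1, hbr_finrank_ker_prod]
  · exact Finset.sum_congr rfl (fun μ _ => hbr_finrank_ker_linear σ n hn hσ μ)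
  · intro μ _ ν _ hμν
    exact isCoprime_X_sub_C_of_isUnit_sub (sub_ne_zero.mpr hμν).isUnit

/-- the roots of the characteristic polynomial of an endomorphism of finite order are roots of
unity -/
lemma hbr_root_pow (σ : Module.End ℂ V) (n : ℕ) (hn : 0 < n) (hσ : σ ^ n = 1) (μ : ℂ)
    (hμ : (LinearMap.charpoly σ).rootMultiplicity μ ≠ 0) : μ ^ n = 1 := by
  rw [← hbr_finrank_ker_linear σ n hn hσ μ] at hμ
  have hne : LinearMap.ker (aeval σ (X - C μ)) ≠ ⊥ := by
    intro h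
    rw [h, finrank_bot] at hμ
    exact hμ rfl
  obtain ⟨v, hv, hv0⟩ := Submodule.exists_mem_ne_zero_of_ne_bot hne
  have h1 : σ v = μ • v := by
    have h0 : (aeval σ (X - C μ)) v = 0 := hv
    have e : aeval σ (X - C μ) = σ - μ • 1 := by
      simp [Algebra.algebraMap_eq_smul_one]
    rw [e] at h0
    have h0' : σ v - μ • v = 0 := by simpa using h0
    exact sub_eq_zero.mp h0'
  have h2 : ∀ k : ℕ, (σ ^ k) v = μ ^ k • v := by
    intro k
    induction k with
    | zero => simp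
    | succ k ih =>
      rw [pow_succ, Module.End.mul_apply, h1, map_smul, ih, smul_smul, pow_succ, mul_comm]
  have h3 := h2 n
  rw [hσ, Module.End.one_apply] at h3
  have h4 : (μ ^ n - 1) • v = 0 := by
    rw [sub_smul, one_smul, ← h3, sub_self]
  rcases smul_eq_zero.mp h4 with h | h
  · exact sub_eq_zero.mp h
  · exact absurd h hv0

end PartAC

section PartB

/-- divisibility by powers of `X - μ` over `ℂ`, `μ` a primitive `d`-th root of unity, is
divisibility by powers of the cyclotomic polynomial over `ℚ` -/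
lemma hbr_pow_dvd_iff {d : ℕ} (hd : 0 < d) {μ : ℂ} (hμ : IsPrimitiveRoot μ d) :
    ∀ (j : ℕ) (P : ℚ[X]), P ≠ 0 →
      ((X - C μ) ^ j ∣ P.map (algebraMap ℚ ℂ) ↔ cyclotomic d ℚ ^ j ∣ P) := by
  have hΦmap : (cyclotomic d ℚ).map (algebraMap ℚ ℂ) = cyclotomic d ℂ := map_cyclotomic d _
  have : NeZero (d : ℂ) := ⟨by exact_mod_cast hd.ne'⟩
  have hroot : (cyclotomic d ℂ).IsRoot μ := (isRoot_cyclotomic_iff).2 hμ
  have hdvd : (X - C μ) ∣ cyclotomic d ℂ := dvd_iff_isRoot.2 hroot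
  have hsep : (cyclotomic d ℂ).Separable := separable_cyclotomic d ℂ
  have hm1 : (cyclotomic d ℂ).rootMultiplicity μ = 1 :=
    le_antisymm (rootMultiplicity_le_one_of_separable hsep μ)
      ((rootMultiplicity_pos (cyclotomic_ne_zero d ℂ)).2 hroot)
  intro j
  induction j with
  | zero => intro P _; simp
  | succ j ih =>
    intro P hP
    have hPℂ : P.map (algebraMap ℚ ℂ) ≠ 0 :=
      (Polynomial.map_ne_zero_iff (algebraMap ℚ ℂ).injective).2 hP
    constructor
    · intro h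
      -- `μ` is a root of `P`
      have h1 : (X - C μ) ∣ P.map (algebraMap ℚ ℂ) :=
        dvd_trans (dvd_pow_self _ (Nat.succ_ne_zero j)) h
      have h2 : aeval μ P = 0 := by
        have := dvd_iff_isRoot.1 h1
        rwa [IsRoot.def, eval_map_algebraMap] at this
      have h3 : cyclotomic d ℚ ∣ P := by
        rw [cyclotomic_eq_minpoly_rat hμ hd]
        exact minpoly.dvd ℚ μ h2
      obtain ⟨P₁, rfl⟩ := h3
      have hP₁ : P₁ ≠ 0 := right_ne_zero_of_mul hP
      rw [Polynomial.map_mul, hΦmap] at h hPℂ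
      have h4 : j + 1 ≤ (cyclotomic d ℂ * P₁.map (algebraMap ℚ ℂ)).rootMultiplicity μ :=
        (le_rootMultiplicity_iff hPℂ).2 h
      rw [rootMultiplicity_mul hPℂ, hm1] at h4
      have h5 : j ≤ (P₁.map (algebraMap ℚ ℂ)).rootMultiplicity μ := by omega
      have h6 : (X - C μ) ^ j ∣ P₁.map (algebraMap ℚ ℂ) :=
        (le_rootMultiplicity_iff (right_ne_zero_of_mul hPℂ)).1 h5
      rw [pow_succ']
      exact mul_dvd_mul_left _ ((ih P₁ hP₁).1 h6)
    · intro h
      have h1 : (cyclotomic d ℚ ^ (j + 1)).map (algebraMap ℚ ℂ) ∣ P.map (algebraMap ℚ ℂ) :=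
        Polynomial.map_dvd _ h
      rw [Polynomial.map_pow, hΦmap] at h1
      exact dvd_trans (pow_dvd_pow_of_dvd hdvd _) h1

/-- the root multiplicity at a primitive `d`-th root of unity only depends on `d` -/
lemma hbr_rootMultiplicity_eq {d : ℕ} (hd : 0 < d) {μ ν : ℂ} (hμ : IsPrimitiveRoot μ d)
    (hν : IsPrimitiveRoot ν d) (P : ℚ[X]) (hP : P ≠ 0) :
    (P.map (algebraMap ℚ ℂ)).rootMultiplicity μ = (P.map (algebraMap ℚ ℂ)).rootMultiplicity ν := by
  have hPℂ : P.map (algebraMap ℚ ℂ) ≠ 0 :=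
    (Polynomial.map_ne_zero_iff (algebraMap ℚ ℂ).injective).2 hP
  have key : ∀ {a b : ℂ}, IsPrimitiveRoot a d → IsPrimitiveRoot b d →
      (P.map (algebraMap ℚ ℂ)).rootMultiplicity a ≤ (P.map (algebraMap ℚ ℂ)).rootMultiplicity b := by
    intro a b ha hb
    rw [le_rootMultiplicity_iff hPℂ, hbr_pow_dvd_iff hd hb _ P hP,
      ← hbr_pow_dvd_iff hd ha _ P hP, ← le_rootMultiplicity_iff hPℂ]
  exact le_antisymm (key hμ hν) (key hν hμ)

/-- the chosen primitive root -/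
noncomputable def hbrZeta (d : ℕ) : ℂ := Complex.exp (2 * Real.pi * Complex.I / d)

lemma hbrZeta_spec {d : ℕ} (hd : 0 < d) : IsPrimitiveRoot (hbrZeta d) d :=
  Complex.isPrimitiveRoot_exp d hd.ne'

/-- the sum of the root multiplicities over the `e`-th roots of unity -/
lemma hbr_sum_nthRoots (P : ℚ[X]) (hP : P ≠ 0) (e : ℕ) :
    ∑ μ ∈ nthRootsFinset e (1 : ℂ), (P.map (algebraMap ℚ ℂ)).rootMultiplicity μ =
      ∑ d ∈ Nat.divisors e,
        Nat.totient d * (P.map (algebraMap ℚ ℂ)).rootMultiplicity (hbrZeta d) := by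
  classical
  rw [IsPrimitiveRoot.nthRoots_one_eq_biUnion_primitiveRoots, Finset.sum_biUnion]
  · refine Finset.sum_congr rfl (fun d hd => ?_)
    have hd0 : 0 < d := Nat.pos_of_mem_divisors hd
    rw [← (hbrZeta_spec hd0).card_primitiveRoots, Finset.card_eq_sum_ones, Finset.sum_mul]
    refine Finset.sum_congr rfl (fun μ hμ => ?_)
    rw [one_mul]
    exact hbr_rootMultiplicity_eq hd0 ((mem_primitiveRoots hd0).1 hμ) (hbrZeta_spec hd0) P hP
  · intro a _ b _ hab
    exact IsPrimitiveRoot.disjoint hab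

/-- equal sums over all `e`-th roots of unity force equal multiplicities -/
lemma hbr_mult_eq (P Q : ℚ[X]) (hP : P ≠ 0) (hQ : Q ≠ 0)
    (h : ∀ e : ℕ, 0 < e →
      ∑ μ ∈ nthRootsFinset e (1 : ℂ), (P.map (algebraMap ℚ ℂ)).rootMultiplicity μ =
        ∑ μ ∈ nthRootsFinset e (1 : ℂ), (Q.map (algebraMap ℚ ℂ)).rootMultiplicity μ) :
    ∀ d : ℕ, 0 < d → (P.map (algebraMap ℚ ℂ)).rootMultiplicity (hbrZeta d) =
      (Q.map (algebraMap ℚ ℂ)).rootMultiplicity (hbrZeta d) := by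
  intro d
  induction d using Nat.strong_induction_on with
  | _ d ih =>
    intro hd
    have h1 := h d hd
    rw [hbr_sum_nthRoots P hP, hbr_sum_nthRoots Q hQ, ← Nat.cons_self_properDivisors hd.ne',
      Finset.sum_cons, Finset.sum_cons] at h1
    have h2 : ∑ x ∈ d.properDivisors,
        Nat.totient x * (P.map (algebraMap ℚ ℂ)).rootMultiplicity (hbrZeta x) =
        ∑ x ∈ d.properDivisors,
          Nat.totient x * (Q.map (algebraMap ℚ ℂ)).rootMultiplicity (hbrZeta x) := by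
      refine Finset.sum_congr rfl (fun x hx => ?_)
      rw [ih x (Nat.mem_properDivisors.1 hx).2
        (Nat.pos_of_dvd_of_pos (Nat.mem_properDivisors.1 hx).1 hd)]
    rw [h2] at h1
    have h3 := Nat.add_right_cancel h1
    exact Nat.eq_of_mul_eq_mul_left (Nat.totient_pos.2 hd) h3

/-- two monic rational polynomials whose complex roots are roots of unity, with the same number
of roots (with multiplicities) among the `e`-th roots of unity for all `e`, are equal -/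
theorem hbr_poly_eq (P Q : ℚ[X]) (hP : P.Monic) (hQ : Q.Monic)
    (hPr : ∀ μ : ℂ, (P.map (algebraMap ℚ ℂ)).rootMultiplicity μ ≠ 0 → ∃ n : ℕ, 0 < n ∧ μ ^ n = 1)
    (hQr : ∀ μ : ℂ, (Q.map (algebraMap ℚ ℂ)).rootMultiplicity μ ≠ 0 → ∃ n : ℕ, 0 < n ∧ μ ^ n = 1)
    (h : ∀ e : ℕ, 0 < e →
      ∑ μ ∈ nthRootsFinset e (1 : ℂ), (P.map (algebraMap ℚ ℂ)).rootMultiplicity μ =
        ∑ μ ∈ nthRootsFinset e (1 : ℂ), (Q.map (algebraMap ℚ ℂ)).rootMultiplicity μ) :
    P = Q := by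
  classical
  have hm := hbr_mult_eq P Q hP.ne_zero hQ.ne_zero h
  have hall : ∀ μ : ℂ, (P.map (algebraMap ℚ ℂ)).rootMultiplicity μ =
      (Q.map (algebraMap ℚ ℂ)).rootMultiplicity μ := by
    intro μ
    by_cases hμ : ∃ n : ℕ, 0 < n ∧ μ ^ n = 1
    · obtain ⟨n, hn, hμn⟩ := hμ
      have hfin : IsOfFinOrder μ := isOfFinOrder_iff_pow_eq_one.2 ⟨n, hn, hμn⟩
      have hd : 0 < orderOf μ := hfin.orderOf_pos
      have hprim : IsPrimitiveRoot μ (orderOf μ) := IsPrimitiveRoot.orderOf μ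
      rw [hbr_rootMultiplicity_eq hd hprim (hbrZeta_spec hd) P hP.ne_zero,
        hbr_rootMultiplicity_eq hd hprim (hbrZeta_spec hd) Q hQ.ne_zero]
      exact hm _ hd
    · have h1 : (P.map (algebraMap ℚ ℂ)).rootMultiplicity μ = 0 := by
        by_contra h0
        exact hμ (hPr μ h0)
      have h2 : (Q.map (algebraMap ℚ ℂ)).rootMultiplicity μ = 0 := by
        by_contra h0
        exact hμ (hQr μ h0)
      rw [h1, h2]
  have hroots : (P.map (algebraMap ℚ ℂ)).roots = (Q.map (algebraMap ℚ ℂ)).roots := by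
    ext μ
    rw [count_roots, count_roots, hall μ]
  have hPm : (P.map (algebraMap ℚ ℂ)).Monic := hP.map _
  have hQm : (Q.map (algebraMap ℚ ℂ)).Monic := hQ.map _
  have h1 : P.map (algebraMap ℚ ℂ) = Q.map (algebraMap ℚ ℂ) := by
    rw [(IsAlgClosed.splits (P.map (algebraMap ℚ ℂ))).eq_prod_roots_of_monic hPm,
      (IsAlgClosed.splits (Q.map (algebraMap ℚ ℂ))).eq_prod_roots_of_monic hQm, hroots]
  exact Polynomial.map_injective _ (algebraMap ℚ ℂ).injective h1

end PartB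

section PartC

attribute [-instance] AddCommGroup.toIntModule

/-- kernels and flat base change: ranks -/
lemma hbr_finrank_ker_baseChange {M : Type*} [AddCommGroup M] [Module ℤ M] [Module.Free ℤ M]
    [Module.Finite ℤ M] (h : M →ₗ[ℤ] M) :
    finrank ℂ (LinearMap.ker (h.baseChange ℂ)) = finrank ℤ (LinearMap.ker h) := by
  have h1 : LinearMap.ker (h.baseChange ℂ) =
      LinearMap.range (AlgebraTensorModule.lTensor ℂ ℂ (LinearMap.ker h).subtype) :=
    Module.Flat.ker_lTensor_eq ℂ ℂ h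
  have hinj : Function.Injective (AlgebraTensorModule.lTensor ℂ ℂ (LinearMap.ker h).subtype) :=
    Module.Flat.lTensor_preserves_injective_linearMap (M := ℂ) (LinearMap.ker h).subtype
      (Submodule.injective_subtype _)
  rw [h1, LinearMap.finrank_range_of_inj hinj, Module.finrank_baseChange]

variable {Γ : Type} [Group Γ]

/-- a lattice is free of finite rank for the module structure `X.hV2` -/
lemma hbr_free_finite (X : Rep.{0} ℤ Γ) (hX : IsLat X) :
    @Module.Free ℤ X.V _ _ X.hV2 ∧ @Module.Finite ℤ X.V _ _ X.hV2 := by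
  obtain ⟨n, ⟨e⟩⟩ := hX
  let e' : X.V ≃ₗ[ℤ] (Fin n → ℤ) := e.toIntLinearEquiv
  exact ⟨Module.Free.of_equiv e'.symm, Module.Finite.equiv e'.symm⟩

/-- membership in the fixed subgroup of a cyclic subgroup -/
lemma hbr_mem_fixedSub (X : Rep.{0} ℤ Γ) (h : Γ) (x : X.V) :
    x ∈ fixedSub X (Subgroup.zpowers h) ↔ X.ρ h x = x := by
  constructor
  · intro hx
    exact hx h (Subgroup.mem_zpowers h)
  · intro hx k hk
    let S : Subgroup Γ :=
      { carrier := {γ | X.ρ γ x = x}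
        one_mem' := by simp
        mul_mem' := fun {a b} ha hb => by
          show X.ρ (a * b) x = x
          rw [map_mul, Module.End.mul_apply, hb, ha]
        inv_mem' := fun {a} ha => by
          show X.ρ a⁻¹ x = x
          have h1 : X.ρ a⁻¹ (X.ρ a x) = x := by
            rw [← Module.End.mul_apply, ← map_mul, inv_mul_cancel, map_one, Module.End.one_apply]
          rw [ha] at h1
          exact h1 }
    have hle : Subgroup.zpowers h ≤ S := (Subgroup.zpowers_le).2 hx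
    exact hle hk

/-- the rank of the fixed subgroup of `⟨g ^ e⟩` is the rank of the kernel of `ρ(g)^e - 1` -/
lemma hbr_finrank_fixedSub (X : Rep.{0} ℤ Γ) (g : Γ) (e : ℕ) :
    @Module.finrank ℤ (fixedSub X (Subgroup.zpowers (g ^ e))) _ _ (AddCommGroup.toIntModule _) =
      finrank ℤ (LinearMap.ker ((X.ρ g) ^ e - 1)) := by
  have hiff : ∀ x : X.V, x ∈ fixedSub X (Subgroup.zpowers (g ^ e)) ↔
      x ∈ LinearMap.ker ((X.ρ g) ^ e - 1) := by
    intro x
    rw [hbr_mem_fixedSub, LinearMap.mem_ker, LinearMap.sub_apply, Module.End.one_apply,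
      sub_eq_zero, map_pow]
  let E : (fixedSub X (Subgroup.zpowers (g ^ e))) ≃+ (LinearMap.ker ((X.ρ g) ^ e - 1)) :=
    { toFun := fun x => ⟨x.1, (hiff x.1).1 x.2⟩
      invFun := fun x => ⟨x.1, (hiff x.1).2 x.2⟩
      left_inv := fun x => rfl
      right_inv := fun x => rfl
      map_add' := fun x y => rfl }
  letI : Module ℤ (fixedSub X (Subgroup.zpowers (g ^ e))) := AddCommGroup.toIntModule _
  exact LinearEquiv.finrank_eq E.toIntLinearEquiv

end PartC

section Main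

attribute [-instance] AddCommGroup.toIntModule

variable {Γ : Type} [Group Γ] [Finite Γ]

/-- the three properties of the characteristic polynomial of `g` on a lattice `X` -/
lemma hbr_main (X : Rep.{0} ℤ Γ) (hX : IsLat X) (g : Γ) :
    (latCharpoly X g).Monic ∧
    (∀ μ : ℂ, (((latCharpoly X g).map (Int.castRingHom ℚ)).map
        (algebraMap ℚ ℂ)).rootMultiplicity μ ≠ 0 → ∃ n : ℕ, 0 < n ∧ μ ^ n = 1) ∧
    ∀ e : ℕ, 0 < e →
      ∑ μ ∈ nthRootsFinset e (1 : ℂ), (((latCharpoly X g).map (Int.castRingHom ℚ)).map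
        (algebraMap ℚ ℂ)).rootMultiplicity μ =
      @Module.finrank ℤ (fixedSub X (Subgroup.zpowers (g ^ e))) _ _
        (AddCommGroup.toIntModule _) := by
  obtain ⟨hfree, hfin⟩ := hbr_free_finite X hX
  haveI := hfree
  haveI := hfin
  have hc : latCharpoly X g = LinearMap.charpoly (X.ρ g) := by
    unfold latCharpoly
    exact dif_pos ⟨hfree, hfin⟩
  have hn : 0 < orderOf g := orderOf_pos g
  have hρ : (X.ρ g) ^ orderOf g = 1 := by
    rw [← map_pow, pow_orderOf_eq_one, map_one]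
  have hσ : ((X.ρ g).baseChange ℂ) ^ orderOf g = 1 := by
    rw [← LinearMap.baseChange_pow, hρ, LinearMap.baseChange_one]
  have hχ : LinearMap.charpoly ((X.ρ g).baseChange ℂ) =
      ((latCharpoly X g).map (Int.castRingHom ℚ)).map (algebraMap ℚ ℂ) := by
    rw [LinearMap.charpoly_baseChange, hc, Polynomial.map_map]
    congr 1
  refine ⟨?_, ?_, ?_⟩
  · rw [hc]
    exact LinearMap.charpoly_monic _
  · intro μ hμ
    rw [← hχ] at hμ
    exact ⟨orderOf g, hn, hbr_root_pow _ _ hn hσ μ hμ⟩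
  · intro e he
    rw [← hχ, ← hbr_finrank_ker_pow _ _ hn hσ e he, hbr_finrank_fixedSub X g e,
      ← hbr_finrank_ker_baseChange]
    rw [LinearMap.baseChange_sub, LinearMap.baseChange_pow, LinearMap.baseChange_one]

/-- **H-rat**: `StmtHerbRat`. -/
theorem stmtHerbRat : StmtHerbRat := by
  intro Γ _ _ X Y hX hY hrank g
  obtain ⟨hXm, hXr, hXs⟩ := hbr_main X hX g
  obtain ⟨hYm, hYr, hYs⟩ := hbr_main Y hY g
  have h := hbr_poly_eq _ _ (hXm.map (Int.castRingHom ℚ)) (hYm.map (Int.castRingHom ℚ)) hXr hYr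
    (fun e he => by
      rw [hXs e he, hYs e he]
      exact hrank (Subgroup.zpowers (g ^ e)) inferInstance)
  exact Polynomial.map_injective (Int.castRingHom ℚ) Int.cast_injective h

end Main

end Fermat.Agent.TW.E


end ZBTW_051_19

/-! ### bundled: `Fermat.Agent.TW.E.HerbPerm` -/
section ZBTW_051_20
/-
TW-E / E-herb / H-perm (helper32): the permutation lattice `ℤ[S]`.  Its reduction modulo `p` is
`𝔽_p[S]` (`hbpRed`), it has no `p`-torsion (`hbp_torsionFree`), and the rank of its `H`-fixed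
module is the number of `H`-orbits on `S` (`hbp_finrank`, through `hbpEquiv`: the fixed vectors are
the functions on the orbit space).

Main result: `stmtHerbPerm : StmtHerbPerm` (statement in `TW/E/HerbPlan.lean`).
-/

set_option autoImplicit false
set_option linter.style.haveILetI false
set_option linter.unusedSectionVars false
set_option linter.unusedVariables false

namespace Fermat.Agent.TW.E

open CategoryTheory

section

variable {Γ : Type} [Group Γ] {S : Type} [MulAction Γ S]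

/-- the coefficients of a translate -/
lemma hbp_coeff_smul (k : Type) [Semiring k] (γ : Γ) (x : MonoidAlgebra k S) (s : S) :
    (Representation.ofMulAction k Γ S γ x).coeff (γ • s) = x.coeff s := by
  rw [Representation.ofMulAction_def]
  simp only [LinearMap.coe_comp, LinearEquiv.coe_coe, Function.comp_apply]
  change (Finsupp.mapDomain (γ • ·) x.coeff) (γ • s) = x.coeff s
  exact Finsupp.mapDomain_apply (MulAction.injective γ) _ _

/-- the coefficients of a translate, second form -/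
lemma hbp_coeff_smul' (k : Type) [Semiring k] (γ : Γ) (x : MonoidAlgebra k S) (s : S) :
    (Representation.ofMulAction k Γ S γ x).coeff s = x.coeff (γ⁻¹ • s) := by
  conv_lhs => rw [← smul_inv_smul γ s]
  exact hbp_coeff_smul k γ x _

/-- reduction of the coefficients modulo `p` -/
noncomputable def hbpRed (p : ℕ) (S : Type) : MonoidAlgebra ℤ S →+ MonoidAlgebra (ZMod p) S :=
  (MonoidAlgebra.coeffAddEquiv (R := ZMod p) (M := S)).symm.toAddMonoidHom.comp
    ((Finsupp.mapRange.addMonoidHom (Int.castAddHom (ZMod p))).comp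
      (MonoidAlgebra.coeffAddEquiv (R := ℤ) (M := S)).toAddMonoidHom)

lemma hbpRed_coeff (p : ℕ) (x : MonoidAlgebra ℤ S) (s : S) :
    (hbpRed p S x).coeff s = ((x.coeff s : ℤ) : ZMod p) := rfl

lemma hbp_ext {k : Type} [Semiring k] {x y : MonoidAlgebra k S}
    (h : ∀ s, x.coeff s = y.coeff s) : x = y :=
  MonoidAlgebra.coeff_injective (Finsupp.ext h)

lemma hbp_nsmul_coeff {k : Type} [Semiring k] (n : ℕ) (x : MonoidAlgebra k S) (s : S) :
    (n • x).coeff s = n • x.coeff s := rfl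

variable {p : ℕ} [hp : Fact p.Prime]

lemma hbpRed_surjective : Function.Surjective (hbpRed p S) := by
  intro y
  refine ⟨MonoidAlgebra.ofCoeff (Finsupp.mapRange (fun c : ZMod p => (c.val : ℤ)) (by simp)
    y.coeff), hbp_ext (fun s => ?_)⟩
  rw [hbpRed_coeff]
  simp

lemma hbpRed_equiv (γ : Γ) (x : MonoidAlgebra ℤ S) :
    hbpRed p S (Representation.ofMulAction ℤ Γ S γ x) =
      Representation.ofMulAction (ZMod p) Γ S γ (hbpRed p S x) := by
  refine hbp_ext (fun s => ?_)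
  rw [hbpRed_coeff, hbp_coeff_smul', hbp_coeff_smul', hbpRed_coeff]

lemma hbpRed_ker (x : MonoidAlgebra ℤ S) : hbpRed p S x = 0 ↔ ∃ y, x = p • y := by
  constructor
  · intro h
    have h1 : ∀ s, (p : ℤ) ∣ x.coeff s := by
      intro s
      rw [← ZMod.intCast_zmod_eq_zero_iff_dvd, ← hbpRed_coeff, h]
      rfl
    refine ⟨MonoidAlgebra.ofCoeff (Finsupp.mapRange (fun c : ℤ => c / p) (by simp) x.coeff),
      hbp_ext (fun s => ?_)⟩
    rw [hbp_nsmul_coeff, nsmul_eq_mul]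
    change x.coeff s = (p : ℤ) * (x.coeff s / p)
    rw [Int.mul_ediv_cancel' (h1 s)]
  · rintro ⟨y, rfl⟩
    refine hbp_ext (fun s => ?_)
    rw [hbpRed_coeff, hbp_nsmul_coeff, nsmul_eq_mul]
    simp

lemma hbp_torsionFree (x : MonoidAlgebra ℤ S) (h : p • x = 0) : x = 0 := by
  refine hbp_ext (fun s => ?_)
  have h1 : (p • x).coeff s = 0 := by rw [h]; rfl
  rw [hbp_nsmul_coeff, nsmul_eq_mul] at h1
  rcases mul_eq_zero.1 h1 with h2 | h2
  · exact absurd (by exact_mod_cast h2) hp.out.ne_zero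
  · exact h2

variable [Finite S]

/-- fixed vectors have coefficients constant on orbits -/
lemma hbp_fixed_coeff (H : Subgroup Γ) (x : MonoidAlgebra ℤ S)
    (hx : x ∈ fixedSub (Rep.ofMulAction ℤ Γ S) H) (h : Γ) (hh : h ∈ H) (s : S) :
    x.coeff (h • s) = x.coeff s := by
  have h1 : Representation.ofMulAction ℤ Γ S h x = x := hx h hh
  conv_lhs => rw [← h1]
  exact hbp_coeff_smul ℤ h x s

/-- functions constant on orbits give fixed vectors -/
lemma hbp_fixed_of_const (H : Subgroup Γ) (c : S → ℤ)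
    (hc : ∀ h ∈ H, ∀ s, c (h • s) = c s) :
    (MonoidAlgebra.ofCoeff (Finsupp.equivFunOnFinite.symm c) : MonoidAlgebra ℤ S) ∈
      fixedSub (Rep.ofMulAction ℤ Γ S) H := by
  intro h hh
  refine hbp_ext (fun s => ?_)
  change (Representation.ofMulAction ℤ Γ S h _).coeff s = _
  rw [hbp_coeff_smul']
  change c (h⁻¹ • s) = c s
  exact hc h⁻¹ (H.inv_mem hh) s

/-- the fixed vectors are the functions on the orbit space -/
noncomputable def hbpEquiv (H : Subgroup Γ) :
    fixedSub (Rep.ofMulAction ℤ Γ S) H ≃+ (MulAction.orbitRel.Quotient H S → ℤ) where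
  toFun x := fun q => Quotient.liftOn' q (fun s => (x.1 : MonoidAlgebra ℤ S).coeff s)
    (fun s t hst => by
      obtain ⟨h, rfl⟩ := hst
      exact hbp_fixed_coeff H x.1 x.2 h.1 h.2 t)
  invFun φ := ⟨MonoidAlgebra.ofCoeff (Finsupp.equivFunOnFinite.symm
      (fun s => φ (Quotient.mk'' s))),
    hbp_fixed_of_const H _ (fun h hh s => by
      congr 1
      exact Quotient.sound' ⟨⟨h, hh⟩, rfl⟩)⟩
  left_inv x := by
    apply Subtype.ext
    exact hbp_ext (fun s => rfl)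
  right_inv φ := by
    funext q
    induction q using Quotient.inductionOn' with
    | h s => rfl
  map_add' x y := by
    funext q
    induction q using Quotient.inductionOn' with
    | h s => rfl

/-- the rank of the fixed vectors is the number of orbits -/
lemma hbp_finrank (H : Subgroup Γ) :
    Module.finrank ℤ (fixedSub (Rep.ofMulAction ℤ Γ S) H) =
      Nat.card (MulAction.orbitRel.Quotient H S) := by
  haveI : Finite (MulAction.orbitRel.Quotient H S) := Quotient.finite _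
  haveI := Fintype.ofFinite (MulAction.orbitRel.Quotient H S)
  rw [LinearEquiv.finrank_eq (hbpEquiv (S := S) H).toIntLinearEquiv,
    Module.finrank_fintype_fun_eq_card, Nat.card_eq_fintype_card]

end

/-- **H-perm.** -/
theorem stmtHerbPerm : StmtHerbPerm := by
  intro p _ Γ _ S _ _
  refine ⟨⟨hbpRed p S, hbpRed_surjective, fun g x => hbpRed_equiv g x, fun x => hbpRed_ker x⟩,
    fun T hT => ?_, fun H => hbp_finrank H⟩
  obtain ⟨ι, hιi, -, hιm⟩ := hT
  refine ⟨fun a b => hιi ?_⟩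
  rw [hbp_torsionFree (p := p) (ι a) ((hιm _).2 ⟨a, rfl⟩),
    hbp_torsionFree (p := p) (ι b) ((hιm _).2 ⟨b, rfl⟩)]

end Fermat.Agent.TW.E


end ZBTW_051_20

/-! ### bundled: `Fermat.Agent.TW.E.LinkAdd` -/
section ZBTW_051_21
/-
TW-E / E-cyc, piece L-add (helper88): `ψ_N = dim Hom_C(N, -)` is an additive function on
`Rep (ZMod p) Γ` when `p ∤ |C|` (left exact always; right exact by averaging a linear lift).

`stmtLinkAdd : StmtLinkAdd`.
-/

set_option autoImplicit false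

noncomputable section

namespace Fermat.Agent.TW.E

open CategoryTheory Module

variable {p : ℕ} {Γ : Type} [Group Γ] (C : Subgroup Γ) (N : Rep.{0} (ZMod p) C)

/-- post-composition with a morphism, `Hom_C(N, V) → Hom_C(N, W)` -/
def ladPost {V W : Rep.{0} (ZMod p) Γ} (f : V ⟶ W) :
    ↥(homC C N V) →ₗ[ZMod p] ↥(homC C N W) where
  toFun Λ := ⟨f.hom.toLinearMap ∘ₗ Λ.1, fun c n => by
    show f.hom (Λ.1 (N.ρ c n)) = W.ρ (c : Γ) (f.hom (Λ.1 n))
    rw [Λ.2 c n, Rep.hom_comm_apply]⟩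
  map_add' Λ Λ' := by
    apply Subtype.ext
    apply LinearMap.ext
    intro n
    show f.hom (Λ.1 n + Λ'.1 n) = f.hom (Λ.1 n) + f.hom (Λ'.1 n)
    rw [map_add]
  map_smul' r Λ := by
    apply Subtype.ext
    apply LinearMap.ext
    intro n
    show f.hom (r • Λ.1 n) = r • f.hom (Λ.1 n)
    rw [map_smul]

lemma ladPost_apply {V W : Rep.{0} (ZMod p) Γ} (f : V ⟶ W) (Λ : ↥(homC C N V)) (n : N.V) :
    (ladPost C N f Λ).1 n = f.hom (Λ.1 n) := rfl

/-- `Hom_C(N, -)` of an isomorphism -/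
def ladIso {V W : Rep.{0} (ZMod p) Γ} (e : V ≅ W) :
    ↥(homC C N V) ≃ₗ[ZMod p] ↥(homC C N W) :=
  LinearEquiv.ofLinearMap (ladPost C N e.hom) (ladPost C N e.inv)
    (by
      apply LinearMap.ext
      intro Λ
      apply Subtype.ext
      apply LinearMap.ext
      intro n
      show e.hom.hom (e.inv.hom (Λ.1 n)) = Λ.1 n
      have h := congrArg (fun f : W ⟶ W => f.hom (Λ.1 n)) e.inv_hom_id
      exact h)
    (by
      apply LinearMap.ext
      intro Λ
      apply Subtype.ext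
      apply LinearMap.ext
      intro n
      show e.inv.hom (e.hom.hom (Λ.1 n)) = Λ.1 n
      have h := congrArg (fun f : V ⟶ V => f.hom (Λ.1 n)) e.hom_inv_id
      exact h)

/-- the kernel of `g_*` is the image of `f_*` -/
lemma lad_exact {V' V V'' : Rep.{0} (ZMod p) Γ} (f : V' ⟶ V) (g : V ⟶ V'')
    (hf : Function.Injective f.hom) (hfg : Function.Exact f.hom g.hom) :
    LinearMap.ker (ladPost C N g) = LinearMap.range (ladPost C N f) := by
  ext Λ
  rw [LinearMap.mem_ker, LinearMap.mem_range]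
  constructor
  · intro h
    have h0 : ∀ n, g.hom (Λ.1 n) = 0 := fun n => by
      have := congrArg (fun Λ' : ↥(homC C N V'') => Λ'.1 n) h
      exact this
    -- lift pointwise
    have hex : ∀ n, ∃ x : V'.V, f.hom x = Λ.1 n := fun n => (hfg (Λ.1 n)).1 (h0 n)
    choose s hs using hex
    have hadd : ∀ a b, s (a + b) = s a + s b := fun a b => by
      apply hf
      rw [map_add, hs, hs, hs, map_add]
    have hsmul : ∀ (r : ZMod p) a, s (r • a) = r • s a := fun r a => by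
      apply hf
      rw [map_smul, hs, hs, map_smul]
    refine ⟨⟨{ toFun := s, map_add' := hadd, map_smul' := hsmul }, fun c n => ?_⟩, ?_⟩
    · show s (N.ρ c n) = V'.ρ (c : Γ) (s n)
      apply hf
      rw [hs, Rep.hom_comm_apply, hs]
      exact Λ.2 c n
    · apply Subtype.ext
      apply LinearMap.ext
      intro n
      exact hs n
  · rintro ⟨Λ', rfl⟩
    apply Subtype.ext
    apply LinearMap.ext
    intro n
    show g.hom (f.hom (Λ'.1 n)) = 0
    exact (hfg _).2 ⟨_, rfl⟩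

lemma lad_injective {V' V : Rep.{0} (ZMod p) Γ} (f : V' ⟶ V)
    (hf : Function.Injective f.hom) : Function.Injective (ladPost C N f) := by
  intro Λ Λ' h
  apply Subtype.ext
  apply LinearMap.ext
  intro n
  apply hf
  have := congrArg (fun Λ'' : ↥(homC C N V) => Λ''.1 n) h
  exact this

/-- averaging: `g_*` is surjective when `|C|` is invertible -/
lemma lad_surjective [Fact p.Prime] [Finite C] (hC : (Nat.card C).Coprime p)
    {V V'' : Rep.{0} (ZMod p) Γ} (g : V ⟶ V'')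
    (hg : Function.Surjective g.hom) : Function.Surjective (ladPost C N g) := by
  classical
  let _ : Fintype C := Fintype.ofFinite _
  intro Λ
  obtain ⟨s, hs⟩ := LinearMap.exists_rightInverse_of_surjective g.hom.toLinearMap
    (LinearMap.range_eq_top.2 hg)
  have hs' : ∀ v, g.hom (s v) = v := fun v => LinearMap.congr_fun hs v
  have hcard : ((Nat.card C : ℕ) : ZMod p) ≠ 0 := by
    intro h0
    rw [ZMod.natCast_eq_zero_iff] at h0
    have hp : p.Prime := Fact.out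
    have h1 : p ∣ Nat.gcd (Nat.card C) p := Nat.dvd_gcd h0 dvd_rfl
    rw [hC] at h1
    exact hp.one_lt.ne' (Nat.dvd_one.1 h1)
  -- the averaged lift
  let A : N.V →ₗ[ZMod p] V.V :=
    ((Nat.card C : ℕ) : ZMod p)⁻¹ •
      ∑ c : C, (V.ρ (c : Γ)) ∘ₗ s ∘ₗ Λ.1 ∘ₗ (N.ρ c⁻¹)
  have hA : ∀ n, A n = ((Nat.card C : ℕ) : ZMod p)⁻¹ •
      ∑ c : C, V.ρ (c : Γ) (s (Λ.1 (N.ρ c⁻¹ n))) := fun n => by
    show (((Nat.card C : ℕ) : ZMod p)⁻¹ • ∑ c : C, (V.ρ (c : Γ)) ∘ₗ s ∘ₗ Λ.1 ∘ₗ (N.ρ c⁻¹)) n = _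
    rw [LinearMap.smul_apply, LinearMap.sum_apply]
    rfl
  refine ⟨⟨A, fun c₀ n => ?_⟩, ?_⟩
  · rw [hA, hA, map_smul, map_sum]
    congr 1
    -- reindex `c ↦ c₀ * c`
    rw [← Equiv.sum_comp (Equiv.mulLeft c₀)
      (fun c : C => V.ρ (c : Γ) (s (Λ.1 (N.ρ c⁻¹ (N.ρ c₀ n)))))]
    refine Finset.sum_congr rfl fun c _ => ?_
    show V.ρ ((c₀ * c : C) : Γ) (s (Λ.1 (N.ρ (c₀ * c)⁻¹ (N.ρ c₀ n)))) =
      V.ρ (c₀ : Γ) (V.ρ (c : Γ) (s (Λ.1 (N.ρ c⁻¹ n))))
    have e1 : N.ρ (c₀ * c)⁻¹ (N.ρ c₀ n) = N.ρ c⁻¹ n := by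
      rw [← Module.End.mul_apply, ← map_mul]
      congr 2
      group
    rw [e1, Subgroup.coe_mul, map_mul]
    rfl
  · apply Subtype.ext
    apply LinearMap.ext
    intro n
    show g.hom (A n) = Λ.1 n
    rw [hA, map_smul, map_sum]
    have h1 : ∀ c : C, g.hom (V.ρ (c : Γ) (s (Λ.1 (N.ρ c⁻¹ n)))) = Λ.1 n := fun c => by
      rw [Rep.hom_comm_apply, hs', ← Λ.2 c, ← Module.End.mul_apply, ← map_mul, mul_inv_cancel,
        map_one]
      rfl
    rw [Finset.sum_congr rfl fun c _ => h1 c, Finset.sum_const, Finset.card_univ,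
      ← Nat.card_eq_fintype_card, ← Nat.cast_smul_eq_nsmul (ZMod p), smul_smul,
      inv_mul_cancel₀ hcard, one_smul]

/-- **L-add** -/
theorem stmtLinkAdd : StmtLinkAdd := by
  intro p _ Γ _ _ C hC N hN
  refine ⟨fun V W ⟨e⟩ => ?_, fun V' V V'' f g hV hf hg hfg => ?_⟩
  · show (finrank (ZMod p) ↥(homC C N V) : ℤ) = finrank (ZMod p) ↥(homC C N W)
    rw [(ladIso C N e).finrank_eq]
  · show (finrank (ZMod p) ↥(homC C N V) : ℤ) =
      finrank (ZMod p) ↥(homC C N V') + finrank (ZMod p) ↥(homC C N V'')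
    have : Module.Finite (ZMod p) N.V := hN
    have : Module.Finite (ZMod p) V.V := hV
    have h1 := LinearMap.finrank_range_add_finrank_ker (ladPost C N g)
    have h2 : LinearMap.range (ladPost C N g) = ⊤ :=
      LinearMap.range_eq_top.2 (lad_surjective C N hC g hg)
    have h3 : finrank (ZMod p) ↥(LinearMap.range (ladPost C N g)) =
        finrank (ZMod p) ↥(homC C N V'') := by
      rw [h2, finrank_top]
    have h4 : finrank (ZMod p) ↥(LinearMap.ker (ladPost C N g)) =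
        finrank (ZMod p) ↥(homC C N V') := by
      rw [lad_exact C N f g hf hfg]
      exact LinearMap.finrank_range_of_inj (lad_injective C N f hf)
    rw [h3, h4] at h1
    rw [← h1]
    push_cast
    ring

end Fermat.Agent.TW.E

end


end ZBTW_051_21

/-! ### bundled: `Fermat.Agent.TW.E.LinkArch` -/
section ZBTW_051_22
/-
TW-E / E-cyc, piece L-arch (helper88): for `c̄ ∈ Γ` with `c̄² = 1`, `χ̄(c̄) = -1` (`p` odd),
`B = coind_C^Γ M` and `N = M.dualTwist χ̄`:
  `dim B = dim B^{c̄} + dim Hom_C(N, 𝔽_p[Γ ⧸ ⟨c̄⟩])`.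

Both `B^{c̄ = -1}` and `Hom_C(N, 𝔽_p[Γ/H])` are identified with
`X = {F : Γ/H → M | F(c x) = χ(c)⁻¹ c F(x)}`:  `f(γ) = χ(γ) F(γH)`,  `Λ(ν)(x) = ν(F x)`.

`stmtLinkArch : StmtLinkArch`.
-/

set_option autoImplicit false

noncomputable section

namespace Fermat.Agent.TW.E

open CategoryTheory Module

section Inv

variable {k V : Type} [Field k] [AddCommGroup V] [Module k V]

/-- for an involution `T` in characteristic `≠ 2`, `range (T - 1) = ker (T + 1)` -/
lemma lar_range_eq_ker (T : V →ₗ[k] V) (hT : ∀ v, T (T v) = v) (h2 : (2 : k) ≠ 0) :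
    LinearMap.range (T - 1) = LinearMap.ker (T + 1) := by
  ext v
  rw [LinearMap.mem_range, LinearMap.mem_ker]
  constructor
  · rintro ⟨w, rfl⟩
    simp only [LinearMap.sub_apply, LinearMap.add_apply, Module.End.one_apply, map_sub, hT]
    abel
  · intro h
    have h1 : T v = -v := by
      have : T v + v = 0 := h
      exact eq_neg_of_add_eq_zero_left this
    refine ⟨(-(2 : k)⁻¹) • v, ?_⟩
    have e : (T - 1) ((-(2 : k)⁻¹) • v) = ((2 : k) * (2 : k)⁻¹) • v := by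
      rw [LinearMap.sub_apply, Module.End.one_apply, map_smul, h1, mul_smul, two_smul]
      simp only [neg_smul, smul_neg, neg_neg]
      abel
    rw [e, mul_inv_cancel₀ h2, one_smul]

/-- rank–nullity for an involution -/
lemma lar_finrank_inv [FiniteDimensional k V] (T : V →ₗ[k] V) (hT : ∀ v, T (T v) = v)
    (h2 : (2 : k) ≠ 0) :
    finrank k V = finrank k ↥(LinearMap.ker (T - 1)) + finrank k ↥(LinearMap.ker (T + 1)) := by
  have h := LinearMap.finrank_range_add_finrank_ker (T - 1)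
  rw [lar_range_eq_ker T hT h2] at h
  omega

end Inv

section Zp

variable {Γ : Type} [Group Γ]

/-- the subgroup generated by an involution is `{1, c}` -/
lemma lar_mem_zpowers {c : Γ} (hc : c * c = 1) {h : Γ} (hh : h ∈ Subgroup.zpowers c) :
    h = 1 ∨ h = c := by
  obtain ⟨n, rfl⟩ := Subgroup.mem_zpowers_iff.1 hh
  have h2 : c ^ (2 : ℤ) = 1 := by
    rw [zpow_two, hc]
  have e : c ^ n = c ^ (n % 2) := by
    conv_lhs => rw [← Int.emod_add_mul_ediv n 2]
    rw [zpow_add, zpow_mul, h2, one_zpow, mul_one]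
  rcases Int.emod_two_eq_zero_or_one n with h0 | h1
  · left
    rw [e, h0, zpow_zero]
  · right
    rw [e, h1, zpow_one]

end Zp

section Main

variable {p : ℕ} [Fact p.Prime] {Γ : Type} [Group Γ] (χ : Γ →* (ZMod p)ˣ) (c : Γ)
  (C : Subgroup Γ) (M : Rep.{0} (ZMod p) C)

/-- `X = {F : Γ/H → M | F(c' x) = χ(c')⁻¹ c' F(x)}` -/
def larX : Submodule (ZMod p) ((Γ ⧸ Subgroup.zpowers c) → M.V) where
  carrier := {F | ∀ (c' : C) (x : Γ ⧸ Subgroup.zpowers c),
    F ((c' : Γ) • x) = (((χ (c' : Γ))⁻¹ : (ZMod p)ˣ) : ZMod p) • M.ρ c' (F x)}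
  add_mem' := fun {F F'} hF hF' c' x => by
    show F ((c' : Γ) • x) + F' ((c' : Γ) • x) = _ • M.ρ c' (F x + F' x)
    rw [hF c' x, hF' c' x, map_add, smul_add]
  zero_mem' := fun c' x => by
    show (0 : M.V) = _ • M.ρ c' (0 : M.V)
    rw [map_zero, smul_zero]
  smul_mem' := fun r F hF c' x => by
    show r • F ((c' : Γ) • x) = _ • M.ρ c' (r • F x)
    rw [hF c' x, map_smul, smul_comm]

/-- `Φ₁ : X → B`, `F ↦ (γ ↦ χ(γ) F(γH))` -/
def larPhi1 : ↥(larX χ c C M) →ₗ[ZMod p] (Rep.coind C.subtype M).V where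
  toFun F := ⟨fun γ => (χ γ : ZMod p) • F.1 (γ : Γ ⧸ Subgroup.zpowers c), fun c' γ => by
    show (χ ((c' : Γ) * γ) : ZMod p) • F.1 (((c' : Γ) * γ : Γ) : Γ ⧸ Subgroup.zpowers c) =
      M.ρ c' ((χ γ : ZMod p) • F.1 (γ : Γ ⧸ Subgroup.zpowers c))
    have e : (((c' : Γ) * γ : Γ) : Γ ⧸ Subgroup.zpowers c) =
        (c' : Γ) • ((γ : Γ) : Γ ⧸ Subgroup.zpowers c) := rfl
    rw [e, F.2 c' _, map_smul, smul_smul]
    congr 1
    rw [map_mul, Units.val_mul, mul_comm ((χ (c' : Γ) : (ZMod p)ˣ) : ZMod p), mul_assoc,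
      ← Units.val_mul, mul_inv_cancel, Units.val_one, mul_one]⟩
  map_add' F F' := by
    apply Subtype.ext
    funext γ
    show (χ γ : ZMod p) • (F.1 _ + F'.1 _) = (χ γ : ZMod p) • F.1 _ + (χ γ : ZMod p) • F'.1 _
    rw [smul_add]
  map_smul' r F := by
    apply Subtype.ext
    funext γ
    show (χ γ : ZMod p) • (r • F.1 _) = r • ((χ γ : ZMod p) • F.1 _)
    rw [smul_comm]

lemma larPhi1_apply (F : ↥(larX χ c C M)) (γ : Γ) :
    (larPhi1 χ c C M F).1 γ = (χ γ : ZMod p) • F.1 (γ : Γ ⧸ Subgroup.zpowers c) := rfl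

lemma larPhi1_injective : Function.Injective (larPhi1 χ c C M) := by
  rw [injective_iff_map_eq_zero]
  intro F hF
  apply Subtype.ext
  funext x
  induction x using QuotientGroup.induction_on with
  | H γ =>
    have h1 : (larPhi1 χ c C M F).1 γ = 0 := by rw [hF]; rfl
    rw [larPhi1_apply] at h1
    have h2 := congrArg (fun m => (((χ γ)⁻¹ : (ZMod p)ˣ) : ZMod p) • m) h1
    simp only [smul_smul, smul_zero] at h2
    rw [← Units.val_mul, inv_mul_cancel, Units.val_one, one_smul] at h2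
    exact h2

lemma lar_coind_mem (f : (Rep.coind C.subtype M).V) (c' : C) (γ : Γ) :
    f.1 ((c' : Γ) * γ) = M.ρ c' (f.1 γ) := f.2 c' γ

/-- `range Φ₁ = ker (T + 1)` -/
lemma larPhi1_range (hc : c * c = 1) (hχ : χ c = -1) :
    LinearMap.range (larPhi1 χ c C M) =
      LinearMap.ker ((Rep.coind C.subtype M).ρ c + 1) := by
  have hχ' : ((χ c : (ZMod p)ˣ) : ZMod p) = -1 := by rw [hχ]; simp
  ext f
  rw [LinearMap.mem_range, LinearMap.mem_ker]
  constructor
  · rintro ⟨F, rfl⟩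
    apply Subtype.ext
    funext γ
    show (χ (γ * c) : ZMod p) • F.1 ((γ * c : Γ) : Γ ⧸ Subgroup.zpowers c) +
      (χ γ : ZMod p) • F.1 (γ : Γ ⧸ Subgroup.zpowers c) = 0
    have e : ((γ * c : Γ) : Γ ⧸ Subgroup.zpowers c) = (γ : Γ ⧸ Subgroup.zpowers c) :=
      QuotientGroup.mk_mul_of_mem γ (Subgroup.mem_zpowers c)
    rw [e, map_mul, Units.val_mul, hχ', mul_neg, mul_one, neg_smul, neg_add_cancel]
  · intro hf
    have hf' : ∀ γ, f.1 (γ * c) = -f.1 γ := fun γ => by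
      have h1 := congrArg (fun g : (Rep.coind C.subtype M).V => g.1 γ) hf
      have h2 : f.1 (γ * c) + f.1 γ = 0 := h1
      exact eq_neg_of_add_eq_zero_left h2
    -- the function `γ ↦ χ(γ)⁻¹ f(γ)` is right `H`-invariant
    have hinv : ∀ γ γ' : Γ, ((γ : Γ) : Γ ⧸ Subgroup.zpowers c) = (γ' : Γ ⧸ Subgroup.zpowers c) →
        (((χ γ)⁻¹ : (ZMod p)ˣ) : ZMod p) • f.1 γ = (((χ γ')⁻¹ : (ZMod p)ˣ) : ZMod p) • f.1 γ' := by
      intro γ γ' h
      have hm : γ⁻¹ * γ' ∈ Subgroup.zpowers c := QuotientGroup.eq.1 h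
      rcases lar_mem_zpowers hc hm with h1 | h1
      · have : γ' = γ := by
          rw [← mul_one γ, ← h1, mul_inv_cancel_left]
        rw [this]
      · have : γ' = γ * c := by
          rw [← h1, mul_inv_cancel_left]
        rw [this, hf', map_mul, mul_inv, hχ, smul_neg]
        have e1 : (((χ γ)⁻¹ * (-1 : (ZMod p)ˣ)⁻¹ : (ZMod p)ˣ) : ZMod p) =
            -(((χ γ)⁻¹ : (ZMod p)ˣ) : ZMod p) := by
          rw [inv_neg_one, Units.val_mul, Units.val_neg, Units.val_one, mul_neg, mul_one]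
        rw [e1, neg_smul, neg_neg]
    let F : (Γ ⧸ Subgroup.zpowers c) → M.V := fun x =>
      (((χ x.out)⁻¹ : (ZMod p)ˣ) : ZMod p) • f.1 x.out
    have hF : ∀ γ : Γ, F (γ : Γ ⧸ Subgroup.zpowers c) =
        (((χ γ)⁻¹ : (ZMod p)ˣ) : ZMod p) • f.1 γ := fun γ =>
      hinv _ _ (QuotientGroup.out_eq' _)
    have hFX : F ∈ larX χ c C M := by
      intro c' x
      induction x using QuotientGroup.induction_on with
      | H γ =>
        have e : (c' : Γ) • ((γ : Γ) : Γ ⧸ Subgroup.zpowers c) =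
            (((c' : Γ) * γ : Γ) : Γ ⧸ Subgroup.zpowers c) := rfl
        rw [e, hF, hF, lar_coind_mem, map_smul, smul_smul, map_mul, mul_inv, Units.val_mul]
    refine ⟨⟨F, hFX⟩, ?_⟩
    apply Subtype.ext
    funext γ
    rw [larPhi1_apply]
    show (χ γ : ZMod p) • F (γ : Γ ⧸ Subgroup.zpowers c) = f.1 γ
    rw [hF, smul_smul, ← Units.val_mul, mul_inv_cancel, Units.val_one, one_smul]

variable [Finite Γ]

/-- functions on `Γ/H` as elements of `𝔽_p[Γ/H]` -/
def larE : ((Γ ⧸ Subgroup.zpowers c) → ZMod p) ≃ₗ[ZMod p]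
    MonoidAlgebra (ZMod p) (Γ ⧸ Subgroup.zpowers c) :=
  (Finsupp.linearEquivFunOnFinite (ZMod p) (ZMod p) (Γ ⧸ Subgroup.zpowers c)).symm ≪≫ₗ
    (MonoidAlgebra.coeffLinearEquiv (ZMod p)).symm

lemma larE_coeff (φ : (Γ ⧸ Subgroup.zpowers c) → ZMod p) (x : Γ ⧸ Subgroup.zpowers c) :
    (larE (p := p) c φ).coeff x = φ x := rfl

/-- `Φ₂ : X → Hom(M^*, 𝔽_p[Γ/H])`, `Φ₂(F)(ν)(x) = ν(F x)` -/
def larPhi2 : ↥(larX χ c C M) →ₗ[ZMod p]
    (Module.Dual (ZMod p) M.V →ₗ[ZMod p] MonoidAlgebra (ZMod p) (Γ ⧸ Subgroup.zpowers c)) where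
  toFun F := (larE (p := p) c).toLinearMap ∘ₗ
    LinearMap.pi (fun x => Module.Dual.eval (ZMod p) M.V (F.1 x))
  map_add' F F' := by
    apply LinearMap.ext
    intro ν
    apply MonoidAlgebra.ext
    apply Finsupp.ext
    intro x
    show ν (F.1 x + F'.1 x) = ν (F.1 x) + ν (F'.1 x)
    rw [map_add]
  map_smul' r F := by
    apply LinearMap.ext
    intro ν
    apply MonoidAlgebra.ext
    apply Finsupp.ext
    intro x
    show ν (r • F.1 x) = r • ν (F.1 x)
    rw [map_smul]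

lemma larPhi2_coeff (F : ↥(larX χ c C M)) (ν : Module.Dual (ZMod p) M.V)
    (x : Γ ⧸ Subgroup.zpowers c) : (larPhi2 χ c C M F ν).coeff x = ν (F.1 x) := rfl

lemma larPhi2_injective : Function.Injective (larPhi2 χ c C M) := by
  rw [injective_iff_map_eq_zero]
  intro F hF
  apply Subtype.ext
  funext x
  show F.1 x = 0
  rw [← Module.forall_dual_apply_eq_zero_iff (ZMod p)]
  intro ν
  rw [← larPhi2_coeff, hF]
  rfl

/-- `range Φ₂ = Hom_C(N, 𝔽_p[Γ/H])` -/
lemma larPhi2_range [Module.Finite (ZMod p) M.V] :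
    LinearMap.range (larPhi2 χ c C M) =
      homC C (M.dualTwist (χ.comp C.subtype))
        (Rep.ofMulAction (ZMod p) Γ (Γ ⧸ Subgroup.zpowers c)) := by
  ext Λ
  rw [LinearMap.mem_range]
  constructor
  · rintro ⟨F, rfl⟩
    intro c' ν
    apply MonoidAlgebra.ext
    apply Finsupp.ext
    intro x
    have h1 : ((Rep.ofMulAction (ZMod p) Γ (Γ ⧸ Subgroup.zpowers c)).ρ (c' : Γ)
        (larPhi2 χ c C M F ν)).coeff x = (larPhi2 χ c C M F ν).coeff ((c' : Γ)⁻¹ • x) :=
      Representation.coeff_ofMulAction (c' : Γ) _ x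
    rw [h1, larPhi2_coeff, larPhi2_coeff]
    have h2 : (M.dualTwist (χ.comp C.subtype)).ρ c' ν =
        ((χ.comp C.subtype) c' : ZMod p) • (ν ∘ₗ M.ρ c'⁻¹) := Rep.dualTwist_ρ_apply M _ c' ν
    rw [h2]
    have h3 := F.2 c'⁻¹ x
    have e : ((c'⁻¹ : C) : Γ) = (c' : Γ)⁻¹ := rfl
    rw [e] at h3
    have e3 : ((χ ((c' : Γ)⁻¹))⁻¹ : (ZMod p)ˣ) = χ (c' : Γ) := by rw [map_inv, inv_inv]
    rw [h3, e3, map_smul]
    rfl
  · intro hΛ
    -- `F x` is the vector with `ν (F x) = (Λ ν).coeff x`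
    let coeffAt : (Γ ⧸ Subgroup.zpowers c) →
        MonoidAlgebra (ZMod p) (Γ ⧸ Subgroup.zpowers c) →ₗ[ZMod p] ZMod p := fun x =>
      (Finsupp.lapply x) ∘ₗ (MonoidAlgebra.coeffLinearEquiv (ZMod p)).toLinearMap
    have hcoeffAt : ∀ x y, coeffAt x y = y.coeff x := fun x y => rfl
    let F : (Γ ⧸ Subgroup.zpowers c) → M.V := fun x =>
      (Module.evalEquiv (ZMod p) M.V).symm ((coeffAt x) ∘ₗ Λ)
    have hF : ∀ (ν : Module.Dual (ZMod p) M.V) x, ν (F x) = (Λ ν).coeff x := fun ν x =>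
      Module.apply_evalEquiv_symm_apply (ZMod p) M.V ν _
    have hFX : F ∈ larX χ c C M := by
      intro c' x
      rw [← sub_eq_zero, ← Module.forall_dual_apply_eq_zero_iff (ZMod p)]
      intro ν
      rw [map_sub, sub_eq_zero, map_smul, hF]
      -- `c'⁻¹ ⋆ ν = χ(c')⁻¹ • (ν ∘ ρ(c'))`
      have h2 : (M.dualTwist (χ.comp C.subtype)).ρ c'⁻¹ ν =
          (((χ (c' : Γ))⁻¹ : (ZMod p)ˣ) : ZMod p) • (ν ∘ₗ M.ρ c') := by
        rw [Rep.dualTwist_ρ_apply, inv_inv, map_inv]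
        rfl
      have h3 := hΛ c'⁻¹ ν
      have h4 : (Λ ((M.dualTwist (χ.comp C.subtype)).ρ c'⁻¹ ν)).coeff x =
          (Λ ν).coeff ((c' : Γ) • x) := by
        rw [h3]
        have := Representation.coeff_ofMulAction (k := ZMod p) ((c'⁻¹ : C) : Γ) (Λ ν) x
        have e : (((c'⁻¹ : C) : Γ))⁻¹ = (c' : Γ) := inv_inv _
        rw [e] at this
        exact this
      have h5 : (Λ ((M.dualTwist (χ.comp C.subtype)).ρ c'⁻¹ ν)).coeff x =
          (((χ (c' : Γ))⁻¹ : (ZMod p)ˣ) : ZMod p) • ν (M.ρ c' (F x)) := by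
        rw [h2, map_smul]
        have h6 : (Λ (ν ∘ₗ M.ρ c')).coeff x = ν (M.ρ c' (F x)) := by
          rw [← hF]
          rfl
        rw [← h6]
        rfl
      rw [← h4, h5]
    refine ⟨⟨F, hFX⟩, ?_⟩
    apply LinearMap.ext
    intro ν
    apply MonoidAlgebra.ext
    apply Finsupp.ext
    intro x
    rw [larPhi2_coeff]
    exact hF ν x

end Main

/-- **L-arch** -/
theorem stmtLinkArch : StmtLinkArch := by
  intro p _ hp2 Γ _ _ χ c hc hχ C _hC M hM
  have : Module.Finite (ZMod p) M.V := hM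
  have hp : p.Prime := Fact.out
  have h2 : (2 : ZMod p) ≠ 0 := by
    intro h
    have h' : ((2 : ℕ) : ZMod p) = 0 := by exact_mod_cast h
    rw [ZMod.natCast_eq_zero_iff] at h'
    have := (Nat.prime_dvd_prime_iff_eq hp Nat.prime_two).1 h'
    exact hp2 this
  have hfin : Module.Finite (ZMod p) (Rep.coind C.subtype M).V := by
    show Module.Finite (ZMod p) ↥(Representation.coindV C.subtype M.ρ)
    infer_instance
  have hT : ∀ f, (Rep.coind C.subtype M).ρ c ((Rep.coind C.subtype M).ρ c f) = f := by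
    intro f
    rw [← Module.End.mul_apply, ← map_mul, hc, map_one]
    rfl
  have h1 := lar_finrank_inv ((Rep.coind C.subtype M).ρ c) hT h2
  have h3 : finrank (ZMod p) ↥(LinearMap.ker ((Rep.coind C.subtype M).ρ c + 1)) =
      finrank (ZMod p) ↥(larX χ c C M) := by
    rw [← larPhi1_range χ c C M hc hχ]
    exact LinearMap.finrank_range_of_inj (larPhi1_injective χ c C M)
  have h4 : finrank (ZMod p) ↥(homC C (M.dualTwist (χ.comp C.subtype))
      (Rep.ofMulAction (ZMod p) Γ (Γ ⧸ Subgroup.zpowers c))) =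
      finrank (ZMod p) ↥(larX χ c C M) := by
    rw [← larPhi2_range χ c C M]
    exact LinearMap.finrank_range_of_inj (larPhi2_injective χ c C M)
  show (finrank (ZMod p) (Rep.coind C.subtype M).V : ℤ) =
    finrank (ZMod p) ↥(LinearMap.ker ((Rep.coind C.subtype M).ρ c - 1)) +
      (finrank (ZMod p) ↥(homC C (M.dualTwist (χ.comp C.subtype))
        (Rep.ofMulAction (ZMod p) Γ (Γ ⧸ Subgroup.zpowers c))) : ℤ)
  rw [h4, ← h3, h1]
  push_cast
  ring

end Fermat.Agent.TW.E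

end


end ZBTW_051_22

/-! ### bundled: `Fermat.Agent.TW.E.BrC` -/
section ZBTW_051_23
/-
TW-E / E-cyc, piece **K-BrC** (helper55): `stmtBrC_of : F.StmtH2pDep → F.StmtH2pSeed → StmtBrC`.

`H²_lev(G, Hom_ℤ(ℤ[Γ], C))[p] ≅ 𝔽_p` with trivial action of `Γ = G ⧸ U`.
* it is cyclic (`StmtH2pDep`, TW-F block F-h2perm);
* it is non-zero: `x₀ := [π ∘ Y]`, `Y` the seed class of `StmtH2pSeed` (its trace `π Y(N_Γ)` is not a
  level coboundary of `C`);
* `Γ` acts trivially: `R_δ x₀ = n x₀`, and the evaluation at the norm element `N_Γ` is invariant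
  under right translations, so `n [π Y(N)] = [π Y(N)] ≠ 0`, i.e. `n ≡ 1 mod p`.
-/

set_option autoImplicit false
set_option linter.unusedSectionVars false
set_option linter.style.haveILetI false

noncomputable section

namespace Fermat.Agent.TW.E

open CategoryTheory groupCohomology Module Fermat.Agent.PT Fermat.Agent.PT.F Fermat.Agent.TW.F
open Fermat.Agent.PT.F.ExactH2

attribute [local instance 1100] Rep.hV2

/-! ### The bridge between `dOne`, `dTwo` and the Mathlib cocycles of `homRep M Y` -/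

section Bridge

variable {G : Type} [Group G] (M Y : Rep.{0} ℤ G)

lemma brc_mem_cocycles₂_iff (y : G × G → (M.V →+ Y.V)) :
    y ∈ cocycles₂ (homRep M Y) ↔ ∀ s, dTwo M Y y s = 0 := by
  rw [mem_cocycles₂_iff]
  constructor
  · intro h s
    obtain ⟨σ, τ, ρ⟩ := s
    have h1 := h σ τ ρ
    show conjAdd M Y σ (y (τ, ρ)) - y (σ * τ, ρ) + y (σ, τ * ρ) - y (σ, τ) = 0
    have h2 : (homRep M Y).ρ σ (y (τ, ρ)) = conjAdd M Y σ (y (τ, ρ)) := rfl
    rw [h2] at h1
    rw [sub_add_eq_add_sub, sub_sub, sub_eq_zero, ← h1]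
  · intro h σ τ ρ
    have h1 : conjAdd M Y σ (y (τ, ρ)) - y (σ * τ, ρ) + y (σ, τ * ρ) - y (σ, τ) = 0 :=
      h (σ, τ, ρ)
    have h2 : (homRep M Y).ρ σ (y (τ, ρ)) = conjAdd M Y σ (y (τ, ρ)) := rfl
    rw [h2]
    rw [sub_add_eq_add_sub, sub_sub, sub_eq_zero] at h1
    exact h1.symm

lemma brc_d₁₂_eq (t : G → (M.V →+ Y.V)) : (d₁₂ (homRep M Y)).hom t = dOne M Y t := by
  funext s
  obtain ⟨σ, τ⟩ := s
  rfl

lemma brc_mem_levCoboundaries₂_iff (𝒯 : Tower G) (y : G × G → (M.V →+ Y.V)) :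
    y ∈ levCoboundaries₂ 𝒯 (homRep M Y) ↔
      ∃ t : G → (M.V →+ Y.V), IsLevel₁ 𝒯 t ∧ ∀ s, y s = dOne M Y t s := by
  rw [mem_levCoboundaries₂_iff]
  constructor
  · rintro ⟨t, ht, hty⟩
    exact ⟨t, ht, fun s => by rw [← hty, brc_d₁₂_eq]⟩
  · rintro ⟨t, ht, hty⟩
    exact ⟨t, ht, by rw [brc_d₁₂_eq]; funext s; exact (hty s).symm⟩

end Bridge

/-! ### The norm element -/

section Norm

variable {G : Type} [Group G] (U : Subgroup G) [U.Normal]

lemma brc_N_eq [Fintype (G ⧸ U)] : h2pN U = ∑ ω : G ⧸ U, h2pE U ω := by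
  unfold h2pN
  exact finsum_eq_sum_of_fintype _

/-- the norm element is `G`-invariant -/
lemma brc_ρ_N [Finite (G ⧸ U)] (σ : G) : (permZ G (G ⧸ U)).ρ σ (h2pN U) = h2pN U := by
  haveI : Fintype (G ⧸ U) := Fintype.ofFinite _
  rw [brc_N_eq, map_sum]
  have h1 : ∀ ω : G ⧸ U, (permZ G (G ⧸ U)).ρ σ (h2pE U ω) = h2pE U (σ • ω) := fun ω =>
    chl_ρ_single (G ⧸ U) σ ω 1
  simp only [h1]
  exact Fintype.sum_equiv (MulAction.toPerm σ) _ _ (fun ω => rfl)

/-- the norm element is invariant under right translations -/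
lemma brc_rtAdd_N [Finite (G ⧸ U)] (δ : G ⧸ U) : rtAdd U δ (h2pN U) = h2pN U := by
  haveI : Fintype (G ⧸ U) := Fintype.ofFinite _
  rw [brc_N_eq, map_sum]
  have h1 : ∀ ω : G ⧸ U, rtAdd U δ (h2pE U ω) = h2pE U (ω * δ) := fun ω =>
    rtAdd_single U δ ω 1
  simp only [h1]
  exact Fintype.sum_equiv (Equiv.mulRight δ) _ _ (fun ω => rfl)

end Norm

/-! ### Elements of order `p` -/

section Order

variable {X : Type} [AddCommGroup X] {p : ℕ} [Fact p.Prime]

lemma brc_eq_zero_of_coprime {x : X} (hp : p • x = 0) {n : ℕ} (hn : ¬ p ∣ n) (h : n • x = 0) :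
    x = 0 := by
  have hcop : Nat.Coprime n p := ((Nat.Prime.coprime_iff_not_dvd Fact.out).2 hn).symm
  have h1 : ((n : ℤ) * Nat.gcdA n p + (p : ℤ) * Nat.gcdB n p) • x = x := by
    rw [← Nat.gcd_eq_gcd_ab, hcop]
    simp
  rw [← h1, add_smul, mul_comm (n : ℤ), mul_comm (p : ℤ), mul_smul, mul_smul, natCast_zsmul,
    natCast_zsmul, h, hp, smul_zero, smul_zero, add_zero]

lemma brc_nsmul_eq_of_modEq {x : X} (hp : p • x = 0) {m n : ℕ} (h : m ≡ n [MOD p]) :
    m • x = n • x := by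
  have h1 : ∀ k : ℕ, k • x = (k % p) • x := fun k => by
    conv_lhs => rw [← Nat.div_add_mod k p]
    rw [add_smul, mul_comm, mul_smul, hp, smul_zero, zero_add]
  rw [h1 m, h1 n, h]

lemma brc_zsmul_eq_nsmul {x : X} (hp : p • x = 0) (z : ℤ) : ∃ n : ℕ, z • x = n • x := by
  have hp0 : (p : ℤ) ≠ 0 := by
    have : p.Prime := Fact.out
    exact_mod_cast this.ne_zero
  refine ⟨(z % p).toNat, ?_⟩
  have h1 : ((z % p).toNat : ℤ) = z % p := Int.toNat_of_nonneg (Int.emod_nonneg z hp0)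
  rw [← natCast_zsmul, h1]
  conv_lhs => rw [← Int.mul_ediv_add_emod z p]
  rw [add_smul, mul_smul, natCast_zsmul, smul_comm, hp, smul_zero, zero_add]

end Order

/-- **K-BrC.** -/
theorem stmtBrC_of (hDep : StmtH2pDep) (hSeed : StmtH2pSeed) : StmtBrC := by
  intro p _ G _ ι _ _ Gloc _ D hPD U hUn hU
  have hpp : p.Prime := Fact.out
  haveI : U.FiniteIndex := D.𝒯.finiteIndex U hU
  haveI : Finite (G ⧸ U) := Subgroup.finite_quotient_of_finiteIndex
  obtain ⟨v⟩ : Nonempty ι := inferInstance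
  obtain ⟨Y, ⟨hYl, hYc, t₁, ht₁, hYp⟩, -, hYN⟩ := hSeed p G ι Gloc D hPD U hUn hU v
  -- `W₀ := π ∘ Y`
  set W₀ : G × G → ((permZ G (G ⧸ U)).V →+ D.C.V) := fun s => (homAdd D.π).comp (Y s) with hW₀
  have hW₀l : IsLevel₂ D.𝒯 W₀ := hYl.comp (fun f => (homAdd D.π).comp f)
  have hW₀c : ∀ s, dTwo (permZ G (G ⧸ U)) D.C W₀ s = 0 := fun s => by
    rw [hW₀, ← chl_comp_dTwo, hYc, AddMonoidHom.comp_zero]
  have hW₀p : ∀ s, p • W₀ s =
      dOne (permZ G (G ⧸ U)) D.C (fun σ => (homAdd D.π).comp (t₁ σ)) s := fun s => by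
    rw [← comp_dOne, ← hYp, chl_comp_nsmul]
  have hW₀tl : IsLevel₁ D.𝒯 (fun σ => (homAdd D.π).comp (t₁ σ)) :=
    ht₁.comp (fun f => (homAdd D.π).comp f)
  have hW₀T : IsPTorsCoc D.𝒯 p (permZ G (G ⧸ U)) D.C W₀ := ⟨hW₀l, hW₀c, _, hW₀tl, hW₀p⟩
  -- the class `x₀`
  set A := homRep (permZ G (G ⧸ U)) D.C with hA
  have hW₀mem : W₀ ∈ levCocycles₂ D.𝒯 A :=
    ⟨(brc_mem_cocycles₂_iff _ _ W₀).2 hW₀c, hW₀l⟩
  set x₀ : levH2 D.𝒯 A := levH2π D.𝒯 A ⟨W₀, hW₀mem⟩ with hx₀
  -- evaluation at the norm element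
  set evN : A ⟶ D.C := evHom (permZ G (G ⧸ U)) D.C (h2pN U) (brc_ρ_N U) with hevN
  have hy₀ : levH2Map D.𝒯 evN x₀ ≠ 0 := by
    rw [hx₀, levH2Map_mk, Ne, levH2π_eq_zero_iff]
    exact hYN
  have hx₀ne : x₀ ≠ 0 := fun h => hy₀ (by rw [h, map_zero])
  have hpx₀ : p • x₀ = 0 := by
    rw [hx₀, ← map_nsmul, levH2π_eq_zero_iff]
    exact (brc_mem_levCoboundaries₂_iff _ _ D.𝒯 _).2 ⟨_, hW₀tl, hW₀p⟩
  have hpy₀ : p • levH2Map D.𝒯 evN x₀ = 0 := by rw [← map_nsmul, hpx₀, map_zero]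
  -- cyclicity
  have hcyc : ∀ x : levH2 D.𝒯 A, p • x = 0 → ∃ n : ℕ, x = n • x₀ := by
    intro x hx
    obtain ⟨w, rfl⟩ := levH2_exists_rep x
    rw [← map_nsmul, levH2π_eq_zero_iff] at hx
    obtain ⟨t, ht, htw⟩ := (brc_mem_levCoboundaries₂_iff _ _ D.𝒯 _).1 hx
    have hwT : IsPTorsCoc D.𝒯 p (permZ G (G ⧸ U)) D.C (w : G × G → _) :=
      ⟨w.2.2, (brc_mem_cocycles₂_iff _ _ _).1 w.2.1, t, ht, htw⟩
    obtain ⟨a, b, hab, t', ht', hdep⟩ := hDep p G ι Gloc D U hUn hU _ _ hwT hW₀T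
    have hrel : a • levH2π D.𝒯 A w + b • x₀ = 0 := by
      rw [hx₀, ← map_nsmul, ← map_nsmul, ← map_add, levH2π_eq_zero_iff]
      exact (brc_mem_levCoboundaries₂_iff _ _ D.𝒯 _).2 ⟨t', ht', hdep⟩
    have hpw : p • levH2π D.𝒯 A w = 0 := by
      rw [← map_nsmul, levH2π_eq_zero_iff]
      exact (brc_mem_levCoboundaries₂_iff _ _ D.𝒯 _).2 ⟨t, ht, htw⟩
    have hpa : ¬ p ∣ a := by
      intro hpa
      obtain ⟨a', rfl⟩ := hpa
      rw [mul_comm, mul_smul, hpw, smul_zero, zero_add] at hrel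
      exact hab ⟨Dvd.intro _ rfl, by
        by_contra hb
        exact hx₀ne (brc_eq_zero_of_coprime hpx₀ hb hrel)⟩
    -- invert `a` mod `p`
    have hcop : Nat.Coprime a p := ((Nat.Prime.coprime_iff_not_dvd hpp).2 hpa).symm
    have hbez : ((a : ℤ) * Nat.gcdA a p + (p : ℤ) * Nat.gcdB a p) = 1 := by
      rw [← Nat.gcd_eq_gcd_ab, hcop]
      simp
    have h2 : (a : ℤ) • levH2π D.𝒯 A w = (-(b : ℤ)) • x₀ := by
      rw [neg_smul, natCast_zsmul, natCast_zsmul]
      exact eq_neg_of_add_eq_zero_left hrel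
    have h1 : levH2π D.𝒯 A w = (Nat.gcdA a p * -(b : ℤ)) • x₀ := by
      have h3 : ((a : ℤ) * Nat.gcdA a p + (p : ℤ) * Nat.gcdB a p) • levH2π D.𝒯 A w =
          levH2π D.𝒯 A w := by rw [hbez, one_smul]
      rw [add_smul, mul_comm (a : ℤ), mul_smul, mul_comm (p : ℤ), mul_smul (Nat.gcdB a p),
        natCast_zsmul _ p, hpw, smul_zero, add_zero, h2, ← mul_smul] at h3
      exact h3.symm
    obtain ⟨n, hn⟩ := brc_zsmul_eq_nsmul hpx₀ (Nat.gcdA a p * -(b : ℤ))
    exact ⟨n, by rw [h1, hn]⟩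
  -- right translations act trivially
  have hR : ∀ δ : G ⧸ U, levH2Map D.𝒯 (homRt U D.C δ) x₀ = x₀ := by
    intro δ
    have hp1 : p • levH2Map D.𝒯 (homRt U D.C δ) x₀ = 0 := by
      rw [← map_nsmul, hpx₀, map_zero]
    obtain ⟨n, hn⟩ := hcyc _ hp1
    have hcomp : homRt U D.C δ ≫ evN = evN := by
      apply Rep.hom_ext
      apply Representation.IntertwiningMap.ext
      refine LinearMap.ext fun φ => ?_
      show (φ : (permZ G (G ⧸ U)).V →+ D.C.V) (rtAdd U δ (h2pN U)) = φ (h2pN U)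
      rw [brc_rtAdd_N]
    have h1 : levH2Map D.𝒯 evN (levH2Map D.𝒯 (homRt U D.C δ) x₀) = levH2Map D.𝒯 evN x₀ := by
      have := levH2Map_comp D.𝒯 (homRt U D.C δ) evN
      rw [hcomp] at this
      exact (DFunLike.congr_fun this x₀).symm
    have h1' : n • levH2Map D.𝒯 evN x₀ = levH2Map D.𝒯 evN x₀ := by
      have h5 : levH2Map D.𝒯 evN (n • x₀) = n • levH2Map D.𝒯 evN x₀ :=
        map_nsmul (levH2Map D.𝒯 evN) n x₀
      rw [← h5, ← hn]
      exact h1
    clear h1
    have h1 := h1'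
    -- `n • y₀ = y₀` with `y₀ ≠ 0` of order `p`
    have hn1 : n ≡ 1 [MOD p] := by
      rcases Nat.eq_zero_or_pos n with h0 | hpos
      · exfalso
        rw [h0, zero_smul] at h1
        exact hy₀ h1.symm
      · obtain ⟨m, rfl⟩ : ∃ m, n = m + 1 := ⟨n - 1, (Nat.sub_add_cancel hpos).symm⟩
        have h2 : m • levH2Map D.𝒯 evN x₀ = 0 := by
          rw [add_smul, one_smul] at h1
          exact add_eq_right.1 h1
        have h4 : p ∣ m := by
          by_contra h5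
          exact hy₀ (brc_eq_zero_of_coprime hpy₀ h5 h2)
        obtain ⟨k, rfl⟩ := h4
        show (p * k + 1) % p = 1 % p
        rw [Nat.mul_add_mod]
    rw [hn, brc_nsmul_eq_of_modEq hpx₀ hn1, one_smul]
  -- the model `𝔽_p` with trivial action
  have hlift : (zmultiplesHom (levH2 D.𝒯 A) x₀) (p : ℤ) = 0 := by
    simpa using hpx₀
  let f : ZMod p →+ levH2 D.𝒯 A := ZMod.lift p ⟨zmultiplesHom (levH2 D.𝒯 A) x₀, hlift⟩
  have hf : ∀ n : ℤ, f (n : ZMod p) = n • x₀ := fun n => by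
    simp [f]
  have hfn : ∀ n : ℕ, f (n : ZMod p) = n • x₀ := fun n => by
    have := hf (n : ℤ)
    rw [natCast_zsmul] at this
    rw [← this]
    norm_cast
  have hfinj : Function.Injective f := by
    rw [injective_iff_map_eq_zero]
    intro z hz
    obtain ⟨n, rfl⟩ := ZMod.natCast_zmod_surjective z
    rw [hfn] at hz
    rw [ZMod.natCast_eq_zero_iff]
    by_contra h
    exact hx₀ne (brc_eq_zero_of_coprime hpx₀ h hz)
  refine ⟨Rep.trivial (ZMod p) (G ⧸ U) (ZMod p), ⟨f, hfinj, ?_, ?_⟩, ⟨Iso.refl _⟩⟩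
  · intro δ t
    obtain ⟨n, rfl⟩ := ZMod.natCast_zmod_surjective t
    change f (n : ZMod p) = levH2Map D.𝒯 (homRt U D.C δ) (f (n : ZMod p))
    rw [hfn]
    have h5 : levH2Map D.𝒯 (homRt U D.C δ) (n • x₀) =
        n • levH2Map D.𝒯 (homRt U D.C δ) x₀ := map_nsmul (levH2Map D.𝒯 (homRt U D.C δ)) n x₀
    rw [h5, hR δ]
  · intro x
    constructor
    · intro hx
      obtain ⟨n, hn⟩ := hcyc x hx
      refine ⟨(n : ZMod p), ?_⟩
      change f (n : ZMod p) = x
      rw [hfn, hn]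
    · rintro ⟨t, rfl⟩
      obtain ⟨n, rfl⟩ := ZMod.natCast_zmod_surjective t
      change p • f (n : ZMod p) = 0
      rw [hfn, smul_comm, hpx₀, smul_zero]

end Fermat.Agent.TW.E

end


end ZBTW_051_23
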