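/- GENERATED FILE (helper35, build-time optimisation, NOTES/ZB.md): verbatim concatenation of the modules
   Fermat.Agent.TW.E.BrJPlan
   Do not edit; do not import together with these modules. -/
import Fermat.Agent.ZB.TW_051

/-! ### bundled: `Fermat.Agent.TW.E.BrJPlan` -/
section ZBTW_059_0
/-
TW-E / E-cyc, piece **K-BrJ** (sub-captain helper60): INTERFACE + WRAP.

  `StmtBrJ  ⟸  StmtBrJCore`   (`stmtBrJ_of`, this file; pure algebra on `levH2`)

`StmtBrJCore` (helper11, TW/E/BrJCore.lean, names `brjc_*`) is the cohomological core, stated on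
cochain FUNCTIONS `G × G → Hom_ℤ(ℤ[Γ], J)`, `Γ = G ⧸ U`: a family `e x`, `x ∈ ⊔_v Γ ⧸ D_v`, of level
2-cocycles of `p`-torsion class which is permuted ON THE NOSE by the right translations
(`R_δ ∘ e x = e (δ • x)`), independent mod `p` and spanning the `p`-torsion classes, both up to
level coboundaries.  Sums over the index set are `Finsupp` sums (no `Fintype` instance needed).

The wrap is `brj_wrap`: for ANY `Γ`-module `X` and any `Γ`-set `Ω`, a family `c : Ω → X[p]`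
permuted by `Γ`, independent mod `p` and spanning `X[p]` gives `IsTorP p X 𝔽_p[Ω]`.
-/

set_option autoImplicit false
set_option linter.unusedSectionVars false
set_option linter.style.haveILetI false

noncomputable section

namespace Fermat.Agent.TW.E

open CategoryTheory groupCohomology Module Fermat.Agent.PT Fermat.Agent.PT.F Fermat.Agent.TW.F

attribute [local instance 1100] Rep.hV2

/-- **K-BrJ, the cohomological core** (on cochain functions).  For a normal level `U`,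
`Γ = G ⧸ U`, `D_v = cycDec D U v`: there is a family `e x`, `x ∈ ⊔_v Γ ⧸ D_v`, of level
2-cocycles of `Hom_ℤ(ℤ[Γ], J)` such that
1. every `e x` has `p`-torsion class (`p • e x = d(level)`),
2. `e x ∘ R_δ = e (δ • x)` on the nose (`R_δ = rtAdd U δ`, `γ ↦ γ δ`),
3. a combination `Σ a_x e_x` which is a level coboundary has all `a_x` divisible by `p`,
4. every level 2-cocycle of `p`-torsion class is `Σ a_x e_x + d(level)`. -/
def StmtBrJCore : Prop :=
  ∀ (p : ℕ) [Fact p.Prime] (G : Type) [Group G] (ι : Type) [Fintype ι] [Nonempty ι]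
    (Gloc : ι → Type) [∀ v, Group (Gloc v)] (D : PTDatum p G ι Gloc), HasPDepthGlob D →
    ∀ (U : Subgroup G) [U.Normal], U ∈ D.𝒯.lev →
      ∃ e : (Σ v : ι, (G ⧸ U) ⧸ cycDec D U v) →
          G × G → ((permZ G (G ⧸ U)).V →+ (PTJ D).V),
        (∀ x, IsPTorsCoc D.𝒯 p (permZ G (G ⧸ U)) (PTJ D) (e x)) ∧
        (∀ (δ : G ⧸ U) (x : Σ v : ι, (G ⧸ U) ⧸ cycDec D U v) (s : G × G),
          (e x s).comp (rtAdd U δ) = e (δ • x) s) ∧
        (∀ a : (Σ v : ι, (G ⧸ U) ⧸ cycDec D U v) →₀ ℤ,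
          (∃ t : G → ((permZ G (G ⧸ U)).V →+ (PTJ D).V), IsLevel₁ D.𝒯 t ∧
            ∀ s, a.sum (fun x n => n • e x s) = dOne (permZ G (G ⧸ U)) (PTJ D) t s) →
          ∀ x, (p : ℤ) ∣ a x) ∧
        (∀ y : G × G → ((permZ G (G ⧸ U)).V →+ (PTJ D).V),
          IsPTorsCoc D.𝒯 p (permZ G (G ⧸ U)) (PTJ D) y →
          ∃ (a : (Σ v : ι, (G ⧸ U) ⧸ cycDec D U v) →₀ ℤ)
            (t : G → ((permZ G (G ⧸ U)).V →+ (PTJ D).V)), IsLevel₁ D.𝒯 t ∧
            ∀ s, y s = a.sum (fun x n => n • e x s) + dOne (permZ G (G ⧸ U)) (PTJ D) t s)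

/-! ### The abstract wrap -/

section Wrap

variable {p : ℕ} [Fact p.Prime]

/-- the additive map `𝔽_p[Ω] → X` with prescribed values (killed by `p`) on the basis -/
def brjLift {X : Type} [AddCommGroup X] (Ω : Type) (c : Ω → X) (hp : ∀ ω, p • c ω = 0) :
    MonoidAlgebra (ZMod p) Ω →+ X :=
  (Finsupp.liftAddHom (fun ω : Ω =>
      (ZMod.lift p ⟨zmultiplesHom X (c ω), by simpa using hp ω⟩ : ZMod p →+ X))).comp
    (MonoidAlgebra.coeffAddEquiv (R := ZMod p) (M := Ω)).toAddMonoidHom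

lemma brjLift_single {X : Type} [AddCommGroup X] (Ω : Type) (c : Ω → X)
    (hp : ∀ ω, p • c ω = 0) (ω : Ω) (n : ℤ) :
    brjLift (p := p) Ω c hp (MonoidAlgebra.single ω (n : ZMod p)) = n • c ω := by
  simp [brjLift, MonoidAlgebra.coeffAddEquiv]

/-- the integral combinations `ℤ^(Ω) → X` -/
def brjComb {X : Type} [AddCommGroup X] (Ω : Type) (c : Ω → X) : (Ω →₀ ℤ) →+ X :=
  Finsupp.liftAddHom (fun ω : Ω => zmultiplesHom X (c ω))

lemma brjComb_apply {X : Type} [AddCommGroup X] (Ω : Type) (c : Ω → X) (a : Ω →₀ ℤ) :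
    brjComb Ω c a = a.sum (fun x n => n • c x) := by
  simp only [brjComb, Finsupp.liftAddHom_apply]
  rfl

/-- reduction mod `p`, `ℤ^(Ω) → 𝔽_p[Ω]` -/
def brjRed (p : ℕ) (Ω : Type) : (Ω →₀ ℤ) →+ MonoidAlgebra (ZMod p) Ω :=
  (MonoidAlgebra.coeffAddEquiv (R := ZMod p) (M := Ω)).symm.toAddMonoidHom.comp
    (Finsupp.mapRange.addMonoidHom (Int.castAddHom (ZMod p)))

lemma brjRed_single (Ω : Type) (ω : Ω) (n : ℤ) :
    brjRed p Ω (Finsupp.single ω n) = MonoidAlgebra.single ω (n : ZMod p) := by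
  simp [brjRed, MonoidAlgebra.coeffAddEquiv]

lemma brjLift_red {X : Type} [AddCommGroup X] (Ω : Type) (c : Ω → X)
    (hp : ∀ ω, p • c ω = 0) (a : Ω →₀ ℤ) :
    brjLift (p := p) Ω c hp (brjRed p Ω a) = brjComb Ω c a := by
  have h : (brjLift (p := p) Ω c hp).comp (brjRed p Ω) = brjComb Ω c := by
    refine Finsupp.addHom_ext fun ω n => ?_
    rw [AddMonoidHom.comp_apply, brjRed_single, brjLift_single]
    simp [brjComb]
  exact DFunLike.congr_fun h a

lemma brjRed_surjective (Ω : Type) : Function.Surjective (brjRed p Ω) := by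
  intro t
  refine ⟨(MonoidAlgebra.coeffAddEquiv (R := ZMod p) (M := Ω) t).mapRange
    (fun z : ZMod p => (z.val : ℤ)) (by simp), ?_⟩
  apply (MonoidAlgebra.coeffAddEquiv (R := ZMod p) (M := Ω)).injective
  ext ω
  simp [brjRed]

lemma brjRed_eq_zero_iff (Ω : Type) (a : Ω →₀ ℤ) :
    brjRed p Ω a = 0 ↔ ∀ x, (p : ℤ) ∣ a x := by
  constructor
  · intro h x
    have h1 : (MonoidAlgebra.coeffAddEquiv (R := ZMod p) (M := Ω)) (brjRed p Ω a) x = 0 := by
      rw [h, map_zero]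
      rfl
    have h2 : ((a x : ℤ) : ZMod p) = 0 := by
      simpa [brjRed] using h1
    exact (ZMod.intCast_zmod_eq_zero_iff_dvd _ _).1 h2
  · intro h
    apply (MonoidAlgebra.coeffAddEquiv (R := ZMod p) (M := Ω)).injective
    ext ω
    have h2 : ((a ω : ℤ) : ZMod p) = 0 := (ZMod.intCast_zmod_eq_zero_iff_dvd _ _).2 (h ω)
    simpa [brjRed] using h2

/-- **The wrap.**  A family `c : Ω → X[p]` which is permuted by `Γ`, independent mod `p` and
spans `X[p]` identifies `X[p]` with the permutation module `𝔽_p[Ω]`. -/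
theorem brj_wrap {Γ : Type} [Group Γ] (X : Rep.{0} ℤ Γ) (Ω : Type) [MulAction Γ Ω]
    (c : Ω → X.V) (hp : ∀ x, p • c x = 0) (hρ : ∀ (δ : Γ) (x : Ω), X.ρ δ (c x) = c (δ • x))
    (hind : ∀ a : Ω →₀ ℤ, a.sum (fun x n => n • c x) = 0 → ∀ x, (p : ℤ) ∣ a x)
    (hspan : ∀ y : X.V, p • y = 0 → ∃ a : Ω →₀ ℤ, y = a.sum (fun x n => n • c x)) :
    IsTorP p X (Rep.ofMulAction (ZMod p) Γ Ω) := by
  refine ⟨brjLift (p := p) Ω c hp, ?_, ?_, ?_⟩
  · rw [injective_iff_map_eq_zero]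
    intro t ht
    obtain ⟨a, rfl⟩ := brjRed_surjective (p := p) Ω t
    rw [brjLift_red, brjComb_apply] at ht
    exact (brjRed_eq_zero_iff Ω a).2 (hind a ht)
  · intro δ t
    have h : (brjLift (p := p) Ω c hp).comp
        ((Rep.ofMulAction (ZMod p) Γ Ω).ρ δ).toAddMonoidHom =
        (X.ρ δ).toAddMonoidHom.comp (brjLift (p := p) Ω c hp) := by
      refine MonoidAlgebra.addMonoidHom_ext fun ω z => ?_
      obtain ⟨n, rfl⟩ := ZMod.intCast_surjective z
      show brjLift (p := p) Ω c hp ((Representation.ofMulAction (ZMod p) Γ Ω) δ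
          (MonoidAlgebra.single ω (n : ZMod p))) =
        X.ρ δ (brjLift (p := p) Ω c hp (MonoidAlgebra.single ω (n : ZMod p)))
      rw [Representation.ofMulAction_single, brjLift_single, brjLift_single, map_zsmul, hρ]
    exact DFunLike.congr_fun h t
  · intro x
    constructor
    · intro hx
      obtain ⟨a, rfl⟩ := hspan x hx
      exact ⟨brjRed p Ω a, by rw [brjLift_red, brjComb_apply]⟩
    · rintro ⟨t, rfl⟩
      rw [← map_nsmul]
      have h : p • t = 0 := by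
        rw [← Nat.cast_smul_eq_nsmul (ZMod p), ZMod.natCast_self, zero_smul]
      rw [h, map_zero]

end Wrap

/-! ### The assembly -/

/-- **K-BrJ** from the cohomological core. -/
theorem stmtBrJ_of (hCore : StmtBrJCore) : StmtBrJ := by
  intro p _ G _ ι _ _ Gloc _ D hPD U hUn hU
  obtain ⟨e, he1, he2, he3, he4⟩ := hCore p G ι Gloc D hPD U hU
  set A := homRep (permZ G (G ⧸ U)) (PTJ D) with hA
  -- the cocycles as elements of `levCocycles₂`
  have hmem : ∀ x, e x ∈ levCocycles₂ D.𝒯 A := fun x =>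
    ⟨(brc_mem_cocycles₂_iff _ _ (e x)).2 (he1 x).2.1, (he1 x).1⟩
  let E : (Σ v : ι, (G ⧸ U) ⧸ cycDec D U v) → ↥(levCocycles₂ D.𝒯 A) := fun x => ⟨e x, hmem x⟩
  let c : (Σ v : ι, (G ⧸ U) ⧸ cycDec D U v) → levH2 D.𝒯 A := fun x => levH2π D.𝒯 A (E x)
  -- sums of classes
  have hsumE : ∀ (a : (Σ v : ι, (G ⧸ U) ⧸ cycDec D U v) →₀ ℤ) (s : G × G),
      ((a.sum (fun x n => n • E x) : ↥(levCocycles₂ D.𝒯 A)) : G × G → A.V) s =
        a.sum (fun x n => n • e x s) := by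
    intro a s
    unfold Finsupp.sum
    rw [Submodule.coe_sum, Finset.sum_apply]
    rfl
  have hsum : ∀ a : (Σ v : ι, (G ⧸ U) ⧸ cycDec D U v) →₀ ℤ,
      a.sum (fun x n => n • c x) = levH2π D.𝒯 A (a.sum (fun x n => n • E x)) := by
    intro a
    unfold Finsupp.sum
    rw [map_sum]
    refine Finset.sum_congr rfl fun x _ => ?_
    exact (map_zsmul (levH2π D.𝒯 A) (a x) (E x)).symm
  -- `p`-torsion
  have h1 : ∀ x, p • c x = 0 := by
    intro x
    obtain ⟨-, -, t, ht, htp⟩ := he1 x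
    show p • levH2π D.𝒯 A (E x) = 0
    rw [← map_nsmul, levH2π_eq_zero_iff]
    exact (brc_mem_levCoboundaries₂_iff _ _ D.𝒯 _).2 ⟨t, ht, htp⟩
  -- equivariance
  have h2 : ∀ (δ : G ⧸ U) (x : Σ v : ι, (G ⧸ U) ⧸ cycDec D U v),
      levH2Map D.𝒯 (homRt U (PTJ D) δ) (c x) = c (δ • x) := by
    intro δ x
    show levH2Map D.𝒯 (homRt U (PTJ D) δ) (levH2π D.𝒯 A (E x)) = levH2π D.𝒯 A (E (δ • x))
    rw [levH2Map_mk]
    congr 1
    apply Subtype.ext
    funext s
    exact he2 δ x s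
  -- independence
  have h3 : ∀ a : (Σ v : ι, (G ⧸ U) ⧸ cycDec D U v) →₀ ℤ,
      a.sum (fun x n => n • c x) = 0 → ∀ x, (p : ℤ) ∣ a x := by
    intro a ha
    rw [hsum, levH2π_eq_zero_iff] at ha
    obtain ⟨t, ht, hta⟩ := (brc_mem_levCoboundaries₂_iff _ _ D.𝒯 _).1 ha
    exact he3 a ⟨t, ht, fun s => by rw [← hta s, hsumE]⟩
  -- spanning
  have h4 : ∀ y : levH2 D.𝒯 A, p • y = 0 →
      ∃ a : (Σ v : ι, (G ⧸ U) ⧸ cycDec D U v) →₀ ℤ, y = a.sum (fun x n => n • c x) := by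
    intro y hy
    obtain ⟨w, rfl⟩ := levH2_exists_rep y
    have hy' : p • levH2π D.𝒯 A w = 0 := hy
    rw [← map_nsmul, levH2π_eq_zero_iff] at hy'
    obtain ⟨t, ht, htw⟩ := (brc_mem_levCoboundaries₂_iff _ _ D.𝒯 _).1 hy'
    have hwT : IsPTorsCoc D.𝒯 p (permZ G (G ⧸ U)) (PTJ D) (w : G × G → _) :=
      ⟨w.2.2, (brc_mem_cocycles₂_iff _ _ _).1 w.2.1, t, ht, htw⟩
    obtain ⟨a, t', ht', hat⟩ := he4 _ hwT
    refine ⟨a, ?_⟩
    rw [hsum, ← sub_eq_zero, ← map_sub, levH2π_eq_zero_iff]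
    refine (brc_mem_levCoboundaries₂_iff _ _ D.𝒯 _).2 ⟨t', ht', fun s => ?_⟩
    show (w : G × G → A.V) s -
      ((a.sum (fun x n => n • E x) : ↥(levCocycles₂ D.𝒯 A)) : G × G → A.V) s = _
    rw [hsumE, hat s, add_sub_cancel_left]
  exact ⟨Rep.ofMulAction (ZMod p) (G ⧸ U) (Σ v : ι, (G ⧸ U) ⧸ cycDec D U v),
    brj_wrap (p := p) (cycZ2 U (PTJ D) D.𝒯) _ c h1 h2 h3 h4, ⟨Iso.refl _⟩⟩

end Fermat.Agent.TW.E

end


end ZBTW_059_0
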