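/- GENERATED FILE (helper35, build-time optimisation, NOTES/ZB.md): verbatim concatenation of the modules
   Fermat.Agent.TW.E.J2DivPlan
   Fermat.Agent.TW.E.J2Glue
   Fermat.Agent.TW.E.C2Inv
   Fermat.Agent.TW.E.C2Core
   Fermat.Agent.TW.E.C2Surj
   Fermat.Agent.TW.E.J2Fin
   Fermat.Agent.TW.E.J2Loc
   Fermat.Agent.TW.E.J2Div
   Fermat.Agent.TW.E.BrJCore
   Do not edit; do not import together with these modules. -/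
import Fermat.Agent.ZB.TW_014
import Fermat.Agent.ZB.PT_085
import Fermat.Agent.ZB.PT_031
import Fermat.Agent.ZB.PT_047
import Fermat.Agent.ZB.PT_002
import Fermat.Agent.ZB.TW_045
import Fermat.Agent.ZB.PT_048
import Fermat.Agent.ZB.PT_022
import Fermat.Agent.ZB.TW_059

/-! ### bundled: `Fermat.Agent.TW.E.J2DivPlan` -/
section ZBTW_046_0
/-
TW-E / A4 (`StmtJ2Div`, owner helper11) — INTERFACE of the three sub-pieces.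
Definitions and statements only.  Mathematics: NOTES/TW-E-A4.md.

Route (homogeneous cochains).  A level 2-cocycle `y : G² → Hom_ℤ(ℤ[Ω], J)` is the same thing as a
family `Ψ_{v,ω} : G³ → J_v`, `Ψ_{v,ω}(g₀,g₁,g₂) = y(g₀⁻¹g₁, g₁⁻¹g₂)(δ_{g₀⁻¹ω})_v(g₀)`, of homogeneous
cocycles, jointly `G_v`-equivariant (`Ψ_{v,dω}(r d · g) = d Ψ_{v,ω}(g)`), right-invariant under a
level.  For an orbit representative `ω₀` and `K = Stab_{G_v}(ω₀)`: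
* A4-fin (`StmtJ2Fin`, finite groups): divisibility of inflated classes at a finite level;
* A4-loc (`StmtJ2Loc`): the restriction of `Ψ_{v,ω₀}` to `K³` is `p`-divisible up to a coboundary and
  a prime-to-`p` multiple, after passing to a deeper level (`HasPDepthGlob`, `cm_loc`, A4-fin);
* A4-glue (`stmtJ2Div_of`, helper11): inverse Shapiro `W(g₀,g₁,g₂) = w(πg₀,πg₁,πg₂)`, the Shapiro
  homotopy `ShapiroHtpy.shapiro₂`, extension from orbit representatives, dictionary back to `y`.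
-/

set_option autoImplicit false

noncomputable section

namespace Fermat.Agent.TW.E

open CategoryTheory groupCohomology Fermat.Agent.PT Fermat.Agent.PT.F

attribute [local instance 1100] Rep.hV2

/-- **A4-fin.**  `Γ` a finite group, `C` a `Γ`-module with a `p`-fundamental class, `N ≤ K ≤ Γ`
subgroups with `p ∣ |N|`.  An (inhomogeneous) 2-cocycle `c` on `K` with values in `C` which is
right-`N`-invariant in both variables is `p`-divisible up to a coboundary and a multiple prime to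
`p`:  `n c = p c' + d t`.
(Proof: `[K:N] c = d t₀`, `t₀(a) = ∑_{ρ ∈ K/N} c(a, ρ)`.  `Q` a Sylow `p`-subgroup of `K`,
`P = Q.map K.subtype`: `[c|_P] = k · res_P u` and `[K:N] k · res_P u = 0`, `res_P u` has order
`|P|` and `v_p([K:N]) < v_p(|P|)`, so `k = p k'`.  `c - p k' ũ|_K` restricts to a coboundary on
`Q`, so it is killed by `[K:Q]` (`SylowRes.index_smul_eq_zero_of_res_eq_zero` for the group `K`):
`n = [K:Q]`, `c' = n k' ũ|_K`, `ũ` a cocycle representing `u`.) -/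
def StmtJ2Fin : Prop :=
  ∀ (p : ℕ) [Fact p.Prime] (Γ : Type) [Group Γ] [Finite Γ] (C : Rep.{0} ℤ Γ) (u : H2 C),
    IsPFundClass p C u → ∀ (K N : Subgroup Γ), N ≤ K → p ∣ Nat.card N →
    ∀ c : K × K → C.V,
      (∀ a b d : K, C.ρ (a : Γ) (c (b, d)) - c (a * b, d) + c (a, b * d) - c (a, b) = 0) →
      (∀ a b s s' : K, (s : Γ) ∈ N → (s' : Γ) ∈ N → c (a * s, b * s') = c (a, b)) →
      ∃ n : ℕ, ¬ p ∣ n ∧ ∃ c' : K × K → C.V,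
        (∀ a b d : K,
          C.ρ (a : Γ) (c' (b, d)) - c' (a * b, d) + c' (a, b * d) - c' (a, b) = 0) ∧
        ∃ t : K → C.V, ∀ a b : K,
          n • c (a, b) = p • c' (a, b) + (C.ρ (a : Γ) (t b) - t (a * b) + t a)

/-- **A4-loc.**  `K ≤ G_v` a subgroup containing the pulled-back level `r_v⁻¹ U` (`U` a normal
global level).  A homogeneous `K`-equivariant 2-cocycle `c : K³ → J_v`, right-invariant under
`r_v⁻¹ U`, satisfies `n c = p w + d t` with `w`, `t` homogeneous, `K`-equivariant and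
right-invariant under `r_v⁻¹ U'` for a normal global level `U' ≤ U`.
(Proof: `U'` from `HasPDepthGlob D v U`; `Γ = G_v ⧸ V'`, `V' = r_v⁻¹ U'`, `C = J_v^{V'}` with the
fundamental class of `cm_loc`; `K̄ = K.map mk`, `N̄ = (r_v⁻¹ U).map mk`, `|N̄| = [V : V']`;
`c̄(ā, b̄) = c(1, a, a b)`; A4-fin; `w(k₀,k₁,k₂) = k₀ c̄'(k₀⁻¹k₁, k₁⁻¹k₂)`, `t(k₀,k₁) = k₀ t̄(k₀⁻¹k₁)`.) -/
def StmtJ2Loc : Prop :=
  ∀ (p : ℕ) [Fact p.Prime] (G : Type) [Group G] (ι : Type) [Fintype ι] (Gloc : ι → Type)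
    [∀ v, Group (Gloc v)] (D : PTDatum p G ι Gloc), HasPDepthGlob D →
    ∀ (v : ι) (K : Subgroup (Gloc v)) (U : Subgroup G), U ∈ D.𝒯.lev → U.Normal →
      U.comap (D.r v) ≤ K →
    ∀ c : K → K → K → (D.Jloc v).V,
      (∀ k k₀ k₁ k₂ : K,
        c (k * k₀) (k * k₁) (k * k₂) = (D.Jloc v).ρ (k : Gloc v) (c k₀ k₁ k₂)) →
      (∀ k₀ k₁ k₂ k₃ : K, c k₁ k₂ k₃ - c k₀ k₂ k₃ + c k₀ k₁ k₃ - c k₀ k₁ k₂ = 0) →
      (∀ k₀ k₁ k₂ s₀ s₁ s₂ : K, D.r v s₀ ∈ U → D.r v s₁ ∈ U → D.r v s₂ ∈ U →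
        c (k₀ * s₀) (k₁ * s₁) (k₂ * s₂) = c k₀ k₁ k₂) →
      ∃ n : ℕ, ¬ p ∣ n ∧ ∃ U' ∈ D.𝒯.lev, U' ≤ U ∧ U'.Normal ∧
        ∃ w : K → K → K → (D.Jloc v).V,
          (∀ k k₀ k₁ k₂ : K,
            w (k * k₀) (k * k₁) (k * k₂) = (D.Jloc v).ρ (k : Gloc v) (w k₀ k₁ k₂)) ∧
          (∀ k₀ k₁ k₂ k₃ : K, w k₁ k₂ k₃ - w k₀ k₂ k₃ + w k₀ k₁ k₃ - w k₀ k₁ k₂ = 0) ∧
          (∀ k₀ k₁ k₂ s₀ s₁ s₂ : K, D.r v s₀ ∈ U' → D.r v s₁ ∈ U' → D.r v s₂ ∈ U' →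
            w (k₀ * s₀) (k₁ * s₁) (k₂ * s₂) = w k₀ k₁ k₂) ∧
          ∃ t : K → K → (D.Jloc v).V,
            (∀ k k₀ k₁ : K, t (k * k₀) (k * k₁) = (D.Jloc v).ρ (k : Gloc v) (t k₀ k₁)) ∧
            (∀ k₀ k₁ s₀ s₁ : K, D.r v s₀ ∈ U' → D.r v s₁ ∈ U' →
              t (k₀ * s₀) (k₁ * s₁) = t k₀ k₁) ∧
            ∀ k₀ k₁ k₂ : K,
              n • c k₀ k₁ k₂ = p • w k₀ k₁ k₂ + (t k₁ k₂ - t k₀ k₂ + t k₀ k₁)

end Fermat.Agent.TW.E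

end


end ZBTW_046_0

/-! ### bundled: `Fermat.Agent.TW.E.J2Glue` -/
section ZBTW_046_1
/-
TW-E / A4-glue (helper11): `stmtJ2Div_of : StmtJ2Loc → StmtJ2Div`.
Route: NOTES/TW-E-A4.md.  Homogeneous cochains: `Ψ_{v,ω}(g₀,g₁,g₂) = y(g₀⁻¹g₁, g₁⁻¹g₂)(δ_{g₀⁻¹ω})_v(g₀)`.
* Part 1 `j2d_core`: inverse Shapiro `W = w ∘ π³` and the Shapiro homotopy (`ShapiroHtpy.shapiro₂`).
* Part 2 `j2dExt`: extension of stabiliser-equivariant families from orbit representatives.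
* Part 3: the dictionary between `Hom_ℤ(ℤ[Ω], J)`-valued cochains and families `Ψ_{v,ω}`.
* Part 4: assembly.
-/

set_option autoImplicit false
set_option linter.unusedSectionVars false
set_option linter.unusedVariables false

noncomputable section

namespace Fermat.Agent.TW.E

open CategoryTheory groupCohomology Fermat.Agent.PT Fermat.Agent.PT.F

attribute [local instance 1100] Rep.hV2

/-! ### Part 1: inverse Shapiro + Shapiro homotopy (pure group theory) -/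

/-- a normalised choice of `H`-components -/
lemma j2d_exists_proj {G H : Type} [Group G] [Group H] (r : H →* G) (U : Subgroup G)
    [hU : U.Normal] :
    ∃ π : G → H, π 1 = 1 ∧
      ∀ (d : H) (g u : G), u ∈ U → ∃ s : H, r s ∈ U ∧ π (r d * g * u) = d * π g * s := by
  obtain ⟨π, hπ⟩ := ShapiroHtpy.exists_proj r U
  refine ⟨fun g => π g * (π 1)⁻¹, by simp, fun d g u hu => ?_⟩
  refine ⟨π 1 * ((d * π g)⁻¹ * π (r d * g * u)) * (π 1)⁻¹, ?_, ?_⟩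
  · rw [map_mul, map_mul, map_inv]
    exact hU.conj_mem _ (hπ d g u hu) _
  · group

theorem j2d_core {G H X : Type} [Group G] [Group H] [AddCommGroup X] (r : H →* G)
    (act : H → X →+ X) (U : Subgroup G) [U.Normal] (n p : ℕ)
    (Φ : G → G → G → X) (w : H → H → H → X) (t : H → H → X)
    (hΦ1 : ∀ d g₀ g₁ g₂, Φ (r d * g₀) (r d * g₁) (r d * g₂) = act d (Φ g₀ g₁ g₂))
    (hΦ2 : ∀ g₀ g₁ g₂ g₃, Φ g₁ g₂ g₃ - Φ g₀ g₂ g₃ + Φ g₀ g₁ g₃ - Φ g₀ g₁ g₂ = 0)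
    (hΦ3 : ∀ g₀ g₁ g₂ u₀ u₁ u₂, u₀ ∈ U → u₁ ∈ U → u₂ ∈ U →
      Φ (g₀ * u₀) (g₁ * u₁) (g₂ * u₂) = Φ g₀ g₁ g₂)
    (hw1 : ∀ d d₀ d₁ d₂, w (d * d₀) (d * d₁) (d * d₂) = act d (w d₀ d₁ d₂))
    (hw2 : ∀ d₀ d₁ d₂ d₃, w d₁ d₂ d₃ - w d₀ d₂ d₃ + w d₀ d₁ d₃ - w d₀ d₁ d₂ = 0)
    (hw3 : ∀ d₀ d₁ d₂ s₀ s₁ s₂, r s₀ ∈ U → r s₁ ∈ U → r s₂ ∈ U →
      w (d₀ * s₀) (d₁ * s₁) (d₂ * s₂) = w d₀ d₁ d₂)
    (ht1 : ∀ d d₀ d₁, t (d * d₀) (d * d₁) = act d (t d₀ d₁))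
    (ht3 : ∀ d₀ d₁ s₀ s₁, r s₀ ∈ U → r s₁ ∈ U → t (d₀ * s₀) (d₁ * s₁) = t d₀ d₁)
    (h : ∀ d₀ d₁ d₂,
      n • Φ (r d₀) (r d₁) (r d₂) = p • w d₀ d₁ d₂ + (t d₁ d₂ - t d₀ d₂ + t d₀ d₁)) :
    ∃ W : G → G → G → X,
      (∀ d g₀ g₁ g₂, W (r d * g₀) (r d * g₁) (r d * g₂) = act d (W g₀ g₁ g₂)) ∧
      (∀ g₀ g₁ g₂ g₃, W g₁ g₂ g₃ - W g₀ g₂ g₃ + W g₀ g₁ g₃ - W g₀ g₁ g₂ = 0) ∧
      (∀ g₀ g₁ g₂ u₀ u₁ u₂, u₀ ∈ U → u₁ ∈ U → u₂ ∈ U →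
        W (g₀ * u₀) (g₁ * u₁) (g₂ * u₂) = W g₀ g₁ g₂) ∧
      ∃ Θ : G → G → X,
        (∀ d g₀ g₁, Θ (r d * g₀) (r d * g₁) = act d (Θ g₀ g₁)) ∧
        (∀ g₀ g₁ u₀ u₁, u₀ ∈ U → u₁ ∈ U → Θ (g₀ * u₀) (g₁ * u₁) = Θ g₀ g₁) ∧
        ∀ g₀ g₁ g₂, n • Φ g₀ g₁ g₂ = p • W g₀ g₁ g₂ + (Θ g₁ g₂ - Θ g₀ g₂ + Θ g₀ g₁) := by
  obtain ⟨π, hπ1, hπ⟩ := j2d_exists_proj r U
  have hπd : ∀ (d : H) (g : G), ∃ s : H, r s ∈ U ∧ π (r d * g) = d * π g * s := fun d g => by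
    obtain ⟨s, hs, e⟩ := hπ d g 1 U.one_mem
    rw [mul_one] at e
    exact ⟨s, hs, e⟩
  have hπu : ∀ (g u : G), u ∈ U → ∃ s : H, r s ∈ U ∧ π (g * u) = π g * s := fun g u hu => by
    obtain ⟨s, hs, e⟩ := hπ 1 g u hu
    rw [map_one, one_mul, one_mul] at e
    exact ⟨s, hs, e⟩
  have hπr : ∀ d : H, ∃ s : H, r s ∈ U ∧ π (r d) = d * s := fun d => by
    obtain ⟨s, hs, e⟩ := hπd d 1
    rw [mul_one, hπ1, mul_one] at e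
    exact ⟨s, hs, e⟩
  let W : G → G → G → X := fun g₀ g₁ g₂ => w (π g₀) (π g₁) (π g₂)
  have hW1 : ∀ d g₀ g₁ g₂, W (r d * g₀) (r d * g₁) (r d * g₂) = act d (W g₀ g₁ g₂) := by
    intro d g₀ g₁ g₂
    obtain ⟨s₀, hs₀, e₀⟩ := hπd d g₀
    obtain ⟨s₁, hs₁, e₁⟩ := hπd d g₁
    obtain ⟨s₂, hs₂, e₂⟩ := hπd d g₂
    show w (π (r d * g₀)) (π (r d * g₁)) (π (r d * g₂)) = act d (w (π g₀) (π g₁) (π g₂))
    rw [e₀, e₁, e₂, hw3 _ _ _ _ _ _ hs₀ hs₁ hs₂, hw1]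
  have hW2 : ∀ g₀ g₁ g₂ g₃, W g₁ g₂ g₃ - W g₀ g₂ g₃ + W g₀ g₁ g₃ - W g₀ g₁ g₂ = 0 :=
    fun g₀ g₁ g₂ g₃ => hw2 _ _ _ _
  have hW3 : ∀ g₀ g₁ g₂ u₀ u₁ u₂, u₀ ∈ U → u₁ ∈ U → u₂ ∈ U →
      W (g₀ * u₀) (g₁ * u₁) (g₂ * u₂) = W g₀ g₁ g₂ := by
    intro g₀ g₁ g₂ u₀ u₁ u₂ hu₀ hu₁ hu₂
    obtain ⟨s₀, hs₀, e₀⟩ := hπu g₀ u₀ hu₀
    obtain ⟨s₁, hs₁, e₁⟩ := hπu g₁ u₁ hu₁
    obtain ⟨s₂, hs₂, e₂⟩ := hπu g₂ u₂ hu₂
    show w (π (g₀ * u₀)) (π (g₁ * u₁)) (π (g₂ * u₂)) = w (π g₀) (π g₁) (π g₂)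
    rw [e₀, e₁, e₂, hw3 _ _ _ _ _ _ hs₀ hs₁ hs₂]
  have hWr : ∀ d₀ d₁ d₂, W (r d₀) (r d₁) (r d₂) = w d₀ d₁ d₂ := by
    intro d₀ d₁ d₂
    obtain ⟨s₀, hs₀, e₀⟩ := hπr d₀
    obtain ⟨s₁, hs₁, e₁⟩ := hπr d₁
    obtain ⟨s₂, hs₂, e₂⟩ := hπr d₂
    show w (π (r d₀)) (π (r d₁)) (π (r d₂)) = w d₀ d₁ d₂
    rw [e₀, e₁, e₂, hw3 _ _ _ _ _ _ hs₀ hs₁ hs₂]
  obtain ⟨Θ, hΘ1, hΘ3, hΘ⟩ := ShapiroHtpy.shapiro₂ r act U
    (fun g₀ g₁ g₂ => n • Φ g₀ g₁ g₂ - p • W g₀ g₁ g₂) t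
    (fun d g₀ g₁ g₂ => by
      show n • Φ (r d * g₀) (r d * g₁) (r d * g₂) - p • W (r d * g₀) (r d * g₁) (r d * g₂) =
        act d (n • Φ g₀ g₁ g₂ - p • W g₀ g₁ g₂)
      rw [hΦ1, hW1, map_sub, map_nsmul, map_nsmul])
    (fun g₀ g₁ g₂ g₃ => by
      have e1 := hΦ2 g₀ g₁ g₂ g₃
      have e2 := hW2 g₀ g₁ g₂ g₃
      show n • Φ g₁ g₂ g₃ - p • W g₁ g₂ g₃ - (n • Φ g₀ g₂ g₃ - p • W g₀ g₂ g₃) +
          (n • Φ g₀ g₁ g₃ - p • W g₀ g₁ g₃) - (n • Φ g₀ g₁ g₂ - p • W g₀ g₁ g₂) = 0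
      have e3 : n • Φ g₁ g₂ g₃ - p • W g₁ g₂ g₃ - (n • Φ g₀ g₂ g₃ - p • W g₀ g₂ g₃) +
          (n • Φ g₀ g₁ g₃ - p • W g₀ g₁ g₃) - (n • Φ g₀ g₁ g₂ - p • W g₀ g₁ g₂) =
          n • (Φ g₁ g₂ g₃ - Φ g₀ g₂ g₃ + Φ g₀ g₁ g₃ - Φ g₀ g₁ g₂) -
            p • (W g₁ g₂ g₃ - W g₀ g₂ g₃ + W g₀ g₁ g₃ - W g₀ g₁ g₂) := by
        simp only [smul_sub, smul_add]
        abel
      rw [e3, e1, e2, smul_zero, smul_zero, sub_zero])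
    (fun g₀ g₁ g₂ u₀ u₁ u₂ hu₀ hu₁ hu₂ => by
      show n • Φ (g₀ * u₀) (g₁ * u₁) (g₂ * u₂) - p • W (g₀ * u₀) (g₁ * u₁) (g₂ * u₂) = _
      rw [hΦ3 _ _ _ _ _ _ hu₀ hu₁ hu₂, hW3 _ _ _ _ _ _ hu₀ hu₁ hu₂])
    ht1 ht3
    (fun d₀ d₁ d₂ => by
      show n • Φ (r d₀) (r d₁) (r d₂) - p • W (r d₀) (r d₁) (r d₂) = _
      rw [hWr, h]
      abel)
  refine ⟨W, hW1, hW2, hW3, Θ, hΘ1, hΘ3, fun g₀ g₁ g₂ => ?_⟩
  have := hΘ g₀ g₁ g₂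
  have e : n • Φ g₀ g₁ g₂ = p • W g₀ g₁ g₂ + (n • Φ g₀ g₁ g₂ - p • W g₀ g₁ g₂) := by abel
  rw [e, this]

/-! ### Part 2: extension from orbit representatives -/

section Orbit

variable {G H X : Type} [Group G] [Group H] [AddCommGroup X] (r : H →* G)
  {Ω : Type} [MulAction G Ω] (act : H → X →+ X)

/-- the extension of a stabiliser-equivariant family from the orbit representatives -/
def j2dExt {S : Type} [MulAction G S] (F : Ω → S → X) (ω : Ω) (s : S) : X :=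
  act (permSh1_g r ω) (F (permSh1_rep r ω) ((r (permSh1_g r ω))⁻¹ • s))

variable (hact : ∀ d d' x, act (d * d') x = act d (act d' x))

include hact in
lemma j2dExt_equiv {S : Type} [MulAction G S] (F : Ω → S → X)
    (hF : ∀ ω d s, r d • ω = ω → F ω (r d • s) = act d (F ω s)) (ω : Ω) (e : H) (s : S) :
    j2dExt r act F (r e • ω) (r e • s) = act e (j2dExt r act F ω s) := by
  unfold j2dExt
  have hrep : permSh1_rep r (r e • ω) = permSh1_rep r ω := permSh1_rep_smul r e ω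
  have h1 : r (permSh1_g r (r e • ω)) • permSh1_rep r ω = r e • ω := by
    rw [← hrep]; exact permSh1_g_spec r (r e • ω)
  have h2 : r (permSh1_g r ω) • permSh1_rep r ω = ω := permSh1_g_spec r ω
  rw [hrep]
  generalize permSh1_g r (r e • ω) = d' at h1 ⊢
  generalize permSh1_g r ω = d at h2 ⊢
  generalize permSh1_rep r ω = ω₀ at h1 h2 ⊢
  -- `k = d'⁻¹ e d` stabilises `ω₀`
  have hk : r (d'⁻¹ * e * d) • ω₀ = ω₀ := by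
    rw [map_mul, map_mul, mul_smul, mul_smul, h2, ← h1, map_inv, inv_smul_smul]
  have e1 : (r d')⁻¹ • r e • s = r (d'⁻¹ * e * d) • (r d)⁻¹ • s := by
    rw [map_mul, map_mul, map_inv, mul_smul, mul_smul, smul_inv_smul]
  rw [e1, hF ω₀ _ _ hk, ← hact, ← hact]
  congr 2
  group

include hact in
lemma j2dExt_eq_of_equiv {S : Type} [MulAction G S] (F : Ω → S → X)
    (hF : ∀ ω d s, F (r d • ω) (r d • s) = act d (F ω s)) (ω : Ω) (s : S) :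
    j2dExt r act F ω s = F ω s := by
  unfold j2dExt
  have h2 : r (permSh1_g r ω) • permSh1_rep r ω = ω := permSh1_g_spec r ω
  have := hF (permSh1_rep r ω) (permSh1_g r ω) ((r (permSh1_g r ω))⁻¹ • s)
  rw [h2, smul_inv_smul] at this
  exact this.symm

end Orbit


/-! ### Part 3: the dictionary -/

section Dict

lemma j2d_conjAdd_one {G : Type} [Group G] (M Y : Rep.{0} ℤ G) (f : M.V →+ Y.V) :
    conjAdd M Y 1 f = f := by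
  ext m
  simp

/-- a right-`U`-invariant 2-cocycle is left-`U`-invariant with `U`-invariant values -/
lemma j2d_biinv {G : Type} [Group G] (M Y : Rep.{0} ℤ G) (y : G × G → (M.V →+ Y.V))
    (hy : ∀ s, dTwo M Y y s = 0) (U : Subgroup G) (hUn : U.Normal)
    (hUy : ∀ g g' s s' : G, s ∈ U → s' ∈ U → y (g * s, g' * s') = y (g, g')) (u : G)
    (hu : u ∈ U) (a b : G) :
    y (u * a, b) = y (a, b) ∧ conjAdd M Y u (y (a, b)) = y (a, b) := by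
  have h1 : ∀ ρ, y (1, ρ) = y (1, 1) := by
    intro ρ
    have := hy (1, 1, ρ)
    simp only [dTwo, j2d_conjAdd_one, one_mul] at this
    have e : y (1, ρ) - y (1, 1) = 0 := by
      rw [← this]; abel
    exact sub_eq_zero.1 e
  have h2 : ∀ x, y (u, x) = y (1, 1) := by
    intro x
    have := hUy 1 x u 1 hu U.one_mem
    rw [one_mul, mul_one] at this
    rw [this, h1]
  have h3 := hy (u, a, b)
  simp only [dTwo] at h3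
  rw [h2, h2] at h3
  have h4 : conjAdd M Y u (y (a, b)) = y (u * a, b) := by
    have e : conjAdd M Y u (y (a, b)) - y (u * a, b) = 0 := by
      rw [← h3]; abel
    exact sub_eq_zero.1 e
  have h5 : y (u * a, b) = y (a, b) := by
    have hc : a⁻¹ * u * a ∈ U := by simpa using hUn.conj_mem u hu a⁻¹
    have := hUy a b (a⁻¹ * u * a) 1 hc U.one_mem
    rw [mul_one] at this
    rw [← this]
    congr 2
    group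
  exact ⟨h5, h4.trans h5⟩

variable {p : ℕ} {G : Type} [Group G] {ι : Type} {Gloc : ι → Type} [∀ v, Group (Gloc v)]
  (D : PTDatum p G ι Gloc) (Ω : Type) [MulAction G Ω]

/-- the homogeneous components of a 2-cochain with values in `Hom_ℤ(ℤ[Ω], J)` -/
def j2dΨ (y : G × G → ((permZ G Ω).V →+ (PTJ D).V)) (v : ι) (ω : Ω) (g₀ g₁ g₂ : G) :
    (D.Jloc v).V :=
  (y (g₀⁻¹ * g₁, g₁⁻¹ * g₂) (MonoidAlgebra.single (g₀⁻¹ • ω) 1)).1 v g₀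

variable (y : G × G → ((permZ G Ω).V →+ (PTJ D).V))

lemma j2dΨ_roundtrip (v : ι) (ω : Ω) (g σ τ : G) :
    j2dΨ D Ω y v (g • ω) g (g * σ) (g * σ * τ) = (y (σ, τ) (MonoidAlgebra.single ω 1)).1 v g := by
  unfold j2dΨ
  rw [inv_smul_smul, inv_mul_cancel_left, inv_mul_cancel_left]

lemma j2dΨ_equiv (v : ι) (ω : Ω) (d : Gloc v) (g₀ g₁ g₂ : G) :
    j2dΨ D Ω y v (D.r v d • ω) (D.r v d * g₀) (D.r v d * g₁) (D.r v d * g₂) =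
      (D.Jloc v).ρ d (j2dΨ D Ω y v ω g₀ g₁ g₂) := by
  unfold j2dΨ
  have e1 : (D.r v d * g₀)⁻¹ * (D.r v d * g₁) = g₀⁻¹ * g₁ := by group
  have e2 : (D.r v d * g₁)⁻¹ * (D.r v d * g₂) = g₁⁻¹ * g₂ := by group
  have e3 : (D.r v d * g₀)⁻¹ • D.r v d • ω = g₀⁻¹ • ω := by
    rw [mul_inv_rev, mul_smul, inv_smul_smul]
  rw [e1, e2, e3]
  exact ((y (g₀⁻¹ * g₁, g₁⁻¹ * g₂) (MonoidAlgebra.single (g₀⁻¹ • ω) 1)).2 v).1 d g₀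

lemma j2dΨ_cocycle (hy : ∀ s, dTwo (permZ G Ω) (PTJ D) y s = 0) (v : ι) (ω : Ω)
    (g₀ g₁ g₂ g₃ : G) :
    j2dΨ D Ω y v ω g₁ g₂ g₃ - j2dΨ D Ω y v ω g₀ g₂ g₃ + j2dΨ D Ω y v ω g₀ g₁ g₃ -
      j2dΨ D Ω y v ω g₀ g₁ g₂ = 0 := by
  have h := congrArg (fun f : (permZ G Ω).V →+ (PTJ D).V =>
    (f (MonoidAlgebra.single (g₀⁻¹ • ω) 1)).1 v g₀) (hy (g₀⁻¹ * g₁, g₁⁻¹ * g₂, g₂⁻¹ * g₃))
  have e1 : g₀⁻¹ * g₁ * (g₁⁻¹ * g₂) = g₀⁻¹ * g₂ := by group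
  have e2 : g₁⁻¹ * g₂ * (g₂⁻¹ * g₃) = g₁⁻¹ * g₃ := by group
  have e3 : (permZ G Ω).ρ (g₀⁻¹ * g₁)⁻¹ (MonoidAlgebra.single (g₀⁻¹ • ω) 1) =
      MonoidAlgebra.single (g₁⁻¹ • ω) 1 := by
    rw [in1p_ρ_single]
    congr 1
    rw [mul_inv_rev, inv_inv, mul_smul, smul_inv_smul]
  have h' : ((PTJ D).ρ (g₀⁻¹ * g₁) (y (g₁⁻¹ * g₂, g₂⁻¹ * g₃)
        ((permZ G Ω).ρ (g₀⁻¹ * g₁)⁻¹ (MonoidAlgebra.single (g₀⁻¹ • ω) 1)))).1 v g₀ -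
      (y (g₀⁻¹ * g₁ * (g₁⁻¹ * g₂), g₂⁻¹ * g₃) (MonoidAlgebra.single (g₀⁻¹ • ω) 1)).1 v g₀ +
      (y (g₀⁻¹ * g₁, g₁⁻¹ * g₂ * (g₂⁻¹ * g₃)) (MonoidAlgebra.single (g₀⁻¹ • ω) 1)).1 v g₀ -
      (y (g₀⁻¹ * g₁, g₁⁻¹ * g₂) (MonoidAlgebra.single (g₀⁻¹ • ω) 1)).1 v g₀ = 0 := h
  rw [e1, e2, e3] at h'
  have e4 : ((PTJ D).ρ (g₀⁻¹ * g₁) (y (g₁⁻¹ * g₂, g₂⁻¹ * g₃)
      (MonoidAlgebra.single (g₁⁻¹ • ω) 1))).1 v g₀ =
      (y (g₁⁻¹ * g₂, g₂⁻¹ * g₃) (MonoidAlgebra.single (g₁⁻¹ • ω) 1)).1 v g₁ := by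
    show (y (g₁⁻¹ * g₂, g₂⁻¹ * g₃) (MonoidAlgebra.single (g₁⁻¹ • ω) 1)).1 v
      (g₀ * (g₀⁻¹ * g₁)) = _
    rw [mul_inv_cancel_left]
  rw [e4] at h'
  exact h'

lemma j2dΨ_level (hy : ∀ s, dTwo (permZ G Ω) (PTJ D) y s = 0) (U : Subgroup G)
    (hUn : U.Normal)
    (hUy : ∀ g g' s s' : G, s ∈ U → s' ∈ U → y (g * s, g' * s') = y (g, g'))
    (hUΩ : ∀ s ∈ U, ∀ ω : Ω, s • ω = ω) (v : ι) (ω : Ω)
    (g₀ g₁ g₂ u₀ u₁ u₂ : G) (hu₀ : u₀ ∈ U) (hu₁ : u₁ ∈ U) (hu₂ : u₂ ∈ U) :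
    j2dΨ D Ω y v ω (g₀ * u₀) (g₁ * u₁) (g₂ * u₂) = j2dΨ D Ω y v ω g₀ g₁ g₂ := by
  unfold j2dΨ
  have hb := fun u hu a b => j2d_biinv (permZ G Ω) (PTJ D) y hy U hUn hUy u hu a b
  -- the arguments of `y`
  have e1 : y ((g₀ * u₀)⁻¹ * (g₁ * u₁), (g₁ * u₁)⁻¹ * (g₂ * u₂)) =
      y (g₀⁻¹ * g₁, g₁⁻¹ * g₂) := by
    have a1 : (g₀ * u₀)⁻¹ * (g₁ * u₁) = u₀⁻¹ * (g₀⁻¹ * g₁ * u₁) := by group
    have a2 : (g₁ * u₁)⁻¹ * (g₂ * u₂) =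
        g₁⁻¹ * g₂ * ((g₁⁻¹ * g₂)⁻¹ * u₁⁻¹ * (g₁⁻¹ * g₂) * u₂) := by group
    have hc : (g₁⁻¹ * g₂)⁻¹ * u₁⁻¹ * (g₁⁻¹ * g₂) * u₂ ∈ U := by
      refine U.mul_mem ?_ hu₂
      simpa using hUn.conj_mem u₁⁻¹ (U.inv_mem hu₁) (g₁⁻¹ * g₂)⁻¹
    rw [a1, a2, (hb u₀⁻¹ (U.inv_mem hu₀) _ _).1]
    exact hUy _ _ _ _ hu₁ hc
  rw [e1]
  -- the value is `U`-invariant
  have e2 := (hb u₀ hu₀ (g₀⁻¹ * g₁) (g₁⁻¹ * g₂)).2
  have e3 := congrArg (fun f : (permZ G Ω).V →+ (PTJ D).V =>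
    (f (MonoidAlgebra.single (g₀⁻¹ • ω) 1)).1 v g₀) e2
  have e4 : ((PTJ D).ρ u₀ (y (g₀⁻¹ * g₁, g₁⁻¹ * g₂)
      ((permZ G Ω).ρ u₀⁻¹ (MonoidAlgebra.single (g₀⁻¹ • ω) 1)))).1 v g₀ =
      (y (g₀⁻¹ * g₁, g₁⁻¹ * g₂) (MonoidAlgebra.single (g₀⁻¹ • ω) 1)).1 v g₀ := e3
  rw [← e4, in1p_ρ_single]
  have e5 : (g₀ * u₀)⁻¹ • ω = u₀⁻¹ • g₀⁻¹ • ω := by
    rw [mul_inv_rev, mul_smul]
  rw [e5]
  rfl

end Dict

/-! ### Part 3b: from homogeneous families back to cochains -/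

section Back

variable {p : ℕ} {G : Type} [Group G] {ι : Type} {Gloc : ι → Type} [∀ v, Group (Gloc v)]
  (D : PTDatum p G ι Gloc) (Ω : Type) [MulAction G Ω]

open Classical in
/-- the element of `J` with prescribed components (`0` if they do not define an element) -/
def j2dJ (f : ∀ v, G → (D.Jloc v).V) : (PTJ D).V :=
  if h : f ∈ semilocalSub D.𝒯 D.r D.Jloc then (show (PTJ D).V from ⟨f, h⟩) else 0

lemma j2dJ_apply (f : ∀ v, G → (D.Jloc v).V) (h : f ∈ semilocalSub D.𝒯 D.r D.Jloc) (v : ι)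
    (g : G) : (j2dJ D f).1 v g = f v g := by
  have e : j2dJ D f = (show (PTJ D).V from ⟨f, h⟩) := dif_pos h
  rw [e]

/-- the components of `w(σ,τ)(δ_ω)` -/
def j2dFun2 (W : ∀ v, Ω → G → G → G → (D.Jloc v).V) (σ τ : G) (ω : Ω) :
    ∀ v, G → (D.Jloc v).V :=
  fun v g => W v (g • ω) g (g * σ) (g * σ * τ)

/-- the components of `t(σ)(δ_ω)` -/
def j2dFun1 (Θ : ∀ v, Ω → G → G → (D.Jloc v).V) (σ : G) (ω : Ω) : ∀ v, G → (D.Jloc v).V :=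
  fun v g => Θ v (g • ω) g (g * σ)

/-- the 2-cochain attached to a family `W` -/
def j2dW (W : ∀ v, Ω → G → G → G → (D.Jloc v).V) (στ : G × G) :
    (permZ G Ω).V →+ (PTJ D).V :=
  in1p_lift Ω (fun ω => j2dJ D (j2dFun2 D Ω W στ.1 στ.2 ω))

/-- the 1-cochain attached to a family `Θ` -/
def j2dT (Θ : ∀ v, Ω → G → G → (D.Jloc v).V) (σ : G) : (permZ G Ω).V →+ (PTJ D).V :=
  in1p_lift Ω (fun ω => j2dJ D (j2dFun1 D Ω Θ σ ω))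

variable (U : Subgroup G) (hU : U ∈ D.𝒯.lev) (hUn : U.Normal)
  (hUΩ : ∀ s ∈ U, ∀ ω : Ω, s • ω = ω)

section W

variable (W : ∀ v, Ω → G → G → G → (D.Jloc v).V)
  (hW1 : ∀ (v : ι) (ω : Ω) (d : Gloc v) (g₀ g₁ g₂ : G),
    W v (D.r v d • ω) (D.r v d * g₀) (D.r v d * g₁) (D.r v d * g₂) =
      (D.Jloc v).ρ d (W v ω g₀ g₁ g₂))
  (hW3 : ∀ (v : ι) (ω : Ω) (g₀ g₁ g₂ u₀ u₁ u₂ : G), u₀ ∈ U → u₁ ∈ U → u₂ ∈ U →
    W v ω (g₀ * u₀) (g₁ * u₁) (g₂ * u₂) = W v ω g₀ g₁ g₂)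

include hU hUn hUΩ hW1 hW3 in
lemma j2dFun2_mem (σ τ : G) (ω : Ω) :
    j2dFun2 D Ω W σ τ ω ∈ semilocalSub D.𝒯 D.r D.Jloc := by
  intro v
  refine ⟨fun d g => ?_, ⟨U, hU, fun g u hu => ?_⟩⟩
  · show W v ((D.r v d * g) • ω) (D.r v d * g) (D.r v d * g * σ) (D.r v d * g * σ * τ) =
      (D.Jloc v).ρ d (W v (g • ω) g (g * σ) (g * σ * τ))
    rw [mul_smul, mul_assoc, mul_assoc, mul_assoc, hW1, ← mul_assoc]
  · show W v ((g * u) • ω) (g * u) (g * u * σ) (g * u * σ * τ) =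
      W v (g • ω) g (g * σ) (g * σ * τ)
    have h1 : g * u * σ = g * σ * (σ⁻¹ * u * σ) := by group
    have h2 : g * u * σ * τ = g * σ * τ * ((σ * τ)⁻¹ * u * (σ * τ)) := by group
    have c1 : σ⁻¹ * u * σ ∈ U := by simpa using hUn.conj_mem u hu σ⁻¹
    have c2 : (σ * τ)⁻¹ * u * (σ * τ) ∈ U := by simpa using hUn.conj_mem u hu (σ * τ)⁻¹
    rw [mul_smul, hUΩ u hu, h2, h1]
    exact hW3 v _ _ _ _ _ _ _ hu c1 c2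

include hU hUn hUΩ hW1 hW3 in
lemma j2dW_apply (σ τ : G) (ω : Ω) (v : ι) (g : G) :
    (j2dW D Ω W (σ, τ) (MonoidAlgebra.single ω 1)).1 v g = W v (g • ω) g (g * σ) (g * σ * τ) := by
  unfold j2dW
  rw [in1p_lift_single, one_zsmul,
    j2dJ_apply D _ (j2dFun2_mem D Ω U hU hUn hUΩ W hW1 hW3 σ τ ω)]
  rfl

include hU hUn hUΩ hW1 hW3 in
lemma j2dW_level : IsLevel₂ D.𝒯 (j2dW D Ω W) := by
  refine ⟨U, hU, fun g g' s s' hs hs' => ?_⟩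
  apply in1p_ext
  intro ω
  apply in2a_J_ext
  intro v x
  rw [j2dW_apply D Ω U hU hUn hUΩ W hW1 hW3, j2dW_apply D Ω U hU hUn hUΩ W hW1 hW3]
  have h1 : x * (g * s) = x * g * s := by group
  have h2 : x * (g * s) * (g' * s') = x * g * g' * (g'⁻¹ * s * g' * s') := by group
  have c : g'⁻¹ * s * g' * s' ∈ U := by
    refine U.mul_mem ?_ hs'
    simpa using hUn.conj_mem s hs g'⁻¹
  rw [h2, h1]
  have := hW3 v (x • ω) x (x * g) (x * g * g') 1 s _ U.one_mem hs c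
  rw [mul_one] at this
  exact this

include hU hUn hUΩ hW1 hW3 in
lemma j2dW_cocycle
    (hW2 : ∀ (v : ι) (ω : Ω) (g₀ g₁ g₂ g₃ : G),
      W v ω g₁ g₂ g₃ - W v ω g₀ g₂ g₃ + W v ω g₀ g₁ g₃ - W v ω g₀ g₁ g₂ = 0)
    (s : G × G × G) : dTwo (permZ G Ω) (PTJ D) (j2dW D Ω W) s = 0 := by
  obtain ⟨σ, τ, ρ⟩ := s
  apply in1p_ext
  intro ω
  apply in2a_J_ext
  intro v g
  show ((PTJ D).ρ σ (j2dW D Ω W (τ, ρ) ((permZ G Ω).ρ σ⁻¹ (MonoidAlgebra.single ω 1)))).1 v g -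
      (j2dW D Ω W (σ * τ, ρ) (MonoidAlgebra.single ω 1)).1 v g +
      (j2dW D Ω W (σ, τ * ρ) (MonoidAlgebra.single ω 1)).1 v g -
      (j2dW D Ω W (σ, τ) (MonoidAlgebra.single ω 1)).1 v g = 0
  have e1 : ((PTJ D).ρ σ (j2dW D Ω W (τ, ρ)
      ((permZ G Ω).ρ σ⁻¹ (MonoidAlgebra.single ω 1)))).1 v g =
      (j2dW D Ω W (τ, ρ) (MonoidAlgebra.single (σ⁻¹ • ω) 1)).1 v (g * σ) := by
    rw [in1p_ρ_single]
    rfl
  rw [e1, j2dW_apply D Ω U hU hUn hUΩ W hW1 hW3, j2dW_apply D Ω U hU hUn hUΩ W hW1 hW3,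
    j2dW_apply D Ω U hU hUn hUΩ W hW1 hW3, j2dW_apply D Ω U hU hUn hUΩ W hW1 hW3]
  have e2 : (g * σ) • σ⁻¹ • ω = g • ω := by rw [mul_smul, smul_inv_smul]
  have e3 : g * (σ * τ) = g * σ * τ := by group
  have e4 : g * σ * (τ * ρ) = g * σ * τ * ρ := by group
  rw [e2, e3, e4]
  exact hW2 v (g • ω) g (g * σ) (g * σ * τ) (g * σ * τ * ρ)

end W

section T

variable (Θ : ∀ v, Ω → G → G → (D.Jloc v).V)
  (hΘ1 : ∀ (v : ι) (ω : Ω) (d : Gloc v) (g₀ g₁ : G),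
    Θ v (D.r v d • ω) (D.r v d * g₀) (D.r v d * g₁) = (D.Jloc v).ρ d (Θ v ω g₀ g₁))
  (hΘ3 : ∀ (v : ι) (ω : Ω) (g₀ g₁ u₀ u₁ : G), u₀ ∈ U → u₁ ∈ U →
    Θ v ω (g₀ * u₀) (g₁ * u₁) = Θ v ω g₀ g₁)

include hU hUn hUΩ hΘ1 hΘ3 in
lemma j2dFun1_mem (σ : G) (ω : Ω) :
    j2dFun1 D Ω Θ σ ω ∈ semilocalSub D.𝒯 D.r D.Jloc := by
  intro v
  refine ⟨fun d g => ?_, ⟨U, hU, fun g u hu => ?_⟩⟩
  · show Θ v ((D.r v d * g) • ω) (D.r v d * g) (D.r v d * g * σ) =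
      (D.Jloc v).ρ d (Θ v (g • ω) g (g * σ))
    rw [mul_smul, mul_assoc, hΘ1]
  · show Θ v ((g * u) • ω) (g * u) (g * u * σ) = Θ v (g • ω) g (g * σ)
    have h1 : g * u * σ = g * σ * (σ⁻¹ * u * σ) := by group
    have c1 : σ⁻¹ * u * σ ∈ U := by simpa using hUn.conj_mem u hu σ⁻¹
    rw [mul_smul, hUΩ u hu, h1]
    exact hΘ3 v _ _ _ _ _ hu c1

include hU hUn hUΩ hΘ1 hΘ3 in
lemma j2dT_apply (σ : G) (ω : Ω) (v : ι) (g : G) :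
    (j2dT D Ω Θ σ (MonoidAlgebra.single ω 1)).1 v g = Θ v (g • ω) g (g * σ) := by
  unfold j2dT
  rw [in1p_lift_single, one_zsmul,
    j2dJ_apply D _ (j2dFun1_mem D Ω U hU hUn hUΩ Θ hΘ1 hΘ3 σ ω)]
  rfl

include hU hUn hUΩ hΘ1 hΘ3 in
lemma j2dT_level : IsLevel₁ D.𝒯 (j2dT D Ω Θ) := by
  refine ⟨U, hU, fun g s hs => ?_⟩
  apply in1p_ext
  intro ω
  apply in2a_J_ext
  intro v x
  rw [j2dT_apply D Ω U hU hUn hUΩ Θ hΘ1 hΘ3, j2dT_apply D Ω U hU hUn hUΩ Θ hΘ1 hΘ3]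
  have h1 : x * (g * s) = x * g * s := by group
  rw [h1]
  have := hΘ3 v (x • ω) x (x * g) 1 s U.one_mem hs
  rw [mul_one] at this
  exact this

include hU hUn hUΩ hΘ1 hΘ3 in
lemma j2dT_dOne_apply (σ τ : G) (ω : Ω) (v : ι) (g : G) :
    (dOne (permZ G Ω) (PTJ D) (j2dT D Ω Θ) (σ, τ) (MonoidAlgebra.single ω 1)).1 v g =
      Θ v (g • ω) (g * σ) (g * σ * τ) - Θ v (g • ω) g (g * σ * τ) + Θ v (g • ω) g (g * σ) := by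
  show ((PTJ D).ρ σ (j2dT D Ω Θ τ ((permZ G Ω).ρ σ⁻¹ (MonoidAlgebra.single ω 1)))).1 v g -
      (j2dT D Ω Θ (σ * τ) (MonoidAlgebra.single ω 1)).1 v g +
      (j2dT D Ω Θ σ (MonoidAlgebra.single ω 1)).1 v g = _
  have e1 : ((PTJ D).ρ σ (j2dT D Ω Θ τ
      ((permZ G Ω).ρ σ⁻¹ (MonoidAlgebra.single ω 1)))).1 v g =
      (j2dT D Ω Θ τ (MonoidAlgebra.single (σ⁻¹ • ω) 1)).1 v (g * σ) := by
    rw [in1p_ρ_single]
    rfl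
  rw [e1, j2dT_apply D Ω U hU hUn hUΩ Θ hΘ1 hΘ3, j2dT_apply D Ω U hU hUn hUΩ Θ hΘ1 hΘ3,
    j2dT_apply D Ω U hU hUn hUΩ Θ hΘ1 hΘ3]
  have e2 : (g * σ) • σ⁻¹ • ω = g • ω := by rw [mul_smul, smul_inv_smul]
  have e3 : g * (σ * τ) = g * σ * τ := by group
  rw [e2, e3]

end T

end Back

/-! ### Part 4a: from the orbit representatives to jointly equivariant families -/

section Family

variable {G H X : Type} [Group G] [Group H] [AddCommGroup X] (r : H →* G)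
  {Ω : Type} [MulAction G Ω] (act : H → X →+ X)

theorem j2d_family (hact : ∀ d d' x, act (d * d') x = act d (act d' x))
    (U : Subgroup G) (p n : ℕ) (n₀ m : Ω → ℕ) (hn : ∀ ω, n = m ω * n₀ ω)
    (Ψ : Ω → G → G → G → X)
    (hΨ1 : ∀ ω d g₀ g₁ g₂,
      Ψ (r d • ω) (r d * g₀) (r d * g₁) (r d * g₂) = act d (Ψ ω g₀ g₁ g₂))
    (W₀ : Ω → G → G → G → X) (Θ₀ : Ω → G → G → X)
    (hW1 : ∀ ω d g₀ g₁ g₂, r d • ω = ω →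
      W₀ ω (r d * g₀) (r d * g₁) (r d * g₂) = act d (W₀ ω g₀ g₁ g₂))
    (hW2 : ∀ ω g₀ g₁ g₂ g₃,
      W₀ ω g₁ g₂ g₃ - W₀ ω g₀ g₂ g₃ + W₀ ω g₀ g₁ g₃ - W₀ ω g₀ g₁ g₂ = 0)
    (hW3 : ∀ ω g₀ g₁ g₂ u₀ u₁ u₂, u₀ ∈ U → u₁ ∈ U → u₂ ∈ U →
      W₀ ω (g₀ * u₀) (g₁ * u₁) (g₂ * u₂) = W₀ ω g₀ g₁ g₂)
    (hΘ1 : ∀ ω d g₀ g₁, r d • ω = ω → Θ₀ ω (r d * g₀) (r d * g₁) = act d (Θ₀ ω g₀ g₁))
    (hΘ3 : ∀ ω g₀ g₁ u₀ u₁, u₀ ∈ U → u₁ ∈ U → Θ₀ ω (g₀ * u₀) (g₁ * u₁) = Θ₀ ω g₀ g₁)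
    (h : ∀ ω g₀ g₁ g₂, n₀ ω • Ψ ω g₀ g₁ g₂ =
      p • W₀ ω g₀ g₁ g₂ + (Θ₀ ω g₁ g₂ - Θ₀ ω g₀ g₂ + Θ₀ ω g₀ g₁)) :
    ∃ (W : Ω → G → G → G → X) (Θ : Ω → G → G → X),
      (∀ ω d g₀ g₁ g₂,
        W (r d • ω) (r d * g₀) (r d * g₁) (r d * g₂) = act d (W ω g₀ g₁ g₂)) ∧
      (∀ ω g₀ g₁ g₂ g₃, W ω g₁ g₂ g₃ - W ω g₀ g₂ g₃ + W ω g₀ g₁ g₃ - W ω g₀ g₁ g₂ = 0) ∧
      (∀ ω g₀ g₁ g₂ u₀ u₁ u₂, u₀ ∈ U → u₁ ∈ U → u₂ ∈ U →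
        W ω (g₀ * u₀) (g₁ * u₁) (g₂ * u₂) = W ω g₀ g₁ g₂) ∧
      (∀ ω d g₀ g₁, Θ (r d • ω) (r d * g₀) (r d * g₁) = act d (Θ ω g₀ g₁)) ∧
      (∀ ω g₀ g₁ u₀ u₁, u₀ ∈ U → u₁ ∈ U → Θ ω (g₀ * u₀) (g₁ * u₁) = Θ ω g₀ g₁) ∧
      ∀ ω g₀ g₁ g₂,
        n • Ψ ω g₀ g₁ g₂ = p • W ω g₀ g₁ g₂ + (Θ ω g₁ g₂ - Θ ω g₀ g₂ + Θ ω g₀ g₁) := by
  let F₃ : Ω → G × G × G → X := fun ω s => m ω • W₀ ω s.1 s.2.1 s.2.2
  let F₂ : Ω → G × G → X := fun ω s => m ω • Θ₀ ω s.1 s.2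
  have hF₃ : ∀ ω d (s : G × G × G), r d • ω = ω → F₃ ω (r d • s) = act d (F₃ ω s) := by
    rintro ω d ⟨g₀, g₁, g₂⟩ hd
    show m ω • W₀ ω (r d * g₀) (r d * g₁) (r d * g₂) = act d (m ω • W₀ ω g₀ g₁ g₂)
    rw [hW1 ω d g₀ g₁ g₂ hd, map_nsmul]
  have hF₂ : ∀ ω d (s : G × G), r d • ω = ω → F₂ ω (r d • s) = act d (F₂ ω s) := by
    rintro ω d ⟨g₀, g₁⟩ hd
    show m ω • Θ₀ ω (r d * g₀) (r d * g₁) = act d (m ω • Θ₀ ω g₀ g₁)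
    rw [hΘ1 ω d g₀ g₁ hd, map_nsmul]
  have hW : ∀ ω g₀ g₁ g₂, j2dExt r act F₃ ω (g₀, g₁, g₂) =
      act (permSh1_g r ω) (m (permSh1_rep r ω) • W₀ (permSh1_rep r ω)
        ((r (permSh1_g r ω))⁻¹ * g₀) ((r (permSh1_g r ω))⁻¹ * g₁)
        ((r (permSh1_g r ω))⁻¹ * g₂)) := fun ω g₀ g₁ g₂ => rfl
  have hΘ : ∀ ω g₀ g₁, j2dExt r act F₂ ω (g₀, g₁) =
      act (permSh1_g r ω) (m (permSh1_rep r ω) • Θ₀ (permSh1_rep r ω)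
        ((r (permSh1_g r ω))⁻¹ * g₀) ((r (permSh1_g r ω))⁻¹ * g₁)) := fun ω g₀ g₁ => rfl
  refine ⟨fun ω g₀ g₁ g₂ => j2dExt r act F₃ ω (g₀, g₁, g₂),
    fun ω g₀ g₁ => j2dExt r act F₂ ω (g₀, g₁), ?_, ?_, ?_, ?_, ?_, ?_⟩
  · intro ω d g₀ g₁ g₂
    exact j2dExt_equiv r act hact F₃ hF₃ ω d (g₀, g₁, g₂)
  · intro ω g₀ g₁ g₂ g₃
    simp only [hW]
    rw [← map_sub, ← map_add, ← map_sub, ← smul_sub, ← smul_add, ← smul_sub, hW2, smul_zero,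
      map_zero]
  · intro ω g₀ g₁ g₂ u₀ u₁ u₂ hu₀ hu₁ hu₂
    simp only [hW]
    rw [← mul_assoc, ← mul_assoc, ← mul_assoc, hW3 _ _ _ _ _ _ _ hu₀ hu₁ hu₂]
  · intro ω d g₀ g₁
    exact j2dExt_equiv r act hact F₂ hF₂ ω d (g₀, g₁)
  · intro ω g₀ g₁ u₀ u₁ hu₀ hu₁
    simp only [hΘ]
    rw [← mul_assoc, ← mul_assoc, hΘ3 _ _ _ _ _ hu₀ hu₁]
  · intro ω g₀ g₁ g₂
    have hΨ : Ψ ω g₀ g₁ g₂ = act (permSh1_g r ω) (Ψ (permSh1_rep r ω)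
        ((r (permSh1_g r ω))⁻¹ * g₀) ((r (permSh1_g r ω))⁻¹ * g₁)
        ((r (permSh1_g r ω))⁻¹ * g₂)) := by
      have := hΨ1 (permSh1_rep r ω) (permSh1_g r ω) ((r (permSh1_g r ω))⁻¹ * g₀)
        ((r (permSh1_g r ω))⁻¹ * g₁) ((r (permSh1_g r ω))⁻¹ * g₂)
      rw [permSh1_g_spec, mul_inv_cancel_left, mul_inv_cancel_left, mul_inv_cancel_left] at this
      exact this
    simp only [hW, hΘ]
    rw [hΨ, ← map_nsmul, hn (permSh1_rep r ω), mul_smul, h, ← map_nsmul, ← map_sub, ← map_add,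
      ← map_add]
    congr 1
    simp only [smul_add, smul_sub]
    rw [smul_comm p (m (permSh1_rep r ω))]

end Family

/-! ### Part 4b: assembly -/

section Assembly

variable {p : ℕ} {G : Type} [Group G] {ι : Type} {Gloc : ι → Type} [∀ v, Group (Gloc v)]
  (D : PTDatum p G ι Gloc) (Ω : Type) [MulAction G Ω]

/-- the local step at one place `v` and one point `ω`: A4-loc + `j2d_core`. -/
theorem j2d_local [Fact p.Prime] [Fintype ι] (hLoc : StmtJ2Loc) (hdepth : HasPDepthGlob D)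
    (y : G × G → ((permZ G Ω).V →+ (PTJ D).V))
    (hy : ∀ s, dTwo (permZ G Ω) (PTJ D) y s = 0) (U : Subgroup G) (hU : U ∈ D.𝒯.lev)
    (hUn : U.Normal)
    (hUy : ∀ g g' s s' : G, s ∈ U → s' ∈ U → y (g * s, g' * s') = y (g, g'))
    (hUΩ : ∀ s ∈ U, ∀ ω : Ω, s • ω = ω) (v : ι) (ω : Ω) :
    ∃ n : ℕ, ¬ p ∣ n ∧ ∃ U' ∈ D.𝒯.lev, U' ≤ U ∧ U'.Normal ∧
      ∃ (W : G → G → G → (D.Jloc v).V) (Θ : G → G → (D.Jloc v).V),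
        (∀ (d : Gloc v) (g₀ g₁ g₂ : G), D.r v d • ω = ω →
          W (D.r v d * g₀) (D.r v d * g₁) (D.r v d * g₂) = (D.Jloc v).ρ d (W g₀ g₁ g₂)) ∧
        (∀ g₀ g₁ g₂ g₃ : G, W g₁ g₂ g₃ - W g₀ g₂ g₃ + W g₀ g₁ g₃ - W g₀ g₁ g₂ = 0) ∧
        (∀ g₀ g₁ g₂ u₀ u₁ u₂ : G, u₀ ∈ U' → u₁ ∈ U' → u₂ ∈ U' →
          W (g₀ * u₀) (g₁ * u₁) (g₂ * u₂) = W g₀ g₁ g₂) ∧
        (∀ (d : Gloc v) (g₀ g₁ : G), D.r v d • ω = ω →
          Θ (D.r v d * g₀) (D.r v d * g₁) = (D.Jloc v).ρ d (Θ g₀ g₁)) ∧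
        (∀ g₀ g₁ u₀ u₁ : G, u₀ ∈ U' → u₁ ∈ U' → Θ (g₀ * u₀) (g₁ * u₁) = Θ g₀ g₁) ∧
        ∀ g₀ g₁ g₂ : G, n • j2dΨ D Ω y v ω g₀ g₁ g₂ =
          p • W g₀ g₁ g₂ + (Θ g₁ g₂ - Θ g₀ g₂ + Θ g₀ g₁) := by
  let K : Subgroup (Gloc v) := (MulAction.stabilizer G ω).comap (D.r v)
  have hKmem : ∀ k : K, D.r v (k : Gloc v) • ω = ω := fun k =>
    MulAction.mem_stabilizer_iff.1 k.2
  have hK : U.comap (D.r v) ≤ K := fun s hs =>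
    MulAction.mem_stabilizer_iff.2 (hUΩ _ hs ω)
  have hΨeq : ∀ (d : Gloc v) (g₀ g₁ g₂ : G), D.r v d • ω = ω →
      j2dΨ D Ω y v ω (D.r v d * g₀) (D.r v d * g₁) (D.r v d * g₂) =
        (D.Jloc v).ρ d (j2dΨ D Ω y v ω g₀ g₁ g₂) := by
    intro d g₀ g₁ g₂ hd
    have := j2dΨ_equiv D Ω y v ω d g₀ g₁ g₂
    rwa [hd] at this
  obtain ⟨n, hn, U', hU', hU'le, hU'n, w, hw1, hw2, hw3, t, ht1, ht3, h⟩ :=
    hLoc p G ι Gloc D hdepth v K U hU hUn hK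
      (fun k₀ k₁ k₂ => j2dΨ D Ω y v ω (D.r v k₀) (D.r v k₁) (D.r v k₂))
      (fun k k₀ k₁ k₂ => by
        show j2dΨ D Ω y v ω (D.r v ((k * k₀ : K) : Gloc v)) (D.r v ((k * k₁ : K) : Gloc v))
          (D.r v ((k * k₂ : K) : Gloc v)) = _
        rw [Subgroup.coe_mul, Subgroup.coe_mul, Subgroup.coe_mul, map_mul, map_mul, map_mul]
        exact hΨeq k _ _ _ (hKmem k))
      (fun k₀ k₁ k₂ k₃ => j2dΨ_cocycle D Ω y hy v ω _ _ _ _)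
      (fun k₀ k₁ k₂ s₀ s₁ s₂ hs₀ hs₁ hs₂ => by
        show j2dΨ D Ω y v ω (D.r v ((k₀ * s₀ : K) : Gloc v)) (D.r v ((k₁ * s₁ : K) : Gloc v))
          (D.r v ((k₂ * s₂ : K) : Gloc v)) = _
        rw [Subgroup.coe_mul, Subgroup.coe_mul, Subgroup.coe_mul, map_mul, map_mul, map_mul]
        exact j2dΨ_level D Ω y hy U hUn hUy hUΩ v ω _ _ _ _ _ _ hs₀ hs₁ hs₂)
  have := hU'n
  obtain ⟨W, hW1, hW2, hW3, Θ, hΘ1, hΘ3, hWΘ⟩ :=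
    j2d_core ((D.r v).comp K.subtype) (fun k : K => actAdd (D.Jloc v) (k : Gloc v)) U' n p
      (j2dΨ D Ω y v ω) w t
      (fun k g₀ g₁ g₂ => hΨeq k g₀ g₁ g₂ (hKmem k))
      (fun g₀ g₁ g₂ g₃ => j2dΨ_cocycle D Ω y hy v ω _ _ _ _)
      (fun g₀ g₁ g₂ u₀ u₁ u₂ hu₀ hu₁ hu₂ =>
        j2dΨ_level D Ω y hy U hUn hUy hUΩ v ω _ _ _ _ _ _ (hU'le hu₀) (hU'le hu₁) (hU'le hu₂))
      hw1 hw2 hw3 ht1 ht3 h
  refine ⟨n, hn, U', hU', hU'le, hU'n, W, Θ, ?_, hW2, hW3, ?_, hΘ3, hWΘ⟩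
  · intro d g₀ g₁ g₂ hd
    exact hW1 ⟨d, MulAction.mem_stabilizer_iff.2 hd⟩ g₀ g₁ g₂
  · intro d g₀ g₁ hd
    exact hΘ1 ⟨d, MulAction.mem_stabilizer_iff.2 hd⟩ g₀ g₁

/-- **A4-glue**: `StmtJ2Loc → StmtJ2Div`. -/
theorem stmtJ2Div_of (hLoc : StmtJ2Loc) : StmtJ2Div := by
  intro p hp G _ ι _ Gloc _ D hdepth Ω _ _ hΩ y hylev hycoc
  classical
  obtain ⟨Uy, hUy, hyU⟩ := hylev
  obtain ⟨UΩ, hUΩ, hΩU⟩ := hΩ
  obtain ⟨U, hU, hUle1, hUle2, hUn⟩ := tower_exists_normal_le₂ D.𝒯 hUy hUΩ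
  have hyU' : ∀ g g' s s' : G, s ∈ U → s' ∈ U → y (g * s, g' * s') = y (g, g') :=
    fun g g' s s' hs hs' => hyU g g' s s' (hUle1 hs) (hUle1 hs')
  have hΩU' : ∀ s ∈ U, ∀ ω : Ω, s • ω = ω := fun s hs ω => hΩU s (hUle2 hs) ω
  -- the local data
  have hloc := fun (v : ι) (ω : Ω) =>
    j2d_local D Ω hLoc hdepth y hycoc U hU hUn hyU' hΩU' v ω
  choose n₀ hn₀ U₀ hU₀ hU₀le hU₀n W₀ Θ₀ hW1 hW2 hW3 hΘ1 hΘ3 hWΘ using hloc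
  -- a common normal level
  have hinf : (Finset.univ : Finset (ι × Ω)).inf (fun a => U₀ a.1 a.2) ⊓ U ∈ D.𝒯.lev :=
    D.𝒯.inf_mem _ _ (tower_finset_inf_mem D.𝒯 _ _ fun a _ => hU₀ a.1 a.2) hU
  obtain ⟨U', hU', hU'le, hU'n⟩ := D.𝒯.exists_normal _ hinf
  have hU'₀ : ∀ v ω, U' ≤ U₀ v ω := fun v ω =>
    (hU'le.trans inf_le_left).trans
      (Finset.inf_le (f := fun a : ι × Ω => U₀ a.1 a.2) (Finset.mem_univ (v, ω)))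
  have hU'U : U' ≤ U := hU'le.trans inf_le_right
  have hΩU'' : ∀ s ∈ U', ∀ ω : Ω, s • ω = ω := fun s hs ω => hΩU' s (hU'U hs) ω
  -- a common multiplier
  have hn : ¬ p ∣ ∏ a : ι × Ω, n₀ a.1 a.2 := by
    intro h
    obtain ⟨a, -, ha⟩ := (Prime.dvd_finsetProd_iff (Nat.Prime.prime hp.out) _).1 h
    exact hn₀ a.1 a.2 ha
  have hdvd : ∀ v ω, ∃ k, (∏ a : ι × Ω, n₀ a.1 a.2) = k * n₀ v ω := fun v ω => by
    obtain ⟨k, hk⟩ := Finset.dvd_prod_of_mem (fun a : ι × Ω => n₀ a.1 a.2)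
      (Finset.mem_univ (v, ω))
    exact ⟨k, by rw [hk, mul_comm]⟩
  choose m hm using hdvd
  -- jointly equivariant families
  have hfam := fun v : ι =>
    j2d_family (D.r v) (fun d : Gloc v => actAdd (D.Jloc v) d)
      (fun d d' x => by
        show (D.Jloc v).ρ (d * d') x = (D.Jloc v).ρ d ((D.Jloc v).ρ d' x)
        rw [map_mul]; rfl)
      U' p (∏ a : ι × Ω, n₀ a.1 a.2) (n₀ v) (m v) (hm v) (j2dΨ D Ω y v)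
      (fun ω d g₀ g₁ g₂ => j2dΨ_equiv D Ω y v ω d g₀ g₁ g₂)
      (W₀ v) (Θ₀ v)
      (fun ω d g₀ g₁ g₂ hd => hW1 v ω d g₀ g₁ g₂ hd)
      (fun ω g₀ g₁ g₂ g₃ => hW2 v ω g₀ g₁ g₂ g₃)
      (fun ω g₀ g₁ g₂ u₀ u₁ u₂ hu₀ hu₁ hu₂ =>
        hW3 v ω g₀ g₁ g₂ u₀ u₁ u₂ (hU'₀ v ω hu₀) (hU'₀ v ω hu₁) (hU'₀ v ω hu₂))
      (fun ω d g₀ g₁ hd => hΘ1 v ω d g₀ g₁ hd)
      (fun ω g₀ g₁ u₀ u₁ hu₀ hu₁ => hΘ3 v ω g₀ g₁ u₀ u₁ (hU'₀ v ω hu₀) (hU'₀ v ω hu₁))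
      (fun ω g₀ g₁ g₂ => hWΘ v ω g₀ g₁ g₂)
  choose W Θ hW1' hW2' hW3' hΘ1' hΘ3' hEq using hfam
  have hW1'' : ∀ (v : ι) (ω : Ω) (d : Gloc v) (g₀ g₁ g₂ : G),
      W v (D.r v d • ω) (D.r v d * g₀) (D.r v d * g₁) (D.r v d * g₂) =
        (D.Jloc v).ρ d (W v ω g₀ g₁ g₂) := fun v ω d g₀ g₁ g₂ => hW1' v ω d g₀ g₁ g₂
  have hΘ1'' : ∀ (v : ι) (ω : Ω) (d : Gloc v) (g₀ g₁ : G),
      Θ v (D.r v d • ω) (D.r v d * g₀) (D.r v d * g₁) = (D.Jloc v).ρ d (Θ v ω g₀ g₁) :=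
    fun v ω d g₀ g₁ => hΘ1' v ω d g₀ g₁
  refine ⟨∏ a : ι × Ω, n₀ a.1 a.2, hn, j2dW D Ω W,
    j2dW_level D Ω U' hU' hU'n hΩU'' W hW1'' hW3',
    j2dW_cocycle D Ω U' hU' hU'n hΩU'' W hW1'' hW3' hW2', j2dT D Ω Θ,
    j2dT_level D Ω U' hU' hU'n hΩU'' Θ hΘ1'' hΘ3', ?_⟩
  rintro ⟨σ, τ⟩
  apply in1p_ext
  intro ω
  apply in2a_J_ext
  intro v g
  show (∏ a : ι × Ω, n₀ a.1 a.2) • (y (σ, τ) (MonoidAlgebra.single ω 1)).1 v g =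
    p • (j2dW D Ω W (σ, τ) (MonoidAlgebra.single ω 1)).1 v g +
      (dOne (permZ G Ω) (PTJ D) (j2dT D Ω Θ) (σ, τ) (MonoidAlgebra.single ω 1)).1 v g
  rw [← j2dΨ_roundtrip, j2dW_apply D Ω U' hU' hU'n hΩU'' W hW1'' hW3',
    j2dT_dOne_apply D Ω U' hU' hU'n hΩU'' Θ hΘ1'' hΘ3']
  exact hEq v (g • ω) g (g * σ) (g * σ * τ)

end Assembly

end Fermat.Agent.TW.E

end


end ZBTW_046_1

/-! ### bundled: `Fermat.Agent.TW.E.C2Inv` -/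
section ZBTW_046_2
/-
TW-E / A5 (helper87), part 2: INVERSE SHAPIRO for a single place.

A local level 2-cocycle `x` of `J_v` defined at the level `r_v⁻¹ U` (`U` a normal global level)
with `p x = d t` is the `v`-component of a global level 2-cocycle `ξ` of `J`, supported at `v`,
with `p ξ = d t₁`:
  `ξ(σ, τ)_v(g) = X(π g, π (g σ), π (g σ τ))`,  `X(d₀, d₁, d₂) = d₀ x(d₀⁻¹ d₁, d₁⁻¹ d₂)`,
`π : G → G_v` a normalised choice of `G_v`-components (`j2d_exists_proj`).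
-/

set_option autoImplicit false
set_option linter.style.haveILetI false
set_option linter.unusedSectionVars false
set_option linter.unusedVariables false

noncomputable section

namespace Fermat.Agent.TW.E

open CategoryTheory groupCohomology Fermat.Agent.PT Fermat.Agent.PT.F

attribute [local instance 1100] Rep.hV2

/-! ### Part A: `J`-valued cochains from homogeneous families -/

section Fam

variable {p : ℕ} {G : Type} [Group G] {ι : Type} {Gloc : ι → Type} [∀ v, Group (Gloc v)]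
  (D : PTDatum p G ι Gloc)

/-- the 2-cochain of `J` with components `g ↦ W v g (g σ) (g σ τ)` -/
def c2sXi (W : ∀ v, G → G → G → (D.Jloc v).V) (στ : G × G) : (PTJ D).V :=
  j2dJ D (fun v g => W v g (g * στ.1) (g * στ.1 * στ.2))

/-- the 1-cochain of `J` with components `g ↦ Θ v g (g σ)` -/
def c2sTh (Θ : ∀ v, G → G → (D.Jloc v).V) (σ : G) : (PTJ D).V :=
  j2dJ D (fun v g => Θ v g (g * σ))

variable (U : Subgroup G) (hU : U ∈ D.𝒯.lev) (hUn : U.Normal)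

section W

variable (W : ∀ v, G → G → G → (D.Jloc v).V)
  (hW1 : ∀ (v : ι) (d : Gloc v) (g₀ g₁ g₂ : G),
    W v (D.r v d * g₀) (D.r v d * g₁) (D.r v d * g₂) = (D.Jloc v).ρ d (W v g₀ g₁ g₂))
  (hW3 : ∀ (v : ι) (g₀ g₁ g₂ u₀ u₁ u₂ : G), u₀ ∈ U → u₁ ∈ U → u₂ ∈ U →
    W v (g₀ * u₀) (g₁ * u₁) (g₂ * u₂) = W v g₀ g₁ g₂)

include hU hUn hW1 hW3 in
lemma c2sXi_mem (σ τ : G) :
    (fun v g => W v g (g * σ) (g * σ * τ)) ∈ semilocalSub D.𝒯 D.r D.Jloc := by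
  intro v
  refine ⟨fun d g => ?_, ⟨U, hU, fun g u hu => ?_⟩⟩
  · show W v (D.r v d * g) (D.r v d * g * σ) (D.r v d * g * σ * τ) =
      (D.Jloc v).ρ d (W v g (g * σ) (g * σ * τ))
    rw [mul_assoc, mul_assoc, mul_assoc, hW1, ← mul_assoc]
  · show W v (g * u) (g * u * σ) (g * u * σ * τ) = W v g (g * σ) (g * σ * τ)
    have h1 : g * u * σ = g * σ * (σ⁻¹ * u * σ) := by group
    have h2 : g * u * σ * τ = g * σ * τ * ((σ * τ)⁻¹ * u * (σ * τ)) := by group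
    have c1 : σ⁻¹ * u * σ ∈ U := by simpa using hUn.conj_mem u hu σ⁻¹
    have c2 : (σ * τ)⁻¹ * u * (σ * τ) ∈ U := by simpa using hUn.conj_mem u hu (σ * τ)⁻¹
    rw [h2, h1]
    exact hW3 v _ _ _ _ _ _ hu c1 c2

include hU hUn hW1 hW3 in
lemma c2sXi_apply (σ τ : G) (v : ι) (g : G) :
    (c2sXi D W (σ, τ)).1 v g = W v g (g * σ) (g * σ * τ) := by
  unfold c2sXi
  rw [j2dJ_apply D _ (c2sXi_mem D U hU hUn W hW1 hW3 σ τ)]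

include hU hUn hW1 hW3 in
lemma c2sXi_level : IsLevel₂ D.𝒯 (c2sXi D W) := by
  refine ⟨U, hU, fun g g' s s' hs hs' => ?_⟩
  apply in2a_J_ext
  intro v x
  rw [c2sXi_apply D U hU hUn W hW1 hW3, c2sXi_apply D U hU hUn W hW1 hW3]
  have h1 : x * (g * s) = x * g * s := by group
  have h2 : x * (g * s) * (g' * s') = x * g * g' * (g'⁻¹ * s * g' * s') := by group
  have c : g'⁻¹ * s * g' * s' ∈ U := by
    refine U.mul_mem ?_ hs'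
    simpa using hUn.conj_mem s hs g'⁻¹
  rw [h2, h1]
  have := hW3 v x (x * g) (x * g * g') 1 s _ U.one_mem hs c
  rw [mul_one] at this
  exact this

include hU hUn hW1 hW3 in
lemma c2sXi_cocycle
    (hW2 : ∀ (v : ι) (g₀ g₁ g₂ g₃ : G),
      W v g₁ g₂ g₃ - W v g₀ g₂ g₃ + W v g₀ g₁ g₃ - W v g₀ g₁ g₂ = 0) :
    c2sXi D W ∈ cocycles₂ (PTJ D) := by
  rw [mem_cocycles₂_def]
  intro σ τ ρ
  apply in2a_J_ext
  intro v g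
  show ((PTJ D).ρ σ (c2sXi D W (τ, ρ))).1 v g - (c2sXi D W (σ * τ, ρ)).1 v g +
      (c2sXi D W (σ, τ * ρ)).1 v g - (c2sXi D W (σ, τ)).1 v g = 0
  have e1 : ((PTJ D).ρ σ (c2sXi D W (τ, ρ))).1 v g = (c2sXi D W (τ, ρ)).1 v (g * σ) := rfl
  rw [e1, c2sXi_apply D U hU hUn W hW1 hW3, c2sXi_apply D U hU hUn W hW1 hW3,
    c2sXi_apply D U hU hUn W hW1 hW3, c2sXi_apply D U hU hUn W hW1 hW3]
  have e3 : g * (σ * τ) = g * σ * τ := by group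
  have e4 : g * σ * (τ * ρ) = g * σ * τ * ρ := by group
  rw [e3, e4]
  exact hW2 v g (g * σ) (g * σ * τ) (g * σ * τ * ρ)

end W

section T

variable (Θ : ∀ v, G → G → (D.Jloc v).V)
  (hΘ1 : ∀ (v : ι) (d : Gloc v) (g₀ g₁ : G),
    Θ v (D.r v d * g₀) (D.r v d * g₁) = (D.Jloc v).ρ d (Θ v g₀ g₁))
  (hΘ3 : ∀ (v : ι) (g₀ g₁ u₀ u₁ : G), u₀ ∈ U → u₁ ∈ U →
    Θ v (g₀ * u₀) (g₁ * u₁) = Θ v g₀ g₁)

include hU hUn hΘ1 hΘ3 in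
lemma c2sTh_mem (σ : G) :
    (fun v g => Θ v g (g * σ)) ∈ semilocalSub D.𝒯 D.r D.Jloc := by
  intro v
  refine ⟨fun d g => ?_, ⟨U, hU, fun g u hu => ?_⟩⟩
  · show Θ v (D.r v d * g) (D.r v d * g * σ) = (D.Jloc v).ρ d (Θ v g (g * σ))
    rw [mul_assoc, hΘ1]
  · show Θ v (g * u) (g * u * σ) = Θ v g (g * σ)
    have h1 : g * u * σ = g * σ * (σ⁻¹ * u * σ) := by group
    have c1 : σ⁻¹ * u * σ ∈ U := by simpa using hUn.conj_mem u hu σ⁻¹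
    rw [h1]
    exact hΘ3 v _ _ _ _ hu c1

include hU hUn hΘ1 hΘ3 in
lemma c2sTh_apply (σ : G) (v : ι) (g : G) :
    (c2sTh D Θ σ).1 v g = Θ v g (g * σ) := by
  unfold c2sTh
  rw [j2dJ_apply D _ (c2sTh_mem D U hU hUn Θ hΘ1 hΘ3 σ)]

include hU hUn hΘ1 hΘ3 in
lemma c2sTh_level : IsLevel₁ D.𝒯 (c2sTh D Θ) := by
  refine ⟨U, hU, fun g s hs => ?_⟩
  apply in2a_J_ext
  intro v x
  rw [c2sTh_apply D U hU hUn Θ hΘ1 hΘ3, c2sTh_apply D U hU hUn Θ hΘ1 hΘ3]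
  have h1 : x * (g * s) = x * g * s := by group
  rw [h1]
  have := hΘ3 v x (x * g) 1 s U.one_mem hs
  rw [mul_one] at this
  exact this

include hU hUn hΘ1 hΘ3 in
lemma c2sTh_d_apply (σ τ : G) (v : ι) (g : G) :
    ((d₁₂ (PTJ D)).hom (c2sTh D Θ) (σ, τ)).1 v g =
      Θ v (g * σ) (g * σ * τ) - Θ v g (g * σ * τ) + Θ v g (g * σ) := by
  rw [d₁₂_hom_apply]
  show ((PTJ D).ρ σ (c2sTh D Θ τ)).1 v g - (c2sTh D Θ (σ * τ)).1 v g + (c2sTh D Θ σ).1 v g = _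
  have e1 : ((PTJ D).ρ σ (c2sTh D Θ τ)).1 v g = (c2sTh D Θ τ).1 v (g * σ) := rfl
  rw [e1, c2sTh_apply D U hU hUn Θ hΘ1 hΘ3, c2sTh_apply D U hU hUn Θ hΘ1 hΘ3,
    c2sTh_apply D U hU hUn Θ hΘ1 hΘ3]
  have e3 : g * (σ * τ) = g * σ * τ := by group
  rw [e3]

end T

end Fam

/-! ### Part B: homogeneous cochains of a local cocycle -/

section Hom

variable {H : Type} [Group H] (A : Rep.{0} ℤ H)

/-- the homogeneous 2-cochain `(d₀, d₁, d₂) ↦ d₀ x(d₀⁻¹ d₁, d₁⁻¹ d₂)` -/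
def c2sHom₂ (x : H × H → A.V) (d₀ d₁ d₂ : H) : A.V :=
  A.ρ d₀ (x (d₀⁻¹ * d₁, d₁⁻¹ * d₂))

/-- the homogeneous 1-cochain `(d₀, d₁) ↦ d₀ t(d₀⁻¹ d₁)` -/
def c2sHom₁ (t : H → A.V) (d₀ d₁ : H) : A.V :=
  A.ρ d₀ (t (d₀⁻¹ * d₁))

lemma c2s_ρ_cancel (d₀ d₁ : H) (z : A.V) : A.ρ d₀ (A.ρ (d₀⁻¹ * d₁) z) = A.ρ d₁ z := by
  have : A.ρ d₁ = A.ρ d₀ * A.ρ (d₀⁻¹ * d₁) := by rw [← map_mul, mul_inv_cancel_left]
  rw [this]
  rfl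

lemma c2sHom₂_equiv (x : H × H → A.V) (d d₀ d₁ d₂ : H) :
    c2sHom₂ A x (d * d₀) (d * d₁) (d * d₂) = A.ρ d (c2sHom₂ A x d₀ d₁ d₂) := by
  unfold c2sHom₂
  have e1 : (d * d₀)⁻¹ * (d * d₁) = d₀⁻¹ * d₁ := by group
  have e2 : (d * d₁)⁻¹ * (d * d₂) = d₁⁻¹ * d₂ := by group
  rw [e1, e2, map_mul]
  rfl

lemma c2sHom₁_equiv (t : H → A.V) (d d₀ d₁ : H) :
    c2sHom₁ A t (d * d₀) (d * d₁) = A.ρ d (c2sHom₁ A t d₀ d₁) := by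
  unfold c2sHom₁
  have e1 : (d * d₀)⁻¹ * (d * d₁) = d₀⁻¹ * d₁ := by group
  rw [e1, map_mul]
  rfl

lemma c2sHom₂_one (x : H × H → A.V) (d₁ d₂ : H) :
    c2sHom₂ A x 1 d₁ (d₁ * d₂) = x (d₁, d₂) := by
  unfold c2sHom₂
  rw [inv_one, one_mul, inv_mul_cancel_left, map_one]
  rfl

lemma c2sHom₂_cocycle (x : H × H → A.V) (hx : x ∈ cocycles₂ A) (d₀ d₁ d₂ d₃ : H) :
    c2sHom₂ A x d₁ d₂ d₃ - c2sHom₂ A x d₀ d₂ d₃ + c2sHom₂ A x d₀ d₁ d₃ -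
      c2sHom₂ A x d₀ d₁ d₂ = 0 := by
  have h := (mem_cocycles₂_def x).1 hx (d₀⁻¹ * d₁) (d₁⁻¹ * d₂) (d₂⁻¹ * d₃)
  have e1 : d₀⁻¹ * d₁ * (d₁⁻¹ * d₂) = d₀⁻¹ * d₂ := by group
  have e2 : d₁⁻¹ * d₂ * (d₂⁻¹ * d₃) = d₁⁻¹ * d₃ := by group
  rw [e1, e2] at h
  have h' := congrArg (A.ρ d₀) h
  rw [map_zero, map_sub, map_add, map_sub] at h'
  rw [c2s_ρ_cancel] at h'
  exact h'

lemma c2sHom_d (n : ℕ) (x : H × H → A.V) (t : H → A.V) (h : (d₁₂ A).hom t = n • x)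
    (d₀ d₁ d₂ : H) :
    n • c2sHom₂ A x d₀ d₁ d₂ =
      c2sHom₁ A t d₁ d₂ - c2sHom₁ A t d₀ d₂ + c2sHom₁ A t d₀ d₁ := by
  have h1 := congrFun h (d₀⁻¹ * d₁, d₁⁻¹ * d₂)
  rw [d₁₂_hom_apply] at h1
  have e1 : d₀⁻¹ * d₁ * (d₁⁻¹ * d₂) = d₀⁻¹ * d₂ := by group
  simp only [e1] at h1
  have h2 : n • x (d₀⁻¹ * d₁, d₁⁻¹ * d₂) =
      A.ρ (d₀⁻¹ * d₁) (t (d₁⁻¹ * d₂)) - t (d₀⁻¹ * d₂) + t (d₀⁻¹ * d₁) := h1.symm
  unfold c2sHom₂ c2sHom₁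
  rw [← map_nsmul, h2, map_add, map_sub]
  rw [c2s_ρ_cancel]

variable (V : Subgroup H) (hVn : V.Normal)

include hVn in
lemma c2sHom₂_inv (x : H × H → A.V) (hx : Desc₂ A V x) (d₀ d₁ d₂ s₀ s₁ s₂ : H)
    (hs₀ : s₀ ∈ V) (hs₁ : s₁ ∈ V) (hs₂ : s₂ ∈ V) :
    c2sHom₂ A x (d₀ * s₀) (d₁ * s₁) (d₂ * s₂) = c2sHom₂ A x d₀ d₁ d₂ := by
  unfold c2sHom₂
  have a1 : (d₀ * s₀)⁻¹ * (d₁ * s₁) =
      d₀⁻¹ * d₁ * ((d₀⁻¹ * d₁)⁻¹ * s₀⁻¹ * (d₀⁻¹ * d₁) * s₁) := by group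
  have a2 : (d₁ * s₁)⁻¹ * (d₂ * s₂) =
      d₁⁻¹ * d₂ * ((d₁⁻¹ * d₂)⁻¹ * s₁⁻¹ * (d₁⁻¹ * d₂) * s₂) := by group
  have c1 : (d₀⁻¹ * d₁)⁻¹ * s₀⁻¹ * (d₀⁻¹ * d₁) * s₁ ∈ V := by
    refine V.mul_mem ?_ hs₁
    simpa using hVn.conj_mem s₀⁻¹ (V.inv_mem hs₀) (d₀⁻¹ * d₁)⁻¹
  have c2 : (d₁⁻¹ * d₂)⁻¹ * s₁⁻¹ * (d₁⁻¹ * d₂) * s₂ ∈ V := by
    refine V.mul_mem ?_ hs₂
    simpa using hVn.conj_mem s₁⁻¹ (V.inv_mem hs₁) (d₁⁻¹ * d₂)⁻¹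
  rw [a1, a2, hx.1 _ _ _ _ c1 c2, map_mul]
  show A.ρ d₀ (A.ρ s₀ (x (d₀⁻¹ * d₁, d₁⁻¹ * d₂))) = _
  rw [hx.2 _ s₀ hs₀]

include hVn in
lemma c2sHom₁_inv (t : H → A.V) (ht : Desc₁ A V t) (d₀ d₁ s₀ s₁ : H)
    (hs₀ : s₀ ∈ V) (hs₁ : s₁ ∈ V) :
    c2sHom₁ A t (d₀ * s₀) (d₁ * s₁) = c2sHom₁ A t d₀ d₁ := by
  unfold c2sHom₁
  have a1 : (d₀ * s₀)⁻¹ * (d₁ * s₁) =
      d₀⁻¹ * d₁ * ((d₀⁻¹ * d₁)⁻¹ * s₀⁻¹ * (d₀⁻¹ * d₁) * s₁) := by group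
  have c1 : (d₀⁻¹ * d₁)⁻¹ * s₀⁻¹ * (d₀⁻¹ * d₁) * s₁ ∈ V := by
    refine V.mul_mem ?_ hs₁
    simpa using hVn.conj_mem s₀⁻¹ (V.inv_mem hs₀) (d₀⁻¹ * d₁)⁻¹
  rw [a1, ht.1 _ _ c1, map_mul]
  show A.ρ d₀ (A.ρ s₀ (t (d₀⁻¹ * d₁))) = _
  rw [ht.2 _ s₀ hs₀]

end Hom

/-! ### Part C: the global cocycle supported at one place -/

section Main

variable {p : ℕ} {G : Type} [Group G] {ι : Type} {Gloc : ι → Type} [∀ v, Group (Gloc v)]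
  (D : PTDatum p G ι Gloc)

open Classical in
/-- the family of homogeneous 2-cochains with a single nonzero component -/
def c2sFam₂ (v : ι) (W : G → G → G → (D.Jloc v).V) : ∀ v', G → G → G → (D.Jloc v').V :=
  Function.update (fun v' => (0 : G → G → G → (D.Jloc v').V)) v W

open Classical in
/-- the family of homogeneous 1-cochains with a single nonzero component -/
def c2sFam₁ (v : ι) (Θ : G → G → (D.Jloc v).V) : ∀ v', G → G → (D.Jloc v').V :=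
  Function.update (fun v' => (0 : G → G → (D.Jloc v').V)) v Θ

open Classical in
lemma c2sFam₂_self (v : ι) (W : G → G → G → (D.Jloc v).V) : c2sFam₂ D v W v = W := by
  unfold c2sFam₂
  exact Function.update_self _ _ _

open Classical in
lemma c2sFam₂_ne (v : ι) (W : G → G → G → (D.Jloc v).V) {v' : ι} (h : v' ≠ v) :
    c2sFam₂ D v W v' = 0 := by
  unfold c2sFam₂
  exact Function.update_of_ne h _ _

open Classical in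
lemma c2sFam₁_self (v : ι) (Θ : G → G → (D.Jloc v).V) : c2sFam₁ D v Θ v = Θ := by
  unfold c2sFam₁
  exact Function.update_self _ _ _

open Classical in
lemma c2sFam₁_ne (v : ι) (Θ : G → G → (D.Jloc v).V) {v' : ι} (h : v' ≠ v) :
    c2sFam₁ D v Θ v' = 0 := by
  unfold c2sFam₁
  exact Function.update_of_ne h _ _

/-- **Inverse Shapiro at one place.** -/
theorem c2s_invShapiro (n : ℕ) (v : ι) (U : Subgroup G) (hU : U ∈ D.𝒯.lev) (hUn : U.Normal)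
    (x : Gloc v × Gloc v → (D.Jloc v).V) (hx : x ∈ cocycles₂ (D.Jloc v))
    (hxd : Desc₂ (D.Jloc v) (U.comap (D.r v)) x)
    (t : Gloc v → (D.Jloc v).V) (htd : Desc₁ (D.Jloc v) (U.comap (D.r v)) t)
    (hpx : (d₁₂ (D.Jloc v)).hom t = n • x) :
    ∃ ξ : G × G → (PTJ D).V, ξ ∈ cocycles₂ (PTJ D) ∧ IsLevel₂ D.𝒯 ξ ∧
      (∀ v' : ι, v' ≠ v → ∀ g g' h : G, (ξ (g, g')).1 v' h = 0) ∧
      (∃ t₁ : G → (PTJ D).V, IsLevel₁ D.𝒯 t₁ ∧ (d₁₂ (PTJ D)).hom t₁ = n • ξ) ∧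
      (fun dd : Gloc v × Gloc v => (ξ (D.r v dd.1, D.r v dd.2)).1 v 1) = x := by
  haveI := hUn
  obtain ⟨π, hπ1, hπ⟩ := j2d_exists_proj (D.r v) U
  have hVn : (U.comap (D.r v)).Normal := hUn.comap _
  have hπd : ∀ (d : Gloc v) (g : G), ∃ s : Gloc v, D.r v s ∈ U ∧ π (D.r v d * g) = d * π g * s :=
    fun d g => by
      obtain ⟨s, hs, e⟩ := hπ d g 1 U.one_mem
      rw [mul_one] at e
      exact ⟨s, hs, e⟩
  have hπu : ∀ (g u : G), u ∈ U → ∃ s : Gloc v, D.r v s ∈ U ∧ π (g * u) = π g * s :=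
    fun g u hu => by
      obtain ⟨s, hs, e⟩ := hπ 1 g u hu
      rw [map_one, one_mul, one_mul] at e
      exact ⟨s, hs, e⟩
  have hπr : ∀ d : Gloc v, ∃ s : Gloc v, D.r v s ∈ U ∧ π (D.r v d) = d * s := fun d => by
    obtain ⟨s, hs, e⟩ := hπd d 1
    rw [mul_one, hπ1, mul_one] at e
    exact ⟨s, hs, e⟩
  -- the `v`-components
  set Wv : G → G → G → (D.Jloc v).V :=
    fun g₀ g₁ g₂ => c2sHom₂ (D.Jloc v) x (π g₀) (π g₁) (π g₂) with hWv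
  set Θv : G → G → (D.Jloc v).V :=
    fun g₀ g₁ => c2sHom₁ (D.Jloc v) t (π g₀) (π g₁) with hΘv
  have hX3 := c2sHom₂_inv (D.Jloc v) (U.comap (D.r v)) hVn x hxd
  have hT3 := c2sHom₁_inv (D.Jloc v) (U.comap (D.r v)) hVn t htd
  have hWv1 : ∀ (d : Gloc v) (g₀ g₁ g₂ : G),
      Wv (D.r v d * g₀) (D.r v d * g₁) (D.r v d * g₂) = (D.Jloc v).ρ d (Wv g₀ g₁ g₂) := by
    intro d g₀ g₁ g₂
    obtain ⟨s₀, hs₀, e₀⟩ := hπd d g₀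
    obtain ⟨s₁, hs₁, e₁⟩ := hπd d g₁
    obtain ⟨s₂, hs₂, e₂⟩ := hπd d g₂
    show c2sHom₂ (D.Jloc v) x (π (D.r v d * g₀)) (π (D.r v d * g₁)) (π (D.r v d * g₂)) =
      (D.Jloc v).ρ d (c2sHom₂ (D.Jloc v) x (π g₀) (π g₁) (π g₂))
    rw [e₀, e₁, e₂, hX3 _ _ _ _ _ _ hs₀ hs₁ hs₂, c2sHom₂_equiv]
  have hWv2 : ∀ g₀ g₁ g₂ g₃ : G,
      Wv g₁ g₂ g₃ - Wv g₀ g₂ g₃ + Wv g₀ g₁ g₃ - Wv g₀ g₁ g₂ = 0 :=
    fun g₀ g₁ g₂ g₃ => c2sHom₂_cocycle (D.Jloc v) x hx _ _ _ _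
  have hWv3 : ∀ g₀ g₁ g₂ u₀ u₁ u₂ : G, u₀ ∈ U → u₁ ∈ U → u₂ ∈ U →
      Wv (g₀ * u₀) (g₁ * u₁) (g₂ * u₂) = Wv g₀ g₁ g₂ := by
    intro g₀ g₁ g₂ u₀ u₁ u₂ hu₀ hu₁ hu₂
    obtain ⟨s₀, hs₀, e₀⟩ := hπu g₀ u₀ hu₀
    obtain ⟨s₁, hs₁, e₁⟩ := hπu g₁ u₁ hu₁
    obtain ⟨s₂, hs₂, e₂⟩ := hπu g₂ u₂ hu₂
    show c2sHom₂ (D.Jloc v) x (π (g₀ * u₀)) (π (g₁ * u₁)) (π (g₂ * u₂)) =
      c2sHom₂ (D.Jloc v) x (π g₀) (π g₁) (π g₂)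
    rw [e₀, e₁, e₂, hX3 _ _ _ _ _ _ hs₀ hs₁ hs₂]
  have hΘv1 : ∀ (d : Gloc v) (g₀ g₁ : G),
      Θv (D.r v d * g₀) (D.r v d * g₁) = (D.Jloc v).ρ d (Θv g₀ g₁) := by
    intro d g₀ g₁
    obtain ⟨s₀, hs₀, e₀⟩ := hπd d g₀
    obtain ⟨s₁, hs₁, e₁⟩ := hπd d g₁
    show c2sHom₁ (D.Jloc v) t (π (D.r v d * g₀)) (π (D.r v d * g₁)) =
      (D.Jloc v).ρ d (c2sHom₁ (D.Jloc v) t (π g₀) (π g₁))
    rw [e₀, e₁, hT3 _ _ _ _ hs₀ hs₁, c2sHom₁_equiv]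
  have hΘv3 : ∀ g₀ g₁ u₀ u₁ : G, u₀ ∈ U → u₁ ∈ U →
      Θv (g₀ * u₀) (g₁ * u₁) = Θv g₀ g₁ := by
    intro g₀ g₁ u₀ u₁ hu₀ hu₁
    obtain ⟨s₀, hs₀, e₀⟩ := hπu g₀ u₀ hu₀
    obtain ⟨s₁, hs₁, e₁⟩ := hπu g₁ u₁ hu₁
    show c2sHom₁ (D.Jloc v) t (π (g₀ * u₀)) (π (g₁ * u₁)) =
      c2sHom₁ (D.Jloc v) t (π g₀) (π g₁)
    rw [e₀, e₁, hT3 _ _ _ _ hs₀ hs₁]
  have hWΘ : ∀ g₀ g₁ g₂ : G, n • Wv g₀ g₁ g₂ = Θv g₁ g₂ - Θv g₀ g₂ + Θv g₀ g₁ :=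
    fun g₀ g₁ g₂ => c2sHom_d (D.Jloc v) n x t hpx _ _ _
  -- the families
  have hW1 : ∀ (v' : ι) (d : Gloc v') (g₀ g₁ g₂ : G),
      c2sFam₂ D v Wv v' (D.r v' d * g₀) (D.r v' d * g₁) (D.r v' d * g₂) =
        (D.Jloc v').ρ d (c2sFam₂ D v Wv v' g₀ g₁ g₂) := by
    intro v' d g₀ g₁ g₂
    by_cases h : v' = v
    · subst h
      rw [c2sFam₂_self]
      exact hWv1 d g₀ g₁ g₂
    · rw [c2sFam₂_ne D v Wv h]
      simp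
  have hW2 : ∀ (v' : ι) (g₀ g₁ g₂ g₃ : G),
      c2sFam₂ D v Wv v' g₁ g₂ g₃ - c2sFam₂ D v Wv v' g₀ g₂ g₃ + c2sFam₂ D v Wv v' g₀ g₁ g₃ -
        c2sFam₂ D v Wv v' g₀ g₁ g₂ = 0 := by
    intro v' g₀ g₁ g₂ g₃
    by_cases h : v' = v
    · subst h
      rw [c2sFam₂_self]
      exact hWv2 g₀ g₁ g₂ g₃
    · rw [c2sFam₂_ne D v Wv h]
      simp
  have hW3 : ∀ (v' : ι) (g₀ g₁ g₂ u₀ u₁ u₂ : G), u₀ ∈ U → u₁ ∈ U → u₂ ∈ U →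
      c2sFam₂ D v Wv v' (g₀ * u₀) (g₁ * u₁) (g₂ * u₂) = c2sFam₂ D v Wv v' g₀ g₁ g₂ := by
    intro v' g₀ g₁ g₂ u₀ u₁ u₂ hu₀ hu₁ hu₂
    by_cases h : v' = v
    · subst h
      rw [c2sFam₂_self]
      exact hWv3 g₀ g₁ g₂ u₀ u₁ u₂ hu₀ hu₁ hu₂
    · rw [c2sFam₂_ne D v Wv h]
      simp
  have hΘ1 : ∀ (v' : ι) (d : Gloc v') (g₀ g₁ : G),
      c2sFam₁ D v Θv v' (D.r v' d * g₀) (D.r v' d * g₁) =
        (D.Jloc v').ρ d (c2sFam₁ D v Θv v' g₀ g₁) := by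
    intro v' d g₀ g₁
    by_cases h : v' = v
    · subst h
      rw [c2sFam₁_self]
      exact hΘv1 d g₀ g₁
    · rw [c2sFam₁_ne D v Θv h]
      simp
  have hΘ3 : ∀ (v' : ι) (g₀ g₁ u₀ u₁ : G), u₀ ∈ U → u₁ ∈ U →
      c2sFam₁ D v Θv v' (g₀ * u₀) (g₁ * u₁) = c2sFam₁ D v Θv v' g₀ g₁ := by
    intro v' g₀ g₁ u₀ u₁ hu₀ hu₁
    by_cases h : v' = v
    · subst h
      rw [c2sFam₁_self]
      exact hΘv3 g₀ g₁ u₀ u₁ hu₀ hu₁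
    · rw [c2sFam₁_ne D v Θv h]
      simp
  have hap := c2sXi_apply D U hU hUn (c2sFam₂ D v Wv) hW1 hW3
  refine ⟨c2sXi D (c2sFam₂ D v Wv),
    c2sXi_cocycle D U hU hUn _ hW1 hW3 hW2, c2sXi_level D U hU hUn _ hW1 hW3, ?_,
    ⟨c2sTh D (c2sFam₁ D v Θv), c2sTh_level D U hU hUn _ hΘ1 hΘ3, ?_⟩, ?_⟩
  · intro v' hv' g g' h
    rw [hap, c2sFam₂_ne D v Wv hv']
    rfl
  · funext ⟨σ, τ⟩
    apply in2a_J_ext
    intro v' g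
    rw [c2sTh_d_apply D U hU hUn _ hΘ1 hΘ3]
    show _ = n • (c2sXi D (c2sFam₂ D v Wv) (σ, τ)).1 v' g
    rw [hap]
    by_cases h : v' = v
    · subst h
      rw [c2sFam₂_self, c2sFam₁_self]
      exact (hWΘ _ _ _).symm
    · rw [c2sFam₂_ne D v Wv h, c2sFam₁_ne D v Θv h]
      simp
  · funext ⟨d₁, d₂⟩
    show (c2sXi D (c2sFam₂ D v Wv) (D.r v d₁, D.r v d₂)).1 v 1 = x (d₁, d₂)
    rw [hap, c2sFam₂_self, one_mul, ← map_mul]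
    obtain ⟨s₁, hs₁, e₁⟩ := hπr d₁
    obtain ⟨s₂, hs₂, e₂⟩ := hπr (d₁ * d₂)
    show c2sHom₂ (D.Jloc v) x (π 1) (π (D.r v d₁)) (π (D.r v (d₁ * d₂))) = x (d₁, d₂)
    rw [hπ1, e₁, e₂]
    have := hX3 1 d₁ (d₁ * d₂) 1 s₁ s₂ (U.comap (D.r v)).one_mem hs₁ hs₂
    rw [mul_one] at this
    rw [this, c2sHom₂_one]

end Main

end Fermat.Agent.TW.E

end


end ZBTW_046_2

/-! ### bundled: `Fermat.Agent.TW.E.C2Core` -/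
section ZBTW_046_3
/-
TW-E / A5 (helper87), part 3: the statements `In6`, `In7`, `In7p` for the trivial lattice in the
language of `levCocycles₂` / `levCoboundaries₂`, and the proof of `In7p`, `In7` from `In6`.

* `c2s_surjP` (`In7p`): the `p`-torsion of `H²_lev(G, C)` is cyclic (`levH2_pTorsion_cyclic`), and
  the image of the `v`-supported class `ξ` of order `p` (`c2s_local`, `c2s_invShapiro`) is not
  zero (`surv`); so every `p`-torsion class is a multiple of `π_* ξ`.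
* `c2s_surj` (`In7`): level classes of `C` are torsion (`stmtKill` at a finite level); induction
  on the `p`-adic valuation of the order using `In7p` and `In6`.
-/

set_option autoImplicit false
set_option linter.style.haveILetI false
set_option linter.unusedSectionVars false
set_option linter.unusedVariables false

noncomputable section

namespace Fermat.Agent.TW.E

open CategoryTheory groupCohomology Fermat.Agent.PT Fermat.Agent.PT.F Fermat.Agent.TW.F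

attribute [local instance 1100] Rep.hV2

variable {p : ℕ} {G : Type} [Group G] {ι : Type} {Gloc : ι → Type} [∀ v, Group (Gloc v)]

/-- `In6` for the trivial lattice, in terms of `J`-valued cochains. -/
def C2sDiv (D : PTDatum p G ι Gloc) : Prop :=
  ∀ y : G × G → (PTJ D).V, y ∈ levCocycles₂ D.𝒯 (PTJ D) →
    ∃ n : ℕ, ¬ p ∣ n ∧ ∃ w : G × G → (PTJ D).V, w ∈ levCocycles₂ D.𝒯 (PTJ D) ∧
      n • y - p • w ∈ levCoboundaries₂ D.𝒯 (PTJ D)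

/-- `In7p` for the trivial lattice, in terms of `J`- and `C`-valued cochains. -/
def C2sSurjP (D : PTDatum p G ι Gloc) : Prop :=
  ∀ c : G × G → D.C.V, c ∈ levCocycles₂ D.𝒯 D.C → p • c ∈ levCoboundaries₂ D.𝒯 D.C →
    ∃ n : ℕ, ¬ p ∣ n ∧ ∃ w : G × G → (PTJ D).V, w ∈ levCocycles₂ D.𝒯 (PTJ D) ∧
      p • w ∈ levCoboundaries₂ D.𝒯 (PTJ D) ∧
      n • c - frecPi D w ∈ levCoboundaries₂ D.𝒯 D.C

/-- `In7` for the trivial lattice, in terms of `J`- and `C`-valued cochains. -/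
def C2sSurj (D : PTDatum p G ι Gloc) : Prop :=
  ∀ c : G × G → D.C.V, c ∈ levCocycles₂ D.𝒯 D.C →
    ∃ n : ℕ, ¬ p ∣ n ∧ ∃ w : G × G → (PTJ D).V, w ∈ levCocycles₂ D.𝒯 (PTJ D) ∧
      n • c - frecPi D w ∈ levCoboundaries₂ D.𝒯 D.C

lemma c2s_frecPi_zero (D : PTDatum p G ι Gloc) : frecPi D 0 = 0 := by
  funext gg
  show D.π.hom 0 = 0
  rw [map_zero]

lemma c2s_frecPi_add (D : PTDatum p G ι Gloc) (a b : G × G → (PTJ D).V) :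
    frecPi D (a + b) = frecPi D a + frecPi D b := by
  funext gg
  show D.π.hom (a gg + b gg) = D.π.hom (a gg) + D.π.hom (b gg)
  rw [map_add]

lemma c2s_frecPi_sub (D : PTDatum p G ι Gloc) (a b : G × G → (PTJ D).V) :
    frecPi D (a - b) = frecPi D a - frecPi D b := by
  funext gg
  show D.π.hom (a gg - b gg) = D.π.hom (a gg) - D.π.hom (b gg)
  rw [map_sub]

lemma c2s_frecPi_nsmul (D : PTDatum p G ι Gloc) (n : ℕ) (a : G × G → (PTJ D).V) :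
    frecPi D (n • a) = n • frecPi D a := by
  funext gg
  show D.π.hom (n • a gg) = n • D.π.hom (a gg)
  rw [map_nsmul]

/-- **`In7p`**, cochain form. -/
theorem c2s_surjP [Fact p.Prime] [Nonempty ι] (D : PTDatum p G ι Gloc)
    (hdepth : HasPDepthGlob D) : C2sSurjP D := by
  obtain ⟨v⟩ := ‹Nonempty ι›
  obtain ⟨U', hU', hn, x, hx, hxd, ⟨t, htd, hpx⟩, hxne⟩ := c2s_local D hdepth v
  obtain ⟨ξ, hξc, hξl, hsupp, ⟨t₁, ht₁, hdt₁⟩, hloc⟩ :=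
    c2s_invShapiro D p v U' hU' hn x hx hxd t htd hpx
  have hξ : ξ ∈ levCocycles₂ D.𝒯 (PTJ D) := ⟨hξc, hξl⟩
  have hpξ : p • ξ ∈ levCoboundaries₂ D.𝒯 (PTJ D) :=
    (mem_levCoboundaries₂_iff _ _ _).2 ⟨t₁, ht₁, hdt₁⟩
  -- the image of `ξ` in `C` is not a level coboundary
  have hπξ : frecPi D ξ ∉ levCoboundaries₂ D.𝒯 D.C := by
    intro hcob
    obtain ⟨t', ht', hdt'⟩ := (mem_levCoboundaries₂_iff _ _ _).1 hcob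
    obtain ⟨tl, htl, hdtl⟩ := D.surv v ξ hξc hξl hsupp
      ⟨1, t₁, ht₁, by rw [pow_one]; exact hdt₁⟩ ⟨t', ht', hdt'⟩
    apply hxne
    exact (mem_levCoboundaries₂_iff _ _ _).2 ⟨tl, htl, hdtl.trans hloc⟩
  set a₀ : ↥(levCocycles₂ D.𝒯 D.C) := ⟨frecPi D ξ, frecPi_mem_cocycles D hξ⟩ with ha₀
  set x₀ : levH2 D.𝒯 D.C := levH2π D.𝒯 D.C a₀ with hx₀
  have hx₀ne : x₀ ≠ 0 := by
    intro h0
    exact hπξ ((levH2π_eq_zero_iff _ _ _).1 h0)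
  have hpx₀ : p • x₀ = 0 := by
    rw [hx₀, ← map_nsmul, levH2π_eq_zero_iff]
    show p • frecPi D ξ ∈ _
    rw [← c2s_frecPi_nsmul]
    exact frecPi_mem_coboundaries D hpξ
  intro c hc hpc
  have hpy : p • levH2π D.𝒯 D.C ⟨c, hc⟩ = 0 := by
    rw [← map_nsmul, levH2π_eq_zero_iff]
    exact hpc
  obtain ⟨n₀, hn₀⟩ := levH2_pTorsion_cyclic stmtH2pCyclic p D.C_discrete D.cm_glob x₀ _
    hpx₀ hpy hx₀ne
  refine ⟨1, fun h => (Nat.Prime.one_lt Fact.out).ne' (Nat.dvd_one.1 h), n₀ • ξ,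
    (levCocycles₂ D.𝒯 (PTJ D)).smul_of_tower_mem n₀ hξ, ?_, ?_⟩
  · rw [smul_comm]
    exact (levCoboundaries₂ D.𝒯 (PTJ D)).smul_of_tower_mem n₀ hpξ
  · rw [one_smul, c2s_frecPi_nsmul]
    have h1 : levH2π D.𝒯 D.C (⟨c, hc⟩ - n₀ • a₀) = 0 := by
      rw [map_sub, map_nsmul, hn₀, sub_self]
    exact (levH2π_eq_zero_iff _ _ _).1 h1

/-- level classes are torsion -/
theorem c2s_torsion {𝒯 : Tower G} {X : Rep.{0} ℤ G}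
    (hX : IsDiscrete 𝒯 X) (c : G × G → X.V) (hc : c ∈ levCocycles₂ 𝒯 X) :
    ∃ N : ℕ, N ≠ 0 ∧ N • c ∈ levCoboundaries₂ 𝒯 X := by
  obtain ⟨U₀, hU₀, hd₀⟩ := exists_desc₂ hX hc.2
  obtain ⟨U, hU, hle, hUn⟩ := 𝒯.exists_normal U₀ hU₀
  haveI := hUn
  have hd : Desc₂ X U c := hd₀.mono hle
  haveI := 𝒯.finiteIndex U hU
  haveI : Finite (G ⧸ U) := Subgroup.finite_quotient_of_finiteIndex
  letI : Fintype (G ⧸ U) := Fintype.ofFinite _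
  have hcc : descend₂ c hd ∈ cocycles₂ (X.quotientToInvariants U) := by
    rw [← infl₂_mem_cocycles₂_iff, infl₂_descend₂]
    exact hc.1
  have hkill := stmtKill (G ⧸ U) (X.quotientToInvariants U) 1
    (H2π (X.quotientToInvariants U) ⟨descend₂ c hd, hcc⟩)
  rw [← map_nsmul, H2π_eq_zero_iff] at hkill
  refine ⟨Fintype.card (G ⧸ U), Fintype.card_ne_zero, ?_⟩
  have := infl₂_mem_coboundaries₂ hU _ hkill
  have e : infl₂ X U ((Fintype.card (G ⧸ U) • (⟨descend₂ c hd, hcc⟩ :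
      cocycles₂ (X.quotientToInvariants U)) : cocycles₂ (X.quotientToInvariants U)) :
        (G ⧸ U) × (G ⧸ U) → (X.quotientToInvariants U).V) = Fintype.card (G ⧸ U) • c := by
    show infl₂ X U (Fintype.card (G ⧸ U) • descend₂ c hd) = _
    rw [infl₂_nsmul, infl₂_descend₂]
  rw [e] at this
  exact this

/-- `In6` iterated: divisibility by `p ^ k`. -/
theorem c2s_divPow [Fact p.Prime] (D : PTDatum p G ι Gloc) (hdiv : C2sDiv D) (k : ℕ) :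
    ∀ y : G × G → (PTJ D).V, y ∈ levCocycles₂ D.𝒯 (PTJ D) →
      ∃ n : ℕ, ¬ p ∣ n ∧ ∃ w : G × G → (PTJ D).V, w ∈ levCocycles₂ D.𝒯 (PTJ D) ∧
        n • y - (p ^ k) • w ∈ levCoboundaries₂ D.𝒯 (PTJ D) := by
  have hpp : p.Prime := Fact.out
  induction k with
  | zero =>
    intro y hy
    refine ⟨1, fun h => hpp.one_lt.ne' (Nat.dvd_one.1 h), y, hy, ?_⟩
    rw [pow_zero, sub_self]
    exact (levCoboundaries₂ D.𝒯 (PTJ D)).zero_mem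
  | succ k ih =>
    intro y hy
    obtain ⟨n, hn, w, hw, hnw⟩ := ih y hy
    obtain ⟨n', hn', w', hw', hnw'⟩ := hdiv w hw
    refine ⟨n' * n, fun h => ?_, w', hw', ?_⟩
    · rcases (Nat.Prime.dvd_mul hpp).1 h with h | h
      · exact hn' h
      · exact hn h
    · have e : (n' * n) • y - (p ^ (k + 1)) • w' =
          n' • (n • y - (p ^ k) • w) + (p ^ k) • (n' • w - p • w') := by
        rw [smul_sub, smul_sub, smul_smul, smul_smul, smul_smul, smul_smul, pow_succ,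
          mul_comm n' (p ^ k)]
        abel
      rw [e]
      exact (levCoboundaries₂ D.𝒯 (PTJ D)).add_mem
        ((levCoboundaries₂ D.𝒯 (PTJ D)).smul_of_tower_mem n' hnw)
        ((levCoboundaries₂ D.𝒯 (PTJ D)).smul_of_tower_mem (p ^ k) hnw')

/-- `In7` for classes killed by `p ^ k`. -/
theorem c2s_surj_pow [Fact p.Prime] (D : PTDatum p G ι Gloc) (hdiv : C2sDiv D)
    (hP : C2sSurjP D) (k : ℕ) :
    ∀ c : G × G → D.C.V, c ∈ levCocycles₂ D.𝒯 D.C →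
      (p ^ k) • c ∈ levCoboundaries₂ D.𝒯 D.C →
      ∃ n : ℕ, ¬ p ∣ n ∧ ∃ w : G × G → (PTJ D).V, w ∈ levCocycles₂ D.𝒯 (PTJ D) ∧
        n • c - frecPi D w ∈ levCoboundaries₂ D.𝒯 D.C := by
  have hpp : p.Prime := Fact.out
  induction k with
  | zero =>
    intro c hc hpc
    rw [pow_zero, one_smul] at hpc
    refine ⟨1, fun h => hpp.one_lt.ne' (Nat.dvd_one.1 h), 0,
      (levCocycles₂ D.𝒯 (PTJ D)).zero_mem, ?_⟩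
    rw [one_smul, c2s_frecPi_zero, sub_zero]
    exact hpc
  | succ k ih =>
    intro c hc hpc
    have hc' : (p ^ k) • c ∈ levCocycles₂ D.𝒯 D.C :=
      (levCocycles₂ D.𝒯 D.C).smul_of_tower_mem (p ^ k) hc
    have hpc' : p • ((p ^ k) • c) ∈ levCoboundaries₂ D.𝒯 D.C := by
      rw [smul_smul, mul_comm, ← pow_succ]
      exact hpc
    obtain ⟨n₁, hn₁, w₁, hw₁, -, h₁⟩ := hP _ hc' hpc'
    obtain ⟨n₃, hn₃, w₃, hw₃, h₃⟩ := c2s_divPow D hdiv k w₁ hw₁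
    have hc'' : (n₃ * n₁) • c - frecPi D w₃ ∈ levCocycles₂ D.𝒯 D.C :=
      (levCocycles₂ D.𝒯 D.C).sub_mem ((levCocycles₂ D.𝒯 D.C).smul_of_tower_mem _ hc)
        (frecPi_mem_cocycles D hw₃)
    have hpc'' : (p ^ k) • ((n₃ * n₁) • c - frecPi D w₃) ∈ levCoboundaries₂ D.𝒯 D.C := by
      have e : (p ^ k) • ((n₃ * n₁) • c - frecPi D w₃) =
          n₃ • (n₁ • ((p ^ k) • c) - frecPi D w₁) + frecPi D (n₃ • w₁ - (p ^ k) • w₃) := by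
        rw [c2s_frecPi_sub, c2s_frecPi_nsmul, c2s_frecPi_nsmul, smul_sub, smul_sub, smul_smul,
          smul_smul, smul_smul, mul_comm (p ^ k) (n₃ * n₁), mul_assoc]
        abel
      rw [e]
      exact (levCoboundaries₂ D.𝒯 D.C).add_mem
        ((levCoboundaries₂ D.𝒯 D.C).smul_of_tower_mem n₃ h₁) (frecPi_mem_coboundaries D h₃)
    obtain ⟨n₄, hn₄, w₄, hw₄, h₄⟩ := ih _ hc'' hpc''
    refine ⟨n₄ * (n₃ * n₁), fun h => ?_, n₄ • w₃ + w₄,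
      (levCocycles₂ D.𝒯 (PTJ D)).add_mem
        ((levCocycles₂ D.𝒯 (PTJ D)).smul_of_tower_mem n₄ hw₃) hw₄, ?_⟩
    · rcases (Nat.Prime.dvd_mul hpp).1 h with h | h
      · exact hn₄ h
      · rcases (Nat.Prime.dvd_mul hpp).1 h with h | h
        · exact hn₃ h
        · exact hn₁ h
    · have e : (n₄ * (n₃ * n₁)) • c - frecPi D (n₄ • w₃ + w₄) =
          n₄ • ((n₃ * n₁) • c - frecPi D w₃) - frecPi D w₄ := by
        rw [c2s_frecPi_add, c2s_frecPi_nsmul, smul_sub, smul_smul]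
        abel
      rw [e]
      exact h₄

/-- **`In7`**, cochain form. -/
theorem c2s_surj [Fact p.Prime] (D : PTDatum p G ι Gloc) (hdiv : C2sDiv D)
    (hP : C2sSurjP D) : C2sSurj D := by
  have hpp : p.Prime := Fact.out
  intro c hc
  obtain ⟨N, hN0, hN⟩ := c2s_torsion D.C_discrete c hc
  set a : ℕ := N.factorization p with ha
  set m : ℕ := N / p ^ a with hm
  have hNm : p ^ a * m = N := Nat.ordProj_mul_ordCompl_eq_self N p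
  have hpm : ¬ p ∣ m := Nat.not_dvd_ordCompl hpp hN0
  have hc₁ : m • c ∈ levCocycles₂ D.𝒯 D.C := (levCocycles₂ D.𝒯 D.C).smul_of_tower_mem m hc
  have hpc₁ : (p ^ a) • (m • c) ∈ levCoboundaries₂ D.𝒯 D.C := by
    rw [smul_smul, hNm]
    exact hN
  obtain ⟨n, hn, w, hw, h⟩ := c2s_surj_pow D hdiv hP a _ hc₁ hpc₁
  refine ⟨n * m, fun h' => ?_, w, hw, ?_⟩
  · rcases (Nat.Prime.dvd_mul hpp).1 h' with h' | h'
    · exact hn h'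
    · exact hpm h'
  · rw [← smul_smul]
    exact h

end Fermat.Agent.TW.E

end


end ZBTW_046_3

/-! ### bundled: `Fermat.Agent.TW.E.C2Surj` -/
section ZBTW_046_4
/-
TW-E / A5 (helper87): `stmtC2Surj_of : StmtJ2Div → StmtC2Surj`.

`In7` and `In7p` for the trivial lattice `ℤ`.  The mathematics is in C2Loc.lean (a local class of
order `p`), C2Inv.lean (inverse Shapiro at one place) and C2Core.lean (`surv` + cyclicity of the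
`p`-torsion of `H²_lev(G, C)` + induction on the order).  This file is the dictionary between
cochains with values in `Hom_ℤ(ℤ, X)` / `Hom_ℤ(ℤ[pt], X)` and cochains with values in `X`.
-/

set_option autoImplicit false
set_option linter.style.haveILetI false
set_option linter.unusedSectionVars false
set_option linter.unusedVariables false

noncomputable section

namespace Fermat.Agent.TW.E

open CategoryTheory groupCohomology Fermat.Agent.PT Fermat.Agent.PT.F Fermat.Agent.TW.F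

attribute [local instance 1100] Rep.hV2

variable {p : ℕ} {G : Type} [Group G] {ι : Type} {Gloc : ι → Type} [∀ v, Group (Gloc v)]

/-! ### `Hom_ℤ(ℤ, X)`-valued cochains -/

section Triv

variable (X : Rep.{0} ℤ G)

/-- the cochain `s ↦ (n ↦ n • y s)` with values in `Hom_ℤ(ℤ, X)` -/
def c2sUp₂ (y : G × G → X.V) (s : G × G) : (Rep.trivial ℤ G ℤ).V →+ X.V :=
  zmultiplesHom X.V (y s)

/-- the cochain `g ↦ (n ↦ n • t g)` with values in `Hom_ℤ(ℤ, X)` -/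
def c2sUp₁ (t : G → X.V) (g : G) : (Rep.trivial ℤ G ℤ).V →+ X.V :=
  zmultiplesHom X.V (t g)

lemma c2sUp₂_one (y : G × G → X.V) (s : G × G) : c2sUp₂ X y s (1 : ℤ) = y s := by
  show (zmultiplesHom X.V (y s)) (1 : ℤ) = y s
  simp

lemma c2sUp₁_one (t : G → X.V) (g : G) : c2sUp₁ X t g (1 : ℤ) = t g := by
  show (zmultiplesHom X.V (t g)) (1 : ℤ) = t g
  simp

lemma c2s_dTwo_one (y : G × G → ((Rep.trivial ℤ G ℤ).V →+ X.V)) (σ τ ρ : G) :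
    dTwo (Rep.trivial ℤ G ℤ) X y (σ, τ, ρ) (1 : ℤ) =
      X.ρ σ (y (τ, ρ) (1 : ℤ)) - y (σ * τ, ρ) (1 : ℤ) + y (σ, τ * ρ) (1 : ℤ) -
        y (σ, τ) (1 : ℤ) := rfl

lemma c2s_dOne_one (t : G → ((Rep.trivial ℤ G ℤ).V →+ X.V)) (σ τ : G) :
    dOne (Rep.trivial ℤ G ℤ) X t (σ, τ) (1 : ℤ) =
      X.ρ σ (t τ (1 : ℤ)) - t (σ * τ) (1 : ℤ) + t σ (1 : ℤ) := rfl

/-- evaluation at `1` of a cocycle is a cocycle -/
lemma c2s_down_cocycle (𝒯 : Tower G) (y : G × G → ((Rep.trivial ℤ G ℤ).V →+ X.V))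
    (hy : IsLevel₂ 𝒯 y) (hc : ∀ s, dTwo (Rep.trivial ℤ G ℤ) X y s = 0) :
    (fun s => y s (1 : ℤ)) ∈ levCocycles₂ 𝒯 X := by
  refine ⟨(mem_cocycles₂_def _).2 fun σ τ ρ => ?_,
    hy.comp (fun h : (Rep.trivial ℤ G ℤ).V →+ X.V => h (1 : ℤ))⟩
  have := congrArg (fun h : (Rep.trivial ℤ G ℤ).V →+ X.V => h (1 : ℤ)) (hc (σ, τ, ρ))
  simp only at this
  rw [c2s_dTwo_one] at this
  exact this

lemma c2s_down_cob (𝒯 : Tower G) (n : ℕ) (y : G × G → ((Rep.trivial ℤ G ℤ).V →+ X.V))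
    (t : G → ((Rep.trivial ℤ G ℤ).V →+ X.V)) (ht : IsLevel₁ 𝒯 t)
    (h : ∀ s, n • y s = dOne (Rep.trivial ℤ G ℤ) X t s) :
    n • (fun s => y s (1 : ℤ)) ∈ levCoboundaries₂ 𝒯 X := by
  refine (mem_levCoboundaries₂_iff 𝒯 X _).2 ⟨fun g => t g (1 : ℤ),
    ht.comp (fun h : (Rep.trivial ℤ G ℤ).V →+ X.V => h (1 : ℤ)), ?_⟩
  funext ⟨σ, τ⟩
  rw [d₁₂_hom_apply]
  have := congrArg (fun h : (Rep.trivial ℤ G ℤ).V →+ X.V => h (1 : ℤ)) (h (σ, τ))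
  simp only at this
  rw [c2s_dOne_one] at this
  exact this.symm

lemma c2s_up_cocycle (y : G × G → X.V) (hy : y ∈ cocycles₂ X) (s : G × G × G) :
    dTwo (Rep.trivial ℤ G ℤ) X (c2sUp₂ X y) s = 0 := by
  obtain ⟨σ, τ, ρ⟩ := s
  apply AddMonoidHom.ext_int
  rw [c2s_dTwo_one, c2sUp₂_one, c2sUp₂_one, c2sUp₂_one, c2sUp₂_one]
  exact (mem_cocycles₂_def y).1 hy σ τ ρ

lemma c2s_up_cob (𝒯 : Tower G) (z : G × G → X.V) (hz : z ∈ levCoboundaries₂ 𝒯 X) :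
    ∃ t : G → ((Rep.trivial ℤ G ℤ).V →+ X.V), IsLevel₁ 𝒯 t ∧
      ∀ s, c2sUp₂ X z s = dOne (Rep.trivial ℤ G ℤ) X t s := by
  obtain ⟨t, ht, htz⟩ := (mem_levCoboundaries₂_iff 𝒯 X _).1 hz
  refine ⟨c2sUp₁ X t, ht.comp _, fun s => ?_⟩
  obtain ⟨σ, τ⟩ := s
  apply AddMonoidHom.ext_int
  rw [c2s_dOne_one, c2sUp₂_one, c2sUp₁_one, c2sUp₁_one, c2sUp₁_one, ← htz, d₁₂_hom_apply]

end Triv

/-- `In7` for the trivial lattice from its cochain form. -/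
theorem c2s_in7_of (D : PTDatum p G ι Gloc) (h : C2sSurj D) : In7 D (Rep.trivial ℤ G ℤ) := by
  intro c hc hcoc
  obtain ⟨n, hn, w, hw, hcob⟩ := h _ (c2s_down_cocycle D.C D.𝒯 c hc hcoc)
  obtain ⟨t, ht, htz⟩ := c2s_up_cob D.C D.𝒯 _ hcob
  refine ⟨n, hn, c2sUp₂ (PTJ D) w, hw.2.comp _, c2s_up_cocycle (PTJ D) w hw.1, t, ht,
    fun s => ?_⟩
  apply AddMonoidHom.ext_int
  have := congrArg (fun h : (Rep.trivial ℤ G ℤ).V →+ D.C.V => h (1 : ℤ)) (htz s)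
  simp only at this
  rw [c2sUp₂_one] at this
  show n • c s (1 : ℤ) = D.π.hom (c2sUp₂ (PTJ D) w s (1 : ℤ)) +
    dOne (Rep.trivial ℤ G ℤ) D.C t s (1 : ℤ)
  rw [c2sUp₂_one, ← this]
  show n • c s (1 : ℤ) = frecPi D w s + (n • c s (1 : ℤ) - frecPi D w s)
  abel

/-- `In7p` for the trivial lattice from its cochain form. -/
theorem c2s_in7p_of (D : PTDatum p G ι Gloc) (h : C2sSurjP D) :
    In7p D (Rep.trivial ℤ G ℤ) := by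
  intro c hc hcoc hp
  obtain ⟨t₀, ht₀, hpt₀⟩ := hp
  obtain ⟨n, hn, w, hw, hpw, hcob⟩ := h _ (c2s_down_cocycle D.C D.𝒯 c hc hcoc)
    (c2s_down_cob D.C D.𝒯 p c t₀ ht₀ hpt₀)
  obtain ⟨t, ht, htz⟩ := c2s_up_cob D.C D.𝒯 _ hcob
  obtain ⟨t₁, ht₁, htz₁⟩ := c2s_up_cob (PTJ D) D.𝒯 _ hpw
  refine ⟨n, hn, c2sUp₂ (PTJ D) w, hw.2.comp _, c2s_up_cocycle (PTJ D) w hw.1,
    ⟨t₁, ht₁, fun s => ?_⟩, t, ht, fun s => ?_⟩
  · rw [← htz₁ s]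
    apply AddMonoidHom.ext_int
    show p • c2sUp₂ (PTJ D) w s (1 : ℤ) = c2sUp₂ (PTJ D) (p • w) s (1 : ℤ)
    rw [c2sUp₂_one, c2sUp₂_one]
    rfl
  · apply AddMonoidHom.ext_int
    have := congrArg (fun h : (Rep.trivial ℤ G ℤ).V →+ D.C.V => h (1 : ℤ)) (htz s)
    simp only at this
    rw [c2sUp₂_one] at this
    show n • c s (1 : ℤ) = D.π.hom (c2sUp₂ (PTJ D) w s (1 : ℤ)) +
      dOne (Rep.trivial ℤ G ℤ) D.C t s (1 : ℤ)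
    rw [c2sUp₂_one, ← this]
    show n • c s (1 : ℤ) = frecPi D w s + (n • c s (1 : ℤ) - frecPi D w s)
    abel

/-! ### `Hom_ℤ(ℤ[pt], X)`-valued cochains -/

section Pt

variable (X : Rep.{0} ℤ G)

lemma c2s_pt_single (ω : PUnit) :
    (MonoidAlgebra.single ω (1 : ℤ) : (permZ G PUnit).V) = MonoidAlgebra.single PUnit.unit 1 :=
  rfl

lemma c2s_pt_dTwo (y : G × G → ((permZ G PUnit).V →+ X.V)) (σ τ ρ : G) :
    dTwo (permZ G PUnit) X y (σ, τ, ρ) (MonoidAlgebra.single PUnit.unit 1) =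
      X.ρ σ (y (τ, ρ) (MonoidAlgebra.single PUnit.unit 1)) -
        y (σ * τ, ρ) (MonoidAlgebra.single PUnit.unit 1) +
        y (σ, τ * ρ) (MonoidAlgebra.single PUnit.unit 1) -
        y (σ, τ) (MonoidAlgebra.single PUnit.unit 1) := by
  show X.ρ σ (y (τ, ρ) ((permZ G PUnit).ρ σ⁻¹ (MonoidAlgebra.single PUnit.unit 1))) - _ + _ - _ = _
  rw [in1p_ρ_single]

lemma c2s_pt_dOne (t : G → ((permZ G PUnit).V →+ X.V)) (σ τ : G) :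
    dOne (permZ G PUnit) X t (σ, τ) (MonoidAlgebra.single PUnit.unit 1) =
      X.ρ σ (t τ (MonoidAlgebra.single PUnit.unit 1)) -
        t (σ * τ) (MonoidAlgebra.single PUnit.unit 1) +
        t σ (MonoidAlgebra.single PUnit.unit 1) := by
  show X.ρ σ (t τ ((permZ G PUnit).ρ σ⁻¹ (MonoidAlgebra.single PUnit.unit 1))) - _ + _ = _
  rw [in1p_ρ_single]

end Pt

/-- the cochain form of `In6` for the trivial lattice from `In6` for `ℤ[pt]` -/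
theorem c2s_div_of (D : PTDatum p G ι Gloc) (h : In6 D (permZ G PUnit)) : C2sDiv D := by
  intro y hy
  set e : (permZ G PUnit).V := MonoidAlgebra.single PUnit.unit 1 with he
  have hlift : ∀ a : (PTJ D).V, in1p_lift (G := G) PUnit (fun _ => a) e = a := fun a => by
    rw [he, in1p_lift_single, one_zsmul]
  obtain ⟨n, hn, w, hw, hwc, t, ht, hnt⟩ := h
    (fun s => in1p_lift (G := G) PUnit (fun _ => y s))
    (hy.2.comp (fun a : (PTJ D).V => in1p_lift (G := G) PUnit (fun _ => a)))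
    (fun s => by
      obtain ⟨σ, τ, ρ⟩ := s
      apply in1p_ext
      intro ω
      rw [c2s_pt_single, c2s_pt_dTwo, hlift, hlift, hlift, hlift]
      exact (mem_cocycles₂_def y).1 hy.1 σ τ ρ)
  refine ⟨n, hn, fun s => w s e,
    ⟨(mem_cocycles₂_def _).2 fun σ τ ρ => ?_,
      hw.comp (fun h : (permZ G PUnit).V →+ (PTJ D).V => h e)⟩, ?_⟩
  · have := congrArg (fun h : (permZ G PUnit).V →+ (PTJ D).V => h e) (hwc (σ, τ, ρ))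
    simp only at this
    rw [he, c2s_pt_dTwo] at this
    exact this
  · refine (mem_levCoboundaries₂_iff D.𝒯 (PTJ D) _).2 ⟨fun g => t g e,
      ht.comp (fun h : (permZ G PUnit).V →+ (PTJ D).V => h e), ?_⟩
    funext ⟨σ, τ⟩
    rw [d₁₂_hom_apply]
    have := congrArg (fun h : (permZ G PUnit).V →+ (PTJ D).V => h e) (hnt (σ, τ))
    simp only at this
    have h1 : n • in1p_lift (G := G) PUnit (fun _ => y (σ, τ)) e =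
        p • w (σ, τ) e + dOne (permZ G PUnit) (PTJ D) t (σ, τ) e := this
    rw [hlift, he, c2s_pt_dOne] at h1
    show _ = n • y (σ, τ) - p • w (σ, τ) e
    rw [h1, he]
    abel

/-- `ℤ[pt]` is a level set. -/
lemma c2s_pt_levSet (𝒯 : Tower G) : IsLevSet 𝒯 PUnit :=
  ⟨⊤, 𝒯.top_mem, fun _ _ _ => rfl⟩

/-- **A5**: `In7` and `In7p` for the trivial lattice `ℤ`. -/
theorem stmtC2Surj_of (hJ2 : StmtJ2Div) : StmtC2Surj := by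
  intro p _ G _ ι _ _ Gloc _ D hdepth
  have hdiv : C2sDiv D := c2s_div_of D (hJ2 p G ι Gloc D hdepth PUnit (c2s_pt_levSet D.𝒯))
  have hP : C2sSurjP D := c2s_surjP D hdepth
  exact ⟨c2s_in7_of D (c2s_surj D hdiv hP), c2s_in7p_of D hP⟩

end Fermat.Agent.TW.E

end


end ZBTW_046_4

/-! ### bundled: `Fermat.Agent.TW.E.J2Fin` -/
section ZBTW_046_5
/-
TW-E / A4-fin (helper11): `stmtJ2Fin : StmtJ2Fin` (statement in TW/E/J2DivPlan.lean).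
`N ≤ K ≤ Γ`, `p ∣ |N|`, `C` with a `p`-fundamental class `u`: a 2-cocycle `c` on `K` which is
right-`N`-invariant satisfies `n c = p c′ + d t`, `n = [K : Q]` (`Q` a Sylow `p`-subgroup of `K`).
* `j2f_kill`: `[K:N] c = d t₀` (average over `K/N`);
* `j2f_dvd_of_zsmul_eq_zero`, `j2f_p_dvd`: `res_P u` has order `|P|`, so `[c|_P] = k res_P u` with `p ∣ k`;
* `SylowRes.index_smul_eq_zero_of_res_eq_zero` for the group `K` and its Sylow subgroup `Q`.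
-/

set_option autoImplicit false
set_option linter.unusedSectionVars false
set_option linter.unusedVariables false
set_option linter.style.haveILetI false

noncomputable section

namespace Fermat.Agent.TW.E

open CategoryTheory groupCohomology Fermat.Agent.PT

attribute [local instance 1100] Rep.hV2

section Kill

variable {Γ : Type} [Group Γ]

/-- Step 1: a 2-cocycle on `K` which is right-`N`-invariant in the second variable is killed by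
`[K : N]` (average over `K/N`). -/
theorem j2f_kill [Finite Γ] (C : Rep.{0} ℤ Γ) (K N : Subgroup Γ) (c : K × K → C.V)
    (hc : ∀ a b d : K, C.ρ (a : Γ) (c (b, d)) - c (a * b, d) + c (a, b * d) - c (a, b) = 0)
    (hN : ∀ a b s : K, (s : Γ) ∈ N → c (a, b * s) = c (a, b)) :
    ∃ t : K → C.V, ∀ a b : K,
      (N.subgroupOf K).index • c (a, b) = C.ρ (a : Γ) (t b) - t (a * b) + t a := by
  classical
  haveI : Fintype (K ⧸ N.subgroupOf K) := Fintype.ofFinite _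
  have hout : ∀ (a b : K), c (a, ((b : K ⧸ N.subgroupOf K)).out) = c (a, b) := by
    intro a b
    obtain ⟨s, hs⟩ := QuotientGroup.mk_out_eq_mul (N.subgroupOf K) b
    rw [hs]
    exact hN a b s (Subgroup.mem_subgroupOf.1 s.2)
  let t : K → C.V := fun a => ∑ x : K ⧸ N.subgroupOf K, c (a, x.out)
  have ht : ∀ a, t a = ∑ x : K ⧸ N.subgroupOf K, c (a, x.out) := fun a => rfl
  refine ⟨t, fun a b => ?_⟩
  have h1 : ∑ x : K ⧸ N.subgroupOf K,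
      (C.ρ (a : Γ) (c (b, x.out)) - c (a * b, x.out) + c (a, b * x.out) - c (a, b)) = 0 :=
    Finset.sum_eq_zero fun x _ => hc a b x.out
  rw [Finset.sum_sub_distrib, Finset.sum_add_distrib, Finset.sum_sub_distrib, Finset.sum_const,
    Finset.card_univ] at h1
  have h2 : ∑ x : K ⧸ N.subgroupOf K, c (a, b * x.out) = t a := by
    have e : ∀ x : K ⧸ N.subgroupOf K, c (a, b * x.out) = c (a, (b • x).out) := by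
      intro x
      have e' : (b • x) = ((b * x.out : K) : K ⧸ N.subgroupOf K) := by
        conv_lhs => rw [← QuotientGroup.out_eq' x]
        rfl
      rw [e', hout]
    simp_rw [e]
    exact Equiv.sum_comp (MulAction.toPerm b : Equiv.Perm (K ⧸ N.subgroupOf K))
      (fun x => c (a, x.out))
  have h3 : ∑ x : K ⧸ N.subgroupOf K, C.ρ (a : Γ) (c (b, x.out)) = C.ρ (a : Γ) (t b) :=
    (map_sum _ _ _).symm
  rw [h2, h3, ← ht] at h1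
  have h4 : (N.subgroupOf K).index = Fintype.card (K ⧸ N.subgroupOf K) := by
    rw [Subgroup.index_eq_card, Nat.card_eq_fintype_card]
  rw [h4]
  have h5 : Fintype.card (K ⧸ N.subgroupOf K) • c (a, b) -
      (C.ρ (a : Γ) (t b) - t (a * b) + t a) = 0 := by
    rw [← neg_eq_zero, ← h1]
    abel
  exact sub_eq_zero.1 h5

end Kill

/-- in a group of order `m` generated by `g`, `j • g = 0` implies `m ∣ j` -/
lemma j2f_dvd_of_zsmul_eq_zero {Z : Type*} [AddCommGroup Z] (g : Z) (m : ℕ)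
    (hm : Nat.card Z = m) (hgen : ∀ x : Z, ∃ k : ℤ, k • g = x) (j : ℤ) (hj : j • g = 0) :
    (m : ℤ) ∣ j := by
  have htop : AddSubgroup.zmultiples g = ⊤ := by
    rw [eq_top_iff]
    intro x _
    obtain ⟨k, hk⟩ := hgen x
    exact ⟨k, hk⟩
  have hord : addOrderOf g = m := by
    rw [← Nat.card_zmultiples, htop, AddSubgroup.card_top, hm]
  rw [← hord]
  exact addOrderOf_dvd_iff_zsmul_eq_zero.2 hj

/-- the arithmetic of the orders -/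
lemma j2f_p_dvd (p : ℕ) [hp : Fact p.Prime] (P idx q cN b : ℕ) (hP : P = p ^ b)
    (hK : P * idx = q * cN) (hidx : ¬ p ∣ idx) (hcN : p ∣ cN) (k : ℤ)
    (h : (P : ℤ) ∣ (q : ℤ) * k) : (p : ℤ) ∣ k := by
  by_contra hk
  have hpZ : Prime (p : ℤ) := Nat.prime_iff_prime_int.1 hp.out
  have hcop : IsCoprime (P : ℤ) k := by
    rw [hP, Nat.cast_pow]
    exact IsCoprime.pow_left ((Prime.coprime_iff_not_dvd hpZ).2 hk)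
  have h1 : (P : ℤ) ∣ (q : ℤ) := hcop.dvd_of_dvd_mul_right h
  have h2 : P ∣ q := Int.natCast_dvd_natCast.1 h1
  obtain ⟨q', hq'⟩ := h2
  have hP0 : 0 < P := by rw [hP]; exact pow_pos hp.out.pos b
  have h3 : idx = q' * cN := by
    apply Nat.eq_of_mul_eq_mul_left hP0
    rw [hK, hq', mul_assoc]
  exact hidx (h3 ▸ Dvd.dvd.mul_left hcN q')


section Main

variable {Γ : Type} [Group Γ]

/-- **A4-fin**. -/
theorem stmtJ2Fin : StmtJ2Fin := by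
  intro p hp Γ _ _ C u hu K N hNK hpN c hc hcN
  classical
  -- Step 1
  obtain ⟨t₀, ht₀⟩ := j2f_kill C K N c hc (fun a b s hs => by
    have := hcN a b 1 s N.one_mem hs
    rwa [mul_one] at this)
  -- Step 2: a Sylow subgroup of `K`
  obtain ⟨Q⟩ : Nonempty (Sylow p K) := inferInstance
  set P : Subgroup Γ := (Q : Subgroup K).map K.subtype with hPdef
  have hPp : IsPGroup p P := Q.2.map K.subtype
  have hPK : ∀ g ∈ P, g ∈ K := by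
    rintro g ⟨q, -, rfl⟩
    exact q.2
  have hPQ : ∀ g (hg : g ∈ P), (⟨g, hPK g hg⟩ : K) ∈ (Q : Subgroup K) := by
    rintro g ⟨q, hq, rfl⟩
    exact hq
  have hQP : ∀ q : K, q ∈ (Q : Subgroup K) → (q : Γ) ∈ P := fun q hq => ⟨q, hq, rfl⟩
  -- a cocycle representing `u`
  obtain ⟨ũ, rfl⟩ : ∃ ũ : cocycles₂ C, H2π C ũ = u := by
    induction u using H2_induction_on with
    | h x => exact ⟨x, rfl⟩
  have hũ := (mem_cocycles₂_def (ũ : Γ × Γ → C.V)).1 ũ.2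
  -- the restriction of `c` to `P`
  let cP : P × P → C.V := fun ab => c (⟨ab.1.1, hPK _ ab.1.2⟩, ⟨ab.2.1, hPK _ ab.2.2⟩)
  have hcP : cP ∈ cocycles₂ (Rep.res P.subtype C) := by
    rw [mem_cocycles₂_def]
    intro a b d
    exact hc ⟨a.1, hPK _ a.2⟩ ⟨b.1, hPK _ b.2⟩ ⟨d.1, hPK _ d.2⟩
  obtain ⟨k, hk⟩ := hu.h2_gen P hPp (H2π _ ⟨cP, hcP⟩)
  -- `[K:N] • [cP] = 0`
  have hkill : (N.subgroupOf K).index • H2π (Rep.res P.subtype C) ⟨cP, hcP⟩ = 0 := by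
    rw [← map_nsmul, H2π_eq_zero_iff]
    refine ⟨fun a : P => t₀ ⟨a.1, hPK _ a.2⟩, ?_⟩
    funext ⟨a, b⟩
    rw [d₁₂_hom_apply]
    exact (ht₀ ⟨a.1, hPK _ a.2⟩ ⟨b.1, hPK _ b.2⟩).symm
  set g : H2 (Rep.res P.subtype C) := (resSub C P 2).hom (H2π C ũ) with hg
  have hgres : g = H2π (Rep.res P.subtype C)
      (mapCocycles₂ P.subtype (𝟙 (Rep.res P.subtype C)) ũ) :=
    H2π_comp_map_apply P.subtype (𝟙 (Rep.res P.subtype C)) ũ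
  have hqk : (((N.subgroupOf K).index : ℤ) * k) • g = 0 := by
    rw [mul_smul, hk, natCast_zsmul]
    exact hkill
  have hdvd : (Nat.card P : ℤ) ∣ ((N.subgroupOf K).index : ℤ) * k :=
    j2f_dvd_of_zsmul_eq_zero g (Nat.card P) (hu.h2_card P hPp) (hu.h2_gen P hPp) _ hqk
  -- the orders
  have hcardP : Nat.card P = Nat.card (Q : Subgroup K) :=
    (Nat.card_congr ((Q : Subgroup K).equivMapOfInjective K.subtype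
      K.subtype_injective).toEquiv).symm
  obtain ⟨b, hb⟩ := IsPGroup.iff_card.1 Q.2
  have hK1 : Nat.card (Q : Subgroup K) * (Q : Subgroup K).index = Nat.card K :=
    Subgroup.card_mul_index _
  have hK2 : (N.subgroupOf K).index * Nat.card (N.subgroupOf K) = Nat.card K :=
    Subgroup.index_mul_card _
  have hK3 : Nat.card (N.subgroupOf K) = Nat.card N :=
    Nat.card_congr (Subgroup.subgroupOfEquivOfLe hNK).toEquiv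
  have hpk : (p : ℤ) ∣ k :=
    j2f_p_dvd p (Nat.card P) (Q : Subgroup K).index (N.subgroupOf K).index (Nat.card N) b
      (hcardP.trans hb) (by rw [hcardP, hK1, ← hK2, hK3]) Q.not_dvd_index hpN k hdvd
  obtain ⟨k', rfl⟩ := hpk
  -- Step 3
  let A : Rep.{0} ℤ K := Rep.res K.subtype C
  let ũK : cocycles₂ A := mapCocycles₂ K.subtype (𝟙 (Rep.res K.subtype C)) ũ
  have hũK : ∀ a b : K, (ũK : K × K → C.V) (a, b) = ũ ((a : Γ), (b : Γ)) := fun a b => rfl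
  have hcA : c ∈ cocycles₂ A := by
    rw [mem_cocycles₂_def]
    exact hc
  let c₁ : cocycles₂ A := ⟨c, hcA⟩ - ((p : ℤ) * k') • ũK
  have hc₁ : ∀ a b : K, (c₁ : K × K → C.V) (a, b) =
      c (a, b) - ((p : ℤ) * k') • ũ ((a : Γ), (b : Γ)) := fun a b => rfl
  -- the restriction to `P` is a coboundary
  have hzero : H2π (Rep.res P.subtype C)
      (⟨cP, hcP⟩ - ((p : ℤ) * k') • mapCocycles₂ P.subtype (𝟙 (Rep.res P.subtype C)) ũ) = 0 := by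
    rw [map_sub, map_zsmul, ← hgres, hk, sub_self]
  rw [H2π_eq_zero_iff] at hzero
  obtain ⟨tP, htP⟩ := hzero
  have htP' : ∀ a b : P, C.ρ (a : Γ) (tP b) - tP (a * b) + tP a =
      c (⟨a.1, hPK _ a.2⟩, ⟨b.1, hPK _ b.2⟩) - ((p : ℤ) * k') • ũ ((a : Γ), (b : Γ)) := by
    intro a b
    have := congrFun htP (a, b)
    rw [d₁₂_hom_apply] at this
    exact this
  have hres : (resSub A (Q : Subgroup K) 2).hom (H2π A c₁) = 0 := by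
    have key := H2π_comp_map_apply (Q : Subgroup K).subtype
      (𝟙 (Rep.res (Q : Subgroup K).subtype A)) c₁
    refine Eq.trans key ?_
    rw [H2π_eq_zero_iff]
    refine ⟨fun q : (Q : Subgroup K) => tP ⟨((q : K) : Γ), hQP q q.2⟩, ?_⟩
    funext ⟨a, b⟩
    rw [d₁₂_hom_apply]
    exact htP' ⟨((a : K) : Γ), hQP a a.2⟩ ⟨((b : K) : Γ), hQP b b.2⟩
  have hidx : (Q : Subgroup K).index • H2π A c₁ = 0 :=
    SylowRes.index_smul_eq_zero_of_res_eq_zero (Q : Subgroup K) 1 A (H2π A c₁) hres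
  rw [← map_nsmul, H2π_eq_zero_iff] at hidx
  obtain ⟨t₁, ht₁⟩ := hidx
  have ht₁' : ∀ a b : K, C.ρ (a : Γ) (t₁ b) - t₁ (a * b) + t₁ a =
      (Q : Subgroup K).index • (c (a, b) - ((p : ℤ) * k') • ũ ((a : Γ), (b : Γ))) := by
    intro a b
    have := congrFun ht₁ (a, b)
    rw [d₁₂_hom_apply] at this
    exact this
  refine ⟨(Q : Subgroup K).index, Q.not_dvd_index,
    fun ab => (Q : Subgroup K).index • (k' • ũ ((ab.1 : Γ), (ab.2 : Γ))), ?_, t₁, ?_⟩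
  · intro a b d
    show C.ρ (a : Γ) ((Q : Subgroup K).index • (k' • ũ ((b : Γ), (d : Γ)))) -
        (Q : Subgroup K).index • (k' • ũ (((a * b : K) : Γ), (d : Γ))) +
        (Q : Subgroup K).index • (k' • ũ ((a : Γ), ((b * d : K) : Γ))) -
        (Q : Subgroup K).index • (k' • ũ ((a : Γ), (b : Γ))) = 0
    rw [map_nsmul, map_zsmul]
    have := hũ (a : Γ) (b : Γ) (d : Γ)
    have e : (Q : Subgroup K).index • (k' • C.ρ (a : Γ) (ũ ((b : Γ), (d : Γ)))) -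
        (Q : Subgroup K).index • (k' • ũ (((a * b : K) : Γ), (d : Γ))) +
        (Q : Subgroup K).index • (k' • ũ ((a : Γ), ((b * d : K) : Γ))) -
        (Q : Subgroup K).index • (k' • ũ ((a : Γ), (b : Γ))) =
        (Q : Subgroup K).index • (k' • (C.ρ (a : Γ) (ũ ((b : Γ), (d : Γ))) -
          ũ ((a : Γ) * (b : Γ), (d : Γ)) + ũ ((a : Γ), (b : Γ) * (d : Γ)) -
          ũ ((a : Γ), (b : Γ)))) := by
      simp only [zsmul_sub, zsmul_add, nsmul_sub, nsmul_add, Subgroup.coe_mul]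
    rw [e, this, zsmul_zero, nsmul_zero]
  · intro a b
    rw [ht₁' a b, smul_sub]
    have e : p • (Q : Subgroup K).index • (k' • ũ ((a : Γ), (b : Γ))) =
        (Q : Subgroup K).index • (((p : ℤ) * k') • ũ ((a : Γ), (b : Γ))) := by
      rw [smul_comm, mul_smul, natCast_zsmul]
    show (Q : Subgroup K).index • c (a, b) =
      p • (Q : Subgroup K).index • (k' • ũ ((a : Γ), (b : Γ))) + _
    rw [e]
    abel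

end Main

end Fermat.Agent.TW.E

end


end ZBTW_046_5

/-! ### bundled: `Fermat.Agent.TW.E.J2Loc` -/
section ZBTW_046_6
/-
TW-E / A4-loc (helper11): `stmtJ2Loc_of : StmtJ2Fin → StmtJ2Loc` (statements in TW/E/J2DivPlan.lean).
Descent of a homogeneous `K`-equivariant cocycle `c : K³ → J_v` to the finite level `Γ = G_v ⧸ V'`:
`ĉ(a, b) = c(1, a, ab)`, `c̄(ā, b̄) = ĉ(a, b)` on `K̄ = K.map mk ≤ Γ`, `N̄ = V.map mk`, `|N̄| = V'.relIndex V`;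
A4-fin; `w(k₀,k₁,k₂) = k₀ c̄'(k₀⁻¹k₁, k₁⁻¹k₂)`, `t(k₀,k₁) = k₀ t̄(k₀⁻¹k₁)`.
-/

set_option autoImplicit false
set_option linter.unusedSectionVars false
set_option linter.unusedVariables false
set_option linter.style.haveILetI false

noncomputable section

namespace Fermat.Agent.TW.E

open CategoryTheory groupCohomology Fermat.Agent.PT Fermat.Agent.PT.F

attribute [local instance 1100] Rep.hV2

section Abstract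

variable {H : Type} [Group H] (Y : Rep.{0} ℤ H) (K V V' : Subgroup H)

/-- `|V / V'| = V'.relIndex V` -/
lemma j2l_card_map [V'.Normal] :
    Nat.card (V.map (QuotientGroup.mk' V')) = V'.relIndex V := by
  have h := Subgroup.relIndex_comap (⊥ : Subgroup (H ⧸ V')) (QuotientGroup.mk' V') V
  rw [Subgroup.relIndex_bot_left, MonoidHom.comap_bot, QuotientGroup.ker_mk'] at h
  exact h.symm

variable {K} in
/-- the inhomogeneous cochain of a homogeneous one -/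
def j2lHat (c : K → K → K → Y.V) (ab : K × K) : Y.V := c 1 ab.1 (ab.1 * ab.2)

variable (c : K → K → K → Y.V)
  (hc1 : ∀ k k₀ k₁ k₂ : K, c (k * k₀) (k * k₁) (k * k₂) = Y.ρ (k : H) (c k₀ k₁ k₂))
  (hc2 : ∀ k₀ k₁ k₂ k₃ : K, c k₁ k₂ k₃ - c k₀ k₂ k₃ + c k₀ k₁ k₃ - c k₀ k₁ k₂ = 0)
  (hc3 : ∀ k₀ k₁ k₂ s₀ s₁ s₂ : K, (s₀ : H) ∈ V → (s₁ : H) ∈ V → (s₂ : H) ∈ V →
    c (k₀ * s₀) (k₁ * s₁) (k₂ * s₂) = c k₀ k₁ k₂)

include hc1 hc2 in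
lemma j2lHat_cocycle (a b d : K) :
    Y.ρ (a : H) (j2lHat Y c (b, d)) - j2lHat Y c (a * b, d) + j2lHat Y c (a, b * d) -
      j2lHat Y c (a, b) = 0 := by
  unfold j2lHat
  have h1 := hc1 a 1 b (b * d)
  have h2 := hc2 1 a (a * b) (a * b * d)
  rw [mul_one, ← mul_assoc] at h1
  simp only
  rw [← h1, ← mul_assoc]
  exact h2

include hc3 in
lemma j2lHat_inv (hVn : V.Normal) (a b s s' : K) (hs : (s : H) ∈ V) (hs' : (s' : H) ∈ V) :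
    j2lHat Y c (a * s, b * s') = j2lHat Y c (a, b) := by
  unfold j2lHat
  simp only
  have e : a * s * (b * s') = a * b * (b⁻¹ * s * b * s') := by group
  have hm : ((b⁻¹ * s * b * s' : K) : H) ∈ V := by
    rw [Subgroup.coe_mul]
    refine V.mul_mem ?_ hs'
    have := hVn.conj_mem (s : H) hs ((b : H)⁻¹)
    simpa using this
  rw [e]
  have := hc3 1 a (a * b) 1 s (b⁻¹ * s * b * s') V.one_mem hs hm
  rw [mul_one] at this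
  exact this

include hc1 hc3 in
lemma j2lHat_fixed (hVn : V.Normal) (hVK : V ≤ K) (a b : K) (s : H) (hs : s ∈ V) :
    Y.ρ s (j2lHat Y c (a, b)) = j2lHat Y c (a, b) := by
  unfold j2lHat
  simp only
  have h1 := hc1 ⟨s, hVK hs⟩ 1 a (a * b)
  have hsa : ((a⁻¹ * ⟨s, hVK hs⟩ * a : K) : H) ∈ V := by
    have := hVn.conj_mem s hs ((a : H)⁻¹)
    simpa using this
  have hsab : (((a * b)⁻¹ * ⟨s, hVK hs⟩ * (a * b) : K) : H) ∈ V := by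
    have := hVn.conj_mem s hs (((a * b : K) : H)⁻¹)
    simpa using this
  have h2 := hc3 1 a (a * b) ⟨s, hVK hs⟩ (a⁻¹ * ⟨s, hVK hs⟩ * a)
    ((a * b)⁻¹ * ⟨s, hVK hs⟩ * (a * b)) hs hsa hsab
  have e1 : (⟨s, hVK hs⟩ : K) * a = a * (a⁻¹ * ⟨s, hVK hs⟩ * a) := by group
  have e2 : (⟨s, hVK hs⟩ : K) * (a * b) = a * b * ((a * b)⁻¹ * ⟨s, hVK hs⟩ * (a * b)) := by
    group
  rw [mul_one] at h1
  rw [one_mul] at h2
  have h3 : c ⟨s, hVK hs⟩ (⟨s, hVK hs⟩ * a) (⟨s, hVK hs⟩ * (a * b)) = c 1 a (a * b) := by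
    rw [e1, e2]
    exact h2
  exact h1.symm.trans h3

end Abstract


section Descent

variable {H : Type} [Group H] (Y : Rep.{0} ℤ H) (K V V' : Subgroup H) [V'.Normal]

/-- the projection `K → K̄ = K.map mk` -/
def j2lMk : K →* K.map (QuotientGroup.mk' V') := (QuotientGroup.mk' V').subgroupMap K

lemma j2lMk_coe (k : K) : ((j2lMk K V' k : K.map (QuotientGroup.mk' V')) : H ⧸ V') =
    ((k : H) : H ⧸ V') := rfl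

variable {K V'} in
lemma j2l_out_mem (hV'K : V' ≤ K) (x : K.map (QuotientGroup.mk' V')) :
    (x : H ⧸ V').out ∈ K := by
  obtain ⟨k, hk, hkx⟩ := x.2
  have h1 : ((k : H) : H ⧸ V') = (((x : H ⧸ V').out : H) : H ⧸ V') := by
    rw [QuotientGroup.out_eq']
    exact hkx
  have h2 : k⁻¹ * (x : H ⧸ V').out ∈ V' := QuotientGroup.eq.1 h1
  have e : (x : H ⧸ V').out = k * (k⁻¹ * (x : H ⧸ V').out) := by group
  rw [e]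
  exact K.mul_mem hk (hV'K h2)

/-- representatives in `K` of the elements of `K̄` -/
def j2lLift (hV'K : V' ≤ K) (x : K.map (QuotientGroup.mk' V')) : K :=
  ⟨(x : H ⧸ V').out, j2l_out_mem hV'K x⟩

lemma j2lMk_lift (hV'K : V' ≤ K) (x : K.map (QuotientGroup.mk' V')) :
    j2lMk K V' (j2lLift K V' hV'K x) = x :=
  Subtype.ext (QuotientGroup.out_eq' _)

lemma j2l_exists_mul (a b : K) (h : j2lMk K V' a = j2lMk K V' b) :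
    ∃ s : K, (s : H) ∈ V' ∧ b = a * s := by
  refine ⟨a⁻¹ * b, ?_, by group⟩
  have h1 : (((a : H) : H ⧸ V')) = ((b : H) : H ⧸ V') := congrArg Subtype.val h
  have := QuotientGroup.eq.1 h1
  simpa using this

lemma j2lMk_eq_one (s : K) (hs : (s : H) ∈ V') : j2lMk K V' s = 1 := by
  apply Subtype.ext
  show ((s : H) : H ⧸ V') = 1
  exact (QuotientGroup.eq_one_iff _).2 hs

lemma j2l_mem_of_mk_mem (hV'V : V' ≤ V) (k : K)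
    (h : ((j2lMk K V' k : K.map (QuotientGroup.mk' V')) : H ⧸ V') ∈
      V.map (QuotientGroup.mk' V')) : (k : H) ∈ V := by
  obtain ⟨v₀, hv₀, hv₀k⟩ := h
  have h1 : ((v₀ : H) : H ⧸ V') = ((k : H) : H ⧸ V') := hv₀k
  have h2 : v₀⁻¹ * (k : H) ∈ V' := QuotientGroup.eq.1 h1
  have e : (k : H) = v₀ * (v₀⁻¹ * (k : H)) := by group
  rw [e]
  exact V.mul_mem hv₀ (hV'V h2)

end Descent


section Main

variable {H : Type} [Group H] (Y : Rep.{0} ℤ H) (K V V' : Subgroup H) [V'.Normal]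

lemma j2l_ρ_coe (k : K) (x : (Y.quotientToInvariants V').V) :
    (((Y.quotientToInvariants V').ρ
      ((j2lMk K V' k : K.map (QuotientGroup.mk' V')) : H ⧸ V') x :
        (Y.quotientToInvariants V').V) : Y.V) = Y.ρ (k : H) (x : Y.V) := rfl

lemma j2l_ρ_mul (a b : H) (x : Y.V) : Y.ρ (a * b) x = Y.ρ a (Y.ρ b x) := by
  rw [map_mul]; rfl

lemma j2l_fixed (x : (Y.quotientToInvariants V').V) (s : H) (hs : s ∈ V') :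
    Y.ρ s (x : Y.V) = x := x.2 ⟨s, hs⟩

theorem j2l_main (hFin : StmtJ2Fin) (p : ℕ) [Fact p.Prime] [Finite (H ⧸ V')]
    (u : H2 (Y.quotientToInvariants V')) (hu : IsPFundClass p (Y.quotientToInvariants V') u)
    (hVn : V.Normal) (hV'V : V' ≤ V) (hVK : V ≤ K) (hp : p ∣ V'.relIndex V)
    (c : K → K → K → Y.V)
    (hc1 : ∀ k k₀ k₁ k₂ : K, c (k * k₀) (k * k₁) (k * k₂) = Y.ρ (k : H) (c k₀ k₁ k₂))
    (hc2 : ∀ k₀ k₁ k₂ k₃ : K, c k₁ k₂ k₃ - c k₀ k₂ k₃ + c k₀ k₁ k₃ - c k₀ k₁ k₂ = 0)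
    (hc3 : ∀ k₀ k₁ k₂ s₀ s₁ s₂ : K, (s₀ : H) ∈ V → (s₁ : H) ∈ V → (s₂ : H) ∈ V →
      c (k₀ * s₀) (k₁ * s₁) (k₂ * s₂) = c k₀ k₁ k₂) :
    ∃ n : ℕ, ¬ p ∣ n ∧
      ∃ w : K → K → K → Y.V,
        (∀ k k₀ k₁ k₂ : K, w (k * k₀) (k * k₁) (k * k₂) = Y.ρ (k : H) (w k₀ k₁ k₂)) ∧
        (∀ k₀ k₁ k₂ k₃ : K, w k₁ k₂ k₃ - w k₀ k₂ k₃ + w k₀ k₁ k₃ - w k₀ k₁ k₂ = 0) ∧
        (∀ k₀ k₁ k₂ s₀ s₁ s₂ : K, (s₀ : H) ∈ V' → (s₁ : H) ∈ V' → (s₂ : H) ∈ V' →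
          w (k₀ * s₀) (k₁ * s₁) (k₂ * s₂) = w k₀ k₁ k₂) ∧
        ∃ t : K → K → Y.V,
          (∀ k k₀ k₁ : K, t (k * k₀) (k * k₁) = Y.ρ (k : H) (t k₀ k₁)) ∧
          (∀ k₀ k₁ s₀ s₁ : K, (s₀ : H) ∈ V' → (s₁ : H) ∈ V' →
            t (k₀ * s₀) (k₁ * s₁) = t k₀ k₁) ∧
          ∀ k₀ k₁ k₂ : K,
            n • c k₀ k₁ k₂ = p • w k₀ k₁ k₂ + (t k₁ k₂ - t k₀ k₂ + t k₀ k₁) := by
  have hV'K : V' ≤ K := hV'V.trans hVK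
  have hNK : V.map (QuotientGroup.mk' V') ≤ K.map (QuotientGroup.mk' V') :=
    Subgroup.map_mono hVK
  have hpN : p ∣ Nat.card (V.map (QuotientGroup.mk' V')) := by
    rw [j2l_card_map]; exact hp
  have hfix : ∀ (a b : K) (s : V'),
      Y.ρ (s : H) (j2lHat Y c (a, b)) = j2lHat Y c (a, b) :=
    fun a b s => j2lHat_fixed Y K V c hc1 hc3 hVn hVK a b s (hV'V s.2)
  have hinv : ∀ (a b s s' : K), (s : H) ∈ V → (s' : H) ∈ V →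
      j2lHat Y c (a * s, b * s') = j2lHat Y c (a, b) :=
    fun a b s s' hs hs' => j2lHat_inv Y K V c hc3 hVn a b s s' hs hs'
  -- representatives
  let L : K.map (QuotientGroup.mk' V') → K := j2lLift K V' hV'K
  have hL1 : ∀ x y : K.map (QuotientGroup.mk' V'),
      ∃ s : K, (s : H) ∈ V' ∧ L (x * y) = L x * L y * s := fun x y =>
    j2l_exists_mul K V' (L x * L y) (L (x * y)) (by
      rw [map_mul, j2lMk_lift, j2lMk_lift, j2lMk_lift])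
  have hL2 : ∀ k : K, ∃ s : K, (s : H) ∈ V' ∧ L (j2lMk K V' k) = k * s := fun k =>
    j2l_exists_mul K V' k (L (j2lMk K V' k)) (by rw [j2lMk_lift])
  -- the descended cochain
  let cb : K.map (QuotientGroup.mk' V') × K.map (QuotientGroup.mk' V') →
      (Y.quotientToInvariants V').V :=
    fun xy => ⟨j2lHat Y c (L xy.1, L xy.2), fun s => hfix _ _ s⟩
  have hcb_val : ∀ x y, ((cb (x, y) : (Y.quotientToInvariants V').V) : Y.V) =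
      j2lHat Y c (L x, L y) := fun x y => rfl
  have hcb_mk : ∀ a b : K, ((cb (j2lMk K V' a, j2lMk K V' b) :
      (Y.quotientToInvariants V').V) : Y.V) = j2lHat Y c (a, b) := by
    intro a b
    obtain ⟨s, hs, e⟩ := hL2 a
    obtain ⟨s', hs', e'⟩ := hL2 b
    rw [hcb_val, e, e']
    exact hinv a b s s' (hV'V hs) (hV'V hs')
  have hcb : ∀ a b d : K.map (QuotientGroup.mk' V'),
      (Y.quotientToInvariants V').ρ (a : H ⧸ V') (cb (b, d)) - cb (a * b, d) + cb (a, b * d) -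
        cb (a, b) = 0 := by
    intro a b d
    apply Subtype.ext
    have ha := j2lMk_lift K V' hV'K a
    have h1 : ((((Y.quotientToInvariants V').ρ (a : H ⧸ V') (cb (b, d)) :
        (Y.quotientToInvariants V').V)) : Y.V) = Y.ρ (L a : H) (j2lHat Y c (L b, L d)) := by
      have := j2l_ρ_coe Y K V' (L a) (cb (b, d))
      rw [ha] at this
      exact this
    have h2 : ((cb (a * b, d) : (Y.quotientToInvariants V').V) : Y.V) =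
        j2lHat Y c (L a * L b, L d) := by
      obtain ⟨s, hs, e⟩ := hL1 a b
      rw [hcb_val, e]
      have := hinv (L a * L b) (L d) s 1 (hV'V hs) V.one_mem
      rw [mul_one] at this
      exact this
    have h3 : ((cb (a, b * d) : (Y.quotientToInvariants V').V) : Y.V) =
        j2lHat Y c (L a, L b * L d) := by
      obtain ⟨s, hs, e⟩ := hL1 b d
      rw [hcb_val, e]
      have := hinv (L a) (L b * L d) 1 s V.one_mem (hV'V hs)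
      rw [mul_one] at this
      exact this
    show ((((Y.quotientToInvariants V').ρ (a : H ⧸ V') (cb (b, d)) :
        (Y.quotientToInvariants V').V)) : Y.V) - ((cb (a * b, d) :
        (Y.quotientToInvariants V').V) : Y.V) + ((cb (a, b * d) :
        (Y.quotientToInvariants V').V) : Y.V) - ((cb (a, b) :
        (Y.quotientToInvariants V').V) : Y.V) = 0
    rw [h1, h2, h3, hcb_val]
    exact j2lHat_cocycle Y K c hc1 hc2 (L a) (L b) (L d)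
  have hcbN : ∀ a b s s' : K.map (QuotientGroup.mk' V'),
      (s : H ⧸ V') ∈ V.map (QuotientGroup.mk' V') →
      (s' : H ⧸ V') ∈ V.map (QuotientGroup.mk' V') → cb (a * s, b * s') = cb (a, b) := by
    intro a b s s' hs hs'
    apply Subtype.ext
    obtain ⟨σ, hσ, e⟩ := hL1 a s
    obtain ⟨σ', hσ', e'⟩ := hL1 b s'
    have hLs : ((L s : K) : H) ∈ V := by
      apply j2l_mem_of_mk_mem K V V' hV'V
      rw [j2lMk_lift]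
      exact hs
    have hLs' : ((L s' : K) : H) ∈ V := by
      apply j2l_mem_of_mk_mem K V V' hV'V
      rw [j2lMk_lift]
      exact hs'
    rw [hcb_val, hcb_val, e, e', mul_assoc, mul_assoc]
    refine hinv (L a) (L b) (L s * σ) (L s' * σ') ?_ ?_
    · rw [Subgroup.coe_mul]; exact V.mul_mem hLs (hV'V hσ)
    · rw [Subgroup.coe_mul]; exact V.mul_mem hLs' (hV'V hσ')
  obtain ⟨n, hn, cb', hcb', tb, heq⟩ := hFin p (H ⧸ V') (Y.quotientToInvariants V') u hu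
    (K.map (QuotientGroup.mk' V')) (V.map (QuotientGroup.mk' V')) hNK hpN cb hcb hcbN
  -- coercions
  have hsub : ∀ x y : (Y.quotientToInvariants V').V,
      ((x - y : (Y.quotientToInvariants V').V) : Y.V) = (x : Y.V) - (y : Y.V) := fun _ _ => rfl
  have hadd : ∀ x y : (Y.quotientToInvariants V').V,
      ((x + y : (Y.quotientToInvariants V').V) : Y.V) = (x : Y.V) + (y : Y.V) := fun _ _ => rfl
  have hnsmul : ∀ (m : ℕ) (x : (Y.quotientToInvariants V').V),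
      ((m • x : (Y.quotientToInvariants V').V) : Y.V) = m • (x : Y.V) := fun _ _ => rfl
  have hzero : (((0 : (Y.quotientToInvariants V').V)) : Y.V) = 0 := rfl
  have hmk1 : ∀ s : K, (s : H) ∈ V' → j2lMk K V' s = 1 := fun s hs => j2lMk_eq_one K V' s hs
  have hmk_inv : ∀ (k₀ k₁ s₀ s₁ : K), (s₀ : H) ∈ V' → (s₁ : H) ∈ V' →
      j2lMk K V' ((k₀ * s₀)⁻¹ * (k₁ * s₁)) = j2lMk K V' (k₀⁻¹ * k₁) := by
    intro k₀ k₁ s₀ s₁ hs₀ hs₁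
    have e : (k₀ * s₀)⁻¹ * (k₁ * s₁) = s₀⁻¹ * (k₀⁻¹ * k₁) * s₁ := by group
    rw [e, map_mul, map_mul, map_inv, hmk1 s₀ hs₀, hmk1 s₁ hs₁, inv_one, one_mul, mul_one]
  refine ⟨n, hn,
    fun k₀ k₁ k₂ => Y.ρ (k₀ : H)
      ((cb' (j2lMk K V' (k₀⁻¹ * k₁), j2lMk K V' (k₁⁻¹ * k₂)) :
        (Y.quotientToInvariants V').V) : Y.V), ?_, ?_, ?_,
    fun k₀ k₁ => Y.ρ (k₀ : H)
      ((tb (j2lMk K V' (k₀⁻¹ * k₁)) : (Y.quotientToInvariants V').V) : Y.V), ?_, ?_, ?_⟩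
  · intro k k₀ k₁ k₂
    have e1 : (k * k₀)⁻¹ * (k * k₁) = k₀⁻¹ * k₁ := by group
    have e2 : (k * k₁)⁻¹ * (k * k₂) = k₁⁻¹ * k₂ := by group
    simp only
    rw [e1, e2, Subgroup.coe_mul, j2l_ρ_mul]
  · intro k₀ k₁ k₂ k₃
    simp only
    have hab : j2lMk K V' (k₀⁻¹ * k₂) = j2lMk K V' (k₀⁻¹ * k₁) * j2lMk K V' (k₁⁻¹ * k₂) := by
      rw [← map_mul]; congr 1; group
    have hbd : j2lMk K V' (k₁⁻¹ * k₃) = j2lMk K V' (k₁⁻¹ * k₂) * j2lMk K V' (k₂⁻¹ * k₃) := by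
      rw [← map_mul]; congr 1; group
    have h : Y.ρ (k₀ : H) (Y.ρ ((k₀⁻¹ * k₁ : K) : H)
          ((cb' (j2lMk K V' (k₁⁻¹ * k₂), j2lMk K V' (k₂⁻¹ * k₃)) :
            (Y.quotientToInvariants V').V) : Y.V) -
        ((cb' (j2lMk K V' (k₀⁻¹ * k₁) * j2lMk K V' (k₁⁻¹ * k₂), j2lMk K V' (k₂⁻¹ * k₃)) :
            (Y.quotientToInvariants V').V) : Y.V) +
        ((cb' (j2lMk K V' (k₀⁻¹ * k₁), j2lMk K V' (k₁⁻¹ * k₂) * j2lMk K V' (k₂⁻¹ * k₃)) :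
            (Y.quotientToInvariants V').V) : Y.V) -
        ((cb' (j2lMk K V' (k₀⁻¹ * k₁), j2lMk K V' (k₁⁻¹ * k₂)) :
            (Y.quotientToInvariants V').V) : Y.V)) = Y.ρ (k₀ : H) 0 :=
      congrArg (fun x : (Y.quotientToInvariants V').V => Y.ρ (k₀ : H) (x : Y.V))
        (hcb' (j2lMk K V' (k₀⁻¹ * k₁)) (j2lMk K V' (k₁⁻¹ * k₂)) (j2lMk K V' (k₂⁻¹ * k₃)))
    rw [map_sub, map_add, map_sub, map_zero, ← j2l_ρ_mul, ← Subgroup.coe_mul,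
      mul_inv_cancel_left, ← hab, ← hbd] at h
    exact h
  · intro k₀ k₁ k₂ s₀ s₁ s₂ hs₀ hs₁ hs₂
    simp only
    rw [hmk_inv k₀ k₁ s₀ s₁ hs₀ hs₁, hmk_inv k₁ k₂ s₁ s₂ hs₁ hs₂, Subgroup.coe_mul, j2l_ρ_mul,
      j2l_fixed Y V' _ (s₀ : H) hs₀]
  · intro k k₀ k₁
    have e1 : (k * k₀)⁻¹ * (k * k₁) = k₀⁻¹ * k₁ := by group
    simp only
    rw [e1, Subgroup.coe_mul, j2l_ρ_mul]
  · intro k₀ k₁ s₀ s₁ hs₀ hs₁
    simp only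
    rw [hmk_inv k₀ k₁ s₀ s₁ hs₀ hs₁, Subgroup.coe_mul, j2l_ρ_mul,
      j2l_fixed Y V' _ (s₀ : H) hs₀]
  · intro k₀ k₁ k₂
    simp only
    have hab : j2lMk K V' (k₀⁻¹ * k₂) = j2lMk K V' (k₀⁻¹ * k₁) * j2lMk K V' (k₁⁻¹ * k₂) := by
      rw [← map_mul]; congr 1; group
    have hc : c k₀ k₁ k₂ = Y.ρ (k₀ : H) (j2lHat Y c (k₀⁻¹ * k₁, k₁⁻¹ * k₂)) := by
      have := hc1 k₀ 1 (k₀⁻¹ * k₁) (k₀⁻¹ * k₁ * (k₁⁻¹ * k₂))
      rw [mul_one, mul_inv_cancel_left, ← mul_assoc, mul_inv_cancel_left,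
        mul_inv_cancel_left] at this
      exact this
    have h : Y.ρ (k₀ : H) (n • ((cb (j2lMk K V' (k₀⁻¹ * k₁), j2lMk K V' (k₁⁻¹ * k₂)) :
          (Y.quotientToInvariants V').V) : Y.V)) =
        Y.ρ (k₀ : H) (p • ((cb' (j2lMk K V' (k₀⁻¹ * k₁), j2lMk K V' (k₁⁻¹ * k₂)) :
          (Y.quotientToInvariants V').V) : Y.V) +
          (Y.ρ ((k₀⁻¹ * k₁ : K) : H) ((tb (j2lMk K V' (k₁⁻¹ * k₂)) :
            (Y.quotientToInvariants V').V) : Y.V) -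
          ((tb (j2lMk K V' (k₀⁻¹ * k₁) * j2lMk K V' (k₁⁻¹ * k₂)) :
            (Y.quotientToInvariants V').V) : Y.V) +
          ((tb (j2lMk K V' (k₀⁻¹ * k₁)) : (Y.quotientToInvariants V').V) : Y.V))) :=
      congrArg (fun x : (Y.quotientToInvariants V').V => Y.ρ (k₀ : H) (x : Y.V))
        (heq (j2lMk K V' (k₀⁻¹ * k₁)) (j2lMk K V' (k₁⁻¹ * k₂)))
    rw [hcb_mk, map_add, map_add, map_sub, ← j2l_ρ_mul, ← Subgroup.coe_mul,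
      mul_inv_cancel_left, ← hab] at h
    rw [hc, ← map_nsmul, ← map_nsmul]
    exact h

end Main

/-- **A4-loc**: `StmtJ2Fin → StmtJ2Loc`. -/
theorem stmtJ2Loc_of (hFin : StmtJ2Fin) : StmtJ2Loc := by
  intro p hp G _ ι _ Gloc _ D hdepth v K U hU hUn hK c hc1 hc2 hc3
  obtain ⟨U', hU', hU'U, hU'n, hpd⟩ := hdepth v U hU
  haveI : U'.Normal := hU'n
  haveI : (U'.comap (D.r v)).Normal := hU'n.comap _
  have hV' : U'.comap (D.r v) ∈ (D.𝒯loc v).lev := D.comap_mem v U' hU'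
  haveI := (D.𝒯loc v).finiteIndex _ hV'
  haveI : Finite (Gloc v ⧸ U'.comap (D.r v)) := Subgroup.finite_quotient_of_finiteIndex
  obtain ⟨u, hu⟩ := D.cm_loc v (U'.comap (D.r v)) hV'
  obtain ⟨n, hn, w, hw1, hw2, hw3, t, ht1, ht3, h⟩ :=
    j2l_main (D.Jloc v) K (U.comap (D.r v)) (U'.comap (D.r v)) hFin p u hu (hUn.comap _)
      (Subgroup.comap_mono hU'U) hK hpd c hc1 hc2
      (fun k₀ k₁ k₂ s₀ s₁ s₂ hs₀ hs₁ hs₂ => hc3 k₀ k₁ k₂ s₀ s₁ s₂ hs₀ hs₁ hs₂)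
  exact ⟨n, hn, U', hU', hU'U, hU'n, w, hw1, hw2,
    fun k₀ k₁ k₂ s₀ s₁ s₂ hs₀ hs₁ hs₂ => hw3 k₀ k₁ k₂ s₀ s₁ s₂ hs₀ hs₁ hs₂, t, ht1,
    fun k₀ k₁ s₀ s₁ hs₀ hs₁ => ht3 k₀ k₁ s₀ s₁ hs₀ hs₁, h⟩

end Fermat.Agent.TW.E

end


end ZBTW_046_6

/-! ### bundled: `Fermat.Agent.TW.E.J2Div` -/
section ZBTW_046_7
/-
TW-E / A4 (helper11): `stmtJ2Div : StmtJ2Div` (statement in TW/E/Plan.lean):
`H²_lev(G, Hom_ℤ(ℤ[Ω], J))` is `p`-divisible up to multiples prime to `p`, for every abstract datum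
with `HasPDepthGlob`.  Assembly of A4-fin (J2Fin.lean), A4-loc (J2Loc.lean), A4-glue (J2Glue.lean).
Mathematics: NOTES/TW-E-A4.md.
-/

set_option autoImplicit false

namespace Fermat.Agent.TW.E

/-- **A4-loc**, unconditional. -/
theorem stmtJ2Loc : StmtJ2Loc := stmtJ2Loc_of stmtJ2Fin

/-- **A4 (J2div)**: `In6` for permutation lattices, from `HasPDepthGlob`. -/
theorem stmtJ2Div : StmtJ2Div := stmtJ2Div_of stmtJ2Loc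

end Fermat.Agent.TW.E


end ZBTW_046_7

/-! ### bundled: `Fermat.Agent.TW.E.BrJCore` -/
section ZBTW_046_8
/-
TW-E / E-cyc / K-BrJ, the cohomological CORE (helper11): `stmtBrJCore_of : StmtBrJLoc → StmtBrJCore`.
Interfaces: `StmtBrJCore` (TW/E/BrJPlan.lean, helper60), `StmtBrJLoc` (TW/E/BrJLocPlan.lean, helper55).

Route (homogeneous cochains, dictionary of TW/E/J2Glue.lean).  `Γ = G ⧸ U`, `K_v = r_v⁻¹ U`.
* Part A `brjc_invSh`: inverse Shapiro `𝒰_v = u_v ∘ π³`, a `r_v(G_v)`-equivariant level cocycle on `G³`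
  restricting to `u_v` along `r_v`.
* Part B `brjcΘ`: the dictionary for 1-cochains, `Ψ^{dt} = d Θ^t`.
* Part C `brjc_family`: primitives at the orbit representatives extend to jointly equivariant families.
* Part D `brjcIdx v ω = (v, ω⁻¹ D_v)`: the place of `ω` over `v`; its fibres are the `G_v`-orbits.
* Part E `brjc_restrict`, `brjc_shapiro`: a level cocycle is a level coboundary iff its components at
  the orbit representatives restrict to level coboundaries on `K_v`.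
* Part F: `e x = j2dW (1_{[idx = x]} 𝒰)`; (1)–(4).
-/

set_option autoImplicit false
set_option linter.unusedSectionVars false
set_option linter.unusedVariables false

noncomputable section

namespace Fermat.Agent.TW.E

open CategoryTheory groupCohomology Fermat.Agent.PT Fermat.Agent.PT.F Fermat.Agent.TW.F

attribute [local instance 1100] Rep.hV2

/-! ### Part A: inverse Shapiro -/

theorem brjc_invSh {G H X : Type} [Group G] [Group H] [AddCommGroup X] (r : H →* G)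
    (act : H → X →+ X) (U : Subgroup G) [U.Normal]
    (w : H → H → H → X)
    (hw1 : ∀ d d₀ d₁ d₂, w (d * d₀) (d * d₁) (d * d₂) = act d (w d₀ d₁ d₂))
    (hw2 : ∀ d₀ d₁ d₂ d₃, w d₁ d₂ d₃ - w d₀ d₂ d₃ + w d₀ d₁ d₃ - w d₀ d₁ d₂ = 0)
    (hw3 : ∀ d₀ d₁ d₂ s₀ s₁ s₂, r s₀ ∈ U → r s₁ ∈ U → r s₂ ∈ U →
      w (d₀ * s₀) (d₁ * s₁) (d₂ * s₂) = w d₀ d₁ d₂) :
    ∃ W : G → G → G → X,
      (∀ d g₀ g₁ g₂, W (r d * g₀) (r d * g₁) (r d * g₂) = act d (W g₀ g₁ g₂)) ∧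
      (∀ g₀ g₁ g₂ g₃, W g₁ g₂ g₃ - W g₀ g₂ g₃ + W g₀ g₁ g₃ - W g₀ g₁ g₂ = 0) ∧
      (∀ g₀ g₁ g₂ u₀ u₁ u₂, u₀ ∈ U → u₁ ∈ U → u₂ ∈ U →
        W (g₀ * u₀) (g₁ * u₁) (g₂ * u₂) = W g₀ g₁ g₂) ∧
      ∀ d₀ d₁ d₂, W (r d₀) (r d₁) (r d₂) = w d₀ d₁ d₂ := by
  obtain ⟨π, hπ1, hπ⟩ := j2d_exists_proj r U
  have hπd : ∀ (d : H) (g : G), ∃ s : H, r s ∈ U ∧ π (r d * g) = d * π g * s := fun d g => by
    obtain ⟨s, hs, e⟩ := hπ d g 1 U.one_mem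
    rw [mul_one] at e
    exact ⟨s, hs, e⟩
  have hπu : ∀ (g u : G), u ∈ U → ∃ s : H, r s ∈ U ∧ π (g * u) = π g * s := fun g u hu => by
    obtain ⟨s, hs, e⟩ := hπ 1 g u hu
    rw [map_one, one_mul, one_mul] at e
    exact ⟨s, hs, e⟩
  have hπr : ∀ d : H, ∃ s : H, r s ∈ U ∧ π (r d) = d * s := fun d => by
    obtain ⟨s, hs, e⟩ := hπd d 1
    rw [mul_one, hπ1, mul_one] at e
    exact ⟨s, hs, e⟩
  refine ⟨fun g₀ g₁ g₂ => w (π g₀) (π g₁) (π g₂), ?_, ?_, ?_, ?_⟩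
  · intro d g₀ g₁ g₂
    obtain ⟨s₀, hs₀, e₀⟩ := hπd d g₀
    obtain ⟨s₁, hs₁, e₁⟩ := hπd d g₁
    obtain ⟨s₂, hs₂, e₂⟩ := hπd d g₂
    show w (π (r d * g₀)) (π (r d * g₁)) (π (r d * g₂)) = act d (w (π g₀) (π g₁) (π g₂))
    rw [e₀, e₁, e₂, hw3 _ _ _ _ _ _ hs₀ hs₁ hs₂, hw1]
  · exact fun g₀ g₁ g₂ g₃ => hw2 _ _ _ _
  · intro g₀ g₁ g₂ u₀ u₁ u₂ hu₀ hu₁ hu₂
    obtain ⟨s₀, hs₀, e₀⟩ := hπu g₀ u₀ hu₀
    obtain ⟨s₁, hs₁, e₁⟩ := hπu g₁ u₁ hu₁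
    obtain ⟨s₂, hs₂, e₂⟩ := hπu g₂ u₂ hu₂
    show w (π (g₀ * u₀)) (π (g₁ * u₁)) (π (g₂ * u₂)) = w (π g₀) (π g₁) (π g₂)
    rw [e₀, e₁, e₂, hw3 _ _ _ _ _ _ hs₀ hs₁ hs₂]
  · intro d₀ d₁ d₂
    obtain ⟨s₀, hs₀, e₀⟩ := hπr d₀
    obtain ⟨s₁, hs₁, e₁⟩ := hπr d₁
    obtain ⟨s₂, hs₂, e₂⟩ := hπr d₂
    show w (π (r d₀)) (π (r d₁)) (π (r d₂)) = w d₀ d₁ d₂
    rw [e₀, e₁, e₂, hw3 _ _ _ _ _ _ hs₀ hs₁ hs₂]

/-! ### Part B: the dictionary for 1-cochains -/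

section Dict1

variable {p : ℕ} {G : Type} [Group G] {ι : Type} {Gloc : ι → Type} [∀ v, Group (Gloc v)]
  (D : PTDatum p G ι Gloc) (Ω : Type) [MulAction G Ω]

/-- the homogeneous components of a 1-cochain with values in `Hom_ℤ(ℤ[Ω], J)` -/
def brjcΘ (t : G → ((permZ G Ω).V →+ (PTJ D).V)) (v : ι) (ω : Ω) (g₀ g₁ : G) :
    (D.Jloc v).V :=
  (t (g₀⁻¹ * g₁) (MonoidAlgebra.single (g₀⁻¹ • ω) 1)).1 v g₀

variable (t : G → ((permZ G Ω).V →+ (PTJ D).V))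

lemma brjcΘ_equiv (v : ι) (ω : Ω) (d : Gloc v) (g₀ g₁ : G) :
    brjcΘ D Ω t v (D.r v d • ω) (D.r v d * g₀) (D.r v d * g₁) =
      (D.Jloc v).ρ d (brjcΘ D Ω t v ω g₀ g₁) := by
  unfold brjcΘ
  have e1 : (D.r v d * g₀)⁻¹ * (D.r v d * g₁) = g₀⁻¹ * g₁ := by group
  have e3 : (D.r v d * g₀)⁻¹ • D.r v d • ω = g₀⁻¹ • ω := by
    rw [mul_inv_rev, mul_smul, inv_smul_smul]
  rw [e1, e3]
  exact ((t (g₀⁻¹ * g₁) (MonoidAlgebra.single (g₀⁻¹ • ω) 1)).2 v).1 d g₀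

lemma brjcΘ_dOne (v : ι) (ω : Ω) (g₀ g₁ g₂ : G) :
    j2dΨ D Ω (dOne (permZ G Ω) (PTJ D) t) v ω g₀ g₁ g₂ =
      brjcΘ D Ω t v ω g₁ g₂ - brjcΘ D Ω t v ω g₀ g₂ + brjcΘ D Ω t v ω g₀ g₁ := by
  unfold j2dΨ brjcΘ
  show ((PTJ D).ρ (g₀⁻¹ * g₁) (t (g₁⁻¹ * g₂)
        ((permZ G Ω).ρ (g₀⁻¹ * g₁)⁻¹ (MonoidAlgebra.single (g₀⁻¹ • ω) 1)))).1 v g₀ -
      (t (g₀⁻¹ * g₁ * (g₁⁻¹ * g₂)) (MonoidAlgebra.single (g₀⁻¹ • ω) 1)).1 v g₀ +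
      (t (g₀⁻¹ * g₁) (MonoidAlgebra.single (g₀⁻¹ • ω) 1)).1 v g₀ = _
  have e1 : g₀⁻¹ * g₁ * (g₁⁻¹ * g₂) = g₀⁻¹ * g₂ := by group
  have e3 : (permZ G Ω).ρ (g₀⁻¹ * g₁)⁻¹ (MonoidAlgebra.single (g₀⁻¹ • ω) 1) =
      MonoidAlgebra.single (g₁⁻¹ • ω) 1 := by
    rw [in1p_ρ_single]
    congr 1
    rw [mul_inv_rev, inv_inv, mul_smul, smul_inv_smul]
  rw [e1, e3]
  have e4 : ((PTJ D).ρ (g₀⁻¹ * g₁) (t (g₁⁻¹ * g₂)
      (MonoidAlgebra.single (g₁⁻¹ • ω) 1))).1 v g₀ =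
      (t (g₁⁻¹ * g₂) (MonoidAlgebra.single (g₁⁻¹ • ω) 1)).1 v g₁ := by
    show (t (g₁⁻¹ * g₂) (MonoidAlgebra.single (g₁⁻¹ • ω) 1)).1 v (g₀ * (g₀⁻¹ * g₁)) = _
    rw [mul_inv_cancel_left]
  rw [e4]

lemma brjcΘ_level [Fintype ι] [Finite Ω] (ht : IsLevel₁ D.𝒯 t) (U : Subgroup G)
    (hU : U ∈ D.𝒯.lev) (hUΩ : ∀ s ∈ U, ∀ ω : Ω, s • ω = ω) :
    ∃ U' ∈ D.𝒯.lev, U' ≤ U ∧ U'.Normal ∧
      ∀ (v : ι) (ω : Ω) (g₀ g₁ u₀ u₁ : G), u₀ ∈ U' → u₁ ∈ U' →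
        brjcΘ D Ω t v ω (g₀ * u₀) (g₁ * u₁) = brjcΘ D Ω t v ω g₀ g₁ := by
  classical
  obtain ⟨Ut, hUt, htU⟩ := ht
  have hfin := D.𝒯.finiteIndex Ut hUt
  have : Finite (G ⧸ Ut) := Subgroup.finite_quotient_of_finiteIndex
  have := Fintype.ofFinite (G ⧸ Ut)
  have := Fintype.ofFinite Ω
  -- the levels of the finitely many values
  have hL : ∀ a : (G ⧸ Ut) × Ω × ι, ∃ L ∈ D.𝒯.lev, ∀ g s : G, s ∈ L →
      (t a.1.out (MonoidAlgebra.single a.2.1 1)).1 a.2.2 (g * s) =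
        (t a.1.out (MonoidAlgebra.single a.2.1 1)).1 a.2.2 g := fun a =>
    ((t a.1.out (MonoidAlgebra.single a.2.1 1)).2 a.2.2).2
  choose L hL hLx using hL
  have hinf : (Finset.univ : Finset ((G ⧸ Ut) × Ω × ι)).inf L ⊓ (Ut ⊓ U) ∈ D.𝒯.lev :=
    D.𝒯.inf_mem _ _ (tower_finset_inf_mem D.𝒯 _ _ fun a _ => hL a) (D.𝒯.inf_mem _ _ hUt hU)
  obtain ⟨U', hU', hU'le, hU'n⟩ := D.𝒯.exists_normal _ hinf
  have hU'L : ∀ a, U' ≤ L a := fun a =>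
    (hU'le.trans inf_le_left).trans (Finset.inf_le (Finset.mem_univ a))
  have hU't : U' ≤ Ut := (hU'le.trans inf_le_right).trans inf_le_left
  have hU'U : U' ≤ U := (hU'le.trans inf_le_right).trans inf_le_right
  -- `t` depends only on the class mod `Ut`
  have htout : ∀ a : G, t a = t ((a : G ⧸ Ut)).out := by
    intro a
    obtain ⟨s, hs⟩ := QuotientGroup.mk_out_eq_mul Ut a
    rw [hs, htU a (s : G) s.2]
  refine ⟨U', hU', hU'U, hU'n, fun v ω g₀ g₁ u₀ u₁ hu₀ hu₁ => ?_⟩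
  unfold brjcΘ
  have e1 : t ((g₀ * u₀)⁻¹ * (g₁ * u₁)) = t (g₀⁻¹ * g₁) := by
    have a1 : (g₀ * u₀)⁻¹ * (g₁ * u₁) =
        g₀⁻¹ * g₁ * ((g₀⁻¹ * g₁)⁻¹ * u₀⁻¹ * (g₀⁻¹ * g₁) * u₁) := by group
    have hc : (g₀⁻¹ * g₁)⁻¹ * u₀⁻¹ * (g₀⁻¹ * g₁) * u₁ ∈ U' := by
      refine U'.mul_mem ?_ hu₁
      simpa using hU'n.conj_mem u₀⁻¹ (U'.inv_mem hu₀) (g₀⁻¹ * g₁)⁻¹
    rw [a1]
    exact htU _ _ (hU't hc)
  have e2 : (g₀ * u₀)⁻¹ • ω = g₀⁻¹ • ω := by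
    rw [mul_inv_rev, mul_smul, hUΩ _ (hU'U (U'.inv_mem hu₀))]
  rw [e1, e2, htout (g₀⁻¹ * g₁)]
  exact hLx (((g₀⁻¹ * g₁ : G) : G ⧸ Ut), g₀⁻¹ • ω, v) g₀ u₀ (hU'L _ hu₀)

end Dict1

/-! ### Part C: extension from the orbit representatives -/

section Family

variable {G H X : Type} [Group G] [Group H] [AddCommGroup X] (r : H →* G)
  {Ω : Type} [MulAction G Ω] (act : H → X →+ X)

lemma brjc_rep_rep (ω : Ω) : permSh1_rep r (permSh1_rep r ω) = permSh1_rep r ω := by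
  have h := permSh1_rep_smul r (permSh1_g r ω) (permSh1_rep r ω)
  rw [permSh1_g_spec] at h
  exact h.symm

variable (hact : ∀ d d' x, act (d * d') x = act d (act d' x))

include hact in
lemma brjc_ext_equiv {S : Type} [MulAction G S] (F : Ω → S → X)
    (hF : ∀ ω, permSh1_rep r ω = ω → ∀ d s, r d • ω = ω → F ω (r d • s) = act d (F ω s))
    (ω : Ω) (e : H) (s : S) :
    j2dExt r act F (r e • ω) (r e • s) = act e (j2dExt r act F ω s) := by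
  unfold j2dExt
  have hrep : permSh1_rep r (r e • ω) = permSh1_rep r ω := permSh1_rep_smul r e ω
  have h1 : r (permSh1_g r (r e • ω)) • permSh1_rep r ω = r e • ω := by
    rw [← hrep]; exact permSh1_g_spec r (r e • ω)
  have h2 : r (permSh1_g r ω) • permSh1_rep r ω = ω := permSh1_g_spec r ω
  have hF₀ := hF (permSh1_rep r ω) (brjc_rep_rep r ω)
  rw [hrep]
  generalize permSh1_g r (r e • ω) = d' at h1 ⊢
  generalize permSh1_g r ω = d at h2 ⊢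
  generalize permSh1_rep r ω = ω₀ at h1 h2 hF₀ ⊢
  have hk : r (d'⁻¹ * e * d) • ω₀ = ω₀ := by
    rw [map_mul, map_mul, mul_smul, mul_smul, h2, ← h1, map_inv, inv_smul_smul]
  have e1 : (r d')⁻¹ • r e • s = r (d'⁻¹ * e * d) • (r d)⁻¹ • s := by
    rw [map_mul, map_mul, map_inv, mul_smul, mul_smul, smul_inv_smul]
  rw [e1, hF₀ _ _ hk, ← hact, ← hact]
  congr 2
  group

include hact in
/-- primitives at the orbit representatives extend to a jointly equivariant family of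
primitives -/
theorem brjc_family (U : Subgroup G) (Ψ : Ω → G → G → G → X)
    (hΨ1 : ∀ ω d g₀ g₁ g₂,
      Ψ (r d • ω) (r d * g₀) (r d * g₁) (r d * g₂) = act d (Ψ ω g₀ g₁ g₂))
    (Θ₀ : Ω → G → G → X)
    (hΘ1 : ∀ ω, permSh1_rep r ω = ω → ∀ d g₀ g₁, r d • ω = ω →
      Θ₀ ω (r d * g₀) (r d * g₁) = act d (Θ₀ ω g₀ g₁))
    (hΘ3 : ∀ ω, permSh1_rep r ω = ω → ∀ g₀ g₁ u₀ u₁, u₀ ∈ U → u₁ ∈ U →
      Θ₀ ω (g₀ * u₀) (g₁ * u₁) = Θ₀ ω g₀ g₁)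
    (h : ∀ ω, permSh1_rep r ω = ω → ∀ g₀ g₁ g₂,
      Ψ ω g₀ g₁ g₂ = Θ₀ ω g₁ g₂ - Θ₀ ω g₀ g₂ + Θ₀ ω g₀ g₁) :
    ∃ Θ : Ω → G → G → X,
      (∀ ω d g₀ g₁, Θ (r d • ω) (r d * g₀) (r d * g₁) = act d (Θ ω g₀ g₁)) ∧
      (∀ ω g₀ g₁ u₀ u₁, u₀ ∈ U → u₁ ∈ U → Θ ω (g₀ * u₀) (g₁ * u₁) = Θ ω g₀ g₁) ∧
      ∀ ω g₀ g₁ g₂, Ψ ω g₀ g₁ g₂ = Θ ω g₁ g₂ - Θ ω g₀ g₂ + Θ ω g₀ g₁ := by
  let F₂ : Ω → G × G → X := fun ω s => Θ₀ ω s.1 s.2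
  have hF₂ : ∀ ω, permSh1_rep r ω = ω → ∀ d (s : G × G), r d • ω = ω →
      F₂ ω (r d • s) = act d (F₂ ω s) := by
    rintro ω hω d ⟨g₀, g₁⟩ hd
    exact hΘ1 ω hω d g₀ g₁ hd
  have hΘ : ∀ ω g₀ g₁, j2dExt r act F₂ ω (g₀, g₁) =
      act (permSh1_g r ω) (Θ₀ (permSh1_rep r ω)
        ((r (permSh1_g r ω))⁻¹ * g₀) ((r (permSh1_g r ω))⁻¹ * g₁)) := fun ω g₀ g₁ => rfl
  refine ⟨fun ω g₀ g₁ => j2dExt r act F₂ ω (g₀, g₁), ?_, ?_, ?_⟩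
  · intro ω d g₀ g₁
    exact brjc_ext_equiv r act hact F₂ hF₂ ω d (g₀, g₁)
  · intro ω g₀ g₁ u₀ u₁ hu₀ hu₁
    simp only [hΘ]
    rw [← mul_assoc, ← mul_assoc, hΘ3 _ (brjc_rep_rep r ω) _ _ _ _ hu₀ hu₁]
  · intro ω g₀ g₁ g₂
    have hΨ : Ψ ω g₀ g₁ g₂ = act (permSh1_g r ω) (Ψ (permSh1_rep r ω)
        ((r (permSh1_g r ω))⁻¹ * g₀) ((r (permSh1_g r ω))⁻¹ * g₁)
        ((r (permSh1_g r ω))⁻¹ * g₂)) := by
      have := hΨ1 (permSh1_rep r ω) (permSh1_g r ω) ((r (permSh1_g r ω))⁻¹ * g₀)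
        ((r (permSh1_g r ω))⁻¹ * g₁) ((r (permSh1_g r ω))⁻¹ * g₂)
      rw [permSh1_g_spec, mul_inv_cancel_left, mul_inv_cancel_left, mul_inv_cancel_left] at this
      exact this
    simp only [hΘ]
    rw [hΨ, h _ (brjc_rep_rep r ω), map_add, map_sub]

end Family

/-! ### Level coboundaries on `K_v` -/

section Cob

variable {p : ℕ} {G : Type} [Group G] {ι : Type} {Gloc : ι → Type} [∀ v, Group (Gloc v)]
  (D : PTDatum p G ι Gloc) (v : ι) (K : Subgroup (Gloc v))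

lemma brjc_cob_zsmul (c : K → K → K → (D.Jloc v).V) (h : BrjlCob D v K c) (m : ℤ) :
    BrjlCob D v K (fun k₀ k₁ k₂ => m • c k₀ k₁ k₂) := by
  obtain ⟨t, ht1, ⟨U', hU', ht3⟩, ht⟩ := h
  refine ⟨fun k₀ k₁ => m • t k₀ k₁, fun k k₀ k₁ => ?_, ⟨U', hU', fun k₀ k₁ s₀ s₁ hs₀ hs₁ => ?_⟩,
    fun k₀ k₁ k₂ => ?_⟩
  · show m • t (k * k₀) (k * k₁) = (D.Jloc v).ρ (k : Gloc v) (m • t k₀ k₁)
    rw [ht1, map_zsmul]
  · show m • t (k₀ * s₀) (k₁ * s₁) = m • t k₀ k₁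
    rw [ht3 k₀ k₁ s₀ s₁ hs₀ hs₁]
  · show m • c k₀ k₁ k₂ = m • t k₁ k₂ - m • t k₀ k₂ + m • t k₀ k₁
    rw [ht, zsmul_add, zsmul_sub]

lemma brjc_cob_add (D : PTDatum p G ι Gloc) (c c' : K → K → K → (D.Jloc v).V)
    (h : BrjlCob D v K c) (h' : BrjlCob D v K c') :
    BrjlCob D v K (fun k₀ k₁ k₂ => c k₀ k₁ k₂ + c' k₀ k₁ k₂) := by
  obtain ⟨t, ht1, ⟨U', hU', ht3⟩, ht⟩ := h
  obtain ⟨t', ht1', ⟨U'', hU'', ht3'⟩, ht'⟩ := h'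
  refine ⟨fun k₀ k₁ => t k₀ k₁ + t' k₀ k₁, fun k k₀ k₁ => ?_,
    ⟨U' ⊓ U'', D.𝒯.inf_mem _ _ hU' hU'', fun k₀ k₁ s₀ s₁ hs₀ hs₁ => ?_⟩, fun k₀ k₁ k₂ => ?_⟩
  · show t (k * k₀) (k * k₁) + t' (k * k₀) (k * k₁) =
      (D.Jloc v).ρ (k : Gloc v) (t k₀ k₁ + t' k₀ k₁)
    rw [ht1, ht1', map_add]
  · show t (k₀ * s₀) (k₁ * s₁) + t' (k₀ * s₀) (k₁ * s₁) = t k₀ k₁ + t' k₀ k₁
    rw [ht3 k₀ k₁ s₀ s₁ hs₀.1 hs₁.1, ht3' k₀ k₁ s₀ s₁ hs₀.2 hs₁.2]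
  · show c k₀ k₁ k₂ + c' k₀ k₁ k₂ = t k₁ k₂ + t' k₁ k₂ - (t k₀ k₂ + t' k₀ k₂) +
      (t k₀ k₁ + t' k₀ k₁)
    rw [ht, ht']
    abel

lemma brjc_cob_congr (c c' : K → K → K → (D.Jloc v).V)
    (h : BrjlCob D v K c) (hc : ∀ k₀ k₁ k₂, c k₀ k₁ k₂ = c' k₀ k₁ k₂) : BrjlCob D v K c' := by
  have : c = c' := funext fun k₀ => funext fun k₁ => funext fun k₂ => hc k₀ k₁ k₂
  rwa [← this]

lemma brjc_cob_zero : BrjlCob D v K (fun _ _ _ => 0) :=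
  ⟨fun _ _ => 0, fun k k₀ k₁ => by simp, ⟨⊤, D.𝒯.top_mem, fun _ _ _ _ _ _ => rfl⟩,
    fun _ _ _ => by simp⟩

/-- Bezout: if `a c` and `p c` are level coboundaries and `p ∤ a`, then `c` is one -/
lemma brjc_cob_bezout [Fact p.Prime] (c : K → K → K → (D.Jloc v).V) (a : ℤ)
    (ha : BrjlCob D v K (fun k₀ k₁ k₂ => a • c k₀ k₁ k₂))
    (hp : BrjlCob D v K (fun k₀ k₁ k₂ => p • c k₀ k₁ k₂)) (hpa : ¬ (p : ℤ) ∣ a) :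
    BrjlCob D v K c := by
  have hprime : Prime (p : ℤ) := Nat.prime_iff_prime_int.1 Fact.out
  have hcop : IsCoprime (p : ℤ) a := (Prime.coprime_iff_not_dvd hprime).2 hpa
  obtain ⟨m, n, hmn⟩ := hcop
  refine brjc_cob_congr D v K _ c
    (brjc_cob_add v K D _ _ (brjc_cob_zsmul D v K _ hp m) (brjc_cob_zsmul D v K _ ha n))
    fun k₀ k₁ k₂ => ?_
  show m • p • c k₀ k₁ k₂ + n • a • c k₀ k₁ k₂ = c k₀ k₁ k₂
  rw [← natCast_zsmul (c k₀ k₁ k₂) p, smul_smul, smul_smul, ← add_zsmul, hmn, one_zsmul]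

end Cob

/-! ### Part D: the index set -/

section Idx

variable {p : ℕ} {G : Type} [Group G] {ι : Type} {Gloc : ι → Type} [∀ v, Group (Gloc v)]
  (D : PTDatum p G ι Gloc) (U : Subgroup G) [hUn : U.Normal]

lemma brjc_smul_eq (g : G) (ω : G ⧸ U) : g • ω = (g : G ⧸ U) * ω := by
  obtain ⟨x, rfl⟩ := QuotientGroup.mk_surjective ω
  rfl

lemma brjc_smul_mul (g : G) (ω δ : G ⧸ U) : g • (ω * δ) = (g • ω) * δ := by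
  rw [brjc_smul_eq, brjc_smul_eq, mul_assoc]

lemma brjc_triv (s : G) (hs : s ∈ U) (ω : G ⧸ U) : s • ω = ω := by
  rw [brjc_smul_eq, (QuotientGroup.eq_one_iff s).2 hs, one_mul]

lemma brjc_stab (g : G) (ω : G ⧸ U) (h : g • ω = ω) : g ∈ U := by
  rw [brjc_smul_eq] at h
  have h1 : (g : G ⧸ U) = 1 := mul_right_cancel (h.trans (one_mul ω).symm)
  exact (QuotientGroup.eq_one_iff g).1 h1

/-- the place of `ω` over `v`: the class of `ω⁻¹` in `Γ ⧸ D_v` -/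
def brjcIdx (v : ι) (ω : G ⧸ U) : Σ v : ι, (G ⧸ U) ⧸ cycDec D U v :=
  ⟨v, ((ω⁻¹ : G ⧸ U) : (G ⧸ U) ⧸ cycDec D U v)⟩

lemma brjc_mem_dec (v : ι) (d : Gloc v) : ((D.r v d : G) : G ⧸ U) ∈ cycDec D U v :=
  ⟨D.r v d, ⟨d, rfl⟩, rfl⟩

lemma brjcIdx_smul (v : ι) (d : Gloc v) (ω : G ⧸ U) :
    brjcIdx D U v (D.r v d • ω) = brjcIdx D U v ω := by
  unfold brjcIdx
  congr 1
  rw [brjc_smul_eq, QuotientGroup.eq]
  have e : ((D.r v d : G ⧸ U) * ω)⁻¹⁻¹ * ω⁻¹ = (D.r v d : G ⧸ U) := by group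
  rw [e]
  exact brjc_mem_dec D U v d

lemma brjcIdx_mul (v : ι) (ω δ : G ⧸ U) :
    brjcIdx D U v (ω * δ) = δ⁻¹ • brjcIdx D U v ω := by
  unfold brjcIdx
  rw [mul_inv_rev]
  rfl

lemma brjcIdx_eq (v : ι) (ω ω' : G ⧸ U) (h : brjcIdx D U v ω = brjcIdx D U v ω') :
    ∃ d : Gloc v, D.r v d • ω' = ω := by
  unfold brjcIdx at h
  have h1 := eq_of_heq (Sigma.mk.inj_iff.1 h).2
  rw [QuotientGroup.eq] at h1
  obtain ⟨g, ⟨d, rfl⟩, hg⟩ := h1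
  refine ⟨d, ?_⟩
  rw [brjc_smul_eq]
  have hg' : ((D.r v d : G) : G ⧸ U) = ω⁻¹⁻¹ * ω'⁻¹ := hg
  rw [hg']
  group

lemma brjcIdx_surj (x : Σ v : ι, (G ⧸ U) ⧸ cycDec D U v) :
    ∃ ω : G ⧸ U, brjcIdx D U x.1 ω = x := by
  obtain ⟨v, q⟩ := x
  obtain ⟨γ, rfl⟩ := QuotientGroup.mk_surjective q
  exact ⟨γ⁻¹, by unfold brjcIdx; rw [inv_inv]⟩

end Idx

/-! ### Part E: restriction to the decomposition groups and Shapiro injectivity -/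

section Core

variable {p : ℕ} {G : Type} [Group G] {ι : Type} {Gloc : ι → Type} [∀ v, Group (Gloc v)]
  (D : PTDatum p G ι Gloc) (U : Subgroup G) [hUn : U.Normal]

/-- evaluation at the basis vector `ω`, the component `v` and the point `g` -/
def brjcEv (ω : G ⧸ U) (v : ι) (g : G) :
    ((permZ G (G ⧸ U)).V →+ (PTJ D).V) →+ (D.Jloc v).V where
  toFun f := (f (MonoidAlgebra.single ω 1)).1 v g
  map_zero' := rfl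
  map_add' _ _ := rfl

lemma brjcEv_apply (ω : G ⧸ U) (v : ι) (g : G) (f : (permZ G (G ⧸ U)).V →+ (PTJ D).V) :
    brjcEv D U ω v g f = (f (MonoidAlgebra.single ω 1)).1 v g := rfl

lemma brjc_ext (f f' : (permZ G (G ⧸ U)).V →+ (PTJ D).V)
    (h : ∀ ω v g, brjcEv D U ω v g f = brjcEv D U ω v g f') : f = f' := by
  apply in1p_ext
  intro ω
  apply in2a_J_ext
  intro v g
  exact h ω v g

lemma brjcΨ_eq (y : G × G → ((permZ G (G ⧸ U)).V →+ (PTJ D).V)) (v : ι) (ω : G ⧸ U)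
    (g₀ g₁ g₂ : G) :
    j2dΨ D (G ⧸ U) y v ω g₀ g₁ g₂ = brjcEv D U (g₀⁻¹ • ω) v g₀ (y (g₀⁻¹ * g₁, g₁⁻¹ * g₂)) :=
  rfl

/-- a level coboundary restricts to level coboundaries on the groups `r_v⁻¹ U` -/
theorem brjc_restrict [Fintype ι] (hU : U ∈ D.𝒯.lev)
    (y : G × G → ((permZ G (G ⧸ U)).V →+ (PTJ D).V))
    (t : G → ((permZ G (G ⧸ U)).V →+ (PTJ D).V)) (ht : IsLevel₁ D.𝒯 t)
    (h : ∀ s, y s = dOne (permZ G (G ⧸ U)) (PTJ D) t s) (v : ι) (ω : G ⧸ U) :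
    BrjlCob D v (U.comap (D.r v)) (fun k₀ k₁ k₂ =>
      j2dΨ D (G ⧸ U) y v ω (D.r v k₀) (D.r v k₁) (D.r v k₂)) := by
  have hfin := D.𝒯.finiteIndex U hU
  have : Finite (G ⧸ U) := Subgroup.finite_quotient_of_finiteIndex
  obtain ⟨U', hU', hU'U, hU'n, hΘ3⟩ :=
    brjcΘ_level D (G ⧸ U) t ht U hU (fun s hs ω => brjc_triv U s hs ω)
  have hy : y = dOne (permZ G (G ⧸ U)) (PTJ D) t := funext h
  refine ⟨fun k₀ k₁ => brjcΘ D (G ⧸ U) t v ω (D.r v k₀) (D.r v k₁), fun k k₀ k₁ => ?_,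
    ⟨U', hU', fun k₀ k₁ s₀ s₁ hs₀ hs₁ => ?_⟩, fun k₀ k₁ k₂ => ?_⟩
  · show brjcΘ D (G ⧸ U) t v ω (D.r v ((k * k₀ : ↥(U.comap (D.r v))) : Gloc v))
        (D.r v ((k * k₁ : ↥(U.comap (D.r v))) : Gloc v)) = _
    rw [Subgroup.coe_mul, Subgroup.coe_mul, map_mul, map_mul]
    have := brjcΘ_equiv D (G ⧸ U) t v ω (k : Gloc v) (D.r v k₀) (D.r v k₁)
    rwa [brjc_triv U _ k.2 ω] at this
  · show brjcΘ D (G ⧸ U) t v ω (D.r v ((k₀ * s₀ : ↥(U.comap (D.r v))) : Gloc v))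
        (D.r v ((k₁ * s₁ : ↥(U.comap (D.r v))) : Gloc v)) = _
    rw [Subgroup.coe_mul, Subgroup.coe_mul, map_mul, map_mul]
    exact hΘ3 v ω _ _ _ _ hs₀ hs₁
  · show j2dΨ D (G ⧸ U) y v ω (D.r v k₀) (D.r v k₁) (D.r v k₂) = _
    rw [hy, brjcΘ_dOne]


/-- **Shapiro injectivity**: a jointly equivariant level family of homogeneous cocycles whose
restrictions to the groups `r_v⁻¹ U` at the orbit representatives are level coboundaries is a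
level coboundary. -/
theorem brjc_shapiro [Fintype ι] (hU : U ∈ D.𝒯.lev)
    (Φ : ∀ v, (G ⧸ U) → G → G → G → (D.Jloc v).V)
    (U₁ : Subgroup G) (hU₁ : U₁ ∈ D.𝒯.lev) (hU₁n : U₁.Normal) (hU₁U : U₁ ≤ U)
    (hΦ1 : ∀ (v : ι) (ω : G ⧸ U) (d : Gloc v) (g₀ g₁ g₂ : G),
      Φ v (D.r v d • ω) (D.r v d * g₀) (D.r v d * g₁) (D.r v d * g₂) =
        (D.Jloc v).ρ d (Φ v ω g₀ g₁ g₂))
    (hΦ2 : ∀ (v : ι) (ω : G ⧸ U) (g₀ g₁ g₂ g₃ : G),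
      Φ v ω g₁ g₂ g₃ - Φ v ω g₀ g₂ g₃ + Φ v ω g₀ g₁ g₃ - Φ v ω g₀ g₁ g₂ = 0)
    (hΦ3 : ∀ (v : ι) (ω : G ⧸ U) (g₀ g₁ g₂ u₀ u₁ u₂ : G), u₀ ∈ U₁ → u₁ ∈ U₁ → u₂ ∈ U₁ →
      Φ v ω (g₀ * u₀) (g₁ * u₁) (g₂ * u₂) = Φ v ω g₀ g₁ g₂)
    (hcob : ∀ (v : ι) (ω : G ⧸ U), permSh1_rep (D.r v) ω = ω →
      BrjlCob D v (U.comap (D.r v)) (fun k₀ k₁ k₂ => Φ v ω (D.r v k₀) (D.r v k₁) (D.r v k₂))) :
    ∃ t : G → ((permZ G (G ⧸ U)).V →+ (PTJ D).V), IsLevel₁ D.𝒯 t ∧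
      ∀ s, j2dW D (G ⧸ U) Φ s = dOne (permZ G (G ⧸ U)) (PTJ D) t s := by
  classical
  have hfin := D.𝒯.finiteIndex U hU
  have : Finite (G ⧸ U) := Subgroup.finite_quotient_of_finiteIndex
  have := Fintype.ofFinite (G ⧸ U)
  -- step 1: the local primitives
  have h1 : ∀ (v : ι) (ω : G ⧸ U), ∃ U' ∈ D.𝒯.lev,
      ∃ t : ↥(U.comap (D.r v)) → ↥(U.comap (D.r v)) → (D.Jloc v).V,
        permSh1_rep (D.r v) ω = ω →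
        (∀ k k₀ k₁ : ↥(U.comap (D.r v)),
          t (k * k₀) (k * k₁) = (D.Jloc v).ρ (k : Gloc v) (t k₀ k₁)) ∧
        (∀ k₀ k₁ s₀ s₁ : ↥(U.comap (D.r v)), D.r v s₀ ∈ U' → D.r v s₁ ∈ U' →
          t (k₀ * s₀) (k₁ * s₁) = t k₀ k₁) ∧
        ∀ k₀ k₁ k₂ : ↥(U.comap (D.r v)),
          Φ v ω (D.r v k₀) (D.r v k₁) (D.r v k₂) = t k₁ k₂ - t k₀ k₂ + t k₀ k₁ := by
    intro v ω
    by_cases hω : permSh1_rep (D.r v) ω = ω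
    · obtain ⟨t, ht1, ⟨U', hU', ht3⟩, ht⟩ := hcob v ω hω
      exact ⟨U', hU', t, fun _ => ⟨ht1, ht3, ht⟩⟩
    · exact ⟨⊤, D.𝒯.top_mem, fun _ _ => 0, fun h => absurd h hω⟩
  choose U' hU' t₀ ht₀ using h1
  -- step 2: a common normal level
  have hinf : (Finset.univ : Finset (ι × (G ⧸ U))).inf (fun a => U' a.1 a.2) ⊓ U₁ ∈ D.𝒯.lev :=
    D.𝒯.inf_mem _ _ (tower_finset_inf_mem D.𝒯 _ _ fun a _ => hU' a.1 a.2) hU₁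
  obtain ⟨U₂, hU₂, hU₂le, hU₂n⟩ := D.𝒯.exists_normal _ hinf
  have hU₂' : ∀ v ω, U₂ ≤ U' v ω := fun v ω =>
    (hU₂le.trans inf_le_left).trans
      (Finset.inf_le (f := fun a : ι × (G ⧸ U) => U' a.1 a.2) (Finset.mem_univ (v, ω)))
  have hU₂U₁ : U₂ ≤ U₁ := hU₂le.trans inf_le_right
  have hU₂U : U₂ ≤ U := hU₂U₁.trans hU₁U
  have hΩ : ∀ s ∈ U₂, ∀ ω : G ⧸ U, s • ω = ω := fun s hs ω => brjc_triv U s (hU₂U hs) ω
  -- step 3: the Shapiro homotopy at the representatives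
  have h3 : ∀ (v : ι) (ω : G ⧸ U), ∃ Θ : G → G → (D.Jloc v).V,
      permSh1_rep (D.r v) ω = ω →
      (∀ (d : Gloc v) (g₀ g₁ : G), D.r v d • ω = ω →
        Θ (D.r v d * g₀) (D.r v d * g₁) = (D.Jloc v).ρ d (Θ g₀ g₁)) ∧
      (∀ g₀ g₁ u₀ u₁ : G, u₀ ∈ U₂ → u₁ ∈ U₂ → Θ (g₀ * u₀) (g₁ * u₁) = Θ g₀ g₁) ∧
      ∀ g₀ g₁ g₂ : G, Φ v ω g₀ g₁ g₂ = Θ g₁ g₂ - Θ g₀ g₂ + Θ g₀ g₁ := by
    intro v ω
    by_cases hω : permSh1_rep (D.r v) ω = ω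
    · obtain ⟨ht1, ht3, ht⟩ := ht₀ v ω hω
      have := hU₂n
      obtain ⟨W, -, -, -, Θ, hΘ1, hΘ3, hWΘ⟩ :=
        j2d_core ((D.r v).comp (U.comap (D.r v)).subtype)
          (fun k : ↥(U.comap (D.r v)) => actAdd (D.Jloc v) (k : Gloc v)) U₂ 1 0
          (Φ v ω) (fun _ _ _ => 0) (t₀ v ω)
          (fun k g₀ g₁ g₂ => by
            have := hΦ1 v ω (k : Gloc v) g₀ g₁ g₂
            rwa [brjc_triv U _ k.2 ω] at this)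
          (fun g₀ g₁ g₂ g₃ => hΦ2 v ω g₀ g₁ g₂ g₃)
          (fun g₀ g₁ g₂ u₀ u₁ u₂ hu₀ hu₁ hu₂ =>
            hΦ3 v ω g₀ g₁ g₂ u₀ u₁ u₂ (hU₂U₁ hu₀) (hU₂U₁ hu₁) (hU₂U₁ hu₂))
          (fun d d₀ d₁ d₂ => (map_zero _).symm)
          (fun d₀ d₁ d₂ d₃ => by simp)
          (fun d₀ d₁ d₂ s₀ s₁ s₂ _ _ _ => rfl)
          ht1
          (fun d₀ d₁ s₀ s₁ hs₀ hs₁ => ht3 d₀ d₁ s₀ s₁ (hU₂' v ω hs₀) (hU₂' v ω hs₁))
          (fun d₀ d₁ d₂ => by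
            rw [one_smul, zero_smul, zero_add]
            exact ht d₀ d₁ d₂)
      refine ⟨Θ, fun _ => ⟨fun d g₀ g₁ hd => ?_, hΘ3, fun g₀ g₁ g₂ => ?_⟩⟩
      · exact hΘ1 ⟨d, brjc_stab U _ ω hd⟩ g₀ g₁
      · have := hWΘ g₀ g₁ g₂
        rwa [one_smul, zero_smul, zero_add] at this
    · exact ⟨fun _ _ => 0, fun h => absurd h hω⟩
  choose Θ₀ hΘ₀ using h3
  -- step 4: jointly equivariant primitives
  have h4 := fun v : ι =>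
    brjc_family (D.r v) (fun d : Gloc v => actAdd (D.Jloc v) d)
      (fun d d' x => by
        show (D.Jloc v).ρ (d * d') x = (D.Jloc v).ρ d ((D.Jloc v).ρ d' x)
        rw [map_mul]; rfl)
      U₂ (Φ v) (fun ω d g₀ g₁ g₂ => hΦ1 v ω d g₀ g₁ g₂) (Θ₀ v)
      (fun ω hω d g₀ g₁ hd => (hΘ₀ v ω hω).1 d g₀ g₁ hd)
      (fun ω hω g₀ g₁ u₀ u₁ hu₀ hu₁ => (hΘ₀ v ω hω).2.1 g₀ g₁ u₀ u₁ hu₀ hu₁)
      (fun ω hω g₀ g₁ g₂ => (hΘ₀ v ω hω).2.2 g₀ g₁ g₂)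
  choose Θ hΘ1 hΘ3 hΘ using h4
  have hΘ1' : ∀ (v : ι) (ω : G ⧸ U) (d : Gloc v) (g₀ g₁ : G),
      Θ v (D.r v d • ω) (D.r v d * g₀) (D.r v d * g₁) = (D.Jloc v).ρ d (Θ v ω g₀ g₁) :=
    fun v ω d g₀ g₁ => hΘ1 v ω d g₀ g₁
  have hΦ3' : ∀ (v : ι) (ω : G ⧸ U) (g₀ g₁ g₂ u₀ u₁ u₂ : G), u₀ ∈ U₂ → u₁ ∈ U₂ → u₂ ∈ U₂ →
      Φ v ω (g₀ * u₀) (g₁ * u₁) (g₂ * u₂) = Φ v ω g₀ g₁ g₂ :=
    fun v ω g₀ g₁ g₂ u₀ u₁ u₂ hu₀ hu₁ hu₂ =>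
      hΦ3 v ω g₀ g₁ g₂ u₀ u₁ u₂ (hU₂U₁ hu₀) (hU₂U₁ hu₁) (hU₂U₁ hu₂)
  -- step 5: the primitive
  refine ⟨j2dT D (G ⧸ U) Θ, j2dT_level D (G ⧸ U) U₂ hU₂ hU₂n hΩ Θ hΘ1' hΘ3, ?_⟩
  rintro ⟨σ, τ⟩
  apply in1p_ext
  intro ω
  apply in2a_J_ext
  intro v g
  rw [j2dW_apply D (G ⧸ U) U₂ hU₂ hU₂n hΩ Φ hΦ1 hΦ3',
    j2dT_dOne_apply D (G ⧸ U) U₂ hU₂ hU₂n hΩ Θ hΘ1' hΘ3]
  exact hΘ v (g • ω) g (g * σ) (g * σ * τ)

/-! ### Part F: the family `e x` -/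

/-- the family of homogeneous cocycles with coefficients `a` -/
def brjcW (𝒰 : ∀ v, G → G → G → (D.Jloc v).V)
    (a : (Σ v : ι, (G ⧸ U) ⧸ cycDec D U v) → ℤ) :
    ∀ v, (G ⧸ U) → G → G → G → (D.Jloc v).V :=
  fun v ω g₀ g₁ g₂ => a (brjcIdx D U v ω) • 𝒰 v g₀ g₁ g₂

open Classical in
/-- the cocycle `e x` -/
def brjcE (𝒰 : ∀ v, G → G → G → (D.Jloc v).V) (x : Σ v : ι, (G ⧸ U) ⧸ cycDec D U v) :
    G × G → ((permZ G (G ⧸ U)).V →+ (PTJ D).V) :=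
  j2dW D (G ⧸ U) (brjcW D U 𝒰 (fun x' => if x' = x then 1 else 0))

section Fam

variable (𝒰 : ∀ v, G → G → G → (D.Jloc v).V)
  (h𝒰1 : ∀ (v : ι) (d : Gloc v) (g₀ g₁ g₂ : G),
    𝒰 v (D.r v d * g₀) (D.r v d * g₁) (D.r v d * g₂) = (D.Jloc v).ρ d (𝒰 v g₀ g₁ g₂))
  (h𝒰2 : ∀ (v : ι) (g₀ g₁ g₂ g₃ : G),
    𝒰 v g₁ g₂ g₃ - 𝒰 v g₀ g₂ g₃ + 𝒰 v g₀ g₁ g₃ - 𝒰 v g₀ g₁ g₂ = 0)
  (U₁ : Subgroup G) (hU₁ : U₁ ∈ D.𝒯.lev) (hU₁n : U₁.Normal) (hU₁U : U₁ ≤ U)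
  (h𝒰3 : ∀ (v : ι) (g₀ g₁ g₂ u₀ u₁ u₂ : G), u₀ ∈ U₁ → u₁ ∈ U₁ → u₂ ∈ U₁ →
    𝒰 v (g₀ * u₀) (g₁ * u₁) (g₂ * u₂) = 𝒰 v g₀ g₁ g₂)
  (a : (Σ v : ι, (G ⧸ U) ⧸ cycDec D U v) → ℤ)

include h𝒰1 in
lemma brjcW_equiv (v : ι) (ω : G ⧸ U) (d : Gloc v) (g₀ g₁ g₂ : G) :
    brjcW D U 𝒰 a v (D.r v d • ω) (D.r v d * g₀) (D.r v d * g₁) (D.r v d * g₂) =
      (D.Jloc v).ρ d (brjcW D U 𝒰 a v ω g₀ g₁ g₂) := by
  unfold brjcW
  rw [brjcIdx_smul, h𝒰1, map_zsmul]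

include h𝒰2 in
lemma brjcW_cocycle (v : ι) (ω : G ⧸ U) (g₀ g₁ g₂ g₃ : G) :
    brjcW D U 𝒰 a v ω g₁ g₂ g₃ - brjcW D U 𝒰 a v ω g₀ g₂ g₃ + brjcW D U 𝒰 a v ω g₀ g₁ g₃ -
      brjcW D U 𝒰 a v ω g₀ g₁ g₂ = 0 := by
  unfold brjcW
  rw [← zsmul_sub, ← zsmul_add, ← zsmul_sub, h𝒰2, zsmul_zero]

include h𝒰3 in
lemma brjcW_level (v : ι) (ω : G ⧸ U) (g₀ g₁ g₂ u₀ u₁ u₂ : G) (hu₀ : u₀ ∈ U₁) (hu₁ : u₁ ∈ U₁)
    (hu₂ : u₂ ∈ U₁) :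
    brjcW D U 𝒰 a v ω (g₀ * u₀) (g₁ * u₁) (g₂ * u₂) = brjcW D U 𝒰 a v ω g₀ g₁ g₂ := by
  unfold brjcW
  rw [h𝒰3 v g₀ g₁ g₂ u₀ u₁ u₂ hu₀ hu₁ hu₂]

include h𝒰1 hU₁ hU₁n hU₁U h𝒰3 in
lemma brjcW_apply (σ τ : G) (ω : G ⧸ U) (v : ι) (g : G) :
    brjcEv D U ω v g (j2dW D (G ⧸ U) (brjcW D U 𝒰 a) (σ, τ)) =
      a (brjcIdx D U v (g • ω)) • 𝒰 v g (g * σ) (g * σ * τ) :=
  j2dW_apply D (G ⧸ U) U₁ hU₁ hU₁n (fun s hs ω => brjc_triv U s (hU₁U hs) ω)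
    (brjcW D U 𝒰 a) (brjcW_equiv D U 𝒰 h𝒰1 a) (brjcW_level D U 𝒰 U₁ h𝒰3 a) σ τ ω v g

include h𝒰1 hU₁ hU₁n hU₁U h𝒰3 in
lemma brjc_sum (a : (Σ v : ι, (G ⧸ U) ⧸ cycDec D U v) →₀ ℤ) (s : G × G) :
    a.sum (fun x n => n • brjcE D U 𝒰 x s) = j2dW D (G ⧸ U) (brjcW D U 𝒰 ⇑a) s := by
  classical
  obtain ⟨σ, τ⟩ := s
  apply brjc_ext
  intro ω v g
  rw [brjcW_apply D U 𝒰 h𝒰1 U₁ hU₁ hU₁n hU₁U h𝒰3, map_finsuppSum]
  have h1 : ∀ (x : Σ v : ι, (G ⧸ U) ⧸ cycDec D U v) (n : ℤ),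
      brjcEv D U ω v g (n • brjcE D U 𝒰 x (σ, τ)) =
        (if brjcIdx D U v (g • ω) = x then n else 0) • 𝒰 v g (g * σ) (g * σ * τ) := by
    intro x n
    rw [map_zsmul]
    unfold brjcE
    rw [brjcW_apply D U 𝒰 h𝒰1 U₁ hU₁ hU₁n hU₁U h𝒰3]
    split_ifs
    · rw [one_zsmul]
    · rw [zero_zsmul, zsmul_zero]
  simp only [h1]
  show ∑ x ∈ a.support, (if brjcIdx D U v (g • ω) = x then a x else 0) •
      𝒰 v g (g * σ) (g * σ * τ) = _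
  by_cases h : brjcIdx D U v (g • ω) ∈ a.support
  · rw [Finset.sum_eq_single_of_mem _ h (fun b _ hb => by rw [if_neg hb.symm, zero_zsmul]),
      if_pos rfl]
  · rw [Finset.sum_eq_zero (fun b hb => by
      have hne : brjcIdx D U v (g • ω) ≠ b := fun e => h (e ▸ hb)
      rw [if_neg hne, zero_zsmul]), Finsupp.notMem_support_iff.1 h, zero_zsmul]

end Fam


lemma brjc_Ψ_W (W : ∀ v, (G ⧸ U) → G → G → G → (D.Jloc v).V)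
    (U₁ : Subgroup G) (hU₁ : U₁ ∈ D.𝒯.lev) (hU₁n : U₁.Normal) (hU₁U : U₁ ≤ U)
    (hW1 : ∀ (v : ι) (ω : G ⧸ U) (d : Gloc v) (g₀ g₁ g₂ : G),
      W v (D.r v d • ω) (D.r v d * g₀) (D.r v d * g₁) (D.r v d * g₂) =
        (D.Jloc v).ρ d (W v ω g₀ g₁ g₂))
    (hW3 : ∀ (v : ι) (ω : G ⧸ U) (g₀ g₁ g₂ u₀ u₁ u₂ : G), u₀ ∈ U₁ → u₁ ∈ U₁ → u₂ ∈ U₁ →
      W v ω (g₀ * u₀) (g₁ * u₁) (g₂ * u₂) = W v ω g₀ g₁ g₂)
    (v : ι) (ω : G ⧸ U) (g₀ g₁ g₂ : G) :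
    j2dΨ D (G ⧸ U) (j2dW D (G ⧸ U) W) v ω g₀ g₁ g₂ = W v ω g₀ g₁ g₂ := by
  unfold j2dΨ
  rw [j2dW_apply D (G ⧸ U) U₁ hU₁ hU₁n (fun s hs ω => brjc_triv U s (hU₁U hs) ω) W hW1 hW3,
    smul_inv_smul, mul_inv_cancel_left, mul_inv_cancel_left]

section Final

variable [Fact p.Prime] [Fintype ι] (hU : U ∈ D.𝒯.lev)
  (𝒰 : ∀ v, G → G → G → (D.Jloc v).V)
  (h𝒰1 : ∀ (v : ι) (d : Gloc v) (g₀ g₁ g₂ : G),
    𝒰 v (D.r v d * g₀) (D.r v d * g₁) (D.r v d * g₂) = (D.Jloc v).ρ d (𝒰 v g₀ g₁ g₂))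
  (h𝒰2 : ∀ (v : ι) (g₀ g₁ g₂ g₃ : G),
    𝒰 v g₁ g₂ g₃ - 𝒰 v g₀ g₂ g₃ + 𝒰 v g₀ g₁ g₃ - 𝒰 v g₀ g₁ g₂ = 0)
  (U₁ : Subgroup G) (hU₁ : U₁ ∈ D.𝒯.lev) (hU₁n : U₁.Normal) (hU₁U : U₁ ≤ U)
  (h𝒰3 : ∀ (v : ι) (g₀ g₁ g₂ u₀ u₁ u₂ : G), u₀ ∈ U₁ → u₁ ∈ U₁ → u₂ ∈ U₁ →
    𝒰 v (g₀ * u₀) (g₁ * u₁) (g₂ * u₂) = 𝒰 v g₀ g₁ g₂)
  (u : ∀ v, Gloc v → Gloc v → Gloc v → (D.Jloc v).V)
  (h𝒰r : ∀ (v : ι) (d₀ d₁ d₂ : Gloc v), 𝒰 v (D.r v d₀) (D.r v d₁) (D.r v d₂) = u v d₀ d₁ d₂)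
  (hup : ∀ v, BrjlCob D v (U.comap (D.r v)) (fun k₀ k₁ k₂ => p • u v k₀ k₁ k₂))
  (hun : ∀ v, ¬ BrjlCob D v (U.comap (D.r v)) (fun k₀ k₁ k₂ => u v k₀ k₁ k₂))
  (hug : ∀ v, ∀ c : ↥(U.comap (D.r v)) → ↥(U.comap (D.r v)) → ↥(U.comap (D.r v)) →
      (D.Jloc v).V,
    (∀ k k₀ k₁ k₂ : ↥(U.comap (D.r v)),
      c (k * k₀) (k * k₁) (k * k₂) = (D.Jloc v).ρ (k : Gloc v) (c k₀ k₁ k₂)) →
    (∀ k₀ k₁ k₂ k₃ : ↥(U.comap (D.r v)),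
      c k₁ k₂ k₃ - c k₀ k₂ k₃ + c k₀ k₁ k₃ - c k₀ k₁ k₂ = 0) →
    (∃ U₂ ∈ D.𝒯.lev, ∀ k₀ k₁ k₂ s₀ s₁ s₂ : ↥(U.comap (D.r v)),
      D.r v s₀ ∈ U₂ → D.r v s₁ ∈ U₂ → D.r v s₂ ∈ U₂ →
      c (k₀ * s₀) (k₁ * s₁) (k₂ * s₂) = c k₀ k₁ k₂) →
    BrjlCob D v (U.comap (D.r v)) (fun k₀ k₁ k₂ => p • c k₀ k₁ k₂) →
    ∃ a : ℕ, BrjlCob D v (U.comap (D.r v)) (fun k₀ k₁ k₂ => c k₀ k₁ k₂ - a • u v k₀ k₁ k₂))

include hU h𝒰1 h𝒰2 hU₁ hU₁n hU₁U h𝒰3 h𝒰r hup in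
/-- (1): `e x` is a level 2-cocycle of `p`-torsion class -/
theorem brjc_one (x : Σ v : ι, (G ⧸ U) ⧸ cycDec D U v) :
    IsPTorsCoc D.𝒯 p (permZ G (G ⧸ U)) (PTJ D) (brjcE D U 𝒰 x) := by
  classical
  have hΩ : ∀ s ∈ U₁, ∀ ω : G ⧸ U, s • ω = ω := fun s hs ω => brjc_triv U s (hU₁U hs) ω
  refine ⟨j2dW_level D (G ⧸ U) U₁ hU₁ hU₁n hΩ _ (brjcW_equiv D U 𝒰 h𝒰1 _)
      (brjcW_level D U 𝒰 U₁ h𝒰3 _),
    j2dW_cocycle D (G ⧸ U) U₁ hU₁ hU₁n hΩ _ (brjcW_equiv D U 𝒰 h𝒰1 _)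
      (brjcW_level D U 𝒰 U₁ h𝒰3 _) (brjcW_cocycle D U 𝒰 h𝒰2 _), ?_⟩
  obtain ⟨t, ht, h⟩ := brjc_shapiro D U hU
    (brjcW D U 𝒰 (fun x' => if x' = x then (p : ℤ) else 0)) U₁ hU₁ hU₁n hU₁U
    (brjcW_equiv D U 𝒰 h𝒰1 _) (brjcW_cocycle D U 𝒰 h𝒰2 _) (brjcW_level D U 𝒰 U₁ h𝒰3 _)
    (fun v ω _ => by
      by_cases hx : brjcIdx D U v ω = x
      · refine brjc_cob_congr D v _ _ _ (hup v) fun k₀ k₁ k₂ => ?_
        show p • u v k₀ k₁ k₂ = (if brjcIdx D U v ω = x then (p : ℤ) else 0) •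
          𝒰 v (D.r v k₀) (D.r v k₁) (D.r v k₂)
        rw [if_pos hx, h𝒰r, natCast_zsmul]
      · refine brjc_cob_congr D v _ _ _ (brjc_cob_zero D v _) fun k₀ k₁ k₂ => ?_
        show (0 : (D.Jloc v).V) = (if brjcIdx D U v ω = x then (p : ℤ) else 0) •
          𝒰 v (D.r v k₀) (D.r v k₁) (D.r v k₂)
        rw [if_neg hx, zero_zsmul])
  refine ⟨t, ht, fun s => ?_⟩
  rw [← h s]
  obtain ⟨σ, τ⟩ := s
  apply brjc_ext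
  intro ω v g
  rw [map_nsmul, brjcW_apply D U 𝒰 h𝒰1 U₁ hU₁ hU₁n hU₁U h𝒰3]
  unfold brjcE
  rw [brjcW_apply D U 𝒰 h𝒰1 U₁ hU₁ hU₁n hU₁U h𝒰3]
  split_ifs
  · rw [one_zsmul, natCast_zsmul]
  · rw [zero_zsmul, nsmul_zero]

include h𝒰1 hU₁ hU₁n hU₁U h𝒰3 in
/-- (2): the right translations permute the `e x` -/
theorem brjc_two (δ : G ⧸ U) (x : Σ v : ι, (G ⧸ U) ⧸ cycDec D U v) (s : G × G) :
    (brjcE D U 𝒰 x s).comp (rtAdd U δ) = brjcE D U 𝒰 (δ • x) s := by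
  classical
  obtain ⟨σ, τ⟩ := s
  apply brjc_ext
  intro ω v g
  have e1 : brjcEv D U ω v g ((brjcE D U 𝒰 x (σ, τ)).comp (rtAdd U δ)) =
      brjcEv D U (ω * δ) v g (brjcE D U 𝒰 x (σ, τ)) := by
    show ((brjcE D U 𝒰 x (σ, τ)) (rtAdd U δ (MonoidAlgebra.single ω 1))).1 v g = _
    rw [rtAdd_single]
    rfl
  rw [e1]
  unfold brjcE
  rw [brjcW_apply D U 𝒰 h𝒰1 U₁ hU₁ hU₁n hU₁U h𝒰3,
    brjcW_apply D U 𝒰 h𝒰1 U₁ hU₁ hU₁n hU₁U h𝒰3, brjc_smul_mul, brjcIdx_mul]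
  by_cases h : brjcIdx D U v (g • ω) = δ • x
  · rw [if_pos h, if_pos (by rw [h, inv_smul_smul])]
  · rw [if_neg h, if_neg (fun h' => h (by rw [← h', smul_inv_smul]))]

include hU h𝒰1 hU₁ hU₁n hU₁U h𝒰3 h𝒰r hup hun in
/-- (3): independence mod `p` -/
theorem brjc_three (a : (Σ v : ι, (G ⧸ U) ⧸ cycDec D U v) →₀ ℤ)
    (h : ∃ t : G → ((permZ G (G ⧸ U)).V →+ (PTJ D).V), IsLevel₁ D.𝒯 t ∧
      ∀ s, a.sum (fun x n => n • brjcE D U 𝒰 x s) = dOne (permZ G (G ⧸ U)) (PTJ D) t s)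
    (x : Σ v : ι, (G ⧸ U) ⧸ cycDec D U v) : (p : ℤ) ∣ a x := by
  obtain ⟨t, ht, h⟩ := h
  by_contra hpa
  obtain ⟨ω, hω⟩ := brjcIdx_surj D U x
  have h1 := brjc_restrict D U hU (j2dW D (G ⧸ U) (brjcW D U 𝒰 ⇑a)) t ht
    (fun s => by rw [← brjc_sum D U 𝒰 h𝒰1 U₁ hU₁ hU₁n hU₁U h𝒰3]; exact h s) x.1 ω
  refine hun x.1 (brjc_cob_bezout D x.1 _ _ (a x) ?_ (hup x.1) hpa)
  refine brjc_cob_congr D x.1 _ _ _ h1 fun k₀ k₁ k₂ => ?_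
  rw [brjc_Ψ_W D U _ U₁ hU₁ hU₁n hU₁U (brjcW_equiv D U 𝒰 h𝒰1 _) (brjcW_level D U 𝒰 U₁ h𝒰3 _)]
  show a (brjcIdx D U x.1 ω) • 𝒰 x.1 (D.r x.1 k₀) (D.r x.1 k₁) (D.r x.1 k₂) = _
  rw [hω, h𝒰r]

include hU h𝒰1 h𝒰2 hU₁ hU₁n hU₁U h𝒰3 h𝒰r hug in
/-- (4): the `e x` span the `p`-torsion -/
theorem brjc_four (y : G × G → ((permZ G (G ⧸ U)).V →+ (PTJ D).V))
    (hy : IsPTorsCoc D.𝒯 p (permZ G (G ⧸ U)) (PTJ D) y) :
    ∃ (a : (Σ v : ι, (G ⧸ U) ⧸ cycDec D U v) →₀ ℤ)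
      (t : G → ((permZ G (G ⧸ U)).V →+ (PTJ D).V)), IsLevel₁ D.𝒯 t ∧
      ∀ s, y s = a.sum (fun x n => n • brjcE D U 𝒰 x s) +
        dOne (permZ G (G ⧸ U)) (PTJ D) t s := by
  classical
  obtain ⟨⟨Uy, hUy, hyU⟩, hycoc, t, ht, hpt⟩ := hy
  have hfin := D.𝒯.finiteIndex U hU
  have : Finite (G ⧸ U) := Subgroup.finite_quotient_of_finiteIndex
  -- a normal level of `y` below `U₁`
  obtain ⟨U₃, hU₃, hU₃y, hU₃U₁, hU₃n⟩ := tower_exists_normal_le₂ D.𝒯 hUy hU₁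
  have hU₃U : U₃ ≤ U := hU₃U₁.trans hU₁U
  have hΩ : ∀ s ∈ U₃, ∀ ω : G ⧸ U, s • ω = ω := fun s hs ω => brjc_triv U s (hU₃U hs) ω
  have hyU' : ∀ g g' s s' : G, s ∈ U₃ → s' ∈ U₃ → y (g * s, g' * s') = y (g, g') :=
    fun g g' s s' hs hs' => hyU g g' s s' (hU₃y hs) (hU₃y hs')
  -- the local coefficients
  have hloc : ∀ (v : ι) (ω : G ⧸ U), ∃ a : ℕ, BrjlCob D v (U.comap (D.r v))
      (fun k₀ k₁ k₂ => j2dΨ D (G ⧸ U) y v ω (D.r v k₀) (D.r v k₁) (D.r v k₂) -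
        a • u v k₀ k₁ k₂) := by
    intro v ω
    refine hug v (fun k₀ k₁ k₂ => j2dΨ D (G ⧸ U) y v ω (D.r v k₀) (D.r v k₁) (D.r v k₂))
      ?_ ?_ ?_ ?_
    · intro k k₀ k₁ k₂
      show j2dΨ D (G ⧸ U) y v ω (D.r v ((k * k₀ : ↥(U.comap (D.r v))) : Gloc v))
        (D.r v ((k * k₁ : ↥(U.comap (D.r v))) : Gloc v))
        (D.r v ((k * k₂ : ↥(U.comap (D.r v))) : Gloc v)) = _
      rw [Subgroup.coe_mul, Subgroup.coe_mul, Subgroup.coe_mul, map_mul, map_mul, map_mul]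
      have := j2dΨ_equiv D (G ⧸ U) y v ω (k : Gloc v) (D.r v k₀) (D.r v k₁) (D.r v k₂)
      rwa [brjc_triv U _ k.2 ω] at this
    · intro k₀ k₁ k₂ k₃
      exact j2dΨ_cocycle D (G ⧸ U) y hycoc v ω _ _ _ _
    · refine ⟨U₃, hU₃, fun k₀ k₁ k₂ s₀ s₁ s₂ hs₀ hs₁ hs₂ => ?_⟩
      show j2dΨ D (G ⧸ U) y v ω (D.r v ((k₀ * s₀ : ↥(U.comap (D.r v))) : Gloc v))
        (D.r v ((k₁ * s₁ : ↥(U.comap (D.r v))) : Gloc v))
        (D.r v ((k₂ * s₂ : ↥(U.comap (D.r v))) : Gloc v)) = _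
      rw [Subgroup.coe_mul, Subgroup.coe_mul, Subgroup.coe_mul, map_mul, map_mul, map_mul]
      exact j2dΨ_level D (G ⧸ U) y hycoc U₃ hU₃n hyU' hΩ v ω _ _ _ _ _ _ hs₀ hs₁ hs₂
    · have h1 := brjc_restrict D U hU (fun s => p • y s) t ht hpt v ω
      exact brjc_cob_congr D v _ _ _ h1 (fun k₀ k₁ k₂ => rfl)
  choose aloc haloc using hloc
  -- the global coefficients
  choose ωx hωx using brjcIdx_surj D U
  let a₀ : (Σ v : ι, (G ⧸ U) ⧸ cycDec D U v) → ℤ := fun x =>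
    (aloc x.1 (permSh1_rep (D.r x.1) (ωx x)) : ℤ)
  have hXfin : Finite (Σ v : ι, (G ⧸ U) ⧸ cycDec D U v) := inferInstance
  let a : (Σ v : ι, (G ⧸ U) ⧸ cycDec D U v) →₀ ℤ := Finsupp.ofSupportFinite a₀ (Set.toFinite _)
  have ha : ⇑a = a₀ := rfl
  have key : ∀ (v : ι) (ω : G ⧸ U), permSh1_rep (D.r v) ω = ω →
      a₀ (brjcIdx D U v ω) = (aloc v ω : ℤ) := by
    intro v ω hω
    obtain ⟨d, hd⟩ := brjcIdx_eq D U v (ωx (brjcIdx D U v ω)) ω (hωx (brjcIdx D U v ω))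
    have hrep : permSh1_rep (D.r v) (ωx (brjcIdx D U v ω)) = ω := by
      rw [← hd, permSh1_rep_smul, hω]
    show (aloc v (permSh1_rep (D.r v) (ωx (brjcIdx D U v ω))) : ℤ) = aloc v ω
    rw [hrep]
  -- the difference family
  let Φ : ∀ v, (G ⧸ U) → G → G → G → (D.Jloc v).V := fun v ω g₀ g₁ g₂ =>
    j2dΨ D (G ⧸ U) y v ω g₀ g₁ g₂ - brjcW D U 𝒰 a₀ v ω g₀ g₁ g₂
  have hΦ1 : ∀ (v : ι) (ω : G ⧸ U) (d : Gloc v) (g₀ g₁ g₂ : G),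
      Φ v (D.r v d • ω) (D.r v d * g₀) (D.r v d * g₁) (D.r v d * g₂) =
        (D.Jloc v).ρ d (Φ v ω g₀ g₁ g₂) := by
    intro v ω d g₀ g₁ g₂
    show j2dΨ D (G ⧸ U) y v (D.r v d • ω) (D.r v d * g₀) (D.r v d * g₁) (D.r v d * g₂) -
      brjcW D U 𝒰 a₀ v (D.r v d • ω) (D.r v d * g₀) (D.r v d * g₁) (D.r v d * g₂) =
      (D.Jloc v).ρ d (j2dΨ D (G ⧸ U) y v ω g₀ g₁ g₂ - brjcW D U 𝒰 a₀ v ω g₀ g₁ g₂)
    rw [j2dΨ_equiv, brjcW_equiv D U 𝒰 h𝒰1, map_sub]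
  have hΦ2 : ∀ (v : ι) (ω : G ⧸ U) (g₀ g₁ g₂ g₃ : G),
      Φ v ω g₁ g₂ g₃ - Φ v ω g₀ g₂ g₃ + Φ v ω g₀ g₁ g₃ - Φ v ω g₀ g₁ g₂ = 0 := by
    intro v ω g₀ g₁ g₂ g₃
    have e1 := j2dΨ_cocycle D (G ⧸ U) y hycoc v ω g₀ g₁ g₂ g₃
    have e2 := brjcW_cocycle D U 𝒰 h𝒰2 a₀ v ω g₀ g₁ g₂ g₃
    show j2dΨ D (G ⧸ U) y v ω g₁ g₂ g₃ - brjcW D U 𝒰 a₀ v ω g₁ g₂ g₃ -
      (j2dΨ D (G ⧸ U) y v ω g₀ g₂ g₃ - brjcW D U 𝒰 a₀ v ω g₀ g₂ g₃) +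
      (j2dΨ D (G ⧸ U) y v ω g₀ g₁ g₃ - brjcW D U 𝒰 a₀ v ω g₀ g₁ g₃) -
      (j2dΨ D (G ⧸ U) y v ω g₀ g₁ g₂ - brjcW D U 𝒰 a₀ v ω g₀ g₁ g₂) = 0
    have e3 : j2dΨ D (G ⧸ U) y v ω g₁ g₂ g₃ - brjcW D U 𝒰 a₀ v ω g₁ g₂ g₃ -
      (j2dΨ D (G ⧸ U) y v ω g₀ g₂ g₃ - brjcW D U 𝒰 a₀ v ω g₀ g₂ g₃) +
      (j2dΨ D (G ⧸ U) y v ω g₀ g₁ g₃ - brjcW D U 𝒰 a₀ v ω g₀ g₁ g₃) -
      (j2dΨ D (G ⧸ U) y v ω g₀ g₁ g₂ - brjcW D U 𝒰 a₀ v ω g₀ g₁ g₂) =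
      (j2dΨ D (G ⧸ U) y v ω g₁ g₂ g₃ - j2dΨ D (G ⧸ U) y v ω g₀ g₂ g₃ +
        j2dΨ D (G ⧸ U) y v ω g₀ g₁ g₃ - j2dΨ D (G ⧸ U) y v ω g₀ g₁ g₂) -
      (brjcW D U 𝒰 a₀ v ω g₁ g₂ g₃ - brjcW D U 𝒰 a₀ v ω g₀ g₂ g₃ +
        brjcW D U 𝒰 a₀ v ω g₀ g₁ g₃ - brjcW D U 𝒰 a₀ v ω g₀ g₁ g₂) := by abel
    rw [e3, e1, e2, sub_zero]
  have hΦ3 : ∀ (v : ι) (ω : G ⧸ U) (g₀ g₁ g₂ u₀ u₁ u₂ : G), u₀ ∈ U₃ → u₁ ∈ U₃ → u₂ ∈ U₃ →
      Φ v ω (g₀ * u₀) (g₁ * u₁) (g₂ * u₂) = Φ v ω g₀ g₁ g₂ := by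
    intro v ω g₀ g₁ g₂ u₀ u₁ u₂ hu₀ hu₁ hu₂
    show j2dΨ D (G ⧸ U) y v ω (g₀ * u₀) (g₁ * u₁) (g₂ * u₂) -
      brjcW D U 𝒰 a₀ v ω (g₀ * u₀) (g₁ * u₁) (g₂ * u₂) =
      j2dΨ D (G ⧸ U) y v ω g₀ g₁ g₂ - brjcW D U 𝒰 a₀ v ω g₀ g₁ g₂
    rw [j2dΨ_level D (G ⧸ U) y hycoc U₃ hU₃n hyU' hΩ v ω _ _ _ _ _ _ hu₀ hu₁ hu₂,
      brjcW_level D U 𝒰 U₁ h𝒰3 a₀ v ω _ _ _ _ _ _ (hU₃U₁ hu₀) (hU₃U₁ hu₁) (hU₃U₁ hu₂)]
  obtain ⟨t', ht', h'⟩ := brjc_shapiro D U hU Φ U₃ hU₃ hU₃n hU₃U hΦ1 hΦ2 hΦ3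
    (fun v ω hω => by
      refine brjc_cob_congr D v _ _ _ (haloc v ω) fun k₀ k₁ k₂ => ?_
      show j2dΨ D (G ⧸ U) y v ω (D.r v k₀) (D.r v k₁) (D.r v k₂) - aloc v ω • u v k₀ k₁ k₂ =
        j2dΨ D (G ⧸ U) y v ω (D.r v k₀) (D.r v k₁) (D.r v k₂) -
          a₀ (brjcIdx D U v ω) • 𝒰 v (D.r v k₀) (D.r v k₁) (D.r v k₂)
      rw [key v ω hω, h𝒰r, natCast_zsmul])
  refine ⟨a, t', ht', fun s => ?_⟩
  rw [brjc_sum D U 𝒰 h𝒰1 U₁ hU₁ hU₁n hU₁U h𝒰3, ← h' s, ha]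
  obtain ⟨σ, τ⟩ := s
  apply brjc_ext
  intro ω v g
  have e1 : brjcEv D U ω v g (j2dW D (G ⧸ U) Φ (σ, τ)) = Φ v (g • ω) g (g * σ) (g * σ * τ) :=
    j2dW_apply D (G ⧸ U) U₃ hU₃ hU₃n hΩ Φ hΦ1 hΦ3 σ τ ω v g
  rw [map_add, brjcW_apply D U 𝒰 h𝒰1 U₁ hU₁ hU₁n hU₁U h𝒰3, e1]
  show brjcEv D U ω v g (y (σ, τ)) = a₀ (brjcIdx D U v (g • ω)) • 𝒰 v g (g * σ) (g * σ * τ) +
    (j2dΨ D (G ⧸ U) y v (g • ω) g (g * σ) (g * σ * τ) -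
      a₀ (brjcIdx D U v (g • ω)) • 𝒰 v g (g * σ) (g * σ * τ))
  rw [add_sub_cancel, j2dΨ_roundtrip]
  rfl

end Final

end Core

/-- **K-BrJ, the cohomological core**, from the local structure theorem. -/
theorem stmtBrJCore_of (hLoc : StmtBrJLoc) : StmtBrJCore := by
  intro p _ G _ ι _ _ Gloc _ D hPD U hUn hU
  classical
  have hloc := fun v : ι => hLoc p G ι Gloc D hPD v U hU hUn
  choose u hu1 hu2 hu3 hup hun hug using hloc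
  choose U₁v hU₁v hU₁vU hU₁vn hu3 using hu3
  have hinf : (Finset.univ : Finset ι).inf U₁v ⊓ U ∈ D.𝒯.lev :=
    D.𝒯.inf_mem _ _ (tower_finset_inf_mem D.𝒯 _ _ fun v _ => hU₁v v) hU
  obtain ⟨U₁, hU₁, hU₁le, hU₁n⟩ := D.𝒯.exists_normal _ hinf
  have hU₁v' : ∀ v, U₁ ≤ U₁v v := fun v =>
    (hU₁le.trans inf_le_left).trans (Finset.inf_le (Finset.mem_univ v))
  have hU₁U : U₁ ≤ U := hU₁le.trans inf_le_right
  have hinv := fun v : ι =>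
    haveI := hU₁n
    brjc_invSh (D.r v) (fun d : Gloc v => actAdd (D.Jloc v) d) U₁ (u v) (hu1 v) (hu2 v)
      (fun d₀ d₁ d₂ s₀ s₁ s₂ hs₀ hs₁ hs₂ =>
        hu3 v d₀ d₁ d₂ s₀ s₁ s₂ (hU₁v' v hs₀) (hU₁v' v hs₁) (hU₁v' v hs₂))
  choose 𝒰 h𝒰1 h𝒰2 h𝒰3 h𝒰r using hinv
  refine ⟨brjcE D U 𝒰,
    fun x => brjc_one D U hU 𝒰 h𝒰1 h𝒰2 U₁ hU₁ hU₁n hU₁U h𝒰3 u h𝒰r hup x,
    fun δ x s => brjc_two D U 𝒰 h𝒰1 U₁ hU₁ hU₁n hU₁U h𝒰3 δ x s,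
    fun a h x => brjc_three D U hU 𝒰 h𝒰1 U₁ hU₁ hU₁n hU₁U h𝒰3 u h𝒰r hup hun a h x,
    fun y hy => brjc_four D U hU 𝒰 h𝒰1 h𝒰2 U₁ hU₁ hU₁n hU₁U h𝒰3 u h𝒰r hug y hy⟩


end Fermat.Agent.TW.E

end


end ZBTW_046_8
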