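/- GENERATED FILE (helper35, build-time optimisation, NOTES/ZB.md): verbatim concatenation of the modules
   Fermat.Agent.TW.F.H2pCycU
   Fermat.Agent.TW.E.BrJLocAbs
   Fermat.Agent.TW.E.BrJLoc
   Do not edit; do not import together with these modules. -/
import Fermat.Agent.ZB.TW_014
import Fermat.Agent.ZB.PT_022
import Fermat.Agent.ZB.PT_002
import Fermat.Agent.ZB.TW_046

/-! ### bundled: `Fermat.Agent.TW.F.H2pCycU` -/
section ZBTW_032_0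
/-
TW-F, block F-h2perm, piece h2p-cycU (helper9): cyclicity of `H²_lev(U, C)[p]` for a normal level
`U`, on cochain functions `U × U → C`.

* `h2pcycu_transport`: a `p`-fundamental class is transported along an injective homomorphism
  `φ : Γ' → Γ` and a compatible isomorphism of modules (Mathlib `groupCohomology.mapIso`);
* `h2pcycuTower`: the tower of `U` cut out by the normal levels of `G` contained in `U`;
  `Res_U C` is discrete for it and has `p`-fundamental classes (`cm_glob` + transport);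
* `stmtH2pCycU` by `levH2_pTorsion_cyclic` for `(U, h2pcycuTower, Res_U C)`.
-/

set_option autoImplicit false

noncomputable section

namespace Fermat.Agent.TW.F

open CategoryTheory groupCohomology Module Fermat.Agent.PT Fermat.Agent.PT.F

attribute [local instance 1100] Rep.hV2

section Transport

variable {Γ Γ' : Type} [Group Γ] [Group Γ']

/-- the morphism of representations attached to a compatible linear equivalence -/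
def h2pcycu_hom (φ : Γ' →* Γ) (Y : Rep.{0} ℤ Γ) (Y' : Rep.{0} ℤ Γ') (e : Y.V ≃+ Y'.V)
    (he : ∀ (g : Γ') (y : Y.V), e (Y.ρ (φ g) y) = Y'.ρ g (e y)) : Rep.res φ Y ⟶ Y' :=
  Rep.ofHom ⟨(e.toIntLinearEquiv (modM := Y.hV2) (modM₂ := Y'.hV2)).toLinearMap, fun g => by
    ext y
    exact he g y⟩

/-- the isomorphism on the cohomology of a subgroup and its image -/
def h2pcycu_iso (φ : Γ' →* Γ) (hφ : Function.Injective φ)
    (Y : Rep.{0} ℤ Γ) (Y' : Rep.{0} ℤ Γ') (e : Y.V ≃+ Y'.V)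
    (he : ∀ (g : Γ') (y : Y.V), e (Y.ρ (φ g) y) = Y'.ρ g (e y)) (H' : Subgroup Γ') (n : ℕ) :
    groupCohomology (Rep.res H'.subtype Y') n ≅
      groupCohomology (Rep.res (H'.map φ).subtype Y) n :=
  groupCohomology.mapIso (H'.equivMapOfInjective φ hφ) (A := Rep.res (H'.map φ).subtype Y)
    (B := Rep.res H'.subtype Y')
    (e.toIntLinearEquiv (modM := Y.hV2) (modM₂ := Y'.hV2)).symm (fun g => by
      ext y
      show e.symm (Y'.ρ (g : Γ') y) = Y.ρ (φ (g : Γ')) (e.symm y)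
      apply e.injective
      rw [he, e.apply_symm_apply, e.apply_symm_apply]) n

theorem h2pcycu_iso_inv_res (φ : Γ' →* Γ) (hφ : Function.Injective φ)
    (Y : Rep.{0} ℤ Γ) (Y' : Rep.{0} ℤ Γ') (e : Y.V ≃+ Y'.V)
    (he : ∀ (g : Γ') (y : Y.V), e (Y.ρ (φ g) y) = Y'.ρ g (e y)) (H' : Subgroup Γ') (n : ℕ) :
    groupCohomology.map (H'.map φ).subtype (𝟙 _) n ≫ (h2pcycu_iso φ hφ Y Y' e he H' n).inv =
      groupCohomology.map φ (h2pcycu_hom φ Y Y' e he) n ≫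
        groupCohomology.map H'.subtype (𝟙 _) n := by
  unfold h2pcycu_iso
  rw [groupCohomology.mapIso_inv, ← groupCohomology.map_comp, ← groupCohomology.map_comp]
  exact groupCohomology.map_congr (by ext g; rfl) (by ext y; rfl) n

/-- **transport of a `p`-fundamental class** along an injective homomorphism `φ : Γ' → Γ` and a
compatible isomorphism of modules. -/
theorem h2pcycu_transport {p : ℕ} (φ : Γ' →* Γ) (hφ : Function.Injective φ)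
    (Y : Rep.{0} ℤ Γ) (Y' : Rep.{0} ℤ Γ') (e : Y.V ≃+ Y'.V)
    (he : ∀ (g : Γ') (y : Y.V), e (Y.ρ (φ g) y) = Y'.ρ g (e y))
    (u : H2 Y) (hu : IsPFundClass p Y u) :
    IsPFundClass p Y' ((groupCohomology.map φ (h2pcycu_hom φ Y Y' e he) 2).hom u) := by
  have hpg : ∀ H' : Subgroup Γ', IsPGroup p H' → IsPGroup p (H'.map φ) := fun H' h => h.map φ
  refine ⟨fun H' hH' => ?_, fun H' hH' => ?_, fun H' hH' x => ?_⟩
  · have := hu.h1 (H'.map φ) (hpg H' hH')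
    exact (h2pcycu_iso φ hφ Y Y' e he H' 1).toLinearEquiv.toEquiv.subsingleton
  · rw [Nat.card_congr (h2pcycu_iso φ hφ Y Y' e he H' 2).toLinearEquiv.toEquiv,
      hu.h2_card (H'.map φ) (hpg H' hH')]
    exact (Nat.card_congr (H'.equivMapOfInjective φ hφ).toEquiv).symm
  · obtain ⟨n, hn⟩ := hu.h2_gen (H'.map φ) (hpg H' hH')
      ((h2pcycu_iso φ hφ Y Y' e he H' 2).hom.hom x)
    refine ⟨n, ?_⟩
    have h1 := congrArg (h2pcycu_iso φ hφ Y Y' e he H' 2).inv.hom hn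
    rw [map_zsmul] at h1
    have h2 : (h2pcycu_iso φ hφ Y Y' e he H' 2).inv.hom
        ((h2pcycu_iso φ hφ Y Y' e he H' 2).hom.hom x) = x := by
      rw [← ModuleCat.comp_apply, Iso.hom_inv_id, ModuleCat.id_apply]
    rw [h2] at h1
    rw [← h1]
    congr 1
    have h3 := h2pcycu_iso_inv_res φ hφ Y Y' e he H' 2
    have h4 := congrArg (fun F => F.hom u) h3
    simp only [ModuleCat.comp_apply] at h4
    exact h4.symm

end Transport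

section Tower

variable {G : Type} [Group G]

/-- the tower of `U` cut out by the normal levels of `G` contained in `U` -/
def h2pcycuTower (𝒯 : Tower G) (U : Subgroup G) (hU : U ∈ 𝒯.lev) (hUn : U.Normal) :
    Tower ↥U where
  lev := {V | ∃ W ∈ 𝒯.lev, W.Normal ∧ W ≤ U ∧ V = W.subgroupOf U}
  top_mem := ⟨U, hU, hUn, le_rfl, (Subgroup.subgroupOf_self U).symm⟩
  inf_mem := by
    rintro _ _ ⟨W, hW, hWn, hWU, rfl⟩ ⟨W', hW', hWn', -, rfl⟩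
    refine ⟨W ⊓ W', 𝒯.inf_mem W W' hW hW', ?_, inf_le_left.trans hWU, ?_⟩
    · have := hWn
      have := hWn'
      infer_instance
    · ext x
      simp only [Subgroup.mem_inf, Subgroup.mem_subgroupOf]
  finiteIndex := by
    rintro _ ⟨W, hW, -, -, rfl⟩
    have := 𝒯.finiteIndex W hW
    infer_instance
  exists_normal := by
    rintro _ ⟨W, hW, hWn, hWU, rfl⟩
    have := hWn
    exact ⟨_, ⟨W, hW, hWn, hWU, rfl⟩, le_rfl, inferInstance⟩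

variable {𝒯 : Tower G} {U : Subgroup G} (hU : U ∈ 𝒯.lev) (hUn : U.Normal)

include hU in
theorem h2pcycu_exists_normal {U₁ : Subgroup G} (hU₁ : U₁ ∈ 𝒯.lev) :
    ∃ W ∈ 𝒯.lev, W.Normal ∧ W ≤ U ∧ W ≤ U₁ := by
  obtain ⟨W, hW, h1, h2, hn⟩ := tower_exists_normal_le₂ 𝒯 hU hU₁
  exact ⟨W, hW, hn, h1, h2⟩

theorem h2pcycu_isLevel₁_of {X : Type} {ψ : U → X} (h : IsLevelOn 𝒯 U ψ) :
    IsLevel₁ (h2pcycuTower 𝒯 U hU hUn) ψ := by
  obtain ⟨U₁, hU₁, h⟩ := h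
  obtain ⟨W, hW, hWn, hWU, hWU₁⟩ := h2pcycu_exists_normal hU hU₁
  exact ⟨W.subgroupOf U, ⟨W, hW, hWn, hWU, rfl⟩, fun g s hs => h g s (hWU₁ hs)⟩

theorem h2pcycu_isLevelOn_of {X : Type} {ψ : U → X}
    (h : IsLevel₁ (h2pcycuTower 𝒯 U hU hUn) ψ) : IsLevelOn 𝒯 U ψ := by
  obtain ⟨_, ⟨W, hW, -, -, rfl⟩, h⟩ := h
  exact ⟨W, hW, fun s u hu => h s u hu⟩

theorem h2pcycu_isLevel₂_of {X : Type} {w : U × U → X} (h : IsLevelOn₂ 𝒯 U w) :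
    IsLevel₂ (h2pcycuTower 𝒯 U hU hUn) w := by
  obtain ⟨U₁, hU₁, h⟩ := h
  obtain ⟨W, hW, hWn, hWU, hWU₁⟩ := h2pcycu_exists_normal hU hU₁
  exact ⟨W.subgroupOf U, ⟨W, hW, hWn, hWU, rfl⟩,
    fun g g' s s' hs hs' => h g g' s s' (hWU₁ hs) (hWU₁ hs')⟩

/-- `Res_U X` is discrete for the tower of `U` -/
theorem h2pcycu_discrete (X : Rep.{0} ℤ G) (hX : IsDiscrete 𝒯 X) :
    IsDiscrete (h2pcycuTower 𝒯 U hU hUn) (Rep.res U.subtype X) := by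
  intro x
  obtain ⟨U₁, hU₁, h⟩ := hX x
  obtain ⟨W, hW, hWn, hWU, hWU₁⟩ := h2pcycu_exists_normal hU hU₁
  exact ⟨W.subgroupOf U, ⟨W, hW, hWn, hWU, rfl⟩, fun s hs => h (s : G) (hWU₁ hs)⟩

end Tower

section Compare

variable {G : Type} [Group G] (X : Rep.{0} ℤ G) (U W : Subgroup G) [hWn : W.Normal]
  (hWU : W ≤ U)

/-- the injection `U ⧸ (W ∩ U) → G ⧸ W` -/
def h2pcycu_φ : ↥U ⧸ W.subgroupOf U →* G ⧸ W :=
  QuotientGroup.map (W.subgroupOf U) W U.subtype (fun _ hx => hx)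

theorem h2pcycu_φ_mk (x : U) :
    h2pcycu_φ U W ((x : ↥U) : ↥U ⧸ W.subgroupOf U) = ((x : G) : G ⧸ W) := rfl

theorem h2pcycu_φ_injective : Function.Injective (h2pcycu_φ U W) := by
  rw [injective_iff_map_eq_one]
  intro q hq
  obtain ⟨x, rfl⟩ := QuotientGroup.mk_surjective q
  rw [h2pcycu_φ_mk, QuotientGroup.eq_one_iff] at hq
  exact (QuotientGroup.eq_one_iff x).2 hq

/-- `X^W` as a module over `G ⧸ W` and over `U ⧸ (W ∩ U)`: the same underlying set -/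
def h2pcycu_e : (X.quotientToInvariants W).V ≃+
    ((Rep.res U.subtype X).quotientToInvariants (W.subgroupOf U)).V where
  toFun c := ⟨c.1, fun s => c.2 ⟨((s : ↥U) : G), s.2⟩⟩
  invFun c := ⟨c.1, fun s => c.2 ⟨⟨(s : G), hWU s.2⟩, s.2⟩⟩
  left_inv _ := rfl
  right_inv _ := rfl
  map_add' _ _ := rfl

theorem h2pcycu_e_comm (g : ↥U ⧸ W.subgroupOf U) (y : (X.quotientToInvariants W).V) :
    h2pcycu_e X U W hWU ((X.quotientToInvariants W).ρ (h2pcycu_φ U W g) y) =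
      ((Rep.res U.subtype X).quotientToInvariants (W.subgroupOf U)).ρ g
        (h2pcycu_e X U W hWU y) := by
  obtain ⟨x, rfl⟩ := QuotientGroup.mk_surjective g
  rfl

end Compare

/-- `Res_U X` has `p`-fundamental classes for the tower of `U` -/
theorem h2pcycu_hasPFund {G : Type} [Group G] {𝒯 : Tower G} {U : Subgroup G} (hU : U ∈ 𝒯.lev)
    (hUn : U.Normal) (X : Rep.{0} ℤ G) (p : ℕ) (hcm : HasPFund 𝒯 X p) :
    HasPFund (h2pcycuTower 𝒯 U hU hUn) (Rep.res U.subtype X) p := by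
  intro V hVn hV
  obtain ⟨W, hW, hWn, hWU, rfl⟩ := hV
  have := hWn
  obtain ⟨u, hu⟩ := hcm W hW
  have key := h2pcycu_transport (p := p) (h2pcycu_φ U W) (h2pcycu_φ_injective U W)
    (X.quotientToInvariants W) ((Rep.res U.subtype X).quotientToInvariants (W.subgroupOf U))
    (h2pcycu_e X U W hWU) (h2pcycu_e_comm X U W hWU) u hu
  exact ⟨_, key⟩

/-- **h2p-cycU**. -/
theorem stmtH2pCycU : StmtH2pCycU := by
  intro p _ G _ ι _ Gloc _ D U hUn hU w₁ w₂ hw₁ hw₂ hl₁ hl₂ hp₁ hp₂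
  have hp : p.Prime := Fact.out
  set 𝒯U := h2pcycuTower D.𝒯 U hU hUn with h𝒯U
  set X : Rep.{0} ℤ ↥U := Rep.res U.subtype D.C with hXdef
  have hX : IsDiscrete 𝒯U X := h2pcycu_discrete hU hUn D.C D.C_discrete
  have hcm : HasPFund 𝒯U X p :=
    h2pcycu_hasPFund hU hUn D.C p (fun W _ hW => D.cm_glob W hW)
  obtain ⟨ψ₁, hψ₁, hd₁⟩ := hp₁
  obtain ⟨ψ₂, hψ₂, hd₂⟩ := hp₂
  have hψ₁' : IsLevel₁ 𝒯U ψ₁ := h2pcycu_isLevel₁_of hU hUn hψ₁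
  have hψ₂' : IsLevel₁ 𝒯U ψ₂ := h2pcycu_isLevel₁_of hU hUn hψ₂
  let a₁ : ↥(levCocycles₂ 𝒯U X) := ⟨w₁, hw₁, h2pcycu_isLevel₂_of hU hUn hl₁⟩
  let a₂ : ↥(levCocycles₂ 𝒯U X) := ⟨w₂, hw₂, h2pcycu_isLevel₂_of hU hUn hl₂⟩
  have hpx₁ : p • levH2π 𝒯U X a₁ = 0 := by
    rw [← map_nsmul, levH2π_eq_zero_iff]
    exact (mem_levCoboundaries₂_iff 𝒯U X _).2 ⟨ψ₁, hψ₁', hd₁.symm⟩
  have hpx₂ : p • levH2π 𝒯U X a₂ = 0 := by
    rw [← map_nsmul, levH2π_eq_zero_iff]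
    exact (mem_levCoboundaries₂_iff 𝒯U X _).2 ⟨ψ₂, hψ₂', hd₂.symm⟩
  by_cases hx : levH2π 𝒯U X a₁ = 0
  · rw [levH2π_eq_zero_iff] at hx
    obtain ⟨ψ, hψ, hdψ⟩ := (mem_levCoboundaries₂_iff 𝒯U X _).1 hx
    refine ⟨1, 0, fun h => hp.one_lt.ne' (Nat.dvd_one.1 h.1), ψ,
      h2pcycu_isLevelOn_of hU hUn hψ, ?_⟩
    rw [one_smul, zero_smul, add_zero]
    exact hdψ.symm
  · obtain ⟨n, hn⟩ := levH2_pTorsion_cyclic stmtH2pCyclic p hX hcm _ _ hpx₁ hpx₂ hx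
    have h0 : levH2π 𝒯U X (a₂ - n • a₁) = 0 := by
      rw [map_sub, map_nsmul, hn, sub_self]
    rw [levH2π_eq_zero_iff] at h0
    obtain ⟨ψ, hψ, hdψ⟩ := (mem_levCoboundaries₂_iff 𝒯U X _).1 h0
    have hdψ' : (d₁₂ X).hom ψ = w₂ - n • w₁ := hdψ
    refine ⟨(p - 1) * n, 1, fun h => hp.one_lt.ne' (Nat.dvd_one.1 h.2), ψ + n • ψ₁,
      h2pcycu_isLevelOn_of hU hUn (hψ.add ?_), ?_⟩
    · obtain ⟨V, hV, hVψ⟩ := hψ₁'
      exact ⟨V, hV, fun g s hs => by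
        simp only [Pi.smul_apply]
        rw [hVψ g s hs]⟩
    · rw [map_add, map_nsmul, hdψ', ← hd₁, one_smul]
      have hpn : (p - 1) * n + n = p * n := by
        have h1 : 1 ≤ p := hp.one_lt.le
        calc (p - 1) * n + n = ((p - 1) + 1) * n := by ring
          _ = p * n := by rw [Nat.sub_add_cancel h1]
      have e1 : n • p • w₁ = (p * n) • w₁ := by rw [smul_smul, mul_comm]
      rw [e1, ← hpn, add_smul]
      abel

end Fermat.Agent.TW.F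

end


end ZBTW_032_0

/-! ### bundled: `Fermat.Agent.TW.E.BrJLocAbs` -/
section ZBTW_032_1
/-
TW-E / E-cyc / K-BrJ, LOCAL piece (helper55) — abstract part.
* homogeneous ↔ inhomogeneous cochains on a group `Kt` with values in a `Kt`-module `X`
  (`brjlHat`, `brjlHat₁`, `brjlHom`, `brjlHom₁`);
* `brjl_exists_order_p`: a `p`-fundamental class of a finite group of order divisible by `p` has a
  multiple of exact order `p`;
* `brjl_cyc`, `brjl_infl_inj`: cyclicity of the `p`-torsion and injectivity of the inflation at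
  finite levels, in the form used in TW/E/BrJLoc.lean.
-/

set_option autoImplicit false
set_option linter.unusedSectionVars false
set_option linter.unusedVariables false
set_option linter.style.haveILetI false

noncomputable section

namespace Fermat.Agent.TW.E

open CategoryTheory groupCohomology Fermat.Agent.PT Fermat.Agent.PT.F

attribute [local instance 1100] Rep.hV2

section Abstract

variable {Kt : Type} [Group Kt] (X : Rep.{0} ℤ Kt)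

/-- the inhomogeneous 2-cochain of a homogeneous one -/
def brjlHat (c : Kt → Kt → Kt → X.V) : Kt × Kt → X.V := fun ab => c 1 ab.1 (ab.1 * ab.2)

/-- the inhomogeneous 1-cochain of a homogeneous one -/
def brjlHat₁ (t : Kt → Kt → X.V) : Kt → X.V := fun a => t 1 a

/-- the homogeneous 2-cochain of an inhomogeneous one -/
def brjlHom (y : Kt × Kt → X.V) : Kt → Kt → Kt → X.V :=
  fun k₀ k₁ k₂ => X.ρ k₀ (y (k₀⁻¹ * k₁, k₁⁻¹ * k₂))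

/-- the homogeneous 1-cochain of an inhomogeneous one -/
def brjlHom₁ (t : Kt → X.V) : Kt → Kt → X.V := fun k₀ k₁ => X.ρ k₀ (t (k₀⁻¹ * k₁))

lemma brjl_ρ_mul (a b : Kt) (x : X.V) : X.ρ (a * b) x = X.ρ a (X.ρ b x) := by
  rw [map_mul]; rfl

lemma brjl_ρ_one (x : X.V) : X.ρ 1 x = x := by
  rw [map_one]; rfl

variable {X}

lemma brjlHat_mem_cocycles₂ {c : Kt → Kt → Kt → X.V}
    (hc1 : ∀ k k₀ k₁ k₂ : Kt, c (k * k₀) (k * k₁) (k * k₂) = X.ρ k (c k₀ k₁ k₂))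
    (hc2 : ∀ k₀ k₁ k₂ k₃ : Kt, c k₁ k₂ k₃ - c k₀ k₂ k₃ + c k₀ k₁ k₃ - c k₀ k₁ k₂ = 0) :
    brjlHat X c ∈ cocycles₂ X := by
  rw [mem_cocycles₂_def]
  intro a b d
  unfold brjlHat
  have h1 := hc1 a 1 b (b * d)
  have h2 := hc2 1 a (a * b) (a * b * d)
  rw [mul_one, ← mul_assoc] at h1
  simp only
  rw [← h1, ← mul_assoc]
  exact h2

lemma brjlHat_desc₂ {c : Kt → Kt → Kt → X.V} (N : Subgroup Kt) [hN : N.Normal]
    (hc1 : ∀ k k₀ k₁ k₂ : Kt, c (k * k₀) (k * k₁) (k * k₂) = X.ρ k (c k₀ k₁ k₂))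
    (hc3 : ∀ k₀ k₁ k₂ s₀ s₁ s₂ : Kt, s₀ ∈ N → s₁ ∈ N → s₂ ∈ N →
      c (k₀ * s₀) (k₁ * s₁) (k₂ * s₂) = c k₀ k₁ k₂) :
    Desc₂ X N (brjlHat X c) := by
  refine ⟨fun a b s s' hs hs' => ?_, fun ab s hs => ?_⟩
  · unfold brjlHat
    simp only
    have e : a * s * (b * s') = a * b * (b⁻¹ * s * b * s') := by group
    have hm : b⁻¹ * s * b * s' ∈ N := by
      refine N.mul_mem ?_ hs'
      have := hN.conj_mem s hs b⁻¹
      simpa using this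
    rw [e]
    have := hc3 1 a (a * b) 1 s (b⁻¹ * s * b * s') N.one_mem hs hm
    rw [mul_one] at this
    exact this
  · obtain ⟨a, b⟩ := ab
    unfold brjlHat
    simp only
    have h1 := hc1 s 1 a (a * b)
    have hsa : a⁻¹ * s * a ∈ N := by
      have := hN.conj_mem s hs a⁻¹
      simpa using this
    have hsab : (a * b)⁻¹ * s * (a * b) ∈ N := by
      have := hN.conj_mem s hs (a * b)⁻¹
      simpa using this
    have h2 := hc3 1 a (a * b) s (a⁻¹ * s * a) ((a * b)⁻¹ * s * (a * b)) hs hsa hsab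
    have e1 : s * a = a * (a⁻¹ * s * a) := by group
    have e2 : s * (a * b) = a * b * ((a * b)⁻¹ * s * (a * b)) := by group
    rw [mul_one] at h1
    rw [one_mul] at h2
    have h3 : c s (s * a) (s * (a * b)) = c 1 a (a * b) := by
      rw [e1, e2]
      exact h2
    exact h1.symm.trans h3

lemma brjlHat₁_desc₁ {t : Kt → Kt → X.V} (N : Subgroup Kt) [hN : N.Normal]
    (ht1 : ∀ k k₀ k₁ : Kt, t (k * k₀) (k * k₁) = X.ρ k (t k₀ k₁))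
    (ht3 : ∀ k₀ k₁ s₀ s₁ : Kt, s₀ ∈ N → s₁ ∈ N → t (k₀ * s₀) (k₁ * s₁) = t k₀ k₁) :
    Desc₁ X N (brjlHat₁ X t) := by
  refine ⟨fun a s hs => ?_, fun a s hs => ?_⟩
  · unfold brjlHat₁
    have := ht3 1 a 1 s N.one_mem hs
    rw [mul_one] at this
    exact this
  · unfold brjlHat₁
    have h1 := ht1 s 1 a
    rw [mul_one] at h1
    have hsa : a⁻¹ * s * a ∈ N := by
      have := hN.conj_mem s hs a⁻¹
      simpa using this
    have h2 := ht3 1 a s (a⁻¹ * s * a) hs hsa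
    have e1 : s * a = a * (a⁻¹ * s * a) := by group
    rw [one_mul] at h2
    rw [← h1, e1]
    exact h2

lemma brjlHat_d {c : Kt → Kt → Kt → X.V} {t : Kt → Kt → X.V}
    (ht1 : ∀ k k₀ k₁ : Kt, t (k * k₀) (k * k₁) = X.ρ k (t k₀ k₁))
    (h : ∀ k₀ k₁ k₂ : Kt, c k₀ k₁ k₂ = t k₁ k₂ - t k₀ k₂ + t k₀ k₁) :
    (d₁₂ X).hom (brjlHat₁ X t) = brjlHat X c := by
  funext ab
  obtain ⟨a, b⟩ := ab
  rw [d₁₂_hom_apply]
  unfold brjlHat brjlHat₁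
  simp only
  have h1 := ht1 a 1 b
  rw [mul_one] at h1
  rw [h 1 a (a * b), h1]

lemma brjlHat_hom (y : Kt × Kt → X.V) : brjlHat X (brjlHom X y) = y := by
  funext ab
  obtain ⟨a, b⟩ := ab
  unfold brjlHat brjlHom
  simp only
  rw [brjl_ρ_one, inv_one, one_mul, inv_mul_cancel_left]

lemma brjlHom_hat {c : Kt → Kt → Kt → X.V}
    (hc1 : ∀ k k₀ k₁ k₂ : Kt, c (k * k₀) (k * k₁) (k * k₂) = X.ρ k (c k₀ k₁ k₂))
    (k₀ k₁ k₂ : Kt) : brjlHom X (brjlHat X c) k₀ k₁ k₂ = c k₀ k₁ k₂ := by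
  unfold brjlHat brjlHom
  simp only
  have := hc1 k₀ 1 (k₀⁻¹ * k₁) (k₀⁻¹ * k₁ * (k₁⁻¹ * k₂))
  rw [mul_one, mul_inv_cancel_left, ← mul_assoc, mul_inv_cancel_left,
    mul_inv_cancel_left] at this
  exact this.symm

lemma brjlHom_equiv (y : Kt × Kt → X.V) (k k₀ k₁ k₂ : Kt) :
    brjlHom X y (k * k₀) (k * k₁) (k * k₂) = X.ρ k (brjlHom X y k₀ k₁ k₂) := by
  unfold brjlHom
  have e1 : (k * k₀)⁻¹ * (k * k₁) = k₀⁻¹ * k₁ := by group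
  have e2 : (k * k₁)⁻¹ * (k * k₂) = k₁⁻¹ * k₂ := by group
  rw [e1, e2, brjl_ρ_mul]

lemma brjlHom_cocycle {y : Kt × Kt → X.V} (hy : y ∈ cocycles₂ X) (k₀ k₁ k₂ k₃ : Kt) :
    brjlHom X y k₁ k₂ k₃ - brjlHom X y k₀ k₂ k₃ + brjlHom X y k₀ k₁ k₃ -
      brjlHom X y k₀ k₁ k₂ = 0 := by
  unfold brjlHom
  have hab : k₀⁻¹ * k₂ = k₀⁻¹ * k₁ * (k₁⁻¹ * k₂) := by group
  have hbd : k₁⁻¹ * k₃ = k₁⁻¹ * k₂ * (k₂⁻¹ * k₃) := by group
  have h := congrArg (X.ρ k₀)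
    ((mem_cocycles₂_def y).1 hy (k₀⁻¹ * k₁) (k₁⁻¹ * k₂) (k₂⁻¹ * k₃))
  rw [map_sub, map_add, map_sub, map_zero, ← brjl_ρ_mul, mul_inv_cancel_left, ← hab, ← hbd] at h
  exact h

lemma brjlHom_inv {y : Kt × Kt → X.V} (N : Subgroup Kt) [hN : N.Normal] (hy : Desc₂ X N y)
    (k₀ k₁ k₂ s₀ s₁ s₂ : Kt) (hs₀ : s₀ ∈ N) (hs₁ : s₁ ∈ N) (hs₂ : s₂ ∈ N) :
    brjlHom X y (k₀ * s₀) (k₁ * s₁) (k₂ * s₂) = brjlHom X y k₀ k₁ k₂ := by
  unfold brjlHom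
  have e1 : (k₀ * s₀)⁻¹ * (k₁ * s₁) =
      k₀⁻¹ * k₁ * ((k₀⁻¹ * k₁)⁻¹ * s₀⁻¹ * (k₀⁻¹ * k₁) * s₁) := by group
  have e2 : (k₁ * s₁)⁻¹ * (k₂ * s₂) =
      k₁⁻¹ * k₂ * ((k₁⁻¹ * k₂)⁻¹ * s₁⁻¹ * (k₁⁻¹ * k₂) * s₂) := by group
  have hm1 : (k₀⁻¹ * k₁)⁻¹ * s₀⁻¹ * (k₀⁻¹ * k₁) * s₁ ∈ N := by
    refine N.mul_mem ?_ hs₁
    have := hN.conj_mem s₀⁻¹ (N.inv_mem hs₀) (k₀⁻¹ * k₁)⁻¹
    simpa using this
  have hm2 : (k₁⁻¹ * k₂)⁻¹ * s₁⁻¹ * (k₁⁻¹ * k₂) * s₂ ∈ N := by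
    refine N.mul_mem ?_ hs₂
    have := hN.conj_mem s₁⁻¹ (N.inv_mem hs₁) (k₁⁻¹ * k₂)⁻¹
    simpa using this
  rw [e1, e2, hy.1 _ _ _ _ hm1 hm2, brjl_ρ_mul, hy.2 _ s₀ hs₀]

lemma brjlHom₁_equiv (t : Kt → X.V) (k k₀ k₁ : Kt) :
    brjlHom₁ X t (k * k₀) (k * k₁) = X.ρ k (brjlHom₁ X t k₀ k₁) := by
  unfold brjlHom₁
  have e1 : (k * k₀)⁻¹ * (k * k₁) = k₀⁻¹ * k₁ := by group
  rw [e1, brjl_ρ_mul]

lemma brjlHom₁_inv {t : Kt → X.V} (N : Subgroup Kt) [hN : N.Normal] (ht : Desc₁ X N t)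
    (k₀ k₁ s₀ s₁ : Kt) (hs₀ : s₀ ∈ N) (hs₁ : s₁ ∈ N) :
    brjlHom₁ X t (k₀ * s₀) (k₁ * s₁) = brjlHom₁ X t k₀ k₁ := by
  unfold brjlHom₁
  have e1 : (k₀ * s₀)⁻¹ * (k₁ * s₁) =
      k₀⁻¹ * k₁ * ((k₀⁻¹ * k₁)⁻¹ * s₀⁻¹ * (k₀⁻¹ * k₁) * s₁) := by group
  have hm1 : (k₀⁻¹ * k₁)⁻¹ * s₀⁻¹ * (k₀⁻¹ * k₁) * s₁ ∈ N := by
    refine N.mul_mem ?_ hs₁
    have := hN.conj_mem s₀⁻¹ (N.inv_mem hs₀) (k₀⁻¹ * k₁)⁻¹
    simpa using this
  rw [e1, ht.1 _ _ hm1, brjl_ρ_mul, ht.2 _ s₀ hs₀]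

lemma brjlHom_d (t : Kt → X.V) (k₀ k₁ k₂ : Kt) :
    brjlHom X ((d₁₂ X).hom t) k₀ k₁ k₂ =
      brjlHom₁ X t k₁ k₂ - brjlHom₁ X t k₀ k₂ + brjlHom₁ X t k₀ k₁ := by
  unfold brjlHom brjlHom₁
  simp only
  rw [d₁₂_hom_apply]
  simp only
  have hab : k₀⁻¹ * k₁ * (k₁⁻¹ * k₂) = k₀⁻¹ * k₂ := by group
  rw [map_add, map_sub, ← brjl_ρ_mul, mul_inv_cancel_left, hab]

lemma brjlHom_sub_nsmul (y y' : Kt × Kt → X.V) (n : ℕ) (k₀ k₁ k₂ : Kt) :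
    brjlHom X (y - n • y') k₀ k₁ k₂ = brjlHom X y k₀ k₁ k₂ - n • brjlHom X y' k₀ k₁ k₂ := by
  unfold brjlHom
  simp only [Pi.sub_apply, Pi.smul_apply]
  rw [map_sub, map_nsmul]

lemma brjlHom_nsmul (y : Kt × Kt → X.V) (n : ℕ) (k₀ k₁ k₂ : Kt) :
    brjlHom X (n • y) k₀ k₁ k₂ = n • brjlHom X y k₀ k₁ k₂ := by
  unfold brjlHom
  simp only [Pi.smul_apply]
  rw [map_nsmul]

end Abstract

section Finite

/-- a `p`-fundamental class of a finite group of order divisible by `p` has a multiple of exact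
order `p` -/
theorem brjl_exists_order_p (p : ℕ) [hp : Fact p.Prime] {Γ : Type} [Group Γ] [Finite Γ]
    (C : Rep.{0} ℤ Γ) (u : H2 C) (hu : IsPFundClass p C u) (hpΓ : p ∣ Nat.card Γ) :
    ∃ m : ℕ, m • u ≠ 0 ∧ p • (m • u) = 0 := by
  classical
  obtain ⟨Q⟩ : Nonempty (Sylow p Γ) := inferInstance
  set P : Subgroup Γ := (Q : Subgroup Γ) with hP
  have hPp : IsPGroup p P := Q.2
  have hcard : Nat.card P * P.index = Nat.card Γ := Subgroup.card_mul_index P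
  have hpP : p ∣ Nat.card P := by
    have h1 : p ∣ Nat.card P * P.index := hcard ▸ hpΓ
    rcases (Nat.Prime.dvd_mul hp.out).1 h1 with h | h
    · exact h
    · exact absurd h Q.not_dvd_index
  have hbot : Subsingleton (H2 (Rep.res (⊥ : Subgroup Γ).subtype C)) := by
    have h := hu.h2_card ⊥ IsPGroup.of_bot
    rw [Subgroup.card_bot] at h
    exact (Nat.card_eq_one_iff_unique.1 h).1
  have hkill : Nat.card Γ • u = 0 := by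
    have := SylowRes.index_smul_eq_zero_of_res_eq_zero (⊥ : Subgroup Γ) 1 C u
      (Subsingleton.elim _ _)
    rwa [Subgroup.index_bot] at this
  have hfin : IsOfFinAddOrder u :=
    isOfFinAddOrder_iff_nsmul_eq_zero.2 ⟨Nat.card Γ, Nat.card_pos, hkill⟩
  have hm₀pos : 0 < addOrderOf u := hfin.addOrderOf_pos
  have hm₀g : ((addOrderOf u : ℕ) : ℤ) • (resSub C P 2).hom u = 0 := by
    rw [natCast_zsmul, ← map_nsmul, addOrderOf_nsmul_eq_zero, map_zero]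
  have hdvd : (Nat.card P : ℤ) ∣ ((addOrderOf u : ℕ) : ℤ) :=
    j2f_dvd_of_zsmul_eq_zero ((resSub C P 2).hom u) (Nat.card P) (hu.h2_card P hPp)
      (hu.h2_gen P hPp) _ hm₀g
  have hpm₀ : p ∣ addOrderOf u := hpP.trans (Int.natCast_dvd_natCast.1 hdvd)
  obtain ⟨m, hm⟩ := hpm₀
  refine ⟨m, ?_, ?_⟩
  · intro h0
    have h1 : addOrderOf u ∣ m := addOrderOf_dvd_of_nsmul_eq_zero h0
    have hmpos : 0 < m := by
      rcases Nat.eq_zero_or_pos m with h | h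
      · rw [h, mul_zero] at hm
        omega
      · exact h
    have h2 : addOrderOf u ≤ m := Nat.le_of_dvd hmpos h1
    have h3 : 2 ≤ p := hp.out.two_le
    nlinarith
  · rw [← mul_smul, ← hm]
    exact addOrderOf_nsmul_eq_zero u

end Finite

section Level

variable {Kt : Type} [Group Kt] {𝒯 : Tower Kt} {X : Rep.{0} ℤ Kt}

/-- injectivity of the inflation on `p`-primary classes, for primitives which descend -/
theorem brjl_infl_inj (p : ℕ) [Fact p.Prime] (hcm : HasPFund 𝒯 X p) {N N' : Subgroup Kt}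
    [N.Normal] [N'.Normal] (hN : N ∈ 𝒯.lev) (hN' : N' ∈ 𝒯.lev) (hle : N' ≤ N)
    (y : cocycles₂ (X.quotientToInvariants N)) (hp : IsPTors p (H2π _ y))
    (t : Kt → X.V) (htd : Desc₁ X N' t) (hty : (d₁₂ X).hom t = infl₂ X N y) :
    H2π _ y = 0 := by
  have hfin := 𝒯.finiteIndex N' hN'
  have : Finite (Kt ⧸ N') := Subgroup.finite_quotient_of_finiteIndex
  have h1 : trans₂ X hle y = (d₁₂ (X.quotientToInvariants N')).hom (descend₁ t htd) := by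
    apply infl₂_injective
    rw [infl₂_trans₂, infl₂_d₁₂, infl₁_descend₁, hty]
  have h2 : (groupCohomology.map (transHom hle) (transRep X hle) 2).hom (H2π _ y) = 0 := by
    rw [map_trans_H2π, H2π_eq_zero_iff]
    exact ⟨descend₁ t htd, h1.symm⟩
  obtain ⟨u, hu⟩ := hcm N' hN'
  refine stmtInflInjFin p (Kt ⧸ N') (Kt ⧸ N) (transHom hle) (transHom_surjective hle)
    (X.quotientToInvariants N') (X.quotientToInvariants N) (transRep X hle) ?_ ?_ hu.h1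
    (H2π _ y) hp h2
  · intro a b hab
    have hab' : (a.1 : X.V) = b.1 :=
      congrArg (fun z : (X.quotientToInvariants N').V => (z.1 : X.V)) hab
    exact Subtype.ext hab'
  · intro c hc
    refine ⟨⟨c.1, fun s => ?_⟩, rfl⟩
    have h3 : transHom hle ((s : Kt) : Kt ⧸ N') = 1 := by
      rw [transHom_mk]
      exact (QuotientGroup.eq_one_iff _).2 s.2
    exact congrArg Subtype.val (hc _ h3)

/-- cyclicity of the `p`-torsion at a finite level -/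
theorem brjl_cyc (p : ℕ) [Fact p.Prime] (hcm : HasPFund 𝒯 X p) {N : Subgroup Kt} [N.Normal]
    (hN : N ∈ 𝒯.lev) (a b : H2 (X.quotientToInvariants N)) (hpa : p • a = 0) (hpb : p • b = 0)
    (hne : a ≠ 0) : ∃ n : ℕ, b = n • a := by
  have hfin := 𝒯.finiteIndex N hN
  have : Finite (Kt ⧸ N) := Subgroup.finite_quotient_of_finiteIndex
  obtain ⟨u, hu⟩ := hcm N hN
  exact stmtH2pCyclic p (Kt ⧸ N) (X.quotientToInvariants N) u hu a b hpa hpb hne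

variable (p : ℕ) [Fact p.Prime] (hcm : HasPFund 𝒯 X p) {N₁ : Subgroup Kt} [N₁.Normal]
  (hN₁ : N₁ ∈ 𝒯.lev) (y₁ : cocycles₂ (X.quotientToInvariants N₁))
  (hy₁ne : H2π _ y₁ ≠ 0) (hy₁p : p • H2π _ y₁ = 0)

include hy₁p in
/-- (1′) `p ŷ` is the coboundary of a cochain defined at the level `N₁` -/
theorem brjl_abs_one : ∃ t : Kt → X.V, Desc₁ X N₁ t ∧ (d₁₂ X).hom t = p • infl₂ X N₁ y₁ := by
  have h : H2π _ (p • y₁) = 0 := by rw [map_nsmul]; exact hy₁p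
  obtain ⟨tb, htb⟩ := (H2π_eq_zero_iff _).1 h
  refine ⟨infl₁ X N₁ tb, desc₁_infl₁ tb, ?_⟩
  rw [← infl₂_d₁₂, htb, ← infl₂_nsmul]
  rfl

include hcm hN₁ hy₁ne hy₁p in
/-- (3′) `ŷ` is not the coboundary of a cochain defined at some level -/
theorem brjl_abs_three {N' : Subgroup Kt} (hN' : N' ∈ 𝒯.lev) (t : Kt → X.V)
    (ht : Desc₁ X N' t) : (d₁₂ X).hom t ≠ infl₂ X N₁ y₁ := by
  intro hty
  obtain ⟨N'', hN'', hle1, hle2, hn⟩ := tower_exists_normal_le₂ 𝒯 hN' hN₁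
  have := hn
  exact hy₁ne (brjl_infl_inj p hcm hN₁ hN'' hle2 y₁ ⟨1, by rw [pow_one]; exact hy₁p⟩ t
    (ht.mono hle1) hty)

include hcm hN₁ hy₁ne hy₁p in
/-- (4′) every cocycle defined at some level with `p`-torsion class is a multiple of `ŷ` up to the
coboundary of a cochain defined at some level -/
theorem brjl_abs_four {N' : Subgroup Kt} (hN' : N' ∈ 𝒯.lev) (c : Kt × Kt → X.V)
    (hc : c ∈ cocycles₂ X) (hcd : Desc₂ X N' c) (t : Kt → X.V) (ht : Desc₁ X N' t)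
    (htc : (d₁₂ X).hom t = p • c) :
    ∃ n : ℕ, ∃ N'' ∈ 𝒯.lev, N''.Normal ∧ N'' ≤ N' ∧ N'' ≤ N₁ ∧ ∃ t' : Kt → X.V,
      Desc₁ X N'' t' ∧ (d₁₂ X).hom t' = c - n • infl₂ X N₁ y₁ := by
  obtain ⟨N'', hN'', hle1, hle2, hn⟩ := tower_exists_normal_le₂ 𝒯 hN' hN₁
  have := hn
  have hcd' : Desc₂ X N'' c := hcd.mono hle1
  have htd' : Desc₁ X N'' t := ht.mono hle1
  have hac : descend₂ c hcd' ∈ cocycles₂ (X.quotientToInvariants N'') := by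
    rw [← infl₂_mem_cocycles₂_iff, infl₂_descend₂]
    exact hc
  set a' : cocycles₂ (X.quotientToInvariants N'') := ⟨_, hac⟩ with ha'
  set y' : cocycles₂ (X.quotientToInvariants N'') :=
    ⟨trans₂ X hle2 y₁, trans₂_mem_cocycles₂ X hle2 y₁ y₁.2⟩ with hy'
  have hpa : p • (H2π _ a' : H2 (X.quotientToInvariants N'')) = 0 := by
    rw [← map_nsmul, H2π_eq_zero_iff]
    refine ⟨descend₁ t htd', ?_⟩
    apply infl₂_injective
    rw [infl₂_d₁₂, infl₁_descend₁, htc]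
    show _ = infl₂ X N'' (p • descend₂ c hcd')
    rw [infl₂_nsmul, infl₂_descend₂]
  have hy'map : (H2π _ y' : H2 (X.quotientToInvariants N'')) =
      (groupCohomology.map (transHom hle2) (transRep X hle2) 2).hom (H2π _ y₁) :=
    (map_trans_H2π X hle2 y₁).symm
  have hpy : p • (H2π _ y' : H2 (X.quotientToInvariants N'')) = 0 := by
    rw [hy'map, ← map_nsmul, hy₁p, map_zero]
  have hne : (H2π _ y' : H2 (X.quotientToInvariants N'')) ≠ 0 := by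
    intro h0
    obtain ⟨tb, htb⟩ := (H2π_eq_zero_iff _).1 h0
    refine brjl_abs_three p hcm hN₁ y₁ hy₁ne hy₁p hN'' (infl₁ X N'' tb)
      (desc₁_infl₁ tb) ?_
    rw [← infl₂_d₁₂, htb]
    exact infl₂_trans₂ X hle2 y₁
  obtain ⟨n, hn'⟩ := brjl_cyc p hcm hN'' _ _ hpy hpa hne
  have h5 : (H2π _ (a' - n • y') : H2 (X.quotientToInvariants N'')) = 0 := by
    rw [map_sub, map_nsmul, hn', sub_self]
  obtain ⟨tb, htb⟩ := (H2π_eq_zero_iff _).1 h5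
  refine ⟨n, N'', hN'', hn, hle1, hle2, infl₁ X N'' tb, desc₁_infl₁ tb, ?_⟩
  rw [← infl₂_d₁₂, htb]
  show infl₂ X N'' (descend₂ c hcd' - n • trans₂ X hle2 y₁) = _
  rw [infl₂_sub, infl₂_nsmul, infl₂_descend₂, infl₂_trans₂]

end Level

end Fermat.Agent.TW.E

end


end ZBTW_032_1

/-! ### bundled: `Fermat.Agent.TW.E.BrJLoc` -/
section ZBTW_032_2
/-
TW-E / E-cyc / K-BrJ, LOCAL piece (helper55): `stmtBrJLoc : StmtBrJLoc` (TW/E/BrJLocPlan.lean).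
`K = r_v⁻¹ U`; the tower of `K` cut out by the pulled-back normal global levels; `X = Res_K J_v`
has `p`-fundamental classes (`cm_loc` + `h2pcycu_transport`).  `U₁` from `HasPDepthGlob`,
`u₀` the class of `cm_loc` at `W₁ = r_v⁻¹ U₁`, `ũ` a cocycle representing `m u₀` with
`m · res_K u₀` of exact order `p` (`brjl_exists_order_p`), `u = brjlHom (infl ũ)`.
(1), (3), (4) are `brjl_abs_one`, `brjl_abs_three`, `brjl_abs_four` through the dictionary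
homogeneous ↔ inhomogeneous.
-/

set_option autoImplicit false
set_option linter.unusedSectionVars false
set_option linter.unusedVariables false
set_option linter.style.haveILetI false

noncomputable section

namespace Fermat.Agent.TW.E

open CategoryTheory groupCohomology Fermat.Agent.PT Fermat.Agent.PT.F Fermat.Agent.TW.F

attribute [local instance 1100] Rep.hV2

section Tower

variable {p : ℕ} {G : Type} [Group G] {ι : Type} {Gloc : ι → Type} [∀ v, Group (Gloc v)]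
  (D : PTDatum p G ι Gloc) (v : ι)

/-- the tower of `G_v` of the pulled-back global levels -/
def brjlTower : Tower (Gloc v) where
  lev := {V | ∃ U' ∈ D.𝒯.lev, V = U'.comap (D.r v)}
  top_mem := ⟨⊤, D.𝒯.top_mem, rfl⟩
  inf_mem := by
    rintro _ _ ⟨U, hU, rfl⟩ ⟨U', hU', rfl⟩
    exact ⟨U ⊓ U', D.𝒯.inf_mem U U' hU hU', rfl⟩
  finiteIndex := by
    rintro _ ⟨U, hU, rfl⟩
    exact (D.𝒯loc v).finiteIndex _ (D.comap_mem v U hU)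
  exists_normal := by
    rintro _ ⟨U, hU, rfl⟩
    obtain ⟨V, hV, hVU, hVn⟩ := D.𝒯.exists_normal U hU
    exact ⟨V.comap (D.r v), ⟨V, hV, rfl⟩, Subgroup.comap_mono hVU, hVn.comap _⟩

lemma brjl_hasPFund : HasPFund (brjlTower D v) (D.Jloc v) p := by
  intro V hVn hV
  obtain ⟨U', hU', rfl⟩ := hV
  exact D.cm_loc v _ (D.comap_mem v U' hU')

end Tower

section Core

variable {H : Type} [Group H] (𝒯 : Tower H) (Y : Rep.{0} ℤ H) (p : ℕ) [Fact p.Prime]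

/-- the abstract form of `StmtBrJLoc`: a group `H` with a tower, a module with `p`-fundamental
classes, normal levels `W₁ ≤ K` with `p ∣ [K : W₁]`. -/
theorem brjl_core (hcm : HasPFund 𝒯 Y p) (K W₁ : Subgroup H) (hKn : K.Normal) (hK : K ∈ 𝒯.lev)
    (hW₁n : W₁.Normal) (hW₁ : W₁ ∈ 𝒯.lev) (hW₁K : W₁ ≤ K) (hpd : p ∣ W₁.relIndex K) :
    ∃ u : H → H → H → Y.V,
      (∀ d d₀ d₁ d₂ : H, u (d * d₀) (d * d₁) (d * d₂) = Y.ρ d (u d₀ d₁ d₂)) ∧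
      (∀ d₀ d₁ d₂ d₃ : H, u d₁ d₂ d₃ - u d₀ d₂ d₃ + u d₀ d₁ d₃ - u d₀ d₁ d₂ = 0) ∧
      (∀ d₀ d₁ d₂ s₀ s₁ s₂ : H, s₀ ∈ W₁ → s₁ ∈ W₁ → s₂ ∈ W₁ →
        u (d₀ * s₀) (d₁ * s₁) (d₂ * s₂) = u d₀ d₁ d₂) ∧
      (∃ t : K → K → Y.V,
        (∀ k k₀ k₁ : K, t (k * k₀) (k * k₁) = Y.ρ (k : H) (t k₀ k₁)) ∧
        (∀ k₀ k₁ s₀ s₁ : K, (s₀ : H) ∈ W₁ → (s₁ : H) ∈ W₁ → t (k₀ * s₀) (k₁ * s₁) = t k₀ k₁) ∧
        ∀ k₀ k₁ k₂ : K, p • u k₀ k₁ k₂ = t k₁ k₂ - t k₀ k₂ + t k₀ k₁) ∧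
      (∀ W₃ ∈ 𝒯.lev, ∀ t : K → K → Y.V,
        (∀ k k₀ k₁ : K, t (k * k₀) (k * k₁) = Y.ρ (k : H) (t k₀ k₁)) →
        (∀ k₀ k₁ s₀ s₁ : K, (s₀ : H) ∈ W₃ → (s₁ : H) ∈ W₃ → t (k₀ * s₀) (k₁ * s₁) = t k₀ k₁) →
        ¬ ∀ k₀ k₁ k₂ : K, u k₀ k₁ k₂ = t k₁ k₂ - t k₀ k₂ + t k₀ k₁) ∧
      (∀ W₂ ∈ 𝒯.lev, ∀ c : K → K → K → Y.V,
        (∀ k k₀ k₁ k₂ : K, c (k * k₀) (k * k₁) (k * k₂) = Y.ρ (k : H) (c k₀ k₁ k₂)) →
        (∀ k₀ k₁ k₂ k₃ : K, c k₁ k₂ k₃ - c k₀ k₂ k₃ + c k₀ k₁ k₃ - c k₀ k₁ k₂ = 0) →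
        (∀ k₀ k₁ k₂ s₀ s₁ s₂ : K, (s₀ : H) ∈ W₂ → (s₁ : H) ∈ W₂ → (s₂ : H) ∈ W₂ →
          c (k₀ * s₀) (k₁ * s₁) (k₂ * s₂) = c k₀ k₁ k₂) →
        ∀ t : K → K → Y.V,
        (∀ k k₀ k₁ : K, t (k * k₀) (k * k₁) = Y.ρ (k : H) (t k₀ k₁)) →
        (∀ k₀ k₁ s₀ s₁ : K, (s₀ : H) ∈ W₂ → (s₁ : H) ∈ W₂ → t (k₀ * s₀) (k₁ * s₁) = t k₀ k₁) →
        (∀ k₀ k₁ k₂ : K, p • c k₀ k₁ k₂ = t k₁ k₂ - t k₀ k₂ + t k₀ k₁) →
        ∃ a : ℕ, ∃ W ∈ 𝒯.lev, ∃ t' : K → K → Y.V,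
          (∀ k k₀ k₁ : K, t' (k * k₀) (k * k₁) = Y.ρ (k : H) (t' k₀ k₁)) ∧
          (∀ k₀ k₁ s₀ s₁ : K, (s₀ : H) ∈ W → (s₁ : H) ∈ W → t' (k₀ * s₀) (k₁ * s₁) = t' k₀ k₁) ∧
          ∀ k₀ k₁ k₂ : K, c k₀ k₁ k₂ - a • u k₀ k₁ k₂ = t' k₁ k₂ - t' k₀ k₂ + t' k₀ k₁) := by
  haveI := hKn
  haveI := hW₁n
  -- the finite level `W₁` and its class
  haveI := 𝒯.finiteIndex W₁ hW₁
  haveI : Finite (H ⧸ W₁) := Subgroup.finite_quotient_of_finiteIndex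
  obtain ⟨u₀, hu₀⟩ := hcm W₁ hW₁
  -- the tower of `K`
  have hcmK : HasPFund (h2pcycuTower 𝒯 K hK hKn) (Rep.res K.subtype Y) p :=
    h2pcycu_hasPFund hK hKn Y p hcm
  have hN₁ : W₁.subgroupOf K ∈ (h2pcycuTower 𝒯 K hK hKn).lev := ⟨W₁, hW₁, hW₁n, hW₁K, rfl⟩
  haveI := (h2pcycuTower 𝒯 K hK hKn).finiteIndex _ hN₁
  haveI : Finite (↥K ⧸ W₁.subgroupOf K) := Subgroup.finite_quotient_of_finiteIndex
  have hpK : p ∣ Nat.card (↥K ⧸ W₁.subgroupOf K) := by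
    rw [← Subgroup.index_eq_card]
    exact hpd
  -- the transported class and its multiple of order `p`
  have huK := h2pcycu_transport (p := p) (h2pcycu_φ K W₁) (h2pcycu_φ_injective K W₁)
    (Y.quotientToInvariants W₁) ((Rep.res K.subtype Y).quotientToInvariants (W₁.subgroupOf K))
    (h2pcycu_e Y K W₁ hW₁K) (h2pcycu_e_comm Y K W₁ hW₁K) u₀ hu₀
  obtain ⟨m, hmne, hmp⟩ := brjl_exists_order_p p _ _ huK hpK
  -- cocycles
  obtain ⟨ũ₀, hũ₀⟩ : ∃ ũ : cocycles₂ (Y.quotientToInvariants W₁), H2π _ ũ = u₀ := by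
    induction u₀ using H2_induction_on with
    | h x => exact ⟨x, rfl⟩
  set y₁ : cocycles₂ ((Rep.res K.subtype Y).quotientToInvariants (W₁.subgroupOf K)) :=
    mapCocycles₂ (h2pcycu_φ K W₁)
      (h2pcycu_hom (h2pcycu_φ K W₁) (Y.quotientToInvariants W₁)
        ((Rep.res K.subtype Y).quotientToInvariants (W₁.subgroupOf K))
        (h2pcycu_e Y K W₁ hW₁K) (h2pcycu_e_comm Y K W₁ hW₁K)) (m • ũ₀) with hy₁def
  have hy₁ : H2π _ y₁ = m • (groupCohomology.map (h2pcycu_φ K W₁)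
      (h2pcycu_hom (h2pcycu_φ K W₁) (Y.quotientToInvariants W₁)
        ((Rep.res K.subtype Y).quotientToInvariants (W₁.subgroupOf K))
        (h2pcycu_e Y K W₁ hW₁K) (h2pcycu_e_comm Y K W₁ hW₁K)) 2).hom u₀ := by
    rw [hy₁def, ← H2π_comp_map_apply, map_nsmul, map_nsmul, hũ₀]
  have hy₁ne : H2π _ y₁ ≠ 0 := by rw [hy₁]; exact hmne
  have hy₁p : p • H2π _ y₁ = 0 := by rw [hy₁]; exact hmp
  -- the cocycle on `H`
  have hũcoc : infl₂ Y W₁ ((m • ũ₀ : cocycles₂ (Y.quotientToInvariants W₁)) :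
      (H ⧸ W₁) × (H ⧸ W₁) → (Y.quotientToInvariants W₁).V) ∈ cocycles₂ Y :=
    (infl₂_mem_cocycles₂_iff _).2 (m • ũ₀).2
  have hres : ∀ k₀ k₁ k₂ : K,
      brjlHom Y (infl₂ Y W₁ ((m • ũ₀ : cocycles₂ (Y.quotientToInvariants W₁)) :
        (H ⧸ W₁) × (H ⧸ W₁) → (Y.quotientToInvariants W₁).V)) (k₀ : H) (k₁ : H) (k₂ : H) =
      brjlHom (Rep.res K.subtype Y) (infl₂ (Rep.res K.subtype Y) (W₁.subgroupOf K) y₁)
        k₀ k₁ k₂ := fun k₀ k₁ k₂ => rfl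
  refine ⟨brjlHom Y (infl₂ Y W₁ ((m • ũ₀ : cocycles₂ (Y.quotientToInvariants W₁)) :
      (H ⧸ W₁) × (H ⧸ W₁) → (Y.quotientToInvariants W₁).V)),
    fun d d₀ d₁ d₂ => brjlHom_equiv _ d d₀ d₁ d₂,
    fun d₀ d₁ d₂ d₃ => brjlHom_cocycle hũcoc d₀ d₁ d₂ d₃,
    fun d₀ d₁ d₂ s₀ s₁ s₂ hs₀ hs₁ hs₂ =>
      brjlHom_inv W₁ (desc₂_infl₂ _) d₀ d₁ d₂ s₀ s₁ s₂ hs₀ hs₁ hs₂, ?_, ?_, ?_⟩
  · -- (1)
    obtain ⟨t, htd, htp⟩ := brjl_abs_one p y₁ hy₁p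
    refine ⟨brjlHom₁ (Rep.res K.subtype Y) t, fun k k₀ k₁ => brjlHom₁_equiv t k k₀ k₁,
      fun k₀ k₁ s₀ s₁ hs₀ hs₁ => brjlHom₁_inv (W₁.subgroupOf K) htd k₀ k₁ s₀ s₁ hs₀ hs₁,
      fun k₀ k₁ k₂ => ?_⟩
    rw [hres, ← brjlHom_nsmul, ← htp, brjlHom_d]
  · -- (3)
    intro W₃ hW₃ t ht1 ht3 hd
    obtain ⟨W', hW', hle1, hle2, hW'n⟩ := tower_exists_normal_le₂ 𝒯 hW₃ hK
    haveI := hW'n
    have hN' : W'.subgroupOf K ∈ (h2pcycuTower 𝒯 K hK hKn).lev := ⟨W', hW', hW'n, hle2, rfl⟩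
    have htd : Desc₁ (Rep.res K.subtype Y) (W'.subgroupOf K)
        (brjlHat₁ (Rep.res K.subtype Y) t) :=
      brjlHat₁_desc₁ (W'.subgroupOf K) ht1
        (fun k₀ k₁ s₀ s₁ hs₀ hs₁ => ht3 k₀ k₁ s₀ s₁ (hle1 hs₀) (hle1 hs₁))
    have h1 : (d₁₂ (Rep.res K.subtype Y)).hom (brjlHat₁ (Rep.res K.subtype Y) t) =
        brjlHat (Rep.res K.subtype Y)
          (brjlHom (Rep.res K.subtype Y)
            (infl₂ (Rep.res K.subtype Y) (W₁.subgroupOf K) y₁)) :=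
      brjlHat_d ht1 (fun k₀ k₁ k₂ => (hres k₀ k₁ k₂).symm.trans (hd k₀ k₁ k₂))
    rw [brjlHat_hom] at h1
    exact brjl_abs_three p hcmK hN₁ y₁ hy₁ne hy₁p hN' _ htd h1
  · -- (4)
    intro W₂ hW₂ c hc1 hc2 hc3 t ht1 ht3 hd
    obtain ⟨W', hW', hle1, hle2, hW'n⟩ := tower_exists_normal_le₂ 𝒯 hW₂ hK
    haveI := hW'n
    have hN' : W'.subgroupOf K ∈ (h2pcycuTower 𝒯 K hK hKn).lev := ⟨W', hW', hW'n, hle2, rfl⟩
    have hcd : Desc₂ (Rep.res K.subtype Y) (W'.subgroupOf K)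
        (brjlHat (Rep.res K.subtype Y) c) :=
      brjlHat_desc₂ (W'.subgroupOf K) hc1
        (fun k₀ k₁ k₂ s₀ s₁ s₂ hs₀ hs₁ hs₂ =>
          hc3 k₀ k₁ k₂ s₀ s₁ s₂ (hle1 hs₀) (hle1 hs₁) (hle1 hs₂))
    have htd : Desc₁ (Rep.res K.subtype Y) (W'.subgroupOf K)
        (brjlHat₁ (Rep.res K.subtype Y) t) :=
      brjlHat₁_desc₁ (W'.subgroupOf K) ht1
        (fun k₀ k₁ s₀ s₁ hs₀ hs₁ => ht3 k₀ k₁ s₀ s₁ (hle1 hs₀) (hle1 hs₁))
    have hcc : brjlHat (Rep.res K.subtype Y) c ∈ cocycles₂ (Rep.res K.subtype Y) :=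
      brjlHat_mem_cocycles₂ hc1 hc2
    have h1 : (d₁₂ (Rep.res K.subtype Y)).hom (brjlHat₁ (Rep.res K.subtype Y) t) =
        p • brjlHat (Rep.res K.subtype Y) c :=
      (brjlHat_d (X := Rep.res K.subtype Y) (c := fun k₀ k₁ k₂ => p • c k₀ k₁ k₂) (t := t)
        ht1 hd).trans (by funext ab; rfl)
    obtain ⟨n, N'', hN'', hN''n, -, -, t', ht'd, ht'⟩ :=
      brjl_abs_four p hcmK hN₁ y₁ hy₁ne hy₁p hN' _ hcc hcd _ htd h1
    obtain ⟨W'', hW'', -, -, rfl⟩ := hN''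
    refine ⟨n, W'', hW'', brjlHom₁ (Rep.res K.subtype Y) t',
      fun k k₀ k₁ => brjlHom₁_equiv t' k k₀ k₁,
      fun k₀ k₁ s₀ s₁ hs₀ hs₁ =>
        haveI := hN''n
        brjlHom₁_inv (W''.subgroupOf K) ht'd k₀ k₁ s₀ s₁ hs₀ hs₁,
      fun k₀ k₁ k₂ => ?_⟩
    rw [hres, ← brjlHom_d, ht', brjlHom_sub_nsmul, brjlHom_hat hc1]

end Core

/-- **K-BrJ / LOC**: `H²_lev(r_v⁻¹ U, J_v)[p] = ℤ/p · [u]` with `u` defined on `G_v`. -/
theorem stmtBrJLoc : StmtBrJLoc := by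
  intro p hp G _ ι _ Gloc _ D hdepth v U hU hUn
  obtain ⟨U₁, hU₁, hU₁U, hU₁n, hpd⟩ := hdepth v U hU
  obtain ⟨u, hu1, hu2, hu3, h1, h3, h4⟩ :=
    brjl_core (brjlTower D v) (D.Jloc v) p (brjl_hasPFund D v)
      (U.comap (D.r v)) (U₁.comap (D.r v)) (hUn.comap _) ⟨U, hU, rfl⟩ (hU₁n.comap _)
      ⟨U₁, hU₁, rfl⟩ (Subgroup.comap_mono hU₁U) hpd
  refine ⟨u, hu1, hu2, ⟨U₁, hU₁, hU₁U, hU₁n,
    fun d₀ d₁ d₂ s₀ s₁ s₂ hs₀ hs₁ hs₂ => hu3 d₀ d₁ d₂ s₀ s₁ s₂ hs₀ hs₁ hs₂⟩, ?_, ?_, ?_⟩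
  · obtain ⟨t, ht1, ht3, hd⟩ := h1
    exact ⟨t, ht1, ⟨U₁, hU₁, fun k₀ k₁ s₀ s₁ hs₀ hs₁ => ht3 k₀ k₁ s₀ s₁ hs₀ hs₁⟩, hd⟩
  · rintro ⟨t, ht1, ⟨U₃, hU₃, ht3⟩, hd⟩
    exact h3 (U₃.comap (D.r v)) ⟨U₃, hU₃, rfl⟩ t ht1
      (fun k₀ k₁ s₀ s₁ hs₀ hs₁ => ht3 k₀ k₁ s₀ s₁ hs₀ hs₁) hd
  · rintro c hc1 hc2 ⟨U₂, hU₂, hc3⟩ ⟨t, ht1, ⟨U₃, hU₃, ht3⟩, hd⟩
    obtain ⟨a, W, ⟨U', hU', rfl⟩, t', ht'1, ht'3, hd'⟩ :=
      h4 ((U₂ ⊓ U₃).comap (D.r v)) ⟨U₂ ⊓ U₃, D.𝒯.inf_mem _ _ hU₂ hU₃, rfl⟩ c hc1 hc2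
        (fun k₀ k₁ k₂ s₀ s₁ s₂ hs₀ hs₁ hs₂ => hc3 k₀ k₁ k₂ s₀ s₁ s₂
          (Subgroup.mem_inf.1 (Subgroup.mem_comap.1 hs₀)).1
          (Subgroup.mem_inf.1 (Subgroup.mem_comap.1 hs₁)).1
          (Subgroup.mem_inf.1 (Subgroup.mem_comap.1 hs₂)).1) t ht1
        (fun k₀ k₁ s₀ s₁ hs₀ hs₁ => ht3 k₀ k₁ s₀ s₁
          (Subgroup.mem_inf.1 (Subgroup.mem_comap.1 hs₀)).2
          (Subgroup.mem_inf.1 (Subgroup.mem_comap.1 hs₁)).2) hd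
    exact ⟨a, t', ht'1, ⟨U', hU', fun k₀ k₁ s₀ s₁ hs₀ hs₁ => ht'3 k₀ k₁ s₀ s₁ hs₀ hs₁⟩, hd'⟩

end Fermat.Agent.TW.E

end


end ZBTW_032_2
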