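/- GENERATED FILE (helper35, build-time optimisation, NOTES/ZB.md): verbatim concatenation of the modules
   Fermat.Agent.TW.G.KillAll
   Fermat.Agent.TW.G.LevFin
   Fermat.Agent.TW.G.KillAllFinal
   Fermat.Agent.TW.G.KillGen
   Fermat.Agent.RT.K3.Kill
   Do not edit; do not import together with these modules. -/
import Fermat.Agent.ZB.TW_018
import Fermat.Agent.ZB.TW_014
import Fermat.Agent.ZB.TW_015
import Fermat.Agent.ZB.PT_046
import Fermat.Agent.ZB.PT_084
import Fermat.Agent.ZB.PT_069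
import Fermat.Agent.ZB.TW_012
import Fermat.Agent.ZB.TW_010

/-! ### bundled: `Fermat.Agent.TW.G.KillAll` -/
section ZBTW_037_0
/-
TW-G / W6 (helper54): `Core.StmtKillAll` from the final deliverable `Wire.StmtGKill` of TW-G.

`B = ad⁰ρ̄(1)`, `T₀ = primesOf Smin`, `X₀ = H¹_lev(G_{ℚ,T₀}, B)` (finite: `StmtLevFin`),
`r := dim X₀`.  `Wire.StmtGKill` gives a Taylor–Wiles family `qv` such that the only class of `X₀`
which is trivial at the Frobenius elements over all `q_i` is `0`.  A level class for the tower of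
`Smin ∪ Q` which is locally trivial at all `q ∈ Q` is unramified at `Q`, hence lies in `X₀`
(`S.stmtTow`), and it is trivial at the Frobenius elements over `q_i` (`Wire.StmtWLoc`).
-/

set_option autoImplicit false
set_option linter.unusedSectionVars false
set_option linter.unusedVariables false
set_option linter.style.haveILetI false

noncomputable section

namespace Fermat.Agent.TW.G

open CategoryTheory groupCohomology IsLocalRing Module
open Fermat.Agent.PT Fermat.Agent.PT.B Fermat.Agent.TW.S Fermat.Agent.TW.L Fermat.Agent.TW.F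
open ExtCitation

/-- Finiteness of the level cohomology of `G_{ℚ,T}` (`F.stmtGloFin` for the concrete datum). -/
def StmtLevFin : Prop :=
  ∀ (p : ℕ) [Fact p.Prime], p ≠ 2 → ∀ (T : Finset Nat.Primes), pPrime p ∈ T →
    ∀ (A : Rep.{0} (ZMod p) GQ) [FiniteDimensional (ZMod p) A], TrivOnLevel (towerS T) A →
      Finite ↥(levH1 (towerS T) A)

section

variable {𝒪 : Type} [CommRing 𝒪] [IsDomain 𝒪] [IsDiscreteValuationRing 𝒪]
  [IsAdicComplete (maximalIdeal 𝒪) 𝒪] [Finite (ResidueField 𝒪)]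
  (p : ℕ) [Fact p.Prime] [CharP (ResidueField 𝒪) p]
  (ρbar : ResidualGaloisRep (ResidueField 𝒪))

/-- `ad⁰ρ̄` is a finite set -/
theorem wkill_finite_ad0 : Finite (ad0Rep p ρbar).V := by
  haveI : Module.Finite (ResidueField 𝒪) ρbar.V := inferInstance
  haveI : Finite ρbar.V := Module.finite_of_finite (ResidueField 𝒪)
  haveI : Finite (Module.End (ResidueField 𝒪) ρbar.V) :=
    Finite.of_injective (fun f : Module.End (ResidueField 𝒪) ρbar.V => (f : ρbar.V → ρbar.V))
      DFunLike.coe_injective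
  exact Finite.of_injective _ (ad0Val_injective p ρbar)

theorem wkill_fd_ad0 : FiniteDimensional (ZMod p) (ad0Rep p ρbar).V :=
  haveI := wkill_finite_ad0 p ρbar
  Module.Finite.of_finite

theorem wkill_fd_adTw : FiniteDimensional (ZMod p) (Wire.adTw p ρbar).V :=
  haveI := wkill_fd_ad0 p ρbar
  inferInstanceAs (FiniteDimensional (ZMod p) (Module.Dual (ZMod p) (ad0Rep p ρbar).V))

theorem wkill_mem_of_eq_zero {R M : Type*} [Semiring R] [AddCommMonoid M] [Module R M]
    (N : Submodule R M) {z : M} (h : z = 0) : z ∈ N := h ▸ N.zero_mem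

/-- a class whose restriction to `G_{ℚ_q}` vanishes is trivial at the Frobenius elements -/
theorem wkill_trivFrob (hLoc : Wire.StmtWLoc) (q : ℕ) [Fact q.Prime]
    (c : cocycles₁ (Wire.adTw p ρbar))
    (h : (groupCohomology.map (localGaloisToGlobal q) (𝟙 (locRep q (Wire.adTw p ρbar))) 1).hom
      ((H1π (Wire.adTw p ρbar)).hom c) = 0) :
    Wire.TrivAtFrob p ρbar (c : GQ → (Wire.adTw p ρbar).V) q := by
  refine hLoc (ResidueField 𝒪) p ρbar q c ?_
  rw [sasm_locRes_H1π] at h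
  have h1 : H1π (locRep q (Wire.adTw p ρbar)) (sasmRes q (Wire.adTw p ρbar) c) = 0 := h
  rw [H1π_eq_zero_iff] at h1
  obtain ⟨m, hm⟩ := h1
  refine ⟨m, fun x => ?_⟩
  have := congrFun hm x
  exact this.symm

/-- **W6.** `Core.StmtKillAll` from the final deliverable of TW-G. -/
theorem stmtKillAll_of (hK : Wire.StmtGKill) (hLoc : Wire.StmtWLoc) (hAd : Core.StmtAdLevel)
    (hFin : StmtLevFin) (hTow : StmtTow) : Core.StmtKillAll 𝒪 := by
  intro p _ _ ρbar S Smin hyp
  haveI := wkill_fd_adTw p ρbar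
  have hpT₀ : pPrime p ∈ primesOf Smin := Finset.mem_subtype.2 hyp.hpSmin
  have hunr₀ : ∀ q : Nat.Primes, q ∉ primesOf Smin → ρbar.IsUnramifiedAt (q : ℕ) := by
    intro q hq
    have hq' : (q : ℕ) ∉ Smin := fun h => hq (Finset.mem_subtype.2 h)
    have hqp : (q : ℕ) ≠ p := fun h => hq' (h ▸ hyp.hpSmin)
    by_contra hram
    exact hq' ((hyp.hmin q q.2 hqp).2 hram)
  have hlev : TrivOnLevel (towerS (primesOf Smin)) (Wire.adTw p ρbar) :=
    (hAd p (ResidueField 𝒪) ρbar (primesOf Smin) hpT₀ hunr₀).2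
  haveI hfin : Finite ↥(levH1 (towerS (primesOf Smin)) (Wire.adTw p ρbar)) :=
    hFin p hyp.hp2 (primesOf Smin) hpT₀ (Wire.adTw p ρbar) hlev
  have hmf : Module.Finite (ZMod p) ↥(levH1 (towerS (primesOf Smin)) (Wire.adTw p ρbar)) :=
    Module.Finite.of_finite
  have hcoc : ∀ y ∈ levH1 (towerS (primesOf Smin)) (Wire.adTw p ρbar),
      ∃ c : cocycles₁ (Wire.adTw p ρbar), (H1π (Wire.adTw p ρbar)).hom c = y ∧
        Wire.IsLevCoc p ρbar (c : GQ → (Wire.adTw p ρbar).V) := by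
    intro y hy
    obtain ⟨c, ⟨U, ⟨F, hF, rfl⟩, hU⟩, hcy⟩ := (mem_levH1_iff _ _ y).1 hy
    exact ⟨c, hcy, c.2, F, hF.1, hU⟩
  refine ⟨finrank (ZMod p) ↥(levH1 (towerS (primesOf Smin)) (Wire.adTw p ρbar)), fun n => ?_⟩
  obtain ⟨qv, hTW, hkill⟩ := hK 𝒪 p ρbar S Smin hyp
    (levH1 (towerS (primesOf Smin)) (Wire.adTw p ρbar)) hmf hcoc _ le_rfl n
  refine ⟨qv, hTW, fun x hx hres => ?_⟩
  -- `x` is a level class for the small tower
  have hsub : primesOf Smin ⊆ primesOf (Smin ∪ Finset.univ.image qv) := by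
    intro q hq
    exact Finset.mem_subtype.2 (Finset.mem_union_left _ (Finset.mem_subtype.1 hq))
  have hx₀ : x ∈ levH1 (towerS (primesOf Smin)) (Wire.adTw p ρbar) := by
    refine hTow p (primesOf Smin) (primesOf (Smin ∪ Finset.univ.image qv)) hsub
      (Wire.adTw p ρbar) hlev x hx ?_
    rintro ⟨q, hqprime⟩ hqT hqT₀
    have h1 : q ∈ Smin ∪ Finset.univ.image qv := Finset.mem_subtype.1 hqT
    have h2 : q ∉ Smin := fun h => hqT₀ (Finset.mem_subtype.2 h)
    rcases Finset.mem_union.1 h1 with h | h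
    · exact absurd h h2
    · obtain ⟨i, -, rfl⟩ := Finset.mem_image.1 h
      exact wkill_mem_of_eq_zero _ (hres i hqprime)
  refine hkill x hx₀ fun i => ?_
  obtain ⟨c, -, hcx⟩ := (mem_levH1_iff _ _ x).1 hx
  haveI : Fact (qv i).Prime := ⟨(hTW.2.1 i).1⟩
  exact ⟨c, hcx, wkill_trivFrob p ρbar hLoc (qv i) c (by rw [hcx]; exact hres i (hTW.2.1 i).1)⟩

end

end Fermat.Agent.TW.G

end


end ZBTW_037_0

/-! ### bundled: `Fermat.Agent.TW.G.LevFin` -/
section ZBTW_037_1
/-
TW-G / W6 (helper54): finiteness of the level cohomology of `G_{ℚ,T}`, unconditional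
(`F.stmtGloFin` for the concrete datum of PT-B, whose five hard axioms are theorems).
-/

set_option autoImplicit false

namespace Fermat.Agent.TW.G

open Fermat.Agent.PT Fermat.Agent.PT.B ExtCitation

/-- the five hard axioms of the concrete datum are theorems -/
theorem wkill_stmtGB : StmtGB := stmtGB_of_sdShapiro Fermat.Agent.PT.G3.stmtSDShapiro

/-- **Finiteness of `H¹_lev(G_{ℚ,T}, A)`**, unconditional. -/
theorem stmtLevFin : StmtLevFin := by
  intro p _ hp2 T hpT A _ hA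
  exact Fermat.Agent.TW.F.stmtGloFin p GQ ↥T (GlocS T)
    (concreteDatum p hp2 T hpT (stmtCmGlob_of_GA Fermat.Agent.PT.G3.stmtGA_B) stmtCmLoc
      stmtH90Loc (stmtExistC_of_GA Fermat.Agent.PT.G3.stmtGA_B Fermat.Agent.PT.X.stmtExistTL)
      (stmtSurvC_of_GB wkill_stmtGB)) A hA

end Fermat.Agent.TW.G


end ZBTW_037_1

/-! ### bundled: `Fermat.Agent.TW.G.KillAllFinal` -/
section ZBTW_037_2
/-
TW-G / C-kill, FINAL (helper54): the Taylor–Wiles primes kill the level classes of `ad⁰(1)`,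
UNCONDITIONAL.  Import this file to use C-kill.

  `stmtKillAll 𝒪 : Core.StmtKillAll 𝒪`
     = W6 `stmtKillAll_of` + `Wire.stmtGKill` (TW/G/Wire/Final.lean, helper26) + W4 `Wire.stmtWLoc`
       + `S.stmtAdLevel` + `stmtLevFin` + `S.stmtTow`.
-/

set_option autoImplicit false

namespace Fermat.Agent.TW.G

open IsLocalRing

/-- **C-kill**, unconditional: the Taylor–Wiles primes kill the level classes of `ad⁰(1)`. -/
theorem stmtKillAll (𝒪 : Type) [CommRing 𝒪] [IsDomain 𝒪] [IsDiscreteValuationRing 𝒪]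
    [IsAdicComplete (maximalIdeal 𝒪) 𝒪] [Finite (ResidueField 𝒪)] :
    Fermat.Agent.TW.Core.StmtKillAll 𝒪 :=
  stmtKillAll_of Wire.stmtGKill Wire.stmtWLoc Fermat.Agent.TW.S.stmtAdLevel stmtLevFin
    Fermat.Agent.TW.S.stmtTow

end Fermat.Agent.TW.G


end ZBTW_037_2

/-! ### bundled: `Fermat.Agent.TW.G.KillGen` -/
section ZBTW_037_3
/-
TW-G / C-kill, GENERAL FORM (helper26): the Taylor–Wiles primes kill the level classes of
`ad⁰(1)` which are unramified outside ANY finite set `T' ⊇ Smin` of primes, with `r` primes for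
EVERY `r ≥ r₀`.

  `stmtKillGen 𝒪 p ρbar S Smin T' hyp hT'` :
     `∃ r₀, ∀ r ≥ r₀, ∀ n, ∃ qv : Fin r → ℕ, IsTWFamily p ρbar S n r qv ∧`
     `  ∀ x ∈ levH1 (towerS (primesOf (T' ∪ Q))) ad⁰(1), (∀ q ∈ Q, res_q x = 0) → x = 0`.

`T' = Smin` is `Core.StmtKillAll` (`stmtKillAll`, helper54); `T' = Smin ∪ T` is the kill step of
the framed Taylor–Wiles primes (RT-K3).  Proof: the proof of `stmtKillAll_of` (TW/G/KillAll.lean,
helper54) verbatim, `Wire.stmtGKill` being general in the subspace `D₀` and in `r`.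
-/

set_option autoImplicit false
set_option linter.unusedSectionVars false
set_option linter.unusedVariables false
set_option linter.style.haveILetI false

noncomputable section

namespace Fermat.Agent.TW.G

open CategoryTheory groupCohomology IsLocalRing Module
open Fermat.Agent.PT Fermat.Agent.PT.B Fermat.Agent.TW.S Fermat.Agent.TW.L Fermat.Agent.TW.F
open ExtCitation

section

variable (𝒪 : Type) [CommRing 𝒪] [IsDomain 𝒪] [IsDiscreteValuationRing 𝒪]
  [IsAdicComplete (maximalIdeal 𝒪) 𝒪] [Finite (ResidueField 𝒪)]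

/-- **C-kill, general form.** -/
theorem stmtKillGen (p : ℕ) [Fact p.Prime] [CharP (ResidueField 𝒪) p]
    (ρbar : ResidualGaloisRep (ResidueField 𝒪)) (S Smin T' : Finset ℕ)
    (hyp : TWHyp 𝒪 p ρbar S Smin) (hT' : Smin ⊆ T') :
    ∃ r₀ : ℕ, ∀ r : ℕ, r₀ ≤ r → ∀ n : ℕ, ∃ qv : Fin r → ℕ, IsTWFamily p ρbar S n r qv ∧
      ∀ x ∈ levH1 (towerS (primesOf (T' ∪ Finset.univ.image qv))) (Wire.adTw p ρbar),
        (∀ (i : Fin r) (hq : (qv i).Prime),
          letI : Fact (qv i).Prime := ⟨hq⟩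
          (groupCohomology.map (localGaloisToGlobal (qv i))
            (𝟙 (locRep (qv i) (Wire.adTw p ρbar))) 1).hom x = 0) →
        x = 0 := by
  haveI := wkill_fd_adTw p ρbar
  have hpT₀ : pPrime p ∈ primesOf T' := Finset.mem_subtype.2 (hT' hyp.hpSmin)
  have hunr₀ : ∀ q : Nat.Primes, q ∉ primesOf T' → ρbar.IsUnramifiedAt (q : ℕ) := by
    intro q hq
    have hq' : (q : ℕ) ∉ Smin := fun h => hq (Finset.mem_subtype.2 (hT' h))
    have hqp : (q : ℕ) ≠ p := fun h => hq' (h ▸ hyp.hpSmin)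
    by_contra hram
    exact hq' ((hyp.hmin q q.2 hqp).2 hram)
  have hlev : TrivOnLevel (towerS (primesOf T')) (Wire.adTw p ρbar) :=
    (Fermat.Agent.TW.S.stmtAdLevel p (ResidueField 𝒪) ρbar (primesOf T') hpT₀ hunr₀).2
  haveI hfin : Finite ↥(levH1 (towerS (primesOf T')) (Wire.adTw p ρbar)) :=
    stmtLevFin p hyp.hp2 (primesOf T') hpT₀ (Wire.adTw p ρbar) hlev
  have hmf : Module.Finite (ZMod p) ↥(levH1 (towerS (primesOf T')) (Wire.adTw p ρbar)) :=
    Module.Finite.of_finite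
  have hcoc : ∀ y ∈ levH1 (towerS (primesOf T')) (Wire.adTw p ρbar),
      ∃ c : cocycles₁ (Wire.adTw p ρbar), (H1π (Wire.adTw p ρbar)).hom c = y ∧
        Wire.IsLevCoc p ρbar (c : GQ → (Wire.adTw p ρbar).V) := by
    intro y hy
    obtain ⟨c, ⟨U, ⟨F, hF, rfl⟩, hU⟩, hcy⟩ := (mem_levH1_iff _ _ y).1 hy
    exact ⟨c, hcy, c.2, F, hF.1, hU⟩
  refine ⟨finrank (ZMod p) ↥(levH1 (towerS (primesOf T')) (Wire.adTw p ρbar)),
    fun r hr n => ?_⟩
  obtain ⟨qv, hTW, hkill⟩ := Wire.stmtGKill 𝒪 p ρbar S Smin hyp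
    (levH1 (towerS (primesOf T')) (Wire.adTw p ρbar)) hmf hcoc r hr n
  refine ⟨qv, hTW, fun x hx hres => ?_⟩
  -- `x` is a level class for the small tower
  have hsub : primesOf T' ⊆ primesOf (T' ∪ Finset.univ.image qv) := by
    intro q hq
    exact Finset.mem_subtype.2 (Finset.mem_union_left _ (Finset.mem_subtype.1 hq))
  have hx₀ : x ∈ levH1 (towerS (primesOf T')) (Wire.adTw p ρbar) := by
    refine Fermat.Agent.TW.S.stmtTow p (primesOf T') (primesOf (T' ∪ Finset.univ.image qv)) hsub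
      (Wire.adTw p ρbar) hlev x hx ?_
    rintro ⟨q, hqprime⟩ hqT hqT₀
    have h1 : q ∈ T' ∪ Finset.univ.image qv := Finset.mem_subtype.1 hqT
    have h2 : q ∉ T' := fun h => hqT₀ (Finset.mem_subtype.2 h)
    rcases Finset.mem_union.1 h1 with h | h
    · exact absurd h h2
    · obtain ⟨i, -, rfl⟩ := Finset.mem_image.1 h
      exact wkill_mem_of_eq_zero _ (hres i hqprime)
  refine hkill x hx₀ fun i => ?_
  obtain ⟨c, -, hcx⟩ := (mem_levH1_iff _ _ x).1 hx
  haveI : Fact (qv i).Prime := ⟨(hTW.2.1 i).1⟩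
  exact ⟨c, hcx, wkill_trivFrob p ρbar Wire.stmtWLoc (qv i) c
    (by rw [hcx]; exact hres i (hTW.2.1 i).1)⟩

end

end Fermat.Agent.TW.G

end


end ZBTW_037_3

/-! ### bundled: `Fermat.Agent.RT.K3.Kill` -/
section ZBTW_037_4
/-
K-machine, piece K3-kill (helper26): `stmtK3Kill 𝒪 : StmtK3Kill 𝒪`, unconditional.
The Taylor–Wiles primes kill the level classes of `ad⁰(1)` for the tower of `(Smin ∪ T) ∪ Q`
(no condition at `T`), with `h ≥ 3|T|` primes.
Proof: `TW.G.stmtKillGen` (TW/G/KillGen.lean) with `T' := Smin ∪ T`, `h := max r₀ (3|T|)`.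
-/

set_option autoImplicit false

namespace Fermat.Agent.RT

open IsLocalRing

/-- **K3-kill**, unconditional. -/
theorem stmtK3Kill (𝒪 : Type) [CommRing 𝒪] [IsDomain 𝒪] [IsDiscreteValuationRing 𝒪]
    [IsAdicComplete (maximalIdeal 𝒪) 𝒪] [Finite (ResidueField 𝒪)] : StmtK3Kill 𝒪 := by
  intro p _ _ ρbar S Smin T hyp _ _
  obtain ⟨r₀, hr₀⟩ := Fermat.Agent.TW.G.stmtKillGen 𝒪 p ρbar S Smin (Smin ∪ T) hyp
    Finset.subset_union_left
  exact ⟨max r₀ (3 * T.card), le_max_right _ _, fun n => hr₀ _ (le_max_left _ _) n⟩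

end Fermat.Agent.RT


end ZBTW_037_4
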