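/- GENERATED FILE (helper35, build-time optimisation, NOTES/ZB.md): verbatim concatenation of the modules
   Fermat.Agent.TW.E.Asm
   Fermat.Agent.TW.E.KumAsm
   Fermat.Agent.TW.E.LinkAsm
   Do not edit; do not import together with these modules. -/
import Fermat.Agent.ZB.TW_014
import Fermat.Agent.ZB.TW_051

/-! ### bundled: `Fermat.Agent.TW.E.Asm` -/
section ZBTW_038_0
/-
Project TW (S56) — part TW-E (sub-captain helper69): block **E-asm**, the assembly
`StmtAdd → StmtH2Fin → StmtPDepthTower → StmtCyc → StmtK0 → StmtEC`.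
Mathematics: NOTES/TW-E.md §4.  Names `asm_*`.
-/

set_option autoImplicit false
set_option linter.style.haveILetI false

noncomputable section

namespace Fermat.Agent.TW.E

open CategoryTheory groupCohomology Module Fermat.Agent.PT Fermat.Agent.PT.F Fermat.Agent.PT.B
  Fermat.Agent.TW.F ExtCitation

/-! ### Linear algebra -/

/-- dimensions are additive on short exact sequences -/
theorem asm_finrank_exact {k : Type} [Field k] {V₁ V V₂ : Type} [AddCommGroup V₁] [Module k V₁]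
    [AddCommGroup V] [Module k V] [AddCommGroup V₂] [Module k V₂] [FiniteDimensional k V]
    (f : V₁ →ₗ[k] V) (g : V →ₗ[k] V₂) (hf : Function.Injective f) (hg : Function.Surjective g)
    (hfg : Function.Exact f g) : finrank k V = finrank k V₁ + finrank k V₂ := by
  have h1 := LinearMap.finrank_range_add_finrank_ker g
  rw [LinearMap.range_eq_top.2 hg, finrank_top, (LinearMap.exact_iff.1 hfg),
    LinearMap.finrank_range_of_inj hf] at h1
  omega

/-! ### The invariants of complex conjugation -/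

theorem asm_mem_cinv {p : ℕ} (B : Rep.{0} (ZMod p) GQ) (x : B.V) :
    x ∈ (Rep.res archimedeanLoc B).ρ.invariants ↔ B.ρ complexConjugation x = x := by
  constructor
  · intro h
    exact h archimedeanGen
  · intro h g
    obtain ⟨g, hg⟩ := g
    let H : Subgroup GQ :=
      { carrier := {g | B.ρ g x = x}
        mul_mem' := by
          intro a b ha hb
          simp only [Set.mem_ofPred_eq] at ha hb ⊢
          rw [map_mul, Module.End.mul_apply, hb, ha]
        one_mem' := by simp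
        inv_mem' := by
          intro a ha
          simp only [Set.mem_ofPred_eq] at ha ⊢
          have h1 : B.ρ a⁻¹ (B.ρ a x) = x := by
            rw [← Module.End.mul_apply, ← map_mul, inv_mul_cancel, map_one, Module.End.one_apply]
          rwa [ha] at h1 }
    have hle : Subgroup.zpowers complexConjugation ≤ H := by
      rw [Subgroup.zpowers_le]
      exact h
    exact hle hg

/-- the dimension of the `c`-invariants is additive on short exact sequences (`p` odd) -/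
theorem asm_cinv_add {p : ℕ} [Fact p.Prime] (hp2 : p ≠ 2) (B₁ B B₂ : Rep.{0} (ZMod p) GQ)
    [FiniteDimensional (ZMod p) B.V] (f : B₁ ⟶ B) (g : B ⟶ B₂)
    (hf : Function.Injective f.hom) (hg : Function.Surjective g.hom)
    (hfg : Function.Exact f.hom g.hom) :
    finrank (ZMod p) ↥((Rep.res archimedeanLoc B).ρ.invariants) =
      finrank (ZMod p) ↥((Rep.res archimedeanLoc B₁).ρ.invariants) +
        finrank (ZMod p) ↥((Rep.res archimedeanLoc B₂).ρ.invariants) := by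
  have h2 : (2 : ZMod p) ≠ 0 := by
    intro h
    have h3 : ((2 : ℕ) : ZMod p) = 0 := by exact_mod_cast h
    rw [ZMod.natCast_eq_zero_iff] at h3
    exact hp2 ((Nat.prime_dvd_prime_iff_eq (Fact.out : p.Prime) Nat.prime_two).1 h3)
  have hcc : ∀ (X : Rep.{0} (ZMod p) GQ) (x : X.V),
      X.ρ complexConjugation (X.ρ complexConjugation x) = x := by
    intro X x
    rw [← Module.End.mul_apply, ← map_mul, complexConjugation_mul_self, map_one,
      Module.End.one_apply]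
  let f' : ↥((Rep.res archimedeanLoc B₁).ρ.invariants) →ₗ[ZMod p]
      ↥((Rep.res archimedeanLoc B).ρ.invariants) :=
    LinearMap.restrict f.hom.toLinearMap (by
      intro x hx
      rw [asm_mem_cinv] at hx ⊢
      show B.ρ complexConjugation (f.hom x) = f.hom x
      rw [← Rep.hom_comm_apply, hx])
  let g' : ↥((Rep.res archimedeanLoc B).ρ.invariants) →ₗ[ZMod p]
      ↥((Rep.res archimedeanLoc B₂).ρ.invariants) :=
    LinearMap.restrict g.hom.toLinearMap (by
      intro x hx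
      rw [asm_mem_cinv] at hx ⊢
      show B₂.ρ complexConjugation (g.hom x) = g.hom x
      rw [← Rep.hom_comm_apply, hx])
  refine asm_finrank_exact f' g' ?_ ?_ ?_
  · intro x y hxy
    apply Subtype.ext
    apply hf
    exact congrArg Subtype.val hxy
  · intro z
    obtain ⟨x, hx⟩ := hg z.1
    have hz := (asm_mem_cinv B₂ z.1).1 z.2
    refine ⟨⟨(2 : ZMod p)⁻¹ • (x + B.ρ complexConjugation x), ?_⟩, ?_⟩
    · rw [asm_mem_cinv, map_smul, map_add, hcc, add_comm]
    · apply Subtype.ext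
      show g.hom ((2 : ZMod p)⁻¹ • (x + B.ρ complexConjugation x)) = z.1
      rw [map_smul, map_add, Rep.hom_comm_apply, hx, hz, ← two_smul (ZMod p) z.1, smul_smul,
        inv_mul_cancel₀ h2, one_smul]
  · intro y
    constructor
    · intro hy
      have hy' : g.hom y.1 = 0 := congrArg Subtype.val hy
      obtain ⟨x, hx⟩ := (hfg y.1).1 hy'
      have hyc := (asm_mem_cinv B y.1).1 y.2
      refine ⟨⟨x, ?_⟩, Subtype.ext hx⟩
      rw [asm_mem_cinv]
      apply hf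
      rw [Rep.hom_comm_apply, hx, hyc]
    · rintro ⟨x, rfl⟩
      apply Subtype.ext
      show g.hom (f.hom x.1) = 0
      exact (hfg (f.hom x.1)).2 ⟨x.1, rfl⟩

/-! ### The function `φ` -/

/-- `φ(X) = h⁰ + h² + dim - h¹ - dim^c` of the inflation of `X` (and `0` if `X` is not
finite-dimensional). -/
def asmPhi (p : ℕ) [Fact p.Prime] (S : Finset Nat.Primes) (U₀ : Subgroup GQ) [U₀.Normal]
    (X : Rep.{0} (ZMod p) (GQ ⧸ U₀)) : ℤ :=
  open Classical in
  if Module.Finite (ZMod p) X.V then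
    ((finrank (ZMod p) ↥((Rep.res (QuotientGroup.mk' U₀) X).ρ.invariants) +
        finrank (ZMod p) (levH2 (towerS S) (Rep.res (QuotientGroup.mk' U₀) X)) +
        finrank (ZMod p) X.V : ℕ) : ℤ) -
      ((finrank (ZMod p) ↥(levH1 (towerS S) (Rep.res (QuotientGroup.mk' U₀) X)) +
        finrank (ZMod p)
          ↥((Rep.res archimedeanLoc (Rep.res (QuotientGroup.mk' U₀) X)).ρ.invariants) : ℕ) : ℤ)
  else 0

theorem asmPhi_of_finite (p : ℕ) [Fact p.Prime] (S : Finset Nat.Primes) (U₀ : Subgroup GQ)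
    [U₀.Normal] (X : Rep.{0} (ZMod p) (GQ ⧸ U₀)) (hX : Module.Finite (ZMod p) X.V) :
    asmPhi p S U₀ X =
    ((finrank (ZMod p) ↥((Rep.res (QuotientGroup.mk' U₀) X).ρ.invariants) +
        finrank (ZMod p) (levH2 (towerS S) (Rep.res (QuotientGroup.mk' U₀) X)) +
        finrank (ZMod p) X.V : ℕ) : ℤ) -
      ((finrank (ZMod p) ↥(levH1 (towerS S) (Rep.res (QuotientGroup.mk' U₀) X)) +
        finrank (ZMod p)
          ↥((Rep.res archimedeanLoc (Rep.res (QuotientGroup.mk' U₀) X)).ρ.invariants) : ℕ) : ℤ) :=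
  if_pos hX

theorem asmPhi_of_not_finite (p : ℕ) [Fact p.Prime] (S : Finset Nat.Primes) (U₀ : Subgroup GQ)
    [U₀.Normal] (X : Rep.{0} (ZMod p) (GQ ⧸ U₀)) (hX : ¬ Module.Finite (ZMod p) X.V) :
    asmPhi p S U₀ X = 0 :=
  if_neg hX

theorem asm_trivOnLevel {p : ℕ} (S : Finset Nat.Primes) (U₀ : Subgroup GQ) [U₀.Normal]
    (hU₀ : U₀ ∈ (towerS S).lev) (X : Rep.{0} (ZMod p) (GQ ⧸ U₀)) :
    TrivOnLevel (towerS S) (Rep.res (QuotientGroup.mk' U₀) X) := by
  refine ⟨U₀, hU₀, fun s hs => ?_⟩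
  show X.ρ (QuotientGroup.mk' U₀ s) = 1
  rw [QuotientGroup.mk'_apply, (QuotientGroup.eq_one_iff s).2 hs, map_one]

theorem asm_hasPDepthGlob (hpd : StmtPDepthTower) (p : ℕ) [Fact p.Prime] (hp2 : p ≠ 2)
    (S : Finset Nat.Primes) (hpS : pPrime p ∈ S) (hcg : StmtCmGlob) (hcl : StmtCmLoc)
    (hh : StmtH90Loc) (hex : StmtExistC) (hsv : StmtSurvC) :
    HasPDepthGlob (concreteDatum p hp2 S hpS hcg hcl hh hex hsv) := by
  intro v U hU
  exact hpd p S hpS v U hU

/-! ### `StmtAdd` for the concrete datum, and isomorphism invariance -/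

theorem asm_add (hadd : StmtAdd) (hpd : StmtPDepthTower) (p : ℕ) [Fact p.Prime] (hp2 : p ≠ 2)
    (S : Finset Nat.Primes) (hpS : pPrime p ∈ S) (hcg : StmtCmGlob) (hcl : StmtCmLoc)
    (hh : StmtH90Loc) (hex : StmtExistC) (hsv : StmtSurvC)
    (B₁ B B₂ : Rep.{0} (ZMod p) GQ) [FiniteDimensional (ZMod p) B.V]
    (f : B₁ ⟶ B) (g : B ⟶ B₂) (hf : Function.Injective f.hom) (hg : Function.Surjective g.hom)
    (hfg : Function.Exact f.hom g.hom) (ht : TrivOnLevel (towerS S) B) :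
    (finrank (ZMod p) ↥(B.ρ.invariants) + finrank (ZMod p) (levH2 (towerS S) B) +
        finrank (ZMod p) ↥(levH1 (towerS S) B₁) + finrank (ZMod p) ↥(levH1 (towerS S) B₂) : ℕ) =
      finrank (ZMod p) ↥(levH1 (towerS S) B) +
        (finrank (ZMod p) ↥(B₁.ρ.invariants) + finrank (ZMod p) (levH2 (towerS S) B₁)) +
        (finrank (ZMod p) ↥(B₂.ρ.invariants) + finrank (ZMod p) (levH2 (towerS S) B₂)) := by
  haveI : Nonempty ↥S := ⟨⟨pPrime p, hpS⟩⟩
  exact hadd p GQ ↥S (GlocS S) (concreteDatum p hp2 S hpS hcg hcl hh hex hsv)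
    (asm_hasPDepthGlob hpd p hp2 S hpS hcg hcl hh hex hsv) B₁ B B₂ f g hf hg hfg ht

/-- the zero representation -/
abbrev asmZero (p : ℕ) : Rep.{0} (ZMod p) GQ := Rep.trivial (ZMod p) GQ PUnit

instance asm_zero_subsingleton (p : ℕ) : Subsingleton (asmZero p).V :=
  inferInstanceAs (Subsingleton PUnit)

theorem asm_zero_h0 (p : ℕ) [Fact p.Prime] : finrank (ZMod p) ↥((asmZero p).ρ.invariants) = 0 :=
  Module.finrank_zero_of_subsingleton

theorem asm_zero_h1 (p : ℕ) [Fact p.Prime] (𝒯 : Tower GQ) : finrank (ZMod p) ↥(levH1 𝒯 (asmZero p)) = 0 := by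
  haveI : Subsingleton ↥(levH1 𝒯 (asmZero p)) := by
    refine ⟨fun a b => ?_⟩
    have h : ∀ x : ↥(levH1 𝒯 (asmZero p)), x = 0 := by
      intro x
      apply Subtype.ext
      obtain ⟨c, -, hc⟩ := (mem_levH1_iff 𝒯 (asmZero p) x.1).1 x.2
      have hc0 : c = 0 := by
        apply Subtype.ext
        funext s
        exact Subsingleton.elim _ _
      rw [← hc, hc0, map_zero]
      rfl
    rw [h a, h b]
  exact Module.finrank_zero_of_subsingleton

theorem asm_zero_h2 (p : ℕ) [Fact p.Prime] (𝒯 : Tower GQ) : finrank (ZMod p) (levH2 𝒯 (asmZero p)) = 0 := by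
  haveI : Subsingleton (levH2 𝒯 (asmZero p)) := by
    refine ⟨fun a b => ?_⟩
    have h : ∀ x : levH2 𝒯 (asmZero p), x = 0 := by
      intro x
      obtain ⟨c, rfl⟩ := Submodule.mkQ_surjective _ x
      have hc0 : c = 0 := by
        apply Subtype.ext
        funext s
        exact Subsingleton.elim _ _
      rw [hc0, map_zero]
    rw [h a, h b]
  exact Module.finrank_zero_of_subsingleton

theorem asm_chi_iso (hadd : StmtAdd) (hpd : StmtPDepthTower) (p : ℕ) [Fact p.Prime] (hp2 : p ≠ 2)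
    (S : Finset Nat.Primes) (hpS : pPrime p ∈ S) (hcg : StmtCmGlob) (hcl : StmtCmLoc)
    (hh : StmtH90Loc) (hex : StmtExistC) (hsv : StmtSurvC)
    (B B' : Rep.{0} (ZMod p) GQ) [FiniteDimensional (ZMod p) B.V]
    (u : B ⟶ B') (hu : Function.Bijective u.hom) (ht : TrivOnLevel (towerS S) B) :
    finrank (ZMod p) ↥(B.ρ.invariants) + finrank (ZMod p) (levH2 (towerS S) B) +
        finrank (ZMod p) ↥(levH1 (towerS S) B') =
      finrank (ZMod p) ↥(levH1 (towerS S) B) +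
        (finrank (ZMod p) ↥(B'.ρ.invariants) + finrank (ZMod p) (levH2 (towerS S) B')) := by
  have h := asm_add hadd hpd p hp2 S hpS hcg hcl hh hex hsv (asmZero p) B B' 0 u
    (fun x y _ => Subsingleton.elim x y) hu.2
    (by
      intro y
      constructor
      · intro hy
        refine ⟨0, ?_⟩
        rw [map_zero]
        exact (hu.1 (hy.trans (map_zero _).symm)).symm
      · rintro ⟨x, rfl⟩
        rw [Subsingleton.elim x 0, map_zero, map_zero]) ht
  rw [asm_zero_h0, asm_zero_h1, asm_zero_h2] at h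
  omega

theorem asm_zero_cinv (p : ℕ) [Fact p.Prime] :
    finrank (ZMod p) ↥((Rep.res archimedeanLoc (asmZero p)).ρ.invariants) = 0 := by
  haveI : Subsingleton (Rep.res archimedeanLoc (asmZero p)).V :=
    inferInstanceAs (Subsingleton PUnit)
  exact Module.finrank_zero_of_subsingleton

theorem asm_cinv_iso {p : ℕ} [Fact p.Prime] (hp2 : p ≠ 2) (B B' : Rep.{0} (ZMod p) GQ)
    [FiniteDimensional (ZMod p) B.V] (u : B ⟶ B') (hu : Function.Bijective u.hom) :
    finrank (ZMod p) ↥((Rep.res archimedeanLoc B).ρ.invariants) =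
      finrank (ZMod p) ↥((Rep.res archimedeanLoc B').ρ.invariants) := by
  have h := asm_cinv_add hp2 (asmZero p) B B' 0 u
    (fun x y _ => Subsingleton.elim x y) hu.2
    (by
      intro y
      constructor
      · intro hy
        refine ⟨0, ?_⟩
        rw [map_zero]
        exact (hu.1 (hy.trans (map_zero _).symm)).symm
      · rintro ⟨x, rfl⟩
        rw [Subsingleton.elim x 0, map_zero, map_zero])
  rw [asm_zero_cinv] at h
  omega

theorem asm_iso_bij {k G : Type} [CommRing k] [Group G] {M N : Rep.{0} k G} (i : M ≅ N) :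
    Function.Bijective i.hom.hom := by
  refine ⟨Function.LeftInverse.injective (g := i.inv.hom) ?_,
    Function.RightInverse.surjective (g := i.inv.hom) ?_⟩
  · intro x
    simp
  · intro x
    simp

/-! ### `φ` is an additive function -/

theorem asm_isAddFun (hadd : StmtAdd) (hpd : StmtPDepthTower) (p : ℕ) [Fact p.Prime]
    (hp2 : p ≠ 2) (S : Finset Nat.Primes) (hpS : pPrime p ∈ S) (hcg : StmtCmGlob)
    (hcl : StmtCmLoc) (hh : StmtH90Loc) (hex : StmtExistC) (hsv : StmtSurvC)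
    (U₀ : Subgroup GQ) [U₀.Normal] (hU₀ : U₀ ∈ (towerS S).lev) :
    IsAddFun (asmPhi p S U₀) where
  iso := by
    rintro M N ⟨i⟩
    have hb := asm_iso_bij i
    let e : M.V ≃ₗ[ZMod p] N.V := LinearEquiv.ofBijective i.hom.hom.toLinearMap hb
    by_cases hM : Module.Finite (ZMod p) M.V
    · have hN : Module.Finite (ZMod p) N.V := Module.Finite.equiv e
      haveI : FiniteDimensional (ZMod p) (Rep.res (QuotientGroup.mk' U₀) M).V := hM
      have h1 := asm_chi_iso hadd hpd p hp2 S hpS hcg hcl hh hex hsv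
        (Rep.res (QuotientGroup.mk' U₀) M) (Rep.res (QuotientGroup.mk' U₀) N)
        ((Rep.resFunctor (QuotientGroup.mk' U₀)).map i.hom) hb (asm_trivOnLevel S U₀ hU₀ M)
      have h2 := asm_cinv_iso hp2
        (Rep.res (QuotientGroup.mk' U₀) M) (Rep.res (QuotientGroup.mk' U₀) N)
        ((Rep.resFunctor (QuotientGroup.mk' U₀)).map i.hom) hb
      have h3 : finrank (ZMod p) M.V = finrank (ZMod p) N.V := e.finrank_eq
      rw [asmPhi_of_finite p S U₀ M hM, asmPhi_of_finite p S U₀ N hN]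
      omega
    · have hN : ¬ Module.Finite (ZMod p) N.V := fun h => hM (Module.Finite.equiv e.symm)
      rw [asmPhi_of_not_finite p S U₀ M hM, asmPhi_of_not_finite p S U₀ N hN]
  add := by
    intro M' M M'' f g hM hf hg hfg
    have hM' : Module.Finite (ZMod p) M'.V := Module.Finite.of_injective f.hom.toLinearMap hf
    have hM'' : Module.Finite (ZMod p) M''.V := Module.Finite.of_surjective g.hom.toLinearMap hg
    haveI : FiniteDimensional (ZMod p) (Rep.res (QuotientGroup.mk' U₀) M).V := hM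
    have h1 := asm_add hadd hpd p hp2 S hpS hcg hcl hh hex hsv
      (Rep.res (QuotientGroup.mk' U₀) M') (Rep.res (QuotientGroup.mk' U₀) M)
      (Rep.res (QuotientGroup.mk' U₀) M'')
      ((Rep.resFunctor (QuotientGroup.mk' U₀)).map f)
      ((Rep.resFunctor (QuotientGroup.mk' U₀)).map g) hf hg hfg (asm_trivOnLevel S U₀ hU₀ M)
    have h2 := asm_cinv_add hp2
      (Rep.res (QuotientGroup.mk' U₀) M') (Rep.res (QuotientGroup.mk' U₀) M)
      (Rep.res (QuotientGroup.mk' U₀) M'')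
      ((Rep.resFunctor (QuotientGroup.mk' U₀)).map f)
      ((Rep.resFunctor (QuotientGroup.mk' U₀)).map g) hf hg hfg
    have h3 : finrank (ZMod p) M.V = finrank (ZMod p) M'.V + finrank (ZMod p) M''.V :=
      asm_finrank_exact f.hom.toLinearMap g.hom.toLinearMap hf hg hfg
    rw [asmPhi_of_finite p S U₀ M hM, asmPhi_of_finite p S U₀ M' hM',
      asmPhi_of_finite p S U₀ M'' hM'']
    omega

/-! ### The assembly -/

/-- **E-asm.** -/
theorem stmtAsm : StmtAsm := by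
  intro hadd hfin hpd hcyc hk0 p _ hp2 S hpS hcg hcl hh hex hsv B _ ht
  haveI : Nonempty ↥S := ⟨⟨pPrime p, hpS⟩⟩
  have hfd : FiniteDimensional (ZMod p) (levH2 (towerS S) B) :=
    hfin p GQ ↥S (GlocS S) (concreteDatum p hp2 S hpS hcg hcl hh hex hsv)
      (asm_hasPDepthGlob hpd p hp2 S hpS hcg hcl hh hex hsv) B ht
  obtain ⟨U, hU, htriv⟩ := ht
  obtain ⟨U₀, hU₀, hle, hn⟩ := (towerS S).exists_normal U hU
  haveI := hn
  haveI : Representation.IsTrivial (B.ρ.comp U₀.subtype) :=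
    ⟨fun s => htriv s.1 (hle s.2)⟩
  haveI : U₀.FiniteIndex := (towerS S).finiteIndex U₀ hU₀
  have hφ := hk0 p (GQ ⧸ U₀) (asmPhi p S U₀)
    (asm_isAddFun hadd hpd p hp2 S hpS hcg hcl hh hex hsv U₀ hU₀)
    (by
      intro C hC hCp M hM
      have h : finrank (ZMod p)
            ↥((Rep.res (QuotientGroup.mk' U₀) (Rep.coind C.subtype M)).ρ.invariants) +
          finrank (ZMod p)
            (levH2 (towerS S) (Rep.res (QuotientGroup.mk' U₀) (Rep.coind C.subtype M))) +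
          finrank (ZMod p) (Rep.coind C.subtype M).V =
          finrank (ZMod p)
            ↥(levH1 (towerS S) (Rep.res (QuotientGroup.mk' U₀) (Rep.coind C.subtype M))) +
          finrank (ZMod p) ↥((Rep.res archimedeanLoc
            (Rep.res (QuotientGroup.mk' U₀) (Rep.coind C.subtype M))).ρ.invariants) :=
        (hcyc p hp2 S hpS hcg hcl hh hex hsv U₀ hU₀ C hC hCp M hM).2
      by_cases hX : Module.Finite (ZMod p) (Rep.coind C.subtype M).V
      · rw [asmPhi_of_finite p S U₀ _ hX]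
        omega
      · exact asmPhi_of_not_finite p S U₀ _ hX)
    (B.ofQuotient U₀) (inferInstanceAs (Module.Finite (ZMod p) B.V))
  refine ⟨hfd, ?_⟩
  rw [asmPhi_of_finite p S U₀ _ (inferInstanceAs (Module.Finite (ZMod p) B.V))] at hφ
  have hφ' : ((finrank (ZMod p) ↥(B.ρ.invariants) + finrank (ZMod p) (levH2 (towerS S) B) +
        finrank (ZMod p) B.V : ℕ) : ℤ) -
      ((finrank (ZMod p) ↥(levH1 (towerS S) B) +
        finrank (ZMod p) ↥((Rep.res archimedeanLoc B).ρ.invariants) : ℕ) : ℤ) = 0 := hφ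
  omega

end Fermat.Agent.TW.E

end


end ZBTW_038_0

/-! ### bundled: `Fermat.Agent.TW.E.KumAsm` -/
section ZBTW_038_1
/-
Project TW (S56) — part TW-E, block E-cyc (captain helper75): piece **Y-asm1**,
the assembly of the Kummer package `StmtKum` from its pieces.  Names `kua_*`.
-/

set_option autoImplicit false
set_option linter.unusedSectionVars false
set_option linter.style.haveILetI false

noncomputable section

namespace Fermat.Agent.TW.E

open CategoryTheory groupCohomology Module Fermat.Agent.PT Fermat.Agent.PT.F Fermat.Agent.PT.B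
  Fermat.Agent.TW.F ExtCitation

/-- `𝓜_U` is trivial on `U` when `χ|_U = 1` -/
theorem kua_trivOnLevel {p : ℕ} {G : Type} [Group G] (𝒯 : Tower G) (χ : G →* (ZMod p)ˣ)
    (U : Subgroup G) [U.Normal] (hU : U ∈ 𝒯.lev) (hχ : ∀ s ∈ U, χ s = 1) :
    TrivOnLevel 𝒯 (regMu χ U) := by
  refine ⟨U, hU, fun s hs => ?_⟩
  ext ψ
  funext γ
  show ((χ s : (ZMod p)ˣ) : ZMod p) * (ψ : (G ⧸ U) → ZMod p) ((s : G ⧸ U)⁻¹ * γ) = ψ γ
  rw [hχ s hs, (QuotientGroup.eq_one_iff s).2 hs, inv_one, one_mul, Units.val_one, one_mul]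

/-- the value of an additive function on the zero... iso-invariance under an isomorphism -/
theorem kua_iso {k Γ : Type} [Field k] [Group Γ] {ψ : Rep.{0} k Γ → ℤ} (hψ : IsAddFun ψ)
    {M N : Rep.{0} k Γ} (h : Nonempty (M ≅ N)) : ψ M = ψ N := hψ.iso M N h

/-- **Y-asm1**, with the class-number input in the form in which it is proved (K-Cl,
`StmtClFin'` of `ClFin.lean`: for an odd `p ∈ S` and the five hypotheses of the datum). -/
theorem stmtKum_of' (hGF : Fermat.Agent.TW.F.StmtGloFin) (hH2Fin : StmtH2Fin)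
    (hPD : StmtPDepthTower) (hHU : StmtHerbUnits) (hHF : StmtHerbFin) (hHM : StmtHerbModels)
    (hKS : StmtKumSplice) (hTS : StmtTorSplice) (hSA : StmtSigmaAdd) (hK0 : StmtKumH0)
    (hK1 : StmtKumH1) (hK2 : StmtKumH2) (hBS : StmtBrSeq) (hBJ : StmtBrJ) (hBC : StmtBrC)
    (hCl : ∀ (p : ℕ) [Fact p.Prime] (_ : p ≠ 2) (S : Finset Nat.Primes) (_ : pPrime p ∈ S),
        StmtCmGlob → StmtCmLoc → StmtH90Loc → StmtExistC → StmtSurvC →
        ∀ (U : Subgroup GQ) [U.Normal], U ∈ (towerS S).lev →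
          Finite ↥(levH1 (towerS S) (homRep (permZ GQ (GQ ⧸ U)) (ERep S))))
    (hUn : StmtUnitsCyc) : StmtKum := by
  intro p _ hp2 S hpS hcg hcl hh hex hsv U _ hU hχ
  haveI : Nonempty ↥S := ⟨⟨pPrime p, hpS⟩⟩
  haveI : U.FiniteIndex := (towerS S).finiteIndex U hU
  haveI : Finite (GQ ⧸ U) := Subgroup.finite_quotient_of_finiteIndex
  set D := concreteDatum p hp2 S hpS hcg hcl hh hex hsv with hD
  have hPDG : HasPDepthGlob D := asm_hasPDepthGlob hPD p hp2 S hpS hcg hcl hh hex hsv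
  have hU' : U ∈ D.𝒯.lev := hU
  have hχ' : ∀ s ∈ U, D.χ s = 1 := hχ
  have htriv : TrivOnLevel D.𝒯 (regMu D.χ U) := kua_trivOnLevel D.𝒯 D.χ U hU' hχ'
  haveI : Fintype (GQ ⧸ U) := Fintype.ofFinite _
  haveI hfd : FiniteDimensional (ZMod p) (regMu D.χ U) := by
    change Module.Finite (ZMod p) ((GQ ⧸ U) → ZMod p)
    infer_instance
  have hf1 : Module.Finite (ZMod p) ↥(levH1 D.𝒯 (regMu D.χ U)) := by
    haveI : Finite ↥(levH1 D.𝒯 (regMu D.χ U)) := hGF p GQ ↥S (GlocS S) D (regMu D.χ U) htriv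
    exact Module.Finite.of_finite
  have hf2 : Module.Finite (ZMod p) (levH2 D.𝒯 (regMu D.χ U)) :=
    hH2Fin p GQ ↥S (GlocS S) D hPDG (regMu D.χ U) htriv
  refine ⟨hf1, hf2, fun ψ hψ => ?_⟩
  -- the models
  obtain ⟨⟨Xm, hXm⟩, -, -, -, -, -⟩ := hHM p (GQ ⧸ U) (cycUnits D U)
  obtain ⟨⟨Clm, hClm⟩, ⟨Clt, hClt⟩, -, -, -, -⟩ := hHM p (GQ ⧸ U) (cycZ1 U D.E D.𝒯)
  obtain ⟨-, ⟨Brt, hBrt⟩, -, -, -, -⟩ := hHM p (GQ ⧸ U) (cycZ2 U D.E D.𝒯)
  obtain ⟨BJt, hBJt, hBJiso⟩ := hBJ p GQ ↥S (GlocS S) D hPDG U hU'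
  obtain ⟨BCt, hBCt, hBCiso⟩ := hBC p GQ ↥S (GlocS S) D hPDG U hU'
  have hXt : IsTorP p (cycUnits D U) (cycH0 D.χ U) := hK0 p GQ ↥S (GlocS S) D U hU' hχ'
  -- the Kummer sequences
  have e1 : ψ (cycH1 D.𝒯 D.χ U) = ψ Xm + ψ Clt :=
    hKS p (GQ ⧸ U) ψ hψ (cycUnits D U) (cycZ1 U D.E D.𝒯) (cycH1 D.𝒯 D.χ U) hf1
      (hK1 p GQ ↥S (GlocS S) D U hU' hχ') Xm Clt hXm hClt
  have e2 : ψ (cycH2 D.𝒯 D.χ U) = ψ Clm + ψ Brt :=
    hKS p (GQ ⧸ U) ψ hψ (cycZ1 U D.E D.𝒯) (cycZ2 U D.E D.𝒯) (cycH2 D.𝒯 D.χ U) hf2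
      (hK2 p GQ ↥S (GlocS S) D U hU' hχ') Clm Brt hClm hBrt
  -- the class group
  have e3 : ψ Clm = ψ Clt :=
    hHF p (GQ ⧸ U) ψ hψ (cycZ1 U D.E D.𝒯) (hCl p hp2 S hpS hcg hcl hh hex hsv U hU) Clm Clt hClm hClt
  -- the Brauer group
  have hBJfin : Module.Finite (ZMod p) BJt.V := by
    obtain ⟨i⟩ := hBJiso
    haveI : Module.Finite (ZMod p)
        (Rep.ofMulAction (ZMod p) (GQ ⧸ U) (Σ v : ↥S, (GQ ⧸ U) ⧸ cycDec D U v)).V := by
      change Module.Finite (ZMod p) (MonoidAlgebra (ZMod p) (Σ v : ↥S, (GQ ⧸ U) ⧸ cycDec D U v))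
      infer_instance
    exact Module.Finite.of_surjective i.inv.hom.toLinearMap (asm_iso_bij i.symm).2
  have e4 : ψ BJt = ψ Brt + ψ BCt :=
    hTS p (GQ ⧸ U) ψ hψ (cycZ2 U D.E D.𝒯) (cycZ2 U (PTJ D) D.𝒯) (cycZ2 U D.C D.𝒯)
      (hBS p GQ ↥S (GlocS S) D hPDG U hU') Brt BJt BCt hBrt hBJt hBCt hBJfin
  have e5 : ψ BJt = ψ (Rep.ofMulAction (ZMod p) (GQ ⧸ U) (Σ v : ↥S, (GQ ⧸ U) ⧸ cycDec D U v)) :=
    hψ.iso _ _ hBJiso
  have e6 : ψ BCt = ψ (Rep.trivial (ZMod p) (GQ ⧸ U) (ZMod p)) := hψ.iso _ _ hBCiso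
  -- the units
  obtain ⟨hFG, hrk⟩ := hUn p hp2 S hpS hcg hcl hh hex hsv U hU
  have e7 : ψ Xm - ψ (cycH0 D.χ U) + ψ (Rep.trivial (ZMod p) (GQ ⧸ U) (ZMod p)) =
      ψ (Rep.ofMulAction (ZMod p) (GQ ⧸ U)
        (Σ i : Option ↥S, (GQ ⧸ U) ⧸ cycPl D U (cycConj U) i)) :=
    hHU p (GQ ⧸ U) ψ hψ (cycUnits D U) hFG
      (Σ i : Option ↥S, (GQ ⧸ U) ⧸ cycPl D U (cycConj U) i) hrk Xm (cycH0 D.χ U) hXm hXt
  -- the places
  have e8 : ψ (Rep.ofMulAction (ZMod p) (GQ ⧸ U)
        (Σ i : Option ↥S, (GQ ⧸ U) ⧸ cycPl D U (cycConj U) i)) =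
      ∑ i : Option ↥S, ψ (Rep.ofMulAction (ZMod p) (GQ ⧸ U)
        ((GQ ⧸ U) ⧸ cycPl D U (cycConj U) i)) :=
    hSA (ZMod p) (GQ ⧸ U) ψ hψ (Option ↥S)
      (fun i => (GQ ⧸ U) ⧸ cycPl D U (cycConj U) i)
  have e9 : ψ (Rep.ofMulAction (ZMod p) (GQ ⧸ U) (Σ v : ↥S, (GQ ⧸ U) ⧸ cycDec D U v)) =
      ∑ v : ↥S, ψ (Rep.ofMulAction (ZMod p) (GQ ⧸ U) ((GQ ⧸ U) ⧸ cycDec D U v)) :=
    hSA (ZMod p) (GQ ⧸ U) ψ hψ ↥S (fun v => (GQ ⧸ U) ⧸ cycDec D U v)
  rw [Fintype.sum_option] at e8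
  have e10 : ψ (Rep.ofMulAction (ZMod p) (GQ ⧸ U)
        ((GQ ⧸ U) ⧸ cycPl D U (cycConj U) none)) =
      ψ (Rep.ofMulAction (ZMod p) (GQ ⧸ U) ((GQ ⧸ U) ⧸ Subgroup.zpowers (cycConj U))) := rfl
  have e11 : (∑ v : ↥S, ψ (Rep.ofMulAction (ZMod p) (GQ ⧸ U)
        ((GQ ⧸ U) ⧸ cycPl D U (cycConj U) (some v)))) =
      ∑ v : ↥S, ψ (Rep.ofMulAction (ZMod p) (GQ ⧸ U) ((GQ ⧸ U) ⧸ cycDec D U v)) := rfl
  show ψ (cycH0 D.χ U) + ψ (cycH2 D.𝒯 D.χ U) +
      ψ (Rep.ofMulAction (ZMod p) (GQ ⧸ U) ((GQ ⧸ U) ⧸ Subgroup.zpowers (cycConj U))) =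
    ψ (cycH1 D.𝒯 D.χ U)
  linarith

/-- **Y-asm1.** -/
theorem stmtKum_of (hGF : Fermat.Agent.TW.F.StmtGloFin) (hH2Fin : StmtH2Fin)
    (hPD : StmtPDepthTower) (hHU : StmtHerbUnits) (hHF : StmtHerbFin) (hHM : StmtHerbModels)
    (hKS : StmtKumSplice) (hTS : StmtTorSplice) (hSA : StmtSigmaAdd) (hK0 : StmtKumH0)
    (hK1 : StmtKumH1) (hK2 : StmtKumH2) (hBS : StmtBrSeq) (hBJ : StmtBrJ) (hBC : StmtBrC)
    (hCl : StmtClFin) (hUn : StmtUnitsCyc) : StmtKum :=
  stmtKum_of' hGF hH2Fin hPD hHU hHF hHM hKS hTS hSA hK0 hK1 hK2 hBS hBJ hBC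
    (fun _ _ _ S hpS _ _ _ _ _ U _ hU => hCl S ⟨_, hpS⟩ U hU) hUn

end Fermat.Agent.TW.E

end


end ZBTW_038_1

/-! ### bundled: `Fermat.Agent.TW.E.LinkAsm` -/
section ZBTW_038_2
/-
Project TW (S56) — part TW-E, block E-cyc (captain helper75): pieces **Y-asm3** and **Y-asm2**.
* `stmtLinkAsm : StmtLinkAsm`  (`StmtLinkAdd → StmtLinkFun → StmtLinkArch → StmtLink`);
* `stmtCycChi_of` : `cycloChar p c = -1` (`c` = complex conjugation) `→ StmtKum → StmtLink → StmtCycChi`.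
Names `cya_*`.
-/

set_option autoImplicit false
set_option linter.unusedSectionVars false
set_option linter.style.haveILetI false

noncomputable section

namespace Fermat.Agent.TW.E

open CategoryTheory groupCohomology Module Fermat.Agent.PT Fermat.Agent.PT.F Fermat.Agent.PT.B
  Fermat.Agent.TW.F ExtCitation

/-- **Y-asm3.** -/
theorem stmtLinkAsm : StmtLinkAsm := by
  intro hAdd hFun hArch p _ hp2 G _ 𝒯 χ U _ hU hχ hf1 hf2 c hcc hχc C hC M hM
  haveI : U.FiniteIndex := 𝒯.finiteIndex U hU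
  haveI : Finite (G ⧸ U) := Subgroup.finite_quotient_of_finiteIndex
  haveI := hM
  have hN : Module.Finite (ZMod p) (M.dualTwist ((cycChi χ U hχ).comp C.subtype)).V := by
    change Module.Finite (ZMod p) (Module.Dual (ZMod p) M.V)
    infer_instance
  refine ⟨linkPsi C (M.dualTwist ((cycChi χ U hχ).comp C.subtype)),
    hAdd p (G ⧸ U) C hC _ hN, ?_⟩
  obtain ⟨h2f, h0, h1, h2⟩ := hFun p G 𝒯 χ U hU hχ hf1 hf2 C hC M hM
  refine ⟨h2f, h0, h1, h2, ?_⟩
  have hcc' : ((c : G) : G ⧸ U) * ((c : G) : G ⧸ U) = 1 := by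
    rw [← QuotientGroup.mk_mul, hcc]
    rfl
  have hχc' : cycChi χ U hχ ((c : G) : G ⧸ U) = -1 := by
    rw [← hχc]
    rfl
  exact hArch p hp2 (G ⧸ U) (cycChi χ U hχ) ((c : G) : G ⧸ U) hcc' hχc' C hC M hM

/-- the invariants of complex conjugation, as a kernel -/
theorem cya_cinv_eq {p : ℕ} (B : Rep.{0} (ZMod p) GQ) :
    finrank (ZMod p) ↥((Rep.res archimedeanLoc B).ρ.invariants) =
      finrank (ZMod p) ↥(LinearMap.ker (B.ρ complexConjugation - 1)) := by
  have h : ((Rep.res archimedeanLoc B).ρ.invariants : Submodule (ZMod p) B.V) =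
      LinearMap.ker (B.ρ complexConjugation - 1) := by
    ext x
    rw [asm_mem_cinv, LinearMap.mem_ker, LinearMap.sub_apply, Module.End.one_apply, sub_eq_zero]
  exact congrArg (fun W : Submodule (ZMod p) B.V => finrank (ZMod p) ↥W) h

/-- **Y-asm2.** -/
theorem stmtCycChi_of (hconj : ∀ (p : ℕ) [Fact p.Prime], p ≠ 2 → cycloChar p complexConjugation = -1)
    (hKum : StmtKum) (hLink : StmtLink) : StmtCycChi := by
  intro p _ hp2 S hpS hcg hcl hh hex hsv U _ hU hχ C hC M hM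
  obtain ⟨hf1, hf2, hK⟩ := hKum p hp2 S hpS hcg hcl hh hex hsv U hU hχ
  obtain ⟨ψ, hψ, h2f, h0, h1, h2, ha⟩ :=
    hLink p hp2 GQ (towerS S) (cycloChar p) U hU hχ hf1 hf2 complexConjugation
      complexConjugation_mul_self (hconj p hp2) C hC M hM
  have hk := hK ψ hψ
  refine ⟨h2f, ?_⟩
  rw [cya_cinv_eq]
  have hk' : ψ (cycH0 (cycloChar p) U) + ψ (cycH2 (towerS S) (cycloChar p) U) +
      ψ (Rep.ofMulAction (ZMod p) (GQ ⧸ U)
        ((GQ ⧸ U) ⧸ Subgroup.zpowers ((complexConjugation : GQ) : GQ ⧸ U))) =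
      ψ (cycH1 (towerS S) (cycloChar p) U) := hk
  have key : ((finrank (ZMod p)
      ↥((Rep.res (QuotientGroup.mk' U) (Rep.coind C.subtype M)).ρ.invariants) +
      finrank (ZMod p) (levH2 (towerS S) (Rep.res (QuotientGroup.mk' U) (Rep.coind C.subtype M))) +
      finrank (ZMod p) (Rep.res (QuotientGroup.mk' U) (Rep.coind C.subtype M)).V : ℕ) : ℤ) =
      ((finrank (ZMod p)
        ↥(levH1 (towerS S) (Rep.res (QuotientGroup.mk' U) (Rep.coind C.subtype M))) +
      finrank (ZMod p) ↥(LinearMap.ker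
        ((Rep.res (QuotientGroup.mk' U) (Rep.coind C.subtype M)).ρ complexConjugation - 1)) : ℕ) :
        ℤ) := by
    push_cast
    rw [h0, h1, h2, ha]
    linarith
  exact_mod_cast key

end Fermat.Agent.TW.E

end


end ZBTW_038_2
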