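/- GENERATED FILE (helper35, build-time optimisation, NOTES/ZB.md): verbatim concatenation of the modules
   Fermat.Agent.TW.E.LESAlg
   Fermat.Agent.TW.E.LESBasic
   Fermat.Agent.TW.E.LESMaps
   Fermat.Agent.TW.E.LESConn
   Fermat.Agent.TW.E.LESExact
   Fermat.Agent.TW.E.Add
   Do not edit; do not import together with these modules. -/
import Mathlib
import Fermat.Agent.ZB.TW_014
import Fermat.Agent.ZB.PT_046

/-! ### bundled: `Fermat.Agent.TW.E.LESAlg` -/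
section ZBTW_039_0
/-
TW-E / A10 (helper30), part 1: abstract linear algebra for the long exact sequence.

* `eaddLift α β hα h : V →ₗ W` for `α : X → V` surjective, `β : X → W`, `ker α ≤ ker β`
  (`eaddLift_apply : eaddLift α β hα h (α x) = β x`);
* `eadd_count`: the alternating sum of dimensions in a nine-term exact sequence
  `0 → P0 → Q0 → R0 → P1 → Q1 → R1 → P2 → Q2 → R2 → 0` vanishes.

All codomains carry only `[AddCommMonoid] [Module]` (see the technical note in TW/F/GWFinal.lean: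
`levH2` is a quotient module).
-/

set_option autoImplicit false

noncomputable section

namespace Fermat.Agent.TW.E

open Module

section Lift

variable {k : Type} [Ring k] {X V W : Type} [AddCommGroup X] [Module k X]
  [AddCommMonoid V] [Module k V] [AddCommMonoid W] [Module k W]

/-- The map `V → W` induced by `β : X → W` along a surjection `α : X → V` with
`ker α ≤ ker β`. -/
def eaddLift (α : X →ₗ[k] V) (β : X →ₗ[k] W) (hα : Function.Surjective α)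
    (h : ∀ x, α x = 0 → β x = 0) : V →ₗ[k] W where
  toFun v := β (Classical.choose (hα v))
  map_add' v w := by
    let _ : AddCommGroup V := Module.addCommMonoidToAddCommGroup k
    let _ : AddCommGroup W := Module.addCommMonoidToAddCommGroup k
    rw [← map_add, ← sub_eq_zero, ← map_sub]
    apply h
    rw [map_sub, map_add, Classical.choose_spec (hα (v + w)), Classical.choose_spec (hα v),
      Classical.choose_spec (hα w), sub_self]
  map_smul' c v := by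
    let _ : AddCommGroup V := Module.addCommMonoidToAddCommGroup k
    let _ : AddCommGroup W := Module.addCommMonoidToAddCommGroup k
    rw [RingHom.id_apply, ← map_smul, ← sub_eq_zero, ← map_sub]
    apply h
    rw [map_sub, map_smul, Classical.choose_spec (hα (c • v)), Classical.choose_spec (hα v),
      sub_self]

theorem eaddLift_apply (α : X →ₗ[k] V) (β : X →ₗ[k] W) (hα : Function.Surjective α)
    (h : ∀ x, α x = 0 → β x = 0) (x : X) : eaddLift α β hα h (α x) = β x := by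
  let _ : AddCommGroup V := Module.addCommMonoidToAddCommGroup k
  let _ : AddCommGroup W := Module.addCommMonoidToAddCommGroup k
  show β (Classical.choose (hα (α x))) = β x
  rw [← sub_eq_zero, ← map_sub]
  apply h
  rw [map_sub, Classical.choose_spec (hα (α x)), sub_self]

end Lift

section Count

variable {k : Type} [Field k]

/-- rank–nullity, codomain an `AddCommMonoid`, in pointwise form: if `K` is the kernel and `R`
the range of `f`, then `dim R + dim K = dim X`. -/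
theorem eadd_rank_nullity {X Y : Type} [AddCommGroup X] [Module k X]
    [AddCommMonoid Y] [Module k Y] [Module.Finite k X] (f : X →ₗ[k] Y) :
    finrank k ↥(LinearMap.range f) + finrank k ↥(LinearMap.ker f) = finrank k X := by
  let _ : AddCommGroup Y := Module.addCommMonoidToAddCommGroup k
  exact LinearMap.finrank_range_add_finrank_ker f

/-- The dimension count of an exact sequence `X → Y → Z` at `Y`, `Y` finite-dimensional:
`dim Y = dim range(X → Y) + dim range(Y → Z)`. -/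
theorem eadd_exact_count {X Y Z : Type} [AddCommMonoid X] [Module k X]
    [AddCommMonoid Y] [Module k Y] [AddCommMonoid Z] [Module k Z] [Module.Finite k Y]
    (f : X →ₗ[k] Y) (g : Y →ₗ[k] Z) (h : ∀ y, g y = 0 ↔ ∃ x, f x = y) :
    finrank k Y = finrank k ↥(LinearMap.range f) + finrank k ↥(LinearMap.range g) := by
  let _ : AddCommGroup Y := Module.addCommMonoidToAddCommGroup k
  have hker : LinearMap.ker g = LinearMap.range f := by
    ext y
    rw [LinearMap.mem_ker, LinearMap.mem_range]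
    exact h y
  have := eadd_rank_nullity g
  rw [hker] at this
  omega

/-- the range of an injective map has the dimension of the source -/
theorem eadd_finrank_range_of_inj {X Y : Type} [AddCommMonoid X] [Module k X]
    [AddCommMonoid Y] [Module k Y] (f : X →ₗ[k] Y) (hf : Function.Injective f) :
    finrank k ↥(LinearMap.range f) = finrank k X := by
  let _ : AddCommGroup X := Module.addCommMonoidToAddCommGroup k
  let _ : AddCommGroup Y := Module.addCommMonoidToAddCommGroup k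
  exact LinearMap.finrank_range_of_inj hf

/-- the range of a surjective map has the dimension of the target -/
theorem eadd_finrank_range_of_surj {X Y : Type} [AddCommMonoid X] [Module k X]
    [AddCommMonoid Y] [Module k Y] (f : X →ₗ[k] Y) (hf : Function.Surjective f) :
    finrank k ↥(LinearMap.range f) = finrank k Y := by
  rw [LinearMap.range_eq_top.2 hf, finrank_top]

end Count

end Fermat.Agent.TW.E

end


end ZBTW_039_0

/-! ### bundled: `Fermat.Agent.TW.E.LESBasic` -/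
section ZBTW_039_1
/-
TW-E / A10 (helper30), part 2: cochain-level facts for the level long exact sequence.

`B` a representation of `G` over `ZMod p`, trivial on a level of the tower `𝒯`.
* `eadd_isLevel_d01`, `eadd_isLevel_d12`: coboundaries of level cochains are level;
* `eadd_push_d01`, `eadd_push_d12`: equivariant maps commute with `d`;
* `eadd_cocycle₁_of_push`, `eadd_cocycle₂_of_push`: an injective equivariant map detects cocycles;
* `eadd_triv_of_injective`, `eadd_triv_of_surjective`.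
-/

set_option autoImplicit false

noncomputable section

namespace Fermat.Agent.TW.E

open CategoryTheory groupCohomology Module Fermat.Agent.PT Fermat.Agent.PT.F Fermat.Agent.TW.F

section Basic

variable {p : ℕ} {G : Type} [Group G] {𝒯 : Tower G}

/-- `TrivOnLevel` with a NORMAL level. -/
theorem eadd_triv_normal {B : Rep.{0} (ZMod p) G} (hB : TrivOnLevel 𝒯 B) :
    ∃ U ∈ 𝒯.lev, U.Normal ∧ ∀ s ∈ U, ∀ b : B.V, B.ρ s b = b := by
  obtain ⟨U, hU, hUt⟩ := hB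
  obtain ⟨V, hV, hVU, hVn⟩ := 𝒯.exists_normal U hU
  refine ⟨V, hV, hVn, fun s hs b => ?_⟩
  rw [hUt s (hVU hs)]
  rfl

/-- the difference of level cochains is level -/
theorem eadd_isLevel₁_sub {X : Type} [Sub X] {x y : G → X} (hx : IsLevel₁ 𝒯 x)
    (hy : IsLevel₁ 𝒯 y) : IsLevel₁ 𝒯 (fun σ => x σ - y σ) := by
  obtain ⟨U, hU, h⟩ := hx
  obtain ⟨U', hU', h'⟩ := hy
  refine ⟨U ⊓ U', 𝒯.inf_mem U U' hU hU', fun g s hs => ?_⟩
  simp only
  rw [h g s hs.1, h' g s hs.2]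

/-- the difference of level 2-cochains is level -/
theorem eadd_isLevel₂_sub {X : Type} [Sub X] {x y : G × G → X} (hx : IsLevel₂ 𝒯 x)
    (hy : IsLevel₂ 𝒯 y) : IsLevel₂ 𝒯 (fun s => x s - y s) := by
  obtain ⟨U, hU, h⟩ := hx
  obtain ⟨U', hU', h'⟩ := hy
  refine ⟨U ⊓ U', 𝒯.inf_mem U U' hU hU', fun g g' s s' hs hs' => ?_⟩
  simp only
  rw [h g g' s s' hs.1 hs'.1, h' g g' s s' hs.2 hs'.2]

/-- `σ ↦ σ b - b` is level. -/
theorem eadd_isLevel_d01 {B : Rep.{0} (ZMod p) G} (hB : TrivOnLevel 𝒯 B) (b : B.V) :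
    IsLevel₁ 𝒯 ((d₀₁ B).hom b) := by
  obtain ⟨U, hU, -, hUt⟩ := eadd_triv_normal hB
  refine ⟨U, hU, fun g s hs => ?_⟩
  rw [d₀₁_hom_apply, d₀₁_hom_apply, map_mul, Module.End.mul_apply, hUt s hs]

/-- `d` of a level 1-cochain is a level 2-cochain. -/
theorem eadd_isLevel_d12 {B : Rep.{0} (ZMod p) G} (hB : TrivOnLevel 𝒯 B) (x : G → B.V)
    (hx : IsLevel₁ 𝒯 x) : IsLevel₂ 𝒯 ((d₁₂ B).hom x) := by
  obtain ⟨U, hU, hUn, hUt⟩ := eadd_triv_normal hB
  obtain ⟨V, hV, hx⟩ := hx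
  obtain ⟨W, hW, hWle, hWn⟩ := 𝒯.exists_normal (U ⊓ V) (𝒯.inf_mem U V hU hV)
  refine ⟨W, hW, fun g g' s s' hs hs' => ?_⟩
  have hsU : s ∈ U := (hWle hs).1
  have hsV : s ∈ V := (hWle hs).2
  have hs'V : s' ∈ V := (hWle hs').2
  rw [d₁₂_hom_apply, d₁₂_hom_apply]
  simp only
  have e1 : x (g' * s') = x g' := hx g' s' hs'V
  have e2 : x (g * s) = x g := hx g s hsV
  have e3 : x (g * s * (g' * s')) = x (g * g') := by
    have h1 : g * s * (g' * s') = g * g' * (g'⁻¹ * s * g' * s') := by group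
    rw [h1]
    apply hx
    apply V.mul_mem _ hs'V
    have := hWn.conj_mem s hs g'⁻¹
    rw [inv_inv] at this
    exact (hWle this).2
  rw [e1, e2, e3, map_mul, Module.End.mul_apply, hUt s hsU]

variable {B B' : Rep.{0} (ZMod p) G} (φ : B ⟶ B')

/-- equivariant maps commute with `d₀₁` -/
theorem eadd_push_d01 (b : B.V) (σ : G) :
    φ.hom ((d₀₁ B).hom b σ) = (d₀₁ B').hom (φ.hom b) σ := by
  rw [d₀₁_hom_apply, d₀₁_hom_apply, map_sub, Rep.hom_comm_apply]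

/-- equivariant maps commute with `d₁₂` -/
theorem eadd_push_d12 (x : G → B.V) (s : G × G) :
    φ.hom ((d₁₂ B).hom x s) = (d₁₂ B').hom (fun σ => φ.hom (x σ)) s := by
  rw [d₁₂_hom_apply, d₁₂_hom_apply, map_add, map_sub, Rep.hom_comm_apply]

/-- push-forward of a 1-cocycle -/
theorem eadd_push_cocycle₁ (x : G → B.V) (hx : x ∈ cocycles₁ B) :
    (fun σ => φ.hom (x σ)) ∈ cocycles₁ B' := by
  rw [mem_cocycles₁_iff] at hx ⊢
  intro g h
  show φ.hom (x (g * h)) = B'.ρ g (φ.hom (x h)) + φ.hom (x g)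
  rw [hx g h, map_add, Rep.hom_comm_apply]

/-- push-forward of a 2-cocycle -/
theorem eadd_push_cocycle₂ (x : G × G → B.V) (hx : x ∈ cocycles₂ B) :
    (fun s => φ.hom (x s)) ∈ cocycles₂ B' := by
  rw [mem_cocycles₂_iff] at hx ⊢
  intro g h j
  show φ.hom (x (g * h, j)) + φ.hom (x (g, h)) = B'.ρ g (φ.hom (x (h, j))) + φ.hom (x (g, h * j))
  rw [← map_add, hx g h j, map_add, Rep.hom_comm_apply]

/-- an injective equivariant map detects 1-cocycles -/
theorem eadd_cocycle₁_of_push (hφ : Function.Injective φ.hom) (x : G → B.V)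
    (hx : (fun σ => φ.hom (x σ)) ∈ cocycles₁ B') : x ∈ cocycles₁ B := by
  rw [mem_cocycles₁_iff] at hx ⊢
  intro g h
  apply hφ
  have : φ.hom (x (g * h)) = B'.ρ g (φ.hom (x h)) + φ.hom (x g) := hx g h
  rw [this, map_add, Rep.hom_comm_apply]

/-- an injective equivariant map detects 2-cocycles -/
theorem eadd_cocycle₂_of_push (hφ : Function.Injective φ.hom) (x : G × G → B.V)
    (hx : (fun s => φ.hom (x s)) ∈ cocycles₂ B') : x ∈ cocycles₂ B := by
  rw [mem_cocycles₂_iff] at hx ⊢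
  intro g h j
  apply hφ
  have : φ.hom (x (g * h, j)) + φ.hom (x (g, h)) =
      B'.ρ g (φ.hom (x (h, j))) + φ.hom (x (g, h * j)) := hx g h j
  rw [map_add, this, map_add, Rep.hom_comm_apply]

/-- a subrepresentation of a module trivial on a level is trivial on a level -/
theorem eadd_triv_of_injective (hφ : Function.Injective φ.hom) (hB' : TrivOnLevel 𝒯 B') :
    TrivOnLevel 𝒯 B := by
  obtain ⟨U, hU, hUt⟩ := hB'
  refine ⟨U, hU, fun s hs => ?_⟩
  ext b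
  apply hφ
  rw [Rep.hom_comm_apply, hUt s hs]
  rfl

/-- a quotient of a module trivial on a level is trivial on a level -/
theorem eadd_triv_of_surjective (hφ : Function.Surjective φ.hom) (hB : TrivOnLevel 𝒯 B) :
    TrivOnLevel 𝒯 B' := by
  obtain ⟨U, hU, hUt⟩ := hB
  refine ⟨U, hU, fun s hs => ?_⟩
  ext b'
  obtain ⟨b, rfl⟩ := hφ b'
  rw [← Rep.hom_comm_apply, hUt s hs]
  rfl

end Basic

end Fermat.Agent.TW.E

end


end ZBTW_039_1

/-! ### bundled: `Fermat.Agent.TW.E.LESMaps` -/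
section ZBTW_039_2
/-
TW-E / A10 (helper30), part 3: the maps of the level long exact sequence.

For `B` over `ZMod p`:
* `eaddZ1 𝒯 B` level 1-cocycles (as a submodule of `G → B`), `eaddCls1 : Z¹_lev → H¹_lev` (onto);
* `eaddPush1`, `eaddPush2`: push-forward of level cocycles along `φ : B ⟶ B'`;
* `eaddH0 φ`, `eaddH1 𝒯 φ`, `eaddH2 𝒯 φ`: the induced maps on `H⁰`, `H¹_lev`, `H²_lev`.
-/

set_option autoImplicit false

noncomputable section

namespace Fermat.Agent.TW.E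

open CategoryTheory groupCohomology Module Fermat.Agent.PT Fermat.Agent.PT.F Fermat.Agent.TW.F

section Maps

variable {p : ℕ} {G : Type} [Group G] (𝒯 : Tower G)

/-- level 1-cocycles, as a submodule of the functions -/
def eaddZ1 (B : Rep.{0} (ZMod p) G) : Submodule (ZMod p) (G → B.V) :=
  cocycles₁ B ⊓ levCochains₁ 𝒯 B

theorem mem_eaddZ1 (B : Rep.{0} (ZMod p) G) (x : G → B.V) :
    x ∈ eaddZ1 𝒯 B ↔ x ∈ cocycles₁ B ∧ IsLevel₁ 𝒯 x := Iff.rfl

/-- the class of a level 1-cocycle -/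
def eaddCls1 (B : Rep.{0} (ZMod p) G) : ↥(eaddZ1 𝒯 B) →ₗ[ZMod p] ↥(levH1 𝒯 B) :=
  LinearMap.codRestrict (levH1 𝒯 B)
    ((H1π B).hom ∘ₗ (Submodule.inclusion (inf_le_left : eaddZ1 𝒯 B ≤ cocycles₁ B)))
    (fun x => (mem_levH1_iff 𝒯 B _).2 ⟨⟨x.1, x.2.1⟩, x.2.2, rfl⟩)

theorem eaddCls1_val (B : Rep.{0} (ZMod p) G) (x : ↥(eaddZ1 𝒯 B)) :
    ((eaddCls1 𝒯 B x : ↥(levH1 𝒯 B)) : H1 B) = (H1π B).hom ⟨x.1, x.2.1⟩ := rfl

theorem eaddCls1_surjective (B : Rep.{0} (ZMod p) G) : Function.Surjective (eaddCls1 𝒯 B) := by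
  rintro ⟨y, hy⟩
  obtain ⟨c, hc, rfl⟩ := (mem_levH1_iff 𝒯 B y).1 hy
  exact ⟨⟨c.1, c.2, hc⟩, Subtype.ext rfl⟩

theorem eaddCls1_eq_zero_iff (B : Rep.{0} (ZMod p) G) (x : ↥(eaddZ1 𝒯 B)) :
    eaddCls1 𝒯 B x = 0 ↔ (x : G → B.V) ∈ coboundaries₁ B := by
  rw [← Subtype.coe_inj, eaddCls1_val, Submodule.coe_zero]
  exact H1π_eq_zero_iff (⟨x.1, x.2.1⟩ : cocycles₁ B)

variable {𝒯}
variable {B B' : Rep.{0} (ZMod p) G} (φ : B ⟶ B')

/-- push-forward of level 1-cocycles -/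
def eaddPush1 : ↥(eaddZ1 𝒯 B) →ₗ[ZMod p] ↥(eaddZ1 𝒯 B') :=
  (LinearMap.compLeft φ.hom.toLinearMap G).restrict (p := eaddZ1 𝒯 B) (q := eaddZ1 𝒯 B')
    (fun x hx => ⟨eadd_push_cocycle₁ φ x hx.1, hx.2.comp _⟩)

theorem eaddPush1_apply (x : ↥(eaddZ1 𝒯 B)) (σ : G) :
    ((eaddPush1 φ x : ↥(eaddZ1 𝒯 B')) : G → B'.V) σ = φ.hom ((x : G → B.V) σ) := rfl

/-- push-forward of level 2-cocycles -/
def eaddPush2 : ↥(levCocycles₂ 𝒯 B) →ₗ[ZMod p] ↥(levCocycles₂ 𝒯 B') :=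
  (LinearMap.compLeft φ.hom.toLinearMap (G × G)).restrict (p := levCocycles₂ 𝒯 B)
    (q := levCocycles₂ 𝒯 B')
    (fun x hx => ⟨eadd_push_cocycle₂ φ x hx.1, hx.2.comp _⟩)

theorem eaddPush2_apply (x : ↥(levCocycles₂ 𝒯 B)) (s : G × G) :
    ((eaddPush2 φ x : ↥(levCocycles₂ 𝒯 B')) : G × G → B'.V) s = φ.hom ((x : G × G → B.V) s) :=
  rfl

/-- the map on `H⁰` -/
def eaddH0 : ↥(B.ρ.invariants) →ₗ[ZMod p] ↥(B'.ρ.invariants) :=
  φ.hom.toLinearMap.restrict (p := B.ρ.invariants) (q := B'.ρ.invariants)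
    (fun b hb s => by
      show B'.ρ s (φ.hom b) = φ.hom b
      rw [← Rep.hom_comm_apply, hb s])

theorem eaddH0_val (b : ↥(B.ρ.invariants)) :
    ((eaddH0 φ b : ↥(B'.ρ.invariants)) : B'.V) = φ.hom (b : B.V) := rfl

/-- the map on `H¹_lev` -/
def eaddH1 : ↥(levH1 𝒯 B) →ₗ[ZMod p] ↥(levH1 𝒯 B') :=
  eaddLift (eaddCls1 𝒯 B) (eaddCls1 𝒯 B' ∘ₗ eaddPush1 φ) (eaddCls1_surjective 𝒯 B)
    (fun x hx => by
      rw [LinearMap.comp_apply, eaddCls1_eq_zero_iff]
      obtain ⟨b, hb⟩ := (eaddCls1_eq_zero_iff 𝒯 B x).1 hx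
      refine ⟨φ.hom b, ?_⟩
      funext σ
      rw [eaddPush1_apply, ← hb]
      exact (eadd_push_d01 φ b σ).symm)

theorem eaddH1_cls (x : ↥(eaddZ1 𝒯 B)) :
    eaddH1 φ (eaddCls1 𝒯 B x) = eaddCls1 𝒯 B' (eaddPush1 φ x) :=
  eaddLift_apply _ _ _ _ x

/-- the map on `H²_lev` -/
def eaddH2 : levH2 𝒯 B →ₗ[ZMod p] levH2 𝒯 B' :=
  eaddLift (levH2π 𝒯 B) (levH2π 𝒯 B' ∘ₗ eaddPush2 φ) (Submodule.mkQ_surjective _)
    (fun x hx => by
      rw [LinearMap.comp_apply, levH2π_eq_zero_iff]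
      obtain ⟨t, ht, htx⟩ := (mem_levCoboundaries₂_iff 𝒯 B _).1
        ((levH2π_eq_zero_iff 𝒯 B x).1 hx)
      refine (mem_levCoboundaries₂_iff 𝒯 B' _).2 ⟨fun σ => φ.hom (t σ), ht.comp _, ?_⟩
      funext s
      rw [eaddPush2_apply, ← htx]
      exact (eadd_push_d12 φ t s).symm)

theorem eaddH2_cls (x : ↥(levCocycles₂ 𝒯 B)) :
    eaddH2 φ (levH2π 𝒯 B x) = levH2π 𝒯 B' (eaddPush2 φ x) :=
  eaddLift_apply _ _ _ _ x

end Maps

end Fermat.Agent.TW.E

end


end ZBTW_039_2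

/-! ### bundled: `Fermat.Agent.TW.E.LESConn` -/
section ZBTW_039_3
/-
TW-E / A10 (helper30), part 4: the connecting maps of the level long exact sequence.

`0 → B₁ →f B →g B₂ → 0` exact, `B` trivial on a level.
* `eaddRetr f hf` a LINEAR retraction of `f`, `eaddSec g hg` a LINEAR section of `g`
  (not equivariant; only used on elements of `ker g`, resp. to lift level cochains);
* `eaddD0 : H⁰(B₂) → H¹_lev(B₁)`, `b₂ = g b ↦ [σ ↦ f⁻¹(σ b - b)]`;
* `eaddD1 : H¹_lev(B₂) → H²_lev(B₁)`, `[g ∘ x] ↦ [f⁻¹ ∘ d x]` (`x` a level 1-cochain of `B`).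
-/

set_option autoImplicit false

noncomputable section

namespace Fermat.Agent.TW.E

open CategoryTheory groupCohomology Module Fermat.Agent.PT Fermat.Agent.PT.F Fermat.Agent.TW.F

section Conn

variable {p : ℕ} [Fact p.Prime] {G : Type} [Group G] {𝒯 : Tower G}
  {B₁ B B₂ : Rep.{0} (ZMod p) G} (f : B₁ ⟶ B) (g : B ⟶ B₂)

/-- a linear retraction of the injective map `f` -/
def eaddRetr (hf : Function.Injective f.hom) : B.V →ₗ[ZMod p] B₁.V :=
  Classical.choose (LinearMap.exists_leftInverse_of_injective f.hom.toLinearMap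
    (LinearMap.ker_eq_bot.2 hf))

theorem eaddRetr_apply (hf : Function.Injective f.hom) (b₁ : B₁.V) :
    eaddRetr f hf (f.hom b₁) = b₁ := by
  have := Classical.choose_spec (LinearMap.exists_leftInverse_of_injective f.hom.toLinearMap
    (LinearMap.ker_eq_bot.2 hf))
  exact LinearMap.congr_fun this b₁

variable {f g} in
theorem eaddRetr_spec (hf : Function.Injective f.hom) (hex : Function.Exact f.hom g.hom)
    (b : B.V) (hb : g.hom b = 0) : f.hom (eaddRetr f hf b) = b := by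
  obtain ⟨b₁, rfl⟩ := (hex b).1 hb
  rw [eaddRetr_apply]

/-- a linear section of the surjective map `g` -/
def eaddSec (hg : Function.Surjective g.hom) : B₂.V →ₗ[ZMod p] B.V :=
  Classical.choose (LinearMap.exists_rightInverse_of_surjective g.hom.toLinearMap
    (LinearMap.range_eq_top.2 hg))

theorem eaddSec_apply (hg : Function.Surjective g.hom) (b₂ : B₂.V) :
    g.hom (eaddSec g hg b₂) = b₂ := by
  have := Classical.choose_spec (LinearMap.exists_rightInverse_of_surjective g.hom.toLinearMap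
    (LinearMap.range_eq_top.2 hg))
  exact LinearMap.congr_fun this b₂

variable {f g} in
theorem eadd_gf (hex : Function.Exact f.hom g.hom) (b₁ : B₁.V) : g.hom (f.hom b₁) = 0 :=
  (hex _).2 ⟨b₁, rfl⟩

/-! ### `δ⁰` -/

/-- elements of `B` with `G`-invariant image in `B₂` -/
def eaddX0 : Submodule (ZMod p) B.V := (B₂.ρ.invariants).comap g.hom.toLinearMap

theorem mem_eaddX0 (b : B.V) : b ∈ eaddX0 g ↔ ∀ s : G, B₂.ρ s (g.hom b) = g.hom b := Iff.rfl

/-- `X⁰ → H⁰(B₂)` -/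
def eaddA0 : ↥(eaddX0 g) →ₗ[ZMod p] ↥(B₂.ρ.invariants) :=
  g.hom.toLinearMap.restrict (p := eaddX0 g) (q := B₂.ρ.invariants) (fun _ hb => hb)

theorem eaddA0_val (b : ↥(eaddX0 g)) :
    ((eaddA0 g b : ↥(B₂.ρ.invariants)) : B₂.V) = g.hom (b : B.V) := rfl

theorem eaddA0_surjective (hg : Function.Surjective g.hom) : Function.Surjective (eaddA0 g) := by
  rintro ⟨b₂, hb₂⟩
  obtain ⟨b, rfl⟩ := hg b₂
  exact ⟨⟨b, hb₂⟩, Subtype.ext rfl⟩

variable {g} in
/-- for `b ∈ X⁰`, `d b` has values in `ker g` -/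
theorem eadd_g_d01 (b : B.V) (hb : b ∈ eaddX0 g) (σ : G) : g.hom ((d₀₁ B).hom b σ) = 0 := by
  rw [eadd_push_d01, d₀₁_hom_apply, (mem_eaddX0 g b).1 hb σ, sub_self]

variable {f g} in
theorem eadd_f_retr_d01 (hf : Function.Injective f.hom) (hex : Function.Exact f.hom g.hom)
    (b : B.V) (hb : b ∈ eaddX0 g) (σ : G) :
    f.hom (eaddRetr f hf ((d₀₁ B).hom b σ)) = (d₀₁ B).hom b σ :=
  eaddRetr_spec hf hex _ (eadd_g_d01 b hb σ)

/-- `X⁰ → Z¹_lev(B₁)`, `b ↦ f⁻¹ ∘ d b` -/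
def eaddB0 (hf : Function.Injective f.hom) (hex : Function.Exact f.hom g.hom)
    (hB : TrivOnLevel 𝒯 B) : ↥(eaddX0 g) →ₗ[ZMod p] ↥(eaddZ1 𝒯 B₁) :=
  LinearMap.codRestrict (eaddZ1 𝒯 B₁)
    ((LinearMap.compLeft (eaddRetr f hf) G) ∘ₗ (d₀₁ B).hom ∘ₗ (eaddX0 g).subtype)
    (fun b => by
      refine ⟨eadd_cocycle₁_of_push f hf _ ?_, (eadd_isLevel_d01 hB b.1).comp _⟩
      have : (fun σ => f.hom (eaddRetr f hf ((d₀₁ B).hom b.1 σ))) = (d₀₁ B).hom b.1 :=
        funext fun σ => eadd_f_retr_d01 hf hex b.1 b.2 σ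
      show (fun σ => f.hom (eaddRetr f hf ((d₀₁ B).hom b.1 σ))) ∈ cocycles₁ B
      rw [this]
      exact d₀₁_apply_mem_cocycles₁ _)

theorem eaddB0_apply (hf : Function.Injective f.hom) (hex : Function.Exact f.hom g.hom)
    (hB : TrivOnLevel 𝒯 B) (b : ↥(eaddX0 g)) (σ : G) :
    ((eaddB0 f g hf hex hB b : ↥(eaddZ1 𝒯 B₁)) : G → B₁.V) σ =
      eaddRetr f hf ((d₀₁ B).hom (b : B.V) σ) := rfl

theorem eadd_f_B0 (hf : Function.Injective f.hom) (hex : Function.Exact f.hom g.hom)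
    (hB : TrivOnLevel 𝒯 B) (b : ↥(eaddX0 g)) (σ : G) :
    f.hom (((eaddB0 f g hf hex hB b : ↥(eaddZ1 𝒯 B₁)) : G → B₁.V) σ) =
      (d₀₁ B).hom (b : B.V) σ := by
  rw [eaddB0_apply]
  exact eadd_f_retr_d01 hf hex b.1 b.2 σ

/-- **the connecting map** `δ⁰ : H⁰(B₂) → H¹_lev(B₁)` -/
def eaddD0 (hf : Function.Injective f.hom) (hg : Function.Surjective g.hom)
    (hex : Function.Exact f.hom g.hom) (hB : TrivOnLevel 𝒯 B) :
    ↥(B₂.ρ.invariants) →ₗ[ZMod p] ↥(levH1 𝒯 B₁) :=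
  eaddLift (eaddA0 g) (eaddCls1 𝒯 B₁ ∘ₗ eaddB0 f g hf hex hB) (eaddA0_surjective g hg)
    (fun b hb => by
      rw [LinearMap.comp_apply, eaddCls1_eq_zero_iff]
      have hb0 : g.hom (b : B.V) = 0 := by
        have := congrArg Subtype.val hb
        rwa [eaddA0_val] at this
      obtain ⟨b₁, hb₁⟩ := (hex _).1 hb0
      refine ⟨b₁, ?_⟩
      funext σ
      apply hf
      rw [eadd_f_B0, eadd_push_d01, hb₁])

theorem eaddD0_apply (hf : Function.Injective f.hom) (hg : Function.Surjective g.hom)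
    (hex : Function.Exact f.hom g.hom) (hB : TrivOnLevel 𝒯 B) (b : ↥(eaddX0 g)) :
    eaddD0 f g hf hg hex hB (eaddA0 g b) = eaddCls1 𝒯 B₁ (eaddB0 f g hf hex hB b) :=
  eaddLift_apply _ _ _ _ b

/-! ### `δ¹` -/

variable (𝒯) in
/-- level 1-cochains `x` of `B` such that `g ∘ x` is a cocycle -/
def eaddX1 : Submodule (ZMod p) (G → B.V) :=
  levCochains₁ 𝒯 B ⊓ (cocycles₁ B₂).comap (LinearMap.compLeft g.hom.toLinearMap G)

theorem mem_eaddX1 (x : G → B.V) :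
    x ∈ eaddX1 𝒯 g ↔ IsLevel₁ 𝒯 x ∧ (fun σ => g.hom (x σ)) ∈ cocycles₁ B₂ := Iff.rfl

/-- `X¹ → Z¹_lev(B₂)`, `x ↦ g ∘ x` -/
def eaddA1pre : ↥(eaddX1 𝒯 g) →ₗ[ZMod p] ↥(eaddZ1 𝒯 B₂) :=
  (LinearMap.compLeft g.hom.toLinearMap G).restrict (p := eaddX1 𝒯 g) (q := eaddZ1 𝒯 B₂)
    (fun _ hx => ⟨hx.2, hx.1.comp _⟩)

theorem eaddA1pre_apply (x : ↥(eaddX1 𝒯 g)) (σ : G) :
    ((eaddA1pre g x : ↥(eaddZ1 𝒯 B₂)) : G → B₂.V) σ = g.hom ((x : G → B.V) σ) := rfl

/-- `X¹ → H¹_lev(B₂)` -/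
def eaddA1 : ↥(eaddX1 𝒯 g) →ₗ[ZMod p] ↥(levH1 𝒯 B₂) :=
  eaddCls1 𝒯 B₂ ∘ₗ eaddA1pre g

theorem eaddA1_surjective (hg : Function.Surjective g.hom) :
    Function.Surjective (eaddA1 (𝒯 := 𝒯) g) := by
  intro y
  obtain ⟨x₂, rfl⟩ := eaddCls1_surjective 𝒯 B₂ y
  have hfun : (fun σ => g.hom (eaddSec g hg ((x₂ : G → B₂.V) σ))) = (x₂ : G → B₂.V) :=
    funext fun σ => eaddSec_apply g hg _
  refine ⟨⟨fun σ => eaddSec g hg ((x₂ : G → B₂.V) σ), x₂.2.2.comp _, ?_⟩, ?_⟩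
  · show (fun σ => g.hom (eaddSec g hg ((x₂ : G → B₂.V) σ))) ∈ cocycles₁ B₂
    rw [hfun]
    exact x₂.2.1
  · show eaddCls1 𝒯 B₂ _ = eaddCls1 𝒯 B₂ x₂
    congr 1
    exact Subtype.ext hfun

variable {g} in
/-- for `x ∈ X¹`, `d x` has values in `ker g` -/
theorem eadd_g_d12 (x : G → B.V) (hx : x ∈ eaddX1 𝒯 g) (s : G × G) :
    g.hom ((d₁₂ B).hom x s) = 0 := by
  rw [eadd_push_d12]
  have : (d₁₂ B₂).hom (fun σ => g.hom (x σ)) = 0 := hx.2
  rw [this]
  rfl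

variable {f g} in
theorem eadd_f_retr_d12 (hf : Function.Injective f.hom) (hex : Function.Exact f.hom g.hom)
    (x : G → B.V) (hx : x ∈ eaddX1 𝒯 g) (s : G × G) :
    f.hom (eaddRetr f hf ((d₁₂ B).hom x s)) = (d₁₂ B).hom x s :=
  eaddRetr_spec hf hex _ (eadd_g_d12 x hx s)

/-- `X¹ → Z²_lev(B₁)`, `x ↦ f⁻¹ ∘ d x` -/
def eaddB1 (hf : Function.Injective f.hom) (hex : Function.Exact f.hom g.hom)
    (hB : TrivOnLevel 𝒯 B) : ↥(eaddX1 𝒯 g) →ₗ[ZMod p] ↥(levCocycles₂ 𝒯 B₁) :=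
  LinearMap.codRestrict (levCocycles₂ 𝒯 B₁)
    ((LinearMap.compLeft (eaddRetr f hf) (G × G)) ∘ₗ (d₁₂ B).hom ∘ₗ (eaddX1 𝒯 g).subtype)
    (fun x => by
      refine ⟨eadd_cocycle₂_of_push f hf _ ?_, (eadd_isLevel_d12 hB x.1 x.2.1).comp _⟩
      have : (fun s => f.hom (eaddRetr f hf ((d₁₂ B).hom x.1 s))) = (d₁₂ B).hom x.1 :=
        funext fun s => eadd_f_retr_d12 hf hex x.1 x.2 s
      show (fun s => f.hom (eaddRetr f hf ((d₁₂ B).hom x.1 s))) ∈ cocycles₂ B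
      rw [this]
      exact d₁₂_apply_mem_cocycles₂ _)

theorem eaddB1_apply (hf : Function.Injective f.hom) (hex : Function.Exact f.hom g.hom)
    (hB : TrivOnLevel 𝒯 B) (x : ↥(eaddX1 𝒯 g)) (s : G × G) :
    ((eaddB1 f g hf hex hB x : ↥(levCocycles₂ 𝒯 B₁)) : G × G → B₁.V) s =
      eaddRetr f hf ((d₁₂ B).hom (x : G → B.V) s) := rfl

theorem eadd_f_B1 (hf : Function.Injective f.hom) (hex : Function.Exact f.hom g.hom)
    (hB : TrivOnLevel 𝒯 B) (x : ↥(eaddX1 𝒯 g)) (s : G × G) :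
    f.hom (((eaddB1 f g hf hex hB x : ↥(levCocycles₂ 𝒯 B₁)) : G × G → B₁.V) s) =
      (d₁₂ B).hom (x : G → B.V) s := by
  rw [eaddB1_apply]
  exact eadd_f_retr_d12 hf hex x.1 x.2 s

/-- a level cochain with values in `ker g` comes from a level cochain of `B₁` -/
theorem eadd_exists_pull (hf : Function.Injective f.hom) (hex : Function.Exact f.hom g.hom)
    (x : G → B.V) (hx : IsLevel₁ 𝒯 x) (hgx : ∀ σ, g.hom (x σ) = 0) :
    ∃ t : G → B₁.V, IsLevel₁ 𝒯 t ∧ ∀ σ, f.hom (t σ) = x σ :=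
  ⟨fun σ => eaddRetr f hf (x σ), hx.comp _, fun σ => eaddRetr_spec hf hex _ (hgx σ)⟩

/-- **the connecting map** `δ¹ : H¹_lev(B₂) → H²_lev(B₁)` -/
def eaddD1 (hf : Function.Injective f.hom) (hg : Function.Surjective g.hom)
    (hex : Function.Exact f.hom g.hom) (hB : TrivOnLevel 𝒯 B) :
    ↥(levH1 𝒯 B₂) →ₗ[ZMod p] levH2 𝒯 B₁ :=
  eaddLift (eaddA1 g) (levH2π 𝒯 B₁ ∘ₗ eaddB1 f g hf hex hB) (eaddA1_surjective g hg)
    (fun x hx => by
      rw [LinearMap.comp_apply, levH2π_eq_zero_iff]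
      -- `g ∘ x = d b₂`, `b₂ = g b`
      obtain ⟨b₂, hb₂⟩ := (eaddCls1_eq_zero_iff 𝒯 B₂ _).1 hx
      obtain ⟨b, rfl⟩ := hg b₂
      -- `x - d b` has values in `ker g`
      have hker : ∀ σ, g.hom ((x : G → B.V) σ - (d₀₁ B).hom b σ) = 0 := by
        intro σ
        rw [map_sub, eadd_push_d01, sub_eq_zero]
        exact (congrFun hb₂ σ).symm
      obtain ⟨t, ht, htx⟩ := eadd_exists_pull f g hf hex
        (fun σ => (x : G → B.V) σ - (d₀₁ B).hom b σ)
        (eadd_isLevel₁_sub x.2.1 (eadd_isLevel_d01 hB b)) hker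
      refine (mem_levCoboundaries₂_iff 𝒯 B₁ _).2 ⟨t, ht, ?_⟩
      funext s
      apply hf
      rw [eadd_f_B1, eadd_push_d12]
      have h1 : (fun σ => f.hom (t σ)) = (x : G → B.V) - (d₀₁ B).hom b := funext htx
      rw [h1, map_sub]
      have h2 : (d₁₂ B).hom ((d₀₁ B).hom b) = 0 :=
        LinearMap.mem_ker.1 (d₀₁_apply_mem_cocycles₁ b)
      rw [h2, sub_zero])

theorem eaddD1_apply (hf : Function.Injective f.hom) (hg : Function.Surjective g.hom)
    (hex : Function.Exact f.hom g.hom) (hB : TrivOnLevel 𝒯 B) (x : ↥(eaddX1 𝒯 g)) :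
    eaddD1 f g hf hg hex hB (eaddA1 g x) = levH2π 𝒯 B₁ (eaddB1 f g hf hex hB x) :=
  eaddLift_apply _ _ _ _ x

end Conn

end Fermat.Agent.TW.E

end


end ZBTW_039_3

/-! ### bundled: `Fermat.Agent.TW.E.LESExact` -/
section ZBTW_039_4
/-
TW-E / A10 (helper30), part 5: exactness of the level long exact sequence
`0 → H⁰(B₁) → H⁰(B) → H⁰(B₂) → H¹(B₁) → H¹(B) → H¹(B₂) → H²(B₁) → H²(B) → H²(B₂)`
(level cohomology; `0 → B₁ →f B →g B₂ → 0` exact, `B` trivial on a level).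
Every statement has the form `next y = 0 ↔ ∃ x, prev x = y`.
-/

set_option autoImplicit false

noncomputable section

namespace Fermat.Agent.TW.E

open CategoryTheory groupCohomology Module Fermat.Agent.PT Fermat.Agent.PT.F Fermat.Agent.TW.F

section Exact

variable {p : ℕ} [Fact p.Prime] {G : Type} [Group G] {𝒯 : Tower G}
  {B₁ B B₂ : Rep.{0} (ZMod p) G} (f : B₁ ⟶ B) (g : B ⟶ B₂)
  (hf : Function.Injective f.hom) (hg : Function.Surjective g.hom)
  (hex : Function.Exact f.hom g.hom) (hB : TrivOnLevel 𝒯 B)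

/-- equality of classes in `H²_lev` -/
theorem eadd_levH2π_eq {A : Rep.{0} (ZMod p) G} (x y : ↥(levCocycles₂ 𝒯 A))
    (h : (fun s => (x : G × G → A.V) s - (y : G × G → A.V) s) ∈ levCoboundaries₂ 𝒯 A) :
    levH2π 𝒯 A x = levH2π 𝒯 A y := by
  rw [← sub_eq_zero, ← map_sub, levH2π_eq_zero_iff]
  exact h

/-- equality of classes in `H¹_lev` -/
theorem eadd_cls1_eq {A : Rep.{0} (ZMod p) G} (x y : ↥(eaddZ1 𝒯 A))
    (h : (fun σ => (x : G → A.V) σ - (y : G → A.V) σ) ∈ coboundaries₁ A) :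
    eaddCls1 𝒯 A x = eaddCls1 𝒯 A y := by
  rw [← sub_eq_zero, ← map_sub, eaddCls1_eq_zero_iff]
  exact h

include hf in
/-- `H⁰(B₁) → H⁰(B)` is injective -/
theorem eadd_exact0 : Function.Injective (eaddH0 f) := by
  intro x y h
  apply Subtype.ext
  apply hf
  have := congrArg Subtype.val h
  rwa [eaddH0_val, eaddH0_val] at this

include hf hex in
/-- exactness at `H⁰(B)` -/
theorem eadd_exact1 (y : ↥(B.ρ.invariants)) :
    eaddH0 g y = 0 ↔ ∃ x, eaddH0 f x = y := by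
  constructor
  · intro h
    have h0 : g.hom (y : B.V) = 0 := by
      have := congrArg Subtype.val h
      rwa [eaddH0_val] at this
    obtain ⟨b₁, hb₁⟩ := (hex _).1 h0
    refine ⟨⟨b₁, fun s => ?_⟩, Subtype.ext hb₁⟩
    apply hf
    rw [Rep.hom_comm_apply, hb₁]
    exact y.2 s
  · rintro ⟨x, rfl⟩
    apply Subtype.ext
    rw [eaddH0_val, eaddH0_val]
    exact eadd_gf hex _

include hf hg hex hB in
/-- exactness at `H⁰(B₂)` -/
theorem eadd_exact2 (y : ↥(B₂.ρ.invariants)) :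
    eaddD0 f g hf hg hex hB y = 0 ↔ ∃ x, eaddH0 g x = y := by
  constructor
  · intro h
    obtain ⟨b, rfl⟩ := eaddA0_surjective g hg y
    rw [eaddD0_apply, eaddCls1_eq_zero_iff] at h
    obtain ⟨b₁, hb₁⟩ := h
    have hinv : ∀ s : G, B.ρ s ((b : B.V) - f.hom b₁) = (b : B.V) - f.hom b₁ := by
      intro s
      have h1 := congrArg f.hom (congrFun hb₁ s)
      rw [eadd_f_B0, eadd_push_d01, d₀₁_hom_apply, d₀₁_hom_apply] at h1
      rw [map_sub, sub_eq_sub_iff_add_eq_add]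
      rw [sub_eq_sub_iff_add_eq_add] at h1
      rw [← h1]
      exact add_comm _ _
    refine ⟨⟨(b : B.V) - f.hom b₁, hinv⟩, Subtype.ext ?_⟩
    rw [eaddH0_val, eaddA0_val]
    show g.hom ((b : B.V) - f.hom b₁) = g.hom (b : B.V)
    rw [map_sub, eadd_gf hex, sub_zero]
  · rintro ⟨x, rfl⟩
    have hx0 : (x : B.V) ∈ eaddX0 g := fun s => by
      show B₂.ρ s (g.hom (x : B.V)) = g.hom (x : B.V)
      rw [← Rep.hom_comm_apply, x.2 s]
    have e : eaddH0 g x = eaddA0 g ⟨(x : B.V), hx0⟩ := Subtype.ext rfl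
    rw [e, eaddD0_apply, eaddCls1_eq_zero_iff]
    refine ⟨0, ?_⟩
    funext σ
    rw [map_zero, eaddB0_apply]
    show (0 : G → B₁.V) σ = eaddRetr f hf ((d₀₁ B).hom (x : B.V) σ)
    rw [d₀₁_hom_apply, x.2 σ, sub_self, map_zero]
    rfl

include hf hg hex hB in
/-- exactness at `H¹_lev(B₁)` -/
theorem eadd_exact3 (y : ↥(levH1 𝒯 B₁)) :
    eaddH1 f y = 0 ↔ ∃ x, eaddD0 f g hf hg hex hB x = y := by
  constructor
  · intro h
    obtain ⟨x₁, rfl⟩ := eaddCls1_surjective 𝒯 B₁ y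
    rw [eaddH1_cls, eaddCls1_eq_zero_iff] at h
    obtain ⟨b, hb⟩ := h
    have hbσ : ∀ σ, (d₀₁ B).hom b σ = f.hom ((x₁ : G → B₁.V) σ) := fun σ => congrFun hb σ
    have hb0 : b ∈ eaddX0 g := by
      intro s
      have h1 := congrArg g.hom (hbσ s)
      rw [eadd_gf hex, eadd_push_d01, d₀₁_hom_apply, sub_eq_zero] at h1
      exact h1
    refine ⟨eaddA0 g ⟨b, hb0⟩, ?_⟩
    rw [eaddD0_apply]
    congr 1
    apply Subtype.ext
    funext σ
    apply hf
    rw [eadd_f_B0]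
    exact hbσ σ
  · rintro ⟨x, rfl⟩
    obtain ⟨b, rfl⟩ := eaddA0_surjective g hg x
    rw [eaddD0_apply, eaddH1_cls, eaddCls1_eq_zero_iff]
    refine ⟨(b : B.V), ?_⟩
    funext σ
    rw [eaddPush1_apply, eadd_f_B0]

include hf hg hex hB in
/-- exactness at `H¹_lev(B)` -/
theorem eadd_exact4 (y : ↥(levH1 𝒯 B)) :
    eaddH1 g y = 0 ↔ ∃ x, eaddH1 f x = y := by
  constructor
  · intro h
    obtain ⟨x, rfl⟩ := eaddCls1_surjective 𝒯 B y
    rw [eaddH1_cls, eaddCls1_eq_zero_iff] at h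
    obtain ⟨b₂, hb₂⟩ := h
    obtain ⟨b, rfl⟩ := hg b₂
    have hker : ∀ σ, g.hom ((x : G → B.V) σ - (d₀₁ B).hom b σ) = 0 := by
      intro σ
      rw [map_sub, eadd_push_d01, sub_eq_zero]
      exact (congrFun hb₂ σ).symm
    obtain ⟨t, ht, htx⟩ := eadd_exists_pull f g hf hex
      (fun σ => (x : G → B.V) σ - (d₀₁ B).hom b σ)
      (eadd_isLevel₁_sub x.2.2 (eadd_isLevel_d01 hB b)) hker
    have hft : (fun σ => f.hom (t σ)) = (x : G → B.V) - (d₀₁ B).hom b := funext htx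
    have htc : t ∈ cocycles₁ B₁ := by
      apply eadd_cocycle₁_of_push f hf
      rw [hft]
      exact (cocycles₁ B).sub_mem x.2.1 (d₀₁_apply_mem_cocycles₁ b)
    refine ⟨eaddCls1 𝒯 B₁ ⟨t, htc, ht⟩, ?_⟩
    rw [eaddH1_cls]
    apply eadd_cls1_eq
    refine ⟨-b, ?_⟩
    funext σ
    rw [eaddPush1_apply]
    show _ = f.hom (t σ) - (x : G → B.V) σ
    rw [htx σ, map_neg]
    simp
  · rintro ⟨x, rfl⟩
    obtain ⟨t, rfl⟩ := eaddCls1_surjective 𝒯 B₁ x
    rw [eaddH1_cls, eaddH1_cls, eaddCls1_eq_zero_iff]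
    refine ⟨0, ?_⟩
    funext σ
    rw [map_zero, eaddPush1_apply, eaddPush1_apply, eadd_gf hex]
    rfl

include hf hg hex hB in
/-- exactness at `H¹_lev(B₂)` -/
theorem eadd_exact5 (y : ↥(levH1 𝒯 B₂)) :
    eaddD1 f g hf hg hex hB y = 0 ↔ ∃ x, eaddH1 g x = y := by
  constructor
  · intro h
    obtain ⟨x, rfl⟩ := eaddA1_surjective g hg y
    rw [eaddD1_apply, levH2π_eq_zero_iff] at h
    obtain ⟨t₁, ht₁, ht₁x⟩ := (mem_levCoboundaries₂_iff 𝒯 B₁ _).1 h
    -- `z = x - f ∘ t₁` is a level cocycle of `B`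
    have hzl : IsLevel₁ 𝒯 (fun σ => (x : G → B.V) σ - f.hom (t₁ σ)) :=
      eadd_isLevel₁_sub x.2.1 (ht₁.comp _)
    have hzc : (fun σ => (x : G → B.V) σ - f.hom (t₁ σ)) ∈ cocycles₁ B := by
      rw [cocycles₁, LinearMap.mem_ker]
      have e : (fun σ => (x : G → B.V) σ - f.hom (t₁ σ)) =
          (x : G → B.V) - (fun σ => f.hom (t₁ σ)) := rfl
      rw [e, map_sub, sub_eq_zero]
      funext s
      rw [← eadd_push_d12, ht₁x, eadd_f_B1]
    refine ⟨eaddCls1 𝒯 B ⟨_, hzc, hzl⟩, ?_⟩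
    rw [eaddH1_cls]
    show _ = eaddCls1 𝒯 B₂ (eaddA1pre g x)
    congr 1
    apply Subtype.ext
    funext σ
    rw [eaddPush1_apply, eaddA1pre_apply]
    show g.hom ((x : G → B.V) σ - f.hom (t₁ σ)) = _
    rw [map_sub, eadd_gf hex, sub_zero]
  · rintro ⟨x, rfl⟩
    obtain ⟨z, rfl⟩ := eaddCls1_surjective 𝒯 B x
    have hz1 : (z : G → B.V) ∈ eaddX1 𝒯 g :=
      ⟨z.2.2, eadd_push_cocycle₁ g _ z.2.1⟩
    have e : eaddH1 g (eaddCls1 𝒯 B z) = eaddA1 g ⟨(z : G → B.V), hz1⟩ := by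
      rw [eaddH1_cls]
      rfl
    rw [e, eaddD1_apply, levH2π_eq_zero_iff]
    have hzero : ((eaddB1 f g hf hex hB ⟨(z : G → B.V), hz1⟩ : ↥(levCocycles₂ 𝒯 B₁)) :
        G × G → B₁.V) = 0 := by
      funext s
      rw [eaddB1_apply]
      have : (d₁₂ B).hom (z : G → B.V) = 0 := LinearMap.mem_ker.1 z.2.1
      show eaddRetr f hf ((d₁₂ B).hom (z : G → B.V) s) = 0
      rw [this]
      exact map_zero _
    rw [hzero]
    exact zero_mem _

include hf hg hex hB in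
/-- exactness at `H²_lev(B₁)` -/
theorem eadd_exact6 (y : levH2 𝒯 B₁) :
    eaddH2 f y = 0 ↔ ∃ x, eaddD1 f g hf hg hex hB x = y := by
  constructor
  · intro h
    obtain ⟨w₁, rfl⟩ := Submodule.mkQ_surjective _ y
    rw [eaddH2_cls, levH2π_eq_zero_iff] at h
    obtain ⟨t, ht, htw⟩ := (mem_levCoboundaries₂_iff 𝒯 B _).1 h
    have htw' : ∀ s, (d₁₂ B).hom t s = f.hom ((w₁ : G × G → B₁.V) s) := fun s => congrFun htw s
    have ht1 : t ∈ eaddX1 𝒯 g := by
      refine ⟨ht, ?_⟩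
      show (fun σ => g.hom (t σ)) ∈ cocycles₁ B₂
      rw [cocycles₁, LinearMap.mem_ker]
      funext s
      rw [← eadd_push_d12, htw' s, eadd_gf hex]
      rfl
    refine ⟨eaddA1 g ⟨t, ht1⟩, ?_⟩
    rw [eaddD1_apply]
    show levH2π 𝒯 B₁ _ = levH2π 𝒯 B₁ w₁
    congr 1
    apply Subtype.ext
    funext s
    apply hf
    rw [eadd_f_B1]
    exact htw' s
  · rintro ⟨x, rfl⟩
    obtain ⟨t, rfl⟩ := eaddA1_surjective g hg x
    rw [eaddD1_apply, eaddH2_cls, levH2π_eq_zero_iff]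
    refine (mem_levCoboundaries₂_iff 𝒯 B _).2 ⟨(t : G → B.V), t.2.1, ?_⟩
    funext s
    rw [eaddPush2_apply, eadd_f_B1]

include hf hg hex hB in
/-- exactness at `H²_lev(B)` -/
theorem eadd_exact7 (y : levH2 𝒯 B) :
    eaddH2 g y = 0 ↔ ∃ x, eaddH2 f x = y := by
  constructor
  · intro h
    obtain ⟨w, rfl⟩ := Submodule.mkQ_surjective _ y
    rw [eaddH2_cls, levH2π_eq_zero_iff] at h
    obtain ⟨t₂, ht₂, ht₂w⟩ := (mem_levCoboundaries₂_iff 𝒯 B₂ _).1 h
    -- lift `t₂` to a level cochain of `B`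
    let t : G → B.V := fun σ => eaddSec g hg (t₂ σ)
    have htl : IsLevel₁ 𝒯 t := ht₂.comp _
    have hgt : (fun σ => g.hom (t σ)) = t₂ := funext fun σ => eaddSec_apply g hg _
    have hdl : IsLevel₂ 𝒯 (fun s => (w : G × G → B.V) s - (d₁₂ B).hom t s) :=
      eadd_isLevel₂_sub w.2.2 (eadd_isLevel_d12 hB t htl)
    have hker : ∀ s, g.hom ((w : G × G → B.V) s - (d₁₂ B).hom t s) = 0 := by
      intro s
      rw [map_sub, eadd_push_d12, hgt, ht₂w, sub_eq_zero]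
      rfl
    let w₁ : G × G → B₁.V := fun s => eaddRetr f hf ((w : G × G → B.V) s - (d₁₂ B).hom t s)
    have hfw₁ : ∀ s, f.hom (w₁ s) = (w : G × G → B.V) s - (d₁₂ B).hom t s :=
      fun s => eaddRetr_spec hf hex _ (hker s)
    have hw₁c : w₁ ∈ cocycles₂ B₁ := by
      apply eadd_cocycle₂_of_push f hf
      have e : (fun s => f.hom (w₁ s)) = (w : G × G → B.V) - (d₁₂ B).hom t := funext hfw₁
      rw [e]
      exact (cocycles₂ B).sub_mem w.2.1 (d₁₂_apply_mem_cocycles₂ t)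
    have hw₁l : IsLevel₂ 𝒯 w₁ := hdl.comp _
    refine ⟨levH2π 𝒯 B₁ ⟨w₁, hw₁c, hw₁l⟩, ?_⟩
    rw [eaddH2_cls]
    apply eadd_levH2π_eq
    refine (mem_levCoboundaries₂_iff 𝒯 B _).2 ⟨fun σ => -t σ, htl.comp (fun v => -v), ?_⟩
    funext s
    rw [eaddPush2_apply]
    show _ = f.hom (w₁ s) - (w : G × G → B.V) s
    rw [hfw₁ s]
    have e : (fun σ => -t σ) = -t := rfl
    rw [e, map_neg]
    simp
  · rintro ⟨x, rfl⟩
    obtain ⟨w₁, rfl⟩ := Submodule.mkQ_surjective _ x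
    rw [eaddH2_cls, eaddH2_cls, levH2π_eq_zero_iff]
    have hzero : ((eaddPush2 g (eaddPush2 f w₁) : ↥(levCocycles₂ 𝒯 B₂)) : G × G → B₂.V) = 0 := by
      funext s
      rw [eaddPush2_apply, eaddPush2_apply, eadd_gf hex]
      rfl
    rw [hzero]
    exact zero_mem _

/-- surjectivity of `H²_lev(B) → H²_lev(B₂)`, from the statement of `StmtH2Surj` -/
theorem eadd_exact8
    (hsurj : ∀ w₂ : G × G → B₂.V, w₂ ∈ levCocycles₂ 𝒯 B₂ →
      ∃ w : G × G → B.V, w ∈ levCocycles₂ 𝒯 B ∧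
        (fun s => g.hom (w s)) - w₂ ∈ levCoboundaries₂ 𝒯 B₂) :
    Function.Surjective (eaddH2 (𝒯 := 𝒯) g) := by
  intro y
  obtain ⟨w₂, rfl⟩ := Submodule.mkQ_surjective _ y
  obtain ⟨w, hw, hww⟩ := hsurj w₂.1 w₂.2
  refine ⟨levH2π 𝒯 B ⟨w, hw⟩, ?_⟩
  rw [eaddH2_cls]
  exact eadd_levH2π_eq _ _ hww

end Exact

end Fermat.Agent.TW.E

end


end ZBTW_039_4

/-! ### bundled: `Fermat.Agent.TW.E.Add` -/
section ZBTW_039_5
/-
TW-E / A10 (helper30): **E-add**, the Euler characteristic of level cohomology is additive.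

`stmtAdd_of : StmtH2Surj → StmtH2Fin → StmtAdd`.

For `0 → B₁ → B → B₂ → 0` the level long exact sequence
`0 → H⁰(B₁) → H⁰(B) → H⁰(B₂) → H¹(B₁) → H¹(B) → H¹(B₂) → H²(B₁) → H²(B) → H²(B₂) → 0`
(LESMaps/LESConn/LESExact.lean; exact at `H²(B₂)` by `StmtH2Surj`) consists of finite-dimensional
spaces (`F.stmtGloFin`, `StmtH2Fin`); count dimensions.
-/

set_option autoImplicit false

noncomputable section

namespace Fermat.Agent.TW.E

open CategoryTheory groupCohomology Module Fermat.Agent.PT Fermat.Agent.PT.F Fermat.Agent.TW.F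

/-- the arithmetic of the nine-term sequence -/
theorem eadd_arith (p0 q0 r0 p1 q1 r1 p2 q2 r2 a b c d e f' g' h : ℕ)
    (h0 : a = p0) (h1 : q0 = a + b) (h2 : r0 = b + c) (h3 : p1 = c + d) (h4 : q1 = d + e)
    (h5 : r1 = e + f') (h6 : p2 = f' + g') (h7 : q2 = g' + h) (h8 : h = r2) :
    q0 + q2 + p1 + r1 = q1 + (p0 + p2) + (r0 + r2) := by
  omega

/-- **E-add**, generic form over a tower: additivity of the Euler characteristic of level
cohomology from finiteness and the surjectivity of `H²_lev(B) → H²_lev(B₂)`. -/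
theorem eadd_generic {p : ℕ} [Fact p.Prime] {G : Type} [Group G] (𝒯 : Tower G)
    (B₁ B B₂ : Rep.{0} (ZMod p) G) [FiniteDimensional (ZMod p) B]
    (f : B₁ ⟶ B) (g : B ⟶ B₂) (hf : Function.Injective f.hom) (hg : Function.Surjective g.hom)
    (hex : Function.Exact f.hom g.hom) (hB : TrivOnLevel 𝒯 B)
    (hfin1 : ∀ (A : Rep.{0} (ZMod p) G) [FiniteDimensional (ZMod p) A], TrivOnLevel 𝒯 A →
      Finite ↥(levH1 𝒯 A))
    (hfin2 : ∀ (A : Rep.{0} (ZMod p) G) [FiniteDimensional (ZMod p) A], TrivOnLevel 𝒯 A →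
      Module.Finite (ZMod p) (levH2 𝒯 A))
    (hsurj : ∀ w₂ : G × G → B₂.V, w₂ ∈ levCocycles₂ 𝒯 B₂ →
      ∃ w : G × G → B.V, w ∈ levCocycles₂ 𝒯 B ∧
        (fun s => g.hom (w s)) - w₂ ∈ levCoboundaries₂ 𝒯 B₂) :
    (finrank (ZMod p) ↥(B.ρ.invariants) + finrank (ZMod p) (levH2 𝒯 B) +
        finrank (ZMod p) ↥(levH1 𝒯 B₁) + finrank (ZMod p) ↥(levH1 𝒯 B₂) : ℕ) =
      finrank (ZMod p) ↥(levH1 𝒯 B) +
        (finrank (ZMod p) ↥(B₁.ρ.invariants) + finrank (ZMod p) (levH2 𝒯 B₁)) +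
        (finrank (ZMod p) ↥(B₂.ρ.invariants) + finrank (ZMod p) (levH2 𝒯 B₂)) := by
  have hfd₁ : FiniteDimensional (ZMod p) B₁ :=
    Module.Finite.of_injective f.hom.toLinearMap hf
  have hfd₂ : FiniteDimensional (ZMod p) B₂ :=
    Module.Finite.of_surjective g.hom.toLinearMap hg
  have hB₁ : TrivOnLevel 𝒯 B₁ := eadd_triv_of_injective f hf hB
  have hB₂ : TrivOnLevel 𝒯 B₂ := eadd_triv_of_surjective g hg hB
  have i1 : Finite ↥(levH1 𝒯 B₁) := hfin1 B₁ hB₁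
  have i2 : Finite ↥(levH1 𝒯 B) := hfin1 B hB
  have i3 : Finite ↥(levH1 𝒯 B₂) := hfin1 B₂ hB₂
  have j1 : Module.Finite (ZMod p) (levH2 𝒯 B₁) := hfin2 B₁ hB₁
  have j2 : Module.Finite (ZMod p) (levH2 𝒯 B) := hfin2 B hB
  have h0 := eadd_finrank_range_of_inj (eaddH0 f) (eadd_exact0 f hf)
  have h1 := eadd_exact_count (eaddH0 f) (eaddH0 g) (eadd_exact1 f g hf hex)
  have h2 := eadd_exact_count (eaddH0 g) (eaddD0 f g hf hg hex hB)
    (eadd_exact2 f g hf hg hex hB)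
  have h3 := eadd_exact_count (eaddD0 f g hf hg hex hB) (eaddH1 f)
    (eadd_exact3 f g hf hg hex hB)
  have h4 := eadd_exact_count (eaddH1 (𝒯 := 𝒯) f) (eaddH1 g) (eadd_exact4 f g hf hg hex hB)
  have h5 := eadd_exact_count (eaddH1 (𝒯 := 𝒯) g) (eaddD1 f g hf hg hex hB)
    (eadd_exact5 f g hf hg hex hB)
  have h6 := eadd_exact_count (eaddD1 f g hf hg hex hB) (eaddH2 (𝒯 := 𝒯) f)
    (eadd_exact6 f g hf hg hex hB)
  have h7 := eadd_exact_count (eaddH2 (𝒯 := 𝒯) f) (eaddH2 g) (eadd_exact7 f g hf hg hex hB)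
  have h8 := eadd_finrank_range_of_surj (eaddH2 (𝒯 := 𝒯) g) (eadd_exact8 g hsurj)
  exact eadd_arith _ _ _ _ _ _ _ _ _ _ _ _ _ _ _ _ _ h0 h1 h2 h3 h4 h5 h6 h7 h8

/-- **A10 (E-add)**: `StmtH2Surj → StmtH2Fin → StmtAdd`. -/
theorem stmtAdd_of (h8 : StmtH2Surj) (h9 : StmtH2Fin) : StmtAdd := by
  intro p _ G _ ι _ _ Gloc _ D hPD B₁ B B₂ _ f g hf hg hex hB
  have hfd₂ : FiniteDimensional (ZMod p) B₂ :=
    Module.Finite.of_surjective g.hom.toLinearMap hg
  exact eadd_generic D.𝒯 B₁ B B₂ f g hf hg hex hB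
    (fun A _ hA => stmtGloFin p G ι Gloc D A hA)
    (fun A _ hA => h9 p G ι Gloc D hPD A hA)
    (fun w₂ hw₂ => h8 p G ι Gloc D hPD B B₂ g hg hB w₂ hw₂)

end Fermat.Agent.TW.E

end


end ZBTW_039_5
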