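/- GENERATED FILE (helper35, build-time optimisation, NOTES/ZB.md): verbatim concatenation of the modules
   Fermat.Agent.TW.E.H2SurjPlan
   Fermat.Agent.TW.E.H2SurjT
   Fermat.Agent.TW.E.H2SurjFlag
   Fermat.Agent.TW.E.H2Surj
   Fermat.Agent.TW.E.H2SurjMu
   Fermat.Agent.TW.E.H2SurjFix
   Fermat.Agent.TW.E.H2SurjFinal
   Fermat.Agent.TW.E.KumBase
   Fermat.Agent.TW.E.KumH0
   Fermat.Agent.TW.E.KumH2
   Do not edit; do not import together with these modules. -/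
import Fermat.Agent.ZB.TW_014
import Fermat.Agent.ZB.TW_051

/-! ### bundled: `Fermat.Agent.TW.E.H2SurjPlan` -/
section ZBTW_040_0
/-
Project TW (S56) — part TW-E, piece **A8** (`StmtH2Surj`, owner helper69): INTERFACE of the
sub-pieces.  Mathematics: NOTES/TW-E.md §A8 (detailed version: NOTES/TW-E-A8.md).

`T(B) := Fun(Ω, B)`, `Ω = G ⧸ P`, `P ⊇ U` the preimage of a Sylow `p`-subgroup of `G ⧸ U`, with the
action `(g φ)(ω) = g φ(g⁻¹ ω)`.  Cochains with values in `T(B)` are plain functions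
`G × … × G → Ω → B.V`; `tD2`, `tD3` are the differentials (conventions of `dTwo`, `dThree`).

* A8b `StmtMu3Fun` (`stmtMu3Fun_of : StmtMu3 → StmtMu3Fun`): `H³_lev(G, Fun(Ω, 𝔽_p)) = 0`, the
  function form of `StmtMu3` (`Fun(Ω, 𝔽_p) ≅ Hom_ℤ(ℤ[Ω], μ_p)`, `c ↦ (δ_ω ↦ c(ω) χ(g_ω) ζ)`, because
  `χ(P) = 1`).
* A8c `StmtFixFun`: a nonzero `P`-stable subspace `F` of `B` (`P` acts through a `p`-group) carries
  a nonzero `P`-invariant linear functional (fixed point lemma applied to the dual of `F`).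
* A8a (helper69): the flag induction and the assembly `StmtMu3Fun → StmtFixFun → StmtH2Surj`.
-/

set_option autoImplicit false

noncomputable section

namespace Fermat.Agent.TW.E

open CategoryTheory groupCohomology Module Fermat.Agent.PT Fermat.Agent.PT.F Fermat.Agent.TW.F

section Defs

variable {k : Type} [CommRing k] {G : Type} [Group G]

/-- the action of `g` on `T(B) = Fun(Ω, B)`: `(g φ)(ω) = g φ(g⁻¹ ω)` -/
def tAct (B : Rep.{0} k G) (Ω : Type) [MulAction G Ω] (g : G) (φ : Ω → B.V) : Ω → B.V :=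
  fun ω => B.ρ g (φ (g⁻¹ • ω))

/-- the coboundary of a 2-cochain with values in `T(B)` -/
def tD2 (B : Rep.{0} k G) (Ω : Type) [MulAction G Ω] (W : G × G → Ω → B.V) (s : G × G × G) :
    Ω → B.V :=
  tAct B Ω s.1 (W (s.2.1, s.2.2)) - W (s.1 * s.2.1, s.2.2) + W (s.1, s.2.1 * s.2.2)
    - W (s.1, s.2.1)

/-- the coboundary of a 3-cochain with values in `T(B)` -/
def tD3 (B : Rep.{0} k G) (Ω : Type) [MulAction G Ω] (o : G × G × G → Ω → B.V)
    (s : G × G × G × G) : Ω → B.V :=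
  tAct B Ω s.1 (o (s.2.1, s.2.2.1, s.2.2.2)) - o (s.1 * s.2.1, s.2.2.1, s.2.2.2)
    + o (s.1, s.2.1 * s.2.2.1, s.2.2.2) - o (s.1, s.2.1, s.2.2.1 * s.2.2.2)
    + o (s.1, s.2.1, s.2.2.1)

/-- `H³_lev(G, Fun(Ω, 𝔽_p)) = 0` (permutation action `(g c)(ω) = c(g⁻¹ ω)`). -/
def H3PermZero (𝒯 : Tower G) (p : ℕ) (Ω : Type) [MulAction G Ω] : Prop :=
  ∀ c : G × G × G → Ω → ZMod p, IsLevel₃ 𝒯 c →
    (∀ s, tD3 (Rep.trivial (ZMod p) G (ZMod p)) Ω c s = 0) →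
    ∃ y : G × G → Ω → ZMod p, IsLevel₂ 𝒯 y ∧
      ∀ s, c s = tD2 (Rep.trivial (ZMod p) G (ZMod p)) Ω y s

end Defs

/-- **A8b.** The function form of `StmtMu3`: for a subgroup `P` containing a normal level, of
index prime to `p` and with `χ(P) = 1`:  `H³_lev(G, Fun(G ⧸ P, 𝔽_p)) = 0`. -/
def StmtMu3Fun : Prop :=
  ∀ (p : ℕ) [Fact p.Prime] (G : Type) [Group G] (ι : Type) [Fintype ι] [Nonempty ι]
    (Gloc : ι → Type) [∀ v, Group (Gloc v)] (D : PTDatum p G ι Gloc), HasPDepthGlob D →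
    ∀ (P : Subgroup G), (∃ U ∈ D.𝒯.lev, U.Normal ∧ U ≤ P) → (∀ h ∈ P, D.χ h = 1) →
      ¬ p ∣ P.index → H3PermZero D.𝒯 p (G ⧸ P)

/-- **A8c.** The invariant functional: if every element of `P` acts on `B` with `p`-power order,
a nonzero `P`-stable subspace `F` of the finite-dimensional `B` has a linear functional `lam` of
`B` with `lam x₀ = 1` for some `x₀ ∈ F` and `lam (h x) = lam x` for `h ∈ P`, `x ∈ F`. -/
def StmtFixFun : Prop :=
  ∀ (p : ℕ) [Fact p.Prime] (G : Type) [Group G] (B : Rep.{0} (ZMod p) G)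
    [FiniteDimensional (ZMod p) B.V] (P : Subgroup G),
    (∀ h ∈ P, ∃ n : ℕ, B.ρ (h ^ (p ^ n)) = 1) →
    ∀ F : Submodule (ZMod p) B.V, (∀ h ∈ P, ∀ x ∈ F, B.ρ h x ∈ F) → F ≠ ⊥ →
      ∃ (lam : B.V →ₗ[ZMod p] ZMod p) (x₀ : B.V), x₀ ∈ F ∧ lam x₀ = 1 ∧
        ∀ h ∈ P, ∀ x ∈ F, lam (B.ρ h x) = lam x

/-- **A8a.** The flag induction and the assembly. -/
def StmtH2SurjAsm : Prop :=
  StmtMu3Fun → StmtFixFun → StmtH2Surj

end Fermat.Agent.TW.E

end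


end ZBTW_040_0

/-! ### bundled: `Fermat.Agent.TW.E.H2SurjT` -/
section ZBTW_040_1
/-
Project TW (S56) — part TW-E, piece **A8a** (helper69): cochain calculus with values in
`T(B) = Fun(Ω, B)`.  Names `h2s_*`.  Plan: NOTES/TW-E-A8.md.
-/

set_option autoImplicit false
set_option linter.style.haveILetI false

noncomputable section

namespace Fermat.Agent.TW.E

open CategoryTheory groupCohomology Module Fermat.Agent.PT Fermat.Agent.PT.F Fermat.Agent.TW.F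

section Calc

variable {k : Type} [CommRing k] {G : Type} [Group G] (B : Rep.{0} k G)
  (Ω : Type) [MulAction G Ω]

@[simp] lemma h2s_tAct_apply (g : G) (φ : Ω → B.V) (ω : Ω) :
    tAct B Ω g φ ω = B.ρ g (φ (g⁻¹ • ω)) := rfl

lemma h2s_tAct_add (g : G) (φ ψ : Ω → B.V) :
    tAct B Ω g (φ + ψ) = tAct B Ω g φ + tAct B Ω g ψ := by
  funext ω
  simp

lemma h2s_tAct_sub (g : G) (φ ψ : Ω → B.V) :
    tAct B Ω g (φ - ψ) = tAct B Ω g φ - tAct B Ω g ψ := by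
  funext ω
  simp

lemma h2s_tAct_zero (g : G) : tAct B Ω g (0 : Ω → B.V) = 0 := by
  funext ω
  simp

lemma h2s_tAct_mul (g h : G) (φ : Ω → B.V) :
    tAct B Ω (g * h) φ = tAct B Ω g (tAct B Ω h φ) := by
  funext ω
  simp [mul_smul]

/-- `d ∘ d = 0` -/
theorem h2s_tD3_tD2 (W : G × G → Ω → B.V) (s : G × G × G × G) :
    tD3 B Ω (tD2 B Ω W) s = 0 := by
  obtain ⟨g, h, i, j⟩ := s
  simp only [tD3, tD2, h2s_tAct_add, h2s_tAct_sub, ← h2s_tAct_mul, mul_assoc]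
  abel

lemma h2s_tAct_smul (g : G) (a : k) (φ : Ω → B.V) :
    tAct B Ω g (a • φ) = a • tAct B Ω g φ := by
  funext ω
  simp

/-- the sum over `Ω` commutes with the action -/
theorem h2s_sum_tAct [Fintype Ω] (g : G) (φ : Ω → B.V) :
    ∑ ω, tAct B Ω g φ ω = B.ρ g (∑ ω, φ ω) := by
  simp only [h2s_tAct_apply]
  rw [map_sum]
  exact Equiv.sum_comp (MulAction.toPerm g⁻¹) (fun ω => B.ρ g (φ ω))

/-- the trace of a cocycle with values in `T(B)` is a cocycle of `B` -/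
theorem h2s_trace_cocycle [Fintype Ω] (W : G × G → Ω → B.V) (hW : ∀ s, tD2 B Ω W s = 0) :
    (fun s => ∑ ω, W s ω) ∈ cocycles₂ B := by
  rw [mem_cocycles₂_def]
  intro g h j
  have h1 : ∑ ω, tD2 B Ω W (g, h, j) ω = 0 := by
    rw [hW]
    simp
  simp only [tD2, Pi.add_apply, Pi.sub_apply, Finset.sum_add_distrib, Finset.sum_sub_distrib,
    h2s_sum_tAct] at h1
  exact h1

end Calc

section Level

variable {k : Type} [CommRing k] {G : Type} [Group G] (𝒯 : Tower G) (B : Rep.{0} k G)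
  (Ω : Type) [MulAction G Ω]

lemma h2s_tAct_mul_right {U : Subgroup G} (hB : ∀ s ∈ U, B.ρ s = 1)
    (hΩ : ∀ s ∈ U, ∀ ω : Ω, s • ω = ω) (g u : G) (hu : u ∈ U) (φ : Ω → B.V) :
    tAct B Ω (g * u) φ = tAct B Ω g φ := by
  funext ω
  simp only [h2s_tAct_apply, map_mul, mul_inv_rev, mul_smul, Module.End.mul_apply]
  rw [hB u hu, Module.End.one_apply, hΩ u⁻¹ (U.inv_mem hu)]

/-- a common normal level for `B`, `Ω` and a level cochain -/
lemma h2s_common_level (hB : ∃ U ∈ 𝒯.lev, ∀ s ∈ U, B.ρ s = 1) (hΩ : IsLevSet 𝒯 Ω)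
    (U₁ : Subgroup G) (hU₁ : U₁ ∈ 𝒯.lev) :
    ∃ V ∈ 𝒯.lev, V.Normal ∧ V ≤ U₁ ∧ (∀ s ∈ V, B.ρ s = 1) ∧ ∀ s ∈ V, ∀ ω : Ω, s • ω = ω := by
  obtain ⟨U₂, hU₂, h₂⟩ := hB
  obtain ⟨U₃, hU₃, h₃⟩ := hΩ
  obtain ⟨V, hV, hle, hn⟩ := 𝒯.exists_normal _
    (𝒯.inf_mem _ _ (𝒯.inf_mem _ _ hU₁ hU₂) hU₃)
  exact ⟨V, hV, hn, fun s hs => (hle hs).1.1, fun s hs => h₂ s (hle hs).1.2,
    fun s hs => h₃ s (hle hs).2⟩

theorem h2s_isLevel₃_tD2 (hB : ∃ U ∈ 𝒯.lev, ∀ s ∈ U, B.ρ s = 1) (hΩ : IsLevSet 𝒯 Ω)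
    (W : G × G → Ω → B.V) (hW : IsLevel₂ 𝒯 W) : IsLevel₃ 𝒯 (tD2 B Ω W) := by
  obtain ⟨U₁, hU₁, h₁⟩ := hW
  obtain ⟨V, hV, hn, hle, hVB, hVΩ⟩ := h2s_common_level 𝒯 B Ω hB hΩ U₁ hU₁
  refine ⟨V, hV, fun g h j s s' s'' hs hs' hs'' => ?_⟩
  have e1 : g * s * (h * s') = g * h * (h⁻¹ * s * h * s') := by group
  have e2 : h * s' * (j * s'') = h * j * (j⁻¹ * s' * j * s'') := by group
  have m1 : h⁻¹ * s * h * s' ∈ U₁ :=
    hle (V.mul_mem (by simpa using hn.conj_mem s hs h⁻¹) hs')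
  have m2 : j⁻¹ * s' * j * s'' ∈ U₁ :=
    hle (V.mul_mem (by simpa using hn.conj_mem s' hs' j⁻¹) hs'')
  simp only [tD2]
  rw [h2s_tAct_mul_right B Ω hVB hVΩ g s hs, h₁ h j s' s'' (hle hs') (hle hs''), e1,
    h₁ (g * h) j _ s'' m1 (hle hs''), e2, h₁ g (h * j) s _ (hle hs) m2,
    h₁ g h s s' (hle hs) (hle hs')]

end Level

end Fermat.Agent.TW.E

end


end ZBTW_040_1

/-! ### bundled: `Fermat.Agent.TW.E.H2SurjFlag` -/
section ZBTW_040_2
/-
Project TW (S56) — part TW-E, piece **A8a** (helper69): the flag induction.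
Names `h2s_*`.  Plan: NOTES/TW-E-A8.md.
-/

set_option autoImplicit false
set_option linter.style.haveILetI false

noncomputable section

namespace Fermat.Agent.TW.E

open CategoryTheory groupCohomology Module Fermat.Agent.PT Fermat.Agent.PT.F Fermat.Agent.TW.F

section Fil

variable {p : ℕ} [Fact p.Prime] {G : Type} [Group G] (B : Rep.{0} (ZMod p) G) (P : Subgroup G)

/-- `𝓕(F) = {φ : G ⧸ P → B | g⁻¹ φ(gP) ∈ F for all g}` -/
def tFil (F : Submodule (ZMod p) B.V) (φ : G ⧸ P → B.V) : Prop :=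
  ∀ g : G, B.ρ g⁻¹ (φ (g : G ⧸ P)) ∈ F

variable {B P}

lemma h2s_tFil_zero (F : Submodule (ZMod p) B.V) : tFil B P F 0 := by
  intro g
  simp

lemma h2s_tFil_add {F : Submodule (ZMod p) B.V} {φ ψ : G ⧸ P → B.V} (hφ : tFil B P F φ)
    (hψ : tFil B P F ψ) : tFil B P F (φ + ψ) := by
  intro g
  simp only [Pi.add_apply, map_add]
  exact F.add_mem (hφ g) (hψ g)

lemma h2s_tFil_sub {F : Submodule (ZMod p) B.V} {φ ψ : G ⧸ P → B.V} (hφ : tFil B P F φ)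
    (hψ : tFil B P F ψ) : tFil B P F (φ - ψ) := by
  intro g
  simp only [Pi.sub_apply, map_sub]
  exact F.sub_mem (hφ g) (hψ g)

lemma h2s_tFil_mono {F F' : Submodule (ZMod p) B.V} (h : F ≤ F') {φ : G ⧸ P → B.V}
    (hφ : tFil B P F φ) : tFil B P F' φ :=
  fun g => h (hφ g)

lemma h2s_tFil_bot {φ : G ⧸ P → B.V} (hφ : tFil B P ⊥ φ) : φ = 0 := by
  funext ω
  obtain ⟨g, rfl⟩ := QuotientGroup.mk_surjective ω
  have h := hφ g
  rw [Submodule.mem_bot] at h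
  have h2 : B.ρ g (B.ρ g⁻¹ (φ (g : G ⧸ P))) = φ (g : G ⧸ P) := by
    rw [← Module.End.mul_apply, ← map_mul, mul_inv_cancel, map_one, Module.End.one_apply]
  rw [← h2, h, map_zero]
  rfl

lemma h2s_tFil_tAct {F : Submodule (ZMod p) B.V} {φ : G ⧸ P → B.V} (hφ : tFil B P F φ)
    (k : G) : tFil B P F (tAct B (G ⧸ P) k φ) := by
  intro g
  have h := hφ (k⁻¹ * g)
  simp only [h2s_tAct_apply, MulAction.Quotient.smul_mk, smul_eq_mul]
  rw [← Module.End.mul_apply, ← map_mul]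
  simpa [mul_inv_rev] using h

lemma h2s_tFil_tD2 {F : Submodule (ZMod p) B.V} {W : G × G → G ⧸ P → B.V}
    (hW : ∀ s, tFil B P F (W s)) (s : G × G × G) : tFil B P F (tD2 B (G ⧸ P) W s) :=
  h2s_tFil_sub (h2s_tFil_add (h2s_tFil_sub (h2s_tFil_tAct (hW _) _) (hW _)) (hW _)) (hW _)

/-- `κ(φ)(ω) = lam((out ω)⁻¹ φ(ω))` -/
def tKap (B : Rep.{0} (ZMod p) G) (P : Subgroup G) (lam : B.V →ₗ[ZMod p] ZMod p)
    (φ : G ⧸ P → B.V) : G ⧸ P → ZMod p :=
  fun ω => lam (B.ρ (Quotient.out ω)⁻¹ (φ ω))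

/-- `σ(c)(ω) = (out ω)(c(ω) x₀)` -/
def tSec (B : Rep.{0} (ZMod p) G) (P : Subgroup G) (x₀ : B.V) (c : G ⧸ P → ZMod p) :
    G ⧸ P → B.V :=
  fun ω => B.ρ (Quotient.out ω) (c ω • x₀)

lemma h2s_tKap_add (lam : B.V →ₗ[ZMod p] ZMod p) (φ ψ : G ⧸ P → B.V) :
    tKap B P lam (φ + ψ) = tKap B P lam φ + tKap B P lam ψ := by
  funext ω
  simp [tKap]

lemma h2s_tKap_sub (lam : B.V →ₗ[ZMod p] ZMod p) (φ ψ : G ⧸ P → B.V) :
    tKap B P lam (φ - ψ) = tKap B P lam φ - tKap B P lam ψ := by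
  funext ω
  simp [tKap]

/-- on `𝓕(F)`, `κ` can be computed with any representative -/
lemma h2s_tKap_mk {F : Submodule (ZMod p) B.V} {lam : B.V →ₗ[ZMod p] ZMod p}
    (hlam : ∀ h ∈ P, ∀ x ∈ F, lam (B.ρ h x) = lam x) {φ : G ⧸ P → B.V} (hφ : tFil B P F φ)
    (g : G) : tKap B P lam φ (g : G ⧸ P) = lam (B.ρ g⁻¹ (φ (g : G ⧸ P))) := by
  obtain ⟨h, hh⟩ := QuotientGroup.mk_out_eq_mul P g
  simp only [tKap]
  rw [hh, mul_inv_rev, map_mul, Module.End.mul_apply]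
  exact hlam _ (P.inv_mem h.2) _ (hφ g)

/-- `κ` is equivariant on `𝓕(F)` -/
lemma h2s_tKap_tAct {F : Submodule (ZMod p) B.V} {lam : B.V →ₗ[ZMod p] ZMod p}
    (hlam : ∀ h ∈ P, ∀ x ∈ F, lam (B.ρ h x) = lam x) {φ : G ⧸ P → B.V} (hφ : tFil B P F φ)
    (k : G) :
    tKap B P lam (tAct B (G ⧸ P) k φ) =
      tAct (Rep.trivial (ZMod p) G (ZMod p)) (G ⧸ P) k (tKap B P lam φ) := by
  funext ω
  obtain ⟨g, rfl⟩ := QuotientGroup.mk_surjective ω
  rw [h2s_tKap_mk hlam (h2s_tFil_tAct hφ k) g]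
  simp only [h2s_tAct_apply, MulAction.Quotient.smul_mk, smul_eq_mul]
  rw [h2s_tKap_mk hlam hφ (k⁻¹ * g)]
  simp only [mul_inv_rev, inv_inv, map_mul, Module.End.mul_apply]
  rfl

lemma h2s_tKap_tD2 {F : Submodule (ZMod p) B.V} {lam : B.V →ₗ[ZMod p] ZMod p}
    (hlam : ∀ h ∈ P, ∀ x ∈ F, lam (B.ρ h x) = lam x) {W : G × G → G ⧸ P → B.V}
    (hW : ∀ s, tFil B P F (W s)) (s : G × G × G) :
    tKap B P lam (tD2 B (G ⧸ P) W s) =
      tD2 (Rep.trivial (ZMod p) G (ZMod p)) (G ⧸ P) (fun s => tKap B P lam (W s)) s := by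
  simp only [tD2, h2s_tKap_add, h2s_tKap_sub, h2s_tKap_tAct hlam (hW _)]

lemma h2s_tKap_tD3 {F : Submodule (ZMod p) B.V} {lam : B.V →ₗ[ZMod p] ZMod p}
    (hlam : ∀ h ∈ P, ∀ x ∈ F, lam (B.ρ h x) = lam x) {o : G × G × G → G ⧸ P → B.V}
    (ho : ∀ s, tFil B P F (o s)) (s : G × G × G × G) :
    tKap B P lam (tD3 B (G ⧸ P) o s) =
      tD3 (Rep.trivial (ZMod p) G (ZMod p)) (G ⧸ P) (fun s => tKap B P lam (o s)) s := by
  simp only [tD3, h2s_tKap_add, h2s_tKap_sub, h2s_tKap_tAct hlam (ho _)]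

lemma h2s_tFil_tSec {F : Submodule (ZMod p) B.V} (hF : ∀ h ∈ P, ∀ x ∈ F, B.ρ h x ∈ F)
    {x₀ : B.V} (hx₀ : x₀ ∈ F) (c : G ⧸ P → ZMod p) : tFil B P F (tSec B P x₀ c) := by
  intro g
  obtain ⟨h, hh⟩ := QuotientGroup.mk_out_eq_mul P g
  simp only [tSec]
  rw [hh, ← Module.End.mul_apply, ← map_mul, inv_mul_cancel_left]
  exact hF _ h.2 _ (F.smul_mem _ hx₀)

lemma h2s_tKap_tSec {lam : B.V →ₗ[ZMod p] ZMod p} {x₀ : B.V} (h1 : lam x₀ = 1)
    (c : G ⧸ P → ZMod p) : tKap B P lam (tSec B P x₀ c) = c := by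
  funext ω
  simp only [tKap, tSec]
  rw [← Module.End.mul_apply, ← map_mul, inv_mul_cancel, map_one, Module.End.one_apply,
    map_smul, h1, smul_eq_mul, mul_one]

/-- the kernel of `κ` on `𝓕(F)` is `𝓕(F ⊓ ker lam)` -/
lemma h2s_tFil_of_tKap_eq_zero {F : Submodule (ZMod p) B.V} {lam : B.V →ₗ[ZMod p] ZMod p}
    (hlam : ∀ h ∈ P, ∀ x ∈ F, lam (B.ρ h x) = lam x) {φ : G ⧸ P → B.V} (hφ : tFil B P F φ)
    (h0 : tKap B P lam φ = 0) : tFil B P (F ⊓ LinearMap.ker lam) φ := by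
  intro g
  refine ⟨hφ g, ?_⟩
  rw [SetLike.mem_coe, LinearMap.mem_ker, ← h2s_tKap_mk hlam hφ g, h0]
  rfl

lemma h2s_tKap_zero (lam : B.V →ₗ[ZMod p] ZMod p) : tKap B P lam 0 = 0 := by
  funext ω
  simp [tKap]

end Fil

section Ind

variable {p : ℕ} [Fact p.Prime] {G : Type} [Group G] (𝒯 : Tower G)

lemma h2s_isLevel₃_comp {X Y : Type*} {f : G × G × G → X} (hf : IsLevel₃ 𝒯 f) (φ : X → Y) :
    IsLevel₃ 𝒯 (fun s => φ (f s)) := by
  obtain ⟨U, hU, h⟩ := hf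
  exact ⟨U, hU, fun g g' g'' s s' s'' hs hs' hs'' => by
    simp only [h g g' g'' s s' s'' hs hs' hs'']⟩

lemma h2s_isLevel₂_sub {X : Type*} [Sub X] {f f' : G × G → X} (hf : IsLevel₂ 𝒯 f)
    (hf' : IsLevel₂ 𝒯 f') : IsLevel₂ 𝒯 (f - f') := by
  obtain ⟨U, hU, h⟩ := hf
  obtain ⟨U', hU', h'⟩ := hf'
  refine ⟨U ⊓ U', 𝒯.inf_mem U U' hU hU', fun g g' s s' hs hs' => ?_⟩
  simp only [Pi.sub_apply]
  rw [h g g' s s' hs.1 hs'.1, h' g g' s s' hs.2 hs'.2]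

lemma h2s_tD2_sub {k : Type} [CommRing k] (B : Rep.{0} k G) (Ω : Type) [MulAction G Ω]
    (W W' : G × G → Ω → B.V) (s : G × G × G) :
    tD2 B Ω (W - W') s = tD2 B Ω W s - tD2 B Ω W' s := by
  simp only [tD2, Pi.sub_apply, h2s_tAct_sub]
  abel

variable (B : Rep.{0} (ZMod p) G) (P : Subgroup G)

/-- **The flag induction.** -/
theorem h2s_flag (hMu : H3PermZero 𝒯 p (G ⧸ P))
    (hfix : ∀ F : Submodule (ZMod p) B.V, (∀ h ∈ P, ∀ x ∈ F, B.ρ h x ∈ F) → F ≠ ⊥ →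
      ∃ (lam : B.V →ₗ[ZMod p] ZMod p) (x₀ : B.V), x₀ ∈ F ∧ lam x₀ = 1 ∧
        ∀ h ∈ P, ∀ x ∈ F, lam (B.ρ h x) = lam x)
    [FiniteDimensional (ZMod p) B.V]
    (hB : ∃ U ∈ 𝒯.lev, ∀ s ∈ U, B.ρ s = 1) (hΩ : IsLevSet 𝒯 (G ⧸ P)) :
    ∀ (n : ℕ) (F : Submodule (ZMod p) B.V), finrank (ZMod p) F ≤ n →
      (∀ h ∈ P, ∀ x ∈ F, B.ρ h x ∈ F) →
      ∀ W : G × G → G ⧸ P → B.V, IsLevel₂ 𝒯 W → (∀ s, tFil B P F (tD2 B (G ⧸ P) W s)) →
      ∃ Y : G × G → G ⧸ P → B.V, IsLevel₂ 𝒯 Y ∧ (∀ s, tFil B P F (Y s)) ∧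
        ∀ s, tD2 B (G ⧸ P) (W - Y) s = 0 := by
  have hbot : ∀ (F : Submodule (ZMod p) B.V), F = ⊥ →
      ∀ W : G × G → G ⧸ P → B.V, IsLevel₂ 𝒯 W → (∀ s, tFil B P F (tD2 B (G ⧸ P) W s)) →
      ∃ Y : G × G → G ⧸ P → B.V, IsLevel₂ 𝒯 Y ∧ (∀ s, tFil B P F (Y s)) ∧
        ∀ s, tD2 B (G ⧸ P) (W - Y) s = 0 := by
    intro F hF W _ hWF
    subst hF
    refine ⟨0, isLevel₂_const 𝒯 _, fun s => h2s_tFil_zero _, fun s => ?_⟩
    rw [sub_zero]
    exact h2s_tFil_bot (hWF s)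
  intro n
  induction n with
  | zero =>
    intro F hn hF W hW hWF
    exact hbot F ((Submodule.finrank_eq_zero).1 (Nat.le_zero.1 hn)) W hW hWF
  | succ n ih =>
    intro F hn hF W hW hWF
    by_cases hF0 : F = ⊥
    · exact hbot F hF0 W hW hWF
    obtain ⟨lam, x₀, hx₀, hlam1, hlam⟩ := hfix F hF hF0
    -- the obstruction
    have hc3 : IsLevel₃ 𝒯 (fun s => tKap B P lam (tD2 B (G ⧸ P) W s)) :=
      h2s_isLevel₃_comp 𝒯 (h2s_isLevel₃_tD2 𝒯 B (G ⧸ P) hB hΩ W hW) _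
    have hcd : ∀ s, tD3 (Rep.trivial (ZMod p) G (ZMod p)) (G ⧸ P)
        (fun s => tKap B P lam (tD2 B (G ⧸ P) W s)) s = 0 := by
      intro s
      rw [← h2s_tKap_tD3 hlam hWF s, h2s_tD3_tD2, h2s_tKap_zero]
    obtain ⟨y, hy, hyc⟩ := hMu _ hc3 hcd
    -- the correction
    have hy' : IsLevel₂ 𝒯 (fun s => tSec B P x₀ (y s)) := hy.comp (tSec B P x₀)
    have hy'F : ∀ s, tFil B P F (tSec B P x₀ (y s)) := fun s => h2s_tFil_tSec hF hx₀ _
    have hW' : IsLevel₂ 𝒯 (W - fun s => tSec B P x₀ (y s)) := h2s_isLevel₂_sub 𝒯 hW hy'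
    have hW'F : ∀ s, tFil B P F (tD2 B (G ⧸ P) (W - fun s => tSec B P x₀ (y s)) s) := by
      intro s
      rw [h2s_tD2_sub]
      exact h2s_tFil_sub (hWF s) (h2s_tFil_tD2 hy'F s)
    have hW'K : ∀ s, tKap B P lam (tD2 B (G ⧸ P) (W - fun s => tSec B P x₀ (y s)) s) = 0 := by
      intro s
      rw [h2s_tD2_sub, h2s_tKap_sub, hyc s, h2s_tKap_tD2 hlam hy'F s]
      simp only [h2s_tKap_tSec hlam1, sub_self]
    have hW'F' : ∀ s, tFil B P (F ⊓ LinearMap.ker lam)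
        (tD2 B (G ⧸ P) (W - fun s => tSec B P x₀ (y s)) s) :=
      fun s => h2s_tFil_of_tKap_eq_zero hlam (hW'F s) (hW'K s)
    have hF' : ∀ h ∈ P, ∀ x ∈ F ⊓ LinearMap.ker lam, B.ρ h x ∈ F ⊓ LinearMap.ker lam := by
      intro h hh x hx
      refine ⟨hF h hh x hx.1, ?_⟩
      rw [SetLike.mem_coe, LinearMap.mem_ker, hlam h hh x hx.1]
      exact hx.2
    have hlt : F ⊓ LinearMap.ker lam < F := by
      refine lt_of_le_of_ne inf_le_left fun h => ?_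
      have h1 : x₀ ∈ F ⊓ LinearMap.ker lam := by
        rw [h]
        exact hx₀
      have h2 : lam x₀ = 0 := h1.2
      rw [hlam1] at h2
      exact one_ne_zero h2
    have hn' : finrank (ZMod p) ↥(F ⊓ LinearMap.ker lam) ≤ n := by
      have := Submodule.finrank_lt_finrank_of_lt hlt
      omega
    obtain ⟨Y', hY', hY'F, hY'd⟩ := ih _ hn' hF' _ hW' hW'F'
    refine ⟨(fun s => tSec B P x₀ (y s)) + Y', hy'.add hY',
      fun s => h2s_tFil_add (hy'F s) (h2s_tFil_mono inf_le_left (hY'F s)), fun s => ?_⟩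
    have e : W - ((fun s => tSec B P x₀ (y s)) + Y') =
        (W - fun s => tSec B P x₀ (y s)) - Y' := by abel
    rw [e]
    exact hY'd s

end Ind

end Fermat.Agent.TW.E

end


end ZBTW_040_2

/-! ### bundled: `Fermat.Agent.TW.E.H2Surj` -/
section ZBTW_040_3
/-
Project TW (S56) — part TW-E, piece **A8a** (helper69): the assembly
`StmtMu3Fun → StmtFixFun → StmtH2Surj`.  Names `h2s_*`.  Plan: NOTES/TW-E-A8.md.
-/

set_option autoImplicit false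
set_option linter.style.haveILetI false

noncomputable section

namespace Fermat.Agent.TW.E

open CategoryTheory groupCohomology Module Fermat.Agent.PT Fermat.Agent.PT.F Fermat.Agent.TW.F

/-- a unit of `𝔽_p` of `p`-power order is `1` -/
lemma h2s_unit_eq_one {p : ℕ} [Fact p.Prime] (u : (ZMod p)ˣ) (n : ℕ) (h : u ^ (p ^ n) = 1) :
    u = 1 := by
  have h1 : u ^ (p - 1) = 1 := ZMod.units_pow_card_sub_one_eq_one p u
  have hcop : Nat.Coprime (p ^ n) (p - 1) := by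
    apply Nat.Coprime.pow_left
    have h2 : 1 ≤ p := (Fact.out : p.Prime).one_lt.le
    have h3 : Nat.Coprime (p - 1 + 1) (p - 1) := by simp
    rwa [Nat.sub_add_cancel h2] at h3
  have h3 : u ^ Nat.gcd (p ^ n) (p - 1) = 1 := pow_gcd_eq_one.2 ⟨h, h1⟩
  rw [Nat.Coprime.gcd_eq_one hcop, pow_one] at h3
  exact h3

section Sylow

variable {p : ℕ} [Fact p.Prime] {G : Type} [Group G]

/-- the preimage `P` of a Sylow `p`-subgroup of `G ⧸ U` -/
lemma h2s_exists_P (U : Subgroup G) [U.Normal] [U.FiniteIndex] :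
    ∃ P : Subgroup G, U ≤ P ∧ (∀ h ∈ P, ∃ n : ℕ, h ^ (p ^ n) ∈ U) ∧ ¬ p ∣ P.index := by
  haveI : Finite (G ⧸ U) := inferInstance
  obtain ⟨Pb⟩ : Nonempty (Sylow p (G ⧸ U)) := inferInstance
  refine ⟨(Pb : Subgroup (G ⧸ U)).comap (QuotientGroup.mk' U), ?_, ?_, ?_⟩
  · intro s hs
    rw [Subgroup.mem_comap, QuotientGroup.mk'_apply, (QuotientGroup.eq_one_iff s).2 hs]
    exact Subgroup.one_mem _
  · intro h hh
    obtain ⟨n, hn⟩ := Pb.isPGroup' ⟨QuotientGroup.mk' U h, hh⟩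
    refine ⟨n, ?_⟩
    have h1 := congrArg Subtype.val hn
    simp only [SubmonoidClass.coe_pow, OneMemClass.coe_one] at h1
    rw [← map_pow, QuotientGroup.mk'_apply, QuotientGroup.eq_one_iff] at h1
    exact h1
  · rw [Subgroup.index_comap_of_surjective _ (QuotientGroup.mk'_surjective U)]
    haveI : (Pb : Subgroup (G ⧸ U)).FiniteIndex := inferInstance
    exact Pb.not_dvd_index

lemma h2s_isLevSet (𝒯 : Tower G) (U P : Subgroup G) [U.Normal] (hU : U ∈ 𝒯.lev) (hUP : U ≤ P) :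
    IsLevSet 𝒯 (G ⧸ P) := by
  refine ⟨U, hU, fun s hs ω => ?_⟩
  obtain ⟨g, rfl⟩ := QuotientGroup.mk_surjective ω
  rw [MulAction.Quotient.smul_mk, smul_eq_mul, QuotientGroup.eq]
  apply hUP
  have h := (inferInstance : U.Normal).conj_mem s⁻¹ (U.inv_mem hs) g⁻¹
  simpa [mul_assoc] using h

end Sylow

/-- **A8a.** The assembly. -/
theorem stmtH2SurjAsm : StmtH2SurjAsm := by
  intro hMu hFix p _ G _ ι _ _ Gloc _ D hpd B B₂ _ _ f hf ht w₂ hw₂
  obtain ⟨U₁, hU₁, hB₁⟩ := ht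
  obtain ⟨U₂, hU₂, hχ₂⟩ := D.χ_level
  obtain ⟨U, hU, hle, hn⟩ := D.𝒯.exists_normal _ (D.𝒯.inf_mem _ _ hU₁ hU₂)
  haveI := hn
  haveI : U.FiniteIndex := D.𝒯.finiteIndex U hU
  obtain ⟨P, hUP, hPp, hPidx⟩ := h2s_exists_P (p := p) U
  have hBU : ∀ s ∈ U, B.ρ s = 1 := fun s hs => hB₁ s (hle hs).1
  have hχP : ∀ h ∈ P, D.χ h = 1 := by
    intro h hh
    obtain ⟨n, hn⟩ := hPp h hh
    apply h2s_unit_eq_one _ n
    rw [← map_pow]
    exact hχ₂ _ (hle hn).2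
  have hΩ : IsLevSet D.𝒯 (G ⧸ P) := h2s_isLevSet D.𝒯 U P hU hUP
  have hMu' := hMu p G ι Gloc D hpd P ⟨U, hU, hn, hUP⟩ hχP hPidx
  have hBP : ∀ h ∈ P, ∃ n : ℕ, B.ρ (h ^ (p ^ n)) = 1 := by
    intro h hh
    obtain ⟨n, hn⟩ := hPp h hh
    exact ⟨n, hBU _ hn⟩
  have hFix' := hFix p G B P hBP
  haveI : P.FiniteIndex := Subgroup.finiteIndex_of_le hUP
  haveI : Fintype (G ⧸ P) := Fintype.ofFinite _
  -- the kernel
  let K : Submodule (ZMod p) B.V := LinearMap.ker f.hom.toLinearMap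
  have hK : ∀ x : B.V, x ∈ K ↔ f.hom x = 0 := fun x => LinearMap.mem_ker
  have hKG : ∀ (g : G) (x : B.V), x ∈ K → B.ρ g x ∈ K := by
    intro g x hx
    rw [hK] at hx ⊢
    rw [Rep.hom_comm_apply, hx, map_zero]
  -- the first lift
  let sec : B₂.V → B.V := Function.surjInv hf
  have hsec : ∀ y, f.hom (sec y) = y := Function.surjInv_eq hf
  let W₀ : G × G → G ⧸ P → B.V := fun gh _ => sec (w₂ gh)
  have hW₀ : IsLevel₂ D.𝒯 W₀ := hw₂.2.comp (fun y _ => sec y)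
  have hcoc := (mem_cocycles₂_def w₂).1 hw₂.1
  have hW₀K : ∀ s, tFil B P K (tD2 B (G ⧸ P) W₀ s) := by
    rintro ⟨a, b, c⟩ g
    apply hKG
    rw [hK]
    simp only [tD2, Pi.add_apply, Pi.sub_apply, h2s_tAct_apply, W₀, map_add, map_sub,
      Rep.hom_comm_apply, hsec]
    exact hcoc a b c
  obtain ⟨Y, hY, hYK, hd⟩ := h2s_flag D.𝒯 B P hMu' hFix' ⟨U, hU, hBU⟩ hΩ _ K le_rfl
    (fun h _ x hx => hKG h x hx) W₀ hW₀ hW₀K
  have hYf : ∀ s ω, f.hom (Y s ω) = 0 := by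
    intro s ω
    obtain ⟨g, rfl⟩ := QuotientGroup.mk_surjective ω
    have h1 := hKG g _ (hYK s g)
    rw [← Module.End.mul_apply, ← map_mul, mul_inv_cancel, map_one, Module.End.one_apply] at h1
    exact (hK _).1 h1
  -- the trace
  have hcard : ((Fintype.card (G ⧸ P) : ℕ) : ZMod p) ≠ 0 := by
    rw [Ne, ZMod.natCast_eq_zero_iff, ← Nat.card_eq_fintype_card]
    exact hPidx
  refine ⟨fun s => ((Fintype.card (G ⧸ P) : ℕ) : ZMod p)⁻¹ • ∑ ω, (W₀ - Y) s ω, ⟨?_, ?_⟩, ?_⟩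
  · exact (cocycles₂ B).smul_mem _ (h2s_trace_cocycle B (G ⧸ P) (W₀ - Y) hd)
  · exact ((h2s_isLevel₂_sub D.𝒯 hW₀ hY).comp
      (fun φ => ((Fintype.card (G ⧸ P) : ℕ) : ZMod p)⁻¹ • ∑ ω, φ ω) :)
  · have h0 : (fun s => f.hom (((Fintype.card (G ⧸ P) : ℕ) : ZMod p)⁻¹ • ∑ ω, (W₀ - Y) s ω))
        - w₂ = 0 := by
      funext s
      simp only [Pi.sub_apply, Pi.zero_apply, map_smul, map_sum, map_sub, W₀, hsec, hYf,
        sub_zero, Finset.sum_const, Finset.card_univ]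
      rw [← Nat.cast_smul_eq_nsmul (ZMod p), smul_smul, inv_mul_cancel₀ hcard, one_smul,
        sub_self]
    rw [h0]
    exact Submodule.zero_mem _

end Fermat.Agent.TW.E

end


end ZBTW_040_3

/-! ### bundled: `Fermat.Agent.TW.E.H2SurjMu` -/
section ZBTW_040_4
/-
Project TW (S56) — part TW-E, piece **A8b** (helper69): `StmtMu3 → StmtMu3Fun`, the function form
of `H³_lev(G, Hom_ℤ(ℤ[Ω], μ_p)) = 0`.  Names `h2m_*`.  Plan: NOTES/TW-E-A8.md.
-/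

set_option autoImplicit false
set_option linter.style.haveILetI false
set_option linter.unusedSectionVars false

noncomputable section

namespace Fermat.Agent.TW.E

open CategoryTheory groupCohomology Module Fermat.Agent.PT Fermat.Agent.PT.F Fermat.Agent.TW.F

attribute [local instance 1100] Rep.hV2

section Theta

variable {p : ℕ} [Fact p.Prime] {G : Type} [Group G] {ι : Type} {Gloc : ι → Type}
  [∀ v, Group (Gloc v)] (D : PTDatum p G ι Gloc)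

/-- `θ : 𝔽_p → E`, `a ↦ a • ζ` -/
def h2mTheta : ZMod p →+ D.E.V :=
  ZMod.lift p ⟨zmultiplesHom D.E.V D.ζ, by
    rw [zmultiplesHom_apply, natCast_zsmul]
    exact D.ζ_tors⟩

lemma h2m_theta_natCast (n : ℕ) : h2mTheta D (n : ZMod p) = n • D.ζ := by
  have h := ZMod.lift_coe p (⟨zmultiplesHom D.E.V D.ζ, by
    rw [zmultiplesHom_apply, natCast_zsmul]
    exact D.ζ_tors⟩ : {f : ℤ →+ D.E.V // f p = 0}) (n : ℤ)
  rw [Int.cast_natCast] at h
  rw [h2mTheta, h, zmultiplesHom_apply, natCast_zsmul]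

lemma h2m_theta_val (a : ZMod p) : h2mTheta D a = a.val • D.ζ := by
  conv_lhs => rw [← ZMod.natCast_zmod_val a]
  exact h2m_theta_natCast D a.val

lemma h2m_theta_injective : Function.Injective (h2mTheta D) := by
  rw [injective_iff_map_eq_zero]
  intro a ha
  rw [h2m_theta_val] at ha
  have h1 : addOrderOf D.ζ ∣ p := addOrderOf_dvd_of_nsmul_eq_zero D.ζ_tors
  have h2 : addOrderOf D.ζ = p := by
    rcases (Nat.dvd_prime (Fact.out : p.Prime)).1 h1 with h | h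
    · exact absurd (AddMonoid.addOrderOf_eq_one_iff.1 h) D.ζ_ne
    · exact h
  have h3 : p ∣ a.val := by
    have := addOrderOf_dvd_of_nsmul_eq_zero ha
    rwa [h2] at this
  have h4 : a.val = 0 := Nat.eq_zero_of_dvd_of_lt h3 (ZMod.val_lt a)
  exact (ZMod.val_eq_zero a).1 h4

lemma h2m_theta_surj (e : D.E.V) (he : p • e = 0) : ∃ a : ZMod p, h2mTheta D a = e := by
  obtain ⟨n, rfl⟩ := D.ζ_gen e he
  exact ⟨(n : ZMod p), h2m_theta_natCast D n⟩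

lemma h2m_theta_ρ (g : G) (a : ZMod p) :
    D.E.ρ g (h2mTheta D a) = h2mTheta D ((D.χ g : ZMod p) * a) := by
  rw [h2m_theta_val, map_nsmul, D.ζ_char, ← mul_nsmul']
  conv_rhs => rw [← ZMod.natCast_zmod_val a, ← ZMod.natCast_zmod_val (D.χ g : ZMod p),
    ← Nat.cast_mul]
  rw [h2m_theta_natCast, mul_comm]

lemma h2m_p_theta (a : ZMod p) : p • h2mTheta D a = 0 := by
  rw [← map_nsmul, ← Nat.cast_smul_eq_nsmul (ZMod p), ZMod.natCast_self, zero_smul, map_zero]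

end Theta

section Phi

variable {p : ℕ} [Fact p.Prime] {G : Type} [Group G] {ι : Type} {Gloc : ι → Type}
  [∀ v, Group (Gloc v)] (D : PTDatum p G ι Gloc) (P : Subgroup G)

/-- `u_ω = χ(out ω)` -/
def h2mU (ω : G ⧸ P) : (ZMod p)ˣ := D.χ (Quotient.out ω)

lemma h2m_U_smul (hχ : ∀ h ∈ P, D.χ h = 1) (k : G) (ω : G ⧸ P) :
    h2mU D P (k • ω) = D.χ k * h2mU D P ω := by
  have h1 : ((k * Quotient.out ω : G) : G ⧸ P) = k • ω := by
    conv_rhs => rw [← QuotientGroup.out_eq' ω]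
    rfl
  obtain ⟨h, hh⟩ := QuotientGroup.mk_out_eq_mul P (k * Quotient.out ω)
  rw [h1] at hh
  simp only [h2mU]
  rw [hh, map_mul, map_mul, hχ h h.2, mul_one]

/-- `Φ : Fun(Ω, 𝔽_p) → Hom_ℤ(ℤ[Ω], E)`, `Φ(c)(δ_ω) = θ(c(ω) u_ω)` -/
def h2mPhi (c : G ⧸ P → ZMod p) : (permZ G (G ⧸ P)).V →+ D.E.V :=
  chl_lift (G ⧸ P) (fun ω => h2mTheta D (c ω * (h2mU D P ω : ZMod p)))

lemma h2m_phi_single (c : G ⧸ P → ZMod p) (ω : G ⧸ P) :
    h2mPhi D P c (MonoidAlgebra.single ω 1) = h2mTheta D (c ω * (h2mU D P ω : ZMod p)) := by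
  rw [h2mPhi, chl_lift_single, one_smul]

lemma h2m_phi_add (c c' : G ⧸ P → ZMod p) :
    h2mPhi D P (c + c') = h2mPhi D P c + h2mPhi D P c' := by
  apply chl_ext
  intro ω
  rw [AddMonoidHom.add_apply, h2m_phi_single, h2m_phi_single, h2m_phi_single, Pi.add_apply,
    add_mul, map_add]

lemma h2m_phi_sub (c c' : G ⧸ P → ZMod p) :
    h2mPhi D P (c - c') = h2mPhi D P c - h2mPhi D P c' := by
  apply chl_ext
  intro ω
  rw [AddMonoidHom.sub_apply, h2m_phi_single, h2m_phi_single, h2m_phi_single, Pi.sub_apply,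
    sub_mul, map_sub]

lemma h2m_phi_zero : h2mPhi D P 0 = 0 := by
  apply chl_ext
  intro ω
  rw [h2m_phi_single, Pi.zero_apply, zero_mul, map_zero, AddMonoidHom.zero_apply]

lemma h2m_phi_injective : Function.Injective (h2mPhi D P) := by
  intro c c' h
  funext ω
  have h1 : h2mPhi D P c (MonoidAlgebra.single ω 1) = h2mPhi D P c' (MonoidAlgebra.single ω 1) := by
    rw [h]
  rw [h2m_phi_single, h2m_phi_single] at h1
  have h2 := h2m_theta_injective D h1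
  exact (Units.mul_left_inj (h2mU D P ω)).1 h2

lemma h2m_p_phi (c : G ⧸ P → ZMod p) : p • h2mPhi D P c = 0 := by
  apply chl_ext
  intro ω
  rw [AddMonoidHom.nsmul_apply, h2m_phi_single, h2m_p_theta, AddMonoidHom.zero_apply]

lemma h2m_phi_surj (h : (permZ G (G ⧸ P)).V →+ D.E.V) (hp : p • h = 0) :
    ∃ c : G ⧸ P → ZMod p, h2mPhi D P c = h := by
  have h1 : ∀ ω : G ⧸ P, ∃ a : ZMod p, h2mTheta D a = h (MonoidAlgebra.single ω 1) := by
    intro ω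
    apply h2m_theta_surj
    rw [← AddMonoidHom.nsmul_apply, hp, AddMonoidHom.zero_apply]
  choose a ha using h1
  refine ⟨fun ω => a ω * ((h2mU D P ω)⁻¹ : (ZMod p)ˣ), ?_⟩
  apply chl_ext
  intro ω
  rw [h2m_phi_single, mul_assoc, Units.inv_mul, mul_one, ha]

lemma h2m_phi_conj (hχ : ∀ h ∈ P, D.χ h = 1) (k : G) (c : G ⧸ P → ZMod p) :
    conjAdd (permZ G (G ⧸ P)) D.E k (h2mPhi D P c) =
      h2mPhi D P (tAct (Rep.trivial (ZMod p) G (ZMod p)) (G ⧸ P) k c) := by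
  apply chl_ext
  intro ω
  rw [conjAdd_apply, chl_ρ_single, h2m_phi_single, h2m_phi_single, h2m_theta_ρ]
  congr 1
  have h1 : h2mU D P ω = D.χ k * h2mU D P (k⁻¹ • ω) := by
    rw [← h2m_U_smul D P hχ, smul_inv_smul]
  rw [h1, Units.val_mul]
  show _ = c (k⁻¹ • ω) * _
  ring

lemma h2m_phi_tD2 (hχ : ∀ h ∈ P, D.χ h = 1) (y : G × G → G ⧸ P → ZMod p) (s : G × G × G) :
    dTwo (permZ G (G ⧸ P)) D.E (fun t => h2mPhi D P (y t)) s =
      h2mPhi D P (tD2 (Rep.trivial (ZMod p) G (ZMod p)) (G ⧸ P) y s) := by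
  simp only [dTwo, tD2, h2m_phi_add, h2m_phi_sub, h2m_phi_conj D P hχ]

lemma h2m_phi_tD3 (hχ : ∀ h ∈ P, D.χ h = 1) (c : G × G × G → G ⧸ P → ZMod p)
    (s : G × G × G × G) :
    dThree (permZ G (G ⧸ P)) D.E (fun t => h2mPhi D P (c t)) s =
      h2mPhi D P (tD3 (Rep.trivial (ZMod p) G (ZMod p)) (G ⧸ P) c s) := by
  simp only [dThree, tD3, h2m_phi_add, h2m_phi_sub, h2m_phi_conj D P hχ]

end Phi

/-- **A8b.** -/
theorem stmtMu3Fun_of (hMu : StmtMu3) : StmtMu3Fun := by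
  intro p _ G _ ι _ _ Gloc _ D hpd P hU hχ hidx c hc hcd
  obtain ⟨U, hU, hn, hUP⟩ := hU
  haveI := hn
  haveI : U.FiniteIndex := D.𝒯.finiteIndex U hU
  haveI : P.FiniteIndex := Subgroup.finiteIndex_of_le hUP
  haveI : Fintype (G ⧸ P) := Fintype.ofFinite _
  have hΩ : IsLevSet D.𝒯 (G ⧸ P) := h2s_isLevSet D.𝒯 U P hU hUP
  have hcard : ¬ p ∣ Fintype.card (G ⧸ P) := by
    rw [← Nat.card_eq_fintype_card]
    exact hidx
  obtain ⟨y', hy', hpy', hzy'⟩ := hMu p G ι Gloc D hpd (G ⧸ P) hΩ inferInstance hcard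
    (fun t => h2mPhi D P (c t)) (h2s_isLevel₃_comp D.𝒯 hc _)
    (fun s => by rw [h2m_phi_tD3 D P hχ, hcd, h2m_phi_zero])
    (fun s => h2m_p_phi D P _)
  classical
  let Ψ : ((permZ G (G ⧸ P)).V →+ D.E.V) → (G ⧸ P → ZMod p) := fun h =>
    if hp : p • h = 0 then Classical.choose (h2m_phi_surj D P h hp) else 0
  have hΨ : ∀ s, h2mPhi D P (Ψ (y' s)) = y' s := by
    intro s
    simp only [Ψ, dif_pos (hpy' s)]
    exact Classical.choose_spec (h2m_phi_surj D P (y' s) (hpy' s))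
  refine ⟨fun s => Ψ (y' s), hy'.comp Ψ, fun s => ?_⟩
  apply h2m_phi_injective D P
  rw [← h2m_phi_tD2 D P hχ, hzy' s]
  congr 1
  funext t
  exact (hΨ t).symm

end Fermat.Agent.TW.E

end


end ZBTW_040_4

/-! ### bundled: `Fermat.Agent.TW.E.H2SurjFix` -/
section ZBTW_040_5
/-
TW-E piece A8c (helper35): the invariant functional.

`stmtFixFun : StmtFixFun`: if every element of `P` acts on the finite-dimensional `𝔽_p`-module `B`
with `p`-power order, a nonzero `P`-stable subspace `F` of `B` carries a nonzero `P`-invariant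
linear functional (which extends to `B`).

Proof.  `P` acts on the dual `W = Hom(F, 𝔽_p)` through a finite `p`-group `Q` (the image of `P` in
the permutations of `W`); `#W = p^(dim F)` is divisible by `p` and `0` is a fixed point, so there
is another fixed point (`IsPGroup.exists_fixed_point_of_prime_dvd_card_of_fixed_point`).  Extend
it to `B` and normalise.
-/

set_option autoImplicit false

namespace Fermat.Agent.TW.E

open Module

section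

variable {p : ℕ} {G : Type} [Group G] {V : Type} [AddCommGroup V] [Module (ZMod p) V]
  (ρ : G →* (V →ₗ[ZMod p] V)) (P : Subgroup G) (F : Submodule (ZMod p) V)
  (hF : ∀ h ∈ P, ∀ x ∈ F, ρ h x ∈ F)

/-- the action of `h ∈ P` on `F` -/
def a8cT (h : P) : F →ₗ[ZMod p] F :=
  (ρ h).restrict (fun x hx => hF h h.2 x hx)

theorem a8cT_apply (h : P) (x : F) : ((a8cT ρ P F hF h x : F) : V) = ρ h x := rfl

theorem a8cT_mul (h h' : P) : a8cT ρ P F hF (h * h') = a8cT ρ P F hF h ∘ₗ a8cT ρ P F hF h' := by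
  apply LinearMap.ext
  intro x
  apply Subtype.ext
  rw [LinearMap.comp_apply, a8cT_apply, a8cT_apply, a8cT_apply, Subgroup.coe_mul, map_mul]
  rfl

theorem a8cT_one : a8cT ρ P F hF 1 = LinearMap.id := by
  apply LinearMap.ext
  intro x
  apply Subtype.ext
  rw [a8cT_apply, Subgroup.coe_one, map_one]
  rfl

/-- the permutation of the dual of `F` defined by `h ∈ P` -/
def a8cPerm (h : P) : Equiv.Perm (Dual (ZMod p) F) where
  toFun := fun l => l ∘ₗ a8cT ρ P F hF h⁻¹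
  invFun := fun l => l ∘ₗ a8cT ρ P F hF h
  left_inv := by
    intro l
    show (l ∘ₗ a8cT ρ P F hF h⁻¹) ∘ₗ a8cT ρ P F hF h = l
    rw [LinearMap.comp_assoc, ← a8cT_mul, inv_mul_cancel, a8cT_one, LinearMap.comp_id]
  right_inv := by
    intro l
    show (l ∘ₗ a8cT ρ P F hF h) ∘ₗ a8cT ρ P F hF h⁻¹ = l
    rw [LinearMap.comp_assoc, ← a8cT_mul, mul_inv_cancel, a8cT_one, LinearMap.comp_id]

theorem a8cPerm_apply (h : P) (l : Dual (ZMod p) F) :
    a8cPerm ρ P F hF h l = l ∘ₗ a8cT ρ P F hF h⁻¹ := rfl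

/-- the action of `P` on the dual of `F`, as a homomorphism -/
def a8cHom : P →* Equiv.Perm (Dual (ZMod p) F) :=
  MonoidHom.mk' (a8cPerm ρ P F hF) (by
    intro h h'
    apply Equiv.ext
    intro l
    rw [Equiv.Perm.mul_apply, a8cPerm_apply, a8cPerm_apply, a8cPerm_apply, mul_inv_rev, a8cT_mul,
      LinearMap.comp_assoc])

theorem a8cHom_apply (h : P) (l : Dual (ZMod p) F) :
    a8cHom ρ P F hF h l = l ∘ₗ a8cT ρ P F hF h⁻¹ := rfl

/-- an element acting trivially on `V` acts trivially on the dual of `F` -/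
theorem a8cHom_eq_one (h : P) (h1 : ρ (h : G) = 1) : a8cHom ρ P F hF h = 1 := by
  apply Equiv.ext
  intro l
  rw [a8cHom_apply, Equiv.Perm.one_apply]
  have e : a8cT ρ P F hF h⁻¹ = LinearMap.id := by
    apply LinearMap.ext
    intro x
    apply Subtype.ext
    rw [a8cT_apply, Subgroup.coe_inv]
    have h2 : ρ (h : G)⁻¹ = 1 := by
      have h3 : ρ (h : G)⁻¹ * ρ (h : G) = 1 := by rw [← map_mul, inv_mul_cancel, map_one]
      rwa [h1, mul_one] at h3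
    rw [h2]
    rfl
  rw [e, LinearMap.comp_id]

end

/-- **A8c**. -/
theorem stmtFixFun : StmtFixFun := by
  intro p _ G _ B _ P hpow F hF hne
  have hp : p.Prime := Fact.out
  classical
  -- the finite `p`-group `Q`
  set φ : P →* Equiv.Perm (Dual (ZMod p) F) := a8cHom B.ρ P F hF with hφ
  set Q : Subgroup (Equiv.Perm (Dual (ZMod p) F)) := φ.range with hQ
  have hQp : IsPGroup p Q := by
    rintro ⟨q, h, rfl⟩
    obtain ⟨n, hn⟩ := hpow h h.2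
    refine ⟨n, ?_⟩
    apply Subtype.ext
    rw [Subgroup.coe_pow, Subgroup.coe_one]
    show φ h ^ p ^ n = 1
    rw [← map_pow]
    apply a8cHom_eq_one
    rw [Subgroup.coe_pow]
    exact hn
  -- the dual of `F` is finite, of order divisible by `p`
  have hfin : Finite (Dual (ZMod p) F) := Module.finite_of_finite (ZMod p)
  have hdvd : p ∣ Nat.card (Dual (ZMod p) F) := by
    rw [Module.natCard_eq_pow_finrank (K := ZMod p) (V := Dual (ZMod p) F), Nat.card_zmod,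
      Subspace.dual_finrank_eq]
    have hpos : 0 < finrank (ZMod p) F := by
      rw [Module.finrank_pos_iff, Submodule.nontrivial_iff_ne_bot]
      exact hne
    exact dvd_pow_self p hpos.ne'
  have h0 : (0 : Dual (ZMod p) F) ∈ MulAction.fixedPoints Q (Dual (ZMod p) F) := by
    rintro ⟨q, h, rfl⟩
    show φ h 0 = 0
    rw [hφ, a8cHom_apply, LinearMap.zero_comp]
  obtain ⟨l₀, hl₀, hl₀ne⟩ :=
    hQp.exists_fixed_point_of_prime_dvd_card_of_fixed_point (Dual (ZMod p) F) hdvd h0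
  -- invariance of `l₀`
  have hinv : ∀ h : P, ∀ x : F, l₀ (a8cT B.ρ P F hF h x) = l₀ x := by
    intro h x
    have h1 : φ h⁻¹ l₀ = l₀ := hl₀ ⟨φ h⁻¹, h⁻¹, rfl⟩
    rw [hφ, a8cHom_apply, inv_inv] at h1
    exact congrArg (fun l : Dual (ZMod p) F => l x) h1
  -- normalise and extend
  obtain ⟨x₁, hx₁⟩ : ∃ x₁ : F, l₀ x₁ ≠ 0 := by
    by_contra hcon
    push Not at hcon
    exact hl₀ne (LinearMap.ext fun x => (hcon x).symm ▸ rfl)
  obtain ⟨lam, hlam⟩ := LinearMap.exists_extend (p := F) l₀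
  have hlamF : ∀ x : F, lam (x : B.V) = l₀ x := fun x => by
    rw [← hlam]; rfl
  refine ⟨lam, ((l₀ x₁)⁻¹ • x₁ : F), Submodule.coe_mem _, ?_, ?_⟩
  · rw [hlamF, map_smul, smul_eq_mul, inv_mul_cancel₀ hx₁]
  · intro h hh x hx
    have := hinv ⟨h, hh⟩ ⟨x, hx⟩
    rw [← hlamF, ← hlamF] at this
    exact this

end Fermat.Agent.TW.E


end ZBTW_040_5

/-! ### bundled: `Fermat.Agent.TW.E.H2SurjFinal` -/
section ZBTW_040_6
/-
Project TW (S56) — part TW-E, piece **A8** (helper69): `StmtMu3 → StmtH2Surj`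
(A8a `stmtH2SurjAsm`, A8b `stmtMu3Fun_of`, A8c `stmtFixFun` of helper35).
-/

set_option autoImplicit false

namespace Fermat.Agent.TW.E

/-- **A8.** Right exactness of `H²_lev` from `StmtMu3`. -/
theorem stmtH2Surj_of (hMu : StmtMu3) : StmtH2Surj :=
  stmtH2SurjAsm (stmtMu3Fun_of hMu) stmtFixFun

end Fermat.Agent.TW.E


end ZBTW_040_6

/-! ### bundled: `Fermat.Agent.TW.E.KumBase` -/
section ZBTW_040_7
/-
Project TW (S56) — part TW-E, block **E-cyc**, SHARED BASE of the Kummer pieces K-H0, K-H1, K-H2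
(helper35).  Names `kumb*`.

* `kumbLift` : the additive map induced along a surjection;
* `kumbZ1`, `kumbCls` : level 1-cocycles (as functions) and their classes in `H¹_lev`
  (any coefficient ring), `kumb_cls_surj`, `kumb_cls_eq_zero_iff`, `kumb_levH1Map_cls`;
* `kumbKappa D U : 𝓜 → Hom_ℤ(ℤ[Γ], E)`, `κ(ψ)(e_γ) = ψ(γ).val • ζ`: additive, injective, with image
  the `p`-torsion, equivariant for `G` (`kumb_kappa_conj`) and for the right translations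
  (`kumb_kappa_rt`); its inverse `kumbKinv` on the `p`-torsion.
-/

set_option autoImplicit false
set_option linter.unusedSectionVars false
set_option linter.style.haveILetI false

noncomputable section

namespace Fermat.Agent.TW.E

open CategoryTheory groupCohomology Module Fermat.Agent.PT Fermat.Agent.PT.F Fermat.Agent.PT.B
  Fermat.Agent.TW.F

attribute [local instance 1100] Rep.hV2

/-! ### Lifting additive maps along surjections -/

section Lift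

variable {X V W : Type} [AddCommGroup X] [AddCommGroup V] [AddCommGroup W]

/-- The additive map `V → W` induced by `β : X → W` along a surjection `α : X → V` with
`ker α ≤ ker β`. -/
def kumbLift (α : X →+ V) (β : X →+ W) (hα : Function.Surjective α)
    (h : ∀ x, α x = 0 → β x = 0) : V →+ W where
  toFun v := β (Classical.choose (hα v))
  map_zero' := h _ (Classical.choose_spec (hα 0))
  map_add' v w := by
    rw [← map_add, ← sub_eq_zero, ← map_sub]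
    apply h
    rw [map_sub, map_add, Classical.choose_spec (hα (v + w)), Classical.choose_spec (hα v),
      Classical.choose_spec (hα w), sub_self]

lemma kumbLift_apply (α : X →+ V) (β : X →+ W) (hα : Function.Surjective α)
    (h : ∀ x, α x = 0 → β x = 0) (x : X) : kumbLift α β hα h (α x) = β x := by
  show β (Classical.choose (hα (α x))) = β x
  rw [← sub_eq_zero, ← map_sub]
  apply h
  rw [map_sub, Classical.choose_spec (hα (α x)), sub_self]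

end Lift

/-! ### Classes of level 1-cocycles -/

section Cls

variable {k : Type} [CommRing k] {G : Type} [Group G] (𝒯 : Tower G) (B : Rep.{0} k G)

/-- level 1-cocycles, as a submodule of the functions -/
def kumbZ1 : Submodule k (G → B.V) := cocycles₁ B ⊓ levCochains₁ 𝒯 B

lemma mem_kumbZ1 (x : G → B.V) : x ∈ kumbZ1 𝒯 B ↔ x ∈ cocycles₁ B ∧ IsLevel₁ 𝒯 x := Iff.rfl

/-- the class of a level 1-cocycle -/
def kumbCls : ↥(kumbZ1 𝒯 B) →ₗ[k] ↥(levH1 𝒯 B) :=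
  LinearMap.codRestrict (levH1 𝒯 B)
    ((H1π B).hom ∘ₗ (Submodule.inclusion (inf_le_left : kumbZ1 𝒯 B ≤ cocycles₁ B)))
    (fun x => (mem_levH1_iff 𝒯 B _).2 ⟨⟨x.1, x.2.1⟩, x.2.2, rfl⟩)

lemma kumbCls_val (x : ↥(kumbZ1 𝒯 B)) :
    ((kumbCls 𝒯 B x : ↥(levH1 𝒯 B)) : H1 B) = (H1π B).hom ⟨x.1, x.2.1⟩ := rfl

lemma kumbCls_surjective : Function.Surjective (kumbCls 𝒯 B) := by
  rintro ⟨y, hy⟩
  obtain ⟨c, hc, rfl⟩ := (mem_levH1_iff 𝒯 B y).1 hy
  exact ⟨⟨c.1, c.2, hc⟩, Subtype.ext rfl⟩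

lemma kumbCls_eq_zero_iff (x : ↥(kumbZ1 𝒯 B)) :
    kumbCls 𝒯 B x = 0 ↔ ∃ b : B.V, ∀ g : G, (x : G → B.V) g = B.ρ g b - b := by
  rw [← Subtype.coe_inj, kumbCls_val, Submodule.coe_zero]
  rw [H1π_eq_zero_iff (⟨x.1, x.2.1⟩ : cocycles₁ B)]
  constructor
  · rintro ⟨b, hb⟩
    exact ⟨b, fun g => (congrFun hb g).symm⟩
  · rintro ⟨b, hb⟩
    exact ⟨b, funext fun g => (hb g).symm⟩

variable {B} in
/-- push-forward of level 1-cocycles along a morphism -/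
def kumbPush {B' : Rep.{0} k G} (f : B ⟶ B') : ↥(kumbZ1 𝒯 B) →ₗ[k] ↥(kumbZ1 𝒯 B') :=
  (LinearMap.compLeft f.hom.toLinearMap G).restrict (p := kumbZ1 𝒯 B) (q := kumbZ1 𝒯 B')
    (fun x hx => ⟨(mem_cocycles₁_iff _).2 fun g h => by
      show f.hom (x (g * h)) = B'.ρ g (f.hom (x h)) + f.hom (x g)
      rw [(mem_cocycles₁_iff x).1 hx.1 g h, map_add, Rep.hom_comm_apply], hx.2.comp _⟩)

variable {B} in
lemma kumbPush_apply {B' : Rep.{0} k G} (f : B ⟶ B') (x : ↥(kumbZ1 𝒯 B)) (g : G) :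
    ((kumbPush 𝒯 f x : ↥(kumbZ1 𝒯 B')) : G → B'.V) g = f.hom ((x : G → B.V) g) := rfl

variable {B} in
/-- `levH1Map` on classes -/
lemma kumb_levH1Map_cls {B' : Rep.{0} k G} (f : B ⟶ B') (x : ↥(kumbZ1 𝒯 B)) :
    levH1Map 𝒯 f (kumbCls 𝒯 B x) = kumbCls 𝒯 B' (kumbPush 𝒯 f x) := by
  apply Subtype.ext
  rw [levH1Map_mk 𝒯 f ⟨x.1, x.2.1⟩ (kumbCls 𝒯 B x) (kumbCls_val 𝒯 B x), kumbCls_val]
  rfl

end Cls

/-! ### `κ : 𝓜 → Hom_ℤ(ℤ[Γ], E)` -/

section Kappa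

variable {p : ℕ} [Fact p.Prime] {G : Type} [Group G] {ι : Type} {Gloc : ι → Type}
  [∀ v, Group (Gloc v)] (D : PTDatum p G ι Gloc) (U : Subgroup G) [U.Normal]

/-- `κ(ψ)(e_γ) = ψ(γ).val • ζ` -/
def kumbKappa : ((G ⧸ U) → ZMod p) →+ ((permZ G (G ⧸ U)).V →+ D.E.V) where
  toFun ψ := chl_lift (G ⧸ U) (fun γ => h2mTheta D (ψ γ))
  map_zero' := by
    apply chl_ext
    intro γ
    rw [chl_lift_single, one_smul, Pi.zero_apply, map_zero, AddMonoidHom.zero_apply]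
  map_add' ψ ψ' := by
    apply chl_ext
    intro γ
    rw [AddMonoidHom.add_apply, chl_lift_single, chl_lift_single, chl_lift_single, one_smul,
      one_smul, one_smul, Pi.add_apply, map_add]

lemma kumb_kappa_single (ψ : (G ⧸ U) → ZMod p) (γ : G ⧸ U) :
    kumbKappa D U ψ (MonoidAlgebra.single γ 1) = h2mTheta D (ψ γ) := by
  show chl_lift (G ⧸ U) (fun γ => h2mTheta D (ψ γ)) (MonoidAlgebra.single γ 1) = _
  rw [chl_lift_single, one_smul]

lemma kumb_kappa_injective : Function.Injective (kumbKappa D U) := by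
  intro ψ ψ' h
  funext γ
  have h1 : kumbKappa D U ψ (MonoidAlgebra.single γ 1) =
      kumbKappa D U ψ' (MonoidAlgebra.single γ 1) := by rw [h]
  rw [kumb_kappa_single, kumb_kappa_single] at h1
  exact h2m_theta_injective D h1

lemma kumb_p_kappa (ψ : (G ⧸ U) → ZMod p) : p • kumbKappa D U ψ = 0 := by
  apply chl_ext
  intro γ
  rw [AddMonoidHom.nsmul_apply, kumb_kappa_single, h2m_p_theta, AddMonoidHom.zero_apply]

lemma kumb_kappa_surj (h : (permZ G (G ⧸ U)).V →+ D.E.V) (hp : p • h = 0) :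
    ∃ ψ : (G ⧸ U) → ZMod p, kumbKappa D U ψ = h := by
  have h1 : ∀ γ : G ⧸ U, ∃ a : ZMod p, h2mTheta D a = h (MonoidAlgebra.single γ 1) := by
    intro γ
    apply h2m_theta_surj
    rw [← AddMonoidHom.nsmul_apply, hp, AddMonoidHom.zero_apply]
  choose a ha using h1
  refine ⟨a, ?_⟩
  apply chl_ext
  intro γ
  rw [kumb_kappa_single, ha]

/-- the action of `G` on the basis of `ℤ[Γ]` -/
lemma kumb_smul_mk (g : G) (γ : G ⧸ U) : g • γ = (g : G ⧸ U) * γ := by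
  obtain ⟨x, rfl⟩ := QuotientGroup.mk_surjective γ
  rfl

/-- `κ` is `G`-equivariant -/
lemma kumb_kappa_conj (g : G) (ψ : (G ⧸ U) → ZMod p) :
    conjAdd (permZ G (G ⧸ U)) D.E g (kumbKappa D U ψ) =
      kumbKappa D U (regMuρ D.χ U g ψ) := by
  apply chl_ext
  intro γ
  rw [conjAdd_apply, chl_ρ_single, kumb_kappa_single, kumb_kappa_single, h2m_theta_ρ,
    kumb_smul_mk, QuotientGroup.mk_inv]
  rfl

/-- `κ` commutes with the right translations -/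
lemma kumb_kappa_rt (δ : G ⧸ U) (ψ : (G ⧸ U) → ZMod p) :
    (kumbKappa D U ψ).comp (rtAdd U δ) = kumbKappa D U (fun γ => ψ (γ * δ)) := by
  apply chl_ext
  intro γ
  rw [AddMonoidHom.comp_apply, rtAdd_single, kumb_kappa_single, kumb_kappa_single]

/-- the inverse of `κ` (on the `p`-torsion) -/
def kumbKinv (h : (permZ G (G ⧸ U)).V →+ D.E.V) : (G ⧸ U) → ZMod p :=
  Function.invFun (kumbKappa D U) h

lemma kumb_kinv_kappa (ψ : (G ⧸ U) → ZMod p) : kumbKinv D U (kumbKappa D U ψ) = ψ :=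
  Function.leftInverse_invFun (kumb_kappa_injective D U) ψ

lemma kumb_kappa_kinv (h : (permZ G (G ⧸ U)).V →+ D.E.V) (hp : p • h = 0) :
    kumbKappa D U (kumbKinv D U h) = h := by
  obtain ⟨ψ, rfl⟩ := kumb_kappa_surj D U h hp
  rw [kumb_kinv_kappa]

lemma kumb_kinv_add (h h' : (permZ G (G ⧸ U)).V →+ D.E.V) (hp : p • h = 0) (hp' : p • h' = 0) :
    kumbKinv D U (h + h') = kumbKinv D U h + kumbKinv D U h' := by
  obtain ⟨ψ, rfl⟩ := kumb_kappa_surj D U h hp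
  obtain ⟨ψ', rfl⟩ := kumb_kappa_surj D U h' hp'
  rw [← map_add, kumb_kinv_kappa, kumb_kinv_kappa, kumb_kinv_kappa]

lemma kumb_kinv_sub (h h' : (permZ G (G ⧸ U)).V →+ D.E.V) (hp : p • h = 0) (hp' : p • h' = 0) :
    kumbKinv D U (h - h') = kumbKinv D U h - kumbKinv D U h' := by
  obtain ⟨ψ, rfl⟩ := kumb_kappa_surj D U h hp
  obtain ⟨ψ', rfl⟩ := kumb_kappa_surj D U h' hp'
  rw [← map_sub, kumb_kinv_kappa, kumb_kinv_kappa, kumb_kinv_kappa]

lemma kumb_kinv_zero : kumbKinv D U 0 = 0 := by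
  rw [← map_zero (kumbKappa D U), kumb_kinv_kappa]

lemma kumb_kinv_conj (g : G) (h : (permZ G (G ⧸ U)).V →+ D.E.V) (hp : p • h = 0) :
    kumbKinv D U (conjAdd (permZ G (G ⧸ U)) D.E g h) = regMuρ D.χ U g (kumbKinv D U h) := by
  obtain ⟨ψ, rfl⟩ := kumb_kappa_surj D U h hp
  rw [kumb_kappa_conj, kumb_kinv_kappa, kumb_kinv_kappa]

lemma kumb_kinv_rt (δ : G ⧸ U) (h : (permZ G (G ⧸ U)).V →+ D.E.V) (hp : p • h = 0) :
    kumbKinv D U (h.comp (rtAdd U δ)) = fun γ => kumbKinv D U h (γ * δ) := by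
  obtain ⟨ψ, rfl⟩ := kumb_kappa_surj D U h hp
  rw [kumb_kappa_rt, kumb_kinv_kappa, kumb_kinv_kappa]

end Kappa

end Fermat.Agent.TW.E

end


end ZBTW_040_7

/-! ### bundled: `Fermat.Agent.TW.E.KumH0` -/
section ZBTW_040_8
/-
Project TW (S56) — part TW-E, block **E-cyc**, piece **K-H0** (helper35):
`H⁰(G, 𝓜) ≅ E^U[p]`, `Γ`-equivariantly, `ψ ↦ ψ(1).val • ζ`.  Names `kumh0_*`.
-/

set_option autoImplicit false
set_option linter.unusedSectionVars false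
set_option linter.style.haveILetI false

noncomputable section

namespace Fermat.Agent.TW.E

open CategoryTheory groupCohomology Module Fermat.Agent.PT Fermat.Agent.PT.F Fermat.Agent.PT.B
  Fermat.Agent.TW.F

attribute [local instance 1100] Rep.hV2

section H0

variable {p : ℕ} [Fact p.Prime] {G : Type} [Group G] {ι : Type} {Gloc : ι → Type}
  [∀ v, Group (Gloc v)] (D : PTDatum p G ι Gloc) (U : Subgroup G) [U.Normal]

/-- an invariant element of `𝓜` as a function -/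
def kumh0Fn (ψ : ↥((regMu D.χ U).ρ.invariants)) : (G ⧸ U) → ZMod p := ψ.1

/-- `θ(a)` is fixed by `U` when `χ|_U = 1` -/
lemma kumh0_theta_mem (hχ : ∀ s ∈ U, D.χ s = 1) (a : ZMod p) :
    h2mTheta D a ∈ Representation.invariants (D.E.ρ.comp U.subtype) := by
  intro s
  show D.E.ρ (s : G) (h2mTheta D a) = h2mTheta D a
  rw [h2m_theta_ρ, hχ s s.2, Units.val_one, one_mul]

/-- the map `ψ ↦ θ(ψ 1)` -/
def kumh0Map (hχ : ∀ s ∈ U, D.χ s = 1) :
    ↥((regMu D.χ U).ρ.invariants) →+ ↥(Representation.invariants (D.E.ρ.comp U.subtype)) where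
  toFun ψ := ⟨h2mTheta D ((kumh0Fn D U ψ) 1), kumh0_theta_mem D U hχ _⟩
  map_zero' := by
    apply Subtype.ext
    show h2mTheta D ((0 : (G ⧸ U) → ZMod p) 1) = 0
    rw [Pi.zero_apply, map_zero]
  map_add' ψ ψ' := by
    apply Subtype.ext
    show h2mTheta D (((kumh0Fn D U ψ) + (kumh0Fn D U ψ')) 1) = _ + _
    rw [Pi.add_apply, map_add]

lemma kumh0Map_val (hχ : ∀ s ∈ U, D.χ s = 1) (ψ : ↥((regMu D.χ U).ρ.invariants)) :
    ((kumh0Map D U hχ ψ : ↥(Representation.invariants (D.E.ρ.comp U.subtype))) : D.E.V) =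
      h2mTheta D ((kumh0Fn D U ψ) 1) := rfl

/-- an invariant function is determined by its value at `1` -/
lemma kumh0_inv_apply (ψ : ↥((regMu D.χ U).ρ.invariants)) (g : G) :
    (kumh0Fn D U ψ) (g : G ⧸ U) = (D.χ g : ZMod p) * (kumh0Fn D U ψ) 1 := by
  have h : regMuρ D.χ U g (kumh0Fn D U ψ) = kumh0Fn D U ψ := ψ.2 g
  have h' := congrFun h (g : G ⧸ U)
  change (D.χ g : ZMod p) * kumh0Fn D U ψ ((g : G ⧸ U)⁻¹ * (g : G ⧸ U)) = _ at h'
  rw [inv_mul_cancel] at h'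
  exact h'.symm

end H0

/-- **K-H0.** -/
theorem stmtKumH0 : StmtKumH0 := by
  intro p _ G _ ι _ _ Gloc _ D U _ hU hχ
  refine ⟨kumh0Map D U hχ, ?_, ?_, ?_⟩
  · -- injective
    intro ψ ψ' h
    have h1 : h2mTheta D ((kumh0Fn D U ψ) 1) = h2mTheta D ((kumh0Fn D U ψ') 1) :=
      congrArg Subtype.val h
    have h2 := h2m_theta_injective D h1
    apply Subtype.ext
    funext γ
    obtain ⟨g, rfl⟩ := QuotientGroup.mk_surjective γ
    show kumh0Fn D U ψ (g : G ⧸ U) = kumh0Fn D U ψ' (g : G ⧸ U)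
    rw [kumh0_inv_apply D U ψ g, kumh0_inv_apply D U ψ' g, h2]
  · -- equivariant
    intro δ ψ
    obtain ⟨d, rfl⟩ := QuotientGroup.mk_surjective δ
    apply Subtype.ext
    show h2mTheta D ((kumh0Fn D U ψ) (1 * (d : G ⧸ U))) =
      D.E.ρ d (h2mTheta D ((kumh0Fn D U ψ) 1))
    rw [one_mul, kumh0_inv_apply D U ψ d, h2m_theta_ρ]
  · -- the image is the `p`-torsion
    intro x
    constructor
    · intro hx
      have hx1 : p • (x : D.E.V) = 0 := by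
        have := congrArg Subtype.val hx
        exact this
      obtain ⟨a, ha⟩ := h2m_theta_surj D (x : D.E.V) hx1
      refine ⟨⟨fun γ => ((cycChi D.χ U hχ γ : (ZMod p)ˣ) : ZMod p) * a, ?_⟩, ?_⟩
      · intro g
        funext γ
        obtain ⟨y, rfl⟩ := QuotientGroup.mk_surjective γ
        rw [regMu_ρ_apply]
        show (D.χ g : ZMod p) * (((cycChi D.χ U hχ ((g : G ⧸ U)⁻¹ * (y : G ⧸ U)) : (ZMod p)ˣ) :
          ZMod p) * a) = ((cycChi D.χ U hχ (y : G ⧸ U) : (ZMod p)ˣ) : ZMod p) * a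
        rw [← mul_assoc, ← QuotientGroup.mk_inv, ← QuotientGroup.mk_mul]
        have e1 : cycChi D.χ U hχ ((g⁻¹ * y : G) : G ⧸ U) = D.χ (g⁻¹ * y) := rfl
        have e2 : cycChi D.χ U hχ ((y : G) : G ⧸ U) = D.χ y := rfl
        rw [e1, e2, ← Units.val_mul, ← map_mul, mul_inv_cancel_left]
      · apply Subtype.ext
        show h2mTheta D (((cycChi D.χ U hχ 1 : (ZMod p)ˣ) : ZMod p) * a) = _
        rw [map_one, Units.val_one, one_mul, ha]
    · rintro ⟨ψ, rfl⟩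
      apply Subtype.ext
      show p • h2mTheta D ((kumh0Fn D U ψ) 1) = 0
      exact h2m_p_theta D _

end Fermat.Agent.TW.E

end


end ZBTW_040_8

/-! ### bundled: `Fermat.Agent.TW.E.KumH2` -/
section ZBTW_040_9
/-
Project TW (S56) — part TW-E, block **E-cyc**, piece **K-H2** (helper35): the Kummer sequence in
degree 2,
  `H¹_lev(𝓔) —p→ H¹_lev(𝓔) —a→ H²_lev(G, 𝓜) —b→ H²_lev(G, 𝓔) —p→ H²_lev(G, 𝓔)`,
`𝓔 = Hom_ℤ(ℤ[Γ], E)`, `𝓜 = Hom_ℤ(ℤ[Γ], μ_p)`, `Γ`-equivariantly.  Names `kumh2*`.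

`P` = the level 1-cochains `c̃` of `𝓔` with `p • d c̃ = 0`;  `α : P → Z¹_lev(𝓔)`, `c̃ ↦ p • c̃` (onto:
`E` is `p`-divisible, roots are chosen by a function of the value);  `β : P → H²_lev(𝓜)`,
`c̃ ↦ [κ⁻¹ ∘ d c̃]`;  `a` is induced by `β` along `cls ∘ α`;  `b = κ_*`.
-/

set_option autoImplicit false
set_option linter.unusedSectionVars false
set_option linter.style.haveILetI false

noncomputable section

namespace Fermat.Agent.TW.E

open CategoryTheory groupCohomology Module Fermat.Agent.PT Fermat.Agent.PT.F Fermat.Agent.PT.B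
  Fermat.Agent.TW.F
open Fermat.Agent.PT.F.ExactH2

attribute [local instance 1100] Rep.hV2

/-! ### Bridge: Mathlib cocycles of `Hom_ℤ(M, Y)` versus `dOne`, `dTwo` -/

section Bridge

variable {G : Type} [Group G] (M Y : Rep.{0} ℤ G)

lemma kumh2_mem_cocycles₁ (c : G → (M.V →+ Y.V)) :
    c ∈ cocycles₁ (homRep M Y) ↔ ∀ s, dOne M Y c s = 0 := by
  rw [mem_cocycles₁_def]
  constructor
  · intro h s
    exact h s.1 s.2
  · intro h g g'
    exact h (g, g')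

lemma kumh2_mem_cocycles₂ (y : G × G → (M.V →+ Y.V)) :
    y ∈ cocycles₂ (homRep M Y) ↔ ∀ s, dTwo M Y y s = 0 := by
  rw [mem_cocycles₂_def]
  constructor
  · intro h s
    exact h s.1 s.2.1 s.2.2
  · intro h g g' g''
    exact h (g, g', g'')

lemma kumh2_d₁₂ (t : G → (M.V →+ Y.V)) : (d₁₂ (homRep M Y)).hom t = dOne M Y t := rfl

lemma kumh2_d₀₁ (h : M.V →+ Y.V) (g : G) :
    (homRep M Y).ρ g h - h = dZero M Y h g := rfl

lemma kumh2_mem_levCob (𝒯 : Tower G) (y : G × G → (M.V →+ Y.V)) :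
    y ∈ levCoboundaries₂ 𝒯 (homRep M Y) ↔ ∃ t : G → (M.V →+ Y.V), IsLevel₁ 𝒯 t ∧
      ∀ s, y s = dOne M Y t s := by
  rw [mem_levCoboundaries₂_iff]
  constructor
  · rintro ⟨t, ht, rfl⟩
    exact ⟨t, ht, fun s => rfl⟩
  · rintro ⟨t, ht, h⟩
    exact ⟨t, ht, funext fun s => (h s).symm⟩

end Bridge

/-! ### The differentials of `𝓜` on functions, and `κ` -/

section MSide

variable {p : ℕ} [Fact p.Prime] {G : Type} [Group G] {ι : Type} {Gloc : ι → Type}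
  [∀ v, Group (Gloc v)] (D : PTDatum p G ι Gloc) (U : Subgroup G) [U.Normal]

/-- `d¹` of `𝓜` on functions -/
def kumh2D1 (x : G → ((G ⧸ U) → ZMod p)) (s : G × G) : (G ⧸ U) → ZMod p :=
  regMuρ D.χ U s.1 (x s.2) - x (s.1 * s.2) + x s.1

/-- `d²` of `𝓜` on functions -/
def kumh2D2 (w : G × G → ((G ⧸ U) → ZMod p)) (s : G × G × G) : (G ⧸ U) → ZMod p :=
  regMuρ D.χ U s.1 (w (s.2.1, s.2.2)) - w (s.1 * s.2.1, s.2.2) + w (s.1, s.2.1 * s.2.2)
    - w (s.1, s.2.1)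

lemma kumh2_d₁₂_M (x : G → (regMu D.χ U).V) :
    (d₁₂ (regMu D.χ U)).hom x = kumh2D1 D U x := rfl

lemma kumh2_mem_cocycles₂_M (w : G × G → (regMu D.χ U).V) :
    w ∈ cocycles₂ (regMu D.χ U) ↔ ∀ s, kumh2D2 D U w s = 0 := by
  rw [mem_cocycles₂_def]
  constructor
  · intro h s
    exact h s.1 s.2.1 s.2.2
  · intro h g g' g''
    exact h (g, g', g'')

lemma kumh2_mem_levCob_M (w : G × G → (regMu D.χ U).V) :
    w ∈ levCoboundaries₂ D.𝒯 (regMu D.χ U) ↔ ∃ x : G → ((G ⧸ U) → ZMod p), IsLevel₁ D.𝒯 x ∧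
      ∀ s, w s = kumh2D1 D U x s := by
  rw [mem_levCoboundaries₂_iff]
  constructor
  · rintro ⟨x, hx, rfl⟩
    exact ⟨x, hx, fun s => rfl⟩
  · rintro ⟨x, hx, h⟩
    exact ⟨x, hx, funext fun s => (h s).symm⟩

/-- `κ` commutes with `d¹` -/
lemma kumh2_kappa_D1 (x : G → ((G ⧸ U) → ZMod p)) (s : G × G) :
    kumbKappa D U (kumh2D1 D U x s) =
      dOne (permZ G (G ⧸ U)) D.E (fun g => kumbKappa D U (x g)) s := by
  unfold kumh2D1 dOne
  rw [map_add, map_sub, kumb_kappa_conj]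

/-- `κ` commutes with `d²` -/
lemma kumh2_kappa_D2 (w : G × G → ((G ⧸ U) → ZMod p)) (s : G × G × G) :
    kumbKappa D U (kumh2D2 D U w s) =
      dTwo (permZ G (G ⧸ U)) D.E (fun g => kumbKappa D U (w g)) s := by
  unfold kumh2D2 dTwo
  rw [map_sub, map_add, map_sub, kumb_kappa_conj]

/-- a function with values in the `p`-torsion is `κ` of a function -/
lemma kumh2_kappa_kinv₂ (y : G × G → ((permZ G (G ⧸ U)).V →+ D.E.V)) (hy : ∀ s, p • y s = 0) :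
    (fun s => kumbKappa D U (kumbKinv D U (y s))) = y :=
  funext fun s => kumb_kappa_kinv D U (y s) (hy s)

lemma kumh2_kappa_kinv₁ (c : G → ((permZ G (G ⧸ U)).V →+ D.E.V)) (hc : ∀ g, p • c g = 0) :
    (fun g => kumbKappa D U (kumbKinv D U (c g))) = c :=
  funext fun g => kumb_kappa_kinv D U (c g) (hc g)

/-- a chosen `p`-th root of an additive map `ℤ[Γ] → E` -/
def kumh2Root (h : (permZ G (G ⧸ U)).V →+ D.E.V) : (permZ G (G ⧸ U)).V →+ D.E.V :=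
  chl_lift (G ⧸ U) (fun γ => Classical.choose (D.E_div (h (MonoidAlgebra.single γ 1))))

lemma kumh2_root (h : (permZ G (G ⧸ U)).V →+ D.E.V) : p • kumh2Root D U h = h := by
  apply chl_ext
  intro γ
  rw [AddMonoidHom.nsmul_apply, kumh2Root, chl_lift_single, one_smul]
  exact Classical.choose_spec (D.E_div (h (MonoidAlgebra.single γ 1)))

end MSide

/-! ### The group `P` and the maps `α`, `β` -/

section Main

variable {p : ℕ} [Fact p.Prime] {G : Type} [Group G] {ι : Type} {Gloc : ι → Type}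
  [∀ v, Group (Gloc v)] (D : PTDatum p G ι Gloc) (U : Subgroup G) [U.Normal]

lemma kumh2_dOne_zero (M Y : Rep.{0} ℤ G) (s : G × G) :
    dOne M Y (0 : G → (M.V →+ Y.V)) s = 0 := by
  unfold dOne
  simp

lemma kumh2_levSet (hU : U ∈ D.𝒯.lev) : IsLevSet D.𝒯 (G ⧸ U) :=
  h2s_isLevSet D.𝒯 U U hU le_rfl

lemma kumh2_finite (hU : U ∈ D.𝒯.lev) : Finite (G ⧸ U) :=
  haveI := D.𝒯.finiteIndex U hU
  Subgroup.finite_quotient_of_finiteIndex

/-- precomposition with a right translation commutes with conjugation -/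
lemma kumh2_conj_rt (Y : Rep.{0} ℤ G) (δ : G ⧸ U) (g : G)
    (F : (permZ G (G ⧸ U)).V →+ Y.V) :
    conjAdd (permZ G (G ⧸ U)) Y g (F.comp (rtAdd U δ)) =
      (conjAdd (permZ G (G ⧸ U)) Y g F).comp (rtAdd U δ) := by
  refine AddMonoidHom.ext fun m => ?_
  change Y.ρ g (F (rtAdd U δ ((permZ G (G ⧸ U)).ρ g⁻¹ m))) =
    Y.ρ g (F ((permZ G (G ⧸ U)).ρ g⁻¹ (rtAdd U δ m)))
  rw [rtAdd_ρ]

lemma kumh2_dOne_rt (Y : Rep.{0} ℤ G) (δ : G ⧸ U)
    (t : G → ((permZ G (G ⧸ U)).V →+ Y.V)) (s : G × G) :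
    dOne (permZ G (G ⧸ U)) Y (fun g => (t g).comp (rtAdd U δ)) s =
      (dOne (permZ G (G ⧸ U)) Y t s).comp (rtAdd U δ) := by
  unfold dOne
  simp only [AddMonoidHom.sub_comp, AddMonoidHom.add_comp]
  rw [kumh2_conj_rt]

/-- `P`: the level 1-cochains `c̃` of `𝓔` with `p • d c̃ = 0` -/
def kumh2P : AddSubgroup (G → ((permZ G (G ⧸ U)).V →+ D.E.V)) where
  carrier := {c | IsLevel₁ D.𝒯 c ∧ ∀ s, p • dOne (permZ G (G ⧸ U)) D.E c s = 0}
  add_mem' := fun {c c'} hc hc' => ⟨hc.1.add hc'.1, fun s => by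
    rw [show (c + c') = fun g => c g + c' g from rfl, chl_dOne_add, smul_add, hc.2 s, hc'.2 s,
      add_zero]⟩
  zero_mem' := ⟨isLevel₁_const D.𝒯 0, fun s => by rw [kumh2_dOne_zero, smul_zero]⟩
  neg_mem' := fun {c} hc => ⟨hc.1.comp (fun x => -x), fun s => by
    rw [show (-c) = fun g => - c g from rfl, chl_dOne_neg, smul_neg, hc.2 s, neg_zero]⟩

lemma mem_kumh2P (c : G → ((permZ G (G ⧸ U)).V →+ D.E.V)) :
    c ∈ kumh2P D U ↔ IsLevel₁ D.𝒯 c ∧ ∀ s, p • dOne (permZ G (G ⧸ U)) D.E c s = 0 := Iff.rfl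

/-- the `𝓜`-valued 2-cochain `κ⁻¹ ∘ d c̃` -/
def kumh2W (c : G → ((permZ G (G ⧸ U)).V →+ D.E.V)) : G × G → ((G ⧸ U) → ZMod p) :=
  fun s => kumbKinv D U (dOne (permZ G (G ⧸ U)) D.E c s)

lemma kumh2_kappa_W (c : G → ((permZ G (G ⧸ U)).V →+ D.E.V)) (hc : c ∈ kumh2P D U) (s : G × G) :
    kumbKappa D U (kumh2W D U c s) = dOne (permZ G (G ⧸ U)) D.E c s :=
  kumb_kappa_kinv D U _ (hc.2 s)

lemma kumh2_W_mem (hU : U ∈ D.𝒯.lev) (c : G → ((permZ G (G ⧸ U)).V →+ D.E.V))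
    (hc : c ∈ kumh2P D U) :
    (kumh2W D U c : G × G → (regMu D.χ U).V) ∈ levCocycles₂ D.𝒯 (regMu D.χ U) := by
  refine ⟨(kumh2_mem_cocycles₂_M D U _).2 fun s => ?_, ?_⟩
  · apply kumb_kappa_injective D U
    rw [kumh2_kappa_D2, map_zero]
    have h : (fun g => kumbKappa D U (kumh2W D U c g)) = dOne (permZ G (G ⧸ U)) D.E c :=
      funext fun s => kumh2_kappa_W D U c hc s
    rw [h, chl_dTwo_dOne]
  · haveI := kumh2_finite D U hU
    exact (chl_isLevel₂_dOne (kumh2_levSet D U hU) D.E_discrete c hc.1).comp (kumbKinv D U)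

/-- `β : P → H²_lev(G, 𝓜)`, `c̃ ↦ [κ⁻¹ ∘ d c̃]` -/
def kumh2Beta (hU : U ∈ D.𝒯.lev) : ↥(kumh2P D U) →+ levH2 D.𝒯 (regMu D.χ U) :=
  AddMonoidHom.mk'
    (fun c => levH2π D.𝒯 (regMu D.χ U) ⟨kumh2W D U c.1, kumh2_W_mem D U hU c.1 c.2⟩)
    (fun c c' => by
      rw [← map_add]
      congr 1
      apply Subtype.ext
      funext s
      show kumbKinv D U (dOne (permZ G (G ⧸ U)) D.E (c.1 + c'.1) s) =
        kumbKinv D U (dOne (permZ G (G ⧸ U)) D.E c.1 s) +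
          kumbKinv D U (dOne (permZ G (G ⧸ U)) D.E c'.1 s)
      rw [show (c.1 + c'.1) = fun g => c.1 g + c'.1 g from rfl, chl_dOne_add,
        kumb_kinv_add D U _ _ (c.2.2 s) (c'.2.2 s)])

lemma kumh2Beta_apply (hU : U ∈ D.𝒯.lev) (c : ↥(kumh2P D U)) :
    kumh2Beta D U hU c =
      levH2π D.𝒯 (regMu D.χ U) ⟨kumh2W D U c.1, kumh2_W_mem D U hU c.1 c.2⟩ := rfl

/-- `α : P → Z¹_lev(𝓔)`, `c̃ ↦ p • c̃` -/
def kumh2Alpha : ↥(kumh2P D U) →+ ↥(kumbZ1 D.𝒯 (homRep (permZ G (G ⧸ U)) D.E)) :=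
  AddMonoidHom.mk'
    (fun c => ⟨fun g => p • c.1 g,
      (kumh2_mem_cocycles₁ _ _ _).2 fun s => by
        rw [dOne_nsmul]
        exact c.2.2 s,
      chl_isLevel₁_nsmul p c.2.1⟩)
    (fun c c' => by
      apply Subtype.ext
      funext g
      show p • (c.1 g + c'.1 g) = p • c.1 g + p • c'.1 g
      rw [smul_add])

lemma kumh2Alpha_val (c : ↥(kumh2P D U)) (g : G) :
    ((kumh2Alpha D U c : ↥(kumbZ1 D.𝒯 (homRep (permZ G (G ⧸ U)) D.E))) :
      G → ((permZ G (G ⧸ U)).V →+ D.E.V)) g = p • c.1 g := rfl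

/-- `cls ∘ α : P → H¹_lev(𝓔)` is onto -/
lemma kumh2_clsAlpha_surj :
    Function.Surjective
      ((kumbCls D.𝒯 (homRep (permZ G (G ⧸ U)) D.E)).toAddMonoidHom.comp (kumh2Alpha D U)) := by
  intro x
  obtain ⟨c, rfl⟩ := kumbCls_surjective D.𝒯 (homRep (permZ G (G ⧸ U)) D.E) x
  have hc1 : ∀ s, dOne (permZ G (G ⧸ U)) D.E (c : G → ((permZ G (G ⧸ U)).V →+ D.E.V)) s = 0 :=
    (kumh2_mem_cocycles₁ _ _ _).1 c.2.1
  have hroot : (fun g => p • kumh2Root D U ((c : G → ((permZ G (G ⧸ U)).V →+ D.E.V)) g)) =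
      (c : G → ((permZ G (G ⧸ U)).V →+ D.E.V)) := funext fun g => kumh2_root D U _
  refine ⟨⟨fun g => kumh2Root D U ((c : G → ((permZ G (G ⧸ U)).V →+ D.E.V)) g),
    c.2.2.comp (kumh2Root D U), fun s => ?_⟩, ?_⟩
  · rw [← dOne_nsmul, hroot, hc1]
  · show kumbCls D.𝒯 _ (kumh2Alpha D U _) = kumbCls D.𝒯 _ c
    congr 1
    apply Subtype.ext
    exact hroot

/-- the kernel condition for `a` -/
lemma kumh2_ker_a (hU : U ∈ D.𝒯.lev) (c : ↥(kumh2P D U))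
    (h : (kumbCls D.𝒯 (homRep (permZ G (G ⧸ U)) D.E)).toAddMonoidHom.comp (kumh2Alpha D U) c = 0) :
    kumh2Beta D U hU c = 0 := by
  haveI := kumh2_finite D U hU
  have h' : kumbCls D.𝒯 (homRep (permZ G (G ⧸ U)) D.E) (kumh2Alpha D U c) = 0 := h
  obtain ⟨b, hb⟩ := (kumbCls_eq_zero_iff D.𝒯 _ _).1 h'
  have hb' : ∀ g, p • c.1 g = dZero (permZ G (G ⧸ U)) D.E b g := fun g => hb g
  set t' := kumh2Root D U b with ht'
  have hpt' : p • t' = b := kumh2_root D U b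
  have htors : ∀ g, p • (c.1 g - dZero (permZ G (G ⧸ U)) D.E t' g) = 0 := by
    intro g
    rw [smul_sub, ← dZero_nsmul, hpt', hb', sub_self]
  have hxlev : IsLevel₁ D.𝒯
      (fun g => kumbKinv D U (c.1 g - dZero (permZ G (G ⧸ U)) D.E t' g)) :=
    (chl_isLevel₁_sub c.2.1
      (chl_isLevel₁_dZero (kumh2_levSet D U hU) D.E_discrete t')).comp (kumbKinv D U)
  rw [kumh2Beta_apply, levH2π_eq_zero_iff]
  refine (kumh2_mem_levCob_M D U _).2
    ⟨fun g => kumbKinv D U (c.1 g - dZero (permZ G (G ⧸ U)) D.E t' g), hxlev, fun s => ?_⟩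
  apply kumb_kappa_injective D U
  show kumbKappa D U (kumh2W D U c.1 s) = _
  rw [kumh2_kappa_W D U c.1 c.2, kumh2_kappa_D1, kumh2_kappa_kinv₁ D U _ htors, dOne_sub,
    dOne_dZero, sub_zero]

/-- **the map `a`** : `H¹_lev(𝓔) → H²_lev(G, 𝓜)` -/
def kumh2A (hU : U ∈ D.𝒯.lev) :
    ↥(levH1 D.𝒯 (homRep (permZ G (G ⧸ U)) D.E)) →+ levH2 D.𝒯 (regMu D.χ U) :=
  kumbLift ((kumbCls D.𝒯 (homRep (permZ G (G ⧸ U)) D.E)).toAddMonoidHom.comp (kumh2Alpha D U))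
    (kumh2Beta D U hU) (kumh2_clsAlpha_surj D U) (kumh2_ker_a D U hU)

lemma kumh2A_spec (hU : U ∈ D.𝒯.lev) (c : ↥(kumh2P D U)) :
    kumh2A D U hU (kumbCls D.𝒯 (homRep (permZ G (G ⧸ U)) D.E) (kumh2Alpha D U c)) =
      kumh2Beta D U hU c :=
  kumbLift_apply _ _ _ _ c

lemma kumh2_exists_P (x : ↥(levH1 D.𝒯 (homRep (permZ G (G ⧸ U)) D.E))) :
    ∃ c : ↥(kumh2P D U),
      kumbCls D.𝒯 (homRep (permZ G (G ⧸ U)) D.E) (kumh2Alpha D U c) = x :=
  kumh2_clsAlpha_surj D U x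

/-- push-forward of level 2-cocycles along `κ` -/
def kumh2PushK : ↥(levCocycles₂ D.𝒯 (regMu D.χ U)) →+
    ↥(levCocycles₂ D.𝒯 (homRep (permZ G (G ⧸ U)) D.E)) :=
  AddMonoidHom.mk'
    (fun w => ⟨fun s => kumbKappa D U (w.1 s),
      (kumh2_mem_cocycles₂ _ _ _).2 fun s => by
        rw [← kumh2_kappa_D2 D U (fun s => w.1 s), (kumh2_mem_cocycles₂_M D U _).1 w.2.1 s,
          map_zero],
      w.2.2.comp (kumbKappa D U)⟩)
    (fun w w' => by
      apply Subtype.ext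
      funext s
      exact map_add (kumbKappa D U) (w.1 s) (w'.1 s))

lemma kumh2PushK_val (w : ↥(levCocycles₂ D.𝒯 (regMu D.χ U))) (s : G × G) :
    ((kumh2PushK D U w : ↥(levCocycles₂ D.𝒯 (homRep (permZ G (G ⧸ U)) D.E))) :
      G × G → ((permZ G (G ⧸ U)).V →+ D.E.V)) s = kumbKappa D U (w.1 s) := rfl

lemma kumh2_ker_b (w : ↥(levCocycles₂ D.𝒯 (regMu D.χ U)))
    (h : (levH2π D.𝒯 (regMu D.χ U)).toAddMonoidHom w = 0) :
    ((levH2π D.𝒯 (homRep (permZ G (G ⧸ U)) D.E)).toAddMonoidHom.comp (kumh2PushK D U)) w = 0 := by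
  have h' : levH2π D.𝒯 (regMu D.χ U) w = 0 := h
  rw [levH2π_eq_zero_iff] at h'
  obtain ⟨x, hx, hwx⟩ := (kumh2_mem_levCob_M D U _).1 h'
  show levH2π D.𝒯 (homRep (permZ G (G ⧸ U)) D.E) (kumh2PushK D U w) = 0
  rw [levH2π_eq_zero_iff]
  refine (kumh2_mem_levCob _ _ D.𝒯 _).2
    ⟨fun g => kumbKappa D U (x g), hx.comp (kumbKappa D U), fun s => ?_⟩
  rw [kumh2PushK_val, hwx s, kumh2_kappa_D1]

/-- **the map `b = κ_*`** : `H²_lev(G, 𝓜) → H²_lev(G, 𝓔)` -/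
def kumh2B : levH2 D.𝒯 (regMu D.χ U) →+ levH2 D.𝒯 (homRep (permZ G (G ⧸ U)) D.E) :=
  kumbLift (levH2π D.𝒯 (regMu D.χ U)).toAddMonoidHom
    ((levH2π D.𝒯 (homRep (permZ G (G ⧸ U)) D.E)).toAddMonoidHom.comp (kumh2PushK D U))
    (Submodule.mkQ_surjective _) (kumh2_ker_b D U)

lemma kumh2B_spec (w : ↥(levCocycles₂ D.𝒯 (regMu D.χ U))) :
    kumh2B D U (levH2π D.𝒯 (regMu D.χ U) w) =
      levH2π D.𝒯 (homRep (permZ G (G ⧸ U)) D.E) (kumh2PushK D U w) :=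
  kumbLift_apply _ _ _ _ w

end Main

section Clauses

variable {p : ℕ} [Fact p.Prime] {G : Type} [Group G] {ι : Type} {Gloc : ι → Type}
  [∀ v, Group (Gloc v)] (D : PTDatum p G ι Gloc) (U : Subgroup G) [U.Normal]

/-- `a` is equivariant -/
lemma kumh2_a_equiv (hU : U ∈ D.𝒯.lev) (δ : G ⧸ U)
    (x : ↥(levH1 D.𝒯 (homRep (permZ G (G ⧸ U)) D.E))) :
    kumh2A D U hU (levH1Map D.𝒯 (homRt U D.E δ) x) =
      levH2Map D.𝒯 (regRt D.χ U δ) (kumh2A D U hU x) := by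
  obtain ⟨c, rfl⟩ := kumh2_exists_P D U x
  have hRc : (fun g => (c.1 g).comp (rtAdd U δ)) ∈ kumh2P D U :=
    ⟨c.2.1.comp (fun φ => φ.comp (rtAdd U δ)), fun s => by
      rw [kumh2_dOne_rt]
      refine AddMonoidHom.ext fun m => ?_
      show p • (dOne (permZ G (G ⧸ U)) D.E c.1 s) (rtAdd U δ m) = 0
      rw [← AddMonoidHom.nsmul_apply, c.2.2 s, AddMonoidHom.zero_apply]⟩
  have e : levH1Map D.𝒯 (homRt U D.E δ)
      (kumbCls D.𝒯 (homRep (permZ G (G ⧸ U)) D.E) (kumh2Alpha D U c)) =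
      kumbCls D.𝒯 (homRep (permZ G (G ⧸ U)) D.E)
        (kumh2Alpha D U ⟨fun g => (c.1 g).comp (rtAdd U δ), hRc⟩) := by
    rw [kumb_levH1Map_cls]
    congr 1
  rw [e, kumh2A_spec, kumh2A_spec, kumh2Beta_apply, kumh2Beta_apply, levH2Map_mk]
  congr 1
  apply Subtype.ext
  funext s
  show kumbKinv D U (dOne (permZ G (G ⧸ U)) D.E (fun g => (c.1 g).comp (rtAdd U δ)) s) = _
  rw [kumh2_dOne_rt, kumb_kinv_rt D U δ _ (c.2.2 s)]
  rfl

/-- `b` is equivariant -/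
lemma kumh2_b_equiv (δ : G ⧸ U) (v : levH2 D.𝒯 (regMu D.χ U)) :
    kumh2B D U (levH2Map D.𝒯 (regRt D.χ U δ) v) =
      levH2Map D.𝒯 (homRt U D.E δ) (kumh2B D U v) := by
  obtain ⟨w, rfl⟩ := Submodule.mkQ_surjective _ v
  show kumh2B D U (levH2Map D.𝒯 (regRt D.χ U δ) (levH2π D.𝒯 (regMu D.χ U) w)) =
    levH2Map D.𝒯 (homRt U D.E δ) (kumh2B D U (levH2π D.𝒯 (regMu D.χ U) w))
  rw [levH2Map_mk, kumh2B_spec, kumh2B_spec, levH2Map_mk]
  congr 1
  apply Subtype.ext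
  funext s
  exact (kumb_kappa_rt D U δ (w.1 s)).symm

/-- `ker a = p H¹` -/
lemma kumh2_ker_a_iff (hU : U ∈ D.𝒯.lev) (x : ↥(levH1 D.𝒯 (homRep (permZ G (G ⧸ U)) D.E))) :
    kumh2A D U hU x = 0 ↔ ∃ y : ↥(levH1 D.𝒯 (homRep (permZ G (G ⧸ U)) D.E)), x = p • y := by
  constructor
  · intro hx
    obtain ⟨c, rfl⟩ := kumh2_exists_P D U x
    rw [kumh2A_spec, kumh2Beta_apply, levH2π_eq_zero_iff] at hx
    obtain ⟨x₁, hx₁lev, hx₁⟩ := (kumh2_mem_levCob_M D U _).1 hx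
    have hd : ∀ s, dOne (permZ G (G ⧸ U)) D.E c.1 s =
        dOne (permZ G (G ⧸ U)) D.E (fun g => kumbKappa D U (x₁ g)) s := fun s => by
      rw [← kumh2_kappa_W D U c.1 c.2 s, ← kumh2_kappa_D1]
      exact congrArg (kumbKappa D U) (hx₁ s)
    have hc'mem : (fun g => c.1 g - kumbKappa D U (x₁ g)) ∈
        kumbZ1 D.𝒯 (homRep (permZ G (G ⧸ U)) D.E) :=
      ⟨(kumh2_mem_cocycles₁ _ _ _).2 fun s => by rw [dOne_sub, hd s, sub_self],
        chl_isLevel₁_sub c.2.1 (hx₁lev.comp (kumbKappa D U))⟩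
    refine ⟨kumbCls D.𝒯 _ ⟨_, hc'mem⟩, ?_⟩
    rw [← map_nsmul]
    congr 1
    apply Subtype.ext
    funext g
    show p • c.1 g = p • (c.1 g - kumbKappa D U (x₁ g))
    rw [smul_sub, kumb_p_kappa, sub_zero]
  · rintro ⟨y, rfl⟩
    obtain ⟨c', rfl⟩ := kumbCls_surjective D.𝒯 _ y
    have hc'0 : ∀ s, dOne (permZ G (G ⧸ U)) D.E
        (c' : G → ((permZ G (G ⧸ U)).V →+ D.E.V)) s = 0 :=
      (kumh2_mem_cocycles₁ _ _ _).1 c'.2.1
    have hcP : (c' : G → ((permZ G (G ⧸ U)).V →+ D.E.V)) ∈ kumh2P D U :=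
      ⟨c'.2.2, fun s => by rw [hc'0 s, smul_zero]⟩
    have e : p • kumbCls D.𝒯 (homRep (permZ G (G ⧸ U)) D.E) c' =
        kumbCls D.𝒯 (homRep (permZ G (G ⧸ U)) D.E) (kumh2Alpha D U ⟨_, hcP⟩) := by
      rw [← map_nsmul]
      congr 1
    rw [e, kumh2A_spec, kumh2Beta_apply, levH2π_eq_zero_iff]
    have hW : kumh2W D U (c' : G → ((permZ G (G ⧸ U)).V →+ D.E.V)) = 0 := funext fun s => by
      show kumbKinv D U (dOne (permZ G (G ⧸ U)) D.E _ s) = 0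
      rw [hc'0 s, kumb_kinv_zero]
    show (kumh2W D U (c' : G → ((permZ G (G ⧸ U)).V →+ D.E.V)) :
      G × G → (regMu D.χ U).V) ∈ _
    rw [hW]
    exact Submodule.zero_mem _

/-- `ker b = im a` -/
lemma kumh2_ker_b_iff (hU : U ∈ D.𝒯.lev) (v : levH2 D.𝒯 (regMu D.χ U)) :
    kumh2B D U v = 0 ↔ ∃ x, kumh2A D U hU x = v := by
  constructor
  · intro hv
    obtain ⟨w, rfl⟩ := Submodule.mkQ_surjective _ v
    have hv' : levH2π D.𝒯 (homRep (permZ G (G ⧸ U)) D.E) (kumh2PushK D U w) = 0 := by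
      rw [← kumh2B_spec]
      exact hv
    rw [levH2π_eq_zero_iff] at hv'
    obtain ⟨t, htlev, ht⟩ := (kumh2_mem_levCob _ _ D.𝒯 _).1 hv'
    have ht' : ∀ s, kumbKappa D U (w.1 s) = dOne (permZ G (G ⧸ U)) D.E t s := ht
    have htP : t ∈ kumh2P D U := ⟨htlev, fun s => by
      rw [← ht' s]
      exact kumb_p_kappa D U _⟩
    refine ⟨kumbCls D.𝒯 _ (kumh2Alpha D U ⟨t, htP⟩), ?_⟩
    rw [kumh2A_spec, kumh2Beta_apply]
    show levH2π D.𝒯 (regMu D.χ U) _ = levH2π D.𝒯 (regMu D.χ U) w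
    congr 1
    apply Subtype.ext
    funext s
    show kumbKinv D U (dOne (permZ G (G ⧸ U)) D.E t s) = w.1 s
    rw [← ht' s]
    exact kumb_kinv_kappa D U (w.1 s)
  · rintro ⟨x, rfl⟩
    obtain ⟨c, rfl⟩ := kumh2_exists_P D U x
    rw [kumh2A_spec, kumh2Beta_apply, kumh2B_spec, levH2π_eq_zero_iff]
    refine (kumh2_mem_levCob _ _ D.𝒯 _).2 ⟨c.1, c.2.1, fun s => ?_⟩
    rw [kumh2PushK_val]
    exact kumh2_kappa_W D U c.1 c.2 s

/-- `im b = H²(𝓔)[p]` -/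
lemma kumh2_im_b_iff (hU : U ∈ D.𝒯.lev) (y : levH2 D.𝒯 (homRep (permZ G (G ⧸ U)) D.E)) :
    p • y = 0 ↔ ∃ v, kumh2B D U v = y := by
  haveI := kumh2_finite D U hU
  have hΩ := kumh2_levSet D U hU
  constructor
  · intro hy
    obtain ⟨y₀, rfl⟩ := Submodule.mkQ_surjective _ y
    have hy' : levH2π D.𝒯 (homRep (permZ G (G ⧸ U)) D.E) (p • y₀) = 0 := by
      rw [map_nsmul]
      exact hy
    rw [levH2π_eq_zero_iff] at hy'
    obtain ⟨t, htlev, ht⟩ := (kumh2_mem_levCob _ _ D.𝒯 _).1 hy'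
    have ht0 : ∀ s, p • (y₀ : G × G → ((permZ G (G ⧸ U)).V →+ D.E.V)) s =
        dOne (permZ G (G ⧸ U)) D.E t s := ht
    have ht'lev : IsLevel₁ D.𝒯 (fun g => kumh2Root D U (t g)) := htlev.comp (kumh2Root D U)
    have hpt' : (fun g => p • kumh2Root D U (t g)) = t := funext fun g => kumh2_root D U _
    have hy₀coc : ∀ s, dTwo (permZ G (G ⧸ U)) D.E
        (y₀ : G × G → ((permZ G (G ⧸ U)).V →+ D.E.V)) s = 0 :=
      (kumh2_mem_cocycles₂ _ _ _).1 y₀.2.1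
    have hy₁tors : ∀ s, p • ((y₀ : G × G → ((permZ G (G ⧸ U)).V →+ D.E.V)) s -
        dOne (permZ G (G ⧸ U)) D.E (fun g => kumh2Root D U (t g)) s) = 0 := by
      intro s
      rw [smul_sub, ← dOne_nsmul, hpt', ht0 s, sub_self]
    have hy₁lev : IsLevel₂ D.𝒯 (fun s => (y₀ : G × G → ((permZ G (G ⧸ U)).V →+ D.E.V)) s -
        dOne (permZ G (G ⧸ U)) D.E (fun g => kumh2Root D U (t g)) s) :=
      chl_isLevel₂_sub y₀.2.2 (chl_isLevel₂_dOne hΩ D.E_discrete _ ht'lev)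
    have hy₁coc : ∀ s, dTwo (permZ G (G ⧸ U)) D.E
        (fun s => (y₀ : G × G → ((permZ G (G ⧸ U)).V →+ D.E.V)) s -
          dOne (permZ G (G ⧸ U)) D.E (fun g => kumh2Root D U (t g)) s) s = 0 := by
      intro s
      rw [chl_dTwo_sub, hy₀coc, chl_dTwo_dOne, sub_zero]
    have hwmem : ((fun s => kumbKinv D U ((y₀ : G × G → ((permZ G (G ⧸ U)).V →+ D.E.V)) s -
        dOne (permZ G (G ⧸ U)) D.E (fun g => kumh2Root D U (t g)) s)) :
          G × G → (regMu D.χ U).V) ∈ levCocycles₂ D.𝒯 (regMu D.χ U) := by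
      refine ⟨(kumh2_mem_cocycles₂_M D U _).2 fun s => ?_, hy₁lev.comp (kumbKinv D U)⟩
      apply kumb_kappa_injective D U
      rw [kumh2_kappa_D2, kumh2_kappa_kinv₂ D U _ hy₁tors, hy₁coc, map_zero]
    refine ⟨levH2π D.𝒯 (regMu D.χ U) ⟨_, hwmem⟩, ?_⟩
    rw [kumh2B_spec, ← sub_eq_zero, ← map_sub, levH2π_eq_zero_iff]
    refine (kumh2_mem_levCob _ _ D.𝒯 _).2
      ⟨fun g => - kumh2Root D U (t g), ht'lev.comp (fun x => -x), fun s => ?_⟩
    show kumbKappa D U (kumbKinv D U ((y₀ : G × G → ((permZ G (G ⧸ U)).V →+ D.E.V)) s -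
        dOne (permZ G (G ⧸ U)) D.E (fun g => kumh2Root D U (t g)) s)) -
      (y₀ : G × G → ((permZ G (G ⧸ U)).V →+ D.E.V)) s = _
    rw [kumb_kappa_kinv D U _ (hy₁tors s), chl_dOne_neg]
    abel
  · rintro ⟨v, rfl⟩
    have hv : p • v = 0 := by
      have h1 := Nat.cast_smul_eq_nsmul (ZMod p) p v
      rw [← h1, ZMod.natCast_self, zero_smul]
    rw [← map_nsmul, hv, map_zero]

end Clauses

/-- **K-H2.** -/
theorem stmtKumH2 : StmtKumH2 := by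
  intro p _ G _ ι _ _ Gloc _ D U _ hU hχ
  exact ⟨kumh2A D U hU, kumh2B D U, kumh2_a_equiv D U hU, kumh2_b_equiv D U,
    kumh2_ker_a_iff D U hU, kumh2_ker_b_iff D U hU, kumh2_im_b_iff D U hU⟩

end Fermat.Agent.TW.E

end


end ZBTW_040_9
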