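/- GENERATED FILE (helper35, build-time optimisation, NOTES/ZB.md): verbatim concatenation of the modules
   Fermat.Agent.TW.E.H2FinPlan
   Fermat.Agent.TW.E.H2FinKap
   Fermat.Agent.TW.E.H2FinH1
   Fermat.Agent.TW.E.H2FinLev
   Fermat.Agent.TW.E.H2FinFB
   Fermat.Agent.TW.E.KumH1Base
   Fermat.Agent.TW.E.KumH1Phi
   Fermat.Agent.TW.E.KumH1
   Do not edit; do not import together with these modules. -/
import Fermat.Agent.ZB.TW_014
import Fermat.Agent.ZB.PT_002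
import Fermat.Agent.ZB.PT_041
import Fermat.Agent.ZB.PT_046
import Fermat.Agent.ZB.PT_031
import Fermat.Agent.ZB.TW_051

/-! ### bundled: `Fermat.Agent.TW.E.H2FinPlan` -/
section ZBTW_041_0
/-
TW-E / A9 (`StmtH2Fin`: `H²_lev(G, B)` is finite) — INTERFACE FILE of the piece (helper15).
Definitions and statements only.  Mathematics: NOTES/TW-E-A9.md.

Route (UNCONDITIONAL: neither `StmtH2Surj` nor `HasPDepthGlob` is used):
* `B ↪ 𝓜 := Fun(Ω, μ_p)`, `Ω := B^*(1)` as a finite `G`-set, `b ↦ (λ ↦ λ b)`;  `Q := 𝓜 / B`;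
  `H¹_lev(Q) → H²_lev(B) → H²_lev(𝓜)` and `H¹_lev(Q)` is finite (`stmtGloFin`)      [A9-EMB]
* `H²_lev(G, 𝓜)` is finite (Kummer `𝓜 = Hom(ℤ[Ω], E)[p]`, `In1`, `In2`, `stmtGloFin`):
  `0 → H¹(𝓔)/p → H²(𝓜) → H²(𝓔)[p] ↪ H²(𝓙)[p] ↪ ∏_v H²(G_v, Hom(ℤ[Ω], J_v))[p]`         [A9-PERM]
* `H¹(𝓔)` is torsion with finite `p`-torsion, hence `H¹(𝓔)/p` is finite                [A9-ALG]
* the `p`-torsion of `H²_lev(H, Hom(M, X))` has at most `p^{rank M}` elements for a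
  "class formation" `(H, 𝒯, X)` (descent to a finite level)                             [A9-LEV]
* at a finite level: Sylow + Tate–Nakayama `stmtTN0`                                    [A9-FB]
-/

set_option autoImplicit false

noncomputable section

namespace Fermat.Agent.TW.E

open CategoryTheory groupCohomology Module Fermat.Agent.PT Fermat.Agent.PT.F Fermat.Agent.TW.F

/-! ### The twisted function module -/

section TwFun

variable {p : ℕ} {G : Type} [Group G]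

/-- The action of `G` on `Fun(Ω, 𝔽_p)` twisted by `χ`: `(g φ)(ω) = χ(g) φ(g⁻¹ ω)`.
(`= Hom_ℤ(ℤ[Ω], μ_p)` when `χ` is the cyclotomic character.) -/
def eh2fTwρ (χ : G →* (ZMod p)ˣ) (Ω : Type) [MulAction G Ω] :
    Representation (ZMod p) G (Ω → ZMod p) where
  toFun g :=
    { toFun := fun φ ω => ((χ g : (ZMod p)ˣ) : ZMod p) * φ (g⁻¹ • ω)
      map_add' := fun φ ψ => by
        funext ω
        simp only [Pi.add_apply, mul_add]
      map_smul' := fun c φ => by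
        funext ω
        simp only [Pi.smul_apply, smul_eq_mul, RingHom.id_apply]
        ring }
  map_one' := by
    ext φ ω
    simp
  map_mul' g h := by
    ext φ ω
    simp [mul_smul, mul_assoc]

/-- `Fun(Ω, μ_p)` as an object of `Rep 𝔽_p G`. -/
abbrev eh2fTw (χ : G →* (ZMod p)ˣ) (Ω : Type) [MulAction G Ω] : Rep.{0} (ZMod p) G :=
  Rep.of (eh2fTwρ χ Ω)

end TwFun

/-! ### The sub-pieces of A9 -/

/-- **A9-FB** (finite level; Sylow + `stmtTN0`): for a finite group `Γ`, a module `C` with a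
`p`-fundamental class and a `ℤ`-free `N` of rank `n`, the group `H²(Γ, Hom(N, C))` has at most
`p ^ n` elements killed by `p` (pigeonhole form). -/
def StmtH2FB : Prop :=
  ∀ (p : ℕ) [Fact p.Prime] (Γ : Type) [Group Γ] [Finite Γ] (C : Rep.{0} ℤ Γ) (u : H2 C),
    IsPFundClass p C u → ∀ (N : Rep.{0} ℤ Γ) (n : ℕ), Nonempty (N.V ≃+ (Fin n → ℤ)) →
    ∀ ξ : Fin (p ^ n + 1) → H2 (homRep N C), (∀ i, p • ξ i = 0) → ∃ i j, i ≠ j ∧ ξ i = ξ j

/-- **A9-LEV** (level form of A9-FB; `stmtH2LevFB_of : StmtH2FB → StmtH2LevFB`): for a group with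
tower `(H, 𝒯)`, a discrete module `X` with `p`-fundamental classes at all normal levels and a
`ℤ`-free `M` of rank `n`, trivial on a level: among `p ^ n + 1` level 2-cocycles of `Hom(M, X)`
killed by `p`, two differ by a level coboundary. -/
def StmtH2LevFB : Prop :=
  ∀ (p : ℕ) [Fact p.Prime] (H : Type) [Group H] (𝒯 : Tower H) (X : Rep.{0} ℤ H),
    IsDiscrete 𝒯 X → HasPFund 𝒯 X p → ∀ (M : Rep.{0} ℤ H) (n : ℕ), IsLevTriv 𝒯 M →
    Nonempty (M.V ≃+ (Fin n → ℤ)) →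
    ∀ y : Fin (p ^ n + 1) → H × H → (M.V →+ X.V), (∀ i, IsLevel₂ 𝒯 (y i)) →
      (∀ i s, dTwo M X (y i) s = 0) → (∀ i s, p • y i s = 0) →
      ∃ i j, i ≠ j ∧ ∃ t : H → (M.V →+ X.V), IsLevel₁ 𝒯 t ∧
        ∀ s, y i s - y j s = dOne M X t s

/-- **A9-ALG** (pure algebra): a torsion abelian group with finite `p`-torsion has finite
`T / pT`.  (A finitely generated torsion group `F` is finite and `|F/p| = |F[p]|`.) -/
def StmtTorsQuot : Prop :=
  ∀ (p : ℕ) [Fact p.Prime] (T : Type) [AddCommGroup T],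
    (∀ x : T, ∃ n : ℕ, 0 < n ∧ n • x = 0) → {x : T | p • x = 0}.Finite →
    Finite (T ⧸ (nsmulAddMonoidHom (α := T) p).range)

/-- **A9-PERM**: `H²_lev(G, Fun(Ω, μ_p))` is finite for every finite level `G`-set `Ω`.
(`stmtH2FinPerm_of : StmtH2LevFB → StmtTorsQuot → StmtH2FinPerm`; uses `stmtIn1Perm`,
`stmtIn2a`, `stmtIn2b`, `stmtGloFin`.) -/
def StmtH2FinPerm : Prop :=
  ∀ (p : ℕ) [Fact p.Prime] (G : Type) [Group G] (ι : Type) [Fintype ι] (Gloc : ι → Type)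
    [∀ v, Group (Gloc v)] (D : PTDatum p G ι Gloc)
    (Ω : Type) [Fintype Ω] [MulAction G Ω], IsLevSet D.𝒯 Ω →
    Finite (levH2 D.𝒯 (eh2fTw D.χ Ω))

/-- **A9-EMB** (half-exactness, generic): if `e : B → 𝓜` is an injective `G`-map of
`𝔽_p[G]`-modules, `𝓜` is trivial on a level, `H²_lev(𝓜)` is finite and `H¹_lev(Q)` is finite for
one surjective `G`-map `q : 𝓜 → Q` with `ker q = im e`, then `H²_lev(B)` is finite. -/
def StmtH2Half : Prop :=
  ∀ (p : ℕ) [Fact p.Prime] (G : Type) [Group G] (𝒯 : Tower G)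
    (B 𝓜 Q : Rep.{0} (ZMod p) G) (e : B ⟶ 𝓜) (q : 𝓜 ⟶ Q),
    Function.Injective e.hom → Function.Surjective q.hom → Function.Exact e.hom q.hom →
    TrivOnLevel 𝒯 𝓜 →
    Finite ↥(levH1 𝒯 Q) → Finite (levH2 𝒯 𝓜) → Finite (levH2 𝒯 B)

end Fermat.Agent.TW.E

end


end ZBTW_041_0

/-! ### bundled: `Fermat.Agent.TW.E.H2FinKap` -/
section ZBTW_041_1
/-
TW-E / A9-PERM (helper15), part 1: the Kummer identification
`κ : Fun(Ω, μ_p) = Fun(Ω, 𝔽_p)(χ) ≅ Hom_ℤ(ℤ[Ω], E)[p]`, `κ φ (δ_ω) = (φ ω).val • ζ`,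
and the dictionary between the cochains of the `𝔽_p[G]`-module `eh2fTw χ Ω` and the
`Hom_ℤ(ℤ[Ω], E)`-valued cochains killed by `p`.
-/

set_option autoImplicit false
set_option linter.unusedSectionVars false

noncomputable section

namespace Fermat.Agent.TW.E

open CategoryTheory groupCohomology Module Fermat.Agent.PT Fermat.Agent.PT.F Fermat.Agent.TW.F
open Fermat.Agent.PT.F.ExactH2

attribute [local instance 1100] Rep.hV2

section Kap

variable {p : ℕ} [Fact p.Prime] {G : Type} [Group G] {ι : Type} {Gloc : ι → Type}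
  [∀ v, Group (Gloc v)] (D : PTDatum p G ι Gloc) (Ω : Type) [MulAction G Ω]

/-- `κ : Fun(Ω, 𝔽_p) → Hom_ℤ(ℤ[Ω], E)`, `κ φ (δ_ω) = (φ ω).val • ζ`. -/
def eh2fKap : (eh2fTw D.χ Ω).V →+ ((permZ G Ω).V →+ D.E.V) :=
  AddMonoidHom.mk' (fun φ => chl_lift Ω (fun ω => kapVal D.ζ (φ ω))) (fun φ ψ => by
    apply chl_ext
    intro ω
    rw [AddMonoidHom.add_apply, chl_lift_single, chl_lift_single, chl_lift_single, one_smul,
      one_smul, one_smul]
    exact kapVal_add D.ζ_tors (φ ω) (ψ ω))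

lemma eh2fKap_single (φ : (eh2fTw D.χ Ω).V) (ω : Ω) :
    eh2fKap D Ω φ (MonoidAlgebra.single ω 1) = kapVal D.ζ (φ ω) := by
  show chl_lift Ω (fun ω => kapVal D.ζ (φ ω)) (MonoidAlgebra.single ω 1) = _
  rw [chl_lift_single, one_smul]

lemma eh2fKap_injective : Function.Injective (eh2fKap D Ω) := by
  intro φ ψ h
  funext ω
  have h1 := DFunLike.congr_fun h (MonoidAlgebra.single ω 1)
  rw [eh2fKap_single, eh2fKap_single] at h1
  exact kapVal_injective D.ζ_tors D.ζ_ne h1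

lemma eh2fTw_ρ_apply (g : G) (φ : (eh2fTw D.χ Ω).V) (ω : Ω) :
    ((eh2fTw D.χ Ω).ρ g φ) ω = ((D.χ g : (ZMod p)ˣ) : ZMod p) * φ (g⁻¹ • ω) := rfl

/-- `κ` is equivariant. -/
lemma eh2fKap_conj (g : G) (φ : (eh2fTw D.χ Ω).V) :
    eh2fKap D Ω ((eh2fTw D.χ Ω).ρ g φ) = conjAdd (permZ G Ω) D.E g (eh2fKap D Ω φ) := by
  apply chl_ext
  intro ω
  rw [eh2fKap_single, conjAdd_apply, chl_ρ_single, eh2fKap_single, eh2fTw_ρ_apply,
    kapVal_mul D.ζ_tors]
  show _ = D.E.ρ g ((φ (g⁻¹ • ω)).val • D.ζ)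
  rw [map_nsmul, D.ζ_char g, smul_comm]
  rfl

/-- the values of `κ` are killed by `p` -/
lemma eh2fKap_p (φ : (eh2fTw D.χ Ω).V) : p • eh2fKap D Ω φ = 0 := by
  apply chl_ext
  intro ω
  rw [AddMonoidHom.nsmul_apply, eh2fKap_single, AddMonoidHom.zero_apply]
  show p • ((φ ω).val • D.ζ) = 0
  rw [smul_comm, D.ζ_tors, smul_zero]

/-- `κ` is onto the maps killed by `p` -/
lemma eh2fKap_surj (h : (permZ G Ω).V →+ D.E.V) (hp : p • h = 0) :
    ∃ φ : (eh2fTw D.χ Ω).V, eh2fKap D Ω φ = h := by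
  have h1 : ∀ ω : Ω, ∃ n : ℕ, h (MonoidAlgebra.single ω 1) = n • D.ζ := fun ω =>
    D.ζ_gen _ (by
      have := DFunLike.congr_fun hp (MonoidAlgebra.single ω 1)
      simpa using this)
  choose n hn using h1
  refine ⟨fun ω => (n ω : ZMod p), ?_⟩
  apply chl_ext
  intro ω
  rw [eh2fKap_single, hn]
  exact kapVal_natCast D.ζ_tors (n ω)

/-- the inverse of `κ` on maps killed by `p` (by choice) -/
def eh2fKapInv (h : (permZ G Ω).V →+ D.E.V) : (eh2fTw D.χ Ω).V :=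
  open Classical in
  if hp : p • h = 0 then (eh2fKap_surj D Ω h hp).choose else 0

lemma eh2fKap_kapInv (h : (permZ G Ω).V →+ D.E.V) (hp : p • h = 0) :
    eh2fKap D Ω (eh2fKapInv D Ω h) = h := by
  unfold eh2fKapInv
  rw [dif_pos hp]
  exact (eh2fKap_surj D Ω h hp).choose_spec

/-! ### Cochains -/

/-- `κ ∘ d¹ b = d¹ (κ ∘ b)` -/
lemma eh2fKap_d₁₂ (b : G → (eh2fTw D.χ Ω).V) (στ : G × G) :
    eh2fKap D Ω ((d₁₂ (eh2fTw D.χ Ω)).hom b στ) =
      dOne (permZ G Ω) D.E (fun σ => eh2fKap D Ω (b σ)) στ := by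
  obtain ⟨σ, τ⟩ := στ
  rw [d₁₂_hom_apply]
  show eh2fKap D Ω ((eh2fTw D.χ Ω).ρ σ (b τ) - b (σ * τ) + b σ) = _
  rw [map_add, map_sub, eh2fKap_conj]
  rfl

/-- `κ ∘ d⁰ m = d⁰ (κ m)` -/
lemma eh2fKap_d₀₁ (m : (eh2fTw D.χ Ω).V) (σ : G) :
    eh2fKap D Ω ((d₀₁ (eh2fTw D.χ Ω)).hom m σ) = dZero (permZ G Ω) D.E (eh2fKap D Ω m) σ := by
  rw [d₀₁_hom_apply]
  show eh2fKap D Ω ((eh2fTw D.χ Ω).ρ σ m - m) = _
  rw [map_sub, eh2fKap_conj]
  rfl

/-- 2-cocycles of `Fun(Ω, μ_p)` are the cochains whose `κ` is a `dTwo`-cocycle -/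
lemma eh2f_mem_cocycles₂_iff (w : G × G → (eh2fTw D.χ Ω).V) :
    w ∈ cocycles₂ (eh2fTw D.χ Ω) ↔
      ∀ s, dTwo (permZ G Ω) D.E (fun x => eh2fKap D Ω (w x)) s = 0 := by
  rw [mem_cocycles₂_iff]
  have key : ∀ σ τ ρ : G, dTwo (permZ G Ω) D.E (fun x => eh2fKap D Ω (w x)) (σ, τ, ρ) =
      eh2fKap D Ω ((eh2fTw D.χ Ω).ρ σ (w (τ, ρ)) - w (σ * τ, ρ) + w (σ, τ * ρ) - w (σ, τ)) := by
    intro σ τ ρ
    rw [map_sub, map_add, map_sub, eh2fKap_conj]
    rfl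
  constructor
  · rintro h ⟨σ, τ, ρ⟩
    rw [key]
    have h0 : (eh2fTw D.χ Ω).ρ σ (w (τ, ρ)) - w (σ * τ, ρ) + w (σ, τ * ρ) - w (σ, τ) = 0 := by
      have := h σ τ ρ
      linear_combination (norm := abel) -this
    rw [h0, map_zero]
  · intro h σ τ ρ
    have h1 := h (σ, τ, ρ)
    rw [key] at h1
    have h2 := eh2fKap_injective D Ω (h1.trans (map_zero _).symm)
    linear_combination (norm := abel) -h2

/-- 1-cocycles of `Fun(Ω, μ_p)` are the cochains whose `κ` is a `dOne`-cocycle -/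
lemma eh2f_mem_cocycles₁_iff (z : G → (eh2fTw D.χ Ω).V) :
    z ∈ cocycles₁ (eh2fTw D.χ Ω) ↔
      ∀ s, dOne (permZ G Ω) D.E (fun x => eh2fKap D Ω (z x)) s = 0 := by
  rw [mem_cocycles₁_iff]
  have key : ∀ σ τ : G, dOne (permZ G Ω) D.E (fun x => eh2fKap D Ω (z x)) (σ, τ) =
      eh2fKap D Ω ((eh2fTw D.χ Ω).ρ σ (z τ) - z (σ * τ) + z σ) := by
    intro σ τ
    rw [map_add, map_sub, eh2fKap_conj]
    rfl
  constructor
  · rintro h ⟨σ, τ⟩
    rw [key]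
    have h0 : (eh2fTw D.χ Ω).ρ σ (z τ) - z (σ * τ) + z σ = 0 := by
      have := h σ τ
      linear_combination (norm := abel) -this
    rw [h0, map_zero]
  · intro h σ τ
    have h1 := h (σ, τ)
    rw [key] at h1
    have h2 := eh2fKap_injective D Ω (h1.trans (map_zero _).symm)
    linear_combination (norm := abel) -h2

/-- a level cochain killed by `p` is `κ` of a level cochain -/
lemma eh2f_exists_kap₁ {𝒯 : Tower G} (c : G → ((permZ G Ω).V →+ D.E.V)) (hc : IsLevel₁ 𝒯 c)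
    (hp : ∀ σ, p • c σ = 0) :
    ∃ z : G → (eh2fTw D.χ Ω).V, IsLevel₁ 𝒯 z ∧ ∀ σ, eh2fKap D Ω (z σ) = c σ :=
  ⟨fun σ => eh2fKapInv D Ω (c σ), hc.comp (eh2fKapInv D Ω),
    fun σ => eh2fKap_kapInv D Ω (c σ) (hp σ)⟩

end Kap

end Fermat.Agent.TW.E

end


end ZBTW_041_1

/-! ### bundled: `Fermat.Agent.TW.E.H2FinH1` -/
section ZBTW_041_2
/-
TW-E / A9-PERM (helper15), part 2: `T := H¹_lev(G, Hom_ℤ(ℤ[Ω], E))` is a torsion group with
finite `p`-torsion (the image of `H¹_lev(G, Fun(Ω, μ_p))`, finite by `stmtGloFin`); hence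
`T / pT` is finite (`StmtTorsQuot`).
-/

set_option autoImplicit false
set_option linter.unusedSectionVars false
set_option linter.style.haveILetI false

noncomputable section

namespace Fermat.Agent.TW.E

open CategoryTheory groupCohomology Module Fermat.Agent.PT Fermat.Agent.PT.F Fermat.Agent.TW.F
open Fermat.Agent.PT.F.ExactH2

attribute [local instance 1100] Rep.hV2

section Defs

variable {p : ℕ} {G : Type} [Group G] {ι : Type} {Gloc : ι → Type}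
  [∀ v, Group (Gloc v)] (D : PTDatum p G ι Gloc) (Ω : Type) [MulAction G Ω]

lemma eh2f_dOne_zero (M Y : Rep.{0} ℤ G) (s : G × G) :
    dOne M Y (0 : G → (M.V →+ Y.V)) s = 0 := by
  obtain ⟨σ, τ⟩ := s
  ext m
  simp [dOne_apply]

/-- the level 1-cocycles of `Hom_ℤ(ℤ[Ω], E)` -/
def eh2fZ1 : AddSubgroup (G → ((permZ G Ω).V →+ D.E.V)) where
  carrier := {c | IsLevel₁ D.𝒯 c ∧ ∀ s, dOne (permZ G Ω) D.E c s = 0}
  zero_mem' := ⟨isLevel₁_const D.𝒯 _, fun s => eh2f_dOne_zero _ _ s⟩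
  add_mem' := fun {a b} ha hb => ⟨ha.1.add hb.1, fun s => by
    have := chl_dOne_add (permZ G Ω) D.E a b s
    rw [ha.2 s, hb.2 s, add_zero] at this
    exact this⟩
  neg_mem' := fun {a} ha => ⟨(ha.1.comp (fun h => -h) :), fun s => by
    have := chl_dOne_neg (permZ G Ω) D.E a s
    rw [ha.2 s, neg_zero] at this
    exact this⟩

lemma eh2f_mem_Z1 (c : G → ((permZ G Ω).V →+ D.E.V)) :
    c ∈ eh2fZ1 D Ω ↔ IsLevel₁ D.𝒯 c ∧ ∀ s, dOne (permZ G Ω) D.E c s = 0 := Iff.rfl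

lemma eh2f_dZero_add (M Y : Rep.{0} ℤ G) (h h' : M.V →+ Y.V) (σ : G) :
    dZero M Y (h + h') σ = dZero M Y h σ + dZero M Y h' σ := by
  ext m
  simp only [dZero_apply, AddMonoidHom.add_apply, map_add]
  abel

lemma eh2f_dZero_neg (M Y : Rep.{0} ℤ G) (h : M.V →+ Y.V) (σ : G) :
    dZero M Y (-h) σ = -dZero M Y h σ := by
  ext m
  simp only [dZero_apply, AddMonoidHom.neg_apply, map_neg]
  abel

lemma eh2f_dZero_zero (M Y : Rep.{0} ℤ G) (σ : G) :
    dZero M Y (0 : M.V →+ Y.V) σ = 0 := by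
  ext m
  simp [dZero_apply]

/-- the coboundaries `d⁰ h` inside the level 1-cocycles -/
def eh2fB1 : AddSubgroup ↥(eh2fZ1 D Ω) where
  carrier := {c | ∃ h : (permZ G Ω).V →+ D.E.V, ∀ σ, c.1 σ = dZero (permZ G Ω) D.E h σ}
  zero_mem' := ⟨0, fun σ => (eh2f_dZero_zero _ _ σ).symm⟩
  add_mem' := by
    rintro a b ⟨h, hh⟩ ⟨h', hh'⟩
    refine ⟨h + h', fun σ => ?_⟩
    rw [eh2f_dZero_add, ← hh, ← hh']
    rfl
  neg_mem' := by
    rintro a ⟨h, hh⟩
    refine ⟨-h, fun σ => ?_⟩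
    rw [eh2f_dZero_neg, ← hh]
    rfl

/-- `T = H¹_lev(G, Hom_ℤ(ℤ[Ω], E))` -/
abbrev eh2fT : Type := ↥(eh2fZ1 D Ω) ⧸ eh2fB1 D Ω

lemma eh2fT_mk_eq_zero_iff (c : ↥(eh2fZ1 D Ω)) :
    (QuotientAddGroup.mk c : eh2fT D Ω) = 0 ↔
      ∃ h : (permZ G Ω).V →+ D.E.V, ∀ σ, c.1 σ = dZero (permZ G Ω) D.E h σ := by
  rw [QuotientAddGroup.eq_zero_iff]
  rfl

end Defs

section Torsion

variable {p : ℕ} {G : Type} [Group G] {ι : Type} {Gloc : ι → Type}
  [∀ v, Group (Gloc v)] (D : PTDatum p G ι Gloc) (Ω : Type) [MulAction G Ω]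

/-- a level 1-cocycle is killed by the index of its level, up to a coboundary -/
lemma eh2f_index_nsmul (M Y : Rep.{0} ℤ G) (c : G → (M.V →+ Y.V)) (U : Subgroup G)
    [hU : U.FiniteIndex] (hc : ∀ g s : G, s ∈ U → c (g * s) = c g)
    (hd : ∀ s, dOne M Y c s = 0) :
    ∃ a : M.V →+ Y.V, ∀ g, U.index • c g = dZero M Y a g := by
  classical
  haveI : Finite (G ⧸ U) := Subgroup.finite_quotient_of_finiteIndex
  haveI : Fintype (G ⧸ U) := Fintype.ofFinite _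
  have hcoc : ∀ g h : G, c (g * h) = c g + conjAdd M Y g (c h) := by
    intro g h
    have := hd (g, h)
    unfold dOne at this
    simp only at this
    have h2 : c (g * h) = conjAdd M Y g (c h) + c g := by
      rw [sub_add_eq_add_sub, sub_eq_zero] at this
      exact this.symm
    rw [h2, add_comm]
  have hout : ∀ (g : G) (q : G ⧸ U), c (g * q.out) = c ((g • q).out) := by
    intro g q
    have h1 : g • q = ((g * q.out : G) : G ⧸ U) := by
      conv_lhs => rw [← QuotientGroup.out_eq' q]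
      rfl
    obtain ⟨u, hu⟩ := QuotientGroup.mk_out_eq_mul U (g * q.out)
    rw [h1]
    show c (g * q.out) = c (Quotient.out ((g * q.out : G) : G ⧸ U))
    rw [hu, hc _ _ u.2]
  set a : M.V →+ Y.V := ∑ q : G ⧸ U, c q.out with ha
  refine ⟨-a, fun g => ?_⟩
  have h1 : ∑ q : G ⧸ U, c (g * q.out) = U.index • c g + conjAdd M Y g a := by
    rw [ha, map_sum, Finset.sum_congr rfl (fun q _ => hcoc g q.out), Finset.sum_add_distrib,
      Finset.sum_const, Finset.card_univ, Subgroup.index, Nat.card_eq_fintype_card]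
  have h2 : ∑ q : G ⧸ U, c (g * q.out) = a := by
    rw [Finset.sum_congr rfl (fun q _ => hout g q), ha]
    exact Equiv.sum_comp (MulAction.toPerm g : G ⧸ U ≃ G ⧸ U) (fun q => c q.out)
  have h3 : U.index • c g = a - conjAdd M Y g a := by
    rw [eq_sub_iff_add_eq, ← h1, h2]
  rw [h3]
  unfold dZero
  rw [map_neg]
  abel

end Torsion

section Main

variable {p : ℕ} [Fact p.Prime] {G : Type} [Group G] {ι : Type} [Fintype ι] {Gloc : ι → Type}
  [∀ v, Group (Gloc v)] (D : PTDatum p G ι Gloc) (Ω : Type) [Fintype Ω] [MulAction G Ω]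

/-- `T` is a torsion group -/
theorem eh2fT_torsion (x : eh2fT D Ω) : ∃ n : ℕ, 0 < n ∧ n • x = 0 := by
  obtain ⟨c, rfl⟩ := QuotientAddGroup.mk_surjective x
  obtain ⟨U, hU, hc⟩ := c.2.1
  haveI := D.𝒯.finiteIndex U hU
  obtain ⟨a, ha⟩ := eh2f_index_nsmul (permZ G Ω) D.E c.1 U hc c.2.2
  refine ⟨U.index, Nat.pos_of_ne_zero Subgroup.FiniteIndex.index_ne_zero, ?_⟩
  rw [← QuotientAddGroup.mk_nsmul, eh2fT_mk_eq_zero_iff]
  exact ⟨a, fun σ => ha σ⟩

/-- `Fun(Ω, μ_p)` is trivial on a level -/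
lemma eh2fTw_trivOnLevel (hΩ : IsLevSet D.𝒯 Ω) : TrivOnLevel D.𝒯 (eh2fTw D.χ Ω) := by
  obtain ⟨U₁, hU₁, h₁⟩ := hΩ
  obtain ⟨U₂, hU₂, h₂⟩ := D.χ_level
  refine ⟨U₁ ⊓ U₂, D.𝒯.inf_mem _ _ hU₁ hU₂, fun s hs => ?_⟩
  ext φ ω
  show ((D.χ s : (ZMod p)ˣ) : ZMod p) * φ (s⁻¹ • ω) = φ ω
  rw [h₂ s hs.2, h₁ s⁻¹ (U₁.inv_mem hs.1)]
  simp

/-- additive maps `ℤ[Ω] → E` are divisible by `p` -/
lemma eh2f_hom_div (h : (permZ G Ω).V →+ D.E.V) :
    ∃ h' : (permZ G Ω).V →+ D.E.V, p • h' = h := by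
  choose e he using fun ω : Ω => D.E_div (h (MonoidAlgebra.single ω 1))
  refine ⟨chl_lift Ω e, chl_ext Ω _ _ fun ω => ?_⟩
  rw [AddMonoidHom.nsmul_apply, chl_lift_single, one_smul, he]

/-- a class of `T` killed by `p` is represented by `κ ∘ z`, `z` a level 1-cocycle of
`Fun(Ω, μ_p)` -/
lemma eh2fT_ptors_rep (hΩ : IsLevSet D.𝒯 Ω) (c : ↥(eh2fZ1 D Ω))
    (hc : p • (QuotientAddGroup.mk c : eh2fT D Ω) = 0) :
    ∃ z : G → (eh2fTw D.χ Ω).V, z ∈ cocycles₁ (eh2fTw D.χ Ω) ∧ IsLevel₁ D.𝒯 z ∧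
      ∃ h' : (permZ G Ω).V →+ D.E.V,
        ∀ σ, c.1 σ = eh2fKap D Ω (z σ) + dZero (permZ G Ω) D.E h' σ := by
  have hE : IsDiscrete D.𝒯 D.E := D.E_discrete
  rw [← QuotientAddGroup.mk_nsmul, eh2fT_mk_eq_zero_iff] at hc
  obtain ⟨h, hh⟩ := hc
  obtain ⟨h', rfl⟩ := eh2f_hom_div D Ω h
  have hh' : ∀ σ, p • c.1 σ = p • dZero (permZ G Ω) D.E h' σ := fun σ => by
    rw [← dZero_nsmul]
    exact hh σ
  have hlev : IsLevel₁ D.𝒯 (fun σ => c.1 σ - dZero (permZ G Ω) D.E h' σ) :=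
    chl_isLevel₁_sub c.2.1 (chl_isLevel₁_dZero hΩ hE h')
  obtain ⟨z, hz, hzc⟩ := eh2f_exists_kap₁ D Ω _ hlev (fun σ => by
    rw [smul_sub, hh' σ, sub_self])
  refine ⟨z, ?_, hz, h', fun σ => ?_⟩
  · rw [eh2f_mem_cocycles₁_iff]
    intro s
    have e1 : (fun x => eh2fKap D Ω (z x)) =
        fun σ => c.1 σ - dZero (permZ G Ω) D.E h' σ := funext hzc
    rw [e1, dOne_sub, c.2.2 s, dOne_dZero, sub_zero]
  · rw [hzc σ]
    abel

/-- the `p`-torsion of `T` is finite -/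
theorem eh2fT_ptors_finite (hΩ : IsLevSet D.𝒯 Ω) : {x : eh2fT D Ω | p • x = 0}.Finite := by
  classical
  haveI : FiniteDimensional (ZMod p) (eh2fTw D.χ Ω) :=
    (inferInstance : FiniteDimensional (ZMod p) (Ω → ZMod p))
  haveI : Finite ↥(levH1 D.𝒯 (eh2fTw D.χ Ω)) :=
    stmtGloFin p G ι Gloc D (eh2fTw D.χ Ω) (eh2fTw_trivOnLevel D Ω hΩ)
  have hrep : ∀ y : ↥(levH1 D.𝒯 (eh2fTw D.χ Ω)), ∃ c : cocycles₁ (eh2fTw D.χ Ω),
      IsLevel₁ D.𝒯 c ∧ (H1π (eh2fTw D.χ Ω)).hom c = y.1 := fun y =>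
    (mem_levH1_iff D.𝒯 _ y.1).1 y.2
  choose cy hcy1 hcy2 using hrep
  have hmem : ∀ (c : cocycles₁ (eh2fTw D.χ Ω)), IsLevel₁ D.𝒯 c →
      (fun σ => eh2fKap D Ω (c σ)) ∈ eh2fZ1 D Ω := fun c hc =>
    ⟨(hc.comp (eh2fKap D Ω) :), (eh2f_mem_cocycles₁_iff D Ω _).1 c.2⟩
  let Θ : ↥(levH1 D.𝒯 (eh2fTw D.χ Ω)) → eh2fT D Ω := fun y =>
    QuotientAddGroup.mk ⟨_, hmem (cy y) (hcy1 y)⟩
  refine (Set.finite_range Θ).subset ?_
  intro x hx
  obtain ⟨c, rfl⟩ := QuotientAddGroup.mk_surjective x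
  obtain ⟨z, hz, hzl, h', hzc⟩ := eh2fT_ptors_rep D Ω hΩ c hx
  set y : ↥(levH1 D.𝒯 (eh2fTw D.χ Ω)) :=
    ⟨(H1π (eh2fTw D.χ Ω)).hom ⟨z, hz⟩, (mem_levH1_iff D.𝒯 _ _).2 ⟨⟨z, hz⟩, hzl, rfl⟩⟩ with hy
  refine ⟨y, ?_⟩
  have h1 : (H1π (eh2fTw D.χ Ω)).hom (cy y) = (H1π (eh2fTw D.χ Ω)).hom ⟨z, hz⟩ := hcy2 y
  rw [H1π_eq_iff] at h1
  obtain ⟨m, hm⟩ := h1
  show (QuotientAddGroup.mk _ : eh2fT D Ω) = QuotientAddGroup.mk c
  rw [QuotientAddGroup.eq]
  refine ⟨h' - eh2fKap D Ω m, fun σ => ?_⟩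
  have h2 : (cy y) σ - z σ = (d₀₁ (eh2fTw D.χ Ω)).hom m σ := (congrFun hm σ).symm
  have h3 := eh2fKap_d₀₁ D Ω m σ
  rw [← h2, map_sub] at h3
  show -(eh2fKap D Ω ((cy y) σ)) + c.1 σ = _
  rw [hzc σ]
  have h4 : dZero (permZ G Ω) D.E (h' - eh2fKap D Ω m) σ =
      dZero (permZ G Ω) D.E h' σ - dZero (permZ G Ω) D.E (eh2fKap D Ω m) σ := by
    rw [sub_eq_add_neg, eh2f_dZero_add, eh2f_dZero_neg, ← sub_eq_add_neg]
  rw [h4, ← h3]
  abel

/-- **The class map** `Z¹_lev(Hom(ℤ[Ω], E)) → T / pT` has finite target and separates the cosets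
of `p Z¹ + B¹`. -/
theorem eh2f_exists_cl (hALG : StmtTorsQuot) (hΩ : IsLevSet D.𝒯 Ω) :
    ∃ (F : Type) (_ : Finite F) (cl : ↥(eh2fZ1 D Ω) → F), ∀ x y : ↥(eh2fZ1 D Ω), cl x = cl y →
      ∃ c' : ↥(eh2fZ1 D Ω), ∃ h : (permZ G Ω).V →+ D.E.V,
        ∀ σ, x.1 σ - y.1 σ = p • c'.1 σ + dZero (permZ G Ω) D.E h σ := by
  have hfin : Finite (eh2fT D Ω ⧸ (nsmulAddMonoidHom (α := eh2fT D Ω) p).range) :=
    hALG p (eh2fT D Ω) (eh2fT_torsion D Ω) (eh2fT_ptors_finite D Ω hΩ)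
  refine ⟨_, hfin, fun x => QuotientAddGroup.mk (QuotientAddGroup.mk x), fun x y hxy => ?_⟩
  rw [QuotientAddGroup.eq] at hxy
  obtain ⟨t, ht⟩ := hxy
  obtain ⟨c', rfl⟩ := QuotientAddGroup.mk_surjective t
  have h1 : (QuotientAddGroup.mk (p • c') : eh2fT D Ω) = QuotientAddGroup.mk (-x + y) := by
    rw [QuotientAddGroup.mk_nsmul]
    exact ht
  rw [QuotientAddGroup.eq] at h1
  obtain ⟨h, hh⟩ := h1
  refine ⟨-c', -h, fun σ => ?_⟩
  have h2 : -(p • c'.1 σ) + (-x.1 σ + y.1 σ) = dZero (permZ G Ω) D.E h σ := hh σ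
  rw [eh2f_dZero_neg, ← h2]
  show x.1 σ - y.1 σ = p • (-(c'.1 σ)) + _
  rw [smul_neg]
  abel

end Main

end Fermat.Agent.TW.E

end


end ZBTW_041_2

/-! ### bundled: `Fermat.Agent.TW.E.H2FinLev` -/
section ZBTW_041_3
/-
TW-E / A9-LEV (helper15): `stmtH2LevFB_of : StmtH2FB → StmtH2LevFB`.

Descent of level 2-cocycles with values in `Hom_ℤ(M, X)` to a finite level `H ⧸ U`
(`U` normal, trivial on `M`, all cochains right-`U`-invariant with `U`-invariant values), where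
they are 2-cocycles of `homRep (M^U) (X^U)`; the finite-level bound; inflation of the coboundary.
-/

set_option autoImplicit false
set_option linter.unusedSectionVars false
set_option linter.style.haveILetI false

noncomputable section

namespace Fermat.Agent.TW.E

open CategoryTheory groupCohomology Module Fermat.Agent.PT Fermat.Agent.PT.F Fermat.Agent.TW.F
open Fermat.Agent.PT.F.ExactH2

attribute [local instance 1100] Rep.hV2

section Desc

variable {H : Type} [Group H] (M X : Rep.{0} ℤ H) (U : Subgroup H) [U.Normal]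
  (hM : ∀ s ∈ U, ∀ m : M.V, M.ρ s m = m)

/-- an element of `M` as an element of `M^U` -/
def eh2flN (m : M.V) : (M.quotientToInvariants U).V := ⟨m, fun s => hM s.1 s.2 m⟩

lemma eh2flN_val (m : M.V) : (eh2flN M U hM m).1 = m := rfl

lemma eh2flN_add (m m' : M.V) : eh2flN M U hM (m + m') = eh2flN M U hM m + eh2flN M U hM m' :=
  rfl

/-- `M^U ≃ M` when `U` acts trivially -/
def eh2flEquiv : (M.quotientToInvariants U).V ≃+ M.V where
  toFun m := m.1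
  invFun m := eh2flN M U hM m
  left_inv _ := rfl
  right_inv _ := rfl
  map_add' _ _ := rfl

variable {M X U}

/-- descent of a `Hom(M, X)`-valued 2-cochain with `U`-invariant values -/
def eh2flDesc₂ (y : H × H → (M.V →+ X.V))
    (hy : ∀ (gg : H × H) (m : M.V), ∀ s ∈ U, X.ρ s (y gg m) = y gg m) :
    (H ⧸ U) × (H ⧸ U) → ((M.quotientToInvariants U).V →+ (X.quotientToInvariants U).V) :=
  fun q =>
    { toFun := fun n => ⟨y (q.1.out, q.2.out) n.1, fun s => hy _ _ s.1 s.2⟩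
      map_zero' := Subtype.ext (map_zero (y (q.1.out, q.2.out)))
      map_add' := fun a b => Subtype.ext (map_add (y (q.1.out, q.2.out)) a.1 b.1) }

lemma eh2flDesc₂_mk (y : H × H → (M.V →+ X.V))
    (hy : ∀ (gg : H × H) (m : M.V), ∀ s ∈ U, X.ρ s (y gg m) = y gg m)
    (hr : ∀ g g' s s' : H, s ∈ U → s' ∈ U → y (g * s, g' * s') = y (g, g'))
    (g g' : H) (n : (M.quotientToInvariants U).V) :
    ((eh2flDesc₂ y hy ((g : H ⧸ U), (g' : H ⧸ U)) n : (X.quotientToInvariants U).V) : X.V) =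
      y (g, g') n.1 := by
  obtain ⟨s, hs⟩ := QuotientGroup.mk_out_eq_mul U g
  obtain ⟨s', hs'⟩ := QuotientGroup.mk_out_eq_mul U g'
  show y (Quotient.out (g : H ⧸ U), Quotient.out (g' : H ⧸ U)) n.1 = y (g, g') n.1
  rw [hs, hs', hr g g' s s' s.2 s'.2]

/-- the descended cochain of a cocycle is a cocycle of `homRep (M^U) (X^U)` -/
lemma eh2flDesc₂_mem (y : H × H → (M.V →+ X.V))
    (hy : ∀ (gg : H × H) (m : M.V), ∀ s ∈ U, X.ρ s (y gg m) = y gg m)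
    (hr : ∀ g g' s s' : H, s ∈ U → s' ∈ U → y (g * s, g' * s') = y (g, g'))
    (hc : ∀ s, dTwo M X y s = 0) :
    eh2flDesc₂ y hy ∈
      cocycles₂ (homRep (M.quotientToInvariants U) (X.quotientToInvariants U)) := by
  rw [mem_cocycles₂_iff]
  intro q q' q''
  obtain ⟨g, rfl⟩ := QuotientGroup.mk_surjective q
  obtain ⟨h, rfl⟩ := QuotientGroup.mk_surjective q'
  obtain ⟨j, rfl⟩ := QuotientGroup.mk_surjective q''
  apply AddMonoidHom.ext
  intro n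
  apply Subtype.ext
  show ((eh2flDesc₂ y hy (((g * h : H) : H ⧸ U), (j : H ⧸ U)) n :
        (X.quotientToInvariants U).V) : X.V) +
      ((eh2flDesc₂ y hy ((g : H ⧸ U), (h : H ⧸ U)) n : (X.quotientToInvariants U).V) : X.V) =
    X.ρ g ((eh2flDesc₂ y hy ((h : H ⧸ U), (j : H ⧸ U))
        ((M.quotientToInvariants U).ρ (g : H ⧸ U)⁻¹ n) : (X.quotientToInvariants U).V) : X.V) +
      ((eh2flDesc₂ y hy ((g : H ⧸ U), ((h * j : H) : H ⧸ U)) n :
        (X.quotientToInvariants U).V) : X.V)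
  rw [eh2flDesc₂_mk y hy hr, eh2flDesc₂_mk y hy hr, eh2flDesc₂_mk y hy hr,
    eh2flDesc₂_mk y hy hr]
  have hcoc := DFunLike.congr_fun (hc (g, h, j)) n.1
  rw [chl_dTwo_apply] at hcoc
  have e1 : (((M.quotientToInvariants U).ρ (g : H ⧸ U)⁻¹ n : (M.quotientToInvariants U).V) :
      M.V) = M.ρ g⁻¹ n.1 := rfl
  rw [e1]
  have hcoc' : X.ρ g (y (h, j) (M.ρ g⁻¹ n.1)) - y (g * h, j) n.1 + y (g, h * j) n.1 -
      y (g, h) n.1 = 0 := hcoc
  linear_combination (norm := abel) -hcoc'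

variable (M X U)

/-- inflation of a 1-cochain of `homRep (M^U) (X^U)` -/
def eh2flInfl₁
    (t : H ⧸ U → ((M.quotientToInvariants U).V →+ (X.quotientToInvariants U).V)) :
    H → (M.V →+ X.V) :=
  fun g =>
    { toFun := fun m => ((t (g : H ⧸ U) (eh2flN M U hM m) : (X.quotientToInvariants U).V) : X.V)
      map_zero' := by
        have h0 : eh2flN M U hM 0 = 0 := rfl
        rw [h0, map_zero]
        rfl
      map_add' := fun a b => by
        rw [eh2flN_add, map_add]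
        rfl }

lemma eh2flInfl₁_apply
    (t : H ⧸ U → ((M.quotientToInvariants U).V →+ (X.quotientToInvariants U).V)) (g : H)
    (m : M.V) :
    eh2flInfl₁ M X U hM t g m =
      ((t (g : H ⧸ U) (eh2flN M U hM m) : (X.quotientToInvariants U).V) : X.V) := rfl

lemma eh2flInfl₁_level {𝒯 : Tower H} (hU : U ∈ 𝒯.lev)
    (t : H ⧸ U → ((M.quotientToInvariants U).V →+ (X.quotientToInvariants U).V)) :
    IsLevel₁ 𝒯 (eh2flInfl₁ M X U hM t) := by
  refine ⟨U, hU, fun g s hs => ?_⟩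
  have h1 : ((g * s : H) : H ⧸ U) = (g : H ⧸ U) := by
    rw [QuotientGroup.eq]
    simpa using hs
  apply AddMonoidHom.ext
  intro m
  rw [eh2flInfl₁_apply, eh2flInfl₁_apply, h1]

variable {M X U}

/-- if the descended cochains differ by `d¹ t̂` then the cochains differ by `d¹ (infl t̂)` -/
lemma eh2fl_infl_dOne (y y' : H × H → (M.V →+ X.V))
    (hy : ∀ (gg : H × H) (m : M.V), ∀ s ∈ U, X.ρ s (y gg m) = y gg m)
    (hy' : ∀ (gg : H × H) (m : M.V), ∀ s ∈ U, X.ρ s (y' gg m) = y' gg m)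
    (hr : ∀ g g' s s' : H, s ∈ U → s' ∈ U → y (g * s, g' * s') = y (g, g'))
    (hr' : ∀ g g' s s' : H, s ∈ U → s' ∈ U → y' (g * s, g' * s') = y' (g, g'))
    (t : H ⧸ U → ((M.quotientToInvariants U).V →+ (X.quotientToInvariants U).V))
    (ht : (d₁₂ (homRep (M.quotientToInvariants U) (X.quotientToInvariants U))).hom t =
      eh2flDesc₂ y hy - eh2flDesc₂ y' hy') (s : H × H) :
    y s - y' s = dOne M X (eh2flInfl₁ M X U hM t) s := by
  obtain ⟨σ, τ⟩ := s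
  apply AddMonoidHom.ext
  intro m
  have h1 := congrFun ht ((σ : H ⧸ U), (τ : H ⧸ U))
  rw [d₁₂_hom_apply] at h1
  have h2 := congrArg (fun z : (X.quotientToInvariants U).V => (z : X.V))
    (DFunLike.congr_fun h1 (eh2flN M U hM m))
  have h3 : ((eh2flDesc₂ y hy ((σ : H ⧸ U), (τ : H ⧸ U)) (eh2flN M U hM m) :
      (X.quotientToInvariants U).V) : X.V) = y (σ, τ) m :=
    eh2flDesc₂_mk y hy hr σ τ _
  have h4 : ((eh2flDesc₂ y' hy' ((σ : H ⧸ U), (τ : H ⧸ U)) (eh2flN M U hM m) :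
      (X.quotientToInvariants U).V) : X.V) = y' (σ, τ) m :=
    eh2flDesc₂_mk y' hy' hr' σ τ _
  rw [AddMonoidHom.sub_apply, dOne_apply, ← h3, ← h4]
  exact h2.symm

end Desc

section Main

variable {H : Type} [Group H]

/-- an additive map `M → X` whose values on a basis are fixed by `s` has all values fixed -/
lemma eh2fl_fixed_of_basis (M X : Rep.{0} ℤ H) {n : ℕ} (e : M.V ≃+ (Fin n → ℤ))
    (h : M.V →+ X.V) (s : H)
    (hb : ∀ j : Fin n, X.ρ s (h (e.symm (Pi.single j 1))) = h (e.symm (Pi.single j 1)))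
    (m : M.V) : X.ρ s (h m) = h m := by
  have h1 : ((actAdd X s).comp h).comp e.symm.toAddMonoidHom = h.comp e.symm.toAddMonoidHom :=
    homEx_ext n _ _ (fun j => hb j)
  have h2 := DFunLike.congr_fun h1 (e m)
  simp only [AddMonoidHom.comp_apply, AddEquiv.coe_toAddMonoidHom, AddEquiv.symm_apply_apply,
    actAdd_apply] at h2
  exact h2

/-- **A9-LEV**. -/
theorem stmtH2LevFB_of (hFB : StmtH2FB) : StmtH2LevFB := by
  intro p _ H _ 𝒯 X hX hcm M n hM hn y hyl hyc hyp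
  classical
  obtain ⟨e⟩ := hn
  obtain ⟨U₀, hU₀, hMtriv⟩ := hM
  choose Ui hUi hUir using hyl
  -- a level fixing all the values on the basis
  have hfin : (⋃ i : Fin (p ^ n + 1), ⋃ j : Fin n,
      (fun h : M.V →+ X.V => h (e.symm (Pi.single j 1))) '' (Set.range (y i))).Finite := by
    refine Set.finite_iUnion (fun i => Set.finite_iUnion (fun j => Set.Finite.image _ ?_))
    exact isLevel₂_finite_range (𝒯 := 𝒯) ⟨Ui i, hUi i, hUir i⟩
  obtain ⟨U', hU', hfix⟩ := hX.exists_level_of_finite hfin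
  -- the normal level
  obtain ⟨U, hU, hle, hUn⟩ := 𝒯.exists_normal _
    (𝒯.inf_mem _ _ (𝒯.inf_mem _ _ hU₀ (tower_finset_inf_mem 𝒯 Finset.univ Ui
      (fun i _ => hUi i))) hU')
  haveI := hUn
  have hle₀ : U ≤ U₀ := fun s hs => (hle hs).1.1
  have hlei : ∀ i, U ≤ Ui i := fun i s hs =>
    (Finset.inf_le (Finset.mem_univ i) : Finset.univ.inf Ui ≤ Ui i) (hle hs).1.2
  have hle' : U ≤ U' := fun s hs => (hle hs).2
  have hMU : ∀ s ∈ U, ∀ m : M.V, M.ρ s m = m := fun s hs m => hMtriv s (hle₀ hs) m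
  have hy : ∀ i (gg : H × H) (m : M.V), ∀ s ∈ U, X.ρ s (y i gg m) = y i gg m := by
    intro i gg m s hs
    refine eh2fl_fixed_of_basis M X e (y i gg) s (fun j => ?_) m
    refine hfix _ ?_ s (hle' hs)
    exact Set.mem_iUnion.2 ⟨i, Set.mem_iUnion.2 ⟨j, ⟨y i gg, ⟨gg, rfl⟩, rfl⟩⟩⟩
  have hr : ∀ i, ∀ g g' s s' : H, s ∈ U → s' ∈ U → y i (g * s, g' * s') = y i (g, g') :=
    fun i g g' s s' hs hs' => hUir i g g' s s' (hlei i hs) (hlei i hs')
  -- the finite level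
  haveI := 𝒯.finiteIndex U hU
  haveI : Finite (H ⧸ U) := Subgroup.finite_quotient_of_finiteIndex
  obtain ⟨u, hu⟩ := hcm U hU
  have hmem : ∀ i, eh2flDesc₂ (y i) (hy i) ∈
      cocycles₂ (homRep (M.quotientToInvariants U) (X.quotientToInvariants U)) :=
    fun i => eh2flDesc₂_mem (y i) (hy i) (hr i) (hyc i)
  have hξ : ∀ i, p • (H2π (homRep (M.quotientToInvariants U) (X.quotientToInvariants U))
      ⟨_, hmem i⟩) = 0 := by
    intro i
    rw [← map_nsmul]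
    have h0 : p • (⟨_, hmem i⟩ : cocycles₂
        (homRep (M.quotientToInvariants U) (X.quotientToInvariants U))) = 0 := by
      apply Subtype.ext
      funext q
      apply AddMonoidHom.ext
      intro m
      apply Subtype.ext
      show p • (y i (q.1.out, q.2.out) m.1) = 0
      have := DFunLike.congr_fun (hyp i (q.1.out, q.2.out)) m.1
      exact this
    rw [h0, map_zero]
  obtain ⟨i, j, hij, hξij⟩ := hFB p (H ⧸ U) (X.quotientToInvariants U) u hu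
    (M.quotientToInvariants U) n ⟨(eh2flEquiv M U hMU).trans e⟩
    (fun i => H2π (homRep (M.quotientToInvariants U) (X.quotientToInvariants U))
      ⟨_, hmem i⟩) hξ
  rw [H2π_eq_iff] at hξij
  obtain ⟨t, ht⟩ := hξij
  exact ⟨i, j, hij, eh2flInfl₁ M X U hMU t, eh2flInfl₁_level M X U hMU hU t,
    fun s => eh2fl_infl_dOne hMU (y i) (y j) (hy i) (hy j) (hr i) (hr j) t ht s⟩

end Main

end Fermat.Agent.TW.E

end


end ZBTW_041_3

/-! ### bundled: `Fermat.Agent.TW.E.H2FinFB` -/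
section ZBTW_041_4
/-
TW-E / A9-FB (helper63): `StmtH2FB` — at a finite level, `H²(Γ, Hom(N, C))` has at most `p ^ n`
elements killed by `p` (`N` free of rank `n`, `C` with a `p`-fundamental class).
Proof (NOTES/TW-E-A9.md, FB): restriction to a Sylow `p`-subgroup `P` is injective on classes
killed by `p` (`stmtSylow`); every class of `A := H²(P, Hom(N, C))` is `Φ x = x ∪ u` for a
`P`-invariant functional `x` (`stmtTN0`); the invariant functionals are saturated in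
`Hom(N, ℤ) ≅ ℤⁿ`; so `A` is finite (`|P| A = 0`, `stmtKill`), `|A / pA| ≤ p ^ n`, and
`|A[p]| = |A / pA|`.
-/

set_option autoImplicit false
set_option linter.style.haveILetI false
set_option linter.unusedSectionVars false
set_option linter.unusedVariables false

noncomputable section

namespace Fermat.Agent.TW.E

open CategoryTheory groupCohomology Module Fermat.Agent.PT Fermat.Agent.PT.F

/-! ### Pure algebra -/

/-- in a finite abelian group, `|A[p]| = |A / pA|` -/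
theorem eh2fb_card_ker_eq (A : Type) [AddCommGroup A] [Finite A] (p : ℕ) :
    Nat.card ↥(nsmulAddMonoidHom (α := A) p).ker =
      Nat.card (A ⧸ (nsmulAddMonoidHom (α := A) p).range) := by
  have h1 := AddSubgroup.card_mul_index (nsmulAddMonoidHom (α := A) p).ker
  have h2 := AddSubgroup.card_mul_index (nsmulAddMonoidHom (α := A) p).range
  rw [AddSubgroup.index_ker] at h1
  have h3 : 0 < Nat.card ↥(nsmulAddMonoidHom (α := A) p).range := Nat.card_pos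
  have h4 : Nat.card ↥(nsmulAddMonoidHom (α := A) p).ker *
      Nat.card ↥(nsmulAddMonoidHom (α := A) p).range =
      (nsmulAddMonoidHom (α := A) p).range.index *
        Nat.card ↥(nsmulAddMonoidHom (α := A) p).range := by
    rw [h1, mul_comm, h2]
  exact Nat.eq_of_mul_eq_mul_right h3 h4

/-- an additive functional on `ℤⁿ` is determined by its values on the standard basis -/
theorem eh2fb_apply_eq {V : Type} [AddCommGroup V] {n : ℕ} (e : V ≃+ (Fin n → ℤ))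
    (z : V →+ ℤ) (m : V) :
    z m = ∑ i, e m i * z (e.symm (Pi.single i 1)) := by
  have h1 : e m = ∑ i, e m i • (Pi.single i (1 : ℤ) : Fin n → ℤ) := by
    funext j
    simp [Finset.sum_apply, Pi.single_apply]
  have h2 : m = e.symm (e m) := (e.symm_apply_apply m).symm
  conv_lhs => rw [h2, h1]
  rw [map_sum, map_sum]
  refine Finset.sum_congr rfl (fun i _ => ?_)
  rw [map_zsmul, map_zsmul, smul_eq_mul]

/-- a functional whose values on the basis are divisible by `d` is `d` times a functional -/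
theorem eh2fb_exists_div {V : Type} [AddCommGroup V] {n : ℕ} (e : V ≃+ (Fin n → ℤ))
    (z : V →+ ℤ) (d : ℕ) (h : ∀ i, (d : ℤ) ∣ z (e.symm (Pi.single i 1))) :
    ∃ y : V →+ ℤ, z = d • y := by
  choose c hc using h
  refine ⟨∑ i, c i • ((Pi.evalAddMonoidHom (fun _ : Fin n => ℤ) i).comp e.toAddMonoidHom), ?_⟩
  refine AddMonoidHom.ext (fun m => ?_)
  rw [eh2fb_apply_eq e z m, AddMonoidHom.nsmul_apply, AddMonoidHom.finsetSum_apply,
    Finset.smul_sum]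
  refine Finset.sum_congr rfl (fun i _ => ?_)
  rw [hc i]
  simp only [AddMonoidHom.smul_apply, AddMonoidHom.coe_comp, Function.comp_apply,
    Pi.evalAddMonoidHom_apply, AddEquiv.coe_toAddMonoidHom, smul_eq_mul, nsmul_eq_mul]
  ring

/-! ### The cup product with the fundamental class -/

section Phi

variable {Γ : Type} [Group Γ]

/-- the invariant functionals on `N` -/
def eh2fbInv (N : Rep.{0} ℤ Γ) : AddSubgroup (N.V →+ ℤ) where
  carrier := {x | ∀ (g : Γ) (m : N.V), x (N.ρ g m) = x m}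
  zero_mem' := fun _ _ => rfl
  add_mem' := by
    intro x y hx hy g m
    rw [AddMonoidHom.add_apply, AddMonoidHom.add_apply, hx g m, hy g m]
  neg_mem' := by
    intro x hx g m
    rw [AddMonoidHom.neg_apply, AddMonoidHom.neg_apply, hx g m]

/-- `x ↦ x ∪ u` -/
def eh2fbPhi (N C : Rep.{0} ℤ Γ) (u : H2 C) : ↥(eh2fbInv N) →+ H2 (homRep N C) :=
  AddMonoidHom.mk' (fun x => (push₂ (mulHom N C x.1 x.2)).hom u) (by
    intro x y
    have h : mulHom N C (x + y).1 (x + y).2 = mulHom N C x.1 x.2 + mulHom N C y.1 y.2 := by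
      apply rep_hom_ext'
      intro c
      rw [rep_add_apply]
      refine AddMonoidHom.ext (fun m => ?_)
      show (x.1 + y.1) m • c = x.1 m • c + y.1 m • c
      rw [AddMonoidHom.add_apply, add_zsmul]
    show (push₂ (mulHom N C (x + y).1 (x + y).2)).hom u = _
    rw [h, push₂, map_id_add]
    rfl)

lemma eh2fbPhi_apply (N C : Rep.{0} ℤ Γ) (u : H2 C) (x : ↥(eh2fbInv N)) :
    eh2fbPhi N C u x = (push₂ (mulHom N C x.1 x.2)).hom u := rfl

end Phi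

/-! ### The case of a `p`-group -/

section PGroup

variable {p : ℕ} [Fact p.Prime] {Γ : Type} [Group Γ] [Fintype Γ]

/-- the key step: two classes whose functionals agree modulo `d` differ by `d` times a class -/
theorem eh2fb_key (N C : Rep.{0} ℤ Γ) (u : H2 C) {n : ℕ} (e : N.V ≃+ (Fin n → ℤ))
    (d : ℕ) (hd : 0 < d) (x x' : ↥(eh2fbInv N))
    (h : ∀ i, (((x.1 (e.symm (Pi.single i 1)) : ℤ) : ZMod d)) =
      ((x'.1 (e.symm (Pi.single i 1)) : ℤ) : ZMod d)) :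
    ∃ b : H2 (homRep N C), eh2fbPhi N C u x - eh2fbPhi N C u x' = d • b := by
  have h1 : ∀ i, (d : ℤ) ∣ (x.1 - x'.1) (e.symm (Pi.single i 1)) := by
    intro i
    rw [AddMonoidHom.sub_apply]
    exact (ZMod.intCast_eq_intCast_iff_dvd_sub _ _ d).1 (h i).symm
  obtain ⟨y, hy⟩ := eh2fb_exists_div e (x.1 - x'.1) d h1
  have hyinv : y ∈ eh2fbInv N := by
    intro g m
    have h2 : (x.1 - x'.1) (N.ρ g m) = (x.1 - x'.1) m := by
      rw [AddMonoidHom.sub_apply, AddMonoidHom.sub_apply, x.2 g m, x'.2 g m]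
    rw [hy, AddMonoidHom.nsmul_apply, AddMonoidHom.nsmul_apply, nsmul_eq_mul, nsmul_eq_mul]
      at h2
    have hd0 : ((d : ℕ) : ℤ) ≠ 0 := by exact_mod_cast hd.ne'
    exact mul_left_cancel₀ hd0 h2
  refine ⟨eh2fbPhi N C u ⟨y, hyinv⟩, ?_⟩
  rw [← map_sub, ← map_nsmul]
  congr 1
  exact Subtype.ext hy

/-- **A9-FB for a `p`-group with a fundamental class.** -/
theorem eh2fb_pgroup (hP : IsPGroup p Γ) (C : Rep.{0} ℤ Γ) (u : H2 C) (hu : IsFundClass C u)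
    (N : Rep.{0} ℤ Γ) {n : ℕ} (e : N.V ≃+ (Fin n → ℤ)) :
    Finite (H2 (homRep N C)) ∧
      Nat.card ↥(nsmulAddMonoidHom (α := H2 (homRep N C)) p).ker ≤ p ^ n := by
  classical
  have hsurj : ∀ ζ : H2 (homRep N C), ∃ x : ↥(eh2fbInv N), eh2fbPhi N C u x = ζ := by
    intro ζ
    obtain ⟨x, hx, h⟩ := stmtTN0 p Γ hP C u hu N ⟨n, ⟨e⟩⟩ ζ
    exact ⟨⟨x, hx⟩, h.symm⟩
  choose sec hsec using hsurj
  have hcard : 0 < Fintype.card Γ := Fintype.card_pos
  -- finiteness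
  haveI : NeZero (Fintype.card Γ) := ⟨hcard.ne'⟩
  have hfin : Finite (H2 (homRep N C)) := by
    refine Finite.of_injective
      (fun (a : H2 (homRep N C)) (i : Fin n) =>
        ((((sec a).1 (e.symm (Pi.single i 1)) : ℤ)) : ZMod (Fintype.card Γ))) ?_
    intro a a' haa
    obtain ⟨b, hb⟩ := eh2fb_key N C u e (Fintype.card Γ) hcard (sec a) (sec a')
      (fun i => congrFun haa i)
    rw [hsec, hsec, stmtKill Γ (homRep N C) 1 b] at hb
    exact sub_eq_zero.1 hb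
  haveI := hfin
  refine ⟨hfin, ?_⟩
  rw [eh2fb_card_ker_eq]
  haveI : NeZero p := ⟨(Fact.out : p.Prime).ne_zero⟩
  have hinj : Function.Injective
      (fun (c : H2 (homRep N C) ⧸ (nsmulAddMonoidHom (α := H2 (homRep N C)) p).range)
        (i : Fin n) => ((((sec (Quotient.out c)).1 (e.symm (Pi.single i 1)) : ℤ)) : ZMod p)) := by
    intro c c' hcc
    obtain ⟨b, hb⟩ := eh2fb_key N C u e p (Fact.out : p.Prime).pos (sec (Quotient.out c))
      (sec (Quotient.out c')) (fun i => congrFun hcc i)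
    rw [hsec, hsec] at hb
    have h1 : ((Quotient.out c : H2 (homRep N C)) :
        H2 (homRep N C) ⧸ (nsmulAddMonoidHom (α := H2 (homRep N C)) p).range) =
        ((Quotient.out c' : H2 (homRep N C)) :
          H2 (homRep N C) ⧸ (nsmulAddMonoidHom (α := H2 (homRep N C)) p).range) := by
      rw [QuotientAddGroup.eq]
      refine ⟨-b, ?_⟩
      show p • (-b) = _
      rw [smul_neg, ← hb]
      abel
    rw [QuotientAddGroup.out_eq', QuotientAddGroup.out_eq'] at h1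
    exact h1
  have h2 := Nat.card_le_card_of_injective _ hinj
  rw [Nat.card_fun, Nat.card_zmod, Nat.card_fin] at h2
  exact h2

end PGroup

/-! ### The piece -/

/-- **A9-FB.** -/
theorem stmtH2FB : StmtH2FB := by
  intro p _ Γ _ _ C u hu N n ⟨e⟩ ξ hξ
  classical
  let P : Sylow p Γ := default
  letI : Fintype ↥(P : Subgroup Γ) := Fintype.ofFinite _
  have hP : IsPGroup p ↥(P : Subgroup Γ) := P.isPGroup'
  have hfund : IsFundClass (Rep.res (P : Subgroup Γ).subtype C)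
      ((resSub C (P : Subgroup Γ) 2).hom u) :=
    ⟨hu.h1 P hP, hu.h2_card P hP, hu.h2_gen P hP⟩
  obtain ⟨hfin, hcard⟩ := eh2fb_pgroup hP (Rep.res (P : Subgroup Γ).subtype C)
    ((resSub C (P : Subgroup Γ) 2).hom u) hfund (Rep.res (P : Subgroup Γ).subtype N)
    (n := n) e
  haveI := hfin
  -- the restrictions of the classes
  let r : H2 (homRep N C) → H2 (homRep (Rep.res (P : Subgroup Γ).subtype N)
      (Rep.res (P : Subgroup Γ).subtype C)) :=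
    fun x => (resSub (homRep N C) (P : Subgroup Γ) 2).hom x
  have hr : ∀ i, p • r (ξ i) = 0 := by
    intro i
    have h := congrArg (fun x => (resSub (homRep N C) (P : Subgroup Γ) 2).hom x) (hξ i)
    simp only [map_nsmul, map_zero] at h
    exact h
  let f : Fin (p ^ n + 1) → ↥(nsmulAddMonoidHom
      (α := H2 (homRep (Rep.res (P : Subgroup Γ).subtype N)
        (Rep.res (P : Subgroup Γ).subtype C))) p).ker := fun i =>
    ⟨r (ξ i), (AddMonoidHom.mem_ker).2 (hr i)⟩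
  have hninj : ¬ Function.Injective f := by
    intro hinj
    have h := Nat.card_le_card_of_injective f hinj
    rw [Nat.card_fin] at h
    omega
  rw [Function.not_injective_iff] at hninj
  obtain ⟨i, j, hf, hij⟩ := hninj
  refine ⟨i, j, hij, ?_⟩
  have h1 : (resSub (homRep N C) (P : Subgroup Γ) 2).hom (ξ i) =
      (resSub (homRep N C) (P : Subgroup Γ) 2).hom (ξ j) := congrArg Subtype.val hf
  have h2 : (resSub (homRep N C) (P : Subgroup Γ) 2).hom (ξ i - ξ j) = 0 := by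
    rw [map_sub, h1, sub_self]
  have h3 := stmtSylow p Γ (homRep N C) P 2 (ξ i - ξ j) (by norm_num)
    ⟨1, by rw [pow_one, smul_sub, hξ i, hξ j, sub_self]⟩ h2
  exact sub_eq_zero.1 h3

end Fermat.Agent.TW.E

end


end ZBTW_041_4

/-! ### bundled: `Fermat.Agent.TW.E.KumH1Base` -/
section ZBTW_041_5
/-
Project TW (S56) — part TW-E, block E-cyc, piece **K-H1** (helper81), part 1: toolkit.

* `kumh1Lift` : the additive map induced along a surjection;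
* `kumh1Z1`, `kumh1Cls` : level 1-cocycles (as functions) and their classes in `H¹_lev`, for
  any coefficient ring (used for `𝓜` over `𝔽_p` and for `𝓔 = Hom_ℤ(ℤ[Γ], E)` over `ℤ`);
* `kumh1Kap` : `κ : 𝓜 = regMu χ U → Hom_ℤ(ℤ[Γ], E)`, `κ ψ (δ_γ) = (ψ γ).val • ζ`, with the
  dictionary of cochains (from `H2FinKap.lean`, `Ω = Γ = G ⧸ U`).
-/

set_option autoImplicit false
set_option linter.unusedSectionVars false
set_option linter.style.haveILetI false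

noncomputable section

namespace Fermat.Agent.TW.E

open CategoryTheory groupCohomology Module Fermat.Agent.PT Fermat.Agent.PT.F Fermat.Agent.TW.F
open Fermat.Agent.PT.F.ExactH2

attribute [local instance 1100] Rep.hV2

/-! ### Lifting additive maps along surjections -/

section Lift

variable {X V W : Type*} [AddCommGroup X] [AddCommGroup V] [AddCommGroup W]

/-- the additive map `V → W` induced by `β : X → W` along a surjection `α : X → V` with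
`ker α ≤ ker β` -/
def kumh1Lift (α : X →+ V) (β : X →+ W) (hα : Function.Surjective α)
    (h : ∀ x, α x = 0 → β x = 0) : V →+ W :=
  AddMonoidHom.mk' (fun v => β (Function.surjInv hα v)) (fun v w => by
    rw [← map_add]
    have h1 : α (Function.surjInv hα (v + w)
        - (Function.surjInv hα v + Function.surjInv hα w)) = 0 := by
      rw [map_sub, map_add, Function.surjInv_eq hα, Function.surjInv_eq hα,
        Function.surjInv_eq hα, sub_self]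
    have h2 := h _ h1
    rwa [map_sub, sub_eq_zero] at h2)

theorem kumh1Lift_apply (α : X →+ V) (β : X →+ W) (hα : Function.Surjective α)
    (h : ∀ x, α x = 0 → β x = 0) (x : X) : kumh1Lift α β hα h (α x) = β x := by
  have h1 : α (Function.surjInv hα (α x) - x) = 0 := by
    rw [map_sub, Function.surjInv_eq hα, sub_self]
  have h2 := h _ h1
  rwa [map_sub, sub_eq_zero] at h2

end Lift

/-! ### Classes of level 1-cocycles -/

section Cls

variable {k : Type} [CommRing k] {G : Type} [Group G] (𝒯 : Tower G) (A : Rep.{0} k G)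

/-- level 1-cocycles, as a submodule of the functions -/
def kumh1Z1 : Submodule k (G → A.V) := cocycles₁ A ⊓ levCochains₁ 𝒯 A

theorem mem_kumh1Z1 (x : G → A.V) :
    x ∈ kumh1Z1 𝒯 A ↔ x ∈ cocycles₁ A ∧ IsLevel₁ 𝒯 x := Iff.rfl

/-- the class of a level 1-cocycle -/
def kumh1Cls : ↥(kumh1Z1 𝒯 A) →ₗ[k] ↥(levH1 𝒯 A) :=
  LinearMap.codRestrict (levH1 𝒯 A)
    ((H1π A).hom ∘ₗ (Submodule.inclusion (inf_le_left : kumh1Z1 𝒯 A ≤ cocycles₁ A)))
    (fun x => (mem_levH1_iff 𝒯 A _).2 ⟨⟨x.1, x.2.1⟩, x.2.2, rfl⟩)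

theorem kumh1Cls_val (x : ↥(kumh1Z1 𝒯 A)) :
    ((kumh1Cls 𝒯 A x : ↥(levH1 𝒯 A)) : H1 A) = (H1π A).hom ⟨x.1, x.2.1⟩ := rfl

theorem kumh1Cls_surjective : Function.Surjective (kumh1Cls 𝒯 A) := by
  rintro ⟨y, hy⟩
  obtain ⟨c, hc, rfl⟩ := (mem_levH1_iff 𝒯 A y).1 hy
  exact ⟨⟨c.1, c.2, hc⟩, Subtype.ext rfl⟩

theorem kumh1Cls_eq_zero_iff (x : ↥(kumh1Z1 𝒯 A)) :
    kumh1Cls 𝒯 A x = 0 ↔ ∃ m : A.V, ∀ g : G, (x : G → A.V) g = A.ρ g m - m := by
  rw [← Subtype.coe_inj, kumh1Cls_val, Submodule.coe_zero,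
    H1π_eq_zero_iff (⟨x.1, x.2.1⟩ : cocycles₁ A)]
  constructor
  · rintro ⟨m, hm⟩
    refine ⟨m, fun g => ?_⟩
    have := congrFun hm g
    rw [d₀₁_hom_apply] at this
    exact this.symm
  · rintro ⟨m, hm⟩
    refine ⟨m, funext fun g => ?_⟩
    rw [d₀₁_hom_apply]
    exact (hm g).symm

/-- the class of the push-forward of a level cocycle -/
theorem kumh1_levH1Map_cls {B : Rep.{0} k G} (f : A ⟶ B) (x : ↥(kumh1Z1 𝒯 A))
    (y : ↥(kumh1Z1 𝒯 B)) (hy : ∀ g, (y : G → B.V) g = f.hom ((x : G → A.V) g)) :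
    levH1Map 𝒯 f (kumh1Cls 𝒯 A x) = kumh1Cls 𝒯 B y := by
  apply Subtype.ext
  rw [levH1Map_mk 𝒯 f ⟨x.1, x.2.1⟩ (kumh1Cls 𝒯 A x) (kumh1Cls_val 𝒯 A x), kumh1Cls_val]
  congr 1
  exact Subtype.ext (funext fun g => (hy g).symm)

end Cls

/-! ### The bridge for `Hom_ℤ(M, Y)` -/

section Bridge

variable {G : Type} [Group G] (M Y : Rep.{0} ℤ G)

theorem kumh1_homRep_ρ (g : G) (t : M.V →+ Y.V) : (homRep M Y).ρ g t = conjAdd M Y g t := rfl

/-- the Mathlib cocycle condition for `Hom_ℤ(M, Y)` is the PT-F one -/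
theorem kumh1_mem_cocycles₁_homRep (c : G → (M.V →+ Y.V)) :
    c ∈ cocycles₁ (homRep M Y) ↔ ∀ s, dOne M Y c s = 0 := by
  rw [mem_cocycles₁_iff]
  constructor
  · rintro h ⟨σ, τ⟩
    show conjAdd M Y σ (c τ) - c (σ * τ) + c σ = 0
    have h1 := h σ τ
    rw [kumh1_homRep_ρ] at h1
    rw [h1]
    abel
  · intro h σ τ
    have h1 : conjAdd M Y σ (c τ) - c (σ * τ) + c σ = 0 := h (σ, τ)
    rw [kumh1_homRep_ρ]
    have h2 : c (σ * τ) = conjAdd M Y σ (c τ) - c (σ * τ) + c σ + c (σ * τ) := by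
      rw [h1, zero_add]
    rw [h2]
    abel

theorem kumh1_dZero_eq (t : M.V →+ Y.V) (g : G) :
    dZero M Y t g = (homRep M Y).ρ g t - t := rfl

/-- `d¹ d⁰ = 0` -/
theorem kumh1_dOne_dZero (t : M.V →+ Y.V) (s : G × G) : dOne M Y (dZero M Y t) s = 0 := by
  obtain ⟨σ, τ⟩ := s
  show conjAdd M Y σ (conjAdd M Y τ t - t) - (conjAdd M Y (σ * τ) t - t)
    + (conjAdd M Y σ t - t) = 0
  rw [map_sub, conjAdd_mul]
  abel

theorem kumh1_dZero_add (t t' : M.V →+ Y.V) (g : G) :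
    dZero M Y (t + t') g = dZero M Y t g + dZero M Y t' g := by
  show conjAdd M Y g (t + t') - (t + t') = conjAdd M Y g t - t + (conjAdd M Y g t' - t')
  rw [map_add]
  abel

theorem kumh1_dZero_sub (t t' : M.V →+ Y.V) (g : G) :
    dZero M Y (t - t') g = dZero M Y t g - dZero M Y t' g := by
  show conjAdd M Y g (t - t') - (t - t') = conjAdd M Y g t - t - (conjAdd M Y g t' - t')
  rw [map_sub]
  abel

theorem kumh1_dZero_nsmul (n : ℕ) (t : M.V →+ Y.V) (g : G) :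
    dZero M Y (n • t) g = n • dZero M Y t g := by
  show conjAdd M Y g (n • t) - n • t = n • (conjAdd M Y g t - t)
  rw [map_nsmul, smul_sub]

/-- `d⁰ t = 0` iff `t` is `G`-equivariant -/
theorem kumh1_dZero_eq_zero_iff (t : M.V →+ Y.V) :
    (∀ g, dZero M Y t g = 0) ↔ ∀ g, conjAdd M Y g t = t := by
  constructor
  · intro h g
    have := h g
    exact sub_eq_zero.mp this
  · intro h g
    show conjAdd M Y g t - t = 0
    rw [h g, sub_self]

end Bridge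

/-! ### `κ` on the regular module -/

section Kap

variable {p : ℕ} [Fact p.Prime] {G : Type} [Group G] {ι : Type} {Gloc : ι → Type}
  [∀ v, Group (Gloc v)] (D : PTDatum p G ι Gloc) (U : Subgroup G) [U.Normal]

/-- the regular module `𝓜` is the twisted function module of the `G`-set `Γ = G ⧸ U` -/
theorem kumh1_regMu_ρ (g : G) (ψ : (G ⧸ U) → ZMod p) :
    (regMu D.χ U).ρ g ψ = (eh2fTw D.χ (G ⧸ U)).ρ g ψ := by
  funext γ
  rw [regMu_ρ_apply]
  show _ = ((D.χ g : (ZMod p)ˣ) : ZMod p) * ψ (g⁻¹ • γ)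
  congr 2

/-- `κ : 𝓜 → Hom_ℤ(ℤ[Γ], E)`, `κ ψ (δ_γ) = (ψ γ).val • ζ` -/
def kumh1Kap : (regMu D.χ U).V →+ ((permZ G (G ⧸ U)).V →+ D.E.V) := eh2fKap D (G ⧸ U)

theorem kumh1Kap_single (ψ : (regMu D.χ U).V) (γ : G ⧸ U) :
    kumh1Kap D U ψ (MonoidAlgebra.single γ 1) = kapVal D.ζ (ψ γ) :=
  eh2fKap_single D (G ⧸ U) ψ γ

theorem kumh1Kap_injective : Function.Injective (kumh1Kap D U) :=
  eh2fKap_injective D (G ⧸ U)

theorem kumh1Kap_conj (g : G) (ψ : (regMu D.χ U).V) :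
    kumh1Kap D U ((regMu D.χ U).ρ g ψ)
      = conjAdd (permZ G (G ⧸ U)) D.E g (kumh1Kap D U ψ) := by
  have h := eh2fKap_conj D (G ⧸ U) g ψ
  rw [← kumh1_regMu_ρ D U g ψ] at h
  exact h

theorem kumh1Kap_p (ψ : (regMu D.χ U).V) : p • kumh1Kap D U ψ = 0 := eh2fKap_p D (G ⧸ U) ψ

theorem kumh1Kap_surj (h : (permZ G (G ⧸ U)).V →+ D.E.V) (hp : p • h = 0) :
    ∃ ψ : (regMu D.χ U).V, kumh1Kap D U ψ = h := eh2fKap_surj D (G ⧸ U) h hp

/-- `κ (d⁰ ψ) = d⁰ (κ ψ)` -/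
theorem kumh1Kap_d₀₁ (ψ : (regMu D.χ U).V) (g : G) :
    kumh1Kap D U ((regMu D.χ U).ρ g ψ - ψ) = dZero (permZ G (G ⧸ U)) D.E (kumh1Kap D U ψ) g := by
  rw [map_sub, kumh1Kap_conj]
  rfl

/-- 1-cocycles of `𝓜` are the cochains whose `κ` is a `dOne`-cocycle -/
theorem kumh1_mem_cocycles₁_regMu (z : G → (regMu D.χ U).V) :
    z ∈ cocycles₁ (regMu D.χ U) ↔
      ∀ s, dOne (permZ G (G ⧸ U)) D.E (fun x => kumh1Kap D U (z x)) s = 0 := by
  rw [mem_cocycles₁_iff]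
  have key : ∀ σ τ : G, dOne (permZ G (G ⧸ U)) D.E (fun x => kumh1Kap D U (z x)) (σ, τ) =
      kumh1Kap D U ((regMu D.χ U).ρ σ (z τ) - z (σ * τ) + z σ) := by
    intro σ τ
    rw [map_add, map_sub, kumh1Kap_conj]
    rfl
  constructor
  · rintro h ⟨σ, τ⟩
    rw [key]
    have h0 : (regMu D.χ U).ρ σ (z τ) - z (σ * τ) + z σ = 0 := by
      have := h σ τ
      rw [this]
      abel
    rw [h0, map_zero]
  · intro h σ τ
    have h1 := h (σ, τ)
    rw [key] at h1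
    have h2 := kumh1Kap_injective D U (h1.trans (map_zero _).symm)
    have h3 : z (σ * τ) = (regMu D.χ U).ρ σ (z τ) - z (σ * τ) + z σ + z (σ * τ) := by
      rw [h2, zero_add]
    rw [h3]
    abel

/-- a level cochain killed by `p` is `κ` of a level cochain -/
theorem kumh1_exists_kap₁ {𝒯 : Tower G} (c : G → ((permZ G (G ⧸ U)).V →+ D.E.V))
    (hc : IsLevel₁ 𝒯 c) (hp : ∀ σ, p • c σ = 0) :
    ∃ z : G → (regMu D.χ U).V, IsLevel₁ 𝒯 z ∧ ∀ σ, kumh1Kap D U (z σ) = c σ :=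
  eh2f_exists_kap₁ D (G ⧸ U) c hc hp

/-- `κ` commutes with the right translations -/
theorem kumh1Kap_rt (δ : G ⧸ U) (ψ : (regMu D.χ U).V) :
    kumh1Kap D U ((regRt D.χ U δ).hom ψ) = (kumh1Kap D U ψ).comp (rtAdd U δ) := by
  apply chl_ext
  intro γ
  rw [kumh1Kap_single, AddMonoidHom.comp_apply, rtAdd_single, kumh1Kap_single]
  rfl

end Kap

/-! ### The level set `Γ = G ⧸ U` -/

section LevSet

variable {G : Type} [Group G] (𝒯 : Tower G) (U : Subgroup G) [U.Normal]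

theorem kumh1_smul_mk (g x : G) : g • (x : G ⧸ U) = ((g * x : G) : G ⧸ U) := rfl

theorem kumh1_smul_eq (s : G) (hs : s ∈ U) (γ : G ⧸ U) : s • γ = γ := by
  obtain ⟨x, rfl⟩ := QuotientGroup.mk_surjective γ
  rw [kumh1_smul_mk]
  apply QuotientGroup.eq.mpr
  have h1 : (s * x)⁻¹ * x = x⁻¹ * s⁻¹ * x := by group
  rw [h1]
  exact (inferInstance : U.Normal).conj_mem' s⁻¹ (U.inv_mem hs) x

theorem kumh1_isLevSet (hU : U ∈ 𝒯.lev) : IsLevSet 𝒯 (G ⧸ U) :=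
  ⟨U, hU, fun s hs γ => kumh1_smul_eq U s hs γ⟩

theorem kumh1_finite (hU : U ∈ 𝒯.lev) : Finite (G ⧸ U) := by
  haveI := 𝒯.finiteIndex U hU
  exact Subgroup.finite_quotient_of_finiteIndex

end LevSet

end Fermat.Agent.TW.E

end


end ZBTW_041_5

/-! ### bundled: `Fermat.Agent.TW.E.KumH1Phi` -/
section ZBTW_041_6
/-
Project TW (S56) — part TW-E, block E-cyc, piece **K-H1** (helper81), part 2: the map `φ`.

`φ : E^U → Hom_ℤ(ℤ[Γ], E)^G`, `φ e (δ_γ) = γ e`, is a bijection onto the `G`-invariant additive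
maps (inverse: evaluation at `δ_1`), and `φ (δ e) = φ e ∘ (· δ)`.
-/

set_option autoImplicit false
set_option linter.unusedSectionVars false
set_option linter.style.haveILetI false

noncomputable section

namespace Fermat.Agent.TW.E

open CategoryTheory groupCohomology Module Fermat.Agent.PT Fermat.Agent.PT.F Fermat.Agent.TW.F
open Fermat.Agent.PT.F.ExactH2

attribute [local instance 1100] Rep.hV2

section Phi

variable {p : ℕ} [Fact p.Prime] {G : Type} [Group G] {ι : Type} {Gloc : ι → Type}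
  [∀ v, Group (Gloc v)] (D : PTDatum p G ι Gloc) (U : Subgroup G) [U.Normal]

/-- the inclusion `E^U → E` -/
def kumh1Val : (cycUnits D U).V →+ D.E.V :=
  AddMonoidHom.mk' (fun e => (e : D.E.V)) (fun _ _ => rfl)

theorem kumh1Val_injective : Function.Injective (kumh1Val D U) := fun _ _ h => Subtype.ext h

theorem kumh1Val_ρ (x : G) (e : (cycUnits D U).V) :
    kumh1Val D U ((cycUnits D U).ρ (x : G ⧸ U) e) = D.E.ρ x (kumh1Val D U e) := rfl

theorem kumh1Val_fix (e : (cycUnits D U).V) (s : G) (hs : s ∈ U) :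
    D.E.ρ s (kumh1Val D U e) = kumh1Val D U e := e.2 ⟨s, hs⟩

/-- an `U`-fixed element of `E`, as an element of `E^U` -/
def kumh1Mk (e₀ : D.E.V) (h : ∀ s ∈ U, D.E.ρ s e₀ = e₀) : (cycUnits D U).V :=
  ⟨e₀, fun s => h s.1 s.2⟩

theorem kumh1Val_mk (e₀ : D.E.V) (h : ∀ s ∈ U, D.E.ρ s e₀ = e₀) :
    kumh1Val D U (kumh1Mk D U e₀ h) = e₀ := rfl

/-- `φ e : δ_γ ↦ γ e` -/
def kumh1Phi : (cycUnits D U).V →+ ((permZ G (G ⧸ U)).V →+ D.E.V) :=
  AddMonoidHom.mk'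
    (fun e => chl_lift (G := G) (G ⧸ U) (fun γ => kumh1Val D U ((cycUnits D U).ρ γ e)))
    (fun e e' => by
      apply chl_ext
      intro γ
      rw [AddMonoidHom.add_apply, chl_lift_single, chl_lift_single, chl_lift_single, one_smul,
        one_smul, one_smul, map_add, map_add])

theorem kumh1Phi_single (e : (cycUnits D U).V) (γ : G ⧸ U) :
    kumh1Phi D U e (MonoidAlgebra.single γ 1) = kumh1Val D U ((cycUnits D U).ρ γ e) := by
  show chl_lift (G := G) (G ⧸ U) _ _ = _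
  rw [chl_lift_single, one_smul]

theorem kumh1Phi_single_mk (e : (cycUnits D U).V) (x : G) :
    kumh1Phi D U e (MonoidAlgebra.single (x : G ⧸ U) 1) = D.E.ρ x (kumh1Val D U e) := by
  rw [kumh1Phi_single, kumh1Val_ρ]

/-- `φ e` is `G`-invariant -/
theorem kumh1Phi_conj (g : G) (e : (cycUnits D U).V) :
    conjAdd (permZ G (G ⧸ U)) D.E g (kumh1Phi D U e) = kumh1Phi D U e := by
  apply chl_ext
  intro γ
  obtain ⟨x, rfl⟩ := QuotientGroup.mk_surjective γ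
  rw [conjAdd_apply, chl_ρ_single, kumh1_smul_mk, kumh1Phi_single_mk, kumh1Phi_single_mk,
    ← Module.End.mul_apply, ← map_mul, mul_inv_cancel_left]

theorem kumh1Phi_dZero (e : (cycUnits D U).V) (g : G) :
    dZero (permZ G (G ⧸ U)) D.E (kumh1Phi D U e) g = 0 := by
  show conjAdd _ _ g _ - _ = 0
  rw [kumh1Phi_conj, sub_self]

/-- `φ (δ e) = φ e ∘ (· δ)` -/
theorem kumh1Phi_ρ (δ : G ⧸ U) (e : (cycUnits D U).V) :
    kumh1Phi D U ((cycUnits D U).ρ δ e) = (kumh1Phi D U e).comp (rtAdd U δ) := by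
  apply chl_ext
  intro γ
  rw [AddMonoidHom.comp_apply, rtAdd_single, kumh1Phi_single, kumh1Phi_single, map_mul]
  rfl

/-- the value at `δ_1` of a `G`-invariant map is `U`-fixed -/
theorem kumh1_inv_fix (t : (permZ G (G ⧸ U)).V →+ D.E.V)
    (ht : ∀ g, conjAdd (permZ G (G ⧸ U)) D.E g t = t) (s : G) (hs : s ∈ U) :
    D.E.ρ s (t (MonoidAlgebra.single (1 : G ⧸ U) 1)) = t (MonoidAlgebra.single (1 : G ⧸ U) 1) := by
  have h1 := DFunLike.congr_fun (ht s) (MonoidAlgebra.single (1 : G ⧸ U) 1)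
  rw [conjAdd_apply, chl_ρ_single, kumh1_smul_eq U s⁻¹ (U.inv_mem hs)] at h1
  exact h1

/-- a `G`-invariant map is `φ` of its value at `δ_1` -/
theorem kumh1Phi_mk (t : (permZ G (G ⧸ U)).V →+ D.E.V)
    (ht : ∀ g, conjAdd (permZ G (G ⧸ U)) D.E g t = t) :
    kumh1Phi D U (kumh1Mk D U (t (MonoidAlgebra.single (1 : G ⧸ U) 1))
      (kumh1_inv_fix D U t ht)) = t := by
  apply chl_ext
  intro γ
  obtain ⟨x, rfl⟩ := QuotientGroup.mk_surjective γ
  rw [kumh1Phi_single_mk, kumh1Val_mk]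
  have h1 := DFunLike.congr_fun (ht x) (MonoidAlgebra.single ((x : G) : G ⧸ U) 1)
  rw [conjAdd_apply, chl_ρ_single, kumh1_smul_mk, inv_mul_cancel] at h1
  exact h1

/-- `φ e (δ_1) = e` -/
theorem kumh1Phi_single_one (e : (cycUnits D U).V) :
    kumh1Phi D U e (MonoidAlgebra.single (1 : G ⧸ U) 1) = kumh1Val D U e := by
  rw [kumh1Phi_single, map_one]
  rfl

/-- `d⁰` commutes with the right translations -/
theorem kumh1_dZero_comp_rt (δ : G ⧸ U) (t : (permZ G (G ⧸ U)).V →+ D.E.V) (σ : G) :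
    (dZero (permZ G (G ⧸ U)) D.E t σ).comp (rtAdd U δ)
      = dZero (permZ G (G ⧸ U)) D.E (t.comp (rtAdd U δ)) σ := by
  refine AddMonoidHom.ext fun m => ?_
  show D.E.ρ σ (t ((permZ G (G ⧸ U)).ρ σ⁻¹ (rtAdd U δ m))) - t (rtAdd U δ m)
    = D.E.ρ σ (t (rtAdd U δ ((permZ G (G ⧸ U)).ρ σ⁻¹ m))) - t (rtAdd U δ m)
  rw [rtAdd_ρ]

end Phi

end Fermat.Agent.TW.E

end


end ZBTW_041_6

/-! ### bundled: `Fermat.Agent.TW.E.KumH1` -/
section ZBTW_041_7
/-
Project TW (S56) — part TW-E, block E-cyc, piece **K-H1** (helper81), part 3: the sequence.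

`E^U —p→ E^U —a→ H¹_lev(G, 𝓜) —b→ H¹_lev(G, 𝓔) —p→ H¹_lev(G, 𝓔)`,  `𝓜 = regMu χ U`,
`𝓔 = Hom_ℤ(ℤ[Γ], E)`, `Γ = G ⧸ U`.

* `a e = [z]` for any `(ε, z)` with `p ε = φ e`, `κ ∘ z = d⁰ ε`;
* `b [z] = [κ ∘ z]`.
-/

set_option autoImplicit false
set_option linter.unusedSectionVars false
set_option linter.style.haveILetI false

noncomputable section

namespace Fermat.Agent.TW.E

open CategoryTheory groupCohomology Module Fermat.Agent.PT Fermat.Agent.PT.F Fermat.Agent.TW.F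
open Fermat.Agent.PT.F.ExactH2

attribute [local instance 1100] Rep.hV2

section Seq

variable {p : ℕ} [Fact p.Prime] {G : Type} [Group G] {ι : Type} {Gloc : ι → Type}
  [∀ v, Group (Gloc v)] (D : PTDatum p G ι Gloc) (U : Subgroup G) [U.Normal]

/-- the triples `(e, ε, z)` with `p ε = φ e` and `κ ∘ z = d⁰ ε` -/
def kumh1W : AddSubgroup
    ((cycUnits D U).V × ((permZ G (G ⧸ U)).V →+ D.E.V) × (G → (regMu D.χ U).V)) where
  carrier := {w | p • w.2.1 = kumh1Phi D U w.1 ∧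
    ∀ σ, kumh1Kap D U (w.2.2 σ) = dZero (permZ G (G ⧸ U)) D.E w.2.1 σ}
  zero_mem' := by
    refine ⟨?_, fun σ => ?_⟩
    · show p • (0 : (permZ G (G ⧸ U)).V →+ D.E.V) = kumh1Phi D U 0
      rw [smul_zero, map_zero]
    · show kumh1Kap D U 0 = dZero (permZ G (G ⧸ U)) D.E 0 σ
      rw [map_zero]
      show (0 : (permZ G (G ⧸ U)).V →+ D.E.V) = conjAdd _ _ σ 0 - 0
      rw [map_zero, sub_zero]
  add_mem' := by
    rintro ⟨e, ε, z⟩ ⟨e', ε', z'⟩ ⟨h1, h2⟩ ⟨h1', h2'⟩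
    refine ⟨?_, fun σ => ?_⟩
    · show p • (ε + ε') = kumh1Phi D U (e + e')
      rw [smul_add, map_add]
      exact congrArg₂ (· + ·) h1 h1'
    · show kumh1Kap D U (z σ + z' σ) = dZero (permZ G (G ⧸ U)) D.E (ε + ε') σ
      rw [map_add, kumh1_dZero_add]
      exact congrArg₂ (· + ·) (h2 σ) (h2' σ)
  neg_mem' := by
    rintro ⟨e, ε, z⟩ ⟨h1, h2⟩
    refine ⟨?_, fun σ => ?_⟩
    · show p • (-ε) = kumh1Phi D U (-e)
      rw [smul_neg, map_neg]
      exact congrArg (- ·) h1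
    · show kumh1Kap D U (- z σ) = dZero (permZ G (G ⧸ U)) D.E (-ε) σ
      rw [map_neg]
      have h3 : dZero (permZ G (G ⧸ U)) D.E (-ε) σ = - dZero (permZ G (G ⧸ U)) D.E ε σ := by
        show conjAdd _ _ σ (-ε) - (-ε) = - (conjAdd _ _ σ ε - ε)
        rw [map_neg]
        abel
      rw [h3]
      exact congrArg (- ·) (h2 σ)

theorem mem_kumh1W (e : (cycUnits D U).V) (ε : (permZ G (G ⧸ U)).V →+ D.E.V)
    (z : G → (regMu D.χ U).V) :
    (e, ε, z) ∈ kumh1W D U ↔ p • ε = kumh1Phi D U e ∧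
      ∀ σ, kumh1Kap D U (z σ) = dZero (permZ G (G ⧸ U)) D.E ε σ := Iff.rfl

variable {D U}

/-- a cochain whose `κ` is a coboundary `d⁰ ε` is a level cocycle -/
theorem kumh1_mem_Z1_of_kap (hU : U ∈ D.𝒯.lev) (ε : (permZ G (G ⧸ U)).V →+ D.E.V)
    (z : G → (regMu D.χ U).V)
    (hz : ∀ σ, kumh1Kap D U (z σ) = dZero (permZ G (G ⧸ U)) D.E ε σ) :
    z ∈ kumh1Z1 D.𝒯 (regMu D.χ U) := by
  rw [mem_kumh1Z1]
  constructor
  · rw [kumh1_mem_cocycles₁_regMu]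
    intro s
    have h1 : (fun x => kumh1Kap D U (z x)) = dZero (permZ G (G ⧸ U)) D.E ε := funext hz
    rw [h1]
    exact kumh1_dOne_dZero _ _ ε s
  · haveI := kumh1_finite D.𝒯 U hU
    have hE : IsDiscrete D.𝒯 D.E := D.E_discrete
    obtain ⟨V, hV, h⟩ := chl_isLevel₁_dZero (kumh1_isLevSet D.𝒯 U hU) hE ε
    refine ⟨V, hV, fun σ s hs => ?_⟩
    apply kumh1Kap_injective D U
    rw [hz, hz]
    exact h σ s hs

variable (D U)

/-- `α : (e, ε, z) ↦ e` -/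
def kumh1Alpha : ↥(kumh1W D U) →+ (cycUnits D U).V :=
  (AddMonoidHom.fst _ _).comp (kumh1W D U).subtype

/-- `β : (e, ε, z) ↦ [z]` -/
def kumh1Beta (hU : U ∈ D.𝒯.lev) : ↥(kumh1W D U) →+ ↥(levH1 D.𝒯 (regMu D.χ U)) :=
  AddMonoidHom.mk'
    (fun w => kumh1Cls D.𝒯 (regMu D.χ U) ⟨w.1.2.2, kumh1_mem_Z1_of_kap hU w.1.2.1 w.1.2.2 w.2.2⟩)
    (fun w w' => by
      rw [← map_add]
      rfl)

theorem kumh1Beta_apply (hU : U ∈ D.𝒯.lev) (e : (cycUnits D U).V)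
    (ε : (permZ G (G ⧸ U)).V →+ D.E.V) (z : G → (regMu D.χ U).V) (hw : (e, ε, z) ∈ kumh1W D U)
    (hz : z ∈ kumh1Z1 D.𝒯 (regMu D.χ U)) :
    kumh1Beta D U hU ⟨(e, ε, z), hw⟩ = kumh1Cls D.𝒯 (regMu D.χ U) ⟨z, hz⟩ := rfl

theorem kumh1Alpha_apply (e : (cycUnits D U).V)
    (ε : (permZ G (G ⧸ U)).V →+ D.E.V) (z : G → (regMu D.χ U).V) (hw : (e, ε, z) ∈ kumh1W D U) :
    kumh1Alpha D U ⟨(e, ε, z), hw⟩ = e := rfl

/-- `p`-th roots in `Hom_ℤ(ℤ[Γ], E)` -/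
theorem kumh1_exists_root (t : (permZ G (G ⧸ U)).V →+ D.E.V) :
    ∃ t' : (permZ G (G ⧸ U)).V →+ D.E.V, p • t' = t := by
  obtain ⟨t', ht'⟩ := chl_exists_lift (G := G) (G ⧸ U) (nsmulAddMonoidHom (α := D.E.V) p)
    (fun e => by
      obtain ⟨e', he'⟩ := D.E_div e
      exact ⟨e', he'⟩) t
  refine ⟨t', AddMonoidHom.ext fun m => ?_⟩
  have := DFunLike.congr_fun ht' m
  exact this

/-- every `e` has a triple -/
theorem kumh1Alpha_surjective : Function.Surjective (kumh1Alpha D U) := by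
  intro e
  obtain ⟨ε, hε⟩ := kumh1_exists_root D U (kumh1Phi D U e)
  have h1 : ∀ σ, p • dZero (permZ G (G ⧸ U)) D.E ε σ = 0 := by
    intro σ
    rw [← kumh1_dZero_nsmul, hε, kumh1Phi_dZero]
  choose z hz using fun σ => kumh1Kap_surj D U (dZero (permZ G (G ⧸ U)) D.E ε σ) (h1 σ)
  exact ⟨⟨(e, ε, z), hε, hz⟩, rfl⟩

theorem kumh1_ker (hU : U ∈ D.𝒯.lev) (w : ↥(kumh1W D U)) (hw : kumh1Alpha D U w = 0) :
    kumh1Beta D U hU w = 0 := by
  obtain ⟨⟨e, ε, z⟩, hmem⟩ := w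
  have he : e = 0 := hw
  subst he
  have h1 : p • ε = kumh1Phi D U 0 := hmem.1
  have h2 : ∀ σ, kumh1Kap D U (z σ) = dZero (permZ G (G ⧸ U)) D.E ε σ := hmem.2
  rw [map_zero] at h1
  obtain ⟨ψ, hψ⟩ := kumh1Kap_surj D U ε h1
  have h3 : kumh1Beta D U hU ⟨(0, ε, z), hmem⟩
      = kumh1Cls D.𝒯 (regMu D.χ U) ⟨z, kumh1_mem_Z1_of_kap hU ε z h2⟩ := rfl
  rw [h3, kumh1Cls_eq_zero_iff]
  refine ⟨ψ, fun g => ?_⟩
  apply kumh1Kap_injective D U
  show kumh1Kap D U (z g) = _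
  rw [h2, kumh1Kap_d₀₁, hψ]

/-- **the connecting map** `a : E^U → H¹_lev(G, 𝓜)` -/
def kumh1A (hU : U ∈ D.𝒯.lev) : (cycUnits D U).V →+ ↥(levH1 D.𝒯 (regMu D.χ U)) :=
  kumh1Lift (kumh1Alpha D U) (kumh1Beta D U hU) (kumh1Alpha_surjective D U) (kumh1_ker D U hU)

theorem kumh1A_apply (hU : U ∈ D.𝒯.lev) (e : (cycUnits D U).V)
    (ε : (permZ G (G ⧸ U)).V →+ D.E.V) (z : G → (regMu D.χ U).V) (hw : (e, ε, z) ∈ kumh1W D U)
    (hz : z ∈ kumh1Z1 D.𝒯 (regMu D.χ U)) :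
    kumh1A D U hU e = kumh1Cls D.𝒯 (regMu D.χ U) ⟨z, hz⟩ :=
  kumh1Lift_apply (kumh1Alpha D U) (kumh1Beta D U hU) (kumh1Alpha_surjective D U)
    (kumh1_ker D U hU) ⟨(e, ε, z), hw⟩

/-- every `e` has a triple (unpacked) -/
theorem kumh1_exists_triple (hU : U ∈ D.𝒯.lev) (e : (cycUnits D U).V) :
    ∃ (ε : (permZ G (G ⧸ U)).V →+ D.E.V) (z : G → (regMu D.χ U).V),
      (e, ε, z) ∈ kumh1W D U ∧ z ∈ kumh1Z1 D.𝒯 (regMu D.χ U) := by
  obtain ⟨⟨⟨e', ε, z⟩, hw⟩, he⟩ := kumh1Alpha_surjective D U e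
  have he' : e' = e := he
  subst he'
  exact ⟨ε, z, hw, kumh1_mem_Z1_of_kap hU ε z hw.2⟩


/-! ### The map `b` -/

/-- the push-forward of a level cocycle is a level cocycle -/
theorem kumh1_map_mem_Z1 {k : Type} [CommRing k] (𝒯 : Tower G) {A B : Rep.{0} k G} (f : A ⟶ B)
    (x : ↥(kumh1Z1 𝒯 A)) : (fun g => f.hom ((x : G → A.V) g)) ∈ kumh1Z1 𝒯 B := by
  rw [mem_kumh1Z1]
  refine ⟨?_, ?_⟩
  · exact ((mapCocycles₁ (MonoidHom.id G) f).hom ⟨x.1, x.2.1⟩).2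
  · exact (x.2.2.comp _ :)

/-- classes agree iff the cocycles differ by a coboundary -/
theorem kumh1Cls_eq_iff {k : Type} [CommRing k] (𝒯 : Tower G) (A : Rep.{0} k G)
    (x y : ↥(kumh1Z1 𝒯 A)) :
    kumh1Cls 𝒯 A x = kumh1Cls 𝒯 A y ↔
      ∃ m : A.V, ∀ g : G, (x : G → A.V) g - (y : G → A.V) g = A.ρ g m - m := by
  rw [← sub_eq_zero, ← map_sub, kumh1Cls_eq_zero_iff]
  rfl

/-- `κ ∘ z` is a level cocycle of `𝓔` -/
theorem kumh1_kap_mem_Z1 (z : ↥(kumh1Z1 D.𝒯 (regMu D.χ U))) :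
    (fun σ => kumh1Kap D U ((z : G → (regMu D.χ U).V) σ))
      ∈ kumh1Z1 D.𝒯 (homRep (permZ G (G ⧸ U)) D.E) := by
  rw [mem_kumh1Z1]
  constructor
  · rw [kumh1_mem_cocycles₁_homRep]
    exact (kumh1_mem_cocycles₁_regMu D U z.1).1 z.2.1
  · exact (z.2.2.comp _ :)

/-- `z ↦ κ ∘ z` on level cocycles -/
def kumh1KapZ : ↥(kumh1Z1 D.𝒯 (regMu D.χ U)) →+
    ↥(kumh1Z1 D.𝒯 (homRep (permZ G (G ⧸ U)) D.E)) :=
  AddMonoidHom.mk' (fun z => ⟨fun σ => kumh1Kap D U ((z : G → (regMu D.χ U).V) σ),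
      kumh1_kap_mem_Z1 D U z⟩)
    (fun _ _ => Subtype.ext (funext fun _ => map_add (kumh1Kap D U) _ _))

theorem kumh1KapZ_apply (z : ↥(kumh1Z1 D.𝒯 (regMu D.χ U))) (σ : G) :
    ((kumh1KapZ D U z : ↥(kumh1Z1 D.𝒯 (homRep (permZ G (G ⧸ U)) D.E))) :
      G → ((permZ G (G ⧸ U)).V →+ D.E.V)) σ = kumh1Kap D U ((z : G → (regMu D.χ U).V) σ) := rfl

theorem kumh1B_ker (z : ↥(kumh1Z1 D.𝒯 (regMu D.χ U)))
    (hz : (kumh1Cls D.𝒯 (regMu D.χ U)).toAddMonoidHom z = 0) :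
    ((kumh1Cls D.𝒯 (homRep (permZ G (G ⧸ U)) D.E)).toAddMonoidHom.comp (kumh1KapZ D U)) z
      = 0 := by
  have hz' : kumh1Cls D.𝒯 (regMu D.χ U) z = 0 := hz
  show kumh1Cls D.𝒯 (homRep (permZ G (G ⧸ U)) D.E) (kumh1KapZ D U z) = 0
  rw [kumh1Cls_eq_zero_iff] at hz' ⊢
  obtain ⟨ψ, hψ⟩ := hz'
  refine ⟨kumh1Kap D U ψ, fun g => ?_⟩
  rw [kumh1KapZ_apply, hψ g, kumh1Kap_d₀₁]
  rfl

/-- **the map** `b : H¹_lev(G, 𝓜) → H¹_lev(G, 𝓔)`, `[z] ↦ [κ ∘ z]` -/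
def kumh1B : ↥(levH1 D.𝒯 (regMu D.χ U)) →+ ↥(levH1 D.𝒯 (homRep (permZ G (G ⧸ U)) D.E)) :=
  kumh1Lift (kumh1Cls D.𝒯 (regMu D.χ U)).toAddMonoidHom
    ((kumh1Cls D.𝒯 (homRep (permZ G (G ⧸ U)) D.E)).toAddMonoidHom.comp (kumh1KapZ D U))
    (kumh1Cls_surjective D.𝒯 (regMu D.χ U)) (kumh1B_ker D U)

theorem kumh1B_apply (z : ↥(kumh1Z1 D.𝒯 (regMu D.χ U))) :
    kumh1B D U (kumh1Cls D.𝒯 (regMu D.χ U) z)
      = kumh1Cls D.𝒯 (homRep (permZ G (G ⧸ U)) D.E) (kumh1KapZ D U z) :=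
  kumh1Lift_apply (kumh1Cls D.𝒯 (regMu D.χ U)).toAddMonoidHom
    ((kumh1Cls D.𝒯 (homRep (permZ G (G ⧸ U)) D.E)).toAddMonoidHom.comp (kumh1KapZ D U))
    (kumh1Cls_surjective D.𝒯 (regMu D.χ U)) (kumh1B_ker D U) z

/-! ### Equivariance -/

theorem kumh1_comp_nsmul (δ : G ⧸ U) (ε : (permZ G (G ⧸ U)).V →+ D.E.V) :
    p • (ε.comp (rtAdd U δ)) = (p • ε).comp (rtAdd U δ) := rfl

/-- (1) `a` is `Γ`-equivariant -/
theorem kumh1A_ρ (hU : U ∈ D.𝒯.lev) (δ : G ⧸ U) (e : (cycUnits D U).V) :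
    kumh1A D U hU ((cycUnits D U).ρ δ e)
      = levH1Map D.𝒯 (regRt D.χ U δ) (kumh1A D U hU e) := by
  obtain ⟨ε, z, hw, hz⟩ := kumh1_exists_triple D U hU e
  have hw' : ((cycUnits D U).ρ δ e, ε.comp (rtAdd U δ),
      fun σ => (regRt D.χ U δ).hom (z σ)) ∈ kumh1W D U := by
    refine ⟨?_, fun σ => ?_⟩
    · show p • (ε.comp (rtAdd U δ)) = kumh1Phi D U ((cycUnits D U).ρ δ e)
      rw [kumh1Phi_ρ, ← hw.1]
      rfl
    · show kumh1Kap D U ((regRt D.χ U δ).hom (z σ))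
        = dZero (permZ G (G ⧸ U)) D.E (ε.comp (rtAdd U δ)) σ
      rw [kumh1Kap_rt, hw.2 σ]
      exact kumh1_dZero_comp_rt D U δ ε σ
  have hz' := kumh1_mem_Z1_of_kap hU _ _ hw'.2
  rw [kumh1A_apply D U hU _ _ _ hw' hz', kumh1A_apply D U hU _ _ _ hw hz]
  exact (kumh1_levH1Map_cls D.𝒯 (regMu D.χ U) (regRt D.χ U δ) ⟨z, hz⟩ ⟨_, hz'⟩
    (fun g => rfl)).symm

/-- (2) `b` is `Γ`-equivariant -/
theorem kumh1B_ρ (δ : G ⧸ U) (v : ↥(levH1 D.𝒯 (regMu D.χ U))) :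
    kumh1B D U (levH1Map D.𝒯 (regRt D.χ U δ) v)
      = levH1Map D.𝒯 (homRt U D.E δ) (kumh1B D U v) := by
  obtain ⟨z, rfl⟩ := kumh1Cls_surjective D.𝒯 (regMu D.χ U) v
  have hz' := kumh1_map_mem_Z1 D.𝒯 (regRt D.χ U δ) z
  rw [kumh1_levH1Map_cls D.𝒯 (regMu D.χ U) (regRt D.χ U δ) z ⟨_, hz'⟩ (fun g => rfl),
    kumh1B_apply, kumh1B_apply]
  refine (kumh1_levH1Map_cls D.𝒯 _ (homRt U D.E δ) (kumh1KapZ D U z) _ (fun g => ?_)).symm
  rw [kumh1KapZ_apply, kumh1KapZ_apply]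
  show kumh1Kap D U ((regRt D.χ U δ).hom (z.1 g)) = (kumh1Kap D U (z.1 g)).comp (rtAdd U δ)
  exact kumh1Kap_rt D U δ _


/-! ### Exactness -/

/-- the zero cochain -/
theorem kumh1_zero_mem_W (y : (cycUnits D U).V) :
    (p • y, kumh1Phi D U y, fun _ => (0 : (regMu D.χ U).V)) ∈ kumh1W D U := by
  refine ⟨?_, fun σ => ?_⟩
  · show p • kumh1Phi D U y = kumh1Phi D U (p • y)
    rw [map_nsmul]
  · show kumh1Kap D U 0 = dZero (permZ G (G ⧸ U)) D.E (kumh1Phi D U y) σ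
    rw [map_zero, kumh1Phi_dZero]

/-- (3) `ker a = p E^U` -/
theorem kumh1A_eq_zero_iff (hU : U ∈ D.𝒯.lev) (e : (cycUnits D U).V) :
    kumh1A D U hU e = 0 ↔ ∃ y : (cycUnits D U).V, e = p • y := by
  constructor
  · intro h
    obtain ⟨ε, z, hw, hz⟩ := kumh1_exists_triple D U hU e
    rw [kumh1A_apply D U hU _ _ _ hw hz, kumh1Cls_eq_zero_iff] at h
    obtain ⟨ψ, hψ⟩ := h
    -- `ε - κ ψ` is invariant
    have h1 : ∀ g, conjAdd (permZ G (G ⧸ U)) D.E g (ε - kumh1Kap D U ψ)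
        = ε - kumh1Kap D U ψ := by
      rw [← kumh1_dZero_eq_zero_iff]
      intro g
      have hψ' : z g = (regMu D.χ U).ρ g ψ - ψ := hψ g
      have hw2 : kumh1Kap D U (z g) = dZero (permZ G (G ⧸ U)) D.E ε g := hw.2 g
      rw [kumh1_dZero_sub, ← hw2, ← kumh1Kap_d₀₁, hψ', sub_self]
    refine ⟨kumh1Mk D U _ (kumh1_inv_fix D U _ h1), ?_⟩
    apply kumh1Val_injective D U
    rw [map_nsmul, kumh1Val_mk, ← kumh1Phi_single_one, ← hw.1]
    show p • ε (MonoidAlgebra.single 1 1) = p • (ε (MonoidAlgebra.single 1 1)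
      - kumh1Kap D U ψ (MonoidAlgebra.single 1 1))
    have h2 : p • kumh1Kap D U ψ (MonoidAlgebra.single (1 : G ⧸ U) 1) = 0 := by
      have := DFunLike.congr_fun (kumh1Kap_p D U ψ) (MonoidAlgebra.single (1 : G ⧸ U) 1)
      exact this
    rw [smul_sub, h2, sub_zero]
  · rintro ⟨y, rfl⟩
    have hw := kumh1_zero_mem_W D U y
    have hz := kumh1_mem_Z1_of_kap hU _ _ hw.2
    rw [kumh1A_apply D U hU _ _ _ hw hz]
    have h0 : (⟨fun _ => (0 : (regMu D.χ U).V), hz⟩ : ↥(kumh1Z1 D.𝒯 (regMu D.χ U))) = 0 := rfl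
    rw [h0, map_zero]

/-- (4) `ker b = im a` -/
theorem kumh1B_eq_zero_iff (hU : U ∈ D.𝒯.lev) (v : ↥(levH1 D.𝒯 (regMu D.χ U))) :
    kumh1B D U v = 0 ↔ ∃ x : (cycUnits D U).V, kumh1A D U hU x = v := by
  constructor
  · intro h
    obtain ⟨z, rfl⟩ := kumh1Cls_surjective D.𝒯 (regMu D.χ U) v
    rw [kumh1B_apply, kumh1Cls_eq_zero_iff] at h
    obtain ⟨t, ht⟩ := h
    have ht' : ∀ g, kumh1Kap D U (z.1 g) = dZero (permZ G (G ⧸ U)) D.E t g := ht
    -- `p t` is invariant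
    have h1 : ∀ g, conjAdd (permZ G (G ⧸ U)) D.E g (p • t) = p • t := by
      rw [← kumh1_dZero_eq_zero_iff]
      intro g
      rw [kumh1_dZero_nsmul, ← ht' g, kumh1Kap_p]
    have hw : (kumh1Mk D U _ (kumh1_inv_fix D U _ h1), t, z.1) ∈ kumh1W D U :=
      ⟨(kumh1Phi_mk D U _ h1).symm, ht'⟩
    exact ⟨_, kumh1A_apply D U hU _ _ _ hw z.2⟩
  · rintro ⟨x, rfl⟩
    obtain ⟨ε, z, hw, hz⟩ := kumh1_exists_triple D U hU x
    rw [kumh1A_apply D U hU _ _ _ hw hz, kumh1B_apply, kumh1Cls_eq_zero_iff]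
    exact ⟨ε, fun g => hw.2 g⟩

/-- (5) `im b = H¹_lev(G, 𝓔)[p]` -/
theorem kumh1B_range_iff (hU : U ∈ D.𝒯.lev)
    (y : ↥(levH1 D.𝒯 (homRep (permZ G (G ⧸ U)) D.E))) :
    p • y = 0 ↔ ∃ v : ↥(levH1 D.𝒯 (regMu D.χ U)), kumh1B D U v = y := by
  constructor
  · intro h
    obtain ⟨c, rfl⟩ := kumh1Cls_surjective D.𝒯 (homRep (permZ G (G ⧸ U)) D.E) y
    rw [← map_nsmul, kumh1Cls_eq_zero_iff] at h
    obtain ⟨t, ht⟩ := h
    have ht' : ∀ g, p • c.1 g = dZero (permZ G (G ⧸ U)) D.E t g := ht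
    obtain ⟨t', rfl⟩ := kumh1_exists_root D U t
    haveI := kumh1_finite D.𝒯 U hU
    have hE : IsDiscrete D.𝒯 D.E := D.E_discrete
    have hlev : IsLevel₁ D.𝒯 (dZero (permZ G (G ⧸ U)) D.E t') :=
      chl_isLevel₁_dZero (kumh1_isLevSet D.𝒯 U hU) hE t'
    -- the coboundary `d⁰ t'` as a level cocycle
    have hd : dZero (permZ G (G ⧸ U)) D.E t' ∈ kumh1Z1 D.𝒯 (homRep (permZ G (G ⧸ U)) D.E) := by
      rw [mem_kumh1Z1]
      exact ⟨(kumh1_mem_cocycles₁_homRep _ _ _).2 (fun s => kumh1_dOne_dZero _ _ t' s), hlev⟩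
    -- `c'' = c - d⁰ t'` is killed by `p`
    have hc'' : ∀ σ, p • (c.1 σ - dZero (permZ G (G ⧸ U)) D.E t' σ) = 0 := by
      intro σ
      rw [smul_sub, ht' σ, kumh1_dZero_nsmul, sub_self]
    have hlev'' : IsLevel₁ D.𝒯 (fun σ => c.1 σ - dZero (permZ G (G ⧸ U)) D.E t' σ) :=
      chl_isLevel₁_sub c.2.2 hlev
    obtain ⟨z, hzlev, hz⟩ := kumh1_exists_kap₁ D U _ hlev'' hc''
    have hzmem : z ∈ kumh1Z1 D.𝒯 (regMu D.χ U) := by
      rw [mem_kumh1Z1]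
      refine ⟨?_, hzlev⟩
      rw [kumh1_mem_cocycles₁_regMu, ← kumh1_mem_cocycles₁_homRep]
      have h1 : (fun x => kumh1Kap D U (z x))
          = c.1 - dZero (permZ G (G ⧸ U)) D.E t' := funext hz
      rw [h1]
      exact Submodule.sub_mem _ c.2.1 hd.1
    refine ⟨kumh1Cls D.𝒯 (regMu D.χ U) ⟨z, hzmem⟩, ?_⟩
    rw [kumh1B_apply, kumh1Cls_eq_iff]
    refine ⟨-t', fun g => ?_⟩
    have h2 : kumh1Kap D U (z g) = c.1 g - dZero (permZ G (G ⧸ U)) D.E t' g := hz g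
    have h3 : (homRep (permZ G (G ⧸ U)) D.E).ρ g (-t')
        = - conjAdd (permZ G (G ⧸ U)) D.E g t' := by
      rw [kumh1_homRep_ρ, map_neg]
    show kumh1Kap D U (z g) - c.1 g = _
    rw [h2, h3, sub_sub_cancel_left, neg_sub_neg]
    show -(conjAdd (permZ G (G ⧸ U)) D.E g t' - t') = _
    rw [neg_sub]
  · rintro ⟨v, rfl⟩
    obtain ⟨z, rfl⟩ := kumh1Cls_surjective D.𝒯 (regMu D.χ U) v
    rw [kumh1B_apply, ← map_nsmul]
    have h0 : p • kumh1KapZ D U z = 0 :=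
      Subtype.ext (funext fun σ => kumh1Kap_p D U (z.1 σ))
    rw [h0, map_zero]

end Seq

/-- **K-H1.** The Kummer sequence in degree 1. -/
theorem stmtKumH1 : StmtKumH1 := by
  intro p _ G _ ι _ _ Gloc _ D U _ hU _
  exact ⟨kumh1A D U hU, kumh1B D U, fun g x => kumh1A_ρ D U hU g x,
    fun g v => kumh1B_ρ D U g v, fun x => kumh1A_eq_zero_iff D U hU x,
    fun v => kumh1B_eq_zero_iff D U hU v, fun y => kumh1B_range_iff D U hU y⟩

end Fermat.Agent.TW.E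

end


end ZBTW_041_7
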