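/- GENERATED FILE (helper35, build-time optimisation, NOTES/ZB.md): verbatim concatenation of the modules
   Fermat.Agent.TW.E.E3
   Fermat.Agent.TW.E.Mu3
   Fermat.Agent.TW.E.H2FinPermAux
   Fermat.Agent.TW.E.J3Local
   Do not edit; do not import together with these modules. -/
import Fermat.Agent.ZB.TW_014
import Fermat.Agent.ZB.PT_031
import Fermat.Agent.ZB.TW_041
import Fermat.Agent.ZB.PT_047
import Fermat.Agent.ZB.PT_048
import Fermat.Agent.ZB.TW_047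

/-! ### bundled: `Fermat.Agent.TW.E.E3` -/
section ZBTW_042_0
/-
Project TW (S56) — part TW-E, block E-add, piece **A6a** (`StmtE3`), helper21.

CHASE in `0 → E → J → C → 0`: a level 3-cocycle `z` of `Hom_ℤ(M, E)` killed by `p` is a level
coboundary up to a multiple prime to `p` (`M = ℤ[Ω]`).
  `i ∘ z` is a level 3-cocycle of `Hom(M, J)` killed by `p`: (In5) `n₁ i z = d u`.
  `π ∘ u` is a level 2-cocycle of `Hom(M, C)`: (In7) `n₂ π u = π w + d t`.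
  Lift `t` to a level `t̃ : G → Hom(M, J)`.  `π (n₂ u - w - d t̃) = 0`, so `n₂ u - w - d t̃ = i ∘ y`,
  `y` level, and `i (d y) = n₁ n₂ i z`, hence `d y = n₁ n₂ z`.
-/

set_option autoImplicit false
set_option linter.unusedSectionVars false

noncomputable section

namespace Fermat.Agent.TW.E

open CategoryTheory groupCohomology Fermat.Agent.PT Fermat.Agent.PT.F Fermat.Agent.PT.F.ExactH2

section General

variable {G : Type} [Group G]

lemma e3_dTwo_apply (M Y : Rep.{0} ℤ G) (y : G × G → (M.V →+ Y.V)) (σ τ ρ : G) :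
    dTwo M Y y (σ, τ, ρ) =
      conjAdd M Y σ (y (τ, ρ)) - y (σ * τ, ρ) + y (σ, τ * ρ) - y (σ, τ) := rfl

lemma e3_dThree_apply (M Y : Rep.{0} ℤ G) (z : G × G × G → (M.V →+ Y.V)) (σ τ ρ κ : G) :
    dThree M Y z (σ, τ, ρ, κ) =
      conjAdd M Y σ (z (τ, ρ, κ)) - z (σ * τ, ρ, κ) + z (σ, τ * ρ, κ) - z (σ, τ, ρ * κ)
        + z (σ, τ, ρ) := rfl

/-- post-composition with a morphism commutes with `d²` -/
lemma e3_comp_dTwo {Y Y' : Rep.{0} ℤ G} (f : Y ⟶ Y') (M : Rep.{0} ℤ G)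
    (y : G × G → (M.V →+ Y.V)) (s : G × G × G) :
    (homAdd f).comp (dTwo M Y y s) = dTwo M Y' (fun s => (homAdd f).comp (y s)) s := by
  obtain ⟨σ, τ, ρ⟩ := s
  rw [e3_dTwo_apply, e3_dTwo_apply, ← comp_conjAdd]
  ext m
  simp

/-- post-composition with a morphism commutes with `d³` -/
lemma e3_comp_dThree {Y Y' : Rep.{0} ℤ G} (f : Y ⟶ Y') (M : Rep.{0} ℤ G)
    (z : G × G × G → (M.V →+ Y.V)) (s : G × G × G × G) :
    (homAdd f).comp (dThree M Y z s) = dThree M Y' (fun s => (homAdd f).comp (z s)) s := by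
  obtain ⟨σ, τ, ρ, κ⟩ := s
  rw [e3_dThree_apply, e3_dThree_apply, ← comp_conjAdd]
  ext m
  simp

/-- `d² ∘ d¹ = 0` -/
lemma e3_dTwo_dOne (M Y : Rep.{0} ℤ G) (t : G → (M.V →+ Y.V)) (s : G × G × G) :
    dTwo M Y (dOne M Y t) s = 0 := by
  obtain ⟨σ, τ, ρ⟩ := s
  rw [e3_dTwo_apply]
  simp only [dOne, map_add, map_sub, conjAdd_mul, mul_assoc]
  abel

lemma e3_dTwo_sub (M Y : Rep.{0} ℤ G) (y y' : G × G → (M.V →+ Y.V)) (s : G × G × G) :
    dTwo M Y (fun s => y s - y' s) s = dTwo M Y y s - dTwo M Y y' s := by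
  obtain ⟨σ, τ, ρ⟩ := s
  simp only [e3_dTwo_apply, map_sub]
  abel

lemma e3_dTwo_nsmul (M Y : Rep.{0} ℤ G) (n : ℕ) (y : G × G → (M.V →+ Y.V)) (s : G × G × G) :
    dTwo M Y (fun s => n • y s) s = n • dTwo M Y y s := by
  obtain ⟨σ, τ, ρ⟩ := s
  simp only [e3_dTwo_apply, map_nsmul, smul_add, smul_sub]

lemma e3_isLevel₃_comp {𝒯 : Tower G} {X X' : Type*} {z : G × G × G → X} (hz : IsLevel₃ 𝒯 z)
    (φ : X → X') : IsLevel₃ 𝒯 (fun s => φ (z s)) := by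
  obtain ⟨U, hU, h⟩ := hz
  exact ⟨U, hU, fun g g' g'' s s' s'' hs hs' hs'' =>
    congrArg φ (h g g' g'' s s' s'' hs hs' hs'')⟩

end General

section Perm

variable {G : Type} [Group G] (Ω : Type) [MulAction G Ω]

/-- the action on the basis of `ℤ[Ω]` -/
lemma e3_ρ_single (σ : G) (ω : Ω) (n : ℤ) :
    (permZ G Ω).ρ σ (MonoidAlgebra.single ω n) = MonoidAlgebra.single (σ • ω) n :=
  Representation.ofMulAction_single σ ω n

/-- the additive map `ℤ[Ω] → A` with prescribed values on the basis -/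
def e3_lift {A : Type} [AddCommGroup A] (t : Ω → A) : (permZ G Ω).V →+ A :=
  (Finsupp.liftAddHom (fun ω : Ω => zmultiplesHom A (t ω))).comp
    (MonoidAlgebra.coeffAddEquiv (R := ℤ) (M := Ω)).toAddMonoidHom

lemma e3_lift_single {A : Type} [AddCommGroup A] (t : Ω → A) (ω : Ω) (n : ℤ) :
    e3_lift (G := G) Ω t (MonoidAlgebra.single ω n) = n • t ω := by
  simp [e3_lift, MonoidAlgebra.coeffAddEquiv]

/-- additive maps out of `ℤ[Ω]` agree if they agree on the basis -/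
lemma e3_ext {A : Type} [AddCommGroup A] (f f' : (permZ G Ω).V →+ A)
    (h : ∀ ω : Ω, f (MonoidAlgebra.single ω 1) = f' (MonoidAlgebra.single ω 1)) : f = f' := by
  apply MonoidAlgebra.addMonoidHom_ext
  intro ω n
  have h1 : (MonoidAlgebra.single ω n : MonoidAlgebra ℤ Ω) = n • MonoidAlgebra.single ω 1 := by
    rw [MonoidAlgebra.smul_single, smul_eq_mul, mul_one]
  rw [h1, map_zsmul, map_zsmul, h ω]

/-- additive maps `ℤ[Ω] → Y'` lift along a surjection `Y → Y'` -/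
lemma e3_exists_lift {Y Y' : Type} [AddCommGroup Y] [AddCommGroup Y'] (π : Y →+ Y')
    (hπ : Function.Surjective π) (c : (permZ G Ω).V →+ Y') :
    ∃ t : (permZ G Ω).V →+ Y, π.comp t = c := by
  choose x hx using fun ω : Ω => hπ (c (MonoidAlgebra.single ω 1))
  refine ⟨e3_lift (G := G) Ω x, e3_ext Ω _ _ fun ω => ?_⟩
  rw [AddMonoidHom.comp_apply, e3_lift_single, one_zsmul, hx]

/-- `d¹` of a level 1-cochain with values in `Hom(ℤ[Ω], Y)`, `Y` discrete, `Ω` finite and trivial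
on a level, is a level 2-cochain. -/
lemma e3_isLevel₂_dOne [Finite Ω] {𝒯 : Tower G} (hΩ : IsLevSet 𝒯 Ω) {Y : Rep.{0} ℤ G}
    (hY : IsDiscrete 𝒯 Y) (t : G → ((permZ G Ω).V →+ Y.V)) (ht : IsLevel₁ 𝒯 t) :
    IsLevel₂ 𝒯 (dOne (permZ G Ω) Y t) := by
  obtain ⟨U₁, hU₁, h₁⟩ := ht
  obtain ⟨U₀, hU₀, h₀⟩ := hΩ
  have hfin : (Set.range (fun x : G × Ω => t x.1 (MonoidAlgebra.single x.2 1))).Finite := by
    have h1 : (Set.range t).Finite := isLevel₁_finite_range (𝒯 := 𝒯) ⟨U₁, hU₁, h₁⟩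
    have h2 : Set.range (fun x : G × Ω => t x.1 (MonoidAlgebra.single x.2 1)) ⊆
        (fun y : ((permZ G Ω).V →+ Y.V) × Ω => y.1 (MonoidAlgebra.single y.2 1)) ''
          ((Set.range t) ×ˢ (Set.univ : Set Ω)) := by
      rintro _ ⟨⟨σ, j⟩, rfl⟩
      exact ⟨(t σ, j), ⟨⟨σ, rfl⟩, Set.mem_univ _⟩, rfl⟩
    exact ((h1.prod Set.finite_univ).image _).subset h2
  obtain ⟨U₂, hU₂, h₂⟩ := hY.exists_level_of_finite hfin
  obtain ⟨V, hV, hVle, hVn⟩ := 𝒯.exists_normal _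
    (𝒯.inf_mem _ _ (𝒯.inf_mem _ _ hU₁ hU₂) hU₀)
  refine ⟨V, hV, fun g g' s s' hs hs' => ?_⟩
  have hs1 : s ∈ U₁ := (hVle hs).1.1
  have hs2 : s ∈ U₂ := (hVle hs).1.2
  have hs0 : s ∈ U₀ := (hVle hs).2
  have hs'1 : s' ∈ U₁ := (hVle hs').1.1
  have hconj : ∀ τ, conjAdd (permZ G Ω) Y s (t τ) = t τ := by
    intro τ
    apply e3_ext
    intro ω
    rw [conjAdd_apply, e3_ρ_single, h₀ s⁻¹ (U₀.inv_mem hs0)]
    exact h₂ _ ⟨(τ, ω), rfl⟩ s hs2
  have e1 : g * s * (g' * s') = g * g' * (g'⁻¹ * s * g' * s') := by group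
  have e2 : g'⁻¹ * s * g' * s' ∈ U₁ := by
    have h3 : g'⁻¹ * s * g' ∈ V := by
      have := hVn.conj_mem s hs g'⁻¹
      simpa using this
    exact (hVle (V.mul_mem h3 hs')).1.1
  show conjAdd (permZ G Ω) Y (g * s) (t (g' * s')) - t (g * s * (g' * s')) + t (g * s) =
    conjAdd (permZ G Ω) Y g (t g') - t (g * g') + t g
  rw [h₁ g' s' hs'1, h₁ g s hs1, e1, h₁ (g * g') _ e2, conjAdd_mul, hconj]

end Perm

/-- **A6a (E3).** -/
theorem stmtE3 : StmtE3 := by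
  intro p _ G _ ι _ Gloc _ D Ω _ _ hΩ h5 h7 z hzlev hzcoc hzp
  -- Step 1: `n₁ i z = d u`
  obtain ⟨n₁, hn₁, u, hulev, hu⟩ := h5 (fun s => (homAdd D.i).comp (z s))
    (e3_isLevel₃_comp hzlev _)
    (fun s => by
      rw [← e3_comp_dThree, hzcoc s]
      exact AddMonoidHom.comp_zero _)
    (fun s => by
      refine AddMonoidHom.ext fun m => ?_
      have h1 : p • z s m = 0 := by
        rw [← AddMonoidHom.nsmul_apply, hzp s]
        rfl
      show p • D.i.hom (z s m) = 0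
      rw [← map_nsmul, h1, map_zero])
  -- Step 2: `n₂ π u = π w + d t`
  have hπi : ∀ s, (homAdd D.π).comp (n₁ • (homAdd D.i).comp (z s)) = 0 := by
    intro s
    refine AddMonoidHom.ext fun m => ?_
    show D.π.hom (n₁ • D.i.hom (z s m)) = 0
    rw [map_nsmul, pi_i, smul_zero]
  obtain ⟨n₂, hn₂, w, hwlev, hwcoc, t, htlev, ht⟩ := h7 (fun s => (homAdd D.π).comp (u s))
    (hulev.comp (fun h => (homAdd D.π).comp h))
    (fun s => by
      rw [← e3_comp_dTwo, ← hu s]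
      exact hπi s)
  -- Step 3: lift `t`
  choose L hL using fun c : (permZ G Ω).V →+ D.C.V =>
    e3_exists_lift (G := G) Ω (homAdd D.π) D.π_surj c
  have httlev : IsLevel₁ D.𝒯 (fun σ => L (t σ)) := htlev.comp L
  -- Step 4: `X = n₂ u - w - d t̃` has values in `im i`
  have hdtt : IsLevel₂ D.𝒯 (dOne (permZ G Ω) (PTJ D) (fun σ => L (t σ))) :=
    e3_isLevel₂_dOne Ω hΩ (ptj_isDiscrete D) _ httlev
  set X : G × G → ((permZ G Ω).V →+ (PTJ D).V) :=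
    fun s => n₂ • u s - w s - dOne (permZ G Ω) (PTJ D) (fun σ => L (t σ)) s with hXdef
  have hXlev : IsLevel₂ D.𝒯 X := by
    obtain ⟨U₁, hU₁, h₁⟩ := hulev
    obtain ⟨U₂, hU₂, h₂⟩ := hwlev
    obtain ⟨U₃, hU₃, h₃⟩ := hdtt
    refine ⟨(U₁ ⊓ U₂) ⊓ U₃, D.𝒯.inf_mem _ _ (D.𝒯.inf_mem _ _ hU₁ hU₂) hU₃,
      fun g g' s s' hs hs' => ?_⟩
    simp only [hXdef]
    rw [h₁ g g' s s' hs.1.1 hs'.1.1, h₂ g g' s s' hs.1.2 hs'.1.2, h₃ g g' s s' hs.2 hs'.2]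
  have hπX : ∀ s, (homAdd D.π).comp (X s) = 0 := by
    intro s
    have h1 : (homAdd D.π).comp (dOne (permZ G Ω) (PTJ D) (fun σ => L (t σ)) s) =
        dOne (permZ G Ω) D.C t s := by
      rw [comp_dOne]
      congr 1
      funext σ
      exact hL (t σ)
    have h2 : (homAdd D.π).comp (X s) =
        n₂ • (homAdd D.π).comp (u s) - (homAdd D.π).comp (w s) -
          (homAdd D.π).comp (dOne (permZ G Ω) (PTJ D) (fun σ => L (t σ)) s) := by
      refine AddMonoidHom.ext fun m => ?_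
      simp [hXdef]
    rw [h2, h1, ht s]
    abel
  choose y hy using fun s => exists_lift_i (D := D) (X s) (hπX s)
  have hylev : IsLevel₂ D.𝒯 y := by
    obtain ⟨U, hU, h⟩ := hXlev
    refine ⟨U, hU, fun g g' s s' hs hs' => ?_⟩
    apply i_comp_injective (D := D)
    rw [hy, hy, h g g' s s' hs hs']
  -- Step 5: `d y = n₁ n₂ z`
  refine ⟨n₁ * n₂, ?_, y, hylev, fun s => ?_⟩
  · intro h
    rcases (Nat.Prime.dvd_mul (Fact.out : p.Prime)).mp h with h | h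
    · exact hn₁ h
    · exact hn₂ h
  · apply i_comp_injective (D := D)
    have hyX : (fun s => (homAdd D.i).comp (y s)) = X := funext hy
    rw [e3_comp_dTwo, hyX]
    have h3 : dTwo (permZ G Ω) (PTJ D) X s =
        n₂ • dTwo (permZ G Ω) (PTJ D) u s - dTwo (permZ G Ω) (PTJ D) w s -
          dTwo (permZ G Ω) (PTJ D) (dOne (permZ G Ω) (PTJ D) (fun σ => L (t σ))) s := by
      rw [hXdef, e3_dTwo_sub (permZ G Ω) (PTJ D) (fun s => n₂ • u s - w s),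
        e3_dTwo_sub (permZ G Ω) (PTJ D) (fun s => n₂ • u s), e3_dTwo_nsmul]
    rw [h3, hwcoc s, e3_dTwo_dOne, sub_zero, sub_zero, ← hu s]
    refine AddMonoidHom.ext fun m => ?_
    show D.i.hom ((n₁ * n₂) • z s m) = n₂ • n₁ • D.i.hom (z s m)
    rw [map_nsmul, mul_comm, mul_smul]

end Fermat.Agent.TW.E

end


end ZBTW_042_0

/-! ### bundled: `Fermat.Agent.TW.E.Mu3` -/
section ZBTW_042_1
/-
Project TW (S56) — part TW-E, block E-add, piece **A7** (`StmtMu3`), helper21.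

Kummer chase: `H³_lev(G, Hom_ℤ(M, μ_p)) = 0`, i.e. a level 3-cocycle `z` of `Hom_ℤ(M, E)` killed by
`p` is `d` of a level 2-cochain KILLED BY `p`.
  (E3) `n z = d y`, hence `z = d y₁`, `y₁ = a y`, `a n ≡ 1 mod p`.  `p y₁` is a level 2-cocycle:
  (E2Div) `n' p y₁ = p w + d t`; `t = p t'` with `t'` level (`E` is `p`-divisible, `M` is free);
  `y₂ := n' y₁ - w - d t'` is killed by `p` and `d y₂ = n' z`; `z = d (a' y₂)`.
-/

set_option autoImplicit false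
set_option linter.unusedSectionVars false

noncomputable section

namespace Fermat.Agent.TW.E

open CategoryTheory groupCohomology Fermat.Agent.PT Fermat.Agent.PT.F Fermat.Agent.PT.F.ExactH2

section General

variable {G : Type} [Group G]

/-- if `p z = 0` and `a n ≡ 1 mod p` then `(a n) z = z` -/
lemma mu3_nsmul_eq_self {A : Type} [AddCommGroup A] {p : ℕ} {x : A} (hx : p • x = 0) {k : ℕ}
    (hk : k % p = 1 % p) : k • x = x := by
  have h1 : k = p * (k / p) + k % p := (Nat.div_add_mod k p).symm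
  have h2 : (1 : ℕ) = p * (1 / p) + 1 % p := (Nat.div_add_mod 1 p).symm
  have h3 : k • x = (k % p) • x := by
    conv_lhs => rw [h1]
    rw [add_smul, mul_comm, mul_smul, hx, smul_zero, zero_add]
  have h4 : (1 : ℕ) • x = (1 % p) • x := by
    conv_lhs => rw [h2]
    rw [add_smul, mul_comm, mul_smul, hx, smul_zero, zero_add]
  rw [h3, hk, ← h4, one_smul]

/-- an inverse of `n` modulo the prime `p` -/
lemma mu3_exists_inv {p : ℕ} (hp : p.Prime) (n : ℕ) (hn : ¬ p ∣ n) :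
    ∃ a : ℕ, (a * n) % p = 1 % p := by
  have : Fact p.Prime := ⟨hp⟩
  have hne : (n : ZMod p) ≠ 0 := by
    rw [Ne, ZMod.natCast_eq_zero_iff]
    exact hn
  refine ⟨((n : ZMod p)⁻¹).val, ?_⟩
  apply (ZMod.natCast_eq_natCast_iff' _ _ _).mp
  rw [Nat.cast_mul, ZMod.natCast_zmod_val, inv_mul_cancel₀ hne, Nat.cast_one]

lemma mu3_dTwo_apply_nsmul (M Y : Rep.{0} ℤ G) (n : ℕ) (y : G × G → (M.V →+ Y.V))
    (s : G × G × G) : dTwo M Y (fun s => n • y s) s = n • dTwo M Y y s :=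
  e3_dTwo_nsmul M Y n y s

end General

/-- **A7 (Mu3)** from the pieces of block E-add. -/
theorem stmtMu3_of (hJ3 : StmtJ3) (hJ2 : StmtJ2Div) (hC2 : StmtC2SurjPerm) (hIn1 : StmtIn1Perm)
    (hE3 : StmtE3) (hE2 : StmtE2Div) : StmtMu3 := by
  intro p _ G _ ι _ _ Gloc _ D hdepth Ω _ _ hΩ htrans hcard z hzlev hzcoc hzp
  have hp : p.Prime := Fact.out
  have h5 : In5 D (permZ G Ω) := hJ3 p G ι Gloc D Ω hΩ
  have h6 : In6 D (permZ G Ω) := hJ2 p G ι Gloc D hdepth Ω hΩ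
  obtain ⟨h7, h7p⟩ := hC2 p G ι Gloc D hdepth Ω hΩ htrans hcard
  have h1 : In1 D (permZ G Ω) := hIn1 p G ι Gloc D Ω hΩ
  -- (E3): `n z = d y`
  obtain ⟨n, hn, y, hylev, hy⟩ := hE3 p G ι Gloc D Ω hΩ h5 h7 z hzlev hzcoc hzp
  obtain ⟨a, ha⟩ := mu3_exists_inv hp n hn
  -- `y₁ = a y`, `d y₁ = z`
  have hy₁lev : IsLevel₂ D.𝒯 (fun s => a • y s) := hylev.comp (fun h => a • h)
  have hy₁ : ∀ s, dTwo (permZ G Ω) D.E (fun s => a • y s) s = z s := by
    intro s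
    rw [e3_dTwo_nsmul, ← hy s, ← mul_smul]
    exact mu3_nsmul_eq_self (hzp s) ha
  -- `p y₁` is a level 2-cocycle
  have hpy₁lev : IsLevel₂ D.𝒯 (fun s => p • (a • y s)) := hy₁lev.comp (fun h => p • h)
  have hpy₁coc : ∀ s, dTwo (permZ G Ω) D.E (fun s => p • (a • y s)) s = 0 := by
    intro s
    rw [e3_dTwo_nsmul (permZ G Ω) D.E p (fun s => a • y s), hy₁ s, hzp s]
  -- (E2Div): `n' p y₁ = p w + d t`
  obtain ⟨n', hn', w, hwlev, hwcoc, t, htlev, ht⟩ :=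
    hE2 p G ι Gloc D Ω hΩ h1 h6 h7p (fun s => p • (a • y s)) hpy₁lev hpy₁coc
  -- `t = p t'`
  have hdiv : ∀ c : (permZ G Ω).V →+ D.E.V, ∃ c' : (permZ G Ω).V →+ D.E.V, p • c' = c := by
    intro c
    choose x hx using fun ω : Ω => D.E_div (c (MonoidAlgebra.single ω 1))
    refine ⟨e3_lift (G := G) Ω x, e3_ext Ω _ _ fun ω => ?_⟩
    rw [AddMonoidHom.nsmul_apply, e3_lift_single, one_zsmul, hx]
  choose Dv hDv using hdiv
  have ht'lev : IsLevel₁ D.𝒯 (fun σ => Dv (t σ)) := htlev.comp Dv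
  have hdt'lev : IsLevel₂ D.𝒯 (dOne (permZ G Ω) D.E (fun σ => Dv (t σ))) :=
    e3_isLevel₂_dOne Ω hΩ D.E_discrete _ ht'lev
  have hpdt' : ∀ s, p • dOne (permZ G Ω) D.E (fun σ => Dv (t σ)) s = dOne (permZ G Ω) D.E t s := by
    intro s
    rw [← dOne_nsmul]
    congr 1
    funext σ
    exact hDv (t σ)
  -- `y₂ = n' y₁ - w - d t'`
  set y₂ : G × G → ((permZ G Ω).V →+ D.E.V) :=
    fun s => n' • (a • y s) - w s - dOne (permZ G Ω) D.E (fun σ => Dv (t σ)) s with hy₂def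
  have hy₂lev : IsLevel₂ D.𝒯 y₂ := by
    obtain ⟨U₁, hU₁, h₁⟩ := hy₁lev
    obtain ⟨U₂, hU₂, h₂⟩ := hwlev
    obtain ⟨U₃, hU₃, h₃⟩ := hdt'lev
    refine ⟨(U₁ ⊓ U₂) ⊓ U₃, D.𝒯.inf_mem _ _ (D.𝒯.inf_mem _ _ hU₁ hU₂) hU₃,
      fun g g' s s' hs hs' => ?_⟩
    simp only [hy₂def]
    have e1 := h₁ g g' s s' hs.1.1 hs'.1.1
    simp only at e1
    rw [e1, h₂ g g' s s' hs.1.2 hs'.1.2, h₃ g g' s s' hs.2 hs'.2]
  have hy₂p : ∀ s, p • y₂ s = 0 := by
    intro s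
    have e := ht s
    simp only [hy₂def, smul_sub]
    rw [hpdt' s, smul_comm p n' (a • y s), e]
    abel
  have hy₂d : ∀ s, dTwo (permZ G Ω) D.E y₂ s = n' • z s := by
    intro s
    rw [hy₂def, e3_dTwo_sub (permZ G Ω) D.E (fun s => n' • (a • y s) - w s),
      e3_dTwo_sub (permZ G Ω) D.E (fun s => n' • (a • y s)),
      e3_dTwo_nsmul (permZ G Ω) D.E n' (fun s => a • y s), hy₁ s, hwcoc s, e3_dTwo_dOne,
      sub_zero, sub_zero]
  -- the result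
  obtain ⟨a', ha'⟩ := mu3_exists_inv hp n' hn'
  refine ⟨fun s => a' • y₂ s, hy₂lev.comp (fun h => a' • h), fun s => ?_, fun s => ?_⟩
  · rw [smul_comm, hy₂p s, smul_zero]
  · rw [e3_dTwo_nsmul, hy₂d s, ← mul_smul]
    exact (mu3_nsmul_eq_self (hzp s) ha').symm

/-- **A7 (Mu3)**, with `stmtE3` plugged in. -/
theorem stmtMu3_of' (hJ3 : StmtJ3) (hJ2 : StmtJ2Div) (hC2 : StmtC2SurjPerm) (hIn1 : StmtIn1Perm)
    (hE2 : StmtE2Div) : StmtMu3 :=
  stmtMu3_of hJ3 hJ2 hC2 hIn1 stmtE3 hE2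

end Fermat.Agent.TW.E

end


end ZBTW_042_1

/-! ### bundled: `Fermat.Agent.TW.E.H2FinPermAux` -/
section ZBTW_042_2
/-
TW-E / A9-PERM (helper15), part 3a: auxiliary facts on `ℤ[Ω]` and the chase
"locally a coboundary in `Hom(ℤ[Ω], J_v)` ⇒ `κ ∘ w = d s'` in `Hom(ℤ[Ω], E)`" (In2, In1).
-/

set_option autoImplicit false
set_option linter.unusedSectionVars false
set_option linter.style.haveILetI false

noncomputable section

namespace Fermat.Agent.TW.E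

open CategoryTheory groupCohomology Module Fermat.Agent.PT Fermat.Agent.PT.F Fermat.Agent.TW.F
open Fermat.Agent.PT.F.ExactH2

attribute [local instance 1100] Rep.hV2

section Perm

variable {G : Type} [Group G] (Ω : Type) [MulAction G Ω]

/-- an element acting trivially on `Ω` acts trivially on `ℤ[Ω]` -/
lemma eh2f_ρ_eq_self (s : G) (hs : ∀ ω : Ω, s • ω = ω) (m : (permZ G Ω).V) :
    (permZ G Ω).ρ s m = m := by
  have h : (actAdd (permZ G Ω) s) = AddMonoidHom.id _ := by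
    apply chl_ext
    intro ω
    rw [actAdd_apply, chl_ρ_single, hs]
    rfl
  exact DFunLike.congr_fun h m

lemma eh2f_isLevTriv {𝒯 : Tower G} (hΩ : IsLevSet 𝒯 Ω) : IsLevTriv 𝒯 (permZ G Ω) := by
  obtain ⟨U, hU, h⟩ := hΩ
  exact ⟨U, hU, fun s hs m => eh2f_ρ_eq_self Ω s (h s hs) m⟩

/-- a `ℤ`-basis of `ℤ[Ω]` in the form used by `StmtIn2b` -/
lemma eh2f_basis [Fintype Ω] : ∃ (n : ℕ) (b : Fin n → (permZ G Ω).V),
    ∀ (Y : Type) [AddCommGroup Y] (f : Fin n → Y),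
      ∃! h : (permZ G Ω).V →+ Y, ∀ j, h (b j) = f j := by
  classical
  let e : Ω ≃ Fin (Fintype.card Ω) := Fintype.equivFin Ω
  refine ⟨Fintype.card Ω, fun j => MonoidAlgebra.single (e.symm j) 1, fun Y _ f => ?_⟩
  refine ⟨chl_lift Ω (fun ω => f (e ω)), fun j => ?_, fun h hh => ?_⟩
  · show chl_lift Ω (fun ω => f (e ω)) (MonoidAlgebra.single (e.symm j) 1) = f j
    rw [chl_lift_single, one_smul, Equiv.apply_symm_apply]
  · apply chl_ext
    intro ω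
    rw [chl_lift_single, one_smul]
    have := hh (e ω)
    simp only [Equiv.symm_apply_apply] at this
    exact this

/-- `ℤ[Ω] ≃+ ℤ^{|Ω|}` -/
lemma eh2f_equivFin [Fintype Ω] :
    Nonempty ((permZ G Ω).V ≃+ (Fin (Fintype.card Ω) → ℤ)) := by
  classical
  exact ⟨((MonoidAlgebra.coeffAddEquiv (R := ℤ) (M := Ω)).trans
    (Finsupp.linearEquivFunOnFinite ℤ ℤ Ω).toAddEquiv).trans
    (LinearEquiv.funCongrLeft ℤ ℤ (Fintype.equivFin Ω).symm).toAddEquiv⟩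

end Perm

section Chase

variable {p : ℕ} [Fact p.Prime] {G : Type} [Group G] {ι : Type} [Fintype ι] {Gloc : ι → Type}
  [∀ v, Group (Gloc v)] (D : PTDatum p G ι Gloc) (Ω : Type) [Fintype Ω] [MulAction G Ω]

/-- `In2` holds for `ℤ[Ω]` -/
lemma eh2f_in2 (hΩ : IsLevSet D.𝒯 Ω) : In2 D (permZ G Ω) :=
  SeqInW.in2_of D _ (stmtIn2a p G ι Gloc D _ (eh2f_isLevTriv Ω hΩ)) (fun v z hz ht =>
    stmtIn2b p G ι Gloc D _ (eh2f_isLevTriv Ω hΩ) (eh2f_basis Ω) v z hz ht)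

/-- the local cochain attached to a 2-cochain of `Fun(Ω, μ_p)` -/
def eh2fLoc (v : ι) (w : G × G → (eh2fTw D.χ Ω).V) :
    Gloc v × Gloc v → ((permZ G Ω).V →+ (D.Jloc v).V) :=
  fun dd => (jAdd D v).comp (eh2fKap D Ω (w (D.r v dd.1, D.r v dd.2)))

lemma jAdd_comp_dTwo' (M : Rep.{0} ℤ G) (v : ι) (y : G × G → (M.V →+ D.E.V))
    (s : Gloc v × Gloc v × Gloc v) :
    (jAdd D v).comp (dTwo M D.E y (D.r v s.1, D.r v s.2.1, D.r v s.2.2)) =
      dTwo (Rep.res (D.r v) M) (D.Jloc v)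
        (fun dd => (jAdd D v).comp (y (D.r v dd.1, D.r v dd.2))) s := by
  obtain ⟨d, d', d''⟩ := s
  simp only [dTwo, AddMonoidHom.comp_add, AddMonoidHom.comp_sub, jAdd_comp_conjAdd, map_mul]

/-- **The chase**: a level 2-cocycle `w` of `Fun(Ω, μ_p)` which is locally a level coboundary
in `Hom(ℤ[Ω], J_v)` for all `v` satisfies `κ ∘ w = d s'`, `s'` a level 1-cochain of
`Hom(ℤ[Ω], E)`. -/
theorem eh2f_chase (hΩ : IsLevSet D.𝒯 Ω) (w : G × G → (eh2fTw D.χ Ω).V)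
    (hw : w ∈ levCocycles₂ D.𝒯 (eh2fTw D.χ Ω))
    (hloc : ∀ v, ∃ t : Gloc v → ((permZ G Ω).V →+ (D.Jloc v).V), IsLevel₁ (D.𝒯loc v) t ∧
      ∀ dd, eh2fLoc D Ω v w dd = dOne (Rep.res (D.r v) (permZ G Ω)) (D.Jloc v) t dd) :
    ∃ s' : G → ((permZ G Ω).V →+ D.E.V), IsLevel₁ D.𝒯 s' ∧
      ∀ στ, eh2fKap D Ω (w στ) = dOne (permZ G Ω) D.E s' στ := by
  have hp : p.Prime := Fact.out
  obtain ⟨hwc, hwl⟩ := (mem_levCocycles₂_iff D.𝒯 _ w).1 hw
  have hwd := (eh2f_mem_cocycles₂_iff D Ω w).1 hwc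
  -- In2
  obtain ⟨t, ht, hty⟩ := eh2f_in2 D Ω hΩ
    (fun στ => (homAdd D.i).comp (eh2fKap D Ω (w στ)))
    ((hwl.comp (fun a => (homAdd D.i).comp (eh2fKap D Ω a)) :))
    (fun σ τ ρ => by
      have h1 := congrArg (fun h => (homAdd D.i).comp h) (hwd (σ, τ, ρ))
      simp only [dTwo, AddMonoidHom.comp_add, AddMonoidHom.comp_sub,
        AddMonoidHom.comp_zero] at h1
      rw [comp_conjAdd] at h1
      exact h1)
    (fun στ => by
      rw [← chl_comp_nsmul, eh2fKap_p, AddMonoidHom.comp_zero])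
    (fun v => by
      obtain ⟨tv, htv, htvw⟩ := hloc v
      refine ⟨tv, htv, fun dd => ?_⟩
      rw [← htvw dd]
      show (ev D v).comp ((homAdd D.i).comp (eh2fKap D Ω (w (D.r v dd.1, D.r v dd.2)))) = _
      rw [← AddMonoidHom.comp_assoc, ev_comp_i]
      rfl)
  -- In1
  obtain ⟨n, hn, c₀, hc₀⟩ := stmtIn1Perm p G ι Gloc D Ω hΩ
    (fun σ => (homAdd D.π).comp (t σ)) ((ht.comp (fun h => (homAdd D.π).comp h) :))
    (fun στ => by
      rw [← comp_dOne, ← hty, ← AddMonoidHom.comp_assoc, pi_comp_i, AddMonoidHom.zero_comp])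
  obtain ⟨t₀, ht₀⟩ := chl_exists_lift_pi₀ D Ω c₀
  set u : G → ((permZ G Ω).V →+ (PTJ D).V) :=
    fun σ => n • t σ - dZero (permZ G Ω) (PTJ D) t₀ σ with hu
  have hπu : ∀ σ, (homAdd D.π).comp (u σ) = 0 := by
    intro σ
    rw [hu]
    beta_reduce
    rw [AddMonoidHom.comp_sub, comp_dZero, ht₀, ← hc₀ σ, chl_comp_nsmul, sub_self]
  have hul : IsLevel₁ D.𝒯 u :=
    chl_isLevel₁_sub (chl_isLevel₁_nsmul n ht) (chl_isLevel₁_dZero hΩ (ptj_isDiscrete D) t₀)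
  obtain ⟨y, hy, hyu⟩ := chl_exists_lift_i₁ D u hul hπu
  have hdy : ∀ στ, dOne (permZ G Ω) D.E y στ = n • eh2fKap D Ω (w στ) := by
    intro στ
    apply i_comp_injective (D := D)
    rw [comp_dOne]
    have h1 : (fun σ => (homAdd D.i).comp (y σ)) = u := funext hyu
    rw [h1, hu, dOne_sub, dOne_nsmul, dOne_dZero, sub_zero, ← hty, chl_comp_nsmul]
  obtain ⟨a, ha⟩ := mu3_exists_inv hp n hn
  refine ⟨fun σ => a • y σ, chl_isLevel₁_nsmul a hy, fun στ => ?_⟩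
  rw [dOne_nsmul, hdy, ← mul_smul]
  exact (mu3_nsmul_eq_self (eh2fKap_p D Ω (w στ)) ha).symm

end Chase

end Fermat.Agent.TW.E

end


end ZBTW_042_2

/-! ### bundled: `Fermat.Agent.TW.E.J3Local` -/
section ZBTW_042_3
/-
Project TW (S56) — part TW-E, piece A3 (helper87), file 4: the LOCAL input of `StmtJ3`.

`r : H → G` a homomorphism, `U` a normal subgroup of `G` acting trivially on the finite `G`-set `Ω`,
`V = r⁻¹ U`, `Y₀` an `H`-module such that `Y₀^V` has a `p`-fundamental class for `H ⧸ V` (finite).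
Then every right-`V`-invariant 3-cocycle `H³ → Hom_ℤ(ℤ[Ω], Y₀)` killed by `p` is the coboundary of
a 2-cochain defined at level `V` (`j3_local`).
-/

set_option autoImplicit false
set_option linter.unusedSectionVars false
set_option linter.unusedVariables false
set_option linter.style.haveILetI false

noncomputable section

namespace Fermat.Agent.TW.E

open CategoryTheory groupCohomology Fermat.Agent.PT Fermat.Agent.PT.F

attribute [local instance 1100] Rep.hV2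

/-! ### Transfer of "no `p`-torsion in `H³`" along a retraction -/

theorem j3_noPTors_of_retract {Γ : Type} [Group Γ] {A B : Rep.{0} ℤ Γ} (f : A ⟶ B) (g : B ⟶ A)
    (hfg : f ≫ g = 𝟙 A) (p : ℕ) (hB : ∀ x : groupCohomology B 3, IsPTors p x → x = 0) :
    ∀ x : groupCohomology A 3, IsPTors p x → x = 0 := by
  rintro x ⟨k, hk⟩
  have h1 : (groupCohomology.map (MonoidHom.id Γ) f 3).hom x = 0 :=
    hB _ ⟨k, by rw [← map_nsmul, hk, map_zero]⟩
  have h2 : groupCohomology.map (MonoidHom.id Γ) f 3 ≫ groupCohomology.map (MonoidHom.id Γ) g 3 =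
      𝟙 _ := by
    rw [← groupCohomology.map_id_comp, hfg, groupCohomology.map_id]
  have h3 := congrArg (fun φ => φ.hom x) h2
  simp only [ModuleCat.hom_comp, LinearMap.comp_apply, ModuleCat.hom_id, LinearMap.id_apply] at h3
  rw [← h3, h1, map_zero]

section Quot

variable {G H : Type} [Group G] [Group H] (r : H →* G) (U : Subgroup G) [U.Normal]
  (Ω : Type) [MulAction G Ω] (hΩ : ∀ s ∈ U, ∀ ω : Ω, s • ω = ω)

/-- the homomorphism `H ⧸ r⁻¹U → Perm Ω` -/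
def j3_quotHom : H ⧸ (U.comap r) →* Equiv.Perm Ω :=
  QuotientGroup.lift (U.comap r) ((MulAction.toPermHom G Ω).comp r) (fun s hs => by
    ext ω
    exact hΩ (r s) hs ω)

/-- the action of `H ⧸ r⁻¹U` on `Ω` -/
@[reducible] def j3_quotAction : MulAction (H ⧸ (U.comap r)) Ω :=
  MulAction.compHom Ω (j3_quotHom r U Ω hΩ)

lemma j3_quot_smul (d : H) (ω : Ω) :
    (letI := j3_quotAction r U Ω hΩ; ((d : H ⧸ (U.comap r)) • ω)) = (r d) • ω := rfl

/-- `ℤ[Ω]` as a module over `H ⧸ r⁻¹U` -/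
abbrev j3_Mbar : Rep.{0} ℤ (H ⧸ (U.comap r)) :=
  @Rep.ofMulAction ℤ (H ⧸ (U.comap r)) _ _ Ω (j3_quotAction r U Ω hΩ)

/-- `ℤ[Ω]` as a module over `H` -/
abbrev j3_M : Rep.{0} ℤ H := Rep.res r (permZ G Ω)

lemma j3_Mbar_ρ_single (d : H) (ω : Ω) (n : ℤ) :
    (j3_Mbar r U Ω hΩ).ρ (d : H ⧸ (U.comap r)) (MonoidAlgebra.single ω n) =
      MonoidAlgebra.single ((r d) • ω) n := by
  letI := j3_quotAction r U Ω hΩ
  exact Representation.ofMulAction_single (d : H ⧸ (U.comap r)) ω n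

lemma j3_M_ρ_single (d : H) (ω : Ω) (n : ℤ) :
    (j3_M r Ω).ρ d (MonoidAlgebra.single ω n) = MonoidAlgebra.single ((r d) • ω) n :=
  Representation.ofMulAction_single (r d) ω n

lemma j3_Mbar_ρ (d : H) (m : MonoidAlgebra ℤ Ω) :
    (j3_Mbar r U Ω hΩ).ρ (d : H ⧸ (U.comap r)) m = (j3_M r Ω).ρ d m := by
  have h := e3_ext (G := G) Ω
    (((j3_Mbar r U Ω hΩ).ρ (d : H ⧸ (U.comap r))).toAddMonoidHom)
    (((j3_M r Ω).ρ d).toAddMonoidHom) (fun ω => by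
      show (j3_Mbar r U Ω hΩ).ρ (d : H ⧸ (U.comap r)) (MonoidAlgebra.single ω 1) =
        (j3_M r Ω).ρ d (MonoidAlgebra.single ω 1)
      rw [j3_Mbar_ρ_single, j3_M_ρ_single])
  exact DFunLike.congr_fun h m

include hΩ in
lemma j3_M_triv (s : H) (hs : s ∈ U.comap r) (m : MonoidAlgebra ℤ Ω) :
    (j3_M r Ω).ρ s m = m := by
  have h := e3_ext (G := G) Ω (((j3_M r Ω).ρ s).toAddMonoidHom)
    (AddMonoidHom.id _) (fun ω => by
      show (j3_M r Ω).ρ s (MonoidAlgebra.single ω 1) = MonoidAlgebra.single ω 1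
      rw [j3_M_ρ_single, hΩ (r s) hs ω])
  exact DFunLike.congr_fun h m

/-! ### The retraction `Hom(ℤ[Ω], Y₀)^V → Hom(ℤ[Ω], Y₀^V)` -/

variable (Y₀ : Rep.{0} ℤ H)

/-- `X = Hom_ℤ(ℤ[Ω], Y₀)` as an `H`-module -/
abbrev j3_X : Rep.{0} ℤ H := homRep (j3_M r Ω) Y₀

/-- `A = Hom_ℤ(ℤ[Ω], Y₀^V)` as an `H ⧸ V`-module -/
abbrev j3_A : Rep.{0} ℤ (H ⧸ (U.comap r)) :=
  homRep (j3_Mbar r U Ω hΩ) (Y₀.quotientToInvariants (U.comap r))

include hΩ in
lemma j3_inv_val (x : ((j3_X r Ω Y₀).quotientToInvariants (U.comap r)).V)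
    (m : MonoidAlgebra ℤ Ω) (s : ↥(U.comap r)) :
    Y₀.ρ (s : H) ((x.1 : MonoidAlgebra ℤ Ω →+ Y₀.V) m) = (x.1 : MonoidAlgebra ℤ Ω →+ Y₀.V) m := by
  have h1 : (j3_X r Ω Y₀).ρ (s : H) x.1 = x.1 := x.2 s
  have h2 := DFunLike.congr_fun h1 m
  have h3 : ((j3_X r Ω Y₀).ρ (s : H) x.1 : MonoidAlgebra ℤ Ω →+ Y₀.V) m =
      Y₀.ρ (s : H) ((x.1 : MonoidAlgebra ℤ Ω →+ Y₀.V) ((j3_M r Ω).ρ (s : H)⁻¹ m)) := rfl
  rw [h3, j3_M_triv r U Ω hΩ _ ((U.comap r).inv_mem s.2)] at h2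
  exact h2

/-- `x ↦ (m ↦ x m)`, values viewed in `Y₀^V` -/
def j3_fAdd : ((j3_X r Ω Y₀).quotientToInvariants (U.comap r)).V →+ (j3_A r U Ω hΩ Y₀).V where
  toFun x :=
    { toFun := fun m => ⟨(x.1 : MonoidAlgebra ℤ Ω →+ Y₀.V) m, fun s => j3_inv_val r U Ω hΩ Y₀ x m s⟩
      map_zero' := Subtype.ext (map_zero (x.1 : MonoidAlgebra ℤ Ω →+ Y₀.V))
      map_add' := fun m m' => Subtype.ext (map_add (x.1 : MonoidAlgebra ℤ Ω →+ Y₀.V) m m') }
  map_zero' := by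
    apply AddMonoidHom.ext
    intro m
    rfl
  map_add' x x' := by
    apply AddMonoidHom.ext
    intro m
    rfl

lemma j3_fAdd_apply (x : ((j3_X r Ω Y₀).quotientToInvariants (U.comap r)).V)
    (m : MonoidAlgebra ℤ Ω) :
    (((j3_fAdd r U Ω hΩ Y₀ x : MonoidAlgebra ℤ Ω →+ (Y₀.quotientToInvariants (U.comap r)).V) m).1
      : Y₀.V) = (x.1 : MonoidAlgebra ℤ Ω →+ Y₀.V) m := rfl

/-- the additive map `m ↦ (k m).1` -/
def j3_gVal (k : (j3_A r U Ω hΩ Y₀).V) : MonoidAlgebra ℤ Ω →+ Y₀.V where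
  toFun m := ((k : MonoidAlgebra ℤ Ω →+ (Y₀.quotientToInvariants (U.comap r)).V) m).1
  map_zero' := by
    rw [map_zero]
    rfl
  map_add' m m' := by
    rw [map_add]
    rfl

include hΩ in
lemma j3_gVal_inv (k : (j3_A r U Ω hΩ Y₀).V) (s : ↥(U.comap r)) :
    (j3_X r Ω Y₀).ρ (s : H) (j3_gVal r U Ω hΩ Y₀ k) = j3_gVal r U Ω hΩ Y₀ k := by
  apply AddMonoidHom.ext
  intro m
  show Y₀.ρ (s : H) (j3_gVal r U Ω hΩ Y₀ k ((j3_M r Ω).ρ (s : H)⁻¹ m)) = j3_gVal r U Ω hΩ Y₀ k m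
  rw [j3_M_triv r U Ω hΩ _ ((U.comap r).inv_mem s.2)]
  exact ((k : MonoidAlgebra ℤ Ω →+ (Y₀.quotientToInvariants (U.comap r)).V) m).2 s

/-- `k ↦ (m ↦ (k m).1)` -/
def j3_gAdd : (j3_A r U Ω hΩ Y₀).V →+ ((j3_X r Ω Y₀).quotientToInvariants (U.comap r)).V where
  toFun k := ⟨j3_gVal r U Ω hΩ Y₀ k, fun s => j3_gVal_inv r U Ω hΩ Y₀ k s⟩
  map_zero' := by
    apply Subtype.ext
    apply AddMonoidHom.ext
    intro m
    rfl
  map_add' k k' := by
    apply Subtype.ext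
    apply AddMonoidHom.ext
    intro m
    rfl

lemma j3_fAdd_comm (q : H ⧸ (U.comap r))
    (x : ((j3_X r Ω Y₀).quotientToInvariants (U.comap r)).V) :
    j3_fAdd r U Ω hΩ Y₀ (((j3_X r Ω Y₀).quotientToInvariants (U.comap r)).ρ q x) =
      (j3_A r U Ω hΩ Y₀).ρ q (j3_fAdd r U Ω hΩ Y₀ x) := by
  obtain ⟨d, rfl⟩ := QuotientGroup.mk_surjective q
  apply AddMonoidHom.ext
  intro m
  apply Subtype.ext
  show Y₀.ρ d ((x.1 : MonoidAlgebra ℤ Ω →+ Y₀.V) ((j3_M r Ω).ρ d⁻¹ m)) =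
    Y₀.ρ d ((x.1 : MonoidAlgebra ℤ Ω →+ Y₀.V)
      ((j3_Mbar r U Ω hΩ).ρ ((d : H ⧸ (U.comap r)))⁻¹ m))
  have h : ((d : H ⧸ (U.comap r)))⁻¹ = ((d⁻¹ : H) : H ⧸ (U.comap r)) := rfl
  rw [h, j3_Mbar_ρ]

lemma j3_gAdd_comm (q : H ⧸ (U.comap r)) (k : (j3_A r U Ω hΩ Y₀).V) :
    j3_gAdd r U Ω hΩ Y₀ ((j3_A r U Ω hΩ Y₀).ρ q k) =
      ((j3_X r Ω Y₀).quotientToInvariants (U.comap r)).ρ q (j3_gAdd r U Ω hΩ Y₀ k) := by
  obtain ⟨d, rfl⟩ := QuotientGroup.mk_surjective q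
  apply Subtype.ext
  apply AddMonoidHom.ext
  intro m
  show Y₀.ρ d (((k : MonoidAlgebra ℤ Ω →+ (Y₀.quotientToInvariants (U.comap r)).V)
      ((j3_Mbar r U Ω hΩ).ρ ((d : H ⧸ (U.comap r)))⁻¹ m)).1) =
    Y₀.ρ d (((k : MonoidAlgebra ℤ Ω →+ (Y₀.quotientToInvariants (U.comap r)).V)
      ((j3_M r Ω).ρ d⁻¹ m)).1)
  have h : ((d : H ⧸ (U.comap r)))⁻¹ = ((d⁻¹ : H) : H ⧸ (U.comap r)) := rfl
  rw [h, j3_Mbar_ρ]

include hΩ in
/-- **local vanishing**: `H³(H ⧸ V, Hom(ℤ[Ω], Y₀)^V)` has no `p`-torsion. -/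
theorem j3_local_noPTors (hperm : StmtH3FundPerm) (p : ℕ) [Fact p.Prime] [Fintype Ω]
    [Finite (H ⧸ (U.comap r))]
    (u : H2 (Y₀.quotientToInvariants (U.comap r)))
    (hu : IsPFundClass p (Y₀.quotientToInvariants (U.comap r)) u) :
    ∀ x : groupCohomology ((j3_X r Ω Y₀).quotientToInvariants (U.comap r)) 3,
      IsPTors p x → x = 0 := by
  classical
  haveI : Fintype (H ⧸ (U.comap r)) := Fintype.ofFinite _
  have hA : ∀ x : groupCohomology (j3_A r U Ω hΩ Y₀) 3, IsPTors p x → x = 0 := by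
    letI := j3_quotAction r U Ω hΩ
    exact hperm p (H ⧸ (U.comap r)) (Y₀.quotientToInvariants (U.comap r)) u hu Ω
  refine j3_noPTors_of_retract
    (PT.F.mkHom (j3_fAdd r U Ω hΩ Y₀) (j3_fAdd_comm r U Ω hΩ Y₀))
    (PT.F.mkHom (j3_gAdd r U Ω hΩ Y₀) (j3_gAdd_comm r U Ω hΩ Y₀)) ?_ p hA
  apply Rep.hom_ext
  ext x m
  rfl

include hΩ in
/-- **The local input of J3.** -/
theorem j3_local (hperm : StmtH3FundPerm) (p : ℕ) [Fact p.Prime] [Fintype Ω]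
    [Finite (H ⧸ (U.comap r))]
    (u : H2 (Y₀.quotientToInvariants (U.comap r)))
    (hu : IsPFundClass p (Y₀.quotientToInvariants (U.comap r)) u)
    (z : H × H × H → (MonoidAlgebra ℤ Ω →+ Y₀.V))
    (hz : ∀ s, dThreeRep (j3_X r Ω Y₀) z s = 0) (hzU : RInv₃ (U.comap r) z)
    (hp : ∀ s, p • z s = 0) :
    ∃ y : H × H → (MonoidAlgebra ℤ Ω →+ Y₀.V), Desc₂ (j3_X r Ω Y₀) (U.comap r) y ∧
      ∀ s, z s = dTwoRep (j3_X r Ω Y₀) y s :=
  desc3_main p (j3_local_noPTors r U Ω hΩ Y₀ hperm p u hu) z hz hzU hp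

end Quot

end Fermat.Agent.TW.E

end
end ZBTW_042_3
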