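/- GENERATED FILE (helper35, build-time optimisation, NOTES/ZB.md): verbatim concatenation of the modules
   Fermat.Agent.TW.E.H2FinIdx
   Fermat.Agent.TW.E.H2FinPerm
   Fermat.Agent.TW.E.H2FinHalf
   Fermat.Agent.TW.E.H2FinFin
   Fermat.Agent.TW.E.H2FinAlg
   Fermat.Agent.TW.E.H2FinAsm
   Fermat.Agent.TW.E.H2FinFinal
   Do not edit; do not import together with these modules. -/
import Mathlib
import Fermat.Agent.ZB.TW_042
import Fermat.Agent.ZB.TW_041
import Fermat.Agent.ZB.PT_046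

/-! ### bundled: `Fermat.Agent.TW.E.H2FinIdx` -/
section ZBTW_043_0
/-
TW-E / A9 (helper15): finite index criteria for additive subgroups (pure algebra).
-/

set_option autoImplicit false

namespace Fermat.Agent.TW.E

/-- **Fiber criterion**: if a function `c : A → F` into a finite type separates the cosets of
`S` (`c x = c y → x - y ∈ S`), then `S` has finite index. -/
theorem eh2f_finiteIndex_of_fiber {A : Type*} [AddCommGroup A] (S : AddSubgroup A)
    {F : Type*} [Finite F] (c : A → F) (h : ∀ x y, c x = c y → x - y ∈ S) :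
    S.FiniteIndex := by
  have hinj : Function.Injective (fun q : A ⧸ S => c q.out) := by
    intro q q' hqq
    have h1 := h _ _ hqq
    rw [← QuotientAddGroup.out_eq' q, ← QuotientAddGroup.out_eq' q']
    rw [QuotientAddGroup.eq]
    have h2 : -Quotient.out q + Quotient.out q' = -(Quotient.out q - Quotient.out q') := by abel
    rw [h2]
    exact S.neg_mem h1
  have : Finite (A ⧸ S) := Finite.of_injective _ hinj
  exact AddSubgroup.finiteIndex_of_finite_quotient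

/-- **Pigeonhole criterion**: if among any `N + 1` elements of `A` two differ by an element of
`S`, then `S` has finite index. -/
theorem eh2f_finiteIndex_of_pigeonhole {A : Type*} [AddCommGroup A] (S : AddSubgroup A) (N : ℕ)
    (h : ∀ f : Fin (N + 1) → A, ∃ i j, i ≠ j ∧ f i - f j ∈ S) : S.FiniteIndex := by
  by_contra hS
  have hinf : Infinite (A ⧸ S) := by
    by_contra hfin
    rw [not_infinite_iff_finite] at hfin
    exact hS AddSubgroup.finiteIndex_of_finite_quotient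
  obtain ⟨g⟩ : Nonempty (Fin (N + 1) ↪ A ⧸ S) := ⟨(Fin.valEmbedding).trans (Infinite.natEmbedding _)⟩
  obtain ⟨i, j, hij, hS'⟩ := h (fun i => (g i).out)
  apply hij
  apply g.injective
  rw [← QuotientAddGroup.out_eq' (g i), ← QuotientAddGroup.out_eq' (g j), QuotientAddGroup.eq]
  have h2 : -Quotient.out (g i) + Quotient.out (g j) =
      -(Quotient.out (g i) - Quotient.out (g j)) := by abel
  rw [h2]
  exact S.neg_mem hS'

/-- transitivity of finite index -/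
theorem eh2f_finiteIndex_trans {A : Type*} [AddCommGroup A] (S K : AddSubgroup A) (hSK : S ≤ K)
    (hK : K.FiniteIndex) (hS : (S.addSubgroupOf K).FiniteIndex) : S.FiniteIndex := by
  refine ⟨?_⟩
  rw [← AddSubgroup.relIndex_mul_index hSK]
  exact mul_ne_zero hS.index_ne_zero hK.index_ne_zero

/-- a subgroup containing a subgroup of finite index has finite index -/
theorem eh2f_finiteIndex_mono {A : Type*} [AddCommGroup A] (S K : AddSubgroup A) (hSK : S ≤ K)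
    (hS : S.FiniteIndex) : K.FiniteIndex :=
  AddSubgroup.finiteIndex_of_le hSK

end Fermat.Agent.TW.E


end ZBTW_043_0

/-! ### bundled: `Fermat.Agent.TW.E.H2FinPerm` -/
section ZBTW_043_1
/-
TW-E / A9-PERM (helper15), part 3b: `stmtH2FinPerm_of : StmtH2LevFB → StmtTorsQuot → StmtH2FinPerm`,
`H²_lev(G, Fun(Ω, μ_p))` is finite for every finite level `G`-set `Ω`.

`Z ⊇ K₀ ⊇ B²`: `Z` = level 2-cocycles, `K₀` = those which are locally level coboundaries in
`Hom(ℤ[Ω], J_v)` for all `v` (finite index: `StmtH2LevFB` for `(G_v, 𝒯loc v, J_v)`), `B²` = level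
coboundaries (finite index in `K₀`: the chase and the class map to `T / pT`).
-/

set_option autoImplicit false
set_option linter.unusedSectionVars false
set_option linter.style.haveILetI false

noncomputable section

namespace Fermat.Agent.TW.E

open CategoryTheory groupCohomology Module Fermat.Agent.PT Fermat.Agent.PT.F Fermat.Agent.TW.F
open Fermat.Agent.PT.F.ExactH2

attribute [local instance 1100] Rep.hV2

section Main

variable {p : ℕ} [Fact p.Prime] {G : Type} [Group G] {ι : Type} [Fintype ι] {Gloc : ι → Type}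
  [∀ v, Group (Gloc v)] (D : PTDatum p G ι Gloc) (Ω : Type) [Fintype Ω] [MulAction G Ω]

/-- the group of level 2-cocycles of `Fun(Ω, μ_p)` -/
abbrev eh2fA : Type := ↥(levCocycles₂ D.𝒯 (eh2fTw D.χ Ω))

lemma eh2fLoc_add (v : ι) (w w' : G × G → (eh2fTw D.χ Ω).V) (dd : Gloc v × Gloc v) :
    eh2fLoc D Ω v (w + w') dd = eh2fLoc D Ω v w dd + eh2fLoc D Ω v w' dd := by
  show (jAdd D v).comp (eh2fKap D Ω (w _ + w' _)) = _
  rw [map_add, AddMonoidHom.comp_add]
  rfl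

lemma eh2fLoc_neg (v : ι) (w : G × G → (eh2fTw D.χ Ω).V) (dd : Gloc v × Gloc v) :
    eh2fLoc D Ω v (-w) dd = -eh2fLoc D Ω v w dd := by
  show (jAdd D v).comp (eh2fKap D Ω (-(w _))) = _
  rw [map_neg, chl_comp_neg]
  rfl

lemma eh2fLoc_sub (v : ι) (w w' : G × G → (eh2fTw D.χ Ω).V) (dd : Gloc v × Gloc v) :
    eh2fLoc D Ω v (w - w') dd = eh2fLoc D Ω v w dd - eh2fLoc D Ω v w' dd := by
  rw [sub_eq_add_neg, eh2fLoc_add, eh2fLoc_neg, ← sub_eq_add_neg]

lemma eh2fLoc_zero (v : ι) (dd : Gloc v × Gloc v) :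
    eh2fLoc D Ω v (0 : G × G → (eh2fTw D.χ Ω).V) dd = 0 := by
  show (jAdd D v).comp (eh2fKap D Ω 0) = _
  rw [map_zero, AddMonoidHom.comp_zero]

/-- the cocycles which are level coboundaries of `Hom(ℤ[Ω], J_v)` at `v` -/
def eh2fK (v : ι) : AddSubgroup (eh2fA D Ω) where
  carrier := {w | ∃ t : Gloc v → ((permZ G Ω).V →+ (D.Jloc v).V), IsLevel₁ (D.𝒯loc v) t ∧
    ∀ dd, eh2fLoc D Ω v w.1 dd = dOne (Rep.res (D.r v) (permZ G Ω)) (D.Jloc v) t dd}
  zero_mem' := ⟨0, isLevel₁_const (D.𝒯loc v) _, fun dd => by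
    rw [eh2f_dOne_zero]
    exact eh2fLoc_zero D Ω v dd⟩
  add_mem' := by
    rintro a b ⟨t, ht, hta⟩ ⟨t', ht', htb⟩
    refine ⟨fun d => t d + t' d, ht.add ht', fun dd => ?_⟩
    rw [chl_dOne_add, ← hta, ← htb]
    exact eh2fLoc_add D Ω v a.1 b.1 dd
  neg_mem' := by
    rintro a ⟨t, ht, hta⟩
    refine ⟨fun d => -t d, (ht.comp (fun h => -h) :), fun dd => ?_⟩
    rw [chl_dOne_neg, ← hta]
    exact eh2fLoc_neg D Ω v a.1 dd

lemma eh2f_loc_isLevTriv (hΩ : IsLevSet D.𝒯 Ω) (v : ι) :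
    IsLevTriv (D.𝒯loc v) (Rep.res (D.r v) (permZ G Ω)) := by
  obtain ⟨U, hU, h⟩ := hΩ
  exact ⟨U.comap (D.r v), D.comap_mem v U hU,
    fun s hs m => eh2f_ρ_eq_self Ω (D.r v s) (h _ hs) m⟩

/-- **Step A**: `K_v` has finite index (`StmtH2LevFB` for `(G_v, 𝒯loc v, J_v)`). -/
theorem eh2fK_finiteIndex (hLEV : StmtH2LevFB) (hΩ : IsLevSet D.𝒯 Ω) (v : ι) :
    (eh2fK D Ω v).FiniteIndex := by
  apply eh2f_finiteIndex_of_pigeonhole _ (p ^ Fintype.card Ω)
  intro f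
  have hdisc : IsDiscrete (D.𝒯loc v) (D.Jloc v) := D.Jloc_discrete v
  have hfund : HasPFund (D.𝒯loc v) (D.Jloc v) p := fun U _ hU => D.cm_loc v U hU
  have hequiv : Nonempty ((Rep.res (D.r v) (permZ G Ω)).V ≃+ (Fin (Fintype.card Ω) → ℤ)) :=
    eh2f_equivFin (G := G) Ω
  have hlev : ∀ i, IsLevel₂ (D.𝒯loc v) (eh2fLoc D Ω v (f i).1) := fun i =>
    ((IsLevel₂.precomp D.𝒯 (D.𝒯loc v) (D.r v) (D.comap_mem v) (f i).2.2).comp
      (fun a => (jAdd D v).comp (eh2fKap D Ω a)) :)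
  have hcoc : ∀ i s, dTwo (Rep.res (D.r v) (permZ G Ω)) (D.Jloc v)
      (eh2fLoc D Ω v (f i).1) s = 0 := fun i s => by
    have hwd := (eh2f_mem_cocycles₂_iff D Ω (f i).1).1 (f i).2.1
    have h1 := jAdd_comp_dTwo' D (permZ G Ω) v (fun x => eh2fKap D Ω ((f i).1 x)) s
    rw [hwd, AddMonoidHom.comp_zero] at h1
    exact h1.symm
  have hpt : ∀ i s, p • eh2fLoc D Ω v (f i).1 s = 0 := fun i s => by
    show p • (jAdd D v).comp (eh2fKap D Ω _) = 0
    rw [← chl_comp_nsmul, eh2fKap_p, AddMonoidHom.comp_zero]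
  obtain ⟨i, j, hij, t, ht, hty⟩ := hLEV p (Gloc v) (D.𝒯loc v) (D.Jloc v) hdisc hfund
    (Rep.res (D.r v) (permZ G Ω)) (Fintype.card Ω) (eh2f_loc_isLevTriv D Ω hΩ v) hequiv
    (fun i => eh2fLoc D Ω v (f i).1) hlev hcoc hpt
  refine ⟨i, j, hij, t, ht, fun dd => ?_⟩
  rw [← hty dd]
  exact eh2fLoc_sub D Ω v (f i).1 (f j).1 dd

/-- `K₀ = ⋂_v K_v` -/
def eh2fK0 : AddSubgroup (eh2fA D Ω) := ⨅ v, eh2fK D Ω v

theorem eh2fK0_finiteIndex (hLEV : StmtH2LevFB) (hΩ : IsLevSet D.𝒯 Ω) :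
    (eh2fK0 D Ω).FiniteIndex :=
  AddSubgroup.finiteIndex_iInf (fun v => eh2fK_finiteIndex D Ω hLEV hΩ v)

/-- the level coboundaries inside the level cocycles -/
def eh2fS : AddSubgroup (eh2fA D Ω) :=
  ((levCoboundaries₂ D.𝒯 (eh2fTw D.χ Ω)).comap
    (levCocycles₂ D.𝒯 (eh2fTw D.χ Ω)).subtype).toAddSubgroup

lemma eh2f_mem_S (w : eh2fA D Ω) :
    w ∈ eh2fS D Ω ↔ ∃ b : G → (eh2fTw D.χ Ω).V, IsLevel₁ D.𝒯 b ∧
      (d₁₂ (eh2fTw D.χ Ω)).hom b = w.1 :=
  mem_levCoboundaries₂_iff D.𝒯 _ _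

/-- **Step C**: `B² ⊆ K₀`. -/
theorem eh2fS_le_K0 : eh2fS D Ω ≤ eh2fK0 D Ω := by
  intro w hw
  obtain ⟨b, hb, hbw⟩ := (eh2f_mem_S D Ω w).1 hw
  rw [eh2fK0, AddSubgroup.mem_iInf]
  intro v
  refine ⟨fun d => (jAdd D v).comp (eh2fKap D Ω (b (D.r v d))),
    ((IsLevel₁.precomp D.𝒯 (D.𝒯loc v) (D.r v) (D.comap_mem v) hb).comp
      (fun a => (jAdd D v).comp (eh2fKap D Ω a)) :), fun dd => ?_⟩
  show (jAdd D v).comp (eh2fKap D Ω (w.1 (D.r v dd.1, D.r v dd.2))) = _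
  rw [← hbw, eh2fKap_d₁₂]
  exact jAdd_comp_dOne D (permZ G Ω) v (fun σ => eh2fKap D Ω (b σ)) dd

/-- **Step D**: `B²` has finite index in `K₀`. -/
theorem eh2fS_relFiniteIndex (hALG : StmtTorsQuot) (hΩ : IsLevSet D.𝒯 Ω) :
    ((eh2fS D Ω).addSubgroupOf (eh2fK0 D Ω)).FiniteIndex := by
  have hE : IsDiscrete D.𝒯 D.E := D.E_discrete
  obtain ⟨F, hF, cl, hcl⟩ := eh2f_exists_cl D Ω hALG hΩ
  have hch : ∀ w : ↥(eh2fK0 D Ω), ∃ s' : G → ((permZ G Ω).V →+ D.E.V), IsLevel₁ D.𝒯 s' ∧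
      ∀ στ, eh2fKap D Ω (w.1.1 στ) = dOne (permZ G Ω) D.E s' στ := fun w =>
    eh2f_chase D Ω hΩ w.1.1 w.1.2 (fun v => (AddSubgroup.mem_iInf.1 w.2 v))
  choose sW hsW1 hsW2 using hch
  have hz : ∀ w : ↥(eh2fK0 D Ω), (fun σ => p • sW w σ) ∈ eh2fZ1 D Ω := fun w =>
    ⟨chl_isLevel₁_nsmul p (hsW1 w), fun s => by
      rw [dOne_nsmul, ← hsW2 w, eh2fKap_p]⟩
  refine eh2f_finiteIndex_of_fiber _ (fun w => cl ⟨_, hz w⟩) (fun w w' hww => ?_)
  obtain ⟨c', h, hh⟩ := hcl _ _ hww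
  obtain ⟨h'', rfl⟩ := eh2f_hom_div D Ω h
  have hr : IsLevel₁ D.𝒯
      (fun σ => sW w σ - sW w' σ - c'.1 σ - dZero (permZ G Ω) D.E h'' σ) :=
    chl_isLevel₁_sub (chl_isLevel₁_sub (chl_isLevel₁_sub (hsW1 w) (hsW1 w')) c'.2.1)
      (chl_isLevel₁_dZero hΩ hE h'')
  obtain ⟨b, hb, hbr⟩ := eh2f_exists_kap₁ D Ω _ hr (fun σ => by
    have := hh σ
    simp only at this
    rw [smul_sub, smul_sub, smul_sub, this, ← dZero_nsmul]
    abel)
  rw [AddSubgroup.mem_addSubgroupOf, eh2f_mem_S]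
  refine ⟨b, hb, ?_⟩
  funext στ
  apply eh2fKap_injective D Ω
  rw [eh2fKap_d₁₂]
  have e1 : (fun σ => eh2fKap D Ω (b σ)) =
      fun σ => sW w σ - sW w' σ - c'.1 σ - dZero (permZ G Ω) D.E h'' σ := funext hbr
  rw [e1, dOne_sub, dOne_sub, dOne_sub, c'.2.2, dOne_dZero, sub_zero, sub_zero, ← hsW2 w,
    ← hsW2 w', ← map_sub]
  rfl

/-- **A9-PERM**. -/
theorem stmtH2FinPerm_of (hLEV : StmtH2LevFB) (hALG : StmtTorsQuot) : StmtH2FinPerm := by
  intro p _ G _ ι _ Gloc _ D Ω _ _ hΩ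
  have h1 : (eh2fS D Ω).FiniteIndex :=
    eh2f_finiteIndex_trans _ _ (eh2fS_le_K0 D Ω) (eh2fK0_finiteIndex D Ω hLEV hΩ)
      (eh2fS_relFiniteIndex D Ω hALG hΩ)
  have h2 : Finite (eh2fA D Ω ⧸ eh2fS D Ω) := AddSubgroup.finite_quotient_of_finiteIndex
  exact h2

end Main

end Fermat.Agent.TW.E

end


end ZBTW_043_1

/-! ### bundled: `Fermat.Agent.TW.E.H2FinHalf` -/
section ZBTW_043_2
/-
TW-E / A9-HALF (helper15): `stmtH2Half : StmtH2Half` — half-exactness of level cohomology at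
`H²_lev(B)` for `0 → B → 𝓜 → Q`, in the form: `H¹_lev(Q)` finite and `H²_lev(𝓜)` finite imply
`H²_lev(B)` finite.
-/

set_option autoImplicit false
set_option linter.unusedSectionVars false
set_option linter.style.haveILetI false

noncomputable section

namespace Fermat.Agent.TW.E

open CategoryTheory groupCohomology Module Fermat.Agent.PT Fermat.Agent.PT.F Fermat.Agent.TW.F

section Half

variable {p : ℕ} {G : Type} [Group G] (𝒯 : Tower G)

/-- post-composition with a `G`-map preserves 2-cocycles -/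
lemma eh2fh_comp_cocycles₂ {B 𝓜 : Rep.{0} (ZMod p) G} (e : B ⟶ 𝓜) {w : G × G → B.V}
    (hw : w ∈ cocycles₂ B) : (fun x => e.hom (w x)) ∈ cocycles₂ 𝓜 := by
  rw [mem_cocycles₂_iff] at hw ⊢
  intro g h j
  show e.hom (w (g * h, j)) + e.hom (w (g, h)) = 𝓜.ρ g (e.hom (w (h, j))) + e.hom (w (g, h * j))
  rw [← Rep.hom_comm_apply, ← map_add, ← map_add, hw g h j]

/-- post-composition with a `G`-map commutes with `d¹` -/
lemma eh2fh_comp_d₁₂ {B 𝓜 : Rep.{0} (ZMod p) G} (e : B ⟶ 𝓜) (b : G → B.V) :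
    (fun x => e.hom ((d₁₂ B).hom b x)) = (d₁₂ 𝓜).hom (fun σ => e.hom (b σ)) := by
  funext ⟨g, h⟩
  rw [d₁₂_hom_apply, d₁₂_hom_apply]
  show e.hom (B.ρ g (b h) - b (g * h) + b g) = _
  rw [map_add, map_sub, Rep.hom_comm_apply]

/-- post-composition with a `G`-map commutes with `d⁰` -/
lemma eh2fh_comp_d₀₁ {B 𝓜 : Rep.{0} (ZMod p) G} (e : B ⟶ 𝓜) (m : B.V) :
    (fun σ => e.hom ((d₀₁ B).hom m σ)) = (d₀₁ 𝓜).hom (e.hom m) := by
  funext g
  rw [d₀₁_hom_apply, d₀₁_hom_apply]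
  show e.hom (B.ρ g m - m) = _
  rw [map_sub, Rep.hom_comm_apply]

lemma eh2fh_d₁₂_d₀₁ (A : Rep.{0} (ZMod p) G) (m : A.V) :
    (d₁₂ A).hom ((d₀₁ A).hom m) = 0 := by
  funext ⟨g, h⟩
  rw [d₁₂_hom_apply]
  simp only [d₀₁_hom_apply, map_sub, map_mul, Module.End.mul_apply]
  show _ = (0 : A.V)
  abel

/-- `d⁰ m` is a level cochain when the module is trivial on a level -/
lemma eh2fh_isLevel₁_d₀₁ {A : Rep.{0} (ZMod p) G} (hA : TrivOnLevel 𝒯 A) (m : A.V) :
    IsLevel₁ 𝒯 ((d₀₁ A).hom m) := by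
  obtain ⟨U, hU, h⟩ := hA
  refine ⟨U, hU, fun g s hs => ?_⟩
  rw [d₀₁_hom_apply, d₀₁_hom_apply, map_mul, Module.End.mul_apply, h s hs, Module.End.one_apply]

variable (B : Rep.{0} (ZMod p) G)

/-- the level 2-cocycles -/
abbrev eh2fhA : Type := ↥(levCocycles₂ 𝒯 B)

/-- the level coboundaries inside the level cocycles -/
def eh2fhS : AddSubgroup (eh2fhA 𝒯 B) :=
  ((levCoboundaries₂ 𝒯 B).comap (levCocycles₂ 𝒯 B).subtype).toAddSubgroup

lemma eh2fh_mem_S (w : eh2fhA 𝒯 B) :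
    w ∈ eh2fhS 𝒯 B ↔ ∃ b : G → B.V, IsLevel₁ 𝒯 b ∧ (d₁₂ B).hom b = w.1 :=
  mem_levCoboundaries₂_iff 𝒯 _ _

variable {B} {𝓜 : Rep.{0} (ZMod p) G} (e : B ⟶ 𝓜)

/-- the cocycles of `B` which become level coboundaries in `𝓜` -/
def eh2fhK : AddSubgroup (eh2fhA 𝒯 B) where
  carrier := {w | (fun x => e.hom (w.1 x)) ∈ levCoboundaries₂ 𝒯 𝓜}
  zero_mem' := by
    show (fun x => e.hom ((0 : G × G → B.V) x)) ∈ levCoboundaries₂ 𝒯 𝓜
    have : (fun x => e.hom ((0 : G × G → B.V) x)) = 0 := by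
      funext x
      simp
    rw [this]
    exact Submodule.zero_mem _
  add_mem' := by
    intro a b ha hb
    have : (fun x => e.hom ((a + b).1 x)) =
        (fun x => e.hom (a.1 x)) + (fun x => e.hom (b.1 x)) := by
      funext x
      show e.hom (a.1 x + b.1 x) = _
      rw [map_add]
      rfl
    show (fun x => e.hom ((a + b).1 x)) ∈ levCoboundaries₂ 𝒯 𝓜
    rw [this]
    exact Submodule.add_mem _ ha hb
  neg_mem' := by
    intro a ha
    have : (fun x => e.hom ((-a).1 x)) = -(fun x => e.hom (a.1 x)) := by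
      funext x
      show e.hom (-(a.1 x)) = _
      rw [map_neg]
      rfl
    show (fun x => e.hom ((-a).1 x)) ∈ levCoboundaries₂ 𝒯 𝓜
    rw [this]
    exact Submodule.neg_mem _ ha

lemma eh2fh_mem_K (w : eh2fhA 𝒯 B) :
    w ∈ eh2fhK 𝒯 e ↔ (fun x => e.hom (w.1 x)) ∈ levCoboundaries₂ 𝒯 𝓜 := Iff.rfl

end Half

/-- **A9-HALF**. -/
theorem stmtH2Half : StmtH2Half := by
  intro p _ G _ 𝒯 B 𝓜 Q e q he hq hex h𝓜 hQ hM
  classical
  -- (1) `K` has finite index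
  have hmemZ : ∀ w : eh2fhA 𝒯 B, (fun x => e.hom (w.1 x)) ∈ levCocycles₂ 𝒯 𝓜 := fun w =>
    ⟨eh2fh_comp_cocycles₂ e w.2.1, (w.2.2.comp (fun b => e.hom b) :)⟩
  have hK : (eh2fhK 𝒯 e).FiniteIndex := by
    refine eh2f_finiteIndex_of_fiber _
      (fun w => levH2π 𝒯 𝓜 ⟨_, hmemZ w⟩) (fun w w' hww => ?_)
    rw [← sub_eq_zero, ← map_sub, levH2π_eq_zero_iff] at hww
    rw [eh2fh_mem_K]
    have : (fun x => e.hom ((w - w').1 x)) =
        ((⟨_, hmemZ w⟩ - ⟨_, hmemZ w'⟩ : ↥(levCocycles₂ 𝒯 𝓜)) : G × G → 𝓜.V) := by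
      funext x
      show e.hom (w.1 x - w'.1 x) = e.hom (w.1 x) - e.hom (w'.1 x)
      rw [map_sub]
    rw [this]
    exact hww
  -- (2) `S ≤ K`
  have hSK : eh2fhS 𝒯 B ≤ eh2fhK 𝒯 e := by
    intro w hw
    obtain ⟨b, hb, hbw⟩ := (eh2fh_mem_S 𝒯 B w).1 hw
    rw [eh2fh_mem_K, mem_levCoboundaries₂_iff]
    refine ⟨fun σ => e.hom (b σ), (hb.comp (fun b => e.hom b) :), ?_⟩
    rw [← eh2fh_comp_d₁₂, hbw]
  -- (3) `S` has finite index in `K`
  have hS : ((eh2fhS 𝒯 B).addSubgroupOf (eh2fhK 𝒯 e)).FiniteIndex := by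
    have hch : ∀ w : ↥(eh2fhK 𝒯 e), ∃ t : G → 𝓜.V, IsLevel₁ 𝒯 t ∧
        (d₁₂ 𝓜).hom t = fun x => e.hom (w.1.1 x) := fun w =>
      (mem_levCoboundaries₂_iff 𝒯 𝓜 _).1 w.2
    choose tW htW1 htW2 using hch
    have hqe : ∀ b : B.V, q.hom (e.hom b) = 0 := fun b => (hex _).2 ⟨b, rfl⟩
    have hcoc : ∀ w : ↥(eh2fhK 𝒯 e), (fun σ => q.hom (tW w σ)) ∈ cocycles₁ Q := by
      intro w
      rw [mem_cocycles₁_iff]
      intro g h
      have h1 := congrFun (htW2 w) (g, h)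
      rw [d₁₂_hom_apply] at h1
      have h2 := congrArg (fun y => q.hom y) h1
      simp only [hqe, map_add, map_sub, Rep.hom_comm_apply] at h2
      show q.hom (tW w (g * h)) = Q.ρ g (q.hom (tW w h)) + q.hom (tW w g)
      linear_combination (norm := abel) -h2
    refine eh2f_finiteIndex_of_fiber _
      (fun w => (⟨(H1π Q).hom ⟨_, hcoc w⟩, (mem_levH1_iff 𝒯 Q _).2
        ⟨⟨_, hcoc w⟩, ((htW1 w).comp (fun y => q.hom y) :), rfl⟩⟩ : ↥(levH1 𝒯 Q)))
      (fun w w' hww => ?_)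
    have h1 : (H1π Q).hom ⟨_, hcoc w⟩ = (H1π Q).hom ⟨_, hcoc w'⟩ := congrArg Subtype.val hww
    rw [H1π_eq_iff] at h1
    obtain ⟨x, hx⟩ := h1
    obtain ⟨m, rfl⟩ := hq x
    -- `u := t - t' - d⁰ m` has values in `B`
    have hu : ∀ σ, ∃ b : B.V, e.hom b = tW w σ - tW w' σ - (d₀₁ 𝓜).hom m σ := by
      intro σ
      apply (hex _).1
      have h2 : (d₀₁ Q).hom (q.hom m) σ = q.hom (tW w σ) - q.hom (tW w' σ) := congrFun hx σ
      have h3 := congrFun (eh2fh_comp_d₀₁ q m) σ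
      simp only at h3
      rw [map_sub, map_sub, h3, h2, sub_self]
    have hul : IsLevel₁ 𝒯 (fun σ => tW w σ - tW w' σ - (d₀₁ 𝓜).hom m σ) := by
      obtain ⟨U₁, hU₁, h₁⟩ := htW1 w
      obtain ⟨U₂, hU₂, h₂⟩ := htW1 w'
      obtain ⟨U₃, hU₃, h₃⟩ := eh2fh_isLevel₁_d₀₁ 𝒯 h𝓜 m
      refine ⟨U₁ ⊓ U₂ ⊓ U₃, 𝒯.inf_mem _ _ (𝒯.inf_mem _ _ hU₁ hU₂) hU₃, fun g s hs => ?_⟩
      simp only
      rw [h₁ g s hs.1.1, h₂ g s hs.1.2, h₃ g s hs.2]
    let sec : 𝓜.V → B.V := fun y => if h : ∃ b : B.V, e.hom b = y then h.choose else 0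
    have hsec : ∀ y, (∃ b : B.V, e.hom b = y) → e.hom (sec y) = y := by
      intro y hy
      show e.hom (if h : ∃ b : B.V, e.hom b = y then h.choose else 0) = y
      rw [dif_pos hy]
      exact hy.choose_spec
    rw [AddSubgroup.mem_addSubgroupOf, eh2fh_mem_S]
    refine ⟨fun σ => sec (tW w σ - tW w' σ - (d₀₁ 𝓜).hom m σ), hul.comp sec, ?_⟩
    funext x
    apply he
    have h4 := congrFun (eh2fh_comp_d₁₂ e
      (fun σ => sec (tW w σ - tW w' σ - (d₀₁ 𝓜).hom m σ))) x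
    simp only at h4
    rw [h4]
    have h5 : (fun σ => e.hom (sec (tW w σ - tW w' σ - (d₀₁ 𝓜).hom m σ))) =
        tW w - tW w' - (d₀₁ 𝓜).hom m := by
      funext σ
      exact hsec _ (hu σ)
    rw [h5, map_sub, map_sub, eh2fh_d₁₂_d₀₁, sub_zero, htW2 w, htW2 w']
    show e.hom (w.1.1 x) - e.hom (w'.1.1 x) = e.hom (w.1.1 x - w'.1.1 x)
    rw [map_sub]
  have h1 : (eh2fhS 𝒯 B).FiniteIndex := eh2f_finiteIndex_trans _ _ hSK hK hS
  have h2 : Finite (eh2fhA 𝒯 B ⧸ eh2fhS 𝒯 B) := AddSubgroup.finite_quotient_of_finiteIndex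
  exact h2

end Fermat.Agent.TW.E

end


end ZBTW_043_2

/-! ### bundled: `Fermat.Agent.TW.E.H2FinFin` -/
section ZBTW_043_3
/-
TW-E / A9-FIN (helper15): `stmtH2Fin_of : StmtH2FinPerm → StmtH2Fin` (unconditional reduction).

`B ↪ 𝓜 := Fun(Ω, μ_p)`, `Ω := B^*(1)` as a finite `G`-set, `b ↦ (λ ↦ λ b)`; `Q := 𝓜 / B`;
`stmtH2Half` with `H¹_lev(Q)` finite (`stmtGloFin`) and `H²_lev(𝓜)` finite (`StmtH2FinPerm`).
-/

set_option autoImplicit false
set_option linter.unusedSectionVars false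
set_option linter.style.haveILetI false

noncomputable section

namespace Fermat.Agent.TW.E

open CategoryTheory groupCohomology Module Fermat.Agent.PT Fermat.Agent.PT.F Fermat.Agent.TW.F

section Set

variable {p : ℕ} {G : Type} [Group G]

/-- the `G`-set underlying a representation -/
def eh2fSet (A : Rep.{0} (ZMod p) G) : Type := A.V

instance eh2fSet_mulAction (A : Rep.{0} (ZMod p) G) : MulAction G (eh2fSet A) where
  smul g a := A.ρ g a
  one_smul a := by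
    show A.ρ 1 a = a
    rw [map_one]
    rfl
  mul_smul g h a := by
    show A.ρ (g * h) a = A.ρ g (A.ρ h a)
    rw [map_mul]
    rfl

lemma eh2fSet_smul (A : Rep.{0} (ZMod p) G) (g : G) (a : eh2fSet A) :
    g • a = (A.ρ g a : A.V) := rfl

end Set

section Emb

variable {p : ℕ} [Fact p.Prime] {G : Type} [Group G] (χ : G →* (ZMod p)ˣ)
  (B : Rep.{0} (ZMod p) G)

/-- the `G`-set `Ω = B^*(1)` -/
abbrev eh2fΩ : Type := eh2fSet (B.dualTwist χ)

/-- an element of `Ω` as a linear form -/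
def eh2fToDual (l : eh2fΩ χ B) : Module.Dual (ZMod p) B.V := l

/-- a linear form as an element of `Ω` -/
def eh2fOfDual (l : Module.Dual (ZMod p) B.V) : eh2fΩ χ B := l

lemma eh2fToDual_ofDual (l : Module.Dual (ZMod p) B.V) :
    eh2fToDual χ B (eh2fOfDual χ B l) = l := rfl

lemma eh2fToDual_smul (g : G) (l : eh2fΩ χ B) :
    eh2fToDual χ B (g • l) =
      ((χ g : (ZMod p)ˣ) : ZMod p) • ((eh2fToDual χ B l) ∘ₗ B.ρ g⁻¹) := rfl

/-- the embedding `B → Fun(B^*(1), μ_p)`, `b ↦ (λ ↦ λ b)`, as a linear map -/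
def eh2fEmbLin : B.V →ₗ[ZMod p] (eh2fΩ χ B → ZMod p) where
  toFun b := fun l => eh2fToDual χ B l b
  map_add' b b' := by
    funext l
    exact map_add (eh2fToDual χ B l) b b'
  map_smul' c b := by
    funext l
    exact map_smul (eh2fToDual χ B l) c b

lemma eh2fEmbLin_apply (b : B.V) (l : eh2fΩ χ B) :
    eh2fEmbLin χ B b l = eh2fToDual χ B l b := rfl

lemma eh2fEmbLin_equiv (g : G) (b : B.V) :
    eh2fEmbLin χ B (B.ρ g b) = (eh2fTw χ (eh2fΩ χ B)).ρ g (eh2fEmbLin χ B b) := by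
  funext l
  show eh2fToDual χ B l (B.ρ g b) =
    ((χ g : (ZMod p)ˣ) : ZMod p) * eh2fToDual χ B (g⁻¹ • l) b
  rw [eh2fToDual_smul]
  simp only [LinearMap.smul_apply, LinearMap.coe_comp, Function.comp_apply, smul_eq_mul,
    inv_inv, map_inv]
  rw [← mul_assoc]
  have : ((χ g : (ZMod p)ˣ) : ZMod p) * (((χ g)⁻¹ : (ZMod p)ˣ) : ZMod p) = 1 := by
    rw [← Units.val_mul, mul_inv_cancel, Units.val_one]
  rw [this, one_mul]

/-- the embedding as a morphism of representations -/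
def eh2fEmb : B ⟶ eh2fTw χ (eh2fΩ χ B) :=
  ConcreteCategory.ofHom (C := Rep.{0} (ZMod p) G) (X := B) (Y := eh2fTw χ (eh2fΩ χ B))
    (LinearMap.intertwiningMap_of_isIntertwiningMap (ρ := B.ρ) (σ := eh2fTwρ χ (eh2fΩ χ B))
      (f := eh2fEmbLin χ B) (fun g b => eh2fEmbLin_equiv χ B g b))

lemma eh2fEmb_apply (b : B.V) : (eh2fEmb χ B).hom b = eh2fEmbLin χ B b := rfl

lemma eh2fEmb_injective : Function.Injective (eh2fEmb χ B).hom := by
  intro b b' h
  have h1 : ∀ l : Module.Dual (ZMod p) B.V, l (b - b') = 0 := by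
    intro l
    have h2 : eh2fEmbLin χ B b (eh2fOfDual χ B l) = eh2fEmbLin χ B b' (eh2fOfDual χ B l) :=
      congrFun h (eh2fOfDual χ B l)
    rw [eh2fEmbLin_apply, eh2fEmbLin_apply, eh2fToDual_ofDual] at h2
    rw [map_sub]
    exact sub_eq_zero.2 h2
  exact sub_eq_zero.1 ((Module.forall_dual_apply_eq_zero_iff (ZMod p) (b - b')).1 h1)

end Emb

section Quot

variable {p : ℕ} {G : Type} [Group G] {B 𝓜 : Rep.{0} (ZMod p) G} (e : B ⟶ 𝓜)

/-- the image of `e` as a submodule -/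
def eh2fIm : Submodule (ZMod p) 𝓜.V where
  carrier := Set.range e.hom
  add_mem' := by
    rintro _ _ ⟨a, rfl⟩ ⟨b, rfl⟩
    exact ⟨a + b, map_add e.hom a b⟩
  zero_mem' := ⟨0, map_zero e.hom⟩
  smul_mem' := by
    rintro c _ ⟨a, rfl⟩
    exact ⟨c • a, map_smul e.hom c a⟩

lemma eh2fIm_inv (g : G) : eh2fIm e ≤ (eh2fIm e).comap (𝓜.ρ g) := by
  rintro _ ⟨a, rfl⟩
  exact ⟨B.ρ g a, Rep.hom_comm_apply e g a⟩

/-- the quotient representation `𝓜 / e(B)` -/
def eh2fQρ : Representation (ZMod p) G (𝓜.V ⧸ eh2fIm e) where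
  toFun g := Submodule.mapQ _ _ (𝓜.ρ g) (eh2fIm_inv e g)
  map_one' := by
    apply Submodule.linearMap_qext
    ext x
    simp
  map_mul' g h := by
    apply Submodule.linearMap_qext
    ext x
    simp

/-- `Q = 𝓜 / e(B)` -/
abbrev eh2fQ : Rep.{0} (ZMod p) G := Rep.of (eh2fQρ e)

/-- the projection `𝓜 → Q` -/
def eh2fProj : 𝓜 ⟶ eh2fQ e :=
  ConcreteCategory.ofHom (C := Rep.{0} (ZMod p) G) (X := 𝓜) (Y := eh2fQ e)
    (LinearMap.intertwiningMap_of_isIntertwiningMap (ρ := 𝓜.ρ) (σ := eh2fQρ e)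
      (f := (eh2fIm e).mkQ) (fun _ _ => rfl))

lemma eh2fProj_apply (x : 𝓜.V) : (eh2fProj e).hom x = (eh2fIm e).mkQ x := rfl

lemma eh2fProj_surjective : Function.Surjective (eh2fProj e).hom := fun y => by
  obtain ⟨x, rfl⟩ := Submodule.mkQ_surjective _ y
  exact ⟨x, rfl⟩

lemma eh2f_exact : Function.Exact e.hom (eh2fProj e).hom := by
  intro y
  rw [eh2fProj_apply, Submodule.mkQ_apply, Submodule.Quotient.mk_eq_zero]
  rfl

lemma eh2fQ_trivOnLevel {𝒯 : Tower G} (h : TrivOnLevel 𝒯 𝓜) : TrivOnLevel 𝒯 (eh2fQ e) := by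
  obtain ⟨U, hU, hs⟩ := h
  refine ⟨U, hU, fun s hs' => ?_⟩
  apply Submodule.linearMap_qext
  ext x
  show (eh2fIm e).mkQ (𝓜.ρ s x) = (eh2fIm e).mkQ x
  rw [hs s hs']
  rfl

end Quot

/-- **A9-FIN**: `H²_lev(G, B)` is finite for every finite `B`, given the permutation case. -/
theorem stmtH2Fin_of (hPERM : StmtH2FinPerm) : StmtH2Fin := by
  intro p _ G _ ι _ _ Gloc _ D _ B _ hB
  classical
  haveI : Finite (Module.Dual (ZMod p) B.V) := Module.finite_of_finite (ZMod p)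
  haveI : Finite (eh2fΩ D.χ B) := (inferInstance : Finite (Module.Dual (ZMod p) B.V))
  haveI : Fintype (eh2fΩ D.χ B) := Fintype.ofFinite _
  have hΩ : IsLevSet D.𝒯 (eh2fΩ D.χ B) := by
    obtain ⟨U₁, hU₁, h₁⟩ := hB
    obtain ⟨U₂, hU₂, h₂⟩ := D.χ_level
    refine ⟨U₁ ⊓ U₂, D.𝒯.inf_mem _ _ hU₁ hU₂, fun s hs l => ?_⟩
    have key : eh2fToDual D.χ B (s • l) = eh2fToDual D.χ B l := by
      rw [eh2fToDual_smul, h₂ s hs.2, h₁ s⁻¹ (U₁.inv_mem hs.1)]
      ext b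
      simp
    exact key
  have h𝓜 : TrivOnLevel D.𝒯 (eh2fTw D.χ (eh2fΩ D.χ B)) := eh2fTw_trivOnLevel D _ hΩ
  haveI : FiniteDimensional (ZMod p) (eh2fTw D.χ (eh2fΩ D.χ B)) :=
    (inferInstance : FiniteDimensional (ZMod p) (eh2fΩ D.χ B → ZMod p))
  haveI : FiniteDimensional (ZMod p) (eh2fQ (eh2fEmb D.χ B)) :=
    (inferInstance : FiniteDimensional (ZMod p)
      ((eh2fTw D.χ (eh2fΩ D.χ B)).V ⧸ eh2fIm (eh2fEmb D.χ B)))
  have hQ : Finite ↥(levH1 D.𝒯 (eh2fQ (eh2fEmb D.χ B))) :=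
    stmtGloFin p G ι Gloc D _ (eh2fQ_trivOnLevel (eh2fEmb D.χ B) h𝓜)
  have hM : Finite (levH2 D.𝒯 (eh2fTw D.χ (eh2fΩ D.χ B))) :=
    hPERM p G ι Gloc D (eh2fΩ D.χ B) hΩ
  haveI : Finite (levH2 D.𝒯 B) :=
    stmtH2Half p G D.𝒯 B _ _ (eh2fEmb D.χ B) (eh2fProj (eh2fEmb D.χ B))
      (eh2fEmb_injective D.χ B) (eh2fProj_surjective _) (eh2f_exact _) h𝓜 hQ hM
  exact Module.Finite.of_finite

end Fermat.Agent.TW.E

end


end ZBTW_043_3

/-! ### bundled: `Fermat.Agent.TW.E.H2FinAlg` -/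
section ZBTW_043_4
/-
TW-E / A9-ALG (helper15): `stmtTorsQuot : StmtTorsQuot` — a torsion abelian group with finite
`p`-torsion has finite `T / pT`.
-/

set_option autoImplicit false
set_option linter.style.haveILetI false

namespace Fermat.Agent.TW.E

/-- for a finite abelian group, `|F / pF| = |F[p]|` -/
theorem eh2f_card_quot_eq_card_ker (F : Type*) [AddCommGroup F] [Finite F] (p : ℕ) :
    Nat.card (F ⧸ (nsmulAddMonoidHom (α := F) p).range) =
      Nat.card (nsmulAddMonoidHom (α := F) p).ker := by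
  set φ := nsmulAddMonoidHom (α := F) p
  have h1 := AddSubgroup.card_eq_card_quotient_mul_card_addSubgroup φ.ker
  have h2 := AddSubgroup.card_eq_card_quotient_mul_card_addSubgroup φ.range
  have h3 : Nat.card (F ⧸ φ.ker) = Nat.card φ.range :=
    Nat.card_congr (QuotientAddGroup.quotientKerEquivRange φ).toEquiv
  rw [h3] at h1
  have hpos : 0 < Nat.card φ.range := Nat.card_pos
  have h4 : Nat.card (F ⧸ φ.range) * Nat.card φ.range = Nat.card φ.ker * Nat.card φ.range := by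
    rw [← h2, h1, mul_comm]
  exact Nat.eq_of_mul_eq_mul_right hpos h4

/-- **A9-ALG**. -/
theorem stmtTorsQuot : StmtTorsQuot := by
  intro p _ T _ htors hfin
  classical
  have hFI : (nsmulAddMonoidHom (α := T) p).range.FiniteIndex := by
    apply eh2f_finiteIndex_of_pigeonhole _ (Nat.card {x : T | p • x = 0})
    intro f
    -- the finitely generated subgroup
    set gen : Set T := Set.range f ∪ {x : T | p • x = 0} with hgen
    have hgenfin : gen.Finite := (Set.finite_range f).union hfin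
    set F : AddSubgroup T := AddSubgroup.closure gen with hF
    haveI hFG : AddGroup.FG ↥F := by
      rw [AddGroup.fg_iff_addSubgroup_fg]
      exact ⟨hgenfin.toFinset, by rw [Set.Finite.coe_toFinset]⟩
    have hFtors : IsAddTorsion ↥F := by
      intro x
      obtain ⟨n, hn, hx⟩ := htors x.1
      rw [isOfFinAddOrder_iff_nsmul_eq_zero]
      exact ⟨n, hn, Subtype.ext hx⟩
    haveI : Finite ↥F := AddCommGroup.finite_of_fg_isAddTorsion _ hFtors
    -- the torsion of `F` embeds into the torsion of `T`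
    haveI : Finite {x : T | p • x = 0} := hfin.to_subtype
    have hcard : Nat.card (nsmulAddMonoidHom (α := ↥F) p).ker ≤
        Nat.card {x : T | p • x = 0} := by
      refine Nat.card_le_card_of_injective
        (fun x => (⟨x.1.1, congrArg Subtype.val x.2⟩ : {x : T | p • x = 0})) ?_
      intro x y hxy
      have h0 : x.1.1 = y.1.1 :=
        congrArg (fun z : {x : T | p • x = 0} => (z.1 : T)) hxy
      exact Subtype.ext (Subtype.ext h0)
    have hf : ∀ i, f i ∈ F := fun i =>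
      AddSubgroup.subset_closure (Or.inl ⟨i, rfl⟩)
    by_contra hcon
    push Not at hcon
    have hinj : Function.Injective (fun i : Fin (Nat.card {x : T | p • x = 0} + 1) =>
        (QuotientAddGroup.mk (⟨f i, hf i⟩ : ↥F) :
          ↥F ⧸ (nsmulAddMonoidHom (α := ↥F) p).range)) := by
      intro i j hij
      by_contra hne
      apply hcon i j hne
      have h1 := (QuotientAddGroup.eq).1 hij
      obtain ⟨y, hy⟩ := h1
      refine ⟨-y.1, ?_⟩
      have h2 : p • y.1 = -f i + f j := congrArg Subtype.val hy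
      show p • (-y.1) = f i - f j
      rw [smul_neg, h2]
      abel
    have h3 := Nat.card_le_card_of_injective _ hinj
    rw [Nat.card_fin, eh2f_card_quot_eq_card_ker] at h3
    omega
  exact AddSubgroup.finite_quotient_of_finiteIndex

end Fermat.Agent.TW.E


end ZBTW_043_4

/-! ### bundled: `Fermat.Agent.TW.E.H2FinAsm` -/
section ZBTW_043_5
/-
TW-E / A9 (helper15): assembly.  `stmtH2Fin_of_lev : StmtH2LevFB → StmtH2Fin`
(everything except the finite-level bound and its level form is proved).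
-/

set_option autoImplicit false

namespace Fermat.Agent.TW.E

/-- **A9** from the level form of the finite-level bound. -/
theorem stmtH2Fin_of_lev (hLEV : StmtH2LevFB) : StmtH2Fin :=
  stmtH2Fin_of (stmtH2FinPerm_of hLEV stmtTorsQuot)

/-- **A9** from the finite-level bound `StmtH2FB` (Sylow + Tate–Nakayama). -/
theorem stmtH2Fin_of_fb (hFB : StmtH2FB) : StmtH2Fin :=
  stmtH2Fin_of_lev (stmtH2LevFB_of hFB)

end Fermat.Agent.TW.E


end ZBTW_043_5

/-! ### bundled: `Fermat.Agent.TW.E.H2FinFinal` -/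
section ZBTW_043_6
/-
TW-E / A9 (helper15 + helper63): **`stmtH2Fin : StmtH2Fin`**, unconditional.
`H²_lev(G, B)` is finite for every finite `𝔽_p[G]`-module `B` trivial on some level:
A9-FB (`stmtH2FB`, helper63) + A9-LEV/PERM/ALG/FIN (`stmtH2Fin_of_fb`, helper15).
-/

set_option autoImplicit false

namespace Fermat.Agent.TW.E

/-- **A9**: `StmtH2Fin`, unconditional. -/
theorem stmtH2Fin : StmtH2Fin :=
  stmtH2Fin_of_fb stmtH2FB

end Fermat.Agent.TW.E


end ZBTW_043_6
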