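/- GENERATED FILE (helper35, build-time optimisation, NOTES/ZB.md): verbatim concatenation of the modules
   Fermat.Agent.TW.E.H3Dict
   Fermat.Agent.TW.E.Desc3
   Fermat.Agent.TW.E.J3Shapiro
   Do not edit; do not import together with these modules. -/
import Fermat.Agent.ZB.TW_014
import Fermat.Agent.ZB.PT_002
import Fermat.Agent.ZB.PT_085
import Fermat.Agent.ZB.PT_047

/-! ### bundled: `Fermat.Agent.TW.E.H3Dict` -/
section ZBTW_047_0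
/-
Project TW (S56) — part TW-E, piece A3 (helper87), file 1: the dictionary between Mathlib's
`groupCohomology A 3` and 3-cocycle FUNCTIONS `Γ × Γ × Γ → A`.

* `h3d_exists_of_noPTors`: if `H³(Γ, A)` has no `p`-torsion, every 3-cocycle function killed by
  `p` is the coboundary of a 2-cochain function.
-/

set_option autoImplicit false
set_option linter.unusedSectionVars false
set_option linter.unusedVariables false
set_option linter.style.haveILetI false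

noncomputable section

namespace Fermat.Agent.TW.E

open CategoryTheory groupCohomology Fermat.Agent.PT

attribute [local instance 1100] Rep.hV2

variable {Γ : Type} [Group Γ] (A : Rep.{0} ℤ Γ)

/-- The coboundary of a 2-cochain with values in a representation. -/
def dTwoRep (y : Γ × Γ → A.V) (s : Γ × Γ × Γ) : A.V :=
  A.ρ s.1 (y (s.2.1, s.2.2)) - y (s.1 * s.2.1, s.2.2) + y (s.1, s.2.1 * s.2.2) - y (s.1, s.2.1)

/-- the 3-cochain `(Fin 3 → Γ) → A` attached to a function on triples -/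
def h3d_toFin3 (z : Γ × Γ × Γ → A.V) : (Fin 3 → Γ) → A.V := fun g => z (g 0, g 1, g 2)

/-- the function on pairs attached to a 2-cochain `(Fin 2 → Γ) → A` -/
def h3d_ofFin2 (y : (Fin 2 → Γ) → A.V) : Γ × Γ → A.V := fun s => y ![s.1, s.2]

set_option backward.isDefEq.respectTransparency false in
lemma h3d_d3 (z : Γ × Γ × Γ → A.V) (g : Fin 4 → Γ) :
    (inhomogeneousCochains.d A 3).hom (h3d_toFin3 A z) g = dThreeRep A z (g 0, g 1, g 2, g 3) := by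
  rw [inhomogeneousCochains.d_hom_apply, Fin.sum_univ_four]
  have c00 : Fin.contractNth (0 : Fin 4) (fun x1 x2 => x1 * x2) g 0 = g 0 * g 1 := rfl
  have c01 : Fin.contractNth (0 : Fin 4) (fun x1 x2 => x1 * x2) g 1 = g 2 := rfl
  have c02 : Fin.contractNth (0 : Fin 4) (fun x1 x2 => x1 * x2) g 2 = g 3 := rfl
  have c10 : Fin.contractNth (1 : Fin 4) (fun x1 x2 => x1 * x2) g 0 = g 0 := rfl
  have c11 : Fin.contractNth (1 : Fin 4) (fun x1 x2 => x1 * x2) g 1 = g 1 * g 2 := rfl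
  have c12 : Fin.contractNth (1 : Fin 4) (fun x1 x2 => x1 * x2) g 2 = g 3 := rfl
  have c20 : Fin.contractNth (2 : Fin 4) (fun x1 x2 => x1 * x2) g 0 = g 0 := rfl
  have c21 : Fin.contractNth (2 : Fin 4) (fun x1 x2 => x1 * x2) g 1 = g 1 := rfl
  have c22 : Fin.contractNth (2 : Fin 4) (fun x1 x2 => x1 * x2) g 2 = g 2 * g 3 := rfl
  have c30 : Fin.contractNth (3 : Fin 4) (fun x1 x2 => x1 * x2) g 0 = g 0 := rfl
  have c31 : Fin.contractNth (3 : Fin 4) (fun x1 x2 => x1 * x2) g 1 = g 1 := rfl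
  have c32 : Fin.contractNth (3 : Fin 4) (fun x1 x2 => x1 * x2) g 2 = g 2 := rfl
  have s0 : (fun i : Fin 3 => g i.succ) 0 = g 1 := rfl
  have s1 : (fun i : Fin 3 => g i.succ) 1 = g 2 := rfl
  have s2 : (fun i : Fin 3 => g i.succ) 2 = g 3 := rfl
  simp only [h3d_toFin3, dThreeRep, c00, c01, c02, c10, c11, c12, c20, c21, c22, c30, c31, c32,
    s0, s1, s2]
  have e0 : ((0 : Fin 4) : ℕ) + 1 = 1 := rfl
  have e1 : ((1 : Fin 4) : ℕ) + 1 = 2 := rfl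
  have e2 : ((2 : Fin 4) : ℕ) + 1 = 3 := rfl
  have e3 : ((3 : Fin 4) : ℕ) + 1 = 4 := rfl
  rw [e0, e1, e2, e3]
  have p1 : ((-1 : ℤ)) ^ 1 = -1 := by norm_num
  have p2 : ((-1 : ℤ)) ^ 2 = 1 := by norm_num
  have p3 : ((-1 : ℤ)) ^ 3 = -1 := by norm_num
  have p4 : ((-1 : ℤ)) ^ 4 = 1 := by norm_num
  rw [p1, p2, p3, p4, neg_smul, neg_smul, one_smul, one_smul, one_smul, one_smul]
  abel

set_option backward.isDefEq.respectTransparency false in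
lemma h3d_d2 (y : (Fin 2 → Γ) → A.V) (g : Fin 3 → Γ) :
    (inhomogeneousCochains.d A 2).hom y g = dTwoRep A (h3d_ofFin2 A y) (g 0, g 1, g 2) := by
  rw [inhomogeneousCochains.d_hom_apply, Fin.sum_univ_three]
  have h0 : (fun i : Fin 2 => g i.succ) = ![g 1, g 2] := by
    funext i; fin_cases i <;> rfl
  have h1 : Fin.contractNth (0 : Fin 3) (fun x1 x2 => x1 * x2) g = ![g 0 * g 1, g 2] := by
    funext i; fin_cases i <;> rfl
  have h2 : Fin.contractNth (1 : Fin 3) (fun x1 x2 => x1 * x2) g = ![g 0, g 1 * g 2] := by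
    funext i; fin_cases i <;> rfl
  have h3 : Fin.contractNth (2 : Fin 3) (fun x1 x2 => x1 * x2) g = ![g 0, g 1] := by
    funext i; fin_cases i <;> rfl
  rw [h0, h1, h2, h3]
  simp only [dTwoRep, h3d_ofFin2]
  have e0 : ((0 : Fin 3) : ℕ) + 1 = 1 := rfl
  have e1 : ((1 : Fin 3) : ℕ) + 1 = 2 := rfl
  have e2 : ((2 : Fin 3) : ℕ) + 1 = 3 := rfl
  rw [e0, e1, e2]
  have p1 : ((-1 : ℤ)) ^ 1 = -1 := by norm_num
  have p2 : ((-1 : ℤ)) ^ 2 = 1 := by norm_num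
  have p3 : ((-1 : ℤ)) ^ 3 = -1 := by norm_num
  rw [p1, p2, p3, neg_smul, neg_smul, one_smul, one_smul, one_smul]
  abel

/-- `π x = 0` means that `x` is a coboundary. -/
lemma h3d_exists_of_π_eq_zero (x : cocycles A 3) (hx : (π A 3).hom x = 0) :
    ∃ y : (Fin 2 → Γ) → A.V, (toCocycles A 2 3).hom y = x := by
  let T : ShortComplex (ModuleCat ℤ) :=
    ShortComplex.mk (toCocycles A 2 3) (π A 3)
      ((inhomogeneousCochains A).toCycles_comp_homologyπ 2 3)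
  have hT : T.Exact :=
    T.exact_of_g_is_cokernel ((inhomogeneousCochains A).homologyIsCokernel 2 3 (by simp))
  exact (ShortComplex.moduleCat_exact_iff T).1 hT x hx

/-- **The dictionary in degree 3.** If `H³(Γ, A)` has no `p`-torsion, then every 3-cocycle
function killed by `p` is the coboundary of a 2-cochain function. -/
theorem h3d_exists_of_noPTors (p : ℕ)
    (hA : ∀ x : groupCohomology A 3, IsPTors p x → x = 0)
    (z : Γ × Γ × Γ → A.V) (hz : ∀ s, dThreeRep A z s = 0) (hp : ∀ s, p • z s = 0) :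
    ∃ y : Γ × Γ → A.V, ∀ s, z s = dTwoRep A y s := by
  have hd : (inhomogeneousCochains.d A 3).hom (h3d_toFin3 A z) = 0 := by
    funext g
    rw [h3d_d3, hz]
    rfl
  set x : cocycles A 3 := cocyclesMk (h3d_toFin3 A z) hd with hx
  have hix : (iCocycles A 3).hom x = h3d_toFin3 A z := iCocycles_mk _ hd
  have hpx : p • x = 0 := by
    apply (ModuleCat.mono_iff_injective (iCocycles A 3)).1 inferInstance
    rw [map_nsmul, hix, map_zero]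
    funext g
    exact hp _
  have hπ : (π A 3).hom x = 0 := by
    apply hA
    refine ⟨1, ?_⟩
    rw [pow_one, ← map_nsmul, hpx, map_zero]
  obtain ⟨y, hy⟩ := h3d_exists_of_π_eq_zero A x hπ
  refine ⟨h3d_ofFin2 A y, fun s => ?_⟩
  have h1 : (iCocycles A 3).hom ((toCocycles A 2 3).hom y) =
      (inhomogeneousCochains.d A 2).hom y := by
    have h0 : toCocycles A 2 3 ≫ iCocycles A 3 = inhomogeneousCochains.d A 2 := by
      rw [← inhomogeneousCochains.d_def]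
      exact (inhomogeneousCochains A).toCycles_i 2 3
    have h2 := congrArg (fun f => f.hom y) h0
    simp only [ModuleCat.hom_comp, LinearMap.comp_apply] at h2
    exact h2
  rw [hy, hix] at h1
  have h3 := congrFun h1 ![s.1, s.2.1, s.2.2]
  rw [h3d_d2] at h3
  exact h3

end Fermat.Agent.TW.E

end
end ZBTW_047_0

/-! ### bundled: `Fermat.Agent.TW.E.Desc3` -/
section ZBTW_047_1
/-
Project TW (S56) — part TW-E, piece A3 (helper87), file 3: the level dictionary in degree 3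
(one degree above PT/F/Level.lean), for an arbitrary group `G` and a normal subgroup `U`.

* `desc3_inv_of_cocycle`: a 3-cocycle which is right-`U`-invariant has `U`-invariant values.
* `desc3_main`: if `H³(G ⧸ U, X^U)` has no `p`-torsion, then every right-`U`-invariant 3-cocycle
  `z : G³ → X` killed by `p` is `d y` for a 2-cochain `y` defined at level `U` (`Desc₂ X U y`).
-/

set_option autoImplicit false
set_option linter.unusedSectionVars false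
set_option linter.unusedVariables false
set_option linter.style.haveILetI false

noncomputable section

namespace Fermat.Agent.TW.E

open CategoryTheory groupCohomology Fermat.Agent.PT Fermat.Agent.PT.F

attribute [local instance 1100] Rep.hV2

variable {G : Type} [Group G] (X : Rep.{0} ℤ G) (U : Subgroup G) [U.Normal]

/-- Right-`U`-invariance of a 3-cochain. -/
def RInv₃ {Y : Type} (z : G × G × G → Y) : Prop :=
  ∀ g g' g'' s s' s'' : G, s ∈ U → s' ∈ U → s'' ∈ U →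
    z (g * s, g' * s', g'' * s'') = z (g, g', g'')

variable {X U}

lemma desc3_left_inv {Y : Type} {z : G × G × G → Y} (hzU : RInv₃ U z) (s g g' g'' : G)
    (hs : s ∈ U) : z (s * g, g', g'') = z (g, g', g'') := by
  have h1 : s * g = g * (g⁻¹ * s * g) := by group
  have h2 : g⁻¹ * s * g ∈ U := by
    have := (inferInstance : U.Normal).conj_mem s hs g⁻¹
    simpa using this
  have := hzU g g' g'' (g⁻¹ * s * g) 1 1 h2 U.one_mem U.one_mem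
  rw [mul_one, mul_one] at this
  rw [h1, this]

lemma desc3_first_inv {Y : Type} {z : G × G × G → Y} (hzU : RInv₃ U z) (s g' g'' : G)
    (hs : s ∈ U) : z (s, g', g'') = z (1, g', g'') := by
  have := hzU 1 g' g'' s 1 1 hs U.one_mem U.one_mem
  rw [mul_one, mul_one, one_mul] at this
  exact this

/-- A right-`U`-invariant 3-cocycle has `U`-invariant values. -/
theorem desc3_inv_of_cocycle {z : G × G × G → X.V} (hz : ∀ s, dThreeRep X z s = 0)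
    (hzU : RInv₃ U z) (s : G) (hs : s ∈ U) (t : G × G × G) : X.ρ s (z t) = z t := by
  obtain ⟨τ, ρ, κ⟩ := t
  have h1 := hz (s, τ, ρ, κ)
  have h2 := hz (1, τ, ρ, κ)
  simp only [dThreeRep] at h1 h2
  rw [desc3_left_inv hzU s τ ρ κ hs, desc3_first_inv hzU s _ _ hs, desc3_first_inv hzU s _ _ hs,
    desc3_first_inv hzU s _ _ hs] at h1
  rw [one_mul, map_one, Module.End.one_apply] at h2
  have h3 : X.ρ s (z (τ, ρ, κ)) - z (τ, ρ, κ) = 0 := by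
    have e : X.ρ s (z (τ, ρ, κ)) - z (τ, ρ, κ) =
        (X.ρ s (z (τ, ρ, κ)) - z (τ, ρ, κ) + z (1, τ * ρ, κ) - z (1, τ, ρ * κ) + z (1, τ, ρ)) -
        (z (τ, ρ, κ) - z (τ, ρ, κ) + z (1, τ * ρ, κ) - z (1, τ, ρ * κ) + z (1, τ, ρ)) := by
      abel
    rw [e, h1, h2, sub_zero]
  exact sub_eq_zero.1 h3

variable (X U)

/-- Inflation of 3-cochains of `G ⧸ U` with values in `X^U`. -/
def infl₃ (z : (G ⧸ U) × (G ⧸ U) × (G ⧸ U) → (X.quotientToInvariants U).V) : G × G × G → X.V :=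
  fun s => (z ((s.1 : G ⧸ U), (s.2.1 : G ⧸ U), (s.2.2 : G ⧸ U))).1

variable {X U}

/-- Descent of a 3-cochain defined at level `U`. -/
def descend₃ (z : G × G × G → X.V) (hz : ∀ t, ∀ s ∈ U, X.ρ s (z t) = z t) :
    (G ⧸ U) × (G ⧸ U) × (G ⧸ U) → (X.quotientToInvariants U).V :=
  fun q => ⟨z (q.1.out, q.2.1.out, q.2.2.out), fun s => hz _ s.1 s.2⟩

theorem infl₃_descend₃ (z : G × G × G → X.V) (hzU : RInv₃ U z)
    (hz : ∀ t, ∀ s ∈ U, X.ρ s (z t) = z t) : infl₃ X U (descend₃ z hz) = z := by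
  funext ⟨g, g', g''⟩
  obtain ⟨s, hs⟩ := QuotientGroup.mk_out_eq_mul U g
  obtain ⟨s', hs'⟩ := QuotientGroup.mk_out_eq_mul U g'
  obtain ⟨s'', hs''⟩ := QuotientGroup.mk_out_eq_mul U g''
  show z (Quotient.out (g : G ⧸ U), Quotient.out (g' : G ⧸ U), Quotient.out (g'' : G ⧸ U)) =
    z (g, g', g'')
  rw [hs, hs', hs'']
  exact hzU g g' g'' s s' s'' s.2 s'.2 s''.2

theorem infl₃_dThreeRep (z : (G ⧸ U) × (G ⧸ U) × (G ⧸ U) → (X.quotientToInvariants U).V)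
    (g₀ g₁ g₂ g₃ : G) :
    ((dThreeRep (X.quotientToInvariants U) z
      ((g₀ : G ⧸ U), (g₁ : G ⧸ U), (g₂ : G ⧸ U), (g₃ : G ⧸ U))).1 : X.V) =
      dThreeRep X (infl₃ X U z) (g₀, g₁, g₂, g₃) := rfl

theorem infl₃_dTwoRep (y : (G ⧸ U) × (G ⧸ U) → (X.quotientToInvariants U).V)
    (g₀ g₁ g₂ : G) :
    infl₃ X U (dTwoRep (X.quotientToInvariants U) y) (g₀, g₁, g₂) =
      dTwoRep X (infl₂ X U y) (g₀, g₁, g₂) := rfl

/-- **Descent in degree 3.** -/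
theorem desc3_main (p : ℕ)
    (hX : ∀ x : groupCohomology (X.quotientToInvariants U) 3, IsPTors p x → x = 0)
    (z : G × G × G → X.V) (hz : ∀ s, dThreeRep X z s = 0) (hzU : RInv₃ U z)
    (hp : ∀ s, p • z s = 0) :
    ∃ y : G × G → X.V, Desc₂ X U y ∧ ∀ s, z s = dTwoRep X y s := by
  have hinv : ∀ t, ∀ s ∈ U, X.ρ s (z t) = z t := fun t s hs => desc3_inv_of_cocycle hz hzU s hs t
  set zb := descend₃ z hinv with hzb
  have hinfl : infl₃ X U zb = z := infl₃_descend₃ z hzU hinv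
  have hzb_coc : ∀ s, dThreeRep (X.quotientToInvariants U) zb s = 0 := by
    rintro ⟨q₀, q₁, q₂, q₃⟩
    obtain ⟨g₀, rfl⟩ := QuotientGroup.mk_surjective q₀
    obtain ⟨g₁, rfl⟩ := QuotientGroup.mk_surjective q₁
    obtain ⟨g₂, rfl⟩ := QuotientGroup.mk_surjective q₂
    obtain ⟨g₃, rfl⟩ := QuotientGroup.mk_surjective q₃
    apply Subtype.ext
    rw [infl₃_dThreeRep, hinfl, hz]
    rfl
  have hzb_p : ∀ s, p • zb s = 0 := by
    intro s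
    apply Subtype.ext
    show p • z _ = 0
    exact hp _
  obtain ⟨yb, hyb⟩ := h3d_exists_of_noPTors (X.quotientToInvariants U) p hX zb hzb_coc hzb_p
  refine ⟨infl₂ X U yb, desc₂_infl₂ yb, ?_⟩
  rintro ⟨g₀, g₁, g₂⟩
  rw [← infl₃_dTwoRep, ← hinfl]
  show ((zb _).1 : X.V) = ((dTwoRep (X.quotientToInvariants U) yb _).1 : X.V)
  rw [hyb]

end Fermat.Agent.TW.E

end
end ZBTW_047_1

/-! ### bundled: `Fermat.Agent.TW.E.J3Shapiro` -/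
section ZBTW_047_2
/-
Project TW (S56) — part TW-E, piece A3 (helper87), file 5: semilocal Shapiro in degree 3.

`j3_shapiro`: a 3-cocycle `z : G³ → Hom_ℤ(M, J)` which is right-invariant under a normal level
`U` (acting trivially on `M`) and whose local components `ev_v ∘ z ∘ r_v³` are coboundaries of
2-cochains defined at the pulled-back level `r_v⁻¹U` is the coboundary of a level 2-cochain.
(Homogeneous dictionary: `Φ_v(g₀,…,g₃) = ev_v ∘ g₀·z(g₀⁻¹g₁, g₁⁻¹g₂, g₂⁻¹g₃)`,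
`Ψ_v(d₀,d₁,d₂) = d₀·y_v(d₀⁻¹d₁, d₁⁻¹d₂)`, `y(σ,τ)(m)_v(g) = Θ_v(g, gσ, gστ)(g m)`.)
-/

set_option autoImplicit false
set_option linter.unusedSectionVars false
set_option linter.unusedVariables false
set_option linter.style.haveILetI false

noncomputable section

namespace Fermat.Agent.TW.E

open CategoryTheory groupCohomology Fermat.Agent.PT Fermat.Agent.PT.F

attribute [local instance 1100] Rep.hV2

section Conj

variable {G : Type} [Group G] (M C : Rep.{0} ℤ G)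

lemma j3_conjAdd_mul (g h : G) (φ : M.V →+ C.V) :
    conjAdd M C (g * h) φ = conjAdd M C g (conjAdd M C h φ) := by
  have := (homRepρ M C).map_mul g h
  exact DFunLike.congr_fun this φ

lemma j3_conjAdd_one (φ : M.V →+ C.V) : conjAdd M C 1 φ = φ := by
  have := (homRepρ M C).map_one
  exact DFunLike.congr_fun this φ

lemma j3_dThree_eq (z : G × G × G → (M.V →+ C.V)) (s : G × G × G × G) :
    dThree M C z s = dThreeRep (homRep M C) z s := rfl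

lemma j3_dTwo_eq (y : G × G → (M.V →+ C.V)) (s : G × G × G) :
    dTwo M C y s = dTwoRep (homRep M C) y s := rfl

end Conj

section Shapiro

variable {p : ℕ} {G : Type} [Group G] {ι : Type} {Gloc : ι → Type} [∀ v, Group (Gloc v)]
  (D : PTDatum p G ι Gloc) (M : Rep.{0} ℤ G)
  (z : G × G × G → (M.V →+ (PTJ D).V))

/-- the homogeneous local cochain attached to `z` -/
def j3_Phi (v : ι) (g₀ g₁ g₂ g₃ : G) : M.V →+ (D.Jloc v).V :=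
  (ev D v).comp (conjAdd M (PTJ D) g₀ (z (g₀⁻¹ * g₁, g₁⁻¹ * g₂, g₂⁻¹ * g₃)))

/-- the homogeneous cochain attached to a local 2-cochain -/
def j3_Psi (v : ι) (yv : Gloc v × Gloc v → (M.V →+ (D.Jloc v).V)) (d₀ d₁ d₂ : Gloc v) :
    M.V →+ (D.Jloc v).V :=
  conjAdd (Rep.res (D.r v) M) (D.Jloc v) d₀ (yv (d₀⁻¹ * d₁, d₁⁻¹ * d₂))

lemma j3_Phi_equiv (v : ι) (d : Gloc v) (g₀ g₁ g₂ g₃ : G) :
    j3_Phi D M z v (D.r v d * g₀) (D.r v d * g₁) (D.r v d * g₂) (D.r v d * g₃) =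
      conjAdd (Rep.res (D.r v) M) (D.Jloc v) d (j3_Phi D M z v g₀ g₁ g₂ g₃) := by
  unfold j3_Phi
  have e1 : (D.r v d * g₀)⁻¹ * (D.r v d * g₁) = g₀⁻¹ * g₁ := by group
  have e2 : (D.r v d * g₁)⁻¹ * (D.r v d * g₂) = g₁⁻¹ * g₂ := by group
  have e3 : (D.r v d * g₂)⁻¹ * (D.r v d * g₃) = g₂⁻¹ * g₃ := by group
  rw [e1, e2, e3, j3_conjAdd_mul, in2a_ev_conj]

variable (hz : ∀ s, dThree M (PTJ D) z s = 0)

include hz in
lemma j3_Phi_cocycle (v : ι) (g₀ g₁ g₂ g₃ g₄ : G) :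
    j3_Phi D M z v g₁ g₂ g₃ g₄ - j3_Phi D M z v g₀ g₂ g₃ g₄ + j3_Phi D M z v g₀ g₁ g₃ g₄ -
      j3_Phi D M z v g₀ g₁ g₂ g₄ + j3_Phi D M z v g₀ g₁ g₂ g₃ = 0 := by
  have h := hz (g₀⁻¹ * g₁, g₁⁻¹ * g₂, g₂⁻¹ * g₃, g₃⁻¹ * g₄)
  simp only [dThree] at h
  have h' := congrArg (fun φ => (ev D v).comp (conjAdd M (PTJ D) g₀ φ)) h
  simp only [map_add, map_sub, map_zero, AddMonoidHom.comp_add, AddMonoidHom.comp_sub,
    AddMonoidHom.comp_zero] at h'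
  rw [← j3_conjAdd_mul] at h'
  have e1 : g₀ * (g₀⁻¹ * g₁) = g₁ := by group
  have e2 : g₀⁻¹ * g₁ * (g₁⁻¹ * g₂) = g₀⁻¹ * g₂ := by group
  have e3 : g₁⁻¹ * g₂ * (g₂⁻¹ * g₃) = g₁⁻¹ * g₃ := by group
  have e4 : g₂⁻¹ * g₃ * (g₃⁻¹ * g₄) = g₂⁻¹ * g₄ := by group
  rw [e1, e2, e3, e4] at h'
  unfold j3_Phi
  exact h'

variable (U : Subgroup G) (hUn : U.Normal) (hzU : RInv₃ U z)

include hUn hzU in
lemma j3_z_shift (a b c u₀ u₁ u₂ u₃ : G) (h₀ : u₀ ∈ U) (h₁ : u₁ ∈ U) (h₂ : u₂ ∈ U)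
    (h₃ : u₃ ∈ U) :
    z (u₀⁻¹ * a * u₁, u₁⁻¹ * b * u₂, u₂⁻¹ * c * u₃) = z (a, b, c) := by
  have := hUn
  have k : ∀ (x u u' : G), u ∈ U → u' ∈ U → ∃ s ∈ U, u⁻¹ * x * u' = x * s := by
    intro x u u' hu hu'
    refine ⟨x⁻¹ * u⁻¹ * x * u', U.mul_mem ?_ hu', by group⟩
    have := hUn.conj_mem u⁻¹ (U.inv_mem hu) x⁻¹
    simpa [mul_assoc] using this
  obtain ⟨s₁, hs₁, e₁⟩ := k a u₀ u₁ h₀ h₁
  obtain ⟨s₂, hs₂, e₂⟩ := k b u₁ u₂ h₁ h₂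
  obtain ⟨s₃, hs₃, e₃⟩ := k c u₂ u₃ h₂ h₃
  rw [e₁, e₂, e₃]
  exact hzU a b c s₁ s₂ s₃ hs₁ hs₂ hs₃

include hz hUn hzU in
lemma j3_z_inv (s : G) (hs : s ∈ U) (t : G × G × G) : conjAdd M (PTJ D) s (z t) = z t := by
  have := hUn
  exact desc3_inv_of_cocycle (X := homRep M (PTJ D)) (U := U) hz hzU s hs t

include hz hUn hzU in
lemma j3_Phi_inv (v : ι) (g₀ g₁ g₂ g₃ u₀ u₁ u₂ u₃ : G) (h₀ : u₀ ∈ U) (h₁ : u₁ ∈ U)
    (h₂ : u₂ ∈ U) (h₃ : u₃ ∈ U) :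
    j3_Phi D M z v (g₀ * u₀) (g₁ * u₁) (g₂ * u₂) (g₃ * u₃) = j3_Phi D M z v g₀ g₁ g₂ g₃ := by
  unfold j3_Phi
  have e1 : (g₀ * u₀)⁻¹ * (g₁ * u₁) = u₀⁻¹ * (g₀⁻¹ * g₁) * u₁ := by group
  have e2 : (g₁ * u₁)⁻¹ * (g₂ * u₂) = u₁⁻¹ * (g₁⁻¹ * g₂) * u₂ := by group
  have e3 : (g₂ * u₂)⁻¹ * (g₃ * u₃) = u₂⁻¹ * (g₂⁻¹ * g₃) * u₃ := by group
  rw [e1, e2, e3, j3_z_shift D M z U hUn hzU _ _ _ _ _ _ _ h₀ h₁ h₂ h₃, j3_conjAdd_mul,
    j3_z_inv D M z hz U hUn hzU u₀ h₀]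

variable (v : ι) (yv : Gloc v × Gloc v → (M.V →+ (D.Jloc v).V))

lemma j3_Psi_equiv (d d₀ d₁ d₂ : Gloc v) :
    j3_Psi D M v yv (d * d₀) (d * d₁) (d * d₂) =
      conjAdd (Rep.res (D.r v) M) (D.Jloc v) d (j3_Psi D M v yv d₀ d₁ d₂) := by
  unfold j3_Psi
  have e1 : (d * d₀)⁻¹ * (d * d₁) = d₀⁻¹ * d₁ := by group
  have e2 : (d * d₁)⁻¹ * (d * d₂) = d₁⁻¹ * d₂ := by group
  rw [e1, e2, j3_conjAdd_mul]

variable (hyv : Desc₂ (homRep (Rep.res (D.r v) M) (D.Jloc v)) (U.comap (D.r v)) yv)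

include hUn hyv in
lemma j3_Psi_inv (d₀ d₁ d₂ w₀ w₁ w₂ : Gloc v) (h₀ : D.r v w₀ ∈ U) (h₁ : D.r v w₁ ∈ U)
    (h₂ : D.r v w₂ ∈ U) :
    j3_Psi D M v yv (d₀ * w₀) (d₁ * w₁) (d₂ * w₂) = j3_Psi D M v yv d₀ d₁ d₂ := by
  have := hUn
  have hVn : (U.comap (D.r v)).Normal := inferInstance
  unfold j3_Psi
  have k : ∀ (x u u' : Gloc v), u ∈ U.comap (D.r v) → u' ∈ U.comap (D.r v) →
      ∃ s ∈ U.comap (D.r v), u⁻¹ * x * u' = x * s := by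
    intro x u u' hu hu'
    refine ⟨x⁻¹ * u⁻¹ * x * u', (U.comap (D.r v)).mul_mem ?_ hu', by group⟩
    have := hVn.conj_mem u⁻¹ ((U.comap (D.r v)).inv_mem hu) x⁻¹
    simpa [mul_assoc] using this
  have e1 : (d₀ * w₀)⁻¹ * (d₁ * w₁) = w₀⁻¹ * (d₀⁻¹ * d₁) * w₁ := by group
  have e2 : (d₁ * w₁)⁻¹ * (d₂ * w₂) = w₁⁻¹ * (d₁⁻¹ * d₂) * w₂ := by group
  obtain ⟨s₁, hs₁, f₁⟩ := k (d₀⁻¹ * d₁) w₀ w₁ h₀ h₁
  obtain ⟨s₂, hs₂, f₂⟩ := k (d₁⁻¹ * d₂) w₁ w₂ h₁ h₂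
  rw [e1, e2, f₁, f₂, hyv.1 _ _ _ _ hs₁ hs₂, j3_conjAdd_mul]
  congr 1
  exact hyv.2 _ w₀ h₀

variable (hzy : ∀ s : Gloc v × Gloc v × Gloc v,
    (ev D v).comp (z (D.r v s.1, D.r v s.2.1, D.r v s.2.2)) =
      dTwoRep (homRep (Rep.res (D.r v) M) (D.Jloc v)) yv s)

include hzy in
lemma j3_Phi_Psi (d₀ d₁ d₂ d₃ : Gloc v) :
    j3_Phi D M z v (D.r v d₀) (D.r v d₁) (D.r v d₂) (D.r v d₃) =
      j3_Psi D M v yv d₁ d₂ d₃ - j3_Psi D M v yv d₀ d₂ d₃ + j3_Psi D M v yv d₀ d₁ d₃ -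
        j3_Psi D M v yv d₀ d₁ d₂ := by
  unfold j3_Phi j3_Psi
  have h := hzy (d₀⁻¹ * d₁, d₁⁻¹ * d₂, d₂⁻¹ * d₃)
  simp only [map_mul, map_inv] at h
  rw [in2a_ev_conj, h]
  simp only [dTwoRep]
  have e1 : d₀ * (d₀⁻¹ * d₁) = d₁ := by group
  have e2 : d₀⁻¹ * d₁ * (d₁⁻¹ * d₂) = d₀⁻¹ * d₂ := by group
  have e3 : d₁⁻¹ * d₂ * (d₂⁻¹ * d₃) = d₁⁻¹ * d₃ := by group
  have h1 : (homRep (Rep.res (D.r v) M) (D.Jloc v)).ρ (d₀⁻¹ * d₁) (yv (d₁⁻¹ * d₂, d₂⁻¹ * d₃)) =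
      conjAdd (Rep.res (D.r v) M) (D.Jloc v) (d₀⁻¹ * d₁) (yv (d₁⁻¹ * d₂, d₂⁻¹ * d₃)) := rfl
  rw [h1, map_sub, map_add, map_sub, ← j3_conjAdd_mul, e1, e2, e3]

end Shapiro

/-! ### The 2-cochain `y(σ,τ)(m)_v(g) = Θ_v(g, gσ, gστ)(g m)` -/

section Assemble

variable {p : ℕ} {G : Type} [Group G] {ι : Type} {Gloc : ι → Type} [∀ v, Group (Gloc v)]
  (D : PTDatum p G ι Gloc) (M : Rep.{0} ℤ G)
  (Θ : ∀ v, G → G → G → (M.V →+ (D.Jloc v).V))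

/-- the family of functions underlying `y(σ,τ)(m)` -/
def j3_yFun (σ τ : G) (m : M.V) : ∀ v, G → (D.Jloc v).V :=
  fun v g => Θ v g (g * σ) (g * σ * τ) (M.ρ g m)

variable (U : Subgroup G) (hUn : U.Normal)
  (hΘ1 : ∀ (v : ι) (d : Gloc v) (g₀ g₁ g₂ : G),
    Θ v (D.r v d * g₀) (D.r v d * g₁) (D.r v d * g₂) =
      conjAdd (Rep.res (D.r v) M) (D.Jloc v) d (Θ v g₀ g₁ g₂))
  (hΘ2 : ∀ (v : ι) (g₀ g₁ g₂ u₀ u₁ u₂ : G), u₀ ∈ U → u₁ ∈ U → u₂ ∈ U →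
    Θ v (g₀ * u₀) (g₁ * u₁) (g₂ * u₂) = Θ v g₀ g₁ g₂)
  (hUM : ∀ s ∈ U, ∀ m : M.V, M.ρ s m = m)

include hUn in
lemma j3_conj_mem (u x : G) (hu : u ∈ U) : x⁻¹ * u * x ∈ U := by
  have := hUn.conj_mem u hu x⁻¹
  simpa using this

include hUn hΘ1 hΘ2 hUM in
lemma j3_yFun_mem (hU : U ∈ D.𝒯.lev) (σ τ : G) (m : M.V) :
    j3_yFun D M Θ σ τ m ∈ semilocalSub D.𝒯 D.r D.Jloc := by
  intro v
  refine ⟨fun d g => ?_, ⟨U, hU, fun g u hu => ?_⟩⟩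
  · show Θ v (D.r v d * g) (D.r v d * g * σ) (D.r v d * g * σ * τ) (M.ρ (D.r v d * g) m) =
      (D.Jloc v).ρ d (Θ v g (g * σ) (g * σ * τ) (M.ρ g m))
    have e1 : D.r v d * g * σ = D.r v d * (g * σ) := by group
    have e2 : D.r v d * g * σ * τ = D.r v d * (g * σ * τ) := by group
    rw [e2, e1, hΘ1, in2a_ρ_mul]
    show (D.Jloc v).ρ d (Θ v g (g * σ) (g * σ * τ)
      (M.ρ (D.r v d⁻¹) (M.ρ (D.r v d) (M.ρ g m)))) = _
    rw [map_inv (D.r v) d, in2a_ρ_inv_ρ]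
  · show Θ v (g * u) (g * u * σ) (g * u * σ * τ) (M.ρ (g * u) m) =
      Θ v g (g * σ) (g * σ * τ) (M.ρ g m)
    have e1 : g * u * σ = g * σ * (σ⁻¹ * u * σ) := by group
    have e2 : g * u * σ * τ = g * σ * τ * ((σ * τ)⁻¹ * u * (σ * τ)) := by group
    rw [e2, e1, hΘ2 v _ _ _ _ _ _ hu (j3_conj_mem U hUn u σ hu) (j3_conj_mem U hUn u (σ * τ) hu),
      in2a_ρ_mul, hUM u hu]

/-- `y(σ,τ) : M → J` -/
def j3_y (hUn : U.Normal)
    (hΘ1 : ∀ (v : ι) (d : Gloc v) (g₀ g₁ g₂ : G),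
      Θ v (D.r v d * g₀) (D.r v d * g₁) (D.r v d * g₂) =
        conjAdd (Rep.res (D.r v) M) (D.Jloc v) d (Θ v g₀ g₁ g₂))
    (hΘ2 : ∀ (v : ι) (g₀ g₁ g₂ u₀ u₁ u₂ : G), u₀ ∈ U → u₁ ∈ U → u₂ ∈ U →
      Θ v (g₀ * u₀) (g₁ * u₁) (g₂ * u₂) = Θ v g₀ g₁ g₂)
    (hUM : ∀ s ∈ U, ∀ m : M.V, M.ρ s m = m) (hU : U ∈ D.𝒯.lev) (στ : G × G) :
    M.V →+ (PTJ D).V where
  toFun m := ⟨j3_yFun D M Θ στ.1 στ.2 m, j3_yFun_mem D M Θ U hUn hΘ1 hΘ2 hUM hU στ.1 στ.2 m⟩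
  map_zero' := by
    apply in2a_J_ext
    intro v g
    show Θ v g (g * στ.1) (g * στ.1 * στ.2) (M.ρ g 0) = 0
    rw [map_zero, map_zero]
  map_add' m m' := by
    apply in2a_J_ext
    intro v g
    show Θ v g (g * στ.1) (g * στ.1 * στ.2) (M.ρ g (m + m')) =
      Θ v g (g * στ.1) (g * στ.1 * στ.2) (M.ρ g m) + Θ v g (g * στ.1) (g * στ.1 * στ.2) (M.ρ g m')
    rw [map_add, map_add]

lemma j3_y_apply (hU : U ∈ D.𝒯.lev) (σ τ : G) (m : M.V) (v : ι) (g : G) :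
    ((j3_y D M Θ U hUn hΘ1 hΘ2 hUM hU (σ, τ) m).1 v g : (D.Jloc v).V) =
      Θ v g (g * σ) (g * σ * τ) (M.ρ g m) := rfl

/-- **Semilocal Shapiro in degree 3.** -/
theorem j3_shapiro (U : Subgroup G) (hUn : U.Normal) (hU : U ∈ D.𝒯.lev)
    (hUM : ∀ s ∈ U, ∀ m : M.V, M.ρ s m = m)
    (z : G × G × G → (M.V →+ (PTJ D).V)) (hz : ∀ s, dThree M (PTJ D) z s = 0)
    (hzU : RInv₃ U z)
    (yv : ∀ v, Gloc v × Gloc v → (M.V →+ (D.Jloc v).V))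
    (hyv : ∀ v, Desc₂ (homRep (Rep.res (D.r v) M) (D.Jloc v)) (U.comap (D.r v)) (yv v))
    (hzy : ∀ (v : ι) (s : Gloc v × Gloc v × Gloc v),
      (ev D v).comp (z (D.r v s.1, D.r v s.2.1, D.r v s.2.2)) =
        dTwoRep (homRep (Rep.res (D.r v) M) (D.Jloc v)) (yv v) s) :
    ∃ y : G × G → (M.V →+ (PTJ D).V), IsLevel₂ D.𝒯 y ∧ ∀ s, z s = dTwo M (PTJ D) y s := by
  have := hUn
  have hex : ∀ v, ∃ Θ : G → G → G → (M.V →+ (D.Jloc v).V),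
      (∀ d g₀ g₁ g₂, Θ (D.r v d * g₀) (D.r v d * g₁) (D.r v d * g₂) =
        conjAdd (Rep.res (D.r v) M) (D.Jloc v) d (Θ g₀ g₁ g₂)) ∧
      (∀ g₀ g₁ g₂ u₀ u₁ u₂, u₀ ∈ U → u₁ ∈ U → u₂ ∈ U →
        Θ (g₀ * u₀) (g₁ * u₁) (g₂ * u₂) = Θ g₀ g₁ g₂) ∧
      (∀ g₀ g₁ g₂ g₃, j3_Phi D M z v g₀ g₁ g₂ g₃ =
        Θ g₁ g₂ g₃ - Θ g₀ g₂ g₃ + Θ g₀ g₁ g₃ - Θ g₀ g₁ g₂) := fun v =>
    shap3_main (D.r v) (fun d => conjAdd (Rep.res (D.r v) M) (D.Jloc v) d) U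
      (j3_Phi D M z v) (j3_Psi D M v (yv v))
      (fun d g₀ g₁ g₂ g₃ => j3_Phi_equiv D M z v d g₀ g₁ g₂ g₃)
      (fun g₀ g₁ g₂ g₃ g₄ => j3_Phi_cocycle D M z hz v g₀ g₁ g₂ g₃ g₄)
      (fun g₀ g₁ g₂ g₃ u₀ u₁ u₂ u₃ h₀ h₁ h₂ h₃ =>
        j3_Phi_inv D M z hz U hUn hzU v g₀ g₁ g₂ g₃ u₀ u₁ u₂ u₃ h₀ h₁ h₂ h₃)
      (fun d d₀ d₁ d₂ => j3_Psi_equiv D M v (yv v) d d₀ d₁ d₂)
      (fun d₀ d₁ d₂ w₀ w₁ w₂ h₀ h₁ h₂ =>
        j3_Psi_inv D M U hUn v (yv v) (hyv v) d₀ d₁ d₂ w₀ w₁ w₂ h₀ h₁ h₂)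
      (fun d₀ d₁ d₂ d₃ => j3_Phi_Psi D M z v (yv v) (hzy v) d₀ d₁ d₂ d₃)
  choose Θ hΘ1 hΘ2 hΘ3 using hex
  refine ⟨j3_y D M Θ U hUn hΘ1 hΘ2 hUM hU, ⟨U, hU, fun σ τ s s' hs hs' => ?_⟩, ?_⟩
  · apply AddMonoidHom.ext
    intro m
    apply in2a_J_ext
    intro v g
    rw [j3_y_apply, j3_y_apply]
    have e1 : g * (σ * s) = g * σ * s := by group
    have e2 : g * (σ * s) * (τ * s') = g * σ * τ * (τ⁻¹ * s * τ * s') := by group
    have h1 := hΘ2 v g (g * σ) (g * σ * τ) 1 s (τ⁻¹ * s * τ * s') U.one_mem hs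
      (U.mul_mem (j3_conj_mem U hUn s τ hs) hs')
    rw [mul_one] at h1
    rw [e2, e1, h1]
  · rintro ⟨σ, τ, ρ⟩
    apply AddMonoidHom.ext
    intro m
    apply in2a_J_ext
    intro v g
    have hΦ := hΘ3 v g (g * σ) (g * σ * τ) (g * σ * τ * ρ)
    have hL : ((z (σ, τ, ρ) m).1 v g : (D.Jloc v).V) =
        j3_Phi D M z v g (g * σ) (g * σ * τ) (g * σ * τ * ρ) (M.ρ g m) := by
      unfold j3_Phi
      have e1 : g⁻¹ * (g * σ) = σ := by group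
      have e2 : (g * σ)⁻¹ * (g * σ * τ) = τ := by group
      have e3 : (g * σ * τ)⁻¹ * (g * σ * τ * ρ) = ρ := by group
      rw [e1, e2, e3]
      show _ = ev D v ((PTJ D).ρ g (z (σ, τ, ρ) (M.ρ g⁻¹ (M.ρ g m))))
      rw [in2a_ρ_inv_ρ]
      show _ = (z (σ, τ, ρ) m).1 v (1 * g)
      rw [one_mul]
    rw [hL, hΦ]
    show _ = ((conjAdd M (PTJ D) σ (j3_y D M Θ U hUn hΘ1 hΘ2 hUM hU (τ, ρ)) -
        j3_y D M Θ U hUn hΘ1 hΘ2 hUM hU (σ * τ, ρ) +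
        j3_y D M Θ U hUn hΘ1 hΘ2 hUM hU (σ, τ * ρ) -
        j3_y D M Θ U hUn hΘ1 hΘ2 hUM hU (σ, τ)) m).1 v g
    have hc : ((conjAdd M (PTJ D) σ (j3_y D M Θ U hUn hΘ1 hΘ2 hUM hU (τ, ρ)) m).1 v g :
        (D.Jloc v).V) = Θ v (g * σ) (g * σ * τ) (g * σ * τ * ρ) (M.ρ g m) := by
      show ((j3_y D M Θ U hUn hΘ1 hΘ2 hUM hU (τ, ρ) (M.ρ σ⁻¹ m)).1 v (g * σ) : (D.Jloc v).V) = _
      rw [j3_y_apply, in2a_ρ_mul]
      have := in2a_ρ_inv_ρ M σ⁻¹ m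
      rw [inv_inv] at this
      rw [this]
    have hsum : ((conjAdd M (PTJ D) σ (j3_y D M Θ U hUn hΘ1 hΘ2 hUM hU (τ, ρ)) -
        j3_y D M Θ U hUn hΘ1 hΘ2 hUM hU (σ * τ, ρ) +
        j3_y D M Θ U hUn hΘ1 hΘ2 hUM hU (σ, τ * ρ) -
        j3_y D M Θ U hUn hΘ1 hΘ2 hUM hU (σ, τ)) m).1 v g =
        ((conjAdd M (PTJ D) σ (j3_y D M Θ U hUn hΘ1 hΘ2 hUM hU (τ, ρ)) m).1 v g : (D.Jloc v).V) -
        (j3_y D M Θ U hUn hΘ1 hΘ2 hUM hU (σ * τ, ρ) m).1 v g +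
        (j3_y D M Θ U hUn hΘ1 hΘ2 hUM hU (σ, τ * ρ) m).1 v g -
        (j3_y D M Θ U hUn hΘ1 hΘ2 hUM hU (σ, τ) m).1 v g := rfl
    rw [hsum, hc, j3_y_apply, j3_y_apply, j3_y_apply]
    have e4 : g * (σ * τ) = g * σ * τ := by group
    have e5 : g * σ * (τ * ρ) = g * σ * τ * ρ := by group
    rw [e5, e4]
    rfl

end Assemble

end Fermat.Agent.TW.E

end
end ZBTW_047_2
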