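/- GENERATED FILE (helper35, build-time optimisation, NOTES/ZB.md): verbatim concatenation of the modules
   Fermat.Agent.TW.E.H3Fund
   Do not edit; do not import together with these modules. -/
import Fermat.Agent.ZB.TW_014
import Fermat.Agent.ZB.PT_031

/-! ### bundled: `Fermat.Agent.TW.E.H3Fund` -/
section ZBTW_048_0
/-
Project TW (S56) — part TW-E, piece A1 (helper87): `stmtH3Fund : StmtH3Fund`.

If `Y` has a `p`-fundamental class, then `H³(Γ, Y)` has no `p`-torsion.

Route (shorter than the twin criterion): Sylow (`stmtSylow`, degree 3) reduces to a `p`-group `Π`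
with a fundamental class `u` of `C := res Y`.  Apply `Hom(-, C)` to the additively split sequence
`0 → I → F → ℤ → 0` (`F = Map(Π, ℤ)`, `I` the augmentation ideal; `stmtHomPre`):
`0 → Hom(ℤ, C) → Hom(F, C) → Hom(I, C) → 0`.
* `Hom(F, C)` is weakly injective (`stmtHomWI`), hence a retract of `Coind_1 Hom(F, C)` and all
  its higher cohomology vanishes (`h3f_isZero_of_isWI`);
* `H²(Π, Hom(I, C)) = 0` by Tate–Nakayama in degree 0 (`stmtTN0`): every class is `x ∪ u` for a
  `Π`-invariant functional `x : I → ℤ`, and such a functional is zero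
  (`σ ↦ x(δ_σ - δ_1)` is a homomorphism `Π → ℤ`);
so `H³(Π, Hom(ℤ, C)) = 0`, and `C` is a retract of `Hom(ℤ, C)`.
-/

set_option autoImplicit false
set_option linter.unusedSectionVars false
set_option linter.unusedVariables false
set_option linter.style.haveILetI false

noncomputable section

namespace Fermat.Agent.TW.E

open CategoryTheory groupCohomology Fermat.Agent.PT Fermat.Agent.PT.SylowRes
  Fermat.Agent.PT.DSCoind

attribute [local instance 1100] Rep.hV2

variable {G : Type} [Group G]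

/-! ### 1. Weakly injective modules have no higher cohomology -/

section WI

variable [Fintype G] (X : Rep.{0} ℤ G) (h : X.V →+ X.V)

/-- The retraction `Coind_1^G X → X`, `f ↦ ∑ γ, γ h(f(γ⁻¹))`, attached to `h` with `N(h) = id`. -/
def h3f_retrAdd : (coindTriv X).V →+ X.V :=
  ∑ γ : G, (actAdd X γ).comp (h.comp (evalAt X γ⁻¹))

lemma h3f_retrAdd_apply (f : (coindTriv X).V) :
    h3f_retrAdd X h f = ∑ γ : G, X.ρ γ (h (f.1 γ⁻¹)) := by
  simp only [h3f_retrAdd, AddMonoidHom.finsetSum_apply]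
  rfl

lemma h3f_retrAdd_equivariant (g : G) (f : (coindTriv X).V) :
    h3f_retrAdd X h ((coindTriv X).ρ g f) = X.ρ g (h3f_retrAdd X h f) := by
  rw [h3f_retrAdd_apply, h3f_retrAdd_apply, map_sum]
  refine (Fintype.sum_equiv (Equiv.mulLeft g) _ _ fun δ => ?_).symm
  change X.ρ g (X.ρ δ (h (f.1 δ⁻¹))) = X.ρ (g * δ) (h (f.1 ((g * δ)⁻¹ * g)))
  rw [mul_inv_rev, inv_mul_cancel_right, map_mul, Module.End.mul_apply]

/-- The retraction as a morphism of representations. -/
def h3f_retr : coindTriv X ⟶ X :=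
  FpCT.mkHom (A := coindTriv X) (B := X) (h3f_retrAdd X h) (h3f_retrAdd_equivariant X h)

lemma h3f_retr_apply (f : (coindTriv X).V) : (h3f_retr X h).hom f = h3f_retrAdd X h f := rfl

lemma h3f_unit_retr (hh : ∀ x : X.V, ∑ γ : G, X.ρ γ (h (X.ρ γ⁻¹ x)) = x) :
    unitHom X ≫ h3f_retr X h = 𝟙 X := by
  apply Rep.hom_ext
  ext x
  change h3f_retrAdd X h ((unitHom X).hom x) = x
  rw [h3f_retrAdd_apply]
  exact hh x

/-- A weakly injective module has vanishing cohomology in all positive degrees. -/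
theorem h3f_isZero_of_isWI (hX : IsWI X) (n : ℕ) : Limits.IsZero (groupCohomology X (n + 1)) := by
  obtain ⟨h, hh⟩ := hX
  have hcomp := h3f_unit_retr X h hh
  have hmap : groupCohomology.map (MonoidHom.id G) (unitHom X) (n + 1) ≫
      groupCohomology.map (MonoidHom.id G) (h3f_retr X h) (n + 1) = 𝟙 _ := by
    rw [← groupCohomology.map_id_comp, hcomp, groupCohomology.map_id]
  rw [Limits.IsZero.iff_id_eq_zero, ← hmap,
    (isZero_coindTriv X n).eq_of_tgt (groupCohomology.map (MonoidHom.id G) (unitHom X) (n + 1)) 0,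
    Limits.zero_comp]

end WI

/-! ### 2. The regular module `F = Map(G, ℤ)` is weakly injective -/

section RegF

variable [Fintype G]

/-- `f ↦ f 1 • δ₁` on `Map(G, ℤ)`. -/
def h3f_delta [DecidableEq G] : (G → ℤ) →+ (G → ℤ) where
  toFun f := Pi.single (1 : G) (f 1)
  map_zero' := by simp
  map_add' f g := by simp [Pi.single_add]

lemma h3f_delta_apply [DecidableEq G] (f : G → ℤ) (x : G) :
    h3f_delta f x = if x = 1 then f 1 else 0 := by
  change (Pi.single (1 : G) (f 1) : G → ℤ) x = _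
  rw [Pi.single_apply]

theorem h3f_isWI_repF (G : Type) [Group G] [Fintype G] : IsWI (SM.repF G) := by
  classical
  refine ⟨h3f_delta, fun f => ?_⟩
  change ∑ γ : G, SM.ρF γ (h3f_delta (SM.ρF γ⁻¹ f)) = f
  funext x
  rw [Finset.sum_apply, Finset.sum_eq_single x]
  · rw [SM.ρF_apply, h3f_delta_apply, if_pos (inv_mul_cancel x), SM.ρF_apply, inv_inv, mul_one]
  · intro γ _ hγ
    rw [SM.ρF_apply, h3f_delta_apply, if_neg]
    intro hx
    exact hγ (inv_mul_eq_one.1 hx)
  · intro hx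
    exact absurd (Finset.mem_univ _) hx

/-- `f ↦ f - (∑ f) • δ₁`, a retraction of `I ⊆ Map(G, ℤ)`. -/
def h3f_projFun [DecidableEq G] : (G → ℤ) →+ (G → ℤ) where
  toFun f := f - Pi.single (1 : G) (∑ x, f x)
  map_zero' := by simp
  map_add' f g := by
    simp only [Pi.add_apply, Finset.sum_add_distrib, Pi.single_add]
    abel

lemma h3f_projFun_mem [DecidableEq G] (f : G → ℤ) : h3f_projFun f ∈ SM.IV G := by
  rw [SM.mem_IV]
  change ∑ x, ((f - Pi.single (1 : G) (∑ x, f x) : G → ℤ) x) = 0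
  simp only [Pi.sub_apply, Finset.sum_sub_distrib]
  rw [Finset.sum_pi_single' (1 : G) (∑ x, f x) Finset.univ, if_pos (Finset.mem_univ _), sub_self]

/-- The retraction `Map(G, ℤ) → I`. -/
def h3f_projI [DecidableEq G] : (G → ℤ) →+ SM.IV G :=
  AddMonoidHom.codRestrict h3f_projFun (SM.IV G) h3f_projFun_mem

lemma h3f_projI_j [DecidableEq G] (f : SM.IV G) : h3f_projI ((SM.jHom G).hom f) = f := by
  apply Subtype.ext
  change ((f : G → ℤ) - Pi.single (1 : G) (∑ x, (f : G → ℤ) x)) = (f : G → ℤ)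
  rw [SM.IV_sum f, Pi.single_zero, sub_zero]

/-! ### 3. The augmentation ideal: `ℤ`-free, without invariant functionals -/

theorem h3f_isZFree_repI (G : Type) [Group G] [Fintype G] : IsZFree (SM.repI G) := by
  let N : Submodule ℤ (G → ℤ) := AddSubgroup.toIntSubmodule (SM.IV G)
  refine ⟨Module.finrank ℤ N, ⟨?_⟩⟩
  have e₁ : (SM.IV G) ≃+ N :=
    { toFun := fun f => ⟨f.1, f.2⟩
      invFun := fun f => ⟨f.1, f.2⟩
      left_inv := fun f => rfl
      right_inv := fun f => rfl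
      map_add' := fun f g => rfl }
  exact e₁.trans (Module.finBasis ℤ N).equivFun.toAddEquiv

/-- `δ_σ - δ_1` in the augmentation ideal. -/
def h3f_gen [DecidableEq G] (σ : G) : SM.IV G :=
  ⟨Pi.single σ 1 - Pi.single 1 1, by
    rw [SM.mem_IV]
    simp only [Pi.sub_apply, Finset.sum_sub_distrib]
    rw [Finset.sum_pi_single' σ (1 : ℤ) Finset.univ, Finset.sum_pi_single' (1 : G) (1 : ℤ)
      Finset.univ, if_pos (Finset.mem_univ _), if_pos (Finset.mem_univ _), sub_self]⟩

lemma h3f_gen_apply [DecidableEq G] (σ y : G) :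
    (h3f_gen σ : G → ℤ) y = (if y = σ then 1 else 0) - (if y = 1 then 1 else 0) := by
  change (Pi.single σ (1 : ℤ) - Pi.single (1 : G) (1 : ℤ) : G → ℤ) y = _
  rw [Pi.sub_apply, Pi.single_apply, Pi.single_apply]

lemma h3f_ρI_gen [DecidableEq G] (σ τ : G) :
    SM.ρI σ (h3f_gen τ) = h3f_gen (σ * τ) - h3f_gen σ := by
  apply Subtype.ext
  funext y
  rw [SM.ρI_apply, h3f_gen_apply]
  change _ = (h3f_gen (σ * τ) : G → ℤ) y - (h3f_gen σ : G → ℤ) y
  rw [h3f_gen_apply, h3f_gen_apply]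
  have e1 : (σ⁻¹ * y = τ) ↔ (y = σ * τ) := inv_mul_eq_iff_eq_mul
  have e2 : (σ⁻¹ * y = 1) ↔ (y = σ) := by
    rw [inv_mul_eq_iff_eq_mul, mul_one]
  simp only [e1, e2]
  ring

lemma h3f_eq_sum_gen [DecidableEq G] (f : SM.IV G) :
    f = ∑ σ : G, (f : G → ℤ) σ • h3f_gen σ := by
  apply Subtype.ext
  funext y
  have hsum : ((∑ σ : G, (f : G → ℤ) σ • h3f_gen σ : SM.IV G) : G → ℤ) y =
      ∑ σ : G, (f : G → ℤ) σ * (h3f_gen σ : G → ℤ) y := by
    have h1 : ((∑ σ : G, (f : G → ℤ) σ • h3f_gen σ : SM.IV G) : G → ℤ) =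
        ∑ σ : G, (f : G → ℤ) σ • (h3f_gen σ : G → ℤ) := by
      rw [AddSubgroup.val_finsetSum]
      rfl
    rw [h1, Finset.sum_apply]
    rfl
  rw [hsum]
  simp only [h3f_gen_apply, mul_sub, Finset.sum_sub_distrib, mul_ite, mul_one, mul_zero]
  rw [Finset.sum_ite_eq Finset.univ y (fun σ => (f : G → ℤ) σ), if_pos (Finset.mem_univ _)]
  by_cases hy : y = 1
  · simp only [hy, if_true]
    rw [SM.IV_sum f, sub_zero]
  · simp only [hy, if_false, Finset.sum_const_zero, sub_zero]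

/-- A `G`-invariant functional on the augmentation ideal of a finite group vanishes. -/
theorem h3f_inv_functional_eq_zero (G : Type) [Group G] [Fintype G]
    (x : (SM.repI G).V →+ ℤ)
    (hx : ∀ (g : G) (m : (SM.repI G).V), x ((SM.repI G).ρ g m) = x m) : x = 0 := by
  classical
  have hadd : ∀ σ τ : G, x (h3f_gen (σ * τ)) = x (h3f_gen σ) + x (h3f_gen τ) := by
    intro σ τ
    have h1 : x (SM.ρI σ (h3f_gen τ)) = x (h3f_gen τ) := hx σ (h3f_gen τ)
    rw [h3f_ρI_gen, map_sub] at h1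
    linarith
  have hφ : ∀ σ : G, x (h3f_gen σ) = 0 :=
    SM.eq_zero_of_additive (fun σ => x (h3f_gen σ)) hadd
  apply AddMonoidHom.ext
  intro f
  have hf : x f = x (∑ σ : G, (f : G → ℤ) σ • h3f_gen σ) := congrArg x (h3f_eq_sum_gen f)
  rw [hf, map_sum]
  simp only [map_zsmul, hφ, smul_zero, Finset.sum_const_zero]
  rfl

end RegF

/-! ### 4. `p`-groups -/

section PGroup

variable (p : ℕ) [Fact p.Prime] (G : Type) [Group G] [Fintype G]

theorem h3f_isZero_H2_homRep_I (hG : IsPGroup p G) (C : Rep.{0} ℤ G) (u : H2 C)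
    (hu : IsFundClass C u) : Limits.IsZero (groupCohomology (homRep (SM.repI G) C) 2) := by
  have key : ∀ ζ : H2 (homRep (SM.repI G) C), ζ = 0 := by
    intro ζ
    obtain ⟨x, hx, hζ⟩ := stmtTN0 p G hG C u hu (SM.repI G) (h3f_isZFree_repI G) ζ
    have hx0 : x = 0 := h3f_inv_functional_eq_zero G x hx
    subst hx0
    have hm : mulHom (SM.repI G) C 0 hx = 0 := by
      apply Rep.hom_ext
      ext c n
      show (0 : ℤ) • c = 0
      exact zero_smul _ _
    have h0 : push₂ (0 : C ⟶ homRep (SM.repI G) C) = 0 := map_zero (tn0_mapHom C _ 2)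
    rw [hζ, hm, h0]
    rfl
  haveI : Subsingleton (H2 (homRep (SM.repI G) C)) := ⟨fun a b => by rw [key a, key b]⟩
  exact ModuleCat.isZero_of_subsingleton _

/-- For a `p`-group with a fundamental class, `H³(G, C) = 0`. -/
theorem h3f_pgroup (hG : IsPGroup p G) (C : Rep.{0} ℤ G) (u : H2 C) (hu : IsFundClass C u) :
    Limits.IsZero (groupCohomology C 3) := by
  classical
  have w' : homRepPre (SM.eHom G) C ≫ homRepPre (SM.jHom G) C = 0 :=
    dsAbs_comp_zero _ _ (SM.jHom_comp_eHom G) C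
  have hS : (ShortComplex.mk (homRepPre (SM.eHom G) C) (homRepPre (SM.jHom G) C) w').ShortExact :=
    stmtHomPre G C (SM.repI G) (SM.repF G) (Rep.trivial ℤ G ℤ) (SM.jHom G) (SM.eHom G)
      (SM.jHom_comp_eHom G) w' (SM.shortExact_IF G) ⟨h3f_projI, h3f_projI_j⟩
  have h2 : Limits.IsZero (groupCohomology (homRep (SM.repF G) C) 3) :=
    h3f_isZero_of_isWI _ (stmtHomWI G (SM.repF G) C (h3f_isWI_repF G)) 2
  have h3 : Limits.IsZero (groupCohomology (homRep (SM.repI G) C) 2) :=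
    h3f_isZero_H2_homRep_I p G hG C u hu
  have h1 : Limits.IsZero (groupCohomology (homRep (Rep.trivial ℤ G ℤ) C) 3) :=
    CTaux.isZero_X₁ hS 2 h3 h2
  have hx1 : ∀ (g : G) (m : (Rep.trivial ℤ G ℤ).V),
      (AddMonoidHom.id ℤ) ((Rep.trivial ℤ G ℤ).ρ g m) = (AddMonoidHom.id ℤ) m := fun g m => rfl
  have hcomp : mulHom (Rep.trivial ℤ G ℤ) C (AddMonoidHom.id ℤ) hx1 ≫
      evHom (Rep.trivial ℤ G ℤ) C (1 : ℤ) (fun g => rfl) = 𝟙 C := by
    apply Rep.hom_ext
    ext c
    show (1 : ℤ) • c = c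
    exact one_smul _ _
  have hmap : groupCohomology.map (MonoidHom.id G)
        (mulHom (Rep.trivial ℤ G ℤ) C (AddMonoidHom.id ℤ) hx1) 3 ≫
      groupCohomology.map (MonoidHom.id G)
        (evHom (Rep.trivial ℤ G ℤ) C (1 : ℤ) (fun g => rfl)) 3 = 𝟙 _ := by
    rw [← groupCohomology.map_id_comp, hcomp, groupCohomology.map_id]
  rw [Limits.IsZero.iff_id_eq_zero, ← hmap,
    h1.eq_of_tgt (groupCohomology.map (MonoidHom.id G)
      (mulHom (Rep.trivial ℤ G ℤ) C (AddMonoidHom.id ℤ) hx1) 3) 0,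
    Limits.zero_comp]

end PGroup

/-! ### 5. The statement -/

/-- **TW-E / A1.** -/
theorem stmtH3Fund : StmtH3Fund := by
  intro p _ Γ _ _ Y u hu x hx
  classical
  obtain ⟨P⟩ : Nonempty (Sylow p Γ) := inferInstance
  refine stmtSylow p Γ Y P 3 x (by norm_num) hx ?_
  haveI : Fintype (P : Subgroup Γ) := Fintype.ofFinite _
  have hP : IsPGroup p (P : Subgroup Γ) := P.isPGroup'
  have hfund : IsFundClass (Rep.res (P : Subgroup Γ).subtype Y)
      ((resSub Y (P : Subgroup Γ) 2).hom u) :=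
    ⟨hu.h1 _ hP, hu.h2_card _ hP, hu.h2_gen _ hP⟩
  have hz := h3f_pgroup p (P : Subgroup Γ) hP _ _ hfund
  haveI := ModuleCat.subsingleton_of_isZero hz
  exact Subsingleton.elim _ _

end Fermat.Agent.TW.E

end
end ZBTW_048_0
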