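/- GENERATED FILE (helper35, build-time optimisation, NOTES/ZB.md): verbatim concatenation of the modules
   Fermat.Agent.TW.E.H3Perm
   Fermat.Agent.TW.E.C2SurjFin
   Fermat.Agent.TW.E.C2SurjRes
   Fermat.Agent.TW.E.C2SurjPerm
   Fermat.Agent.TW.E.J3
   Do not edit; do not import together with these modules. -/
import Mathlib
import Fermat.Agent.ZB.TW_014
import Fermat.Agent.ZB.PT_002
import Fermat.Agent.ZB.PT_022
import Fermat.Agent.ZB.PT_085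
import Fermat.Agent.ZB.TW_042
import Fermat.Agent.ZB.TW_047
import Fermat.Agent.ZB.TW_048

/-! ### bundled: `Fermat.Agent.TW.E.H3Perm` -/
section ZBTW_044_0
/-
Project TW, part TW-E, block E-add, piece A1′ (helper1):
`stmtH3FundPerm_of : StmtH3Fund → StmtH3FundPerm`.

`H³(Γ, Hom_ℤ(ℤ[Ω], Y))` has no `p`-torsion if `Y` has a `p`-fundamental class.

For a base point `ω₀ ∈ Ω` with stabiliser `H`:
* `h3pA Y ω₀ : Hom(ℤ[Ω], Y) ⟶ Coind_H^Γ Res_H Y`, `φ ↦ (g ↦ g φ(g⁻¹ ω₀))`  (adjunction),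
* `h3pB Y ω₀ : Coind_H^Γ Res_H Y ⟶ Hom(ℤ[Ω], Y)`, `F ↦ (γ ω₀ ↦ γ F(γ⁻¹))`, zero outside `Γ ω₀`,
* `h3pA ≫ h3pB` is the projection onto the part of `φ` supported on the orbit of `ω₀`, so the sum
  over orbit representatives is the identity (`h3p_sum_eq_id`).
Hence `H³(Γ, Hom(ℤ[Ω], Y))` embeds into `∏ H³(Γ, Coind_H Res_H Y) ≅ ∏ H³(H, Res_H Y)` (Shapiro:
Mathlib `groupCohomology.coindIso`), and `Res_H Y` has a `p`-fundamental class for the group `H`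
(`h3p_fund_res`: transport along `K ≃ K.map H.subtype`, Mathlib `groupCohomology.mapIso`).
-/

set_option autoImplicit false
set_option linter.unusedSectionVars false

noncomputable section

namespace Fermat.Agent.TW.E

open CategoryTheory groupCohomology Fermat.Agent.PT Fermat.Agent.PT.F

attribute [local instance 1100] Rep.hV2

/-! ### Additive maps out of `ℤ[Ω]` -/

section Perm

variable {Γ : Type} [Group Γ] (Ω : Type) [MulAction Γ Ω]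

/-- the action on the basis of `ℤ[Ω]` -/
lemma h3p_ρ_single (σ : Γ) (ω : Ω) (z : ℤ) :
    (permZ Γ Ω).ρ σ (MonoidAlgebra.single ω z) = MonoidAlgebra.single (σ • ω) z :=
  Representation.ofMulAction_single σ ω z

/-- the additive map `ℤ[Ω] → A` with prescribed values on the basis -/
def h3pLift {A : Type} [AddCommGroup A] (t : Ω → A) : (permZ Γ Ω).V →+ A :=
  (Finsupp.liftAddHom (fun ω : Ω => zmultiplesHom A (t ω))).comp
    (MonoidAlgebra.coeffAddEquiv (R := ℤ) (M := Ω)).toAddMonoidHom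

lemma h3pLift_single {A : Type} [AddCommGroup A] (t : Ω → A) (ω : Ω) (z : ℤ) :
    h3pLift (Γ := Γ) Ω t (MonoidAlgebra.single ω z) = z • t ω := by
  simp [h3pLift, MonoidAlgebra.coeffAddEquiv]

/-- additive maps out of `ℤ[Ω]` agree if they agree on the basis -/
lemma h3p_ext {A : Type} [AddCommGroup A] (f f' : (permZ Γ Ω).V →+ A)
    (h : ∀ ω : Ω, f (MonoidAlgebra.single ω 1) = f' (MonoidAlgebra.single ω 1)) : f = f' := by
  apply MonoidAlgebra.addMonoidHom_ext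
  intro ω z
  have h1 : (MonoidAlgebra.single ω z : MonoidAlgebra ℤ Ω) = z • MonoidAlgebra.single ω 1 := by
    rw [MonoidAlgebra.smul_single, smul_eq_mul, mul_one]
  rw [h1, map_zsmul, map_zsmul, h ω]

end Perm

/-! ### No `p`-torsion in `H³`: formal properties -/

section Formal

variable {Γ : Type} [Group Γ]

/-- `H³(Γ, A)` has no `p`-torsion. -/
def H3pFree (p : ℕ) (A : Rep.{0} ℤ Γ) : Prop :=
  ∀ x : groupCohomology A 3, IsPTors p x → x = 0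

lemma h3p_isPTors_map (p : ℕ) {A B : Rep.{0} ℤ Γ} (f : A ⟶ B) (x : groupCohomology A 3)
    (hx : IsPTors p x) :
    IsPTors p ((groupCohomology.map (MonoidHom.id Γ) f 3).hom x) := by
  obtain ⟨k, hk⟩ := hx
  refine ⟨k, ?_⟩
  rw [← map_nsmul, hk, map_zero]

/-- If the identity of `X` is a finite sum of morphisms factoring through modules without
`p`-torsion in `H³`, then `H³(Γ, X)` has no `p`-torsion. -/
lemma h3p_of_sum (p : ℕ) {X : Rep.{0} ℤ Γ} {I : Type} [Fintype I] (A : I → Rep.{0} ℤ Γ)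
    (a : ∀ i, X ⟶ A i) (b : ∀ i, A i ⟶ X) (h : ∑ i, a i ≫ b i = 𝟙 X)
    (hA : ∀ i, H3pFree p (A i)) : H3pFree p X := by
  intro x hx
  have e : ∀ i, (groupCohomology.map (MonoidHom.id Γ) (a i) 3).hom x = 0 :=
    fun i => hA i _ (h3p_isPTors_map p (a i) x hx)
  have key : groupCohomology.map (MonoidHom.id Γ) (∑ i, a i ≫ b i) 3 = 𝟙 _ := by
    rw [h, groupCohomology.map_id]
  have hsum : groupCohomology.map (MonoidHom.id Γ) (∑ i, a i ≫ b i) 3 =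
      ∑ i, groupCohomology.map (MonoidHom.id Γ) (a i) 3 ≫
        groupCohomology.map (MonoidHom.id Γ) (b i) 3 := by
    have h1 := (groupCohomology.functor ℤ Γ 3).map_sum (fun i => a i ≫ b i) Finset.univ
    refine h1.trans ?_
    refine Finset.sum_congr rfl fun i _ => ?_
    exact groupCohomology.map_id_comp (a i) (b i) 3
  rw [hsum] at key
  have h2 := congrArg (fun f => f.hom x) key
  simp only [ModuleCat.hom_sum, LinearMap.sum_apply, ModuleCat.hom_comp, LinearMap.comp_apply,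
    ModuleCat.hom_id, LinearMap.id_apply] at h2
  rw [← h2]
  refine Finset.sum_eq_zero fun i _ => ?_
  rw [e i, map_zero]

end Formal

/-! ### The two maps for a base point -/

section BasePoint

variable {Γ : Type} [Group Γ] {Ω : Type} [MulAction Γ Ω] (Y : Rep.{0} ℤ Γ) (ω₀ : Ω)

/-- the stabiliser of the base point -/
abbrev h3pH : Subgroup Γ := MulAction.stabilizer Γ ω₀

/-- `Coind_H^Γ Res_H Y` for the stabiliser `H` of `ω₀` -/
def h3pC : Rep.{0} ℤ Γ :=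
  Rep.coind (h3pH (Γ := Γ) ω₀).subtype (Rep.res (h3pH (Γ := Γ) ω₀).subtype Y)

lemma h3pC_mem (F : (h3pC Y ω₀).V) (h : Γ) (hh : h • ω₀ = ω₀) (x : Γ) :
    F.1 (h * x) = Y.ρ h (F.1 x) :=
  F.2 ⟨h, MulAction.mem_stabilizer_iff.2 hh⟩ x

lemma h3pC_ρ_apply (F : (h3pC Y ω₀).V) (g x : Γ) :
    ((h3pC Y ω₀).ρ g F).1 x = F.1 (x * g) := rfl

/-- the value `a F(a⁻¹ c)` depends only on `a ω₀` -/
lemma h3p_wd (F : (h3pC Y ω₀).V) (a b c : Γ) (hab : a • ω₀ = b • ω₀) :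
    Y.ρ a (F.1 (a⁻¹ * c)) = Y.ρ b (F.1 (b⁻¹ * c)) := by
  have hh : (b⁻¹ * a) • ω₀ = ω₀ := by
    rw [mul_smul, hab, inv_smul_smul]
  have h1 : F.1 (b⁻¹ * c) = Y.ρ (b⁻¹ * a) (F.1 (a⁻¹ * c)) := by
    rw [← h3pC_mem Y ω₀ F (b⁻¹ * a) hh (a⁻¹ * c)]
    group
  rw [h1, ← Module.End.mul_apply, ← map_mul, mul_inv_cancel_left]

/-- evaluation at the base point, `H`-equivariant -/
def h3pEv : Rep.res (h3pH (Γ := Γ) ω₀).subtype (homRep (permZ Γ Ω) Y) ⟶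
    Rep.res (h3pH (Γ := Γ) ω₀).subtype Y :=
  ConcreteCategory.ofHom (C := Rep.{0} ℤ ↥(h3pH (Γ := Γ) ω₀))
    (X := Rep.res (h3pH (Γ := Γ) ω₀).subtype (homRep (permZ Γ Ω) Y))
    (Y := Rep.res (h3pH (Γ := Γ) ω₀).subtype Y)
    (LinearMap.intertwiningMap_of_isIntertwiningMap
      (ρ := (Rep.res (h3pH (Γ := Γ) ω₀).subtype (homRep (permZ Γ Ω) Y)).ρ)
      (σ := (Rep.res (h3pH (Γ := Γ) ω₀).subtype Y).ρ)
      (f := addToLin (AddMonoidHom.eval (MonoidAlgebra.single ω₀ (1 : ℤ))))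
      (fun g φ => by
        show (homRepρ (permZ Γ Ω) Y (g : Γ) φ) (MonoidAlgebra.single ω₀ 1) =
          Y.ρ (g : Γ) (φ (MonoidAlgebra.single ω₀ 1))
        rw [homRepρ_apply, h3p_ρ_single]
        have hg : ((g : Γ))⁻¹ • ω₀ = ω₀ := by
          have h1 : (g : Γ) • ω₀ = ω₀ := MulAction.mem_stabilizer_iff.1 g.2
          rw [inv_smul_eq_iff, h1]
        rw [hg]))

/-- `φ ↦ (g ↦ g φ(g⁻¹ ω₀))` -/
def h3pA : homRep (permZ Γ Ω) Y ⟶ h3pC Y ω₀ :=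
  Rep.resCoindHomEquiv (h3pH (Γ := Γ) ω₀).subtype (homRep (permZ Γ Ω) Y)
    (Rep.res (h3pH (Γ := Γ) ω₀).subtype Y) (h3pEv Y ω₀)

lemma h3pA_apply (φ : (permZ Γ Ω).V →+ Y.V) (g : Γ) :
    ((h3pA Y ω₀).hom φ).1 g = Y.ρ g (φ (MonoidAlgebra.single (g⁻¹ • ω₀) 1)) := by
  show (homRepρ (permZ Γ Ω) Y g φ) (MonoidAlgebra.single ω₀ 1) = _
  rw [homRepρ_apply, h3p_ρ_single]

open Classical in
/-- the values of `h3pB` on the basis -/
def h3pBval (F : (h3pC Y ω₀).V) (ω : Ω) : Y.V :=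
  if h : ∃ γ : Γ, γ • ω₀ = ω then Y.ρ (Classical.choose h) (F.1 (Classical.choose h)⁻¹) else 0

lemma h3pBval_eq (F : (h3pC Y ω₀).V) (γ : Γ) :
    h3pBval Y ω₀ F (γ • ω₀) = Y.ρ γ (F.1 γ⁻¹) := by
  have h : ∃ γ' : Γ, γ' • ω₀ = γ • ω₀ := ⟨γ, rfl⟩
  unfold h3pBval
  rw [dif_pos h]
  have h1 := h3p_wd Y ω₀ F (Classical.choose h) γ 1 (Classical.choose_spec h)
  rw [mul_one, mul_one] at h1
  exact h1

lemma h3pBval_eq_zero (F : (h3pC Y ω₀).V) (ω : Ω) (h : ¬ ∃ γ : Γ, γ • ω₀ = ω) :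
    h3pBval Y ω₀ F ω = 0 := by
  unfold h3pBval
  rw [dif_neg h]

lemma h3pBval_add (F F' : (h3pC Y ω₀).V) (ω : Ω) :
    h3pBval Y ω₀ (F + F') ω = h3pBval Y ω₀ F ω + h3pBval Y ω₀ F' ω := by
  by_cases h : ∃ γ : Γ, γ • ω₀ = ω
  · obtain ⟨γ, rfl⟩ := h
    rw [h3pBval_eq, h3pBval_eq, h3pBval_eq]
    show Y.ρ γ (F.1 γ⁻¹ + F'.1 γ⁻¹) = _
    rw [map_add]
  · rw [h3pBval_eq_zero Y ω₀ _ ω h, h3pBval_eq_zero Y ω₀ _ ω h, h3pBval_eq_zero Y ω₀ _ ω h,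
      add_zero]

/-- `F ↦ (γ ω₀ ↦ γ F(γ⁻¹))`, additively -/
def h3pBadd : (h3pC Y ω₀).V →+ ((permZ Γ Ω).V →+ Y.V) :=
  AddMonoidHom.mk' (fun F => h3pLift (Γ := Γ) Ω (h3pBval Y ω₀ F)) (fun F F' => by
    apply h3p_ext
    intro ω
    rw [AddMonoidHom.add_apply, h3pLift_single, h3pLift_single, h3pLift_single, one_smul,
      one_smul, one_smul, h3pBval_add])

lemma h3pBadd_single (F : (h3pC Y ω₀).V) (ω : Ω) :
    h3pBadd Y ω₀ F (MonoidAlgebra.single ω 1) = h3pBval Y ω₀ F ω := by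
  show h3pLift (Γ := Γ) Ω (h3pBval Y ω₀ F) (MonoidAlgebra.single ω 1) = _
  rw [h3pLift_single, one_smul]

lemma h3pBval_comm (g : Γ) (F : (h3pC Y ω₀).V) (ω : Ω) :
    h3pBval Y ω₀ ((h3pC Y ω₀).ρ g F) ω = Y.ρ g (h3pBval Y ω₀ F (g⁻¹ • ω)) := by
  by_cases h : ∃ γ : Γ, γ • ω₀ = ω
  · obtain ⟨γ, rfl⟩ := h
    rw [h3pBval_eq, ← mul_smul, h3pBval_eq, h3pC_ρ_apply, ← Module.End.mul_apply, ← map_mul,
      mul_inv_cancel_left, mul_inv_rev, inv_inv]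
  · have h' : ¬ ∃ γ : Γ, γ • ω₀ = g⁻¹ • ω := by
      rintro ⟨γ, hγ⟩
      exact h ⟨g * γ, by rw [mul_smul, hγ, smul_inv_smul]⟩
    rw [h3pBval_eq_zero Y ω₀ _ ω h, h3pBval_eq_zero Y ω₀ _ _ h', map_zero]

/-- `F ↦ (γ ω₀ ↦ γ F(γ⁻¹))` as a morphism of representations -/
def h3pB : h3pC Y ω₀ ⟶ homRep (permZ Γ Ω) Y :=
  ConcreteCategory.ofHom (C := Rep.{0} ℤ Γ) (X := h3pC Y ω₀) (Y := homRep (permZ Γ Ω) Y)
    (LinearMap.intertwiningMap_of_isIntertwiningMap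
      (ρ := (h3pC Y ω₀).ρ) (σ := homRepρ (permZ Γ Ω) Y)
      (f := addToLin (h3pBadd Y ω₀))
      (fun g F => by
        apply h3p_ext
        intro ω
        show h3pBadd Y ω₀ ((h3pC Y ω₀).ρ g F) (MonoidAlgebra.single ω 1) =
          (homRepρ (permZ Γ Ω) Y g (h3pBadd Y ω₀ F)) (MonoidAlgebra.single ω 1)
        rw [homRepρ_apply, h3p_ρ_single, h3pBadd_single, h3pBadd_single, h3pBval_comm]))

lemma h3pB_apply (F : (h3pC Y ω₀).V) (ω : Ω) :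
    ((h3pB Y ω₀).hom F : (permZ Γ Ω).V →+ Y.V) (MonoidAlgebra.single ω 1) =
      h3pBval Y ω₀ F ω :=
  h3pBadd_single Y ω₀ F ω

open Classical in
/-- `h3pA ≫ h3pB` is the projection onto the orbit of `ω₀` -/
lemma h3pAB_apply (φ : (permZ Γ Ω).V →+ Y.V) (ω : Ω) :
    ((h3pA Y ω₀ ≫ h3pB Y ω₀).hom φ : (permZ Γ Ω).V →+ Y.V) (MonoidAlgebra.single ω 1) =
      if ω ∈ MulAction.orbit Γ ω₀ then φ (MonoidAlgebra.single ω 1) else 0 := by
  show ((h3pB Y ω₀).hom ((h3pA Y ω₀).hom φ) : (permZ Γ Ω).V →+ Y.V)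
    (MonoidAlgebra.single ω 1) = _
  rw [h3pB_apply]
  by_cases h : ∃ γ : Γ, γ • ω₀ = ω
  · rw [if_pos (MulAction.mem_orbit_iff.2 h)]
    obtain ⟨γ, rfl⟩ := h
    rw [h3pBval_eq, h3pA_apply, inv_inv, ← Module.End.mul_apply, ← map_mul, mul_inv_cancel,
      map_one, Module.End.one_apply]
  · rw [if_neg (fun h' => h (MulAction.mem_orbit_iff.1 h')), h3pBval_eq_zero Y ω₀ _ ω h]

end BasePoint

/-! ### The sum over the orbits -/

section Orbits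

variable {Γ : Type} [Group Γ] {Ω : Type} [MulAction Γ Ω] (Y : Rep.{0} ℤ Γ)

/-- the representative of an orbit -/
def h3pRep (q : MulAction.orbitRel.Quotient Γ Ω) : Ω := Quotient.out q

lemma h3p_mem_orbit_rep (ω : Ω) (q : MulAction.orbitRel.Quotient Γ Ω) :
    ω ∈ MulAction.orbit Γ (h3pRep q) ↔ q = Quotient.mk'' ω := by
  have h1 : (Quotient.mk'' (h3pRep q) : MulAction.orbitRel.Quotient Γ Ω) = q := Quotient.out_eq q
  constructor
  · intro h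
    rw [← h1]
    exact (Quotient.sound (s := MulAction.orbitRel Γ Ω) (MulAction.orbitRel_apply.2 h)).symm
  · intro h
    rw [← h1] at h
    exact MulAction.orbitRel_apply.1 (Quotient.exact (s := MulAction.orbitRel Γ Ω) h.symm)

variable [Fintype (MulAction.orbitRel.Quotient Γ Ω)]

/-- the identity of `Hom(ℤ[Ω], Y)` is the sum of the projections onto the orbits -/
lemma h3p_sum_eq_id :
    ∑ q : MulAction.orbitRel.Quotient Γ Ω, h3pA Y (h3pRep q) ≫ h3pB Y (h3pRep q) =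
      𝟙 (homRep (permZ Γ Ω) Y) := by
  classical
  apply rep_hom_ext'
  intro φ
  have h1 : (∑ q : MulAction.orbitRel.Quotient Γ Ω,
      h3pA Y (h3pRep q) ≫ h3pB Y (h3pRep q)).hom φ =
      ∑ q : MulAction.orbitRel.Quotient Γ Ω,
        (h3pA Y (h3pRep q) ≫ h3pB Y (h3pRep q)).hom φ :=
    map_sum (repEval (A := homRep (permZ Γ Ω) Y) (B := homRep (permZ Γ Ω) Y) φ) _ _
  rw [h1]
  show (∑ q : MulAction.orbitRel.Quotient Γ Ω,
    ((h3pA Y (h3pRep q) ≫ h3pB Y (h3pRep q)).hom φ : (permZ Γ Ω).V →+ Y.V)) = φ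
  apply h3p_ext
  intro ω
  rw [AddMonoidHom.finsetSum_apply]
  rw [Finset.sum_congr rfl (fun q _ => h3pAB_apply Y (h3pRep q) φ ω)]
  rw [Finset.sum_congr rfl (fun q _ => if_congr (h3p_mem_orbit_rep ω q) rfl rfl)]
  rw [Finset.sum_ite_eq' Finset.univ (Quotient.mk'' ω : MulAction.orbitRel.Quotient Γ Ω)
    (fun _ => φ (MonoidAlgebra.single ω 1)), if_pos (Finset.mem_univ _)]

end Orbits

/-! ### Shapiro -/

section Shapiro

variable {Γ : Type} [Group Γ]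

lemma h3p_coind (p : ℕ) (H : Subgroup Γ) (A : Rep.{0} ℤ ↥H) (hA : H3pFree p A) :
    H3pFree p (Rep.coind H.subtype A) := by
  intro x hx
  have e := (groupCohomology.coindIso A 3).toLinearEquiv
  have h1 : IsPTors p (e x) := by
    obtain ⟨k, hk⟩ := hx
    exact ⟨k, by rw [← map_nsmul, hk, map_zero]⟩
  have h2 := hA _ h1
  exact e.injective (h2.trans (map_zero e).symm)

end Shapiro

/-! ### Restriction of a `p`-fundamental class to a subgroup -/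

section Transport

variable {Γ : Type} [Group Γ] (H : Subgroup Γ) (K : Subgroup ↥H) (Y : Rep.{0} ℤ Γ)

/-- `K ≃ K.map H.subtype` -/
def h3pE : ↥K ≃* ↥(K.map H.subtype) :=
  K.equivMapOfInjective H.subtype H.subtype_injective

lemma h3pE_coe (k : ↥K) : ((h3pE H K k : ↥(K.map H.subtype)) : Γ) = ((k : ↥H) : Γ) :=
  Subgroup.coe_equivMapOfInjective_apply K H.subtype H.subtype_injective k

/-- the comparison isomorphism `Hⁿ(K, Res_K Res_H Y) ≅ Hⁿ(K', Res_{K'} Y)`, `K' = K.map H.subtype` -/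
def h3pIso (n : ℕ) :
    groupCohomology (Rep.res K.subtype (Rep.res H.subtype Y)) n ≅
      groupCohomology (Rep.res (K.map H.subtype).subtype Y) n :=
  groupCohomology.mapIso (A := Rep.res (K.map H.subtype).subtype Y)
    (B := Rep.res K.subtype (Rep.res H.subtype Y)) (h3pE H K) (LinearEquiv.refl ℤ Y.V)
    (fun g => by
      ext y
      show Y.ρ ((g : ↥H) : Γ) y = Y.ρ ((h3pE H K g : ↥(K.map H.subtype)) : Γ) y
      rw [h3pE_coe]) n

/-- compatibility of the comparison isomorphism with the restriction maps -/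
lemma h3pIso_inv_res (n : ℕ) (u : groupCohomology Y n) :
    (h3pIso H K Y n).inv.hom ((resSub Y (K.map H.subtype) n).hom u) =
      (resSub (Rep.res H.subtype Y) K n).hom ((resSub Y H n).hom u) := by
  have h1 : resSub Y (K.map H.subtype) n ≫ (h3pIso H K Y n).inv =
      resSub Y H n ≫ resSub (Rep.res H.subtype Y) K n := by
    unfold h3pIso resSub
    rw [groupCohomology.mapIso_inv, ← groupCohomology.map_comp, ← groupCohomology.map_comp]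
    refine groupCohomology.map_congr ?_ ?_ n
    · ext k
      exact h3pE_coe H K k
    · rfl
  have h2 := congrArg (fun f => f.hom u) h1
  exact h2

theorem h3p_fund_res {p : ℕ} (u : H2 Y) (hu : IsPFundClass p Y u) :
    IsPFundClass p (Rep.res H.subtype Y) ((resSub Y H 2).hom u) where
  h1 K hK := by
    have hK' : IsPGroup p ↥(K.map H.subtype) := hK.map H.subtype
    have h := hu.h1 _ hK'
    exact (h3pIso H K Y 1).toLinearEquiv.injective.subsingleton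
  h2_card K hK := by
    have hK' : IsPGroup p ↥(K.map H.subtype) := hK.map H.subtype
    have h := hu.h2_card _ hK'
    rw [Nat.card_congr (h3pIso H K Y 2).toLinearEquiv.toEquiv, h]
    exact (Nat.card_congr (h3pE H K).toEquiv).symm
  h2_gen K hK x := by
    have hK' : IsPGroup p ↥(K.map H.subtype) := hK.map H.subtype
    obtain ⟨n, hn⟩ := hu.h2_gen _ hK' ((h3pIso H K Y 2).hom.hom x)
    refine ⟨n, ?_⟩
    have h1 := congrArg (fun z => (h3pIso H K Y 2).inv.hom z) hn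
    simp only [map_zsmul] at h1
    rw [h3pIso_inv_res] at h1
    rw [h1]
    exact congrArg (fun f => f.hom x) (h3pIso H K Y 2).hom_inv_id

end Transport

/-! ### The statement -/

/-- **A1′.** `StmtH3Fund → StmtH3FundPerm`. -/
theorem stmtH3FundPerm_of (h : StmtH3Fund) : StmtH3FundPerm := by
  intro p hp Γ _ _ Y u hu Ω _ _
  letI : Fintype (MulAction.orbitRel.Quotient Γ Ω) := Fintype.ofFinite _
  have key : H3pFree p (homRep (Rep.ofMulAction ℤ Γ Ω) Y) := by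
    refine h3p_of_sum p (fun q : MulAction.orbitRel.Quotient Γ Ω => h3pC Y (h3pRep q))
      (fun q => h3pA Y (h3pRep q)) (fun q => h3pB Y (h3pRep q)) (h3p_sum_eq_id Y) ?_
    intro q
    apply h3p_coind
    intro x hx
    letI : Fintype ↥(h3pH (Γ := Γ) (h3pRep q)) := Fintype.ofFinite _
    exact h p ↥(h3pH (Γ := Γ) (h3pRep q)) (Rep.res (h3pH (Γ := Γ) (h3pRep q)).subtype Y)
      ((resSub Y (h3pH (Γ := Γ) (h3pRep q)) 2).hom u)
      (h3p_fund_res (h3pH (Γ := Γ) (h3pRep q)) Y u hu) x hx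
  exact key

end Fermat.Agent.TW.E

end
end ZBTW_044_0

/-! ### bundled: `Fermat.Agent.TW.E.C2SurjFin` -/
section ZBTW_044_1
/-
TW-E / A5′ (helper30), part 1: the finite-level input.

`Γ` a finite group, `C` a `Γ`-module with a `p`-fundamental class `u`.
* `c2sp_fin`: every class of `H²(Γ, C)` is, up to a multiple prime to `p`, a multiple of `u`
  (Sylow + `h2_gen`);
* `c2sp_fin_sub`: the same for every subgroup `K` and `res_K u` (`h3p_fund_res`);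
* `c2sp_fin_coc`: cochain form: a 2-cocycle `c` on `K` satisfies `n c = y|_K + d t` with `y` a
  2-cocycle on `Γ` (restriction `H²(Γ, C) → H²(K, C)` is onto up to multiples prime to `p`).
-/

set_option autoImplicit false

noncomputable section

namespace Fermat.Agent.TW.E

open CategoryTheory groupCohomology Fermat.Agent.PT Fermat.Agent.PT.F

attribute [local instance 1100] Rep.hV2

/-- every class of `H²(Γ, C)` is a multiple of the fundamental class, up to a multiple prime to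
`p` -/
theorem c2sp_fin (p : ℕ) [Fact p.Prime] (Γ : Type) [Group Γ] [Finite Γ] (C : Rep.{0} ℤ Γ)
    (u : H2 C) (hu : IsPFundClass p C u) (x : H2 C) :
    ∃ n : ℕ, ¬ p ∣ n ∧ ∃ k : ℤ, n • x = k • u := by
  obtain ⟨P⟩ : Nonempty (Sylow p Γ) := inferInstance
  have hP : IsPGroup p (P : Subgroup Γ) := P.isPGroup'
  obtain ⟨k, hk⟩ := hu.h2_gen (P : Subgroup Γ) hP ((resSub C (P : Subgroup Γ) 2).hom x)
  have hres : (resSub C (P : Subgroup Γ) 2).hom (x - k • u) = 0 := by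
    rw [map_sub, map_zsmul, hk, sub_self]
  have hkill := SylowRes.index_smul_eq_zero_of_res_eq_zero (P : Subgroup Γ) 1 C (x - k • u) hres
  refine ⟨(P : Subgroup Γ).index, P.not_dvd_index, (P : Subgroup Γ).index * k, ?_⟩
  rw [smul_sub, sub_eq_zero] at hkill
  rw [hkill, mul_smul, natCast_zsmul]

/-- the same for a subgroup -/
theorem c2sp_fin_sub (p : ℕ) [Fact p.Prime] (Γ : Type) [Group Γ] [Finite Γ] (C : Rep.{0} ℤ Γ)
    (u : H2 C) (hu : IsPFundClass p C u) (K : Subgroup Γ) (x : H2 (Rep.res K.subtype C)) :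
    ∃ n : ℕ, ¬ p ∣ n ∧ ∃ k : ℤ, n • x = k • (resSub C K 2).hom u :=
  c2sp_fin p ↥K (Rep.res K.subtype C) _ (h3p_fund_res K C u hu) x

/-- cochain form: restriction to a subgroup is onto on `H²` up to multiples prime to `p` -/
theorem c2sp_fin_coc (p : ℕ) [Fact p.Prime] (Γ : Type) [Group Γ] [Finite Γ] (C : Rep.{0} ℤ Γ)
    (u : H2 C) (hu : IsPFundClass p C u) (K : Subgroup Γ) (c : K × K → C.V)
    (hc : c ∈ cocycles₂ (Rep.res K.subtype C)) :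
    ∃ n : ℕ, ¬ p ∣ n ∧ ∃ y : Γ × Γ → C.V, y ∈ cocycles₂ C ∧ ∃ t : K → C.V, ∀ a b : K,
      n • c (a, b) = y ((a : Γ), (b : Γ)) + (C.ρ (a : Γ) (t b) - t (a * b) + t a) := by
  obtain ⟨n, hn, k, hk⟩ := c2sp_fin_sub p Γ C u hu K ((H2π (Rep.res K.subtype C)).hom ⟨c, hc⟩)
  -- a cocycle representing `u`
  obtain ⟨ũ, rfl⟩ : ∃ ũ : cocycles₂ C, (H2π C).hom ũ = u := by
    induction u using H2_induction_on with
    | h x => exact ⟨x, rfl⟩
  have hres : (resSub C K 2).hom ((H2π C).hom ũ) =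
      (H2π (Rep.res K.subtype C)).hom ((mapCocycles₂ K.subtype (𝟙 _)).hom ũ) :=
    H2π_comp_map_apply _ _ _
  rw [hres, ← map_nsmul, ← map_zsmul, ← sub_eq_zero, ← map_sub] at hk
  have hcob := (H2π_eq_zero_iff _).1 hk
  obtain ⟨t, ht⟩ := hcob
  refine ⟨n, hn, ((k • ũ : cocycles₂ C) : Γ × Γ → C.V), (k • ũ).2, t, fun a b => ?_⟩
  have h := congrFun ht (a, b)
  rw [d₁₂_hom_apply] at h
  have e : (((n • (⟨c, hc⟩ : cocycles₂ (Rep.res K.subtype C)) -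
      k • (mapCocycles₂ K.subtype (𝟙 _)).hom ũ : cocycles₂ (Rep.res K.subtype C)) :
        K × K → C.V) (a, b)) = n • c (a, b) - k • (ũ : Γ × Γ → C.V) ((a : Γ), (b : Γ)) := rfl
  rw [e] at h
  have e2 : ((k • ũ : cocycles₂ C) : Γ × Γ → C.V) ((a : Γ), (b : Γ)) =
      k • (ũ : Γ × Γ → C.V) ((a : Γ), (b : Γ)) := rfl
  rw [e2]
  have h' : n • c (a, b) = k • (ũ : Γ × Γ → C.V) ((a : Γ), (b : Γ)) +
      ((Rep.res K.subtype C).ρ a (t b) - t (a * b) + t a) := by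
    rw [h]
    abel
  exact h'

end Fermat.Agent.TW.E

end


end ZBTW_044_1

/-! ### bundled: `Fermat.Agent.TW.E.C2SurjRes` -/
section ZBTW_044_2
/-
TW-E / A5′ (helper30), part 2: restriction `H²_lev(G, C) → H²_lev(P, C)` is onto up to multiples
prime to `p`, for every subgroup `P` containing a level.

`c2sp_res`: `c : G × G → C` level, satisfying the 2-cocycle identity on `P`.  Then
`n • c = c₀ + dψ` on `P × P` with `p ∤ n`, `c₀` a level 2-cocycle of `G` and `ψ` level on `P`.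
(Descent to a normal level `W ≤ P`: extension by zero + `descend₂`; `c2sp_fin_coc` for
`Γ = G ⧸ W`, `K = P / W`, `C^W` with the fundamental class of `cm_glob`; inflation.)
-/

set_option autoImplicit false

noncomputable section

namespace Fermat.Agent.TW.E

open CategoryTheory groupCohomology Fermat.Agent.PT Fermat.Agent.PT.F

attribute [local instance 1100] Rep.hV2

theorem c2sp_res {p : ℕ} [Fact p.Prime] {G : Type} [Group G] {ι : Type} {Gloc : ι → Type}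
    [∀ v, Group (Gloc v)] (D : PTDatum p G ι Gloc) (P U₀ : Subgroup G) (hU₀ : U₀ ∈ D.𝒯.lev)
    (hU₀P : U₀ ≤ P) (c : G × G → D.C.V) (hcl : IsLevel₂ D.𝒯 c)
    (hc : ∀ s ∈ P, ∀ t ∈ P, ∀ r ∈ P,
      D.C.ρ s (c (t, r)) - c (s * t, r) + c (s, t * r) - c (s, t) = 0) :
    ∃ n : ℕ, ¬ p ∣ n ∧ ∃ c₀ : G × G → D.C.V, c₀ ∈ cocycles₂ D.C ∧ IsLevel₂ D.𝒯 c₀ ∧
      ∃ ψ : G → D.C.V, (∃ V ∈ D.𝒯.lev, ∀ s ∈ P, ∀ u ∈ V, ψ (s * u) = ψ s) ∧
        ∀ s ∈ P, ∀ t ∈ P, n • c (s, t) = c₀ (s, t) + (D.C.ρ s (ψ t) - ψ (s * t) + ψ s) := by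
  classical
  obtain ⟨V, hV, hcV⟩ := hcl
  obtain ⟨W, hW, hWU, hWV, hWn⟩ := tower_exists_normal_le₂ D.𝒯 hU₀ hV
  have := hWn
  have := D.𝒯.finiteIndex W hW
  have : Finite (G ⧸ W) := Subgroup.finite_quotient_of_finiteIndex
  have hWP : W ≤ P := hWU.trans hU₀P
  have hcW : ∀ g g' s s' : G, s ∈ W → s' ∈ W → c (g * s, g' * s') = c (g, g') :=
    fun g g' s s' hs hs' => hcV g g' s s' (hWV hs) (hWV hs')
  -- consequences of the cocycle identity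
  have hc' : ∀ s ∈ P, ∀ t ∈ P, ∀ r ∈ P,
      D.C.ρ s (c (t, r)) = c (s * t, r) - c (s, t * r) + c (s, t) := by
    intro s hs t ht r hr
    rw [← sub_eq_zero, ← hc s hs t ht r hr]
    abel
  have h1 : ∀ t ∈ P, c (1, t) = c (1, 1) := by
    intro t ht
    have h := hc' 1 P.one_mem 1 P.one_mem t ht
    rw [map_one, Module.End.one_apply, one_mul, one_mul] at h
    have h' : c (1, t) - c (1, 1) = 0 := by
      nth_rewrite 1 [h]
      abel
    exact sub_eq_zero.1 h'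
  have hl : ∀ (u t r : G), u ∈ W → c (u * t, r) = c (t, r) := by
    intro u t r hu
    have e : u * t = t * (t⁻¹ * u * t) := by group
    have hm : t⁻¹ * u * t ∈ W := by
      have := hWn.conj_mem u hu t⁻¹
      rwa [inv_inv] at this
    have h := hcW t r (t⁻¹ * u * t) 1 hm W.one_mem
    rw [mul_one] at h
    rw [e, h]
  have hu1 : ∀ (u t : G), u ∈ W → t ∈ P → c (u, t) = c (1, 1) := by
    intro u t hu ht
    have := hl u 1 t hu
    rw [mul_one] at this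
    rw [this, h1 t ht]
  have hinv : ∀ t ∈ P, ∀ r ∈ P, ∀ u ∈ W, D.C.ρ u (c (t, r)) = c (t, r) := by
    intro t ht r hr u hu
    rw [hc' u (hWP hu) t ht r hr, hl u t r hu, hu1 u (t * r) hu (P.mul_mem ht hr),
      hu1 u t hu ht]
    abel
  -- membership in `P` modulo `W`
  have hmemP : ∀ (g u : G), u ∈ W → (g * u ∈ P ↔ g ∈ P) := by
    intro g u hu
    constructor
    · intro h
      have := P.mul_mem h (P.inv_mem (hWP hu))
      rwa [mul_inv_cancel_right] at this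
    · intro h
      exact P.mul_mem h (hWP hu)
  -- extension by zero
  let c₁ : G × G → D.C.V := fun gg => if gg.1 ∈ P ∧ gg.2 ∈ P then c gg else 0
  have hc₁P : ∀ s ∈ P, ∀ t ∈ P, c₁ (s, t) = c (s, t) := by
    intro s hs t ht
    show (if s ∈ P ∧ t ∈ P then c (s, t) else 0) = c (s, t)
    rw [if_pos ⟨hs, ht⟩]
  have hdesc : Desc₂ D.C W c₁ := by
    refine ⟨fun g g' s s' hs hs' => ?_, fun gg s hs => ?_⟩
    · show (if g * s ∈ P ∧ g' * s' ∈ P then c (g * s, g' * s') else 0) =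
        (if g ∈ P ∧ g' ∈ P then c (g, g') else 0)
      rw [hmemP g s hs, hmemP g' s' hs', hcW g g' s s' hs hs']
    · show D.C.ρ s (if gg.1 ∈ P ∧ gg.2 ∈ P then c gg else 0) =
        (if gg.1 ∈ P ∧ gg.2 ∈ P then c gg else 0)
      by_cases h : gg.1 ∈ P ∧ gg.2 ∈ P
      · rw [if_pos h]
        exact hinv gg.1 h.1 gg.2 h.2 s hs
      · rw [if_neg h, map_zero]
  let cb := descend₂ c₁ hdesc
  have hcb : ∀ g g' : G, ((cb ((g : G ⧸ W), (g' : G ⧸ W)) :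
      (D.C.quotientToInvariants W).V) : D.C.V) = c₁ (g, g') := by
    intro g g'
    exact congrFun (infl₂_descend₂ c₁ hdesc) (g, g')
  -- the subgroup `K = P / W`
  let K : Subgroup (G ⧸ W) := P.map (QuotientGroup.mk' W)
  have hmemK : ∀ s ∈ P, ((s : G) : G ⧸ W) ∈ K := fun s hs => ⟨s, hs, rfl⟩
  have hpre : ∀ k : K, ∃ s ∈ P, ((s : G) : G ⧸ W) = (k : G ⧸ W) := by
    rintro ⟨k, s, hs, rfl⟩
    exact ⟨s, hs, rfl⟩
  have hcoe : ∀ (g : G) (v : (D.C.quotientToInvariants W).V),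
      (((D.C.quotientToInvariants W).ρ (g : G ⧸ W) v :
        (D.C.quotientToInvariants W).V) : D.C.V) = D.C.ρ g (v : D.C.V) := fun g v => rfl
  let cK : K × K → (D.C.quotientToInvariants W).V := fun ab => cb ((ab.1 : G ⧸ W), (ab.2 : G ⧸ W))
  have hcK : cK ∈ cocycles₂ (Rep.res K.subtype (D.C.quotientToInvariants W)) := by
    rw [mem_cocycles₂_iff]
    intro a b d
    obtain ⟨s, hs, hsa⟩ := hpre a
    obtain ⟨t, ht, htb⟩ := hpre b
    obtain ⟨r, hr, hrd⟩ := hpre d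
    apply Subtype.ext
    show ((cb (((a * b : K) : G ⧸ W), (d : G ⧸ W)) + cb ((a : G ⧸ W), (b : G ⧸ W)) :
        (D.C.quotientToInvariants W).V) : D.C.V) =
      (((D.C.quotientToInvariants W).ρ (a : G ⧸ W) (cb ((b : G ⧸ W), (d : G ⧸ W))) +
        cb ((a : G ⧸ W), ((b * d : K) : G ⧸ W)) : (D.C.quotientToInvariants W).V) : D.C.V)
    rw [Subgroup.coe_mul, Subgroup.coe_mul, ← hsa, ← htb, ← hrd, ← QuotientGroup.mk_mul,
      ← QuotientGroup.mk_mul, Submodule.coe_add, Submodule.coe_add, hcoe, hcb, hcb, hcb, hcb,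
      hc₁P _ (P.mul_mem hs ht) _ hr, hc₁P _ hs _ ht, hc₁P _ ht _ hr,
      hc₁P _ hs _ (P.mul_mem ht hr), hc' s hs t ht r hr]
    abel
  -- the finite level
  obtain ⟨u, hu⟩ := D.cm_glob W hW
  obtain ⟨n, hn, y, hy, t, hyt⟩ :=
    c2sp_fin_coc p (G ⧸ W) (D.C.quotientToInvariants W) u hu K cK hcK
  obtain ⟨ψ, hψ⟩ : ∃ ψ : G → D.C.V, ∀ g, ψ g = if h : g ∈ P then
      ((t ⟨(g : G ⧸ W), hmemK g h⟩ : (D.C.quotientToInvariants W).V) : D.C.V) else 0 :=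
    ⟨_, fun _ => rfl⟩
  have hψP : ∀ g (h : g ∈ P), ψ g =
      ((t ⟨(g : G ⧸ W), hmemK g h⟩ : (D.C.quotientToInvariants W).V) : D.C.V) := by
    intro g h
    rw [hψ g, dif_pos h]
  refine ⟨n, hn, infl₂ D.C W y, (infl₂_mem_cocycles₂_iff y).2 hy,
    (desc₂_infl₂ y).isLevel₂ hW, ψ, ⟨W, hW, fun s hs u hu => ?_⟩,
    fun s hs t' ht' => ?_⟩
  · have hsu : s * u ∈ P := P.mul_mem hs (hWP hu)
    rw [hψP _ hsu, hψP _ hs]
    have e : (⟨((s * u : G) : G ⧸ W), hmemK _ hsu⟩ : K) = ⟨((s : G) : G ⧸ W), hmemK s hs⟩ := by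
      apply Subtype.ext
      show ((s * u : G) : G ⧸ W) = ((s : G) : G ⧸ W)
      rw [QuotientGroup.mk_mul]
      have : ((u : G) : G ⧸ W) = 1 := (QuotientGroup.eq_one_iff u).2 hu
      rw [this, mul_one]
    rw [e]
  · have hst : s * t' ∈ P := P.mul_mem hs ht'
    rw [hψP _ ht', hψP _ hst, hψP _ hs]
    have h := hyt ⟨(s : G ⧸ W), hmemK s hs⟩ ⟨(t' : G ⧸ W), hmemK t' ht'⟩
    have h' := congrArg (fun v : (D.C.quotientToInvariants W).V => (v : D.C.V)) h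
    have e1 : ((n • cK (⟨(s : G ⧸ W), hmemK s hs⟩, ⟨(t' : G ⧸ W), hmemK t' ht'⟩) :
        (D.C.quotientToInvariants W).V) : D.C.V) = n • c (s, t') := by
      show n • ((cb ((s : G ⧸ W), (t' : G ⧸ W)) : (D.C.quotientToInvariants W).V) : D.C.V) = _
      rw [hcb, hc₁P s hs t' ht']
    have h'' : n • c (s, t') = ((y ((s : G ⧸ W), (t' : G ⧸ W)) +
        ((D.C.quotientToInvariants W).ρ (s : G ⧸ W) (t ⟨(t' : G ⧸ W), hmemK t' ht'⟩) -
          t (⟨(s : G ⧸ W), hmemK s hs⟩ * ⟨(t' : G ⧸ W), hmemK t' ht'⟩) +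
          t ⟨(s : G ⧸ W), hmemK s hs⟩) : (D.C.quotientToInvariants W).V) : D.C.V) :=
      e1.symm.trans h'
    rw [h'']
    rfl

end Fermat.Agent.TW.E

end


end ZBTW_044_2

/-! ### bundled: `Fermat.Agent.TW.E.C2SurjPerm` -/
section ZBTW_044_3
/-
TW-E / A5′ (helper30), part 4: `stmtC2SurjPerm_of : StmtC2Surj → StmtC2SurjPerm`.

`Ω` a transitive level `G`-set with `p ∤ |Ω|`, `M = ℤ[Ω]`, base point `ω₀`, stabiliser `P`.
* `c2sp_reduce`: every level 2-cocycle `c` of `Hom_ℤ(M, C)` is, up to a multiple `n` prime to `p`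
  and a level coboundary, the pull-back along the augmentation `ℤ[Ω] → ℤ` of a level 2-cocycle
  `c₀` of `Hom_ℤ(ℤ, C)`   (`c2sp_res`: `n • c(·,·)(e_{ω₀})|_P = c₀|_P + dψ`; `c2sp_shinj`).
* `In7`: `A5` for `c₀`, pulled back.
* `In7p`: the trace `tr F = Σ_ω F(e_ω)` gives `p • |Ω| • c₀ = d(tr T)`; `A5` (`In7p`) for
  `|Ω| • c₀`, pulled back.
-/

set_option autoImplicit false

noncomputable section

namespace Fermat.Agent.TW.E

open CategoryTheory groupCohomology Module Fermat.Agent.PT Fermat.Agent.PT.F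

attribute [local instance 1100] Rep.hV2

section Gen

variable {G : Type} [Group G]

lemma c2sp_dTwo_eval (M C : Rep.{0} ℤ G) (W : G × G → (M.V →+ C.V)) (σ τ ρ : G) (m : M.V) :
    dTwo M C W (σ, τ, ρ) m =
      C.ρ σ (W (τ, ρ) (M.ρ σ⁻¹ m)) - W (σ * τ, ρ) m + W (σ, τ * ρ) m - W (σ, τ) m := rfl

lemma c2sp_dOne_eval (M C : Rep.{0} ℤ G) (t : G → (M.V →+ C.V)) (σ τ : G) (m : M.V) :
    dOne M C t (σ, τ) m = C.ρ σ (t τ (M.ρ σ⁻¹ m)) - t (σ * τ) m + t σ m := rfl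

lemma c2sp_dOne_add (M C : Rep.{0} ℤ G) (t t' : G → (M.V →+ C.V)) (s : G × G) :
    dOne M C (fun g => t g + t' g) s = dOne M C t s + dOne M C t' s := by
  obtain ⟨σ, τ⟩ := s
  rw [c2sp_dOne_apply, c2sp_dOne_apply, c2sp_dOne_apply, map_add]
  abel

lemma c2sp_dOne_sub (M C : Rep.{0} ℤ G) (t t' : G → (M.V →+ C.V)) (s : G × G) :
    dOne M C (fun g => t g - t' g) s = dOne M C t s - dOne M C t' s := by
  obtain ⟨σ, τ⟩ := s
  rw [c2sp_dOne_apply, c2sp_dOne_apply, c2sp_dOne_apply, map_sub]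
  abel

lemma c2sp_dOne_nsmul (M C : Rep.{0} ℤ G) (n : ℕ) (t : G → (M.V →+ C.V)) (s : G × G) :
    dOne M C (fun g => n • t g) s = n • dOne M C t s := by
  obtain ⟨σ, τ⟩ := s
  rw [c2sp_dOne_apply, c2sp_dOne_apply, map_nsmul, smul_add, smul_sub]

lemma c2sp_dTwo_sub (M C : Rep.{0} ℤ G) (y y' : G × G → (M.V →+ C.V)) (s : G × G × G) :
    dTwo M C (fun g => y g - y' g) s = dTwo M C y s - dTwo M C y' s := by
  obtain ⟨σ, τ, ρ⟩ := s
  rw [c2sp_dTwo_apply, c2sp_dTwo_apply, c2sp_dTwo_apply, map_sub]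
  abel

lemma c2sp_dTwo_nsmul (M C : Rep.{0} ℤ G) (n : ℕ) (y : G × G → (M.V →+ C.V))
    (s : G × G × G) : dTwo M C (fun g => n • y g) s = n • dTwo M C y s := by
  obtain ⟨σ, τ, ρ⟩ := s
  rw [c2sp_dTwo_apply, c2sp_dTwo_apply, map_nsmul, smul_sub, smul_add, smul_sub]

lemma c2sp_lev₂_map {𝒯 : Tower G} {X Y : Type} {f : G × G → X} (hf : IsLevel₂ 𝒯 f)
    (φ : X → Y) : IsLevel₂ 𝒯 (fun s => φ (f s)) := by
  obtain ⟨V, hV, h⟩ := hf
  exact ⟨V, hV, fun g g' s s' hs hs' => congrArg φ (h g g' s s' hs hs')⟩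

lemma c2sp_lev₂_map₂ {𝒯 : Tower G} {X X' Y : Type} {f : G × G → X} {f' : G × G → X'}
    (hf : IsLevel₂ 𝒯 f) (hf' : IsLevel₂ 𝒯 f') (φ : X → X' → Y) :
    IsLevel₂ 𝒯 (fun s => φ (f s) (f' s)) := by
  obtain ⟨V, hV, h⟩ := hf
  obtain ⟨V', hV', h'⟩ := hf'
  exact ⟨V ⊓ V', 𝒯.inf_mem _ _ hV hV', fun g g' s s' hs hs' =>
    congrArg₂ φ (h g g' s s' hs.1 hs'.1) (h' g g' s s' hs.2 hs'.2)⟩

lemma c2sp_lev₁_map {𝒯 : Tower G} {X Y : Type} {f : G → X} (hf : IsLevel₁ 𝒯 f)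
    (φ : X → Y) : IsLevel₁ 𝒯 (fun s => φ (f s)) := by
  obtain ⟨V, hV, h⟩ := hf
  exact ⟨V, hV, fun g s hs => congrArg φ (h g s hs)⟩

lemma c2sp_lev₁_map₂ {𝒯 : Tower G} {X X' Y : Type} {f : G → X} {f' : G → X'}
    (hf : IsLevel₁ 𝒯 f) (hf' : IsLevel₁ 𝒯 f') (φ : X → X' → Y) :
    IsLevel₁ 𝒯 (fun s => φ (f s) (f' s)) := by
  obtain ⟨V, hV, h⟩ := hf
  obtain ⟨V', hV', h'⟩ := hf'
  exact ⟨V ⊓ V', 𝒯.inf_mem _ _ hV hV', fun g s hs =>
    congrArg₂ φ (h g s hs.1) (h' g s hs.2)⟩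

end Gen

section Aug

variable {G : Type} [Group G] (Ω : Type) [MulAction G Ω]

/-- the augmentation `ℤ[Ω] → ℤ` -/
def c2spAug : (permZ G Ω).V →+ (Rep.trivial ℤ G ℤ).V :=
  in1p_lift (G := G) Ω (fun _ => (1 : ℤ))

lemma c2spAug_E (ω : Ω) : c2spAug (G := G) Ω (c2spE Ω ω) = (1 : ℤ) :=
  c2sp_lift_E Ω _ ω

lemma c2spAug_ρ (σ : G) (m : (permZ G Ω).V) :
    c2spAug Ω ((permZ G Ω).ρ σ m) = c2spAug Ω m := by
  have h : (c2spAug (G := G) Ω).comp (actAdd (permZ G Ω) σ) = c2spAug Ω := by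
    apply c2sp_ext
    intro ω
    rw [AddMonoidHom.comp_apply, actAdd_apply, c2sp_ρ_E, c2spAug_E, c2spAug_E]
  exact DFunLike.congr_fun h m

/-- pull-back along the augmentation -/
def c2spι (Y : Rep.{0} ℤ G) (F : (Rep.trivial ℤ G ℤ).V →+ Y.V) : (permZ G Ω).V →+ Y.V :=
  F.comp (c2spAug Ω)

lemma c2spι_apply (Y : Rep.{0} ℤ G) (F : (Rep.trivial ℤ G ℤ).V →+ Y.V) (m : (permZ G Ω).V) :
    c2spι Ω Y F m = F (c2spAug Ω m) := rfl

lemma c2spι_E (Y : Rep.{0} ℤ G) (F : (Rep.trivial ℤ G ℤ).V →+ Y.V) (ω : Ω) :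
    c2spι Ω Y F (c2spE Ω ω) = F (1 : ℤ) := by
  rw [c2spι_apply, c2spAug_E]

lemma c2spι_zero (Y : Rep.{0} ℤ G) : c2spι Ω Y 0 = 0 := rfl

lemma c2spι_add (Y : Rep.{0} ℤ G) (F F' : (Rep.trivial ℤ G ℤ).V →+ Y.V) :
    c2spι Ω Y (F + F') = c2spι Ω Y F + c2spι Ω Y F' := rfl

lemma c2spι_nsmul (Y : Rep.{0} ℤ G) (n : ℕ) (F : (Rep.trivial ℤ G ℤ).V →+ Y.V) :
    c2spι Ω Y (n • F) = n • c2spι Ω Y F := rfl

lemma c2spι_comp {Y Y' : Rep.{0} ℤ G} (f : Y ⟶ Y') (F : (Rep.trivial ℤ G ℤ).V →+ Y.V) :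
    c2spι Ω Y' ((homAdd f).comp F) = (homAdd f).comp (c2spι Ω Y F) := rfl

lemma c2spι_dTwo (Y : Rep.{0} ℤ G) (y : G × G → ((Rep.trivial ℤ G ℤ).V →+ Y.V))
    (s : G × G × G) :
    dTwo (permZ G Ω) Y (fun s => c2spι Ω Y (y s)) s =
      c2spι Ω Y (dTwo (Rep.trivial ℤ G ℤ) Y y s) := by
  obtain ⟨σ, τ, ρ⟩ := s
  apply AddMonoidHom.ext
  intro m
  show Y.ρ σ (y (τ, ρ) (c2spAug Ω ((permZ G Ω).ρ σ⁻¹ m))) - y (σ * τ, ρ) (c2spAug Ω m) +
      y (σ, τ * ρ) (c2spAug Ω m) - y (σ, τ) (c2spAug Ω m) =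
    Y.ρ σ (y (τ, ρ) (c2spAug Ω m)) - y (σ * τ, ρ) (c2spAug Ω m) +
      y (σ, τ * ρ) (c2spAug Ω m) - y (σ, τ) (c2spAug Ω m)
  rw [c2spAug_ρ]

lemma c2spι_dOne (Y : Rep.{0} ℤ G) (t : G → ((Rep.trivial ℤ G ℤ).V →+ Y.V))
    (s : G × G) :
    dOne (permZ G Ω) Y (fun g => c2spι Ω Y (t g)) s =
      c2spι Ω Y (dOne (Rep.trivial ℤ G ℤ) Y t s) := by
  obtain ⟨σ, τ⟩ := s
  apply AddMonoidHom.ext
  intro m
  show Y.ρ σ (t τ (c2spAug Ω ((permZ G Ω).ρ σ⁻¹ m))) - t (σ * τ) (c2spAug Ω m) +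
      t σ (c2spAug Ω m) =
    Y.ρ σ (t τ (c2spAug Ω m)) - t (σ * τ) (c2spAug Ω m) + t σ (c2spAug Ω m)
  rw [c2spAug_ρ]

variable [Fintype Ω]

/-- the trace `F ↦ (z ↦ z • Σ_ω F(e_ω))` -/
def c2spTr (Y : Rep.{0} ℤ G) (F : (permZ G Ω).V →+ Y.V) : (Rep.trivial ℤ G ℤ).V →+ Y.V :=
  zmultiplesHom Y.V (∑ ω : Ω, F (c2spE Ω ω))

lemma c2spTr_one (Y : Rep.{0} ℤ G) (F : (permZ G Ω).V →+ Y.V) :
    c2spTr Ω Y F (1 : ℤ) = ∑ ω : Ω, F (c2spE Ω ω) := one_zsmul _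

lemma c2sp_ext_int (Y : Rep.{0} ℤ G) (F F' : (Rep.trivial ℤ G ℤ).V →+ Y.V)
    (h : F (1 : ℤ) = F' (1 : ℤ)) : F = F' :=
  AddMonoidHom.ext_int h

lemma c2spTr_ι (Y : Rep.{0} ℤ G) (F : (Rep.trivial ℤ G ℤ).V →+ Y.V) :
    c2spTr Ω Y (c2spι Ω Y F) = Fintype.card Ω • F := by
  apply c2sp_ext_int
  rw [c2spTr_one, AddMonoidHom.nsmul_apply]
  have e : ∀ ω : Ω, c2spι Ω Y F (c2spE Ω ω) = F (1 : ℤ) := fun ω => c2spι_E Ω Y F ω
  rw [Finset.sum_congr rfl (fun ω _ => e ω), Finset.sum_const, Finset.card_univ]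

lemma c2spTr_dOne (Y : Rep.{0} ℤ G) (t : G → ((permZ G Ω).V →+ Y.V)) (s : G × G) :
    c2spTr Ω Y (dOne (permZ G Ω) Y t s) =
      dOne (Rep.trivial ℤ G ℤ) Y (fun g => c2spTr Ω Y (t g)) s := by
  obtain ⟨σ, τ⟩ := s
  apply c2sp_ext_int
  have hz : (Rep.trivial ℤ G ℤ).ρ σ⁻¹ (1 : ℤ) = (1 : ℤ) := rfl
  rw [c2spTr_one, c2sp_dOne_eval, hz, c2spTr_one, c2spTr_one, c2spTr_one]
  have e : ∀ ω : Ω, dOne (permZ G Ω) Y t (σ, τ) (c2spE Ω ω) =
      Y.ρ σ (t τ (c2spE Ω (σ⁻¹ • ω))) - t (σ * τ) (c2spE Ω ω) + t σ (c2spE Ω ω) := by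
    intro ω
    rw [c2sp_dOne_eval, c2sp_ρ_E]
  rw [Finset.sum_congr rfl (fun ω _ => e ω), Finset.sum_add_distrib, Finset.sum_sub_distrib]
  congr 2
  rw [map_sum]
  exact Fintype.sum_equiv (MulAction.toPerm σ⁻¹) _ _ (fun ω => rfl)

end Aug

section Reduce

variable {p : ℕ} [Fact p.Prime] {G : Type} [Group G] {ι : Type} {Gloc : ι → Type}
  [∀ v, Group (Gloc v)]

/-- every level 2-cocycle of `Hom_ℤ(ℤ[Ω], C)` comes from `Hom_ℤ(ℤ, C)`, up to a multiple prime to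
`p` and a level coboundary. -/
theorem c2sp_reduce (D : PTDatum p G ι Gloc) (Ω : Type) [MulAction G Ω]
    [MulAction.IsPretransitive G Ω] (hΩ : IsLevSet D.𝒯 Ω) (ω₀ : Ω)
    (c : G × G → ((permZ G Ω).V →+ D.C.V)) (hcl : IsLevel₂ D.𝒯 c)
    (hc : ∀ s, dTwo (permZ G Ω) D.C c s = 0) :
    ∃ n : ℕ, ¬ p ∣ n ∧ ∃ c₀ : G × G → ((Rep.trivial ℤ G ℤ).V →+ D.C.V), IsLevel₂ D.𝒯 c₀ ∧
      (∀ s, dTwo (Rep.trivial ℤ G ℤ) D.C c₀ s = 0) ∧
      ∃ t : G → ((permZ G Ω).V →+ D.C.V), IsLevel₁ D.𝒯 t ∧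
        ∀ s, n • c s = c2spι Ω D.C (c₀ s) + dOne (permZ G Ω) D.C t s := by
  classical
  obtain ⟨U₀, hU₀, hU₀Ω⟩ := hΩ
  have hU₀P : U₀ ≤ MulAction.stabilizer G ω₀ := fun s hs => hU₀Ω s hs ω₀
  -- the restriction to the stabiliser
  have hcPl : IsLevel₂ D.𝒯 (fun s => c s (c2spE Ω ω₀)) :=
    c2sp_lev₂_map hcl (fun F => F (c2spE Ω ω₀))
  have hcP : ∀ s ∈ MulAction.stabilizer G ω₀, ∀ t ∈ MulAction.stabilizer G ω₀,
      ∀ r ∈ MulAction.stabilizer G ω₀,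
      D.C.ρ s (c (t, r) (c2spE Ω ω₀)) - c (s * t, r) (c2spE Ω ω₀) + c (s, t * r) (c2spE Ω ω₀)
        - c (s, t) (c2spE Ω ω₀) = 0 := by
    intro s hs t _ r _
    have h := DFunLike.congr_fun (hc (s, t, r)) (c2spE Ω ω₀)
    rw [c2sp_dTwo_eval, c2sp_ρ_E] at h
    have e : s⁻¹ • ω₀ = ω₀ := ((MulAction.stabilizer G ω₀).inv_mem hs : _)
    rw [e] at h
    exact h
  obtain ⟨n, hn, c₀, hc₀, hc₀l, ψ, hψ, hcψ⟩ := c2sp_res D (MulAction.stabilizer G ω₀) U₀ hU₀ hU₀P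
    (fun s => c s (c2spE Ω ω₀)) hcPl hcP
  -- `c₀` with values in `Hom(ℤ, C)`
  obtain ⟨c₀', hc₀'⟩ : ∃ c₀' : G × G → ((Rep.trivial ℤ G ℤ).V →+ D.C.V),
      ∀ s, c₀' s (1 : ℤ) = c₀ s := ⟨fun s => zmultiplesHom D.C.V (c₀ s), fun _ => one_zsmul _⟩
  have hc₀'l : IsLevel₂ D.𝒯 c₀' := by
    obtain ⟨V, hV, h⟩ := hc₀l
    refine ⟨V, hV, fun g g' s s' hs hs' => ?_⟩
    apply c2sp_ext_int
    rw [hc₀', hc₀', h g g' s s' hs hs']
  have hc₀'c : ∀ s, dTwo (Rep.trivial ℤ G ℤ) D.C c₀' s = 0 := by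
    rintro ⟨σ, τ, ρ⟩
    apply c2sp_ext_int
    have hz : (Rep.trivial ℤ G ℤ).ρ σ⁻¹ (1 : ℤ) = (1 : ℤ) := rfl
    rw [c2sp_dTwo_eval, hz, hc₀', hc₀', hc₀', hc₀']
    have h := (mem_cocycles₂_iff c₀).1 hc₀ σ τ ρ
    have h' : D.C.ρ σ (c₀ (τ, ρ)) - c₀ (σ * τ, ρ) + c₀ (σ, τ * ρ) - c₀ (σ, τ) = 0 := by
      have : D.C.ρ σ (c₀ (τ, ρ)) + c₀ (σ, τ * ρ) - (c₀ (σ * τ, ρ) + c₀ (σ, τ)) = 0 := by
        rw [h, sub_self]
      rw [← this]
      abel
    rw [h']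
    rfl
  -- the difference
  have hWl : IsLevel₂ D.𝒯 (fun s => n • c s - c2spι Ω D.C (c₀' s)) :=
    c2sp_lev₂_map₂ hcl hc₀'l (fun F F' => n • F - c2spι Ω D.C F')
  have hWc : ∀ s, dTwo (permZ G Ω) D.C (fun s => n • c s - c2spι Ω D.C (c₀' s)) s = 0 := by
    intro s
    rw [c2sp_dTwo_sub, c2sp_dTwo_nsmul, hc s, c2spι_dTwo, hc₀'c s, c2spι_zero, smul_zero,
      sub_zero]
  obtain ⟨t, htl, ht⟩ := c2sp_shinj D.𝒯 D.C Ω ω₀ U₀ hU₀ (fun s hs => hU₀Ω s hs ω₀)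
    (fun s => n • c s - c2spι Ω D.C (c₀' s)) hWl hWc ψ hψ
    (by
      intro s hs t ht
      show n • c (s, t) (c2spE Ω ω₀) - c2spι Ω D.C (c₀' (s, t)) (c2spE Ω ω₀) = _
      rw [c2spι_E, hc₀', hcψ s hs t ht]
      abel)
  refine ⟨n, hn, c₀', hc₀'l, hc₀'c, t, htl, fun s => ?_⟩
  rw [← ht s]
  abel

end Reduce

section Main

/-- **A5′**: `In7` and `In7p` for `ℤ[Ω]`, `Ω` transitive with `p ∤ |Ω|`, from `A5`. -/
theorem stmtC2SurjPerm_of (hA5 : StmtC2Surj) : StmtC2SurjPerm := by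
  intro p _ G _ ι _ _ Gloc _ D hD Ω _ _ hΩ hpre hcard
  obtain ⟨h7, h7p⟩ := hA5 p G ι Gloc D hD
  have hne : Nonempty Ω := by
    by_contra h
    rw [not_nonempty_iff] at h
    apply hcard
    rw [Fintype.card_eq_zero]
    exact dvd_zero p
  obtain ⟨ω₀⟩ := hne
  have hp : p.Prime := Fact.out
  constructor
  · -- In7
    intro c hcl hc
    obtain ⟨n, hn, c₀, hc₀l, hc₀c, t₂, ht₂l, hct⟩ := c2sp_reduce D Ω hΩ ω₀ c hcl hc
    obtain ⟨n', hn', w₀, hw₀l, hw₀c, t', ht'l, hw⟩ := h7 c₀ hc₀l hc₀c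
    refine ⟨n' * n, fun h => (hp.dvd_mul.1 h).elim hn' hn, fun s => c2spι Ω (PTJ D) (w₀ s),
      c2sp_lev₂_map hw₀l _, ?_, fun g => c2spι Ω D.C (t' g) + n' • t₂ g,
      c2sp_lev₁_map₂ ht'l ht₂l (fun F F' => c2spι Ω D.C F + n' • F'), fun s => ?_⟩
    · intro s
      rw [c2spι_dTwo, hw₀c, c2spι_zero]
    · rw [c2sp_dOne_add, c2sp_dOne_nsmul, c2spι_dOne, mul_smul, hct s, smul_add,
        ← c2spι_nsmul, hw s, c2spι_add, c2spι_comp]
      abel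
  · -- In7p
    intro c hcl hc hpc
    obtain ⟨t₀, ht₀l, hct₀⟩ := hpc
    obtain ⟨n, hn, c₀, hc₀l, hc₀c, t₂, ht₂l, hct⟩ := c2sp_reduce D Ω hΩ ω₀ c hcl hc
    -- `|Ω| • c₀` has a `p`-torsion class
    have hT : IsLevel₁ D.𝒯 (fun g => c2spTr Ω D.C (n • t₀ g - p • t₂ g)) :=
      c2sp_lev₁_map₂ ht₀l ht₂l (fun F F' => c2spTr Ω D.C (n • F - p • F'))
    have hι : ∀ s, c2spι Ω D.C (p • c₀ s) =
        dOne (permZ G Ω) D.C (fun g => n • t₀ g - p • t₂ g) s := by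
      intro s
      have e : c2spι Ω D.C (c₀ s) = n • c s - dOne (permZ G Ω) D.C t₂ s := by
        rw [hct s]
        abel
      rw [c2sp_dOne_sub, c2sp_dOne_nsmul, c2sp_dOne_nsmul, ← hct₀ s, c2spι_nsmul, e, smul_sub,
        smul_comm p n]
    have hpc₀ : ∀ s, p • (Fintype.card Ω • c₀ s) = dOne (Rep.trivial ℤ G ℤ) D.C
        (fun g => c2spTr Ω D.C (n • t₀ g - p • t₂ g)) s := by
      intro s
      rw [← c2spTr_dOne, ← hι s, c2spTr_ι, smul_comm]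
    have hc₀l' : IsLevel₂ D.𝒯 (fun s => Fintype.card Ω • c₀ s) :=
      c2sp_lev₂_map hc₀l (fun F => Fintype.card Ω • F)
    have hc₀c' : ∀ s, dTwo (Rep.trivial ℤ G ℤ) D.C (fun s => Fintype.card Ω • c₀ s) s = 0 := by
      intro s
      rw [c2sp_dTwo_nsmul, hc₀c s, smul_zero]
    obtain ⟨n', hn', w₀, hw₀l, hw₀c, ⟨t₁, ht₁l, hwt₁⟩, t', ht'l, hw⟩ :=
      h7p (fun s => Fintype.card Ω • c₀ s) hc₀l' hc₀c' ⟨_, hT, hpc₀⟩
    refine ⟨n' * Fintype.card Ω * n,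
      fun h => (hp.dvd_mul.1 h).elim (fun h' => (hp.dvd_mul.1 h').elim hn' hcard) hn,
      fun s => c2spι Ω (PTJ D) (w₀ s), c2sp_lev₂_map hw₀l _, ?_,
      ⟨fun g => c2spι Ω (PTJ D) (t₁ g), c2sp_lev₁_map ht₁l _, ?_⟩,
      fun g => c2spι Ω D.C (t' g) + (n' * Fintype.card Ω) • t₂ g,
      c2sp_lev₁_map₂ ht'l ht₂l (fun F F' => c2spι Ω D.C F + (n' * Fintype.card Ω) • F'),
      fun s => ?_⟩
    · intro s
      rw [c2spι_dTwo, hw₀c, c2spι_zero]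
    · intro s
      rw [c2spι_dOne, ← hwt₁ s, c2spι_nsmul]
    · have hw' := hw s
      rw [c2sp_dOne_add, c2sp_dOne_nsmul, c2spι_dOne, mul_smul, hct s, smul_add,
        ← c2spι_nsmul, mul_smul, hw', c2spι_add, c2spι_comp]
      abel

end Main

end Fermat.Agent.TW.E

end


end ZBTW_044_3

/-! ### bundled: `Fermat.Agent.TW.E.J3` -/
section ZBTW_044_4
/-
Project TW (S56) — part TW-E, piece A3 (helper87): `stmtJ3_of : StmtH3FundPerm → StmtJ3` and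
`stmtJ3 : StmtJ3`.

`In5` for permutation lattices: a level 3-cocycle `z : G³ → Hom_ℤ(ℤ[Ω], J)` killed by `p` is the
coboundary of a level 2-cochain (`n = 1`).
Route: (1) local components `z_v = ev_v ∘ z ∘ r_v³` descend to the finite quotients `G_v ⧸ r_v⁻¹U`,
where `H³` has no `p`-torsion (`StmtH3FundPerm` + `cm_loc`): `z_v = d y_v` (J3Local.lean);
(2) semilocal Shapiro in degree 3 by the explicit homotopy (Shapiro3.lean, J3Shapiro.lean).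
-/

set_option autoImplicit false
set_option linter.unusedSectionVars false
set_option linter.unusedVariables false
set_option linter.style.haveILetI false

noncomputable section

namespace Fermat.Agent.TW.E

open CategoryTheory groupCohomology Fermat.Agent.PT Fermat.Agent.PT.F

attribute [local instance 1100] Rep.hV2

section

variable {p : ℕ} {G : Type} [Group G] {ι : Type} {Gloc : ι → Type} [∀ v, Group (Gloc v)]
  (D : PTDatum p G ι Gloc) (Ω : Type) [MulAction G Ω]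

lemma j3_permZ_triv (U : Subgroup G) (hΩ : ∀ s ∈ U, ∀ ω : Ω, s • ω = ω) (s : G) (hs : s ∈ U)
    (m : (permZ G Ω).V) : (permZ G Ω).ρ s m = m := by
  have h := e3_ext (G := G) Ω (((permZ G Ω).ρ s).toAddMonoidHom)
    (AddMonoidHom.id _) (fun ω => by
      show (permZ G Ω).ρ s (MonoidAlgebra.single ω 1) = MonoidAlgebra.single ω 1
      rw [e3_ρ_single, hΩ s hs ω])
  exact DFunLike.congr_fun h m

/-- the local component of a 3-cochain -/
def j3_zv (z : G × G × G → ((permZ G Ω).V →+ (PTJ D).V)) (v : ι)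
    (s : Gloc v × Gloc v × Gloc v) : (permZ G Ω).V →+ (D.Jloc v).V :=
  (ev D v).comp (z (D.r v s.1, D.r v s.2.1, D.r v s.2.2))

lemma j3_zv_cocycle (z : G × G × G → ((permZ G Ω).V →+ (PTJ D).V))
    (hz : ∀ s, dThree (permZ G Ω) (PTJ D) z s = 0) (v : ι)
    (s : Gloc v × Gloc v × Gloc v × Gloc v) :
    dThreeRep (j3_X (D.r v) Ω (D.Jloc v)) (j3_zv D Ω z v) s = 0 := by
  obtain ⟨d₀, d₁, d₂, d₃⟩ := s
  have h := hz (D.r v d₀, D.r v d₁, D.r v d₂, D.r v d₃)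
  simp only [dThree] at h
  have h' := congrArg (fun φ => (ev D v).comp φ) h
  simp only [AddMonoidHom.comp_add, AddMonoidHom.comp_sub, AddMonoidHom.comp_zero] at h'
  rw [in2a_ev_conj, ← map_mul, ← map_mul, ← map_mul] at h'
  exact h'

lemma j3_zv_rinv (z : G × G × G → ((permZ G Ω).V →+ (PTJ D).V)) (U : Subgroup G)
    (hzU : RInv₃ U z) (v : ι) : RInv₃ (U.comap (D.r v)) (j3_zv D Ω z v) := by
  intro g g' g'' s s' s'' hs hs' hs''
  unfold j3_zv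
  simp only [map_mul]
  rw [hzU _ _ _ _ _ _ hs hs' hs'']

lemma j3_zv_p (z : G × G × G → ((permZ G Ω).V →+ (PTJ D).V)) (hp : ∀ s, p • z s = 0) (v : ι)
    (s : Gloc v × Gloc v × Gloc v) : p • j3_zv D Ω z v s = 0 := by
  unfold j3_zv
  apply AddMonoidHom.ext
  intro m
  have h := DFunLike.congr_fun (hp (D.r v s.1, D.r v s.2.1, D.r v s.2.2)) m
  show p • ev D v (z (D.r v s.1, D.r v s.2.1, D.r v s.2.2) m) = 0
  rw [← map_nsmul]
  have h2 : p • (z (D.r v s.1, D.r v s.2.1, D.r v s.2.2) m) = 0 := h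
  rw [h2, map_zero]

end

/-- **TW-E / A3**, from `StmtH3FundPerm`. -/
theorem stmtJ3_of (hperm : StmtH3FundPerm) : StmtJ3 := by
  intro p _ G _ ι _ Gloc _ D Ω _ _ hΩ z hzlev hz hp
  classical
  obtain ⟨U₁, hU₁, h₁⟩ := hzlev
  obtain ⟨U₂, hU₂, h₂⟩ := hΩ
  obtain ⟨U, hU, hUle, hUn⟩ := D.𝒯.exists_normal (U₁ ⊓ U₂) (D.𝒯.inf_mem U₁ U₂ hU₁ hU₂)
  have hzU : RInv₃ U z := fun g g' g'' s s' s'' hs hs' hs'' =>
    h₁ g g' g'' s s' s'' (hUle hs).1 (hUle hs').1 (hUle hs'').1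
  have hΩU : ∀ s ∈ U, ∀ ω : Ω, s • ω = ω := fun s hs ω => h₂ s (hUle hs).2 ω
  have hUM : ∀ s ∈ U, ∀ m : (permZ G Ω).V, (permZ G Ω).ρ s m = m :=
    fun s hs m => j3_permZ_triv Ω U hΩU s hs m
  have hloc : ∀ v, ∃ yv : Gloc v × Gloc v → ((permZ G Ω).V →+ (D.Jloc v).V),
      Desc₂ (homRep (Rep.res (D.r v) (permZ G Ω)) (D.Jloc v)) (U.comap (D.r v)) yv ∧
      ∀ s, j3_zv D Ω z v s = dTwoRep (homRep (Rep.res (D.r v) (permZ G Ω)) (D.Jloc v)) yv s := by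
    intro v
    have hVmem : U.comap (D.r v) ∈ (D.𝒯loc v).lev := D.comap_mem v U hU
    haveI : (U.comap (D.r v)).FiniteIndex := (D.𝒯loc v).finiteIndex _ hVmem
    haveI : Finite (Gloc v ⧸ (U.comap (D.r v))) := Subgroup.finite_quotient_of_finiteIndex
    obtain ⟨u, hu⟩ := D.cm_loc v (U.comap (D.r v)) hVmem
    exact j3_local (D.r v) U Ω hΩU (D.Jloc v) hperm p u hu (j3_zv D Ω z v)
      (j3_zv_cocycle D Ω z hz v) (j3_zv_rinv D Ω z U hzU v) (j3_zv_p D Ω z hp v)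
  choose yv hyv hzy using hloc
  obtain ⟨y, hylev, hy⟩ := j3_shapiro D (permZ G Ω) U hUn hU hUM z hz hzU yv hyv hzy
  refine ⟨1, ?_, y, hylev, fun s => ?_⟩
  · intro h
    exact (Fact.out : p.Prime).one_lt.ne' (Nat.dvd_one.1 h)
  · rw [one_smul]
    exact hy s

/-- **TW-E / A3.** -/
theorem stmtJ3 : StmtJ3 := stmtJ3_of (stmtH3FundPerm_of stmtH3Fund)

end Fermat.Agent.TW.E

end
end ZBTW_044_4
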