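/- GENERATED FILE (helper35, build-time optimisation, NOTES/ZB.md): verbatim concatenation of the modules
   Fermat.Agent.TW.E.E2Div
   Fermat.Agent.TW.E.AddFinal
   Do not edit; do not import together with these modules. -/
import Fermat.Agent.ZB.TW_014
import Fermat.Agent.ZB.TW_039
import Fermat.Agent.ZB.TW_040
import Fermat.Agent.ZB.TW_043
import Fermat.Agent.ZB.TW_042
import Fermat.Agent.ZB.TW_044
import Fermat.Agent.ZB.TW_046

/-! ### bundled: `Fermat.Agent.TW.E.E2Div` -/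
section ZBTW_049_0
/-
Project TW, part TW-E, block E-add, piece **A6b** (helper56): `stmtE2Div : StmtE2Div`.

CHASE in `0 → E → J → C → 0` with values in `Hom_ℤ(ℤ[Ω], -)`:
`In6 + In7p + In1 ⇒ H²_lev(G, Hom_ℤ(ℤ[Ω], E))` is `p`-divisible up to multiples prime to `p`.

Proof (NOTES/TW-E.md §A6b).  `y₀` a level 2-cocycle of `Hom(M, E)`.
(In6) `n₁ i y₀ = p w₁ + d s`.  Then `p π w₁ = d(-π s)`: (In7p) `n₂ π w₁ = π w₀ + d t`,
`p w₀ = d t₁`.  Lift `t` to a level `t̃`.  `n₂ w₁ - w₀ - d t̃ = i y'`, `y'` a level 2-cocycle of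
`Hom(M, E)`.  `T := t₁ + p t̃ + n₂ s` satisfies `d T = i (n₁ n₂ y₀ - p y')`, so `π T` is a level
1-cocycle of `Hom(M, C)`: (In1) `n₃ π T = d⁰ t_C`; lift `t_C` to `t_J`;
`n₃ T - d⁰ t_J = i t_E`, `t_E` level, and `d t_E = n₁ n₂ n₃ y₀ - p (n₃ y')`.
-/

set_option autoImplicit false
set_option linter.unusedSectionVars false

noncomputable section

namespace Fermat.Agent.TW.E

open CategoryTheory groupCohomology Module Fermat.Agent.PT Fermat.Agent.PT.F Fermat.Agent.TW.F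
open Fermat.Agent.PT.F.ExactH2

attribute [local instance 1100] Rep.hV2

section Datum

variable {p : ℕ} {G : Type} [Group G] {ι : Type} {Gloc : ι → Type}
  [∀ v, Group (Gloc v)] (D : PTDatum p G ι Gloc)

/-- `π ∘ i ∘ h = 0` -/
lemma e2div_pi_i {M : Type} [AddCommGroup M] (h : M →+ D.E.V) :
    (homAdd D.π).comp ((homAdd D.i).comp h) = 0 := by
  rw [← AddMonoidHom.comp_assoc, pi_comp_i, AddMonoidHom.zero_comp]

end Datum

/-- **A6b (E2div).** -/
theorem stmtE2Div : StmtE2Div := by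
  intro p _ G _ ι _ Gloc _ D Ω _ _ hΩ hIn1 hIn6 hIn7p y₀ hy₀lev hy₀coc
  have hp : p.Prime := Fact.out
  have hJ : IsDiscrete D.𝒯 (PTJ D) := ptj_isDiscrete D
  -- Step 1: (In6) for `i ∘ y₀`
  obtain ⟨n₁, hn₁, w₁, hw₁lev, hw₁coc, s, hslev, hs⟩ :=
    hIn6 (fun x => (homAdd D.i).comp (y₀ x)) (hy₀lev.comp (fun h => (homAdd D.i).comp h))
      (fun x => by rw [← chl_comp_dTwo, hy₀coc, AddMonoidHom.comp_zero])
  -- Step 2: (In7p) for `π ∘ w₁`
  have hπw₁ : ∀ x, p • (homAdd D.π).comp (w₁ x) =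
      dOne (permZ G Ω) D.C (fun σ => -((homAdd D.π).comp (s σ))) x := by
    intro x
    have h := congrArg (fun h => (homAdd D.π).comp h) (hs x)
    simp only [chl_comp_nsmul, AddMonoidHom.comp_add, e2div_pi_i, smul_zero] at h
    rw [comp_dOne] at h
    rw [chl_dOne_neg]
    exact eq_neg_of_add_eq_zero_left h.symm
  obtain ⟨n₂, hn₂, w₀, hw₀lev, hw₀coc, ⟨t₁, ht₁lev, ht₁⟩, t, htlev, ht⟩ :=
    hIn7p (fun x => (homAdd D.π).comp (w₁ x)) (hw₁lev.comp (fun h => (homAdd D.π).comp h))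
      (fun x => by rw [← chl_comp_dTwo, hw₁coc, AddMonoidHom.comp_zero])
      ⟨fun σ => -((homAdd D.π).comp (s σ)), hslev.comp (fun h => -((homAdd D.π).comp h)), hπw₁⟩
  -- Step 3: lift `t`, define `y'`
  obtain ⟨tt, httlev, htt⟩ := chl_exists_lift_pi D Ω t htlev
  have httd : IsLevel₂ D.𝒯 (dOne (permZ G Ω) (PTJ D) tt) := chl_isLevel₂_dOne hΩ hJ tt httlev
  have hvlev : IsLevel₂ D.𝒯 (fun x => n₂ • w₁ x - w₀ x - dOne (permZ G Ω) (PTJ D) tt x) :=
    chl_isLevel₂_sub (chl_isLevel₂_sub (chl_isLevel₂_nsmul n₂ hw₁lev) hw₀lev) httd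
  have hπtt : (fun σ => (homAdd D.π).comp (tt σ)) = t := funext htt
  have hπv : ∀ x, (homAdd D.π).comp (n₂ • w₁ x - w₀ x - dOne (permZ G Ω) (PTJ D) tt x) = 0 := by
    intro x
    rw [AddMonoidHom.comp_sub, AddMonoidHom.comp_sub, chl_comp_nsmul, comp_dOne, hπtt, ht x]
    abel
  obtain ⟨y', hy'lev, hy'⟩ := chl_exists_lift_i₂ D _ hvlev hπv
  have hy'coc : ∀ x, dTwo (permZ G Ω) D.E y' x = 0 := by
    intro x
    apply i_comp_injective (D := D)
    rw [chl_comp_dTwo, AddMonoidHom.comp_zero, funext hy', chl_dTwo_sub, chl_dTwo_sub,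
      chl_dTwo_nsmul, hw₁coc, hw₀coc, chl_dTwo_dOne]
    simp
  -- Step 4: the 1-cochain `T`
  have hTlev : IsLevel₁ D.𝒯 (fun σ => t₁ σ + p • tt σ + n₂ • s σ) :=
    chl_isLevel₁_add (chl_isLevel₁_add ht₁lev (chl_isLevel₁_nsmul p httlev))
      (chl_isLevel₁_nsmul n₂ hslev)
  have hT : ∀ x, dOne (permZ G Ω) (PTJ D) (fun σ => t₁ σ + p • tt σ + n₂ • s σ) x =
      (homAdd D.i).comp ((n₁ * n₂) • y₀ x - p • y' x) := by
    intro x
    rw [chl_dOne_add, chl_dOne_add, dOne_nsmul, dOne_nsmul, ← ht₁ x, AddMonoidHom.comp_sub,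
      chl_comp_nsmul, chl_comp_nsmul, hy' x]
    have h1 := hs x
    simp only at h1
    have h2 : dOne (permZ G Ω) (PTJ D) s x = n₁ • (homAdd D.i).comp (y₀ x) - p • w₁ x :=
      eq_sub_of_add_eq' h1.symm
    rw [h2]
    module
  have hπT : ∀ x, dOne (permZ G Ω) D.C
      (fun σ => (homAdd D.π).comp (t₁ σ + p • tt σ + n₂ • s σ)) x = 0 := by
    intro x
    rw [← comp_dOne, hT x, e2div_pi_i]
  obtain ⟨n₃, hn₃, tC, htC⟩ :=
    hIn1 (fun σ => (homAdd D.π).comp (t₁ σ + p • tt σ + n₂ • s σ))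
      (hTlev.comp (fun h => (homAdd D.π).comp h)) hπT
  -- Step 5: lift `t_C`, define `t_E`
  obtain ⟨tJ, htJ⟩ := chl_exists_lift_pi₀ D Ω tC
  have hv₁lev : IsLevel₁ D.𝒯
      (fun σ => n₃ • (t₁ σ + p • tt σ + n₂ • s σ) - dZero (permZ G Ω) (PTJ D) tJ σ) :=
    chl_isLevel₁_sub (chl_isLevel₁_nsmul n₃ hTlev) (chl_isLevel₁_dZero hΩ hJ tJ)
  have hπv₁ : ∀ σ, (homAdd D.π).comp
      (n₃ • (t₁ σ + p • tt σ + n₂ • s σ) - dZero (permZ G Ω) (PTJ D) tJ σ) = 0 := by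
    intro σ
    rw [AddMonoidHom.comp_sub, chl_comp_nsmul, comp_dZero, htJ, htC σ, sub_self]
  obtain ⟨tE, htElev, htE⟩ := chl_exists_lift_i₁ D _ hv₁lev hπv₁
  -- conclusion
  refine ⟨n₁ * n₂ * n₃, ?_, fun x => n₃ • y' x, chl_isLevel₂_nsmul n₃ hy'lev, ?_, tE, htElev, ?_⟩
  · intro h
    rcases (Nat.Prime.dvd_mul hp).1 h with h | h
    · rcases (Nat.Prime.dvd_mul hp).1 h with h | h
      · exact hn₁ h
      · exact hn₂ h
    · exact hn₃ h
  · intro x
    rw [chl_dTwo_nsmul, hy'coc, smul_zero]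
  · intro x
    apply i_comp_injective (D := D)
    rw [AddMonoidHom.comp_add, comp_dOne, funext htE, dOne_sub, dOne_nsmul, hT x, dOne_dZero,
      sub_zero, chl_comp_nsmul, chl_comp_nsmul, chl_comp_nsmul, AddMonoidHom.comp_sub,
      chl_comp_nsmul, chl_comp_nsmul]
    module

end Fermat.Agent.TW.E

end


end ZBTW_049_0

/-! ### bundled: `Fermat.Agent.TW.E.AddFinal` -/
section ZBTW_049_1
/-
TW-E, block E-add, FINAL wiring (helper30): all pieces `A0 … A10` are landed.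

  `stmtC2Surj     : StmtC2Surj`      (A5, helper87,  from `stmtJ2Div`)
  `stmtC2SurjPerm : StmtC2SurjPerm`  (A5′)
  `stmtMu3        : StmtMu3`         (A7, helper21:  `H³_lev(G, Hom(ℤ[Ω], μ_p)) = 0`)
  `stmtH2Surj     : StmtH2Surj`      (A8, helper69:  right exactness of `H²_lev`)
  `stmtAdd        : StmtAdd`         (A10: the level Euler characteristic is additive)
all UNCONDITIONAL.
-/

set_option autoImplicit false

namespace Fermat.Agent.TW.E

/-- **A5**, unconditional. -/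
theorem stmtC2Surj : StmtC2Surj := stmtC2Surj_of stmtJ2Div

/-- **A5′**, unconditional. -/
theorem stmtC2SurjPerm : StmtC2SurjPerm := stmtC2SurjPerm_of stmtC2Surj

/-- **A7**, unconditional. -/
theorem stmtMu3 : StmtMu3 :=
  stmtMu3_of stmtJ3 stmtJ2Div stmtC2SurjPerm stmtIn1Perm stmtE3 stmtE2Div

/-- **A8**, unconditional. -/
theorem stmtH2Surj : StmtH2Surj := stmtH2Surj_of stmtMu3

/-- **A10 = block E-add**, unconditional: the level Euler characteristic is additive. -/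
theorem stmtAdd : StmtAdd := stmtAdd_of stmtH2Surj stmtH2Fin

end Fermat.Agent.TW.E


end ZBTW_049_1
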