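/- GENERATED FILE (helper35, build-time optimisation, NOTES/ZB.md): verbatim concatenation of the modules
   Fermat.Agent.TW.E.LinkFunA
   Fermat.Agent.TW.E.LinkFunB
   Fermat.Agent.TW.E.LinkFun
   Do not edit; do not import together with these modules. -/
import Mathlib
import Fermat.Agent.ZB.TW_051

/-! ### bundled: `Fermat.Agent.TW.E.LinkFunA` -/
section ZBTW_052_0
/-
Project TW (S56) — part TW-E, block E-cyc, piece **L-fun** (helper79): the ABSTRACT core.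

A `k`-linear functor `H` on `Rep k G` (given by its data `H`, `Hmap` and the four laws) commutes
with `Hom_C(N, -)`:  if `B` is "`Hom_C(N, 𝓜)`", i.e. there are morphisms `j ν : B ⟶ 𝓜` (linear in
`ν ∈ N`), `i a : 𝓜 ⟶ B` (`a` running through a basis `b` of `N`) and `R c : 𝓜 ⟶ 𝓜` (`c ∈ C`) with
  (I)   `∑ a, j (b a) ≫ i a = 𝟙 B`,
  (II)  `i a ≫ j ν = |C|⁻¹ • ∑ c, coord_a (c⁻¹ ⋆ ν) • R c`,
  (III) `j (c ⋆ ν) = j ν ≫ R c`,
then `x ↦ (ν ↦ H (j ν) x)` is an isomorphism of `H B` onto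
`{Λ : N → H 𝓜 | Λ (c ⋆ ν) = H (R c) (Λ ν)}`.
-/

set_option autoImplicit false

noncomputable section

namespace Fermat.Agent.TW.E

open CategoryTheory Module

section Abstract

variable {k : Type} [Field k] {G : Type} [Group G]
  (H : Rep.{0} k G → Type) [∀ A, AddCommGroup (H A)] [∀ A, Module k (H A)]
  (Hmap : ∀ {A A' : Rep.{0} k G}, (A ⟶ A') → H A →ₗ[k] H A')

include Hmap in
lemma lfun_map_zero
    (hsmul : ∀ {A A' : Rep.{0} k G} (a : k) (f : A ⟶ A'), Hmap (a • f) = a • Hmap f)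
    (A A' : Rep.{0} k G) : Hmap (0 : A ⟶ A') = 0 := by
  have h := hsmul (0 : k) (0 : A ⟶ A')
  rw [zero_smul, zero_smul] at h
  exact h

lemma lfun_map_sum
    (hadd : ∀ {A A' : Rep.{0} k G} (f g : A ⟶ A'), Hmap (f + g) = Hmap f + Hmap g)
    (hsmul : ∀ {A A' : Rep.{0} k G} (a : k) (f : A ⟶ A'), Hmap (a • f) = a • Hmap f)
    {A A' : Rep.{0} k G} {ι : Type} (s : Finset ι) (f : ι → (A ⟶ A')) :
    Hmap (∑ c ∈ s, f c) = ∑ c ∈ s, Hmap (f c) := by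
  classical
  induction s using Finset.induction_on with
  | empty => rw [Finset.sum_empty, Finset.sum_empty, lfun_map_zero H Hmap hsmul]
  | insert a s ha ih => rw [Finset.sum_insert ha, Finset.sum_insert ha, hadd, ih]

/-- the map `x ↦ (ν ↦ H (j ν) x)` -/
def lfunPhi
    (hadd : ∀ {A A' : Rep.{0} k G} (f g : A ⟶ A'), Hmap (f + g) = Hmap f + Hmap g)
    (hsmul : ∀ {A A' : Rep.{0} k G} (a : k) (f : A ⟶ A'), Hmap (a • f) = a • Hmap f)
    {B 𝓜 : Rep.{0} k G} {N : Type} [AddCommGroup N] [Module k N]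
    (j : N → (B ⟶ 𝓜)) (hjadd : ∀ ν ν', j (ν + ν') = j ν + j ν')
    (hjsmul : ∀ (a : k) ν, j (a • ν) = a • j ν) : H B →ₗ[k] (N →ₗ[k] H 𝓜) where
  toFun x :=
    { toFun := fun ν => Hmap (j ν) x
      map_add' := fun ν ν' => by rw [hjadd, hadd, LinearMap.add_apply]
      map_smul' := fun a ν => by rw [hjsmul, hsmul, LinearMap.smul_apply, RingHom.id_apply] }
  map_add' x y := by
    ext ν
    simp only [LinearMap.coe_mk, AddHom.coe_mk, map_add, LinearMap.add_apply]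
  map_smul' a x := by
    ext ν
    simp only [LinearMap.coe_mk, AddHom.coe_mk, map_smul, LinearMap.smul_apply, RingHom.id_apply]

lemma lfunPhi_apply
    (hadd : ∀ {A A' : Rep.{0} k G} (f g : A ⟶ A'), Hmap (f + g) = Hmap f + Hmap g)
    (hsmul : ∀ {A A' : Rep.{0} k G} (a : k) (f : A ⟶ A'), Hmap (a • f) = a • Hmap f)
    {B 𝓜 : Rep.{0} k G} {N : Type} [AddCommGroup N] [Module k N]
    (j : N → (B ⟶ 𝓜)) (hjadd : ∀ ν ν', j (ν + ν') = j ν + j ν')
    (hjsmul : ∀ (a : k) ν, j (a • ν) = a • j ν) (x : H B) (ν : N) :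
    lfunPhi H Hmap hadd hsmul j hjadd hjsmul x ν = Hmap (j ν) x := rfl

/-- **The abstract link theorem.** -/
theorem lfun_abstract
    (hid : ∀ A : Rep.{0} k G, Hmap (𝟙 A) = LinearMap.id)
    (hcomp : ∀ {A A' A'' : Rep.{0} k G} (f : A ⟶ A') (g : A' ⟶ A''),
      Hmap (f ≫ g) = (Hmap g).comp (Hmap f))
    (hadd : ∀ {A A' : Rep.{0} k G} (f g : A ⟶ A'), Hmap (f + g) = Hmap f + Hmap g)
    (hsmul : ∀ {A A' : Rep.{0} k G} (a : k) (f : A ⟶ A'), Hmap (a • f) = a • Hmap f)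
    {B 𝓜 : Rep.{0} k G} {C : Type} [Group C] [Fintype C] (hC : (Fintype.card C : k) ≠ 0)
    {N : Type} [AddCommGroup N] [Module k N] (ρN : Representation k C N)
    (R : C → (𝓜 ⟶ 𝓜)) (hR1 : R 1 = 𝟙 𝓜) (hRmul : ∀ c c', R (c * c') = R c' ≫ R c)
    (j : N → (B ⟶ 𝓜)) (hjadd : ∀ ν ν', j (ν + ν') = j ν + j ν')
    (hjsmul : ∀ (a : k) ν, j (a • ν) = a • j ν)
    {ι : Type} [Fintype ι] (b : Basis ι k N) (i : ι → (𝓜 ⟶ B))
    (hI : ∑ a, j (b a) ≫ i a = 𝟙 B)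
    (hII : ∀ a ν, i a ≫ j ν =
      (Fintype.card C : k)⁻¹ • ∑ c : C, (b.coord a (ρN c⁻¹ ν)) • R c)
    (hIII : ∀ c ν, j (ρN c ν) = j ν ≫ R c) :
    Function.Injective (lfunPhi H Hmap hadd hsmul j hjadd hjsmul) ∧
      ∀ Λ : N →ₗ[k] H 𝓜, Λ ∈ LinearMap.range (lfunPhi H Hmap hadd hsmul j hjadd hjsmul) ↔
        ∀ c ν, Λ (ρN c ν) = Hmap (R c) (Λ ν) := by
  classical
  have hsum := @lfun_map_sum k _ G _ H _ _ @Hmap @hadd @hsmul
  refine ⟨?_, fun Λ => ⟨?_, ?_⟩⟩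
  · -- injectivity
    rw [injective_iff_map_eq_zero]
    intro x hx
    have h1 : ∀ ν, Hmap (j ν) x = 0 := fun ν => by
      rw [← lfunPhi_apply H Hmap hadd hsmul j hjadd hjsmul, hx, LinearMap.zero_apply]
    have h2 : x = Hmap (∑ a, j (b a) ≫ i a) x := by rw [hI, hid, LinearMap.id_apply]
    rw [h2, hsum, LinearMap.sum_apply]
    refine Finset.sum_eq_zero (fun a _ => ?_)
    rw [hcomp, LinearMap.comp_apply, h1, map_zero]
  · rintro ⟨x, rfl⟩ c ν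
    rw [lfunPhi_apply, lfunPhi_apply, hIII, hcomp, LinearMap.comp_apply]
  · intro hΛ
    refine ⟨∑ a, Hmap (i a) (Λ (b a)), ?_⟩
    ext ν
    rw [lfunPhi_apply, map_sum]
    have h1 : ∀ a, Hmap (j ν) (Hmap (i a) (Λ (b a))) =
        (Fintype.card C : k)⁻¹ • ∑ c : C, Hmap (R c) ((b.coord a (ρN c⁻¹ ν)) • Λ (b a)) := by
      intro a
      rw [← LinearMap.comp_apply, ← hcomp, hII, hsmul, hsum, LinearMap.smul_apply,
        LinearMap.sum_apply]
      congr 1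
      refine Finset.sum_congr rfl (fun c _ => ?_)
      rw [hsmul, LinearMap.smul_apply, map_smul]
    rw [Finset.sum_congr rfl (fun a _ => h1 a), ← Finset.smul_sum, Finset.sum_comm]
    have h2 : ∀ c : C, ∑ a, Hmap (R c) ((b.coord a (ρN c⁻¹ ν)) • Λ (b a)) = Λ ν := by
      intro c
      rw [← map_sum]
      have h3 : ∑ a, (b.coord a (ρN c⁻¹ ν)) • Λ (b a) = Λ (ρN c⁻¹ ν) := by
        conv_rhs => rw [← b.sum_repr (ρN c⁻¹ ν)]
        rw [map_sum]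
        refine Finset.sum_congr rfl (fun a _ => ?_)
        rw [map_smul, Basis.coord_apply]
      rw [h3, hΛ, ← LinearMap.comp_apply, ← hcomp, ← hRmul, mul_inv_cancel, hR1, hid,
        LinearMap.id_apply]
    rw [Finset.sum_congr rfl (fun c _ => h2 c), Finset.sum_const, Finset.card_univ,
      ← Nat.cast_smul_eq_nsmul k, smul_smul, inv_mul_cancel₀ hC, one_smul]

end Abstract

end Fermat.Agent.TW.E

end


end ZBTW_052_0

/-! ### bundled: `Fermat.Agent.TW.E.LinkFunB` -/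
section ZBTW_052_1
/-
Project TW (S56) — part TW-E, block E-cyc, piece **L-fun** (helper79): the CONCRETE morphisms.

`B = infl coind_C^Γ M`, `𝓜 = regMu χ U`, `N = M.dualTwist χ̄|_C` (`Γ = G ⧸ U`, `χ̄ = cycChi χ U hχ`):
* `lfunJ ν : B ⟶ 𝓜`, `(j_ν f)(γ) = χ̄(γ) ν(f(γ⁻¹))`;
* `lfunI m : 𝓜 ⟶ B`, `(i_m ψ)(γ) = χ̄(γ) |C|⁻¹ ∑_c χ̄(c)⁻¹ ψ(γ⁻¹ c) c·m`;
with the relations (I), (II), (III) of `LinkFunA.lean`.
-/

set_option autoImplicit false
set_option linter.unusedSectionVars false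

noncomputable section

namespace Fermat.Agent.TW.E

open CategoryTheory Module

section Concrete

variable {p : ℕ} [Fact p.Prime] {G : Type} [Group G] (χ : G →* (ZMod p)ˣ)
  (U : Subgroup G) [U.Normal] (hχ : ∀ s ∈ U, χ s = 1) (C : Subgroup (G ⧸ U))
  (M : Rep.{0} (ZMod p) C)

lemma lfun_cycChi_mk (g : G) : cycChi χ U hχ (g : G ⧸ U) = χ g := rfl

/-- right translation, as an endomorphism of `Rep.of (regMuρ χ U)` (`= regRt χ U δ`) -/
def lfunRt (δ : G ⧸ U) : Rep.of (regMuρ χ U) ⟶ Rep.of (regMuρ χ U) :=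
  Rep.ofHom (ρ := regMuρ χ U) (σ := regMuρ χ U)
    ⟨LinearMap.funLeft (ZMod p) (ZMod p) (fun γ : G ⧸ U => γ * δ), fun g => by
      ext ψ γ
      simp [regMuρ, LinearMap.funLeft, mul_assoc]⟩

lemma lfunRt_eq (δ : G ⧸ U) : lfunRt χ U δ = regRt χ U δ := rfl

lemma lfunRt_apply (δ : G ⧸ U) (ψ : (G ⧸ U) → ZMod p) (γ : G ⧸ U) :
    (lfunRt χ U δ).hom ψ γ = ψ (γ * δ) := rfl

/-- the linear map underlying `j ν` -/
def lfunJlin (ν : Module.Dual (ZMod p) M.V) :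
    ↥(Representation.coindV C.subtype M.ρ) →ₗ[ZMod p] ((G ⧸ U) → ZMod p) where
  toFun f := fun γ => ((cycChi χ U hχ γ : (ZMod p)ˣ) : ZMod p) * ν (f.1 γ⁻¹)
  map_add' f f' := by
    funext γ
    simp only [Submodule.coe_add, Pi.add_apply, map_add, mul_add]
  map_smul' a f := by
    funext γ
    simp only [Submodule.coe_smul, Pi.smul_apply, map_smul, smul_eq_mul, RingHom.id_apply]
    ring

lemma lfunJlin_apply (ν : Module.Dual (ZMod p) M.V)
    (f : ↥(Representation.coindV C.subtype M.ρ)) (γ : G ⧸ U) :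
    lfunJlin χ U hχ C M ν f γ = ((cycChi χ U hχ γ : (ZMod p)ˣ) : ZMod p) * ν (f.1 γ⁻¹) := rfl

/-- `j ν : B ⟶ 𝓜` -/
def lfunJ (ν : Module.Dual (ZMod p) M.V) :
    Rep.res (QuotientGroup.mk' U) (Rep.coind C.subtype M) ⟶ Rep.of (regMuρ χ U) :=
  Rep.ofHom (ρ := (Representation.coind C.subtype M.ρ).comp (QuotientGroup.mk' U))
    (σ := regMuρ χ U)
    ⟨lfunJlin χ U hχ C M ν, fun g => by
      ext f γ
      show lfunJlin χ U hχ C M ν ((Representation.coind C.subtype M.ρ) (g : G ⧸ U) f) γ =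
        (χ g : ZMod p) * lfunJlin χ U hχ C M ν f ((g : G ⧸ U)⁻¹ * γ)
      rw [lfunJlin_apply, lfunJlin_apply, map_mul, map_inv, lfun_cycChi_mk, Units.val_mul,
        mul_inv_rev, inv_inv]
      have h1 : ((Representation.coind C.subtype M.ρ) (g : G ⧸ U) f).1 γ⁻¹ =
          f.1 (γ⁻¹ * (g : G ⧸ U)) := rfl
      rw [h1, ← mul_assoc, ← mul_assoc, ← Units.val_mul, mul_inv_cancel, Units.val_one, one_mul]⟩


lemma lfunJ_hom_apply (ν : Module.Dual (ZMod p) M.V)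
    (f : ↥(Representation.coindV C.subtype M.ρ)) (γ : G ⧸ U) :
    ((lfunJ χ U hχ C M ν).hom f : (G ⧸ U) → ZMod p) γ =
      ((cycChi χ U hχ γ : (ZMod p)ˣ) : ZMod p) * ν (f.1 γ⁻¹) := rfl

variable [Fintype C]

/-- the function underlying `i m ψ` -/
def lfunIfun (m : M.V) (ψ : (G ⧸ U) → ZMod p) : (G ⧸ U) → M.V :=
  fun γ => ((cycChi χ U hχ γ : (ZMod p)ˣ) : ZMod p) • ((Fintype.card C : ZMod p)⁻¹ •
    ∑ c : C, ((((cycChi χ U hχ (c : G ⧸ U))⁻¹ : (ZMod p)ˣ) : ZMod p) *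
      ψ (γ⁻¹ * (c : G ⧸ U))) • M.ρ c m)

lemma lfunIfun_apply (m : M.V) (ψ : (G ⧸ U) → ZMod p) (γ : G ⧸ U) :
    lfunIfun χ U hχ C M m ψ γ = ((cycChi χ U hχ γ : (ZMod p)ˣ) : ZMod p) •
      ((Fintype.card C : ZMod p)⁻¹ •
        ∑ c : C, ((((cycChi χ U hχ (c : G ⧸ U))⁻¹ : (ZMod p)ˣ) : ZMod p) *
          ψ (γ⁻¹ * (c : G ⧸ U))) • M.ρ c m) := rfl

lemma lfunIfun_mem (m : M.V) (ψ : (G ⧸ U) → ZMod p) :
    lfunIfun χ U hχ C M m ψ ∈ Representation.coindV C.subtype M.ρ := by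
  intro c₀ γ
  rw [lfunIfun_apply, lfunIfun_apply, map_smul, map_smul, map_sum, map_mul, Units.val_mul,
    mul_smul]
  have h1 : (cycChi χ U hχ) (C.subtype c₀) = (cycChi χ U hχ) (c₀ : G ⧸ U) := rfl
  rw [h1, smul_comm (((cycChi χ U hχ (c₀ : G ⧸ U)) : (ZMod p)ˣ) : ZMod p)]
  congr 1
  rw [smul_comm (((cycChi χ U hχ (c₀ : G ⧸ U)) : (ZMod p)ˣ) : ZMod p)]
  congr 1
  rw [Finset.smul_sum]
  refine (Fintype.sum_equiv (Equiv.mulLeft c₀) _ _ (fun c' => ?_)).symm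
  rw [Equiv.coe_mulLeft, map_smul, smul_smul, map_mul, Module.End.mul_apply]
  congr 1
  have h2 : (C.subtype c₀ * γ)⁻¹ * ((c₀ * c' : C) : G ⧸ U) = γ⁻¹ * (c' : G ⧸ U) := by
    rw [Subgroup.coe_mul, mul_inv_rev, mul_assoc, Subgroup.coe_subtype, inv_mul_cancel_left]
  rw [h2, Subgroup.coe_mul, map_mul, mul_inv, Units.val_mul, ← mul_assoc, ← mul_assoc,
    ← Units.val_mul, mul_inv_cancel, Units.val_one, one_mul]

/-- the linear map underlying `i m` -/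
def lfunIlin (m : M.V) :
    ((G ⧸ U) → ZMod p) →ₗ[ZMod p] ↥(Representation.coindV C.subtype M.ρ) where
  toFun ψ := ⟨lfunIfun χ U hχ C M m ψ, lfunIfun_mem χ U hχ C M m ψ⟩
  map_add' ψ ψ' := by
    apply Subtype.ext
    funext γ
    simp only [Submodule.coe_add, Pi.add_apply, lfunIfun_apply, mul_add, add_smul,
      Finset.sum_add_distrib, smul_add]
  map_smul' a ψ := by
    apply Subtype.ext
    funext γ
    simp only [Submodule.coe_smul, Pi.smul_apply, lfunIfun_apply, smul_eq_mul, RingHom.id_apply,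
      Finset.smul_sum, smul_smul]
    refine Finset.sum_congr rfl (fun c _ => ?_)
    congr 1
    ring

lemma lfunIlin_apply (m : M.V) (ψ : (G ⧸ U) → ZMod p) (γ : G ⧸ U) :
    (lfunIlin χ U hχ C M m ψ).1 γ = ((cycChi χ U hχ γ : (ZMod p)ˣ) : ZMod p) •
      ((Fintype.card C : ZMod p)⁻¹ •
        ∑ c : C, ((((cycChi χ U hχ (c : G ⧸ U))⁻¹ : (ZMod p)ˣ) : ZMod p) *
          ψ (γ⁻¹ * (c : G ⧸ U))) • M.ρ c m) := rfl

/-- `i m : 𝓜 ⟶ B` -/
def lfunI (m : M.V) :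
    Rep.of (regMuρ χ U) ⟶ Rep.res (QuotientGroup.mk' U) (Rep.coind C.subtype M) :=
  Rep.ofHom (ρ := regMuρ χ U)
    (σ := (Representation.coind C.subtype M.ρ).comp (QuotientGroup.mk' U))
    ⟨lfunIlin χ U hχ C M m, fun g => by
      ext ψ γ
      show (lfunIlin χ U hχ C M m ((regMuρ χ U) g ψ)).1 γ =
        (lfunIlin χ U hχ C M m ψ).1 (γ * (g : G ⧸ U))
      rw [lfunIlin_apply, lfunIlin_apply, map_mul, lfun_cycChi_mk, Units.val_mul, mul_smul]
      congr 1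
      rw [smul_comm ((χ g : (ZMod p)ˣ) : ZMod p)]
      congr 1
      rw [Finset.smul_sum]
      refine Finset.sum_congr rfl (fun c _ => ?_)
      rw [smul_smul]
      congr 1
      have h1 : (regMuρ χ U) g ψ (γ⁻¹ * (c : G ⧸ U)) =
          (χ g : ZMod p) * ψ ((g : G ⧸ U)⁻¹ * (γ⁻¹ * (c : G ⧸ U))) := rfl
      rw [h1, mul_inv_rev, mul_assoc]
      ring⟩

lemma lfunI_hom_apply (m : M.V) (ψ : (G ⧸ U) → ZMod p) (γ : G ⧸ U) :
    (((lfunI χ U hχ C M m).hom ψ : ↥(Representation.coindV C.subtype M.ρ)) : (G ⧸ U) → M.V) γ =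
      ((cycChi χ U hχ γ : (ZMod p)ˣ) : ZMod p) •
      ((Fintype.card C : ZMod p)⁻¹ •
        ∑ c : C, ((((cycChi χ U hχ (c : G ⧸ U))⁻¹ : (ZMod p)ˣ) : ZMod p) *
          ψ (γ⁻¹ * (c : G ⧸ U))) • M.ρ c m) := rfl


/-! ### The relations -/

lemma lfun_hom_ext {k : Type} [CommRing k] {G' : Type} [Group G'] {A A' : Rep.{0} k G'}
    {f g : A ⟶ A'} (h : ∀ x, f.hom x = g.hom x) : f = g :=
  Rep.hom_ext (Representation.IntertwiningMap.ext (LinearMap.ext h))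

/-- `j` is additive -/
lemma lfunJ_add (ν ν' : Module.Dual (ZMod p) M.V) :
    lfunJ χ U hχ C M (ν + ν') = lfunJ χ U hχ C M ν + lfunJ χ U hχ C M ν' := by
  apply lfun_hom_ext
  intro f
  rw [Rep.add_hom, Representation.IntertwiningMap.coe_add, Pi.add_apply]
  funext γ
  show ((cycChi χ U hχ γ : (ZMod p)ˣ) : ZMod p) * (ν + ν') (f.1 γ⁻¹) =
    ((cycChi χ U hχ γ : (ZMod p)ˣ) : ZMod p) * ν (f.1 γ⁻¹) +
      ((cycChi χ U hχ γ : (ZMod p)ˣ) : ZMod p) * ν' (f.1 γ⁻¹)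
  rw [LinearMap.add_apply, mul_add]

/-- `j` is homogeneous -/
lemma lfunJ_smul (a : ZMod p) (ν : Module.Dual (ZMod p) M.V) :
    lfunJ χ U hχ C M (a • ν) = a • lfunJ χ U hχ C M ν := by
  apply lfun_hom_ext
  intro f
  rw [Rep.smul_hom, Representation.IntertwiningMap.smul_apply]
  funext γ
  show ((cycChi χ U hχ γ : (ZMod p)ˣ) : ZMod p) * (a • ν) (f.1 γ⁻¹) =
    a * (((cycChi χ U hχ γ : (ZMod p)ˣ) : ZMod p) * ν (f.1 γ⁻¹))
  rw [LinearMap.smul_apply, smul_eq_mul]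
  ring

/-- (III) `j (c ⋆ ν) = j ν ≫ R c` -/
lemma lfun_rel3 (c : C) (ν : Module.Dual (ZMod p) M.V) :
    lfunJ χ U hχ C M ((M.dualTwist ((cycChi χ U hχ).comp C.subtype)).ρ c ν) =
      lfunJ χ U hχ C M ν ≫ lfunRt χ U (c : G ⧸ U) := by
  apply lfun_hom_ext
  intro f
  rw [Rep.hom_comp, Representation.IntertwiningMap.comp_apply]
  funext γ
  show ((cycChi χ U hχ γ : (ZMod p)ˣ) : ZMod p) *
      ((M.dualTwist ((cycChi χ U hχ).comp C.subtype)).ρ c ν) (f.1 γ⁻¹) =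
    ((cycChi χ U hχ (γ * (c : G ⧸ U)) : (ZMod p)ˣ) : ZMod p) * ν (f.1 (γ * (c : G ⧸ U))⁻¹)
  rw [Rep.dualTwist_ρ_apply, LinearMap.smul_apply, LinearMap.comp_apply, smul_eq_mul, map_mul,
    Units.val_mul, mul_inv_rev, mul_assoc]
  have h1 : f.1 ((c : G ⧸ U)⁻¹ * γ⁻¹) = M.ρ c⁻¹ (f.1 γ⁻¹) := f.2 c⁻¹ γ⁻¹
  rw [h1]
  rfl


/-- (II) `i a ≫ j ν = |C|⁻¹ • ∑ c, coord_a (c⁻¹ ⋆ ν) • R c` -/
lemma lfun_rel2 {ι : Type} [Fintype ι] [DecidableEq ι] (bM : Basis ι (ZMod p) M.V) (a : ι)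
    (ν : Module.Dual (ZMod p) M.V) :
    lfunI χ U hχ C M (bM a) ≫ lfunJ χ U hχ C M ν =
      (Fintype.card C : ZMod p)⁻¹ • ∑ c : C,
        (bM.dualBasis.coord a ((M.dualTwist ((cycChi χ U hχ).comp C.subtype)).ρ c⁻¹ ν)) •
          lfunRt χ U (c : G ⧸ U) := by
  apply lfun_hom_ext
  intro ψ
  rw [Rep.hom_comp, Representation.IntertwiningMap.comp_apply, Rep.smul_hom,
    Representation.IntertwiningMap.smul_apply, Rep.sum_hom,
    Representation.IntertwiningMap.sum_apply]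
  funext γ
  have hL : ((lfunJ χ U hχ C M ν).hom ((lfunI χ U hχ C M (bM a)).hom ψ) : (G ⧸ U) → ZMod p) γ =
      ((cycChi χ U hχ γ : (ZMod p)ˣ) : ZMod p) *
        ν (((lfunI χ U hχ C M (bM a)).hom ψ :
          ↥(Representation.coindV C.subtype M.ρ)).1 γ⁻¹) := rfl
  rw [hL, lfunI_hom_apply, map_smul, map_smul, map_sum, smul_eq_mul, smul_eq_mul, ← mul_assoc,
    ← mul_assoc, map_inv, ← Units.val_mul, mul_inv_cancel, Units.val_one, one_mul]
  show _ = ((Fintype.card C : ZMod p)⁻¹ • ∑ c : C,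
    ((bM.dualBasis.coord a ((M.dualTwist ((cycChi χ U hχ).comp C.subtype)).ρ c⁻¹ ν)) •
      lfunRt χ U (c : G ⧸ U)).hom ψ : (G ⧸ U) → ZMod p) γ
  rw [Pi.smul_apply, smul_eq_mul, Finset.sum_apply]
  congr 1
  refine Finset.sum_congr rfl (fun c _ => ?_)
  rw [Rep.smul_hom, Representation.IntertwiningMap.smul_apply, Pi.smul_apply, lfunRt_apply,
    map_smul, smul_eq_mul, smul_eq_mul, inv_inv, Basis.coord_apply, Basis.dualBasis_repr,
    Rep.dualTwist_ρ_apply, LinearMap.smul_apply, LinearMap.comp_apply, smul_eq_mul, inv_inv]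
  have h1 : (((cycChi χ U hχ).comp C.subtype) c⁻¹ : (ZMod p)ˣ) =
      (cycChi χ U hχ (c : G ⧸ U))⁻¹ := by
    rw [map_inv]
    rfl
  rw [h1]
  ring


/-- (I) `∑ a, j (b a) ≫ i a = 𝟙 B` -/
lemma lfun_rel1 (hC : (Fintype.card C : ZMod p) ≠ 0) {ι : Type} [Fintype ι] [DecidableEq ι]
    (bM : Basis ι (ZMod p) M.V) :
    ∑ a, lfunJ χ U hχ C M (bM.dualBasis a) ≫ lfunI χ U hχ C M (bM a) =
      𝟙 (Rep.res (QuotientGroup.mk' U) (Rep.coind C.subtype M)) := by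
  apply lfun_hom_ext
  intro f
  rw [Rep.sum_hom, Representation.IntertwiningMap.sum_apply, Rep.hom_id,
    Representation.IntertwiningMap.id_apply]
  apply Subtype.ext
  funext γ
  rw [Submodule.coe_sum, Finset.sum_apply]
  have hterm : ∀ a, (((lfunJ χ U hχ C M (bM.dualBasis a) ≫ lfunI χ U hχ C M (bM a)).hom f :
      ↥(Representation.coindV C.subtype M.ρ)) : (G ⧸ U) → M.V) γ =
      ((cycChi χ U hχ γ : (ZMod p)ˣ) : ZMod p) • ((Fintype.card C : ZMod p)⁻¹ •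
        ∑ c : C, ((((cycChi χ U hχ γ)⁻¹ : (ZMod p)ˣ) : ZMod p) *
          bM.repr (M.ρ c⁻¹ (f.1 γ)) a) • M.ρ c (bM a)) := by
    intro a
    rw [Rep.hom_comp, Representation.IntertwiningMap.comp_apply, lfunI_hom_apply]
    congr 2
    refine Finset.sum_congr rfl (fun c _ => ?_)
    congr 1
    rw [lfunJ_hom_apply, Basis.coe_dualBasis, Basis.coord_apply, mul_inv_rev, inv_inv]
    have h1 : f.1 ((c : G ⧸ U)⁻¹ * γ) = M.ρ c⁻¹ (f.1 γ) := f.2 c⁻¹ γ
    rw [h1, map_mul, map_inv, Units.val_mul, ← mul_assoc, ← mul_assoc, mul_comm _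
      (((cycChi χ U hχ γ)⁻¹ : (ZMod p)ˣ) : ZMod p), mul_assoc
      (((cycChi χ U hχ γ)⁻¹ : (ZMod p)ˣ) : ZMod p), ← Units.val_mul, inv_mul_cancel,
      Units.val_one, mul_one]
  rw [Finset.sum_congr rfl (fun a _ => hterm a), ← Finset.smul_sum, ← Finset.smul_sum,
    Finset.sum_comm]
  have hc : ∀ c : C, ∑ a, ((((cycChi χ U hχ γ)⁻¹ : (ZMod p)ˣ) : ZMod p) *
      bM.repr (M.ρ c⁻¹ (f.1 γ)) a) • M.ρ c (bM a) =
      (((cycChi χ U hχ γ)⁻¹ : (ZMod p)ˣ) : ZMod p) • f.1 γ := by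
    intro c
    have h2 : ∑ a, bM.repr (M.ρ c⁻¹ (f.1 γ)) a • bM a = M.ρ c⁻¹ (f.1 γ) := bM.sum_repr _
    have h3 : M.ρ c (M.ρ c⁻¹ (f.1 γ)) = f.1 γ := by
      rw [← Module.End.mul_apply, ← map_mul, mul_inv_cancel, map_one, Module.End.one_apply]
    rw [← h3]
    conv_rhs => rw [← h2]
    rw [map_sum, Finset.smul_sum]
    refine Finset.sum_congr rfl (fun a _ => ?_)
    rw [map_smul, smul_smul, h3]
  rw [Finset.sum_congr rfl (fun c _ => hc c), Finset.sum_const, Finset.card_univ,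
    ← Nat.cast_smul_eq_nsmul (ZMod p), smul_smul, smul_smul, smul_smul]
  have h4 : ((cycChi χ U hχ γ : (ZMod p)ˣ) : ZMod p) * (Fintype.card C : ZMod p)⁻¹ *
      (Fintype.card C : ZMod p) * (((cycChi χ U hχ γ)⁻¹ : (ZMod p)ˣ) : ZMod p) = 1 := by
    rw [mul_assoc _ (Fintype.card C : ZMod p)⁻¹, inv_mul_cancel₀ hC, mul_one, ← Units.val_mul,
      mul_inv_cancel, Units.val_one]
  rw [h4, one_smul]

end Concrete

end Fermat.Agent.TW.E

end


end ZBTW_052_1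

/-! ### bundled: `Fermat.Agent.TW.E.LinkFun` -/
section ZBTW_052_2
/-
Project TW (S56) — part TW-E, block E-cyc, piece **L-fun** (helper79):
`theorem stmtLinkFun : StmtLinkFun`.

`B = infl coind_C^Γ M` is "`Hom_C(N, 𝓜)`" (`N = M.dualTwist χ̄|_C`, `𝓜 = regMu χ U`) through the
morphisms `lfunJ`, `lfunI` (`LinkFunB.lean`), and every linear functor (`invMap`, `levH1Map`,
`levH2Map`) commutes with `Hom_C(N, -)` (`lfun_abstract`, `LinkFunA.lean`).
-/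

set_option autoImplicit false

noncomputable section

namespace Fermat.Agent.TW.E

open CategoryTheory groupCohomology Module Fermat.Agent.PT

lemma lfun_finrank_of {k : Type} [Field k] {X N Y : Type} [AddCommGroup X] [Module k X]
    [AddCommGroup N] [Module k N] [AddCommGroup Y] [Module k Y]
    (Φ : X →ₗ[k] (N →ₗ[k] Y)) (hinj : Function.Injective Φ) (S : Submodule k (N →ₗ[k] Y))
    (hS : ∀ Λ, Λ ∈ LinearMap.range Φ ↔ Λ ∈ S) : finrank k X = finrank k S := by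
  rw [← LinearMap.finrank_range_of_inj hinj, Submodule.ext hS]

/-- **L-fun.** -/
theorem stmtLinkFun : StmtLinkFun := by
  intro p _ G _ 𝒯 χ U _ _ hχ hfin1 hfin2 C hC M hM
  classical
  have hp : p.Prime := Fact.out
  have hcard0 : Nat.card C ≠ 0 := by
    intro h0
    rw [h0, Nat.coprime_zero_left] at hC
    exact hp.one_lt.ne' hC
  have : Finite C := Nat.finite_of_card_ne_zero hcard0
  let _ : Fintype C := Fintype.ofFinite C
  have hCk : (Fintype.card C : ZMod p) ≠ 0 := by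
    rw [Ne, ZMod.natCast_eq_zero_iff, ← Nat.card_eq_fintype_card]
    intro hdvd
    have h1 : p ∣ Nat.gcd (Nat.card C) p := Nat.dvd_gcd hdvd (dvd_refl p)
    rw [Nat.Coprime] at hC
    rw [hC] at h1
    exact hp.one_lt.ne' (Nat.dvd_one.1 h1)
  have : Module.Finite (ZMod p) M.V := hM
  set bM := Module.finBasis (ZMod p) M.V with hbM
  -- the three instances of the abstract theorem
  have h0 := lfun_abstract (k := ZMod p) (G := G) (fun A => ↥(A.ρ.invariants))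
    (fun f => invMap f) (fun A => invMap_id) (fun f g => invMap_comp f g)
    (fun f g => invMap_add f g) (fun a f => invMap_smul a f)
    (B := Rep.res (QuotientGroup.mk' U) (Rep.coind C.subtype M)) (𝓜 := regMu χ U) hCk
    (M.dualTwist ((cycChi χ U hχ).comp C.subtype)).ρ
    (fun c => regRt χ U (c : G ⧸ U)) (regRt_one χ U) (fun c c' => regRt_mul χ U c c')
    (lfunJ χ U hχ C M) (lfunJ_add χ U hχ C M) (lfunJ_smul χ U hχ C M)
    bM.dualBasis (fun a => lfunI χ U hχ C M (bM a))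
    (lfun_rel1 χ U hχ C M hCk bM) (fun a ν => lfun_rel2 χ U hχ C M bM a ν)
    (fun c ν => lfun_rel3 χ U hχ C M c ν)
  have h1 := lfun_abstract (k := ZMod p) (G := G) (fun A => ↥(levH1 𝒯 A))
    (fun f => levH1Map 𝒯 f) (fun A => levH1Map_id 𝒯) (fun f g => levH1Map_comp 𝒯 f g)
    (fun f g => levH1Map_add 𝒯 f g) (fun a f => levH1Map_smul 𝒯 a f)
    (B := Rep.res (QuotientGroup.mk' U) (Rep.coind C.subtype M)) (𝓜 := regMu χ U) hCk
    (M.dualTwist ((cycChi χ U hχ).comp C.subtype)).ρ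
    (fun c => regRt χ U (c : G ⧸ U)) (regRt_one χ U) (fun c c' => regRt_mul χ U c c')
    (lfunJ χ U hχ C M) (lfunJ_add χ U hχ C M) (lfunJ_smul χ U hχ C M)
    bM.dualBasis (fun a => lfunI χ U hχ C M (bM a))
    (lfun_rel1 χ U hχ C M hCk bM) (fun a ν => lfun_rel2 χ U hχ C M bM a ν)
    (fun c ν => lfun_rel3 χ U hχ C M c ν)
  have h2 := lfun_abstract (k := ZMod p) (G := G) (fun A => levH2 𝒯 A)
    (fun f => levH2Map 𝒯 f) (fun A => levH2Map_id 𝒯) (fun f g => levH2Map_comp 𝒯 f g)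
    (fun f g => levH2Map_add 𝒯 f g) (fun a f => levH2Map_smul 𝒯 a f)
    (B := Rep.res (QuotientGroup.mk' U) (Rep.coind C.subtype M)) (𝓜 := regMu χ U) hCk
    (M.dualTwist ((cycChi χ U hχ).comp C.subtype)).ρ
    (fun c => regRt χ U (c : G ⧸ U)) (regRt_one χ U) (fun c c' => regRt_mul χ U c c')
    (lfunJ χ U hχ C M) (lfunJ_add χ U hχ C M) (lfunJ_smul χ U hχ C M)
    bM.dualBasis (fun a => lfunI χ U hχ C M (bM a))
    (lfun_rel1 χ U hχ C M hCk bM) (fun a ν => lfun_rel2 χ U hχ C M bM a ν)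
    (fun c ν => lfun_rel3 χ U hχ C M c ν)
  refine ⟨?_, ?_, ?_, ?_⟩
  · have : Module.Finite (ZMod p) (levH2 𝒯 (regMu χ U)) := hfin2
    exact Module.Finite.of_injective _ h2.1
  · rw [linkPsi]
    congr 1
    exact lfun_finrank_of _ h0.1 (homC C (M.dualTwist ((cycChi χ U hχ).comp C.subtype))
      (cycH0 χ U)) (fun Λ => h0.2 Λ)
  · rw [linkPsi]
    congr 1
    exact lfun_finrank_of _ h1.1 (homC C (M.dualTwist ((cycChi χ U hχ).comp C.subtype))
      (cycH1 𝒯 χ U)) (fun Λ => h1.2 Λ)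
  · rw [linkPsi]
    congr 1
    exact lfun_finrank_of _ h2.1 (homC C (M.dualTwist ((cycChi χ U hχ).comp C.subtype))
      (cycH2 𝒯 χ U)) (fun Λ => h2.2 Λ)

end Fermat.Agent.TW.E

end


end ZBTW_052_2
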