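/- GENERATED FILE (helper35, build-time optimisation, NOTES/ZB.md): verbatim concatenation of the modules
   Fermat.Agent.TW.E.UnitsCycAbs
   Fermat.Agent.TW.E.UnitsCyc
   Fermat.Agent.TW.E.UnitsCycFinal
   Do not edit; do not import together with these modules. -/
import Mathlib
import Fermat.Agent.ZB.TW_051
import Fermat.Agent.ZB.PT_006
import Fermat.Agent.ZB.PT_065

/-! ### bundled: `Fermat.Agent.TW.E.UnitsCycAbs` -/
section ZBTW_053_0
/-
Project TW (S56) — part TW-E, block E-cyc, piece **K-units/ABS** (helper48): counting lemmas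
(Mathlib only).

* `ucyc_card_eq_of_surj`: two surjections with the same fibres have equinumerous targets;
* `ucyc_card_orbits`: if `Φ : G → X` is onto with fibres the double cosets `V g D`
  (`V` the preimage of `H ≤ G ⧸ U`), then `#X = #(H \ (G ⧸ U) ⧸ D̄)`;
* `ucyc_card_sigma_orbits`: the orbits on a disjoint union.
-/

set_option autoImplicit false

namespace Fermat.Agent.TW.E

/-- Two surjections with the same fibres have equinumerous targets. -/
theorem ucyc_card_eq_of_surj {G X Y : Type*} (f : G → X) (h : G → Y)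
    (hf : Function.Surjective f) (hh : Function.Surjective h)
    (hiff : ∀ a b, f a = f b ↔ h a = h b) : Nat.card X = Nat.card Y := by
  refine Nat.card_congr (Equiv.ofBijective (fun x => h (Function.surjInv hf x)) ⟨?_, ?_⟩)
  · intro x x' hxx
    have h1 := (hiff _ _).2 hxx
    rwa [Function.surjInv_eq hf, Function.surjInv_eq hf] at h1
  · intro y
    obtain ⟨g, rfl⟩ := hh y
    refine ⟨f g, ?_⟩
    exact (hiff _ _).1 (Function.surjInv_eq hf (f g))

/-- **Counting double cosets.** -/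
theorem ucyc_card_orbits {G : Type*} [Group G] (U : Subgroup G) [U.Normal]
    (H : Subgroup (G ⧸ U)) (D : Subgroup G) {X : Type*} (Φ : G → X)
    (hsurj : Function.Surjective Φ)
    (hiff : ∀ g g' : G, Φ g = Φ g' ↔
      ∃ v ∈ H.comap (QuotientGroup.mk' U), ∃ d ∈ D, g' = v * g * d) :
    Nat.card X =
      Nat.card (MulAction.orbitRel.Quotient H ((G ⧸ U) ⧸ D.map (QuotientGroup.mk' U))) := by
  let π : G → MulAction.orbitRel.Quotient H ((G ⧸ U) ⧸ D.map (QuotientGroup.mk' U)) :=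
    fun g => Quotient.mk'' (QuotientGroup.mk (QuotientGroup.mk g : G ⧸ U))
  have hπ : Function.Surjective π := by
    intro y
    induction y using Quotient.inductionOn' with
    | h a =>
      obtain ⟨b, rfl⟩ := QuotientGroup.mk_surjective a
      obtain ⟨g, rfl⟩ := QuotientGroup.mk_surjective b
      exact ⟨g, rfl⟩
  refine ucyc_card_eq_of_surj Φ π hsurj hπ fun g g' => ?_
  rw [hiff]
  show _ ↔ (Quotient.mk'' _ : MulAction.orbitRel.Quotient H _) = Quotient.mk'' _
  rw [Quotient.eq'']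
  show _ ↔ MulAction.orbitRel H _ _ _
  rw [MulAction.orbitRel_apply, MulAction.mem_orbit_iff]
  constructor
  · rintro ⟨v, hv, d, hd, rfl⟩
    refine ⟨⟨(QuotientGroup.mk v : G ⧸ U)⁻¹, H.inv_mem hv⟩, ?_⟩
    show ((QuotientGroup.mk v : G ⧸ U)⁻¹ • (QuotientGroup.mk (QuotientGroup.mk (v * g * d) : G ⧸ U) :
      (G ⧸ U) ⧸ D.map (QuotientGroup.mk' U))) = _
    rw [MulAction.Quotient.smul_mk, smul_eq_mul, QuotientGroup.eq]
    refine ⟨d⁻¹, D.inv_mem hd, ?_⟩
    show (QuotientGroup.mk d⁻¹ : G ⧸ U) = _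
    rw [← QuotientGroup.mk_inv, ← QuotientGroup.mk_mul, ← QuotientGroup.mk_inv,
      ← QuotientGroup.mk_mul]
    congr 1
    group
  · rintro ⟨⟨h, hh⟩, hhg⟩
    obtain ⟨v, rfl⟩ := QuotientGroup.mk_surjective h
    have h1 : ((QuotientGroup.mk v : G ⧸ U) • (QuotientGroup.mk (QuotientGroup.mk g' : G ⧸ U) :
      (G ⧸ U) ⧸ D.map (QuotientGroup.mk' U))) = QuotientGroup.mk (QuotientGroup.mk g : G ⧸ U) := hhg
    rw [MulAction.Quotient.smul_mk, smul_eq_mul, QuotientGroup.eq] at h1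
    obtain ⟨d, hd, hdeq⟩ := h1
    have h2 : (QuotientGroup.mk d : G ⧸ U) =
        QuotientGroup.mk ((v * g')⁻¹ * g) := by
      rw [QuotientGroup.mk_mul, QuotientGroup.mk_inv, QuotientGroup.mk_mul]
      exact hdeq
    rw [QuotientGroup.eq] at h2
    -- `u = d⁻¹ (v g')⁻¹ g ∈ U`, so `g' = v⁻¹ (g u⁻¹ g⁻¹) g d⁻¹`
    set u : G := d⁻¹ * ((v * g')⁻¹ * g) with hu
    refine ⟨v⁻¹ * (g * u⁻¹ * g⁻¹), ?_, d⁻¹, D.inv_mem hd, ?_⟩
    · rw [Subgroup.mem_comap]
      show (QuotientGroup.mk (v⁻¹ * (g * u⁻¹ * g⁻¹)) : G ⧸ U) ∈ H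
      have h3 : (QuotientGroup.mk (g * u⁻¹ * g⁻¹) : G ⧸ U) = 1 := by
        rw [QuotientGroup.eq_one_iff]
        exact Subgroup.Normal.conj_mem inferInstance _ (U.inv_mem h2) g
      rw [QuotientGroup.mk_mul, h3, mul_one, QuotientGroup.mk_inv]
      exact H.inv_mem hh
    · rw [hu]
      group

/-- **Orbits on a disjoint union.** -/
theorem ucyc_card_sigma_orbits {M : Type*} [Group M] {ι : Type*} [Fintype ι] (α : ι → Type*)
    [∀ i, MulAction M (α i)] [∀ i, Finite (α i)] :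
    Nat.card (MulAction.orbitRel.Quotient M (Σ i, α i)) =
      ∑ i, Nat.card (MulAction.orbitRel.Quotient M (α i)) := by
  rw [← Nat.card_sigma]
  let π : (Σ i, α i) → MulAction.orbitRel.Quotient M (Σ i, α i) := Quotient.mk''
  let π' : (Σ i, α i) → Σ i, MulAction.orbitRel.Quotient M (α i) :=
    fun x => ⟨x.1, Quotient.mk'' x.2⟩
  have hπ : Function.Surjective π := Quotient.mk''_surjective
  have hπ' : Function.Surjective π' := by
    rintro ⟨i, y⟩
    induction y using Quotient.inductionOn' with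
    | h a => exact ⟨⟨i, a⟩, rfl⟩
  refine ucyc_card_eq_of_surj π π' hπ hπ' ?_
  rintro ⟨i, a⟩ ⟨j, b⟩
  show (Quotient.mk'' _ : MulAction.orbitRel.Quotient M _) = Quotient.mk'' _ ↔ _
  rw [Quotient.eq'']
  show MulAction.orbitRel M _ _ _ ↔ _
  rw [MulAction.orbitRel_apply, MulAction.mem_orbit_iff]
  constructor
  · rintro ⟨m, hm⟩
    have h1 : (⟨j, m • b⟩ : Σ i, α i) = ⟨i, a⟩ := hm
    obtain ⟨rfl, h2⟩ := Sigma.mk.inj_iff.1 h1
    rw [heq_iff_eq] at h2
    show (⟨j, Quotient.mk'' a⟩ : Σ i, MulAction.orbitRel.Quotient M (α i)) = ⟨j, Quotient.mk'' b⟩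
    congr 1
    rw [Quotient.eq'']
    show MulAction.orbitRel M _ _ _
    rw [MulAction.orbitRel_apply, MulAction.mem_orbit_iff]
    exact ⟨m, h2⟩
  · intro h
    have h1 : (⟨i, Quotient.mk'' a⟩ : Σ i, MulAction.orbitRel.Quotient M (α i)) =
        ⟨j, Quotient.mk'' b⟩ := h
    obtain ⟨rfl, h2⟩ := Sigma.mk.inj_iff.1 h1
    rw [heq_iff_eq, Quotient.eq''] at h2
    have h3 : MulAction.orbitRel M _ a b := h2
    rw [MulAction.orbitRel_apply, MulAction.mem_orbit_iff] at h3
    obtain ⟨m, hm⟩ := h3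
    exact ⟨m, by show (⟨i, m • b⟩ : Σ i, α i) = ⟨i, a⟩; rw [hm]⟩

end Fermat.Agent.TW.E


end ZBTW_053_0

/-! ### bundled: `Fermat.Agent.TW.E.UnitsCyc` -/
section ZBTW_053_1
/-
Project TW (S56) — part TW-E, block E-cyc, piece **K-units/ASM** (helper48).

`stmtUnitsCyc_of : StmtUcycFix → StmtUcycInf → StmtUcycFin → StmtUnitsCyc`:
Dirichlet's `S`-unit theorem in group-theoretic form.  For `H ≤ Γ = G_ℚ ⧸ U`, `V` the preimage
of `H`, `F = ℚ̄^V` (a number field, `Gal(ℚ̄/F) = V`):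

  `rank (E^U)^H + 1 = rank 𝒪_{F,S}^× + 1 = #(infinite places of F) + #(primes of F over S)`
                  `= #(H \ Γ / ⟨c̄⟩) + ∑_{q ∈ S} #(H \ Γ / D_q)`.
-/

set_option autoImplicit false
set_option linter.unusedSectionVars false
set_option linter.style.haveILetI false

noncomputable section

namespace Fermat.Agent.TW.E

open CategoryTheory NumberField Fermat.Agent.PT Fermat.Agent.PT.B Fermat.Agent.PT.G
  Fermat.Agent.PT.G1 ExtCitation Fermat.Agent.TW
open scoped Pointwise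

/-- the preimage of `H ≤ G_ℚ ⧸ U` contains `U` -/
theorem ucyc_le_comap (U : Subgroup GQ) [U.Normal] (H : Subgroup (GQ ⧸ U)) :
    U ≤ H.comap (QuotientGroup.mk' U) := by
  intro g hg
  rw [Subgroup.mem_comap]
  have h1 : QuotientGroup.mk' U g = 1 := (QuotientGroup.eq_one_iff g).2 hg
  rw [h1]
  exact H.one_mem

/-- the fixed field of the preimage of `H` lies in `L` -/
theorem ucyc_fixedField_le (L : QbarField) (U : Subgroup GQ) [U.Normal]
    (hU : U = L.fixingSubgroup) (H : Subgroup (GQ ⧸ U)) :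
    IntermediateField.fixedField (H.comap (QuotientGroup.mk' U)) ≤ L := by
  haveI : IsAlgClosure ℚ (AlgebraicClosure ℚ) := ⟨inferInstance, AlgebraicClosure.isAlgebraic ℚ⟩
  haveI : IsGalois ℚ (AlgebraicClosure ℚ) := inferInstance
  intro x hx
  have h1 : x ∈ IntermediateField.fixedField L.fixingSubgroup := by
    rw [IntermediateField.mem_fixedField_iff] at hx ⊢
    intro g hg
    exact hx g (ucyc_le_comap U H (hU ▸ hg))
  rwa [InfiniteGalois.fixedField_fixingSubgroup] at h1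

/-- the fixed field of the preimage of `H` is a number field -/
theorem ucyc_numberField (L : QbarField) [FiniteDimensional ℚ L] (U : Subgroup GQ) [U.Normal]
    (hU : U = L.fixingSubgroup) (H : Subgroup (GQ ⧸ U)) :
    NumberField ↥(IntermediateField.fixedField (H.comap (QuotientGroup.mk' U))) := by
  have hle := ucyc_fixedField_le L U hU H
  haveI : FiniteDimensional ℚ ↥(IntermediateField.fixedField (H.comap (QuotientGroup.mk' U))) :=
    FiniteDimensional.of_injective (IntermediateField.inclusion hle).toLinearMap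
      (IntermediateField.inclusion hle).toRingHom.injective
  exact ⟨⟩

/-- Galois correspondence for the preimage of `H` -/
theorem ucyc_fixingSubgroup (L : QbarField) [FiniteDimensional ℚ L] (U : Subgroup GQ) [U.Normal]
    (hU : U = L.fixingSubgroup) (H : Subgroup (GQ ⧸ U)) :
    (IntermediateField.fixedField (H.comap (QuotientGroup.mk' U))).fixingSubgroup =
      H.comap (QuotientGroup.mk' U) := by
  haveI : IsAlgClosure ℚ (AlgebraicClosure ℚ) := ⟨inferInstance, AlgebraicClosure.isAlgebraic ℚ⟩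
  haveI : IsGalois ℚ (AlgebraicClosure ℚ) := inferInstance
  have hopen : IsOpen ((H.comap (QuotientGroup.mk' U) : Subgroup GQ) : Set GQ) := by
    refine Subgroup.isOpen_mono (ucyc_le_comap U H) ?_
    rw [hU]
    exact IntermediateField.fixingSubgroup_isOpen L
  have hclosed : IsClosed ((H.comap (QuotientGroup.mk' U) : Subgroup GQ) : Set GQ) :=
    Subgroup.isClosed_of_isOpen _ hopen
  exact InfiniteGalois.fixingSubgroup_fixedField ⟨H.comap (QuotientGroup.mk' U), hclosed⟩

/-- transport of the rank along an additive equivalence -/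
theorem ucyc_finrank_eq {A B : Type*} [AddCommGroup A] [AddCommGroup B] [Module ℤ A]
    [Module ℤ B] (e : A ≃+ B) : Module.finrank ℤ A = Module.finrank ℤ B :=
  e.toIntLinearEquiv.finrank_eq

/-- `r_F + 1` is the number of infinite places -/
theorem ucyc_rank_add_one (F : Type) [Field F] [NumberField F] :
    Units.rank F + 1 = Nat.card (InfinitePlace F) := by
  rw [Units.rank, Nat.card_eq_fintype_card]
  have h : 0 < Fintype.card (InfinitePlace F) := Fintype.card_pos
  omega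

/-- a prime ideal contains at most one prime number -/
theorem ucyc_prime_unique {R : Type*} [CommRing R] (P : Ideal R) (hP : P.IsPrime)
    (v w : Nat.Primes) (hv : ((v : ℕ) : R) ∈ P) (hw : ((w : ℕ) : R) ∈ P) : v = w := by
  by_contra hne
  have hcop : Nat.Coprime (v : ℕ) (w : ℕ) :=
    (Nat.coprime_primes v.2 w.2).2 (fun h => hne (Subtype.ext h))
  have hcop' : IsCoprime ((v : ℕ) : ℤ) ((w : ℕ) : ℤ) := Nat.isCoprime_iff_coprime.2 hcop
  obtain ⟨a, b, hab⟩ := hcop'
  have h1 : ((a * ((v : ℕ) : ℤ) + b * ((w : ℕ) : ℤ) : ℤ) : R) ∈ P := by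
    push_cast
    exact P.add_mem (P.mul_mem_left _ hv) (P.mul_mem_left _ hw)
  rw [hab] at h1
  apply hP.ne_top
  rw [Ideal.eq_top_iff_one]
  simpa using h1

/-- the primes above `∏ S` are the primes over the elements of `S` -/
theorem ucyc_card_primesAbove (S : Finset Nat.Primes) (F : Type) [Field F] [NumberField F] :
    (primesAbove (sProd S) F).ncard =
      ∑ v : ↥S, Nat.card {P : Ideal (𝓞 F) // P.IsPrime ∧ (((v : Nat.Primes) : ℕ) : 𝓞 F) ∈ P} := by
  have hcast : ((sProd S : ℕ) : 𝓞 F) = ∏ v ∈ S, (((v : Nat.Primes) : ℕ) : 𝓞 F) := by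
    rw [sProd, Nat.cast_prod]
  have hmem : ∀ (v : ↥S) (P : Ideal (𝓞 F)), P.IsPrime → (((v : Nat.Primes) : ℕ) : 𝓞 F) ∈ P →
      P ∈ primesAbove (sProd S) F := by
    intro v P hP hv
    refine ⟨hP, ?_⟩
    rw [hcast]
    haveI := hP
    exact (Ideal.IsPrime.prod_mem_iff).2 ⟨v.1, v.2, hv⟩
  haveI hfin : Finite ↥(primesAbove (sProd S) F) :=
    (pc_primesAbove_finite F (sProd_ne_zero S)).to_subtype
  let f : (Σ v : ↥S, {P : Ideal (𝓞 F) // P.IsPrime ∧ (((v : Nat.Primes) : ℕ) : 𝓞 F) ∈ P}) →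
      ↥(primesAbove (sProd S) F) := fun x => ⟨x.2.1, hmem x.1 x.2.1 x.2.2.1 x.2.2.2⟩
  have hinj : Function.Injective f := by
    rintro ⟨v, P, hP, hv⟩ ⟨w, Q, hQ, hw⟩ h
    have h1 : P = Q := congrArg Subtype.val h
    subst h1
    have h2 : v = w := Subtype.ext (ucyc_prime_unique P hP v.1 w.1 hv hw)
    subst h2
    rfl
  have hsurj : Function.Surjective f := by
    rintro ⟨P, hP, hN⟩
    rw [hcast] at hN
    haveI := hP
    obtain ⟨v, hvS, hv⟩ := (Ideal.IsPrime.prod_mem_iff).1 hN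
    exact ⟨⟨⟨v, hvS⟩, P, hP, hv⟩, rfl⟩
  haveI : ∀ v : ↥S, Finite {P : Ideal (𝓞 F) // P.IsPrime ∧ (((v : Nat.Primes) : ℕ) : 𝓞 F) ∈ P} :=
    fun v => Finite.of_injective
      (fun x => (⟨x.1, hmem v x.1 x.2.1 x.2.2⟩ : ↥(primesAbove (sProd S) F)))
      (fun x y h => Subtype.ext (congrArg (fun z : ↥(primesAbove (sProd S) F) => z.1) h))
  rw [← Nat.card_sigma, ← Nat.card_coe_set_eq]
  exact (Nat.card_congr (Equiv.ofBijective f ⟨hinj, hsurj⟩)).symm


/-- `ucyc_card_orbits` for a subgroup given up to equality -/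
theorem ucyc_card_orbits' {G : Type*} [Group G] (U : Subgroup G) [U.Normal]
    (H : Subgroup (G ⧸ U)) (D : Subgroup G) (D' : Subgroup (G ⧸ U))
    (hD' : D' = D.map (QuotientGroup.mk' U)) {X : Type*} (Φ : G → X)
    (hsurj : Function.Surjective Φ)
    (hiff : ∀ g g' : G, Φ g = Φ g' ↔
      ∃ v ∈ H.comap (QuotientGroup.mk' U), ∃ d ∈ D, g' = v * g * d) :
    Nat.card X = Nat.card (MulAction.orbitRel.Quotient H ((G ⧸ U) ⧸ D')) := by
  subst hD'
  exact ucyc_card_orbits U H D Φ hsurj hiff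

/-- the rank formula for one subgroup `H` -/
theorem ucyc_rank (hfix : StmtUcycFix) (hinf : StmtUcycInf) (hfin : StmtUcycFin)
    (S : Finset Nat.Primes) (L : QbarField) (hL : L.IsUnramifiedOutside S)
    (U : Subgroup GQ) [U.Normal] (hUL : U = L.fixingSubgroup) (H : Subgroup (GQ ⧸ U))
    (P : Option ↥S → Subgroup (GQ ⧸ U))
    (hP0 : P none = (Subgroup.zpowers (complexConjugation : GQ)).map (QuotientGroup.mk' U))
    (hP1 : ∀ v : ↥S, P (some v) =
      (@localGaloisToGlobal ((v : Nat.Primes) : ℕ) ⟨(v : Nat.Primes).2⟩).range.map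
        (QuotientGroup.mk' U)) :
    Module.finrank ℤ ↥(fixedSub ((ERep S).quotientToInvariants U) H) + 1 =
      Nat.card (MulAction.orbitRel.Quotient H (Σ i : Option ↥S, (GQ ⧸ U) ⧸ P i)) := by
  haveI : FiniteDimensional ℚ L := hL.1
  have hU : U ∈ (towerS S).lev := ⟨L, hL, hUL⟩
  haveI : U.FiniteIndex := (towerS S).finiteIndex U hU
  haveI : Finite (GQ ⧸ U) := Subgroup.finite_quotient_of_finiteIndex
  haveI hNF := ucyc_numberField L U hUL H
  have hgal := ucyc_fixingSubgroup L U hUL H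
  set F : QbarField := IntermediateField.fixedField (H.comap (QuotientGroup.mk' U)) with hF
  obtain ⟨e⟩ := hfix S U hU H
  obtain ⟨-, hrank⟩ := stmtUnitRank ↥F (sProd S) (sProd_ne_zero S)
  -- the infinite places
  have h0 : Nat.card (InfinitePlace ↥F) =
      Nat.card (MulAction.orbitRel.Quotient H ((GQ ⧸ U) ⧸ P none)) := by
    obtain ⟨hs, hi⟩ := hinf F
    refine ucyc_card_orbits' U H (Subgroup.zpowers (complexConjugation : GQ)) (P none) hP0
      (ucycInfPl F) hs ?_
    intro g g'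
    rw [hi, hgal]
  -- the finite places
  have h1 : ∀ v : ↥S,
      Nat.card {Q : Ideal (𝓞 ↥F) // Q.IsPrime ∧ (((v : Nat.Primes) : ℕ) : 𝓞 ↥F) ∈ Q} =
      Nat.card (MulAction.orbitRel.Quotient H ((GQ ⧸ U) ⧸ P (some v))) := by
    intro v
    haveI : Fact ((v : Nat.Primes) : ℕ).Prime := ⟨(v : Nat.Primes).2⟩
    obtain ⟨hmem, hs, hi⟩ := hfin ((v : Nat.Primes) : ℕ) F
    refine ucyc_card_orbits' U H (localGaloisToGlobal ((v : Nat.Primes) : ℕ)).range
      (P (some v)) (hP1 v)
      (fun g => (⟨ucycFinPl ((v : Nat.Primes) : ℕ) F g, hmem g⟩ :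
        {Q : Ideal (𝓞 ↥F) // Q.IsPrime ∧ (((v : Nat.Primes) : ℕ) : 𝓞 ↥F) ∈ Q})) ?_ ?_
    · rintro ⟨Q, hQ, hvQ⟩
      obtain ⟨g, hg⟩ := hs Q hQ hvQ
      exact ⟨g, Subtype.ext hg⟩
    · intro g g'
      rw [Subtype.mk.injEq, hi, hgal]
  -- assembly
  have hsum := ucyc_card_sigma_orbits (M := ↥H) (fun i : Option ↥S => (GQ ⧸ U) ⧸ P i)
  rw [Fintype.sum_option] at hsum
  refine Eq.trans ?_ hsum.symm
  rw [← h0, ← Finset.sum_congr rfl (fun v _ => h1 v), ← ucyc_card_primesAbove S ↥F,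
    ← ucyc_rank_add_one ↥F, ucyc_finrank_eq e, hrank]
  omega

/-- **K-units** from FIX, INF and FIN. -/
theorem stmtUnitsCyc_of (hfix : StmtUcycFix) (hinf : StmtUcycInf) (hfin : StmtUcycFin) :
    StmtUnitsCyc := by
  intro p _ hp2 S hpS hcg hcl hh hex hsv U _ hU
  obtain ⟨L, hL, hUL⟩ := hU
  haveI : FiniteDimensional ℚ L := hL.1
  have hU : U ∈ (towerS S).lev := ⟨L, hL, hUL⟩
  refine ⟨?_, fun H _ => ?_⟩
  · -- finite generation
    show AddGroup.FG ((ERep S).quotientToInvariants U).V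
    haveI hNF := ucyc_numberField L U hUL ⊥
    obtain ⟨e⟩ := hfix S U hU ⊥
    obtain ⟨hfg, -⟩ := stmtUnitRank
      ↥(IntermediateField.fixedField ((⊥ : Subgroup (GQ ⧸ U)).comap (QuotientGroup.mk' U)))
      (sProd S) (sProd_ne_zero S)
    have h1 : AddGroup.FG (Additive ↥(nUnits (sProd S)
        ↥(IntermediateField.fixedField
          ((⊥ : Subgroup (GQ ⧸ U)).comap (QuotientGroup.mk' U))))) :=
      Module.Finite.iff_addGroup_fg.1 hfg
    have h2 : AddGroup.FG ↥(fixedSub ((ERep S).quotientToInvariants U) ⊥) :=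
      @AddGroup.fg_of_surjective _ _ _ _ h1 e.symm.toAddMonoidHom e.symm.surjective
    refine @AddGroup.fg_of_surjective _ _ _ _ h2
      (fixedSub ((ERep S).quotientToInvariants U) ⊥).subtype ?_
    intro x
    refine ⟨⟨x, ?_⟩, rfl⟩
    intro h hh
    rw [Subgroup.mem_bot] at hh
    rw [hh, map_one]
    rfl
  · -- the ranks
    refine ucyc_rank hfix hinf hfin S L hL U hUL H _ ?_ (fun v => rfl)
    show Subgroup.zpowers (QuotientGroup.mk' U (complexConjugation : GQ)) = _
    exact (MonoidHom.map_zpowers _ _).symm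

end Fermat.Agent.TW.E

end


end ZBTW_053_1

/-! ### bundled: `Fermat.Agent.TW.E.UnitsCycFinal` -/
section ZBTW_053_2
/-
Project TW (S56) — part TW-E, block E-cyc, piece **K-units** (helper48): FINAL WIRING.

`stmtUnitsCyc : StmtUnitsCyc` (unconditional) from
FIX (`stmtUcycFix`, helper32), INF (`stmtUcycInf`, helper81), TR (`stmtUcycTrace`, helper82),
FIN (`stmtUcycFin_of`), ABS + ASM (`stmtUnitsCyc_of`).
-/

set_option autoImplicit false

namespace Fermat.Agent.TW.E

/-- **K-units** from **K-units/TR**. -/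
theorem stmtUnitsCyc_of_trace (htr : StmtUcycTrace) : StmtUnitsCyc :=
  stmtUnitsCyc_of stmtUcycFix stmtUcycInf (stmtUcycFin_of htr)

/-- **K-units/FIN.** -/
theorem stmtUcycFin : StmtUcycFin := stmtUcycFin_of stmtUcycTrace

/-- **K-units**: Dirichlet's `S`-unit theorem in group-theoretic form. -/
theorem stmtUnitsCyc : StmtUnitsCyc := stmtUnitsCyc_of_trace stmtUcycTrace

end Fermat.Agent.TW.E


end ZBTW_053_2
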