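/- GENERATED FILE (helper35, build-time optimisation, NOTES/ZB.md): verbatim concatenation of the modules
   Fermat.Agent.TW.E.K0
   Do not edit; do not import together with these modules. -/
import Fermat.Agent.ZB.TW_014

/-! ### bundled: `Fermat.Agent.TW.E.K0` -/
section ZBTW_061_0

/-!
# TW-E / E-K0 : assembly

`stmtK0_of : StmtBN → StmtPermCharpoly → StmtMarks → StmtHomPerm → StmtSigmaAdd → StmtK0`.
-/

namespace Fermat.Agent.TW.E

open CategoryTheory

theorem k0as_mem_fixedBy_sigma {Γ : Type} [Group Γ] {ι : Type} (X : ι → Type)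
    [∀ i, MulAction Γ (X i)] (g : Γ) (x : Σ i, X i) :
    x ∈ MulAction.fixedBy (Σ i, X i) g ↔ x.2 ∈ MulAction.fixedBy (X x.1) g := by
  rcases x with ⟨i, a⟩
  simp only [MulAction.mem_fixedBy, Sigma.smul_mk]
  constructor
  · intro h
    exact eq_of_heq (Sigma.mk.inj_iff.1 h).2
  · intro h
    rw [h]

/-- Fixed points in a disjoint union. -/
theorem k0as_card_fixedBy_sigma {Γ : Type} [Group Γ] {ι : Type} [Fintype ι] (X : ι → Type)
    [∀ i, Finite (X i)] [∀ i, MulAction Γ (X i)] (g : Γ) :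
    Nat.card (MulAction.fixedBy (Σ i, X i) g) = ∑ i, Nat.card (MulAction.fixedBy (X i) g) := by
  rw [← Nat.card_sigma]
  refine Nat.card_congr ?_
  exact
    { toFun := fun x => ⟨x.1.1, ⟨x.1.2, (k0as_mem_fixedBy_sigma X g x.1).1 x.2⟩⟩
      invFun := fun y => ⟨⟨y.1, y.2.1⟩, (k0as_mem_fixedBy_sigma X g ⟨y.1, y.2.1⟩).2 y.2.2⟩
      left_inv := fun x => rfl
      right_inv := fun y => rfl }

/-- The quotient by the whole group has exactly one fixed point. -/
theorem k0as_card_fixedBy_top {Γ : Type} [Group Γ] (g : Γ) :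
    Nat.card (MulAction.fixedBy (Γ ⧸ (⊤ : Subgroup Γ)) g) = 1 := by
  have hsub : Subsingleton (Γ ⧸ (⊤ : Subgroup Γ)) := QuotientGroup.subsingleton_quotient_top
  have hx : ((1 : Γ) : Γ ⧸ (⊤ : Subgroup Γ)) ∈ MulAction.fixedBy (Γ ⧸ (⊤ : Subgroup Γ)) g :=
    Subsingleton.elim _ _
  have : Nonempty (MulAction.fixedBy (Γ ⧸ (⊤ : Subgroup Γ)) g) := ⟨⟨_, hx⟩⟩
  exact Nat.card_unique

/-- Fixed points of the disjoint union of the `Γ ⧸ C`, `C` running through a list. -/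
theorem k0as_card_fixedBy_list {Γ : Type} [Group Γ] [Finite Γ] (L : List (Subgroup Γ)) (g : Γ) :
    Nat.card (MulAction.fixedBy (Σ i : Fin L.length, Γ ⧸ L[(i : ℕ)]) g) =
      (L.map fun C => Nat.card (MulAction.fixedBy (Γ ⧸ C) g)).sum := by
  rw [k0as_card_fixedBy_sigma (fun i : Fin L.length => Γ ⧸ L[(i : ℕ)]) g]
  exact Fin.sum_univ_fun_getElem L (fun C => Nat.card (MulAction.fixedBy (Γ ⧸ C) g))

/-- **E-K0**, assembled from its pieces. -/
theorem stmtK0_of (hBN : StmtBN) (hPerm : StmtPermCharpoly) (hMarks : StmtMarks)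
    (hHom : StmtHomPerm) (hSig : StmtSigmaAdd) : StmtK0 := by
  intro p _ Γ _ _ φ hφ hC B hB
  obtain ⟨n, Cpos, Cneg, hn, hcyc, hmarks⟩ := hMarks p Γ
  obtain ⟨ψ, hψ, hψC, hψtop⟩ := hHom (ZMod p) Γ φ hφ B hB
  set Lneg : List (Subgroup Γ) := List.replicate n (⊤ : Subgroup Γ) ++ Cneg with hLneg
  -- the two `Γ`-sets have the same marks on `p`-regular elements
  have hfix : ∀ g : Γ, (orderOf g).Coprime p →
      Nat.card (MulAction.fixedBy (Σ i : Fin Lneg.length, Γ ⧸ Lneg[(i : ℕ)]) g) =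
        Nat.card (MulAction.fixedBy (Σ i : Fin Cpos.length, Γ ⧸ Cpos[(i : ℕ)]) g) := by
    intro g hg
    rw [k0as_card_fixedBy_list, k0as_card_fixedBy_list, ← hmarks g hg, hLneg, List.map_append,
      List.sum_append, List.map_replicate, List.sum_replicate, k0as_card_fixedBy_top]
    simp
  -- hence the same characteristic polynomials
  have hchar : ∀ g : Γ, (orderOf g).Coprime p →
      repCharpoly (Rep.ofMulAction (ZMod p) Γ (Σ i : Fin Lneg.length, Γ ⧸ Lneg[(i : ℕ)])) g =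
        repCharpoly (Rep.ofMulAction (ZMod p) Γ (Σ i : Fin Cpos.length, Γ ⧸ Cpos[(i : ℕ)])) g := by
    intro g hg
    refine hPerm (ZMod p) Γ _ _ g fun e => hfix (g ^ e) ?_
    exact Nat.Coprime.coprime_dvd_left (orderOf_pow_dvd e) hg
  -- Brauer–Nesbitt for `ψ`
  have hψeq := hBN p Γ ψ hψ _ _ (inferInstance : Module.Finite (ZMod p)
      (Rep.ofMulAction (ZMod p) Γ (Σ i : Fin Lneg.length, Γ ⧸ Lneg[(i : ℕ)])).V)
    (inferInstance : Module.Finite (ZMod p)
      (Rep.ofMulAction (ZMod p) Γ (Σ i : Fin Cpos.length, Γ ⧸ Cpos[(i : ℕ)])).V) hchar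
  rw [hSig (ZMod p) Γ ψ hψ (Fin Lneg.length) (fun i => Γ ⧸ Lneg[(i : ℕ)]),
    hSig (ZMod p) Γ ψ hψ (Fin Cpos.length) (fun i => Γ ⧸ Cpos[(i : ℕ)]),
    Fin.sum_univ_fun_getElem Lneg (fun C => ψ (Rep.ofMulAction (ZMod p) Γ (Γ ⧸ C))),
    Fin.sum_univ_fun_getElem Cpos (fun C => ψ (Rep.ofMulAction (ZMod p) Γ (Γ ⧸ C)))] at hψeq
  -- the values on the `Γ ⧸ C`, `C` cyclic of order prime to `p`, vanish
  have hzero : ∀ L : List (Subgroup Γ), (∀ C ∈ L, IsCyclic C ∧ (Nat.card C).Coprime p) →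
      (L.map fun C => ψ (Rep.ofMulAction (ZMod p) Γ (Γ ⧸ C))).sum = 0 := by
    intro L hL
    apply List.sum_eq_zero
    intro x hx
    obtain ⟨C, hCL, rfl⟩ := List.mem_map.1 hx
    rw [hψC C]
    exact hC C (hL C hCL).1 (hL C hCL).2 _ hB
  rw [hzero Cpos fun C hCm => hcyc C (List.mem_append_left _ hCm), hLneg, List.map_append,
    List.sum_append, hzero Cneg fun C hCm => hcyc C (List.mem_append_right _ hCm),
    List.map_replicate, List.sum_replicate, hψtop, add_zero] at hψeq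
  rcases smul_eq_zero.1 hψeq with h | h
  · exact absurd h hn.ne'
  · exact h

end Fermat.Agent.TW.E


end ZBTW_061_0
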