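/- GENERATED FILE (helper35, build-time optimisation, NOTES/ZB.md): verbatim concatenation of the modules
   Fermat.Agent.TW.E.K0Marks
   Do not edit; do not import together with these modules. -/
import Fermat.Agent.ZB.TW_014

/-! ### bundled: `Fermat.Agent.TW.E.K0Marks` -/
section ZBTW_063_0
/-
TW-E / E-K0 / K3 (helper32): Artin induction for marks on `p`-regular elements.

Main result: `stmtMarks : StmtMarks` (statement in `TW/E/K0Plan.lean`), with `n = |Γ|`.

Proof.  For a subgroup `C` and `g ∈ Γ` put `π_C g = #Fix_{Γ/C}(g)`, `S_C g = #{x | x⁻¹ g x ∈ C}`,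
`θ_C g = #{x | ⟨x⁻¹ g x⟩ = C}`.  Then `S_C = |C| π_C` (`k0ma_S_eq`), `S_C = Σ_{D ≤ C} θ_D`
(`k0ma_S_sum`), `|Γ| = Σ_D θ_D` (`k0ma_card_sum`), and `θ_D g = 0` unless `D` is cyclic
(and of order prime to `p` when `g` is `p`-regular).  By strong induction on `|C|`, `θ_C` is an
integral combination of the `π_D` (`D` cyclic `p′`) for every `p′`-subgroup `C` (`k0ma_th_mem`);
summing over `C` gives the constant `|Γ|` on `p`-regular elements (`k0ma_const_mem`).  Integral
combinations are unfolded into two lists by induction on the closure (`k0ma_lists`).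
-/

set_option autoImplicit false
set_option linter.unusedSectionVars false
set_option linter.style.haveILetI false

namespace Fermat.Agent.TW.E

open scoped Classical

variable {Γ : Type} [Group Γ] [Finite Γ]

/-- the mark of `Γ ⧸ C` at `g` -/
noncomputable def k0ma_pi (C : Subgroup Γ) (g : Γ) : ℕ := Nat.card (MulAction.fixedBy (Γ ⧸ C) g)

/-- the number of `x` with `x⁻¹ g x ∈ C` -/
noncomputable def k0ma_S (C : Subgroup Γ) (g : Γ) : ℕ := Nat.card {x : Γ // x⁻¹ * g * x ∈ C}

/-- the number of `x` with `⟨x⁻¹ g x⟩ = C` -/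
noncomputable def k0ma_th (C : Subgroup Γ) (g : Γ) : ℕ :=
  Nat.card {x : Γ // Subgroup.zpowers (x⁻¹ * g * x) = C}

lemma k0ma_S_eq (C : Subgroup Γ) (g : Γ) : k0ma_S C g = Nat.card C * k0ma_pi C g := by
  have e : {x : Γ // x⁻¹ * g * x ∈ C} ≃ {q : Γ ⧸ C // g • q = q} × C := by
    refine (Equiv.subtypeEquiv (Subgroup.groupEquivQuotientProdSubgroup (s := C)) ?_).trans
      (Equiv.prodSubtypeFstEquivSubtypeProd (p := fun q : Γ ⧸ C => g • q = q))
    intro x
    have h1 : ((Subgroup.groupEquivQuotientProdSubgroup (s := C)) x).1 = (x : Γ ⧸ C) := rfl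
    rw [h1]
    change _ ↔ ((g * x : Γ) : Γ ⧸ C) = (x : Γ ⧸ C)
    rw [eq_comm, QuotientGroup.eq, mul_assoc]
  unfold k0ma_S k0ma_pi
  rw [Nat.card_congr e, Nat.card_prod, mul_comm]
  rfl

/-- fibrewise counting over a finite type -/
lemma k0ma_card_fiber {X Y : Type} [Finite X] [Fintype Y] (P : X → Prop) (f : X → Y)
    (t : Finset Y) (ht : ∀ x, P x ↔ f x ∈ t) :
    Nat.card {x : X // P x} = ∑ y ∈ t, Nat.card {x : X // f x = y} := by
  haveI := Fintype.ofFinite X
  have h1 : Nat.card {x : X // P x} = (Finset.univ.filter (fun x => f x ∈ t)).card := by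
    rw [Nat.card_eq_fintype_card, Fintype.card_subtype]
    congr 1
    ext x
    simp [ht x]
  rw [h1, Finset.card_eq_sum_card_fiberwise (f := f) (t := t) (fun x hx => by simpa using hx)]
  refine Finset.sum_congr rfl (fun y hy => ?_)
  rw [Nat.card_eq_fintype_card, Fintype.card_subtype]
  congr 1
  ext x
  simp only [Finset.mem_filter, Finset.mem_univ, true_and, and_iff_right_iff_imp]
  intro h
  rw [h]
  exact hy

variable [Fintype (Subgroup Γ)]

lemma k0ma_S_sum (C : Subgroup Γ) (g : Γ) :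
    k0ma_S C g = ∑ D ∈ Finset.univ.filter (fun D : Subgroup Γ => D ≤ C), k0ma_th D g := by
  unfold k0ma_S k0ma_th
  refine k0ma_card_fiber _ (fun x => Subgroup.zpowers (x⁻¹ * g * x)) _ (fun x => ?_)
  simp [Subgroup.zpowers_le]

lemma k0ma_card_sum (g : Γ) :
    Nat.card Γ = ∑ D : Subgroup Γ, k0ma_th D g := by
  have h := k0ma_card_fiber (X := Γ) (fun _ => True) (fun x => Subgroup.zpowers (x⁻¹ * g * x))
    Finset.univ (fun x => by simp)
  unfold k0ma_th
  rw [← h]
  exact (Nat.card_congr (Equiv.subtypeUnivEquiv (fun _ => trivial))).symm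

lemma k0ma_th_eq_zero_of_not_cyclic (D : Subgroup Γ) (hD : ¬ IsCyclic D) (g : Γ) :
    k0ma_th D g = 0 := by
  unfold k0ma_th
  have : IsEmpty {x : Γ // Subgroup.zpowers (x⁻¹ * g * x) = D} := by
    refine ⟨fun x => hD ?_⟩
    rw [← x.2]
    infer_instance
  exact Nat.card_of_isEmpty

lemma k0ma_th_eq_zero_of_not_coprime (p : ℕ) (D : Subgroup Γ) (hD : ¬ (Nat.card D).Coprime p)
    (g : Γ) (hg : (orderOf g).Coprime p) : k0ma_th D g = 0 := by
  unfold k0ma_th
  have : IsEmpty {x : Γ // Subgroup.zpowers (x⁻¹ * g * x) = D} := by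
    refine ⟨fun x => hD ?_⟩
    rw [← x.2, Nat.card_zpowers]
    have h1 : orderOf (x.1⁻¹ * g * x.1) = orderOf g := by
      have := MulEquiv.orderOf_eq (MulAut.conj x.1⁻¹) g
      simpa using this
    rw [h1]
    exact hg
  exact Nat.card_of_isEmpty


/-- the generating marks: `Γ ⧸ C`, `C` cyclic of order prime to `p` -/
def k0ma_gen (p : ℕ) : Set (Γ → ℤ) :=
  {f | ∃ C : Subgroup Γ, (IsCyclic C ∧ (Nat.card C).Coprime p) ∧ f = fun g => (k0ma_pi C g : ℤ)}

/-- the group of integral combinations of the generating marks -/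
def k0ma_W (p : ℕ) : AddSubgroup (Γ → ℤ) := AddSubgroup.closure (k0ma_gen (Γ := Γ) p)

lemma k0ma_S_mem (p : ℕ) (C : Subgroup Γ) (hC : IsCyclic C) (hp : (Nat.card C).Coprime p) :
    (fun g => (k0ma_S C g : ℤ)) ∈ k0ma_W (Γ := Γ) p := by
  have h1 : (fun g => (k0ma_pi C g : ℤ)) ∈ k0ma_W (Γ := Γ) p :=
    AddSubgroup.subset_closure ⟨C, ⟨hC, hp⟩, rfl⟩
  have h2 : (fun g => (k0ma_S C g : ℤ)) = (Nat.card C) • (fun g => (k0ma_pi C g : ℤ)) := by
    funext g
    rw [k0ma_S_eq]
    simp
  rw [h2]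
  exact AddSubgroup.nsmul_mem _ h1 _

lemma k0ma_th_mem (p : ℕ) : ∀ (n : ℕ) (C : Subgroup Γ), Nat.card C = n →
    (Nat.card C).Coprime p → (fun g => (k0ma_th C g : ℤ)) ∈ k0ma_W (Γ := Γ) p := by
  intro n
  induction n using Nat.strong_induction_on with
  | _ n ih =>
    intro C hn hp
    by_cases hC : IsCyclic C
    · have hsplit : ∀ g, (k0ma_th C g : ℤ) = (k0ma_S C g : ℤ) -
          ∑ D ∈ Finset.univ.filter (fun D : Subgroup Γ => D < C), (k0ma_th D g : ℤ) := by
        intro g
        have h1 := k0ma_S_sum C g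
        have h2 : Finset.univ.filter (fun D : Subgroup Γ => D ≤ C) =
            insert C (Finset.univ.filter (fun D : Subgroup Γ => D < C)) := by
          ext D
          simp only [Finset.mem_filter, Finset.mem_univ, true_and, Finset.mem_insert]
          rw [le_iff_eq_or_lt]
        rw [h2, Finset.sum_insert (by simp)] at h1
        rw [h1]
        push_cast
        ring
      have h3 : (fun g => (k0ma_th C g : ℤ)) = (fun g => (k0ma_S C g : ℤ)) -
          ∑ D ∈ Finset.univ.filter (fun D : Subgroup Γ => D < C),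
            (fun g => (k0ma_th D g : ℤ)) := by
        funext g
        rw [hsplit g]
        simp
      rw [h3]
      refine sub_mem (k0ma_S_mem p C hC hp) (AddSubgroup.sum_mem _ (fun D hD => ?_))
      have hDC : D < C := (Finset.mem_filter.mp hD).2
      have hdvd : Nat.card D ∣ Nat.card C := Subgroup.card_dvd_of_le hDC.le
      have hlt : Nat.card D < n := by
        rw [← hn]
        refine lt_of_le_of_ne (Nat.le_of_dvd Nat.card_pos hdvd) (fun h => ?_)
        exact hDC.ne (Subgroup.eq_of_le_of_card_ge hDC.le h.ge)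
      exact ih _ hlt D rfl (Nat.Coprime.coprime_dvd_left hdvd hp)
    · have : (fun g => (k0ma_th C g : ℤ)) = 0 := by
        funext g
        rw [k0ma_th_eq_zero_of_not_cyclic C hC g]
        simp
      rw [this]
      exact zero_mem _

/-- the constant `|Γ|` agrees on `p`-regular elements with an integral combination of marks -/
lemma k0ma_const_mem (p : ℕ) :
    ∃ f ∈ k0ma_W (Γ := Γ) p, ∀ g : Γ, (orderOf g).Coprime p → f g = (Nat.card Γ : ℤ) := by
  refine ⟨∑ D ∈ Finset.univ.filter (fun D : Subgroup Γ => (Nat.card D).Coprime p),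
    (fun g => (k0ma_th D g : ℤ)), AddSubgroup.sum_mem _ (fun D hD => ?_), fun g hg => ?_⟩
  · exact k0ma_th_mem p _ D rfl (Finset.mem_filter.mp hD).2
  · rw [k0ma_card_sum g, Finset.sum_apply]
    push_cast
    rw [Finset.sum_filter]
    refine Finset.sum_congr rfl (fun D _ => ?_)
    split_ifs with h
    · rfl
    · rw [k0ma_th_eq_zero_of_not_coprime p D h g hg]
      simp


omit [Fintype (Subgroup Γ)] in
/-- elements of `k0ma_W` are differences of sums of marks over lists -/
lemma k0ma_lists (p : ℕ) (f : Γ → ℤ) (hf : f ∈ k0ma_W (Γ := Γ) p) :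
    ∃ Cpos Cneg : List (Subgroup Γ),
      (∀ C ∈ Cpos ++ Cneg, IsCyclic C ∧ (Nat.card C).Coprime p) ∧
      ∀ g : Γ, f g + (Cneg.map fun C => (k0ma_pi C g : ℤ)).sum =
        (Cpos.map fun C => (k0ma_pi C g : ℤ)).sum := by
  unfold k0ma_W at hf
  induction hf using AddSubgroup.closure_induction with
  | mem x hx =>
    obtain ⟨C, hC, rfl⟩ := hx
    refine ⟨[C], [], ?_, fun g => ?_⟩
    · intro D hD
      simp only [List.append_nil, List.mem_singleton] at hD
      rw [hD]
      exact hC
    · simp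
  | zero =>
    exact ⟨[], [], by simp, fun g => by simp⟩
  | add x y _ _ hx hy =>
    obtain ⟨P1, N1, h1, e1⟩ := hx
    obtain ⟨P2, N2, h2, e2⟩ := hy
    refine ⟨P1 ++ P2, N1 ++ N2, ?_, fun g => ?_⟩
    · intro C hC
      simp only [List.mem_append] at hC h1 h2
      rcases hC with (h | h) | (h | h)
      · exact h1 C (Or.inl h)
      · exact h2 C (Or.inl h)
      · exact h1 C (Or.inr h)
      · exact h2 C (Or.inr h)
    · rw [List.map_append, List.map_append, List.sum_append, List.sum_append, ← e1 g, ← e2 g]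
      simp only [Pi.add_apply]
      ring
  | neg x _ hx =>
    obtain ⟨P1, N1, h1, e1⟩ := hx
    refine ⟨N1, P1, ?_, fun g => ?_⟩
    · intro C hC
      simp only [List.mem_append] at hC h1
      exact h1 C hC.symm
    · rw [← e1 g]
      simp only [Pi.neg_apply]
      ring

/-- **K3**: `StmtMarks`. -/
theorem stmtMarks : StmtMarks := by
  intro p _ Γ _ _
  haveI : Fintype (Subgroup Γ) := Fintype.ofFinite _
  obtain ⟨f, hf, hfg⟩ := k0ma_const_mem (Γ := Γ) p
  obtain ⟨Cpos, Cneg, hC, he⟩ := k0ma_lists p f hf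
  refine ⟨Nat.card Γ, Cpos, Cneg, Nat.card_pos, hC, fun g hg => ?_⟩
  have h := he g
  rw [hfg g hg] at h
  have h2 : ((Nat.card Γ + (Cneg.map fun C => Nat.card (MulAction.fixedBy (Γ ⧸ C) g)).sum : ℕ) : ℤ)
      = (((Cpos.map fun C => Nat.card (MulAction.fixedBy (Γ ⧸ C) g)).sum : ℕ) : ℤ) := by
    rw [Nat.cast_add, Nat.cast_list_sum, Nat.cast_list_sum, List.map_map, List.map_map]
    exact h
  exact_mod_cast h2

end Fermat.Agent.TW.E


end ZBTW_063_0
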