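/- GENERATED FILE (helper35, build-time optimisation, NOTES/ZB.md): verbatim concatenation of the modules
   Fermat.Agent.TW.E.K0HomPerm
   Do not edit; do not import together with these modules. -/
import Fermat.Agent.ZB.TW_014

/-! ### bundled: `Fermat.Agent.TW.E.K0HomPerm` -/
section ZBTW_064_0
/-
TW-E / E-K0, piece K4 (helper40): `stmtHomPerm : StmtHomPerm`.

`ψ M := φ (Hom_k(M, B))` (conjugation action).  `Hom_k(-, B)` is exact on vector spaces, so `ψ` is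
additive; `Hom_k(k[Γ/C], B) ≅ coind_C res_C B` by `f ↦ (h ↦ h • f (h⁻¹ C))`, and
`Hom_k(k[pt], B) ≅ B` by evaluation.
-/

set_option autoImplicit false
set_option linter.style.haveILetI false

namespace Fermat.Agent.TW.E

open CategoryTheory

variable {k Γ : Type} [Field k] [Group Γ]

/-- `Hom_k(M, B)` with the conjugation action -/
noncomputable abbrev k0hp_hom (B M : Rep.{0} k Γ) : Rep.{0} k Γ :=
  Rep.of (Representation.linHom M.ρ B.ρ)

theorem k0hp_hom_ρ (B M : Rep.{0} k Γ) (g : Γ) (f : M.V →ₗ[k] B.V) :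
    (k0hp_hom B M).ρ g f = B.ρ g ∘ₗ f ∘ₗ M.ρ g⁻¹ := rfl

/-- precomposition with an intertwining map, as a morphism `Hom(N, B) ⟶ Hom(M, B)` -/
noncomputable def k0hp_pre (B : Rep.{0} k Γ) {M N : Rep.{0} k Γ} (f : M ⟶ N) :
    k0hp_hom B N ⟶ k0hp_hom B M :=
  Rep.ofHom
    { toLinearMap := LinearMap.lcomp k B.V f.hom.toLinearMap
      isIntertwining' := by
        intro g
        ext u x
        simp only [LinearMap.coe_comp, Function.comp_apply, LinearMap.lcomp_apply,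
          Representation.linHom_apply]
        congr 2
        exact (Rep.hom_comm_apply f g⁻¹ x).symm }

theorem k0hp_pre_apply (B : Rep.{0} k Γ) {M N : Rep.{0} k Γ} (f : M ⟶ N) (u : N.V →ₗ[k] B.V)
    (x : M.V) : ((k0hp_pre B f).hom u : M.V →ₗ[k] B.V) x = u (f.hom x) := rfl

theorem k0hp_pre_comp (B : Rep.{0} k Γ) {M N P : Rep.{0} k Γ} (f : M ⟶ N) (g : N ⟶ P) :
    k0hp_pre B (f ≫ g) = k0hp_pre B g ≫ k0hp_pre B f := by
  apply Rep.hom_ext
  ext u x
  rfl

theorem k0hp_pre_id (B M : Rep.{0} k Γ) : k0hp_pre B (𝟙 M) = 𝟙 (k0hp_hom B M) := by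
  apply Rep.hom_ext
  ext u x
  rfl

/-- `Hom(-, B)` preserves isomorphisms -/
noncomputable def k0hp_homIso (B : Rep.{0} k Γ) {M N : Rep.{0} k Γ} (e : M ≅ N) :
    k0hp_hom B M ≅ k0hp_hom B N where
  hom := k0hp_pre B e.inv
  inv := k0hp_pre B e.hom
  hom_inv_id := by rw [← k0hp_pre_comp, e.hom_inv_id, k0hp_pre_id]
  inv_hom_id := by rw [← k0hp_pre_comp, e.inv_hom_id, k0hp_pre_id]

theorem k0hp_pre_injective (B : Rep.{0} k Γ) {M N : Rep.{0} k Γ} (g : M ⟶ N)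
    (hg : Function.Surjective g.hom) : Function.Injective (k0hp_pre B g).hom := by
  intro u u' h
  apply LinearMap.ext
  intro y
  obtain ⟨x, rfl⟩ := hg y
  have := congrArg (fun w : M.V →ₗ[k] B.V => w x) h
  exact this

theorem k0hp_pre_surjective (B : Rep.{0} k Γ) {M N : Rep.{0} k Γ} (f : M ⟶ N)
    (hf : Function.Injective f.hom) : Function.Surjective (k0hp_pre B f).hom := by
  intro v
  obtain ⟨r, hr⟩ := LinearMap.exists_leftInverse_of_injective f.hom.toLinearMap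
    (LinearMap.ker_eq_bot.mpr hf)
  refine ⟨(v : M.V →ₗ[k] B.V) ∘ₗ r, ?_⟩
  apply LinearMap.ext
  intro x
  show (v : M.V →ₗ[k] B.V) (r (f.hom x)) = (v : M.V →ₗ[k] B.V) x
  have := congrArg (fun w : M.V →ₗ[k] M.V => w x) hr
  simp only [LinearMap.coe_comp, Function.comp_apply, LinearMap.id_coe, id_eq] at this
  exact congrArg _ this

theorem k0hp_pre_exact (B : Rep.{0} k Γ) {M' M M'' : Rep.{0} k Γ} (f : M' ⟶ M) (g : M ⟶ M'')
    (hg : Function.Surjective g.hom) (hex : Function.Exact f.hom g.hom) :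
    Function.Exact (k0hp_pre B g).hom (k0hp_pre B f).hom := by
  intro u
  constructor
  · intro hu
    obtain ⟨s, hs⟩ := LinearMap.exists_rightInverse_of_surjective g.hom.toLinearMap
      (LinearMap.range_eq_top.mpr hg)
    refine ⟨(u : M.V →ₗ[k] B.V) ∘ₗ s, ?_⟩
    apply LinearMap.ext
    intro x
    show (u : M.V →ₗ[k] B.V) (s (g.hom x)) = (u : M.V →ₗ[k] B.V) x
    have h1 : g.hom (x - s (g.hom x)) = 0 := by
      have := congrArg (fun w : M''.V →ₗ[k] M''.V => w (g.hom x)) hs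
      simp only [LinearMap.coe_comp, Function.comp_apply, LinearMap.id_coe, id_eq] at this
      rw [map_sub]
      exact sub_eq_zero.mpr this.symm
    obtain ⟨y, hy⟩ := (hex _).mp h1
    have h2 : (u : M.V →ₗ[k] B.V) (f.hom y) = 0 := by
      have := congrArg (fun w : M'.V →ₗ[k] B.V => w y) hu
      exact this
    rw [hy, map_sub] at h2
    exact (sub_eq_zero.mp h2).symm
  · rintro ⟨u'', rfl⟩
    apply LinearMap.ext
    intro x
    show (u'' : M''.V →ₗ[k] B.V) (g.hom (f.hom x)) = 0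
    rw [(hex (f.hom x)).mpr ⟨x, rfl⟩, map_zero]

/-- `ψ = φ (Hom_k(-, B))` is additive -/
theorem k0hp_isAddFun (φ : Rep.{0} k Γ → ℤ) (hφ : IsAddFun φ) (B : Rep.{0} k Γ)
    (hB : Module.Finite k B.V) : IsAddFun fun M => φ (k0hp_hom B M) where
  iso M N := by
    rintro ⟨e⟩
    exact hφ.iso _ _ ⟨k0hp_homIso B e⟩
  add M' M M'' f g hM hf hg hex := by
    have hfin : Module.Finite k (k0hp_hom B M).V :=
      (inferInstance : Module.Finite k (M.V →ₗ[k] B.V))
    have := hφ.add (k0hp_hom B M'') (k0hp_hom B M) (k0hp_hom B M') (k0hp_pre B g)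
      (k0hp_pre B f) hfin (k0hp_pre_injective B g hg) (k0hp_pre_surjective B f hf)
      (k0hp_pre_exact B f g hg hex)
    show φ (k0hp_hom B M) = φ (k0hp_hom B M') + φ (k0hp_hom B M'')
    rw [this, add_comm]

/-- a linear map on `k[X]` is determined by its values on the basis -/
theorem k0hp_ext {X : Type} {V : Type} [AddCommGroup V] [Module k V]
    {f f' : MonoidAlgebra k X →ₗ[k] V}
    (h : ∀ x : X, f (MonoidAlgebra.single x 1) = f' (MonoidAlgebra.single x 1)) : f = f' := by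
  apply MonoidAlgebra.lhom_ext'
  intro x
  apply LinearMap.ext_ring
  exact h x

/-- the linear map on `k[X]` with prescribed values on the basis -/
noncomputable def k0hp_lift {X : Type} {V : Type} [AddCommGroup V] [Module k V] (v : X → V) :
    MonoidAlgebra k X →ₗ[k] V :=
  Finsupp.linearCombination k v ∘ₗ (MonoidAlgebra.coeffLinearEquiv k).toLinearMap

theorem k0hp_lift_single {X : Type} {V : Type} [AddCommGroup V] [Module k V] (v : X → V)
    (x : X) : k0hp_lift (k := k) v (MonoidAlgebra.single x 1) = v x := by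
  rw [k0hp_lift, LinearMap.comp_apply, LinearEquiv.coe_coe, MonoidAlgebra.coeffLinearEquiv_apply,
    MonoidAlgebra.coeff_single, Finsupp.linearCombination_single, one_smul]

theorem k0hp_coset_eq (C : Subgroup Γ) (c : C) (h : Γ) :
    ((((c : Γ) * h)⁻¹ : Γ) : Γ ⧸ C) = ((h⁻¹ : Γ) : Γ ⧸ C) := by
  rw [QuotientGroup.eq]
  simp

/-- the function `h ↦ h • f (h⁻¹ C)` attached to `f : k[Γ/C] → B` -/
noncomputable def k0hp_toCoind (B : Rep.{0} k Γ) (C : Subgroup Γ) :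
    (MonoidAlgebra k (Γ ⧸ C) →ₗ[k] B.V) →ₗ[k]
      Representation.coindV C.subtype (Rep.res C.subtype B).ρ where
  toFun f := ⟨fun h => B.ρ h (f (MonoidAlgebra.single ((h⁻¹ : Γ) : Γ ⧸ C) 1)), by
    intro c h
    show B.ρ ((c : Γ) * h) (f (MonoidAlgebra.single ((((c : Γ) * h)⁻¹ : Γ) : Γ ⧸ C) 1)) =
      B.ρ (c : Γ) (B.ρ h (f (MonoidAlgebra.single ((h⁻¹ : Γ) : Γ ⧸ C) 1)))
    rw [k0hp_coset_eq, map_mul]
    rfl⟩
  map_add' f f' := by
    apply Subtype.ext
    funext h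
    show B.ρ h ((f + f') _) = B.ρ h (f _) + B.ρ h (f' _)
    rw [LinearMap.add_apply, map_add]
  map_smul' r f := by
    apply Subtype.ext
    funext h
    show B.ρ h ((r • f) _) = r • B.ρ h (f _)
    rw [LinearMap.smul_apply, map_smul]

theorem k0hp_toCoind_apply (B : Rep.{0} k Γ) (C : Subgroup Γ)
    (f : MonoidAlgebra k (Γ ⧸ C) →ₗ[k] B.V) (h : Γ) :
    (k0hp_toCoind B C f).1 h = B.ρ h (f (MonoidAlgebra.single ((h⁻¹ : Γ) : Γ ⧸ C) 1)) := rfl

theorem k0hp_toCoind_injective (B : Rep.{0} k Γ) (C : Subgroup Γ) :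
    Function.Injective (k0hp_toCoind B C) := by
  intro f f' hff
  apply k0hp_ext
  intro x
  obtain ⟨y, rfl⟩ := QuotientGroup.mk_surjective x
  have h1 : (k0hp_toCoind B C f).1 y⁻¹ = (k0hp_toCoind B C f').1 y⁻¹ := by rw [hff]
  rw [k0hp_toCoind_apply, k0hp_toCoind_apply, inv_inv] at h1
  have h2 := congrArg (B.ρ y) h1
  rw [← Module.End.mul_apply, ← map_mul, ← Module.End.mul_apply, ← map_mul, mul_inv_cancel,
    map_one] at h2
  exact h2

theorem k0hp_toCoind_surjective (B : Rep.{0} k Γ) (C : Subgroup Γ) :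
    Function.Surjective (k0hp_toCoind B C) := by
  intro F
  refine ⟨k0hp_lift (fun x : Γ ⧸ C => B.ρ x.out (F.1 x.out⁻¹)), ?_⟩
  apply Subtype.ext
  funext h
  rw [k0hp_toCoind_apply, k0hp_lift_single]
  -- `x.out = h⁻¹ * c`
  have h1 : ((((h⁻¹ : Γ) : Γ ⧸ C)).out : Γ ⧸ C) = ((h⁻¹ : Γ) : Γ ⧸ C) := Quotient.out_eq' _
  rw [QuotientGroup.eq] at h1
  set y := (((h⁻¹ : Γ) : Γ ⧸ C)).out with hy
  -- `c = y⁻¹ * h⁻¹ ∈ C`, `y⁻¹ = c * h`
  have h2 : F.1 y⁻¹ = B.ρ (y⁻¹ * h⁻¹) (F.1 h) := by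
    have := F.2 ⟨y⁻¹ * h⁻¹, h1⟩ h
    simp only [Subgroup.subtype_apply, inv_mul_cancel_right] at this
    exact this
  rw [h2, ← Module.End.mul_apply, ← map_mul, ← Module.End.mul_apply, ← map_mul]
  have h3 : h * y * (y⁻¹ * h⁻¹) = 1 := by group
  rw [h3, map_one]
  rfl

/-- `Hom_k(k[Γ/C], B) ≃ coind_C res_C B` -/
noncomputable def k0hp_cosetEquiv (B : Rep.{0} k Γ) (C : Subgroup Γ) :
    (Representation.linHom (Representation.ofMulAction k Γ (Γ ⧸ C)) B.ρ).Equiv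
      (Representation.coind C.subtype (Rep.res C.subtype B).ρ) :=
  Representation.Equiv.mk
    (LinearEquiv.ofBijective (k0hp_toCoind B C)
      ⟨k0hp_toCoind_injective B C, k0hp_toCoind_surjective B C⟩) (by
    intro γ
    apply LinearMap.ext
    intro f
    apply Subtype.ext
    funext h
    show B.ρ h ((B.ρ γ ∘ₗ f ∘ₗ (Representation.ofMulAction k Γ (Γ ⧸ C)) γ⁻¹)
        (MonoidAlgebra.single ((h⁻¹ : Γ) : Γ ⧸ C) 1)) =
      B.ρ (h * γ) (f (MonoidAlgebra.single (((h * γ)⁻¹ : Γ) : Γ ⧸ C) 1))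
    rw [LinearMap.comp_apply, LinearMap.comp_apply, Representation.ofMulAction_single,
      map_mul, mul_inv_rev]
    rfl)

/-- evaluation at the point, `Hom_k(k[Γ/Γ], B) → B` -/
noncomputable def k0hp_evalPt (B : Rep.{0} k Γ) :
    (MonoidAlgebra k (Γ ⧸ (⊤ : Subgroup Γ)) →ₗ[k] B.V) →ₗ[k] B.V where
  toFun f := f (MonoidAlgebra.single (((1 : Γ) : Γ ⧸ (⊤ : Subgroup Γ))) 1)
  map_add' _ _ := rfl
  map_smul' _ _ := rfl

theorem k0hp_evalPt_bijective (B : Rep.{0} k Γ) : Function.Bijective (k0hp_evalPt B) := by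
  haveI : Subsingleton (Γ ⧸ (⊤ : Subgroup Γ)) := QuotientGroup.subsingleton_quotient_top
  constructor
  · intro f f' hff
    apply k0hp_ext
    intro x
    rw [Subsingleton.elim x (((1 : Γ) : Γ ⧸ (⊤ : Subgroup Γ)))]
    exact hff
  · intro b
    refine ⟨k0hp_lift (fun _ => b), ?_⟩
    show k0hp_lift (fun _ => b) (MonoidAlgebra.single _ 1) = b
    rw [k0hp_lift_single]

/-- `Hom_k(k[Γ/Γ], B) ≃ B` -/
noncomputable def k0hp_ptEquiv (B : Rep.{0} k Γ) :
    (Representation.linHom (Representation.ofMulAction k Γ (Γ ⧸ (⊤ : Subgroup Γ))) B.ρ).Equiv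
      B.ρ :=
  Representation.Equiv.mk
    (LinearEquiv.ofBijective (k0hp_evalPt B) (k0hp_evalPt_bijective B)) (by
    haveI : Subsingleton (Γ ⧸ (⊤ : Subgroup Γ)) := QuotientGroup.subsingleton_quotient_top
    intro γ
    apply LinearMap.ext
    intro f
    show (B.ρ γ ∘ₗ f ∘ₗ (Representation.ofMulAction k Γ (Γ ⧸ (⊤ : Subgroup Γ))) γ⁻¹)
        (MonoidAlgebra.single (((1 : Γ) : Γ ⧸ (⊤ : Subgroup Γ))) 1) =
      B.ρ γ (f (MonoidAlgebra.single (((1 : Γ) : Γ ⧸ (⊤ : Subgroup Γ))) 1))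
    rw [LinearMap.comp_apply, LinearMap.comp_apply, Representation.ofMulAction_single,
      Subsingleton.elim (γ⁻¹ • (((1 : Γ) : Γ ⧸ (⊤ : Subgroup Γ))))
        (((1 : Γ) : Γ ⧸ (⊤ : Subgroup Γ)))])

/-- **K4.** -/
theorem stmtHomPerm : StmtHomPerm := by
  intro k Γ _ _ _ φ hφ B hB
  refine ⟨fun M => φ (k0hp_hom B M), k0hp_isAddFun φ hφ B hB, ?_, ?_⟩
  · intro C
    exact hφ.iso _ _ ⟨Rep.mkIso (k0hp_cosetEquiv B C)⟩
  · exact hφ.iso _ _ ⟨Rep.mkIso (k0hp_ptEquiv B)⟩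

end Fermat.Agent.TW.E


end ZBTW_064_0
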