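/- GENERATED FILE (helper35, build-time optimisation, NOTES/ZB.md): verbatim concatenation of the modules
   Fermat.Agent.RT.K3.Sel
   Fermat.Agent.RT.K3.FinalAll
   Fermat.Agent.RT.K3.Done
   Do not edit; do not import together with these modules. -/
import Fermat.Agent.ZB.TW_014
import Fermat.Agent.ZB.TW_009
import Fermat.Agent.ZB.TW_033
import Fermat.Agent.ZB.TW_037
import Fermat.Agent.ZB.TW_038
import Fermat.Agent.ZB.TW_049
import Fermat.Agent.ZB.TW_043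
import Fermat.Agent.ZB.TW_060
import Fermat.Agent.ZB.TW_028

/-! ### bundled: `Fermat.Agent.RT.K3.Sel` -/
section ZBRT_025_0
/-
K-machine, piece RT-K3 / K3-S (helper54): THE ASSEMBLY of the Selmer side.
The number of pairwise inequivalent deformations of `ρ̄` to `k[ε]` of type `rtk3Flat`
(flat at `p`, unipotent at `Smin ∖ p`, unramified outside `Smin ∪ Q`, `±1` on the decomposition
groups at `T`) is at most the order of the Selmer group with `L_r = 0` at `r ∈ T`.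

* `rtk3s_main` : generic form (twin of `TW.S.sasm_main`);
* `stmtK3S`    : `StmtK3S` (RT/K3/Plan.lean), unconditional.
-/

set_option autoImplicit false
set_option linter.unusedSectionVars false
set_option linter.unusedVariables false

noncomputable section

namespace Fermat.Agent.RT

open CategoryTheory groupCohomology IsLocalRing
open Fermat.Agent.PT Fermat.Agent.PT.B Fermat.Agent.S53 Fermat.Agent.TW Fermat.Agent.TW.S
  Fermat.Agent.TW.L ExtCitation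

section Main

variable {𝒪 : Type} [CommRing 𝒪] [IsDomain 𝒪] [IsDiscreteValuationRing 𝒪]
  [IsAdicComplete (maximalIdeal 𝒪) 𝒪] (p : ℕ) [Fact p.Prime]
  [CharP (ResidueField 𝒪) p] [Finite (ResidueField 𝒪)]
  {ρbar : ResidualGaloisRep (ResidueField 𝒪)} (D : RigidDatum 𝒪 ρbar)

/-- the local condition at `q`, for the class of a deformation which is `±1` on the
decomposition groups at the primes of `T` -/
lemma rtk3s_loc_mem (hp2 : p ≠ 2) (Smin T : Finset ℕ)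
    (hSmin : ∀ q : ℕ, q.Prime → q ≠ p → (q ∈ Smin ↔ ¬ ρbar.IsUnramifiedAt q))
    (Lp : Submodule (ZMod p) (H1 (locRep p (ad0Rep p ρbar))))
    (ρ : GaloisRepAdic (DualNumber (ResidueField 𝒪))) (c0 : cocycles₁ (ad0Rep p ρbar))
    (hc : IsCocOf p D ρ (fun σ => (ad0Incl p ρbar).hom ((c0 : GQ → (ad0Rep p ρbar).V) σ)))
    (hdet : ρ.DetIsCyclotomic p)
    (hmin : ∀ q ∈ Smin, q.Prime → q ≠ p → ρ.IsUnipotentOnInertiaAt q)
    (hLp : (groupCohomology.map (localGaloisToGlobal p) (𝟙 (locRep p (ad0Rep p ρbar))) 1).hom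
        ((H1π (ad0Rep p ρbar)).hom c0) ∈ Lp)
    (htriv : ∀ r ∈ T, rtk3TrivAt ρ r)
    (q : ℕ) [hq : Fact q.Prime] :
    (groupCohomology.map (localGaloisToGlobal q) (𝟙 (locRep q (ad0Rep p ρbar))) 1).hom
        ((H1π (ad0Rep p ρbar)).hom c0) ∈ rtk3LocCond p ρbar Smin T Lp q := by
  by_cases hT : q ∈ T
  · rw [rtk3LocCond_of_mem p ρbar Smin T Lp q hT, Submodule.mem_bot]
    exact rtk3s_loc_zero p D q c0 hc (htriv q hT)
  · rw [rtk3LocCond_of_not_mem p ρbar Smin T Lp q hT]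
    exact sasm_loc_mem p D hp2 Smin hSmin Lp ρ c0 hc hdet hmin hLp q

/-- **K3-S, generic form.** -/
theorem rtk3s_main (hp2 : p ≠ 2) (Smin Q T : Finset ℕ)
    (hSmin : ∀ q : ℕ, q.Prime → q ≠ p → (q ∈ Smin ↔ ¬ ρbar.IsUnramifiedAt q))
    (Lp : Submodule (ZMod p) (H1 (locRep p (ad0Rep p ρbar))))
    (𝒟 : ∀ ⦃A : Type⦄ [CommRing A] [IsLocalRing A] [Algebra 𝒪 A], GaloisRepAdic A → Prop)
    (h𝒟det : ∀ ρ : GaloisRepAdic (DualNumber (ResidueField 𝒪)),
      @𝒟 (DualNumber (ResidueField 𝒪)) _ _ (dnAlg 𝒪) ρ → ρ.DetIsCyclotomic p)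
    (h𝒟unr : ∀ ρ : GaloisRepAdic (DualNumber (ResidueField 𝒪)),
      @𝒟 (DualNumber (ResidueField 𝒪)) _ _ (dnAlg 𝒪) ρ →
      ∀ q : ℕ, q.Prime → q ∉ (Smin ∪ T) ∪ Q → ρ.IsUnramifiedAt q)
    (h𝒟min : ∀ ρ : GaloisRepAdic (DualNumber (ResidueField 𝒪)),
      @𝒟 (DualNumber (ResidueField 𝒪)) _ _ (dnAlg 𝒪) ρ →
      ∀ q ∈ Smin, q.Prime → q ≠ p → ρ.IsUnipotentOnInertiaAt q)
    (h𝒟p : ∀ (ρ : GaloisRepAdic (DualNumber (ResidueField 𝒪))) (c : cocycles₁ (ad0Rep p ρbar)),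
      IsCocOf p D ρ (fun σ => (ad0Incl p ρbar).hom ((c : GQ → (ad0Rep p ρbar).V) σ)) →
      @𝒟 (DualNumber (ResidueField 𝒪)) _ _ (dnAlg 𝒪) ρ →
      (groupCohomology.map (localGaloisToGlobal p) (𝟙 (locRep p (ad0Rep p ρbar))) 1).hom
        ((H1π (ad0Rep p ρbar)).hom c) ∈ Lp)
    (h𝒟T : ∀ ρ : GaloisRepAdic (DualNumber (ResidueField 𝒪)),
      @𝒟 (DualNumber (ResidueField 𝒪)) _ _ (dnAlg 𝒪) ρ → ∀ r ∈ T, rtk3TrivAt ρ r)
    (hfin : Finite ↥(rtk3SelGroup p ρbar Smin T Lp (primesOf ((Smin ∪ T) ∪ Q)))) :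
    TwTanCard 𝒪 ρbar 𝒟
      (Nat.card ↥(rtk3SelGroup p ρbar Smin T Lp (primesOf ((Smin ∪ T) ∪ Q)))) := by
  intro ι _ t ht
  have hex : ∀ i : ι, ∃ c0 : cocycles₁ (ad0Rep p ρbar),
      IsCocOf p D (t i).1
        (fun σ => (ad0Incl p ρbar).hom ((c0 : GQ → (ad0Rep p ρbar).V) σ)) := by
    intro i
    obtain ⟨c, hc⟩ := stmtFrame 𝒪 p ρbar D (t i).1 (t i).2.2
    obtain ⟨c0, hc0⟩ := sasm_exists_coc0 p D (t i).1 c hc (h𝒟det _ (t i).2.1)
    exact ⟨c0, by rw [hc0]; exact hc⟩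
  choose c0 hc0 using hex
  have hmem : ∀ i, (H1π (ad0Rep p ρbar)).hom (c0 i) ∈
      rtk3SelGroup p ρbar Smin T Lp (primesOf ((Smin ∪ T) ∪ Q)) := by
    intro i
    refine ⟨?_, ?_⟩
    · rw [SetLike.mem_coe, mem_levH1_iff]
      refine ⟨c0 i, sasm_coc0_isLevel p D _ (c0 i) (hc0 i) _ (fun q hq => ?_), rfl⟩
      refine h𝒟unr _ (t i).2.1 q q.2 (fun hmem => hq ?_)
      exact Finset.mem_subtype.2 hmem
    · rw [SetLike.mem_coe, mem_selmer_iff]
      intro v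
      have : Fact ((v : Nat.Primes) : ℕ).Prime := ⟨(v : Nat.Primes).2⟩
      exact rtk3s_loc_mem p D hp2 Smin T hSmin Lp (t i).1 (c0 i) (hc0 i) (h𝒟det _ (t i).2.1)
        (h𝒟min _ (t i).2.1) (h𝒟p _ (c0 i) (hc0 i) (t i).2.1) (h𝒟T _ (t i).2.1)
        ((v : Nat.Primes) : ℕ)
  refine Nat.card_le_card_of_injective
    (fun i => (⟨(H1π (ad0Rep p ρbar)).hom (c0 i), hmem i⟩ :
      ↥(rtk3SelGroup p ρbar Smin T Lp (primesOf ((Smin ∪ T) ∪ Q))))) ?_
  intro i j hij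
  apply ht
  have h1 : H1π (ad0Rep p ρbar) (c0 i) = H1π (ad0Rep p ρbar) (c0 j) := congrArg Subtype.val hij
  rw [H1π_eq_iff] at h1
  obtain ⟨x, hx⟩ := h1
  refine stmtIso 𝒪 p ρbar D _ _ _ _ (hc0 i) (hc0 j) ⟨(ad0Incl p ρbar).hom x, fun σ => ?_⟩
  have h2 := congrFun hx σ
  rw [← map_sub]
  have h3 : ((c0 i : GQ → (ad0Rep p ρbar).V) σ) - ((c0 j : GQ → (ad0Rep p ρbar).V) σ) =
      (ad0Rep p ρbar).ρ σ x - x := h2.symm
  rw [h3, map_sub]
  rfl

end Main

/-- **K3-S**, unconditional. -/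
theorem stmtK3S : StmtK3S := by
  intro 𝒪 _ _ _ _ p _ _ _ ρbar D hp2 Smin Q T hpS hSmin hT Lp hflat hfin
  exact rtk3s_main p D hp2 Smin Q T hSmin Lp (rtk3Flat 𝒪 p Smin Q T)
    (fun ρ h => h.1.1.1)
    (fun ρ h q hq hmem => h.1.1.2.2 q hq (fun hm => hmem (by
      rcases Finset.mem_union.1 hm with h1 | h1
      · exact Finset.mem_union_left _ (Finset.mem_union_left _ h1)
      · exact Finset.mem_union_right _ h1)))
    (fun ρ h => h.1.2)
    (fun ρ c hc h => hflat ρ c hc h.1.1.1 h.1.1.2.1)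
    (fun ρ h => h.2) hfin

end Fermat.Agent.RT

end


end ZBRT_025_0

/-! ### bundled: `Fermat.Agent.RT.K3.FinalAll` -/
section ZBRT_025_1
/-
RT-K3, COMPLETE up to the two open inputs of S56 (helper68):
  `stmtK3Sel_of_ec : E.StmtEC → W.StmtWFlat → StmtK3Sel 𝒪`.
Pieces: K3-kill `stmtK3Kill` (helper26), K3-S `stmtK3S` (helper54), K3-count / K3-asm (helper68);
K3-Alg `stmtK3Alg` (helper53, RT/K3/Alg.lean) is unconditional and independent.
-/

set_option autoImplicit false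

namespace Fermat.Agent.RT

open IsLocalRing

variable {𝒪 : Type} [CommRing 𝒪] [IsDomain 𝒪] [IsDiscreteValuationRing 𝒪]
  [IsAdicComplete (maximalIdeal 𝒪) 𝒪] [Finite (ResidueField 𝒪)]

/-- **K3-Sel** (framed Taylor–Wiles primes, cohomological part) from the two statements of
project TW which are still open: the global Euler characteristic `E.StmtEC` and the flat local
condition at `p`, `W.StmtWFlat`. -/
theorem stmtK3Sel_of_ec (hEC : Fermat.Agent.TW.E.StmtEC)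
    (hW : Fermat.Agent.TW.W.StmtWFlat) : StmtK3Sel 𝒪 :=
  stmtK3Sel_of_open hEC hW (stmtK3Kill 𝒪) stmtK3S

end Fermat.Agent.RT


end ZBRT_025_1

/-! ### bundled: `Fermat.Agent.RT.K3.Done` -/
section ZBRT_025_2
/-
RT-K3, COMPLETE (helper68): `stmtK3Sel : StmtK3Sel 𝒪`, UNCONDITIONAL.

Framed Taylor–Wiles primes, cohomological part (K-machine, rows 37 + S59):
K3-kill (helper26), K3-S (helper54), K3-count + K3-asm (helper68), and the two walls of S56:
the global Euler characteristic `E.StmtEC` (TW-E: `stmtAsm`, `stmtAdd`, `stmtH2Fin`,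
`stmtPDepthTower`, `stmtCyc`, `stmtK0`) and the flat local condition `W.stmtWFlat` (TW-W).
`stmtK3Alg : StmtK3Alg 𝒪` (helper53) is in RT/K3/Alg.lean.
-/

set_option autoImplicit false

namespace Fermat.Agent.RT

open IsLocalRing

/-- the global Euler characteristic (TW-E), unconditional -/
theorem rtk3_stmtEC : Fermat.Agent.TW.E.StmtEC :=
  Fermat.Agent.TW.E.stmtAsm Fermat.Agent.TW.E.stmtAdd Fermat.Agent.TW.E.stmtH2Fin
    Fermat.Agent.TW.E.stmtPDepthTower Fermat.Agent.TW.E.stmtCyc Fermat.Agent.TW.E.stmtK0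

/-- **K3-Sel** (framed Taylor–Wiles primes, cohomological part), unconditional. -/
theorem stmtK3Sel (𝒪 : Type) [CommRing 𝒪] [IsDomain 𝒪] [IsDiscreteValuationRing 𝒪]
    [IsAdicComplete (maximalIdeal 𝒪) 𝒪] [Finite (ResidueField 𝒪)] : StmtK3Sel 𝒪 :=
  stmtK3Sel_of_ec rtk3_stmtEC Fermat.Agent.TW.W.stmtWFlat

end Fermat.Agent.RT


end ZBRT_025_2
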