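/- GENERATED FILE (helper35, build-time optimisation, NOTES/ZB.md): verbatim concatenation of the modules
   Fermat.Agent.RIB.MP.FacDeg
   Fermat.Agent.RIB.MP.FacFinal
   Fermat.Agent.RIB.MP.FrobAll
   Fermat.Agent.RIB.S43Master
   Do not edit; do not import together with these modules. -/
import Fermat.Agent.ZB.S28_002
import Fermat.Agent.ZB.S20_001
import Fermat.Agent.ZB.STB_001
import Fermat.Agent.ZB.RIB_013
import Fermat.Agent.ZB.RIB_012
import Fermat.Agent.ZB.RIB_010
import Fermat.Agent.ZB.RIB_011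
import Fermat.Agent.ZB.RT_011
import Fermat.Agent.ZB.RT_025
import Fermat.Agent.ZB.RT_002

/-! ### bundled: `Fermat.Agent.RIB.MP.FacDeg` -/
section ZBRIB_014_0
/-
Row 37, Mazur's principle, piece MP-FAC, part FAC-E (E-deg) (helper49): the degree of the
inclusion of function fields `F_{M q}(K) ⊆ F_{4 M q}(K)` is prime to every `m` prime to `6`.

`K` a field of characteristic `0`.  By Igusa's theorem on degrees
(`S28.relfinrank_full_eq_dedekindPsi`) `[F_N(K) : K(j)] = ψ(N)`, so for `N ∣ N'` the tower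
`K(j) ⊆ F_N ⊆ F_{N'}` gives `ψ(N) · [F_{N'} : F_N] = ψ(N')`.  For `N' = 4 N` (resp. `9 N`) one
has `ψ(N') = 6 ψ(N)` or `4 ψ(N)` (resp. `12 ψ(N)` or `9 ψ(N)`), and in general for `N' = d N`
every prime factor of `[F_{dN} : F_N]` divides `d · ∏_{ℓ ∣ d} (ℓ + 1)`.

* `ribmp_fdeg_psi_four`, `ribmp_fdeg_psi_nine` : `ψ(4 N)`, `ψ(9 N)`;
* `ribmp_fdeg_relfinrank_mul` : `ψ(N) · [F_{N'} : F_N] = ψ(N')` (`N ∣ N'`);
* `ribmp_fdeg_stbDeg_eq` : `stbDeg (inclusion h) = relfinrank`;
* `ribmp_fdeg_four`, `ribmp_fdeg_nine` : the degree is `4` or `6` (resp. `9` or `12`);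
* `ribmp_fdeg_coprime` : **(E-deg)** `Coprime m (stbDeg (inclusion h))` for `M q ⊆ M 4 q`;
* `ribmp_fdeg_coprime_nine` : the twin for `M q ⊆ M 9 q`.
-/

set_option autoImplicit false
set_option linter.unusedSectionVars false
set_option linter.unusedVariables false
set_option linter.style.longLine false

noncomputable section

namespace Fermat.Agent.RIB.MP

open ModularCurve IntermediateField Fermat.Agent.STB

/-- `ψ(4 N) = 6 ψ(N)` for `N` odd, `4 ψ(N)` for `N` even. -/
theorem ribmp_fdeg_psi_four {N : ℕ} (hN : N ≠ 0) :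
    dedekindPsi (4 * N) = 6 * dedekindPsi N ∨ dedekindPsi (4 * N) = 4 * dedekindPsi N := by
  have e : 4 * N = 2 * (2 * N) := by ring
  have h1 : dedekindPsi (2 * (2 * N)) = 2 * dedekindPsi (2 * N) :=
    Fermat.Agent.S20.dedekindPsi_mul_of_dvd Nat.prime_two (Dvd.intro _ rfl)
      (mul_ne_zero two_ne_zero hN)
  by_cases h2 : 2 ∣ N
  · right
    rw [e, h1, Fermat.Agent.S20.dedekindPsi_mul_of_dvd Nat.prime_two h2 hN]
    ring
  · left
    rw [e, h1, Fermat.Agent.S20.dedekindPsi_mul_of_not_dvd Nat.prime_two h2]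
    ring

/-- `ψ(9 N) = 12 ψ(N)` for `3 ∤ N`, `9 ψ(N)` for `3 ∣ N`. -/
theorem ribmp_fdeg_psi_nine {N : ℕ} (hN : N ≠ 0) :
    dedekindPsi (9 * N) = 12 * dedekindPsi N ∨ dedekindPsi (9 * N) = 9 * dedekindPsi N := by
  have e : 9 * N = 3 * (3 * N) := by ring
  have h1 : dedekindPsi (3 * (3 * N)) = 3 * dedekindPsi (3 * N) :=
    Fermat.Agent.S20.dedekindPsi_mul_of_dvd Nat.prime_three (Dvd.intro _ rfl)
      (mul_ne_zero three_ne_zero hN)
  by_cases h3 : 3 ∣ N
  · right
    rw [e, h1, Fermat.Agent.S20.dedekindPsi_mul_of_dvd Nat.prime_three h3 hN]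
    ring
  · left
    rw [e, h1, Fermat.Agent.S20.dedekindPsi_mul_of_not_dvd Nat.prime_three h3]
    ring

section Field

variable (K : Type*) [Field K] [CharZero K]

/-- `ψ(N) > 0` -/
theorem ribmp_fdeg_psi_pos (N : ℕ) [NeZero N] : 0 < dedekindPsi N := by
  rw [dedekindPsi]
  have h1 : (1 : ℕ) ∈ N.divisors.filter (fun d => Squarefree d) := by
    simp [Nat.mem_divisors, NeZero.ne N]
  have h2 : N / 1 ≤ ∑ d ∈ N.divisors.filter (fun d => Squarefree d), N / d :=
    Finset.single_le_sum (f := fun d => N / d) (fun _ _ => Nat.zero_le _) h1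
  rw [Nat.div_one] at h2
  exact lt_of_lt_of_le (Nat.pos_of_ne_zero (NeZero.ne N)) h2

/-- the tower `K(j) ⊆ F_N ⊆ F_{N'}`: `ψ(N) · [F_{N'} : F_N] = ψ(N')` -/
theorem ribmp_fdeg_relfinrank_mul {N N' : ℕ} [NeZero N] [NeZero N']
    (h : modularFunctionFieldFullC K N ≤ modularFunctionFieldFullC K N') :
    dedekindPsi N *
      (modularFunctionFieldFullC K N).relfinrank (modularFunctionFieldFullC K N') =
      dedekindPsi N' := by
  have hle : adjoin K {jqModC K} ≤ modularFunctionFieldFullC K N := by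
    rw [adjoin_le_iff, Set.singleton_subset_iff]
    exact jqModC_mem_full K N
  rw [← Fermat.Agent.S28.relfinrank_full_eq_dedekindPsi K N
      (Nat.cast_ne_zero.mpr (NeZero.ne N)),
    ← Fermat.Agent.S28.relfinrank_full_eq_dedekindPsi K N'
      (Nat.cast_ne_zero.mpr (NeZero.ne N'))]
  exact relfinrank_mul_relfinrank hle h

/-- `stbDeg` of an inclusion of intermediate fields is the relative degree -/
theorem ribmp_fdeg_stbDeg_eq {k E : Type*} [Field k] [Field E] [Algebra k E]
    {A B : IntermediateField k E} (h : A ≤ B) :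
    stbDeg (IntermediateField.inclusion h).toRingHom = A.relfinrank B :=
  Fermat.Agent.ES.G2.hdeg_finrank_inclusion h

/-- `[F_{N'} : F_N] = ψ(N') / ψ(N)` in multiplicative form, for `stbDeg` -/
theorem ribmp_fdeg_stbDeg_mul {N N' : ℕ} [NeZero N] [NeZero N']
    (h : modularFunctionFieldFullC K N ≤ modularFunctionFieldFullC K N') :
    dedekindPsi N * stbDeg (IntermediateField.inclusion h).toRingHom = dedekindPsi N' := by
  rw [ribmp_fdeg_stbDeg_eq h]
  exact ribmp_fdeg_relfinrank_mul K h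

/-- the degree of `F_N ⊆ F_{4N}` is `6` or `4` -/
theorem ribmp_fdeg_four {N N' : ℕ} [NeZero N] [NeZero N'] (hN' : N' = 4 * N)
    (h : modularFunctionFieldFullC K N ≤ modularFunctionFieldFullC K N') :
    stbDeg (IntermediateField.inclusion h).toRingHom = 6 ∨
      stbDeg (IntermediateField.inclusion h).toRingHom = 4 := by
  have hmul := ribmp_fdeg_stbDeg_mul K h
  have hpos := ribmp_fdeg_psi_pos N
  subst hN'
  rcases ribmp_fdeg_psi_four (NeZero.ne N) with h6 | h4
  · left
    exact Nat.eq_of_mul_eq_mul_left hpos (hmul.trans (h6.trans (mul_comm _ _)))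
  · right
    exact Nat.eq_of_mul_eq_mul_left hpos (hmul.trans (h4.trans (mul_comm _ _)))

/-- the degree of `F_N ⊆ F_{9N}` is `12` or `9` -/
theorem ribmp_fdeg_nine {N N' : ℕ} [NeZero N] [NeZero N'] (hN' : N' = 9 * N)
    (h : modularFunctionFieldFullC K N ≤ modularFunctionFieldFullC K N') :
    stbDeg (IntermediateField.inclusion h).toRingHom = 12 ∨
      stbDeg (IntermediateField.inclusion h).toRingHom = 9 := by
  have hmul := ribmp_fdeg_stbDeg_mul K h
  have hpos := ribmp_fdeg_psi_pos N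
  subst hN'
  rcases ribmp_fdeg_psi_nine (NeZero.ne N) with h12 | h9
  · left
    exact Nat.eq_of_mul_eq_mul_left hpos (hmul.trans (h12.trans (mul_comm _ _)))
  · right
    exact Nat.eq_of_mul_eq_mul_left hpos (hmul.trans (h9.trans (mul_comm _ _)))

/-- a number prime to `6` is prime to `4`, `6`, `9`, `12` -/
theorem ribmp_fdeg_coprime_of_six {m : ℕ} (hm : Nat.Coprime m 6) :
    Nat.Coprime m 4 ∧ Nat.Coprime m 6 ∧ Nat.Coprime m 9 ∧ Nat.Coprime m 12 := by
  have h2 : Nat.Coprime m 2 := Nat.Coprime.coprime_dvd_right (by norm_num : 2 ∣ 6) hm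
  have h3 : Nat.Coprime m 3 := Nat.Coprime.coprime_dvd_right (by norm_num : 3 ∣ 6) hm
  refine ⟨?_, hm, ?_, ?_⟩
  · have : Nat.Coprime m (2 * 2) := Nat.Coprime.mul_right h2 h2
    simpa using this
  · have : Nat.Coprime m (3 * 3) := Nat.Coprime.mul_right h3 h3
    simpa using this
  · have : Nat.Coprime m (2 * 6) := Nat.Coprime.mul_right h2 hm
    simpa using this

/-- **FAC-E (E-deg), general form**: the degree of `F_N ⊆ F_{4N}` is prime to every `m` prime
to `6`. -/
theorem ribmp_fdeg_coprime_four {N N' : ℕ} [NeZero N] [NeZero N'] (hN' : N' = 4 * N)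
    (h : modularFunctionFieldFullC K N ≤ modularFunctionFieldFullC K N') {m : ℕ}
    (hm : Nat.Coprime m 6) :
    Nat.Coprime m (stbDeg (IntermediateField.inclusion h).toRingHom) := by
  obtain ⟨h4, h6, -, -⟩ := ribmp_fdeg_coprime_of_six hm
  rcases ribmp_fdeg_four K hN' h with e | e <;> rw [e] <;> assumption

/-- the degree of `F_N ⊆ F_{9N}` is prime to every `m` prime to `6`. -/
theorem ribmp_fdeg_coprime_nine' {N N' : ℕ} [NeZero N] [NeZero N'] (hN' : N' = 9 * N)
    (h : modularFunctionFieldFullC K N ≤ modularFunctionFieldFullC K N') {m : ℕ}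
    (hm : Nat.Coprime m 6) :
    Nat.Coprime m (stbDeg (IntermediateField.inclusion h).toRingHom) := by
  obtain ⟨-, -, h9, h12⟩ := ribmp_fdeg_coprime_of_six hm
  rcases ribmp_fdeg_nine K hN' h with e | e <;> rw [e] <;> assumption

/-- **FAC-E (E-deg)**: the degree of `F_{M q}(K) ⊆ F_{M 4 q}(K)` is prime to every `m` prime
to `6`. -/
theorem ribmp_fdeg_coprime {M q : ℕ} [NeZero M] [NeZero q] [NeZero (M * q)]
    [NeZero (M * 4 * q)] (hq : q.Prime) (hq2 : q ≠ 2) (hqM : ¬ q ∣ M)
    (h : modularFunctionFieldFullC K (M * q) ≤ modularFunctionFieldFullC K (M * 4 * q))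
    {m : ℕ} (hm : Nat.Coprime m 6) :
    Nat.Coprime m (stbDeg (IntermediateField.inclusion h).toRingHom) :=
  ribmp_fdeg_coprime_four K (by ring) h hm

/-- the twin of `ribmp_fdeg_coprime` for `F_{M q}(K) ⊆ F_{M 9 q}(K)`. -/
theorem ribmp_fdeg_coprime_nine {M q : ℕ} [NeZero M] [NeZero q] [NeZero (M * q)]
    [NeZero (M * 9 * q)]
    (h : modularFunctionFieldFullC K (M * q) ≤ modularFunctionFieldFullC K (M * 9 * q))
    {m : ℕ} (hm : Nat.Coprime m 6) :
    Nat.Coprime m (stbDeg (IntermediateField.inclusion h).toRingHom) :=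
  ribmp_fdeg_coprime_nine' K (by ring) h hm

end Field

end Fermat.Agent.RIB.MP

end
end ZBRIB_014_0

/-! ### bundled: `Fermat.Agent.RIB.MP.FacFinal` -/
section ZBRIB_014_1
/-
Row 37, Mazur's principle, piece MP-FAC (helper95), part 7: the two elementary inputs discharged.

* `stmtFacDeg : StmtFacDeg` (helper49, `ribmp_fdeg_coprime`);
* `stmtFacHor : StmtFacHor` (helper3, `ribmp_fhor`);
* `ribmp_fac_of_ufd : StmtFacUfdJ → StmtFacCusp → StmtFac`.
-/

set_option autoImplicit false
set_option linter.unusedSectionVars false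
set_option linter.unusedVariables false
set_option linter.style.haveILetI false
set_option linter.style.longLine false

noncomputable section

namespace Fermat.Agent.RIB.MP

open ModularCurve Polynomial IntermediateField Fermat.Agent.INJ Fermat.Agent.AL AlgebraicCurve
open Fermat.Agent.ES Fermat.Agent.ES.G2 Fermat.Agent.STB Fermat.Agent.UNIP Fermat.Agent.S36

theorem stmtFacDeg : StmtFacDeg := by
  intro K₀ M q _ _ _ _ hq hqM hq2 m hm
  exact ribmp_fdeg_coprime (K := ↥K₀) hq hq2 hqM (ribmp_fl_le ↥K₀ M 4 q) hm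

theorem stmtFacHor : StmtFacHor := by
  intro K₀ M d q _ _ _ _ _ m y hhor
  exact ribmp_fhor K₀ M d q (ribmp_fl_le ↥K₀ M d q) m y hhor

/-- **MP-FAC from the two factoriality inputs** (FAC-A: chart `j` at a rigid level; FAC-C: the
cusps). -/
theorem ribmp_fac_of_ufd (HA : StmtFacUfdJ) (HC : StmtFacCusp) : StmtFac :=
  ribmp_fac_of HA HC stmtFacDeg stmtFacHor

end Fermat.Agent.RIB.MP

end
end ZBRIB_014_1

/-! ### bundled: `Fermat.Agent.RIB.MP.FrobAll` -/
section ZBRIB_014_2
/-
Row 37, Mazur's principle, piece **MP-FROB** (helper3), FINAL: unconditional.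

* `ribmp_froball_fac : StmtFac` — (F), from FAC-A (`ribmp_fuj_stmt`, helper54's
  `RT.K6.rtk6lfb0_ufd_J`) and FAC-C (`ribmp_fcu_stmtFacCusp`, helper81) through helper95's
  `ribmp_fac_of_ufd`;
* `stmtFrobToricE : StmtFrobToricE` — **MP-FROB**, the restricted form of `RIB/MP/PlanE.lean`;
* `ribmp_froball_pow` — MP-FROB at the exponents `p ^ r` (input of K8), unconditional.
-/

set_option autoImplicit false
set_option linter.unusedSectionVars false
set_option linter.unusedVariables false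
set_option linter.style.haveILetI false
set_option linter.style.longLine false

noncomputable section

namespace Fermat.Agent.RIB.MP

open ModularCurve AlgebraicCurve Fermat.Agent.ES Fermat.Agent.ES.G2 Fermat.Agent.INJ
  Fermat.Agent.UNIP

/-- **MP-FAC**, unconditional. -/
theorem ribmp_froball_fac : StmtFac :=
  ribmp_fac_of_ufd ribmp_fuj_stmt ribmp_fcu_stmtFacCusp

/-- **MP-FROB**, unconditional (restricted form `StmtFrobToricE`). -/
theorem stmtFrobToricE : StmtFrobToricE :=
  stmtFrobToricE_of_fac ribmp_froball_fac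

/-- **MP-FROB at the exponent `p ^ r`**, unconditional. -/
theorem ribmp_froball_pow
    (M₁ q : ℕ) [NeZero M₁] [NeZero q] [NeZero (M₁ * q)] (hq : q.Prime) (hqM : ¬ q ∣ M₁)
    (hE : 5 ≤ q ∨ (5 - q) ∣ M₁) (hq2 : q ≠ 2) (p : ℕ) (hp : p.Prime) (hp5 : 5 ≤ p)
    (hpq : p ≠ q) (r : ℕ) (A : ValuationSubring Qb) (hA : A.LiesOverPrime q)
    (σ : Qb ≃ₐ[ℚ] Qb) (hσ : A.IsFrobeniusAt σ q)
    (x : JZero (M₁ * q)) (hx : p ^ r • x = 0) (hI : InertiaFixed A x)
    (ℓ : Nat.Primes) (hℓ : ¬ (ℓ : ℕ) ∣ M₁ * q * p)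
    (htor : IsToric hq hqM A (p ^ r) (eisKill ℓ x)) :
    σ • (atkinLehnerBar hq hqM • eisKill ℓ x) + q • eisKill ℓ x = 0 :=
  ribmp_frob_powE ribmp_froball_fac M₁ q hq hqM hE hq2 p hp hp5 hpq r A hA σ hσ x hx hI ℓ hℓ htor

end Fermat.Agent.RIB.MP

end
end ZBRIB_014_2

/-! ### bundled: `Fermat.Agent.RIB.S43Master` -/
section ZBRIB_014_3
/-
Row 37 (S43): THE MASTER WIRING (helper17, integration owner of the S43 root; captain helper43).

`s43_master : RT.StmtHkModSide → RIB.StmtP → frozen S43` = `s43_top` (RIB/S43Top.lean) with the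
closed leaves plugged:

  `MP.StmtRedE`        := `MP.stmtRedE_of_fac MP.ribmp_froball_fac`        (MP-RED, MP-FAC)
  `MP.StmtFrobToricE`  := `MP.stmtFrobToricE`                               (MP-FROB)
  `Prod.StmtKSetup`    := `RT.Prod.stmtKSetup`                              (KSETUP)
  `∀ O, StmtK3Sel O`   := `RT.stmtK3Sel`                                    (K3-Sel)
  `Interp.StmtK8E`     := `rtint_k8E_of_geoE (stmtK8GeoE_of_fac … ribmp_red_pow_of_fac …)`  (K8)

OPEN inputs: `RT.StmtHkModSide` (module side of HECKE, K6/K7) and `RIB.StmtP` (row 38 = the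
frozen S44 shape).
-/

set_option autoImplicit false

open WeierstrassCurve WeierstrassCurve.Affine WeierstrassCurve.Affine.Point
open IsLocalRing

namespace Fermat.Agent.RIB

/-- MP-RED at the exponents `p ^ n`, unconditional. -/
theorem s43m_stmtRedPow : Fermat.Agent.RT.K8.StmtRedPow :=
  fun M₁ q _ _ _ hq hqM hE hq2 p hp hp5 hpq A hA n x hx hI ℓ hℓ =>
    MP.ribmp_red_pow_of_fac MP.ribmp_froball_fac M₁ q hq hqM hE hq2 p hp hp5 hpq n A hA x hx hI
      ℓ hℓ

/-- K8 (restricted form), unconditional. -/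
theorem s43m_stmtK8E : Fermat.Agent.RT.Interp.StmtK8E :=
  Fermat.Agent.RT.Interp.rtint_k8E_of_geoE
    (Fermat.Agent.RT.K8.stmtK8GeoE_of_fac MP.ribmp_froball_fac s43m_stmtRedPow)

/-- **Row 37, master wiring**: the frozen statement S43 from the module side of HECKE and
row 38. -/
theorem s43_master (hMod : Fermat.Agent.RT.StmtHkModSide) (hP : StmtP)
    (P : FreyPackage) {N q : ℕ} (hcond : P.IsConductorLevel N) (hq : q.Prime) (hq2 : q ≠ 2)
    (hqp : q ≠ P.p) (hqN : q ∣ N)
    (hirr : GaloisRepIsIrreducible (K := AlgebraicClosure ℚ) ℚ P.freyCurve P.p)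
    (hmod : P.ModularRepOfLevel N) (hunr : P.GaloisRepUnramifiedAt q) :
    ∃ M : ℕ, M ∣ N ∧ ¬ q ∣ M ∧ P.ModularRepOfLevel M :=
  s43_top (MP.stmtRedE_of_fac MP.ribmp_froball_fac) MP.stmtFrobToricE
    Fermat.Agent.RT.Prod.stmtKSetup hMod (fun O _ _ _ _ _ => Fermat.Agent.RT.stmtK3Sel O)
    s43m_stmtK8E hP P hcond hq hq2 hqp hqN hirr hmod hunr

end Fermat.Agent.RIB


end ZBRIB_014_3
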