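/- GENERATED FILE (helper35, build-time optimisation, NOTES/ZB.md): verbatim concatenation of the modules
   Fermat.Agent.RT.K5.NoTorsUnit
   Fermat.Agent.RT.Hecke.ConcFinal
   Fermat.Agent.RT.Hecke.ConcFinalB
   Fermat.Agent.RT.Hecke.ConcDone
   Do not edit; do not import together with these modules. -/
import Fermat.Agent.ZB.RT_028
import Fermat.Agent.ZB.RT_037
import Fermat.Agent.ZB.RT_007
import Fermat.Agent.ZB.ES1_020
import Fermat.Agent.ZB.RT_041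
import Fermat.Agent.ZB.RT_002
import Fermat.Agent.ZB.RT_042
import Fermat.Agent.ZB.RT_039

/-! ### bundled: `Fermat.Agent.RT.K5.NoTorsUnit` -/
section ZBRT_043_0

/-!
# RT-K5: the torsion hypothesis `NoTors` for the coefficients `𝒪 ⧸ 𝔪 ^ n`, residue
characteristic `p ≥ 5` (helper88)

* `k5nt_isUnit` : a natural number prime to `p` is a unit of the local ring `𝒪` (`p ∈ 𝔪`);
* `k5nt_smul_eq_zero` : multiplication by such a number is injective on every `𝒪`-module;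
* `k5nt_noTors` : `NoTors Γ A` for every `𝒪`-module `A`, every `Γ`, if `p ≥ 5`;
* `k5nt_noTors_quot` : the case `A = 𝒪 ⧸ 𝔪 ^ n`;
* `k5nt_freeHyp` : the structure `FreeHyp p 𝒪 L M ℓ₀ H' H k` from its arithmetic fields.
-/

set_option autoImplicit false

namespace Fermat.Agent.RT.K5

open CongruenceSubgroup Matrix
open scoped MatrixGroups
open Fermat.Agent.ES1 (gammaH diamHom pmH)

section unit

variable {𝒪 : Type*} [CommRing 𝒪] [IsLocalRing 𝒪] {p : ℕ}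

/-- a natural number prime to `p` is a unit of `𝒪` -/
theorem k5nt_isUnit (hpm : (p : 𝒪) ∈ IsLocalRing.maximalIdeal 𝒪) {m : ℕ}
    (hm : Nat.Coprime m p) : IsUnit (m : 𝒪) := by
  by_contra hnu
  have hmm : (m : 𝒪) ∈ IsLocalRing.maximalIdeal 𝒪 := (IsLocalRing.mem_maximalIdeal _).mpr hnu
  have h1 : ((Nat.gcd m p : ℕ) : ℤ) = (m : ℤ) * Nat.gcdA m p + (p : ℤ) * Nat.gcdB m p :=
    Nat.gcd_eq_gcd_ab m p
  rw [hm.gcd_eq_one] at h1
  have h2 : (1 : 𝒪) = (m : 𝒪) * ((Nat.gcdA m p : ℤ) : 𝒪) + (p : 𝒪) * ((Nat.gcdB m p : ℤ) : 𝒪) := by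
    have := congrArg (Int.cast : ℤ → 𝒪) h1
    push_cast at this
    exact this
  have h3 : (1 : 𝒪) ∈ IsLocalRing.maximalIdeal 𝒪 := by
    rw [h2]
    exact Ideal.add_mem _ (Ideal.mul_mem_right _ _ hmm) (Ideal.mul_mem_right _ _ hpm)
  exact (IsLocalRing.maximalIdeal.isMaximal 𝒪).ne_top ((Ideal.eq_top_iff_one _).mpr h3)

/-- multiplication by a natural number prime to `p` is injective on every `𝒪`-module -/
theorem k5nt_smul_eq_zero (hpm : (p : 𝒪) ∈ IsLocalRing.maximalIdeal 𝒪) {m : ℕ}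
    (hm : Nat.Coprime m p) {A : Type*} [AddCommGroup A] [Module 𝒪 A] (a : A)
    (ha : m • a = 0) : a = 0 := by
  obtain ⟨u, hu⟩ := k5nt_isUnit hpm hm
  have h1 : (m : 𝒪) • a = 0 := by rw [Nat.cast_smul_eq_nsmul]; exact ha
  rw [← hu] at h1
  have h2 := congrArg (fun x => (↑u⁻¹ : 𝒪) • x) h1
  simp only [smul_smul, Units.inv_mul, one_smul, smul_zero] at h2
  exact h2

/-- **the torsion hypothesis** for `p ≥ 5` -/
theorem k5nt_noTors (hp : p.Prime) (hp5 : 5 ≤ p)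
    (hpm : (p : 𝒪) ∈ IsLocalRing.maximalIdeal 𝒪) (Γ : Subgroup SL(2, ℤ)) (A : Type*)
    [AddCommGroup A] [Module 𝒪 A] : NoTors Γ A := by
  have h2 : Nat.Coprime 2 p :=
    (Nat.coprime_primes Nat.prime_two hp).mpr (by omega)
  have h3 : Nat.Coprime 3 p :=
    (Nat.coprime_primes Nat.prime_three hp).mpr (by omega)
  exact ⟨fun a ha => k5nt_smul_eq_zero hpm h2 a ha,
    Or.inl fun a ha => k5nt_smul_eq_zero hpm h3 a ha⟩

/-- the torsion hypothesis for the coefficients `𝒪 ⧸ 𝔪 ^ n` -/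
theorem k5nt_noTors_quot {𝒪 : Type} [CommRing 𝒪] [IsLocalRing 𝒪] {p : ℕ} (hp : p.Prime)
    (hp5 : 5 ≤ p) (hpm : (p : 𝒪) ∈ IsLocalRing.maximalIdeal 𝒪) (Γ : Subgroup SL(2, ℤ))
    (n : ℕ) : NoTors Γ (𝒪 ⧸ IsLocalRing.maximalIdeal 𝒪 ^ n) :=
  k5nt_noTors hp hp5 hpm Γ _

end unit

section hyp

variable {𝒪 : Type} [CommRing 𝒪] [IsLocalRing 𝒪] {p : ℕ}

/-- **`FreeHyp`** from its arithmetic fields, for `p ≥ 5` -/
theorem k5nt_freeHyp (hp : p.Prime) (hp5 : 5 ≤ p)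
    (hpm : (p : 𝒪) ∈ IsLocalRing.maximalIdeal 𝒪) (L M ℓ₀ : ℕ) (hℓ₀ : ℓ₀.Prime)
    (hℓ₀L : ¬ ℓ₀ ∣ L) {H' H : Subgroup (ZMod M)ˣ} (hle : H' ≤ H) (k : ℕ)
    (hidx : ((pmH H').subgroupOf (pmH H)).index = p ^ k) :
    FreeHyp p 𝒪 L M ℓ₀ H' H k where
  p_ne_two := by omega
  p_mem := hpm
  prime := hℓ₀
  not_dvd := hℓ₀L
  le := hle
  index := hidx
  noTors n := k5nt_noTors_quot hp hp5 hpm _ n

end hyp

end Fermat.Agent.RT.K5


end ZBRT_043_0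

/-! ### bundled: `Fermat.Agent.RT.Hecke.ConcFinal` -/
section ZBRT_043_1

/-!
# K-machine, HK-CONC, layer (C) (helper9): the final glue

`rthkf_top : K7F.StmtFlatH → StmtHkfK5 → StmtHkfTr → StmtHkConcTop`.

The fields of `HkConcSide` for the concrete data `L = N * ∏ qv j`, `M = ∏ qv j * ∏ r i`,
`H' = rthkfH Y qv n`, `𝔲 = (e.twist Q).eval L M`:
`pkg`, `primes`, `model` (helper65), `stable`, `faith` (helper38), `free`, `base` (helper88 +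
`es1infev_twTr`), `resid` (contract `StmtHkfK5`), `cong`, `aug`, `trT`, `trQ` (contract
`StmtHkfTr`).
-/

set_option autoImplicit false
set_option linter.unusedSectionVars false
set_option linter.style.haveILetI false

noncomputable section

namespace Fermat.Agent.RT

open IsLocalRing Fermat.Agent.ES Fermat.Agent.S30 Fermat.Agent.W1 Fermat.Agent.TW
open Fermat.Agent.ES1 Fermat.Agent.RT.K5 Fermat.Agent.RT.K7F Fermat.Agent.RT.Prod
open ExtCitation WeierstrassCurve WeierstrassCurve.Affine WeierstrassCurve.Affine.Point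
open scoped MatrixGroups

section arith

variable {P : FreyPackage} {N q : ℕ} {Y : KSetup P N q} {h n : ℕ} {qv : Fin h → ℕ}

/-- a Taylor–Wiles prime does not divide `N` -/
theorem rthkf_qv_not_dvd
    (hqv : IsTWFamily P.p Y.ρbar (Y.Smin ∪ Finset.univ.image Y.r) n h qv) (j : Fin h) :
    ¬ qv j ∣ N := by
  intro hj
  have hS := (hqv.2.1 j).2.1
  rw [Finset.mem_union, not_or] at hS
  by_cases h2 : qv j = 2
  · apply hS.1
    rw [Y.hSmin, h2]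
    exact Finset.mem_insert_self _ _
  · exact hS.2 ((Y.hr (qv j)).mpr ⟨(hqv.2.1 j).1, h2, hj⟩)

/-- `L = N * ∏ qv j` is squarefree -/
theorem rthkf_sqfree_L (hcond : P.IsConductorLevel N)
    (hqv : IsTWFamily P.p Y.ρbar (Y.Smin ∪ Finset.univ.image Y.r) n h qv) :
    Squarefree (N * rthkdM qv) := by
  rw [Nat.squarefree_mul_iff]
  refine ⟨?_, hcond.squarefree, ?_⟩
  · rw [rthkdM]
    refine Nat.Coprime.prod_right fun j _ => ?_
    exact (Nat.coprime_comm.mp ((Nat.Prime.coprime_iff_not_dvd (hqv.2.1 j).1).mpr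
      (rthkf_qv_not_dvd hqv j)))
  · exact rthkp_sqfree_prod qv hqv.1 (fun j => (hqv.2.1 j).1)

/-- a prime not dividing `L * p` is prime to `M` -/
theorem rthkf_coprime_M {ℓ : ℕ} (hℓ : ℓ.Prime)
    (hℓL : ¬ ℓ ∣ (N * rthkdM qv) * P.p) : Nat.Coprime ℓ (rthkdM (Sum.elim qv Y.r)) := by
  rw [Nat.Prime.coprime_iff_not_dvd hℓ]
  intro hd
  apply hℓL
  exact Dvd.dvd.mul_right (hd.trans (rthkdYM_dvd_L (Y := Y) (qv := qv))) _

/-- a prime not dividing `L * p` is not a Taylor–Wiles prime -/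
theorem rthkf_not_mem_Q {ℓ : ℕ} (hℓL : ¬ ℓ ∣ (N * rthkdM qv) * P.p) :
    ℓ ∉ List.ofFn qv := by
  intro hmem
  rw [List.mem_ofFn] at hmem
  obtain ⟨j, rfl⟩ := hmem
  apply hℓL
  exact Dvd.dvd.mul_right (Dvd.dvd.mul_left (rthkd_dvd_M qv j) _) _

theorem rthkf_prod_ofFn : N * rthkdM qv = N * (List.ofFn qv).prod := by
  rw [List.prod_ofFn]
  rfl

end arith

/-- **HK-CONC, the final glue.** -/
theorem rthkf_top (hflat : StmtFlatH) (hK5 : StmtHkfK5) (hTr : StmtHkfTr) : StmtHkConcTop := by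
  intro P N q _ hcond hpN hq hq2 hqN hirr hmod htriv Y h
  haveI : Fact P.p.Prime := ⟨P.pp⟩
  obtain ⟨M₀, iM₀, iM₀N, r, hr, c, a, S', hpS', hNS', 𝕋₀, i1, J₀, i2, i3, i4, Tr₀, Φ0, hbase,
    hmat, hlev⟩ := hK5 P N q hcond hpN hq hq2 hqN hirr hmod htriv Y h
  refine ⟨2 ^ h * r, Nat.mul_pos (pow_pos two_pos h) hr, S', hpS', hNS', 𝕋₀, i1, J₀, i2, i3,
    i4, Tr₀, Φ0, hbase, fun n qv hqv => ?_⟩
  have hN0 : N ≠ 0 := NeZero.ne N
  haveI iL : NeZero (N * rthkdM qv) := ⟨rthkdYL_ne_zero hN0 hqv⟩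
  haveI iM : NeZero (rthkdM (Sum.elim qv Y.r)) := ⟨rthkdYM_ne_zero hqv⟩
  haveI iML : Fact (rthkdM (Sum.elim qv Y.r) ∣ N * rthkdM qv) :=
    ⟨rthkdYM_dvd_L (Y := Y) (qv := qv)⟩
  obtain ⟨e, ℓ₀, iℓ₀, heP, hℓ₀, hℓ₀N, hℓ₀p, havoid, hTW, hbasis, hres⟩ :=
    hlev n qv hqv iL iM iML
  -- `ℓ₀ ∤ L`
  have hℓ₀L : ¬ ℓ₀ ∣ N * rthkdM qv := by
    intro hd
    rcases (Nat.Prime.dvd_mul hℓ₀).mp hd with h1 | h1
    · exact hℓ₀N h1
    · obtain ⟨j, -, hj⟩ := Finset.mem_image.mp (rthkdY_dvd_prod_qv hqv hℓ₀ h1)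
      exact (havoid j).1 hj
  -- the twisted expression
  have hQ : ∀ q' ∈ List.ofFn qv, q'.Prime ∧ ¬ q' ∣ N ∧ q' ≠ ℓ₀ ∧ e.Avoids q' := by
    intro q' hq'
    rw [List.mem_ofFn] at hq'
    obtain ⟨j, rfl⟩ := hq'
    exact ⟨(hqv.2.1 j).1, rthkf_qv_not_dvd hqv j, (havoid j).1, (havoid j).2⟩
  have hnd : (List.ofFn qv).Nodup := List.nodup_ofFn.mpr hqv.1
  have hEP : (e.twist (List.ofFn qv)).IsPrimes :=
    HExpr.isPrimes_twist heP (fun q' hq' => (hQ q' hq').1)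
  -- `FreeHyp`
  have hidx := rthkgi_freeHyp_index (Y := Y) (qv := qv) (n := n) hN0 hpN hq hqN hqv
  have hyp : FreeHyp P.p Y.O (N * rthkdM qv) (rthkdM (Sum.elim qv Y.r)) ℓ₀ (rthkfH Y qv n) ⊤
      (h * (n + 1) + Fintype.card Y.ι) :=
    k5nt_freeHyp P.pp P.hp5 Y.hyp.hp𝒪 _ _ ℓ₀ hℓ₀ hℓ₀L le_top _ hidx
  -- `free` and `base`
  obtain ⟨b, free, hbmat⟩ := rthkcf_X P.p Y.O N M₀ ℓ₀ e hℓ₀ hℓ₀N (List.ofFn qv) h
    (List.length_ofFn) hnd hQ (N * rthkdM qv) (rthkdM (Sum.elim qv Y.r)) rthkf_prod_ofFn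
    (rthkfH Y qv n) _ hyp (n + 1) (Nat.succ_pos n) hTW c hbasis
  -- the characters
  obtain ⟨ψ1, ψχ, hcong, haug, htrT, htrQ⟩ := hTr P N q hcond hpN hq hq2 hqN Y h n qv hqv
    inferInstance iL iM iML ((e.twist (List.ofFn qv)).eval (N * rthkdM qv)
      (rthkdM (Sum.elim qv Y.r))) ℓ₀ iℓ₀
  have hst := rthkd_hst (O := Y.O) (L := N * rthkdM qv) (M := rthkdM (Sum.elim qv Y.r)) P.p
    (e.twist (List.ofFn qv)) hEP ℓ₀ hℓ₀ hℓ₀L (rthkfH Y qv n) (n + 1)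
  have hk : ∀ x : Fin h ⊕ Y.ι,
      (Sum.elim (fun _ => n + 1) (fun _ => 1) : Fin h ⊕ Y.ι → ℕ) x ≤ n + 1 := by
    rintro (j | i)
    · exact le_rfl
    · exact Nat.succ_le_succ (Nat.zero_le n)
  have hfaith := rthkd_faith (O := Y.O) (p := P.p) (L := N * rthkdM qv)
    (M := rthkdM (Sum.elim qv Y.r)) (H' := rthkfH Y qv n)
    (rthksE P.p (es1inftwJ (N * rthkdM qv) (rthkdM (Sum.elim qv Y.r)) (rthkfH Y qv n) P.p
        (k7ftwChar (rthkdM (Sum.elim qv Y.r)) (rthkdE P.p (n + 1))))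
      (𝕋 := HDAlg (rthkdM (Sum.elim qv Y.r))) : Set (HDAlg (rthkdM (Sum.elim qv Y.r))))
    (k7ftwChar (rthkdM (Sum.elim qv Y.r)) (rthkdE P.p (n + 1))) Y.hyp.hp𝒪
    (e.twist (List.ofFn qv)) hEP ℓ₀ hℓ₀ hℓ₀L (rthkf_sqfree_L hcond hqv) Y.hyp.hp2 hℓ₀p (n + 1)
    (fun u => by
      rw [rthkd_pmH (P.pp.odd_of_ne_two Y.hyp.hp2)]
      exact rthkd_pow_mem_H hk u)
    (n + 1) (k5nt_noTors_quot P.pp P.hp5 Y.hyp.hp𝒪 _ (n + 1)) hst
  refine ⟨N * rthkdM qv, rthkdM (Sum.elim qv Y.r), iL, iM, iML,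
    (e.twist (List.ofFn qv)).eval (N * rthkdM qv) (rthkdM (Sum.elim qv Y.r)), ℓ₀, iℓ₀,
    rthkfH Y qv n,
    es1inftwJ (N * rthkdM qv) (rthkdM (Sum.elim qv Y.r)) (rthkfH Y qv n) P.p
      (k7ftwChar (rthkdM (Sum.elim qv Y.r)) (rthkdE P.p (n + 1))),
    inferInstance, inferInstance, inferInstance,
    es1inftwTr (rthkdM (Sum.elim qv Y.r)) (rthkdE P.p (n + 1)), b, ψ1, ψχ, ?_⟩
  exact
    { pkg := rthkp_pkg_g Y _ (n + 1) hk (rthkd_dvd_M _)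
      primes := rthkp_primes_inst Y hqv
      model := rthkp_model_g Y hflat hcond hpN hq hqN hqv _ (n + 1) hk (rthkd_dvd_M _)
      stable := hst
      free := free
      faith := by
        obtain ⟨n₀, hn₀⟩ := hfaith
        refine ⟨n₀, fun t ht hkill ψ hψ => ?_⟩
        have h0 := hn₀ t ht hkill
        have h1 : rthkdAct P.p _ ℓ₀ (rthkfH Y qv n) (n + 1) hst t ⟨ψ, hψ⟩ = 0 := by
          rw [h0]
          rfl
        exact congrArg Subtype.val h1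
      resid := hres
      cong := hcong
      aug := haug
      trT := htrT
      trQ := htrQ
      base := by
        intro ℓ hℓ hℓL
        haveI : NeZero ℓ := ⟨hℓ.ne_zero⟩
        have hℓN : ¬ ℓ ∣ N * P.p := fun hd => hℓL (by
          rcases (Nat.Prime.dvd_mul hℓ).mp hd with h1 | h1
          · exact Dvd.dvd.mul_right (Dvd.dvd.mul_right h1 _) _
          · exact Dvd.dvd.mul_left h1 _)
        obtain ⟨ha, hΦ⟩ := hmat ℓ hℓ hℓN
        rw [hΦ]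
        refine hbmat ℓ hℓ (rthkf_not_mem_Q hℓL) (a ℓ) ha _ (fun x => ?_)
        refine ⟨((ZMod.unitOfCoprime ℓ (rthkf_coprime_M (Y := Y) hℓ hℓL))⁻¹
          ^ rthkdE P.p (n + 1)), ?_⟩
        rw [rthkdAct_coe]
        exact es1infev_twTr (rthkdE P.p (n + 1))
          (by
            have := rthkd_two_E (p := P.p) (P.pp.odd_of_ne_two Y.hyp.hp2) (n + 1)
            have hpos : 0 < P.p ^ (n + 1) := pow_pos P.pp.pos _
            omega)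
          hℓ hℓL (rthkf_coprime_M (Y := Y) hℓ hℓL) _ }

end Fermat.Agent.RT

end


end ZBRT_043_1

/-! ### bundled: `Fermat.Agent.RT.Hecke.ConcFinalB` -/
section ZBRT_043_2

/-!
# K-machine, HK-CONC, layer (C) (helper9): the final glue, variant B

`StmtHkfK5'` : the K5 side WITHOUT the residual traces at the top level, but with the base
`HkBase` for `S'` = the primes of `N p` (`ℓ ∤ N p ⇒ ℓ ∉ S'`).  The field `resid` of `HkConcSide`
then follows from `HkBase.resid` by helper59's `rthkra_resid_field`.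

* `rthkf_k5_of : StmtHkfK5' → StmtHkfK5`;
* `rthkf_top' : K7F.StmtFlatH → StmtHkfK5' → StmtHkfTr → StmtHkConcTop`.
-/

set_option autoImplicit false
set_option linter.unusedSectionVars false
set_option linter.style.haveILetI false

noncomputable section

namespace Fermat.Agent.RT

open IsLocalRing Fermat.Agent.ES Fermat.Agent.S30 Fermat.Agent.W1 Fermat.Agent.TW
open Fermat.Agent.ES1 Fermat.Agent.RT.K5 Fermat.Agent.RT.K7F Fermat.Agent.RT.Prod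
open ExtCitation WeierstrassCurve WeierstrassCurve.Affine WeierstrassCurve.Affine.Point
open scoped MatrixGroups

/-- **The K5 side, variant B** (no residual traces at the top level). -/
def StmtHkfK5' : Prop :=
  ∀ (P : FreyPackage) (N q : ℕ) [NeZero N], P.IsConductorLevel N → ¬ P.p ∣ N → q.Prime →
    q ≠ 2 → q ∣ N → GaloisRepIsIrreducible (K := AlgebraicClosure ℚ) ℚ P.freyCurve P.p →
    P.ModularRepOfLevel N →
    (∀ r : ℕ, r.Prime → r ≠ 2 → r ∣ N → Fermat.Agent.RIB.IsTrivialPrime P r) →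
    ∀ (Y : KSetup P N q) (h : ℕ),
      haveI : Fact P.p.Prime := ⟨P.pp⟩
      ∃ (M₀ : ℕ) (_ : NeZero M₀) (_ : Fact (M₀ ∣ N)) (r : ℕ) (_ : 0 < r)
        (c : Fin r → HomS (gammaH N M₀ (⊤ : Subgroup (ZMod M₀)ˣ)) Y.O)
        (a : ℕ → Matrix (Fin r) (Fin r) Y.O)
        (S' : Finset ℕ) (_ : P.p ∈ S') (_ : ∀ ℓ : ℕ, ℓ.Prime → ℓ ∣ N → ℓ ∈ S')
        (𝕋₀ : Type) (_ : CommRing 𝕋₀) (J₀ : Type) (_ : AddCommGroup J₀) (_ : Module 𝕋₀ J₀)
        (_ : DistribMulAction GQ J₀) (Tr₀ : ℕ → 𝕋₀)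
        (Φ0 : 𝕋₀ →+* Matrix (Fin (2 ^ h * r)) (Fin (2 ^ h * r)) Y.O),
        HkBase P.p Y.ρbar N S' (2 ^ h * r) J₀ Tr₀ Φ0 ∧
        (∀ ℓ : ℕ, ℓ.Prime → ¬ ℓ ∣ N * P.p → ℓ ∉ S') ∧
        (∀ (ℓ : ℕ) [NeZero ℓ], ℓ.Prime → ¬ ℓ ∣ N * P.p →
          (∀ i', tS N M₀ ℓ ⊤ Y.O (c i') = ∑ i, a ℓ i i' • c i) ∧
            Φ0 (Tr₀ ℓ) = rthkcbBlock Y.O h r (a ℓ)) ∧
        ∀ (n : ℕ) (qv : Fin h → ℕ),
          IsTWFamily P.p Y.ρbar (Y.Smin ∪ Finset.univ.image Y.r) n h qv →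
          ∀ (_ : NeZero (N * rthkdM qv)) (_ : NeZero (rthkdM (Sum.elim qv Y.r)))
            (_ : Fact (rthkdM (Sum.elim qv Y.r) ∣ N * rthkdM qv)),
          ∃ (e : HExpr Y.O) (ℓ₀ : ℕ) (_ : NeZero ℓ₀), e.IsPrimes ∧ ℓ₀.Prime ∧ ¬ ℓ₀ ∣ N ∧
            ℓ₀ ≠ P.p ∧ (∀ j, qv j ≠ ℓ₀ ∧ e.Avoids (qv j)) ∧
            K5TWCond Y.O N M₀ ℓ₀ e (List.ofFn qv) (RthkdC Y.O (n + 1)) ∧
            K5IsBasis (RthkdC Y.O (n + 1))
              (etaPart (thetaN (e.eval N M₀) ℓ₀ (RthkdC Y.O (n + 1)) ⊤))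
              (fun i => mapS (Submodule.mkQ (maximalIdeal Y.O ^ (n + 1))).toAddMonoidHom
                (c i))

/-- **Variant B gives the contract `StmtHkfK5`**: the residual traces at the top level follow
from those of the base. -/
theorem rthkf_k5_of (hK5 : StmtHkfK5') : StmtHkfK5 := by
  intro P N q _ hcond hpN hq hq2 hqN hirr hmod htriv Y h
  haveI : Fact P.p.Prime := ⟨P.pp⟩
  obtain ⟨M₀, iM₀, iM₀N, r, hr, c, a, S', hpS', hNS', 𝕋₀, i1, J₀, i2, i3, i4, Tr₀, Φ0, hbase,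
    hS', hmat, hlev⟩ := hK5 P N q hcond hpN hq hq2 hqN hirr hmod htriv Y h
  refine ⟨M₀, iM₀, iM₀N, r, hr, c, a, S', hpS', hNS', 𝕋₀, i1, J₀, i2, i3, i4, Tr₀, Φ0, hbase,
    hmat, fun n qv hqv iL iM iML => ?_⟩
  have hN0 : N ≠ 0 := NeZero.ne N
  obtain ⟨e, ℓ₀, iℓ₀, heP, hℓ₀, hℓ₀N, hℓ₀p, havoid, hTW, hbasis⟩ := hlev n qv hqv iL iM iML
  refine ⟨e, ℓ₀, iℓ₀, heP, hℓ₀, hℓ₀N, hℓ₀p, havoid, hTW, hbasis, ?_⟩
  -- `ℓ₀ ∤ L`
  have hℓ₀L : ¬ ℓ₀ ∣ N * rthkdM qv := by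
    intro hd
    rcases (Nat.Prime.dvd_mul hℓ₀).mp hd with h1 | h1
    · exact hℓ₀N h1
    · obtain ⟨j, -, hj⟩ := Finset.mem_image.mp (rthkdY_dvd_prod_qv hqv hℓ₀ h1)
      exact (havoid j).1 hj
  have hQ : ∀ q' ∈ List.ofFn qv, q'.Prime ∧ ¬ q' ∣ N ∧ q' ≠ ℓ₀ ∧ e.Avoids q' := by
    intro q' hq'
    rw [List.mem_ofFn] at hq'
    obtain ⟨j, rfl⟩ := hq'
    exact ⟨(hqv.2.1 j).1, rthkf_qv_not_dvd hqv j, (havoid j).1, (havoid j).2⟩
  have hnd : (List.ofFn qv).Nodup := List.nodup_ofFn.mpr hqv.1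
  have hEP : (e.twist (List.ofFn qv)).IsPrimes :=
    HExpr.isPrimes_twist heP (fun q' hq' => (hQ q' hq').1)
  have hidx := rthkgi_freeHyp_index (Y := Y) (qv := qv) (n := n) hN0 hpN hq hqN hqv
  have hyp : FreeHyp P.p Y.O (N * rthkdM qv) (rthkdM (Sum.elim qv Y.r)) ℓ₀ (rthkfH Y qv n) ⊤
      (h * (n + 1) + Fintype.card Y.ι) :=
    k5nt_freeHyp P.pp P.hp5 Y.hyp.hp𝒪 _ _ ℓ₀ hℓ₀ hℓ₀L le_top _ hidx
  obtain ⟨b, free, hbmat⟩ := rthkcf_X P.p Y.O N M₀ ℓ₀ e hℓ₀ hℓ₀N (List.ofFn qv) h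
    (List.length_ofFn) hnd hQ (N * rthkdM qv) (rthkdM (Sum.elim qv Y.r)) rthkf_prod_ofFn
    (rthkfH Y qv n) _ hyp (n + 1) (Nat.succ_pos n) hTW c hbasis
  have hst := rthkd_hst (O := Y.O) (L := N * rthkdM qv) (M := rthkdM (Sum.elim qv Y.r)) P.p
    (e.twist (List.ofFn qv)) hEP ℓ₀ hℓ₀ hℓ₀L (rthkfH Y qv n) (n + 1)
  have hk : ∀ x : Fin h ⊕ Y.ι,
      (Sum.elim (fun _ => n + 1) (fun _ => 1) : Fin h ⊕ Y.ι → ℕ) x ≤ n + 1 := by
    rintro (j | i)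
    · exact le_rfl
    · exact Nat.succ_le_succ (Nat.zero_le n)
  have hℓN : ∀ ℓ : ℕ, ℓ.Prime → ¬ ℓ ∣ (N * rthkdM qv) * P.p → ¬ ℓ ∣ N * P.p :=
    fun ℓ hℓ hℓL hd => hℓL (by
      rcases (Nat.Prime.dvd_mul hℓ).mp hd with h1 | h1
      · exact Dvd.dvd.mul_right (Dvd.dvd.mul_right h1 _) _
      · exact Dvd.dvd.mul_left h1 _)
  have hΔ : ∀ δ : RthkdDelta (rthkdM (Sum.elim qv Y.r)) (rthkfH Y qv n),
      δ ^ P.p ^ (n + 1) = 1 := by
    intro δ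
    obtain ⟨u, rfl⟩ := QuotientGroup.mk_surjective δ
    rw [← QuotientGroup.mk_pow, QuotientGroup.eq_one_iff,
      rthkd_pmH (P.pp.odd_of_ne_two Y.hyp.hp2)]
    exact rthkd_pow_mem_H hk u
  refine rthkra_resid_field (ρbar := Y.ρbar) (a0 := fun ℓ => Φ0 (Tr₀ ℓ))
    (Tr := es1inftwTr (rthkdM (Sum.elim qv Y.r)) (rthkdE P.p (n + 1))) hst free Y.hyp.hp𝒪
    (n + 1) hΔ ?_ ?_
  · intro ℓ hℓ hℓL
    haveI : NeZero ℓ := ⟨hℓ.ne_zero⟩
    obtain ⟨ha, hΦ⟩ := hmat ℓ hℓ (hℓN ℓ hℓ hℓL)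
    show _ = (Φ0 (Tr₀ ℓ)).map _
    rw [hΦ]
    refine hbmat ℓ hℓ (rthkf_not_mem_Q hℓL) (a ℓ) ha _ (fun x => ?_)
    refine ⟨((ZMod.unitOfCoprime ℓ (rthkf_coprime_M (Y := Y) hℓ hℓL))⁻¹
      ^ rthkdE P.p (n + 1)), ?_⟩
    rw [rthkdAct_coe]
    exact es1infev_twTr (rthkdE P.p (n + 1))
      (by
        have := rthkd_two_E (p := P.p) (P.pp.odd_of_ne_two Y.hyp.hp2) (n + 1)
        have hpos : 0 < P.p ^ (n + 1) := pow_pos P.pp.pos _
        omega)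
      hℓ hℓL (rthkf_coprime_M (Y := Y) hℓ hℓL) _
  · intro ℓ hℓ hℓL A hA τ hτ
    exact hbase.resid ℓ hℓ (hS' ℓ hℓ (hℓN ℓ hℓ hℓL)) A hA τ hτ

/-- **HK-CONC, the final glue, variant B.** -/
theorem rthkf_top' (hflat : StmtFlatH) (hK5 : StmtHkfK5') (hTr : StmtHkfTr) : StmtHkConcTop :=
  rthkf_top hflat (rthkf_k5_of hK5) hTr

end Fermat.Agent.RT

end


end ZBRT_043_2

/-! ### bundled: `Fermat.Agent.RT.Hecke.ConcDone` -/
section ZBRT_043_3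

/-!
# K-machine, HK-CONC (helper9): the module side from its three open inputs

* `rthkf_concTop : K7F.StmtFlatH → K6.StmtChiJDiv5 → StmtHkfK5' → StmtHkConcTop`;
* `rthkf_modSide : … → StmtHkModSide`;
* `rthkf_hecke : … → Prod.StmtHecke`.

(`StmtHkfK5'` : the K5 side, RT/Hecke/ConcFinalB.lean; `rthkt_final` : the K6 side, helper69.)
-/

set_option autoImplicit false

namespace Fermat.Agent.RT

open Fermat.Agent.RT.K7F

/-- the concrete contract from the three open inputs -/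
theorem rthkf_concTop (hflat : StmtFlatH) (hChi : K6.StmtChiJDiv5) (hK5 : StmtHkfK5') :
    StmtHkConcTop :=
  rthkf_top' hflat hK5 (rthkt_final hChi)

/-- the module side from the three open inputs -/
theorem rthkf_modSide (hflat : StmtFlatH) (hChi : K6.StmtChiJDiv5) (hK5 : StmtHkfK5') :
    StmtHkModSide :=
  rthkct_modSide (rthkf_concTop hflat hChi hK5)

/-- **HECKE-asm** from the three open inputs -/
theorem rthkf_hecke (hflat : StmtFlatH) (hChi : K6.StmtChiJDiv5) (hK5 : StmtHkfK5') :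
    Prod.StmtHecke :=
  rthkct_hecke (rthkf_concTop hflat hChi hK5)

end Fermat.Agent.RT


end ZBRT_043_3
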