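/- GENERATED FILE (helper35, build-time optimisation, NOTES/ZB.md): verbatim concatenation of the modules
   Fermat.Agent.RT.K7F.RH0Deg
   Do not edit; do not import together with these modules. -/
import Mathlib

/-! ### bundled: `Fermat.Agent.RT.K7F.RH0Deg` -/
section ZBRT_047_0

/-!
# RT-K7F / FL-RH0: degrees over `K(t)` in a tower (pure Mathlib)

`rh0_finrank_adjoin` : for `K ⊆ F₀ ⊆ F` and `t ∈ F₀`,
`[F : K(t)] = [F₀ : K(t)] · [F : F₀]`, where `K(t)` is formed in `F₀` resp. in `F`.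
-/

set_option autoImplicit false

open IntermediateField Module

namespace Fermat.Agent.RT.K7F

variable {K F₀ F : Type*} [Field K] [Field F₀] [Field F] [Algebra K F₀] [Algebra K F]
  [Algebra F₀ F] [IsScalarTower K F₀ F]

/-- `[F : K(t)] = [F₀ : K(t)] · [F : F₀]`. -/
theorem rh0_finrank_adjoin (t : F₀) :
    finrank K⟮algebraMap F₀ F t⟯ F = finrank K⟮t⟯ F₀ * finrank F₀ F := by
  set ι : F₀ →ₐ[K] F := IsScalarTower.toAlgHom K F₀ F with hι
  have hmap : (K⟮t⟯).map ι = K⟮algebraMap F₀ F t⟯ := by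
    rw [IntermediateField.adjoin_map, Set.image_singleton]
    rfl
  let i : K⟮t⟯ ≃+* K⟮algebraMap F₀ F t⟯ :=
    (IntermediateField.equivMap K⟮t⟯ ι).toRingEquiv.trans
      (IntermediateField.equivOfEq hmap).toRingEquiv
  have h1 : finrank K⟮t⟯ F₀ * finrank F₀ F = finrank K⟮t⟯ F := Module.finrank_mul_finrank _ _ _
  have h2 : finrank K⟮t⟯ F = finrank K⟮algebraMap F₀ F t⟯ F := by
    refine Algebra.finrank_eq_of_equiv_equiv i (RingEquiv.refl F) ?_
    ext x
    rfl
  rw [← h2, h1]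

/-- `F / K(t)` is finite if `F₀ / K(t)` and `F / F₀` are. -/
theorem rh0_finite_adjoin (t : F₀) [FiniteDimensional K⟮t⟯ F₀] [FiniteDimensional F₀ F] :
    FiniteDimensional K⟮algebraMap F₀ F t⟯ F := by
  apply Module.finite_of_finrank_pos
  rw [rh0_finrank_adjoin]
  exact Nat.mul_pos Module.finrank_pos Module.finrank_pos

end Fermat.Agent.RT.K7F


end ZBRT_047_0
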