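/- GENERATED FILE (helper35, build-time optimisation, NOTES/ZB.md): verbatim concatenation of the modules
   Fermat.Agent.RT.K7F.RH0Alg
   Fermat.Agent.RT.K7F.RH0Gal
   Do not edit; do not import together with these modules. -/
import Fermat.Agent.ZB.ES1_002
import Fermat.Agent.ZB.ES1_009
import Fermat.Agent.ZB.S24_001
import Fermat.Agent.ZB.ES1_007
import Fermat.Agent.ZB.INJ_005

/-! ### bundled: `Fermat.Agent.RT.K7F.RH0Alg` -/
section ZBRT_048_0

/-!
# RT-K7F / FL-RH0: `F_H = fieldBar L M H` as an algebra over `F₀ = FF L`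

* `rh0Incl`, `rh0Algebra` (use `attribute [local instance] rh0Algebra`), `rh0_algebraMap_coe`
  (NEVER prove such equalities by `rfl`: the kernel explodes; rewrite with `rh0_algebraMap_coe`);
* `rh0_isScalarTower : IsScalarTower Kb (FF L) (fieldBar L M H)`;
* `rh0_finrank : finrank (FF L) (fieldBar L M H) = m + 1` for a system `a : Fin (m + 1) → (ℤ/M)ˣ`
  of representatives of `(ℤ/M)ˣ/±H`.
-/

set_option autoImplicit false
set_option linter.unusedSectionVars false

noncomputable section

namespace Fermat.Agent.RT.K7F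

open AlgebraicCurve Module ModularCurve HahnSeries IntermediateField
open Fermat.Agent.ES1 Fermat.Agent.S24

variable (L M : ℕ) (H : Subgroup (ZMod M)ˣ)

/-- the inclusion `F₀ = ℚ̄(X₀(L)) → F_H` -/
def rh0Incl : FF L →ₐ[Kb] fieldBar L M H :=
  IntermediateField.inclusion (dlh_bar_le_fieldBar L M H)

theorem rh0Incl_coe (f : FF L) : ((rh0Incl L M H f : fieldBar L M H) : LaurentSeries Kb) = f :=
  IntermediateField.coe_inclusion _ f

/-- `F_H` as an algebra over `F₀` -/
@[reducible] def rh0Algebra : Algebra (FF L) (fieldBar L M H) :=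
  (rh0Incl L M H).toRingHom.toAlgebra

attribute [local instance] rh0Algebra

theorem rh0_algebraMap_eq : algebraMap (FF L) (fieldBar L M H) = (rh0Incl L M H).toRingHom :=
  RingHom.algebraMap_toAlgebra _

theorem rh0_algebraMap_coe (f : FF L) :
    ((algebraMap (FF L) (fieldBar L M H) f : fieldBar L M H) : LaurentSeries Kb)
      = (f : LaurentSeries Kb) := by
  rw [rh0_algebraMap_eq]
  exact rh0Incl_coe L M H f

theorem rh0_smul_coe (f : FF L) (x : fieldBar L M H) :
    ((f • x : fieldBar L M H) : LaurentSeries Kb) = (f : LaurentSeries Kb) * x := by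
  rw [Algebra.smul_def, MulMemClass.coe_mul, rh0_algebraMap_coe]

theorem rh0_isScalarTower : IsScalarTower Kb (FF L) (fieldBar L M H) := by
  refine IsScalarTower.of_algebraMap_eq fun x => ?_
  apply Subtype.ext
  rw [rh0_algebraMap_coe, IntermediateField.coe_algebraMap_apply,
    IntermediateField.coe_algebraMap_apply]

/-- `[F_H : F₀] = m + 1` -/
theorem rh0_finrank {m : ℕ} (a : Fin (m + 1) → (ZMod M)ˣ) (hL : L ≠ 0) (hML : M ∣ L)
    (ha : IsRepFam H a) : finrank (FF L) (fieldBar L M H) = m + 1 := by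
  have h1 : (modularFunctionFieldBar L).relfinrank (fieldBar L M H) = m + 1 := by
    rw [Fermat.Agent.INJ.nf_bar_eq_fullC, es1f_fieldBar_eq]
    have : Algebra.IsAlgebraic ℚ Fermat.Agent.INJ.NfQb := by
      have h := AlgebraicClosure.isAlgebraic ℚ
      convert h
      · rfl
      · exact Subsingleton.elim _ _
    exact es1cu_relfinrank stmtDiamondH Fermat.Agent.INJ.NfQb L M H a hL hML ha
  rw [IntermediateField.relfinrank_eq_finrank_of_le (dlh_bar_le_fieldBar L M H)] at h1
  rw [← h1]
  -- the identity is an `F₀`-linear equivalence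
  let e₀ : fieldBar L M H ≃+
      ↥(IntermediateField.extendScalars (dlh_bar_le_fieldBar L M H)) :=
    { toFun := fun x => ⟨x.1, x.2⟩
      invFun := fun x => ⟨x.1, x.2⟩
      left_inv := fun _ => rfl
      right_inv := fun _ => rfl
      map_add' := fun _ _ => rfl }
  let e : fieldBar L M H ≃ₗ[FF L]
      ↥(IntermediateField.extendScalars (dlh_bar_le_fieldBar L M H)) :=
    { e₀ with
      map_smul' := by
        intro f x
        apply Subtype.ext
        show ((f • x : fieldBar L M H) : LaurentSeries Kb) = _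
        rw [rh0_smul_coe]
        rfl }
  exact e.finrank_eq

end Fermat.Agent.RT.K7F

end
end ZBRT_048_0

/-! ### bundled: `Fermat.Agent.RT.K7F.RH0Gal` -/
section ZBRT_048_1

/-!
# RT-K7F / FL-RH0, piece RH0-GAL: the diamond group of `F_H / F₀`

`F_H = fieldBar L M H`, `F₀ = FF L` (`rh0Algebra`).

* `k7fgal_fix` : a diamond automorphism fixes `F₀` pointwise;
* `k7fgalAut` : a diamond as an `F₀`-automorphism of `F_H`;
* `k7fgalHom : (ℤ/M)ˣ →* (F_H ≃ₐ[F₀] F_H)`, `c ↦ ⟨c⟩`;
* `k7fgal_exists` : `G = range k7fgalHom` is a finite abelian subgroup of `Aut_{F₀}(F_H)` with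
  `|G| = [F_H : F₀]`.
-/

set_option autoImplicit false
set_option linter.unusedSectionVars false
set_option linter.style.haveILetI false
set_option synthInstance.maxHeartbeats 400000
set_option maxHeartbeats 1600000

noncomputable section

namespace Fermat.Agent.RT.K7F

open AlgebraicCurve Module ModularCurve HahnSeries IntermediateField
open Fermat.Agent.ES1 Fermat.Agent.ES1.G2 Fermat.Agent.S24

variable (L M : ℕ) (H : Subgroup (ZMod M)ˣ)

attribute [local instance] rh0Algebra

/-- the constants of `F₀` inside `F_H` -/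
theorem k7fgal_algebraMap_const (a : Kb) :
    algebraMap (FF L) (fieldBar L M H) (algebraMap Kb (FF L) a)
      = algebraMap Kb (fieldBar L M H) a := by
  apply Subtype.ext
  rw [rh0_algebraMap_coe, IntermediateField.coe_algebraMap_apply,
    IntermediateField.coe_algebraMap_apply]

variable {L M H}

/-- **a diamond fixes `F₀` pointwise** -/
theorem k7fgal_fix {c : (ZMod M)ˣ} {δ : fieldBar L M H ≃ₐ[Kb] fieldBar L M H}
    (h : IsDiamondH L M H c δ) (f : FF L) :
    δ (algebraMap (FF L) (fieldBar L M H) f) = algebraMap (FF L) (fieldBar L M H) f := by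
  have key : ((fieldBar L M H).val.toRingHom.comp
      ((δ : fieldBar L M H →+* fieldBar L M H).comp (algebraMap (FF L) (fieldBar L M H))))
      = (fieldBar L M H).val.toRingHom.comp (algebraMap (FF L) (fieldBar L M H)) := by
    refine diamb_ringHom_ext_adjoin (divisorExpansionsC Kb L) (modularFunctionFieldBar L)
      (by rw [Fermat.Agent.INJ.nf_bar_eq_fullC]; rfl) _ _ (fun a => ?_) (fun x hx => ?_)
    · rw [RingHom.comp_apply, RingHom.comp_apply, RingHom.comp_apply,
        k7fgal_algebraMap_const L M H a]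
      congr 1
      exact δ.commutes a
    · obtain ⟨d, hd, hdL, hxd⟩ := hx
      have h2 : ((algebraMap (FF L) (fieldBar L M H) x : fieldBar L M H) : LaurentSeries Kb)
          = qExpand Kb d (jqModC Kb) := by
        rw [rh0_algebraMap_coe, hxd]
      rw [RingHom.comp_apply, RingHom.comp_apply, RingHom.comp_apply]
      congr 1
      exact h.fix_j d hdL _ h2
  apply Subtype.ext
  exact congrArg (fun φ : FF L →+* LaurentSeries Kb => φ f) key

/-- a diamond as an `F₀`-automorphism of `F_H` -/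
def k7fgalAut {c : (ZMod M)ˣ} (δ : fieldBar L M H ≃ₐ[Kb] fieldBar L M H)
    (h : IsDiamondH L M H c δ) : fieldBar L M H ≃ₐ[FF L] fieldBar L M H :=
  AlgEquiv.ofRingEquiv (f := (δ : fieldBar L M H ≃+* fieldBar L M H))
    (fun f => k7fgal_fix h f)

theorem k7fgalAut_apply {c : (ZMod M)ˣ} (δ : fieldBar L M H ≃ₐ[Kb] fieldBar L M H)
    (h : IsDiamondH L M H c δ) (x : fieldBar L M H) : k7fgalAut δ h x = δ x := rfl

variable (L M H)

/-- the chosen diamond `⟨c⟩` -/
def k7fgalDiam (hL : L ≠ 0) (hML : M ∣ L) (c : (ZMod M)ˣ) :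
    fieldBar L M H ≃ₐ[Kb] fieldBar L M H :=
  (stmtDiamondBarH_of_diamond stmtDiamondH L M H hL hML c).choose

theorem k7fgalDiam_spec (hL : L ≠ 0) (hML : M ∣ L) (c : (ZMod M)ˣ) :
    IsDiamondH L M H c (k7fgalDiam L M H hL hML c) :=
  (stmtDiamondBarH_of_diamond stmtDiamondH L M H hL hML c).choose_spec

/-- **the diamond homomorphism** `(ℤ/M)ˣ → Aut_{F₀}(F_H)` -/
def k7fgalHom (hL : L ≠ 0) (hML : M ∣ L) :
    (ZMod M)ˣ →* (fieldBar L M H ≃ₐ[FF L] fieldBar L M H) where
  toFun c := k7fgalAut (k7fgalDiam L M H hL hML c) (k7fgalDiam_spec L M H hL hML c)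
  map_one' := by
    refine AlgEquiv.ext fun x => ?_
    rw [k7fgalAut_apply, (k7fgalDiam_spec L M H hL hML 1).unique isDiamondH_one]
    rfl
  map_mul' := fun c d => by
    refine AlgEquiv.ext fun x => ?_
    rw [k7fgalAut_apply, (k7fgalDiam_spec L M H hL hML (c * d)).unique
      ((k7fgalDiam_spec L M H hL hML c).mul (k7fgalDiam_spec L M H hL hML d))]
    rfl

theorem k7fgalHom_apply (hL : L ≠ 0) (hML : M ∣ L) (c : (ZMod M)ˣ) (x : fieldBar L M H) :
    k7fgalHom L M H hL hML c x = k7fgalDiam L M H hL hML c x := rfl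

theorem k7fgalHom_isDiamond (hL : L ≠ 0) (hML : M ∣ L) (c : (ZMod M)ˣ) :
    ∃ δ : fieldBar L M H ≃ₐ[Kb] fieldBar L M H, IsDiamondH L M H c δ ∧
      ∀ x, k7fgalHom L M H hL hML c x = δ x :=
  ⟨_, k7fgalDiam_spec L M H hL hML c, fun _ => rfl⟩

/-- `S₁ ∈ F_H` -/
theorem k7fgal_sS_mem (hML : M ∣ L) (b : (ZMod M)ˣ) :
    qExpand Kb 1 (sS Kb M H b) ∈ fieldBar L M H := by
  rw [es1f_fieldBar_eq]
  exact qExpand_sS_mem Kb L M H (e := 1) (by rwa [one_mul]) b

/-- the diamonds of a system of representatives are pairwise different -/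
theorem k7fgalHom_injective_rep (hL : L ≠ 0) (hML : M ∣ L) {m : ℕ}
    (a : Fin (m + 1) → (ZMod M)ˣ) (ha : IsRepFam H a) :
    Function.Injective fun i => k7fgalHom L M H hL hML (a i) := by
  intro i j hij
  have hM0 : M ≠ 0 := fun h => hL (by rw [h] at hML; exact Nat.eq_zero_of_zero_dvd hML)
  have h1 : (1 : ℕ) * M ∣ L := by rwa [one_mul]
  have hS : ∀ i, (((k7fgalHom L M H hL hML (a i))
      ⟨qExpand Kb 1 (sS Kb M H 1), k7fgal_sS_mem L M H hML 1⟩ : fieldBar L M H) :
        LaurentSeries Kb) = sS Kb M H (a i) := by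
    intro i
    rw [k7fgalHom_apply, (k7fgalDiam_spec L M H hL hML (a i)).map_s 1 1 h1 _ rfl, one_mul,
      qExpand_one_apply]
  have h2 := hS i
  rw [show k7fgalHom L M H hL hML (a i) = k7fgalHom L M H hL hML (a j) from hij, hS j] at h2
  exact es1cu_sS_injective Kb hM0 ha h2.symm

/-- the diamond group is finite -/
theorem k7fgal_range_finite (hL : L ≠ 0) (hML : M ∣ L) :
    Finite (k7fgalHom L M H hL hML).range := by
  have hM0 : M ≠ 0 := fun h => hL (by rw [h] at hML; exact Nat.eq_zero_of_zero_dvd hML)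
  haveI : NeZero M := ⟨hM0⟩
  have : Finite (Set.range (k7fgalHom L M H hL hML)) := Set.finite_range _
  exact this

/-- the diamond group is commutative -/
theorem k7fgal_range_comm (hL : L ≠ 0) (hML : M ∣ L) :
    ∀ a ∈ (k7fgalHom L M H hL hML).range, ∀ b ∈ (k7fgalHom L M H hL hML).range,
      a * b = b * a := by
  rintro _ ⟨c, rfl⟩ _ ⟨d, rfl⟩
  rw [← map_mul, ← map_mul, mul_comm]

/-- the order of the diamond group is `[F_H : F₀]` -/
theorem k7fgal_range_card (hL : L ≠ 0) (hML : M ∣ L) :
    Nat.card (k7fgalHom L M H hL hML).range = Module.finrank (FF L) (fieldBar L M H) := by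
  classical
  have hM0 : M ≠ 0 := fun h => hL (by rw [h] at hML; exact Nat.eq_zero_of_zero_dvd hML)
  haveI : NeZero M := ⟨hM0⟩
  obtain ⟨m, a, ha⟩ := exists_isRepFam hM0 H
  have hrank : finrank (FF L) (fieldBar L M H) = m + 1 := rh0_finrank L M H a hL hML ha
  haveI hfd : FiniteDimensional (FF L) (fieldBar L M H) :=
    Module.finite_of_finrank_pos (by rw [hrank]; exact Nat.succ_pos m)
  haveI := k7fgal_range_finite L M H hL hML
  apply le_antisymm
  · calc Nat.card (k7fgalHom L M H hL hML).range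
        ≤ Nat.card (fieldBar L M H ≃ₐ[FF L] fieldBar L M H) :=
          Nat.card_le_card_of_injective _ Subtype.val_injective
      _ = Fintype.card (fieldBar L M H ≃ₐ[FF L] fieldBar L M H) := Nat.card_eq_fintype_card
      _ ≤ finrank (FF L) (fieldBar L M H) := AlgEquiv.card_le
  · rw [hrank]
    have hinj : Function.Injective
        (fun i : Fin (m + 1) => (⟨k7fgalHom L M H hL hML (a i), ⟨a i, rfl⟩⟩ :
          (k7fgalHom L M H hL hML).range)) := by
      intro i j hij
      exact k7fgalHom_injective_rep L M H hL hML a ha (congrArg Subtype.val hij)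
    have := Nat.card_le_card_of_injective _ hinj
    rwa [Nat.card_fin] at this

/-- **RH0-GAL.** The diamonds form a finite abelian subgroup of `Aut_{F₀}(F_H)` of order
`[F_H : F₀]`. -/
theorem k7fgal_exists (hL : L ≠ 0) (hML : M ∣ L) :
    ∃ G : Subgroup (fieldBar L M H ≃ₐ[FF L] fieldBar L M H), Finite G ∧
      (∀ a ∈ G, ∀ b ∈ G, a * b = b * a) ∧
      Nat.card G = Module.finrank (FF L) (fieldBar L M H) :=
  ⟨(k7fgalHom L M H hL hML).range, k7fgal_range_finite L M H hL hML,
    k7fgal_range_comm L M H hL hML, k7fgal_range_card L M H hL hML⟩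

/-- every element of the diamond group is a diamond -/
theorem k7fgal_range_isDiamond (hL : L ≠ 0) (hML : M ∣ L)
    (g : fieldBar L M H ≃ₐ[FF L] fieldBar L M H) (hg : g ∈ (k7fgalHom L M H hL hML).range) :
    ∃ (c : (ZMod M)ˣ) (δ : fieldBar L M H ≃ₐ[Kb] fieldBar L M H), IsDiamondH L M H c δ ∧
      ∀ x, g x = δ x := by
  obtain ⟨c, rfl⟩ := hg
  exact ⟨c, _, k7fgalDiam_spec L M H hL hML c, fun _ => rfl⟩

end Fermat.Agent.RT.K7F

end
end ZBRT_048_1
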