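/- GENERATED FILE (helper35, build-time optimisation, NOTES/ZB.md): verbatim concatenation of the modules
   Fermat.Agent.RT.K7F.Eig
   Fermat.Agent.RT.K7F.RH0App
   Fermat.Agent.RT.K7F.RH0GalStmt
   Fermat.Agent.RT.K7F.RH0DvdH
   Fermat.Agent.RT.K7F.RH0Final
   Do not edit; do not import together with these modules. -/
import Mathlib
import Fermat.Agent.ZB.ES1_009
import Fermat.Agent.ZB.RT_046
import Fermat.Agent.ZB.RT_047
import Fermat.Agent.ZB.RT_048
import Fermat.Agent.ZB.ES_012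
import Fermat.Agent.ZB.ES_003
import Fermat.Agent.ZB.ES1_012
import Fermat.Agent.ZB.S24_011
import Fermat.Agent.ZB.S24_001
import Fermat.Agent.ZB.ES_020
import Fermat.Agent.ZB.RT_050
import Fermat.Agent.ZB.INJ_012
import Fermat.Agent.ZB.S20_001

/-! ### bundled: `Fermat.Agent.RT.K7F.Eig` -/
section ZBRT_049_0

/-!
# RT / K7-FLAT, piece RH0-EIG (helper71): Kummer eigenbasis of an abelian extension

`F/F₀` finite, `G ≤ Aut_{F₀}(F)` abelian with `|G| = [F : F₀] = d`, `K ⊂ F₀` algebraically closed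
of characteristic `0`.  Then `F` has an `F₀`-basis of simultaneous eigenvectors `y_χ` of `G`
(`χ : G → Kˣ` the characters), and `y_χ^d ∈ F₀ˣ`.

* `k7feigProj G χ = Σ_g χ(g)⁻¹ • g` : the projector onto the `χ`-eigenspace (up to the factor `d`);
* `k7feig_proj_smul` : `h (e_χ x) = χ(h) • e_χ x`;
* `k7feig_proj_ne_zero` : `e_χ ≠ 0` (Dedekind);
* `k7feig_fixed` : `F^G = F₀`;
* `k7feig_linearIndependent` : eigenvectors for the characters are linearly independent;
* `k7feig_exists` : the statement;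
* `k7feig_exists_char` : the same with the characters and the eigenvector property.
-/

set_option autoImplicit false
set_option linter.unusedSectionVars false
set_option linter.style.longLine false
set_option linter.style.haveILetI false

noncomputable section

namespace Fermat.Agent.RT.K7F

open Module IntermediateField

variable {K F₀ F : Type*} [Field K] [Field F₀] [Field F]
  [Algebra K F₀] [Algebra K F] [Algebra F₀ F] [IsScalarTower K F₀ F]

/-- the value of the character `χ` at `g`, in `F₀` -/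
def k7feigVal (G : Subgroup (F ≃ₐ[F₀] F)) (χ : G →* Kˣ) (g : G) : F₀ :=
  algebraMap K F₀ ((χ g : Kˣ) : K)

theorem k7feigVal_mul (G : Subgroup (F ≃ₐ[F₀] F)) (χ : G →* Kˣ) (g h : G) :
    k7feigVal G χ (g * h) = k7feigVal G χ g * k7feigVal G χ h := by
  simp only [k7feigVal, map_mul, Units.val_mul]

theorem k7feigVal_one (G : Subgroup (F ≃ₐ[F₀] F)) (χ : G →* Kˣ) :
    k7feigVal G χ 1 = 1 := by
  simp only [k7feigVal, map_one, Units.val_one]

theorem k7feigVal_ne_zero (G : Subgroup (F ≃ₐ[F₀] F)) (χ : G →* Kˣ) (g : G) :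
    k7feigVal G χ g ≠ 0 := by
  rw [k7feigVal]
  exact (map_ne_zero (algebraMap K F₀)).2 (Units.ne_zero _)

theorem k7feigVal_inv_mul (G : Subgroup (F ≃ₐ[F₀] F)) (χ : G →* Kˣ) (g : G) :
    k7feigVal G χ g⁻¹ * k7feigVal G χ g = 1 := by
  rw [← k7feigVal_mul, inv_mul_cancel, k7feigVal_one]

/-- `Σ_g χ(g)⁻¹ • g`, an `F₀`-linear endomorphism of `F` -/
def k7feigProj (G : Subgroup (F ≃ₐ[F₀] F)) [Fintype G] (χ : G →* Kˣ) : F →ₗ[F₀] F :=
  ∑ g : G, k7feigVal G χ g⁻¹ • ((g : F ≃ₐ[F₀] F).toLinearMap)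

theorem k7feigProj_apply (G : Subgroup (F ≃ₐ[F₀] F)) [Fintype G] (χ : G →* Kˣ) (x : F) :
    k7feigProj G χ x = ∑ g : G, k7feigVal G χ g⁻¹ • (g : F ≃ₐ[F₀] F) x := by
  simp only [k7feigProj, LinearMap.sum_apply, LinearMap.smul_apply, AlgEquiv.toLinearMap_apply]

/-- `h (e_χ x) = χ(h) • e_χ x` -/
theorem k7feig_proj_smul (G : Subgroup (F ≃ₐ[F₀] F)) [Fintype G] (χ : G →* Kˣ) (h : G) (x : F) :
    (h : F ≃ₐ[F₀] F) (k7feigProj G χ x) = k7feigVal G χ h • k7feigProj G χ x := by
  rw [k7feigProj_apply, map_sum, Finset.smul_sum]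
  refine Fintype.sum_equiv (Equiv.mulLeft h) _ _ fun g => ?_
  rw [map_smul, Equiv.coe_mulLeft, smul_smul, mul_inv_rev, k7feigVal_mul, ← mul_assoc,
    mul_comm (k7feigVal G χ h), mul_assoc, mul_comm (k7feigVal G χ h), k7feigVal_inv_mul, mul_one]
  rfl

/-- the projector of an eigenvector -/
theorem k7feig_proj_eigen (G : Subgroup (F ≃ₐ[F₀] F)) [Fintype G] (χ ψ : G →* Kˣ) (y : F)
    (hy : ∀ g : G, (g : F ≃ₐ[F₀] F) y = k7feigVal G χ g • y) :
    k7feigProj G ψ y = (∑ g : G, k7feigVal G ψ g⁻¹ * k7feigVal G χ g) • y := by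
  rw [k7feigProj_apply, Finset.sum_smul]
  refine Finset.sum_congr rfl fun g _ => ?_
  rw [hy g, smul_smul]

/-- orthogonality of characters -/
theorem k7feig_orth (G : Subgroup (F ≃ₐ[F₀] F)) [Fintype G] (χ ψ : G →* Kˣ) (hne : χ ≠ ψ) :
    ∑ g : G, k7feigVal G ψ g⁻¹ * k7feigVal G χ g = 0 := by
  classical
  set φ : G →* K := (Units.coeHom K).comp (ψ⁻¹ * χ) with hφ
  have hφ1 : φ ≠ 1 := by
    intro h
    apply hne
    ext g
    have h1 := DFunLike.congr_fun h g
    simp only [hφ, MonoidHom.coe_comp, Function.comp_apply, MonoidHom.mul_apply,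
      MonoidHom.inv_apply, Units.coeHom_apply, MonoidHom.one_apply, Units.val_eq_one] at h1
    have h2 : χ g = ψ g := by
      rw [inv_mul_eq_one] at h1
      exact h1.symm
    rw [h2]
  have h0 := sum_hom_units_eq_zero φ hφ1
  have e : ∑ g : G, k7feigVal G ψ g⁻¹ * k7feigVal G χ g = algebraMap K F₀ (∑ g : G, φ g) := by
    rw [map_sum]
    refine Finset.sum_congr rfl fun g _ => ?_
    simp only [k7feigVal, hφ, MonoidHom.coe_comp, Function.comp_apply, MonoidHom.mul_apply,
      MonoidHom.inv_apply, Units.coeHom_apply, map_mul, map_inv, Units.val_inv_eq_inv_val]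
  rw [e, h0, map_zero]

theorem k7feig_orth_self (G : Subgroup (F ≃ₐ[F₀] F)) [Fintype G] (χ : G →* Kˣ) :
    ∑ g : G, k7feigVal G χ g⁻¹ * k7feigVal G χ g = (Fintype.card G : F₀) := by
  simp only [k7feigVal_inv_mul, Finset.sum_const, Finset.card_univ, nsmul_eq_mul, mul_one]

/-- Dedekind: the projector is not zero -/
theorem k7feig_proj_ne_zero (G : Subgroup (F ≃ₐ[F₀] F)) [Fintype G] (χ : G →* Kˣ) :
    ∃ x : F, k7feigProj G χ x ≠ 0 := by
  classical
  by_contra hcon
  push Not at hcon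
  have hli := linearIndependent_monoidHom F F
  have hinj : Function.Injective
      (fun g : G => (((g : F ≃ₐ[F₀] F) : F →+* F) : F →* F)) := by
    intro g h hgh
    apply Subtype.ext
    apply AlgEquiv.ext
    intro x
    exact DFunLike.congr_fun hgh x
  have hli2 := hli.comp _ hinj
  rw [Fintype.linearIndependent_iff] at hli2
  have h0 := hli2 (fun g => algebraMap F₀ F (k7feigVal G χ g⁻¹)) (by
    funext x
    have hx := hcon x
    rw [k7feigProj_apply] at hx
    simp only [Function.comp_apply, Finset.sum_apply, Pi.smul_apply, smul_eq_mul, Pi.zero_apply]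
    rw [← hx]
    refine Finset.sum_congr rfl fun g _ => ?_
    rw [Algebra.smul_def]
    rfl) 1
  have h1 : algebraMap F₀ F (k7feigVal G χ (1 : G)⁻¹) ≠ 0 :=
    (map_ne_zero (algebraMap F₀ F)).2 (k7feigVal_ne_zero G χ _)
  exact h1 h0

/-- `F^G = F₀` if `|G| = [F : F₀]` -/
theorem k7feig_fixed [FiniteDimensional F₀ F] (G : Subgroup (F ≃ₐ[F₀] F)) [Finite G]
    (hcard : Nat.card G = finrank F₀ F) (z : F) (hz : ∀ g ∈ G, g z = z) :
    ∃ u : F₀, algebraMap F₀ F u = z := by
  have h1 : finrank (fixedField G) F = finrank F₀ F := by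
    rw [finrank_fixedField_eq_card, hcard]
  have h2 := finrank_mul_finrank F₀ (fixedField G) F
  have hpos : 0 < finrank F₀ F := finrank_pos
  have h3 : finrank F₀ (fixedField G) = 1 := by
    rw [h1] at h2
    have := Nat.eq_of_mul_eq_mul_right hpos (h2.trans (one_mul _).symm)
    exact this
  have h4 : fixedField G = ⊥ := IntermediateField.finrank_eq_one_iff.1 h3
  have h5 : z ∈ fixedField G := by
    rw [IntermediateField.mem_fixedField_iff]
    exact hz
  rw [h4, IntermediateField.mem_bot] at h5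
  exact h5

/-- eigenvectors for the characters are linearly independent -/
theorem k7feig_linearIndependent [CharZero F₀] (G : Subgroup (F ≃ₐ[F₀] F)) [Fintype G]
    {ι : Type*} (c : ι → (G →* Kˣ)) (hc : Function.Injective c) (y : ι → F)
    (hy0 : ∀ i, y i ≠ 0)
    (hy : ∀ i, ∀ g : G, (g : F ≃ₐ[F₀] F) (y i) = k7feigVal G (c i) g • y i) :
    LinearIndependent F₀ y := by
  classical
  rw [linearIndependent_iff']
  intro s a hsum i hi
  have h1 := congrArg (k7feigProj G (c i)) hsum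
  rw [map_sum, map_zero] at h1
  have h2 : ∀ j ∈ s, k7feigProj G (c i) (a j • y j) =
      if j = i then (a i * (Fintype.card G : F₀)) • y i else 0 := by
    intro j _
    rw [map_smul, k7feig_proj_eigen G (c j) (c i) (y j) (hy j)]
    split_ifs with hji
    · subst hji
      rw [k7feig_orth_self, smul_smul]
    · rw [k7feig_orth G (c j) (c i) (fun h => hji (hc h)), zero_smul, smul_zero]
  rw [Finset.sum_congr rfl h2, Finset.sum_ite_eq' s i, if_pos hi] at h1
  rcases smul_eq_zero.1 h1 with h3 | h3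
  · rcases mul_eq_zero.1 h3 with h4 | h4
    · exact h4
    · exfalso
      have : (Fintype.card G : F₀) ≠ 0 := Nat.cast_ne_zero.2 Fintype.card_ne_zero
      exact this h4
  · exact absurd h3 (hy0 i)

/-! ### The statement -/

/-- **RH0-EIG**, with the characters: an `F₀`-basis of simultaneous eigenvectors of `G`,
indexed by the characters `G → Kˣ`; the `d`-th powers lie in `F₀`. -/
theorem k7feig_exists_char [IsAlgClosed K] [CharZero K] [FiniteDimensional F₀ F]
    (G : Subgroup (F ≃ₐ[F₀] F)) [Finite G] (hcomm : ∀ a ∈ G, ∀ b ∈ G, a * b = b * a)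
    (hcard : Nat.card G = Module.finrank F₀ F) :
    ∃ (c : Fin (Module.finrank F₀ F) → (G →* Kˣ)) (y : Fin (Module.finrank F₀ F) → F)
      (u : Fin (Module.finrank F₀ F) → F₀),
      Function.Bijective c ∧ (∀ i, u i ≠ 0) ∧ (∀ i, y i ≠ 0) ∧
      (∀ i, y i ^ (Module.finrank F₀ F) = algebraMap F₀ F (u i)) ∧
      (∀ i, ∀ g : G, (g : F ≃ₐ[F₀] F) (y i) = algebraMap K F ((c i g : Kˣ) : K) * y i) ∧
      LinearIndependent F₀ y := by
  classical
  haveI : Fintype G := Fintype.ofFinite G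
  letI : CommGroup G :=
    { (inferInstance : Group G) with
      mul_comm := fun a b => Subtype.ext (hcomm a a.2 b b.2) }
  haveI : CharZero F₀ := charZero_of_injective_algebraMap (algebraMap K F₀).injective
  have hd : 0 < Module.finrank F₀ F := Module.finrank_pos
  -- the characters
  haveI : NeZero ((Monoid.exponent G : ℕ) : K) :=
    ⟨Nat.cast_ne_zero.2 Monoid.exponent_ne_zero_of_finite⟩
  have hX : Nat.card (G →* Kˣ) = Module.finrank F₀ F := by
    rw [CommGroup.card_monoidHom_of_hasEnoughRootsOfUnity G K, hcard]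
  haveI : Finite (G →* Kˣ) := Nat.finite_of_card_ne_zero (by rw [hX]; exact hd.ne')
  let e : Fin (Module.finrank F₀ F) ≃ (G →* Kˣ) := (Finite.equivFinOfCardEq hX).symm
  -- the eigenvectors
  choose x hx using fun χ : G →* Kˣ => k7feig_proj_ne_zero G χ
  set y : (G →* Kˣ) → F := fun χ => k7feigProj G χ (x χ) with hy
  have hy0 : ∀ χ, y χ ≠ 0 := hx
  have hyg : ∀ χ, ∀ g : G, (g : F ≃ₐ[F₀] F) (y χ) = k7feigVal G χ g • y χ :=
    fun χ g => k7feig_proj_smul G χ g (x χ)
  -- the powers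
  have hpow : ∀ χ, ∃ u : F₀, algebraMap F₀ F u = y χ ^ (Module.finrank F₀ F) := by
    intro χ
    refine k7feig_fixed G hcard _ fun g hg => ?_
    have h1 := hyg χ ⟨g, hg⟩
    have h2 : k7feigVal G χ ⟨g, hg⟩ ^ (Module.finrank F₀ F) = 1 := by
      rw [k7feigVal, ← map_pow, ← Units.val_pow_eq_pow_val, ← map_pow, ← hcard, pow_card_eq_one',
        map_one, Units.val_one, map_one]
    rw [map_pow]
    show ((⟨g, hg⟩ : G) : F ≃ₐ[F₀] F) (y χ) ^ _ = _
    rw [h1, smul_pow, h2, one_smul]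
  choose u hu using hpow
  have hu0 : ∀ χ, u χ ≠ 0 := by
    intro χ h0
    have h1 := hu χ
    rw [h0, map_zero] at h1
    exact pow_ne_zero _ (hy0 χ) h1.symm
  refine ⟨e, fun i => y (e i), fun i => u (e i), e.bijective, fun i => hu0 _, fun i => hy0 _,
    fun i => (hu _).symm, fun i g => ?_, ?_⟩
  · rw [hyg (e i) g, Algebra.smul_def, k7feigVal, ← IsScalarTower.algebraMap_apply]
  · exact k7feig_linearIndependent G (fun i => e i) e.injective (fun i => y (e i))
      (fun i => hy0 _) (fun i g => hyg (e i) g)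

/-- **RH0-EIG** (Kummer eigenbasis): `F/F₀` finite, `G ≤ Aut_{F₀}(F)` abelian of order
`d = [F : F₀]`, `K ⊂ F₀` algebraically closed of characteristic `0` ⟹ there is a linearly
independent family `y_1, …, y_d` of `F` over `F₀` with `y_i^d ∈ F₀ˣ`. -/
theorem k7feig_exists {K F₀ F : Type*} [Field K] [Field F₀] [Field F]
    [Algebra K F₀] [Algebra K F] [Algebra F₀ F] [IsScalarTower K F₀ F]
    [IsAlgClosed K] [CharZero K] [FiniteDimensional F₀ F]
    (G : Subgroup (F ≃ₐ[F₀] F)) [Finite G] (hcomm : ∀ a ∈ G, ∀ b ∈ G, a * b = b * a)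
    (hcard : Nat.card G = Module.finrank F₀ F) :
    ∃ (y : Fin (Module.finrank F₀ F) → F) (u : Fin (Module.finrank F₀ F) → F₀),
      (∀ i, u i ≠ 0) ∧ (∀ i, y i ^ (Module.finrank F₀ F) = algebraMap F₀ F (u i)) ∧
      LinearIndependent F₀ y := by
  obtain ⟨-, y, u, -, hu, -, hpow, -, hli⟩ := k7feig_exists_char (K := K) G hcomm hcard
  exact ⟨y, u, hu, hpow, hli⟩

end Fermat.Agent.RT.K7F

end
end ZBRT_049_0

/-! ### bundled: `Fermat.Agent.RT.K7F.RH0App` -/
section ZBRT_049_1

/-!
# RT-K7F / FL-RH0: Riemann's inequality for `F_H = fieldBar L M H` with `g = 1 + d (g₀ - 1)`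

`stmtRiemannH_of : StmtGalH → StmtDvdH → StmtRiemannH`, where

* `StmtGalH` (RH0-GAL): the diamonds form a finite abelian group `G` of automorphisms of `F_H` over
  `F₀ = FF L` with `|G| = [F_H : F₀]`;
* `StmtDvdH` (RH0-DVD): `y ∈ F_H`, `y ^ (p ^ k) = u ∈ F₀` ⟹ `p ^ k ∣ ord_P u` at every place `P`
  of `F₀` (the cover `X_H(L; M) → X₀(L)` is unramified).

Proof: Kummer eigenbasis (`k7feig_exists`) + `rh0_riemann` with `t = j`.
-/

set_option autoImplicit false
set_option linter.unusedSectionVars false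
set_option linter.style.haveILetI false

noncomputable section

namespace Fermat.Agent.RT.K7F

open AlgebraicCurve Module ModularCurve HahnSeries IntermediateField
open Fermat.Agent.ES Fermat.Agent.ES.M Fermat.Agent.ES1 Fermat.Agent.S24

attribute [local instance] rh0Algebra

/-- **RH0-GAL**: the diamond group. -/
def StmtGalH : Prop :=
  ∀ (L M : ℕ) (H : Subgroup (ZMod M)ˣ), L ≠ 0 → M ∣ L →
    ∃ G : Subgroup (fieldBar L M H ≃ₐ[FF L] fieldBar L M H), Finite G ∧
      (∀ a ∈ G, ∀ b ∈ G, a * b = b * a) ∧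
      Nat.card G = Module.finrank (FF L) (fieldBar L M H)

/-- **RH0-DVD**: the Kummer generators of `F_H / F₀` have divisors divisible by `p ^ k`. -/
def StmtDvdH : Prop :=
  ∀ (L M : ℕ) (H : Subgroup (ZMod M)ˣ) (p : ℕ), K7FLevel L M H p →
    ∀ (k : ℕ) (u : FF L) (y : LaurentSeries Kb), y ∈ fieldBar L M H →
      y ^ (p ^ k) = (u : LaurentSeries Kb) →
      ∀ P : Place Kb (FF L), ((p ^ k : ℕ) : ℤ) ∣ P.ord u

variable (L M : ℕ) (H : Subgroup (ZMod M)ˣ)

theorem rh0_algebraMap_injective :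
    Function.Injective (algebraMap (FF L) (fieldBar L M H)) :=
  (algebraMap (FF L) (fieldBar L M H)).injective

/-- `F_H` has a place. -/
theorem rh0_nonempty_place {m : ℕ} (a : Fin (m + 1) → (ZMod M)ˣ) (hL : L ≠ 0) (hML : M ∣ L)
    (ha : IsRepFam H a) : Nonempty (Place Kb ↥(fieldBar L M H)) := by
  haveI : NeZero L := ⟨hL⟩
  haveI := rh0_isScalarTower L M H
  have hfr := rh0_finrank L M H a hL hML ha
  haveI : FiniteDimensional (FF L) (fieldBar L M H) :=
    Module.finite_of_finrank_pos (by rw [hfr]; exact Nat.succ_pos m)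
  have htr : Transcendental Kb (jF L) := transcendental_jF L
  have htr' : Transcendental Kb (algebraMap (FF L) (fieldBar L M H) (jF L)) :=
    (transcendental_algebraMap_iff (rh0_algebraMap_injective L M H)).mpr htr
  haveI := Fermat.Agent.ES.H.finiteDimensional_adjoin_jF L
  haveI : FiniteDimensional Kb⟮algebraMap (FF L) (fieldBar L M H) (jF L)⟯ (fieldBar L M H) :=
    rh0_finite_adjoin (jF L)
  obtain ⟨V, hV, hsum⟩ := sum_ord_eq_finrank (algebraMap (FF L) (fieldBar L M H) (jF L)) htr'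
  have hpos : 0 < finrank Kb⟮algebraMap (FF L) (fieldBar L M H) (jF L)⟯ (fieldBar L M H) :=
    Module.finrank_pos
  by_contra hcon
  rw [not_nonempty_iff] at hcon
  have hVe : V = ∅ := Finset.eq_empty_of_forall_notMem fun v _ => hcon.false v
  rw [hVe, Finset.sum_empty] at hsum
  have h0 : (finrank Kb⟮algebraMap (FF L) (fieldBar L M H) (jF L)⟯ (fieldBar L M H) : ℤ) = 0 :=
    hsum.symm
  have h1 : finrank Kb⟮algebraMap (FF L) (fieldBar L M H) (jF L)⟯ (fieldBar L M H) = 0 := by
    exact_mod_cast h0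
  omega

/-- **FL-RH0**, with the sharp constant in `ℤ`. -/
theorem rh0_riemannH_int (hGal : StmtGalH) (hDvd : StmtDvdH) (p : ℕ) (hlev : K7FLevel L M H p)
    {m : ℕ} (a : Fin (m + 1) → (ZMod M)ˣ) (ha : IsRepFam H a)
    (𝔞 : Divisor Kb ↥(fieldBar L M H)) :
    Divisor.degree 𝔞 + 1 - (((m + 1 : ℕ) : ℤ) * ((gN L : ℤ) - 1) + 1)
      ≤ (finrank Kb ↥(riemannRochSpace 𝔞) : ℤ) := by
  have hL : L ≠ 0 := by have := hlev.hL; omega
  have hML := hlev.hML
  haveI : NeZero L := ⟨hL⟩
  haveI := rh0_isScalarTower L M H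
  have hfr := rh0_finrank L M H a hL hML ha
  haveI : FiniteDimensional (FF L) (fieldBar L M H) :=
    Module.finite_of_finrank_pos (by rw [hfr]; exact Nat.succ_pos m)
  haveI : Algebra.IsAlgebraic (FF L) (fieldBar L M H) := Algebra.IsAlgebraic.of_finite _ _
  haveI := Fermat.Agent.ES.H.hasPrincipalDivisors_FF L
  haveI := es1h_hasPrincipalDivisors_all (H := H) hL hML
  have hres₀ := Fermat.Agent.ES.H.residue_bijective_FF L
  have hres := es1h_residue_bijective_all (H := H) hL hML
  -- the function `j`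
  have htr : Transcendental Kb (jF L) := transcendental_jF L
  have htr' : Transcendental Kb (algebraMap (FF L) (fieldBar L M H) (jF L)) :=
    (transcendental_algebraMap_iff (rh0_algebraMap_injective L M H)).mpr htr
  haveI := Fermat.Agent.ES.H.finiteDimensional_adjoin_jF L
  haveI : FiniteDimensional Kb⟮algebraMap (FF L) (fieldBar L M H) (jF L)⟯ (fieldBar L M H) :=
    rh0_finite_adjoin (jF L)
  obtain ⟨V₀, hV₀, hsum₀⟩ := sum_ord_eq_finrank (jF L) htr
  obtain ⟨V, hV, hsum⟩ := sum_ord_eq_finrank (algebraMap (FF L) (fieldBar L M H) (jF L)) htr'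
  have hdeg := rh0_finrank_adjoin (K := Kb) (F := fieldBar L M H) (jF L)
  -- the eigenbasis
  obtain ⟨G, hGfin, hGcomm, hGcard⟩ := hGal L M H hL hML
  haveI := hGfin
  obtain ⟨y, u, hu, hyu, hli⟩ := k7feig_exists (K := Kb) G hGcomm hGcard
  obtain ⟨k, hk⟩ := hlev.pgroup m a ha
  have hd : finrank (FF L) (fieldBar L M H) = p ^ k := by rw [hfr, hk]
  have hpos : 0 < finrank (FF L) (fieldBar L M H) := by rw [hfr]; exact Nat.succ_pos m
  have hdvd : ∀ (i : Fin (finrank (FF L) (fieldBar L M H))) (P : Place Kb (FF L)),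
      ((finrank (FF L) (fieldBar L M H) : ℕ) : ℤ) ∣ P.ord (u i) := by
    intro i P
    rw [hd]
    refine hDvd L M H p hlev k (u i) (y i : LaurentSeries Kb) (y i).2 ?_ P
    have h1 := congrArg (Subtype.val) (hyu i)
    rw [rh0_algebraMap_coe, hd] at h1
    rw [← h1]
    rfl
  have key := rh0_riemann (K := Kb) (F₀ := FF L) (F := fieldBar L M H) hres₀ hres (gN L : ℤ)
    (fun D => Fermat.Agent.ES.R.riemann_inequality L D) (jF L) (jF_ne_zero L) V₀ hV₀ V hV
    (finrank (FF L) (fieldBar L M H))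
    (by rw [hsum, hsum₀, hdeg]; push_cast; rw [mul_comm])
    (by
      rw [hsum]
      have : 0 < finrank Kb⟮algebraMap (FF L) (fieldBar L M H) (jF L)⟯ (fieldBar L M H) :=
        Module.finrank_pos
      exact_mod_cast this)
    (finrank (FF L) (fieldBar L M H)) hpos y u hu hyu hli hdvd 𝔞
  rw [hfr] at key
  exact key

/-- **FL-RH0.** -/
theorem stmtRiemannH_of (hGal : StmtGalH) (hDvd : StmtDvdH) : StmtRiemannH := by
  intro L M H p hlev m a ha
  have hL : L ≠ 0 := by have := hlev.hL; omega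
  have hML := hlev.hML
  have hint := rh0_riemannH_int L M H hGal hDvd p hlev a ha
  -- `g ≥ 0`
  have hnonneg : 0 ≤ ((m + 1 : ℕ) : ℤ) * ((gN L : ℤ) - 1) + 1 := by
    haveI := es1h_hasPrincipalDivisors_all (H := H) hL hML
    have hres := es1h_residue_bijective_all (H := H) hL hML
    -- a place exists
    haveI : NeZero L := ⟨hL⟩
    have h0 := hint 0
    obtain ⟨P₀⟩ := rh0_nonempty_place L M H a hL hML ha
    have h1 := Fermat.Agent.DEU.rr_finrank_le_degree_add_one hres P₀
      (0 : Divisor Kb ↥(fieldBar L M H)) (by simp)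
    rw [map_zero] at h0 h1
    linarith
  refine ⟨?_, fun 𝔞 => ?_⟩
  · rw [k7fGenus]
    exact Int.toNat_of_nonneg hnonneg
  · have h1 : ((k7fGenus L (m + 1) : ℕ) : ℤ) = ((m + 1 : ℕ) : ℤ) * ((gN L : ℤ) - 1) + 1 := by
      rw [k7fGenus]
      exact Int.toNat_of_nonneg hnonneg
    rw [h1]
    exact hint 𝔞

end Fermat.Agent.RT.K7F

end
end ZBRT_049_1

/-! ### bundled: `Fermat.Agent.RT.K7F.RH0GalStmt` -/
section ZBRT_049_2

/-!
# RT-K7F / FL-RH0: `stmtGalH : StmtGalH` (the diamond group, in the form consumed by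
`stmtRiemannH_of` of `RT/K7F/RH0App.lean`)
-/

set_option autoImplicit false

namespace Fermat.Agent.RT.K7F

attribute [local instance] rh0Algebra

/-- **RH0-GAL.** -/
theorem stmtGalH : StmtGalH :=
  fun L M H hL hML => k7fgal_exists L M H hL hML

end Fermat.Agent.RT.K7F


end ZBRT_049_2

/-! ### bundled: `Fermat.Agent.RT.K7F.RH0DvdH` -/
section ZBRT_049_3

/-!
# RT-K7F / FL-RH0, piece RH0-DVD, final form (helper51): `k7fdvd_stmtDvdH : StmtDvdH`

At all levels of K7-FLAT (`p` odd, `p ∤ L`, and `2 ∣ L` if `p = 3`): `y ∈ F_H`,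
`y ^ (p ^ k) = u ∈ F₀ = FF L` ⟹ `p ^ k ∣ ord_P u` at every place `P` of `F₀`.

For `p = 3`: `2 ∣ L`, so the Hauptmodul `h = hm2` of `X₀(2)` lies in `F₀` and
`j h² = (h + 256)³`; at a zero `P` of `j` this gives `ord_P h = 0` and
`ord_P j = 3 ord_P (h + 256)` (`k7fdvd_three_dvd`).
-/

set_option autoImplicit false
set_option linter.unusedSectionVars false
set_option linter.style.haveILetI false
set_option synthInstance.maxHeartbeats 400000
set_option maxHeartbeats 1600000

noncomputable section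

open AlgebraicCurve Module ModularCurve

namespace Fermat.Agent.RT.K7F

open Fermat.Agent.S24 Fermat.Agent.ES1 Fermat.Agent.ES Fermat.Agent.INJ

/-- `3 ∣ ord_P j` at every zero `P` of `j` on `X₀(L)`, `2 ∣ L`. -/
theorem k7fdvd_three_dvd (L : ℕ) [NeZero L] (h2 : 2 ∣ L) (P : Place Kb (FF L))
    (hP : 0 < P.ord (jF L)) : (3 : ℤ) ∣ P.ord (jF L) := by
  set h : FF L := ⟨hm2 Kb, hm2_mem L h2⟩ with hh
  set c : FF L := algebraMap Kb (FF L) 256 with hc
  have hrel : jF L * h ^ 2 = (h + c) ^ 3 := by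
    apply Subtype.ext
    show jBar * hm2 Kb ^ 2 = (hm2 Kb + algebraMap Kb (LaurentSeries Kb) 256) ^ 3
    rw [hmMem_jBar_eq, hm2_j, map_ofNat]
  have hc0 : c ≠ 0 := by
    rw [hc]
    simp
  have hcord : P.ord c = 0 := PlaceAux.ord_algebraMap P 256
  have hj0 : jF L ≠ 0 := by
    intro h0
    rw [h0] at hP
    simp at hP
  have hh0 : h ≠ 0 := by
    intro h0
    rw [h0] at hrel
    simp only [ne_eq, OfNat.ofNat_ne_zero, not_false_eq_true, zero_pow, mul_zero, zero_add] at hrel
    exact hc0 (pow_eq_zero_iff (by norm_num) |>.mp hrel.symm)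
  have hhc0 : h + c ≠ 0 := by
    intro h0
    rw [h0] at hrel
    simp only [ne_eq, OfNat.ofNat_ne_zero, not_false_eq_true, zero_pow] at hrel
    rcases mul_eq_zero.mp hrel with h1 | h1
    · exact hj0 h1
    · exact hh0 (pow_eq_zero_iff (by norm_num) |>.mp h1)
  have hord : P.ord (jF L) + 2 * P.ord h = 3 * P.ord (h + c) := by
    have := congrArg P.ord hrel
    rw [P.ord_mul hj0 (pow_ne_zero 2 hh0), ← zpow_natCast, ← zpow_natCast, P.ord_zpow,
      P.ord_zpow] at this
    push_cast at this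
    exact this
  -- `ord_P h = 0`
  have hh_ord : P.ord h = 0 := by
    rcases lt_trichotomy (P.ord h) 0 with hlt | heq | hgt
    · have e := PlaceAux.ord_add_eq_of_lt P hh0 hc0 (by rw [hcord]; exact hlt)
      rw [e] at hord
      omega
    · exact heq
    · have e := PlaceAux.ord_add_eq_of_lt P hc0 hh0 (by rw [hcord]; exact hgt)
      rw [add_comm c h, hcord] at e
      rw [e] at hord
      omega
  rw [hh_ord, mul_zero, add_zero] at hord
  exact ⟨_, hord⟩

/-- the hypothesis on `p` holds at all levels of K7-FLAT -/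
theorem k7fdvd_good_of_level {L M : ℕ} {H : Subgroup (ZMod M)ˣ} {p : ℕ}
    (hLv : K7FLevel L M H p) [NeZero L] : K7fdvdGood L p := by
  refine ⟨hLv.hp2, hLv.hpL, fun hp3 P hP => ?_⟩
  have h2 : 2 ∣ L := by
    rcases hLv.h5 with h | h
    · omega
    · rw [hp3] at h
      exact h
  exact k7fdvd_three_dvd L h2 P hP

/-- **RH0-DVD**: the Kummer generators of `F_H / F₀` have divisors divisible by `p ^ k`. -/
theorem k7fdvd_stmtDvdH : StmtDvdH := by
  intro L M H p hLv k u y hy hyu P
  have hL : L ≠ 0 := by have := hLv.hL; omega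
  haveI : NeZero L := ⟨hL⟩
  have hy0 : (⟨y, hy⟩ : fieldBar L M H) ≠ 0 ∨ (⟨y, hy⟩ : fieldBar L M H) = 0 :=
    (em _).symm
  rcases hy0 with hy0 | hy0
  · exact k7fdvd_main_gen hLv.hML hLv.hp (k7fdvd_good_of_level hLv) k ⟨y, hy⟩ hy0 u hyu P
  · -- `y = 0`, so `u = 0`
    have hy' : y = 0 := congrArg Subtype.val hy0
    have hu : u = 0 := by
      apply Subtype.ext
      rw [← hyu, hy', zero_pow (pow_ne_zero k hLv.hp.ne_zero)]
      rfl
    rw [hu, Place.ord_zero]
    exact dvd_zero _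

end Fermat.Agent.RT.K7F

end
end ZBRT_049_3

/-! ### bundled: `Fermat.Agent.RT.K7F.RH0Final` -/
section ZBRT_049_4

/-!
# RT-K7F / FL-RH0, final form (helper51): Riemann's inequality for `F_H`, unconditionally

`k7fdvd_riemannH : StmtRiemannH`, from the assembly `stmtRiemannH_of` (helper34), `stmtGalH`
(RH0-GAL, helper11) and `k7fdvd_stmtDvdH` (RH0-DVD).  `stmtRiemannH` is the same theorem under
the name announced in NOTES/RT-K7F.md.
-/

set_option autoImplicit false

namespace Fermat.Agent.RT.K7F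

/-- **FL-RH0**: Riemann's inequality for `F_H = fieldBar L M H` with the sharp constant
`g = 1 + d (g₀ - 1)`, at all levels of K7-FLAT. -/
theorem k7fdvd_riemannH : StmtRiemannH :=
  stmtRiemannH_of stmtGalH k7fdvd_stmtDvdH

/-- **FL-RH0** (alias of `k7fdvd_riemannH`). -/
theorem stmtRiemannH : StmtRiemannH := k7fdvd_riemannH

end Fermat.Agent.RT.K7F


end ZBRT_049_4
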