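/- GENERATED FILE (helper35, build-time optimisation, NOTES/ZB.md): verbatim concatenation of the modules
   Fermat.Agent.RT.K7F.AnchCore
   Fermat.Agent.RT.K7F.AnchGen
   Do not edit; do not import together with these modules. -/
import Fermat.Agent.ZB.DEU_001
import Fermat.Agent.ZB.S18_001
import Fermat.Agent.ZB.ES_020
import Fermat.Agent.ZB.S24_012
import Fermat.Agent.ZB.S24_001

/-! ### bundled: `Fermat.Agent.RT.K7F.AnchCore` -/
section ZBRT_051_0

/-!
# RT-K7F, piece FL-ANCH — generic core: (h0) for a cover, from (h0) of the base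

`E₀ ≤ E ⊂ k((q))` fields, `σ_i : E → k((q))` a finite family of `k`-embeddings ("conjugates") whose
elementary symmetric functions lie in `E₀`, one of them (`i₀`) being the inclusion.
`R₀ = k[G]`, `G ⊂ E` a set of functions whose conjugates are integral over a `k`-algebra `S₀`
and, for the conjugates `≠` inclusion, are POWER SERIES (no pole at `q = 0`).

If the elements of `E₀` integral over `S₀` with `q`-order `≥ 0` are constants (this is (h0) for
the base curve), then the elements of `E` integral over `R₀` with `q`-order `≥ 0` are constants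
(`k7fanch_h0`): this is the hypothesis (h0) of `DEU.deuAnchor_regular` for the cover.
-/

set_option autoImplicit false
set_option synthInstance.maxHeartbeats 400000
set_option maxHeartbeats 1000000

noncomputable section

namespace Fermat.Agent.RT.K7F

open Polynomial WithZero

/-! ## power series inside Laurent series -/

theorem k7fanch_v_le_one_iff {k : Type*} [Field k] (x : LaurentSeries k) :
    (Valued.v x : ℤᵐ⁰) ≤ 1 ↔ ∀ n : ℤ, n < 0 → x.coeff n = 0 := by
  have h := LaurentSeries.valuation_le_iff_coeff_lt_eq_zero (K := k) (D := 0) (f := x)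
  simpa using h

/-- the Laurent series without negative coefficients, as a `k`-subalgebra -/
def k7fanch_ps (k : Type*) [Field k] : Subalgebra k (LaurentSeries k) where
  carrier := {x | ∀ n : ℤ, n < 0 → x.coeff n = 0}
  mul_mem' := by
    intro a b ha hb
    have ha' : (Valued.v a : ℤᵐ⁰) ≤ 1 := (k7fanch_v_le_one_iff a).mpr ha
    have hb' : (Valued.v b : ℤᵐ⁰) ≤ 1 := (k7fanch_v_le_one_iff b).mpr hb
    have hab : (Valued.v (a * b) : ℤᵐ⁰) ≤ 1 := by
      rw [map_mul]
      exact mul_le_one' ha' hb'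
    exact (k7fanch_v_le_one_iff (a * b)).mp hab
  add_mem' := by
    intro a b ha hb n hn
    rw [HahnSeries.coeff_add, ha n hn, hb n hn, add_zero]
  algebraMap_mem' := by
    intro c n hn
    rw [LaurentSeries.algebraMap_apply, HahnSeries.C_apply,
      HahnSeries.coeff_single_of_ne hn.ne]

variable {k : Type*} [Field k]

theorem k7fanch_mem_ps {x : LaurentSeries k} :
    x ∈ k7fanch_ps k ↔ ∀ n : ℤ, n < 0 → x.coeff n = 0 := Iff.rfl

theorem k7fanch_mem_ps_iff_v {x : LaurentSeries k} :
    x ∈ k7fanch_ps k ↔ (Valued.v x : ℤᵐ⁰) ≤ 1 :=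
  (k7fanch_v_le_one_iff x).symm

theorem k7fanch_mem_ps_of_order {x : LaurentSeries k} (hx : 0 ≤ x.order) :
    x ∈ k7fanch_ps k := fun _ hn =>
  HahnSeries.coeff_eq_zero_of_lt_order (lt_of_lt_of_le hn hx)

theorem k7fanch_order_of_mem_ps {x : LaurentSeries k} (hx : x ∈ k7fanch_ps k) :
    0 ≤ x.order := by
  rcases eq_or_ne x 0 with rfl | h0
  · simp
  · by_contra hlt
    rw [not_le] at hlt
    exact h0 (HahnSeries.coeff_order_eq_zero.1 (hx _ hlt))

/-- `k[[q]]` is integrally closed in `k((q))` -/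
theorem k7fanch_ps_closed {x : LaurentSeries k} (hx : IsIntegral (k7fanch_ps k) x) :
    x ∈ k7fanch_ps k := by
  rw [k7fanch_mem_ps_iff_v]
  let v : Valuation (LaurentSeries k) ℤᵐ⁰ := Valued.v
  let φ : k7fanch_ps k →+* v.integer :=
    { toFun := fun c => ⟨(c : LaurentSeries k), k7fanch_mem_ps_iff_v.mp c.2⟩
      map_one' := rfl
      map_mul' := fun _ _ => rfl
      map_zero' := rfl
      map_add' := fun _ _ => rfl }
  have hint : IsIntegral v.integer x := by
    obtain ⟨p, hp, hpx⟩ := hx
    refine ⟨p.map φ, hp.map _, ?_⟩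
    rw [Polynomial.eval₂_map]
    exact hpx
  exact (Valuation.integer.integers v).mem_of_integral hint

/-- the integral closure of a subalgebra, as a `k`-subalgebra of `k((q))` -/
def k7fanch_ic (S₀ : Subalgebra k (LaurentSeries k)) : Subalgebra k (LaurentSeries k) :=
  (integralClosure S₀ (LaurentSeries k)).restrictScalars k

theorem k7fanch_mem_ic {S₀ : Subalgebra k (LaurentSeries k)} {x : LaurentSeries k} :
    x ∈ k7fanch_ic S₀ ↔ IsIntegral S₀ x := Iff.rfl

/-- the integral closure is integrally closed -/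
theorem k7fanch_ic_closed {S₀ : Subalgebra k (LaurentSeries k)} {x : LaurentSeries k}
    (hx : IsIntegral (k7fanch_ic S₀) x) : x ∈ k7fanch_ic S₀ := by
  rw [k7fanch_mem_ic]
  have h1 : IsIntegral (integralClosure S₀ (LaurentSeries k)) x := by
    obtain ⟨p, hp, hpx⟩ := hx
    let φ : k7fanch_ic S₀ →+* integralClosure S₀ (LaurentSeries k) :=
      { toFun := fun c => ⟨(c : LaurentSeries k), c.2⟩
        map_one' := rfl
        map_mul' := fun _ _ => rfl
        map_zero' := rfl
        map_add' := fun _ _ => rfl }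
    refine ⟨p.map φ, hp.map _, ?_⟩
    rw [Polynomial.eval₂_map]
    exact hpx
  exact isIntegral_trans x h1

/-! ## transport of integrality along an embedding -/

section Transport

variable (E : IntermediateField k (LaurentSeries k)) (G : Set (LaurentSeries k))
  (hGE : ∀ y ∈ G, y ∈ E) (τ : E →ₐ[k] LaurentSeries k) (B : Subalgebra k (LaurentSeries k))

include hGE in
/-- `k[G] ⊆ E` and `τ (k[G]) ⊆ B` -/
theorem k7fanch_adjoin_mem (hG : ∀ y (hy : y ∈ G), τ ⟨y, hGE y hy⟩ ∈ B)
    (c : LaurentSeries k) (hc : c ∈ Algebra.adjoin k G) : ∃ h : c ∈ E, τ ⟨c, h⟩ ∈ B := by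
  induction hc using Algebra.adjoin_induction with
  | mem y hy => exact ⟨hGE y hy, hG y hy⟩
  | algebraMap r =>
    refine ⟨E.algebraMap_mem r, ?_⟩
    have : (⟨algebraMap k (LaurentSeries k) r, E.algebraMap_mem r⟩ : E) = algebraMap k E r := rfl
    rw [this, τ.commutes]
    exact B.algebraMap_mem r
  | add y z _ _ hy hz =>
    obtain ⟨hyE, hy⟩ := hy
    obtain ⟨hzE, hz⟩ := hz
    refine ⟨E.add_mem hyE hzE, ?_⟩
    have : (⟨y + z, E.add_mem hyE hzE⟩ : E) = ⟨y, hyE⟩ + ⟨z, hzE⟩ := rfl
    rw [this, map_add]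
    exact B.add_mem hy hz
  | mul y z _ _ hy hz =>
    obtain ⟨hyE, hy⟩ := hy
    obtain ⟨hzE, hz⟩ := hz
    refine ⟨E.mul_mem hyE hzE, ?_⟩
    have : (⟨y * z, E.mul_mem hyE hzE⟩ : E) = ⟨y, hyE⟩ * ⟨z, hzE⟩ := rfl
    rw [this, map_mul]
    exact B.mul_mem hy hz

include hGE in
/-- **transport**: if `B` is integrally closed in `k((q))` and `τ G ⊆ B`, then `τ x ∈ B` for every
`x ∈ E` integral over `k[G]` -/
theorem k7fanch_transport (hB : ∀ x : LaurentSeries k, IsIntegral B x → x ∈ B)
    (hG : ∀ y (hy : y ∈ G), τ ⟨y, hGE y hy⟩ ∈ B)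
    (x : E) (hx : IsIntegral (Algebra.adjoin k G) (x : LaurentSeries k)) : τ x ∈ B := by
  apply hB
  have hmem := k7fanch_adjoin_mem E G hGE τ B hG
  let ψ : Algebra.adjoin k G →+* B :=
    { toFun := fun c => ⟨τ ⟨(c : LaurentSeries k), (hmem c c.2).1⟩, (hmem c c.2).2⟩
      map_one' := by
        apply Subtype.ext
        show τ ⟨(1 : LaurentSeries k), _⟩ = 1
        have : (⟨(1 : LaurentSeries k), (hmem 1 (one_mem _)).1⟩ : E) = 1 := rfl
        rw [this, map_one]
      map_mul' := fun a b => by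
        apply Subtype.ext
        show τ ⟨(a : LaurentSeries k) * (b : LaurentSeries k), _⟩ = τ ⟨_, _⟩ * τ ⟨_, _⟩
        rw [← map_mul]
        rfl
      map_zero' := by
        apply Subtype.ext
        show τ ⟨(0 : LaurentSeries k), _⟩ = 0
        have : (⟨(0 : LaurentSeries k), (hmem 0 (zero_mem _)).1⟩ : E) = 0 := rfl
        rw [this, map_zero]
      map_add' := fun a b => by
        apply Subtype.ext
        show τ ⟨(a : LaurentSeries k) + (b : LaurentSeries k), _⟩ = τ ⟨_, _⟩ + τ ⟨_, _⟩
        rw [← map_add]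
        rfl }
  let incl : Algebra.adjoin k G →+* E :=
    { toFun := fun c => ⟨(c : LaurentSeries k), (hmem c c.2).1⟩
      map_one' := rfl
      map_mul' := fun _ _ => rfl
      map_zero' := rfl
      map_add' := fun _ _ => rfl }
  obtain ⟨p, hp, hpx⟩ := hx
  refine ⟨p.map ψ, hp.map _, ?_⟩
  rw [Polynomial.eval₂_map]
  have h2 : (algebraMap B (LaurentSeries k)).comp ψ = (τ : E →+* LaurentSeries k).comp incl := rfl
  rw [h2]
  have h3 := Polynomial.hom_eval₂ p incl (τ : E →+* LaurentSeries k) x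
  have h4 : Polynomial.eval₂ incl x p = 0 := by
    apply Subtype.ext
    have h5 := Polynomial.hom_eval₂ p incl (algebraMap E (LaurentSeries k)) x
    have h6 : (algebraMap E (LaurentSeries k)).comp incl =
        algebraMap (Algebra.adjoin k G) (LaurentSeries k) := rfl
    rw [h6] at h5
    show algebraMap E (LaurentSeries k) (Polynomial.eval₂ incl x p) = 0
    rw [h5]
    exact hpx
  rw [h4, map_zero] at h3
  exact h3.symm

end Transport

/-! ## the core -/

section Core

variable (E E₀ : IntermediateField k (LaurentSeries k)) {ι : Type*} [Fintype ι]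
  (σ : ι → (E →ₐ[k] LaurentSeries k))

/-- the characteristic polynomial of `x` with respect to the conjugates `σ` -/
def k7fanch_charpoly (x : E) : (LaurentSeries k)[X] := ∏ i, (X - C (σ i x))

theorem k7fanch_charpoly_monic (x : E) : (k7fanch_charpoly E σ x).Monic :=
  monic_prod_of_monic _ _ fun i _ => monic_X_sub_C (σ i x)

theorem k7fanch_charpoly_root (x : E) (i₀ : ι) (hi₀ : σ i₀ x = (x : LaurentSeries k)) :
    (k7fanch_charpoly E σ x).eval (x : LaurentSeries k) = 0 := by
  rw [k7fanch_charpoly, Polynomial.eval_prod]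
  refine Finset.prod_eq_zero (Finset.mem_univ i₀) ?_
  rw [Polynomial.eval_sub, Polynomial.eval_X, Polynomial.eval_C, hi₀, sub_self]

/-- the coefficients of the characteristic polynomial lie in every subalgebra containing the
conjugates -/
theorem k7fanch_charpoly_coeff_mem (B : Subalgebra k (LaurentSeries k)) (x : E)
    (hx : ∀ i, σ i x ∈ B) (n : ℕ) : (k7fanch_charpoly E σ x).coeff n ∈ B := by
  have h : k7fanch_charpoly E σ x =
      (∏ i, (X - C (⟨σ i x, hx i⟩ : B))).map (algebraMap B (LaurentSeries k)) := by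
    rw [k7fanch_charpoly, Polynomial.map_prod]
    refine Finset.prod_congr rfl fun i _ => ?_
    rw [Polynomial.map_sub, Polynomial.map_X, Polynomial.map_C]
    rfl
  rw [h, Polynomial.coeff_map]
  exact Subtype.prop _

/-- **FL-ANCH core: (h0) for the cover.** -/
theorem k7fanch_h0 (i₀ : ι) (hi₀ : ∀ x : E, σ i₀ x = (x : LaurentSeries k))
    (hsym : ∀ (x : E) (n : ℕ), (k7fanch_charpoly E σ x).coeff n ∈ E₀)
    (S₀ : Subalgebra k (LaurentSeries k))
    (h0₀ : ∀ x ∈ E₀, IsIntegral S₀ x → 0 ≤ x.order →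
      x ∈ Set.range (algebraMap k (LaurentSeries k)))
    (G : Set (LaurentSeries k)) (hGE : ∀ y ∈ G, y ∈ E)
    (hG_int : ∀ y (hy : y ∈ G) (i : ι), IsIntegral S₀ (σ i ⟨y, hGE y hy⟩))
    (hG_ps : ∀ i : ι, (∀ x : E, σ i x = (x : LaurentSeries k)) ∨
      ∀ y (hy : y ∈ G), σ i ⟨y, hGE y hy⟩ ∈ k7fanch_ps k)
    (halgc : ∀ x : E, IsAlgebraic k x →
      (x : LaurentSeries k) ∈ Set.range (algebraMap k (LaurentSeries k)))
    (x : LaurentSeries k) (hxE : x ∈ E) (hx : IsIntegral (Algebra.adjoin k G) x)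
    (hord : 0 ≤ x.order) : x ∈ Set.range (algebraMap k (LaurentSeries k)) := by
  classical
  set x' : E := ⟨x, hxE⟩ with hx'
  -- all conjugates are integral over `S₀`
  have hint : ∀ i, σ i x' ∈ k7fanch_ic S₀ := fun i =>
    k7fanch_transport E G hGE (σ i) (k7fanch_ic S₀) (fun _ h => k7fanch_ic_closed h)
      (fun y hy => hG_int y hy i) x' hx
  -- all conjugates are power series
  have hps : ∀ i, σ i x' ∈ k7fanch_ps k := by
    intro i
    rcases hG_ps i with h | h
    · rw [h x']
      exact k7fanch_mem_ps_of_order hord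
    · exact k7fanch_transport E G hGE (σ i) (k7fanch_ps k) (fun _ h => k7fanch_ps_closed h) h x' hx
  -- the coefficients of the characteristic polynomial are constants
  have hcoef : ∀ n : ℕ, (k7fanch_charpoly E σ x').coeff n ∈
      Set.range (algebraMap k (LaurentSeries k)) := by
    intro n
    refine h0₀ _ (hsym x' n) ?_ ?_
    · exact k7fanch_charpoly_coeff_mem E σ (k7fanch_ic S₀) x' hint n
    · exact k7fanch_order_of_mem_ps (k7fanch_charpoly_coeff_mem E σ (k7fanch_ps k) x' hps n)
  have hlift : k7fanch_charpoly E σ x' ∈ Polynomial.lifts (algebraMap k (LaurentSeries k)) := by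
    rw [Polynomial.lifts_iff_coeff_lifts]
    intro n
    exact hcoef n
  obtain ⟨p₀, hp₀, -, hmonic⟩ :=
    Polynomial.lifts_and_degree_eq_and_monic hlift (k7fanch_charpoly_monic E σ x')
  have hroot : Polynomial.aeval (x' : LaurentSeries k) p₀ = 0 := by
    rw [Polynomial.aeval_def, ← Polynomial.eval_map, hp₀]
    exact k7fanch_charpoly_root E σ x' i₀ (hi₀ x')
  have halg : IsAlgebraic k x' := by
    refine ⟨p₀, hmonic.ne_zero, ?_⟩
    apply Subtype.ext
    have h := Polynomial.aeval_algHom_apply E.val x' p₀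
    have h' : (E.val (Polynomial.aeval x' p₀) : LaurentSeries k) = 0 := by
      rw [← h]
      exact hroot
    exact h'
  exact halgc x' halg

end Core

end Fermat.Agent.RT.K7F

end
end ZBRT_051_0

/-! ### bundled: `Fermat.Agent.RT.K7F.AnchGen` -/
section ZBRT_051_1

/-!
# RT-K7F, piece FL-ANCH — the generic anchor

`F ⊂ K((q))`, `Fb ⊂ k((q))` fields, `R : RedData K F k Fb` a constant reduction, `Pinf`, `Qinf`
places of `F`, `Fb`, the order function of `Qinf` being the `q`-order.

`k7fanchG R Pinf` : the reductions of the functions of `R.O` which are regular outside `Pinf`.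

`k7fanch_anchor_gen` : if
* (h0) the elements of `Fb` integral over `k[k7fanchG]` of `q`-order `≥ 0` are constants,
* (ord) the reduction of `f ∈ L(m·Pinf) ∩ O` has no coefficient below `-m`,
* some element of `k7fanchG` is not constant, and `Fb` has transcendence degree one,
then `R.redSpace (L(m·Pinf)) ≤ L(m·Qinf)`.
-/

set_option autoImplicit false
set_option synthInstance.maxHeartbeats 400000
set_option maxHeartbeats 1000000

noncomputable section

namespace Fermat.Agent.RT.K7F

open AlgebraicCurve Polynomial IntermediateField Fermat.Agent.DEU Fermat.Agent.S24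

section Gen

variable {K k : Type*} [Field K] [Field k]
  {F : IntermediateField K (LaurentSeries K)} {Fb : IntermediateField k (LaurentSeries k)}
  (R : RedData K F k Fb) (Pinf : Place K F) (Qinf : Place k Fb)

/-- the reductions of the functions of `R.O` which are regular outside `Pinf` -/
def k7fanchG : Set (LaurentSeries k) :=
  {w | ∃ f : R.O, (∀ P : Place K F, P ≠ Pinf → 0 ≤ P.ord (f : F)) ∧
    ((R.red f : Fb) : LaurentSeries k) = w}

theorem k7fanchG_le {w : LaurentSeries k} (hw : w ∈ k7fanchG R Pinf) : w ∈ Fb := by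
  obtain ⟨f, -, rfl⟩ := hw
  exact (R.red f).2

/-- a function of `L(m·Pinf)` is regular outside `Pinf` -/
theorem k7fanch_regular_of_mem {m : ℤ} {f : F}
    (hf : f ∈ riemannRochSpace (mulPlace Pinf m)) (P : Place K F) (hP : P ≠ Pinf) :
    0 ≤ P.ord f := by
  classical
  rw [mem_riemannRochSpace_iff] at hf
  rcases hf P with h | h
  · rw [h, Place.ord_zero]
  · rw [mulPlace, Finsupp.single_apply, if_neg (Ne.symm hP)] at h
    simpa using h

/-- `Fb` is algebraic over `k(w₀)` for every nonconstant `w₀`, if it is algebraic over `k(t)` for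
one `t` and the algebraic elements are constants -/
theorem k7fanch_halg (t : Fb) [Algebra.IsAlgebraic k⟮t⟯ Fb]
    (halgc : ∀ x : Fb, IsAlgebraic k x →
      (x : LaurentSeries k) ∈ Set.range (algebraMap k (LaurentSeries k)))
    (w₀ : LaurentSeries k) (hw₀E : w₀ ∈ Fb)
    (hw₀c : w₀ ∉ Set.range (algebraMap k (LaurentSeries k))) :
    Algebra.IsAlgebraic (IntermediateField.adjoin k {(⟨w₀, hw₀E⟩ : Fb)}) Fb := by
  have hw : Transcendental k (⟨w₀, hw₀E⟩ : Fb) := fun halg => hw₀c (halgc _ halg)
  have ht : Transcendental k t := by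
    intro halg
    -- then `Fb` is algebraic over `k`, so `w₀` is algebraic
    apply hw
    haveI : Algebra.IsAlgebraic k k⟮t⟯ :=
      (IntermediateField.isAlgebraic_adjoin_simple halg.isIntegral)
    exact (Algebra.IsAlgebraic.trans k k⟮t⟯ Fb).isAlgebraic _
  exact pd_isAlgebraic_adjoin_of_transcendental t ht _ hw

/-- **FL-ANCH, generic.** -/
theorem k7fanch_anchor_gen
    (hQ : ∀ x : Fb, x ≠ 0 → Qinf.ord x = (x : LaurentSeries k).order)
    (h0 : ∀ x ∈ Fb, IsIntegral (Algebra.adjoin k (k7fanchG R Pinf)) x → 0 ≤ x.order →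
      x ∈ Set.range (algebraMap k (LaurentSeries k)))
    (hord : ∀ (m : ℕ) (f : R.O), (f : F) ∈ riemannRochSpace (mulPlace Pinf (m : ℤ)) →
      ∀ j : ℤ, j < -(m : ℤ) → ((R.red f : Fb) : LaurentSeries k).coeff j = 0)
    (w₀ : LaurentSeries k) (hw₀ : w₀ ∈ k7fanchG R Pinf)
    (hw₀c : w₀ ∉ Set.range (algebraMap k (LaurentSeries k)))
    (t : Fb) [Algebra.IsAlgebraic k⟮t⟯ Fb]
    (halgc : ∀ x : Fb, IsAlgebraic k x →
      (x : LaurentSeries k) ∈ Set.range (algebraMap k (LaurentSeries k)))
    (m : ℕ) :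
    R.redSpace (riemannRochSpace (mulPlace Pinf (m : ℤ))) ≤
      riemannRochSpace (mulPlace Qinf (m : ℤ)) := by
  classical
  rintro _ ⟨f, hfV, rfl⟩
  have hw₀E : w₀ ∈ Fb := k7fanchG_le R Pinf hw₀
  have hmem : ((R.red f : Fb) : LaurentSeries k) ∈ k7fanchG R Pinf :=
    ⟨f, fun P hP => k7fanch_regular_of_mem Pinf hfV P hP, rfl⟩
  rw [mem_riemannRochSpace_iff]
  intro v
  by_cases h0' : R.red f = 0
  · exact Or.inl h0'
  right
  by_cases hv : v = Qinf
  · rw [hv, mulPlace, Finsupp.single_apply, if_pos rfl, hQ _ h0']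
    by_contra hlt
    push Not at hlt
    have h0'' : ((R.red f : Fb) : LaurentSeries k) ≠ 0 := fun h => h0' (Subtype.ext h)
    exact h0'' (HahnSeries.coeff_order_eq_zero.1 (hord m f hfV _ hlt))
  · rw [mulPlace, Finsupp.single_apply, if_neg (Ne.symm hv), neg_zero]
    have hint : IsIntegral (Algebra.adjoin k (k7fanchG R Pinf))
        ((R.red f : Fb) : LaurentSeries k) :=
      isIntegral_algebraMap (R := Algebra.adjoin k (k7fanchG R Pinf))
        (x := ⟨_, Algebra.subset_adjoin hmem⟩)
    exact deuAnchor_regular Qinf hQ (Algebra.adjoin k (k7fanchG R Pinf)) h0 w₀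
      (Algebra.subset_adjoin hw₀) hw₀E (k7fanch_halg t halgc w₀ hw₀E hw₀c) _ (R.red f).2 hint v hv

/-- **a nonconstant element of `k7fanchG`** (Riemann + Q2) -/
theorem k7fanch_exists_w0
    (hresF : ∀ v : Place K F, Function.Bijective (algebraMap K v.ResidueField))
    (g : ℕ)
    (hriem : ∀ 𝔞 : Divisor K F,
      Divisor.degree 𝔞 + 1 - g ≤ (Module.finrank K ↥(riemannRochSpace 𝔞) : ℤ))
    (hfin : ∀ 𝔞 : Divisor K F, Module.Finite K ↥(riemannRochSpace 𝔞))
    (hq2 : ∀ V : Submodule K F, Module.Finite K V →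
      Module.finrank K V ≤ Module.finrank k ↥(R.redSpace V)) :
    ∃ w₀ ∈ k7fanchG R Pinf, w₀ ∉ Set.range (algebraMap k (LaurentSeries k)) := by
  classical
  set D : Divisor K F := mulPlace Pinf ((g + 1 : ℕ) : ℤ) with hD
  have hDdeg : Divisor.degree D = (g : ℤ) + 1 := by
    rw [hD, degree_mulPlace hresF]
    push_cast
    ring
  have h2 : 2 ≤ Module.finrank K ↥(riemannRochSpace D) := by
    have := hriem D
    rw [hDdeg] at this
    have h3 : (2 : ℤ) ≤ (Module.finrank K ↥(riemannRochSpace D) : ℤ) := by linarith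
    exact_mod_cast h3
  have h3 : 2 ≤ Module.finrank k ↥(R.redSpace (riemannRochSpace D)) :=
    h2.trans (hq2 _ (hfin D))
  by_contra hno
  push Not at hno
  -- then `redSpace ≤ span {1}`
  have hle : R.redSpace (riemannRochSpace D) ≤ Submodule.span k {(1 : Fb)} := by
    rintro _ ⟨f, hfV, rfl⟩
    have hmem : ((R.red f : Fb) : LaurentSeries k) ∈ k7fanchG R Pinf :=
      ⟨f, fun P hP => k7fanch_regular_of_mem Pinf hfV P hP, rfl⟩
    obtain ⟨c, hc⟩ := hno _ hmem
    rw [Submodule.mem_span_singleton]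
    refine ⟨c, ?_⟩
    apply Subtype.ext
    rw [← hc, Algebra.smul_def, mul_one]
    rfl
  have h4 : Module.finrank k ↥(R.redSpace (riemannRochSpace D)) ≤ 1 := by
    refine (Submodule.finrank_mono hle).trans ?_
    exact (finrank_span_le_card ({(1 : Fb)} : Set Fb)).trans (by simp)
  omega

end Gen

end Fermat.Agent.RT.K7F

end
end ZBRT_051_1
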