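/- GENERATED FILE (helper35, build-time optimisation, NOTES/ZB.md): verbatim concatenation of the modules
   Fermat.Agent.RT.K7F.AnchDiam
   Do not edit; do not import together with these modules. -/
import Fermat.Agent.ZB.ES1_010
import Fermat.Agent.ZB.ES1_007
import Fermat.Agent.ZB.ES1_002
import Fermat.Agent.ZB.S28_002

/-! ### bundled: `Fermat.Agent.RT.K7F.AnchDiam` -/
section ZBRT_052_0

/-!
# RT-K7F, piece FL-ANCH — the diamonds of `F_H` (characteristic `0`)

* `k7fanch_ord_apply` : `ord_P (σ f) = ord_{σ⁻¹ P} f`;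
* `k7fanch_prod_coeff_mem`, `k7fanch_coeff_fixed` : coefficients of `∏ (X - δ_i f)`;
* `k7fanch_mem_bar_of_fixed` : an element of `F_H` fixed by all diamonds lies in `F₀ = FF L`
  (from `RT.K6.rtk6d0_mem_full_of_fixed`);
* `k7fanch_diam_mul` : `δ_c ∘ δ_{c'} = δ_{c c'}` for any choice of the diamonds;
* `k7fanch_diam_eq_one` : `δ_c = 1` for `c ∈ ±H`;
* `k7fanch_diam_moves` : for `c ∉ ±H` the diamond `δ_c` moves the cusp `∞`.
-/

set_option autoImplicit false
set_option linter.unusedSectionVars false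
set_option linter.style.haveILetI false
set_option synthInstance.maxHeartbeats 400000
set_option maxHeartbeats 1600000

noncomputable section

namespace Fermat.Agent.RT.K7F

open AlgebraicCurve Polynomial ModularCurve
open Fermat.Agent.ES Fermat.Agent.S24 Fermat.Agent.ES1 Fermat.Agent.ES1.G2
  Fermat.Agent.RT.K6

/-! ## 1. generic lemmas -/

section Aut

variable {K F : Type*} [Field K] [Field F] [Algebra K F]

/-- `ord_P (σ f) = ord_{σ⁻¹ P} f` -/
theorem k7fanch_ord_apply (σ : F ≃ₐ[K] F) (P : Place K F) (f : F) :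
    P.ord (σ f) = (σ⁻¹ • P).ord f := by
  have h := Place.ord_smul σ⁻¹ P (σ f)
  rw [← h]
  congr 1
  exact (σ.symm_apply_apply f).symm ▸ rfl

/-- a function regular outside `Pinf`, moved by `σ`, is regular at `P` if `σ⁻¹ P ≠ Pinf` -/
theorem k7fanch_regular_apply (σ : F ≃ₐ[K] F) (Pinf : Place K F) (Y : F)
    (hY : ∀ P : Place K F, P ≠ Pinf → 0 ≤ P.ord Y) (P : Place K F) (hP : σ⁻¹ • P ≠ Pinf) :
    0 ≤ P.ord (σ Y) := by
  rw [k7fanch_ord_apply]
  exact hY _ hP

end Aut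

section Coeff

/-- the coefficients of `∏ (X - a_i)` lie in every subring containing the `a_i` -/
theorem k7fanch_prod_coeff_mem {R : Type*} [CommRing R] (S : Subring R) {ι : Type*} [Fintype ι]
    (a : ι → R) (ha : ∀ i, a i ∈ S) (n : ℕ) : (∏ i, (X - C (a i))).coeff n ∈ S := by
  have h : (∏ i, (X - C (a i))) = (∏ i, (X - C (⟨a i, ha i⟩ : S))).map S.subtype := by
    rw [Polynomial.map_prod]
    refine Finset.prod_congr rfl fun i _ => ?_
    rw [Polynomial.map_sub, Polynomial.map_X, Polynomial.map_C]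
    rfl
  rw [h, Polynomial.coeff_map]
  exact Subtype.prop _

/-- the coefficients of `∏_i (X - δ_i f)` are fixed by the `δ_j` -/
theorem k7fanch_coeff_fixed {K F : Type*} [Field K] [Field F] [Algebra K F]
    {G : Type*} [Group G] [Fintype G]
    (δ : G → (F ≃ₐ[K] F)) (hmul : ∀ i j x, δ i (δ j x) = δ (i * j) x) (f : F) (j : G) (n : ℕ) :
    δ j ((∏ i, (X - C (δ i f))).coeff n) = (∏ i, (X - C (δ i f))).coeff n := by
  have h1 : (∏ i, (X - C (δ i f))).map (δ j : F →+* F) = ∏ i, (X - C (δ i f)) := by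
    rw [Polynomial.map_prod, ← Equiv.prod_comp (Equiv.mulLeft j) (fun i => X - C (δ i f))]
    refine Finset.prod_congr rfl fun i _ => ?_
    rw [Polynomial.map_sub, Polynomial.map_X, Polynomial.map_C]
    congr 2
    exact hmul j i f
  have h2 := congrArg (fun p => p.coeff n) h1
  simp only [Polynomial.coeff_map] at h2
  exact h2

end Coeff

/-! ## 2. the invariants of the diamonds in characteristic `0` -/

section Inv

variable (L M : ℕ) [NeZero M] (H : Subgroup (ZMod M)ˣ)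

/-- `ℚ̄ / ℚ` is algebraic (for the instance of `Algebra ℚ ℚ̄` found by unification) -/
theorem k7fanch_qbar_isAlgebraic : Algebra.IsAlgebraic ℚ Kb := by
  have h1 : @Algebra.IsAlgebraic ℚ (AlgebraicClosure ℚ) _ _ (AlgebraicClosure.instAlgebra ℚ) :=
    inferInstance
  convert h1
  exact Subsingleton.elim _ _

/-- the two clauses of `IsDiamondH`, for a general intermediate field -/
def K7fanchIsDiam (F : IntermediateField Kb (LaurentSeries Kb)) (c : (ZMod M)ˣ)
    (σ : F ≃ₐ[Kb] F) : Prop :=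
  (∀ (d : ℕ) [NeZero d], d ∣ L → ∀ x : F,
    (x : LaurentSeries Kb) = qExpand Kb d (jqModC Kb) → σ x = x) ∧
  (∀ (e : ℕ) [NeZero e] (a : (ZMod M)ˣ), e * M ∣ L → ∀ x : F,
    (x : LaurentSeries Kb) = qExpand Kb e (sS Kb M H a) →
      ((σ x : F) : LaurentSeries Kb) = qExpand Kb e (sS Kb M H (a * c)))

theorem k7fanch_isDiam_of_C {c : (ZMod M)ˣ} {σ : fieldC Kb L M H ≃ₐ[Kb] fieldC Kb L M H}
    (hσ : IsDiamondC Kb L M H c σ) : K7fanchIsDiam L M H (fieldC Kb L M H) c σ := by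
  refine ⟨?_, ?_⟩
  · intro d _ hd y hy
    exact hσ.fix y (by rw [hy]; exact jqModCd_mem_full Kb L hd)
  · intro e _ a he y hy
    have h1 := hσ.map_s e he a
    have h2 : y = ⟨qExpand Kb e (sS Kb M H a), qExpand_sS_mem Kb L M H he a⟩ := Subtype.ext hy
    rw [h2]
    exact h1

theorem k7fanch_inv_aux (F : IntermediateField Kb (LaurentSeries Kb))
    (hF : F = fieldC Kb L M H) (hL : L ≠ 0) (hML : M ∣ L) (x : F)
    (hfix : ∀ (c : (ZMod M)ˣ) (σ : F ≃ₐ[Kb] F), K7fanchIsDiam L M H F c σ → σ x = x) :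
    (x : LaurentSeries Kb) ∈ modularFunctionFieldFullC Kb L := by
  subst hF
  haveI : Algebra.IsAlgebraic ℚ Kb := k7fanch_qbar_isAlgebraic
  exact rtk6d0_mem_full_of_fixed Kb H hL hML x
    (fun c σ hσ => hfix c σ (k7fanch_isDiam_of_C L M H hσ))

theorem k7fanch_fix_aux (F : IntermediateField Kb (LaurentSeries Kb))
    (hF : F = fieldC Kb L M H) (hL : L ≠ 0) (hML : M ∣ L) (c : (ZMod M)ˣ) (σ : F ≃ₐ[Kb] F)
    (huniq : ∀ σ' : F ≃ₐ[Kb] F, K7fanchIsDiam L M H F c σ' → σ' = σ) (f : F)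
    (hf : (f : LaurentSeries Kb) ∈ modularFunctionFieldFullC Kb L) : σ f = f := by
  subst hF
  haveI : Algebra.IsAlgebraic ℚ Kb := k7fanch_qbar_isAlgebraic
  obtain ⟨σ', hσ'⟩ := rtk6d0_exists_diamond Kb H hL hML c
  rw [← huniq σ' (k7fanch_isDiam_of_C L M H hσ')]
  exact hσ'.fix f hf

variable {L M H}

/-- **an element of `F_H` fixed by all diamonds lies in `F₀ = FF L`** -/
theorem k7fanch_mem_bar_of_fixed (hL : L ≠ 0) (hML : M ∣ L)
    (δ : (ZMod M)ˣ → (fieldBar L M H ≃ₐ[Kb] fieldBar L M H))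
    (hδ : ∀ c, IsDiamondH L M H c (δ c)) (x : fieldBar L M H) (hfix : ∀ c, δ c x = x) :
    (x : LaurentSeries Kb) ∈ modularFunctionFieldBar L := by
  have h := k7fanch_inv_aux L M H (fieldBar L M H) (es1f_fieldBar_eq L M H) hL hML x
    (fun c σ hσ => by
      have h1 : IsDiamondH L M H c σ := ⟨hσ.1, hσ.2⟩
      rw [h1.unique (hδ c)]
      exact hfix c)
  have h2 : modularFunctionFieldBar L = modularFunctionFieldFullC Kb L :=
    Fermat.Agent.ES.G2.hdeg_laurentBaseChange_full Kb L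
  rw [h2]
  exact h

/-- **the diamonds fix `F₀ = FF L` pointwise** -/
theorem k7fanch_diam_fix (hL : L ≠ 0) (hML : M ∣ L)
    (δ : (ZMod M)ˣ → (fieldBar L M H ≃ₐ[Kb] fieldBar L M H))
    (hδ : ∀ c, IsDiamondH L M H c (δ c)) (c : (ZMod M)ˣ) (f : fieldBar L M H)
    (hf : (f : LaurentSeries Kb) ∈ modularFunctionFieldBar L) : δ c f = f := by
  refine k7fanch_fix_aux L M H (fieldBar L M H) (es1f_fieldBar_eq L M H) hL hML c (δ c)
    (fun σ' h => IsDiamondH.unique ⟨h.1, h.2⟩ (hδ c)) f ?_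
  have h2 : modularFunctionFieldBar L = modularFunctionFieldFullC Kb L :=
    Fermat.Agent.ES.G2.hdeg_laurentBaseChange_full Kb L
  rw [← h2]
  exact hf

end Inv

/-! ## 3. the group law, the trivial diamonds, the cusp -/

section Group

variable {L M : ℕ} {H : Subgroup (ZMod M)ˣ}
  (δ : (ZMod M)ˣ → (fieldBar L M H ≃ₐ[Kb] fieldBar L M H))
  (hδ : ∀ c, IsDiamondH L M H c (δ c))

include hδ

theorem k7fanch_diam_mul (c d : (ZMod M)ˣ) (x : fieldBar L M H) :
    δ c (δ d x) = δ (c * d) x := by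
  have h : δ c * δ d = δ (c * d) := ((hδ c).mul (hδ d)).unique (hδ (c * d))
  rw [← h]
  rfl

theorem k7fanch_diam_one : δ 1 = 1 := (hδ 1).unique isDiamondH_one

/-- `δ_c = 1` for `c ∈ ±H` -/
theorem k7fanch_diam_eq_one {c : (ZMod M)ˣ} (hc : InPM H 1 (c : ZMod M)) : δ c = 1 := by
  refine (hδ c).unique ⟨fun _ _ _ _ _ => rfl, fun e _ a _ x hx => ?_⟩
  have h1 : InPM H a ((a * c : (ZMod M)ˣ) : ZMod M) := by
    obtain ⟨h, hh, hx | hx⟩ := hc
    · refine ⟨h, hh, Or.inl ?_⟩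
      rw [Units.val_mul, hx, Units.val_mul, Units.val_mul, Units.val_one, one_mul]
    · refine ⟨h, hh, Or.inr ?_⟩
      rw [Units.val_mul, hx, Units.val_mul, Units.val_mul, Units.val_one, one_mul, mul_neg]
  rw [es1f_sS_eq_of_inPM Kb h1]
  exact hx

/-- `δ_c` fixes `j` -/
theorem k7fanch_diam_j [NeZero L] (c : (ZMod M)ˣ) : δ c (jFH L M H) = jFH L M H := by
  refine (hδ c).fix_j 1 (one_dvd L) (jFH L M H) ?_
  show jBar = qExpand Kb 1 (jqModC Kb)
  rw [qExpand_one_apply, jBar, coeffEmb, ← jqModC_rat, coeffMap_jqModC]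

omit hδ in
theorem k7fanch_subsingleton_units {M : ℕ} (h0 : M ≠ 0) (h : M < 3) :
    Subsingleton (ZMod M)ˣ := by
  interval_cases M
  · exact absurd rfl h0
  · exact ⟨by decide⟩
  · exact ⟨by decide⟩

/-- **for `c ∉ ±H` the diamond `δ_c` moves the cusp `∞`** -/
theorem k7fanch_diam_moves (hL : L ≠ 0) (hML : M ∣ L) (Pinf : Place Kb (fieldBar L M H))
    (hinf : ∀ f : fieldBar L M H, f ≠ 0 → Pinf.ord f = (f : LaurentSeries Kb).order)
    (c : (ZMod M)ˣ) (hc : ¬ InPM H 1 (c : ZMod M)) : (δ c)⁻¹ • Pinf ≠ Pinf := by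
  intro hP
  have hM0 : M ≠ 0 := fun h => hL (by rw [h] at hML; exact Nat.eq_zero_of_zero_dvd hML)
  have hM3 : 3 ≤ M := by
    by_contra hlt
    haveI := k7fanch_subsingleton_units hM0 (not_le.mp hlt)
    apply hc
    rw [Subsingleton.elim c 1]
    exact InPM.self 1
  have he : 1 * M ∣ L := by rwa [one_mul]
  have hxm : qExpand Kb 1 (sS Kb M H 1) ∈ fieldBar L M H := by
    rw [es1f_fieldBar_eq]
    exact qExpand_sS_mem Kb L M H he 1
  set x : fieldBar L M H := ⟨qExpand Kb 1 (sS Kb M H 1), hxm⟩ with hx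
  have h1 : ((δ c x : fieldBar L M H) : LaurentSeries Kb) = qExpand Kb 1 (sS Kb M H (1 * c)) :=
    (hδ c).map_s 1 1 he x rfl
  have hxc : (x : LaurentSeries Kb) = sS Kb M H 1 := qExpand_one_apply _
  have hx0 : x ≠ 0 := by
    intro h0
    have h2 : (x : LaurentSeries Kb) = 0 := by rw [h0]; rfl
    rw [hxc] at h2
    exact es1f_sS_ne_zero Kb hM3 1 h2
  have hdx0 : δ c x ≠ 0 := by
    intro h0
    exact hx0 ((δ c).injective (by rw [h0, map_zero]))
  have h2 : Pinf.ord (δ c x) = Pinf.ord x := by rw [k7fanch_ord_apply, hP]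
  rw [hinf _ hdx0, hinf _ hx0, h1, hxc, qExpand_one_apply, es1f_order_sS Kb hM3,
    es1f_order_sS Kb hM3] at h2
  have h3 : es1fLead M H (1 * c) = es1fLead M H 1 := by
    have : (es1fLead M H (1 * c) : ℤ) = es1fLead M H 1 := by linarith
    exact_mod_cast this
  have h4 := (es1f_lead_eq_iff hM3).mp h3
  rw [one_mul] at h4
  exact hc h4.symm

end Group

end Fermat.Agent.RT.K7F

end
end ZBRT_052_0
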