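/- GENERATED FILE (helper35, build-time optimisation, NOTES/ZB.md): verbatim concatenation of the modules
   Fermat.Agent.RT.K7F.RHpA
   Do not edit; do not import together with these modules. -/
import Fermat.Prelude.Def_AlgebraicCurve_Repartitions
import Fermat.Agent.ZB.ES1_001

/-! ### bundled: `Fermat.Agent.RT.K7F.RHpA` -/
section ZBRT_062_0
/-
RT-K7F / FL-RHp-A (helper75): the bound `dim L(D) ≤ |P| · dim L₀(D₀)` for a `P`-stable divisor `D`
of a function field `Fb` in characteristic `p`, `P` a finite `p`-group of `k`-automorphisms of `Fb`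
with fixed field `F₀`, `D₀` a divisor of `F₀` with `L(D) ∩ F₀ ⊆ L₀(D₀)`.

Generic part (no modular input): `K5.stmtAlgFree` applied to `W = L(D)`.
-/

set_option autoImplicit false

noncomputable section

namespace Fermat.Agent.RT.K7F

open AlgebraicCurve Module

variable {k Fb : Type} [Field k] [Field Fb] [Algebra k Fb]

/-- The Riemann–Roch space of a `σ`-stable divisor is `σ`-stable. -/
theorem k7frhp_apply_mem (σ : Fb ≃ₐ[k] Fb) {D : Divisor k Fb} (hD : σ • D = D) {f : Fb}
    (hf : f ∈ riemannRochSpace D) : σ f ∈ riemannRochSpace D := by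
  rw [mem_riemannRochSpace_iff] at hf ⊢
  intro v
  rcases hf (σ⁻¹ • v) with h0 | h
  · left; rw [h0, map_zero]
  · right
    have h1 : (σ • (σ⁻¹ • v)).ord (σ f) = (σ⁻¹ • v).ord f := Place.ord_smul σ (σ⁻¹ • v) f
    rw [smul_inv_smul] at h1
    have h2 : (σ • D) v = D (σ⁻¹ • v) := Divisor.smul_apply σ D v
    rw [hD] at h2
    rw [h1, h2]
    exact h

/-- The action of `σ` on the Riemann–Roch space of a `σ`-stable divisor. -/
def k7frhpEnd (σ : Fb ≃ₐ[k] Fb) (D : Divisor k Fb) (hD : σ • D = D) :
    ↥(riemannRochSpace D) →ₗ[k] ↥(riemannRochSpace D) where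
  toFun f := ⟨σ (f : Fb), k7frhp_apply_mem σ hD f.2⟩
  map_add' f g := by
    apply Subtype.ext
    simp
  map_smul' c f := by
    apply Subtype.ext
    simp

@[simp] theorem k7frhpEnd_coe (σ : Fb ≃ₐ[k] Fb) (D : Divisor k Fb) (hD : σ • D = D)
    (f : ↥(riemannRochSpace D)) : ((k7frhpEnd σ D hD f : ↥(riemannRochSpace D)) : Fb) = σ f :=
  rfl

/-- The representation of a group `P` of automorphisms on the Riemann–Roch space of a `P`-stable
divisor. -/
def k7frhpRep {P : Type} [Group P] (φ : P →* (Fb ≃ₐ[k] Fb)) (D : Divisor k Fb)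
    (hD : ∀ g : P, φ g • D = D) :
    P →* (↥(riemannRochSpace D) →ₗ[k] ↥(riemannRochSpace D)) where
  toFun g := k7frhpEnd (φ g) D (hD g)
  map_one' := by
    apply LinearMap.ext
    intro f
    apply Subtype.ext
    simp
  map_mul' g h := by
    apply LinearMap.ext
    intro f
    apply Subtype.ext
    simp [Module.End.mul_apply]

/-- **FL-RHp-A, generic form.**  `P` a finite `p`-group acting on the function field `Fb` of
characteristic `p` through `φ`, `D` a `P`-stable divisor of `Fb` with finite-dimensional `L(D)`,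
`F₀` a subfield containing the `P`-invariants, `D₀` a divisor of `F₀` such that
`L(D) ∩ F₀ ⊆ L₀(D₀)` and `L₀(D₀)` is finite-dimensional.  Then `dim L(D) ≤ |P| · dim L₀(D₀)`. -/
theorem k7frhp_bound_generic (p : ℕ) [Fact p.Prime] [CharP k p]
    {P : Type} [Group P] [Fintype P] (hP : IsPGroup p P) (φ : P →* (Fb ≃ₐ[k] Fb))
    (F₀ : IntermediateField k Fb) (hfix : ∀ f : Fb, (∀ g : P, φ g f = f) → f ∈ F₀)
    (D : Divisor k Fb) (hD : ∀ g : P, φ g • D = D) [Module.Finite k ↥(riemannRochSpace D)]
    (D₀ : Divisor k ↥F₀) [Module.Finite k ↥(riemannRochSpace D₀)]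
    (hcomp : ∀ f : ↥F₀, (f : Fb) ∈ riemannRochSpace D → f ∈ riemannRochSpace D₀) :
    finrank k ↥(riemannRochSpace D) ≤
      Fintype.card P * finrank k ↥(riemannRochSpace D₀) := by
  have h1 := (Fermat.Agent.RT.K5.stmtAlgFree p P k ↥(riemannRochSpace D)
    (k7frhpRep φ D hD) hP).1
  refine h1.trans (Nat.mul_le_mul_left _ ?_)
  -- the invariants embed into `L₀(D₀)`
  have hmemI : ∀ w : ↥(⨅ g : P, LinearMap.ker (k7frhpRep φ D hD g - 1)), ∀ g : P,
      φ g ((w : ↥(riemannRochSpace D)) : Fb) = ((w : ↥(riemannRochSpace D)) : Fb) := by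
    intro w g
    have hw := w.2
    rw [Submodule.mem_iInf] at hw
    have hg := hw g
    rw [LinearMap.mem_ker, LinearMap.sub_apply, Module.End.one_apply, sub_eq_zero] at hg
    have := congrArg (Subtype.val) hg
    exact this
  let Φ : ↥(⨅ g : P, LinearMap.ker (k7frhpRep φ D hD g - 1)) →ₗ[k] ↥(riemannRochSpace D₀) :=
    { toFun := fun w =>
        ⟨⟨((w : ↥(riemannRochSpace D)) : Fb), hfix _ (hmemI w)⟩,
          hcomp ⟨((w : ↥(riemannRochSpace D)) : Fb), hfix _ (hmemI w)⟩
            (w : ↥(riemannRochSpace D)).2⟩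
      map_add' := fun a b => by
        apply Subtype.ext
        apply Subtype.ext
        simp
      map_smul' := fun c a => by
        apply Subtype.ext
        apply Subtype.ext
        simp [Algebra.smul_def] }
  have hΦ : Function.Injective Φ := by
    intro a b hab
    have h2 := congrArg (fun x : ↥(riemannRochSpace D₀) => ((x : ↥F₀) : Fb)) hab
    exact Subtype.ext (Subtype.ext h2)
  exact LinearMap.finrank_le_finrank_of_injective hΦ

end Fermat.Agent.RT.K7F

end
end ZBRT_062_0
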