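/- GENERATED FILE (helper35, build-time optimisation, NOTES/ZB.md): verbatim concatenation of the modules
   Fermat.Agent.RT.K7F.PlaceUp
   Fermat.Agent.RT.K7F.BoundAbs
   Do not edit; do not import together with these modules. -/
import Fermat.Agent.ZB.ES_004
import Fermat.Agent.ZB.S24_007
import Fermat.Agent.ZB.ES_020
import Fermat.Agent.ZB.RT_062

/-! ### bundled: `Fermat.Agent.RT.K7F.PlaceUp` -/
section ZBRT_055_0

/-!
# RT-K7F, FL-RHp-A (abstract part 1): places in a finite separable extension, any characteristic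

`F'/F` a finite SEPARABLE extension of fields over `K` (no hypothesis on the characteristic).

* `k7fpu_exists_place_over` : every place of `F/K` is the restriction of a place of `F'/K`
  (the integral closure of `O_v` in `F'` is a Dedekind domain, not a field);
* `k7fpu_eq_id_of_ord` : a `K`-automorphism `σ` of `F'` which preserves `ord_Q` and fixes an
  element `t` with `ord_Q t = 1` is the identity, when the residue field of `Q` is `K`
  ("`K(t)` is dense in the completion at `Q`").
-/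

set_option autoImplicit false
set_option linter.unusedSectionVars false
set_option linter.style.haveILetI false

noncomputable section

open AlgebraicCurve IsDedekindDomain WithZero

namespace Fermat.Agent.RT.K7F

open Fermat.Agent.S24 Fermat.Agent.ES.H

section GoingUp

variable {K F F' : Type*} [Field K] [Field F] [Field F'] [Algebra K F] [Algebra K F']
  [Algebra F F'] [IsScalarTower K F F'] [FiniteDimensional F F'] [Algebra.IsSeparable F F']

theorem k7fpu_isDedekindDomain (v : Place K F) : IsDedekindDomain (Bv F' v) :=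
  integralClosure.isDedekindDomain v.toValuationSubring F F'

theorem k7fpu_isFractionRing (v : Place K F) : IsFractionRing (Bv F' v) F' :=
  integralClosure.isFractionRing_of_finite_extension F F'

/-- the integral closure of `O_v` is not a field -/
theorem k7fpu_not_isField (v : Place K F) : ¬ IsField (Bv F' v) := by
  intro hB
  have hint : Algebra.IsIntegral v.toValuationSubring (Bv F' v) := inferInstance
  have hinj : Function.Injective (algebraMap v.toValuationSubring (Bv F' v)) := by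
    intro a b hab
    have h1 : algebraMap v.toValuationSubring F' a = algebraMap v.toValuationSubring F' b := by
      have := congrArg (fun x : Bv F' v => (x : F')) hab
      exact this
    rw [algebraMap_Ov_apply, algebraMap_Ov_apply] at h1
    exact Subtype.ext ((algebraMap F F').injective h1)
  have hA : IsField v.toValuationSubring := isField_of_isIntegral_of_isField hinj hB
  exact ValuationSubring.not_isField_of_ne_top F v.ne_top' hA

/-- **going up**: every place of `F` is the restriction of a place of `F'`. -/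
theorem k7fpu_exists_place_over (v : Place K F) : ∃ w : Place K F', w.restrict F = v := by
  haveI := k7fpu_isDedekindDomain (F' := F') v
  haveI := k7fpu_isFractionRing (F' := F') v
  obtain ⟨M, hM⟩ := Ideal.exists_maximal (Bv F' v)
  have hMbot : M ≠ ⊥ := by
    intro h
    apply k7fpu_not_isField (F' := F') v
    rw [h] at hM
    exact Ring.isField_iff_isSimpleOrder_ideal.mpr
      (by
        constructor
        intro I
        by_cases hI : I = ⊥
        · exact Or.inl hI
        · right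
          by_contra hIt
          exact hI (hM.eq_of_le hIt bot_le).symm)
  let P : HeightOneSpectrum (Bv F' v) := ⟨M, hM.isPrime, hMbot⟩
  refine ⟨placeOfPrime (hK_Bv v) P, ?_⟩
  symm
  apply Place.ext
  refine ValuationSubring.eq_of_le_of_ne_top _ ?_ ((placeOfPrime (hK_Bv v) P).restrict F).ne_top'
  intro a ha
  rw [Place.restrict_toValuationSubring, ValuationSubring.mem_comap]
  show algebraMap F F' a ∈ (P.valuation F').valuationSubring
  rw [Valuation.mem_valuationSubring_iff]
  have hint : IsIntegral v.toValuationSubring (algebraMap F F' a) := by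
    have : algebraMap F F' a = algebraMap v.toValuationSubring F' ⟨a, ha⟩ := rfl
    rw [this]
    exact isIntegral_algebraMap
  have : algebraMap F F' a = algebraMap (Bv F' v) F' ⟨algebraMap F F' a, hint⟩ := rfl
  rw [this]
  exact P.valuation_le_one _

end GoingUp

section Density

open Fermat.Agent.ES.R

variable {K F : Type*} [Field K] [Field F] [Algebra K F]

/-- approximation of `f` by `σ`-fixed elements (Laurent polynomials in `t`) to any order -/
theorem k7fpu_approx (Q : Place K F)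
    (hres : Function.Bijective (algebraMap K Q.ResidueField))
    (σ : F ≃ₐ[K] F) (t : F) (ht : Q.ord t = 1) (hσt : σ t = t) (f : F) :
    ∀ n : ℕ, ∃ f₀ : F, σ f₀ = f₀ ∧ (f - f₀ = 0 ∨ Q.ord f + n ≤ Q.ord (f - f₀)) := by
  have ht0 : t ≠ 0 := by
    rintro rfl
    rw [Q.ord_zero] at ht
    exact zero_ne_one ht
  intro n
  induction n with
  | zero => exact ⟨0, map_zero σ, Or.inr (by simp)⟩
  | succ n ih =>
    obtain ⟨f₀, hf₀, h⟩ := ih
    rcases h with h | h
    · exact ⟨f₀, hf₀, Or.inl h⟩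
    · by_cases hr : f - f₀ = 0
      · exact ⟨f₀, hf₀, Or.inl hr⟩
      have hg0 : t ^ (Q.ord (f - f₀)) ≠ 0 := zpow_ne_zero _ ht0
      have hgo : Q.ord (t ^ (Q.ord (f - f₀))) = Q.ord (f - f₀) := by
        rw [Q.ord_zpow, ht, mul_one]
      obtain ⟨c, hc⟩ := exists_sub_smul_ord_gt Q hres hr hg0 hgo.symm
      refine ⟨f₀ + c • t ^ (Q.ord (f - f₀)), ?_, ?_⟩
      · rw [map_add, hf₀, map_smul, map_zpow₀, hσt]
      · have e : f - (f₀ + c • t ^ (Q.ord (f - f₀))) = (f - f₀) - c • t ^ (Q.ord (f - f₀)) := by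
          ring
        rw [e]
        rcases hc with hc | hc
        · exact Or.inl hc
        · right
          rw [hgo] at hc
          push_cast
          omega

/-- **rigidity**: a `K`-automorphism preserving `ord_Q` and fixing an element of order `1` at
`Q` is the identity, if the residue field of `Q` is `K`. -/
theorem k7fpu_eq_id_of_ord (Q : Place K F)
    (hres : Function.Bijective (algebraMap K Q.ResidueField))
    (σ : F ≃ₐ[K] F) (t : F) (ht : Q.ord t = 1) (hσt : σ t = t)
    (hσQ : ∀ f : F, Q.ord (σ f) = Q.ord f) (f : F) : σ f = f := by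
  by_contra hne
  have hd : σ f - f ≠ 0 := sub_ne_zero.mpr hne
  obtain ⟨n, hn⟩ : ∃ n : ℕ, Q.ord (σ f - f) < Q.ord f + n :=
    ⟨(Q.ord (σ f - f) - Q.ord f).toNat + 1, by
      push_cast
      have := Int.self_le_toNat (Q.ord (σ f - f) - Q.ord f)
      omega⟩
  obtain ⟨f₀, hf₀, h⟩ := k7fpu_approx Q hres σ t ht hσt f n
  have e : σ f - f = σ (f - f₀) + -(f - f₀) := by
    rw [map_sub, hf₀]; ring
  have hr0 : f - f₀ ≠ 0 := by
    intro h0
    rw [h0, map_zero, neg_zero, add_zero] at e
    exact hd e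
  have h := h.resolve_left hr0
  have hσr0 : σ (f - f₀) ≠ 0 := by
    intro h0
    exact hr0 ((map_eq_zero_iff σ σ.injective).mp h0)
  have h1 := PlaceAux.le_ord_add Q hσr0 (neg_ne_zero.mpr hr0) (by rw [← e]; exact hd)
  rw [PlaceAux.ord_neg, hσQ, min_self, ← e] at h1
  omega

end Density

end Fermat.Agent.RT.K7F

end
end ZBRT_055_0

/-! ### bundled: `Fermat.Agent.RT.K7F.BoundAbs` -/
section ZBRT_055_1

/-!
# RT-K7F, FL-RHp-A (abstract part 2): the divisor `E = Σ_g g•Q` and the bound at `n•E`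

`k` a field of characteristic `p`, `Fb/k` a function field, `P` a finite `p`-group acting
faithfully on `Fb` by `k`-automorphisms (`φ`), `F₀` the field of invariants, all residue fields of
places of `Fb` and of `F₀` equal to `k`, `Q` a place of `Fb`, `Pinf` a place of `F₀` with
`ord_Q = ord_{Pinf}` on `F₀` (unramified at `Q`).  Then for `E := Σ_{g ∈ P} g•Q`:

* `k7fba_E_nonneg`, `k7fba_degree_E` : `0 ≤ E`, `deg E = |P|`;
* `k7fba_bound` : `dim L(n•E) ≤ |P| · dim L₀(n·Pinf)` for every `n`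
  (on top of helper75's `k7frhp_bound_generic`);
* `k7fba_bound_genus` : with Riemann–Roch for `F₀` at `Pinf` (`dim L₀(n·Pinf) ≤ n + 1 - g₀` for
  `n ≥ n₁`): `dim L(n•E) + (|P| (g₀ - 1) + 1).toNat ≤ n |P| + 1` for `n ≥ n₁`, the shape of
  `StmtBoundE`.

Ingredients: Artin (`Fb/F₀` finite separable), going up (`k7fpu_exists_place_over`), rigidity
(`k7fpu_eq_id_of_ord`: the orbit of `Q` is free).
-/

set_option autoImplicit false
set_option linter.unusedSectionVars false
set_option linter.unusedVariables false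
set_option linter.style.haveILetI false

noncomputable section

open AlgebraicCurve Module

namespace Fermat.Agent.RT.K7F

open Fermat.Agent.S24 Fermat.Agent.ES.R

variable {k Fb : Type} [Field k] [Field Fb] [Algebra k Fb]

/-! ### Artin: `Fb / F₀` is finite and separable -/

section Artin

variable {P : Type} [Group P] [Finite P] (φ : P →* (Fb ≃ₐ[k] Fb)) (F₀ : IntermediateField k Fb)

/-- **Artin**: if `F₀` is the field of invariants of a finite group of automorphisms of `Fb`, then
`Fb / F₀` is finite and separable. -/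
theorem k7fba_finite_separable (hfix : ∀ f : Fb, (∀ g : P, φ g f = f) → f ∈ F₀)
    (hF₀ : ∀ (g : P) (x : Fb), x ∈ F₀ → φ g x = x) :
    FiniteDimensional ↥F₀ Fb ∧ Algebra.IsSeparable ↥F₀ Fb := by
  letI : MulSemiringAction P Fb := MulSemiringAction.compHom Fb φ
  have hsmul : ∀ (g : P) (x : Fb), g • x = φ g x := fun _ _ => rfl
  have hmem : ∀ x : Fb, x ∈ FixedPoints.subfield P Fb ↔ x ∈ F₀ := by
    intro x
    constructor
    · intro hx
      exact hfix x fun g => by rw [← hsmul]; exact hx g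
    · intro hx g
      rw [hsmul]
      exact hF₀ g x hx
  let e₁ : FixedPoints.subfield P Fb ≃+* ↥F₀ :=
    { toFun := fun x => ⟨x.1, (hmem x.1).1 x.2⟩
      invFun := fun y => ⟨y.1, (hmem y.1).2 y.2⟩
      left_inv := fun _ => rfl
      right_inv := fun _ => rfl
      map_mul' := fun _ _ => rfl
      map_add' := fun _ _ => rfl }
  have he : RingHom.comp (algebraMap ↥F₀ Fb) (e₁ : FixedPoints.subfield P Fb →+* ↥F₀) =
      RingHom.comp ((RingEquiv.refl Fb : Fb ≃+* Fb) : Fb →+* Fb)
        (algebraMap (FixedPoints.subfield P Fb) Fb) := by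
    ext x
    rfl
  exact ⟨Module.Finite.of_equiv_equiv e₁ (RingEquiv.refl Fb) he,
    Algebra.IsSeparable.of_equiv_equiv e₁ (RingEquiv.refl Fb) he⟩

end Artin

/-! ### The orbit divisor -/

section Orbit

variable {P : Type} [Group P] [Fintype P] (φ : P →* (Fb ≃ₐ[k] Fb)) (Q : Place k Fb)

/-- the orbit divisor `E = Σ_{g ∈ P} g•Q` -/
def k7fbaE : Divisor k Fb := ∑ g : P, Finsupp.single (φ g • Q) (1 : ℤ)

theorem k7fba_E_apply [DecidableEq (Place k Fb)] (w : Place k Fb) :
    k7fbaE φ Q w = ∑ g : P, if φ g • Q = w then (1 : ℤ) else 0 := by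
  unfold k7fbaE
  rw [Finsupp.finsetSum_apply]
  refine Finset.sum_congr rfl fun g _ => ?_
  rw [Finsupp.single_apply]

theorem k7fba_E_nonneg : 0 ≤ k7fbaE φ Q := by
  classical
  rw [Finsupp.le_def]
  intro w
  rw [k7fba_E_apply]
  refine Finset.sum_nonneg fun g _ => ?_
  split_ifs
  · exact zero_le_one
  · exact le_rfl

theorem k7fba_nsmul_E_nonneg (n : ℕ) : 0 ≤ n • k7fbaE φ Q :=
  nsmul_nonneg (k7fba_E_nonneg φ Q) n

/-- `deg E = |P|` when the residue field of `Q` is `k` -/
theorem k7fba_degree_E (hresQ : Function.Bijective (algebraMap k Q.ResidueField)) :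
    Divisor.degree (k7fbaE φ Q) = (Fintype.card P : ℤ) := by
  unfold k7fbaE
  rw [map_sum]
  have h1 : ∀ g : P, Divisor.degree (Finsupp.single (φ g • Q) (1 : ℤ)) = 1 := by
    intro g
    rw [Divisor.degree_single, Place.deg_smul, place_deg_eq_one Q hresQ]
    norm_num
  rw [Finset.sum_congr rfl fun g _ => h1 g]
  simp

/-- `E` is `P`-stable -/
theorem k7fba_smul_E (h : P) : φ h • k7fbaE φ Q = k7fbaE φ Q := by
  unfold k7fbaE
  rw [Finset.smul_sum]
  have h1 : ∀ g : P, φ h • Finsupp.single (φ g • Q) (1 : ℤ)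
      = Finsupp.single (φ (h * g) • Q) (1 : ℤ) := by
    intro g
    rw [Divisor.smul_single, map_mul, mul_smul]
  rw [Finset.sum_congr rfl fun g _ => h1 g]
  exact Fintype.sum_equiv (Equiv.mulLeft h) _ _ fun g => rfl

theorem k7fba_smul_nsmul_E (n : ℕ) (h : P) : φ h • (n • k7fbaE φ Q) = n • k7fbaE φ Q := by
  rw [smul_comm, k7fba_smul_E]

/-- `E` vanishes outside the orbit of `Q` -/
theorem k7fba_E_eq_zero {w : Place k Fb} (hw : ∀ g : P, φ g • Q ≠ w) : k7fbaE φ Q w = 0 := by
  classical
  rw [k7fba_E_apply]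
  refine Finset.sum_eq_zero fun g _ => ?_
  rw [if_neg (hw g)]

/-- `E(Q) = 1` when the orbit is free -/
theorem k7fba_E_self (hfree : ∀ g : P, φ g • Q = Q → g = 1) : k7fbaE φ Q Q = 1 := by
  classical
  rw [k7fba_E_apply]
  have h1 : ∀ g : P, (if φ g • Q = Q then (1 : ℤ) else 0) = if g = 1 then 1 else 0 := by
    intro g
    by_cases hg : g = 1
    · subst hg
      rw [if_pos rfl, if_pos]
      rw [map_one, one_smul]
    · rw [if_neg hg, if_neg]
      exact fun h => hg (hfree g h)
  rw [Finset.sum_congr rfl fun g _ => h1 g]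
  simp

end Orbit

/-! ### The bound -/

section Main

variable {P : Type} [Group P] [Fintype P] (φ : P →* (Fb ≃ₐ[k] Fb))
  (F₀ : IntermediateField k Fb) (Q : Place k Fb) (Pinf : Place k ↥F₀)

/-- the orbit of `Q` is free: an automorphism fixing `F₀` and the place `Q` is the identity -/
theorem k7fba_free (hinj : Function.Injective φ)
    (hF₀ : ∀ (g : P) (x : Fb), x ∈ F₀ → φ g x = x)
    (hresQ : Function.Bijective (algebraMap k Q.ResidueField))
    (hunr : ∀ x : ↥F₀, Q.ord (x : Fb) = Pinf.ord x) (g : P) (hg : φ g • Q = Q) : g = 1 := by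
  obtain ⟨π, hπ⟩ := IsDiscreteValuationRing.exists_irreducible Pinf.toValuationSubring
  have ht₀ : Pinf.ord ((π : ↥F₀)) = 1 := Pinf.ord_coe_irreducible hπ
  have hσQ : ∀ f : Fb, Q.ord (φ g f) = Q.ord f := by
    intro f
    have h := Place.ord_smul (φ g) Q f
    rwa [hg] at h
  have hid := k7fpu_eq_id_of_ord Q hresQ (φ g) (((π : ↥F₀) : ↥F₀) : Fb)
    (by rw [hunr]; exact ht₀) (hF₀ g _ (π : ↥F₀).2) hσQ
  apply hinj
  rw [map_one]
  exact AlgEquiv.ext hid

variable [FiniteDimensional ↥F₀ Fb]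

/-- `Q` lies over `Pinf` -/
theorem k7fba_restrict_Q (hunr : ∀ x : ↥F₀, Q.ord (x : Fb) = Pinf.ord x) :
    Q.restrict ↥F₀ = Pinf := by
  apply Place.ext
  ext x
  rw [Place.restrict_toValuationSubring, ValuationSubring.mem_comap]
  by_cases hx : x = 0
  · subst hx
    simp
  · have hx' : ((x : ↥F₀) : Fb) ≠ 0 := fun h => hx (Subtype.ext h)
    show ((x : ↥F₀) : Fb) ∈ Q.toValuationSubring ↔ _
    rw [← PlaceAux.ord_nonneg_iff Q hx', ← PlaceAux.ord_nonneg_iff Pinf hx, hunr]

/-- the places of the orbit of `Q` lie over the same place of `F₀` -/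
theorem k7fba_restrict_smul (hF₀ : ∀ (g : P) (x : Fb), x ∈ F₀ → φ g x = x) (g : P) :
    (φ g • Q).restrict ↥F₀ = Q.restrict ↥F₀ := by
  apply Place.ext
  ext x
  rw [Place.restrict_toValuationSubring, ValuationSubring.mem_comap,
    Place.restrict_toValuationSubring, ValuationSubring.mem_comap]
  by_cases hx : x = 0
  · subst hx
    simp
  · have hx' : ((x : ↥F₀) : Fb) ≠ 0 := fun h => hx (Subtype.ext h)
    show ((x : ↥F₀) : Fb) ∈ (φ g • Q).toValuationSubring ↔ ((x : ↥F₀) : Fb) ∈ Q.toValuationSubring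
    rw [← PlaceAux.ord_nonneg_iff _ hx', ← PlaceAux.ord_nonneg_iff _ hx']
    have h := Place.ord_smul (φ g) Q ((x : ↥F₀) : Fb)
    rw [hF₀ g _ x.2] at h
    rw [h]

variable [Algebra.IsSeparable ↥F₀ Fb]

/-- **compatibility**: `L(n•E) ∩ F₀ ⊆ L₀(n·Pinf)` -/
theorem k7fba_comp (hF₀ : ∀ (g : P) (x : Fb), x ∈ F₀ → φ g x = x)
    (hfree : ∀ g : P, φ g • Q = Q → g = 1)
    (hunr : ∀ x : ↥F₀, Q.ord (x : Fb) = Pinf.ord x) (n : ℕ) (f : ↥F₀)
    (hf : (f : Fb) ∈ riemannRochSpace (n • k7fbaE φ Q)) :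
    f ∈ riemannRochSpace (Finsupp.single Pinf (n : ℤ)) := by
  rw [mem_riemannRochSpace_iff] at hf ⊢
  intro v₀
  by_cases hf0 : f = 0
  · exact Or.inl hf0
  right
  have hf0' : ((f : ↥F₀) : Fb) ≠ 0 := fun h => hf0 (Subtype.ext h)
  by_cases hv : v₀ = Pinf
  · subst hv
    rw [Finsupp.single_eq_same]
    have h := (hf Q).resolve_left hf0'
    rw [Finsupp.smul_apply, k7fba_E_self φ Q hfree, hunr] at h
    simpa using h
  · rw [Finsupp.single_eq_of_ne hv, neg_zero]
    obtain ⟨w, hw⟩ := k7fpu_exists_place_over (F' := Fb) v₀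
    have hnot : ∀ g : P, φ g • Q ≠ w := by
      intro g hg
      apply hv
      rw [← hw, ← hg, k7fba_restrict_smul φ F₀ Q hF₀ g, k7fba_restrict_Q F₀ Q Pinf hunr]
    have h := (hf w).resolve_left hf0'
    rw [Finsupp.smul_apply, k7fba_E_eq_zero φ Q hnot, smul_zero, neg_zero] at h
    have hmem : ((f : ↥F₀) : Fb) ∈ w.toValuationSubring := PlaceAux.mem_of_ord_nonneg w h
    have hmem' : f ∈ (w.restrict ↥F₀).toValuationSubring := hmem
    rw [hw] at hmem'
    exact (PlaceAux.ord_nonneg_iff v₀ hf0).mpr hmem'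

end Main

/-! ### The final statement -/

/-- **FL-RHp-A, abstract form.**  `P` a finite `p`-group acting faithfully on `Fb` (char. `p`)
with field of invariants `F₀`; all residue fields are `k`; `Q` a place of `Fb` unramified over the
place `Pinf` of `F₀`.  Then `E = Σ_g g•Q` is effective of degree `|P|`, `P`-stable, and
`dim L(n•E) ≤ |P| · dim L₀(n·Pinf)`. -/
theorem k7fba_bound (p : ℕ) [Fact p.Prime] [CharP k p]
    {P : Type} [Group P] [Fintype P] (hP : IsPGroup p P) (φ : P →* (Fb ≃ₐ[k] Fb))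
    (hinj : Function.Injective φ) (F₀ : IntermediateField k Fb)
    (hfix : ∀ f : Fb, (∀ g : P, φ g f = f) → f ∈ F₀)
    (hF₀ : ∀ (g : P) (x : Fb), x ∈ F₀ → φ g x = x)
    (hres : ∀ v : Place k Fb, Function.Bijective (algebraMap k v.ResidueField))
    (hres0 : ∀ v : Place k ↥F₀, Function.Bijective (algebraMap k v.ResidueField))
    [HasPrincipalDivisors k Fb] [HasPrincipalDivisors k ↥F₀]
    (Q : Place k Fb) (Pinf : Place k ↥F₀) (hunr : ∀ x : ↥F₀, Q.ord (x : Fb) = Pinf.ord x) :
    0 ≤ k7fbaE φ Q ∧ Divisor.degree (k7fbaE φ Q) = (Fintype.card P : ℤ) ∧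
      (∀ g : P, φ g • k7fbaE φ Q = k7fbaE φ Q) ∧
      ∀ n : ℕ, finrank k ↥(riemannRochSpace (n • k7fbaE φ Q)) ≤
        Fintype.card P * finrank k ↥(riemannRochSpace (Finsupp.single Pinf (n : ℤ))) := by
  refine ⟨k7fba_E_nonneg φ Q, k7fba_degree_E φ Q (hres Q), k7fba_smul_E φ Q, fun n => ?_⟩
  obtain ⟨hfd, hsep⟩ := k7fba_finite_separable φ F₀ hfix hF₀
  have hfree := k7fba_free φ F₀ Q Pinf hinj hF₀ (hres Q) hunr
  haveI : Module.Finite k ↥(riemannRochSpace (n • k7fbaE φ Q)) := rr_finite Q hres _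
  haveI : Module.Finite k ↥(riemannRochSpace (Finsupp.single Pinf (n : ℤ))) :=
    rr_finite Pinf hres0 _
  exact k7frhp_bound_generic p hP φ F₀ hfix (n • k7fbaE φ Q) (k7fba_smul_nsmul_E φ Q n)
    (Finsupp.single Pinf (n : ℤ)) (k7fba_comp φ F₀ Q Pinf hF₀ hfree hunr n)

/-- **FL-RHp-A, abstract form with the genus.**  If moreover `dim L₀(n·Pinf) ≤ n + 1 - g₀` for
`n ≥ n₁`, then `dim L(n•E) + g ≤ n·|P| + 1` for `n ≥ n₁`, `g = (|P| (g₀ - 1) + 1).toNat`. -/
theorem k7fba_bound_genus (p : ℕ) [Fact p.Prime] [CharP k p]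
    {P : Type} [Group P] [Fintype P] (hP : IsPGroup p P) (φ : P →* (Fb ≃ₐ[k] Fb))
    (hinj : Function.Injective φ) (F₀ : IntermediateField k Fb)
    (hfix : ∀ f : Fb, (∀ g : P, φ g f = f) → f ∈ F₀)
    (hF₀ : ∀ (g : P) (x : Fb), x ∈ F₀ → φ g x = x)
    (hres : ∀ v : Place k Fb, Function.Bijective (algebraMap k v.ResidueField))
    (hres0 : ∀ v : Place k ↥F₀, Function.Bijective (algebraMap k v.ResidueField))
    [HasPrincipalDivisors k Fb] [HasPrincipalDivisors k ↥F₀]
    (Q : Place k Fb) (Pinf : Place k ↥F₀) (hunr : ∀ x : ↥F₀, Q.ord (x : Fb) = Pinf.ord x)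
    (g₀ n₁ : ℕ)
    (hRR : ∀ n : ℕ, n₁ ≤ n →
      (finrank k ↥(riemannRochSpace (Finsupp.single Pinf (n : ℤ))) : ℤ) ≤ n + 1 - g₀)
    (n : ℕ) (hn : n₁ ≤ n) :
    (finrank k ↥(riemannRochSpace (n • k7fbaE φ Q)) : ℤ) +
        ((((Fintype.card P : ℤ) * ((g₀ : ℤ) - 1) + 1).toNat : ℕ) : ℤ)
      ≤ n * (Fintype.card P : ℤ) + 1 := by
  obtain ⟨-, hdeg, -, hb⟩ :=
    k7fba_bound p hP φ hinj F₀ hfix hF₀ hres hres0 Q Pinf hunr
  have hd0 : (0 : ℤ) ≤ (Fintype.card P : ℤ) := Int.natCast_nonneg _
  by_cases hg : 0 ≤ (Fintype.card P : ℤ) * ((g₀ : ℤ) - 1) + 1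
  · rw [Int.toNat_of_nonneg hg]
    have h1 : (finrank k ↥(riemannRochSpace (n • k7fbaE φ Q)) : ℤ) ≤
        (Fintype.card P : ℤ) *
          (finrank k ↥(riemannRochSpace (Finsupp.single Pinf (n : ℤ))) : ℤ) := by
      exact_mod_cast hb n
    have h2 := mul_le_mul_of_nonneg_left (hRR n hn) hd0
    nlinarith
  · push Not at hg
    rw [Int.toNat_of_nonpos hg.le]
    have hdegn : Divisor.degree (n • k7fbaE φ Q) = n * (Fintype.card P : ℤ) := by
      rw [map_nsmul, hdeg, nsmul_eq_mul]
    have h3 := Fermat.Agent.DEU.rr_finrank_le_degree_add_one hres Q (n • k7fbaE φ Q)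
      (by rw [hdegn]; positivity)
    rw [hdegn] at h3
    simpa using h3

end Fermat.Agent.RT.K7F

end
end ZBRT_055_1
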