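/- GENERATED FILE (helper35, build-time optimisation, NOTES/ZB.md): verbatim concatenation of the modules
   Fermat.Agent.RT.K7F.ResAlg
   Fermat.Agent.RT.K7F.ResFin
   Fermat.Agent.RT.K7F.ResSide
   Fermat.Agent.RT.K7F.ResRam
   Do not edit; do not import together with these modules. -/
import Fermat.Agent.ZB.S28_002
import Fermat.Agent.ZB.ES1_009
import Fermat.Agent.ZB.ES1_002
import Fermat.Agent.ZB.DEU_005
import Fermat.Agent.ZB.ES1_007
import Fermat.Agent.ZB.DEU_008
import Fermat.Agent.ZB.RED_001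
import Fermat.Agent.ZB.ES_002
import Fermat.Agent.ZB.ES_001

/-! ### bundled: `Fermat.Agent.RT.K7F.ResAlg` -/
section ZBRT_056_0

/-!
# K7F / FL-RES, part 1: reduction of algebraic relations over `ℚ(j)` to characteristic `p`

* `k7fres_rel_of_isAlgebraic`, `k7fres_isAlgebraic_of_rel` : algebraicity over an intermediate
  field in "relation form" `∑ i, c i * y ^ i = 0`.
* `k7fres_red_isAlgebraic` : for `x ∈ ℤ((q))`, if `x ⊗ ℚ` is algebraic over `ℚ(j)` then the
  reduction of `x` in `k((q))` is algebraic over `k(j̄)`, `k` any field of characteristic `p`.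
* `k7fres_isAlgebraic_subtype` : from the ambient field to an intermediate field.
* `k7fres_isAlgebraic_intJd` : `j(q^d)` is algebraic over `E(j)` (any field `E`).
-/

set_option autoImplicit false

noncomputable section

open IntermediateField Polynomial ModularCurve

namespace Fermat.Agent.RT.K7F

section Rel

variable {K Ω : Type*} [Field K] [Field Ω] [Algebra K Ω]

/-- relation form of algebraicity, `→` -/
theorem k7fres_rel_of_isAlgebraic (E : IntermediateField K Ω) (y : Ω) (h : IsAlgebraic E y) :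
    ∃ (n : ℕ) (c : Fin (n + 1) → Ω), (∀ i, c i ∈ E) ∧ (∃ i, c i ≠ 0) ∧
      ∑ i, c i * y ^ (i : ℕ) = 0 := by
  obtain ⟨g, hg0, hg⟩ := h
  refine ⟨g.natDegree, fun i => ((g.coeff i : E) : Ω), fun i => (g.coeff i).2,
    ⟨Fin.last _, ?_⟩, ?_⟩
  · have h1 : g.coeff g.natDegree ≠ 0 := by
      rw [Polynomial.coeff_natDegree]
      exact Polynomial.leadingCoeff_ne_zero.mpr hg0
    intro h2
    apply h1
    exact Subtype.ext (by simpa using h2)
  · rw [Polynomial.aeval_eq_sum_range] at hg
    rw [Fin.sum_univ_eq_sum_range (fun i => ((g.coeff i : E) : Ω) * y ^ i) (g.natDegree + 1)]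
    rw [← hg]
    refine Finset.sum_congr rfl fun i _ => ?_
    rw [IntermediateField.smul_def]
    rfl

/-- relation form of algebraicity, `←` -/
theorem k7fres_isAlgebraic_of_rel (E : IntermediateField K Ω) (y : Ω) {n : ℕ}
    (c : Fin (n + 1) → Ω) (hc : ∀ i, c i ∈ E) (hne : ∃ i, c i ≠ 0)
    (hrel : ∑ i, c i * y ^ (i : ℕ) = 0) : IsAlgebraic E y := by
  classical
  obtain ⟨i₀, hi₀⟩ := hne
  refine ⟨∑ i : Fin (n + 1), Polynomial.C (⟨c i, hc i⟩ : E) * Polynomial.X ^ (i : ℕ), ?_, ?_⟩
  · intro h0
    have h1 := congrArg (fun g : Polynomial E => g.coeff (i₀ : ℕ)) h0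
    simp only [Polynomial.finsetSum_coeff, Polynomial.coeff_C_mul, Polynomial.coeff_X_pow,
      Polynomial.coeff_zero] at h1
    rw [Finset.sum_eq_single i₀] at h1
    · simp only [if_true, mul_one] at h1
      exact hi₀ (congrArg Subtype.val h1)
    · intro b _ hb
      have : ¬ ((i₀ : ℕ) = (b : ℕ)) := fun h => hb (Fin.ext h.symm)
      simp [this]
    · intro h; exact absurd (Finset.mem_univ _) h
  · rw [map_sum]
    rw [← hrel]
    refine Finset.sum_congr rfl fun i _ => ?_
    rw [map_mul, Polynomial.aeval_C, map_pow, Polynomial.aeval_X]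
    rfl

/-- algebraicity over `K(t)` inside an intermediate field `F` from algebraicity in the ambient
field -/
theorem k7fres_isAlgebraic_subtype (F : IntermediateField K Ω) (t y : F)
    (h : IsAlgebraic K⟮(t : Ω)⟯ (y : Ω)) : IsAlgebraic K⟮t⟯ y := by
  obtain ⟨n, c, hc, ⟨i₀, hi₀⟩, hrel⟩ := k7fres_rel_of_isAlgebraic _ _ h
  have htF : ({(t : Ω)} : Set Ω) ⊆ F := by
    intro x hx
    rw [Set.mem_singleton_iff] at hx
    rw [hx]; exact t.2
  have hcF : ∀ i, c i ∈ F := fun i =>
    (IntermediateField.adjoin_le_iff.mpr htF) (hc i)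
  have hset : {x : F | (x : Ω) ∈ ({(t : Ω)} : Set Ω)} = {t} := by
    ext x
    simp only [Set.mem_ofPred_eq, Set.mem_singleton_iff]
    exact ⟨fun h => Subtype.ext h, fun h => by rw [h]⟩
  have hc' : ∀ i, (⟨c i, hcF i⟩ : F) ∈ K⟮t⟯ := by
    intro i
    have := Fermat.Agent.INJ.bgFin_mem_adjoin_subtype F {(t : Ω)} htF (c i) (hc i) (hcF i)
    rwa [hset] at this
  refine k7fres_isAlgebraic_of_rel K⟮t⟯ y (fun i => (⟨c i, hcF i⟩ : F)) hc'
    ⟨i₀, fun h => hi₀ (congrArg Subtype.val h)⟩ ?_
  apply Subtype.ext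
  rw [ZeroMemClass.coe_zero, ← hrel]
  push_cast
  rfl

end Rel

section Red

variable (p : ℕ) [Fact p.Prime]

/-- reduction of an algebraic relation over `ℚ(j)` to `𝔽_p(j̄)` -/
theorem k7fres_red_zmod (x : LaurentSeries ℤ)
    (h : IsAlgebraic (adjoin ℚ {jqModC ℚ}) (coeffMap (Int.castRingHom ℚ) x)) :
    IsAlgebraic (adjoin (ZMod p) {jqModC (ZMod p)})
      (coeffMap (Int.castRingHom (ZMod p)) x) := by
  obtain ⟨n, c, hc, ⟨i₀, hi₀⟩, hrel⟩ := k7fres_rel_of_isAlgebraic _ _ h
  by_contra hna
  apply hi₀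
  refine Fermat.Agent.S28.red_indep_jq p (fun i : Fin (n + 1) => x ^ (i : ℕ)) ?_ c hc ?_ i₀
  · intro c' hc' hrel' i
    by_contra hi
    apply hna
    refine k7fres_isAlgebraic_of_rel _ _ c' hc' ⟨i, hi⟩ ?_
    rw [← hrel']
    refine Finset.sum_congr rfl fun i _ => ?_
    rw [map_pow]
  · rw [← hrel]
    refine Finset.sum_congr rfl fun i _ => ?_
    rw [map_pow]

variable (k : Type*) [Field k] [CharP k p]

include p

/-- `𝔽_p(j̄)` maps into `k(j̄)` -/
theorem k7fres_baseChange_mem (z : LaurentSeries (ZMod p))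
    (hz : z ∈ adjoin (ZMod p) {jqModC (ZMod p)}) :
    coeffMap (ZMod.castHom (dvd_refl p) k) z ∈ adjoin k {jqModC k} := by
  induction hz using IntermediateField.adjoin_induction with
  | mem z hz =>
    rw [Set.mem_singleton_iff] at hz
    rw [hz, coeffMap_jqModC]
    exact IntermediateField.mem_adjoin_simple_self k _
  | algebraMap c =>
    rw [algebraMap_laurentSeries_eq_single, coeffMap_single,
      ← algebraMap_laurentSeries_eq_single]
    exact IntermediateField.algebraMap_mem _ _
  | add a b ha hb iha ihb => rw [map_add]; exact add_mem iha ihb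
  | inv a ha iha => rw [map_inv₀]; exact inv_mem iha
  | mul a b ha hb iha ihb => rw [map_mul]; exact mul_mem iha ihb

/-- **Reduction of algebraicity.**  If `x ∈ ℤ((q))` is algebraic over `ℚ(j)`, its reduction in
`k((q))` is algebraic over `k(j̄)`, for every field `k` of characteristic `p`. -/
theorem k7fres_red_isAlgebraic (x : LaurentSeries ℤ)
    (h : IsAlgebraic (adjoin ℚ {jqModC ℚ}) (coeffMap (Int.castRingHom ℚ) x)) :
    IsAlgebraic (adjoin k {jqModC k}) (coeffMap (Int.castRingHom k) x) := by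
  obtain ⟨n, c, hc, ⟨i₀, hi₀⟩, hrel⟩ :=
    k7fres_rel_of_isAlgebraic _ _ (k7fres_red_zmod p x h)
  have hx : coeffMap (ZMod.castHom (dvd_refl p) k) (coeffMap (Int.castRingHom (ZMod p)) x)
      = coeffMap (Int.castRingHom k) x := by
    rw [coeffMap_coeffMap]
    exact coeffMap_congr (RingHom.ext_int _ _) _
  refine k7fres_isAlgebraic_of_rel _ _
    (fun i => coeffMap (ZMod.castHom (dvd_refl p) k) (c i))
    (fun i => k7fres_baseChange_mem p k _ (hc i)) ⟨i₀, ?_⟩ ?_
  · intro h0
    exact hi₀ ((map_eq_zero (coeffMap (ZMod.castHom (dvd_refl p) k))).mp h0)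
  · have h1 := congrArg (coeffMap (ZMod.castHom (dvd_refl p) k)) hrel
    rw [map_sum, map_zero] at h1
    rw [← h1]
    refine Finset.sum_congr rfl fun i _ => ?_
    rw [map_mul, map_pow, hx]

end Red

section Jd

variable (E : Type*) [Field E]

/-- `j(q^d)` is algebraic over `E(j)`, for every field `E` -/
theorem k7fres_isAlgebraic_intJd (N : ℕ) (hN : N ≠ 0) (d : ℕ) (hd : d ∣ N) :
    IsAlgebraic (adjoin E {jqModC E}) (Fermat.Agent.S28.intJd E d) := by
  have hrel : ∀ q : ℕ, q.Prime → ∀ a : ℕ, q * a ∣ N →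
      ∃ Φ : Polynomial (Polynomial ℤ), Φ.Monic ∧
        Φ.eval₂ (Fermat.Agent.S28.evalInt (Fermat.Agent.S28.intJd E a))
          (Fermat.Agent.S28.intJd E (q * a)) = 0 := by
    intro q hq a hqa
    obtain ⟨Φ, hΦm, hΦ⟩ := Fermat.Agent.S28.intModEq q hq
    refine ⟨Φ, hΦm, ?_⟩
    have ha : a ∣ N := (Dvd.intro_left q rfl).trans hqa
    have ha0 : a ≠ 0 := fun h0 => hN (Nat.eq_zero_of_zero_dvd (h0 ▸ ha))
    exact Fermat.Agent.S28.IntModEq.shift hΦ E ha0 hq.ne_zero
  have key := Fermat.Agent.INJ.bgFin_isAlgebraic_jd (K := E) (L := LaurentSeries E)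
    (fun d => Fermat.Agent.S28.intJd E d) N hN hrel d hd
  rw [Fermat.Agent.S28.intJd_one] at key
  exact key

end Jd

end Fermat.Agent.RT.K7F

end
end ZBRT_056_0

/-! ### bundled: `Fermat.Agent.RT.K7F.ResFin` -/
section ZBRT_056_1

/-!
# K7F / FL-RES, part 2: `F̄_H = fieldC k L M H` is finite over `k(j̄)` in characteristic `p`

* `k7fres_fieldC_rat_le` : every element of `fieldC ℚ L M H` is algebraic over `ℚ(j)`
  (from `ES1.stmtDiamondH`: `fieldC = F₀(S₁)`, `S₁` integral over `F₀`; `F₀ / ℚ(j)` by the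
  integral modular equations).
* `k7fres_fieldC_le` : every element of `fieldC k L M H` is algebraic over `k(j̄)`
  (`char k = p`; reduction of the relations of the generators, `k7fres_red_isAlgebraic`).
* `k7fres_finiteDimensional` : `[fieldC k L M H : k(j̄)] < ∞`.
-/

set_option autoImplicit false
set_option linter.style.haveILetI false
set_option synthInstance.maxHeartbeats 400000
set_option maxHeartbeats 1600000

noncomputable section

open IntermediateField Polynomial ModularCurve

namespace Fermat.Agent.RT.K7F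

open Fermat.Agent.ES1 Fermat.Agent.S28

/-- `F₀ = E(j(q^d) : d ∣ L)` is algebraic over `E(j)` -/
theorem k7fres_full_le_algClosure (E : Type*) [Field E] (L : ℕ) (hL : L ≠ 0) :
    modularFunctionFieldFullC E L ≤
      (algebraicClosure (adjoin E {jqModC E}) (LaurentSeries E)).restrictScalars E := by
  rw [modularFunctionFieldFullC, IntermediateField.adjoin_le_iff]
  intro x hx
  obtain ⟨d, hd, rfl⟩ := Fermat.Agent.INJ.bgFin_mem_divisorExpansionsC E L hx
  exact mem_algebraicClosure_iff.mpr (k7fres_isAlgebraic_intJd E L hL d hd)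

/-- characteristic `0`: every element of `fieldC K L M H` is algebraic over `K(j)` -/
theorem k7fres_fieldC_char0_le (K : Type) [Field K] [CharZero K] [Algebra.IsAlgebraic ℚ K]
    (L M : ℕ) (H : Subgroup (ZMod M)ˣ) (hL : L ≠ 0) (hML : M ∣ L) :
    fieldC K L M H ≤
      (algebraicClosure (adjoin K {jqModC K}) (LaurentSeries K)).restrictScalars K := by
  have hM0 : M ≠ 0 := fun h => hL (by rw [h] at hML; exact Nat.eq_zero_of_zero_dvd hML)
  obtain ⟨m, a, ha⟩ := exists_isRepFam hM0 H
  obtain ⟨hgen, ⟨P, hPm, hPd, hPr⟩, -⟩ := stmtDiamondH K L M H a hL hML ha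
  have hF₀ := k7fres_full_le_algClosure K L hL
  refine hgen.trans ?_
  rw [IntermediateField.adjoin_le_iff]
  rintro x (hx | hx)
  · exact hF₀ hx
  · rw [Set.mem_singleton_iff] at hx
    subst hx
    show sS K M H 1 ∈ algebraicClosure (adjoin K {jqModC K}) (LaurentSeries K)
    let ι : ↥(modularFunctionFieldFullC K L) →+*
        ↥(algebraicClosure (adjoin K {jqModC K}) (LaurentSeries K)) :=
      (modularFunctionFieldFullC K L).val.toRingHom.codRestrict
        (algebraicClosure (adjoin K {jqModC K}) (LaurentSeries K)) (fun z => hF₀ z.2)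
    have hint : IsIntegral (algebraicClosure (adjoin K {jqModC K}) (LaurentSeries K))
        (sS K M H 1) := by
      refine ⟨P.map ι, hPm.map _, ?_⟩
      rw [Polynomial.eval₂_map]
      have hcomp : (algebraMap (algebraicClosure (adjoin K {jqModC K}) (LaurentSeries K))
          (LaurentSeries K)).comp ι = (modularFunctionFieldFullC K L).val.toRingHom := by
        ext z; rfl
      rw [hcomp]
      exact hPr
    have h2 : IsIntegral (adjoin K {jqModC K}) (sS K M H 1) := isIntegral_trans _ hint
    exact mem_algebraicClosure_iff.mpr h2.isAlgebraic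

/-- `ℚ` is algebraic over `ℚ` (for the `DivisionRing` algebra structure) -/
theorem k7fres_isAlgebraic_rat : Algebra.IsAlgebraic ℚ ℚ :=
  ⟨fun x => ⟨Polynomial.X - Polynomial.C x, Polynomial.X_sub_C_ne_zero x, by simp⟩⟩

/-- characteristic `0`, `K = ℚ` -/
theorem k7fres_fieldC_rat_isAlgebraic (L M : ℕ) (H : Subgroup (ZMod M)ˣ) (hL : L ≠ 0)
    (hML : M ∣ L) (x : LaurentSeries ℚ) (hx : x ∈ fieldC ℚ L M H) :
    IsAlgebraic (adjoin ℚ {jqModC ℚ}) x := by
  haveI := k7fres_isAlgebraic_rat
  exact mem_algebraicClosure_iff.mp (k7fres_fieldC_char0_le ℚ L M H hL hML hx)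

/-- the set of generators of `fieldC k L M H` is finite -/
theorem k7fres_gens_finite (k : Type*) [Field k] (L M : ℕ) (H : Subgroup (ZMod M)ˣ)
    (hL : L ≠ 0) (hML : M ∣ L) :
    (divisorExpansionsC k L ∪ diamondExpansionsC k L M H).Finite := by
  classical
  have hM0 : M ≠ 0 := fun h => hL (by rw [h] at hML; exact Nat.eq_zero_of_zero_dvd hML)
  haveI : NeZero M := ⟨hM0⟩
  refine Set.Finite.union ?_ ?_
  · refine Set.Finite.subset ((Finset.finite_toSet L.divisors).image (fun d => intJd k d)) ?_
    intro x hx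
    obtain ⟨d, hd, rfl⟩ := Fermat.Agent.INJ.bgFin_mem_divisorExpansionsC k L hx
    exact ⟨d, Finset.mem_coe.mpr (Nat.mem_divisors.mpr ⟨hd, hL⟩), rfl⟩
  · refine Set.Finite.subset
      (((Finset.finite_toSet L.divisors).prod (Set.finite_univ (α := (ZMod M)ˣ))).image
        (fun ea : ℕ × (ZMod M)ˣ =>
          if h : ea.1 = 0 then (0 : LaurentSeries k)
          else @qExpand k _ ea.1 ⟨h⟩ (sS k M H ea.2))) ?_
    rintro x ⟨e, he, a, heL, rfl⟩
    refine ⟨(e, a), ⟨?_, Set.mem_univ _⟩, ?_⟩
    · exact Finset.mem_coe.mpr (Nat.mem_divisors.mpr ⟨(Dvd.intro _ rfl).trans heL, hL⟩)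
    · simp only [dif_neg he.out]

section Fin

variable (k : Type*) [Field k] (p : ℕ) [Fact p.Prime] [CharP k p]
variable (L M : ℕ) (H : Subgroup (ZMod M)ˣ)

include p

/-- characteristic `p`: every element of `fieldC k L M H` is algebraic over `k(j̄)` -/
theorem k7fres_fieldC_le (hL : L ≠ 0) (hML : M ∣ L) :
    fieldC k L M H ≤
      (algebraicClosure (adjoin k {jqModC k}) (LaurentSeries k)).restrictScalars k := by
  rw [fieldC, IntermediateField.adjoin_le_iff]
  rintro x (hx | ⟨e, he, a, heL, rfl⟩)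
  · exact k7fres_full_le_algClosure k L hL (IntermediateField.subset_adjoin k _ hx)
  · show _ ∈ algebraicClosure (adjoin k {jqModC k}) (LaurentSeries k)
    rw [mem_algebraicClosure_iff]
    have h1 : qExpand k e (sS k M H a) =
        coeffMap (Int.castRingHom k) (qExpand ℤ e (sS ℤ M H a)) :=
      (es1f_coeffMap_qExpand_sS (Int.castRingHom k) M H a e).symm
    rw [h1]
    apply k7fres_red_isAlgebraic p k
    rw [es1f_coeffMap_qExpand_sS]
    exact k7fres_fieldC_rat_isAlgebraic L M H hL hML _ (qExpand_sS_mem ℚ L M H heL a)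

/-- **`F̄_H` is finite over `k(j̄)`.** -/
theorem k7fres_finiteDimensional (hL : L ≠ 0) (hML : M ∣ L) (J : ↥(fieldC k L M H))
    (hJ : (J : LaurentSeries k) = jqModC k) :
    FiniteDimensional k⟮J⟯ ↥(fieldC k L M H) := by
  have hGF : divisorExpansionsC k L ∪ diamondExpansionsC k L M H ⊆
      ((fieldC k L M H : IntermediateField k (LaurentSeries k)) : Set (LaurentSeries k)) :=
    fun x hx => IntermediateField.subset_adjoin k _ hx
  refine Fermat.Agent.INJ.bgFin_of_generators J
    {x : ↥(fieldC k L M H) | (x : LaurentSeries k) ∈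
      divisorExpansionsC k L ∪ diamondExpansionsC k L M H} ?_ ?_ ?_
  · exact (k7fres_gens_finite k L M H hL hML).preimage Subtype.val_injective.injOn
  · intro y _
    apply k7fres_isAlgebraic_subtype
    rw [hJ]
    exact mem_algebraicClosure_iff.mp (k7fres_fieldC_le k p L M H hL hML y.2)
  · rw [eq_top_iff, ← Fermat.Agent.INJ.bgFin_adjoin_subtype_eq_top (fieldC k L M H) _ hGF le_rfl]
    exact IntermediateField.adjoin.mono k _ _ (Set.subset_insert _ _)

end Fin

end Fermat.Agent.RT.K7F

end
end ZBRT_056_1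

/-! ### bundled: `Fermat.Agent.RT.K7F.ResSide` -/
section ZBRT_056_2

/-!
# K7F / FL-RES: the residue side `F̄_H = ES1.fieldC k L M H`, `k` of characteristic `p`

Fork of `DEU/ResSide.lean` (there: `F̄₀ = modularFunctionFieldFullC k N`).

GENERIC part (`k7fresg_*`): `F` any intermediate field of `k((q)) / k` containing `j̄` and finite
over `k(j̄)`:
* `k7fresg_transcendental` : `j̄` is transcendental;
* `k7fresg_isSeparable` : `F / k(j̄)` is separable (`k` perfect);
* `k7fresg_hroot` : every transcendental `y ∈ F` is `z ^ (p ^ e)`, `z ∈ F` not a `p`-th power in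
  `k((q))` (so `F / k(z)` is separable, `k7fresg_isSeparable_of_not_pow`);
* `k7fresg_hasPrincipalDivisors`, `k7fresg_residue_bijective` (`k` algebraically closed).

INSTANCE `F = fieldC k L M H`, `L ≠ 0`, `M ∣ L` (`k7fres_*`):
* `k7fresJ`, `k7fres_finiteDimensionalJ`, `k7fres_ff1 : ES1.Es1hFF1 k F̄_H`,
* `k7fres_isSeparable`, `k7fres_hroot`, `k7fres_root_mem`,
* `k7fres_hasPrincipalDivisors`, `k7fres_residue_bijective`.
-/

set_option autoImplicit false
set_option linter.unusedSectionVars false
set_option linter.style.haveILetI false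
set_option synthInstance.maxHeartbeats 400000
set_option maxHeartbeats 1600000

open ModularCurve HahnSeries IntermediateField

namespace Fermat.Agent.RT.K7F

open Fermat.Agent.DEU Fermat.Agent.ES1

section Generic

variable (k : Type*) [Field k] (p : ℕ) [Fact p.Prime] [CharP k p]
variable (F : IntermediateField k (LaurentSeries k)) (J : F)
  (hJ : (J : LaurentSeries k) = jqModC k)

include hJ in
theorem k7fresg_transcendental : Transcendental k J := by
  intro h
  have h1 : IsAlgebraic k ((J : F) : LaurentSeries k) := by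
    have := h.algHom F.val
    simpa using this
  rw [hJ] at h1
  exact Fermat.Agent.S28.red_transcendental_jqModC k h1

/-- a transcendental element of `F` is not constant as a Laurent series -/
theorem k7fresg_exists_coeff_ne_zero (y : F) (hy : Transcendental k y) :
    ∃ n : ℤ, n ≠ 0 ∧ (y : LaurentSeries k).coeff n ≠ 0 := by
  by_contra hcon
  push Not at hcon
  apply hy
  have h1 : (y : LaurentSeries k) = HahnSeries.C ((y : LaurentSeries k).coeff 0) := by
    ext n
    by_cases hn : n = 0
    · subst hn; simp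
    · rw [hcon n hn]
      simp [HahnSeries.C_apply, HahnSeries.coeff_single_of_ne hn]
  have h2 : y = algebraMap k F ((y : LaurentSeries k).coeff 0) := by
    apply Subtype.ext
    have h3 : ((algebraMap k F ((y : LaurentSeries k).coeff 0) : F) : LaurentSeries k) =
          algebraMap k (LaurentSeries k) ((y : LaurentSeries k).coeff 0) := rfl
    rw [h3, LaurentSeries.algebraMap_apply]
    exact h1
  rw [h2]
  exact isAlgebraic_algebraMap _

variable [PerfectRing k p]

include p

/-- an element of `F` that is not a `p`-th power in `k((q))` is separating -/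
theorem k7fresg_isSeparable_of_not_pow (z : F)
    (hz : ∀ w : LaurentSeries k, w ^ p ≠ (z : LaurentSeries k))
    [Algebra.IsAlgebraic k⟮z⟯ F] : Algebra.IsSeparable k⟮z⟯ F :=
  resSep_isSeparable p F z hz

include hJ in
/-- `F / k(j̄)` is separable. -/
theorem k7fresg_isSeparable [FiniteDimensional k⟮J⟯ F] : Algebra.IsSeparable k⟮J⟯ F := by
  haveI : Algebra.IsAlgebraic k⟮J⟯ F := Algebra.IsAlgebraic.of_finite _ _
  refine k7fresg_isSeparable_of_not_pow k p F J ?_
  rw [hJ]
  exact resSide_jq_not_pow k p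

include hJ in
/-- `F` is closed under `p ^ e`-th roots in `k((q))`. -/
theorem k7fresg_root_mem [FiniteDimensional k⟮J⟯ F] (e : ℕ) (w : LaurentSeries k)
    (hw : w ^ (p ^ e) ∈ F) : w ∈ F := by
  haveI := k7fresg_isSeparable k p F J hJ
  induction e generalizing w with
  | zero => simpa using hw
  | succ e ih =>
    refine ih w ?_
    refine resRoot_mem p F J (by rw [hJ]; exact resSide_jq_not_pow k p) (w ^ (p ^ e)) ?_
    rw [← pow_mul, ← pow_succ]
    exact hw

include hJ in
/-- **every transcendental element of `F` is a `p`-power of a separating element** -/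
theorem k7fresg_hroot [FiniteDimensional k⟮J⟯ F] (y : F) (hy : Transcendental k y) :
    ∃ (e : ℕ) (z : F), z ^ (p ^ e) = y ∧
      ∀ w : LaurentSeries k, w ^ p ≠ (z : LaurentSeries k) := by
  obtain ⟨e, w, hw, hwp⟩ := resLaurent_exists_root p (y : LaurentSeries k)
    (k7fresg_exists_coeff_ne_zero k F y hy)
  have hwF : w ∈ F := k7fresg_root_mem k p F J hJ e w (by rw [hw]; exact y.2)
  exact ⟨e, ⟨w, hwF⟩, Subtype.ext hw, hwp⟩

omit [PerfectRing k p] in
include hJ in
/-- principal divisors (any characteristic `p > 0`, `k` algebraically closed) -/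
theorem k7fresg_hasPrincipalDivisors [IsAlgClosed k] [FiniteDimensional k⟮J⟯ F] :
    AlgebraicCurve.HasPrincipalDivisors k F := by
  haveI : PerfectRing k p := inferInstance
  exact resPD_hasPrincipalDivisors p F J (k7fresg_transcendental k F J hJ)
    (k7fresg_hroot k p F J hJ)

omit [Fact p.Prime] [CharP k p] [PerfectRing k p] in
omit p in
include hJ in
/-- every place has residue field `k` (`k` algebraically closed) -/
theorem k7fresg_residue_bijective [IsAlgClosed k] [FiniteDimensional k⟮J⟯ F]
    (v : AlgebraicCurve.Place k F) :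
    Function.Bijective (algebraMap k v.ResidueField) :=
  Fermat.Agent.S24.algebraMap_residueField_bijective J
    (k7fresg_transcendental k F J hJ) (Algebra.IsAlgebraic.of_finite _ _) v

end Generic

section Instance

variable (k : Type*) [Field k] (p : ℕ) [Fact p.Prime] [CharP k p]
variable (L M : ℕ) (H : Subgroup (ZMod M)ˣ)

/-- `j̄` as an element of `F̄_H` -/
noncomputable def k7fresJ : ↥(fieldC k L M H) :=
  ⟨jqModC k, full_le_fieldC k L M H (jqModC_mem_full k L)⟩

@[simp] theorem coe_k7fresJ :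
    ((k7fresJ k L M H : ↥(fieldC k L M H)) : LaurentSeries k) = jqModC k := rfl

theorem k7fres_transcendental_J : Transcendental k (k7fresJ k L M H) :=
  k7fresg_transcendental k (fieldC k L M H) _ rfl

include p

/-- **`F̄_H / k(j̄)` is finite.** -/
theorem k7fres_finiteDimensionalJ (hL : L ≠ 0) (hML : M ∣ L) :
    FiniteDimensional k⟮k7fresJ k L M H⟯ ↥(fieldC k L M H) :=
  k7fres_finiteDimensional k p L M H hL hML _ rfl

/-- `F̄_H` is a function field of one variable over `k` -/
theorem k7fres_ff1 (hL : L ≠ 0) (hML : M ∣ L) : Es1hFF1 k ↥(fieldC k L M H) :=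
  ⟨k7fresJ k L M H, k7fres_transcendental_J k L M H, k7fres_finiteDimensionalJ k p L M H hL hML⟩

/-- `F̄_H` is finite over `k(g)` for every transcendental `g` -/
theorem k7fres_finiteDimensional_of_transcendental (hL : L ≠ 0) (hML : M ∣ L)
    (g : ↥(fieldC k L M H)) (hg : Transcendental k g) :
    FiniteDimensional k⟮g⟯ ↥(fieldC k L M H) :=
  (k7fres_ff1 k p L M H hL hML).finiteDimensional g hg

variable [PerfectRing k p]

/-- **`F̄_H / k(j̄)` is separable.** -/
theorem k7fres_isSeparable (hL : L ≠ 0) (hML : M ∣ L) :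
    Algebra.IsSeparable k⟮k7fresJ k L M H⟯ ↥(fieldC k L M H) := by
  haveI := k7fres_finiteDimensionalJ k p L M H hL hML
  exact k7fresg_isSeparable k p (fieldC k L M H) _ rfl

/-- an element of `F̄_H` that is not a `p`-th power in `k((q))` is separating -/
theorem k7fres_isSeparable_of_not_pow (z : ↥(fieldC k L M H))
    (hz : ∀ w : LaurentSeries k, w ^ p ≠ (z : LaurentSeries k))
    [Algebra.IsAlgebraic k⟮z⟯ ↥(fieldC k L M H)] :
    Algebra.IsSeparable k⟮z⟯ ↥(fieldC k L M H) :=
  resSep_isSeparable p (fieldC k L M H) z hz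

/-- `F̄_H` is closed under `p ^ e`-th roots in `k((q))`. -/
theorem k7fres_root_mem (hL : L ≠ 0) (hML : M ∣ L) (e : ℕ) (w : LaurentSeries k)
    (hw : w ^ (p ^ e) ∈ fieldC k L M H) : w ∈ fieldC k L M H := by
  haveI := k7fres_finiteDimensionalJ k p L M H hL hML
  exact k7fresg_root_mem k p (fieldC k L M H) (k7fresJ k L M H) rfl e w hw

/-- **every transcendental element of `F̄_H` is a `p`-power of a separating element** -/
theorem k7fres_hroot (hL : L ≠ 0) (hML : M ∣ L) (y : ↥(fieldC k L M H))
    (hy : Transcendental k y) :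
    ∃ (e : ℕ) (z : ↥(fieldC k L M H)), z ^ (p ^ e) = y ∧
      ∀ w : LaurentSeries k, w ^ p ≠ (z : LaurentSeries k) := by
  haveI := k7fres_finiteDimensionalJ k p L M H hL hML
  exact k7fresg_hroot k p (fieldC k L M H) (k7fresJ k L M H) rfl y hy

omit [PerfectRing k p] in
/-- **FL-RES (a).** `F̄_H` has principal divisors. -/
theorem k7fres_hasPrincipalDivisors [IsAlgClosed k] (hL : L ≠ 0) (hML : M ∣ L) :
    AlgebraicCurve.HasPrincipalDivisors k ↥(fieldC k L M H) := by
  haveI := k7fres_finiteDimensionalJ k p L M H hL hML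
  exact k7fresg_hasPrincipalDivisors k p (fieldC k L M H) (k7fresJ k L M H) rfl

omit [PerfectRing k p] in
/-- **FL-RES (b).** Every place of `F̄_H` has residue field `k`. -/
theorem k7fres_residue_bijective [IsAlgClosed k] (hL : L ≠ 0) (hML : M ∣ L)
    (v : AlgebraicCurve.Place k ↥(fieldC k L M H)) :
    Function.Bijective (algebraMap k v.ResidueField) := by
  haveI := k7fres_finiteDimensionalJ k p L M H hL hML
  exact k7fresg_residue_bijective k (fieldC k L M H) (k7fresJ k L M H) rfl v

end Instance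

end Fermat.Agent.RT.K7F


end ZBRT_056_2

/-! ### bundled: `Fermat.Agent.RT.K7F.ResRam` -/
section ZBRT_056_3

/-!
# K7F / FL-RES, part 4: ramification of `j̄` on `F̄_H`, and the instances at `k = kA A`

* `k7fres_finite_ram` : `j̄` is unramified outside a finite set of places of `F̄_H`
  (fork of `DEU.deuRamInst_finite_resSideJ`; the residue half of FL-GOOD);
* `k7fres_kA_hresk`, `k7fres_kA_hpdk`, `k7fres_kA_finiteDimensionalJ`, `k7fres_kA_isSeparable`,
  `k7fres_kA_finite_ram` : the statements for `k = kA A`, `A ⊂ ℚ̄` a valuation ring over `p`.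
-/

set_option autoImplicit false
set_option linter.unusedSectionVars false
set_option linter.style.haveILetI false
set_option synthInstance.maxHeartbeats 400000
set_option maxHeartbeats 1600000

open ModularCurve AlgebraicCurve HahnSeries IntermediateField

namespace Fermat.Agent.RT.K7F

open Fermat.Agent.DEU Fermat.Agent.ES1 Fermat.Agent.ES Fermat.Agent.ES.M Fermat.Agent.S24

/-- **the residue half of FL-GOOD**: `j̄` is unramified outside a finite set of places of
`F̄_H` (`k` algebraically closed of characteristic `p`). -/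
theorem k7fres_finite_ram (k : Type*) [Field k] [IsAlgClosed k] (p : ℕ) [Fact p.Prime]
    [CharP k p] (L M : ℕ) (H : Subgroup (ZMod M)ˣ) (hL : L ≠ 0) (hML : M ∣ L) :
    {Q : Place k ↥(fieldC k L M H) |
      ¬ ∃ c : k, Q.ord (k7fresJ k L M H - algebraMap k ↥(fieldC k L M H) c) = 1}.Finite := by
  haveI : PerfectRing k p := inferInstance
  haveI := k7fres_finiteDimensionalJ k p L M H hL hML
  haveI := k7fres_isSeparable k p L M H hL hML
  haveI := k7fres_hasPrincipalDivisors k p L M H hL hML
  exact deuRam_finite_of_separable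
    (fun Q => (k7fres_residue_bijective k p L M H hL hML Q).2) (k7fresJ k L M H)

section KA

variable (L M : ℕ) (H : Subgroup (ZMod M)ˣ) (A : ValuationSubring Kb)

/-- the places of `F̄_H` over `kA A` have residue field `kA A` -/
theorem k7fres_kA_hresk {p : ℕ} (hp : p.Prime) (hA : A.LiesOverPrime p) (hL : L ≠ 0)
    (hML : M ∣ L) (v : Place (kA A) ↥(fieldC (kA A) L M H)) :
    Function.Bijective (algebraMap (kA A) v.ResidueField) :=
  haveI : IsAlgClosed (kA A) := Fermat.Agent.RED.isAlgClosed_residueField A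
  haveI : Fact p.Prime := ⟨hp⟩
  haveI : CharP (kA A) p := kron_charP_residueField hp hA
  k7fres_residue_bijective (kA A) p L M H hL hML v

/-- `F̄_H` over `kA A` has principal divisors -/
theorem k7fres_kA_hpdk {p : ℕ} (hp : p.Prime) (hA : A.LiesOverPrime p) (hL : L ≠ 0)
    (hML : M ∣ L) : HasPrincipalDivisors (kA A) ↥(fieldC (kA A) L M H) :=
  haveI : IsAlgClosed (kA A) := Fermat.Agent.RED.isAlgClosed_residueField A
  haveI : Fact p.Prime := ⟨hp⟩
  haveI : CharP (kA A) p := kron_charP_residueField hp hA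
  k7fres_hasPrincipalDivisors (kA A) p L M H hL hML

/-- `F̄_H / kA(j̄)` is finite -/
theorem k7fres_kA_finiteDimensionalJ {p : ℕ} (hp : p.Prime) (hA : A.LiesOverPrime p)
    (hL : L ≠ 0) (hML : M ∣ L) :
    FiniteDimensional (kA A)⟮k7fresJ (kA A) L M H⟯ ↥(fieldC (kA A) L M H) :=
  haveI : Fact p.Prime := ⟨hp⟩
  haveI : CharP (kA A) p := kron_charP_residueField hp hA
  k7fres_finiteDimensionalJ (kA A) p L M H hL hML

/-- `F̄_H / kA(j̄)` is separable -/
theorem k7fres_kA_isSeparable {p : ℕ} (hp : p.Prime) (hA : A.LiesOverPrime p)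
    (hL : L ≠ 0) (hML : M ∣ L) :
    Algebra.IsSeparable (kA A)⟮k7fresJ (kA A) L M H⟯ ↥(fieldC (kA A) L M H) :=
  haveI : IsAlgClosed (kA A) := Fermat.Agent.RED.isAlgClosed_residueField A
  haveI : Fact p.Prime := ⟨hp⟩
  haveI : CharP (kA A) p := kron_charP_residueField hp hA
  haveI : PerfectRing (kA A) p := inferInstance
  k7fres_isSeparable (kA A) p L M H hL hML

/-- every transcendental element of `F̄_H` over `kA A` is a `p`-power of a separating element -/
theorem k7fres_kA_hroot {p : ℕ} (hp : p.Prime) (hA : A.LiesOverPrime p)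
    (hL : L ≠ 0) (hML : M ∣ L) (y : ↥(fieldC (kA A) L M H)) (hy : Transcendental (kA A) y) :
    ∃ (e : ℕ) (z : ↥(fieldC (kA A) L M H)), z ^ (p ^ e) = y ∧
      ∀ w : LaurentSeries (kA A), w ^ p ≠ (z : LaurentSeries (kA A)) :=
  haveI : IsAlgClosed (kA A) := Fermat.Agent.RED.isAlgClosed_residueField A
  haveI : Fact p.Prime := ⟨hp⟩
  haveI : CharP (kA A) p := kron_charP_residueField hp hA
  haveI : PerfectRing (kA A) p := inferInstance
  k7fres_hroot (kA A) p L M H hL hML y hy

/-- `j̄` is unramified outside a finite set of places of `F̄_H` over `kA A` -/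
theorem k7fres_kA_finite_ram {p : ℕ} (hp : p.Prime) (hA : A.LiesOverPrime p)
    (hL : L ≠ 0) (hML : M ∣ L) :
    {Q : Place (kA A) ↥(fieldC (kA A) L M H) |
      ¬ ∃ c : kA A, Q.ord (k7fresJ (kA A) L M H -
        algebraMap (kA A) ↥(fieldC (kA A) L M H) c) = 1}.Finite :=
  haveI : IsAlgClosed (kA A) := Fermat.Agent.RED.isAlgClosed_residueField A
  haveI : Fact p.Prime := ⟨hp⟩
  haveI : CharP (kA A) p := kron_charP_residueField hp hA
  k7fres_finite_ram (kA A) p L M H hL hML

end KA

end Fermat.Agent.RT.K7F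


end ZBRT_056_3
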