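/- GENERATED FILE (helper35, build-time optimisation, NOTES/ZB.md): verbatim concatenation of the modules
   Fermat.Agent.RT.K7F.AnchCusp
   Do not edit; do not import together with these modules. -/
import Fermat.Agent.ZB.S18_001
import Fermat.Agent.ZB.ES_001
import Fermat.Agent.ZB.ES1_002
import Fermat.Agent.ZB.ES1_009

/-! ### bundled: `Fermat.Agent.RT.K7F.AnchCusp` -/
section ZBRT_057_0
/-
K7F, FL-ANCH, sub-piece AnchCusp (helper65, for helper8): the cusp `∞`.

* `k7fanchc_exists_cusp` : GENERIC: if `E ⊂ k((q))` contains an element `J` of `q`-order `-1`, the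
  `q`-adic valuation is a place of `E / k` of degree one whose order function is the `q`-order
  (generic copy of `DEU.deuAnchor_exists_cusp`).
* `k7fanchc_exists_cuspH`  : the cusp `∞` of `F_H = fieldBar L M H` (`IsCuspInftyH`, degree one).
* `k7fanchc_exists_cuspHk` : the cusp `∞̄` of `F̄_H = fieldC (kA A) L M H` (`IsCuspInftyHk`,
  degree one).
-/

set_option autoImplicit false
set_option linter.unusedSectionVars false
set_option synthInstance.maxHeartbeats 400000
set_option maxHeartbeats 1000000

noncomputable section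

namespace Fermat.Agent.RT.K7F

open ModularCurve AlgebraicCurve HahnSeries WithZero Fermat.Agent.ES Fermat.Agent.S24
  Fermat.Agent.ES.M Fermat.Agent.S18 Fermat.Agent.ES1

section Generic

variable {k : Type*} [Field k] (E : IntermediateField k (LaurentSeries k))

/-- **The cusp `∞` of a subfield `E ⊂ k((q))`** containing an element of `q`-order `-1`: a place
of degree one whose order function is the `q`-order. -/
theorem k7fanchc_exists_cusp (J : E) (hJ : (J : LaurentSeries k).order = -1) :
    ∃ Q : Place k E, (∀ x : E, x ≠ 0 → Q.ord x = (x : LaurentSeries k).order) ∧ Q.deg = 1 := by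
  have hJ0 : J ≠ 0 := by
    rintro rfl
    simp at hJ
  have hvord : ∀ f : E, f ≠ 0 → vord (qVal E) f = (f : LaurentSeries k).order := by
    intro f hf
    have hf' : (f : LaurentSeries k) ≠ 0 := fun h => hf (Subtype.ext h)
    rw [vord, qVal_apply, laurent_valued_eq_exp_neg_order hf', log_exp, neg_neg]
  have hpole : ∃ x : E, x ≠ 0 ∧ qVal E x < 1 := by
    refine ⟨J⁻¹, inv_ne_zero hJ0, ?_⟩
    rw [lt_one_iff_vord_pos (qVal E) (inv_ne_zero hJ0), vord_inv, hvord J hJ0, hJ]
    norm_num
  obtain ⟨w, e₀, he₀, hw, hord⟩ :=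
    exists_place_of_valuation (K := k) (qVal E) (qVal_algebraMap_le _) hpole
  have he : e₀ = 1 := by
    have h1 := hord J hJ0
    rw [hvord _ hJ0, hJ] at h1
    have hd : e₀ ∣ 1 := ⟨-w.ord J, by linarith⟩
    exact Int.eq_one_of_dvd_one he₀.le hd
  have hP : ∀ x : E, x ≠ 0 → w.ord x = (x : LaurentSeries k).order := by
    intro f hf
    have h1 := hord f hf
    rw [hvord f hf, he, one_mul] at h1
    exact h1.symm
  obtain ⟨w', hdeg, hnn, _⟩ := exists_cuspPlace hpole
  have hww' : w' = w := by
    apply Place.ext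
    rw [hw]
    ext f
    rcases eq_or_ne f 0 with rfl | hf
    · simp
    · rw [← PlaceAux.ord_nonneg_iff w' hf, hnn f hf, Valuation.mem_valuationSubring_iff,
        qVal_le_one_iff]
  rw [hww'] at hdeg
  exact ⟨w, hP, hdeg⟩

end Generic

section Concrete

variable (L M : ℕ) [NeZero L] (H : Subgroup (ZMod M)ˣ)

/-- **the cusp `∞` of `F_H`** -/
theorem k7fanchc_exists_cuspH :
    ∃ Pinf : Place Kb (fieldBar L M H), IsCuspInftyH L M H Pinf ∧ Pinf.deg = 1 :=
  k7fanchc_exists_cusp (fieldBar L M H) (jFH L M H) order_jBar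

/-- `j̄` has `q`-order `-1` over every field -/
theorem k7fanchc_order_jqModC (k : Type*) [Field k] : (jqModC k).order = -1 := by
  apply le_antisymm
  · exact HahnSeries.order_le_of_coeff_ne_zero (by rw [coeff_jqModC_neg_one]; exact one_ne_zero)
  · by_contra hlt
    push Not at hlt
    exact jqModC_ne_zero_of_nontrivial k
      (HahnSeries.coeff_order_eq_zero.1 (coeff_jqModC_of_lt k hlt))

/-- **the cusp `∞̄` of `F̄_H` over any field `k`** -/
theorem k7fanchc_exists_cuspC (k : Type*) [Field k] :
    ∃ Qinf : Place k (fieldC k L M H),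
      (∀ f : fieldC k L M H, f ≠ 0 → Qinf.ord f = (f : LaurentSeries k).order) ∧ Qinf.deg = 1 :=
  k7fanchc_exists_cusp (fieldC k L M H)
    ⟨jqModC k, full_le_fieldC k L M H (jqModC_mem_full k L)⟩ (k7fanchc_order_jqModC k)

/-- **the cusp `∞̄` of `F̄_H`** at a valuation ring `A ⊂ ℚ̄` -/
theorem k7fanchc_exists_cuspHk (A : ValuationSubring Kb) :
    ∃ Qinf : Place (kA A) (fieldC (kA A) L M H), IsCuspInftyHk L M H A Qinf ∧ Qinf.deg = 1 :=
  k7fanchc_exists_cuspC L M H (kA A)

end Concrete

end Fermat.Agent.RT.K7F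

end
end ZBRT_057_0
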