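/- GENERATED FILE (helper35, build-time optimisation, NOTES/ZB.md): verbatim concatenation of the modules
   Fermat.Agent.RT.K7F.DiamKD
   Fermat.Agent.RT.K7F.DiamRep
   Fermat.Agent.RT.K7F.DiamNF
   Fermat.Agent.RT.K7F.DiamAsc
   Do not edit; do not import together with these modules. -/
import Fermat.Agent.ZB.ES1_020
import Fermat.Agent.ZB.INJ_003
import Fermat.Agent.ZB.ES1_002
import Fermat.Agent.ZB.ES1_009
import Fermat.Agent.ZB.ES1_012
import Fermat.Agent.ZB.INJ_005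

/-! ### bundled: `Fermat.Agent.RT.K7F.DiamKD` -/
section ZBRT_058_0

/-!
# RT / K7-FLAT, piece FL-DIAM, part 1: the key data lift with its explicit family

`k7fd_kdLift_indep` : in the situation of `ES1.StmtKDLift` (Gauss key data `x` for `F₀`, a
conjugate family `S` with `F = F₀(S 0)`, the hypotheses of the tame specialization theorem for
`F`), the reductions of the products `x i * S 0 ^ j` are linearly independent over `k(t̄)`.
(This is the proof of `ES1.stmtKDLift` without the final packaging, which forgets the family.)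
-/

set_option autoImplicit false
set_option linter.style.haveILetI false
set_option linter.unusedSectionVars false

noncomputable section

namespace Fermat.Agent.RT.K7F

open Polynomial ModularCurve IntermediateField Fermat.Agent.S28 Fermat.Agent.INJ Fermat.Agent.ES1

/-- **Explicit key data lift**: the reductions of `x i * S 0 ^ j` are linearly independent over
`k(t̄)`. -/
theorem k7fd_kdLift_indep
    {A₀ E k : Type} [CommRing A₀] [IsDomain A₀] [IsDiscreteValuationRing A₀]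
    [Field E] [Algebra A₀ E] [IsFractionRing A₀ E] [CharZero E]
    [Field k] (r : A₀ →+* k) (F₀ F : IntermediateField E (LaurentSeries E))
    {π : A₀} (hπ : Irreducible π) (hrπ : r π = 0) (hr : ∀ a, r a = 0 → π ∣ a)
    {t₀ : LaurentSeries A₀} {n : ℕ} {x : Fin n → LaurentSeries A₀}
    (kd : GaussKD r F₀ t₀ x)
    (ht₀ : (coeffMap (algebraMap A₀ E) t₀).order = -1)
    {m : ℕ} (S : Fin (m + 1) → LaurentSeries A₀) (hS : ConjFamily r F₀ F S)
    (hgoodF₀ : ∀ [Algebra A₀ F₀] [IsScalarTower A₀ E F₀],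
      TSGoodBasis (A₀ := A₀) (E := E) (Lf := F₀) π
        ⟨coeffMap (algebraMap A₀ E) t₀, kd.t_mem⟩)
    (hfin : FiniteDimensional
      E⟮(⟨coeffMap (algebraMap A₀ E) t₀, hS.le kd.t_mem⟩ : F)⟯ F)
    (Sg : Finset A₀) (hSg : ∀ c ∈ Sg, ∀ c' ∈ Sg, c ≠ c' → ¬ π ∣ c - c')
    (e : ℕ) (he : IsUnit (e : A₀)) (hζe : ∃ ζ : A₀, IsPrimitiveRoot ζ e)
    (hram : ∀ [Algebra A₀ F] [IsScalarTower A₀ E F],
      TSUnramified (A₀ := A₀) (E := E) (Lf := F)
        ⟨coeffMap (algebraMap A₀ E) t₀, hS.le kd.t_mem⟩ Sg ∧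
      TSTame (A₀ := A₀) (E := E) (Lf := F)
        ⟨coeffMap (algebraMap A₀ E) t₀, hS.le kd.t_mem⟩ Sg e) :
    (∀ f ∈ F, ∃ c : Fin n × Fin (m + 1) → LaurentSeries E,
      (∀ j, c j ∈ adjoin E {coeffMap (algebraMap A₀ E) t₀}) ∧
        f = ∑ j, c j * coeffMap (algebraMap A₀ E) (x j.1 * S 0 ^ (j.2 : ℕ))) ∧
    ∀ c : Fin n × Fin (m + 1) → LaurentSeries k, (∀ j, c j ∈ adjoin k {coeffMap r t₀}) →
      ∑ j, c j * coeffMap r (x j.1 * S 0 ^ (j.2 : ℕ)) = 0 → ∀ j, c j = 0 := by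
  classical
  -- instances
  letI algF₀ : Algebra A₀ F₀ := coreAlg A₀ F₀
  haveI towF₀ : IsScalarTower A₀ E F₀ := coreAlg_isScalarTower A₀ F₀
  letI algF : Algebra A₀ F := coreAlg A₀ F
  haveI towF : IsScalarTower A₀ E F := coreAlg_isScalarTower A₀ F
  letI algFF : Algebra F₀ F := kdlAlg hS.le
  haveI towEFF : IsScalarTower E F₀ F := kdlAlg_isScalarTower hS.le
  haveI towAFF : IsScalarTower A₀ F₀ F := IsScalarTower.of_algebraMap_eq (fun a => by
    apply Subtype.ext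
    rfl)
  have hcoe : ∀ x : F₀, ((algebraMap F₀ F x : F) : LaurentSeries E) = (x : LaurentSeries E) :=
    fun _ => rfl
  obtain ⟨s, hs, hθint, hgoodF⟩ := kdl_goodBasis hcoe hπ hrπ hr kd ht₀ hS hgoodF₀
  -- the tame specialization theorem
  have htrF : Transcendental E (⟨coeffMap (algebraMap A₀ E) t₀, hS.le kd.t_mem⟩ : F) :=
    bgConst_transcendental F _ (by
      show (coeffMap (algebraMap A₀ E) t₀).order ≠ 0
      rw [ht₀]; norm_num)
  obtain ⟨P₀, -, hP₀, -⟩ := bgConst_exists_place F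
    (⟨coeffMap (algebraMap A₀ E) t₀, hS.le kd.t_mem⟩ : F) ht₀
  haveI := hfin
  have hprime : Prime (algebraMap A₀ (integralClosure
      (Algebra.adjoin A₀ {(⟨coeffMap (algebraMap A₀ E) t₀, hS.le kd.t_mem⟩ : F)}) F) π) :=
    tameSpecStmt.{0} A₀ E F π hπ _ htrF (bgConst_mem_range_of_isAlgebraic F) hgoodF Sg hSg
      hram.1 e he hζe hram.2 ⟨P₀, hP₀⟩
  -- span and bounded denominators
  have hspan := kdl_span hcoe kd hS
  have hbdd : ∀ f ∈ F, ∃ e : ℕ, (HahnSeries.C (algebraMap A₀ E π) : LaurentSeries E) ^ e * f ∈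
      gaussRing (algebraMap A₀ E) r := by
    intro f hf
    obtain ⟨c, hc, hfc⟩ := hspan f hf
    obtain ⟨e, he⟩ := kdl_bdd r hπ.prime hr t₀ kd.transc
      (fun j : Fin n × Fin (m + 1) => x j.1 * S 0 ^ (j.2 : ℕ)) c hc
    exact ⟨e, by rw [hfc]; exact he⟩
  -- independence
  have hint := kdl_int_indep hcoe hπ hrπ hr kd hS s hs hθint hbdd hprime
  have hmax : (Ideal.span {π}).IsMaximal := by
    rw [← hπ.maximalIdeal_eq]
    exact IsLocalRing.maximalIdeal.isMaximal A₀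
  exact ⟨hspan, kdl_indep_of_int' r hmax hrπ hr t₀
    (fun j : Fin n × Fin (m + 1) => x j.1 * S 0 ^ (j.2 : ℕ)) hint⟩

end Fermat.Agent.RT.K7F

end
end ZBRT_058_0

/-! ### bundled: `Fermat.Agent.RT.K7F.DiamRep` -/
section ZBRT_058_1

/-!
# RT / K7-FLAT, piece FL-DIAM, part 2: integral representation along a conjugate family

Setting of `ES1.StmtKDLift` (`A₀` a discrete valuation ring, `F = F₀(S 0)`).
`k7fd_rep_nf` : every `Y ∈ A₀((q))` with image in `F` satisfies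
`Q(t) · Y = ∑_{i,l} P_{i,l}(t) · x i · (S 0)^l` with `Q, P_{i,l} ∈ A₀[X]`, `Q̄ ≠ 0`; and if `Ȳ = 0`
then all `P̄_{i,l} = 0`.
-/

set_option autoImplicit false
set_option linter.style.haveILetI false
set_option linter.unusedSectionVars false

noncomputable section

namespace Fermat.Agent.RT.K7F

open Polynomial ModularCurve IntermediateField Fermat.Agent.S28 Fermat.Agent.INJ Fermat.Agent.ES1

/-- **Integral representation** in the basis `x i * S 0 ^ l`. -/
theorem k7fd_rep_nf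
    {A₀ E k : Type} [CommRing A₀] [IsDomain A₀] [IsDiscreteValuationRing A₀]
    [Field E] [Algebra A₀ E] [IsFractionRing A₀ E] [CharZero E]
    [Field k] (r : A₀ →+* k) (F₀ F : IntermediateField E (LaurentSeries E))
    {π : A₀} (hπ : Irreducible π) (hrπ : r π = 0) (hr : ∀ a, r a = 0 → π ∣ a)
    {t₀ : LaurentSeries A₀} {n : ℕ} {x : Fin n → LaurentSeries A₀}
    (kd : GaussKD r F₀ t₀ x)
    (ht₀ : (coeffMap (algebraMap A₀ E) t₀).order = -1)
    {m : ℕ} (S : Fin (m + 1) → LaurentSeries A₀) (hS : ConjFamily r F₀ F S)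
    (hgoodF₀ : ∀ [Algebra A₀ F₀] [IsScalarTower A₀ E F₀],
      TSGoodBasis (A₀ := A₀) (E := E) (Lf := F₀) π
        ⟨coeffMap (algebraMap A₀ E) t₀, kd.t_mem⟩)
    (hfin : FiniteDimensional
      E⟮(⟨coeffMap (algebraMap A₀ E) t₀, hS.le kd.t_mem⟩ : F)⟯ F)
    (Sg : Finset A₀) (hSg : ∀ c ∈ Sg, ∀ c' ∈ Sg, c ≠ c' → ¬ π ∣ c - c')
    (e : ℕ) (he : IsUnit (e : A₀)) (hζe : ∃ ζ : A₀, IsPrimitiveRoot ζ e)
    (hram : ∀ [Algebra A₀ F] [IsScalarTower A₀ E F],
      TSUnramified (A₀ := A₀) (E := E) (Lf := F)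
        ⟨coeffMap (algebraMap A₀ E) t₀, hS.le kd.t_mem⟩ Sg ∧
      TSTame (A₀ := A₀) (E := E) (Lf := F)
        ⟨coeffMap (algebraMap A₀ E) t₀, hS.le kd.t_mem⟩ Sg e)
    (Y : LaurentSeries A₀) (hY : coeffMap (algebraMap A₀ E) Y ∈ F) :
    ∃ (Q : A₀[X]) (P : Fin n × Fin (m + 1) → A₀[X]), Q.map r ≠ 0 ∧
      aeval t₀ Q * Y = ∑ j, aeval t₀ (P j) * (x j.1 * S 0 ^ (j.2 : ℕ)) ∧
      (coeffMap r Y = 0 → ∀ j, (P j).map r = 0) := by
  classical
  obtain ⟨hspan, hind⟩ := k7fd_kdLift_indep r F₀ F hπ hrπ hr kd ht₀ S hS hgoodF₀ hfin Sg hSg e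
    he hζe hram
  -- reindexing
  let ε : Fin n × Fin (m + 1) ≃ Fin (Fintype.card (Fin n × Fin (m + 1))) :=
    Fintype.equivFin (Fin n × Fin (m + 1))
  have kdF : GaussKD r F t₀ (fun i => x (ε.symm i).1 * S 0 ^ ((ε.symm i).2 : ℕ)) := by
    refine ⟨hS.le kd.t_mem, fun i => ?_, ?_, ?_, kd.transc⟩
    · rw [map_mul, map_pow]
      exact mul_mem (hS.le (kd.mem _)) (pow_mem (hS.mem 0) _)
    · intro f hf
      obtain ⟨c, hc, hfc⟩ := hspan f hf
      refine ⟨fun i => c (ε.symm i), fun i => hc _, ?_⟩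
      rw [hfc]
      exact (Equiv.sum_comp ε.symm
        (fun j => c j * coeffMap (algebraMap A₀ E) (x j.1 * S 0 ^ (j.2 : ℕ)))).symm
    · intro c hc hrel i
      have h1 : ∑ j, c (ε j) * coeffMap r (x j.1 * S 0 ^ (j.2 : ℕ)) = 0 := by
        rw [← hrel]
        rw [← Equiv.sum_comp ε
          (fun i => c i * coeffMap r (x (ε.symm i).1 * S 0 ^ ((ε.symm i).2 : ℕ)))]
        refine Finset.sum_congr rfl fun j _ => ?_
        rw [Equiv.symm_apply_apply]
      have h2 := hind (fun j => c (ε j)) (fun j => hc _) h1 (ε.symm i)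
      simpa using h2
  obtain ⟨Q, P, hQ, hrel⟩ := kdF.exists_rep_aux hπ.ne_zero hπ.not_isUnit hr hY
    (T := Y) (b := 1) (by rw [map_one]; exact one_ne_zero) (by rw [map_one, one_mul])
  rw [one_mul] at hrel
  have hrel' : aeval t₀ Q * Y = ∑ j, aeval t₀ (P (ε j)) * (x j.1 * S 0 ^ (j.2 : ℕ)) := by
    rw [hrel, ← Equiv.sum_comp ε
      (fun i => aeval t₀ (P i) * (x (ε.symm i).1 * S 0 ^ ((ε.symm i).2 : ℕ)))]
    refine Finset.sum_congr rfl fun j _ => ?_
    rw [Equiv.symm_apply_apply]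
  refine ⟨Q, fun j => P (ε j), hQ, hrel', ?_⟩
  intro hY0 j
  have h1 := congrArg (coeffMap r) hrel'
  rw [map_mul, hY0, mul_zero, map_sum] at h1
  have h2 : ∑ j, aeval (coeffMap r t₀) ((P (ε j)).map r) *
      coeffMap r (x j.1 * S 0 ^ (j.2 : ℕ)) = 0 := by
    refine Eq.trans ?_ h1.symm
    refine Finset.sum_congr rfl fun j _ => ?_
    rw [map_mul (coeffMap r) (aeval t₀ (P (ε j))), redDVR_coeffMap_aeval]
  have h3 := hind (fun j => aeval (coeffMap r t₀) ((P (ε j)).map r))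
    (fun j => IntermediateField.algebra_adjoin_le_adjoin _ _
      (Polynomial.aeval_mem_adjoin_singleton _ _)) h2 j
  exact transcendental_iff.mp kd.transc _ h3

/-- polynomials in an element of an intermediate field lie in the field -/
theorem k7fd_aeval_mem {A₀ E : Type} [CommRing A₀] [Field E] [Algebra A₀ E]
    (F₀ : IntermediateField E (LaurentSeries E)) {t₀ : LaurentSeries A₀}
    (ht : coeffMap (algebraMap A₀ E) t₀ ∈ F₀) (Q : A₀[X]) :
    coeffMap (algebraMap A₀ E) (aeval t₀ Q) ∈ F₀ := by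
  rw [redDVR_coeffMap_aeval]
  have h1 : aeval (coeffMap (algebraMap A₀ E) t₀) (Q.map (algebraMap A₀ E)) ∈
      Algebra.adjoin E {coeffMap (algebraMap A₀ E) t₀} :=
    Polynomial.aeval_mem_adjoin_singleton _ _
  have h2 : Algebra.adjoin E {coeffMap (algebraMap A₀ E) t₀} ≤ F₀.toSubalgebra :=
    Algebra.adjoin_le (Set.singleton_subset_iff.mpr ht)
  exact h2 h1

/-- **Integral representation**, series form: `D · Y = ∑_{i,l} C_{i,l} · x i · (S 0)^l` with
`D, C_{i,l} ∈ A₀((q))` in `F₀`, `D̄ ≠ 0`, and `Ȳ = 0 → C̄_{i,l} = 0`. -/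
theorem k7fd_rep_series
    {A₀ E k : Type} [CommRing A₀] [IsDomain A₀] [IsDiscreteValuationRing A₀]
    [Field E] [Algebra A₀ E] [IsFractionRing A₀ E] [CharZero E]
    [Field k] (r : A₀ →+* k) (F₀ F : IntermediateField E (LaurentSeries E))
    {π : A₀} (hπ : Irreducible π) (hrπ : r π = 0) (hr : ∀ a, r a = 0 → π ∣ a)
    {t₀ : LaurentSeries A₀} {n : ℕ} {x : Fin n → LaurentSeries A₀}
    (kd : GaussKD r F₀ t₀ x)
    (ht₀ : (coeffMap (algebraMap A₀ E) t₀).order = -1)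
    {m : ℕ} (S : Fin (m + 1) → LaurentSeries A₀) (hS : ConjFamily r F₀ F S)
    (hgoodF₀ : ∀ [Algebra A₀ F₀] [IsScalarTower A₀ E F₀],
      TSGoodBasis (A₀ := A₀) (E := E) (Lf := F₀) π
        ⟨coeffMap (algebraMap A₀ E) t₀, kd.t_mem⟩)
    (hfin : FiniteDimensional
      E⟮(⟨coeffMap (algebraMap A₀ E) t₀, hS.le kd.t_mem⟩ : F)⟯ F)
    (Sg : Finset A₀) (hSg : ∀ c ∈ Sg, ∀ c' ∈ Sg, c ≠ c' → ¬ π ∣ c - c')
    (e : ℕ) (he : IsUnit (e : A₀)) (hζe : ∃ ζ : A₀, IsPrimitiveRoot ζ e)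
    (hram : ∀ [Algebra A₀ F] [IsScalarTower A₀ E F],
      TSUnramified (A₀ := A₀) (E := E) (Lf := F)
        ⟨coeffMap (algebraMap A₀ E) t₀, hS.le kd.t_mem⟩ Sg ∧
      TSTame (A₀ := A₀) (E := E) (Lf := F)
        ⟨coeffMap (algebraMap A₀ E) t₀, hS.le kd.t_mem⟩ Sg e)
    (Y : LaurentSeries A₀) (hY : coeffMap (algebraMap A₀ E) Y ∈ F) :
    ∃ (D : LaurentSeries A₀) (C : Fin n × Fin (m + 1) → LaurentSeries A₀),
      coeffMap (algebraMap A₀ E) D ∈ F₀ ∧ (∀ j, coeffMap (algebraMap A₀ E) (C j) ∈ F₀) ∧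
      coeffMap r D ≠ 0 ∧
      D * Y = ∑ j, C j * (x j.1 * S 0 ^ (j.2 : ℕ)) ∧
      (coeffMap r Y = 0 → ∀ j, coeffMap r (C j) = 0) := by
  obtain ⟨Q, P, hQ, hrel, hzero⟩ := k7fd_rep_nf r F₀ F hπ hrπ hr kd ht₀ S hS hgoodF₀ hfin Sg hSg
    e he hζe hram Y hY
  refine ⟨aeval t₀ Q, fun j => aeval t₀ (P j), k7fd_aeval_mem F₀ kd.t_mem Q,
    fun j => k7fd_aeval_mem F₀ kd.t_mem (P j), ?_, hrel, ?_⟩
  · rw [redDVR_coeffMap_aeval]
    exact fun h0 => hQ (transcendental_iff.mp kd.transc _ h0)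
  · intro hY0 j
    rw [redDVR_coeffMap_aeval, hzero hY0 j, map_zero]

end Fermat.Agent.RT.K7F

end
end ZBRT_058_1

/-! ### bundled: `Fermat.Agent.RT.K7F.DiamNF` -/
section ZBRT_058_2

/-!
# RT / K7-FLAT, piece FL-DIAM, part 3: the integral representation for `fieldC K₀ L M H`

`K₀ ⊂ ℚ̄` a number field containing the `6 L`-th roots of unity, `A ⊂ ℚ̄` a valuation ring over
`p ∤ L`, `p` odd, and `2 ∣ L` if `p = 3`; `A₀ = A ∩ K₀`.
`k7fd_rep_field` : every `Y ∈ A₀((q))` with image in `fieldC K₀ L M H` satisfies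
`D · Y = ∑_{i,l} C_{i,l} · X i · S^l`, `S = S_{M,H,1}`, with `D, C_{i,l}, X i ∈ A₀((q))` in the
`Γ₀(L)`-field, `D̄ ≠ 0`, and `Ȳ = 0 → C̄_{i,l} = 0`.

Proof: `k7fd_rep_series` over the `j`-line (`p ≥ 5`, as `ES1/InjInstJ.lean`) and over the
Hauptmodul line of `X₀(2)` (`p = 3`, as `ES1/InjInstH2.lean`).
-/

set_option autoImplicit false
set_option linter.style.haveILetI false
set_option linter.unusedSectionVars false
set_option synthInstance.maxHeartbeats 400000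
set_option maxHeartbeats 4000000

noncomputable section

namespace Fermat.Agent.RT.K7F

open Polynomial ModularCurve IntermediateField AlgebraicCurve Fermat.Agent.S24 Fermat.Agent.S28
  Fermat.Agent.INJ Fermat.Agent.ES1

/-- the conclusion of the representation theorem -/
def K7fdRep (A : ValuationSubring NfQb) (K₀ : IntermediateField ℚ NfQb) (L M : ℕ)
    (H : Subgroup (ZMod M)ˣ) (m : ℕ) (Y : LaurentSeries (nfSub A K₀)) : Prop :=
  ∃ (n : ℕ) (X : Fin n → LaurentSeries (nfSub A K₀)) (D : LaurentSeries (nfSub A K₀))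
    (C : Fin n × Fin (m + 1) → LaurentSeries (nfSub A K₀)),
    (∀ i, coeffMap (algebraMap (nfSub A K₀) K₀) (X i) ∈ modularFunctionFieldFullC K₀ L) ∧
    coeffMap (algebraMap (nfSub A K₀) K₀) D ∈ modularFunctionFieldFullC K₀ L ∧
    (∀ j, coeffMap (algebraMap (nfSub A K₀) K₀) (C j) ∈ modularFunctionFieldFullC K₀ L) ∧
    coeffMap (nfRes A K₀) D ≠ 0 ∧
    D * Y = ∑ j, C j * (X j.1 * sS (nfSub A K₀) M H 1 ^ (j.2 : ℕ)) ∧
    (coeffMap (nfRes A K₀) Y = 0 → ∀ j, coeffMap (nfRes A K₀) (C j) = 0)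

/-- **the `j`-line**, `p ∤ 6 L`. -/
theorem k7fd_rep_field_j (A : ValuationSubring NfQb) {p : ℕ} (hp : p.Prime)
    (hA : A.LiesOverPrime p) {L M : ℕ} (H : Subgroup (ZMod M)ˣ) (hL : L ≠ 0) (hML : M ∣ L)
    (hp6L : ¬ p ∣ 6 * L) {m : ℕ} (a : Fin (m + 1) → (ZMod M)ˣ) (ha : IsRepFam H a)
    (K₀ : IntermediateField ℚ NfQb) (hfin : FiniteDimensional ℚ K₀)
    (hζ6L : ∃ ζ : K₀, IsPrimitiveRoot ζ (6 * L))
    (Y : LaurentSeries (nfSub A K₀))
    (hY : coeffMap (algebraMap (nfSub A K₀) K₀) Y ∈ fieldC K₀ L M H) :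
    K7fdRep A K₀ L M H m Y := by
  classical
  haveI : NeZero L := ⟨hL⟩
  haveI : FiniteDimensional ℚ K₀ := hfin
  have hpL : ¬ p ∣ L := fun hd => hp6L (hd.mul_left 6)
  have hp6 : ¬ p ∣ 6 := fun hd => hp6L (hd.mul_right L)
  have hp1728 : ¬ (p : ℤ) ∣ 1728 := by
    intro hd
    have h1 : p ∣ 1728 := by exact_mod_cast hd
    have h2 : (1728 : ℕ) = 6 ^ 3 * 8 := by norm_num
    rw [h2] at h1
    rcases (Nat.Prime.dvd_mul hp).mp h1 with h3 | h3
    · exact hp6 (hp.dvd_of_dvd_pow h3)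
    · have h4 : (8 : ℕ) = 2 ^ 3 := by norm_num
      rw [h4] at h3
      have h5 := hp.dvd_of_dvd_pow h3
      exact hp6 (h5.trans (by norm_num))
  haveI : Algebra.IsAlgebraic ℚ K₀ := by
    have h : @Algebra.IsAlgebraic ℚ K₀ _ _ K₀.algebra' := Algebra.IsAlgebraic.of_finite ℚ K₀
    convert h
    · exact Subsingleton.elim _ _
  haveI hdvr : IsDiscreteValuationRing (nfSub A K₀) := ls_isDVR A K₀ hp hA
  obtain ⟨π, hπ⟩ := IsDiscreteValuationRing.exists_irreducible (nfSub A K₀)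
  have hrπ : nfRes A K₀ π = 0 := ls_res_irreducible A K₀ hπ
  have hr : ∀ a, nfRes A K₀ a = 0 → π ∣ a := fun a => ls_dvd_of_res_eq_zero A K₀ hπ a
  haveI : Fact p.Prime := ⟨hp⟩
  haveI : CharP (IsLocalRing.ResidueField A) p := ls_charP_residueField A hp hA
  haveI : PerfectRing (IsLocalRing.ResidueField A) p := nf_perfectRing_residueField A p
  have hLk : ((L : ℕ) : IsLocalRing.ResidueField A) ≠ 0 :=
    ls_natCast_residue_ne_zero A hp hA L hpL
  -- key data over the `j`-line for the `Γ₀(L)`-field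
  obtain ⟨x₀, kd₀⟩ := exists_gaussKD_j (E := K₀) (nfRes A K₀) π hπ.ne_zero hπ.not_isUnit hr L hLk
  have hkt : coeffMap (nfRes A K₀) (jqModC (nfSub A K₀)) = jqModC (IsLocalRing.ResidueField A) :=
    coeffMap_jqModC _
  have hEt : coeffMap (algebraMap (nfSub A K₀) K₀) (jqModC (nfSub A K₀)) = jqModC K₀ :=
    coeffMap_jqModC _
  have hord : (coeffMap (algebraMap (nfSub A K₀) K₀) (jqModC (nfSub A K₀))).order = -1 := by
    rw [hEt]
    exact bgConst_order_jqModC K₀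
  have h6L : 6 * L ≠ 0 := mul_ne_zero (by norm_num) hL
  have hroot : ∃ ζ : nfSub A K₀, IsPrimitiveRoot ζ (6 * L) :=
    ls_exists_primitiveRoot A K₀ h6L hζ6L
  -- the set `Σ = {0, 1728}`
  set S : Finset (nfSub A K₀) := {0, 1728} with hSdef
  have hdist : ∀ c ∈ S, ∀ c' ∈ S, c ≠ c' → ¬ π ∣ c - c' := by
    intro c hc c' hc' hcc
    rw [hSdef, Finset.mem_insert, Finset.mem_singleton] at hc hc'
    have key : ∀ a b : ℤ, ¬ (p : ℤ) ∣ a - b →
        ¬ π ∣ ((a : nfSub A K₀) - (b : nfSub A K₀)) := fun a b hab =>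
      ls_not_dvd_intCast_sub A K₀ hp hA hπ.not_isUnit a b hab
    rcases hc with rfl | rfl <;> rcases hc' with rfl | rfl
    · exact absurd rfl hcc
    · have := key 0 1728 (by rw [zero_sub, dvd_neg]; exact hp1728)
      simpa using this
    · have := key 1728 0 (by rw [sub_zero]; exact hp1728)
      simpa using this
    · exact absurd rfl hcc
  have hS01 : ∀ c ∈ S, algebraMap (nfSub A K₀) K₀ c = 0 ∨
      algebraMap (nfSub A K₀) K₀ c = 1728 := by
    intro c hc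
    rw [hSdef, Finset.mem_insert, Finset.mem_singleton] at hc
    rcases hc with rfl | rfl
    · left; exact map_zero _
    · right; rw [map_ofNat]
  have hS0 : ∃ c ∈ S, algebraMap (nfSub A K₀) K₀ c = 0 :=
    ⟨0, by rw [hSdef]; simp, map_zero _⟩
  have hS1728 : ∃ c ∈ S, algebraMap (nfSub A K₀) K₀ c = 1728 :=
    ⟨1728, by rw [hSdef]; simp, by rw [map_ofNat]⟩
  have hunit : IsUnit (((6 * L : ℕ) : ℕ) : nfSub A K₀) :=
    ls_isUnit_natCast A K₀ hp hA (6 * L) hp6L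
  -- the conjugate family
  have hSc : ConjFamily (nfRes A K₀) (modularFunctionFieldFullC K₀ L) (fieldC K₀ L M H)
      (fun i => sS (nfSub A K₀) M H (a i)) :=
    conjFamily_of_diamond stmtDiamondH (nfRes A K₀) L M H a hL hML ha
  have hR : RamJH L M H := stmtRamJH L M H hML
  have hfin₀ : FiniteDimensional
      K₀⟮(⟨coeffMap (algebraMap (nfSub A K₀) K₀) (jqModC (nfSub A K₀)), kd₀.t_mem⟩ :
        modularFunctionFieldFullC K₀ L)⟯ (modularFunctionFieldFullC K₀ L) := by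
    have h0 := bgFin_finiteDimensional_full K₀ L
    have heq : (⟨coeffMap (algebraMap (nfSub A K₀) K₀) (jqModC (nfSub A K₀)), kd₀.t_mem⟩ :
        modularFunctionFieldFullC K₀ L) = ⟨jqModC K₀, jqModC_mem_full K₀ L⟩ :=
      Subtype.ext hEt
    rw [heq]
    exact h0
  have hfinF : FiniteDimensional
      K₀⟮(⟨coeffMap (algebraMap (nfSub A K₀) K₀) (jqModC (nfSub A K₀)),
        hSc.le kd₀.t_mem⟩ : fieldC K₀ L M H)⟯ (fieldC K₀ L M H) := by
    obtain ⟨P, hPm, -, hP0⟩ := hSc.poly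
    exact injH1_fin_of_gen (modularFunctionFieldFullC K₀ L) (fieldC K₀ L M H) hSc.le _ hSc.gen
      (injH1_isIntegral_of_eval₂ _ _ ⟨P, hPm, hP0⟩) _ kd₀.t_mem hfin₀
  have hjeq : (⟨coeffMap (algebraMap (nfSub A K₀) K₀) (jqModC (nfSub A K₀)),
      hSc.le kd₀.t_mem⟩ : fieldC K₀ L M H) = jCH K₀ L M H := Subtype.ext hEt
  obtain ⟨D, C, hD, hC, hD0, hrel, hzero⟩ := k7fd_rep_series (A₀ := nfSub A K₀) (E := K₀)
    (k := IsLocalRing.ResidueField A)
    (nfRes A K₀) (modularFunctionFieldFullC K₀ L) (fieldC K₀ L M H) hπ hrπ hr kd₀ hord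
    (fun i => sS (nfSub A K₀) M H (a i)) hSc
    (fun {_ _} => kd₀.tsGoodBasis hπ.ne_zero hπ.not_isUnit hr hrπ p
      (by rw [hkt]; exact thetaFun_jqModC_ne_zero _))
    hfinF S hdist (6 * L) hunit hroot
    (fun {_ _} => by
      rw [hjeq]
      exact nfH_ram_jline_self K₀ L M H hR S hS01 hS0 hS1728 (6 * L)
        (Dvd.intro _ rfl) (Dvd.intro_left _ rfl)) Y hY
  refine ⟨_, x₀, D, C, kd₀.mem, hD, hC, hD0, ?_, hzero⟩
  rw [hrel]
  refine Finset.sum_congr rfl fun j _ => ?_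
  show C j * (x₀ j.1 * sS (nfSub A K₀) M H (a 0) ^ (j.2 : ℕ)) = _
  rw [ha.zero]

/-- **the Hauptmodul line of `X₀(2)`**, `p = 3`, `2 ∣ L`, `3 ∤ L`. -/
theorem k7fd_rep_field_h2 (A : ValuationSubring NfQb)
    (hA : A.LiesOverPrime 3) {L M : ℕ} (H : Subgroup (ZMod M)ˣ) (hL : L ≠ 0) (hML : M ∣ L)
    (h2 : 2 ∣ L) (h3 : ¬ 3 ∣ L) {m : ℕ} (a : Fin (m + 1) → (ZMod M)ˣ) (ha : IsRepFam H a)
    (K₀ : IntermediateField ℚ NfQb) (hfin : FiniteDimensional ℚ K₀)
    (hζ6L : ∃ ζ : K₀, IsPrimitiveRoot ζ (6 * L))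
    (Y : LaurentSeries (nfSub A K₀))
    (hY : coeffMap (algebraMap (nfSub A K₀) K₀) Y ∈ fieldC K₀ L M H) :
    K7fdRep A K₀ L M H m Y := by
  classical
  haveI : NeZero L := ⟨hL⟩
  haveI : FiniteDimensional ℚ K₀ := hfin
  have hℓ : (3 : ℕ).Prime := Nat.prime_three
  haveI : Algebra.IsAlgebraic ℚ K₀ := by
    have h : @Algebra.IsAlgebraic ℚ K₀ _ _ K₀.algebra' := Algebra.IsAlgebraic.of_finite ℚ K₀
    convert h
    · exact Subsingleton.elim _ _
  haveI hdvr : IsDiscreteValuationRing (nfSub A K₀) := ls_isDVR A K₀ hℓ hA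
  obtain ⟨π, hπ⟩ := IsDiscreteValuationRing.exists_irreducible (nfSub A K₀)
  have hrπ : nfRes A K₀ π = 0 := ls_res_irreducible A K₀ hπ
  have hr : ∀ a, nfRes A K₀ a = 0 → π ∣ a := fun a => ls_dvd_of_res_eq_zero A K₀ hπ a
  haveI : Fact (3 : ℕ).Prime := ⟨hℓ⟩
  haveI : CharP (IsLocalRing.ResidueField A) 3 := ls_charP_residueField A hℓ hA
  haveI : PerfectRing (IsLocalRing.ResidueField A) 3 := nf_perfectRing_residueField A 3
  have hLE : ((L : ℕ) : K₀) ≠ 0 := Nat.cast_ne_zero.mpr hL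
  have hLk : ((L : ℕ) : IsLocalRing.ResidueField A) ≠ 0 :=
    ls_natCast_residue_ne_zero A hℓ hA L h3
  have h2E : ((2 : ℕ) : K₀) ≠ 0 := Nat.cast_ne_zero.mpr (by norm_num)
  have h2k : ((2 : ℕ) : IsLocalRing.ResidueField A) ≠ 0 :=
    ls_natCast_residue_ne_zero A hℓ hA 2 (by norm_num)
  -- key data over the `hm2`-line for the `Γ₀(L)`-field
  have hkeq := adjoin_hm2_eq (IsLocalRing.ResidueField A) h2k
  have hjk : jqModC (IsLocalRing.ResidueField A) ∈
      (IsLocalRing.ResidueField A)⟮hm2 (IsLocalRing.ResidueField A)⟯ := by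
    rw [hkeq]; exact jqModC_mem_full _ 2
  obtain ⟨n₀, x₀, kd₀, -⟩ := exists_gaussKD_of_adjoin_eq (E := K₀) (nfRes A K₀) π hπ.ne_zero
    hπ.not_isUnit hr (N₀ := 2) (M := L) h2 hLE hLk hm2Z (adjoin_hm2_eq K₀ h2E) hkeq
    (transcendental_of_jqModC_mem _ hjk)
  have hkt : coeffMap (nfRes A K₀) (coeffMap (Int.castRingHom (nfSub A K₀)) hm2Z)
      = hm2 (IsLocalRing.ResidueField A) := by
    rw [coeffMap_coeffMap]
    exact coeffMap_congr (RingHom.ext_int _ _) _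
  have hEt : coeffMap (algebraMap (nfSub A K₀) K₀) (coeffMap (Int.castRingHom (nfSub A K₀)) hm2Z)
      = hm2 K₀ := by
    rw [coeffMap_coeffMap]
    exact coeffMap_congr (RingHom.ext_int _ _) _
  have hord : (coeffMap (algebraMap (nfSub A K₀) K₀)
      (coeffMap (Int.castRingHom (nfSub A K₀)) hm2Z)).order = -1 := by
    rw [hEt]
    exact injH_order_hm2 K₀
  have hrootL : ∃ ζ : nfSub A K₀, IsPrimitiveRoot ζ L := by
    refine ls_exists_primitiveRoot A K₀ hL ?_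
    obtain ⟨ζ₀, hζ₀⟩ := hζ6L
    exact ⟨ζ₀ ^ 6, hζ₀.pow (by positivity) rfl⟩
  -- the set `Σ = {0, -64}`
  set S : Finset (nfSub A K₀) := {0, -64} with hSdef
  have hdist : ∀ c ∈ S, ∀ c' ∈ S, c ≠ c' → ¬ π ∣ c - c' := by
    intro c hc c' hc' hcc
    rw [hSdef, Finset.mem_insert, Finset.mem_singleton] at hc hc'
    have key : ∀ a b : ℤ, ¬ (3 : ℤ) ∣ a - b →
        ¬ π ∣ ((a : nfSub A K₀) - (b : nfSub A K₀)) := fun a b hab =>
      ls_not_dvd_intCast_sub A K₀ hℓ hA hπ.not_isUnit a b (by exact_mod_cast hab)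
    rcases hc with rfl | rfl <;> rcases hc' with rfl | rfl
    · exact absurd rfl hcc
    · have := key 0 (-64) (by norm_num)
      simpa using this
    · have := key (-64) 0 (by norm_num)
      simpa using this
    · exact absurd rfl hcc
  have hS01 : ∀ c ∈ S, algebraMap (nfSub A K₀) K₀ c = 0 ∨
      algebraMap (nfSub A K₀) K₀ c = -64 := by
    intro c hc
    rw [hSdef, Finset.mem_insert, Finset.mem_singleton] at hc
    rcases hc with rfl | rfl
    · left; exact map_zero _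
    · right; rw [map_neg, map_ofNat]
  have hS0 : ∃ c ∈ S, algebraMap (nfSub A K₀) K₀ c = 0 :=
    ⟨0, by rw [hSdef]; simp, map_zero _⟩
  have hS64 : ∃ c ∈ S, algebraMap (nfSub A K₀) K₀ c = -64 :=
    ⟨-64, by rw [hSdef]; simp, by rw [map_neg, map_ofNat]⟩
  have hunit : IsUnit ((L : ℕ) : nfSub A K₀) := ls_isUnit_natCast A K₀ hℓ hA L h3
  -- the conjugate family
  have hSc : ConjFamily (nfRes A K₀) (modularFunctionFieldFullC K₀ L) (fieldC K₀ L M H)
      (fun i => sS (nfSub A K₀) M H (a i)) :=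
    conjFamily_of_diamond stmtDiamondH (nfRes A K₀) L M H a hL hML ha
  have hR : RamJH L M H := stmtRamJH L M H hML
  have hfin₀ : FiniteDimensional
      K₀⟮(⟨coeffMap (algebraMap (nfSub A K₀) K₀)
        (coeffMap (Int.castRingHom (nfSub A K₀)) hm2Z), kd₀.t_mem⟩ :
        modularFunctionFieldFullC K₀ L)⟯ (modularFunctionFieldFullC K₀ L) :=
    bgFinH_finiteDimensional_full_hm2 K₀ L _ hEt
  have hfinF : FiniteDimensional
      K₀⟮(⟨coeffMap (algebraMap (nfSub A K₀) K₀)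
        (coeffMap (Int.castRingHom (nfSub A K₀)) hm2Z),
        hSc.le kd₀.t_mem⟩ : fieldC K₀ L M H)⟯ (fieldC K₀ L M H) := by
    obtain ⟨P, hPm, -, hP0⟩ := hSc.poly
    exact injH1_fin_of_gen (modularFunctionFieldFullC K₀ L) (fieldC K₀ L M H) hSc.le _ hSc.gen
      (injH1_isIntegral_of_eval₂ _ _ ⟨P, hPm, hP0⟩) _ kd₀.t_mem hfin₀
  have hteq : (⟨coeffMap (algebraMap (nfSub A K₀) K₀)
      (coeffMap (Int.castRingHom (nfSub A K₀)) hm2Z),
      hSc.le kd₀.t_mem⟩ : fieldC K₀ L M H) = hm2CH K₀ L M H h2 := Subtype.ext hEt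
  obtain ⟨D, C, hD, hC, hD0, hrel, hzero⟩ := k7fd_rep_series (A₀ := nfSub A K₀) (E := K₀)
    (k := IsLocalRing.ResidueField A)
    (nfRes A K₀) (modularFunctionFieldFullC K₀ L) (fieldC K₀ L M H) hπ hrπ hr kd₀ hord
    (fun i => sS (nfSub A K₀) M H (a i)) hSc
    (fun {_ _} => kd₀.tsGoodBasis hπ.ne_zero hπ.not_isUnit hr hrπ 3
      (by rw [hkt]; exact thetaFun_hm2_ne_zero _))
    hfinF S hdist L hunit hrootL
    (fun {_ _} => by
      rw [hteq]
      exact nfH_ram_h2line_self K₀ L M H hR h2 S hS01 hS0 hS64 L dvd_rfl) Y hY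
  refine ⟨_, x₀, D, C, kd₀.mem, hD, hC, hD0, ?_, hzero⟩
  rw [hrel]
  refine Finset.sum_congr rfl fun j _ => ?_
  show C j * (x₀ j.1 * sS (nfSub A K₀) M H (a 0) ^ (j.2 : ℕ)) = _
  rw [ha.zero]

/-- **The integral representation for `fieldC K₀ L M H`**, `p ∤ L` odd, `2 ∣ L` if `p = 3`. -/
theorem k7fd_rep_field (A : ValuationSubring NfQb) {p : ℕ} (hp : p.Prime)
    (hA : A.LiesOverPrime p) {L M : ℕ} (H : Subgroup (ZMod M)ˣ) (hL : L ≠ 0) (hML : M ∣ L)
    (hp2 : p ≠ 2) (hpL : ¬ p ∣ L) (h5 : 5 ≤ p ∨ (5 - p) ∣ L)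
    {m : ℕ} (a : Fin (m + 1) → (ZMod M)ˣ) (ha : IsRepFam H a)
    (K₀ : IntermediateField ℚ NfQb) (hfin : FiniteDimensional ℚ K₀)
    (hζ6L : ∃ ζ : K₀, IsPrimitiveRoot ζ (6 * L))
    (Y : LaurentSeries (nfSub A K₀))
    (hY : coeffMap (algebraMap (nfSub A K₀) K₀) Y ∈ fieldC K₀ L M H) :
    K7fdRep A K₀ L M H m Y := by
  by_cases hp3 : p = 3
  · subst hp3
    have h2 : 2 ∣ L := by
      rcases h5 with h | h
      · omega
      · simpa using h
    exact k7fd_rep_field_h2 A hA H hL hML h2 hpL a ha K₀ hfin hζ6L Y hY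
  · refine k7fd_rep_field_j A hp hA H hL hML ?_ a ha K₀ hfin hζ6L Y hY
    intro hd
    rcases (Nat.Prime.dvd_mul hp).mp hd with h6 | hL'
    · have h6' : (6 : ℕ) = 2 * 3 := by norm_num
      rw [h6'] at h6
      rcases (Nat.Prime.dvd_mul hp).mp h6 with h | h
      · exact hp2 ((Nat.prime_dvd_prime_iff_eq hp Nat.prime_two).mp h)
      · exact hp3 ((Nat.prime_dvd_prime_iff_eq hp Nat.prime_three).mp h)
    · exact hpL hL'

end Fermat.Agent.RT.K7F

end
end ZBRT_058_2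

/-! ### bundled: `Fermat.Agent.RT.K7F.DiamAsc` -/
section ZBRT_058_3

/-!
# RT / K7-FLAT, piece FL-DIAM, part 4: the integral representation over `ℚ̄`

`A ⊂ ℚ̄` a valuation ring over `p`, `K7FLevel L M H p`.
`k7fd_rep_bar` : every `Y ∈ A((q))` with image in `F_H = fieldBar L M H` satisfies
`D · Y = ∑_{i,l} C_{i,l} · X i · S^l`, `S = S_{M,H,1}`, with `D, C_{i,l}, X i ∈ A((q))` in
`F₀ = modularFunctionFieldBar L`, `D̄ ≠ 0`, and `Ȳ = 0 → C̄_{i,l} = 0`.
(Descent to a number field containing the `6 L`-th roots of unity, then `k7fd_rep_field`.)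
-/

set_option autoImplicit false
set_option linter.style.haveILetI false
set_option linter.unusedSectionVars false
set_option synthInstance.maxHeartbeats 400000
set_option maxHeartbeats 1600000

noncomputable section

namespace Fermat.Agent.RT.K7F

open Polynomial ModularCurve IntermediateField AlgebraicCurve HahnSeries
open Fermat.Agent.S24 Fermat.Agent.S28 Fermat.Agent.INJ Fermat.Agent.ES Fermat.Agent.ES1
  Fermat.Agent.ES.M

/-- the conclusion of the representation theorem over `ℚ̄` -/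
def K7fdRepBar (A : ValuationSubring Kb) (L M : ℕ) (H : Subgroup (ZMod M)ˣ) (m : ℕ)
    (Y : LaurentSeries A) : Prop :=
  ∃ (n : ℕ) (X : Fin n → LaurentSeries A) (D : LaurentSeries A)
    (C : Fin n × Fin (m + 1) → LaurentSeries A),
    (∀ i, kronIncl A (X i) ∈ modularFunctionFieldBar L) ∧
    kronIncl A D ∈ modularFunctionFieldBar L ∧
    (∀ j, kronIncl A (C j) ∈ modularFunctionFieldBar L) ∧
    kronRed A D ≠ 0 ∧
    D * Y = ∑ j, C j * (X j.1 * sS A M H 1 ^ (j.2 : ℕ)) ∧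
    (kronRed A Y = 0 → ∀ j, kronRed A (C j) = 0)

/-- descent of an `A`-integral series with coefficients in `K₀` -/
theorem k7fd_descend_int (A : ValuationSubring Kb) (K₀ : IntermediateField ℚ NfQb)
    (Y : LaurentSeries A) (z : LaurentSeries K₀)
    (hz : coeffMap (algebraMap K₀ NfQb) z = coeffMap A.subtype Y) :
    ∃ Z : LaurentSeries (nfSub A K₀), coeffMap (algebraMap (nfSub A K₀) K₀) Z = z ∧
      coeffMap (nfSubIncl A K₀) Z = Y := by
  have hfinj : Function.Injective (algebraMap (nfSub A K₀) K₀) := Subtype.val_injective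
  have hmem : ∀ n, z.coeff n ∈ nfSub A K₀ := by
    intro n
    have h := congrArg (fun w => w.coeff n) hz
    simp only [coeffMap_coeff] at h
    show algebraMap K₀ NfQb (z.coeff n) ∈ A
    rw [h]
    exact (Y.coeff n).2
  obtain ⟨Z, hZ⟩ := injDesc_exists_coeffMap (algebraMap (nfSub A K₀) K₀) hfinj z
    (fun n => ⟨⟨z.coeff n, hmem n⟩, rfl⟩)
  refine ⟨Z, hZ, ?_⟩
  ext n
  rw [coeffMap_coeff, coe_nfSubIncl]
  have h1 := congrArg (fun w => w.coeff n) hZ
  have h2 := congrArg (fun w => w.coeff n) hz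
  simp only [coeffMap_coeff] at h1 h2
  have h3 : ((Z.coeff n : nfSub A K₀) : K₀) = z.coeff n := h1
  rw [h3, h2]
  rfl

theorem k7fd_kronIncl_incl (A : ValuationSubring Kb) (K₀ : IntermediateField ℚ NfQb)
    (x : LaurentSeries (nfSub A K₀)) :
    kronIncl A (coeffMap (nfSubIncl A K₀) x) =
      coeffMap (algebraMap K₀ NfQb) (coeffMap (algebraMap (nfSub A K₀) K₀) x) := by
  show coeffMap A.subtype (coeffMap (nfSubIncl A K₀) x) = _
  rw [coeffMap_coeffMap, coeffMap_coeffMap]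
  rfl

theorem k7fd_kronRed_incl (A : ValuationSubring Kb) (K₀ : IntermediateField ℚ NfQb)
    (x : LaurentSeries (nfSub A K₀)) :
    kronRed A (coeffMap (nfSubIncl A K₀) x) = coeffMap (nfRes A K₀) x := by
  show coeffMap (IsLocalRing.residue A) (coeffMap (nfSubIncl A K₀) x) = _
  rw [coeffMap_coeffMap]
  rfl

/-- **The integral representation over `ℚ̄`.** -/
theorem k7fd_rep_bar (A : ValuationSubring Kb) {p : ℕ} (hA : A.LiesOverPrime p) {L M : ℕ}
    (H : Subgroup (ZMod M)ˣ) (hlev : K7FLevel L M H p)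
    {m : ℕ} (a : Fin (m + 1) → (ZMod M)ˣ) (ha : IsRepFam H a)
    (Y : LaurentSeries A) (hY : kronIncl A Y ∈ fieldBar L M H) :
    K7fdRepBar A L M H m Y := by
  classical
  have hL : L ≠ 0 := by have := hlev.hL; omega
  haveI : NeZero ((6 * L : ℕ) : ℚ) := ⟨by
    have : 6 * L ≠ 0 := by omega
    exact_mod_cast this⟩
  obtain ⟨ζN, hζN⟩ := HasEnoughRootsOfUnity.exists_primitiveRoot NfQb (6 * L)
  obtain ⟨K₀, hfin, hS, hK⟩ := injdh_exists_descent_finset (L := L) (M := M) (H := H)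
    ({ζN} : Finset NfQb) ({kronIncl A Y} : Finset (LaurentSeries NfQb)) (by
      intro y hy
      rw [Finset.mem_singleton] at hy
      rw [hy]
      exact hY)
  have hζNK : ζN ∈ K₀ := hS ζN (by simp)
  have hginj : Function.Injective (algebraMap K₀ NfQb) := (algebraMap K₀ NfQb).injective
  have hζ6L : ∃ ζ : K₀, IsPrimitiveRoot ζ (6 * L) :=
    ⟨⟨ζN, hζNK⟩, IsPrimitiveRoot.of_map_of_injective (f := algebraMap K₀ NfQb) hζN hginj⟩
  obtain ⟨z, hz, hzY⟩ := hK K₀ le_rfl (kronIncl A Y) (by simp)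
  obtain ⟨Z, hZ, hZY⟩ := k7fd_descend_int A K₀ Y z hzY
  obtain ⟨n, X, D, C, hX, hD, hC, hD0, hrel, hzero⟩ :=
    k7fd_rep_field A hlev.hp hA H hL hlev.hML hlev.hp2 hlev.hpL hlev.h5 a ha K₀ hfin hζ6L Z
      (by rw [hZ]; exact hz)
  refine ⟨n, fun i => coeffMap (nfSubIncl A K₀) (X i), coeffMap (nfSubIncl A K₀) D,
    fun j => coeffMap (nfSubIncl A K₀) (C j), ?_, ?_, ?_, ?_, ?_, ?_⟩
  · intro i
    rw [k7fd_kronIncl_incl]
    exact nf_coeffMap_mem_bar K₀ L (hX i)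
  · rw [k7fd_kronIncl_incl]
    exact nf_coeffMap_mem_bar K₀ L hD
  · intro j
    rw [k7fd_kronIncl_incl]
    exact nf_coeffMap_mem_bar K₀ L (hC j)
  · rw [k7fd_kronRed_incl]
    exact hD0
  · have h1 := congrArg (coeffMap (nfSubIncl A K₀)) hrel
    rw [map_mul, hZY, map_sum] at h1
    rw [h1]
    refine Finset.sum_congr rfl fun j _ => ?_
    rw [map_mul, map_mul, map_pow, es1f_coeffMap_sS]
  · intro hY0 j
    rw [k7fd_kronRed_incl]
    refine hzero ?_ j
    rw [← k7fd_kronRed_incl, hZY]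
    exact hY0

end Fermat.Agent.RT.K7F

end
end ZBRT_058_3
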