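/- GENERATED FILE (helper35, build-time optimisation, NOTES/ZB.md): verbatim concatenation of the modules
   Fermat.Agent.RT.K7F.NiceGen
   Do not edit; do not import together with these modules. -/
import Fermat.Agent.ZB.W1_002

/-! ### bundled: `Fermat.Agent.RT.K7F.NiceGen` -/
section ZBRT_059_0
/-
RT-K7F / FL-NICE (helper86), generic part: from the hypotheses `DEU.Hyp` of Deuring's dimension
count (any constant reduction `R : RedData K F k Fk`) to `W1.IsNiceCurve` on both sides and to the
reduction package `W1.PRData` with `IsPR`, `Orth`.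

* `k7fnice_upper`  : Riemann's upper bound in characteristic `0` (`deg D ≥ n₀ + g`);
* `k7fnice_nice`   : `IsNiceCurve K F g`   (needs a function with a pole, `K` infinite);
* `k7fnice_nice_k` : `IsNiceCurve k Fk g`  (needs a function with a pole, `k` infinite);
* `k7fnice_isPR`, `k7fnice_orth` : the package `⟨res, O, red, H.r⟩` of a Gauss valuation ring.
-/

set_option autoImplicit false

open AlgebraicCurve Module

namespace Fermat.Agent.RT.K7F

open Fermat.Agent.DEU Fermat.Agent.W1 Fermat.Agent.ES.R

variable {K F k Fk : Type} [Field K] [Field F] [Algebra K F] [Field k] [Field Fk] [Algebra k Fk]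

section Hyp

variable {R : RedData K F k Fk} {Pinf : Place K F} {Qinf : Place k Fk} {g n₀ : ℕ}

/-- Riemann's upper bound in characteristic `0`, by semicontinuity. -/
theorem k7fnice_upper (H : Hyp R Pinf Qinf g n₀) : GPRiemannUpper K F g := by
  refine ⟨(n₀ : ℤ) + g, fun D hD => ?_⟩
  have hdeg := nice_degree_mapDomain H.hresF H.hresk H.r D
  have h1 : (finrank K ↥(riemannRochSpace D) : ℤ)
      ≤ (finrank k ↥(riemannRochSpace (Finsupp.mapDomain H.r D)) : ℤ) := by
    exact_mod_cast H.finrank_rr_le_mapDomain D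
  have h2 := H.riemann_upper_res (Finsupp.mapDomain H.r D) (by rw [hdeg]; exact hD)
  rw [hdeg] at h2
  exact h1.trans h2

/-- Riemann's upper bound on the residue side. -/
theorem k7fnice_upper_k (H : Hyp R Pinf Qinf g n₀) : GPRiemannUpper k Fk g :=
  ⟨(n₀ : ℤ) + g, fun 𝔟 h𝔟 => H.riemann_upper_res 𝔟 h𝔟⟩

/-- **`IsNiceCurve` in characteristic `0`.** -/
theorem k7fnice_nice (H : Hyp R Pinf Qinf g n₀) [Infinite K] (t : F) (P₀ : Place K F)
    (ht : P₀.ord t < 0) : IsNiceCurve K F g where
  hres := H.hresF
  hpd := H.hpdF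
  upper := k7fnice_upper H
  lower := H.riemann
  infinite := haveI := H.hpdF; deuInf_infinite_of_pole H.hresF t P₀ ht

/-- **`IsNiceCurve` on the residue side.** -/
theorem k7fnice_nice_k (H : Hyp R Pinf Qinf g n₀) [Infinite k] (tb : Fk) (Q₀ : Place k Fk)
    (htb : Q₀.ord tb < 0) : IsNiceCurve k Fk g where
  hres := H.hresk
  hpd := H.hpdk
  upper := k7fnice_upper_k H
  lower := fun 𝔟 => H.riemann_lower_res 𝔟
  infinite := haveI := H.hpdk; deuInf_infinite_of_pole H.hresk tb Q₀ htb

end Hyp

section Val

variable (A : ValuationSubring K) (res : A →+* k) (O : ValuationSubring F) (red : O →+* Fk)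
  (hres : Function.Surjective res)
  (hmem : ∀ a : K, algebraMap K F a ∈ O ↔ a ∈ A)
  (hred0 : ∀ x : O, red x = 0 ↔ (x : F) ∈ O.nonunits)
  (hredalg : ∀ (a : A) (h : algebraMap K F (a : K) ∈ O),
    red ⟨algebraMap K F (a : K), h⟩ = algebraMap k Fk (res a))
  (hprim : ∀ f : F, f ≠ 0 → ∃ a : K, a ≠ 0 ∧ ∃ h : algebraMap K F a * f ∈ O,
    red ⟨algebraMap K F a * f, h⟩ ≠ 0)
  {Pinf : Place K F} {Qinf : Place k Fk} {g n₀ : ℕ}

/-- the reduction package of a Gauss valuation ring with Deuring's reduction of places -/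
noncomputable def k7fnicePR
    (H : Hyp (redDataOfVal A res O red hres hmem hred0 hredalg hprim) Pinf Qinf g n₀) :
    PRData K F k Fk A where
  res := res
  O := O
  red := red
  r := H.r

theorem k7fnice_isPR
    (hres0 : ∀ a : A, res a = 0 ↔ (a : K) ∈ A.nonunits)
    (hredsurj : Function.Surjective red)
    (H : Hyp (redDataOfVal A res O red hres hmem hred0 hredalg hprim) Pinf Qinf g n₀) :
    (k7fnicePR A res O red hres hmem hred0 hredalg hprim H).IsPR where
  res_surjective := hres
  res_eq_zero_iff := hres0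
  algebraMap_mem_iff := hmem
  red_surjective := hredsurj
  red_eq_zero_iff := hred0
  red_algebraMap := hredalg
  prim := hprim
  r_div := fun u hu D hD Q => H.mapDomain_r_principal u hu D hD Q

theorem k7fnice_orth
    (H : Hyp (redDataOfVal A res O red hres hmem hred0 hredalg hprim) Pinf Qinf g n₀) :
    (k7fnicePR A res O red hres hmem hred0 hredalg hprim H).Orth :=
  fun D => H.exists_orth D

end Val

end Fermat.Agent.RT.K7F


end ZBRT_059_0
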