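/- GENERATED FILE (helper35, build-time optimisation, NOTES/ZB.md): verbatim concatenation of the modules
   Fermat.Agent.RT.K7F.GaussDefs
   Fermat.Agent.RT.K7F.GaussData
   Fermat.Agent.RT.K7F.Eq
   Fermat.Agent.RT.K7F.AnchConj
   Fermat.Agent.RT.K7F.GaussQ2
   Fermat.Agent.RT.K7F.GaussH
   Fermat.Agent.RT.K7F.EqH
   Fermat.Agent.RT.K7F.AnchRed0
   Fermat.Agent.RT.K7F.AnchH
   Fermat.Agent.RT.K7F.DiamRed
   Fermat.Agent.RT.K7F.DiamInt
   Fermat.Agent.RT.K7F.Nice
   Fermat.Agent.RT.K7F.Good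
   Fermat.Agent.RT.K7F.GoodFin
   Fermat.Agent.RT.K7F.GoodDeg
   Fermat.Agent.RT.K7F.RedFH
   Fermat.Agent.RT.K7F.NiceFinal
   Fermat.Agent.RT.K7F.AnchFinal
   Fermat.Agent.RT.K7F.FinalOf
   Fermat.Agent.RT.K7F.DiamGrp
   Do not edit; do not import together with these modules. -/
import Fermat.Agent.ZB.W1_002
import Fermat.Agent.ZB.ES1_007
import Fermat.Agent.ZB.DEU_007
import Fermat.Agent.ZB.W1_005
import Fermat.Agent.ZB.RT_051
import Fermat.Agent.ZB.RT_052
import Fermat.Agent.ZB.ES1_002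
import Fermat.Agent.ZB.ES_028
import Fermat.Agent.ZB.ES1_009
import Fermat.Agent.ZB.DEU_003
import Fermat.Agent.ZB.RT_054
import Fermat.Agent.ZB.RT_055
import Fermat.Agent.ZB.RT_056
import Fermat.Agent.ZB.DEU_004
import Fermat.Agent.ZB.ES1_012
import Fermat.Agent.ZB.RED_001
import Fermat.Agent.ZB.RT_058
import Fermat.Agent.ZB.RT_059
import Fermat.Agent.ZB.RT_060
import Fermat.Agent.ZB.DEU_005
import Fermat.Agent.ZB.RT_061
import Fermat.Agent.ZB.RT_057
import Fermat.Agent.ZB.ES_027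
import Fermat.Agent.ZB.ES_001
import Fermat.Agent.ZB.RT_049
import Fermat.Agent.ZB.W1_010
import Fermat.Agent.ZB.RT_040

/-! ### bundled: `Fermat.Agent.RT.K7F.GaussDefs` -/
section ZBRT_053_0
/-
K-machine, K7-FLAT, piece FL-GAUSS (helper65), part 1: DEFINITIONS, generic in the field.

`A ⊂ ℚ̄` a valuation ring, `k = kA A`, `F` ANY intermediate field of `ℚ̄((q)) / ℚ̄`.

* `k7fgRel A F x w`   : fraction-form Gauss reduction (`= ES.M.GaussRed` for `F = F_N`):
                        `x = Y₁ / Y₂`, `Y₁, Y₂ ∈ F ∩ A((q))`, `Ȳ₂ ≠ 0`, `w = Ȳ₁ / Ȳ₂`;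
* `k7fgInt A F x`     : Gauss norm `≤ 1`;
* `k7fgSub A F`       : the subring of Gauss-integral elements;
* `k7fgRedL A F`      : the reduction `k7fgSub A F →+* k((q))` (no hypothesis);
* `k7fgRedL_iff`      : `k7fgRel A F x w ↔ ∃ h, k7fgRedL ⟨x, h⟩ = w`;
* `k7fgDataL A F hprim : RedData ℚ̄ F k k((q))` for `hprim : PrimAt A F`;
* `k7fgO A F hprim    : ValuationSubring F` (carrier `k7fgSub A F`), the Gauss valuation ring;
* `k7fgRed`, `k7fgData A F Fk hprim hRedF : RedData ℚ̄ F k Fk` for a subfield `Fk ⊂ k((q))` with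
  `hRedF : ∀ Y, kronIncl A Y ∈ F → kronRed A Y ∈ Fk`.

(Fork of `DEU/Inst.lean`, helper-written for `F_N`, with the field as a parameter.)
-/

set_option autoImplicit false
set_option linter.unusedSectionVars false
set_option synthInstance.maxHeartbeats 400000
set_option maxHeartbeats 1000000

noncomputable section

namespace Fermat.Agent.RT.K7F

open ModularCurve AlgebraicCurve HahnSeries Fermat.Agent.ES Fermat.Agent.S24 Fermat.Agent.ES.M
  Fermat.Agent.DEU Fermat.Agent.ES1.G2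

variable (A : ValuationSubring Kb) (F : IntermediateField Kb (LaurentSeries Kb))

/-- `x = Y₁ / Y₂` with integral `Y₁, Y₂ ∈ F`, `Ȳ₂ ≠ 0`, and `w = Ȳ₁ / Ȳ₂`. -/
def k7fgRel (x : F) (w : LaurentSeries (kA A)) : Prop :=
  ∃ Y₁ Y₂ : LaurentSeries A,
    kronIncl A Y₁ ∈ F ∧ kronIncl A Y₂ ∈ F ∧
      kronRed A Y₂ ≠ 0 ∧ (x : LaurentSeries Kb) * kronIncl A Y₂ = kronIncl A Y₁ ∧
        w * kronRed A Y₂ = kronRed A Y₁

/-- Gauss norm `≤ 1` -/
def k7fgInt (x : F) : Prop := ∃ w : LaurentSeries (kA A), k7fgRel A F x w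

/-! ## `GaussRed` is the graph of a ring homomorphism -/

theorem k7fg_coeffMap_C {R S : Type*} [CommRing R] [CommRing S] (f : R →+* S) (a : R) :
    coeffMap f (HahnSeries.C a : LaurentSeries R) = HahnSeries.C (f a) := by
  rw [HahnSeries.C_apply, HahnSeries.C_apply, coeffMap_single]

/-- the reduction is unique -/
theorem k7fgRel_unique {x : F} {w w' : LaurentSeries (kA A)}
    (h : k7fgRel A F x w) (h' : k7fgRel A F x w') : w = w' := by
  obtain ⟨Y₁, Y₂, -, -, hY₂, hx, hw⟩ := h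
  obtain ⟨Z₁, Z₂, -, -, hZ₂, hx', hw'⟩ := h'
  have h1 : kronIncl A (Y₁ * Z₂) = kronIncl A (Z₁ * Y₂) := by
    rw [map_mul, map_mul, ← hx, ← hx']
    ring
  have h2 : Y₁ * Z₂ = Z₁ * Y₂ := kronIncl_injective h1
  have h3 : kronRed A Y₁ * kronRed A Z₂ = kronRed A Z₁ * kronRed A Y₂ := by
    rw [← map_mul, ← map_mul, h2]
  rw [← hw, ← hw'] at h3
  have h4 : w * (kronRed A Y₂ * kronRed A Z₂) = w' * (kronRed A Y₂ * kronRed A Z₂) := by
    calc w * (kronRed A Y₂ * kronRed A Z₂) = w * kronRed A Y₂ * kronRed A Z₂ := by ring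
      _ = w' * kronRed A Z₂ * kronRed A Y₂ := h3
      _ = w' * (kronRed A Y₂ * kronRed A Z₂) := by ring
  exact mul_right_cancel₀ (mul_ne_zero hY₂ hZ₂) h4

theorem k7fgRel_zero : k7fgRel A F 0 0 := by
  refine ⟨0, 1, ?_, ?_, ?_, ?_, ?_⟩
  · rw [map_zero]; exact zero_mem _
  · rw [map_one]; exact one_mem _
  · rw [map_one]; exact one_ne_zero
  · rw [map_zero, map_one, mul_one]; rfl
  · rw [map_zero, zero_mul]

theorem k7fgRel_one : k7fgRel A F 1 1 := by
  refine ⟨1, 1, ?_, ?_, ?_, ?_, ?_⟩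
  · rw [map_one]; exact one_mem _
  · rw [map_one]; exact one_mem _
  · rw [map_one]; exact one_ne_zero
  · rw [map_one, mul_one]; rfl
  · rw [map_one, mul_one]

theorem k7fgRel_add {x x' : F} {w w' : LaurentSeries (kA A)}
    (h : k7fgRel A F x w) (h' : k7fgRel A F x' w') : k7fgRel A F (x + x') (w + w') := by
  obtain ⟨Y₁, Y₂, hY₁m, hY₂m, hY₂, hx, hw⟩ := h
  obtain ⟨Z₁, Z₂, hZ₁m, hZ₂m, hZ₂, hx', hw'⟩ := h'
  refine ⟨Y₁ * Z₂ + Z₁ * Y₂, Y₂ * Z₂, ?_, ?_, ?_, ?_, ?_⟩
  · rw [map_add, map_mul, map_mul]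
    exact add_mem (mul_mem hY₁m hZ₂m) (mul_mem hZ₁m hY₂m)
  · rw [map_mul]; exact mul_mem hY₂m hZ₂m
  · rw [map_mul]; exact mul_ne_zero hY₂ hZ₂
  · rw [map_add, map_mul, map_mul, map_mul, ← hx, ← hx']
    have : ((x + x' : F) : LaurentSeries Kb) = (x : LaurentSeries Kb) + (x' : LaurentSeries Kb) :=
      rfl
    rw [this]; ring
  · rw [map_add, map_mul, map_mul, map_mul, ← hw, ← hw']; ring

theorem k7fgRel_mul {x x' : F} {w w' : LaurentSeries (kA A)}
    (h : k7fgRel A F x w) (h' : k7fgRel A F x' w') : k7fgRel A F (x * x') (w * w') := by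
  obtain ⟨Y₁, Y₂, hY₁m, hY₂m, hY₂, hx, hw⟩ := h
  obtain ⟨Z₁, Z₂, hZ₁m, hZ₂m, hZ₂, hx', hw'⟩ := h'
  refine ⟨Y₁ * Z₁, Y₂ * Z₂, ?_, ?_, ?_, ?_, ?_⟩
  · rw [map_mul]; exact mul_mem hY₁m hZ₁m
  · rw [map_mul]; exact mul_mem hY₂m hZ₂m
  · rw [map_mul]; exact mul_ne_zero hY₂ hZ₂
  · rw [map_mul, map_mul, ← hx, ← hx']
    have : ((x * x' : F) : LaurentSeries Kb) = (x : LaurentSeries Kb) * (x' : LaurentSeries Kb) :=
      rfl
    rw [this]; ring
  · rw [map_mul, map_mul, ← hw, ← hw']; ring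

theorem k7fgRel_neg {x : F} {w : LaurentSeries (kA A)}
    (h : k7fgRel A F x w) : k7fgRel A F (-x) (-w) := by
  obtain ⟨Y₁, Y₂, hY₁m, hY₂m, hY₂, hx, hw⟩ := h
  refine ⟨-Y₁, Y₂, ?_, hY₂m, hY₂, ?_, ?_⟩
  · rw [map_neg]; exact neg_mem hY₁m
  · rw [map_neg, ← hx]
    have : ((-x : F) : LaurentSeries Kb) = -(x : LaurentSeries Kb) := rfl
    rw [this]; ring
  · rw [map_neg, ← hw]; ring

/-- constants -/
theorem k7fgRel_const (a : A) :
    k7fgRel A F (algebraMap Kb F (a : Kb))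
      (HahnSeries.C (IsLocalRing.residue A a) : LaurentSeries (kA A)) := by
  refine ⟨HahnSeries.C a, 1, ?_, ?_, ?_, ?_, ?_⟩
  · have : kronIncl A (HahnSeries.C a) = HahnSeries.C (a : Kb) :=
      k7fg_coeffMap_C A.subtype a
    rw [this]
    exact hahnC_mem_intermediateField _ _
  · rw [map_one]; exact one_mem _
  · rw [map_one]; exact one_ne_zero
  · rw [map_one, mul_one]
    have h1 : ((algebraMap Kb F (a : Kb) : F) : LaurentSeries Kb)
        = algebraMap Kb (LaurentSeries Kb) (a : Kb) := rfl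
    rw [h1, algebraMap_eq_hahnC]
    exact (k7fg_coeffMap_C A.subtype a).symm
  · rw [map_one, mul_one]
    exact (k7fg_coeffMap_C (IsLocalRing.residue A) a).symm

/-- inverses -/
theorem k7fgRel_inv {x : F} {w : LaurentSeries (kA A)}
    (h : k7fgRel A F x w) (hw0 : w ≠ 0) : k7fgRel A F x⁻¹ w⁻¹ := by
  obtain ⟨Y₁, Y₂, hY₁m, hY₂m, hY₂, hx, hw⟩ := h
  have hY₁ : kronRed A Y₁ ≠ 0 := by
    rw [← hw]; exact mul_ne_zero hw0 hY₂
  have hI₁ : kronIncl A Y₁ ≠ 0 := by
    intro h0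
    apply hY₁
    have : Y₁ = 0 := kronIncl_injective (by rw [h0, map_zero])
    rw [this, map_zero]
  have hx0 : (x : LaurentSeries Kb) ≠ 0 := by
    intro h0
    rw [h0, zero_mul] at hx
    exact hI₁ hx.symm
  refine ⟨Y₂, Y₁, hY₂m, hY₁m, hY₁, ?_, ?_⟩
  · have : ((x⁻¹ : F) : LaurentSeries Kb) = (x : LaurentSeries Kb)⁻¹ := rfl
    rw [this, ← hx, ← mul_assoc, inv_mul_cancel₀ hx0, one_mul]
  · rw [← hw, ← mul_assoc, inv_mul_cancel₀ hw0, one_mul]

/-! ## The ring of Gauss-integral elements and the reduction map -/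

/-- the elements of Gauss norm `≤ 1` -/
def k7fgSub : Subring F where
  carrier := {x | k7fgInt A F x}
  mul_mem' := by
    rintro x y ⟨w, hw⟩ ⟨w', hw'⟩
    exact ⟨w * w', k7fgRel_mul A F hw hw'⟩
  one_mem' := ⟨1, k7fgRel_one A F⟩
  add_mem' := by
    rintro x y ⟨w, hw⟩ ⟨w', hw'⟩
    exact ⟨w + w', k7fgRel_add A F hw hw'⟩
  zero_mem' := ⟨0, k7fgRel_zero A F⟩
  neg_mem' := by
    rintro x ⟨w, hw⟩
    exact ⟨-w, k7fgRel_neg A F hw⟩

theorem mem_k7fgSub {x : F} : x ∈ k7fgSub A F ↔ k7fgInt A F x := Iff.rfl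

/-- the reduction of a Gauss-integral element, as a Laurent series -/
def k7fgRedFun (x : k7fgSub A F) : LaurentSeries (kA A) := Classical.choose x.2

theorem k7fgRedFun_spec (x : k7fgSub A F) : k7fgRel A F (x : F) (k7fgRedFun A F x) :=
  Classical.choose_spec x.2

theorem k7fgRedFun_eq {x : k7fgSub A F} {w : LaurentSeries (kA A)}
    (h : k7fgRel A F (x : F) w) : k7fgRedFun A F x = w :=
  k7fgRel_unique A F (k7fgRedFun_spec A F x) h


/-- the reduction map `O → k((q))` -/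
def k7fgRedL : k7fgSub A F →+* LaurentSeries (kA A) where
  toFun x := k7fgRedFun A F x
  map_one' := k7fgRedFun_eq A F (k7fgRel_one A F)
  map_mul' x y := k7fgRedFun_eq A F
    (k7fgRel_mul A F (k7fgRedFun_spec A F x) (k7fgRedFun_spec A F y))
  map_zero' := k7fgRedFun_eq A F (k7fgRel_zero A F)
  map_add' x y := k7fgRedFun_eq A F
    (k7fgRel_add A F (k7fgRedFun_spec A F x) (k7fgRedFun_spec A F y))

theorem k7fgRedL_apply (x : k7fgSub A F) : k7fgRedL A F x = k7fgRedFun A F x := rfl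

/-- `k7fgRel` is the graph of `k7fgRedL` -/
theorem k7fgRedL_iff (x : F) (w : LaurentSeries (kA A)) :
    k7fgRel A F x w ↔ ∃ h : x ∈ k7fgSub A F, k7fgRedL A F ⟨x, h⟩ = w := by
  constructor
  · intro hw
    exact ⟨⟨w, hw⟩, k7fgRedFun_eq A F (x := ⟨x, ⟨w, hw⟩⟩) hw⟩
  · rintro ⟨h, rfl⟩
    exact k7fgRedFun_spec A F ⟨x, h⟩

/-- the reduction of an integral series of `F` -/
theorem k7fgRel_of_int (Y : LaurentSeries A) (hY : kronIncl A Y ∈ F) :
    k7fgRel A F ⟨kronIncl A Y, hY⟩ (kronRed A Y) := by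
  refine ⟨Y, 1, hY, ?_, ?_, ?_, ?_⟩
  · rw [map_one]; exact one_mem _
  · rw [map_one]; exact one_ne_zero
  · rw [map_one, mul_one]
  · rw [map_one, mul_one]

end Fermat.Agent.RT.K7F

end
end ZBRT_053_0

/-! ### bundled: `Fermat.Agent.RT.K7F.GaussData` -/
section ZBRT_053_1
/-
K-machine, K7-FLAT, piece FL-GAUSS (helper65), part 2: the constant reduction, generic in the field.

`A ⊂ ℚ̄` a valuation ring, `k = kA A`, `F` an intermediate field of `ℚ̄((q)) / ℚ̄` with PRIM
(`hprim : PrimAt A F`), `Fk` an intermediate field of `k((q)) / k`.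

* `k7fg_exists_scale`  : scaling (from PRIM);
* `k7fgDataL A F hprim : RedData ℚ̄ F k k((q))`;
* `k7fgO A F hprim     : ValuationSubring F` — THE GAUSS VALUATION RING (carrier `k7fgSub A F`);
* `k7fgRed A F Fk hRedF : k7fgSub A F →+* Fk`, `k7fgData A F Fk hprim hRedF : RedData ℚ̄ F k Fk`
  for `hRedF : ∀ Y, kronIncl A Y ∈ F → kronRed A Y ∈ Fk`;
* `k7fgValRed A F Fk hprim hRedF : k7fgO A F hprim →+* Fk`;
* the hypotheses of `DEU.exists_isPR` = fields of `W1.PRData.IsPR` except `r_div`: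
  `k7fg_res_surjective`, `k7fg_res_eq_zero_iff`, `k7fg_algebraMap_mem_iff`,
  `k7fg_red_surjective` (if `Fk` is generated by reductions), `k7fg_red_eq_zero_iff`,
  `k7fg_red_algebraMap`, `k7fg_prim`.
-/

set_option autoImplicit false
set_option linter.unusedSectionVars false
set_option synthInstance.maxHeartbeats 400000
set_option maxHeartbeats 1000000

noncomputable section

namespace Fermat.Agent.RT.K7F

open ModularCurve AlgebraicCurve HahnSeries Fermat.Agent.ES Fermat.Agent.S24 Fermat.Agent.ES.M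
  Fermat.Agent.DEU Fermat.Agent.ES1.G2

variable (A : ValuationSubring Kb) (F : IntermediateField Kb (LaurentSeries Kb))

/-! ## Scaling (PRIM) -/

/-- scaling: every `f ≠ 0` has a constant multiple of Gauss norm `1` -/
theorem k7fg_exists_scale (hprim : PrimAt A F) (f : F) (hf : f ≠ 0) :
    ∃ c : Kb, c ≠ 0 ∧ ∃ w : LaurentSeries (kA A), w ≠ 0 ∧
      k7fgRel A F (algebraMap Kb F c * f) w := by
  obtain ⟨c, y₁, y₂, hc, hy₁m, hy₂m, hy₁, hy₂, huy⟩ := hprim f hf
  obtain ⟨Y₁, rfl⟩ := hy₁.1.exists_lift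
  obtain ⟨Y₂, rfl⟩ := hy₂.1.exists_lift
  have hR₁ : kronRed A Y₁ ≠ 0 := (kronPrim_kronIncl_iff Y₁).mp hy₁
  have hR₂ : kronRed A Y₂ ≠ 0 := (kronPrim_kronIncl_iff Y₂).mp hy₂
  refine ⟨c⁻¹, inv_ne_zero hc, kronRed A Y₁ * (kronRed A Y₂)⁻¹,
    mul_ne_zero hR₁ (inv_ne_zero hR₂), Y₁, Y₂, hy₁m, hy₂m, hR₂, ?_, ?_⟩
  · have h1 : ((algebraMap Kb F c⁻¹ * f : F) : LaurentSeries Kb)
        = HahnSeries.C c⁻¹ * (f : LaurentSeries Kb) := by
      have : ((algebraMap Kb F c⁻¹ * f : F) : LaurentSeries Kb)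
          = algebraMap Kb (LaurentSeries Kb) c⁻¹ * (f : LaurentSeries Kb) := rfl
      rw [this, algebraMap_eq_hahnC]
    rw [h1, mul_assoc, huy, ← mul_assoc, ← map_mul, inv_mul_cancel₀ hc, map_one, one_mul]
  · rw [mul_assoc, inv_mul_cancel₀ hR₂, mul_one]

/-! ## The constant reduction with values in `k((q))` -/

/-- the constant reduction of `F` at `A`, with values in `k((q))`. -/
def k7fgDataL (hprim : PrimAt A F) : RedData Kb F (kA A) (LaurentSeries (kA A)) where
  A := A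
  res := IsLocalRing.residue A
  res_surjective := IsLocalRing.residue_surjective
  O := k7fgSub A F
  red := k7fgRedL A F
  algebraMap_mem a := ⟨_, k7fgRel_const A F a⟩
  red_algebraMap a := by
    rw [algebraMap_eq_hahnC]
    exact k7fgRedFun_eq A F (k7fgRel_const A F a)
  inv_mem f hf := ⟨_, k7fgRel_inv A F (k7fgRedFun_spec A F f) hf⟩
  exists_scale f hf := by
    obtain ⟨c, hc, w, hw0, hw⟩ := k7fg_exists_scale A F hprim f hf
    refine ⟨c, hc, ⟨w, hw⟩, ?_⟩
    intro h0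
    apply hw0
    rw [← k7fgRedFun_eq A F (x := ⟨_, ⟨w, hw⟩⟩) hw]
    exact h0

/-- **the Gauss valuation ring of `F` at `A`** -/
def k7fgO (hprim : PrimAt A F) : ValuationSubring F := (k7fgDataL A F hprim).valO

@[simp] theorem k7fgO_toSubring (hprim : PrimAt A F) :
    (k7fgO A F hprim).toSubring = k7fgSub A F := rfl

theorem mem_k7fgO (hprim : PrimAt A F) {x : F} : x ∈ k7fgO A F hprim ↔ k7fgInt A F x := Iff.rfl

/-! ## The constant reduction with values in a subfield `Fk ⊂ k((q))` -/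

variable (Fk : IntermediateField (kA A) (LaurentSeries (kA A)))

/-- the reduction lies in `Fk` -/
theorem k7fgRel_mem (hRedF : ∀ Y : LaurentSeries A, kronIncl A Y ∈ F → kronRed A Y ∈ Fk)
    {x : F} {w : LaurentSeries (kA A)} (h : k7fgRel A F x w) : w ∈ Fk := by
  obtain ⟨Y₁, Y₂, hY₁m, hY₂m, hY₂, -, hw⟩ := h
  have h1 : w = kronRed A Y₁ * (kronRed A Y₂)⁻¹ := by
    rw [← hw, mul_assoc, mul_inv_cancel₀ hY₂, mul_one]
  rw [h1]
  exact mul_mem (hRedF Y₁ hY₁m) (inv_mem (hRedF Y₂ hY₂m))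

/-- the reduction map `O → Fk` -/
def k7fgRed (hRedF : ∀ Y : LaurentSeries A, kronIncl A Y ∈ F → kronRed A Y ∈ Fk) :
    k7fgSub A F →+* ↥Fk where
  toFun x := ⟨k7fgRedFun A F x, k7fgRel_mem A F Fk hRedF (k7fgRedFun_spec A F x)⟩
  map_one' := Subtype.ext (k7fgRedFun_eq A F (k7fgRel_one A F))
  map_mul' x y := Subtype.ext (k7fgRedFun_eq A F
    (k7fgRel_mul A F (k7fgRedFun_spec A F x) (k7fgRedFun_spec A F y)))
  map_zero' := Subtype.ext (k7fgRedFun_eq A F (k7fgRel_zero A F))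
  map_add' x y := Subtype.ext (k7fgRedFun_eq A F
    (k7fgRel_add A F (k7fgRedFun_spec A F x) (k7fgRedFun_spec A F y)))

theorem k7fgRed_coe (hRedF : ∀ Y : LaurentSeries A, kronIncl A Y ∈ F → kronRed A Y ∈ Fk)
    (x : k7fgSub A F) :
    ((k7fgRed A F Fk hRedF x : ↥Fk) : LaurentSeries (kA A)) = k7fgRedFun A F x := rfl

/-- `k7fgRel` is the graph of `k7fgRed` -/
theorem k7fgRed_iff (hRedF : ∀ Y : LaurentSeries A, kronIncl A Y ∈ F → kronRed A Y ∈ Fk)
    (x : F) (w : LaurentSeries (kA A)) :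
    k7fgRel A F x w ↔ ∃ h : x ∈ k7fgSub A F,
      ((k7fgRed A F Fk hRedF ⟨x, h⟩ : ↥Fk) : LaurentSeries (kA A)) = w :=
  k7fgRedL_iff A F x w

/-- **The constant reduction of `F` at `A` with values in `Fk`.** -/
def k7fgData (hprim : PrimAt A F)
    (hRedF : ∀ Y : LaurentSeries A, kronIncl A Y ∈ F → kronRed A Y ∈ Fk) :
    RedData Kb F (kA A) ↥Fk where
  A := A
  res := IsLocalRing.residue A
  res_surjective := IsLocalRing.residue_surjective
  O := k7fgSub A F
  red := k7fgRed A F Fk hRedF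
  algebraMap_mem a := ⟨_, k7fgRel_const A F a⟩
  red_algebraMap a := by
    apply Subtype.ext
    rw [k7fgRed_coe]
    have h1 : ((algebraMap (kA A) ↥Fk (IsLocalRing.residue A a) : ↥Fk) :
          LaurentSeries (kA A)) = algebraMap (kA A) (LaurentSeries (kA A))
            (IsLocalRing.residue A a) := rfl
    rw [h1, algebraMap_eq_hahnC]
    exact k7fgRedFun_eq A F (k7fgRel_const A F a)
  inv_mem f hf := by
    have hw0 : k7fgRedFun A F f ≠ 0 := by
      intro h0
      apply hf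
      apply Subtype.ext
      rw [k7fgRed_coe, h0]
      rfl
    exact ⟨_, k7fgRel_inv A F (k7fgRedFun_spec A F f) hw0⟩
  exists_scale f hf := by
    obtain ⟨c, hc, w, hw0, hw⟩ := k7fg_exists_scale A F hprim f hf
    refine ⟨c, hc, ⟨w, hw⟩, ?_⟩
    intro h0
    apply hw0
    have h1 := congrArg (fun z : ↥Fk => (z : LaurentSeries (kA A))) h0
    simp only [k7fgRed_coe] at h1
    rw [k7fgRedFun_eq A F (x := ⟨_, ⟨w, hw⟩⟩) hw] at h1
    exact h1

@[simp] theorem k7fgData_A (hprim : PrimAt A F)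
    (hRedF : ∀ Y : LaurentSeries A, kronIncl A Y ∈ F → kronRed A Y ∈ Fk) :
    (k7fgData A F Fk hprim hRedF).A = A := rfl

@[simp] theorem k7fgData_O (hprim : PrimAt A F)
    (hRedF : ∀ Y : LaurentSeries A, kronIncl A Y ∈ F → kronRed A Y ∈ Fk) :
    (k7fgData A F Fk hprim hRedF).O = k7fgSub A F := rfl

@[simp] theorem k7fgData_red (hprim : PrimAt A F)
    (hRedF : ∀ Y : LaurentSeries A, kronIncl A Y ∈ F → kronRed A Y ∈ Fk) :
    (k7fgData A F Fk hprim hRedF).red = k7fgRed A F Fk hRedF := rfl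

/-- **the reduction map on the Gauss valuation ring** -/
def k7fgValRed (hprim : PrimAt A F)
    (hRedF : ∀ Y : LaurentSeries A, kronIncl A Y ∈ F → kronRed A Y ∈ Fk) :
    ↥(k7fgO A F hprim) →+* ↥Fk :=
  k7fgRed A F Fk hRedF

theorem k7fgValRed_apply (hprim : PrimAt A F)
    (hRedF : ∀ Y : LaurentSeries A, kronIncl A Y ∈ F → kronRed A Y ∈ Fk)
    (x : F) (h : x ∈ k7fgO A F hprim) :
    k7fgValRed A F Fk hprim hRedF ⟨x, h⟩ = k7fgRed A F Fk hRedF ⟨x, h⟩ := rfl

/-- `k7fgRel` is the graph of `k7fgValRed` -/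
theorem k7fgValRed_iff (hprim : PrimAt A F)
    (hRedF : ∀ Y : LaurentSeries A, kronIncl A Y ∈ F → kronRed A Y ∈ Fk)
    (x : F) (w : LaurentSeries (kA A)) :
    k7fgRel A F x w ↔ ∃ h : x ∈ k7fgO A F hprim,
      ((k7fgValRed A F Fk hprim hRedF ⟨x, h⟩ : ↥Fk) : LaurentSeries (kA A)) = w :=
  k7fgRedL_iff A F x w

/-! ### Surjectivity of the reduction -/

/-- every element of a field generated by reductions is a reduction -/
theorem k7fg_exists_rel (G : Set (LaurentSeries (kA A)))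
    (hG : ∀ w ∈ G, ∃ x : F, k7fgRel A F x w) (w : LaurentSeries (kA A))
    (hw : w ∈ IntermediateField.adjoin (kA A) G) : ∃ x : F, k7fgRel A F x w := by
  induction hw using IntermediateField.adjoin_induction with
  | mem w hw => exact hG w hw
  | algebraMap c =>
    obtain ⟨a, rfl⟩ := IsLocalRing.residue_surjective c
    refine ⟨algebraMap Kb F (a : Kb), ?_⟩
    rw [algebraMap_eq_hahnC]
    exact k7fgRel_const A F a
  | add x y _ _ hx hy =>
    obtain ⟨x', hx'⟩ := hx
    obtain ⟨y', hy'⟩ := hy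
    exact ⟨x' + y', k7fgRel_add A F hx' hy'⟩
  | inv x _ hx =>
    obtain ⟨x', hx'⟩ := hx
    rcases eq_or_ne x 0 with rfl | hx0
    · rw [inv_zero]
      exact ⟨0, k7fgRel_zero A F⟩
    · exact ⟨x'⁻¹, k7fgRel_inv A F hx' hx0⟩
  | mul x y _ _ hx hy =>
    obtain ⟨x', hx'⟩ := hx
    obtain ⟨y', hy'⟩ := hy
    exact ⟨x' * y', k7fgRel_mul A F hx' hy'⟩

/-- **`red` is surjective onto `Fk`** if `Fk` is generated by reductions. -/
theorem k7fgRed_surjective
    (hRedF : ∀ Y : LaurentSeries A, kronIncl A Y ∈ F → kronRed A Y ∈ Fk)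
    (G : Set (LaurentSeries (kA A))) (hFk : Fk = IntermediateField.adjoin (kA A) G)
    (hG : ∀ w ∈ G, ∃ x : F, k7fgRel A F x w) :
    Function.Surjective (k7fgRed A F Fk hRedF) := by
  intro w
  have hw : (w : LaurentSeries (kA A)) ∈ IntermediateField.adjoin (kA A) G := by
    rw [← hFk]; exact w.2
  obtain ⟨x, hx⟩ := k7fg_exists_rel A F G hG (w : LaurentSeries (kA A)) hw
  refine ⟨⟨x, ⟨_, hx⟩⟩, ?_⟩
  apply Subtype.ext
  rw [k7fgRed_coe]
  exact k7fgRedFun_eq A F hx

/-! ### The hypotheses of `DEU.exists_isPR` -/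

/-- `hres` -/
theorem k7fg_res_surjective : Function.Surjective (IsLocalRing.residue A) :=
  IsLocalRing.residue_surjective

/-- `hres0` -/
theorem k7fg_res_eq_zero_iff (a : A) :
    IsLocalRing.residue A a = 0 ↔ (a : Kb) ∈ A.nonunits := by
  rw [ValuationSubring.coe_mem_nonunits_iff, IsLocalRing.residue_eq_zero_iff]

/-- `hmem` -/
theorem k7fg_algebraMap_mem_iff (hprim : PrimAt A F) (a : Kb) :
    algebraMap Kb F a ∈ k7fgO A F hprim ↔ a ∈ A :=
  deuVal_algebraMap_mem_iff (k7fgDataL A F hprim) a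

/-- `hredsurj` -/
theorem k7fg_red_surjective (hprim : PrimAt A F)
    (hRedF : ∀ Y : LaurentSeries A, kronIncl A Y ∈ F → kronRed A Y ∈ Fk)
    (G : Set (LaurentSeries (kA A))) (hFk : Fk = IntermediateField.adjoin (kA A) G)
    (hG : ∀ w ∈ G, ∃ x : F, k7fgRel A F x w) :
    Function.Surjective (k7fgValRed A F Fk hprim hRedF) :=
  k7fgRed_surjective A F Fk hRedF G hFk hG

/-- `hred0` -/
theorem k7fg_red_eq_zero_iff (hprim : PrimAt A F)
    (hRedF : ∀ Y : LaurentSeries A, kronIncl A Y ∈ F → kronRed A Y ∈ Fk)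
    (x : k7fgO A F hprim) :
    k7fgValRed A F Fk hprim hRedF x = 0 ↔ (x : F) ∈ (k7fgO A F hprim).nonunits :=
  deuVal_red_eq_zero_iff (k7fgData A F Fk hprim hRedF) x

/-- `hredalg` -/
theorem k7fg_red_algebraMap (hprim : PrimAt A F)
    (hRedF : ∀ Y : LaurentSeries A, kronIncl A Y ∈ F → kronRed A Y ∈ Fk) (a : A)
    (h : algebraMap Kb F (a : Kb) ∈ k7fgO A F hprim) :
    k7fgValRed A F Fk hprim hRedF ⟨algebraMap Kb F (a : Kb), h⟩
      = algebraMap (kA A) ↥Fk (IsLocalRing.residue A a) :=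
  (k7fgData A F Fk hprim hRedF).red_algebraMap a

/-- `hprim` -/
theorem k7fg_prim (hprim : PrimAt A F)
    (hRedF : ∀ Y : LaurentSeries A, kronIncl A Y ∈ F → kronRed A Y ∈ Fk)
    (f : F) (hf : f ≠ 0) :
    ∃ a : Kb, a ≠ 0 ∧ ∃ h : algebraMap Kb F a * f ∈ k7fgO A F hprim,
      k7fgValRed A F Fk hprim hRedF ⟨algebraMap Kb F a * f, h⟩ ≠ 0 :=
  (k7fgData A F Fk hprim hRedF).exists_scale f hf

/-- the `RedData` of the Gauss valuation ring is `k7fgData` -/
theorem k7fg_redDataOfVal_eq (hprim : PrimAt A F)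
    (hRedF : ∀ Y : LaurentSeries A, kronIncl A Y ∈ F → kronRed A Y ∈ Fk) :
    redDataOfVal A (IsLocalRing.residue A) (k7fgO A F hprim) (k7fgValRed A F Fk hprim hRedF)
        (k7fg_res_surjective A) (k7fg_algebraMap_mem_iff A F hprim)
        (k7fg_red_eq_zero_iff A F Fk hprim hRedF) (k7fg_red_algebraMap A F Fk hprim hRedF)
        (k7fg_prim A F Fk hprim hRedF)
      = k7fgData A F Fk hprim hRedF := rfl

end Fermat.Agent.RT.K7F

end
end ZBRT_053_1

/-! ### bundled: `Fermat.Agent.RT.K7F.Eq` -/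
section ZBRT_053_2

/-!
# RT-K7F, piece FL-EQ (generic part): equivariance of the reduction of places

Twin of `PR/Frob.lean` §1, §4 and of `DEU/EquivMod.lean`, GENERIC in the pair of fields

  `F = laurentBaseChange ℚ̄ F₀ ⊂ ℚ̄((q))`,  `Fb ⊂ k((q))`  (`k = kA A`),

where `Fb` is stable under the coefficientwise action of `Aut k` (`K7feqStable`).  For
`F₀ = ES1.fieldQ L M H`, `Fb = ES1.fieldC k L M H` see `EqH.lean`.

* `k7feqSemilinear hFb τ : SemilinearAut k Fb` : the coefficientwise action of `τ ∈ Aut k`;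
* the Gauss relation is helper65's `k7fgRel A F x w` (`GaussDefs.lean`);
* `k7feq_rel_smul` : `x ≡ w ⇒ σ x ≡ σ̄ w` for `σ` in the decomposition group of `A`;
* for a reduction datum `R : DEU.RedData ℚ̄ F k Fb` whose reduction is the Gauss relation (`hiff`)
  and a reduction of places `r` canonical in large degree (`hleast`):
  `k7feq_r_decomposition`, `k7feq_r_inertia`, `k7feq_r_frobenius` and their divisor forms;
* `k7feq_r_algAut` : the same for a pair `(δ, δ̄)` of automorphisms over the constants (diamonds)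
  which are compatible with the Gauss relation;
* `k7feq_smul_mem_J1`, `k7feq_smul_smul_mem_J1` : stability of the kernel of reduction.
-/

set_option autoImplicit false
set_option synthInstance.maxHeartbeats 400000
set_option maxHeartbeats 1000000

noncomputable section

namespace Fermat.Agent.RT.K7F

open ModularCurve AlgebraicCurve HahnSeries Module Fermat.Agent.ES Fermat.Agent.S24
  Fermat.Agent.ES.M Fermat.Agent.ES.R Fermat.Agent.PR Fermat.Agent.DEU Fermat.Agent.INJ

/-! ## 1. Coefficientwise automorphisms of a stable subfield of `k((q))` -/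

section Coeff

variable {k : Type*} [Field k]

/-- `Fb ⊂ k((q))` is stable under the coefficientwise action of the automorphisms of `k` -/
def K7feqStable (Fb : IntermediateField k (LaurentSeries k)) : Prop :=
  ∀ (τ : k ≃+* k) (x : LaurentSeries k), x ∈ Fb → coeffMap (τ : k →+* k) x ∈ Fb

variable {Fb : IntermediateField k (LaurentSeries k)} (hFb : K7feqStable Fb)

/-- the coefficientwise action on `Fb` -/
def k7feqFieldAut (τ : k ≃+* k) : Fb ≃+* Fb where
  toFun x := ⟨coeffMap (τ : k →+* k) x, hFb τ x x.2⟩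
  invFun x := ⟨coeffMap (τ.symm : k →+* k) x, hFb τ.symm x x.2⟩
  left_inv x := Subtype.ext (pr_coeffMap_symm_apply τ x)
  right_inv x := Subtype.ext (pr_coeffMap_apply_symm τ x)
  map_mul' _ _ := Subtype.ext (map_mul _ _ _)
  map_add' _ _ := Subtype.ext (map_add _ _ _)

@[simp] theorem coe_k7feqFieldAut (τ : k ≃+* k) (x : Fb) :
    ((k7feqFieldAut hFb τ x : Fb) : LaurentSeries k) = coeffMap (τ : k →+* k) x := rfl

@[simp] theorem coe_k7feqFieldAut_symm (τ : k ≃+* k) (x : Fb) :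
    (((k7feqFieldAut hFb τ).symm x : Fb) : LaurentSeries k)
      = coeffMap (τ.symm : k →+* k) x := rfl

theorem k7feqFieldAut_algebraMap (τ : k ≃+* k) (a : k) :
    k7feqFieldAut hFb τ (algebraMap k Fb a) = algebraMap k Fb (τ a) :=
  Subtype.ext (pr_coeffMap_algebraMap (τ : k →+* k) a)

/-- **the coefficientwise action of `τ ∈ Aut(k)` as a semilinear automorphism of `Fb`** -/
def k7feqSemilinear (τ : k ≃+* k) : SemilinearAut k Fb :=
  ⟨(k7feqFieldAut hFb τ, τ), fun a => k7feqFieldAut_algebraMap hFb τ a⟩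

@[simp] theorem toRingAut_k7feqSemilinear (τ : k ≃+* k) :
    SemilinearAut.toRingAut (k7feqSemilinear hFb τ) = k7feqFieldAut hFb τ := rfl

@[simp] theorem baseAut_k7feqSemilinear (τ : k ≃+* k) :
    SemilinearAut.baseAut (k7feqSemilinear hFb τ) = τ := rfl

theorem coe_k7feqSemilinear_smul (τ : k ≃+* k) (x : Fb) :
    ((k7feqSemilinear hFb τ • x : Fb) : LaurentSeries k) = coeffMap (τ : k →+* k) x := rfl

theorem coe_k7feqSemilinear_inv_smul (τ : k ≃+* k) (x : Fb) :
    (((k7feqSemilinear hFb τ)⁻¹ • x : Fb) : LaurentSeries k)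
      = coeffMap (τ.symm : k →+* k) x := rfl

theorem k7feqSemilinear_one : k7feqSemilinear hFb (RingEquiv.refl k) = 1 := by
  refine Subtype.ext (Prod.ext (RingEquiv.ext fun x => Subtype.ext ?_) rfl)
  show coeffMap ((RingEquiv.refl k : k ≃+* k) : k →+* k) (x : LaurentSeries k) = x
  have h : ((RingEquiv.refl k : k ≃+* k) : k →+* k) = RingHom.id k := rfl
  rw [coeffMap_congr h, coeffMap_id]

theorem k7feqSemilinear_mul (σ τ : k ≃+* k) :
    k7feqSemilinear hFb (σ * τ) = k7feqSemilinear hFb σ * k7feqSemilinear hFb τ := by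
  refine Subtype.ext (Prod.ext (RingEquiv.ext fun x => Subtype.ext ?_) rfl)
  show coeffMap ((σ * τ : k ≃+* k) : k →+* k) (x : LaurentSeries k)
    = coeffMap (σ : k →+* k) (coeffMap (τ : k →+* k) (x : LaurentSeries k))
  rw [coeffMap_coeffMap]
  exact coeffMap_congr (RingHom.ext fun _ => rfl) _

/-- the coefficientwise Frobenius of `Fb` -/
def k7feqFrob (ℓ : ℕ) [Fact ℓ.Prime] [CharP k ℓ] [PerfectRing k ℓ] : SemilinearAut k Fb :=
  k7feqSemilinear hFb (frobeniusEquiv k ℓ)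

theorem k7feqFrob_smul_coeff (ℓ : ℕ) [Fact ℓ.Prime] [CharP k ℓ] [PerfectRing k ℓ] (x : Fb)
    (n : ℤ) :
    ((k7feqFrob hFb ℓ • x : Fb) : LaurentSeries k).coeff n = (x : LaurentSeries k).coeff n ^ ℓ :=
  rfl

end Coeff

/-! ## 2. The Gauss relation and the decomposition group -/

section Rel

variable (A : ValuationSubring Kb)

/-- at level `Γ₀(N)` the generic Gauss relation `k7fgRel` is `ES.M.GaussRed` -/
theorem k7feq_rel_iff_gaussRed (N : ℕ) (x : FF N) (w : LaurentSeries (kA A)) :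
    k7fgRel A (modularFunctionFieldBar N) x w ↔ GaussRed N A x w := Iff.rfl

variable (F₀ : IntermediateField ℚ (LaurentSeries ℚ))

/-- the arithmetic Galois action on `F = ℚ̄ · F₀` is the coefficientwise action -/
theorem k7feq_coe_arith_smul (σ : Kb ≃ₐ[ℚ] Kb) (x : laurentBaseChange Kb F₀) :
    ((arithmeticGalois F₀ σ • x : laurentBaseChange Kb F₀) : LaurentSeries Kb)
      = coeffMap (σ : Kb →+* Kb) (x : LaurentSeries Kb) := rfl

/-- **reduction of `σ x`**: if `w` is the reduction of `x`, then `σ̄ w` is the reduction of `σ x`,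
for `σ` in the decomposition group of `A`. -/
theorem k7feq_rel_smul (σ : Kb ≃ₐ[ℚ] Kb) (hσ : σ ∈ A.decompositionSubgroup ℚ)
    {x : laurentBaseChange Kb F₀} {w : LaurentSeries (kA A)}
    (h : k7fgRel A (laurentBaseChange Kb F₀) x w) :
    k7fgRel A (laurentBaseChange Kb F₀) (arithmeticGalois F₀ σ • x)
      (coeffMap ((prResAut σ hσ : _ ≃+* _) : _ →+* _) w) := by
  obtain ⟨Y₁, Y₂, h₁, h₂, hne, hx, hw⟩ := h
  refine ⟨coeffMap (kronDecompHom σ hσ) Y₁, coeffMap (kronDecompHom σ hσ) Y₂, ?_, ?_, ?_, ?_, ?_⟩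
  · rw [kronIncl_coeffMap_kronDecompHom]
    exact coeffMap_mem_laurentBaseChange σ h₁
  · rw [kronIncl_coeffMap_kronDecompHom]
    exact coeffMap_mem_laurentBaseChange σ h₂
  · rw [pr_kronRed_coeffMap]
    intro h0
    apply hne
    have := congrArg (coeffMap (((prResAut σ hσ).symm : kA A ≃+* kA A) : kA A →+* kA A)) h0
    rwa [pr_coeffMap_symm_apply, map_zero] at this
  · rw [kronIncl_coeffMap_kronDecompHom, kronIncl_coeffMap_kronDecompHom, k7feq_coe_arith_smul,
      ← map_mul, hx]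
  · rw [pr_kronRed_coeffMap, pr_kronRed_coeffMap, ← map_mul, hw]

/-- Gauss-integrality is stable under the decomposition group. -/
theorem k7feq_int_smul (σ : Kb ≃ₐ[ℚ] Kb) (hσ : σ ∈ A.decompositionSubgroup ℚ)
    {x : laurentBaseChange Kb F₀} (h : k7fgInt A (laurentBaseChange Kb F₀) x) :
    k7fgInt A (laurentBaseChange Kb F₀) (arithmeticGalois F₀ σ • x) := by
  obtain ⟨w, hw⟩ := h
  exact ⟨_, k7feq_rel_smul A F₀ σ hσ hw⟩

theorem k7feq_int_smul_iff (σ : Kb ≃ₐ[ℚ] Kb) (hσ : σ ∈ A.decompositionSubgroup ℚ)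
    (x : laurentBaseChange Kb F₀) :
    k7fgInt A (laurentBaseChange Kb F₀) x ↔
      k7fgInt A (laurentBaseChange Kb F₀) (arithmeticGalois F₀ σ • x) := by
  constructor
  · exact k7feq_int_smul A F₀ σ hσ
  · intro h
    have hσ' : σ⁻¹ ∈ A.decompositionSubgroup ℚ := inv_mem hσ
    have h1 := k7feq_int_smul A F₀ σ⁻¹ hσ' h
    rwa [map_inv, inv_smul_smul] at h1

/-- **Frobenius**: the reduction of `φ x` is the coefficientwise `ℓ`-th power of `x̄`. -/
theorem k7feq_rel_frobenius {ℓ : ℕ} [Fact ℓ.Prime] [CharP (kA A) ℓ]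
    (φ : Kb ≃ₐ[ℚ] Kb) (hφ : A.IsFrobeniusAt φ ℓ)
    {x : laurentBaseChange Kb F₀} {w : LaurentSeries (kA A)}
    (h : k7fgRel A (laurentBaseChange Kb F₀) x w) :
    k7fgRel A (laurentBaseChange Kb F₀) (arithmeticGalois F₀ φ • x)
      (coeffMap (frobenius (kA A) ℓ) w) := by
  have h1 := k7feq_rel_smul A F₀ φ hφ.mem_decompositionSubgroup h
  have h2 : coeffMap ((prResAut φ hφ.mem_decompositionSubgroup : _ ≃+* _) : _ →+* _) w
      = coeffMap (frobenius (kA A) ℓ) w := by
    ext n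
    show prResAut φ hφ.mem_decompositionSubgroup (w.coeff n) = (w.coeff n) ^ ℓ
    exact hφ.smul_residue_eq (w.coeff n)
  rwa [h2] at h1

/-- **Inertia**: the reduction of `σ x` is the reduction of `x`. -/
theorem k7feq_rel_inertia (σ : Kb ≃ₐ[ℚ] Kb) (hσ : σ ∈ A.inertiaSubgroupIn ℚ)
    {x : laurentBaseChange Kb F₀} {w : LaurentSeries (kA A)}
    (h : k7fgRel A (laurentBaseChange Kb F₀) x w) :
    k7fgRel A (laurentBaseChange Kb F₀) (arithmeticGalois F₀ σ • x) w := by
  have h1 := k7feq_rel_smul A F₀ σ (kron_mem_decomposition_of_mem_inertia hσ) h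
  have h2 : coeffMap ((prResAut σ (kron_mem_decomposition_of_mem_inertia hσ) : _ ≃+* _) :
      _ →+* _) w = w := by
    rw [prResAut_inertia hσ]
    have h : ((RingEquiv.refl (kA A) : kA A ≃+* kA A) : kA A →+* kA A)
        = RingHom.id (kA A) := rfl
    rw [coeffMap_congr h, coeffMap_id]
  rwa [h2] at h1

variable {Fb : IntermediateField (kA A) (LaurentSeries (kA A))} (hFb : K7feqStable Fb)

/-- `σ̄` as a semilinear automorphism of `Fb`: reduction of `σ x`, with values in `Fb`. -/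
theorem k7feq_rel_semilinear (σ : Kb ≃ₐ[ℚ] Kb) (hσ : σ ∈ A.decompositionSubgroup ℚ)
    {x : laurentBaseChange Kb F₀} {y : Fb}
    (h : k7fgRel A (laurentBaseChange Kb F₀) x (y : LaurentSeries (kA A))) :
    k7fgRel A (laurentBaseChange Kb F₀) (arithmeticGalois F₀ σ • x)
      ((k7feqSemilinear hFb (prResAut σ hσ) • y : Fb) : LaurentSeries (kA A)) :=
  k7feq_rel_smul A F₀ σ hσ h

/-- **`Fr` for the residue field of `A`** (a valuation ring of `ℚ̄` over `ℓ`). -/
def k7feqFrobA {ℓ : ℕ} (hℓ : ℓ.Prime) (hA : A.LiesOverPrime ℓ) : SemilinearAut (kA A) Fb :=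
  haveI : Fact ℓ.Prime := ⟨hℓ⟩
  haveI : CharP (kA A) ℓ := kron_charP_residueField hℓ hA
  haveI : PerfectRing (kA A) ℓ := nf_perfectRing_residueField A ℓ
  k7feqFrob hFb ℓ

theorem k7feqFrobA_smul_coeff {ℓ : ℕ} (hℓ : ℓ.Prime) (hA : A.LiesOverPrime ℓ) (y : Fb) (n : ℤ) :
    ((k7feqFrobA A hFb hℓ hA • y : Fb) : LaurentSeries (kA A)).coeff n
      = (y : LaurentSeries (kA A)).coeff n ^ ℓ := rfl

theorem baseAut_k7feqFrobA_apply {ℓ : ℕ} (hℓ : ℓ.Prime) (hA : A.LiesOverPrime ℓ) (a : kA A) :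
    SemilinearAut.baseAut (k7feqFrobA A hFb hℓ hA) a = a ^ ℓ := rfl

/-- for a Frobenius element `φ`, `k7feqFrobA` is the semilinear automorphism induced by `φ̄`. -/
theorem k7feqFrobA_eq_semilinear {ℓ : ℕ} (hℓ : ℓ.Prime) (hA : A.LiesOverPrime ℓ)
    (φ : Kb ≃ₐ[ℚ] Kb) (hφ : A.IsFrobeniusAt φ ℓ) :
    k7feqFrobA A hFb hℓ hA = k7feqSemilinear hFb (prResAut φ hφ.mem_decompositionSubgroup) := by
  have : Fact ℓ.Prime := ⟨hℓ⟩
  have : CharP (kA A) ℓ := kron_charP_residueField hℓ hA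
  have : PerfectRing (kA A) ℓ := nf_perfectRing_residueField A ℓ
  show k7feqSemilinear hFb (frobeniusEquiv (kA A) ℓ) = _
  rw [prResAut_frobenius φ hφ]

/-- for `σ` in the inertia group the induced semilinear automorphism is trivial. -/
theorem k7feqSemilinear_inertia (σ : Kb ≃ₐ[ℚ] Kb) (hσ : σ ∈ A.inertiaSubgroupIn ℚ) :
    k7feqSemilinear hFb (prResAut σ (kron_mem_decomposition_of_mem_inertia hσ))
      = (1 : SemilinearAut (kA A) Fb) := by
  rw [prResAut_inertia hσ]
  exact k7feqSemilinear_one hFb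

end Rel

/-! ## 3. Equivariance of a canonical reduction of places -/

section Red

variable (A : ValuationSubring Kb) (F₀ : IntermediateField ℚ (LaurentSeries ℚ))
  {Fb : IntermediateField (kA A) (LaurentSeries (kA A))} (hFb : K7feqStable Fb)
  (R : RedData Kb (laurentBaseChange Kb F₀) (kA A) Fb)
  (hiff : ∀ (x : laurentBaseChange Kb F₀) (w : LaurentSeries (kA A)),
    k7fgRel A (laurentBaseChange Kb F₀) x w ↔
      ∃ h : x ∈ R.O, ((R.red ⟨x, h⟩ : Fb) : LaurentSeries (kA A)) = w)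

include hiff in
theorem k7feq_mem_O_iff_int (x : laurentBaseChange Kb F₀) :
    x ∈ R.O ↔ k7fgInt A (laurentBaseChange Kb F₀) x := by
  constructor
  · intro h
    exact ⟨_, (hiff x _).mpr ⟨h, rfl⟩⟩
  · rintro ⟨w, hw⟩
    exact ((hiff x w).mp hw).1

include hiff in
/-- the decomposition group preserves the Gauss-integral elements -/
theorem k7feq_mem_O_iff (σ : Kb ≃ₐ[ℚ] Kb) (hσ : σ ∈ A.decompositionSubgroup ℚ)
    (f : laurentBaseChange Kb F₀) :
    f ∈ R.O ↔ arithmeticGalois F₀ σ • f ∈ R.O := by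
  rw [k7feq_mem_O_iff_int A F₀ R hiff, k7feq_mem_O_iff_int A F₀ R hiff]
  exact k7feq_int_smul_iff A F₀ σ hσ f

include hiff in
/-- `red (σ f) = σ̄ (red f)` for `σ` in the decomposition group -/
theorem k7feq_red_smul (σ : Kb ≃ₐ[ℚ] Kb) (hσ : σ ∈ A.decompositionSubgroup ℚ)
    (f : R.O) (h : arithmeticGalois F₀ σ • (f : laurentBaseChange Kb F₀) ∈ R.O) :
    R.red ⟨arithmeticGalois F₀ σ • (f : laurentBaseChange Kb F₀), h⟩
      = k7feqSemilinear hFb (prResAut σ hσ) • R.red f := by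
  have h1 : k7fgRel A (laurentBaseChange Kb F₀) (f : laurentBaseChange Kb F₀)
      ((R.red f : Fb) : LaurentSeries (kA A)) :=
    (hiff (f : laurentBaseChange Kb F₀) _).mpr ⟨f.2, rfl⟩
  have h2 := k7feq_rel_semilinear A F₀ hFb σ hσ h1
  obtain ⟨h', h3⟩ := (hiff _ _).mp h2
  exact Subtype.ext h3

variable
  (hresF : ∀ v : Place Kb (laurentBaseChange Kb F₀),
    Function.Bijective (algebraMap Kb v.ResidueField))
  (d₀ : ℤ) (r : Place Kb (laurentBaseChange Kb F₀) → Place (kA A) Fb)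
  (hleast : ∀ D : Divisor Kb (laurentBaseChange Kb F₀), d₀ ≤ Divisor.degree D →
    IsLeast (bounds (R.redSpace (riemannRochSpace D))) (Finsupp.mapDomain r D))

include hiff hresF hleast in
/-- **FL-EQ, decomposition group**: `r (σ • P) = σ̄ • r P`. -/
theorem k7feq_r_decomposition (σ : Kb ≃ₐ[ℚ] Kb) (hσ : σ ∈ A.decompositionSubgroup ℚ)
    (P : Place Kb (laurentBaseChange Kb F₀)) :
    r (arithmeticGalois F₀ σ • P) = k7feqSemilinear hFb (prResAut σ hσ) • r P :=
  r_smul_of_isLeast R (arithmeticGalois F₀ σ) (k7feqSemilinear hFb (prResAut σ hσ))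
    (k7feq_mem_O_iff A F₀ R hiff σ hσ) (k7feq_red_smul A F₀ hFb R hiff σ hσ) hresF d₀ r hleast P

include hiff in
/-- `red (σ f) = red f` for `σ` in the inertia group -/
theorem k7feq_red_inertia (σ : Kb ≃ₐ[ℚ] Kb) (hσ : σ ∈ A.inertiaSubgroupIn ℚ)
    (f : R.O) (h : arithmeticGalois F₀ σ • (f : laurentBaseChange Kb F₀) ∈ R.O) :
    R.red ⟨arithmeticGalois F₀ σ • (f : laurentBaseChange Kb F₀), h⟩ = R.red f := by
  have h1 : k7fgRel A (laurentBaseChange Kb F₀) (f : laurentBaseChange Kb F₀)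
      ((R.red f : Fb) : LaurentSeries (kA A)) :=
    (hiff (f : laurentBaseChange Kb F₀) _).mpr ⟨f.2, rfl⟩
  have h2 := k7feq_rel_inertia A F₀ σ hσ h1
  obtain ⟨h', h3⟩ := (hiff _ _).mp h2
  exact Subtype.ext h3

include hiff hresF hleast in
/-- **FL-EQ, inertia**: `r (σ • P) = r P`. -/
theorem k7feq_r_inertia (σ : Kb ≃ₐ[ℚ] Kb) (hσ : σ ∈ A.inertiaSubgroupIn ℚ)
    (P : Place Kb (laurentBaseChange Kb F₀)) :
    r (arithmeticGalois F₀ σ • P) = r P :=
  r_smul_of_isLeast_of_fix R (arithmeticGalois F₀ σ)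
    (k7feq_mem_O_iff A F₀ R hiff σ (kron_mem_decomposition_of_mem_inertia hσ))
    (k7feq_red_inertia A F₀ R hiff σ hσ) hresF d₀ r hleast P

include hiff hresF hleast in
/-- **FL-EQ, Frobenius**: `r (φ • P) = Fr • r P`. -/
theorem k7feq_r_frobenius {ℓ : ℕ} (hℓ : ℓ.Prime) (hA : A.LiesOverPrime ℓ)
    (φ : Kb ≃ₐ[ℚ] Kb) (hφ : A.IsFrobeniusAt φ ℓ) (P : Place Kb (laurentBaseChange Kb F₀)) :
    r (arithmeticGalois F₀ φ • P) = k7feqFrobA A hFb hℓ hA • r P := by
  rw [k7feqFrobA_eq_semilinear A hFb hℓ hA φ hφ]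
  exact k7feq_r_decomposition A F₀ hFb R hiff hresF d₀ r hleast φ hφ.mem_decompositionSubgroup P

include hiff hresF hleast in
/-- on divisors: `r_* (σ • D) = σ̄ • r_* D` -/
theorem k7feq_mapDomain_r_smul (σ : Kb ≃ₐ[ℚ] Kb) (hσ : σ ∈ A.decompositionSubgroup ℚ)
    (D : Divisor Kb (laurentBaseChange Kb F₀)) :
    Finsupp.mapDomain r (arithmeticGalois F₀ σ • D)
      = k7feqSemilinear hFb (prResAut σ hσ) • Finsupp.mapDomain r D :=
  deuEqMod_mapDomain_r_smul_of _ _ r
    (k7feq_r_decomposition A F₀ hFb R hiff hresF d₀ r hleast σ hσ) D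

include hiff hresF hleast in
theorem k7feq_mapDomain_r_inertia (σ : Kb ≃ₐ[ℚ] Kb) (hσ : σ ∈ A.inertiaSubgroupIn ℚ)
    (D : Divisor Kb (laurentBaseChange Kb F₀)) :
    Finsupp.mapDomain r (arithmeticGalois F₀ σ • D) = Finsupp.mapDomain r D := by
  have h := deuEqMod_mapDomain_r_smul_of (arithmeticGalois F₀ σ)
    (1 : SemilinearAut (kA A) Fb) r
    (fun P => by
      rw [one_smul]; exact k7feq_r_inertia A F₀ R hiff hresF d₀ r hleast σ hσ P) D
  rwa [one_smul] at h

include hiff hresF hleast in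
theorem k7feq_mapDomain_r_frobenius {ℓ : ℕ} (hℓ : ℓ.Prime) (hA : A.LiesOverPrime ℓ)
    (φ : Kb ≃ₐ[ℚ] Kb) (hφ : A.IsFrobeniusAt φ ℓ) (D : Divisor Kb (laurentBaseChange Kb F₀)) :
    Finsupp.mapDomain r (arithmeticGalois F₀ φ • D)
      = k7feqFrobA A hFb hℓ hA • Finsupp.mapDomain r D :=
  deuEqMod_mapDomain_r_smul_of _ _ r
    (k7feq_r_frobenius A F₀ hFb R hiff hresF d₀ r hleast hℓ hA φ hφ) D

end Red

/-! ## 4. Automorphisms over the constants (diamonds) -/

section AlgAut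

variable (A : ValuationSubring Kb) {F : IntermediateField Kb (LaurentSeries Kb)}
  {Fb : IntermediateField (kA A) (LaurentSeries (kA A))}
  (R : RedData Kb F (kA A) Fb)
  (hiff : ∀ (x : F) (w : LaurentSeries (kA A)),
    k7fgRel A F x w ↔ ∃ h : x ∈ R.O, ((R.red ⟨x, h⟩ : Fb) : LaurentSeries (kA A)) = w)

/-- `(δ, δ̄)` is compatible with the Gauss relation: `x ≡ w ⇒ δ x ≡ δ̄ w` (the output of FL-DIAM
for a diamond `δ` of `F_H` and the diamond `δ̄` of `F̄_H`). -/
def K7feqCompat (δ : F ≃ₐ[Kb] F) (δb : Fb ≃ₐ[kA A] Fb) : Prop :=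
  ∀ (x : F) (y : Fb), k7fgRel A F x (y : LaurentSeries (kA A)) →
    k7fgRel A F (δ x) ((δb y : Fb) : LaurentSeries (kA A))

theorem k7feqCompat_one : K7feqCompat A (1 : F ≃ₐ[Kb] F) (1 : Fb ≃ₐ[kA A] Fb) :=
  fun _ _ h => h

theorem K7feqCompat.mul {δ δ' : F ≃ₐ[Kb] F} {δb δb' : Fb ≃ₐ[kA A] Fb}
    (h : K7feqCompat A δ δb) (h' : K7feqCompat A δ' δb') :
    K7feqCompat A (δ * δ') (δb * δb') :=
  fun x y hxy => h _ _ (h' x y hxy)

theorem K7feqCompat.pow {δ : F ≃ₐ[Kb] F} {δb : Fb ≃ₐ[kA A] Fb}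
    (h : K7feqCompat A δ δb) (n : ℕ) : K7feqCompat A (δ ^ n) (δb ^ n) := by
  induction n with
  | zero => rw [pow_zero, pow_zero]; exact k7feqCompat_one A
  | succ n ih => rw [pow_succ, pow_succ]; exact ih.mul A h

include hiff in
/-- a compatible pair maps `O` into `O`, compatibly with `red` -/
theorem K7feqCompat.mem_O {δ : F ≃ₐ[Kb] F} {δb : Fb ≃ₐ[kA A] Fb} (h : K7feqCompat A δ δb)
    (f : R.O) : ∃ h' : δ (f : F) ∈ R.O, R.red ⟨δ (f : F), h'⟩ = δb (R.red f) := by
  have h1 : k7fgRel A F (f : F) ((R.red f : Fb) : LaurentSeries (kA A)) :=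
    (hiff (f : F) _).mpr ⟨f.2, rfl⟩
  obtain ⟨h', h3⟩ := (hiff _ _).mp (h _ _ h1)
  exact ⟨h', Subtype.ext h3⟩

include hiff in
theorem K7feqCompat.hO {δ : F ≃ₐ[Kb] F} {δb δb' : Fb ≃ₐ[kA A] Fb} (h : K7feqCompat A δ δb)
    (hinv : K7feqCompat A δ⁻¹ δb') (f : F) :
    f ∈ R.O ↔ SemilinearAut.ofAlgAut δ • f ∈ R.O := by
  constructor
  · intro hf
    exact (h.mem_O A R hiff ⟨f, hf⟩).1
  · intro hf
    obtain ⟨h', -⟩ := hinv.mem_O A R hiff ⟨SemilinearAut.ofAlgAut δ • f, hf⟩
    have h2 : δ⁻¹ (SemilinearAut.ofAlgAut δ • f) = f := δ.symm_apply_apply f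
    rw [← h2]
    exact h'

include hiff in
theorem K7feqCompat.hred {δ : F ≃ₐ[Kb] F} {δb : Fb ≃ₐ[kA A] Fb} (h : K7feqCompat A δ δb)
    (f : R.O) (hf : SemilinearAut.ofAlgAut δ • (f : F) ∈ R.O) :
    R.red ⟨SemilinearAut.ofAlgAut δ • (f : F), hf⟩ = SemilinearAut.ofAlgAut δb • R.red f := by
  obtain ⟨h', h2⟩ := h.mem_O A R hiff f
  exact h2

variable
  (hresF : ∀ v : Place Kb F, Function.Bijective (algebraMap Kb v.ResidueField))
  (d₀ : ℤ) (r : Place Kb F → Place (kA A) Fb)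
  (hleast : ∀ D : Divisor Kb F, d₀ ≤ Divisor.degree D →
    IsLeast (bounds (R.redSpace (riemannRochSpace D))) (Finsupp.mapDomain r D))

include hiff hresF hleast in
/-- **FL-EQ, diamonds**: `r (δ • P) = δ̄ • r P` for a pair `(δ, δ̄)` compatible with the Gauss
relation (`δ⁻¹` being compatible with some `δ̄'`). -/
theorem k7feq_r_algAut {δ : F ≃ₐ[Kb] F} {δb δb' : Fb ≃ₐ[kA A] Fb} (h : K7feqCompat A δ δb)
    (hinv : K7feqCompat A δ⁻¹ δb') (P : Place Kb F) :
    r (SemilinearAut.ofAlgAut δ • P) = SemilinearAut.ofAlgAut δb • r P :=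
  r_smul_of_isLeast R (SemilinearAut.ofAlgAut δ) (SemilinearAut.ofAlgAut δb)
    (h.hO A R hiff hinv) (h.hred A R hiff) hresF d₀ r hleast P

include hiff hresF hleast in
theorem k7feq_mapDomain_r_algAut {δ : F ≃ₐ[Kb] F} {δb δb' : Fb ≃ₐ[kA A] Fb}
    (h : K7feqCompat A δ δb) (hinv : K7feqCompat A δ⁻¹ δb') (D : Divisor Kb F) :
    Finsupp.mapDomain r (SemilinearAut.ofAlgAut δ • D)
      = SemilinearAut.ofAlgAut δb • Finsupp.mapDomain r D :=
  deuEqMod_mapDomain_r_smul_of _ _ r (k7feq_r_algAut A R hiff hresF d₀ r hleast h hinv) D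

end AlgAut

/-! ## 5. Stability of the kernel of reduction -/

section J1

open Fermat.Agent.W1

variable {K F k Fk : Type} [Field K] [Field F] [Algebra K F] [Field k] [Field Fk] [Algebra k Fk]
variable {A : ValuationSubring K} {R : PRData K F k Fk A}

/-- `γ` with `r (γ P) = τ (r P)` for a semilinear automorphism `τ` of the residue field
preserves the kernel of reduction -/
theorem k7feq_smul_mem_J1 (γ : SemilinearAut K F) (τ : SemilinearAut k Fk)
    (h : ∀ P, R.r (γ • P) = τ • R.r P) {x : Pic0 K F} (hx : x ∈ R.J1) : γ • x ∈ R.J1 :=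
  kc_smul_mem_J1 γ (fun Q => τ • Q) h (fun _ hE => deuEqMod_mapDomain_principal τ hE) hx

/-- the same for a product (twisted action `δ ∘ σ`) -/
theorem k7feq_smul_smul_mem_J1 (γ γ' : SemilinearAut K F) (τ τ' : SemilinearAut k Fk)
    (h : ∀ P, R.r (γ • P) = τ • R.r P) (h' : ∀ P, R.r (γ' • P) = τ' • R.r P)
    {x : Pic0 K F} (hx : x ∈ R.J1) : γ • γ' • x ∈ R.J1 :=
  k7feq_smul_mem_J1 γ τ h (k7feq_smul_mem_J1 γ' τ' h' hx)

/-- the `ModPR`-form of the decomposition clause -/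
theorem k7feq_decomp_clause (γ : SemilinearAut K F) (τ : SemilinearAut k Fk)
    (h : ∀ P, R.r (γ • P) = τ • R.r P) :
    ∃ σb : Place k Fk → Place k Fk, (∀ P, R.r (γ • P) = σb (R.r P)) ∧
      ∀ E ∈ Divisor.principal (K := k) (F := Fk),
        Finsupp.mapDomain σb E ∈ Divisor.principal (K := k) (F := Fk) :=
  ⟨fun Q => τ • Q, h, fun _ hE => deuEqMod_mapDomain_principal τ hE⟩

end J1

end Fermat.Agent.RT.K7F

end
end ZBRT_053_2

/-! ### bundled: `Fermat.Agent.RT.K7F.AnchConj` -/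
section ZBRT_053_3

/-!
# RT-K7F, piece FL-ANCH — the conjugates in characteristic `p`

`F ⊂ ℚ̄((q))`, `Fb ⊂ k((q))`, `R = k7fgData A F Fb hprim hRedF` the Gauss reduction, `δ_c` a family
of automorphisms of `F` indexed by a finite group, `δb_c` automorphisms of `Fb` compatible with
the Gauss relation (`K7feqCompat`).

* `k7fanch_compat_mem` : `δ_c f ∈ O`, `red (δ_c f) = δb_c (red f)`;
* `k7fanch_db_eq_self` : `δ_c = 1 ⇒ δb_c = id`;
* `k7fanch_red_of_lift` : the reduction of an `A`-integral series is its coefficientwise reduction;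
* `k7fanch_hsym` : the coefficients of `∏_c (X - δb_c x)` lie in `Fb₀`, if the invariants of the
  `δ_c` lie in `F₀` and `red (O ∩ F₀) ⊆ Fb₀`;
* `k7fanch_conj_isIntegral` : `δb_c (red Y)` is integral over `S₀` if the coefficients of
  `∏_c (X - Z_c)` (`Z_c` an `A`-integral lift of `δ_c Y`) reduce into `S₀`.
-/

set_option autoImplicit false
set_option linter.unusedSectionVars false
set_option linter.style.haveILetI false
set_option synthInstance.maxHeartbeats 400000
set_option maxHeartbeats 1600000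

noncomputable section

namespace Fermat.Agent.RT.K7F

open AlgebraicCurve Polynomial ModularCurve
open Fermat.Agent.ES Fermat.Agent.ES.M Fermat.Agent.S24 Fermat.Agent.DEU Fermat.Agent.ES1.G2

section Conj

variable {A : ValuationSubring Kb} {F : IntermediateField Kb (LaurentSeries Kb)}
  {Fb : IntermediateField (kA A) (LaurentSeries (kA A))}
  (hprim : PrimAt A F) (hRedF : ∀ Y : LaurentSeries A, kronIncl A Y ∈ F → kronRed A Y ∈ Fb)
  {G : Type*} [Group G] [Fintype G]
  (δ : G → (F ≃ₐ[Kb] F)) (δb : G → (Fb ≃ₐ[kA A] Fb))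
  (hcompat : ∀ c, K7feqCompat A (δ c) (δb c))

/-- the conjugates `σ_c = incl ∘ δb_c : Fb → k((q))` -/
def k7fanchSigma (c : G) : Fb →ₐ[kA A] LaurentSeries (kA A) :=
  Fb.val.comp (δb c : Fb →ₐ[kA A] Fb)

theorem k7fanchSigma_apply (c : G) (x : Fb) :
    k7fanchSigma δb c x = ((δb c x : Fb) : LaurentSeries (kA A)) := rfl

include hcompat in
/-- `δ_c f ∈ O` and `red (δ_c f) = δb_c (red f)` -/
theorem k7fanch_compat_mem (c : G) (f : (k7fgData A F Fb hprim hRedF).O) :
    ∃ h' : δ c (f : F) ∈ (k7fgData A F Fb hprim hRedF).O,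
      (k7fgData A F Fb hprim hRedF).red ⟨δ c (f : F), h'⟩
        = δb c ((k7fgData A F Fb hprim hRedF).red f) :=
  (hcompat c).mem_O A (k7fgData A F Fb hprim hRedF) (k7fgRed_iff A F Fb hRedF) f

include hcompat in
/-- `δ_c = 1 ⇒ δb_c = id` -/
theorem k7fanch_db_eq_self
    (hsurj : Function.Surjective (k7fgData A F Fb hprim hRedF).red) {c : G} (hc : δ c = 1)
    (x : Fb) : δb c x = x := by
  obtain ⟨f, rfl⟩ := hsurj x
  obtain ⟨h', h2⟩ := k7fanch_compat_mem hprim hRedF δ δb hcompat c f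
  rw [← h2]
  congr 1
  apply Subtype.ext
  show δ c (f : F) = (f : F)
  rw [hc]
  rfl

/-- the reduction of an `A`-integral series is its coefficientwise reduction -/
theorem k7fanch_red_of_lift (f : (k7fgData A F Fb hprim hRedF).O) (Y : LaurentSeries A)
    (hY : kronIncl A Y = ((f : F) : LaurentSeries Kb)) :
    (((k7fgData A F Fb hprim hRedF).red f : Fb) : LaurentSeries (kA A)) = kronRed A Y := by
  have hYF : kronIncl A Y ∈ F := by rw [hY]; exact (f : F).2
  have h1 := k7fgRel_of_int A F Y hYF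
  have h2 : (⟨kronIncl A Y, hYF⟩ : F) = (f : F) := Subtype.ext hY
  rw [h2] at h1
  obtain ⟨h, h3⟩ := (k7fgRed_iff A F Fb hRedF (f : F) _).mp h1
  exact h3

include hcompat in
/-- **the symmetric functions of the conjugates lie in `Fb₀`** -/
theorem k7fanch_hsym (hmul : ∀ c d x, δ c (δ d x) = δ (c * d) x)
    (F₀ : IntermediateField Kb (LaurentSeries Kb))
    (hinv : ∀ x : F, (∀ c, δ c x = x) → (x : LaurentSeries Kb) ∈ F₀)
    (Fb₀ : IntermediateField (kA A) (LaurentSeries (kA A)))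
    (hred₀ : ∀ f : (k7fgData A F Fb hprim hRedF).O, ((f : F) : LaurentSeries Kb) ∈ F₀ →
      (((k7fgData A F Fb hprim hRedF).red f : Fb) : LaurentSeries (kA A)) ∈ Fb₀)
    (hsurj : Function.Surjective (k7fgData A F Fb hprim hRedF).red)
    (x : Fb) (n : ℕ) : (k7fanch_charpoly Fb (k7fanchSigma δb) x).coeff n ∈ Fb₀ := by
  classical
  obtain ⟨f, rfl⟩ := hsurj x
  have hmem := fun c => k7fanch_compat_mem hprim hRedF δ δb hcompat c f
  let g : G → (k7fgData A F Fb hprim hRedF).O := fun c => ⟨δ c (f : F), (hmem c).1⟩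
  have hg : ∀ c, (k7fgData A F Fb hprim hRedF).red (g c)
      = δb c ((k7fgData A F Fb hprim hRedF).red f) := fun c => (hmem c).2
  set P : Polynomial (k7fgData A F Fb hprim hRedF).O := ∏ c, (X - C (g c)) with hP
  have h1 : k7fanch_charpoly Fb (k7fanchSigma δb) ((k7fgData A F Fb hprim hRedF).red f)
      = (P.map (k7fgData A F Fb hprim hRedF).red).map (algebraMap Fb (LaurentSeries (kA A))) := by
    rw [k7fanch_charpoly, hP, Polynomial.map_prod, Polynomial.map_prod]
    refine Finset.prod_congr rfl fun c _ => ?_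
    rw [Polynomial.map_sub, Polynomial.map_X, Polynomial.map_C, Polynomial.map_sub,
      Polynomial.map_X, Polynomial.map_C, hg c]
    rfl
  have h2 : P.map (k7fgData A F Fb hprim hRedF).O.subtype = ∏ c, (X - C (δ c (f : F))) := by
    rw [hP, Polynomial.map_prod]
    refine Finset.prod_congr rfl fun c _ => ?_
    rw [Polynomial.map_sub, Polynomial.map_X, Polynomial.map_C]
    rfl
  rw [h1, Polynomial.coeff_map, Polynomial.coeff_map]
  refine hred₀ (P.coeff n) (hinv _ fun c => ?_)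
  have h3 : ((P.coeff n : (k7fgData A F Fb hprim hRedF).O) : F)
      = (∏ c, (X - C (δ c (f : F)))).coeff n := by
    rw [← h2, Polynomial.coeff_map]
    rfl
  rw [h3]
  exact k7fanch_coeff_fixed δ hmul (f : F) c n

include hcompat in
/-- **the conjugates of a reduction are integral over `S₀`** -/
theorem k7fanch_conj_isIntegral (Y : (k7fgData A F Fb hprim hRedF).O)
    (Z : G → LaurentSeries A)
    (hZ : ∀ c, kronIncl A (Z c) = ((δ c (Y : F) : F) : LaurentSeries Kb))
    (S₀ : Subalgebra (kA A) (LaurentSeries (kA A)))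
    (hS₀ : ∀ n, kronRed A ((∏ c, (X - C (Z c))).coeff n) ∈ S₀) (c : G) :
    IsIntegral S₀ (k7fanchSigma δb c ((k7fgData A F Fb hprim hRedF).red Y)) := by
  classical
  have hmem := fun c => k7fanch_compat_mem hprim hRedF δ δb hcompat c Y
  have hred : ∀ c, kronRed A (Z c)
      = k7fanchSigma δb c ((k7fgData A F Fb hprim hRedF).red Y) := by
    intro c
    rw [k7fanchSigma_apply, ← (hmem c).2]
    exact (k7fanch_red_of_lift hprim hRedF ⟨δ c (Y : F), (hmem c).1⟩ (Z c) (hZ c)).symm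
  set Q : Polynomial (LaurentSeries (kA A)) := (∏ c, (X - C (Z c))).map (kronRed A) with hQ
  have hQ' : Q = ∏ c, (X - C (kronRed A (Z c))) := by
    rw [hQ, Polynomial.map_prod]
    refine Finset.prod_congr rfl fun c _ => ?_
    rw [Polynomial.map_sub, Polynomial.map_X, Polynomial.map_C]
  have hmonic : Q.Monic := by
    rw [hQ']
    exact monic_prod_of_monic _ _ fun i _ => monic_X_sub_C _
  have hlift : Q ∈ Polynomial.lifts (algebraMap S₀ (LaurentSeries (kA A))) := by
    rw [Polynomial.lifts_iff_coeff_lifts]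
    intro n
    rw [hQ, Polynomial.coeff_map]
    exact ⟨⟨_, hS₀ n⟩, rfl⟩
  obtain ⟨q, hq, -, hqm⟩ := Polynomial.lifts_and_degree_eq_and_monic hlift hmonic
  refine ⟨q, hqm, ?_⟩
  rw [← Polynomial.eval_map, hq, hQ', Polynomial.eval_prod]
  refine Finset.prod_eq_zero (Finset.mem_univ c) ?_
  rw [Polynomial.eval_sub, Polynomial.eval_X, Polynomial.eval_C, hred c, sub_self]

end Conj

end Fermat.Agent.RT.K7F

end
end ZBRT_053_3

/-! ### bundled: `Fermat.Agent.RT.K7F.GaussQ2` -/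
section ZBRT_053_4
/-
K-machine, K7-FLAT, piece FL-GAUSS (helper65), part 3: orthonormal bases (Q2), generic, and the
bridge for (RedF).

* `k7fg_q2` : for `F = ℚ̄(g_i : i ∈ ι)`, `g_i ∈ ℤ((q))`: a linearly independent family `a : Fin r → F`
  can be replaced by a family `b` in its span whose Gauss reductions are linearly independent over
  the residue field.  (Fork of `ES/M/Q2.lean`.)
* `k7fgData_q2`, `k7fgData_finrank_redSpace` : Q2 in `RedData` form: reduction preserves the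
  dimension of finite-dimensional subspaces.
* `k7fg_redF_of_basis` : (RedF) for `F ⊇ F₀` from (RedF) for `F₀` and a family of integral series
  `S_i ∈ F` with reductions in `Fk` such that every integral series of `F` is a combination of the
  `S_i` with Gauss-integral coefficients in `F₀`.
-/

set_option autoImplicit false
set_option linter.unusedSectionVars false
set_option synthInstance.maxHeartbeats 400000
set_option maxHeartbeats 1000000

noncomputable section

namespace Fermat.Agent.RT.K7F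

open ModularCurve AlgebraicCurve HahnSeries Fermat.Agent.ES Fermat.Agent.S24 Fermat.Agent.ES.M
  Fermat.Agent.DEU Fermat.Agent.ES1.G2 Fermat.Agent.ES.G2

variable (A : ValuationSubring Kb) (F : IntermediateField Kb (LaurentSeries Kb))

section Q2

variable {ι : Type*} (gn : ι → LaurentSeries Kb)

/-- evaluation of polynomials at the generators -/
abbrev k7fgEv : MvPolynomial ι Kb →ₐ[Kb] LaurentSeries Kb := MvPolynomial.aeval gn

/-- the range of `q2Ev` as a `ℚ̄`-subspace of `ℚ̄((q))` -/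
def k7fgRange : Submodule Kb (LaurentSeries Kb) where
  carrier := {x | ∃ P, k7fgEv gn P = x}
  zero_mem' := ⟨0, map_zero _⟩
  add_mem' := by
    rintro _ _ ⟨P, rfl⟩ ⟨Q, rfl⟩
    exact ⟨P + Q, map_add _ _ _⟩
  smul_mem' := by
    rintro c _ ⟨P, rfl⟩
    refine ⟨MvPolynomial.C c * P, ?_⟩
    rw [map_mul, MvPolynomial.aeval_C, algebraMap_eq_hahnC, HahnSeries.C_mul_eq_smul]

/-- in the range of `q2Ev` the Gauss norm is attained -/
theorem k7fg_attained (hgn : ∀ i, gn i ∈ primIntSeries) (x : LaurentSeries Kb) (hx : x ∈ k7fgRange gn) (h0 : x ≠ 0) :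
    ∃ n₀, q2Coeff n₀ x ≠ 0 ∧ ∀ n, q2Coeff n x / q2Coeff n₀ x ∈ A.toSubring := by
  obtain ⟨P, rfl⟩ := hx
  obtain ⟨s, y, hs, -, ⟨hyI, n₀, hn₀⟩, hPy⟩ := es1prim_exists_primitive gn hgn A P h0
  have hy0 : y.coeff n₀ ≠ 0 := by
    intro h
    apply hn₀
    rw [h, ValuationSubring.mem_nonunits_iff, map_zero]
    exact zero_lt_one
  have hco : ∀ n, q2Coeff n (k7fgEv gn P) = s * y.coeff n := by
    intro n
    rw [q2Coeff_apply, hPy, HahnSeries.C_mul_eq_smul, HahnSeries.coeff_smul, smul_eq_mul]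
  refine ⟨n₀, ?_, fun n => ?_⟩
  · rw [hco]
    exact mul_ne_zero hs hy0
  · rw [hco, hco, mul_div_mul_left _ _ hs]
    show y.coeff n / y.coeff n₀ ∈ A
    have h1 : A.valuation (y.coeff n₀) = 1 := by
      refine le_antisymm ((ValuationSubring.valuation_le_one_iff A _).2 (hyI n₀)) ?_
      rw [ValuationSubring.mem_nonunits_iff, not_lt] at hn₀
      exact hn₀
    rw [← ValuationSubring.valuation_le_one_iff, map_div₀, h1, div_one]
    exact (ValuationSubring.valuation_le_one_iff A _).2 (hyI n)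

theorem k7fg_coe_smul (c : Kb) (x : F) :
    ((c • x : F) : LaurentSeries Kb) = c • (x : LaurentSeries Kb) := by
  rw [Algebra.smul_def, ← HahnSeries.C_mul_eq_smul, ← algebraMap_eq_hahnC]
  rfl

theorem k7fg_coe_sum {κ : Type*} (s : Finset κ) (f : κ → F) :
    ((∑ i ∈ s, f i : F) : LaurentSeries Kb) = ∑ i ∈ s, (f i : LaurentSeries Kb) :=
  map_sum F.val f s

/-- **(Q2)** for `F = ℚ̄(g_i)`, `g_i` with integer coefficients, at every valuation subring `A`. -/
theorem k7fg_q2 (hgn : ∀ i, gn i ∈ primIntSeries)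
    (hF : F = IntermediateField.adjoin Kb (Set.range gn))
    (r : ℕ) (a : Fin r → F) (ha : LinearIndependent Kb a) :
    ∃ (b : Fin r → F) (w : Fin r → LaurentSeries (kA A)),
      (∀ i, b i ∈ Submodule.span Kb (Set.range a)) ∧ (∀ i, k7fgRel A F (b i) (w i)) ∧
        LinearIndependent (kA A) w := by
  classical
  -- fractions
  have hfrac : ∀ i, ∃ P Q : MvPolynomial ι Kb,
      ((a i : F) : LaurentSeries Kb) = k7fgEv gn P / k7fgEv gn Q := by
    intro i
    have hu' : ((a i : F) : LaurentSeries Kb) ∈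
        IntermediateField.adjoin Kb (Set.range gn) := by
      rw [← hF]; exact (a i).2
    exact (IntermediateField.mem_adjoin_range_iff Kb _ _).1 hu'
  choose P Q hPQ using hfrac
  have ha0 : ∀ i, ((a i : F) : LaurentSeries Kb) ≠ 0 := fun i h =>
    ha.ne_zero i (Subtype.ext h)
  have hQ0 : ∀ i, k7fgEv gn (Q i) ≠ 0 := by
    intro i h
    apply ha0 i
    rw [hPQ i, h, div_zero]
  -- common denominator
  set D : LaurentSeries Kb := k7fgEv gn (∏ i, Q i) with hD
  have hDprod : D = ∏ i, k7fgEv gn (Q i) := map_prod _ _ _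
  have hD0 : D ≠ 0 := by
    rw [hDprod]
    exact Finset.prod_ne_zero_iff.2 fun i _ => hQ0 i
  set P' : Fin r → MvPolynomial ι Kb :=
    fun i => P i * ∏ j ∈ Finset.univ.erase i, Q j with hP'
  have haD : ∀ i, ((a i : F) : LaurentSeries Kb) * D = k7fgEv gn (P' i) := by
    intro i
    rw [hP', map_mul, map_prod, hDprod,
      ← Finset.mul_prod_erase Finset.univ _ (Finset.mem_univ i), hPQ i, ← mul_assoc,
      div_mul_cancel₀ _ (hQ0 i)]
  set a'' : Fin r → LaurentSeries Kb := fun i => k7fgEv gn (P' i) with ha''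
  have hsum : ∀ g : Fin r → Kb, ∑ i, g i • a'' i =
      ((∑ i, g i • a i : F) : LaurentSeries Kb) * D := by
    intro g
    rw [k7fg_coe_sum F, Finset.sum_mul]
    refine Finset.sum_congr rfl fun i _ => ?_
    show g i • k7fgEv gn (P' i) = _
    rw [k7fg_coe_smul F, ← haD i, ← HahnSeries.C_mul_eq_smul, ← HahnSeries.C_mul_eq_smul, mul_assoc]
  have ha''li : LinearIndependent Kb a'' := by
    rw [Fintype.linearIndependent_iff]
    intro g hg
    rw [hsum g] at hg
    have h1 : ((∑ i, g i • a i : F) : LaurentSeries Kb) = 0 := by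
      rcases mul_eq_zero.1 hg with h | h
      · exact h
      · exact absurd h hD0
    exact (Fintype.linearIndependent_iff.1 ha) g (Subtype.ext h1)
  -- elimination
  obtain ⟨b'', n, hb''span, hb''A, hb''δ⟩ := q2_elim A.toSubring q2Coeff (k7fgRange gn)
    (k7fg_attained A gn hgn) r a'' ha''li (fun i => ⟨P' i, rfl⟩)
  -- the denominator is a constant times a primitive series
  obtain ⟨sD, yD, hsD, hyDm, hyDprim, hDy⟩ := es1prim_exists_primitive gn hgn A (∏ i, Q i) hD0
  have hc : ∀ i, ∃ c : Fin r → Kb, ∑ j, c j • a'' j = b'' i := fun i =>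
    (Submodule.mem_span_range_iff_exists_fun Kb).1 (hb''span i)
  choose c hc using hc
  set b : Fin r → F := fun i => sD • ∑ j, c i j • a j with hb
  have hby : ∀ i, ((b i : F) : LaurentSeries Kb) * yD = b'' i := by
    intro i
    have hDy' : D = HahnSeries.C sD * yD := hDy
    rw [← hc i, hsum (c i), hDy']
    show ((sD • ∑ j, c i j • a j : F) : LaurentSeries Kb) * yD = _
    rw [k7fg_coe_smul F, ← HahnSeries.C_mul_eq_smul]
    ring
  have hb''I : ∀ i, KronInt A (b'' i) := fun i m => hb''A i m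
  choose Y₁ hY₁ using fun i => (hb''I i).exists_lift
  obtain ⟨Y₂, hY₂⟩ := hyDprim.1.exists_lift
  have hY₂0 : kronRed A Y₂ ≠ 0 := by
    rw [← kronPrim_kronIncl_iff, hY₂]
    exact hyDprim
  refine ⟨b, fun i => kronRed A (Y₁ i) * (kronRed A Y₂)⁻¹, ?_, ?_, ?_⟩
  · intro i
    exact Submodule.smul_mem _ _ (Submodule.sum_mem _ fun j _ =>
      Submodule.smul_mem _ _ (Submodule.subset_span ⟨j, rfl⟩))
  · intro i
    refine ⟨Y₁ i, Y₂, ?_, ?_, hY₂0, ?_, ?_⟩
    · rw [hY₁ i, ← hby i]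
      exact mul_mem (b i).2 (hF ▸ hyDm)
    · rw [hY₂]
      exact hF ▸ hyDm
    · rw [hY₁ i, hY₂, hby i]
    · rw [inv_mul_cancel_right₀ hY₂0]
  · rw [Fintype.linearIndependent_iff]
    intro g hg
    have h1 : ∑ i, g i • kronRed A (Y₁ i) = 0 := by
      have h2 := congrArg (fun x => x * kronRed A Y₂) hg
      simp only [Finset.sum_mul, zero_mul] at h2
      rw [← h2]
      refine Finset.sum_congr rfl fun i _ => ?_
      rw [← HahnSeries.C_mul_eq_smul, ← HahnSeries.C_mul_eq_smul, mul_assoc,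
        inv_mul_cancel_right₀ hY₂0]
    intro j
    have h3 := congrArg (fun x : LaurentSeries (kA A) => x.coeff (n j)) h1
    simp only [HahnSeries.coeff_sum, HahnSeries.coeff_smul, coeffMap_coeff,
      HahnSeries.coeff_zero] at h3
    have h4 : ∀ i, IsLocalRing.residue A ((Y₁ i).coeff (n j)) = if i = j then 1 else 0 := by
      intro i
      have h5 : (((Y₁ i).coeff (n j) : A) : Kb) = if i = j then 1 else 0 := by
        have := congrArg (fun x : LaurentSeries Kb => x.coeff (n j)) (hY₁ i)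
        simp only [coeffMap_coeff] at this
        rw [← hb''δ i j, q2Coeff_apply, ← this]
        rfl
      have h6 : ((Y₁ i).coeff (n j) : A) = if i = j then 1 else 0 := by
        apply Subtype.ext
        rw [h5]
        split_ifs <;> rfl
      rw [h6]
      split_ifs <;> simp
    simp only [h4] at h3
    simpa using h3


variable (Fk : IntermediateField (kA A) (LaurentSeries (kA A)))

/-- **Q2 in `RedData` form.** -/
theorem k7fgData_q2 (hgn : ∀ i, gn i ∈ primIntSeries)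
    (hF : F = IntermediateField.adjoin Kb (Set.range gn)) (hprim : PrimAt A F)
    (hRedF : ∀ Y : LaurentSeries A, kronIncl A Y ∈ F → kronRed A Y ∈ Fk)
    (V : Submodule Kb F) [Module.Finite Kb V] :
    Module.finrank Kb V ≤
      Module.finrank (kA A) ↥((k7fgData A F Fk hprim hRedF).redSpace V) := by
  classical
  let B := Module.finBasis Kb V
  let a : Fin (Module.finrank Kb V) → F := fun i => ((B i : V) : F)
  have ha : LinearIndependent Kb a :=
    B.linearIndependent.map' V.subtype (Submodule.ker_subtype _)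
  obtain ⟨b, w, hbV, hbw, hw⟩ := k7fg_q2 A F gn hgn hF (Module.finrank Kb V) a ha
  have hbV' : ∀ i, b i ∈ V := fun i =>
    (Submodule.span_le.mpr (by rintro _ ⟨j, rfl⟩; exact (B j).2)) (hbV i)
  have hmem : ∀ i, ∃ h : b i ∈ k7fgSub A F,
      ((k7fgRed A F Fk hRedF ⟨b i, h⟩ : ↥Fk) : LaurentSeries (kA A)) = w i :=
    fun i => (k7fgRed_iff A F Fk hRedF _ _).mp (hbw i)
  choose hO hred using hmem
  let v : Fin (Module.finrank Kb V) → ↥((k7fgData A F Fk hprim hRedF).redSpace V) := fun i =>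
    ⟨k7fgRed A F Fk hRedF ⟨b i, hO i⟩, ⟨⟨b i, hO i⟩, hbV' i, rfl⟩⟩
  have hv : LinearIndependent (kA A) v := by
    rw [Fintype.linearIndependent_iff]
    intro c hc
    apply Fintype.linearIndependent_iff.mp hw c
    have h1 := congrArg (fun z : ↥((k7fgData A F Fk hprim hRedF).redSpace V) =>
      (((z : ↥Fk) : LaurentSeries (kA A)))) hc
    simp only [Submodule.coe_sum, Submodule.coe_smul, IntermediateField.coe_sum,
      Submodule.coe_zero, IntermediateField.coe_zero] at h1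
    rw [← h1]
    refine Finset.sum_congr rfl fun i _ => ?_
    rw [← HahnSeries.C_mul_eq_smul]
    have h2 : ((c i • (v i : ↥Fk) : ↥Fk) : LaurentSeries (kA A))
        = algebraMap (kA A) (LaurentSeries (kA A)) (c i) *
          ((v i : ↥Fk) : LaurentSeries (kA A)) := by
      rw [Algebra.smul_def]
      rfl
    rw [h2, algebraMap_eq_hahnC]
    congr 1
    exact (hred i).symm
  have h := hv.fintype_card_le_finrank
  simpa using h

/-- reduction preserves the dimension of finite-dimensional subspaces -/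
theorem k7fgData_finrank_redSpace (hgn : ∀ i, gn i ∈ primIntSeries)
    (hF : F = IntermediateField.adjoin Kb (Set.range gn)) (hprim : PrimAt A F)
    (hRedF : ∀ Y : LaurentSeries A, kronIncl A Y ∈ F → kronRed A Y ∈ Fk)
    (V : Submodule Kb F) [Module.Finite Kb V] :
    Module.finrank (kA A) ↥((k7fgData A F Fk hprim hRedF).redSpace V) = Module.finrank Kb V :=
  le_antisymm ((k7fgData A F Fk hprim hRedF).finrank_redSpace_le V)
    (k7fgData_q2 A F gn Fk hgn hF hprim hRedF V)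

end Q2

/-! ## The bridge for (RedF) -/

section Bridge

variable (F₀ : IntermediateField Kb (LaurentSeries Kb))
  (Fk₀ Fk : IntermediateField (kA A) (LaurentSeries (kA A)))

/-- a Gauss reduction in `F₀` is a Gauss reduction in every larger field -/
theorem k7fgRel_mono (hle : F₀ ≤ F) {x : F₀} {w : LaurentSeries (kA A)}
    (h : k7fgRel A F₀ x w) : k7fgRel A F ⟨(x : LaurentSeries Kb), hle x.2⟩ w := by
  obtain ⟨Y₁, Y₂, hY₁m, hY₂m, hY₂, hx, hw⟩ := h
  exact ⟨Y₁, Y₂, hle hY₁m, hle hY₂m, hY₂, hx, hw⟩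

/-- **(RedF) for `F ⊇ F₀`** from (RedF) for `F₀` and an integral "basis": every integral series
of `F` is a combination of integral series `S i ∈ F` (reductions in `Fk`) with Gauss-integral
coefficients in `F₀`. -/
theorem k7fg_redF_of_basis (hle : F₀ ≤ F) (hlek : Fk₀ ≤ Fk)
    (hRedF₀ : ∀ Y : LaurentSeries A, kronIncl A Y ∈ F₀ → kronRed A Y ∈ Fk₀)
    {n : ℕ} (S : Fin n → LaurentSeries A) (hS : ∀ i, kronIncl A (S i) ∈ F)
    (hSk : ∀ i, kronRed A (S i) ∈ Fk)
    (hbasis : ∀ Y : LaurentSeries A, kronIncl A Y ∈ F →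
      ∃ a : Fin n → F₀, (∀ i, k7fgInt A F₀ (a i)) ∧
        kronIncl A Y = ∑ i, (a i : LaurentSeries Kb) * kronIncl A (S i)) :
    ∀ Y : LaurentSeries A, kronIncl A Y ∈ F → kronRed A Y ∈ Fk := by
  classical
  intro Y hY
  obtain ⟨a, ha, hYa⟩ := hbasis Y hY
  choose w hw using ha
  have hwk : ∀ i, w i ∈ Fk := fun i => hlek (k7fgRel_mem A F₀ Fk₀ hRedF₀ (hw i))
  -- the relation in `F`
  have hterm : ∀ i, k7fgRel A F
      (⟨(a i : LaurentSeries Kb), hle (a i).2⟩ * ⟨kronIncl A (S i), hS i⟩)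
      (w i * kronRed A (S i)) := fun i =>
    k7fgRel_mul A F (k7fgRel_mono A F F₀ hle (hw i)) (k7fgRel_of_int A F (S i) (hS i))
  have hsum : ∀ s : Finset (Fin n), k7fgRel A F
      (∑ i ∈ s, (⟨(a i : LaurentSeries Kb), hle (a i).2⟩ * ⟨kronIncl A (S i), hS i⟩ : F))
      (∑ i ∈ s, w i * kronRed A (S i)) := by
    intro s
    induction s using Finset.induction_on with
    | empty =>
      rw [Finset.sum_empty, Finset.sum_empty]
      exact k7fgRel_zero A F
    | insert j s hj ih =>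
      rw [Finset.sum_insert hj, Finset.sum_insert hj]
      exact k7fgRel_add A F (hterm j) ih
  have hYeq : (⟨kronIncl A Y, hY⟩ : F) =
      ∑ i, (⟨(a i : LaurentSeries Kb), hle (a i).2⟩ * ⟨kronIncl A (S i), hS i⟩ : F) := by
    apply Subtype.ext
    rw [k7fg_coe_sum F]
    exact hYa
  have h1 := k7fgRel_of_int A F Y hY
  rw [hYeq] at h1
  have h2 := k7fgRel_unique A F h1 (hsum Finset.univ)
  rw [h2]
  exact sum_mem fun i _ => mul_mem (hwk i) (hSk i)

end Bridge

end Fermat.Agent.RT.K7F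

end
end ZBRT_053_4

/-! ### bundled: `Fermat.Agent.RT.K7F.GaussH` -/
section ZBRT_053_5
/-
K-machine, K7-FLAT, piece FL-GAUSS (helper65), part 4: the Gauss valuation ring of
`F_H = fieldBar L M H` and its constant reduction to `F̄_H = fieldC k L M H`.

`A ⊂ ℚ̄` a valuation ring, `k = kA A`.

* `k7f_primAt`      : PRIM for `F_H` (`ES1.G2.es1prim_fieldBar`);
* `K7fRedF L M H A` : the hypothesis (RedF)_H: the reduction of an `A`-integral series of `F_H`
                      lies in `F̄_H`  (`k7fg_redF_of_basis`: from (RedF) at level `Γ₀(L)` and an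
                      integral basis of `F_H / F₀`);
* `k7fO L M H A     : ValuationSubring (fieldBar L M H)`  — the Gauss valuation ring;
* `k7fRed L M H A hRedF : k7fO L M H A →+* fieldC k L M H`;
* `k7fData L M H A hRedF : RedData ℚ̄ F_H k F̄_H`;
* `k7f_gen_rel`     : the generators of `F̄_H` are reductions of the generators of `F_H`;
* the fields of `W1.PRData.IsPR` except `r_div` (= hypotheses of `DEU.exists_isPR`):
  `k7f_res_surjective`, `k7f_res_eq_zero_iff`, `k7f_algebraMap_mem_iff`, `k7f_red_surjective`,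
  `k7f_red_eq_zero_iff`, `k7f_red_algebraMap`, `k7f_prim`, `k7f_redDataOfVal_eq`;
* `k7f_q2`, `k7f_finrank_redSpace` : orthonormal bases.
-/

set_option autoImplicit false
set_option linter.unusedSectionVars false
set_option synthInstance.maxHeartbeats 400000
set_option maxHeartbeats 1000000

noncomputable section

namespace Fermat.Agent.RT.K7F

open ModularCurve AlgebraicCurve HahnSeries Fermat.Agent.ES Fermat.Agent.S24 Fermat.Agent.ES.M
  Fermat.Agent.DEU Fermat.Agent.ES1 Fermat.Agent.ES1.G2 Fermat.Agent.ES.G2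

variable (L M : ℕ) (H : Subgroup (ZMod M)ˣ) (A : ValuationSubring Kb)

/-- PRIM for `F_H` -/
theorem k7f_primAt : PrimAt A (fieldBar L M H) := fun u hu => es1prim_fieldBar L M H A u hu

/-- **(RedF)_H**: the reduction of an `A`-integral series of `F_H` lies in `F̄_H`. -/
def K7fRedF : Prop :=
  ∀ Y : LaurentSeries A, kronIncl A Y ∈ fieldBar L M H → kronRed A Y ∈ fieldC (kA A) L M H

/-- **the Gauss valuation ring of `F_H` at `A`** -/
def k7fO : ValuationSubring (fieldBar L M H) := k7fgO A (fieldBar L M H) (k7f_primAt L M H A)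

theorem mem_k7fO {x : fieldBar L M H} : x ∈ k7fO L M H A ↔ k7fgInt A (fieldBar L M H) x := Iff.rfl

/-- **the reduction map `O_H → F̄_H`** -/
def k7fRed (hRedF : K7fRedF L M H A) : ↥(k7fO L M H A) →+* ↥(fieldC (kA A) L M H) :=
  k7fgValRed A (fieldBar L M H) (fieldC (kA A) L M H) (k7f_primAt L M H A) hRedF

/-- `k7fgRel` is the graph of `k7fRed` -/
theorem k7fRed_iff (hRedF : K7fRedF L M H A) (x : fieldBar L M H) (w : LaurentSeries (kA A)) :
    k7fgRel A (fieldBar L M H) x w ↔ ∃ h : x ∈ k7fO L M H A,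
      ((k7fRed L M H A hRedF ⟨x, h⟩ : ↥(fieldC (kA A) L M H)) : LaurentSeries (kA A)) = w :=
  k7fgValRed_iff A (fieldBar L M H) (fieldC (kA A) L M H) (k7f_primAt L M H A) hRedF x w

/-- **the constant reduction of `F_H` at `A`** -/
def k7fData (hRedF : K7fRedF L M H A) :
    RedData Kb ↥(fieldBar L M H) (kA A) ↥(fieldC (kA A) L M H) :=
  k7fgData A (fieldBar L M H) (fieldC (kA A) L M H) (k7f_primAt L M H A) hRedF

/-! ### The generators -/

/-- the integral series `j(q^d)` -/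
theorem k7f_incl_j (d : ℕ) [NeZero d] :
    kronIncl A (jqNModC A d) = qExpand Kb d (jqModC Kb) := coeffMap_jqNModC A.subtype d

theorem k7f_red_j (d : ℕ) [NeZero d] :
    kronRed A (jqNModC A d) = qExpand (kA A) d (jqModC (kA A)) :=
  coeffMap_jqNModC (IsLocalRing.residue A) d

/-- the integral series `S_a(q^e)` -/
def k7fS (e : ℕ) [NeZero e] (a : (ZMod M)ˣ) : LaurentSeries A :=
  coeffMap (Int.castRingHom A) (qExpand ℤ e (sZ M H a))

theorem k7f_incl_S (e : ℕ) [NeZero e] (a : (ZMod M)ˣ) :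
    kronIncl A (k7fS M H A e a) = qExpand Kb e (sS Kb M H a) := by
  show coeffMap A.subtype (coeffMap (Int.castRingHom A) (qExpand ℤ e (sZ M H a))) = _
  rw [coeffMap_coeffMap, coeffMap_congr (RingHom.ext_int _ (Int.castRingHom Kb)),
    coeffMap_qExpand]
  rfl

theorem k7f_red_S (e : ℕ) [NeZero e] (a : (ZMod M)ˣ) :
    kronRed A (k7fS M H A e a) = qExpand (kA A) e (sS (kA A) M H a) := by
  show coeffMap (IsLocalRing.residue A) (coeffMap (Int.castRingHom A) (qExpand ℤ e (sZ M H a))) = _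
  rw [coeffMap_coeffMap, coeffMap_congr (RingHom.ext_int _ (Int.castRingHom (kA A))),
    coeffMap_qExpand]
  rfl

/-- the generators of `F̄_H` are reductions of integral series of `F_H` -/
theorem k7f_gen_int {w : LaurentSeries (kA A)}
    (hw : w ∈ divisorExpansionsC (kA A) L ∪ diamondExpansionsC (kA A) L M H) :
    ∃ Y : LaurentSeries A, kronIncl A Y ∈ fieldBar L M H ∧ kronRed A Y = w := by
  rcases hw with ⟨d, hd0, hd, rfl⟩ | ⟨e, he0, a, he, rfl⟩
  · refine ⟨jqNModC A d, ?_, k7f_red_j A d⟩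
    rw [k7f_incl_j, es1f_fieldBar_eq]
    exact jd_mem_fieldC Kb L M H hd
  · refine ⟨k7fS M H A e a, ?_, k7f_red_S M H A e a⟩
    rw [k7f_incl_S, es1f_fieldBar_eq]
    exact qExpand_sS_mem Kb L M H he a

theorem k7f_gen_rel {w : LaurentSeries (kA A)}
    (hw : w ∈ divisorExpansionsC (kA A) L ∪ diamondExpansionsC (kA A) L M H) :
    ∃ x : fieldBar L M H, k7fgRel A (fieldBar L M H) x w := by
  obtain ⟨Y, hY, rfl⟩ := k7f_gen_int L M H A hw
  exact ⟨⟨kronIncl A Y, hY⟩, k7fgRel_of_int A (fieldBar L M H) Y hY⟩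

/-! ### The hypotheses of `DEU.exists_isPR` -/

/-- `hres` -/
theorem k7f_res_surjective : Function.Surjective (IsLocalRing.residue A) :=
  IsLocalRing.residue_surjective

/-- `hres0` -/
theorem k7f_res_eq_zero_iff (a : A) :
    IsLocalRing.residue A a = 0 ↔ (a : Kb) ∈ A.nonunits :=
  k7fg_res_eq_zero_iff A a

/-- `hmem` -/
theorem k7f_algebraMap_mem_iff (a : Kb) :
    algebraMap Kb ↥(fieldBar L M H) a ∈ k7fO L M H A ↔ a ∈ A :=
  k7fg_algebraMap_mem_iff A (fieldBar L M H) (k7f_primAt L M H A) a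

/-- `hredsurj` -/
theorem k7f_red_surjective (hRedF : K7fRedF L M H A) :
    Function.Surjective (k7fRed L M H A hRedF) :=
  k7fg_red_surjective A (fieldBar L M H) (fieldC (kA A) L M H) (k7f_primAt L M H A) hRedF
    (divisorExpansionsC (kA A) L ∪ diamondExpansionsC (kA A) L M H) rfl
    (fun _ hw => k7f_gen_rel L M H A hw)

/-- `hred0` -/
theorem k7f_red_eq_zero_iff (hRedF : K7fRedF L M H A) (x : k7fO L M H A) :
    k7fRed L M H A hRedF x = 0 ↔ (x : fieldBar L M H) ∈ (k7fO L M H A).nonunits :=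
  k7fg_red_eq_zero_iff A (fieldBar L M H) (fieldC (kA A) L M H) (k7f_primAt L M H A) hRedF x

/-- `hredalg` -/
theorem k7f_red_algebraMap (hRedF : K7fRedF L M H A) (a : A)
    (h : algebraMap Kb ↥(fieldBar L M H) (a : Kb) ∈ k7fO L M H A) :
    k7fRed L M H A hRedF ⟨algebraMap Kb ↥(fieldBar L M H) (a : Kb), h⟩
      = algebraMap (kA A) ↥(fieldC (kA A) L M H) (IsLocalRing.residue A a) :=
  k7fg_red_algebraMap A (fieldBar L M H) (fieldC (kA A) L M H) (k7f_primAt L M H A) hRedF a h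

/-- `hprim` -/
theorem k7f_prim (hRedF : K7fRedF L M H A) (f : fieldBar L M H) (hf : f ≠ 0) :
    ∃ a : Kb, a ≠ 0 ∧ ∃ h : algebraMap Kb ↥(fieldBar L M H) a * f ∈ k7fO L M H A,
      k7fRed L M H A hRedF ⟨algebraMap Kb ↥(fieldBar L M H) a * f, h⟩ ≠ 0 :=
  k7fg_prim A (fieldBar L M H) (fieldC (kA A) L M H) (k7f_primAt L M H A) hRedF f hf

/-- the `RedData` of the Gauss valuation ring is `k7fData` -/
theorem k7f_redDataOfVal_eq (hRedF : K7fRedF L M H A) :
    redDataOfVal A (IsLocalRing.residue A) (k7fO L M H A) (k7fRed L M H A hRedF)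
        (k7f_res_surjective A) (k7f_algebraMap_mem_iff L M H A)
        (k7f_red_eq_zero_iff L M H A hRedF) (k7f_red_algebraMap L M H A hRedF)
        (k7f_prim L M H A hRedF)
      = k7fData L M H A hRedF := rfl

/-! ### Orthonormal bases -/

/-- **Q2** for `F_H`, fraction form. -/
theorem k7f_q2 (r : ℕ) (a : Fin r → fieldBar L M H) (ha : LinearIndependent Kb a) :
    ∃ (b : Fin r → fieldBar L M H) (w : Fin r → LaurentSeries (kA A)),
      (∀ i, b i ∈ Submodule.span Kb (Set.range a)) ∧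
        (∀ i, k7fgRel A (fieldBar L M H) (b i) (w i)) ∧ LinearIndependent (kA A) w := by
  refine k7fg_q2 A (fieldBar L M H)
    (fun x : ↥(divisorExpansionsC Kb L ∪ diamondExpansionsC Kb L M H) => (x : LaurentSeries Kb))
    (fun x => es1prim_gen_mem L M H x.2) ?_ r a ha
  rw [es1f_fieldBar_eq, Subtype.range_coe]
  rfl

/-- reduction preserves the dimension of finite-dimensional subspaces of `F_H` -/
theorem k7f_finrank_redSpace (hRedF : K7fRedF L M H A) (V : Submodule Kb ↥(fieldBar L M H))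
    [Module.Finite Kb V] :
    Module.finrank (kA A) ↥((k7fData L M H A hRedF).redSpace V) = Module.finrank Kb V := by
  refine k7fgData_finrank_redSpace A (fieldBar L M H)
    (fun x : ↥(divisorExpansionsC Kb L ∪ diamondExpansionsC Kb L M H) => (x : LaurentSeries Kb))
    (fieldC (kA A) L M H) (fun x => es1prim_gen_mem L M H x.2) ?_ (k7f_primAt L M H A) hRedF V
  rw [es1f_fieldBar_eq, Subtype.range_coe]
  rfl

end Fermat.Agent.RT.K7F

end
end ZBRT_053_5

/-! ### bundled: `Fermat.Agent.RT.K7F.EqH` -/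
section ZBRT_053_6

/-!
# RT-K7F, piece FL-EQ: equivariance of the reduction of places of `X_H(L; M)`

`F_H = ES1.fieldBar L M H`, `F̄_H = ES1.fieldC k L M H` (`k = kA A`),
`R = k7fgData A F_H F̄_H hprim hRedF` (helper65's constant reduction), `r` a reduction of places
which is canonical in large degree (`hleast`; e.g. `r = Hy.r` for `Hy : DEU.Hyp R Pinf Qinf g n₀`).

* `k7feq_stable_fieldC` : `F̄_H` is stable under the coefficientwise action of `Aut k`;
* `k7feqSigma L M H A σ hσ : SemilinearAut k F̄_H` : the action of `σ̄`, `σ` in the decomposition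
  group of `A`; `k7feqFrobH` the coefficientwise Frobenius;
* `k7feqH_gaussRedH_smul` : `GaussRedH x w → GaussRedH (σ x) (σ̄ w)`;
* `k7feqH_r_decomposition`, `k7feqH_r_inertia`, `k7feqH_r_frobenius` : `r (σ P) = σ̄ (r P)`;
* `k7feqH_r_diamond` : `r (δ P) = δ̄ (r P)` for a diamond `δ` whose reduction is `δ̄` (clause 3 of
  `StmtDiamInt`);
* `k7feqH_decomp`, `k7feqH_inertia`, `k7feqH_diam` : **the three fields `decomp`, `inertia`,
  `diam` of `ModPRH`** for any `R' : PRData` with `R'.r = r`; `k7feqH_*_hyp` for `r = Hy.r`;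
* `k7feqH_J1_galois`, `k7feqH_J1_diamond`, `k7feqH_J1_tw` : the kernel of reduction `R'.J1` is
  stable under the decomposition group, the diamonds, and the twisted action.
-/

set_option autoImplicit false
set_option linter.unusedSectionVars false
set_option synthInstance.maxHeartbeats 400000
set_option maxHeartbeats 1600000

noncomputable section

namespace Fermat.Agent.RT.K7F

open ModularCurve AlgebraicCurve HahnSeries Module Fermat.Agent.ES Fermat.Agent.S24
  Fermat.Agent.ES.M Fermat.Agent.ES.R Fermat.Agent.PR Fermat.Agent.DEU Fermat.Agent.INJ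
  Fermat.Agent.ES1 Fermat.Agent.ES1.G2 Fermat.Agent.W1

variable (L M : ℕ) (H : Subgroup (ZMod M)ˣ)

/-! ## 1. The coefficientwise action on `F̄_H` -/

/-- `F̄_H` is stable under the coefficientwise action of the automorphisms of `k` -/
theorem k7feq_stable_fieldC (k : Type*) [Field k] : K7feqStable (fieldC k L M H) :=
  fun τ _ hx => es1f_coeffMap_mem_fieldC (τ : k →+* k) L M H hx

variable (A : ValuationSubring Kb)

/-- **`σ̄`**: the semilinear automorphism of `F̄_H` induced by `σ` in the decomposition group -/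
def k7feqSigma (σ : Kb ≃ₐ[ℚ] Kb) (hσ : σ ∈ A.decompositionSubgroup ℚ) :
    SemilinearAut (kA A) ↥(fieldC (kA A) L M H) :=
  k7feqSemilinear (k7feq_stable_fieldC L M H (kA A)) (prResAut σ hσ)

theorem coe_k7feqSigma_smul (σ : Kb ≃ₐ[ℚ] Kb) (hσ : σ ∈ A.decompositionSubgroup ℚ)
    (y : fieldC (kA A) L M H) :
    ((k7feqSigma L M H A σ hσ • y : fieldC (kA A) L M H) : LaurentSeries (kA A))
      = coeffMap ((prResAut σ hσ : _ ≃+* _) : _ →+* _) (y : LaurentSeries (kA A)) := rfl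

theorem k7feqSigma_inertia (σ : Kb ≃ₐ[ℚ] Kb) (hσ : σ ∈ A.inertiaSubgroupIn ℚ) :
    k7feqSigma L M H A σ (kron_mem_decomposition_of_mem_inertia hσ) = 1 :=
  k7feqSemilinear_inertia A (k7feq_stable_fieldC L M H (kA A)) σ hσ

/-- **`Fr`**: the coefficientwise Frobenius of `F̄_H` -/
def k7feqFrobH {ℓ : ℕ} (hℓ : ℓ.Prime) (hA : A.LiesOverPrime ℓ) :
    SemilinearAut (kA A) ↥(fieldC (kA A) L M H) :=
  k7feqFrobA A (k7feq_stable_fieldC L M H (kA A)) hℓ hA

theorem k7feqFrobH_smul_coeff {ℓ : ℕ} (hℓ : ℓ.Prime) (hA : A.LiesOverPrime ℓ)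
    (y : fieldC (kA A) L M H) (n : ℤ) :
    ((k7feqFrobH L M H A hℓ hA • y : fieldC (kA A) L M H) : LaurentSeries (kA A)).coeff n
      = (y : LaurentSeries (kA A)).coeff n ^ ℓ := rfl

theorem k7feqFrobH_eq_sigma {ℓ : ℕ} (hℓ : ℓ.Prime) (hA : A.LiesOverPrime ℓ)
    (φ : Kb ≃ₐ[ℚ] Kb) (hφ : A.IsFrobeniusAt φ ℓ) :
    k7feqFrobH L M H A hℓ hA = k7feqSigma L M H A φ hφ.mem_decompositionSubgroup :=
  k7feqFrobA_eq_semilinear A (k7feq_stable_fieldC L M H (kA A)) hℓ hA φ hφ

/-! ## 2. The Gauss relation of `F_H` -/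

/-- `GaussRedH` (Plan.lean) is helper65's generic `k7fgRel` at `F_H` -/
theorem k7feq_gaussRedH_iff (x : fieldBar L M H) (w : LaurentSeries (kA A)) :
    GaussRedH L M H A x w ↔ k7fgRel A (fieldBar L M H) x w := Iff.rfl

theorem k7feq_gaussIntH_iff (x : fieldBar L M H) :
    GaussIntH L M H A x ↔ k7fgInt A (fieldBar L M H) x := Iff.rfl

/-- `x ≡ w ⇒ σ x ≡ σ̄ w` for `σ` in the decomposition group -/
theorem k7feqH_gaussRedH_smul (σ : Kb ≃ₐ[ℚ] Kb) (hσ : σ ∈ A.decompositionSubgroup ℚ)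
    {x : fieldBar L M H} {w : LaurentSeries (kA A)} (h : GaussRedH L M H A x w) :
    GaussRedH L M H A (arithmeticGalois (fieldQ L M H) σ • x)
      (coeffMap ((prResAut σ hσ : _ ≃+* _) : _ →+* _) w) :=
  k7feq_rel_smul A (fieldQ L M H) σ hσ h

theorem k7feqH_gaussRedH_inertia (σ : Kb ≃ₐ[ℚ] Kb) (hσ : σ ∈ A.inertiaSubgroupIn ℚ)
    {x : fieldBar L M H} {w : LaurentSeries (kA A)} (h : GaussRedH L M H A x w) :
    GaussRedH L M H A (arithmeticGalois (fieldQ L M H) σ • x) w :=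
  k7feq_rel_inertia A (fieldQ L M H) σ hσ h

theorem k7feqH_gaussIntH_smul_iff (σ : Kb ≃ₐ[ℚ] Kb) (hσ : σ ∈ A.decompositionSubgroup ℚ)
    (x : fieldBar L M H) :
    GaussIntH L M H A x ↔ GaussIntH L M H A (arithmeticGalois (fieldQ L M H) σ • x) :=
  k7feq_int_smul_iff A (fieldQ L M H) σ hσ x

/-! ## 3. Diamonds -/

variable {L M H}

/-- the inverse of the diamond `⟨c⟩` is the diamond `⟨c⁻¹⟩` -/
theorem k7feq_isDiamondH_inv (hL : L ≠ 0) (hML : M ∣ L) {c : (ZMod M)ˣ}
    {δ : fieldBar L M H ≃ₐ[Kb] fieldBar L M H} (h : IsDiamondH L M H c δ) :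
    IsDiamondH L M H c⁻¹ δ⁻¹ := by
  obtain ⟨δ', h'⟩ := k7f_diamondBar L M H hL hML c⁻¹
  have h1 : IsDiamondH L M H (c * c⁻¹) (δ * δ') := h.mul h'
  rw [mul_inv_cancel] at h1
  have h2 : δ * δ' = 1 := h1.unique isDiamondH_one
  have h3 : δ' = δ⁻¹ := eq_inv_of_mul_eq_one_right h2
  rw [← h3]
  exact h'

variable (L M H)

/-- clause 3 of `StmtDiamInt` at `(L, M, H, A)`: every diamond has a reduction -/
def K7feqDiamRed : Prop :=
  ∀ (c : (ZMod M)ˣ) (δ : fieldBar L M H ≃ₐ[Kb] fieldBar L M H), IsDiamondH L M H c δ →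
    ∃ δb : fieldC (kA A) L M H ≃ₐ[kA A] fieldC (kA A) L M H,
      ∀ (x : fieldBar L M H) (w : LaurentSeries (kA A)) (hw : w ∈ fieldC (kA A) L M H),
        GaussRedH L M H A x w →
          GaussRedH L M H A (δ x) ((δb ⟨w, hw⟩ : fieldC (kA A) L M H) : LaurentSeries (kA A))

theorem k7feq_diamRed_of_stmt (hDI : StmtDiamInt) {p : ℕ} (hlev : K7FLevel L M H p)
    (hA : A.LiesOverPrime p) : K7feqDiamRed L M H A := by
  intro c δ hδ
  obtain ⟨δb, -, -, h⟩ := hDI L M H p hlev A hA c δ hδ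
  exact ⟨δb, h⟩

/-! ## 4. Equivariance of the reduction of places -/

section Red

variable (hprim : PrimAt A (fieldBar L M H)) (hRedF : StmtRedFH L M H A)
  (hresF : ∀ v : Place Kb (fieldBar L M H), Function.Bijective (algebraMap Kb v.ResidueField))
  (d₀ : ℤ) (r : Place Kb (fieldBar L M H) → Place (kA A) ↥(fieldC (kA A) L M H))
  (hleast : ∀ D : Divisor Kb (fieldBar L M H), d₀ ≤ Divisor.degree D →
    IsLeast (bounds ((k7fgData A (fieldBar L M H) (fieldC (kA A) L M H) hprim hRedF).redSpace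
      (riemannRochSpace D))) (Finsupp.mapDomain r D))

include hresF hleast in
/-- **FL-EQ, decomposition group**: `r (σ • P) = σ̄ • r P`. -/
theorem k7feqH_r_decomposition (σ : Kb ≃ₐ[ℚ] Kb) (hσ : σ ∈ A.decompositionSubgroup ℚ)
    (P : Place Kb (fieldBar L M H)) :
    r (arithmeticGalois (fieldQ L M H) σ • P) = k7feqSigma L M H A σ hσ • r P :=
  k7feq_r_decomposition A (fieldQ L M H) (k7feq_stable_fieldC L M H (kA A))
    (k7fgData A (fieldBar L M H) (fieldC (kA A) L M H) hprim hRedF)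
    (k7fgRed_iff A (fieldBar L M H) (fieldC (kA A) L M H) hRedF) hresF d₀ r hleast σ hσ P

include hresF hleast in
/-- **FL-EQ, inertia**: `r (σ • P) = r P`. -/
theorem k7feqH_r_inertia (σ : Kb ≃ₐ[ℚ] Kb) (hσ : σ ∈ A.inertiaSubgroupIn ℚ)
    (P : Place Kb (fieldBar L M H)) :
    r (arithmeticGalois (fieldQ L M H) σ • P) = r P :=
  k7feq_r_inertia A (fieldQ L M H)
    (k7fgData A (fieldBar L M H) (fieldC (kA A) L M H) hprim hRedF)
    (k7fgRed_iff A (fieldBar L M H) (fieldC (kA A) L M H) hRedF) hresF d₀ r hleast σ hσ P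

include hresF hleast in
/-- **FL-EQ, Frobenius**: `r (φ • P) = Fr • r P`. -/
theorem k7feqH_r_frobenius {ℓ : ℕ} (hℓ : ℓ.Prime) (hA : A.LiesOverPrime ℓ)
    (φ : Kb ≃ₐ[ℚ] Kb) (hφ : A.IsFrobeniusAt φ ℓ) (P : Place Kb (fieldBar L M H)) :
    r (arithmeticGalois (fieldQ L M H) φ • P) = k7feqFrobH L M H A hℓ hA • r P := by
  rw [k7feqFrobH_eq_sigma L M H A hℓ hA φ hφ]
  exact k7feqH_r_decomposition L M H A hprim hRedF hresF d₀ r hleast φ
    hφ.mem_decompositionSubgroup P

include hresF hleast in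
/-- **FL-EQ, diamonds**: `r (δ • P) = δ̄ • r P`, `δ̄` a reduction of the diamond `δ`. -/
theorem k7feqH_r_diamond (hL : L ≠ 0) (hML : M ∣ L) (hDR : K7feqDiamRed L M H A)
    {c : (ZMod M)ˣ} {δ : fieldBar L M H ≃ₐ[Kb] fieldBar L M H} (hδ : IsDiamondH L M H c δ)
    {δb : fieldC (kA A) L M H ≃ₐ[kA A] fieldC (kA A) L M H}
    (hδb : ∀ (x : fieldBar L M H) (w : LaurentSeries (kA A)) (hw : w ∈ fieldC (kA A) L M H),
      GaussRedH L M H A x w →
        GaussRedH L M H A (δ x) ((δb ⟨w, hw⟩ : fieldC (kA A) L M H) : LaurentSeries (kA A)))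
    (P : Place Kb (fieldBar L M H)) :
    r (SemilinearAut.ofAlgAut δ • P) = SemilinearAut.ofAlgAut δb • r P := by
  obtain ⟨δb', hδb'⟩ := hDR c⁻¹ δ⁻¹ (k7feq_isDiamondH_inv hL hML hδ)
  have h1 : K7feqCompat A δ δb := fun x y hxy => hδb x (y : LaurentSeries (kA A)) y.2 hxy
  have h2 : K7feqCompat A δ⁻¹ δb' := fun x y hxy => hδb' x (y : LaurentSeries (kA A)) y.2 hxy
  exact k7feq_r_algAut A (k7fgData A (fieldBar L M H) (fieldC (kA A) L M H) hprim hRedF)
    (k7fgRed_iff A (fieldBar L M H) (fieldC (kA A) L M H) hRedF) hresF d₀ r hleast h1 h2 P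

/-! ### The fields `decomp`, `inertia`, `diam` of `ModPRH` -/

include hresF hleast in
/-- **the field `decomp` of `ModPRH`** -/
theorem k7feqH_decomp (σ : Kb ≃ₐ[ℚ] Kb) (hσ : σ ∈ A.decompositionSubgroup ℚ) :
    ∃ σb : Place (kA A) ↥(fieldC (kA A) L M H) → Place (kA A) ↥(fieldC (kA A) L M H),
      (∀ P, r (arithmeticGalois (fieldQ L M H) σ • P) = σb (r P)) ∧
      ∀ E ∈ Divisor.principal (K := kA A) (F := ↥(fieldC (kA A) L M H)),
        Finsupp.mapDomain σb E ∈ Divisor.principal (K := kA A) (F := ↥(fieldC (kA A) L M H)) :=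
  ⟨fun Q => k7feqSigma L M H A σ hσ • Q,
    fun P => k7feqH_r_decomposition L M H A hprim hRedF hresF d₀ r hleast σ hσ P,
    fun _ hE => deuEqMod_mapDomain_principal _ hE⟩

include hresF hleast in
/-- **the field `diam` of `ModPRH`** -/
theorem k7feqH_diam (hL : L ≠ 0) (hML : M ∣ L) (hDR : K7feqDiamRed L M H A)
    (c : (ZMod M)ˣ) (δ : fieldBar L M H ≃ₐ[Kb] fieldBar L M H) (hδ : IsDiamondH L M H c δ) :
    ∃ δb : Place (kA A) ↥(fieldC (kA A) L M H) → Place (kA A) ↥(fieldC (kA A) L M H),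
      (∀ P, r (SemilinearAut.ofAlgAut δ • P) = δb (r P)) ∧
      ∀ E ∈ Divisor.principal (K := kA A) (F := ↥(fieldC (kA A) L M H)),
        Finsupp.mapDomain δb E ∈ Divisor.principal (K := kA A) (F := ↥(fieldC (kA A) L M H)) := by
  obtain ⟨δb, hδb⟩ := hDR c δ hδ
  exact ⟨fun Q => SemilinearAut.ofAlgAut δb • Q,
    fun P => k7feqH_r_diamond L M H A hprim hRedF hresF d₀ r hleast hL hML hDR hδ hδb P,
    fun _ hE => deuEqMod_mapDomain_principal _ hE⟩

end Red

/-! ### The same for `r = Hy.r`, `Hy : DEU.Hyp R Pinf Qinf g n₀` -/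

section Hyp

variable (hprim : PrimAt A (fieldBar L M H)) (hRedF : StmtRedFH L M H A)
  {Pinf : Place Kb (fieldBar L M H)} {Qinf : Place (kA A) ↥(fieldC (kA A) L M H)} {g n₀ : ℕ}
  (Hy : Hyp (k7fgData A (fieldBar L M H) (fieldC (kA A) L M H) hprim hRedF) Pinf Qinf g n₀)

theorem k7feqH_decomp_hyp (σ : Kb ≃ₐ[ℚ] Kb) (hσ : σ ∈ A.decompositionSubgroup ℚ) :
    ∃ σb : Place (kA A) ↥(fieldC (kA A) L M H) → Place (kA A) ↥(fieldC (kA A) L M H),
      (∀ P, Hy.r (arithmeticGalois (fieldQ L M H) σ • P) = σb (Hy.r P)) ∧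
      ∀ E ∈ Divisor.principal (K := kA A) (F := ↥(fieldC (kA A) L M H)),
        Finsupp.mapDomain σb E ∈ Divisor.principal (K := kA A) (F := ↥(fieldC (kA A) L M H)) :=
  k7feqH_decomp L M H A hprim hRedF Hy.hresF ((n₀ : ℤ) + 2 * g) Hy.r
    (fun D hD => Hy.isLeast_mapDomain_r D hD) σ hσ

theorem k7feqH_inertia_hyp (σ : Kb ≃ₐ[ℚ] Kb) (hσ : σ ∈ A.inertiaSubgroupIn ℚ)
    (P : Place Kb (fieldBar L M H)) :
    Hy.r (arithmeticGalois (fieldQ L M H) σ • P) = Hy.r P :=
  k7feqH_r_inertia L M H A hprim hRedF Hy.hresF ((n₀ : ℤ) + 2 * g) Hy.r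
    (fun D hD => Hy.isLeast_mapDomain_r D hD) σ hσ P

theorem k7feqH_frobenius_hyp {ℓ : ℕ} (hℓ : ℓ.Prime) (hA : A.LiesOverPrime ℓ)
    (φ : Kb ≃ₐ[ℚ] Kb) (hφ : A.IsFrobeniusAt φ ℓ) (P : Place Kb (fieldBar L M H)) :
    Hy.r (arithmeticGalois (fieldQ L M H) φ • P) = k7feqFrobH L M H A hℓ hA • Hy.r P :=
  k7feqH_r_frobenius L M H A hprim hRedF Hy.hresF ((n₀ : ℤ) + 2 * g) Hy.r
    (fun D hD => Hy.isLeast_mapDomain_r D hD) hℓ hA φ hφ P

theorem k7feqH_diam_hyp (hL : L ≠ 0) (hML : M ∣ L) (hDR : K7feqDiamRed L M H A)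
    (c : (ZMod M)ˣ) (δ : fieldBar L M H ≃ₐ[Kb] fieldBar L M H) (hδ : IsDiamondH L M H c δ) :
    ∃ δb : Place (kA A) ↥(fieldC (kA A) L M H) → Place (kA A) ↥(fieldC (kA A) L M H),
      (∀ P, Hy.r (SemilinearAut.ofAlgAut δ • P) = δb (Hy.r P)) ∧
      ∀ E ∈ Divisor.principal (K := kA A) (F := ↥(fieldC (kA A) L M H)),
        Finsupp.mapDomain δb E ∈ Divisor.principal (K := kA A) (F := ↥(fieldC (kA A) L M H)) :=
  k7feqH_diam L M H A hprim hRedF Hy.hresF ((n₀ : ℤ) + 2 * g) Hy.r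
    (fun D hD => Hy.isLeast_mapDomain_r D hD) hL hML hDR c δ hδ

/-- the same from `StmtDiamInt` and the standing hypotheses -/
theorem k7feqH_diam_hyp_of_stmt (hDI : StmtDiamInt) {p : ℕ} (hlev : K7FLevel L M H p)
    (hA : A.LiesOverPrime p)
    (c : (ZMod M)ˣ) (δ : fieldBar L M H ≃ₐ[Kb] fieldBar L M H) (hδ : IsDiamondH L M H c δ) :
    ∃ δb : Place (kA A) ↥(fieldC (kA A) L M H) → Place (kA A) ↥(fieldC (kA A) L M H),
      (∀ P, Hy.r (SemilinearAut.ofAlgAut δ • P) = δb (Hy.r P)) ∧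
      ∀ E ∈ Divisor.principal (K := kA A) (F := ↥(fieldC (kA A) L M H)),
        Finsupp.mapDomain δb E ∈ Divisor.principal (K := kA A) (F := ↥(fieldC (kA A) L M H)) :=
  k7feqH_diam_hyp L M H A hprim hRedF Hy
    (fun h => by have := hlev.hL; omega) hlev.hML
    (k7feq_diamRed_of_stmt L M H A hDI hlev hA) c δ hδ

end Hyp

/-! ## 5. The kernel of reduction is stable -/

section J1

variable {L M H A}
variable {g : ℕ} {R : PRData Kb ↥(fieldBar L M H) (kA A) ↥(fieldC (kA A) L M H) A}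
  {t : ↥(fieldBar L M H)}

/-- `J1` is stable under the decomposition group (plain action) -/
theorem k7feqH_J1_galois (hM : ModPRH L M H A g R t) {σ : Kb ≃ₐ[ℚ] Kb}
    (hσ : σ ∈ A.decompositionSubgroup ℚ) {x : JH L M H} (hx : x ∈ R.J1) :
    arithmeticGalois (fieldQ L M H) σ • x ∈ R.J1 := by
  obtain ⟨σb, h1, h2⟩ := hM.decomp σ hσ
  exact kc_smul_mem_J1 (arithmeticGalois (fieldQ L M H) σ) σb h1 h2 hx

/-- the Galois action on `J_H` is the action of `arithmeticGalois` -/
theorem k7feqH_galois_smul_def (σ : Kb ≃ₐ[ℚ] Kb) (x : JH L M H) :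
    σ • x = arithmeticGalois (fieldQ L M H) σ • x := rfl

/-- `J1` is stable under the diamonds -/
theorem k7feqH_J1_diamondJ (hM : ModPRH L M H A g R t) {c : (ZMod M)ˣ}
    {δ : fieldBar L M H ≃ₐ[Kb] fieldBar L M H} (hδ : IsDiamondH L M H c δ)
    {x : JH L M H} (hx : x ∈ R.J1) : diamondJ δ x ∈ R.J1 := by
  obtain ⟨δb, h1, h2⟩ := hM.diam c δ hδ
  exact kc_smul_mem_J1 (SemilinearAut.ofAlgAut δ) δb h1 h2 hx

theorem k7feqH_J1_diamond (hL : L ≠ 0) (hML : M ∣ L) (hM : ModPRH L M H A g R t)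
    (c : (ZMod M)ˣ) {x : JH L M H} (hx : x ∈ R.J1) : es1Diamond L M H c x ∈ R.J1 := by
  obtain ⟨δ, hδ⟩ := k7f_diamondBar L M H hL hML c
  rw [es1Diamond_eq hδ]
  exact k7feqH_J1_diamondJ hM hδ hx

/-- **`J1` is stable under the twisted action of the decomposition group** -/
theorem k7feqH_J1_tw (hM : ModPRH L M H A g R t) (χ : K7GQ →* (ZMod M)ˣ) {σ : Kb ≃ₐ[ℚ] Kb}
    (hσ : σ ∈ A.decompositionSubgroup ℚ) {x : JH L M H} (hx : x ∈ R.J1) :
    twSmul L M H χ σ x ∈ R.J1 := by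
  have h1 : σ • x ∈ R.J1 := k7feqH_J1_galois hM hσ hx
  by_cases h : L ≠ 0 ∧ M ∣ L
  · rw [twSmul_eq h.1 h.2]
    exact k7feqH_J1_diamond h.1 h.2 hM (χ σ) h1
  · rw [twSmul_eq_of_not h]
    exact h1

/-- on the inertia group the twisted action is the plain action -/
theorem k7feqH_tw_inertia {χ : K7GQ →* (ZMod M)ˣ} (hχ : IsTwistChar A χ) {σ : Kb ≃ₐ[ℚ] Kb}
    (hσ : σ ∈ A.inertiaSubgroupIn ℚ) (x : JH L M H) :
    twSmul L M H χ σ x = σ • x := by
  by_cases h : L ≠ 0 ∧ M ∣ L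
  · rw [twSmul_eq h.1 h.2, hχ.inertia σ hσ]
    exact diamb_diamond_one _
  · rw [twSmul_eq_of_not h]

end J1

end Fermat.Agent.RT.K7F

end
end ZBRT_053_6

/-! ### bundled: `Fermat.Agent.RT.K7F.AnchRed0` -/
section ZBRT_053_7
/-
K7F, FL-ANCH, sub-piece AnchRed0 (helper65, for helper8): the Gauss reduction of `F_H`
restricted to `F₀ = FF L` lands in `F̄₀ = modularFunctionFieldFullC k L`.

* `k7fanchr_rel_mem` : GENERIC: `F₀ ≤ F ⊂ ℚ̄((q))`, (PRIM) for `F₀` and `F`, (RedF) for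
  `(F₀, Fk₀)`; if `x ∈ F` lies in `F₀` and `k7fgRel A F x v`, then `v ∈ Fk₀`.
* `k7fanchr_red_mem_full` : the statement for `(k7fgData A F_H F̄_H hprim hRedF).red`.
* `k7fanchr_red_mem_full'` : the same for `k7fRed` (`RT/K7F/GaussH.lean`).
-/

set_option autoImplicit false
set_option linter.unusedSectionVars false
set_option synthInstance.maxHeartbeats 400000
set_option maxHeartbeats 1000000

noncomputable section

namespace Fermat.Agent.RT.K7F

open ModularCurve AlgebraicCurve HahnSeries Fermat.Agent.ES Fermat.Agent.S24 Fermat.Agent.ES.M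
  Fermat.Agent.DEU Fermat.Agent.ES1 Fermat.Agent.ES1.G2 Fermat.Agent.ES.G2

section Generic

variable (A : ValuationSubring Kb) (F₀ F : IntermediateField Kb (LaurentSeries Kb))
  (Fk₀ : IntermediateField (kA A) (LaurentSeries (kA A)))

/-- **the Gauss reduction of `F` restricted to `F₀` lands in `Fk₀`** -/
theorem k7fanchr_rel_mem (hle : F₀ ≤ F) (hprim₀ : PrimAt A F₀) (hprim : PrimAt A F)
    (hRedF₀ : ∀ Y : LaurentSeries A, kronIncl A Y ∈ F₀ → kronRed A Y ∈ Fk₀)
    {x : F} (hx : (x : LaurentSeries Kb) ∈ F₀) {v : LaurentSeries (kA A)}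
    (h : k7fgRel A F x v) : v ∈ Fk₀ := by
  rcases eq_or_ne x 0 with rfl | hx0
  · rw [k7fgRel_unique A F h (k7fgRel_zero A F)]
    exact zero_mem _
  have hx₀ : (⟨(x : LaurentSeries Kb), hx⟩ : F₀) ≠ 0 := by
    intro h0
    apply hx0
    apply Subtype.ext
    have h1 := congrArg (Subtype.val : ↥F₀ → LaurentSeries Kb) h0
    exact h1
  obtain ⟨c, hc, w, hw0, hcw⟩ := k7fg_exists_scale A F₀ hprim₀ ⟨(x : LaurentSeries Kb), hx⟩ hx₀
  have hwk : w ∈ Fk₀ := k7fgRel_mem A F₀ Fk₀ hRedF₀ hcw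
  -- the relation in `F`
  have hcw' : k7fgRel A F (algebraMap Kb F c * x) w := by
    obtain ⟨Y₁, Y₂, hY₁m, hY₂m, hY₂, hxY, hwY⟩ := hcw
    refine ⟨Y₁, Y₂, hle hY₁m, hle hY₂m, hY₂, ?_, hwY⟩
    have e1 : ((algebraMap Kb F c * x : F) : LaurentSeries Kb)
        = algebraMap Kb (LaurentSeries Kb) c * (x : LaurentSeries Kb) := rfl
    have e2 : ((algebraMap Kb F₀ c * ⟨(x : LaurentSeries Kb), hx⟩ : F₀) : LaurentSeries Kb)
        = algebraMap Kb (LaurentSeries Kb) c * (x : LaurentSeries Kb) := rfl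
    rw [e1, ← e2]
    exact hxY
  -- `c⁻¹` is Gauss-integral
  have hinv := k7fgRel_inv A F hcw' hw0
  have hmul := k7fgRel_mul A F h hinv
  have hconst : x * (algebraMap Kb F c * x)⁻¹ = algebraMap Kb F c⁻¹ := by
    have hcF : algebraMap Kb F c ≠ 0 := by
      rw [Ne, map_eq_zero_iff _ (algebraMap Kb F).injective]
      exact hc
    rw [map_inv₀]
    field_simp
  rw [hconst] at hmul
  have hcA : c⁻¹ ∈ A := (k7fg_algebraMap_mem_iff A F hprim c⁻¹).1 ⟨_, hmul⟩
  have hconst' := k7fgRel_const A F (⟨c⁻¹, hcA⟩ : A)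
  have huniq := k7fgRel_unique A F hmul hconst'
  have hv : v = HahnSeries.C (IsLocalRing.residue A (⟨c⁻¹, hcA⟩ : A)) * w := by
    rw [← huniq, mul_assoc, inv_mul_cancel₀ hw0, mul_one]
  rw [hv]
  refine mul_mem ?_ hwk
  rw [← algebraMap_eq_hahnC]
  exact Fk₀.algebraMap_mem _

end Generic

section Concrete

variable (L M : ℕ) [NeZero L] (H : Subgroup (ZMod M)ˣ) (A : ValuationSubring Kb)

/-- **`red (O_H ∩ F₀) ⊂ F̄₀`**, relation form. -/
theorem k7fanchr_rel_mem_full (hRedF₀ : ES.M.StmtRedF L A)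
    {x : fieldBar L M H} (hx : (x : LaurentSeries Kb) ∈ modularFunctionFieldBar L)
    {v : LaurentSeries (kA A)} (h : k7fgRel A (fieldBar L M H) x v) :
    v ∈ modularFunctionFieldFullC (kA A) L :=
  k7fanchr_rel_mem A (modularFunctionFieldBar L) (fieldBar L M H)
    (modularFunctionFieldFullC (kA A) L) (dlh_bar_le_fieldBar L M H) (deuInst_prim L A)
    (k7f_primAt L M H A) hRedF₀ hx h

/-- **`red (O_H ∩ F₀) ⊂ F̄₀`** for the reduction data `k7fgData`. -/
theorem k7fanchr_red_mem_full (hprim : PrimAt A (fieldBar L M H)) (hRedF : StmtRedFH L M H A)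
    (hRedF₀ : ES.M.StmtRedF L A)
    (f : (k7fgData A (fieldBar L M H) (fieldC (kA A) L M H) hprim hRedF).O)
    (hf : ((f : fieldBar L M H) : LaurentSeries Kb) ∈ modularFunctionFieldBar L) :
    (((k7fgData A (fieldBar L M H) (fieldC (kA A) L M H) hprim hRedF).red f :
      fieldC (kA A) L M H) : LaurentSeries (kA A)) ∈ modularFunctionFieldFullC (kA A) L := by
  refine k7fanchr_rel_mem_full L M H A hRedF₀ hf
    ((k7fgRed_iff A (fieldBar L M H) (fieldC (kA A) L M H) hRedF (f : fieldBar L M H) _).2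
      ⟨f.2, rfl⟩)

/-- **`red (O_H ∩ F₀) ⊂ F̄₀`** for `k7fRed`. -/
theorem k7fanchr_red_mem_full' (hRedF : K7fRedF L M H A) (hRedF₀ : ES.M.StmtRedF L A)
    (f : k7fO L M H A)
    (hf : ((f : fieldBar L M H) : LaurentSeries Kb) ∈ modularFunctionFieldBar L) :
    ((k7fRed L M H A hRedF f : fieldC (kA A) L M H) : LaurentSeries (kA A))
      ∈ modularFunctionFieldFullC (kA A) L := by
  refine k7fanchr_rel_mem_full L M H A hRedF₀ hf
    ((k7fRed_iff L M H A hRedF (f : fieldBar L M H) _).2 ⟨f.2, rfl⟩)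

end Concrete

end Fermat.Agent.RT.K7F

end
end ZBRT_053_7

/-! ### bundled: `Fermat.Agent.RT.K7F.AnchH` -/
section ZBRT_053_8

/-!
# RT-K7F, piece FL-ANCH — the anchor for `F_H = fieldBar L M H`

`k7fanch_anchor` : `R.redSpace (L_H(m·P_∞)) ≤ L̄_H(m·Q_∞)` for the Gauss reduction
`R = k7fData L M H A hRedF`, from

* `hDR : K7feqDiamRed L M H A` (clause 3 of `StmtDiamInt`: the diamonds are Gauss-integral),
* `hI2 : StmtI2 L A` (good reduction of `X₀(L)`),
* `hred₀` : the Gauss reduction of `F_H` maps `F₀ = FF L` into `F̄₀`,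
* Riemann's inequality for `F_H` (any constant `g`).
-/

set_option autoImplicit false
set_option linter.unusedSectionVars false
set_option linter.style.haveILetI false
set_option synthInstance.maxHeartbeats 400000
set_option maxHeartbeats 1600000

noncomputable section

namespace Fermat.Agent.RT.K7F

open AlgebraicCurve Polynomial ModularCurve IntermediateField
open Fermat.Agent.ES Fermat.Agent.ES.M Fermat.Agent.S24 Fermat.Agent.DEU Fermat.Agent.ES1
  Fermat.Agent.ES1.G2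

/-! ## 1. going up along an inclusion of intermediate fields -/

section Up

theorem k7fanch_place_over {k Ω : Type*} [Field k] [Field Ω] [Algebra k Ω] [CharZero k]
    {F₀ F : IntermediateField k Ω} (hle : F₀ ≤ F) (hfin : F₀.relfinrank F ≠ 0)
    (P : Place k F₀) :
    ∃ (w : Place k F) (e : ℤ), 0 < e ∧
      ∀ (y : Ω) (hy : y ∈ F₀), w.ord (⟨y, hle hy⟩ : F) = e * P.ord (⟨y, hy⟩ : F₀) := by
  letI alg : Algebra F₀ F := (IntermediateField.inclusion hle).toRingHom.toAlgebra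
  haveI htower : IsScalarTower k F₀ F := IsScalarTower.of_algebraMap_eq (fun _ => rfl)
  haveI hfd : FiniteDimensional F₀ F := Fermat.Agent.ES.G2.hdeg_finite_inclusion hle hfin
  haveI : CharZero F₀ := charZero_of_injective_algebraMap (algebraMap k F₀).injective
  haveI : Algebra.IsSeparable F₀ F := inferInstance
  obtain ⟨w, hw⟩ := k7fpu_exists_place_over (F' := F) P
  refine ⟨w, (Place.ramificationIndex (F := F₀) w : ℤ), ?_, fun y hy => ?_⟩
  · exact_mod_cast Place.ramificationIndex_pos (F := F₀) w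
  · have h := Place.ord_restrict (F := F₀) w ⟨y, hy⟩
    rw [hw] at h
    exact h

end Up

/-! ## 2. `A`-integrality of the conjugates -/

section Kron

variable {L M : ℕ} [NeZero L] {H : Subgroup (ZMod M)ˣ}

theorem k7fanch_order_jFH :
    ((jFH L M H : fieldBar L M H) : LaurentSeries Kb).order = -1 := order_jBar

/-- a conjugate of a function regular outside `Pinf` is regular wherever `j` is -/
theorem k7fanch_polesAtCusps (Pinf : Place Kb (fieldBar L M H)) (hinf : IsCuspInftyH L M H Pinf)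
    (σ : fieldBar L M H ≃ₐ[Kb] fieldBar L M H) (hσj : σ (jFH L M H) = jFH L M H)
    (Y : fieldBar L M H) (hY : ∀ P : Place Kb (fieldBar L M H), P ≠ Pinf → 0 ≤ P.ord Y)
    (P : Place Kb (fieldBar L M H)) (hP : 0 ≤ P.ord (jFH L M H)) : 0 ≤ P.ord (σ Y) := by
  refine k7fanch_regular_apply σ Pinf Y hY P (fun hPinf => ?_)
  have h1 : P.ord (σ (jFH L M H)) = Pinf.ord (jFH L M H) := by
    rw [k7fanch_ord_apply, hPinf]
  have hj0 : jFH L M H ≠ 0 := by
    intro h
    have h2 := k7fanch_order_jFH (L := L) (M := M) (H := H)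
    rw [h] at h2
    have h3 : ((0 : fieldBar L M H) : LaurentSeries Kb) = 0 := rfl
    rw [h3, HahnSeries.order_zero] at h2
    omega
  rw [hσj, hinf _ hj0, k7fanch_order_jFH] at h1
  omega

/-- **the conjugates have `A`-integral `q`-expansions** (FL-LR) -/
theorem k7fanch_kronInt (hML : M ∣ L) {ℓ : ℕ} (hℓ : ℓ.Prime) {A : ValuationSubring Kb}
    (hA : A.LiesOverPrime ℓ) (Pinf : Place Kb (fieldBar L M H))
    (hinf : IsCuspInftyH L M H Pinf)
    (σ : fieldBar L M H ≃ₐ[Kb] fieldBar L M H) (hσj : σ (jFH L M H) = jFH L M H)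
    (Y : fieldBar L M H) (hY : ∀ P : Place Kb (fieldBar L M H), P ≠ Pinf → 0 ≤ P.ord Y)
    (hG : k7fgInt A (fieldBar L M H) (σ Y)) :
    KronInt A ((σ Y : fieldBar L M H) : LaurentSeries Kb) :=
  k7flr_of_gaussIntH hML hℓ A hA (σ Y) (k7fanch_polesAtCusps Pinf hinf σ hσj Y hY) hG

end Kron

/-! ## 3. the symmetric functions are regular outside the cusp `∞` of `X₀(L)` -/

section RegOut

variable {L M : ℕ} [NeZero L] [NeZero M] {H : Subgroup (ZMod M)ˣ}
  (δ : (ZMod M)ˣ → (fieldBar L M H ≃ₐ[Kb] fieldBar L M H))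
  (hδ : ∀ c, IsDiamondH L M H c (δ c))

include hδ in
theorem k7fanch_regOut (hL : L ≠ 0) (hML : M ∣ L) (Pinf : Place Kb (fieldBar L M H))
    (hinf : IsCuspInftyH L M H Pinf)
    (Y : fieldBar L M H) (hY : ∀ P : Place Kb (fieldBar L M H), P ≠ Pinf → 0 ≤ P.ord Y)
    (n : ℕ) (a : LaurentSeries Kb) (ha : a ∈ modularFunctionFieldBar L)
    (haeq : a = (((∏ c, (X - C (δ c Y))).coeff n : fieldBar L M H) : LaurentSeries Kb)) :
    RegOut L ⟨a, ha⟩ := by
  classical
  intro P hP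
  have hle := dlh_bar_le_fieldBar L M H
  obtain ⟨d, hd0, hd⟩ := stmtRelDegH_of_diamond stmtDiamondH M H
  have hfin : (modularFunctionFieldBar L).relfinrank (fieldBar L M H) ≠ 0 := by
    rw [hd L hL hML]; exact hd0
  obtain ⟨w, e, he, hw⟩ := k7fanch_place_over hle hfin P
  have h1 := hw a ha
  have h2 : 0 ≤ w.ord (⟨a, hle ha⟩ : fieldBar L M H) := by
    have h3 : (⟨a, hle ha⟩ : fieldBar L M H) = (∏ c, (X - C (δ c Y))).coeff n :=
      Subtype.ext haeq
    rw [h3, deuAnchor_ord_nonneg_iff_mem]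
    refine k7fanch_prod_coeff_mem w.toValuationSubring.toSubring _ (fun c => ?_) n
    show δ c Y ∈ w.toValuationSubring
    rw [← deuAnchor_ord_nonneg_iff_mem]
    refine k7fanch_regular_apply (δ c) Pinf Y hY w (fun hwP => hP ?_)
    -- `w = δ_c Pinf` lies over the cusp `∞` of `X₀(L)`
    have hgen : ∀ f : FF L, f ≠ 0 → e * P.ord f = (f : LaurentSeries Kb).order := by
      intro f hf
      have hf' : (⟨(f : LaurentSeries Kb), hle f.2⟩ : fieldBar L M H) ≠ 0 := by
        intro h0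
        have h00 : (f : LaurentSeries Kb) = 0 :=
          congrArg (fun z : fieldBar L M H => (z : LaurentSeries Kb)) h0
        exact hf (Subtype.ext h00)
      have h4 : w.ord (⟨(f : LaurentSeries Kb), hle f.2⟩ : fieldBar L M H) = e * P.ord f :=
        hw (f : LaurentSeries Kb) f.2
      have h5 := k7fanch_ord_apply (δ c) w (⟨(f : LaurentSeries Kb), hle f.2⟩ : fieldBar L M H)
      rw [k7fanch_diam_fix hL hML δ hδ c _ f.2, hwP, hinf _ hf'] at h5
      rw [← h4, h5]
    have hj := hgen (jF L) (jF_ne_zero L)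
    have hjo : ((jF L : FF L) : LaurentSeries Kb).order = -1 := order_jBar
    rw [hjo] at hj
    have he1 : e = 1 := by
      have hdvd : e ∣ 1 := ⟨-P.ord (jF L), by linarith⟩
      exact Int.eq_one_of_dvd_one he.le hdvd
    intro f hf
    have := hgen f hf
    rw [he1, one_mul] at this
    exact this
  rw [h1] at h2
  exact (mul_nonneg_iff_of_pos_left he).mp h2

end RegOut

/-! ## 4. the conjugates of the reductions -/

section Red

variable {L M : ℕ} [NeZero L] [NeZero M] {H : Subgroup (ZMod M)ˣ} {A : ValuationSubring Kb}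
  (hprim : PrimAt A (fieldBar L M H)) (hRedF : StmtRedFH L M H A)

/-- the Gauss reduction of `F_H` -/
abbrev k7fanchR : RedData Kb ↥(fieldBar L M H) (kA A) ↥(fieldC (kA A) L M H) :=
  k7fgData A (fieldBar L M H) (fieldC (kA A) L M H) hprim hRedF

/-- the reduction of a function with `A`-integral `q`-expansion: vanishing coefficients -/
theorem k7fanch_red_coeff (f : (k7fanchR hprim hRedF).O)
    (hK : KronInt A ((f : fieldBar L M H) : LaurentSeries Kb)) (n₀ : ℤ)
    (h0 : ∀ j : ℤ, j < n₀ → ((f : fieldBar L M H) : LaurentSeries Kb).coeff j = 0)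
    (j : ℤ) (hj : j < n₀) :
    (((k7fanchR hprim hRedF).red f : fieldC (kA A) L M H) : LaurentSeries (kA A)).coeff j
      = 0 := by
  obtain ⟨Z, hZ⟩ := hK.exists_lift
  rw [k7fanch_red_of_lift hprim hRedF f Z hZ]
  have h1 : Z.coeff j = 0 := by
    apply Subtype.ext
    have := h0 j hj
    rw [← hZ] at this
    exact this
  show IsLocalRing.residue A (Z.coeff j) = 0
  rw [h1, map_zero]

variable (Pinf : Place Kb (fieldBar L M H)) (hinf : IsCuspInftyH L M H Pinf)
  (hML : M ∣ L) {ℓ : ℕ} (hℓ : ℓ.Prime) (hA : A.LiesOverPrime ℓ)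

include hinf hML hℓ hA in
/-- **(ord)**: the reduction of `f ∈ L(m·Pinf) ∩ O` has no coefficient below `-m` -/
theorem k7fanch_hord (m : ℕ) (f : (k7fanchR hprim hRedF).O)
    (hf : (f : fieldBar L M H) ∈ riemannRochSpace (mulPlace Pinf (m : ℤ)))
    (j : ℤ) (hj : j < -(m : ℤ)) :
    (((k7fanchR hprim hRedF).red f : fieldC (kA A) L M H) : LaurentSeries (kA A)).coeff j
      = 0 := by
  classical
  have hreg := fun P hP => k7fanch_regular_of_mem Pinf hf P hP
  have hK : KronInt A ((f : fieldBar L M H) : LaurentSeries Kb) :=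
    k7fanch_kronInt hML hℓ hA Pinf hinf 1 rfl (f : fieldBar L M H) hreg f.2
  refine k7fanch_red_coeff hprim hRedF f hK (-(m : ℤ)) (fun i hi => ?_) j hj
  rcases eq_or_ne (f : fieldBar L M H) 0 with h0 | h0
  · rw [h0]; rfl
  · rw [mem_riemannRochSpace_iff] at hf
    rcases hf Pinf with h | h
    · exact absurd h h0
    · rw [mulPlace, Finsupp.single_apply, if_pos rfl, hinf _ h0] at h
      exact HahnSeries.coeff_eq_zero_of_lt_order (by omega)

variable (δ : (ZMod M)ˣ → (fieldBar L M H ≃ₐ[Kb] fieldBar L M H))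
  (hδ : ∀ c, IsDiamondH L M H c (δ c))
  (δb : (ZMod M)ˣ → (fieldC (kA A) L M H ≃ₐ[kA A] fieldC (kA A) L M H))
  (hcompat : ∀ c, K7feqCompat A (δ c) (δb c))

include hinf hML hℓ hA hδ hcompat in
/-- **(ps)**: if `δ_c` moves the cusp, the conjugates `δb_c (red Y)` are power series -/
theorem k7fanch_conj_ps (c : (ZMod M)ˣ) (hc : (δ c)⁻¹ • Pinf ≠ Pinf)
    (Y : (k7fanchR hprim hRedF).O)
    (hY : ∀ P : Place Kb (fieldBar L M H), P ≠ Pinf → 0 ≤ P.ord (Y : fieldBar L M H)) :
    k7fanchSigma δb c ((k7fanchR hprim hRedF).red Y) ∈ k7fanch_ps (kA A) := by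
  obtain ⟨h', h2⟩ := k7fanch_compat_mem hprim hRedF δ δb hcompat c Y
  have hK : KronInt A ((δ c (Y : fieldBar L M H) : fieldBar L M H) : LaurentSeries Kb) :=
    k7fanch_kronInt hML hℓ hA Pinf hinf (δ c) (k7fanch_diam_j δ hδ c) (Y : fieldBar L M H) hY h'
  rw [k7fanchSigma_apply, ← h2, k7fanch_mem_ps]
  refine k7fanch_red_coeff hprim hRedF ⟨δ c (Y : fieldBar L M H), h'⟩ hK 0 (fun j hj => ?_)
  rcases eq_or_ne (δ c (Y : fieldBar L M H)) 0 with h0 | h0
  · show ((δ c (Y : fieldBar L M H) : fieldBar L M H) : LaurentSeries Kb).coeff j = 0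
    rw [h0]; rfl
  · have h3 : 0 ≤ Pinf.ord (δ c (Y : fieldBar L M H)) :=
      k7fanch_regular_apply (δ c) Pinf (Y : fieldBar L M H) hY Pinf hc
    rw [hinf _ h0] at h3
    exact HahnSeries.coeff_eq_zero_of_lt_order (lt_of_lt_of_le hj h3)

include hinf hML hℓ hA hδ hcompat in
/-- **(int)**: the conjugates `δb_c (red Y)` are integral over `k[redR L A]` -/
theorem k7fanch_hG_int (hL : L ≠ 0) (Y : (k7fanchR hprim hRedF).O)
    (hY : ∀ P : Place Kb (fieldBar L M H), P ≠ Pinf → 0 ≤ P.ord (Y : fieldBar L M H))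
    (c : (ZMod M)ˣ) :
    IsIntegral (deuAnchorR0 L A) (k7fanchSigma δb c ((k7fanchR hprim hRedF).red Y)) := by
  classical
  have hK : ∀ c, KronInt A ((δ c (Y : fieldBar L M H) : fieldBar L M H) : LaurentSeries Kb) :=
    fun c => k7fanch_kronInt hML hℓ hA Pinf hinf (δ c) (k7fanch_diam_j δ hδ c)
      (Y : fieldBar L M H) hY (k7fanch_compat_mem hprim hRedF δ δb hcompat c Y).1
  choose Z hZ using fun c => (hK c).exists_lift
  refine k7fanch_conj_isIntegral hprim hRedF δ δb hcompat Y Z hZ (deuAnchorR0 L A)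
    (fun n => ?_) c
  apply Algebra.subset_adjoin
  have hcoe : kronIncl A ((∏ c, (X - C (Z c))).coeff n)
      = (((∏ c, (X - C (δ c (Y : fieldBar L M H)))).coeff n : fieldBar L M H) :
          LaurentSeries Kb) := by
    have h1 : (∏ c, (X - C (Z c))).map (kronIncl A)
        = (∏ c, (X - C (δ c (Y : fieldBar L M H)))).map
            (algebraMap (fieldBar L M H) (LaurentSeries Kb)) := by
      rw [Polynomial.map_prod, Polynomial.map_prod]
      refine Finset.prod_congr rfl fun c _ => ?_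
      rw [Polynomial.map_sub, Polynomial.map_X, Polynomial.map_C, Polynomial.map_sub,
        Polynomial.map_X, Polynomial.map_C, hZ c]
      rfl
    have h2 := congrArg (fun p => p.coeff n) h1
    simp only [Polynomial.coeff_map] at h2
    exact h2
  have hmemFF : kronIncl A ((∏ c, (X - C (Z c))).coeff n) ∈ modularFunctionFieldBar L := by
    rw [hcoe]
    exact k7fanch_mem_bar_of_fixed hL hML δ hδ _
      (fun c => k7fanch_coeff_fixed δ (k7fanch_diam_mul δ hδ) (Y : fieldBar L M H) c n)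
  exact ⟨_, hmemFF, k7fanch_regOut δ hδ hL hML Pinf hinf (Y : fieldBar L M H) hY n _ hmemFF hcoe,
    rfl⟩

end Red

/-! ## 5. the anchor -/

section Anchor

variable {L M : ℕ} [NeZero L] {H : Subgroup (ZMod M)ˣ} {A : ValuationSubring Kb}

/-- **FL-ANCH.**  `R.redSpace (L_H(m·P_∞)) ≤ L̄_H(m·Q_∞)`. -/
theorem k7fanch_anchor (hL : L ≠ 0) (hML : M ∣ L) {ℓ : ℕ} (hℓ : ℓ.Prime)
    (hA : A.LiesOverPrime ℓ) (hprim : PrimAt A (fieldBar L M H))
    (hRedF : StmtRedFH L M H A) (hRedF₀ : StmtRedF L A) (hDR : K7feqDiamRed L M H A)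
    (hI2 : StmtI2 L A) (g : ℕ)
    (hriem : ∀ 𝔞 : Divisor Kb (fieldBar L M H),
      Divisor.degree 𝔞 + 1 - g ≤ (Module.finrank Kb ↥(riemannRochSpace 𝔞) : ℤ))
    (hq2 : ∀ V : Submodule Kb (fieldBar L M H), Module.Finite Kb V →
      Module.finrank Kb V ≤ Module.finrank (kA A) ↥((k7fanchR hprim hRedF).redSpace V))
    (Pinf : Place Kb (fieldBar L M H)) (hinf : IsCuspInftyH L M H Pinf)
    (Qinf : Place (kA A) ↥(fieldC (kA A) L M H)) (hQ : IsCuspInftyHk L M H A Qinf) (m : ℕ) :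
    (k7fanchR hprim hRedF).redSpace (riemannRochSpace (mulPlace Pinf (m : ℤ))) ≤
      riemannRochSpace (mulPlace Qinf (m : ℤ)) := by
  classical
  haveI : NeZero M := ⟨fun h => hL (by rw [h] at hML; exact Nat.eq_zero_of_zero_dvd hML)⟩
  choose δ hδ using fun c => k7f_diamondBar L M H hL hML c
  choose δb hδb using fun c => hDR c (δ c) (hδ c)
  have hcompat : ∀ c, K7feqCompat A (δ c) (δb c) := fun c x y hxy =>
    hδb c x (y : LaurentSeries (kA A)) y.2 hxy
  have hsurj : Function.Surjective (k7fanchR hprim hRedF).red :=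
    k7fgRed_surjective A (fieldBar L M H) (fieldC (kA A) L M H) hRedF
      (divisorExpansionsC (kA A) L ∪ diamondExpansionsC (kA A) L M H) rfl
      (fun _ hw => k7f_gen_rel L M H A hw)
  have hid : ∀ c, δ c = 1 → ∀ x : fieldC (kA A) L M H,
      k7fanchSigma δb c x = (x : LaurentSeries (kA A)) := fun c hc x => by
    rw [k7fanchSigma_apply, k7fanch_db_eq_self hprim hRedF δ δb hcompat hsurj hc]
  haveI : IsAlgClosed (kA A) := Fermat.Agent.RED.isAlgClosed_residueField A
  have halgc : ∀ x : fieldC (kA A) L M H, IsAlgebraic (kA A) x →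
      (x : LaurentSeries (kA A)) ∈ Set.range (algebraMap (kA A) (LaurentSeries (kA A))) := by
    intro x hx
    obtain ⟨c, hc⟩ := mem_range_algebraMap_of_isAlgebraic hx
    exact ⟨c, congrArg Subtype.val hc⟩
  have hG_int : ∀ y (hy : y ∈ k7fanchG (k7fanchR hprim hRedF) Pinf) (i : (ZMod M)ˣ),
      IsIntegral (deuAnchorR0 L A)
        (k7fanchSigma δb i ⟨y, k7fanchG_le (k7fanchR hprim hRedF) Pinf hy⟩) := by
    rintro y ⟨Y, hY, rfl⟩ i
    exact k7fanch_hG_int hprim hRedF Pinf hinf hML hℓ hA δ hδ δb hcompat hL Y hY i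
  have hG_ps : ∀ i : (ZMod M)ˣ,
      (∀ x : fieldC (kA A) L M H, k7fanchSigma δb i x = (x : LaurentSeries (kA A))) ∨
      ∀ y (hy : y ∈ k7fanchG (k7fanchR hprim hRedF) Pinf),
        k7fanchSigma δb i ⟨y, k7fanchG_le (k7fanchR hprim hRedF) Pinf hy⟩
          ∈ k7fanch_ps (kA A) := by
    intro i
    by_cases hi : InPM H 1 (i : ZMod M)
    · left
      exact hid i (k7fanch_diam_eq_one δ hδ hi)
    · right
      rintro y ⟨Y, hY, rfl⟩
      exact k7fanch_conj_ps hprim hRedF Pinf hinf hML hℓ hA δ hδ δb hcompat i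
        (k7fanch_diam_moves δ hδ hL hML Pinf hinf i hi) Y hY
  have h0 := k7fanch_h0 (fieldC (kA A) L M H) (modularFunctionFieldFullC (kA A) L)
    (k7fanchSigma δb) 1 (hid 1 (k7fanch_diam_one δ hδ))
    (k7fanch_hsym hprim hRedF δ δb hcompat (k7fanch_diam_mul δ hδ) (modularFunctionFieldBar L)
      (k7fanch_mem_bar_of_fixed hL hML δ hδ) (modularFunctionFieldFullC (kA A) L)
      (k7fanchr_red_mem_full L M H A hprim hRedF hRedF₀) hsurj)
    (deuAnchorR0 L A) (deuAnchor_h0 hI2) (k7fanchG (k7fanchR hprim hRedF) Pinf)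
    (fun y hy => k7fanchG_le (k7fanchR hprim hRedF) Pinf hy) hG_int hG_ps halgc
  have hresF := es1h_residue_bijective_all (H := H) hL hML
  haveI := es1h_hasPrincipalDivisors_all (H := H) hL hML
  obtain ⟨w₀, hw₀, hw₀c⟩ := k7fanch_exists_w0 (k7fanchR hprim hRedF) Pinf hresF g hriem
    (fun 𝔞 => Fermat.Agent.ES.R.rr_finite Pinf hresF 𝔞) hq2
  haveI : Fact ℓ.Prime := ⟨hℓ⟩
  haveI : CharP (kA A) ℓ := kron_charP_residueField hℓ hA
  haveI := k7fres_finiteDimensionalJ (kA A) ℓ L M H hL hML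
  haveI : Algebra.IsAlgebraic (kA A)⟮k7fresJ (kA A) L M H⟯ ↥(fieldC (kA A) L M H) :=
    Algebra.IsAlgebraic.of_finite _ _
  exact k7fanch_anchor_gen (k7fanchR hprim hRedF) Pinf Qinf hQ h0
    (fun m f hf j hj => k7fanch_hord hprim hRedF Pinf hinf hML hℓ hA m f hf j hj)
    w₀ hw₀ hw₀c (k7fresJ (kA A) L M H) halgc m

end Anchor

end Fermat.Agent.RT.K7F

end
end ZBRT_053_8

/-! ### bundled: `Fermat.Agent.RT.K7F.DiamRed` -/
section ZBRT_053_9

/-!
# RT / K7-FLAT, piece FL-DIAM, part 5: `(RedF)_H` and the reduction of the diamonds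

* `k7fd_redFH : StmtRedFHAll` — the reduction of an `A`-integral series of `F_H` lies in `F̄_H`
  (from the integral representation `k7fd_rep_bar` and `k7fg_redF_of_basis`).
-/

set_option autoImplicit false
set_option linter.style.haveILetI false
set_option linter.unusedSectionVars false
set_option synthInstance.maxHeartbeats 400000
set_option maxHeartbeats 1600000

noncomputable section

namespace Fermat.Agent.RT.K7F

open Polynomial ModularCurve IntermediateField AlgebraicCurve HahnSeries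
open Fermat.Agent.S24 Fermat.Agent.S28 Fermat.Agent.INJ Fermat.Agent.ES Fermat.Agent.ES1
  Fermat.Agent.ES.M Fermat.Agent.ES1.G2

variable (A : ValuationSubring Kb) {p : ℕ} {L M : ℕ} {H : Subgroup (ZMod M)ˣ}

theorem k7fd_level_L_ne_zero (hlev : K7FLevel L M H p) : L ≠ 0 := by
  have := hlev.hL; omega

theorem k7fd_level_M_ne_zero (hlev : K7FLevel L M H p) : M ≠ 0 := by
  intro h
  have h1 := hlev.hML
  rw [h] at h1
  exact k7fd_level_L_ne_zero hlev (Nat.eq_zero_of_zero_dvd h1)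

/-- (RedF) at level `Γ₀(L)` -/
theorem k7fd_redF0 (hA : A.LiesOverPrime p) (hlev : K7FLevel L M H p) :
    ∀ Y : LaurentSeries A, kronIncl A Y ∈ modularFunctionFieldBar L →
      kronRed A Y ∈ modularFunctionFieldFullC (kA A) L := by
  haveI : NeZero L := ⟨k7fd_level_L_ne_zero hlev⟩
  exact stmtRedF L A p hlev.hp hlev.hpL hA

theorem k7fd_incl_S (c : (ZMod M)ˣ) : kronIncl A (sS A M H c) = sS Kb M H c :=
  es1f_coeffMap_sS _ _ _ _

theorem k7fd_red_S (c : (ZMod M)ˣ) : kronRed A (sS A M H c) = sS (kA A) M H c :=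
  es1f_coeffMap_sS _ _ _ _

theorem k7fd_sS_mem_fieldC (K : Type) [Field K] (hML : M ∣ L) (c : (ZMod M)ˣ) :
    sS K M H c ∈ fieldC K L M H := by
  have h := qExpand_sS_mem K L M H (e := 1) (by rwa [one_mul]) c
  rwa [qExpand_one_apply] at h

theorem k7fd_sS_mem_bar (hML : M ∣ L) (c : (ZMod M)ˣ) : sS Kb M H c ∈ fieldBar L M H := by
  rw [es1f_fieldBar_eq]
  exact k7fd_sS_mem_fieldC Kb hML c

/-- **(RedF)_H** for all levels. -/
theorem k7fd_redFH : StmtRedFHAll := by
  classical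
  intro L M H p hlev A hA
  obtain ⟨m, a, ha⟩ := exists_isRepFam (k7fd_level_M_ne_zero hlev) H
  refine k7fg_redF_of_basis A (fieldBar L M H) (modularFunctionFieldBar L)
    (modularFunctionFieldFullC (kA A) L) (fieldC (kA A) L M H)
    (dlh_bar_le_fieldBar L M H) (full_le_fieldC (kA A) L M H) (k7fd_redF0 A hA hlev)
    (fun l : Fin (m + 1) => sS A M H 1 ^ (l : ℕ)) ?_ ?_ ?_
  · intro l
    rw [map_pow, k7fd_incl_S]
    exact pow_mem (k7fd_sS_mem_bar hlev.hML 1) _
  · intro l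
    rw [map_pow, k7fd_red_S]
    exact pow_mem (k7fd_sS_mem_fieldC (kA A) hlev.hML 1) _
  · intro Y hY
    obtain ⟨n, X, D, C, hX, hD, hC, hD0, hrep, -⟩ := k7fd_rep_bar A hA H hlev a ha Y hY
    have hDne : kronIncl A D ≠ 0 := by
      intro h0
      apply hD0
      have : D = 0 := kronIncl_injective (by rw [h0, map_zero])
      rw [this, map_zero]
    have hnum : ∀ l : Fin (m + 1),
        kronIncl A (∑ i, C (i, l) * X i) ∈ modularFunctionFieldBar L := by
      intro l
      rw [map_sum]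
      refine sum_mem fun i _ => ?_
      rw [map_mul]
      exact mul_mem (hC _) (hX i)
    refine ⟨fun l => ⟨kronIncl A (∑ i, C (i, l) * X i) * (kronIncl A D)⁻¹,
      mul_mem (hnum l) (inv_mem hD)⟩, fun l => ?_, ?_⟩
    · refine ⟨kronRed A (∑ i, C (i, l) * X i) * (kronRed A D)⁻¹, ∑ i, C (i, l) * X i, D,
        hnum l, hD, hD0, ?_, ?_⟩
      · show kronIncl A (∑ i, C (i, l) * X i) * (kronIncl A D)⁻¹ * kronIncl A D = _
        rw [mul_assoc, inv_mul_cancel₀ hDne, mul_one]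
      · rw [mul_assoc, inv_mul_cancel₀ hD0, mul_one]
    · have h := congrArg (kronIncl A) hrep
      rw [map_mul, map_sum, Fintype.sum_prod_type, Finset.sum_comm] at h
      have h2 : kronIncl A Y = (kronIncl A D)⁻¹ * (kronIncl A D * kronIncl A Y) := by
        rw [← mul_assoc, inv_mul_cancel₀ hDne, one_mul]
      rw [h2, h, Finset.mul_sum]
      refine Finset.sum_congr rfl fun l _ => ?_
      show _ = kronIncl A (∑ i, C (i, l) * X i) * (kronIncl A D)⁻¹ *
        kronIncl A (sS A M H 1 ^ (l : ℕ))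
      rw [map_sum, Finset.sum_mul, Finset.sum_mul, Finset.mul_sum]
      refine Finset.sum_congr rfl fun i _ => ?_
      rw [map_mul, map_mul, map_mul]
      ring

end Fermat.Agent.RT.K7F

end
end ZBRT_053_9

/-! ### bundled: `Fermat.Agent.RT.K7F.DiamInt` -/
section ZBRT_053_10

/-!
# RT / K7-FLAT, piece FL-DIAM, part 6: the reduction `δ̄` of a diamond (`StmtDiamInt`)

`δ` a diamond automorphism of `F_H = fieldBar L M H`.  By the integral representation
`k7fd_rep_bar`, `δ` maps the Gauss valuation ring `O_H` into itself and its maximal ideal into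
itself (also for `δ⁻¹`), hence induces an automorphism `δ̄` of the residue field
`F̄_H = fieldC k L M H`.

* `k7fd_fix_adjoin`  : a ring endomorphism fixing constants and generators fixes the adjoin;
* `k7fd_diam_fix`    : a diamond fixes `F₀ = modularFunctionFieldBar L` pointwise;
* `k7fd_isDiamondH_symm` : the inverse of the diamond `⟨c⟩` is the diamond `⟨c⁻¹⟩`;
* `k7fd_diam_int`, `k7fd_diam_int_ne`, `k7fd_diam_rel` : `δ` preserves Gauss reductions;
* `k7fd_lift_equiv`  : generic descent of an automorphism to the residue field;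
* `k7fd_diamInt : StmtDiamInt`.
-/

set_option autoImplicit false
set_option linter.style.haveILetI false
set_option linter.unusedSectionVars false
set_option synthInstance.maxHeartbeats 400000
set_option maxHeartbeats 1600000

noncomputable section

namespace Fermat.Agent.RT.K7F

open Polynomial ModularCurve IntermediateField AlgebraicCurve HahnSeries
open Fermat.Agent.S24 Fermat.Agent.S28 Fermat.Agent.INJ Fermat.Agent.ES Fermat.Agent.ES1
  Fermat.Agent.ES.M Fermat.Agent.ES1.G2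

/-! ## Generic lemmas -/

/-- a ring endomorphism of `F` fixing the constants and the generators `S ⊆ F` fixes
`K(S)` pointwise -/
theorem k7fd_fix_adjoin {K Ω : Type*} [Field K] [Field Ω] [Algebra K Ω] (S : Set Ω)
    (F : IntermediateField K Ω) (hSF : S ⊆ F) (σ : F →+* F)
    (hc : ∀ a : K, σ (algebraMap K F a) = algebraMap K F a)
    (hS : ∀ x : F, (x : Ω) ∈ S → σ x = x) (x : F)
    (hx : (x : Ω) ∈ IntermediateField.adjoin K S) : σ x = x := by
  have key : ∀ y : Ω, y ∈ IntermediateField.adjoin K S → ∃ h : y ∈ F, σ ⟨y, h⟩ = ⟨y, h⟩ := by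
    intro y hy
    induction hy using IntermediateField.adjoin_induction with
    | mem y hy => exact ⟨hSF hy, hS ⟨y, hSF hy⟩ hy⟩
    | algebraMap a => exact ⟨F.algebraMap_mem a, hc a⟩
    | add y z _ _ ihy ihz =>
        obtain ⟨hy, ey⟩ := ihy
        obtain ⟨hz, ez⟩ := ihz
        refine ⟨add_mem hy hz, ?_⟩
        have : (⟨y + z, add_mem hy hz⟩ : F) = ⟨y, hy⟩ + ⟨z, hz⟩ := rfl
        rw [this, map_add, ey, ez]
    | inv y _ ihy =>
        obtain ⟨hy, ey⟩ := ihy
        refine ⟨inv_mem hy, ?_⟩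
        have : (⟨y⁻¹, inv_mem hy⟩ : F) = (⟨y, hy⟩ : F)⁻¹ := rfl
        rw [this, map_inv₀, ey]
    | mul y z _ _ ihy ihz =>
        obtain ⟨hy, ey⟩ := ihy
        obtain ⟨hz, ez⟩ := ihz
        refine ⟨mul_mem hy hz, ?_⟩
        have : (⟨y * z, mul_mem hy hz⟩ : F) = ⟨y, hy⟩ * ⟨z, hz⟩ := rfl
        rw [this, map_mul, ey, ez]
  obtain ⟨h, e⟩ := key x hx
  exact e

/-- **generic descent of an automorphism to the residue field** -/
theorem k7fd_lift_equiv {F Fk : Type*} [Field F] [Field Fk] (O : ValuationSubring F)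
    (red : O →+* Fk) (hsurj : Function.Surjective red) (δ : F ≃+* F)
    (h1 : ∀ x ∈ O, δ x ∈ O) (h2 : ∀ x ∈ O, δ.symm x ∈ O)
    (h3 : ∀ (x : F) (h : x ∈ O), red ⟨x, h⟩ = 0 → red ⟨δ x, h1 x h⟩ = 0)
    (h4 : ∀ (x : F) (h : x ∈ O), red ⟨x, h⟩ = 0 → red ⟨δ.symm x, h2 x h⟩ = 0) :
    ∃ δb : Fk ≃+* Fk, ∀ (x : F) (h : x ∈ O), δb (red ⟨x, h⟩) = red ⟨δ x, h1 x h⟩ := by
  let δO : O →+* O :=
    { toFun := fun x => ⟨δ x, h1 x x.2⟩
      map_one' := Subtype.ext (map_one δ)
      map_mul' := fun x y => Subtype.ext (map_mul δ x.1 y.1)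
      map_zero' := Subtype.ext (map_zero δ)
      map_add' := fun x y => Subtype.ext (map_add δ x.1 y.1) }
  let δO' : O →+* O :=
    { toFun := fun x => ⟨δ.symm x, h2 x x.2⟩
      map_one' := Subtype.ext (map_one δ.symm)
      map_mul' := fun x y => Subtype.ext (map_mul δ.symm x.1 y.1)
      map_zero' := Subtype.ext (map_zero δ.symm)
      map_add' := fun x y => Subtype.ext (map_add δ.symm x.1 y.1) }
  have hg : RingHom.ker red ≤ RingHom.ker (red.comp δO) := by
    intro x hx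
    rw [RingHom.mem_ker] at hx ⊢
    exact h3 x.1 x.2 hx
  have hg' : RingHom.ker red ≤ RingHom.ker (red.comp δO') := by
    intro x hx
    rw [RingHom.mem_ker] at hx ⊢
    exact h4 x.1 x.2 hx
  let f : Fk →+* Fk := red.liftOfSurjective hsurj ⟨red.comp δO, hg⟩
  let f' : Fk →+* Fk := red.liftOfSurjective hsurj ⟨red.comp δO', hg'⟩
  have hf : ∀ x : O, f (red x) = red (δO x) := fun x =>
    red.liftOfRightInverse_comp_apply _ _ ⟨red.comp δO, hg⟩ x
  have hf' : ∀ x : O, f' (red x) = red (δO' x) := fun x =>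
    red.liftOfRightInverse_comp_apply _ _ ⟨red.comp δO', hg'⟩ x
  have hff' : ∀ w, f (f' w) = w := by
    intro w
    obtain ⟨x, rfl⟩ := hsurj w
    rw [hf', hf]
    congr 1
    exact Subtype.ext (δ.apply_symm_apply x.1)
  have hf'f : ∀ w, f' (f w) = w := by
    intro w
    obtain ⟨x, rfl⟩ := hsurj w
    rw [hf, hf']
    congr 1
    exact Subtype.ext (δ.symm_apply_apply x.1)
  refine ⟨RingEquiv.ofRingHom f f' (RingHom.ext hff') (RingHom.ext hf'f), fun x h => ?_⟩
  exact hf ⟨x, h⟩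

/-! ## Diamonds -/

variable (A : ValuationSubring Kb) {p : ℕ} {L M : ℕ} {H : Subgroup (ZMod M)ˣ}

/-- a diamond fixes `F₀ = modularFunctionFieldBar L` pointwise -/
theorem k7fd_diam_fix {c : (ZMod M)ˣ} {δ : fieldBar L M H ≃ₐ[Kb] fieldBar L M H}
    (hδ : IsDiamondH L M H c δ) (x : fieldBar L M H)
    (hx : (x : LaurentSeries Kb) ∈ modularFunctionFieldBar L) : δ x = x := by
  rw [nf_bar_eq_fullC] at hx
  refine k7fd_fix_adjoin (divisorExpansionsC Kb L) (fieldBar L M H) ?_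
    (δ : fieldBar L M H →+* fieldBar L M H) (fun a => δ.commutes a) ?_ x hx
  · rintro _ ⟨d, hd0, hd, rfl⟩
    rw [SetLike.mem_coe, es1f_fieldBar_eq]
    exact jd_mem_fieldC Kb L M H hd
  · rintro y ⟨d, hd0, hd, hy⟩
    exact hδ.fix_j d hd y hy

/-- the inverse of the diamond `⟨c⟩` is the diamond `⟨c⁻¹⟩` -/
theorem k7fd_isDiamondH_symm {c : (ZMod M)ˣ} {δ : fieldBar L M H ≃ₐ[Kb] fieldBar L M H}
    (hδ : IsDiamondH L M H c δ) : IsDiamondH L M H c⁻¹ δ.symm where
  fix_j := fun d _ hd x hx => by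
    rw [AlgEquiv.symm_apply_eq]
    exact (hδ.fix_j d hd x hx).symm
  map_s := fun e _ a he x hx => by
    have hy : qExpand Kb e (sS Kb M H (a * c⁻¹)) ∈ fieldBar L M H := by
      rw [es1f_fieldBar_eq]
      exact qExpand_sS_mem Kb L M H he _
    have h1 := hδ.map_s e (a * c⁻¹) he ⟨_, hy⟩ rfl
    rw [inv_mul_cancel_right] at h1
    have h2 : δ ⟨_, hy⟩ = x := Subtype.ext (by rw [h1, hx])
    rw [← h2, AlgEquiv.symm_apply_apply]

/-- `δ S_1 = S_c` -/
theorem k7fd_diam_S (hML : M ∣ L) {c : (ZMod M)ˣ}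
    {δ : fieldBar L M H ≃ₐ[Kb] fieldBar L M H} (hδ : IsDiamondH L M H c δ) :
    δ ⟨sS Kb M H 1, k7fd_sS_mem_bar hML 1⟩ = ⟨sS Kb M H c, k7fd_sS_mem_bar hML c⟩ := by
  apply Subtype.ext
  have h := hδ.map_s 1 1 (by rwa [one_mul]) ⟨sS Kb M H 1, k7fd_sS_mem_bar hML 1⟩
    (qExpand_one_apply _).symm
  rw [h, qExpand_one_apply, one_mul]

/-- **`δ` on an integral series**: `D · δ(Y) = T` with `D ∈ F₀`, `T ∈ F_H` integral, `D̄ ≠ 0`,
`Ȳ = 0 → T̄ = 0`. -/
theorem k7fd_diam_int (hA : A.LiesOverPrime p) (hlev : K7FLevel L M H p) {c : (ZMod M)ˣ}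
    {δ : fieldBar L M H ≃ₐ[Kb] fieldBar L M H} (hδ : IsDiamondH L M H c δ)
    (Y : LaurentSeries A) (hY : kronIncl A Y ∈ fieldBar L M H) :
    ∃ D T : LaurentSeries A, kronIncl A D ∈ modularFunctionFieldBar L ∧ kronRed A D ≠ 0 ∧
      kronIncl A T ∈ fieldBar L M H ∧
      kronIncl A D * ((δ ⟨kronIncl A Y, hY⟩ : fieldBar L M H) : LaurentSeries Kb)
        = kronIncl A T ∧
      (kronRed A Y = 0 → kronRed A T = 0) := by
  classical
  obtain ⟨m, a, ha⟩ := exists_isRepFam (k7fd_level_M_ne_zero hlev) H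
  obtain ⟨n, X, D, C, hX, hD, hC, hD0, hrep, hzero⟩ := k7fd_rep_bar A hA H hlev a ha Y hY
  have hle := dlh_bar_le_fieldBar L M H
  have hML := hlev.hML
  set T : LaurentSeries A := ∑ j, C j * (X j.1 * sS A M H c ^ (j.2 : ℕ)) with hT
  have hinclT : kronIncl A T =
      ∑ j, kronIncl A (C j) * (kronIncl A (X j.1) * sS Kb M H c ^ (j.2 : ℕ)) := by
    rw [hT, map_sum]
    refine Finset.sum_congr rfl fun j _ => ?_
    rw [map_mul, map_mul, map_pow, k7fd_incl_S]
  have hinclrep : kronIncl A D * kronIncl A Y =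
      ∑ j, kronIncl A (C j) * (kronIncl A (X j.1) * sS Kb M H 1 ^ (j.2 : ℕ)) := by
    rw [← map_mul, hrep, map_sum]
    refine Finset.sum_congr rfl fun j _ => ?_
    rw [map_mul, map_mul, map_pow, k7fd_incl_S]
  refine ⟨D, T, hD, hD0, ?_, ?_, ?_⟩
  · rw [hinclT]
    refine sum_mem fun j _ => mul_mem (hle (hC j)) (mul_mem (hle (hX j.1)) ?_)
    exact pow_mem (k7fd_sS_mem_bar hML c) _
  · -- the identity in `F_H`
    have hF : (⟨kronIncl A D, hle hD⟩ : fieldBar L M H) * ⟨kronIncl A Y, hY⟩ =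
        ∑ j, (⟨kronIncl A (C j), hle (hC j)⟩ : fieldBar L M H) *
          (⟨kronIncl A (X j.1), hle (hX j.1)⟩ *
            (⟨sS Kb M H 1, k7fd_sS_mem_bar hML 1⟩ : fieldBar L M H) ^ (j.2 : ℕ)) := by
      apply Subtype.ext
      rw [k7fg_coe_sum]
      exact hinclrep
    have h2 := congrArg δ hF
    rw [map_mul, map_sum, k7fd_diam_fix hδ _ hD] at h2
    have h3 : ∀ j : Fin n × Fin (m + 1),
        δ ((⟨kronIncl A (C j), hle (hC j)⟩ : fieldBar L M H) *
          (⟨kronIncl A (X j.1), hle (hX j.1)⟩ *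
            (⟨sS Kb M H 1, k7fd_sS_mem_bar hML 1⟩ : fieldBar L M H) ^ (j.2 : ℕ))) =
        (⟨kronIncl A (C j), hle (hC j)⟩ : fieldBar L M H) *
          (⟨kronIncl A (X j.1), hle (hX j.1)⟩ *
            (⟨sS Kb M H c, k7fd_sS_mem_bar hML c⟩ : fieldBar L M H) ^ (j.2 : ℕ)) := by
      intro j
      rw [map_mul, map_mul, map_pow, k7fd_diam_fix hδ _ (hC j), k7fd_diam_fix hδ _ (hX j.1),
        k7fd_diam_S hML hδ]
    rw [Finset.sum_congr rfl fun j _ => h3 j] at h2
    have h4 := congrArg (fun z : fieldBar L M H => (z : LaurentSeries Kb)) h2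
    rw [k7fg_coe_sum] at h4
    rw [hinclT]
    exact h4
  · intro h0
    have hC0 := hzero h0
    rw [hT, map_sum]
    refine Finset.sum_eq_zero fun j _ => ?_
    rw [map_mul, hC0 j, zero_mul]

/-- `δ` of an integral series with nonzero reduction has nonzero reduction -/
theorem k7fd_diam_int_ne (hA : A.LiesOverPrime p) (hlev : K7FLevel L M H p) {c : (ZMod M)ˣ}
    {δ : fieldBar L M H ≃ₐ[Kb] fieldBar L M H} (hδ : IsDiamondH L M H c δ)
    (Y : LaurentSeries A) (hY : kronIncl A Y ∈ fieldBar L M H) (hY0 : kronRed A Y ≠ 0)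
    (D T : LaurentSeries A) (hD : kronIncl A D ∈ modularFunctionFieldBar L)
    (hD0 : kronRed A D ≠ 0) (hT : kronIncl A T ∈ fieldBar L M H)
    (hDT : kronIncl A D * ((δ ⟨kronIncl A Y, hY⟩ : fieldBar L M H) : LaurentSeries Kb)
        = kronIncl A T) : kronRed A T ≠ 0 := by
  intro hT0
  have hle := dlh_bar_le_fieldBar L M H
  have hδs := k7fd_isDiamondH_symm hδ
  obtain ⟨D', T', hD', hD'0, -, hDT', hzero⟩ := k7fd_diam_int A hA hlev hδs T hT
  have hT'0 := hzero hT0
  -- `δ⁻¹ T = D · Y`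
  have h1 : (⟨kronIncl A T, hT⟩ : fieldBar L M H) =
      ⟨kronIncl A D, hle hD⟩ * δ ⟨kronIncl A Y, hY⟩ := Subtype.ext hDT.symm
  have h2 : δ.symm ⟨kronIncl A T, hT⟩ =
      (⟨kronIncl A D, hle hD⟩ : fieldBar L M H) * ⟨kronIncl A Y, hY⟩ := by
    rw [h1, map_mul, AlgEquiv.symm_apply_apply, k7fd_diam_fix hδs _ hD]
  rw [h2] at hDT'
  have h3 : kronIncl A (D' * (D * Y)) = kronIncl A T' := by
    rw [map_mul, map_mul]
    exact hDT'
  have h4 : D' * (D * Y) = T' := kronIncl_injective h3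
  have h5 : kronRed A D' * (kronRed A D * kronRed A Y) = 0 := by
    rw [← map_mul, ← map_mul, h4, hT'0]
  exact mul_ne_zero hD'0 (mul_ne_zero hD0 hY0) h5

/-- **`δ` preserves Gauss reductions** -/
theorem k7fd_diam_rel (hA : A.LiesOverPrime p) (hlev : K7FLevel L M H p) {c : (ZMod M)ˣ}
    {δ : fieldBar L M H ≃ₐ[Kb] fieldBar L M H} (hδ : IsDiamondH L M H c δ)
    {x : fieldBar L M H} {w : LaurentSeries (kA A)} (h : k7fgRel A (fieldBar L M H) x w) :
    ∃ w' : LaurentSeries (kA A), k7fgRel A (fieldBar L M H) (δ x) w' ∧ (w = 0 → w' = 0) := by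
  have hle := dlh_bar_le_fieldBar L M H
  obtain ⟨Y₁, Y₂, hY₁m, hY₂m, hY₂, hx, hw⟩ := h
  obtain ⟨D₁, T₁, hD₁, hD₁0, hT₁, hDT₁, hz₁⟩ := k7fd_diam_int A hA hlev hδ Y₁ hY₁m
  obtain ⟨D₂, T₂, hD₂, hD₂0, hT₂, hDT₂, -⟩ := k7fd_diam_int A hA hlev hδ Y₂ hY₂m
  have hT₂0 := k7fd_diam_int_ne A hA hlev hδ Y₂ hY₂m hY₂ D₂ T₂ hD₂ hD₂0 hT₂ hDT₂
  have hxF : x * ⟨kronIncl A Y₂, hY₂m⟩ = ⟨kronIncl A Y₁, hY₁m⟩ := Subtype.ext hx
  have hδx : ((δ x : fieldBar L M H) : LaurentSeries Kb) *
      ((δ ⟨kronIncl A Y₂, hY₂m⟩ : fieldBar L M H) : LaurentSeries Kb) =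
      ((δ ⟨kronIncl A Y₁, hY₁m⟩ : fieldBar L M H) : LaurentSeries Kb) := by
    have := congrArg (fun z : fieldBar L M H => ((δ z : fieldBar L M H) : LaurentSeries Kb)) hxF
    simp only [map_mul] at this
    exact this
  have hden : kronRed A (T₂ * D₁) ≠ 0 := by
    rw [map_mul]
    exact mul_ne_zero hT₂0 hD₁0
  refine ⟨kronRed A (T₁ * D₂) * (kronRed A (T₂ * D₁))⁻¹, ⟨T₁ * D₂, T₂ * D₁, ?_, ?_, hden, ?_, ?_⟩,
    ?_⟩
  · rw [map_mul]
    exact mul_mem hT₁ (hle hD₂)
  · rw [map_mul]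
    exact mul_mem hT₂ (hle hD₁)
  · rw [map_mul, map_mul, ← hDT₁, ← hDT₂, ← hδx]
    ring
  · rw [mul_assoc, inv_mul_cancel₀ hden, mul_one]
  · intro hw0
    have hY₁0 : kronRed A Y₁ = 0 := by rw [← hw, hw0, zero_mul]
    rw [map_mul, hz₁ hY₁0, zero_mul, zero_mul]

/-! ## The reduction of the diamond -/

/-- an integral series of `F_H` lies in the Gauss valuation ring -/
theorem k7fd_int_mem_O (Y : LaurentSeries A) (hY : kronIncl A Y ∈ fieldBar L M H) :
    (⟨kronIncl A Y, hY⟩ : fieldBar L M H) ∈ k7fO L M H A :=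
  ⟨kronRed A Y, k7fgRel_of_int A (fieldBar L M H) Y hY⟩

/-- the reduction of an integral series -/
theorem k7fd_red_int (hRedF : K7fRedF L M H A) (Y : LaurentSeries A)
    (hY : kronIncl A Y ∈ fieldBar L M H)
    (h : (⟨kronIncl A Y, hY⟩ : fieldBar L M H) ∈ k7fO L M H A) :
    ((k7fRed L M H A hRedF ⟨⟨kronIncl A Y, hY⟩, h⟩ : fieldC (kA A) L M H) :
      LaurentSeries (kA A)) = kronRed A Y := by
  obtain ⟨h', e⟩ := (k7fRed_iff L M H A hRedF _ _).mp (k7fgRel_of_int A (fieldBar L M H) Y hY)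
  exact e

/-- **FL-DIAM**: the diamonds are Gauss-integral and reduce to automorphisms of `F̄_H`. -/
theorem k7fd_diamInt : StmtDiamInt := by
  intro L M H p hlev A hA c δ hδ
  have hRedF : K7fRedF L M H A := k7fd_redFH L M H p hlev A hA
  have hδs := k7fd_isDiamondH_symm hδ
  have hsurj := k7f_red_surjective L M H A hRedF
  have hiff := k7fRed_iff L M H A hRedF
  have h1 : ∀ x ∈ k7fO L M H A, δ x ∈ k7fO L M H A := by
    rintro x ⟨w, hw⟩
    obtain ⟨w', hw', -⟩ := k7fd_diam_rel A hA hlev hδ hw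
    exact ⟨w', hw'⟩
  have h2 : ∀ x ∈ k7fO L M H A, δ.symm x ∈ k7fO L M H A := by
    rintro x ⟨w, hw⟩
    obtain ⟨w', hw', -⟩ := k7fd_diam_rel A hA hlev hδs hw
    exact ⟨w', hw'⟩
  have h3 : ∀ (x : fieldBar L M H) (h : x ∈ k7fO L M H A),
      k7fRed L M H A hRedF ⟨x, h⟩ = 0 → k7fRed L M H A hRedF ⟨δ x, h1 x h⟩ = 0 := by
    intro x h h0
    have hrel : k7fgRel A (fieldBar L M H) x 0 := (hiff x 0).mpr ⟨h, by rw [h0]; rfl⟩
    obtain ⟨w', hw', hz⟩ := k7fd_diam_rel A hA hlev hδ hrel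
    rw [hz rfl] at hw'
    obtain ⟨h', e⟩ := (hiff _ _).mp hw'
    exact Subtype.ext e
  have h4 : ∀ (x : fieldBar L M H) (h : x ∈ k7fO L M H A),
      k7fRed L M H A hRedF ⟨x, h⟩ = 0 → k7fRed L M H A hRedF ⟨δ.symm x, h2 x h⟩ = 0 := by
    intro x h h0
    have hrel : k7fgRel A (fieldBar L M H) x 0 := (hiff x 0).mpr ⟨h, by rw [h0]; rfl⟩
    obtain ⟨w', hw', hz⟩ := k7fd_diam_rel A hA hlev hδs hrel
    rw [hz rfl] at hw'
    obtain ⟨h', e⟩ := (hiff _ _).mp hw'
    exact Subtype.ext e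
  obtain ⟨δr, hδr⟩ := k7fd_lift_equiv (k7fO L M H A) (k7fRed L M H A hRedF) hsurj
    δ.toRingEquiv h1 h2 h3 h4
  have hδr' : ∀ (x : fieldBar L M H) (h : x ∈ k7fO L M H A),
      δr (k7fRed L M H A hRedF ⟨x, h⟩) = k7fRed L M H A hRedF ⟨δ x, h1 x h⟩ := hδr
  -- `k`-linearity
  have hk : ∀ a : kA A, δr (algebraMap (kA A) (fieldC (kA A) L M H) a) =
      algebraMap (kA A) (fieldC (kA A) L M H) a := by
    intro a
    obtain ⟨α, rfl⟩ := IsLocalRing.residue_surjective (R := A) a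
    have hm : algebraMap Kb (fieldBar L M H) (α : Kb) ∈ k7fO L M H A :=
      (k7f_algebraMap_mem_iff L M H A _).mpr α.2
    rw [← k7f_red_algebraMap L M H A hRedF α hm, hδr' _ hm]
    congr 1
    exact Subtype.ext (δ.commutes _)
  refine ⟨AlgEquiv.ofRingEquiv (f := δr) hk, ?_, ?_, ?_⟩
  · intro f hf
    show δr f = f
    refine k7fd_fix_adjoin (divisorExpansionsC (kA A) L) (fieldC (kA A) L M H) ?_
      (δr : fieldC (kA A) L M H →+* fieldC (kA A) L M H) hk ?_ f hf
    · rintro _ ⟨d, hd0, hd, rfl⟩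
      exact jd_mem_fieldC (kA A) L M H hd
    · rintro y ⟨d, hd0, hd, hy⟩
      have hYm : kronIncl A (jqNModC A d) ∈ fieldBar L M H := by
        rw [k7f_incl_j, es1f_fieldBar_eq]
        exact jd_mem_fieldC Kb L M H hd
      have hO := k7fd_int_mem_O A (jqNModC A d) hYm
      have hy' : y = k7fRed L M H A hRedF ⟨⟨kronIncl A (jqNModC A d), hYm⟩, hO⟩ :=
        Subtype.ext (by rw [k7fd_red_int, k7f_red_j, hy])
      show δr y = y
      rw [hy', hδr' _ hO]
      congr 1
      exact Subtype.ext (hδ.fix_j d hd _ (k7f_incl_j A d))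
  · intro e _ he b
    show ((δr ⟨qExpand (kA A) e (sS (kA A) M H b), qExpand_sS_mem (kA A) L M H he b⟩ :
      fieldC (kA A) L M H) : LaurentSeries (kA A)) = _
    have hYm : kronIncl A (k7fS M H A e b) ∈ fieldBar L M H := by
      rw [k7f_incl_S, es1f_fieldBar_eq]
      exact qExpand_sS_mem Kb L M H he b
    have hYm' : kronIncl A (k7fS M H A e (b * c)) ∈ fieldBar L M H := by
      rw [k7f_incl_S, es1f_fieldBar_eq]
      exact qExpand_sS_mem Kb L M H he (b * c)
    have hO := k7fd_int_mem_O A (k7fS M H A e b) hYm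
    have hO' := k7fd_int_mem_O A (k7fS M H A e (b * c)) hYm'
    have hy : (⟨qExpand (kA A) e (sS (kA A) M H b), qExpand_sS_mem (kA A) L M H he b⟩ :
        fieldC (kA A) L M H) = k7fRed L M H A hRedF ⟨⟨kronIncl A (k7fS M H A e b), hYm⟩, hO⟩ :=
      Subtype.ext (by rw [k7fd_red_int, k7f_red_S])
    have hδy : δ ⟨kronIncl A (k7fS M H A e b), hYm⟩ =
        ⟨kronIncl A (k7fS M H A e (b * c)), hYm'⟩ :=
      Subtype.ext ((hδ.map_s e b he _ (k7f_incl_S M H A e b)).trans
        (k7f_incl_S M H A e (b * c)).symm)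
    have hred : k7fRed L M H A hRedF ⟨δ ⟨kronIncl A (k7fS M H A e b), hYm⟩, h1 _ hO⟩ =
        k7fRed L M H A hRedF ⟨⟨kronIncl A (k7fS M H A e (b * c)), hYm'⟩, hO'⟩ :=
      congrArg (k7fRed L M H A hRedF) (Subtype.ext hδy)
    rw [hy, hδr' _ hO, hred, k7fd_red_int, k7f_red_S]
  · intro x w hw hrel
    obtain ⟨h, e⟩ := (hiff x w).mp hrel
    have hw' : (⟨w, hw⟩ : fieldC (kA A) L M H) = k7fRed L M H A hRedF ⟨x, h⟩ :=
      Subtype.ext e.symm
    show k7fgRel A (fieldBar L M H) (δ x) ((δr ⟨w, hw⟩ : fieldC (kA A) L M H) :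
      LaurentSeries (kA A))
    rw [hw', hδr' x h]
    exact (hiff _ _).mpr ⟨h1 x h, rfl⟩

end Fermat.Agent.RT.K7F

end
end ZBRT_053_10

/-! ### bundled: `Fermat.Agent.RT.K7F.Nice` -/
section ZBRT_053_11
/-
RT-K7F / FL-NICE (helper86): assembly of the reduction package `ModPRH` of `X_H(L; M)` at `A`.

* `k7fnicePRH L M H A hRedF r` : the package `⟨residue, k7fO, k7fRed, r⟩`;
* `k7fnice_modPRH` : `ModPRH L M H A g (k7fnicePRH … Hy.r) j` from Deuring's hypotheses
  `Hy : DEU.Hyp (k7fData L M H A hRedF) Pinf Qinf g n₀` at the cusps `∞` (`IsCuspInftyH`,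
  `IsCuspInftyHk`), the reduction of the diamonds (`StmtDiamInt`), the good function `j` and the
  finiteness of the ramification of `j̄`  (twin of `DEU.modPR_of_hyp`);
* `k7fnice_exists_hyp` : `DEU.Hyp` from FL-RH0 (`StmtRiemannH`), FL-RHp (`StmtBoundE`), FL-RES and
  the anchor (twin of `DEU.modHyp_of_anchor`, through HYP-of-E);
* `K7fniceInput`, `stmtModPRH_of` : the assembly `StmtModPRH`.
-/

set_option autoImplicit false
set_option linter.unusedSectionVars false
set_option linter.style.haveILetI false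
set_option synthInstance.maxHeartbeats 400000
set_option maxHeartbeats 1600000

open ModularCurve AlgebraicCurve HahnSeries Module

namespace Fermat.Agent.RT.K7F

open Fermat.Agent.ES Fermat.Agent.S24 Fermat.Agent.ES.M Fermat.Agent.W1 Fermat.Agent.PR
  Fermat.Agent.DEU Fermat.Agent.ES1 Fermat.Agent.ES1.G2 Fermat.Agent.ES.R

variable (L M : ℕ) (H : Subgroup (ZMod M)ˣ) (A : ValuationSubring Kb)

/-- the reduction data of `X_H(L; M)` at `A` with a given reduction of places -/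
noncomputable def k7fnicePRH (hRedF : StmtRedFH L M H A)
    (r : Place Kb (fieldBar L M H) → Place (kA A) ↥(fieldC (kA A) L M H)) :
    PRData Kb ↥(fieldBar L M H) (kA A) ↥(fieldC (kA A) L M H) A where
  res := IsLocalRing.residue A
  O := k7fO L M H A
  red := k7fRed L M H A hRedF
  r := r

/-- `j̄` as an element of `F̄_H` -/
noncomputable def k7fniceJk : ↥(fieldC (kA A) L M H) :=
  ⟨jqModC (kA A), by
    have h := jd_mem_fieldC (kA A) L M H (one_dvd L)
    rwa [qExpand_one_apply] at h⟩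

theorem coe_k7fniceJk :
    ((k7fniceJk L M H A : ↥(fieldC (kA A) L M H)) : LaurentSeries (kA A)) = jqModC (kA A) := rfl

theorem k7fniceJk_ne_zero : k7fniceJk L M H A ≠ 0 := by
  intro h
  have := congrArg (fun x : ↥(fieldC (kA A) L M H) =>
    (x : LaurentSeries (kA A)).coeff (-1)) h
  simp only [coe_k7fniceJk, ZeroMemClass.coe_zero, HahnSeries.coeff_zero] at this
  rw [coeff_jqModC_neg_one] at this
  exact one_ne_zero this

theorem k7fnice_order_jk : (jqModC (kA A)).order ≤ -1 :=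
  HahnSeries.order_le_of_coeff_ne_zero (by rw [coeff_jqModC_neg_one]; exact one_ne_zero)

/-- `j` is fixed by the arithmetic Galois action -/
theorem k7fnice_smul_j (σ : Kb ≃ₐ[ℚ] Kb) :
    arithmeticGalois (fieldQ L M H) σ • es1hJ L M H = es1hJ L M H := by
  apply Subtype.ext
  rw [coe_arithmeticGalois_smul]
  show coeffMap (σ : Kb →+* Kb) (coeffMap (algebraMap ℚ Kb) jq) = coeffMap (algebraMap ℚ Kb) jq
  rw [coeffMap_coeffMap]
  exact coeffMap_congr (RingHom.ext fun a => σ.commutes a) _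

variable {L M H A}
variable {hRedF : StmtRedFH L M H A} {Pinf : Place Kb (fieldBar L M H)}
  {Qinf : Place (kA A) ↥(fieldC (kA A) L M H)} {g n₀ : ℕ}

theorem k7fnice_isPRH (Hy : Hyp (k7fData L M H A hRedF) Pinf Qinf g n₀) :
    (k7fnicePRH L M H A hRedF Hy.r).IsPR where
  res_surjective := k7f_res_surjective A
  res_eq_zero_iff := k7f_res_eq_zero_iff A
  algebraMap_mem_iff := k7f_algebraMap_mem_iff L M H A
  red_surjective := k7f_red_surjective L M H A hRedF
  red_eq_zero_iff := k7f_red_eq_zero_iff L M H A hRedF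
  red_algebraMap := k7f_red_algebraMap L M H A hRedF
  prim := k7f_prim L M H A hRedF
  r_div := fun u hu D hD Q => Hy.mapDomain_r_principal u hu D hD Q

theorem k7fnice_orthH (Hy : Hyp (k7fData L M H A hRedF) Pinf Qinf g n₀) :
    (k7fnicePRH L M H A hRedF Hy.r).Orth :=
  fun D => Hy.exists_orth D

/-- **FL-NICE, characteristic `0`.** -/
theorem k7fnice_niceH (Hy : Hyp (k7fData L M H A hRedF) Pinf Qinf g n₀)
    (hP : IsCuspInftyH L M H Pinf) : IsNiceCurve Kb ↥(fieldBar L M H) g := by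
  refine k7fnice_nice Hy (es1hJ L M H) Pinf ?_
  have hj0 : es1hJ L M H ≠ 0 := fun h => jBar_ne_zero (congrArg Subtype.val h)
  rw [hP _ hj0]
  show (jBar : LaurentSeries Kb).order < 0
  rw [order_jBar]
  norm_num

/-- **FL-NICE, residue side.** -/
theorem k7fnice_niceHk (Hy : Hyp (k7fData L M H A hRedF) Pinf Qinf g n₀)
    (hQ : IsCuspInftyHk L M H A Qinf) : IsNiceCurve (kA A) ↥(fieldC (kA A) L M H) g := by
  haveI : IsAlgClosed (kA A) := modHyp_isAlgClosed A
  haveI : Infinite (kA A) := IsAlgClosed.instInfinite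
  refine k7fnice_nice_k Hy (k7fniceJk L M H A) Qinf ?_
  rw [hQ _ (k7fniceJk_ne_zero L M H A), coe_k7fniceJk]
  have := k7fnice_order_jk A
  omega

/-- **FL-NICE: the package `ModPRH`** from Deuring's hypotheses at the cusps `∞`. -/
theorem k7fnice_modPRH {p : ℕ} (hlev : K7FLevel L M H p) (hA : A.LiesOverPrime p)
    (hDI : StmtDiamInt)
    (Hy : Hyp (k7fData L M H A hRedF) Pinf Qinf g n₀)
    (hP : IsCuspInftyH L M H Pinf) (hQ : IsCuspInftyHk L M H A Qinf)
    (hgood : (k7fnicePRH L M H A hRedF Hy.r).GoodFn (es1hJ L M H))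
    (hram : ∀ ht : es1hJ L M H ∈ k7fO L M H A,
      {Q : Place (kA A) ↥(fieldC (kA A) L M H) |
        ¬ ∃ c : kA A, Q.ord (k7fRed L M H A hRedF ⟨es1hJ L M H, ht⟩ - algebraMap _ _ c) = 1}.Finite) :
    ModPRH L M H A g (k7fnicePRH L M H A hRedF Hy.r) (es1hJ L M H) where
  isPR := k7fnice_isPRH Hy
  res_eq := rfl
  orth := k7fnice_orthH Hy
  nice := k7fnice_niceH Hy hP
  nice_k := k7fnice_niceHk Hy hQ
  good := hgood
  ram := hram
  t_fixed := k7fnice_smul_j L M H
  decomp := fun σ hσ => k7feqH_decomp_hyp L M H A (k7f_primAt L M H A) hRedF Hy σ hσ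
  inertia := fun σ hσ P => k7feqH_inertia_hyp L M H A (k7f_primAt L M H A) hRedF Hy σ hσ P
  diam := fun c δ hδ =>
    k7feqH_diam_hyp_of_stmt L M H A (k7f_primAt L M H A) hRedF Hy hDI hlev hA c δ hδ


/-! ## Deuring's hypotheses from the pieces -/

variable (L M H A)

/-- **FL-RES** at `(L, M, H, A)`: the residue curve has rational places and principal divisors. -/
def K7fniceRes : Prop :=
  (∀ v : Place (kA A) ↥(fieldC (kA A) L M H),
    Function.Bijective (algebraMap (kA A) v.ResidueField)) ∧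
  HasPrincipalDivisors (kA A) ↥(fieldC (kA A) L M H)

/-- **FL-ANCH** at `(L, M, H, A)`: the cusps `∞` on both sides and the anchor. -/
def K7fniceAnch (hRedF : StmtRedFH L M H A) : Prop :=
  ∃ (Pinf : Place Kb (fieldBar L M H)) (Qinf : Place (kA A) ↥(fieldC (kA A) L M H)),
    IsCuspInftyH L M H Pinf ∧ IsCuspInftyHk L M H A Qinf ∧
    ∀ m : ℕ, (k7fData L M H A hRedF).redSpace (riemannRochSpace (mulPlace Pinf m)) ≤
      riemannRochSpace (mulPlace Qinf m)

/-- **FL-GOOD** at `(L, M, H, A)`: for every map `r` on places with `r_* (div u) = div ū`, the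
function `j` is Gauss-integral and every pole of `j` reduces to a pole of `j̄`. -/
def K7fniceGood (hRedF : StmtRedFH L M H A) : Prop :=
  ∀ r : Place Kb (fieldBar L M H) → Place (kA A) ↥(fieldC (kA A) L M H),
    (∀ u : k7fO L M H A, k7fRed L M H A hRedF u ≠ 0 →
      ∀ D : Divisor Kb (fieldBar L M H),
        (∀ P : Place Kb (fieldBar L M H), D P = P.ord (u : fieldBar L M H)) →
        ∀ Q : Place (kA A) ↥(fieldC (kA A) L M H),
          Finsupp.mapDomain r D Q = Q.ord (k7fRed L M H A hRedF u)) →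
    (k7fnicePRH L M H A hRedF r).GoodFn (es1hJ L M H)

/-- **FL-GOOD (ramification)** at `(L, M, H, A)`: `j̄ - c` is a uniformizer at almost all places
of the residue curve. -/
def K7fniceRam (hRedF : StmtRedFH L M H A) : Prop :=
  ∀ ht : es1hJ L M H ∈ k7fO L M H A,
    {Q : Place (kA A) ↥(fieldC (kA A) L M H) |
      ¬ ∃ c : kA A,
        Q.ord (k7fRed L M H A hRedF ⟨es1hJ L M H, ht⟩ - algebraMap _ _ c) = 1}.Finite

variable {L M H A}

/-- **Deuring's hypotheses** for `X_H(L; M)` at `A`, from FL-RH0, FL-RHp, FL-RES and the anchor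
(through HYP-of-E). -/
theorem k7fnice_exists_hyp {p : ℕ} (hlev : K7FLevel L M H p) (hA : A.LiesOverPrime p)
    (hRH0 : StmtRiemannH) (hBE : StmtBoundE) (hRedF : StmtRedFH L M H A)
    (hRes : K7fniceRes L M H A)
    (Pinf : Place Kb (fieldBar L M H)) (Qinf : Place (kA A) ↥(fieldC (kA A) L M H))
    (hanchor : ∀ m : ℕ,
      (k7fData L M H A hRedF).redSpace (riemannRochSpace (mulPlace Pinf m)) ≤
        riemannRochSpace (mulPlace Qinf m)) :
    ∃ g n₀ : ℕ, Hyp (k7fData L M H A hRedF) Pinf Qinf g n₀ := by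
  have hL0 : L ≠ 0 := fun h => by have := hlev.hL; omega
  have hM0 : M ≠ 0 := fun h => hL0 (by have := hlev.hML; rw [h] at this; exact zero_dvd_iff.mp this)
  obtain ⟨m, a, ha⟩ := exists_isRepFam hM0 H
  obtain ⟨-, hR⟩ := hRH0 L M H p hlev m a ha
  obtain ⟨E, -, hEdeg, n₁, hn₁⟩ := hBE L M H p hlev A hA m a ha
  have H0 : k7fhe_Hyp0 (k7fData L M H A hRedF) Pinf Qinf (k7fGenus L (m + 1)) :=
    { hresF := es1h_residue_bijective_all hL0 hlev.hML
      hresk := hRes.1
      hpdF := es1h_hasPrincipalDivisors_all hL0 hlev.hML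
      hpdk := hRes.2
      riemann := hR
      q2 := fun V hV => by
        haveI := hV
        exact (k7f_finrank_redSpace L M H A hRedF V).ge
      anchor := hanchor }
  obtain ⟨n₀, Hy⟩ := H0.exists_hyp (n₁ • E) (by
    have h := hn₁ n₁ le_rfl
    rw [map_nsmul, hEdeg, nsmul_eq_mul]
    exact h)
  exact ⟨_, n₀, Hy⟩

/-- **FL-NICE at `(L, M, H, A)`.** -/
theorem k7fnice_hasModPRH {p : ℕ} (hlev : K7FLevel L M H p) (hA : A.LiesOverPrime p)
    (hRH0 : StmtRiemannH) (hBE : StmtBoundE) (hDI : StmtDiamInt) (hRedF : StmtRedFH L M H A)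
    (hRes : K7fniceRes L M H A) (hAnch : K7fniceAnch L M H A hRedF)
    (hGood : K7fniceGood L M H A hRedF) (hRam : K7fniceRam L M H A hRedF) :
    HasModPRH L M H A := by
  obtain ⟨Pinf, Qinf, hP, hQ, hanchor⟩ := hAnch
  obtain ⟨g, n₀, Hy⟩ := k7fnice_exists_hyp hlev hA hRH0 hBE hRedF hRes Pinf Qinf hanchor
  exact ⟨g, k7fnicePRH L M H A hRedF Hy.r, es1hJ L M H,
    k7fnice_modPRH hlev hA hDI Hy hP hQ
      (hGood Hy.r (fun u hu D hD Q => Hy.mapDomain_r_principal u hu D hD Q)) hRam⟩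

/-- the local inputs of FL-NICE which are not Props of `Plan.lean`: FL-RES, FL-ANCH, FL-GOOD -/
def StmtNiceInput (hRedF : StmtRedFHAll) : Prop :=
  ∀ (L M : ℕ) (H : Subgroup (ZMod M)ˣ) (p : ℕ) (hlev : K7FLevel L M H p)
    (A : ValuationSubring Kb) (hA : A.LiesOverPrime p),
    K7fniceRes L M H A ∧ K7fniceAnch L M H A (hRedF L M H p hlev A hA) ∧
      K7fniceGood L M H A (hRedF L M H p hlev A hA) ∧
      K7fniceRam L M H A (hRedF L M H p hlev A hA)

/-- **FL-NICE: the assembly `StmtModPRH`.** -/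
theorem stmtModPRH_of (hRedF : StmtRedFHAll) (hRH0 : StmtRiemannH) (hBE : StmtBoundE)
    (hDI : StmtDiamInt) (hIn : StmtNiceInput hRedF) : StmtModPRH := by
  intro L M H p hlev A hA
  obtain ⟨hRes, hAnch, hGood, hRam⟩ := hIn L M H p hlev A hA
  exact k7fnice_hasModPRH hlev hA hRH0 hBE hDI (hRedF L M H p hlev A hA) hRes hAnch hGood hRam

end Fermat.Agent.RT.K7F


end ZBRT_053_11

/-! ### bundled: `Fermat.Agent.RT.K7F.Good` -/
section ZBRT_053_12

/-!
# RT-K7F / FL-GOOD — `j` is a good function on `F_H`; `j̄` is unramified outside a finite set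

`F_H = ES1.fieldBar L M H ⊃ F₀ = modularFunctionFieldBar L`, `F̄_H = ES1.fieldC k L M H ⊃
F̄₀ = modularFunctionFieldFullC k L`, `k = kA A`, `A ⊂ ℚ̄` over `p ∤ L`.
`R : W1.PRData ℚ̄ F_H k F̄_H A` ANY reduction package whose reduction map sends `j` to `j̄`
(hypothesis `hred`, or: `R.red` is the Gauss reduction `k7fgRel`, see `k7fgood_red_of_rel`) and
with `r_* (div u) = div ū` (`W1.PRData.IsPR.r_div`).

* `k7fgood_finrank_eq_relfinrank`, `k7fgood_finrank_tower` : the tower law for `K(t) ⊂ F₀ ⊂ F`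
  inside an ambient field (generic);
* `k7fgood_le_relfinrank` : `m + 1 ≤ [F : F₀]` from `m + 1` conjugates (generic);
* `k7fgood_finrank_bar` : `[F_H : ℚ̄(j)] = ψ(L) · [F_H : F₀]`;
* `k7fgood_finrank_fieldC` : `[F̄_H : k(j̄)] = ψ(L) · [F̄_H : F̄₀]` (Igusa at level `L`);
* `k7fgood_good_of_le` : **`R.GoodFn j`**, from `[F_H : F₀] ≤ [F̄_H : F̄₀]` (the input of FL-DIAM);
* `k7fgood_ram_of_ne` : **the field `ram` of `ModPRH`**, from `[F̄_H : F̄₀] ≠ 0` (finiteness);
* `k7fgood_deg_of_diam` : the degree inequality from the reduced diamonds (the conclusion of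
  `StmtDiamInt`) and the finiteness of `F̄_H / F̄₀`;
* `k7fgood_good`, `k7fgood_ram` : the two fields for `K7FLevel`, `R.IsPR`.
-/

set_option autoImplicit false
set_option synthInstance.maxHeartbeats 400000
set_option maxHeartbeats 1600000
set_option linter.style.haveILetI false
set_option linter.unusedSectionVars false

noncomputable section

namespace Fermat.Agent.RT.K7F

open AlgebraicCurve Module IntermediateField ModularCurve
open Fermat.Agent.ES Fermat.Agent.ES.M Fermat.Agent.ES1 Fermat.Agent.W1 Fermat.Agent.S24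
  Fermat.Agent.DEU

/-! ## Generic: degrees over `K(t)` inside an ambient field -/

section Tower

variable {K Ω : Type*} [Field K] [Field Ω] [Algebra K Ω]

/-- `[F : K(t)]`, computed inside `F`, is the relative degree inside the ambient field -/
theorem k7fgood_finrank_eq_relfinrank (F : IntermediateField K Ω) (t : Ω) (ht : t ∈ F) :
    Module.finrank K⟮(⟨t, ht⟩ : F)⟯ F =
      (adjoin K {t} : IntermediateField K Ω).relfinrank F := by
  have h1 := IntermediateField.finrank_comap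
    (A := (adjoin K {t} : IntermediateField K Ω)) F.val
  rw [IntermediateField.fieldRange_val] at h1
  have hcomap : (adjoin K {t} : IntermediateField K Ω).comap F.val = K⟮(⟨t, ht⟩ : F)⟯ := by
    have hlift : IntermediateField.lift (K⟮(⟨t, ht⟩ : F)⟯ : IntermediateField K F) =
        (adjoin K {t} : IntermediateField K Ω) := by
      rw [IntermediateField.lift_adjoin_simple]
    ext x
    have h2 : x ∈ (adjoin K {t} : IntermediateField K Ω).comap F.val ↔
        (x : Ω) ∈ (adjoin K {t} : IntermediateField K Ω) := Iff.rfl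
    rw [h2, ← hlift]
    exact IntermediateField.mem_lift x
  rw [hcomap] at h1
  exact h1

/-- the tower law for `K(t) ⊂ F₀ ⊂ F` -/
theorem k7fgood_finrank_tower (F₀ F : IntermediateField K Ω) (hle : F₀ ≤ F) (t : Ω)
    (ht : t ∈ F₀) :
    Module.finrank K⟮(⟨t, hle ht⟩ : F)⟯ F =
      (adjoin K {t} : IntermediateField K Ω).relfinrank F₀ * F₀.relfinrank F := by
  rw [k7fgood_finrank_eq_relfinrank]
  exact (IntermediateField.relfinrank_mul_relfinrank
    (adjoin_simple_le_iff.mpr ht) hle).symm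

/-- `m + 1 ≤ [F : F₀]` if `F / F₀` is finite and an element `s ∈ F` has `m + 1` pairwise
different conjugates under automorphisms of `F` over `F₀` -/
theorem k7fgood_le_relfinrank {F₀ F : IntermediateField K Ω} (hle : F₀ ≤ F)
    (hfin : F₀.relfinrank F ≠ 0) (s : Ω) (hs : s ∈ F)
    {m : ℕ} (S : Fin (m + 1) → Ω) (hSinj : Function.Injective S)
    (haut : ∀ i, ∃ σ : F ≃ₐ[K] F, (∀ f : F, (f : Ω) ∈ F₀ → σ f = f) ∧
      ((σ ⟨s, hs⟩ : F) : Ω) = S i) :
    m + 1 ≤ F₀.relfinrank F := by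
  classical
  have hF₀G : F₀ ≤ (F₀⟮s⟯).restrictScalars K := by
    intro x hx
    show x ∈ F₀⟮s⟯
    exact IntermediateField.algebraMap_mem F₀⟮s⟯ (⟨x, hx⟩ : F₀)
  have hGF : (F₀⟮s⟯).restrictScalars K ≤ F := by
    rw [IntermediateField.restrictScalars_adjoin, IntermediateField.adjoin_le_iff]
    rintro x (hx | hx)
    · exact hle hx
    · rw [Set.mem_singleton_iff] at hx
      rw [hx]; exact hs
  have hmul := IntermediateField.relfinrank_mul_relfinrank hF₀G hGF
  have hG0 : F₀.relfinrank ((F₀⟮s⟯).restrictScalars K) ≠ 0 :=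
    fun h0 => hfin (by rw [← hmul, h0, zero_mul])
  have hext : IntermediateField.extendScalars hF₀G = F₀⟮s⟯ := by
    apply IntermediateField.restrictScalars_injective K
    rw [IntermediateField.extendScalars_restrictScalars]
  have hfr : F₀.relfinrank ((F₀⟮s⟯).restrictScalars K) = Module.finrank F₀ F₀⟮s⟯ := by
    rw [IntermediateField.relfinrank_eq_finrank_of_le hF₀G, hext]
  have hint : IsIntegral F₀ s := by
    haveI : FiniteDimensional F₀ F₀⟮s⟯ :=
      FiniteDimensional.of_finrank_pos (by rw [← hfr]; exact Nat.pos_of_ne_zero hG0)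
    have h1 : IsIntegral F₀ (⟨s, mem_adjoin_simple_self F₀ s⟩ : F₀⟮s⟯) :=
      IsIntegral.of_finite F₀ _
    exact h1.map (F₀⟮s⟯).val
  have hle1 : F₀.relfinrank ((F₀⟮s⟯).restrictScalars K) ≤ F₀.relfinrank F :=
    Nat.le_of_dvd (Nat.pos_of_ne_zero hfin) ⟨_, hmul.symm⟩
  refine le_trans ?_ hle1
  rw [hfr, IntermediateField.adjoin.finrank hint]
  set Z : Finset Ω := Finset.univ.image S with hZ
  have hZcard : Z.card = m + 1 := by
    rw [hZ, Finset.card_image_of_injective _ hSinj]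
    simp
  have hne : (minpoly F₀ s).map (algebraMap F₀ Ω) ≠ 0 :=
    Polynomial.map_ne_zero (minpoly.ne_zero hint)
  have hsub : Z.val ⊆ ((minpoly F₀ s).map (algebraMap F₀ Ω)).roots := by
    intro x hx
    rw [Finset.mem_val, hZ, Finset.mem_image] at hx
    obtain ⟨i, -, rfl⟩ := hx
    rw [Polynomial.mem_roots hne, Polynomial.IsRoot, Polynomial.eval_map]
    obtain ⟨σ, hσ, hσS⟩ := haut i
    rw [← hσS]
    exact es1cu_root_conj σ hσ hle (minpoly F₀ s) ⟨s, hs⟩ (minpoly.aeval F₀ s)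
  have := Polynomial.card_le_degree_of_subset_roots hsub
  rw [hZcard, Polynomial.natDegree_map] at this
  exact this

end Tower

/-! ## The degrees over `K(j)` -/

section Bar

variable (L M : ℕ) [NeZero L] (H : Subgroup (ZMod M)ˣ)

/-- `[F₀ : ℚ̄(j)] = ψ(L)`, relative form -/
theorem k7fgood_relfinrank_bar_full :
    (adjoin Kb {jBar} : IntermediateField Kb (LaurentSeries Kb)).relfinrank
      (modularFunctionFieldBar L) = dedekindPsi L := by
  have hN : ((L : ℕ) : Kb) ≠ 0 := Nat.cast_ne_zero.2 (NeZero.ne L)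
  have h0 := Fermat.Agent.S28.relfinrank_full_eq_dedekindPsi Kb L hN
  rw [← Fermat.Agent.INJ.nf_bar_eq_fullC L] at h0
  rw [Fermat.Agent.ES.I2.i2e_jBar_eq]
  exact h0

/-- `[F_H : ℚ̄(j)] = ψ(L) · [F_H : F₀]` -/
theorem k7fgood_finrank_bar (t : ↥(fieldBar L M H)) (ht : (t : LaurentSeries Kb) = jBar) :
    Module.finrank Kb⟮t⟯ ↥(fieldBar L M H) =
      dedekindPsi L * (modularFunctionFieldBar L).relfinrank (fieldBar L M H) := by
  have h := k7fgood_finrank_tower (modularFunctionFieldBar L) (fieldBar L M H)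
    (dlh_bar_le_fieldBar L M H) jBar (jBar_mem L)
  have ht' : t = ⟨jBar, dlh_bar_le_fieldBar L M H (jBar_mem L)⟩ := Subtype.ext ht
  rw [ht', h, k7fgood_relfinrank_bar_full]

theorem k7fgood_transcendental_bar (t : ↥(fieldBar L M H))
    (ht : (t : LaurentSeries Kb) = jBar) : Transcendental Kb t := by
  intro halg
  apply transcendental_jBar
  have := (isAlgebraic_algHom_iff (fieldBar L M H).val (Subtype.val_injective)).mpr halg
  rw [← ht]
  exact this

end Bar

section FieldC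

variable (K : Type*) [Field K] (L M : ℕ) [NeZero L] (H : Subgroup (ZMod M)ˣ)

/-- `[F̄_H : k(j̄)] = ψ(L) · [F̄_H : F̄₀]` (Igusa's degree theorem at level `L`) -/
theorem k7fgood_finrank_fieldC (hL : (L : K) ≠ 0) (z : ↥(fieldC K L M H))
    (hz : (z : LaurentSeries K) = jqModC K) :
    Module.finrank K⟮z⟯ ↥(fieldC K L M H) =
      dedekindPsi L * (modularFunctionFieldFullC K L).relfinrank (fieldC K L M H) := by
  have h := k7fgood_finrank_tower (modularFunctionFieldFullC K L) (fieldC K L M H)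
    (full_le_fieldC K L M H) (jqModC K) (jqModC_mem_full K L)
  have hz' : z = ⟨jqModC K, full_le_fieldC K L M H (jqModC_mem_full K L)⟩ := Subtype.ext hz
  rw [hz', h, Fermat.Agent.S28.relfinrank_full_eq_dedekindPsi K L hL]

theorem k7fgood_transcendental_fieldC (z : ↥(fieldC K L M H))
    (hz : (z : LaurentSeries K) = jqModC K) : Transcendental K z := by
  intro halg
  apply Fermat.Agent.S28.kdj_transcendental_jqModC K
  have := (isAlgebraic_algHom_iff (fieldC K L M H).val (Subtype.val_injective)).mpr halg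
  rw [← hz]
  exact this

/-- `F̄_H / k(j̄)` is finite as soon as `F̄_H / F̄₀` is -/
theorem k7fgood_finiteDimensional_fieldC (hL : (L : K) ≠ 0) (z : ↥(fieldC K L M H))
    (hz : (z : LaurentSeries K) = jqModC K)
    (hfin : (modularFunctionFieldFullC K L).relfinrank (fieldC K L M H) ≠ 0) :
    FiniteDimensional K⟮z⟯ ↥(fieldC K L M H) :=
  FiniteDimensional.of_finrank_pos (by
    rw [k7fgood_finrank_fieldC K L M H hL z hz]
    exact Nat.pos_of_ne_zero (Nat.mul_ne_zero (Fermat.Agent.ES.I2.i2e_dedekindPsi_ne_zero L) hfin))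

/-- `F̄_H / k(j̄)` is separable (MacLane: `j̄ = q⁻¹ + …` is not a `p`-th power) -/
theorem k7fgood_isSeparable_fieldC (p : ℕ) [Fact p.Prime] [CharP K p] [PerfectRing K p]
    (hL : (L : K) ≠ 0) (z : ↥(fieldC K L M H)) (hz : (z : LaurentSeries K) = jqModC K)
    (hfin : (modularFunctionFieldFullC K L).relfinrank (fieldC K L M H) ≠ 0) :
    Algebra.IsSeparable K⟮z⟯ ↥(fieldC K L M H) := by
  haveI := k7fgood_finiteDimensional_fieldC K L M H hL z hz hfin
  haveI : Algebra.IsAlgebraic K⟮z⟯ ↥(fieldC K L M H) := Algebra.IsAlgebraic.of_finite _ _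
  exact resSep_isSeparable p (fieldC K L M H) z
    (fun w => by rw [hz]; exact deuGood_jqModC_ne_pow K p Fact.out w)

/-- finiteness of `F̄_H / k(j̄)` gives `[F̄_H : F̄₀] ≠ 0` -/
theorem k7fgood_relfinrank_ne_zero_of_finite (hL : (L : K) ≠ 0) (z : ↥(fieldC K L M H))
    (hz : (z : LaurentSeries K) = jqModC K) [FiniteDimensional K⟮z⟯ ↥(fieldC K L M H)] :
    (modularFunctionFieldFullC K L).relfinrank (fieldC K L M H) ≠ 0 := by
  intro h0
  have h1 := k7fgood_finrank_fieldC K L M H hL z hz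
  rw [h0, mul_zero] at h1
  exact (Module.finrank_pos (R := K⟮z⟯) (M := ↥(fieldC K L M H))).ne' h1

end FieldC

/-! ## `GoodFn j` -/

section Good

variable (L M : ℕ) [NeZero L] (H : Subgroup (ZMod M)ˣ) (A : ValuationSubring Kb)

/-- `[F_H : F₀] ≠ 0` -/
theorem k7fgood_relfinrank_bar_ne_zero (hML : M ∣ L) :
    (modularFunctionFieldBar L).relfinrank (fieldBar L M H) ≠ 0 := by
  obtain ⟨d, hd0, hd⟩ := stmtRelDegH_of_diamond stmtDiamondH M H
  rw [hd L (NeZero.ne L) hML]
  exact hd0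

/-- **FL-GOOD, core.**  If `red j = j̄`, `r_* (div u) = div ū` and
`[F_H : F₀] ≤ [F̄_H : F̄₀]`, then every pole of `j` reduces to a pole of `j̄`. -/
theorem k7fgood_good_of_le (p : ℕ) (hp : p.Prime) (hpL : ¬ p ∣ L) (hA : A.LiesOverPrime p)
    (hML : M ∣ L)
    (R : PRData Kb ↥(fieldBar L M H) (kA A) ↥(fieldC (kA A) L M H) A)
    (hrdiv : ∀ u : R.O, R.red u ≠ 0 → ∀ D : Divisor Kb ↥(fieldBar L M H),
      (∀ P, D P = P.ord (u : ↥(fieldBar L M H))) →
        ∀ Q : Place (kA A) ↥(fieldC (kA A) L M H), Finsupp.mapDomain R.r D Q = Q.ord (R.red u))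
    (t : ↥(fieldBar L M H)) (htj : (t : LaurentSeries Kb) = jBar) (ht : t ∈ R.O)
    (hred : ((R.red ⟨t, ht⟩ : ↥(fieldC (kA A) L M H)) : LaurentSeries (kA A)) = jqModC (kA A))
    (hdeg : (modularFunctionFieldBar L).relfinrank (fieldBar L M H) ≤
      (modularFunctionFieldFullC (kA A) L).relfinrank (fieldC (kA A) L M H)) :
    R.GoodFn t := by
  refine ⟨ht, fun P hP => ?_⟩
  have hLk : ((L : ℕ) : kA A) ≠ 0 := redF_natCast_ne_zero L A p hp hpL hA
  have hd0 := k7fgood_relfinrank_bar_ne_zero L M H hML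
  have hfin : (modularFunctionFieldFullC (kA A) L).relfinrank (fieldC (kA A) L M H) ≠ 0 := by
    intro h0
    rw [h0] at hdeg
    exact hd0 (Nat.le_zero.mp hdeg)
  haveI : IsAlgClosed (kA A) := Fermat.Agent.RED.isAlgClosed_residueField A
  haveI : Fact p.Prime := ⟨hp⟩
  haveI : CharP (kA A) p := kron_charP_residueField hp hA
  haveI := k7fgood_finiteDimensional_fieldC (kA A) L M H hLk (R.red ⟨t, ht⟩) hred hfin
  haveI := k7fgood_isSeparable_fieldC (kA A) L M H p hLk (R.red ⟨t, ht⟩) hred hfin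
  haveI : FiniteDimensional Kb⟮t⟯ ↥(fieldBar L M H) :=
    FiniteDimensional.of_finrank_pos (by
      rw [k7fgood_finrank_bar L M H t htj]
      exact Nat.pos_of_ne_zero
        (Nat.mul_ne_zero (Fermat.Agent.ES.I2.i2e_dedekindPsi_ne_zero L) hd0))
  have hne : R.red ⟨t, ht⟩ ≠ 0 := by
    intro h0
    exact k7fgood_transcendental_fieldC (kA A) L M H (R.red ⟨t, ht⟩) hred
      (h0 ▸ isAlgebraic_zero)
  refine deuGood_of_finrank_le R.r t (R.red ⟨t, ht⟩) ?_
    (k7fgood_transcendental_bar L M H t htj)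
    (k7fgood_transcendental_fieldC (kA A) L M H (R.red ⟨t, ht⟩) hred) ?_ P hP
  · intro D hD Q
    exact hrdiv ⟨t, ht⟩ hne D hD Q
  · rw [k7fgood_finrank_bar L M H t htj, k7fgood_finrank_fieldC (kA A) L M H hLk _ hred]
    exact Nat.mul_le_mul_left _ hdeg

end Good

/-! ## The ramification of `j̄` -/

section Ram

variable (k : Type) [Field k] [IsAlgClosed k] (p : ℕ) [Fact p.Prime] [CharP k p]
  (L M : ℕ) [NeZero L] (H : Subgroup (ZMod M)ˣ)

include p

/-- **FL-GOOD, ram, with the residue side as hypothesis** (`HasPrincipalDivisors`, residue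
fields `= k`: FL-RES). -/
theorem k7fgood_ram_of_pd (hL : (L : k) ≠ 0) [HasPrincipalDivisors k ↥(fieldC k L M H)]
    (hres : ∀ Q : Place k ↥(fieldC k L M H), Function.Surjective (algebraMap k Q.ResidueField))
    (z : ↥(fieldC k L M H)) (hz : (z : LaurentSeries k) = jqModC k)
    (hfin : (modularFunctionFieldFullC k L).relfinrank (fieldC k L M H) ≠ 0) :
    {Q : Place k ↥(fieldC k L M H) |
      ¬ ∃ c : k, Q.ord (z - algebraMap k ↥(fieldC k L M H) c) = 1}.Finite := by
  haveI : PerfectRing k p := inferInstance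
  haveI := k7fgood_finiteDimensional_fieldC k L M H hL z hz hfin
  haveI := k7fgood_isSeparable_fieldC k L M H p hL z hz hfin
  exact deuRam_finite_of_separable hres z

end Ram

section ResGen

variable {k : Type*} [Field k] (F : IntermediateField k (LaurentSeries k))

/-- a transcendental element of a subfield of `k((q))` is not constant as a Laurent series -/
theorem k7fgood_exists_coeff_ne_zero (y : F) (hy : Transcendental k y) :
    ∃ n : ℤ, n ≠ 0 ∧ (y : LaurentSeries k).coeff n ≠ 0 := by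
  by_contra hcon
  push Not at hcon
  apply hy
  have h1 : (y : LaurentSeries k) = HahnSeries.C ((y : LaurentSeries k).coeff 0) := by
    ext n
    by_cases hn : n = 0
    · subst hn; simp
    · rw [hcon n hn]
      simp [HahnSeries.C_apply, HahnSeries.coeff_single_of_ne hn]
  have h2 : y = algebraMap k ↥F ((y : LaurentSeries k).coeff 0) := by
    apply Subtype.ext
    have h3 : ((algebraMap k ↥F ((y : LaurentSeries k).coeff 0) : ↥F) : LaurentSeries k) =
          algebraMap k (LaurentSeries k) ((y : LaurentSeries k).coeff 0) := rfl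
    rw [h3, LaurentSeries.algebraMap_apply]
    exact h1
  rw [h2]
  exact isAlgebraic_algebraMap _

variable (p : ℕ) [Fact p.Prime] [CharP k p] [PerfectRing k p]

include p

/-- a subfield of `k((q))` that is separable over `k(x)`, `x` not a `p`-th power, is closed
under `p ^ e`-th roots -/
theorem k7fgood_root_mem (x : F) (hx : ∀ w : LaurentSeries k, w ^ p ≠ (x : LaurentSeries k))
    [Algebra.IsSeparable k⟮x⟯ F] (e : ℕ) (w : LaurentSeries k) (hw : w ^ (p ^ e) ∈ F) :
    w ∈ F := by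
  induction e generalizing w with
  | zero => simpa using hw
  | succ e ih =>
    refine ih w ?_
    refine resRoot_mem p F x hx (w ^ (p ^ e)) ?_
    rw [← pow_mul, ← pow_succ]
    exact hw

/-- every transcendental element is a `p`-power of a separating element -/
theorem k7fgood_hroot (x : F) (hx : ∀ w : LaurentSeries k, w ^ p ≠ (x : LaurentSeries k))
    [Algebra.IsSeparable k⟮x⟯ F] (y : F) (hy : Transcendental k y) :
    ∃ (e : ℕ) (z : F), z ^ (p ^ e) = y ∧
      ∀ w : LaurentSeries k, w ^ p ≠ (z : LaurentSeries k) := by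
  obtain ⟨e, w, hw, hwp⟩ := resLaurent_exists_root p (y : LaurentSeries k)
    (k7fgood_exists_coeff_ne_zero F y hy)
  have hwF : w ∈ F := k7fgood_root_mem F p x hx e w (by rw [hw]; exact y.2)
  exact ⟨e, ⟨w, hwF⟩, Subtype.ext hw, hwp⟩

/-- principal divisors for a subfield of `k((q))`, finite over `k(x)`, `x` not a `p`-th power -/
theorem k7fgood_hasPrincipalDivisors_gen [IsAlgClosed k] (x : F)
    (hx : ∀ w : LaurentSeries k, w ^ p ≠ (x : LaurentSeries k)) (hxt : Transcendental k x)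
    [FiniteDimensional k⟮x⟯ F] : HasPrincipalDivisors k F := by
  haveI : Algebra.IsAlgebraic k⟮x⟯ F := Algebra.IsAlgebraic.of_finite _ _
  haveI : Algebra.IsSeparable k⟮x⟯ F := resSep_isSeparable p F x hx
  exact resPD_hasPrincipalDivisors p F x hxt (k7fgood_hroot F p x hx)

end ResGen

section Ram2

variable (k : Type) [Field k] [IsAlgClosed k] (L M : ℕ) [NeZero L] (H : Subgroup (ZMod M)ˣ)

/-- the places of the residue side have residue field `k` as soon as `F̄_H / F̄₀` is finite -/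
theorem k7fgood_residue_bijective (hL : (L : k) ≠ 0)
    (hfin : (modularFunctionFieldFullC k L).relfinrank (fieldC k L M H) ≠ 0)
    (v : Place k ↥(fieldC k L M H)) : Function.Bijective (algebraMap k v.ResidueField) := by
  have hz : ((⟨jqModC k, full_le_fieldC k L M H (jqModC_mem_full k L)⟩ :
      ↥(fieldC k L M H)) : LaurentSeries k) = jqModC k := rfl
  haveI := k7fgood_finiteDimensional_fieldC k L M H hL _ hz hfin
  exact Fermat.Agent.S24.algebraMap_residueField_bijective _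
    (k7fgood_transcendental_fieldC k L M H _ hz) (Algebra.IsAlgebraic.of_finite _ _) v

variable (p : ℕ) [Fact p.Prime] [CharP k p]

include p

/-- the residue side has principal divisors as soon as `F̄_H / F̄₀` is finite -/
theorem k7fgood_hasPrincipalDivisors (hL : (L : k) ≠ 0)
    (hfin : (modularFunctionFieldFullC k L).relfinrank (fieldC k L M H) ≠ 0) :
    HasPrincipalDivisors k ↥(fieldC k L M H) := by
  haveI : PerfectRing k p := inferInstance
  have hz : ((⟨jqModC k, full_le_fieldC k L M H (jqModC_mem_full k L)⟩ :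
      ↥(fieldC k L M H)) : LaurentSeries k) = jqModC k := rfl
  haveI := k7fgood_finiteDimensional_fieldC k L M H hL _ hz hfin
  exact k7fgood_hasPrincipalDivisors_gen (fieldC k L M H) p _
    (fun w => by rw [hz]; exact deuGood_jqModC_ne_pow k p Fact.out w)
    (k7fgood_transcendental_fieldC k L M H _ hz)

/-- **FL-GOOD, ram.**  `j̄` is unramified outside a finite set of places of `F̄_H`, as soon as
`F̄_H / F̄₀` is finite. -/
theorem k7fgood_ram_of_ne (hL : (L : k) ≠ 0)
    (z : ↥(fieldC k L M H)) (hz : (z : LaurentSeries k) = jqModC k)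
    (hfin : (modularFunctionFieldFullC k L).relfinrank (fieldC k L M H) ≠ 0) :
    {Q : Place k ↥(fieldC k L M H) |
      ¬ ∃ c : k, Q.ord (z - algebraMap k ↥(fieldC k L M H) c) = 1}.Finite := by
  haveI := k7fgood_hasPrincipalDivisors k L M H p hL hfin
  exact k7fgood_ram_of_pd k p L M H hL
    (fun Q => (k7fgood_residue_bijective k L M H hL hfin Q).2) z hz hfin

end Ram2

/-! ## The degree inequality from the reduced diamonds -/

section Deg

variable (L M : ℕ) (H : Subgroup (ZMod M)ˣ)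

/-- `[F_H : F₀] = #((ℤ/M)ˣ/±H)` -/
theorem k7fgood_relfinrank_bar_eq {m : ℕ} (a : Fin (m + 1) → (ZMod M)ˣ) (hL : L ≠ 0)
    (hML : M ∣ L) (ha : IsRepFam H a) :
    (modularFunctionFieldBar L).relfinrank (fieldBar L M H) = m + 1 := by
  rw [Fermat.Agent.INJ.nf_bar_eq_fullC, es1f_fieldBar_eq]
  haveI : Algebra.IsAlgebraic ℚ Fermat.Agent.INJ.NfQb := by
    have h := AlgebraicClosure.isAlgebraic ℚ
    convert h
    · rfl
    · exact Subsingleton.elim _ _
  exact es1cu_relfinrank stmtDiamondH Fermat.Agent.INJ.NfQb L M H a hL hML ha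

/-- `#((ℤ/M)ˣ/±H) ≤ [F̄_H : F̄₀]` over any field, from diamond automorphisms of `F̄_H / F̄₀` and
the finiteness of `F̄_H / F̄₀` -/
theorem k7fgood_le_relfinrank_fieldC (k : Type*) [Field k] {m : ℕ}
    (a : Fin (m + 1) → (ZMod M)ˣ) (hL : L ≠ 0) (hML : M ∣ L) (ha : IsRepFam H a)
    (hfin : (modularFunctionFieldFullC k L).relfinrank (fieldC k L M H) ≠ 0)
    (haut : ∀ c : (ZMod M)ˣ, ∃ δb : fieldC k L M H ≃ₐ[k] fieldC k L M H,
      (∀ f : fieldC k L M H,
        (f : LaurentSeries k) ∈ modularFunctionFieldFullC k L → δb f = f) ∧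
      (∀ (e : ℕ) [NeZero e] (he : e * M ∣ L) (b : (ZMod M)ˣ),
        ((δb ⟨qExpand k e (sS k M H b), qExpand_sS_mem k L M H he b⟩ :
          fieldC k L M H) : LaurentSeries k) = qExpand k e (sS k M H (b * c)))) :
    m + 1 ≤ (modularFunctionFieldFullC k L).relfinrank (fieldC k L M H) := by
  have hM0 : M ≠ 0 := fun h => hL (by rw [h] at hML; exact Nat.eq_zero_of_zero_dvd hML)
  have h1 : (1 : ℕ) * M ∣ L := by rwa [one_mul]
  have hq1 : ∀ c : (ZMod M)ˣ, qExpand k 1 (sS k M H c) = sS k M H c :=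
    fun c => qExpand_one_apply _
  have hmem : ∀ c : (ZMod M)ˣ, sS k M H c ∈ fieldC k L M H := by
    intro c
    have := qExpand_sS_mem k L M H (e := 1) h1 c
    rwa [qExpand_one_apply] at this
  refine k7fgood_le_relfinrank (full_le_fieldC k L M H) hfin (sS k M H 1) (hmem 1)
    (fun i => sS k M H (a i)) (es1cu_sS_injective k hM0 ha) fun i => ?_
  obtain ⟨σ, hσ, hσS⟩ := haut (a i)
  refine ⟨σ, hσ, ?_⟩
  have h2 := hσS 1 h1 1
  have h3 : (⟨sS k M H 1, hmem 1⟩ : fieldC k L M H)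
      = ⟨qExpand k 1 (sS k M H 1), qExpand_sS_mem k L M H h1 1⟩ := by
    apply Subtype.ext
    show sS k M H 1 = qExpand k 1 (sS k M H 1)
    rw [hq1]
  rw [h3, h2, hq1, one_mul]

/-- **the degree inequality** `[F_H : F₀] ≤ [F̄_H : F̄₀]` from FL-DIAM (`StmtDiamInt`) and the
finiteness of `F̄_H / F̄₀`. -/
theorem k7fgood_deg_of_diamInt (hDI : StmtDiamInt) (p : ℕ) (hlev : K7FLevel L M H p)
    (A : ValuationSubring Kb) (hA : A.LiesOverPrime p)
    (hfin : (modularFunctionFieldFullC (kA A) L).relfinrank (fieldC (kA A) L M H) ≠ 0) :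
    (modularFunctionFieldBar L).relfinrank (fieldBar L M H) ≤
      (modularFunctionFieldFullC (kA A) L).relfinrank (fieldC (kA A) L M H) := by
  have hL : L ≠ 0 := by have := hlev.hL; omega
  have hML := hlev.hML
  have hM0 : M ≠ 0 := fun h => hL (by rw [h] at hML; exact Nat.eq_zero_of_zero_dvd hML)
  obtain ⟨m, a, ha⟩ := exists_isRepFam hM0 H
  rw [k7fgood_relfinrank_bar_eq L M H a hL hML ha]
  refine k7fgood_le_relfinrank_fieldC L M H (kA A) a hL hML ha hfin fun c => ?_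
  obtain ⟨δ, hδ⟩ := k7f_diamondBar L M H hL hML c
  obtain ⟨δb, h1, h2, -⟩ := hDI L M H p hlev A hA c δ hδ
  exact ⟨δb, h1, h2⟩

end Deg

/-! ## The Gauss reduction of `j` -/

section GaussJ

variable (A : ValuationSubring Kb)

/-- the Gauss reduction of `j` is `j̄`, in any subfield of `ℚ̄((q))` containing `j` -/
theorem k7fgood_rel_j (F : IntermediateField Kb (LaurentSeries Kb)) (t : F)
    (htj : (t : LaurentSeries Kb) = jBar) : k7fgRel A F t (jqModC (kA A)) := by
  have hY : kronIncl A (deuRamInstJ A) ∈ F := by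
    rw [deuRamInst_kronIncl_J, ← htj]
    exact t.2
  have h := k7fgRel_of_int A F (deuRamInstJ A) hY
  rw [deuRamInst_kronRed_J] at h
  have ht : t = ⟨kronIncl A (deuRamInstJ A), hY⟩ :=
    Subtype.ext (htj.trans (deuRamInst_kronIncl_J A).symm)
  rw [ht]
  exact h

variable (L M : ℕ) (H : Subgroup (ZMod M)ˣ)

/-- `j` lies in the Gauss valuation ring of `F_H` -/
theorem k7fgood_mem_k7fO (t : ↥(fieldBar L M H)) (htj : (t : LaurentSeries Kb) = jBar) :
    t ∈ k7fO L M H A :=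
  (mem_k7fO L M H A).mpr ⟨_, k7fgood_rel_j A (fieldBar L M H) t htj⟩

/-- `red j = j̄` for the Gauss reduction of `F_H` -/
theorem k7fgood_k7fRed (hRedF : K7fRedF L M H A) (t : ↥(fieldBar L M H))
    (htj : (t : LaurentSeries Kb) = jBar) (ht : t ∈ k7fO L M H A) :
    ((k7fRed L M H A hRedF ⟨t, ht⟩ : ↥(fieldC (kA A) L M H)) : LaurentSeries (kA A)) =
      jqModC (kA A) := by
  obtain ⟨h, hh⟩ := (k7fRed_iff L M H A hRedF t _).mp (k7fgood_rel_j A (fieldBar L M H) t htj)
  exact hh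

/-- `red j = j̄` for every reduction map whose graph is contained in the Gauss relation -/
theorem k7fgood_red_of_rel
    (R : PRData Kb ↥(fieldBar L M H) (kA A) ↥(fieldC (kA A) L M H) A)
    (hR : ∀ (x : ↥(fieldBar L M H)) (hx : x ∈ R.O), k7fgRel A (fieldBar L M H) x
      ((R.red ⟨x, hx⟩ : ↥(fieldC (kA A) L M H)) : LaurentSeries (kA A)))
    (t : ↥(fieldBar L M H)) (htj : (t : LaurentSeries Kb) = jBar) (ht : t ∈ R.O) :
    ((R.red ⟨t, ht⟩ : ↥(fieldC (kA A) L M H)) : LaurentSeries (kA A)) = jqModC (kA A) :=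
  k7fgRel_unique A (fieldBar L M H) (hR t ht) (k7fgood_rel_j A (fieldBar L M H) t htj)

end GaussJ

/-! ## The two fields of `ModPRH` -/

section Final

variable (L M : ℕ) (H : Subgroup (ZMod M)ˣ) (p : ℕ) (A : ValuationSubring Kb)

/-- **FL-GOOD: the field `good` of `ModPRH`.** -/
theorem k7fgood_good (hlev : K7FLevel L M H p) (hA : A.LiesOverPrime p)
    (R : PRData Kb ↥(fieldBar L M H) (kA A) ↥(fieldC (kA A) L M H) A) (hR : R.IsPR)
    (t : ↥(fieldBar L M H)) (htj : (t : LaurentSeries Kb) = jBar) (ht : t ∈ R.O)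
    (hred : ((R.red ⟨t, ht⟩ : ↥(fieldC (kA A) L M H)) : LaurentSeries (kA A)) = jqModC (kA A))
    (hdeg : (modularFunctionFieldBar L).relfinrank (fieldBar L M H) ≤
      (modularFunctionFieldFullC (kA A) L).relfinrank (fieldC (kA A) L M H)) :
    R.GoodFn t := by
  haveI : NeZero L := ⟨by have := hlev.hL; omega⟩
  exact k7fgood_good_of_le L M H A p hlev.hp hlev.hpL hA hlev.hML R hR.r_div t htj ht hred hdeg

/-- **FL-GOOD: the field `ram` of `ModPRH`.** -/
theorem k7fgood_ram (hlev : K7FLevel L M H p) (hA : A.LiesOverPrime p)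
    (R : PRData Kb ↥(fieldBar L M H) (kA A) ↥(fieldC (kA A) L M H) A)
    (t : ↥(fieldBar L M H))
    (hred : ∀ ht : t ∈ R.O,
      ((R.red ⟨t, ht⟩ : ↥(fieldC (kA A) L M H)) : LaurentSeries (kA A)) = jqModC (kA A))
    (hfin : (modularFunctionFieldFullC (kA A) L).relfinrank (fieldC (kA A) L M H) ≠ 0) :
    ∀ ht : t ∈ R.O,
      {Q : Place (kA A) ↥(fieldC (kA A) L M H) |
        ¬ ∃ c : kA A, Q.ord (R.red ⟨t, ht⟩ - algebraMap _ _ c) = 1}.Finite := by
  intro ht
  haveI : NeZero L := ⟨by have := hlev.hL; omega⟩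
  have hLk : ((L : ℕ) : kA A) ≠ 0 := redF_natCast_ne_zero L A p hlev.hp hlev.hpL hA
  haveI : IsAlgClosed (kA A) := Fermat.Agent.RED.isAlgClosed_residueField A
  haveI : Fact p.Prime := ⟨hlev.hp⟩
  haveI : CharP (kA A) p := kron_charP_residueField hlev.hp hA
  exact k7fgood_ram_of_ne (kA A) L M H p hLk (R.red ⟨t, ht⟩) (hred ht) hfin

/-- the degree inequality implies the finiteness of `F̄_H / F̄₀` -/
theorem k7fgood_ne_zero_of_deg (hL : L ≠ 0) (hML : M ∣ L)
    (hdeg : (modularFunctionFieldBar L).relfinrank (fieldBar L M H) ≤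
      (modularFunctionFieldFullC (kA A) L).relfinrank (fieldC (kA A) L M H)) :
    (modularFunctionFieldFullC (kA A) L).relfinrank (fieldC (kA A) L M H) ≠ 0 := by
  haveI : NeZero L := ⟨hL⟩
  intro h0
  rw [h0] at hdeg
  exact k7fgood_relfinrank_bar_ne_zero L M H hML (Nat.le_zero.mp hdeg)

/-- **FL-GOOD, both fields**, for a reduction package whose reduction map is the Gauss
reduction, from FL-DIAM (`StmtDiamInt`) and the finiteness of `F̄_H / F̄₀`. -/
theorem k7fgood_good_ram (hDI : StmtDiamInt) (hlev : K7FLevel L M H p)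
    (hA : A.LiesOverPrime p)
    (R : PRData Kb ↥(fieldBar L M H) (kA A) ↥(fieldC (kA A) L M H) A) (hR : R.IsPR)
    (hRrel : ∀ (x : ↥(fieldBar L M H)) (hx : x ∈ R.O), k7fgRel A (fieldBar L M H) x
      ((R.red ⟨x, hx⟩ : ↥(fieldC (kA A) L M H)) : LaurentSeries (kA A)))
    (t : ↥(fieldBar L M H)) (htj : (t : LaurentSeries Kb) = jBar) (ht : t ∈ R.O)
    (hfin : (modularFunctionFieldFullC (kA A) L).relfinrank (fieldC (kA A) L M H) ≠ 0) :
    R.GoodFn t ∧ ∀ ht : t ∈ R.O,
      {Q : Place (kA A) ↥(fieldC (kA A) L M H) |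
        ¬ ∃ c : kA A, Q.ord (R.red ⟨t, ht⟩ - algebraMap _ _ c) = 1}.Finite :=
  ⟨k7fgood_good L M H p A hlev hA R hR t htj ht
      (k7fgood_red_of_rel A L M H R hRrel t htj ht)
      (k7fgood_deg_of_diamInt L M H hDI p hlev A hA hfin),
    k7fgood_ram L M H p A hlev hA R t
      (fun ht' => k7fgood_red_of_rel A L M H R hRrel t htj ht') hfin⟩

end Final

end Fermat.Agent.RT.K7F

end
end ZBRT_053_12

/-! ### bundled: `Fermat.Agent.RT.K7F.GoodFin` -/
section ZBRT_053_13

/-!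
# RT-K7F / FL-GOOD, final form (with FL-RES: `F̄_H / k(j̄)` is finite)

* `k7fgood_hfin` : `[F̄_H : F̄₀] ≠ 0` (from `k7fres_finiteDimensional`, FL-RES);
* `k7fgood_ram_final` : **the field `ram` of `ModPRH`**, unconditional (any `R`, `t` with
  `red t = j̄`);
* `k7fgood_good_final` : **the field `good` of `ModPRH`** from the degree inequality
  `[F_H : F₀] ≤ [F̄_H : F̄₀]`;
* `k7fgood_good_ram_final` : both fields from FL-DIAM (`StmtDiamInt`), for a reduction package
  whose reduction map is the Gauss reduction;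
* `k7fgood_good_ram_k7f` : the same for `R.O = k7fO`, `R.red = k7fRed` in the form
  `hO : ∀ x, x ∈ R.O ↔ x ∈ k7fO L M H A`, `hred : R.red x = k7fRed ⟨x, _⟩`.
-/

set_option autoImplicit false
set_option synthInstance.maxHeartbeats 400000
set_option maxHeartbeats 1600000
set_option linter.style.haveILetI false
set_option linter.unusedSectionVars false

noncomputable section

namespace Fermat.Agent.RT.K7F

open AlgebraicCurve Module IntermediateField ModularCurve
open Fermat.Agent.ES Fermat.Agent.ES.M Fermat.Agent.ES1 Fermat.Agent.W1 Fermat.Agent.S24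
  Fermat.Agent.DEU

/-- `F̄_H / F̄₀` is finite, in every characteristic `p ∤ L` -/
theorem k7fgood_hfin (k : Type*) [Field k] (p : ℕ) [Fact p.Prime] [CharP k p] (L M : ℕ)
    (H : Subgroup (ZMod M)ˣ) (hL : L ≠ 0) (hLk : (L : k) ≠ 0) (hML : M ∣ L) :
    (modularFunctionFieldFullC k L).relfinrank (fieldC k L M H) ≠ 0 := by
  haveI : NeZero L := ⟨hL⟩
  haveI := k7fres_finiteDimensional k p L M H hL hML (k7fresJ k L M H) rfl
  exact k7fgood_relfinrank_ne_zero_of_finite k L M H hLk (k7fresJ k L M H) rfl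

section Final

variable (L M : ℕ) (H : Subgroup (ZMod M)ˣ) (p : ℕ) (A : ValuationSubring Kb)

/-- `F̄_H / F̄₀` is finite, at the levels of K7-FLAT -/
theorem k7fgood_hfin_level (hlev : K7FLevel L M H p) (hA : A.LiesOverPrime p) :
    (modularFunctionFieldFullC (kA A) L).relfinrank (fieldC (kA A) L M H) ≠ 0 := by
  have hL : L ≠ 0 := by have := hlev.hL; omega
  have hLk : ((L : ℕ) : kA A) ≠ 0 := redF_natCast_ne_zero L A p hlev.hp hlev.hpL hA
  haveI : Fact p.Prime := ⟨hlev.hp⟩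
  haveI : CharP (kA A) p := kron_charP_residueField hlev.hp hA
  exact k7fgood_hfin (kA A) p L M H hL hLk hlev.hML

/-- **FL-GOOD: the field `ram` of `ModPRH`** (unconditional). -/
theorem k7fgood_ram_final (hlev : K7FLevel L M H p) (hA : A.LiesOverPrime p)
    (R : PRData Kb ↥(fieldBar L M H) (kA A) ↥(fieldC (kA A) L M H) A)
    (t : ↥(fieldBar L M H))
    (hred : ∀ ht : t ∈ R.O,
      ((R.red ⟨t, ht⟩ : ↥(fieldC (kA A) L M H)) : LaurentSeries (kA A)) = jqModC (kA A)) :
    ∀ ht : t ∈ R.O,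
      {Q : Place (kA A) ↥(fieldC (kA A) L M H) |
        ¬ ∃ c : kA A, Q.ord (R.red ⟨t, ht⟩ - algebraMap _ _ c) = 1}.Finite :=
  k7fgood_ram L M H p A hlev hA R t hred (k7fgood_hfin_level L M H p A hlev hA)

/-- **FL-GOOD: the field `good` of `ModPRH`** from the degree inequality. -/
theorem k7fgood_good_final (hlev : K7FLevel L M H p) (hA : A.LiesOverPrime p)
    (R : PRData Kb ↥(fieldBar L M H) (kA A) ↥(fieldC (kA A) L M H) A) (hR : R.IsPR)
    (t : ↥(fieldBar L M H)) (htj : (t : LaurentSeries Kb) = jBar) (ht : t ∈ R.O)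
    (hred : ((R.red ⟨t, ht⟩ : ↥(fieldC (kA A) L M H)) : LaurentSeries (kA A)) = jqModC (kA A))
    (hdeg : (modularFunctionFieldBar L).relfinrank (fieldBar L M H) ≤
      (modularFunctionFieldFullC (kA A) L).relfinrank (fieldC (kA A) L M H)) :
    R.GoodFn t :=
  k7fgood_good L M H p A hlev hA R hR t htj ht hred hdeg

/-- the degree inequality from FL-DIAM -/
theorem k7fgood_deg_final (hDI : StmtDiamInt) (hlev : K7FLevel L M H p)
    (hA : A.LiesOverPrime p) :
    (modularFunctionFieldBar L).relfinrank (fieldBar L M H) ≤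
      (modularFunctionFieldFullC (kA A) L).relfinrank (fieldC (kA A) L M H) :=
  k7fgood_deg_of_diamInt L M H hDI p hlev A hA (k7fgood_hfin_level L M H p A hlev hA)

/-- **FL-GOOD, both fields**, from FL-DIAM, for a reduction package whose reduction map is the
Gauss reduction. -/
theorem k7fgood_good_ram_final (hDI : StmtDiamInt) (hlev : K7FLevel L M H p)
    (hA : A.LiesOverPrime p)
    (R : PRData Kb ↥(fieldBar L M H) (kA A) ↥(fieldC (kA A) L M H) A) (hR : R.IsPR)
    (hRrel : ∀ (x : ↥(fieldBar L M H)) (hx : x ∈ R.O), k7fgRel A (fieldBar L M H) x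
      ((R.red ⟨x, hx⟩ : ↥(fieldC (kA A) L M H)) : LaurentSeries (kA A)))
    (t : ↥(fieldBar L M H)) (htj : (t : LaurentSeries Kb) = jBar) (ht : t ∈ R.O) :
    R.GoodFn t ∧ ∀ ht : t ∈ R.O,
      {Q : Place (kA A) ↥(fieldC (kA A) L M H) |
        ¬ ∃ c : kA A, Q.ord (R.red ⟨t, ht⟩ - algebraMap _ _ c) = 1}.Finite :=
  k7fgood_good_ram L M H p A hDI hlev hA R hR hRrel t htj ht
    (k7fgood_hfin_level L M H p A hlev hA)

/-- **FL-GOOD, both fields, for the Gauss package** `R.O = k7fO`, `R.red = k7fRed`. -/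
theorem k7fgood_good_ram_k7f (hDI : StmtDiamInt) (hlev : K7FLevel L M H p)
    (hA : A.LiesOverPrime p) (hRedF : K7fRedF L M H A)
    (R : PRData Kb ↥(fieldBar L M H) (kA A) ↥(fieldC (kA A) L M H) A) (hR : R.IsPR)
    (hO : ∀ x : ↥(fieldBar L M H), x ∈ R.O ↔ x ∈ k7fO L M H A)
    (hred : ∀ (x : ↥(fieldBar L M H)) (hx : x ∈ R.O),
      R.red ⟨x, hx⟩ = k7fRed L M H A hRedF ⟨x, (hO x).mp hx⟩)
    (t : ↥(fieldBar L M H)) (htj : (t : LaurentSeries Kb) = jBar) :
    R.GoodFn t ∧ ∀ ht : t ∈ R.O,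
      {Q : Place (kA A) ↥(fieldC (kA A) L M H) |
        ¬ ∃ c : kA A, Q.ord (R.red ⟨t, ht⟩ - algebraMap _ _ c) = 1}.Finite := by
  refine k7fgood_good_ram_final L M H p A hDI hlev hA R hR (fun x hx => ?_) t htj
    ((hO t).mpr (k7fgood_mem_k7fO A L M H t htj))
  rw [hred x hx]
  exact (k7fRed_iff L M H A hRedF x _).mpr ⟨(hO x).mp hx, rfl⟩

end Final

end Fermat.Agent.RT.K7F

end
end ZBRT_053_13

/-! ### bundled: `Fermat.Agent.RT.K7F.GoodDeg` -/
section ZBRT_053_14

/-!
# RT-K7F / DEG — `[F_H : F₀] ≤ [F̄_H : F̄₀]` ("Igusa for `Γ_H`", degree form)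

`A ⊂ ℚ̄` a valuation ring over `p`, `k = kA A`, `K7FLevel L M H p`, `S = S_{M,H,1}`,
`m + 1 = #((ℤ/M)ˣ/±H)`.

* `k7fgdeg_le_relfinrank_of_indep` (generic): `m + 1 ≤ [F : F₀]` if `F / F₀` is finite and
  `1, s, …, s^m` are linearly independent over `F₀`;
* `k7fgdeg_indep_bar` : `1, S, …, S^m` are linearly independent over `F₀` (characteristic `0`);
* `k7fgdeg_lift` : every element of `F̄₀` is `Ȳ₁ / Ȳ₂` with `Y₁, Y₂ ∈ F₀ ∩ A((q))`;
* `k7fgdeg_indep_res` : **`1, S̄, …, S̄^m` are linearly independent over `F̄₀`** (from helper40's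
  integral representation `k7fd_rep_bar`);
* `k7fgdeg_le` : **`[F_H : F₀] ≤ [F̄_H : F̄₀]`**;
* `k7fgdeg_good_ram`, `k7fgdeg_good_ram_k7f` : **FL-GOOD, both fields, unconditional**.
-/

set_option autoImplicit false
set_option synthInstance.maxHeartbeats 400000
set_option maxHeartbeats 1600000
set_option linter.style.haveILetI false
set_option linter.unusedSectionVars false

noncomputable section

namespace Fermat.Agent.RT.K7F

open AlgebraicCurve Module IntermediateField ModularCurve Polynomial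
open Fermat.Agent.ES Fermat.Agent.ES.M Fermat.Agent.ES1 Fermat.Agent.W1 Fermat.Agent.S24
  Fermat.Agent.DEU Fermat.Agent.INJ

/-! ## Generic -/

section Generic

variable {K Ω : Type*} [Field K] [Field Ω] [Algebra K Ω]

/-- a polynomial of degree `≤ m` as a sum of `m + 1` terms -/
theorem k7fgdeg_eval₂_eq_sum {F₀ : IntermediateField K Ω} (P : Polynomial F₀) (s : Ω) (m : ℕ)
    (hP : P.natDegree ≤ m) :
    Polynomial.eval₂ (algebraMap F₀ Ω) s P =
      ∑ l : Fin (m + 1), ((P.coeff (l : ℕ) : F₀) : Ω) * s ^ (l : ℕ) := by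
  rw [Polynomial.eval₂_eq_sum_range' (algebraMap F₀ Ω) (Nat.lt_succ_of_le hP) s,
    Finset.sum_range]
  rfl

/-- the powers `1, s, …, s^m` are linearly independent over `F₀` if the minimal polynomial of
`s` has degree `> m` -/
theorem k7fgdeg_indep_of_natDegree {F₀ : IntermediateField K Ω} (s : Ω) (m : ℕ)
    (_hint : IsIntegral F₀ s) (hdeg : m + 1 ≤ (minpoly F₀ s).natDegree)
    (β : Fin (m + 1) → Ω) (hβ : ∀ l, β l ∈ F₀) (hrel : ∑ l, β l * s ^ (l : ℕ) = 0) :
    ∀ l, β l = 0 := by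
  classical
  set P : Polynomial F₀ :=
    ∑ l : Fin (m + 1), Polynomial.C (⟨β l, hβ l⟩ : F₀) * Polynomial.X ^ (l : ℕ) with hP
  have hPdeg : P.natDegree ≤ m := by
    rw [hP]
    refine Polynomial.natDegree_sum_le_of_forall_le _ _ fun l _ => ?_
    refine (Polynomial.natDegree_C_mul_X_pow_le _ _).trans ?_
    exact Nat.lt_succ_iff.mp l.2
  have hPcoeff : ∀ l : Fin (m + 1), P.coeff (l : ℕ) = ⟨β l, hβ l⟩ := by
    intro l
    rw [hP, Polynomial.finsetSum_coeff]
    rw [Finset.sum_eq_single l]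
    · rw [Polynomial.coeff_C_mul_X_pow, if_pos rfl]
    · intro l' _ hne
      rw [Polynomial.coeff_C_mul_X_pow, if_neg]
      intro h
      exact hne (Fin.ext h.symm)
    · intro h
      exact absurd (Finset.mem_univ l) h
  have hroot : Polynomial.aeval s P = 0 := by
    rw [Polynomial.aeval_def, k7fgdeg_eval₂_eq_sum P s m hPdeg, ← hrel]
    refine Finset.sum_congr rfl fun l _ => ?_
    rw [hPcoeff l]
  have hP0 : P = 0 := by
    by_contra hne
    have h1 := minpoly.degree_le_of_ne_zero F₀ s hne hroot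
    have h2 := Polynomial.natDegree_le_natDegree h1
    omega
  intro l
  have h2 := hPcoeff l
  rw [hP0, Polynomial.coeff_zero] at h2
  exact (congrArg Subtype.val h2).symm

/-- `m + 1 ≤ [F : F₀]` if `F / F₀` is finite and the powers `1, s, …, s^m` of an element
`s ∈ F` are linearly independent over `F₀` -/
theorem k7fgdeg_le_relfinrank_of_indep {F₀ F : IntermediateField K Ω} (hle : F₀ ≤ F)
    (hfin : F₀.relfinrank F ≠ 0) (s : Ω) (hs : s ∈ F) (m : ℕ)
    (hind : ∀ β : Fin (m + 1) → Ω, (∀ l, β l ∈ F₀) → ∑ l, β l * s ^ (l : ℕ) = 0 →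
      ∀ l, β l = 0) :
    m + 1 ≤ F₀.relfinrank F := by
  classical
  have hF₀G : F₀ ≤ (F₀⟮s⟯).restrictScalars K := by
    intro x hx
    show x ∈ F₀⟮s⟯
    exact IntermediateField.algebraMap_mem F₀⟮s⟯ (⟨x, hx⟩ : F₀)
  have hGF : (F₀⟮s⟯).restrictScalars K ≤ F := by
    rw [IntermediateField.restrictScalars_adjoin, IntermediateField.adjoin_le_iff]
    rintro x (hx | hx)
    · exact hle hx
    · rw [Set.mem_singleton_iff] at hx
      rw [hx]; exact hs
  have hmul := IntermediateField.relfinrank_mul_relfinrank hF₀G hGF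
  have hG0 : F₀.relfinrank ((F₀⟮s⟯).restrictScalars K) ≠ 0 :=
    fun h0 => hfin (by rw [← hmul, h0, zero_mul])
  have hext : IntermediateField.extendScalars hF₀G = F₀⟮s⟯ := by
    apply IntermediateField.restrictScalars_injective K
    rw [IntermediateField.extendScalars_restrictScalars]
  have hfr : F₀.relfinrank ((F₀⟮s⟯).restrictScalars K) = Module.finrank F₀ F₀⟮s⟯ := by
    rw [IntermediateField.relfinrank_eq_finrank_of_le hF₀G, hext]
  have hint : IsIntegral F₀ s := by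
    haveI : FiniteDimensional F₀ F₀⟮s⟯ :=
      FiniteDimensional.of_finrank_pos (by rw [← hfr]; exact Nat.pos_of_ne_zero hG0)
    have h1 : IsIntegral F₀ (⟨s, mem_adjoin_simple_self F₀ s⟩ : F₀⟮s⟯) :=
      IsIntegral.of_finite F₀ _
    exact h1.map (F₀⟮s⟯).val
  have hle1 : F₀.relfinrank ((F₀⟮s⟯).restrictScalars K) ≤ F₀.relfinrank F :=
    Nat.le_of_dvd (Nat.pos_of_ne_zero hfin) ⟨_, hmul.symm⟩
  refine le_trans ?_ hle1
  rw [hfr, IntermediateField.adjoin.finrank hint]
  by_contra hlt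
  rw [not_le] at hlt
  have hPdeg : (minpoly F₀ s).natDegree ≤ m := Nat.lt_succ_iff.mp hlt
  have h1 := hind (fun l => (((minpoly F₀ s).coeff (l : ℕ) : F₀) : Ω)) (fun l => Subtype.coe_prop _)
    (by
      rw [← k7fgdeg_eval₂_eq_sum (minpoly F₀ s) s m hPdeg]
      exact minpoly.aeval F₀ s)
  have h2 : minpoly F₀ s = 0 := by
    refine Polynomial.ext fun i => ?_
    rw [Polynomial.coeff_zero]
    by_cases hi : i < m + 1
    · exact Subtype.ext (h1 ⟨i, hi⟩)
    · exact Polynomial.coeff_eq_zero_of_natDegree_lt (by omega)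
  exact minpoly.ne_zero hint h2

/-- the degree of the minimal polynomial of a generator -/
theorem k7fgdeg_natDegree_of_gen {F₀ F : IntermediateField K Ω} (hle : F₀ ≤ F) (s : Ω)
    (hs : s ∈ F) (hgen : F ≤ IntermediateField.adjoin K ((F₀ : Set Ω) ∪ {s}))
    (hint : IsIntegral F₀ s) :
    (minpoly F₀ s).natDegree = F₀.relfinrank F := by
  have hFeq : F = (F₀⟮s⟯).restrictScalars K := by
    rw [IntermediateField.restrictScalars_adjoin]
    refine le_antisymm hgen ?_
    rw [IntermediateField.adjoin_le_iff]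
    rintro x (hx | hx)
    · exact hle hx
    · rw [Set.mem_singleton_iff] at hx
      rw [hx]; exact hs
  have hext : IntermediateField.extendScalars hle = F₀⟮s⟯ := by
    apply IntermediateField.restrictScalars_injective K
    rw [IntermediateField.extendScalars_restrictScalars]
    exact hFeq
  rw [IntermediateField.relfinrank_eq_finrank_of_le hle, hext,
    IntermediateField.adjoin.finrank hint]

end Generic

/-! ## Characteristic `0` -/

section Bar

variable (L M : ℕ) (H : Subgroup (ZMod M)ˣ)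

/-- `1, S, …, S^m` are linearly independent over `F₀` (over `ℚ̄`) -/
theorem k7fgdeg_indep_bar {m : ℕ} (a : Fin (m + 1) → (ZMod M)ˣ) (hL : L ≠ 0) (hML : M ∣ L)
    (ha : IsRepFam H a) (β : Fin (m + 1) → LaurentSeries Kb)
    (hβ : ∀ l, β l ∈ modularFunctionFieldBar L)
    (hrel : ∑ l, β l * sS Kb M H 1 ^ (l : ℕ) = 0) : ∀ l, β l = 0 := by
  haveI : Algebra.IsAlgebraic ℚ NfQb := by
    have h := AlgebraicClosure.isAlgebraic ℚ
    convert h
    · rfl
    · exact Subsingleton.elim _ _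
  obtain ⟨hgen, ⟨P, hPm, hPd, hPr⟩, -⟩ := stmtDiamondH NfQb L M H a hL hML ha
  have hint : IsIntegral (modularFunctionFieldFullC NfQb L) (sS NfQb M H 1) := ⟨P, hPm, hPr⟩
  have h1 : (1 : ℕ) * M ∣ L := by rwa [one_mul]
  have hmem : sS NfQb M H 1 ∈ fieldC NfQb L M H := by
    have := qExpand_sS_mem NfQb L M H (e := 1) h1 1
    rwa [qExpand_one_apply] at this
  have hdeg := k7fgdeg_natDegree_of_gen (full_le_fieldC NfQb L M H) _ hmem hgen hint
  rw [es1cu_relfinrank stmtDiamondH NfQb L M H a hL hML ha] at hdeg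
  refine k7fgdeg_indep_of_natDegree (sS NfQb M H 1) m hint hdeg.ge β (fun l => ?_) hrel
  have := hβ l
  rwa [nf_bar_eq_fullC] at this

end Bar

/-! ## The residue side -/

section Res

variable (A : ValuationSubring Kb)

/-- every element of `F̄₀` is a quotient of reductions of integral series of `F₀` -/
theorem k7fgdeg_lift (L : ℕ) (β : LaurentSeries (kA A))
    (hβ : β ∈ modularFunctionFieldFullC (kA A) L) :
    ∃ Y₁ Y₂ : LaurentSeries A, kronIncl A Y₁ ∈ modularFunctionFieldBar L ∧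
      kronIncl A Y₂ ∈ modularFunctionFieldBar L ∧ kronRed A Y₂ ≠ 0 ∧
        β * kronRed A Y₂ = kronRed A Y₁ := by
  have hG : ∀ w ∈ divisorExpansionsC (kA A) L,
      ∃ x : ↥(modularFunctionFieldBar L), k7fgRel A (modularFunctionFieldBar L) x w := by
    rintro w ⟨d, hd0, hd, rfl⟩
    have hmem : kronIncl A (jqNModC A d) ∈ modularFunctionFieldBar L := by
      rw [k7f_incl_j, nf_bar_eq_fullC]
      exact jqModCd_mem_full NfQb L hd
    refine ⟨⟨_, hmem⟩, ?_⟩
    have := k7fgRel_of_int A (modularFunctionFieldBar L) (jqNModC A d) hmem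
    rwa [k7f_red_j] at this
  obtain ⟨x, Y₁, Y₂, h1, h2, h3, -, h5⟩ := k7fg_exists_rel A (modularFunctionFieldBar L)
    (divisorExpansionsC (kA A) L) hG β hβ
  exact ⟨Y₁, Y₂, h1, h2, h3, h5⟩

/-- **`1, S̄, …, S̄^m` are linearly independent over `F̄₀`.** -/
theorem k7fgdeg_indep_res {p : ℕ} (hA : A.LiesOverPrime p) {L M : ℕ}
    (H : Subgroup (ZMod M)ˣ) (hlev : K7FLevel L M H p)
    {m : ℕ} (a : Fin (m + 1) → (ZMod M)ˣ) (ha : IsRepFam H a)
    (β : Fin (m + 1) → LaurentSeries (kA A))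
    (hβ : ∀ l, β l ∈ modularFunctionFieldFullC (kA A) L)
    (hrel : ∑ l, β l * sS (kA A) M H 1 ^ (l : ℕ) = 0) : ∀ l, β l = 0 := by
  classical
  have hL : L ≠ 0 := by have := hlev.hL; omega
  have hML := hlev.hML
  -- lift the coefficients
  choose Y₁ Y₂ hY₁ hY₂ hY₂0 hβY using fun l => k7fgdeg_lift A L (β l) (hβ l)
  set d : LaurentSeries A := ∏ l, Y₂ l with hd
  set b : Fin (m + 1) → LaurentSeries A :=
    fun l => Y₁ l * ∏ l' ∈ Finset.univ.erase l, Y₂ l' with hbdef
  have hb : ∀ l, kronRed A (b l) = β l * kronRed A d := by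
    intro l
    rw [hbdef, hd]
    show kronRed A (Y₁ l * ∏ l' ∈ Finset.univ.erase l, Y₂ l') = _
    rw [map_mul, ← hβY l, mul_assoc, ← map_mul,
      Finset.mul_prod_erase _ _ (Finset.mem_univ l)]
  have hd0 : kronRed A d ≠ 0 := by
    rw [hd, map_prod]
    exact Finset.prod_ne_zero_iff.mpr fun l _ => hY₂0 l
  have hbmem : ∀ l, kronIncl A (b l) ∈ modularFunctionFieldBar L := by
    intro l
    rw [hbdef]
    show kronIncl A (Y₁ l * ∏ l' ∈ Finset.univ.erase l, Y₂ l') ∈ _
    rw [map_mul, map_prod]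
    exact mul_mem (hY₁ l) (prod_mem fun l' _ => hY₂ l')
  -- the series `S`
  have hSincl : kronIncl A (sS A M H 1) = sS Kb M H 1 := es1f_coeffMap_sS _ M H 1
  have hSred : kronRed A (sS A M H 1) = sS (kA A) M H 1 := es1f_coeffMap_sS _ M H 1
  have h1M : (1 : ℕ) * M ∣ L := by rwa [one_mul]
  have hSmem : sS Kb M H 1 ∈ fieldBar L M H := by
    rw [es1f_fieldBar_eq]
    have := qExpand_sS_mem Kb L M H (e := 1) h1M 1
    rwa [qExpand_one_apply] at this
  -- the integral series `Y = Σ b_l S^l`, with reduction `0`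
  set Y : LaurentSeries A := ∑ l, b l * sS A M H 1 ^ (l : ℕ) with hY
  have hYmem : kronIncl A Y ∈ fieldBar L M H := by
    rw [hY, map_sum]
    refine sum_mem fun l _ => ?_
    rw [map_mul, map_pow, hSincl]
    exact mul_mem (dlh_bar_le_fieldBar L M H (hbmem l)) (pow_mem hSmem _)
  have hYred : kronRed A Y = 0 := by
    rw [hY, map_sum]
    have h2 : ∀ l : Fin (m + 1), kronRed A (b l * sS A M H 1 ^ (l : ℕ)) =
        kronRed A d * (β l * sS (kA A) M H 1 ^ (l : ℕ)) := by
      intro l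
      rw [map_mul, map_pow, hSred, hb l]
      ring
    rw [Finset.sum_congr rfl fun l _ => h2 l, ← Finset.mul_sum, hrel, mul_zero]
  obtain ⟨n, X, D, C, hX, hD, hC, hD0, hrepr, hzero⟩ := k7fd_rep_bar A hA H hlev a ha Y hYmem
  have hC0 := hzero hYred
  -- compare the coefficients of `S^l`
  have hsum : ∑ l : Fin (m + 1), (D * b l - ∑ i, C (i, l) * X i) * sS A M H 1 ^ (l : ℕ)
      = 0 := by
    have e1 : D * Y = ∑ l : Fin (m + 1), (D * b l) * sS A M H 1 ^ (l : ℕ) := by
      rw [hY, Finset.mul_sum]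
      refine Finset.sum_congr rfl fun l _ => ?_
      ring
    have e2 : ∑ j : Fin n × Fin (m + 1), C j * (X j.1 * sS A M H 1 ^ (j.2 : ℕ)) =
        ∑ l : Fin (m + 1), (∑ i, C (i, l) * X i) * sS A M H 1 ^ (l : ℕ) := by
      rw [Fintype.sum_prod_type_right]
      refine Finset.sum_congr rfl fun l _ => ?_
      rw [Finset.sum_mul]
      refine Finset.sum_congr rfl fun i _ => ?_
      ring
    simp only [sub_mul, Finset.sum_sub_distrib]
    rw [← e1, hrepr, e2, sub_self]
  have hsum' : ∑ l : Fin (m + 1),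
      kronIncl A (D * b l - ∑ i, C (i, l) * X i) * sS Kb M H 1 ^ (l : ℕ) = 0 := by
    have h3 := congrArg (kronIncl A) hsum
    rw [map_sum, map_zero] at h3
    rw [← h3]
    refine Finset.sum_congr rfl fun l _ => ?_
    rw [map_mul, map_pow, hSincl]
  have hcmem : ∀ l : Fin (m + 1),
      kronIncl A (D * b l - ∑ i, C (i, l) * X i) ∈ modularFunctionFieldBar L := by
    intro l
    rw [map_sub, map_mul, map_sum]
    refine sub_mem (mul_mem hD (hbmem l)) (sum_mem fun i _ => ?_)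
    rw [map_mul]
    exact mul_mem (hC (i, l)) (hX i)
  have hzero' := k7fgdeg_indep_bar L M H a hL hML ha _ hcmem hsum'
  have hcoef : ∀ l : Fin (m + 1), D * b l = ∑ i, C (i, l) * X i := by
    intro l
    have h4 : kronIncl A (D * b l - ∑ i, C (i, l) * X i) = kronIncl A 0 := by
      rw [hzero' l, map_zero]
    exact sub_eq_zero.mp (kronIncl_injective h4)
  intro l
  have h5 := congrArg (kronRed A) (hcoef l)
  rw [map_mul, map_sum] at h5
  have h6 : ∑ i, kronRed A (C (i, l) * X i) = 0 := by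
    refine Finset.sum_eq_zero fun i _ => ?_
    rw [map_mul, hC0 (i, l), zero_mul]
  rw [h6] at h5
  have h7 : kronRed A (b l) = 0 := (mul_eq_zero.mp h5).resolve_left hD0
  rw [hb l] at h7
  exact (mul_eq_zero.mp h7).resolve_right hd0

end Res

/-! ## The degree and FL-GOOD -/

section Final

variable (L M : ℕ) (H : Subgroup (ZMod M)ˣ) (p : ℕ) (A : ValuationSubring Kb)

/-- **`#((ℤ/M)ˣ/±H) ≤ [F̄_H : F̄₀]`** -/
theorem k7fgdeg_card_le (hlev : K7FLevel L M H p) (hA : A.LiesOverPrime p)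
    {m : ℕ} (a : Fin (m + 1) → (ZMod M)ˣ) (ha : IsRepFam H a) :
    m + 1 ≤ (modularFunctionFieldFullC (kA A) L).relfinrank (fieldC (kA A) L M H) := by
  have h1M : (1 : ℕ) * M ∣ L := by rw [one_mul]; exact hlev.hML
  have hmem : sS (kA A) M H 1 ∈ fieldC (kA A) L M H := by
    have := qExpand_sS_mem (kA A) L M H (e := 1) h1M 1
    rwa [qExpand_one_apply] at this
  exact k7fgdeg_le_relfinrank_of_indep (full_le_fieldC (kA A) L M H)
    (k7fgood_hfin_level L M H p A hlev hA) (sS (kA A) M H 1) hmem m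
    (fun β hβ hrel => k7fgdeg_indep_res A hA H hlev a ha β hβ hrel)

/-- **DEG: `[F_H : F₀] ≤ [F̄_H : F̄₀]`** -/
theorem k7fgdeg_le (hlev : K7FLevel L M H p) (hA : A.LiesOverPrime p) :
    (modularFunctionFieldBar L).relfinrank (fieldBar L M H) ≤
      (modularFunctionFieldFullC (kA A) L).relfinrank (fieldC (kA A) L M H) := by
  have hL : L ≠ 0 := by have := hlev.hL; omega
  have hML := hlev.hML
  have hM0 : M ≠ 0 := fun h => hL (by rw [h] at hML; exact Nat.eq_zero_of_zero_dvd hML)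
  obtain ⟨m, a, ha⟩ := exists_isRepFam hM0 H
  rw [k7fgood_relfinrank_bar_eq L M H a hL hML ha]
  exact k7fgdeg_card_le L M H p A hlev hA a ha

/-- **FL-GOOD, the field `good` of `ModPRH`, unconditional.** -/
theorem k7fgdeg_good (hlev : K7FLevel L M H p) (hA : A.LiesOverPrime p)
    (R : PRData Kb ↥(fieldBar L M H) (kA A) ↥(fieldC (kA A) L M H) A) (hR : R.IsPR)
    (t : ↥(fieldBar L M H)) (htj : (t : LaurentSeries Kb) = jBar) (ht : t ∈ R.O)
    (hred : ((R.red ⟨t, ht⟩ : ↥(fieldC (kA A) L M H)) : LaurentSeries (kA A)) = jqModC (kA A)) :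
    R.GoodFn t :=
  k7fgood_good L M H p A hlev hA R hR t htj ht hred (k7fgdeg_le L M H p A hlev hA)

/-- **FL-GOOD, both fields, unconditional**, for a reduction package whose reduction map is
the Gauss reduction. -/
theorem k7fgdeg_good_ram (hlev : K7FLevel L M H p) (hA : A.LiesOverPrime p)
    (R : PRData Kb ↥(fieldBar L M H) (kA A) ↥(fieldC (kA A) L M H) A) (hR : R.IsPR)
    (hRrel : ∀ (x : ↥(fieldBar L M H)) (hx : x ∈ R.O), k7fgRel A (fieldBar L M H) x
      ((R.red ⟨x, hx⟩ : ↥(fieldC (kA A) L M H)) : LaurentSeries (kA A)))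
    (t : ↥(fieldBar L M H)) (htj : (t : LaurentSeries Kb) = jBar) (ht : t ∈ R.O) :
    R.GoodFn t ∧ ∀ ht : t ∈ R.O,
      {Q : Place (kA A) ↥(fieldC (kA A) L M H) |
        ¬ ∃ c : kA A, Q.ord (R.red ⟨t, ht⟩ - algebraMap _ _ c) = 1}.Finite :=
  ⟨k7fgdeg_good L M H p A hlev hA R hR t htj ht
      (k7fgood_red_of_rel A L M H R hRrel t htj ht),
    k7fgood_ram_final L M H p A hlev hA R t
      (fun ht' => k7fgood_red_of_rel A L M H R hRrel t htj ht')⟩

/-- **FL-GOOD, both fields, unconditional, for the Gauss package** `R.O = k7fO`,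
`R.red = k7fRed`. -/
theorem k7fgdeg_good_ram_k7f (hlev : K7FLevel L M H p) (hA : A.LiesOverPrime p)
    (hRedF : K7fRedF L M H A)
    (R : PRData Kb ↥(fieldBar L M H) (kA A) ↥(fieldC (kA A) L M H) A) (hR : R.IsPR)
    (hO : ∀ x : ↥(fieldBar L M H), x ∈ R.O ↔ x ∈ k7fO L M H A)
    (hred : ∀ (x : ↥(fieldBar L M H)) (hx : x ∈ R.O),
      R.red ⟨x, hx⟩ = k7fRed L M H A hRedF ⟨x, (hO x).mp hx⟩)
    (t : ↥(fieldBar L M H)) (htj : (t : LaurentSeries Kb) = jBar) :
    R.GoodFn t ∧ ∀ ht : t ∈ R.O,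
      {Q : Place (kA A) ↥(fieldC (kA A) L M H) |
        ¬ ∃ c : kA A, Q.ord (R.red ⟨t, ht⟩ - algebraMap _ _ c) = 1}.Finite := by
  refine k7fgdeg_good_ram L M H p A hlev hA R hR (fun x hx => ?_) t htj
    ((hO t).mpr (k7fgood_mem_k7fO A L M H t htj))
  rw [hred x hx]
  exact (k7fRed_iff L M H A hRedF x _).mpr ⟨(hO x).mp hx, rfl⟩

end Final

end Fermat.Agent.RT.K7F

end
end ZBRT_053_14

/-! ### bundled: `Fermat.Agent.RT.K7F.RedFH` -/
section ZBRT_053_15
/-
K7F, FL-GAUSS, input (RedF_H), FINAL (helper65): `k7frf_redFHAll : StmtRedFHAll`.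

`A ⊂ ℚ̄` a valuation ring over `p`, `(L, M, H, p)` a level of K7-FLAT.  If `Y ∈ A((q))` has image in
`F_H = fieldBar L M H`, its reduction `Ȳ ∈ k((q))` lies in `F̄_H = fieldC k L M H`.

Proof: `Y` is defined over a number field `K₀ ∋ ζ_{6L}` (`ES1.injdh_exists_descent_finset`), its
coefficients lie in the DVR `A ∩ K₀`, and the number-field form (`k7frf_nf_j` for `p ≥ 5`,
`k7frf_nf_h2` for `p = 3`, `2 ∣ L`) applies.
-/

set_option autoImplicit false
set_option linter.style.haveILetI false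
set_option linter.unusedSectionVars false

noncomputable section

namespace Fermat.Agent.RT.K7F

open ModularCurve AlgebraicCurve Fermat.Agent.S24 Fermat.Agent.INJ Fermat.Agent.ES1
  Fermat.Agent.ES Fermat.Agent.ES.M

/-- **descent of (RedF_H)** to the number-field form. -/
theorem k7frf_descent {L M : ℕ} {H : Subgroup (ZMod M)ˣ} (hL : L ≠ 0)
    (A : ValuationSubring NfQb)
    (hNF : ∀ (K₀ : IntermediateField ℚ NfQb), FiniteDimensional ℚ K₀ →
      (∃ ζ : K₀, IsPrimitiveRoot ζ (6 * L)) →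
      ∀ Z : LaurentSeries (nfSub A K₀),
        coeffMap (algebraMap (nfSub A K₀) K₀) Z ∈ fieldC K₀ L M H →
        coeffMap (nfRes A K₀) Z ∈ fieldC (IsLocalRing.ResidueField A) L M H)
    (Y : LaurentSeries A) (hY : coeffMap A.subtype Y ∈ fieldBar L M H) :
    coeffMap (IsLocalRing.residue A) Y ∈ fieldC (IsLocalRing.ResidueField A) L M H := by
  classical
  set y : LaurentSeries NfQb := coeffMap A.subtype Y with hy
  haveI : NeZero ((6 * L : ℕ) : ℚ) := ⟨by
    have : 6 * L ≠ 0 := by omega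
    exact_mod_cast this⟩
  obtain ⟨ζN, hζN⟩ := HasEnoughRootsOfUnity.exists_primitiveRoot NfQb (6 * L)
  obtain ⟨K₀, hK₀, hS, hK⟩ := injdh_exists_descent_finset (L := L) (M := M) (H := H)
    ({ζN} : Finset NfQb) ({y} : Finset (LaurentSeries NfQb)) (by
      intro y' hy'
      rw [Finset.mem_singleton] at hy'
      rw [hy']
      exact hY)
  have hζNK : ζN ∈ K₀ := hS ζN (by simp)
  obtain ⟨z, hz, hzy⟩ := hK K₀ le_rfl y (by simp)
  have hginj : Function.Injective (algebraMap K₀ NfQb) := (algebraMap K₀ NfQb).injective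
  have hfinj : Function.Injective (algebraMap (nfSub A K₀) K₀) := Subtype.val_injective
  -- integrality of the coefficients
  have hmem : ∀ n, z.coeff n ∈ nfSub A K₀ := by
    intro n
    have h := congrArg (fun w => w.coeff n) hzy
    simp only [coeffMap_coeff] at h
    show algebraMap K₀ NfQb (z.coeff n) ∈ A
    rw [h]
    exact (Y.coeff n).2
  obtain ⟨Z, hZ⟩ := injDesc_exists_coeffMap (algebraMap (nfSub A K₀) K₀) hfinj z
    (fun n => ⟨⟨z.coeff n, hmem n⟩, rfl⟩)
  have hZr : coeffMap (nfRes A K₀) Z = coeffMap (IsLocalRing.residue A) Y := by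
    ext n
    rw [coeffMap_coeff, coeffMap_coeff, nfRes_apply]
    congr 1
    apply Subtype.ext
    rw [coe_nfSubIncl]
    have h1 := congrArg (fun w => w.coeff n) hZ
    have h2 := congrArg (fun w => w.coeff n) hzy
    simp only [coeffMap_coeff] at h1 h2
    have h3 : ((Z.coeff n : nfSub A K₀) : K₀) = z.coeff n := h1
    rw [h3, h2]
    rfl
  rw [← hZr]
  refine hNF K₀ hK₀ ⟨⟨ζN, hζNK⟩, ?_⟩ Z (by rw [hZ]; exact hz)
  exact IsPrimitiveRoot.of_map_of_injective (f := algebraMap K₀ NfQb) hζN hginj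

/-- **(RedF_H)** for `ℓ ∤ 6 L`. -/
theorem k7frf_ge5 {L M ℓ : ℕ} (H : Subgroup (ZMod M)ˣ) (hL : L ≠ 0) (hML : M ∣ L)
    (hℓ : ℓ.Prime) (hℓ6L : ¬ ℓ ∣ 6 * L) (A : ValuationSubring Kb) (hA : A.LiesOverPrime ℓ) :
    K7fRedF L M H A := fun Y hY =>
  k7frf_descent hL A (fun K₀ hfin hζ Z hZ => k7frf_nf_j hL hML hℓ hℓ6L A hA K₀ hfin hζ Z hZ) Y hY

/-- **(RedF_H)** for `ℓ = 3`, `2 ∣ L`, `3 ∤ L`. -/
theorem k7frf_three {L M : ℕ} (H : Subgroup (ZMod M)ˣ) (hL : L ≠ 0) (hML : M ∣ L)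
    (h2 : 2 ∣ L) (h3 : ¬ 3 ∣ L) (A : ValuationSubring Kb) (hA : A.LiesOverPrime 3) :
    K7fRedF L M H A := fun Y hY =>
  k7frf_descent hL A (fun K₀ hfin hζ Z hZ => k7frf_nf_h2 hL hML h2 h3 A hA K₀ hfin hζ Z hZ) Y hY

/-- **(RedF_H)** for every odd prime `p ∤ L` with `p ≥ 5` or `2 ∣ L`. -/
theorem k7frf_main {L M p : ℕ} (H : Subgroup (ZMod M)ˣ) (hL : L ≠ 0) (hML : M ∣ L)
    (hp : p.Prime) (hp2 : p ≠ 2) (hpL : ¬ p ∣ L) (h5 : 5 ≤ p ∨ 2 ∣ L)
    (A : ValuationSubring Kb) (hA : A.LiesOverPrime p) : K7fRedF L M H A := by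
  by_cases hp3 : p = 3
  · subst hp3
    rcases h5 with h5 | h5
    · omega
    · exact k7frf_three H hL hML h5 hpL A hA
  · refine k7frf_ge5 H hL hML hp ?_ A hA
    intro hd
    rcases (Nat.Prime.dvd_mul hp).mp hd with h6 | hL'
    · have h6' : (6 : ℕ) = 2 * 3 := by norm_num
      rw [h6'] at h6
      rcases (Nat.Prime.dvd_mul hp).mp h6 with h | h
      · exact hp2 ((Nat.prime_dvd_prime_iff_eq hp Nat.prime_two).mp h)
      · exact hp3 ((Nat.prime_dvd_prime_iff_eq hp Nat.prime_three).mp h)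
    · exact hpL hL'

/-- **FL-GAUSS / RedF_H** at all levels of K7-FLAT. -/
theorem k7frf_redFHAll : StmtRedFHAll := by
  intro L M H p hlev A hA
  have hL : L ≠ 0 := by
    have := hlev.hL
    omega
  refine k7frf_main H hL hlev.hML hlev.hp hlev.hp2 hlev.hpL ?_ A hA
  rcases hlev.h5 with h | h
  · exact Or.inl h
  · by_cases h5 : 5 ≤ p
    · exact Or.inl h5
    · right
      have hp2 := hlev.hp.two_le
      have hp3 : p = 3 ∨ p = 4 := by
        have : p ≠ 2 := hlev.hp2
        omega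
      rcases hp3 with rfl | rfl
      · simpa using h
      · exact absurd hlev.hp (by norm_num)

end Fermat.Agent.RT.K7F

end
end ZBRT_053_15

/-! ### bundled: `Fermat.Agent.RT.K7F.NiceFinal` -/
section ZBRT_053_16
/-
RT-K7F / FL-NICE (helper86), concrete wiring: the inputs FL-RES (helper11), FL-GOOD (helper49) and
(RedF_H) (helper65) of `stmtModPRH_of` are on main.

* `k7fnice_res`  : `K7fniceRes L M H A`                    (FL-RES, `k7fres_kA_hresk/_hpdk`);
* `k7fnice_ram`  : `K7fniceRam L M H A hRedF`              (FL-GOOD, unconditional);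
* `k7fnice_good` : `K7fniceGood L M H A hRedF`             (FL-GOOD + DEG, unconditional);
* `StmtAnchH`    : the anchor at all levels of K7-FLAT (FL-ANCH);
* `stmtModPRH_of_anch` : `StmtRiemannH → StmtBoundE → StmtDiamInt → StmtAnchH → StmtModPRH`;
* `stmtModPRH_of_three` : `StmtRiemannH → StmtBoundE → StmtAnchH → StmtModPRH`
  (FL-DIAM `k7fd_diamInt`, helper40, is on main).
-/

set_option autoImplicit false
set_option linter.unusedSectionVars false
set_option linter.style.haveILetI false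
set_option synthInstance.maxHeartbeats 400000
set_option maxHeartbeats 1600000

open ModularCurve AlgebraicCurve HahnSeries Module

namespace Fermat.Agent.RT.K7F

open Fermat.Agent.ES Fermat.Agent.S24 Fermat.Agent.ES.M Fermat.Agent.W1 Fermat.Agent.PR
  Fermat.Agent.DEU Fermat.Agent.ES1 Fermat.Agent.ES1.G2 Fermat.Agent.ES.R

variable {L M : ℕ} {H : Subgroup (ZMod M)ˣ} {A : ValuationSubring Kb} {p : ℕ}

theorem k7fnice_level_ne_zero (hlev : K7FLevel L M H p) : L ≠ 0 :=
  fun h => by have := hlev.hL; omega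

/-- **FL-RES** (helper11) in the form of the assembly -/
theorem k7fnice_res (hlev : K7FLevel L M H p) (hA : A.LiesOverPrime p) : K7fniceRes L M H A :=
  ⟨fun v => k7fres_kA_hresk L M H A hlev.hp hA (k7fnice_level_ne_zero hlev) hlev.hML v,
    k7fres_kA_hpdk L M H A hlev.hp hA (k7fnice_level_ne_zero hlev) hlev.hML⟩

/-- the Gauss package is `IsPR` for every `r` with `r_* (div u) = div ū` -/
theorem k7fnice_isPR_of_div (hRedF : StmtRedFH L M H A)
    (r : Place Kb (fieldBar L M H) → Place (kA A) ↥(fieldC (kA A) L M H))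
    (hdiv : ∀ u : k7fO L M H A, k7fRed L M H A hRedF u ≠ 0 →
      ∀ D : Divisor Kb (fieldBar L M H),
        (∀ P : Place Kb (fieldBar L M H), D P = P.ord (u : fieldBar L M H)) →
        ∀ Q : Place (kA A) ↥(fieldC (kA A) L M H),
          Finsupp.mapDomain r D Q = Q.ord (k7fRed L M H A hRedF u)) :
    (k7fnicePRH L M H A hRedF r).IsPR where
  res_surjective := k7f_res_surjective A
  res_eq_zero_iff := k7f_res_eq_zero_iff A
  algebraMap_mem_iff := k7f_algebraMap_mem_iff L M H A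
  red_surjective := k7f_red_surjective L M H A hRedF
  red_eq_zero_iff := k7f_red_eq_zero_iff L M H A hRedF
  red_algebraMap := k7f_red_algebraMap L M H A hRedF
  prim := k7f_prim L M H A hRedF
  r_div := hdiv

/-- **FL-GOOD** (helper49), the field `good`, in the form of the assembly (unconditional) -/
theorem k7fnice_good (hlev : K7FLevel L M H p) (hA : A.LiesOverPrime p)
    (hRedF : StmtRedFH L M H A) : K7fniceGood L M H A hRedF := by
  intro r hdiv
  exact (k7fgdeg_good_ram_k7f L M H p A hlev hA hRedF (k7fnicePRH L M H A hRedF r)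
    (k7fnice_isPR_of_div hRedF r hdiv) (fun _ => Iff.rfl) (fun _ _ => rfl)
    (es1hJ L M H) rfl).1

/-- **FL-GOOD** (helper49), the field `ram`, in the form of the assembly (unconditional) -/
theorem k7fnice_ram (hlev : K7FLevel L M H p) (hA : A.LiesOverPrime p)
    (hRedF : StmtRedFH L M H A) : K7fniceRam L M H A hRedF := by
  intro ht
  haveI : NeZero L := ⟨k7fnice_level_ne_zero hlev⟩
  have hLk : ((L : ℕ) : kA A) ≠ 0 := redF_natCast_ne_zero L A p hlev.hp hlev.hpL hA
  haveI : IsAlgClosed (kA A) := Fermat.Agent.RED.isAlgClosed_residueField A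
  haveI : Fact p.Prime := ⟨hlev.hp⟩
  haveI : CharP (kA A) p := kron_charP_residueField hlev.hp hA
  exact k7fgood_ram_of_ne (kA A) L M H p hLk (k7fRed L M H A hRedF ⟨es1hJ L M H, ht⟩)
    (k7fgood_k7fRed A L M H hRedF (es1hJ L M H) rfl ht) (k7fgood_hfin_level L M H p A hlev hA)

/-- **FL-ANCH at all levels of K7-FLAT**: the cusps `∞` of `F_H`, `F̄_H` and the anchor
`red (L_H(m·P_∞)) ⊆ L̄_H(m·Q_∞)`. -/
def StmtAnchH : Prop :=
  ∀ (L M : ℕ) (H : Subgroup (ZMod M)ˣ) (p : ℕ) (hlev : K7FLevel L M H p)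
    (A : ValuationSubring Kb) (hA : A.LiesOverPrime p),
    K7fniceAnch L M H A (k7frf_redFHAll L M H p hlev A hA)

/-- **FL-NICE**: `StmtModPRH` from FL-RH0, FL-RHp-A, FL-DIAM and FL-ANCH. -/
theorem stmtModPRH_of_anch (hRH0 : StmtRiemannH) (hBE : StmtBoundE) (hDI : StmtDiamInt)
    (hAnch : StmtAnchH) : StmtModPRH :=
  stmtModPRH_of k7frf_redFHAll hRH0 hBE hDI (fun L M H p hlev A hA =>
    ⟨k7fnice_res hlev hA, hAnch L M H p hlev A hA, k7fnice_good hlev hA _,
      k7fnice_ram hlev hA _⟩)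

/-- **FL-NICE**: `StmtModPRH` from FL-RH0, FL-RHp-A and FL-ANCH. -/
theorem stmtModPRH_of_three (hRH0 : StmtRiemannH) (hBE : StmtBoundE) (hAnch : StmtAnchH) :
    StmtModPRH :=
  stmtModPRH_of_anch hRH0 hBE k7fd_diamInt hAnch

end Fermat.Agent.RT.K7F


end ZBRT_053_16

/-! ### bundled: `Fermat.Agent.RT.K7F.AnchFinal` -/
section ZBRT_053_17

/-!
# RT-K7F, piece FL-ANCH — the final statement

`k7fanch_niceAnch` : `K7fniceAnch L M H A hRedF` (the input of FL-NICE, `RT/K7F/Nice.lean`) at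
every level of K7-FLAT, from Riemann's inequality for `F_H` (`StmtRiemannH`, FL-RH0) only:
the diamonds are Gauss-integral by `k7fd_diamInt` (FL-DIAM), `StmtI2 L A` is `ES.I2.stmtI2All`
(`p ≥ 5`) resp. `stmtI2AuxAll` (`p = 3`, `2 ∣ L`).
-/

set_option autoImplicit false
set_option linter.unusedSectionVars false
set_option linter.style.haveILetI false
set_option synthInstance.maxHeartbeats 400000
set_option maxHeartbeats 1600000

noncomputable section

namespace Fermat.Agent.RT.K7F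

open AlgebraicCurve ModularCurve
open Fermat.Agent.ES Fermat.Agent.ES.M Fermat.Agent.S24 Fermat.Agent.DEU Fermat.Agent.ES1
  Fermat.Agent.ES1.G2

/-- `StmtI2 L A` at the levels of K7-FLAT -/
theorem k7fanch_stmtI2 {L M : ℕ} {H : Subgroup (ZMod M)ˣ} {p : ℕ} (hlev : K7FLevel L M H p)
    (A : ValuationSubring Kb) (hA : A.LiesOverPrime p) :
    haveI : NeZero L := ⟨by have := hlev.hL; omega⟩
    StmtI2 L A := by
  haveI : NeZero L := ⟨by have := hlev.hL; omega⟩
  rcases le_or_gt 5 p with h5 | h5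
  · exact Fermat.Agent.ES.I2.stmtI2All L p hlev.hp h5 hlev.hpL A hA
  · exact Fermat.Agent.ES.I2aux.stmtI2AuxAll L p hlev.hp h5 hlev.hpL (hlev.h5.resolve_left (not_le.mpr h5)) A hA

/-- **FL-ANCH at `(L, M, H, A)`**, from Riemann's inequality for `F_H` with any constant. -/
theorem k7fanch_niceAnch_of_riemann {L M : ℕ} {H : Subgroup (ZMod M)ˣ} {p : ℕ}
    (hlev : K7FLevel L M H p) (A : ValuationSubring Kb) (hA : A.LiesOverPrime p)
    (hRedF : StmtRedFH L M H A) (g : ℕ)
    (hriem : ∀ 𝔞 : Divisor Kb (fieldBar L M H),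
      Divisor.degree 𝔞 + 1 - g ≤ (Module.finrank Kb ↥(riemannRochSpace 𝔞) : ℤ)) :
    K7fniceAnch L M H A hRedF := by
  have hL : L ≠ 0 := by have := hlev.hL; omega
  haveI : NeZero L := ⟨hL⟩
  obtain ⟨Pinf, hinf, -⟩ := k7fanchc_exists_cuspH L M H
  obtain ⟨Qinf, hQ, -⟩ := k7fanchc_exists_cuspHk L M H A
  refine ⟨Pinf, Qinf, hinf, hQ, fun m => ?_⟩
  exact k7fanch_anchor hL hlev.hML hlev.hp hA (k7f_primAt L M H A) hRedF
    (stmtRedF L A p hlev.hp hlev.hpL hA) (k7feq_diamRed_of_stmt L M H A k7fd_diamInt hlev hA)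
    (k7fanch_stmtI2 hlev A hA) g hriem
    (fun V hV => by
      haveI := hV
      exact (k7f_finrank_redSpace L M H A hRedF V).ge)
    Pinf hinf Qinf hQ m

/-- **FL-ANCH**: the input `K7fniceAnch` of FL-NICE at every level of K7-FLAT. -/
theorem k7fanch_niceAnch (hRH : StmtRiemannH) {L M : ℕ} {H : Subgroup (ZMod M)ˣ} {p : ℕ}
    (hlev : K7FLevel L M H p) (A : ValuationSubring Kb) (hA : A.LiesOverPrime p)
    (hRedF : StmtRedFH L M H A) : K7fniceAnch L M H A hRedF := by
  have hL : L ≠ 0 := by have := hlev.hL; omega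
  have hM : M ≠ 0 := fun h => hL (by
    have := hlev.hML
    rw [h] at this
    exact Nat.eq_zero_of_zero_dvd this)
  obtain ⟨m, a, ha⟩ := exists_isRepFam hM H
  exact k7fanch_niceAnch_of_riemann hlev A hA hRedF (k7fGenus L (m + 1))
    (hRH L M H p hlev m a ha).2

/-- **FL-ANCH at all levels of K7-FLAT**, modulo FL-RH0. -/
theorem k7fanch_stmtAnchH (hRH : StmtRiemannH) : StmtAnchH :=
  fun _ _ _ _ hlev A hA => k7fanch_niceAnch hRH hlev A hA _

/-- **FL-NICE**: `StmtModPRH` from FL-RH0 and FL-RHp-A only. -/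
theorem k7fanch_stmtModPRH_of_two (hRH0 : StmtRiemannH) (hBE : StmtBoundE) : StmtModPRH :=
  stmtModPRH_of_three hRH0 hBE (k7fanch_stmtAnchH hRH0)

end Fermat.Agent.RT.K7F

end
end ZBRT_053_17

/-! ### bundled: `Fermat.Agent.RT.K7F.FinalOf` -/
section ZBRT_053_18

/-!
# RT-K7F: the final wiring of K7-FLAT, conditional on the ONLY open Prop `StmtBoundE`

* `stmtModPRH_of_boundE : StmtBoundE → StmtModPRH`
* `stmtFlatH_of_boundE  : StmtBoundE → StmtFlatH`

(FL-RH0 `stmtRiemannH`, FL-ANCH `k7fanch_stmtModPRH_of_two`, FL-KC `k7fkc_stmtKCH`,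
FL-FIN `stmtFlatH_of_kc` are theorems.)
-/

set_option autoImplicit false

namespace Fermat.Agent.RT.K7F

/-- GEO-PR for `X_H(L; M)` from the bound at `Ē`. -/
theorem stmtModPRH_of_boundE (hBE : StmtBoundE) : StmtModPRH :=
  k7fanch_stmtModPRH_of_two stmtRiemannH hBE

/-- **K7-FLAT** from the bound at `Ē`. -/
theorem stmtFlatH_of_boundE (hBE : StmtBoundE) : StmtFlatH :=
  stmtFlatH_of_kc k7fkc_stmtKCH (stmtModPRH_of_boundE hBE)

end Fermat.Agent.RT.K7F


end ZBRT_053_18

/-! ### bundled: `Fermat.Agent.RT.K7F.DiamGrp` -/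
section ZBRT_053_19

/-!
# RT / K7-FLAT, piece FL-DIAM, part 7: the group of reduced diamonds

`k = kA A`, `F̄₀ = modularFunctionFieldFullC k L`, `F̄_H = fieldC k L M H`, `S̄ = sS k M H 1`.

* `k7fdg_red_rep` : the reduction of an integral series of `F_H` is `∑_{l ≤ m} γ_l S̄^l`,
  `γ_l ∈ F̄₀`;
* `k7fdg_poly`    : `S̄` is a root of a monic polynomial of degree `m + 1` over `F̄₀`;
* `k7fdg_gen`     : every element of `F̄_H` is `r(S̄)`, `r ∈ F̄₀[X]` of degree `≤ m`;
* `k7fdgBar`, `k7fdgHom` : the reduced diamonds `δ̄_c`, a group homomorphism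
  `(ℤ/M)ˣ →* Aut_k(F̄_H)`;
* `k7fdg_fixed`   : an element of `F̄_H` fixed by all `δ̄_c` lies in `F̄₀`;
* `k7fdg_diamInv : StmtDiamInv`;
* `k7fdg_package` : the `p`-group `P` of reduced diamonds with `φ : P →* Aut_k(F̄_H)`.
-/

set_option autoImplicit false
set_option linter.style.haveILetI false
set_option linter.unusedSectionVars false
set_option synthInstance.maxHeartbeats 400000
set_option maxHeartbeats 1600000

noncomputable section

namespace Fermat.Agent.RT.K7F

open Polynomial ModularCurve IntermediateField AlgebraicCurve HahnSeries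
open Fermat.Agent.S24 Fermat.Agent.S28 Fermat.Agent.INJ Fermat.Agent.ES Fermat.Agent.ES1
  Fermat.Agent.ES.M Fermat.Agent.ES1.G2

variable (A : ValuationSubring Kb) {p : ℕ} {L M : ℕ} {H : Subgroup (ZMod M)ˣ}

/-! ## Generation of `F̄_H` over `F̄₀` -/

/-- the reduction of an integral series of `F_H` is a combination of `1, S̄, …, S̄^m` with
coefficients in `F̄₀` -/
theorem k7fdg_red_rep (hA : A.LiesOverPrime p) (hlev : K7FLevel L M H p) {m : ℕ}
    (a : Fin (m + 1) → (ZMod M)ˣ) (ha : IsRepFam H a) (Y : LaurentSeries A)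
    (hY : kronIncl A Y ∈ fieldBar L M H) :
    ∃ γ : Fin (m + 1) → modularFunctionFieldFullC (kA A) L,
      kronRed A Y = ∑ l : Fin (m + 1), (γ l : LaurentSeries (kA A)) * sS (kA A) M H 1 ^ (l : ℕ) := by
  classical
  obtain ⟨n, X, D, C, hX, hD, hC, hD0, hrep, -⟩ := k7fd_rep_bar A hA H hlev a ha Y hY
  have hR := k7fd_redF0 A hA hlev
  refine ⟨fun l => ⟨(kronRed A D)⁻¹ * ∑ i, kronRed A (C (i, l)) * kronRed A (X i),
    mul_mem (inv_mem (hR D hD)) (sum_mem fun i _ => mul_mem (hR _ (hC _)) (hR _ (hX i)))⟩, ?_⟩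
  have h := congrArg (kronRed A) hrep
  rw [map_mul, map_sum, Fintype.sum_prod_type, Finset.sum_comm] at h
  have h2 : kronRed A Y = (kronRed A D)⁻¹ * (kronRed A D * kronRed A Y) := by
    rw [← mul_assoc, inv_mul_cancel₀ hD0, one_mul]
  rw [h2, h, Finset.mul_sum]
  refine Finset.sum_congr rfl fun l _ => ?_
  show _ = (kronRed A D)⁻¹ * (∑ i, kronRed A (C (i, l)) * kronRed A (X i)) *
    sS (kA A) M H 1 ^ (l : ℕ)
  rw [Finset.mul_sum, Finset.mul_sum, Finset.sum_mul]
  refine Finset.sum_congr rfl fun i _ => ?_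
  rw [map_mul, map_mul, map_pow, k7fd_red_S]
  ring

/-- `S̄` is a root of a monic polynomial of degree `m + 1` over `F̄₀` -/
theorem k7fdg_poly (hA : A.LiesOverPrime p) (hlev : K7FLevel L M H p) {m : ℕ}
    (a : Fin (m + 1) → (ZMod M)ˣ) (ha : IsRepFam H a) :
    ∃ P : Polynomial (modularFunctionFieldFullC (kA A) L), P.Monic ∧ P.natDegree = m + 1 ∧
      Polynomial.aeval (sS (kA A) M H 1) P = 0 := by
  classical
  have hY : kronIncl A (sS A M H 1 ^ (m + 1)) ∈ fieldBar L M H := by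
    rw [map_pow, k7fd_incl_S]
    exact pow_mem (k7fd_sS_mem_bar hlev.hML 1) _
  obtain ⟨γ, hγ⟩ := k7fdg_red_rep A hA hlev a ha _ hY
  rw [map_pow, k7fd_red_S] at hγ
  have hdeg : (∑ l : Fin (m + 1), Polynomial.C (γ l) * Polynomial.X ^ (l : ℕ)).degree
      < ((m + 1 : ℕ) : WithBot ℕ) := Polynomial.degree_sum_fin_lt γ
  refine ⟨Polynomial.X ^ (m + 1) - ∑ l : Fin (m + 1), Polynomial.C (γ l) * Polynomial.X ^ (l : ℕ),
    Polynomial.monic_X_pow_sub hdeg, ?_, ?_⟩
  · apply Polynomial.natDegree_eq_of_degree_eq_some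
    rw [Polynomial.degree_sub_eq_left_of_degree_lt, Polynomial.degree_X_pow]
    rw [Polynomial.degree_X_pow]
    exact hdeg
  · rw [map_sub, map_pow, Polynomial.aeval_X, map_sum, hγ, sub_eq_zero]
    refine Finset.sum_congr rfl fun l _ => ?_
    rw [map_mul, map_pow, Polynomial.aeval_X, Polynomial.aeval_C]
    rfl

/-- **generation**: every element of `F̄_H` is a polynomial of degree `≤ m` in `S̄` over `F̄₀` -/
theorem k7fdg_gen (hA : A.LiesOverPrime p) (hlev : K7FLevel L M H p) {m : ℕ}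
    (a : Fin (m + 1) → (ZMod M)ˣ) (ha : IsRepFam H a) (f : LaurentSeries (kA A))
    (hf : f ∈ fieldC (kA A) L M H) :
    ∃ r : Polynomial (modularFunctionFieldFullC (kA A) L), r.natDegree ≤ m ∧
      Polynomial.aeval (sS (kA A) M H 1) r = f := by
  classical
  obtain ⟨P, hPm, hPd, hP0⟩ := k7fdg_poly A hA hlev a ha
  have hint : IsIntegral (modularFunctionFieldFullC (kA A) L) (sS (kA A) M H 1) :=
    ⟨P, hPm, hP0⟩
  set G : IntermediateField (modularFunctionFieldFullC (kA A) L) (LaurentSeries (kA A)) :=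
    IntermediateField.adjoin (modularFunctionFieldFullC (kA A) L) {sS (kA A) M H 1} with hG
  have hsG : sS (kA A) M H 1 ∈ G :=
    IntermediateField.subset_adjoin _ _ (Set.mem_singleton _)
  have hFG : ∀ x : modularFunctionFieldFullC (kA A) L, (x : LaurentSeries (kA A)) ∈ G :=
    fun x => G.algebraMap_mem x
  have hle : fieldC (kA A) L M H ≤ G.restrictScalars (kA A) := by
    unfold fieldC
    rw [IntermediateField.adjoin_le_iff]
    rintro w (⟨d, hd0, hd, rfl⟩ | ⟨e, he0, b, he, rfl⟩)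
    · exact hFG ⟨_, jqModCd_mem_full (kA A) L hd⟩
    · have hYm : kronIncl A (k7fS M H A e b) ∈ fieldBar L M H := by
        rw [k7f_incl_S, es1f_fieldBar_eq]
        exact qExpand_sS_mem Kb L M H he b
      obtain ⟨γ, hγ⟩ := k7fdg_red_rep A hA hlev a ha _ hYm
      rw [k7f_red_S] at hγ
      show qExpand (kA A) e (sS (kA A) M H b) ∈ G
      rw [hγ]
      exact sum_mem fun l _ => mul_mem (hFG (γ l)) (pow_mem hsG _)
  have hfG : f ∈ G := hle hf
  have hfA : f ∈ Algebra.adjoin (modularFunctionFieldFullC (kA A) L) {sS (kA A) M H 1} := by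
    rw [← IntermediateField.adjoin_simple_toSubalgebra_of_isAlgebraic hint.isAlgebraic]
    exact hfG
  rw [Algebra.adjoin_singleton_eq_range_aeval] at hfA
  obtain ⟨g, hg⟩ := hfA
  refine ⟨g %ₘ P, ?_, ?_⟩
  · have hP1 : P ≠ 1 := by
      intro h
      rw [h, Polynomial.natDegree_one] at hPd
      omega
    have := Polynomial.natDegree_modByMonic_lt g hPm hP1
    omega
  · rw [Polynomial.aeval_modByMonic_eq_self_of_root hP0]
    exact hg

/-! ## The reduced diamonds -/

/-- existence of the reduced diamond `δ̄_c` -/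
theorem k7fdg_exists (hA : A.LiesOverPrime p) (hlev : K7FLevel L M H p) (c : (ZMod M)ˣ) :
    ∃ δb : fieldC (kA A) L M H ≃ₐ[kA A] fieldC (kA A) L M H,
      (∀ f : fieldC (kA A) L M H,
        (f : LaurentSeries (kA A)) ∈ modularFunctionFieldFullC (kA A) L → δb f = f) ∧
      (∀ (e : ℕ) [NeZero e] (b : (ZMod M)ˣ), e * M ∣ L → ∀ f : fieldC (kA A) L M H,
        (f : LaurentSeries (kA A)) = qExpand (kA A) e (sS (kA A) M H b) →
          ((δb f : fieldC (kA A) L M H) : LaurentSeries (kA A))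
            = qExpand (kA A) e (sS (kA A) M H (b * c))) := by
  obtain ⟨δ, hδ⟩ := k7f_diamondBar L M H (k7fd_level_L_ne_zero hlev) hlev.hML c
  obtain ⟨δb, h1, h2, -⟩ := k7fd_diamInt L M H p hlev A hA c δ hδ
  refine ⟨δb, h1, fun e _ b he f hf => ?_⟩
  have hfe : f = ⟨qExpand (kA A) e (sS (kA A) M H b), qExpand_sS_mem (kA A) L M H he b⟩ :=
    Subtype.ext hf
  rw [hfe]
  exact h2 e he b

/-- **the reduced diamond `δ̄_c`** -/
def k7fdgBar (hA : A.LiesOverPrime p) (hlev : K7FLevel L M H p) (c : (ZMod M)ˣ) :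
    fieldC (kA A) L M H ≃ₐ[kA A] fieldC (kA A) L M H :=
  Classical.choose (k7fdg_exists A hA hlev c)

theorem k7fdgBar_fix (hA : A.LiesOverPrime p) (hlev : K7FLevel L M H p) (c : (ZMod M)ˣ)
    (f : fieldC (kA A) L M H)
    (hf : (f : LaurentSeries (kA A)) ∈ modularFunctionFieldFullC (kA A) L) :
    k7fdgBar A hA hlev c f = f :=
  (Classical.choose_spec (k7fdg_exists A hA hlev c)).1 f hf

theorem k7fdgBar_act (hA : A.LiesOverPrime p) (hlev : K7FLevel L M H p) (c : (ZMod M)ˣ)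
    (e : ℕ) [NeZero e] (b : (ZMod M)ˣ) (he : e * M ∣ L) (f : fieldC (kA A) L M H)
    (hf : (f : LaurentSeries (kA A)) = qExpand (kA A) e (sS (kA A) M H b)) :
    ((k7fdgBar A hA hlev c f : fieldC (kA A) L M H) : LaurentSeries (kA A))
      = qExpand (kA A) e (sS (kA A) M H (b * c)) :=
  (Classical.choose_spec (k7fdg_exists A hA hlev c)).2 e b he f hf

/-- `δ̄_c S̄_1 = S̄_c` -/
theorem k7fdgBar_S (hA : A.LiesOverPrime p) (hlev : K7FLevel L M H p) (c : (ZMod M)ˣ) :
    ((k7fdgBar A hA hlev c ⟨sS (kA A) M H 1, k7fd_sS_mem_fieldC (kA A) hlev.hML 1⟩ :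
      fieldC (kA A) L M H) : LaurentSeries (kA A)) = sS (kA A) M H c := by
  have h := k7fdgBar_act A hA hlev c 1 1 (by rw [one_mul]; exact hlev.hML)
    ⟨sS (kA A) M H 1, k7fd_sS_mem_fieldC (kA A) hlev.hML 1⟩ (qExpand_one_apply _).symm
  rw [h, qExpand_one_apply, one_mul]

/-- a `K`-automorphism of `fieldC K L M H` is determined by its values on the generators -/
theorem k7fdg_algEquiv_ext (K : Type) [Field K] (σ τ : fieldC K L M H ≃ₐ[K] fieldC K L M H)
    (hj : ∀ f : fieldC K L M H, (f : LaurentSeries K) ∈ divisorExpansionsC K L → σ f = τ f)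
    (hs : ∀ f : fieldC K L M H, (f : LaurentSeries K) ∈ diamondExpansionsC K L M H →
      σ f = τ f) : σ = τ := by
  have key := diamb_ringHom_ext_adjoin (divisorExpansionsC K L ∪ diamondExpansionsC K L M H)
    (fieldC K L M H) rfl (σ : fieldC K L M H →+* fieldC K L M H)
    (τ : fieldC K L M H →+* fieldC K L M H)
    (fun a => (σ.commutes a).trans (τ.commutes a).symm)
    (fun x hx => hx.elim (hj x) (hs x))
  exact AlgEquiv.ext fun x => RingHom.congr_fun key x

/-- **the group homomorphism `c ↦ δ̄_c`** -/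
def k7fdgHom (hA : A.LiesOverPrime p) (hlev : K7FLevel L M H p) :
    (ZMod M)ˣ →* (fieldC (kA A) L M H ≃ₐ[kA A] fieldC (kA A) L M H) where
  toFun := k7fdgBar A hA hlev
  map_one' := by
    refine k7fdg_algEquiv_ext (kA A) _ _ (fun f hf => ?_) (fun f hf => ?_)
    · rw [AlgEquiv.one_apply]
      exact k7fdgBar_fix A hA hlev 1 f (IntermediateField.subset_adjoin _ _ hf)
    · obtain ⟨e, he0, b, he, hf⟩ := hf
      rw [AlgEquiv.one_apply]
      apply Subtype.ext
      rw [k7fdgBar_act A hA hlev 1 e b he f hf, mul_one]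
      exact hf.symm
  map_mul' := by
    intro c d
    refine k7fdg_algEquiv_ext (kA A) _ _ (fun f hf => ?_) (fun f hf => ?_)
    · have hf' : (f : LaurentSeries (kA A)) ∈ modularFunctionFieldFullC (kA A) L :=
        IntermediateField.subset_adjoin _ _ hf
      rw [AlgEquiv.mul_apply, k7fdgBar_fix A hA hlev d f hf', k7fdgBar_fix A hA hlev c f hf',
        k7fdgBar_fix A hA hlev (c * d) f hf']
    · obtain ⟨e, he0, b, he, hf⟩ := hf
      rw [AlgEquiv.mul_apply]
      apply Subtype.ext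
      rw [k7fdgBar_act A hA hlev (c * d) e b he f hf,
        k7fdgBar_act A hA hlev c e (b * d) he _ (k7fdgBar_act A hA hlev d e b he f hf),
        show b * d * c = b * (c * d) by rw [mul_assoc, mul_comm d c]]

theorem k7fdgHom_apply (hA : A.LiesOverPrime p) (hlev : K7FLevel L M H p) (c : (ZMod M)ˣ) :
    k7fdgHom A hA hlev c = k7fdgBar A hA hlev c := rfl

/-! ## The fixed field -/

/-- a ring homomorphism `ψ : F_H → E` which is the inclusion on `F₀` maps `r(s)` to `r(ψ s)` -/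
theorem k7fdg_hom_aeval {K E : Type*} [Field K] [Field E] [Algebra K E]
    (F₀ F : IntermediateField K E) (hle : F₀ ≤ F) (ψ : F →+* E)
    (hψ : ∀ x : F, (x : E) ∈ F₀ → ψ x = (x : E)) (s : F) (r : Polynomial F₀) (f : F)
    (hf : Polynomial.aeval (s : E) r = (f : E)) : ψ f = Polynomial.aeval (ψ s) r := by
  let ι : F₀ →+* F := (IntermediateField.inclusion hle).toRingHom
  have hval : F.val.toRingHom.comp ι = algebraMap F₀ E := RingHom.ext fun x => rfl
  have hf' : f = r.eval₂ ι s := by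
    apply Subtype.ext
    have h := Polynomial.hom_eval₂ r ι F.val.toRingHom s
    rw [hval] at h
    have h2 : ((r.eval₂ ι s : F) : E) = r.eval₂ (algebraMap F₀ E) (s : E) := h
    rw [h2, ← hf, Polynomial.aeval_def]
  have hψι : ψ.comp ι = algebraMap F₀ E := RingHom.ext fun x => hψ (ι x) x.2
  rw [hf', Polynomial.hom_eval₂, hψι, Polynomial.aeval_def]

/-- **the fixed field of the reduced diamonds is `F̄₀`** -/
theorem k7fdg_fixed (hA : A.LiesOverPrime p) (hlev : K7FLevel L M H p) {m : ℕ}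
    (a : Fin (m + 1) → (ZMod M)ˣ) (ha : IsRepFam H a) (f : fieldC (kA A) L M H)
    (hfix : ∀ i, k7fdgBar A hA hlev (a i) f = f) :
    (f : LaurentSeries (kA A)) ∈ modularFunctionFieldFullC (kA A) L := by
  classical
  obtain ⟨r, hrd, hr⟩ := k7fdg_gen A hA hlev a ha (f : LaurentSeries (kA A)) f.2
  have hev : ∀ i, Polynomial.aeval (sS (kA A) M H (a i)) r = (f : LaurentSeries (kA A)) := by
    intro i
    have h := k7fdg_hom_aeval (modularFunctionFieldFullC (kA A) L) (fieldC (kA A) L M H)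
      (full_le_fieldC (kA A) L M H)
      ((fieldC (kA A) L M H).val.toRingHom.comp
        (k7fdgBar A hA hlev (a i) : fieldC (kA A) L M H →+* fieldC (kA A) L M H))
      (fun x hx => congrArg Subtype.val (k7fdgBar_fix A hA hlev (a i) x hx))
      ⟨sS (kA A) M H 1, k7fd_sS_mem_fieldC (kA A) hlev.hML 1⟩ r f hr
    have h1 : ((fieldC (kA A) L M H).val.toRingHom.comp
        (k7fdgBar A hA hlev (a i) : fieldC (kA A) L M H →+* fieldC (kA A) L M H)) f
        = (f : LaurentSeries (kA A)) := congrArg Subtype.val (hfix i)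
    have h2 : ((fieldC (kA A) L M H).val.toRingHom.comp
        (k7fdgBar A hA hlev (a i) : fieldC (kA A) L M H →+* fieldC (kA A) L M H))
        ⟨sS (kA A) M H 1, k7fd_sS_mem_fieldC (kA A) hlev.hML 1⟩ = sS (kA A) M H (a i) :=
      k7fdgBar_S A hA hlev (a i)
    rw [h1, h2] at h
    exact h.symm
  set h : Polynomial (LaurentSeries (kA A)) :=
    r.map (algebraMap (modularFunctionFieldFullC (kA A) L) (LaurentSeries (kA A))) -
      Polynomial.C (f : LaurentSeries (kA A)) with hh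
  have heval : ∀ i, h.eval (sS (kA A) M H (a i)) = 0 := by
    intro i
    rw [hh, Polynomial.eval_sub, Polynomial.eval_map, Polynomial.eval_C, ← Polynomial.aeval_def,
      hev i, sub_self]
  have hdeg : h.natDegree < Fintype.card (Fin (m + 1)) := by
    rw [Fintype.card_fin]
    have h1 : h.natDegree ≤ max (r.map (algebraMap (modularFunctionFieldFullC (kA A) L)
        (LaurentSeries (kA A)))).natDegree (Polynomial.C (f : LaurentSeries (kA A))).natDegree :=
      Polynomial.natDegree_sub_le _ _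
    have h2 := Polynomial.natDegree_map_le
      (f := algebraMap (modularFunctionFieldFullC (kA A) L) (LaurentSeries (kA A))) (p := r)
    rw [Polynomial.natDegree_C] at h1
    omega
  have h0 : h = 0 := Polynomial.eq_zero_of_natDegree_lt_card_of_eval_eq_zero h
    (es1cu_sS_injective (kA A) (k7fd_level_M_ne_zero hlev) ha) heval hdeg
  have hc := congrArg (fun q : Polynomial (LaurentSeries (kA A)) => q.coeff 0) h0
  simp only [hh, Polynomial.coeff_sub, Polynomial.coeff_map, Polynomial.coeff_C_zero,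
    Polynomial.coeff_zero] at hc
  have hfe : (f : LaurentSeries (kA A)) = ((r.coeff 0 : modularFunctionFieldFullC (kA A) L) :
      LaurentSeries (kA A)) := (sub_eq_zero.mp hc).symm
  rw [hfe]
  exact (r.coeff 0).2

/-- **FL-DIAM, invariants**: an element of `F̄_H` fixed by all automorphisms over `F̄₀` lies in
`F̄₀`. -/
theorem k7fdg_diamInv : StmtDiamInv := by
  intro L M H p hlev A hA f hf
  obtain ⟨m, a, ha⟩ := exists_isRepFam (k7fd_level_M_ne_zero hlev) H
  exact k7fdg_fixed A hA hlev a ha f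
    (fun i => hf _ (k7fdgBar_fix A hA hlev (a i)))

end Fermat.Agent.RT.K7F

end
end ZBRT_053_19
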