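/- GENERATED FILE (helper35, build-time optimisation, NOTES/ZB.md): verbatim concatenation of the modules
   Fermat.Agent.RT.Base.Plan
   Fermat.Agent.RT.Base.Boundary
   Fermat.Agent.RT.Base.BoundaryGen
   Fermat.Agent.RT.Base.BridgePar
   Fermat.Agent.RT.Base.Bridge
   Fermat.Agent.RT.Base.Theta
   Fermat.Agent.RT.Hecke.ConcBaseAct
   Do not edit; do not import together with these modules. -/
import Fermat.Agent.ZB.ES1_001
import Fermat.Agent.ZB.Cheb_001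
import Fermat.Agent.ZB.RT_039
import Fermat.Agent.ZB.STB_002
import Fermat.Agent.ZB.S41_005
import Fermat.Agent.ZB.RT_028
import Fermat.Agent.ZB.RT_002
import Fermat.Agent.ZB.ES1_020
import Fermat.Agent.ZB.ES1_005
import Fermat.Agent.ZB.RT_019

/-! ### bundled: `Fermat.Agent.RT.Base.Plan` -/
section ZBRT_086_0

/-!
# K-machine, BASE-BRIDGE (helper22): interface

"A polynomial in the good Hecke operators which kills `S₂(Γ₀(N))` kills the base module `M0`",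
where `M0` is (a module mapping Hecke-equivariantly into) the `η`-part of `Hom(Γ₀(N), A)`,
`η = T_ℓ₀ − (ℓ₀ + 1)`, `A` torsion-free, `N` squarefree.

* `StmtBoundary` : the boundary of `Y₀(N)` is Eisenstein (`N` squarefree): for every
  `φ ∈ Hom(Γ₀(N), A)` and every `g` of trace `±2`, `(T_ℓ φ)(g) = (ℓ + 1) φ(g)`.
* `StmtEtaPar` : hence the `η`-part consists of PARABOLIC homomorphisms.
* `StmtBridgePar` : a Hecke polynomial outside `S` which vanishes on the cusp forms kills every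
  Hecke module mapping equivariantly into the parabolic homomorphisms (S21 + naturality).
* `StmtBaseBridge` : the same for a Hecke module mapping equivariantly into the `η`-part;
  this is the shape of `hocc` of `RT/Interp/Quot.lean` (`rtint_point_of_quot`).

The Hecke ring `T0` is ANY commutative ring acting on ANY abelian group `M0`
(`act : T0 →+* AddMonoid.End M0`), with `ι : M0 →+ Hom(Γ₀(N), A)` intertwining `a ℓ` with
`tS N M ℓ ⊤ A` for the primes `ℓ ∉ S`.  If `ι` is injective and `M0` is a faithful `T0`-module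
the conclusion reads `aeval a t = 0` in `T0`.
-/

set_option autoImplicit false

noncomputable section

namespace Fermat.Agent.RT.Base

open CongruenceSubgroup Matrix ModularCurve.Period
open scoped MatrixGroups
open Fermat.Agent.ES1 (gammaH)
open Fermat.Agent.RT.K5 (HomS tS etaS etaPart)

/-- `T_ℓ = K5.tS N M ℓ ⊤ A` on `Hom(Γ₀(N), A)` (`Γ₀(N) = gammaH N M ⊤`), for `ℓ : Nat.Primes`. -/
def rtbbT (N M : ℕ) [NeZero N] [Fact (M ∣ N)] (A : Type) [AddCommGroup A] (ℓ : Nat.Primes) :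
    HomS (gammaH N M (⊤ : Subgroup (ZMod M)ˣ)) A →+ HomS (gammaH N M (⊤ : Subgroup (ZMod M)ˣ)) A :=
  haveI : NeZero (ℓ : ℕ) := ⟨ℓ.2.ne_zero⟩
  tS N M ℓ ⊤ A

/-- **BOUNDARY.**  For squarefree `N`, a prime `ℓ ∤ N` and a torsion-free `A`: on the elements of
trace `±2` of `Γ₀(N)` the homomorphism `T_ℓ φ` is `(ℓ + 1) φ`. -/
def StmtBoundary : Prop :=
  ∀ (N ℓ : ℕ) [NeZero N] [Fact ℓ.Prime] (hℓ : ¬ ℓ ∣ N) (A : Type) [AddCommGroup A],
    Squarefree N → (∀ (n : ℕ) (a : A), n ≠ 0 → n • a = 0 → a = 0) →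
    ∀ (φ : S41.HomG N A) (g : Gamma0 N),
      ((g : SL(2, ℤ)) : Matrix (Fin 2) (Fin 2) ℤ).trace ^ 2 = 4 →
      S41.Tc ℓ hℓ φ (Additive.ofMul g) = (ℓ + 1) • φ (Additive.ofMul g)

/-- **ETA-PAR.**  The `η`-part of `Hom(Γ₀(N), A)` consists of parabolic homomorphisms. -/
def StmtEtaPar : Prop :=
  ∀ (N M ℓ₀ : ℕ) [NeZero N] [NeZero ℓ₀] [Fact (M ∣ N)] (A : Type) [AddCommGroup A],
    Squarefree N → ℓ₀.Prime → ¬ ℓ₀ ∣ N → (∀ (n : ℕ) (a : A), n ≠ 0 → n • a = 0 → a = 0) →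
    ∀ φ ∈ etaPart (etaS N M ℓ₀ (⊤ : Subgroup (ZMod M)ˣ) A),
      IsParabolicHom (gammaH N M (⊤ : Subgroup (ZMod M)ˣ)) φ

/-- **BRIDGE-PAR.**  A Hecke polynomial in the variables outside `S` which vanishes on
`S₂(Γ₀(N))` kills every Hecke module which maps equivariantly into `Hom_par(Γ₀(N), A)`,
`A` torsion-free. -/
def StmtBridgePar : Prop :=
  ∀ (N M : ℕ) [NeZero N] [Fact (M ∣ N)] (A : Type) [AddCommGroup A],
    (∀ (n : ℕ) (a : A), n ≠ 0 → n • a = 0 → a = 0) →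
    ∀ (S : Set ℕ), (∀ q : ℕ, q.Prime → q ∣ N → q ∈ S) →
    ∀ (T0 : Type) [CommRing T0] (M0 : Type) [AddCommGroup M0] (act : T0 →+* AddMonoid.End M0)
      (ι : M0 →+ HomS (gammaH N M (⊤ : Subgroup (ZMod M)ˣ)) A) (a : Nat.Primes → T0),
      (∀ m, IsParabolicHom (gammaH N M (⊤ : Subgroup (ZMod M)ˣ)) (ι m)) →
      (∀ ℓ : Nat.Primes, (ℓ : ℕ) ∉ S → ∀ m, ι (act (a ℓ) m) = rtbbT N M A ℓ (ι m)) →
      ∀ t ∈ MvPolynomial.supported ℤ (Fermat.Agent.S31.outsideVars S),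
        CuspForm.heckeEvalForms N 2 t = 0 →
        ∀ m, ι (act (MvPolynomial.aeval a t) m) = 0

/-- **BASE-BRIDGE.**  A Hecke polynomial in the variables outside `S` which vanishes on
`S₂(Γ₀(N))` kills every Hecke module which maps equivariantly into the `η`-part of
`Hom(Γ₀(N), A)`; `N` squarefree, `A` torsion-free, `η = T_ℓ₀ − (ℓ₀ + 1)`, `ℓ₀ ∤ N`. -/
def StmtBaseBridge : Prop :=
  ∀ (N M ℓ₀ : ℕ) [NeZero N] [NeZero ℓ₀] [Fact (M ∣ N)] (A : Type) [AddCommGroup A],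
    Squarefree N → ℓ₀.Prime → ¬ ℓ₀ ∣ N → (∀ (n : ℕ) (a : A), n ≠ 0 → n • a = 0 → a = 0) →
    ∀ (S : Set ℕ), (∀ q : ℕ, q.Prime → q ∣ N → q ∈ S) →
    ∀ (T0 : Type) [CommRing T0] (M0 : Type) [AddCommGroup M0] (act : T0 →+* AddMonoid.End M0)
      (ι : M0 →+ HomS (gammaH N M (⊤ : Subgroup (ZMod M)ˣ)) A) (a : Nat.Primes → T0),
      (∀ m, ι m ∈ etaPart (etaS N M ℓ₀ (⊤ : Subgroup (ZMod M)ˣ) A)) →
      (∀ ℓ : Nat.Primes, (ℓ : ℕ) ∉ S → ∀ m, ι (act (a ℓ) m) = rtbbT N M A ℓ (ι m)) →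
      ∀ t ∈ MvPolynomial.supported ℤ (Fermat.Agent.S31.outsideVars S),
        CuspForm.heckeEvalForms N 2 t = 0 →
        ∀ m, ι (act (MvPolynomial.aeval a t) m) = 0

end Fermat.Agent.RT.Base

end
end ZBRT_086_0

/-! ### bundled: `Fermat.Agent.RT.Base.Boundary` -/
section ZBRT_086_1

/-!
# BASE-BRIDGE, boundary (5): `stmtBoundary : StmtBoundary`

For squarefree `N`, `ℓ ∤ N` prime, `A` torsion-free, `φ ∈ Hom(Γ₀(N), A)` and `g ∈ Γ₀(N)` of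
trace `±2`: `(T_ℓ φ)(g) = (ℓ + 1) φ(g)`.
-/

set_option autoImplicit false

noncomputable section

namespace Fermat.Agent.RT.Base

open Matrix Matrix.SpecialLinearGroup CongruenceSubgroup ModularForm OnePoint
open P2MW.S_ModularForm_heckeT_slash_eq_self_of_mem_Gamma0.ModularForm.HeckeSlashInvariance
open Fermat.Agent.ES.HeckeP
open scoped MatrixGroups

/-- the entries of `σ [[1, t], [0, 1]] σ⁻¹` -/
theorem rtbbC_unip (σ : SL(2, ℤ)) (t : ℤ) :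
    rtbbC σ !![1, t; 0, 1] 0 0 = 1 - t * (σ 0 0 * σ 1 0) ∧
    rtbbC σ !![1, t; 0, 1] 0 1 = t * (σ 0 0) ^ 2 ∧
    rtbbC σ !![1, t; 0, 1] 1 0 = - (t * (σ 1 0) ^ 2) ∧
    rtbbC σ !![1, t; 0, 1] 1 1 = 1 + t * (σ 0 0 * σ 1 0) := by
  have hd := rtbb_det σ
  unfold rtbbC
  simp only [Matrix.SpecialLinearGroup.coe_inv, Matrix.adjugate_fin_two, Matrix.mul_apply,
    Fin.sum_univ_two, Matrix.of_apply, Matrix.cons_val', Matrix.cons_val_zero,
    Matrix.cons_val_one, Matrix.empty_val', Matrix.cons_val_fin_one]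
  refine ⟨?_, ?_, ?_, ?_⟩
  · linear_combination hd
  · ring
  · ring
  · linear_combination hd

variable {ℓ N : ℕ} [Fact ℓ.Prime] {A : Type*} [AddCommGroup A]

/-- the case of trace `2` -/
theorem rtbb_boundary_two (hN : Squarefree N) (hℓN : ¬ ℓ ∣ N)
    (hA : ∀ (n : ℕ) (a : A), n ≠ 0 → n • a = 0 → a = 0)
    (φ : Additive (Gamma0 N) →+ A) (g : Gamma0 N)
    (hg : (g : SL(2, ℤ)) 0 0 + (g : SL(2, ℤ)) 1 1 = 2) :
    heckeHom hℓN φ (Additive.ofMul g) = (ℓ + 1) • φ (Additive.ofMul g) := by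
  have hℓ : ℓ.Prime := Fact.out
  obtain ⟨σ, m, hgσ, hσN⟩ := rtbb_exists_conj hN (g : SL(2, ℤ)) hg
  have hcoe : ∀ k : ℕ, (((g ^ k : Gamma0 N) : SL(2, ℤ)) : Matrix (Fin 2) (Fin 2) ℤ) =
      rtbbC σ !![1, m * k; 0, 1] := by
    intro k
    rw [Subgroup.coe_pow]
    exact rtbb_coe_conj σ m k _ hgσ
  -- `g ^ ℓ` acts trivially
  have hidx : ∀ x : OnePoint (ZMod ℓ), idx (((g ^ ℓ : Gamma0 N) : SL(2, ℤ))) x = x := by
    intro x
    obtain ⟨e00, e01, e10, e11⟩ := rtbbC_unip σ (m * (ℓ : ℕ))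
    have hc := hcoe ℓ
    have c00 : ((g ^ ℓ : Gamma0 N) : SL(2, ℤ)) 0 0 = 1 - m * (ℓ : ℕ) * (σ 0 0 * σ 1 0) := by
      rw [← e00, ← hc]
    have c01 : ((g ^ ℓ : Gamma0 N) : SL(2, ℤ)) 0 1 = m * (ℓ : ℕ) * (σ 0 0) ^ 2 := by
      rw [← e01, ← hc]
    have c10 : ((g ^ ℓ : Gamma0 N) : SL(2, ℤ)) 1 0 = -(m * (ℓ : ℕ) * (σ 1 0) ^ 2) := by
      rw [← e10, ← hc]
    have c11 : ((g ^ ℓ : Gamma0 N) : SL(2, ℤ)) 1 1 = 1 + m * (ℓ : ℕ) * (σ 0 0 * σ 1 0) := by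
      rw [← e11, ← hc]
    refine rtbb_idx_of_congr _ ?_ ?_ ?_ ?_ x
    · rw [c00]; exact ⟨-(m * (σ 0 0 * σ 1 0)), by ring⟩
    · rw [c01]; exact ⟨m * (σ 0 0) ^ 2, by ring⟩
    · rw [c10]; exact ⟨-(m * (σ 1 0) ^ 2), by ring⟩
    · rw [c11]; exact ⟨m * (σ 0 0 * σ 1 0), by ring⟩
  -- the Hecke sum
  have hsum := rtbb_sum hℓN φ (g ^ ℓ) hidx (fun y => rtbbC σ (rtbbA ℓ N y))
    (fun y => g ^ (rtbbE ℓ y))
    (fun y => by rw [rtbbC_det, rtbbA_det])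
    (fun y => rtbb_dvd_entry σ hσN y)
    (fun y => by rw [hcoe, hcoe, rtbbC_mul, rtbbC_mul, rtbbA_rel])
    (fun y y' γ h => by
      refine rtbbA_inj hℓN y y' (σ⁻¹ * γ * σ) ?_
      have h1 : rtbbA ℓ N y = ((σ⁻¹ : SL(2, ℤ)) : Matrix (Fin 2) (Fin 2) ℤ) *
          rtbbC σ (rtbbA ℓ N y) * (σ : Matrix (Fin 2) (Fin 2) ℤ) := by
        unfold rtbbC
        rw [← Matrix.mul_assoc, ← Matrix.mul_assoc, rtbb_coe_inv_mul, Matrix.one_mul,
          Matrix.mul_assoc, rtbb_coe_inv_mul, Matrix.mul_one]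
      rw [h1, h]
      unfold rtbbC
      rw [Matrix.SpecialLinearGroup.coe_mul, Matrix.SpecialLinearGroup.coe_mul]
      simp only [Matrix.mul_assoc]
      rw [rtbb_coe_inv_mul, Matrix.mul_one])
  -- both sides
  have hL : heckeHom hℓN φ (Additive.ofMul (g ^ ℓ)) = ℓ • heckeHom hℓN φ (Additive.ofMul g) := by
    rw [ofMul_pow, map_nsmul]
  have hR : ∑ y : OnePoint (ZMod ℓ), φ (Additive.ofMul (g ^ (rtbbE ℓ y))) =
      ℓ • ((ℓ + 1) • φ (Additive.ofMul g)) := by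
    have h1 := Fintype.sum_option (fun y : OnePoint (ZMod ℓ) => φ (Additive.ofMul (g ^ (rtbbE ℓ y))))
    refine h1.trans ?_
    have h2 : ∀ j : ZMod ℓ, φ (Additive.ofMul (g ^ (rtbbE ℓ (Option.some j)))) = φ (Additive.ofMul g) := by
      intro j
      show φ (Additive.ofMul (g ^ 1)) = _
      rw [pow_one]
    have h3 : φ (Additive.ofMul (g ^ (rtbbE ℓ (none : Option (ZMod ℓ))))) =
        (ℓ ^ 2) • φ (Additive.ofMul g) := by
      show φ (Additive.ofMul (g ^ (ℓ ^ 2))) = _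
      rw [ofMul_pow, map_nsmul]
    rw [h3, Finset.sum_congr rfl (fun j _ => h2 j), Finset.sum_const, Finset.card_univ,
      ZMod.card, ← add_nsmul, ← mul_nsmul]
    congr 1
    ring
  rw [hL, hR] at hsum
  have h0 : ℓ • (heckeHom hℓN φ (Additive.ofMul g) - (ℓ + 1) • φ (Additive.ofMul g)) = 0 := by
    rw [nsmul_sub, hsum, sub_self]
  exact sub_eq_zero.mp (hA ℓ _ hℓ.ne_zero h0)

/-- **BOUNDARY.** -/
theorem stmtBoundary : StmtBoundary := by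
  intro N ℓ _ _ hℓN A _ hN hA φ g hg
  show heckeHom hℓN φ (Additive.ofMul g) = (ℓ + 1) • φ (Additive.ofMul g)
  have hdet := rtbb_det (g : SL(2, ℤ))
  rw [Matrix.trace_fin_two] at hg
  have hg2 : ((g ^ 2 : Gamma0 N) : SL(2, ℤ)) 0 0 + ((g ^ 2 : Gamma0 N) : SL(2, ℤ)) 1 1 = 2 := by
    rw [Subgroup.coe_pow, pow_two]
    simp only [Matrix.SpecialLinearGroup.coe_mul, Matrix.mul_apply, Fin.sum_univ_two]
    linear_combination hg - 2 * hdet
  have h2 := rtbb_boundary_two hN hℓN hA φ (g ^ 2) hg2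
  rw [ofMul_pow, map_nsmul, map_nsmul] at h2
  have h0 : 2 • (heckeHom hℓN φ (Additive.ofMul g) - (ℓ + 1) • φ (Additive.ofMul g)) = 0 := by
    rw [nsmul_sub, h2, smul_comm, sub_self]
  exact sub_eq_zero.mp (hA 2 _ two_ne_zero h0)

end Fermat.Agent.RT.Base

end
end ZBRT_086_1

/-! ### bundled: `Fermat.Agent.RT.Base.BoundaryGen` -/
section ZBRT_086_2

/-!
# BASE-BRIDGE, boundary (6): general coefficients

`rtbb_boundary_gen`: the boundary statement `(T_ℓ φ)(g) = (ℓ + 1) φ(g)` (`N` squarefree,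
`tr(g) = ±2`) for every abelian group `A` on which `2` and `ℓ` are injective (e.g. `pⁿ A = 0`,
`p ≠ 2, ℓ`).  For trace `2` only `ℓ` is needed (`rtbb_boundary_two_gen`).
-/

set_option autoImplicit false

noncomputable section

namespace Fermat.Agent.RT.Base

open Matrix Matrix.SpecialLinearGroup CongruenceSubgroup ModularForm OnePoint
open P2MW.S_ModularForm_heckeT_slash_eq_self_of_mem_Gamma0.ModularForm.HeckeSlashInvariance
open Fermat.Agent.ES.HeckeP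
open scoped MatrixGroups

variable {ℓ N : ℕ} [Fact ℓ.Prime] {A : Type*} [AddCommGroup A]

/-- the case of trace `2` -/
theorem rtbb_boundary_two_gen (hN : Squarefree N) (hℓN : ¬ ℓ ∣ N)
    (hAℓ : ∀ a : A, ℓ • a = 0 → a = 0)
    (φ : Additive (Gamma0 N) →+ A) (g : Gamma0 N)
    (hg : (g : SL(2, ℤ)) 0 0 + (g : SL(2, ℤ)) 1 1 = 2) :
    heckeHom hℓN φ (Additive.ofMul g) = (ℓ + 1) • φ (Additive.ofMul g) := by
  obtain ⟨σ, m, hgσ, hσN⟩ := rtbb_exists_conj hN (g : SL(2, ℤ)) hg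
  have hcoe : ∀ k : ℕ, (((g ^ k : Gamma0 N) : SL(2, ℤ)) : Matrix (Fin 2) (Fin 2) ℤ) =
      rtbbC σ !![1, m * k; 0, 1] := by
    intro k
    rw [Subgroup.coe_pow]
    exact rtbb_coe_conj σ m k _ hgσ
  -- `g ^ ℓ` acts trivially
  have hidx : ∀ x : OnePoint (ZMod ℓ), idx (((g ^ ℓ : Gamma0 N) : SL(2, ℤ))) x = x := by
    intro x
    obtain ⟨e00, e01, e10, e11⟩ := rtbbC_unip σ (m * (ℓ : ℕ))
    have hc := hcoe ℓ
    have c00 : ((g ^ ℓ : Gamma0 N) : SL(2, ℤ)) 0 0 = 1 - m * (ℓ : ℕ) * (σ 0 0 * σ 1 0) := by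
      rw [← e00, ← hc]
    have c01 : ((g ^ ℓ : Gamma0 N) : SL(2, ℤ)) 0 1 = m * (ℓ : ℕ) * (σ 0 0) ^ 2 := by
      rw [← e01, ← hc]
    have c10 : ((g ^ ℓ : Gamma0 N) : SL(2, ℤ)) 1 0 = -(m * (ℓ : ℕ) * (σ 1 0) ^ 2) := by
      rw [← e10, ← hc]
    have c11 : ((g ^ ℓ : Gamma0 N) : SL(2, ℤ)) 1 1 = 1 + m * (ℓ : ℕ) * (σ 0 0 * σ 1 0) := by
      rw [← e11, ← hc]
    refine rtbb_idx_of_congr _ ?_ ?_ ?_ ?_ x
    · rw [c00]; exact ⟨-(m * (σ 0 0 * σ 1 0)), by ring⟩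
    · rw [c01]; exact ⟨m * (σ 0 0) ^ 2, by ring⟩
    · rw [c10]; exact ⟨-(m * (σ 1 0) ^ 2), by ring⟩
    · rw [c11]; exact ⟨m * (σ 0 0 * σ 1 0), by ring⟩
  -- the Hecke sum
  have hsum := rtbb_sum hℓN φ (g ^ ℓ) hidx (fun y => rtbbC σ (rtbbA ℓ N y))
    (fun y => g ^ (rtbbE ℓ y))
    (fun y => by rw [rtbbC_det, rtbbA_det])
    (fun y => rtbb_dvd_entry σ hσN y)
    (fun y => by rw [hcoe, hcoe, rtbbC_mul, rtbbC_mul, rtbbA_rel])
    (fun y y' γ h => by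
      refine rtbbA_inj hℓN y y' (σ⁻¹ * γ * σ) ?_
      have h1 : rtbbA ℓ N y = ((σ⁻¹ : SL(2, ℤ)) : Matrix (Fin 2) (Fin 2) ℤ) *
          rtbbC σ (rtbbA ℓ N y) * (σ : Matrix (Fin 2) (Fin 2) ℤ) := by
        unfold rtbbC
        rw [← Matrix.mul_assoc, ← Matrix.mul_assoc, rtbb_coe_inv_mul, Matrix.one_mul,
          Matrix.mul_assoc, rtbb_coe_inv_mul, Matrix.mul_one]
      rw [h1, h]
      unfold rtbbC
      rw [Matrix.SpecialLinearGroup.coe_mul, Matrix.SpecialLinearGroup.coe_mul]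
      simp only [Matrix.mul_assoc]
      rw [rtbb_coe_inv_mul, Matrix.mul_one])
  -- both sides
  have hL : heckeHom hℓN φ (Additive.ofMul (g ^ ℓ)) = ℓ • heckeHom hℓN φ (Additive.ofMul g) := by
    rw [ofMul_pow, map_nsmul]
  have hR : ∑ y : OnePoint (ZMod ℓ), φ (Additive.ofMul (g ^ (rtbbE ℓ y))) =
      ℓ • ((ℓ + 1) • φ (Additive.ofMul g)) := by
    have h1 := Fintype.sum_option (fun y : OnePoint (ZMod ℓ) => φ (Additive.ofMul (g ^ (rtbbE ℓ y))))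
    refine h1.trans ?_
    have h2 : ∀ j : ZMod ℓ, φ (Additive.ofMul (g ^ (rtbbE ℓ (Option.some j)))) = φ (Additive.ofMul g) := by
      intro j
      show φ (Additive.ofMul (g ^ 1)) = _
      rw [pow_one]
    have h3 : φ (Additive.ofMul (g ^ (rtbbE ℓ (none : Option (ZMod ℓ))))) =
        (ℓ ^ 2) • φ (Additive.ofMul g) := by
      show φ (Additive.ofMul (g ^ (ℓ ^ 2))) = _
      rw [ofMul_pow, map_nsmul]
    rw [h3, Finset.sum_congr rfl (fun j _ => h2 j), Finset.sum_const, Finset.card_univ,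
      ZMod.card, ← add_nsmul, ← mul_nsmul]
    congr 1
    ring
  rw [hL, hR] at hsum
  have h0 : ℓ • (heckeHom hℓN φ (Additive.ofMul g) - (ℓ + 1) • φ (Additive.ofMul g)) = 0 := by
    rw [nsmul_sub, hsum, sub_self]
  exact sub_eq_zero.mp (hAℓ _ h0)

/-- **BOUNDARY**, general coefficients: it suffices that `2` and `ℓ` are injective on `A`. -/
theorem rtbb_boundary_gen (hN : Squarefree N) (hℓN : ¬ ℓ ∣ N)
    (hA2 : ∀ a : A, 2 • a = 0 → a = 0) (hAℓ : ∀ a : A, ℓ • a = 0 → a = 0)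
    (φ : Additive (Gamma0 N) →+ A) (g : Gamma0 N)
    (hg : ((g : SL(2, ℤ)) : Matrix (Fin 2) (Fin 2) ℤ).trace ^ 2 = 4) :
    heckeHom hℓN φ (Additive.ofMul g) = (ℓ + 1) • φ (Additive.ofMul g) := by
  have hdet := rtbb_det (g : SL(2, ℤ))
  rw [Matrix.trace_fin_two] at hg
  have hg2 : ((g ^ 2 : Gamma0 N) : SL(2, ℤ)) 0 0 + ((g ^ 2 : Gamma0 N) : SL(2, ℤ)) 1 1 = 2 := by
    rw [Subgroup.coe_pow, pow_two]
    simp only [Matrix.SpecialLinearGroup.coe_mul, Matrix.mul_apply, Fin.sum_univ_two]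
    linear_combination hg - 2 * hdet
  have h2 := rtbb_boundary_two_gen hN hℓN hAℓ φ (g ^ 2) hg2
  rw [ofMul_pow, map_nsmul, map_nsmul] at h2
  have h0 : 2 • (heckeHom hℓN φ (Additive.ofMul g) - (ℓ + 1) • φ (Additive.ofMul g)) = 0 := by
    rw [nsmul_sub, h2, smul_comm, sub_self]
  exact sub_eq_zero.mp (hA2 _ h0)

end Fermat.Agent.RT.Base

end
end ZBRT_086_2

/-! ### bundled: `Fermat.Agent.RT.Base.BridgePar` -/
section ZBRT_086_3

/-!
# BASE-BRIDGE: `stmtBridgePar : StmtBridgePar`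

A Hecke polynomial in the variables outside `S` which vanishes on `S₂(Γ₀(N))` kills every Hecke
module mapping equivariantly into `Hom_par(Γ₀(N), A)`, `A` torsion-free.

* `rtbb_exists_functional` : additive maps to `ℂ` separate the points of a torsion-free group;
* `rtbb_wordOp_par` : a word which vanishes on the cusp forms kills `Hom_par(Γ₀(N), A)`
  (`STB.stb_p2_wordOp_par` = S21, and naturality);
* `rtbb_word_intertwine` : `ι` intertwines `aeval a (wordPoly w)` with the word `w`.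
-/

set_option autoImplicit false

noncomputable section

namespace Fermat.Agent.RT.Base

open CongruenceSubgroup Matrix ModularCurve ModularCurve.Period
open scoped MatrixGroups
open Fermat.Agent.ES1 (gammaH)
open Fermat.Agent.RT.K5 (HomS tS etaS etaPart)
open Fermat.Agent.ES

/-- additive maps to `ℂ` separate the points of a torsion-free abelian group -/
theorem rtbb_exists_functional {A : Type} [AddCommGroup A]
    (hA : ∀ (n : ℕ) (a : A), n ≠ 0 → n • a = 0 → a = 0) (x : A) (hx : x ≠ 0) :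
    ∃ f : A →+ ℂ, f x ≠ 0 := by
  have hinj : Function.Injective ((zmultiplesHom A) x) := by
    rw [injective_iff_map_eq_zero]
    intro n hn
    rw [zmultiplesHom_apply] at hn
    by_contra hn0
    have h1 : n.natAbs • x = 0 := by
      rcases Int.natAbs_eq n with h | h
      · rw [h] at hn; simpa using hn
      · rw [h] at hn; simpa using hn
    exact hx (hA _ x (Int.natAbs_ne_zero.mpr hn0) h1)
  obtain ⟨h, hh⟩ := (Module.Baer.of_divisible ℂ).extension_property_addMonoidHom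
    ((zmultiplesHom A) x) hinj (Int.castAddHom ℂ)
  refine ⟨h, ?_⟩
  have := DFunLike.congr_fun hh 1
  simp at this
  rw [this]
  exact one_ne_zero

/-- a word which vanishes on the cusp forms kills the parabolic homomorphisms with values in a
torsion-free group -/
theorem rtbb_wordOp_par {N p : ℕ} [NeZero N] {A : Type} [AddCommGroup A]
    (hA : ∀ (n : ℕ) (a : A), n ≠ 0 → n • a = 0 → a = 0)
    (w : FreeAlgebra ℤ (GoodPrime N p)) (hw : wordForms N p w = 0)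
    (φ : Additive (Gamma0 N) →+ A) (hφ : IsParabolicHom (Gamma0 N) φ) :
    wordOp (heckeOp N p) A w φ = 0 := by
  refine AddMonoidHom.ext fun γ => ?_
  rw [AddMonoidHom.zero_apply]
  by_contra hne
  obtain ⟨f, hf⟩ := rtbb_exists_functional hA _ hne
  have h1 := wordOp_natural (T := heckeOp N p)
    (fun ℓ A A' _ _ f ψ => heckeOp_natural ℓ A A' f ψ) w A ℂ f φ
  have h2 : wordOp (heckeOp N p) ℂ w (f.comp φ) = 0 := by
    apply Fermat.Agent.STB.stb_p2_wordOp_par w hw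
    intro γ hγ
    rw [AddMonoidHom.comp_apply, hφ γ hγ, map_zero]
  rw [h2] at h1
  have h3 := DFunLike.congr_fun h1 γ
  rw [AddMonoidHom.zero_apply, AddMonoidHom.comp_apply] at h3
  exact hf h3.symm

section words

variable (N : ℕ) (S : Set ℕ) (hS : ∀ q : ℕ, q.Prime → q ∣ N → q ∈ S)

/-- the primes outside `S` are good -/
def rtbbIncl (ℓ : ↥(Fermat.Agent.S31.outsideVars S)) : GoodPrime N 1 :=
  ⟨ℓ.1, by
    show ¬ ((ℓ.1 : ℕ) ∣ N * 1)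
    rw [mul_one]
    exact fun h => ℓ.2 (hS _ ℓ.1.2 h)⟩

/-- words in the primes outside `S` as words in the good primes -/
def rtbbMapW :
    FreeAlgebra ℤ ↥(Fermat.Agent.S31.outsideVars S) →ₐ[ℤ] FreeAlgebra ℤ (GoodPrime N 1) :=
  FreeAlgebra.lift ℤ (fun x => FreeAlgebra.ι ℤ (rtbbIncl N S hS x))

theorem rtbbMapW_ι (x : ↥(Fermat.Agent.S31.outsideVars S)) :
    rtbbMapW N S hS (FreeAlgebra.ι ℤ x) = FreeAlgebra.ι ℤ (rtbbIncl N S hS x) := by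
  simp [rtbbMapW]

theorem rtbb_exists_word {t : HeckeAlg}
    (ht : t ∈ MvPolynomial.supported ℤ (Fermat.Agent.S31.outsideVars S)) :
    ∃ w, wordPoly N 1 (rtbbMapW N S hS w) = t := by
  have h1 : MvPolynomial.supported ℤ (Fermat.Agent.S31.outsideVars S) ≤
      ((wordPoly N 1).comp (rtbbMapW N S hS)).range := by
    rw [MvPolynomial.supported_eq_adjoin_X]
    refine Algebra.adjoin_le ?_
    rintro _ ⟨ℓ, hℓ, rfl⟩
    refine ⟨FreeAlgebra.ι ℤ (⟨ℓ, hℓ⟩ : ↥(Fermat.Agent.S31.outsideVars S)), ?_⟩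
    show wordPoly N 1 (rtbbMapW N S hS (FreeAlgebra.ι ℤ _)) = _
    rw [rtbbMapW_ι, wordPoly_ι]
    rfl
  exact h1 ht

end words

section transport

variable {N M : ℕ} [hMN : Fact (M ∣ N)] {A : Type} [AddCommGroup A]

/-- the identification `gammaH N M ⊤ = Γ₀(N)` -/
def rtbbE0 (N M : ℕ) [hMN : Fact (M ∣ N)] :
    gammaH N M (⊤ : Subgroup (ZMod M)ˣ) ≃* Gamma0 N :=
  MulEquiv.subgroupCongr (Fermat.Agent.ES1.gammaH_top_of_dvd hMN.out)

theorem rtbbE0_coe (γ : gammaH N M (⊤ : Subgroup (ZMod M)ˣ)) :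
    ((rtbbE0 N M γ : Gamma0 N) : SL(2, ℤ)) = γ := rfl

theorem rtbbE0_symm_coe (γ : Gamma0 N) :
    (((rtbbE0 N M).symm γ : gammaH N M (⊤ : Subgroup (ZMod M)ˣ)) : SL(2, ℤ)) = γ := rfl

/-- transport of homomorphisms to `Γ₀(N)` -/
def rtbbTr (N M : ℕ) [Fact (M ∣ N)] (A : Type) [AddCommGroup A] :
    HomS (gammaH N M (⊤ : Subgroup (ZMod M)ˣ)) A →+ (Additive (Gamma0 N) →+ A) where
  toFun φ := φ.comp (MonoidHom.toAdditive (rtbbE0 N M).symm.toMonoidHom)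
  map_zero' := rfl
  map_add' _ _ := rfl

theorem rtbbTr_apply (φ : HomS (gammaH N M (⊤ : Subgroup (ZMod M)ˣ)) A) (γ : Gamma0 N) :
    rtbbTr N M A φ (Additive.ofMul γ) = φ (Additive.ofMul ((rtbbE0 N M).symm γ)) := rfl

theorem rtbbTr_comp (φ : HomS (gammaH N M (⊤ : Subgroup (ZMod M)ˣ)) A) :
    (rtbbTr N M A φ).comp (MonoidHom.toAdditive (rtbbE0 N M).toMonoidHom) = φ := by
  refine AddMonoidHom.ext fun γ => ?_
  obtain ⟨γ, rfl⟩ : ∃ γ' : gammaH N M (⊤ : Subgroup (ZMod M)ˣ), Additive.ofMul γ' = γ :=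
    ⟨Additive.toMul γ, rfl⟩
  show φ (Additive.ofMul ((rtbbE0 N M).symm (rtbbE0 N M γ))) = _
  rw [MulEquiv.symm_apply_apply]

theorem rtbbTr_injective :
    Function.Injective (rtbbTr N M A) := by
  intro φ ψ h
  rw [← rtbbTr_comp φ, ← rtbbTr_comp ψ, h]

theorem rtbbTr_parabolic {φ : HomS (gammaH N M (⊤ : Subgroup (ZMod M)ˣ)) A}
    (hφ : IsParabolicHom (gammaH N M (⊤ : Subgroup (ZMod M)ˣ)) φ) :
    IsParabolicHom (Gamma0 N) (rtbbTr N M A φ) := by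
  intro γ hγ
  rw [rtbbTr_apply]
  exact hφ _ (by rw [rtbbE0_symm_coe]; exact hγ)

theorem rtbb_parabolic_of_tr {φ : HomS (gammaH N M (⊤ : Subgroup (ZMod M)ˣ)) A}
    (hφ : IsParabolicHom (Gamma0 N) (rtbbTr N M A φ)) :
    IsParabolicHom (gammaH N M (⊤ : Subgroup (ZMod M)ˣ)) φ := by
  intro γ hγ
  have h := hφ (rtbbE0 N M γ) (by rw [rtbbE0_coe]; exact hγ)
  rw [rtbbTr_apply, MulEquiv.symm_apply_apply] at h
  exact h

/-- **K5-TOP, transported**: `tS` is `heckeHom` on `Γ₀(N)` -/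
theorem rtbbTr_tS [NeZero N] (ℓ : ℕ) [NeZero ℓ] [Fact ℓ.Prime] (hℓ : ¬ ℓ ∣ N)
    (φ : HomS (gammaH N M (⊤ : Subgroup (ZMod M)ˣ)) A) :
    rtbbTr N M A (tS N M ℓ ⊤ A φ) = HeckeP.heckeHom hℓ (rtbbTr N M A φ) := by
  have h := Fermat.Agent.RT.K5.stmtTop N M ℓ hℓ A (rtbbE0 N M) (fun γ => rfl) (rtbbTr N M A φ)
  rw [rtbbTr_comp] at h
  rw [h]
  refine AddMonoidHom.ext fun γ => ?_
  obtain ⟨γ, rfl⟩ : ∃ γ' : Gamma0 N, Additive.ofMul γ' = γ := ⟨Additive.toMul γ, rfl⟩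
  rw [rtbbTr_apply]
  show (Fermat.Agent.S41.Tc ℓ hℓ (rtbbTr N M A φ))
    (Additive.ofMul (rtbbE0 N M ((rtbbE0 N M).symm γ))) = _
  rw [MulEquiv.apply_symm_apply]
  rfl

theorem rtbbTr_rtbbT [NeZero N] (ℓ : Nat.Primes) (hℓ : ¬ (ℓ : ℕ) ∣ N)
    (φ : HomS (gammaH N M (⊤ : Subgroup (ZMod M)ˣ)) A) :
    rtbbTr N M A (rtbbT N M A ℓ φ) =
      @HeckeP.heckeHom (ℓ : ℕ) ⟨ℓ.2⟩ N A _ hℓ (rtbbTr N M A φ) := by
  have : NeZero (ℓ : ℕ) := ⟨ℓ.2.ne_zero⟩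
  have : Fact (ℓ : ℕ).Prime := ⟨ℓ.2⟩
  exact rtbbTr_tS (ℓ : ℕ) hℓ φ

end transport

section main

variable {N M : ℕ} [NeZero N] [hMN : Fact (M ∣ N)] {A : Type} [AddCommGroup A]

/-- `ι` intertwines polynomials with words -/
theorem rtbb_word_intertwine (S : Set ℕ) (hS : ∀ q : ℕ, q.Prime → q ∣ N → q ∈ S)
    {T0 : Type} [CommRing T0] {M0 : Type} [AddCommGroup M0] (act : T0 →+* AddMonoid.End M0)
    (ι : M0 →+ HomS (gammaH N M (⊤ : Subgroup (ZMod M)ˣ)) A) (a : Nat.Primes → T0)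
    (hι : ∀ ℓ : Nat.Primes, (ℓ : ℕ) ∉ S → ∀ m, ι (act (a ℓ) m) = rtbbT N M A ℓ (ι m))
    (w : FreeAlgebra ℤ ↥(Fermat.Agent.S31.outsideVars S)) (m : M0) :
    rtbbTr N M A (ι (act (MvPolynomial.aeval a (wordPoly N 1 (rtbbMapW N S hS w))) m)) =
      wordOp (heckeOp N 1) A (rtbbMapW N S hS w) (rtbbTr N M A (ι m)) := by
  induction w using FreeAlgebra.induction generalizing m with
  | grade0 r =>
    rw [AlgHom.commutes, AlgHom.commutes, AlgHom.commutes, AlgHom.commutes,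
      Module.algebraMap_end_apply, eq_intCast, map_intCast]
    show rtbbTr N M A (ι (r • m)) = _
    rw [map_zsmul, map_zsmul]
  | grade1 x =>
    rw [rtbbMapW_ι, wordPoly_ι, wordOp_ι, heckeOp_apply]
    have h1 : MvPolynomial.aeval a (heckeGen ((rtbbIncl N S hS x : GoodPrime N 1) : Nat.Primes)) =
        a x.1 := by
      show MvPolynomial.aeval a (MvPolynomial.X (x.1 : Nat.Primes)) = _
      rw [MvPolynomial.aeval_X]
    rw [h1, hι x.1 x.2 m]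
    exact rtbbTr_rtbbT x.1 _ (ι m)
  | mul u v hu hv =>
    have e1 : act (MvPolynomial.aeval a (wordPoly N 1 (rtbbMapW N S hS (u * v)))) m =
        act (MvPolynomial.aeval a (wordPoly N 1 (rtbbMapW N S hS u)))
          (act (MvPolynomial.aeval a (wordPoly N 1 (rtbbMapW N S hS v))) m) := by
      rw [map_mul, map_mul, map_mul, map_mul]
      rfl
    rw [e1, hu, hv, map_mul (rtbbMapW N S hS), map_mul (wordOp (heckeOp N 1) A),
      Module.End.mul_apply]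
  | add u v hu hv =>
    have e1 : act (MvPolynomial.aeval a (wordPoly N 1 (rtbbMapW N S hS (u + v)))) m =
        act (MvPolynomial.aeval a (wordPoly N 1 (rtbbMapW N S hS u))) m +
          act (MvPolynomial.aeval a (wordPoly N 1 (rtbbMapW N S hS v))) m := by
      rw [map_add, map_add, map_add, map_add]
      rfl
    rw [e1, map_add, map_add, hu, hv, map_add (rtbbMapW N S hS),
      map_add (wordOp (heckeOp N 1) A), LinearMap.add_apply]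

/-- **BRIDGE-PAR.** -/
theorem stmtBridgePar : StmtBridgePar := by
  intro N M _ _ A _ hA S hS T0 _ M0 _ act ι a hpar hι t ht h0 m
  obtain ⟨w, rfl⟩ := rtbb_exists_word N S hS ht
  apply rtbbTr_injective
  rw [rtbb_word_intertwine S hS act ι a hι w m, map_zero]
  refine rtbb_wordOp_par hA _ ?_ _ (rtbbTr_parabolic (hpar m))
  rw [wordForms_apply, h0]
  rfl

end main

end Fermat.Agent.RT.Base

end
end ZBRT_086_3

/-! ### bundled: `Fermat.Agent.RT.Base.Bridge` -/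
section ZBRT_086_4

/-!
# BASE-BRIDGE: `stmtEtaPar : StmtEtaPar`, `stmtBaseBridge : StmtBaseBridge`

* the `η`-part of `Hom(Γ₀(N), A)` (`N` squarefree, `A` torsion-free) consists of parabolic
  homomorphisms (`stmtBoundary` + `K5.stmtTop`);
* a Hecke polynomial outside `S` which vanishes on `S₂(Γ₀(N))` kills every Hecke module mapping
  equivariantly into the `η`-part (`stmtBridgePar`).
-/

set_option autoImplicit false

noncomputable section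

namespace Fermat.Agent.RT.Base

open CongruenceSubgroup Matrix ModularCurve ModularCurve.Period
open scoped MatrixGroups
open Fermat.Agent.ES1 (gammaH)
open Fermat.Agent.RT.K5 (HomS tS etaS etaPart)
open Fermat.Agent.ES

/-- the `η`-part is contained in the image of `η` -/
theorem rtbb_etaPart_le_range {V : Type*} [AddCommGroup V] (η : V →+ V) (v : V)
    (hv : v ∈ etaPart η) : ∃ w, η w = v := by
  have h := (AddSubgroup.mem_iInf.mp hv) 1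
  rw [pow_one] at h
  exact h

/-- **ETA-PAR.** -/
theorem stmtEtaPar : StmtEtaPar := by
  intro N M ℓ₀ _ _ _ A _ hN hℓ₀ hℓ₀N hA φ hφ
  obtain ⟨ψ, rfl⟩ := rtbb_etaPart_le_range _ φ hφ
  apply rtbb_parabolic_of_tr
  have : Fact ℓ₀.Prime := ⟨hℓ₀⟩
  have h2 : rtbbTr N M A (etaS N M ℓ₀ ⊤ A ψ) =
      HeckeP.heckeHom hℓ₀N (rtbbTr N M A ψ) - (ℓ₀ + 1) • rtbbTr N M A ψ := by
    unfold etaS
    rw [AddMonoidHom.sub_apply, map_sub, rtbbTr_tS ℓ₀ hℓ₀N ψ]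
    congr 1
  intro γ hγ
  rw [h2, AddMonoidHom.sub_apply]
  have h3 := stmtBoundary N ℓ₀ hℓ₀N A hN hA (rtbbTr N M A ψ) γ hγ
  have h4 : Fermat.Agent.S41.Tc ℓ₀ hℓ₀N (rtbbTr N M A ψ) =
      HeckeP.heckeHom hℓ₀N (rtbbTr N M A ψ) := rfl
  rw [h4] at h3
  rw [h3]
  show (ℓ₀ + 1) • (rtbbTr N M A ψ) (Additive.ofMul γ) -
    (ℓ₀ + 1) • (rtbbTr N M A ψ) (Additive.ofMul γ) = 0
  exact sub_self _

/-- **BASE-BRIDGE.** -/
theorem stmtBaseBridge : StmtBaseBridge := by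
  intro N M ℓ₀ _ _ _ A _ hN hℓ₀ hℓ₀N hA S hS T0 _ M0 _ act ι a hη hι t ht h0 m
  exact stmtBridgePar N M A hA S hS T0 M0 act ι a
    (fun m => stmtEtaPar N M ℓ₀ A hN hℓ₀ hℓ₀N hA _ (hη m)) hι t ht h0 m

end Fermat.Agent.RT.Base

end
end ZBRT_086_4

/-! ### bundled: `Fermat.Agent.RT.Base.Theta` -/
section ZBRT_086_5

/-!
# BASE-BRIDGE, complements for HK-CONC (base side, `H = ⊤`)

* `rtbb_etaS_par_gen` : for squarefree `N`, `ℓ₀ ∤ N` and ANY coefficient group `A` on which `2`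
  and `ℓ₀` are injective (e.g. `A` torsion-free, or `pⁿ A = 0` with `p ≠ 2, ℓ₀`), every
  `η ψ = T_ℓ₀ ψ − (ℓ₀ + 1) ψ` is a PARABOLIC homomorphism of `Γ₀(N) = gammaH N M ⊤`;
* `rtbb_etaPart_par_of_range` : if `range θ ⊆ range η` then the `θ`-part is parabolic;
* `rtbb_thetaPart_par` : the `Θ`-part of `Θ = 𝔲 ∘ η`, `𝔲` the operator of a Hecke expression
  (`K5.HExpr`, `IsPrimes`), is parabolic;
* `rtbb_tS_par` : `T_ℓ` preserves the parabolic homomorphisms (`ℓ ∤ N` prime).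
-/

set_option autoImplicit false

noncomputable section

namespace Fermat.Agent.RT.Base

open CongruenceSubgroup Matrix ModularCurve ModularCurve.Period
open scoped MatrixGroups
open Fermat.Agent.ES1 (gammaH)
open Fermat.Agent.RT.K5 (HomS tS etaS etaPart thetaN HExpr)
open Fermat.Agent.ES

variable {N M : ℕ} [NeZero N] [hMN : Fact (M ∣ N)] {A : Type} [AddCommGroup A]

/-- `T_ℓ` preserves the parabolic homomorphisms of `Γ₀(N)` -/
theorem rtbb_tS_par (ℓ : ℕ) [NeZero ℓ] (hℓ : ℓ.Prime) (hℓN : ¬ ℓ ∣ N)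
    {φ : HomS (gammaH N M (⊤ : Subgroup (ZMod M)ˣ)) A}
    (hφ : IsParabolicHom (gammaH N M (⊤ : Subgroup (ZMod M)ˣ)) φ) :
    IsParabolicHom (gammaH N M (⊤ : Subgroup (ZMod M)ˣ)) (tS N M ℓ ⊤ A φ) := by
  have : Fact ℓ.Prime := ⟨hℓ⟩
  apply rtbb_parabolic_of_tr
  rw [rtbbTr_tS ℓ hℓN φ]
  exact HeckeP.heckeHom_isParabolicHom hℓN (rtbbTr_parabolic hφ)

/-- **the image of `η` is parabolic** (general coefficients) -/
theorem rtbb_etaS_par_gen (hN : Squarefree N) (ℓ₀ : ℕ) [NeZero ℓ₀] (hℓ₀ : ℓ₀.Prime)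
    (hℓ₀N : ¬ ℓ₀ ∣ N) (hA2 : ∀ a : A, 2 • a = 0 → a = 0) (hAℓ : ∀ a : A, ℓ₀ • a = 0 → a = 0)
    (ψ : HomS (gammaH N M (⊤ : Subgroup (ZMod M)ˣ)) A) :
    IsParabolicHom (gammaH N M (⊤ : Subgroup (ZMod M)ˣ)) (etaS N M ℓ₀ ⊤ A ψ) := by
  apply rtbb_parabolic_of_tr
  have : Fact ℓ₀.Prime := ⟨hℓ₀⟩
  have h2 : rtbbTr N M A (etaS N M ℓ₀ ⊤ A ψ) =
      HeckeP.heckeHom hℓ₀N (rtbbTr N M A ψ) - (ℓ₀ + 1) • rtbbTr N M A ψ := by
    unfold etaS
    rw [AddMonoidHom.sub_apply, map_sub, rtbbTr_tS ℓ₀ hℓ₀N ψ]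
    congr 1
  intro γ hγ
  rw [h2, AddMonoidHom.sub_apply, rtbb_boundary_gen hN hℓ₀N hA2 hAℓ (rtbbTr N M A ψ) γ hγ]
  show (ℓ₀ + 1) • (rtbbTr N M A ψ) (Additive.ofMul γ) -
    (ℓ₀ + 1) • (rtbbTr N M A ψ) (Additive.ofMul γ) = 0
  exact sub_self _

/-- if the image of `θ` is contained in the image of `η`, the `θ`-part is parabolic -/
theorem rtbb_etaPart_par_of_range (hN : Squarefree N) (ℓ₀ : ℕ) [NeZero ℓ₀] (hℓ₀ : ℓ₀.Prime)
    (hℓ₀N : ¬ ℓ₀ ∣ N) (hA2 : ∀ a : A, 2 • a = 0 → a = 0) (hAℓ : ∀ a : A, ℓ₀ • a = 0 → a = 0)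
    (θ : HomS (gammaH N M (⊤ : Subgroup (ZMod M)ˣ)) A →+
      HomS (gammaH N M (⊤ : Subgroup (ZMod M)ˣ)) A)
    (hθ : ∀ φ, ∃ ψ, θ φ = etaS N M ℓ₀ ⊤ A ψ)
    (φ : HomS (gammaH N M (⊤ : Subgroup (ZMod M)ˣ)) A) (hφ : φ ∈ etaPart θ) :
    IsParabolicHom (gammaH N M (⊤ : Subgroup (ZMod M)ˣ)) φ := by
  obtain ⟨φ', rfl⟩ := rtbb_etaPart_le_range θ φ hφ
  obtain ⟨ψ, hψ⟩ := hθ φ'
  rw [hψ]
  exact rtbb_etaS_par_gen hN ℓ₀ hℓ₀ hℓ₀N hA2 hAℓ ψ

/-- **the `Θ`-part is parabolic**, `Θ = 𝔲 ∘ (T_ℓ₀ − ℓ₀ − 1)`, `𝔲` a Hecke expression -/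
theorem rtbb_thetaPart_par {𝒪 : Type} [CommRing 𝒪] [Module 𝒪 A] (hN : Squarefree N) (ℓ₀ : ℕ)
    [NeZero ℓ₀] (hℓ₀ : ℓ₀.Prime) (hℓ₀N : ¬ ℓ₀ ∣ N) (hA2 : ∀ a : A, 2 • a = 0 → a = 0)
    (hAℓ : ∀ a : A, ℓ₀ • a = 0 → a = 0) (e : HExpr 𝒪) (he : e.IsPrimes)
    (φ : HomS (gammaH N M (⊤ : Subgroup (ZMod M)ˣ)) A)
    (hφ : φ ∈ etaPart (thetaN (e.eval N M) ℓ₀ A ⊤)) :
    IsParabolicHom (gammaH N M (⊤ : Subgroup (ZMod M)ˣ)) φ := by
  refine rtbb_etaPart_par_of_range hN ℓ₀ hℓ₀ hℓ₀N hA2 hAℓ _ (fun φ' => ?_) φ hφ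
  refine ⟨((e.eval N M).fam A).op ⊤ φ', ?_⟩
  exact (Fermat.Agent.RT.K5.k5hx_comm_etaS N M A ⊤ e he ℓ₀ hℓ₀ φ').symm

end Fermat.Agent.RT.Base

end
end ZBRT_086_5

/-! ### bundled: `Fermat.Agent.RT.Hecke.ConcBaseAct` -/
section ZBRT_086_6

/-!
# K-machine, HECKE-asm, HK-CONC, the BASE side (helper22): the concrete action

Base level `N` (modulus `M ∣ N`, `H = ⊤`, so `Γ = Γ₀(N)`), `𝔲 : NatFam 𝒪 N M`,
`X = Θ_{𝔲,ℓ₀}`-part of `Hom(Γ₀(N), 𝒪)` as the `𝒪`-submodule `K5.k5fn_etaSub 𝔲 ℓ₀ 𝒪 ⊤`.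

* `rthkcb_eval_smul` : the Hecke–diamond polynomials are `𝒪`-linear on `Hom(Γ, A)`;
* `rthkcb_eval_Tr` : `es1inftwTr M 1 ℓ` acts as `K5.tS ℓ` on `Hom(Γ₀(N), A)` (`ℓ ∤ N p` prime);
* `rthkcb_eval_bad`, `rthkcb_eval_dGen` : the bad `T_ℓ` act by `0`, the diamonds by `1`;
* `rthkcbAct` : the action `HDAlg M →+* End_𝒪 X` (given the stability of `X`);
* `rthkcbBasis` : the basis of `X` attached to a `K5.K5IsBasis`;
* `rthkcb_tS_eq` : `tS ℓ (c j) = ∑ i, Φ0 (Tr ℓ) (s, i) (s, j) • c i`;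
* `rthkcb_occ` : BASE-BRIDGE for `X` (the field `occ`);
* `rthkcb_faith` : HK-FAITH, adic form, for `X` (the field `faith`).
-/

set_option autoImplicit false
set_option linter.unusedSectionVars false
set_option linter.style.haveILetI false
set_option linter.unusedVariables false

noncomputable section

namespace Fermat.Agent.RT

open IsLocalRing Fermat.Agent.ES Fermat.Agent.ES1 Fermat.Agent.RT.K5 Fermat.Agent.S48
open CongruenceSubgroup ModularCurve.Period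
open scoped MatrixGroups

section eval

variable (N M : ℕ) [NeZero N] [NeZero M] [hMN : Fact (M ∣ N)] (p : ℕ)

/-- the Hecke–diamond polynomials are `𝒪`-linear on `Hom(Γ, A)` -/
theorem rthkcb_eval_smul {O : Type} [CommRing O] {A : Type} [AddCommGroup A] [Module O A]
    (H : Subgroup (ZMod M)ˣ) (t : HDAlg M) (a : O) (φ : HomS (gammaH N M H) A) :
    es1infHomEval N M H hMN.out p A t (a • φ) = a • es1infHomEval N M H hMN.out p A t φ :=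
  es1infHomEval_comp hMN.out (DistribSMul.toAddMonoidHom A a) t φ

/-- `heckeGrp ℓ = K5.tSadj ℓ` -/
theorem rthkcb_heckeGrp_eq (H : Subgroup (ZMod M)ˣ) (ℓ : ℕ) [NeZero ℓ] {A : Type}
    [AddCommGroup A] (φ : HomS (gammaH N M H) A) :
    heckeGrp N M H ℓ hMN.out φ = tSadj N M ℓ H A φ :=
  es1inf_heckeGrp_eq_cores_res H hMN.out φ

/-- a good `T_ℓ` acts as `K5.tS ℓ` on `Hom(Γ₀(N), A)` -/
theorem rthkcb_eval_tGen {A : Type} [AddCommGroup A] (ℓ : Nat.Primes)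
    (hℓ : ¬ (ℓ : ℕ) ∣ N * p) (φ : HomS (gammaH N M (⊤ : Subgroup (ZMod M)ˣ)) A) :
    es1infHomEval N M ⊤ hMN.out p A (es1top_tGen M ℓ) φ =
      (haveI : NeZero (ℓ : ℕ) := ⟨ℓ.2.ne_zero⟩; tS N M (ℓ : ℕ) ⊤ A φ) := by
  haveI : NeZero (ℓ : ℕ) := ⟨ℓ.2.ne_zero⟩
  rw [es1infHomEval_tGen hMN.out hℓ φ]
  show heckeGrp N M ⊤ (ℓ : ℕ) hMN.out φ = tS N M (ℓ : ℕ) ⊤ A φ
  rw [rthkcb_heckeGrp_eq N M ⊤ (ℓ : ℕ) φ]
  exact ((stmtUQTop N M (ℓ : ℕ) A ℓ.2 (fun h => hℓ (h.mul_right p))).2.2.2.2.1 φ).symm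

/-- `Tr ℓ = es1inftwTr M 1 ℓ` is `T_ℓ` -/
theorem rthkcb_Tr_eq (ℓ : ℕ) (hℓ : ℓ.Prime) (hℓN : ¬ ℓ ∣ N * p) :
    es1inftwTr M 1 ℓ = es1top_tGen M ⟨ℓ, hℓ⟩ := by
  have hc : Nat.Coprime ℓ M := (Nat.Prime.coprime_iff_not_dvd hℓ).mpr
    (fun h => hℓN ((h.trans hMN.out).mul_right p))
  rw [es1inftwTr_eq M 1 hℓ hc, Nat.sub_self, pow_zero, one_mul]

/-- `Tr ℓ` acts as `K5.tS ℓ` on `Hom(Γ₀(N), A)` -/
theorem rthkcb_eval_Tr {A : Type} [AddCommGroup A] (ℓ : ℕ) [NeZero ℓ] (hℓ : ℓ.Prime)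
    (hℓN : ¬ ℓ ∣ N * p) (φ : HomS (gammaH N M (⊤ : Subgroup (ZMod M)ˣ)) A) :
    es1infHomEval N M ⊤ hMN.out p A (es1inftwTr M 1 ℓ) φ = tS N M ℓ ⊤ A φ := by
  rw [rthkcb_Tr_eq N M p ℓ hℓ hℓN]
  exact rthkcb_eval_tGen N M p ⟨ℓ, hℓ⟩ hℓN φ

/-- the bad `T_ℓ` act by `0` -/
theorem rthkcb_eval_bad {A : Type} [AddCommGroup A] (H : Subgroup (ZMod M)ˣ) (ℓ : Nat.Primes)
    (hℓ : (ℓ : ℕ) ∣ N * p) (φ : HomS (gammaH N M H) A) :
    es1infHomEval N M H hMN.out p A (MvPolynomial.X (Sum.inl ℓ)) φ = 0 := by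
  rw [es1infHomEval_X, es1infHomOp_bad hMN.out
    (fun h => (es1inf_inl_mem_goodVars.mp h) hℓ)]
  rfl

/-- the diamonds act trivially on `Hom(Γ₀(N), A)` -/
theorem rthkcb_eval_dGen {A : Type} [AddCommGroup A] (c : (ZMod M)ˣ)
    (φ : HomS (gammaH N M (⊤ : Subgroup (ZMod M)ˣ)) A) :
    es1infHomEval N M ⊤ hMN.out p A (MvPolynomial.X (Sum.inr c)) φ = φ := by
  rw [es1infHomEval_X, es1infHomOp_inr' hMN.out c φ]
  have hσ : es1g1opSigma hMN.out c ∈ gammaH N M (⊤ : Subgroup (ZMod M)ˣ) :=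
    ⟨es1g1opSigma_memL hMN.out c, es1g1opSigma_memM hMN.out c,
      le_pmH ⊤ (Subgroup.mem_top _)⟩
  exact diamGrp_of_mem N M ⊤ hσ φ

end eval

section act

variable {O : Type} [CommRing O] (N M : ℕ) [NeZero N] [NeZero M] [hMN : Fact (M ∣ N)] (p : ℕ)

/-- the stability of the `Θ`-part of `Hom(Γ₀(N), A)` under the Hecke–diamond polynomials -/
def RthkcbStab (𝔲 : NatFam O N M) (ℓ₀ : ℕ) [NeZero ℓ₀] (A : Type) [AddCommGroup A]
    [Module O A] : Prop :=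
  ∀ (t : HDAlg M) (v : HomS (gammaH N M (⊤ : Subgroup (ZMod M)ˣ)) A),
    v ∈ etaPart (thetaN 𝔲 ℓ₀ A ⊤) →
      es1infHomEval N M ⊤ hMN.out p A t v ∈ etaPart (thetaN 𝔲 ℓ₀ A ⊤)

variable {N M p}

/-- **the Hecke action on the `Θ`-part** of `Hom(Γ₀(N), A)` -/
def rthkcbAct {𝔲 : NatFam O N M} {ℓ₀ : ℕ} [NeZero ℓ₀] {A : Type} [AddCommGroup A]
    [Module O A] (hst : RthkcbStab N M p 𝔲 ℓ₀ A) :
    HDAlg M →+* Module.End O (k5fn_etaSub 𝔲 ℓ₀ A (⊤ : Subgroup (ZMod M)ˣ)) where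
  toFun t :=
    { toFun := fun v => ⟨es1infHomEval N M ⊤ hMN.out p A t v.1, hst t v.1 v.2⟩
      map_add' := fun v w => Subtype.ext (by
        show es1infHomEval N M ⊤ hMN.out p A t (v.1 + w.1) = _
        rw [map_add]
        rfl)
      map_smul' := fun a v => Subtype.ext (rthkcb_eval_smul N M p ⊤ t a v.1) }
  map_one' := by
    refine LinearMap.ext fun v => Subtype.ext ?_
    show es1infHomEval N M ⊤ hMN.out p A 1 v.1 = v.1
    rw [map_one]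
    rfl
  map_mul' s t := by
    refine LinearMap.ext fun v => Subtype.ext ?_
    show es1infHomEval N M ⊤ hMN.out p A (s * t) v.1 =
      es1infHomEval N M ⊤ hMN.out p A s (es1infHomEval N M ⊤ hMN.out p A t v.1)
    rw [map_mul]
    rfl
  map_zero' := by
    refine LinearMap.ext fun v => Subtype.ext ?_
    show es1infHomEval N M ⊤ hMN.out p A 0 v.1 = 0
    rw [map_zero]
    rfl
  map_add' s t := by
    refine LinearMap.ext fun v => Subtype.ext ?_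
    show es1infHomEval N M ⊤ hMN.out p A (s + t) v.1 =
      es1infHomEval N M ⊤ hMN.out p A s v.1 + es1infHomEval N M ⊤ hMN.out p A t v.1
    rw [map_add]
    rfl

theorem rthkcbAct_coe {𝔲 : NatFam O N M} {ℓ₀ : ℕ} [NeZero ℓ₀] {A : Type} [AddCommGroup A]
    [Module O A] (hst : RthkcbStab N M p 𝔲 ℓ₀ A)
    (t : HDAlg M) (v : k5fn_etaSub 𝔲 ℓ₀ A (⊤ : Subgroup (ZMod M)ˣ)) :
    ((rthkcbAct hst t v : k5fn_etaSub 𝔲 ℓ₀ A (⊤ : Subgroup (ZMod M)ˣ)) :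
      HomS (gammaH N M (⊤ : Subgroup (ZMod M)ˣ)) A) =
      es1infHomEval N M ⊤ hMN.out p A t v.1 := rfl

/-- the basis of the base module attached to a `K5IsBasis` -/
def rthkcbBasis {𝔲 : NatFam O N M} {ℓ₀ : ℕ} [NeZero ℓ₀] {r : ℕ}
    {c : Fin r → HomS (gammaH N M (⊤ : Subgroup (ZMod M)ˣ)) O}
    (hc : K5IsBasis O (etaPart (thetaN 𝔲 ℓ₀ O ⊤)) c) :
    Module.Basis (Fin r) O (k5fn_etaSub 𝔲 ℓ₀ O (⊤ : Subgroup (ZMod M)ˣ)) :=
  Module.Basis.mk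
    (v := fun i => (⟨c i, hc.1 i⟩ : k5fn_etaSub 𝔲 ℓ₀ O (⊤ : Subgroup (ZMod M)ˣ)))
    (by
      rw [Fintype.linearIndependent_iff]
      intro g hg i
      have h0 : ((∑ j, g j • (⟨c j, hc.1 j⟩ : k5fn_etaSub 𝔲 ℓ₀ O (⊤ : Subgroup (ZMod M)ˣ)) :
          k5fn_etaSub 𝔲 ℓ₀ O (⊤ : Subgroup (ZMod M)ˣ)) :
          HomS (gammaH N M (⊤ : Subgroup (ZMod M)ˣ)) O) = 0 := by
        rw [hg]
        rfl
      have h1 : ∑ j, g j • c j = ∑ j, (0 : Fin r → O) j • c j := by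
        simp only [Pi.zero_apply, zero_smul, Finset.sum_const_zero]
        rw [← h0]
        simp only [Submodule.coe_sum, Submodule.coe_smul]
      exact congrFun (hc.2.1 h1) i)
    (by
      rintro ⟨φ, hφ⟩ -
      obtain ⟨a, ha⟩ := hc.2.2 φ hφ
      rw [Submodule.mem_span_range_iff_exists_fun]
      refine ⟨a, Subtype.ext ?_⟩
      simp only [Submodule.coe_sum, Submodule.coe_smul]
      exact ha.symm)

theorem rthkcbBasis_coe {𝔲 : NatFam O N M} {ℓ₀ : ℕ} [NeZero ℓ₀] {r : ℕ}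
    {c : Fin r → HomS (gammaH N M (⊤ : Subgroup (ZMod M)ˣ)) O}
    (hc : K5IsBasis O (etaPart (thetaN 𝔲 ℓ₀ O ⊤)) c) (i : Fin r) :
    ((rthkcbBasis hc i : k5fn_etaSub 𝔲 ℓ₀ O (⊤ : Subgroup (ZMod M)ˣ)) :
      HomS (gammaH N M (⊤ : Subgroup (ZMod M)ˣ)) O) = c i := by
  rw [rthkcbBasis, Module.Basis.mk_apply]

/-- **the base matrices are the matrices of `T_ℓ` in the basis `c`** -/
theorem rthkcb_tS_eq {𝔲 : NatFam O N M} {ℓ₀ : ℕ} [NeZero ℓ₀] (hst : RthkcbStab N M p 𝔲 ℓ₀ O)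
    {r : ℕ} {c : Fin r → HomS (gammaH N M (⊤ : Subgroup (ZMod M)ˣ)) O}
    (hc : K5IsBasis O (etaPart (thetaN 𝔲 ℓ₀ O ⊤)) c) (h : ℕ) (ℓ : ℕ) [NeZero ℓ]
    (hℓ : ℓ.Prime) (hℓN : ¬ ℓ ∣ N * p) (s : Fin (2 ^ h)) (j : Fin r) :
    tS N M ℓ ⊤ O (c j) = ∑ i, rthkcbPhi (rthkcbBasis hc) h (rthkcbAct hst)
      (es1inftwTr M 1 ℓ) (finProdFinEquiv (s, i)) (finProdFinEquiv (s, j)) • c i := by
  have h1 := congrArg Subtype.val
    (rthkcb_act_eq (rthkcbBasis hc) h (rthkcbAct hst) (es1inftwTr M 1 ℓ) s j)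
  rw [rthkcbAct_coe, rthkcbBasis_coe, rthkcb_eval_Tr N M p ℓ hℓ hℓN] at h1
  rw [h1]
  simp only [Submodule.coe_sum, Submodule.coe_smul, rthkcbBasis_coe]

/-- the off-diagonal blocks of the base matrices vanish -/
theorem rthkcb_phi_off {𝔲 : NatFam O N M} {ℓ₀ : ℕ} [NeZero ℓ₀] (hst : RthkcbStab N M p 𝔲 ℓ₀ O)
    {r : ℕ} {c : Fin r → HomS (gammaH N M (⊤ : Subgroup (ZMod M)ˣ)) O}
    (hc : K5IsBasis O (etaPart (thetaN 𝔲 ℓ₀ O ⊤)) c) (h : ℕ) (x : HDAlg M)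
    {s s' : Fin (2 ^ h)} (hs : s ≠ s') (i j : Fin r) :
    rthkcbPhi (rthkcbBasis hc) h (rthkcbAct hst) x (finProdFinEquiv (s, i))
      (finProdFinEquiv (s', j)) = 0 := by
  rw [rthkcbPhi_apply, if_neg hs]

end act

section occ

variable {O : Type} [CommRing O] [IsDomain O] [CharZero O] {N M : ℕ} [NeZero N] [NeZero M]
  [hMN : Fact (M ∣ N)] {p : ℕ}

theorem rthkcb_torsionFree (n : ℕ) (a : O) (hn : n ≠ 0) (h : n • a = 0) : a = 0 := by
  rw [nsmul_eq_mul] at h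
  rcases mul_eq_zero.mp h with h | h
  · exact absurd (Nat.cast_eq_zero.mp h) hn
  · exact h

/-- **the field `occ`**: a Hecke polynomial outside `S'` which kills `S₂(Γ₀(N))` kills the base
module (BASE-BRIDGE) -/
theorem rthkcb_occ (hN : Squarefree N) (E : HExpr O) (hE : E.IsPrimes) (ℓ₀ : ℕ) [NeZero ℓ₀]
    (hℓ₀ : ℓ₀.Prime) (hℓ₀N : ¬ ℓ₀ ∣ N) (hst : RthkcbStab N M p (E.eval N M) ℓ₀ O)
    (S' : Finset ℕ) (hS' : ∀ q : ℕ, q.Prime → q ∉ S' → ¬ q ∣ N * p)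
    (t : MvPolynomial Nat.Primes ℤ)
    (ht : t ∈ MvPolynomial.supported ℤ (Fermat.Agent.S31.outsideVars (↑S' : Set ℕ)))
    (h0 : CuspForm.heckeEvalForms N 2 t = 0) :
    rthkcbAct hst (MvPolynomial.aeval (fun ℓ : Nat.Primes => es1inftwTr M 1 (ℓ : ℕ)) t) = 0 := by
  let X := k5fn_etaSub (E.eval N M) ℓ₀ O (⊤ : Subgroup (ZMod M)ˣ)
  let act' : HDAlg M →+* AddMonoid.End X :=
    { toFun := fun x => (rthkcbAct hst x).toAddMonoidHom
      map_one' := by rw [map_one]; rfl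
      map_mul' := fun x y => by rw [map_mul]; rfl
      map_zero' := by rw [map_zero]; rfl
      map_add' := fun x y => by rw [map_add]; rfl }
  have key := Fermat.Agent.RT.Base.stmtBridgePar N M O
    (fun n a hn h => rthkcb_torsionFree n a hn h) (↑S' : Set ℕ)
    (fun q hq hqN => by
      by_contra hqS
      exact hS' q hq (fun hh => hqS (Finset.mem_coe.mpr hh)) (hqN.mul_right p))
    (HDAlg M) X act' X.subtype.toAddMonoidHom (fun ℓ : Nat.Primes => es1inftwTr M 1 (ℓ : ℕ))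
    (fun m => Fermat.Agent.RT.Base.rtbb_thetaPart_par hN ℓ₀ hℓ₀ hℓ₀N
      (fun a h => rthkcb_torsionFree 2 a two_ne_zero h)
      (fun a h => rthkcb_torsionFree ℓ₀ a hℓ₀.ne_zero h) E hE m.1 m.2)
    (fun ℓ hℓS m => by
      haveI : NeZero (ℓ : ℕ) := ⟨ℓ.2.ne_zero⟩
      exact rthkcb_eval_Tr N M p (ℓ : ℕ) ℓ.2
        (hS' (ℓ : ℕ) ℓ.2 (fun hh => hℓS (Finset.mem_coe.mpr hh))) m.1)
    t ht h0
  refine LinearMap.ext fun v => Subtype.ext ?_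
  exact key v

end occ

section faith

variable {O : Type} [CommRing O] [IsDomain O] [CharZero O] [IsDiscreteValuationRing O]
  [IsAdicComplete (IsLocalRing.maximalIdeal O) O] [Finite (IsLocalRing.ResidueField O)]
  {N M : ℕ} [NeZero N] [NeZero M] [hMN : Fact (M ∣ N)] {p : ℕ} [hp : Fact p.Prime]

/-- the stability of the `Θ`-part of a Hecke expression -/
theorem rthkcb_stab (E : HExpr O) (hE : E.IsPrimes) (ℓ₀ : ℕ) [NeZero ℓ₀] (hℓ₀ : ℓ₀.Prime)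
    (hℓ₀N : ¬ ℓ₀ ∣ N) (A : Type) [AddCommGroup A] [Module O A] :
    RthkcbStab N M p (E.eval N M) ℓ₀ A :=
  fun t _ hv => es1inffk_expr_mem E hE ℓ₀ hℓ₀ hℓ₀N A ⊤ t hv

/-- **the field `faith`**: HK-FAITH, adic form, for the base module -/
theorem rthkcb_faith (χ : GalQ →* (ZMod M)ˣ) (hN : Squarefree N) (E : HExpr O)
    (hE : E.IsPrimes) (ℓ₀ : ℕ) [NeZero ℓ₀] (hℓ₀ : ℓ₀.Prime) (hℓ₀N : ¬ ℓ₀ ∣ N)
    (hst : RthkcbStab N M p (E.eval N M) ℓ₀ O) (k : ℕ) (x : HDAlg M)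
    (hx : ∀ y : es1inftwJ N M ⊤ p χ, p ^ k • y = 0 → x • y = 0)
    (v : k5fn_etaSub (E.eval N M) ℓ₀ O (⊤ : Subgroup (ZMod M)ˣ)) :
    ∃ v' : k5fn_etaSub (E.eval N M) ℓ₀ O (⊤ : Subgroup (ZMod M)ˣ),
      rthkcbAct hst x v = (p : O) ^ k • v' := by
  obtain ⟨v', hv', h⟩ := es1inffk_adic χ (E.eval N M) ℓ₀
    (fun w hw => Fermat.Agent.RT.Base.rtbb_thetaPart_par hN ℓ₀ hℓ₀ hℓ₀N
      (fun a h => rthkcb_torsionFree 2 a two_ne_zero h)
      (fun a h => rthkcb_torsionFree ℓ₀ a hℓ₀.ne_zero h) E hE w hw)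
    k x hx v.1 v.2 (hst x v.1 v.2)
  refine ⟨⟨v', hv'⟩, Subtype.ext ?_⟩
  rw [rthkcbAct_coe, h, Submodule.coe_smul, ← Nat.cast_pow, Nat.cast_smul_eq_nsmul]

end faith

end Fermat.Agent.RT

end
end ZBRT_086_6
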