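/- GENERATED FILE (helper35, build-time optimisation, NOTES/ZB.md): verbatim concatenation of the modules
   Fermat.Agent.RT.K5.Indep
   Do not edit; do not import together with these modules. -/
import Fermat.Agent.ZB.RT_018

/-! ### bundled: `Fermat.Agent.RT.K5.Indep` -/
section ZBRT_088_0

/-!
# RT-K5, piece INDEP (helper7), abstract part: the residual traces at ALL elements of `G_ℚ`

`𝕋` a commutative ring acting on `J` with the package `Rtk7bPkg p L J Tr`, `act : 𝕋 →+* R` its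
action on a Hecke module (`R` any ring, e.g. `AddMonoid.End X`), `sc : 𝒪 →+* R` the scalars
(commuting with `act`), `act` FAITHFUL at the level `n₀` (`x ∈ B` kills `J[p^n₀]` ⇒ `act x = 0`).
If for every prime `ℓ` outside a finite set `S` the operator `act (Tr ℓ)` is `c_ℓ +` nilpotent with
`c_ℓ` a lift of `tr ρ̄(Frob_ℓ)`, then EVERY `x ∈ B` which represents `g + χ(g) g⁻¹` on `J[p^n₀]` is
`c +` nilpotent with `c` a lift of `tr ρ̄(g)` (weak Chebotarev + Lucas sequences).  In particular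
`act (Tr q)`, `q ∤ L p` ANY prime (also `q ∈ S`), is `c_q +` nilpotent, `c_q` a lift of
`tr ρ̄(Frob_q)`.

* `K5inRel act sc x c` : `act x − sc c` is nilpotent; stable under `+`, `−`, `*`, `ℕ`, Lucas;
* `k5in_exists_lucas` : the Lucas representative of `g` with `ρ̄(g) = ρ̄(τ)ᵐ`;
* `k5in_resid` : the statement above; `k5in_resid_frob` : the case `x = Tr q`;
* `k5in_unit_of_tw` : `(q + 1)² − c²` is a unit if `c` lifts `α + β`, `α β = 1`, `α ≠ β`, `q = 1`
  in the residue field;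
* `k5in_isUnit_of_nil` : then `(q + 1)² − T²` is a unit if `T − c` is nilpotent;
* `k5in_inj_of_rel` : the same as injectivity on a module.
-/

set_option autoImplicit false
set_option linter.unusedSectionVars false
set_option linter.unusedVariables false

namespace Fermat.Agent.RT.K5

open Fermat.Agent.ES Fermat.Agent.S30 Fermat.Agent.S31 Fermat.Agent.RT IsLocalRing Polynomial

section rel

variable {O 𝕋 R : Type} [CommRing O] [CommRing 𝕋] [Ring R] (act : 𝕋 →+* R) (sc : O →+* R)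

/-- `act x` is the scalar `c` up to a nilpotent -/
def K5inRel (x : 𝕋) (c : O) : Prop := IsNilpotent (act x - sc c)

variable {act sc}

theorem k5in_commute_act (x y : 𝕋) : Commute (act x) (act y) := by
  show act x * act y = act y * act x
  rw [← map_mul, ← map_mul, mul_comm]

theorem k5in_commute_sc (c d : O) : Commute (sc c) (sc d) := by
  show sc c * sc d = sc d * sc c
  rw [← map_mul, ← map_mul, mul_comm]

theorem k5in_commute (hsc : ∀ c x, Commute (sc c) (act x)) (x y : 𝕋) (c d : O) :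
    Commute (act x - sc c) (act y - sc d) :=
  Commute.sub_left
    (Commute.sub_right (k5in_commute_act x y) (hsc d x).symm)
    (Commute.sub_right (hsc c y) (k5in_commute_sc c d))

theorem K5inRel.add (hsc : ∀ c x, Commute (sc c) (act x)) {x y : 𝕋} {c d : O}
    (hx : K5inRel act sc x c) (hy : K5inRel act sc y d) : K5inRel act sc (x + y) (c + d) := by
  have e : act (x + y) - sc (c + d) = (act x - sc c) + (act y - sc d) := by
    rw [map_add, map_add]; abel
  show IsNilpotent _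
  rw [e]
  exact Commute.isNilpotent_add (k5in_commute hsc x y c d) hx hy

theorem K5inRel.sub (hsc : ∀ c x, Commute (sc c) (act x)) {x y : 𝕋} {c d : O}
    (hx : K5inRel act sc x c) (hy : K5inRel act sc y d) : K5inRel act sc (x - y) (c - d) := by
  have e : act (x - y) - sc (c - d) = (act x - sc c) - (act y - sc d) := by
    rw [map_sub, map_sub]; abel
  show IsNilpotent _
  rw [e]
  exact Commute.isNilpotent_sub (k5in_commute hsc x y c d) hx hy

theorem K5inRel.mul (hsc : ∀ c x, Commute (sc c) (act x)) {x y : 𝕋} {c d : O}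
    (hx : K5inRel act sc x c) (hy : K5inRel act sc y d) : K5inRel act sc (x * y) (c * d) := by
  have e : act (x * y) - sc (c * d) = (act x - sc c) * act y + sc c * (act y - sc d) := by
    rw [map_mul, map_mul]; noncomm_ring
  show IsNilpotent _
  rw [e]
  have c1 : Commute (act x - sc c) (act y) :=
    Commute.sub_left (k5in_commute_act x y) (hsc c y)
  have c2 : Commute (sc c) (act y - sc d) :=
    Commute.sub_right (hsc c y) (k5in_commute_sc c d)
  have n1 : IsNilpotent ((act x - sc c) * act y) := Commute.isNilpotent_mul_right c1 hx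
  have n2 : IsNilpotent (sc c * (act y - sc d)) := Commute.isNilpotent_mul_left c2 hy
  refine Commute.isNilpotent_add ?_ n1 n2
  have c3 : Commute (act x - sc c) (sc c) :=
    Commute.sub_left (hsc c x).symm (Commute.refl _)
  have c4 : Commute (act y) (sc c) := (hsc c y).symm
  have c5 : Commute (act y) (act y - sc d) :=
    Commute.sub_right (Commute.refl _) (hsc d y).symm
  exact Commute.mul_left (Commute.mul_right c3 (k5in_commute hsc x y c d))
    (Commute.mul_right c4 c5)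

theorem k5in_rel_natCast (n : ℕ) : K5inRel act sc (n : 𝕋) (n : O) := by
  show IsNilpotent _
  rw [map_natCast, map_natCast, sub_self]
  exact IsNilpotent.zero

theorem K5inRel.lucas (hsc : ∀ c x, Commute (sc c) (act x)) {a d : 𝕋} {c e : O}
    (ha : K5inRel act sc a c) (hd : K5inRel act sc d e) (m : ℕ) :
    K5inRel act sc (lucasS a d m) (lucasS c e m) := by
  induction m using Nat.twoStepInduction with
  | zero =>
    rw [lucasS_zero, lucasS_zero]
    exact_mod_cast k5in_rel_natCast (act := act) (sc := sc) 2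
  | one => rw [lucasS_one, lucasS_one]; exact ha
  | more j h0 h1 =>
    rw [lucasS_add_two, lucasS_add_two]
    exact ((ha.mul hsc h1).sub hsc (hd.mul hsc h0))

/-- change of the scalar by an element which is nilpotent in `R` -/
theorem K5inRel.congr (hsc : ∀ c x, Commute (sc c) (act x)) {x : 𝕋} {c c' : O}
    (hx : K5inRel act sc x c) (h : IsNilpotent (sc (c - c'))) : K5inRel act sc x c' := by
  have e : act x - sc c' = (act x - sc c) + sc (c - c') := by
    rw [map_sub]; abel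
  show IsNilpotent _
  rw [e]
  refine Commute.isNilpotent_add ?_ hx h
  exact Commute.sub_left (hsc _ x).symm (k5in_commute_sc _ _)

end rel

section main

variable {p L : ℕ} [Fact p.Prime] {𝕋 : Type} [CommRing 𝕋] {J : Type} [AddCommGroup J]
  [Module 𝕋 J] [DistribMulAction GQ J] {Tr : ℕ → 𝕋}
  {O : Type} [CommRing O] [IsLocalRing O] {R : Type} [Ring R]

/-- two representatives of the same `g` differ by an element killing `J[pⁿ]` -/
theorem k5in_approx_sub {n : ℕ} {g : GQ} {x x' : 𝕋}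
    (h : Rtk7bApprox p J (rtk7iD p 𝕋) n g x) (h' : Rtk7bApprox p J (rtk7iD p 𝕋) n g x') :
    ∀ y : J, p ^ n • y = 0 → (x - x') • y = 0 := by
  intro y hy
  rw [sub_smul, ← h y hy, ← h' y hy, sub_self]

/-- the Lucas representative of `g` given by weak Chebotarev, together with the residual
representation -/
theorem k5in_exists_lucas (hcheb : Cheb.WeakChebotarev) (hP : Rtk7bPkg p L J Tr)
    (ρbar : ResidualGaloisRep (ResidueField O))
    (S : Finset ℕ) (hgood : ∀ r : ℕ, r.Prime → r ∉ S → ¬ r ∣ L * p) (n : ℕ) (g : GQ) :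
    ∃ (ℓ : ℕ) (A : ValuationSubring (AlgebraicClosure ℚ)) (τ : GQ) (m : ℕ),
      ℓ.Prime ∧ ℓ ∉ S ∧ A.LiesOverPrime ℓ ∧ A.IsFrobeniusAt τ ℓ ∧
      Rtk7bApprox p J (rtk7iD p 𝕋) n g (lucasS (Tr ℓ) (ℓ : 𝕋) m) ∧
      ρbar.ρ g = ρbar.ρ τ ^ m := by
  have hp : p.Prime := Fact.out
  have hM0 : p ^ n ≠ 0 := pow_ne_zero n hp.ne_zero
  obtain ⟨E, hEfin, hE⟩ := hP.finite_level n
  obtain ⟨Lρ, hLfin, hLρ⟩ := ρbar.factorsThroughFiniteLevel
  have : NeZero ((p ^ n : ℕ) : AlgebraicClosure ℚ) := ⟨Nat.cast_ne_zero.mpr hM0⟩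
  obtain ⟨ζ, hζ⟩ := HasEnoughRootsOfUnity.exists_primitiveRoot (AlgebraicClosure ℚ) (p ^ n)
  have hζfin : FiniteDimensional ℚ (IntermediateField.adjoin ℚ {ζ}) :=
    IntermediateField.adjoin.finiteDimensional ((hζ.isIntegral (Nat.pos_of_ne_zero hM0)).tower_top)
  obtain ⟨F, hFfin, hFgal, hEF, hζF, hLF⟩ :=
    exists_galois_hull E (IntermediateField.adjoin ℚ {ζ}) Lρ
  have hζF' : ζ ∈ F := hζF (IntermediateField.mem_adjoin_simple_self ℚ ζ)
  have hF : ∀ σ : GQ, (∀ a ∈ F, σ a = a) → ∀ x : J, p ^ n • x = 0 → σ • x = x :=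
    fun σ h => hE σ fun a ha => h a (hEF ha)
  obtain ⟨ℓ, A, τ, m, hℓ, hℓS, hA, hτ, hg⟩ := hcheb F S g
  have hℓLp := hgood ℓ hℓ hℓS
  refine ⟨ℓ, A, τ, m, hℓ, hℓS, hA, hτ, ?_, ?_⟩
  · intro x hx
    have h1 := rtk7i_lucas_galois hP n F hF hℓ hℓLp hA hτ m g hg hx
    have hζ1 : ζ ^ (p ^ n) = 1 := hζ.pow_eq_one
    have h2 : (τ ^ m) ζ = ζ ^ (ℓ ^ m) :=
      frob_pow_rootOfUnity A
        (natCast_pow_not_mem_nonunits A hp hℓ (rtk7i_ne_of_not_dvd_mul hℓLp) hA n) hM0 hτ hζ1 m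
    have h3 : g ζ = ζ ^ (ℓ ^ m) := by rw [← hg ζ hζF', h2]
    have he : cycE p n g ≡ ℓ ^ m [MOD p ^ n] := cycE_of_apply p n g _ hζ h3
    rw [rtk7i_D_smul_of_modEq he (rtk7b_tors_gal n g⁻¹ hx)]
    exact h1
  · set u : GQ := (τ ^ m)⁻¹ * g with hu
    have huF : ∀ a ∈ Lρ, u a = a := by
      intro a ha
      rw [hu, AlgEquiv.mul_apply, ← hg a (hLF ha), ← AlgEquiv.mul_apply, inv_mul_cancel,
        AlgEquiv.one_apply]
    have h1 : ρbar.ρ u = 1 := hLρ u huF
    have h2 : g = τ ^ m * u := by rw [hu, mul_inv_cancel_left]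
    rw [h2, map_mul, h1, mul_one, map_pow]

/-- **K5-INDEP, abstract form.**  If `act (Tr ℓ)` is `c_ℓ +` nilpotent, `c_ℓ` a lift of
`tr ρ̄(Frob_ℓ)`, for all primes `ℓ ∉ S`, and `act` is faithful at the level `n₀` on `B`, then every
representative `x ∈ B` of `g` at the level `n₀` is `c +` nilpotent, `c` a lift of `tr ρ̄(g)`. -/
theorem k5in_resid (hcheb : Cheb.WeakChebotarev) (hP : Rtk7bPkg p L J Tr)
    (ρbar : ResidualGaloisRep (ResidueField O)) (act : 𝕋 →+* R) (sc : O →+* R)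
    (hsc : ∀ c x, Commute (sc c) (act x))
    (S : Finset ℕ) (hgood : ∀ r : ℕ, r.Prime → r ∉ S → ¬ r ∣ L * p)
    (B : Subring 𝕋) (hB : ∀ ℓ : ℕ, ℓ.Prime → ℓ ∉ S → Tr ℓ ∈ B)
    (n₀ : ℕ) (hfaith : ∀ x ∈ B, (∀ y : J, p ^ n₀ • y = 0 → x • y = 0) → act x = 0)
    (hres : ∀ ℓ : ℕ, ℓ.Prime → ℓ ∉ S →
      ∀ A : ValuationSubring (AlgebraicClosure ℚ), A.LiesOverPrime ℓ →
        ∀ τ : GQ, A.IsFrobeniusAt τ ℓ → ∃ c : O,
          residue O c = LinearMap.trace (ResidueField O) ρbar.V (ρbar.ρ τ) ∧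
          K5inRel act sc (Tr ℓ) c)
    (hchar : ∀ ℓ : ℕ, ℓ.Prime → ℓ ∉ S →
      ∀ A : ValuationSubring (AlgebraicClosure ℚ), A.LiesOverPrime ℓ →
        ∀ τ : GQ, A.IsFrobeniusAt τ ℓ →
          LinearMap.charpoly (ρbar.ρ τ) =
            X ^ 2 - C (LinearMap.trace (ResidueField O) ρbar.V (ρbar.ρ τ)) * X
              + C ((ℓ : ResidueField O)))
    (g : GQ) (x : 𝕋) (hx : x ∈ B) (hgx : Rtk7bApprox p J (rtk7iD p 𝕋) n₀ g x) :
    ∃ c : O, residue O c = LinearMap.trace (ResidueField O) ρbar.V (ρbar.ρ g) ∧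
      K5inRel act sc x c := by
  obtain ⟨ℓ, A, τ, m, hℓ, hℓS, hA, hτ, happ, hρ⟩ :=
    k5in_exists_lucas (O := O) hcheb hP ρbar S hgood n₀ g
  obtain ⟨c, hc, hrel⟩ := hres ℓ hℓ hℓS A hA τ hτ
  have hx1 : lucasS (Tr ℓ) (ℓ : 𝕋) m ∈ B :=
    rtk7i_lucasS_mem B (hB ℓ hℓ hℓS) (natCast_mem B ℓ) m
  have h0 : act (x - lucasS (Tr ℓ) (ℓ : 𝕋) m) = 0 :=
    hfaith _ (sub_mem hx hx1) (k5in_approx_sub hgx happ)
  have hact : act x = act (lucasS (Tr ℓ) (ℓ : 𝕋) m) := by
    rw [map_sub, sub_eq_zero] at h0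
    exact h0
  refine ⟨lucasS c (ℓ : O) m, ?_, ?_⟩
  · rw [lucasS_map, hc, map_natCast, hρ,
      trace_pow_eq_lucasS ρbar.finrank_eq (ρbar.ρ τ) _ _ (hchar ℓ hℓ hℓS A hA τ hτ) m]
  · show IsNilpotent _
    rw [hact]
    exact hrel.lucas hsc (k5in_rel_natCast ℓ) m

/-- the case of a Frobenius at ANY prime `q ∤ L p` (also `q ∈ S`) -/
theorem k5in_resid_frob (hcheb : Cheb.WeakChebotarev) (hP : Rtk7bPkg p L J Tr)
    (ρbar : ResidualGaloisRep (ResidueField O)) (act : 𝕋 →+* R) (sc : O →+* R)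
    (hsc : ∀ c x, Commute (sc c) (act x))
    (S : Finset ℕ) (hgood : ∀ r : ℕ, r.Prime → r ∉ S → ¬ r ∣ L * p)
    (B : Subring 𝕋) (hB : ∀ ℓ : ℕ, ℓ.Prime → ℓ ∉ S → Tr ℓ ∈ B)
    (n₀ : ℕ) (hfaith : ∀ x ∈ B, (∀ y : J, p ^ n₀ • y = 0 → x • y = 0) → act x = 0)
    (hres : ∀ ℓ : ℕ, ℓ.Prime → ℓ ∉ S →
      ∀ A : ValuationSubring (AlgebraicClosure ℚ), A.LiesOverPrime ℓ →
        ∀ τ : GQ, A.IsFrobeniusAt τ ℓ → ∃ c : O,
          residue O c = LinearMap.trace (ResidueField O) ρbar.V (ρbar.ρ τ) ∧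
          K5inRel act sc (Tr ℓ) c)
    (hchar : ∀ ℓ : ℕ, ℓ.Prime → ℓ ∉ S →
      ∀ A : ValuationSubring (AlgebraicClosure ℚ), A.LiesOverPrime ℓ →
        ∀ τ : GQ, A.IsFrobeniusAt τ ℓ →
          LinearMap.charpoly (ρbar.ρ τ) =
            X ^ 2 - C (LinearMap.trace (ResidueField O) ρbar.V (ρbar.ρ τ)) * X
              + C ((ℓ : ResidueField O)))
    {q : ℕ} (hq : q.Prime) (hqLp : ¬ q ∣ L * p) (hqB : Tr q ∈ B)
    {A : ValuationSubring (AlgebraicClosure ℚ)} (hA : A.LiesOverPrime q)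
    {τ : GQ} (hτ : A.IsFrobeniusAt τ q) :
    ∃ c : O, residue O c = LinearMap.trace (ResidueField O) ρbar.V (ρbar.ρ τ) ∧
      K5inRel act sc (Tr q) c :=
  k5in_resid hcheb hP ρbar act sc hsc S hgood B hB n₀ hfaith hres hchar τ (Tr q) hqB
    (rtk7i_approx_frob hP n₀ hq hqLp hA hτ)

end main

section tw

variable {O : Type} [CommRing O] [IsLocalRing O]

/-- `(q + 1)² − c²` is a unit if `c` lifts `α + β` with `α β = 1 = q` in the residue field and
`α ≠ β` -/
theorem k5in_unit_of_tw {c : O} {q : ℕ} {α β : ResidueField O} (hαβ : α ≠ β)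
    (hc : residue O c = α + β) (hprod : α * β = 1) (hq : (q : ResidueField O) = 1) :
    IsUnit (((q : O) + 1) ^ 2 - c ^ 2) := by
  rw [← IsLocalRing.residue_ne_zero_iff_isUnit, map_sub, map_pow, map_pow, map_add, map_one,
    map_natCast, hq, hc]
  have e : ((1 : ResidueField O) + 1) ^ 2 - (α + β) ^ 2 = -((α - β) ^ 2) := by
    have : ((1 : ResidueField O) + 1) ^ 2 = 4 * (α * β) := by rw [hprod]; ring
    rw [this]; ring
  rw [e, neg_ne_zero]
  exact pow_ne_zero 2 (sub_ne_zero.mpr hαβ)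

variable {R : Type} [Ring R] (sc : O →+* R)

/-- `(q + 1)² − T²` is a unit if `T − c` is nilpotent and `(q + 1)² − c²` is a unit -/
theorem k5in_isUnit_of_nil {T : R} {c : O} {q : ℕ} (hcT : ∀ d : O, Commute (sc d) T)
    (hnil : IsNilpotent (T - sc c)) (hu : IsUnit (((q : O) + 1) ^ 2 - c ^ 2)) :
    IsUnit (sc (((q : O) + 1) ^ 2) - T ^ 2) := by
  have e : sc (((q : O) + 1) ^ 2) - T ^ 2
      = sc (((q : O) + 1) ^ 2 - c ^ 2) + (-((T - sc c) * (T + sc c))) := by
    have h2 : (T - sc c) * (T + sc c) = T ^ 2 - sc (c ^ 2) := by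
      rw [map_pow, sub_mul, mul_add, mul_add, (hcT c).eq, pow_two, pow_two]; abel
    rw [h2, map_sub]; abel
  rw [e]
  have c1 : Commute (T - sc c) (T + sc c) :=
    Commute.sub_left (Commute.add_right (Commute.refl T) (hcT c).symm)
      (Commute.add_right (hcT c) (Commute.refl _))
  have n1 : IsNilpotent (-((T - sc c) * (T + sc c))) :=
    (Commute.isNilpotent_mul_right c1 hnil).neg
  refine n1.isUnit_add_left_of_commute (hu.map sc) ?_
  refine Commute.neg_left (Commute.mul_left ?_ ?_)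
  · exact Commute.sub_left (hcT _).symm (k5in_commute_sc _ _)
  · exact Commute.add_left (hcT _).symm (k5in_commute_sc _ _)

end tw

section inj

variable {O : Type} [CommRing O] [IsLocalRing O] {X : Type} [AddCommGroup X] [Module O X]

/-- **the Taylor–Wiles condition on a module**: if `T − c` is nilpotent on `X` (`T` additive,
commuting with the scalars) and `(q + 1)² − c²` is a unit, then `(q + 1)² − T²` is injective on
`X`. -/
theorem k5in_inj_of_rel {T : AddMonoid.End X} {c : O} {q : ℕ}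
    (hcT : ∀ d : O, Commute (Module.toAddMonoidEnd O X d) T)
    (hnil : IsNilpotent (T - Module.toAddMonoidEnd O X c))
    (hu : IsUnit (((q : O) + 1) ^ 2 - c ^ 2)) (φ : X)
    (h : (q + 1) • (q + 1) • φ - T (T φ) = 0) : φ = 0 := by
  have hU := k5in_isUnit_of_nil (Module.toAddMonoidEnd O X) hcT hnil hu
  obtain ⟨V, hV⟩ := hU
  have e : (Module.toAddMonoidEnd O X (((q : O) + 1) ^ 2) - T ^ 2) φ = 0 := by
    have e1 : (Module.toAddMonoidEnd O X (((q : O) + 1) ^ 2)) φ = (q + 1) • (q + 1) • φ := by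
      show (((q : O) + 1) ^ 2) • φ = _
      rw [pow_two, mul_smul]
      have : ((q : O) + 1) = ((q + 1 : ℕ) : O) := by push_cast; rfl
      rw [this, Nat.cast_smul_eq_nsmul, Nat.cast_smul_eq_nsmul]
    have e2 : (T ^ 2) φ = T (T φ) := by rw [pow_two]; rfl
    have e3 : (Module.toAddMonoidEnd O X (((q : O) + 1) ^ 2) - T ^ 2) φ
        = (Module.toAddMonoidEnd O X (((q : O) + 1) ^ 2)) φ - (T ^ 2) φ := rfl
    rw [e3, e1, e2]
    exact h
  have h1 : ((V⁻¹ : (AddMonoid.End X)ˣ) : AddMonoid.End X) ((V : AddMonoid.End X) φ) = φ := by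
    have h2 : ((V⁻¹ : (AddMonoid.End X)ˣ) : AddMonoid.End X) * (V : AddMonoid.End X) = 1 :=
      Units.inv_mul V
    have h3 := congrArg (fun f : AddMonoid.End X => f φ) h2
    exact h3
  rw [← h1, hV, e, map_zero]

end inj

end Fermat.Agent.RT.K5


end ZBRT_088_0
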