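/- GENERATED FILE (helper35, build-time optimisation, NOTES/ZB.md): verbatim concatenation of the modules
   Fermat.Agent.RT.K5.LocAbs
   Fermat.Agent.RT.K5.LocAbs2
   Fermat.Agent.RT.K5.LocFam
   Fermat.Agent.RT.K5.LocExpr
   Fermat.Agent.RT.Hecke.ConcBaseNil
   Fermat.Agent.RT.Hecke.ConcBase
   Fermat.Agent.RT.K5.Indep2
   Fermat.Agent.RT.K5.Indep3
   Fermat.Agent.RT.K5.Indep4
   Fermat.Agent.RT.Hecke.ConcIndep
   Fermat.Agent.RT.K5.NZ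
   Fermat.Agent.RT.K5.NZSetup
   Fermat.Agent.RT.K5.NZIntr
   Fermat.Agent.RT.Hecke.ConcK5
   Fermat.Agent.RT.Hecke.ConcK5Fam
   Fermat.Agent.RT.Hecke.ConcK5Fin
   Do not edit; do not import together with these modules. -/
import Fermat.Agent.ZB.ES1_001
import Fermat.Agent.ZB.RT_019
import Fermat.Agent.ZB.RT_028
import Fermat.Agent.ZB.RT_035
import Fermat.Agent.ZB.S41_005
import Fermat.Agent.ZB.RT_086
import Fermat.Agent.ZB.RT_027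
import Fermat.Agent.ZB.Common_003
import Fermat.Agent.ZB.ES1_020
import Fermat.Agent.ZB.RT_088
import Fermat.Agent.ZB.RT_034
import Fermat.Agent.ZB.RT_040
import Fermat.Agent.ZB.RT_007
import Fermat.Agent.ZB.RT_033
import Fermat.Agent.ZB.ES_009
import Fermat.Agent.ZB.S41_006
import Fermat.Agent.ZB.HW_006
import Fermat.Agent.ZB.RT_043
import Fermat.Agent.ZB.Cheb_002

/-! ### bundled: `Fermat.Agent.RT.K5.LocAbs` -/
section ZBRT_087_0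

/-!
# K-machine, piece K5-LOC (helper15), abstract part: generalised eigenspaces of commuting
endomorphisms of a finite abelian group are cut out by an idempotent polynomial

`V` a finite abelian group, `θ : V →+ V`.
* `k5lcKer θ = ⋃ ker θⁿ`, the generalised kernel;
* `k5lc_exists_idem` : some power `E = θ^m` (`m > 0`) is idempotent, `E x = x ↔ x ∈ etaPart θ`,
  `E x = 0 ↔ x ∈ k5lcKer θ`;
* `k5lcProj θ m = 1 − θ^m`; for commuting `θ i` and such exponents `m i` the composite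
  `k5lcProd` of the `1 − (θ i)^(m i)` over a list is idempotent with image `⋂ k5lcKer (θ i)`
  (`k5lc_prod_fix_iff`), and `etaPart` of it is this image (`k5lc_etaPart_of_idem`);
* `k5lc_exists_finset` : in a finite group an arbitrary intersection of subgroups is a finite one.
-/

set_option autoImplicit false
set_option linter.style.haveILetI false
set_option linter.unusedSectionVars false
set_option linter.unusedVariables false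

noncomputable section

namespace Fermat.Agent.RT.K5

section genker

variable {V : Type*} [AddCommGroup V]

/-- the generalised kernel `⋃ ker θⁿ` -/
def k5lcKer (θ : V →+ V) : AddSubgroup V where
  carrier := {x | ∃ n : ℕ, k5s_pow θ n x = 0}
  zero_mem' := ⟨0, map_zero _⟩
  add_mem' := by
    rintro x y ⟨n, hn⟩ ⟨m, hm⟩
    refine ⟨m + n, ?_⟩
    rw [map_add, k5fx_pow_add θ m n x, hn, map_zero, add_comm m n, k5fx_pow_add θ n m y, hm,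
      map_zero, add_zero]
  neg_mem' := by
    rintro x ⟨n, hn⟩
    exact ⟨n, by rw [map_neg, hn, neg_zero]⟩

theorem k5lc_mem_ker (θ : V →+ V) (x : V) : x ∈ k5lcKer θ ↔ ∃ n : ℕ, k5s_pow θ n x = 0 :=
  Iff.rfl

theorem k5lc_pow_mul (θ : V →+ V) (m n : ℕ) (x : V) :
    k5s_pow θ (m * n) x = k5s_pow (k5s_pow θ m) n x := by
  unfold k5s_pow
  rw [pow_mul]

theorem k5lc_pow_eq_zero_of_le (θ : V →+ V) {m n : ℕ} (h : m ≤ n) {x : V}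
    (hx : k5s_pow θ m x = 0) : k5s_pow θ n x = 0 := by
  obtain ⟨k, rfl⟩ := Nat.exists_eq_add_of_le h
  rw [add_comm, k5fx_pow_add, hx, map_zero]

/-- powers of an idempotent -/
theorem k5lc_idem_pow (E : V →+ V) (hE : ∀ x, E (E x) = E x) (n : ℕ) (x : V) :
    k5s_pow E (n + 1) x = E x := by
  induction n with
  | zero => rfl
  | succ n ih => rw [k5s_pow_succ', ih, hE]

/-- `etaPart` of an idempotent is its image -/
theorem k5lc_etaPart_of_idem (E : V →+ V) (hE : ∀ x, E (E x) = E x) (x : V) :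
    x ∈ etaPart E ↔ E x = x := by
  rw [k5s_mem_etaPart]
  constructor
  · intro h
    obtain ⟨u, hu⟩ := h 1
    have : E u = x := hu
    rw [← this, hE]
  · intro h n
    refine ⟨x, ?_⟩
    cases n with
    | zero => rfl
    | succ n => rw [k5lc_idem_pow E hE, h]

/-- **Fitting idempotent**: some power of `θ` is the projector onto `etaPart θ` along the
generalised kernel -/
theorem k5lc_exists_idem [Finite V] (θ : V →+ V) :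
    ∃ m : ℕ, 0 < m ∧ (∀ x, k5s_pow θ m (k5s_pow θ m x) = k5s_pow θ m x) ∧
      (∀ x, x ∈ etaPart θ ↔ k5s_pow θ m x = x) ∧
      (∀ x, x ∈ k5lcKer θ ↔ k5s_pow θ m x = 0) := by
  haveI : Finite (AddMonoid.End V) :=
    Finite.of_injective (fun f : AddMonoid.End V => ((f : V →+ V) : V → V))
      (fun f g h => DFunLike.coe_injective h)
  obtain ⟨m, hm, hidem⟩ := k5of_exists_idem_pow (show AddMonoid.End V from θ)
  have hE : ∀ x, k5s_pow θ m (k5s_pow θ m x) = k5s_pow θ m x := fun x =>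
    DFunLike.congr_fun hidem x
  refine ⟨m, hm, hE, fun x => ⟨?_, ?_⟩, fun x => ⟨?_, fun h => ⟨m, h⟩⟩⟩
  · intro hx
    obtain ⟨u, hu⟩ := (k5s_mem_etaPart θ x).mp hx m
    rw [← hu, hE]
  · intro hx
    rw [k5s_mem_etaPart]
    intro n
    -- `x = E^(n) x = θ^(m n) x`
    have h1 : k5s_pow θ (m * (n + 1)) x = x := by
      rw [k5lc_pow_mul, k5lc_idem_pow _ hE, hx]
    have h2 : n ≤ m * (n + 1) := by nlinarith
    obtain ⟨k, hk⟩ := Nat.exists_eq_add_of_le h2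
    refine ⟨k5s_pow θ k x, ?_⟩
    rw [← k5fx_pow_add, ← hk, h1]
  · rintro ⟨n, hn⟩
    have h1 : k5s_pow θ (m * (n + 1)) x = k5s_pow θ m x := by
      rw [k5lc_pow_mul, k5lc_idem_pow _ hE]
    rw [← h1]
    exact k5lc_pow_eq_zero_of_le θ (by nlinarith) hn

/-- one exponent for all endomorphisms of a finite group -/
theorem k5lc_exists_uniform (V : Type*) [AddCommGroup V] [Finite V] :
    ∃ N : ℕ, 0 < N ∧ ∀ θ : V →+ V,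
      (∀ x, k5s_pow θ N (k5s_pow θ N x) = k5s_pow θ N x) ∧
      (∀ x, x ∈ etaPart θ ↔ k5s_pow θ N x = x) ∧
      (∀ x, x ∈ k5lcKer θ ↔ k5s_pow θ N x = 0) := by
  classical
  haveI : Finite (V →+ V) :=
    Finite.of_injective (fun f : V →+ V => (f : V → V)) (fun f g h => DFunLike.coe_injective h)
  letI : Fintype (V →+ V) := Fintype.ofFinite _
  choose m hm0 hidem heta hker using fun θ : V →+ V => k5lc_exists_idem θ
  refine ⟨∏ θ : V →+ V, m θ, Finset.prod_pos fun θ _ => hm0 θ, fun θ => ?_⟩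
  obtain ⟨k, hk⟩ : m θ ∣ ∏ θ : V →+ V, m θ := Finset.dvd_prod_of_mem m (Finset.mem_univ θ)
  have hk0 : 0 < k := by
    rcases Nat.eq_zero_or_pos k with h | h
    · have hpos : 0 < ∏ θ : V →+ V, m θ := Finset.prod_pos fun θ _ => hm0 θ
      rw [hk, h, mul_zero] at hpos
      exact absurd hpos (lt_irrefl 0)
    · exact h
  obtain ⟨k', rfl⟩ : ∃ k', k = k' + 1 := ⟨k - 1, by omega⟩
  have hpow : ∀ x, k5s_pow θ (∏ θ : V →+ V, m θ) x = k5s_pow θ (m θ) x := fun x => by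
    rw [hk, k5lc_pow_mul, k5lc_idem_pow _ (hidem θ)]
  refine ⟨fun x => ?_, fun x => ?_, fun x => ?_⟩
  · rw [hpow, hpow, hidem]
  · rw [hpow]; exact heta θ x
  · rw [hpow]; exact hker θ x

end genker

section product

variable {V : Type*} [AddCommGroup V]

/-- `1 − θ^m` -/
def k5lcProj (θ : V →+ V) (m : ℕ) : V →+ V := AddMonoidHom.id V - k5s_pow θ m

theorem k5lcProj_apply (θ : V →+ V) (m : ℕ) (x : V) : k5lcProj θ m x = x - k5s_pow θ m x := rfl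

/-- the composite of the `1 − (θ i)^(m i)` over a list -/
def k5lcProd {ι : Type*} (θ : ι → V →+ V) (m : ι → ℕ) : List ι → V →+ V
  | [] => AddMonoidHom.id V
  | i :: l => (k5lcProj (θ i) (m i)).comp (k5lcProd θ m l)

theorem k5lc_pow_comm (θ η : V →+ V) (h : ∀ x, θ (η x) = η (θ x)) (n : ℕ) (x : V) :
    k5s_pow θ n (η x) = η (k5s_pow θ n x) := by
  induction n generalizing x with
  | zero => rfl
  | succ n ih => rw [k5s_pow_succ, h, ih, ← k5s_pow_succ]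

theorem k5lc_proj_comm (θ η : V →+ V) (h : ∀ x, θ (η x) = η (θ x)) (n : ℕ) (x : V) :
    k5lcProj θ n (η x) = η (k5lcProj θ n x) := by
  rw [k5lcProj_apply, k5lcProj_apply, k5lc_pow_comm θ η h, map_sub]

theorem k5lc_prod_comm {ι : Type*} (θ : ι → V →+ V) (m : ι → ℕ) (η : V →+ V)
    (h : ∀ i x, θ i (η x) = η (θ i x)) (l : List ι) (x : V) :
    k5lcProd θ m l (η x) = η (k5lcProd θ m l x) := by
  induction l generalizing x with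
  | nil => rfl
  | cons i l ih =>
    show k5lcProj (θ i) (m i) (k5lcProd θ m l (η x)) = η (k5lcProj (θ i) (m i) (k5lcProd θ m l x))
    rw [ih, k5lc_proj_comm (θ i) η (h i)]

/-- the fixed points of the product of commuting projectors -/
theorem k5lc_prod_fix_iff {ι : Type*} (θ : ι → V →+ V) (m : ι → ℕ)
    (hcomm : ∀ i j x, θ i (θ j x) = θ j (θ i x))
    (hidem : ∀ i x, k5s_pow (θ i) (m i) (k5s_pow (θ i) (m i) x) = k5s_pow (θ i) (m i) x)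
    (l : List ι) (x : V) :
    k5lcProd θ m l x = x ↔ ∀ i ∈ l, k5s_pow (θ i) (m i) x = 0 := by
  induction l generalizing x with
  | nil => simp [k5lcProd]
  | cons i l ih =>
    have hc : ∀ y, k5s_pow (θ i) (m i) (k5lcProd θ m l y) = k5lcProd θ m l (k5s_pow (θ i) (m i) y) :=
      fun y => (k5lc_prod_comm θ m (k5s_pow (θ i) (m i))
        (fun j z => (k5lc_pow_comm (θ i) (θ j) (fun w => hcomm i j w) (m i) z).symm) l y).symm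
    constructor
    · intro h
      have h' : k5lcProd θ m l x - k5s_pow (θ i) (m i) (k5lcProd θ m l x) = x := h
      -- apply `E`
      have hE : k5s_pow (θ i) (m i) x = 0 := by
        have := congrArg (k5s_pow (θ i) (m i)) h'
        rw [map_sub, hidem, sub_self] at this
        exact this.symm
      have hP : k5lcProd θ m l x = x := by
        rw [hc, hE, map_zero, sub_zero] at h'
        exact h'
      intro j hj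
      rcases List.mem_cons.mp hj with rfl | hj
      · exact hE
      · exact (ih x).mp hP j hj
    · intro h
      have hE : k5s_pow (θ i) (m i) x = 0 := h i List.mem_cons_self
      have hP : k5lcProd θ m l x = x :=
        (ih x).mpr fun j hj => h j (List.mem_cons_of_mem _ hj)
      show k5lcProd θ m l x - k5s_pow (θ i) (m i) (k5lcProd θ m l x) = x
      rw [hP, hE, sub_zero]

/-- the product of commuting projectors is idempotent -/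
theorem k5lc_prod_idem {ι : Type*} (θ : ι → V →+ V) (m : ι → ℕ)
    (hcomm : ∀ i j x, θ i (θ j x) = θ j (θ i x))
    (hidem : ∀ i x, k5s_pow (θ i) (m i) (k5s_pow (θ i) (m i) x) = k5s_pow (θ i) (m i) x)
    (l : List ι) (x : V) :
    k5lcProd θ m l (k5lcProd θ m l x) = k5lcProd θ m l x := by
  rw [k5lc_prod_fix_iff θ m hcomm hidem]
  intro i hi
  induction l generalizing x with
  | nil => simp at hi
  | cons j l ih =>
    have hcj : ∀ y, k5s_pow (θ i) (m i) (k5lcProj (θ j) (m j) y)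
        = k5lcProj (θ j) (m j) (k5s_pow (θ i) (m i) y) := fun y =>
      (k5lc_proj_comm (θ j) (k5s_pow (θ i) (m i))
        (fun z => (k5lc_pow_comm (θ i) (θ j) (fun w => hcomm i j w) (m i) z).symm) (m j) y).symm
    show k5s_pow (θ i) (m i) (k5lcProj (θ j) (m j) (k5lcProd θ m l x)) = 0
    rcases List.mem_cons.mp hi with rfl | hi
    · rw [k5lcProj_apply, map_sub, hidem, sub_self]
    · rw [hcj, ih x hi, map_zero]

end product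

section finset

variable {V : Type*} [AddCommGroup V] [Finite V]

/-- in a finite group, an arbitrary intersection of subgroups is a finite intersection -/
theorem k5lc_exists_list {ι : Type*} (K : ι → AddSubgroup V) :
    ∃ l : List ι, ∀ x : V, (∀ i ∈ l, x ∈ K i) → ∀ i, x ∈ K i := by
  classical
  -- minimise the cardinality of the finite intersections
  let c : List ι → ℕ := fun l => Nat.card ↥{x : V | ∀ i ∈ l, x ∈ K i}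
  obtain ⟨l, hl⟩ : ∃ l, ∀ l', c l ≤ c l' := by
    have hne : (Set.range c).Nonempty := ⟨c [], ⟨[], rfl⟩⟩
    obtain ⟨l, hl⟩ := Nat.sInf_mem hne
    exact ⟨l, fun l' => hl ▸ Nat.sInf_le ⟨l', rfl⟩⟩
  refine ⟨l, fun x hx j => ?_⟩
  by_contra hxj
  -- `j :: l` has a strictly smaller intersection
  have hlt : c (j :: l) < c l := by
    have hsub : {x : V | ∀ i ∈ j :: l, x ∈ K i} ⊂ {x : V | ∀ i ∈ l, x ∈ K i} := by
      refine ⟨fun y hy i hi => hy i (List.mem_cons_of_mem _ hi), fun h => ?_⟩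
      exact hxj (h hx j List.mem_cons_self)
    have := Set.ncard_lt_ncard hsub (Set.toFinite _)
    rw [← Nat.card_coe_set_eq, ← Nat.card_coe_set_eq] at this
    exact this
  exact absurd (hl (j :: l)) (not_le.mpr hlt)

end finset

end Fermat.Agent.RT.K5

end


end ZBRT_087_0

/-! ### bundled: `Fermat.Agent.RT.K5.LocAbs2` -/
section ZBRT_087_1

/-!
# K-machine, piece K5-LOC (helper15), abstract part 2: `etaPart (P ∘ Θ)` for a product of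
unipotent-on-the-eigenspace factors `P = ∏ (1 − (S i)^N)`

`V` a finite abelian group, `Θ`, `S i` commuting endomorphisms, `P = k5lcProd S (fun _ => N) l`.
* `k5lc_subset_etaPart` : a finite subgroup mapped injectively into itself by `f` lies in
  `etaPart f`;
* `k5lc_proj_inj` : `1 − S^N` (`N > 0`) is injective on the generalised kernel of `S`;
* `k5lc_mem_etaPart_comp` : `etaPart Θ ∩ ⋂_{i ∈ l} k5lcKer (S i) ⊆ etaPart (P ∘ Θ)`;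
* `k5lc_etaPart_comp_le` : `etaPart (P ∘ Θ) ⊆ etaPart Θ`;
* `k5lc_etaPart_comp_surj` : `P` maps `etaPart (P ∘ Θ)` onto itself.
-/

set_option autoImplicit false
set_option linter.style.haveILetI false
set_option linter.unusedSectionVars false
set_option linter.unusedVariables false

noncomputable section

namespace Fermat.Agent.RT.K5

section abs2

variable {V : Type*} [AddCommGroup V]

/-- a finite subgroup mapped injectively into itself lies in the bijective part -/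
theorem k5lc_subset_etaPart (f : V →+ V) (W : AddSubgroup V) [Finite W]
    (hW : ∀ w ∈ W, f w ∈ W) (hinj : ∀ w ∈ W, f w = 0 → w = 0) {v : V} (hv : v ∈ W) :
    v ∈ etaPart f := by
  -- `f` restricted to `W` is a bijection
  let r : W → W := fun w => ⟨f w, hW w w.2⟩
  have hri : Function.Injective r := by
    intro x y hxy
    have h1 : f x = f y := congrArg Subtype.val hxy
    have h2 : f ((x : V) - y) = 0 := by rw [map_sub, h1, sub_self]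
    have h3 := hinj _ (W.sub_mem x.2 y.2) h2
    exact Subtype.ext (sub_eq_zero.mp h3)
  have hrs : Function.Surjective r := Finite.injective_iff_surjective.mp hri
  rw [k5s_mem_etaPart]
  intro n
  induction n generalizing v with
  | zero => exact ⟨v, rfl⟩
  | succ n ih =>
    obtain ⟨w, hw⟩ := hrs ⟨v, hv⟩
    obtain ⟨u, hu⟩ := ih w.2
    refine ⟨u, ?_⟩
    rw [k5s_pow_succ', hu]
    exact congrArg Subtype.val hw

/-- `1 − S^N`, `N > 0`, is injective on the generalised kernel of `S` -/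
theorem k5lc_proj_inj (S : V →+ V) {N : ℕ} (hN : 0 < N) {x : V} (hx : x ∈ k5lcKer S)
    (h0 : k5lcProj S N x = 0) : x = 0 := by
  have h1 : k5s_pow S N x = x := by
    rw [k5lcProj_apply, sub_eq_zero] at h0
    exact h0.symm
  obtain ⟨n, hn⟩ := hx
  have h2 : ∀ k : ℕ, k5s_pow S (N * k) x = x := by
    intro k
    induction k with
    | zero => rfl
    | succ k ih => rw [Nat.mul_succ, add_comm, k5fx_pow_add, ih, h1]
  rw [← h2 n]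
  exact k5lc_pow_eq_zero_of_le S (Nat.le_mul_of_pos_left n hN) hn

/-- the generalised kernel of `S` is stable under every endomorphism commuting with `S` -/
theorem k5lc_ker_stable (S f : V →+ V) (h : ∀ x, S (f x) = f (S x)) {x : V}
    (hx : x ∈ k5lcKer S) : f x ∈ k5lcKer S := by
  obtain ⟨n, hn⟩ := hx
  exact ⟨n, by rw [k5lc_pow_comm S f h, hn, map_zero]⟩

/-- `k5lcProj` preserves the generalised kernels -/
theorem k5lc_proj_ker_stable (S S' : V →+ V) (h : ∀ x, S (S' x) = S' (S x)) (N : ℕ) {x : V}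
    (hx : x ∈ k5lcKer S) : k5lcProj S' N x ∈ k5lcKer S := by
  rw [k5lcProj_apply]
  refine (k5lcKer S).sub_mem hx ?_
  obtain ⟨n, hn⟩ := hx
  refine ⟨n, ?_⟩
  have hc : ∀ y, S (k5s_pow S' N y) = k5s_pow S' N (S y) :=
    fun y => (k5lc_pow_comm S' S (fun z => (h z).symm) N y).symm
  rw [k5lc_pow_comm S _ hc, hn, map_zero]

/-- the product `∏ (1 − (S i)^N)` is injective on `⋂_{i ∈ l} k5lcKer (S i)` -/
theorem k5lc_prod_inj {ι : Type*} (S : ι → V →+ V) (hcomm : ∀ i j x, S i (S j x) = S j (S i x))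
    {N : ℕ} (hN : 0 < N) (l : List ι) {x : V} (hx : ∀ i ∈ l, x ∈ k5lcKer (S i))
    (h0 : k5lcProd S (fun _ => N) l x = 0) : x = 0 := by
  induction l generalizing x with
  | nil => exact h0
  | cons i l ih =>
    -- `k5lcProd (i :: l) x = (1 − S_i^N) (k5lcProd l x)`, and `k5lcProd l x ∈ ker S_i^∞`
    have hmem : k5lcProd S (fun _ => N) l x ∈ k5lcKer (S i) := by
      obtain ⟨n, hn⟩ := hx i List.mem_cons_self
      refine ⟨n, ?_⟩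
      rw [← k5lc_prod_comm S (fun _ => N) (k5s_pow (S i) n)
        (fun j z => (k5lc_pow_comm (S i) (S j) (fun w => hcomm i j w) n z).symm) l x, hn,
        map_zero]
    have h1 : k5lcProd S (fun _ => N) l x = 0 := k5lc_proj_inj (S i) hN hmem h0
    exact ih (fun j hj => hx j (List.mem_cons_of_mem _ hj)) h1

/-- the product `∏ (1 − (S i)^N)` preserves `k5lcKer (S j)` -/
theorem k5lc_prod_ker_stable {ι : Type*} (S : ι → V →+ V)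
    (hcomm : ∀ i j x, S i (S j x) = S j (S i x)) (N : ℕ) (l : List ι) (j : ι) {x : V}
    (hx : x ∈ k5lcKer (S j)) : k5lcProd S (fun _ => N) l x ∈ k5lcKer (S j) := by
  induction l with
  | nil => exact hx
  | cons i l ih => exact k5lc_proj_ker_stable (S j) (S i) (fun y => hcomm j i y) N ih

variable [Finite V]

/-- **(⊇)**: `etaPart Θ ∩ ⋂_{i ∈ l} k5lcKer (S i) ⊆ etaPart (P ∘ Θ)` -/
theorem k5lc_mem_etaPart_comp {ι : Type*} (S : ι → V →+ V) (Θ : V →+ V)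
    (hcomm : ∀ i j x, S i (S j x) = S j (S i x)) (hΘ : ∀ i x, S i (Θ x) = Θ (S i x))
    {N : ℕ} (hN : 0 < N) (l : List ι) {v : V} (hv : v ∈ etaPart Θ)
    (hk : ∀ i ∈ l, v ∈ k5lcKer (S i)) :
    v ∈ etaPart ((k5lcProd S (fun _ => N) l).comp Θ) := by
  -- the subgroup `W = etaPart Θ ∩ ⋂ ker`
  let W : AddSubgroup V := etaPart Θ ⊓ ⨅ i : {i // i ∈ l}, k5lcKer (S i.1)
  have hmemW : ∀ w, w ∈ W ↔ w ∈ etaPart Θ ∧ ∀ i ∈ l, w ∈ k5lcKer (S i) := by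
    intro w
    simp only [W, AddSubgroup.mem_inf, AddSubgroup.mem_iInf, Subtype.forall]
  have hΘP : ∀ x, k5lcProd S (fun _ => N) l (Θ x) = Θ (k5lcProd S (fun _ => N) l x) :=
    fun x => k5lc_prod_comm S (fun _ => N) Θ hΘ l x
  refine k5lc_subset_etaPart _ W ?_ ?_ ((hmemW v).mpr ⟨hv, hk⟩)
  · intro w hw
    obtain ⟨hw1, hw2⟩ := (hmemW w).mp hw
    refine (hmemW _).mpr ⟨?_, fun i hi => ?_⟩
    · show k5lcProd S (fun _ => N) l (Θ w) ∈ etaPart Θ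
      rw [hΘP]
      exact k5s_etaPart_stable Θ
        (k5s_intertwine_mem Θ Θ (k5lcProd S (fun _ => N) l) hΘP hw1)
    · show k5lcProd S (fun _ => N) l (Θ w) ∈ k5lcKer (S i)
      exact k5lc_prod_ker_stable S hcomm N l i (k5lc_ker_stable (S i) Θ (hΘ i) (hw2 i hi))
  · intro w hw h0
    obtain ⟨hw1, hw2⟩ := (hmemW w).mp hw
    have h1 : Θ w = 0 :=
      k5lc_prod_inj S hcomm hN l (fun i hi => k5lc_ker_stable (S i) Θ (hΘ i) (hw2 i hi)) h0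
    exact (k5fx_fitting Θ).2.1 w hw1 h1

/-- powers of a composite of commuting endomorphisms -/
theorem k5lc_pow_comp (P Θ : V →+ V) (hPΘ : ∀ x, P (Θ x) = Θ (P x)) (n : ℕ) (u : V) :
    k5s_pow (P.comp Θ) n u = k5s_pow Θ n (k5s_pow P n u) := by
  induction n generalizing u with
  | zero => rfl
  | succ n ih =>
    have h1 : k5s_pow (P.comp Θ) (n + 1) u = k5s_pow (P.comp Θ) n (P (Θ u)) :=
      k5s_pow_succ _ n u
    rw [h1, ih, ← k5s_pow_succ P n (Θ u), k5lc_pow_comm P Θ hPΘ, ← k5s_pow_succ Θ n]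

/-- `etaPart (P ∘ Θ) ⊆ etaPart Θ` for commuting `P`, `Θ` -/
theorem k5lc_etaPart_comp_le (P Θ : V →+ V) (hPΘ : ∀ x, P (Θ x) = Θ (P x)) {v : V}
    (hv : v ∈ etaPart (P.comp Θ)) : v ∈ etaPart Θ := by
  rw [k5s_mem_etaPart] at hv ⊢
  intro n
  obtain ⟨u, hu⟩ := hv n
  exact ⟨k5s_pow P n u, by rw [← hu, k5lc_pow_comp P Θ hPΘ]⟩

/-- `P` maps `etaPart (P ∘ Θ)` onto itself -/
theorem k5lc_etaPart_comp_surj (P Θ : V →+ V) (hPΘ : ∀ x, P (Θ x) = Θ (P x)) {v : V}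
    (hv : v ∈ etaPart (P.comp Θ)) : ∃ w ∈ etaPart (P.comp Θ), P w = v := by
  obtain ⟨w, hw, h⟩ := (k5fx_fitting (P.comp Θ)).2.2 v hv
  refine ⟨Θ w, ?_, h⟩
  refine k5s_intertwine_mem (P.comp Θ) (P.comp Θ) Θ (fun x => ?_) hw
  show Θ (P (Θ x)) = P (Θ (Θ x))
  rw [hPΘ x, hPΘ (Θ x), hPΘ x]

end abs2

end Fermat.Agent.RT.K5

end


end ZBRT_087_1

/-! ### bundled: `Fermat.Agent.RT.K5.LocFam` -/
section ZBRT_087_2

/-!
# K-machine, piece K5-LOC (helper15), concrete part: the `𝔪`-part of the `Θ`-part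

`𝔱 i` (`i : ι`) commuting natural families (e.g. `NatFam.hecke (ℓ i)`), `a i ∈ 𝒪`,
`S i = 𝔱 i − a i`, `P = k5lcFam 𝔱 a N l = ∏_{i ∈ l} (1 − (S i)^N)` (a natural family again).
For every natural family `𝔳` commuting with the `𝔱 i`:

* `k5lc_fam_op`   : the operator of `P` is `k5lcProd` of the operators of the `S i`;
* `k5lc_intrinsic_ge` : `etaPart Θ_𝔳 ∩ ⋂_i ker (S i)^∞ ⊆ etaPart Θ_{P 𝔳}`  (every finite `A`);
* `k5lc_intrinsic_le` : if `etaPart Θ_{P 𝔳} ⊆ ⋂_i ker (S i)^∞` with coefficients `𝒪/𝔪` then the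
  same holds with coefficients `𝒪/𝔪ⁿ`, every `n` (dévissage, `stmtCoeffExact`);
* `k5lc_valid_of_le` : validity at `H'` (all of `Hom(Γ_{H'}, 𝒪/𝔪)`) gives validity at every
  `K ≥ H'` (`res` is injective on the `η`-part, `stmtE1`);
* `k5lc_exists` : `N`, `l` exist (`LocAbs.lean`);
* `k5lc_main` : the INTRINSIC description
  `etaPart Θ_{P 𝔳} = etaPart Θ_𝔳 ∩ ⋂_i ker (S i)^∞` for all `n`, `K ≥ H'`, `𝔳`;
* `k5lc_nilpotent` : on `etaPart Θ_{P 𝔳}` every `S i` is nilpotent (uniform exponent).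
-/

set_option autoImplicit false
set_option linter.style.haveILetI false
set_option linter.unusedSectionVars false
set_option linter.unusedVariables false

noncomputable section

namespace Fermat.Agent.RT.K5

open CongruenceSubgroup Matrix
open scoped MatrixGroups
open Fermat.Agent.ES1 (gammaH diamHom pmH)

section fam

variable {𝒪 : Type} [CommRing 𝒪] {L M : ℕ} [NeZero L] [hML : Fact (M ∣ L)]

/-- two natural families commute -/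
def NatFam.Commutes (𝔲 𝔳 : NatFam 𝒪 L M) : Prop :=
  ∀ (A : Type) [AddCommGroup A] [Module 𝒪 A] (K : Subgroup (ZMod M)ˣ)
    (φ : HomS (gammaH L M K) A),
    (𝔲.fam A).op K ((𝔳.fam A).op K φ) = (𝔳.fam A).op K ((𝔲.fam A).op K φ)

/-- the `n`-th power of a natural family -/
def k5lcPowFam (𝔰 : NatFam 𝒪 L M) : ℕ → NatFam 𝒪 L M
  | 0 => NatFam.one 𝒪 L M
  | n + 1 => 𝔰.comp (k5lcPowFam 𝔰 n)

/-- `S = 𝔱 − a` -/
def k5lcShift (𝔱 : NatFam 𝒪 L M) (a : 𝒪) : NatFam 𝒪 L M := 𝔱.add (NatFam.coeff 𝒪 L M (-a))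

/-- `1 − Sᴺ` -/
def k5lcFac (𝔰 : NatFam 𝒪 L M) (N : ℕ) : NatFam 𝒪 L M :=
  (NatFam.one 𝒪 L M).add ((NatFam.coeff 𝒪 L M (-1)).comp (k5lcPowFam 𝔰 N))

/-- `P = ∏_{i ∈ l} (1 − (𝔱 i − a i)ᴺ)` -/
def k5lcFam {ι : Type} (𝔱 : ι → NatFam 𝒪 L M) (a : ι → 𝒪) (N : ℕ) : List ι → NatFam 𝒪 L M
  | [] => NatFam.one 𝒪 L M
  | i :: l => (k5lcFac (k5lcShift (𝔱 i) (a i)) N).comp (k5lcFam 𝔱 a N l)

variable (A : Type) [AddCommGroup A] [Module 𝒪 A] (K : Subgroup (ZMod M)ˣ)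

theorem k5lc_coeff_op (c : 𝒪) (φ : HomS (gammaH L M K) A) :
    ((NatFam.coeff 𝒪 L M c).fam A).op K φ = c • φ := rfl

theorem k5lc_shift_op (𝔱 : NatFam 𝒪 L M) (a : 𝒪) (φ : HomS (gammaH L M K) A) :
    ((k5lcShift 𝔱 a).fam A).op K φ = (𝔱.fam A).op K φ - a • φ := by
  show (𝔱.fam A).op K φ + (-a) • φ = _
  rw [neg_smul, sub_eq_add_neg]

theorem k5lc_pow_op (𝔰 : NatFam 𝒪 L M) (n : ℕ) (φ : HomS (gammaH L M K) A) :
    ((k5lcPowFam 𝔰 n).fam A).op K φ = k5s_pow ((𝔰.fam A).op K) n φ := by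
  induction n with
  | zero => rfl
  | succ n ih =>
    show (𝔰.fam A).op K (((k5lcPowFam 𝔰 n).fam A).op K φ) = _
    rw [ih, k5s_pow_succ']

theorem k5lc_fac_op (𝔰 : NatFam 𝒪 L M) (N : ℕ) :
    ((k5lcFac 𝔰 N).fam A).op K = k5lcProj ((𝔰.fam A).op K) N := by
  refine AddMonoidHom.ext fun φ => ?_
  show φ + (-1 : 𝒪) • ((k5lcPowFam 𝔰 N).fam A).op K φ = φ - k5s_pow ((𝔰.fam A).op K) N φ
  rw [k5lc_pow_op, neg_smul, one_smul, sub_eq_add_neg]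

/-- the operator of `P` -/
theorem k5lc_fam_op {ι : Type} (𝔱 : ι → NatFam 𝒪 L M) (a : ι → 𝒪) (N : ℕ) (l : List ι) :
    ((k5lcFam 𝔱 a N l).fam A).op K
      = k5lcProd (fun i => ((k5lcShift (𝔱 i) (a i)).fam A).op K) (fun _ => N) l := by
  induction l with
  | nil => rfl
  | cons i l ih =>
    show (((k5lcFac (k5lcShift (𝔱 i) (a i)) N).fam A).op K).comp
        (((k5lcFam 𝔱 a N l).fam A).op K) = _
    rw [ih, k5lc_fac_op]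
    rfl

/-- `Θ_{P 𝔳} = P ∘ Θ_𝔳` -/
theorem k5lc_theta_comp (𝔭 𝔳 : NatFam 𝒪 L M) (ℓ₀ : ℕ) [NeZero ℓ₀] :
    thetaN (𝔭.comp 𝔳) ℓ₀ A K = ((𝔭.fam A).op K).comp (thetaN 𝔳 ℓ₀ A K) := rfl

section comm

variable {ι : Type} (𝔱 : ι → NatFam 𝒪 L M) (a : ι → 𝒪)

/-- the operators `S i` commute with each other -/
theorem k5lc_shift_comm (hTT : ∀ i j, NatFam.Commutes (𝔱 i) (𝔱 j)) (i j : ι)
    (φ : HomS (gammaH L M K) A) :
    ((k5lcShift (𝔱 i) (a i)).fam A).op K (((k5lcShift (𝔱 j) (a j)).fam A).op K φ)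
      = ((k5lcShift (𝔱 j) (a j)).fam A).op K (((k5lcShift (𝔱 i) (a i)).fam A).op K φ) := by
  simp only [k5lc_shift_op, map_sub, k5n_op_smul, hTT i j A K φ, smul_sub]
  rw [smul_comm (a i) (a j)]
  abel

/-- the operators `S i` commute with every family commuting with `𝔱 i` -/
theorem k5lc_shift_comm_fam (𝔳 : NatFam 𝒪 L M) (i : ι) (hTv : NatFam.Commutes (𝔱 i) 𝔳)
    (φ : HomS (gammaH L M K) A) :
    ((k5lcShift (𝔱 i) (a i)).fam A).op K ((𝔳.fam A).op K φ)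
      = (𝔳.fam A).op K (((k5lcShift (𝔱 i) (a i)).fam A).op K φ) := by
  simp only [k5lc_shift_op, map_sub, k5n_op_smul, hTv A K φ]

/-- the operators `S i` commute with `Θ_𝔳` -/
theorem k5lc_shift_comm_theta (𝔳 : NatFam 𝒪 L M) (ℓ₀ : ℕ) [NeZero ℓ₀] (i : ι)
    (hTv : NatFam.Commutes (𝔱 i) 𝔳) (hTη : NatFam.Commutes (𝔱 i) (NatFam.hecke 𝒪 L M ℓ₀))
    (φ : HomS (gammaH L M K) A) :
    ((k5lcShift (𝔱 i) (a i)).fam A).op K (thetaN 𝔳 ℓ₀ A K φ)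
      = thetaN 𝔳 ℓ₀ A K (((k5lcShift (𝔱 i) (a i)).fam A).op K φ) := by
  show ((k5lcShift (𝔱 i) (a i)).fam A).op K ((𝔳.fam A).op K (etaS L M ℓ₀ K A φ))
    = (𝔳.fam A).op K (etaS L M ℓ₀ K A (((k5lcShift (𝔱 i) (a i)).fam A).op K φ))
  rw [k5lc_shift_comm_fam A K 𝔱 a 𝔳 i hTv]
  congr 1
  show ((k5lcShift (𝔱 i) (a i)).fam A).op K (tS L M ℓ₀ K A φ - (ℓ₀ + 1) • φ)
    = tS L M ℓ₀ K A (((k5lcShift (𝔱 i) (a i)).fam A).op K φ)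
      - (ℓ₀ + 1) • ((k5lcShift (𝔱 i) (a i)).fam A).op K φ
  rw [map_sub, map_nsmul]
  congr 1
  exact k5lc_shift_comm_fam A K 𝔱 a (NatFam.hecke 𝒪 L M ℓ₀) i hTη φ

end comm

end fam

section ge

variable {𝒪 : Type} [CommRing 𝒪] {L M : ℕ} [NeZero L] [hML : Fact (M ∣ L)]
  {ι : Type} (𝔱 : ι → NatFam 𝒪 L M) (a : ι → 𝒪)

/-- the `Θ`-part is stable under the scalars -/
theorem k5lc_smul_mem (𝔲 : NatFam 𝒪 L M) (ℓ₀ : ℕ) [NeZero ℓ₀] (A : Type) [AddCommGroup A]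
    [Module 𝒪 A] (K : Subgroup (ZMod M)ˣ) (c : 𝒪) {φ : HomS (gammaH L M K) A}
    (hφ : φ ∈ etaPart (thetaN 𝔲 ℓ₀ A K)) : c • φ ∈ etaPart (thetaN 𝔲 ℓ₀ A K) :=
  k5s_intertwine_mem (thetaN 𝔲 ℓ₀ A K) (thetaN 𝔲 ℓ₀ A K)
    (DistribSMul.toAddMonoidHom (HomS (gammaH L M K) A) c)
    (fun y => (k5n_theta_smul 𝔲 ℓ₀ K c y).symm) hφ

/-- `S i` commutes with the operator of `P` -/
theorem k5lc_shift_comm_P (hTT : ∀ i j, NatFam.Commutes (𝔱 i) (𝔱 j)) (N : ℕ) (l : List ι)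
    (A : Type) [AddCommGroup A] [Module 𝒪 A] (K : Subgroup (ZMod M)ˣ) (i : ι)
    (φ : HomS (gammaH L M K) A) :
    ((k5lcShift (𝔱 i) (a i)).fam A).op K (((k5lcFam 𝔱 a N l).fam A).op K φ)
      = ((k5lcFam 𝔱 a N l).fam A).op K (((k5lcShift (𝔱 i) (a i)).fam A).op K φ) := by
  rw [k5lc_fam_op]
  exact (k5lc_prod_comm _ _ _ (fun j x => k5lc_shift_comm A K 𝔱 a hTT j i x) l φ).symm

/-- the operator of `P` commutes with `Θ_𝔳` -/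
theorem k5lc_P_comm_theta (hTT : ∀ i j, NatFam.Commutes (𝔱 i) (𝔱 j)) (𝔳 : NatFam 𝒪 L M)
    (ℓ₀ : ℕ) [NeZero ℓ₀] (hTv : ∀ i, NatFam.Commutes (𝔱 i) 𝔳)
    (hTη : ∀ i, NatFam.Commutes (𝔱 i) (NatFam.hecke 𝒪 L M ℓ₀)) (N : ℕ) (l : List ι)
    (A : Type) [AddCommGroup A] [Module 𝒪 A] (K : Subgroup (ZMod M)ˣ)
    (φ : HomS (gammaH L M K) A) :
    ((k5lcFam 𝔱 a N l).fam A).op K (thetaN 𝔳 ℓ₀ A K φ)
      = thetaN 𝔳 ℓ₀ A K (((k5lcFam 𝔱 a N l).fam A).op K φ) := by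
  rw [k5lc_fam_op]
  exact k5lc_prod_comm _ _ _
    (fun j x => k5lc_shift_comm_theta A K 𝔱 a 𝔳 ℓ₀ j (hTv j) (hTη j) x) l φ

/-- `S i` commutes with `Θ_{P 𝔳}` -/
theorem k5lc_shift_comm_thetaP (hTT : ∀ i j, NatFam.Commutes (𝔱 i) (𝔱 j)) (𝔳 : NatFam 𝒪 L M)
    (ℓ₀ : ℕ) [NeZero ℓ₀] (hTv : ∀ i, NatFam.Commutes (𝔱 i) 𝔳)
    (hTη : ∀ i, NatFam.Commutes (𝔱 i) (NatFam.hecke 𝒪 L M ℓ₀)) (N : ℕ) (l : List ι)
    (A : Type) [AddCommGroup A] [Module 𝒪 A] (K : Subgroup (ZMod M)ˣ) (i : ι)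
    (φ : HomS (gammaH L M K) A) :
    ((k5lcShift (𝔱 i) (a i)).fam A).op K (thetaN ((k5lcFam 𝔱 a N l).comp 𝔳) ℓ₀ A K φ)
      = thetaN ((k5lcFam 𝔱 a N l).comp 𝔳) ℓ₀ A K (((k5lcShift (𝔱 i) (a i)).fam A).op K φ) := by
  show ((k5lcShift (𝔱 i) (a i)).fam A).op K
      (((k5lcFam 𝔱 a N l).fam A).op K (thetaN 𝔳 ℓ₀ A K φ))
    = ((k5lcFam 𝔱 a N l).fam A).op K
      (thetaN 𝔳 ℓ₀ A K (((k5lcShift (𝔱 i) (a i)).fam A).op K φ))
  rw [k5lc_shift_comm_P 𝔱 a hTT, k5lc_shift_comm_theta A K 𝔱 a 𝔳 ℓ₀ i (hTv i) (hTη i)]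

/-- **(⊇)** the generalised eigenspace inside the `Θ_𝔳`-part lies in the `Θ_{P 𝔳}`-part -/
theorem k5lc_intrinsic_ge (hTT : ∀ i j, NatFam.Commutes (𝔱 i) (𝔱 j)) (𝔳 : NatFam 𝒪 L M)
    (ℓ₀ : ℕ) [NeZero ℓ₀] (hTv : ∀ i, NatFam.Commutes (𝔱 i) 𝔳)
    (hTη : ∀ i, NatFam.Commutes (𝔱 i) (NatFam.hecke 𝒪 L M ℓ₀)) {N : ℕ} (hN : 0 < N)
    (l : List ι) (A : Type) [AddCommGroup A] [Module 𝒪 A] [Finite A]
    (K : Subgroup (ZMod M)ˣ) {φ : HomS (gammaH L M K) A}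
    (hφ : φ ∈ etaPart (thetaN 𝔳 ℓ₀ A K))
    (hk : ∀ i ∈ l, φ ∈ k5lcKer (((k5lcShift (𝔱 i) (a i)).fam A).op K)) :
    φ ∈ etaPart (thetaN ((k5lcFam 𝔱 a N l).comp 𝔳) ℓ₀ A K) := by
  haveI : Finite (HomS (gammaH L M K) A) := k5s_finite_homS _ A
  rw [k5lc_theta_comp, k5lc_fam_op]
  exact k5lc_mem_etaPart_comp _ _ (fun i j x => k5lc_shift_comm A K 𝔱 a hTT i j x)
    (fun i x => k5lc_shift_comm_theta A K 𝔱 a 𝔳 ℓ₀ i (hTv i) (hTη i) x) hN l hφ hk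

/-- the `Θ_{P 𝔳}`-part lies in the `Θ_𝔳`-part -/
theorem k5lc_thetaP_le (hTT : ∀ i j, NatFam.Commutes (𝔱 i) (𝔱 j)) (𝔳 : NatFam 𝒪 L M)
    (ℓ₀ : ℕ) [NeZero ℓ₀] (hTv : ∀ i, NatFam.Commutes (𝔱 i) 𝔳)
    (hTη : ∀ i, NatFam.Commutes (𝔱 i) (NatFam.hecke 𝒪 L M ℓ₀)) (N : ℕ)
    (l : List ι) (A : Type) [AddCommGroup A] [Module 𝒪 A] [Finite A]
    (K : Subgroup (ZMod M)ˣ) {φ : HomS (gammaH L M K) A}
    (hφ : φ ∈ etaPart (thetaN ((k5lcFam 𝔱 a N l).comp 𝔳) ℓ₀ A K)) :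
    φ ∈ etaPart (thetaN 𝔳 ℓ₀ A K) := by
  haveI : Finite (HomS (gammaH L M K) A) := k5s_finite_homS _ A
  rw [k5lc_theta_comp] at hφ
  exact k5lc_etaPart_comp_le _ _
    (fun x => k5lc_P_comm_theta 𝔱 a hTT 𝔳 ℓ₀ hTv hTη N l A K x) hφ

/-- the `Θ_𝔳`-part lies in the `η`-part -/
theorem k5lc_theta_le_eta (𝔳 : NatFam 𝒪 L M) (ℓ₀ : ℕ) [NeZero ℓ₀]
    (hvη : NatFam.Commutes 𝔳 (NatFam.hecke 𝒪 L M ℓ₀))
    (A : Type) [AddCommGroup A] [Module 𝒪 A] [Finite A]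
    (K : Subgroup (ZMod M)ˣ) {φ : HomS (gammaH L M K) A}
    (hφ : φ ∈ etaPart (thetaN 𝔳 ℓ₀ A K)) : φ ∈ etaPart (etaS L M ℓ₀ K A) := by
  haveI : Finite (HomS (gammaH L M K) A) := k5s_finite_homS _ A
  refine k5lc_etaPart_comp_le ((𝔳.fam A).op K) (etaS L M ℓ₀ K A) (fun x => ?_) hφ
  show (𝔳.fam A).op K (tS L M ℓ₀ K A x - (ℓ₀ + 1) • x)
    = tS L M ℓ₀ K A ((𝔳.fam A).op K x) - (ℓ₀ + 1) • (𝔳.fam A).op K x
  rw [map_sub, map_nsmul]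
  congr 1
  exact hvη A K x

end ge

section le

variable {𝒪 : Type} [CommRing 𝒪] [IsDomain 𝒪] [IsDiscreteValuationRing 𝒪]
  [Finite (IsLocalRing.ResidueField 𝒪)]
  {L M : ℕ} [NeZero L] [hML : Fact (M ∣ L)]
  {ι : Type} (𝔱 : ι → NatFam 𝒪 L M) (a : ι → 𝒪)

/-- **(⊆), dévissage**: if the `Θ_{P 𝔳}`-part with coefficients `𝒪/𝔪` lies in the generalised
kernel of `S i`, so does the `Θ_{P 𝔳}`-part with coefficients `𝒪/𝔪ⁿ`, every `n`. -/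
theorem k5lc_intrinsic_le (hTT : ∀ i j, NatFam.Commutes (𝔱 i) (𝔱 j)) (𝔳 : NatFam 𝒪 L M)
    (ℓ₀ : ℕ) [NeZero ℓ₀] (hTv : ∀ i, NatFam.Commutes (𝔱 i) 𝔳)
    (hTη : ∀ i, NatFam.Commutes (𝔱 i) (NatFam.hecke 𝒪 L M ℓ₀)) (N : ℕ) (l : List ι)
    (K : Subgroup (ZMod M)ˣ)
    (hNT : ∀ n : ℕ, NoTors (gammaH L M K) (𝒪 ⧸ IsLocalRing.maximalIdeal 𝒪 ^ n)) (i : ι)
    (hval : ∀ φ ∈ etaPart (thetaN ((k5lcFam 𝔱 a N l).comp 𝔳) ℓ₀
        (𝒪 ⧸ IsLocalRing.maximalIdeal 𝒪 ^ 1) K),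
      φ ∈ k5lcKer (((k5lcShift (𝔱 i) (a i)).fam (𝒪 ⧸ IsLocalRing.maximalIdeal 𝒪 ^ 1)).op K))
    (n : ℕ) {φ : HomS (gammaH L M K) (𝒪 ⧸ IsLocalRing.maximalIdeal 𝒪 ^ n)}
    (hφ : φ ∈ etaPart (thetaN ((k5lcFam 𝔱 a N l).comp 𝔳) ℓ₀
        (𝒪 ⧸ IsLocalRing.maximalIdeal 𝒪 ^ n) K)) :
    φ ∈ k5lcKer (((k5lcShift (𝔱 i) (a i)).fam (𝒪 ⧸ IsLocalRing.maximalIdeal 𝒪 ^ n)).op K) := by
  obtain ⟨lam, hirr⟩ := IsDiscreteValuationRing.exists_irreducible 𝒪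
  have hlam : IsLocalRing.maximalIdeal 𝒪 = Ideal.span {lam} := hirr.maximalIdeal_eq
  have hlam0 : lam ≠ 0 := hirr.ne_zero
  haveI : Finite (𝒪 ⧸ IsLocalRing.maximalIdeal 𝒪) := ‹Finite (IsLocalRing.ResidueField 𝒪)›
  have hfin : ∀ n : ℕ, Finite (𝒪 ⧸ IsLocalRing.maximalIdeal 𝒪 ^ n) :=
    fun n => k5cn_finite (IsLocalRing.maximalIdeal 𝒪) lam hlam n
  rcases Nat.eq_zero_or_pos n with rfl | hn
  · haveI : Subsingleton (𝒪 ⧸ IsLocalRing.maximalIdeal 𝒪 ^ 0) := by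
      rw [Ideal.Quotient.subsingleton_iff, pow_zero, Ideal.one_eq_top]
    haveI : Subsingleton (HomS (gammaH L M K) (𝒪 ⧸ IsLocalRing.maximalIdeal 𝒪 ^ 0)) :=
      k5cn_subsingleton_homS _
    exact ⟨0, Subsingleton.elim _ _⟩
  · have hn1 : n = 1 + (n - 1) := by omega
    have hn2 : n = (n - 1) + 1 := by omega
    have hle : n - 1 ≤ n := Nat.sub_le n 1
    haveI := hfin 1
    haveI := hfin n
    haveI := hfin (n - 1)
    have hex := (stmtCoeffExact 𝒪 L M ℓ₀ ((k5lcFam 𝔱 a N l).comp 𝔳) K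
      (𝒪 ⧸ IsLocalRing.maximalIdeal 𝒪 ^ 1) (𝒪 ⧸ IsLocalRing.maximalIdeal 𝒪 ^ n)
      (𝒪 ⧸ IsLocalRing.maximalIdeal 𝒪 ^ (n - 1))
      (k5cn_mulQ (IsLocalRing.maximalIdeal 𝒪) lam hlam (n - 1) hn2)
      (redQ (IsLocalRing.maximalIdeal 𝒪) hle)
      (k5cn_mulQ_injective (IsLocalRing.maximalIdeal 𝒪) lam hlam hlam0 (n - 1) hn2)
      (k5cn_redQ_surjective (IsLocalRing.maximalIdeal 𝒪) hle)
      (fun y => k5cn_exact_iff (IsLocalRing.maximalIdeal 𝒪) lam hlam (n - 1) hn2 hle y)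
      (hNT (n - 1))).2.1
    -- the statement for the elements killed by `λᵗ`
    have key : ∀ t : ℕ, ∀ y ∈ etaPart (thetaN ((k5lcFam 𝔱 a N l).comp 𝔳) ℓ₀
        (𝒪 ⧸ IsLocalRing.maximalIdeal 𝒪 ^ n) K), lam ^ t • y = 0 →
        y ∈ k5lcKer (((k5lcShift (𝔱 i) (a i)).fam
          (𝒪 ⧸ IsLocalRing.maximalIdeal 𝒪 ^ n)).op K) := by
      intro t
      induction t with
      | zero =>
        intro y _ h0
        rw [pow_zero, one_smul] at h0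
        rw [h0]
        exact AddSubgroup.zero_mem _
      | succ t ih =>
        intro y hy h0
        have hz := k5lc_smul_mem ((k5lcFam 𝔱 a N l).comp 𝔳) ℓ₀ _ K (lam ^ t) hy
        have hz0 : lam • (lam ^ t • y) = 0 := by
          rw [smul_smul, ← pow_succ']
          exact h0
        -- the reduction of `z = λᵗ y` vanishes
        have hred : mapS (redQ (IsLocalRing.maximalIdeal 𝒪) hle).toAddMonoidHom
            (lam ^ t • y) = 0 := by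
          apply k5co_mapS_injective
            (k5cn_mulQ (IsLocalRing.maximalIdeal 𝒪) lam hlam 1 hn1).toAddMonoidHom
            (k5cn_mulQ_injective (IsLocalRing.maximalIdeal 𝒪) lam hlam hlam0 1 hn1)
          rw [map_zero]
          refine AddMonoidHom.ext fun γ => ?_
          exact (k5cn_mulQ_red (IsLocalRing.maximalIdeal 𝒪) lam hlam hn1 hle
            ((lam ^ t • y) γ)).trans (DFunLike.congr_fun hz0 γ)
        obtain ⟨u, hu, huz⟩ := hex _ hz hred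
        obtain ⟨m, hm⟩ := hval u hu
        -- `Sᵐ z = 0`
        have hSz : k5s_pow (((k5lcShift (𝔱 i) (a i)).fam
            (𝒪 ⧸ IsLocalRing.maximalIdeal 𝒪 ^ n)).op K) m (lam ^ t • y) = 0 := by
          rw [← huz, ← k5s_intertwine_pow
            (((k5lcShift (𝔱 i) (a i)).fam (𝒪 ⧸ IsLocalRing.maximalIdeal 𝒪 ^ 1)).op K)
            (((k5lcShift (𝔱 i) (a i)).fam (𝒪 ⧸ IsLocalRing.maximalIdeal 𝒪 ^ n)).op K)
            (mapS (k5cn_mulQ (IsLocalRing.maximalIdeal 𝒪) lam hlam (n - 1)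
              hn2).toAddMonoidHom)
            (fun x => (k5lcShift (𝔱 i) (a i)).nat _ _
              (k5cn_mulQ (IsLocalRing.maximalIdeal 𝒪) lam hlam (n - 1) hn2) K x) m u,
            hm, map_zero]
        -- `Sᵐ y` is in the `Θ`-part and killed by `λᵗ`
        have hSy : k5s_pow (((k5lcShift (𝔱 i) (a i)).fam
            (𝒪 ⧸ IsLocalRing.maximalIdeal 𝒪 ^ n)).op K) m y
            ∈ etaPart (thetaN ((k5lcFam 𝔱 a N l).comp 𝔳) ℓ₀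
              (𝒪 ⧸ IsLocalRing.maximalIdeal 𝒪 ^ n) K) :=
          k5s_intertwine_mem _ _ _ (fun x => k5lc_pow_comm _ _
            (fun z => k5lc_shift_comm_thetaP 𝔱 a hTT 𝔳 ℓ₀ hTv hTη N l _ K i z) m x) hy
        have h1 : lam ^ t • k5s_pow (((k5lcShift (𝔱 i) (a i)).fam
            (𝒪 ⧸ IsLocalRing.maximalIdeal 𝒪 ^ n)).op K) m y = 0 := by
          rw [← hSz]
          exact (k5lc_pow_comm _
            (DistribSMul.toAddMonoidHom (HomS (gammaH L M K)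
              (𝒪 ⧸ IsLocalRing.maximalIdeal 𝒪 ^ n)) (lam ^ t))
            (fun z => k5n_op_smul (k5lcShift (𝔱 i) (a i)) K (lam ^ t) z) m y).symm
        obtain ⟨m', hm'⟩ := ih _ hSy h1
        exact ⟨m' + m, by rw [k5fx_pow_add, hm']⟩
    refine key n φ hφ ?_
    refine AddMonoidHom.ext fun γ => ?_
    show lam ^ n • φ γ = 0
    obtain ⟨y, hy⟩ := Ideal.Quotient.mk_surjective (φ γ)
    rw [← hy, Algebra.smul_def, Ideal.Quotient.algebraMap_eq, ← map_mul,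
      Ideal.Quotient.eq_zero_iff_mem]
    exact Ideal.mul_mem_right _ _ (k5cn_pow_mem _ lam hlam n)

end le

section valid

variable {𝒪 : Type} [CommRing 𝒪] {L M : ℕ} [NeZero L] [hML : Fact (M ∣ L)]
  {ι : Type} (𝔱 : ι → NatFam 𝒪 L M) (a : ι → 𝒪)

/-- `res` is injective on the `η`-part -/
theorem k5lc_res_inj (ℓ₀ : ℕ) [NeZero ℓ₀] (hℓ : ℓ₀.Prime) (hℓL : ¬ ℓ₀ ∣ L)
    {H' K : Subgroup (ZMod M)ˣ} (hle : H' ≤ K) (A : Type) [AddCommGroup A] [Finite A]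
    {φ : HomS (gammaH L M K) A} (hφ : φ ∈ etaPart (etaS L M ℓ₀ K A))
    (h0 : resS A (Fermat.Agent.ES1.gammaH_mono hle) φ = 0) : φ = 0 := by
  haveI : Finite (HomS (gammaH L M K) A) := k5s_finite_homS _ A
  refine (k5fx_fitting (etaS L M ℓ₀ K A)).2.1 φ hφ ?_
  show tS L M ℓ₀ K A φ - (ℓ₀ + 1) • φ = 0
  rw [stmtE1 L M ℓ₀ H' K hle A hℓ hℓL φ h0, sub_self]

/-- **validity goes up**: if `P` maps `Hom(Γ_{H'}, A)` into the generalised kernel of `S i`,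
then the `Θ_{P 𝔳}`-part at every `K ≥ H'` lies in the generalised kernel of `S i`. -/
theorem k5lc_valid_of_le (hTT : ∀ i j, NatFam.Commutes (𝔱 i) (𝔱 j)) (𝔳 : NatFam 𝒪 L M)
    (ℓ₀ : ℕ) [NeZero ℓ₀] (hℓ : ℓ₀.Prime) (hℓL : ¬ ℓ₀ ∣ L)
    (hTv : ∀ i, NatFam.Commutes (𝔱 i) 𝔳)
    (hTη : ∀ i, NatFam.Commutes (𝔱 i) (NatFam.hecke 𝒪 L M ℓ₀))
    (hvη : NatFam.Commutes 𝔳 (NatFam.hecke 𝒪 L M ℓ₀)) (N : ℕ) (l : List ι)
    {H' K : Subgroup (ZMod M)ˣ} (hle : H' ≤ K) (A : Type) [AddCommGroup A] [Module 𝒪 A]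
    [Finite A] (i : ι)
    (hval : ∀ ψ : HomS (gammaH L M H') A, ((k5lcFam 𝔱 a N l).fam A).op H' ψ
      ∈ k5lcKer (((k5lcShift (𝔱 i) (a i)).fam A).op H'))
    {φ : HomS (gammaH L M K) A}
    (hφ : φ ∈ etaPart (thetaN ((k5lcFam 𝔱 a N l).comp 𝔳) ℓ₀ A K)) :
    φ ∈ k5lcKer (((k5lcShift (𝔱 i) (a i)).fam A).op K) := by
  haveI : Finite (HomS (gammaH L M K) A) := k5s_finite_homS _ A
  -- `φ = P φ'`
  obtain ⟨φ', hφ', rfl⟩ := k5lc_etaPart_comp_surj (((k5lcFam 𝔱 a N l).fam A).op K)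
    (thetaN 𝔳 ℓ₀ A K) (fun x => k5lc_P_comm_theta 𝔱 a hTT 𝔳 ℓ₀ hTv hTη N l A K x)
    (by rw [← k5lc_theta_comp]; exact hφ)
  -- `res (P φ') = P (res φ')` is in the generalised kernel
  obtain ⟨m, hm⟩ := hval (resS A (Fermat.Agent.ES1.gammaH_mono hle) φ')
  refine ⟨m, ?_⟩
  -- `Sᵐ (P φ')` is in the `η`-part and `res` kills it
  have hmem : k5s_pow (((k5lcShift (𝔱 i) (a i)).fam A).op K) m
      (((k5lcFam 𝔱 a N l).fam A).op K φ') ∈ etaPart (etaS L M ℓ₀ K A) := by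
    refine k5lc_theta_le_eta 𝔳 ℓ₀ hvη A K (k5lc_thetaP_le 𝔱 a hTT 𝔳 ℓ₀ hTv hTη N l A K ?_)
    exact k5s_intertwine_mem _ _ _ (fun x => k5lc_pow_comm _ _
      (fun z => k5lc_shift_comm_thetaP 𝔱 a hTT 𝔳 ℓ₀ hTv hTη N l A K i z) m x) hφ
  refine k5lc_res_inj ℓ₀ hℓ hℓL hle A hmem ?_
  rw [k5s_intertwine_pow (((k5lcShift (𝔱 i) (a i)).fam A).op K)
    (((k5lcShift (𝔱 i) (a i)).fam A).op H') (resS A (Fermat.Agent.ES1.gammaH_mono hle))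
    (fun x => ((k5lcShift (𝔱 i) (a i)).fam A).res_comm H' K hle x) m,
    ((k5lcFam 𝔱 a N l).fam A).res_comm H' K hle φ', hm]

/-- **existence** of `N` and `l` (for one finite coefficient module and one group) -/
theorem k5lc_exists (H' : Subgroup (ZMod M)ˣ) (A : Type) [AddCommGroup A] [Module 𝒪 A]
    [Finite A] (hTT : ∀ i j, NatFam.Commutes (𝔱 i) (𝔱 j)) :
    ∃ (N : ℕ) (l : List ι), 0 < N ∧ ∀ (i : ι) (ψ : HomS (gammaH L M H') A),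
      ((k5lcFam 𝔱 a N l).fam A).op H' ψ ∈ k5lcKer (((k5lcShift (𝔱 i) (a i)).fam A).op H') := by
  haveI : Finite (HomS (gammaH L M H') A) := k5s_finite_homS _ A
  obtain ⟨N, hN0, hN⟩ := k5lc_exists_uniform (HomS (gammaH L M H') A)
  obtain ⟨l, hl⟩ := k5lc_exists_list
    (fun i => k5lcKer (((k5lcShift (𝔱 i) (a i)).fam A).op H'))
  refine ⟨N, l, hN0, fun i ψ => ?_⟩
  rw [k5lc_fam_op]
  have hcomm : ∀ i j x, ((k5lcShift (𝔱 i) (a i)).fam A).op H'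
      (((k5lcShift (𝔱 j) (a j)).fam A).op H' x)
      = ((k5lcShift (𝔱 j) (a j)).fam A).op H' (((k5lcShift (𝔱 i) (a i)).fam A).op H' x) :=
    fun i j x => k5lc_shift_comm A H' 𝔱 a hTT i j x
  have hidem := k5lc_prod_idem (fun i => ((k5lcShift (𝔱 i) (a i)).fam A).op H') (fun _ => N)
    hcomm (fun i x => (hN _).1 x) l ψ
  have hfix := (k5lc_prod_fix_iff (fun i => ((k5lcShift (𝔱 i) (a i)).fam A).op H')
    (fun _ => N) hcomm (fun i x => (hN _).1 x) l _).mp hidem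
  exact hl _ (fun j hj => ((hN _).2.2 _).mpr (hfix j hj)) i

end valid

section mainthm

variable {𝒪 : Type} [CommRing 𝒪] [IsDomain 𝒪] [IsDiscreteValuationRing 𝒪]
  [Finite (IsLocalRing.ResidueField 𝒪)]
  {L M : ℕ} [NeZero L] [hML : Fact (M ∣ L)]
  {ι : Type} (𝔱 : ι → NatFam 𝒪 L M) (a : ι → 𝒪)

/-- **K5-LOC (concrete), the INTRINSIC description of the `𝔪`-part.**  There are `N > 0` and a
finite list `l` of indices such that for `P = ∏_{i ∈ l} (1 − (𝔱 i − a i)ᴺ)`, every `K ≥ H'`,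
every natural family `𝔳` commuting with the `𝔱 i` and with `T_ℓ₀`, and every `n`:
`etaPart Θ_{P 𝔳} = etaPart Θ_𝔳 ∩ ⋂_i ker (𝔱 i − a i)^∞` on `Hom(Γ_K(L), 𝒪/𝔪ⁿ)`. -/
theorem k5lc_main (H' : Subgroup (ZMod M)ˣ) (ℓ₀ : ℕ) [NeZero ℓ₀] (hℓ : ℓ₀.Prime)
    (hℓL : ¬ ℓ₀ ∣ L) (hTT : ∀ i j, NatFam.Commutes (𝔱 i) (𝔱 j))
    (hTη : ∀ i, NatFam.Commutes (𝔱 i) (NatFam.hecke 𝒪 L M ℓ₀)) :
    ∃ (N : ℕ) (l : List ι), 0 < N ∧
      ∀ (K : Subgroup (ZMod M)ˣ), H' ≤ K →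
      (∀ n : ℕ, NoTors (gammaH L M K) (𝒪 ⧸ IsLocalRing.maximalIdeal 𝒪 ^ n)) →
      ∀ (𝔳 : NatFam 𝒪 L M), (∀ i, NatFam.Commutes (𝔱 i) 𝔳) →
        NatFam.Commutes 𝔳 (NatFam.hecke 𝒪 L M ℓ₀) →
      ∀ (n : ℕ) (φ : HomS (gammaH L M K) (𝒪 ⧸ IsLocalRing.maximalIdeal 𝒪 ^ n)),
        φ ∈ etaPart (thetaN ((k5lcFam 𝔱 a N l).comp 𝔳) ℓ₀
            (𝒪 ⧸ IsLocalRing.maximalIdeal 𝒪 ^ n) K) ↔
          φ ∈ etaPart (thetaN 𝔳 ℓ₀ (𝒪 ⧸ IsLocalRing.maximalIdeal 𝒪 ^ n) K) ∧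
          ∀ i, φ ∈ k5lcKer (((k5lcShift (𝔱 i) (a i)).fam
            (𝒪 ⧸ IsLocalRing.maximalIdeal 𝒪 ^ n)).op K) := by
  obtain ⟨lam, hirr⟩ := IsDiscreteValuationRing.exists_irreducible 𝒪
  have hlam : IsLocalRing.maximalIdeal 𝒪 = Ideal.span {lam} := hirr.maximalIdeal_eq
  haveI : Finite (𝒪 ⧸ IsLocalRing.maximalIdeal 𝒪) := ‹Finite (IsLocalRing.ResidueField 𝒪)›
  have hfin : ∀ n : ℕ, Finite (𝒪 ⧸ IsLocalRing.maximalIdeal 𝒪 ^ n) :=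
    fun n => k5cn_finite (IsLocalRing.maximalIdeal 𝒪) lam hlam n
  haveI := hfin 1
  obtain ⟨N, l, hN0, hval⟩ :=
    k5lc_exists 𝔱 a H' (𝒪 ⧸ IsLocalRing.maximalIdeal 𝒪 ^ 1) hTT
  refine ⟨N, l, hN0, fun K hle hNT 𝔳 hTv hvη n φ => ?_⟩
  haveI := hfin n
  constructor
  · intro hφ
    refine ⟨k5lc_thetaP_le 𝔱 a hTT 𝔳 ℓ₀ hTv hTη N l _ K hφ, fun i => ?_⟩
    exact k5lc_intrinsic_le 𝔱 a hTT 𝔳 ℓ₀ hTv hTη N l K hNT i
      (fun ψ hψ => k5lc_valid_of_le 𝔱 a hTT 𝔳 ℓ₀ hℓ hℓL hTv hTη hvη N l hle _ i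
        (fun χ => hval i χ) hψ) n hφ
  · rintro ⟨hφ, hk⟩
    exact k5lc_intrinsic_ge 𝔱 a hTT 𝔳 ℓ₀ hTv hTη hN0 l _ K hφ (fun i _ => hk i)

/-- **nilpotency**: on the `Θ_{P 𝔳}`-part every `𝔱 i − a i` is nilpotent. -/
theorem k5lc_nilpotent_of_mem (A : Type) [AddCommGroup A] [Module 𝒪 A] [Finite A]
    (K : Subgroup (ZMod M)ˣ) (𝔲 : NatFam 𝒪 L M) (ℓ₀ : ℕ) [NeZero ℓ₀] (i : ι)
    (h : ∀ φ ∈ etaPart (thetaN 𝔲 ℓ₀ A K),
      φ ∈ k5lcKer (((k5lcShift (𝔱 i) (a i)).fam A).op K)) :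
    ∃ m : ℕ, ∀ φ ∈ etaPart (thetaN 𝔲 ℓ₀ A K),
      k5s_pow (((k5lcShift (𝔱 i) (a i)).fam A).op K) m φ = 0 := by
  haveI : Finite (HomS (gammaH L M K) A) := k5s_finite_homS _ A
  obtain ⟨m, -, hm⟩ := k5lc_exists_uniform (HomS (gammaH L M K) A)
  exact ⟨m, fun φ hφ => ((hm _).2.2 φ).mp (h φ hφ)⟩

end mainthm

end Fermat.Agent.RT.K5

end


end ZBRT_087_2

/-! ### bundled: `Fermat.Agent.RT.K5.LocExpr` -/
section ZBRT_087_3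

/-!
# K-machine, piece K5-LOC (helper15): the `𝔪`-projector as a Hecke expression (`HExpr`)

`k5lcExpr ℓ a N l : HExpr 𝒪` is `P = ∏_{i ∈ l} (1 − (T_{ℓ i} − a i)ᴺ)`.
* `k5lc_expr_eval` : its evaluation is `k5lcFam` of the `hecke (ℓ i)`;
* `k5lc_expr_isPrimes`, `k5lc_expr_avoids`;
* `k5lc_main_expr` : there are `N > 0` and `l` such that for every `K ≥ H'`, every expression
  `e'` with `IsPrimes` (e.g. `HExpr.one.twist Q`) and every `n`: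
  `etaPart Θ_{P e'} = etaPart Θ_{e'} ∩ ⋂_i ker (T_{ℓ i} − a i)^∞` on `Hom(Γ_K(L), 𝒪/𝔪ⁿ)`;
* `k5lc_twist_mem_iff` : the same for `P.twist Q`;
* `k5lc_expr_nilpotent` : `T_{ℓ i} − a i` is nilpotent on `etaPart Θ_{P e'}`.
-/

set_option autoImplicit false
set_option linter.style.haveILetI false
set_option linter.unusedSectionVars false
set_option linter.unusedVariables false

noncomputable section

namespace Fermat.Agent.RT.K5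

open CongruenceSubgroup Matrix
open scoped MatrixGroups
open Fermat.Agent.ES1 (gammaH diamHom pmH)

section expr

variable {𝒪 : Type} [CommRing 𝒪] {ι : Type}

/-- the expression `P = ∏_{i ∈ l} (1 − (T_{ℓ i} − a i)ᴺ)` -/
def k5lcExpr (ℓ : ι → ℕ) (a : ι → 𝒪) (N : ℕ) : List ι → HExpr 𝒪
  | [] => HExpr.one
  | i :: l => HExpr.comp
      (HExpr.add HExpr.one (HExpr.comp (HExpr.coeff (-1))
        (HExpr.pow (HExpr.add (HExpr.hecke (ℓ i)) (HExpr.coeff (-(a i)))) N)))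
      (k5lcExpr ℓ a N l)

theorem k5lc_expr_isPrimes (ℓ : ι → ℕ) (a : ι → 𝒪) (N : ℕ) :
    ∀ l : List ι, (∀ i ∈ l, (ℓ i).Prime) → (k5lcExpr ℓ a N l).IsPrimes
  | [], _ => trivial
  | i :: l, h =>
    ⟨⟨trivial, trivial, HExpr.isPrimes_pow
        (show (HExpr.add (HExpr.hecke (ℓ i)) (HExpr.coeff (-(a i))) : HExpr 𝒪).IsPrimes from
          ⟨h i List.mem_cons_self, trivial⟩) N⟩,
      k5lc_expr_isPrimes ℓ a N l fun j hj => h j (List.mem_cons_of_mem _ hj)⟩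

theorem k5lc_expr_avoids (ℓ : ι → ℕ) (a : ι → 𝒪) (N : ℕ) (q : ℕ) :
    ∀ l : List ι, (∀ i ∈ l, (ℓ i).Prime ∧ ℓ i ≠ q) → (k5lcExpr ℓ a N l).Avoids q
  | [], _ => trivial
  | i :: l, h =>
    ⟨⟨trivial, trivial, HExpr.avoids_pow
        (show (HExpr.add (HExpr.hecke (ℓ i)) (HExpr.coeff (-(a i))) : HExpr 𝒪).Avoids q from
          ⟨h i List.mem_cons_self, trivial⟩) N⟩,
      k5lc_expr_avoids ℓ a N q l fun j hj => h j (List.mem_cons_of_mem _ hj)⟩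

variable (L M : ℕ) [NeZero L] [hML : Fact (M ∣ L)]

theorem k5lc_expr_pow_eval (e : HExpr 𝒪) (n : ℕ) :
    (e.pow n).eval L M = k5lcPowFam (e.eval L M) n := by
  induction n with
  | zero => rfl
  | succ n ih =>
    show (e.eval L M).comp ((e.pow n).eval L M) = (e.eval L M).comp (k5lcPowFam (e.eval L M) n)
    rw [ih]

/-- the evaluation of `k5lcExpr` -/
theorem k5lc_expr_eval (ℓ : ι → ℕ) (a : ι → 𝒪) (N : ℕ) (l : List ι) :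
    (k5lcExpr ℓ a N l).eval L M
      = k5lcFam (fun i => (HExpr.hecke (ℓ i) : HExpr 𝒪).eval L M) a N l := by
  induction l with
  | nil => rfl
  | cons i l ih =>
    show ((NatFam.one 𝒪 L M).add ((NatFam.coeff 𝒪 L M (-1)).comp
        ((HExpr.pow (HExpr.add (HExpr.hecke (ℓ i)) (HExpr.coeff (-(a i)))) N).eval L M))).comp
          ((k5lcExpr ℓ a N l).eval L M) = _
    rw [ih, k5lc_expr_pow_eval]
    rfl

/-- `T_ℓ − a` on `Hom(Γ_K(L), A)` -/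
def k5lcS (ℓ : ℕ) [NeZero ℓ] (a : 𝒪) (A : Type) [AddCommGroup A] [Module 𝒪 A]
    (K : Subgroup (ZMod M)ˣ) : HomS (gammaH L M K) A →+ HomS (gammaH L M K) A :=
  tS L M ℓ K A - DistribSMul.toAddMonoidHom (HomS (gammaH L M K) A) a

theorem k5lcS_apply (ℓ : ℕ) [NeZero ℓ] (a : 𝒪) (A : Type) [AddCommGroup A] [Module 𝒪 A]
    (K : Subgroup (ZMod M)ˣ) (φ : HomS (gammaH L M K) A) :
    k5lcS L M ℓ a A K φ = tS L M ℓ K A φ - a • φ := rfl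

theorem k5lc_shift_hecke_op (ℓ : ℕ) [NeZero ℓ] (a : 𝒪) (A : Type) [AddCommGroup A]
    [Module 𝒪 A] (K : Subgroup (ZMod M)ˣ) :
    ((k5lcShift ((HExpr.hecke ℓ : HExpr 𝒪).eval L M) a).fam A).op K = k5lcS L M ℓ a A K := by
  refine AddMonoidHom.ext fun φ => ?_
  rw [k5lc_shift_op, HExpr.op_hecke, k5lcS_apply]

/-- two expressions with `IsPrimes` commute -/
theorem k5lc_commutes_of_isPrimes (e e' : HExpr 𝒪) (he : e.IsPrimes) (he' : e'.IsPrimes) :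
    NatFam.Commutes (e.eval L M) (e'.eval L M) :=
  fun A _ _ K φ => k5hx_comm L M A K e e' he he' φ

/-- the operator of `e.twist Q` -/
theorem k5lc_twist_op (e : HExpr 𝒪) (Q : List ℕ) (A : Type) [AddCommGroup A] [Module 𝒪 A]
    (K : Subgroup (ZMod M)ˣ) :
    (((e.twist Q).eval L M).fam A).op K
      = (((e.comp ((HExpr.one : HExpr 𝒪).twist Q)).eval L M).fam A).op K := by
  induction Q with
  | nil => rfl
  | cons q Q ih =>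
    show ((((e.twist Q).eval L M).fam A).op K).comp ((((HExpr.usq 𝒪 q).eval L M).fam A).op K)
      = (((e.eval L M).fam A).op K).comp
        ((((((HExpr.one : HExpr 𝒪).twist Q).eval L M).fam A).op K).comp
          ((((HExpr.usq 𝒪 q).eval L M).fam A).op K))
    rw [ih]
    rfl

theorem k5lc_twist_theta (e : HExpr 𝒪) (Q : List ℕ) (ℓ₀ : ℕ) [NeZero ℓ₀] (A : Type)
    [AddCommGroup A] [Module 𝒪 A] (K : Subgroup (ZMod M)ˣ) :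
    thetaN ((e.twist Q).eval L M) ℓ₀ A K
      = thetaN ((e.comp ((HExpr.one : HExpr 𝒪).twist Q)).eval L M) ℓ₀ A K := by
  show ((((e.twist Q).eval L M).fam A).op K).comp (etaS L M ℓ₀ K A)
    = ((((e.comp ((HExpr.one : HExpr 𝒪).twist Q)).eval L M).fam A).op K).comp
      (etaS L M ℓ₀ K A)
  rw [k5lc_twist_op]

end expr

section mainexpr

variable {𝒪 : Type} [CommRing 𝒪] [IsDomain 𝒪] [IsDiscreteValuationRing 𝒪]
  [Finite (IsLocalRing.ResidueField 𝒪)]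
  (L M : ℕ) [NeZero L] [hML : Fact (M ∣ L)] {ι : Type}

/-- **K5-LOC (concrete, `HExpr` form).**  `ℓ i` primes, `a i ∈ 𝒪`: there are `N > 0` and a list
`l` such that for `P = k5lcExpr ℓ a N l`, every `K ≥ H'`, every expression `e'` with `IsPrimes`
and every `n`, the `Θ_{P e'}`-part of `Hom(Γ_K(L), 𝒪/𝔪ⁿ)` is the part of the `Θ_{e'}`-part on
which all `T_{ℓ i} − a i` are nilpotent. -/
theorem k5lc_main_expr (ℓ : ι → ℕ) [∀ i, NeZero (ℓ i)] (hℓ : ∀ i, (ℓ i).Prime) (a : ι → 𝒪)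
    (H' : Subgroup (ZMod M)ˣ) (ℓ₀ : ℕ) [NeZero ℓ₀] (hℓ₀ : ℓ₀.Prime) (hℓ₀L : ¬ ℓ₀ ∣ L) :
    ∃ (N : ℕ) (l : List ι), 0 < N ∧
      ∀ (K : Subgroup (ZMod M)ˣ), H' ≤ K →
      (∀ n : ℕ, NoTors (gammaH L M K) (𝒪 ⧸ IsLocalRing.maximalIdeal 𝒪 ^ n)) →
      ∀ (e' : HExpr 𝒪), e'.IsPrimes →
      ∀ (n : ℕ) (φ : HomS (gammaH L M K) (𝒪 ⧸ IsLocalRing.maximalIdeal 𝒪 ^ n)),
        φ ∈ etaPart (thetaN (((k5lcExpr ℓ a N l).comp e').eval L M) ℓ₀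
            (𝒪 ⧸ IsLocalRing.maximalIdeal 𝒪 ^ n) K) ↔
          φ ∈ etaPart (thetaN (e'.eval L M) ℓ₀ (𝒪 ⧸ IsLocalRing.maximalIdeal 𝒪 ^ n) K) ∧
          ∀ i, φ ∈ k5lcKer (k5lcS L M (ℓ i) (a i)
            (𝒪 ⧸ IsLocalRing.maximalIdeal 𝒪 ^ n) K) := by
  have hTT : ∀ i j, NatFam.Commutes ((HExpr.hecke (ℓ i) : HExpr 𝒪).eval L M)
      ((HExpr.hecke (ℓ j) : HExpr 𝒪).eval L M) :=
    fun i j => k5lc_commutes_of_isPrimes L M _ _ (hℓ i) (hℓ j)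
  have hTη : ∀ i, NatFam.Commutes ((HExpr.hecke (ℓ i) : HExpr 𝒪).eval L M)
      (NatFam.hecke 𝒪 L M ℓ₀) := fun i => by
    rw [← HExpr.eval_hecke L M ℓ₀]
    exact k5lc_commutes_of_isPrimes L M _ _ (hℓ i) hℓ₀
  obtain ⟨N, l, hN0, h⟩ := k5lc_main (fun i => (HExpr.hecke (ℓ i) : HExpr 𝒪).eval L M) a H'
    ℓ₀ hℓ₀ hℓ₀L hTT hTη
  refine ⟨N, l, hN0, fun K hle hNT e' he' n φ => ?_⟩
  have hv : NatFam.Commutes (e'.eval L M) (NatFam.hecke 𝒪 L M ℓ₀) := by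
    rw [← HExpr.eval_hecke L M ℓ₀]
    exact k5lc_commutes_of_isPrimes L M _ _ he' hℓ₀
  have key := h K hle hNT (e'.eval L M)
    (fun i => k5lc_commutes_of_isPrimes L M _ _ (hℓ i) he') hv n φ
  have e1 : ((k5lcExpr ℓ a N l).comp e').eval L M
      = (k5lcFam (fun i => (HExpr.hecke (ℓ i) : HExpr 𝒪).eval L M) a N l).comp
        (e'.eval L M) := by
    show ((k5lcExpr ℓ a N l).eval L M).comp (e'.eval L M) = _
    rw [k5lc_expr_eval]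
  rw [e1, key]
  simp only [k5lc_shift_hecke_op]

/-- the same for `P.twist Q` -/
theorem k5lc_twist_mem_iff (ℓ : ι → ℕ) [∀ i, NeZero (ℓ i)] (a : ι → 𝒪) (N : ℕ) (l : List ι)
    (ℓ₀ : ℕ) [NeZero ℓ₀] (K : Subgroup (ZMod M)ˣ) (Q : List ℕ) (A : Type) [AddCommGroup A]
    [Module 𝒪 A] (φ : HomS (gammaH L M K) A) :
    φ ∈ etaPart (thetaN (((k5lcExpr ℓ a N l).twist Q).eval L M) ℓ₀ A K) ↔
      φ ∈ etaPart (thetaN (((k5lcExpr ℓ a N l).comp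
        ((HExpr.one : HExpr 𝒪).twist Q)).eval L M) ℓ₀ A K) := by
  rw [k5lc_twist_theta]

/-- **nilpotency**: `T_{ℓ i} − a i` is nilpotent on the `Θ`-part, as soon as the `Θ`-part lies
in its generalised kernel -/
theorem k5lc_expr_nilpotent (ℓ : ℕ) [NeZero ℓ] (a : 𝒪) (A : Type) [AddCommGroup A] [Module 𝒪 A]
    [Finite A] (K : Subgroup (ZMod M)ˣ) (𝔲 : NatFam 𝒪 L M) (ℓ₀ : ℕ) [NeZero ℓ₀]
    (h : ∀ φ ∈ etaPart (thetaN 𝔲 ℓ₀ A K), φ ∈ k5lcKer (k5lcS L M ℓ a A K)) :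
    ∃ m : ℕ, ∀ φ ∈ etaPart (thetaN 𝔲 ℓ₀ A K), k5s_pow (k5lcS L M ℓ a A K) m φ = 0 := by
  haveI : Finite (HomS (gammaH L M K) A) := k5s_finite_homS _ A
  obtain ⟨m, -, hm⟩ := k5lc_exists_uniform (HomS (gammaH L M K) A)
  exact ⟨m, fun φ hφ => ((hm _).2.2 φ).mp (h φ hφ)⟩

end mainexpr

end Fermat.Agent.RT.K5

end


end ZBRT_087_3

/-! ### bundled: `Fermat.Agent.RT.Hecke.ConcBaseNil` -/
section ZBRT_087_4

/-!
# K-machine, HECKE-asm, HK-CONC, the BASE side (helper22): the fields `nil` and `resid`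

Input (K5-LOC + K5-INDEP, the named hypothesis `RthkcbResid`): for every prime `ℓ ∤ N p` and every
Frobenius element `τ` at `ℓ` there is `a ∈ 𝒪` lifting `tr ρ̄(τ)` such that `T_ℓ − a` is nilpotent
on the `Θ`-part of `Hom(Γ₀(N), 𝒪 ⧸ 𝔪)`.

* `rthkcb_pow_mem` (abstract): if `π : X → Y` intertwines `f` and `g`, `ker π ⊆ I X` and
  `g ^ e = 0`, then `f ^ e X ⊆ I X`;
* `rthkcbRed` : the reduction `X_𝒪 → X_{𝒪 ⧸ 𝔪}`; `rthkcb_red_ker` : its kernel is `𝔪 X_𝒪`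
  (from the bases of K5-BASE);
* `rthkcb_gen_nil` : every variable of `HDAlg M` is "scalar + nilpotent" on `X_{𝒪 ⧸ 𝔪}` (the
  good `T_ℓ` by `RthkcbResid`, the bad `T_ℓ` act by `0`, the diamonds by `1`);
* `rthkcb_nil`, `rthkcb_resid` : the fields `nil`, `resid` of `HkBaseSide`.
-/

set_option autoImplicit false
set_option linter.unusedSectionVars false
set_option linter.style.haveILetI false
set_option linter.unusedVariables false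

noncomputable section

namespace Fermat.Agent.RT

open IsLocalRing Fermat.Agent.ES Fermat.Agent.ES1 Fermat.Agent.RT.K5 Fermat.Agent.S48
open CongruenceSubgroup ModularCurve.Period
open scoped MatrixGroups

section abs

variable {O : Type} [CommRing O]

/-- if `π` intertwines `f` and `g`, `ker π ⊆ I X` and `g ^ e = 0`, then `f ^ e X ⊆ I X` -/
theorem rthkcb_pow_mem {X Y : Type} [AddCommGroup X] [Module O X] [AddCommGroup Y]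
    [Module O Y] (I : Ideal O) (π : X →ₗ[O] Y)
    (hker : ∀ w : X, π w = 0 → w ∈ (I • ⊤ : Submodule O X))
    (f : Module.End O X) (g : Module.End O Y) (hfg : ∀ v, π (f v) = g (π v)) (e : ℕ)
    (hg : g ^ e = 0) (v : X) : (f ^ e) v ∈ (I • ⊤ : Submodule O X) := by
  apply hker
  have h : ∀ (n : ℕ) (w : X), π ((f ^ n) w) = (g ^ n) (π w) := by
    intro n
    induction n with
    | zero =>
      intro w
      rw [pow_zero, pow_zero, Module.End.one_apply, Module.End.one_apply]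
    | succ n ih =>
      intro w
      rw [pow_succ, pow_succ, Module.End.mul_apply, Module.End.mul_apply, ih, hfg]
  rw [h, hg, LinearMap.zero_apply]

/-- the variables generate the polynomial ring over `ℤ` as a ring -/
theorem rthkcb_mem_closure {σ : Type} (x : MvPolynomial σ ℤ) :
    x ∈ Subring.closure (Set.range (MvPolynomial.X : σ → MvPolynomial σ ℤ)) := by
  induction x using MvPolynomial.induction_on with
  | C a =>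
    rw [eq_intCast (MvPolynomial.C : ℤ →+* MvPolynomial σ ℤ) a]
    exact intCast_mem _ a
  | add p q hp hq => exact add_mem hp hq
  | mul_X p i hp => exact mul_mem hp (Subring.subset_closure ⟨i, rfl⟩)

end abs

section conc

variable {O : Type} [CommRing O] [IsLocalRing O] {N M : ℕ} [NeZero N] [NeZero M]
  [hMN : Fact (M ∣ N)] {p : ℕ}

/-- **the residual hypothesis** (K5-LOC + K5-INDEP): for every prime `ℓ ∤ N p` and every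
Frobenius element `τ` at `ℓ` some lift `a` of `tr ρ̄(τ)` has `T_ℓ − a` nilpotent on the `Θ`-part
of `Hom(Γ₀(N), 𝒪 ⧸ 𝔪)`. -/
def RthkcbResid (p : ℕ) (ρbar : ResidualGaloisRep (ResidueField O)) (N M : ℕ) [NeZero N]
    [Fact (M ∣ N)] (𝔲 : NatFam O N M) (ℓ₀ : ℕ) [NeZero ℓ₀] : Prop :=
  ∀ (ℓ : ℕ) [NeZero ℓ], ℓ.Prime → ¬ ℓ ∣ N * p →
    ∀ P : ValuationSubring (AlgebraicClosure ℚ), P.LiesOverPrime ℓ →
      ∀ τ : GQ, P.IsFrobeniusAt τ ℓ → ∃ (a : O) (e : ℕ),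
        residue O a = LinearMap.trace (ResidueField O) ρbar.V (ρbar.ρ τ) ∧
        ∀ ψ ∈ etaPart (thetaN 𝔲 ℓ₀ (O ⧸ maximalIdeal O ^ 1) (⊤ : Subgroup (ZMod M)ˣ)),
          k5s_pow (k5lcS N M ℓ a (O ⧸ maximalIdeal O ^ 1) (⊤ : Subgroup (ZMod M)ˣ)) e ψ = 0

variable (𝔲 : NatFam O N M) (ℓ₀ : ℕ) [NeZero ℓ₀]

/-- the reduction modulo `𝔪` on the `Θ`-parts -/
def rthkcbRed : k5fn_etaSub 𝔲 ℓ₀ O (⊤ : Subgroup (ZMod M)ˣ) →ₗ[O]
    k5fn_etaSub 𝔲 ℓ₀ (O ⧸ maximalIdeal O ^ 1) (⊤ : Subgroup (ZMod M)ˣ) :=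
  (k5fn_mapL (Γ := gammaH N M (⊤ : Subgroup (ZMod M)ˣ))
    (Submodule.mkQ (maximalIdeal O ^ 1))).restrict
    (fun v hv => k5s_intertwine_mem (thetaN 𝔲 ℓ₀ O ⊤)
      (thetaN 𝔲 ℓ₀ (O ⧸ maximalIdeal O ^ 1) ⊤)
      (mapS (Submodule.mkQ (maximalIdeal O ^ 1)).toAddMonoidHom)
      (fun x => k5n_theta_nat 𝔲 ℓ₀ (Submodule.mkQ (maximalIdeal O ^ 1)) ⊤ x) hv)

theorem rthkcbRed_coe (v : k5fn_etaSub 𝔲 ℓ₀ O (⊤ : Subgroup (ZMod M)ˣ)) :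
    ((rthkcbRed 𝔲 ℓ₀ v : k5fn_etaSub 𝔲 ℓ₀ (O ⧸ maximalIdeal O ^ 1) (⊤ : Subgroup (ZMod M)ˣ)) :
      HomS (gammaH N M (⊤ : Subgroup (ZMod M)ˣ)) (O ⧸ maximalIdeal O ^ 1)) =
      mapS (Submodule.mkQ (maximalIdeal O ^ 1)).toAddMonoidHom v.1 := rfl

variable {𝔲 ℓ₀}

/-- the reduction intertwines the Hecke actions -/
theorem rthkcbRed_act (hst : RthkcbStab N M p 𝔲 ℓ₀ O)
    (hst1 : RthkcbStab N M p 𝔲 ℓ₀ (O ⧸ maximalIdeal O ^ 1)) (x : HDAlg M)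
    (v : k5fn_etaSub 𝔲 ℓ₀ O (⊤ : Subgroup (ZMod M)ˣ)) :
    rthkcbRed 𝔲 ℓ₀ (rthkcbAct hst x v) = rthkcbAct hst1 x (rthkcbRed 𝔲 ℓ₀ v) :=
  Subtype.ext (es1infHomEval_comp hMN.out
    (Submodule.mkQ (maximalIdeal O ^ 1)).toAddMonoidHom x v.1).symm

/-- the kernel of the reduction is `𝔪 X` -/
theorem rthkcb_red_ker {r : ℕ} {c : Fin r → HomS (gammaH N M (⊤ : Subgroup (ZMod M)ˣ)) O}
    (hc : K5IsBasis O (etaPart (thetaN 𝔲 ℓ₀ O ⊤)) c)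
    (hc1 : K5IsBasis (O ⧸ maximalIdeal O ^ 1)
      (etaPart (thetaN 𝔲 ℓ₀ (O ⧸ maximalIdeal O ^ 1) ⊤))
      (fun i => mapS (Submodule.mkQ (maximalIdeal O ^ 1)).toAddMonoidHom (c i)))
    (w : k5fn_etaSub 𝔲 ℓ₀ O (⊤ : Subgroup (ZMod M)ˣ)) (hw : rthkcbRed 𝔲 ℓ₀ w = 0) :
    w ∈ (maximalIdeal O • ⊤ : Submodule O (k5fn_etaSub 𝔲 ℓ₀ O (⊤ : Subgroup (ZMod M)ˣ))) := by
  obtain ⟨a, ha⟩ := hc.2.2 w.1 w.2
  have h2 : mapS (Submodule.mkQ (maximalIdeal O ^ 1)).toAddMonoidHom w.1 = 0 :=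
    congrArg Subtype.val hw
  have h1 : ∑ i, Ideal.Quotient.mk (maximalIdeal O ^ 1) (a i) •
        mapS (Submodule.mkQ (maximalIdeal O ^ 1)).toAddMonoidHom (c i)
      = ∑ i, (0 : Fin r → O ⧸ maximalIdeal O ^ 1) i •
        mapS (Submodule.mkQ (maximalIdeal O ^ 1)).toAddMonoidHom (c i) := by
    rw [ha, map_sum] at h2
    simp only [k5bs_red_smul] at h2
    rw [h2]
    simp only [Pi.zero_apply, zero_smul, Finset.sum_const_zero]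
  have h3 := hc1.2.1 h1
  have h4 : ∀ i, a i ∈ maximalIdeal O := fun i => by
    have h5 : Ideal.Quotient.mk (maximalIdeal O ^ 1) (a i) = 0 := congrFun h3 i
    have h6 : a i ∈ maximalIdeal O ^ 1 := Ideal.Quotient.eq_zero_iff_mem.mp h5
    rwa [pow_one] at h6
  have h7 : w = ∑ i, a i • (⟨c i, hc.1 i⟩ : k5fn_etaSub 𝔲 ℓ₀ O (⊤ : Subgroup (ZMod M)ˣ)) := by
    refine Subtype.ext ?_
    simp only [Submodule.coe_sum, Submodule.coe_smul]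
    exact ha
  rw [h7]
  exact Submodule.sum_mem _ (fun i _ => Submodule.smul_mem_smul (h4 i) Submodule.mem_top)

/-- powers of `T_ℓ − a` on the `Θ`-part -/
theorem rthkcb_pow_val {A : Type} [AddCommGroup A] [Module O A]
    (hstA : RthkcbStab N M p 𝔲 ℓ₀ A) (ℓ : ℕ) [NeZero ℓ] (hℓ : ℓ.Prime) (hℓN : ¬ ℓ ∣ N * p)
    (a : O) (n : ℕ) (ψ : k5fn_etaSub 𝔲 ℓ₀ A (⊤ : Subgroup (ZMod M)ˣ)) :
    ((((rthkcbAct hstA (es1top_tGen M ⟨ℓ, hℓ⟩) -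
        algebraMap O (Module.End O (k5fn_etaSub 𝔲 ℓ₀ A (⊤ : Subgroup (ZMod M)ˣ))) a) ^ n) ψ :
        k5fn_etaSub 𝔲 ℓ₀ A (⊤ : Subgroup (ZMod M)ˣ)) :
      HomS (gammaH N M (⊤ : Subgroup (ZMod M)ˣ)) A) =
      k5s_pow (k5lcS N M ℓ a A (⊤ : Subgroup (ZMod M)ˣ)) n ψ.1 := by
  induction n generalizing ψ with
  | zero => rw [pow_zero, Module.End.one_apply, k5s_pow_zero]
  | succ n ih =>
    rw [pow_succ, Module.End.mul_apply, ih, k5s_pow_succ]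
    congr 1
    rw [LinearMap.sub_apply, Module.algebraMap_end_apply, Submodule.coe_sub, Submodule.coe_smul,
      rthkcbAct_coe, k5lcS_apply]
    congr 1
    exact rthkcb_eval_tGen N M p ⟨ℓ, hℓ⟩ hℓN ψ.1

/-- every variable is "scalar + nilpotent" on the `Θ`-part of `Hom(Γ₀(N), 𝒪 ⧸ 𝔪)` -/
theorem rthkcb_gen_nil {ρbar : ResidualGaloisRep (ResidueField O)}
    (hres : RthkcbResid p ρbar N M 𝔲 ℓ₀)
    (hst1 : RthkcbStab N M p 𝔲 ℓ₀ (O ⧸ maximalIdeal O ^ 1)) (i : HDVar M) :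
    ∃ c : O, IsNilpotent (rthkcbAct hst1 (MvPolynomial.X i) -
      algebraMap O (Module.End O
        (k5fn_etaSub 𝔲 ℓ₀ (O ⧸ maximalIdeal O ^ 1) (⊤ : Subgroup (ZMod M)ˣ))) c) := by
  rcases i with ℓ | c
  · by_cases hℓ : (ℓ : ℕ) ∣ N * p
    · refine ⟨0, ?_⟩
      have h0 : rthkcbAct hst1 (MvPolynomial.X (Sum.inl ℓ)) = 0 := by
        refine LinearMap.ext fun ψ => Subtype.ext ?_
        rw [rthkcbAct_coe]
        exact rthkcb_eval_bad N M p ⊤ ℓ hℓ ψ.1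
      refine ⟨1, (pow_one _).trans ?_⟩
      rw [map_zero]
      exact sub_eq_zero.mpr h0
    · haveI : NeZero (ℓ : ℕ) := ⟨ℓ.2.ne_zero⟩
      obtain ⟨P, τ, hP, hτ⟩ := Fermat.Agent.Common.exists_isFrobeniusAt (ℓ : ℕ) ℓ.2
      obtain ⟨a, e, -, h⟩ := hres (ℓ : ℕ) ℓ.2 hℓ P hP τ hτ
      refine ⟨a, e, ?_⟩
      refine LinearMap.ext fun ψ => Subtype.ext ?_
      exact (rthkcb_pow_val hst1 (ℓ : ℕ) ℓ.2 hℓ a e ψ).trans (h ψ.1 ψ.2)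
  · refine ⟨1, ?_⟩
    have h1 : rthkcbAct hst1 (MvPolynomial.X (Sum.inr c)) = 1 := by
      refine LinearMap.ext fun ψ => Subtype.ext ?_
      rw [rthkcbAct_coe]
      exact rthkcb_eval_dGen N M p c ψ.1
    refine ⟨1, (pow_one _).trans ?_⟩
    rw [map_one]
    exact sub_eq_zero.mpr h1

set_option maxHeartbeats 1600000 in
/-- every polynomial is "scalar + nilpotent" on the `Θ`-part of `Hom(Γ₀(N), 𝒪 ⧸ 𝔪)` -/
theorem rthkcb_nil_red {ρbar : ResidualGaloisRep (ResidueField O)}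
    (hres : RthkcbResid p ρbar N M 𝔲 ℓ₀)
    (hst1 : RthkcbStab N M p 𝔲 ℓ₀ (O ⧸ maximalIdeal O ^ 1)) (x : HDAlg M) :
    ∃ c : O, IsNilpotent (rthkcbAct hst1 x -
      algebraMap O (Module.End O
        (k5fn_etaSub 𝔲 ℓ₀ (O ⧸ maximalIdeal O ^ 1) (⊤ : Subgroup (ZMod M)ˣ))) c) :=
by
  have hs : ∀ (c : O) (y : HDAlg M), Commute
      (algebraMap O (Module.End O
        (k5fn_etaSub 𝔲 ℓ₀ (O ⧸ maximalIdeal O ^ 1) (⊤ : Subgroup (ZMod M)ˣ))) c)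
      (rthkcbAct hst1 y) := fun c y => Algebra.commute_algebraMap_left c _
  have hG : ∀ g ∈ Set.range (MvPolynomial.X : HDVar M → HDAlg M), ∃ c : O,
      IsNilpotent (rthkcbAct hst1 g - algebraMap O (Module.End O
        (k5fn_etaSub 𝔲 ℓ₀ (O ⧸ maximalIdeal O ^ 1) (⊤ : Subgroup (ZMod M)ˣ))) c) := by
    rintro g ⟨i, rfl⟩
    exact rthkcb_gen_nil hres hst1 i
  exact rthkn_closure (R := Module.End O
      (k5fn_etaSub 𝔲 ℓ₀ (O ⧸ maximalIdeal O ^ 1) (⊤ : Subgroup (ZMod M)ˣ)))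
    (rthkcbAct hst1) (algebraMap O (Module.End O
      (k5fn_etaSub 𝔲 ℓ₀ (O ⧸ maximalIdeal O ^ 1) (⊤ : Subgroup (ZMod M)ˣ))))
    hs (Set.range MvPolynomial.X) hG x (rthkcb_mem_closure x)

/-- the intertwining property of the shifted operators -/
theorem rthkcbRed_shift (hst : RthkcbStab N M p 𝔲 ℓ₀ O)
    (hst1 : RthkcbStab N M p 𝔲 ℓ₀ (O ⧸ maximalIdeal O ^ 1)) (x : HDAlg M) (c : O)
    (v : k5fn_etaSub 𝔲 ℓ₀ O (⊤ : Subgroup (ZMod M)ˣ)) :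
    rthkcbRed 𝔲 ℓ₀ ((rthkcbAct hst x -
        algebraMap O (Module.End O (k5fn_etaSub 𝔲 ℓ₀ O (⊤ : Subgroup (ZMod M)ˣ))) c :
        Module.End O (k5fn_etaSub 𝔲 ℓ₀ O (⊤ : Subgroup (ZMod M)ˣ))) v) =
      ((rthkcbAct hst1 x - algebraMap O (Module.End O
        (k5fn_etaSub 𝔲 ℓ₀ (O ⧸ maximalIdeal O ^ 1) (⊤ : Subgroup (ZMod M)ˣ))) c :
        Module.End O (k5fn_etaSub 𝔲 ℓ₀ (O ⧸ maximalIdeal O ^ 1) (⊤ : Subgroup (ZMod M)ˣ))))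
        (rthkcbRed 𝔲 ℓ₀ v) := by
  rw [LinearMap.sub_apply, LinearMap.sub_apply, Module.algebraMap_end_apply,
    Module.algebraMap_end_apply, map_sub, map_smul, rthkcbRed_act hst hst1]

/-- **the field `nil`** -/
theorem rthkcb_nil {ρbar : ResidualGaloisRep (ResidueField O)}
    (hres : RthkcbResid p ρbar N M 𝔲 ℓ₀) (hst : RthkcbStab N M p 𝔲 ℓ₀ O)
    (hst1 : RthkcbStab N M p 𝔲 ℓ₀ (O ⧸ maximalIdeal O ^ 1)) {r : ℕ}
    {c : Fin r → HomS (gammaH N M (⊤ : Subgroup (ZMod M)ˣ)) O}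
    (hc : K5IsBasis O (etaPart (thetaN 𝔲 ℓ₀ O ⊤)) c)
    (hc1 : K5IsBasis (O ⧸ maximalIdeal O ^ 1)
      (etaPart (thetaN 𝔲 ℓ₀ (O ⧸ maximalIdeal O ^ 1) ⊤))
      (fun i => mapS (Submodule.mkQ (maximalIdeal O ^ 1)).toAddMonoidHom (c i)))
    (x : HDAlg M) :
    ∃ (a : O) (e : ℕ), ∀ v : k5fn_etaSub 𝔲 ℓ₀ O (⊤ : Subgroup (ZMod M)ˣ),
      ((rthkcbAct hst x -
        algebraMap O (Module.End O (k5fn_etaSub 𝔲 ℓ₀ O (⊤ : Subgroup (ZMod M)ˣ))) a) ^ e) v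
        ∈ (maximalIdeal O • ⊤ :
          Submodule O (k5fn_etaSub 𝔲 ℓ₀ O (⊤ : Subgroup (ZMod M)ˣ))) := by
  obtain ⟨a, e, he⟩ := rthkcb_nil_red hres hst1 x
  exact ⟨a, e, rthkcb_pow_mem _ (rthkcbRed 𝔲 ℓ₀) (rthkcb_red_ker hc hc1) _ _
    (rthkcbRed_shift hst hst1 x a) e he⟩

/-- **the field `resid`** -/
theorem rthkcb_resid {ρbar : ResidualGaloisRep (ResidueField O)}
    (hres : RthkcbResid p ρbar N M 𝔲 ℓ₀) (hst : RthkcbStab N M p 𝔲 ℓ₀ O)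
    (hst1 : RthkcbStab N M p 𝔲 ℓ₀ (O ⧸ maximalIdeal O ^ 1)) {r : ℕ}
    {c : Fin r → HomS (gammaH N M (⊤ : Subgroup (ZMod M)ˣ)) O}
    (hc : K5IsBasis O (etaPart (thetaN 𝔲 ℓ₀ O ⊤)) c)
    (hc1 : K5IsBasis (O ⧸ maximalIdeal O ^ 1)
      (etaPart (thetaN 𝔲 ℓ₀ (O ⧸ maximalIdeal O ^ 1) ⊤))
      (fun i => mapS (Submodule.mkQ (maximalIdeal O ^ 1)).toAddMonoidHom (c i)))
    (ℓ : ℕ) (hℓ : ℓ.Prime) (hℓN : ¬ ℓ ∣ N * p)
    (P : ValuationSubring (AlgebraicClosure ℚ)) (hP : P.LiesOverPrime ℓ) (τ : GQ)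
    (hτ : P.IsFrobeniusAt τ ℓ) :
    ∃ (a : O) (e : ℕ), residue O a = LinearMap.trace (ResidueField O) ρbar.V (ρbar.ρ τ) ∧
      ∀ v : k5fn_etaSub 𝔲 ℓ₀ O (⊤ : Subgroup (ZMod M)ˣ),
        ((rthkcbAct hst (es1inftwTr M 1 ℓ) -
          algebraMap O (Module.End O (k5fn_etaSub 𝔲 ℓ₀ O (⊤ : Subgroup (ZMod M)ˣ))) a) ^ e) v
          ∈ (maximalIdeal O • ⊤ :
            Submodule O (k5fn_etaSub 𝔲 ℓ₀ O (⊤ : Subgroup (ZMod M)ˣ))) := by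
  haveI : NeZero ℓ := ⟨hℓ.ne_zero⟩
  obtain ⟨a, e, ha, h⟩ := hres ℓ hℓ hℓN P hP τ hτ
  refine ⟨a, e, ha, rthkcb_pow_mem _ (rthkcbRed 𝔲 ℓ₀) (rthkcb_red_ker hc hc1) _ _
    (rthkcbRed_shift hst hst1 (es1inftwTr M 1 ℓ) a) e ?_⟩
  rw [rthkcb_Tr_eq N M p ℓ hℓ hℓN]
  refine LinearMap.ext fun ψ => Subtype.ext ?_
  exact (rthkcb_pow_val hst1 ℓ hℓ hℓN a e ψ).trans (h ψ.1 ψ.2)

end conc

end Fermat.Agent.RT

end
end ZBRT_087_4

/-! ### bundled: `Fermat.Agent.RT.Hecke.ConcBase` -/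
section ZBRT_087_5

/-!
# K-machine, HECKE-asm, HK-CONC, the BASE side (helper22): `HkBase` for the concrete base module

Base level `N` (squarefree, modulus `M ∣ N`, `H = ⊤`), `E : K5.HExpr 𝒪` with `IsPrimes`,
`ℓ₀ ∤ N` an auxiliary prime, `X = Θ_{E,ℓ₀}`-part of `Hom(Γ₀(N), 𝒪)`, `c` a basis of `X` whose
reduction modulo `𝔪` is a basis of the `Θ`-part of `Hom(Γ₀(N), 𝒪 ⧸ 𝔪)` (K5-BASE, `k5bs_base`).

* `𝕋₀ = HDAlg M`, `J₀ = es1inftwJ N M ⊤ p χ`, `Tr₀ = es1inftwTr M 1` (`= T_ℓ` at the good primes),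
  `Φ0 = rthkcbPhi (rthkcbBasis hc) h (rthkcbAct …)` : the block-diagonal matrices (`2 ^ h` blocks)
  of the Hecke action in the basis `c`;
* **`rthkcb_hkBase`** : `HkBase p ρbar N S' (2 ^ h * r) J₀ Tr₀ Φ0`, from
  `Es1inftwChar N M p 1 χ` (for `pkg`), the finite flat models (`model`, verbatim) and
  `RthkcbResid` (K5-LOC + K5-INDEP);
* `rthkcb_tS_eq`, `rthkcb_phi_off` (`ConcBaseAct.lean`) : `Φ0 (Tr₀ ℓ)` is the block-diagonal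
  matrix of `K5.tS ℓ` in the basis `c`.
-/

set_option autoImplicit false
set_option linter.unusedSectionVars false
set_option linter.style.haveILetI false
set_option linter.unusedVariables false

noncomputable section

namespace Fermat.Agent.RT

open IsLocalRing Fermat.Agent.ES Fermat.Agent.ES1 Fermat.Agent.RT.K5 Fermat.Agent.S48
open Fermat.Agent.S30 Fermat.Agent.W1 Fermat.Agent.TW ExtCitation
open CongruenceSubgroup ModularCurve.Period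
open scoped MatrixGroups

variable {O : Type} [CommRing O] [IsDomain O] [CharZero O] [IsDiscreteValuationRing O]
  [IsAdicComplete (IsLocalRing.maximalIdeal O) O] [Finite (IsLocalRing.ResidueField O)]
  {N M : ℕ} [NeZero N] [NeZero M] [hMN : Fact (M ∣ N)] {p : ℕ} [hp : Fact p.Prime]

/-- **HK-CONC, base side: the module side of the base in its natural form.** -/
theorem rthkcb_side (ρbar : ResidualGaloisRep (ResidueField O)) (S' : Finset ℕ)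
    (hpS' : p ∈ S') (hNS' : ∀ ℓ : ℕ, ℓ.Prime → ℓ ∣ N → ℓ ∈ S')
    (χ : GalQ →* (ZMod M)ˣ) (hχ : Es1inftwChar N M p 1 χ)
    (hmodel : ∀ k : ℕ, ∃ (X : Type) (_ : AddCommGroup X) (_ : Finite X) (act : GQ → X → X),
      (∀ s x x', act s (x + x') = act s x + act s x') ∧
      (∀ s s' x, act (s * s') x = act s (act s' x)) ∧
      HasFiniteFlatModel (GaloisRep.ratLocalizedAt p) X act ∧
      ∀ e : GQ →₀ ℤ, (∀ x : X, (e.sum fun g z => z • act g x) = 0) →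
        ∀ x : es1inftwJ N M ⊤ p χ, p ^ k • x = 0 → (e.sum fun g z => z • g • x) = 0)
    (hN : Squarefree N) (E : HExpr O) (hE : E.IsPrimes) (ℓ₀ : ℕ) [NeZero ℓ₀]
    (hℓ₀ : ℓ₀.Prime) (hℓ₀N : ¬ ℓ₀ ∣ N) {r : ℕ}
    {c : Fin r → HomS (gammaH N M (⊤ : Subgroup (ZMod M)ˣ)) O}
    (hc : K5IsBasis O (etaPart (thetaN (E.eval N M) ℓ₀ O ⊤)) c)
    (hc1 : K5IsBasis (O ⧸ maximalIdeal O ^ 1)
      (etaPart (thetaN (E.eval N M) ℓ₀ (O ⧸ maximalIdeal O ^ 1) ⊤))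
      (fun i => mapS (Submodule.mkQ (maximalIdeal O ^ 1)).toAddMonoidHom (c i)))
    (hres : RthkcbResid p ρbar N M (E.eval N M) ℓ₀) :
    HkBaseSide p ρbar N S' (es1inftwJ N M ⊤ p χ) (es1inftwTr M 1)
      (rthkcbAct (rthkcb_stab (p := p) E hE ℓ₀ hℓ₀ hℓ₀N O)) where
  pkg := es1inftw_pkg 1 le_rfl (fun c => le_pmH ⊤ (Subgroup.mem_top _)) χ hχ
  primes := fun q hq hqS hdvd => by
    rcases (Nat.Prime.dvd_mul hq).mp hdvd with h | h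
    · exact hqS (hNS' q hq h)
    · rw [(Nat.prime_dvd_prime_iff_eq hq hp.out).mp h] at hqS
      exact hqS hpS'
  model := hmodel
  faith := fun k => ⟨k, fun x hx v =>
    rthkcb_faith χ hN E hE ℓ₀ hℓ₀ hℓ₀N _ k x hx v⟩
  nil := fun x => rthkcb_nil hres _ (rthkcb_stab (p := p) E hE ℓ₀ hℓ₀ hℓ₀N _) hc hc1 x
  resid := fun ℓ hℓ hℓS P hP τ hτ =>
    rthkcb_resid hres _ (rthkcb_stab (p := p) E hE ℓ₀ hℓ₀ hℓ₀N _) hc hc1 ℓ hℓ
      (fun hdvd => by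
        rcases (Nat.Prime.dvd_mul hℓ).mp hdvd with h | h
        · exact hℓS (hNS' ℓ hℓ h)
        · rw [(Nat.prime_dvd_prime_iff_eq hℓ hp.out).mp h] at hℓS
          exact hℓS hpS') P hP τ hτ
  occ := fun t ht h0 =>
    rthkcb_occ hN E hE ℓ₀ hℓ₀ hℓ₀N _ S'
      (fun q hq hqS hdvd => by
        rcases (Nat.Prime.dvd_mul hq).mp hdvd with h | h
        · exact hqS (hNS' q hq h)
        · rw [(Nat.prime_dvd_prime_iff_eq hq hp.out).mp h] at hqS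
          exact hqS hpS') t ht h0

/-- **HK-CONC, base side**: `HkBase` for the base module `X_E(N; 𝒪)` with the block-diagonal
matrices in the basis `c`. -/
theorem rthkcb_hkBase (ρbar : ResidualGaloisRep (ResidueField O)) (S' : Finset ℕ)
    (hpS' : p ∈ S') (hNS' : ∀ ℓ : ℕ, ℓ.Prime → ℓ ∣ N → ℓ ∈ S')
    (χ : GalQ →* (ZMod M)ˣ) (hχ : Es1inftwChar N M p 1 χ)
    (hmodel : ∀ k : ℕ, ∃ (X : Type) (_ : AddCommGroup X) (_ : Finite X) (act : GQ → X → X),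
      (∀ s x x', act s (x + x') = act s x + act s x') ∧
      (∀ s s' x, act (s * s') x = act s (act s' x)) ∧
      HasFiniteFlatModel (GaloisRep.ratLocalizedAt p) X act ∧
      ∀ e : GQ →₀ ℤ, (∀ x : X, (e.sum fun g z => z • act g x) = 0) →
        ∀ x : es1inftwJ N M ⊤ p χ, p ^ k • x = 0 → (e.sum fun g z => z • g • x) = 0)
    (hN : Squarefree N) (E : HExpr O) (hE : E.IsPrimes) (ℓ₀ : ℕ) [NeZero ℓ₀]
    (hℓ₀ : ℓ₀.Prime) (hℓ₀N : ¬ ℓ₀ ∣ N) {r : ℕ}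
    {c : Fin r → HomS (gammaH N M (⊤ : Subgroup (ZMod M)ˣ)) O}
    (hc : K5IsBasis O (etaPart (thetaN (E.eval N M) ℓ₀ O ⊤)) c)
    (hc1 : K5IsBasis (O ⧸ maximalIdeal O ^ 1)
      (etaPart (thetaN (E.eval N M) ℓ₀ (O ⧸ maximalIdeal O ^ 1) ⊤))
      (fun i => mapS (Submodule.mkQ (maximalIdeal O ^ 1)).toAddMonoidHom (c i)))
    (hres : RthkcbResid p ρbar N M (E.eval N M) ℓ₀) (h : ℕ) :
    HkBase p ρbar N S' (2 ^ h * r) (es1inftwJ N M ⊤ p χ) (es1inftwTr M 1)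
      (rthkcbPhi (rthkcbBasis hc) h
        (rthkcbAct (rthkcb_stab (p := p) E hE ℓ₀ hℓ₀ hℓ₀N O))) :=
  rthkcb_base (rthkcbBasis hc) h
    (rthkcb_side ρbar S' hpS' hNS' χ hχ hmodel hN E hE ℓ₀ hℓ₀ hℓ₀N hc hc1 hres)

end Fermat.Agent.RT

end
end ZBRT_087_5

/-! ### bundled: `Fermat.Agent.RT.K5.Indep2` -/
section ZBRT_087_6

/-!
# RT-K5, piece INDEP (helper7), concrete part at `H = ⊤`: `K5TWCond` and the independence of the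
base module from the Hecke expression

`V = Hom(Γ₀(L), A)` (`Γ₀(L) = gammaH L M ⊤`), `X ≤ V` a subgroup (in the application the `Θ`-part
`etaPart (thetaN (e.eval L M) ℓ₀ A ⊤)`), `𝕋` a commutative ring acting on `J` (package
`Rtk7bPkg p L J Tr`) and on `V` (`E : 𝕋 →+* End V`, in the application `es1infHomEval`, `e = 1`),
`a : ℕ → 𝒪` lifts of the residual traces (`charpoly ρ̄(Frob_ℓ) = X² − a_ℓ X + ℓ`, `ℓ ∉ S₀`).

* `K5inData` : the compatibilities (`E (Tr ℓ) = tS ℓ`, scalars, stability of `X`, FAITH on `X`);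
* `k5in_nil_all` : if `T_ℓ − a_ℓ` is nilpotent on `X` for the primes `ℓ ∉ S₀ ∪ S`, then
  `T_q − a_q` is nilpotent on `X` for EVERY prime `q ∉ S₀`;
* `k5in_twcond` : hence `K5TWCond` for every list of Taylor–Wiles primes;
* `k5in_le`, `k5in_indep` : hence the `Θ`-part does not depend on the admissible pair `(e, ℓ₀)`.
-/

set_option autoImplicit false
set_option linter.unusedSectionVars false
set_option linter.unusedVariables false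
set_option linter.style.haveILetI false

noncomputable section

namespace Fermat.Agent.RT.K5

open CongruenceSubgroup Matrix
open scoped MatrixGroups
open Fermat.Agent.ES1 (gammaH diamHom pmH)
open Fermat.Agent.ES Fermat.Agent.S30 Fermat.Agent.S31 Fermat.Agent.RT
open IsLocalRing Polynomial

section restr

variable {S V : Type} [Ring S] [AddCommGroup V]

/-- restriction of a ring of operators to a stable subgroup -/
def k5inRestr (F : S →+* AddMonoid.End V) (X : AddSubgroup V)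
    (h : ∀ s, ∀ v ∈ X, F s v ∈ X) : S →+* AddMonoid.End X where
  toFun s := AddMonoidHom.codRestrict ((F s : V →+ V).comp X.subtype) X (fun x => h s x x.2)
  map_one' := by
    refine AddMonoidHom.ext fun x => Subtype.ext ?_
    show F 1 (x : V) = x
    rw [map_one]; rfl
  map_mul' s t := by
    refine AddMonoidHom.ext fun x => Subtype.ext ?_
    show F (s * t) (x : V) = F s (F t (x : V))
    rw [map_mul]; rfl
  map_zero' := by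
    refine AddMonoidHom.ext fun x => Subtype.ext ?_
    show F 0 (x : V) = 0
    rw [map_zero]; rfl
  map_add' s t := by
    refine AddMonoidHom.ext fun x => Subtype.ext ?_
    show F (s + t) (x : V) = F s (x : V) + F t (x : V)
    rw [map_add]; rfl

theorem k5inRestr_apply (F : S →+* AddMonoid.End V) (X : AddSubgroup V)
    (h : ∀ s, ∀ v ∈ X, F s v ∈ X) (s : S) (x : X) :
    ((k5inRestr F X h s x : X) : V) = F s (x : V) := rfl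

/-- powers of an endomorphism of a subgroup which is the restriction of `θ` -/
theorem k5in_pow_coe (X : AddSubgroup V) (D : AddMonoid.End X) (θ : V →+ V)
    (h : ∀ x : X, ((D x : X) : V) = θ (x : V)) (m : ℕ) (x : X) :
    (((D ^ m) x : X) : V) = k5s_pow θ m (x : V) := by
  induction m generalizing x with
  | zero => rfl
  | succ m ih =>
    rw [pow_succ, k5s_pow_succ, ← h x, ← ih (D x)]
    rfl

/-- nilpotency of a restricted endomorphism, elementwise -/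
theorem k5in_isNilpotent_iff (X : AddSubgroup V) (D : AddMonoid.End X) (θ : V →+ V)
    (h : ∀ x : X, ((D x : X) : V) = θ (x : V)) :
    IsNilpotent D ↔ ∃ m : ℕ, ∀ v ∈ X, k5s_pow θ m v = 0 := by
  constructor
  · rintro ⟨m, hm⟩
    refine ⟨m, fun v hv => ?_⟩
    rw [← k5in_pow_coe X D θ h m ⟨v, hv⟩, hm]
    rfl
  · rintro ⟨m, hm⟩
    refine ⟨m, AddMonoidHom.ext fun x => Subtype.ext ?_⟩
    exact (k5in_pow_coe X D θ h m x).trans (hm _ x.2)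

end restr

section data

variable (p L M : ℕ) [NeZero L] [hML : Fact (M ∣ L)] (𝒪 : Type) [CommRing 𝒪]
  (A : Type) [AddCommGroup A] [Module 𝒪 A]
  {𝕋 : Type} [CommRing 𝕋] (J : Type) [AddCommGroup J] [Module 𝕋 J] [DistribMulAction GQ J]
  (Tr : ℕ → 𝕋)
  (E : 𝕋 →+* AddMonoid.End (HomS (gammaH L M (⊤ : Subgroup (ZMod M)ˣ)) A))
  (X : AddSubgroup (HomS (gammaH L M (⊤ : Subgroup (ZMod M)ˣ)) A)) (n₀ : ℕ)

/-- **the data of K5-INDEP**: a ring `𝕋` acting on `J` (package) and on `Hom(Γ₀(L), A)`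
(by `E`, with `E (Tr ℓ) = T_ℓ`), commuting with the scalars, a stable subgroup `X` on which the
action is faithful at the level `n₀`. -/
structure K5inData : Prop where
  pkg : Rtk7bPkg p L J Tr
  tr : ∀ (ℓ : ℕ) [NeZero ℓ], ℓ.Prime → ¬ ℓ ∣ L * p →
    ∀ φ : HomS (gammaH L M (⊤ : Subgroup (ZMod M)ˣ)) A, E (Tr ℓ) φ = tS L M ℓ ⊤ A φ
  smul : ∀ (t : 𝕋) (c : 𝒪) (φ : HomS (gammaH L M (⊤ : Subgroup (ZMod M)ˣ)) A),
    E t (c • φ) = c • E t φ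
  stab : ∀ t, ∀ φ ∈ X, E t φ ∈ X
  sstab : ∀ c : 𝒪, ∀ φ ∈ X, c • φ ∈ X
  faith : ∀ t : 𝕋, (∀ y : J, p ^ n₀ • y = 0 → t • y = 0) → ∀ φ ∈ X, E t φ = 0

variable {p L M 𝒪 A J Tr E X n₀}

/-- the action of `𝕋` on `X` -/
def K5inData.act (D : K5inData p L M 𝒪 A J Tr E X n₀) : 𝕋 →+* AddMonoid.End X :=
  k5inRestr E X D.stab

/-- the scalars on `X` -/
def K5inData.sc (D : K5inData p L M 𝒪 A J Tr E X n₀) : 𝒪 →+* AddMonoid.End X :=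
  k5inRestr (Module.toAddMonoidEnd 𝒪 (HomS (gammaH L M (⊤ : Subgroup (ZMod M)ˣ)) A)) X D.sstab

theorem K5inData.act_coe (D : K5inData p L M 𝒪 A J Tr E X n₀) (t : 𝕋) (x : X) :
    ((D.act t x : X) : HomS (gammaH L M (⊤ : Subgroup (ZMod M)ˣ)) A) = E t (x : _) := rfl

theorem K5inData.sc_coe (D : K5inData p L M 𝒪 A J Tr E X n₀) (c : 𝒪) (x : X) :
    ((D.sc c x : X) : HomS (gammaH L M (⊤ : Subgroup (ZMod M)ˣ)) A) = c • (x : _) := rfl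

theorem K5inData.commute (D : K5inData p L M 𝒪 A J Tr E X n₀) (c : 𝒪) (t : 𝕋) :
    Commute (D.sc c) (D.act t) := by
  refine AddMonoidHom.ext fun x => Subtype.ext ?_
  show c • E t (x : _) = E t (c • (x : _))
  rw [D.smul]

theorem K5inData.act_eq_zero (D : K5inData p L M 𝒪 A J Tr E X n₀) (t : 𝕋)
    (ht : ∀ y : J, p ^ n₀ • y = 0 → t • y = 0) : D.act t = 0 := by
  refine AddMonoidHom.ext fun x => Subtype.ext ?_
  exact D.faith t ht x x.2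

/-- `T_ℓ − c` is nilpotent on `X`, in the ring of endomorphisms of `X` and elementwise -/
theorem K5inData.rel_iff (D : K5inData p L M 𝒪 A J Tr E X n₀) {ℓ : ℕ} [NeZero ℓ]
    (hℓ : ℓ.Prime) (hℓLp : ¬ ℓ ∣ L * p) (c : 𝒪) :
    K5inRel D.act D.sc (Tr ℓ) c ↔
      ∃ m : ℕ, ∀ v ∈ X, k5s_pow (k5lcS L M ℓ c A ⊤) m v = 0 := by
  refine k5in_isNilpotent_iff X (D.act (Tr ℓ) - D.sc c) (k5lcS L M ℓ c A ⊤) fun x => ?_
  show E (Tr ℓ) (x : _) - c • (x : _) = _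
  rw [D.tr ℓ hℓ hℓLp, k5lcS_apply]

/-- elementwise nilpotency from the generalised kernel (`A` finite) -/
theorem k5in_exists_pow [Finite A] {ℓ : ℕ} [NeZero ℓ] (c : 𝒪)
    (h : ∀ v ∈ X, v ∈ k5lcKer (k5lcS L M ℓ c A ⊤)) :
    ∃ m : ℕ, ∀ v ∈ X, k5s_pow (k5lcS L M ℓ c A ⊤) m v = 0 := by
  haveI : Finite (HomS (gammaH L M (⊤ : Subgroup (ZMod M)ˣ)) A) := k5s_finite_homS _ A
  obtain ⟨m, -, hm⟩ := k5lc_exists_uniform (HomS (gammaH L M (⊤ : Subgroup (ZMod M)ˣ)) A)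
  exact ⟨m, fun v hv => ((hm _).2.2 v).mp (h v hv)⟩

end data

section main

variable {p L M : ℕ} [Fact p.Prime] [NeZero L] [hML : Fact (M ∣ L)]
  {𝒪 : Type} [CommRing 𝒪] [IsLocalRing 𝒪]
  {A : Type} [AddCommGroup A] [Module 𝒪 A]
  {𝕋 : Type} [CommRing 𝕋] {J : Type} [AddCommGroup J] [Module 𝕋 J] [DistribMulAction GQ J]
  {Tr : ℕ → 𝕋}
  {E : 𝕋 →+* AddMonoid.End (HomS (gammaH L M (⊤ : Subgroup (ZMod M)ˣ)) A)}
  {X : AddSubgroup (HomS (gammaH L M (⊤ : Subgroup (ZMod M)ˣ)) A)} {n₀ : ℕ}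

/-- **the residual data of K5-INDEP**: `a ℓ ∈ 𝒪` lifts the trace of `ρ̄(Frob_ℓ)` and
`det ρ̄(Frob_ℓ) = ℓ`, for the primes `ℓ ∉ S₀`; the primes outside `S₀` are good. -/
structure K5inRes (p L : ℕ) (ρbar : ResidualGaloisRep (ResidueField 𝒪)) (a : ℕ → 𝒪)
    (S₀ : Finset ℕ) : Prop where
  good : ∀ r : ℕ, r.Prime → r ∉ S₀ → ¬ r ∣ L * p
  frob : ∀ ℓ : ℕ, ℓ.Prime → ℓ ∉ S₀ →
    ∀ 𝔄 : ValuationSubring (AlgebraicClosure ℚ), 𝔄.LiesOverPrime ℓ →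
      ∀ τ : GQ, 𝔄.IsFrobeniusAt τ ℓ →
        LinearMap.charpoly (ρbar.ρ τ) =
          Polynomial.X ^ 2 - C (residue 𝒪 (a ℓ)) * Polynomial.X + C ((ℓ : ResidueField 𝒪))
  ex : ∀ ℓ : ℕ, ℓ.Prime → ∃ (𝔄 : ValuationSubring (AlgebraicClosure ℚ)) (τ : GQ),
    𝔄.LiesOverPrime ℓ ∧ 𝔄.IsFrobeniusAt τ ℓ

variable {ρbar : ResidualGaloisRep (ResidueField 𝒪)} {a : ℕ → 𝒪} {S₀ : Finset ℕ}

theorem K5inRes.trace (R : K5inRes p L ρbar a S₀) {ℓ : ℕ} (hℓ : ℓ.Prime) (hℓS : ℓ ∉ S₀)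
    {𝔄 : ValuationSubring (AlgebraicClosure ℚ)} (h𝔄 : 𝔄.LiesOverPrime ℓ) {τ : GQ}
    (hτ : 𝔄.IsFrobeniusAt τ ℓ) :
    LinearMap.trace (ResidueField 𝒪) ρbar.V (ρbar.ρ τ) = residue 𝒪 (a ℓ) :=
  trace_of_charpoly ρbar.finrank_eq _ _ _ (R.frob ℓ hℓ hℓS 𝔄 h𝔄 τ hτ)

/-- a scalar of the maximal ideal is nilpotent on `X` -/
theorem K5inData.sc_nilpotent (D : K5inData p L M 𝒪 A J Tr E X n₀)
    (hA : ∀ c ∈ maximalIdeal 𝒪, ∃ n : ℕ, ∀ x : A, c ^ n • x = 0) {c : 𝒪}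
    (hc : c ∈ maximalIdeal 𝒪) : IsNilpotent (D.sc c) := by
  obtain ⟨n, hn⟩ := hA c hc
  refine ⟨n, ?_⟩
  rw [← map_pow]
  refine AddMonoidHom.ext fun x => Subtype.ext ?_
  show c ^ n • (x : HomS (gammaH L M (⊤ : Subgroup (ZMod M)ˣ)) A) = 0
  refine AddMonoidHom.ext fun γ => ?_
  exact hn _

/-- **K5-INDEP (A).**  If `T_ℓ − a_ℓ` is nilpotent on `X` for the primes `ℓ ∉ S₀ ∪ S`, then
`T_q − a_q` is nilpotent on `X` for every prime `q ∉ S₀`; form `K5inRel`. -/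
theorem k5in_rel_all [Finite A] (hcheb : Cheb.WeakChebotarev)
    (D : K5inData p L M 𝒪 A J Tr E X n₀) (R : K5inRes p L ρbar a S₀)
    (hA : ∀ c ∈ maximalIdeal 𝒪, ∃ n : ℕ, ∀ x : A, c ^ n • x = 0) (S : Finset ℕ)
    (hnil : ∀ (ℓ : ℕ) [NeZero ℓ], ℓ.Prime → ℓ ∉ S₀ → ℓ ∉ S →
      ∀ v ∈ X, v ∈ k5lcKer (k5lcS L M ℓ (a ℓ) A ⊤))
    {q : ℕ} (hq : q.Prime) (hqS₀ : q ∉ S₀) : K5inRel D.act D.sc (Tr q) (a q) := by
  obtain ⟨𝔄, τ, h𝔄, hτ⟩ := R.ex q hq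
  have hgood : ∀ r : ℕ, r.Prime → r ∉ S₀ ∪ S → ¬ r ∣ L * p := fun r hr hrS =>
    R.good r hr fun h => hrS (Finset.mem_union_left _ h)
  have key := k5in_resid_frob hcheb D.pkg ρbar D.act D.sc D.commute (S₀ ∪ S) hgood ⊤
    (fun _ _ _ => Subring.mem_top _) n₀ (fun x _ hx => D.act_eq_zero x hx)
    (fun ℓ hℓ hℓS 𝔅 h𝔅 σ hσ => by
      rw [Finset.mem_union, not_or] at hℓS
      haveI : NeZero ℓ := ⟨hℓ.ne_zero⟩
      exact ⟨a ℓ, (R.trace hℓ hℓS.1 h𝔅 hσ).symm,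
        (D.rel_iff hℓ (R.good ℓ hℓ hℓS.1) (a ℓ)).mpr
          (k5in_exists_pow (a ℓ) (hnil ℓ hℓ hℓS.1 hℓS.2))⟩)
    (fun ℓ hℓ hℓS 𝔅 h𝔅 σ hσ => by
      rw [Finset.mem_union, not_or] at hℓS
      rw [R.trace hℓ hℓS.1 h𝔅 hσ]
      exact R.frob ℓ hℓ hℓS.1 𝔅 h𝔅 σ hσ)
    hq (R.good q hq hqS₀) (Subring.mem_top _) h𝔄 hτ
  obtain ⟨c, hc, hrel⟩ := key
  refine hrel.congr D.commute (D.sc_nilpotent hA ?_)
  rw [← IsLocalRing.residue_eq_zero_iff, map_sub, hc, R.trace hq hqS₀ h𝔄 hτ, sub_self]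

/-- **K5-INDEP (A)**, elementwise. -/
theorem k5in_nil_all [Finite A] (hcheb : Cheb.WeakChebotarev)
    (D : K5inData p L M 𝒪 A J Tr E X n₀) (R : K5inRes p L ρbar a S₀)
    (hA : ∀ c ∈ maximalIdeal 𝒪, ∃ n : ℕ, ∀ x : A, c ^ n • x = 0) (S : Finset ℕ)
    (hnil : ∀ (ℓ : ℕ) [NeZero ℓ], ℓ.Prime → ℓ ∉ S₀ → ℓ ∉ S →
      ∀ v ∈ X, v ∈ k5lcKer (k5lcS L M ℓ (a ℓ) A ⊤))
    (q : ℕ) [NeZero q] (hq : q.Prime) (hqS₀ : q ∉ S₀) :
    ∀ v ∈ X, v ∈ k5lcKer (k5lcS L M q (a q) A ⊤) := by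
  obtain ⟨m, hm⟩ := (D.rel_iff hq (R.good q hq hqS₀) (a q)).mp
    (k5in_rel_all hcheb D R hA S hnil hq hqS₀)
  exact fun v hv => ⟨m, hm v hv⟩

/-- comparison of the coefficients of two monic quadratic polynomials -/
theorem k5in_coeffs {k : Type} [Field k] {s t α β : k}
    (h : (Polynomial.X ^ 2 - C s * Polynomial.X + C t : k[X])
      = (Polynomial.X - C α) * (Polynomial.X - C β)) : s = α + β ∧ t = α * β := by
  have h2 : (Polynomial.X - C α) * (Polynomial.X - C β)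
      = (Polynomial.X ^ 2 - C (α + β) * Polynomial.X + C (α * β) : k[X]) := by
    rw [map_add, map_mul]; ring
  rw [h2] at h
  have e1 := congrArg (fun P : k[X] => P.coeff 1) h
  have e0 := congrArg (fun P : k[X] => P.coeff 0) h
  simp only [coeff_add, coeff_sub, coeff_X_pow, coeff_C_mul, coeff_X, coeff_C] at e1 e0
  norm_num at e1 e0
  refine ⟨?_, e0⟩
  have := neg_inj.mp (e1.trans (by ring : -β + -α = -(α + β)))
  exact this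

/-- **K5-INDEP (B): the Taylor–Wiles condition.**  `X = ` the `Θ_e`-part of `Hom(Γ₀(L), A)`; if
`T_ℓ − a_ℓ` is nilpotent on `X` for the primes `ℓ ∉ S₀ ∪ S`, then `(q + 1)² − T_q²` is injective
on `X` for every prime `q ∉ S₀` with `q = 1` in the residue field such that `ρ̄(Frob_q)` has
distinct eigenvalues. -/
theorem k5in_twcond [Finite A] (hcheb : Cheb.WeakChebotarev) (e : HExpr 𝒪) (ℓ₀ : ℕ)
    [NeZero ℓ₀]
    (D : K5inData p L M 𝒪 A J Tr E (etaPart (thetaN (e.eval L M) ℓ₀ A ⊤)) n₀)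
    (R : K5inRes p L ρbar a S₀)
    (hA : ∀ c ∈ maximalIdeal 𝒪, ∃ n : ℕ, ∀ x : A, c ^ n • x = 0) (S : Finset ℕ)
    (hnil : ∀ (ℓ : ℕ) [NeZero ℓ], ℓ.Prime → ℓ ∉ S₀ → ℓ ∉ S →
      ∀ v ∈ etaPart (thetaN (e.eval L M) ℓ₀ A ⊤), v ∈ k5lcKer (k5lcS L M ℓ (a ℓ) A ⊤))
    (Q : List ℕ) (hQ : ∀ q ∈ Q, q.Prime ∧ q ∉ S₀ ∧ (q : ResidueField 𝒪) = 1)
    (hQs : ∀ q ∈ Q, ∀ 𝔄 : ValuationSubring (AlgebraicClosure ℚ), 𝔄.LiesOverPrime q →
      ∀ τ : GQ, 𝔄.IsFrobeniusAt τ q → ∃ α β : ResidueField 𝒪, α ≠ β ∧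
        LinearMap.charpoly (ρbar.ρ τ) = (Polynomial.X - C α) * (Polynomial.X - C β)) :
    K5TWCond 𝒪 L M ℓ₀ e Q A := by
  intro q _ hqQ φ hφ h
  obtain ⟨hq, hqS₀, hq1⟩ := hQ q hqQ
  have rel := k5in_rel_all hcheb D R hA S hnil hq hqS₀
  obtain ⟨𝔄, τ, h𝔄, hτ⟩ := R.ex q hq
  obtain ⟨α, β, hαβ, hch⟩ := hQs q hqQ 𝔄 h𝔄 τ hτ
  obtain ⟨hsum, hprod⟩ := k5in_coeffs ((R.frob q hq hqS₀ 𝔄 h𝔄 τ hτ).symm.trans hch)
  have hu := k5in_unit_of_tw hαβ hsum (hprod.symm.trans hq1) hq1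
  obtain ⟨V, hV⟩ := k5in_isUnit_of_nil D.sc (fun d => D.commute d (Tr q)) rel hu
  have e0 : (D.sc (((q : 𝒪) + 1) ^ 2) - D.act (Tr q) ^ 2) ⟨φ, hφ⟩ = 0 := by
    refine Subtype.ext ?_
    show ((q : 𝒪) + 1) ^ 2 • φ - E (Tr q) (E (Tr q) φ) = 0
    rw [D.tr q hq (R.good q hq hqS₀), D.tr q hq (R.good q hq hqS₀), ← h, pow_two, mul_smul]
    have : ((q : 𝒪) + 1) = ((q + 1 : ℕ) : 𝒪) := by push_cast; rfl
    rw [this, Nat.cast_smul_eq_nsmul, Nat.cast_smul_eq_nsmul]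
  set x : etaPart (thetaN (e.eval L M) ℓ₀ A ⊤) := ⟨φ, hφ⟩ with hx
  have h2 : ((V⁻¹ : (AddMonoid.End (etaPart (thetaN (e.eval L M) ℓ₀ A ⊤)))ˣ) :
      AddMonoid.End (etaPart (thetaN (e.eval L M) ℓ₀ A ⊤))) * (V : AddMonoid.End _) = 1 :=
    Units.inv_mul V
  have h1 : ((V⁻¹ : (AddMonoid.End (etaPart (thetaN (e.eval L M) ℓ₀ A ⊤)))ˣ) :
      AddMonoid.End (etaPart (thetaN (e.eval L M) ℓ₀ A ⊤))) ((V : AddMonoid.End _) x) = x :=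
    congrArg (fun f : AddMonoid.End (etaPart (thetaN (e.eval L M) ℓ₀ A ⊤)) => f x) h2
  rw [hV, e0, map_zero] at h1
  exact (congrArg Subtype.val h1).symm

/-- **K5-INDEP (C): one inclusion.**  If `T_ℓ − a_ℓ` is nilpotent on `X` for the primes
`ℓ ∉ S₀ ∪ S`, then `X` is contained in the `η_{ℓ₀'}`-part and in the generalised kernels of ALL
`T_ℓ − a_ℓ`, `ℓ ∉ S₀`, for every non-Eisenstein prime `ℓ₀' ∉ S₀`; hence in every subgroup `X'`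
containing their intersection. -/
theorem k5in_le [Finite A] (hcheb : Cheb.WeakChebotarev)
    (D : K5inData p L M 𝒪 A J Tr E X n₀) (R : K5inRes p L ρbar a S₀)
    (hA : ∀ c ∈ maximalIdeal 𝒪, ∃ n : ℕ, ∀ x : A, c ^ n • x = 0) (S : Finset ℕ)
    (hnil : ∀ (ℓ : ℕ) [NeZero ℓ], ℓ.Prime → ℓ ∉ S₀ → ℓ ∉ S →
      ∀ v ∈ X, v ∈ k5lcKer (k5lcS L M ℓ (a ℓ) A ⊤))
    {ℓ₀' : ℕ} [NeZero ℓ₀'] (hℓ₀' : ℓ₀'.Prime) (hℓ₀'S : ℓ₀' ∉ S₀)
    (hne : residue 𝒪 (a ℓ₀') ≠ (ℓ₀' : ResidueField 𝒪) + 1)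
    (X' : AddSubgroup (HomS (gammaH L M (⊤ : Subgroup (ZMod M)ˣ)) A)) (S' : Finset ℕ)
    (hX' : ∀ φ, φ ∈ etaPart (etaS L M ℓ₀' ⊤ A) →
      (∀ (ℓ : ℕ) [NeZero ℓ], ℓ.Prime → ℓ ∉ S₀ → ℓ ∉ S' →
        φ ∈ k5lcKer (k5lcS L M ℓ (a ℓ) A ⊤)) → φ ∈ X') :
    X ≤ X' := by
  intro φ hφ
  refine hX' φ ?_ (fun ℓ _ hℓ hℓS₀ _ => k5in_nil_all hcheb D R hA S hnil ℓ hℓ hℓS₀ φ hφ)
  -- `η_{ℓ₀'}` is a unit on `X`
  have rel := k5in_rel_all hcheb D R hA S hnil hℓ₀' hℓ₀'S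
  have hu : IsUnit (a ℓ₀' - ((ℓ₀' : 𝒪) + 1)) := by
    rw [← IsLocalRing.residue_ne_zero_iff_isUnit, map_sub, map_add, map_natCast, map_one]
    exact sub_ne_zero.mpr hne
  have hcomm : Commute (D.act (Tr ℓ₀') - D.sc (a ℓ₀')) (D.sc (a ℓ₀' - ((ℓ₀' : 𝒪) + 1))) :=
    Commute.sub_left (D.commute _ _).symm (k5in_commute_sc _ _)
  have hU : IsUnit (D.sc (a ℓ₀' - ((ℓ₀' : 𝒪) + 1)) + (D.act (Tr ℓ₀') - D.sc (a ℓ₀'))) :=
    IsNilpotent.isUnit_add_left_of_commute rel (hu.map D.sc) hcomm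
  set η : AddMonoid.End X := D.sc (a ℓ₀' - ((ℓ₀' : 𝒪) + 1)) + (D.act (Tr ℓ₀') - D.sc (a ℓ₀'))
    with hη
  have hηcoe : ∀ x : X, ((η x : X) : HomS (gammaH L M (⊤ : Subgroup (ZMod M)ˣ)) A)
      = etaS L M ℓ₀' ⊤ A (x : _) := by
    intro x
    show (a ℓ₀' - ((ℓ₀' : 𝒪) + 1)) • (x : HomS (gammaH L M (⊤ : Subgroup (ZMod M)ˣ)) A)
      + (E (Tr ℓ₀') (x : _) - a ℓ₀' • (x : _)) = tS L M ℓ₀' ⊤ A (x : _) - (ℓ₀' + 1) • (x : _)
    rw [D.tr ℓ₀' hℓ₀' (R.good ℓ₀' hℓ₀' hℓ₀'S), sub_smul]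
    have : ((ℓ₀' : 𝒪) + 1) = ((ℓ₀' + 1 : ℕ) : 𝒪) := by push_cast; rfl
    rw [this, Nat.cast_smul_eq_nsmul]
    abel
  rw [k5s_mem_etaPart]
  intro n
  obtain ⟨W, hW⟩ := hU.pow n
  refine ⟨((((W⁻¹ : (AddMonoid.End X)ˣ) : AddMonoid.End X) ⟨φ, hφ⟩ : X) : _), ?_⟩
  rw [← k5in_pow_coe X η (etaS L M ℓ₀' ⊤ A) hηcoe n, ← hW]
  have h2 : (W : AddMonoid.End X) * ((W⁻¹ : (AddMonoid.End X)ˣ) : AddMonoid.End X) = 1 :=
    Units.mul_inv W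
  have h3 : (W : AddMonoid.End X) (((W⁻¹ : (AddMonoid.End X)ˣ) : AddMonoid.End X) ⟨φ, hφ⟩)
      = ⟨φ, hφ⟩ := congrArg (fun f : AddMonoid.End X => f ⟨φ, hφ⟩) h2
  exact congrArg Subtype.val h3

/-- **the intrinsic description** of a subgroup `X` of `Hom(Γ₀(L), A)`: the part of the
`η_{ℓ₀}`-part on which `T_ℓ − a_ℓ` is nilpotent for all primes `ℓ ∉ S₀ ∪ S`. -/
def K5inIntr (L M : ℕ) [NeZero L] [Fact (M ∣ L)] (A : Type) [AddCommGroup A] [Module 𝒪 A]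
    (a : ℕ → 𝒪) (S₀ S : Finset ℕ) (ℓ₀ : ℕ) [NeZero ℓ₀]
    (X : AddSubgroup (HomS (gammaH L M (⊤ : Subgroup (ZMod M)ˣ)) A)) : Prop :=
  ∀ φ, φ ∈ X ↔ φ ∈ etaPart (etaS L M ℓ₀ ⊤ A) ∧
    ∀ (ℓ : ℕ) [NeZero ℓ], ℓ.Prime → ℓ ∉ S₀ → ℓ ∉ S → φ ∈ k5lcKer (k5lcS L M ℓ (a ℓ) A ⊤)

/-- **K5-INDEP (C): independence.**  Two subgroups with intrinsic descriptions (for finite sets
`S`, `S'` and non-Eisenstein primes `ℓ₀`, `ℓ₀' ∉ S₀`), each with faithful Hecke action, are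
equal. -/
theorem k5in_indep [Finite A] (hcheb : Cheb.WeakChebotarev)
    {𝕋' : Type} [CommRing 𝕋'] {J' : Type} [AddCommGroup J'] [Module 𝕋' J']
    [DistribMulAction GQ J'] {Tr' : ℕ → 𝕋'}
    {E' : 𝕋' →+* AddMonoid.End (HomS (gammaH L M (⊤ : Subgroup (ZMod M)ˣ)) A)}
    {X' : AddSubgroup (HomS (gammaH L M (⊤ : Subgroup (ZMod M)ˣ)) A)} {n₀' : ℕ}
    (D : K5inData p L M 𝒪 A J Tr E X n₀) (D' : K5inData p L M 𝒪 A J' Tr' E' X' n₀')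
    (R : K5inRes p L ρbar a S₀)
    (hA : ∀ c ∈ maximalIdeal 𝒪, ∃ n : ℕ, ∀ x : A, c ^ n • x = 0) (S S' : Finset ℕ)
    {ℓ₀ ℓ₀' : ℕ} [NeZero ℓ₀] [NeZero ℓ₀'] (hℓ₀ : ℓ₀.Prime) (hℓ₀' : ℓ₀'.Prime)
    (hℓ₀S : ℓ₀ ∉ S₀) (hℓ₀'S : ℓ₀' ∉ S₀)
    (hne : residue 𝒪 (a ℓ₀) ≠ (ℓ₀ : ResidueField 𝒪) + 1)
    (hne' : residue 𝒪 (a ℓ₀') ≠ (ℓ₀' : ResidueField 𝒪) + 1)
    (hX : K5inIntr L M A a S₀ S ℓ₀ X) (hX' : K5inIntr L M A a S₀ S' ℓ₀' X') : X = X' :=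
  le_antisymm
    (k5in_le hcheb D R hA S (fun ℓ _ hℓ h1 h2 v hv => ((hX v).mp hv).2 ℓ hℓ h1 h2) hℓ₀' hℓ₀'S
      hne' X' S' (fun φ h1 h2 => (hX' φ).mpr ⟨h1, h2⟩))
    (k5in_le hcheb D' R hA S' (fun ℓ _ hℓ h1 h2 v hv => ((hX' v).mp hv).2 ℓ hℓ h1 h2) hℓ₀ hℓ₀S
      hne X S (fun φ h1 h2 => (hX φ).mpr ⟨h1, h2⟩))

end main

section quot

variable {𝒪 : Type} [CommRing 𝒪] [IsLocalRing 𝒪]

/-- the maximal ideal is nilpotent on `𝒪 ⧸ 𝔪ⁿ` -/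
theorem k5in_hA_quot (n : ℕ) :
    ∀ c ∈ maximalIdeal 𝒪, ∃ m : ℕ, ∀ x : 𝒪 ⧸ maximalIdeal 𝒪 ^ n, c ^ m • x = 0 := by
  intro c hc
  refine ⟨n, fun x => ?_⟩
  obtain ⟨y, rfl⟩ := Ideal.Quotient.mk_surjective x
  show Ideal.Quotient.mk _ (c ^ n * y) = 0
  rw [Ideal.Quotient.eq_zero_iff_mem]
  exact Ideal.mul_mem_right _ _ (Ideal.pow_mem_pow hc n)

end quot

section expr

variable {𝒪 : Type} [CommRing 𝒪] [IsDomain 𝒪] [IsDiscreteValuationRing 𝒪]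
  [Finite (IsLocalRing.ResidueField 𝒪)]
  (L M : ℕ) [NeZero L] [hML : Fact (M ∣ L)]

/-- **K5-INDEP (D): the expression.**  For every finite set `S` there is a Hecke expression `e`
in the `T_ℓ`, `ℓ ∉ S₀ ∪ S` prime, such that for all `n` the `Θ_e`-part of `Hom(Γ₀(L), 𝒪/𝔪ⁿ)`
has the intrinsic description `K5inIntr` (K5-LOC, `k5lc_main_expr`). -/
theorem k5in_exists_expr (a : ℕ → 𝒪) (S₀ S : Finset ℕ) (ℓ₀ : ℕ) [NeZero ℓ₀] (hℓ₀ : ℓ₀.Prime)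
    (hℓ₀L : ¬ ℓ₀ ∣ L)
    (hNT : ∀ n : ℕ, NoTors (gammaH L M (⊤ : Subgroup (ZMod M)ˣ))
      (𝒪 ⧸ IsLocalRing.maximalIdeal 𝒪 ^ n)) :
    ∃ e : HExpr 𝒪, e.IsPrimes ∧ (∀ q : ℕ, (q ∈ S₀ ∨ q ∈ S) → e.Avoids q) ∧
      ∀ n : ℕ, K5inIntr L M (𝒪 ⧸ IsLocalRing.maximalIdeal 𝒪 ^ n) a S₀ S ℓ₀
        (etaPart (thetaN (e.eval L M) ℓ₀ (𝒪 ⧸ IsLocalRing.maximalIdeal 𝒪 ^ n) ⊤)) := by
  classical
  let ι : Type := {ℓ : ℕ // ℓ.Prime ∧ ℓ ∉ S₀ ∧ ℓ ∉ S}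
  let ℓf : ι → ℕ := fun i => i.1
  haveI : ∀ i : ι, NeZero (ℓf i) := fun i => ⟨i.2.1.ne_zero⟩
  obtain ⟨N, l, hN, h⟩ := k5lc_main_expr L M ℓf (fun i => i.2.1) (fun i => a i.1)
    (⊤ : Subgroup (ZMod M)ˣ) ℓ₀ hℓ₀ hℓ₀L
  refine ⟨k5lcExpr ℓf (fun i => a i.1) N l,
    k5lc_expr_isPrimes ℓf _ N l (fun i _ => i.2.1), fun q hq => ?_, fun n φ => ?_⟩
  · refine k5lc_expr_avoids ℓf _ N q l (fun i _ => ⟨i.2.1, ?_⟩)
    rintro rfl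
    rcases hq with hq | hq
    · exact i.2.2.1 hq
    · exact i.2.2.2 hq
  · have key := h ⊤ le_rfl hNT HExpr.one trivial n φ
    have e1 : thetaN (((k5lcExpr ℓf (fun i => a i.1) N l).comp HExpr.one).eval L M) ℓ₀
        (𝒪 ⧸ IsLocalRing.maximalIdeal 𝒪 ^ n) ⊤
        = thetaN ((k5lcExpr ℓf (fun i => a i.1) N l).eval L M) ℓ₀
          (𝒪 ⧸ IsLocalRing.maximalIdeal 𝒪 ^ n) ⊤ := rfl
    have e2 : thetaN ((HExpr.one : HExpr 𝒪).eval L M) ℓ₀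
        (𝒪 ⧸ IsLocalRing.maximalIdeal 𝒪 ^ n) ⊤
        = etaS L M ℓ₀ ⊤ (𝒪 ⧸ IsLocalRing.maximalIdeal 𝒪 ^ n) := rfl
    rw [e1, e2] at key
    rw [key]
    constructor
    · rintro ⟨h1, h2⟩
      exact ⟨h1, fun ℓ _ hℓ hS₀ hS => h2 ⟨ℓ, hℓ, hS₀, hS⟩⟩
    · rintro ⟨h1, h2⟩
      exact ⟨h1, fun i => h2 i.1 i.2.1 i.2.2.1 i.2.2.2⟩

end expr

end Fermat.Agent.RT.K5

end
end ZBRT_087_6

/-! ### bundled: `Fermat.Agent.RT.K5.Indep3` -/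
section ZBRT_087_7

/-!
# RT-K5, piece INDEP (helper7), part 3: ONE Hecke expression for the base AND the top level

The contract of the concrete module side wants, for every Taylor–Wiles family, ONE expression
`e : HExpr 𝒪` which
* at the BASE level `(L₀, M₀, ⊤)` cuts out the intrinsic `𝔪`-part (`K5inIntr`; this gives
  `K5TWCond` by `k5in_twcond` and the independence of the base module by `k5in_indep`), and
* at the TOP level `(L, M, K)`, `K ≥ H'`, has a `Θ_{e.twist Q}`-part on which `T_ℓ − a_ℓ` is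
  nilpotent for all primes `ℓ ∉ S₀ ∪ S` (the field `resid`).

`k5lc_main_expr` gives such an expression PER LEVEL: `P₁` at the base, `P₂` at the top.  We take
`e = P₁ P₂` (`k5in_exists_expr2`).
-/

set_option autoImplicit false
set_option linter.unusedSectionVars false
set_option linter.unusedVariables false
set_option linter.style.haveILetI false

noncomputable section

namespace Fermat.Agent.RT.K5

open CongruenceSubgroup Matrix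
open scoped MatrixGroups
open Fermat.Agent.ES1 (gammaH diamHom pmH)
open Fermat.Agent.ES Fermat.Agent.S30 Fermat.Agent.S31 Fermat.Agent.RT
open IsLocalRing

section swap

variable {𝒪 : Type} [CommRing 𝒪] (L M : ℕ) [NeZero L] [hML : Fact (M ∣ L)]

/-- `Θ_{(P₁ P₂).twist Q} = Θ_{P₂ (P₁ (1.twist Q))}` -/
theorem k5in_theta_swap (P₁ P₂ : HExpr 𝒪) (h₁ : P₁.IsPrimes) (h₂ : P₂.IsPrimes)
    (Q : List ℕ) (ℓ₀ : ℕ) [NeZero ℓ₀] (A : Type) [AddCommGroup A] [Module 𝒪 A]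
    (K : Subgroup (ZMod M)ˣ) :
    thetaN (((P₁.comp P₂).twist Q).eval L M) ℓ₀ A K
      = thetaN ((P₂.comp (P₁.comp ((HExpr.one : HExpr 𝒪).twist Q))).eval L M) ℓ₀ A K := by
  rw [k5lc_twist_theta]
  refine AddMonoidHom.ext fun φ => ?_
  exact k5hx_comm L M A K P₁ P₂ h₁ h₂ _

end swap

section expr2

variable {𝒪 : Type} [CommRing 𝒪] [IsDomain 𝒪] [IsDiscreteValuationRing 𝒪]
  [Finite (IsLocalRing.ResidueField 𝒪)]

/-- the intrinsic description passes from `P₁` to `P₁ P₂` (`P₂ = k5lcExpr …` ANY list, any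
exponent `> 0`): the abstract step. -/
theorem k5in_intr_comp (L M : ℕ) [NeZero L] [hML : Fact (M ∣ L)] {ι : Type} (ℓ : ι → ℕ)
    [∀ i, NeZero (ℓ i)] (hℓ : ∀ i, (ℓ i).Prime) (a : ι → 𝒪) (ℓ₀ : ℕ) [NeZero ℓ₀]
    (hℓ₀ : ℓ₀.Prime) {N₂ : ℕ} (hN₂ : 0 < N₂) (l₂ : List ι) (A : Type) [AddCommGroup A]
    [Module 𝒪 A] [Finite A] (K : Subgroup (ZMod M)ˣ) (φ : HomS (gammaH L M K) A)
    (hk : ∀ i, φ ∈ k5lcKer (k5lcS L M (ℓ i) (a i) A K)) :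
    φ ∈ etaPart (thetaN ((k5lcExpr ℓ a N₂ l₂).eval L M) ℓ₀ A K) ↔
      φ ∈ etaPart (etaS L M ℓ₀ K A) := by
  have hP₂ : (k5lcExpr ℓ a N₂ l₂).IsPrimes := k5lc_expr_isPrimes ℓ a N₂ l₂ (fun i _ => hℓ i)
  have hTT : ∀ i j, NatFam.Commutes ((HExpr.hecke (ℓ i) : HExpr 𝒪).eval L M)
      ((HExpr.hecke (ℓ j) : HExpr 𝒪).eval L M) :=
    fun i j => k5lc_commutes_of_isPrimes L M _ _ (hℓ i) (hℓ j)
  have hTη : ∀ i, NatFam.Commutes ((HExpr.hecke (ℓ i) : HExpr 𝒪).eval L M)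
      (NatFam.hecke 𝒪 L M ℓ₀) := fun i => by
    rw [← HExpr.eval_hecke L M ℓ₀]
    exact k5lc_commutes_of_isPrimes L M _ _ (hℓ i) hℓ₀
  constructor
  · intro hφ
    refine k5lc_theta_le_eta ((k5lcExpr ℓ a N₂ l₂).eval L M) ℓ₀ ?_ A K hφ
    rw [← HExpr.eval_hecke L M ℓ₀]
    exact k5lc_commutes_of_isPrimes L M _ _ hP₂ hℓ₀
  · intro hφ
    have h1 := k5lc_intrinsic_ge (fun i => (HExpr.hecke (ℓ i) : HExpr 𝒪).eval L M) a hTT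
      ((HExpr.one : HExpr 𝒪).eval L M) ℓ₀
      (fun i => k5lc_commutes_of_isPrimes L M _ _ (hℓ i) trivial) hTη hN₂ l₂ A K
      (φ := φ) hφ (fun i _ => by rw [k5lc_shift_hecke_op]; exact hk i)
    rw [← k5lc_expr_eval] at h1
    exact h1

/-- **K5-INDEP (D′): ONE expression for the base and the top level.**  `e = P₁ P₂`, `P₁`
from K5-LOC at the base level `(L₀, M₀, ⊤)` and `P₂` from K5-LOC at the top level `(L, M, H')`: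
* `e` is an expression in the `T_ℓ`, `ℓ ∉ S₀ ∪ S` prime;
* at the base level its `Θ`-part has the intrinsic description `K5inIntr`, every `n`;
* at the top level, every `K ≥ H'`, every list `Q` of primes and every `n`: on the
  `Θ_{e.twist Q}`-part of `Hom(Γ_K(L), 𝒪/𝔪ⁿ)` all `T_ℓ − a_ℓ`, `ℓ ∉ S₀ ∪ S` prime, are
  locally nilpotent. -/
theorem k5in_exists_expr2 (L₀ M₀ : ℕ) [NeZero L₀] [hML₀ : Fact (M₀ ∣ L₀)]
    (L M : ℕ) [NeZero L] [hML : Fact (M ∣ L)]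
    (a : ℕ → 𝒪) (S₀ S : Finset ℕ) (ℓ₀ : ℕ) [NeZero ℓ₀] (hℓ₀ : ℓ₀.Prime)
    (hℓ₀L₀ : ¬ ℓ₀ ∣ L₀) (hℓ₀L : ¬ ℓ₀ ∣ L) (H' : Subgroup (ZMod M)ˣ)
    (hNT₀ : ∀ n : ℕ, NoTors (gammaH L₀ M₀ (⊤ : Subgroup (ZMod M₀)ˣ))
      (𝒪 ⧸ IsLocalRing.maximalIdeal 𝒪 ^ n)) :
    ∃ e : HExpr 𝒪, e.IsPrimes ∧ (∀ q : ℕ, (q ∈ S₀ ∨ q ∈ S) → e.Avoids q) ∧
      (∀ n : ℕ, K5inIntr L₀ M₀ (𝒪 ⧸ IsLocalRing.maximalIdeal 𝒪 ^ n) a S₀ S ℓ₀
        (etaPart (thetaN (e.eval L₀ M₀) ℓ₀ (𝒪 ⧸ IsLocalRing.maximalIdeal 𝒪 ^ n) ⊤))) ∧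
      ∀ (K : Subgroup (ZMod M)ˣ), H' ≤ K →
        (∀ n : ℕ, NoTors (gammaH L M K) (𝒪 ⧸ IsLocalRing.maximalIdeal 𝒪 ^ n)) →
        ∀ (Q : List ℕ), (∀ q ∈ Q, q.Prime) →
        ∀ (n : ℕ) (ℓ : ℕ) [NeZero ℓ], ℓ.Prime → ℓ ∉ S₀ → ℓ ∉ S →
          ∀ φ ∈ etaPart (thetaN ((e.twist Q).eval L M) ℓ₀
              (𝒪 ⧸ IsLocalRing.maximalIdeal 𝒪 ^ n) K),
            φ ∈ k5lcKer (k5lcS L M ℓ (a ℓ) (𝒪 ⧸ IsLocalRing.maximalIdeal 𝒪 ^ n) K) := by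
  classical
  obtain ⟨lam, hirr⟩ := IsDiscreteValuationRing.exists_irreducible 𝒪
  have hlam : IsLocalRing.maximalIdeal 𝒪 = Ideal.span {lam} := hirr.maximalIdeal_eq
  haveI : Finite (𝒪 ⧸ IsLocalRing.maximalIdeal 𝒪) := ‹Finite (IsLocalRing.ResidueField 𝒪)›
  have hfin : ∀ n : ℕ, Finite (𝒪 ⧸ IsLocalRing.maximalIdeal 𝒪 ^ n) :=
    fun n => k5cn_finite (IsLocalRing.maximalIdeal 𝒪) lam hlam n
  let ι : Type := {ℓ : ℕ // ℓ.Prime ∧ ℓ ∉ S₀ ∧ ℓ ∉ S}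
  let ℓf : ι → ℕ := fun i => i.1
  haveI : ∀ i : ι, NeZero (ℓf i) := fun i => ⟨i.2.1.ne_zero⟩
  have hℓf : ∀ i : ι, (ℓf i).Prime := fun i => i.2.1
  obtain ⟨N₁, l₁, hN₁, h₁⟩ := k5lc_main_expr L₀ M₀ ℓf hℓf (fun i => a i.1)
    (⊤ : Subgroup (ZMod M₀)ˣ) ℓ₀ hℓ₀ hℓ₀L₀
  obtain ⟨N₂, l₂, hN₂, h₂⟩ := k5lc_main_expr L M ℓf hℓf (fun i => a i.1) H' ℓ₀ hℓ₀ hℓ₀L
  have hP₁ : (k5lcExpr ℓf (fun i => a i.1) N₁ l₁).IsPrimes :=
    k5lc_expr_isPrimes ℓf _ N₁ l₁ (fun i _ => hℓf i)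
  have hP₂ : (k5lcExpr ℓf (fun i => a i.1) N₂ l₂).IsPrimes :=
    k5lc_expr_isPrimes ℓf _ N₂ l₂ (fun i _ => hℓf i)
  have hav : ∀ (N : ℕ) (l : List ι) (q : ℕ), (q ∈ S₀ ∨ q ∈ S) →
      (k5lcExpr ℓf (fun i => a i.1) N l).Avoids q := by
    intro N l q hq
    refine k5lc_expr_avoids ℓf _ N q l (fun i _ => ⟨i.2.1, ?_⟩)
    intro h
    have h' : i.1 = q := h
    rcases hq with hq | hq
    · exact i.2.2.1 (h' ▸ hq)
    · exact i.2.2.2 (h' ▸ hq)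
  refine ⟨(k5lcExpr ℓf (fun i => a i.1) N₁ l₁).comp (k5lcExpr ℓf (fun i => a i.1) N₂ l₂),
    ⟨hP₁, hP₂⟩, fun q hq => ⟨hav N₁ l₁ q hq, hav N₂ l₂ q hq⟩, fun n φ => ?_,
    fun K hle hNT Q hQ n ℓ _ hℓ hℓS₀ hℓS φ hφ => ?_⟩
  · -- the base level
    haveI := hfin n
    have key := h₁ ⊤ le_rfl hNT₀ (k5lcExpr ℓf (fun i => a i.1) N₂ l₂) hP₂ n φ
    rw [key]
    constructor
    · rintro ⟨h1, h2⟩
      exact ⟨(k5in_intr_comp L₀ M₀ ℓf hℓf (fun i => a i.1) ℓ₀ hℓ₀ hN₂ l₂ _ ⊤ φ h2).mp h1,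
        fun ℓ _ hℓ hS₀ hS => h2 ⟨ℓ, hℓ, hS₀, hS⟩⟩
    · rintro ⟨h1, h2⟩
      have h2' : ∀ i : ι, φ ∈ k5lcKer (k5lcS L₀ M₀ (ℓf i) (a i.1)
          (𝒪 ⧸ IsLocalRing.maximalIdeal 𝒪 ^ n) ⊤) := fun i => h2 i.1 i.2.1 i.2.2.1 i.2.2.2
      exact ⟨(k5in_intr_comp L₀ M₀ ℓf hℓf (fun i => a i.1) ℓ₀ hℓ₀ hN₂ l₂ _ ⊤ φ h2').mpr h1, h2'⟩
  · -- the top level
    rw [k5in_theta_swap L M _ _ hP₁ hP₂] at hφ
    have key := (h₂ K hle hNT ((k5lcExpr ℓf (fun i => a i.1) N₁ l₁).comp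
      ((HExpr.one : HExpr 𝒪).twist Q)) ⟨hP₁, HExpr.isPrimes_twist (e := (HExpr.one : HExpr 𝒪)) trivial hQ⟩ n φ).mp hφ
    exact key.2 ⟨ℓ, hℓ, hℓS₀, hℓS⟩

end expr2

end Fermat.Agent.RT.K5

end


end ZBRT_087_7

/-! ### bundled: `Fermat.Agent.RT.K5.Indep4` -/
section ZBRT_087_8

/-!
# RT-K5, piece INDEP (helper7), part 4: the residual relation at ALL primes `q ∤ L p`

`K5inRes` knows the characteristic polynomials of Frobenius only outside a finite set `S₀` (the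
bad primes of the integral model); the Taylor–Wiles primes and the primes of the field `resid`
are only known to be prime to `L p`.  By weak Chebotarev (`k5in_resid_frob`):

* `k5in_rel_frob` : for EVERY prime `q ∤ L p` and every Frobenius `τ` at `q` there is a lift `c`
  of `tr ρ̄(τ)` with `T_q − c` nilpotent on `X`;
* `k5in_nil_frob` : the same, elementwise (`(T_q − c)^m = 0` on `X`);
* `k5in_twcond2` : `K5TWCond` for lists `Q` of primes `q ∤ L p`, `q = 1` in the residue field,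
  such that `ρ̄(Frob_q)` has distinct eigenvalues with product `1`.
-/

set_option autoImplicit false
set_option linter.unusedSectionVars false
set_option linter.unusedVariables false
set_option linter.style.haveILetI false

noncomputable section

namespace Fermat.Agent.RT.K5

open CongruenceSubgroup Matrix
open scoped MatrixGroups
open Fermat.Agent.ES1 (gammaH diamHom pmH)
open Fermat.Agent.ES Fermat.Agent.S30 Fermat.Agent.S31 Fermat.Agent.RT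
open IsLocalRing Polynomial

section main

variable {p L M : ℕ} [Fact p.Prime] [NeZero L] [hML : Fact (M ∣ L)]
  {𝒪 : Type} [CommRing 𝒪] [IsLocalRing 𝒪]
  {A : Type} [AddCommGroup A] [Module 𝒪 A]
  {𝕋 : Type} [CommRing 𝕋] {J : Type} [AddCommGroup J] [Module 𝕋 J] [DistribMulAction GQ J]
  {Tr : ℕ → 𝕋}
  {E : 𝕋 →+* AddMonoid.End (HomS (gammaH L M (⊤ : Subgroup (ZMod M)ˣ)) A)}
  {X : AddSubgroup (HomS (gammaH L M (⊤ : Subgroup (ZMod M)ˣ)) A)} {n₀ : ℕ}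
  {ρbar : ResidualGaloisRep (ResidueField 𝒪)} {a : ℕ → 𝒪} {S₀ : Finset ℕ}

/-- **the residual relation at every prime `q ∤ L p`** (also at the primes of `S₀`) -/
theorem k5in_rel_frob [Finite A] (hcheb : Cheb.WeakChebotarev)
    (D : K5inData p L M 𝒪 A J Tr E X n₀) (R : K5inRes p L ρbar a S₀)
    (S : Finset ℕ)
    (hnil : ∀ (ℓ : ℕ) [NeZero ℓ], ℓ.Prime → ℓ ∉ S₀ → ℓ ∉ S →
      ∀ v ∈ X, v ∈ k5lcKer (k5lcS L M ℓ (a ℓ) A ⊤))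
    {q : ℕ} (hq : q.Prime) (hqLp : ¬ q ∣ L * p)
    {𝔄 : ValuationSubring (AlgebraicClosure ℚ)} (h𝔄 : 𝔄.LiesOverPrime q)
    {τ : GQ} (hτ : 𝔄.IsFrobeniusAt τ q) :
    ∃ c : 𝒪, residue 𝒪 c = LinearMap.trace (ResidueField 𝒪) ρbar.V (ρbar.ρ τ) ∧
      K5inRel D.act D.sc (Tr q) c := by
  have hgood : ∀ r : ℕ, r.Prime → r ∉ S₀ ∪ S → ¬ r ∣ L * p := fun r hr hrS =>
    R.good r hr fun h => hrS (Finset.mem_union_left _ h)
  exact k5in_resid_frob hcheb D.pkg ρbar D.act D.sc D.commute (S₀ ∪ S) hgood ⊤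
    (fun _ _ _ => Subring.mem_top _) n₀ (fun x _ hx => D.act_eq_zero x hx)
    (fun ℓ hℓ hℓS 𝔅 h𝔅 σ hσ => by
      rw [Finset.mem_union, not_or] at hℓS
      haveI : NeZero ℓ := ⟨hℓ.ne_zero⟩
      exact ⟨a ℓ, (R.trace hℓ hℓS.1 h𝔅 hσ).symm,
        (D.rel_iff hℓ (R.good ℓ hℓ hℓS.1) (a ℓ)).mpr
          (k5in_exists_pow (a ℓ) (hnil ℓ hℓ hℓS.1 hℓS.2))⟩)
    (fun ℓ hℓ hℓS 𝔅 h𝔅 σ hσ => by
      rw [Finset.mem_union, not_or] at hℓS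
      rw [R.trace hℓ hℓS.1 h𝔅 hσ]
      exact R.frob ℓ hℓ hℓS.1 𝔅 h𝔅 σ hσ)
    hq hqLp (Subring.mem_top _) h𝔄 hτ

/-- the residual relation at every prime `q ∤ L p`, elementwise -/
theorem k5in_nil_frob [Finite A] (hcheb : Cheb.WeakChebotarev)
    (D : K5inData p L M 𝒪 A J Tr E X n₀) (R : K5inRes p L ρbar a S₀)
    (S : Finset ℕ)
    (hnil : ∀ (ℓ : ℕ) [NeZero ℓ], ℓ.Prime → ℓ ∉ S₀ → ℓ ∉ S →
      ∀ v ∈ X, v ∈ k5lcKer (k5lcS L M ℓ (a ℓ) A ⊤))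
    (q : ℕ) [NeZero q] (hq : q.Prime) (hqLp : ¬ q ∣ L * p)
    (𝔄 : ValuationSubring (AlgebraicClosure ℚ)) (h𝔄 : 𝔄.LiesOverPrime q)
    (τ : GQ) (hτ : 𝔄.IsFrobeniusAt τ q) :
    ∃ (c : 𝒪) (m : ℕ), residue 𝒪 c = LinearMap.trace (ResidueField 𝒪) ρbar.V (ρbar.ρ τ) ∧
      ∀ v ∈ X, k5s_pow (k5lcS L M q c A ⊤) m v = 0 := by
  obtain ⟨c, hc, hrel⟩ := k5in_rel_frob hcheb D R S hnil hq hqLp h𝔄 hτ
  obtain ⟨m, hm⟩ := (D.rel_iff hq hqLp c).mp hrel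
  exact ⟨c, m, hc, hm⟩

/-- **K5-INDEP (B′): the Taylor–Wiles condition at primes `q ∤ L p`.**  `X = ` the `Θ_e`-part
of `Hom(Γ₀(L), A)`; if `T_ℓ − a_ℓ` is nilpotent on `X` for the primes `ℓ ∉ S₀ ∪ S`, then
`(q + 1)² − T_q²` is injective on `X` for every prime `q ∤ L p` with `q = 1` in the residue field
such that `ρ̄(Frob_q)` has distinct eigenvalues of product `1`. -/
theorem k5in_twcond2 [Finite A] (hcheb : Cheb.WeakChebotarev) (e : HExpr 𝒪) (ℓ₀ : ℕ)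
    [NeZero ℓ₀]
    (D : K5inData p L M 𝒪 A J Tr E (etaPart (thetaN (e.eval L M) ℓ₀ A ⊤)) n₀)
    (R : K5inRes p L ρbar a S₀) (S : Finset ℕ)
    (hnil : ∀ (ℓ : ℕ) [NeZero ℓ], ℓ.Prime → ℓ ∉ S₀ → ℓ ∉ S →
      ∀ v ∈ etaPart (thetaN (e.eval L M) ℓ₀ A ⊤), v ∈ k5lcKer (k5lcS L M ℓ (a ℓ) A ⊤))
    (Q : List ℕ) (hQ : ∀ q ∈ Q, q.Prime ∧ ¬ q ∣ L * p ∧ (q : ResidueField 𝒪) = 1)
    (hQs : ∀ q ∈ Q, ∀ 𝔄 : ValuationSubring (AlgebraicClosure ℚ), 𝔄.LiesOverPrime q →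
      ∀ τ : GQ, 𝔄.IsFrobeniusAt τ q → ∃ α β : ResidueField 𝒪, α ≠ β ∧ α * β = 1 ∧
        LinearMap.charpoly (ρbar.ρ τ) = (Polynomial.X - C α) * (Polynomial.X - C β)) :
    K5TWCond 𝒪 L M ℓ₀ e Q A := by
  intro q _ hqQ φ hφ h
  obtain ⟨hq, hqLp, hq1⟩ := hQ q hqQ
  obtain ⟨𝔄, τ, h𝔄, hτ⟩ := R.ex q hq
  obtain ⟨c, hc, rel⟩ := k5in_rel_frob hcheb D R S hnil hq hqLp h𝔄 hτ
  obtain ⟨α, β, hαβ, hprod, hch⟩ := hQs q hqQ 𝔄 h𝔄 τ hτ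
  have hch' : LinearMap.charpoly (ρbar.ρ τ)
      = Polynomial.X ^ 2 - C (α + β) * Polynomial.X + C (α * β) := by
    rw [hch, map_add, map_mul]; ring
  have htr : LinearMap.trace (ResidueField 𝒪) ρbar.V (ρbar.ρ τ) = α + β :=
    trace_of_charpoly ρbar.finrank_eq _ _ _ hch'
  have hu := k5in_unit_of_tw hαβ (hc.trans htr) hprod hq1
  obtain ⟨V, hV⟩ := k5in_isUnit_of_nil D.sc (fun d => D.commute d (Tr q)) rel hu
  have e0 : (D.sc (((q : 𝒪) + 1) ^ 2) - D.act (Tr q) ^ 2) ⟨φ, hφ⟩ = 0 := by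
    refine Subtype.ext ?_
    show ((q : 𝒪) + 1) ^ 2 • φ - E (Tr q) (E (Tr q) φ) = 0
    rw [D.tr q hq hqLp, D.tr q hq hqLp, ← h, pow_two, mul_smul]
    have : ((q : 𝒪) + 1) = ((q + 1 : ℕ) : 𝒪) := by push_cast; rfl
    rw [this, Nat.cast_smul_eq_nsmul, Nat.cast_smul_eq_nsmul]
  set x : etaPart (thetaN (e.eval L M) ℓ₀ A ⊤) := ⟨φ, hφ⟩ with hx
  have h2 : ((V⁻¹ : (AddMonoid.End (etaPart (thetaN (e.eval L M) ℓ₀ A ⊤)))ˣ) :
      AddMonoid.End (etaPart (thetaN (e.eval L M) ℓ₀ A ⊤))) * (V : AddMonoid.End _) = 1 :=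
    Units.inv_mul V
  have h1 : ((V⁻¹ : (AddMonoid.End (etaPart (thetaN (e.eval L M) ℓ₀ A ⊤)))ˣ) :
      AddMonoid.End (etaPart (thetaN (e.eval L M) ℓ₀ A ⊤))) ((V : AddMonoid.End _) x) = x :=
    congrArg (fun f : AddMonoid.End (etaPart (thetaN (e.eval L M) ℓ₀ A ⊤)) => f x) h2
  rw [hV, e0, map_zero] at h1
  exact (congrArg Subtype.val h1).symm

end main

end Fermat.Agent.RT.K5

end


end ZBRT_087_8

/-! ### bundled: `Fermat.Agent.RT.Hecke.ConcIndep` -/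
section ZBRT_087_9

/-!
# K-machine, HECKE-asm, HK-CONC: the instances of K5-INDEP (helper7)

* `rthkin_data` : the data `K5inData` of K5-INDEP for the base level `(N, M, ⊤)`, the ring
  `HDAlg M` of Hecke–diamond polynomials acting by `rthkdEval` on `Hom(Γ₀(N), 𝒪/𝔪^ν)`, the
  package `es1inftwJ N M ⊤ p (k7ftwChar M 1)`, `Tr = es1inftwTr M 1`, and the `Θ`-part of a
  Hecke expression;
* `rthkin_res` : the residual data `K5inRes` of a setup `Y`, `a ℓ = a_ℓ(Y.W)`;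
* `rthkin_det_frob` : `det ρ̄(Frob_q) = q`, `q ≠ p` ANY prime;
* `rthkin_tw_hQ`, `rthkin_tw_hQs` : the hypotheses of `k5in_twcond2` for a Taylor–Wiles family.
-/

set_option autoImplicit false
set_option linter.unusedSectionVars false
set_option linter.style.haveILetI false
set_option linter.unusedVariables false

noncomputable section

namespace Fermat.Agent.RT

open IsLocalRing Fermat.Agent.ES Fermat.Agent.ES1 Fermat.Agent.RT.K5 Fermat.Agent.S48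
open Fermat.Agent.TW Fermat.Agent.RT.Prod Fermat.Agent.S31 Fermat.Agent.RT.K7F
open CongruenceSubgroup Polynomial
open scoped MatrixGroups

section data

variable {O : Type} [CommRing O] [IsDomain O] [CharZero O] [IsDiscreteValuationRing O]
  [IsAdicComplete (IsLocalRing.maximalIdeal O) O] [Finite (IsLocalRing.ResidueField O)]
  {N M : ℕ} [NeZero N] [NeZero M] [hMN : Fact (M ∣ N)] {p : ℕ} [hp : Fact p.Prime]

/-- **the data of K5-INDEP at the base level**, for the `Θ`-part of a Hecke expression `E` with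
coefficients `𝒪 ⧸ 𝔪 ^ ν` -/
theorem rthkin_data (hp𝔪 : (p : O) ∈ maximalIdeal O) (E : HExpr O) (hE : E.IsPrimes) (ℓ₀ : ℕ)
    [NeZero ℓ₀] (hℓ₀ : ℓ₀.Prime) (hℓ₀N : ¬ ℓ₀ ∣ N) (hN : Squarefree N) (hp2 : p ≠ 2)
    (hℓ₀p : ℓ₀ ≠ p) (ν : ℕ)
    (hNT : NoTors (gammaH N M (⊤ : Subgroup (ZMod M)ˣ)) (RthkdC O ν)) :
    K5inData p N M O (RthkdC O ν) (es1inftwJ N M ⊤ p (k7ftwChar M 1)) (es1inftwTr M 1)
      (rthkdEval p N M ⊤ (RthkdC O ν))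
      (etaPart (thetaN (E.eval N M) ℓ₀ (RthkdC O ν) ⊤)) ν where
  pkg := rthkp_pkg ⊤ p 1 le_rfl (fun c => le_pmH ⊤ (Subgroup.mem_top _))
  tr := fun ℓ _ hℓ hℓLp φ => rthkcb_eval_Tr N M p ℓ hℓ hℓLp φ
  smul := fun t c φ => rthkcb_eval_smul N M p ⊤ t c φ
  stab := fun t φ hφ => rthkcb_stab (p := p) E hE ℓ₀ hℓ₀ hℓ₀N (RthkdC O ν) t φ hφ
  sstab := fun c φ hφ => k5lc_smul_mem (E.eval N M) ℓ₀ (RthkdC O ν) ⊤ c hφ
  faith := fun t ht φ hφ => es1inffk_expr_level (k7ftwChar M 1) hp𝔪 E hE ℓ₀ hℓ₀ hℓ₀N hN hp2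
    hℓ₀p 0 (fun u => le_pmH ⊤ (Subgroup.mem_top _)) ν hNT t ht φ hφ

end data

section setup

variable {P : FreyPackage} {N q : ℕ} (Y : KSetup P N q)

/-- the lifts `a_ℓ(Y.W)` of the residual traces -/
def rthkinA : ℕ → Y.O := fun ℓ => ((Y.W.apOfModel ℓ : ℤ) : Y.O)

/-- **the residual data of K5-INDEP over a setup** -/
theorem rthkin_res (S₀ : Finset ℕ) (hpS : P.p ∈ S₀)
    (hNS : ∀ ℓ : ℕ, ℓ.Prime → ℓ ∣ N → ℓ ∈ S₀)
    (hgood : ∀ ℓ : ℕ, ℓ.Prime → ℓ ∉ S₀ → Y.W.IsGoodPrimeFor ℓ) :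
    K5inRes P.p N Y.ρbar (rthkinA Y) S₀ where
  good := fun r hr hrS hdvd => by
    rcases (Nat.Prime.dvd_mul hr).mp hdvd with h | h
    · exact hrS (hNS r hr h)
    · have e : r = P.p := (Nat.prime_dvd_prime_iff_eq hr P.pp).mp h
      exact hrS (e ▸ hpS)
  frob := fun ℓ hℓ hℓS 𝔄 h𝔄 τ hτ => by
    have e : residue Y.O (rthkinA Y ℓ) = ((Y.W.apOfModel ℓ : ℤ) : ResidueField Y.O) :=
      map_intCast (residue Y.O) _
    rw [e]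
    exact Y.hbar ℓ hℓ (fun h => hℓS (h ▸ hpS)) (hgood ℓ hℓ hℓS) 𝔄 h𝔄 τ hτ
  ex := fun ℓ hℓ => Fermat.Agent.Common.exists_isFrobeniusAt ℓ hℓ

/-- `det ρ̄(Frob_q) = q` for every prime `q ≠ p` -/
theorem rthkin_det_frob {r : ℕ} (hr : r.Prime) (hrp : r ≠ P.p)
    {𝔄 : ValuationSubring (AlgebraicClosure ℚ)} (h𝔄 : 𝔄.LiesOverPrime r) {τ : GQ}
    (hτ : 𝔄.IsFrobeniusAt τ r) :
    LinearMap.det (Y.ρbar.ρ τ) = (r : ResidueField Y.O) := by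
  refine rthk_r_det Y τ r (fun μ hμ => ?_)
  have hM := natCast_pow_not_mem_nonunits 𝔄 P.pp hr hrp h𝔄 1
  rw [pow_one] at hM
  exact frob_rootOfUnity 𝔄 hM P.pp.ne_zero hτ hμ

/-- `p = 0` in the residue field -/
theorem rthkin_p_zero : ((P.p : ℕ) : ResidueField Y.O) = 0 := by
  have h := (residue_eq_zero_iff (P.p : Y.O)).mpr Y.hyp.hp𝒪
  rwa [map_natCast] at h

variable {Y} {n h : ℕ} {qv : Fin h → ℕ}

/-- a Taylor–Wiles prime does not divide `N p` -/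
theorem rthkin_qv_not_dvd
    (hqv : IsTWFamily P.p Y.ρbar (Y.Smin ∪ Finset.univ.image Y.r) n h qv) (j : Fin h) :
    ¬ qv j ∣ N * P.p := by
  intro hdvd
  have hq := (hqv.2.1 j).1
  rcases (Nat.Prime.dvd_mul hq).mp hdvd with h1 | h1
  · by_cases h2 : qv j = 2
    · apply (hqv.2.1 j).2.1
      rw [h2]
      exact Finset.mem_union_left _ (rthkp_two_mem_Smin Y)
    · exact (hqv.2.1 j).2.1 (Finset.mem_union_right _ ((Y.hr (qv j)).mpr ⟨hq, h2, h1⟩))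
  · exact rthkp_qv_ne_p hqv j ((Nat.prime_dvd_prime_iff_eq hq P.pp).mp h1)

/-- a Taylor–Wiles prime is `1` in the residue field -/
theorem rthkin_qv_one
    (hqv : IsTWFamily P.p Y.ρbar (Y.Smin ∪ Finset.univ.image Y.r) n h qv) (j : Fin h) :
    ((qv j : ℕ) : ResidueField Y.O) = 1 := by
  have hq := (hqv.2.1 j).1
  obtain ⟨c, hc⟩ := (hqv.2.1 j).2.2
  have e : qv j = P.p ^ (n + 1) * c + 1 := by
    have := hq.one_le
    omega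
  rw [e]
  push_cast
  rw [rthkin_p_zero Y, zero_pow (Nat.succ_ne_zero n), zero_mul, zero_add]

/-- **the hypothesis `hQ` of `k5in_twcond2`** for a Taylor–Wiles family -/
theorem rthkin_tw_hQ
    (hqv : IsTWFamily P.p Y.ρbar (Y.Smin ∪ Finset.univ.image Y.r) n h qv) :
    ∀ r ∈ List.ofFn qv, r.Prime ∧ ¬ r ∣ N * P.p ∧ (r : ResidueField Y.O) = 1 := by
  intro r hr
  obtain ⟨j, rfl⟩ := (List.mem_ofFn' qv r).mp hr
  exact ⟨(hqv.2.1 j).1, rthkin_qv_not_dvd hqv j, rthkin_qv_one hqv j⟩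

/-- **the hypothesis `hQs` of `k5in_twcond2`** for a Taylor–Wiles family -/
theorem rthkin_tw_hQs
    (hqv : IsTWFamily P.p Y.ρbar (Y.Smin ∪ Finset.univ.image Y.r) n h qv) :
    ∀ r ∈ List.ofFn qv, ∀ 𝔄 : ValuationSubring (AlgebraicClosure ℚ), 𝔄.LiesOverPrime r →
      ∀ τ : GQ, 𝔄.IsFrobeniusAt τ r → ∃ α β : ResidueField Y.O, α ≠ β ∧ α * β = 1 ∧
        LinearMap.charpoly (Y.ρbar.ρ τ) = (Polynomial.X - C α) * (Polynomial.X - C β) := by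
  intro r hr 𝔄 h𝔄 τ hτ
  obtain ⟨j, rfl⟩ := (List.mem_ofFn' qv r).mp hr
  obtain ⟨α, β, hαβ, hch⟩ := hqv.2.2 j 𝔄 h𝔄 τ hτ
  refine ⟨α, β, hαβ, ?_, hch⟩
  have hch' : LinearMap.charpoly (Y.ρbar.ρ τ)
      = Polynomial.X ^ 2 - C (α + β) * Polynomial.X + C (α * β) := by
    rw [hch, map_add, map_mul]; ring
  have hdet := rthkr_det_of_charpoly Y.ρbar (Y.ρbar.ρ τ) (α + β) (α * β) hch'
  rw [← hdet, rthkin_det_frob Y (hqv.2.1 j).1 (rthkp_qv_ne_p hqv j) h𝔄 hτ]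
  exact rthkin_qv_one hqv j

end setup

end Fermat.Agent.RT

end


end ZBRT_087_9

/-! ### bundled: `Fermat.Agent.RT.K5.NZ` -/
section ZBRT_087_10

/-!
# K-machine, piece K5-NZ (helper46): the system occurs — the base module is not zero

`f` a normalized eigenform of level `N`, `𝔪 ⊂ ℤ̄` a proper ideal containing `p`, `α ℓ ∈ ℤ` with
`a_ℓ(f) ≡ α ℓ` modulo `𝔪` for the primes `ℓ ∈ S` (`ℓ ∤ N p`).

* `k5nz_eigen_gamma0` : there is a nonzero parabolic `x : Γ₀(N) → 𝔽_p` with `T_ℓ x = α ℓ • x`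
  for all these `ℓ` (`ES.eigenSupport_words`, i.e. S21 + the lattice `Hom_par(Γ₀(N), ℤ)`);
* `k5nz_eigen` : the same in `Hom(Γ_⊤(N), A)` for every abelian group `A` with an element of
  order `p` (e.g. `A = 𝒪 ⧸ 𝔪 ^ ν`, `ν ≥ 1`), for the operators `K5.tS`;
* `k5nzVal α e`, `k5nzIn S e`, `k5nz_op_eigen` : a joint eigenvector of the `tS ℓ` (`ℓ ∈ S`) is
  an eigenvector of every Hecke expression `e` in these operators, with eigenvalue `k5nzVal α e`;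
* `k5nz_mem_etaPart` : if `k5nzVal α e * (α ℓ₀ − ℓ₀ − 1)` is a unit, the eigenvector lies in the
  `Θ`-part `etaPart (thetaN (e.eval L M) ℓ₀ A K)`;
* `k5nz_lcExpr_in`, `k5nz_lcExpr_val` : the projector `k5lcExpr ℓ a n l` has value `1`;
* `k5nz_main` : the `Θ`-part of `Hom(Γ₀(N), A)` is not zero;
* `k5nz_quot` : the case `A = 𝒪 ⧸ 𝔪 ^ ν`, `ν ≥ 1`, `𝒪` a discrete valuation ring;
* `k5nz_rank_pos` : hence every `K5IsBasis` of it has positive rank.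
-/

set_option autoImplicit false
set_option linter.style.haveILetI false
set_option linter.unusedSectionVars false
set_option linter.unusedVariables false

noncomputable section

namespace Fermat.Agent.RT.K5

open CongruenceSubgroup Matrix ModularCurve ModularCurve.Period ModularFormClass
open scoped MatrixGroups
open Fermat.Agent.ES1 (gammaH diamHom pmH)
open Fermat.Agent.ES Fermat.Agent.RT.Base

/-! ## the eigenvector on `Γ₀(N)` with coefficients `𝔽_p` -/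

section gamma0

variable {N p : ℕ} [NeZero N] [Fact p.Prime]

/-- a good prime from a prime `ℓ ∤ N`, `ℓ ≠ p` -/
def k5nzGood (N p : ℕ) [Fact p.Prime] (ℓ : ℕ) (hℓ : ℓ.Prime) (hℓN : ¬ ℓ ∣ N) (hℓp : ℓ ≠ p) :
    GoodPrime N p :=
  ⟨⟨ℓ, hℓ⟩, by
    show ¬ ℓ ∣ N * p
    intro h
    rcases (Nat.Prime.dvd_mul hℓ).mp h with h | h
    · exact hℓN h
    · exact hℓp ((Nat.prime_dvd_prime_iff_eq hℓ (Fact.out : p.Prime)).mp h)⟩

/-- **the system occurs modulo `p`** on `Γ₀(N)` -/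
theorem k5nz_eigen_gamma0 (f : CuspForm (Gamma0 N) 2) (hf : f.IsNormalizedEigenform)
    (𝔪 : Ideal Zbar) (h𝔪 : 𝔪 ≠ ⊤) (hp : (p : Zbar) ∈ 𝔪) :
    ∃ x : Additive (Gamma0 N) →+ ZMod p, x ≠ 0 ∧ IsParabolicHom (Gamma0 N) x ∧
      ∀ (ℓ : ℕ) [Fact ℓ.Prime] (hℓN : ¬ ℓ ∣ N), ℓ ≠ p → ∀ a : ℤ,
        (∃ z ∈ 𝔪, (z : ℂ) = qCoeff ⇑f ℓ - (a : ℂ)) →
        HeckeP.heckeHom hℓN x = a • x := by
  obtain ⟨x, hxP, hx0, hx⟩ := eigenSupport_words (p := p) f hf 𝔪 h𝔪 hp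
  refine ⟨(Int.castAddHom (ZMod p)).comp x, hx0, ?_, ?_⟩
  · intro γ hγ
    rw [AddMonoidHom.comp_apply, hxP γ hγ, map_zero]
  · intro ℓ hℓ hℓN hℓp a hz
    have hw := hx (FreeAlgebra.ι ℤ (k5nzGood N p ℓ hℓ.out hℓN hℓp)
      - algebraMap ℤ (FreeAlgebra ℤ (GoodPrime N p)) a) (by
        obtain ⟨z, hz𝔪, hzv⟩ := hz
        refine ⟨z, hz𝔪, ?_⟩
        rw [hzv, map_sub, FreeAlgebra.lift_ι_apply, AlgHom.commutes]
        rfl)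
    rw [map_sub, LinearMap.sub_apply, wordOp_ι, AlgHom.commutes, Module.algebraMap_end_apply,
      sub_eq_zero, heckeOp_apply] at hw
    exact hw

end gamma0

/-! ## transport to `Hom(Γ_⊤(N), A)` -/

section transport

variable {N M p : ℕ} [NeZero N] [hMN : Fact (M ∣ N)] [Fact p.Prime]

/-- an element of order `p` gives an injection `𝔽_p → A` -/
def k5nzJ (p : ℕ) {A : Type} [AddCommGroup A] (y : A) (hpy : p • y = 0) : ZMod p →+ A :=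
  ZMod.lift p ⟨zmultiplesHom A y, by
    rw [zmultiplesHom_apply, natCast_zsmul]
    exact hpy⟩

theorem k5nzJ_intCast {A : Type} [AddCommGroup A] (y : A) (hpy : p • y = 0) (k : ℤ) :
    k5nzJ p y hpy (k : ZMod p) = k • y := by
  unfold k5nzJ
  rw [ZMod.lift_coe]
  rfl

theorem k5nzJ_injective {A : Type} [AddCommGroup A] (y : A) (hy : y ≠ 0) (hpy : p • y = 0) :
    Function.Injective (k5nzJ p y hpy) := by
  rw [injective_iff_map_eq_zero]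
  intro z hz
  obtain ⟨k, rfl⟩ := ZMod.intCast_surjective z
  rw [k5nzJ_intCast] at hz
  rw [ZMod.intCast_zmod_eq_zero_iff_dvd]
  by_contra hnd
  have hcop : IsCoprime k (p : ℤ) := by
    have hpp : Prime (p : ℤ) := Nat.prime_iff_prime_int.mp (Fact.out : p.Prime)
    exact (IsCoprime.symm ((Prime.coprime_iff_not_dvd hpp).mpr hnd))
  obtain ⟨u, v, huv⟩ := hcop
  apply hy
  have h1 : (u * k + v * (p : ℤ)) • y = 0 := by
    rw [add_smul, mul_smul, mul_smul, hz, smul_zero, natCast_zsmul, hpy, smul_zero, add_zero]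
  rw [huv, one_smul] at h1
  exact h1

/-- the inverse of the transport `rtbbTr` -/
def k5nzTrInv (N M : ℕ) [Fact (M ∣ N)] (A : Type) [AddCommGroup A]
    (x : Additive (Gamma0 N) →+ A) : HomS (gammaH N M (⊤ : Subgroup (ZMod M)ˣ)) A :=
  x.comp (MonoidHom.toAdditive (rtbbE0 N M).toMonoidHom)

theorem k5nz_tr_trInv {A : Type} [AddCommGroup A] (x : Additive (Gamma0 N) →+ A) :
    rtbbTr N M A (k5nzTrInv N M A x) = x := by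
  refine AddMonoidHom.ext fun γ => ?_
  obtain ⟨γ, rfl⟩ : ∃ γ' : Gamma0 N, Additive.ofMul γ' = γ := ⟨Additive.toMul γ, rfl⟩
  show x (Additive.ofMul (rtbbE0 N M ((rtbbE0 N M).symm γ))) = _
  rw [MulEquiv.apply_symm_apply]

/-- **the system occurs** in `Hom(Γ_⊤(N), A)`, for every `A` with an element of order `p` -/
theorem k5nz_eigen (f : CuspForm (Gamma0 N) 2) (hf : f.IsNormalizedEigenform)
    (𝔪 : Ideal Zbar) (h𝔪 : 𝔪 ≠ ⊤) (hp : (p : Zbar) ∈ 𝔪) (A : Type) [AddCommGroup A]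
    (y : A) (hy : y ≠ 0) (hpy : p • y = 0) :
    ∃ φ : HomS (gammaH N M (⊤ : Subgroup (ZMod M)ˣ)) A, φ ≠ 0 ∧
      IsParabolicHom (gammaH N M (⊤ : Subgroup (ZMod M)ˣ)) φ ∧
      ∀ (ℓ : ℕ) [NeZero ℓ], ℓ.Prime → ¬ ℓ ∣ N → ℓ ≠ p → ∀ a : ℤ,
        (∃ z ∈ 𝔪, (z : ℂ) = qCoeff ⇑f ℓ - (a : ℂ)) →
        tS N M ℓ ⊤ A φ = a • φ := by
  obtain ⟨x, hx0, hxP, hx⟩ := k5nz_eigen_gamma0 (p := p) f hf 𝔪 h𝔪 hp
  have hJ := k5nzJ_injective (p := p) y hy hpy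
  refine ⟨k5nzTrInv N M A ((k5nzJ p y hpy).comp x), ?_, ?_, ?_⟩
  · intro h0
    have h1 := congrArg (rtbbTr N M A) h0
    rw [k5nz_tr_trInv, map_zero] at h1
    apply hx0
    refine AddMonoidHom.ext fun γ => ?_
    have h2 := DFunLike.congr_fun h1 γ
    rw [AddMonoidHom.comp_apply, AddMonoidHom.zero_apply] at h2
    rw [AddMonoidHom.zero_apply]
    exact hJ (h2.trans (map_zero _).symm)
  · apply rtbb_parabolic_of_tr
    rw [k5nz_tr_trInv]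
    intro γ hγ
    rw [AddMonoidHom.comp_apply, hxP γ hγ, map_zero]
  · intro ℓ _ hℓ hℓN hℓp a hz
    haveI : Fact ℓ.Prime := ⟨hℓ⟩
    apply rtbbTr_injective
    rw [rtbbTr_tS ℓ hℓN, map_zsmul, k5nz_tr_trInv, HeckeP.heckeHom_comp, hx ℓ hℓN hℓp a hz]
    refine AddMonoidHom.ext fun γ => ?_
    rw [AddMonoidHom.comp_apply, AddMonoidHom.smul_apply, map_zsmul, AddMonoidHom.smul_apply,
      AddMonoidHom.comp_apply]

end transport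

/-! ## eigenvectors of Hecke expressions -/

section expr

variable {𝒪 : Type} [CommRing 𝒪]

/-- the value of an expression on the eigensystem `α` -/
def k5nzVal (α : ℕ → 𝒪) : HExpr 𝒪 → 𝒪
  | HExpr.one => 1
  | HExpr.hecke ℓ => if ℓ = 0 then 1 else α ℓ
  | HExpr.coeff c => c
  | HExpr.add e₁ e₂ => k5nzVal α e₁ + k5nzVal α e₂
  | HExpr.comp e₁ e₂ => k5nzVal α e₁ * k5nzVal α e₂

/-- every `hecke ℓ` in `e` has `ℓ ∈ S` -/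
def k5nzIn (S : Set ℕ) : HExpr 𝒪 → Prop
  | HExpr.one => True
  | HExpr.hecke ℓ => ℓ ∈ S
  | HExpr.coeff _ => True
  | HExpr.add e₁ e₂ => k5nzIn S e₁ ∧ k5nzIn S e₂
  | HExpr.comp e₁ e₂ => k5nzIn S e₁ ∧ k5nzIn S e₂

theorem k5nz_in_pow {S : Set ℕ} {e : HExpr 𝒪} (h : k5nzIn S e) : ∀ n : ℕ, k5nzIn S (e.pow n)
  | 0 => trivial
  | n + 1 => ⟨h, k5nz_in_pow h n⟩

theorem k5nz_val_pow (α : ℕ → 𝒪) (e : HExpr 𝒪) :
    ∀ n : ℕ, k5nzVal α (e.pow n) = k5nzVal α e ^ n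
  | 0 => (pow_zero _).symm
  | n + 1 => by
    show k5nzVal α e * k5nzVal α (e.pow n) = _
    rw [k5nz_val_pow α e n, pow_succ']

/-- the projector `k5lcExpr ℓ a n l` only involves the `ℓ i`, `i ∈ l` -/
theorem k5nz_lcExpr_in {ι : Type} (S : Set ℕ) (ℓ : ι → ℕ) (a : ι → 𝒪) (n : ℕ) :
    ∀ l : List ι, (∀ i ∈ l, ℓ i ∈ S) → k5nzIn S (k5lcExpr ℓ a n l)
  | [], _ => trivial
  | i :: l, h =>
    ⟨⟨trivial, trivial, k5nz_in_pow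
        (show k5nzIn S (HExpr.add (HExpr.hecke (ℓ i)) (HExpr.coeff (-(a i))) : HExpr 𝒪) from
          ⟨h i List.mem_cons_self, trivial⟩) n⟩,
      k5nz_lcExpr_in S ℓ a n l fun j hj => h j (List.mem_cons_of_mem _ hj)⟩

/-- the value of the projector on an eigensystem with `α (ℓ i) = a i` is `1` -/
theorem k5nz_lcExpr_val {ι : Type} (α : ℕ → 𝒪) (ℓ : ι → ℕ) (a : ι → 𝒪) (n : ℕ) (hn : 0 < n) :
    ∀ l : List ι, (∀ i ∈ l, ℓ i ≠ 0 ∧ α (ℓ i) = a i) → k5nzVal α (k5lcExpr ℓ a n l) = 1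
  | [], _ => rfl
  | i :: l, h => by
    show (1 + (-1) * k5nzVal α
        ((HExpr.add (HExpr.hecke (ℓ i)) (HExpr.coeff (-(a i))) : HExpr 𝒪).pow n))
      * k5nzVal α (k5lcExpr ℓ a n l) = 1
    rw [k5nz_lcExpr_val α ℓ a n hn l fun j hj => h j (List.mem_cons_of_mem _ hj),
      k5nz_val_pow]
    have h1 : k5nzVal α (HExpr.add (HExpr.hecke (ℓ i)) (HExpr.coeff (-(a i))) : HExpr 𝒪) = 0 := by
      show (if ℓ i = 0 then 1 else α (ℓ i)) + -(a i) = 0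
      rw [if_neg (h i List.mem_cons_self).1, (h i List.mem_cons_self).2, add_neg_cancel]
    rw [h1, zero_pow hn.ne', mul_zero, add_zero, mul_one]

variable {L M : ℕ} [NeZero L] [hML : Fact (M ∣ L)] {A : Type} [AddCommGroup A] [Module 𝒪 A]
  (K : Subgroup (ZMod M)ˣ)

/-- **a joint eigenvector is an eigenvector of every expression** -/
theorem k5nz_op_eigen (S : Set ℕ) (α : ℕ → 𝒪) (φ : HomS (gammaH L M K) A)
    (hφ : ∀ ℓ ∈ S, ∀ [NeZero ℓ], tS L M ℓ K A φ = α ℓ • φ) :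
    ∀ e : HExpr 𝒪, k5nzIn S e → ((e.eval L M).fam A).op K φ = k5nzVal α e • φ
  | HExpr.one, _ => (one_smul 𝒪 φ).symm
  | HExpr.hecke ℓ, h => by
    by_cases h0 : ℓ = 0
    · subst h0
      show _ = (if (0 : ℕ) = 0 then (1 : 𝒪) else α 0) • φ
      rw [if_pos rfl, one_smul]
      rfl
    · haveI : NeZero ℓ := ⟨h0⟩
      show _ = (if ℓ = 0 then (1 : 𝒪) else α ℓ) • φ
      rw [if_neg h0, HExpr.op_hecke, hφ ℓ h]
  | HExpr.coeff c, _ => rfl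
  | HExpr.add e₁ e₂, h => by
    show ((e₁.eval L M).fam A).op K φ + ((e₂.eval L M).fam A).op K φ
      = (k5nzVal α e₁ + k5nzVal α e₂) • φ
    rw [k5nz_op_eigen S α φ hφ e₁ h.1, k5nz_op_eigen S α φ hφ e₂ h.2, add_smul]
  | HExpr.comp e₁ e₂, h => by
    show ((e₁.eval L M).fam A).op K (((e₂.eval L M).fam A).op K φ)
      = (k5nzVal α e₁ * k5nzVal α e₂) • φ
    rw [k5nz_op_eigen S α φ hφ e₂ h.2, k5n_op_smul, k5nz_op_eigen S α φ hφ e₁ h.1, smul_smul,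
      mul_comm]

/-- `Θ` on a joint eigenvector -/
theorem k5nz_theta_eigen (S : Set ℕ) (α : ℕ → 𝒪) (φ : HomS (gammaH L M K) A)
    (hφ : ∀ ℓ ∈ S, ∀ [NeZero ℓ], tS L M ℓ K A φ = α ℓ • φ) (e : HExpr 𝒪) (he : k5nzIn S e)
    (ℓ₀ : ℕ) [NeZero ℓ₀] (hℓ₀ : ℓ₀ ∈ S) :
    thetaN (e.eval L M) ℓ₀ A K φ = (k5nzVal α e * (α ℓ₀ - ((ℓ₀ : 𝒪) + 1))) • φ := by
  show ((e.eval L M).fam A).op K (tS L M ℓ₀ K A φ - (ℓ₀ + 1) • φ) = _
  have h1 : tS L M ℓ₀ K A φ - (ℓ₀ + 1) • φ = (α ℓ₀ - ((ℓ₀ : 𝒪) + 1)) • φ := by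
    rw [hφ ℓ₀ hℓ₀, sub_smul]
    congr 1
    rw [← Nat.cast_smul_eq_nsmul 𝒪 (ℓ₀ + 1) φ]
    push_cast
    rfl
  rw [h1, k5n_op_smul, k5nz_op_eigen K S α φ hφ e he, smul_smul, mul_comm]

/-- **a joint eigenvector with unit `Θ`-eigenvalue lies in the `Θ`-part** -/
theorem k5nz_mem_etaPart (S : Set ℕ) (α : ℕ → 𝒪) (φ : HomS (gammaH L M K) A)
    (hφ : ∀ ℓ ∈ S, ∀ [NeZero ℓ], tS L M ℓ K A φ = α ℓ • φ) (e : HExpr 𝒪) (he : k5nzIn S e)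
    (ℓ₀ : ℕ) [NeZero ℓ₀] (hℓ₀ : ℓ₀ ∈ S)
    (hu : IsUnit (k5nzVal α e * (α ℓ₀ - ((ℓ₀ : 𝒪) + 1)))) :
    φ ∈ etaPart (thetaN (e.eval L M) ℓ₀ A K) := by
  obtain ⟨u, hu⟩ := hu.exists_left_inv
  rw [k5s_mem_etaPart]
  intro n
  refine ⟨u ^ n • φ, ?_⟩
  induction n with
  | zero => rw [pow_zero, one_smul]; rfl
  | succ n ih =>
    rw [k5s_pow_succ, k5n_theta_smul, k5nz_theta_eigen K S α φ hφ e he ℓ₀ hℓ₀, smul_smul,
      pow_succ, mul_assoc, hu, mul_one]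
    exact ih

end expr

/-! ## the base module is not zero -/

section main

variable {𝒪 : Type} [CommRing 𝒪] {N M p : ℕ} [NeZero N] [hMN : Fact (M ∣ N)] [Fact p.Prime]

/-- **K5-NZ.**  The `Θ`-part of `Hom(Γ₀(N), A)` is not zero: it contains a nonzero parabolic
joint eigenvector of the `T_ℓ`, `ℓ ∈ S`, with eigenvalues `α ℓ`. -/
theorem k5nz_main (f : CuspForm (Gamma0 N) 2) (hf : f.IsNormalizedEigenform)
    (𝔪 : Ideal Zbar) (h𝔪 : 𝔪 ≠ ⊤) (hp : (p : Zbar) ∈ 𝔪) (A : Type) [AddCommGroup A]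
    [Module 𝒪 A] (y : A) (hy : y ≠ 0) (hpy : p • y = 0) (S : Set ℕ) (α : ℕ → ℤ)
    (hS : ∀ ℓ ∈ S, ℓ.Prime ∧ ¬ ℓ ∣ N ∧ ℓ ≠ p ∧
      ∃ z ∈ 𝔪, (z : ℂ) = qCoeff ⇑f ℓ - ((α ℓ : ℤ) : ℂ))
    (e : HExpr 𝒪) (he : k5nzIn S e) (ℓ₀ : ℕ) [NeZero ℓ₀] (hℓ₀ : ℓ₀ ∈ S)
    (hu : IsUnit (k5nzVal (fun ℓ => ((α ℓ : ℤ) : 𝒪)) e
      * (((α ℓ₀ : ℤ) : 𝒪) - ((ℓ₀ : 𝒪) + 1)))) :
    ∃ φ ∈ etaPart (thetaN (e.eval N M) ℓ₀ A (⊤ : Subgroup (ZMod M)ˣ)), φ ≠ 0 ∧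
      IsParabolicHom (gammaH N M (⊤ : Subgroup (ZMod M)ˣ)) φ ∧
      ∀ ℓ ∈ S, ∀ [NeZero ℓ], tS N M ℓ ⊤ A φ = ((α ℓ : ℤ) : 𝒪) • φ := by
  obtain ⟨φ, hφ0, hφP, hφ⟩ := k5nz_eigen (M := M) (p := p) f hf 𝔪 h𝔪 hp A y hy hpy
  have hφ' : ∀ ℓ ∈ S, ∀ [NeZero ℓ], tS N M ℓ ⊤ A φ = ((α ℓ : ℤ) : 𝒪) • φ := by
    intro ℓ hℓS _
    obtain ⟨h1, h2, h3, h4⟩ := hS ℓ hℓS
    rw [hφ ℓ h1 h2 h3 (α ℓ) h4, Int.cast_smul_eq_zsmul]
  exact ⟨φ, k5nz_mem_etaPart ⊤ S _ φ hφ' e he ℓ₀ hℓ₀ hu, hφ0, hφP, hφ'⟩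

end main

/-! ## coefficients `𝒪 ⧸ 𝔪 ^ ν` -/

section quot

open IsLocalRing

variable {𝒪 : Type} [CommRing 𝒪] [IsDomain 𝒪] [IsDiscreteValuationRing 𝒪]

/-- `𝒪 ⧸ 𝔪 ^ ν` (`ν ≥ 1`) has an element of additive order `p` -/
theorem k5nz_exists_order (p : ℕ) (hp𝒪 : (p : 𝒪) ∈ maximalIdeal 𝒪) (ν : ℕ) (hν : 0 < ν) :
    ∃ y : 𝒪 ⧸ maximalIdeal 𝒪 ^ ν, y ≠ 0 ∧ p • y = 0 := by
  obtain ⟨ϖ, hϖ⟩ := IsDiscreteValuationRing.exists_irreducible 𝒪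
  have hmax : maximalIdeal 𝒪 = Ideal.span {ϖ} := hϖ.maximalIdeal_eq
  have hpow : maximalIdeal 𝒪 ^ ν = Ideal.span {ϖ ^ ν} := by
    rw [hmax, Ideal.span_singleton_pow]
  obtain ⟨k, rfl⟩ : ∃ k, ν = k + 1 := ⟨ν - 1, by omega⟩
  refine ⟨Ideal.Quotient.mk _ (ϖ ^ k), ?_, ?_⟩
  · intro h0
    rw [Ideal.Quotient.eq_zero_iff_mem, hpow, Ideal.mem_span_singleton] at h0
    have := (pow_dvd_pow_iff hϖ.ne_zero hϖ.not_isUnit).mp h0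
    omega
  · rw [← map_nsmul, Ideal.Quotient.eq_zero_iff_mem, hpow, Ideal.mem_span_singleton,
      nsmul_eq_mul]
    rw [hmax, Ideal.mem_span_singleton] at hp𝒪
    obtain ⟨c, hc⟩ := hp𝒪
    exact ⟨c, by rw [hc, pow_succ]; ring⟩

variable {N M p : ℕ} [NeZero N] [hMN : Fact (M ∣ N)] [Fact p.Prime]

/-- **K5-NZ** with coefficients `𝒪 ⧸ 𝔪 ^ ν`, `ν ≥ 1`. -/
theorem k5nz_quot (hp𝒪 : (p : 𝒪) ∈ maximalIdeal 𝒪) (f : CuspForm (Gamma0 N) 2)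
    (hf : f.IsNormalizedEigenform) (𝔪 : Ideal Zbar) (h𝔪 : 𝔪 ≠ ⊤) (hp : (p : Zbar) ∈ 𝔪)
    (S : Set ℕ) (α : ℕ → ℤ)
    (hS : ∀ ℓ ∈ S, ℓ.Prime ∧ ¬ ℓ ∣ N ∧ ℓ ≠ p ∧
      ∃ z ∈ 𝔪, (z : ℂ) = qCoeff ⇑f ℓ - ((α ℓ : ℤ) : ℂ))
    (e : HExpr 𝒪) (he : k5nzIn S e) (ℓ₀ : ℕ) [NeZero ℓ₀] (hℓ₀ : ℓ₀ ∈ S)
    (hu : IsUnit (k5nzVal (fun ℓ => ((α ℓ : ℤ) : 𝒪)) e
      * (((α ℓ₀ : ℤ) : 𝒪) - ((ℓ₀ : 𝒪) + 1)))) (ν : ℕ) (hν : 0 < ν) :
    ∃ φ ∈ etaPart (thetaN (e.eval N M) ℓ₀ (𝒪 ⧸ maximalIdeal 𝒪 ^ ν)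
        (⊤ : Subgroup (ZMod M)ˣ)), φ ≠ 0 ∧
      IsParabolicHom (gammaH N M (⊤ : Subgroup (ZMod M)ˣ)) φ ∧
      ∀ ℓ ∈ S, ∀ [NeZero ℓ],
        tS N M ℓ ⊤ (𝒪 ⧸ maximalIdeal 𝒪 ^ ν) φ = ((α ℓ : ℤ) : 𝒪) • φ := by
  obtain ⟨y, hy, hpy⟩ := k5nz_exists_order p hp𝒪 ν hν
  exact k5nz_main f hf 𝔪 h𝔪 hp _ y hy hpy S α hS e he ℓ₀ hℓ₀ hu

/-- **K5-NZ for the projector** `P = k5lcExpr ℓ a n l`, `a i = α (ℓ i)`: if `α ℓ₀ ≢ ℓ₀ + 1`
modulo `𝔪_𝒪`, the `Θ_{P, ℓ₀}`-part of `Hom(Γ₀(N), 𝒪 ⧸ 𝔪 ^ ν)` is not zero (`ν ≥ 1`). -/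
theorem k5nz_lc (hp𝒪 : (p : 𝒪) ∈ maximalIdeal 𝒪) (f : CuspForm (Gamma0 N) 2)
    (hf : f.IsNormalizedEigenform) (𝔪 : Ideal Zbar) (h𝔪 : 𝔪 ≠ ⊤) (hp : (p : Zbar) ∈ 𝔪)
    {ι : Type} (ℓ : ι → ℕ) (α : ℕ → ℤ) (n : ℕ) (hn : 0 < n) (l : List ι)
    (hl : ∀ i ∈ l, (ℓ i).Prime ∧ ¬ ℓ i ∣ N ∧ ℓ i ≠ p ∧
      ∃ z ∈ 𝔪, (z : ℂ) = qCoeff ⇑f (ℓ i) - ((α (ℓ i) : ℤ) : ℂ))
    (ℓ₀ : ℕ) [NeZero ℓ₀] (hℓ₀ : ℓ₀.Prime ∧ ¬ ℓ₀ ∣ N ∧ ℓ₀ ≠ p ∧
      ∃ z ∈ 𝔪, (z : ℂ) = qCoeff ⇑f ℓ₀ - ((α ℓ₀ : ℤ) : ℂ))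
    (hne : ((α ℓ₀ : ℤ) : 𝒪) - ((ℓ₀ : 𝒪) + 1) ∉ maximalIdeal 𝒪) (ν : ℕ) (hν : 0 < ν) :
    ∃ φ ∈ etaPart (thetaN ((k5lcExpr ℓ (fun i => ((α (ℓ i) : ℤ) : 𝒪)) n l).eval N M) ℓ₀
        (𝒪 ⧸ maximalIdeal 𝒪 ^ ν) (⊤ : Subgroup (ZMod M)ˣ)), φ ≠ 0 ∧
      IsParabolicHom (gammaH N M (⊤ : Subgroup (ZMod M)ˣ)) φ ∧
      (∀ [NeZero ℓ₀], tS N M ℓ₀ ⊤ (𝒪 ⧸ maximalIdeal 𝒪 ^ ν) φ = ((α ℓ₀ : ℤ) : 𝒪) • φ) ∧
      ∀ i ∈ l, ∀ [NeZero (ℓ i)],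
        tS N M (ℓ i) ⊤ (𝒪 ⧸ maximalIdeal 𝒪 ^ ν) φ = ((α (ℓ i) : ℤ) : 𝒪) • φ := by
  set S : Set ℕ := {x | x = ℓ₀ ∨ ∃ i ∈ l, x = ℓ i} with hSdef
  have hS : ∀ x ∈ S, x.Prime ∧ ¬ x ∣ N ∧ x ≠ p ∧
      ∃ z ∈ 𝔪, (z : ℂ) = qCoeff ⇑f x - ((α x : ℤ) : ℂ) := by
    rintro x (rfl | ⟨i, hi, rfl⟩)
    · exact hℓ₀
    · exact hl i hi
  have hin : k5nzIn S (k5lcExpr ℓ (fun i => ((α (ℓ i) : ℤ) : 𝒪)) n l) :=
    k5nz_lcExpr_in S ℓ _ n l fun i hi => Or.inr ⟨i, hi, rfl⟩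
  have hval : k5nzVal (fun x => ((α x : ℤ) : 𝒪))
      (k5lcExpr ℓ (fun i => ((α (ℓ i) : ℤ) : 𝒪)) n l) = 1 :=
    k5nz_lcExpr_val _ ℓ _ n hn l fun i hi => ⟨(hl i hi).1.ne_zero, rfl⟩
  have hu : IsUnit (k5nzVal (fun x => ((α x : ℤ) : 𝒪))
      (k5lcExpr ℓ (fun i => ((α (ℓ i) : ℤ) : 𝒪)) n l)
        * (((α ℓ₀ : ℤ) : 𝒪) - ((ℓ₀ : 𝒪) + 1))) := by
    rw [hval, one_mul]
    by_contra h
    exact hne ((mem_maximalIdeal _).mpr h)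
  obtain ⟨φ, hφ, hφ0, hφP, hφe⟩ := k5nz_quot (M := M) hp𝒪 f hf 𝔪 h𝔪 hp S α hS _ hin ℓ₀
    (Or.inl rfl) hu ν hν
  exact ⟨φ, hφ, hφ0, hφP, hφe ℓ₀ (Or.inl rfl), fun i hi => hφe (ℓ i) (Or.inr ⟨i, hi, rfl⟩)⟩

end quot

/-! ## the rank is positive -/

/-- a basis of a nonzero subgroup is not empty -/
theorem k5nz_rank_pos {R W : Type*} [CommRing R] [AddCommGroup W] [Module R W]
    {X : AddSubgroup W} {r : ℕ} {y : Fin r → W} (hy : K5IsBasis R X y) {φ : W} (hφ : φ ∈ X)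
    (h0 : φ ≠ 0) : 0 < r := by
  rcases Nat.eq_zero_or_pos r with h | h
  · subst h
    obtain ⟨c, hc⟩ := hy.2.2 φ hφ
    rw [Finset.univ_eq_empty, Finset.sum_empty] at hc
    exact absurd hc h0
  · exact h

end Fermat.Agent.RT.K5

end


end ZBRT_087_10

/-! ### bundled: `Fermat.Agent.RT.K5.NZSetup` -/
section ZBRT_087_11

/-!
# K-machine, piece K5-NZ (helper46): the base module of a setup is not zero

* `k5nz_model_cong` (**MODEL-CMP**): two integral models `W₁`, `W₂` of the same elliptic curve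
  over `ℚ` have `a_ℓ(W₁) ≡ a_ℓ(W₂)` modulo `p` at every prime `ℓ ≠ p` of good reduction of both
  (the Frobenius relation `τ² − a_ℓ τ + ℓ = 0` on `E[p]`, `RED.frobenius_relation_of_torsion_all`);
* `k5nzBad Y W'` : the finite set of primes excluded: `p`, the primes of `N`, the bad primes of
  the two models;
* `k5nz_setup` : for a setup `Y : KSetup P N q` and `P.ModularRepOfLevel N` there is a finite set
  `Sbad ∋ p` containing the primes of `N` such that for every projector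
  `k5lcExpr ℓ a n l` (`n > 0`, `ℓ i ∉ Sbad` primes, `a i = a_{ℓ i}(Y.W)`), every prime
  `ℓ₀ ∉ Sbad` with `a_ℓ₀(Y.W) ≢ ℓ₀ + 1` and every `ν ≥ 1` the `Θ`-part of
  `Hom(Γ₀(N), 𝒪 ⧸ 𝔪 ^ ν)` is NOT zero;
* `k5nz_setup_exists` : such primes `ℓ₀` exist outside every finite set (`rthk_r_nonEis`);
* `k5nz_setup_rank` : every basis of the `Θ`-part has positive rank.
-/

set_option autoImplicit false
set_option linter.style.haveILetI false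
set_option linter.unusedSectionVars false
set_option linter.unusedVariables false

noncomputable section

namespace Fermat.Agent.RT.K5

open CongruenceSubgroup Matrix ModularCurve ModularCurve.Period ModularFormClass
open scoped MatrixGroups
open Fermat.Agent.ES1 (gammaH diamHom pmH)
open Fermat.Agent.ES Fermat.Agent.RT.Base Fermat.Agent.RT Fermat.Agent.RT.Prod IsLocalRing
open WeierstrassCurve WeierstrassCurve.Affine WeierstrassCurve.Affine.Point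

local notation "Qbar" => AlgebraicClosure ℚ
local notation "GQ'" => (AlgebraicClosure ℚ ≃ₐ[ℚ] AlgebraicClosure ℚ)

/-! ## MODEL-CMP -/

/-- **MODEL-CMP.**  Two integral models of the same elliptic curve have the same `a_ℓ` modulo
`p` at the common primes of good reduction `ℓ ≠ p`. -/
theorem k5nz_model_cong (E : WeierstrassCurve ℚ) (hΔ : E.Δ ≠ 0) (W₁ W₂ : WeierstrassCurve ℤ)
    (h₁ : W₁.IsIntegralModelOf E) (h₂ : W₂.IsIntegralModelOf E) {p ℓ : ℕ} (hp : p.Prime)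
    (hℓ : ℓ.Prime) (hℓp : ℓ ≠ p) (hg₁ : W₁.IsGoodPrimeFor ℓ) (hg₂ : W₂.IsGoodPrimeFor ℓ) :
    (p : ℤ) ∣ W₁.apOfModel ℓ - W₂.apOfModel ℓ := by
  obtain ⟨A, τ, hA, hτ⟩ := Fermat.Agent.Common.exists_isFrobeniusAt ℓ hℓ
  obtain ⟨C₁, hC₁⟩ := h₁
  obtain ⟨C₂, hC₂⟩ := h₂
  have hnd : ¬ ℓ ∣ p := fun h => hℓp ((Nat.prime_dvd_prime_iff_eq hℓ hp).1 h)
  have r₁ : ∀ Q : (E⁄Qbar).toAffine.Point, p • Q = 0 →
      τ • τ • Q - W₁.apOfModel ℓ • τ • Q + (ℓ : ℤ) • Q = 0 := fun Q hQ =>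
    Fermat.Agent.S41.nonEis_rel_transport E (W₁.map (Int.castRingHom ℚ)) C₁ hC₁ τ
      (W₁.apOfModel ℓ) ℓ p
      (fun P hP => Fermat.Agent.RED.frobenius_relation_of_torsion_all W₁ hℓ hg₁ A hA τ hτ hnd
        P hP) Q hQ
  have r₂ : ∀ Q : (E⁄Qbar).toAffine.Point, p • Q = 0 →
      τ • τ • Q - W₂.apOfModel ℓ • τ • Q + (ℓ : ℤ) • Q = 0 := fun Q hQ =>
    Fermat.Agent.S41.nonEis_rel_transport E (W₂.map (Int.castRingHom ℚ)) C₂ hC₂ τ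
      (W₂.apOfModel ℓ) ℓ p
      (fun P hP => Fermat.Agent.RED.frobenius_relation_of_torsion_all W₂ hℓ hg₂ A hA τ hτ hnd
        P hP) Q hQ
  -- a nonzero point of order `p`
  have hΔ' : (E⁄Qbar).Δ ≠ 0 := by
    change (E.map (algebraMap ℚ Qbar)).Δ ≠ 0
    rw [WeierstrassCurve.map_Δ]
    exact (_root_.map_ne_zero _).2 hΔ
  have hcard : Nat.card (Submodule.torsionBy ℤ (E⁄Qbar).toAffine.Point ((p : ℕ) : ℤ)) = p ^ 2 :=
    Fermat.Agent.EC.ec_card_torsionBy hΔ' two_ne_zero (Nat.cast_ne_zero.2 hp.ne_zero)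
  have hfin : Finite (Submodule.torsionBy ℤ (E⁄Qbar).toAffine.Point ((p : ℕ) : ℤ)) :=
    Nat.finite_of_card_ne_zero (by rw [hcard]; exact pow_ne_zero _ hp.ne_zero)
  have hnt : Nontrivial (Submodule.torsionBy ℤ (E⁄Qbar).toAffine.Point ((p : ℕ) : ℤ)) := by
    rw [← Finite.one_lt_card_iff_nontrivial, hcard]
    exact Nat.one_lt_pow (by norm_num) hp.one_lt
  obtain ⟨x, hx0⟩ := exists_ne (0 : Submodule.torsionBy ℤ (E⁄Qbar).toAffine.Point ((p : ℕ) : ℤ))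
  have hxp : p • (x : (E⁄Qbar).toAffine.Point) = 0 := by
    have := x.2
    rw [Submodule.mem_torsionBy_iff, natCast_zsmul] at this
    exact this
  by_contra hndvd
  have hcop : IsCoprime (W₁.apOfModel ℓ - W₂.apOfModel ℓ) (p : ℤ) :=
    (IsCoprime.symm ((Prime.coprime_iff_not_dvd (Nat.prime_iff_prime_int.mp hp)).mpr hndvd))
  obtain ⟨u, v, huv⟩ := hcop
  have h3 : (W₁.apOfModel ℓ - W₂.apOfModel ℓ) • τ • (x : (E⁄Qbar).toAffine.Point) = 0 := by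
    have e1 := r₁ x hxp
    have e2 := r₂ x hxp
    have e3 : (W₁.apOfModel ℓ - W₂.apOfModel ℓ) • τ • (x : (E⁄Qbar).toAffine.Point)
        = (τ • τ • (x : (E⁄Qbar).toAffine.Point) - W₂.apOfModel ℓ • τ • (x : (E⁄Qbar).toAffine.Point)
            + (ℓ : ℤ) • (x : (E⁄Qbar).toAffine.Point))
          - (τ • τ • (x : (E⁄Qbar).toAffine.Point)
            - W₁.apOfModel ℓ • τ • (x : (E⁄Qbar).toAffine.Point)
            + (ℓ : ℤ) • (x : (E⁄Qbar).toAffine.Point)) := by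
      rw [sub_smul]
      abel
    rw [e3, e1, e2, sub_zero]
  have h4 : (p : ℤ) • τ • (x : (E⁄Qbar).toAffine.Point) = 0 := by
    rw [← WeierstrassCurve.Affine.Point.algEquiv_smul_zsmul, natCast_zsmul, hxp, smul_zero]
  have huv' : (W₁.apOfModel ℓ - W₂.apOfModel ℓ) * u + (p : ℤ) * v = 1 := by
    rw [← huv]; ring
  have h5 : τ • (x : (E⁄Qbar).toAffine.Point) = 0 := by
    have h6 : τ • (x : (E⁄Qbar).toAffine.Point)
        = u • ((W₁.apOfModel ℓ - W₂.apOfModel ℓ) • τ • (x : (E⁄Qbar).toAffine.Point))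
          + v • ((p : ℤ) • τ • (x : (E⁄Qbar).toAffine.Point)) := by
      rw [← mul_zsmul', ← mul_zsmul', ← add_zsmul, huv', one_zsmul]
    rw [h6, h3, h4, zsmul_zero, zsmul_zero, add_zero]
  apply hx0
  apply Subtype.ext
  exact (smul_eq_zero_iff_eq τ).mp h5

/-! ## the base module of a setup -/

section setup

variable {P : FreyPackage} {N q : ℕ} [NeZero N]

/-- the discriminant of the Frey curve -/
theorem k5nz_freyCurve_Δ (P : FreyPackage) : P.freyCurve.Δ ≠ 0 := by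
  rw [← Fermat.Agent.S04.freyCurveInt_map, WeierstrassCurve.map_Δ]
  have := Fermat.Agent.S04.freyCurveInt_Δ_ne_zero P
  simpa using this

/-- the discriminant of an integral model -/
theorem k5nz_model_Δ (E : WeierstrassCurve ℚ) (hΔ : E.Δ ≠ 0) (W : WeierstrassCurve ℤ)
    (hW : W.IsIntegralModelOf E) : W.Δ ≠ 0 := by
  obtain ⟨C, hC⟩ := hW
  intro h0
  have h1 : (C • E).Δ = 0 := by
    rw [hC, WeierstrassCurve.map_Δ, h0, _root_.map_zero]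
  rw [WeierstrassCurve.variableChange_Δ] at h1
  have hu : ((C.u⁻¹ : ℚˣ) : ℚ) ^ 12 ≠ 0 := pow_ne_zero _ (Units.ne_zero _)
  exact hΔ ((mul_eq_zero.1 h1).resolve_left hu)

/-- the excluded primes: `p`, the primes of `N`, the bad primes of the two models -/
def k5nzBad (Y : KSetup P N q) (W' : WeierstrassCurve ℤ) : Finset ℕ :=
  insert P.p (N.primeFactors ∪ W'.Δ.natAbs.primeFactors ∪ Y.W.Δ.natAbs.primeFactors)

theorem k5nz_not_mem_bad (Y : KSetup P N q) (W' : WeierstrassCurve ℤ)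
    (hW' : W'.IsIntegralModelOf P.freyCurve) {ℓ : ℕ} (hℓ : ℓ.Prime) (h : ℓ ∉ k5nzBad Y W') :
    ℓ ≠ P.p ∧ ¬ ℓ ∣ N ∧ W'.IsGoodPrimeFor ℓ ∧ Y.W.IsGoodPrimeFor ℓ := by
  simp only [k5nzBad, Finset.mem_insert, Finset.mem_union, not_or] at h
  obtain ⟨h1, ⟨h2, h3⟩, h4⟩ := h
  have hΔ' := k5nz_model_Δ P.freyCurve (k5nz_freyCurve_Δ P) W' hW'
  have hΔ := k5nz_model_Δ P.freyCurve (k5nz_freyCurve_Δ P) Y.W Y.hW
  refine ⟨h1, fun hdvd => h2 (Nat.mem_primeFactors.mpr ⟨hℓ, hdvd, NeZero.ne N⟩),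
    fun hdvd => h3 ?_, fun hdvd => h4 ?_⟩
  · exact Nat.mem_primeFactors.mpr ⟨hℓ, Int.natCast_dvd.mp hdvd, Int.natAbs_ne_zero.mpr hΔ'⟩
  · exact Nat.mem_primeFactors.mpr ⟨hℓ, Int.natCast_dvd.mp hdvd, Int.natAbs_ne_zero.mpr hΔ⟩

/-- **K5-NZ over a setup.**  There is a finite set `Sbad ∋ p` of primes, containing the primes
of `N` and the bad primes of `Y.W`, such that for every projector `P = k5lcExpr ℓ a n l`
(`n > 0`, the `ℓ i` primes outside `Sbad`, `a i = a_{ℓ i}(Y.W)`), every prime `ℓ₀ ∉ Sbad` with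
`a_ℓ₀(Y.W) ≢ ℓ₀ + 1` and every `ν ≥ 1` the `Θ_{P, ℓ₀}`-part of `Hom(Γ₀(N), 𝒪 ⧸ 𝔪 ^ ν)` contains a
nonzero parabolic eigenvector. -/
theorem k5nz_setup (Y : KSetup P N q) (hmod : P.ModularRepOfLevel N) :
    ∃ Sbad : Finset ℕ, P.p ∈ Sbad ∧ (∀ ℓ : ℕ, ℓ.Prime → ℓ ∣ N → ℓ ∈ Sbad) ∧
      (∀ ℓ : ℕ, ℓ.Prime → ℓ ∉ Sbad → Y.W.IsGoodPrimeFor ℓ) ∧
      ∀ (M : ℕ) [Fact (M ∣ N)] {ι : Type} (ℓ : ι → ℕ) (n : ℕ), 0 < n → ∀ l : List ι,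
        (∀ i ∈ l, (ℓ i).Prime ∧ ℓ i ∉ Sbad) →
        ∀ (ℓ₀ : ℕ) [NeZero ℓ₀], ℓ₀.Prime → ℓ₀ ∉ Sbad →
          ((Y.W.apOfModel ℓ₀ : ℤ) : ResidueField Y.O) ≠ (ℓ₀ : ResidueField Y.O) + 1 →
          ∀ ν : ℕ, 0 < ν →
            ∃ φ ∈ etaPart (thetaN
                ((k5lcExpr ℓ (fun i => ((Y.W.apOfModel (ℓ i) : ℤ) : Y.O)) n l).eval N M) ℓ₀
                (Y.O ⧸ maximalIdeal Y.O ^ ν) (⊤ : Subgroup (ZMod M)ˣ)), φ ≠ 0 ∧
              IsParabolicHom (gammaH N M (⊤ : Subgroup (ZMod M)ˣ)) φ ∧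
              tS N M ℓ₀ ⊤ (Y.O ⧸ maximalIdeal Y.O ^ ν) φ
                = ((Y.W.apOfModel ℓ₀ : ℤ) : Y.O) • φ ∧
              ∀ i ∈ l, ∀ [NeZero (ℓ i)], tS N M (ℓ i) ⊤ (Y.O ⧸ maximalIdeal Y.O ^ ν) φ
                = ((Y.W.apOfModel (ℓ i) : ℤ) : Y.O) • φ := by
  obtain ⟨f, W', 𝔪, hf, hW', h𝔪max, hp𝔪, hcong⟩ := hmod
  haveI : Fact P.p.Prime := ⟨P.pp⟩
  refine ⟨k5nzBad Y W', Finset.mem_insert_self _ _, fun ℓ hℓ hℓN => ?_, fun ℓ hℓ hℓS =>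
    (k5nz_not_mem_bad Y W' hW' hℓ hℓS).2.2.2, ?_⟩
  · exact Finset.mem_insert_of_mem (Finset.mem_union_left _ (Finset.mem_union_left _
      (Nat.mem_primeFactors.mpr ⟨hℓ, hℓN, NeZero.ne N⟩)))
  intro M _ ι ℓ n hn l hl ℓ₀ _ hℓ₀ hℓ₀S hne ν hν
  have key : ∀ x : ℕ, x.Prime → x ∉ k5nzBad Y W' → x.Prime ∧ ¬ x ∣ N ∧ x ≠ P.p ∧
      ∃ z ∈ 𝔪, (z : ℂ) = qCoeff ⇑f x - ((Y.W.apOfModel x : ℤ) : ℂ) := by
    intro x hx hxS
    obtain ⟨h1, h2, h3, h4⟩ := k5nz_not_mem_bad Y W' hW' hx hxS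
    obtain ⟨a, ha, ha𝔪⟩ := hcong x hx h3 h2 h1
    obtain ⟨k, hk⟩ := k5nz_model_cong P.freyCurve (k5nz_freyCurve_Δ P) W' Y.W hW' Y.hW P.pp hx
      h1 h3 h4
    refine ⟨hx, h2, h1, a - ((Y.W.apOfModel x : ℤ) : Zbar), ?_, ?_⟩
    · have hk' : ((W'.apOfModel x : ℤ) : Zbar) - ((Y.W.apOfModel x : ℤ) : Zbar)
          = (P.p : Zbar) * ((k : ℤ) : Zbar) := by
        rw [← Int.cast_sub, hk]
        push_cast
        ring
      have e : a - ((Y.W.apOfModel x : ℤ) : Zbar)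
          = (a - ((W'.apOfModel x : ℤ) : Zbar)) + (P.p : Zbar) * ((k : ℤ) : Zbar) := by
        rw [← hk']
        ring
      rw [e]
      exact 𝔪.add_mem ha𝔪 (𝔪.mul_mem_right _ hp𝔪)
    · rw [← ha]
      push_cast
      rfl
  have hne' : ((Y.W.apOfModel ℓ₀ : ℤ) : Y.O) - ((ℓ₀ : Y.O) + 1) ∉ maximalIdeal Y.O := by
    intro hmem
    apply hne
    have h0 := (residue_eq_zero_iff _).mpr hmem
    rw [map_sub, map_add, map_one, map_intCast, map_natCast, sub_eq_zero] at h0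
    exact h0
  obtain ⟨φ, hφ, hφ0, hφP, hφ₀, hφl⟩ := k5nz_lc (𝒪 := Y.O) (M := M) (p := P.p) Y.hyp.hp𝒪 f hf 𝔪
    h𝔪max.ne_top hp𝔪 ℓ (fun x => Y.W.apOfModel x) n hn l
    (fun i hi => key (ℓ i) (hl i hi).1 (hl i hi).2) ℓ₀ (key ℓ₀ hℓ₀ hℓ₀S) hne' ν hν
  exact ⟨φ, hφ, hφ0, hφP, hφ₀, hφl⟩

/-- **K5-NZ over a setup, with the auxiliary prime**: outside every finite set there is a prime
`ℓ₀` as in `k5nz_setup`. -/
theorem k5nz_setup_exists (hcheb : Cheb.WeakChebotarev) (Y : KSetup P N q)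
    (hmod : P.ModularRepOfLevel N) :
    ∃ Sbad : Finset ℕ, P.p ∈ Sbad ∧ (∀ ℓ : ℕ, ℓ.Prime → ℓ ∣ N → ℓ ∈ Sbad) ∧
      (∀ ℓ : ℕ, ℓ.Prime → ℓ ∉ Sbad → Y.W.IsGoodPrimeFor ℓ) ∧
      ∀ S₀ : Finset ℕ, ∃ ℓ₀ : ℕ, ℓ₀.Prime ∧ ℓ₀ ∉ S₀ ∧ ℓ₀ ∉ Sbad ∧
        ((Y.W.apOfModel ℓ₀ : ℤ) : ResidueField Y.O) ≠ (ℓ₀ : ResidueField Y.O) + 1 ∧
        ∀ (M : ℕ) [Fact (M ∣ N)] [NeZero ℓ₀] {ι : Type} (ℓ : ι → ℕ) (n : ℕ), 0 < n →
          ∀ l : List ι, (∀ i ∈ l, (ℓ i).Prime ∧ ℓ i ∉ Sbad) → ∀ ν : ℕ, 0 < ν →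
            ∃ φ ∈ etaPart (thetaN
                ((k5lcExpr ℓ (fun i => ((Y.W.apOfModel (ℓ i) : ℤ) : Y.O)) n l).eval N M) ℓ₀
                (Y.O ⧸ maximalIdeal Y.O ^ ν) (⊤ : Subgroup (ZMod M)ˣ)), φ ≠ 0 := by
  obtain ⟨Sbad, h1, h2, h3, h4⟩ := k5nz_setup Y hmod
  refine ⟨Sbad, h1, h2, h3, fun S₀ => ?_⟩
  obtain ⟨ℓ₀, hℓ₀, hℓ₀S, -, -, hne, -⟩ := rthk_r_nonEis Y hcheb (S₀ ∪ Sbad)
  rw [Finset.mem_union, not_or] at hℓ₀S
  refine ⟨ℓ₀, hℓ₀, hℓ₀S.1, hℓ₀S.2, hne, fun M _ _ ι ℓ n hn l hl ν hν => ?_⟩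
  obtain ⟨φ, hφ, hφ0, -⟩ := h4 M ℓ n hn l hl ℓ₀ hℓ₀ hℓ₀S.2 hne ν hν
  exact ⟨φ, hφ, hφ0⟩

end setup

end Fermat.Agent.RT.K5

end


end ZBRT_087_11

/-! ### bundled: `Fermat.Agent.RT.K5.NZIntr` -/
section ZBRT_087_12

/-!
# K-machine, piece K5-NZ (helper46), INTRINSIC form

The expression `e` of the contract is chosen by `k5in_exists_expr2` (helper7) and is only known
through its intrinsic description `K5inIntr` (the part of the `η_{ℓ₀}`-part on which all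
`T_ℓ − a_ℓ`, `ℓ ∉ S₀ ∪ S`, are nilpotent).  So K5-NZ is needed in the form: ONE nonzero parabolic
`φ ∈ Hom(Γ₀(N), 𝒪 ⧸ 𝔪 ^ ν)` which is a joint eigenvector of ALL `T_ℓ`, `ℓ ∉ Sbad`, with
eigenvalues `a_ℓ(Y.W)`:

* `k5nz_mem_ker` : an eigenvector of `T_ℓ` lies in `k5lcKer (T_ℓ − a)`;
* `k5nz_mem_etaS` : an eigenvector of `T_ℓ₀` with `a − (ℓ₀ + 1)` a unit lies in the `η_{ℓ₀}`-part;
* `k5nz_setup_intr` : the setup form (same `Sbad` as `k5nz_setup`): `φ ≠ 0`, parabolic, eigen for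
  all `ℓ ∉ Sbad`, in every `k5lcKer`, in the `η_{ℓ₀}`-part for every non-Eisenstein `ℓ₀ ∉ Sbad`,
  and in the `Θ_{e, ℓ₀}`-part for every expression `e` in the `T_ℓ`, `ℓ ∉ Sbad`, with unit value.
-/

set_option autoImplicit false
set_option linter.style.haveILetI false
set_option linter.unusedSectionVars false
set_option linter.unusedVariables false

noncomputable section

namespace Fermat.Agent.RT.K5

open CongruenceSubgroup Matrix ModularCurve ModularCurve.Period ModularFormClass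
open scoped MatrixGroups
open Fermat.Agent.ES1 (gammaH diamHom pmH)
open Fermat.Agent.ES Fermat.Agent.RT.Base Fermat.Agent.RT Fermat.Agent.RT.Prod IsLocalRing

section abs

variable {𝒪 : Type} [CommRing 𝒪] {L M : ℕ} [NeZero L] [hML : Fact (M ∣ L)] {A : Type}
  [AddCommGroup A] [Module 𝒪 A] (K : Subgroup (ZMod M)ˣ)

/-- an eigenvector of `T_ℓ` lies in the generalised kernel of `T_ℓ − a` -/
theorem k5nz_mem_ker (φ : HomS (gammaH L M K) A) (ℓ : ℕ) [NeZero ℓ] (a : 𝒪)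
    (hφ : tS L M ℓ K A φ = a • φ) : φ ∈ k5lcKer (k5lcS L M ℓ a A K) := by
  refine ⟨1, ?_⟩
  rw [k5s_pow_succ, k5s_pow_zero, k5lcS_apply, hφ, sub_self]

/-- an eigenvector of `T_ℓ₀` with `a − (ℓ₀ + 1)` a unit lies in the `η_{ℓ₀}`-part -/
theorem k5nz_mem_etaS (φ : HomS (gammaH L M K) A) (ℓ₀ : ℕ) [NeZero ℓ₀] (a : 𝒪)
    (hφ : tS L M ℓ₀ K A φ = a • φ) (hu : IsUnit (a - ((ℓ₀ : 𝒪) + 1))) :
    φ ∈ etaPart (etaS L M ℓ₀ K A) := by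
  have h := k5nz_mem_etaPart (L := L) (M := M) (A := A) K {ℓ₀} (fun _ => a) φ
    (fun ℓ hℓ _ => by
      obtain rfl : ℓ = ℓ₀ := hℓ
      convert hφ) (HExpr.one : HExpr 𝒪) trivial ℓ₀ rfl
    (by
      show IsUnit ((1 : 𝒪) * (a - ((ℓ₀ : 𝒪) + 1)))
      rw [one_mul]
      exact hu)
  exact h

end abs

section setup

variable {P : FreyPackage} {N q : ℕ} [NeZero N]

/-- **K5-NZ over a setup, intrinsic form.**  There is a finite set `Sbad ∋ p` of primes,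
containing the primes of `N` and the bad primes of `Y.W`, such that for every `ν ≥ 1` there is a
nonzero parabolic `φ ∈ Hom(Γ₀(N), 𝒪 ⧸ 𝔪 ^ ν)` which is an eigenvector of every `T_ℓ`, `ℓ ∉ Sbad`,
with eigenvalue `a_ℓ(Y.W)`; so it lies in every generalised kernel of `T_ℓ − a_ℓ`, in the
`η_{ℓ₀}`-part for every non-Eisenstein prime `ℓ₀ ∉ Sbad`, and in the `Θ_{e, ℓ₀}`-part for every
expression `e` in the `T_ℓ` (`ℓ ∉ Sbad`) whose value at the eigensystem is a unit. -/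
theorem k5nz_setup_intr (Y : KSetup P N q) (hmod : P.ModularRepOfLevel N) :
    ∃ Sbad : Finset ℕ, P.p ∈ Sbad ∧ (∀ ℓ : ℕ, ℓ.Prime → ℓ ∣ N → ℓ ∈ Sbad) ∧
      (∀ ℓ : ℕ, ℓ.Prime → ℓ ∉ Sbad → Y.W.IsGoodPrimeFor ℓ) ∧
      ∀ (M : ℕ) [Fact (M ∣ N)] (ν : ℕ), 0 < ν →
        ∃ φ : HomS (gammaH N M (⊤ : Subgroup (ZMod M)ˣ)) (Y.O ⧸ maximalIdeal Y.O ^ ν),
          φ ≠ 0 ∧ IsParabolicHom (gammaH N M (⊤ : Subgroup (ZMod M)ˣ)) φ ∧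
          (∀ (ℓ : ℕ) [NeZero ℓ], ℓ.Prime → ℓ ∉ Sbad →
            tS N M ℓ ⊤ (Y.O ⧸ maximalIdeal Y.O ^ ν) φ = ((Y.W.apOfModel ℓ : ℤ) : Y.O) • φ) ∧
          (∀ (ℓ : ℕ) [NeZero ℓ], ℓ.Prime → ℓ ∉ Sbad →
            φ ∈ k5lcKer (k5lcS N M ℓ ((Y.W.apOfModel ℓ : ℤ) : Y.O)
              (Y.O ⧸ maximalIdeal Y.O ^ ν) ⊤)) ∧
          ∀ (ℓ₀ : ℕ) [NeZero ℓ₀], ℓ₀.Prime → ℓ₀ ∉ Sbad →
            ((Y.W.apOfModel ℓ₀ : ℤ) : ResidueField Y.O) ≠ (ℓ₀ : ResidueField Y.O) + 1 →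
            φ ∈ etaPart (etaS N M ℓ₀ ⊤ (Y.O ⧸ maximalIdeal Y.O ^ ν)) ∧
            ∀ e : HExpr Y.O, k5nzIn {ℓ : ℕ | ℓ.Prime ∧ ℓ ∉ Sbad} e →
              IsUnit (k5nzVal (fun ℓ => ((Y.W.apOfModel ℓ : ℤ) : Y.O)) e) →
              φ ∈ etaPart (thetaN (e.eval N M) ℓ₀ (Y.O ⧸ maximalIdeal Y.O ^ ν)
                (⊤ : Subgroup (ZMod M)ˣ)) := by
  obtain ⟨f, W', 𝔪, hf, hW', h𝔪max, hp𝔪, hcong⟩ := hmod
  haveI : Fact P.p.Prime := ⟨P.pp⟩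
  refine ⟨k5nzBad Y W', Finset.mem_insert_self _ _, fun ℓ hℓ hℓN => ?_, fun ℓ hℓ hℓS =>
    (k5nz_not_mem_bad Y W' hW' hℓ hℓS).2.2.2, ?_⟩
  · exact Finset.mem_insert_of_mem (Finset.mem_union_left _ (Finset.mem_union_left _
      (Nat.mem_primeFactors.mpr ⟨hℓ, hℓN, NeZero.ne N⟩)))
  intro M _ ν hν
  have key : ∀ x : ℕ, x.Prime → x ∉ k5nzBad Y W' → x.Prime ∧ ¬ x ∣ N ∧ x ≠ P.p ∧
      ∃ z ∈ 𝔪, (z : ℂ) = qCoeff ⇑f x - ((Y.W.apOfModel x : ℤ) : ℂ) := by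
    intro x hx hxS
    obtain ⟨h1, h2, h3, h4⟩ := k5nz_not_mem_bad Y W' hW' hx hxS
    obtain ⟨a, ha, ha𝔪⟩ := hcong x hx h3 h2 h1
    obtain ⟨k, hk⟩ := k5nz_model_cong P.freyCurve (k5nz_freyCurve_Δ P) W' Y.W hW' Y.hW P.pp hx
      h1 h3 h4
    refine ⟨hx, h2, h1, a - ((Y.W.apOfModel x : ℤ) : Zbar), ?_, ?_⟩
    · have hk' : ((W'.apOfModel x : ℤ) : Zbar) - ((Y.W.apOfModel x : ℤ) : Zbar)
          = (P.p : Zbar) * ((k : ℤ) : Zbar) := by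
        rw [← Int.cast_sub, hk]
        push_cast
        ring
      have e : a - ((Y.W.apOfModel x : ℤ) : Zbar)
          = (a - ((W'.apOfModel x : ℤ) : Zbar)) + (P.p : Zbar) * ((k : ℤ) : Zbar) := by
        rw [← hk']
        ring
      rw [e]
      exact 𝔪.add_mem ha𝔪 (𝔪.mul_mem_right _ hp𝔪)
    · rw [← ha]
      push_cast
      rfl
  obtain ⟨y, hy, hpy⟩ := k5nz_exists_order (𝒪 := Y.O) P.p Y.hyp.hp𝒪 ν hν
  obtain ⟨φ, hφ0, hφP, hφ⟩ := k5nz_eigen (N := N) (M := M) (p := P.p) f hf 𝔪 h𝔪max.ne_top hp𝔪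
    (Y.O ⧸ maximalIdeal Y.O ^ ν) y hy hpy
  have heig : ∀ (ℓ : ℕ) [NeZero ℓ], ℓ.Prime → ℓ ∉ k5nzBad Y W' →
      tS N M ℓ ⊤ (Y.O ⧸ maximalIdeal Y.O ^ ν) φ = ((Y.W.apOfModel ℓ : ℤ) : Y.O) • φ := by
    intro ℓ _ hℓ hℓS
    obtain ⟨h1, h2, h3, h4⟩ := key ℓ hℓ hℓS
    rw [hφ ℓ h1 h2 h3 (Y.W.apOfModel ℓ) h4, Int.cast_smul_eq_zsmul]
  refine ⟨φ, hφ0, hφP, heig, fun ℓ _ hℓ hℓS => k5nz_mem_ker ⊤ φ ℓ _ (heig ℓ hℓ hℓS),
    fun ℓ₀ _ hℓ₀ hℓ₀S hne => ?_⟩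
  have hne' : IsUnit (((Y.W.apOfModel ℓ₀ : ℤ) : Y.O) - ((ℓ₀ : Y.O) + 1)) := by
    by_contra hnu
    apply hne
    have h0 := (residue_eq_zero_iff _).mpr ((mem_maximalIdeal _).mpr hnu)
    rw [map_sub, map_add, map_one, map_intCast, map_natCast, sub_eq_zero] at h0
    exact h0
  refine ⟨k5nz_mem_etaS ⊤ φ ℓ₀ _ (heig ℓ₀ hℓ₀ hℓ₀S) hne', fun e he hu => ?_⟩
  exact k5nz_mem_etaPart ⊤ {ℓ : ℕ | ℓ.Prime ∧ ℓ ∉ k5nzBad Y W'}
    (fun ℓ => ((Y.W.apOfModel ℓ : ℤ) : Y.O)) φ (fun ℓ hℓ _ => heig ℓ hℓ.1 hℓ.2) e he ℓ₀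
    ⟨hℓ₀, hℓ₀S⟩ (hu.mul hne')

end setup

end Fermat.Agent.RT.K5

end


end ZBRT_087_12

/-! ### bundled: `Fermat.Agent.RT.Hecke.ConcK5` -/
section ZBRT_087_13

/-!
# K-machine, HECKE-asm, HK-CONC: the K5 side `StmtHkfK5'` from the FAMILY leaf (helper22)

* `StmtHkK5F` : the FAMILY leaf = the last clause of `StmtHkfK5'` from the base data
  (`S₀`, `e₀`, `ℓ₀₀`, the intrinsic description `K5inIntr` at all levels, a basis `c` whose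
  reductions are bases at all levels);
* `rthkk5_at` : for every squarefree `M₀ ∣ N`, the body of `StmtHkfK5'` at the base level
  `(N, M₀, ⊤)` : the base data are
  - `S₀ = Sbad` of `k5nz_setup_intr`, `ℓ₀₀` a non-Eisenstein prime (`rthk_r_nonEis`),
  - `e₀` the projector of K5-LOC (`k5in_exists_expr`), `(r, c)` the basis of K5-BASE (`k5bs_base`),
  - `0 < r` (K5-NZ), the residual relations (`k5in_nil_frob`), `HkBase` (`rthkcb_hkBase`),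
  - `a ℓ` = the matrix of `T_ℓ` in the basis `c`;
* `rthkk5_of_family : StmtFlatH → StmtHkK5F → StmtHkfK5'`.
-/

set_option autoImplicit false
set_option linter.unusedSectionVars false
set_option linter.style.haveILetI false
set_option linter.unusedVariables false

noncomputable section

namespace Fermat.Agent.RT

open IsLocalRing Fermat.Agent.ES Fermat.Agent.ES1 Fermat.Agent.RT.K5 Fermat.Agent.S48
open Fermat.Agent.S30 Fermat.Agent.W1 Fermat.Agent.TW Fermat.Agent.RT.Prod Fermat.Agent.RT.K7F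
open ExtCitation CongruenceSubgroup ModularCurve.Period
open scoped MatrixGroups

/-- **The FAMILY leaf of the K5 side**: for every Taylor–Wiles family an admissible pair
`(e, ℓ₀)` avoiding the family, with `K5TWCond`, whose `Θ`-part at the level `n + 1` has the
reduction of the base basis `c` as a basis. -/
def StmtHkK5F : Prop :=
  ∀ (P : FreyPackage) (N q : ℕ) [NeZero N], P.IsConductorLevel N → ¬ P.p ∣ N → q.Prime →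
    q ≠ 2 → q ∣ N → P.ModularRepOfLevel N →
    ∀ (Y : KSetup P N q) (h : ℕ) (M₀ : ℕ) [NeZero M₀] [Fact (M₀ ∣ N)] (S₀ : Finset ℕ),
      P.p ∈ S₀ → (∀ ℓ : ℕ, ℓ.Prime → ℓ ∣ N → ℓ ∈ S₀) →
      (∀ ℓ : ℕ, ℓ.Prime → ℓ ∉ S₀ → Y.W.IsGoodPrimeFor ℓ) →
      ∀ (e₀ : HExpr Y.O), e₀.IsPrimes → ∀ (ℓ₀₀ : ℕ) [NeZero ℓ₀₀], ℓ₀₀.Prime → ℓ₀₀ ∉ S₀ →
      residue Y.O (rthkinA Y ℓ₀₀) ≠ (ℓ₀₀ : ResidueField Y.O) + 1 → ∀ (S₁ : Finset ℕ),
      (∀ n : ℕ, K5inIntr N M₀ (Y.O ⧸ maximalIdeal Y.O ^ n) (rthkinA Y) S₀ S₁ ℓ₀₀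
        (etaPart (thetaN (e₀.eval N M₀) ℓ₀₀ (Y.O ⧸ maximalIdeal Y.O ^ n) ⊤))) →
      ∀ {r : ℕ} (c : Fin r → HomS (gammaH N M₀ (⊤ : Subgroup (ZMod M₀)ˣ)) Y.O),
      (∀ n : ℕ, K5IsBasis (Y.O ⧸ maximalIdeal Y.O ^ n)
        (etaPart (thetaN (e₀.eval N M₀) ℓ₀₀ (Y.O ⧸ maximalIdeal Y.O ^ n) ⊤))
        (fun i => mapS (Submodule.mkQ (maximalIdeal Y.O ^ n)).toAddMonoidHom (c i))) →
      ∀ (n : ℕ) (qv : Fin h → ℕ),
        IsTWFamily P.p Y.ρbar (Y.Smin ∪ Finset.univ.image Y.r) n h qv →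
        ∃ (e : HExpr Y.O) (ℓ₀ : ℕ) (_ : NeZero ℓ₀), e.IsPrimes ∧ ℓ₀.Prime ∧ ¬ ℓ₀ ∣ N ∧
          ℓ₀ ≠ P.p ∧ (∀ j, qv j ≠ ℓ₀ ∧ e.Avoids (qv j)) ∧
          K5TWCond Y.O N M₀ ℓ₀ e (List.ofFn qv) (RthkdC Y.O (n + 1)) ∧
          K5IsBasis (RthkdC Y.O (n + 1))
            (etaPart (thetaN (e.eval N M₀) ℓ₀ (RthkdC Y.O (n + 1)) ⊤))
            (fun i => mapS (Submodule.mkQ (maximalIdeal Y.O ^ (n + 1))).toAddMonoidHom
              (c i))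

section base

variable {P : FreyPackage} {N q : ℕ} [NeZero N]

/-- the primes of `N p` -/
theorem rthkk5_p_mem (hp : P.p.Prime) : P.p ∈ (N * P.p).primeFactors :=
  Nat.mem_primeFactors.mpr ⟨hp, Dvd.intro_left N rfl,
    mul_ne_zero (NeZero.ne N) hp.ne_zero⟩

theorem rthkk5_N_mem (hp : P.p.Prime) (ℓ : ℕ) (hℓ : ℓ.Prime) (hℓN : ℓ ∣ N) :
    ℓ ∈ (N * P.p).primeFactors :=
  Nat.mem_primeFactors.mpr ⟨hℓ, Dvd.dvd.mul_right hℓN _,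
    mul_ne_zero (NeZero.ne N) hp.ne_zero⟩

theorem rthkk5_not_mem (ℓ : ℕ) (hℓN : ¬ ℓ ∣ N * P.p) : ℓ ∉ (N * P.p).primeFactors :=
  fun h => hℓN (Nat.mem_primeFactors.mp h).2.1

/-- the coefficients `𝒪 ⧸ 𝔪 ^ n` are finite -/
theorem rthkk5_finite (Y : KSetup P N q) (n : ℕ) : Finite (Y.O ⧸ maximalIdeal Y.O ^ n) := by
  haveI : Finite (Y.O ⧸ maximalIdeal Y.O) :=
    (inferInstance : Finite (IsLocalRing.ResidueField Y.O))
  exact Ideal.finite_quotient_pow (IsNoetherian.noetherian _) n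

/-- **the residual relations at the base level** (K5-INDEP) -/
theorem rthkk5_resid (hcheb : Cheb.WeakChebotarev) (hcond : P.IsConductorLevel N)
    (Y : KSetup P N q) (M₀ : ℕ) [NeZero M₀] [Fact (M₀ ∣ N)] (S₀ : Finset ℕ)
    (hpS : P.p ∈ S₀) (hNS : ∀ ℓ : ℕ, ℓ.Prime → ℓ ∣ N → ℓ ∈ S₀)
    (hgood : ∀ ℓ : ℕ, ℓ.Prime → ℓ ∉ S₀ → Y.W.IsGoodPrimeFor ℓ)
    (e₀ : HExpr Y.O) (he₀ : e₀.IsPrimes) (ℓ₀₀ : ℕ) [NeZero ℓ₀₀] (hℓ₀₀ : ℓ₀₀.Prime)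
    (hℓ₀₀S : ℓ₀₀ ∉ S₀) (S₁ : Finset ℕ)
    (hNT : NoTors (gammaH N M₀ (⊤ : Subgroup (ZMod M₀)ˣ)) (Y.O ⧸ maximalIdeal Y.O ^ 1))
    (hIntr₀ : K5inIntr N M₀ (Y.O ⧸ maximalIdeal Y.O ^ 1) (rthkinA Y) S₀ S₁ ℓ₀₀
      (etaPart (thetaN (e₀.eval N M₀) ℓ₀₀ (Y.O ⧸ maximalIdeal Y.O ^ 1) ⊤))) :
    RthkcbResid P.p Y.ρbar N M₀ (e₀.eval N M₀) ℓ₀₀ := by
  haveI : Fact P.p.Prime := ⟨P.pp⟩
  intro ℓ _ hℓ hℓN 𝔄 h𝔄 τ hτ
  haveI : Finite (Y.O ⧸ maximalIdeal Y.O ^ 1) := rthkk5_finite Y 1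
  have hℓ₀₀N : ¬ ℓ₀₀ ∣ N := fun hd => hℓ₀₀S (hNS ℓ₀₀ hℓ₀₀ hd)
  have hℓ₀₀p : ℓ₀₀ ≠ P.p := fun h => hℓ₀₀S (h ▸ hpS)
  exact k5in_nil_frob hcheb
    (rthkin_data Y.hyp.hp𝒪 e₀ he₀ ℓ₀₀ hℓ₀₀ hℓ₀₀N hcond.squarefree Y.hyp.hp2 hℓ₀₀p 1 hNT)
    (rthkin_res Y S₀ hpS hNS hgood) S₁
    (fun ℓ' _ hℓ' h1 h2 v hv => ((hIntr₀ v).mp hv).2 ℓ' hℓ' h1 h2) ℓ hℓ hℓN 𝔄 h𝔄 τ hτ

/-- **the K5 side at the base level `(N, M₀, ⊤)`**, `M₀ ∣ N` squarefree, from the FAMILY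
leaf. -/
theorem rthkk5_at (hF : StmtHkK5F) (hcheb : Cheb.WeakChebotarev) (hflat : StmtFlatH)
    (hcond : P.IsConductorLevel N) (hpN : ¬ P.p ∣ N) (hq : q.Prime) (hq2 : q ≠ 2)
    (hqN : q ∣ N) (hmod : P.ModularRepOfLevel N) (Y : KSetup P N q) (h : ℕ)
    (M₀ : ℕ) [iM₀ : NeZero M₀] [iM₀N : Fact (M₀ ∣ N)] (hsq : Squarefree M₀) :
    haveI : Fact P.p.Prime := ⟨P.pp⟩
    ∃ (r : ℕ) (_ : 0 < r)
      (c : Fin r → HomS (gammaH N M₀ (⊤ : Subgroup (ZMod M₀)ˣ)) Y.O)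
      (a : ℕ → Matrix (Fin r) (Fin r) Y.O)
      (S' : Finset ℕ) (_ : P.p ∈ S') (_ : ∀ ℓ : ℕ, ℓ.Prime → ℓ ∣ N → ℓ ∈ S')
      (𝕋₀ : Type) (_ : CommRing 𝕋₀) (J₀ : Type) (_ : AddCommGroup J₀) (_ : Module 𝕋₀ J₀)
      (_ : DistribMulAction GQ J₀) (Tr₀ : ℕ → 𝕋₀)
      (Φ0 : 𝕋₀ →+* Matrix (Fin (2 ^ h * r)) (Fin (2 ^ h * r)) Y.O),
      HkBase P.p Y.ρbar N S' (2 ^ h * r) J₀ Tr₀ Φ0 ∧
      (∀ ℓ : ℕ, ℓ.Prime → ¬ ℓ ∣ N * P.p → ℓ ∉ S') ∧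
      (∀ (ℓ : ℕ) [NeZero ℓ], ℓ.Prime → ¬ ℓ ∣ N * P.p →
        (∀ i', tS N M₀ ℓ ⊤ Y.O (c i') = ∑ i, a ℓ i i' • c i) ∧
          Φ0 (Tr₀ ℓ) = rthkcbBlock Y.O h r (a ℓ)) ∧
      ∀ (n : ℕ) (qv : Fin h → ℕ),
        IsTWFamily P.p Y.ρbar (Y.Smin ∪ Finset.univ.image Y.r) n h qv →
        ∃ (e : HExpr Y.O) (ℓ₀ : ℕ) (_ : NeZero ℓ₀), e.IsPrimes ∧ ℓ₀.Prime ∧ ¬ ℓ₀ ∣ N ∧
          ℓ₀ ≠ P.p ∧ (∀ j, qv j ≠ ℓ₀ ∧ e.Avoids (qv j)) ∧
          K5TWCond Y.O N M₀ ℓ₀ e (List.ofFn qv) (RthkdC Y.O (n + 1)) ∧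
          K5IsBasis (RthkdC Y.O (n + 1))
            (etaPart (thetaN (e.eval N M₀) ℓ₀ (RthkdC Y.O (n + 1)) ⊤))
            (fun i => mapS (Submodule.mkQ (maximalIdeal Y.O ^ (n + 1))).toAddMonoidHom
              (c i)) := by
  haveI : Fact P.p.Prime := ⟨P.pp⟩
  -- the bad set and the nonzero eigenvector
  obtain ⟨S₀, hpS, hNS, hgood, hnz⟩ := k5nz_setup_intr Y hmod
  -- the auxiliary prime
  obtain ⟨ℓ₀₀, hℓ₀₀, hℓ₀₀S, hℓ₀₀p, -, hne, -⟩ := rthk_r_nonEis Y hcheb S₀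
  haveI : NeZero ℓ₀₀ := ⟨hℓ₀₀.ne_zero⟩
  have hℓ₀₀N : ¬ ℓ₀₀ ∣ N := fun hd => hℓ₀₀S (hNS ℓ₀₀ hℓ₀₀ hd)
  have hne' : residue Y.O (rthkinA Y ℓ₀₀) ≠ (ℓ₀₀ : ResidueField Y.O) + 1 := by
    have e : residue Y.O (rthkinA Y ℓ₀₀) = ((Y.W.apOfModel ℓ₀₀ : ℤ) : ResidueField Y.O) :=
      map_intCast (residue Y.O) _
    rw [e]
    exact hne
  have hNT : ∀ n : ℕ, NoTors (gammaH N M₀ (⊤ : Subgroup (ZMod M₀)ˣ))
      (Y.O ⧸ maximalIdeal Y.O ^ n) :=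
    fun n => k5nt_noTors_quot P.pp P.hp5 Y.hyp.hp𝒪 _ n
  -- the projector
  obtain ⟨e₀, he₀, -, hIntr₀⟩ := k5in_exists_expr N M₀ (rthkinA Y) S₀ ∅ ℓ₀₀ hℓ₀₀ hℓ₀₀N hNT
  -- the basis
  have hyp : FreeHyp P.p Y.O N M₀ ℓ₀₀ ⊤ ⊤ 0 :=
    k5bs_freeHyp_top P.p Y.O N M₀ ℓ₀₀ Y.hyp.hp2 Y.hyp.hp𝒪 hℓ₀₀ hℓ₀₀N hNT
  obtain ⟨r, c, hc, hcn⟩ := k5bs_base P.p Y.O N M₀ ℓ₀₀ hyp (e₀.eval N M₀)
  -- the rank is positive
  have hr : 0 < r := by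
    obtain ⟨φ, hφ0, -, -, hker, heta⟩ := hnz M₀ 1 one_pos
    refine k5nz_rank_pos (hcn 1) ((hIntr₀ 1 φ).mpr
      ⟨(heta ℓ₀₀ hℓ₀₀ hℓ₀₀S hne).1, fun ℓ _ hℓ h1 _ => hker ℓ hℓ h1⟩) hφ0
  -- the residual relations
  have hres : RthkcbResid P.p Y.ρbar N M₀ (e₀.eval N M₀) ℓ₀₀ :=
    rthkk5_resid hcheb hcond Y M₀ S₀ hpS hNS hgood e₀ he₀ ℓ₀₀ hℓ₀₀ hℓ₀₀S ∅ (hNT 1)
      (hIntr₀ 1)
  -- the finite flat models
  have hN2 : 2 ≤ N :=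
    le_trans hq.two_le (Nat.le_of_dvd (Nat.pos_of_ne_zero (NeZero.ne N)) hqN)
  have hp5 := P.hp5
  have hlev : K7FLevel N M₀ (⊤ : Subgroup (ZMod M₀)ˣ) P.p :=
    rthkp_level ⊤ P.p 0 hN2 iM₀N.out Y.hyp.hp2 hpN (fun h3 => by omega) hsq
      (fun c => le_pmH ⊤ (Subgroup.mem_top _))
  have hmodel := rthkp_model (⊤ : Subgroup (ZMod M₀)ˣ) P.p hflat hlev 1
  -- the base
  have hbase := rthkcb_hkBase (p := P.p) Y.ρbar ((N * P.p).primeFactors)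
    (rthkk5_p_mem P.pp) (rthkk5_N_mem P.pp) (k7ftwChar M₀ 1)
    (es1inftw_char_k7f P.p 1 iM₀N.out) hmodel hcond.squarefree e₀ he₀ ℓ₀₀ hℓ₀₀ hℓ₀₀N hc
    (hcn 1) hres h
  refine ⟨r, hr, c,
    fun ℓ => LinearMap.toMatrix (rthkcbBasis hc) (rthkcbBasis hc)
      (rthkcbAct (rthkcb_stab (p := P.p) e₀ he₀ ℓ₀₀ hℓ₀₀ hℓ₀₀N Y.O) (es1inftwTr M₀ 1 ℓ)),
    (N * P.p).primeFactors, rthkk5_p_mem P.pp, rthkk5_N_mem P.pp, HDAlg M₀, inferInstance,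
    es1inftwJ N M₀ ⊤ P.p (k7ftwChar M₀ 1), inferInstance, inferInstance, inferInstance,
    es1inftwTr M₀ 1, _, hbase, fun ℓ _ hℓN => rthkk5_not_mem ℓ hℓN, ?_, ?_⟩
  · intro ℓ _ hℓ hℓN
    refine ⟨fun i' => ?_, rfl⟩
    rw [rthkcb_tS_eq (rthkcb_stab (p := P.p) e₀ he₀ ℓ₀₀ hℓ₀₀ hℓ₀₀N Y.O) hc h ℓ hℓ hℓN
      ⟨0, pow_pos two_pos h⟩ i']
    refine Finset.sum_congr rfl fun i _ => ?_
    rw [rthkcbPhi_apply, if_pos rfl]
    show _ = (LinearMap.toMatrix (rthkcbBasis hc) (rthkcbBasis hc)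
      (rthkcbAct (rthkcb_stab (p := P.p) e₀ he₀ ℓ₀₀ hℓ₀₀ hℓ₀₀N Y.O) (es1inftwTr M₀ 1 ℓ))) i i'
        • c i
    rw [LinearMap.toMatrix_apply]
  · intro n qv hqv
    exact hF P N q hcond hpN hq hq2 hqN hmod Y h M₀ S₀ hpS hNS hgood e₀ he₀ ℓ₀₀ hℓ₀₀
      hℓ₀₀S hne' ∅ hIntr₀ c hcn n qv hqv

end base

/-- **The K5 side `StmtHkfK5'` from the FAMILY leaf** (base level `(N, 1, ⊤)`). -/
theorem rthkk5_of_family (hflat : StmtFlatH) (hF : StmtHkK5F) : StmtHkfK5' := by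
  intro P N q _ hcond hpN hq hq2 hqN hirr hmod htriv Y h
  haveI : Fact P.p.Prime := ⟨P.pp⟩
  haveI iM₀ : NeZero (1 : ℕ) := ⟨one_ne_zero⟩
  haveI iM₀N : Fact ((1 : ℕ) ∣ N) := ⟨one_dvd N⟩
  obtain ⟨r, hr, c, a, S', hpS', hNS', 𝕋₀, i1, J₀, i2, i3, i4, Tr₀, Φ0, hbase, hS', hmat,
    hfam⟩ := rthkk5_at hF Fermat.Agent.Cheb.weakChebotarev_holds hflat hcond hpN hq hq2
      hqN hmod Y h 1 squarefree_one
  exact ⟨1, iM₀, iM₀N, r, hr, c, a, S', hpS', hNS', 𝕋₀, i1, J₀, i2, i3, i4, Tr₀, Φ0, hbase,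
    hS', hmat, fun n qv hqv _ _ _ => hfam n qv hqv⟩

end Fermat.Agent.RT

end


end ZBRT_087_13

/-! ### bundled: `Fermat.Agent.RT.Hecke.ConcK5Fam` -/
section ZBRT_087_14

/-!
# K-machine, HECKE-asm, HK-CONC, contract `StmtHkfK5'`: the FAMILY half (helper7)

The base half (helper22) chooses an admissible base pair `(e₀, ℓ₁)` — a Hecke expression and a
non-Eisenstein prime whose `Θ`-parts `X₀(n) ≤ Hom(Γ₀(N), 𝒪 ⧸ 𝔪 ^ n)` have the intrinsic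
description `K5inIntr` — and a family `c` in `Hom(Γ₀(N), 𝒪)` whose reductions are bases of the
`X₀(n)`.

`rthkk5f_family` : for every Taylor–Wiles family `qv` of level `n` there are a Hecke expression
`e` and a non-Eisenstein prime `ℓ₀`, both avoiding `qv`, such that
* the Taylor–Wiles condition `K5TWCond` holds on the `Θ_{e, ℓ₀}`-part with coefficients
  `𝒪 ⧸ 𝔪 ^ (n + 1)` (`k5in_twcond2`), and
* the `Θ_{e, ℓ₀}`-part is `X₀(n + 1)` (K5-INDEP, `k5in_indep`), so that the reductions of `c`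
  are a basis of it.
This is the last clause of `StmtHkfK5'` (RT/Hecke/ConcFinalB.lean).
-/

set_option autoImplicit false
set_option linter.unusedSectionVars false
set_option linter.style.haveILetI false
set_option linter.unusedVariables false

noncomputable section

namespace Fermat.Agent.RT

open IsLocalRing Fermat.Agent.ES Fermat.Agent.ES1 Fermat.Agent.RT.K5 Fermat.Agent.S48
open Fermat.Agent.TW Fermat.Agent.RT.Prod Fermat.Agent.S31 Fermat.Agent.RT.K7F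
open CongruenceSubgroup Polynomial
open scoped MatrixGroups

section family

variable {P : FreyPackage} {N q : ℕ} [NeZero N] (Y : KSetup P N q)

/-- the coefficient rings `𝒪 ⧸ 𝔪 ^ n` are finite -/
theorem rthkk5f_finite (n : ℕ) : Finite (RthkdC Y.O n) := by
  haveI : Finite (Y.O ⧸ IsLocalRing.maximalIdeal Y.O) :=
    (inferInstance : Finite (IsLocalRing.ResidueField Y.O))
  exact Ideal.finite_quotient_pow (IsNoetherian.noetherian _) n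

/-- the non-Eisenstein condition in the form of K5-INDEP -/
theorem rthkk5f_hne {ℓ : ℕ}
    (h : ((Y.W.apOfModel ℓ : ℤ) : ResidueField Y.O) ≠ (ℓ : ResidueField Y.O) + 1) :
    residue Y.O (rthkinA Y ℓ) ≠ (ℓ : ResidueField Y.O) + 1 := by
  have e : residue Y.O (rthkinA Y ℓ) = ((Y.W.apOfModel ℓ : ℤ) : ResidueField Y.O) :=
    map_intCast (residue Y.O) _
  rw [e]
  exact h

/-- **StmtHkfK5', the family half**, core form (one family, the base data at the level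
`n + 1` only). -/
theorem rthkk5f_core (hN : Squarefree N) (M₀ : ℕ) [NeZero M₀] [hM₀ : Fact (M₀ ∣ N)]
    (S₀ : Finset ℕ) (hpS : P.p ∈ S₀) (hNS : ∀ ℓ : ℕ, ℓ.Prime → ℓ ∣ N → ℓ ∈ S₀)
    (hgood : ∀ ℓ : ℕ, ℓ.Prime → ℓ ∉ S₀ → Y.W.IsGoodPrimeFor ℓ)
    (e₀ : HExpr Y.O) (he₀ : e₀.IsPrimes) (ℓ₁ : ℕ) [NeZero ℓ₁] (hℓ₁ : ℓ₁.Prime)
    (hℓ₁S : ℓ₁ ∉ S₀)
    (hne₁ : ((Y.W.apOfModel ℓ₁ : ℤ) : ResidueField Y.O) ≠ (ℓ₁ : ResidueField Y.O) + 1)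
    (S₁ : Finset ℕ) {r : ℕ}
    (c : Fin r → HomS (gammaH N M₀ (⊤ : Subgroup (ZMod M₀)ˣ)) Y.O)
    {h : ℕ} (n : ℕ) (qv : Fin h → ℕ)
    (hqv : IsTWFamily P.p Y.ρbar (Y.Smin ∪ Finset.univ.image Y.r) n h qv)
    (hIntr₁ : K5inIntr N M₀ (RthkdC Y.O (n + 1)) (rthkinA Y) S₀ S₁ ℓ₁
      (etaPart (thetaN (e₀.eval N M₀) ℓ₁ (RthkdC Y.O (n + 1)) ⊤)))
    (hc : K5IsBasis (RthkdC Y.O (n + 1))
      (etaPart (thetaN (e₀.eval N M₀) ℓ₁ (RthkdC Y.O (n + 1)) ⊤))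
      (fun i => mapS (Submodule.mkQ (maximalIdeal Y.O ^ (n + 1))).toAddMonoidHom (c i))) :
    ∃ (e : HExpr Y.O) (ℓ₀ : ℕ) (_ : NeZero ℓ₀), e.IsPrimes ∧ ℓ₀.Prime ∧ ¬ ℓ₀ ∣ N ∧
      ℓ₀ ≠ P.p ∧ (∀ j, qv j ≠ ℓ₀ ∧ e.Avoids (qv j)) ∧
      K5TWCond Y.O N M₀ ℓ₀ e (List.ofFn qv) (RthkdC Y.O (n + 1)) ∧
      K5IsBasis (RthkdC Y.O (n + 1))
        (etaPart (thetaN (e.eval N M₀) ℓ₀ (RthkdC Y.O (n + 1)) ⊤))
        (fun i => mapS (Submodule.mkQ (maximalIdeal Y.O ^ (n + 1))).toAddMonoidHom (c i)) := by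
  classical
  haveI : Fact P.p.Prime := ⟨P.pp⟩
  have hcheb := Cheb.weakChebotarev_holds
  have hp𝔪 : (P.p : Y.O) ∈ maximalIdeal Y.O := Y.hyp.hp𝒪
  obtain ⟨ℓ₀, hℓ₀, hℓ₀S, hℓ₀p, -, hne, -⟩ :=
    rthk_r_nonEis Y hcheb (S₀ ∪ Finset.univ.image qv)
  rw [Finset.mem_union, not_or] at hℓ₀S
  haveI : NeZero ℓ₀ := ⟨hℓ₀.ne_zero⟩
  have hℓ₀N : ¬ ℓ₀ ∣ N := fun hd => hℓ₀S.1 (hNS ℓ₀ hℓ₀ hd)
  have hℓ₁N : ¬ ℓ₁ ∣ N := fun hd => hℓ₁S (hNS ℓ₁ hℓ₁ hd)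
  have hℓ₁p : ℓ₁ ≠ P.p := fun h => hℓ₁S (h ▸ hpS)
  have hNT : ∀ m : ℕ, NoTors (gammaH N M₀ (⊤ : Subgroup (ZMod M₀)ˣ))
      (Y.O ⧸ IsLocalRing.maximalIdeal Y.O ^ m) :=
    fun m => k5nt_noTors_quot P.pp P.hp5 hp𝔪 _ m
  obtain ⟨e, he, hav, hIntr⟩ := k5in_exists_expr N M₀ (rthkinA Y) S₀ (Finset.univ.image qv)
    ℓ₀ hℓ₀ hℓ₀N hNT
  have R := rthkin_res Y S₀ hpS hNS hgood
  have D := rthkin_data hp𝔪 e he ℓ₀ hℓ₀ hℓ₀N hN Y.hyp.hp2 hℓ₀p (n + 1) (hNT (n + 1))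
  have D₁ := rthkin_data hp𝔪 e₀ he₀ ℓ₁ hℓ₁ hℓ₁N hN Y.hyp.hp2 hℓ₁p (n + 1) (hNT (n + 1))
  haveI : Finite (RthkdC Y.O (n + 1)) := rthkk5f_finite Y (n + 1)
  have hnil : ∀ (ℓ : ℕ) [NeZero ℓ], ℓ.Prime → ℓ ∉ S₀ → ℓ ∉ Finset.univ.image qv →
      ∀ v ∈ etaPart (thetaN (e.eval N M₀) ℓ₀ (RthkdC Y.O (n + 1)) ⊤),
        v ∈ k5lcKer (k5lcS N M₀ ℓ (rthkinA Y ℓ) (RthkdC Y.O (n + 1)) ⊤) :=
    fun ℓ _ hℓ h1 h2 v hv => ((hIntr (n + 1) v).mp hv).2 ℓ hℓ h1 h2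
  have hTW := k5in_twcond2 hcheb e ℓ₀ D R (Finset.univ.image qv) hnil (List.ofFn qv)
    (rthkin_tw_hQ hqv) (rthkin_tw_hQs hqv)
  have hX := k5in_indep hcheb D D₁ R (k5in_hA_quot (n + 1)) (Finset.univ.image qv) S₁
    hℓ₀ hℓ₁ hℓ₀S.1 hℓ₁S (rthkk5f_hne Y hne) (rthkk5f_hne Y hne₁) (hIntr (n + 1)) hIntr₁
  refine ⟨e, ℓ₀, inferInstance, he, hℓ₀, hℓ₀N, hℓ₀p, fun j => ⟨fun hj => ?_, ?_⟩, hTW, ?_⟩
  · exact hℓ₀S.2 (hj ▸ Finset.mem_image_of_mem qv (Finset.mem_univ j))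
  · exact hav (qv j) (Or.inr (Finset.mem_image_of_mem qv (Finset.mem_univ j)))
  · rw [hX]
    exact hc

/-- **StmtHkfK5', the family half** (= the last clause of `StmtHkfK5'`, in the interface of the
base half, helper22). -/
theorem rthkk5f_family (hcheb : Cheb.WeakChebotarev) (hcond : P.IsConductorLevel N)
    (hpN : ¬ P.p ∣ N) (hq : q.Prime) (hq2 : q ≠ 2) (hqN : q ∣ N)
    (hmod : P.ModularRepOfLevel N) (h : ℕ)
    (M₀ : ℕ) [NeZero M₀] [hM₀ : Fact (M₀ ∣ N)]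
    (S₀ : Finset ℕ) (hpS : P.p ∈ S₀) (hNS : ∀ ℓ : ℕ, ℓ.Prime → ℓ ∣ N → ℓ ∈ S₀)
    (hgood : ∀ ℓ : ℕ, ℓ.Prime → ℓ ∉ S₀ → Y.W.IsGoodPrimeFor ℓ)
    (e₀ : HExpr Y.O) (he₀ : e₀.IsPrimes) (ℓ₀₀ : ℕ) [NeZero ℓ₀₀] (hℓ₀₀ : ℓ₀₀.Prime)
    (hℓ₀₀S : ℓ₀₀ ∉ S₀)
    (hne₀ : residue Y.O (rthkinA Y ℓ₀₀) ≠ (ℓ₀₀ : ResidueField Y.O) + 1) (S₁ : Finset ℕ)
    (hIntr₀ : ∀ n : ℕ, K5inIntr N M₀ (Y.O ⧸ maximalIdeal Y.O ^ n) (rthkinA Y) S₀ S₁ ℓ₀₀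
      (etaPart (thetaN (e₀.eval N M₀) ℓ₀₀ (Y.O ⧸ maximalIdeal Y.O ^ n) ⊤)))
    {r : ℕ} (c : Fin r → HomS (gammaH N M₀ (⊤ : Subgroup (ZMod M₀)ˣ)) Y.O)
    (hcn : ∀ n : ℕ, K5IsBasis (Y.O ⧸ maximalIdeal Y.O ^ n)
      (etaPart (thetaN (e₀.eval N M₀) ℓ₀₀ (Y.O ⧸ maximalIdeal Y.O ^ n) ⊤))
      (fun i => mapS (Submodule.mkQ (maximalIdeal Y.O ^ n)).toAddMonoidHom (c i))) :
    ∀ (n : ℕ) (qv : Fin h → ℕ),
      IsTWFamily P.p Y.ρbar (Y.Smin ∪ Finset.univ.image Y.r) n h qv →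
      ∃ (e : HExpr Y.O) (ℓ₀ : ℕ) (_ : NeZero ℓ₀), e.IsPrimes ∧ ℓ₀.Prime ∧ ¬ ℓ₀ ∣ N ∧
        ℓ₀ ≠ P.p ∧ (∀ j, qv j ≠ ℓ₀ ∧ e.Avoids (qv j)) ∧
        K5TWCond Y.O N M₀ ℓ₀ e (List.ofFn qv) (RthkdC Y.O (n + 1)) ∧
        K5IsBasis (RthkdC Y.O (n + 1))
          (etaPart (thetaN (e.eval N M₀) ℓ₀ (RthkdC Y.O (n + 1)) ⊤))
          (fun i => mapS (Submodule.mkQ (maximalIdeal Y.O ^ (n + 1))).toAddMonoidHom
            (c i)) := by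
  intro n qv hqv
  have hne₁ : ((Y.W.apOfModel ℓ₀₀ : ℤ) : ResidueField Y.O) ≠ (ℓ₀₀ : ResidueField Y.O) + 1 := by
    have e : residue Y.O (rthkinA Y ℓ₀₀) = ((Y.W.apOfModel ℓ₀₀ : ℤ) : ResidueField Y.O) :=
      map_intCast (residue Y.O) _
    rw [← e]
    exact hne₀
  exact rthkk5f_core Y hcond.squarefree M₀ S₀ hpS hNS hgood e₀ he₀ ℓ₀₀ hℓ₀₀ hℓ₀₀S hne₁ S₁ c n qv
    hqv (hIntr₀ (n + 1)) (hcn (n + 1))

end family

end Fermat.Agent.RT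

end


end ZBRT_087_14

/-! ### bundled: `Fermat.Agent.RT.Hecke.ConcK5Fin` -/
section ZBRT_087_15

/-!
# K-machine, HECKE-asm, HK-CONC: the K5 side `StmtHkfK5'` from K7-FLAT alone (helper22)

* `stmtHkK5F : StmtHkK5F` : the FAMILY leaf (helper7's `rthkk5f_family`);
* `rthkk5_main : StmtFlatH → StmtHkfK5'` : the K5 side of the concrete module side.
-/

set_option autoImplicit false
set_option linter.unusedSectionVars false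
set_option linter.style.haveILetI false
set_option linter.unusedVariables false

noncomputable section

namespace Fermat.Agent.RT

open IsLocalRing Fermat.Agent.ES Fermat.Agent.ES1 Fermat.Agent.RT.K5 Fermat.Agent.S48
open Fermat.Agent.S30 Fermat.Agent.W1 Fermat.Agent.TW Fermat.Agent.RT.Prod Fermat.Agent.RT.K7F
open ExtCitation CongruenceSubgroup ModularCurve.Period
open scoped MatrixGroups

/-- **The FAMILY leaf** (helper7). -/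
theorem stmtHkK5F : StmtHkK5F :=
  fun P N q _ hcond hpN hq hq2 hqN hmod Y h M₀ _ _ S₀ hpS hNS hgood e₀ he₀ ℓ₀₀ _ hℓ₀₀ hℓ₀₀S
      hne S₁ hIntr _ c hcn =>
    rthkk5f_family Y Fermat.Agent.Cheb.weakChebotarev_holds hcond hpN hq hq2 hqN hmod h M₀ S₀
      hpS hNS hgood e₀ he₀ ℓ₀₀ hℓ₀₀ hℓ₀₀S hne S₁ hIntr c hcn

/-- **The K5 side of HK-CONC**, from K7-FLAT. -/
theorem rthkk5_main (hflat : StmtFlatH) : StmtHkfK5' := rthkk5_of_family hflat stmtHkK5F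

end Fermat.Agent.RT

end


end ZBRT_087_15
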