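/- GENERATED FILE (helper35, build-time optimisation, NOTES/ZB.md): verbatim concatenation of the modules
   Fermat.Agent.RT.K7F.DiamGrpP
   Fermat.Agent.RT.K7F.RHpInst
   Fermat.Agent.RT.K7F.Final
   Fermat.Agent.RT.Hecke.ConcDoneF
   Fermat.Agent.RT.Hecke.ConcK5Done
   Do not edit; do not import together with these modules. -/
import Fermat.Agent.ZB.RT_053
import Fermat.Agent.ZB.ES1_009
import Fermat.Agent.ZB.RT_055
import Fermat.Agent.ZB.RT_057
import Fermat.Agent.ZB.RT_056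
import Fermat.Agent.ZB.RT_064
import Fermat.Agent.ZB.DEU_004
import Fermat.Agent.ZB.DEU_005
import Fermat.Agent.ZB.ES_001
import Fermat.Agent.ZB.ES_003
import Fermat.Agent.ZB.ES_027
import Fermat.Agent.ZB.RT_043
import Fermat.Agent.ZB.RT_087

/-! ### bundled: `Fermat.Agent.RT.K7F.DiamGrpP` -/
section ZBRT_063_0

/-!
# RT / K7-FLAT, piece FL-DIAM, part 8: the `p`-group of reduced diamonds

`k = kA A`, `F̄_H = fieldC k L M H`.

* `k7fdgP A hA hlev : Subgroup (F̄_H ≃ₐ[k] F̄_H)` — the group of the reduced diamonds `δ̄_c`;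
* `k7fdgF0 K L M H : IntermediateField K (fieldC K L M H)` — `F̄₀` inside `F̄_H`;
* `k7fdgP_bijective`, `k7fdgP_card` (`= m + 1`), `k7fdgP_finite`, `k7fdgP_isPGroup`;
* `k7fdgP_fix` (`hF₀`), `k7fdgP_fixed` (`hfix`) — the hypotheses of `k7fba_bound`.
-/

set_option autoImplicit false
set_option linter.style.haveILetI false
set_option linter.unusedSectionVars false
set_option synthInstance.maxHeartbeats 400000
set_option maxHeartbeats 1600000

noncomputable section

namespace Fermat.Agent.RT.K7F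

open Polynomial ModularCurve IntermediateField AlgebraicCurve HahnSeries
open Fermat.Agent.S24 Fermat.Agent.S28 Fermat.Agent.INJ Fermat.Agent.ES Fermat.Agent.ES1
  Fermat.Agent.ES.M Fermat.Agent.ES1.G2

variable (A : ValuationSubring Kb) {p : ℕ} {L M : ℕ} {H : Subgroup (ZMod M)ˣ}

/-- **the group of reduced diamonds** -/
def k7fdgP (hA : A.LiesOverPrime p) (hlev : K7FLevel L M H p) :
    Subgroup (fieldC (kA A) L M H ≃ₐ[kA A] fieldC (kA A) L M H) :=
  (k7fdgHom A hA hlev).range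

/-- `F̄₀` as an intermediate field of `F̄_H / k` -/
def k7fdgF0 (K : Type) [Field K] (L M : ℕ) (H : Subgroup (ZMod M)ˣ) :
    IntermediateField K (fieldC K L M H) :=
  (modularFunctionFieldFullC K L).comap (fieldC K L M H).val

theorem mem_k7fdgF0 {K : Type} [Field K] {f : fieldC K L M H} :
    f ∈ k7fdgF0 K L M H ↔ (f : LaurentSeries K) ∈ modularFunctionFieldFullC K L := Iff.rfl

/-- multiplying a class `± a H` by `b` -/
theorem k7fdg_inPM_mul {a c : (ZMod M)ˣ} (b : (ZMod M)ˣ) (h : InPM H a (c : ZMod M)) :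
    InPM H (b * a) ((b * c : (ZMod M)ˣ) : ZMod M) := by
  obtain ⟨h₀, hh₀, hx | hx⟩ := h
  · exact ⟨h₀, hh₀, Or.inl (by
      rw [Units.val_mul, hx, Units.val_mul, Units.val_mul, Units.val_mul]; ring)⟩
  · exact ⟨h₀, hh₀, Or.inr (by
      rw [Units.val_mul, hx, Units.val_mul, Units.val_mul, Units.val_mul]; ring)⟩

/-- `δ̄_c` depends only on the class of `c` in `(ℤ/M)ˣ / ±H` -/
theorem k7fdgBar_congr (hA : A.LiesOverPrime p) (hlev : K7FLevel L M H p) {a c : (ZMod M)ˣ}
    (h : InPM H a (c : ZMod M)) : k7fdgBar A hA hlev c = k7fdgBar A hA hlev a := by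
  refine k7fdg_algEquiv_ext (kA A) _ _ (fun f hf => ?_) (fun f hf => ?_)
  · have hf' : (f : LaurentSeries (kA A)) ∈ modularFunctionFieldFullC (kA A) L :=
      IntermediateField.subset_adjoin _ _ hf
    rw [k7fdgBar_fix A hA hlev c f hf', k7fdgBar_fix A hA hlev a f hf']
  · obtain ⟨e, he0, b, he, hf⟩ := hf
    apply Subtype.ext
    rw [k7fdgBar_act A hA hlev c e b he f hf, k7fdgBar_act A hA hlev a e b he f hf,
      es1f_sS_eq_of_inPM (kA A) (k7fdg_inPM_mul b h)]

/-- the reduced diamonds `δ̄_{a i}` of a system of representatives are exactly the elements of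
`P` -/
theorem k7fdgP_bijective (hA : A.LiesOverPrime p) (hlev : K7FLevel L M H p) {m : ℕ}
    (a : Fin (m + 1) → (ZMod M)ˣ) (ha : IsRepFam H a) :
    Function.Bijective (fun i : Fin (m + 1) =>
      (⟨k7fdgBar A hA hlev (a i), ⟨a i, rfl⟩⟩ : k7fdgP A hA hlev)) := by
  constructor
  · intro i j hij
    have h1 : k7fdgBar A hA hlev (a i) = k7fdgBar A hA hlev (a j) := congrArg Subtype.val hij
    have h2 := k7fdgBar_S A hA hlev (a i)
    rw [h1, k7fdgBar_S A hA hlev (a j)] at h2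
    exact es1cu_sS_injective (kA A) (k7fd_level_M_ne_zero hlev) ha h2.symm
  · rintro ⟨σ, c, rfl⟩
    obtain ⟨i, hi⟩ := ha.surj c
    exact ⟨i, Subtype.ext (k7fdgBar_congr A hA hlev hi).symm⟩

theorem k7fdgP_card (hA : A.LiesOverPrime p) (hlev : K7FLevel L M H p) {m : ℕ}
    (a : Fin (m + 1) → (ZMod M)ˣ) (ha : IsRepFam H a) :
    Nat.card (k7fdgP A hA hlev) = m + 1 := by
  rw [← Nat.card_congr (Equiv.ofBijective _ (k7fdgP_bijective A hA hlev a ha)), Nat.card_fin]

theorem k7fdgP_finite (hA : A.LiesOverPrime p) (hlev : K7FLevel L M H p) :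
    Finite (k7fdgP A hA hlev) := by
  obtain ⟨m, a, ha⟩ := exists_isRepFam (k7fd_level_M_ne_zero hlev) H
  exact Finite.of_equiv _ (Equiv.ofBijective _ (k7fdgP_bijective A hA hlev a ha))

/-- `P` is a `p`-group -/
theorem k7fdgP_isPGroup (hA : A.LiesOverPrime p) (hlev : K7FLevel L M H p) :
    IsPGroup p (k7fdgP A hA hlev) := by
  obtain ⟨m, a, ha⟩ := exists_isRepFam (k7fd_level_M_ne_zero hlev) H
  obtain ⟨k, hk⟩ := hlev.pgroup m a ha
  haveI : Fact p.Prime := ⟨hlev.hp⟩
  exact IsPGroup.of_card (n := k) (by rw [k7fdgP_card A hA hlev a ha, hk])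

/-- (`hF₀`) the reduced diamonds fix `F̄₀` -/
theorem k7fdgP_fix (hA : A.LiesOverPrime p) (hlev : K7FLevel L M H p)
    (g : k7fdgP A hA hlev) (x : fieldC (kA A) L M H) (hx : x ∈ k7fdgF0 (kA A) L M H) :
    (g : fieldC (kA A) L M H ≃ₐ[kA A] fieldC (kA A) L M H) x = x := by
  obtain ⟨σ, c, rfl⟩ := g
  exact k7fdgBar_fix A hA hlev c x hx

/-- (`hfix`) an element fixed by all reduced diamonds lies in `F̄₀` -/
theorem k7fdgP_fixed (hA : A.LiesOverPrime p) (hlev : K7FLevel L M H p)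
    (f : fieldC (kA A) L M H)
    (hf : ∀ g : k7fdgP A hA hlev,
      (g : fieldC (kA A) L M H ≃ₐ[kA A] fieldC (kA A) L M H) f = f) :
    f ∈ k7fdgF0 (kA A) L M H := by
  obtain ⟨m, a, ha⟩ := exists_isRepFam (k7fd_level_M_ne_zero hlev) H
  exact k7fdg_fixed A hA hlev a ha f (fun i => hf ⟨k7fdgBar A hA hlev (a i), ⟨a i, rfl⟩⟩)

/-- the elements of `P` are the reduced diamonds -/
theorem k7fdgP_exists (hA : A.LiesOverPrime p) (hlev : K7FLevel L M H p)
    (g : k7fdgP A hA hlev) : ∃ c : (ZMod M)ˣ,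
      (g : fieldC (kA A) L M H ≃ₐ[kA A] fieldC (kA A) L M H) = k7fdgBar A hA hlev c := by
  obtain ⟨σ, c, rfl⟩ := g
  exact ⟨c, rfl⟩

theorem k7fdgBar_mem (hA : A.LiesOverPrime p) (hlev : K7FLevel L M H p) (c : (ZMod M)ˣ) :
    k7fdgBar A hA hlev c ∈ k7fdgP A hA hlev := ⟨c, rfl⟩

/-- **the package for `k7fba_bound`**: a finite `p`-group `P` with an injective
`φ : P →* Aut_k(F̄_H)`, `|P| = m + 1`, fixed field `F̄₀`. -/
theorem k7fdg_package (hA : A.LiesOverPrime p) (hlev : K7FLevel L M H p) {m : ℕ}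
    (a : Fin (m + 1) → (ZMod M)ˣ) (ha : IsRepFam H a) :
    ∃ (P : Type) (_ : Group P) (_ : Fintype P)
      (φ : P →* (fieldC (kA A) L M H ≃ₐ[kA A] fieldC (kA A) L M H)),
      Fintype.card P = m + 1 ∧ IsPGroup p P ∧ Function.Injective φ ∧
      (∀ (g : P) (x : fieldC (kA A) L M H), x ∈ k7fdgF0 (kA A) L M H → φ g x = x) ∧
      (∀ f : fieldC (kA A) L M H, (∀ g : P, φ g f = f) → f ∈ k7fdgF0 (kA A) L M H) ∧
      (∀ g : P, ∃ c : (ZMod M)ˣ, φ g = k7fdgBar A hA hlev c) ∧
      (∀ c : (ZMod M)ˣ, ∃ g : P, φ g = k7fdgBar A hA hlev c) := by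
  haveI := k7fdgP_finite A hA hlev
  letI : Fintype (k7fdgP A hA hlev) := Fintype.ofFinite _
  refine ⟨k7fdgP A hA hlev, inferInstance, inferInstance, (k7fdgP A hA hlev).subtype, ?_,
    k7fdgP_isPGroup A hA hlev, Subtype.val_injective, ?_, ?_, ?_, ?_⟩
  · rw [← Nat.card_eq_fintype_card]
    exact k7fdgP_card A hA hlev a ha
  · exact fun g x hx => k7fdgP_fix A hA hlev g x hx
  · exact fun f hf => k7fdgP_fixed A hA hlev f hf
  · exact fun g => k7fdgP_exists A hA hlev g
  · exact fun c => ⟨⟨k7fdgBar A hA hlev c, k7fdgBar_mem A hA hlev c⟩, rfl⟩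

end Fermat.Agent.RT.K7F

end
end ZBRT_063_0

/-! ### bundled: `Fermat.Agent.RT.K7F.RHpInst` -/
section ZBRT_063_1
/-
RT-K7F / FL-RHp-A, instance half (helper75): `StmtBoundE` from

* the abstract bound (helper32's `BoundAbs.lean`, on top of `k7frhp_bound_generic`),
* the diamond group package (helper40's `DiamGrpP.lean`),
* the residue side of `F̄_H` (helper11's `ResSide.lean`), the cusp `∞` (helper65's `AnchCusp.lean`),
* the level-`L` Riemann–Roch bound at the cusp `∞` of `F̄_L` (`DEU.deuAnchor_main`),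
* the transport of places along the isomorphism `F̄_L ≃ F̄₀ ⊂ F̄_H` (`StmtRhpTransport`,
  proved in helper40's `PlaceEquiv.lean`).

Main results: `k7frhpIso`, `k7frhp_stmtI2`, `k7frhp_boundE_of : StmtRhpTransport → StmtBoundE`,
`k7frhp_transport : StmtRhpTransport`, and **`k7frhp_stmtBoundE : StmtBoundE`** (unconditional).
-/

set_option autoImplicit false
set_option linter.unusedSectionVars false
set_option linter.unusedVariables false
set_option linter.style.haveILetI false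
set_option synthInstance.maxHeartbeats 400000
set_option maxHeartbeats 1600000

noncomputable section

namespace Fermat.Agent.RT.K7F

open AlgebraicCurve Module ModularCurve HahnSeries
open Fermat.Agent.ES Fermat.Agent.ES.M Fermat.Agent.ES1 Fermat.Agent.S24 Fermat.Agent.DEU

/-! ## the transport package (input) -/

/-- **transport of the places along an isomorphism of function fields** (helper40,
`PlaceEquiv.lean`): orders, residue fields, principal divisors and the dimensions of the spaces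
`L(n·v)` are preserved. -/
def StmtRhpTransport : Prop :=
  ∀ (k F F' : Type) [Field k] [Field F] [Field F'] [Algebra k F] [Algebra k F']
    (e : F ≃ₐ[k] F'),
    ∃ T : Place k F ≃ Place k F',
      (∀ (v : Place k F) (f : F), (T v).ord (e f) = v.ord f) ∧
      (∀ v : Place k F, Function.Bijective (algebraMap k v.ResidueField) →
        Function.Bijective (algebraMap k (T v).ResidueField)) ∧
      (HasPrincipalDivisors k F → HasPrincipalDivisors k F') ∧
      (∀ (v : Place k F) (n : ℤ),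
        finrank k ↥(riemannRochSpace (Finsupp.single (T v) n)) =
          finrank k ↥(riemannRochSpace (Finsupp.single v n)))

/-! ## the isomorphism `F̄_L ≃ F̄₀`

The generic form first (`F₁ ≤ F₂` intermediate fields of `E / K`): stated for VARIABLES, so that no
unification problem ever unfolds the concrete fields. -/

section IsoGen

variable {K₀ E₀ : Type*} [Field K₀] [Field E₀] [Algebra K₀ E₀] (F₁ F₂ : IntermediateField K₀ E₀)

/-- the restriction `F₁ ∩ F₂ ⊂ F₂ → F₁` (identity on the elements) -/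
def k7frhgHom : ↥(F₁.comap F₂.val) →ₐ[K₀] ↥F₁ where
  toFun y := ⟨((y : ↥F₂) : E₀), y.2⟩
  map_one' := rfl
  map_mul' _ _ := rfl
  map_zero' := rfl
  map_add' _ _ := rfl
  commutes' _ := rfl

theorem k7frhgHom_coe (y : ↥(F₁.comap F₂.val)) :
    ((k7frhgHom F₁ F₂ y : ↥F₁) : E₀) = ((y : ↥F₂) : E₀) := rfl

theorem k7frhgHom_bijective (h : F₁ ≤ F₂) : Function.Bijective (k7frhgHom F₁ F₂) :=
  ⟨(k7frhgHom F₁ F₂).toRingHom.injective, fun x => ⟨⟨⟨(x : E₀), h x.2⟩, x.2⟩, rfl⟩⟩

/-- `F₁ ≃ F₁ ∩ F₂ ⊂ F₂` for `F₁ ≤ F₂` -/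
def k7frhgIso (h : F₁ ≤ F₂) : ↥F₁ ≃ₐ[K₀] ↥(F₁.comap F₂.val) :=
  (AlgEquiv.ofBijective (k7frhgHom F₁ F₂) (k7frhgHom_bijective F₁ F₂ h)).symm

theorem k7frhgIso_symm_coe (h : F₁ ≤ F₂) (y : ↥(F₁.comap F₂.val)) :
    (((k7frhgIso F₁ F₂ h).symm y : ↥F₁) : E₀) = ((y : ↥F₂) : E₀) := rfl

end IsoGen

/-- the identification of `F̄_L = modularFunctionFieldFullC K L` with the subfield `F̄₀` of
`F̄_H` -/
def k7frhpIso (K : Type) [Field K] (L M : ℕ) (H : Subgroup (ZMod M)ˣ) :
    ↥(modularFunctionFieldFullC K L) ≃ₐ[K] ↥(k7fdgF0 K L M H) :=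
  k7frhgIso (modularFunctionFieldFullC K L) (fieldC K L M H) (full_le_fieldC K L M H)

theorem k7frhpIso_symm_coe (K : Type) [Field K] (L M : ℕ) (H : Subgroup (ZMod M)ˣ)
    (y : ↥(k7fdgF0 K L M H)) :
    (((k7frhpIso K L M H).symm y : ↥(modularFunctionFieldFullC K L)) : LaurentSeries K) =
      ((y : ↥(fieldC K L M H)) : LaurentSeries K) :=
  k7frhgIso_symm_coe (modularFunctionFieldFullC K L) (fieldC K L M H) (full_le_fieldC K L M H) y

/-! ## the level-`L` input -/

/-- the genus bound (I2) at level `L`, in the two cases of `K7FLevel.h5` -/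
theorem k7frhp_stmtI2 {L M : ℕ} {H : Subgroup (ZMod M)ˣ} {p : ℕ} (hlev : K7FLevel L M H p)
    [NeZero L] (A : ValuationSubring Kb) (hA : A.LiesOverPrime p) : StmtI2 L A := by
  rcases le_or_gt 5 p with h5 | h5
  · exact Fermat.Agent.ES.I2.stmtI2All L p hlev.hp h5 hlev.hpL A hA
  · exact Fermat.Agent.ES.I2aux.stmtI2AuxAll L p hlev.hp h5 hlev.hpL
      (hlev.h5.resolve_left (not_le.mpr h5)) A hA

/-- **(RR₀)**: the cusp `∞` of `F̄_L` and the Riemann–Roch bound at its multiples -/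
theorem k7frhp_level {L M : ℕ} {H : Subgroup (ZMod M)ˣ} {p : ℕ} (hlev : K7FLevel L M H p)
    [NeZero L] (A : ValuationSubring Kb) (hA : A.LiesOverPrime p) :
    ∃ (Qinf : Place (kA A) ↥(modularFunctionFieldFullC (kA A) L)) (n₀ : ℕ),
      (∀ x : ↥(modularFunctionFieldFullC (kA A) L), x ≠ 0 →
        Qinf.ord x = (x : LaurentSeries (kA A)).order) ∧
      ∀ n : ℕ, n₀ ≤ n →
        (finrank (kA A) ↥(riemannRochSpace (Finsupp.single Qinf (n : ℤ))) : ℤ) ≤
          n + 1 - gN L := by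
  haveI := modHyp_hpdk L A hlev.hp hA
  obtain ⟨-, Qinf, n₀, -, -, hQ, -, -, hRR⟩ := deuAnchor_main L A
    (stmtRedF L A p hlev.hp hlev.hpL hA) (Fermat.Agent.ES.LR.stmtLRa L p hlev.hp A hA)
    (k7frhp_stmtI2 hlev A hA) (Fermat.Agent.ES.R.stmtR L)
  refine ⟨Qinf, n₀, hQ, fun n hn => ?_⟩
  have h := hRR n hn
  rw [mulPlace] at h
  linarith

/-! ## the assembly -/

/-- **FL-RHp-A (bound_E)**, given the transport package. -/
theorem k7frhp_boundE_of (hT : StmtRhpTransport) : StmtBoundE := by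
  intro L M H p hlev A hA m a ha
  haveI : Fact p.Prime := ⟨hlev.hp⟩
  haveI : CharP (kA A) p := kron_charP_residueField hlev.hp hA
  haveI : IsAlgClosed (kA A) := modHyp_isAlgClosed A
  have hL0 : L ≠ 0 := by
    have := hlev.hL
    omega
  haveI : NeZero L := ⟨hL0⟩
  -- the group of reduced diamonds
  obtain ⟨P, hG, hF, φ, hcard, hP, hinj, hF₀, hfix, -, -⟩ := k7fdg_package A hA hlev a ha
  -- level `L`
  have hpdL := modHyp_hpdk L A hlev.hp hA
  obtain ⟨Qinf, n₀, hQinf, hRR⟩ := k7frhp_level hlev A hA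
  -- transport to `F̄₀ ⊂ F̄_H`
  obtain ⟨T, hTord, hTres, hTpd, hTfin⟩ :=
    hT (kA A) ↥(modularFunctionFieldFullC (kA A) L) ↥(k7fdgF0 (kA A) L M H)
      (k7frhpIso (kA A) L M H)
  haveI hpd0 : HasPrincipalDivisors (kA A) ↥(k7fdgF0 (kA A) L M H) := hTpd hpdL
  haveI hpdH : HasPrincipalDivisors (kA A) ↥(fieldC (kA A) L M H) :=
    k7fres_hasPrincipalDivisors (kA A) p L M H hL0 hlev.hML
  have hres : ∀ v : Place (kA A) ↥(fieldC (kA A) L M H),
      Function.Bijective (algebraMap (kA A) v.ResidueField) :=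
    k7fres_residue_bijective (kA A) p L M H hL0 hlev.hML
  have hres0 : ∀ v : Place (kA A) ↥(k7fdgF0 (kA A) L M H),
      Function.Bijective (algebraMap (kA A) v.ResidueField) := by
    intro v
    have key : ∀ w : Place (kA A) ↥(k7fdgF0 (kA A) L M H), w = v →
        Function.Bijective (algebraMap (kA A) w.ResidueField) →
        Function.Bijective (algebraMap (kA A) v.ResidueField) := by
      intro w hw hb
      subst hw
      exact hb
    exact key _ (T.apply_symm_apply v) (hTres (T.symm v) (modHyp_hresk L A _))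
  -- the cusp `∞` of `F̄_H`
  obtain ⟨Q, hQ, -⟩ := k7fanchc_exists_cuspC L M H (kA A)
  have hunr : ∀ x : ↥(k7fdgF0 (kA A) L M H),
      Q.ord (x : ↥(fieldC (kA A) L M H)) = (T Qinf).ord x := by
    intro x
    rcases eq_or_ne x 0 with rfl | hx
    · simp
    · have hx' : (x : ↥(fieldC (kA A) L M H)) ≠ 0 := fun h => hx (Subtype.ext h)
      have hx'' : (k7frhpIso (kA A) L M H).symm x ≠ 0 := by
        intro h
        apply hx
        have h2 := congrArg (k7frhpIso (kA A) L M H) h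
        rwa [AlgEquiv.apply_symm_apply, map_zero] at h2
      have h1 := hTord Qinf ((k7frhpIso (kA A) L M H).symm x)
      rw [AlgEquiv.apply_symm_apply] at h1
      rw [hQ _ hx', h1, hQinf _ hx'', k7frhpIso_symm_coe]
  have hRR' : ∀ n : ℕ, n₀ ≤ n →
      (finrank (kA A) ↥(riemannRochSpace (Finsupp.single (T Qinf) (n : ℤ))) : ℤ) ≤
        n + 1 - gN L := by
    intro n hn
    rw [hTfin Qinf n]
    exact hRR n hn
  obtain ⟨hE0, hEdeg, -, -⟩ :=
    k7fba_bound p hP φ hinj (k7fdgF0 (kA A) L M H) hfix hF₀ hres hres0 Q (T Qinf) hunr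
  refine ⟨k7fbaE φ Q, hE0, ?_, n₀, fun n hn => ?_⟩
  · rw [hEdeg, hcard]
  · have h := k7fba_bound_genus p hP φ hinj (k7fdgF0 (kA A) L M H) hfix hF₀ hres hres0 Q
      (T Qinf) hunr (gN L) n₀ hRR' n hn
    rw [hcard] at h
    exact h

/-- the transport package holds (helper40's `PlaceEquiv.lean`) -/
theorem k7frhp_transport : StmtRhpTransport := by
  intro k F F' _ _ _ _ _ e
  exact ⟨k7fpeMap e, k7fpe_ord e, k7fpe_res e, k7fpe_hasPrincipalDivisors e, k7fpe_finrank e⟩

/-- **FL-RHp-A (bound_E)**, unconditional. -/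
theorem k7frhp_stmtBoundE : StmtBoundE := k7frhp_boundE_of k7frhp_transport

end Fermat.Agent.RT.K7F

end
end ZBRT_063_1

/-! ### bundled: `Fermat.Agent.RT.K7F.Final` -/
section ZBRT_063_2

/-!
# RT-K7F: K7-FLAT, UNCONDITIONAL (helper34, sub-captain)

* `stmtBoundE  : StmtBoundE`  (FL-RHp-A, helper75: `k7frhp_stmtBoundE`, `RHpInst.lean`)
* `stmtModPRH  : StmtModPRH`  (GEO-PR for `X_H(L; M)`)
* `stmtFlatH   : StmtFlatH`   (**K7-FLAT**)

All the pieces (FL-RH0 `stmtRiemannH`, FL-RHp `k7frhp_stmtBoundE`, FL-ANCH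
`k7fanch_stmtModPRH_of_two`, FL-KC `k7fkc_stmtKCH`, FL-FIN `stmtFlatH_of_kc`) are theorems.
-/

set_option autoImplicit false

namespace Fermat.Agent.RT.K7F

/-- FL-RHp-A (the bound at `Ē`), unconditional. -/
theorem stmtBoundE : StmtBoundE := k7frhp_stmtBoundE

/-- GEO-PR for `X_H(L; M)`, unconditional. -/
theorem stmtModPRH : StmtModPRH := stmtModPRH_of_boundE k7frhp_stmtBoundE

/-- **K7-FLAT**, unconditional. -/
theorem stmtFlatH : StmtFlatH := stmtFlatH_of_boundE k7frhp_stmtBoundE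

end Fermat.Agent.RT.K7F


end ZBRT_063_2

/-! ### bundled: `Fermat.Agent.RT.Hecke.ConcDoneF` -/
section ZBRT_063_3

/-!
# K-machine, HK-CONC (helper9): the module side from its two open inputs

K7-FLAT is closed (`K7F.stmtFlatH`, helper34 & co).  Hence

* `rthkf_concTop2 : K6.StmtChiJDiv5 → StmtHkfK5' → StmtHkConcTop`;
* `rthkf_modSide2 : … → StmtHkModSide`;  `rthkf_hecke2 : … → Prod.StmtHecke`.
-/

set_option autoImplicit false

namespace Fermat.Agent.RT

/-- the concrete contract from K6 and the K5 side -/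
theorem rthkf_concTop2 (hChi : K6.StmtChiJDiv5) (hK5 : StmtHkfK5') : StmtHkConcTop :=
  rthkf_concTop K7F.stmtFlatH hChi hK5

/-- the module side from K6 and the K5 side -/
theorem rthkf_modSide2 (hChi : K6.StmtChiJDiv5) (hK5 : StmtHkfK5') : StmtHkModSide :=
  rthkf_modSide K7F.stmtFlatH hChi hK5

/-- **HECKE-asm** from K6 and the K5 side -/
theorem rthkf_hecke2 (hChi : K6.StmtChiJDiv5) (hK5 : StmtHkfK5') : Prod.StmtHecke :=
  rthkf_hecke K7F.stmtFlatH hChi hK5

end Fermat.Agent.RT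


end ZBRT_063_3

/-! ### bundled: `Fermat.Agent.RT.Hecke.ConcK5Done` -/
section ZBRT_063_4

/-!
# K-machine, HK-CONC (helper59): the module side of HECKE from ONE open input

All inputs of `rthkf_modSide` except `K6.StmtChiJDiv5` are proved
(K7-FLAT: `K7F.stmtFlatH`; the K5 side: helper22's `rthkk5_main`).

* `rthkk5d_k5 : StmtHkfK5'`;
* `rthkk5d_concTop : K6.StmtChiJDiv5 → StmtHkConcTop`;
* `rthkk5d_modSide : K6.StmtChiJDiv5 → StmtHkModSide`;
* `rthkk5d_hecke : K6.StmtChiJDiv5 → Prod.StmtHecke`.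
-/

set_option autoImplicit false

namespace Fermat.Agent.RT

/-- **the K5 side of HK-CONC, unconditional** -/
theorem rthkk5d_k5 : StmtHkfK5' :=
  rthkk5_main K7F.stmtFlatH

/-- the concrete contract from the K6 side alone -/
theorem rthkk5d_concTop (hChi : K6.StmtChiJDiv5) : StmtHkConcTop :=
  rthkf_concTop2 hChi rthkk5d_k5

/-- **the module side of HECKE from the K6 side alone** -/
theorem rthkk5d_modSide (hChi : K6.StmtChiJDiv5) : StmtHkModSide :=
  rthkf_modSide2 hChi rthkk5d_k5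

/-- **HECKE-asm from the K6 side alone** -/
theorem rthkk5d_hecke (hChi : K6.StmtChiJDiv5) : Prod.StmtHecke :=
  rthkf_hecke2 hChi rthkk5d_k5

end Fermat.Agent.RT


end ZBRT_063_4
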