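/- GENERATED FILE (helper35, build-time optimisation, NOTES/ZB.md): verbatim concatenation of the modules
   Fermat.Agent.RT.K6.EWCoord
   Fermat.Agent.RT.K6.EWCross
   Do not edit; do not import together with these modules. -/
import Fermat.Agent.ZB.UNIP_010
import Fermat.Agent.ZB.STB_003

/-! ### bundled: `Fermat.Agent.RT.K6.EWCoord` -/
section ZBRT_030_0

/-!
# RT-K6 / E-W, part 1 — coordinate functions at the moved points of a tube, `g • q = c * q`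

Forks of `UNIP.unip_deep_smul`, `unip_coord_node_gen` (UNIP/CoordGen.lean), `unip_hcoord_node`
(UNIP/CoordChart.lean) and `unip_hcoord_of_nodes` (UNIP/CoordTransport.lean) in which the
hypothesis `hgq : g • q = q` is replaced by `hgq : ∃ c : A₀, g • q = c * q`
(`rtk6ew_smul_dvd` : it follows from `hgA`, `hgA'`, i.e. from `g A₀ = A₀`).
The coordinates `X`, `Y` need not be fixed by `g` (as in the originals): it is enough that `g`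
preserves the two vertical valuations (`hgV`).

Use: K6 over the ramified base `A′ ∋ ϖ₁`, `ϖ₁ ^ d = r`, where `σ ϖ₁ = ζ ϖ₁`, `σ x₂ = ζ x₂`.
-/

set_option autoImplicit false
set_option linter.style.haveILetI false
set_option linter.unusedSectionVars false
set_option linter.unusedVariables false

namespace Fermat.Agent.RT.K6

open AlgebraicCurve IntermediateField Polynomial Fermat.Agent.S24 Fermat.Agent.INJ
  Fermat.Agent.UNIP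

section EWAssoc

variable {A₀ E Lf : Type*} [CommRing A₀] [IsDomain A₀] [IsDiscreteValuationRing A₀]
  [Field E] [CharZero E] [Algebra A₀ E] [IsFractionRing A₀ E]
  [Field Lf] [Algebra E Lf] [Algebra A₀ Lf] [IsScalarTower A₀ E Lf]

/-- if `g` and `g⁻¹` preserve `A₀`, then `g` maps units of `A₀` to units of `A₀` -/
theorem rtk6ew_smul_unit (g : SemilinearAut E Lf)
    (hgA : ∀ α : A₀, ∃ α' : A₀, g • algebraMap A₀ Lf α = algebraMap A₀ Lf α')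
    {w w' : A₀} (hw : IsUnit w) (hww' : g • algebraMap A₀ Lf w = algebraMap A₀ Lf w') :
    IsUnit w' := by
  obtain ⟨v, hv⟩ := hw.exists_right_inv
  obtain ⟨v', hv'⟩ := hgA v
  refine IsUnit.of_mul_eq_one v' ?_
  apply unip_algebraMap_injective E (A₀ := A₀) (Lf := Lf)
  rw [map_mul, ← hww', ← hv', ← smul_mul', ← map_mul, hv, map_one, smul_one]

/-- if `g` and `g⁻¹` preserve `A₀`, then `g • π = c * π` for a uniformizer `π`. -/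
theorem rtk6ew_smul_irreducible (g : SemilinearAut E Lf)
    (hgA : ∀ α : A₀, ∃ α' : A₀, g • algebraMap A₀ Lf α = algebraMap A₀ Lf α')
    (hgA' : ∀ α : A₀, ∃ α' : A₀, g⁻¹ • algebraMap A₀ Lf α = algebraMap A₀ Lf α')
    {π : A₀} (hπ : Irreducible π) :
    ∃ c : A₀, g • algebraMap A₀ Lf π = algebraMap A₀ Lf (c * π) := by
  obtain ⟨π', hπ'⟩ := hgA π
  have hnu : ¬ IsUnit π' := by
    intro hu
    have h1 : g⁻¹ • algebraMap A₀ Lf π' = algebraMap A₀ Lf π := by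
      rw [← hπ', inv_smul_smul]
    exact hπ.not_isUnit (rtk6ew_smul_unit g⁻¹ hgA' hu h1)
  have hmem : π' ∈ IsLocalRing.maximalIdeal A₀ := (IsLocalRing.mem_maximalIdeal _).mpr hnu
  rw [hπ.maximalIdeal_eq, Ideal.mem_span_singleton] at hmem
  obtain ⟨c, hc⟩ := hmem
  exact ⟨c, by rw [hπ', hc, mul_comm]⟩

/-- **`g • q = c * q`** for every `q ∈ A₀`, if `g` and `g⁻¹` preserve the DVR `A₀`. -/
theorem rtk6ew_smul_dvd (g : SemilinearAut E Lf)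
    (hgA : ∀ α : A₀, ∃ α' : A₀, g • algebraMap A₀ Lf α = algebraMap A₀ Lf α')
    (hgA' : ∀ α : A₀, ∃ α' : A₀, g⁻¹ • algebraMap A₀ Lf α = algebraMap A₀ Lf α')
    (q : A₀) : ∃ c : A₀, g • algebraMap A₀ Lf q = algebraMap A₀ Lf (c * q) := by
  by_cases hq0 : q = 0
  · exact ⟨1, by rw [hq0, mul_zero, map_zero, smul_zero]⟩
  obtain ⟨π, hπ⟩ := IsDiscreteValuationRing.exists_irreducible A₀
  obtain ⟨e, w, hw⟩ := IsDiscreteValuationRing.associated_pow_irreducible hq0 hπ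
  -- hw : q * w = π ^ e
  obtain ⟨c, hc⟩ := rtk6ew_smul_irreducible g hgA hgA' hπ
  obtain ⟨w', hw'⟩ := hgA ((w⁻¹ : A₀ˣ) : A₀)
  have hq : q = π ^ e * ((w⁻¹ : A₀ˣ) : A₀) := by
    rw [← hw, mul_assoc, Units.mul_inv, mul_one]
  refine ⟨c ^ e * w' * (w : A₀), ?_⟩
  have h1 : g • algebraMap A₀ Lf q = algebraMap A₀ Lf ((c * π) ^ e * w') := by
    conv_lhs => rw [hq]
    rw [map_mul, map_pow, smul_mul', smul_pow', hc, hw', ← map_pow, ← map_mul]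
  rw [h1]
  congr 1
  have h2 : (w : A₀) * q = π ^ e := by rw [mul_comm]; exact hw
  calc (c * π) ^ e * w' = c ^ e * w' * π ^ e := by ring
    _ = c ^ e * w' * ((w : A₀) * q) := by rw [h2]
    _ = c ^ e * w' * (w : A₀) * q := by ring

/-- divisibility by a power of `q` is preserved by `g` if `g • q = c * q` -/
theorem rtk6ew_dvd_of_smul (g : SemilinearAut E Lf)
    (hgA : ∀ α : A₀, ∃ α' : A₀, g • algebraMap A₀ Lf α = algebraMap A₀ Lf α')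
    (q : A₀) (hgq : ∃ c : A₀, g • algebraMap A₀ Lf q = algebraMap A₀ Lf (c * q)) (n : ℕ)
    {α β : A₀} (hαβ : g • algebraMap A₀ Lf α = algebraMap A₀ Lf β) (h : q ^ n ∣ α) :
    q ^ n ∣ β := by
  obtain ⟨a, rfl⟩ := h
  obtain ⟨a', ha'⟩ := hgA a
  obtain ⟨c, hc⟩ := hgq
  refine ⟨c ^ n * a', ?_⟩
  apply unip_algebraMap_injective E (A₀ := A₀) (Lf := Lf)
  rw [← hαβ, map_mul, map_pow, smul_mul', smul_pow', hc, ha', ← map_pow, ← map_mul]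
  congr 1
  ring

end EWAssoc

section EWMainGen

variable {A₀ E Lf B : Type*} [CommRing A₀] [IsDomain A₀] [IsDiscreteValuationRing A₀]
  [Field E] [CharZero E] [Algebra A₀ E] [IsFractionRing A₀ E]
  [Field Lf] [Algebra E Lf] [Algebra A₀ Lf] [IsScalarTower A₀ E Lf]
  [CommRing B] [Algebra B Lf] [Algebra A₀ B] [IsScalarTower A₀ B Lf]

/-- a `g`-translate of a deep coordinate is deep: the core of `unip_coord_node_gen`. -/
theorem rtk6ew_deep_smul [IsNoetherianRing B] {π : A₀} (hπ : Irreducible π) (τ : Lf)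
    (hinj : Function.Injective (algebraMap B Lf))
    (𝔫 : Ideal B) [𝔫.IsPrime] (hπ𝔫 : algebraMap A₀ B π ∈ 𝔫)
    (𝔭 : Ideal B) [𝔭.IsPrime] (h𝔭 : 𝔭 ≤ 𝔫) (hπ𝔭 : algebraMap A₀ B π ∈ 𝔭)
    (g : SemilinearAut E Lf)
    (hgB₀' : ∀ b : B, ∃ b' : B, g⁻¹ • algebraMap B Lf b = algebraMap B Lf b')
    (hgA : ∀ α : A₀, ∃ α' : A₀, g • algebraMap A₀ Lf α = algebraMap A₀ Lf α')
    (hgV : ∀ f : Lf, f ≠ 0 →
      ∃ s s' : B, s ∉ 𝔭 ∧ s' ∉ 𝔭 ∧ algebraMap B Lf s * (g • f / f) = algebraMap B Lf s')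
    (q : A₀) (hq0 : q ≠ 0) (hgq : ∃ c : A₀, g • algebraMap A₀ Lf q = algebraMap A₀ Lf (c * q)) (n' : ℕ)
    (X Y G : B) (hX : X ∈ 𝔭) (hY : Y ∉ 𝔭) (hY𝔫 : Y ∈ 𝔫)
    (hXY : X * Y = algebraMap A₀ B q ^ n' * G)
    (hgen : NodesLocGen 𝔫 {algebraMap A₀ B π, X, Y})
    (P : Place E Lf) (hP : UnipTubePoint τ 𝔫 P) (evP evQ : B →ₐ[A₀] A₀)
    (hevP : ∀ b : B,
      algebraMap B Lf b - algebraMap A₀ Lf (evP b) ∈ P.toValuationSubring.nonunits)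
    (hevQ : ∀ b : B,
      algebraMap B Lf b - algebraMap A₀ Lf (evQ b) ∈ (g • P).toValuationSubring.nonunits)
    (hdeep : q ^ n' ∣ evP X) : q ^ n' ∣ evQ X := by
  haveI : IsDomain B := hinj.isDomain (algebraMap B Lf)
  have hπ0 : algebraMap A₀ B π ≠ 0 := by
    intro h
    apply unip_algebraMap_irreducible_ne_zero (E) (Lf := Lf) hπ
    rw [IsScalarTower.algebraMap_apply A₀ B Lf, h, map_zero]
  -- `q ^ n'` is associated to a power of `π`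
  obtain ⟨e, w, hw⟩ := IsDiscreteValuationRing.associated_pow_irreducible hq0 hπ
  -- hw : q * w = π ^ e
  have hqπ : q ^ n' * ((w : A₀) ^ n') = π ^ (e * n') := by
    rw [← mul_pow, hw, ← pow_mul]
  have hπq : π ^ (e * n') * (((w⁻¹ : A₀ˣ) : A₀) ^ n') = q ^ n' := by
    rw [← hqπ, mul_assoc, ← mul_pow, Units.mul_inv, one_pow, mul_one]
  have hXY' : X * Y = algebraMap A₀ B (π ^ (e * n')) *
      (algebraMap A₀ B (((w⁻¹ : A₀ˣ) : A₀) ^ n') * G) := by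
    rw [← mul_assoc, ← map_mul, hπq, map_pow]
    exact hXY
  have hdeep' : π ^ (e * n') ∣ evP X := by
    rw [← hqπ]
    exact (Units.mul_right_dvd (u := w ^ n') (a := q ^ n') (b := evP X)).mpr hdeep
  have hB := unip_vert_ev_dvd (A := A₀) 𝔫 𝔭 h𝔭 π hπ0 hπ𝔭 evP
    (fun b hb => unip_tubeEv_mem_of_dvd hinj hπ𝔫 hP evP hevP b hb)
    (fun α hα => by
      by_contra hnu
      have : α ∈ IsLocalRing.maximalIdeal A₀ := (IsLocalRing.mem_maximalIdeal _).mpr hnu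
      rw [hπ.maximalIdeal_eq, Ideal.mem_span_singleton] at this
      exact hα this)
    X Y _ (e * n') hX hY hY𝔫 hXY' hgen hdeep' (e * n') le_rfl
  -- the translate `g⁻¹ X`
  obtain ⟨Xg, hXg⟩ := hgB₀' X
  have hgXg : g • algebraMap B Lf Xg = algebraMap B Lf X := by
    rw [← hXg, smul_inv_smul]
  by_cases hX0 : X = 0
  · -- degenerate: `X = 0`, then `Xg = 0`
    have : Xg = 0 := by
      apply hinj
      rw [← hXg, hX0, map_zero, smul_zero]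
    have h1 := unip_tubeEv_smul_gen g hgA P evP evQ hevP hevQ X Xg hgXg
    rw [this, map_zero, map_zero, smul_zero] at h1
    have : evQ X = 0 := unip_algebraMap_injective E (A₀ := A₀) (Lf := Lf) (by rw [← h1, map_zero])
    rw [this]
    exact dvd_zero _
  have hXgL : algebraMap B Lf Xg ≠ 0 := by
    intro h
    apply hX0
    apply hinj
    rw [← hgXg, h, smul_zero, map_zero]
  obtain ⟨s, s', hs, hs', hss⟩ := hgV (algebraMap B Lf Xg) hXgL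
  rw [hgXg] at hss
  have hss' : s * X = s' * Xg := by
    apply hinj
    rw [map_mul, map_mul, ← hss]
    field_simp
  have hdvdXg : π ^ (e * n') ∣ evP Xg := by
    refine hB Xg (s' * Y) (s * (algebraMap A₀ B (((w⁻¹ : A₀ˣ) : A₀) ^ n') * G)) ?_ ?_
    · exact fun h => (Ideal.IsPrime.mem_or_mem inferInstance h).elim hs' hY
    · linear_combination (-Y) * hss' + s * hXY'
  have hdvdXg' : q ^ n' ∣ evP Xg := by
    rw [← hπq]
    exact (Units.mul_right_dvd (u := (w⁻¹) ^ n') (a := π ^ (e * n')) (b := evP Xg)).mpr hdvdXg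
  exact rtk6ew_dvd_of_smul g hgA q hgq n'
    (unip_tubeEv_smul_gen g hgA P evP evQ hevP hevQ X Xg hgXg) hdvdXg'

/-- **Coord, crossing point, general `g` (thick nodes included).**  `g` preserves the tube of
`𝔫`, the constants `A₀`, `q`, and the valuations of the two branches `𝔭₁, 𝔭₂` through `𝔫`
(`hgV₁`, `hgV₂`: the hypothesis `hgV` of `ls_local_factor_chart`).  Stage data for every `n ≥ 1`
(`unip_morse_iter_vert` over the unramified chart, transported to `B`).  Then every rational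
point `P` of the tube of `𝔫` with `g • P ≠ P` has a coordinate function. -/
theorem rtk6ew_coord_node_gen [IsNoetherianRing B] {π : A₀} (hπ : Irreducible π) (τ : Lf)
    (hτ : Transcendental E τ) [FiniteDimensional E⟮τ⟯ Lf]
    (hinj : Function.Injective (algebraMap B Lf))
    (hB : ∀ x : Lf, x ∈ (algebraMap B Lf).range ↔ IsIntegral (Algebra.adjoin A₀ {τ}) x)
    (𝔫 : Ideal B) [𝔫.IsPrime] (hπ𝔫 : algebraMap A₀ B π ∈ 𝔫)
    (𝔭₁ 𝔭₂ : Ideal B) [𝔭₁.IsPrime] [𝔭₂.IsPrime] (h1 : 𝔭₁ ≤ 𝔫) (h2 : 𝔭₂ ≤ 𝔫)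
    (hπ1 : algebraMap A₀ B π ∈ 𝔭₁) (hπ2 : algebraMap A₀ B π ∈ 𝔭₂)
    (g : SemilinearAut E Lf) (hgτ : g • τ = τ)
    (hgB : ∀ b : B, b ∈ 𝔫 → ∃ b' : B, b' ∈ 𝔫 ∧ g • algebraMap B Lf b = algebraMap B Lf b')
    (hgB₀' : ∀ b : B, ∃ b' : B, g⁻¹ • algebraMap B Lf b = algebraMap B Lf b')
    (hgA : ∀ α : A₀, ∃ α' : A₀, g • algebraMap A₀ Lf α = algebraMap A₀ Lf α')
    (hgV₁ : ∀ f : Lf, f ≠ 0 →
      ∃ s s' : B, s ∉ 𝔭₁ ∧ s' ∉ 𝔭₁ ∧ algebraMap B Lf s * (g • f / f) = algebraMap B Lf s')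
    (hgV₂ : ∀ f : Lf, f ≠ 0 →
      ∃ s s' : B, s ∉ 𝔭₂ ∧ s' ∉ 𝔭₂ ∧ algebraMap B Lf s * (g • f / f) = algebraMap B Lf s')
    (q : A₀) (hq0 : q ≠ 0) (hqπ : π ∣ q)
    (hgq : ∃ c : A₀, g • algebraMap A₀ Lf q = algebraMap A₀ Lf (c * q))
    (hstage : ∀ n : ℕ, 1 ≤ n → ∃ (n' : ℕ) (X Y G : B), X ∈ 𝔭₁ ∧ Y ∈ 𝔭₂ ∧ X ∉ 𝔭₂ ∧ Y ∉ 𝔭₁ ∧
      X * Y = algebraMap A₀ B q ^ n' * G ∧ NodesLocGen 𝔫 {algebraMap A₀ B π, X, Y} ∧
      (n ≤ n' ∨ G ∉ 𝔫))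
    (P : Place E Lf) (hP : UnipTubePoint τ 𝔫 P) (hgP : g • P ≠ P) :
    ∃ f : Lf, f ≠ 0 ∧ P.ord f = 1 ∧
      ∀ Q : Place E Lf, 0 ≤ Q.ord τ → (∀ b : B, 0 < Q.ord (algebraMap B Lf b) → b ∈ 𝔫) →
        Q ≠ P → Q.ord f = 0 := by
  have hP' : UnipTubePoint τ 𝔫 (g • P) := hP.smul hinj g hgτ hgB hgB₀'
  obtain ⟨evP, hevP⟩ := unip_exists_tubeEv hπ τ hinj hB 𝔫 hπ𝔫 P hP
  obtain ⟨evQ, hevQ⟩ := unip_exists_tubeEv hπ τ hinj hB 𝔫 hπ𝔫 (g • P) hP'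
  by_contra hcon
  have hmaxP : ∀ b ∈ 𝔫, evP b ∈ IsLocalRing.maximalIdeal A₀ := fun b hb => by
    rw [hπ.maximalIdeal_eq, Ideal.mem_span_singleton]
    exact unip_tubeEv_dvd hπ hinj hP evP hevP b hb
  have hmaxQ : ∀ b ∈ 𝔫, evQ b ∈ IsLocalRing.maximalIdeal A₀ := fun b hb => by
    rw [hπ.maximalIdeal_eq, Ideal.mem_span_singleton]
    exact unip_tubeEv_dvd hπ hinj hP' evQ hevQ b hb
  have key : ∀ n : ℕ, 1 ≤ n → ∀ b : B, evP b - evQ b ∈ Ideal.span ({q ^ n} : Set A₀) := by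
    intro n hn b
    obtain ⟨n', X, Y, G, hX1, hY2, hX2, hY1, hXY, hgen, hthin⟩ := hstage n hn
    have hX : X ∈ 𝔫 := h1 hX1
    have hY : Y ∈ 𝔫 := h2 hY2
    rcases unip_coord_stage hπ τ hτ hinj hB 𝔫 hπ𝔫 q hq0 n' X Y G hX hY hXY hgen P hP evP hevP
      with h | ⟨hdX, hdY, hG⟩
    · exact absurd h hcon
    have hle : n ≤ n' := hthin.resolve_right (fun h => h hG)
    have hgen' : NodesLocGen 𝔫 {algebraMap A₀ B π, Y, X} := by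
      have : ({algebraMap A₀ B π, Y, X} : Set B) = {algebraMap A₀ B π, X, Y} := by
        rw [Set.pair_comm Y X]
      rw [this]
      exact hgen
    have hYX : Y * X = algebraMap A₀ B q ^ n' * G := by rw [mul_comm]; exact hXY
    have hdXQ' : q ^ n' ∣ evQ X :=
      rtk6ew_deep_smul hπ τ hinj 𝔫 hπ𝔫 𝔭₁ h1 hπ1 g hgB₀' hgA hgV₁ q hq0 hgq n' X Y G hX1 hY1 hY
        hXY hgen P hP evP evQ hevP hevQ hdX
    have hdYQ' : q ^ n' ∣ evQ Y :=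
      rtk6ew_deep_smul hπ τ hinj 𝔫 hπ𝔫 𝔭₂ h2 hπ2 g hgB₀' hgA hgV₂ q hq0 hgq n' Y X G hY2 hX2 hX
        hYX hgen' P hP evP evQ hevP hevQ hdY
    have hdX' : q ^ n ∣ evP X := (pow_dvd_pow q hle).trans hdX
    have hdY' : q ^ n ∣ evP Y := (pow_dvd_pow q hle).trans hdY
    have hdXQ : q ^ n ∣ evQ X := (pow_dvd_pow q hle).trans hdXQ'
    have hdYQ : q ^ n ∣ evQ Y := (pow_dvd_pow q hle).trans hdYQ'
    have hd := unip_dense_of_tubePoint hπ τ hinj hB 𝔫 hπ𝔫 P hP {X, Y}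
      (fun x hx => by
        rcases hx with rfl | rfl
        · exact hX
        · exact hY) hgen
    refine unip_eval_sub_mem_span_of_dense 𝔫 {X, Y} (q ^ n) hd evP evQ hmaxP hmaxQ
      (fun x hx => ?_) b
    rw [Ideal.mem_span_singleton]
    rcases hx with rfl | rfl
    · exact dvd_sub hdX' hdXQ
    · exact dvd_sub hdY' hdYQ
  have heq : ∀ b : B, evP b = evQ b := by
    intro b
    have h0 : evP b - evQ b ∈ (⨅ i : ℕ, IsLocalRing.maximalIdeal A₀ ^ i : Ideal A₀) := by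
      rw [Ideal.mem_iInf]
      intro n
      rcases Nat.eq_zero_or_pos n with h | h
      · rw [h, pow_zero, Ideal.one_eq_top]; exact Submodule.mem_top
      · have h1 := key n h b
        rw [Ideal.mem_span_singleton] at h1
        obtain ⟨c, hc⟩ := h1
        obtain ⟨q₁, hq₁⟩ := hqπ
        rw [hc, hq₁, mul_pow, hπ.maximalIdeal_eq, Ideal.span_singleton_pow]
        exact Ideal.mem_span_singleton.mpr ⟨q₁ ^ n * c, by ring⟩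
    rw [Ideal.iInf_pow_eq_bot_of_isLocalRing (IsLocalRing.maximalIdeal A₀)
      Ideal.IsPrime.ne_top'] at h0
    exact sub_eq_zero.mp (by simpa using h0)
  apply hgP
  refine unip_place_eq_of_le hπ τ hτ hB P (g • P) hP.ord_nonneg hP'.ord_nonneg (fun b hb => ?_)
  have hb0 : algebraMap B Lf b ≠ 0 := by
    intro h0
    rw [h0, Place.ord_zero] at hb
    exact lt_irrefl _ hb
  have h1 : evP b = 0 :=
    (unip_tubeEv_eq_zero_iff P evP hevP b).mpr ((unip_mem_nonunits_iff P _).mpr (Or.inr hb))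
  have h2 : evQ b = 0 := by rw [← heq b, h1]
  have h3 := (unip_tubeEv_eq_zero_iff (g • P) evQ hevQ b).mp h2
  rcases (unip_mem_nonunits_iff (g • P) _).mp h3 with h | h
  · exact absurd h hb0
  · exact h

end EWMainGen

section EWCoordChart

variable {A₀ E F : Type*} [CommRing A₀] [IsDomain A₀] [IsDiscreteValuationRing A₀]
  [Field E] [Algebra A₀ E] [IsFractionRing A₀ E] [CharZero E]
  [Field F] [Algebra E F] [Algebra A₀ F] [IsScalarTower A₀ E F]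
  {π : A₀} {κ : Type*}

/-- **`hcoord` at a crossing point** of the chart `u` (components `V c₁`, `V c₂`), general `g`,
thick nodes included. -/
theorem rtk6ew_hcoord_node (hπ : Irreducible π) {u : F} (hu : Transcendental E u)
    [FiniteDimensional E⟮u⟯ F] [IsNoetherianRing ↥(zchClosure (A₀ := A₀) ({u} : Set F))]
    (V : κ → ValuationSubring F)
    (hBV : ∀ c (b : F), IsIntegral ↥(Algebra.adjoin A₀ {u}) b → b ∈ V c)
    (hπV : ∀ c, algebraMap A₀ F π ∈ (V c).nonunits)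
    (hVloc : ∀ c (x : F), x ∈ V c → ∃ b s : F, IsIntegral ↥(Algebra.adjoin A₀ {u}) b ∧
      IsIntegral ↥(Algebra.adjoin A₀ {u}) s ∧ s ∉ (V c).nonunits ∧ s * x = b)
    (g : SemilinearAut E F) (hgu : g • u = u)
    (𝔫 : Ideal ↥(zchClosure (A₀ := A₀) ({u} : Set F))) [𝔫.IsPrime]
    (hπ𝔫 : algebraMap A₀ ↥(zchClosure (A₀ := A₀) ({u} : Set F)) π ∈ 𝔫)
    (hgB : ∀ b : ↥(zchClosure (A₀ := A₀) ({u} : Set F)), b ∈ 𝔫 →
      ∃ b' : ↥(zchClosure (A₀ := A₀) ({u} : Set F)), b' ∈ 𝔫 ∧ g • (b : F) = b')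
    (hgB₀' : ∀ b : F, IsIntegral ↥(Algebra.adjoin A₀ {u}) b →
      IsIntegral ↥(Algebra.adjoin A₀ {u}) (g⁻¹ • b))
    (hgV : ∀ c (f : F), f ≠ 0 → (V c).valuation (g • f / f) = 1)
    (hgA : ∀ α : A₀, ∃ α' : A₀, g • algebraMap A₀ F α = algebraMap A₀ F α')
    (q : A₀) (hq0 : q ≠ 0) (hqπ : π ∣ q) (hgq : ∃ c : A₀, g • algebraMap A₀ F q = algebraMap A₀ F (c * q))
    (c₁ c₂ : κ)
    (hc₁ : ∀ b : ↥(zchClosure (A₀ := A₀) ({u} : Set F)), (b : F) ∈ (V c₁).nonunits → b ∈ 𝔫)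
    (hc₂ : ∀ b : ↥(zchClosure (A₀ := A₀) ({u} : Set F)), (b : F) ∈ (V c₂).nonunits → b ∈ 𝔫)
    (hstage : ∀ n : ℕ, 1 ≤ n → ∃ (n' : ℕ) (X Y G : ↥(zchClosure (A₀ := A₀) ({u} : Set F))),
      (X : F) ∈ (V c₁).nonunits ∧ (Y : F) ∈ (V c₂).nonunits ∧
      (X : F) ∉ (V c₂).nonunits ∧ (Y : F) ∉ (V c₁).nonunits ∧
      X * Y = algebraMap A₀ ↥(zchClosure (A₀ := A₀) ({u} : Set F)) q ^ n' * G ∧
      NodesLocGen 𝔫 {algebraMap A₀ ↥(zchClosure (A₀ := A₀) ({u} : Set F)) π, X, Y} ∧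
      (n ≤ n' ∨ G ∉ 𝔫))
    {x : F}
    (hrat : ∀ P : Place E F, LsTube ↥(zchClosure (A₀ := A₀) ({u} : Set F)) u 𝔫 P →
      g • P ≠ P → P.ord x ≠ 0 → ∀ f ∈ P.toValuationSubring,
        ∃ c : E, f - algebraMap E F c ∈ P.toValuationSubring.nonunits) :
    ∀ P : Place E F, LsTube ↥(zchClosure (A₀ := A₀) ({u} : Set F)) u 𝔫 P →
      g • P ≠ P → P.ord x ≠ 0 → ∃ f : F, f ≠ 0 ∧ P.ord f = 1 ∧
        ∀ Q : Place E F, LsTube ↥(zchClosure (A₀ := A₀) ({u} : Set F)) u 𝔫 Q → g • Q ≠ Q →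
          Q ≠ P → Q.ord f = 0 := by
  intro P hP hgP hPx
  set B := ↥(zchClosure (A₀ := A₀) ({u} : Set F)) with hBdef
  have hinj : Function.Injective (algebraMap B F) := Subtype.val_injective
  haveI h1p := at_crossingIdeal_isPrime (A₀ := A₀) (S := {u}) (V c₁) (hBV c₁)
  haveI h2p := at_crossingIdeal_isPrime (A₀ := A₀) (S := {u}) (V c₂) (hBV c₂)
  have hgB₁' : ∀ b : B, ∃ b' : B, g⁻¹ • algebraMap B F b = algebraMap B F b' := fun b =>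
    ⟨⟨g⁻¹ • (b : F), mem_zchClosure.mpr (hgB₀' _ (mem_zchClosure.mp b.2))⟩, rfl⟩
  have hgV' : ∀ c : κ, ∀ f : F, f ≠ 0 →
      ∃ s s' : B, s ∉ crossingIdeal (A₀ := A₀) {u} (V c) (hBV c) ∧
        s' ∉ crossingIdeal (A₀ := A₀) {u} (V c) (hBV c) ∧
        algebraMap B F s * (g • f / f) = algebraMap B F s' := by
    intro c f hf
    haveI := at_crossingIdeal_isPrime (A₀ := A₀) (S := {u}) (V c) (hBV c)
    refine ls_vertical_unit_of_valuation hinj _ (V c) ?_ (hgV c f hf)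
    intro y hy
    obtain ⟨b, s, hb, hs, hsV, hsy⟩ := hVloc c y hy
    exact ⟨⟨b, mem_zchClosure.mpr hb⟩, ⟨s, mem_zchClosure.mpr hs⟩, hsV, hsy⟩
  obtain ⟨f, hf0, hf1, hf⟩ := rtk6ew_coord_node_gen hπ u hu hinj (unip_chart_range u) 𝔫 hπ𝔫
    (crossingIdeal (A₀ := A₀) {u} (V c₁) (hBV c₁)) (crossingIdeal (A₀ := A₀) {u} (V c₂) (hBV c₂))
    (fun b hb => hc₁ b hb) (fun b hb => hc₂ b hb) (hπV c₁) (hπV c₂) g hgu hgB hgB₁' hgA
    (hgV' c₁) (hgV' c₂) q hq0 hqπ hgq hstage P ⟨hP.1, hP.2, hrat P hP hgP hPx⟩ hgP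
  exact ⟨f, hf0, hf1, fun Q hQ _ hQP => hf Q hQ.1 hQ.2 hQP⟩

/-- **MG-hcoord.**  `hcoord` of `at_local_factor` / `at_main_two` at a prime `𝔫 ∋ π` of the chart
`B' = zchClosure {u}` over the ramified base, from the output of U5 at `𝔫.comap j` on the
unramified chart `R` (`MgcRamified j π p`, `j p = q`), for any `g` preserving `𝔫`, the chart,
the constants, `q` and the vertical valuations. -/
theorem rtk6ew_hcoord_of_nodes (hπ : Irreducible π) {u : F} (hu : Transcendental E u)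
    [FiniteDimensional E⟮u⟯ F] [IsNoetherianRing ↥(zchClosure (A₀ := A₀) ({u} : Set F))]
    (V : κ → ValuationSubring F)
    (hBV : ∀ c (b : F), IsIntegral ↥(Algebra.adjoin A₀ {u}) b → b ∈ V c)
    (hπV : ∀ c, algebraMap A₀ F π ∈ (V c).nonunits)
    (hSS1 : ∀ b : F, IsIntegral ↥(Algebra.adjoin A₀ {u}) b → (∀ c, b ∈ (V c).nonunits) →
      ∃ b' : F, IsIntegral ↥(Algebra.adjoin A₀ {u}) b' ∧ b = algebraMap A₀ F π * b')
    (hVloc : ∀ c (x : F), x ∈ V c → ∃ b s : F, IsIntegral ↥(Algebra.adjoin A₀ {u}) b ∧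
      IsIntegral ↥(Algebra.adjoin A₀ {u}) s ∧ s ∉ (V c).nonunits ∧ s * x = b)
    (g : SemilinearAut E F) (hgu : g • u = u)
    (𝔫 : Ideal ↥(zchClosure (A₀ := A₀) ({u} : Set F))) [𝔫.IsPrime]
    (hπ𝔫 : algebraMap A₀ ↥(zchClosure (A₀ := A₀) ({u} : Set F)) π ∈ 𝔫)
    (hgB : ∀ b : ↥(zchClosure (A₀ := A₀) ({u} : Set F)), b ∈ 𝔫 →
      ∃ b' : ↥(zchClosure (A₀ := A₀) ({u} : Set F)), b' ∈ 𝔫 ∧ g • (b : F) = b')
    (hgB₀' : ∀ b : F, IsIntegral ↥(Algebra.adjoin A₀ {u}) b →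
      IsIntegral ↥(Algebra.adjoin A₀ {u}) (g⁻¹ • b))
    (hgV : ∀ c (f : F), f ≠ 0 → (V c).valuation (g • f / f) = 1)
    (hgA : ∀ α : A₀, ∃ α' : A₀, g • algebraMap A₀ F α = algebraMap A₀ F α')
    (q : A₀) (hq0 : q ≠ 0) (hqπ : π ∣ q) (hgq : ∃ c : A₀, g • algebraMap A₀ F q = algebraMap A₀ F (c * q))
    {R : Type*} [CommRing R] (j : R →+* ↥(zchClosure (A₀ := A₀) ({u} : Set F))) (p : R)
    (hram : MgcRamified j (algebraMap A₀ ↥(zchClosure (A₀ := A₀) ({u} : Set F)) π) p)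
    (hjp : j p = algebraMap A₀ ↥(zchClosure (A₀ := A₀) ({u} : Set F)) q)
    (c₁ c₂ : κ) (hκ : ∀ c, c = c₁ ∨ c = c₂)
    (hnode : (∃ s : R, j s ∈ 𝔫 ∧ NodesLocGen (𝔫.comap j) {p, s}) ∨
      ((∀ x : R, ((j x : ↥(zchClosure (A₀ := A₀) ({u} : Set F))) : F) ∈ (V c₁).nonunits →
          j x ∈ 𝔫) ∧
       (∀ x : R, ((j x : ↥(zchClosure (A₀ := A₀) ({u} : Set F))) : F) ∈ (V c₂).nonunits →
          j x ∈ 𝔫) ∧
       ∃ X Y : R, ((j X : ↥(zchClosure (A₀ := A₀) ({u} : Set F))) : F) ∈ (V c₁).nonunits ∧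
         ((j Y : ↥(zchClosure (A₀ := A₀) ({u} : Set F))) : F) ∈ (V c₂).nonunits ∧
         NodesLocGen (𝔫.comap j) {p, X, Y}))
    {x : F}
    (hrat : ∀ P : Place E F, LsTube ↥(zchClosure (A₀ := A₀) ({u} : Set F)) u 𝔫 P →
      g • P ≠ P → P.ord x ≠ 0 → ∀ f ∈ P.toValuationSubring,
        ∃ c : E, f - algebraMap E F c ∈ P.toValuationSubring.nonunits) :
    ∀ P : Place E F, LsTube ↥(zchClosure (A₀ := A₀) ({u} : Set F)) u 𝔫 P →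
      g • P ≠ P → P.ord x ≠ 0 → ∃ f : F, f ≠ 0 ∧ P.ord f = 1 ∧
        ∀ Q : Place E F, LsTube ↥(zchClosure (A₀ := A₀) ({u} : Set F)) u 𝔫 Q → g • Q ≠ Q →
          Q ≠ P → Q.ord f = 0 := by
  set B := ↥(zchClosure (A₀ := A₀) ({u} : Set F)) with hBdef
  -- the smooth case
  have hdisc : ∀ s : R, j s ∈ 𝔫 → NodesLocGen (𝔫.comap j) {p, s} →
      ∀ P : Place E F, LsTube B u 𝔫 P →
      g • P ≠ P → P.ord x ≠ 0 → ∃ f : F, f ≠ 0 ∧ P.ord f = 1 ∧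
        ∀ Q : Place E F, LsTube B u 𝔫 Q → g • Q ≠ Q → Q ≠ P → Q.ord f = 0 :=
    fun s hs hgen => unip_hcoord_disc hπ hu 𝔫 hπ𝔫 (j s) hs (hram.mgg_locGen_pair hπ𝔫 s hgen) g hrat
  rcases hnode with ⟨s, hs, hgen⟩ | ⟨hthr₁, hthr₂, X, Y, hX, hY, hgen⟩
  · exact hdisc s hs hgen
  -- the two branches on `R`
  haveI h1p := at_crossingIdeal_isPrime (A₀ := A₀) (S := {u}) (V c₁) (hBV c₁)
  haveI h2p := at_crossingIdeal_isPrime (A₀ := A₀) (S := {u}) (V c₂) (hBV c₂)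
  set 𝔭₁ : Ideal R := (crossingIdeal (A₀ := A₀) {u} (V c₁) (hBV c₁)).comap j with h𝔭₁
  set 𝔭₂ : Ideal R := (crossingIdeal (A₀ := A₀) {u} (V c₂) (hBV c₂)).comap j with h𝔭₂
  haveI : 𝔭₁.IsPrime := Ideal.comap_isPrime j _
  haveI : 𝔭₂.IsPrime := Ideal.comap_isPrime j _
  haveI : (𝔫.comap j).IsPrime := Ideal.comap_isPrime j _
  have hϖ1 : algebraMap A₀ B π ∈ crossingIdeal (A₀ := A₀) {u} (V c₁) (hBV c₁) := hπV c₁
  have hϖ2 : algebraMap A₀ B π ∈ crossingIdeal (A₀ := A₀) {u} (V c₂) (hBV c₂) := hπV c₂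
  have hp1 : p ∈ 𝔭₁ := by
    rw [h𝔭₁, Ideal.mem_comap]
    obtain ⟨z, hz⟩ := hram.dvd
    rw [hz]
    exact Ideal.mul_mem_right _ _ hϖ1
  have hp2 : p ∈ 𝔭₂ := by
    rw [h𝔭₂, Ideal.mem_comap]
    obtain ⟨z, hz⟩ := hram.dvd
    rw [hz]
    exact Ideal.mul_mem_right _ _ hϖ2
  have hSS1R : ∀ y : R, y ∈ 𝔭₁ → y ∈ 𝔭₂ → p ∣ y := by
    intro y hy1 hy2
    apply hram.cancel
    obtain ⟨b', hb', hyb'⟩ := hSS1 ((j y : B) : F) (mem_zchClosure.mp (j y).2) (fun c => by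
      rcases hκ c with rfl | rfl
      · exact hy1
      · exact hy2)
    exact ⟨⟨b', mem_zchClosure.mpr hb'⟩, Subtype.ext hyb'⟩
  rcases unip_stage_or_disc (𝔫.comap j) 𝔭₁ 𝔭₂ (fun y hy => hthr₁ y hy) (fun y hy => hthr₂ y hy)
    p hp1 hp2 hSS1R X Y hX hY hgen with ⟨s, hs, hgen'⟩ | hstage
  · exact hdisc s hs hgen'
  -- "through" on `B`
  have hthrB : ∀ c : κ, (∀ y : R, ((j y : B) : F) ∈ (V c).nonunits → j y ∈ 𝔫) →
      ∀ b : B, (b : F) ∈ (V c).nonunits → b ∈ 𝔫 := by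
    intro c hthr b hb
    obtain ⟨y, z, rfl⟩ := hram.decomp b
    have hϖz : algebraMap A₀ B π * z ∈ crossingIdeal (A₀ := A₀) {u} (V c) (hBV c) :=
      Ideal.mul_mem_right _ _ (hπV c)
    have hjy : j y ∈ crossingIdeal (A₀ := A₀) {u} (V c) (hBV c) := by
      have : j y = (j y + algebraMap A₀ B π * z) - algebraMap A₀ B π * z := by ring
      rw [this]
      exact Ideal.sub_mem _ hb hϖz
    exact Ideal.add_mem _ (hthr y hjy) (Ideal.mul_mem_right _ _ hπ𝔫)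
  refine rtk6ew_hcoord_node hπ hu V hBV hπV hVloc g hgu 𝔫 hπ𝔫 hgB hgB₀' hgV hgA q hq0 hqπ hgq c₁ c₂
    (hthrB c₁ hthr₁) (hthrB c₂ hthr₂) ?_ hrat
  intro n hn
  obtain ⟨n', X', Y', G', -, hX1', hY2', hX2', hY1', hXY', hgen', hthin⟩ := hstage n hn
  refine ⟨n', j X', j Y', j G', hX1', hY2', hX2', hY1', ?_,
    hram.mgg_locGen_triple hπ𝔫 X' Y' hgen', ?_⟩
  · rw [← map_mul, hXY', map_mul, map_pow, hjp]
  · rcases hthin with h | h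
    · exact Or.inl h
    · exact Or.inr (fun hG => h (Ideal.mem_comap.mpr hG))

end EWCoordChart

end Fermat.Agent.RT.K6


end ZBRT_030_0

/-! ### bundled: `Fermat.Agent.RT.K6.EWCross` -/
section ZBRT_030_1

/-!
# RT-K6 / E-W, part 2 — (T″) for two components with TWO automorphisms, `g • q = c * q`

Forks of `STB.stb_cross_facAt` (STB/CrossFac.lean), `stb_cp_cross` (STB/CrossPoint.lean),
`stb_mt_hpts_inl`, `stb_mt_hpts_inr`, `stb_mt_hpts`, `stb_main_two` (STB/MainTwo.lean) with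

1. TWO maps: `g` (semilinear, in the factorisation `y = g • x / x`; it has to fix the crossing
   points only: `Rtk6ewFix`) and `Φ` (semilinear, e.g. a linear diamond `δ′` with `Q = 1`; it has
   to satisfy `Φ b ≡ b ^ Q` mod `𝔫` at the crossing points: `Rtk6ewCong`);
2. no hypothesis `g • q = q`: `g` and `g⁻¹` preserve `A₀`, hence `g • q = c * q`
   (`rtk6ew_smul_dvd`); the coordinates `X`, `Y` of the crossing points need not be fixed by `g`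
   (it is enough that `g` preserves the two vertical valuations, `hgV`).

Conclusion of `rtk6ew_main_two`: `Φ y / y ^ Q` is a `p ^ r`-th power, `y = g • x / x` toric.
-/

set_option autoImplicit false
set_option linter.style.haveILetI false
set_option linter.unusedSectionVars false
set_option linter.unusedVariables false

namespace Fermat.Agent.RT.K6

open Polynomial IntermediateField Fermat.Agent.INJ AlgebraicCurve Fermat.Agent.UNIP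
  Fermat.Agent.STB

section EWCross

variable {A₀ E F : Type*} [CommRing A₀] [IsDomain A₀] [IsDiscreteValuationRing A₀]
  [Field E] [Algebra A₀ E] [IsFractionRing A₀ E] [CharZero E]
  [Field F] [Algebra E F] [Algebra A₀ F] [IsScalarTower A₀ E F]
  {π : A₀} {κ : Type*}

/-- **`g` fixes the closed point `𝔫` of the chart `u`**: `g 𝔫 ⊆ 𝔫` and `g⁻¹ 𝔫 ⊆ 𝔫`. -/
def Rtk6ewFix (g : SemilinearAut E F) {u : F} (𝔫 : AtPt (F := F) π u) : Prop :=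
  (∀ b : ↥(zchClosure (A₀ := A₀) ({u} : Set F)), b ∈ 𝔫.1 →
    ∃ b' : ↥(zchClosure (A₀ := A₀) ({u} : Set F)), b' ∈ 𝔫.1 ∧ g • (b : F) = b') ∧
  (∀ b : ↥(zchClosure (A₀ := A₀) ({u} : Set F)), b ∈ 𝔫.1 →
    ∃ b' : ↥(zchClosure (A₀ := A₀) ({u} : Set F)), b' ∈ 𝔫.1 ∧ g⁻¹ • (b : F) = b')

/-- **`Φ b ≡ b ^ Q` mod `𝔫` on the chart `u`** (for `Q = 1`: `Φ` acts trivially on the residue
field of `𝔫`; this contains `Φ 𝔫 ⊆ 𝔫`). -/
def Rtk6ewCong (Φ : F →+* F) (Q : ℕ) {u : F} (𝔫 : AtPt (F := F) π u) : Prop :=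
  ∀ b : ↥(zchClosure (A₀ := A₀) ({u} : Set F)),
    ∃ c : ↥(zchClosure (A₀ := A₀) ({u} : Set F)), c ∈ 𝔫.1 ∧ Φ (b : F) = (b : F) ^ Q + (c : F)

/-- `StbCrossFrob g Q 𝔫` is `Rtk6ewFix g 𝔫` together with `Rtk6ewCong g Q 𝔫`. -/
theorem rtk6ew_crossFrob_iff (g : SemilinearAut E F) (Q : ℕ) {u : F}
    (𝔫 : AtPt (F := F) π u) :
    StbCrossFrob g Q 𝔫 ↔
      Rtk6ewFix g 𝔫 ∧ Rtk6ewCong (SemilinearAut.toRingAut g : F ≃+* F).toRingHom Q 𝔫 :=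
  ⟨fun h => ⟨⟨h.1, h.2.1⟩, h.2.2⟩, fun h => ⟨h.1.1, h.1.2, h.2⟩⟩

/-- **(F) at a closed point of the chart `u` fixed by `g`**, in the form `StbFacAt`:
fork of `STB.stb_cross_facAt` with `g • q = c * q`. -/
theorem rtk6ew_cross_facAt (hπ : Irreducible π) {u : F} (hu : Transcendental E u)
    [FiniteDimensional E⟮u⟯ F] [Finite κ]
    [IsNoetherianRing ↥(zchClosure (A₀ := A₀) ({u} : Set F))]
    (V : κ → ValuationSubring F)
    (hBV : ∀ c (b : F), IsIntegral ↥(Algebra.adjoin A₀ {u}) b → b ∈ V c)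
    (hπV : ∀ c, algebraMap A₀ F π ∈ (V c).nonunits)
    (hSS1 : ∀ b : F, IsIntegral ↥(Algebra.adjoin A₀ {u}) b → (∀ c, b ∈ (V c).nonunits) →
      ∃ b' : F, IsIntegral ↥(Algebra.adjoin A₀ {u}) b' ∧ b = algebraMap A₀ F π * b')
    (hVloc : ∀ c (x : F), x ∈ V c → ∃ b s : F, IsIntegral ↥(Algebra.adjoin A₀ {u}) b ∧
      IsIntegral ↥(Algebra.adjoin A₀ {u}) s ∧ s ∉ (V c).nonunits ∧ s * x = b)
    (g : SemilinearAut E F) (hgu : g • u = u)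
    (𝔫 : AtPt (F := F) π u)
    (hgB : ∀ b : ↥(zchClosure (A₀ := A₀) ({u} : Set F)), b ∈ 𝔫.1 →
      ∃ b' : ↥(zchClosure (A₀ := A₀) ({u} : Set F)), b' ∈ 𝔫.1 ∧ g • (b : F) = b')
    (hgB' : ∀ b : ↥(zchClosure (A₀ := A₀) ({u} : Set F)), b ∈ 𝔫.1 →
      ∃ b' : ↥(zchClosure (A₀ := A₀) ({u} : Set F)), b' ∈ 𝔫.1 ∧ g⁻¹ • (b : F) = b')
    (hgB₀ : ∀ b : F, IsIntegral ↥(Algebra.adjoin A₀ {u}) b →
      IsIntegral ↥(Algebra.adjoin A₀ {u}) (g • b))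
    (hgB₀' : ∀ b : F, IsIntegral ↥(Algebra.adjoin A₀ {u}) b →
      IsIntegral ↥(Algebra.adjoin A₀ {u}) (g⁻¹ • b))
    (hgV : ∀ c (f : F), f ≠ 0 → (V c).valuation (g • f / f) = 1)
    (hgA : ∀ α : A₀, ∃ α' : A₀, g • algebraMap A₀ F α = algebraMap A₀ F α')
    (q : A₀) (hq0 : q ≠ 0) (hqπ : π ∣ q) (hgq : ∃ c : A₀, g • algebraMap A₀ F q = algebraMap A₀ F (c * q))
    {R : Type*} [CommRing R] (j : R →+* ↥(zchClosure (A₀ := A₀) ({u} : Set F))) (p : R)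
    (hram : MgcRamified j (algebraMap A₀ ↥(zchClosure (A₀ := A₀) ({u} : Set F)) π) p)
    (hjp : j p = algebraMap A₀ ↥(zchClosure (A₀ := A₀) ({u} : Set F)) q)
    (c₁ c₂ : κ) (hκ : ∀ c, c = c₁ ∨ c = c₂)
    (hnode : (∃ s : R, j s ∈ 𝔫.1 ∧ NodesLocGen (𝔫.1.comap j) {p, s}) ∨
      ((∀ x : R, ((j x : ↥(zchClosure (A₀ := A₀) ({u} : Set F))) : F) ∈ (V c₁).nonunits →
          j x ∈ 𝔫.1) ∧
       (∀ x : R, ((j x : ↥(zchClosure (A₀ := A₀) ({u} : Set F))) : F) ∈ (V c₂).nonunits →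
          j x ∈ 𝔫.1) ∧
       ∃ X Y : R, ((j X : ↥(zchClosure (A₀ := A₀) ({u} : Set F))) : F) ∈ (V c₁).nonunits ∧
         ((j Y : ↥(zchClosure (A₀ := A₀) ({u} : Set F))) : F) ∈ (V c₂).nonunits ∧
         NodesLocGen (𝔫.1.comap j) {p, X, Y}))
    {x : F} (hx : x ≠ 0) (m : ℕ)
    (hfin : {P : Place E F | LsTube ↥(zchClosure (A₀ := A₀) ({u} : Set F)) u 𝔫.1 P ∧
      g • P ≠ P ∧ P.ord x ≠ 0}.Finite)
    (hm : ∀ P : Place E F, LsTube ↥(zchClosure (A₀ := A₀) ({u} : Set F)) u 𝔫.1 P → g • P ≠ P →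
      (m : ℤ) ∣ P.ord x)
    (hrat : ∀ P : Place E F, LsTube ↥(zchClosure (A₀ := A₀) ({u} : Set F)) u 𝔫.1 P →
      g • P ≠ P → P.ord x ≠ 0 → ∀ f ∈ P.toValuationSubring,
        ∃ c : E, f - algebraMap E F c ∈ P.toValuationSubring.nonunits) :
    StbFacAt (atLoc 𝔫) m (g • x / x) := by
  haveI := 𝔫.2.1.isPrime
  obtain ⟨g₀, e, hg₀, he, he', h⟩ := at_local_factor hπ hu V hBV hπV hSS1 hVloc g hgu 𝔫.1 hgB hgB'
    hgB₀ hgB₀' hgV hx m hfin hm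
    (rtk6ew_hcoord_of_nodes hπ hu V hBV hπV hSS1 hVloc g hgu 𝔫.1 𝔫.2.2 hgB hgB₀' hgV hgA q hq0 hqπ
      hgq j p hram hjp c₁ c₂ hκ hnode hrat)
  obtain ⟨-, hform⟩ := stb_factor_form g hx hg₀ m h
  exact stb_facAt_of_mem _ (stb_smul_div_ne_zero g hx) he he' hform

/-- **Fork of `STB.stb_cp_cross` with TWO maps.**  The hypotheses `StbCross` of
`stb_main_points` at a crossing point `𝔫` of the chart `u` fixed by `g`, for `y = g • x / x` and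
ANY ring endomorphism `Φ` with `Φ b ≡ b ^ Q` mod `𝔫` on the chart (`hfrobB`), from the
crossing datum of U5 on the unramified chart (`hthr₁ … hgen`), the Frobenius congruence on the
chart (`hfrobB`, STB-X) and the local factor (`stb_cross_facAt`, STB-L). -/
theorem rtk6ew_cp_cross (hπ : Irreducible π) {u : F} (hu : Transcendental E u)
    [FiniteDimensional E⟮u⟯ F] [Finite κ]
    [IsNoetherianRing ↥(zchClosure (A₀ := A₀) ({u} : Set F))]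
    (V : κ → ValuationSubring F)
    (hBV : ∀ c (b : F), IsIntegral ↥(Algebra.adjoin A₀ {u}) b → b ∈ V c)
    (hπV : ∀ c, algebraMap A₀ F π ∈ (V c).nonunits)
    (hSS1 : ∀ b : F, IsIntegral ↥(Algebra.adjoin A₀ {u}) b → (∀ c, b ∈ (V c).nonunits) →
      ∃ b' : F, IsIntegral ↥(Algebra.adjoin A₀ {u}) b' ∧ b = algebraMap A₀ F π * b')
    (hVloc : ∀ c (x : F), x ∈ V c → ∃ b s : F, IsIntegral ↥(Algebra.adjoin A₀ {u}) b ∧
      IsIntegral ↥(Algebra.adjoin A₀ {u}) s ∧ s ∉ (V c).nonunits ∧ s * x = b)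
    (g : SemilinearAut E F) (hgu : g • u = u)
    (𝔫 : AtPt (F := F) π u)
    (hgB : ∀ b : ↥(zchClosure (A₀ := A₀) ({u} : Set F)), b ∈ 𝔫.1 →
      ∃ b' : ↥(zchClosure (A₀ := A₀) ({u} : Set F)), b' ∈ 𝔫.1 ∧ g • (b : F) = b')
    (hgB' : ∀ b : ↥(zchClosure (A₀ := A₀) ({u} : Set F)), b ∈ 𝔫.1 →
      ∃ b' : ↥(zchClosure (A₀ := A₀) ({u} : Set F)), b' ∈ 𝔫.1 ∧ g⁻¹ • (b : F) = b')
    (hgB₀ : ∀ b : F, IsIntegral ↥(Algebra.adjoin A₀ {u}) b →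
      IsIntegral ↥(Algebra.adjoin A₀ {u}) (g • b))
    (hgB₀' : ∀ b : F, IsIntegral ↥(Algebra.adjoin A₀ {u}) b →
      IsIntegral ↥(Algebra.adjoin A₀ {u}) (g⁻¹ • b))
    (hgV : ∀ c (f : F), f ≠ 0 → (V c).valuation (g • f / f) = 1)
    (hgA : ∀ α : A₀, ∃ α' : A₀, g • algebraMap A₀ F α = algebraMap A₀ F α')
    (q : A₀) (hq0 : q ≠ 0) (hqπ : π ∣ q) (hgq : ∃ c : A₀, g • algebraMap A₀ F q = algebraMap A₀ F (c * q))
    {R : Type*} [CommRing R] (j : R →+* ↥(zchClosure (A₀ := A₀) ({u} : Set F))) (p : R)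
    (hram : MgcRamified j (algebraMap A₀ ↥(zchClosure (A₀ := A₀) ({u} : Set F)) π) p)
    (hjp : j p = algebraMap A₀ ↥(zchClosure (A₀ := A₀) ({u} : Set F)) q)
    (c₁ c₂ : κ) (hκ : ∀ c, c = c₁ ∨ c = c₂)
    (hthr₁ : ∀ x : R, ((j x : ↥(zchClosure (A₀ := A₀) ({u} : Set F))) : F) ∈ (V c₁).nonunits → j x ∈ 𝔫.1)
    (hthr₂ : ∀ x : R, ((j x : ↥(zchClosure (A₀ := A₀) ({u} : Set F))) : F) ∈ (V c₂).nonunits → j x ∈ 𝔫.1)
    (X Y : R) (hX : ((j X : ↥(zchClosure (A₀ := A₀) ({u} : Set F))) : F) ∈ (V c₁).nonunits)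
    (hY : ((j Y : ↥(zchClosure (A₀ := A₀) ({u} : Set F))) : F) ∈ (V c₂).nonunits)
    (hgen : NodesLocGen (𝔫.1.comap j) {p, X, Y})
    (Φ : F →+* F) (Q : ℕ)
    (hfrobB : ∀ b : ↥(zchClosure (A₀ := A₀) ({u} : Set F)), ∃ c : ↥(zchClosure (A₀ := A₀) ({u} : Set F)), c ∈ 𝔫.1 ∧ Φ (b : F) = (b : F) ^ Q + (c : F))
    {x : F} (hx : x ≠ 0) (m : ℕ)
    (hfin : {P : Place E F | LsTube ↥(zchClosure (A₀ := A₀) ({u} : Set F)) u 𝔫.1 P ∧
      g • P ≠ P ∧ P.ord x ≠ 0}.Finite)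
    (hm : ∀ P : Place E F, LsTube ↥(zchClosure (A₀ := A₀) ({u} : Set F)) u 𝔫.1 P → g • P ≠ P →
      (m : ℤ) ∣ P.ord x)
    (hrat : ∀ P : Place E F, LsTube ↥(zchClosure (A₀ := A₀) ({u} : Set F)) u 𝔫.1 P →
      g • P ≠ P → P.ord x ≠ 0 → ∀ f ∈ P.toValuationSubring,
        ∃ c : E, f - algebraMap E F c ∈ P.toValuationSubring.nonunits) :
    atThrough 𝔫 (V c₁) ∧ atThrough 𝔫 (V c₂) ∧
      StbCross (atLoc 𝔫) (V c₁) (V c₂) Φ Q m (g • x / x) := by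
  haveI := 𝔫.2.1.isPrime
  have hT₁ : atThrough 𝔫 (V c₁) := stb_cp_through (V c₁) (hBV c₁) (hπV c₁) 𝔫 j p hram hthr₁
  have hT₂ : atThrough 𝔫 (V c₂) := stb_cp_through (V c₂) (hBV c₂) (hπV c₂) 𝔫 j p hram hthr₂
  have hG := stb_cp_locGen 𝔫 j p hram X Y hgen
  refine ⟨hT₁, hT₂, ?_, ?_, ?_, ?_, ?_⟩
  · exact stb_cp_sum (V c₁) (V c₂) (hBV c₁) (hBV c₂) (hπV c₁) 𝔫 hT₁ hT₂ (j X) (j Y) hX hY hG
  · exact stb_cp_res₁ (V c₁) (hBV c₁) (hπV c₁) (hVloc c₁) 𝔫 hT₁ (j X) (j Y) hX (hT₂ _ hY) hG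
  · exact stb_cp_res₂ (V c₂) (hBV c₂) (hπV c₂) (hVloc c₂) 𝔫 hT₂ (j X) (j Y) (hT₁ _ hX) hY hG
  · exact stb_cp_frob 𝔫 Φ Q hfrobB
  · exact rtk6ew_cross_facAt hπ hu V hBV hπV hSS1 hVloc g hgu 𝔫 hgB hgB' hgB₀ hgB₀' hgV hgA q hq0
      hqπ hgq j p hram hjp c₁ c₂ hκ (Or.inr ⟨hthr₁, hthr₂, X, Y, hX, hY, hgen⟩) hx m hfin hm hrat

/-- **Chart `t`**: the hypothesis `hpts (Sum.inl 𝔫)` of `stb_main_points` for `y = g • x / x`
and the map `Φ`, from the dichotomy of U5 at `𝔫`; at the crossing points `g` fixes `𝔫` and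
`Φ b ≡ b ^ Q` mod `𝔫`.  Fork of `STB.stb_mt_hpts_inl`. -/
theorem rtk6ew_hpts_inl (hπ : Irreducible π) {t : F} (ht : Transcendental E t)
    [FiniteDimensional E⟮t⟯ F] [Finite κ]
    [IsNoetherianRing ↥(zchClosure (A₀ := A₀) ({t} : Set F))]
    (V : κ → ValuationSubring F) (c₁ c₂ : κ) (hκ : ∀ c, c = c₁ ∨ c = c₂) (hne : V c₁ ≠ V c₂)
    (hBV : ∀ c (b : F), IsIntegral ↥(Algebra.adjoin A₀ {t}) b → b ∈ V c)
    (hπV : ∀ c, algebraMap A₀ F π ∈ (V c).nonunits)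
    (hSS1 : ∀ b : F, IsIntegral ↥(Algebra.adjoin A₀ {t}) b → (∀ c, b ∈ (V c).nonunits) →
      ∃ b' : F, IsIntegral ↥(Algebra.adjoin A₀ {t}) b' ∧ b = algebraMap A₀ F π * b')
    (harch : ∀ c (a x : F), a ∈ (V c).nonunits → ∃ N : ℕ, a ^ N * x ∈ (V c).nonunits)
    (hVloc : ∀ c (x : F), x ∈ V c → ∃ b s : F, IsIntegral ↥(Algebra.adjoin A₀ {t}) b ∧
      IsIntegral ↥(Algebra.adjoin A₀ {t}) s ∧ s ∉ (V c).nonunits ∧ s * x = b)
    (g : SemilinearAut E F) (hgu : g • t = t)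
    (hgV : ∀ c (f : F), f ≠ 0 → (V c).valuation (g • f / f) = 1)
    (hgA : ∀ α : A₀, ∃ α' : A₀, g • algebraMap A₀ F α = algebraMap A₀ F α')
    (hgA' : ∀ α : A₀, ∃ α' : A₀, g⁻¹ • algebraMap A₀ F α = algebraMap A₀ F α')
    (Φ : SemilinearAut E F) (hΦu : Φ • t = t)
    (hΦV : ∀ c (f : F), f ≠ 0 → (V c).valuation (Φ • f / f) = 1)
    (hΦA : ∀ α : A₀, ∃ α' : A₀, Φ • algebraMap A₀ F α = algebraMap A₀ F α')
    (hΦA' : ∀ α : A₀, ∃ α' : A₀, Φ⁻¹ • algebraMap A₀ F α = algebraMap A₀ F α')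
    (q : A₀) (hq0 : q ≠ 0) (hqπ : π ∣ q)
    {R : Type*} [CommRing R] (j : R →+* ↥(zchClosure (A₀ := A₀) ({t} : Set F))) (p : R)
    (hram : MgcRamified j (algebraMap A₀ ↥(zchClosure (A₀ := A₀) ({t} : Set F)) π) p)
    (hjp : j p = algebraMap A₀ ↥(zchClosure (A₀ := A₀) ({t} : Set F)) q)
    (𝔫 : AtPt (F := F) π t)
    (hnode : StbNodeAt (V c₁) (V c₂) 𝔫 j p)
    (Q : ℕ)
    (hfix : atThrough 𝔫 (V c₁) → atThrough 𝔫 (V c₂) → Rtk6ewFix g 𝔫)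
    (Φ' : F →+* F) (hΦ' : ∀ x : F, Φ' x = Φ • x)
    (hcong : atThrough 𝔫 (V c₁) → atThrough 𝔫 (V c₂) → Rtk6ewCong Φ' Q 𝔫)
    {x : F} (hx : x ≠ 0) (m : ℕ)
    (hfin : {P : Place E F | P.ord x ≠ 0}.Finite)
    (hm : ∀ P : Place E F, (m : ℤ) ∣ P.ord x)
    (hrat : ∀ P : Place E F, P.ord x ≠ 0 → ∀ f ∈ P.toValuationSubring,
      ∃ c : E, f - algebraMap E F c ∈ P.toValuationSubring.nonunits)
    (tt : κ → F) (htoric : ∀ c, (g • x / x) / tt c ^ m - 1 ∈ (V c).nonunits) :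
    (atInc π t V (Sum.inl 𝔫) c₁ ∧ atInc π t V (Sum.inl 𝔫) c₂ ∧
      StbCross (atO π t (Sum.inl 𝔫)) (V c₁) (V c₂) Φ' Q m (g • x / x)) ∨
    (∃ c, atInc π t V (Sum.inl 𝔫) c ∧ (∀ c', atInc π t V (Sum.inl 𝔫) c' → c' = c) ∧
      ∃ i₁ : AtPt (F := F) π t ⊕ AtPt (F := F) π t⁻¹, atInc π t V i₁ c ∧
        StbSmooth (atO π t (Sum.inl 𝔫)) (atO π t i₁) (V c) Φ' m (g • x / x)) := by
  have hΦeq : Φ' = (SemilinearAut.toRingAut Φ : F ≃+* F).toRingHom := RingHom.ext hΦ'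
  subst hΦeq
  have hgB₀ : ∀ b : F, IsIntegral ↥(Algebra.adjoin A₀ {t}) b →
      IsIntegral ↥(Algebra.adjoin A₀ {t}) (g • b) :=
    fun b hb => stb_mt_isIntegral_smul g hgu hgA hb
  have hgu' : g⁻¹ • t = t := by
    conv_lhs => rw [← hgu]
    rw [inv_smul_smul]
  have hgB₀' : ∀ b : F, IsIntegral ↥(Algebra.adjoin A₀ {t}) b →
      IsIntegral ↥(Algebra.adjoin A₀ {t}) (g⁻¹ • b) :=
    fun b hb => stb_mt_isIntegral_smul g⁻¹ hgu' hgA' hb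
  have hΦB₀ : ∀ b : F, IsIntegral ↥(Algebra.adjoin A₀ {t}) b →
      IsIntegral ↥(Algebra.adjoin A₀ {t}) (Φ • b) :=
    fun b hb => stb_mt_isIntegral_smul Φ hΦu hΦA hb
  have hΦu' : Φ⁻¹ • t = t := by
    conv_lhs => rw [← hΦu]
    rw [inv_smul_smul]
  have hΦB₀' : ∀ b : F, IsIntegral ↥(Algebra.adjoin A₀ {t}) b →
      IsIntegral ↥(Algebra.adjoin A₀ {t}) (Φ⁻¹ • b) :=
    fun b hb => stb_mt_isIntegral_smul Φ⁻¹ hΦu' hΦA' hb
  rcases hnode with ⟨s, hs, hgen⟩ | ⟨hthr₁, hthr₂, X, Y, hX, hY, hgen⟩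
  · -- smooth point
    right
    have hne' : ∀ c c', c ≠ c' → V c ≠ V c' := by
      intro c c' hcc' h
      rcases hκ c with rfl | rfl <;> rcases hκ c' with rfl | rfl
      · exact hcc' rfl
      · exact hne h
      · exact hne h.symm
      · exact hcc' rfl
    have hyfin : ∀ 𝔫' : AtPt (F := F) π t, {P : Place E F |
        LsTube ↥(zchClosure (A₀ := A₀) ({t} : Set F)) t 𝔫'.1 P ∧
          P.ord (g • x / x) ≠ 0}.Finite := by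
      intro 𝔫'
      have h2 : {P : Place E F | (g⁻¹ • P).ord x ≠ 0}.Finite := by
        have := hfin.image (fun P : Place E F => g • P)
        refine this.subset ?_
        intro P hP
        exact ⟨g⁻¹ • P, hP, smul_inv_smul g P⟩
      refine (hfin.union h2).subset ?_
      rintro P ⟨-, hP⟩
      rw [stb_mt_ord_div g P hx] at hP
      by_contra hcon
      rw [Set.mem_union, not_or] at hcon
      have h3 : P.ord x = 0 := not_not.mp hcon.1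
      have h4 : (g⁻¹ • P).ord x = 0 := not_not.mp hcon.2
      exact hP (by rw [h3, h4, sub_zero])
    have hym : ∀ 𝔫' : AtPt (F := F) π t, ∀ P : Place E F,
        LsTube ↥(zchClosure (A₀ := A₀) ({t} : Set F)) t 𝔫'.1 P →
          (m : ℤ) ∣ P.ord (g • x / x) := by
      intro 𝔫' P _
      rw [stb_mt_ord_div g P hx]
      exact dvd_sub (hm _) (hm _)
    have hyrat : ∀ 𝔫' : AtPt (F := F) π t, ∀ P : Place E F,
        LsTube ↥(zchClosure (A₀ := A₀) ({t} : Set F)) t 𝔫'.1 P → P.ord (g • x / x) ≠ 0 →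
        ∀ f ∈ P.toValuationSubring,
          ∃ c : E, f - algebraMap E F c ∈ P.toValuationSubring.nonunits := by
      intro 𝔫' P _ hP
      by_cases h3 : P.ord x = 0
      · have h4 : (g⁻¹ • P).ord x ≠ 0 := by
          intro h4
          rw [stb_mt_ord_div g P hx, h3, h4, sub_zero] at hP
          exact hP rfl
        have := stb_mt_rat_smul g (g⁻¹ • P) (hrat _ h4)
        rwa [smul_inv_smul] at this
      · exact hrat P h3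
    exact stb_sx_hpts_inl hπ ht V hBV hπV hSS1 hVloc hne' harch (SemilinearAut.toRingAut Φ)
      hΦB₀ hΦB₀'
      (stb_st_map_pi E hπ (SemilinearAut.toRingAut Φ) hΦA hΦA')
      (stb_st_map_pi E hπ (SemilinearAut.toRingAut Φ).symm hΦA' hΦA)
      (fun c x hx' => stb_mt_map_nonunits Φ (V c) (hΦV c) hx')
      (fun c x hx' => stb_mt_map_nonunits Φ⁻¹ (V c) (stb_mt_inv_valuation Φ (V c) (hΦV c)) hx')
      𝔫 (j s) hs (hram.mgg_locGen_pair 𝔫.2.2 s hgen) m tt htoric hyfin hym hyrat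
  · -- crossing point
    left
    have hT₁ : atThrough 𝔫 (V c₁) := stb_cp_through (V c₁) (hBV c₁) (hπV c₁) 𝔫 j p hram hthr₁
    have hT₂ : atThrough 𝔫 (V c₂) := stb_cp_through (V c₂) (hBV c₂) (hπV c₂) 𝔫 j p hram hthr₂
    obtain ⟨hgB, hgB'⟩ := hfix hT₁ hT₂
    exact rtk6ew_cp_cross hπ ht V hBV hπV hSS1 hVloc g hgu 𝔫 hgB hgB' hgB₀ hgB₀' hgV hgA
      q hq0 hqπ (rtk6ew_smul_dvd g hgA hgA' q) j p hram hjp c₁ c₂ hκ hthr₁ hthr₂ X Y hX hY hgen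
      (SemilinearAut.toRingAut Φ : F ≃+* F).toRingHom Q (hcong hT₁ hT₂) hx m
      (hfin.subset fun P hP => hP.2.2) (fun P _ _ => hm P) (fun P _ _ hP => hrat P hP)

/-- **Chart `t⁻¹`**: the hypothesis `hpts (Sum.inr 𝔫)` of `stb_main_points` for `y = g • x / x`
and the map `Φ`, from the dichotomy of U5 at `𝔫`; at the crossing points `g` fixes `𝔫` and
`Φ b ≡ b ^ Q` mod `𝔫`.  Fork of `STB.stb_mt_hpts_inr`. -/
theorem rtk6ew_hpts_inr (hπ : Irreducible π) {t : F} (ht' : Transcendental E t⁻¹)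
    [FiniteDimensional E⟮t⁻¹⟯ F] [Finite κ]
    [IsNoetherianRing ↥(zchClosure (A₀ := A₀) ({t⁻¹} : Set F))]
    (V : κ → ValuationSubring F) (c₁ c₂ : κ) (hκ : ∀ c, c = c₁ ∨ c = c₂) (hne : V c₁ ≠ V c₂)
    (hBV : ∀ c (b : F), IsIntegral ↥(Algebra.adjoin A₀ {t⁻¹}) b → b ∈ V c)
    (hπV : ∀ c, algebraMap A₀ F π ∈ (V c).nonunits)
    (hSS1 : ∀ b : F, IsIntegral ↥(Algebra.adjoin A₀ {t⁻¹}) b → (∀ c, b ∈ (V c).nonunits) →
      ∃ b' : F, IsIntegral ↥(Algebra.adjoin A₀ {t⁻¹}) b' ∧ b = algebraMap A₀ F π * b')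
    (harch : ∀ c (a x : F), a ∈ (V c).nonunits → ∃ N : ℕ, a ^ N * x ∈ (V c).nonunits)
    (hVloc : ∀ c (x : F), x ∈ V c → ∃ b s : F, IsIntegral ↥(Algebra.adjoin A₀ {t⁻¹}) b ∧
      IsIntegral ↥(Algebra.adjoin A₀ {t⁻¹}) s ∧ s ∉ (V c).nonunits ∧ s * x = b)
    (g : SemilinearAut E F) (hgu : g • t⁻¹ = t⁻¹)
    (hgV : ∀ c (f : F), f ≠ 0 → (V c).valuation (g • f / f) = 1)
    (hgA : ∀ α : A₀, ∃ α' : A₀, g • algebraMap A₀ F α = algebraMap A₀ F α')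
    (hgA' : ∀ α : A₀, ∃ α' : A₀, g⁻¹ • algebraMap A₀ F α = algebraMap A₀ F α')
    (Φ : SemilinearAut E F) (hΦu : Φ • t⁻¹ = t⁻¹)
    (hΦV : ∀ c (f : F), f ≠ 0 → (V c).valuation (Φ • f / f) = 1)
    (hΦA : ∀ α : A₀, ∃ α' : A₀, Φ • algebraMap A₀ F α = algebraMap A₀ F α')
    (hΦA' : ∀ α : A₀, ∃ α' : A₀, Φ⁻¹ • algebraMap A₀ F α = algebraMap A₀ F α')
    (q : A₀) (hq0 : q ≠ 0) (hqπ : π ∣ q)
    {R : Type*} [CommRing R] (j : R →+* ↥(zchClosure (A₀ := A₀) ({t⁻¹} : Set F))) (p : R)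
    (hram : MgcRamified j (algebraMap A₀ ↥(zchClosure (A₀ := A₀) ({t⁻¹} : Set F)) π) p)
    (hjp : j p = algebraMap A₀ ↥(zchClosure (A₀ := A₀) ({t⁻¹} : Set F)) q)
    (𝔫 : AtPt (F := F) π t⁻¹)
    (hnode : StbNodeAt (V c₁) (V c₂) 𝔫 j p)
    (Q : ℕ)
    (hfix : atThrough 𝔫 (V c₁) → atThrough 𝔫 (V c₂) → Rtk6ewFix g 𝔫)
    (Φ' : F →+* F) (hΦ' : ∀ x : F, Φ' x = Φ • x)
    (hcong : atThrough 𝔫 (V c₁) → atThrough 𝔫 (V c₂) → Rtk6ewCong Φ' Q 𝔫)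
    {x : F} (hx : x ≠ 0) (m : ℕ)
    (hfin : {P : Place E F | P.ord x ≠ 0}.Finite)
    (hm : ∀ P : Place E F, (m : ℤ) ∣ P.ord x)
    (hrat : ∀ P : Place E F, P.ord x ≠ 0 → ∀ f ∈ P.toValuationSubring,
      ∃ c : E, f - algebraMap E F c ∈ P.toValuationSubring.nonunits)
    (tt : κ → F) (htoric : ∀ c, (g • x / x) / tt c ^ m - 1 ∈ (V c).nonunits) :
    (atInc π t V (Sum.inr 𝔫) c₁ ∧ atInc π t V (Sum.inr 𝔫) c₂ ∧
      StbCross (atO π t (Sum.inr 𝔫)) (V c₁) (V c₂) Φ' Q m (g • x / x)) ∨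
    (∃ c, atInc π t V (Sum.inr 𝔫) c ∧ (∀ c', atInc π t V (Sum.inr 𝔫) c' → c' = c) ∧
      ∃ i₁ : AtPt (F := F) π t ⊕ AtPt (F := F) π t⁻¹, atInc π t V i₁ c ∧
        StbSmooth (atO π t (Sum.inr 𝔫)) (atO π t i₁) (V c) Φ' m (g • x / x)) := by
  have hΦeq : Φ' = (SemilinearAut.toRingAut Φ : F ≃+* F).toRingHom := RingHom.ext hΦ'
  subst hΦeq
  have hgB₀ : ∀ b : F, IsIntegral ↥(Algebra.adjoin A₀ {t⁻¹}) b →
      IsIntegral ↥(Algebra.adjoin A₀ {t⁻¹}) (g • b) :=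
    fun b hb => stb_mt_isIntegral_smul g hgu hgA hb
  have hgu' : g⁻¹ • t⁻¹ = t⁻¹ := by
    conv_lhs => rw [← hgu]
    rw [inv_smul_smul]
  have hgB₀' : ∀ b : F, IsIntegral ↥(Algebra.adjoin A₀ {t⁻¹}) b →
      IsIntegral ↥(Algebra.adjoin A₀ {t⁻¹}) (g⁻¹ • b) :=
    fun b hb => stb_mt_isIntegral_smul g⁻¹ hgu' hgA' hb
  have hΦB₀ : ∀ b : F, IsIntegral ↥(Algebra.adjoin A₀ {t⁻¹}) b →
      IsIntegral ↥(Algebra.adjoin A₀ {t⁻¹}) (Φ • b) :=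
    fun b hb => stb_mt_isIntegral_smul Φ hΦu hΦA hb
  have hΦu' : Φ⁻¹ • t⁻¹ = t⁻¹ := by
    conv_lhs => rw [← hΦu]
    rw [inv_smul_smul]
  have hΦB₀' : ∀ b : F, IsIntegral ↥(Algebra.adjoin A₀ {t⁻¹}) b →
      IsIntegral ↥(Algebra.adjoin A₀ {t⁻¹}) (Φ⁻¹ • b) :=
    fun b hb => stb_mt_isIntegral_smul Φ⁻¹ hΦu' hΦA' hb
  rcases hnode with ⟨s, hs, hgen⟩ | ⟨hthr₁, hthr₂, X, Y, hX, hY, hgen⟩
  · -- smooth point
    right
    have hne' : ∀ c c', c ≠ c' → V c ≠ V c' := by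
      intro c c' hcc' h
      rcases hκ c with rfl | rfl <;> rcases hκ c' with rfl | rfl
      · exact hcc' rfl
      · exact hne h
      · exact hne h.symm
      · exact hcc' rfl
    have hyfin : ∀ 𝔫' : AtPt (F := F) π t⁻¹, {P : Place E F |
        LsTube ↥(zchClosure (A₀ := A₀) ({t⁻¹} : Set F)) t⁻¹ 𝔫'.1 P ∧
          P.ord (g • x / x) ≠ 0}.Finite := by
      intro 𝔫'
      have h2 : {P : Place E F | (g⁻¹ • P).ord x ≠ 0}.Finite := by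
        have := hfin.image (fun P : Place E F => g • P)
        refine this.subset ?_
        intro P hP
        exact ⟨g⁻¹ • P, hP, smul_inv_smul g P⟩
      refine (hfin.union h2).subset ?_
      rintro P ⟨-, hP⟩
      rw [stb_mt_ord_div g P hx] at hP
      by_contra hcon
      rw [Set.mem_union, not_or] at hcon
      have h3 : P.ord x = 0 := not_not.mp hcon.1
      have h4 : (g⁻¹ • P).ord x = 0 := not_not.mp hcon.2
      exact hP (by rw [h3, h4, sub_zero])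
    have hym : ∀ 𝔫' : AtPt (F := F) π t⁻¹, ∀ P : Place E F,
        LsTube ↥(zchClosure (A₀ := A₀) ({t⁻¹} : Set F)) t⁻¹ 𝔫'.1 P →
          (m : ℤ) ∣ P.ord (g • x / x) := by
      intro 𝔫' P _
      rw [stb_mt_ord_div g P hx]
      exact dvd_sub (hm _) (hm _)
    have hyrat : ∀ 𝔫' : AtPt (F := F) π t⁻¹, ∀ P : Place E F,
        LsTube ↥(zchClosure (A₀ := A₀) ({t⁻¹} : Set F)) t⁻¹ 𝔫'.1 P → P.ord (g • x / x) ≠ 0 →
        ∀ f ∈ P.toValuationSubring,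
          ∃ c : E, f - algebraMap E F c ∈ P.toValuationSubring.nonunits := by
      intro 𝔫' P _ hP
      by_cases h3 : P.ord x = 0
      · have h4 : (g⁻¹ • P).ord x ≠ 0 := by
          intro h4
          rw [stb_mt_ord_div g P hx, h3, h4, sub_zero] at hP
          exact hP rfl
        have := stb_mt_rat_smul g (g⁻¹ • P) (hrat _ h4)
        rwa [smul_inv_smul] at this
      · exact hrat P h3
    exact stb_sx_hpts_inr hπ ht' V hBV hπV hSS1 hVloc hne' harch (SemilinearAut.toRingAut Φ)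
      hΦB₀ hΦB₀'
      (stb_st_map_pi E hπ (SemilinearAut.toRingAut Φ) hΦA hΦA')
      (stb_st_map_pi E hπ (SemilinearAut.toRingAut Φ).symm hΦA' hΦA)
      (fun c x hx' => stb_mt_map_nonunits Φ (V c) (hΦV c) hx')
      (fun c x hx' => stb_mt_map_nonunits Φ⁻¹ (V c) (stb_mt_inv_valuation Φ (V c) (hΦV c)) hx')
      𝔫 (j s) hs (hram.mgg_locGen_pair 𝔫.2.2 s hgen) m tt htoric hyfin hym hyrat
  · -- crossing point
    left
    have hT₁ : atThrough 𝔫 (V c₁) := stb_cp_through (V c₁) (hBV c₁) (hπV c₁) 𝔫 j p hram hthr₁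
    have hT₂ : atThrough 𝔫 (V c₂) := stb_cp_through (V c₂) (hBV c₂) (hπV c₂) 𝔫 j p hram hthr₂
    obtain ⟨hgB, hgB'⟩ := hfix hT₁ hT₂
    exact rtk6ew_cp_cross hπ ht' V hBV hπV hSS1 hVloc g hgu 𝔫 hgB hgB' hgB₀ hgB₀' hgV hgA
      q hq0 hqπ (rtk6ew_smul_dvd g hgA hgA' q) j p hram hjp c₁ c₂ hκ hthr₁ hthr₂ X Y hX hY hgen
      (SemilinearAut.toRingAut Φ : F ≃+* F).toRingHom Q (hcong hT₁ hT₂) hx m
      (hfin.subset fun P hP => hP.2.2) (fun P _ _ => hm P) (fun P _ _ hP => hrat P hP)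

/-- **The hypothesis `hpts` of `stb_main_points`** (all closed points of both charts) for
`y = g • x / x` and the map `Φ`.  Fork of `STB.stb_mt_hpts`. -/
theorem rtk6ew_hpts (hπ : Irreducible π) {t : F} (ht : Transcendental E t)
    [FiniteDimensional E⟮t⟯ F] [Finite κ]
    [IsNoetherianRing ↥(zchClosure (A₀ := A₀) ({t} : Set F))]
    [IsNoetherianRing ↥(zchClosure (A₀ := A₀) ({t⁻¹} : Set F))]
    (V : κ → ValuationSubring F) (c₁ c₂ : κ) (hκ : ∀ c, c = c₁ ∨ c = c₂) (hne : V c₁ ≠ V c₂)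
    (hBV₁ : ∀ c (b : F), IsIntegral ↥(Algebra.adjoin A₀ {t}) b → b ∈ V c)
    (hBV₂ : ∀ c (b : F), IsIntegral ↥(Algebra.adjoin A₀ {t⁻¹}) b → b ∈ V c)
    (hπV : ∀ c, algebraMap A₀ F π ∈ (V c).nonunits)
    (hSS1 : ∀ b : F, IsIntegral ↥(Algebra.adjoin A₀ {t}) b → (∀ c, b ∈ (V c).nonunits) →
      ∃ b' : F, IsIntegral ↥(Algebra.adjoin A₀ {t}) b' ∧ b = algebraMap A₀ F π * b')
    (harch : ∀ c (a x : F), a ∈ (V c).nonunits → ∃ N : ℕ, a ^ N * x ∈ (V c).nonunits)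
    (hVloc₁ : ∀ c (x : F), x ∈ V c → ∃ b s : F, IsIntegral ↥(Algebra.adjoin A₀ {t}) b ∧
      IsIntegral ↥(Algebra.adjoin A₀ {t}) s ∧ s ∉ (V c).nonunits ∧ s * x = b)
    (hVloc₂ : ∀ c (x : F), x ∈ V c → ∃ b s : F, IsIntegral ↥(Algebra.adjoin A₀ {t⁻¹}) b ∧
      IsIntegral ↥(Algebra.adjoin A₀ {t⁻¹}) s ∧ s ∉ (V c).nonunits ∧ s * x = b)
    (g : SemilinearAut E F) (hgt : g • t = t)
    (hgV : ∀ c (f : F), f ≠ 0 → (V c).valuation (g • f / f) = 1)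
    (hgA : ∀ α : A₀, ∃ α' : A₀, g • algebraMap A₀ F α = algebraMap A₀ F α')
    (hgA' : ∀ α : A₀, ∃ α' : A₀, g⁻¹ • algebraMap A₀ F α = algebraMap A₀ F α')
    (Φ : SemilinearAut E F) (hΦt : Φ • t = t)
    (hΦV : ∀ c (f : F), f ≠ 0 → (V c).valuation (Φ • f / f) = 1)
    (hΦA : ∀ α : A₀, ∃ α' : A₀, Φ • algebraMap A₀ F α = algebraMap A₀ F α')
    (hΦA' : ∀ α : A₀, ∃ α' : A₀, Φ⁻¹ • algebraMap A₀ F α = algebraMap A₀ F α')
    (q : A₀) (hq0 : q ≠ 0) (hqπ : π ∣ q)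
    {R₁ : Type*} [CommRing R₁] (j₁ : R₁ →+* ↥(zchClosure (A₀ := A₀) ({t} : Set F))) (p₁ : R₁)
    (hram₁ : MgcRamified j₁ (algebraMap A₀ ↥(zchClosure (A₀ := A₀) ({t} : Set F)) π) p₁)
    (hjp₁ : j₁ p₁ = algebraMap A₀ ↥(zchClosure (A₀ := A₀) ({t} : Set F)) q)
    {R₂ : Type*} [CommRing R₂] (j₂ : R₂ →+* ↥(zchClosure (A₀ := A₀) ({t⁻¹} : Set F))) (p₂ : R₂)
    (hram₂ : MgcRamified j₂ (algebraMap A₀ ↥(zchClosure (A₀ := A₀) ({t⁻¹} : Set F)) π) p₂)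
    (hjp₂ : j₂ p₂ = algebraMap A₀ ↥(zchClosure (A₀ := A₀) ({t⁻¹} : Set F)) q)
    (hnode₁ : ∀ 𝔫 : AtPt (F := F) π t, StbNodeAt (V c₁) (V c₂) 𝔫 j₁ p₁)
    (hnode₂ : ∀ 𝔫 : AtPt (F := F) π t⁻¹, StbNodeAt (V c₁) (V c₂) 𝔫 j₂ p₂)
    (Q : ℕ)
    (hfix₁ : ∀ 𝔫 : AtPt (F := F) π t, atThrough 𝔫 (V c₁) → atThrough 𝔫 (V c₂) →
      Rtk6ewFix g 𝔫)
    (hfix₂ : ∀ 𝔫 : AtPt (F := F) π t⁻¹, atThrough 𝔫 (V c₁) → atThrough 𝔫 (V c₂) →
      Rtk6ewFix g 𝔫)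
    (Φ' : F →+* F) (hΦ' : ∀ x : F, Φ' x = Φ • x)
    (hcong₁ : ∀ 𝔫 : AtPt (F := F) π t, atThrough 𝔫 (V c₁) → atThrough 𝔫 (V c₂) →
      Rtk6ewCong Φ' Q 𝔫)
    (hcong₂ : ∀ 𝔫 : AtPt (F := F) π t⁻¹, atThrough 𝔫 (V c₁) → atThrough 𝔫 (V c₂) →
      Rtk6ewCong Φ' Q 𝔫)
    {x : F} (hx : x ≠ 0) (m : ℕ)
    (hfin : {P : Place E F | P.ord x ≠ 0}.Finite)
    (hm : ∀ P : Place E F, (m : ℤ) ∣ P.ord x)
    (hrat : ∀ P : Place E F, P.ord x ≠ 0 → ∀ f ∈ P.toValuationSubring,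
      ∃ c : E, f - algebraMap E F c ∈ P.toValuationSubring.nonunits)
    (tt : κ → F) (htoric : ∀ c, (g • x / x) / tt c ^ m - 1 ∈ (V c).nonunits) :
    ∀ i : AtPt (F := F) π t ⊕ AtPt (F := F) π t⁻¹,
      (atInc π t V i c₁ ∧ atInc π t V i c₂ ∧
        StbCross (atO π t i) (V c₁) (V c₂) Φ' Q m (g • x / x)) ∨
      (∃ c, atInc π t V i c ∧ (∀ c', atInc π t V i c' → c' = c) ∧
        ∃ i₁ : AtPt (F := F) π t ⊕ AtPt (F := F) π t⁻¹, atInc π t V i₁ c ∧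
          StbSmooth (atO π t i) (atO π t i₁) (V c) Φ' m (g • x / x)) := by
  haveI : FiniteDimensional E⟮t⁻¹⟯ F := at_finiteDimensional_inv t
  have ht' : Transcendental E t⁻¹ := zch_transcendental_inv ht
  rintro (𝔫 | 𝔫)
  · exact rtk6ew_hpts_inl hπ ht V c₁ c₂ hκ hne hBV₁ hπV hSS1 harch hVloc₁ g hgt hgV hgA hgA'
      Φ hΦt hΦV hΦA hΦA' q hq0 hqπ j₁ p₁ hram₁ hjp₁ 𝔫 (hnode₁ 𝔫) Q (hfix₁ 𝔫) Φ' hΦ' (hcong₁ 𝔫)
      hx m hfin hm hrat tt htoric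
  · exact rtk6ew_hpts_inr hπ ht' V c₁ c₂ hκ hne hBV₂ hπV (ats_SS1_inv ht hπ V hBV₁ hSS1) harch
      hVloc₂ g (at_smul_inv hgt) hgV hgA hgA' Φ (at_smul_inv hΦt) hΦV hΦA hΦA' q hq0 hqπ
      j₂ p₂ hram₂ hjp₂ 𝔫 (hnode₂ 𝔫) Q (hfix₂ 𝔫) Φ' hΦ' (hcong₂ 𝔫) hx m hfin hm hrat tt htoric

/-- **(T″) for two components with TWO automorphisms** — the twin of `STB.stb_main_two` for K6.
`g`, `Φ` semilinear automorphisms fixing `t`, preserving `A₀` (with their inverses) and the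
vertical valuations; at every crossing point `𝔫` of the two charts `g 𝔫 = 𝔫` and `Φ b ≡ b ^ Q`
mod `𝔫`; `p ^ r ∣ div x`, rational support, `y = g • x / x` toric.  Then `Φ y / y ^ Q` is a
`p ^ r`-th power.  (No hypothesis `g • q = q`; the coordinates of the crossing points need not
be fixed by `g`.) -/
theorem rtk6ew_main_two (hπ : Irreducible π) {t : F} (ht : Transcendental E t)
    (hcl : ∀ x : F, IsAlgebraic E x → x ∈ (algebraMap E F).range)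
    {p : ℕ} (hp : p.Prime) (hpu : IsUnit (p : A₀)) {ζ : A₀} (hζ : IsPrimitiveRoot ζ p)
    (hunit : ∀ a : A₀, IsUnit a → ∃ d : A₀, d ^ p = a)
    [FiniteDimensional E⟮t⟯ F] [Finite κ]
    [IsNoetherianRing ↥(zchClosure (A₀ := A₀) ({t} : Set F))]
    [IsNoetherianRing ↥(zchClosure (A₀ := A₀) ({t⁻¹} : Set F))]
    (V : κ → ValuationSubring F) (c₁ c₂ : κ) (hκ : ∀ c, c = c₁ ∨ c = c₂) (hne : V c₁ ≠ V c₂)
    (hBV₁ : ∀ c (b : F), IsIntegral ↥(Algebra.adjoin A₀ {t}) b → b ∈ V c)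
    (hBV₂ : ∀ c (b : F), IsIntegral ↥(Algebra.adjoin A₀ {t⁻¹}) b → b ∈ V c)
    (hπV : ∀ c, algebraMap A₀ F π ∈ (V c).nonunits)
    (hSS1 : ∀ b : F, IsIntegral ↥(Algebra.adjoin A₀ {t}) b → (∀ c, b ∈ (V c).nonunits) →
      ∃ b' : F, IsIntegral ↥(Algebra.adjoin A₀ {t}) b' ∧ b = algebraMap A₀ F π * b')
    (harch : ∀ c (a x : F), a ∈ (V c).nonunits → ∃ N : ℕ, a ^ N * x ∈ (V c).nonunits)
    (hVloc₁ : ∀ c (x : F), x ∈ V c → ∃ b s : F, IsIntegral ↥(Algebra.adjoin A₀ {t}) b ∧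
      IsIntegral ↥(Algebra.adjoin A₀ {t}) s ∧ s ∉ (V c).nonunits ∧ s * x = b)
    (hVloc₂ : ∀ c (x : F), x ∈ V c → ∃ b s : F, IsIntegral ↥(Algebra.adjoin A₀ {t⁻¹}) b ∧
      IsIntegral ↥(Algebra.adjoin A₀ {t⁻¹}) s ∧ s ∉ (V c).nonunits ∧ s * x = b)
    (g : SemilinearAut E F) (hgt : g • t = t)
    (hgV : ∀ c (f : F), f ≠ 0 → (V c).valuation (g • f / f) = 1)
    (hgA : ∀ α : A₀, ∃ α' : A₀, g • algebraMap A₀ F α = algebraMap A₀ F α')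
    (hgA' : ∀ α : A₀, ∃ α' : A₀, g⁻¹ • algebraMap A₀ F α = algebraMap A₀ F α')
    (Φ : SemilinearAut E F) (hΦt : Φ • t = t)
    (hΦV : ∀ c (f : F), f ≠ 0 → (V c).valuation (Φ • f / f) = 1)
    (hΦA : ∀ α : A₀, ∃ α' : A₀, Φ • algebraMap A₀ F α = algebraMap A₀ F α')
    (hΦA' : ∀ α : A₀, ∃ α' : A₀, Φ⁻¹ • algebraMap A₀ F α = algebraMap A₀ F α')
    (q : A₀) (hq0 : q ≠ 0) (hqπ : π ∣ q)
    {R₁ : Type*} [CommRing R₁] (j₁ : R₁ →+* ↥(zchClosure (A₀ := A₀) ({t} : Set F))) (p₁ : R₁)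
    (hram₁ : MgcRamified j₁ (algebraMap A₀ ↥(zchClosure (A₀ := A₀) ({t} : Set F)) π) p₁)
    (hjp₁ : j₁ p₁ = algebraMap A₀ ↥(zchClosure (A₀ := A₀) ({t} : Set F)) q)
    {R₂ : Type*} [CommRing R₂] (j₂ : R₂ →+* ↥(zchClosure (A₀ := A₀) ({t⁻¹} : Set F))) (p₂ : R₂)
    (hram₂ : MgcRamified j₂ (algebraMap A₀ ↥(zchClosure (A₀ := A₀) ({t⁻¹} : Set F)) π) p₂)
    (hjp₂ : j₂ p₂ = algebraMap A₀ ↥(zchClosure (A₀ := A₀) ({t⁻¹} : Set F)) q)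
    (hnode₁ : ∀ 𝔫 : AtPt (F := F) π t, StbNodeAt (V c₁) (V c₂) 𝔫 j₁ p₁)
    (hnode₂ : ∀ 𝔫 : AtPt (F := F) π t⁻¹, StbNodeAt (V c₁) (V c₂) 𝔫 j₂ p₂)
    (Q : ℕ)
    (hfix₁ : ∀ 𝔫 : AtPt (F := F) π t, atThrough 𝔫 (V c₁) → atThrough 𝔫 (V c₂) →
      Rtk6ewFix g 𝔫)
    (hfix₂ : ∀ 𝔫 : AtPt (F := F) π t⁻¹, atThrough 𝔫 (V c₁) → atThrough 𝔫 (V c₂) →
      Rtk6ewFix g 𝔫)
    (Φ' : F →+* F) (hΦ' : ∀ x : F, Φ' x = Φ • x)
    (hcong₁ : ∀ 𝔫 : AtPt (F := F) π t, atThrough 𝔫 (V c₁) → atThrough 𝔫 (V c₂) →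
      Rtk6ewCong Φ' Q 𝔫)
    (hcong₂ : ∀ 𝔫 : AtPt (F := F) π t⁻¹, atThrough 𝔫 (V c₁) → atThrough 𝔫 (V c₂) →
      Rtk6ewCong Φ' Q 𝔫)
    {x : F} (hx : x ≠ 0) (r : ℕ)
    (hfin : {P : Place E F | P.ord x ≠ 0}.Finite)
    (hm : ∀ P : Place E F, ((p ^ r : ℕ) : ℤ) ∣ P.ord x)
    (hrat : ∀ P : Place E F, P.ord x ≠ 0 → ∀ f ∈ P.toValuationSubring,
      ∃ c : E, f - algebraMap E F c ∈ P.toValuationSubring.nonunits)
    (tt : κ → F) (htoric : ∀ c, (g • x / x) / tt c ^ (p ^ r) - 1 ∈ (V c).nonunits) :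
    ∃ h : F, h ^ (p ^ r) = Φ' (g • x / x) / (g • x / x) ^ Q :=
  stb_main_points hπ ht hcl hp hpu hζ hunit V c₁ c₂ hκ hne hBV₁ hBV₂ hπV hSS1 harch Φ'
    (fun c y hy => by
      rw [hΦ']
      exact stb_mt_map_nonunits Φ (V c) (hΦV c) hy) Q r tt htoric
    (rtk6ew_hpts hπ ht V c₁ c₂ hκ hne hBV₁ hBV₂ hπV hSS1 harch hVloc₁ hVloc₂ g hgt hgV hgA hgA'
      Φ hΦt hΦV hΦA hΦA' q hq0 hqπ j₁ p₁ hram₁ hjp₁ j₂ p₂ hram₂ hjp₂ hnode₁ hnode₂ Q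
      hfix₁ hfix₂ Φ' hΦ' hcong₁ hcong₂ hx (p ^ r) hfin hm hrat tt htoric)

end EWCross

end Fermat.Agent.RT.K6


end ZBRT_030_1
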