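/- GENERATED FILE (helper35, build-time optimisation, NOTES/ZB.md): verbatim concatenation of the modules
   Fermat.Agent.RT.K6.DGLUniq
   Fermat.Agent.RT.K6.DGLUniqEW
   Fermat.Agent.RT.K6.EWMulti
   Do not edit; do not import together with these modules. -/
import Mathlib
import Fermat.Agent.ZB.UNIP_005
import Fermat.Agent.ZB.UNIP_007
import Fermat.Agent.ZB.RT_029
import Fermat.Agent.ZB.RT_030

/-! ### bundled: `Fermat.Agent.RT.K6.DGLUniq` -/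
section ZBRT_031_0
/-
K-machine, piece K6, LOCAL UNIQUENESS ((M3) of `NOTES/RT-K6-D.md` v5; helper94).

Abstract (Mathlib + `UNIP.NodesLocGen`).  `B` a noetherian ring (the chart), `ι : B →+* F`,
`𝔫` a prime of `B` (a closed point).  The valuation rings `W ⊇ ι B` of `F` considered here are
  * localisations of `B`      : `∀ x ∈ W, ∃ b s, ι s ∉ 𝔪(W) ∧ ι s * x = ι b`      (`hVloc`),
  * archimedean               : `∀ a x, a ∈ 𝔪(W) → ∃ N, a ^ N * x ∈ 𝔪(W)`          (`harch`),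
  * through `𝔫`               : `∀ b, ι b ∈ 𝔪(W) → b ∈ 𝔫`                          (`atThrough`),
  * vertical                  : `ϖ ∈ 𝔪(W)`, `ϖ ≠ 0`.

* `rtk6lu_sat`        : (Nakayama) `𝔫` generated locally by `T ∪ {Y}`, `Y ∈ 𝔫`; a prime `𝔭 ≤ 𝔫`
                        with `T ⊆ 𝔭`, `Y ∉ 𝔭` is generated by `T` locally at `𝔫`;
* `rtk6lu_le_of_centre`, `rtk6lu_eq_of_le` : `W = B_𝔭`; `W ≤ V`, `W` archimedean, `V ≠ ⊤` ⇒ `W = V`;
* `rtk6lu_eq_of_mem`  : two such valuation rings through `𝔫` with `ι T ⊆ 𝔪` are EQUAL;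
* `rtk6lu_cross`      : crossing point (`NodesLocGen 𝔫 {ϖ, X, Y}`, `X Y = w ϖ`, `ι X ∈ 𝔪(V₁)`,
                        `ι Y ∈ 𝔪(V₂)`): every such `W` with `ι ϖ ∈ 𝔪(W)` is `V₁` or `V₂`
                        (thin or thick node, any base: no hypothesis on `w`);
* `rtk6lu_smooth`     : smooth point (`NodesLocGen 𝔫 {ϖ, s}`): at most one such `W`.
The forms for the charts `zchClosure {u}`, `AtPt`, `atThrough` are in `DGLUniqEW.lean`.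
-/

set_option autoImplicit false
set_option linter.style.haveILetI false
set_option linter.unusedSectionVars false

namespace Fermat.Agent.RT.K6

open Fermat.Agent.UNIP IsLocalRing

section Sat

variable {B : Type*} [CommRing B]

/-- **Nakayama at a node.**  `𝔫` a prime of the noetherian ring `B`, generated locally by
`T ∪ {Y}`, `Y ∈ 𝔫`; a prime `𝔭 ≤ 𝔫` with `T ⊆ 𝔭`, `Y ∉ 𝔭` is generated by `T` locally at `𝔫`. -/
theorem rtk6lu_sat [IsNoetherianRing B] (𝔫 : Ideal B) [h𝔫 : 𝔫.IsPrime] {Y : B} {T : Set B}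
    (hY𝔫 : Y ∈ 𝔫) (hgen : NodesLocGen 𝔫 (insert Y T)) (𝔭 : Ideal B) [h𝔭 : 𝔭.IsPrime]
    (hle : 𝔭 ≤ 𝔫) (hT : T ⊆ 𝔭) (hY : Y ∉ 𝔭) {b : B} (hb : b ∈ 𝔭) :
    ∃ u : B, u ∉ 𝔫 ∧ u * b ∈ Ideal.span T := by
  set O := Localization.AtPrime 𝔫 with hO
  set N : Ideal O := 𝔭.map (algebraMap B O) with hN
  set J : Ideal O := (Ideal.span T).map (algebraMap B O) with hJ
  have hTle : Ideal.span T ≤ 𝔭 := Ideal.span_le.mpr hT
  have hfg : (N : Submodule O O).FG := Ideal.FG.map (IsNoetherian.noetherian 𝔭) _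
  have hjac : maximalIdeal O ≤ Ideal.jacobson ⊥ := by
    rw [IsLocalRing.jacobson_eq_maximalIdeal ⊥ bot_ne_top]
  have hYm : algebraMap B O Y ∈ maximalIdeal O :=
    (IsLocalization.AtPrime.to_map_mem_maximal_iff O 𝔫 Y).mpr hY𝔫
  have hstep : (N : Submodule O O) ≤ (J : Ideal O) ⊔ maximalIdeal O • (N : Submodule O O) := by
    have h1 : 𝔭 ≤ ((J : Ideal O) ⊔ maximalIdeal O • N).comap (algebraMap B O) := by
      intro b hb
      rw [Ideal.mem_comap]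
      obtain ⟨u, hu, hub⟩ := hgen b (hle hb)
      obtain ⟨a, z, hz, haz⟩ := Ideal.mem_span_insert.mp hub
      have ha : a ∈ 𝔭 := by
        have h1 : a * Y ∈ 𝔭 := by
          have : a * Y = u * b - z := by rw [haz]; ring
          rw [this]
          exact 𝔭.sub_mem (𝔭.mul_mem_left _ hb) (hTle hz)
        exact (h𝔭.mem_or_mem h1).resolve_right hY
      obtain ⟨v, hv⟩ := IsLocalization.map_units O (⟨u, hu⟩ : 𝔫.primeCompl)
      have hv' : (v : O) = algebraMap B O u := hv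
      have e : algebraMap B O b = (↑v⁻¹ : O) * (algebraMap B O z +
          algebraMap B O Y * algebraMap B O a) := by
        have h2 : algebraMap B O u * algebraMap B O b =
            algebraMap B O z + algebraMap B O Y * algebraMap B O a := by
          rw [← map_mul, haz, map_add, map_mul]
          ring
        rw [← h2, ← hv', ← mul_assoc, Units.inv_mul, one_mul]
      rw [e]
      refine Ideal.mul_mem_left _ _ (Ideal.add_mem _ ?_ ?_)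
      · exact Ideal.mem_sup_left (Ideal.mem_map_of_mem (algebraMap B O) hz)
      · exact Ideal.mem_sup_right
          (Submodule.smul_mem_smul hYm (Ideal.mem_map_of_mem (algebraMap B O) ha))
    exact Ideal.map_le_iff_le_comap.mpr h1
  have hNle : (N : Submodule O O) ≤ (J : Ideal O) :=
    Submodule.le_of_le_smul_of_le_jacobson_bot hfg hjac hstep
  have hfb : algebraMap B O b ∈ J := hNle (Ideal.mem_map_of_mem (algebraMap B O) hb)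
  obtain ⟨⟨i, s⟩, his⟩ := (IsLocalization.mem_map_algebraMap_iff 𝔫.primeCompl O).mp hfb
  have his' : algebraMap B O b * algebraMap B O (s : B) = algebraMap B O (i : B) := his
  have h2 : algebraMap B O ((s : B) * b) = algebraMap B O (i : B) := by
    rw [map_mul, ← his']
    ring
  obtain ⟨t, ht⟩ := (IsLocalization.eq_iff_exists 𝔫.primeCompl O).mp h2
  refine ⟨(t : B) * (s : B), ?_, ?_⟩
  · intro h
    rcases h𝔫.mem_or_mem h with h1 | h1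
    · exact t.2 h1
    · exact s.2 h1
  · rw [mul_assoc, ht]
    exact Ideal.mul_mem_left _ _ i.2

end Sat

section Val

variable {F : Type*} [Field F]

/-- **Rank one.**  Valuation rings `W ≤ V` of `F`, `W` archimedean, `V ≠ F` (a nonzero
`ϖ ∈ 𝔪(V)`): then `W = V`. -/
theorem rtk6lu_eq_of_le {W V : ValuationSubring F} (hle : W ≤ V)
    (harch : ∀ a x : F, a ∈ W.nonunits → ∃ N : ℕ, a ^ N * x ∈ W.nonunits)
    {ϖ : F} (hϖ0 : ϖ ≠ 0) (hϖV : ϖ ∈ V.nonunits) : W = V := by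
  refine le_antisymm hle fun x hx => ?_
  by_contra hxW
  have hx0 : x ≠ 0 := fun h => hxW (h ▸ W.zero_mem)
  have hxinv : x⁻¹ ∈ W.nonunits := (ValuationSubring.inv_mem_nonunits_iff W).mpr (Or.inr hxW)
  obtain ⟨N, hN⟩ := harch x⁻¹ ϖ⁻¹ hxinv
  have h1 : x⁻¹ ^ N * ϖ⁻¹ ∈ V := hle (ValuationSubring.nonunits_subset hN)
  have h2 : ϖ⁻¹ ∈ V := by
    have e : ϖ⁻¹ = x ^ N * (x⁻¹ ^ N * ϖ⁻¹) := by
      rw [← mul_assoc, ← mul_pow, mul_inv_cancel₀ hx0, one_pow, one_mul]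
    rw [e]
    exact V.mul_mem _ _ (V.pow_mem hx N) h1
  -- `ϖ` and `ϖ⁻¹` in `V`, `ϖ` a nonunit: contradiction
  have h3 : V.valuation ϖ < 1 := (ValuationSubring.mem_nonunits_iff V).mp hϖV
  have h4 : V.valuation ϖ⁻¹ ≤ 1 := (ValuationSubring.valuation_le_one_iff V _).mpr h2
  have h5 : V.valuation ϖ * V.valuation ϖ⁻¹ = 1 := by
    rw [← map_mul, mul_inv_cancel₀ hϖ0, map_one]
  have h6 : V.valuation ϖ * V.valuation ϖ⁻¹ < 1 := by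
    calc V.valuation ϖ * V.valuation ϖ⁻¹ ≤ V.valuation ϖ * 1 := by gcongr
      _ = V.valuation ϖ := mul_one _
      _ < 1 := h3
  rw [h5] at h6
  exact lt_irrefl _ h6

variable {B : Type*} [CommRing B]

/-- `W = B_𝔭(W)`, `V ⊇ ι B`: if the centre of `V` on `B` is contained in the centre of `W`,
then `W ≤ V`. -/
theorem rtk6lu_le_of_centre (ι : B →+* F) {W V : ValuationSubring F}
    (hBV : ∀ b, ι b ∈ V)
    (hWloc : ∀ x ∈ W, ∃ b s : B, ι s ∉ W.nonunits ∧ ι s * x = ι b)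
    (hcen : ∀ b : B, ι b ∈ V.nonunits → ι b ∈ W.nonunits) : W ≤ V := by
  intro x hx
  obtain ⟨b, s, hs, hsx⟩ := hWloc x hx
  have hsV : ι s ∉ V.nonunits := fun h => hs (hcen s h)
  have hs1 : V.valuation (ι s) = 1 := by
    have h1 : V.valuation (ι s) ≤ 1 := (ValuationSubring.valuation_le_one_iff V _).mpr (hBV s)
    have h2 : ¬ V.valuation (ι s) < 1 := fun h => hsV ((ValuationSubring.mem_nonunits_iff V).mpr h)
    exact le_antisymm h1 (not_lt.mp h2)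
  have h3 : V.valuation x = V.valuation (ι b) := by
    rw [← hsx, map_mul, hs1, one_mul]
  rw [← ValuationSubring.valuation_le_one_iff, h3]
  exact (ValuationSubring.valuation_le_one_iff V _).mpr (hBV b)

/-- the centre of a valuation ring `W ⊇ ι B` on `B` -/
def rtk6luCentre (ι : B →+* F) (W : ValuationSubring F) (hB : ∀ b, ι b ∈ W) : Ideal B :=
  (maximalIdeal W).comap (ι.codRestrict W hB)

theorem rtk6lu_mem_centre (ι : B →+* F) (W : ValuationSubring F) (hB : ∀ b, ι b ∈ W) {b : B} :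
    b ∈ rtk6luCentre ι W hB ↔ ι b ∈ W.nonunits := by
  rw [rtk6luCentre, Ideal.mem_comap, ValuationSubring.valuation_lt_one_iff,
    ValuationSubring.mem_nonunits_iff]
  rfl

instance rtk6luCentre_isPrime (ι : B →+* F) (W : ValuationSubring F) (hB : ∀ b, ι b ∈ W) :
    (rtk6luCentre ι W hB).IsPrime :=
  Ideal.comap_isPrime _ _

/-- **Local uniqueness, general form.**  `𝔫 = (T, Y)` locally, `Y ∈ 𝔫`; two valuation rings
`W`, `V` of `F` which are localisations of `B`, archimedean, vertical, pass through `𝔫` and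
contain `ι T` in their maximal ideals are equal. -/
theorem rtk6lu_eq_of_mem [IsNoetherianRing B] (ι : B →+* F) (𝔫 : Ideal B) [h𝔫 : 𝔫.IsPrime]
    {Y : B} {T : Set B} (hY𝔫 : Y ∈ 𝔫) (hgen : NodesLocGen 𝔫 (insert Y T))
    {W V : ValuationSubring F} (hBW : ∀ b, ι b ∈ W) (hBV : ∀ b, ι b ∈ V)
    (hWloc : ∀ x ∈ W, ∃ b s : B, ι s ∉ W.nonunits ∧ ι s * x = ι b)
    (hVloc : ∀ x ∈ V, ∃ b s : B, ι s ∉ V.nonunits ∧ ι s * x = ι b)
    (hWarch : ∀ a x : F, a ∈ W.nonunits → ∃ N : ℕ, a ^ N * x ∈ W.nonunits)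
    (hVarch : ∀ a x : F, a ∈ V.nonunits → ∃ N : ℕ, a ^ N * x ∈ V.nonunits)
    (hWthr : ∀ b, ι b ∈ W.nonunits → b ∈ 𝔫) (hVthr : ∀ b, ι b ∈ V.nonunits → b ∈ 𝔫)
    {ϖ : F} (hϖ0 : ϖ ≠ 0) (hϖW : ϖ ∈ W.nonunits) (hϖV : ϖ ∈ V.nonunits)
    (hTW : ∀ t ∈ T, ι t ∈ W.nonunits) (hTV : ∀ t ∈ T, ι t ∈ V.nonunits) : W = V := by
  have hcW : rtk6luCentre ι W hBW ≤ 𝔫 := fun b hb =>
    hWthr b ((rtk6lu_mem_centre ι W hBW).mp hb)
  have hcV : rtk6luCentre ι V hBV ≤ 𝔫 := fun b hb =>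
    hVthr b ((rtk6lu_mem_centre ι V hBV).mp hb)
  have hTcW : T ⊆ rtk6luCentre ι W hBW := fun t ht => (rtk6lu_mem_centre ι W hBW).mpr (hTW t ht)
  have hTcV : T ⊆ rtk6luCentre ι V hBV := fun t ht => (rtk6lu_mem_centre ι V hBV).mpr (hTV t ht)
  -- if `Y` lies in the centre `𝔭` (a prime `≤ 𝔫` containing `T`), then `𝔫 ≤ 𝔭`
  have hfull : ∀ (𝔭 : Ideal B) [𝔭.IsPrime], 𝔭 ≤ 𝔫 → T ⊆ 𝔭 → Y ∈ 𝔭 → 𝔫 ≤ 𝔭 := by
    intro 𝔭 h𝔭 hle hT hY b hb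
    obtain ⟨u, hu, hub⟩ := hgen b hb
    have h1 : u * b ∈ 𝔭 := by
      refine (Ideal.span_le.mpr ?_) hub
      intro z hz
      rcases hz with rfl | hz
      · exact hY
      · exact hT hz
    exact (h𝔭.mem_or_mem h1).resolve_left (fun h => hu (hle h))
  by_cases hYW : ι Y ∈ W.nonunits
  · -- the centre of `W` is `𝔫`: `W = B_𝔫 ≤ V`
    have h1 := hfull (rtk6luCentre ι W hBW) hcW hTcW ((rtk6lu_mem_centre ι W hBW).mpr hYW)
    exact rtk6lu_eq_of_le (rtk6lu_le_of_centre ι hBV hWloc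
      (fun b hb => (rtk6lu_mem_centre ι W hBW).mp (h1 (hVthr b hb)))) hWarch hϖ0 hϖV
  by_cases hYV : ι Y ∈ V.nonunits
  · have h1 := hfull (rtk6luCentre ι V hBV) hcV hTcV ((rtk6lu_mem_centre ι V hBV).mpr hYV)
    exact (rtk6lu_eq_of_le (rtk6lu_le_of_centre ι hBW hVloc
      (fun b hb => (rtk6lu_mem_centre ι V hBV).mp (h1 (hWthr b hb)))) hVarch hϖ0 hϖW).symm
  -- both centres are `(T)` locally
  have hWV : ∀ b : B, ι b ∈ W.nonunits → ι b ∈ V.nonunits := by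
    intro b hb
    obtain ⟨u, hu, hub⟩ := rtk6lu_sat 𝔫 hY𝔫 hgen (rtk6luCentre ι W hBW) hcW hTcW
      (fun h => hYW ((rtk6lu_mem_centre ι W hBW).mp h)) ((rtk6lu_mem_centre ι W hBW).mpr hb)
    have h1 : u * b ∈ rtk6luCentre ι V hBV := (Ideal.span_le.mpr hTcV) hub
    exact (rtk6lu_mem_centre ι V hBV).mp
      (((rtk6luCentre_isPrime ι V hBV).mem_or_mem h1).resolve_left (fun h => hu (hcV h)))
  have hVW : ∀ b : B, ι b ∈ V.nonunits → ι b ∈ W.nonunits := by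
    intro b hb
    obtain ⟨u, hu, hub⟩ := rtk6lu_sat 𝔫 hY𝔫 hgen (rtk6luCentre ι V hBV) hcV hTcV
      (fun h => hYV ((rtk6lu_mem_centre ι V hBV).mp h)) ((rtk6lu_mem_centre ι V hBV).mpr hb)
    have h1 : u * b ∈ rtk6luCentre ι W hBW := (Ideal.span_le.mpr hTcW) hub
    exact (rtk6lu_mem_centre ι W hBW).mp
      (((rtk6luCentre_isPrime ι W hBW).mem_or_mem h1).resolve_left (fun h => hu (hcW h)))
  exact le_antisymm (rtk6lu_le_of_centre ι hBV hWloc hVW) (rtk6lu_le_of_centre ι hBW hVloc hWV)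

/-- **Local uniqueness at a smooth point** (`𝔫 = (ϖ, s)` locally): at most one vertical
valuation ring of the family passes through `𝔫`. -/
theorem rtk6lu_smooth [IsNoetherianRing B] (ι : B →+* F) (𝔫 : Ideal B) [h𝔫 : 𝔫.IsPrime]
    {ϖ s : B} (hs : s ∈ 𝔫) (hgen : NodesLocGen 𝔫 {ϖ, s})
    {W V : ValuationSubring F} (hBW : ∀ b, ι b ∈ W) (hBV : ∀ b, ι b ∈ V)
    (hWloc : ∀ x ∈ W, ∃ b s : B, ι s ∉ W.nonunits ∧ ι s * x = ι b)
    (hVloc : ∀ x ∈ V, ∃ b s : B, ι s ∉ V.nonunits ∧ ι s * x = ι b)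
    (hWarch : ∀ a x : F, a ∈ W.nonunits → ∃ N : ℕ, a ^ N * x ∈ W.nonunits)
    (hVarch : ∀ a x : F, a ∈ V.nonunits → ∃ N : ℕ, a ^ N * x ∈ V.nonunits)
    (hWthr : ∀ b, ι b ∈ W.nonunits → b ∈ 𝔫) (hVthr : ∀ b, ι b ∈ V.nonunits → b ∈ 𝔫)
    (hϖ0 : ι ϖ ≠ 0) (hϖW : ι ϖ ∈ W.nonunits) (hϖV : ι ϖ ∈ V.nonunits) : W = V := by
  have hgen' : NodesLocGen 𝔫 (insert s ({ϖ} : Set B)) := by
    have e : (insert s ({ϖ} : Set B)) = {ϖ, s} := Set.pair_comm s ϖ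
    rw [e]
    exact hgen
  refine rtk6lu_eq_of_mem ι 𝔫 hs hgen' hBW hBV hWloc hVloc hWarch hVarch hWthr hVthr hϖ0 hϖW
    hϖV ?_ ?_
  · intro t ht
    rw [Set.mem_singleton_iff.mp ht]
    exact hϖW
  · intro t ht
    rw [Set.mem_singleton_iff.mp ht]
    exact hϖV

/-- **Local uniqueness at a crossing point** (`𝔫 = (ϖ, X, Y)` locally, `ϖ ∣ X Y`,
`X ∈ 𝔪(V₁)`, `Y ∈ 𝔪(V₂)`): every vertical valuation ring of the family through `𝔫` is `V₁` or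
`V₂`. -/
theorem rtk6lu_cross [IsNoetherianRing B] (ι : B →+* F) (𝔫 : Ideal B) [h𝔫 : 𝔫.IsPrime]
    {ϖ X Y w : B} (hXY : X * Y = w * ϖ) (hgen : NodesLocGen 𝔫 {ϖ, X, Y})
    {V₁ V₂ W : ValuationSubring F}
    (hB₁ : ∀ b, ι b ∈ V₁) (hB₂ : ∀ b, ι b ∈ V₂) (hBW : ∀ b, ι b ∈ W)
    (hloc₁ : ∀ x ∈ V₁, ∃ b s : B, ι s ∉ V₁.nonunits ∧ ι s * x = ι b)
    (hloc₂ : ∀ x ∈ V₂, ∃ b s : B, ι s ∉ V₂.nonunits ∧ ι s * x = ι b)
    (hlocW : ∀ x ∈ W, ∃ b s : B, ι s ∉ W.nonunits ∧ ι s * x = ι b)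
    (harch₁ : ∀ a x : F, a ∈ V₁.nonunits → ∃ N : ℕ, a ^ N * x ∈ V₁.nonunits)
    (harch₂ : ∀ a x : F, a ∈ V₂.nonunits → ∃ N : ℕ, a ^ N * x ∈ V₂.nonunits)
    (harchW : ∀ a x : F, a ∈ W.nonunits → ∃ N : ℕ, a ^ N * x ∈ W.nonunits)
    (hthr₁ : ∀ b, ι b ∈ V₁.nonunits → b ∈ 𝔫) (hthr₂ : ∀ b, ι b ∈ V₂.nonunits → b ∈ 𝔫)
    (hthrW : ∀ b, ι b ∈ W.nonunits → b ∈ 𝔫)
    (hϖ0 : ι ϖ ≠ 0) (hϖ₁ : ι ϖ ∈ V₁.nonunits) (hϖ₂ : ι ϖ ∈ V₂.nonunits)
    (hϖW : ι ϖ ∈ W.nonunits)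
    (hX : ι X ∈ V₁.nonunits) (hY : ι Y ∈ V₂.nonunits) : W = V₁ ∨ W = V₂ := by
  have hX𝔫 : X ∈ 𝔫 := hthr₁ X hX
  have hY𝔫 : Y ∈ 𝔫 := hthr₂ Y hY
  have hXYc : X * Y ∈ rtk6luCentre ι W hBW := by
    rw [hXY]
    exact Ideal.mul_mem_left _ _ ((rtk6lu_mem_centre ι W hBW).mpr hϖW)
  rcases (rtk6luCentre_isPrime ι W hBW).mem_or_mem hXYc with h | h
  · left
    have hgen' : NodesLocGen 𝔫 (insert Y ({ϖ, X} : Set B)) := by
      have e : (insert Y ({ϖ, X} : Set B)) = {ϖ, X, Y} := by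
        ext z
        simp only [Set.mem_insert_iff, Set.mem_singleton_iff]
        tauto
      rw [e]
      exact hgen
    refine rtk6lu_eq_of_mem ι 𝔫 hY𝔫 hgen' hBW hB₁ hlocW hloc₁ harchW harch₁ hthrW hthr₁ hϖ0 hϖW
      hϖ₁ ?_ ?_
    · intro t ht
      rcases ht with rfl | ht
      · exact hϖW
      · rw [Set.mem_singleton_iff.mp ht]
        exact (rtk6lu_mem_centre ι W hBW).mp h
    · intro t ht
      rcases ht with rfl | ht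
      · exact hϖ₁
      · rw [Set.mem_singleton_iff.mp ht]
        exact hX
  · right
    have hgen' : NodesLocGen 𝔫 (insert X ({ϖ, Y} : Set B)) := by
      have e : (insert X ({ϖ, Y} : Set B)) = {ϖ, X, Y} := by
        ext z
        simp only [Set.mem_insert_iff, Set.mem_singleton_iff]
        tauto
      rw [e]
      exact hgen
    refine rtk6lu_eq_of_mem ι 𝔫 hX𝔫 hgen' hBW hB₂ hlocW hloc₂ harchW harch₂ hthrW hthr₂ hϖ0 hϖW
      hϖ₂ ?_ ?_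
    · intro t ht
      rcases ht with rfl | ht
      · exact hϖW
      · rw [Set.mem_singleton_iff.mp ht]
        exact (rtk6lu_mem_centre ι W hBW).mp h
    · intro t ht
      rcases ht with rfl | ht
      · exact hϖ₂
      · rw [Set.mem_singleton_iff.mp ht]
        exact hY

end Val

end Fermat.Agent.RT.K6


end ZBRT_031_0

/-! ### bundled: `Fermat.Agent.RT.K6.DGLUniqEW` -/
section ZBRT_031_1
/-
K-machine, piece K6, LOCAL UNIQUENESS ((M3) of `NOTES/RT-K6-D.md` v5; helper94), part 2: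
the forms for the charts `B_u = zchClosure {u}`, `𝔫 : AtPt π u`, `atThrough`, with the
hypotheses `hBV`, `hπV`, `harch`, `hVloc` of `rtk6ew_main_two` for a family `V : κ → …`.

* `rtk6lu_ew_cross`       : crossing point (`NodesLocGen 𝔫 {ϖ, X, Y}`, `X Y = w ϖ`,
                            `X ∈ 𝔪(V c₁)`, `Y ∈ 𝔪(V c₂)`, both through `𝔫`):
                            `atThrough 𝔫 (V c) → V c = V c₁ ∨ V c = V c₂`;
* `rtk6lu_ew_cross_inj`   : … `→ c = c₁ ∨ c = c₂` for an injective family;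
* `rtk6lu_ew_smooth`      : smooth point (`NodesLocGen 𝔫 {ϖ, s}`): `atThrough 𝔫 (V c)`,
                            `atThrough 𝔫 (V c') → V c = V c'`;  `rtk6lu_ew_smooth_inj`.
`ϖ` is any element of the chart with `ϖ ≠ 0`, `ϖ ∈ 𝔪(V c)` for all `c` (e.g. `ϖ = π`, or the
uniformizer `ϖ₁` of a smaller base); the node may be thin or thick (no hypothesis on `w`).
-/

set_option autoImplicit false
set_option linter.style.haveILetI false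
set_option linter.unusedSectionVars false
set_option linter.unusedVariables false

namespace Fermat.Agent.RT.K6

open Fermat.Agent.INJ Fermat.Agent.UNIP

section EW

variable {A₀ E F : Type*} [CommRing A₀] [IsDomain A₀] [IsDiscreteValuationRing A₀]
  [Field E] [Algebra A₀ E] [IsFractionRing A₀ E] [CharZero E]
  [Field F] [Algebra E F] [Algebra A₀ F] [IsScalarTower A₀ E F]
  {π : A₀} {κ : Type*}

/-- the inclusion of the chart `B_u` in `F`, as a ring homomorphism -/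
def rtk6luVal (u : F) : ↥(zchClosure (A₀ := A₀) ({u} : Set F)) →+* F :=
  (zchClosure (A₀ := A₀) ({u} : Set F)).toSubring.subtype

theorem rtk6luVal_apply (u : F) (b : ↥(zchClosure (A₀ := A₀) ({u} : Set F))) :
    rtk6luVal (A₀ := A₀) u b = (b : F) := rfl

/-- `hVloc` in the form of `DGLUniq.lean` -/
theorem rtk6lu_ew_loc {u : F} (W : ValuationSubring F)
    (hWloc : ∀ x : F, x ∈ W → ∃ b s : F, IsIntegral ↥(Algebra.adjoin A₀ {u}) b ∧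
      IsIntegral ↥(Algebra.adjoin A₀ {u}) s ∧ s ∉ W.nonunits ∧ s * x = b) :
    ∀ x ∈ W, ∃ b s : ↥(zchClosure (A₀ := A₀) ({u} : Set F)),
      rtk6luVal (A₀ := A₀) u s ∉ W.nonunits ∧
        rtk6luVal (A₀ := A₀) u s * x = rtk6luVal (A₀ := A₀) u b := by
  intro x hx
  obtain ⟨b, s, hb, hs, hsW, hsx⟩ := hWloc x hx
  exact ⟨⟨b, mem_zchClosure.mpr hb⟩, ⟨s, mem_zchClosure.mpr hs⟩, hsW, hsx⟩

/-- **Local uniqueness at a crossing point of the chart `u`.** -/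
theorem rtk6lu_ew_cross {u : F} [IsNoetherianRing ↥(zchClosure (A₀ := A₀) ({u} : Set F))]
    (V : κ → ValuationSubring F)
    (hBV : ∀ c (b : F), IsIntegral ↥(Algebra.adjoin A₀ {u}) b → b ∈ V c)
    (harch : ∀ c (a x : F), a ∈ (V c).nonunits → ∃ N : ℕ, a ^ N * x ∈ (V c).nonunits)
    (hVloc : ∀ c (x : F), x ∈ V c → ∃ b s : F, IsIntegral ↥(Algebra.adjoin A₀ {u}) b ∧
      IsIntegral ↥(Algebra.adjoin A₀ {u}) s ∧ s ∉ (V c).nonunits ∧ s * x = b)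
    (𝔫 : AtPt (F := F) π u)
    {ϖ X Y w : ↥(zchClosure (A₀ := A₀) ({u} : Set F))}
    (hϖ0 : (ϖ : F) ≠ 0) (hϖV : ∀ c, (ϖ : F) ∈ (V c).nonunits)
    (hXY : X * Y = w * ϖ) (hgen : NodesLocGen 𝔫.1 {ϖ, X, Y})
    (c₁ c₂ : κ) (hthr₁ : atThrough 𝔫 (V c₁)) (hthr₂ : atThrough 𝔫 (V c₂))
    (hX : (X : F) ∈ (V c₁).nonunits) (hY : (Y : F) ∈ (V c₂).nonunits)
    (c : κ) (hthr : atThrough 𝔫 (V c)) : V c = V c₁ ∨ V c = V c₂ := by
  haveI : 𝔫.1.IsPrime := 𝔫.2.1.isPrime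
  have hB : ∀ c (b : ↥(zchClosure (A₀ := A₀) ({u} : Set F))),
      rtk6luVal (A₀ := A₀) u b ∈ V c := fun c b => hBV c _ (mem_zchClosure.mp b.2)
  exact rtk6lu_cross (rtk6luVal (A₀ := A₀) u) 𝔫.1 hXY hgen (hB c₁) (hB c₂) (hB c)
    (rtk6lu_ew_loc (V c₁) (hVloc c₁)) (rtk6lu_ew_loc (V c₂) (hVloc c₂))
    (rtk6lu_ew_loc (V c) (hVloc c)) (harch c₁) (harch c₂) (harch c)
    hthr₁ hthr₂ hthr hϖ0 (hϖV c₁) (hϖV c₂) (hϖV c) hX hY

/-- **Local uniqueness at a crossing point, injective family.** -/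
theorem rtk6lu_ew_cross_inj {u : F} [IsNoetherianRing ↥(zchClosure (A₀ := A₀) ({u} : Set F))]
    (V : κ → ValuationSubring F) (hinj : Function.Injective V)
    (hBV : ∀ c (b : F), IsIntegral ↥(Algebra.adjoin A₀ {u}) b → b ∈ V c)
    (harch : ∀ c (a x : F), a ∈ (V c).nonunits → ∃ N : ℕ, a ^ N * x ∈ (V c).nonunits)
    (hVloc : ∀ c (x : F), x ∈ V c → ∃ b s : F, IsIntegral ↥(Algebra.adjoin A₀ {u}) b ∧
      IsIntegral ↥(Algebra.adjoin A₀ {u}) s ∧ s ∉ (V c).nonunits ∧ s * x = b)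
    (𝔫 : AtPt (F := F) π u)
    {ϖ X Y w : ↥(zchClosure (A₀ := A₀) ({u} : Set F))}
    (hϖ0 : (ϖ : F) ≠ 0) (hϖV : ∀ c, (ϖ : F) ∈ (V c).nonunits)
    (hXY : X * Y = w * ϖ) (hgen : NodesLocGen 𝔫.1 {ϖ, X, Y})
    (c₁ c₂ : κ) (hthr₁ : atThrough 𝔫 (V c₁)) (hthr₂ : atThrough 𝔫 (V c₂))
    (hX : (X : F) ∈ (V c₁).nonunits) (hY : (Y : F) ∈ (V c₂).nonunits)
    (c : κ) (hthr : atThrough 𝔫 (V c)) : c = c₁ ∨ c = c₂ :=
  (rtk6lu_ew_cross V hBV harch hVloc 𝔫 hϖ0 hϖV hXY hgen c₁ c₂ hthr₁ hthr₂ hX hY c hthr).imp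
    (fun h => hinj h) (fun h => hinj h)

/-- **Local uniqueness at a smooth point of the chart `u`.** -/
theorem rtk6lu_ew_smooth {u : F} [IsNoetherianRing ↥(zchClosure (A₀ := A₀) ({u} : Set F))]
    (V : κ → ValuationSubring F)
    (hBV : ∀ c (b : F), IsIntegral ↥(Algebra.adjoin A₀ {u}) b → b ∈ V c)
    (harch : ∀ c (a x : F), a ∈ (V c).nonunits → ∃ N : ℕ, a ^ N * x ∈ (V c).nonunits)
    (hVloc : ∀ c (x : F), x ∈ V c → ∃ b s : F, IsIntegral ↥(Algebra.adjoin A₀ {u}) b ∧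
      IsIntegral ↥(Algebra.adjoin A₀ {u}) s ∧ s ∉ (V c).nonunits ∧ s * x = b)
    (𝔫 : AtPt (F := F) π u)
    {ϖ s : ↥(zchClosure (A₀ := A₀) ({u} : Set F))}
    (hϖ0 : (ϖ : F) ≠ 0) (hϖV : ∀ c, (ϖ : F) ∈ (V c).nonunits)
    (hs : s ∈ 𝔫.1) (hgen : NodesLocGen 𝔫.1 {ϖ, s})
    (c c' : κ) (hthr : atThrough 𝔫 (V c)) (hthr' : atThrough 𝔫 (V c')) : V c = V c' := by
  haveI : 𝔫.1.IsPrime := 𝔫.2.1.isPrime
  have hB : ∀ c (b : ↥(zchClosure (A₀ := A₀) ({u} : Set F))),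
      rtk6luVal (A₀ := A₀) u b ∈ V c := fun c b => hBV c _ (mem_zchClosure.mp b.2)
  exact rtk6lu_smooth (rtk6luVal (A₀ := A₀) u) 𝔫.1 hs hgen (hB c) (hB c')
    (rtk6lu_ew_loc (V c) (hVloc c)) (rtk6lu_ew_loc (V c') (hVloc c'))
    (harch c) (harch c') hthr hthr' hϖ0 (hϖV c) (hϖV c')

/-- **Local uniqueness at a smooth point, injective family.** -/
theorem rtk6lu_ew_smooth_inj {u : F} [IsNoetherianRing ↥(zchClosure (A₀ := A₀) ({u} : Set F))]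
    (V : κ → ValuationSubring F) (hinj : Function.Injective V)
    (hBV : ∀ c (b : F), IsIntegral ↥(Algebra.adjoin A₀ {u}) b → b ∈ V c)
    (harch : ∀ c (a x : F), a ∈ (V c).nonunits → ∃ N : ℕ, a ^ N * x ∈ (V c).nonunits)
    (hVloc : ∀ c (x : F), x ∈ V c → ∃ b s : F, IsIntegral ↥(Algebra.adjoin A₀ {u}) b ∧
      IsIntegral ↥(Algebra.adjoin A₀ {u}) s ∧ s ∉ (V c).nonunits ∧ s * x = b)
    (𝔫 : AtPt (F := F) π u)
    {ϖ s : ↥(zchClosure (A₀ := A₀) ({u} : Set F))}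
    (hϖ0 : (ϖ : F) ≠ 0) (hϖV : ∀ c, (ϖ : F) ∈ (V c).nonunits)
    (hs : s ∈ 𝔫.1) (hgen : NodesLocGen 𝔫.1 {ϖ, s})
    (c c' : κ) (hthr : atThrough 𝔫 (V c)) (hthr' : atThrough 𝔫 (V c')) : c = c' :=
  hinj (rtk6lu_ew_smooth V hBV harch hVloc 𝔫 hϖ0 hϖV hs hgen c c' hthr hthr')

end EW

end Fermat.Agent.RT.K6


end ZBRT_031_1

/-! ### bundled: `Fermat.Agent.RT.K6.EWMulti` -/
section ZBRT_031_2
/-
K-machine, piece K6, piece E-W-multi (M6 of `NOTES/RT-K6-D.md` v5), part 2 (helper18):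
**(T″) for a FINITE FAMILY of vertical valuation rings with TWO automorphisms** — the twin of
`rtk6ew_main_two` (RT/K6/EWCross.lean) without the hypothesis `κ = {c₁, c₂}`.

`V : κ → ValuationSubring F` is an injective finite family.  The dichotomy at the closed points is
`Rtk6ewmNodeAt V 𝔫 j p` ((M3)): on the unramified chart `R` (`j : R →+* B_u`,
`MgcRamified j π p`) the point is smooth (`𝔫 ∩ R = (p, s)` locally) or a THIN crossing point of two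
components `c₁, c₂` DEPENDING ON THE POINT (`𝔫 ∩ R = (p, X, Y)` locally, `w p = X Y`, `j w ∉ 𝔫`,
`X ∈ 𝔪(V c₁)`, `Y ∈ 𝔪(V c₂)`).

* `rtk6ewm_loc_dvd`     : local (SS1) in divisibility form;
* `rtk6ewm_cross_only`  : LOCAL UNIQUENESS at a crossing point (helper94's `rtk6lu_ew_cross_inj`);
* `rtk6ewm_cross_not_mem` : `X ∉ 𝔪(V c₂)` (hence `c₁ ≠ c₂`);
* `rtk6ewm_cross_facAt` : (F) at a crossing point fixed by `g` (`at_local_factor` +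
  `rtk6ew_hcoord_node`);
* `rtk6ewm_cp_cross`    : the crossing disjunct of `rtk6ewm_main_points`;
* `rtk6ewm_hpts_inl`, `rtk6ewm_hpts_inr`, `rtk6ewm_hpts` : the hypothesis `hpts`;
* `rtk6ew_main_multi`   : **the main theorem**.
-/

set_option autoImplicit false
set_option linter.style.haveILetI false
set_option linter.unusedSectionVars false
set_option linter.unusedVariables false

namespace Fermat.Agent.RT.K6

open Polynomial IntermediateField Fermat.Agent.INJ AlgebraicCurve Fermat.Agent.UNIP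
  Fermat.Agent.STB

section EWMulti

variable {A₀ E F : Type*} [CommRing A₀] [IsDomain A₀] [IsDiscreteValuationRing A₀]
  [Field E] [Algebra A₀ E] [IsFractionRing A₀ E] [CharZero E]
  [Field F] [Algebra E F] [Algebra A₀ F] [IsScalarTower A₀ E F]
  {π : A₀} {κ : Type*}

/-- **The thin crossing datum (M3)** at the closed point `𝔫` of the chart `u`, on the unramified
chart `R`, for the components `W₁`, `W₂`: both pass through `𝔫 ∩ R`, `𝔫 ∩ R = (p, X, Y)` locally,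
`w p = X Y` with `j w ∉ 𝔫`, `X ∈ 𝔪(W₁)`, `Y ∈ 𝔪(W₂)`. -/
def Rtk6ewmCrossAt (W₁ W₂ : ValuationSubring F) {u : F} (𝔫 : AtPt (F := F) π u)
    {R : Type*} [CommRing R] (j : R →+* ↥(zchClosure (A₀ := A₀) ({u} : Set F))) (p : R)
    (X Y w : R) : Prop :=
  (∀ x : R, ((j x : ↥(zchClosure (A₀ := A₀) ({u} : Set F))) : F) ∈ W₁.nonunits → j x ∈ 𝔫.1) ∧
  (∀ x : R, ((j x : ↥(zchClosure (A₀ := A₀) ({u} : Set F))) : F) ∈ W₂.nonunits → j x ∈ 𝔫.1) ∧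
  ((j X : ↥(zchClosure (A₀ := A₀) ({u} : Set F))) : F) ∈ W₁.nonunits ∧
  ((j Y : ↥(zchClosure (A₀ := A₀) ({u} : Set F))) : F) ∈ W₂.nonunits ∧
  j w ∉ 𝔫.1 ∧ w * p = X * Y ∧ NodesLocGen (𝔫.1.comap j) {p, X, Y}

/-- **The dichotomy (M3) at the closed point `𝔫` of the chart `u`** for the family `V`, on the
unramified chart `R`: smooth point, or thin crossing point of two components of the family
(depending on the point). -/
def Rtk6ewmNodeAt (V : κ → ValuationSubring F) {u : F} (𝔫 : AtPt (F := F) π u)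
    {R : Type*} [CommRing R] (j : R →+* ↥(zchClosure (A₀ := A₀) ({u} : Set F))) (p : R) : Prop :=
  (∃ s : R, j s ∈ 𝔫.1 ∧ NodesLocGen (𝔫.1.comap j) {p, s}) ∨
  ∃ (c₁ c₂ : κ) (X Y w : R), Rtk6ewmCrossAt (V c₁) (V c₂) 𝔫 j p X Y w

/-- a thin node of two components is a node in the sense of `STB.StbNodeAt` -/
theorem Rtk6ewmCrossAt.stbNodeAt {W₁ W₂ : ValuationSubring F} {u : F} {𝔫 : AtPt (F := F) π u}
    {R : Type*} [CommRing R] {j : R →+* ↥(zchClosure (A₀ := A₀) ({u} : Set F))} {p : R}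
    {X Y w : R} (h : Rtk6ewmCrossAt W₁ W₂ 𝔫 j p X Y w) : StbNodeAt W₁ W₂ 𝔫 j p :=
  Or.inr ⟨h.1, h.2.1, X, Y, h.2.2.1, h.2.2.2.1, h.2.2.2.2.2.2⟩

/-- **Local (SS1) in divisibility form**: an element of the chart lying in `𝔪(V c)` for all
components `c` through `𝔫` is divisible by `π` after multiplication by an element outside `𝔫`. -/
theorem rtk6ewm_loc_dvd (hπ0 : algebraMap A₀ F π ≠ 0) [Finite κ] {u : F}
    (V : κ → ValuationSubring F)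
    (hBV : ∀ c (b : F), IsIntegral ↥(Algebra.adjoin A₀ {u}) b → b ∈ V c)
    (hSS1 : ∀ b : F, IsIntegral ↥(Algebra.adjoin A₀ {u}) b → (∀ c, b ∈ (V c).nonunits) →
      ∃ b' : F, IsIntegral ↥(Algebra.adjoin A₀ {u}) b' ∧ b = algebraMap A₀ F π * b')
    (𝔫 : AtPt (F := F) π u) (b : ↥(zchClosure (A₀ := A₀) ({u} : Set F)))
    (hb : ∀ c, atThrough 𝔫 (V c) → (b : F) ∈ (V c).nonunits) :
    ∃ d b' : ↥(zchClosure (A₀ := A₀) ({u} : Set F)), d ∉ 𝔫.1 ∧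
      d * b = algebraMap A₀ ↥(zchClosure (A₀ := A₀) ({u} : Set F)) π * b' := by
  haveI := 𝔫.2.1.isPrime
  have hmem : (b : F) ∈ atLoc 𝔫 := ls_algebraMap_mem 𝔫.1 b
  have h := stb_loc_inter hπ0 V hBV hSS1 𝔫 ⟨(b : F), hmem⟩ hb
  obtain ⟨y, ⟨b', s, hs, hsy⟩, hxy⟩ := (ls_mem_localIdeal 𝔫.1 _).mp h
  refine ⟨s, b', hs, Subtype.ext ?_⟩
  have hsy' : (s : F) * y = (b' : F) := hsy
  have hxy' : (b : F) = algebraMap A₀ F π * y := hxy
  show (s : F) * (b : F) = algebraMap A₀ F π * (b' : F)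
  rw [hxy', ← hsy']
  ring

/-- `atThrough` on the chart from "through" on the unramified chart, at a thin crossing point -/
theorem Rtk6ewmCrossAt.through {u : F} (V : κ → ValuationSubring F)
    (hBV : ∀ c (b : F), IsIntegral ↥(Algebra.adjoin A₀ {u}) b → b ∈ V c)
    (hπV : ∀ c, algebraMap A₀ F π ∈ (V c).nonunits)
    {𝔫 : AtPt (F := F) π u}
    {R : Type*} [CommRing R] {j : R →+* ↥(zchClosure (A₀ := A₀) ({u} : Set F))} {p : R}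
    (hram : MgcRamified j (algebraMap A₀ ↥(zchClosure (A₀ := A₀) ({u} : Set F)) π) p)
    {c₁ c₂ : κ} {X Y w : R} (h : Rtk6ewmCrossAt (V c₁) (V c₂) 𝔫 j p X Y w) :
    atThrough 𝔫 (V c₁) ∧ atThrough 𝔫 (V c₂) :=
  ⟨stb_cp_through (V c₁) (hBV c₁) (hπV c₁) 𝔫 j p hram h.1,
    stb_cp_through (V c₂) (hBV c₂) (hπV c₂) 𝔫 j p hram h.2.1⟩

/-- **Local uniqueness at a thin crossing point**: every component of the family through `𝔫` is
one of the two components of the crossing datum. -/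
theorem rtk6ewm_cross_only {u : F} [IsNoetherianRing ↥(zchClosure (A₀ := A₀) ({u} : Set F))]
    (hπ0 : algebraMap A₀ F π ≠ 0)
    (V : κ → ValuationSubring F) (hinj : Function.Injective V)
    (hBV : ∀ c (b : F), IsIntegral ↥(Algebra.adjoin A₀ {u}) b → b ∈ V c)
    (hπV : ∀ c, algebraMap A₀ F π ∈ (V c).nonunits)
    (harch : ∀ c (a x : F), a ∈ (V c).nonunits → ∃ N : ℕ, a ^ N * x ∈ (V c).nonunits)
    (hVloc : ∀ c (x : F), x ∈ V c → ∃ b s : F, IsIntegral ↥(Algebra.adjoin A₀ {u}) b ∧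
      IsIntegral ↥(Algebra.adjoin A₀ {u}) s ∧ s ∉ (V c).nonunits ∧ s * x = b)
    (𝔫 : AtPt (F := F) π u)
    {R : Type*} [CommRing R] (j : R →+* ↥(zchClosure (A₀ := A₀) ({u} : Set F))) (p : R)
    (hram : MgcRamified j (algebraMap A₀ ↥(zchClosure (A₀ := A₀) ({u} : Set F)) π) p)
    {c₁ c₂ : κ} {X Y w : R} (h : Rtk6ewmCrossAt (V c₁) (V c₂) 𝔫 j p X Y w) :
    ∀ c, atThrough 𝔫 (V c) → c = c₁ ∨ c = c₂ := by
  intro c hc
  obtain ⟨hT₁, hT₂⟩ := h.through V hBV hπV hram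
  obtain ⟨-, -, hX, hY, hw, hXY, hgen⟩ := h
  obtain ⟨z, hz⟩ := hram.dvd
  have hXY' : j X * j Y = (j w * z) * algebraMap A₀ ↥(zchClosure (A₀ := A₀) ({u} : Set F)) π := by
    rw [← map_mul, ← hXY, map_mul, hz]
    ring
  exact rtk6lu_ew_cross_inj V hinj hBV harch hVloc 𝔫
    (ϖ := algebraMap A₀ ↥(zchClosure (A₀ := A₀) ({u} : Set F)) π) hπ0 hπV hXY'
    (stb_cp_locGen 𝔫 j p hram X Y hgen) c₁ c₂ hT₁ hT₂ hX hY c hc

/-- **`X ∉ 𝔪(V c₂)` at a thin crossing point** (so the two components are different and the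
hypothesis `hstage` of `rtk6ew_hcoord_node` holds with `n′ = 1`). -/
theorem rtk6ewm_cross_not_mem {u : F} [Finite κ]
    [IsNoetherianRing ↥(zchClosure (A₀ := A₀) ({u} : Set F))]
    (hπ0 : algebraMap A₀ F π ≠ 0)
    (V : κ → ValuationSubring F) (hinj : Function.Injective V)
    (hBV : ∀ c (b : F), IsIntegral ↥(Algebra.adjoin A₀ {u}) b → b ∈ V c)
    (hπV : ∀ c, algebraMap A₀ F π ∈ (V c).nonunits)
    (hSS1 : ∀ b : F, IsIntegral ↥(Algebra.adjoin A₀ {u}) b → (∀ c, b ∈ (V c).nonunits) →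
      ∃ b' : F, IsIntegral ↥(Algebra.adjoin A₀ {u}) b' ∧ b = algebraMap A₀ F π * b')
    (harch : ∀ c (a x : F), a ∈ (V c).nonunits → ∃ N : ℕ, a ^ N * x ∈ (V c).nonunits)
    (hVloc : ∀ c (x : F), x ∈ V c → ∃ b s : F, IsIntegral ↥(Algebra.adjoin A₀ {u}) b ∧
      IsIntegral ↥(Algebra.adjoin A₀ {u}) s ∧ s ∉ (V c).nonunits ∧ s * x = b)
    (𝔫 : AtPt (F := F) π u)
    {R : Type*} [CommRing R] (j : R →+* ↥(zchClosure (A₀ := A₀) ({u} : Set F))) (p : R)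
    (hram : MgcRamified j (algebraMap A₀ ↥(zchClosure (A₀ := A₀) ({u} : Set F)) π) p)
    (hjp0 : j p ≠ 0)
    {c₁ c₂ : κ} {X Y w : R} (h : Rtk6ewmCrossAt (V c₁) (V c₂) 𝔫 j p X Y w) :
    ((j X : ↥(zchClosure (A₀ := A₀) ({u} : Set F))) : F) ∉ (V c₂).nonunits := by
  haveI := 𝔫.2.1.isPrime
  intro hX2
  have hloc := rtk6ewm_cross_only hπ0 V hinj hBV hπV harch hVloc 𝔫 j p hram h
  obtain ⟨hT₁, hT₂⟩ := h.through V hBV hπV hram
  obtain ⟨-, -, hX, hY, hw, hXY, hgen⟩ := h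
  obtain ⟨d, b', hd, hdb⟩ := rtk6ewm_loc_dvd hπ0 V hBV hSS1 𝔫 (j X) (fun c hc => by
    rcases hloc c hc with rfl | rfl
    · exact hX
    · exact hX2)
  obtain ⟨d₀, z, hdz⟩ := hram.decomp d
  have hd₀ : j d₀ ∉ 𝔫.1 := by
    intro h0
    apply hd
    rw [hdz]
    exact Ideal.add_mem _ h0 (Ideal.mul_mem_right _ _ 𝔫.2.2)
  have hdvd : algebraMap A₀ ↥(zchClosure (A₀ := A₀) ({u} : Set F)) π ∣ j (d₀ * X) := by
    refine ⟨b' - z * j X, ?_⟩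
    have e : j d₀ = d - algebraMap A₀ ↥(zchClosure (A₀ := A₀) ({u} : Set F)) π * z := by
      rw [hdz]; ring
    rw [map_mul, e, sub_mul, hdb]
    ring
  obtain ⟨X', hX'⟩ := hram.cancel _ hdvd
  have key : j p * (j d₀ * j w) = j p * (j X' * j Y) := by
    have e1 : d₀ * w * p = p * X' * Y := by
      calc d₀ * w * p = d₀ * (w * p) := by ring
        _ = d₀ * (X * Y) := by rw [hXY]
        _ = (d₀ * X) * Y := by ring
        _ = p * X' * Y := by rw [hX']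
    have e2 := congrArg j e1
    simp only [map_mul] at e2
    rw [← mul_assoc, ← mul_assoc, ← e2]
    ring
  have key' : j d₀ * j w = j X' * j Y := mul_left_cancel₀ hjp0 key
  have hmem : j d₀ * j w ∈ 𝔫.1 := by
    rw [key']
    exact Ideal.mul_mem_left _ _ (hT₂ _ hY)
  rcases (inferInstance : 𝔫.1.IsPrime).mem_or_mem hmem with h1 | h1
  · exact hd₀ h1
  · exact hw h1


/-- the symmetric crossing datum -/
theorem Rtk6ewmCrossAt.symm {W₁ W₂ : ValuationSubring F} {u : F} {𝔫 : AtPt (F := F) π u}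
    {R : Type*} [CommRing R] {j : R →+* ↥(zchClosure (A₀ := A₀) ({u} : Set F))} {p : R}
    {X Y w : R} (h : Rtk6ewmCrossAt W₁ W₂ 𝔫 j p X Y w) : Rtk6ewmCrossAt W₂ W₁ 𝔫 j p Y X w := by
  obtain ⟨h1, h2, hX, hY, hw, hXY, hgen⟩ := h
  refine ⟨h2, h1, hY, hX, hw, by rw [hXY, mul_comm], ?_⟩
  have e : ({p, Y, X} : Set R) = {p, X, Y} := by rw [Set.pair_comm Y X]
  rw [e]
  exact hgen

include E in
/-- `j p ≠ 0` -/
theorem rtk6ewm_jp_ne_zero (hπ : Irreducible π) {u : F} (q : A₀) (hq0 : q ≠ 0)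
    {R : Type*} [CommRing R] (j : R →+* ↥(zchClosure (A₀ := A₀) ({u} : Set F))) (p : R)
    (hjp : j p = algebraMap A₀ ↥(zchClosure (A₀ := A₀) ({u} : Set F)) q) : j p ≠ 0 := by
  rw [hjp]
  intro h0
  have h1 : algebraMap A₀ F q = 0 :=
    congrArg (fun z : ↥(zchClosure (A₀ := A₀) ({u} : Set F)) => (z : F)) h0
  exact hq0 ((map_eq_zero_iff _ (zch_algebraMap_injective (A₀ := A₀) (E := E) (L := F))).mp h1)

include E in
/-- the two components of a thin crossing point are different -/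
theorem rtk6ewm_cross_ne (hπ : Irreducible π) {u : F} [Finite κ]
    [IsNoetherianRing ↥(zchClosure (A₀ := A₀) ({u} : Set F))]
    (V : κ → ValuationSubring F) (hinj : Function.Injective V)
    (hBV : ∀ c (b : F), IsIntegral ↥(Algebra.adjoin A₀ {u}) b → b ∈ V c)
    (hπV : ∀ c, algebraMap A₀ F π ∈ (V c).nonunits)
    (hSS1 : ∀ b : F, IsIntegral ↥(Algebra.adjoin A₀ {u}) b → (∀ c, b ∈ (V c).nonunits) →
      ∃ b' : F, IsIntegral ↥(Algebra.adjoin A₀ {u}) b' ∧ b = algebraMap A₀ F π * b')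
    (harch : ∀ c (a x : F), a ∈ (V c).nonunits → ∃ N : ℕ, a ^ N * x ∈ (V c).nonunits)
    (hVloc : ∀ c (x : F), x ∈ V c → ∃ b s : F, IsIntegral ↥(Algebra.adjoin A₀ {u}) b ∧
      IsIntegral ↥(Algebra.adjoin A₀ {u}) s ∧ s ∉ (V c).nonunits ∧ s * x = b)
    (𝔫 : AtPt (F := F) π u) (q : A₀) (hq0 : q ≠ 0)
    {R : Type*} [CommRing R] (j : R →+* ↥(zchClosure (A₀ := A₀) ({u} : Set F))) (p : R)
    (hram : MgcRamified j (algebraMap A₀ ↥(zchClosure (A₀ := A₀) ({u} : Set F)) π) p)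
    (hjp : j p = algebraMap A₀ ↥(zchClosure (A₀ := A₀) ({u} : Set F)) q)
    {c₁ c₂ : κ} {X Y w : R} (h : Rtk6ewmCrossAt (V c₁) (V c₂) 𝔫 j p X Y w) : c₁ ≠ c₂ := by
  have hπ0 : algebraMap A₀ F π ≠ 0 :=
    (map_ne_zero_iff _ (zch_algebraMap_injective (A₀ := A₀) (E := E) (L := F))).mpr hπ.ne_zero
  rintro rfl
  exact rtk6ewm_cross_not_mem hπ0 V hinj hBV hπV hSS1 harch hVloc 𝔫 j p hram
    (rtk6ewm_jp_ne_zero (E := E) hπ q hq0 j p hjp) h h.2.2.1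

/-- **(F) at a thin crossing point of the chart `u` fixed by `g`**, in the form `StbFacAt`:
fork of `rtk6ew_cross_facAt` for a finite family. -/
theorem rtk6ewm_cross_facAt (hπ : Irreducible π) {u : F} (hu : Transcendental E u)
    [FiniteDimensional E⟮u⟯ F] [Finite κ]
    [IsNoetherianRing ↥(zchClosure (A₀ := A₀) ({u} : Set F))]
    (V : κ → ValuationSubring F) (hinj : Function.Injective V)
    (hBV : ∀ c (b : F), IsIntegral ↥(Algebra.adjoin A₀ {u}) b → b ∈ V c)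
    (hπV : ∀ c, algebraMap A₀ F π ∈ (V c).nonunits)
    (hSS1 : ∀ b : F, IsIntegral ↥(Algebra.adjoin A₀ {u}) b → (∀ c, b ∈ (V c).nonunits) →
      ∃ b' : F, IsIntegral ↥(Algebra.adjoin A₀ {u}) b' ∧ b = algebraMap A₀ F π * b')
    (harch : ∀ c (a x : F), a ∈ (V c).nonunits → ∃ N : ℕ, a ^ N * x ∈ (V c).nonunits)
    (hVloc : ∀ c (x : F), x ∈ V c → ∃ b s : F, IsIntegral ↥(Algebra.adjoin A₀ {u}) b ∧
      IsIntegral ↥(Algebra.adjoin A₀ {u}) s ∧ s ∉ (V c).nonunits ∧ s * x = b)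
    (g : SemilinearAut E F) (hgu : g • u = u)
    (𝔫 : AtPt (F := F) π u)
    (hgB : ∀ b : ↥(zchClosure (A₀ := A₀) ({u} : Set F)), b ∈ 𝔫.1 →
      ∃ b' : ↥(zchClosure (A₀ := A₀) ({u} : Set F)), b' ∈ 𝔫.1 ∧ g • (b : F) = b')
    (hgB' : ∀ b : ↥(zchClosure (A₀ := A₀) ({u} : Set F)), b ∈ 𝔫.1 →
      ∃ b' : ↥(zchClosure (A₀ := A₀) ({u} : Set F)), b' ∈ 𝔫.1 ∧ g⁻¹ • (b : F) = b')
    (hgB₀ : ∀ b : F, IsIntegral ↥(Algebra.adjoin A₀ {u}) b →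
      IsIntegral ↥(Algebra.adjoin A₀ {u}) (g • b))
    (hgB₀' : ∀ b : F, IsIntegral ↥(Algebra.adjoin A₀ {u}) b →
      IsIntegral ↥(Algebra.adjoin A₀ {u}) (g⁻¹ • b))
    (hgV : ∀ c (f : F), f ≠ 0 → (V c).valuation (g • f / f) = 1)
    (hgA : ∀ α : A₀, ∃ α' : A₀, g • algebraMap A₀ F α = algebraMap A₀ F α')
    (q : A₀) (hq0 : q ≠ 0) (hqπ : π ∣ q)
    (hgq : ∃ c : A₀, g • algebraMap A₀ F q = algebraMap A₀ F (c * q))
    {R : Type*} [CommRing R] (j : R →+* ↥(zchClosure (A₀ := A₀) ({u} : Set F))) (p : R)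
    (hram : MgcRamified j (algebraMap A₀ ↥(zchClosure (A₀ := A₀) ({u} : Set F)) π) p)
    (hjp : j p = algebraMap A₀ ↥(zchClosure (A₀ := A₀) ({u} : Set F)) q)
    {c₁ c₂ : κ} {X Y w : R} (h : Rtk6ewmCrossAt (V c₁) (V c₂) 𝔫 j p X Y w)
    {x : F} (hx : x ≠ 0) (m : ℕ)
    (hfin : {P : Place E F | LsTube ↥(zchClosure (A₀ := A₀) ({u} : Set F)) u 𝔫.1 P ∧
      g • P ≠ P ∧ P.ord x ≠ 0}.Finite)
    (hm : ∀ P : Place E F, LsTube ↥(zchClosure (A₀ := A₀) ({u} : Set F)) u 𝔫.1 P → g • P ≠ P →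
      (m : ℤ) ∣ P.ord x)
    (hrat : ∀ P : Place E F, LsTube ↥(zchClosure (A₀ := A₀) ({u} : Set F)) u 𝔫.1 P →
      g • P ≠ P → P.ord x ≠ 0 → ∀ f ∈ P.toValuationSubring,
        ∃ c : E, f - algebraMap E F c ∈ P.toValuationSubring.nonunits) :
    StbFacAt (atLoc 𝔫) m (g • x / x) := by
  haveI := 𝔫.2.1.isPrime
  have hπ0 : algebraMap A₀ F π ≠ 0 :=
    (map_ne_zero_iff _ (zch_algebraMap_injective (A₀ := A₀) (E := E) (L := F))).mpr hπ.ne_zero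
  have hjp0 := rtk6ewm_jp_ne_zero (E := E) hπ q hq0 j p hjp
  obtain ⟨hT₁, hT₂⟩ := h.through V hBV hπV hram
  have hX2 := rtk6ewm_cross_not_mem hπ0 V hinj hBV hπV hSS1 harch hVloc 𝔫 j p hram hjp0 h
  have hY1 := rtk6ewm_cross_not_mem hπ0 V hinj hBV hπV hSS1 harch hVloc 𝔫 j p hram hjp0 h.symm
  have hG := stb_cp_locGen 𝔫 j p hram X Y h.2.2.2.2.2.2
  obtain ⟨g₀, e, hg₀, he, he', hfac⟩ := at_local_factor hπ hu V hBV hπV hSS1 hVloc g hgu 𝔫.1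
    hgB hgB' hgB₀ hgB₀' hgV hx m hfin hm
    (rtk6ew_hcoord_node hπ hu V hBV hπV hVloc g hgu 𝔫.1 𝔫.2.2 hgB hgB₀' hgV hgA q hq0 hqπ hgq
      c₁ c₂ hT₁ hT₂
      (fun n hn => ⟨1, j X, j Y, j w, h.2.2.1, h.2.2.2.1, hX2, hY1, by
        rw [pow_one, ← hjp, ← map_mul, ← map_mul, ← h.2.2.2.2.2.1, mul_comm], hG,
        Or.inr h.2.2.2.2.1⟩) hrat)
  obtain ⟨-, hform⟩ := stb_factor_form g hx hg₀ m hfac
  exact stb_facAt_of_mem _ (stb_smul_div_ne_zero g hx) he he' hform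

/-- **The crossing disjunct of `rtk6ewm_main_points`** at a thin crossing point `𝔫` of the chart
`u` fixed by `g`, for `y = g • x / x` and ANY ring endomorphism `Φ` with `Φ b ≡ b ^ Q` mod `𝔫` on
the chart.  Fork of `rtk6ew_cp_cross` for a finite family. -/
theorem rtk6ewm_cp_cross (hπ : Irreducible π) {u : F} (hu : Transcendental E u)
    [FiniteDimensional E⟮u⟯ F] [Finite κ]
    [IsNoetherianRing ↥(zchClosure (A₀ := A₀) ({u} : Set F))]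
    (V : κ → ValuationSubring F) (hinj : Function.Injective V)
    (hBV : ∀ c (b : F), IsIntegral ↥(Algebra.adjoin A₀ {u}) b → b ∈ V c)
    (hπV : ∀ c, algebraMap A₀ F π ∈ (V c).nonunits)
    (hSS1 : ∀ b : F, IsIntegral ↥(Algebra.adjoin A₀ {u}) b → (∀ c, b ∈ (V c).nonunits) →
      ∃ b' : F, IsIntegral ↥(Algebra.adjoin A₀ {u}) b' ∧ b = algebraMap A₀ F π * b')
    (harch : ∀ c (a x : F), a ∈ (V c).nonunits → ∃ N : ℕ, a ^ N * x ∈ (V c).nonunits)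
    (hVloc : ∀ c (x : F), x ∈ V c → ∃ b s : F, IsIntegral ↥(Algebra.adjoin A₀ {u}) b ∧
      IsIntegral ↥(Algebra.adjoin A₀ {u}) s ∧ s ∉ (V c).nonunits ∧ s * x = b)
    (g : SemilinearAut E F) (hgu : g • u = u)
    (𝔫 : AtPt (F := F) π u)
    (hgB : ∀ b : ↥(zchClosure (A₀ := A₀) ({u} : Set F)), b ∈ 𝔫.1 →
      ∃ b' : ↥(zchClosure (A₀ := A₀) ({u} : Set F)), b' ∈ 𝔫.1 ∧ g • (b : F) = b')
    (hgB' : ∀ b : ↥(zchClosure (A₀ := A₀) ({u} : Set F)), b ∈ 𝔫.1 →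
      ∃ b' : ↥(zchClosure (A₀ := A₀) ({u} : Set F)), b' ∈ 𝔫.1 ∧ g⁻¹ • (b : F) = b')
    (hgB₀ : ∀ b : F, IsIntegral ↥(Algebra.adjoin A₀ {u}) b →
      IsIntegral ↥(Algebra.adjoin A₀ {u}) (g • b))
    (hgB₀' : ∀ b : F, IsIntegral ↥(Algebra.adjoin A₀ {u}) b →
      IsIntegral ↥(Algebra.adjoin A₀ {u}) (g⁻¹ • b))
    (hgV : ∀ c (f : F), f ≠ 0 → (V c).valuation (g • f / f) = 1)
    (hgA : ∀ α : A₀, ∃ α' : A₀, g • algebraMap A₀ F α = algebraMap A₀ F α')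
    (q : A₀) (hq0 : q ≠ 0) (hqπ : π ∣ q)
    (hgq : ∃ c : A₀, g • algebraMap A₀ F q = algebraMap A₀ F (c * q))
    {R : Type*} [CommRing R] (j : R →+* ↥(zchClosure (A₀ := A₀) ({u} : Set F))) (p : R)
    (hram : MgcRamified j (algebraMap A₀ ↥(zchClosure (A₀ := A₀) ({u} : Set F)) π) p)
    (hjp : j p = algebraMap A₀ ↥(zchClosure (A₀ := A₀) ({u} : Set F)) q)
    {c₁ c₂ : κ} {X Y w : R} (h : Rtk6ewmCrossAt (V c₁) (V c₂) 𝔫 j p X Y w)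
    (Φ : F →+* F) (Q : ℕ) (hfrobB : Rtk6ewCong Φ Q 𝔫)
    {x : F} (hx : x ≠ 0) (m : ℕ)
    (hfin : {P : Place E F | LsTube ↥(zchClosure (A₀ := A₀) ({u} : Set F)) u 𝔫.1 P ∧
      g • P ≠ P ∧ P.ord x ≠ 0}.Finite)
    (hm : ∀ P : Place E F, LsTube ↥(zchClosure (A₀ := A₀) ({u} : Set F)) u 𝔫.1 P → g • P ≠ P →
      (m : ℤ) ∣ P.ord x)
    (hrat : ∀ P : Place E F, LsTube ↥(zchClosure (A₀ := A₀) ({u} : Set F)) u 𝔫.1 P →
      g • P ≠ P → P.ord x ≠ 0 → ∀ f ∈ P.toValuationSubring,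
        ∃ c : E, f - algebraMap E F c ∈ P.toValuationSubring.nonunits) :
    atThrough 𝔫 (V c₁) ∧ atThrough 𝔫 (V c₂) ∧ (∀ c, atThrough 𝔫 (V c) → c = c₁ ∨ c = c₂) ∧
      StbCross (atLoc 𝔫) (V c₁) (V c₂) Φ Q m (g • x / x) := by
  haveI := 𝔫.2.1.isPrime
  have hπ0 : algebraMap A₀ F π ≠ 0 :=
    (map_ne_zero_iff _ (zch_algebraMap_injective (A₀ := A₀) (E := E) (L := F))).mpr hπ.ne_zero
  obtain ⟨hT₁, hT₂⟩ := h.through V hBV hπV hram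
  have hG := stb_cp_locGen 𝔫 j p hram X Y h.2.2.2.2.2.2
  have hX := h.2.2.1
  have hY := h.2.2.2.1
  refine ⟨hT₁, hT₂, rtk6ewm_cross_only hπ0 V hinj hBV hπV harch hVloc 𝔫 j p hram h,
    ?_, ?_, ?_, ?_, ?_⟩
  · exact stb_cp_sum (V c₁) (V c₂) (hBV c₁) (hBV c₂) (hπV c₁) 𝔫 hT₁ hT₂ (j X) (j Y) hX hY hG
  · exact stb_cp_res₁ (V c₁) (hBV c₁) (hπV c₁) (hVloc c₁) 𝔫 hT₁ (j X) (j Y) hX (hT₂ _ hY) hG
  · exact stb_cp_res₂ (V c₂) (hBV c₂) (hπV c₂) (hVloc c₂) 𝔫 hT₂ (j X) (j Y) (hT₁ _ hX) hY hG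
  · exact stb_cp_frob 𝔫 Φ Q hfrobB
  · exact rtk6ewm_cross_facAt hπ hu V hinj hBV hπV hSS1 harch hVloc g hgu 𝔫 hgB hgB' hgB₀ hgB₀'
      hgV hgA q hq0 hqπ hgq j p hram hjp h hx m hfin hm hrat

/-- **Chart `t`**: the hypothesis `hpts (Sum.inl 𝔫)` of `rtk6ewm_main_points` for `y = g • x / x`
and the map `Φ`, from the dichotomy (M3) at `𝔫`; at the crossing points `g` fixes `𝔫` and
`Φ b ≡ b ^ Q` mod `𝔫`.  Fork of `rtk6ew_hpts_inl` for a finite family. -/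
theorem rtk6ewm_hpts_inl (hπ : Irreducible π) {t : F} (ht : Transcendental E t)
    [FiniteDimensional E⟮t⟯ F] [Finite κ]
    [IsNoetherianRing ↥(zchClosure (A₀ := A₀) ({t} : Set F))]
    (V : κ → ValuationSubring F) (hinj : Function.Injective V)
    (hBV : ∀ c (b : F), IsIntegral ↥(Algebra.adjoin A₀ {t}) b → b ∈ V c)
    (hπV : ∀ c, algebraMap A₀ F π ∈ (V c).nonunits)
    (hSS1 : ∀ b : F, IsIntegral ↥(Algebra.adjoin A₀ {t}) b → (∀ c, b ∈ (V c).nonunits) →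
      ∃ b' : F, IsIntegral ↥(Algebra.adjoin A₀ {t}) b' ∧ b = algebraMap A₀ F π * b')
    (harch : ∀ c (a x : F), a ∈ (V c).nonunits → ∃ N : ℕ, a ^ N * x ∈ (V c).nonunits)
    (hVloc : ∀ c (x : F), x ∈ V c → ∃ b s : F, IsIntegral ↥(Algebra.adjoin A₀ {t}) b ∧
      IsIntegral ↥(Algebra.adjoin A₀ {t}) s ∧ s ∉ (V c).nonunits ∧ s * x = b)
    (g : SemilinearAut E F) (hgu : g • t = t)
    (hgV : ∀ c (f : F), f ≠ 0 → (V c).valuation (g • f / f) = 1)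
    (hgA : ∀ α : A₀, ∃ α' : A₀, g • algebraMap A₀ F α = algebraMap A₀ F α')
    (hgA' : ∀ α : A₀, ∃ α' : A₀, g⁻¹ • algebraMap A₀ F α = algebraMap A₀ F α')
    (Φ : SemilinearAut E F) (hΦu : Φ • t = t)
    (hΦV : ∀ c (f : F), f ≠ 0 → (V c).valuation (Φ • f / f) = 1)
    (hΦA : ∀ α : A₀, ∃ α' : A₀, Φ • algebraMap A₀ F α = algebraMap A₀ F α')
    (hΦA' : ∀ α : A₀, ∃ α' : A₀, Φ⁻¹ • algebraMap A₀ F α = algebraMap A₀ F α')
    (q : A₀) (hq0 : q ≠ 0) (hqπ : π ∣ q)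
    {R : Type*} [CommRing R] (j : R →+* ↥(zchClosure (A₀ := A₀) ({t} : Set F))) (p : R)
    (hram : MgcRamified j (algebraMap A₀ ↥(zchClosure (A₀ := A₀) ({t} : Set F)) π) p)
    (hjp : j p = algebraMap A₀ ↥(zchClosure (A₀ := A₀) ({t} : Set F)) q)
    (𝔫 : AtPt (F := F) π t)
    (hnode : Rtk6ewmNodeAt V 𝔫 j p)
    (Q : ℕ)
    (hfix : ∀ c₁ c₂ : κ, c₁ ≠ c₂ → atThrough 𝔫 (V c₁) → atThrough 𝔫 (V c₂) → Rtk6ewFix g 𝔫)
    (Φ' : F →+* F) (hΦ' : ∀ x : F, Φ' x = Φ • x)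
    (hcong : ∀ c₁ c₂ : κ, c₁ ≠ c₂ → atThrough 𝔫 (V c₁) → atThrough 𝔫 (V c₂) →
      Rtk6ewCong Φ' Q 𝔫)
    {x : F} (hx : x ≠ 0) (m : ℕ)
    (hfin : {P : Place E F | P.ord x ≠ 0}.Finite)
    (hm : ∀ P : Place E F, (m : ℤ) ∣ P.ord x)
    (hrat : ∀ P : Place E F, P.ord x ≠ 0 → ∀ f ∈ P.toValuationSubring,
      ∃ c : E, f - algebraMap E F c ∈ P.toValuationSubring.nonunits)
    (tt : κ → F) (htoric : ∀ c, (g • x / x) / tt c ^ m - 1 ∈ (V c).nonunits) :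
    (∃ c₁ c₂ : κ, atInc π t V (Sum.inl 𝔫) c₁ ∧ atInc π t V (Sum.inl 𝔫) c₂ ∧
      (∀ c, atInc π t V (Sum.inl 𝔫) c → c = c₁ ∨ c = c₂) ∧
      StbCross (atO π t (Sum.inl 𝔫)) (V c₁) (V c₂) Φ' Q m (g • x / x)) ∨
    (∃ c, atInc π t V (Sum.inl 𝔫) c ∧ (∀ c', atInc π t V (Sum.inl 𝔫) c' → c' = c) ∧
      ∃ i₁ : AtPt (F := F) π t ⊕ AtPt (F := F) π t⁻¹, atInc π t V i₁ c ∧
        StbSmooth (atO π t (Sum.inl 𝔫)) (atO π t i₁) (V c) Φ' m (g • x / x)) := by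
  have hΦeq : Φ' = (SemilinearAut.toRingAut Φ : F ≃+* F).toRingHom := RingHom.ext hΦ'
  subst hΦeq
  have hgB₀ : ∀ b : F, IsIntegral ↥(Algebra.adjoin A₀ {t}) b →
      IsIntegral ↥(Algebra.adjoin A₀ {t}) (g • b) :=
    fun b hb => stb_mt_isIntegral_smul g hgu hgA hb
  have hgu' : g⁻¹ • t = t := by
    conv_lhs => rw [← hgu]
    rw [inv_smul_smul]
  have hgB₀' : ∀ b : F, IsIntegral ↥(Algebra.adjoin A₀ {t}) b →
      IsIntegral ↥(Algebra.adjoin A₀ {t}) (g⁻¹ • b) :=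
    fun b hb => stb_mt_isIntegral_smul g⁻¹ hgu' hgA' hb
  have hΦB₀ : ∀ b : F, IsIntegral ↥(Algebra.adjoin A₀ {t}) b →
      IsIntegral ↥(Algebra.adjoin A₀ {t}) (Φ • b) :=
    fun b hb => stb_mt_isIntegral_smul Φ hΦu hΦA hb
  have hΦu' : Φ⁻¹ • t = t := by
    conv_lhs => rw [← hΦu]
    rw [inv_smul_smul]
  have hΦB₀' : ∀ b : F, IsIntegral ↥(Algebra.adjoin A₀ {t}) b →
      IsIntegral ↥(Algebra.adjoin A₀ {t}) (Φ⁻¹ • b) :=
    fun b hb => stb_mt_isIntegral_smul Φ⁻¹ hΦu' hΦA' hb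
  rcases hnode with ⟨s, hs, hgen⟩ | ⟨c₁, c₂, X, Y, w, hcr⟩
  · -- smooth point
    right
    have hne' : ∀ c c', c ≠ c' → V c ≠ V c' := fun c c' hcc' h => hcc' (hinj h)
    have hyfin : ∀ 𝔫' : AtPt (F := F) π t, {P : Place E F |
        LsTube ↥(zchClosure (A₀ := A₀) ({t} : Set F)) t 𝔫'.1 P ∧
          P.ord (g • x / x) ≠ 0}.Finite := by
      intro 𝔫'
      have h2 : {P : Place E F | (g⁻¹ • P).ord x ≠ 0}.Finite := by
        have := hfin.image (fun P : Place E F => g • P)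
        refine this.subset ?_
        intro P hP
        exact ⟨g⁻¹ • P, hP, smul_inv_smul g P⟩
      refine (hfin.union h2).subset ?_
      rintro P ⟨-, hP⟩
      rw [stb_mt_ord_div g P hx] at hP
      by_contra hcon
      rw [Set.mem_union, not_or] at hcon
      have h3 : P.ord x = 0 := not_not.mp hcon.1
      have h4 : (g⁻¹ • P).ord x = 0 := not_not.mp hcon.2
      exact hP (by rw [h3, h4, sub_zero])
    have hym : ∀ 𝔫' : AtPt (F := F) π t, ∀ P : Place E F,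
        LsTube ↥(zchClosure (A₀ := A₀) ({t} : Set F)) t 𝔫'.1 P →
          (m : ℤ) ∣ P.ord (g • x / x) := by
      intro 𝔫' P _
      rw [stb_mt_ord_div g P hx]
      exact dvd_sub (hm _) (hm _)
    have hyrat : ∀ 𝔫' : AtPt (F := F) π t, ∀ P : Place E F,
        LsTube ↥(zchClosure (A₀ := A₀) ({t} : Set F)) t 𝔫'.1 P → P.ord (g • x / x) ≠ 0 →
        ∀ f ∈ P.toValuationSubring,
          ∃ c : E, f - algebraMap E F c ∈ P.toValuationSubring.nonunits := by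
      intro 𝔫' P _ hP
      by_cases h3 : P.ord x = 0
      · have h4 : (g⁻¹ • P).ord x ≠ 0 := by
          intro h4
          rw [stb_mt_ord_div g P hx, h3, h4, sub_zero] at hP
          exact hP rfl
        have := stb_mt_rat_smul g (g⁻¹ • P) (hrat _ h4)
        rwa [smul_inv_smul] at this
      · exact hrat P h3
    exact stb_sx_hpts_inl hπ ht V hBV hπV hSS1 hVloc hne' harch (SemilinearAut.toRingAut Φ)
      hΦB₀ hΦB₀'
      (stb_st_map_pi E hπ (SemilinearAut.toRingAut Φ) hΦA hΦA')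
      (stb_st_map_pi E hπ (SemilinearAut.toRingAut Φ).symm hΦA' hΦA)
      (fun c x hx' => stb_mt_map_nonunits Φ (V c) (hΦV c) hx')
      (fun c x hx' => stb_mt_map_nonunits Φ⁻¹ (V c) (stb_mt_inv_valuation Φ (V c) (hΦV c)) hx')
      𝔫 (j s) hs (hram.mgg_locGen_pair 𝔫.2.2 s hgen) m tt htoric hyfin hym hyrat
  · -- crossing point
    left
    obtain ⟨hT₁, hT₂⟩ := hcr.through V hBV hπV hram
    have hcc := rtk6ewm_cross_ne (E := E) hπ V hinj hBV hπV hSS1 harch hVloc 𝔫 q hq0 j p hram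
      hjp hcr
    obtain ⟨hgB, hgB'⟩ := hfix c₁ c₂ hcc hT₁ hT₂
    exact ⟨c₁, c₂, rtk6ewm_cp_cross hπ ht V hinj hBV hπV hSS1 harch hVloc g hgu 𝔫 hgB hgB'
      hgB₀ hgB₀' hgV hgA q hq0 hqπ (rtk6ew_smul_dvd g hgA hgA' q) j p hram hjp hcr
      (SemilinearAut.toRingAut Φ : F ≃+* F).toRingHom Q (hcong c₁ c₂ hcc hT₁ hT₂) hx m
      (hfin.subset fun P hP => hP.2.2) (fun P _ _ => hm P) (fun P _ _ hP => hrat P hP)⟩

/-- **Chart `t⁻¹`**: the hypothesis `hpts (Sum.inr 𝔫)` of `rtk6ewm_main_points` for `y = g • x / x`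
and the map `Φ`, from the dichotomy (M3) at `𝔫`; at the crossing points `g` fixes `𝔫` and
`Φ b ≡ b ^ Q` mod `𝔫`.  Fork of `rtk6ew_hpts_inr` for a finite family. -/
theorem rtk6ewm_hpts_inr (hπ : Irreducible π) {t : F} (ht' : Transcendental E t⁻¹)
    [FiniteDimensional E⟮t⁻¹⟯ F] [Finite κ]
    [IsNoetherianRing ↥(zchClosure (A₀ := A₀) ({t⁻¹} : Set F))]
    (V : κ → ValuationSubring F) (hinj : Function.Injective V)
    (hBV : ∀ c (b : F), IsIntegral ↥(Algebra.adjoin A₀ {t⁻¹}) b → b ∈ V c)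
    (hπV : ∀ c, algebraMap A₀ F π ∈ (V c).nonunits)
    (hSS1 : ∀ b : F, IsIntegral ↥(Algebra.adjoin A₀ {t⁻¹}) b → (∀ c, b ∈ (V c).nonunits) →
      ∃ b' : F, IsIntegral ↥(Algebra.adjoin A₀ {t⁻¹}) b' ∧ b = algebraMap A₀ F π * b')
    (harch : ∀ c (a x : F), a ∈ (V c).nonunits → ∃ N : ℕ, a ^ N * x ∈ (V c).nonunits)
    (hVloc : ∀ c (x : F), x ∈ V c → ∃ b s : F, IsIntegral ↥(Algebra.adjoin A₀ {t⁻¹}) b ∧
      IsIntegral ↥(Algebra.adjoin A₀ {t⁻¹}) s ∧ s ∉ (V c).nonunits ∧ s * x = b)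
    (g : SemilinearAut E F) (hgu : g • t⁻¹ = t⁻¹)
    (hgV : ∀ c (f : F), f ≠ 0 → (V c).valuation (g • f / f) = 1)
    (hgA : ∀ α : A₀, ∃ α' : A₀, g • algebraMap A₀ F α = algebraMap A₀ F α')
    (hgA' : ∀ α : A₀, ∃ α' : A₀, g⁻¹ • algebraMap A₀ F α = algebraMap A₀ F α')
    (Φ : SemilinearAut E F) (hΦu : Φ • t⁻¹ = t⁻¹)
    (hΦV : ∀ c (f : F), f ≠ 0 → (V c).valuation (Φ • f / f) = 1)
    (hΦA : ∀ α : A₀, ∃ α' : A₀, Φ • algebraMap A₀ F α = algebraMap A₀ F α')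
    (hΦA' : ∀ α : A₀, ∃ α' : A₀, Φ⁻¹ • algebraMap A₀ F α = algebraMap A₀ F α')
    (q : A₀) (hq0 : q ≠ 0) (hqπ : π ∣ q)
    {R : Type*} [CommRing R] (j : R →+* ↥(zchClosure (A₀ := A₀) ({t⁻¹} : Set F))) (p : R)
    (hram : MgcRamified j (algebraMap A₀ ↥(zchClosure (A₀ := A₀) ({t⁻¹} : Set F)) π) p)
    (hjp : j p = algebraMap A₀ ↥(zchClosure (A₀ := A₀) ({t⁻¹} : Set F)) q)
    (𝔫 : AtPt (F := F) π t⁻¹)
    (hnode : Rtk6ewmNodeAt V 𝔫 j p)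
    (Q : ℕ)
    (hfix : ∀ c₁ c₂ : κ, c₁ ≠ c₂ → atThrough 𝔫 (V c₁) → atThrough 𝔫 (V c₂) → Rtk6ewFix g 𝔫)
    (Φ' : F →+* F) (hΦ' : ∀ x : F, Φ' x = Φ • x)
    (hcong : ∀ c₁ c₂ : κ, c₁ ≠ c₂ → atThrough 𝔫 (V c₁) → atThrough 𝔫 (V c₂) →
      Rtk6ewCong Φ' Q 𝔫)
    {x : F} (hx : x ≠ 0) (m : ℕ)
    (hfin : {P : Place E F | P.ord x ≠ 0}.Finite)
    (hm : ∀ P : Place E F, (m : ℤ) ∣ P.ord x)
    (hrat : ∀ P : Place E F, P.ord x ≠ 0 → ∀ f ∈ P.toValuationSubring,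
      ∃ c : E, f - algebraMap E F c ∈ P.toValuationSubring.nonunits)
    (tt : κ → F) (htoric : ∀ c, (g • x / x) / tt c ^ m - 1 ∈ (V c).nonunits) :
    (∃ c₁ c₂ : κ, atInc π t V (Sum.inr 𝔫) c₁ ∧ atInc π t V (Sum.inr 𝔫) c₂ ∧
      (∀ c, atInc π t V (Sum.inr 𝔫) c → c = c₁ ∨ c = c₂) ∧
      StbCross (atO π t (Sum.inr 𝔫)) (V c₁) (V c₂) Φ' Q m (g • x / x)) ∨
    (∃ c, atInc π t V (Sum.inr 𝔫) c ∧ (∀ c', atInc π t V (Sum.inr 𝔫) c' → c' = c) ∧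
      ∃ i₁ : AtPt (F := F) π t ⊕ AtPt (F := F) π t⁻¹, atInc π t V i₁ c ∧
        StbSmooth (atO π t (Sum.inr 𝔫)) (atO π t i₁) (V c) Φ' m (g • x / x)) := by
  have hΦeq : Φ' = (SemilinearAut.toRingAut Φ : F ≃+* F).toRingHom := RingHom.ext hΦ'
  subst hΦeq
  have hgB₀ : ∀ b : F, IsIntegral ↥(Algebra.adjoin A₀ {t⁻¹}) b →
      IsIntegral ↥(Algebra.adjoin A₀ {t⁻¹}) (g • b) :=
    fun b hb => stb_mt_isIntegral_smul g hgu hgA hb
  have hgu' : g⁻¹ • t⁻¹ = t⁻¹ := by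
    conv_lhs => rw [← hgu]
    rw [inv_smul_smul]
  have hgB₀' : ∀ b : F, IsIntegral ↥(Algebra.adjoin A₀ {t⁻¹}) b →
      IsIntegral ↥(Algebra.adjoin A₀ {t⁻¹}) (g⁻¹ • b) :=
    fun b hb => stb_mt_isIntegral_smul g⁻¹ hgu' hgA' hb
  have hΦB₀ : ∀ b : F, IsIntegral ↥(Algebra.adjoin A₀ {t⁻¹}) b →
      IsIntegral ↥(Algebra.adjoin A₀ {t⁻¹}) (Φ • b) :=
    fun b hb => stb_mt_isIntegral_smul Φ hΦu hΦA hb
  have hΦu' : Φ⁻¹ • t⁻¹ = t⁻¹ := by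
    conv_lhs => rw [← hΦu]
    rw [inv_smul_smul]
  have hΦB₀' : ∀ b : F, IsIntegral ↥(Algebra.adjoin A₀ {t⁻¹}) b →
      IsIntegral ↥(Algebra.adjoin A₀ {t⁻¹}) (Φ⁻¹ • b) :=
    fun b hb => stb_mt_isIntegral_smul Φ⁻¹ hΦu' hΦA' hb
  rcases hnode with ⟨s, hs, hgen⟩ | ⟨c₁, c₂, X, Y, w, hcr⟩
  · -- smooth point
    right
    have hne' : ∀ c c', c ≠ c' → V c ≠ V c' := fun c c' hcc' h => hcc' (hinj h)
    have hyfin : ∀ 𝔫' : AtPt (F := F) π t⁻¹, {P : Place E F |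
        LsTube ↥(zchClosure (A₀ := A₀) ({t⁻¹} : Set F)) t⁻¹ 𝔫'.1 P ∧
          P.ord (g • x / x) ≠ 0}.Finite := by
      intro 𝔫'
      have h2 : {P : Place E F | (g⁻¹ • P).ord x ≠ 0}.Finite := by
        have := hfin.image (fun P : Place E F => g • P)
        refine this.subset ?_
        intro P hP
        exact ⟨g⁻¹ • P, hP, smul_inv_smul g P⟩
      refine (hfin.union h2).subset ?_
      rintro P ⟨-, hP⟩
      rw [stb_mt_ord_div g P hx] at hP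
      by_contra hcon
      rw [Set.mem_union, not_or] at hcon
      have h3 : P.ord x = 0 := not_not.mp hcon.1
      have h4 : (g⁻¹ • P).ord x = 0 := not_not.mp hcon.2
      exact hP (by rw [h3, h4, sub_zero])
    have hym : ∀ 𝔫' : AtPt (F := F) π t⁻¹, ∀ P : Place E F,
        LsTube ↥(zchClosure (A₀ := A₀) ({t⁻¹} : Set F)) t⁻¹ 𝔫'.1 P →
          (m : ℤ) ∣ P.ord (g • x / x) := by
      intro 𝔫' P _
      rw [stb_mt_ord_div g P hx]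
      exact dvd_sub (hm _) (hm _)
    have hyrat : ∀ 𝔫' : AtPt (F := F) π t⁻¹, ∀ P : Place E F,
        LsTube ↥(zchClosure (A₀ := A₀) ({t⁻¹} : Set F)) t⁻¹ 𝔫'.1 P → P.ord (g • x / x) ≠ 0 →
        ∀ f ∈ P.toValuationSubring,
          ∃ c : E, f - algebraMap E F c ∈ P.toValuationSubring.nonunits := by
      intro 𝔫' P _ hP
      by_cases h3 : P.ord x = 0
      · have h4 : (g⁻¹ • P).ord x ≠ 0 := by
          intro h4
          rw [stb_mt_ord_div g P hx, h3, h4, sub_zero] at hP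
          exact hP rfl
        have := stb_mt_rat_smul g (g⁻¹ • P) (hrat _ h4)
        rwa [smul_inv_smul] at this
      · exact hrat P h3
    exact stb_sx_hpts_inr hπ ht' V hBV hπV hSS1 hVloc hne' harch (SemilinearAut.toRingAut Φ)
      hΦB₀ hΦB₀'
      (stb_st_map_pi E hπ (SemilinearAut.toRingAut Φ) hΦA hΦA')
      (stb_st_map_pi E hπ (SemilinearAut.toRingAut Φ).symm hΦA' hΦA)
      (fun c x hx' => stb_mt_map_nonunits Φ (V c) (hΦV c) hx')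
      (fun c x hx' => stb_mt_map_nonunits Φ⁻¹ (V c) (stb_mt_inv_valuation Φ (V c) (hΦV c)) hx')
      𝔫 (j s) hs (hram.mgg_locGen_pair 𝔫.2.2 s hgen) m tt htoric hyfin hym hyrat
  · -- crossing point
    left
    obtain ⟨hT₁, hT₂⟩ := hcr.through V hBV hπV hram
    have hcc := rtk6ewm_cross_ne (E := E) hπ V hinj hBV hπV hSS1 harch hVloc 𝔫 q hq0 j p hram
      hjp hcr
    obtain ⟨hgB, hgB'⟩ := hfix c₁ c₂ hcc hT₁ hT₂
    exact ⟨c₁, c₂, rtk6ewm_cp_cross hπ ht' V hinj hBV hπV hSS1 harch hVloc g hgu 𝔫 hgB hgB'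
      hgB₀ hgB₀' hgV hgA q hq0 hqπ (rtk6ew_smul_dvd g hgA hgA' q) j p hram hjp hcr
      (SemilinearAut.toRingAut Φ : F ≃+* F).toRingHom Q (hcong c₁ c₂ hcc hT₁ hT₂) hx m
      (hfin.subset fun P hP => hP.2.2) (fun P _ _ => hm P) (fun P _ _ hP => hrat P hP)⟩

/-- **The hypothesis `hpts` of `rtk6ewm_main_points`** (all closed points of both charts) for
`y = g • x / x` and the map `Φ`.  Fork of `rtk6ew_hpts` for a finite family. -/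
theorem rtk6ewm_hpts (hπ : Irreducible π) {t : F} (ht : Transcendental E t)
    [FiniteDimensional E⟮t⟯ F] [Finite κ]
    [IsNoetherianRing ↥(zchClosure (A₀ := A₀) ({t} : Set F))]
    [IsNoetherianRing ↥(zchClosure (A₀ := A₀) ({t⁻¹} : Set F))]
    (V : κ → ValuationSubring F) (hinj : Function.Injective V)
    (hBV₁ : ∀ c (b : F), IsIntegral ↥(Algebra.adjoin A₀ {t}) b → b ∈ V c)
    (hBV₂ : ∀ c (b : F), IsIntegral ↥(Algebra.adjoin A₀ {t⁻¹}) b → b ∈ V c)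
    (hπV : ∀ c, algebraMap A₀ F π ∈ (V c).nonunits)
    (hSS1 : ∀ b : F, IsIntegral ↥(Algebra.adjoin A₀ {t}) b → (∀ c, b ∈ (V c).nonunits) →
      ∃ b' : F, IsIntegral ↥(Algebra.adjoin A₀ {t}) b' ∧ b = algebraMap A₀ F π * b')
    (harch : ∀ c (a x : F), a ∈ (V c).nonunits → ∃ N : ℕ, a ^ N * x ∈ (V c).nonunits)
    (hVloc₁ : ∀ c (x : F), x ∈ V c → ∃ b s : F, IsIntegral ↥(Algebra.adjoin A₀ {t}) b ∧
      IsIntegral ↥(Algebra.adjoin A₀ {t}) s ∧ s ∉ (V c).nonunits ∧ s * x = b)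
    (hVloc₂ : ∀ c (x : F), x ∈ V c → ∃ b s : F, IsIntegral ↥(Algebra.adjoin A₀ {t⁻¹}) b ∧
      IsIntegral ↥(Algebra.adjoin A₀ {t⁻¹}) s ∧ s ∉ (V c).nonunits ∧ s * x = b)
    (g : SemilinearAut E F) (hgt : g • t = t)
    (hgV : ∀ c (f : F), f ≠ 0 → (V c).valuation (g • f / f) = 1)
    (hgA : ∀ α : A₀, ∃ α' : A₀, g • algebraMap A₀ F α = algebraMap A₀ F α')
    (hgA' : ∀ α : A₀, ∃ α' : A₀, g⁻¹ • algebraMap A₀ F α = algebraMap A₀ F α')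
    (Φ : SemilinearAut E F) (hΦt : Φ • t = t)
    (hΦV : ∀ c (f : F), f ≠ 0 → (V c).valuation (Φ • f / f) = 1)
    (hΦA : ∀ α : A₀, ∃ α' : A₀, Φ • algebraMap A₀ F α = algebraMap A₀ F α')
    (hΦA' : ∀ α : A₀, ∃ α' : A₀, Φ⁻¹ • algebraMap A₀ F α = algebraMap A₀ F α')
    (q : A₀) (hq0 : q ≠ 0) (hqπ : π ∣ q)
    {R₁ : Type*} [CommRing R₁] (j₁ : R₁ →+* ↥(zchClosure (A₀ := A₀) ({t} : Set F))) (p₁ : R₁)
    (hram₁ : MgcRamified j₁ (algebraMap A₀ ↥(zchClosure (A₀ := A₀) ({t} : Set F)) π) p₁)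
    (hjp₁ : j₁ p₁ = algebraMap A₀ ↥(zchClosure (A₀ := A₀) ({t} : Set F)) q)
    {R₂ : Type*} [CommRing R₂] (j₂ : R₂ →+* ↥(zchClosure (A₀ := A₀) ({t⁻¹} : Set F))) (p₂ : R₂)
    (hram₂ : MgcRamified j₂ (algebraMap A₀ ↥(zchClosure (A₀ := A₀) ({t⁻¹} : Set F)) π) p₂)
    (hjp₂ : j₂ p₂ = algebraMap A₀ ↥(zchClosure (A₀ := A₀) ({t⁻¹} : Set F)) q)
    (hnode₁ : ∀ 𝔫 : AtPt (F := F) π t, Rtk6ewmNodeAt V 𝔫 j₁ p₁)
    (hnode₂ : ∀ 𝔫 : AtPt (F := F) π t⁻¹, Rtk6ewmNodeAt V 𝔫 j₂ p₂)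
    (Q : ℕ)
    (hfix₁ : ∀ (𝔫 : AtPt (F := F) π t) (c₁ c₂ : κ), c₁ ≠ c₂ → atThrough 𝔫 (V c₁) →
      atThrough 𝔫 (V c₂) → Rtk6ewFix g 𝔫)
    (hfix₂ : ∀ (𝔫 : AtPt (F := F) π t⁻¹) (c₁ c₂ : κ), c₁ ≠ c₂ → atThrough 𝔫 (V c₁) →
      atThrough 𝔫 (V c₂) → Rtk6ewFix g 𝔫)
    (Φ' : F →+* F) (hΦ' : ∀ x : F, Φ' x = Φ • x)
    (hcong₁ : ∀ (𝔫 : AtPt (F := F) π t) (c₁ c₂ : κ), c₁ ≠ c₂ → atThrough 𝔫 (V c₁) →
      atThrough 𝔫 (V c₂) → Rtk6ewCong Φ' Q 𝔫)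
    (hcong₂ : ∀ (𝔫 : AtPt (F := F) π t⁻¹) (c₁ c₂ : κ), c₁ ≠ c₂ → atThrough 𝔫 (V c₁) →
      atThrough 𝔫 (V c₂) → Rtk6ewCong Φ' Q 𝔫)
    {x : F} (hx : x ≠ 0) (m : ℕ)
    (hfin : {P : Place E F | P.ord x ≠ 0}.Finite)
    (hm : ∀ P : Place E F, (m : ℤ) ∣ P.ord x)
    (hrat : ∀ P : Place E F, P.ord x ≠ 0 → ∀ f ∈ P.toValuationSubring,
      ∃ c : E, f - algebraMap E F c ∈ P.toValuationSubring.nonunits)
    (tt : κ → F) (htoric : ∀ c, (g • x / x) / tt c ^ m - 1 ∈ (V c).nonunits) :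
    ∀ i : AtPt (F := F) π t ⊕ AtPt (F := F) π t⁻¹,
      (∃ c₁ c₂ : κ, atInc π t V i c₁ ∧ atInc π t V i c₂ ∧
        (∀ c, atInc π t V i c → c = c₁ ∨ c = c₂) ∧
        StbCross (atO π t i) (V c₁) (V c₂) Φ' Q m (g • x / x)) ∨
      (∃ c, atInc π t V i c ∧ (∀ c', atInc π t V i c' → c' = c) ∧
        ∃ i₁ : AtPt (F := F) π t ⊕ AtPt (F := F) π t⁻¹, atInc π t V i₁ c ∧
          StbSmooth (atO π t i) (atO π t i₁) (V c) Φ' m (g • x / x)) := by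
  haveI : FiniteDimensional E⟮t⁻¹⟯ F := at_finiteDimensional_inv t
  have ht' : Transcendental E t⁻¹ := zch_transcendental_inv ht
  rintro (𝔫 | 𝔫)
  · exact rtk6ewm_hpts_inl hπ ht V hinj hBV₁ hπV hSS1 harch hVloc₁ g hgt hgV hgA hgA'
      Φ hΦt hΦV hΦA hΦA' q hq0 hqπ j₁ p₁ hram₁ hjp₁ 𝔫 (hnode₁ 𝔫) Q (hfix₁ 𝔫) Φ' hΦ' (hcong₁ 𝔫)
      hx m hfin hm hrat tt htoric
  · exact rtk6ewm_hpts_inr hπ ht' V hinj hBV₂ hπV (ats_SS1_inv ht hπ V hBV₁ hSS1) harch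
      hVloc₂ g (at_smul_inv hgt) hgV hgA hgA' Φ (at_smul_inv hΦt) hΦV hΦA hΦA' q hq0 hqπ
      j₂ p₂ hram₂ hjp₂ 𝔫 (hnode₂ 𝔫) Q (hfix₂ 𝔫) Φ' hΦ' (hcong₂ 𝔫) hx m hfin hm hrat tt htoric

/-- **(T″) for a FINITE FAMILY of components with TWO automorphisms** — (M6) of
`NOTES/RT-K6-D.md` v5, the twin of `rtk6ew_main_two` without `κ = {c₁, c₂}`.
`V : κ → ValuationSubring F` an injective finite family of vertical valuation rings with (SS1),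
`hBV`, `hVloc`, `harch`; `g`, `Φ` semilinear automorphisms fixing `t`, preserving `A₀` (with their
inverses) and EVERY `V c`; every closed point of the two charts is smooth or a thin crossing point
of two components of the family (`Rtk6ewmNodeAt`); at every point where two distinct components
pass, `g 𝔫 = 𝔫` and `Φ b ≡ b ^ Q` mod `𝔫`; `p ^ r ∣ div x`, rational support, `y = g • x / x`
toric at every `V c`.  Then `Φ y / y ^ Q` is a `p ^ r`-th power. -/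
theorem rtk6ew_main_multi (hπ : Irreducible π) {t : F} (ht : Transcendental E t)
    (hcl : ∀ x : F, IsAlgebraic E x → x ∈ (algebraMap E F).range)
    {p : ℕ} (hp : p.Prime) (hpu : IsUnit (p : A₀)) {ζ : A₀} (hζ : IsPrimitiveRoot ζ p)
    (hunit : ∀ a : A₀, IsUnit a → ∃ d : A₀, d ^ p = a)
    [FiniteDimensional E⟮t⟯ F] [Finite κ]
    [IsNoetherianRing ↥(zchClosure (A₀ := A₀) ({t} : Set F))]
    [IsNoetherianRing ↥(zchClosure (A₀ := A₀) ({t⁻¹} : Set F))]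
    (V : κ → ValuationSubring F) (hinj : Function.Injective V)
    (hBV₁ : ∀ c (b : F), IsIntegral ↥(Algebra.adjoin A₀ {t}) b → b ∈ V c)
    (hBV₂ : ∀ c (b : F), IsIntegral ↥(Algebra.adjoin A₀ {t⁻¹}) b → b ∈ V c)
    (hπV : ∀ c, algebraMap A₀ F π ∈ (V c).nonunits)
    (hSS1 : ∀ b : F, IsIntegral ↥(Algebra.adjoin A₀ {t}) b → (∀ c, b ∈ (V c).nonunits) →
      ∃ b' : F, IsIntegral ↥(Algebra.adjoin A₀ {t}) b' ∧ b = algebraMap A₀ F π * b')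
    (harch : ∀ c (a x : F), a ∈ (V c).nonunits → ∃ N : ℕ, a ^ N * x ∈ (V c).nonunits)
    (hVloc₁ : ∀ c (x : F), x ∈ V c → ∃ b s : F, IsIntegral ↥(Algebra.adjoin A₀ {t}) b ∧
      IsIntegral ↥(Algebra.adjoin A₀ {t}) s ∧ s ∉ (V c).nonunits ∧ s * x = b)
    (hVloc₂ : ∀ c (x : F), x ∈ V c → ∃ b s : F, IsIntegral ↥(Algebra.adjoin A₀ {t⁻¹}) b ∧
      IsIntegral ↥(Algebra.adjoin A₀ {t⁻¹}) s ∧ s ∉ (V c).nonunits ∧ s * x = b)
    (g : SemilinearAut E F) (hgt : g • t = t)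
    (hgV : ∀ c (f : F), f ≠ 0 → (V c).valuation (g • f / f) = 1)
    (hgA : ∀ α : A₀, ∃ α' : A₀, g • algebraMap A₀ F α = algebraMap A₀ F α')
    (hgA' : ∀ α : A₀, ∃ α' : A₀, g⁻¹ • algebraMap A₀ F α = algebraMap A₀ F α')
    (Φ : SemilinearAut E F) (hΦt : Φ • t = t)
    (hΦV : ∀ c (f : F), f ≠ 0 → (V c).valuation (Φ • f / f) = 1)
    (hΦA : ∀ α : A₀, ∃ α' : A₀, Φ • algebraMap A₀ F α = algebraMap A₀ F α')
    (hΦA' : ∀ α : A₀, ∃ α' : A₀, Φ⁻¹ • algebraMap A₀ F α = algebraMap A₀ F α')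
    (q : A₀) (hq0 : q ≠ 0) (hqπ : π ∣ q)
    {R₁ : Type*} [CommRing R₁] (j₁ : R₁ →+* ↥(zchClosure (A₀ := A₀) ({t} : Set F))) (p₁ : R₁)
    (hram₁ : MgcRamified j₁ (algebraMap A₀ ↥(zchClosure (A₀ := A₀) ({t} : Set F)) π) p₁)
    (hjp₁ : j₁ p₁ = algebraMap A₀ ↥(zchClosure (A₀ := A₀) ({t} : Set F)) q)
    {R₂ : Type*} [CommRing R₂] (j₂ : R₂ →+* ↥(zchClosure (A₀ := A₀) ({t⁻¹} : Set F))) (p₂ : R₂)
    (hram₂ : MgcRamified j₂ (algebraMap A₀ ↥(zchClosure (A₀ := A₀) ({t⁻¹} : Set F)) π) p₂)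
    (hjp₂ : j₂ p₂ = algebraMap A₀ ↥(zchClosure (A₀ := A₀) ({t⁻¹} : Set F)) q)
    (hnode₁ : ∀ 𝔫 : AtPt (F := F) π t, Rtk6ewmNodeAt V 𝔫 j₁ p₁)
    (hnode₂ : ∀ 𝔫 : AtPt (F := F) π t⁻¹, Rtk6ewmNodeAt V 𝔫 j₂ p₂)
    (Q : ℕ)
    (hfix₁ : ∀ (𝔫 : AtPt (F := F) π t) (c₁ c₂ : κ), c₁ ≠ c₂ → atThrough 𝔫 (V c₁) →
      atThrough 𝔫 (V c₂) → Rtk6ewFix g 𝔫)
    (hfix₂ : ∀ (𝔫 : AtPt (F := F) π t⁻¹) (c₁ c₂ : κ), c₁ ≠ c₂ → atThrough 𝔫 (V c₁) →
      atThrough 𝔫 (V c₂) → Rtk6ewFix g 𝔫)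
    (Φ' : F →+* F) (hΦ' : ∀ x : F, Φ' x = Φ • x)
    (hcong₁ : ∀ (𝔫 : AtPt (F := F) π t) (c₁ c₂ : κ), c₁ ≠ c₂ → atThrough 𝔫 (V c₁) →
      atThrough 𝔫 (V c₂) → Rtk6ewCong Φ' Q 𝔫)
    (hcong₂ : ∀ (𝔫 : AtPt (F := F) π t⁻¹) (c₁ c₂ : κ), c₁ ≠ c₂ → atThrough 𝔫 (V c₁) →
      atThrough 𝔫 (V c₂) → Rtk6ewCong Φ' Q 𝔫)
    {x : F} (hx : x ≠ 0) (r : ℕ)
    (hfin : {P : Place E F | P.ord x ≠ 0}.Finite)
    (hm : ∀ P : Place E F, ((p ^ r : ℕ) : ℤ) ∣ P.ord x)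
    (hrat : ∀ P : Place E F, P.ord x ≠ 0 → ∀ f ∈ P.toValuationSubring,
      ∃ c : E, f - algebraMap E F c ∈ P.toValuationSubring.nonunits)
    (tt : κ → F) (htoric : ∀ c, (g • x / x) / tt c ^ (p ^ r) - 1 ∈ (V c).nonunits) :
    ∃ h : F, h ^ (p ^ r) = Φ' (g • x / x) / (g • x / x) ^ Q :=
  rtk6ewm_main_points hπ ht hcl hp hpu hζ hunit V hinj hBV₁ hBV₂ hπV hSS1 harch hVloc₁ Φ'
    (fun c y hy => by
      rw [hΦ']
      exact stb_mt_map_nonunits Φ (V c) (hΦV c) hy) Q r tt htoric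
    (rtk6ewm_hpts hπ ht V hinj hBV₁ hBV₂ hπV hSS1 harch hVloc₁ hVloc₂ g hgt hgV hgA hgA'
      Φ hΦt hΦV hΦA hΦA' q hq0 hqπ j₁ p₁ hram₁ hjp₁ j₂ p₂ hram₂ hjp₂ hnode₁ hnode₂ Q
      hfix₁ hfix₂ Φ' hΦ' hcong₁ hcong₂ hx (p ^ r) hfin hm hrat tt htoric)

/-- **`rtk6ew_main_two` is the case `κ = {c₁, c₂}` of `rtk6ew_main_multi`** (sanity check of the
shape of the hypotheses): the thin dichotomy for the pair `(V c₁, V c₂)` gives `Rtk6ewmNodeAt`. -/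
theorem rtk6ewm_nodeAt_of_pair (V : κ → ValuationSubring F) (c₁ c₂ : κ) {u : F}
    (𝔫 : AtPt (F := F) π u)
    {R : Type*} [CommRing R] (j : R →+* ↥(zchClosure (A₀ := A₀) ({u} : Set F))) (p : R)
    (h : (∃ s : R, j s ∈ 𝔫.1 ∧ NodesLocGen (𝔫.1.comap j) {p, s}) ∨
      ∃ X Y w : R, Rtk6ewmCrossAt (V c₁) (V c₂) 𝔫 j p X Y w) :
    Rtk6ewmNodeAt V 𝔫 j p := by
  rcases h with h | ⟨X, Y, w, h⟩
  · exact Or.inl h
  · exact Or.inr ⟨c₁, c₂, X, Y, w, h⟩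

end EWMulti

end Fermat.Agent.RT.K6


end ZBRT_031_2
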