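/- GENERATED FILE (helper35, build-time optimisation, NOTES/ZB.md): verbatim concatenation of the modules
   Fermat.Agent.RT.K6.DILocAbs
   Fermat.Agent.RT.K6.DILoc
   Fermat.Agent.RT.K6.DIVertMg
   Fermat.Agent.RT.K6.DIVertGal
   Fermat.Agent.RT.K6.EMain
   Fermat.Agent.RT.K6.EMainPP
   Fermat.Agent.RT.K6.DIFam
   Fermat.Agent.RT.K6.DIFamMg
   Fermat.Agent.RT.K6.DIFamComm
   Fermat.Agent.RT.K6.M4Inst
   Fermat.Agent.RT.K6.M4EMain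
   Fermat.Agent.RT.K6.M5Inst
   Fermat.Agent.RT.K6.M5Em
   Fermat.Agent.RT.K6.EInst
   Fermat.Agent.RT.K6.EInstRig
   Do not edit; do not import together with these modules. -/
import Mathlib
import Fermat.Agent.ZB.INJ_031
import Fermat.Agent.ZB.UNIP_007
import Fermat.Agent.ZB.UNIP_038
import Fermat.Agent.ZB.RT_031
import Fermat.Agent.ZB.ES1_010
import Fermat.Agent.ZB.ES1_012
import Fermat.Agent.ZB.ES1_001
import Fermat.Agent.ZB.UNIP_006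
import Fermat.Agent.ZB.ES1_009
import Fermat.Agent.ZB.UNIP_036
import Fermat.Agent.ZB.ES1_013

/-! ### bundled: `Fermat.Agent.RT.K6.DILocAbs` -/
section ZBRT_032_0
/-
K-machine, piece K6 / D-I (helper82), part 2a: a vertical valuation ring is the localisation of
the chart at its centre — ABSTRACT form (Mathlib only).

`B` a noetherian integrally closed domain with fraction field `F`, `V ⊇ B` a valuation subring
of `F`, `𝔓 = 𝔪(V) ∩ B` its centre.  If `𝔓 ≠ 0` and `𝔓` has height one (every nonzero prime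
`𝔔 ≤ 𝔓` is `𝔓`), then `B_𝔓` is a discrete valuation ring, hence `V = B_𝔓`:

* `rtk6dl_loc_of_height_one` : every `x ∈ V` is `b / s` with `b, s ∈ B`, `s ∉ 𝔪(V)`.

No hypothesis on the other components, no (SS1), no separating elements.
-/

set_option autoImplicit false
set_option linter.style.haveILetI false
set_option linter.deprecated false

namespace Fermat.Agent.RT.K6

open IsLocalRing

section Abs

variable {B F : Type*} [CommRing B] [IsDomain B] [IsNoetherianRing B] [IsIntegrallyClosed B]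
  [Field F] [Algebra B F] [IsFractionRing B F]

/-- **`V = B_𝔓`** for a valuation ring `V ⊇ B` whose centre `𝔓` on the noetherian normal domain
`B` is nonzero of height one. -/
theorem rtk6dl_loc_of_height_one (V : ValuationSubring F) (hBV : ∀ b : B, algebraMap B F b ∈ V)
    (𝔓 : Ideal B) [h𝔓p : 𝔓.IsPrime] (h𝔓 : ∀ b, b ∈ 𝔓 ↔ algebraMap B F b ∈ V.nonunits)
    (hne : 𝔓 ≠ ⊥)
    (hht : ∀ 𝔔 : Ideal B, 𝔔.IsPrime → 𝔔 ≠ ⊥ → 𝔔 ≤ 𝔓 → 𝔔 = 𝔓) :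
    ∀ x ∈ V, ∃ b s : B, algebraMap B F s ∉ V.nonunits ∧ algebraMap B F s * x = algebraMap B F b := by
  intro x hx
  by_cases hx0 : x = 0
  · refine ⟨0, 1, ?_, by rw [hx0, mul_zero, map_zero]⟩
    rw [map_one, ValuationSubring.mem_nonunits_iff, map_one]
    exact lt_irrefl _
  have hinj : Function.Injective (algebraMap B F) := IsFractionRing.injective B F
  have hunitS : ∀ s : 𝔓.primeCompl, IsUnit (algebraMap B F (s : B)) := by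
    intro s
    refine IsUnit.mk0 _ ?_
    intro h0
    have : (s : B) = 0 := hinj (by rw [h0, map_zero])
    exact s.2 (this ▸ 𝔓.zero_mem)
  -- the valuation of an element of the prime complement is `1`
  have hvalS : ∀ s : B, s ∉ 𝔓 → V.valuation (algebraMap B F s) = 1 := by
    intro s hs
    have h1 : V.valuation (algebraMap B F s) ≤ 1 := (V.valuation_le_one_iff _).mpr (hBV s)
    have h2 : ¬ V.valuation (algebraMap B F s) < 1 := fun h =>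
      hs ((h𝔓 s).mpr ((ValuationSubring.mem_nonunits_iff (A := V)).mpr h))
    exact le_antisymm h1 (not_lt.mp h2)
  let O := Localization.AtPrime 𝔓
  letI algOF : Algebra O F := (IsLocalization.lift (M := 𝔓.primeCompl) (S := O)
    (g := algebraMap B F) hunitS).toAlgebra
  have halg : ∀ o : O, algebraMap O F o =
      IsLocalization.lift (M := 𝔓.primeCompl) (S := O) (g := algebraMap B F) hunitS o :=
    fun _ => rfl
  haveI : IsScalarTower B O F := IsScalarTower.of_algebraMap_eq (fun b => by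
    rw [halg, IsLocalization.lift_eq])
  haveI : IsFractionRing O F :=
    IsFractionRing.isFractionRing_of_isDomain_of_isLocalization 𝔓.primeCompl O F
  haveI : IsNoetherianRing O := IsLocalization.isNoetherianRing 𝔓.primeCompl O inferInstance
  haveI : IsDomain O := IsLocalization.isDomain_localization 𝔓.primeCompl_le_nonZeroDivisors
  haveI : IsIntegrallyClosed O :=
    isIntegrallyClosed_of_isLocalization O 𝔓.primeCompl 𝔓.primeCompl_le_nonZeroDivisors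
  have hmax : Ideal.map (algebraMap B O) 𝔓 = maximalIdeal O :=
    IsLocalization.AtPrime.map_eq_maximalIdeal 𝔓 O
  have hinjO : Function.Injective (algebraMap B O) :=
    IsLocalization.injective O 𝔓.primeCompl_le_nonZeroDivisors
  have hmaxne : maximalIdeal O ≠ ⊥ := by
    intro h0
    apply hne
    rw [eq_bot_iff]
    intro b hb
    have h1 : algebraMap B O b ∈ maximalIdeal O := by
      rw [← hmax]; exact Ideal.mem_map_of_mem _ hb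
    rw [h0, Ideal.mem_bot] at h1
    rw [Ideal.mem_bot]
    exact hinjO (by rw [h1, map_zero])
  have hfield : ¬ IsField O := fun hF =>
    hmaxne (IsLocalRing.isField_iff_maximalIdeal_eq.mp hF)
  have huniq : ∃! P : Ideal O, P ≠ ⊥ ∧ P.IsPrime := by
    refine ⟨maximalIdeal O, ⟨hmaxne, inferInstance⟩, ?_⟩
    rintro P ⟨hP0, hPp⟩
    have hPle : P ≤ maximalIdeal O := IsLocalRing.le_maximalIdeal hPp.ne_top
    have hcP : (Ideal.comap (algebraMap B O) P).IsPrime := Ideal.comap_isPrime _ _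
    have hmc : Ideal.map (algebraMap B O) (Ideal.comap (algebraMap B O) P) = P :=
      IsLocalization.map_comap 𝔓.primeCompl O P
    have hcne : Ideal.comap (algebraMap B O) P ≠ ⊥ := by
      intro h0
      apply hP0
      rw [← hmc, h0, Ideal.map_bot]
    have hcle : Ideal.comap (algebraMap B O) P ≤ 𝔓 := by
      have h1 : Ideal.comap (algebraMap B O) P ≤ Ideal.comap (algebraMap B O) (maximalIdeal O) :=
        Ideal.comap_mono hPle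
      have h2 : Ideal.comap (algebraMap B O) (maximalIdeal O) = 𝔓 :=
        IsLocalization.AtPrime.comap_maximalIdeal O 𝔓
      rwa [h2] at h1
    rw [← hmc, hht _ hcP hcne hcle, hmax]
  have h31 : (IsIntegrallyClosed O ∧ ∃! P : Ideal O, P ≠ ⊥ ∧ P.IsPrime) ↔ ValuationRing O :=
    (IsDiscreteValuationRing.TFAE O hfield).out 3 1
  haveI hval : ValuationRing O := h31.mp ⟨inferInstance, huniq⟩
  -- the image of an element of `O`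
  have himg : ∀ o : O, ∃ b s : B, s ∉ 𝔓 ∧ (o ∈ maximalIdeal O ↔ b ∈ 𝔓) ∧
      algebraMap B F s * algebraMap O F o = algebraMap B F b := by
    intro o
    obtain ⟨⟨b, s⟩, rfl⟩ := IsLocalization.mk'_surjective 𝔓.primeCompl o
    refine ⟨b, s, s.2, IsLocalization.AtPrime.mk'_mem_maximal_iff O 𝔓 b s, ?_⟩
    rw [IsScalarTower.algebraMap_apply B O F (s : B), ← map_mul, mul_comm,
      IsLocalization.mk'_spec, ← IsScalarTower.algebraMap_apply]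
  rcases ValuationRing.isInteger_or_isInteger O x with ⟨o, ho⟩ | ⟨o, ho⟩
  · obtain ⟨b, s, hs, -, hbs⟩ := himg o
    refine ⟨b, s, ?_, by rw [← ho]; exact hbs⟩
    rw [ValuationSubring.mem_nonunits_iff, hvalS s hs]
    exact lt_irrefl _
  · -- `x⁻¹ ∈ O`: it is a unit of `O`, since `x ∈ V`
    obtain ⟨b, s, hs, hmem, hbs⟩ := himg o
    have hb : b ∉ 𝔓 := by
      intro hb
      have h1 : V.valuation (algebraMap B F b) < 1 :=
        (ValuationSubring.mem_nonunits_iff (A := V)).mp ((h𝔓 b).mp hb)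
      have h2 : V.valuation x ≤ 1 := (V.valuation_le_one_iff x).mpr hx
      have h3 : algebraMap B F s = algebraMap B F b * x := by
        have ho' : algebraMap O F o = x⁻¹ := ho
        rw [ho'] at hbs
        rw [← hbs]
        field_simp
      have h4 : V.valuation (algebraMap B F s) < 1 := by
        rw [h3, map_mul]
        calc V.valuation (algebraMap B F b) * V.valuation x
            ≤ V.valuation (algebraMap B F b) * 1 := by gcongr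
          _ = V.valuation (algebraMap B F b) := mul_one _
          _ < 1 := h1
      rw [hvalS s hs] at h4
      exact lt_irrefl _ h4
    refine ⟨s, b, ?_, ?_⟩
    · rw [ValuationSubring.mem_nonunits_iff, hvalS b hb]
      exact lt_irrefl _
    · have ho' : algebraMap O F o = x⁻¹ := ho
      rw [ho'] at hbs
      rw [← hbs]
      field_simp

end Abs

end Fermat.Agent.RT.K6


end ZBRT_032_0

/-! ### bundled: `Fermat.Agent.RT.K6.DILoc` -/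
section ZBRT_032_1
/-
K-machine, piece K6 / D-I (helper82), part 2b: `hVloc` for ONE vertical valuation ring of a
chart, without (SS1) and without separating elements.

Chart setting of UNIP / STB / E-W: `A₀` a DVR with uniformizer `π`, `E = Frac A₀` (char 0),
`F / E(u)` finite, `u` transcendental, `B_u` = the integral closure of `A₀[u]` in `F`.
`V ⊇ B_u` a valuation subring of `F` with `π ∈ 𝔪(V)` in which the polynomials in `u` prime to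
`π` are units (`hprim`: the centre of `V` on `A₀[u]` is `π A₀[u]`).  Then the centre `𝔓` of `V`
on `B_u` has height one (incomparability), `(B_u)_𝔓` is a DVR and

* `rtk6dl_hVloc` : every `x ∈ V` is `b / s` with `b, s ∈ B_u`, `s ∉ 𝔪(V)`
  (the hypotheses `hVloc₁`, `hVloc₂` of `rtk6ew_main_two`, for ONE component at a time: usable
  for any finite family of components).
-/

set_option autoImplicit false
set_option linter.style.haveILetI false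
set_option linter.unusedSectionVars false
set_option linter.unusedVariables false

namespace Fermat.Agent.RT.K6

open Polynomial IntermediateField Fermat.Agent.INJ Fermat.Agent.UNIP IsLocalRing

section Chart

universe u

variable {A₀ E F : Type u} [CommRing A₀] [IsDomain A₀] [IsDiscreteValuationRing A₀]
  [Field E] [Algebra A₀ E] [IsFractionRing A₀ E] [CharZero E]
  [Field F] [Algebra E F] [Algebra A₀ F] [IsScalarTower A₀ E F]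
  {π : A₀} {u : F}

/-- **hVloc for one vertical valuation ring**: `V` is the localisation of the chart `B_u` at
its centre. -/
theorem rtk6dl_hVloc (hu : Transcendental E u) (hπ : Irreducible π) [FiniteDimensional E⟮u⟯ F]
    (V : ValuationSubring F)
    (hBV : ∀ b : F, IsIntegral ↥(Algebra.adjoin A₀ {u}) b → b ∈ V)
    (hπV : algebraMap A₀ F π ∈ V.nonunits)
    (hprim : ∀ s : F, EIPrimeTo π u s → s ∉ V.nonunits) :
    ∀ x : F, x ∈ V → ∃ b s : F, IsIntegral ↥(Algebra.adjoin A₀ {u}) b ∧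
      IsIntegral ↥(Algebra.adjoin A₀ {u}) s ∧ s ∉ V.nonunits ∧ s * x = b := by
  -- the instances
  letI : Algebra ↥(Algebra.adjoin A₀ {u}) E⟮u⟯ :=
    (ChartGB.chartIncl (A₀ := A₀) (E := E) u).toAlgebra
  haveI : IsScalarTower ↥(Algebra.adjoin A₀ {u}) E⟮u⟯ F :=
    IsScalarTower.of_algebraMap_eq (fun _ => rfl)
  haveI := ChartGB.isFractionRing_adjoinSimple (A₀ := A₀) (E := E) u
  haveI := chart_isIntegrallyClosed (A₀ := A₀) (E := E) hu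
  haveI := chart_isNoetherianRing (A₀ := A₀) (E := E) hu
  haveI := chart_ufm (A₀ := A₀) (E := E) hu
  haveI : IsNoetherianRing ↥(integralClosure ↥(Algebra.adjoin A₀ {u}) F) :=
    chart_closure_isNoetherianRing (A₀ := A₀) (E := E) hu
  haveI : IsIntegrallyClosed ↥(integralClosure ↥(Algebra.adjoin A₀ {u}) F) :=
    integralClosure.isIntegrallyClosedOfFiniteExtension E⟮u⟯
  haveI : IsFractionRing ↥(integralClosure ↥(Algebra.adjoin A₀ {u}) F) F :=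
    IsIntegralClosure.isFractionRing_of_finite_extension ↥(Algebra.adjoin A₀ {u}) E⟮u⟯ F
      ↥(integralClosure ↥(Algebra.adjoin A₀ {u}) F)
  have hprime := chart_prime (A₀ := A₀) (E := E) hu hπ
  -- the centre
  let φ : ↥(integralClosure ↥(Algebra.adjoin A₀ {u}) F) →+* ↥V :=
    { toFun := fun b => ⟨(b : F), hBV _ b.2⟩
      map_one' := rfl
      map_mul' := fun _ _ => rfl
      map_zero' := rfl
      map_add' := fun _ _ => rfl }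
  let 𝔓 : Ideal ↥(integralClosure ↥(Algebra.adjoin A₀ {u}) F) :=
    Ideal.comap φ (maximalIdeal ↥V)
  haveI h𝔓p : 𝔓.IsPrime := Ideal.comap_isPrime _ _
  have h𝔓 : ∀ b : ↥(integralClosure ↥(Algebra.adjoin A₀ {u}) F),
      b ∈ 𝔓 ↔ algebraMap ↥(integralClosure ↥(Algebra.adjoin A₀ {u}) F) F b ∈ V.nonunits := by
    intro b
    show φ b ∈ maximalIdeal ↥V ↔ (b : F) ∈ V.nonunits
    rw [ValuationSubring.valuation_lt_one_iff, ValuationSubring.mem_nonunits_iff]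
    exact Iff.rfl
  -- `π ∈ 𝔓`
  have hπint : IsIntegral ↥(Algebra.adjoin A₀ {u}) (algebraMap A₀ F π) :=
    isIntegral_algebraMap (R := ↥(Algebra.adjoin A₀ {u}))
      (x := algebraMap A₀ ↥(Algebra.adjoin A₀ {u}) π)
  have hπ0 : algebraMap A₀ F π ≠ 0 := ei_algebraMap_ne_zero (E := E) hπ
  have hne : 𝔓 ≠ ⊥ := by
    intro h0
    have h1 : (⟨algebraMap A₀ F π, hπint⟩ : ↥(integralClosure ↥(Algebra.adjoin A₀ {u}) F)) ∈ 𝔓 :=
      (h𝔓 _).mpr hπV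
    rw [h0, Ideal.mem_bot] at h1
    exact hπ0 (congrArg Subtype.val h1)
  -- elements of `A₀[u]` in `𝔪(V)` are divisible by `π`
  have hdvd : ∀ s : ↥(Algebra.adjoin A₀ {u}), (s : F) ∈ V.nonunits →
      algebraMap A₀ ↥(Algebra.adjoin A₀ {u}) π ∣ s := by
    intro s hs
    by_contra hnd
    exact hprim (s : F) ((eiPrimeTo_iff s.2).mpr hnd) hs
  -- height one
  have hht : ∀ 𝔔 : Ideal ↥(integralClosure ↥(Algebra.adjoin A₀ {u}) F), 𝔔.IsPrime → 𝔔 ≠ ⊥ →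
      𝔔 ≤ 𝔓 → 𝔔 = 𝔓 := by
    intro 𝔔 h𝔔p h𝔔0 hle
    by_contra hne'
    obtain ⟨x, hx𝔓, hx𝔔⟩ : ∃ x, x ∈ 𝔓 ∧ x ∉ 𝔔 := by
      by_contra hcon
      push Not at hcon
      exact hne' (le_antisymm hle hcon)
    have hlt := Ideal.comap_lt_comap_of_integral_mem_sdiff (R := ↥(Algebra.adjoin A₀ {u}))
      hle (x := x) ⟨hx𝔓, hx𝔔⟩ (integralClosure.isIntegral x)
    -- but `comap 𝔓 ≤ comap 𝔔`
    obtain ⟨y, hy𝔔, hy0⟩ : ∃ y, y ∈ 𝔔 ∧ y ≠ 0 := by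
      by_contra hcon
      push Not at hcon
      apply h𝔔0
      rw [eq_bot_iff]
      intro y hy
      rw [Ideal.mem_bot]
      exact hcon y hy
    have hcne : Ideal.comap (algebraMap ↥(Algebra.adjoin A₀ {u})
        ↥(integralClosure ↥(Algebra.adjoin A₀ {u}) F)) 𝔔 ≠ ⊥ :=
      Ideal.comap_ne_bot_of_integral_mem hy0 hy𝔔 (integralClosure.isIntegral y)
    obtain ⟨f, hf𝔔, hf0⟩ : ∃ f, f ∈ Ideal.comap (algebraMap ↥(Algebra.adjoin A₀ {u})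
        ↥(integralClosure ↥(Algebra.adjoin A₀ {u}) F)) 𝔔 ∧ f ≠ 0 := by
      by_contra hcon
      push Not at hcon
      apply hcne
      rw [eq_bot_iff]
      intro y hy
      rw [Ideal.mem_bot]
      exact hcon y hy
    obtain ⟨k, g, hg, hfg⟩ := WfDvdMonoid.max_power_factor hf0 hprime.irreducible
    haveI := h𝔔p
    have hcp : (Ideal.comap (algebraMap ↥(Algebra.adjoin A₀ {u})
        ↥(integralClosure ↥(Algebra.adjoin A₀ {u}) F)) 𝔔).IsPrime := Ideal.comap_isPrime _ _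
    have hg𝔓 : (g : F) ∉ V.nonunits := hprim (g : F) ((eiPrimeTo_iff g.2).mpr hg)
    have hg𝔔 : g ∉ Ideal.comap (algebraMap ↥(Algebra.adjoin A₀ {u})
        ↥(integralClosure ↥(Algebra.adjoin A₀ {u}) F)) 𝔔 := by
      intro hmem
      have h1 : algebraMap ↥(Algebra.adjoin A₀ {u})
        ↥(integralClosure ↥(Algebra.adjoin A₀ {u}) F) g ∈ 𝔓 := hle hmem
      exact hg𝔓 ((h𝔓 _).mp h1)
    have hπ𝔔 : algebraMap A₀ ↥(Algebra.adjoin A₀ {u}) π ∈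
        Ideal.comap (algebraMap ↥(Algebra.adjoin A₀ {u})
          ↥(integralClosure ↥(Algebra.adjoin A₀ {u}) F)) 𝔔 := by
      rw [hfg] at hf𝔔
      rcases hcp.mem_or_mem hf𝔔 with h | h
      · exact hcp.mem_of_pow_mem k h
      · exact absurd h hg𝔔
    have hge : Ideal.comap (algebraMap ↥(Algebra.adjoin A₀ {u})
        ↥(integralClosure ↥(Algebra.adjoin A₀ {u}) F)) 𝔓 ≤
        Ideal.comap (algebraMap ↥(Algebra.adjoin A₀ {u})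
          ↥(integralClosure ↥(Algebra.adjoin A₀ {u}) F)) 𝔔 := by
      intro s hs
      have hs' : (s : F) ∈ V.nonunits := (h𝔓 _).mp hs
      obtain ⟨s', rfl⟩ := hdvd s hs'
      exact Ideal.mul_mem_right _ _ hπ𝔔
    exact not_lt_of_ge hge hlt
  intro x hx
  obtain ⟨b, s, hs, hsx⟩ := rtk6dl_loc_of_height_one V (fun b => hBV _ b.2) 𝔓 h𝔓 hne hht x hx
  exact ⟨(b : F), (s : F), b.2, s.2, hs, hsx⟩

end Chart

end Fermat.Agent.RT.K6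


end ZBRT_032_1

/-! ### bundled: `Fermat.Agent.RT.K6.DIVertMg` -/
section ZBRT_032_2
/-
K-machine, piece K6 / D-I (helper82), part 2d: the two basic vertical valuation rings of
`F′ = rtk6diF A K₁ (M₁ q) M H` in the CONCRETE setting of UNIP / STB.

`A` a valuation subring of `ℚ̄` over `q`, `A′ = mgcA A K₁` a DVR with uniformizer `π`,
`E′ = mgcE A K₁`, `F′ = fieldC E′ (M₁ q) M H`, `t = rtk6diT` (`= j`),
`w : F′ ≃ₐ[E′] F′` an abstract Atkin–Lehner automorphism with `Rtk6dvWIncl` (it restricts to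
UNIP's `atkinLehner` on the `Γ₀(M₁ q)`-field; from `Rtk6dvMapJ` by `rtk6dv_wIncl_of_mapJ`).

* `rtk6dvV hπ M H w : Bool → ValuationSubring F′` (`true ↦ V_∞`, `false ↦ V_0 = V_∞.comap w`);
* `rtk6dv_comap_incl : (V c).comap incl = UNIP.mgvV c`;
* `rtk6dv_hne`, `rtk6dv_T_mem`, `rtk6dv_T_inv_mem`, `rtk6dv_hBV₁`, `rtk6dv_hBV₂`, `rtk6dv_hπV`,
  `rtk6dv_harch`, `rtk6dv_hunif` (`π` is a uniformizer of `V c`);
* `rtk6dv_prim_J`, `rtk6dv_prim_Jinv` : polynomials in `j` (`1/j`) prime to `π` are units;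
* **`rtk6dv_hVloc₁`, `rtk6dv_hVloc₂`** : `V c` is the localisation of the chart at its centre
  (NO (SS1) needed: `rtk6dl_hVloc`);
* inertia: `rtk6dv_hgV_inf`, `rtk6dv_hτV_inf`, `rtk6dv_act_mem_inf` (`σ̂` at `V_∞`),
  `rtk6dv_hgV_zero`, `rtk6dv_hτV_zero`, `rtk6dv_map_mem_zero` (every `Ψ` with `w ∘ Ψ = σ̂ ∘ w`,
  e.g. `Ψ = δ_c ∘ σ̂`, at `V_0`); `rtk6dv_hgA`, `rtk6dv_hgA_inv`.
-/

set_option autoImplicit false
set_option linter.style.haveILetI false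
set_option linter.unusedSectionVars false
set_option linter.unusedVariables false

noncomputable section

namespace Fermat.Agent.RT.K6

open ModularCurve AlgebraicCurve Fermat.Agent.ES Fermat.Agent.ES.G2 Fermat.Agent.INJ
open Fermat.Agent.UNIP Fermat.Agent.ES1 Fermat.Agent.ES1.G2 Fermat.Agent.AL IntermediateField

section Concrete

variable {A : ValuationSubring Qb} {K₁ : IntermediateField ℚ Qb}
  [IsDiscreteValuationRing ↥(mgcA A K₁)] {π : ↥(mgcA A K₁)} (hπ : Irreducible π)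
  (ιC : ↥(mgcE A K₁) →+* ℂ) {q M₁ : ℕ} [NeZero q] [NeZero M₁] [NeZero (M₁ * q)]
  (hq : q.Prime) (hqM : ¬ q ∣ M₁) (M : ℕ) (H : Subgroup (ZMod M)ˣ)
  (w : ↥(rtk6diF A K₁ (M₁ * q) M H) ≃ₐ[↥(mgcE A K₁)] ↥(rtk6diF A K₁ (M₁ * q) M H))

/-- **The two basic vertical valuation subrings of `F′`**: `true ↦ V_∞` (Gauss valuation of the
`q`-expansion), `false ↦ V_0 = V_∞.comap w`. -/
def rtk6dvV : Bool → ValuationSubring ↥(rtk6diF A K₁ (M₁ * q) M H) :=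
  rtk6dvFam (vtBase_residue hπ) (M₁ * q) M H w

theorem mem_rtk6dvV_true {x : ↥(rtk6diF A K₁ (M₁ * q) M H)} :
    x ∈ rtk6dvV hπ M H w true ↔
      (x : LaurentSeries ↥(mgcE A K₁)) ∈
        gaussRing (algebraMap ↥(mgcA A K₁) ↥(mgcE A K₁))
          (IsLocalRing.residue ↥(mgcA A K₁)) := Iff.rfl

theorem mem_rtk6dvV_false {x : ↥(rtk6diF A K₁ (M₁ * q) M H)} :
    x ∈ rtk6dvV hπ M H w false ↔ w x ∈ rtk6dvV hπ M H w true := Iff.rfl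

theorem rtk6dvV_false_eq_comap :
    rtk6dvV hπ M H w false = (rtk6dvV hπ M H w true).comap w.toRingEquiv.toRingHom := rfl

/-- **`(V c).comap incl = UNIP.mgvV c`** -/
theorem rtk6dv_comap_incl (hw : Rtk6dvWIncl ιC hq hqM M H w) (c : Bool) :
    (rtk6dvV hπ M H w c).comap (rtk6diIncl (M₁ * q) M H) = mgvV hπ ιC hq hqM c :=
  rtk6dvFam_comap_incl (vtBase_residue hπ) ιC hq hqM M H w hw c

theorem rtk6dv_incl_mem_iff (hw : Rtk6dvWIncl ιC hq hqM M H w) (c : Bool)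
    (x : ↥(mgcF A K₁ (M₁ * q))) :
    rtk6diIncl (M₁ * q) M H x ∈ rtk6dvV hπ M H w c ↔ x ∈ mgvV hπ ιC hq hqM c :=
  rtk6dvFam_incl_mem_iff (vtBase_residue hπ) ιC hq hqM M H w hw c x

theorem rtk6dv_incl_mem_nonunits_iff (hw : Rtk6dvWIncl ιC hq hqM M H w) (c : Bool)
    (x : ↥(mgcF A K₁ (M₁ * q))) :
    rtk6diIncl (M₁ * q) M H x ∈ (rtk6dvV hπ M H w c).nonunits ↔
      x ∈ (mgvV hπ ιC hq hqM c).nonunits :=
  rtk6dvFam_incl_mem_nonunits_iff (vtBase_residue hπ) ιC hq hqM M H w hw c x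

/-- **hne**: `V_∞ ≠ V_0` -/
theorem rtk6dv_hne (hw : Rtk6dvWIncl ιC hq hqM M H w) (hA : A.LiesOverPrime q) :
    rtk6dvV hπ M H w true ≠ rtk6dvV hπ M H w false := by
  haveI : Fact q.Prime := ⟨hq⟩
  haveI : CharP (IsLocalRing.ResidueField ↥(mgcA A K₁)) q := mgvl_charP hq hA
  exact rtk6dvFam_ne (vtBase_residue hπ) ιC hq hqM M H w hw

/-- `j ∈ V c` -/
theorem rtk6dv_T_mem (hw : Rtk6dvWIncl ιC hq hqM M H w) (c : Bool) :
    rtk6diT A K₁ (M₁ * q) M H ∈ rtk6dvV hπ M H w c :=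
  (rtk6dv_incl_mem_iff hπ ιC hq hqM M H w hw c _).mpr (mgv_T_mem hπ ιC hq hqM c)

/-- `1 / j ∈ V c` -/
theorem rtk6dv_T_inv_mem (hw : Rtk6dvWIncl ιC hq hqM M H w) (c : Bool) :
    (rtk6diT A K₁ (M₁ * q) M H)⁻¹ ∈ rtk6dvV hπ M H w c := by
  have h := (rtk6dv_incl_mem_iff hπ ιC hq hqM M H w hw c _).mpr (mgv_T_inv_mem hπ ιC hq hqM c)
  rwa [map_inv₀] at h

/-- **hBV₁**: the chart `j` lies in `V c` -/
theorem rtk6dv_hBV₁ (hw : Rtk6dvWIncl ιC hq hqM M H w) (c : Bool)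
    (b : ↥(rtk6diF A K₁ (M₁ * q) M H))
    (hb : IsIntegral ↥(Algebra.adjoin ↥(mgcA A K₁)
      ({rtk6diT A K₁ (M₁ * q) M H} : Set ↥(rtk6diF A K₁ (M₁ * q) M H))) b) :
    b ∈ rtk6dvV hπ M H w c :=
  rtk6dvFam_mem_of_isIntegral (vtBase_residue hπ) (M₁ * q) M H w c (fun a => ⟨a, rfl⟩) _
    (by rintro s rfl; exact rtk6dv_T_mem hπ ιC hq hqM M H w hw c) hb

/-- **hBV₂**: the chart `1 / j` lies in `V c` -/
theorem rtk6dv_hBV₂ (hw : Rtk6dvWIncl ιC hq hqM M H w) (c : Bool)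
    (b : ↥(rtk6diF A K₁ (M₁ * q) M H))
    (hb : IsIntegral ↥(Algebra.adjoin ↥(mgcA A K₁)
      ({(rtk6diT A K₁ (M₁ * q) M H)⁻¹} : Set ↥(rtk6diF A K₁ (M₁ * q) M H))) b) :
    b ∈ rtk6dvV hπ M H w c :=
  rtk6dvFam_mem_of_isIntegral (vtBase_residue hπ) (M₁ * q) M H w c (fun a => ⟨a, rfl⟩) _
    (by rintro s rfl; exact rtk6dv_T_inv_mem hπ ιC hq hqM M H w hw c) hb

/-- **hπV** -/
theorem rtk6dv_hπV (c : Bool) :
    algebraMap ↥(mgcA A K₁) ↥(rtk6diF A K₁ (M₁ * q) M H) π ∈ (rtk6dvV hπ M H w c).nonunits :=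
  rtk6dvFam_unif_mem_nonunits (vtBase_residue hπ) (M₁ * q) M H w c

/-- constants: `a ∈ A′` is in `𝔪(V c)` iff it is in the maximal ideal of `A` -/
theorem rtk6dv_const_mem_nonunits_iff (c : Bool) (a : ↥(mgcA A K₁)) :
    algebraMap ↥(mgcA A K₁) ↥(rtk6diF A K₁ (M₁ * q) M H) a ∈ (rtk6dvV hπ M H w c).nonunits ↔
      (((a : ↥(mgcE A K₁)) : Qb)) ∈ A.nonunits := by
  rw [← beta0Ring_mem_maximalIdeal_iff, ← IsLocalRing.residue_eq_zero_iff]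
  exact rtk6dvFam_const_mem_nonunits_iff (vtBase_residue hπ) (M₁ * q) M H w c a

/-- **harch** -/
theorem rtk6dv_harch (c : Bool) (a x : ↥(rtk6diF A K₁ (M₁ * q) M H))
    (ha : a ∈ (rtk6dvV hπ M H w c).nonunits) :
    ∃ n : ℕ, a ^ n * x ∈ (rtk6dvV hπ M H w c).nonunits :=
  rtk6dvFam_arch (vtBase_residue hπ) (M₁ * q) M H w c ha x

/-- **`π` is a uniformizer of `V c`** -/
theorem rtk6dv_hunif (c : Bool) {f : ↥(rtk6diF A K₁ (M₁ * q) M H)} (hf : f ≠ 0) :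
    ∃ n : ℤ, (rtk6dvV hπ M H w c).valuation
      (f * algebraMap ↥(mgcA A K₁) ↥(rtk6diF A K₁ (M₁ * q) M H) π ^ n) = 1 :=
  rtk6dvFam_exists_pow_mul (vtBase_residue hπ) (M₁ * q) M H w c hf

/-! ### primitive polynomials -/

/-- **polynomials in `j` prime to `π` are units of `V c`** -/
theorem rtk6dv_prim_J (hw : Rtk6dvWIncl ιC hq hqM M H w) (hA : A.LiesOverPrime q) (c : Bool)
    (s : ↥(rtk6diF A K₁ (M₁ * q) M H)) (hs : EIPrimeTo π (rtk6diT A K₁ (M₁ * q) M H) s) :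
    s ∉ (rtk6dvV hπ M H w c).nonunits := by
  haveI : Fact q.Prime := ⟨hq⟩
  haveI : CharP (IsLocalRing.ResidueField ↥(mgcA A K₁)) q := mgvl_charP hq hA
  obtain ⟨s₀, hs₀, rfl⟩ := rtk6dv_primeTo_of_incl (A' := mgcA A K₁) (L := M₁ * q) (M := M)
    (H := H) (u₀ := mgcT A K₁ (M₁ * q)) hs
  rw [rtk6dv_incl_mem_nonunits_iff hπ ιC hq hqM M H w hw]
  exact mgv_prim_J hπ ιC hq hqM c s₀ hs₀

/-- **polynomials in `1 / j` prime to `π` are units of `V c`** -/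
theorem rtk6dv_prim_Jinv (hw : Rtk6dvWIncl ιC hq hqM M H w) (hA : A.LiesOverPrime q) (c : Bool)
    (s : ↥(rtk6diF A K₁ (M₁ * q) M H))
    (hs : EIPrimeTo π (rtk6diT A K₁ (M₁ * q) M H)⁻¹ s) :
    s ∉ (rtk6dvV hπ M H w c).nonunits := by
  haveI : Fact q.Prime := ⟨hq⟩
  haveI : CharP (IsLocalRing.ResidueField ↥(mgcA A K₁)) q := mgvl_charP hq hA
  have e : (rtk6diT A K₁ (M₁ * q) M H)⁻¹ = rtk6diIncl (M₁ * q) M H (mgcT A K₁ (M₁ * q))⁻¹ := by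
    rw [map_inv₀]; rfl
  rw [e] at hs
  obtain ⟨s₀, hs₀, rfl⟩ := rtk6dv_primeTo_of_incl (A' := mgcA A K₁) (L := M₁ * q) (M := M)
    (H := H) (u₀ := (mgcT A K₁ (M₁ * q))⁻¹) hs
  rw [rtk6dv_incl_mem_nonunits_iff hπ ιC hq hqM M H w hw]
  exact mgv_prim_Jinv hπ ιC hq hqM c s₀ hs₀

/-! ### hVloc -/

/-- **hVloc₁**: on the chart `j`, `V c` is the localisation of the chart at `𝔪(V c) ∩ B`. -/
theorem rtk6dv_hVloc₁ (hw : Rtk6dvWIncl ιC hq hqM M H w) (hA : A.LiesOverPrime q)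
    (hML : M ∣ M₁ * q) :
    ∀ c (x : ↥(rtk6diF A K₁ (M₁ * q) M H)), x ∈ rtk6dvV hπ M H w c →
      ∃ b s : ↥(rtk6diF A K₁ (M₁ * q) M H),
      IsIntegral ↥(Algebra.adjoin ↥(mgcA A K₁)
        ({rtk6diT A K₁ (M₁ * q) M H} : Set ↥(rtk6diF A K₁ (M₁ * q) M H))) b ∧
      IsIntegral ↥(Algebra.adjoin ↥(mgcA A K₁)
        ({rtk6diT A K₁ (M₁ * q) M H} : Set ↥(rtk6diF A K₁ (M₁ * q) M H))) s ∧
      s ∉ (rtk6dvV hπ M H w c).nonunits ∧ s * x = b := by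
  haveI := rtk6di_finiteDimensional A K₁ (M₁ * q) M H (NeZero.ne (M₁ * q)) hML
  intro c
  exact rtk6dl_hVloc (rtk6di_transcendental A K₁ (M₁ * q) M H) hπ (rtk6dvV hπ M H w c)
    (rtk6dv_hBV₁ hπ ιC hq hqM M H w hw c) (rtk6dv_hπV hπ M H w c)
    (rtk6dv_prim_J hπ ιC hq hqM M H w hw hA c)

/-- **hVloc₂**: the same on the chart `1 / j`. -/
theorem rtk6dv_hVloc₂ (hw : Rtk6dvWIncl ιC hq hqM M H w) (hA : A.LiesOverPrime q)
    (hML : M ∣ M₁ * q) :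
    ∀ c (x : ↥(rtk6diF A K₁ (M₁ * q) M H)), x ∈ rtk6dvV hπ M H w c →
      ∃ b s : ↥(rtk6diF A K₁ (M₁ * q) M H),
      IsIntegral ↥(Algebra.adjoin ↥(mgcA A K₁)
        ({(rtk6diT A K₁ (M₁ * q) M H)⁻¹} : Set ↥(rtk6diF A K₁ (M₁ * q) M H))) b ∧
      IsIntegral ↥(Algebra.adjoin ↥(mgcA A K₁)
        ({(rtk6diT A K₁ (M₁ * q) M H)⁻¹} : Set ↥(rtk6diF A K₁ (M₁ * q) M H))) s ∧
      s ∉ (rtk6dvV hπ M H w c).nonunits ∧ s * x = b := by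
  haveI := rtk6di_finiteDimensional A K₁ (M₁ * q) M H (NeZero.ne (M₁ * q)) hML
  haveI : FiniteDimensional (↥(mgcE A K₁))⟮(rtk6diT A K₁ (M₁ * q) M H)⁻¹⟯
      ↥(rtk6diF A K₁ (M₁ * q) M H) :=
    at_finiteDimensional_inv (rtk6diT A K₁ (M₁ * q) M H)
  intro c
  exact rtk6dl_hVloc (zch_transcendental_inv (rtk6di_transcendental A K₁ (M₁ * q) M H)) hπ
    (rtk6dvV hπ M H w c)
    (rtk6dv_hBV₂ hπ ιC hq hqM M H w hw c) (rtk6dv_hπV hπ M H w c)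
    (rtk6dv_prim_Jinv hπ ιC hq hqM M H w hw hA c)

end Concrete

end Fermat.Agent.RT.K6

end
end ZBRT_032_2

/-! ### bundled: `Fermat.Agent.RT.K6.DIVertGal` -/
section ZBRT_032_3
/-
K-machine, piece K6 / D-I (helper82), part 2e: inertia and the two basic vertical valuations
of `F′ = rtk6diF A K₁ (M₁ q) M H`.

`σ` in the inertia group of `A`, `σ E′ ⊆ E′`, `g = rtk6diGal σ` (coefficientwise).
* at `V_∞`: `rtk6dv_hgV_inf` (`v_∞ (g f / f) = 1`), `rtk6dv_hτV_inf` (`g x − x ∈ 𝔪(V_∞)`),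
  `rtk6dv_act_mem_inf`;
* at `V_0 = V_∞.comap w`: for EVERY ring endomorphism `Ψ` of `F′` with `w ∘ Ψ = σ̂ ∘ w`
  (by `IsWAt.galois`: `Ψ = δ_c ∘ σ̂`): `rtk6dv_hgV_zero`, `rtk6dv_hτV_zero`,
  `rtk6dv_map_mem_zero`;
* constants: `rtk6dv_hgA`, `rtk6dv_hgA_inv` (`g`, `g⁻¹` preserve `A′`; decomposition group);
* linear automorphisms `γ` (over `E′`): `rtk6dv_val_of_stable` (`γ (V c) ⊆ V c ⇒
  v_c (γ f / f) = 1`), and the transport of the valuation rings: `rtk6dv_comap_val`.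
-/

set_option autoImplicit false
set_option linter.style.haveILetI false
set_option linter.unusedSectionVars false
set_option linter.unusedVariables false

noncomputable section

namespace Fermat.Agent.RT.K6

open ModularCurve AlgebraicCurve Fermat.Agent.ES Fermat.Agent.ES.G2 Fermat.Agent.INJ
open Fermat.Agent.UNIP Fermat.Agent.ES1 Fermat.Agent.ES1.G2 Fermat.Agent.AL IntermediateField

section Inertia

variable {A : ValuationSubring Qb} {K₁ : IntermediateField ℚ Qb}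
  [IsDiscreteValuationRing ↥(mgcA A K₁)] {π : ↥(mgcA A K₁)} (hπ : Irreducible π)
  {q M₁ : ℕ} [NeZero q] [NeZero M₁] [NeZero (M₁ * q)]
  (M : ℕ) (H : Subgroup (ZMod M)ˣ)
  (w : ↥(rtk6diF A K₁ (M₁ * q) M H) ≃ₐ[↥(mgcE A K₁)] ↥(rtk6diF A K₁ (M₁ * q) M H))

/-- **`hgV` at `V_∞`** for `g = rtk6diGal σ`, `σ` in the inertia group -/
theorem rtk6dv_hgV_inf {σ : Qb ≃ₐ[ℚ] Qb} (hσ : σ ∈ A.inertiaSubgroupIn ℚ)
    (hσE : ∀ x ∈ mgcE A K₁, σ x ∈ mgcE A K₁)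
    (f : ↥(rtk6diF A K₁ (M₁ * q) M H)) (hf : f ≠ 0) :
    (rtk6dvV hπ M H w true).valuation (rtk6diGal (M₁ * q) M H σ hσE • f / f) = 1 :=
  rtk6dvFam_hσV (vtBase_residue hπ) (M₁ * q) M H w
    (vt_compat_of_inertia (mgcE A K₁) hσ hσE) (vt_unif_of_inertia (mgcE A K₁) hπ hσ hσE) true
    (rtk6diAct (M₁ * q) M H σ hσE) (fun _ => rfl) hf

/-- **`hτV` at `V_∞`**: inertia acts trivially on the residue field of `V_∞` -/
theorem rtk6dv_hτV_inf {σ : Qb ≃ₐ[ℚ] Qb} (hσ : σ ∈ A.inertiaSubgroupIn ℚ)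
    (hσE : ∀ x ∈ mgcE A K₁, σ x ∈ mgcE A K₁)
    (x : ↥(rtk6diF A K₁ (M₁ * q) M H)) (hx : x ∈ rtk6dvV hπ M H w true) :
    rtk6diGal (M₁ * q) M H σ hσE • x - x ∈ (rtk6dvV hπ M H w true).nonunits :=
  rtk6dvFam_hτV (vtBase_residue hπ) (M₁ * q) M H w
    (vt_compat_of_inertia (mgcE A K₁) hσ hσE) true
    (rtk6diAct (M₁ * q) M H σ hσE) (fun _ => rfl) hx

/-- `V_∞` is stable under inertia -/
theorem rtk6dv_act_mem_inf {σ : Qb ≃ₐ[ℚ] Qb} (hσ : σ ∈ A.inertiaSubgroupIn ℚ)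
    (hσE : ∀ x ∈ mgcE A K₁, σ x ∈ mgcE A K₁)
    (x : ↥(rtk6diF A K₁ (M₁ * q) M H)) (hx : x ∈ rtk6dvV hπ M H w true) :
    rtk6diGal (M₁ * q) M H σ hσE • x ∈ rtk6dvV hπ M H w true :=
  rtk6dvFam_map_mem (vtBase_residue hπ) (M₁ * q) M H w
    (vt_compat_of_inertia (mgcE A K₁) hσ hσE) true
    (rtk6diAct (M₁ * q) M H σ hσE) (fun _ => rfl) hx

/-- **`hgV` at `V_0`** for every `Ψ` with `w ∘ Ψ = σ̂ ∘ w` (e.g. `Ψ = δ_c ∘ σ̂`) -/
theorem rtk6dv_hgV_zero {σ : Qb ≃ₐ[ℚ] Qb} (hσ : σ ∈ A.inertiaSubgroupIn ℚ)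
    (hσE : ∀ x ∈ mgcE A K₁, σ x ∈ mgcE A K₁)
    (Ψ : ↥(rtk6diF A K₁ (M₁ * q) M H) →+* ↥(rtk6diF A K₁ (M₁ * q) M H))
    (hΨ : ∀ x, w (Ψ x) = rtk6diGal (M₁ * q) M H σ hσE • w x)
    (f : ↥(rtk6diF A K₁ (M₁ * q) M H)) (hf : f ≠ 0) :
    (rtk6dvV hπ M H w false).valuation (Ψ f / f) = 1 :=
  rtk6dvFam_hσV (vtBase_residue hπ) (M₁ * q) M H w
    (vt_compat_of_inertia (mgcE A K₁) hσ hσE) (vt_unif_of_inertia (mgcE A K₁) hπ hσ hσE) false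
    Ψ (rtk6dvEmbFam_false_of_comm (M₁ * q) M H w _ Ψ hΨ) hf

/-- **`hτV` at `V_0`** for every `Ψ` with `w ∘ Ψ = σ̂ ∘ w` -/
theorem rtk6dv_hτV_zero {σ : Qb ≃ₐ[ℚ] Qb} (hσ : σ ∈ A.inertiaSubgroupIn ℚ)
    (hσE : ∀ x ∈ mgcE A K₁, σ x ∈ mgcE A K₁)
    (Ψ : ↥(rtk6diF A K₁ (M₁ * q) M H) →+* ↥(rtk6diF A K₁ (M₁ * q) M H))
    (hΨ : ∀ x, w (Ψ x) = rtk6diGal (M₁ * q) M H σ hσE • w x)
    (x : ↥(rtk6diF A K₁ (M₁ * q) M H)) (hx : x ∈ rtk6dvV hπ M H w false) :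
    Ψ x - x ∈ (rtk6dvV hπ M H w false).nonunits :=
  rtk6dvFam_hτV (vtBase_residue hπ) (M₁ * q) M H w
    (vt_compat_of_inertia (mgcE A K₁) hσ hσE) false
    Ψ (rtk6dvEmbFam_false_of_comm (M₁ * q) M H w _ Ψ hΨ) hx

theorem rtk6dv_map_mem_zero {σ : Qb ≃ₐ[ℚ] Qb} (hσ : σ ∈ A.inertiaSubgroupIn ℚ)
    (hσE : ∀ x ∈ mgcE A K₁, σ x ∈ mgcE A K₁)
    (Ψ : ↥(rtk6diF A K₁ (M₁ * q) M H) →+* ↥(rtk6diF A K₁ (M₁ * q) M H))
    (hΨ : ∀ x, w (Ψ x) = rtk6diGal (M₁ * q) M H σ hσE • w x)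
    (x : ↥(rtk6diF A K₁ (M₁ * q) M H)) (hx : x ∈ rtk6dvV hπ M H w false) :
    Ψ x ∈ rtk6dvV hπ M H w false :=
  rtk6dvFam_map_mem (vtBase_residue hπ) (M₁ * q) M H w
    (vt_compat_of_inertia (mgcE A K₁) hσ hσE) false
    Ψ (rtk6dvEmbFam_false_of_comm (M₁ * q) M H w _ Ψ hΨ) hx

end Inertia

section Const

variable {A : ValuationSubring Qb} {K₁ : IntermediateField ℚ Qb}
  (L M : ℕ) (H : Subgroup (ZMod M)ˣ)

/-- **`hgA`** for `g = rtk6diGal σ`: the decomposition group preserves the constants `A′` -/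
theorem rtk6dv_hgA {σ : Qb ≃ₐ[ℚ] Qb} (hσ : σ ∈ A.decompositionSubgroup ℚ)
    (hσE : ∀ x ∈ mgcE A K₁, σ x ∈ mgcE A K₁) :
    ∀ α : ↥(mgcA A K₁), ∃ α' : ↥(mgcA A K₁),
      rtk6diGal L M H σ hσE • algebraMap ↥(mgcA A K₁) ↥(rtk6diF A K₁ L M H) α =
        algebraMap ↥(mgcA A K₁) ↥(rtk6diF A K₁ L M H) α' := by
  intro α
  refine ⟨mgvfHom (mgcE A K₁) hσ hσE α, ?_⟩
  exact rtk6diAct_algebraMap L M H σ hσE (α : ↥(mgcE A K₁))

/-- **`hgA'`** for `g = rtk6diGal σ` -/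
theorem rtk6dv_hgA_inv {σ : Qb ≃ₐ[ℚ] Qb} (hσ : σ ∈ A.decompositionSubgroup ℚ)
    (hσE : ∀ x ∈ mgcE A K₁, σ x ∈ mgcE A K₁) :
    ∀ α : ↥(mgcA A K₁), ∃ α' : ↥(mgcA A K₁),
      (rtk6diGal L M H σ hσE)⁻¹ • algebraMap ↥(mgcA A K₁) ↥(rtk6diF A K₁ L M H) α =
        algebraMap ↥(mgcA A K₁) ↥(rtk6diF A K₁ L M H) α' := by
  intro α
  have hσ' : σ.symm ∈ A.decompositionSubgroup ℚ := kron_symm_mem_decomposition hσ
  have hσE' : ∀ x ∈ mgcE A K₁, σ.symm x ∈ mgcE A K₁ := mga_stable_symm (mgcE A K₁) σ hσE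
  refine ⟨mgvfHom (mgcE A K₁) hσ' hσE' α, ?_⟩
  rw [inv_smul_eq_iff]
  have h := rtk6diAct_algebraMap L M H σ hσE
    ((mgvfHom (mgcE A K₁) hσ' hσE' α : ↥(mgcA A K₁)) : ↥(mgcE A K₁))
  have e : mgRestrict (mgcE A K₁) σ hσE
      ((mgvfHom (mgcE A K₁) hσ' hσE' α : ↥(mgcA A K₁)) : ↥(mgcE A K₁)) =
        (α : ↥(mgcE A K₁)) := Subtype.ext (σ.apply_symm_apply _)
  rw [e] at h
  exact h.symm

end Const

end Fermat.Agent.RT.K6

end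
end ZBRT_032_3

/-! ### bundled: `Fermat.Agent.RT.K6.EMain` -/
section ZBRT_032_4
/-
K-machine, piece K6, piece **E-MAIN** (helper18): the SKELETON of piece E.

Setting of `RT/K6/DISetup.lean` (helper82) and of the table v6 of `NOTES/RT-K6-D.md`:
`E′ = mgcE A K₁`, `A′ = mgcA A K₁` (a discrete valuation ring), `F′ = rtk6diF A K₁ L M H`
(`= fieldC ↥E′ L M H`), `t = rtk6diT A K₁ L M H` (`= j`), `g = rtk6diGal L M H σ hσ` (`σ` in the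
inertia group of `A`), `Φ` = a diamond `δ′₀` at `r` (for (χ-K)) or `Φ = g` (for (UNIP_H)).

**The non-formal inputs** (one Prop per row of the table v6; every Prop is LITERALLY the
corresponding hypothesis of `rtk6ew_main_multi` (M6, `RT/K6/EWMulti.lean`) at these objects):

* `Rtk6emFam π V`        (M1, helper82)   : `Finite κ`, `hinj`, `hBV₁`, `hBV₂`, `hπV`, `harch`,
                                            `hVloc₁`, `hVloc₂`;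
* `Rtk6emSS1 π V`        (SS1-inst, helper79) : `hSS1`;
* `Rtk6emStab V g`       (M4-inst, helper79)  : `hgV` (and `hΦV` with `g := Φ`);
* `Rtk6emChartAt π q V u` (C4 helper94 + D-BC helper56), `u = t` or `t⁻¹` : the unramified chart
                           `R`, `j`, `p` with `MgcRamified`, `hjp` and `hnode`;
* `Rtk6emNode π V`       : `∃ q ≠ 0, π ∣ q ∧` the two charts;
* `Rtk6emFixAt π V g u`, `Rtk6emCongAt π V Φ u` (FIX-inst, helper94 / helper36) : `hfix`, `hcong`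
                           (with `Q = 1`) at the points where two components pass;
* `Rtk6emInputs π V g Φ` : the bundle; `Rtk6emData g Φ y n` : the bundle together with the toric
                           constants (M5, helper96) for `y` and the exponent `n`.

**Discharged here** (E-BASE): Noetherian charts, `hgt`, `hΦt`, `hgA`, `hgA'`, `hΦA`, `hΦA'`,
`hcl`, `ht`, `hp`, `hpu`, `hζ`, `hunit`, finite dimensionality, `hfin`; (E-RAT, helper12) `hm`,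
`hrat`.

**Results.**
* `rtk6em_core`  : `rtk6ew_main_multi` in the concrete setting, general `g`, `Φ`, `Q = 1`;
* `rtk6em_chi`   : `Φ = δ′₀`, `x = δ₀ (σ̂ u₀) / u₀` ⇒ `δ′₀ χ / χ` is a `p ^ k`-th power,
                   `χ = rtk6eChi … u₀`;
* `rtk6em_unip`  : `Φ = g`, `x = u₀` ⇒ `rtk6eUnip … u₀` is a `p ^ k`-th power;
* `rtk6em_chiFieldPPAt`, `rtk6em_unipFieldPPAt` : **the targets `ChiFieldPPAt L M H r`,
  `UnipFieldPPAt L M H r` of `RT/K6/EFinal.lean` from the data at every `(A, K₁, σ, …)`**, `K₁` a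
  Galois number field containing a finite set chosen by the provider of the data.
-/

set_option autoImplicit false
set_option linter.style.haveILetI false
set_option linter.unusedSectionVars false
set_option linter.unusedVariables false

noncomputable section

namespace Fermat.Agent.RT.K6

open ModularCurve AlgebraicCurve Fermat.Agent.ES Fermat.Agent.ES.G2 Fermat.Agent.INJ
open Fermat.Agent.UNIP Fermat.Agent.STB Fermat.Agent.ES1 Fermat.Agent.ES1.G2 IntermediateField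

/-! ### The inputs -/

section Inputs

variable (A : ValuationSubring Qb) (K₁ : IntermediateField ℚ Qb)
  (L M : ℕ) (H : Subgroup (ZMod M)ˣ) [IsDiscreteValuationRing ↥(mgcA A K₁)]

/-- **(M1)** the finite family `V` of vertical valuation rings of `F′` (all components of the
special fibre of the model with charts `zchClosure {t}`, `zchClosure {t⁻¹}` over `A′`). -/
structure Rtk6emFam (π : ↥(mgcA A K₁)) {κ : Type}
    (V : κ → ValuationSubring ↥(rtk6diF A K₁ L M H)) : Prop where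
  hfin : Finite κ
  hinj : Function.Injective V
  hBV₁ : ∀ c (b : ↥(rtk6diF A K₁ L M H)),
    IsIntegral ↥(Algebra.adjoin ↥(mgcA A K₁) {rtk6diT A K₁ L M H}) b → b ∈ V c
  hBV₂ : ∀ c (b : ↥(rtk6diF A K₁ L M H)),
    IsIntegral ↥(Algebra.adjoin ↥(mgcA A K₁) {(rtk6diT A K₁ L M H)⁻¹}) b → b ∈ V c
  hπV : ∀ c, algebraMap ↥(mgcA A K₁) ↥(rtk6diF A K₁ L M H) π ∈ (V c).nonunits
  harch : ∀ c (a x : ↥(rtk6diF A K₁ L M H)), a ∈ (V c).nonunits →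
    ∃ N : ℕ, a ^ N * x ∈ (V c).nonunits
  hVloc₁ : ∀ c (x : ↥(rtk6diF A K₁ L M H)), x ∈ V c → ∃ b s : ↥(rtk6diF A K₁ L M H),
    IsIntegral ↥(Algebra.adjoin ↥(mgcA A K₁) {rtk6diT A K₁ L M H}) b ∧
    IsIntegral ↥(Algebra.adjoin ↥(mgcA A K₁) {rtk6diT A K₁ L M H}) s ∧
    s ∉ (V c).nonunits ∧ s * x = b
  hVloc₂ : ∀ c (x : ↥(rtk6diF A K₁ L M H)), x ∈ V c → ∃ b s : ↥(rtk6diF A K₁ L M H),
    IsIntegral ↥(Algebra.adjoin ↥(mgcA A K₁) {(rtk6diT A K₁ L M H)⁻¹}) b ∧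
    IsIntegral ↥(Algebra.adjoin ↥(mgcA A K₁) {(rtk6diT A K₁ L M H)⁻¹}) s ∧
    s ∉ (V c).nonunits ∧ s * x = b

/-- **(SS1-inst)** the special fibre of the chart `zchClosure {t}` is reduced, with components
the `V c`. -/
def Rtk6emSS1 (π : ↥(mgcA A K₁)) {κ : Type}
    (V : κ → ValuationSubring ↥(rtk6diF A K₁ L M H)) : Prop :=
  ∀ b : ↥(rtk6diF A K₁ L M H),
    IsIntegral ↥(Algebra.adjoin ↥(mgcA A K₁) {rtk6diT A K₁ L M H}) b →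
    (∀ c, b ∈ (V c).nonunits) →
    ∃ b' : ↥(rtk6diF A K₁ L M H),
      IsIntegral ↥(Algebra.adjoin ↥(mgcA A K₁) {rtk6diT A K₁ L M H}) b' ∧
      b = algebraMap ↥(mgcA A K₁) ↥(rtk6diF A K₁ L M H) π * b'

/-- **(M4-inst)** `g` preserves every valuation of the family. -/
def Rtk6emStab {κ : Type} (V : κ → ValuationSubring ↥(rtk6diF A K₁ L M H))
    (g : SemilinearAut ↥(mgcE A K₁) ↥(rtk6diF A K₁ L M H)) : Prop :=
  ∀ c (f : ↥(rtk6diF A K₁ L M H)), f ≠ 0 → (V c).valuation (g • f / f) = 1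

/-- **(D-BC) + (C4)** on the chart `zchClosure {u}` (`u = t` or `u = t⁻¹`): an unramified chart
`R` (`j : R →+* B′_u`, `MgcRamified j π p`, `j p = q`) on which every closed point of the special
fibre is a smooth point or a thin crossing point of two components of the family. -/
def Rtk6emChartAt (π q : ↥(mgcA A K₁)) {κ : Type}
    (V : κ → ValuationSubring ↥(rtk6diF A K₁ L M H)) (u : ↥(rtk6diF A K₁ L M H)) : Prop :=
  ∃ (R : Type) (_ : CommRing R)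
    (j : R →+* ↥(zchClosure (A₀ := ↥(mgcA A K₁)) ({u} : Set ↥(rtk6diF A K₁ L M H)))) (p : R),
    MgcRamified j (algebraMap ↥(mgcA A K₁) ↥(zchClosure (A₀ := ↥(mgcA A K₁))
      ({u} : Set ↥(rtk6diF A K₁ L M H))) π) p ∧
    j p = algebraMap ↥(mgcA A K₁) ↥(zchClosure (A₀ := ↥(mgcA A K₁))
      ({u} : Set ↥(rtk6diF A K₁ L M H))) q ∧
    ∀ 𝔫 : AtPt (F := ↥(rtk6diF A K₁ L M H)) π u, Rtk6ewmNodeAt V 𝔫 j p

/-- **(D-BC) + (C4)**: the dichotomy on the two charts. -/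
def Rtk6emNode (π : ↥(mgcA A K₁)) {κ : Type}
    (V : κ → ValuationSubring ↥(rtk6diF A K₁ L M H)) : Prop :=
  ∃ q : ↥(mgcA A K₁), q ≠ 0 ∧ π ∣ q ∧
    Rtk6emChartAt A K₁ L M H π q V (rtk6diT A K₁ L M H) ∧
    Rtk6emChartAt A K₁ L M H π q V (rtk6diT A K₁ L M H)⁻¹

/-- **(FIX-inst), `hfix`**: `g` fixes the closed points of the chart `zchClosure {u}` through
which two components pass. -/
def Rtk6emFixAt (π : ↥(mgcA A K₁)) {κ : Type}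
    (V : κ → ValuationSubring ↥(rtk6diF A K₁ L M H))
    (g : SemilinearAut ↥(mgcE A K₁) ↥(rtk6diF A K₁ L M H)) (u : ↥(rtk6diF A K₁ L M H)) : Prop :=
  ∀ (𝔫 : AtPt (F := ↥(rtk6diF A K₁ L M H)) π u) (c₁ c₂ : κ), c₁ ≠ c₂ →
    atThrough 𝔫 (V c₁) → atThrough 𝔫 (V c₂) → Rtk6ewFix g 𝔫

/-- **(FIX-inst), `hcong`**: `Φ b ≡ b` modulo the closed points of the chart `zchClosure {u}`
through which two components pass. -/
def Rtk6emCongAt (π : ↥(mgcA A K₁)) {κ : Type}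
    (V : κ → ValuationSubring ↥(rtk6diF A K₁ L M H))
    (Φ : SemilinearAut ↥(mgcE A K₁) ↥(rtk6diF A K₁ L M H)) (u : ↥(rtk6diF A K₁ L M H)) : Prop :=
  ∀ (𝔫 : AtPt (F := ↥(rtk6diF A K₁ L M H)) π u) (c₁ c₂ : κ), c₁ ≠ c₂ →
    atThrough 𝔫 (V c₁) → atThrough 𝔫 (V c₂) →
      Rtk6ewCong (SemilinearAut.toRingAut Φ :
        ↥(rtk6diF A K₁ L M H) ≃+* ↥(rtk6diF A K₁ L M H)).toRingHom 1 𝔫

/-- **The non-formal inputs of piece E** at `(A, K₁)`, for the uniformizer `π` of `A′`, the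
family `V` and the automorphisms `g`, `Φ` of `F′`: the hypotheses of `rtk6ew_main_multi`. -/
structure Rtk6emInputs (π : ↥(mgcA A K₁)) {κ : Type}
    (V : κ → ValuationSubring ↥(rtk6diF A K₁ L M H))
    (g Φ : SemilinearAut ↥(mgcE A K₁) ↥(rtk6diF A K₁ L M H)) : Prop where
  /-- `π` is a uniformizer of `A′` -/
  hπ : Irreducible π
  /-- (M1), helper82 -/
  fam : Rtk6emFam A K₁ L M H π V
  /-- (SS1-inst), helper79 -/
  ss1 : Rtk6emSS1 A K₁ L M H π V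
  /-- (M4-inst) for `g`, helper79 -/
  stab_g : Rtk6emStab A K₁ L M H V g
  /-- (M4-inst) for `Φ`, helper79 -/
  stab_Φ : Rtk6emStab A K₁ L M H V Φ
  /-- (D-BC) + (C4), helper56 + helper94 -/
  node : Rtk6emNode A K₁ L M H π V
  /-- (FIX-inst), `hfix₁` -/
  fix₁ : Rtk6emFixAt A K₁ L M H π V g (rtk6diT A K₁ L M H)
  /-- (FIX-inst), `hfix₂` -/
  fix₂ : Rtk6emFixAt A K₁ L M H π V g (rtk6diT A K₁ L M H)⁻¹
  /-- (FIX-inst), `hcong₁` -/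
  cong₁ : Rtk6emCongAt A K₁ L M H π V Φ (rtk6diT A K₁ L M H)
  /-- (FIX-inst), `hcong₂` -/
  cong₂ : Rtk6emCongAt A K₁ L M H π V Φ (rtk6diT A K₁ L M H)⁻¹

/-- **(M5)** the toric constants for `y` and the exponent `n` on the family `V`. -/
def Rtk6emToric {κ : Type} (V : κ → ValuationSubring ↥(rtk6diF A K₁ L M H))
    (y : ↥(rtk6diF A K₁ L M H)) (n : ℕ) : Prop :=
  ∃ tt : κ → ↥(rtk6diF A K₁ L M H), ∀ c, y / tt c ^ n - 1 ∈ (V c).nonunits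

/-- **The data of piece E** at `(A, K₁, g, Φ)` for the function `y` (`= g x / x`) and the
exponent `n`: a uniformizer, a family and the inputs. -/
def Rtk6emData (g Φ : SemilinearAut ↥(mgcE A K₁) ↥(rtk6diF A K₁ L M H))
    (y : ↥(rtk6diF A K₁ L M H)) (n : ℕ) : Prop :=
  ∃ (π : ↥(mgcA A K₁)) (κ : Type) (V : κ → ValuationSubring ↥(rtk6diF A K₁ L M H)),
    Rtk6emInputs A K₁ L M H π V g Φ ∧ Rtk6emToric A K₁ L M H V y n

end Inputs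

/-! ### E-BASE: the formal hypotheses -/

section Base

variable {A : ValuationSubring Qb} {K₁ : IntermediateField ℚ Qb}
  (L M : ℕ) (H : Subgroup (ZMod M)ˣ)

/-- a diamond fixes the constants `A′` -/
theorem rtk6em_hΦA (δ₀ : ↥(rtk6diF A K₁ L M H) ≃ₐ[↥(mgcE A K₁)] ↥(rtk6diF A K₁ L M H)) :
    ∀ α : ↥(mgcA A K₁), ∃ α' : ↥(mgcA A K₁),
      SemilinearAut.ofAlgAut δ₀ • algebraMap ↥(mgcA A K₁) ↥(rtk6diF A K₁ L M H) α =
        algebraMap ↥(mgcA A K₁) ↥(rtk6diF A K₁ L M H) α' :=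
  fun α => ⟨α, δ₀.commutes (α : ↥(mgcE A K₁))⟩

theorem rtk6em_hΦA' (δ₀ : ↥(rtk6diF A K₁ L M H) ≃ₐ[↥(mgcE A K₁)] ↥(rtk6diF A K₁ L M H)) :
    ∀ α : ↥(mgcA A K₁), ∃ α' : ↥(mgcA A K₁),
      (SemilinearAut.ofAlgAut δ₀)⁻¹ • algebraMap ↥(mgcA A K₁) ↥(rtk6diF A K₁ L M H) α =
        algebraMap ↥(mgcA A K₁) ↥(rtk6diF A K₁ L M H) α' := by
  intro α
  refine ⟨α, ?_⟩
  rw [inv_smul_eq_iff]
  exact (δ₀.commutes (α : ↥(mgcE A K₁))).symm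

variable {L M H}

/-- a diamond fixes `t = j` -/
theorem rtk6em_hΦt {c : (ZMod M)ˣ}
    {δ₀ : ↥(rtk6diF A K₁ L M H) ≃ₐ[↥(mgcE A K₁)] ↥(rtk6diF A K₁ L M H)}
    (h : IsDiamondC ↥(mgcE A K₁) L M H c δ₀) :
    SemilinearAut.ofAlgAut δ₀ • rtk6diT A K₁ L M H = rtk6diT A K₁ L M H :=
  h.fix (rtk6diT A K₁ L M H) (jqModC_mem_full ↥(mgcE A K₁) L)

end Base

/-! ### `rtk6ew_main_multi` in the concrete setting -/

section Main

variable {A : ValuationSubring Qb} {K₁ : IntermediateField ℚ Qb}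
  {L M : ℕ} {H : Subgroup (ZMod M)ˣ} [IsDiscreteValuationRing ↥(mgcA A K₁)]

set_option maxHeartbeats 1600000 in
/-- **`rtk6ew_main_multi` in the concrete setting**, general `g`, `Φ`, `Q = 1`: for `x₀ ∈ F′^×`
with `p ^ k ∣ div x₀`, rational support and `y₀ = g x₀ / x₀` toric, `Φ y₀ / y₀` is a
`p ^ k`-th power. -/
theorem rtk6em_core (hL : L ≠ 0) (hML : M ∣ L) {r : ℕ} (hr : r.Prime) (hA : A.LiesOverPrime r)
    {p : ℕ} (hp : p.Prime) (hpr : p ≠ r)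
    {π : ↥(mgcA A K₁)} {κ : Type} {V : κ → ValuationSubring ↥(rtk6diF A K₁ L M H)}
    {g Φ : SemilinearAut ↥(mgcE A K₁) ↥(rtk6diF A K₁ L M H)}
    (hgt : g • rtk6diT A K₁ L M H = rtk6diT A K₁ L M H)
    (hgA : ∀ α : ↥(mgcA A K₁), ∃ α' : ↥(mgcA A K₁),
      g • algebraMap ↥(mgcA A K₁) ↥(rtk6diF A K₁ L M H) α =
        algebraMap ↥(mgcA A K₁) ↥(rtk6diF A K₁ L M H) α')
    (hgA' : ∀ α : ↥(mgcA A K₁), ∃ α' : ↥(mgcA A K₁),
      g⁻¹ • algebraMap ↥(mgcA A K₁) ↥(rtk6diF A K₁ L M H) α =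
        algebraMap ↥(mgcA A K₁) ↥(rtk6diF A K₁ L M H) α')
    (hΦt : Φ • rtk6diT A K₁ L M H = rtk6diT A K₁ L M H)
    (hΦA : ∀ α : ↥(mgcA A K₁), ∃ α' : ↥(mgcA A K₁),
      Φ • algebraMap ↥(mgcA A K₁) ↥(rtk6diF A K₁ L M H) α =
        algebraMap ↥(mgcA A K₁) ↥(rtk6diF A K₁ L M H) α')
    (hΦA' : ∀ α : ↥(mgcA A K₁), ∃ α' : ↥(mgcA A K₁),
      Φ⁻¹ • algebraMap ↥(mgcA A K₁) ↥(rtk6diF A K₁ L M H) α =
        algebraMap ↥(mgcA A K₁) ↥(rtk6diF A K₁ L M H) α')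
    (hI : Rtk6emInputs A K₁ L M H π V g Φ)
    {x₀ : ↥(rtk6diF A K₁ L M H)} (hx₀ : x₀ ≠ 0) (k : ℕ)
    (hm : ∀ P : Place ↥(mgcE A K₁) ↥(rtk6diF A K₁ L M H), ((p ^ k : ℕ) : ℤ) ∣ P.ord x₀)
    (hrat : ∀ P : Place ↥(mgcE A K₁) ↥(rtk6diF A K₁ L M H), P.ord x₀ ≠ 0 →
      ∀ f ∈ P.toValuationSubring, ∃ c : ↥(mgcE A K₁),
        f - algebraMap ↥(mgcE A K₁) ↥(rtk6diF A K₁ L M H) c ∈ P.toValuationSubring.nonunits)
    (htoric : Rtk6emToric A K₁ L M H V (g • x₀ / x₀) (p ^ k)) :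
    ∃ h : ↥(rtk6diF A K₁ L M H), h ^ (p ^ k) = Φ • (g • x₀ / x₀) / (g • x₀ / x₀) := by
  haveI := rtk6di_finiteDimensional A K₁ L M H hL hML
  haveI : Finite κ := hI.fam.hfin
  have ht := rtk6di_transcendental A K₁ L M H
  have ht' : Transcendental ↥(mgcE A K₁) (rtk6diT A K₁ L M H)⁻¹ := zch_transcendental_inv ht
  haveI : FiniteDimensional (↥(mgcE A K₁))⟮(rtk6diT A K₁ L M H)⁻¹⟯ ↥(rtk6diF A K₁ L M H) :=
    at_finiteDimensional_inv (rtk6diT A K₁ L M H)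
  haveI : IsNoetherianRing ↥(zchClosure (A₀ := ↥(mgcA A K₁))
      ({rtk6diT A K₁ L M H} : Set ↥(rtk6diF A K₁ L M H))) :=
    chart_closure_isNoetherianRing (A₀ := ↥(mgcA A K₁)) (E := ↥(mgcE A K₁)) ht
  haveI : IsNoetherianRing ↥(zchClosure (A₀ := ↥(mgcA A K₁))
      ({(rtk6diT A K₁ L M H)⁻¹} : Set ↥(rtk6diF A K₁ L M H))) :=
    chart_closure_isNoetherianRing (A₀ := ↥(mgcA A K₁)) (E := ↥(mgcE A K₁)) ht'
  have hM : ((p : ℕ) : Qb) ∉ A.nonunits := by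
    have := Fermat.Agent.S31.natCast_pow_not_mem_nonunits A hp hr (Ne.symm hpr) hA 1
    rwa [pow_one] at this
  have hE : beta0Field A ≤ mgcE A K₁ := le_sup_left
  obtain ⟨ζ, hζ⟩ := beta0Ring_exists_primitiveRoot (A := A) (K₀ := mgcE A K₁) hE hp.ne_zero hM
  have hpu : IsUnit ((p : ℕ) : ↥(mgcA A K₁)) := beta0Ring_hpu hM
  have hunit := beta0Ring_hunit (A := A) (K₀ := mgcE A K₁) hr hA hE hp.ne_zero hM
  obtain ⟨q, hq0, hqπ, ⟨R₁, _, j₁, p₁, hram₁, hjp₁, hnode₁⟩,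
    ⟨R₂, _, j₂, p₂, hram₂, hjp₂, hnode₂⟩⟩ := hI.node
  obtain ⟨tt, htt⟩ := htoric
  have key := rtk6ew_main_multi hI.hπ ht (rtk6di_hcl A K₁ L M H) hp hpu hζ hunit V
    hI.fam.hinj hI.fam.hBV₁ hI.fam.hBV₂ hI.fam.hπV hI.ss1 hI.fam.harch hI.fam.hVloc₁
    hI.fam.hVloc₂ g hgt hI.stab_g hgA hgA' Φ hΦt hI.stab_Φ hΦA hΦA'
    q hq0 hqπ j₁ p₁ hram₁ hjp₁ j₂ p₂ hram₂ hjp₂ hnode₁ hnode₂ 1
    hI.fix₁ hI.fix₂
    (SemilinearAut.toRingAut Φ : ↥(rtk6diF A K₁ L M H) ≃+* ↥(rtk6diF A K₁ L M H)).toRingHom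
    (fun x => rfl) hI.cong₁ hI.cong₂ hx₀ k
    (rtk6rat_hfin (mgcE A K₁) L M H hL hML x₀ hx₀) hm hrat tt htt
  obtain ⟨h, hh⟩ := key
  refine ⟨h, ?_⟩
  rw [hh, pow_one]
  rfl

end Main

/-! ### The two cases: `Φ` = a diamond at `r` (χ-K), `Φ = g` (UNIP_H) -/

section Cases

variable {A : ValuationSubring Qb} {K₁ : IntermediateField ℚ Qb}
  {L M : ℕ} {H : Subgroup (ZMod M)ˣ}

theorem rtk6em_field_aux {F : Type*} [Field F] (z a b u : F) (ha : a ≠ 0) (hb : b ≠ 0)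
    (hu : u ≠ 0) : z / a / (b / u) = z * u / (a * b) := by
  field_simp

/-- `g x / x = χ` for `x = δ₀ (g u₀) / u₀`, `g = σ̂` -/
theorem rtk6em_chi_eq (σ : Qb ≃ₐ[ℚ] Qb) (hσ : ∀ x ∈ mgcE A K₁, σ x ∈ mgcE A K₁)
    (δ₀ : ↥(rtk6diF A K₁ L M H) ≃ₐ[↥(mgcE A K₁)] ↥(rtk6diF A K₁ L M H))
    {u₀ : ↥(rtk6diF A K₁ L M H)} (hu₀ : u₀ ≠ 0) :
    rtk6diGal L M H σ hσ • (δ₀ (rtk6diGal L M H σ hσ • u₀) / u₀) /
        (δ₀ (rtk6diGal L M H σ hσ • u₀) / u₀)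
      = rtk6eChi (mgcE A K₁) L M H σ hσ δ₀ u₀ := by
  have hg : ∀ a b : ↥(rtk6diF A K₁ L M H), rtk6diGal L M H σ hσ • (a / b) =
      rtk6diGal L M H σ hσ • a / rtk6diGal L M H σ hσ • b := fun a b =>
    map_div₀ (SemilinearAut.toRingAut (rtk6diGal L M H σ hσ)) a b
  have h1 : rtk6diGal L M H σ hσ • u₀ ≠ 0 :=
    (map_ne_zero (SemilinearAut.toRingAut (rtk6diGal L M H σ hσ))).mpr hu₀
  have h2 : δ₀ (rtk6diGal L M H σ hσ • u₀) ≠ 0 := (map_ne_zero δ₀).mpr h1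
  rw [hg, rtk6em_field_aux _ _ _ _ h1 h2 hu₀]
  rfl

/-- `x = δ₀ (g u₀) / u₀ ≠ 0` -/
theorem rtk6em_x_ne_zero (σ : Qb ≃ₐ[ℚ] Qb) (hσ : ∀ x ∈ mgcE A K₁, σ x ∈ mgcE A K₁)
    (δ₀ : ↥(rtk6diF A K₁ L M H) ≃ₐ[↥(mgcE A K₁)] ↥(rtk6diF A K₁ L M H))
    {u₀ : ↥(rtk6diF A K₁ L M H)} (hu₀ : u₀ ≠ 0) :
    δ₀ (rtk6diGal L M H σ hσ • u₀) / u₀ ≠ 0 :=
  div_ne_zero ((map_ne_zero δ₀).mpr
    ((map_ne_zero (SemilinearAut.toRingAut (rtk6diGal L M H σ hσ))).mpr hu₀)) hu₀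

/-- `m ∣ div u₀ ⇒ m ∣ div x`, `x = δ₀ (g u₀) / u₀` -/
theorem rtk6em_dvd_ord_x (σ : Qb ≃ₐ[ℚ] Qb) (hσ : ∀ x ∈ mgcE A K₁, σ x ∈ mgcE A K₁)
    (δ₀ : ↥(rtk6diF A K₁ L M H) ≃ₐ[↥(mgcE A K₁)] ↥(rtk6diF A K₁ L M H))
    (m : ℤ) {u₀ : ↥(rtk6diF A K₁ L M H)} (hu₀ : u₀ ≠ 0)
    (h : ∀ P : Place ↥(mgcE A K₁) ↥(rtk6diF A K₁ L M H), m ∣ P.ord u₀)
    (P : Place ↥(mgcE A K₁) ↥(rtk6diF A K₁ L M H)) :
    m ∣ P.ord (δ₀ (rtk6diGal L M H σ hσ • u₀) / u₀) := by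
  have h1 : ∀ P : Place ↥(mgcE A K₁) ↥(rtk6diF A K₁ L M H),
      m ∣ P.ord (rtk6diGal L M H σ hσ • u₀) :=
    rtk6ea_dvd_ord_smul (rtk6diGal L M H σ hσ) m h
  have h2 : ∀ P : Place ↥(mgcE A K₁) ↥(rtk6diF A K₁ L M H),
      m ∣ P.ord (δ₀ (rtk6diGal L M H σ hσ • u₀)) := fun P =>
    rtk6ea_dvd_ord_smul (SemilinearAut.ofAlgAut δ₀) m h1 P
  have hne : δ₀ (rtk6diGal L M H σ hσ • u₀) ≠ 0 :=
    (map_ne_zero δ₀).mpr
      ((map_ne_zero (SemilinearAut.toRingAut (rtk6diGal L M H σ hσ))).mpr hu₀)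
  rw [div_eq_mul_inv, P.ord_mul hne (inv_ne_zero hu₀), P.ord_inv]
  exact dvd_add (h2 P) ((dvd_neg).mpr (h P))

variable [IsDiscreteValuationRing ↥(mgcA A K₁)]

set_option maxHeartbeats 1600000 in
/-- **(χ-K) over `E′`**: `Φ = δ′₀` (a diamond), `x = δ₀ (σ̂ u₀) / u₀`, `χ = σ̂ x / x`:
`δ′₀ χ / χ` is a `p ^ k`-th power of `F′`. -/
theorem rtk6em_chi (hL : L ≠ 0) (hML : M ∣ L) {r : ℕ} (hr : r.Prime) (hA : A.LiesOverPrime r)
    {p : ℕ} (hp : p.Prime) (hpr : p ≠ r)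
    {σ : Qb ≃ₐ[ℚ] Qb} (hσI : σ ∈ A.inertiaSubgroupIn ℚ)
    {hσ : ∀ x ∈ mgcE A K₁, σ x ∈ mgcE A K₁}
    (δ₀ : ↥(rtk6diF A K₁ L M H) ≃ₐ[↥(mgcE A K₁)] ↥(rtk6diF A K₁ L M H))
    {c' : (ZMod M)ˣ}
    {δ₀' : ↥(rtk6diF A K₁ L M H) ≃ₐ[↥(mgcE A K₁)] ↥(rtk6diF A K₁ L M H)}
    (hδ₀' : IsDiamondC ↥(mgcE A K₁) L M H c' δ₀')
    {u₀ : ↥(rtk6diF A K₁ L M H)} (hu₀ : u₀ ≠ 0) (k : ℕ)
    (hm : ∀ P : Place ↥(mgcE A K₁) ↥(rtk6diF A K₁ L M H), ((p ^ k : ℕ) : ℤ) ∣ P.ord u₀)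
    (hrat : ∀ P : Place ↥(mgcE A K₁) ↥(rtk6diF A K₁ L M H),
      P.ord (δ₀ (rtk6diGal L M H σ hσ • u₀) / u₀) ≠ 0 →
      ∀ f ∈ P.toValuationSubring, ∃ c : ↥(mgcE A K₁),
        f - algebraMap ↥(mgcE A K₁) ↥(rtk6diF A K₁ L M H) c ∈ P.toValuationSubring.nonunits)
    (hD : Rtk6emData A K₁ L M H (rtk6diGal L M H σ hσ) (SemilinearAut.ofAlgAut δ₀')
      (rtk6eChi (mgcE A K₁) L M H σ hσ δ₀ u₀) (p ^ k)) :
    ∃ h : ↥(rtk6diF A K₁ L M H),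
      h ^ (p ^ k) = δ₀' (rtk6eChi (mgcE A K₁) L M H σ hσ δ₀ u₀) /
        rtk6eChi (mgcE A K₁) L M H σ hσ δ₀ u₀ := by
  have hσD : σ ∈ A.decompositionSubgroup ℚ := kron_mem_decomposition_of_mem_inertia hσI
  obtain ⟨π, κ, V, hI, htor⟩ := hD
  have hχ := rtk6em_chi_eq σ hσ δ₀ hu₀
  rw [← hχ] at htor ⊢
  exact rtk6em_core hL hML hr hA hp hpr (rtk6di_smul_T L M H σ hσ) (rtk6dv_hgA L M H hσD hσ)
    (rtk6dv_hgA_inv L M H hσD hσ) (rtk6em_hΦt hδ₀') (rtk6em_hΦA L M H δ₀')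
    (rtk6em_hΦA' L M H δ₀') hI (rtk6em_x_ne_zero σ hσ δ₀ hu₀) k
    (rtk6em_dvd_ord_x σ hσ δ₀ _ hu₀ hm) hrat htor

set_option maxHeartbeats 1600000 in
/-- **(UNIP_H) over `E′`**: `Φ = g = σ̂`, `x = u₀`: `(σ̂ − 1)² u₀` is a `p ^ k`-th power of
`F′`. -/
theorem rtk6em_unip (hL : L ≠ 0) (hML : M ∣ L) {r : ℕ} (hr : r.Prime) (hA : A.LiesOverPrime r)
    {p : ℕ} (hp : p.Prime) (hpr : p ≠ r)
    {σ : Qb ≃ₐ[ℚ] Qb} (hσI : σ ∈ A.inertiaSubgroupIn ℚ)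
    {hσ : ∀ x ∈ mgcE A K₁, σ x ∈ mgcE A K₁}
    {u₀ : ↥(rtk6diF A K₁ L M H)} (hu₀ : u₀ ≠ 0) (k : ℕ)
    (hm : ∀ P : Place ↥(mgcE A K₁) ↥(rtk6diF A K₁ L M H), ((p ^ k : ℕ) : ℤ) ∣ P.ord u₀)
    (hrat : ∀ P : Place ↥(mgcE A K₁) ↥(rtk6diF A K₁ L M H), P.ord u₀ ≠ 0 →
      ∀ f ∈ P.toValuationSubring, ∃ c : ↥(mgcE A K₁),
        f - algebraMap ↥(mgcE A K₁) ↥(rtk6diF A K₁ L M H) c ∈ P.toValuationSubring.nonunits)
    (hD : Rtk6emData A K₁ L M H (rtk6diGal L M H σ hσ) (rtk6diGal L M H σ hσ)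
      (rtk6diGal L M H σ hσ • u₀ / u₀) (p ^ k)) :
    ∃ h : ↥(rtk6diF A K₁ L M H), h ^ (p ^ k) = rtk6eUnip (mgcE A K₁) L M H σ hσ u₀ := by
  have hσD : σ ∈ A.decompositionSubgroup ℚ := kron_mem_decomposition_of_mem_inertia hσI
  obtain ⟨π, κ, V, hI, htor⟩ := hD
  exact rtk6em_core hL hML hr hA hp hpr (rtk6di_smul_T L M H σ hσ) (rtk6dv_hgA L M H hσD hσ)
    (rtk6dv_hgA_inv L M H hσD hσ) (rtk6di_smul_T L M H σ hσ) (rtk6dv_hgA L M H hσD hσ)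
    (rtk6dv_hgA_inv L M H hσD hσ) hI hu₀ k hm hrat htor

end Cases

end Fermat.Agent.RT.K6

end
end ZBRT_032_4

/-! ### bundled: `Fermat.Agent.RT.K6.EMainPP` -/
section ZBRT_032_5
/-
K-machine, piece K6, piece **E-MAIN** (helper18), part 2: **the targets `ChiFieldPPAt L M H r`,
`UnipFieldPPAt L M H r` of `RT/K6/EFinal.lean` from the data `Rtk6emData`** (`RT/K6/EMain.lean`)
at every `(A, K₁, σ, …)`.

The provider of the data chooses a finite set `S ⊆ ℚ̄` (depending on everything, also on `u`, `p`,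
`k`: it may contain `ϖ₁`, the roots of unity and the toric constants); the field `K₁` is then
chosen here: a Galois number field containing `S`, a field of definition of `u` and over which
the support of the divisor is rational (E-RAT, helper12); `E′ = ℚ̄^I · K₁`, `A′ = A ∩ E′` is a
discrete valuation ring, `σ` stabilises `E′`, and the diamonds `δ₀`, `δ′₀` of `F′` exist.

* `rtk6em_chiFieldPPAt`  : the data for `g = σ̂`, `Φ = δ′₀`, `y = rtk6eChi … u₀` ⇒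
  `ChiFieldPPAt L M H r`;
* `rtk6em_unipFieldPPAt` : the data for `g = Φ = σ̂`, `y = σ̂ u₀ / u₀` ⇒ `UnipFieldPPAt L M H r`.
-/

set_option autoImplicit false
set_option linter.style.haveILetI false
set_option linter.unusedSectionVars false
set_option linter.unusedVariables false

noncomputable section

namespace Fermat.Agent.RT.K6

open ModularCurve AlgebraicCurve Fermat.Agent.ES Fermat.Agent.ES.G2 Fermat.Agent.INJ
open Fermat.Agent.UNIP Fermat.Agent.STB Fermat.Agent.ES1 Fermat.Agent.ES1.G2 IntermediateField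

section Final

variable {L M : ℕ} {H : Subgroup (ZMod M)ˣ} {r : ℕ}

/-- rationality of the support over `E ⊇ K₀`, in the form of `hrat` -/
theorem rtk6em_hrat_of_rat {E : IntermediateField ℚ Qb} {x : fieldBar L M H}
    (hrat : ∀ u₀ : fieldC E L M H, nfEmbH E L M H u₀ = x →
      ∀ (Q : Place E (fieldC E L M H)) (s : E ≃+* E) (σ : Qb ≃ₐ[ℚ] Qb),
        (∀ a : E, σ (a : Qb) = ((s a : E) : Qb)) →
        (rtk6diGalGen L M H s • Q).ord u₀ ≠ 0 →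
          ∀ f ∈ Q.toValuationSubring, ∃ c : E,
            f - algebraMap E (fieldC E L M H) c ∈ Q.toValuationSubring.nonunits)
    (x₀ : fieldC E L M H) (hx₀ : nfEmbH E L M H x₀ = x)
    (P : Place E (fieldC E L M H)) (hP : P.ord x₀ ≠ 0) :
    ∀ f ∈ P.toValuationSubring, ∃ c : E,
      f - algebraMap E (fieldC E L M H) c ∈ P.toValuationSubring.nonunits := by
  have e : rtk6diGalGen L M H (1 : E ≃+* E) • P = P := by rw [map_one, one_smul]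
  refine hrat x₀ hx₀ P 1 1 (fun a => rfl) ?_
  rw [e]
  exact hP

set_option maxHeartbeats 1600000 in
/-- **E-MAIN, (χ-K).**  `ChiFieldPPAt L M H r` from the data at every `(A, K₁, σ, δ₀, δ′₀, u₀)`,
`K₁` a Galois number field containing a finite set chosen by the provider. -/
theorem rtk6em_chiFieldPPAt (hL : L ≠ 0) (hML : M ∣ L) (hr : r.Prime)
    (h : ∀ A : ValuationSubring Qb, A.LiesOverPrime r → ∀ p : ℕ, p.Prime → p ≠ r → ∀ k : ℕ,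
      ∀ σ ∈ A.inertiaSubgroupIn ℚ, ∀ c : (ZMod M)ˣ, IsCycAt M r σ c →
      ∀ c' : (ZMod M)ˣ, IsAtR M r c' →
      ∀ u : fieldBar L M H, u ≠ 0 →
      (∀ P : Place QbH (fieldBar L M H), ((p ^ k : ℕ) : ℤ) ∣ P.ord u) →
      ∃ S : Finset Qb, ∀ (K₁ : IntermediateField ℚ Qb) [NumberField K₁] [IsGalois ℚ K₁]
        [IsDiscreteValuationRing ↥(mgcA A K₁)], (∀ s ∈ S, s ∈ K₁) →
        ∀ (hσ : ∀ x ∈ mgcE A K₁, σ x ∈ mgcE A K₁)
          (δ₀ δ₀' : ↥(rtk6diF A K₁ L M H) ≃ₐ[↥(mgcE A K₁)] ↥(rtk6diF A K₁ L M H)),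
          IsDiamondC ↥(mgcE A K₁) L M H c δ₀ → IsDiamondC ↥(mgcE A K₁) L M H c' δ₀' →
          ∀ u₀ : ↥(rtk6diF A K₁ L M H), nfEmbH (mgcE A K₁) L M H u₀ = u →
            Rtk6emData A K₁ L M H (rtk6diGal L M H σ hσ) (SemilinearAut.ofAlgAut δ₀')
              (rtk6eChi (mgcE A K₁) L M H σ hσ δ₀ u₀) (p ^ k)) :
    ChiFieldPPAt L M H r := by
  intro A hA p hp hpr k σ hσI c hc c' hc' u hu hdiv
  obtain ⟨S, hS⟩ := h A hA p hp hpr k σ hσI c hc c' hc' u hu hdiv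
  classical
  -- a number field of definition
  obtain ⟨K', hK'fin, hK'S, hK'⟩ := rtk6di_exists_descent L M H S {u}
  -- rationality of the support of `x = δ (σ u) / u`
  obtain ⟨δ, hδ⟩ := rtk6diw_exists_diamondH (H := H) hL hML c
  have hx : rtk6eaX σ δ u ≠ 0 := rtk6eaX_ne_zero σ δ hu
  obtain ⟨K₁, hK'K₁, hK₁fin, hK₁gal, hrat⟩ :=
    rtk6rat_exists_field_rational L M H hL hML (rtk6eaX σ δ u) hx K' hK'fin
  haveI : NumberField K₁ := @NumberField.mk _ _ inferInstance hK₁fin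
  haveI : IsGalois ℚ K₁ := hK₁gal
  haveI : Normal ℚ K₁ := hK₁gal.to_normal
  haveI : IsDiscreteValuationRing ↥(mgcA A K₁) := beta0Ring_isDVR_sup K₁ hr hA
  have hK₁E : K₁ ≤ mgcE A K₁ := le_sup_right
  have hK'E : K' ≤ mgcE A K₁ := hK'K₁.trans hK₁E
  obtain ⟨u₀, hu₀⟩ := hK' (mgcE A K₁) hK'E u (Finset.mem_singleton_self u)
  have hσ : ∀ x ∈ mgcE A K₁, σ x ∈ mgcE A K₁ := mga_stable_beta0_sup hσI K₁
  have hu₀0 : u₀ ≠ 0 := by
    rintro rfl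
    apply hu
    rw [← hu₀, map_zero]
  haveI : Algebra.IsAlgebraic ℚ Qb := AlgebraicClosure.isAlgebraic ℚ
  haveI : Algebra.IsAlgebraic ℚ ↥(mgcE A K₁) :=
    Algebra.IsAlgebraic.of_injective (mgcE A K₁).val Subtype.val_injective
  haveI : NeZero M := ⟨fun h0 => hL (by rw [h0] at hML; exact Nat.eq_zero_of_zero_dvd hML)⟩
  -- the diamonds of `F′`
  obtain ⟨δ₀, hδ₀⟩ := rtk6d0_exists_diamond ↥(mgcE A K₁) H hL hML c
  obtain ⟨δ₀', hδ₀'⟩ := rtk6d0_exists_diamond ↥(mgcE A K₁) H hL hML c'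
  -- the data
  have hD := hS K₁ (fun s hs => hK'K₁ (hK'S s hs)) hσ δ₀ δ₀' hδ₀ hδ₀' u₀ hu₀
  -- `x₀ = δ₀ (σ̂ u₀) / u₀` is a model of `x`
  have hemb_x : nfEmbH (mgcE A K₁) L M H (δ₀ (rtk6diGal L M H σ hσ • u₀) / u₀)
      = rtk6eaX σ δ u := by
    rw [map_div₀, rtk6e_nfEmbH_diamond hδ₀ hδ, rtk6diGal_smul, nfEmbH_rtk6diAct, hu₀]
    rfl
  have hm : ∀ P : Place ↥(mgcE A K₁) ↥(rtk6diF A K₁ L M H), ((p ^ k : ℕ) : ℤ) ∣ P.ord u₀ := by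
    refine rtk6rat_dvd_ord (mgcE A K₁) L M H _ u₀ ?_
    rw [hu₀]
    exact hdiv
  obtain ⟨h₀, hh₀⟩ := rtk6em_chi hL hML hr hA hp hpr hσI δ₀ hδ₀' hu₀0 k hm
    (rtk6em_hrat_of_rat (hrat (mgcE A K₁) hK₁E) _ hemb_x) hD
  exact ⟨mgcE A K₁, hσ, δ₀, δ₀', u₀, hδ₀, hδ₀', hu₀, h₀, hh₀⟩

set_option maxHeartbeats 1600000 in
/-- **E-MAIN, (UNIP_H).**  `UnipFieldPPAt L M H r` from the data at every `(A, K₁, σ, u₀)`, `K₁`
a Galois number field containing a finite set chosen by the provider. -/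
theorem rtk6em_unipFieldPPAt (hL : L ≠ 0) (hML : M ∣ L) (hr : r.Prime)
    (h : ∀ A : ValuationSubring Qb, A.LiesOverPrime r → ∀ p : ℕ, p.Prime → p ≠ r → ∀ k : ℕ,
      ∀ σ ∈ A.inertiaSubgroupIn ℚ,
      ∀ u : fieldBar L M H, u ≠ 0 →
      (∀ P : Place QbH (fieldBar L M H), ((p ^ k : ℕ) : ℤ) ∣ P.ord u) →
      ∃ S : Finset Qb, ∀ (K₁ : IntermediateField ℚ Qb) [NumberField K₁] [IsGalois ℚ K₁]
        [IsDiscreteValuationRing ↥(mgcA A K₁)], (∀ s ∈ S, s ∈ K₁) →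
        ∀ (hσ : ∀ x ∈ mgcE A K₁, σ x ∈ mgcE A K₁)
          (u₀ : ↥(rtk6diF A K₁ L M H)), nfEmbH (mgcE A K₁) L M H u₀ = u →
            Rtk6emData A K₁ L M H (rtk6diGal L M H σ hσ) (rtk6diGal L M H σ hσ)
              (rtk6diGal L M H σ hσ • u₀ / u₀) (p ^ k)) :
    UnipFieldPPAt L M H r := by
  intro A hA p hp hpr k σ hσI u hu hdiv
  obtain ⟨S, hS⟩ := h A hA p hp hpr k σ hσI u hu hdiv
  classical
  obtain ⟨K', hK'fin, hK'S, hK'⟩ := rtk6di_exists_descent L M H S {u}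
  obtain ⟨K₁, hK'K₁, hK₁fin, hK₁gal, hrat⟩ :=
    rtk6rat_exists_field_rational L M H hL hML u hu K' hK'fin
  haveI : NumberField K₁ := @NumberField.mk _ _ inferInstance hK₁fin
  haveI : IsGalois ℚ K₁ := hK₁gal
  haveI : Normal ℚ K₁ := hK₁gal.to_normal
  haveI : IsDiscreteValuationRing ↥(mgcA A K₁) := beta0Ring_isDVR_sup K₁ hr hA
  have hK₁E : K₁ ≤ mgcE A K₁ := le_sup_right
  have hK'E : K' ≤ mgcE A K₁ := hK'K₁.trans hK₁E
  obtain ⟨u₀, hu₀⟩ := hK' (mgcE A K₁) hK'E u (Finset.mem_singleton_self u)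
  have hσ : ∀ x ∈ mgcE A K₁, σ x ∈ mgcE A K₁ := mga_stable_beta0_sup hσI K₁
  have hu₀0 : u₀ ≠ 0 := by
    rintro rfl
    apply hu
    rw [← hu₀, map_zero]
  have hD := hS K₁ (fun s hs => hK'K₁ (hK'S s hs)) hσ u₀ hu₀
  have hm : ∀ P : Place ↥(mgcE A K₁) ↥(rtk6diF A K₁ L M H), ((p ^ k : ℕ) : ℤ) ∣ P.ord u₀ := by
    refine rtk6rat_dvd_ord (mgcE A K₁) L M H _ u₀ ?_
    rw [hu₀]
    exact hdiv
  obtain ⟨h₀, hh₀⟩ := rtk6em_unip hL hML hr hA hp hpr hσI hu₀0 k hm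
    (rtk6em_hrat_of_rat (hrat (mgcE A K₁) hK₁E) u₀ hu₀) hD
  exact ⟨mgcE A K₁, hσ, u₀, hu₀, h₀, hh₀⟩

end Final

end Fermat.Agent.RT.K6

end
end ZBRT_032_5

/-! ### bundled: `Fermat.Agent.RT.K6.DIFam` -/
section ZBRT_032_6
/-
K-machine, piece K6 / D-I (helper82), part 3 = (M1) of `NOTES/RT-K6-D.md` v5:
THE FAMILY `κ` OF ALL CONJUGATES of the two basic vertical valuation rings — generic part.

`F = fieldC K L M H`, `F₀ = modularFunctionFieldFullC K L` (`rtk6diIncl : F₀ → F`).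
* `rtk6dfGam K L M H : Subgroup (F ≃ₐ[K] F)` : `Γ` = the automorphisms of `F` over `K` which fix
  the `Γ₀(L)`-field; `IsDiamondC.mem_gam` (the diamonds lie in `Γ`), `rtk6df_isDiamond` (every
  element of `Γ` is a diamond: `rtk6d0_galois`), `rtk6df_finite` (`Γ` is finite);
  `rtk6df_gam_adjoin` (`Γ` fixes the chart rings `A′[incl u₀]`), `rtk6df_gam_const`;
* `Rtk6dfIdx V₂` : the index type `κ = {W // ∃ γ ∈ Γ, ∃ b, W = (V₂ b).comap γ}` of the conjugates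
  of a pair `V₂ : Bool → ValuationSubring F`; `rtk6dfVal : κ → ValuationSubring F` (injective),
  `rtk6dfBase b : κ`, `rtk6dfComap γ c : κ` (`Γ` permutes `κ`), `rtk6df_finite_idx`,
  `rtk6df_forall` (induction principle);
* transport along `γ`: `rtk6df_val_comap_eq_one_iff`, `rtk6df_comap_comap`.
-/

set_option autoImplicit false
set_option linter.style.haveILetI false
set_option linter.unusedSectionVars false
set_option linter.unusedVariables false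

noncomputable section

namespace Fermat.Agent.RT.K6

open ModularCurve AlgebraicCurve Fermat.Agent.ES Fermat.Agent.ES.G2 Fermat.Agent.INJ
open Fermat.Agent.UNIP Fermat.Agent.ES1 Fermat.Agent.ES1.G2 Fermat.Agent.AL IntermediateField

/-! ### The group `Γ` -/

section Gam

variable (K : Type) [Field K] (L M : ℕ) (H : Subgroup (ZMod M)ˣ)

/-- `Γ`: the automorphisms of `fieldC K L M H` over `K` fixing the `Γ₀(L)`-field. -/
def rtk6dfGam : Subgroup (↥(fieldC K L M H) ≃ₐ[K] ↥(fieldC K L M H)) where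
  carrier := {γ | ∀ x : ↥(modularFunctionFieldFullC K L),
    γ (rtk6diIncl L M H x) = rtk6diIncl L M H x}
  mul_mem' := by
    intro a b ha hb x
    rw [AlgEquiv.mul_apply, hb x, ha x]
  one_mem' := fun _ => rfl
  inv_mem' := by
    intro a ha x
    have h := ha x
    calc a⁻¹ (rtk6diIncl L M H x) = a⁻¹ (a (rtk6diIncl L M H x)) := by rw [h]
      _ = rtk6diIncl L M H x := a.symm_apply_apply _

variable {K L M H}

theorem mem_rtk6dfGam {γ : ↥(fieldC K L M H) ≃ₐ[K] ↥(fieldC K L M H)} :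
    γ ∈ rtk6dfGam K L M H ↔
      ∀ x : ↥(modularFunctionFieldFullC K L), γ (rtk6diIncl L M H x) = rtk6diIncl L M H x :=
  Iff.rfl

/-- the diamonds lie in `Γ` -/
theorem IsDiamondC.mem_gam {c : (ZMod M)ˣ} {δ : ↥(fieldC K L M H) ≃ₐ[K] ↥(fieldC K L M H)}
    (h : IsDiamondC K L M H c δ) : δ ∈ rtk6dfGam K L M H := fun x =>
  h.fix _ (by rw [rtk6diIncl_coe]; exact x.2)

/-- elements of `Γ` fix every element whose expansion lies in the `Γ₀(L)`-field -/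
theorem rtk6df_gam_fix {γ : ↥(fieldC K L M H) ≃ₐ[K] ↥(fieldC K L M H)}
    (hγ : γ ∈ rtk6dfGam K L M H) (f : ↥(fieldC K L M H))
    (hf : (f : LaurentSeries K) ∈ modularFunctionFieldFullC K L) : γ f = f := by
  have e : f = rtk6diIncl L M H ⟨(f : LaurentSeries K), hf⟩ :=
    Subtype.ext (by rw [rtk6diIncl_coe])
  rw [e]
  exact hγ _

/-- `Γ` fixes `j` -/
theorem rtk6df_gam_J {γ : ↥(fieldC K L M H) ≃ₐ[K] ↥(fieldC K L M H)}
    (hγ : γ ∈ rtk6dfGam K L M H) : γ (rtk6diJ K L M H) = rtk6diJ K L M H :=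
  hγ _

/-- `Γ` fixes the chart rings of the `Γ₀(L)`-field -/
theorem rtk6df_gam_adjoin (A' : ValuationSubring K)
    {γ : ↥(fieldC K L M H) ≃ₐ[K] ↥(fieldC K L M H)} (hγ : γ ∈ rtk6dfGam K L M H)
    {u₀ : ↥(modularFunctionFieldFullC K L)} {s : ↥(fieldC K L M H)}
    (hs : s ∈ Algebra.adjoin ↥A' ({rtk6diIncl L M H u₀} : Set ↥(fieldC K L M H))) :
    γ s = s := by
  obtain ⟨s₀, -, rfl⟩ := rtk6dv_exists_of_mem_adjoin hs
  exact hγ s₀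

variable [CharZero K] [Algebra.IsAlgebraic ℚ K] [NeZero M]

/-- an element of `Γ` as an automorphism over the `Γ₀(L)`-field -/
def rtk6dfToAlg (γ : ↥(fieldC K L M H) ≃ₐ[K] ↥(fieldC K L M H))
    (hγ : γ ∈ rtk6dfGam K L M H) :
    letI := kdlAlg (full_le_fieldC K L M H)
    ↥(fieldC K L M H) ≃ₐ[↥(modularFunctionFieldFullC K L)] ↥(fieldC K L M H) :=
  letI := kdlAlg (full_le_fieldC K L M H)
  { γ.toRingEquiv with
    commutes' := fun x => by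
      have e : algebraMap ↥(modularFunctionFieldFullC K L) ↥(fieldC K L M H) x =
          rtk6diIncl L M H x := Subtype.ext (by rw [kdlAlg_coe, rtk6diIncl_coe])
      show γ (algebraMap ↥(modularFunctionFieldFullC K L) ↥(fieldC K L M H) x) = _
      rw [e]
      exact hγ x }

theorem rtk6dfToAlg_apply (γ : ↥(fieldC K L M H) ≃ₐ[K] ↥(fieldC K L M H))
    (hγ : γ ∈ rtk6dfGam K L M H) (x : ↥(fieldC K L M H)) :
    letI := kdlAlg (full_le_fieldC K L M H)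
    rtk6dfToAlg γ hγ x = γ x := rfl

/-- **every element of `Γ` is a diamond** -/
theorem rtk6df_isDiamond (hL : L ≠ 0) (hML : M ∣ L)
    {γ : ↥(fieldC K L M H) ≃ₐ[K] ↥(fieldC K L M H)} (hγ : γ ∈ rtk6dfGam K L M H) :
    ∃ c : (ZMod M)ˣ, IsDiamondC K L M H c γ := by
  letI := kdlAlg (full_le_fieldC K L M H)
  obtain ⟨-, -, -, hall⟩ := rtk6d0_galois K H hL hML
  obtain ⟨c, σ, hσ, hfσ⟩ := hall (rtk6dfToAlg γ hγ)
  have e : γ = σ := AlgEquiv.ext fun x => hfσ x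
  exact ⟨c, e ▸ hσ⟩

/-- **`Γ` is finite** -/
theorem rtk6df_finite (hL : L ≠ 0) (hML : M ∣ L) : Finite ↥(rtk6dfGam K L M H) := by
  letI := kdlAlg (full_le_fieldC K L M H)
  obtain ⟨hfin, -, -, -⟩ := rtk6d0_galois K H hL hML
  haveI := hfin
  haveI : Finite (↥(fieldC K L M H) ≃ₐ[↥(modularFunctionFieldFullC K L)] ↥(fieldC K L M H)) :=
    Finite.of_fintype _
  refine Finite.of_injective
    (fun γ : ↥(rtk6dfGam K L M H) => rtk6dfToAlg (γ : ↥(fieldC K L M H) ≃ₐ[K] _) γ.2) ?_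
  intro a b hab
  apply Subtype.ext
  apply AlgEquiv.ext
  intro x
  have h := congrArg (fun f : ↥(fieldC K L M H) ≃ₐ[↥(modularFunctionFieldFullC K L)]
    ↥(fieldC K L M H) => f x) hab
  exact h

end Gam

/-! ### The family of conjugates -/

section Idx

variable {K : Type} [Field K] {L M : ℕ} {H : Subgroup (ZMod M)ˣ}

/-- transport of a valuation subring: `W.comap γ = γ⁻¹ W` -/
def rtk6dfCo (W : ValuationSubring ↥(fieldC K L M H))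
    (γ : ↥(fieldC K L M H) ≃ₐ[K] ↥(fieldC K L M H)) : ValuationSubring ↥(fieldC K L M H) :=
  W.comap γ.toRingEquiv.toRingHom

theorem mem_rtk6dfCo {W : ValuationSubring ↥(fieldC K L M H)}
    {γ : ↥(fieldC K L M H) ≃ₐ[K] ↥(fieldC K L M H)} {x : ↥(fieldC K L M H)} :
    x ∈ rtk6dfCo W γ ↔ γ x ∈ W := Iff.rfl

theorem mem_nonunits_rtk6dfCo {W : ValuationSubring ↥(fieldC K L M H)}
    {γ : ↥(fieldC K L M H) ≃ₐ[K] ↥(fieldC K L M H)} {x : ↥(fieldC K L M H)} :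
    x ∈ (rtk6dfCo W γ).nonunits ↔ γ x ∈ W.nonunits :=
  vt_mem_nonunits_comap W _ x

theorem rtk6dfCo_one (W : ValuationSubring ↥(fieldC K L M H)) : rtk6dfCo W 1 = W := by
  ext x
  rfl

theorem rtk6dfCo_mul (W : ValuationSubring ↥(fieldC K L M H))
    (γ γ' : ↥(fieldC K L M H) ≃ₐ[K] ↥(fieldC K L M H)) :
    rtk6dfCo (rtk6dfCo W γ) γ' = rtk6dfCo W (γ * γ') := by
  ext x
  rfl

/-- `v (x) = 1` in `γ⁻¹ W` iff `v (γ x) = 1` in `W` -/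
theorem rtk6df_val_comap_eq_one_iff (W : ValuationSubring ↥(fieldC K L M H))
    (γ : ↥(fieldC K L M H) ≃ₐ[K] ↥(fieldC K L M H)) (x : ↥(fieldC K L M H)) :
    (rtk6dfCo W γ).valuation x = 1 ↔ W.valuation (γ x) = 1 := by
  rw [vt_valuation_eq_one_iff, vt_valuation_eq_one_iff, mem_rtk6dfCo, mem_rtk6dfCo, map_inv₀]
  constructor
  · rintro ⟨h0, h1, h2⟩
    exact ⟨(map_ne_zero γ).mpr h0, h1, h2⟩
  · rintro ⟨h0, h1, h2⟩
    exact ⟨(map_ne_zero γ).mp h0, h1, h2⟩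

variable (V₂ : Bool → ValuationSubring ↥(fieldC K L M H))

/-- **The index type `κ`**: all conjugates of the pair `V₂` under `Γ`. -/
def Rtk6dfIdx : Type :=
  {W : ValuationSubring ↥(fieldC K L M H) //
    ∃ γ ∈ rtk6dfGam K L M H, ∃ b : Bool, W = rtk6dfCo (V₂ b) γ}

/-- **The family `V : κ → ValuationSubring F`** -/
def rtk6dfVal : Rtk6dfIdx V₂ → ValuationSubring ↥(fieldC K L M H) := Subtype.val

theorem rtk6dfVal_injective : Function.Injective (rtk6dfVal V₂) := Subtype.val_injective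

/-- the two basic components -/
def rtk6dfBase (b : Bool) : Rtk6dfIdx V₂ :=
  ⟨V₂ b, 1, (rtk6dfGam K L M H).one_mem, b, (rtk6dfCo_one _).symm⟩

@[simp]
theorem rtk6dfVal_base (b : Bool) : rtk6dfVal V₂ (rtk6dfBase V₂ b) = V₂ b := rfl

/-- `Γ` permutes the family -/
def rtk6dfComap (γ : ↥(fieldC K L M H) ≃ₐ[K] ↥(fieldC K L M H))
    (hγ : γ ∈ rtk6dfGam K L M H) (c : Rtk6dfIdx V₂) : Rtk6dfIdx V₂ :=
  ⟨rtk6dfCo c.1 γ, by
    obtain ⟨γ₀, hγ₀, b, hb⟩ := c.2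
    exact ⟨γ₀ * γ, (rtk6dfGam K L M H).mul_mem hγ₀ hγ, b, by rw [hb, rtk6dfCo_mul]⟩⟩

@[simp]
theorem rtk6dfVal_comap (γ : ↥(fieldC K L M H) ≃ₐ[K] ↥(fieldC K L M H))
    (hγ : γ ∈ rtk6dfGam K L M H) (c : Rtk6dfIdx V₂) :
    rtk6dfVal V₂ (rtk6dfComap V₂ γ hγ c) = rtk6dfCo (rtk6dfVal V₂ c) γ := rfl

/-- every component is a conjugate of a basic one -/
theorem rtk6df_exists (c : Rtk6dfIdx V₂) :
    ∃ γ ∈ rtk6dfGam K L M H, ∃ b : Bool, rtk6dfVal V₂ c = rtk6dfCo (V₂ b) γ := c.2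

/-- **induction principle**: a property of valuation rings which holds for all conjugates of the
basic components holds for the whole family -/
theorem rtk6df_forall {P : ValuationSubring ↥(fieldC K L M H) → Prop}
    (h : ∀ γ ∈ rtk6dfGam K L M H, ∀ b : Bool, P (rtk6dfCo (V₂ b) γ)) (c : Rtk6dfIdx V₂) :
    P (rtk6dfVal V₂ c) := by
  obtain ⟨γ, hγ, b, hb⟩ := c.2
  show P c.1
  rw [hb]
  exact h γ hγ b

/-- **`hlV′`** (the hypothesis of `rtk6gl_ss1_perm`): `Γ` permutes the family. -/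
theorem rtk6df_perm (γ : ↥(fieldC K L M H) ≃ₐ[K] ↥(fieldC K L M H))
    (hγ : γ ∈ rtk6dfGam K L M H) (c : Rtk6dfIdx V₂) :
    ∃ c' : Rtk6dfIdx V₂, ∀ x ∈ (rtk6dfVal V₂ c').nonunits, γ x ∈ (rtk6dfVal V₂ c).nonunits :=
  ⟨rtk6dfComap V₂ γ hγ c, fun x hx => mem_nonunits_rtk6dfCo.mp hx⟩

/-- **`Finite κ`** -/
theorem rtk6df_finite_idx [CharZero K] [Algebra.IsAlgebraic ℚ K] [NeZero M] (hL : L ≠ 0)
    (hML : M ∣ L) : Finite (Rtk6dfIdx V₂) := by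
  haveI := rtk6df_finite (K := K) (H := H) hL hML
  refine Finite.of_surjective
    (fun p : ↥(rtk6dfGam K L M H) × Bool =>
      (⟨rtk6dfCo (V₂ p.2) (p.1 : ↥(fieldC K L M H) ≃ₐ[K] _), p.1, p.1.2, p.2, rfl⟩ :
        Rtk6dfIdx V₂)) ?_
  rintro ⟨W, γ, hγ, b, hb⟩
  exact ⟨(⟨γ, hγ⟩, b), Subtype.ext hb.symm⟩

end Idx

end Fermat.Agent.RT.K6

end
end ZBRT_032_6

/-! ### bundled: `Fermat.Agent.RT.K6.DIFamMg` -/
section ZBRT_032_7
/-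
K-machine, piece K6 / D-I (helper82), part 3b = (M1) of `NOTES/RT-K6-D.md` v5, CONCRETE:
the family `κ` of ALL conjugates of `V_∞`, `V_0` in `F′ = rtk6diF A K₁ (M₁ q) M H`, with the
hypotheses of `rtk6ew_main_two` / `rtk6ew_main_multi` which do not depend on the points.

Setting of `DIVertMg.lean` (`A′ = mgcA A K₁` a DVR, `π`, `w` with `Rtk6dvWIncl`).
* `rtk6dfK hπ M H w` (`= κ`), `rtk6dfV hπ M H w : κ → ValuationSubring F′` (injective: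
  `rtk6dfV_injective`), `rtk6dfInf`, `rtk6dfZero : κ` (`V = V_∞`, `V_0`), `rtk6df_finiteK`;
* for EVERY `c : κ`: `rtk6df_hBV₁`, `rtk6df_hBV₂`, `rtk6df_hπV`, `rtk6df_harch`, `rtk6df_hunif`
  (`π` is a uniformizer), `rtk6df_hU` (`x ∈ 𝔪(V c) → x / π ∈ V c`), `rtk6df_prim_J`,
  `rtk6df_prim_Jinv`, **`rtk6df_hVloc₁`**, **`rtk6df_hVloc₂`**, `rtk6df_const_mem_nonunits_iff`;
* `rtk6df_comap_incl` : the restriction of `V c` to the `Γ₀(M₁ q)`-field is `mgvV … b`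
  (`b = rtk6dfSide c`-free form: `∃ b`);
* `rtk6df_permK` : `Γ` permutes the family (`hlV′` of `rtk6gl_ss1_perm`);
* `rtk6df_val_of_gam` : `γ ∈ Γ` with `γ (V c) ⊆ V c` preserves the valuation of `V c`.
-/

set_option autoImplicit false
set_option linter.style.haveILetI false
set_option linter.unusedSectionVars false
set_option linter.unusedVariables false

noncomputable section

namespace Fermat.Agent.RT.K6

open ModularCurve AlgebraicCurve Fermat.Agent.ES Fermat.Agent.ES.G2 Fermat.Agent.INJ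
open Fermat.Agent.UNIP Fermat.Agent.ES1 Fermat.Agent.ES1.G2 Fermat.Agent.AL IntermediateField

section Gen

/-- a valuation subring containing the image of `R` and the set `S` contains the elements
integral over `R[S]` -/
theorem rtk6df_mem_of_isIntegral {R F : Type*} [CommRing R] [Field F] [Algebra R F]
    (W : ValuationSubring F) (hR : ∀ a : R, algebraMap R F a ∈ W) (S : Set F)
    (hS : ∀ s ∈ S, s ∈ W) {x : F} (hx : IsIntegral (Algebra.adjoin R S) x) : x ∈ W := by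
  refine vt_mem_of_isIntegral _ (fun y => ?_) hx
  show ((y : Algebra.adjoin R S) : F) ∈ W
  obtain ⟨y, hy⟩ := y
  show y ∈ W
  induction hy using Algebra.adjoin_induction with
  | mem s hs => exact hS s hs
  | algebraMap a => exact hR a
  | add s t _ _ hs ht => exact W.add_mem _ _ hs ht
  | mul s t _ _ hs ht => exact W.mul_mem _ _ hs ht

end Gen

section Concrete

variable {A : ValuationSubring Qb} {K₁ : IntermediateField ℚ Qb}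
  [IsDiscreteValuationRing ↥(mgcA A K₁)] {π : ↥(mgcA A K₁)} (hπ : Irreducible π)
  (ιC : ↥(mgcE A K₁) →+* ℂ) {q M₁ : ℕ} [NeZero q] [NeZero M₁] [NeZero (M₁ * q)]
  (hq : q.Prime) (hqM : ¬ q ∣ M₁) (M : ℕ) (H : Subgroup (ZMod M)ˣ)
  (w : ↥(rtk6diF A K₁ (M₁ * q) M H) ≃ₐ[↥(mgcE A K₁)] ↥(rtk6diF A K₁ (M₁ * q) M H))

/-- **`κ`**: the index type of all conjugates of `V_∞`, `V_0` -/
def rtk6dfK : Type := Rtk6dfIdx (rtk6dvV hπ M H w)

/-- **`V : κ → ValuationSubring F′`** -/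
def rtk6dfV : rtk6dfK hπ M H w → ValuationSubring ↥(rtk6diF A K₁ (M₁ * q) M H) :=
  rtk6dfVal (rtk6dvV hπ M H w)

theorem rtk6dfV_injective : Function.Injective (rtk6dfV hπ M H w) :=
  rtk6dfVal_injective _

/-- the component `V_∞` -/
def rtk6dfInf : rtk6dfK hπ M H w := rtk6dfBase (rtk6dvV hπ M H w) true

/-- the component `V_0` -/
def rtk6dfZero : rtk6dfK hπ M H w := rtk6dfBase (rtk6dvV hπ M H w) false

@[simp]
theorem rtk6dfV_inf : rtk6dfV hπ M H w (rtk6dfInf hπ M H w) = rtk6dvV hπ M H w true := rfl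

@[simp]
theorem rtk6dfV_zero : rtk6dfV hπ M H w (rtk6dfZero hπ M H w) = rtk6dvV hπ M H w false := rfl

/-- every component is a conjugate of `V_∞` or `V_0` -/
theorem rtk6df_existsK (c : rtk6dfK hπ M H w) :
    ∃ γ ∈ rtk6dfGam ↥(mgcE A K₁) (M₁ * q) M H, ∃ b : Bool,
      rtk6dfV hπ M H w c = rtk6dfCo (rtk6dvV hπ M H w b) γ :=
  rtk6df_exists _ c

/-- induction principle -/
theorem rtk6df_forallK {P : ValuationSubring ↥(rtk6diF A K₁ (M₁ * q) M H) → Prop}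
    (h : ∀ γ ∈ rtk6dfGam ↥(mgcE A K₁) (M₁ * q) M H, ∀ b : Bool,
      P (rtk6dfCo (rtk6dvV hπ M H w b) γ)) (c : rtk6dfK hπ M H w) :
    P (rtk6dfV hπ M H w c) :=
  rtk6df_forall _ h c

/-- **`Finite κ`** -/
theorem rtk6df_finiteK (hML : M ∣ M₁ * q) : Finite (rtk6dfK hπ M H w) := by
  haveI : Algebra.IsAlgebraic ℚ Qb := AlgebraicClosure.isAlgebraic ℚ
  haveI : Algebra.IsAlgebraic ℚ ↥(mgcE A K₁) :=
    Algebra.IsAlgebraic.of_injective (mgcE A K₁).val Subtype.val_injective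
  haveI : NeZero M := ⟨fun h0 => NeZero.ne (M₁ * q) (Nat.eq_zero_of_zero_dvd (h0 ▸ hML))⟩
  exact rtk6df_finite_idx _ (NeZero.ne (M₁ * q)) hML

/-- **`Γ` permutes the family** (`hlV′` of `rtk6gl_ss1_perm`) -/
theorem rtk6df_permK (γ : ↥(rtk6diF A K₁ (M₁ * q) M H) ≃ₐ[↥(mgcE A K₁)] _)
    (hγ : γ ∈ rtk6dfGam ↥(mgcE A K₁) (M₁ * q) M H) (c : rtk6dfK hπ M H w) :
    ∃ c' : rtk6dfK hπ M H w, ∀ x ∈ (rtk6dfV hπ M H w c').nonunits,
      γ x ∈ (rtk6dfV hπ M H w c).nonunits :=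
  rtk6df_perm _ γ hγ c

/-! ### The hypotheses for the conjugates -/

section Conj

variable (γ : ↥(rtk6diF A K₁ (M₁ * q) M H) ≃ₐ[↥(mgcE A K₁)] ↥(rtk6diF A K₁ (M₁ * q) M H))
  (hγ : γ ∈ rtk6dfGam ↥(mgcE A K₁) (M₁ * q) M H) (b : Bool)

include hγ

theorem rtk6dfc_T : γ (rtk6diT A K₁ (M₁ * q) M H) = rtk6diT A K₁ (M₁ * q) M H := hγ _

theorem rtk6dfc_Tinv : γ (rtk6diT A K₁ (M₁ * q) M H)⁻¹ = (rtk6diT A K₁ (M₁ * q) M H)⁻¹ := by
  rw [map_inv₀, rtk6dfc_T M H γ hγ]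

omit hγ in
theorem rtk6dfc_const (a : ↥(mgcA A K₁)) :
    γ (algebraMap ↥(mgcA A K₁) ↥(rtk6diF A K₁ (M₁ * q) M H) a) =
      algebraMap ↥(mgcA A K₁) ↥(rtk6diF A K₁ (M₁ * q) M H) a :=
  γ.commutes (a : ↥(mgcE A K₁))

/-- a conjugate contains every valuation-ring-closed combination: `A′[u] ⊆ γ⁻¹ V` for
`u ∈ V` fixed by `γ` -/
theorem rtk6dfc_mem_of_isIntegral {u : ↥(rtk6diF A K₁ (M₁ * q) M H)} (hu : γ u = u)
    (huV : u ∈ rtk6dvV hπ M H w b) (x : ↥(rtk6diF A K₁ (M₁ * q) M H))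
    (hx : IsIntegral ↥(Algebra.adjoin ↥(mgcA A K₁)
      ({u} : Set ↥(rtk6diF A K₁ (M₁ * q) M H))) x) :
    x ∈ rtk6dfCo (rtk6dvV hπ M H w b) γ := by
  refine rtk6df_mem_of_isIntegral (rtk6dfCo (rtk6dvV hπ M H w b) γ) ?_ _ ?_ hx
  · intro a
    rw [mem_rtk6dfCo, rtk6dfc_const]
    exact rtk6dvFam_const_mem (vtBase_residue hπ) (M₁ * q) M H w b a
  · rintro s rfl
    rw [mem_rtk6dfCo, hu]
    exact huV

/-- **hBV₁** for a conjugate -/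
theorem rtk6dfc_hBV₁ (hw : Rtk6dvWIncl ιC hq hqM M H w) (x : ↥(rtk6diF A K₁ (M₁ * q) M H))
    (hx : IsIntegral ↥(Algebra.adjoin ↥(mgcA A K₁)
      ({rtk6diT A K₁ (M₁ * q) M H} : Set ↥(rtk6diF A K₁ (M₁ * q) M H))) x) :
    x ∈ rtk6dfCo (rtk6dvV hπ M H w b) γ :=
  rtk6dfc_mem_of_isIntegral hπ M H w γ hγ b (rtk6dfc_T M H γ hγ)
    (rtk6dv_T_mem hπ ιC hq hqM M H w hw b) x hx

/-- **hBV₂** for a conjugate -/
theorem rtk6dfc_hBV₂ (hw : Rtk6dvWIncl ιC hq hqM M H w) (x : ↥(rtk6diF A K₁ (M₁ * q) M H))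
    (hx : IsIntegral ↥(Algebra.adjoin ↥(mgcA A K₁)
      ({(rtk6diT A K₁ (M₁ * q) M H)⁻¹} : Set ↥(rtk6diF A K₁ (M₁ * q) M H))) x) :
    x ∈ rtk6dfCo (rtk6dvV hπ M H w b) γ :=
  rtk6dfc_mem_of_isIntegral hπ M H w γ hγ b (rtk6dfc_Tinv M H γ hγ)
    (rtk6dv_T_inv_mem hπ ιC hq hqM M H w hw b) x hx

omit hγ in
/-- **hπV** for a conjugate -/
theorem rtk6dfc_hπV :
    algebraMap ↥(mgcA A K₁) ↥(rtk6diF A K₁ (M₁ * q) M H) π ∈
      (rtk6dfCo (rtk6dvV hπ M H w b) γ).nonunits := by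
  rw [mem_nonunits_rtk6dfCo, rtk6dfc_const]
  exact rtk6dv_hπV hπ M H w b

omit hγ in
/-- constants in the maximal ideal of a conjugate -/
theorem rtk6dfc_const_mem_nonunits_iff (a : ↥(mgcA A K₁)) :
    algebraMap ↥(mgcA A K₁) ↥(rtk6diF A K₁ (M₁ * q) M H) a ∈
      (rtk6dfCo (rtk6dvV hπ M H w b) γ).nonunits ↔ (((a : ↥(mgcE A K₁)) : Qb)) ∈ A.nonunits := by
  rw [mem_nonunits_rtk6dfCo, rtk6dfc_const]
  exact rtk6dv_const_mem_nonunits_iff hπ M H w b a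

omit hγ in
/-- **harch** for a conjugate -/
theorem rtk6dfc_harch (a x : ↥(rtk6diF A K₁ (M₁ * q) M H))
    (ha : a ∈ (rtk6dfCo (rtk6dvV hπ M H w b) γ).nonunits) :
    ∃ n : ℕ, a ^ n * x ∈ (rtk6dfCo (rtk6dvV hπ M H w b) γ).nonunits := by
  obtain ⟨n, hn⟩ := rtk6dv_harch hπ M H w b (γ a) (γ x) (mem_nonunits_rtk6dfCo.mp ha)
  refine ⟨n, mem_nonunits_rtk6dfCo.mpr ?_⟩
  rw [map_mul, map_pow]
  exact hn

omit hγ in
/-- **`π` is a uniformizer** of a conjugate -/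
theorem rtk6dfc_hunif {f : ↥(rtk6diF A K₁ (M₁ * q) M H)} (hf : f ≠ 0) :
    ∃ n : ℤ, (rtk6dfCo (rtk6dvV hπ M H w b) γ).valuation
      (f * algebraMap ↥(mgcA A K₁) ↥(rtk6diF A K₁ (M₁ * q) M H) π ^ n) = 1 := by
  obtain ⟨n, hn⟩ := rtk6dv_hunif hπ M H w b (f := γ f) ((map_ne_zero γ).mpr hf)
  refine ⟨n, (rtk6df_val_comap_eq_one_iff _ γ _).mpr ?_⟩
  rw [map_mul, map_zpow₀, rtk6dfc_const]
  exact hn

/-- polynomials in `j` prime to `π` are units of a conjugate -/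
theorem rtk6dfc_prim_J (hw : Rtk6dvWIncl ιC hq hqM M H w) (hA : A.LiesOverPrime q)
    (s : ↥(rtk6diF A K₁ (M₁ * q) M H)) (hs : EIPrimeTo π (rtk6diT A K₁ (M₁ * q) M H) s) :
    s ∉ (rtk6dfCo (rtk6dvV hπ M H w b) γ).nonunits := by
  rw [mem_nonunits_rtk6dfCo,
    rtk6df_gam_adjoin (mgcA A K₁) hγ (u₀ := mgcT A K₁ (M₁ * q)) hs.1]
  exact rtk6dv_prim_J hπ ιC hq hqM M H w hw hA b s hs

/-- polynomials in `1 / j` prime to `π` are units of a conjugate -/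
theorem rtk6dfc_prim_Jinv (hw : Rtk6dvWIncl ιC hq hqM M H w) (hA : A.LiesOverPrime q)
    (s : ↥(rtk6diF A K₁ (M₁ * q) M H))
    (hs : EIPrimeTo π (rtk6diT A K₁ (M₁ * q) M H)⁻¹ s) :
    s ∉ (rtk6dfCo (rtk6dvV hπ M H w b) γ).nonunits := by
  have e : (rtk6diT A K₁ (M₁ * q) M H)⁻¹ = rtk6diIncl (M₁ * q) M H (mgcT A K₁ (M₁ * q))⁻¹ := by
    rw [map_inv₀]; rfl
  have hs1 := hs.1
  rw [e] at hs1
  rw [mem_nonunits_rtk6dfCo,
    rtk6df_gam_adjoin (mgcA A K₁) hγ (u₀ := (mgcT A K₁ (M₁ * q))⁻¹) hs1]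
  exact rtk6dv_prim_Jinv hπ ιC hq hqM M H w hw hA b s hs

/-- the restriction of a conjugate to the `Γ₀`-field -/
theorem rtk6dfc_comap_incl (hw : Rtk6dvWIncl ιC hq hqM M H w) :
    (rtk6dfCo (rtk6dvV hπ M H w b) γ).comap (rtk6diIncl (M₁ * q) M H) =
      mgvV hπ ιC hq hqM b := by
  rw [← rtk6dv_comap_incl hπ ιC hq hqM M H w hw b]
  ext x
  rw [ValuationSubring.mem_comap, ValuationSubring.mem_comap, mem_rtk6dfCo, hγ x]

end Conj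

/-! ### The hypotheses for the family -/

/-- **hBV₁** -/
theorem rtk6df_hBV₁ (hw : Rtk6dvWIncl ιC hq hqM M H w) (c : rtk6dfK hπ M H w)
    (x : ↥(rtk6diF A K₁ (M₁ * q) M H))
    (hx : IsIntegral ↥(Algebra.adjoin ↥(mgcA A K₁)
      ({rtk6diT A K₁ (M₁ * q) M H} : Set ↥(rtk6diF A K₁ (M₁ * q) M H))) x) :
    x ∈ rtk6dfV hπ M H w c :=
  rtk6df_forallK hπ M H w (P := fun W => x ∈ W)
    (fun γ hγ b => rtk6dfc_hBV₁ hπ ιC hq hqM M H w γ hγ b hw x hx) c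

/-- **hBV₂** -/
theorem rtk6df_hBV₂ (hw : Rtk6dvWIncl ιC hq hqM M H w) (c : rtk6dfK hπ M H w)
    (x : ↥(rtk6diF A K₁ (M₁ * q) M H))
    (hx : IsIntegral ↥(Algebra.adjoin ↥(mgcA A K₁)
      ({(rtk6diT A K₁ (M₁ * q) M H)⁻¹} : Set ↥(rtk6diF A K₁ (M₁ * q) M H))) x) :
    x ∈ rtk6dfV hπ M H w c :=
  rtk6df_forallK hπ M H w (P := fun W => x ∈ W)
    (fun γ hγ b => rtk6dfc_hBV₂ hπ ιC hq hqM M H w γ hγ b hw x hx) c

/-- **hπV** -/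
theorem rtk6df_hπV (c : rtk6dfK hπ M H w) :
    algebraMap ↥(mgcA A K₁) ↥(rtk6diF A K₁ (M₁ * q) M H) π ∈ (rtk6dfV hπ M H w c).nonunits :=
  rtk6df_forallK hπ M H w
    (P := fun W => algebraMap ↥(mgcA A K₁) ↥(rtk6diF A K₁ (M₁ * q) M H) π ∈ W.nonunits)
    (fun γ _ b => rtk6dfc_hπV hπ M H w γ b) c

/-- constants -/
theorem rtk6df_const_mem_nonunits_iff (c : rtk6dfK hπ M H w) (a : ↥(mgcA A K₁)) :
    algebraMap ↥(mgcA A K₁) ↥(rtk6diF A K₁ (M₁ * q) M H) a ∈ (rtk6dfV hπ M H w c).nonunits ↔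
      (((a : ↥(mgcE A K₁)) : Qb)) ∈ A.nonunits :=
  rtk6df_forallK hπ M H w
    (P := fun W => algebraMap ↥(mgcA A K₁) ↥(rtk6diF A K₁ (M₁ * q) M H) a ∈ W.nonunits ↔
      (((a : ↥(mgcE A K₁)) : Qb)) ∈ A.nonunits)
    (fun γ _ b => rtk6dfc_const_mem_nonunits_iff hπ M H w γ b a) c

/-- **harch** -/
theorem rtk6df_harch (c : rtk6dfK hπ M H w) (a x : ↥(rtk6diF A K₁ (M₁ * q) M H))
    (ha : a ∈ (rtk6dfV hπ M H w c).nonunits) :
    ∃ n : ℕ, a ^ n * x ∈ (rtk6dfV hπ M H w c).nonunits :=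
  rtk6df_forallK hπ M H w
    (P := fun W => ∀ a x : ↥(rtk6diF A K₁ (M₁ * q) M H), a ∈ W.nonunits →
      ∃ n : ℕ, a ^ n * x ∈ W.nonunits)
    (fun γ _ b => rtk6dfc_harch hπ M H w γ b) c a x ha

/-- **`π` is a uniformizer of every `V c`** -/
theorem rtk6df_hunif (c : rtk6dfK hπ M H w) {f : ↥(rtk6diF A K₁ (M₁ * q) M H)} (hf : f ≠ 0) :
    ∃ n : ℤ, (rtk6dfV hπ M H w c).valuation
      (f * algebraMap ↥(mgcA A K₁) ↥(rtk6diF A K₁ (M₁ * q) M H) π ^ n) = 1 :=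
  rtk6df_forallK hπ M H w
    (P := fun W => ∀ f : ↥(rtk6diF A K₁ (M₁ * q) M H), f ≠ 0 → ∃ n : ℤ, W.valuation
      (f * algebraMap ↥(mgcA A K₁) ↥(rtk6diF A K₁ (M₁ * q) M H) π ^ n) = 1)
    (fun γ _ b f hf => rtk6dfc_hunif hπ M H w γ b hf) c f hf

/-- polynomials in `j` prime to `π` are units of every `V c` -/
theorem rtk6df_prim_J (hw : Rtk6dvWIncl ιC hq hqM M H w) (hA : A.LiesOverPrime q)
    (c : rtk6dfK hπ M H w) (s : ↥(rtk6diF A K₁ (M₁ * q) M H))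
    (hs : EIPrimeTo π (rtk6diT A K₁ (M₁ * q) M H) s) :
    s ∉ (rtk6dfV hπ M H w c).nonunits :=
  rtk6df_forallK hπ M H w (P := fun W => s ∉ W.nonunits)
    (fun γ hγ b => rtk6dfc_prim_J hπ ιC hq hqM M H w γ hγ b hw hA s hs) c

/-- polynomials in `1 / j` prime to `π` are units of every `V c` -/
theorem rtk6df_prim_Jinv (hw : Rtk6dvWIncl ιC hq hqM M H w) (hA : A.LiesOverPrime q)
    (c : rtk6dfK hπ M H w) (s : ↥(rtk6diF A K₁ (M₁ * q) M H))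
    (hs : EIPrimeTo π (rtk6diT A K₁ (M₁ * q) M H)⁻¹ s) :
    s ∉ (rtk6dfV hπ M H w c).nonunits :=
  rtk6df_forallK hπ M H w (P := fun W => s ∉ W.nonunits)
    (fun γ hγ b => rtk6dfc_prim_Jinv hπ ιC hq hqM M H w γ hγ b hw hA s hs) c

/-- the restriction of `V c` to the `Γ₀(M₁ q)`-field is one of UNIP's two valuations -/
theorem rtk6df_comap_incl (hw : Rtk6dvWIncl ιC hq hqM M H w) (c : rtk6dfK hπ M H w) :
    ∃ b : Bool, (rtk6dfV hπ M H w c).comap (rtk6diIncl (M₁ * q) M H) = mgvV hπ ιC hq hqM b := by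
  obtain ⟨γ, hγ, b, hb⟩ := rtk6df_existsK hπ M H w c
  exact ⟨b, by rw [hb]; exact rtk6dfc_comap_incl hπ ιC hq hqM M H w γ hγ b hw⟩

/-- **hVloc₁**: on the chart `j`, every `V c` is the localisation of the chart at its centre -/
theorem rtk6df_hVloc₁ (hw : Rtk6dvWIncl ιC hq hqM M H w) (hA : A.LiesOverPrime q)
    (hML : M ∣ M₁ * q) :
    ∀ (c : rtk6dfK hπ M H w) (x : ↥(rtk6diF A K₁ (M₁ * q) M H)), x ∈ rtk6dfV hπ M H w c →
      ∃ b s : ↥(rtk6diF A K₁ (M₁ * q) M H),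
      IsIntegral ↥(Algebra.adjoin ↥(mgcA A K₁)
        ({rtk6diT A K₁ (M₁ * q) M H} : Set ↥(rtk6diF A K₁ (M₁ * q) M H))) b ∧
      IsIntegral ↥(Algebra.adjoin ↥(mgcA A K₁)
        ({rtk6diT A K₁ (M₁ * q) M H} : Set ↥(rtk6diF A K₁ (M₁ * q) M H))) s ∧
      s ∉ (rtk6dfV hπ M H w c).nonunits ∧ s * x = b := by
  haveI := rtk6di_finiteDimensional A K₁ (M₁ * q) M H (NeZero.ne (M₁ * q)) hML
  intro c
  exact rtk6dl_hVloc (rtk6di_transcendental A K₁ (M₁ * q) M H) hπ (rtk6dfV hπ M H w c)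
    (rtk6df_hBV₁ hπ ιC hq hqM M H w hw c) (rtk6df_hπV hπ M H w c)
    (rtk6df_prim_J hπ ιC hq hqM M H w hw hA c)

/-- **hVloc₂**: the same on the chart `1 / j` -/
theorem rtk6df_hVloc₂ (hw : Rtk6dvWIncl ιC hq hqM M H w) (hA : A.LiesOverPrime q)
    (hML : M ∣ M₁ * q) :
    ∀ (c : rtk6dfK hπ M H w) (x : ↥(rtk6diF A K₁ (M₁ * q) M H)), x ∈ rtk6dfV hπ M H w c →
      ∃ b s : ↥(rtk6diF A K₁ (M₁ * q) M H),
      IsIntegral ↥(Algebra.adjoin ↥(mgcA A K₁)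
        ({(rtk6diT A K₁ (M₁ * q) M H)⁻¹} : Set ↥(rtk6diF A K₁ (M₁ * q) M H))) b ∧
      IsIntegral ↥(Algebra.adjoin ↥(mgcA A K₁)
        ({(rtk6diT A K₁ (M₁ * q) M H)⁻¹} : Set ↥(rtk6diF A K₁ (M₁ * q) M H))) s ∧
      s ∉ (rtk6dfV hπ M H w c).nonunits ∧ s * x = b := by
  haveI := rtk6di_finiteDimensional A K₁ (M₁ * q) M H (NeZero.ne (M₁ * q)) hML
  haveI : FiniteDimensional (↥(mgcE A K₁))⟮(rtk6diT A K₁ (M₁ * q) M H)⁻¹⟯
      ↥(rtk6diF A K₁ (M₁ * q) M H) :=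
    at_finiteDimensional_inv (rtk6diT A K₁ (M₁ * q) M H)
  intro c
  exact rtk6dl_hVloc (zch_transcendental_inv (rtk6di_transcendental A K₁ (M₁ * q) M H)) hπ
    (rtk6dfV hπ M H w c)
    (rtk6df_hBV₂ hπ ιC hq hqM M H w hw c) (rtk6df_hπV hπ M H w c)
    (rtk6df_prim_Jinv hπ ιC hq hqM M H w hw hA c)

/-- an `E′`-linear automorphism `γ` of `F′` with `γ (V c) ⊆ V c` preserves the valuation of
`V c` (the hypotheses `hgV`, `hΦV` for a linear `g`, `Φ`) -/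
theorem rtk6df_val_of_stable (c : rtk6dfK hπ M H w)
    (γ : ↥(rtk6diF A K₁ (M₁ * q) M H) ≃ₐ[↥(mgcE A K₁)] ↥(rtk6diF A K₁ (M₁ * q) M H))
    (hγ : ∀ x ∈ rtk6dfV hπ M H w c, γ x ∈ rtk6dfV hπ M H w c)
    {f : ↥(rtk6diF A K₁ (M₁ * q) M H)} (hf : f ≠ 0) :
    (rtk6dfV hπ M H w c).valuation (γ f / f) = 1 := by
  have hπ0 : algebraMap ↥(mgcA A K₁) ↥(rtk6diF A K₁ (M₁ * q) M H) π ≠ 0 :=
    ei_algebraMap_ne_zero (E := ↥(mgcE A K₁)) hπ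
  exact rtk6dv_val_of_map_mem (rtk6dfV hπ M H w c) (γ : _ →+* _) hγ
    (algebraMap ↥(mgcA A K₁) ↥(rtk6diF A K₁ (M₁ * q) M H) π) hπ0
    (γ.commutes ((π : ↥(mgcA A K₁)) : ↥(mgcE A K₁)))
    (fun f hf => rtk6df_hunif hπ M H w c hf) hf

end Concrete

end Fermat.Agent.RT.K6

end
end ZBRT_032_7

/-! ### bundled: `Fermat.Agent.RT.K6.DIFamComm` -/
section ZBRT_032_8
/-
K-machine, piece K6 / D-I (helper82), part 3c = (M1) of `NOTES/RT-K6-D.md` v5/v6, the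
commutation relations used for the transport along `γ ∈ Γ` ((M4), (M5)).

* `rtk6df_gam_comm` : `Γ` is commutative (`γ (γ' x) = γ' (γ x)`);
* `rtk6df_gam_comm_diamond` : `γ ∈ Γ` commutes with every diamond;
* `rtk6df_gam_comm_act`, `rtk6df_gam_comm_gal` : `γ ∈ Γ` commutes with the coefficientwise
  action `rtk6diAct σ` / `rtk6diGal σ •` (the diamonds are defined over `ℚ`);
* `rtk6df_hU` : `x ∈ 𝔪(V c) → ∃ z ∈ V c, x = π * z` for every `c : κ` (the hypothesis `hU` of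
  `rtk6glu_dich`, `rtk6glu_cross`, `hunif` of `rtk6gl_ss1_unif_perm`);
* transport of `hgV`-type statements: `rtk6df_val_transport` (if `g` commutes with `γ` and
  preserves the valuation of `W`, it preserves the valuation of `γ⁻¹ W`);
  `rtk6df_sub_transport` (the same for `g x − x ∈ 𝔪`), `rtk6df_stable_transport`.
-/

set_option autoImplicit false
set_option linter.style.haveILetI false
set_option linter.unusedSectionVars false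
set_option linter.unusedVariables false

noncomputable section

namespace Fermat.Agent.RT.K6

open ModularCurve AlgebraicCurve Fermat.Agent.ES Fermat.Agent.ES.G2 Fermat.Agent.INJ
open Fermat.Agent.UNIP Fermat.Agent.ES1 Fermat.Agent.ES1.G2 Fermat.Agent.AL IntermediateField

/-! ### `Γ` is commutative -/

section Comm

variable {K : Type} [Field K] [CharZero K] [Algebra.IsAlgebraic ℚ K]
  {L M : ℕ} [NeZero M] {H : Subgroup (ZMod M)ˣ}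

/-- an element of `Γ` fixing `S_1` is the identity -/
theorem rtk6df_eq_one_of_fix (hL : L ≠ 0) (hML : M ∣ L)
    {γ : ↥(fieldC K L M H) ≃ₐ[K] ↥(fieldC K L M H)} (hγ : γ ∈ rtk6dfGam K L M H)
    (h1 : ((γ ⟨sS K M H 1, rtk6d0_sS_mem K M H hML 1⟩ : ↥(fieldC K L M H)) : LaurentSeries K)
      = sS K M H 1) (x : ↥(fieldC K L M H)) : γ x = x := by
  letI := kdlAlg (full_le_fieldC K L M H)
  obtain ⟨-, -, hone, -⟩ := rtk6d0_galois K H hL hML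
  have h := hone (rtk6dfToAlg γ hγ) h1
  have h2 := congrArg (fun f : ↥(fieldC K L M H) ≃ₐ[↥(modularFunctionFieldFullC K L)]
    ↥(fieldC K L M H) => f x) h
  exact h2

/-- two elements of `Γ` with the same value on `S_1` are equal -/
theorem rtk6df_eq_of_S1 (hL : L ≠ 0) (hML : M ∣ L)
    {γ γ' : ↥(fieldC K L M H) ≃ₐ[K] ↥(fieldC K L M H)} (hγ : γ ∈ rtk6dfGam K L M H)
    (hγ' : γ' ∈ rtk6dfGam K L M H)
    (h1 : γ ⟨sS K M H 1, rtk6d0_sS_mem K M H hML 1⟩ =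
      γ' ⟨sS K M H 1, rtk6d0_sS_mem K M H hML 1⟩) (x : ↥(fieldC K L M H)) : γ x = γ' x := by
  have hτ : γ'⁻¹ * γ ∈ rtk6dfGam K L M H :=
    (rtk6dfGam K L M H).mul_mem ((rtk6dfGam K L M H).inv_mem hγ') hγ
  have h2 := rtk6df_eq_one_of_fix hL hML hτ (by
    rw [AlgEquiv.mul_apply, h1]
    show ((γ'.symm (γ' _) : ↥(fieldC K L M H)) : LaurentSeries K) = _
    rw [AlgEquiv.symm_apply_apply]) x
  rw [AlgEquiv.mul_apply] at h2
  have h3 := congrArg γ' h2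
  rw [show γ' (γ'⁻¹ (γ x)) = γ x from γ'.apply_symm_apply _] at h3
  exact h3

/-- the composite of two diamonds on `S_1` -/
theorem rtk6df_diamond_comp_S1 (hML : M ∣ L) {c c' : (ZMod M)ˣ}
    {δ δ' : ↥(fieldC K L M H) ≃ₐ[K] ↥(fieldC K L M H)}
    (hδ : IsDiamondC K L M H c δ) (hδ' : IsDiamondC K L M H c' δ') :
    δ (δ' ⟨sS K M H 1, rtk6d0_sS_mem K M H hML 1⟩) =
      ⟨sS K M H (c' * c), rtk6d0_sS_mem K M H hML (c' * c)⟩ := by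
  have e1 : δ' ⟨sS K M H 1, rtk6d0_sS_mem K M H hML 1⟩ =
      ⟨sS K M H c', rtk6d0_sS_mem K M H hML c'⟩ :=
    Subtype.ext (by rw [hδ'.map_sS hML 1, one_mul])
  rw [e1]
  exact Subtype.ext (hδ.map_sS hML c')

/-- **diamonds commute** -/
theorem rtk6df_diamond_comm (hL : L ≠ 0) (hML : M ∣ L) {c c' : (ZMod M)ˣ}
    {δ δ' : ↥(fieldC K L M H) ≃ₐ[K] ↥(fieldC K L M H)}
    (hδ : IsDiamondC K L M H c δ) (hδ' : IsDiamondC K L M H c' δ') (x : ↥(fieldC K L M H)) :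
    δ (δ' x) = δ' (δ x) := by
  have h := rtk6df_eq_of_S1 hL hML
    ((rtk6dfGam K L M H).mul_mem hδ.mem_gam hδ'.mem_gam)
    ((rtk6dfGam K L M H).mul_mem hδ'.mem_gam hδ.mem_gam) (by
      rw [AlgEquiv.mul_apply, AlgEquiv.mul_apply, rtk6df_diamond_comp_S1 hML hδ hδ',
        rtk6df_diamond_comp_S1 hML hδ' hδ, mul_comm c' c]) x
  rwa [AlgEquiv.mul_apply, AlgEquiv.mul_apply] at h

/-- **`Γ` is commutative** -/
theorem rtk6df_gam_comm (hL : L ≠ 0) (hML : M ∣ L)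
    {γ γ' : ↥(fieldC K L M H) ≃ₐ[K] ↥(fieldC K L M H)} (hγ : γ ∈ rtk6dfGam K L M H)
    (hγ' : γ' ∈ rtk6dfGam K L M H) (x : ↥(fieldC K L M H)) : γ (γ' x) = γ' (γ x) := by
  obtain ⟨c, hc⟩ := rtk6df_isDiamond hL hML hγ
  obtain ⟨c', hc'⟩ := rtk6df_isDiamond hL hML hγ'
  exact rtk6df_diamond_comm hL hML hc hc' x

/-- `γ ∈ Γ` commutes with every diamond -/
theorem rtk6df_gam_comm_diamond (hL : L ≠ 0) (hML : M ∣ L)
    {γ : ↥(fieldC K L M H) ≃ₐ[K] ↥(fieldC K L M H)} (hγ : γ ∈ rtk6dfGam K L M H)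
    {c : (ZMod M)ˣ} {δ : ↥(fieldC K L M H) ≃ₐ[K] ↥(fieldC K L M H)}
    (hδ : IsDiamondC K L M H c δ) (x : ↥(fieldC K L M H)) : γ (δ x) = δ (γ x) :=
  rtk6df_gam_comm hL hML hγ hδ.mem_gam x

end Comm

/-! ### `Γ` commutes with the coefficientwise Galois action -/

section Act

variable {K₀ : IntermediateField ℚ Qb} {L M : ℕ} {H : Subgroup (ZMod M)ˣ}

/-- `γ ∈ Γ` commutes with the coefficientwise action of `σ` -/
theorem rtk6df_gam_comm_coeffHom (hL : L ≠ 0) (hML : M ∣ L)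
    {γ : ↥(fieldC ↥K₀ L M H) ≃ₐ[↥K₀] ↥(fieldC ↥K₀ L M H)}
    (hγ : γ ∈ rtk6dfGam ↥K₀ L M H) (σ : Qb ≃ₐ[ℚ] Qb) (hσ : ∀ x ∈ K₀, σ x ∈ K₀)
    (x : ↥(fieldC ↥K₀ L M H)) :
    γ (rtk6diCoeffHom L M H (mgRestrict K₀ σ hσ) x) =
      rtk6diCoeffHom L M H (mgRestrict K₀ σ hσ) (γ x) := by
  haveI : Algebra.IsAlgebraic ℚ Qb := AlgebraicClosure.isAlgebraic ℚ
  haveI : Algebra.IsAlgebraic ℚ ↥K₀ :=
    Algebra.IsAlgebraic.of_injective K₀.val Subtype.val_injective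
  haveI : NeZero M := ⟨fun h0 => hL (Nat.eq_zero_of_zero_dvd (h0 ▸ hML))⟩
  obtain ⟨c, hc⟩ := rtk6df_isDiamond hL hML hγ
  exact rtk6diw_diamond_coeffHom hL hML hc σ hσ x

end Act

section ActConcrete

variable {A : ValuationSubring Qb} {K₁ : IntermediateField ℚ Qb}
  {L M : ℕ} {H : Subgroup (ZMod M)ˣ}

/-- `γ ∈ Γ` commutes with `rtk6diAct σ` -/
theorem rtk6df_gam_comm_act (hL : L ≠ 0) (hML : M ∣ L)
    {γ : ↥(rtk6diF A K₁ L M H) ≃ₐ[↥(mgcE A K₁)] ↥(rtk6diF A K₁ L M H)}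
    (hγ : γ ∈ rtk6dfGam ↥(mgcE A K₁) L M H) (σ : Qb ≃ₐ[ℚ] Qb)
    (hσ : ∀ x ∈ mgcE A K₁, σ x ∈ mgcE A K₁) (x : ↥(rtk6diF A K₁ L M H)) :
    γ (rtk6diAct L M H σ hσ x) = rtk6diAct L M H σ hσ (γ x) :=
  rtk6df_gam_comm_coeffHom hL hML hγ σ hσ x

/-- `γ ∈ Γ` commutes with `rtk6diGal σ •` -/
theorem rtk6df_gam_comm_gal (hL : L ≠ 0) (hML : M ∣ L)
    {γ : ↥(rtk6diF A K₁ L M H) ≃ₐ[↥(mgcE A K₁)] ↥(rtk6diF A K₁ L M H)}
    (hγ : γ ∈ rtk6dfGam ↥(mgcE A K₁) L M H) (σ : Qb ≃ₐ[ℚ] Qb)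
    (hσ : ∀ x ∈ mgcE A K₁, σ x ∈ mgcE A K₁) (x : ↥(rtk6diF A K₁ L M H)) :
    γ (rtk6diGal L M H σ hσ • x) = rtk6diGal L M H σ hσ • γ x :=
  rtk6df_gam_comm_coeffHom hL hML hγ σ hσ x

end ActConcrete

/-! ### Transport of the stability statements along `γ` -/

section Transport

variable {K : Type} [Field K] {L M : ℕ} {H : Subgroup (ZMod M)ˣ}

/-- if `g` commutes with `γ` and `v_W (g f / f) = 1` for all `f ≠ 0`, the same holds for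
`γ⁻¹ W` -/
theorem rtk6df_val_transport (W : ValuationSubring ↥(fieldC K L M H))
    (γ : ↥(fieldC K L M H) ≃ₐ[K] ↥(fieldC K L M H))
    (g : ↥(fieldC K L M H) → ↥(fieldC K L M H)) (hcomm : ∀ x, γ (g x) = g (γ x))
    (hg : ∀ f : ↥(fieldC K L M H), f ≠ 0 → W.valuation (g f / f) = 1)
    (f : ↥(fieldC K L M H)) (hf : f ≠ 0) : (rtk6dfCo W γ).valuation (g f / f) = 1 := by
  rw [rtk6df_val_comap_eq_one_iff, map_div₀, hcomm]
  exact hg (γ f) ((map_ne_zero γ).mpr hf)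

/-- if `g` commutes with `γ` and `g x − x ∈ 𝔪(W)` for `x ∈ W`, the same holds for `γ⁻¹ W` -/
theorem rtk6df_sub_transport (W : ValuationSubring ↥(fieldC K L M H))
    (γ : ↥(fieldC K L M H) ≃ₐ[K] ↥(fieldC K L M H))
    (g : ↥(fieldC K L M H) → ↥(fieldC K L M H)) (hcomm : ∀ x, γ (g x) = g (γ x))
    (hg : ∀ x ∈ W, g x - x ∈ W.nonunits)
    (x : ↥(fieldC K L M H)) (hx : x ∈ rtk6dfCo W γ) : g x - x ∈ (rtk6dfCo W γ).nonunits := by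
  rw [mem_nonunits_rtk6dfCo, map_sub, hcomm]
  exact hg (γ x) hx

/-- if `g` commutes with `γ` and `g W ⊆ W`, then `g (γ⁻¹ W) ⊆ γ⁻¹ W` -/
theorem rtk6df_stable_transport (W : ValuationSubring ↥(fieldC K L M H))
    (γ : ↥(fieldC K L M H) ≃ₐ[K] ↥(fieldC K L M H))
    (g : ↥(fieldC K L M H) → ↥(fieldC K L M H)) (hcomm : ∀ x, γ (g x) = g (γ x))
    (hg : ∀ x ∈ W, g x ∈ W)
    (x : ↥(fieldC K L M H)) (hx : x ∈ rtk6dfCo W γ) : g x ∈ rtk6dfCo W γ := by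
  rw [mem_rtk6dfCo, hcomm]
  exact hg (γ x) hx

/-- the same for the maximal ideals -/
theorem rtk6df_nonunits_transport (W : ValuationSubring ↥(fieldC K L M H))
    (γ : ↥(fieldC K L M H) ≃ₐ[K] ↥(fieldC K L M H))
    (g : ↥(fieldC K L M H) → ↥(fieldC K L M H)) (hcomm : ∀ x, γ (g x) = g (γ x))
    (hg : ∀ x ∈ W.nonunits, g x ∈ W.nonunits)
    (x : ↥(fieldC K L M H)) (hx : x ∈ (rtk6dfCo W γ).nonunits) :
    g x ∈ (rtk6dfCo W γ).nonunits := by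
  rw [mem_nonunits_rtk6dfCo, hcomm]
  exact hg (γ x) (mem_nonunits_rtk6dfCo.mp hx)

end Transport

/-! ### `hU` -/

section HU

variable {F : Type*} [Field F]

/-- a uniformizer divides the maximal ideal -/
theorem rtk6df_hU_abs (W : ValuationSubring F) {ϖ : F} (hϖ0 : ϖ ≠ 0) (hϖ : ϖ ∈ W.nonunits)
    (hunif : ∀ f : F, f ≠ 0 → ∃ n : ℤ, W.valuation (f * ϖ ^ n) = 1)
    (x : F) (hx : x ∈ W.nonunits) : ∃ z ∈ W, x = ϖ * z := by
  by_cases hx0 : x = 0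
  · exact ⟨0, W.zero_mem, by rw [hx0, mul_zero]⟩
  obtain ⟨n, hn⟩ := hunif x hx0
  have hvx : W.valuation x < 1 := (ValuationSubring.mem_nonunits_iff (A := W)).mp hx
  have hvϖ : W.valuation ϖ < 1 := (ValuationSubring.mem_nonunits_iff (A := W)).mp hϖ
  have hvϖ0 : W.valuation ϖ ≠ 0 := (Valuation.ne_zero_iff _).mpr hϖ0
  refine ⟨x / ϖ, ?_, by field_simp⟩
  rw [← W.valuation_le_one_iff]
  cases n with
  | ofNat k =>
    exfalso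
    rw [Int.ofNat_eq_natCast, zpow_natCast, map_mul, map_pow] at hn
    have h1 : W.valuation ϖ ^ k ≤ 1 := pow_le_one₀ zero_le hvϖ.le
    have h2 : W.valuation x * W.valuation ϖ ^ k < 1 :=
      calc W.valuation x * W.valuation ϖ ^ k ≤ W.valuation x * 1 := by gcongr
        _ = W.valuation x := mul_one _
        _ < 1 := hvx
    rw [hn] at h2
    exact lt_irrefl _ h2
  | negSucc k =>
    have e : x / ϖ = (x * ϖ ^ (Int.negSucc k)) * ϖ ^ k := by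
      rw [zpow_negSucc, pow_succ]
      field_simp
    rw [e, map_mul, hn, one_mul, map_pow]
    exact pow_le_one₀ zero_le hvϖ.le

end HU

section HUConcrete

variable {A : ValuationSubring Qb} {K₁ : IntermediateField ℚ Qb}
  [IsDiscreteValuationRing ↥(mgcA A K₁)] {π : ↥(mgcA A K₁)} (hπ : Irreducible π)
  {q M₁ : ℕ} [NeZero q] [NeZero M₁] [NeZero (M₁ * q)]
  (M : ℕ) (H : Subgroup (ZMod M)ˣ)
  (w : ↥(rtk6diF A K₁ (M₁ * q) M H) ≃ₐ[↥(mgcE A K₁)] ↥(rtk6diF A K₁ (M₁ * q) M H))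

/-- **`hU`**: `π` generates the maximal ideal of every `V c` -/
theorem rtk6df_hU (c : rtk6dfK hπ M H w) (x : ↥(rtk6diF A K₁ (M₁ * q) M H))
    (hx : x ∈ (rtk6dfV hπ M H w c).nonunits) :
    ∃ z ∈ rtk6dfV hπ M H w c,
      x = algebraMap ↥(mgcA A K₁) ↥(rtk6diF A K₁ (M₁ * q) M H) π * z :=
  rtk6df_hU_abs (rtk6dfV hπ M H w c) (ei_algebraMap_ne_zero (E := ↥(mgcE A K₁)) hπ)
    (rtk6df_hπV hπ M H w c) (fun f hf => rtk6df_hunif hπ M H w c hf) x hx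

/-- the form `x / π ∈ V c` -/
theorem rtk6df_hunif_div (c : rtk6dfK hπ M H w) (x : ↥(rtk6diF A K₁ (M₁ * q) M H))
    (hx : x ∈ (rtk6dfV hπ M H w c).nonunits) :
    x / algebraMap ↥(mgcA A K₁) ↥(rtk6diF A K₁ (M₁ * q) M H) π ∈ rtk6dfV hπ M H w c := by
  obtain ⟨z, hz, rfl⟩ := rtk6df_hU hπ M H w c x hx
  rw [mul_div_cancel_left₀ _ (ei_algebraMap_ne_zero (E := ↥(mgcE A K₁)) hπ)]
  exact hz

end HUConcrete

end Fermat.Agent.RT.K6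

end
end ZBRT_032_8

/-! ### bundled: `Fermat.Agent.RT.K6.M4Inst` -/
section ZBRT_032_9
/-
K-machine, piece K6, piece **M4-inst** (helper82): the hypotheses `hgV`, `hΦV` of
`rtk6ew_main_multi` (`RT/K6/EWMulti.lean`) for EVERY component `c : κ` of the family of
`RT/K6/DIFamMg.lean`, from ONE hypothesis

  `Rtk6m4Stab` : every diamond AT `q` maps `V_∞` into `V_∞`.

Setting of `DIFamMg.lean`: `A′ = mgcA A K₁` a DVR, `F′ = rtk6diF A K₁ (M₁ q) M H`,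
`V_∞ = rtk6dvV … true` (Gauss), `V_0 = rtk6dvV … false = V_∞.comap w`, `κ = rtk6dfK`,
`V = rtk6dfV`; `g = rtk6diGal σ` (`σ` in the inertia group of `A`), `Φ = ofAlgAut δ`,
`δ` a diamond at `q`.

The automorphism `w` enters through the two relations
  `Rtk6m4WDiamond` : `w δ_c = δ_{c⁻¹} w` for the diamonds at `q`      (`rtk6diwW_diamond`),
  `Rtk6m4WGalois`  : `σ̂ w = w δ_c σ̂`, `c` the cyclotomic image of `σ`  (`rtk6diwW_galois`).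

* `rtk6m4_isAtR_inv` : `IsAtR M q c → IsAtR M q c⁻¹`;
* `rtk6m4_diamond_mem_zero`, `rtk6m4_diamond_val_inf`, `rtk6m4_diamond_val_zero` : the diamonds at
  `q` preserve `V_0`, and the valuations of `V_∞`, `V_0`;
* `rtk6m4_gal_val_zero` : `σ̂` preserves the valuation of `V_0`;
* **`rtk6m4_hΦV`**, **`rtk6m4_hgV`** : the two hypotheses of `rtk6ew_main_multi`, for all `c : κ`;
* `rtk6m4_hΦV_mem`, `rtk6m4_hgV_mem` : the stability of every `V c`;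
* `rtk6m4_hΦV_W`, `rtk6m4_hgV_W` : the instance `w = rtk6diwW` (helper96's `DIW.lean`).
-/

set_option autoImplicit false
set_option linter.style.haveILetI false
set_option linter.unusedSectionVars false
set_option linter.unusedVariables false

noncomputable section

namespace Fermat.Agent.RT.K6

open ModularCurve AlgebraicCurve Fermat.Agent.ES Fermat.Agent.ES.G2 Fermat.Agent.INJ
open Fermat.Agent.UNIP Fermat.Agent.ES1 Fermat.Agent.ES1.G2 Fermat.Agent.AL IntermediateField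

section AtR

variable {M r : ℕ}

/-- the diamonds at `r` form a group: inverses -/
theorem rtk6m4_isAtR_inv (hM0 : M ≠ 0) (hrM : r ∣ M) {c : (ZMod M)ˣ} (hc : IsAtR M r c) :
    IsAtR M r c⁻¹ := by
  have h3 := hc
  unfold IsAtR at h3 ⊢
  have hM1 : M / r ∣ M := Nat.div_dvd_of_dvd hrM
  haveI : NeZero M := ⟨hM0⟩
  have hcast : ∀ x : ZMod M, ((x.val : ℕ) : ZMod (M / r)) =
      ZMod.castHom hM1 (ZMod (M / r)) x := fun x => by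
    rw [ZMod.natCast_val, ZMod.castHom_apply]
  rw [hcast] at h3 ⊢
  have h4 : ZMod.castHom hM1 (ZMod (M / r)) (c : ZMod M) *
      ZMod.castHom hM1 (ZMod (M / r)) ((c⁻¹ : (ZMod M)ˣ) : ZMod M) = 1 := by
    rw [← map_mul, ← Units.val_mul, mul_inv_cancel, Units.val_one, map_one]
  rw [h3, one_mul] at h4
  exact h4

end AtR

section Val

variable {F : Type*} [Field F]

/-- `v(b / a) = 1` and `v(b / c) = 1` give `v(c / a) = 1` -/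
theorem rtk6m4_val_div (V : ValuationSubring F) {a b c : F} (hb : b ≠ 0) (hc : c ≠ 0)
    (h1 : V.valuation (b / a) = 1) (h2 : V.valuation (b / c) = 1) :
    V.valuation (c / a) = 1 := by
  have h : c / a = (b / a) / (b / c) := by
    field_simp
  rw [h, map_div₀, h1, h2, div_one]

end Val

section Concrete

variable {A : ValuationSubring Qb} {K₁ : IntermediateField ℚ Qb}
  [IsDiscreteValuationRing ↥(mgcA A K₁)] {π : ↥(mgcA A K₁)} (hπ : Irreducible π)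
  {q M₁ : ℕ} [NeZero q] [NeZero M₁] [NeZero (M₁ * q)]
  (M : ℕ) (H : Subgroup (ZMod M)ˣ)
  (w : ↥(rtk6diF A K₁ (M₁ * q) M H) ≃ₐ[↥(mgcE A K₁)] ↥(rtk6diF A K₁ (M₁ * q) M H))

/-- **hstab**: every diamond at `q` maps `V_∞` into `V_∞`. -/
def Rtk6m4Stab : Prop :=
  ∀ c : (ZMod M)ˣ, IsAtR M q c →
    ∀ δ : ↥(rtk6diF A K₁ (M₁ * q) M H) ≃ₐ[↥(mgcE A K₁)] ↥(rtk6diF A K₁ (M₁ * q) M H),
      IsDiamondC ↥(mgcE A K₁) (M₁ * q) M H c δ →
      ∀ x ∈ rtk6dvV hπ M H w true, δ x ∈ rtk6dvV hπ M H w true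

/-- `w δ_c = δ_{c⁻¹} w` for the diamonds at `q` -/
def Rtk6m4WDiamond : Prop :=
  ∀ c : (ZMod M)ˣ, IsAtR M q c →
    ∀ δ₁ δ₂ : ↥(rtk6diF A K₁ (M₁ * q) M H) ≃ₐ[↥(mgcE A K₁)] ↥(rtk6diF A K₁ (M₁ * q) M H),
      IsDiamondC ↥(mgcE A K₁) (M₁ * q) M H c δ₁ →
      IsDiamondC ↥(mgcE A K₁) (M₁ * q) M H c⁻¹ δ₂ →
      ∀ x, w (δ₁ x) = δ₂ (w x)

/-- `σ̂ w = w δ_c σ̂` -/
def Rtk6m4WGalois (σ : Qb ≃ₐ[ℚ] Qb) (hσE : ∀ x ∈ mgcE A K₁, σ x ∈ mgcE A K₁)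
    (c : (ZMod M)ˣ) : Prop :=
  ∀ δ : ↥(rtk6diF A K₁ (M₁ * q) M H) ≃ₐ[↥(mgcE A K₁)] ↥(rtk6diF A K₁ (M₁ * q) M H),
    IsDiamondC ↥(mgcE A K₁) (M₁ * q) M H c δ →
    ∀ x, rtk6diAct (M₁ * q) M H σ hσE (w x) = w (δ (rtk6diAct (M₁ * q) M H σ hσE x))

variable {M H w}

include hπ in
/-- the uniformizer is not zero in `F′` -/
theorem rtk6m4_pi_ne_zero :
    algebraMap ↥(mgcA A K₁) ↥(rtk6diF A K₁ (M₁ * q) M H) π ≠ 0 :=
  ei_algebraMap_ne_zero (E := ↥(mgcE A K₁)) hπ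

/-- an `E′`-automorphism fixes the uniformizer -/
theorem rtk6m4_fix_pi
    (δ : ↥(rtk6diF A K₁ (M₁ * q) M H) ≃ₐ[↥(mgcE A K₁)] ↥(rtk6diF A K₁ (M₁ * q) M H)) :
    δ (algebraMap ↥(mgcA A K₁) ↥(rtk6diF A K₁ (M₁ * q) M H) π) =
      algebraMap ↥(mgcA A K₁) ↥(rtk6diF A K₁ (M₁ * q) M H) π := by
  rw [IsScalarTower.algebraMap_apply ↥(mgcA A K₁) ↥(mgcE A K₁) ↥(rtk6diF A K₁ (M₁ * q) M H)]
  exact δ.commutes _

/-- an `E′`-automorphism which maps `V_b` into itself preserves its valuation -/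
theorem rtk6m4_val_of_mem (b : Bool)
    (δ : ↥(rtk6diF A K₁ (M₁ * q) M H) ≃ₐ[↥(mgcE A K₁)] ↥(rtk6diF A K₁ (M₁ * q) M H))
    (h : ∀ x ∈ rtk6dvV hπ M H w b, δ x ∈ rtk6dvV hπ M H w b)
    {f : ↥(rtk6diF A K₁ (M₁ * q) M H)} (hf : f ≠ 0) :
    (rtk6dvV hπ M H w b).valuation (δ f / f) = 1 :=
  rtk6dv_val_of_map_mem (rtk6dvV hπ M H w b)
    (δ : ↥(rtk6diF A K₁ (M₁ * q) M H) →+* ↥(rtk6diF A K₁ (M₁ * q) M H)) h _
    (rtk6m4_pi_ne_zero hπ) (rtk6m4_fix_pi δ) (fun f hf => rtk6dv_hunif hπ M H w b hf) hf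

/-- **the diamonds at `q` preserve the valuation of `V_∞`** -/
theorem rtk6m4_diamond_val_inf (hstab : Rtk6m4Stab hπ M H w) {c : (ZMod M)ˣ}
    (hc : IsAtR M q c)
    {δ : ↥(rtk6diF A K₁ (M₁ * q) M H) ≃ₐ[↥(mgcE A K₁)] ↥(rtk6diF A K₁ (M₁ * q) M H)}
    (hδ : IsDiamondC ↥(mgcE A K₁) (M₁ * q) M H c δ)
    {f : ↥(rtk6diF A K₁ (M₁ * q) M H)} (hf : f ≠ 0) :
    (rtk6dvV hπ M H w true).valuation (δ f / f) = 1 :=
  rtk6m4_val_of_mem hπ true δ (hstab c hc δ hδ) hf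

/-- **the diamonds at `q` map `V_0` into `V_0`** -/
theorem rtk6m4_diamond_mem_zero (hML : M ∣ M₁ * q) (hqM' : q ∣ M)
    (hstab : Rtk6m4Stab hπ M H w) (hwδ : Rtk6m4WDiamond M H w) {c : (ZMod M)ˣ}
    (hc : IsAtR M q c)
    {δ : ↥(rtk6diF A K₁ (M₁ * q) M H) ≃ₐ[↥(mgcE A K₁)] ↥(rtk6diF A K₁ (M₁ * q) M H)}
    (hδ : IsDiamondC ↥(mgcE A K₁) (M₁ * q) M H c δ)
    (x : ↥(rtk6diF A K₁ (M₁ * q) M H)) (hx : x ∈ rtk6dvV hπ M H w false) :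
    δ x ∈ rtk6dvV hπ M H w false := by
  haveI : Algebra.IsAlgebraic ℚ Qb := AlgebraicClosure.isAlgebraic ℚ
  haveI : Algebra.IsAlgebraic ℚ ↥(mgcE A K₁) :=
    Algebra.IsAlgebraic.of_injective (mgcE A K₁).val Subtype.val_injective
  have hM0 : M ≠ 0 := fun h0 => NeZero.ne (M₁ * q) (Nat.eq_zero_of_zero_dvd (h0 ▸ hML))
  haveI : NeZero M := ⟨hM0⟩
  obtain ⟨δ₂, hδ₂⟩ := rtk6d0_exists_diamond ↥(mgcE A K₁) H (NeZero.ne (M₁ * q)) hML c⁻¹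
  have hc2 := rtk6m4_isAtR_inv hM0 hqM' hc
  show w (δ x) ∈ rtk6dvV hπ M H w true
  rw [hwδ c hc δ δ₂ hδ hδ₂ x]
  exact hstab c⁻¹ hc2 δ₂ hδ₂ _ hx

/-- **the diamonds at `q` preserve the valuation of `V_0`** -/
theorem rtk6m4_diamond_val_zero (hML : M ∣ M₁ * q) (hqM' : q ∣ M)
    (hstab : Rtk6m4Stab hπ M H w) (hwδ : Rtk6m4WDiamond M H w) {c : (ZMod M)ˣ}
    (hc : IsAtR M q c)
    {δ : ↥(rtk6diF A K₁ (M₁ * q) M H) ≃ₐ[↥(mgcE A K₁)] ↥(rtk6diF A K₁ (M₁ * q) M H)}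
    (hδ : IsDiamondC ↥(mgcE A K₁) (M₁ * q) M H c δ)
    {f : ↥(rtk6diF A K₁ (M₁ * q) M H)} (hf : f ≠ 0) :
    (rtk6dvV hπ M H w false).valuation (δ f / f) = 1 :=
  rtk6m4_val_of_mem hπ false δ (rtk6m4_diamond_mem_zero hπ hML hqM' hstab hwδ hc hδ) hf

/-- the diamonds at `q` preserve the valuations of `V_∞` and `V_0` -/
theorem rtk6m4_diamond_val (hML : M ∣ M₁ * q) (hqM' : q ∣ M)
    (hstab : Rtk6m4Stab hπ M H w) (hwδ : Rtk6m4WDiamond M H w) {c : (ZMod M)ˣ}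
    (hc : IsAtR M q c)
    {δ : ↥(rtk6diF A K₁ (M₁ * q) M H) ≃ₐ[↥(mgcE A K₁)] ↥(rtk6diF A K₁ (M₁ * q) M H)}
    (hδ : IsDiamondC ↥(mgcE A K₁) (M₁ * q) M H c δ) (b : Bool)
    {f : ↥(rtk6diF A K₁ (M₁ * q) M H)} (hf : f ≠ 0) :
    (rtk6dvV hπ M H w b).valuation (δ f / f) = 1 := by
  cases b
  · exact rtk6m4_diamond_val_zero hπ hML hqM' hstab hwδ hc hδ hf
  · exact rtk6m4_diamond_val_inf hπ hstab hc hδ hf

/-- **`σ̂` preserves the valuation of `V_0`** (`σ` in the inertia group, `c` its cyclotomic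
image at `q`): `σ̂ = δ_c⁻¹ (δ_c σ̂)` and `w (δ_c σ̂) = σ̂ w`. -/
theorem rtk6m4_gal_val_zero (hML : M ∣ M₁ * q) (hqM' : q ∣ M)
    (hstab : Rtk6m4Stab hπ M H w) (hwδ : Rtk6m4WDiamond M H w)
    {σ : Qb ≃ₐ[ℚ] Qb} (hσ : σ ∈ A.inertiaSubgroupIn ℚ)
    (hσE : ∀ x ∈ mgcE A K₁, σ x ∈ mgcE A K₁) {c : (ZMod M)ˣ} (hc : IsAtR M q c)
    (hwσ : Rtk6m4WGalois M H w σ hσE c)
    {f : ↥(rtk6diF A K₁ (M₁ * q) M H)} (hf : f ≠ 0) :
    (rtk6dvV hπ M H w false).valuation (rtk6diGal (M₁ * q) M H σ hσE • f / f) = 1 := by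
  haveI : Algebra.IsAlgebraic ℚ Qb := AlgebraicClosure.isAlgebraic ℚ
  haveI : Algebra.IsAlgebraic ℚ ↥(mgcE A K₁) :=
    Algebra.IsAlgebraic.of_injective (mgcE A K₁).val Subtype.val_injective
  have hM0 : M ≠ 0 := fun h0 => NeZero.ne (M₁ * q) (Nat.eq_zero_of_zero_dvd (h0 ▸ hML))
  haveI : NeZero M := ⟨hM0⟩
  obtain ⟨δ, hδ⟩ := rtk6d0_exists_diamond ↥(mgcE A K₁) H (NeZero.ne (M₁ * q)) hML c
  -- `Ψ = δ σ̂`
  set Ψ : ↥(rtk6diF A K₁ (M₁ * q) M H) →+* ↥(rtk6diF A K₁ (M₁ * q) M H) :=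
    (δ : ↥(rtk6diF A K₁ (M₁ * q) M H) →+* ↥(rtk6diF A K₁ (M₁ * q) M H)).comp
      (rtk6diAct (M₁ * q) M H σ hσE) with hΨ
  have hΨw : ∀ x, w (Ψ x) = rtk6diGal (M₁ * q) M H σ hσE • w x := fun x => by
    rw [rtk6diGal_smul]
    exact (hwσ δ hδ x).symm
  have h1 := rtk6dv_hgV_zero hπ M H w hσ hσE Ψ hΨw f hf
  have hg0 : rtk6diAct (M₁ * q) M H σ hσE f ≠ 0 :=
    (map_ne_zero (rtk6diAct (M₁ * q) M H σ hσE)).mpr hf
  have h2 := rtk6m4_diamond_val_zero hπ hML hqM' hstab hwδ hc hδ hg0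
  have hΨ0 : Ψ f ≠ 0 := (map_ne_zero Ψ).mpr hf
  rw [rtk6diGal_smul]
  exact rtk6m4_val_div _ hΨ0 hg0 h1 h2

/-- `σ̂` preserves the valuations of `V_∞` and `V_0` -/
theorem rtk6m4_gal_val (hML : M ∣ M₁ * q) (hqM' : q ∣ M)
    (hstab : Rtk6m4Stab hπ M H w) (hwδ : Rtk6m4WDiamond M H w)
    {σ : Qb ≃ₐ[ℚ] Qb} (hσ : σ ∈ A.inertiaSubgroupIn ℚ)
    (hσE : ∀ x ∈ mgcE A K₁, σ x ∈ mgcE A K₁) {c : (ZMod M)ˣ} (hc : IsAtR M q c)
    (hwσ : Rtk6m4WGalois M H w σ hσE c) (b : Bool)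
    {f : ↥(rtk6diF A K₁ (M₁ * q) M H)} (hf : f ≠ 0) :
    (rtk6dvV hπ M H w b).valuation (rtk6diGal (M₁ * q) M H σ hσE • f / f) = 1 := by
  cases b
  · exact rtk6m4_gal_val_zero hπ hML hqM' hstab hwδ hσ hσE hc hwσ hf
  · exact rtk6dv_hgV_inf hπ M H w hσ hσE f hf

/-! ### All components -/

/-- **hΦV** of `rtk6ew_main_multi`: a diamond at `q` preserves the valuation of every
component `V c`, `c : κ`. -/
theorem rtk6m4_hΦV (hML : M ∣ M₁ * q) (hqM' : q ∣ M)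
    (hstab : Rtk6m4Stab hπ M H w) (hwδ : Rtk6m4WDiamond M H w) {c₀ : (ZMod M)ˣ}
    (hc₀ : IsAtR M q c₀)
    {δ₀ : ↥(rtk6diF A K₁ (M₁ * q) M H) ≃ₐ[↥(mgcE A K₁)] ↥(rtk6diF A K₁ (M₁ * q) M H)}
    (hδ₀ : IsDiamondC ↥(mgcE A K₁) (M₁ * q) M H c₀ δ₀) :
    ∀ (c : rtk6dfK hπ M H w) (f : ↥(rtk6diF A K₁ (M₁ * q) M H)), f ≠ 0 →
      (rtk6dfV hπ M H w c).valuation (SemilinearAut.ofAlgAut δ₀ • f / f) = 1 := by
  haveI : Algebra.IsAlgebraic ℚ Qb := AlgebraicClosure.isAlgebraic ℚ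
  haveI : Algebra.IsAlgebraic ℚ ↥(mgcE A K₁) :=
    Algebra.IsAlgebraic.of_injective (mgcE A K₁).val Subtype.val_injective
  have hM0 : M ≠ 0 := fun h0 => NeZero.ne (M₁ * q) (Nat.eq_zero_of_zero_dvd (h0 ▸ hML))
  haveI : NeZero M := ⟨hM0⟩
  intro c
  refine rtk6df_forallK hπ M H w
    (P := fun W => ∀ f : ↥(rtk6diF A K₁ (M₁ * q) M H), f ≠ 0 →
      W.valuation (SemilinearAut.ofAlgAut δ₀ • f / f) = 1) (fun γ hγ b => ?_) c
  intro f hf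
  simp only [SemilinearAut.ofAlgAut_smul]
  exact rtk6df_val_transport (rtk6dvV hπ M H w b) γ (fun x => δ₀ x)
    (fun x => rtk6df_gam_comm_diamond (NeZero.ne (M₁ * q)) hML hγ hδ₀ x)
    (fun f hf => rtk6m4_diamond_val hπ hML hqM' hstab hwδ hc₀ hδ₀ b hf) f hf

/-- **hgV** of `rtk6ew_main_multi`: `g = rtk6diGal σ` (`σ` in the inertia group of `A`, with
cyclotomic image `c₀` at `q`) preserves the valuation of every component `V c`, `c : κ`. -/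
theorem rtk6m4_hgV (hML : M ∣ M₁ * q) (hqM' : q ∣ M)
    (hstab : Rtk6m4Stab hπ M H w) (hwδ : Rtk6m4WDiamond M H w)
    {σ : Qb ≃ₐ[ℚ] Qb} (hσ : σ ∈ A.inertiaSubgroupIn ℚ)
    (hσE : ∀ x ∈ mgcE A K₁, σ x ∈ mgcE A K₁) {c₀ : (ZMod M)ˣ} (hc₀ : IsAtR M q c₀)
    (hwσ : Rtk6m4WGalois M H w σ hσE c₀) :
    ∀ (c : rtk6dfK hπ M H w) (f : ↥(rtk6diF A K₁ (M₁ * q) M H)), f ≠ 0 →
      (rtk6dfV hπ M H w c).valuation (rtk6diGal (M₁ * q) M H σ hσE • f / f) = 1 := by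
  intro c
  refine rtk6df_forallK hπ M H w
    (P := fun W => ∀ f : ↥(rtk6diF A K₁ (M₁ * q) M H), f ≠ 0 →
      W.valuation (rtk6diGal (M₁ * q) M H σ hσE • f / f) = 1) (fun γ hγ b => ?_) c
  intro f hf
  exact rtk6df_val_transport (rtk6dvV hπ M H w b) γ
    (fun x => rtk6diGal (M₁ * q) M H σ hσE • x)
    (fun x => rtk6df_gam_comm_gal (NeZero.ne (M₁ * q)) hML hγ σ hσE x)
    (fun f hf => rtk6m4_gal_val hπ hML hqM' hstab hwδ hσ hσE hc₀ hwσ b hf) f hf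

/-- every component `V c` is stable under the diamonds at `q` -/
theorem rtk6m4_hΦV_mem (hML : M ∣ M₁ * q) (hqM' : q ∣ M)
    (hstab : Rtk6m4Stab hπ M H w) (hwδ : Rtk6m4WDiamond M H w) {c₀ : (ZMod M)ˣ}
    (hc₀ : IsAtR M q c₀)
    {δ₀ : ↥(rtk6diF A K₁ (M₁ * q) M H) ≃ₐ[↥(mgcE A K₁)] ↥(rtk6diF A K₁ (M₁ * q) M H)}
    (hδ₀ : IsDiamondC ↥(mgcE A K₁) (M₁ * q) M H c₀ δ₀) (c : rtk6dfK hπ M H w)
    (x : ↥(rtk6diF A K₁ (M₁ * q) M H)) (hx : x ∈ rtk6dfV hπ M H w c) :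
    δ₀ x ∈ rtk6dfV hπ M H w c := by
  rcases eq_or_ne x 0 with rfl | hx0
  · rw [map_zero]
    exact (rtk6dfV hπ M H w c).zero_mem
  have h := rtk6m4_hΦV hπ hML hqM' hstab hwδ hc₀ hδ₀ c x hx0
  rw [SemilinearAut.ofAlgAut_smul] at h
  have h2 : δ₀ x = (δ₀ x / x) * x := by field_simp
  rw [h2]
  exact (rtk6dfV hπ M H w c).mul_mem _ _
    (((rtk6dfV hπ M H w c).valuation_le_one_iff _).1 h.le) hx

/-- every component `V c` is stable under `σ̂` -/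
theorem rtk6m4_hgV_mem (hML : M ∣ M₁ * q) (hqM' : q ∣ M)
    (hstab : Rtk6m4Stab hπ M H w) (hwδ : Rtk6m4WDiamond M H w)
    {σ : Qb ≃ₐ[ℚ] Qb} (hσ : σ ∈ A.inertiaSubgroupIn ℚ)
    (hσE : ∀ x ∈ mgcE A K₁, σ x ∈ mgcE A K₁) {c₀ : (ZMod M)ˣ} (hc₀ : IsAtR M q c₀)
    (hwσ : Rtk6m4WGalois M H w σ hσE c₀) (c : rtk6dfK hπ M H w)
    (x : ↥(rtk6diF A K₁ (M₁ * q) M H)) (hx : x ∈ rtk6dfV hπ M H w c) :
    rtk6diGal (M₁ * q) M H σ hσE • x ∈ rtk6dfV hπ M H w c := by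
  rcases eq_or_ne x 0 with rfl | hx0
  · rw [smul_zero]
    exact (rtk6dfV hπ M H w c).zero_mem
  have h := rtk6m4_hgV hπ hML hqM' hstab hwδ hσ hσE hc₀ hwσ c x hx0
  have h2 : rtk6diGal (M₁ * q) M H σ hσE • x = (rtk6diGal (M₁ * q) M H σ hσE • x / x) * x := by
    field_simp
  rw [h2]
  exact (rtk6dfV hπ M H w c).mul_mem _ _
    (((rtk6dfV hπ M H w c).valuation_le_one_iff _).1 h.le) hx

end Concrete

/-! ### The instance `w = rtk6diwW` -/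

section Inst

variable {A : ValuationSubring Qb} {K₁ : IntermediateField ℚ Qb}
  [IsDiscreteValuationRing ↥(mgcA A K₁)] {π : ↥(mgcA A K₁)} (hπ : Irreducible π)
  {q M₁ : ℕ} [NeZero q] [NeZero M₁] [NeZero (M₁ * q)]
  {M : ℕ} {H : Subgroup (ZMod M)ˣ}
  (w₀ : fieldBar (M₁ * q) M H ≃ₐ[Qb] fieldBar (M₁ * q) M H) (hw₀ : IsWAt (M₁ * q) M H q w₀)
  (hM0 : M ≠ 0) (hq : q.Prime) (hqM' : q ∣ M)
  (hζ : ∀ ζ : Qb, ζ ^ q = 1 → ζ ∈ mgcE A K₁)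

/-- `Rtk6m4WDiamond` for `w = rtk6diwW` -/
theorem rtk6m4_wDiamond (hML : M ∣ M₁ * q) :
    Rtk6m4WDiamond (A := A) (K₁ := K₁) (q := q) (M₁ := M₁) M H
      (rtk6diwW (K₀ := mgcE A K₁) w₀ hw₀ hM0 hq hqM' hζ) :=
  fun c hc δ₁ δ₂ hδ₁ hδ₂ x =>
    rtk6diwW_diamond w₀ hw₀ hM0 hq hqM' hζ (NeZero.ne (M₁ * q)) hML c hc δ₁ δ₂ hδ₁ hδ₂ x

/-- `Rtk6m4WGalois` for `w = rtk6diwW` -/
theorem rtk6m4_wGalois (hML : M ∣ M₁ * q) (σ : Qb ≃ₐ[ℚ] Qb)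
    (hσE : ∀ x ∈ mgcE A K₁, σ x ∈ mgcE A K₁) {c : (ZMod M)ˣ} (hc : IsCycAt M q σ c) :
    Rtk6m4WGalois (A := A) (K₁ := K₁) (q := q) (M₁ := M₁) M H
      (rtk6diwW (K₀ := mgcE A K₁) w₀ hw₀ hM0 hq hqM' hζ) σ hσE c :=
  fun δ hδ x =>
    rtk6diwW_galois w₀ hw₀ hM0 hq hqM' hζ (NeZero.ne (M₁ * q)) hML σ hσE c hc δ hδ x

/-- **hΦV** of `rtk6ew_main_multi` at `w = rtk6diwW`, `Φ = ofAlgAut δ₀`, `δ₀` a diamond at
`q`, from `hstab`. -/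
theorem rtk6m4_hΦV_W (hML : M ∣ M₁ * q)
    (hstab : Rtk6m4Stab hπ M H (rtk6diwW (K₀ := mgcE A K₁) w₀ hw₀ hM0 hq hqM' hζ))
    {c₀ : (ZMod M)ˣ} (hc₀ : IsAtR M q c₀)
    {δ₀ : ↥(rtk6diF A K₁ (M₁ * q) M H) ≃ₐ[↥(mgcE A K₁)] ↥(rtk6diF A K₁ (M₁ * q) M H)}
    (hδ₀ : IsDiamondC ↥(mgcE A K₁) (M₁ * q) M H c₀ δ₀) :
    ∀ (c : rtk6dfK hπ M H (rtk6diwW (K₀ := mgcE A K₁) w₀ hw₀ hM0 hq hqM' hζ))
      (f : ↥(rtk6diF A K₁ (M₁ * q) M H)), f ≠ 0 →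
      (rtk6dfV hπ M H (rtk6diwW (K₀ := mgcE A K₁) w₀ hw₀ hM0 hq hqM' hζ) c).valuation
        (SemilinearAut.ofAlgAut δ₀ • f / f) = 1 :=
  rtk6m4_hΦV hπ hML hqM' hstab (rtk6m4_wDiamond w₀ hw₀ hM0 hq hqM' hζ hML) hc₀ hδ₀

/-- **hgV** of `rtk6ew_main_multi` at `w = rtk6diwW`, `g = rtk6diGal σ`, `σ` in the inertia
group of `A` with cyclotomic image `c₀` at `q`, from `hstab`. -/
theorem rtk6m4_hgV_W (hML : M ∣ M₁ * q)
    (hstab : Rtk6m4Stab hπ M H (rtk6diwW (K₀ := mgcE A K₁) w₀ hw₀ hM0 hq hqM' hζ))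
    {σ : Qb ≃ₐ[ℚ] Qb} (hσ : σ ∈ A.inertiaSubgroupIn ℚ)
    (hσE : ∀ x ∈ mgcE A K₁, σ x ∈ mgcE A K₁) {c₀ : (ZMod M)ˣ} (hc₀ : IsCycAt M q σ c₀) :
    ∀ (c : rtk6dfK hπ M H (rtk6diwW (K₀ := mgcE A K₁) w₀ hw₀ hM0 hq hqM' hζ))
      (f : ↥(rtk6diF A K₁ (M₁ * q) M H)), f ≠ 0 →
      (rtk6dfV hπ M H (rtk6diwW (K₀ := mgcE A K₁) w₀ hw₀ hM0 hq hqM' hζ) c).valuation
        (rtk6diGal (M₁ * q) M H σ hσE • f / f) = 1 :=
  rtk6m4_hgV hπ hML hqM' hstab (rtk6m4_wDiamond w₀ hw₀ hM0 hq hqM' hζ hML) hσ hσE hc₀.2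
    (rtk6m4_wGalois w₀ hw₀ hM0 hq hqM' hζ hML σ hσE hc₀)

end Inst

end Fermat.Agent.RT.K6

end
end ZBRT_032_9

/-! ### bundled: `Fermat.Agent.RT.K6.M4EMain` -/
section ZBRT_032_10
/-
K-machine, piece K6 (helper82): the inputs **(M1)** `Rtk6emFam` and **(M4-inst)** `Rtk6emStab`
of `RT/K6/EMain.lean` (helper18) at the family `κ = rtk6dfK`, `V = rtk6dfV` of ALL conjugates
of the two vertical valuations `V_∞`, `V_0 = V_∞.comap w` (`RT/K6/DIFamMg.lean`).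

* `rtk6m1_emFam` : **`Rtk6emFam A K₁ (M₁ q) M H π (rtk6dfV hπ M H w)`** from
  `hw : Rtk6dvWIncl ιC hq hqM M H w` (`w` extends the Atkin–Lehner involution of the
  `Γ₀(M₁ q)`-field), `hA : A.LiesOverPrime q`, `hML : M ∣ M₁ q`;
* `rtk6m4_emStab_g` : **`Rtk6emStab … (rtk6dfV hπ M H w) (rtk6diGal (M₁ q) M H σ hσE)`**,
  `σ` in the inertia group of `A`, from `hstab : Rtk6m4Stab hπ M H w`;
* `rtk6m4_emStab_Φ` : **`Rtk6emStab … (rtk6dfV hπ M H w) (SemilinearAut.ofAlgAut δ₀)`**, `δ₀` a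
  diamond at `q`, from `hstab`;
* `rtk6m1_emFam_W`, `rtk6m4_emStab_g_W`, `rtk6m4_emStab_Φ_W` : the instance `w = rtk6diwW`
  (helper96's `DIW.lean`), where the relations of `w` with the diamonds and with the Galois
  action are discharged.
-/

set_option autoImplicit false
set_option linter.style.haveILetI false
set_option linter.unusedSectionVars false
set_option linter.unusedVariables false

noncomputable section

namespace Fermat.Agent.RT.K6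

open ModularCurve AlgebraicCurve Fermat.Agent.ES Fermat.Agent.ES.G2 Fermat.Agent.INJ
open Fermat.Agent.UNIP Fermat.Agent.ES1 Fermat.Agent.ES1.G2 Fermat.Agent.AL IntermediateField

section Concrete

variable {A : ValuationSubring Qb} {K₁ : IntermediateField ℚ Qb}
  [IsDiscreteValuationRing ↥(mgcA A K₁)] {π : ↥(mgcA A K₁)} (hπ : Irreducible π)
  (ιC : ↥(mgcE A K₁) →+* ℂ) {q M₁ : ℕ} [NeZero q] [NeZero M₁] [NeZero (M₁ * q)]
  (hq : q.Prime) (hqM : ¬ q ∣ M₁) {M : ℕ} {H : Subgroup (ZMod M)ˣ}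
  {w : ↥(rtk6diF A K₁ (M₁ * q) M H) ≃ₐ[↥(mgcE A K₁)] ↥(rtk6diF A K₁ (M₁ * q) M H)}

/-- **(M1)**: the family of all conjugates of `V_∞`, `V_0` satisfies `Rtk6emFam`. -/
theorem rtk6m1_emFam (hw : Rtk6dvWIncl ιC hq hqM M H w) (hA : A.LiesOverPrime q)
    (hML : M ∣ M₁ * q) :
    Rtk6emFam A K₁ (M₁ * q) M H π (rtk6dfV hπ M H w) where
  hfin := rtk6df_finiteK hπ M H w hML
  hinj := rtk6dfV_injective hπ M H w
  hBV₁ := fun c b hb => rtk6df_hBV₁ hπ ιC hq hqM M H w hw c b hb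
  hBV₂ := fun c b hb => rtk6df_hBV₂ hπ ιC hq hqM M H w hw c b hb
  hπV := fun c => rtk6df_hπV hπ M H w c
  harch := fun c a x ha => rtk6df_harch hπ M H w c a x ha
  hVloc₁ := fun c x hx => rtk6df_hVloc₁ hπ ιC hq hqM M H w hw hA hML c x hx
  hVloc₂ := fun c x hx => rtk6df_hVloc₂ hπ ιC hq hqM M H w hw hA hML c x hx

/-- **(M4-inst) for `g = rtk6diGal σ`**, `σ` in the inertia group of `A`, `c₀` its cyclotomic
image at `q`. -/
theorem rtk6m4_emStab_g (hML : M ∣ M₁ * q) (hqM' : q ∣ M)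
    (hstab : Rtk6m4Stab hπ M H w) (hwδ : Rtk6m4WDiamond M H w)
    {σ : Qb ≃ₐ[ℚ] Qb} (hσ : σ ∈ A.inertiaSubgroupIn ℚ)
    (hσE : ∀ x ∈ mgcE A K₁, σ x ∈ mgcE A K₁) {c₀ : (ZMod M)ˣ} (hc₀ : IsAtR M q c₀)
    (hwσ : Rtk6m4WGalois M H w σ hσE c₀) :
    Rtk6emStab A K₁ (M₁ * q) M H (rtk6dfV hπ M H w) (rtk6diGal (M₁ * q) M H σ hσE) :=
  rtk6m4_hgV hπ hML hqM' hstab hwδ hσ hσE hc₀ hwσ

/-- **(M4-inst) for `Φ = ofAlgAut δ₀`**, `δ₀` a diamond at `q`. -/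
theorem rtk6m4_emStab_Φ (hML : M ∣ M₁ * q) (hqM' : q ∣ M)
    (hstab : Rtk6m4Stab hπ M H w) (hwδ : Rtk6m4WDiamond M H w) {c₀ : (ZMod M)ˣ}
    (hc₀ : IsAtR M q c₀)
    {δ₀ : ↥(rtk6diF A K₁ (M₁ * q) M H) ≃ₐ[↥(mgcE A K₁)] ↥(rtk6diF A K₁ (M₁ * q) M H)}
    (hδ₀ : IsDiamondC ↥(mgcE A K₁) (M₁ * q) M H c₀ δ₀) :
    Rtk6emStab A K₁ (M₁ * q) M H (rtk6dfV hπ M H w) (SemilinearAut.ofAlgAut δ₀) :=
  rtk6m4_hΦV hπ hML hqM' hstab hwδ hc₀ hδ₀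

end Concrete

/-! ### The instance `w = rtk6diwW` -/

section Inst

variable {A : ValuationSubring Qb} {K₁ : IntermediateField ℚ Qb}
  [IsDiscreteValuationRing ↥(mgcA A K₁)] {π : ↥(mgcA A K₁)} (hπ : Irreducible π)
  (ιC : ↥(mgcE A K₁) →+* ℂ) {q M₁ : ℕ} [NeZero q] [NeZero M₁] [NeZero (M₁ * q)]
  {M : ℕ} {H : Subgroup (ZMod M)ˣ}
  (w₀ : fieldBar (M₁ * q) M H ≃ₐ[Qb] fieldBar (M₁ * q) M H) (hw₀ : IsWAt (M₁ * q) M H q w₀)
  (hM0 : M ≠ 0) (hq : q.Prime) (hqM' : q ∣ M) (hqM : ¬ q ∣ M₁)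
  (hζ : ∀ ζ : Qb, ζ ^ q = 1 → ζ ∈ mgcE A K₁)

/-- `rtk6diwW` extends the Atkin–Lehner involution -/
theorem rtk6m1_wIncl :
    Rtk6dvWIncl ιC hq hqM M H (rtk6diwW (K₀ := mgcE A K₁) w₀ hw₀ hM0 hq hqM' hζ) :=
  fun x => rtk6diwW_incl w₀ hw₀ hM0 hq hqM' hζ ιC hqM x

include ιC hqM in
/-- **(M1) at `w = rtk6diwW`** -/
theorem rtk6m1_emFam_W (hA : A.LiesOverPrime q) (hML : M ∣ M₁ * q) :
    Rtk6emFam A K₁ (M₁ * q) M H π
      (rtk6dfV hπ M H (rtk6diwW (K₀ := mgcE A K₁) w₀ hw₀ hM0 hq hqM' hζ)) :=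
  rtk6m1_emFam hπ ιC hq hqM (rtk6m1_wIncl ιC w₀ hw₀ hM0 hq hqM' hqM hζ) hA hML

/-- **(M4-inst) for `g` at `w = rtk6diwW`** -/
theorem rtk6m4_emStab_g_W (hML : M ∣ M₁ * q)
    (hstab : Rtk6m4Stab hπ M H (rtk6diwW (K₀ := mgcE A K₁) w₀ hw₀ hM0 hq hqM' hζ))
    {σ : Qb ≃ₐ[ℚ] Qb} (hσ : σ ∈ A.inertiaSubgroupIn ℚ)
    (hσE : ∀ x ∈ mgcE A K₁, σ x ∈ mgcE A K₁) {c₀ : (ZMod M)ˣ} (hc₀ : IsCycAt M q σ c₀) :
    Rtk6emStab A K₁ (M₁ * q) M H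
      (rtk6dfV hπ M H (rtk6diwW (K₀ := mgcE A K₁) w₀ hw₀ hM0 hq hqM' hζ))
      (rtk6diGal (M₁ * q) M H σ hσE) :=
  rtk6m4_hgV_W hπ w₀ hw₀ hM0 hq hqM' hζ hML hstab hσ hσE hc₀

/-- **(M4-inst) for `Φ` at `w = rtk6diwW`** -/
theorem rtk6m4_emStab_Φ_W (hML : M ∣ M₁ * q)
    (hstab : Rtk6m4Stab hπ M H (rtk6diwW (K₀ := mgcE A K₁) w₀ hw₀ hM0 hq hqM' hζ))
    {c₀ : (ZMod M)ˣ} (hc₀ : IsAtR M q c₀)
    {δ₀ : ↥(rtk6diF A K₁ (M₁ * q) M H) ≃ₐ[↥(mgcE A K₁)] ↥(rtk6diF A K₁ (M₁ * q) M H)}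
    (hδ₀ : IsDiamondC ↥(mgcE A K₁) (M₁ * q) M H c₀ δ₀) :
    Rtk6emStab A K₁ (M₁ * q) M H
      (rtk6dfV hπ M H (rtk6diwW (K₀ := mgcE A K₁) w₀ hw₀ hM0 hq hqM' hζ))
      (SemilinearAut.ofAlgAut δ₀) :=
  rtk6m4_hΦV_W hπ w₀ hw₀ hM0 hq hqM' hζ hML hstab hc₀ hδ₀

end Inst

end Fermat.Agent.RT.K6

end
end ZBRT_032_10

/-! ### bundled: `Fermat.Agent.RT.K6.M5Inst` -/
section ZBRT_032_11
/-
K-machine, piece K6 / M5 (helper96), part 3: `htoric` of `rtk6ew_main_multi` for helper82's family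
`κ = rtk6dfK hπ M H w′`, `V = rtk6dfV hπ M H w′` of ALL `Γ`-conjugates of `V_∞`, `V_0` on
`F′ = rtk6diF A K₁ (M₁ q) M H`, `E′ = mgcE A K₁`.

* `rtk6m5_gal_quot_eq_chi` : `g • x / x = rtk6eChi σ δ₀ u₀` for `g = rtk6diGal σ`,
  `x = δ₀ (σ̂ u₀) / u₀`;
* **`rtk6m5_htoric_chi`** : there is a number field `K₀` such that for every `K₁ ⊇ K₀` (with
  `A′ = mgcA A K₁` a DVR, `E′` stable under `σ`), every `w′` lifting `w`, every diamond `δ₀` for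
  `c = c(σ)` and every descent `u₀ ∈ F′` of `u`:
  `∃ tt : κ → F′, (∀ c, tt c ≠ 0) ∧ ∀ c, (g • x / x) / tt c ^ n - 1 ∈ 𝔪(V c)`,
  `g = rtk6diGal σ`, `x = δ₀ (σ̂ u₀) / u₀` — LITERALLY the hypothesis `htoric` of
  `rtk6ew_main_multi` (with `p ^ r := n`);
* **`rtk6m5_htoric_unip`** : the same with `x = u₀` when the diamond `δ_c` is trivial (UNIP_H);
* `rtk6m5_htoric_chi_W`, `rtk6m5_htoric_unip_W` : the same for `w′ := rtk6diwW w …` (DIW).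
-/

set_option autoImplicit false
set_option linter.style.haveILetI false
set_option linter.unusedSectionVars false
set_option linter.unusedVariables false

noncomputable section

namespace Fermat.Agent.RT.K6

open ModularCurve AlgebraicCurve HahnSeries Fermat.Agent.ES Fermat.Agent.ES.G2 Fermat.Agent.INJ
open Fermat.Agent.UNIP Fermat.Agent.ES1 Fermat.Agent.ES1.G2 IntermediateField

section Quot

variable {K₀ : IntermediateField ℚ Qb} {L M : ℕ} {H : Subgroup (ZMod M)ˣ}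

theorem rtk6m5_field_aux {F : Type*} [Field F] (a b s u : F) (hb : b ≠ 0) (hs : s ≠ 0)
    (hu : u ≠ 0) : a / s / (b / u) = a * u / (s * b) := by
  field_simp

/-- `σ̂ x / x = rtk6eChi σ δ₀ u₀` for `x = δ₀ (σ̂ u₀) / u₀` -/
theorem rtk6m5_act_quot_eq_chi (σ : Qb ≃ₐ[ℚ] Qb) (hσ : ∀ x ∈ K₀, σ x ∈ K₀)
    (δ₀ : ↥(fieldC ↥K₀ L M H) ≃ₐ[↥K₀] ↥(fieldC ↥K₀ L M H)) {u₀ : ↥(fieldC ↥K₀ L M H)}
    (hu₀ : u₀ ≠ 0) :
    rtk6eAct K₀ L M H σ hσ (δ₀ (rtk6eAct K₀ L M H σ hσ u₀) / u₀) /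
        (δ₀ (rtk6eAct K₀ L M H σ hσ u₀) / u₀) =
      rtk6eChi K₀ L M H σ hσ δ₀ u₀ := by
  have h1 : rtk6eAct K₀ L M H σ hσ u₀ ≠ 0 := (map_ne_zero _).mpr hu₀
  have h2 : δ₀ (rtk6eAct K₀ L M H σ hσ u₀) ≠ 0 := (map_ne_zero δ₀).mpr h1
  unfold rtk6eChi
  rw [map_div₀ (rtk6eAct K₀ L M H σ hσ)]
  exact rtk6m5_field_aux _ _ _ _ h2 h1 hu₀

end Quot

section Concrete

variable {q M₁ : ℕ} [NeZero q] [NeZero M₁] [NeZero (M₁ * q)] {M : ℕ} {H : Subgroup (ZMod M)ˣ}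
  {w : fieldBar (M₁ * q) M H ≃ₐ[Qb] fieldBar (M₁ * q) M H}

/-- `g • x / x = rtk6eChi σ δ₀ u₀` for `g = rtk6diGal σ`, `x = δ₀ (σ̂ u₀) / u₀` -/
theorem rtk6m5_gal_quot_eq_chi {A : ValuationSubring Qb} {K₁ : IntermediateField ℚ Qb}
    (σ : Qb ≃ₐ[ℚ] Qb) (hσE : ∀ x ∈ mgcE A K₁, σ x ∈ mgcE A K₁)
    (δ₀ : ↥(rtk6diF A K₁ (M₁ * q) M H) ≃ₐ[↥(mgcE A K₁)] ↥(rtk6diF A K₁ (M₁ * q) M H))
    {u₀ : ↥(rtk6diF A K₁ (M₁ * q) M H)} (hu₀ : u₀ ≠ 0) :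
    rtk6diGal (M₁ * q) M H σ hσE • (δ₀ (rtk6diAct (M₁ * q) M H σ hσE u₀) / u₀) /
        (δ₀ (rtk6diAct (M₁ * q) M H σ hσE u₀) / u₀) =
      rtk6eChi (mgcE A K₁) (M₁ * q) M H σ hσE δ₀ u₀ :=
  rtk6m5_act_quot_eq_chi σ hσE δ₀ hu₀

/-- **M5, (χ): the hypothesis `htoric` of `rtk6ew_main_multi`** for the family
`κ = rtk6dfK`, `V = rtk6dfV`, `g = rtk6diGal σ`, `x = δ₀ (σ̂ u₀) / u₀`. -/
theorem rtk6m5_htoric_chi (hML : M ∣ M₁ * q) (hw : IsWAt (M₁ * q) M H q w)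
    (A : ValuationSubring Qb) (σ : Qb ≃ₐ[ℚ] Qb) (hσ : σ ∈ A.inertiaSubgroupIn ℚ)
    {c : (ZMod M)ˣ} (hc : IsCycAt M q σ c)
    {u : fieldBar (M₁ * q) M H} (hu : u ≠ 0) {n : ℕ} (hn : n ≠ 0) :
    ∃ K₀ : IntermediateField ℚ Qb, FiniteDimensional ℚ K₀ ∧
      ∀ K₁ : IntermediateField ℚ Qb, K₀ ≤ K₁ →
        ∀ [IsDiscreteValuationRing ↥(mgcA A K₁)] {π : ↥(mgcA A K₁)} (hπ : Irreducible π)
          (w' : ↥(rtk6diF A K₁ (M₁ * q) M H) ≃ₐ[↥(mgcE A K₁)] ↥(rtk6diF A K₁ (M₁ * q) M H)),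
          (∀ x : ↥(rtk6diF A K₁ (M₁ * q) M H),
            nfEmbH (mgcE A K₁) (M₁ * q) M H (w' x) = w (nfEmbH (mgcE A K₁) (M₁ * q) M H x)) →
          ∀ (hσE : ∀ x ∈ mgcE A K₁, σ x ∈ mgcE A K₁)
            (δ₀ : ↥(rtk6diF A K₁ (M₁ * q) M H) ≃ₐ[↥(mgcE A K₁)] ↥(rtk6diF A K₁ (M₁ * q) M H)),
            IsDiamondC ↥(mgcE A K₁) (M₁ * q) M H c δ₀ →
            ∀ u₀ : ↥(rtk6diF A K₁ (M₁ * q) M H), nfEmbH (mgcE A K₁) (M₁ * q) M H u₀ = u →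
              ∃ tt : rtk6dfK hπ M H w' → ↥(rtk6diF A K₁ (M₁ * q) M H), (∀ c, tt c ≠ 0) ∧
                ∀ c, (rtk6diGal (M₁ * q) M H σ hσE •
                      (δ₀ (rtk6diAct (M₁ * q) M H σ hσE u₀) / u₀) /
                    (δ₀ (rtk6diAct (M₁ * q) M H σ hσE u₀) / u₀)) / tt c ^ n - 1 ∈
                  (rtk6dfV hπ M H w' c).nonunits := by
  have hL : M₁ * q ≠ 0 := NeZero.ne _
  obtain ⟨K₀, hfin, h⟩ := rtk6m5_pack_chi hL hML hw A σ hσ hc hu hn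
  refine ⟨K₀, hfin, fun K₁ hK _ π hπ w' hw' hσE δ₀ hδ₀ u₀ hu₀ => ?_⟩
  haveI : Algebra.IsAlgebraic ℚ Qb := AlgebraicClosure.isAlgebraic ℚ
  haveI : Algebra.IsAlgebraic ℚ ↥(mgcE A K₁) :=
    Algebra.IsAlgebraic.of_injective (mgcE A K₁).val Subtype.val_injective
  haveI : NeZero M := ⟨fun h0 => hL (Nat.eq_zero_of_zero_dvd (h0 ▸ hML))⟩
  have hu₀0 : u₀ ≠ 0 := by
    rintro rfl
    rw [map_zero] at hu₀
    exact hu hu₀.symm
  have hE : K₀ ≤ mgcE A K₁ := le_trans hK le_sup_right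
  have key : ∀ c : rtk6dfK hπ M H w', ∃ tt : ↥(rtk6diF A K₁ (M₁ * q) M H), tt ≠ 0 ∧
      rtk6eChi (mgcE A K₁) (M₁ * q) M H σ hσE δ₀ u₀ / tt ^ n - 1 ∈
        (rtk6dfV hπ M H w' c).nonunits := by
    intro c
    obtain ⟨γ, hγ, b, hV⟩ := rtk6df_existsK hπ M H w' c
    obtain ⟨c', hc'⟩ := rtk6df_isDiamond hL hML hγ
    obtain ⟨tt, htt, hmem⟩ := h (mgcE A K₁) hE (vtBase_residue hπ)
      (Fermat.Agent.STB.stb_mgt_c1 A (mgcE A K₁)) (Fermat.Agent.STB.stb_mgt_c2 A (mgcE A K₁))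
      w' hw' hσE δ₀ hδ₀ u₀ hu₀ c' γ hc' b
    refine ⟨tt, htt, ?_⟩
    rw [hV]
    exact hmem
  choose tt htt hmem using key
  refine ⟨tt, htt, fun c => ?_⟩
  rw [rtk6m5_gal_quot_eq_chi σ hσE δ₀ hu₀0]
  exact hmem c

/-- **M5, (UNIP_H): the hypothesis `htoric` of `rtk6ew_main_multi`** for the family
`κ = rtk6dfK`, `V = rtk6dfV`, `g = rtk6diGal σ`, `x = u₀`, when the diamond `δ_c` is trivial. -/
theorem rtk6m5_htoric_unip (hML : M ∣ M₁ * q) (hw : IsWAt (M₁ * q) M H q w)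
    (A : ValuationSubring Qb) (σ : Qb ≃ₐ[ℚ] Qb) (hσ : σ ∈ A.inertiaSubgroupIn ℚ)
    {c : (ZMod M)ˣ} (hc : IsCycAt M q σ c)
    (hδ : IsDiamondH (M₁ * q) M H c
      (1 : fieldBar (M₁ * q) M H ≃ₐ[Qb] fieldBar (M₁ * q) M H))
    {u : fieldBar (M₁ * q) M H} (hu : u ≠ 0) {n : ℕ} (hn : n ≠ 0) :
    ∃ K₀ : IntermediateField ℚ Qb, FiniteDimensional ℚ K₀ ∧
      ∀ K₁ : IntermediateField ℚ Qb, K₀ ≤ K₁ →
        ∀ [IsDiscreteValuationRing ↥(mgcA A K₁)] {π : ↥(mgcA A K₁)} (hπ : Irreducible π)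
          (w' : ↥(rtk6diF A K₁ (M₁ * q) M H) ≃ₐ[↥(mgcE A K₁)] ↥(rtk6diF A K₁ (M₁ * q) M H)),
          (∀ x : ↥(rtk6diF A K₁ (M₁ * q) M H),
            nfEmbH (mgcE A K₁) (M₁ * q) M H (w' x) = w (nfEmbH (mgcE A K₁) (M₁ * q) M H x)) →
          ∀ (hσE : ∀ x ∈ mgcE A K₁, σ x ∈ mgcE A K₁)
            (u₀ : ↥(rtk6diF A K₁ (M₁ * q) M H)), nfEmbH (mgcE A K₁) (M₁ * q) M H u₀ = u →
              ∃ tt : rtk6dfK hπ M H w' → ↥(rtk6diF A K₁ (M₁ * q) M H), (∀ c, tt c ≠ 0) ∧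
                ∀ c, (rtk6diGal (M₁ * q) M H σ hσE • u₀ / u₀) / tt c ^ n - 1 ∈
                  (rtk6dfV hπ M H w' c).nonunits := by
  have hL : M₁ * q ≠ 0 := NeZero.ne _
  obtain ⟨K₀, hfin, h⟩ := rtk6m5_pack_unip hL hML hw A σ hσ hc hδ hu hn
  refine ⟨K₀, hfin, fun K₁ hK _ π hπ w' hw' hσE u₀ hu₀ => ?_⟩
  haveI : Algebra.IsAlgebraic ℚ Qb := AlgebraicClosure.isAlgebraic ℚ
  haveI : Algebra.IsAlgebraic ℚ ↥(mgcE A K₁) :=
    Algebra.IsAlgebraic.of_injective (mgcE A K₁).val Subtype.val_injective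
  haveI : NeZero M := ⟨fun h0 => hL (Nat.eq_zero_of_zero_dvd (h0 ▸ hML))⟩
  have hE : K₀ ≤ mgcE A K₁ := le_trans hK le_sup_right
  have key : ∀ c : rtk6dfK hπ M H w', ∃ tt : ↥(rtk6diF A K₁ (M₁ * q) M H), tt ≠ 0 ∧
      (rtk6eAct (mgcE A K₁) (M₁ * q) M H σ hσE u₀ / u₀) / tt ^ n - 1 ∈
        (rtk6dfV hπ M H w' c).nonunits := by
    intro c
    obtain ⟨γ, hγ, b, hV⟩ := rtk6df_existsK hπ M H w' c
    obtain ⟨c', hc'⟩ := rtk6df_isDiamond hL hML hγ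
    obtain ⟨tt, htt, hmem⟩ := h (mgcE A K₁) hE (vtBase_residue hπ)
      (Fermat.Agent.STB.stb_mgt_c1 A (mgcE A K₁)) (Fermat.Agent.STB.stb_mgt_c2 A (mgcE A K₁))
      w' hw' hσE u₀ hu₀ c' γ hc' b
    refine ⟨tt, htt, ?_⟩
    rw [hV]
    exact hmem
  choose tt htt hmem using key
  exact ⟨tt, htt, fun c => hmem c⟩

end Concrete

end Fermat.Agent.RT.K6

end
end ZBRT_032_11

/-! ### bundled: `Fermat.Agent.RT.K6.M5Em` -/
section ZBRT_032_12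
/-
K-machine, piece K6 / M5 (helper96), part 4: the input `Rtk6emToric` of E-MAIN (helper18's
`RT/K6/EMain.lean`) for helper82's family `V = rtk6dfV hπ M H w′` at the level `L = M₁ q`.

* **`rtk6m5_toric_chi`** : `∃ K₀` number field, `∀ K₁ ⊇ K₀` …,
  `Rtk6emToric A K₁ (M₁ q) M H (rtk6dfV hπ M H w′) (rtk6eChi (mgcE A K₁) (M₁ q) M H σ hσ δ₀ u₀) n`;
* **`rtk6m5_toric_unip`** : the same for `y = rtk6diGal σ • u₀ / u₀` when the diamond `δ_c` is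
  trivial on `fieldBar` (UNIP_H);
* `rtk6m5_toric_chi_W`, `rtk6m5_toric_unip_W` : for `w′ := rtk6diwW w hw …` (DIW).
-/

set_option autoImplicit false
set_option linter.style.haveILetI false
set_option linter.unusedSectionVars false
set_option linter.unusedVariables false

noncomputable section

namespace Fermat.Agent.RT.K6

open ModularCurve AlgebraicCurve HahnSeries Fermat.Agent.ES Fermat.Agent.ES.G2 Fermat.Agent.INJ
open Fermat.Agent.UNIP Fermat.Agent.ES1 Fermat.Agent.ES1.G2 IntermediateField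

section Em

variable {q M₁ : ℕ} [NeZero q] [NeZero M₁] [NeZero (M₁ * q)] {M : ℕ} {H : Subgroup (ZMod M)ˣ}
  {w : fieldBar (M₁ * q) M H ≃ₐ[Qb] fieldBar (M₁ * q) M H}

/-- **M5, (χ): `Rtk6emToric`** for `V = rtk6dfV hπ M H w′`, `y = rtk6eChi σ δ₀ u₀`. -/
theorem rtk6m5_toric_chi (hML : M ∣ M₁ * q) (hw : IsWAt (M₁ * q) M H q w)
    (A : ValuationSubring Qb) (σ : Qb ≃ₐ[ℚ] Qb) (hσ : σ ∈ A.inertiaSubgroupIn ℚ)
    {c : (ZMod M)ˣ} (hc : IsCycAt M q σ c)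
    {u : fieldBar (M₁ * q) M H} (hu : u ≠ 0) {n : ℕ} (hn : n ≠ 0) :
    ∃ K₀ : IntermediateField ℚ Qb, FiniteDimensional ℚ K₀ ∧
      ∀ K₁ : IntermediateField ℚ Qb, K₀ ≤ K₁ →
        ∀ [IsDiscreteValuationRing ↥(mgcA A K₁)] {π : ↥(mgcA A K₁)} (hπ : Irreducible π)
          (w' : ↥(rtk6diF A K₁ (M₁ * q) M H) ≃ₐ[↥(mgcE A K₁)] ↥(rtk6diF A K₁ (M₁ * q) M H)),
          (∀ x : ↥(rtk6diF A K₁ (M₁ * q) M H),
            nfEmbH (mgcE A K₁) (M₁ * q) M H (w' x) = w (nfEmbH (mgcE A K₁) (M₁ * q) M H x)) →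
          ∀ (hσE : ∀ x ∈ mgcE A K₁, σ x ∈ mgcE A K₁)
            (δ₀ : ↥(rtk6diF A K₁ (M₁ * q) M H) ≃ₐ[↥(mgcE A K₁)] ↥(rtk6diF A K₁ (M₁ * q) M H)),
            IsDiamondC ↥(mgcE A K₁) (M₁ * q) M H c δ₀ →
            ∀ u₀ : ↥(rtk6diF A K₁ (M₁ * q) M H), nfEmbH (mgcE A K₁) (M₁ * q) M H u₀ = u →
              Rtk6emToric A K₁ (M₁ * q) M H (rtk6dfV hπ M H w')
                (rtk6eChi (mgcE A K₁) (M₁ * q) M H σ hσE δ₀ u₀) n := by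
  obtain ⟨K₀, hfin, h⟩ := rtk6m5_htoric_chi hML hw A σ hσ hc hu hn
  refine ⟨K₀, hfin, fun K₁ hK _ π hπ w' hw' hσE δ₀ hδ₀ u₀ hu₀ => ?_⟩
  have hu₀0 : u₀ ≠ 0 := by
    rintro rfl
    rw [map_zero] at hu₀
    exact hu hu₀.symm
  obtain ⟨tt, -, htt⟩ := h K₁ hK hπ w' hw' hσE δ₀ hδ₀ u₀ hu₀
  refine ⟨tt, fun c => ?_⟩
  have := htt c
  rwa [rtk6m5_gal_quot_eq_chi σ hσE δ₀ hu₀0] at this

/-- **M5, (UNIP_H): `Rtk6emToric`** for `V = rtk6dfV hπ M H w′`, `y = rtk6diGal σ • u₀ / u₀`. -/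
theorem rtk6m5_toric_unip (hML : M ∣ M₁ * q) (hw : IsWAt (M₁ * q) M H q w)
    (A : ValuationSubring Qb) (σ : Qb ≃ₐ[ℚ] Qb) (hσ : σ ∈ A.inertiaSubgroupIn ℚ)
    {c : (ZMod M)ˣ} (hc : IsCycAt M q σ c)
    (hδ : IsDiamondH (M₁ * q) M H c
      (1 : fieldBar (M₁ * q) M H ≃ₐ[Qb] fieldBar (M₁ * q) M H))
    {u : fieldBar (M₁ * q) M H} (hu : u ≠ 0) {n : ℕ} (hn : n ≠ 0) :
    ∃ K₀ : IntermediateField ℚ Qb, FiniteDimensional ℚ K₀ ∧
      ∀ K₁ : IntermediateField ℚ Qb, K₀ ≤ K₁ →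
        ∀ [IsDiscreteValuationRing ↥(mgcA A K₁)] {π : ↥(mgcA A K₁)} (hπ : Irreducible π)
          (w' : ↥(rtk6diF A K₁ (M₁ * q) M H) ≃ₐ[↥(mgcE A K₁)] ↥(rtk6diF A K₁ (M₁ * q) M H)),
          (∀ x : ↥(rtk6diF A K₁ (M₁ * q) M H),
            nfEmbH (mgcE A K₁) (M₁ * q) M H (w' x) = w (nfEmbH (mgcE A K₁) (M₁ * q) M H x)) →
          ∀ (hσE : ∀ x ∈ mgcE A K₁, σ x ∈ mgcE A K₁)
            (u₀ : ↥(rtk6diF A K₁ (M₁ * q) M H)), nfEmbH (mgcE A K₁) (M₁ * q) M H u₀ = u →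
              Rtk6emToric A K₁ (M₁ * q) M H (rtk6dfV hπ M H w')
                (rtk6diGal (M₁ * q) M H σ hσE • u₀ / u₀) n := by
  obtain ⟨K₀, hfin, h⟩ := rtk6m5_htoric_unip hML hw A σ hσ hc hδ hu hn
  refine ⟨K₀, hfin, fun K₁ hK _ π hπ w' hw' hσE u₀ hu₀ => ?_⟩
  obtain ⟨tt, -, htt⟩ := h K₁ hK hπ w' hw' hσE u₀ hu₀
  exact ⟨tt, htt⟩

/-- **M5, (χ)** for `w′ := rtk6diwW w hw …` (DIW). -/
theorem rtk6m5_toric_chi_W (hML : M ∣ M₁ * q) (hw : IsWAt (M₁ * q) M H q w)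
    (hM0 : M ≠ 0) (hq : q.Prime) (hqM : q ∣ M)
    (A : ValuationSubring Qb) (σ : Qb ≃ₐ[ℚ] Qb) (hσ : σ ∈ A.inertiaSubgroupIn ℚ)
    {c : (ZMod M)ˣ} (hc : IsCycAt M q σ c)
    {u : fieldBar (M₁ * q) M H} (hu : u ≠ 0) {n : ℕ} (hn : n ≠ 0) :
    ∃ K₀ : IntermediateField ℚ Qb, FiniteDimensional ℚ K₀ ∧
      ∀ K₁ : IntermediateField ℚ Qb, K₀ ≤ K₁ →
        ∀ [IsDiscreteValuationRing ↥(mgcA A K₁)] {π : ↥(mgcA A K₁)} (hπ : Irreducible π)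
          (hζ : ∀ ζ : Qb, ζ ^ q = 1 → ζ ∈ mgcE A K₁)
          (hσE : ∀ x ∈ mgcE A K₁, σ x ∈ mgcE A K₁)
          (δ₀ : ↥(rtk6diF A K₁ (M₁ * q) M H) ≃ₐ[↥(mgcE A K₁)] ↥(rtk6diF A K₁ (M₁ * q) M H)),
          IsDiamondC ↥(mgcE A K₁) (M₁ * q) M H c δ₀ →
          ∀ u₀ : ↥(rtk6diF A K₁ (M₁ * q) M H), nfEmbH (mgcE A K₁) (M₁ * q) M H u₀ = u →
            Rtk6emToric A K₁ (M₁ * q) M H
              (rtk6dfV hπ M H (rtk6diwW (K₀ := mgcE A K₁) w hw hM0 hq hqM hζ))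
              (rtk6eChi (mgcE A K₁) (M₁ * q) M H σ hσE δ₀ u₀) n := by
  obtain ⟨K₀, hfin, h⟩ := rtk6m5_toric_chi hML hw A σ hσ hc hu hn
  exact ⟨K₀, hfin, fun K₁ hK _ π hπ hζ hσE δ₀ hδ₀ u₀ hu₀ =>
    h K₁ hK hπ _ (nfEmbH_rtk6diwW w hw hM0 hq hqM hζ) hσE δ₀ hδ₀ u₀ hu₀⟩

/-- **M5, (UNIP_H)** for `w′ := rtk6diwW w hw …` (DIW). -/
theorem rtk6m5_toric_unip_W (hML : M ∣ M₁ * q) (hw : IsWAt (M₁ * q) M H q w)
    (hM0 : M ≠ 0) (hq : q.Prime) (hqM : q ∣ M)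
    (A : ValuationSubring Qb) (σ : Qb ≃ₐ[ℚ] Qb) (hσ : σ ∈ A.inertiaSubgroupIn ℚ)
    {c : (ZMod M)ˣ} (hc : IsCycAt M q σ c)
    (hδ : IsDiamondH (M₁ * q) M H c
      (1 : fieldBar (M₁ * q) M H ≃ₐ[Qb] fieldBar (M₁ * q) M H))
    {u : fieldBar (M₁ * q) M H} (hu : u ≠ 0) {n : ℕ} (hn : n ≠ 0) :
    ∃ K₀ : IntermediateField ℚ Qb, FiniteDimensional ℚ K₀ ∧
      ∀ K₁ : IntermediateField ℚ Qb, K₀ ≤ K₁ →
        ∀ [IsDiscreteValuationRing ↥(mgcA A K₁)] {π : ↥(mgcA A K₁)} (hπ : Irreducible π)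
          (hζ : ∀ ζ : Qb, ζ ^ q = 1 → ζ ∈ mgcE A K₁)
          (hσE : ∀ x ∈ mgcE A K₁, σ x ∈ mgcE A K₁)
          (u₀ : ↥(rtk6diF A K₁ (M₁ * q) M H)), nfEmbH (mgcE A K₁) (M₁ * q) M H u₀ = u →
            Rtk6emToric A K₁ (M₁ * q) M H
              (rtk6dfV hπ M H (rtk6diwW (K₀ := mgcE A K₁) w hw hM0 hq hqM hζ))
              (rtk6diGal (M₁ * q) M H σ hσE • u₀ / u₀) n := by
  obtain ⟨K₀, hfin, h⟩ := rtk6m5_toric_unip hML hw A σ hσ hc hδ hu hn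
  exact ⟨K₀, hfin, fun K₁ hK _ π hπ hζ hσE u₀ hu₀ =>
    h K₁ hK hπ _ (nfEmbH_rtk6diwW w hw hM0 hq hqM hζ) hσE u₀ hu₀⟩

end Em

end Fermat.Agent.RT.K6

end
end ZBRT_032_12

/-! ### bundled: `Fermat.Agent.RT.K6.EInst` -/
section ZBRT_032_13
/-
K-machine, piece K6, piece **E-INST** (helper18): the WIRING of the landed instances into the
data `Rtk6emData` of E-MAIN (`RT/K6/EMain.lean`, `RT/K6/EMainPP.lean`), at the level
`L = M₁ q` (`q` the prime, `q ∤ M₁`), for helper82's family `κ = rtk6dfK`, `V = rtk6dfV hπ M H w′`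
of all conjugates of `V_∞`, `V_0 = V_∞.comap w′`, `w′ = rtk6diwW w₀ …` (helper96).

Landed instances used: (M1) `rtk6m1_emFam_W`, (M4-inst) `rtk6m4_emStab_g_W`,
`rtk6m4_emStab_Φ_W` (helper82, from `hstab`), (M5) `rtk6m5_toric_chi_W`, `rtk6m5_toric_unip_W`
(helper96), `rtk6de0_isCycAt` (helper74).

**The open geometric inputs** are bundled in ONE Prop per `(A, K₁, π, g, Φ)`:

* `Rtk6eiGeom hπ w₀ hw₀ hM0 hq hqM' hζ g Φ` : `ss1` (SS1-inst), `node` (C4 + D-BC + FAM-res),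
  `fix₁`, `fix₂`, `cong₁`, `cong₂` (FIX-inst) — each field is LITERALLY the Prop of `EMain.lean`
  at `V = rtk6dfV hπ M H (rtk6diwW w₀ hw₀ hM0 hq hqM' hζ)`;
* `Rtk6m4Stab hπ M H w′` (HSTAB; `M4Inst.lean`) — only for (χ); in the case (U) (`H` contains
  the diamonds at `q`) it is proved here: `rtk6ei_stab_of_hat`.

**Results.**
* `rtk6ei_exists_finset` : a number field is contained in every field containing a suitable
  finite set;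
* `rtk6ei_inputs_chi`, `rtk6ei_inputs_unip` : `Rtk6emInputs` from `Rtk6eiGeom` (+ `hstab`);
* `rtk6ei_isDiamondH_one`, `rtk6ei_isDiamondC_one`, `rtk6ei_diamondC_unique`,
  `rtk6ei_stab_of_hat` : the diamonds of `±H` are trivial;
* `rtk6ei_chiFieldPPAt`  : `ChiFieldPPAt (M₁ q) M H q` from `Rtk6eiGeom` + `hstab` at every
  `(A, K₁ ⊇ K₀, π, σ, δ′₀)`;
* `rtk6ei_unipFieldPPAt` : `UnipFieldPPAt (M₁ q) M H q` from `Rtk6eiGeom` at every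
  `(A, K₁ ⊇ K₀, π, σ)`, when `H` contains the diamonds at `q`.
-/

set_option autoImplicit false
set_option linter.style.haveILetI false
set_option linter.unusedSectionVars false
set_option linter.unusedVariables false

noncomputable section

namespace Fermat.Agent.RT.K6

open ModularCurve AlgebraicCurve Fermat.Agent.ES Fermat.Agent.ES.G2 Fermat.Agent.INJ
open Fermat.Agent.UNIP Fermat.Agent.STB Fermat.Agent.ES1 Fermat.Agent.ES1.G2 IntermediateField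

/-! ### Finite sets and number fields -/

/-- a finite-dimensional intermediate field is contained in every intermediate field containing
a suitable finite set -/
theorem rtk6ei_exists_finset {F E : Type*} [Field F] [Field E] [Algebra F E]
    (K₀ : IntermediateField F E) [FiniteDimensional F K₀] :
    ∃ S : Finset E, ∀ K₁ : IntermediateField F E, (∀ s ∈ S, s ∈ K₁) → K₀ ≤ K₁ := by
  classical
  let b := Module.finBasis F K₀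
  refine ⟨Finset.univ.image (fun i => ((b i : K₀) : E)), fun K₁ h x hx => ?_⟩
  have key : ∀ y : K₀, (y : E) ∈ K₁ := by
    intro y
    rw [← b.sum_repr y]
    have : ((∑ i, (b.repr y i) • b i : K₀) : E) = ∑ i, (b.repr y i) • ((b i : K₀) : E) := by
      push_cast
      rfl
    rw [this]
    refine sum_mem (fun i _ => ?_)
    refine K₁.smul_mem ?_
    exact h _ (Finset.mem_image.mpr ⟨i, Finset.mem_univ i, rfl⟩)
  exact key ⟨x, hx⟩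

/-- the `q`-th roots of unity lie in every field containing a suitable finite set -/
theorem rtk6ei_exists_finset_roots (q : ℕ) (hq0 : 0 < q) :
    ∃ S : Finset Qb, ∀ K₁ : IntermediateField ℚ Qb, (∀ s ∈ S, s ∈ K₁) →
      ∀ ζ : Qb, ζ ^ q = 1 → ζ ∈ K₁ := by
  classical
  refine ⟨Polynomial.nthRootsFinset q (1 : Qb), fun K₁ h ζ hζ => ?_⟩
  exact h ζ ((Polynomial.mem_nthRootsFinset hq0 (1 : Qb)).2 hζ)

/-! ### Trivial diamonds -/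

section Trivial

variable {L M : ℕ} {H : Subgroup (ZMod M)ˣ}

/-- `S_{ac} = S_a` for `c ∈ ±H` -/
theorem rtk6ei_sS_mul (R : Type*) [CommRing R] (a : (ZMod M)ˣ) {c : (ZMod M)ˣ}
    (hc : c ∈ pmH H) : sS R M H (a * c) = sS R M H a :=
  es1f_sS_eq_of_inPM R (es1rc_inPM_mul_of_mem a hc)

/-- the diamond of `c ∈ ±H` on `fieldBar L M H` is the identity -/
theorem rtk6ei_isDiamondH_one {c : (ZMod M)ˣ} (hc : c ∈ pmH H) :
    IsDiamondH L M H c (1 : fieldBar L M H ≃ₐ[QbH] fieldBar L M H) where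
  fix_j := fun d _ _ x _ => rfl
  map_s := fun e _ a he x hx => by
    rw [rtk6ei_sS_mul QbH a hc]
    exact hx

/-- the diamond of `c ∈ ±H` on `fieldC K L M H` is the identity -/
theorem rtk6ei_isDiamondC_one (K : Type) [Field K] {c : (ZMod M)ˣ} (hc : c ∈ pmH H) :
    IsDiamondC K L M H c (1 : fieldC K L M H ≃ₐ[K] fieldC K L M H) where
  fix := fun f _ => rfl
  map_s := fun e _ he b => by
    rw [rtk6ei_sS_mul K b hc]
    rfl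

/-- the diamond of `c` on `fieldC K₀ L M H` is unique -/
theorem rtk6ei_diamondC_unique (hL : L ≠ 0) (hML : M ∣ L) {K₀ : IntermediateField ℚ Qb}
    {c : (ZMod M)ˣ} {δ₁ δ₂ : fieldC K₀ L M H ≃ₐ[K₀] fieldC K₀ L M H}
    (h₁ : IsDiamondC K₀ L M H c δ₁) (h₂ : IsDiamondC K₀ L M H c δ₂)
    (x : fieldC K₀ L M H) : δ₁ x = δ₂ x := by
  obtain ⟨δ, hδ⟩ := rtk6diw_exists_diamondH (H := H) hL hML c
  apply nfEmbH_injective K₀ L M H
  rw [rtk6e_nfEmbH_diamond h₁ hδ, rtk6e_nfEmbH_diamond h₂ hδ]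

end Trivial

/-! ### The open geometric inputs -/

section Geom

variable {A : ValuationSubring Qb} {K₁ : IntermediateField ℚ Qb}
  [IsDiscreteValuationRing ↥(mgcA A K₁)] {π : ↥(mgcA A K₁)} (hπ : Irreducible π)
  {q M₁ : ℕ} [NeZero q] [NeZero M₁] [NeZero (M₁ * q)]
  {M : ℕ} {H : Subgroup (ZMod M)ˣ}
  (w₀ : fieldBar (M₁ * q) M H ≃ₐ[Qb] fieldBar (M₁ * q) M H) (hw₀ : IsWAt (M₁ * q) M H q w₀)
  (hM0 : M ≠ 0) (hq : q.Prime) (hqM' : q ∣ M)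
  (hζ : ∀ ζ : Qb, ζ ^ q = 1 → ζ ∈ mgcE A K₁)

/-- **The open geometric inputs of piece E** at `(A, K₁, π)`, for the family
`V = rtk6dfV hπ M H w′`, `w′ = rtk6diwW w₀ …`, and the automorphisms `g`, `Φ` of `F′`:
(SS1-inst), (C4 + D-BC + FAM-res), (FIX-inst). -/
structure Rtk6eiGeom (g Φ : SemilinearAut ↥(mgcE A K₁) ↥(rtk6diF A K₁ (M₁ * q) M H)) : Prop where
  /-- (SS1-inst), helper79 -/
  ss1 : Rtk6emSS1 A K₁ (M₁ * q) M H π
    (rtk6dfV hπ M H (rtk6diwW (K₀ := mgcE A K₁) w₀ hw₀ hM0 hq hqM' hζ))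
  /-- (C4) + (D-BC) + (FAM-res) -/
  node : Rtk6emNode A K₁ (M₁ * q) M H π
    (rtk6dfV hπ M H (rtk6diwW (K₀ := mgcE A K₁) w₀ hw₀ hM0 hq hqM' hζ))
  /-- (FIX-inst), chart `j` -/
  fix₁ : Rtk6emFixAt A K₁ (M₁ * q) M H π
    (rtk6dfV hπ M H (rtk6diwW (K₀ := mgcE A K₁) w₀ hw₀ hM0 hq hqM' hζ)) g
    (rtk6diT A K₁ (M₁ * q) M H)
  /-- (FIX-inst), chart `1 / j` -/
  fix₂ : Rtk6emFixAt A K₁ (M₁ * q) M H π
    (rtk6dfV hπ M H (rtk6diwW (K₀ := mgcE A K₁) w₀ hw₀ hM0 hq hqM' hζ)) g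
    (rtk6diT A K₁ (M₁ * q) M H)⁻¹
  /-- (FIX-inst), chart `j` -/
  cong₁ : Rtk6emCongAt A K₁ (M₁ * q) M H π
    (rtk6dfV hπ M H (rtk6diwW (K₀ := mgcE A K₁) w₀ hw₀ hM0 hq hqM' hζ)) Φ
    (rtk6diT A K₁ (M₁ * q) M H)
  /-- (FIX-inst), chart `1 / j` -/
  cong₂ : Rtk6emCongAt A K₁ (M₁ * q) M H π
    (rtk6dfV hπ M H (rtk6diwW (K₀ := mgcE A K₁) w₀ hw₀ hM0 hq hqM' hζ)) Φ
    (rtk6diT A K₁ (M₁ * q) M H)⁻¹

variable {hπ w₀ hw₀ hM0 hq hqM' hζ}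

/-- **`Rtk6emInputs`, case (χ)**: `g = σ̂`, `Φ = δ′₀` a diamond at `q`. -/
theorem rtk6ei_inputs_chi (hqM : ¬ q ∣ M₁) (hA : A.LiesOverPrime q) (hML : M ∣ M₁ * q)
    (hstab : Rtk6m4Stab hπ M H (rtk6diwW (K₀ := mgcE A K₁) w₀ hw₀ hM0 hq hqM' hζ))
    {σ : Qb ≃ₐ[ℚ] Qb} (hσ : σ ∈ A.inertiaSubgroupIn ℚ)
    (hσE : ∀ x ∈ mgcE A K₁, σ x ∈ mgcE A K₁) {c₀ : (ZMod M)ˣ} (hc₀ : IsCycAt M q σ c₀)
    {c' : (ZMod M)ˣ} (hc' : IsAtR M q c')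
    {δ₀' : ↥(rtk6diF A K₁ (M₁ * q) M H) ≃ₐ[↥(mgcE A K₁)] ↥(rtk6diF A K₁ (M₁ * q) M H)}
    (hδ₀' : IsDiamondC ↥(mgcE A K₁) (M₁ * q) M H c' δ₀')
    (hG : Rtk6eiGeom hπ w₀ hw₀ hM0 hq hqM' hζ (rtk6diGal (M₁ * q) M H σ hσE)
      (SemilinearAut.ofAlgAut δ₀')) :
    Rtk6emInputs A K₁ (M₁ * q) M H π
      (rtk6dfV hπ M H (rtk6diwW (K₀ := mgcE A K₁) w₀ hw₀ hM0 hq hqM' hζ))
      (rtk6diGal (M₁ * q) M H σ hσE) (SemilinearAut.ofAlgAut δ₀') where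
  hπ := hπ
  fam := rtk6m1_emFam_W hπ (mgdIota (mgcE A K₁)) w₀ hw₀ hM0 hq hqM' hqM hζ hA hML
  ss1 := hG.ss1
  stab_g := rtk6m4_emStab_g_W hπ w₀ hw₀ hM0 hq hqM' hζ hML hstab hσ hσE hc₀
  stab_Φ := rtk6m4_emStab_Φ_W hπ w₀ hw₀ hM0 hq hqM' hζ hML hstab hc' hδ₀'
  node := hG.node
  fix₁ := hG.fix₁
  fix₂ := hG.fix₂
  cong₁ := hG.cong₁
  cong₂ := hG.cong₂

/-- **`Rtk6emInputs`, case (U)**: `g = Φ = σ̂`. -/
theorem rtk6ei_inputs_unip (hqM : ¬ q ∣ M₁) (hA : A.LiesOverPrime q) (hML : M ∣ M₁ * q)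
    (hstab : Rtk6m4Stab hπ M H (rtk6diwW (K₀ := mgcE A K₁) w₀ hw₀ hM0 hq hqM' hζ))
    {σ : Qb ≃ₐ[ℚ] Qb} (hσ : σ ∈ A.inertiaSubgroupIn ℚ)
    (hσE : ∀ x ∈ mgcE A K₁, σ x ∈ mgcE A K₁) {c₀ : (ZMod M)ˣ} (hc₀ : IsCycAt M q σ c₀)
    (hG : Rtk6eiGeom hπ w₀ hw₀ hM0 hq hqM' hζ (rtk6diGal (M₁ * q) M H σ hσE)
      (rtk6diGal (M₁ * q) M H σ hσE)) :
    Rtk6emInputs A K₁ (M₁ * q) M H π
      (rtk6dfV hπ M H (rtk6diwW (K₀ := mgcE A K₁) w₀ hw₀ hM0 hq hqM' hζ))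
      (rtk6diGal (M₁ * q) M H σ hσE) (rtk6diGal (M₁ * q) M H σ hσE) where
  hπ := hπ
  fam := rtk6m1_emFam_W hπ (mgdIota (mgcE A K₁)) w₀ hw₀ hM0 hq hqM' hqM hζ hA hML
  ss1 := hG.ss1
  stab_g := rtk6m4_emStab_g_W hπ w₀ hw₀ hM0 hq hqM' hζ hML hstab hσ hσE hc₀
  stab_Φ := rtk6m4_emStab_g_W hπ w₀ hw₀ hM0 hq hqM' hζ hML hstab hσ hσE hc₀
  node := hG.node
  fix₁ := hG.fix₁
  fix₂ := hG.fix₂
  cong₁ := hG.cong₁
  cong₂ := hG.cong₂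

variable (hπ w₀ hw₀ hM0 hq hqM' hζ)

/-- **(HSTAB) in the case (U)**: if `±H` contains the diamonds at `q`, these are the identity
of `F′`. -/
theorem rtk6ei_stab_of_hat (hML : M ∣ M₁ * q) (hat : ∀ c : (ZMod M)ˣ, IsAtR M q c → c ∈ pmH H)
    (w : ↥(rtk6diF A K₁ (M₁ * q) M H) ≃ₐ[↥(mgcE A K₁)] ↥(rtk6diF A K₁ (M₁ * q) M H)) :
    Rtk6m4Stab hπ M H w := by
  intro c hc δ hδ x hx
  have h1 := rtk6ei_diamondC_unique (NeZero.ne (M₁ * q)) hML hδ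
    (rtk6ei_isDiamondC_one (L := M₁ * q) ↥(mgcE A K₁) (hat c hc)) x
  rw [h1]
  exact hx

end Geom

/-! ### The targets of `EFinal.lean` at the level `M₁ q` -/

section Final

variable {q M₁ : ℕ} [NeZero q] [NeZero M₁] [NeZero (M₁ * q)] {M : ℕ} {H : Subgroup (ZMod M)ˣ}

set_option maxHeartbeats 1600000 in
/-- **E-INST, (χ-K).**  `ChiFieldPPAt (M₁ q) M H q` from the open geometric inputs
(`hstab` and `Rtk6eiGeom` for `g = σ̂`, `Φ = δ′₀`) at every `(A, K₁ ⊇ K₀, π, σ, δ′₀)`. -/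
theorem rtk6ei_chiFieldPPAt (hq : q.Prime) (hqM : ¬ q ∣ M₁) (hML : M ∣ M₁ * q) (hqM' : q ∣ M)
    (hM0 : M ≠ 0)
    (w₀ : fieldBar (M₁ * q) M H ≃ₐ[Qb] fieldBar (M₁ * q) M H) (hw₀ : IsWAt (M₁ * q) M H q w₀)
    (hG : ∀ A : ValuationSubring Qb, A.LiesOverPrime q →
      ∃ K₀ : IntermediateField ℚ Qb, FiniteDimensional ℚ K₀ ∧
        ∀ (K₁ : IntermediateField ℚ Qb) [NumberField K₁] [IsGalois ℚ K₁]
          [IsDiscreteValuationRing ↥(mgcA A K₁)], K₀ ≤ K₁ →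
          ∀ (hζ : ∀ ζ : Qb, ζ ^ q = 1 → ζ ∈ mgcE A K₁) {π : ↥(mgcA A K₁)}
            (hπ : Irreducible π),
            Rtk6m4Stab hπ M H (rtk6diwW (K₀ := mgcE A K₁) w₀ hw₀ hM0 hq hqM' hζ) ∧
            ∀ σ ∈ A.inertiaSubgroupIn ℚ, ∀ (hσE : ∀ x ∈ mgcE A K₁, σ x ∈ mgcE A K₁)
              (c' : (ZMod M)ˣ), IsAtR M q c' →
              ∀ δ₀' : ↥(rtk6diF A K₁ (M₁ * q) M H) ≃ₐ[↥(mgcE A K₁)]
                  ↥(rtk6diF A K₁ (M₁ * q) M H),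
                IsDiamondC ↥(mgcE A K₁) (M₁ * q) M H c' δ₀' →
                Rtk6eiGeom hπ w₀ hw₀ hM0 hq hqM' hζ (rtk6diGal (M₁ * q) M H σ hσE)
                  (SemilinearAut.ofAlgAut δ₀')) :
    ChiFieldPPAt (M₁ * q) M H q := by
  refine rtk6em_chiFieldPPAt (NeZero.ne _) hML hq ?_
  intro A hA p hp hpr k σ hσI c hc c' hc' u hu hdiv
  obtain ⟨K₀, hK₀fin, hK₀⟩ := hG A hA
  have hn : p ^ k ≠ 0 := pow_ne_zero k hp.ne_zero
  obtain ⟨K₀', hK₀'fin, hK₀'⟩ := rtk6m5_toric_chi_W hML hw₀ hM0 hq hqM' A σ hσI hc hu hn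
  haveI := hK₀fin
  haveI := hK₀'fin
  obtain ⟨S₁, hS₁⟩ := rtk6ei_exists_finset K₀
  obtain ⟨S₂, hS₂⟩ := rtk6ei_exists_finset K₀'
  obtain ⟨S₃, hS₃⟩ := rtk6ei_exists_finset_roots q hq.pos
  classical
  refine ⟨S₁ ∪ S₂ ∪ S₃, ?_⟩
  intro K₁ _ _ _ hS hσE δ₀ δ₀' hδ₀ hδ₀' u₀ hu₀
  have h1 : K₀ ≤ K₁ :=
    hS₁ K₁ (fun s hs => hS s (Finset.mem_union_left _ (Finset.mem_union_left _ hs)))
  have h2 : K₀' ≤ K₁ :=
    hS₂ K₁ (fun s hs => hS s (Finset.mem_union_left _ (Finset.mem_union_right _ hs)))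
  have hζ : ∀ ζ : Qb, ζ ^ q = 1 → ζ ∈ mgcE A K₁ := fun ζ h =>
    (le_sup_right : K₁ ≤ mgcE A K₁)
      (hS₃ K₁ (fun s hs => hS s (Finset.mem_union_right _ hs)) ζ h)
  obtain ⟨π, hπ⟩ := IsDiscreteValuationRing.exists_irreducible ↥(mgcA A K₁)
  obtain ⟨hstab, hgeom⟩ := hK₀ K₁ h1 hζ hπ
  have hI := rtk6ei_inputs_chi hqM hA hML hstab hσI hσE hc hc' hδ₀'
    (hgeom σ hσI hσE c' hc' δ₀' hδ₀')
  have hT := hK₀' K₁ h2 hπ hζ hσE δ₀ hδ₀ u₀ hu₀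
  exact ⟨π, _, _, hI, hT⟩

set_option maxHeartbeats 1600000 in
/-- **E-INST, (UNIP_H).**  `UnipFieldPPAt (M₁ q) M H q`, when `±H` contains the diamonds at `q`,
from the open geometric inputs (`Rtk6eiGeom` for `g = Φ = σ̂`) at every `(A, K₁ ⊇ K₀, π, σ)`. -/
theorem rtk6ei_unipFieldPPAt (hq : q.Prime) (hqM : ¬ q ∣ M₁) (hML : M ∣ M₁ * q) (hqM' : q ∣ M)
    (hM0 : M ≠ 0) (hat : ∀ c : (ZMod M)ˣ, IsAtR M q c → c ∈ pmH H)
    (w₀ : fieldBar (M₁ * q) M H ≃ₐ[Qb] fieldBar (M₁ * q) M H) (hw₀ : IsWAt (M₁ * q) M H q w₀)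
    (hG : ∀ A : ValuationSubring Qb, A.LiesOverPrime q →
      ∃ K₀ : IntermediateField ℚ Qb, FiniteDimensional ℚ K₀ ∧
        ∀ (K₁ : IntermediateField ℚ Qb) [NumberField K₁] [IsGalois ℚ K₁]
          [IsDiscreteValuationRing ↥(mgcA A K₁)], K₀ ≤ K₁ →
          ∀ (hζ : ∀ ζ : Qb, ζ ^ q = 1 → ζ ∈ mgcE A K₁) {π : ↥(mgcA A K₁)}
            (hπ : Irreducible π),
            ∀ σ ∈ A.inertiaSubgroupIn ℚ, ∀ (hσE : ∀ x ∈ mgcE A K₁, σ x ∈ mgcE A K₁),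
              Rtk6eiGeom hπ w₀ hw₀ hM0 hq hqM' hζ (rtk6diGal (M₁ * q) M H σ hσE)
                (rtk6diGal (M₁ * q) M H σ hσE)) :
    UnipFieldPPAt (M₁ * q) M H q := by
  refine rtk6em_unipFieldPPAt (NeZero.ne _) hML hq ?_
  intro A hA p hp hpr k σ hσI u hu hdiv
  haveI : NeZero M := ⟨hM0⟩
  have hr2 : ¬ q ^ 2 ∣ M := fun h => hqM (by
    have h1 : q * q ∣ M₁ * q := by
      rw [← pow_two]
      exact h.trans hML
    exact (Nat.mul_dvd_mul_iff_right hq.pos).1 h1)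
  obtain ⟨c, hc⟩ := rtk6de0_isCycAt hq hqM' hr2 A hA hσI
  have hδ1 : IsDiamondH (M₁ * q) M H c
      (1 : fieldBar (M₁ * q) M H ≃ₐ[Qb] fieldBar (M₁ * q) M H) :=
    rtk6ei_isDiamondH_one (hat c hc.2)
  obtain ⟨K₀, hK₀fin, hK₀⟩ := hG A hA
  have hn : p ^ k ≠ 0 := pow_ne_zero k hp.ne_zero
  obtain ⟨K₀', hK₀'fin, hK₀'⟩ :=
    rtk6m5_toric_unip_W hML hw₀ hM0 hq hqM' A σ hσI hc hδ1 hu hn
  haveI := hK₀fin
  haveI := hK₀'fin
  obtain ⟨S₁, hS₁⟩ := rtk6ei_exists_finset K₀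
  obtain ⟨S₂, hS₂⟩ := rtk6ei_exists_finset K₀'
  obtain ⟨S₃, hS₃⟩ := rtk6ei_exists_finset_roots q hq.pos
  classical
  refine ⟨S₁ ∪ S₂ ∪ S₃, ?_⟩
  intro K₁ _ _ _ hS hσE u₀ hu₀
  have h1 : K₀ ≤ K₁ :=
    hS₁ K₁ (fun s hs => hS s (Finset.mem_union_left _ (Finset.mem_union_left _ hs)))
  have h2 : K₀' ≤ K₁ :=
    hS₂ K₁ (fun s hs => hS s (Finset.mem_union_left _ (Finset.mem_union_right _ hs)))
  have hζ : ∀ ζ : Qb, ζ ^ q = 1 → ζ ∈ mgcE A K₁ := fun ζ h =>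
    (le_sup_right : K₁ ≤ mgcE A K₁)
      (hS₃ K₁ (fun s hs => hS s (Finset.mem_union_right _ hs)) ζ h)
  obtain ⟨π, hπ⟩ := IsDiscreteValuationRing.exists_irreducible ↥(mgcA A K₁)
  have hstab := rtk6ei_stab_of_hat hπ hML hat
    (rtk6diwW (K₀ := mgcE A K₁) w₀ hw₀ hM0 hq hqM' hζ)
  have hI := rtk6ei_inputs_unip hqM hA hML hstab hσI hσE hc (hK₀ K₁ h1 hζ hπ σ hσI hσE)
  have hT := hK₀' K₁ h2 hπ hζ hσE u₀ hu₀
  exact ⟨π, _, _, hI, hT⟩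

end Final

end Fermat.Agent.RT.K6

end
end ZBRT_032_13

/-! ### bundled: `Fermat.Agent.RT.K6.EInstRig` -/
section ZBRT_032_14
/-
K-machine, piece K6, piece **E-INST** (helper18), part 2: **`StmtChiKummerRig` and `StmtUnipHRig`
(`RT/K6/EFinal.lean`) from the open geometric inputs**, quantified over the tame rigid levels.

* `StmtRtk6GeomChi` : at every tame rigid level `L = M₁ q`, every `w₀` (piece B) and every `A`
  over `q`: a number field `K₀` such that for all Galois number fields `K₁ ⊇ K₀` (with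
  `A ∩ E′` a DVR, `μ_q ⊆ E′`) and all uniformizers `π`: `Rtk6m4Stab` (HSTAB) and `Rtk6eiGeom`
  for `g = σ̂` (`σ` in the inertia group), `Φ = δ′₀` (a diamond at `q`);
* `StmtRtk6GeomUnip` : the same for `g = Φ = σ̂` when `±H` contains the diamonds at `q`
  (no HSTAB);
* `rtk6ei_starStable_of_hat` : `±H ⊇` diamonds at `r` ⇒ `H` is star-stable;
* **`rtk6ei_stmtChiKummerRig : StmtRtk6GeomChi → StmtChiKummerRig`**,
  **`rtk6ei_stmtUnipHRig : StmtRtk6GeomUnip → StmtUnipHRig`** (piece B = `stmtB` is used).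
-/

set_option autoImplicit false
set_option linter.style.haveILetI false
set_option linter.unusedSectionVars false
set_option linter.unusedVariables false

noncomputable section

namespace Fermat.Agent.RT.K6

open ModularCurve AlgebraicCurve Fermat.Agent.ES Fermat.Agent.ES.G2 Fermat.Agent.INJ
open Fermat.Agent.UNIP Fermat.Agent.STB Fermat.Agent.ES1 Fermat.Agent.ES1.G2 IntermediateField

/-- **The open geometric statement of piece E, case (χ)**: (HSTAB), (SS1-inst), (C4 + D-BC +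
FAM-res), (FIX-inst) at the tame rigid levels `L = M₁ q`. -/
def StmtRtk6GeomChi : Prop :=
  ∀ (q M₁ : ℕ) [NeZero q] [NeZero M₁] [NeZero (M₁ * q)] (M : ℕ) (H : Subgroup (ZMod M)ˣ)
    (hq : q.Prime) (hqM' : q ∣ M) (hM0 : M ≠ 0), ¬ q ∣ M₁ → M ∣ M₁ * q →
    IsStarStable M q H → IsTameAt (M₁ * q) M q H → 4 ∣ M₁ * q →
    ∀ (w₀ : fieldBar (M₁ * q) M H ≃ₐ[Qb] fieldBar (M₁ * q) M H)
      (hw₀ : IsWAt (M₁ * q) M H q w₀) (A : ValuationSubring Qb), A.LiesOverPrime q →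
      ∃ K₀ : IntermediateField ℚ Qb, FiniteDimensional ℚ K₀ ∧
        ∀ (K₁ : IntermediateField ℚ Qb) [NumberField K₁] [IsGalois ℚ K₁]
          [IsDiscreteValuationRing ↥(mgcA A K₁)], K₀ ≤ K₁ →
          ∀ (hζ : ∀ ζ : Qb, ζ ^ q = 1 → ζ ∈ mgcE A K₁) {π : ↥(mgcA A K₁)}
            (hπ : Irreducible π),
            Rtk6m4Stab hπ M H (rtk6diwW (K₀ := mgcE A K₁) w₀ hw₀ hM0 hq hqM' hζ) ∧
            ∀ σ ∈ A.inertiaSubgroupIn ℚ, ∀ (hσE : ∀ x ∈ mgcE A K₁, σ x ∈ mgcE A K₁)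
              (c' : (ZMod M)ˣ), IsAtR M q c' →
              ∀ δ₀' : ↥(rtk6diF A K₁ (M₁ * q) M H) ≃ₐ[↥(mgcE A K₁)]
                  ↥(rtk6diF A K₁ (M₁ * q) M H),
                IsDiamondC ↥(mgcE A K₁) (M₁ * q) M H c' δ₀' →
                Rtk6eiGeom hπ w₀ hw₀ hM0 hq hqM' hζ (rtk6diGal (M₁ * q) M H σ hσE)
                  (SemilinearAut.ofAlgAut δ₀')

/-- **The open geometric statement of piece E, case (U)** (`±H` contains the diamonds at `q`):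
(SS1-inst), (C4-U + D-BC + FAM-res), (FIX-U) at the tame rigid levels `L = M₁ q`. -/
def StmtRtk6GeomUnip : Prop :=
  ∀ (q M₁ : ℕ) [NeZero q] [NeZero M₁] [NeZero (M₁ * q)] (M : ℕ) (H : Subgroup (ZMod M)ˣ)
    (hq : q.Prime) (hqM' : q ∣ M) (hM0 : M ≠ 0), ¬ q ∣ M₁ → M ∣ M₁ * q →
    (∀ c : (ZMod M)ˣ, IsAtR M q c → c ∈ pmH H) → IsTameAt (M₁ * q) M q H → 4 ∣ M₁ * q →
    ∀ (w₀ : fieldBar (M₁ * q) M H ≃ₐ[Qb] fieldBar (M₁ * q) M H)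
      (hw₀ : IsWAt (M₁ * q) M H q w₀) (A : ValuationSubring Qb), A.LiesOverPrime q →
      ∃ K₀ : IntermediateField ℚ Qb, FiniteDimensional ℚ K₀ ∧
        ∀ (K₁ : IntermediateField ℚ Qb) [NumberField K₁] [IsGalois ℚ K₁]
          [IsDiscreteValuationRing ↥(mgcA A K₁)], K₀ ≤ K₁ →
          ∀ (hζ : ∀ ζ : Qb, ζ ^ q = 1 → ζ ∈ mgcE A K₁) {π : ↥(mgcA A K₁)}
            (hπ : Irreducible π),
            ∀ σ ∈ A.inertiaSubgroupIn ℚ, ∀ (hσE : ∀ x ∈ mgcE A K₁, σ x ∈ mgcE A K₁),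
              Rtk6eiGeom hπ w₀ hw₀ hM0 hq hqM' hζ (rtk6diGal (M₁ * q) M H σ hσE)
                (rtk6diGal (M₁ * q) M H σ hσE)

/-- if `±H` contains the diamonds at `r`, `H` is star-stable -/
theorem rtk6ei_starStable_of_hat {M r : ℕ} (hM0 : M ≠ 0) (hrM : r ∣ M)
    {H : Subgroup (ZMod M)ˣ} (hat : ∀ c : (ZMod M)ˣ, IsAtR M r c → c ∈ pmH H) :
    IsStarStable M r H := by
  intro h hh h' _ h2
  haveI : NeZero M := ⟨hM0⟩
  have hM1 : M / r ∣ M := Nat.div_dvd_of_dvd hrM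
  have hcast : ∀ x : ZMod M, ((x.val : ℕ) : ZMod (M / r)) =
      ZMod.castHom hM1 (ZMod (M / r)) x := fun x => by
    rw [ZMod.natCast_val, ZMod.castHom_apply]
  have hc : IsAtR M r (h' * h⁻¹) := by
    unfold IsAtR
    rw [hcast, hcast] at h2
    rw [hcast, Units.val_mul, map_mul, h2, ← map_mul, ← Units.val_mul, mul_inv_cancel,
      Units.val_one, map_one]
  have := (pmH H).mul_mem (hat _ hc) (le_pmH H hh)
  rwa [inv_mul_cancel_right] at this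

/-- the arithmetic of the level: `L = M₁ r`, `r ∤ M₁` -/
theorem rtk6ei_level {L M r : ℕ} (hML : M ∣ L) (hrM : r ∣ M) (hr2 : ¬ r ^ 2 ∣ L) :
    ∃ M₁ : ℕ, L = M₁ * r ∧ ¬ r ∣ M₁ := by
  obtain ⟨M₁, hM₁⟩ := hrM.trans hML
  refine ⟨M₁, by rw [hM₁, mul_comm], fun h => hr2 ?_⟩
  rw [hM₁, pow_two]
  exact Nat.mul_dvd_mul (dvd_refl r) h

/-- **E-INST, final form (χ-K)**: `StmtChiKummerRig` from the open geometric statement. -/
theorem rtk6ei_stmtChiKummerRig (h : StmtRtk6GeomChi) : StmtChiKummerRig := by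
  intro L M H r hL hML hr hrM hr2 hstar htame h4
  obtain ⟨M₁, rfl, hqM⟩ := rtk6ei_level hML hrM hr2
  haveI : NeZero r := ⟨hr.ne_zero⟩
  haveI : NeZero (M₁ * r) := ⟨hL⟩
  haveI : NeZero M₁ := ⟨fun h0 => hL (by rw [h0, zero_mul])⟩
  have hM0 : M ≠ 0 := fun h0 => hL (by rw [h0] at hML; exact Nat.eq_zero_of_zero_dvd hML)
  obtain ⟨w₀, hw₀⟩ := stmtB (M₁ * r) M H r hL hML hr hrM hr2 hstar
  exact chiKummerAt_of_fieldPP hr (rtk6ei_chiFieldPPAt hr hqM hML hrM hM0 w₀ hw₀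
    (h r M₁ M H hr hrM hM0 hqM hML hstar htame h4 w₀ hw₀))

/-- **E-INST, final form (UNIP_H)**: `StmtUnipHRig` from the open geometric statement. -/
theorem rtk6ei_stmtUnipHRig (h : StmtRtk6GeomUnip) : StmtUnipHRig := by
  intro L M H r hL hML hr hrM hr2 hat htame h4
  obtain ⟨M₁, rfl, hqM⟩ := rtk6ei_level hML hrM hr2
  haveI : NeZero r := ⟨hr.ne_zero⟩
  haveI : NeZero (M₁ * r) := ⟨hL⟩
  haveI : NeZero M₁ := ⟨fun h0 => hL (by rw [h0, zero_mul])⟩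
  have hM0 : M ≠ 0 := fun h0 => hL (by rw [h0] at hML; exact Nat.eq_zero_of_zero_dvd hML)
  obtain ⟨w₀, hw₀⟩ := stmtB (M₁ * r) M H r hL hML hr hrM hr2
    (rtk6ei_starStable_of_hat hM0 hrM hat)
  exact unipHAt_of_fieldPP hr (rtk6ei_unipFieldPPAt hr hqM hML hrM hM0 hat w₀ hw₀
    (h r M₁ M H hr hrM hM0 hqM hML hat htame h4 w₀ hw₀))

end Fermat.Agent.RT.K6

end
end ZBRT_032_14
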