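/- GENERATED FILE (helper35, build-time optimisation, NOTES/ZB.md): verbatim concatenation of the modules
   Fermat.Agent.RT.K6.DBCField
   Fermat.Agent.RT.K6.DBC
   Fermat.Agent.RT.K6.DBCZch
   Fermat.Agent.RT.K6.HRed
   Do not edit; do not import together with these modules. -/
import Fermat.Agent.ZB.ES1_009
import Fermat.Agent.ZB.UNIP_010
import Fermat.Agent.ZB.INJ_031
import Fermat.Agent.ZB.INJ_034
import Fermat.Agent.ZB.RT_032
import Fermat.Agent.ZB.UNIP_007

/-! ### bundled: `Fermat.Agent.RT.K6.DBCField` -/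
section ZBRT_067_0
/-
K-machine, piece K6, piece **D-BC** (helper56), field part: `fieldC E' L M H = fieldC E₀ L M H (α)`
if `E' = E₀(α)`.  Fork of `UNIP/MGChartsField.lean` with `modularFunctionFieldFullC K N` replaced by
`fieldC K L M H` and `mgcEmb` by `rtk6diCoeffHom L M H (algebraMap E₀ E')` (`RT/K6/DISetup.lean`).

* `rtk6dbcAlgebra E₀ E' L M H : Algebra (fieldC E₀ L M H) (fieldC E' L M H)`;
* `rtk6dbc_subfield_eq_top`, `rtk6dbc_adjoin_eq_top` : a subfield of `fieldC E' L M H` containing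
  the image of `fieldC E₀ L M H` and a generator `α` of `E' / E₀` is everything;
* `rtk6dbc_algebra_adjoin_eq_top` : `Algebra.adjoin (fieldC E₀ L M H) {α} = ⊤` for `α` algebraic
  over `E₀` (the hypothesis `htop` of `UNIP.mgc_ramified`).
-/

set_option autoImplicit false
set_option linter.style.haveILetI false
set_option linter.unusedSectionVars false

open ModularCurve Fermat.Agent.INJ Fermat.Agent.ES1

namespace Fermat.Agent.RT.K6

section Field

variable (E₀ E' : Type*) [Field E₀] [Field E'] [Algebra E₀ E']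
  (L M : ℕ) (H : Subgroup (ZMod M)ˣ)

/-- The algebra structure of `fieldC E' L M H` over `fieldC E₀ L M H`. -/
@[reducible]
noncomputable def rtk6dbcAlgebra : Algebra (fieldC E₀ L M H) (fieldC E' L M H) :=
  (rtk6diCoeffHom L M H (algebraMap E₀ E')).toAlgebra

/-- the generators `j(Q^d)` -/
theorem rtk6dbc_coeffHom_jqd {d : ℕ} [NeZero d] (hd : d ∣ L) :
    rtk6diCoeffHom L M H (algebraMap E₀ E')
        ⟨qExpand E₀ d (jqModC E₀), jd_mem_fieldC E₀ L M H hd⟩
      = ⟨qExpand E' d (jqModC E'), jd_mem_fieldC E' L M H hd⟩ := by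
  apply Subtype.ext
  exact coeffMap_jqNModC (algebraMap E₀ E') d

/-- the generators `S_{M,H,a}(Q^e)` -/
theorem rtk6dbc_coeffHom_sS {e : ℕ} [NeZero e] (he : e * M ∣ L) (a : (ZMod M)ˣ) :
    rtk6diCoeffHom L M H (algebraMap E₀ E')
        ⟨qExpand E₀ e (sS E₀ M H a), qExpand_sS_mem E₀ L M H he a⟩
      = ⟨qExpand E' e (sS E' M H a), qExpand_sS_mem E' L M H he a⟩ := by
  apply Subtype.ext
  exact es1f_coeffMap_qExpand_sS (algebraMap E₀ E') M H a e

/-- A subfield of `fieldC E' L M H` containing the image of `fieldC E₀ L M H` and the constants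
`E'` is everything. -/
theorem rtk6dbc_subfield_eq_top (S : Subfield (fieldC E' L M H))
    (hK : ∀ x : fieldC E₀ L M H, rtk6diCoeffHom L M H (algebraMap E₀ E') x ∈ S)
    (hE : ∀ c : E', algebraMap E' (fieldC E' L M H) c ∈ S) : S = ⊤ := by
  rw [eq_top_iff]
  rintro ⟨y, hy⟩ -
  have key : ∀ (z : LaurentSeries E') (hz : z ∈ fieldC E' L M H),
      (⟨z, hz⟩ : fieldC E' L M H) ∈ S := by
    intro z hz
    unfold fieldC at hz
    induction hz using IntermediateField.adjoin_induction with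
    | mem x hx =>
      rcases hx with ⟨d, hd, hdN, rfl⟩ | ⟨e, he, a, heL, rfl⟩
      · have := hK ⟨qExpand E₀ d (jqModC E₀), jd_mem_fieldC E₀ L M H hdN⟩
        rw [rtk6dbc_coeffHom_jqd E₀ E' L M H hdN] at this
        exact this
      · have := hK ⟨qExpand E₀ e (sS E₀ M H a), qExpand_sS_mem E₀ L M H heL a⟩
        rw [rtk6dbc_coeffHom_sS E₀ E' L M H heL a] at this
        exact this
    | algebraMap c =>
      have h1 := hE c
      have h2 : algebraMap E' (fieldC E' L M H) c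
          = ⟨algebraMap E' (LaurentSeries E') c,
              (fieldC E' L M H).algebraMap_mem c⟩ :=
        Subtype.ext (IntermediateField.coe_algebraMap_apply _ c)
      rw [h2] at h1
      exact h1
    | add x y hx hy ihx ihy =>
      have := S.add_mem ihx ihy
      exact this
    | inv x hx ihx =>
      have := S.inv_mem ihx
      exact this
    | mul x y hx hy ihx ihy =>
      have := S.mul_mem ihx ihy
      exact this
  exact key y hy

/-- A subfield of `fieldC E' L M H` containing the image of `fieldC E₀ L M H` and a generator `α`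
of `E'` over `E₀` is everything. -/
theorem rtk6dbc_adjoin_eq_top {α : E'} (hα : Algebra.adjoin E₀ ({α} : Set E') = ⊤)
    (S : Subfield (fieldC E' L M H))
    (hK : ∀ x : fieldC E₀ L M H, rtk6diCoeffHom L M H (algebraMap E₀ E') x ∈ S)
    (hαS : algebraMap E' (fieldC E' L M H) α ∈ S) : S = ⊤ := by
  refine rtk6dbc_subfield_eq_top E₀ E' L M H S hK fun c => ?_
  have hc : c ∈ Algebra.adjoin E₀ ({α} : Set E') := by rw [hα]; exact Algebra.mem_top
  induction hc using Algebra.adjoin_induction with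
  | mem x hx =>
    rw [Set.mem_singleton_iff] at hx
    rw [hx]
    exact hαS
  | algebraMap r =>
    rw [← rtk6diCoeffHom_algebraMap]
    exact hK _
  | add x y _ _ ihx ihy =>
    rw [map_add]
    exact S.add_mem ihx ihy
  | mul x y _ _ ihx ihy =>
    rw [map_mul]
    exact S.mul_mem ihx ihy

/-- `fieldC E' L M H = fieldC E₀ L M H [α]` if `E' = E₀[α]`, `α` algebraic over `E₀`. -/
theorem rtk6dbc_algebra_adjoin_eq_top {α : E'} (hα : Algebra.adjoin E₀ ({α} : Set E') = ⊤)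
    (halg : IsAlgebraic E₀ α) :
    letI := rtk6dbcAlgebra E₀ E' L M H
    Algebra.adjoin (fieldC E₀ L M H)
      ({algebraMap E' (fieldC E' L M H) α} : Set (fieldC E' L M H)) = ⊤ := by
  letI := rtk6dbcAlgebra E₀ E' L M H
  -- `α` is algebraic over `fieldC E₀ L M H`
  have halg' : IsAlgebraic (fieldC E₀ L M H)
      (algebraMap E' (fieldC E' L M H) α) := by
    obtain ⟨P, hP0, hP⟩ := halg
    refine ⟨P.map (algebraMap E₀ (fieldC E₀ L M H)),
      (Polynomial.map_ne_zero_iff (algebraMap E₀ _).injective).2 hP0, ?_⟩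
    have h1 : (algebraMap (fieldC E₀ L M H) (fieldC E' L M H)).comp
        (algebraMap E₀ (fieldC E₀ L M H))
        = (algebraMap E' (fieldC E' L M H)).comp (algebraMap E₀ E') :=
      RingHom.ext fun c => rtk6diCoeffHom_algebraMap L M H (algebraMap E₀ E') c
    rw [Polynomial.aeval_def, Polynomial.eval₂_map, h1, ← Polynomial.eval₂_map,
      Polynomial.eval₂_hom, Polynomial.eval_map, ← Polynomial.aeval_def, hP, map_zero]
  rw [← IntermediateField.adjoin_simple_toSubalgebra_of_isAlgebraic halg']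
  have htop : (IntermediateField.adjoin (fieldC E₀ L M H)
      ({algebraMap E' (fieldC E' L M H) α} : Set (fieldC E' L M H))).toSubfield = ⊤ :=
    rtk6dbc_adjoin_eq_top E₀ E' L M H hα _
      (fun x => IntermediateField.algebraMap_mem _ x)
      (IntermediateField.subset_adjoin _ _ (Set.mem_singleton _))
  rw [eq_top_iff]
  intro y _
  have : y ∈ (IntermediateField.adjoin (fieldC E₀ L M H)
      ({algebraMap E' (fieldC E' L M H) α} : Set (fieldC E' L M H))).toSubfield := by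
    rw [htop]; exact Subfield.mem_top y
  exact this

end Field

end Fermat.Agent.RT.K6


end ZBRT_067_0

/-! ### bundled: `Fermat.Agent.RT.K6.DBC` -/
section ZBRT_067_1
/-
K-machine, piece K6, piece **D-BC** (helper56), abstract stage: base change of the charts of
`fieldC · L M H` along an extension of discrete valuation rings.

`A₀ ⊆ A'` discrete valuation rings with fraction fields `E₀ → E'` (characteristic `0`),
`K = fieldC E₀ L M H`, `F = fieldC E' L M H`, `K → F` the coefficientwise embedding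
`rtk6diCoeffHom L M H (algebraMap E₀ E')`; `τ : K` a coordinate with image `t : F`;
`R₁ = integralClosure A₀[τ] K` (the chart over `A₀`), `B' = zchClosure {t}` (the chart over `A'`).

`rtk6dbc_ramified_gen` : instance of `UNIP.mgc_ramified` (MG-4): there is `j : R₁ →+* B'`, the
coefficientwise inclusion, with `MgcRamified j π' π` and `j π = (image of π in A')`
— the hypotheses `hram₁`, `hjp₁` (`hram₂`, `hjp₂`) of `rtk6ew_main_multi` (`RT/K6/EWMulti.lean`)
with `p₁ := π`, `q := algebraMap A₀ A' π`.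
-/

set_option autoImplicit false
set_option linter.style.haveILetI false
set_option linter.unusedSectionVars false
set_option linter.unusedVariables false

open Polynomial IntermediateField Fermat.Agent.INJ Fermat.Agent.UNIP Fermat.Agent.ES1
  AlgebraicCurve ModularCurve

namespace Fermat.Agent.RT.K6

section Modular

universe u v

variable {A₀ E₀ : Type u} [CommRing A₀] [IsDomain A₀] [IsDiscreteValuationRing A₀]
  [Field E₀] [CharZero E₀] [Algebra A₀ E₀] [IsFractionRing A₀ E₀]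
  {A' E' : Type v} [CommRing A'] [IsDomain A'] [IsDiscreteValuationRing A']
  [Field E'] [CharZero E'] [Algebra A' E'] [IsFractionRing A' E']
  [Algebra E₀ E'] [Algebra A₀ A'] (L M : ℕ) (H : Subgroup (ZMod M)ˣ)
  [Algebra A₀ (fieldC E₀ L M H)]
  [IsScalarTower A₀ E₀ (fieldC E₀ L M H)]
  [Algebra A' (fieldC E' L M H)]
  [IsScalarTower A' E' (fieldC E' L M H)]

/-- The `A₀`-algebra structure of `fieldC E' L M H` through `fieldC E₀ L M H`. -/
@[reducible]
noncomputable def rtk6dbcAlgebraA : Algebra A₀ (fieldC E' L M H) :=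
  ((rtk6diCoeffHom L M H (algebraMap E₀ E')).comp
    (algebraMap A₀ (fieldC E₀ L M H))).toAlgebra

theorem rtk6dbc_isScalarTower :
    letI := rtk6dbcAlgebra E₀ E' L M H
    letI := rtk6dbcAlgebraA (A₀ := A₀) (E₀ := E₀) (E' := E') L M H
    IsScalarTower A₀ (fieldC E₀ L M H) (fieldC E' L M H) := by
  letI := rtk6dbcAlgebra E₀ E' L M H
  letI := rtk6dbcAlgebraA (A₀ := A₀) (E₀ := E₀) (E' := E') L M H
  apply IsScalarTower.of_algebraMap_eq
  intro a
  rfl

theorem rtk6dbc_isScalarTower'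
    (hcomp : ∀ a : A₀, algebraMap A' E' (algebraMap A₀ A' a) =
      algebraMap E₀ E' (algebraMap A₀ E₀ a)) :
    letI := rtk6dbcAlgebraA (A₀ := A₀) (E₀ := E₀) (E' := E') L M H
    IsScalarTower A₀ A' (fieldC E' L M H) := by
  letI := rtk6dbcAlgebraA (A₀ := A₀) (E₀ := E₀) (E' := E') L M H
  apply IsScalarTower.of_algebraMap_eq
  intro a
  show rtk6diCoeffHom L M H (algebraMap E₀ E') (algebraMap A₀ (fieldC E₀ L M H) a) = _
  rw [IsScalarTower.algebraMap_apply A₀ E₀ (fieldC E₀ L M H), rtk6diCoeffHom_algebraMap,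
    IsScalarTower.algebraMap_apply A' E' (fieldC E' L M H), hcomp]

/-- `fieldC E' L M H = fieldC E₀ L M H [π']`. -/
theorem rtk6dbc_htop {π' : A'}
    (hadj : Algebra.adjoin E₀ ({algebraMap A' E' π'} : Set E') = ⊤)
    (halg : IsAlgebraic E₀ (algebraMap A' E' π')) :
    letI := rtk6dbcAlgebra E₀ E' L M H
    Algebra.adjoin (fieldC E₀ L M H)
      ({algebraMap A' (fieldC E' L M H) π'} : Set (fieldC E' L M H)) = ⊤ := by
  letI := rtk6dbcAlgebra E₀ E' L M H
  rw [IsScalarTower.algebraMap_apply A' E' (fieldC E' L M H)]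
  exact rtk6dbc_algebra_adjoin_eq_top E₀ E' L M H hadj halg

/-- **D-BC, abstract stage.**  The chart `B' = zchClosure {t}` of `fieldC E' L M H` over the
ramified base `A'` has the same special fibre as the chart `R₁ = integralClosure A₀[τ]` of
`fieldC E₀ L M H` over `A₀`: the coefficientwise inclusion `j : R₁ →+* B'` satisfies
`MgcRamified j π' π`, and `j π` is the image of `π` in `A'`. -/
theorem rtk6dbc_ramified_gen
    (hcomp : ∀ a : A₀, algebraMap A' E' (algebraMap A₀ A' a) =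
      algebraMap E₀ E' (algebraMap A₀ E₀ a))
    [Algebra.IsIntegral A₀ A']
    {π : A₀} (hπ : Irreducible π) (τ : fieldC E₀ L M H)
    [FiniteDimensional E₀⟮τ⟯ (fieldC E₀ L M H)]
    (hπu : ¬ IsUnit (algebraMap A₀
      (integralClosure (Algebra.adjoin A₀ {τ}) (fieldC E₀ L M H)) π))
    (hred : ∀ c : integralClosure (Algebra.adjoin A₀ {τ}) (fieldC E₀ L M H),
      algebraMap A₀ (integralClosure (Algebra.adjoin A₀ {τ}) (fieldC E₀ L M H)) π ∣ c ^ 2 →
      algebraMap A₀ (integralClosure (Algebra.adjoin A₀ {τ}) (fieldC E₀ L M H)) π ∣ c)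
    {π' : A'} (hπ'0 : π' ≠ 0) (hπ'u : ¬ IsUnit π') {e : ℕ}
    (hram : π' ^ e ∣ algebraMap A₀ A' π)
    (g₀ : A₀[X]) (hgm : g₀.Monic) (hroot : aeval π' g₀ = 0) (hdeg : g₀.natDegree ≤ e)
    (hadj : Algebra.adjoin E₀ ({algebraMap A' E' π'} : Set E') = ⊤)
    (halg : IsAlgebraic E₀ (algebraMap A' E' π'))
    {t : fieldC E' L M H} (ht : rtk6diCoeffHom L M H (algebraMap E₀ E') τ = t) :
    ∃ j : ↥(integralClosure (Algebra.adjoin A₀ {τ}) (fieldC E₀ L M H)) →+*
        ↥(zchClosure (A₀ := A') ({t} : Set (fieldC E' L M H))),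
      (∀ b, ((j b : ↥(zchClosure (A₀ := A') ({t} : Set (fieldC E' L M H)))) :
          fieldC E' L M H) = rtk6diCoeffHom L M H (algebraMap E₀ E') (b : fieldC E₀ L M H)) ∧
      MgcRamified j
        (algebraMap A' ↥(zchClosure (A₀ := A') ({t} : Set (fieldC E' L M H))) π')
        (algebraMap A₀ (integralClosure (Algebra.adjoin A₀ {τ}) (fieldC E₀ L M H)) π) ∧
      j (algebraMap A₀ (integralClosure (Algebra.adjoin A₀ {τ}) (fieldC E₀ L M H)) π) =
        algebraMap A' ↥(zchClosure (A₀ := A') ({t} : Set (fieldC E' L M H)))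
          (algebraMap A₀ A' π) := by
  letI := rtk6dbcAlgebra E₀ E' L M H
  letI := rtk6dbcAlgebraA (A₀ := A₀) (E₀ := E₀) (E' := E') L M H
  haveI := rtk6dbc_isScalarTower (A₀ := A₀) (E₀ := E₀) (E' := E') L M H
  haveI := rtk6dbc_isScalarTower' (A₀ := A₀) (E₀ := E₀) (A' := A') (E' := E') L M H hcomp
  subst ht
  have hinj : Function.Injective
      (algebraMap ↥(zchClosure (A₀ := A')
        ({algebraMap (fieldC E₀ L M H) (fieldC E' L M H) τ} : Set (fieldC E' L M H)))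
        (fieldC E' L M H)) :=
    Subtype.val_injective
  have hB : ∀ y : fieldC E' L M H,
      y ∈ (algebraMap ↥(zchClosure (A₀ := A')
        ({algebraMap (fieldC E₀ L M H) (fieldC E' L M H) τ} : Set (fieldC E' L M H)))
        (fieldC E' L M H)).range ↔
        IsIntegral (Algebra.adjoin A'
          ({algebraMap (fieldC E₀ L M H) (fieldC E' L M H) τ} : Set (fieldC E' L M H))) y := by
    intro y
    constructor
    · rintro ⟨b, rfl⟩
      exact mem_zchClosure.mp b.2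
    · intro hy
      exact ⟨⟨y, mem_zchClosure.mpr hy⟩, rfl⟩
  obtain ⟨j, hj, hR⟩ := mgc_ramified (E₀ := E₀)
    (B' := ↥(zchClosure (A₀ := A')
      ({algebraMap (fieldC E₀ L M H) (fieldC E' L M H) τ} : Set (fieldC E' L M H))))
    hπ τ hπu hred hπ'0 hπ'u hram g₀ hgm hroot hdeg
    (rtk6dbc_htop (E₀ := E₀) L M H hadj halg) hinj hB
  refine ⟨j, fun b => hj b, hR, ?_⟩
  apply hinj
  rw [hj]
  show algebraMap A₀ (fieldC E' L M H) π =
    algebraMap A' (fieldC E' L M H) (algebraMap A₀ A' π)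
  exact IsScalarTower.algebraMap_apply A₀ A' (fieldC E' L M H) π

end Modular

end Fermat.Agent.RT.K6


end ZBRT_067_1

/-! ### bundled: `Fermat.Agent.RT.K6.DBCZch` -/
section ZBRT_067_2
/-
K-machine, piece K6, piece **D-BC** (helper56), abstract stage, `zchClosure` form.

Same as `rtk6dbc_ramified_gen` (`RT/K6/DBC.lean`) with the SOURCE chart written as
`↥(zchClosure (A₀ := A₀) {τ})` (the form used by C4 and by `Rtk6emChartAt`), `hπu` discharged
(`INJ.tsg_not_isUnit`), and for ANY uniformizer of `A'` (`MgcRamified` only depends on `π'` up to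
a unit).
-/

set_option autoImplicit false
set_option linter.style.haveILetI false
set_option linter.unusedSectionVars false
set_option linter.unusedVariables false

open Polynomial IntermediateField Fermat.Agent.INJ Fermat.Agent.UNIP Fermat.Agent.ES1
  AlgebraicCurve ModularCurve

namespace Fermat.Agent.RT.K6

section Assoc

/-- `MgcRamified j ϖ p` only depends on `ϖ` up to a unit. -/
theorem rtk6dbc_ramified_of_associated {R R' : Type*} [CommRing R] [CommRing R']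
    {j : R →+* R'} {ϖ ϖ' : R'} {p : R} (h : Associated ϖ ϖ') (hR : MgcRamified j ϖ p) :
    MgcRamified j ϖ' p := by
  refine ⟨h.symm.dvd.trans hR.dvd, ?_, fun c hc => hR.cancel c (h.dvd.trans hc)⟩
  obtain ⟨u, hu⟩ := h
  intro x
  obtain ⟨c, z, hz⟩ := hR.decomp x
  refine ⟨c, ((u⁻¹ : R'ˣ) : R') * z, ?_⟩
  rw [hz, ← hu, mul_assoc, ← mul_assoc (u : R'), Units.mul_inv, one_mul]

end Assoc

section Modular

universe u v

variable {A₀ E₀ : Type u} [CommRing A₀] [IsDomain A₀] [IsDiscreteValuationRing A₀]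
  [Field E₀] [CharZero E₀] [Algebra A₀ E₀] [IsFractionRing A₀ E₀]
  {A' E' : Type v} [CommRing A'] [IsDomain A'] [IsDiscreteValuationRing A']
  [Field E'] [CharZero E'] [Algebra A' E'] [IsFractionRing A' E']
  [Algebra E₀ E'] [Algebra A₀ A'] (L M : ℕ) (H : Subgroup (ZMod M)ˣ)
  [Algebra A₀ (fieldC E₀ L M H)]
  [IsScalarTower A₀ E₀ (fieldC E₀ L M H)]
  [Algebra A' (fieldC E' L M H)]
  [IsScalarTower A' E' (fieldC E' L M H)]

/-- `zchClosure {τ} → integralClosure A₀[τ]`, the identity on elements -/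
def rtk6dbcZchTo (τ : fieldC E₀ L M H)
    (x : ↥(zchClosure (A₀ := A₀) ({τ} : Set (fieldC E₀ L M H)))) :
    ↥(integralClosure (Algebra.adjoin A₀ {τ}) (fieldC E₀ L M H)) :=
  ⟨x.1, mem_zchClosure.mp x.2⟩

/-- `integralClosure A₀[τ] → zchClosure {τ}`, the identity on elements -/
def rtk6dbcZchOf (τ : fieldC E₀ L M H)
    (x : ↥(integralClosure (Algebra.adjoin A₀ {τ}) (fieldC E₀ L M H))) :
    ↥(zchClosure (A₀ := A₀) ({τ} : Set (fieldC E₀ L M H))) :=
  ⟨x.1, mem_zchClosure.mpr x.2⟩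

theorem rtk6dbcZchTo_of (τ : fieldC E₀ L M H)
    (x : ↥(integralClosure (Algebra.adjoin A₀ {τ}) (fieldC E₀ L M H))) :
    rtk6dbcZchTo (A₀ := A₀) L M H τ (rtk6dbcZchOf (A₀ := A₀) L M H τ x) = x := rfl

theorem rtk6dbcZchOf_to (τ : fieldC E₀ L M H)
    (x : ↥(zchClosure (A₀ := A₀) ({τ} : Set (fieldC E₀ L M H)))) :
    rtk6dbcZchOf (A₀ := A₀) L M H τ (rtk6dbcZchTo (A₀ := A₀) L M H τ x) = x := rfl

theorem rtk6dbcZchTo_one (τ : fieldC E₀ L M H) :
    rtk6dbcZchTo (A₀ := A₀) L M H τ 1 = 1 := Subtype.ext rfl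

theorem rtk6dbcZchTo_zero (τ : fieldC E₀ L M H) :
    rtk6dbcZchTo (A₀ := A₀) L M H τ 0 = 0 := Subtype.ext rfl

theorem rtk6dbcZchTo_mul (τ : fieldC E₀ L M H)
    (x y : ↥(zchClosure (A₀ := A₀) ({τ} : Set (fieldC E₀ L M H)))) :
    rtk6dbcZchTo (A₀ := A₀) L M H τ (x * y) =
      rtk6dbcZchTo (A₀ := A₀) L M H τ x * rtk6dbcZchTo (A₀ := A₀) L M H τ y := Subtype.ext rfl

theorem rtk6dbcZchTo_add (τ : fieldC E₀ L M H)
    (x y : ↥(zchClosure (A₀ := A₀) ({τ} : Set (fieldC E₀ L M H)))) :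
    rtk6dbcZchTo (A₀ := A₀) L M H τ (x + y) =
      rtk6dbcZchTo (A₀ := A₀) L M H τ x + rtk6dbcZchTo (A₀ := A₀) L M H τ y := Subtype.ext rfl

theorem rtk6dbcZchOf_mul (τ : fieldC E₀ L M H)
    (x y : ↥(integralClosure (Algebra.adjoin A₀ {τ}) (fieldC E₀ L M H))) :
    rtk6dbcZchOf (A₀ := A₀) L M H τ (x * y) =
      rtk6dbcZchOf (A₀ := A₀) L M H τ x * rtk6dbcZchOf (A₀ := A₀) L M H τ y := Subtype.ext rfl

theorem rtk6dbcZchTo_algebraMap (τ : fieldC E₀ L M H) (a : A₀) :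
    rtk6dbcZchTo (A₀ := A₀) L M H τ
      (algebraMap A₀ ↥(zchClosure (A₀ := A₀) ({τ} : Set (fieldC E₀ L M H))) a) =
      algebraMap A₀ (integralClosure (Algebra.adjoin A₀ {τ}) (fieldC E₀ L M H)) a :=
  Subtype.ext rfl

theorem rtk6dbcZchOf_algebraMap (τ : fieldC E₀ L M H) (a : A₀) :
    rtk6dbcZchOf (A₀ := A₀) L M H τ
      (algebraMap A₀ (integralClosure (Algebra.adjoin A₀ {τ}) (fieldC E₀ L M H)) a) =
      algebraMap A₀ ↥(zchClosure (A₀ := A₀) ({τ} : Set (fieldC E₀ L M H))) a :=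
  Subtype.ext rfl

/-- divisibility is the same in `zchClosure {τ}` and in `integralClosure A₀[τ]` -/
theorem rtk6dbcZch_dvd_to (τ : fieldC E₀ L M H)
    {x y : ↥(zchClosure (A₀ := A₀) ({τ} : Set (fieldC E₀ L M H)))} (h : x ∣ y) :
    rtk6dbcZchTo (A₀ := A₀) L M H τ x ∣ rtk6dbcZchTo (A₀ := A₀) L M H τ y := by
  obtain ⟨d, hd⟩ := h
  exact ⟨rtk6dbcZchTo (A₀ := A₀) L M H τ d, by rw [hd, rtk6dbcZchTo_mul]⟩

theorem rtk6dbcZch_dvd_of (τ : fieldC E₀ L M H)
    {x y : ↥(integralClosure (Algebra.adjoin A₀ {τ}) (fieldC E₀ L M H))} (h : x ∣ y) :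
    rtk6dbcZchOf (A₀ := A₀) L M H τ x ∣ rtk6dbcZchOf (A₀ := A₀) L M H τ y := by
  obtain ⟨d, hd⟩ := h
  exact ⟨rtk6dbcZchOf (A₀ := A₀) L M H τ d, by rw [hd, rtk6dbcZchOf_mul]⟩

/-- a ring homomorphism out of `integralClosure A₀[τ]` as a ring homomorphism out of
`zchClosure {τ}` -/
noncomputable def rtk6dbcZchHom {S : Type*} [CommRing S] (τ : fieldC E₀ L M H)
    (j : ↥(integralClosure (Algebra.adjoin A₀ {τ}) (fieldC E₀ L M H)) →+* S) :
    ↥(zchClosure (A₀ := A₀) ({τ} : Set (fieldC E₀ L M H))) →+* S where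
  toFun x := j (rtk6dbcZchTo (A₀ := A₀) L M H τ x)
  map_one' := by rw [rtk6dbcZchTo_one]; exact j.map_one
  map_mul' x y := by rw [rtk6dbcZchTo_mul]; exact j.map_mul _ _
  map_zero' := by rw [rtk6dbcZchTo_zero]; exact j.map_zero
  map_add' x y := by rw [rtk6dbcZchTo_add]; exact j.map_add _ _

theorem rtk6dbcZchHom_apply {S : Type*} [CommRing S] (τ : fieldC E₀ L M H)
    (j : ↥(integralClosure (Algebra.adjoin A₀ {τ}) (fieldC E₀ L M H)) →+* S)
    (x : ↥(zchClosure (A₀ := A₀) ({τ} : Set (fieldC E₀ L M H)))) :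
    rtk6dbcZchHom (A₀ := A₀) L M H τ j x = j (rtk6dbcZchTo (A₀ := A₀) L M H τ x) := rfl

/-- transport of `MgcRamified` to the source `zchClosure {τ}` -/
theorem rtk6dbc_ramified_zchHom {S : Type*} [CommRing S] (τ : fieldC E₀ L M H)
    {j : ↥(integralClosure (Algebra.adjoin A₀ {τ}) (fieldC E₀ L M H)) →+* S} {ϖ : S} {a : A₀}
    (hR : MgcRamified j ϖ
      (algebraMap A₀ (integralClosure (Algebra.adjoin A₀ {τ}) (fieldC E₀ L M H)) a)) :
    MgcRamified (rtk6dbcZchHom (A₀ := A₀) L M H τ j) ϖ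
      (algebraMap A₀ ↥(zchClosure (A₀ := A₀) ({τ} : Set (fieldC E₀ L M H))) a) := by
  refine ⟨?_, ?_, ?_⟩
  · rw [rtk6dbcZchHom_apply, rtk6dbcZchTo_algebraMap]
    exact hR.dvd
  · intro x
    obtain ⟨c, z, hz⟩ := hR.decomp x
    refine ⟨rtk6dbcZchOf (A₀ := A₀) L M H τ c, z, ?_⟩
    rw [rtk6dbcZchHom_apply, rtk6dbcZchTo_of]
    exact hz
  · intro c hc
    rw [rtk6dbcZchHom_apply] at hc
    have h1 := rtk6dbcZch_dvd_of (A₀ := A₀) L M H τ (hR.cancel _ hc)
    rw [rtk6dbcZchOf_algebraMap, rtk6dbcZchOf_to] at h1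
    exact h1

/-- **D-BC, abstract stage, `zchClosure` form.**  `π` a uniformizer of `A₀`, `π'` ANY uniformizer
of `A'`, `π₀` a uniformizer of `A'` with the ramification data `e`, `g₀`, `hadj`; the special
fibre of the chart `zchClosure {τ}` over `A₀` reduced.  Then the coefficientwise inclusion
`j : zchClosure {τ} →+* zchClosure {t}` satisfies `MgcRamified j π' π` and
`j π = algebraMap A₀ A' π`. -/
theorem rtk6dbc_ramified_zch
    (hcomp : ∀ a : A₀, algebraMap A' E' (algebraMap A₀ A' a) =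
      algebraMap E₀ E' (algebraMap A₀ E₀ a))
    [Algebra.IsIntegral A₀ A']
    {π : A₀} (hπ : Irreducible π) (τ : fieldC E₀ L M H) (hτ : Transcendental E₀ τ)
    [FiniteDimensional E₀⟮τ⟯ (fieldC E₀ L M H)]
    (hred : ∀ c : ↥(zchClosure (A₀ := A₀) ({τ} : Set (fieldC E₀ L M H))),
      algebraMap A₀ ↥(zchClosure (A₀ := A₀) ({τ} : Set (fieldC E₀ L M H))) π ∣ c ^ 2 →
      algebraMap A₀ ↥(zchClosure (A₀ := A₀) ({τ} : Set (fieldC E₀ L M H))) π ∣ c)
    {π' : A'} (hπ' : Irreducible π')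
    {π₀ : A'} (hπ₀ : Irreducible π₀) {e : ℕ}
    (hram : π₀ ^ e ∣ algebraMap A₀ A' π)
    (g₀ : A₀[X]) (hgm : g₀.Monic) (hroot : aeval π₀ g₀ = 0) (hdeg : g₀.natDegree ≤ e)
    (hadj : Algebra.adjoin E₀ ({algebraMap A' E' π₀} : Set E') = ⊤)
    (halg : IsAlgebraic E₀ (algebraMap A' E' π₀))
    {t : fieldC E' L M H} (ht : rtk6diCoeffHom L M H (algebraMap E₀ E') τ = t) :
    ∃ j : ↥(zchClosure (A₀ := A₀) ({τ} : Set (fieldC E₀ L M H))) →+*
        ↥(zchClosure (A₀ := A') ({t} : Set (fieldC E' L M H))),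
      (∀ b, ((j b : ↥(zchClosure (A₀ := A') ({t} : Set (fieldC E' L M H)))) :
          fieldC E' L M H) = rtk6diCoeffHom L M H (algebraMap E₀ E') (b : fieldC E₀ L M H)) ∧
      MgcRamified j
        (algebraMap A' ↥(zchClosure (A₀ := A') ({t} : Set (fieldC E' L M H))) π')
        (algebraMap A₀ ↥(zchClosure (A₀ := A₀) ({τ} : Set (fieldC E₀ L M H))) π) ∧
      j (algebraMap A₀ ↥(zchClosure (A₀ := A₀) ({τ} : Set (fieldC E₀ L M H))) π) =
        algebraMap A' ↥(zchClosure (A₀ := A') ({t} : Set (fieldC E' L M H)))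
          (algebraMap A₀ A' π) := by
  have hred' : ∀ c : integralClosure (Algebra.adjoin A₀ {τ}) (fieldC E₀ L M H),
      algebraMap A₀ (integralClosure (Algebra.adjoin A₀ {τ}) (fieldC E₀ L M H)) π ∣ c ^ 2 →
      algebraMap A₀ (integralClosure (Algebra.adjoin A₀ {τ}) (fieldC E₀ L M H)) π ∣ c := by
    intro c hc
    have h1 := rtk6dbcZch_dvd_of (A₀ := A₀) L M H τ hc
    rw [rtk6dbcZchOf_algebraMap, pow_two, rtk6dbcZchOf_mul, ← pow_two] at h1
    have h2 := rtk6dbcZch_dvd_to (A₀ := A₀) L M H τ (hred _ h1)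
    rw [rtk6dbcZchTo_algebraMap, rtk6dbcZchTo_of] at h2
    exact h2
  have hπu := tsg_not_isUnit (A₀ := A₀) (E := E₀) (Lf := fieldC E₀ L M H) hτ hπ
  obtain ⟨j, hj, hR, hjp⟩ := rtk6dbc_ramified_gen (A₀ := A₀) (E₀ := E₀) (A' := A') (E' := E')
    L M H hcomp hπ τ hπu hred' hπ₀.ne_zero hπ₀.not_isUnit hram g₀ hgm hroot
    hdeg hadj halg ht
  refine ⟨rtk6dbcZchHom (A₀ := A₀) L M H τ j, fun b => hj _, ?_, ?_⟩
  · exact rtk6dbc_ramified_of_associated
      ((IsDiscreteValuationRing.associated_of_irreducible _ hπ₀ hπ').map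
        (algebraMap A' ↥(zchClosure (A₀ := A') ({t} : Set (fieldC E' L M H)))))
      (rtk6dbc_ramified_zchHom (A₀ := A₀) L M H τ hR)
  · rw [rtk6dbcZchHom_apply, rtk6dbcZchTo_algebraMap]
    exact hjp

end Modular

end Fermat.Agent.RT.K6


end ZBRT_067_2

/-! ### bundled: `Fermat.Agent.RT.K6.HRed` -/
section ZBRT_067_3
/-
K-machine, piece K6, piece **HRED** (helper45): the hypotheses `hπu`, `hred` of D-BC
(`rtk6dbc_ramified_gen`, `RT/K6/DBC.lean`) from (SS1) and the family of vertical valuations.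

* abstract chart setting (`A₀` a discrete valuation ring, `π` a uniformizer, `F / E(u)`):
  `rtk6hr_not_isUnit` (`π` is not a unit of the chart `C_u = integralClosure A₀[u] F`),
  `rtk6hr_hred_of_ss1` (`π ∣ c ^ 2 → π ∣ c` on `C_u`: the special fibre is reduced);
* concrete setting of `RT/K6/EMain.lean` at ANY `(A, K₁)` (in the application
  `K₁ := K₁′ = rtk6ebK r d`, `A₁ = mgcA A K₁′`, `π = ϖ₁`): from `Rtk6emFam` and `Rtk6emSS1`
  `rtk6hr_hπu`, `rtk6hr_hred` (chart `t = j`) and `rtk6hr_hπu_inv`, `rtk6hr_hred_inv`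
  (chart `t⁻¹`; (SS1) on the chart `t⁻¹` by `UNIP.ats_SS1_inv`), in EXACTLY the shape of the
  hypotheses `hπu`, `hred` of `rtk6dbc_ramified_gen` with `A₀ := mgcA A K₁`, `E₀ := mgcE A K₁`,
  `τ := rtk6diT A K₁ L M H` resp. `τ := (rtk6diT A K₁ L M H)⁻¹`.
-/

set_option autoImplicit false
set_option linter.style.haveILetI false
set_option linter.unusedSectionVars false
set_option linter.unusedVariables false
set_option synthInstance.maxHeartbeats 400000
set_option maxHeartbeats 1000000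

noncomputable section

namespace Fermat.Agent.RT.K6

open ModularCurve AlgebraicCurve Fermat.Agent.ES Fermat.Agent.ES.G2 Fermat.Agent.INJ
open Fermat.Agent.UNIP Fermat.Agent.STB Fermat.Agent.ES1 Fermat.Agent.ES1.G2 IntermediateField

section Abs

variable {A₀ F : Type*} [CommRing A₀] [Field F] [Algebra A₀ F] {π : A₀} {κ : Type*}

/-- `π` is not a unit of the chart `C_u`, if some valuation ring `W ⊇ C_u` has `π ∈ 𝔪_W`. -/
theorem rtk6hr_not_isUnit (u : F) (W : ValuationSubring F)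
    (hBW : ∀ b : F, IsIntegral ↥(Algebra.adjoin A₀ ({u} : Set F)) b → b ∈ W)
    (hπW : algebraMap A₀ F π ∈ W.nonunits) :
    ¬ IsUnit (algebraMap A₀ ↥(integralClosure ↥(Algebra.adjoin A₀ ({u} : Set F)) F) π) := by
  intro hu
  obtain ⟨v, hv⟩ := hu.exists_right_inv
  have h1 : algebraMap A₀ F π * (v : F) = 1 := congrArg Subtype.val hv
  have h2 : (v : F) * algebraMap A₀ F π ∈ W.nonunits :=
    pwi_mul_mem_nonunits W (hBW _ v.2) hπW
  rw [mul_comm, h1, ValuationSubring.mem_nonunits_iff, map_one] at h2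
  exact lt_irrefl _ h2

/-- **`hred`**: the special fibre of the chart `C_u` is reduced, from (SS1). -/
theorem rtk6hr_hred_of_ss1 (u : F) (V : κ → ValuationSubring F)
    (hBV : ∀ c (b : F), IsIntegral ↥(Algebra.adjoin A₀ ({u} : Set F)) b → b ∈ V c)
    (hπV : ∀ c, algebraMap A₀ F π ∈ (V c).nonunits)
    (hSS1 : ∀ b : F, IsIntegral ↥(Algebra.adjoin A₀ ({u} : Set F)) b →
      (∀ c, b ∈ (V c).nonunits) →
      ∃ b' : F, IsIntegral ↥(Algebra.adjoin A₀ ({u} : Set F)) b' ∧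
        b = algebraMap A₀ F π * b')
    (c : ↥(integralClosure ↥(Algebra.adjoin A₀ ({u} : Set F)) F))
    (hc : algebraMap A₀ ↥(integralClosure ↥(Algebra.adjoin A₀ ({u} : Set F)) F) π ∣ c ^ 2) :
    algebraMap A₀ ↥(integralClosure ↥(Algebra.adjoin A₀ ({u} : Set F)) F) π ∣ c := by
  obtain ⟨b, hb⟩ := hc
  have hbF : (c : F) ^ 2 = algebraMap A₀ F π * (b : F) := congrArg Subtype.val hb
  have hcV : ∀ i, (c : F) ∈ (V i).nonunits := by
    intro i
    apply ats_mem_nonunits_of_pow (V i) (n := 2)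
    rw [hbF, mul_comm]
    exact pwi_mul_mem_nonunits (V i) (hBV i _ b.2) (hπV i)
  obtain ⟨b', hb', hcb'⟩ := hSS1 (c : F) c.2 hcV
  exact ⟨⟨b', hb'⟩, Subtype.ext hcb'⟩

end Abs

section Concrete

variable {A : ValuationSubring Qb} {K₁ : IntermediateField ℚ Qb}
  {L M : ℕ} {H : Subgroup (ZMod M)ˣ} [IsDiscreteValuationRing ↥(mgcA A K₁)]
  {π : ↥(mgcA A K₁)} {κ : Type} {V : κ → ValuationSubring ↥(rtk6diF A K₁ L M H)}

/-- **`hπu` of D-BC**, chart `t`. -/
theorem rtk6hr_hπu (fam : Rtk6emFam A K₁ L M H π V) (c₀ : κ) :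
    ¬ IsUnit (algebraMap ↥(mgcA A K₁)
      ↥(integralClosure ↥(Algebra.adjoin ↥(mgcA A K₁)
        ({rtk6diT A K₁ L M H} : Set ↥(rtk6diF A K₁ L M H))) ↥(rtk6diF A K₁ L M H)) π) :=
  rtk6hr_not_isUnit (rtk6diT A K₁ L M H) (V c₀) (fam.hBV₁ c₀) (fam.hπV c₀)

/-- **`hπu` of D-BC**, chart `t⁻¹`. -/
theorem rtk6hr_hπu_inv (fam : Rtk6emFam A K₁ L M H π V) (c₀ : κ) :
    ¬ IsUnit (algebraMap ↥(mgcA A K₁)
      ↥(integralClosure ↥(Algebra.adjoin ↥(mgcA A K₁)
        ({(rtk6diT A K₁ L M H)⁻¹} : Set ↥(rtk6diF A K₁ L M H))) ↥(rtk6diF A K₁ L M H)) π) :=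
  rtk6hr_not_isUnit (rtk6diT A K₁ L M H)⁻¹ (V c₀) (fam.hBV₂ c₀) (fam.hπV c₀)

/-- **`hred` of D-BC**, chart `t`. -/
theorem rtk6hr_hred (fam : Rtk6emFam A K₁ L M H π V) (ss1 : Rtk6emSS1 A K₁ L M H π V)
    (c : ↥(integralClosure ↥(Algebra.adjoin ↥(mgcA A K₁)
      ({rtk6diT A K₁ L M H} : Set ↥(rtk6diF A K₁ L M H))) ↥(rtk6diF A K₁ L M H)))
    (hc : algebraMap ↥(mgcA A K₁)
      ↥(integralClosure ↥(Algebra.adjoin ↥(mgcA A K₁)
        ({rtk6diT A K₁ L M H} : Set ↥(rtk6diF A K₁ L M H))) ↥(rtk6diF A K₁ L M H)) π ∣ c ^ 2) :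
    algebraMap ↥(mgcA A K₁)
      ↥(integralClosure ↥(Algebra.adjoin ↥(mgcA A K₁)
        ({rtk6diT A K₁ L M H} : Set ↥(rtk6diF A K₁ L M H))) ↥(rtk6diF A K₁ L M H)) π ∣ c :=
  rtk6hr_hred_of_ss1 (rtk6diT A K₁ L M H) V fam.hBV₁ fam.hπV ss1 c hc

/-- **(SS1) on the chart `t⁻¹`** from (SS1) on the chart `t`. -/
theorem rtk6hr_ss1_inv (hπ : Irreducible π) (hL : L ≠ 0) (hML : M ∣ L)
    (fam : Rtk6emFam A K₁ L M H π V) (ss1 : Rtk6emSS1 A K₁ L M H π V) :
    ∀ b : ↥(rtk6diF A K₁ L M H),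
      IsIntegral ↥(Algebra.adjoin ↥(mgcA A K₁) {(rtk6diT A K₁ L M H)⁻¹}) b →
      (∀ c, b ∈ (V c).nonunits) →
      ∃ b' : ↥(rtk6diF A K₁ L M H),
        IsIntegral ↥(Algebra.adjoin ↥(mgcA A K₁) {(rtk6diT A K₁ L M H)⁻¹}) b' ∧
        b = algebraMap ↥(mgcA A K₁) ↥(rtk6diF A K₁ L M H) π * b' := by
  haveI := rtk6di_finiteDimensional A K₁ L M H hL hML
  exact ats_SS1_inv (rtk6di_transcendental A K₁ L M H) hπ V fam.hBV₁ ss1

/-- **`hred` of D-BC**, chart `t⁻¹`. -/
theorem rtk6hr_hred_inv (hπ : Irreducible π) (hL : L ≠ 0) (hML : M ∣ L)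
    (fam : Rtk6emFam A K₁ L M H π V) (ss1 : Rtk6emSS1 A K₁ L M H π V)
    (c : ↥(integralClosure ↥(Algebra.adjoin ↥(mgcA A K₁)
      ({(rtk6diT A K₁ L M H)⁻¹} : Set ↥(rtk6diF A K₁ L M H))) ↥(rtk6diF A K₁ L M H)))
    (hc : algebraMap ↥(mgcA A K₁)
      ↥(integralClosure ↥(Algebra.adjoin ↥(mgcA A K₁)
        ({(rtk6diT A K₁ L M H)⁻¹} : Set ↥(rtk6diF A K₁ L M H))) ↥(rtk6diF A K₁ L M H)) π ∣
        c ^ 2) :
    algebraMap ↥(mgcA A K₁)
      ↥(integralClosure ↥(Algebra.adjoin ↥(mgcA A K₁)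
        ({(rtk6diT A K₁ L M H)⁻¹} : Set ↥(rtk6diF A K₁ L M H))) ↥(rtk6diF A K₁ L M H)) π ∣ c :=
  rtk6hr_hred_of_ss1 (rtk6diT A K₁ L M H)⁻¹ V fam.hBV₂ fam.hπV
    (rtk6hr_ss1_inv hπ hL hML fam ss1) c hc

end Concrete

end Fermat.Agent.RT.K6

end
end ZBRT_067_3
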