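/- GENERATED FILE (helper35, build-time optimisation, NOTES/ZB.md): verbatim concatenation of the modules
   Fermat.Agent.RT.K6.EBase
   Fermat.Agent.RT.K6.EBaseVarpi
   Fermat.Agent.RT.K6.DBCConc
   Fermat.Agent.RT.K6.DBCSS1
   Do not edit; do not import together with these modules. -/
import Fermat.Agent.ZB.RT_032
import Fermat.Agent.ZB.ES1_010
import Fermat.Agent.ZB.INJ_031
import Fermat.Agent.ZB.UNIP_032
import Fermat.Agent.ZB.ES1_009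
import Fermat.Agent.ZB.RT_067
import Fermat.Agent.ZB.RT_068

/-! ### bundled: `Fermat.Agent.RT.K6.EBase` -/
section ZBRT_069_0
/-
K-machine, piece K6, piece **E-BASE** (helper66): the BASE hypotheses of `rtk6ew_main_multi`
(`RT/K6/EWMulti.lean`) at the concrete objects of the instance phase (v6 of `NOTES/RT-K6-D.md`):

  `A₀ := A′ = mgcA A K₁`,  `E := E′ = mgcE A K₁`,  `F := F′ = rtk6diF A K₁ L M H`,
  `t := rtk6diT A K₁ L M H`,  `g := rtk6diGal L M H σ hσE`,  `Φ := SemilinearAut.ofAlgAut δ₀`.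

* `rtk6eb_noeth₁`, `rtk6eb_noeth₂` : the two charts `B′₁ = zchClosure {t}`, `B′₂ = zchClosure {t⁻¹}`
  are noetherian;
* `rtk6eb_finiteDimensional_inv`, `rtk6eb_transcendental_inv` : the chart `t⁻¹`;
* `rtk6eb_hpu`, `rtk6eb_hζ`, `rtk6eb_hunit` : `p ≠ r` is a unit of `A′`, `μ_p ⊆ A′`, the units of
  `A′` are `p`-th powers;
* `rtk6eb_exists_irreducible` : **hπ** — a uniformizer `π′` of `A′`;
* `rtk6eb_hgA`, `rtk6eb_hgA'` : **hgA**, **hgA′** for `σ` in the INERTIA group;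
  `rtk6eb_hgt` : **hgt**;
* `rtk6eb_hΦt`, `rtk6eb_hΦA`, `rtk6eb_hΦA'`, `rtk6eb_hΦ'` : **hΦt**, **hΦA**, **hΦA′**, **hΦ′**
  for `Φ = SemilinearAut.ofAlgAut δ₀`, `δ₀` a diamond (`IsDiamondC`) of `F′`;
* `rtk6eb_hq0`, `rtk6eb_hqπ` : **hq0**, **hqπ** for any `q : A′` of valuation `< 1`, `≠ 0`.
The element `ϖ₁` (`ϖ₁ ^ d = r`, uniformizer of `A₁ = mgcA A K₁′`) is in `RT/K6/EBaseVarpi.lean`.
-/

set_option autoImplicit false
set_option linter.style.haveILetI false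
set_option linter.unusedSectionVars false
set_option linter.unusedVariables false

noncomputable section

namespace Fermat.Agent.RT.K6

open ModularCurve AlgebraicCurve Fermat.Agent.ES Fermat.Agent.ES.G2 Fermat.Agent.INJ
open Fermat.Agent.UNIP Fermat.Agent.ES1 Fermat.Agent.ES1.G2 IntermediateField

section Charts

variable (A : ValuationSubring Qb) (K₁ : IntermediateField ℚ Qb)
  (L M : ℕ) (H : Subgroup (ZMod M)ˣ) [IsDiscreteValuationRing ↥(mgcA A K₁)]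

/-- the chart `t⁻¹`: `1 / j` is transcendental -/
theorem rtk6eb_transcendental_inv :
    Transcendental ↥(mgcE A K₁) (rtk6diT A K₁ L M H)⁻¹ :=
  zch_transcendental_inv (rtk6di_transcendental A K₁ L M H)

/-- the chart `t⁻¹`: `F′` is finite over `E′(1 / j)` -/
theorem rtk6eb_finiteDimensional_inv (hL : L ≠ 0) (hML : M ∣ L) :
    FiniteDimensional (↥(mgcE A K₁))⟮(rtk6diT A K₁ L M H)⁻¹⟯ ↥(rtk6diF A K₁ L M H) := by
  haveI := rtk6di_finiteDimensional A K₁ L M H hL hML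
  exact at_finiteDimensional_inv (rtk6diT A K₁ L M H)

/-- **The chart `B′₁ = zchClosure {t}` of `F′` is noetherian.** -/
theorem rtk6eb_noeth₁ (hL : L ≠ 0) (hML : M ∣ L) :
    IsNoetherianRing ↥(zchClosure (A₀ := ↥(mgcA A K₁))
      ({rtk6diT A K₁ L M H} : Set ↥(rtk6diF A K₁ L M H))) := by
  haveI := rtk6di_finiteDimensional A K₁ L M H hL hML
  exact chart_closure_isNoetherianRing (A₀ := ↥(mgcA A K₁)) (E := ↥(mgcE A K₁))
    (rtk6di_transcendental A K₁ L M H)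

/-- **The chart `B′₂ = zchClosure {t⁻¹}` of `F′` is noetherian.** -/
theorem rtk6eb_noeth₂ (hL : L ≠ 0) (hML : M ∣ L) :
    IsNoetherianRing ↥(zchClosure (A₀ := ↥(mgcA A K₁))
      ({(rtk6diT A K₁ L M H)⁻¹} : Set ↥(rtk6diF A K₁ L M H))) := by
  haveI := rtk6eb_finiteDimensional_inv A K₁ L M H hL hML
  exact chart_closure_isNoetherianRing (A₀ := ↥(mgcA A K₁)) (E := ↥(mgcE A K₁))
    (rtk6eb_transcendental_inv A K₁ L M H)

end Charts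

section Base

variable {A : ValuationSubring Qb} (K₁ : IntermediateField ℚ Qb) {r : ℕ}

/-- a prime `p ≠ r` is not in the maximal ideal of `A` -/
theorem rtk6eb_not_mem_nonunits (hr : r.Prime) (hA : A.LiesOverPrime r) {p : ℕ} (hp : p.Prime)
    (hpr : p ≠ r) : ((p : ℕ) : Qb) ∉ A.nonunits := by
  have := Fermat.Agent.S31.natCast_pow_not_mem_nonunits A hp hr (Ne.symm hpr) hA 1
  rwa [pow_one] at this

/-- **hpu**: a prime `p ≠ r` is a unit of `A′`. -/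
theorem rtk6eb_hpu (hr : r.Prime) (hA : A.LiesOverPrime r) {p : ℕ} (hp : p.Prime)
    (hpr : p ≠ r) : IsUnit ((p : ℕ) : ↥(mgcA A K₁)) :=
  beta0Ring_hpu (rtk6eb_not_mem_nonunits hr hA hp hpr)

/-- **hζ**: `A′` contains a primitive `p`-th root of unity, `p ≠ r`. -/
theorem rtk6eb_hζ (hr : r.Prime) (hA : A.LiesOverPrime r) {p : ℕ} (hp : p.Prime)
    (hpr : p ≠ r) : ∃ ζ : ↥(mgcA A K₁), IsPrimitiveRoot ζ p :=
  beta0Ring_exists_primitiveRoot (A := A) (K₀ := mgcE A K₁) le_sup_left hp.ne_zero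
    (rtk6eb_not_mem_nonunits hr hA hp hpr)

/-- **hunit**: the units of `A′` are `p`-th powers, `p ≠ r`. -/
theorem rtk6eb_hunit (hr : r.Prime) (hA : A.LiesOverPrime r) {p : ℕ} (hp : p.Prime)
    (hpr : p ≠ r) : ∀ a : ↥(mgcA A K₁), IsUnit a → ∃ d : ↥(mgcA A K₁), d ^ p = a :=
  beta0Ring_hunit (A := A) (K₀ := mgcE A K₁) hr hA le_sup_left hp.ne_zero
    (rtk6eb_not_mem_nonunits hr hA hp hpr)

/-- roots of unity of any order `n` prime to `r` in `A′` -/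
theorem rtk6eb_exists_primitiveRoot (hr : r.Prime) (hA : A.LiesOverPrime r) {n : ℕ}
    (hn0 : n ≠ 0) (hn : ((n : ℕ) : Qb) ∉ A.nonunits) :
    ∃ ζ : ↥(mgcA A K₁), IsPrimitiveRoot ζ n :=
  beta0Ring_exists_primitiveRoot (A := A) (K₀ := mgcE A K₁) le_sup_left hn0 hn

/-- **hπ**: `A′` has a uniformizer. -/
theorem rtk6eb_exists_irreducible [IsDiscreteValuationRing ↥(mgcA A K₁)] :
    ∃ π : ↥(mgcA A K₁), Irreducible π :=
  IsDiscreteValuationRing.exists_irreducible ↥(mgcA A K₁)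

/-- **hqπ**: a uniformizer of `A′` divides every element of `A′` of valuation `< 1`. -/
theorem rtk6eb_hqπ [IsDiscreteValuationRing ↥(mgcA A K₁)] {π : ↥(mgcA A K₁)}
    (hπ : Irreducible π) (q : ↥(mgcA A K₁))
    (hq : (((q : ↥(mgcA A K₁)) : ↥(mgcE A K₁)) : Qb) ∈ A.nonunits) : π ∣ q := by
  have hqn : ¬ IsUnit q := by
    intro hu
    rw [beta0Ring_isUnit_iff, beta0_valuation_eq_one_iff] at hu
    exact hu.2 hq
  have hmem : q ∈ IsLocalRing.maximalIdeal ↥(mgcA A K₁) :=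
    (IsLocalRing.mem_maximalIdeal q).mpr hqn
  rw [(IsDiscreteValuationRing.irreducible_iff_uniformizer π).mp hπ] at hmem
  exact Ideal.mem_span_singleton.mp hmem

end Base

section Gal

variable {A : ValuationSubring Qb} {K₁ : IntermediateField ℚ Qb}
  (L M : ℕ) (H : Subgroup (ZMod M)ˣ)

/-- **hgt** for `g = rtk6diGal σ` -/
theorem rtk6eb_hgt (σ : Qb ≃ₐ[ℚ] Qb) (hσE : ∀ x ∈ mgcE A K₁, σ x ∈ mgcE A K₁) :
    rtk6diGal L M H σ hσE • rtk6diT A K₁ L M H = rtk6diT A K₁ L M H :=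
  rtk6di_smul_T L M H σ hσE

/-- **hgA** for `g = rtk6diGal σ`, `σ` in the inertia group -/
theorem rtk6eb_hgA {σ : Qb ≃ₐ[ℚ] Qb} (hσ : σ ∈ A.inertiaSubgroupIn ℚ)
    (hσE : ∀ x ∈ mgcE A K₁, σ x ∈ mgcE A K₁) :
    ∀ α : ↥(mgcA A K₁), ∃ α' : ↥(mgcA A K₁),
      rtk6diGal L M H σ hσE • algebraMap ↥(mgcA A K₁) ↥(rtk6diF A K₁ L M H) α =
        algebraMap ↥(mgcA A K₁) ↥(rtk6diF A K₁ L M H) α' :=
  rtk6dv_hgA L M H (kron_mem_decomposition_of_mem_inertia hσ) hσE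

/-- **hgA′** for `g = rtk6diGal σ`, `σ` in the inertia group -/
theorem rtk6eb_hgA' {σ : Qb ≃ₐ[ℚ] Qb} (hσ : σ ∈ A.inertiaSubgroupIn ℚ)
    (hσE : ∀ x ∈ mgcE A K₁, σ x ∈ mgcE A K₁) :
    ∀ α : ↥(mgcA A K₁), ∃ α' : ↥(mgcA A K₁),
      (rtk6diGal L M H σ hσE)⁻¹ • algebraMap ↥(mgcA A K₁) ↥(rtk6diF A K₁ L M H) α =
        algebraMap ↥(mgcA A K₁) ↥(rtk6diF A K₁ L M H) α' :=
  rtk6dv_hgA_inv L M H (kron_mem_decomposition_of_mem_inertia hσ) hσE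

/-- `σ E′ ⊆ E′` for `σ` in the inertia group -/
theorem rtk6eb_stable {σ : Qb ≃ₐ[ℚ] Qb} (hσ : σ ∈ A.inertiaSubgroupIn ℚ)
    (K₁ : IntermediateField ℚ Qb) [Normal ℚ K₁] : ∀ x ∈ mgcE A K₁, σ x ∈ mgcE A K₁ :=
  mga_stable_beta0_sup hσ K₁

end Gal

section Diamond

variable {A : ValuationSubring Qb} {K₁ : IntermediateField ℚ Qb}
  {L M : ℕ} {H : Subgroup (ZMod M)ˣ}

/-- **hΦ′**: the ring homomorphism underlying `Φ = SemilinearAut.ofAlgAut δ₀` -/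
theorem rtk6eb_hΦ' (δ₀ : ↥(rtk6diF A K₁ L M H) ≃ₐ[↥(mgcE A K₁)] ↥(rtk6diF A K₁ L M H))
    (x : ↥(rtk6diF A K₁ L M H)) :
    (δ₀ : ↥(rtk6diF A K₁ L M H) →+* ↥(rtk6diF A K₁ L M H)) x =
      SemilinearAut.ofAlgAut δ₀ • x := rfl

/-- **hΦt**: a diamond fixes `j` -/
theorem rtk6eb_hΦt {c : (ZMod M)ˣ}
    {δ₀ : ↥(rtk6diF A K₁ L M H) ≃ₐ[↥(mgcE A K₁)] ↥(rtk6diF A K₁ L M H)}
    (hδ₀ : IsDiamondC ↥(mgcE A K₁) L M H c δ₀) :
    SemilinearAut.ofAlgAut δ₀ • rtk6diT A K₁ L M H = rtk6diT A K₁ L M H := by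
  rw [SemilinearAut.ofAlgAut_smul]
  exact hδ₀.fix _ (bgJ ↥(mgcE A K₁) L).2

/-- **hΦA**: a diamond is `E′`-linear -/
theorem rtk6eb_hΦA (δ₀ : ↥(rtk6diF A K₁ L M H) ≃ₐ[↥(mgcE A K₁)] ↥(rtk6diF A K₁ L M H)) :
    ∀ α : ↥(mgcA A K₁), ∃ α' : ↥(mgcA A K₁),
      SemilinearAut.ofAlgAut δ₀ • algebraMap ↥(mgcA A K₁) ↥(rtk6diF A K₁ L M H) α =
        algebraMap ↥(mgcA A K₁) ↥(rtk6diF A K₁ L M H) α' := by
  intro α
  refine ⟨α, ?_⟩
  rw [SemilinearAut.ofAlgAut_smul,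
    IsScalarTower.algebraMap_apply ↥(mgcA A K₁) ↥(mgcE A K₁) ↥(rtk6diF A K₁ L M H)]
  exact δ₀.commutes _

/-- **hΦA′** -/
theorem rtk6eb_hΦA' (δ₀ : ↥(rtk6diF A K₁ L M H) ≃ₐ[↥(mgcE A K₁)] ↥(rtk6diF A K₁ L M H)) :
    ∀ α : ↥(mgcA A K₁), ∃ α' : ↥(mgcA A K₁),
      (SemilinearAut.ofAlgAut δ₀)⁻¹ • algebraMap ↥(mgcA A K₁) ↥(rtk6diF A K₁ L M H) α =
        algebraMap ↥(mgcA A K₁) ↥(rtk6diF A K₁ L M H) α' := by
  intro α
  refine ⟨α, ?_⟩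
  rw [inv_smul_eq_iff]
  obtain ⟨α', hα'⟩ := rtk6eb_hΦA δ₀ α
  rw [SemilinearAut.ofAlgAut_smul,
    IsScalarTower.algebraMap_apply ↥(mgcA A K₁) ↥(mgcE A K₁) ↥(rtk6diF A K₁ L M H)]
  exact (δ₀.commutes _).symm

end Diamond

end Fermat.Agent.RT.K6

end
end ZBRT_069_0

/-! ### bundled: `Fermat.Agent.RT.K6.EBaseVarpi` -/
section ZBRT_069_1
/-
K-machine, piece K6, piece **E-BASE** (helper66), part 2: **the element `ϖ₁`**.

`r` prime, `A ⊂ ℚ̄` a valuation ring over `r`, `d ≠ 0` prime to `r`.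
`K₁′ = rtk6ebK r d` := the splitting field of `X ^ d − r` (a Galois number field),
`E₁ = mgcE A K₁′ = ℚ̄^I · K₁′ = ℚ̄^I(ϖ)`, `A₁ = mgcA A K₁′`, `ϖ ^ d = r`.

* `rtk6eb_val_zpow`  : the value group of `E₁` is generated by `v(ϖ)`  (dominant term);
* `rtk6eb_isDVR`     : `A₁` is a discrete valuation ring;
* `rtk6ebVarpi`      : `ϖ₁ : A₁`;  `rtk6ebVarpi_pow : ϖ₁ ^ d = r`,
  `rtk6ebVarpi_irreducible : Irreducible ϖ₁`  (**`ϖ₁` is a uniformizer of `A₁`**);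
* `rtk6eb_exists_varpi` : existence form;
* `rtk6ebQ h ϖ₁` : the image `q` of `ϖ₁` in `A′ = mgcA A K₁`, `K₁′ ≤ K₁`;
  `rtk6ebQ_ne_zero` (**hq0**), `rtk6ebQ_dvd` (**hqπ** : `π′ ∣ q`), `rtk6ebQ_pow : q ^ d = r`.
-/

set_option autoImplicit false
set_option linter.style.haveILetI false
set_option linter.unusedSectionVars false
set_option linter.unusedVariables false

noncomputable section

namespace Fermat.Agent.RT.K6

open ModularCurve AlgebraicCurve Fermat.Agent.ES Fermat.Agent.ES.G2 Fermat.Agent.INJ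
open Fermat.Agent.UNIP Fermat.Agent.ES1 Fermat.Agent.ES1.G2 IntermediateField Polynomial

section Field

variable (r d : ℕ)

/-- the polynomial `X ^ d − r` over `ℚ` -/
def rtk6ebPoly : ℚ[X] := X ^ d - C (r : ℚ)

theorem rtk6ebPoly_ne_zero (hd0 : d ≠ 0) : rtk6ebPoly r d ≠ 0 :=
  (monic_X_pow_sub_C (r : ℚ) hd0).ne_zero

theorem rtk6eb_mem_rootSet (hd0 : d ≠ 0) {x : Qb} :
    x ∈ (rtk6ebPoly r d).rootSet Qb ↔ x ^ d = (r : Qb) := by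
  rw [mem_rootSet]
  constructor
  · rintro ⟨-, h⟩
    have h' : x ^ d - (r : Qb) = 0 := by
      simpa [rtk6ebPoly] using h
    exact sub_eq_zero.mp h'
  · intro h
    refine ⟨rtk6ebPoly_ne_zero r d hd0, ?_⟩
    simp [rtk6ebPoly, h]

/-- `K₁′` := the splitting field of `X ^ d − r` in `ℚ̄` -/
def rtk6ebK : IntermediateField ℚ Qb :=
  IntermediateField.adjoin ℚ ((rtk6ebPoly r d).rootSet Qb)

theorem rtk6eb_mem_K (hd0 : d ≠ 0) {x : Qb} (hx : x ^ d = (r : Qb)) : x ∈ rtk6ebK r d :=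
  IntermediateField.subset_adjoin ℚ _ ((rtk6eb_mem_rootSet r d hd0).mpr hx)

instance rtk6ebK_isSplittingField :
    IsSplittingField ℚ ↥(rtk6ebK r d) (rtk6ebPoly r d) :=
  IntermediateField.adjoin_rootSet_isSplittingField (IsAlgClosed.splits _)

instance rtk6ebK_finiteDimensional : FiniteDimensional ℚ ↥(rtk6ebK r d) :=
  IsSplittingField.finiteDimensional ↥(rtk6ebK r d) (rtk6ebPoly r d)

instance rtk6ebK_numberField : NumberField ↥(rtk6ebK r d) :=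
  { to_charZero := inferInstance, to_finiteDimensional := inferInstance }

instance rtk6ebK_normal : Normal ℚ ↥(rtk6ebK r d) :=
  Normal.of_isSplittingField (rtk6ebPoly r d)

instance rtk6ebK_isGalois : IsGalois ℚ ↥(rtk6ebK r d) := IsGalois.mk

end Field

section Val

variable {A : ValuationSubring Qb} {r d : ℕ}

/-- `v(r) < 1` -/
theorem rtk6eb_val_r_lt (hA : A.LiesOverPrime r) : A.valuation ((r : ℕ) : Qb) < 1 :=
  (ValuationSubring.mem_nonunits_iff A).mp hA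

/-- `v(ϖ) < 1` -/
theorem rtk6eb_val_varpi_lt (hA : A.LiesOverPrime r) (hd0 : d ≠ 0) {ϖ : Qb}
    (hϖ : ϖ ^ d = (r : Qb)) : A.valuation ϖ < 1 := by
  by_contra hcon
  rw [not_lt] at hcon
  have h1 : (1 : _) ≤ A.valuation ϖ ^ d := one_le_pow₀ hcon
  rw [← map_pow, hϖ] at h1
  exact absurd (rtk6eb_val_r_lt hA) (not_lt.mpr h1)

theorem rtk6eb_varpi_ne_zero (hr : r.Prime) (hd0 : d ≠ 0) {ϖ : Qb} (hϖ : ϖ ^ d = (r : Qb)) :
    ϖ ≠ 0 := by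
  rintro rfl
  rw [zero_pow hd0] at hϖ
  exact (Nat.cast_ne_zero.mpr hr.ne_zero) hϖ.symm

/-- the `d`-th roots of unity lie in `ℚ̄^I` -/
theorem rtk6eb_root_mem_beta0 (hr : r.Prime) (hA : A.LiesOverPrime r) (hdr : ¬ r ∣ d)
    {ζ : Qb} (hζ : ζ ^ d = 1) : ζ ∈ beta0Field A := by
  haveI : Algebra.IsAlgebraic ℚ Qb := AlgebraicClosure.isAlgebraic ℚ
  exact mem_beta0Field.mpr fun σ hσ => rtk6de_inertia_fix_root A hr hA hdr hσ hζ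

/-- every element of `E₁ = ℚ̄^I · K₁′` is a polynomial of degree `< d` in `ϖ` over `ℚ̄^I` -/
theorem rtk6eb_exists_coeff (hr : r.Prime) (hA : A.LiesOverPrime r) (hd0 : d ≠ 0)
    (hdr : ¬ r ∣ d) {ϖ : Qb} (hϖ : ϖ ^ d = (r : Qb)) {x : Qb}
    (hx : x ∈ mgcE A (rtk6ebK r d)) :
    ∃ c : Fin d → Qb, (∀ i, c i ∈ beta0Field A) ∧ x = ∑ i, c i * ϖ ^ (i : ℕ) := by
  have hϖ0 := rtk6eb_varpi_ne_zero hr hd0 hϖ
  have hr0 : ((r : ℕ) : Qb) ≠ 0 := Nat.cast_ne_zero.mpr hr.ne_zero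
  have hle : mgcE A (rtk6ebK r d) ≤
      (IntermediateField.adjoin (↥(beta0Field A)) ({ϖ} : Set Qb)).restrictScalars ℚ := by
    refine sup_le ?_ ?_
    · intro a ha
      exact IntermediateField.algebraMap_mem
        (IntermediateField.adjoin (↥(beta0Field A)) ({ϖ} : Set Qb)) (⟨a, ha⟩ : ↥(beta0Field A))
    · refine IntermediateField.adjoin_le_iff.mpr ?_
      intro y hy
      have hy' := (rtk6eb_mem_rootSet r d hd0).mp hy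
      have hζ : (y / ϖ) ^ d = 1 := by
        rw [div_pow, hy', hϖ, div_self hr0]
      have hζE := rtk6eb_root_mem_beta0 hr hA hdr hζ
      have e : y = (y / ϖ) * ϖ := by field_simp
      have h1 : (y / ϖ) * ϖ ∈ IntermediateField.adjoin (↥(beta0Field A)) ({ϖ} : Set Qb) :=
        mul_mem (IntermediateField.algebraMap_mem _ (⟨y / ϖ, hζE⟩ : ↥(beta0Field A)))
          (IntermediateField.mem_adjoin_simple_self _ ϖ)
      rw [← e] at h1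
      exact h1
  have hxT : x ∈ IntermediateField.adjoin (↥(beta0Field A)) ({ϖ} : Set Qb) := hle hx
  have hqm : (X ^ d - C ((r : ℕ) : ↥(beta0Field A)) : (↥(beta0Field A))[X]).Monic :=
    monic_X_pow_sub_C _ hd0
  have hqϖ : aeval ϖ (X ^ d - C ((r : ℕ) : ↥(beta0Field A)) : (↥(beta0Field A))[X]) = 0 := by
    rw [map_sub, map_pow, aeval_X, aeval_C, hϖ, map_natCast, sub_self]
  have halg : IsAlgebraic (↥(beta0Field A)) ϖ := ⟨_, hqm.ne_zero, hqϖ⟩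
  have hxA : x ∈ (IntermediateField.adjoin (↥(beta0Field A)) ({ϖ} : Set Qb)).toSubalgebra := hxT
  rw [IntermediateField.adjoin_simple_toSubalgebra_of_isAlgebraic halg,
    Algebra.adjoin_singleton_eq_range_aeval] at hxA
  obtain ⟨P, rfl⟩ := hxA
  have hq1 : (X ^ d - C ((r : ℕ) : ↥(beta0Field A)) : (↥(beta0Field A))[X]) ≠ 1 := by
    intro h
    have := congrArg Polynomial.natDegree h
    rw [natDegree_X_pow_sub_C, natDegree_one] at this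
    exact hd0 this
  have hdeg : (P %ₘ (X ^ d - C ((r : ℕ) : ↥(beta0Field A)))).natDegree < d := by
    have := natDegree_modByMonic_lt P hqm hq1
    rwa [natDegree_X_pow_sub_C] at this
  have hPR : aeval ϖ P = aeval ϖ (P %ₘ (X ^ d - C ((r : ℕ) : ↥(beta0Field A)))) := by
    conv_lhs => rw [← modByMonic_add_div P (X ^ d - C ((r : ℕ) : ↥(beta0Field A)))]
    rw [map_add, map_mul, hqϖ, zero_mul, add_zero]
  refine ⟨fun i => algebraMap (↥(beta0Field A)) Qb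
    ((P %ₘ (X ^ d - C ((r : ℕ) : ↥(beta0Field A)))).coeff i),
    fun i => ((P %ₘ (X ^ d - C ((r : ℕ) : ↥(beta0Field A)))).coeff i).2, ?_⟩
  show aeval ϖ P = _
  rw [hPR, aeval_eq_sum_range' hdeg,
    ← Fin.sum_univ_eq_sum_range
      (fun i => (P %ₘ (X ^ d - C ((r : ℕ) : ↥(beta0Field A)))).coeff i • ϖ ^ i) d]
  refine Finset.sum_congr rfl fun i _ => ?_
  rw [Algebra.smul_def]

/-- **The value group of `E₁ = ℚ̄^I · K₁′` is generated by `v(ϖ)`.** -/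
theorem rtk6eb_val_zpow (hr : r.Prime) (hA : A.LiesOverPrime r) (hd0 : d ≠ 0)
    (hdr : ¬ r ∣ d) {ϖ : Qb} (hϖ : ϖ ^ d = (r : Qb)) {x : Qb}
    (hx : x ∈ mgcE A (rtk6ebK r d)) (hx0 : x ≠ 0) :
    ∃ k : ℤ, A.valuation x = A.valuation ϖ ^ k := by
  obtain ⟨c, hc, rfl⟩ := rtk6eb_exists_coeff hr hA hd0 hdr hϖ hx
  have hγ1 := rtk6eb_val_varpi_lt hA hd0 hϖ
  have hϖ0 := rtk6eb_varpi_ne_zero hr hd0 hϖ
  have hγ0 : 0 < A.valuation ϖ := zero_lt_iff.mpr ((Valuation.ne_zero_iff _).mpr hϖ0)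
  have hcv : ∀ i, c i ≠ 0 → ∃ k : ℤ, A.valuation (c i) = A.valuation ϖ ^ ((d : ℤ) * k) := by
    intro i hi
    obtain ⟨k, hk⟩ := beta0_valuation_eq_zpow hr hA (hc i) hi
    refine ⟨k, ?_⟩
    rw [hk, ← hϖ, map_pow, zpow_mul, zpow_natCast]
  rcases beta0_sum_dominant A.valuation hγ0 hγ1 rfl c hcv with hall | ⟨j, hj, hval, -⟩
  · exfalso
    apply hx0
    exact Finset.sum_eq_zero (fun i _ => by rw [hall i, zero_mul])
  · obtain ⟨k, hk⟩ := hcv j hj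
    refine ⟨(d : ℤ) * k + (j : ℕ), ?_⟩
    rw [hval, map_mul, map_pow, hk, zpow_add₀ hγ0.ne', zpow_natCast]

/-- **`A₁ = mgcA A K₁′` is a discrete valuation ring.** -/
theorem rtk6eb_isDVR (hr : r.Prime) (hA : A.LiesOverPrime r) :
    IsDiscreteValuationRing ↥(mgcA A (rtk6ebK r d)) :=
  beta0Ring_isDVR_sup (rtk6ebK r d) hr hA

theorem rtk6eb_varpi_mem_E (hd0 : d ≠ 0) {ϖ : Qb} (hϖ : ϖ ^ d = (r : Qb)) :
    ϖ ∈ mgcE A (rtk6ebK r d) :=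
  (le_sup_right : rtk6ebK r d ≤ mgcE A (rtk6ebK r d)) (rtk6eb_mem_K r d hd0 hϖ)

theorem rtk6eb_varpi_mem_A (hA : A.LiesOverPrime r) (hd0 : d ≠ 0) {ϖ : Qb}
    (hϖ : ϖ ^ d = (r : Qb)) : ϖ ∈ A :=
  (A.valuation_le_one_iff _).mp (rtk6eb_val_varpi_lt hA hd0 hϖ).le

/-- **`ϖ₁ : A₁`**, the element `ϖ` (`ϖ ^ d = r`) viewed in `A₁ = mgcA A K₁′` -/
def rtk6ebVarpi (hA : A.LiesOverPrime r) (hd0 : d ≠ 0) {ϖ : Qb} (hϖ : ϖ ^ d = (r : Qb)) :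
    ↥(mgcA A (rtk6ebK r d)) :=
  ⟨⟨ϖ, rtk6eb_varpi_mem_E hd0 hϖ⟩, rtk6eb_varpi_mem_A hA hd0 hϖ⟩

@[simp] theorem rtk6ebVarpi_coe (hA : A.LiesOverPrime r) (hd0 : d ≠ 0) {ϖ : Qb}
    (hϖ : ϖ ^ d = (r : Qb)) :
    (((rtk6ebVarpi hA hd0 hϖ : ↥(mgcA A (rtk6ebK r d))) : ↥(mgcE A (rtk6ebK r d))) : Qb) = ϖ :=
  rfl

/-- **`ϖ₁ ^ d = r`** in `A₁` -/
theorem rtk6ebVarpi_pow (hA : A.LiesOverPrime r) (hd0 : d ≠ 0) {ϖ : Qb}
    (hϖ : ϖ ^ d = (r : Qb)) :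
    rtk6ebVarpi hA hd0 hϖ ^ d = ((r : ℕ) : ↥(mgcA A (rtk6ebK r d))) := by
  apply Subtype.ext
  apply Subtype.ext
  simp only [SubmonoidClass.coe_pow, SubringClass.coe_natCast, rtk6ebVarpi_coe]
  exact hϖ

theorem rtk6ebVarpi_ne_zero (hr : r.Prime) (hA : A.LiesOverPrime r) (hd0 : d ≠ 0) {ϖ : Qb}
    (hϖ : ϖ ^ d = (r : Qb)) : rtk6ebVarpi hA hd0 hϖ ≠ 0 := by
  intro h
  have h' := congrArg
    (fun z : ↥(mgcA A (rtk6ebK r d)) => ((z : ↥(mgcE A (rtk6ebK r d))) : Qb)) h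
  exact rtk6eb_varpi_ne_zero hr hd0 hϖ h'

/-- **`ϖ₁` is a uniformizer of `A₁`.** -/
theorem rtk6ebVarpi_irreducible (hr : r.Prime) (hA : A.LiesOverPrime r) (hd0 : d ≠ 0)
    (hdr : ¬ r ∣ d) {ϖ : Qb} (hϖ : ϖ ^ d = (r : Qb)) :
    Irreducible (rtk6ebVarpi hA hd0 hϖ) := by
  have hγ1 := rtk6eb_val_varpi_lt hA hd0 hϖ
  have hϖ0 := rtk6eb_varpi_ne_zero hr hd0 hϖ
  have hγ0 : 0 < A.valuation ϖ := zero_lt_iff.mpr ((Valuation.ne_zero_iff _).mpr hϖ0)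
  refine beta0_comap_irreducible A (algebraMap ↥(mgcE A (rtk6ebK r d)) Qb)
    (rtk6ebVarpi hA hd0 hϖ) ?_ hγ1 ?_
  · intro h
    exact hϖ0 (congrArg (fun z : ↥(mgcE A (rtk6ebK r d)) => (z : Qb)) h)
  · intro x hx
    show (x : Qb) / ϖ ∈ A
    by_cases hx0 : (x : Qb) = 0
    · rw [hx0, zero_div]
      exact A.zero_mem
    obtain ⟨k, hk⟩ := rtk6eb_val_zpow hr hA hd0 hdr hϖ x.2 hx0
    have hxlt : A.valuation (x : Qb) < 1 := (ValuationSubring.mem_nonunits_iff A).mp hx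
    rw [hk] at hxlt
    have hk1 : 1 ≤ k := by
      by_contra hcon
      rw [not_le] at hcon
      have hk0 : k ≤ 0 := by omega
      have : (1 : _) ≤ A.valuation ϖ ^ k :=
        (one_le_zpow_iff_right_of_lt_one₀ hγ0 hγ1).mpr hk0
      exact absurd hxlt (not_lt.mpr this)
    rw [← A.valuation_le_one_iff, map_div₀, hk]
    have e : A.valuation ϖ ^ k / A.valuation ϖ = A.valuation ϖ ^ (k - 1) := by
      rw [zpow_sub₀ hγ0.ne', zpow_one]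
    rw [e]
    exact (zpow_le_one_iff_right_of_lt_one₀ hγ0 hγ1).mpr (by omega)

/-- **E-BASE, existence form**: a Galois number field `K₁′` such that `A₁ = mgcA A K₁′` is a
discrete valuation ring with a uniformizer `ϖ₁`, `ϖ₁ ^ d = r`. -/
theorem rtk6eb_exists_varpi (hr : r.Prime) (hA : A.LiesOverPrime r) (hd0 : d ≠ 0)
    (hdr : ¬ r ∣ d) :
    ∃ (K₁' : IntermediateField ℚ Qb) (_ : NumberField ↥K₁') (_ : IsGalois ℚ ↥K₁')
      (_ : IsDiscreteValuationRing ↥(mgcA A K₁')) (ϖ₁ : ↥(mgcA A K₁')),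
      Irreducible ϖ₁ ∧ ϖ₁ ^ d = ((r : ℕ) : ↥(mgcA A K₁')) := by
  obtain ⟨ϖ, hϖ⟩ := IsAlgClosed.exists_pow_nat_eq ((r : ℕ) : Qb) (Nat.pos_of_ne_zero hd0)
  exact ⟨rtk6ebK r d, inferInstance, inferInstance, rtk6eb_isDVR hr hA,
    rtk6ebVarpi hA hd0 hϖ, rtk6ebVarpi_irreducible hr hA hd0 hdr hϖ,
    rtk6ebVarpi_pow hA hd0 hϖ⟩

end Val

section Q

variable {A : ValuationSubring Qb} {r d : ℕ} {K₁' K₁ : IntermediateField ℚ Qb}

/-- `mgcE A K₁′ ≤ mgcE A K₁` for `K₁′ ≤ K₁` -/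
theorem rtk6eb_mgcE_mono (h : K₁' ≤ K₁) : mgcE A K₁' ≤ mgcE A K₁ :=
  sup_le_sup_left h _

/-- **`q`** := the image of `ϖ₁ : A₁ = mgcA A K₁′` in `A′ = mgcA A K₁` (`K₁′ ≤ K₁`) -/
def rtk6ebQ (h : K₁' ≤ K₁) : ↥(mgcA A K₁') →+* ↥(mgcA A K₁) :=
  beta0RingIncl (A := A) (rtk6eb_mgcE_mono h)

@[simp] theorem rtk6ebQ_coe (h : K₁' ≤ K₁) (x : ↥(mgcA A K₁')) :
    (((rtk6ebQ h x : ↥(mgcA A K₁)) : ↥(mgcE A K₁)) : Qb) =
      ((x : ↥(mgcE A K₁')) : Qb) :=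
  beta0RingIncl_coe (A := A) (rtk6eb_mgcE_mono h) x

theorem rtk6ebQ_injective (h : K₁' ≤ K₁) :
    Function.Injective (rtk6ebQ (A := A) h) :=
  beta0RingIncl_injective (A := A) (rtk6eb_mgcE_mono h)

/-- **hq0**: `q ≠ 0` -/
theorem rtk6ebQ_ne_zero (h : K₁' ≤ K₁) {ϖ₁ : ↥(mgcA A K₁')} (hϖ₁ : ϖ₁ ≠ 0) :
    rtk6ebQ h ϖ₁ ≠ 0 :=
  fun h0 => hϖ₁ (rtk6ebQ_injective h (by rw [h0, map_zero]))

/-- `q ^ d = r` -/
theorem rtk6ebQ_pow (h : K₁' ≤ K₁) {ϖ₁ : ↥(mgcA A K₁')}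
    (hpow : ϖ₁ ^ d = ((r : ℕ) : ↥(mgcA A K₁'))) :
    rtk6ebQ h ϖ₁ ^ d = ((r : ℕ) : ↥(mgcA A K₁)) := by
  rw [← map_pow, hpow, map_natCast]

/-- a non-unit of `A₁` has value `< 1` -/
theorem rtk6eb_val_lt_of_not_isUnit {x : ↥(mgcA A K₁')} (hx : ¬ IsUnit x) :
    ((x : ↥(mgcE A K₁')) : Qb) ∈ A.nonunits := by
  have hmem : x ∈ IsLocalRing.maximalIdeal ↥(mgcA A K₁') :=
    (IsLocalRing.mem_maximalIdeal x).mpr hx
  exact (beta0Ring_mem_maximalIdeal_iff x).mp hmem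

/-- **hqπ**: `π′ ∣ q` for every uniformizer `π′` of `A′` -/
theorem rtk6ebQ_dvd [IsDiscreteValuationRing ↥(mgcA A K₁)] (h : K₁' ≤ K₁)
    {π : ↥(mgcA A K₁)} (hπ : Irreducible π) {ϖ₁ : ↥(mgcA A K₁')} (hϖ₁ : ¬ IsUnit ϖ₁) :
    π ∣ rtk6ebQ h ϖ₁ := by
  have h1 : ((ϖ₁ : ↥(mgcE A K₁')) : Qb) ∈ A.nonunits := rtk6eb_val_lt_of_not_isUnit hϖ₁
  refine rtk6eb_hqπ K₁ hπ (rtk6ebQ h ϖ₁) ?_
  rw [rtk6ebQ_coe]
  exact h1

/-- **hqπ**, irreducible form -/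
theorem rtk6ebQ_dvd_of_irreducible [IsDiscreteValuationRing ↥(mgcA A K₁)] (h : K₁' ≤ K₁)
    {π : ↥(mgcA A K₁)} (hπ : Irreducible π) {ϖ₁ : ↥(mgcA A K₁')} (hϖ₁ : Irreducible ϖ₁) :
    π ∣ rtk6ebQ h ϖ₁ :=
  rtk6ebQ_dvd h hπ hϖ₁.not_isUnit

/-- **E-BASE, packaged**: for every `K₁ ⊇ K₁′ = rtk6ebK r d` (Galois number field) the ring
`A′ = mgcA A K₁` is a DVR, and there are a uniformizer `ϖ₁` of `A₁ = mgcA A K₁′` with
`ϖ₁ ^ d = r` whose image `q ∈ A′` is `≠ 0`, satisfies `q ^ d = r`, and is divisible by every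
uniformizer `π′` of `A′`. -/
theorem rtk6eb_base (hr : r.Prime) (hA : A.LiesOverPrime r) (hd0 : d ≠ 0) (hdr : ¬ r ∣ d)
    (K₁ : IntermediateField ℚ Qb) [NumberField ↥K₁] [IsGalois ℚ ↥K₁]
    (h : rtk6ebK r d ≤ K₁) :
    IsDiscreteValuationRing ↥(mgcA A (rtk6ebK r d)) ∧
    IsDiscreteValuationRing ↥(mgcA A K₁) ∧
    ∃ ϖ₁ : ↥(mgcA A (rtk6ebK r d)), Irreducible ϖ₁ ∧
      ϖ₁ ^ d = ((r : ℕ) : ↥(mgcA A (rtk6ebK r d))) ∧
      rtk6ebQ h ϖ₁ ≠ 0 ∧ rtk6ebQ h ϖ₁ ^ d = ((r : ℕ) : ↥(mgcA A K₁)) ∧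
      ∀ π : ↥(mgcA A K₁), Irreducible π → π ∣ rtk6ebQ h ϖ₁ := by
  obtain ⟨ϖ, hϖ⟩ := IsAlgClosed.exists_pow_nat_eq ((r : ℕ) : Qb) (Nat.pos_of_ne_zero hd0)
  have hirr := rtk6ebVarpi_irreducible hr hA hd0 hdr hϖ
  haveI hD : IsDiscreteValuationRing ↥(mgcA A K₁) := beta0Ring_isDVR_sup K₁ hr hA
  refine ⟨rtk6eb_isDVR hr hA, hD, rtk6ebVarpi hA hd0 hϖ, hirr, rtk6ebVarpi_pow hA hd0 hϖ,
    rtk6ebQ_ne_zero h hirr.ne_zero, rtk6ebQ_pow h (rtk6ebVarpi_pow hA hd0 hϖ),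
    fun π hπ => rtk6ebQ_dvd_of_irreducible h hπ hirr⟩

end Q

end Fermat.Agent.RT.K6

end
end ZBRT_069_1

/-! ### bundled: `Fermat.Agent.RT.K6.DBCConc` -/
section ZBRT_069_2
/-
K-machine, piece K6, piece **D-BC** (helper56), concrete stage.

`K₁′ ≤ K₁` Galois number fields, `A` over `r`; `A₁ = mgcA A K₁′`, `E₁ = mgcE A K₁′`,
`F₁ = rtk6diF A K₁′ L M H`, `A′ = mgcA A K₁`, `E′ = mgcE A K₁`, `F′ = rtk6diF A K₁ L M H`;
`ϖ₁` ANY uniformizer of `A₁`, `π′` ANY uniformizer of `A′`, `q = rtk6ebQ h ϖ₁` the image of `ϖ₁`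
in `A′`; `rtk6dbcIncl L M H h : F₁ →+* F′` the coefficientwise inclusion.

* `rtk6dbc_chart_gen` : for `u₁ : F₁` transcendental with `F₁ / E₁(u₁)` finite: there is
  `j : zchClosure {u₁} →+* zchClosure {incl u₁}` (the coefficientwise inclusion) with
  `MgcRamified j π′ ϖ₁` and `j ϖ₁ = q`;
* `rtk6dbc_chart_t`, `rtk6dbc_chart_tinv` : the two charts `u₁ = t₁`, `u₁ = t₁⁻¹`
  (`t₁ = rtk6diT A K₁′ L M H`, with image `t = rtk6diT A K₁ L M H`) — LITERALLY `hram₁`, `hjp₁`,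
  `hram₂`, `hjp₂` of `rtk6ew_main_multi` (`RT/K6/EWMulti.lean`) with
  `R := zchClosure {t₁^{±1}}` over `A₁`, `p := ϖ₁`, `q := rtk6ebQ h ϖ₁`.

The only hypothesis left is `hred` (the special fibre of the chart over `A₁` is reduced:
SS1-inst / HRED at `K₁′`).
-/

set_option autoImplicit false
set_option linter.style.haveILetI false
set_option linter.unusedSectionVars false
set_option linter.unusedVariables false

noncomputable section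

namespace Fermat.Agent.RT.K6

open ModularCurve AlgebraicCurve Fermat.Agent.ES Fermat.Agent.ES.G2 Fermat.Agent.INJ
open Fermat.Agent.UNIP Fermat.Agent.ES1 Fermat.Agent.ES1.G2 IntermediateField Polynomial

section Concrete

variable {A : ValuationSubring Qb} {K₁' K₁ : IntermediateField ℚ Qb}
  (L M : ℕ) (H : Subgroup (ZMod M)ˣ) {r : ℕ}

/-- the coefficientwise inclusion `F₁ = fieldC E₁ L M H → F′ = fieldC E′ L M H` -/
def rtk6dbcIncl (h : K₁' ≤ K₁) : ↥(rtk6diF A K₁' L M H) →+* ↥(rtk6diF A K₁ L M H) :=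
  rtk6diCoeffHom L M H (IntermediateField.inclusion (rtk6eb_mgcE_mono (A := A) h)).toRingHom

theorem rtk6dbcIncl_T (h : K₁' ≤ K₁) :
    rtk6dbcIncl (A := A) L M H h (rtk6diT A K₁' L M H) = rtk6diT A K₁ L M H :=
  rtk6diCoeffHom_J _ L M H _

theorem rtk6dbcIncl_T_inv (h : K₁' ≤ K₁) :
    rtk6dbcIncl (A := A) L M H h (rtk6diT A K₁' L M H)⁻¹ = (rtk6diT A K₁ L M H)⁻¹ := by
  rw [map_inv₀, rtk6dbcIncl_T]

variable [NumberField ↥K₁'] [IsGalois ℚ ↥K₁'] [NumberField ↥K₁] [IsGalois ℚ ↥K₁]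

/-- **D-BC, concrete stage, general coordinate.** -/
theorem rtk6dbc_chart_gen (hr : r.Prime) (hA : A.LiesOverPrime r) (h : K₁' ≤ K₁)
    [IsDiscreteValuationRing ↥(mgcA A K₁')] [IsDiscreteValuationRing ↥(mgcA A K₁)]
    {ϖ₁ : ↥(mgcA A K₁')} (hϖ₁ : Irreducible ϖ₁) {π' : ↥(mgcA A K₁)} (hπ' : Irreducible π')
    (u₁ : ↥(rtk6diF A K₁' L M H)) (hu₁ : Transcendental ↥(mgcE A K₁') u₁)
    [FiniteDimensional (↥(mgcE A K₁'))⟮u₁⟯ ↥(rtk6diF A K₁' L M H)]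
    (hred : ∀ c : ↥(zchClosure (A₀ := ↥(mgcA A K₁')) ({u₁} : Set ↥(rtk6diF A K₁' L M H))),
      algebraMap ↥(mgcA A K₁') ↥(zchClosure (A₀ := ↥(mgcA A K₁'))
        ({u₁} : Set ↥(rtk6diF A K₁' L M H))) ϖ₁ ∣ c ^ 2 →
      algebraMap ↥(mgcA A K₁') ↥(zchClosure (A₀ := ↥(mgcA A K₁'))
        ({u₁} : Set ↥(rtk6diF A K₁' L M H))) ϖ₁ ∣ c)
    {u : ↥(rtk6diF A K₁ L M H)} (hu : rtk6dbcIncl (A := A) L M H h u₁ = u) :
    ∃ j : ↥(zchClosure (A₀ := ↥(mgcA A K₁')) ({u₁} : Set ↥(rtk6diF A K₁' L M H))) →+*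
        ↥(zchClosure (A₀ := ↥(mgcA A K₁)) ({u} : Set ↥(rtk6diF A K₁ L M H))),
      (∀ b, ((j b : ↥(zchClosure (A₀ := ↥(mgcA A K₁)) ({u} : Set ↥(rtk6diF A K₁ L M H)))) :
          ↥(rtk6diF A K₁ L M H)) = rtk6dbcIncl (A := A) L M H h (b : ↥(rtk6diF A K₁' L M H))) ∧
      MgcRamified j
        (algebraMap ↥(mgcA A K₁) ↥(zchClosure (A₀ := ↥(mgcA A K₁))
          ({u} : Set ↥(rtk6diF A K₁ L M H))) π')
        (algebraMap ↥(mgcA A K₁') ↥(zchClosure (A₀ := ↥(mgcA A K₁'))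
          ({u₁} : Set ↥(rtk6diF A K₁' L M H))) ϖ₁) ∧
      j (algebraMap ↥(mgcA A K₁') ↥(zchClosure (A₀ := ↥(mgcA A K₁'))
          ({u₁} : Set ↥(rtk6diF A K₁' L M H))) ϖ₁) =
        algebraMap ↥(mgcA A K₁) ↥(zchClosure (A₀ := ↥(mgcA A K₁))
          ({u} : Set ↥(rtk6diF A K₁ L M H))) (rtk6ebQ (A := A) h ϖ₁) := by
  letI algF := beta0FieldAlgebra (rtk6eb_mgcE_mono (A := A) h)
  letI algA : Algebra ↥(mgcA A K₁') ↥(mgcA A K₁) :=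
    (beta0RingIncl (A := A) (rtk6eb_mgcE_mono (A := A) h)).toAlgebra
  obtain ⟨hint, π₀, e, g₀, hπ₀, hram, hgm, hroot, hdeg, hadj, halg⟩ :=
    rtk6dbc_arith (A := A) hr hA h hϖ₁
  haveI := hint
  exact rtk6dbc_ramified_zch (A₀ := ↥(mgcA A K₁'))
    (E₀ := ↥(mgcE A K₁')) (A' := ↥(mgcA A K₁)) (E' := ↥(mgcE A K₁)) L M H (fun a => rfl)
    hϖ₁ u₁ hu₁ hred hπ' hπ₀ hram g₀ hgm hroot hdeg hadj halg hu

/-- **D-BC, chart `t`** : `hram₁`, `hjp₁` of `rtk6ew_main_multi`. -/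
theorem rtk6dbc_chart_t (hr : r.Prime) (hA : A.LiesOverPrime r) (h : K₁' ≤ K₁)
    (hL : L ≠ 0) (hML : M ∣ L)
    [IsDiscreteValuationRing ↥(mgcA A K₁')] [IsDiscreteValuationRing ↥(mgcA A K₁)]
    {ϖ₁ : ↥(mgcA A K₁')} (hϖ₁ : Irreducible ϖ₁) {π' : ↥(mgcA A K₁)} (hπ' : Irreducible π')
    (hred : ∀ c : ↥(zchClosure (A₀ := ↥(mgcA A K₁'))
        ({rtk6diT A K₁' L M H} : Set ↥(rtk6diF A K₁' L M H))),
      algebraMap ↥(mgcA A K₁') ↥(zchClosure (A₀ := ↥(mgcA A K₁'))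
        ({rtk6diT A K₁' L M H} : Set ↥(rtk6diF A K₁' L M H))) ϖ₁ ∣ c ^ 2 →
      algebraMap ↥(mgcA A K₁') ↥(zchClosure (A₀ := ↥(mgcA A K₁'))
        ({rtk6diT A K₁' L M H} : Set ↥(rtk6diF A K₁' L M H))) ϖ₁ ∣ c) :
    ∃ j : ↥(zchClosure (A₀ := ↥(mgcA A K₁'))
          ({rtk6diT A K₁' L M H} : Set ↥(rtk6diF A K₁' L M H))) →+*
        ↥(zchClosure (A₀ := ↥(mgcA A K₁))
          ({rtk6diT A K₁ L M H} : Set ↥(rtk6diF A K₁ L M H))),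
      (∀ b, ((j b : ↥(zchClosure (A₀ := ↥(mgcA A K₁))
          ({rtk6diT A K₁ L M H} : Set ↥(rtk6diF A K₁ L M H)))) :
          ↥(rtk6diF A K₁ L M H)) = rtk6dbcIncl (A := A) L M H h (b : ↥(rtk6diF A K₁' L M H))) ∧
      MgcRamified j
        (algebraMap ↥(mgcA A K₁) ↥(zchClosure (A₀ := ↥(mgcA A K₁))
          ({rtk6diT A K₁ L M H} : Set ↥(rtk6diF A K₁ L M H))) π')
        (algebraMap ↥(mgcA A K₁') ↥(zchClosure (A₀ := ↥(mgcA A K₁'))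
          ({rtk6diT A K₁' L M H} : Set ↥(rtk6diF A K₁' L M H))) ϖ₁) ∧
      j (algebraMap ↥(mgcA A K₁') ↥(zchClosure (A₀ := ↥(mgcA A K₁'))
          ({rtk6diT A K₁' L M H} : Set ↥(rtk6diF A K₁' L M H))) ϖ₁) =
        algebraMap ↥(mgcA A K₁) ↥(zchClosure (A₀ := ↥(mgcA A K₁))
          ({rtk6diT A K₁ L M H} : Set ↥(rtk6diF A K₁ L M H))) (rtk6ebQ (A := A) h ϖ₁) := by
  haveI := rtk6di_finiteDimensional A K₁' L M H hL hML
  exact rtk6dbc_chart_gen L M H hr hA h hϖ₁ hπ' (rtk6diT A K₁' L M H)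
    (rtk6di_transcendental A K₁' L M H) hred (rtk6dbcIncl_T L M H h)

/-- **D-BC, chart `t⁻¹`** : `hram₂`, `hjp₂` of `rtk6ew_main_multi`. -/
theorem rtk6dbc_chart_tinv (hr : r.Prime) (hA : A.LiesOverPrime r) (h : K₁' ≤ K₁)
    (hL : L ≠ 0) (hML : M ∣ L)
    [IsDiscreteValuationRing ↥(mgcA A K₁')] [IsDiscreteValuationRing ↥(mgcA A K₁)]
    {ϖ₁ : ↥(mgcA A K₁')} (hϖ₁ : Irreducible ϖ₁) {π' : ↥(mgcA A K₁)} (hπ' : Irreducible π')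
    (hred : ∀ c : ↥(zchClosure (A₀ := ↥(mgcA A K₁'))
        ({(rtk6diT A K₁' L M H)⁻¹} : Set ↥(rtk6diF A K₁' L M H))),
      algebraMap ↥(mgcA A K₁') ↥(zchClosure (A₀ := ↥(mgcA A K₁'))
        ({(rtk6diT A K₁' L M H)⁻¹} : Set ↥(rtk6diF A K₁' L M H))) ϖ₁ ∣ c ^ 2 →
      algebraMap ↥(mgcA A K₁') ↥(zchClosure (A₀ := ↥(mgcA A K₁'))
        ({(rtk6diT A K₁' L M H)⁻¹} : Set ↥(rtk6diF A K₁' L M H))) ϖ₁ ∣ c) :
    ∃ j : ↥(zchClosure (A₀ := ↥(mgcA A K₁'))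
          ({(rtk6diT A K₁' L M H)⁻¹} : Set ↥(rtk6diF A K₁' L M H))) →+*
        ↥(zchClosure (A₀ := ↥(mgcA A K₁))
          ({(rtk6diT A K₁ L M H)⁻¹} : Set ↥(rtk6diF A K₁ L M H))),
      (∀ b, ((j b : ↥(zchClosure (A₀ := ↥(mgcA A K₁))
          ({(rtk6diT A K₁ L M H)⁻¹} : Set ↥(rtk6diF A K₁ L M H)))) :
          ↥(rtk6diF A K₁ L M H)) = rtk6dbcIncl (A := A) L M H h (b : ↥(rtk6diF A K₁' L M H))) ∧
      MgcRamified j
        (algebraMap ↥(mgcA A K₁) ↥(zchClosure (A₀ := ↥(mgcA A K₁))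
          ({(rtk6diT A K₁ L M H)⁻¹} : Set ↥(rtk6diF A K₁ L M H))) π')
        (algebraMap ↥(mgcA A K₁') ↥(zchClosure (A₀ := ↥(mgcA A K₁'))
          ({(rtk6diT A K₁' L M H)⁻¹} : Set ↥(rtk6diF A K₁' L M H))) ϖ₁) ∧
      j (algebraMap ↥(mgcA A K₁') ↥(zchClosure (A₀ := ↥(mgcA A K₁'))
          ({(rtk6diT A K₁' L M H)⁻¹} : Set ↥(rtk6diF A K₁' L M H))) ϖ₁) =
        algebraMap ↥(mgcA A K₁) ↥(zchClosure (A₀ := ↥(mgcA A K₁))
          ({(rtk6diT A K₁ L M H)⁻¹} : Set ↥(rtk6diF A K₁ L M H))) (rtk6ebQ (A := A) h ϖ₁) := by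
  haveI := rtk6eb_finiteDimensional_inv A K₁' L M H hL hML
  exact rtk6dbc_chart_gen L M H hr hA h hϖ₁ hπ' (rtk6diT A K₁' L M H)⁻¹
    (rtk6eb_transcendental_inv A K₁' L M H) hred (rtk6dbcIncl_T_inv L M H h)

end Concrete

end Fermat.Agent.RT.K6

end
end ZBRT_069_2

/-! ### bundled: `Fermat.Agent.RT.K6.DBCSS1` -/
section ZBRT_069_3
/-
K-machine, piece K6, piece **D-BC** (helper56), final form: the D-BC datum of the two charts from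
the family and (SS1) at the INTERMEDIATE level `K₁′`.

* `rtk6dbc_hred_zch` : (abstract) `π ∣ c ^ 2 → π ∣ c` on the chart `zchClosure {u}`, from (SS1)
  (the `zchClosure` form of helper45's `rtk6hr_hred_of_ss1`, `RT/K6/HRed.lean`);
* `rtk6dbc_chart_t_of_ss1`, `rtk6dbc_chart_tinv_of_ss1` : `rtk6dbc_chart_t`, `rtk6dbc_chart_tinv`
  (`RT/K6/DBCConc.lean`) with `hred` discharged from `Rtk6emFam A K₁′ L M H ϖ₁ V₁` and
  `Rtk6emSS1 A K₁′ L M H ϖ₁ V₁` — the hypotheses `hD₁`, `hD₂` of helper81's `rtk6c4b_node`.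
-/

set_option autoImplicit false
set_option linter.style.haveILetI false
set_option linter.unusedSectionVars false
set_option linter.unusedVariables false

noncomputable section

namespace Fermat.Agent.RT.K6

open ModularCurve AlgebraicCurve Fermat.Agent.ES Fermat.Agent.ES.G2 Fermat.Agent.INJ
open Fermat.Agent.UNIP Fermat.Agent.STB Fermat.Agent.ES1 Fermat.Agent.ES1.G2 IntermediateField

section Abs

variable {A₀ E F : Type*} [CommRing A₀] [IsDomain A₀] [IsDiscreteValuationRing A₀]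
  [Field E] [Algebra A₀ E] [IsFractionRing A₀ E] [CharZero E]
  [Field F] [Algebra E F] [Algebra A₀ F] [IsScalarTower A₀ E F] {π : A₀} {κ : Type*}

/-- **`hred`** on the chart `zchClosure {u}`: the special fibre is reduced, from (SS1). -/
theorem rtk6dbc_hred_zch (u : F) (V : κ → ValuationSubring F)
    (hBV : ∀ c (b : F), IsIntegral ↥(Algebra.adjoin A₀ ({u} : Set F)) b → b ∈ V c)
    (hπV : ∀ c, algebraMap A₀ F π ∈ (V c).nonunits)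
    (hSS1 : ∀ b : F, IsIntegral ↥(Algebra.adjoin A₀ ({u} : Set F)) b →
      (∀ c, b ∈ (V c).nonunits) →
      ∃ b' : F, IsIntegral ↥(Algebra.adjoin A₀ ({u} : Set F)) b' ∧
        b = algebraMap A₀ F π * b')
    (c : ↥(zchClosure (A₀ := A₀) ({u} : Set F)))
    (hc : algebraMap A₀ ↥(zchClosure (A₀ := A₀) ({u} : Set F)) π ∣ c ^ 2) :
    algebraMap A₀ ↥(zchClosure (A₀ := A₀) ({u} : Set F)) π ∣ c := by
  obtain ⟨b, hb⟩ := hc
  have hbF : (c : F) ^ 2 = algebraMap A₀ F π * (b : F) := congrArg Subtype.val hb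
  have hcV : ∀ i, (c : F) ∈ (V i).nonunits := by
    intro i
    apply ats_mem_nonunits_of_pow (V i) (n := 2)
    rw [hbF, mul_comm]
    exact pwi_mul_mem_nonunits (V i) (hBV i _ (mem_zchClosure.mp b.2)) (hπV i)
  obtain ⟨b', hb', hcb'⟩ := hSS1 (c : F) (mem_zchClosure.mp c.2) hcV
  exact ⟨⟨b', mem_zchClosure.mpr hb'⟩, Subtype.ext hcb'⟩

end Abs

section Concrete

variable {A : ValuationSubring Qb} {K₁' K₁ : IntermediateField ℚ Qb}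
  (L M : ℕ) (H : Subgroup (ZMod M)ˣ) {r : ℕ}
  [NumberField ↥K₁'] [IsGalois ℚ ↥K₁'] [NumberField ↥K₁] [IsGalois ℚ ↥K₁]

/-- **D-BC, chart `t`, from the family and (SS1) at `K₁′`.** -/
theorem rtk6dbc_chart_t_of_ss1 (hr : r.Prime) (hA : A.LiesOverPrime r) (h : K₁' ≤ K₁)
    (hL : L ≠ 0) (hML : M ∣ L)
    [IsDiscreteValuationRing ↥(mgcA A K₁')] [IsDiscreteValuationRing ↥(mgcA A K₁)]
    {ϖ₁ : ↥(mgcA A K₁')} (hϖ₁ : Irreducible ϖ₁) {π' : ↥(mgcA A K₁)} (hπ' : Irreducible π')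
    {κ₁ : Type} {V₁ : κ₁ → ValuationSubring ↥(rtk6diF A K₁' L M H)}
    (fam : Rtk6emFam A K₁' L M H ϖ₁ V₁) (ss1 : Rtk6emSS1 A K₁' L M H ϖ₁ V₁) :
    ∃ j : ↥(zchClosure (A₀ := ↥(mgcA A K₁'))
          ({rtk6diT A K₁' L M H} : Set ↥(rtk6diF A K₁' L M H))) →+*
        ↥(zchClosure (A₀ := ↥(mgcA A K₁))
          ({rtk6diT A K₁ L M H} : Set ↥(rtk6diF A K₁ L M H))),
      (∀ b, ((j b : ↥(zchClosure (A₀ := ↥(mgcA A K₁))
          ({rtk6diT A K₁ L M H} : Set ↥(rtk6diF A K₁ L M H)))) :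
          ↥(rtk6diF A K₁ L M H)) = rtk6dbcIncl (A := A) L M H h (b : ↥(rtk6diF A K₁' L M H))) ∧
      MgcRamified j
        (algebraMap ↥(mgcA A K₁) ↥(zchClosure (A₀ := ↥(mgcA A K₁))
          ({rtk6diT A K₁ L M H} : Set ↥(rtk6diF A K₁ L M H))) π')
        (algebraMap ↥(mgcA A K₁') ↥(zchClosure (A₀ := ↥(mgcA A K₁'))
          ({rtk6diT A K₁' L M H} : Set ↥(rtk6diF A K₁' L M H))) ϖ₁) ∧
      j (algebraMap ↥(mgcA A K₁') ↥(zchClosure (A₀ := ↥(mgcA A K₁'))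
          ({rtk6diT A K₁' L M H} : Set ↥(rtk6diF A K₁' L M H))) ϖ₁) =
        algebraMap ↥(mgcA A K₁) ↥(zchClosure (A₀ := ↥(mgcA A K₁))
          ({rtk6diT A K₁ L M H} : Set ↥(rtk6diF A K₁ L M H))) (rtk6ebQ (A := A) h ϖ₁) :=
  rtk6dbc_chart_t L M H hr hA h hL hML hϖ₁ hπ'
    (rtk6dbc_hred_zch (A₀ := ↥(mgcA A K₁')) (rtk6diT A K₁' L M H) V₁
      fam.hBV₁ fam.hπV ss1)

/-- **D-BC, chart `t⁻¹`, from the family and (SS1) at `K₁′`.** -/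
theorem rtk6dbc_chart_tinv_of_ss1 (hr : r.Prime) (hA : A.LiesOverPrime r) (h : K₁' ≤ K₁)
    (hL : L ≠ 0) (hML : M ∣ L)
    [IsDiscreteValuationRing ↥(mgcA A K₁')] [IsDiscreteValuationRing ↥(mgcA A K₁)]
    {ϖ₁ : ↥(mgcA A K₁')} (hϖ₁ : Irreducible ϖ₁) {π' : ↥(mgcA A K₁)} (hπ' : Irreducible π')
    {κ₁ : Type} {V₁ : κ₁ → ValuationSubring ↥(rtk6diF A K₁' L M H)}
    (fam : Rtk6emFam A K₁' L M H ϖ₁ V₁) (ss1 : Rtk6emSS1 A K₁' L M H ϖ₁ V₁) :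
    ∃ j : ↥(zchClosure (A₀ := ↥(mgcA A K₁'))
          ({(rtk6diT A K₁' L M H)⁻¹} : Set ↥(rtk6diF A K₁' L M H))) →+*
        ↥(zchClosure (A₀ := ↥(mgcA A K₁))
          ({(rtk6diT A K₁ L M H)⁻¹} : Set ↥(rtk6diF A K₁ L M H))),
      (∀ b, ((j b : ↥(zchClosure (A₀ := ↥(mgcA A K₁))
          ({(rtk6diT A K₁ L M H)⁻¹} : Set ↥(rtk6diF A K₁ L M H)))) :
          ↥(rtk6diF A K₁ L M H)) = rtk6dbcIncl (A := A) L M H h (b : ↥(rtk6diF A K₁' L M H))) ∧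
      MgcRamified j
        (algebraMap ↥(mgcA A K₁) ↥(zchClosure (A₀ := ↥(mgcA A K₁))
          ({(rtk6diT A K₁ L M H)⁻¹} : Set ↥(rtk6diF A K₁ L M H))) π')
        (algebraMap ↥(mgcA A K₁') ↥(zchClosure (A₀ := ↥(mgcA A K₁'))
          ({(rtk6diT A K₁' L M H)⁻¹} : Set ↥(rtk6diF A K₁' L M H))) ϖ₁) ∧
      j (algebraMap ↥(mgcA A K₁') ↥(zchClosure (A₀ := ↥(mgcA A K₁'))
          ({(rtk6diT A K₁' L M H)⁻¹} : Set ↥(rtk6diF A K₁' L M H))) ϖ₁) =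
        algebraMap ↥(mgcA A K₁) ↥(zchClosure (A₀ := ↥(mgcA A K₁))
          ({(rtk6diT A K₁ L M H)⁻¹} : Set ↥(rtk6diF A K₁ L M H))) (rtk6ebQ (A := A) h ϖ₁) :=
  rtk6dbc_chart_tinv L M H hr hA h hL hML hϖ₁ hπ'
    (rtk6dbc_hred_zch (A₀ := ↥(mgcA A K₁')) (rtk6diT A K₁' L M H)⁻¹ V₁
      fam.hBV₂ fam.hπV (rtk6hr_ss1_inv hϖ₁ hL hML fam ss1))

end Concrete

end Fermat.Agent.RT.K6

end
end ZBRT_069_3
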