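/- GENERATED FILE (helper35, build-time optimisation, NOTES/ZB.md): verbatim concatenation of the modules
   Fermat.Agent.RT.K6.C4InstB
   Fermat.Agent.RT.K6.C4InstBNode
   Do not edit; do not import together with these modules. -/
import Fermat.Agent.ZB.RT_031
import Fermat.Agent.ZB.RT_032

/-! ### bundled: `Fermat.Agent.RT.K6.C4InstB` -/
section ZBRT_066_0
/-
K-machine, piece K6, piece **C4-inst (B)** (helper81): THE TOP HALF of the instance of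
`Rtk6emNode` (`RT/K6/EMain.lean`), generic in the intermediate level `K₁′ ≤ K₁`
(case (U): `K₁′ = rtk6ebK q 1`, unramified; case (χ): `K₁′ = rtk6ebK r d`, thin).

`A₁ = mgcA A K₁′` (uniformizer `ϖ₁`), `A′ = mgcA A K₁` (uniformizer `π`),
`F₁ = rtk6diF A K₁′ L M H`, `F′ = rtk6diF A K₁ L M H`, `ι : F₁ → F′` coefficientwise,
`R₁ = zchClosure {u₁}` the chart of `F₁` over `A₁`, `B′ = zchClosure {u}` the chart of `F′`
over `A′`, `j : R₁ →+* B′` the (D-BC) map (`MgcRamified j π ϖ₁`, `(j b : F′) = ι b`).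

* `rtk6c4b_comap_isMaximal`, `rtk6c4bPt` : a closed point `𝔫` of the special fibre of `B′` lies
  over the closed point `𝔫 ∩ R₁` of the special fibre of `R₁`;
* `rtk6c4b_nodeAt` : **transfer of the dichotomy** (FAM-res (R3)):
  `Rtk6ewmNodeAt V₁ (𝔫 ∩ R₁) id ϖ₁ → Rtk6ewmNodeAt V 𝔫 j ϖ₁`, if every component of the family
  `V₁` is the restriction of a component of `V` (FAM-res (R2));
* `rtk6c4b_chartAt_abs` : `∃ R j p, MgcRamified j π p ∧ j p = q′ ∧ ∀ 𝔫, Rtk6ewmNodeAt V 𝔫 j p`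
  (the body of `Rtk6emChartAt`) from the dichotomy at the level `A₁`;
* `rtk6c4b_dbc_zch` : the (D-BC) datum of `rtk6dbc_ramified_gen` (domain
  `integralClosure A₁[u₁] F₁`) in the shape of the chart `zchClosure {u₁}`.
The concrete theorem `rtk6c4b_node` (`Rtk6emNode` at `K₁`) is in `RT/K6/C4InstBNode.lean`.
-/

set_option autoImplicit false
set_option linter.style.haveILetI false
set_option linter.unusedSectionVars false
set_option linter.unusedVariables false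
set_option linter.style.longLine false

namespace Fermat.Agent.RT.K6

open Polynomial IntermediateField Fermat.Agent.INJ AlgebraicCurve Fermat.Agent.UNIP
  Fermat.Agent.STB

/-! ### Closed points under a (D-BC) map -/

section Ram

variable {R R' : Type*} [CommRing R] [CommRing R'] {j : R →+* R'} {ϖ : R'} {p : R}

/-- the contraction of a maximal ideal `𝔫 ∋ ϖ` along a (D-BC) map is maximal -/
theorem rtk6c4b_comap_isMaximal (hram : MgcRamified j ϖ p) (𝔫 : Ideal R') (h𝔫 : 𝔫.IsMaximal)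
    (hϖ : ϖ ∈ 𝔫) : (𝔫.comap j).IsMaximal := by
  haveI := h𝔫
  have hsurj : Function.Surjective ((Ideal.Quotient.mk 𝔫).comp j) := by
    intro y
    obtain ⟨x, rfl⟩ := Ideal.Quotient.mk_surjective y
    obtain ⟨c, z, hx⟩ := hram.decomp x
    refine ⟨c, ?_⟩
    rw [RingHom.comp_apply, hx, map_add, map_mul, Ideal.Quotient.eq_zero_iff_mem.mpr hϖ,
      zero_mul, add_zero]
  have hker : RingHom.ker ((Ideal.Quotient.mk 𝔫).comp j) = 𝔫.comap j := by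
    ext x
    rw [RingHom.mem_ker, RingHom.comp_apply, Ideal.Quotient.eq_zero_iff_mem, Ideal.mem_comap]
  rw [← hker]
  letI := Ideal.Quotient.field 𝔫
  exact RingHom.ker_isMaximal_of_surjective _ hsurj

/-- `p` lies in the contraction of every ideal containing `ϖ` -/
theorem rtk6c4b_mem_comap (hram : MgcRamified j ϖ p) (𝔫 : Ideal R') (hϖ : ϖ ∈ 𝔫) :
    p ∈ 𝔫.comap j := by
  obtain ⟨z, hz⟩ := hram.dvd
  rw [Ideal.mem_comap, hz]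
  exact Ideal.mul_mem_right _ _ hϖ

end Ram

/-! ### Transfer of the dichotomy -/

section Transfer

universe v

variable {A₁ E₁ : Type*} {F₁ : Type v} [CommRing A₁] [IsDomain A₁] [IsDiscreteValuationRing A₁]
  [Field E₁] [Algebra A₁ E₁] [IsFractionRing A₁ E₁] [CharZero E₁]
  [Field F₁] [Algebra E₁ F₁] [Algebra A₁ F₁] [IsScalarTower A₁ E₁ F₁]
  {A' E' F' : Type*} [CommRing A'] [IsDomain A'] [IsDiscreteValuationRing A']
  [Field E'] [Algebra A' E'] [IsFractionRing A' E'] [CharZero E']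
  [Field F'] [Algebra E' F'] [Algebra A' F'] [IsScalarTower A' E' F']
  {ϖ₁ : A₁} {π : A'} {u₁ : F₁} {u : F'}
  {κ₁ κ : Type*} (V₁ : κ₁ → ValuationSubring F₁) (V : κ → ValuationSubring F')
  (ι : F₁ →+* F')
  (j : ↥(zchClosure (A₀ := A₁) ({u₁} : Set F₁)) →+* ↥(zchClosure (A₀ := A') ({u} : Set F')))

/-- the closed point `𝔫 ∩ R₁` of the chart `R₁` under the closed point `𝔫` of the chart `B′` -/
def rtk6c4bPt
    (hram : MgcRamified j (algebraMap A' ↥(zchClosure (A₀ := A') ({u} : Set F')) π)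
      (algebraMap A₁ ↥(zchClosure (A₀ := A₁) ({u₁} : Set F₁)) ϖ₁))
    (𝔫 : AtPt (F := F') π u) : AtPt (F := F₁) ϖ₁ u₁ :=
  ⟨𝔫.1.comap j, rtk6c4b_comap_isMaximal hram 𝔫.1 𝔫.2.1 𝔫.2.2,
    rtk6c4b_mem_comap hram 𝔫.1 𝔫.2.2⟩

@[simp] theorem rtk6c4bPt_val
    (hram : MgcRamified j (algebraMap A' ↥(zchClosure (A₀ := A') ({u} : Set F')) π)
      (algebraMap A₁ ↥(zchClosure (A₀ := A₁) ({u₁} : Set F₁)) ϖ₁))
    (𝔫 : AtPt (F := F') π u) : (rtk6c4bPt j hram 𝔫).1 = 𝔫.1.comap j := rfl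

/-- **FAM-res (R3): transfer of the dichotomy** from the chart `R₁` (over `A₁`) to `(B′, j)`. -/
theorem rtk6c4b_nodeAt
    (hj : ∀ b, ((j b : ↥(zchClosure (A₀ := A') ({u} : Set F'))) : F') = ι (b : F₁))
    (hram : MgcRamified j (algebraMap A' ↥(zchClosure (A₀ := A') ({u} : Set F')) π)
      (algebraMap A₁ ↥(zchClosure (A₀ := A₁) ({u₁} : Set F₁)) ϖ₁))
    (hR2 : ∀ c₁ : κ₁, ∃ c : κ, ∀ x : F₁, ι x ∈ (V c).nonunits ↔ x ∈ (V₁ c₁).nonunits)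
    (𝔫 : AtPt (F := F') π u)
    (h : Rtk6ewmNodeAt V₁ (rtk6c4bPt j hram 𝔫) (RingHom.id _)
      (algebraMap A₁ ↥(zchClosure (A₀ := A₁) ({u₁} : Set F₁)) ϖ₁)) :
    Rtk6ewmNodeAt V 𝔫 j (algebraMap A₁ ↥(zchClosure (A₀ := A₁) ({u₁} : Set F₁)) ϖ₁) := by
  rcases h with ⟨s, hs, hgen⟩ | ⟨c₁, c₂, X, Y, w, h1, h2, hX, hY, hw, hwp, hgen⟩
  · exact Or.inl ⟨s, hs, hgen⟩
  · obtain ⟨c₁', hc₁'⟩ := hR2 c₁
    obtain ⟨c₂', hc₂'⟩ := hR2 c₂
    refine Or.inr ⟨c₁', c₂', X, Y, w, ?_, ?_, ?_, ?_, hw, hwp, hgen⟩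
    · intro x hx
      rw [hj] at hx
      exact h1 x ((hc₁' _).mp hx)
    · intro x hx
      rw [hj] at hx
      exact h2 x ((hc₂' _).mp hx)
    · rw [hj]
      exact (hc₁' _).mpr hX
    · rw [hj]
      exact (hc₂' _).mpr hY

/-- **The body of `Rtk6emChartAt`** from the dichotomy on the chart `R₁` over `A₁`:
`R := R₁`, `p := ϖ₁`. -/
theorem rtk6c4b_chartAt_abs
    (hj : ∀ b, ((j b : ↥(zchClosure (A₀ := A') ({u} : Set F'))) : F') = ι (b : F₁))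
    (hram : MgcRamified j (algebraMap A' ↥(zchClosure (A₀ := A') ({u} : Set F')) π)
      (algebraMap A₁ ↥(zchClosure (A₀ := A₁) ({u₁} : Set F₁)) ϖ₁))
    {q' : A'}
    (hjp : j (algebraMap A₁ ↥(zchClosure (A₀ := A₁) ({u₁} : Set F₁)) ϖ₁) =
      algebraMap A' ↥(zchClosure (A₀ := A') ({u} : Set F')) q')
    (hR2 : ∀ c₁ : κ₁, ∃ c : κ, ∀ x : F₁, ι x ∈ (V c).nonunits ↔ x ∈ (V₁ c₁).nonunits)
    (hA : ∀ 𝔫₁ : AtPt (F := F₁) ϖ₁ u₁, Rtk6ewmNodeAt V₁ 𝔫₁ (RingHom.id _)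
      (algebraMap A₁ ↥(zchClosure (A₀ := A₁) ({u₁} : Set F₁)) ϖ₁)) :
    ∃ (R : Type v) (_ : CommRing R)
      (j' : R →+* ↥(zchClosure (A₀ := A') ({u} : Set F'))) (p : R),
      MgcRamified j' (algebraMap A' ↥(zchClosure (A₀ := A') ({u} : Set F')) π) p ∧
      j' p = algebraMap A' ↥(zchClosure (A₀ := A') ({u} : Set F')) q' ∧
      ∀ 𝔫 : AtPt (F := F') π u, Rtk6ewmNodeAt V 𝔫 j' p :=
  ⟨↥(zchClosure (A₀ := A₁) ({u₁} : Set F₁)), inferInstance, j,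
    algebraMap A₁ ↥(zchClosure (A₀ := A₁) ({u₁} : Set F₁)) ϖ₁, hram, hjp,
    fun 𝔫 => rtk6c4b_nodeAt V₁ V ι j hj hram hR2 𝔫 (hA _)⟩

end Transfer

/-! ### The (D-BC) datum in the two shapes of the chart -/

section Shape

variable {A₁ F₁ R' F' : Type*} [CommRing A₁] [Field F₁] [Algebra A₁ F₁] [CommRing R']
  {u₁ : F₁} {ϖ₁ : A₁} {ϖ' q' : R'}

/-- the (D-BC) datum of `rtk6dbc_ramified_gen` (domain `integralClosure A₁[u₁] F₁`) in the shape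
of the charts `zchClosure {u₁}` (generic, so that the conversion is checked once, with small
instances) -/
theorem rtk6c4b_dbc_zch (c : R' → F') (ι : F₁ → F')
    (hD : ∃ j : ↥(integralClosure (Algebra.adjoin A₁ ({u₁} : Set F₁)) F₁) →+* R',
      (∀ b, c (j b) = ι (b : F₁)) ∧
      MgcRamified j ϖ'
        (algebraMap A₁ ↥(integralClosure (Algebra.adjoin A₁ ({u₁} : Set F₁)) F₁) ϖ₁) ∧
      j (algebraMap A₁ ↥(integralClosure (Algebra.adjoin A₁ ({u₁} : Set F₁)) F₁) ϖ₁) = q') :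
    ∃ j : ↥(zchClosure (A₀ := A₁) ({u₁} : Set F₁)) →+* R',
      (∀ b, c (j b) = ι (b : F₁)) ∧
      MgcRamified j ϖ' (algebraMap A₁ ↥(zchClosure (A₀ := A₁) ({u₁} : Set F₁)) ϖ₁) ∧
      j (algebraMap A₁ ↥(zchClosure (A₀ := A₁) ({u₁} : Set F₁)) ϖ₁) = q' := hD

end Shape

end Fermat.Agent.RT.K6


end ZBRT_066_0

/-! ### bundled: `Fermat.Agent.RT.K6.C4InstBNode` -/
section ZBRT_066_1
/-
K-machine, piece K6, piece **C4-inst (B)** (helper81), concrete part: **`Rtk6emNode` at `K₁`**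
(the field `node` of `Rtk6eiGeom`, `RT/K6/EInst.lean`) from the dichotomy at an intermediate
level `K₁′ ≤ K₁`, GENERIC in `K₁′`, in the family `w₁`, `w` and in the embedding `ι`
(case (U): `K₁′ = rtk6ebK q 1`; case (χ): `K₁′ = rtk6ebK r d`).

Inputs (all as hypotheses, in the shapes of their providers):
* (A)    `hA₁`, `hA₂` : `∀ 𝔫₁ : AtPt ϖ₁ u₁, Rtk6ewmNodeAt V₁ 𝔫₁ (RingHom.id _) ϖ₁` on the two charts
         `u₁ = t₁`, `t₁⁻¹` of `F₁ = rtk6diF A K₁′ (M₁ q) M H` over `A₁ = mgcA A K₁′`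
         (C4-U-inst (A), helper37; C4-χ-ASM, helper94);
* (D-BC) `hD₁`, `hD₂` : `∃ j, (j b : F′) = ι b ∧ MgcRamified j π ϖ₁ ∧ j ϖ₁ = q′` (helper56;
         `rtk6c4b_dbc_zch` converts the shape of `rtk6dbc_ramified_gen`);
* (R2)   `hR2` : every component of `V₁` is the restriction along `ι` of a component of `V`
         (FAM-res, helper82 / helper68);
* (E-BASE) `q′ ≠ 0`, `π ∣ q′` (helper66: `rtk6ebQ_ne_zero`, `rtk6ebQ_dvd_of_irreducible`).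

* `rtk6c4b_chartAt` : `Rtk6emChartAt A K₁ L M H π q′ V u`;
* `rtk6c4b_node`    : **`Rtk6emNode A K₁ (M₁ q) M H π (rtk6dfV hπ M H w)`**.
-/

set_option autoImplicit false
set_option linter.style.haveILetI false
set_option linter.unusedSectionVars false
set_option linter.unusedVariables false
set_option linter.style.longLine false

noncomputable section

namespace Fermat.Agent.RT.K6

open ModularCurve AlgebraicCurve Fermat.Agent.ES Fermat.Agent.ES.G2 Fermat.Agent.INJ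
open Fermat.Agent.UNIP Fermat.Agent.STB Fermat.Agent.ES1 Fermat.Agent.ES1.G2 IntermediateField

section Chart

variable {A : ValuationSubring Qb} {K₁' K₁ : IntermediateField ℚ Qb}
  [IsDiscreteValuationRing ↥(mgcA A K₁')] [IsDiscreteValuationRing ↥(mgcA A K₁)]
  {ϖ₁ : ↥(mgcA A K₁')} {π : ↥(mgcA A K₁)} {L M : ℕ} {H : Subgroup (ZMod M)ˣ}
  {κ₁ κ : Type} (V₁ : κ₁ → ValuationSubring ↥(rtk6diF A K₁' L M H))
  (V : κ → ValuationSubring ↥(rtk6diF A K₁ L M H))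
  (ι : ↥(rtk6diF A K₁' L M H) →+* ↥(rtk6diF A K₁ L M H))

/-- **`Rtk6emChartAt` at `K₁`** from the dichotomy on the chart `u₁` at the level `K₁′`. -/
theorem rtk6c4b_chartAt {u₁ : ↥(rtk6diF A K₁' L M H)} {u : ↥(rtk6diF A K₁ L M H)}
    {q' : ↥(mgcA A K₁)}
    (hR2 : ∀ c₁ : κ₁, ∃ c : κ, ∀ x : ↥(rtk6diF A K₁' L M H),
      ι x ∈ (V c).nonunits ↔ x ∈ (V₁ c₁).nonunits)
    (hD : ∃ j : ↥(zchClosure (A₀ := ↥(mgcA A K₁'))
          ({u₁} : Set ↥(rtk6diF A K₁' L M H))) →+*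
        ↥(zchClosure (A₀ := ↥(mgcA A K₁)) ({u} : Set ↥(rtk6diF A K₁ L M H))),
      (∀ b, ((j b : ↥(zchClosure (A₀ := ↥(mgcA A K₁))
        ({u} : Set ↥(rtk6diF A K₁ L M H)))) : ↥(rtk6diF A K₁ L M H)) =
          ι (b : ↥(rtk6diF A K₁' L M H))) ∧
      MgcRamified j
        (algebraMap ↥(mgcA A K₁) ↥(zchClosure (A₀ := ↥(mgcA A K₁))
          ({u} : Set ↥(rtk6diF A K₁ L M H))) π)
        (algebraMap ↥(mgcA A K₁') ↥(zchClosure (A₀ := ↥(mgcA A K₁'))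
          ({u₁} : Set ↥(rtk6diF A K₁' L M H))) ϖ₁) ∧
      j (algebraMap ↥(mgcA A K₁') ↥(zchClosure (A₀ := ↥(mgcA A K₁'))
          ({u₁} : Set ↥(rtk6diF A K₁' L M H))) ϖ₁) =
        algebraMap ↥(mgcA A K₁) ↥(zchClosure (A₀ := ↥(mgcA A K₁))
          ({u} : Set ↥(rtk6diF A K₁ L M H))) q')
    (hA : ∀ 𝔫₁ : AtPt (F := ↥(rtk6diF A K₁' L M H)) ϖ₁ u₁,
      Rtk6ewmNodeAt V₁ 𝔫₁ (RingHom.id _)
        (algebraMap ↥(mgcA A K₁') ↥(zchClosure (A₀ := ↥(mgcA A K₁'))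
          ({u₁} : Set ↥(rtk6diF A K₁' L M H))) ϖ₁)) :
    Rtk6emChartAt A K₁ L M H π q' V u := by
  obtain ⟨j, hj, hram, hjp⟩ := hD
  exact rtk6c4b_chartAt_abs (A₁ := ↥(mgcA A K₁'))
    (F₁ := ↥(rtk6diF A K₁' L M H)) (A' := ↥(mgcA A K₁))
    (F' := ↥(rtk6diF A K₁ L M H)) V₁ V ι j hj hram hjp hR2 hA

end Chart

section Node

variable {A : ValuationSubring Qb} {K₁' K₁ : IntermediateField ℚ Qb}
  [IsDiscreteValuationRing ↥(mgcA A K₁')] [IsDiscreteValuationRing ↥(mgcA A K₁)]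
  {ϖ₁ : ↥(mgcA A K₁')} (hϖ₁ : Irreducible ϖ₁) {π : ↥(mgcA A K₁)} (hπ : Irreducible π)
  {q M₁ : ℕ} [NeZero q] [NeZero M₁] [NeZero (M₁ * q)] (M : ℕ) (H : Subgroup (ZMod M)ˣ)
  (w₁ : ↥(rtk6diF A K₁' (M₁ * q) M H) ≃ₐ[↥(mgcE A K₁')] ↥(rtk6diF A K₁' (M₁ * q) M H))
  (w : ↥(rtk6diF A K₁ (M₁ * q) M H) ≃ₐ[↥(mgcE A K₁)] ↥(rtk6diF A K₁ (M₁ * q) M H))
  (ι : ↥(rtk6diF A K₁' (M₁ * q) M H) →+* ↥(rtk6diF A K₁ (M₁ * q) M H))

/-- **C4-inst (B): `Rtk6emNode` at `K₁`** from the dichotomy on the two charts at the level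
`K₁′ ≤ K₁` (A), the (D-BC) data of the two charts, the restriction of the family (R2) and
(E-BASE). -/
theorem rtk6c4b_node {q' : ↥(mgcA A K₁)} (hq0 : q' ≠ 0) (hqπ : π ∣ q')
    (hR2 : ∀ c₁ : rtk6dfK hϖ₁ M H w₁, ∃ c : rtk6dfK hπ M H w,
      ∀ x : ↥(rtk6diF A K₁' (M₁ * q) M H),
        ι x ∈ (rtk6dfV hπ M H w c).nonunits ↔ x ∈ (rtk6dfV hϖ₁ M H w₁ c₁).nonunits)
    (hD₁ : ∃ j : ↥(zchClosure (A₀ := ↥(mgcA A K₁'))
          ({rtk6diT A K₁' (M₁ * q) M H} : Set ↥(rtk6diF A K₁' (M₁ * q) M H))) →+*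
        ↥(zchClosure (A₀ := ↥(mgcA A K₁))
          ({rtk6diT A K₁ (M₁ * q) M H} : Set ↥(rtk6diF A K₁ (M₁ * q) M H))),
      (∀ b, ((j b : ↥(zchClosure (A₀ := ↥(mgcA A K₁))
        ({rtk6diT A K₁ (M₁ * q) M H} : Set ↥(rtk6diF A K₁ (M₁ * q) M H)))) :
          ↥(rtk6diF A K₁ (M₁ * q) M H)) = ι (b : ↥(rtk6diF A K₁' (M₁ * q) M H))) ∧
      MgcRamified j
        (algebraMap ↥(mgcA A K₁) ↥(zchClosure (A₀ := ↥(mgcA A K₁))
          ({rtk6diT A K₁ (M₁ * q) M H} : Set ↥(rtk6diF A K₁ (M₁ * q) M H))) π)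
        (algebraMap ↥(mgcA A K₁') ↥(zchClosure (A₀ := ↥(mgcA A K₁'))
          ({rtk6diT A K₁' (M₁ * q) M H} : Set ↥(rtk6diF A K₁' (M₁ * q) M H))) ϖ₁) ∧
      j (algebraMap ↥(mgcA A K₁') ↥(zchClosure (A₀ := ↥(mgcA A K₁'))
          ({rtk6diT A K₁' (M₁ * q) M H} : Set ↥(rtk6diF A K₁' (M₁ * q) M H))) ϖ₁) =
        algebraMap ↥(mgcA A K₁) ↥(zchClosure (A₀ := ↥(mgcA A K₁))
          ({rtk6diT A K₁ (M₁ * q) M H} : Set ↥(rtk6diF A K₁ (M₁ * q) M H))) q')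
    (hD₂ : ∃ j : ↥(zchClosure (A₀ := ↥(mgcA A K₁'))
          ({(rtk6diT A K₁' (M₁ * q) M H)⁻¹} : Set ↥(rtk6diF A K₁' (M₁ * q) M H))) →+*
        ↥(zchClosure (A₀ := ↥(mgcA A K₁))
          ({(rtk6diT A K₁ (M₁ * q) M H)⁻¹} : Set ↥(rtk6diF A K₁ (M₁ * q) M H))),
      (∀ b, ((j b : ↥(zchClosure (A₀ := ↥(mgcA A K₁))
        ({(rtk6diT A K₁ (M₁ * q) M H)⁻¹} : Set ↥(rtk6diF A K₁ (M₁ * q) M H)))) :
          ↥(rtk6diF A K₁ (M₁ * q) M H)) = ι (b : ↥(rtk6diF A K₁' (M₁ * q) M H))) ∧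
      MgcRamified j
        (algebraMap ↥(mgcA A K₁) ↥(zchClosure (A₀ := ↥(mgcA A K₁))
          ({(rtk6diT A K₁ (M₁ * q) M H)⁻¹} : Set ↥(rtk6diF A K₁ (M₁ * q) M H))) π)
        (algebraMap ↥(mgcA A K₁') ↥(zchClosure (A₀ := ↥(mgcA A K₁'))
          ({(rtk6diT A K₁' (M₁ * q) M H)⁻¹} : Set ↥(rtk6diF A K₁' (M₁ * q) M H))) ϖ₁) ∧
      j (algebraMap ↥(mgcA A K₁') ↥(zchClosure (A₀ := ↥(mgcA A K₁'))
          ({(rtk6diT A K₁' (M₁ * q) M H)⁻¹} : Set ↥(rtk6diF A K₁' (M₁ * q) M H))) ϖ₁) =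
        algebraMap ↥(mgcA A K₁) ↥(zchClosure (A₀ := ↥(mgcA A K₁))
          ({(rtk6diT A K₁ (M₁ * q) M H)⁻¹} : Set ↥(rtk6diF A K₁ (M₁ * q) M H))) q')
    (hA₁ : ∀ 𝔫₁ : AtPt (F := ↥(rtk6diF A K₁' (M₁ * q) M H)) ϖ₁ (rtk6diT A K₁' (M₁ * q) M H),
      Rtk6ewmNodeAt (rtk6dfV hϖ₁ M H w₁) 𝔫₁ (RingHom.id _)
        (algebraMap ↥(mgcA A K₁') ↥(zchClosure (A₀ := ↥(mgcA A K₁'))
          ({rtk6diT A K₁' (M₁ * q) M H} : Set ↥(rtk6diF A K₁' (M₁ * q) M H))) ϖ₁))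
    (hA₂ : ∀ 𝔫₁ : AtPt (F := ↥(rtk6diF A K₁' (M₁ * q) M H)) ϖ₁
        (rtk6diT A K₁' (M₁ * q) M H)⁻¹,
      Rtk6ewmNodeAt (rtk6dfV hϖ₁ M H w₁) 𝔫₁ (RingHom.id _)
        (algebraMap ↥(mgcA A K₁') ↥(zchClosure (A₀ := ↥(mgcA A K₁'))
          ({(rtk6diT A K₁' (M₁ * q) M H)⁻¹} : Set ↥(rtk6diF A K₁' (M₁ * q) M H))) ϖ₁)) :
    Rtk6emNode A K₁ (M₁ * q) M H π (rtk6dfV hπ M H w) :=
  ⟨q', hq0, hqπ,
    rtk6c4b_chartAt (rtk6dfV hϖ₁ M H w₁) (rtk6dfV hπ M H w) ι hR2 hD₁ hA₁,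
    rtk6c4b_chartAt (rtk6dfV hϖ₁ M H w₁) (rtk6dfV hπ M H w) ι hR2 hD₂ hA₂⟩

end Node

end Fermat.Agent.RT.K6

end
end ZBRT_066_1
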