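/- GENERATED FILE (helper35, build-time optimisation, NOTES/ZB.md): verbatim concatenation of the modules
   Fermat.Agent.UNIP.MGTriv
   Fermat.Agent.RT.K6.FixU
   Do not edit; do not import together with these modules. -/
import Fermat.Agent.ZB.UNIP_007
import Fermat.Agent.ZB.UNIP_010
import Fermat.Agent.ZB.UNIP_006
import Fermat.Agent.ZB.RT_032
import Fermat.Agent.ZB.STB_003

/-! ### bundled: `Fermat.Agent.UNIP.MGTriv` -/
section ZBUNIP_039_0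
/-
UNIP / MG-5, piece G3 (helper84): inertia is trivial modulo `π′` on the charts over `A′`
(the hypotheses `AtTrivMod` of `at_main_two`).

Generic setting of `MGChartsMain.lean` / `MGChartsInst.lean`: `A₀` DVR (unramified base),
`K / E₀(τ)` finite (`K = F_N(E₀)`), `B₀` = integral closure of `A₀[τ]` in `K`; `A′ ⊇ A₀`, `L ⊇ K`
(`L = F_N(E′)`), `π′ ∈ A′`.  By `mgc_isIntegral_iff` the integral closure of `A′[τ]` in `L` is
`B₀[π′]`.

* `mgt_trivMod` : a semilinear automorphism `s` of `L` fixing `K` pointwise with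
  `s π′ = π′ + π′ c`, `c ∈ A′`, is trivial modulo `π′` on the chart: `AtTrivMod π′ τ s`.
-/

set_option autoImplicit false
set_option linter.unusedSectionVars false
set_option linter.unusedVariables false
set_option linter.style.haveILetI false

open Polynomial IntermediateField Fermat.Agent.INJ AlgebraicCurve ModularCurve

namespace Fermat.Agent.UNIP

section Generic

universe u

variable {A₀ E₀ K : Type u} [CommRing A₀] [IsDomain A₀] [IsDiscreteValuationRing A₀]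
  [Field E₀] [CharZero E₀] [Algebra A₀ E₀] [IsFractionRing A₀ E₀]
  [Field K] [Algebra E₀ K] [Algebra A₀ K] [IsScalarTower A₀ E₀ K]
  {A' E' L : Type*} [CommRing A'] [IsDomain A'] [Field E'] [Field L] [Algebra A' L]
  [Algebra E' L]
  [Algebra A₀ A'] [Algebra K L] [Algebra A₀ L] [IsScalarTower A₀ K L] [IsScalarTower A₀ A' L]

/-- **G3, generic form.**  `s` fixes `K` pointwise and moves `π′` by a unit `≡ 1`: then `s` is
trivial modulo `π′` on the chart of `τ` over `A′`. -/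
theorem mgt_trivMod {π : A₀} (hπ : Irreducible π) (τ : K) [FiniteDimensional E₀⟮τ⟯ K]
    (hπu : ¬ IsUnit (algebraMap A₀ (integralClosure (Algebra.adjoin A₀ {τ}) K) π))
    (hred : ∀ c : integralClosure (Algebra.adjoin A₀ {τ}) K,
      algebraMap A₀ (integralClosure (Algebra.adjoin A₀ {τ}) K) π ∣ c ^ 2 →
        algebraMap A₀ (integralClosure (Algebra.adjoin A₀ {τ}) K) π ∣ c)
    [Algebra.IsIntegral A₀ A']
    {π' : A'} (hπ'0 : π' ≠ 0) (hπ'u : ¬ IsUnit π') {e : ℕ}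
    (hram : π' ^ e ∣ algebraMap A₀ A' π)
    (g : A₀[X]) (hgm : g.Monic) (hroot : aeval π' g = 0) (hdeg : g.natDegree ≤ e)
    (htop : Algebra.adjoin K ({algebraMap A' L π'} : Set L) = ⊤)
    (s : SemilinearAut E' L)
    (hK : ∀ x : K, s • algebraMap K L x = algebraMap K L x)
    (hs : ∃ c : A', s • algebraMap A' L π' =
      algebraMap A' L π' + algebraMap A' L π' * algebraMap A' L c) :
    AtTrivMod π' (algebraMap K L τ) s := by
  intro b hb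
  have hiff := fun x : L =>
    mgc_isIntegral_iff (E₀ := E₀) (A' := A') (L := L) hπ τ hπu hred hπ'0 hπ'u hram g hgm hroot
      hdeg htop x
  have hb' := (hiff b).mp hb
  obtain ⟨c₀, hc₀⟩ := hs
  have hc₀m : algebraMap A' L c₀ ∈
      Algebra.adjoin (integralClosure (Algebra.adjoin A₀ {τ}) K)
        ({algebraMap A' L π'} : Set L) :=
    mgci_algebraMap_mem (E₀ := E₀) hπ τ hπu hred hπ'0 hπ'u hram g hgm hroot hdeg htop c₀
  obtain ⟨c, hc, hbc⟩ := mga_adjoin_tau (R := integralClosure (Algebra.adjoin A₀ {τ}) K)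
    (SemilinearAut.toRingAut s : L ≃+* L).toRingHom (algebraMap A' L π')
    (fun r => hK (r : K)) ⟨_, hc₀m, hc₀⟩ b hb'
  exact ⟨c, (hiff c).mpr hc, hbc⟩

end Generic

section Concrete

variable {E₀ : Type} [Field E₀] [CharZero E₀] {E' : Type*} [Field E'] (N : ℕ)
  {A₀ : Type} [CommRing A₀] [IsDomain A₀] [IsDiscreteValuationRing A₀]
  [Algebra A₀ E₀] [IsFractionRing A₀ E₀]
  [Algebra A₀ (modularFunctionFieldFullC E₀ N)]
  [IsScalarTower A₀ E₀ (modularFunctionFieldFullC E₀ N)]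
  {A' : Type*} [CommRing A'] [IsDomain A'] [Algebra A' (modularFunctionFieldFullC E' N)]
  [Algebra A₀ A'] [Algebra (modularFunctionFieldFullC E₀ N) (modularFunctionFieldFullC E' N)]
  [Algebra A₀ (modularFunctionFieldFullC E' N)]
  [IsScalarTower A₀ (modularFunctionFieldFullC E₀ N) (modularFunctionFieldFullC E' N)]
  [IsScalarTower A₀ A' (modularFunctionFieldFullC E' N)]

/-- **G3, modular form.**  `K = F_N(E₀)`, `L = F_N(E′)`, `K → L` the coefficient map of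
`f : E₀ →+* E′`, `A′ → L` the constants via `ιA : A′ →+* E′`.  An automorphism `s₀` of `E′` fixing
`f E₀` pointwise with `s₀ π′ = π′ + π′ c`, `c ∈ A′`, acts on `L` (coefficientwise, `mgGal N s₀`)
trivially modulo `π′` on the chart of `τ` over `A′`. -/
theorem mgt_trivMod_gal {π : A₀} (hπ : Irreducible π) (τ : modularFunctionFieldFullC E₀ N)
    [FiniteDimensional E₀⟮τ⟯ (modularFunctionFieldFullC E₀ N)]
    (hπu : ¬ IsUnit (algebraMap A₀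
      (integralClosure (Algebra.adjoin A₀ {τ}) (modularFunctionFieldFullC E₀ N)) π))
    (hred : ∀ c : integralClosure (Algebra.adjoin A₀ {τ}) (modularFunctionFieldFullC E₀ N),
      algebraMap A₀ (integralClosure (Algebra.adjoin A₀ {τ}) (modularFunctionFieldFullC E₀ N)) π
          ∣ c ^ 2 →
        algebraMap A₀ (integralClosure (Algebra.adjoin A₀ {τ}) (modularFunctionFieldFullC E₀ N))
          π ∣ c)
    [Algebra.IsIntegral A₀ A']
    {π' : A'} (hπ'0 : π' ≠ 0) (hπ'u : ¬ IsUnit π') {e : ℕ}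
    (hram : π' ^ e ∣ algebraMap A₀ A' π)
    (g : A₀[X]) (hgm : g.Monic) (hroot : aeval π' g = 0) (hdeg : g.natDegree ≤ e)
    (htop : Algebra.adjoin (modularFunctionFieldFullC E₀ N)
      ({algebraMap A' (modularFunctionFieldFullC E' N) π'} :
        Set (modularFunctionFieldFullC E' N)) = ⊤)
    (f : E₀ →+* E')
    (halgK : ∀ x : modularFunctionFieldFullC E₀ N,
      algebraMap (modularFunctionFieldFullC E₀ N) (modularFunctionFieldFullC E' N) x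
        = mgaCoeffHom f N x)
    (ιA : A' →+* E')
    (halgA : ∀ a : A', algebraMap A' (modularFunctionFieldFullC E' N) a = mgaConst E' N (ιA a))
    (s₀ : E' ≃+* E') (hs₀f : ∀ a : E₀, s₀ (f a) = f a)
    (hs₀π : ∃ c : A', s₀ (ιA π') = ιA π' + ιA π' * ιA c) :
    AtTrivMod (E := E') π'
      (algebraMap (modularFunctionFieldFullC E₀ N) (modularFunctionFieldFullC E' N) τ)
      (mgGal N s₀) := by
  refine mgt_trivMod (E₀ := E₀) (E' := E') hπ τ hπu hred hπ'0 hπ'u hram g hgm hroot hdeg htop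
    (mgGal N s₀) ?_ ?_
  · intro x
    rw [halgK]
    show mgaCoeffHom (s₀ : E' →+* E') N (mgaCoeffHom f N x) = mgaCoeffHom f N x
    rw [mgaCoeffHom_comp]
    exact mgaCoeffHom_congr (fun a => hs₀f a) N x
  · obtain ⟨c, hc⟩ := hs₀π
    refine ⟨c, ?_⟩
    rw [halgA, halgA]
    show mgRingAut N s₀ (mgaConst E' N (ιA π')) = _
    rw [mgaConst_apply, mgRingAut_algebraMap, hc, ← mgaConst_apply, map_add, map_mul]
    rfl

end Concrete

section Inertia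

variable {A : ValuationSubring NfQb} {σ : NfQb ≃ₐ[ℚ] NfQb}

/-- **Inertia moves a uniformizer of `A′ = A ∩ E′` by a unit `≡ 1`**:
`σ π′ = π′ + π′ c` with `c ∈ A′`. -/
theorem mgt_inertia_unif (hσ : σ ∈ A.inertiaSubgroupIn ℚ) (E' : IntermediateField ℚ NfQb)
    (hE' : ∀ x ∈ E', σ x ∈ E') [IsDiscreteValuationRing (beta0Ring A E')]
    {π' : beta0Ring A E'} (hπ' : Irreducible π') :
    ∃ c : beta0Ring A E',
      mgaRestrictEquiv E' σ hE' (π' : E') = (π' : E') + (π' : E') * (c : E') := by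
  have hmem : ((mgaRestrictEquiv E' σ hE' (π' : E') - (π' : E') : E') : NfQb) ∈ A.nonunits := by
    have := Fermat.Agent.S05.inertia_apply_sub_mem_nonunits hσ
      ((mem_beta0Ring (A := A) (K₀ := E') (π' : E')).mp π'.2)
    exact this
  have hmemA : (mgaRestrictEquiv E' σ hE' (π' : E') - (π' : E') : E') ∈ beta0Ring A E' :=
    (mem_beta0Ring (A := A) (K₀ := E') _).mpr (A.nonunits_subset hmem)
  have hmax : (⟨_, hmemA⟩ : beta0Ring A E') ∈ IsLocalRing.maximalIdeal (beta0Ring A E') :=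
    (beta0Ring_mem_maximalIdeal_iff (A := A) (K₀ := E') _).mpr hmem
  rw [((IsDiscreteValuationRing.irreducible_iff_uniformizer π').1 hπ'),
    Ideal.mem_span_singleton] at hmax
  obtain ⟨c, hc⟩ := hmax
  refine ⟨c, ?_⟩
  have h1 := congrArg (fun z : beta0Ring A E' => (z : E')) hc
  simp only at h1
  have h2 : mgaRestrictEquiv E' σ hE' (π' : E') - (π' : E') = (π' : E') * (c : E') := by
    rw [h1]
    rfl
  rw [← h2]
  ring

/-- the inverse of the restriction is the restriction of the inverse -/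
theorem mgt_restrict_inv (E' : IntermediateField ℚ NfQb) (hE' : ∀ x ∈ E', σ x ∈ E')
    (hE'' : ∀ x ∈ E', σ⁻¹ x ∈ E') :
    (mgaRestrictEquiv E' σ hE')⁻¹ = mgaRestrictEquiv E' σ⁻¹ hE'' := by
  apply RingEquiv.ext
  intro x
  apply Subtype.ext
  show (((mgaRestrictEquiv E' σ hE').symm x : E') : NfQb) = σ⁻¹ (x : NfQb)
  rw [mgaRestrictEquiv_symm_coe]
  rfl

theorem mgt_stable_inv (E' : IntermediateField ℚ NfQb) (hE' : ∀ x ∈ E', σ x ∈ E') :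
    ∀ x ∈ E', σ⁻¹ x ∈ E' := mga_stable_symm E' σ hE'

end Inertia

end Fermat.Agent.UNIP


end ZBUNIP_039_0

/-! ### bundled: `Fermat.Agent.RT.K6.FixU` -/
section ZBUNIP_039_1
/-
K-machine, piece K6, piece **FIX-U** (helper49): the hypotheses `Rtk6emFixAt`, `Rtk6emCongAt` of
E-MAIN (`RT/K6/EMain.lean`) for `g = Φ = σ̂ = rtk6diGal σ`, `σ` in the inertia group of `A`, at
EVERY closed point of the special fibre of the two charts of `F′ = rtk6diF A K₁ L M H` over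
`A′ = mgcA A K₁`.

Input: the (D-BC) datum of the chart `B′_u = zchClosure {u}` (`u = t` or `t⁻¹`): a ring `R` (the
chart over the unramified base), `j : R →+* B′_u` with `B′_u = j R + π′ B′_u`
(`MgcRamified.decomp`), such that `j` is coefficientwise, `(j b : F′) = rtk6diCoeffHom f (ι b)`,
for a ring homomorphism `f : E₀ →+* E′` whose image is fixed by `σ` (`E₀ = ℚ̄^I`).

Then `σ̂` fixes `j R` pointwise and `σ̂ π′ = π′ (1 + c)`, so `σ̂ b − b ∈ π′ B′_u ⊆ 𝔫` for every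
`b ∈ B′_u` and every closed point `𝔫 ∋ π′`.

* `rtk6fxu_trivMod_abs`   : abstract, `AtTrivMod π u s` from the decomposition;
* `rtk6fxu_cong_of_trivMod`, `rtk6fxu_fix_of_trivMod` : `AtTrivMod` ⇒ `Rtk6ewCong … 1 𝔫`,
  `Rtk6ewFix g 𝔫` at every closed point `𝔫`;
* `rtk6fxu_gal_inv`       : `(rtk6diGal σ)⁻¹ = rtk6diGal σ⁻¹`;
* `rtk6fxu_trivMod_gal`   : `AtTrivMod π′ u (rtk6diGal σ)` from the (D-BC) datum;
* `rtk6fxu_fixAt`, `rtk6fxu_congAt` : **`Rtk6emFixAt`, `Rtk6emCongAt`** for `g = rtk6diGal σ`;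
* `rtk6fxu_fixAt_ramified`, `rtk6fxu_congAt_ramified` : the same from `MgcRamified j π′ p`.
-/

set_option autoImplicit false
set_option linter.style.haveILetI false
set_option linter.unusedSectionVars false
set_option linter.unusedVariables false
set_option linter.style.longLine false

noncomputable section

namespace Fermat.Agent.RT.K6

open ModularCurve AlgebraicCurve Fermat.Agent.ES Fermat.Agent.ES.G2 Fermat.Agent.INJ
open Fermat.Agent.UNIP Fermat.Agent.STB Fermat.Agent.ES1 Fermat.Agent.ES1.G2 IntermediateField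

/-! ### Abstract -/

section Abs

variable {A₀ E F : Type*} [CommRing A₀] [IsDomain A₀] [IsDiscreteValuationRing A₀]
  [Field E] [Algebra A₀ E] [IsFractionRing A₀ E] [CharZero E]
  [Field F] [Algebra E F] [Algebra A₀ F] [IsScalarTower A₀ E F]
  {π : A₀}

/-- **FIX-U, abstract.**  If `B_u = j R + π B_u`, `s` fixes `j R` pointwise, preserves `B_u` and
`s π = π ε` with `ε ∈ B_u`, then `s` is trivial modulo `π` on the chart `u`. -/
theorem rtk6fxu_trivMod_abs (s : SemilinearAut E F) {u : F}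
    (hsB : ∀ b : F, IsIntegral ↥(Algebra.adjoin A₀ ({u} : Set F)) b →
      IsIntegral ↥(Algebra.adjoin A₀ ({u} : Set F)) (s • b))
    (hsπ : ∃ ε : F, IsIntegral ↥(Algebra.adjoin A₀ ({u} : Set F)) ε ∧
      s • algebraMap A₀ F π = algebraMap A₀ F π * ε)
    {R : Type*} [CommRing R] (j : R →+* ↥(zchClosure (A₀ := A₀) ({u} : Set F)))
    (hdec : ∀ x : ↥(zchClosure (A₀ := A₀) ({u} : Set F)),
      ∃ (c : R) (z : ↥(zchClosure (A₀ := A₀) ({u} : Set F))),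
        x = j c + algebraMap A₀ ↥(zchClosure (A₀ := A₀) ({u} : Set F)) π * z)
    (hfix : ∀ c : R, s • ((j c : ↥(zchClosure (A₀ := A₀) ({u} : Set F))) : F) =
      ((j c : ↥(zchClosure (A₀ := A₀) ({u} : Set F))) : F)) :
    AtTrivMod π u s := by
  intro b hb
  obtain ⟨c, z, hx⟩ := hdec ⟨b, mem_zchClosure.mpr hb⟩
  obtain ⟨ε, hε, hsε⟩ := hsπ
  have hb' : b = ((j c : ↥(zchClosure (A₀ := A₀) ({u} : Set F))) : F) +
      algebraMap A₀ F π * (z : F) := by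
    have h := congrArg (fun y : ↥(zchClosure (A₀ := A₀) ({u} : Set F)) => (y : F)) hx
    exact h
  have hz : IsIntegral ↥(Algebra.adjoin A₀ ({u} : Set F)) (z : F) := mem_zchClosure.mp z.2
  refine ⟨ε * s • (z : F) - (z : F), ?_, ?_⟩
  · exact mem_zchClosure.mp ((zchClosure (A₀ := A₀) ({u} : Set F)).sub_mem
      ((zchClosure (A₀ := A₀) ({u} : Set F)).mul_mem (mem_zchClosure.mpr hε)
        (mem_zchClosure.mpr (hsB _ hz))) z.2)
  · rw [hb', smul_add, smul_mul', hfix, hsε]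
    ring

/-- `AtTrivMod` gives the congruence `Φ b ≡ b` at every closed point of the special fibre. -/
theorem rtk6fxu_cong_of_trivMod {s : SemilinearAut E F} {u : F} (h : AtTrivMod π u s)
    (𝔫 : AtPt (F := F) π u) :
    Rtk6ewCong (SemilinearAut.toRingAut s : F ≃+* F).toRingHom 1 𝔫 := by
  intro b
  obtain ⟨c, hc, hbc⟩ := h (b : F) (mem_zchClosure.mp b.2)
  refine ⟨algebraMap A₀ ↥(zchClosure (A₀ := A₀) ({u} : Set F)) π * ⟨c, mem_zchClosure.mpr hc⟩,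
    Ideal.mul_mem_right _ _ 𝔫.2.2, ?_⟩
  rw [pow_one]
  exact hbc

/-- `AtTrivMod` for `g` and `g⁻¹` gives `g 𝔫 = 𝔫` at every closed point of the special fibre. -/
theorem rtk6fxu_fix_of_trivMod {g : SemilinearAut E F} {u : F} (h : AtTrivMod π u g)
    (h' : AtTrivMod π u g⁻¹) (𝔫 : AtPt (F := F) π u) : Rtk6ewFix g 𝔫 := by
  have key : ∀ s : SemilinearAut E F, AtTrivMod π u s →
      ∀ b : ↥(zchClosure (A₀ := A₀) ({u} : Set F)), b ∈ 𝔫.1 →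
        ∃ b' : ↥(zchClosure (A₀ := A₀) ({u} : Set F)), b' ∈ 𝔫.1 ∧ s • (b : F) = b' := by
    intro s hs b hb
    obtain ⟨c, hc, hbc⟩ := hs (b : F) (mem_zchClosure.mp b.2)
    refine ⟨b + algebraMap A₀ ↥(zchClosure (A₀ := A₀) ({u} : Set F)) π *
      ⟨c, mem_zchClosure.mpr hc⟩, 𝔫.1.add_mem hb (Ideal.mul_mem_right _ _ 𝔫.2.2), ?_⟩
    exact hbc
  exact ⟨key g h, key g⁻¹ h'⟩

end Abs

/-! ### Concrete: `g = rtk6diGal σ`, `σ` in the inertia group -/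

section Conc

variable {A : ValuationSubring Qb} {K₁ : IntermediateField ℚ Qb}
  (L M : ℕ) (H : Subgroup (ZMod M)ˣ)

/-- `(σ̂)⁻¹ = (σ⁻¹)^` -/
theorem rtk6fxu_gal_inv (σ : Qb ≃ₐ[ℚ] Qb) (hσ : ∀ x ∈ mgcE A K₁, σ x ∈ mgcE A K₁)
    (hσ' : ∀ x ∈ mgcE A K₁, σ⁻¹ x ∈ mgcE A K₁) :
    (rtk6diGal L M H σ hσ)⁻¹ = rtk6diGal L M H σ⁻¹ hσ' := by
  have h1 : (rtk6diGalGen (K := ↥(mgcE A K₁)) L M H (mgaRestrictEquiv (mgcE A K₁) σ hσ))⁻¹ =
      rtk6diGalGen (K := ↥(mgcE A K₁)) L M H (mgaRestrictEquiv (mgcE A K₁) σ hσ)⁻¹ :=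
    (map_inv (rtk6diGalGen (K := ↥(mgcE A K₁)) L M H) _).symm
  have h2 : (mgaRestrictEquiv (mgcE A K₁) σ hσ)⁻¹ = mgaRestrictEquiv (mgcE A K₁) σ⁻¹ hσ' :=
    mgt_restrict_inv (mgcE A K₁) hσ hσ'
  exact h1.trans (congrArg (rtk6diGalGen (K := ↥(mgcE A K₁)) L M H) h2)

/-- `σ̂` fixes `t⁻¹` -/
theorem rtk6fxu_smul_T_inv (σ : Qb ≃ₐ[ℚ] Qb) (hσ : ∀ x ∈ mgcE A K₁, σ x ∈ mgcE A K₁) :
    rtk6diGal L M H σ hσ • (rtk6diT A K₁ L M H)⁻¹ = (rtk6diT A K₁ L M H)⁻¹ := by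
  have h : rtk6diGal L M H σ hσ • (rtk6diT A K₁ L M H)⁻¹ =
      (rtk6diGal L M H σ hσ • rtk6diT A K₁ L M H)⁻¹ :=
    map_inv₀ (SemilinearAut.toRingAut (rtk6diGal L M H σ hσ)) (rtk6diT A K₁ L M H)
  rw [h, rtk6di_smul_T]

variable {L M H}

/-- `σ̂` fixes the coefficientwise image of a field fixed by `σ` -/
theorem rtk6fxu_smul_coeffHom (σ : Qb ≃ₐ[ℚ] Qb) (hσ : ∀ x ∈ mgcE A K₁, σ x ∈ mgcE A K₁)
    {E₀ : Type*} [Field E₀] (f : E₀ →+* ↥(mgcE A K₁))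
    (hf : ∀ a : E₀, σ ((f a : ↥(mgcE A K₁)) : Qb) = ((f a : ↥(mgcE A K₁)) : Qb))
    (x : fieldC E₀ L M H) :
    rtk6diGal L M H σ hσ • rtk6diCoeffHom L M H f x = rtk6diCoeffHom L M H f x := by
  rw [rtk6diGal_smul]
  show rtk6diCoeffHom L M H (mgRestrict (mgcE A K₁) σ hσ) (rtk6diCoeffHom L M H f x) = _
  rw [rtk6diCoeffHom_comp]
  exact rtk6diCoeffHom_congr L M H (fun a => Subtype.ext (hf a)) x

variable [IsDiscreteValuationRing ↥(mgcA A K₁)]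

/-- `σ̂ π′ = π′ ε`, `ε ∈ A′`, for `σ` in the inertia group -/
theorem rtk6fxu_smul_unif {σ : Qb ≃ₐ[ℚ] Qb} (hσI : σ ∈ A.inertiaSubgroupIn ℚ)
    (hσ : ∀ x ∈ mgcE A K₁, σ x ∈ mgcE A K₁) {π : ↥(mgcA A K₁)} (hπ : Irreducible π) :
    ∃ ε : ↥(mgcA A K₁), rtk6diGal L M H σ hσ •
        algebraMap ↥(mgcA A K₁) ↥(rtk6diF A K₁ L M H) π =
      algebraMap ↥(mgcA A K₁) ↥(rtk6diF A K₁ L M H) π *
        algebraMap ↥(mgcA A K₁) ↥(rtk6diF A K₁ L M H) ε := by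
  obtain ⟨c, hc⟩ := mgt_inertia_unif hσI (mgcE A K₁) hσ hπ
  refine ⟨1 + c, ?_⟩
  rw [rtk6diGal_smul]
  have h1 := rtk6diAct_algebraMap L M H σ hσ (π : ↥(mgcE A K₁))
  have e : mgRestrict (mgcE A K₁) σ hσ (π : ↥(mgcE A K₁)) =
      (π : ↥(mgcE A K₁)) * ((1 + c : ↥(mgcA A K₁)) : ↥(mgcE A K₁)) := by
    have h2 : mgRestrict (mgcE A K₁) σ hσ (π : ↥(mgcE A K₁)) =
        (π : ↥(mgcE A K₁)) + (π : ↥(mgcE A K₁)) * (c : ↥(mgcE A K₁)) := hc
    rw [h2]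
    push_cast
    ring
  rw [e, map_mul] at h1
  exact h1

/-- **FIX-U**: `σ̂` is trivial modulo `π′` on the chart `u` (`u = t` or `u = t⁻¹`), from the
(D-BC) datum `B′_u = j R + π′ B′_u`, `j` coefficientwise over a field fixed by `σ`. -/
theorem rtk6fxu_trivMod_gal {σ : Qb ≃ₐ[ℚ] Qb} (hσI : σ ∈ A.inertiaSubgroupIn ℚ)
    (hσ : ∀ x ∈ mgcE A K₁, σ x ∈ mgcE A K₁) {π : ↥(mgcA A K₁)} (hπ : Irreducible π)
    {u : ↥(rtk6diF A K₁ L M H)}
    (hu : u = rtk6diT A K₁ L M H ∨ u = (rtk6diT A K₁ L M H)⁻¹)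
    {E₀ : Type*} [Field E₀] (f : E₀ →+* ↥(mgcE A K₁))
    (hf : ∀ a : E₀, σ ((f a : ↥(mgcE A K₁)) : Qb) = ((f a : ↥(mgcE A K₁)) : Qb))
    {R : Type*} [CommRing R] (ι : R → fieldC E₀ L M H)
    (j : R →+* ↥(zchClosure (A₀ := ↥(mgcA A K₁)) ({u} : Set ↥(rtk6diF A K₁ L M H))))
    (hj : ∀ b : R, ((j b : ↥(zchClosure (A₀ := ↥(mgcA A K₁))
        ({u} : Set ↥(rtk6diF A K₁ L M H)))) : ↥(rtk6diF A K₁ L M H)) =
      rtk6diCoeffHom L M H f (ι b))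
    (hdec : ∀ x : ↥(zchClosure (A₀ := ↥(mgcA A K₁)) ({u} : Set ↥(rtk6diF A K₁ L M H))),
      ∃ (c : R) (z : ↥(zchClosure (A₀ := ↥(mgcA A K₁)) ({u} : Set ↥(rtk6diF A K₁ L M H)))),
        x = j c + algebraMap ↥(mgcA A K₁) ↥(zchClosure (A₀ := ↥(mgcA A K₁))
          ({u} : Set ↥(rtk6diF A K₁ L M H))) π * z) :
    AtTrivMod π u (rtk6diGal L M H σ hσ) := by
  have hσD : σ ∈ A.decompositionSubgroup ℚ := kron_mem_decomposition_of_mem_inertia hσI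
  have hgu : rtk6diGal L M H σ hσ • u = u := by
    rcases hu with rfl | rfl
    · exact rtk6di_smul_T L M H σ hσ
    · exact rtk6fxu_smul_T_inv L M H σ hσ
  obtain ⟨ε, hε⟩ := rtk6fxu_smul_unif (L := L) (M := M) (H := H) hσI hσ hπ
  refine rtk6fxu_trivMod_abs (rtk6diGal L M H σ hσ)
    (fun b hb => stb_mt_isIntegral_smul (rtk6diGal L M H σ hσ) hgu
      (rtk6dv_hgA L M H hσD hσ) hb)
    ⟨algebraMap ↥(mgcA A K₁) ↥(rtk6diF A K₁ L M H) ε,
      mem_zchClosure.mp ((zchClosure (A₀ := ↥(mgcA A K₁))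
        ({u} : Set ↥(rtk6diF A K₁ L M H))).algebraMap_mem ε), hε⟩
    j hdec (fun c => ?_)
  rw [hj]
  exact rtk6fxu_smul_coeffHom σ hσ f hf (ι c)

/-- the inverse of an element of the inertia group -/
theorem rtk6fxu_inv_mem {σ : Qb ≃ₐ[ℚ] Qb} (hσI : σ ∈ A.inertiaSubgroupIn ℚ) :
    σ⁻¹ ∈ A.inertiaSubgroupIn ℚ := inv_mem hσI

/-- **FIX-U, `hcong`**: `Rtk6emCongAt` for `Φ = σ̂` (at EVERY closed point). -/
theorem rtk6fxu_congAt {σ : Qb ≃ₐ[ℚ] Qb} (hσI : σ ∈ A.inertiaSubgroupIn ℚ)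
    (hσ : ∀ x ∈ mgcE A K₁, σ x ∈ mgcE A K₁) {π : ↥(mgcA A K₁)} (hπ : Irreducible π)
    {κ : Type} (V : κ → ValuationSubring ↥(rtk6diF A K₁ L M H))
    {u : ↥(rtk6diF A K₁ L M H)}
    (hu : u = rtk6diT A K₁ L M H ∨ u = (rtk6diT A K₁ L M H)⁻¹)
    {E₀ : Type*} [Field E₀] (f : E₀ →+* ↥(mgcE A K₁))
    (hf : ∀ a : E₀, σ ((f a : ↥(mgcE A K₁)) : Qb) = ((f a : ↥(mgcE A K₁)) : Qb))
    {R : Type*} [CommRing R] (ι : R → fieldC E₀ L M H)
    (j : R →+* ↥(zchClosure (A₀ := ↥(mgcA A K₁)) ({u} : Set ↥(rtk6diF A K₁ L M H))))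
    (hj : ∀ b : R, ((j b : ↥(zchClosure (A₀ := ↥(mgcA A K₁))
        ({u} : Set ↥(rtk6diF A K₁ L M H)))) : ↥(rtk6diF A K₁ L M H)) =
      rtk6diCoeffHom L M H f (ι b))
    (hdec : ∀ x : ↥(zchClosure (A₀ := ↥(mgcA A K₁)) ({u} : Set ↥(rtk6diF A K₁ L M H))),
      ∃ (c : R) (z : ↥(zchClosure (A₀ := ↥(mgcA A K₁)) ({u} : Set ↥(rtk6diF A K₁ L M H)))),
        x = j c + algebraMap ↥(mgcA A K₁) ↥(zchClosure (A₀ := ↥(mgcA A K₁))
          ({u} : Set ↥(rtk6diF A K₁ L M H))) π * z) :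
    Rtk6emCongAt A K₁ L M H π V (rtk6diGal L M H σ hσ) u :=
  fun 𝔫 _ _ _ _ _ =>
    rtk6fxu_cong_of_trivMod (rtk6fxu_trivMod_gal hσI hσ hπ hu f hf ι j hj hdec) 𝔫

/-- **FIX-U, `hfix`**: `Rtk6emFixAt` for `g = σ̂` (at EVERY closed point). -/
theorem rtk6fxu_fixAt {σ : Qb ≃ₐ[ℚ] Qb} (hσI : σ ∈ A.inertiaSubgroupIn ℚ)
    (hσ : ∀ x ∈ mgcE A K₁, σ x ∈ mgcE A K₁) {π : ↥(mgcA A K₁)} (hπ : Irreducible π)
    {κ : Type} (V : κ → ValuationSubring ↥(rtk6diF A K₁ L M H))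
    {u : ↥(rtk6diF A K₁ L M H)}
    (hu : u = rtk6diT A K₁ L M H ∨ u = (rtk6diT A K₁ L M H)⁻¹)
    {E₀ : Type*} [Field E₀] (f : E₀ →+* ↥(mgcE A K₁))
    (hf : ∀ a : E₀, σ ((f a : ↥(mgcE A K₁)) : Qb) = ((f a : ↥(mgcE A K₁)) : Qb))
    {R : Type*} [CommRing R] (ι : R → fieldC E₀ L M H)
    (j : R →+* ↥(zchClosure (A₀ := ↥(mgcA A K₁)) ({u} : Set ↥(rtk6diF A K₁ L M H))))
    (hj : ∀ b : R, ((j b : ↥(zchClosure (A₀ := ↥(mgcA A K₁))
        ({u} : Set ↥(rtk6diF A K₁ L M H)))) : ↥(rtk6diF A K₁ L M H)) =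
      rtk6diCoeffHom L M H f (ι b))
    (hdec : ∀ x : ↥(zchClosure (A₀ := ↥(mgcA A K₁)) ({u} : Set ↥(rtk6diF A K₁ L M H))),
      ∃ (c : R) (z : ↥(zchClosure (A₀ := ↥(mgcA A K₁)) ({u} : Set ↥(rtk6diF A K₁ L M H)))),
        x = j c + algebraMap ↥(mgcA A K₁) ↥(zchClosure (A₀ := ↥(mgcA A K₁))
          ({u} : Set ↥(rtk6diF A K₁ L M H))) π * z) :
    Rtk6emFixAt A K₁ L M H π V (rtk6diGal L M H σ hσ) u := by
  intro 𝔫 _ _ _ _ _
  have hσ' : ∀ x ∈ mgcE A K₁, σ⁻¹ x ∈ mgcE A K₁ := mgt_stable_inv (mgcE A K₁) hσ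
  have hf' : ∀ a : E₀, σ⁻¹ ((f a : ↥(mgcE A K₁)) : Qb) = ((f a : ↥(mgcE A K₁)) : Qb) := by
    intro a
    have h : σ.symm (σ ((f a : ↥(mgcE A K₁)) : Qb)) = σ.symm ((f a : ↥(mgcE A K₁)) : Qb) :=
      congrArg σ.symm (hf a)
    rw [AlgEquiv.symm_apply_apply] at h
    exact h.symm
  refine rtk6fxu_fix_of_trivMod (rtk6fxu_trivMod_gal hσI hσ hπ hu f hf ι j hj hdec) ?_ 𝔫
  rw [rtk6fxu_gal_inv L M H σ hσ hσ']
  exact rtk6fxu_trivMod_gal (rtk6fxu_inv_mem hσI) hσ' hπ hu f hf' ι j hj hdec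

/-- **FIX-U, `hcong`**, from `MgcRamified j π′ p` (the output of (D-BC)). -/
theorem rtk6fxu_congAt_ramified {σ : Qb ≃ₐ[ℚ] Qb} (hσI : σ ∈ A.inertiaSubgroupIn ℚ)
    (hσ : ∀ x ∈ mgcE A K₁, σ x ∈ mgcE A K₁) {π : ↥(mgcA A K₁)} (hπ : Irreducible π)
    {κ : Type} (V : κ → ValuationSubring ↥(rtk6diF A K₁ L M H))
    {u : ↥(rtk6diF A K₁ L M H)}
    (hu : u = rtk6diT A K₁ L M H ∨ u = (rtk6diT A K₁ L M H)⁻¹)
    {E₀ : Type*} [Field E₀] (f : E₀ →+* ↥(mgcE A K₁))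
    (hf : ∀ a : E₀, σ ((f a : ↥(mgcE A K₁)) : Qb) = ((f a : ↥(mgcE A K₁)) : Qb))
    {R : Type*} [CommRing R] (ι : R → fieldC E₀ L M H)
    (j : R →+* ↥(zchClosure (A₀ := ↥(mgcA A K₁)) ({u} : Set ↥(rtk6diF A K₁ L M H))))
    (hj : ∀ b : R, ((j b : ↥(zchClosure (A₀ := ↥(mgcA A K₁))
        ({u} : Set ↥(rtk6diF A K₁ L M H)))) : ↥(rtk6diF A K₁ L M H)) =
      rtk6diCoeffHom L M H f (ι b))
    (p : R)
    (hram : MgcRamified j (algebraMap ↥(mgcA A K₁) ↥(zchClosure (A₀ := ↥(mgcA A K₁))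
      ({u} : Set ↥(rtk6diF A K₁ L M H))) π) p) :
    Rtk6emCongAt A K₁ L M H π V (rtk6diGal L M H σ hσ) u :=
  rtk6fxu_congAt hσI hσ hπ V hu f hf ι j hj hram.decomp

/-- **FIX-U, `hfix`**, from `MgcRamified j π′ p` (the output of (D-BC)). -/
theorem rtk6fxu_fixAt_ramified {σ : Qb ≃ₐ[ℚ] Qb} (hσI : σ ∈ A.inertiaSubgroupIn ℚ)
    (hσ : ∀ x ∈ mgcE A K₁, σ x ∈ mgcE A K₁) {π : ↥(mgcA A K₁)} (hπ : Irreducible π)
    {κ : Type} (V : κ → ValuationSubring ↥(rtk6diF A K₁ L M H))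
    {u : ↥(rtk6diF A K₁ L M H)}
    (hu : u = rtk6diT A K₁ L M H ∨ u = (rtk6diT A K₁ L M H)⁻¹)
    {E₀ : Type*} [Field E₀] (f : E₀ →+* ↥(mgcE A K₁))
    (hf : ∀ a : E₀, σ ((f a : ↥(mgcE A K₁)) : Qb) = ((f a : ↥(mgcE A K₁)) : Qb))
    {R : Type*} [CommRing R] (ι : R → fieldC E₀ L M H)
    (j : R →+* ↥(zchClosure (A₀ := ↥(mgcA A K₁)) ({u} : Set ↥(rtk6diF A K₁ L M H))))
    (hj : ∀ b : R, ((j b : ↥(zchClosure (A₀ := ↥(mgcA A K₁))
        ({u} : Set ↥(rtk6diF A K₁ L M H)))) : ↥(rtk6diF A K₁ L M H)) =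
      rtk6diCoeffHom L M H f (ι b))
    (p : R)
    (hram : MgcRamified j (algebraMap ↥(mgcA A K₁) ↥(zchClosure (A₀ := ↥(mgcA A K₁))
      ({u} : Set ↥(rtk6diF A K₁ L M H))) π) p) :
    Rtk6emFixAt A K₁ L M H π V (rtk6diGal L M H σ hσ) u :=
  rtk6fxu_fixAt hσI hσ hπ V hu f hf ι j hj hram.decomp

end Conc

/-! ### The field fixed by inertia -/

section Fixed

variable {A : ValuationSubring Qb}

/-- the inertia group fixes `ℚ̄^I` pointwise -/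
theorem rtk6fxu_fix_beta0 {σ : Qb ≃ₐ[ℚ] Qb} (hσI : σ ∈ A.inertiaSubgroupIn ℚ)
    {x : Qb} (hx : x ∈ beta0Field A) : σ x = x :=
  mem_beta0Field.mp hx σ hσI

/-- `mgcE A ⊥ = ℚ̄^I` -/
theorem rtk6fxu_mgcE_bot : mgcE A ⊥ = beta0Field A := sup_bot_eq _

/-- the inertia group fixes `mgcE A K₁′` pointwise if `K₁′ ≤ ℚ̄^I` -/
theorem rtk6fxu_fix_mgcE {σ : Qb ≃ₐ[ℚ] Qb} (hσI : σ ∈ A.inertiaSubgroupIn ℚ)
    {K₁' : IntermediateField ℚ Qb} (hK : K₁' ≤ beta0Field A) (a : ↥(mgcE A K₁')) :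
    σ (a : Qb) = (a : Qb) := by
  have hle : beta0Field A ⊔ K₁' ≤ beta0Field A := sup_le (le_refl (beta0Field A)) hK
  have ha : (a : Qb) ∈ beta0Field A ⊔ K₁' := a.2
  exact rtk6fxu_fix_beta0 hσI (hle ha)

/-- the inertia group fixes `mgcE A ⊥` pointwise -/
theorem rtk6fxu_fix_mgcE_bot {σ : Qb ≃ₐ[ℚ] Qb} (hσI : σ ∈ A.inertiaSubgroupIn ℚ)
    (a : ↥(mgcE A ⊥)) : σ (a : Qb) = (a : Qb) :=
  rtk6fxu_fix_mgcE hσI bot_le a

/-- the hypothesis `hf` of `rtk6fxu_fixAt` for the inclusion `mgcE A K₁′ → mgcE A K₁`,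
`K₁′ ≤ ℚ̄^I` -/
theorem rtk6fxu_hf_inclusion {σ : Qb ≃ₐ[ℚ] Qb} (hσI : σ ∈ A.inertiaSubgroupIn ℚ)
    {K₁' K₁ : IntermediateField ℚ Qb} (hK : K₁' ≤ beta0Field A)
    (h : mgcE A K₁' ≤ mgcE A K₁) (a : ↥(mgcE A K₁')) :
    σ (((IntermediateField.inclusion h).toRingHom a : ↥(mgcE A K₁)) : Qb) =
      (((IntermediateField.inclusion h).toRingHom a : ↥(mgcE A K₁)) : Qb) := by
  have e : (((IntermediateField.inclusion h).toRingHom a : ↥(mgcE A K₁)) : Qb) = (a : Qb) := by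
    rw [AlgHom.toRingHom_eq_coe, RingHom.coe_coe, IntermediateField.coe_inclusion]
  rw [e]
  exact rtk6fxu_fix_mgcE hσI hK a

end Fixed

end Fermat.Agent.RT.K6

end
end ZBUNIP_039_1
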