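/- GENERATED FILE (helper35, build-time optimisation, NOTES/ZB.md): verbatim concatenation of the modules
   Fermat.Agent.RT.K6.EInstGlue
   Fermat.Agent.RT.K6.C4InstBEv
   Fermat.Agent.RT.K6.FixUInst
   Do not edit; do not import together with these modules. -/
import Fermat.Agent.ZB.RT_032
import Fermat.Agent.ZB.RT_066
import Fermat.Agent.ZB.RT_069
import Fermat.Agent.ZB.UNIP_039

/-! ### bundled: `Fermat.Agent.RT.K6.EInstGlue` -/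
section ZBRT_070_0
/-
K-machine, piece K6, piece **E-INST** (helper18), part 3: the GLUE of the open geometric
statements `StmtRtk6GeomUnip`, `StmtRtk6GeomChi` (`RT/K6/EInstRig.lean`) from SEPARATE providers
(each with its own number field `K₀`).

At a level `(q, M₁, M, H)`, for `w₀`, `A`:

* `Rtk6eiEv hq hqM' hM0 w₀ hw₀ A P` : the property `P K₁ hζ hπ` of `(K₁, hζ, π)` holds for all
  Galois number fields `K₁` containing a suitable number field `K₀` (with `A ∩ E′` a DVR), all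
  `hζ : μ_q ⊆ E′` and all uniformizers `π`;
* `Rtk6eiEv.and`, `Rtk6eiEv.mono` : conjunction (compositum of the `K₀`), monotonicity;
* `rtk6ei_geomUnip_of_pieces` : `StmtRtk6GeomUnip` from the three providers (SS1-inst), (C4-U),
  (FIX-U);
* `rtk6ei_geomChi_of_pieces`  : `StmtRtk6GeomChi` from the four providers (HSTAB), (SS1-inst),
  (C4), (FIX-X).
-/

set_option autoImplicit false
set_option linter.style.haveILetI false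
set_option linter.unusedSectionVars false
set_option linter.unusedVariables false

noncomputable section

namespace Fermat.Agent.RT.K6

open ModularCurve AlgebraicCurve Fermat.Agent.ES Fermat.Agent.ES.G2 Fermat.Agent.INJ
open Fermat.Agent.UNIP Fermat.Agent.STB Fermat.Agent.ES1 Fermat.Agent.ES1.G2 IntermediateField

section Ev

variable (q : ℕ) (A : ValuationSubring Qb)

/-- **"for all sufficiently large `K₁`"**: the property `P` of `(K₁, hζ, π)` holds for all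
Galois number fields `K₁ ⊇ K₀` with `A ∩ E′` a discrete valuation ring, `μ_q ⊆ E′`, and all
uniformizers `π` of `A ∩ E′`. -/
def Rtk6eiEv
    (P : ∀ (K₁ : IntermediateField ℚ Qb) [IsDiscreteValuationRing ↥(mgcA A K₁)],
      (∀ ζ : Qb, ζ ^ q = 1 → ζ ∈ mgcE A K₁) → ∀ {π : ↥(mgcA A K₁)}, Irreducible π → Prop) :
    Prop :=
  ∃ K₀ : IntermediateField ℚ Qb, FiniteDimensional ℚ K₀ ∧
    ∀ (K₁ : IntermediateField ℚ Qb) [NumberField K₁] [IsGalois ℚ K₁]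
      [IsDiscreteValuationRing ↥(mgcA A K₁)], K₀ ≤ K₁ →
      ∀ (hζ : ∀ ζ : Qb, ζ ^ q = 1 → ζ ∈ mgcE A K₁) {π : ↥(mgcA A K₁)} (hπ : Irreducible π),
        P K₁ hζ hπ

variable {q A}

theorem Rtk6eiEv.mono
    {P Q : ∀ (K₁ : IntermediateField ℚ Qb) [IsDiscreteValuationRing ↥(mgcA A K₁)],
      (∀ ζ : Qb, ζ ^ q = 1 → ζ ∈ mgcE A K₁) → ∀ {π : ↥(mgcA A K₁)}, Irreducible π → Prop}
    (h : Rtk6eiEv q A P)
    (hPQ : ∀ (K₁ : IntermediateField ℚ Qb) [IsDiscreteValuationRing ↥(mgcA A K₁)]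
      (hζ : ∀ ζ : Qb, ζ ^ q = 1 → ζ ∈ mgcE A K₁) {π : ↥(mgcA A K₁)} (hπ : Irreducible π),
      P K₁ hζ hπ → Q K₁ hζ hπ) : Rtk6eiEv q A Q := by
  obtain ⟨K₀, hfin, hK₀⟩ := h
  exact ⟨K₀, hfin, fun K₁ _ _ _ hK hζ π hπ => hPQ K₁ hζ hπ (hK₀ K₁ hK hζ hπ)⟩

theorem Rtk6eiEv.and
    {P Q : ∀ (K₁ : IntermediateField ℚ Qb) [IsDiscreteValuationRing ↥(mgcA A K₁)],
      (∀ ζ : Qb, ζ ^ q = 1 → ζ ∈ mgcE A K₁) → ∀ {π : ↥(mgcA A K₁)}, Irreducible π → Prop}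
    (hP : Rtk6eiEv q A P) (hQ : Rtk6eiEv q A Q) :
    Rtk6eiEv q A (fun K₁ _ hζ _ hπ => P K₁ hζ hπ ∧ Q K₁ hζ hπ) := by
  obtain ⟨K₀, hfin, hK₀⟩ := hP
  obtain ⟨K₀', hfin', hK₀'⟩ := hQ
  haveI := hfin
  haveI := hfin'
  refine ⟨K₀ ⊔ K₀', IntermediateField.finiteDimensional_sup K₀ K₀', ?_⟩
  intro K₁ _ _ _ hK hζ π hπ
  exact ⟨hK₀ K₁ (le_sup_left.trans hK) hζ hπ, hK₀' K₁ (le_sup_right.trans hK) hζ hπ⟩

end Ev

/-! ### The glue -/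

/-- **`StmtRtk6GeomUnip` from separate providers**: (SS1-inst), (C4-U), (FIX-U). -/
theorem rtk6ei_geomUnip_of_pieces
    (hSS1 : ∀ (q M₁ : ℕ) [NeZero q] [NeZero M₁] [NeZero (M₁ * q)] (M : ℕ)
      (H : Subgroup (ZMod M)ˣ) (hq : q.Prime) (hqM' : q ∣ M) (hM0 : M ≠ 0), ¬ q ∣ M₁ →
      M ∣ M₁ * q → (∀ c : (ZMod M)ˣ, IsAtR M q c → c ∈ pmH H) → IsTameAt (M₁ * q) M q H →
      4 ∣ M₁ * q →
      ∀ (w₀ : fieldBar (M₁ * q) M H ≃ₐ[Qb] fieldBar (M₁ * q) M H)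
        (hw₀ : IsWAt (M₁ * q) M H q w₀) (A : ValuationSubring Qb), A.LiesOverPrime q →
        Rtk6eiEv q A (fun K₁ _ hζ π hπ => Rtk6emSS1 A K₁ (M₁ * q) M H π
          (rtk6dfV hπ M H (rtk6diwW (K₀ := mgcE A K₁) w₀ hw₀ hM0 hq hqM' hζ))))
    (hNode : ∀ (q M₁ : ℕ) [NeZero q] [NeZero M₁] [NeZero (M₁ * q)] (M : ℕ)
      (H : Subgroup (ZMod M)ˣ) (hq : q.Prime) (hqM' : q ∣ M) (hM0 : M ≠ 0), ¬ q ∣ M₁ →
      M ∣ M₁ * q → (∀ c : (ZMod M)ˣ, IsAtR M q c → c ∈ pmH H) → IsTameAt (M₁ * q) M q H →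
      4 ∣ M₁ * q →
      ∀ (w₀ : fieldBar (M₁ * q) M H ≃ₐ[Qb] fieldBar (M₁ * q) M H)
        (hw₀ : IsWAt (M₁ * q) M H q w₀) (A : ValuationSubring Qb), A.LiesOverPrime q →
        Rtk6eiEv q A (fun K₁ _ hζ π hπ => Rtk6emNode A K₁ (M₁ * q) M H π
          (rtk6dfV hπ M H (rtk6diwW (K₀ := mgcE A K₁) w₀ hw₀ hM0 hq hqM' hζ))))
    (hFix : ∀ (q M₁ : ℕ) [NeZero q] [NeZero M₁] [NeZero (M₁ * q)] (M : ℕ)
      (H : Subgroup (ZMod M)ˣ) (hq : q.Prime) (hqM' : q ∣ M) (hM0 : M ≠ 0), ¬ q ∣ M₁ →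
      M ∣ M₁ * q → (∀ c : (ZMod M)ˣ, IsAtR M q c → c ∈ pmH H) → IsTameAt (M₁ * q) M q H →
      4 ∣ M₁ * q →
      ∀ (w₀ : fieldBar (M₁ * q) M H ≃ₐ[Qb] fieldBar (M₁ * q) M H)
        (hw₀ : IsWAt (M₁ * q) M H q w₀) (A : ValuationSubring Qb), A.LiesOverPrime q →
        Rtk6eiEv q A (fun K₁ _ hζ π hπ =>
          ∀ σ ∈ A.inertiaSubgroupIn ℚ, ∀ (hσE : ∀ x ∈ mgcE A K₁, σ x ∈ mgcE A K₁)
            (u : ↥(rtk6diF A K₁ (M₁ * q) M H)),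
            (u = rtk6diT A K₁ (M₁ * q) M H ∨ u = (rtk6diT A K₁ (M₁ * q) M H)⁻¹) →
            Rtk6emFixAt A K₁ (M₁ * q) M H π
              (rtk6dfV hπ M H (rtk6diwW (K₀ := mgcE A K₁) w₀ hw₀ hM0 hq hqM' hζ))
              (rtk6diGal (M₁ * q) M H σ hσE) u ∧
            Rtk6emCongAt A K₁ (M₁ * q) M H π
              (rtk6dfV hπ M H (rtk6diwW (K₀ := mgcE A K₁) w₀ hw₀ hM0 hq hqM' hζ))
              (rtk6diGal (M₁ * q) M H σ hσE) u)) :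
    StmtRtk6GeomUnip := by
  intro q M₁ _ _ _ M H hq hqM' hM0 hqM hML hat htame h4 w₀ hw₀ A hA
  have h1 := hSS1 q M₁ M H hq hqM' hM0 hqM hML hat htame h4 w₀ hw₀ A hA
  have h2 := hNode q M₁ M H hq hqM' hM0 hqM hML hat htame h4 w₀ hw₀ A hA
  have h3 := hFix q M₁ M H hq hqM' hM0 hqM hML hat htame h4 w₀ hw₀ A hA
  obtain ⟨K₀, hfin, hK₀⟩ := (h1.and h2).and h3
  refine ⟨K₀, hfin, fun K₁ _ _ _ hK hζ π hπ σ hσ hσE => ?_⟩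
  obtain ⟨⟨hss1, hnode⟩, hfix⟩ := hK₀ K₁ hK hζ hπ
  exact
    { ss1 := hss1
      node := hnode
      fix₁ := (hfix σ hσ hσE _ (Or.inl rfl)).1
      fix₂ := (hfix σ hσ hσE _ (Or.inr rfl)).1
      cong₁ := (hfix σ hσ hσE _ (Or.inl rfl)).2
      cong₂ := (hfix σ hσ hσE _ (Or.inr rfl)).2 }

/-- **`StmtRtk6GeomChi` from separate providers**: (HSTAB), (SS1-inst), (C4), (FIX-X). -/
theorem rtk6ei_geomChi_of_pieces
    (hStab : ∀ (q M₁ : ℕ) [NeZero q] [NeZero M₁] [NeZero (M₁ * q)] (M : ℕ)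
      (H : Subgroup (ZMod M)ˣ) (hq : q.Prime) (hqM' : q ∣ M) (hM0 : M ≠ 0), ¬ q ∣ M₁ →
      M ∣ M₁ * q → IsStarStable M q H → IsTameAt (M₁ * q) M q H → 4 ∣ M₁ * q →
      ∀ (w₀ : fieldBar (M₁ * q) M H ≃ₐ[Qb] fieldBar (M₁ * q) M H)
        (hw₀ : IsWAt (M₁ * q) M H q w₀) (A : ValuationSubring Qb), A.LiesOverPrime q →
        Rtk6eiEv q A (fun K₁ _ hζ π hπ =>
          Rtk6m4Stab hπ M H (rtk6diwW (K₀ := mgcE A K₁) w₀ hw₀ hM0 hq hqM' hζ)))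
    (hSS1 : ∀ (q M₁ : ℕ) [NeZero q] [NeZero M₁] [NeZero (M₁ * q)] (M : ℕ)
      (H : Subgroup (ZMod M)ˣ) (hq : q.Prime) (hqM' : q ∣ M) (hM0 : M ≠ 0), ¬ q ∣ M₁ →
      M ∣ M₁ * q → IsStarStable M q H → IsTameAt (M₁ * q) M q H → 4 ∣ M₁ * q →
      ∀ (w₀ : fieldBar (M₁ * q) M H ≃ₐ[Qb] fieldBar (M₁ * q) M H)
        (hw₀ : IsWAt (M₁ * q) M H q w₀) (A : ValuationSubring Qb), A.LiesOverPrime q →
        Rtk6eiEv q A (fun K₁ _ hζ π hπ => Rtk6emSS1 A K₁ (M₁ * q) M H π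
          (rtk6dfV hπ M H (rtk6diwW (K₀ := mgcE A K₁) w₀ hw₀ hM0 hq hqM' hζ))))
    (hNode : ∀ (q M₁ : ℕ) [NeZero q] [NeZero M₁] [NeZero (M₁ * q)] (M : ℕ)
      (H : Subgroup (ZMod M)ˣ) (hq : q.Prime) (hqM' : q ∣ M) (hM0 : M ≠ 0), ¬ q ∣ M₁ →
      M ∣ M₁ * q → IsStarStable M q H → IsTameAt (M₁ * q) M q H → 4 ∣ M₁ * q →
      ∀ (w₀ : fieldBar (M₁ * q) M H ≃ₐ[Qb] fieldBar (M₁ * q) M H)
        (hw₀ : IsWAt (M₁ * q) M H q w₀) (A : ValuationSubring Qb), A.LiesOverPrime q →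
        Rtk6eiEv q A (fun K₁ _ hζ π hπ => Rtk6emNode A K₁ (M₁ * q) M H π
          (rtk6dfV hπ M H (rtk6diwW (K₀ := mgcE A K₁) w₀ hw₀ hM0 hq hqM' hζ))))
    (hFix : ∀ (q M₁ : ℕ) [NeZero q] [NeZero M₁] [NeZero (M₁ * q)] (M : ℕ)
      (H : Subgroup (ZMod M)ˣ) (hq : q.Prime) (hqM' : q ∣ M) (hM0 : M ≠ 0), ¬ q ∣ M₁ →
      M ∣ M₁ * q → IsStarStable M q H → IsTameAt (M₁ * q) M q H → 4 ∣ M₁ * q →
      ∀ (w₀ : fieldBar (M₁ * q) M H ≃ₐ[Qb] fieldBar (M₁ * q) M H)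
        (hw₀ : IsWAt (M₁ * q) M H q w₀) (A : ValuationSubring Qb), A.LiesOverPrime q →
        Rtk6eiEv q A (fun K₁ _ hζ π hπ =>
          ∀ σ ∈ A.inertiaSubgroupIn ℚ, ∀ (hσE : ∀ x ∈ mgcE A K₁, σ x ∈ mgcE A K₁)
            (c' : (ZMod M)ˣ), IsAtR M q c' →
            ∀ δ₀' : ↥(rtk6diF A K₁ (M₁ * q) M H) ≃ₐ[↥(mgcE A K₁)]
                ↥(rtk6diF A K₁ (M₁ * q) M H),
              IsDiamondC ↥(mgcE A K₁) (M₁ * q) M H c' δ₀' →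
              ∀ u : ↥(rtk6diF A K₁ (M₁ * q) M H),
                (u = rtk6diT A K₁ (M₁ * q) M H ∨ u = (rtk6diT A K₁ (M₁ * q) M H)⁻¹) →
                Rtk6emFixAt A K₁ (M₁ * q) M H π
                  (rtk6dfV hπ M H (rtk6diwW (K₀ := mgcE A K₁) w₀ hw₀ hM0 hq hqM' hζ))
                  (rtk6diGal (M₁ * q) M H σ hσE) u ∧
                Rtk6emCongAt A K₁ (M₁ * q) M H π
                  (rtk6dfV hπ M H (rtk6diwW (K₀ := mgcE A K₁) w₀ hw₀ hM0 hq hqM' hζ))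
                  (SemilinearAut.ofAlgAut δ₀') u)) :
    StmtRtk6GeomChi := by
  intro q M₁ _ _ _ M H hq hqM' hM0 hqM hML hstar htame h4 w₀ hw₀ A hA
  have h0 := hStab q M₁ M H hq hqM' hM0 hqM hML hstar htame h4 w₀ hw₀ A hA
  have h1 := hSS1 q M₁ M H hq hqM' hM0 hqM hML hstar htame h4 w₀ hw₀ A hA
  have h2 := hNode q M₁ M H hq hqM' hM0 hqM hML hstar htame h4 w₀ hw₀ A hA
  have h3 := hFix q M₁ M H hq hqM' hM0 hqM hML hstar htame h4 w₀ hw₀ A hA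
  obtain ⟨K₀, hfin, hK₀⟩ := ((h0.and h1).and h2).and h3
  refine ⟨K₀, hfin, fun K₁ _ _ _ hK hζ π hπ => ?_⟩
  obtain ⟨⟨⟨hstab, hss1⟩, hnode⟩, hfix⟩ := hK₀ K₁ hK hζ hπ
  refine ⟨hstab, fun σ hσ hσE c' hc' δ₀' hδ₀' => ?_⟩
  exact
    { ss1 := hss1
      node := hnode
      fix₁ := (hfix σ hσ hσE c' hc' δ₀' hδ₀' _ (Or.inl rfl)).1
      fix₂ := (hfix σ hσ hσE c' hc' δ₀' hδ₀' _ (Or.inr rfl)).1
      cong₁ := (hfix σ hσ hσE c' hc' δ₀' hδ₀' _ (Or.inl rfl)).2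
      cong₂ := (hfix σ hσ hσE c' hc' δ₀' hδ₀' _ (Or.inr rfl)).2 }

end Fermat.Agent.RT.K6

end
end ZBRT_070_0

/-! ### bundled: `Fermat.Agent.RT.K6.C4InstBEv` -/
section ZBRT_070_1
/-
K-machine, piece K6, piece **C4-inst (B)** (helper81), provider form: the hypothesis `hNode` of
`rtk6ei_geomUnip_of_pieces` / `rtk6ei_geomChi_of_pieces` (`RT/K6/EInstGlue.lean`) —
`Rtk6emNode` at ALL Galois number fields `K₁ ⊇ K₁′` — from the data at ONE intermediate level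
`K₁′` (a Galois number field with `A ∩ E₁` a discrete valuation ring, uniformizer `ϖ₁`):

* (A)    the dichotomy `Rtk6ewmNodeAt V₁ 𝔫₁ id ϖ₁` on the two charts of `F₁` over `A₁`;
* (HRED) the special fibres of the two charts over `A₁` are reduced;
* (R2)   every component of the family at `K₁′` is the restriction of a component of the family
         at `K₁` (for every `K₁ ⊇ K₁′`).

(D-BC) is helper56's `rtk6dbc_chart_t`, `rtk6dbc_chart_tinv`; (E-BASE) helper66's `rtk6ebQ_*`;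
the transfer is `rtk6c4b_node` (`RT/K6/C4InstBNode.lean`).

* `rtk6c4b_node_of_level` : `Rtk6emNode` at one `K₁ ⊇ K₁′`, any family `w`;
* `rtk6c4b_ev` : the provider, `Rtk6eiEv q A (fun K₁ _ hζ π hπ => Rtk6emNode … (rtk6diwW …))`.
-/

set_option autoImplicit false
set_option linter.style.haveILetI false
set_option linter.unusedSectionVars false
set_option linter.unusedVariables false
set_option linter.style.longLine false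

noncomputable section

namespace Fermat.Agent.RT.K6

open ModularCurve AlgebraicCurve Fermat.Agent.ES Fermat.Agent.ES.G2 Fermat.Agent.INJ
open Fermat.Agent.UNIP Fermat.Agent.STB Fermat.Agent.ES1 Fermat.Agent.ES1.G2 IntermediateField

section Level

variable {A : ValuationSubring Qb} {K₁' K₁ : IntermediateField ℚ Qb}
  [NumberField ↥K₁'] [IsGalois ℚ ↥K₁'] [NumberField ↥K₁] [IsGalois ℚ ↥K₁]
  [IsDiscreteValuationRing ↥(mgcA A K₁')] [IsDiscreteValuationRing ↥(mgcA A K₁)]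
  {ϖ₁ : ↥(mgcA A K₁')} (hϖ₁ : Irreducible ϖ₁) {π : ↥(mgcA A K₁)} (hπ : Irreducible π)
  {q M₁ : ℕ} [NeZero q] [NeZero M₁] [NeZero (M₁ * q)] (M : ℕ) (H : Subgroup (ZMod M)ˣ)
  (w₁ : ↥(rtk6diF A K₁' (M₁ * q) M H) ≃ₐ[↥(mgcE A K₁')] ↥(rtk6diF A K₁' (M₁ * q) M H))
  (w : ↥(rtk6diF A K₁ (M₁ * q) M H) ≃ₐ[↥(mgcE A K₁)] ↥(rtk6diF A K₁ (M₁ * q) M H))

/-- **`Rtk6emNode` at `K₁ ⊇ K₁′`** from (A), (HRED) at the level `K₁′` and (R2). -/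
theorem rtk6c4b_node_of_level (hq : q.Prime) (hA : A.LiesOverPrime q) (hML : M ∣ M₁ * q)
    (h : K₁' ≤ K₁)
    (hred₁ : ∀ c : ↥(zchClosure (A₀ := ↥(mgcA A K₁'))
        ({rtk6diT A K₁' (M₁ * q) M H} : Set ↥(rtk6diF A K₁' (M₁ * q) M H))),
      algebraMap ↥(mgcA A K₁') ↥(zchClosure (A₀ := ↥(mgcA A K₁'))
        ({rtk6diT A K₁' (M₁ * q) M H} : Set ↥(rtk6diF A K₁' (M₁ * q) M H))) ϖ₁ ∣ c ^ 2 →
      algebraMap ↥(mgcA A K₁') ↥(zchClosure (A₀ := ↥(mgcA A K₁'))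
        ({rtk6diT A K₁' (M₁ * q) M H} : Set ↥(rtk6diF A K₁' (M₁ * q) M H))) ϖ₁ ∣ c)
    (hred₂ : ∀ c : ↥(zchClosure (A₀ := ↥(mgcA A K₁'))
        ({(rtk6diT A K₁' (M₁ * q) M H)⁻¹} : Set ↥(rtk6diF A K₁' (M₁ * q) M H))),
      algebraMap ↥(mgcA A K₁') ↥(zchClosure (A₀ := ↥(mgcA A K₁'))
        ({(rtk6diT A K₁' (M₁ * q) M H)⁻¹} : Set ↥(rtk6diF A K₁' (M₁ * q) M H))) ϖ₁ ∣ c ^ 2 →
      algebraMap ↥(mgcA A K₁') ↥(zchClosure (A₀ := ↥(mgcA A K₁'))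
        ({(rtk6diT A K₁' (M₁ * q) M H)⁻¹} : Set ↥(rtk6diF A K₁' (M₁ * q) M H))) ϖ₁ ∣ c)
    (hR2 : ∀ c₁ : rtk6dfK hϖ₁ M H w₁, ∃ c : rtk6dfK hπ M H w,
      ∀ x : ↥(rtk6diF A K₁' (M₁ * q) M H),
        rtk6dbcIncl (A := A) (M₁ * q) M H h x ∈ (rtk6dfV hπ M H w c).nonunits ↔
          x ∈ (rtk6dfV hϖ₁ M H w₁ c₁).nonunits)
    (hA₁ : ∀ 𝔫₁ : AtPt (F := ↥(rtk6diF A K₁' (M₁ * q) M H)) ϖ₁ (rtk6diT A K₁' (M₁ * q) M H),
      Rtk6ewmNodeAt (rtk6dfV hϖ₁ M H w₁) 𝔫₁ (RingHom.id _)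
        (algebraMap ↥(mgcA A K₁') ↥(zchClosure (A₀ := ↥(mgcA A K₁'))
          ({rtk6diT A K₁' (M₁ * q) M H} : Set ↥(rtk6diF A K₁' (M₁ * q) M H))) ϖ₁))
    (hA₂ : ∀ 𝔫₁ : AtPt (F := ↥(rtk6diF A K₁' (M₁ * q) M H)) ϖ₁
        (rtk6diT A K₁' (M₁ * q) M H)⁻¹,
      Rtk6ewmNodeAt (rtk6dfV hϖ₁ M H w₁) 𝔫₁ (RingHom.id _)
        (algebraMap ↥(mgcA A K₁') ↥(zchClosure (A₀ := ↥(mgcA A K₁'))
          ({(rtk6diT A K₁' (M₁ * q) M H)⁻¹} : Set ↥(rtk6diF A K₁' (M₁ * q) M H))) ϖ₁)) :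
    Rtk6emNode A K₁ (M₁ * q) M H π (rtk6dfV hπ M H w) :=
  rtk6c4b_node hϖ₁ hπ M H w₁ w (rtk6dbcIncl (A := A) (M₁ * q) M H h)
    (rtk6ebQ_ne_zero h hϖ₁.ne_zero) (rtk6ebQ_dvd_of_irreducible h hπ hϖ₁) hR2
    (rtk6dbc_chart_t (M₁ * q) M H hq hA h (NeZero.ne _) hML hϖ₁ hπ hred₁)
    (rtk6dbc_chart_tinv (M₁ * q) M H hq hA h (NeZero.ne _) hML hϖ₁ hπ hred₂) hA₁ hA₂

end Level

section Ev

variable {A : ValuationSubring Qb} (K₁' : IntermediateField ℚ Qb)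
  [NumberField ↥K₁'] [IsGalois ℚ ↥K₁'] [IsDiscreteValuationRing ↥(mgcA A K₁')]
  {ϖ₁ : ↥(mgcA A K₁')} (hϖ₁ : Irreducible ϖ₁)
  {q M₁ : ℕ} [NeZero q] [NeZero M₁] [NeZero (M₁ * q)] {M : ℕ} {H : Subgroup (ZMod M)ˣ}
  (w₁ : ↥(rtk6diF A K₁' (M₁ * q) M H) ≃ₐ[↥(mgcE A K₁')] ↥(rtk6diF A K₁' (M₁ * q) M H))

/-- **The provider `hNode`** of `rtk6ei_geomUnip_of_pieces` / `rtk6ei_geomChi_of_pieces` at
`(q, M₁, M, H, w₀, A)`, from the data at one level `K₁′`. -/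
theorem rtk6c4b_ev (hq : q.Prime) (hqM' : q ∣ M) (hM0 : M ≠ 0) (hML : M ∣ M₁ * q)
    (w₀ : fieldBar (M₁ * q) M H ≃ₐ[Qb] fieldBar (M₁ * q) M H) (hw₀ : IsWAt (M₁ * q) M H q w₀)
    (hA : A.LiesOverPrime q)
    (hred₁ : ∀ c : ↥(zchClosure (A₀ := ↥(mgcA A K₁'))
        ({rtk6diT A K₁' (M₁ * q) M H} : Set ↥(rtk6diF A K₁' (M₁ * q) M H))),
      algebraMap ↥(mgcA A K₁') ↥(zchClosure (A₀ := ↥(mgcA A K₁'))
        ({rtk6diT A K₁' (M₁ * q) M H} : Set ↥(rtk6diF A K₁' (M₁ * q) M H))) ϖ₁ ∣ c ^ 2 →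
      algebraMap ↥(mgcA A K₁') ↥(zchClosure (A₀ := ↥(mgcA A K₁'))
        ({rtk6diT A K₁' (M₁ * q) M H} : Set ↥(rtk6diF A K₁' (M₁ * q) M H))) ϖ₁ ∣ c)
    (hred₂ : ∀ c : ↥(zchClosure (A₀ := ↥(mgcA A K₁'))
        ({(rtk6diT A K₁' (M₁ * q) M H)⁻¹} : Set ↥(rtk6diF A K₁' (M₁ * q) M H))),
      algebraMap ↥(mgcA A K₁') ↥(zchClosure (A₀ := ↥(mgcA A K₁'))
        ({(rtk6diT A K₁' (M₁ * q) M H)⁻¹} : Set ↥(rtk6diF A K₁' (M₁ * q) M H))) ϖ₁ ∣ c ^ 2 →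
      algebraMap ↥(mgcA A K₁') ↥(zchClosure (A₀ := ↥(mgcA A K₁'))
        ({(rtk6diT A K₁' (M₁ * q) M H)⁻¹} : Set ↥(rtk6diF A K₁' (M₁ * q) M H))) ϖ₁ ∣ c)
    (hR2 : ∀ (K₁ : IntermediateField ℚ Qb) [NumberField ↥K₁] [IsGalois ℚ ↥K₁]
      [IsDiscreteValuationRing ↥(mgcA A K₁)] (h : K₁' ≤ K₁)
      (hζ : ∀ ζ : Qb, ζ ^ q = 1 → ζ ∈ mgcE A K₁) {π : ↥(mgcA A K₁)} (hπ : Irreducible π),
      ∀ c₁ : rtk6dfK hϖ₁ M H w₁,
        ∃ c : rtk6dfK hπ M H (rtk6diwW (K₀ := mgcE A K₁) w₀ hw₀ hM0 hq hqM' hζ),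
          ∀ x : ↥(rtk6diF A K₁' (M₁ * q) M H),
            rtk6dbcIncl (A := A) (M₁ * q) M H h x ∈
                (rtk6dfV hπ M H (rtk6diwW (K₀ := mgcE A K₁) w₀ hw₀ hM0 hq hqM' hζ) c).nonunits ↔
              x ∈ (rtk6dfV hϖ₁ M H w₁ c₁).nonunits)
    (hA₁ : ∀ 𝔫₁ : AtPt (F := ↥(rtk6diF A K₁' (M₁ * q) M H)) ϖ₁ (rtk6diT A K₁' (M₁ * q) M H),
      Rtk6ewmNodeAt (rtk6dfV hϖ₁ M H w₁) 𝔫₁ (RingHom.id _)
        (algebraMap ↥(mgcA A K₁') ↥(zchClosure (A₀ := ↥(mgcA A K₁'))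
          ({rtk6diT A K₁' (M₁ * q) M H} : Set ↥(rtk6diF A K₁' (M₁ * q) M H))) ϖ₁))
    (hA₂ : ∀ 𝔫₁ : AtPt (F := ↥(rtk6diF A K₁' (M₁ * q) M H)) ϖ₁
        (rtk6diT A K₁' (M₁ * q) M H)⁻¹,
      Rtk6ewmNodeAt (rtk6dfV hϖ₁ M H w₁) 𝔫₁ (RingHom.id _)
        (algebraMap ↥(mgcA A K₁') ↥(zchClosure (A₀ := ↥(mgcA A K₁'))
          ({(rtk6diT A K₁' (M₁ * q) M H)⁻¹} : Set ↥(rtk6diF A K₁' (M₁ * q) M H))) ϖ₁)) :
    Rtk6eiEv q A (fun K₁ _ hζ π hπ => Rtk6emNode A K₁ (M₁ * q) M H π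
      (rtk6dfV hπ M H (rtk6diwW (K₀ := mgcE A K₁) w₀ hw₀ hM0 hq hqM' hζ))) :=
  ⟨K₁', inferInstance, fun K₁ _ _ _ hK hζ π hπ =>
    rtk6c4b_node_of_level hϖ₁ hπ M H w₁ _ hq hA hML hK hred₁ hred₂ (hR2 K₁ hK hζ hπ) hA₁ hA₂⟩

end Ev

end Fermat.Agent.RT.K6

end
end ZBRT_070_1

/-! ### bundled: `Fermat.Agent.RT.K6.FixUInst` -/
section ZBRT_070_2
/-
K-machine, piece K6, piece **FIX-U** (helper49), part 2: the provider `hFix` of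
`rtk6ei_geomUnip_of_pieces` (`RT/K6/EInstGlue.lean`) from a provider of the (D-BC) datum.

* `Rtk6fxuDbc A K₁ L M H π u` : the (D-BC) datum of the chart `B′_u = zchClosure {u}` of
  `F′ = rtk6diF A K₁ L M H` over `A′ = mgcA A K₁`: a field `E₀` with `f : E₀ →+* E′`,
  `f E₀ ⊆ ℚ̄^I`, a ring `R` with `ι : R → fieldC E₀ L M H` and `j : R →+* B′_u` coefficientwise
  (`(j b : F′) = rtk6diCoeffHom f (ι b)`) such that `B′_u = j R + π B′_u`;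
* `rtk6fxu_dbc_of_ramified` : the datum from `MgcRamified j π p`;
* `rtk6fxu_of_dbc` : the datum gives `Rtk6emFixAt ∧ Rtk6emCongAt` for `g = Φ = σ̂`, `σ` in the
  inertia group of `A`;
* `rtk6fxu_provider` : **the provider (FIX-U)** of `rtk6ei_geomUnip_of_pieces`;
* `rtk6fxu_geomUnip` : `StmtRtk6GeomUnip` from the providers (SS1-inst), (C4-U), (D-BC datum);
* `rtk6fxu_dbc_of_hD` : the datum from `hD` (the output of `rtk6dbc_chart_t / _tinv`, = the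
  hypothesis `hD` of `rtk6c4b_chartAt`) for a base level `K₁′ ≤ ℚ̄^I`;
* `rtk6fxu_ebK_one_le` : `rtk6ebK q 1 ≤ ℚ̄^I`;
* `StmtRtk6HredU` : the special fibres of the two charts at the UNRAMIFIED level
  `K₁′ = rtk6ebK q 1` are reduced (levels with `±H ⊇` diamonds at `q`);
* `rtk6fxu_dbcProvider_of_hred`, `rtk6fxu_geomUnip_of_hred` : the providers from `StmtRtk6HredU`.
-/

set_option autoImplicit false
set_option linter.style.haveILetI false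
set_option linter.unusedSectionVars false
set_option linter.unusedVariables false
set_option linter.style.longLine false

noncomputable section

namespace Fermat.Agent.RT.K6

open ModularCurve AlgebraicCurve Fermat.Agent.ES Fermat.Agent.ES.G2 Fermat.Agent.INJ
open Fermat.Agent.UNIP Fermat.Agent.STB Fermat.Agent.ES1 Fermat.Agent.ES1.G2 IntermediateField

section Datum

variable (A : ValuationSubring Qb) (K₁ : IntermediateField ℚ Qb)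
  (L M : ℕ) (H : Subgroup (ZMod M)ˣ) [IsDiscreteValuationRing ↥(mgcA A K₁)]

/-- **The (D-BC) datum with coefficients in the inertia field** on the chart `u`:
`B′_u = j R + π B′_u`, `j` coefficientwise over a field `E₀` whose image in `E′` lies in
`ℚ̄^I`. -/
def Rtk6fxuDbc (π : ↥(mgcA A K₁)) (u : ↥(rtk6diF A K₁ L M H)) : Prop :=
  ∃ (E₀ : Type) (_ : Field E₀) (f : E₀ →+* ↥(mgcE A K₁)) (R : Type) (_ : CommRing R)
    (ι : R → fieldC E₀ L M H)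
    (j : R →+* ↥(zchClosure (A₀ := ↥(mgcA A K₁)) ({u} : Set ↥(rtk6diF A K₁ L M H)))),
    (∀ a : E₀, ((f a : ↥(mgcE A K₁)) : Qb) ∈ beta0Field A) ∧
    (∀ b : R, ((j b : ↥(zchClosure (A₀ := ↥(mgcA A K₁))
        ({u} : Set ↥(rtk6diF A K₁ L M H)))) : ↥(rtk6diF A K₁ L M H)) =
      rtk6diCoeffHom L M H f (ι b)) ∧
    ∀ x : ↥(zchClosure (A₀ := ↥(mgcA A K₁)) ({u} : Set ↥(rtk6diF A K₁ L M H))),
      ∃ (c : R) (z : ↥(zchClosure (A₀ := ↥(mgcA A K₁)) ({u} : Set ↥(rtk6diF A K₁ L M H)))),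
        x = j c + algebraMap ↥(mgcA A K₁) ↥(zchClosure (A₀ := ↥(mgcA A K₁))
          ({u} : Set ↥(rtk6diF A K₁ L M H))) π * z

variable {A K₁ L M H}

/-- the datum from `MgcRamified j π p` (the output of (D-BC)) -/
theorem rtk6fxu_dbc_of_ramified {π : ↥(mgcA A K₁)} {u : ↥(rtk6diF A K₁ L M H)}
    {E₀ : Type} [Field E₀] (f : E₀ →+* ↥(mgcE A K₁))
    (hf : ∀ a : E₀, ((f a : ↥(mgcE A K₁)) : Qb) ∈ beta0Field A)
    {R : Type} [CommRing R] (ι : R → fieldC E₀ L M H)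
    (j : R →+* ↥(zchClosure (A₀ := ↥(mgcA A K₁)) ({u} : Set ↥(rtk6diF A K₁ L M H))))
    (hj : ∀ b : R, ((j b : ↥(zchClosure (A₀ := ↥(mgcA A K₁))
        ({u} : Set ↥(rtk6diF A K₁ L M H)))) : ↥(rtk6diF A K₁ L M H)) =
      rtk6diCoeffHom L M H f (ι b))
    (p : R)
    (hram : MgcRamified j (algebraMap ↥(mgcA A K₁) ↥(zchClosure (A₀ := ↥(mgcA A K₁))
      ({u} : Set ↥(rtk6diF A K₁ L M H))) π) p) :
    Rtk6fxuDbc A K₁ L M H π u :=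
  ⟨E₀, inferInstance, f, R, inferInstance, ι, j, hf, hj, hram.decomp⟩

/-- **FIX-U from the (D-BC) datum**: `Rtk6emFixAt ∧ Rtk6emCongAt` for `g = Φ = σ̂`. -/
theorem rtk6fxu_of_dbc {σ : Qb ≃ₐ[ℚ] Qb} (hσI : σ ∈ A.inertiaSubgroupIn ℚ)
    (hσ : ∀ x ∈ mgcE A K₁, σ x ∈ mgcE A K₁) {π : ↥(mgcA A K₁)} (hπ : Irreducible π)
    {κ : Type} (V : κ → ValuationSubring ↥(rtk6diF A K₁ L M H))
    {u : ↥(rtk6diF A K₁ L M H)}
    (hu : u = rtk6diT A K₁ L M H ∨ u = (rtk6diT A K₁ L M H)⁻¹)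
    (h : Rtk6fxuDbc A K₁ L M H π u) :
    Rtk6emFixAt A K₁ L M H π V (rtk6diGal L M H σ hσ) u ∧
      Rtk6emCongAt A K₁ L M H π V (rtk6diGal L M H σ hσ) u := by
  obtain ⟨E₀, _, f, R, _, ι, j, hf, hj, hdec⟩ := h
  have hf' : ∀ a : E₀, σ ((f a : ↥(mgcE A K₁)) : Qb) = ((f a : ↥(mgcE A K₁)) : Qb) :=
    fun a => rtk6fxu_fix_beta0 hσI (hf a)
  exact ⟨rtk6fxu_fixAt hσI hσ hπ V hu f hf' ι j hj hdec,
    rtk6fxu_congAt hσI hσ hπ V hu f hf' ι j hj hdec⟩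

/-- **the datum from `hD`** (the output of `rtk6dbc_chart_t`, `rtk6dbc_chart_tinv`), for a base
level `K₁′ ≤ ℚ̄^I`. -/
theorem rtk6fxu_dbc_of_hD {K₁' : IntermediateField ℚ Qb} (h : K₁' ≤ K₁)
    (hK' : K₁' ≤ beta0Field A) [IsDiscreteValuationRing ↥(mgcA A K₁')]
    {ϖ₁ : ↥(mgcA A K₁')} {π : ↥(mgcA A K₁)} {u₁ : ↥(rtk6diF A K₁' L M H)}
    {u : ↥(rtk6diF A K₁ L M H)} {q' : ↥(mgcA A K₁)}
    (hD : ∃ j : ↥(zchClosure (A₀ := ↥(mgcA A K₁'))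
          ({u₁} : Set ↥(rtk6diF A K₁' L M H))) →+*
        ↥(zchClosure (A₀ := ↥(mgcA A K₁)) ({u} : Set ↥(rtk6diF A K₁ L M H))),
      (∀ b, ((j b : ↥(zchClosure (A₀ := ↥(mgcA A K₁))
        ({u} : Set ↥(rtk6diF A K₁ L M H)))) : ↥(rtk6diF A K₁ L M H)) =
          rtk6dbcIncl (A := A) L M H h (b : ↥(rtk6diF A K₁' L M H))) ∧
      MgcRamified j
        (algebraMap ↥(mgcA A K₁) ↥(zchClosure (A₀ := ↥(mgcA A K₁))
          ({u} : Set ↥(rtk6diF A K₁ L M H))) π)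
        (algebraMap ↥(mgcA A K₁') ↥(zchClosure (A₀ := ↥(mgcA A K₁'))
          ({u₁} : Set ↥(rtk6diF A K₁' L M H))) ϖ₁) ∧
      j (algebraMap ↥(mgcA A K₁') ↥(zchClosure (A₀ := ↥(mgcA A K₁'))
          ({u₁} : Set ↥(rtk6diF A K₁' L M H))) ϖ₁) =
        algebraMap ↥(mgcA A K₁) ↥(zchClosure (A₀ := ↥(mgcA A K₁))
          ({u} : Set ↥(rtk6diF A K₁ L M H))) q') :
    Rtk6fxuDbc A K₁ L M H π u := by
  obtain ⟨j, hj, hram, -⟩ := hD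
  refine rtk6fxu_dbc_of_ramified (E₀ := ↥(mgcE A K₁'))
    (R := ↥(zchClosure (A₀ := ↥(mgcA A K₁')) ({u₁} : Set ↥(rtk6diF A K₁' L M H))))
    (IntermediateField.inclusion (rtk6eb_mgcE_mono (A := A) h)).toRingHom ?_
    (fun b : ↥(zchClosure (A₀ := ↥(mgcA A K₁')) ({u₁} : Set ↥(rtk6diF A K₁' L M H))) =>
      (b : ↥(rtk6diF A K₁' L M H))) j (fun b => hj b) _ hram
  intro a
  have e : (((IntermediateField.inclusion (rtk6eb_mgcE_mono (A := A) h)).toRingHom a :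
      ↥(mgcE A K₁)) : Qb) = (a : Qb) := by
    rw [AlgHom.toRingHom_eq_coe, RingHom.coe_coe, IntermediateField.coe_inclusion]
  rw [e]
  have hle : beta0Field A ⊔ K₁' ≤ beta0Field A := sup_le (le_refl (beta0Field A)) hK'
  have ha : (a : Qb) ∈ beta0Field A ⊔ K₁' := a.2
  exact hle ha

end Datum

/-- `rtk6ebK q 1 ≤ ℚ̄^I` (the splitting field of `X − q` is `ℚ`) -/
theorem rtk6fxu_ebK_one_le (A : ValuationSubring Qb) (q : ℕ) : rtk6ebK q 1 ≤ beta0Field A := by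
  unfold rtk6ebK
  rw [IntermediateField.adjoin_le_iff]
  intro x hx
  have hx' : x ^ 1 = (q : Qb) := (rtk6eb_mem_rootSet q 1 one_ne_zero).mp hx
  rw [pow_one] at hx'
  have e : x = algebraMap ℚ Qb (q : ℚ) := by
    rw [hx']
    simp
  rw [e]
  exact (beta0Field A).algebraMap_mem _

/-! ### The provider -/

/-- **The provider (FIX-U) of `rtk6ei_geomUnip_of_pieces`**, from a provider of the (D-BC) datum
on the two charts (for all sufficiently large `K₁`). -/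
theorem rtk6fxu_provider
    (hDbc : ∀ (q M₁ : ℕ) [NeZero q] [NeZero M₁] [NeZero (M₁ * q)] (M : ℕ)
      (H : Subgroup (ZMod M)ˣ) (hq : q.Prime) (hqM' : q ∣ M) (hM0 : M ≠ 0), ¬ q ∣ M₁ →
      M ∣ M₁ * q → (∀ c : (ZMod M)ˣ, IsAtR M q c → c ∈ pmH H) → IsTameAt (M₁ * q) M q H →
      4 ∣ M₁ * q →
      ∀ (A : ValuationSubring Qb), A.LiesOverPrime q →
        Rtk6eiEv q A (fun K₁ _ hζ π hπ =>
          ∀ u : ↥(rtk6diF A K₁ (M₁ * q) M H),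
            (u = rtk6diT A K₁ (M₁ * q) M H ∨ u = (rtk6diT A K₁ (M₁ * q) M H)⁻¹) →
            Rtk6fxuDbc A K₁ (M₁ * q) M H π u)) :
    ∀ (q M₁ : ℕ) [NeZero q] [NeZero M₁] [NeZero (M₁ * q)] (M : ℕ)
      (H : Subgroup (ZMod M)ˣ) (hq : q.Prime) (hqM' : q ∣ M) (hM0 : M ≠ 0), ¬ q ∣ M₁ →
      M ∣ M₁ * q → (∀ c : (ZMod M)ˣ, IsAtR M q c → c ∈ pmH H) → IsTameAt (M₁ * q) M q H →
      4 ∣ M₁ * q →
      ∀ (w₀ : fieldBar (M₁ * q) M H ≃ₐ[Qb] fieldBar (M₁ * q) M H)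
        (hw₀ : IsWAt (M₁ * q) M H q w₀) (A : ValuationSubring Qb), A.LiesOverPrime q →
        Rtk6eiEv q A (fun K₁ _ hζ π hπ =>
          ∀ σ ∈ A.inertiaSubgroupIn ℚ, ∀ (hσE : ∀ x ∈ mgcE A K₁, σ x ∈ mgcE A K₁)
            (u : ↥(rtk6diF A K₁ (M₁ * q) M H)),
            (u = rtk6diT A K₁ (M₁ * q) M H ∨ u = (rtk6diT A K₁ (M₁ * q) M H)⁻¹) →
            Rtk6emFixAt A K₁ (M₁ * q) M H π
              (rtk6dfV hπ M H (rtk6diwW (K₀ := mgcE A K₁) w₀ hw₀ hM0 hq hqM' hζ))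
              (rtk6diGal (M₁ * q) M H σ hσE) u ∧
            Rtk6emCongAt A K₁ (M₁ * q) M H π
              (rtk6dfV hπ M H (rtk6diwW (K₀ := mgcE A K₁) w₀ hw₀ hM0 hq hqM' hζ))
              (rtk6diGal (M₁ * q) M H σ hσE) u) := by
  intro q M₁ _ _ _ M H hq hqM' hM0 hqM hML hat htame h4 w₀ hw₀ A hA
  refine (hDbc q M₁ M H hq hqM' hM0 hqM hML hat htame h4 A hA).mono ?_
  intro K₁ _ hζ π hπ h σ hσI hσE u hu
  exact rtk6fxu_of_dbc hσI hσE hπ _ hu (h u hu)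

/-- **`StmtRtk6GeomUnip` from the providers (SS1-inst), (C4-U) and the (D-BC) datum.** -/
theorem rtk6fxu_geomUnip
    (hSS1 : ∀ (q M₁ : ℕ) [NeZero q] [NeZero M₁] [NeZero (M₁ * q)] (M : ℕ)
      (H : Subgroup (ZMod M)ˣ) (hq : q.Prime) (hqM' : q ∣ M) (hM0 : M ≠ 0), ¬ q ∣ M₁ →
      M ∣ M₁ * q → (∀ c : (ZMod M)ˣ, IsAtR M q c → c ∈ pmH H) → IsTameAt (M₁ * q) M q H →
      4 ∣ M₁ * q →
      ∀ (w₀ : fieldBar (M₁ * q) M H ≃ₐ[Qb] fieldBar (M₁ * q) M H)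
        (hw₀ : IsWAt (M₁ * q) M H q w₀) (A : ValuationSubring Qb), A.LiesOverPrime q →
        Rtk6eiEv q A (fun K₁ _ hζ π hπ => Rtk6emSS1 A K₁ (M₁ * q) M H π
          (rtk6dfV hπ M H (rtk6diwW (K₀ := mgcE A K₁) w₀ hw₀ hM0 hq hqM' hζ))))
    (hNode : ∀ (q M₁ : ℕ) [NeZero q] [NeZero M₁] [NeZero (M₁ * q)] (M : ℕ)
      (H : Subgroup (ZMod M)ˣ) (hq : q.Prime) (hqM' : q ∣ M) (hM0 : M ≠ 0), ¬ q ∣ M₁ →
      M ∣ M₁ * q → (∀ c : (ZMod M)ˣ, IsAtR M q c → c ∈ pmH H) → IsTameAt (M₁ * q) M q H →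
      4 ∣ M₁ * q →
      ∀ (w₀ : fieldBar (M₁ * q) M H ≃ₐ[Qb] fieldBar (M₁ * q) M H)
        (hw₀ : IsWAt (M₁ * q) M H q w₀) (A : ValuationSubring Qb), A.LiesOverPrime q →
        Rtk6eiEv q A (fun K₁ _ hζ π hπ => Rtk6emNode A K₁ (M₁ * q) M H π
          (rtk6dfV hπ M H (rtk6diwW (K₀ := mgcE A K₁) w₀ hw₀ hM0 hq hqM' hζ))))
    (hDbc : ∀ (q M₁ : ℕ) [NeZero q] [NeZero M₁] [NeZero (M₁ * q)] (M : ℕ)
      (H : Subgroup (ZMod M)ˣ) (hq : q.Prime) (hqM' : q ∣ M) (hM0 : M ≠ 0), ¬ q ∣ M₁ →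
      M ∣ M₁ * q → (∀ c : (ZMod M)ˣ, IsAtR M q c → c ∈ pmH H) → IsTameAt (M₁ * q) M q H →
      4 ∣ M₁ * q →
      ∀ (A : ValuationSubring Qb), A.LiesOverPrime q →
        Rtk6eiEv q A (fun K₁ _ hζ π hπ =>
          ∀ u : ↥(rtk6diF A K₁ (M₁ * q) M H),
            (u = rtk6diT A K₁ (M₁ * q) M H ∨ u = (rtk6diT A K₁ (M₁ * q) M H)⁻¹) →
            Rtk6fxuDbc A K₁ (M₁ * q) M H π u)) :
    StmtRtk6GeomUnip :=
  rtk6ei_geomUnip_of_pieces hSS1 hNode (rtk6fxu_provider hDbc)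

/-! ### The unramified level `K₁′ = rtk6ebK q 1` -/

/-- **(HRED-U)**: at the levels `L = M₁ q` with `±H ⊇` the diamonds at `q`, the special fibres
of the two charts `t`, `t⁻¹` of `fieldC E₁ L M H` over the UNRAMIFIED base
`A₁ = mgcA A (rtk6ebK q 1)` are reduced. -/
def StmtRtk6HredU : Prop :=
  ∀ (q M₁ : ℕ) [NeZero q] [NeZero M₁] [NeZero (M₁ * q)] (M : ℕ)
    (H : Subgroup (ZMod M)ˣ) (hq : q.Prime) (hqM' : q ∣ M) (hM0 : M ≠ 0), ¬ q ∣ M₁ →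
    M ∣ M₁ * q → (∀ c : (ZMod M)ˣ, IsAtR M q c → c ∈ pmH H) → IsTameAt (M₁ * q) M q H →
    4 ∣ M₁ * q →
    ∀ (A : ValuationSubring Qb), A.LiesOverPrime q →
    ∀ [IsDiscreteValuationRing ↥(mgcA A (rtk6ebK q 1))]
      (ϖ₁ : ↥(mgcA A (rtk6ebK q 1))), Irreducible ϖ₁ →
      ∀ u₁ : ↥(rtk6diF A (rtk6ebK q 1) (M₁ * q) M H),
        (u₁ = rtk6diT A (rtk6ebK q 1) (M₁ * q) M H ∨
          u₁ = (rtk6diT A (rtk6ebK q 1) (M₁ * q) M H)⁻¹) →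
        ∀ c : ↥(zchClosure (A₀ := ↥(mgcA A (rtk6ebK q 1)))
            ({u₁} : Set ↥(rtk6diF A (rtk6ebK q 1) (M₁ * q) M H))),
          algebraMap ↥(mgcA A (rtk6ebK q 1)) ↥(zchClosure (A₀ := ↥(mgcA A (rtk6ebK q 1)))
            ({u₁} : Set ↥(rtk6diF A (rtk6ebK q 1) (M₁ * q) M H))) ϖ₁ ∣ c ^ 2 →
          algebraMap ↥(mgcA A (rtk6ebK q 1)) ↥(zchClosure (A₀ := ↥(mgcA A (rtk6ebK q 1)))
            ({u₁} : Set ↥(rtk6diF A (rtk6ebK q 1) (M₁ * q) M H))) ϖ₁ ∣ c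

/-- **the provider of the (D-BC) datum from (HRED-U)**. -/
theorem rtk6fxu_dbcProvider_of_hred (hred : StmtRtk6HredU) :
    ∀ (q M₁ : ℕ) [NeZero q] [NeZero M₁] [NeZero (M₁ * q)] (M : ℕ)
      (H : Subgroup (ZMod M)ˣ) (hq : q.Prime) (hqM' : q ∣ M) (hM0 : M ≠ 0), ¬ q ∣ M₁ →
      M ∣ M₁ * q → (∀ c : (ZMod M)ˣ, IsAtR M q c → c ∈ pmH H) → IsTameAt (M₁ * q) M q H →
      4 ∣ M₁ * q →
      ∀ (A : ValuationSubring Qb), A.LiesOverPrime q →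
        Rtk6eiEv q A (fun K₁ _ hζ π hπ =>
          ∀ u : ↥(rtk6diF A K₁ (M₁ * q) M H),
            (u = rtk6diT A K₁ (M₁ * q) M H ∨ u = (rtk6diT A K₁ (M₁ * q) M H)⁻¹) →
            Rtk6fxuDbc A K₁ (M₁ * q) M H π u) := by
  intro q M₁ _ _ _ M H hq hqM' hM0 hqM hML hat htame h4 A hA
  refine ⟨rtk6ebK q 1, inferInstance, ?_⟩
  intro K₁ _ _ _ hK hζ π hπ u hu
  haveI : IsDiscreteValuationRing ↥(mgcA A (rtk6ebK q 1)) := rtk6eb_isDVR hq hA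
  obtain ⟨ϖ₁, hϖ₁⟩ := rtk6eb_exists_irreducible (A := A) (K₁ := rtk6ebK q 1)
  have hL : M₁ * q ≠ 0 := NeZero.ne _
  have hr := hred q M₁ M H hq hqM' hM0 hqM hML hat htame h4 A hA ϖ₁ hϖ₁
  rcases hu with rfl | rfl
  · exact rtk6fxu_dbc_of_hD hK (rtk6fxu_ebK_one_le A q)
      (rtk6dbc_chart_t (M₁ * q) M H hq hA hK hL hML hϖ₁ hπ (hr _ (Or.inl rfl)))
  · exact rtk6fxu_dbc_of_hD hK (rtk6fxu_ebK_one_le A q)
      (rtk6dbc_chart_tinv (M₁ * q) M H hq hA hK hL hML hϖ₁ hπ (hr _ (Or.inr rfl)))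

/-- **`StmtRtk6GeomUnip` from the providers (SS1-inst), (C4-U) and (HRED-U).** -/
theorem rtk6fxu_geomUnip_of_hred
    (hSS1 : ∀ (q M₁ : ℕ) [NeZero q] [NeZero M₁] [NeZero (M₁ * q)] (M : ℕ)
      (H : Subgroup (ZMod M)ˣ) (hq : q.Prime) (hqM' : q ∣ M) (hM0 : M ≠ 0), ¬ q ∣ M₁ →
      M ∣ M₁ * q → (∀ c : (ZMod M)ˣ, IsAtR M q c → c ∈ pmH H) → IsTameAt (M₁ * q) M q H →
      4 ∣ M₁ * q →
      ∀ (w₀ : fieldBar (M₁ * q) M H ≃ₐ[Qb] fieldBar (M₁ * q) M H)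
        (hw₀ : IsWAt (M₁ * q) M H q w₀) (A : ValuationSubring Qb), A.LiesOverPrime q →
        Rtk6eiEv q A (fun K₁ _ hζ π hπ => Rtk6emSS1 A K₁ (M₁ * q) M H π
          (rtk6dfV hπ M H (rtk6diwW (K₀ := mgcE A K₁) w₀ hw₀ hM0 hq hqM' hζ))))
    (hNode : ∀ (q M₁ : ℕ) [NeZero q] [NeZero M₁] [NeZero (M₁ * q)] (M : ℕ)
      (H : Subgroup (ZMod M)ˣ) (hq : q.Prime) (hqM' : q ∣ M) (hM0 : M ≠ 0), ¬ q ∣ M₁ →
      M ∣ M₁ * q → (∀ c : (ZMod M)ˣ, IsAtR M q c → c ∈ pmH H) → IsTameAt (M₁ * q) M q H →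
      4 ∣ M₁ * q →
      ∀ (w₀ : fieldBar (M₁ * q) M H ≃ₐ[Qb] fieldBar (M₁ * q) M H)
        (hw₀ : IsWAt (M₁ * q) M H q w₀) (A : ValuationSubring Qb), A.LiesOverPrime q →
        Rtk6eiEv q A (fun K₁ _ hζ π hπ => Rtk6emNode A K₁ (M₁ * q) M H π
          (rtk6dfV hπ M H (rtk6diwW (K₀ := mgcE A K₁) w₀ hw₀ hM0 hq hqM' hζ))))
    (hred : StmtRtk6HredU) : StmtRtk6GeomUnip :=
  rtk6fxu_geomUnip hSS1 hNode (rtk6fxu_dbcProvider_of_hred hred)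

end Fermat.Agent.RT.K6

end
end ZBRT_070_2
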