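/- GENERATED FILE (helper35, build-time optimisation, NOTES/ZB.md): verbatim concatenation of the modules
   Fermat.Agent.RT.K6.FamResFam
   Do not edit; do not import together with these modules. -/
import Fermat.Agent.ZB.RT_032

/-! ### bundled: `Fermat.Agent.RT.K6.FamResFam` -/
section ZBRT_071_0
/-
K-machine, piece K6 / FAM-res, parts (R1) + (R2) (helper82): THE FAMILY `κ` OF VERTICAL VALUATION
RINGS IS COMPATIBLE WITH A CHANGE OF THE BASE LEVEL.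

Two levels `K₁`, `K₂` with `E₁ = mgcE A K₁ ⊆ E₂ = mgcE A K₂` (both `mgcA` discrete valuation
rings), `f : E₁ →+* E₂` ANY ring homomorphism which is the inclusion on underlying elements of `ℚ̄`
(`hf`; e.g. `algebraMap` of `beta0FieldAlgebra h`, `IntermediateField.inclusion h`), and
`ι := rtk6diCoeffHom (M₁ q) M H f : F₁ = rtk6diF A K₁ … → F₂ = rtk6diF A K₂ …`.

Generic part (`K₀ ⊆ K₀'` arbitrary subfields of `ℚ̄`):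
* `rtk6frf_le`, `rtk6frf_nfEmbH` : `nfEmbH K₀' (ι x) = nfEmbH K₀ x`;
* `rtk6frf_diamond` : `δ₂ (ι x) = ι (δ₁ x)` for the diamonds of the same `c` at the two levels;
* `rtk6frf_w`, `rtk6frf_wEquiv` : `w₂ (ι x) = ι (w₁ x)` for `w_i = rtk6diwW w …` resp.
  `rtk6diwEquiv w …` (descended from the same `w`);
* `rtk6frf_gam_exists_up`, `rtk6frf_gam_exists_down` : every `γ₁ ∈ Γ₁` is the restriction of a
  `γ₂ ∈ Γ₂`, and every `γ₂ ∈ Γ₂` restricts to a `γ₁ ∈ Γ₁`.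

Concrete part (hypothesis `hw : ∀ x, w₂ (ι x) = ι (w₁ x)`):
* `rtk6frfIncl`, `rtk6frfKappa`, `rtk6frf_compat` : the base change datum `VtCompat`;
* `rtk6frf_comap_base` : `(V₂ b).comap ι = V₁ b` for the two basic components;
* `rtk6frf_comap_co` : the same for conjugates under compatible `γ₂`, `γ₁`;
* **`rtk6frfRes : κ₂ → κ₁`**, `rtk6frfRes_val : V₁ (res c₂) = (V₂ c₂).comap ι`,
  `rtk6frfRes_mem_iff`, `rtk6frfRes_mem_nonunits_iff`, **`rtk6frfRes_surjective`**;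
* **`rtk6frf_R1`**, **`rtk6frf_R2`** : the statements (R1), (R2) of the specification;
  `rtk6frf_hR2` (`_W`, `_E`) : (R2) in the exact shape of `hR2` of `rtk6c4b_node` (helper81);
* `rtk6frf_R1_W`, `rtk6frf_R2_W` : the instance `w_i = rtk6diwW w₀ …` (no `hw`);
  `rtk6frf_R1_E`, `rtk6frf_R2_E` : the instance `w_i = rtk6diwEquiv w₀ …` (any `RtkCommK`);
  for the function `rtk6frfRes` use `hw := rtk6frf_w …` resp. `rtk6frf_wEquiv …`.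
-/

set_option autoImplicit false
set_option linter.style.haveILetI false
set_option linter.unusedSectionVars false
set_option linter.unusedVariables false

noncomputable section

namespace Fermat.Agent.RT.K6

open ModularCurve AlgebraicCurve Fermat.Agent.ES Fermat.Agent.ES.G2 Fermat.Agent.INJ
open Fermat.Agent.UNIP Fermat.Agent.ES1 Fermat.Agent.ES1.G2 Fermat.Agent.AL IntermediateField

/-! ### Generic part -/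

section Gen

variable {K₀ K₀' : IntermediateField ℚ Qb} (L M : ℕ) (H : Subgroup (ZMod M)ˣ)
  (f : ↥K₀ →+* ↥K₀') (hf : ∀ a : ↥K₀, ((f a : ↥K₀') : Qb) = (a : Qb))

include hf

omit L M H in
/-- the lower field is contained in the upper one -/
theorem rtk6frf_le : K₀ ≤ K₀' := fun x hx => by
  have h := hf ⟨x, hx⟩
  have h2 : x = ((f ⟨x, hx⟩ : ↥K₀') : Qb) := h.symm
  rw [h2]
  exact (f ⟨x, hx⟩).2

/-- `ι` is compatible with the embeddings into `fieldBar` -/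
theorem rtk6frf_nfEmbH (x : fieldC ↥K₀ L M H) :
    nfEmbH K₀' L M H (rtk6diCoeffHom L M H f x) = nfEmbH K₀ L M H x := by
  apply Subtype.ext
  show coeffMap (algebraMap ↥K₀' Qb) (coeffMap f (x : LaurentSeries ↥K₀))
    = coeffMap (algebraMap ↥K₀ Qb) (x : LaurentSeries ↥K₀)
  have e : (algebraMap ↥K₀' Qb).comp f = algebraMap ↥K₀ Qb := RingHom.ext fun a => hf a
  rw [coeffMap_coeffMap, e]

/-- **the diamonds of the two levels are compatible** -/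
theorem rtk6frf_diamond (hL : L ≠ 0) (hML : M ∣ L) {c : (ZMod M)ˣ}
    {δ₁ : fieldC ↥K₀ L M H ≃ₐ[↥K₀] fieldC ↥K₀ L M H} (hδ₁ : IsDiamondC ↥K₀ L M H c δ₁)
    {δ₂ : fieldC ↥K₀' L M H ≃ₐ[↥K₀'] fieldC ↥K₀' L M H} (hδ₂ : IsDiamondC ↥K₀' L M H c δ₂)
    (x : fieldC ↥K₀ L M H) :
    δ₂ (rtk6diCoeffHom L M H f x) = rtk6diCoeffHom L M H f (δ₁ x) := by
  obtain ⟨δ, hδ⟩ := rtk6diw_exists_diamondH (H := H) hL hML c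
  apply nfEmbH_injective K₀' L M H
  rw [rtk6diw_diamond_nfEmbH hδ₂ hδ, rtk6frf_nfEmbH L M H f hf, rtk6frf_nfEmbH L M H f hf,
    rtk6diw_diamond_nfEmbH hδ₁ hδ]

/-- **the Atkin–Lehner automorphisms of the two levels are compatible** -/
theorem rtk6frf_w {r : ℕ} (w : fieldBar L M H ≃ₐ[Qb] fieldBar L M H) (hw : IsWAt L M H r w)
    (hM0 : M ≠ 0) (hr : r.Prime) (hrM : r ∣ M) (hζ : ∀ ζ : Qb, ζ ^ r = 1 → ζ ∈ K₀)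
    (hζ' : ∀ ζ : Qb, ζ ^ r = 1 → ζ ∈ K₀') (x : fieldC ↥K₀ L M H) :
    rtk6diwW w hw hM0 hr hrM hζ' (rtk6diCoeffHom L M H f x) =
      rtk6diCoeffHom L M H f (rtk6diwW w hw hM0 hr hrM hζ x) := by
  apply nfEmbH_injective K₀' L M H
  rw [nfEmbH_rtk6diwW, rtk6frf_nfEmbH L M H f hf, rtk6frf_nfEmbH L M H f hf, nfEmbH_rtk6diwW]

/-- the descended automorphisms `rtk6diwEquiv w` of the two levels are compatible -/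
theorem rtk6frf_wEquiv (w : fieldBar L M H ≃ₐ[Qb] fieldBar L M H) (hw₁ : RtkCommK K₀ w)
    (hw₂ : RtkCommK K₀' w) (x : fieldC ↥K₀ L M H) :
    rtk6diwEquiv w hw₂ (rtk6diCoeffHom L M H f x) =
      rtk6diCoeffHom L M H f (rtk6diwEquiv w hw₁ x) := by
  apply nfEmbH_injective K₀' L M H
  rw [nfEmbH_rtk6diwEquiv, rtk6frf_nfEmbH L M H f hf, rtk6frf_nfEmbH L M H f hf,
    nfEmbH_rtk6diwEquiv]

/-- every `γ₂ ∈ Γ₂` restricts to some `γ₁ ∈ Γ₁` -/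
theorem rtk6frf_gam_exists_down (hL : L ≠ 0) (hML : M ∣ L)
    {γ₂ : fieldC ↥K₀' L M H ≃ₐ[↥K₀'] fieldC ↥K₀' L M H} (hγ₂ : γ₂ ∈ rtk6dfGam ↥K₀' L M H) :
    ∃ γ₁ : fieldC ↥K₀ L M H ≃ₐ[↥K₀] fieldC ↥K₀ L M H, γ₁ ∈ rtk6dfGam ↥K₀ L M H ∧
      ∀ x, γ₂ (rtk6diCoeffHom L M H f x) = rtk6diCoeffHom L M H f (γ₁ x) := by
  haveI : Algebra.IsAlgebraic ℚ Qb := AlgebraicClosure.isAlgebraic ℚ
  haveI : Algebra.IsAlgebraic ℚ ↥K₀ :=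
    Algebra.IsAlgebraic.of_injective K₀.val Subtype.val_injective
  haveI : Algebra.IsAlgebraic ℚ ↥K₀' :=
    Algebra.IsAlgebraic.of_injective K₀'.val Subtype.val_injective
  haveI : NeZero M := ⟨fun h0 => hL (Nat.eq_zero_of_zero_dvd (h0 ▸ hML))⟩
  obtain ⟨c, hc⟩ := rtk6df_isDiamond hL hML hγ₂
  obtain ⟨γ₁, hγ₁⟩ := rtk6d0_exists_diamond ↥K₀ H hL hML c
  exact ⟨γ₁, hγ₁.mem_gam, fun x => rtk6frf_diamond L M H f hf hL hML hγ₁ hc x⟩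

/-- every `γ₁ ∈ Γ₁` is the restriction of some `γ₂ ∈ Γ₂` -/
theorem rtk6frf_gam_exists_up (hL : L ≠ 0) (hML : M ∣ L)
    {γ₁ : fieldC ↥K₀ L M H ≃ₐ[↥K₀] fieldC ↥K₀ L M H} (hγ₁ : γ₁ ∈ rtk6dfGam ↥K₀ L M H) :
    ∃ γ₂ : fieldC ↥K₀' L M H ≃ₐ[↥K₀'] fieldC ↥K₀' L M H, γ₂ ∈ rtk6dfGam ↥K₀' L M H ∧
      ∀ x, γ₂ (rtk6diCoeffHom L M H f x) = rtk6diCoeffHom L M H f (γ₁ x) := by
  haveI : Algebra.IsAlgebraic ℚ Qb := AlgebraicClosure.isAlgebraic ℚ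
  haveI : Algebra.IsAlgebraic ℚ ↥K₀ :=
    Algebra.IsAlgebraic.of_injective K₀.val Subtype.val_injective
  haveI : Algebra.IsAlgebraic ℚ ↥K₀' :=
    Algebra.IsAlgebraic.of_injective K₀'.val Subtype.val_injective
  haveI : NeZero M := ⟨fun h0 => hL (Nat.eq_zero_of_zero_dvd (h0 ▸ hML))⟩
  obtain ⟨c, hc⟩ := rtk6df_isDiamond hL hML hγ₁
  obtain ⟨γ₂, hγ₂⟩ := rtk6d0_exists_diamond ↥K₀' H hL hML c
  exact ⟨γ₂, hγ₂.mem_gam, fun x => rtk6frf_diamond L M H f hf hL hML hc hγ₂ x⟩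

end Gen

/-! ### The base change datum -/

section Base

variable {A : ValuationSubring Qb} {K₁ K₂ : IntermediateField ℚ Qb}
  (f : ↥(mgcE A K₁) →+* ↥(mgcE A K₂))
  (hf : ∀ a : ↥(mgcE A K₁), ((f a : ↥(mgcE A K₂)) : Qb) = (a : Qb))

/-- the inclusion `A₁ = A ∩ E₁ → A₂ = A ∩ E₂` -/
def rtk6frfIncl : ↥(mgcA A K₁) →+* ↥(mgcA A K₂) :=
  beta0RingIncl (rtk6frf_le f hf)

theorem rtk6frfIncl_coe (a : ↥(mgcA A K₁)) :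
    ((rtk6frfIncl f hf a : ↥(mgcA A K₂)) : ↥(mgcE A K₂)) = f (a : ↥(mgcE A K₁)) :=
  Subtype.ext (hf _).symm

theorem rtk6frfIncl_algebraMap (a : ↥(mgcA A K₁)) :
    algebraMap ↥(mgcA A K₂) ↥(mgcE A K₂) (rtk6frfIncl f hf a)
      = f (algebraMap ↥(mgcA A K₁) ↥(mgcE A K₁) a) :=
  rtk6frfIncl_coe f hf a

/-- the inclusion is a local homomorphism -/
theorem rtk6frf_isLocalHom : IsLocalHom (rtk6frfIncl f hf) := by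
  refine ⟨fun a ha => ?_⟩
  rw [beta0Ring_isUnit_iff] at ha ⊢
  exact ha

/-- the map of the residue fields -/
def rtk6frfKappa :
    IsLocalRing.ResidueField ↥(mgcA A K₁) →+* IsLocalRing.ResidueField ↥(mgcA A K₂) :=
  haveI := rtk6frf_isLocalHom f hf
  IsLocalRing.ResidueField.map (rtk6frfIncl f hf)

theorem rtk6frfKappa_residue (a : ↥(mgcA A K₁)) :
    rtk6frfKappa f hf (IsLocalRing.residue ↥(mgcA A K₁) a)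
      = IsLocalRing.residue ↥(mgcA A K₂) (rtk6frfIncl f hf a) := rfl

/-- **the base change datum** -/
theorem rtk6frf_compat :
    VtCompat (algebraMap ↥(mgcA A K₁) ↥(mgcE A K₁)) (IsLocalRing.residue ↥(mgcA A K₁))
      (algebraMap ↥(mgcA A K₂) ↥(mgcE A K₂)) (IsLocalRing.residue ↥(mgcA A K₂))
      f (rtk6frfKappa f hf) := fun a =>
  ⟨rtk6frfIncl f hf a, rtk6frfIncl_algebraMap f hf a, (rtk6frfKappa_residue f hf a).symm⟩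

end Base

/-! ### The family -/

section Concrete

variable {A : ValuationSubring Qb} {K₁ K₂ : IntermediateField ℚ Qb}
  [IsDiscreteValuationRing ↥(mgcA A K₁)] [IsDiscreteValuationRing ↥(mgcA A K₂)]
  {π₁ : ↥(mgcA A K₁)} (hπ₁ : Irreducible π₁) {π₂ : ↥(mgcA A K₂)} (hπ₂ : Irreducible π₂)
  {q M₁ : ℕ} [NeZero q] [NeZero M₁] [NeZero (M₁ * q)] (M : ℕ) (H : Subgroup (ZMod M)ˣ)
  (w₁ : ↥(rtk6diF A K₁ (M₁ * q) M H) ≃ₐ[↥(mgcE A K₁)] ↥(rtk6diF A K₁ (M₁ * q) M H))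
  (w₂ : ↥(rtk6diF A K₂ (M₁ * q) M H) ≃ₐ[↥(mgcE A K₂)] ↥(rtk6diF A K₂ (M₁ * q) M H))
  (f : ↥(mgcE A K₁) →+* ↥(mgcE A K₂))
  (hf : ∀ a : ↥(mgcE A K₁), ((f a : ↥(mgcE A K₂)) : Qb) = (a : Qb))
  (hw : ∀ x : ↥(rtk6diF A K₁ (M₁ * q) M H),
    w₂ (rtk6diCoeffHom (M₁ * q) M H f x) = rtk6diCoeffHom (M₁ * q) M H f (w₁ x))

include hf hw in
/-- **the basic components restrict to the basic components**: `(V₂ b).comap ι = V₁ b` -/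
theorem rtk6frf_comap_base (b : Bool) :
    (rtk6dvV hπ₂ M H w₂ b).comap (rtk6diCoeffHom (M₁ * q) M H f) = rtk6dvV hπ₁ M H w₁ b := by
  have hβ : ∀ x : ↥(rtk6diF A K₁ (M₁ * q) M H),
      rtk6dvEmbFam (M₁ * q) M H w₂ b (rtk6diCoeffHom (M₁ * q) M H f x)
        = coeffMap f (rtk6dvEmbFam (M₁ * q) M H w₁ b x) := by
    intro x
    cases b
    · show (((w₂ (rtk6diCoeffHom (M₁ * q) M H f x) : ↥(rtk6diF A K₂ (M₁ * q) M H))) :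
          LaurentSeries ↥(mgcE A K₂))
        = coeffMap f ((w₁ x : ↥(rtk6diF A K₁ (M₁ * q) M H)) : LaurentSeries ↥(mgcE A K₁))
      rw [hw, rtk6diCoeffHom_coe]
    · exact rtk6diCoeffHom_coe (M₁ * q) M H f x
  exact vtSub_comap_baseChange (vtBase_residue hπ₁) (vtBase_residue hπ₂)
    (rtk6dvEmbFam (M₁ * q) M H w₁ b) (rtk6dv_frac_fam (vtBase_residue hπ₁) (M₁ * q) M H w₁ b)
    (rtk6dvEmbFam (M₁ * q) M H w₂ b) (rtk6dv_frac_fam (vtBase_residue hπ₂) (M₁ * q) M H w₂ b)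
    (rtk6frf_compat f hf) (rtk6diCoeffHom (M₁ * q) M H f) hβ

include hf hw in
/-- the same for conjugates under compatible automorphisms -/
theorem rtk6frf_comap_co (b : Bool)
    (γ₁ : ↥(rtk6diF A K₁ (M₁ * q) M H) ≃ₐ[↥(mgcE A K₁)] ↥(rtk6diF A K₁ (M₁ * q) M H))
    (γ₂ : ↥(rtk6diF A K₂ (M₁ * q) M H) ≃ₐ[↥(mgcE A K₂)] ↥(rtk6diF A K₂ (M₁ * q) M H))
    (hγ : ∀ x, γ₂ (rtk6diCoeffHom (M₁ * q) M H f x) = rtk6diCoeffHom (M₁ * q) M H f (γ₁ x)) :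
    (rtk6dfCo (rtk6dvV hπ₂ M H w₂ b) γ₂).comap (rtk6diCoeffHom (M₁ * q) M H f)
      = rtk6dfCo (rtk6dvV hπ₁ M H w₁ b) γ₁ := by
  ext x
  rw [ValuationSubring.mem_comap, mem_rtk6dfCo, mem_rtk6dfCo, hγ,
    ← rtk6frf_comap_base hπ₁ hπ₂ M H w₁ w₂ f hf hw b, ValuationSubring.mem_comap]

include hf hw in
/-- the restriction of a component of the upper level is a component of the lower level -/
theorem rtk6frf_res_mem (hML : M ∣ M₁ * q) (c₂ : rtk6dfK hπ₂ M H w₂) :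
    ∃ γ ∈ rtk6dfGam ↥(mgcE A K₁) (M₁ * q) M H, ∃ b : Bool,
      (rtk6dfV hπ₂ M H w₂ c₂).comap (rtk6diCoeffHom (M₁ * q) M H f)
        = rtk6dfCo (rtk6dvV hπ₁ M H w₁ b) γ := by
  obtain ⟨γ₂, hγ₂, b, hb⟩ := rtk6df_existsK hπ₂ M H w₂ c₂
  obtain ⟨γ₁, hγ₁, hγ⟩ :=
    rtk6frf_gam_exists_down (M₁ * q) M H f hf (NeZero.ne (M₁ * q)) hML hγ₂
  exact ⟨γ₁, hγ₁, b, by rw [hb]; exact rtk6frf_comap_co hπ₁ hπ₂ M H w₁ w₂ f hf hw b γ₁ γ₂ hγ⟩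

/-- **the restriction map `κ₂ → κ₁`** -/
def rtk6frfRes (hML : M ∣ M₁ * q) (c₂ : rtk6dfK hπ₂ M H w₂) : rtk6dfK hπ₁ M H w₁ :=
  ⟨(rtk6dfV hπ₂ M H w₂ c₂).comap (rtk6diCoeffHom (M₁ * q) M H f),
    rtk6frf_res_mem hπ₁ hπ₂ M H w₁ w₂ f hf hw hML c₂⟩

theorem rtk6frfRes_val (hML : M ∣ M₁ * q) (c₂ : rtk6dfK hπ₂ M H w₂) :
    rtk6dfV hπ₁ M H w₁ (rtk6frfRes hπ₁ hπ₂ M H w₁ w₂ f hf hw hML c₂)
      = (rtk6dfV hπ₂ M H w₂ c₂).comap (rtk6diCoeffHom (M₁ * q) M H f) := rfl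

theorem rtk6frfRes_mem_iff (hML : M ∣ M₁ * q) (c₂ : rtk6dfK hπ₂ M H w₂)
    (x : ↥(rtk6diF A K₁ (M₁ * q) M H)) :
    rtk6diCoeffHom (M₁ * q) M H f x ∈ rtk6dfV hπ₂ M H w₂ c₂ ↔
      x ∈ rtk6dfV hπ₁ M H w₁ (rtk6frfRes hπ₁ hπ₂ M H w₁ w₂ f hf hw hML c₂) := by
  rw [rtk6frfRes_val, ValuationSubring.mem_comap]

theorem rtk6frfRes_mem_nonunits_iff (hML : M ∣ M₁ * q) (c₂ : rtk6dfK hπ₂ M H w₂)
    (x : ↥(rtk6diF A K₁ (M₁ * q) M H)) :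
    rtk6diCoeffHom (M₁ * q) M H f x ∈ (rtk6dfV hπ₂ M H w₂ c₂).nonunits ↔
      x ∈ (rtk6dfV hπ₁ M H w₁ (rtk6frfRes hπ₁ hπ₂ M H w₁ w₂ f hf hw hML c₂)).nonunits := by
  rw [rtk6frfRes_val, vt_mem_nonunits_comap]

theorem rtk6frfRes_inf (hML : M ∣ M₁ * q) :
    rtk6frfRes hπ₁ hπ₂ M H w₁ w₂ f hf hw hML (rtk6dfInf hπ₂ M H w₂) = rtk6dfInf hπ₁ M H w₁ :=
  Subtype.ext (rtk6frf_comap_base hπ₁ hπ₂ M H w₁ w₂ f hf hw true)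

theorem rtk6frfRes_zero (hML : M ∣ M₁ * q) :
    rtk6frfRes hπ₁ hπ₂ M H w₁ w₂ f hf hw hML (rtk6dfZero hπ₂ M H w₂) = rtk6dfZero hπ₁ M H w₁ :=
  Subtype.ext (rtk6frf_comap_base hπ₁ hπ₂ M H w₁ w₂ f hf hw false)

/-- **the restriction map is surjective** -/
theorem rtk6frfRes_surjective (hML : M ∣ M₁ * q) :
    Function.Surjective (rtk6frfRes hπ₁ hπ₂ M H w₁ w₂ f hf hw hML) := by
  intro c₁
  obtain ⟨γ₁, hγ₁, b, hb⟩ := rtk6df_existsK hπ₁ M H w₁ c₁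
  obtain ⟨γ₂, hγ₂, hγ⟩ :=
    rtk6frf_gam_exists_up (M₁ * q) M H f hf (NeZero.ne (M₁ * q)) hML hγ₁
  refine ⟨rtk6dfComap _ γ₂ hγ₂ (rtk6dfBase _ b), Subtype.ext ?_⟩
  show (rtk6dfCo (rtk6dvV hπ₂ M H w₂ b) γ₂).comap (rtk6diCoeffHom (M₁ * q) M H f) = c₁.1
  rw [rtk6frf_comap_co hπ₁ hπ₂ M H w₁ w₂ f hf hw b γ₁ γ₂ hγ]
  exact hb.symm

include hf hw in
/-- **(R1)**: every component of the upper level restricts to a component of the lower level. -/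
theorem rtk6frf_R1 (hML : M ∣ M₁ * q) (c₂ : rtk6dfK hπ₂ M H w₂) :
    ∃ c₁ : rtk6dfK hπ₁ M H w₁,
      (∀ x : ↥(rtk6diF A K₁ (M₁ * q) M H),
        rtk6diCoeffHom (M₁ * q) M H f x ∈ rtk6dfV hπ₂ M H w₂ c₂ ↔ x ∈ rtk6dfV hπ₁ M H w₁ c₁) ∧
      (∀ x : ↥(rtk6diF A K₁ (M₁ * q) M H),
        rtk6diCoeffHom (M₁ * q) M H f x ∈ (rtk6dfV hπ₂ M H w₂ c₂).nonunits ↔
          x ∈ (rtk6dfV hπ₁ M H w₁ c₁).nonunits) :=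
  ⟨rtk6frfRes hπ₁ hπ₂ M H w₁ w₂ f hf hw hML c₂,
    rtk6frfRes_mem_iff hπ₁ hπ₂ M H w₁ w₂ f hf hw hML c₂,
    rtk6frfRes_mem_nonunits_iff hπ₁ hπ₂ M H w₁ w₂ f hf hw hML c₂⟩

include hf hw in
/-- **(R2)**: every component of the lower level is the restriction of a component of the upper
level. -/
theorem rtk6frf_R2 (hML : M ∣ M₁ * q) (c₁ : rtk6dfK hπ₁ M H w₁) :
    ∃ c₂ : rtk6dfK hπ₂ M H w₂,
      (∀ x : ↥(rtk6diF A K₁ (M₁ * q) M H),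
        rtk6diCoeffHom (M₁ * q) M H f x ∈ rtk6dfV hπ₂ M H w₂ c₂ ↔ x ∈ rtk6dfV hπ₁ M H w₁ c₁) ∧
      (∀ x : ↥(rtk6diF A K₁ (M₁ * q) M H),
        rtk6diCoeffHom (M₁ * q) M H f x ∈ (rtk6dfV hπ₂ M H w₂ c₂).nonunits ↔
          x ∈ (rtk6dfV hπ₁ M H w₁ c₁).nonunits) := by
  obtain ⟨c₂, rfl⟩ := rtk6frfRes_surjective hπ₁ hπ₂ M H w₁ w₂ f hf hw hML c₁
  exact ⟨c₂, rtk6frfRes_mem_iff hπ₁ hπ₂ M H w₁ w₂ f hf hw hML c₂,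
    rtk6frfRes_mem_nonunits_iff hπ₁ hπ₂ M H w₁ w₂ f hf hw hML c₂⟩

include hf hw in
/-- **(R2)** in the form of the hypothesis `hR2` of `rtk6c4b_node` (helper81) -/
theorem rtk6frf_hR2 (hML : M ∣ M₁ * q) :
    ∀ c₁ : rtk6dfK hπ₁ M H w₁, ∃ c₂ : rtk6dfK hπ₂ M H w₂,
      ∀ x : ↥(rtk6diF A K₁ (M₁ * q) M H),
        rtk6diCoeffHom (M₁ * q) M H f x ∈ (rtk6dfV hπ₂ M H w₂ c₂).nonunits ↔
          x ∈ (rtk6dfV hπ₁ M H w₁ c₁).nonunits := fun c₁ => by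
  obtain ⟨c₂, -, h⟩ := rtk6frf_R2 hπ₁ hπ₂ M H w₁ w₂ f hf hw hML c₁
  exact ⟨c₂, h⟩

end Concrete

/-! ### The instance `w_i = rtk6diwW w` / `rtk6diwEquiv w` -/

section Inst

variable {A : ValuationSubring Qb} {K₁ K₂ : IntermediateField ℚ Qb}
  [IsDiscreteValuationRing ↥(mgcA A K₁)] [IsDiscreteValuationRing ↥(mgcA A K₂)]
  {π₁ : ↥(mgcA A K₁)} (hπ₁ : Irreducible π₁) {π₂ : ↥(mgcA A K₂)} (hπ₂ : Irreducible π₂)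
  {q M₁ : ℕ} [NeZero q] [NeZero M₁] [NeZero (M₁ * q)] {M : ℕ} {H : Subgroup (ZMod M)ˣ}
  (w₀ : fieldBar (M₁ * q) M H ≃ₐ[Qb] fieldBar (M₁ * q) M H)
  (f : ↥(mgcE A K₁) →+* ↥(mgcE A K₂))
  (hf : ∀ a : ↥(mgcE A K₁), ((f a : ↥(mgcE A K₂)) : Qb) = (a : Qb))

section Equiv

variable (hc₁ : RtkCommK (mgcE A K₁) w₀) (hc₂ : RtkCommK (mgcE A K₂) w₀)

include hf in
/-- **(R1)** for `w_i = rtk6diwEquiv w₀` -/
theorem rtk6frf_R1_E (hML : M ∣ M₁ * q)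
    (c₂ : rtk6dfK hπ₂ M H (rtk6diwEquiv (K₀ := mgcE A K₂) w₀ hc₂)) :
    ∃ c₁ : rtk6dfK hπ₁ M H (rtk6diwEquiv (K₀ := mgcE A K₁) w₀ hc₁),
      (∀ x : ↥(rtk6diF A K₁ (M₁ * q) M H),
        rtk6diCoeffHom (M₁ * q) M H f x ∈
            rtk6dfV hπ₂ M H (rtk6diwEquiv (K₀ := mgcE A K₂) w₀ hc₂) c₂ ↔
          x ∈ rtk6dfV hπ₁ M H (rtk6diwEquiv (K₀ := mgcE A K₁) w₀ hc₁) c₁) ∧
      (∀ x : ↥(rtk6diF A K₁ (M₁ * q) M H),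
        rtk6diCoeffHom (M₁ * q) M H f x ∈
            (rtk6dfV hπ₂ M H (rtk6diwEquiv (K₀ := mgcE A K₂) w₀ hc₂) c₂).nonunits ↔
          x ∈ (rtk6dfV hπ₁ M H (rtk6diwEquiv (K₀ := mgcE A K₁) w₀ hc₁) c₁).nonunits) :=
  rtk6frf_R1 hπ₁ hπ₂ M H _ _ f hf (rtk6frf_wEquiv (M₁ * q) M H f hf w₀ hc₁ hc₂) hML c₂

include hf in
/-- **(R2)** for `w_i = rtk6diwEquiv w₀` -/
theorem rtk6frf_R2_E (hML : M ∣ M₁ * q)
    (c₁ : rtk6dfK hπ₁ M H (rtk6diwEquiv (K₀ := mgcE A K₁) w₀ hc₁)) :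
    ∃ c₂ : rtk6dfK hπ₂ M H (rtk6diwEquiv (K₀ := mgcE A K₂) w₀ hc₂),
      (∀ x : ↥(rtk6diF A K₁ (M₁ * q) M H),
        rtk6diCoeffHom (M₁ * q) M H f x ∈
            rtk6dfV hπ₂ M H (rtk6diwEquiv (K₀ := mgcE A K₂) w₀ hc₂) c₂ ↔
          x ∈ rtk6dfV hπ₁ M H (rtk6diwEquiv (K₀ := mgcE A K₁) w₀ hc₁) c₁) ∧
      (∀ x : ↥(rtk6diF A K₁ (M₁ * q) M H),
        rtk6diCoeffHom (M₁ * q) M H f x ∈
            (rtk6dfV hπ₂ M H (rtk6diwEquiv (K₀ := mgcE A K₂) w₀ hc₂) c₂).nonunits ↔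
          x ∈ (rtk6dfV hπ₁ M H (rtk6diwEquiv (K₀ := mgcE A K₁) w₀ hc₁) c₁).nonunits) :=
  rtk6frf_R2 hπ₁ hπ₂ M H _ _ f hf (rtk6frf_wEquiv (M₁ * q) M H f hf w₀ hc₁ hc₂) hML c₁

include hf in
/-- `hR2` of `rtk6c4b_node` for `w_i = rtk6diwEquiv w₀` -/
theorem rtk6frf_hR2_E (hML : M ∣ M₁ * q) :
    ∀ c₁ : rtk6dfK hπ₁ M H (rtk6diwEquiv (K₀ := mgcE A K₁) w₀ hc₁),
      ∃ c₂ : rtk6dfK hπ₂ M H (rtk6diwEquiv (K₀ := mgcE A K₂) w₀ hc₂),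
      ∀ x : ↥(rtk6diF A K₁ (M₁ * q) M H),
        rtk6diCoeffHom (M₁ * q) M H f x ∈
            (rtk6dfV hπ₂ M H (rtk6diwEquiv (K₀ := mgcE A K₂) w₀ hc₂) c₂).nonunits ↔
          x ∈ (rtk6dfV hπ₁ M H (rtk6diwEquiv (K₀ := mgcE A K₁) w₀ hc₁) c₁).nonunits :=
  rtk6frf_hR2 hπ₁ hπ₂ M H _ _ f hf (rtk6frf_wEquiv (M₁ * q) M H f hf w₀ hc₁ hc₂) hML

end Equiv

section W

variable {r : ℕ} (hw₀ : IsWAt (M₁ * q) M H r w₀) (hM0 : M ≠ 0) (hr : r.Prime) (hrM : r ∣ M)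
  (hζ₁ : ∀ ζ : Qb, ζ ^ r = 1 → ζ ∈ mgcE A K₁) (hζ₂ : ∀ ζ : Qb, ζ ^ r = 1 → ζ ∈ mgcE A K₂)

include hf in
/-- **(R1)** for `w_i = rtk6diwW w₀` -/
theorem rtk6frf_R1_W (hML : M ∣ M₁ * q)
    (c₂ : rtk6dfK hπ₂ M H (rtk6diwW (K₀ := mgcE A K₂) w₀ hw₀ hM0 hr hrM hζ₂)) :
    ∃ c₁ : rtk6dfK hπ₁ M H (rtk6diwW (K₀ := mgcE A K₁) w₀ hw₀ hM0 hr hrM hζ₁),
      (∀ x : ↥(rtk6diF A K₁ (M₁ * q) M H),
        rtk6diCoeffHom (M₁ * q) M H f x ∈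
            rtk6dfV hπ₂ M H (rtk6diwW (K₀ := mgcE A K₂) w₀ hw₀ hM0 hr hrM hζ₂) c₂ ↔
          x ∈ rtk6dfV hπ₁ M H (rtk6diwW (K₀ := mgcE A K₁) w₀ hw₀ hM0 hr hrM hζ₁) c₁) ∧
      (∀ x : ↥(rtk6diF A K₁ (M₁ * q) M H),
        rtk6diCoeffHom (M₁ * q) M H f x ∈
            (rtk6dfV hπ₂ M H (rtk6diwW (K₀ := mgcE A K₂) w₀ hw₀ hM0 hr hrM hζ₂) c₂).nonunits ↔
          x ∈ (rtk6dfV hπ₁ M H
            (rtk6diwW (K₀ := mgcE A K₁) w₀ hw₀ hM0 hr hrM hζ₁) c₁).nonunits) :=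
  rtk6frf_R1 hπ₁ hπ₂ M H _ _ f hf
    (rtk6frf_w (M₁ * q) M H f hf w₀ hw₀ hM0 hr hrM hζ₁ hζ₂) hML c₂

include hf in
/-- **(R2)** for `w_i = rtk6diwW w₀` -/
theorem rtk6frf_R2_W (hML : M ∣ M₁ * q)
    (c₁ : rtk6dfK hπ₁ M H (rtk6diwW (K₀ := mgcE A K₁) w₀ hw₀ hM0 hr hrM hζ₁)) :
    ∃ c₂ : rtk6dfK hπ₂ M H (rtk6diwW (K₀ := mgcE A K₂) w₀ hw₀ hM0 hr hrM hζ₂),
      (∀ x : ↥(rtk6diF A K₁ (M₁ * q) M H),
        rtk6diCoeffHom (M₁ * q) M H f x ∈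
            rtk6dfV hπ₂ M H (rtk6diwW (K₀ := mgcE A K₂) w₀ hw₀ hM0 hr hrM hζ₂) c₂ ↔
          x ∈ rtk6dfV hπ₁ M H (rtk6diwW (K₀ := mgcE A K₁) w₀ hw₀ hM0 hr hrM hζ₁) c₁) ∧
      (∀ x : ↥(rtk6diF A K₁ (M₁ * q) M H),
        rtk6diCoeffHom (M₁ * q) M H f x ∈
            (rtk6dfV hπ₂ M H (rtk6diwW (K₀ := mgcE A K₂) w₀ hw₀ hM0 hr hrM hζ₂) c₂).nonunits ↔
          x ∈ (rtk6dfV hπ₁ M H
            (rtk6diwW (K₀ := mgcE A K₁) w₀ hw₀ hM0 hr hrM hζ₁) c₁).nonunits) :=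
  rtk6frf_R2 hπ₁ hπ₂ M H _ _ f hf
    (rtk6frf_w (M₁ * q) M H f hf w₀ hw₀ hM0 hr hrM hζ₁ hζ₂) hML c₁

include hf in
/-- `hR2` of `rtk6c4b_node` for `w_i = rtk6diwW w₀` -/
theorem rtk6frf_hR2_W (hML : M ∣ M₁ * q) :
    ∀ c₁ : rtk6dfK hπ₁ M H (rtk6diwW (K₀ := mgcE A K₁) w₀ hw₀ hM0 hr hrM hζ₁),
      ∃ c₂ : rtk6dfK hπ₂ M H (rtk6diwW (K₀ := mgcE A K₂) w₀ hw₀ hM0 hr hrM hζ₂),
      ∀ x : ↥(rtk6diF A K₁ (M₁ * q) M H),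
        rtk6diCoeffHom (M₁ * q) M H f x ∈
            (rtk6dfV hπ₂ M H (rtk6diwW (K₀ := mgcE A K₂) w₀ hw₀ hM0 hr hrM hζ₂) c₂).nonunits ↔
          x ∈ (rtk6dfV hπ₁ M H
            (rtk6diwW (K₀ := mgcE A K₁) w₀ hw₀ hM0 hr hrM hζ₁) c₁).nonunits :=
  rtk6frf_hR2 hπ₁ hπ₂ M H _ _ f hf
    (rtk6frf_w (M₁ * q) M H f hf w₀ hw₀ hM0 hr hrM hζ₁ hζ₂) hML

end W

end Inst

end Fermat.Agent.RT.K6

end
end ZBRT_071_0
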