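/- GENERATED FILE (helper35, build-time optimisation, NOTES/ZB.md): verbatim concatenation of the modules
   Fermat.Agent.RT.K6.W1
   Fermat.Agent.RT.K6.EInstU
   Do not edit; do not import together with these modules. -/
import Fermat.Agent.ZB.ES1_010
import Fermat.Agent.ZB.UNIP_038
import Fermat.Agent.ZB.ES1_009
import Fermat.Agent.ZB.ES1_008
import Fermat.Agent.ZB.UNIP_006
import Fermat.Agent.ZB.RT_070
import Fermat.Agent.ZB.RT_067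
import Fermat.Agent.ZB.RT_069
import Fermat.Agent.ZB.UNIP_039

/-! ### bundled: `Fermat.Agent.RT.K6.W1` -/
section ZBRT_072_0
/-
K-machine, piece K6 / W1 (helper96): THE ATKIN–LEHNER AUTOMORPHISM OVER A BASE WITHOUT `ζ_r`.

`w` the Atkin–Lehner automorphism of `fieldBar L M H` at `r` (`IsWAt L M H r w`, piece B),
`K₀` an intermediate field of `ℚ̄ / ℚ` with `RtkCommK K₀ w` (`w` commutes with `Gal(ℚ̄/K₀)`),
`w₁ := rtk6diwEquiv w hcomm : fieldC K₀ L M H ≃ₐ[K₀] fieldC K₀ L M H` (DIW).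

* the API of `rtk6diwW` for an ARBITRARY `hcomm : RtkCommK K₀ w`:
  `rtk6w1_eq_diwW` (`rtk6diwW w … = rtk6diwEquiv w hcomm`), `rtk6w1_galois` (`σ̂ w₁ = w₁ δ′ σ̂`),
  `rtk6w1_diamond` (`w₁ δ_c = δ_{c⁻¹} w₁`), `rtk6w1_j`, `rtk6w1_incl` / `rtk6w1_wIncl`
  (`Rtk6dvWIncl`: `w₁` on the `Γ₀`-field is `AL.atkinLehner`), `rtk6w1_coeffHom`
  (`w₁ σ̂ = δ′ σ̂ w₁`), `rtk6w1_symm_galois`, `rtk6w1_symm_coeffHom`, `rtk6w1_symm_diamond`;
* `rtk6w1_commK_mono` : `K₀ ≤ K₀′ → RtkCommK K₀ w → RtkCommK K₀′ w`;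
  `rtk6w1_baseChange` : `w₁` over `K₀` and over `K₀′ ⊇ K₀` are compatible with the coefficient
  inclusion (ONE `w′` for both levels);
* `Rtk6w1Core K₀ M r H` : "`σ` fixes `K₀` ⇒ the cyclotomic image of `σ` at `r` lies in `±H`"
  (the core; helper80 / `W1Core.lean`);
  **`rtk6w1_commK_of_core`** : `Rtk6w1Core K₀ M r H → RtkCommK K₀ w` for `K₀ ⊇ E₀ = ℚ̄^I`;
* `rtk6w1_core_of_hat`, **`rtk6w1_commK_of_hat`** : case (U) (`∀ c, IsAtR M r c → c ∈ pmH H`):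
  `RtkCommK K₀ w` for EVERY `K₀ ⊇ E₀`.
-/

set_option autoImplicit false
set_option linter.style.haveILetI false
set_option linter.unusedSectionVars false
set_option linter.unusedVariables false

noncomputable section

namespace Fermat.Agent.RT.K6

open ModularCurve AlgebraicCurve HahnSeries Fermat.Agent.ES Fermat.Agent.ES.G2 Fermat.Agent.INJ
open Fermat.Agent.UNIP Fermat.Agent.ES1 Fermat.Agent.ES1.G2 IntermediateField

/-! ### the API for an arbitrary `hcomm` -/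

section Api

variable {K₀ : IntermediateField ℚ Qb} {L M : ℕ} {H : Subgroup (ZMod M)ˣ} {r : ℕ}
  (w : fieldBar L M H ≃ₐ[Qb] fieldBar L M H) (hw : IsWAt L M H r w) (hcomm : RtkCommK K₀ w)

/-- `rtk6diwW` is `rtk6diwEquiv` for any proof of the commutation -/
theorem rtk6w1_eq_diwW (hM0 : M ≠ 0) (hr : r.Prime) (hrM : r ∣ M)
    (hζ : ∀ ζ : Qb, ζ ^ r = 1 → ζ ∈ K₀) :
    rtk6diwW w hw hM0 hr hrM hζ = rtk6diwEquiv w hcomm := rfl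

/-- `a` at `r` ⇒ `a⁻¹` at `r` -/
theorem rtk6w1_isAtR_inv (hM0 : M ≠ 0) (hrM : r ∣ M) {c : (ZMod M)ˣ} (hc : IsAtR M r c) :
    IsAtR M r c⁻¹ := by
  have h3 := hc
  unfold IsAtR at h3 ⊢
  have hM1 : M / r ∣ M := Nat.div_dvd_of_dvd hrM
  haveI : NeZero M := ⟨hM0⟩
  have hcast : ∀ x : ZMod M, ((x.val : ℕ) : ZMod (M / r)) =
      ZMod.castHom hM1 (ZMod (M / r)) x := fun x => by
    rw [ZMod.natCast_val, ZMod.castHom_apply]
  rw [hcast] at h3 ⊢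
  have h4 : ZMod.castHom hM1 (ZMod (M / r)) (c : ZMod M) *
      ZMod.castHom hM1 (ZMod (M / r)) ((c⁻¹ : (ZMod M)ˣ) : ZMod M) = 1 := by
    rw [← map_mul, ← Units.val_mul, mul_inv_cancel, Units.val_one, map_one]
  rw [h3, one_mul] at h4
  exact h4

include hw in
/-- **`σ̂ w₁ = w₁ δ′ σ̂`** on `fieldC K₀ L M H` -/
theorem rtk6w1_galois (hL : L ≠ 0) (hML : M ∣ L) (σ : Qb ≃ₐ[ℚ] Qb)
    (hσ : ∀ x ∈ K₀, σ x ∈ K₀) (c : (ZMod M)ˣ) (hc : IsCycAt M r σ c)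
    (δ' : fieldC K₀ L M H ≃ₐ[K₀] fieldC K₀ L M H) (hδ' : IsDiamondC ↥K₀ L M H c δ')
    (x : fieldC K₀ L M H) :
    rtk6diCoeffHom L M H (mgRestrict K₀ σ hσ) (rtk6diwEquiv w hcomm x) =
      rtk6diwEquiv w hcomm (δ' (rtk6diCoeffHom L M H (mgRestrict K₀ σ hσ) x)) := by
  obtain ⟨δ, hδ⟩ := rtk6diw_exists_diamondH (H := H) hL hML c
  apply nfEmbH_injective K₀ L M H
  rw [nfEmbH_rtk6diCoeffHom, nfEmbH_rtk6diwEquiv, nfEmbH_rtk6diwEquiv,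
    rtk6diw_diamond_nfEmbH hδ' hδ, nfEmbH_rtk6diCoeffHom]
  exact hw.galois σ c hc δ hδ _

include hw in
/-- **`w₁ δ′_c = δ′_{c⁻¹} w₁`** for the diamonds at `r` -/
theorem rtk6w1_diamond (hL : L ≠ 0) (hML : M ∣ L) (c : (ZMod M)ˣ) (hc : IsAtR M r c)
    (δ₁ δ₂ : fieldC K₀ L M H ≃ₐ[K₀] fieldC K₀ L M H) (hδ₁ : IsDiamondC ↥K₀ L M H c δ₁)
    (hδ₂ : IsDiamondC ↥K₀ L M H c⁻¹ δ₂) (x : fieldC K₀ L M H) :
    rtk6diwEquiv w hcomm (δ₁ x) = δ₂ (rtk6diwEquiv w hcomm x) := by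
  obtain ⟨δ, hδ⟩ := rtk6diw_exists_diamondH (H := H) hL hML c
  obtain ⟨δi, hδi⟩ := rtk6diw_exists_diamondH (H := H) hL hML c⁻¹
  apply nfEmbH_injective K₀ L M H
  rw [nfEmbH_rtk6diwEquiv, rtk6diw_diamond_nfEmbH hδ₁ hδ, rtk6diw_diamond_nfEmbH hδ₂ hδi,
    nfEmbH_rtk6diwEquiv]
  exact hw.diamond c hc δ δi hδ hδi _

include hw in
/-- `w₁` on the generators `j(q^d)` -/
theorem rtk6w1_j (d d' : ℕ) [NeZero d] [NeZero d'] (hd : d ∣ L)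
    (hd' : d' = (if r ∣ d then d / r else d * r)) (x : fieldC K₀ L M H)
    (hx : (x : LaurentSeries K₀) = qExpand K₀ d (jqModC K₀)) :
    ((rtk6diwEquiv w hcomm x : fieldC K₀ L M H) : LaurentSeries K₀) =
      qExpand K₀ d' (jqModC K₀) := by
  apply Fermat.Agent.ES.DescentInj.coeffMap_inj (algebraMap K₀ Qb)
  have h1 := nfEmbH_rtk6diwEquiv w hcomm x
  have h2 := congrArg (fun z : fieldBar L M H => (z : LaurentSeries Qb)) h1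
  simp only [nfEmbH_coe] at h2
  rw [h2]
  have h3 : ((nfEmbH K₀ L M H x : fieldBar L M H) : LaurentSeries Qb) =
      qExpand Qb d (jqModC Qb) := by
    rw [nfEmbH_coe, hx]
    exact coeffMap_jqNModC (algebraMap K₀ Qb) d
  rw [hw.map_j d d' hd hd' _ h3]
  exact (coeffMap_jqNModC (algebraMap K₀ Qb) d').symm

include hw in
/-- **`w₁ σ̂ = δ′_c σ̂ w₁`** -/
theorem rtk6w1_coeffHom (hM0 : M ≠ 0) (hrM : r ∣ M) (hL : L ≠ 0) (hML : M ∣ L)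
    (σ : Qb ≃ₐ[ℚ] Qb)
    (hσ : ∀ x ∈ K₀, σ x ∈ K₀) (c : (ZMod M)ˣ) (hc : IsCycAt M r σ c)
    (δ₁ δ₂ : fieldC K₀ L M H ≃ₐ[K₀] fieldC K₀ L M H) (hδ₁ : IsDiamondC ↥K₀ L M H c δ₁)
    (hδ₂ : IsDiamondC ↥K₀ L M H c⁻¹ δ₂) (x : fieldC K₀ L M H) :
    rtk6diwEquiv w hcomm (rtk6diCoeffHom L M H (mgRestrict K₀ σ hσ) x) =
      δ₁ (rtk6diCoeffHom L M H (mgRestrict K₀ σ hσ) (rtk6diwEquiv w hcomm x)) := by
  have h1 := rtk6w1_galois w hw hcomm hL hML σ hσ c hc δ₁ hδ₁ x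
  have hc2 : IsAtR M r c⁻¹ := rtk6w1_isAtR_inv hM0 hrM hc.2
  have h2 := rtk6w1_diamond w hw hcomm hL hML c⁻¹ hc2 δ₂ δ₁ hδ₂
    (by rw [inv_inv]; exact hδ₁)
  rw [h1, ← h2]
  congr 1
  obtain ⟨δ, hδ⟩ := rtk6diw_exists_diamondH (H := H) hL hML c
  obtain ⟨δi, hδi⟩ := rtk6diw_exists_diamondH (H := H) hL hML c⁻¹
  apply nfEmbH_injective K₀ L M H
  rw [rtk6diw_diamond_nfEmbH hδ₂ hδi, rtk6diw_diamond_nfEmbH hδ₁ hδ]
  have h5 : IsDiamondH L M H (c⁻¹ * c) (δi * δ) := hδi.mul hδ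
  rw [inv_mul_cancel] at h5
  have h6 : δi * δ = 1 := h5.unique isDiamondH_one
  exact (congrArg (fun f : fieldBar L M H ≃ₐ[Qb] fieldBar L M H => f _) h6).symm

include hw in
/-- **`σ̂ w₁⁻¹ = w₁⁻¹ δ′_c σ̂`** -/
theorem rtk6w1_symm_galois (hM0 : M ≠ 0) (hrM : r ∣ M) (hL : L ≠ 0) (hML : M ∣ L)
    (σ : Qb ≃ₐ[ℚ] Qb)
    (hσ : ∀ x ∈ K₀, σ x ∈ K₀) (c : (ZMod M)ˣ) (hc : IsCycAt M r σ c)
    (δ₁ δ₂ : fieldC K₀ L M H ≃ₐ[K₀] fieldC K₀ L M H) (hδ₁ : IsDiamondC ↥K₀ L M H c δ₁)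
    (hδ₂ : IsDiamondC ↥K₀ L M H c⁻¹ δ₂) (x : fieldC K₀ L M H) :
    rtk6diCoeffHom L M H (mgRestrict K₀ σ hσ) ((rtk6diwEquiv w hcomm).symm x) =
      (rtk6diwEquiv w hcomm).symm (δ₁ (rtk6diCoeffHom L M H (mgRestrict K₀ σ hσ) x)) := by
  have h := rtk6w1_coeffHom w hw hcomm hM0 hrM hL hML σ hσ c hc δ₁ δ₂ hδ₁ hδ₂
    ((rtk6diwEquiv w hcomm).symm x)
  rw [AlgEquiv.apply_symm_apply] at h
  rw [← h, AlgEquiv.symm_apply_apply]

include hw in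
/-- **`w₁⁻¹ σ̂ = δ′_c σ̂ w₁⁻¹`** -/
theorem rtk6w1_symm_coeffHom (hL : L ≠ 0) (hML : M ∣ L) (σ : Qb ≃ₐ[ℚ] Qb)
    (hσ : ∀ x ∈ K₀, σ x ∈ K₀) (c : (ZMod M)ˣ) (hc : IsCycAt M r σ c)
    (δ₁ : fieldC K₀ L M H ≃ₐ[K₀] fieldC K₀ L M H) (hδ₁ : IsDiamondC ↥K₀ L M H c δ₁)
    (x : fieldC K₀ L M H) :
    (rtk6diwEquiv w hcomm).symm (rtk6diCoeffHom L M H (mgRestrict K₀ σ hσ) x) =
      δ₁ (rtk6diCoeffHom L M H (mgRestrict K₀ σ hσ) ((rtk6diwEquiv w hcomm).symm x)) := by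
  have h := rtk6w1_galois w hw hcomm hL hML σ hσ c hc δ₁ hδ₁ ((rtk6diwEquiv w hcomm).symm x)
  rw [AlgEquiv.apply_symm_apply] at h
  rw [h, AlgEquiv.symm_apply_apply]

include hw in
/-- **`w₁⁻¹ δ′_c = δ′_{c⁻¹} w₁⁻¹`** for the diamonds at `r` -/
theorem rtk6w1_symm_diamond (hM0 : M ≠ 0) (hrM : r ∣ M) (hL : L ≠ 0) (hML : M ∣ L)
    (c : (ZMod M)ˣ) (hc : IsAtR M r c)
    (δ₁ δ₂ : fieldC K₀ L M H ≃ₐ[K₀] fieldC K₀ L M H) (hδ₁ : IsDiamondC ↥K₀ L M H c δ₁)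
    (hδ₂ : IsDiamondC ↥K₀ L M H c⁻¹ δ₂) (x : fieldC K₀ L M H) :
    (rtk6diwEquiv w hcomm).symm (δ₁ x) = δ₂ ((rtk6diwEquiv w hcomm).symm x) := by
  have hc2 : IsAtR M r c⁻¹ := rtk6w1_isAtR_inv hM0 hrM hc
  have h := rtk6w1_diamond w hw hcomm hL hML c⁻¹ hc2 δ₂ δ₁ hδ₂
    (by rw [inv_inv]; exact hδ₁) ((rtk6diwEquiv w hcomm).symm x)
  rw [AlgEquiv.apply_symm_apply] at h
  rw [← h, AlgEquiv.symm_apply_apply]

end Api

/-! ### monotonicity and base change -/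

section Mono

variable {K₀ K₀' : IntermediateField ℚ Qb} {L M : ℕ} {H : Subgroup (ZMod M)ˣ}

theorem rtk6w1_commK_mono (h : K₀ ≤ K₀') {w : fieldBar L M H → fieldBar L M H}
    (hcomm : RtkCommK K₀ w) : RtkCommK K₀' w :=
  fun σ hσ y => hcomm σ (fun a ha => hσ a (h ha)) y

/-- `nfEmbH` over `K₀′` of the coefficient inclusion is `nfEmbH` over `K₀` -/
theorem rtk6w1_nfEmbH_inclusion (h : K₀ ≤ K₀') (x : fieldC K₀ L M H) :
    nfEmbH K₀' L M H (rtk6diCoeffHom L M H (IntermediateField.inclusion h).toRingHom x) =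
      nfEmbH K₀ L M H x := by
  apply Subtype.ext
  show coeffMap (algebraMap ↥K₀' Qb)
      (coeffMap (IntermediateField.inclusion h).toRingHom (x : LaurentSeries ↥K₀)) =
    coeffMap (algebraMap ↥K₀ Qb) (x : LaurentSeries ↥K₀)
  rw [coeffMap_coeffMap]
  rfl

/-- **one `w′` for both levels**: the descents of `w` to `K₀` and to `K₀′ ⊇ K₀` are compatible
with the coefficient inclusion -/
theorem rtk6w1_baseChange (h : K₀ ≤ K₀') (w : fieldBar L M H ≃ₐ[Qb] fieldBar L M H)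
    (hcomm : RtkCommK K₀ w) (hcomm' : RtkCommK K₀' w) (x : fieldC K₀ L M H) :
    rtk6diwEquiv w hcomm' (rtk6diCoeffHom L M H (IntermediateField.inclusion h).toRingHom x) =
      rtk6diCoeffHom L M H (IntermediateField.inclusion h).toRingHom (rtk6diwEquiv w hcomm x) := by
  apply nfEmbH_injective K₀' L M H
  rw [nfEmbH_rtk6diwEquiv, rtk6w1_nfEmbH_inclusion, rtk6w1_nfEmbH_inclusion,
    nfEmbH_rtk6diwEquiv]

end Mono

/-! ### `w₁` on the `Γ₀(L)`-field is the Atkin–Lehner involution -/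

section Incl

open Fermat.Agent.AL

variable {K₀ : IntermediateField ℚ Qb} {M₁ q : ℕ} [NeZero q] [NeZero M₁] [NeZero (M₁ * q)]
  {M : ℕ} {H : Subgroup (ZMod M)ˣ}
  (w : fieldBar (M₁ * q) M H ≃ₐ[Qb] fieldBar (M₁ * q) M H) (hw : IsWAt (M₁ * q) M H q w)
  (hcomm : RtkCommK K₀ w) (hq : q.Prime)
  (ιC : K₀ →+* ℂ) (hqM : ¬ q ∣ M₁)

include hw in
theorem rtk6w1_incl (x : modularFunctionFieldFullC K₀ (M₁ * q)) :
    rtk6diwEquiv w hcomm (rtk6diIncl (M₁ * q) M H x) =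
      rtk6diIncl (M₁ * q) M H (atkinLehner K₀ ιC hq hqM x) := by
  have key : ((rtk6diwEquiv w hcomm : fieldC K₀ (M₁ * q) M H →+*
        fieldC K₀ (M₁ * q) M H).comp (rtk6diIncl (M₁ * q) M H)) =
      (rtk6diIncl (M₁ * q) M H).comp
        ((atkinLehner K₀ ιC hq hqM).toRingEquiv.toRingHom) := by
    apply al_ringHom_ext K₀ (M₁ * q)
    · intro c
      show rtk6diwEquiv w hcomm (rtk6diIncl (M₁ * q) M H (algebraMap K₀ _ c)) =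
        rtk6diIncl (M₁ * q) M H (atkinLehner K₀ ιC hq hqM (algebraMap K₀ _ c))
      rw [AlgEquiv.commutes, rtk6diIncl_algebraMap, AlgEquiv.commutes]
    · intro d _ hd
      show rtk6diwEquiv w hcomm (rtk6diIncl (M₁ * q) M H
          ⟨qExpand K₀ d (jqModC K₀), jqModCd_mem_full K₀ (M₁ * q) hd⟩) =
        rtk6diIncl (M₁ * q) M H (atkinLehner K₀ ιC hq hqM
          ⟨qExpand K₀ d (jqModC K₀), jqModCd_mem_full K₀ (M₁ * q) hd⟩)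
      have hsw : alSwap q (M₁ * q) d = (if q ∣ d then d / q else d * q) := by
        unfold alSwap
        rw [if_pos hd]
      have hsd : alSwap q (M₁ * q) d ∣ M₁ * q := alSwap_dvd hq hqM hd
      haveI : NeZero (alSwap q (M₁ * q) d) :=
        ⟨fun h0 => NeZero.ne (M₁ * q) (by rw [h0] at hsd; exact Nat.eq_zero_of_zero_dvd hsd)⟩
      apply Subtype.ext
      rw [rtk6w1_j w hw hcomm d (alSwap q (M₁ * q) d) hd hsw _
        (rtk6diIncl_coe (M₁ * q) M H _), rtk6diIncl_coe]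
      have e0 : (⟨qExpand K₀ d (jqModC K₀), jqModCd_mem_full K₀ (M₁ * q) hd⟩ :
          modularFunctionFieldFullC K₀ (M₁ * q)) = ⟨alGen K₀ (M₁ * q) d, alGen_mem K₀ d⟩ :=
        Subtype.ext (alGen_of_dvd K₀ hd).symm
      rw [e0, atkinLehner_gen, alGen_of_dvd K₀ hsd]
  exact congrArg (fun φ : modularFunctionFieldFullC K₀ (M₁ * q) →+*
    fieldC K₀ (M₁ * q) M H => φ x) key

include hw in
/-- **`Rtk6dvWIncl`** for `w₁` -/
theorem rtk6w1_wIncl : Rtk6dvWIncl ιC hq hqM M H (rtk6diwEquiv w hcomm) :=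
  fun x => rtk6w1_incl w hw hcomm hq ιC hqM x

end Incl

/-! ### the commutation from the core -/

section Core

variable {L M : ℕ} {H : Subgroup (ZMod M)ˣ} {r : ℕ}

/-- **The core of W1**: an automorphism fixing `K₀` has its cyclotomic image at `r` in `±H`. -/
def Rtk6w1Core (K₀ : IntermediateField ℚ Qb) (M r : ℕ) (H : Subgroup (ZMod M)ˣ) : Prop :=
  ∀ σ : Qb ≃ₐ[ℚ] Qb, (∀ a ∈ K₀, σ a = a) → ∀ c : (ZMod M)ˣ, IsCycAt M r σ c → c ∈ pmH H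

theorem Rtk6w1Core.mono {K₀ K₀' : IntermediateField ℚ Qb} (h : K₀ ≤ K₀')
    (hc : Rtk6w1Core K₀ M r H) : Rtk6w1Core K₀' M r H :=
  fun σ hσ c hcyc => hc σ (fun a ha => hσ a (h ha)) c hcyc

/-- `c ∈ ±H` ⇒ the identity is the diamond of `c` -/
theorem rtk6w1_isDiamondH_one {c : (ZMod M)ˣ} (hc : c ∈ pmH H) :
    IsDiamondH L M H c (1 : fieldBar L M H ≃ₐ[Qb] fieldBar L M H) where
  fix_j := fun _ _ _ _ _ => rfl
  map_s := fun e _ a _ x hx => by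
    have e1 : sS Qb M H (a * c) = sS Qb M H a :=
      es1f_sS_eq_of_inPM Qb (rtk6f_inPM_iff.mpr (by rw [inv_mul_cancel_left]; exact hc))
    rw [e1]
    exact hx

/-- **W1**: `w` commutes with `Gal(ℚ̄/K₀)` for `K₀ ⊇ E₀ = ℚ̄^I` satisfying the core. -/
theorem rtk6w1_commK_of_core {w : fieldBar L M H ≃ₐ[Qb] fieldBar L M H}
    (hw : IsWAt L M H r w) (hM0 : M ≠ 0) (hr : r.Prime) (hrM : r ∣ M) (hr2 : ¬ r ^ 2 ∣ M)
    (A : ValuationSubring Qb) (hA : A.LiesOverPrime r)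
    {K₀ : IntermediateField ℚ Qb} (hE : beta0Field A ≤ K₀)
    (hcore : Rtk6w1Core K₀ M r H) : RtkCommK K₀ w := by
  intro σ hσ y
  haveI : NeZero M := ⟨hM0⟩
  have hσI : σ ∈ A.inertiaSubgroupIn ℚ :=
    beta0_mem_inertia_of_fixes hr hA σ (fun x hx => hσ x (hE hx))
  obtain ⟨c, hc⟩ := rtk6de0_isCycAt hr hrM hr2 A hA hσI
  have hcH : c ∈ pmH H := hcore σ hσ c hc
  have h := hw.galois σ c hc 1 (rtk6w1_isDiamondH_one hcH) y
  rw [h]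
  rfl

/-- the core holds over EVERY `K₀` when `H` contains all diamonds at `r` (case (U)) -/
theorem rtk6w1_core_of_hat (hat : ∀ c : (ZMod M)ˣ, IsAtR M r c → c ∈ pmH H)
    (K₀ : IntermediateField ℚ Qb) : Rtk6w1Core K₀ M r H :=
  fun _ _ c hc => hat c hc.2

/-- **W1 for (U)**: if `H` contains all diamonds at `r`, then `w` commutes with `Gal(ℚ̄/K₀)` for
EVERY `K₀ ⊇ E₀ = ℚ̄^I` (so `w₁` exists at the unramified level). -/
theorem rtk6w1_commK_of_hat {w : fieldBar L M H ≃ₐ[Qb] fieldBar L M H}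
    (hw : IsWAt L M H r w) (hM0 : M ≠ 0) (hr : r.Prime) (hrM : r ∣ M) (hr2 : ¬ r ^ 2 ∣ M)
    (A : ValuationSubring Qb) (hA : A.LiesOverPrime r)
    (hat : ∀ c : (ZMod M)ˣ, IsAtR M r c → c ∈ pmH H)
    {K₀ : IntermediateField ℚ Qb} (hE : beta0Field A ≤ K₀) : RtkCommK K₀ w :=
  rtk6w1_commK_of_core hw hM0 hr hrM hr2 A hA hE (rtk6w1_core_of_hat hat K₀)

end Core

end Fermat.Agent.RT.K6

end
end ZBRT_072_0

/-! ### bundled: `Fermat.Agent.RT.K6.EInstU` -/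
section ZBRT_072_1
/-
K-machine, piece K6, piece **E-INST** (helper18), part 4: the provider **`hFix`** of
`rtk6ei_geomUnip_of_pieces` (`RT/K6/EInstGlue.lean`) in the case (U), and the FINAL wiring of the
case (U).

Lower level `K₁′ := rtk6ebK q 1` (`= ℚ`, so `E₁ = mgcE A K₁′ = ℚ̄^I` is fixed by the inertia
group), `w₁ := rtk6diwEquiv w₀ hcomm` (`hcomm` from W1, `rtk6w1_commK_of_hat`), the family
`V₁ = rtk6dfV hϖ₁ M H w₁` over `F₁ = rtk6diF A K₁′ L M H`: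
`Rtk6emFam` by `rtk6m1_emFam` (helper82), `Rtk6emSS1` by (SS1-inst) GENERIC in `(K₁, w)`
(`StmtRtk6SS1Gen`, helper79's `rtk6ss_hSS1₁`), hence `hred` (HRED, helper45), hence the (D-BC)
datum `j : zchClosure {t₁^{±1}} →+* zchClosure {t^{±1}}` with `MgcRamified` (helper56), hence
(FIX-U) (helper49).

* `rtk6eiu_hred`, `rtk6eiu_hred_inv` : `hred` in `zchClosure` form from `Rtk6emFam` + `Rtk6emSS1`;
* `rtk6eiu_fix_cong` : `Rtk6emFixAt ∧ Rtk6emCongAt` for `g = Φ = σ̂` at `K₁`, both charts, from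
  `Rtk6emFam` + `Rtk6emSS1` at any lower level `K₁′ ≤ K₁`, `K₁′ ≤ ℚ̄^I`;
* `StmtRtk6SS1Gen` : (SS1-inst) generic in `(K₁, w)`;
* `rtk6eiu_hFix` : `StmtRtk6SS1Gen →` the provider `hFix` of `rtk6ei_geomUnip_of_pieces`;
* `rtk6eiu_hSS1` : `StmtRtk6SS1Gen →` the provider `hSS1` of `rtk6ei_geomUnip_of_pieces`;
* `rtk6eiu_geomUnip` : `StmtRtk6SS1Gen → (hNode) → StmtRtk6GeomUnip`.
-/

set_option autoImplicit false
set_option linter.style.haveILetI false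
set_option linter.unusedSectionVars false
set_option linter.unusedVariables false
set_option linter.style.longLine false

noncomputable section

namespace Fermat.Agent.RT.K6

open ModularCurve AlgebraicCurve Fermat.Agent.ES Fermat.Agent.ES.G2 Fermat.Agent.INJ
open Fermat.Agent.UNIP Fermat.Agent.STB Fermat.Agent.ES1 Fermat.Agent.ES1.G2 IntermediateField

/-! ### `hred` in `zchClosure` form -/

section HRed

variable {A : ValuationSubring Qb} {K₁ : IntermediateField ℚ Qb}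
  [IsDiscreteValuationRing ↥(mgcA A K₁)] {L M : ℕ} {H : Subgroup (ZMod M)ˣ}
  {π : ↥(mgcA A K₁)} {κ : Type} {V : κ → ValuationSubring ↥(rtk6diF A K₁ L M H)}

set_option synthInstance.maxHeartbeats 400000 in
set_option maxHeartbeats 1000000 in
/-- `hred` of (D-BC) in `zchClosure` form, any chart `u`, from the `integralClosure` form -/
theorem rtk6eiu_hred_of (u : ↥(rtk6diF A K₁ L M H))
    (h : ∀ c : ↥(integralClosure ↥(Algebra.adjoin ↥(mgcA A K₁)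
        ({u} : Set ↥(rtk6diF A K₁ L M H))) ↥(rtk6diF A K₁ L M H)),
      algebraMap ↥(mgcA A K₁) ↥(integralClosure ↥(Algebra.adjoin ↥(mgcA A K₁)
        ({u} : Set ↥(rtk6diF A K₁ L M H))) ↥(rtk6diF A K₁ L M H)) π ∣ c ^ 2 →
      algebraMap ↥(mgcA A K₁) ↥(integralClosure ↥(Algebra.adjoin ↥(mgcA A K₁)
        ({u} : Set ↥(rtk6diF A K₁ L M H))) ↥(rtk6diF A K₁ L M H)) π ∣ c)
    (c : ↥(zchClosure (A₀ := ↥(mgcA A K₁)) ({u} : Set ↥(rtk6diF A K₁ L M H))))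
    (hc : algebraMap ↥(mgcA A K₁) ↥(zchClosure (A₀ := ↥(mgcA A K₁))
      ({u} : Set ↥(rtk6diF A K₁ L M H))) π ∣ c ^ 2) :
    algebraMap ↥(mgcA A K₁) ↥(zchClosure (A₀ := ↥(mgcA A K₁))
      ({u} : Set ↥(rtk6diF A K₁ L M H))) π ∣ c := by
  have h1 := rtk6dbcZch_dvd_to (A₀ := ↥(mgcA A K₁)) (E₀ := ↥(mgcE A K₁)) L M H u hc
  rw [rtk6dbcZchTo_algebraMap] at h1
  have h2 : rtk6dbcZchTo (A₀ := ↥(mgcA A K₁)) (E₀ := ↥(mgcE A K₁)) L M H u (c ^ 2) =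
      rtk6dbcZchTo (A₀ := ↥(mgcA A K₁)) (E₀ := ↥(mgcE A K₁)) L M H u c ^ 2 := by
    rw [pow_two, pow_two, rtk6dbcZchTo_mul]
  rw [h2] at h1
  have h3 := rtk6dbcZch_dvd_of (A₀ := ↥(mgcA A K₁)) (E₀ := ↥(mgcE A K₁)) L M H u (h _ h1)
  rw [rtk6dbcZchOf_algebraMap, rtk6dbcZchOf_to] at h3
  exact h3

set_option synthInstance.maxHeartbeats 400000 in
set_option maxHeartbeats 1000000 in
/-- `hred` of (D-BC), chart `t`, `zchClosure` form -/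
theorem rtk6eiu_hred (fam : Rtk6emFam A K₁ L M H π V) (ss1 : Rtk6emSS1 A K₁ L M H π V)
    (c : ↥(zchClosure (A₀ := ↥(mgcA A K₁))
      ({rtk6diT A K₁ L M H} : Set ↥(rtk6diF A K₁ L M H))))
    (hc : algebraMap ↥(mgcA A K₁) ↥(zchClosure (A₀ := ↥(mgcA A K₁))
      ({rtk6diT A K₁ L M H} : Set ↥(rtk6diF A K₁ L M H))) π ∣ c ^ 2) :
    algebraMap ↥(mgcA A K₁) ↥(zchClosure (A₀ := ↥(mgcA A K₁))
      ({rtk6diT A K₁ L M H} : Set ↥(rtk6diF A K₁ L M H))) π ∣ c :=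
  rtk6eiu_hred_of (rtk6diT A K₁ L M H) (rtk6hr_hred fam ss1) c hc

set_option synthInstance.maxHeartbeats 400000 in
set_option maxHeartbeats 1000000 in
/-- `hred` of (D-BC), chart `t⁻¹`, `zchClosure` form -/
theorem rtk6eiu_hred_inv (hπ : Irreducible π) (hL : L ≠ 0) (hML : M ∣ L)
    (fam : Rtk6emFam A K₁ L M H π V) (ss1 : Rtk6emSS1 A K₁ L M H π V)
    (c : ↥(zchClosure (A₀ := ↥(mgcA A K₁))
      ({(rtk6diT A K₁ L M H)⁻¹} : Set ↥(rtk6diF A K₁ L M H))))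
    (hc : algebraMap ↥(mgcA A K₁) ↥(zchClosure (A₀ := ↥(mgcA A K₁))
      ({(rtk6diT A K₁ L M H)⁻¹} : Set ↥(rtk6diF A K₁ L M H))) π ∣ c ^ 2) :
    algebraMap ↥(mgcA A K₁) ↥(zchClosure (A₀ := ↥(mgcA A K₁))
      ({(rtk6diT A K₁ L M H)⁻¹} : Set ↥(rtk6diF A K₁ L M H))) π ∣ c :=
  rtk6eiu_hred_of (rtk6diT A K₁ L M H)⁻¹ (rtk6hr_hred_inv hπ hL hML fam ss1) c hc

end HRed

/-! ### (FIX-U) at `K₁` from the lower level -/

section Fix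

variable {A : ValuationSubring Qb} {K₁' K₁ : IntermediateField ℚ Qb}
  [NumberField ↥K₁'] [IsGalois ℚ ↥K₁'] [NumberField ↥K₁] [IsGalois ℚ ↥K₁]
  [IsDiscreteValuationRing ↥(mgcA A K₁')] [IsDiscreteValuationRing ↥(mgcA A K₁)]
  {L M : ℕ} {H : Subgroup (ZMod M)ˣ} {r : ℕ}

/-- **(FIX-U) at `K₁`**, both charts, from `Rtk6emFam` + `Rtk6emSS1` at a lower level
`K₁′ ≤ K₁` contained in `ℚ̄^I`. -/
theorem rtk6eiu_fix_cong (hr : r.Prime) (hA : A.LiesOverPrime r) (h : K₁' ≤ K₁)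
    (hK : K₁' ≤ beta0Field A) (hL : L ≠ 0) (hML : M ∣ L)
    {ϖ₁ : ↥(mgcA A K₁')} (hϖ₁ : Irreducible ϖ₁) {κ₁ : Type}
    {V₁ : κ₁ → ValuationSubring ↥(rtk6diF A K₁' L M H)}
    (fam : Rtk6emFam A K₁' L M H ϖ₁ V₁) (ss1 : Rtk6emSS1 A K₁' L M H ϖ₁ V₁)
    {π : ↥(mgcA A K₁)} (hπ : Irreducible π) {κ : Type}
    (V : κ → ValuationSubring ↥(rtk6diF A K₁ L M H))
    {σ : Qb ≃ₐ[ℚ] Qb} (hσI : σ ∈ A.inertiaSubgroupIn ℚ)
    (hσE : ∀ x ∈ mgcE A K₁, σ x ∈ mgcE A K₁) {u : ↥(rtk6diF A K₁ L M H)}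
    (hu : u = rtk6diT A K₁ L M H ∨ u = (rtk6diT A K₁ L M H)⁻¹) :
    Rtk6emFixAt A K₁ L M H π V (rtk6diGal L M H σ hσE) u ∧
      Rtk6emCongAt A K₁ L M H π V (rtk6diGal L M H σ hσE) u := by
  have hf := rtk6fxu_hf_inclusion hσI hK (rtk6eb_mgcE_mono (A := A) h)
  rcases hu with rfl | rfl
  · obtain ⟨j, hj, hram, -⟩ := rtk6dbc_chart_t L M H hr hA h hL hML hϖ₁ hπ
      (rtk6eiu_hred fam ss1)
    exact ⟨rtk6fxu_fixAt_ramified hσI hσE hπ V (Or.inl rfl) (E₀ := ↥(mgcE A K₁'))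
        (IntermediateField.inclusion (rtk6eb_mgcE_mono (A := A) h)).toRingHom hf
        (R := ↥(zchClosure (A₀ := ↥(mgcA A K₁'))
          ({rtk6diT A K₁' L M H} : Set ↥(rtk6diF A K₁' L M H))))
        (fun b => b.1) j hj _ hram,
      rtk6fxu_congAt_ramified hσI hσE hπ V (Or.inl rfl) (E₀ := ↥(mgcE A K₁'))
        (IntermediateField.inclusion (rtk6eb_mgcE_mono (A := A) h)).toRingHom hf
        (R := ↥(zchClosure (A₀ := ↥(mgcA A K₁'))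
          ({rtk6diT A K₁' L M H} : Set ↥(rtk6diF A K₁' L M H))))
        (fun b => b.1) j hj _ hram⟩
  · obtain ⟨j, hj, hram, -⟩ := rtk6dbc_chart_tinv L M H hr hA h hL hML hϖ₁ hπ
      (rtk6eiu_hred_inv hϖ₁ hL hML fam ss1)
    exact ⟨rtk6fxu_fixAt_ramified hσI hσE hπ V (Or.inr rfl) (E₀ := ↥(mgcE A K₁'))
        (IntermediateField.inclusion (rtk6eb_mgcE_mono (A := A) h)).toRingHom hf
        (R := ↥(zchClosure (A₀ := ↥(mgcA A K₁'))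
          ({(rtk6diT A K₁' L M H)⁻¹} : Set ↥(rtk6diF A K₁' L M H))))
        (fun b => b.1) j hj _ hram,
      rtk6fxu_congAt_ramified hσI hσE hπ V (Or.inr rfl) (E₀ := ↥(mgcE A K₁'))
        (IntermediateField.inclusion (rtk6eb_mgcE_mono (A := A) h)).toRingHom hf
        (R := ↥(zchClosure (A₀ := ↥(mgcA A K₁'))
          ({(rtk6diT A K₁' L M H)⁻¹} : Set ↥(rtk6diF A K₁' L M H))))
        (fun b => b.1) j hj _ hram⟩

end Fix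

/-! ### The lower level `rtk6ebK q 1` -/

/-- `rtk6ebK q 1 = ℚ ≤ ℚ̄^I` -/
theorem rtk6eiu_K_le (A : ValuationSubring Qb) (q : ℕ) : rtk6ebK q 1 ≤ beta0Field A := by
  unfold rtk6ebK
  rw [IntermediateField.adjoin_le_iff]
  intro x hx
  have h1 : x ^ 1 = (q : Qb) := (rtk6eb_mem_rootSet q 1 one_ne_zero).mp hx
  rw [pow_one] at h1
  rw [h1]
  exact _root_.natCast_mem (beta0Field A) q

/-- `q² ∤ M` at the levels `M ∣ M₁ q`, `q ∤ M₁` -/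
theorem rtk6eiu_not_sq_dvd {q M₁ M : ℕ} (hq : q.Prime) (hqM : ¬ q ∣ M₁) (hML : M ∣ M₁ * q) :
    ¬ q ^ 2 ∣ M := by
  intro h
  have h1 : q ^ 2 ∣ M₁ * q := h.trans hML
  rw [pow_two] at h1
  exact hqM (Nat.dvd_of_mul_dvd_mul_right hq.pos h1)

/-! ### The open input (SS1-inst), generic in `(K₁, w)` -/

/-- **(SS1-inst), generic in `K₁` and in `w`** (helper79: `rtk6ss_hSS1₁` + tameness). -/
def StmtRtk6SS1Gen : Prop :=
  ∀ (q M₁ : ℕ) [NeZero q] [NeZero M₁] [NeZero (M₁ * q)] (M : ℕ) (H : Subgroup (ZMod M)ˣ)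
    (hq : q.Prime) (hqM : ¬ q ∣ M₁), M ∣ M₁ * q → IsTameAt (M₁ * q) M q H → 4 ∣ M₁ * q →
    ∀ (A : ValuationSubring Qb), A.LiesOverPrime q →
    ∀ (K₁ : IntermediateField ℚ Qb) [IsDiscreteValuationRing ↥(mgcA A K₁)]
      {π : ↥(mgcA A K₁)} (hπ : Irreducible π) (ιC : ↥(mgcE A K₁) →+* ℂ)
      (w : ↥(rtk6diF A K₁ (M₁ * q) M H) ≃ₐ[↥(mgcE A K₁)] ↥(rtk6diF A K₁ (M₁ * q) M H)),
      Rtk6dvWIncl ιC hq hqM M H w →
      Rtk6emSS1 A K₁ (M₁ * q) M H π (rtk6dfV hπ M H w)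

/-- the provider `hSS1` of `rtk6ei_geomUnip_of_pieces` from the generic (SS1-inst) -/
theorem rtk6eiu_hSS1 (hS : StmtRtk6SS1Gen) :
    ∀ (q M₁ : ℕ) [NeZero q] [NeZero M₁] [NeZero (M₁ * q)] (M : ℕ)
      (H : Subgroup (ZMod M)ˣ) (hq : q.Prime) (hqM' : q ∣ M) (hM0 : M ≠ 0), ¬ q ∣ M₁ →
      M ∣ M₁ * q → (∀ c : (ZMod M)ˣ, IsAtR M q c → c ∈ pmH H) → IsTameAt (M₁ * q) M q H →
      4 ∣ M₁ * q →
      ∀ (w₀ : fieldBar (M₁ * q) M H ≃ₐ[Qb] fieldBar (M₁ * q) M H)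
        (hw₀ : IsWAt (M₁ * q) M H q w₀) (A : ValuationSubring Qb), A.LiesOverPrime q →
        Rtk6eiEv q A (fun K₁ _ hζ π hπ => Rtk6emSS1 A K₁ (M₁ * q) M H π
          (rtk6dfV hπ M H (rtk6diwW (K₀ := mgcE A K₁) w₀ hw₀ hM0 hq hqM' hζ))) := by
  intro q M₁ _ _ _ M H hq hqM' hM0 hqM hML _ htame h4 w₀ hw₀ A hA
  refine ⟨⊥, inferInstance, fun K₁ _ _ _ _ hζ π hπ => ?_⟩
  exact hS q M₁ M H hq hqM hML htame h4 A hA K₁ hπ (mgdIota (mgcE A K₁)) _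
    (rtk6m1_wIncl (mgdIota (mgcE A K₁)) w₀ hw₀ hM0 hq hqM' hqM hζ)

/-- **the provider `hFix` of `rtk6ei_geomUnip_of_pieces`** from the generic (SS1-inst). -/
theorem rtk6eiu_hFix (hS : StmtRtk6SS1Gen) :
    ∀ (q M₁ : ℕ) [NeZero q] [NeZero M₁] [NeZero (M₁ * q)] (M : ℕ)
      (H : Subgroup (ZMod M)ˣ) (hq : q.Prime) (hqM' : q ∣ M) (hM0 : M ≠ 0), ¬ q ∣ M₁ →
      M ∣ M₁ * q → (∀ c : (ZMod M)ˣ, IsAtR M q c → c ∈ pmH H) → IsTameAt (M₁ * q) M q H →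
      4 ∣ M₁ * q →
      ∀ (w₀ : fieldBar (M₁ * q) M H ≃ₐ[Qb] fieldBar (M₁ * q) M H)
        (hw₀ : IsWAt (M₁ * q) M H q w₀) (A : ValuationSubring Qb), A.LiesOverPrime q →
        Rtk6eiEv q A (fun K₁ _ hζ π hπ =>
          ∀ σ ∈ A.inertiaSubgroupIn ℚ, ∀ (hσE : ∀ x ∈ mgcE A K₁, σ x ∈ mgcE A K₁)
            (u : ↥(rtk6diF A K₁ (M₁ * q) M H)),
            (u = rtk6diT A K₁ (M₁ * q) M H ∨ u = (rtk6diT A K₁ (M₁ * q) M H)⁻¹) →
            Rtk6emFixAt A K₁ (M₁ * q) M H π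
              (rtk6dfV hπ M H (rtk6diwW (K₀ := mgcE A K₁) w₀ hw₀ hM0 hq hqM' hζ))
              (rtk6diGal (M₁ * q) M H σ hσE) u ∧
            Rtk6emCongAt A K₁ (M₁ * q) M H π
              (rtk6dfV hπ M H (rtk6diwW (K₀ := mgcE A K₁) w₀ hw₀ hM0 hq hqM' hζ))
              (rtk6diGal (M₁ * q) M H σ hσE) u) := by
  intro q M₁ _ _ _ M H hq hqM' hM0 hqM hML hat htame h4 w₀ hw₀ A hA
  refine ⟨rtk6ebK q 1, inferInstance, fun K₁ _ _ _ hK hζ π hπ σ hσ hσE u hu => ?_⟩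
  haveI : IsDiscreteValuationRing ↥(mgcA A (rtk6ebK q 1)) := rtk6eb_isDVR hq hA
  obtain ⟨ϖ₁, hϖ₁⟩ := IsDiscreteValuationRing.exists_irreducible ↥(mgcA A (rtk6ebK q 1))
  have hcomm : RtkCommK (mgcE A (rtk6ebK q 1)) w₀ :=
    rtk6w1_commK_of_hat hw₀ hM0 hq hqM' (rtk6eiu_not_sq_dvd hq hqM hML) A hA hat le_sup_left
  have hwI := rtk6w1_wIncl w₀ hw₀ hcomm hq (mgdIota (mgcE A (rtk6ebK q 1))) hqM
  have fam := rtk6m1_emFam hϖ₁ (mgdIota (mgcE A (rtk6ebK q 1))) hq hqM hwI hA hML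
  have ss1 := hS q M₁ M H hq hqM hML htame h4 A hA (rtk6ebK q 1) hϖ₁
    (mgdIota (mgcE A (rtk6ebK q 1))) _ hwI
  exact rtk6eiu_fix_cong hq hA hK (rtk6eiu_K_le A q) (NeZero.ne (M₁ * q)) hML hϖ₁ fam ss1 hπ _
    hσ hσE hu

/-- **FINAL wiring, case (U)**: `StmtRtk6GeomUnip` from the generic (SS1-inst) and the provider
`hNode` ((C4-U-inst), helper37 + helper81). -/
theorem rtk6eiu_geomUnip (hS : StmtRtk6SS1Gen)
    (hNode : ∀ (q M₁ : ℕ) [NeZero q] [NeZero M₁] [NeZero (M₁ * q)] (M : ℕ)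
      (H : Subgroup (ZMod M)ˣ) (hq : q.Prime) (hqM' : q ∣ M) (hM0 : M ≠ 0), ¬ q ∣ M₁ →
      M ∣ M₁ * q → (∀ c : (ZMod M)ˣ, IsAtR M q c → c ∈ pmH H) → IsTameAt (M₁ * q) M q H →
      4 ∣ M₁ * q →
      ∀ (w₀ : fieldBar (M₁ * q) M H ≃ₐ[Qb] fieldBar (M₁ * q) M H)
        (hw₀ : IsWAt (M₁ * q) M H q w₀) (A : ValuationSubring Qb), A.LiesOverPrime q →
        Rtk6eiEv q A (fun K₁ _ hζ π hπ => Rtk6emNode A K₁ (M₁ * q) M H π
          (rtk6dfV hπ M H (rtk6diwW (K₀ := mgcE A K₁) w₀ hw₀ hM0 hq hqM' hζ)))) :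
    StmtRtk6GeomUnip :=
  rtk6ei_geomUnip_of_pieces (rtk6eiu_hSS1 hS) hNode (rtk6eiu_hFix hS)

end Fermat.Agent.RT.K6

end
end ZBRT_072_1
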