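/- GENERATED FILE (helper35, build-time optimisation, NOTES/ZB.md): verbatim concatenation of the modules
   Fermat.Agent.RT.K6.SS1Fix
   Do not edit; do not import together with these modules. -/
import Fermat.Agent.ZB.UNIP_038
import Fermat.Agent.ZB.ES1_010
import Fermat.Agent.ZB.UNIP_012
import Fermat.Agent.ZB.INJ_031

/-! ### bundled: `Fermat.Agent.RT.K6.SS1Fix` -/
section ZBRT_073_0

/-!
# RT-K6 / SS1-inst, the `hfix` half (helper50): Galois descent on the charts

`K` of characteristic `0`, algebraic over `ℚ`, `A′` a valuation subring of `K`,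
`F₀ = modularFunctionFieldFullC K L`, `F = fieldC K L M H`, `incl = rtk6diIncl L M H : F₀ → F`.

* `rtk6sf_isIntegral_of_map` : integrality over the chart ring `A[u]` is REFLECTED by an
  injective ring homomorphism compatible with the `A`-algebra structures;
* `rtk6sf_isIntegral_of_incl` : the same along `incl` (converse of `rtk6dv_isIntegral_incl`);
* `rtk6sf_descent` : **Galois descent on a chart**: an element `b` of `F`, integral over
  `A′[incl u₀]` and fixed by all the diamonds, is `incl b₀` with `b₀` integral over `A′[u₀]`;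
* `rtk6sfChart u₀` : the chart map `j : zchClosure {u₀} →+* zchClosure {incl u₀}`,
  `rtk6sfChart_coe`, `rtk6sfChart_injective`;
* `rtk6sf_hfix` : **`hfix` of `rtk6gl_ss1_unif_perm` / `rtk6gl_core_perm`** in chart form:
  `∀ b : B, (∀ c σ, IsDiamondC K L M H c σ → σ b = b) → ∃ u : R, j u = b`;
* `rtk6sf_hfix_list` : the same for a list `l` of ring endomorphisms of `F` such that every
  diamond is (pointwise) a composite of members of `l` — in the form: the fixed points of `l`
  are fixed by every diamond (`hl`).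
-/

set_option autoImplicit false
set_option linter.style.haveILetI false
set_option linter.unusedSectionVars false
set_option linter.unusedVariables false

noncomputable section

namespace Fermat.Agent.RT.K6

open ModularCurve AlgebraicCurve Polynomial Fermat.Agent.ES Fermat.Agent.ES.G2 Fermat.Agent.INJ
open Fermat.Agent.UNIP Fermat.Agent.ES1 Fermat.Agent.ES1.G2 IntermediateField

section Abs

/-- integrality over the chart ring `A[u]` is reflected by an injective ring homomorphism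
compatible with the `A`-algebra structures -/
theorem rtk6sf_isIntegral_of_map {A S S' : Type*} [CommRing A] [CommRing S] [CommRing S']
    [Algebra A S] [Algebra A S'] (σ : S →+* S') (hσi : Function.Injective σ)
    (hσ : ∀ c : A, σ (algebraMap A S c) = algebraMap A S' c) {u y : S}
    (h : IsIntegral (Algebra.adjoin A {σ u}) (σ y)) : IsIntegral (Algebra.adjoin A {u}) y := by
  rw [cusp_isIntegral_adjoin_iff] at h ⊢
  obtain ⟨p, hp, hpy⟩ := h
  refine ⟨p, hp, hσi ?_⟩
  have hc : σ.comp ((aeval u : Polynomial A →ₐ[A] S) : Polynomial A →+* S)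
      = ((aeval (σ u) : Polynomial A →ₐ[A] S') : Polynomial A →+* S') := by
    ext g
    · simp [hσ]
    · simp
  rw [map_zero, Polynomial.hom_eval₂, hc]
  exact hpy

end Abs

section Gen

variable {K : Type} [Field K] (A' : ValuationSubring K) {L M : ℕ} (H : Subgroup (ZMod M)ˣ)

/-- integrality over the chart ring is reflected by the inclusion of the `Γ₀(L)`-field -/
theorem rtk6sf_isIntegral_of_incl {u₀ b₀ : ↥(modularFunctionFieldFullC K L)}
    (hb : IsIntegral ↥(Algebra.adjoin ↥A' ({rtk6diIncl L M H u₀} : Set ↥(fieldC K L M H)))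
      (rtk6diIncl L M H b₀)) :
    IsIntegral ↥(Algebra.adjoin ↥A' ({u₀} : Set ↥(modularFunctionFieldFullC K L))) b₀ :=
  rtk6sf_isIntegral_of_map (rtk6diIncl L M H) (rtk6diIncl_injective L M H)
    (fun a => rtk6dv_incl_algebraMapA A' L M H a) hb

variable [CharZero K] [Algebra.IsAlgebraic ℚ K]

/-- **Galois descent on a chart**: an element of `fieldC K L M H`, integral over `A′[incl u₀]`
and fixed by all the diamonds, comes from an element of the `Γ₀(L)`-field integral over
`A′[u₀]`. -/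
theorem rtk6sf_descent (hL : L ≠ 0) (hML : M ∣ L) (u₀ : ↥(modularFunctionFieldFullC K L))
    (b : ↥(fieldC K L M H))
    (hb : IsIntegral ↥(Algebra.adjoin ↥A' ({rtk6diIncl L M H u₀} : Set ↥(fieldC K L M H))) b)
    (hfix : ∀ (c : (ZMod M)ˣ) (σ : fieldC K L M H ≃ₐ[K] fieldC K L M H),
      IsDiamondC K L M H c σ → σ b = b) :
    ∃ b₀ : ↥(modularFunctionFieldFullC K L),
      IsIntegral ↥(Algebra.adjoin ↥A' ({u₀} : Set ↥(modularFunctionFieldFullC K L))) b₀ ∧
      rtk6diIncl L M H b₀ = b := by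
  haveI : NeZero M := ⟨fun h => hL (by rw [h] at hML; exact Nat.eq_zero_of_zero_dvd hML)⟩
  have hmem := rtk6d0_mem_full_of_fixed K H hL hML b hfix
  have e : rtk6diIncl L M H ⟨(b : LaurentSeries K), hmem⟩ = b := Subtype.ext rfl
  refine ⟨⟨(b : LaurentSeries K), hmem⟩, ?_, e⟩
  apply rtk6sf_isIntegral_of_incl A' H
  rw [e]
  exact hb

/-- **Uniqueness of the diamonds**: two diamond automorphisms `δ_c` of `fieldC K L M H` for the
same `c` agree. -/
theorem rtk6sf_diamond_unique (hL : L ≠ 0) (hML : M ∣ L) {c : (ZMod M)ˣ}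
    {σ σ' : fieldC K L M H ≃ₐ[K] fieldC K L M H}
    (h : IsDiamondC K L M H c σ) (h' : IsDiamondC K L M H c σ') (x : ↥(fieldC K L M H)) :
    σ x = σ' x := by
  haveI : NeZero M := ⟨fun h => hL (by rw [h] at hML; exact Nat.eq_zero_of_zero_dvd hML)⟩
  letI := kdlAlg (full_le_fieldC K L M H)
  obtain ⟨-, -, hone, -⟩ := rtk6d0_galois K H hL hML
  have hcoe : ∀ z : modularFunctionFieldFullC K L,
      ((algebraMap (modularFunctionFieldFullC K L) (fieldC K L M H) z : fieldC K L M H) :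
        LaurentSeries K) = (z : LaurentSeries K) := fun _ => rfl
  have hfixz : ∀ z : modularFunctionFieldFullC K L,
      (σ.toRingEquiv.trans σ'.symm.toRingEquiv)
        (algebraMap (modularFunctionFieldFullC K L) (fieldC K L M H) z) =
      algebraMap (modularFunctionFieldFullC K L) (fieldC K L M H) z := by
    intro z
    have h1 : σ (algebraMap (modularFunctionFieldFullC K L) (fieldC K L M H) z) =
        algebraMap (modularFunctionFieldFullC K L) (fieldC K L M H) z :=
      h.fix _ (by rw [hcoe]; exact z.2)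
    have h2 : σ' (algebraMap (modularFunctionFieldFullC K L) (fieldC K L M H) z) =
        algebraMap (modularFunctionFieldFullC K L) (fieldC K L M H) z :=
      h'.fix _ (by rw [hcoe]; exact z.2)
    show σ'.symm (σ _) = _
    rw [h1]
    exact (AlgEquiv.symm_apply_eq σ').mpr h2.symm
  let f : fieldC K L M H ≃ₐ[modularFunctionFieldFullC K L] fieldC K L M H :=
    AlgEquiv.ofRingEquiv (f := σ.toRingEquiv.trans σ'.symm.toRingEquiv) hfixz
  have hfx : ∀ y, f y = σ'.symm (σ y) := fun _ => rfl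
  have hθ : σ ⟨sS K M H 1, rtk6d0_sS_mem K M H hML 1⟩ =
      σ' ⟨sS K M H 1, rtk6d0_sS_mem K M H hML 1⟩ :=
    Subtype.ext ((h.map_sS hML 1).trans (h'.map_sS hML 1).symm)
  have hf1 : f = 1 := by
    apply hone
    rw [hfx, hθ, AlgEquiv.symm_apply_apply]
  have hx : f x = x := by rw [hf1]; rfl
  rw [hfx] at hx
  exact (AlgEquiv.symm_apply_eq σ').mp hx

/-- **Galois descent on a chart, for a CHOICE of diamonds** `δ c`. -/
theorem rtk6sf_descent_choice (hL : L ≠ 0) (hML : M ∣ L)
    (δ : (ZMod M)ˣ → (fieldC K L M H ≃ₐ[K] fieldC K L M H))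
    (hδ : ∀ c, IsDiamondC K L M H c (δ c))
    (u₀ : ↥(modularFunctionFieldFullC K L)) (b : ↥(fieldC K L M H))
    (hb : IsIntegral ↥(Algebra.adjoin ↥A' ({rtk6diIncl L M H u₀} : Set ↥(fieldC K L M H))) b)
    (hfix : ∀ c, δ c b = b) :
    ∃ b₀ : ↥(modularFunctionFieldFullC K L),
      IsIntegral ↥(Algebra.adjoin ↥A' ({u₀} : Set ↥(modularFunctionFieldFullC K L))) b₀ ∧
      rtk6diIncl L M H b₀ = b :=
  rtk6sf_descent A' H hL hML u₀ b hb
    (fun c σ hσ => (rtk6sf_diamond_unique H hL hML hσ (hδ c) b).trans (hfix c))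

end Gen

/-! ### The chart form -/

section Chart

variable {K : Type} [Field K] (A' : ValuationSubring K) (L M : ℕ) (H : Subgroup (ZMod M)ˣ)

/-- the chart map `j : R = zchClosure {u₀} → B = zchClosure {incl u₀}` -/
def rtk6sfChart (u₀ : ↥(modularFunctionFieldFullC K L)) :
    ↥(zchClosure (A₀ := ↥A') ({u₀} : Set ↥(modularFunctionFieldFullC K L))) →+*
      ↥(zchClosure (A₀ := ↥A') ({rtk6diIncl L M H u₀} : Set ↥(fieldC K L M H))) :=
  RingHom.codRestrict ((rtk6diIncl L M H).comp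
      (zchClosure (A₀ := ↥A') ({u₀} : Set ↥(modularFunctionFieldFullC K L))).val.toRingHom)
    (zchClosure (A₀ := ↥A') ({rtk6diIncl L M H u₀} : Set ↥(fieldC K L M H)))
    (fun x => rtk6dv_isIntegral_incl (A' := A') (L := L) (M := M) (H := H) x.2)

variable {A' L M H}

@[simp]
theorem rtk6sfChart_coe (u₀ : ↥(modularFunctionFieldFullC K L))
    (x : ↥(zchClosure (A₀ := ↥A') ({u₀} : Set ↥(modularFunctionFieldFullC K L)))) :
    ((rtk6sfChart A' L M H u₀ x :
        ↥(zchClosure (A₀ := ↥A') ({rtk6diIncl L M H u₀} : Set ↥(fieldC K L M H)))) :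
      ↥(fieldC K L M H)) = rtk6diIncl L M H (x : ↥(modularFunctionFieldFullC K L)) := rfl

theorem rtk6sfChart_injective (u₀ : ↥(modularFunctionFieldFullC K L)) :
    Function.Injective (rtk6sfChart A' L M H u₀) := by
  intro x y hxy
  apply Subtype.ext
  apply rtk6diIncl_injective L M H
  have := congrArg Subtype.val hxy
  exact this

variable [CharZero K] [Algebra.IsAlgebraic ℚ K]

/-- **`hfix`** (chart form): an element of the chart `B` of `fieldC K L M H` which is fixed by
all the diamonds lies in the image of the chart `R` of the `Γ₀(L)`-field. -/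
theorem rtk6sf_hfix (hL : L ≠ 0) (hML : M ∣ L) (u₀ : ↥(modularFunctionFieldFullC K L))
    (b : ↥(zchClosure (A₀ := ↥A') ({rtk6diIncl L M H u₀} : Set ↥(fieldC K L M H))))
    (hfix : ∀ (c : (ZMod M)ˣ) (σ : fieldC K L M H ≃ₐ[K] fieldC K L M H),
      IsDiamondC K L M H c σ → σ (b : ↥(fieldC K L M H)) = (b : ↥(fieldC K L M H))) :
    ∃ u : ↥(zchClosure (A₀ := ↥A') ({u₀} : Set ↥(modularFunctionFieldFullC K L))),
      rtk6sfChart A' L M H u₀ u = b := by
  obtain ⟨b₀, hb₀, e⟩ := rtk6sf_descent A' H hL hML u₀ (b : ↥(fieldC K L M H)) b.2 hfix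
  exact ⟨⟨b₀, hb₀⟩, Subtype.ext e⟩

/-- **`hfix`** (chart form) for a CHOICE of diamonds `δ c`. -/
theorem rtk6sf_hfix_choice (hL : L ≠ 0) (hML : M ∣ L)
    (δ : (ZMod M)ˣ → (fieldC K L M H ≃ₐ[K] fieldC K L M H))
    (hδ : ∀ c, IsDiamondC K L M H c (δ c))
    (u₀ : ↥(modularFunctionFieldFullC K L))
    (b : ↥(zchClosure (A₀ := ↥A') ({rtk6diIncl L M H u₀} : Set ↥(fieldC K L M H))))
    (hfix : ∀ c, δ c (b : ↥(fieldC K L M H)) = (b : ↥(fieldC K L M H))) :
    ∃ u : ↥(zchClosure (A₀ := ↥A') ({u₀} : Set ↥(modularFunctionFieldFullC K L))),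
      rtk6sfChart A' L M H u₀ u = b :=
  rtk6sf_hfix hL hML u₀ b
    (fun c σ hσ => (rtk6sf_diamond_unique H hL hML hσ (hδ c) _).trans (hfix c))

/-- **`hfix`** in the literal shape of `rtk6gl_ss1_unif_perm` (`j`, `ι = B.val`, a list `l` of
ring endomorphisms of `F`), for any list `l` whose common fixed points are fixed by every
diamond. -/
theorem rtk6sf_hfix_list (hL : L ≠ 0) (hML : M ∣ L) (u₀ : ↥(modularFunctionFieldFullC K L))
    (l : List (↥(fieldC K L M H) →+* ↥(fieldC K L M H)))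
    (hl : ∀ x : ↥(fieldC K L M H), (∀ σ ∈ l, σ x = x) →
      ∀ (c : (ZMod M)ˣ) (σ : fieldC K L M H ≃ₐ[K] fieldC K L M H),
        IsDiamondC K L M H c σ → σ x = x)
    (b : ↥(zchClosure (A₀ := ↥A') ({rtk6diIncl L M H u₀} : Set ↥(fieldC K L M H))))
    (hb : ∀ σ ∈ l,
      σ ((zchClosure (A₀ := ↥A')
        ({rtk6diIncl L M H u₀} : Set ↥(fieldC K L M H))).val.toRingHom b) =
      (zchClosure (A₀ := ↥A')
        ({rtk6diIncl L M H u₀} : Set ↥(fieldC K L M H))).val.toRingHom b) :
    ∃ u : ↥(zchClosure (A₀ := ↥A') ({u₀} : Set ↥(modularFunctionFieldFullC K L))),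
      rtk6sfChart A' L M H u₀ u = b :=
  rtk6sf_hfix hL hML u₀ b (hl _ hb)

end Chart

/-! ### The concrete setting `E′ = mgcE A K₁`, `A′ = mgcA A K₁`, `F′ = rtk6diF A K₁ L M H` -/

section Conc

variable (A : ValuationSubring Qb) (K₁ : IntermediateField ℚ Qb)
  (L M : ℕ) (H : Subgroup (ZMod M)ˣ)

/-- the chart map `j : R → B′` of the charts `j` : `R = zchClosure {j} ⊆ F_L(E′)` (the
`Γ₀(L)`-chart over `A′`), `B′ = zchClosure {t} ⊆ F′` -/
def rtk6sfJ :
    ↥(zchClosure (A₀ := ↥(mgcA A K₁)) ({mgcT A K₁ L} : Set ↥(mgcF A K₁ L))) →+*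
      ↥(zchClosure (A₀ := ↥(mgcA A K₁))
        ({rtk6diT A K₁ L M H} : Set ↥(rtk6diF A K₁ L M H))) :=
  rtk6sfChart (mgcA A K₁) L M H (mgcT A K₁ L)

variable {A K₁ L M H}

@[simp]
theorem rtk6sfJ_coe
    (x : ↥(zchClosure (A₀ := ↥(mgcA A K₁)) ({mgcT A K₁ L} : Set ↥(mgcF A K₁ L)))) :
    ((rtk6sfJ A K₁ L M H x : ↥(zchClosure (A₀ := ↥(mgcA A K₁))
        ({rtk6diT A K₁ L M H} : Set ↥(rtk6diF A K₁ L M H)))) : ↥(rtk6diF A K₁ L M H)) =
      rtk6diIncl L M H (x : ↥(mgcF A K₁ L)) := rfl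

theorem rtk6sfJ_injective : Function.Injective (rtk6sfJ A K₁ L M H) :=
  rtk6sfChart_injective _

/-- **`hfix`, chart `j`, concrete**: an element of the chart `B′` of `F′` fixed by all the
diamonds lies in the image of the `Γ₀(L)`-chart over `A′`. -/
theorem rtk6sf_hfix_J (hL : L ≠ 0) (hML : M ∣ L)
    (b : ↥(zchClosure (A₀ := ↥(mgcA A K₁))
      ({rtk6diT A K₁ L M H} : Set ↥(rtk6diF A K₁ L M H))))
    (hfix : ∀ (c : (ZMod M)ˣ)
      (σ : fieldC ↥(mgcE A K₁) L M H ≃ₐ[↥(mgcE A K₁)] fieldC ↥(mgcE A K₁) L M H),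
      IsDiamondC ↥(mgcE A K₁) L M H c σ →
        σ (b : ↥(rtk6diF A K₁ L M H)) = (b : ↥(rtk6diF A K₁ L M H))) :
    ∃ u : ↥(zchClosure (A₀ := ↥(mgcA A K₁)) ({mgcT A K₁ L} : Set ↥(mgcF A K₁ L))),
      rtk6sfJ A K₁ L M H u = b := by
  haveI : Algebra.IsAlgebraic ℚ Qb := AlgebraicClosure.isAlgebraic ℚ
  haveI : Algebra.IsAlgebraic ℚ ↥(mgcE A K₁) :=
    Algebra.IsAlgebraic.of_injective (mgcE A K₁).val Subtype.val_injective
  exact rtk6sf_hfix (A' := mgcA A K₁) hL hML (mgcT A K₁ L) b hfix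

end Conc

end Fermat.Agent.RT.K6

end


end ZBRT_073_0
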