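/- GENERATED FILE (helper35, build-time optimisation, NOTES/ZB.md): verbatim concatenation of the modules
   Fermat.Agent.RT.K6.DGLEigen
   Fermat.Agent.RT.K6.DGLSS1
   Fermat.Agent.RT.K6.DGLSS1U
   Fermat.Agent.RT.K6.DGLSS1P
   Fermat.Agent.RT.K6.SS1InstB
   Fermat.Agent.RT.K6.EInstUS
   Fermat.Agent.RT.K6.C4InstBU
   Fermat.Agent.RT.K6.SS1InstEvB
   Fermat.Agent.RT.K6.FixUFinal
   Do not edit; do not import together with these modules. -/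
import Mathlib
import Fermat.Agent.ZB.RT_073
import Fermat.Agent.ZB.RT_032
import Fermat.Agent.ZB.STB_004
import Fermat.Agent.ZB.UNIP_010
import Fermat.Agent.ZB.RT_072
import Fermat.Agent.ZB.RT_070
import Fermat.Agent.ZB.RT_071
import Fermat.Agent.ZB.RT_069

/-! ### bundled: `Fermat.Agent.RT.K6.DGLEigen` -/
section ZBRT_074_0
/-
K-machine, piece K6, piece D-GL part 1 (helper79): the eigen lemma.

Pure algebra (Mathlib only).  `F` a field, `ζ` a primitive `d`-th root of unity, `d ≠ 0` in `F`,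
`l` a list of pairwise commuting ring endomorphisms of `F` with `σ ^ d = 1`, `σ ζ = ζ`
(generators of the Galois group of the Kummer tower `F′ / F₀E₀`).  If `T`, `Q` are additive
subgroups of `F`, `T` stable under `l`, `ζ`, `d⁻¹`, and every JOINT EIGENVECTOR of `l` in `T`
lies in `Q`, then `T ≤ Q`.

* `rtk6glEigen ζ l x`   : `∀ σ ∈ l, ∃ k, σ x = ζ ^ k * x`;
* `rtk6gl_eigen_step`   : one endomorphism;
* `rtk6gl_eigen`        : the list.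
-/

set_option autoImplicit false

namespace Fermat.Agent.RT.K6

section Eigen

variable {F : Type*} [Field F]

/-- `x` is a joint eigenvector of the endomorphisms of the list `l`, with eigenvalues powers
of `ζ`. -/
def rtk6glEigen (ζ : F) (l : List (F →+* F)) (x : F) : Prop :=
  ∀ σ ∈ l, ∃ k : ℕ, σ x = ζ ^ k * x

theorem rtk6gl_pow_mul_mem (T : AddSubgroup F) {a : F} (ha : ∀ x ∈ T, a * x ∈ T) (n : ℕ)
    {x : F} (hx : x ∈ T) : a ^ n * x ∈ T := by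
  induction n with
  | zero => simpa using hx
  | succ n ih =>
    have := ha _ ih
    rwa [← mul_assoc, ← pow_succ'] at this

theorem rtk6gl_iterate_mem (T : AddSubgroup F) (σ : F →+* F) (hσ : ∀ x ∈ T, σ x ∈ T) (n : ℕ)
    {x : F} (hx : x ∈ T) : (⇑σ)^[n] x ∈ T := by
  induction n with
  | zero => simpa using hx
  | succ n ih =>
    rw [Function.iterate_succ_apply']
    exact hσ _ ih

/-- the sum of the `i`-th powers of a nontrivial `d`-th root of unity vanishes -/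
theorem rtk6gl_geom_sum {d : ℕ} {η : F} (hη : η ^ d = 1) (hη1 : η ≠ 1) :
    ∑ i ∈ Finset.range d, η ^ i = 0 := by
  have h := geom_sum_mul η d
  rw [hη, sub_self] at h
  rcases mul_eq_zero.mp h with h0 | h0
  · exact h0
  · exact absurd (sub_eq_zero.mp h0) hη1

/-- **The eigen lemma, one endomorphism.** -/
theorem rtk6gl_eigen_step {d : ℕ} (hd : (d : F) ≠ 0) {ζ : F} (hζ : IsPrimitiveRoot ζ d)
    (σ : F →+* F) (hord : ∀ x, (⇑σ)^[d] x = x) (hζσ : σ ζ = ζ)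
    (T Q : AddSubgroup F) (hTζ : ∀ x ∈ T, ζ * x ∈ T) (hTd : ∀ x ∈ T, (d : F)⁻¹ * x ∈ T)
    (hTσ : ∀ x ∈ T, σ x ∈ T)
    (h : ∀ x ∈ T, ∀ i : ℕ, σ x = ζ ^ i * x → x ∈ Q) : T ≤ Q := by
  intro x hx
  have hd0 : d ≠ 0 := by
    rintro rfl
    exact hd (by simp)
  have hζ0 : ζ ≠ 0 := hζ.ne_zero hd0
  have hζd : ζ ^ d = 1 := hζ.pow_eq_one
  -- `η = ζ⁻¹`
  set η : F := ζ⁻¹ with hη
  have hηζ : η * ζ = 1 := inv_mul_cancel₀ hζ0
  have hηd : η ^ d = 1 := by rw [hη, inv_pow, hζd, inv_one]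
  have hησ : σ η = η := by rw [hη, map_inv₀, hζσ]
  have hηpow : η = ζ ^ (d - 1) := by
    have : ζ ^ (d - 1) * ζ = 1 := by
      rw [← pow_succ, Nat.sub_add_cancel (Nat.pos_of_ne_zero hd0), hζd]
    rw [hη]
    exact inv_eq_of_mul_eq_one_left this
  have hTη : ∀ y ∈ T, η * y ∈ T := fun y hy => by
    rw [hηpow]
    exact rtk6gl_pow_mul_mem T hTζ _ hy
  -- the eigen components
  set e : ℕ → F := fun i => (d : F)⁻¹ * ∑ k ∈ Finset.range d, η ^ (i * k) * (⇑σ)^[k] x with he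
  have heT : ∀ i, e i ∈ T := fun i => by
    refine hTd _ (AddSubgroup.sum_mem T fun k _ => ?_)
    exact rtk6gl_pow_mul_mem T hTη _ (rtk6gl_iterate_mem T σ hTσ k hx)
  have heσ : ∀ i, σ (e i) = ζ ^ i * e i := fun i => by
    have hσd : σ ((d : F)⁻¹) = (d : F)⁻¹ := by rw [map_inv₀, map_natCast]
    simp only [he, map_mul, hσd, map_sum, map_pow, hησ]
    rw [mul_left_comm]
    congr 1
    rw [Finset.mul_sum]
    -- `g k = ζ ^ i * η ^ (i * k) * σ^k x`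
    set g : ℕ → F := fun k => ζ ^ i * (η ^ (i * k) * (⇑σ)^[k] x) with hg
    have hfg : ∀ k, η ^ (i * k) * σ ((⇑σ)^[k] x) = g (k + 1) := fun k => by
      simp only [hg]
      rw [Function.iterate_succ_apply', ← mul_assoc]
      congr 1
      have : ζ ^ i * η ^ (i * (k + 1)) = (ζ * η) ^ i * η ^ (i * k) := by
        rw [mul_pow, mul_add, mul_one, pow_add]
        ring
      rw [this, mul_comm ζ η, hηζ, one_pow, one_mul]
    have h0d : g d = g 0 := by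
      simp only [hg]
      rw [hord, mul_zero, pow_zero, pow_mul', hηd, one_pow, Function.iterate_zero, id]
    have hsum : ∑ k ∈ Finset.range d, g (k + 1) = ∑ k ∈ Finset.range d, g k := by
      have h1 := Finset.sum_range_succ g d
      have h2 := Finset.sum_range_succ' g d
      rw [h1, h0d] at h2
      exact (add_right_cancel h2).symm
    calc ∑ k ∈ Finset.range d, η ^ (i * k) * σ ((⇑σ)^[k] x)
        = ∑ k ∈ Finset.range d, g (k + 1) := Finset.sum_congr rfl fun k _ => hfg k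
      _ = ∑ k ∈ Finset.range d, g k := hsum
  have hsum : ∑ i ∈ Finset.range d, e i = x := by
    simp only [he]
    rw [← Finset.mul_sum, Finset.sum_comm]
    have hk : ∀ k ∈ Finset.range d,
        ∑ i ∈ Finset.range d, η ^ (i * k) * (⇑σ)^[k] x =
          if k = 0 then (d : F) * x else 0 := by
      intro k hk
      rw [← Finset.sum_mul]
      split_ifs with h0
      · subst h0
        simp
      · have hkd : k < d := Finset.mem_range.mp hk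
        have hne : η ^ k ≠ 1 := by
          have hηprim : IsPrimitiveRoot η d := by
            rw [hη]
            exact hζ.inv
          exact hηprim.pow_ne_one_of_pos_of_lt h0 hkd
        have hpow : (η ^ k) ^ d = 1 := by rw [← pow_mul, mul_comm, pow_mul, hηd, one_pow]
        have := rtk6gl_geom_sum hpow hne
        have e2 : ∑ i ∈ Finset.range d, η ^ (i * k) = ∑ i ∈ Finset.range d, (η ^ k) ^ i :=
          Finset.sum_congr rfl fun i _ => by rw [← pow_mul, mul_comm]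
        rw [e2, this, zero_mul]
    rw [Finset.sum_congr rfl hk, Finset.sum_ite_eq' (Finset.range d) 0]
    rw [if_pos (Finset.mem_range.mpr (Nat.pos_of_ne_zero hd0)), ← mul_assoc,
      inv_mul_cancel₀ hd, one_mul]
  rw [← hsum]
  exact AddSubgroup.sum_mem Q fun i _ => h (e i) (heT i) i (heσ i)

/-- **The eigen lemma.**  If every joint eigenvector of `l` in `T` lies in `Q`, then `T ≤ Q`. -/
theorem rtk6gl_eigen {d : ℕ} (hd : (d : F) ≠ 0) {ζ : F} (hζ : IsPrimitiveRoot ζ d)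
    (l : List (F →+* F)) (hord : ∀ σ ∈ l, ∀ x, (⇑σ)^[d] x = x) (hζσ : ∀ σ ∈ l, σ ζ = ζ)
    (hcomm : ∀ σ ∈ l, ∀ τ ∈ l, ∀ x, σ (τ x) = τ (σ x))
    (T Q : AddSubgroup F) (hTζ : ∀ x ∈ T, ζ * x ∈ T) (hTd : ∀ x ∈ T, (d : F)⁻¹ * x ∈ T)
    (hTσ : ∀ σ ∈ l, ∀ x ∈ T, σ x ∈ T)
    (h : ∀ x ∈ T, rtk6glEigen ζ l x → x ∈ Q) : T ≤ Q := by
  induction l generalizing T with
  | nil =>
    intro x hx
    exact h x hx (fun σ hσ => absurd hσ List.not_mem_nil)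
  | cons σ l ih =>
    have hσl : σ ∈ σ :: l := List.mem_cons_self
    refine rtk6gl_eigen_step hd hζ σ (hord σ hσl) (hζσ σ hσl) T Q hTζ hTd (hTσ σ hσl) ?_
    intro x hx i hxi
    -- the `ζ ^ i`-eigenspace of `σ` in `T`
    let Ti : AddSubgroup F :=
      { carrier := {y | y ∈ T ∧ σ y = ζ ^ i * y}
        zero_mem' := ⟨T.zero_mem, by simp⟩
        add_mem' := fun {a b} ha hb => ⟨T.add_mem ha.1 hb.1, by
          rw [map_add, ha.2, hb.2, mul_add]⟩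
        neg_mem' := fun {a} ha => ⟨T.neg_mem ha.1, by
          rw [map_neg, ha.2, mul_neg]⟩ }
    have hTi : ∀ y, y ∈ Ti ↔ y ∈ T ∧ σ y = ζ ^ i * y := fun y => Iff.rfl
    have key : Ti ≤ Q := by
      refine ih (fun τ hτ => hord τ (List.mem_cons_of_mem _ hτ))
        (fun τ hτ => hζσ τ (List.mem_cons_of_mem _ hτ))
        (fun τ hτ ρ hρ => hcomm τ (List.mem_cons_of_mem _ hτ) ρ (List.mem_cons_of_mem _ hρ))
        Ti ?_ ?_ ?_ ?_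
      · intro y hy
        rw [hTi] at hy ⊢
        refine ⟨hTζ y hy.1, ?_⟩
        rw [map_mul, hζσ σ hσl, hy.2]
        ring
      · intro y hy
        rw [hTi] at hy ⊢
        refine ⟨hTd y hy.1, ?_⟩
        rw [map_mul, map_inv₀, map_natCast, hy.2]
        ring
      · intro τ hτ y hy
        rw [hTi] at hy ⊢
        refine ⟨hTσ τ (List.mem_cons_of_mem _ hτ) y hy.1, ?_⟩
        rw [hcomm σ hσl τ (List.mem_cons_of_mem _ hτ) y, hy.2, map_mul, map_pow,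
          hζσ τ (List.mem_cons_of_mem _ hτ)]
      · intro y hy hyl
        rw [hTi] at hy
        refine h y hy.1 ?_
        intro τ hτ
        rcases List.mem_cons.mp hτ with rfl | hτ'
        · exact ⟨i, hy.2⟩
        · exact hyl τ hτ'
    exact key ((hTi x).mpr ⟨hx, hxi⟩)

end Eigen

end Fermat.Agent.RT.K6


end ZBRT_074_0

/-! ### bundled: `Fermat.Agent.RT.K6.DGLSS1` -/
section ZBRT_074_1
/-
K-machine, piece K6, piece D-GL part 2 (helper79): (SS1) and "the components pass through the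
closed points" for a Kummer tower, from the same statements at the base.

Abstract (Mathlib only).  `F` a field (`= F′`), `R` the chart of the base (`R₀`, normal,
unramified), `B` the chart of `F′` (`B′`), `j : R →+* B`, `ι : B →+* F`.
`l` = a list of pairwise commuting ring endomorphisms of `F` with `σ ^ d = 1` (generators of
the Galois group of `F′ / Frac R₀`), `ζ ∈ B` a primitive `d`-th root of unity, `d⁻¹ ∈ B`,
`σ B ⊆ B`, and `hfix`: the elements of `B` fixed by `l` come from `R` (Galois descent + `R₀`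
normal).  `V c` valuation subrings of `F` containing `B`, stable under `l`.

* `rtk6gl_core`    : `T = {b ∈ B : ∀ c, b ∈ 𝔪(V c)}` lies in an additive subgroup `Q` as soon as
  the `b ∈ T` with `b ^ d ∈ R` do;
* `rtk6gl_through` : `𝔪(W) ∩ R ⊆ 𝔫 ∩ R ⇒ 𝔪(W) ∩ B ⊆ 𝔫` for a prime `𝔫` of `B`;
* `rtk6gl_ss1`     : (SS1) for `B`, `π` (`π ^ d ∣ p ∣ π ^ d · B`) from (SS1) for `R`, `p`.
-/

set_option autoImplicit false

namespace Fermat.Agent.RT.K6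

section SS1

variable {F : Type*} [Field F] {R B : Type*} [CommRing R] [CommRing B]

theorem rtk6gl_nonunits_add (W : ValuationSubring F) {x y : F} (hx : x ∈ W.nonunits)
    (hy : y ∈ W.nonunits) : x + y ∈ W.nonunits := by
  rw [ValuationSubring.mem_nonunits_iff] at hx hy ⊢
  exact Valuation.map_add_lt _ hx hy

theorem rtk6gl_nonunits_neg (W : ValuationSubring F) {x : F} (hx : x ∈ W.nonunits) :
    -x ∈ W.nonunits := by
  rw [ValuationSubring.mem_nonunits_iff] at hx ⊢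
  rwa [Valuation.map_neg]

theorem rtk6gl_nonunits_mul (W : ValuationSubring F) {a x : F} (ha : a ∈ W)
    (hx : x ∈ W.nonunits) : a * x ∈ W.nonunits := by
  rw [ValuationSubring.mem_nonunits_iff] at hx ⊢
  rw [map_mul]
  have h1 : W.valuation a ≤ 1 := (ValuationSubring.valuation_le_one_iff W a).mpr ha
  calc W.valuation a * W.valuation x ≤ 1 * W.valuation x := by gcongr
    _ = W.valuation x := one_mul _
    _ < 1 := hx

theorem rtk6gl_nonunits_pow (W : ValuationSubring F) {x : F} (hx : x ∈ W.nonunits) {n : ℕ}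
    (hn : n ≠ 0) : x ^ n ∈ W.nonunits := by
  obtain ⟨m, rfl⟩ := Nat.exists_eq_succ_of_ne_zero hn
  have hxW : x ∈ W := ValuationSubring.nonunits_le hx
  rw [pow_succ']
  have : x * x ^ m = x ^ m * x := mul_comm _ _
  rw [this]
  exact rtk6gl_nonunits_mul W (W.pow_mem hxW m) hx

/-- `{b ∈ B : ∀ c, b ∈ 𝔪(V c)}` as an additive subgroup of `F` -/
def rtk6glT (ι : B →+* F) {κ : Type*} (V : κ → ValuationSubring F) : AddSubgroup F where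
  carrier := {x | (∀ c, x ∈ (V c).nonunits) ∧ ∃ b : B, ι b = x}
  zero_mem' := ⟨fun c => (V c).nonunits.zero_mem, 0, map_zero ι⟩
  add_mem' := by
    rintro x y ⟨hx, a, rfl⟩ ⟨hy, b, rfl⟩
    exact ⟨fun c => rtk6gl_nonunits_add _ (hx c) (hy c), a + b, map_add ι a b⟩
  neg_mem' := by
    rintro x ⟨hx, a, rfl⟩
    exact ⟨fun c => rtk6gl_nonunits_neg _ (hx c), -a, map_neg ι a⟩

theorem mem_rtk6glT (ι : B →+* F) {κ : Type*} (V : κ → ValuationSubring F) (x : F) :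
    x ∈ rtk6glT ι V ↔ (∀ c, x ∈ (V c).nonunits) ∧ ∃ b : B, ι b = x := Iff.rfl

/-- **The core.**  `T = {b ∈ B : ∀ c, b ∈ 𝔪(V c)}` lies in `Q` as soon as the elements `b` of
`T` with `b ^ d ∈ R` do. -/
theorem rtk6gl_core (j : R →+* B) (ι : B →+* F)
    {d : ℕ} (hd : (d : F) ≠ 0) {ζ : F} (hζ : IsPrimitiveRoot ζ d)
    (l : List (F →+* F)) (hord : ∀ σ ∈ l, ∀ x, (⇑σ)^[d] x = x) (hζσ : ∀ σ ∈ l, σ ζ = ζ)
    (hcomm : ∀ σ ∈ l, ∀ τ ∈ l, ∀ x, σ (τ x) = τ (σ x))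
    (hζB : ∃ b, ι b = ζ) (hdB : ∃ b, ι b = (d : F)⁻¹)
    (hlB : ∀ σ ∈ l, ∀ b : B, ∃ b', ι b' = σ (ι b))
    (hfix : ∀ b : B, (∀ σ ∈ l, σ (ι b) = ι b) → ∃ u : R, j u = b)
    {κ : Type*} (V : κ → ValuationSubring F) (hBV : ∀ c b, ι b ∈ V c)
    (hlV : ∀ σ ∈ l, ∀ c, ∀ x ∈ (V c).nonunits, σ x ∈ (V c).nonunits)
    (Q : AddSubgroup F)
    (h : ∀ b : B, (∀ c, ι b ∈ (V c).nonunits) → (∃ u : R, j u = b ^ d) → ι b ∈ Q) :
    rtk6glT ι V ≤ Q := by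
  obtain ⟨bζ, hbζ⟩ := hζB
  obtain ⟨bd, hbd⟩ := hdB
  refine rtk6gl_eigen hd hζ l hord hζσ hcomm (rtk6glT ι V) Q ?_ ?_ ?_ ?_
  · rintro x ⟨hx, b, rfl⟩
    refine ⟨fun c => rtk6gl_nonunits_mul _ ?_ (hx c), bζ * b, by rw [map_mul, hbζ]⟩
    rw [← hbζ]
    exact hBV c bζ
  · rintro x ⟨hx, b, rfl⟩
    refine ⟨fun c => rtk6gl_nonunits_mul _ ?_ (hx c), bd * b, by rw [map_mul, hbd]⟩
    rw [← hbd]
    exact hBV c bd
  · rintro σ hσ x ⟨hx, b, rfl⟩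
    obtain ⟨b', hb'⟩ := hlB σ hσ b
    exact ⟨fun c => hlV σ hσ c _ (hx c), b', hb'⟩
  · rintro x ⟨hx, b, rfl⟩ heig
    refine h b hx (hfix (b ^ d) fun σ hσ => ?_)
    obtain ⟨k, hk⟩ := heig σ hσ
    rw [map_pow, map_pow, hk, mul_pow, ← pow_mul, mul_comm k d, pow_mul, hζ.pow_eq_one, one_pow,
      one_mul]

/-- **The components pass through the closed points.**  If `𝔪(W) ∩ R ⊆ 𝔫 ∩ R` then
`𝔪(W) ∩ B ⊆ 𝔫`. -/
theorem rtk6gl_through (j : R →+* B) (ι : B →+* F)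
    {d : ℕ} (hd : (d : F) ≠ 0) {ζ : F} (hζ : IsPrimitiveRoot ζ d)
    (l : List (F →+* F)) (hord : ∀ σ ∈ l, ∀ x, (⇑σ)^[d] x = x) (hζσ : ∀ σ ∈ l, σ ζ = ζ)
    (hcomm : ∀ σ ∈ l, ∀ τ ∈ l, ∀ x, σ (τ x) = τ (σ x))
    (hζB : ∃ b, ι b = ζ) (hdB : ∃ b, ι b = (d : F)⁻¹)
    (hlB : ∀ σ ∈ l, ∀ b : B, ∃ b', ι b' = σ (ι b))
    (hfix : ∀ b : B, (∀ σ ∈ l, σ (ι b) = ι b) → ∃ u : R, j u = b)
    (W : ValuationSubring F) (hBW : ∀ b, ι b ∈ W)
    (hlW : ∀ σ ∈ l, ∀ x ∈ W.nonunits, σ x ∈ W.nonunits)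
    (𝔫 : Ideal B) [h𝔫 : 𝔫.IsPrime]
    (h₀ : ∀ u : R, ι (j u) ∈ W.nonunits → j u ∈ 𝔫) :
    ∀ b : B, ι b ∈ W.nonunits → b ∈ 𝔫 := by
  have hd0 : d ≠ 0 := by
    rintro rfl
    exact hd (by simp)
  -- `Q = ι 𝔫 + ker`-free form: `{x | ∀ b, ι b = x → b ∈ 𝔫}` is not a subgroup; use the image
  let Q : AddSubgroup F :=
    { carrier := {x | ∃ b ∈ 𝔫, ι b = x}
      zero_mem' := ⟨0, 𝔫.zero_mem, map_zero ι⟩
      add_mem' := by
        rintro x y ⟨a, ha, rfl⟩ ⟨b, hb, rfl⟩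
        exact ⟨a + b, 𝔫.add_mem ha hb, map_add ι a b⟩
      neg_mem' := by
        rintro x ⟨a, ha, rfl⟩
        exact ⟨-a, 𝔫.neg_mem ha, map_neg ι a⟩ }
  have key : rtk6glT ι (fun _ : Unit => W) ≤ Q := by
    refine rtk6gl_core j ι hd hζ l hord hζσ hcomm hζB hdB hlB hfix (fun _ : Unit => W)
      (fun _ b => hBW b) (fun σ hσ _ x hx => hlW σ hσ x hx) Q ?_
    rintro b hb ⟨u, hu⟩
    have h1 : ι (j u) ∈ W.nonunits := by
      rw [hu, map_pow]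
      exact rtk6gl_nonunits_pow W (hb ()) hd0
    have h2 : b ^ d ∈ 𝔫 := hu ▸ h₀ u h1
    exact ⟨b, h𝔫.mem_of_pow_mem d h2, rfl⟩
  intro b hb
  obtain ⟨b', hb', hbb'⟩ := key ⟨fun _ => hb, b, rfl⟩
  -- `ι b' = ι b` with `b' ∈ 𝔫`; conclude via `b - b' ∈ ker ι` … we need injectivity-free:
  -- `b - b'` has `ι (b - b') = 0 ∈ 𝔪(W)`, and `(b - b') ^ d` is fixed, so it is in `𝔫` as well.
  have h0 : ι (b - b') = 0 := by rw [map_sub, hbb', sub_self]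
  have hfix0 : ∃ u : R, j u = (b - b') ^ d := by
    refine hfix _ fun σ hσ => ?_
    rw [map_pow, h0, zero_pow hd0, map_zero]
  obtain ⟨u, hu⟩ := hfix0
  have h1 : ι (j u) ∈ W.nonunits := by
    rw [hu, map_pow, h0, zero_pow hd0]
    exact W.nonunits.zero_mem
  have h2 : (b - b') ^ d ∈ 𝔫 := hu ▸ h₀ u h1
  have h3 : b - b' ∈ 𝔫 := h𝔫.mem_of_pow_mem d h2
  have : b = (b - b') + b' := by ring
  rw [this]
  exact 𝔫.add_mem h3 hb'

/-- **(SS1) for `B`** from (SS1) for `R`: `b ∈ B` in all the `𝔪(V c)` is divisible by `π`. -/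
theorem rtk6gl_ss1 (j : R →+* B) (ι : B →+* F) (hι : Function.Injective ι)
    {d : ℕ} (hd : (d : F) ≠ 0) {ζ : F} (hζ : IsPrimitiveRoot ζ d)
    (l : List (F →+* F)) (hord : ∀ σ ∈ l, ∀ x, (⇑σ)^[d] x = x) (hζσ : ∀ σ ∈ l, σ ζ = ζ)
    (hcomm : ∀ σ ∈ l, ∀ τ ∈ l, ∀ x, σ (τ x) = τ (σ x))
    (hζB : ∃ b, ι b = ζ) (hdB : ∃ b, ι b = (d : F)⁻¹)
    (hlB : ∀ σ ∈ l, ∀ b : B, ∃ b', ι b' = σ (ι b))
    (hfix : ∀ b : B, (∀ σ ∈ l, σ (ι b) = ι b) → ∃ u : R, j u = b)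
    (hroot : ∀ x : F, (∃ b, ι b = x ^ d) → ∃ b, ι b = x)
    {κ : Type*} (V : κ → ValuationSubring F) (hBV : ∀ c b, ι b ∈ V c)
    (hlV : ∀ σ ∈ l, ∀ c, ∀ x ∈ (V c).nonunits, σ x ∈ (V c).nonunits)
    (p : R) (π : B) (hπ0 : π ≠ 0) (hπp : ∃ ε : B, j p = π ^ d * ε)
    (hSS1₀ : ∀ u : R, (∀ c, ι (j u) ∈ (V c).nonunits) → p ∣ u) :
    ∀ b : B, (∀ c, ι b ∈ (V c).nonunits) → π ∣ b := by
  have hιπ : ι π ≠ 0 := fun h => hπ0 (hι (by rw [h, map_zero]))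
  obtain ⟨ε, hε⟩ := hπp
  let Q : AddSubgroup F :=
    { carrier := {x | ∃ b : B, ι (π * b) = x}
      zero_mem' := ⟨0, by simp⟩
      add_mem' := by
        rintro x y ⟨a, rfl⟩ ⟨b, rfl⟩
        exact ⟨a + b, by rw [mul_add, map_add]⟩
      neg_mem' := by
        rintro x ⟨a, rfl⟩
        exact ⟨-a, by rw [mul_neg, map_neg]⟩ }
  have key : rtk6glT ι V ≤ Q := by
    refine rtk6gl_core j ι hd hζ l hord hζσ hcomm hζB hdB hlB hfix V hBV hlV Q ?_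
    rintro b hb ⟨u, hu⟩
    have h1 : ∀ c, ι (j u) ∈ (V c).nonunits := fun c => by
      rw [hu, map_pow]
      have hd0 : d ≠ 0 := by
        rintro rfl
        exact hd (by simp)
      exact rtk6gl_nonunits_pow _ (hb c) hd0
    obtain ⟨u', rfl⟩ := hSS1₀ u h1
    -- `(ι b / ι π) ^ d = ι (ε * j u')`
    have h2 : ι (ε * j u') = (ι b / ι π) ^ d := by
      rw [div_pow, ← map_pow, ← hu, map_mul j, hε, ← map_pow ι π d, eq_div_iff (by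
        rw [map_pow]; exact pow_ne_zero _ hιπ), ← map_mul]
      congr 1
      ring
    obtain ⟨b', hb'⟩ := hroot (ι b / ι π) ⟨_, h2⟩
    refine ⟨b', ?_⟩
    rw [map_mul, hb', mul_div_cancel₀ _ hιπ]
  intro b hb
  obtain ⟨b', hb'⟩ := key ⟨hb, b, rfl⟩
  exact ⟨b', (hι hb').symm⟩

end SS1

end Fermat.Agent.RT.K6


end ZBRT_074_1

/-! ### bundled: `Fermat.Agent.RT.K6.DGLSS1U` -/
section ZBRT_074_2
/-
K-machine, piece K6, piece D-GL part 5 (helper79): (SS1) for a Kummer tower whose exponent `D`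
is a MULTIPLE of the ramification index (étale generators of larger order, MULTI).

Setting of `DGLSS1.lean`, but `l` has exponent `D`, and `(j p) ^ k = π ^ D · unit` (for
`π ^ d = p`: `k = D / d`).  The extra hypothesis is `hunif`: `π` is a uniformizer of every `V c`
(`x ∈ 𝔪(V c) → x / π ∈ V c`; the `V c` are Gauss valuations over the base `A₁ ∋ π`).

* `rtk6gl_ss1_iter` : (SS1) for `R` iterated: `u / p ^ k ∈ V c` for all `c` ⇒ `p ^ k ∣ u`;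
* `rtk6gl_ss1_unif` : (SS1) for `B`.
-/

set_option autoImplicit false

namespace Fermat.Agent.RT.K6

section SS1U

variable {F : Type*} [Field F] {R B : Type*} [CommRing R] [CommRing B]

/-- (SS1) for `R`, iterated. -/
theorem rtk6gl_ss1_iter (ψ : R →+* F) {κ : Type*} (V : κ → ValuationSubring F)
    (hRV : ∀ c u, ψ u ∈ V c) (p : R) (hp0 : ψ p ≠ 0) (hpV : ∀ c, ψ p ∈ (V c).nonunits)
    (hSS1₀ : ∀ u : R, (∀ c, ψ u ∈ (V c).nonunits) → p ∣ u) (k : ℕ) :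
    ∀ u : R, (∀ c, ψ u / ψ p ^ k ∈ V c) → p ^ k ∣ u := by
  induction k with
  | zero => intro u _; simp
  | succ k ih =>
    intro u hu
    have h1 : ∀ c, ψ u ∈ (V c).nonunits := fun c => by
      have e : ψ u = (ψ p ^ k * (ψ u / ψ p ^ (k + 1))) * ψ p := by
        field_simp
        rw [pow_succ, mul_assoc]
      rw [e]
      have h2 : ψ p ^ k * (ψ u / ψ p ^ (k + 1)) ∈ V c :=
        (V c).mul_mem _ _ (pow_mem (hRV c p) k) (hu c)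
      exact rtk6gl_nonunits_mul (V c) h2 (hpV c)
    obtain ⟨u₁, rfl⟩ := hSS1₀ u h1
    have h3 : p ^ k ∣ u₁ := by
      refine ih u₁ fun c => ?_
      have e : ψ u₁ / ψ p ^ k = ψ (p * u₁) / ψ p ^ (k + 1) := by
        rw [map_mul, pow_succ]
        field_simp
      rw [e]
      exact hu c
    rw [pow_succ']
    exact mul_dvd_mul_left p h3

/-- **(SS1) for `B`**, exponent `D`, `(j p) ^ k = π ^ D · unit`, `π` a uniformizer of the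
`V c`. -/
theorem rtk6gl_ss1_unif (j : R →+* B) (ι : B →+* F) (hι : Function.Injective ι)
    {D : ℕ} (hD : (D : F) ≠ 0) {ζ : F} (hζ : IsPrimitiveRoot ζ D)
    (l : List (F →+* F)) (hord : ∀ σ ∈ l, ∀ x, (⇑σ)^[D] x = x) (hζσ : ∀ σ ∈ l, σ ζ = ζ)
    (hcomm : ∀ σ ∈ l, ∀ τ ∈ l, ∀ x, σ (τ x) = τ (σ x))
    (hζB : ∃ b, ι b = ζ) (hdB : ∃ b, ι b = (D : F)⁻¹)
    (hlB : ∀ σ ∈ l, ∀ b : B, ∃ b', ι b' = σ (ι b))
    (hfix : ∀ b : B, (∀ σ ∈ l, σ (ι b) = ι b) → ∃ u : R, j u = b)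
    (hroot : ∀ x : F, (∃ b, ι b = x ^ D) → ∃ b, ι b = x)
    {κ : Type*} (V : κ → ValuationSubring F) (hBV : ∀ c b, ι b ∈ V c)
    (hlV : ∀ σ ∈ l, ∀ c, ∀ x ∈ (V c).nonunits, σ x ∈ (V c).nonunits)
    (p : R) (π : B) (hπ0 : π ≠ 0) (k : ℕ)
    (hπp : ∃ ε ε' : B, j p ^ k = π ^ D * ε ∧ ε * ε' = 1)
    (hp0 : j p ≠ 0) (hpV : ∀ c, ι (j p) ∈ (V c).nonunits)
    (hunif : ∀ c, ∀ x ∈ (V c).nonunits, x / ι π ∈ V c)
    (hSS1₀ : ∀ u : R, (∀ c, ι (j u) ∈ (V c).nonunits) → p ∣ u) :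
    ∀ b : B, (∀ c, ι b ∈ (V c).nonunits) → π ∣ b := by
  have hιπ : ι π ≠ 0 := fun h => hπ0 (hι (by rw [h, map_zero]))
  have hιp : ι (j p) ≠ 0 := fun h => hp0 (hι (by rw [h, map_zero]))
  obtain ⟨ε, ε', hε, hεε'⟩ := hπp
  have hιε : ι ε * ι ε' = 1 := by rw [← map_mul, hεε', map_one]
  have hιε0 : ι ε ≠ 0 := left_ne_zero_of_mul_eq_one hιε
  have hpk : ι (j p) ^ k = ι π ^ D * ι ε := by
    rw [← map_pow ι (j p) k, hε, map_mul, map_pow]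
  let Q : AddSubgroup F :=
    { carrier := {x | ∃ b : B, ι (π * b) = x}
      zero_mem' := ⟨0, by simp⟩
      add_mem' := by
        rintro x y ⟨a, rfl⟩ ⟨b, rfl⟩
        exact ⟨a + b, by rw [mul_add, map_add]⟩
      neg_mem' := by
        rintro x ⟨a, rfl⟩
        exact ⟨-a, by rw [mul_neg, map_neg]⟩ }
  have key : rtk6glT ι V ≤ Q := by
    refine rtk6gl_core j ι hD hζ l hord hζσ hcomm hζB hdB hlB hfix V hBV hlV Q ?_
    rintro b hb ⟨u, hu⟩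
    have h1 : ∀ c, (ι.comp j) u / (ι.comp j) p ^ k ∈ V c := fun c => by
      have e : (ι.comp j) u / (ι.comp j) p ^ k = (ι b / ι π) ^ D * ι ε' := by
        rw [RingHom.comp_apply, RingHom.comp_apply, hu, hpk, map_pow, div_pow]
        have : ι ε' = (ι ε)⁻¹ := (inv_eq_of_mul_eq_one_right hιε).symm
        rw [this]
        field_simp
      rw [e]
      exact (V c).mul_mem _ _ (pow_mem (hunif c _ (hb c)) D) (hBV c ε')
    obtain ⟨u', rfl⟩ := rtk6gl_ss1_iter (ι.comp j) V (fun c u => hBV c (j u)) p hιp hpV hSS1₀ k u h1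
    -- `(ι b / ι π) ^ D = ι (ε * j u')`
    have h2 : ι (ε * j u') = (ι b / ι π) ^ D := by
      rw [div_pow, ← map_pow ι b, ← hu, map_mul j, map_pow j, hε, ← map_pow ι π D,
        eq_div_iff (by rw [map_pow]; exact pow_ne_zero _ hιπ), ← map_mul]
      congr 1
      ring
    obtain ⟨b', hb'⟩ := hroot (ι b / ι π) ⟨_, h2⟩
    refine ⟨b', ?_⟩
    rw [map_mul, hb', mul_div_cancel₀ _ hιπ]
  intro b hb
  obtain ⟨b', hb'⟩ := key ⟨hb, b, rfl⟩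
  exact ⟨b', (hι hb').symm⟩

end SS1U

end Fermat.Agent.RT.K6


end ZBRT_074_2

/-! ### bundled: `Fermat.Agent.RT.K6.DGLSS1P` -/
section ZBRT_074_3
/-
K-machine, piece K6, v5 (M2) (helper79): (SS1) for a FAMILY of vertical valuations which is
PERMUTED by the Galois group of the Kummer tower (`κ` = all the conjugates of `V_∞`, `V_0`).

Setting of `DGLSS1.lean`, with `hlV` weakened to
  `hlV' : ∀ σ ∈ l, ∀ c, ∃ c', ∀ x ∈ (V c').nonunits, σ x ∈ (V c).nonunits`.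

* `rtk6gl_core_perm`     : the core;
* `rtk6gl_ss1_perm`      : (SS1) for `B`, exponent `d` = ramification index;
* `rtk6gl_ss1_unif_perm` : (SS1) for `B`, exponent `D`, `(j p) ^ k = π ^ D · unit`, `π` a
  uniformizer of the `V c`;
* `rtk6gl_through_perm`  : if the `V c` are permuted by `l` and `⋂_c 𝔪(V c) ∩ R ⊆ 𝔫 ∩ R` (`𝔫` a
  prime of `B`, `κ` finite), then SOME `V c` passes through `𝔫`: `𝔪(V c) ∩ B ⊆ 𝔫`.
-/

set_option autoImplicit false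
set_option linter.style.haveILetI false

namespace Fermat.Agent.RT.K6

section Perm

variable {F : Type*} [Field F] {R B : Type*} [CommRing R] [CommRing B]

/-- **The core, permuted family.** -/
theorem rtk6gl_core_perm (j : R →+* B) (ι : B →+* F)
    {d : ℕ} (hd : (d : F) ≠ 0) {ζ : F} (hζ : IsPrimitiveRoot ζ d)
    (l : List (F →+* F)) (hord : ∀ σ ∈ l, ∀ x, (⇑σ)^[d] x = x) (hζσ : ∀ σ ∈ l, σ ζ = ζ)
    (hcomm : ∀ σ ∈ l, ∀ τ ∈ l, ∀ x, σ (τ x) = τ (σ x))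
    (hζB : ∃ b, ι b = ζ) (hdB : ∃ b, ι b = (d : F)⁻¹)
    (hlB : ∀ σ ∈ l, ∀ b : B, ∃ b', ι b' = σ (ι b))
    (hfix : ∀ b : B, (∀ σ ∈ l, σ (ι b) = ι b) → ∃ u : R, j u = b)
    {κ : Type*} (V : κ → ValuationSubring F) (hBV : ∀ c b, ι b ∈ V c)
    (hlV' : ∀ σ ∈ l, ∀ c, ∃ c', ∀ x ∈ (V c').nonunits, σ x ∈ (V c).nonunits)
    (Q : AddSubgroup F)
    (h : ∀ b : B, (∀ c, ι b ∈ (V c).nonunits) → (∃ u : R, j u = b ^ d) → ι b ∈ Q) :
    rtk6glT ι V ≤ Q := by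
  obtain ⟨bζ, hbζ⟩ := hζB
  obtain ⟨bd, hbd⟩ := hdB
  refine rtk6gl_eigen hd hζ l hord hζσ hcomm (rtk6glT ι V) Q ?_ ?_ ?_ ?_
  · rintro x ⟨hx, b, rfl⟩
    refine ⟨fun c => rtk6gl_nonunits_mul _ ?_ (hx c), bζ * b, by rw [map_mul, hbζ]⟩
    rw [← hbζ]
    exact hBV c bζ
  · rintro x ⟨hx, b, rfl⟩
    refine ⟨fun c => rtk6gl_nonunits_mul _ ?_ (hx c), bd * b, by rw [map_mul, hbd]⟩
    rw [← hbd]
    exact hBV c bd
  · rintro σ hσ x ⟨hx, b, rfl⟩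
    obtain ⟨b', hb'⟩ := hlB σ hσ b
    refine ⟨fun c => ?_, b', hb'⟩
    obtain ⟨c', hc'⟩ := hlV' σ hσ c
    exact hc' _ (hx c')
  · rintro x ⟨hx, b, rfl⟩ heig
    refine h b hx (hfix (b ^ d) fun σ hσ => ?_)
    obtain ⟨k, hk⟩ := heig σ hσ
    rw [map_pow, map_pow, hk, mul_pow, ← pow_mul, mul_comm k d, pow_mul, hζ.pow_eq_one, one_pow,
      one_mul]

/-- **(SS1) for `B`, permuted family**, exponent `d` = ramification index. -/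
theorem rtk6gl_ss1_perm (j : R →+* B) (ι : B →+* F) (hι : Function.Injective ι)
    {d : ℕ} (hd : (d : F) ≠ 0) {ζ : F} (hζ : IsPrimitiveRoot ζ d)
    (l : List (F →+* F)) (hord : ∀ σ ∈ l, ∀ x, (⇑σ)^[d] x = x) (hζσ : ∀ σ ∈ l, σ ζ = ζ)
    (hcomm : ∀ σ ∈ l, ∀ τ ∈ l, ∀ x, σ (τ x) = τ (σ x))
    (hζB : ∃ b, ι b = ζ) (hdB : ∃ b, ι b = (d : F)⁻¹)
    (hlB : ∀ σ ∈ l, ∀ b : B, ∃ b', ι b' = σ (ι b))
    (hfix : ∀ b : B, (∀ σ ∈ l, σ (ι b) = ι b) → ∃ u : R, j u = b)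
    (hroot : ∀ x : F, (∃ b, ι b = x ^ d) → ∃ b, ι b = x)
    {κ : Type*} (V : κ → ValuationSubring F) (hBV : ∀ c b, ι b ∈ V c)
    (hlV' : ∀ σ ∈ l, ∀ c, ∃ c', ∀ x ∈ (V c').nonunits, σ x ∈ (V c).nonunits)
    (p : R) (π : B) (hπ0 : π ≠ 0) (hπp : ∃ ε : B, j p = π ^ d * ε)
    (hSS1₀ : ∀ u : R, (∀ c, ι (j u) ∈ (V c).nonunits) → p ∣ u) :
    ∀ b : B, (∀ c, ι b ∈ (V c).nonunits) → π ∣ b := by
  have hιπ : ι π ≠ 0 := fun h => hπ0 (hι (by rw [h, map_zero]))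
  have hd0 : d ≠ 0 := by
    rintro rfl
    exact hd (by simp)
  obtain ⟨ε, hε⟩ := hπp
  let Q : AddSubgroup F :=
    { carrier := {x | ∃ b : B, ι (π * b) = x}
      zero_mem' := ⟨0, by simp⟩
      add_mem' := by
        rintro x y ⟨a, rfl⟩ ⟨b, rfl⟩
        exact ⟨a + b, by rw [mul_add, map_add]⟩
      neg_mem' := by
        rintro x ⟨a, rfl⟩
        exact ⟨-a, by rw [mul_neg, map_neg]⟩ }
  have key : rtk6glT ι V ≤ Q := by
    refine rtk6gl_core_perm j ι hd hζ l hord hζσ hcomm hζB hdB hlB hfix V hBV hlV' Q ?_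
    rintro b hb ⟨u, hu⟩
    have h1 : ∀ c, ι (j u) ∈ (V c).nonunits := fun c => by
      rw [hu, map_pow]
      exact rtk6gl_nonunits_pow _ (hb c) hd0
    obtain ⟨u', rfl⟩ := hSS1₀ u h1
    have h2 : ι (ε * j u') = (ι b / ι π) ^ d := by
      rw [div_pow, ← map_pow, ← hu, map_mul j, hε, ← map_pow ι π d, eq_div_iff (by
        rw [map_pow]; exact pow_ne_zero _ hιπ), ← map_mul]
      congr 1
      ring
    obtain ⟨b', hb'⟩ := hroot (ι b / ι π) ⟨_, h2⟩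
    refine ⟨b', ?_⟩
    rw [map_mul, hb', mul_div_cancel₀ _ hιπ]
  intro b hb
  obtain ⟨b', hb'⟩ := key ⟨hb, b, rfl⟩
  exact ⟨b', (hι hb').symm⟩

/-- **(SS1) for `B`, permuted family**, exponent `D`, `(j p) ^ k = π ^ D · unit`, `π` a
uniformizer of the `V c`. -/
theorem rtk6gl_ss1_unif_perm (j : R →+* B) (ι : B →+* F) (hι : Function.Injective ι)
    {D : ℕ} (hD : (D : F) ≠ 0) {ζ : F} (hζ : IsPrimitiveRoot ζ D)
    (l : List (F →+* F)) (hord : ∀ σ ∈ l, ∀ x, (⇑σ)^[D] x = x) (hζσ : ∀ σ ∈ l, σ ζ = ζ)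
    (hcomm : ∀ σ ∈ l, ∀ τ ∈ l, ∀ x, σ (τ x) = τ (σ x))
    (hζB : ∃ b, ι b = ζ) (hdB : ∃ b, ι b = (D : F)⁻¹)
    (hlB : ∀ σ ∈ l, ∀ b : B, ∃ b', ι b' = σ (ι b))
    (hfix : ∀ b : B, (∀ σ ∈ l, σ (ι b) = ι b) → ∃ u : R, j u = b)
    (hroot : ∀ x : F, (∃ b, ι b = x ^ D) → ∃ b, ι b = x)
    {κ : Type*} (V : κ → ValuationSubring F) (hBV : ∀ c b, ι b ∈ V c)
    (hlV' : ∀ σ ∈ l, ∀ c, ∃ c', ∀ x ∈ (V c').nonunits, σ x ∈ (V c).nonunits)
    (p : R) (π : B) (hπ0 : π ≠ 0) (k : ℕ)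
    (hπp : ∃ ε ε' : B, j p ^ k = π ^ D * ε ∧ ε * ε' = 1)
    (hp0 : j p ≠ 0) (hpV : ∀ c, ι (j p) ∈ (V c).nonunits)
    (hunif : ∀ c, ∀ x ∈ (V c).nonunits, x / ι π ∈ V c)
    (hSS1₀ : ∀ u : R, (∀ c, ι (j u) ∈ (V c).nonunits) → p ∣ u) :
    ∀ b : B, (∀ c, ι b ∈ (V c).nonunits) → π ∣ b := by
  have hιπ : ι π ≠ 0 := fun h => hπ0 (hι (by rw [h, map_zero]))
  have hιp : ι (j p) ≠ 0 := fun h => hp0 (hι (by rw [h, map_zero]))
  obtain ⟨ε, ε', hε, hεε'⟩ := hπp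
  have hιε : ι ε * ι ε' = 1 := by rw [← map_mul, hεε', map_one]
  have hιε0 : ι ε ≠ 0 := left_ne_zero_of_mul_eq_one hιε
  have hpk : ι (j p) ^ k = ι π ^ D * ι ε := by
    rw [← map_pow ι (j p) k, hε, map_mul, map_pow]
  let Q : AddSubgroup F :=
    { carrier := {x | ∃ b : B, ι (π * b) = x}
      zero_mem' := ⟨0, by simp⟩
      add_mem' := by
        rintro x y ⟨a, rfl⟩ ⟨b, rfl⟩
        exact ⟨a + b, by rw [mul_add, map_add]⟩
      neg_mem' := by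
        rintro x ⟨a, rfl⟩
        exact ⟨-a, by rw [mul_neg, map_neg]⟩ }
  have key : rtk6glT ι V ≤ Q := by
    refine rtk6gl_core_perm j ι hD hζ l hord hζσ hcomm hζB hdB hlB hfix V hBV hlV' Q ?_
    rintro b hb ⟨u, hu⟩
    have h1 : ∀ c, (ι.comp j) u / (ι.comp j) p ^ k ∈ V c := fun c => by
      have e : (ι.comp j) u / (ι.comp j) p ^ k = (ι b / ι π) ^ D * ι ε' := by
        rw [RingHom.comp_apply, RingHom.comp_apply, hu, hpk, map_pow, div_pow]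
        have : ι ε' = (ι ε)⁻¹ := (inv_eq_of_mul_eq_one_right hιε).symm
        rw [this]
        field_simp
      rw [e]
      exact (V c).mul_mem _ _ (pow_mem (hunif c _ (hb c)) D) (hBV c ε')
    obtain ⟨u', rfl⟩ := rtk6gl_ss1_iter (ι.comp j) V (fun c u => hBV c (j u)) p hιp hpV hSS1₀ k u h1
    have h2 : ι (ε * j u') = (ι b / ι π) ^ D := by
      rw [div_pow, ← map_pow ι b, ← hu, map_mul j, map_pow j, hε, ← map_pow ι π D,
        eq_div_iff (by rw [map_pow]; exact pow_ne_zero _ hιπ), ← map_mul]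
      congr 1
      ring
    obtain ⟨b', hb'⟩ := hroot (ι b / ι π) ⟨_, h2⟩
    refine ⟨b', ?_⟩
    rw [map_mul, hb', mul_div_cancel₀ _ hιπ]
  intro b hb
  obtain ⟨b', hb'⟩ := key ⟨hb, b, rfl⟩
  exact ⟨b', (hι hb').symm⟩

/-- **Some member of a permuted family passes through `𝔫`.** -/
theorem rtk6gl_through_perm (j : R →+* B) (ι : B →+* F)
    {d : ℕ} (hd : (d : F) ≠ 0) {ζ : F} (hζ : IsPrimitiveRoot ζ d)
    (l : List (F →+* F)) (hord : ∀ σ ∈ l, ∀ x, (⇑σ)^[d] x = x) (hζσ : ∀ σ ∈ l, σ ζ = ζ)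
    (hcomm : ∀ σ ∈ l, ∀ τ ∈ l, ∀ x, σ (τ x) = τ (σ x))
    (hζB : ∃ b, ι b = ζ) (hdB : ∃ b, ι b = (d : F)⁻¹)
    (hlB : ∀ σ ∈ l, ∀ b : B, ∃ b', ι b' = σ (ι b))
    (hfix : ∀ b : B, (∀ σ ∈ l, σ (ι b) = ι b) → ∃ u : R, j u = b)
    {κ : Type*} [Finite κ] (V : κ → ValuationSubring F) (hBV : ∀ c b, ι b ∈ V c)
    (hlV' : ∀ σ ∈ l, ∀ c, ∃ c', ∀ x ∈ (V c').nonunits, σ x ∈ (V c).nonunits)
    (𝔫 : Ideal B) [h𝔫 : 𝔫.IsPrime]
    (h₀ : ∀ u : R, (∀ c, ι (j u) ∈ (V c).nonunits) → j u ∈ 𝔫) :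
    ∃ c, ∀ b : B, ι b ∈ (V c).nonunits → b ∈ 𝔫 := by
  classical
  have hd0 : d ≠ 0 := by
    rintro rfl
    exact hd (by simp)
  let Q : AddSubgroup F :=
    { carrier := {x | ∃ b ∈ 𝔫, ι b = x}
      zero_mem' := ⟨0, 𝔫.zero_mem, map_zero ι⟩
      add_mem' := by
        rintro x y ⟨a, ha, rfl⟩ ⟨b, hb, rfl⟩
        exact ⟨a + b, 𝔫.add_mem ha hb, map_add ι a b⟩
      neg_mem' := by
        rintro x ⟨a, ha, rfl⟩
        exact ⟨-a, 𝔫.neg_mem ha, map_neg ι a⟩ }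
  have key : rtk6glT ι V ≤ Q := by
    refine rtk6gl_core_perm j ι hd hζ l hord hζσ hcomm hζB hdB hlB hfix V hBV hlV' Q ?_
    rintro b hb ⟨u, hu⟩
    have h1 : ∀ c, ι (j u) ∈ (V c).nonunits := fun c => by
      rw [hu, map_pow]
      exact rtk6gl_nonunits_pow _ (hb c) hd0
    have h2 : b ^ d ∈ 𝔫 := hu ▸ h₀ u h1
    exact ⟨b, h𝔫.mem_of_pow_mem d h2, rfl⟩
  -- the intersection of the `𝔪(V c) ∩ B` lies in `𝔫`
  have hT : ∀ b : B, (∀ c, ι b ∈ (V c).nonunits) → b ∈ 𝔫 := by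
    intro b hb
    obtain ⟨b', hb', hbb'⟩ := key ⟨hb, b, rfl⟩
    have h0 : ι (b - b') = 0 := by rw [map_sub, hbb', sub_self]
    have hfix0 : ∃ u : R, j u = (b - b') ^ d := by
      refine hfix _ fun σ hσ => ?_
      rw [map_pow, h0, zero_pow hd0, map_zero]
    obtain ⟨u, hu⟩ := hfix0
    have h1 : ∀ c, ι (j u) ∈ (V c).nonunits := fun c => by
      rw [hu, map_pow, h0, zero_pow hd0]
      exact (V c).nonunits.zero_mem
    have h2 : (b - b') ^ d ∈ 𝔫 := hu ▸ h₀ u h1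
    have h3 : b - b' ∈ 𝔫 := h𝔫.mem_of_pow_mem d h2
    have : b = (b - b') + b' := by ring
    rw [this]
    exact 𝔫.add_mem h3 hb'
  -- one of them lies in `𝔫`
  by_contra hcon
  push Not at hcon
  choose f hf hf' using hcon
  letI := Fintype.ofFinite κ
  have hprod : ∏ c, f c ∈ 𝔫 := by
    refine hT _ fun c => ?_
    have e : ∏ c', f c' = (∏ c' ∈ Finset.univ.erase c, f c') * f c :=
      (Finset.prod_erase_mul _ _ (Finset.mem_univ c)).symm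
    rw [e, map_mul]
    exact rtk6gl_nonunits_mul _ (hBV c _) (hf c)
  obtain ⟨c, -, hc⟩ := (h𝔫.prod_mem_iff).mp hprod
  exact hf' c hc

end Perm

end Fermat.Agent.RT.K6


end ZBRT_074_3

/-! ### bundled: `Fermat.Agent.RT.K6.SS1InstB` -/
section ZBRT_074_4

/-!
# RT-K6 / SS1-inst (helper50): `Rtk6emSS1` for the family of all conjugates of `V_∞`, `V_0`

Setting of `RT/K6/DIFamMg.lean` / `RT/K6/M4EMain.lean` (helper82): `A′ = mgcA A K₁` a DVR with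
uniformizer `π`, `F′ = rtk6diF A K₁ (M₁ q) M H`, `w` with `Rtk6dvWIncl`, `V = rtk6dfV hπ M H w`.

**`rtk6sj_emSS1`** : `Rtk6emSS1 A K₁ (M₁ q) M H π (rtk6dfV hπ M H w)` (the special fibre of the
chart `j` of `F′` over `A′` is reduced, with components the `V c`) from

* `h2 : q = 2 → 3 ∣ M₁`, `h3 : q = 3 → 2 ∣ M₁` (`RegChart`, (SS1) of the `Γ₀(M₁ q)`-chart over
  `A′` : `mgcb_reg_SS1_J`, `stb_regChart_conc_J`);
* a tame exponent `d` : `d ≠ 0`, `¬ q ∣ d`, `∀ c : (ZMod M)ˣ, c ^ d ∈ pmH H` (e.g. the `d` of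
  `IsTameAt (M₁ q) M q H`).

Proof: helper79's `rtk6gl_ss1_unif_perm` (`RT/K6/DGLSS1P.lean`) with `R` = the `Γ₀`-chart over
`A′`, `j = rtk6sfJ`, `l` = the list of all elements of `Γ = rtk6dfGam`, `D = k = d`, `p = π`;
`hfix` = Galois descent (`RT/K6/SS1Fix.lean`).

* `rtk6sj_diamond_pow`, `rtk6sj_gam_pow` : `γ ^ d = 1` on `F′` for `γ ∈ Γ`;
* `rtk6sj_emSS1_W` : the instance `w = rtk6diwW`;
* `rtk6sj_emSS1_tame` : from `IsTameAt (M₁ q) M q H`.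
-/

set_option autoImplicit false
set_option linter.style.haveILetI false
set_option linter.unusedSectionVars false
set_option linter.unusedVariables false
set_option maxHeartbeats 1000000

noncomputable section

namespace Fermat.Agent.RT.K6

open ModularCurve AlgebraicCurve Fermat.Agent.ES Fermat.Agent.ES.G2 Fermat.Agent.INJ
open Fermat.Agent.UNIP Fermat.Agent.STB Fermat.Agent.ES1 Fermat.Agent.ES1.G2 Fermat.Agent.AL
open IntermediateField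

/-! ### `γ ^ d = 1` for `γ ∈ Γ` -/

section Pow

variable {K : Type} [Field K] [CharZero K] [Algebra.IsAlgebraic ℚ K]
  {L M : ℕ} [NeZero M] {H : Subgroup (ZMod M)ˣ}

/-- the powers of a diamond on the `S_b` -/
theorem rtk6sj_diamond_pow (hML : M ∣ L) {c : (ZMod M)ˣ}
    {δ : ↥(fieldC K L M H) ≃ₐ[K] ↥(fieldC K L M H)} (hδ : IsDiamondC K L M H c δ) (n : ℕ)
    (b : (ZMod M)ˣ) :
    (δ ^ n) ⟨sS K M H b, rtk6d0_sS_mem K M H hML b⟩ =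
      ⟨sS K M H (b * c ^ n), rtk6d0_sS_mem K M H hML (b * c ^ n)⟩ := by
  induction n generalizing b with
  | zero =>
      apply Subtype.ext
      show sS K M H b = sS K M H (b * c ^ 0)
      rw [pow_zero, mul_one]
  | succ n ih =>
      rw [pow_succ, AlgEquiv.mul_apply]
      have e1 : δ ⟨sS K M H b, rtk6d0_sS_mem K M H hML b⟩ =
          ⟨sS K M H (b * c), rtk6d0_sS_mem K M H hML (b * c)⟩ :=
        Subtype.ext (hδ.map_sS hML b)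
      rw [e1, ih (b * c)]
      apply Subtype.ext
      show sS K M H (b * c * c ^ n) = sS K M H (b * c ^ (n + 1))
      rw [pow_succ', mul_assoc]

/-- **`γ ^ d = 1`** for `γ ∈ Γ`, `d` an exponent of `(ℤ/M)ˣ / ±H` -/
theorem rtk6sj_gam_pow (hL : L ≠ 0) (hML : M ∣ L) {d : ℕ} (hd : ∀ c : (ZMod M)ˣ, c ^ d ∈ pmH H)
    {γ : ↥(fieldC K L M H) ≃ₐ[K] ↥(fieldC K L M H)} (hγ : γ ∈ rtk6dfGam K L M H)
    (x : ↥(fieldC K L M H)) : (γ ^ d) x = x := by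
  obtain ⟨c, hc⟩ := rtk6df_isDiamond hL hML hγ
  refine rtk6df_eq_one_of_fix hL hML ((rtk6dfGam K L M H).pow_mem hγ d) ?_ x
  rw [rtk6sj_diamond_pow hML hc d 1]
  show sS K M H (1 * c ^ d) = sS K M H 1
  exact es1f_sS_eq_of_inPM K (es1rc_inPM_mul_of_mem 1 (hd c))

/-- the iterate form -/
theorem rtk6sj_gam_iterate (hL : L ≠ 0) (hML : M ∣ L) {d : ℕ}
    (hd : ∀ c : (ZMod M)ˣ, c ^ d ∈ pmH H)
    {γ : ↥(fieldC K L M H) ≃ₐ[K] ↥(fieldC K L M H)} (hγ : γ ∈ rtk6dfGam K L M H)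
    (x : ↥(fieldC K L M H)) : (⇑γ)^[d] x = x := by
  rw [← AlgEquiv.coe_pow]
  exact rtk6sj_gam_pow hL hML hd hγ x

end Pow

/-! ### The list of the elements of `Γ` -/

section List

variable (K : Type) [Field K] (L M : ℕ) (H : Subgroup (ZMod M)ˣ)

/-- an automorphism as a ring endomorphism -/
def rtk6sjHom (γ : ↥(fieldC K L M H) ≃ₐ[K] ↥(fieldC K L M H)) :
    ↥(fieldC K L M H) →+* ↥(fieldC K L M H) :=
  (γ : ↥(fieldC K L M H) →ₐ[K] ↥(fieldC K L M H)).toRingHom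

variable {K L M H}

@[simp]
theorem rtk6sjHom_apply (γ : ↥(fieldC K L M H) ≃ₐ[K] ↥(fieldC K L M H))
    (x : ↥(fieldC K L M H)) : rtk6sjHom K L M H γ x = γ x := rfl

theorem rtk6sjHom_coe (γ : ↥(fieldC K L M H) ≃ₐ[K] ↥(fieldC K L M H)) :
    ⇑(rtk6sjHom K L M H γ) = ⇑γ := rfl

variable (K L M H)

/-- the list of all elements of `Γ` (as ring endomorphisms of `F`) -/
def rtk6sjList [Finite ↥(rtk6dfGam K L M H)] :
    List (↥(fieldC K L M H) →+* ↥(fieldC K L M H)) :=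
  letI := Fintype.ofFinite ↥(rtk6dfGam K L M H)
  (Finset.univ : Finset ↥(rtk6dfGam K L M H)).toList.map
    (fun γ : ↥(rtk6dfGam K L M H) => rtk6sjHom K L M H γ.1)

variable {K L M H}

theorem mem_rtk6sjList [Finite ↥(rtk6dfGam K L M H)]
    {σ : ↥(fieldC K L M H) →+* ↥(fieldC K L M H)} :
    σ ∈ rtk6sjList K L M H ↔ ∃ γ ∈ rtk6dfGam K L M H, σ = rtk6sjHom K L M H γ := by
  letI := Fintype.ofFinite ↥(rtk6dfGam K L M H)
  unfold rtk6sjList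
  rw [List.mem_map]
  constructor
  · rintro ⟨γ, -, rfl⟩
    exact ⟨γ.1, γ.2, rfl⟩
  · rintro ⟨γ, hγ, rfl⟩
    exact ⟨(⟨γ, hγ⟩ : ↥(rtk6dfGam K L M H)), Finset.mem_toList.mpr (Finset.mem_univ _), rfl⟩

end List

/-! ### The instance -/

section Concrete

variable {A : ValuationSubring Qb} {K₁ : IntermediateField ℚ Qb}
  [IsDiscreteValuationRing ↥(mgcA A K₁)] {π : ↥(mgcA A K₁)} (hπ : Irreducible π)
  (ιC : ↥(mgcE A K₁) →+* ℂ) {q M₁ : ℕ} [NeZero q] [NeZero M₁] [NeZero (M₁ * q)]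
  (hq : q.Prime) (hqM : ¬ q ∣ M₁) {M : ℕ} {H : Subgroup (ZMod M)ˣ}
  {w : ↥(rtk6diF A K₁ (M₁ * q) M H) ≃ₐ[↥(mgcE A K₁)] ↥(rtk6diF A K₁ (M₁ * q) M H)}

/-- **(SS1) of the `Γ₀(M₁ q)`-chart over `A′`**, in the form `hSS1₀` of
`rtk6gl_ss1_unif_perm`. -/
theorem rtk6sj_hSS1₀ (hw : Rtk6dvWIncl ιC hq hqM M H w) (hA : A.LiesOverPrime q)
    (h2 : q = 2 → 3 ∣ M₁) (h3 : q = 3 → 2 ∣ M₁)
    (u : ↥(zchClosure (A₀ := ↥(mgcA A K₁))
      ({mgcT A K₁ (M₁ * q)} : Set ↥(mgcF A K₁ (M₁ * q)))))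
    (hu : ∀ c : rtk6dfK hπ M H w,
      ((rtk6sfJ A K₁ (M₁ * q) M H u : ↥(zchClosure (A₀ := ↥(mgcA A K₁))
        ({rtk6diT A K₁ (M₁ * q) M H} : Set ↥(rtk6diF A K₁ (M₁ * q) M H)))) :
          ↥(rtk6diF A K₁ (M₁ * q) M H)) ∈ (rtk6dfV hπ M H w c).nonunits) :
    algebraMap ↥(mgcA A K₁) ↥(zchClosure (A₀ := ↥(mgcA A K₁))
      ({mgcT A K₁ (M₁ * q)} : Set ↥(mgcF A K₁ (M₁ * q)))) π ∣ u := by
  have hE : beta0Field A ≤ mgcE A K₁ := le_sup_left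
  have hreg := stb_regChart_conc_J (K₀ := mgcE A K₁) M₁ hq hA hE hπ hqM h2 h3
  have hV : ∀ b : Bool, (u : ↥(mgcF A K₁ (M₁ * q))) ∈ (mgvV hπ ιC hq hqM b).nonunits := by
    intro b
    have h1 := hu (rtk6dfBase (rtk6dvV hπ M H w) b)
    have h2 := (vt_mem_nonunits_comap (rtk6dvV hπ M H w b) (rtk6diIncl (M₁ * q) M H)
      (u : ↥(mgcF A K₁ (M₁ * q)))).mpr h1
    rwa [rtk6dv_comap_incl hπ ιC hq hqM M H w hw b] at h2
  obtain ⟨b', hb', e⟩ := mgcb_reg_SS1_J (K₀ := mgcE A K₁) hπ ιC hq hqM hA hreg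
    (u : ↥(mgcF A K₁ (M₁ * q))) u.2 hV
  exact Dvd.intro ⟨b', hb'⟩ (Subtype.ext e.symm)

/-- **(SS1-inst)**: `Rtk6emSS1` for the family of all conjugates of `V_∞`, `V_0`. -/
theorem rtk6sj_emSS1 (hw : Rtk6dvWIncl ιC hq hqM M H w) (hA : A.LiesOverPrime q)
    (hML : M ∣ M₁ * q) (h2 : q = 2 → 3 ∣ M₁) (h3 : q = 3 → 2 ∣ M₁)
    {d : ℕ} (hd0 : d ≠ 0) (hqd : ¬ q ∣ d) (hd : ∀ c : (ZMod M)ˣ, c ^ d ∈ pmH H) :
    Rtk6emSS1 A K₁ (M₁ * q) M H π (rtk6dfV hπ M H w) := by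
  haveI : Algebra.IsAlgebraic ℚ Qb := AlgebraicClosure.isAlgebraic ℚ
  haveI : Algebra.IsAlgebraic ℚ ↥(mgcE A K₁) :=
    Algebra.IsAlgebraic.of_injective (mgcE A K₁).val Subtype.val_injective
  have hL : M₁ * q ≠ 0 := NeZero.ne (M₁ * q)
  haveI : NeZero M := ⟨fun h0 => hL (Nat.eq_zero_of_zero_dvd (h0 ▸ hML))⟩
  haveI : Finite ↥(rtk6dfGam ↥(mgcE A K₁) (M₁ * q) M H) := rtk6df_finite hL hML
  have hE : beta0Field A ≤ mgcE A K₁ := le_sup_left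
  obtain ⟨hdu, ζ₀, hζ₀⟩ := stb_unit_data (K₀ := mgcE A K₁) hq hA hE hd0 hqd
  -- the objects
  set B := zchClosure (A₀ := ↥(mgcA A K₁))
    ({rtk6diT A K₁ (M₁ * q) M H} : Set ↥(rtk6diF A K₁ (M₁ * q) M H)) with hB
  set ι : ↥B →+* ↥(rtk6diF A K₁ (M₁ * q) M H) := B.val.toRingHom with hι
  have hιinj : Function.Injective ι := Subtype.val_injective
  have hπF : algebraMap ↥(mgcA A K₁) ↥(rtk6diF A K₁ (M₁ * q) M H) π ≠ 0 :=
    ei_algebraMap_ne_zero (E := ↥(mgcE A K₁)) hπ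
  have hdF : ((d : ℕ) : ↥(rtk6diF A K₁ (M₁ * q) M H)) ≠ 0 := Nat.cast_ne_zero.mpr hd0
  -- the root of unity
  have hζF : IsPrimitiveRoot
      (algebraMap ↥(mgcA A K₁) ↥(rtk6diF A K₁ (M₁ * q) M H) ζ₀) d :=
    hζ₀.map_of_injective
      (zch_algebraMap_injective (A₀ := ↥(mgcA A K₁)) (E := ↥(mgcE A K₁))
        (L := ↥(rtk6diF A K₁ (M₁ * q) M H)))
  -- the main call
  have key := rtk6gl_ss1_unif_perm (rtk6sfJ A K₁ (M₁ * q) M H) ι hιinj hdF hζF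
    (rtk6sjList ↥(mgcE A K₁) (M₁ * q) M H)
    (fun σ hσ x => by
      obtain ⟨γ, hγ, rfl⟩ := mem_rtk6sjList.mp hσ
      rw [rtk6sjHom_coe]
      exact rtk6sj_gam_iterate hL hML hd hγ x)
    (fun σ hσ => by
      obtain ⟨γ, hγ, rfl⟩ := mem_rtk6sjList.mp hσ
      rw [rtk6sjHom_apply, IsScalarTower.algebraMap_apply ↥(mgcA A K₁) ↥(mgcE A K₁)
        ↥(rtk6diF A K₁ (M₁ * q) M H)]
      exact γ.commutes _)
    (fun σ hσ τ hτ x => by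
      obtain ⟨γ, hγ, rfl⟩ := mem_rtk6sjList.mp hσ
      obtain ⟨γ', hγ', rfl⟩ := mem_rtk6sjList.mp hτ
      exact rtk6df_gam_comm hL hML hγ hγ' x)
    ⟨algebraMap ↥(mgcA A K₁) ↥B ζ₀, rfl⟩
    (by
      obtain ⟨v, hv⟩ := hdu
      refine ⟨algebraMap ↥(mgcA A K₁) ↥B ((v⁻¹ : (↥(mgcA A K₁))ˣ) : ↥(mgcA A K₁)), ?_⟩
      show algebraMap ↥(mgcA A K₁) ↥(rtk6diF A K₁ (M₁ * q) M H)
        ((v⁻¹ : (↥(mgcA A K₁))ˣ) : ↥(mgcA A K₁)) = _
      apply eq_inv_of_mul_eq_one_left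
      have h1 : ((d : ℕ) : ↥(rtk6diF A K₁ (M₁ * q) M H)) =
          algebraMap ↥(mgcA A K₁) ↥(rtk6diF A K₁ (M₁ * q) M H) (v : ↥(mgcA A K₁)) := by
        rw [hv, map_natCast]
      rw [h1, ← map_mul, Units.inv_mul, map_one])
    (fun σ hσ b => by
      obtain ⟨γ, hγ, rfl⟩ := mem_rtk6sjList.mp hσ
      have h1 := cusp_isIntegral_adjoin_map (A := ↥(mgcA A K₁))
        (rtk6sjHom ↥(mgcE A K₁) (M₁ * q) M H γ)
        (fun a => by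
          rw [rtk6sjHom_apply, IsScalarTower.algebraMap_apply ↥(mgcA A K₁) ↥(mgcE A K₁)
            ↥(rtk6diF A K₁ (M₁ * q) M H)]
          exact γ.commutes _) b.2
      rw [rtk6sjHom_apply, rtk6sjHom_apply,
        show γ (rtk6diT A K₁ (M₁ * q) M H) = rtk6diT A K₁ (M₁ * q) M H from
          rtk6df_gam_J hγ] at h1
      exact ⟨⟨γ (b : ↥(rtk6diF A K₁ (M₁ * q) M H)), h1⟩, rfl⟩)
    (fun b hb => rtk6sf_hfix_list (A' := mgcA A K₁) hL hML (mgcT A K₁ (M₁ * q))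
      (rtk6sjList ↥(mgcE A K₁) (M₁ * q) M H)
      (fun x hx c σ hσ => hx (rtk6sjHom _ _ _ _ σ) (mem_rtk6sjList.mpr ⟨σ, hσ.mem_gam, rfl⟩))
      b hb)
    (fun x hx => by
      obtain ⟨b, hb⟩ := hx
      have h1 : IsIntegral ↥(Algebra.adjoin ↥(mgcA A K₁)
          ({rtk6diT A K₁ (M₁ * q) M H} : Set ↥(rtk6diF A K₁ (M₁ * q) M H))) (x ^ d) := by
        have := b.2
        rw [hι] at hb
        have e : (b : ↥(rtk6diF A K₁ (M₁ * q) M H)) = x ^ d := hb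
        rw [← e]
        exact b.2
      exact ⟨⟨x, IsIntegral.of_pow (Nat.pos_of_ne_zero hd0) h1⟩, rfl⟩)
    (rtk6dfV hπ M H w)
    (fun c b => rtk6df_hBV₁ hπ ιC hq hqM M H w hw c _ b.2)
    (fun σ hσ c => by
      obtain ⟨γ, hγ, rfl⟩ := mem_rtk6sjList.mp hσ
      exact rtk6df_permK hπ M H w γ hγ c)
    (algebraMap ↥(mgcA A K₁) _ π) (algebraMap ↥(mgcA A K₁) ↥B π)
    (fun h0 => hπF (congrArg Subtype.val h0))
    d ⟨1, 1, by rw [mul_one]; rfl, mul_one 1⟩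
    (fun h0 => hπF (congrArg Subtype.val h0))
    (fun c => rtk6df_hπV hπ M H w c)
    (fun c x hx => rtk6df_hunif_div hπ M H w c x hx)
    (fun u hu => rtk6sj_hSS1₀ hπ ιC hq hqM hw hA h2 h3 u hu)
  -- the conclusion
  intro b hb hbV
  obtain ⟨b', hb'⟩ := key ⟨b, hb⟩ hbV
  exact ⟨(b' : ↥(rtk6diF A K₁ (M₁ * q) M H)), b'.2, congrArg Subtype.val hb'⟩

end Concrete

/-! ### The instance `w = rtk6diwW` -/

section Inst

variable {A : ValuationSubring Qb} {K₁ : IntermediateField ℚ Qb}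
  [IsDiscreteValuationRing ↥(mgcA A K₁)] {π : ↥(mgcA A K₁)} (hπ : Irreducible π)
  (ιC : ↥(mgcE A K₁) →+* ℂ) {q M₁ : ℕ} [NeZero q] [NeZero M₁] [NeZero (M₁ * q)]
  {M : ℕ} {H : Subgroup (ZMod M)ˣ}
  (w₀ : fieldBar (M₁ * q) M H ≃ₐ[Qb] fieldBar (M₁ * q) M H) (hw₀ : IsWAt (M₁ * q) M H q w₀)
  (hM0 : M ≠ 0) (hq : q.Prime) (hqM' : q ∣ M) (hqM : ¬ q ∣ M₁)
  (hζ : ∀ ζ : Qb, ζ ^ q = 1 → ζ ∈ mgcE A K₁)

include ιC hqM in
/-- **(SS1-inst) at `w = rtk6diwW`** -/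
theorem rtk6sj_emSS1_W (hA : A.LiesOverPrime q) (hML : M ∣ M₁ * q)
    (h2 : q = 2 → 3 ∣ M₁) (h3 : q = 3 → 2 ∣ M₁)
    {d : ℕ} (hd0 : d ≠ 0) (hqd : ¬ q ∣ d) (hd : ∀ c : (ZMod M)ˣ, c ^ d ∈ pmH H) :
    Rtk6emSS1 A K₁ (M₁ * q) M H π
      (rtk6dfV hπ M H (rtk6diwW (K₀ := mgcE A K₁) w₀ hw₀ hM0 hq hqM' hζ)) :=
  rtk6sj_emSS1 hπ ιC hq hqM (rtk6m1_wIncl ιC w₀ hw₀ hM0 hq hqM' hqM hζ) hA hML h2 h3 hd0 hqd hd

include ιC hqM in
/-- **(SS1-inst) at `w = rtk6diwW`, tame rigid level** (`IsTameAt (M₁ q) M q H`,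
`4 ∣ M₁ q`). -/
theorem rtk6sj_emSS1_tame (hA : A.LiesOverPrime q) (hML : M ∣ M₁ * q)
    (htame : IsTameAt (M₁ * q) M q H) (h4 : 4 ∣ M₁ * q) :
    Rtk6emSS1 A K₁ (M₁ * q) M H π
      (rtk6dfV hπ M H (rtk6diwW (K₀ := mgcE A K₁) w₀ hw₀ hM0 hq hqM' hζ)) := by
  obtain ⟨d, hdc, hd⟩ := htame
  have hL : M₁ * q ≠ 0 := NeZero.ne (M₁ * q)
  have hq2 : q ≠ 2 := by
    rintro rfl
    apply hqM
    have h5 : 2 ∣ M₁ := by omega
    exact h5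
  have hd0 : d ≠ 0 := by
    rintro rfl
    rw [Nat.coprime_zero_left] at hdc
    have : 6 ≤ 6 * (M₁ * q) := Nat.le_mul_of_pos_right 6 (Nat.pos_of_ne_zero hL)
    omega
  have hqd : ¬ q ∣ d := by
    intro hqd
    have h6 : q ∣ 6 * (M₁ * q) := Dvd.dvd.mul_left (Dvd.intro_left M₁ rfl) 6
    have h7 : q ∣ Nat.gcd d (6 * (M₁ * q)) := Nat.dvd_gcd hqd h6
    rw [hdc.gcd_eq_one] at h7
    exact hq.one_lt.ne' (Nat.dvd_one.mp h7)
  have h3 : q = 3 → 2 ∣ M₁ := by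
    rintro rfl
    have h5 : 4 ∣ M₁ :=
      (Nat.Coprime.dvd_mul_right (by norm_num : Nat.Coprime 4 3)).mp h4
    exact dvd_trans (by norm_num : 2 ∣ 4) h5
  exact rtk6sj_emSS1_W hπ ιC w₀ hw₀ hM0 hq hqM' hqM hζ hA hML (fun h => absurd h hq2) h3
    hd0 hqd hd

end Inst

end Fermat.Agent.RT.K6

end


end ZBRT_074_4

/-! ### bundled: `Fermat.Agent.RT.K6.EInstUS` -/
section ZBRT_074_5
/-
K-machine, piece K6, piece **E-INST** (helper18), part 5: case (U) with (SS1-inst) discharged.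

* `rtk6eiu_stmtSS1Gen : StmtRtk6SS1Gen` — (SS1-inst) generic in `(K₁, w)`, from helper50's
  `rtk6sj_emSS1` (`RT/K6/SS1InstB.lean`) and the tameness of the level;
* the providers `hSS1`, `hFix` of `rtk6ei_geomUnip_of_pieces` are
  `rtk6eiu_hSS1 rtk6eiu_stmtSS1Gen`, `rtk6eiu_hFix rtk6eiu_stmtSS1Gen`;
* **`rtk6eiu_geomUnip_of_node`** : `(hNode) → StmtRtk6GeomUnip`;
* **`rtk6eiu_stmtUnipHRig_of_node`** : `(hNode) → StmtUnipHRig`.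
-/

set_option autoImplicit false
set_option linter.style.haveILetI false
set_option linter.unusedSectionVars false
set_option linter.unusedVariables false
set_option linter.style.longLine false

noncomputable section

namespace Fermat.Agent.RT.K6

open ModularCurve AlgebraicCurve Fermat.Agent.ES Fermat.Agent.ES.G2 Fermat.Agent.INJ
open Fermat.Agent.UNIP Fermat.Agent.STB Fermat.Agent.ES1 Fermat.Agent.ES1.G2 IntermediateField

/-- **(SS1-inst), generic in `(K₁, w)`**, at the tame rigid levels. -/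
theorem rtk6eiu_stmtSS1Gen : StmtRtk6SS1Gen := by
  intro q M₁ _ _ _ M H hq hqM hML htame h4 A hA K₁ _ π hπ ιC w hw
  obtain ⟨d, hdc, hd⟩ := htame
  have hL : M₁ * q ≠ 0 := NeZero.ne (M₁ * q)
  have hq2 : q ≠ 2 := by
    rintro rfl
    apply hqM
    have h5 : 2 ∣ M₁ := by omega
    exact h5
  have hd0 : d ≠ 0 := by
    rintro rfl
    rw [Nat.coprime_zero_left] at hdc
    have : 6 ≤ 6 * (M₁ * q) := Nat.le_mul_of_pos_right 6 (Nat.pos_of_ne_zero hL)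
    omega
  have hqd : ¬ q ∣ d := by
    intro hqd
    have h6 : q ∣ 6 * (M₁ * q) := Dvd.dvd.mul_left (Dvd.intro_left M₁ rfl) 6
    have h7 : q ∣ Nat.gcd d (6 * (M₁ * q)) := Nat.dvd_gcd hqd h6
    rw [hdc.gcd_eq_one] at h7
    exact hq.one_lt.ne' (Nat.dvd_one.mp h7)
  have h3 : q = 3 → 2 ∣ M₁ := by
    rintro rfl
    have h5 : 4 ∣ M₁ :=
      (Nat.Coprime.dvd_mul_right (by norm_num : Nat.Coprime 4 3)).mp h4
    exact dvd_trans (by norm_num : 2 ∣ 4) h5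
  exact rtk6sj_emSS1 hπ ιC hq hqM hw hA hML (fun h => absurd h hq2) h3 hd0 hqd hd

/-- **Case (U): `StmtRtk6GeomUnip` from the provider `hNode` ALONE.** -/
theorem rtk6eiu_geomUnip_of_node
    (hNode : ∀ (q M₁ : ℕ) [NeZero q] [NeZero M₁] [NeZero (M₁ * q)] (M : ℕ)
      (H : Subgroup (ZMod M)ˣ) (hq : q.Prime) (hqM' : q ∣ M) (hM0 : M ≠ 0), ¬ q ∣ M₁ →
      M ∣ M₁ * q → (∀ c : (ZMod M)ˣ, IsAtR M q c → c ∈ pmH H) → IsTameAt (M₁ * q) M q H →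
      4 ∣ M₁ * q →
      ∀ (w₀ : fieldBar (M₁ * q) M H ≃ₐ[Qb] fieldBar (M₁ * q) M H)
        (hw₀ : IsWAt (M₁ * q) M H q w₀) (A : ValuationSubring Qb), A.LiesOverPrime q →
        Rtk6eiEv q A (fun K₁ _ hζ π hπ => Rtk6emNode A K₁ (M₁ * q) M H π
          (rtk6dfV hπ M H (rtk6diwW (K₀ := mgcE A K₁) w₀ hw₀ hM0 hq hqM' hζ)))) :
    StmtRtk6GeomUnip :=
  rtk6eiu_geomUnip rtk6eiu_stmtSS1Gen hNode

/-- **Case (U): `StmtUnipHRig` from the provider `hNode` ALONE.** -/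
theorem rtk6eiu_stmtUnipHRig_of_node
    (hNode : ∀ (q M₁ : ℕ) [NeZero q] [NeZero M₁] [NeZero (M₁ * q)] (M : ℕ)
      (H : Subgroup (ZMod M)ˣ) (hq : q.Prime) (hqM' : q ∣ M) (hM0 : M ≠ 0), ¬ q ∣ M₁ →
      M ∣ M₁ * q → (∀ c : (ZMod M)ˣ, IsAtR M q c → c ∈ pmH H) → IsTameAt (M₁ * q) M q H →
      4 ∣ M₁ * q →
      ∀ (w₀ : fieldBar (M₁ * q) M H ≃ₐ[Qb] fieldBar (M₁ * q) M H)
        (hw₀ : IsWAt (M₁ * q) M H q w₀) (A : ValuationSubring Qb), A.LiesOverPrime q →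
        Rtk6eiEv q A (fun K₁ _ hζ π hπ => Rtk6emNode A K₁ (M₁ * q) M H π
          (rtk6dfV hπ M H (rtk6diwW (K₀ := mgcE A K₁) w₀ hw₀ hM0 hq hqM' hζ)))) :
    StmtUnipHRig :=
  rtk6ei_stmtUnipHRig (rtk6eiu_geomUnip_of_node hNode)

end Fermat.Agent.RT.K6

end
end ZBRT_074_5

/-! ### bundled: `Fermat.Agent.RT.K6.C4InstBU` -/
section ZBRT_074_6
/-
K-machine, piece K6, piece **C4-U-inst (B)** (helper81), FINAL form of the case (U): the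
provider `hNode` of `rtk6ei_geomUnip_of_pieces` (`RT/K6/EInstGlue.lean`), hence
`StmtRtk6GeomUnip` and `StmtUnipHRig`, from (C4-U-inst) (A) ALONE — the dichotomy
`Rtk6ewmNodeAt V₁ 𝔫₁ id ϖ₁` on the two charts of `F₁ = rtk6diF A K₁′ (M₁ q) M H` over
`A₁ = mgcA A K₁′` at the unramified level `K₁′ = rtk6ebK q 1`.

Inside: (W1) `rtk6w1_commK_of_hat`, (M1) `rtk6m1_emFam`, (SS1-inst) `rtk6eiu_stmtSS1Gen`,
(HRED)+(D-BC) `rtk6dbc_hred_zch`, `rtk6dbc_chart_t/_tinv`, (E-BASE) `rtk6ebQ_*`, `rtk6eb_isDVR`,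
(FAM-res) (R2) `rtk6frf_hR2_E`, (R3) `rtk6c4b_node`, (FIX-U) `rtk6eiu_hFix`.

* `Rtk6c4bAsm` : the statement (A) at `(q, M₁, M, H, w₀, A)`, for ONE uniformizer `ϖ₁` of
  `A₁` and `w₁ = rtk6diwEquiv w₀ hcomm`;
* `rtk6c4b_hNode_unip` : (A) → the provider `hNode`, literal shape;
* `rtk6c4b_geomUnip` : (A) → `StmtRtk6GeomUnip`;
* `rtk6c4b_stmtUnipHRig` : (A) → `StmtUnipHRig`;
* `rtk6c4b_asm_of_charts` : (A) from its two charts, each for all uniformizers `ϖ₁`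
  associated to `q` (the uniformizer is `q` itself).
-/

set_option autoImplicit false
set_option linter.style.haveILetI false
set_option linter.unusedSectionVars false
set_option linter.unusedVariables false
set_option linter.style.longLine false

noncomputable section

namespace Fermat.Agent.RT.K6

open ModularCurve AlgebraicCurve Fermat.Agent.ES Fermat.Agent.ES.G2 Fermat.Agent.INJ
open Fermat.Agent.UNIP Fermat.Agent.STB Fermat.Agent.ES1 Fermat.Agent.ES1.G2 IntermediateField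

/-- **(C4-U-inst) (A)** at `(q, M₁, M, H, w₀, A)`: for SOME uniformizer `ϖ₁` of
`A₁ = mgcA A (rtk6ebK q 1)`, every point of the special fibre of the two charts `t₁`, `t₁⁻¹`
of `F₁` over `A₁` is a smooth point or a thin node of the family
`V₁ = rtk6dfV hϖ₁ M H (rtk6diwEquiv w₀ hcomm)`. -/
def Rtk6c4bAsm (q M₁ : ℕ) [NeZero q] [NeZero M₁] [NeZero (M₁ * q)] (M : ℕ)
    (H : Subgroup (ZMod M)ˣ) (w₀ : fieldBar (M₁ * q) M H ≃ₐ[Qb] fieldBar (M₁ * q) M H)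
    (A : ValuationSubring Qb) [IsDiscreteValuationRing ↥(mgcA A (rtk6ebK q 1))]
    (hcomm : RtkCommK (mgcE A (rtk6ebK q 1)) w₀) : Prop :=
  ∃ (ϖ₁ : ↥(mgcA A (rtk6ebK q 1))) (hϖ₁ : Irreducible ϖ₁),
    (∀ 𝔫₁ : AtPt (F := ↥(rtk6diF A (rtk6ebK q 1) (M₁ * q) M H)) ϖ₁
        (rtk6diT A (rtk6ebK q 1) (M₁ * q) M H),
      Rtk6ewmNodeAt (rtk6dfV hϖ₁ M H (rtk6diwEquiv (K₀ := mgcE A (rtk6ebK q 1)) w₀ hcomm)) 𝔫₁
        (RingHom.id _)
        (algebraMap ↥(mgcA A (rtk6ebK q 1)) ↥(zchClosure (A₀ := ↥(mgcA A (rtk6ebK q 1)))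
          ({rtk6diT A (rtk6ebK q 1) (M₁ * q) M H} :
            Set ↥(rtk6diF A (rtk6ebK q 1) (M₁ * q) M H))) ϖ₁)) ∧
    (∀ 𝔫₁ : AtPt (F := ↥(rtk6diF A (rtk6ebK q 1) (M₁ * q) M H)) ϖ₁
        (rtk6diT A (rtk6ebK q 1) (M₁ * q) M H)⁻¹,
      Rtk6ewmNodeAt (rtk6dfV hϖ₁ M H (rtk6diwEquiv (K₀ := mgcE A (rtk6ebK q 1)) w₀ hcomm)) 𝔫₁
        (RingHom.id _)
        (algebraMap ↥(mgcA A (rtk6ebK q 1)) ↥(zchClosure (A₀ := ↥(mgcA A (rtk6ebK q 1)))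
          ({(rtk6diT A (rtk6ebK q 1) (M₁ * q) M H)⁻¹} :
            Set ↥(rtk6diF A (rtk6ebK q 1) (M₁ * q) M H))) ϖ₁))

/-- **(A) from its two charts**, each given for ALL uniformizers `ϖ₁` of `A₁` associated to
`q` (the level `rtk6ebK q 1` is unramified): the uniformizer is `q` itself. -/
theorem rtk6c4b_asm_of_charts {q M₁ : ℕ} [NeZero q] [NeZero M₁] [NeZero (M₁ * q)] {M : ℕ}
    {H : Subgroup (ZMod M)ˣ} (hq : q.Prime)
    (w₀ : fieldBar (M₁ * q) M H ≃ₐ[Qb] fieldBar (M₁ * q) M H)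
    {A : ValuationSubring Qb} (hA : A.LiesOverPrime q)
    [IsDiscreteValuationRing ↥(mgcA A (rtk6ebK q 1))]
    (hcomm : RtkCommK (mgcE A (rtk6ebK q 1)) w₀)
    (h₁ : ∀ {ϖ₁ : ↥(mgcA A (rtk6ebK q 1))} (hϖ₁ : Irreducible ϖ₁),
      Associated ((q : ℕ) : ↥(mgcA A (rtk6ebK q 1))) ϖ₁ →
      ∀ 𝔫₁ : AtPt (F := ↥(rtk6diF A (rtk6ebK q 1) (M₁ * q) M H)) ϖ₁
        (rtk6diT A (rtk6ebK q 1) (M₁ * q) M H),
      Rtk6ewmNodeAt (rtk6dfV hϖ₁ M H (rtk6diwEquiv (K₀ := mgcE A (rtk6ebK q 1)) w₀ hcomm)) 𝔫₁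
        (RingHom.id _)
        (algebraMap ↥(mgcA A (rtk6ebK q 1)) ↥(zchClosure (A₀ := ↥(mgcA A (rtk6ebK q 1)))
          ({rtk6diT A (rtk6ebK q 1) (M₁ * q) M H} :
            Set ↥(rtk6diF A (rtk6ebK q 1) (M₁ * q) M H))) ϖ₁))
    (h₂ : ∀ {ϖ₁ : ↥(mgcA A (rtk6ebK q 1))} (hϖ₁ : Irreducible ϖ₁),
      Associated ((q : ℕ) : ↥(mgcA A (rtk6ebK q 1))) ϖ₁ →
      ∀ 𝔫₁ : AtPt (F := ↥(rtk6diF A (rtk6ebK q 1) (M₁ * q) M H)) ϖ₁
        (rtk6diT A (rtk6ebK q 1) (M₁ * q) M H)⁻¹,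
      Rtk6ewmNodeAt (rtk6dfV hϖ₁ M H (rtk6diwEquiv (K₀ := mgcE A (rtk6ebK q 1)) w₀ hcomm)) 𝔫₁
        (RingHom.id _)
        (algebraMap ↥(mgcA A (rtk6ebK q 1)) ↥(zchClosure (A₀ := ↥(mgcA A (rtk6ebK q 1)))
          ({(rtk6diT A (rtk6ebK q 1) (M₁ * q) M H)⁻¹} :
            Set ↥(rtk6diF A (rtk6ebK q 1) (M₁ * q) M H))) ϖ₁)) :
    Rtk6c4bAsm q M₁ M H w₀ A hcomm := by
  have hϖ : ((q : ℕ) : Qb) ^ 1 = ((q : ℕ) : Qb) := pow_one _
  have hdr : ¬ q ∣ 1 := fun h => hq.one_lt.ne' (Nat.dvd_one.mp h)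
  have hirr := rtk6ebVarpi_irreducible hq hA one_ne_zero hdr hϖ
  have hass : Associated ((q : ℕ) : ↥(mgcA A (rtk6ebK q 1)))
      (rtk6ebVarpi hA one_ne_zero hϖ) := by
    have e := rtk6ebVarpi_pow hA one_ne_zero hϖ
    rw [pow_one] at e
    rw [e]
  exact ⟨rtk6ebVarpi hA one_ne_zero hϖ, hirr, h₁ hirr hass, h₂ hirr hass⟩

/-- **The provider `hNode` of `rtk6ei_geomUnip_of_pieces`** (literal shape) from (A). -/
theorem rtk6c4b_hNode_unip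
    (hAsm : ∀ (q M₁ : ℕ) [NeZero q] [NeZero M₁] [NeZero (M₁ * q)] (M : ℕ)
      (H : Subgroup (ZMod M)ˣ) (hq : q.Prime) (hqM' : q ∣ M) (hM0 : M ≠ 0), ¬ q ∣ M₁ →
      M ∣ M₁ * q → (∀ c : (ZMod M)ˣ, IsAtR M q c → c ∈ pmH H) → IsTameAt (M₁ * q) M q H →
      4 ∣ M₁ * q →
      ∀ (w₀ : fieldBar (M₁ * q) M H ≃ₐ[Qb] fieldBar (M₁ * q) M H)
        (hw₀ : IsWAt (M₁ * q) M H q w₀) (A : ValuationSubring Qb), A.LiesOverPrime q →
      ∀ [IsDiscreteValuationRing ↥(mgcA A (rtk6ebK q 1))]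
        (hcomm : RtkCommK (mgcE A (rtk6ebK q 1)) w₀), Rtk6c4bAsm q M₁ M H w₀ A hcomm) :
    ∀ (q M₁ : ℕ) [NeZero q] [NeZero M₁] [NeZero (M₁ * q)] (M : ℕ)
      (H : Subgroup (ZMod M)ˣ) (hq : q.Prime) (hqM' : q ∣ M) (hM0 : M ≠ 0), ¬ q ∣ M₁ →
      M ∣ M₁ * q → (∀ c : (ZMod M)ˣ, IsAtR M q c → c ∈ pmH H) → IsTameAt (M₁ * q) M q H →
      4 ∣ M₁ * q →
      ∀ (w₀ : fieldBar (M₁ * q) M H ≃ₐ[Qb] fieldBar (M₁ * q) M H)
        (hw₀ : IsWAt (M₁ * q) M H q w₀) (A : ValuationSubring Qb), A.LiesOverPrime q →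
        Rtk6eiEv q A (fun K₁ _ hζ π hπ => Rtk6emNode A K₁ (M₁ * q) M H π
          (rtk6dfV hπ M H (rtk6diwW (K₀ := mgcE A K₁) w₀ hw₀ hM0 hq hqM' hζ))) := by
  intro q M₁ _ _ _ M H hq hqM' hM0 hqM hML hat htame h4 w₀ hw₀ A hA
  haveI : IsDiscreteValuationRing ↥(mgcA A (rtk6ebK q 1)) := rtk6eb_isDVR hq hA
  have hcomm : RtkCommK (mgcE A (rtk6ebK q 1)) w₀ :=
    rtk6w1_commK_of_hat hw₀ hM0 hq hqM' (rtk6eiu_not_sq_dvd hq hqM hML) A hA hat le_sup_left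
  obtain ⟨ϖ₁, hϖ₁, hA₁, hA₂⟩ :=
    hAsm q M₁ M H hq hqM' hM0 hqM hML hat htame h4 w₀ hw₀ A hA hcomm
  have hwI := rtk6w1_wIncl w₀ hw₀ hcomm hq (mgdIota (mgcE A (rtk6ebK q 1))) hqM
  have fam := rtk6m1_emFam hϖ₁ (mgdIota (mgcE A (rtk6ebK q 1))) hq hqM hwI hA hML
  have ss1 := rtk6eiu_stmtSS1Gen q M₁ M H hq hqM hML htame h4 A hA (rtk6ebK q 1) hϖ₁
    (mgdIota (mgcE A (rtk6ebK q 1))) _ hwI
  exact rtk6c4b_ev (rtk6ebK q 1) hϖ₁ (rtk6diwEquiv (K₀ := mgcE A (rtk6ebK q 1)) w₀ hcomm)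
    hq hqM' hM0 hML w₀ hw₀ hA
    (rtk6dbc_hred_zch (A₀ := ↥(mgcA A (rtk6ebK q 1)))
      (rtk6diT A (rtk6ebK q 1) (M₁ * q) M H) _ fam.hBV₁ fam.hπV ss1)
    (rtk6dbc_hred_zch (A₀ := ↥(mgcA A (rtk6ebK q 1)))
      (rtk6diT A (rtk6ebK q 1) (M₁ * q) M H)⁻¹ _ fam.hBV₂ fam.hπV
      (rtk6hr_ss1_inv hϖ₁ (NeZero.ne (M₁ * q)) hML fam ss1))
    (fun K₁ _ _ _ h hζ π hπ =>
      rtk6frf_hR2_E hϖ₁ hπ w₀
        (IntermediateField.inclusion (rtk6eb_mgcE_mono (A := A) h)).toRingHom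
        (fun _ => rfl) hcomm (hw₀.commK hM0 hq hqM' hζ) hML)
    hA₁ hA₂

/-- **Case (U): `StmtRtk6GeomUnip` from (A) alone.** -/
theorem rtk6c4b_geomUnip
    (hAsm : ∀ (q M₁ : ℕ) [NeZero q] [NeZero M₁] [NeZero (M₁ * q)] (M : ℕ)
      (H : Subgroup (ZMod M)ˣ) (hq : q.Prime) (hqM' : q ∣ M) (hM0 : M ≠ 0), ¬ q ∣ M₁ →
      M ∣ M₁ * q → (∀ c : (ZMod M)ˣ, IsAtR M q c → c ∈ pmH H) → IsTameAt (M₁ * q) M q H →
      4 ∣ M₁ * q →
      ∀ (w₀ : fieldBar (M₁ * q) M H ≃ₐ[Qb] fieldBar (M₁ * q) M H)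
        (hw₀ : IsWAt (M₁ * q) M H q w₀) (A : ValuationSubring Qb), A.LiesOverPrime q →
      ∀ [IsDiscreteValuationRing ↥(mgcA A (rtk6ebK q 1))]
        (hcomm : RtkCommK (mgcE A (rtk6ebK q 1)) w₀), Rtk6c4bAsm q M₁ M H w₀ A hcomm) :
    StmtRtk6GeomUnip :=
  rtk6eiu_geomUnip_of_node (rtk6c4b_hNode_unip hAsm)

/-- **Case (U): `StmtUnipHRig` from (A) alone.** -/
theorem rtk6c4b_stmtUnipHRig
    (hAsm : ∀ (q M₁ : ℕ) [NeZero q] [NeZero M₁] [NeZero (M₁ * q)] (M : ℕ)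
      (H : Subgroup (ZMod M)ˣ) (hq : q.Prime) (hqM' : q ∣ M) (hM0 : M ≠ 0), ¬ q ∣ M₁ →
      M ∣ M₁ * q → (∀ c : (ZMod M)ˣ, IsAtR M q c → c ∈ pmH H) → IsTameAt (M₁ * q) M q H →
      4 ∣ M₁ * q →
      ∀ (w₀ : fieldBar (M₁ * q) M H ≃ₐ[Qb] fieldBar (M₁ * q) M H)
        (hw₀ : IsWAt (M₁ * q) M H q w₀) (A : ValuationSubring Qb), A.LiesOverPrime q →
      ∀ [IsDiscreteValuationRing ↥(mgcA A (rtk6ebK q 1))]
        (hcomm : RtkCommK (mgcE A (rtk6ebK q 1)) w₀), Rtk6c4bAsm q M₁ M H w₀ A hcomm) :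
    StmtUnipHRig :=
  rtk6eiu_stmtUnipHRig_of_node (rtk6c4b_hNode_unip hAsm)

end Fermat.Agent.RT.K6

end
end ZBRT_074_6

/-! ### bundled: `Fermat.Agent.RT.K6.SS1InstEvB` -/
section ZBRT_074_7

/-!
# RT-K6 / SS1-inst (helper50): the providers `hSS1` of `rtk6ei_geomUnip_of_pieces` and
`rtk6ei_geomChi_of_pieces` (`RT/K6/EInstGlue.lean`, helper18)

* `rtk6sj_ev` : `Rtk6eiEv q A (fun K₁ _ hζ π hπ => Rtk6emSS1 A K₁ (M₁ q) M H π V)` at a tame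
  rigid level, with `K₀ = ⊥` (no enlargement of `K₁` is needed);
* `rtk6sj_hSS1_unip`, `rtk6sj_hSS1_chi` : the LITERAL hypotheses `hSS1` of the two glue
  theorems.
-/

set_option autoImplicit false
set_option linter.style.haveILetI false
set_option linter.unusedSectionVars false
set_option linter.unusedVariables false

noncomputable section

namespace Fermat.Agent.RT.K6

open ModularCurve AlgebraicCurve Fermat.Agent.ES Fermat.Agent.ES.G2 Fermat.Agent.INJ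
open Fermat.Agent.UNIP Fermat.Agent.STB Fermat.Agent.ES1 Fermat.Agent.ES1.G2 Fermat.Agent.AL
open IntermediateField

/-- **(SS1-inst), for all `K₁`** (`K₀ = ⊥`). -/
theorem rtk6sj_ev (q M₁ : ℕ) [NeZero q] [NeZero M₁] [NeZero (M₁ * q)] (M : ℕ)
    (H : Subgroup (ZMod M)ˣ) (hq : q.Prime) (hqM' : q ∣ M) (hM0 : M ≠ 0) (hqM : ¬ q ∣ M₁)
    (hML : M ∣ M₁ * q) (htame : IsTameAt (M₁ * q) M q H) (h4 : 4 ∣ M₁ * q)
    (w₀ : fieldBar (M₁ * q) M H ≃ₐ[Qb] fieldBar (M₁ * q) M H)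
    (hw₀ : IsWAt (M₁ * q) M H q w₀) (A : ValuationSubring Qb) (hA : A.LiesOverPrime q) :
    Rtk6eiEv q A (fun K₁ _ hζ π hπ => Rtk6emSS1 A K₁ (M₁ * q) M H π
      (rtk6dfV hπ M H (rtk6diwW (K₀ := mgcE A K₁) w₀ hw₀ hM0 hq hqM' hζ))) :=
  ⟨⊥, inferInstance, fun K₁ _ _ _ _ hζ π hπ =>
    rtk6sj_emSS1_tame hπ (mgdIota (mgcE A K₁)) w₀ hw₀ hM0 hq hqM' hqM hζ hA hML htame h4⟩

/-- **`hSS1` of `rtk6ei_geomUnip_of_pieces`**, literally. -/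
theorem rtk6sj_hSS1_unip :
    ∀ (q M₁ : ℕ) [NeZero q] [NeZero M₁] [NeZero (M₁ * q)] (M : ℕ)
      (H : Subgroup (ZMod M)ˣ) (hq : q.Prime) (hqM' : q ∣ M) (hM0 : M ≠ 0), ¬ q ∣ M₁ →
      M ∣ M₁ * q → (∀ c : (ZMod M)ˣ, IsAtR M q c → c ∈ pmH H) → IsTameAt (M₁ * q) M q H →
      4 ∣ M₁ * q →
      ∀ (w₀ : fieldBar (M₁ * q) M H ≃ₐ[Qb] fieldBar (M₁ * q) M H)
        (hw₀ : IsWAt (M₁ * q) M H q w₀) (A : ValuationSubring Qb), A.LiesOverPrime q →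
        Rtk6eiEv q A (fun K₁ _ hζ π hπ => Rtk6emSS1 A K₁ (M₁ * q) M H π
          (rtk6dfV hπ M H (rtk6diwW (K₀ := mgcE A K₁) w₀ hw₀ hM0 hq hqM' hζ))) :=
  fun q M₁ _ _ _ M H hq hqM' hM0 hqM hML _ htame h4 w₀ hw₀ A hA =>
    rtk6sj_ev q M₁ M H hq hqM' hM0 hqM hML htame h4 w₀ hw₀ A hA

/-- **`hSS1` of `rtk6ei_geomChi_of_pieces`**, literally. -/
theorem rtk6sj_hSS1_chi :
    ∀ (q M₁ : ℕ) [NeZero q] [NeZero M₁] [NeZero (M₁ * q)] (M : ℕ)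
      (H : Subgroup (ZMod M)ˣ) (hq : q.Prime) (hqM' : q ∣ M) (hM0 : M ≠ 0), ¬ q ∣ M₁ →
      M ∣ M₁ * q → IsStarStable M q H → IsTameAt (M₁ * q) M q H → 4 ∣ M₁ * q →
      ∀ (w₀ : fieldBar (M₁ * q) M H ≃ₐ[Qb] fieldBar (M₁ * q) M H)
        (hw₀ : IsWAt (M₁ * q) M H q w₀) (A : ValuationSubring Qb), A.LiesOverPrime q →
        Rtk6eiEv q A (fun K₁ _ hζ π hπ => Rtk6emSS1 A K₁ (M₁ * q) M H π
          (rtk6dfV hπ M H (rtk6diwW (K₀ := mgcE A K₁) w₀ hw₀ hM0 hq hqM' hζ))) :=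
  fun q M₁ _ _ _ M H hq hqM' hM0 hqM hML _ htame h4 w₀ hw₀ A hA =>
    rtk6sj_ev q M₁ M H hq hqM' hM0 hqM hML htame h4 w₀ hw₀ A hA

end Fermat.Agent.RT.K6

end


end ZBRT_074_7

/-! ### bundled: `Fermat.Agent.RT.K6.FixUFinal` -/
section ZBRT_074_8
/-
K-machine, piece K6, piece **FIX-U** (helper49), part 3 (final): the provider `hFix` of
`rtk6ei_geomUnip_of_pieces` (`RT/K6/EInstGlue.lean`) WITHOUT hypotheses.

The (D-BC) datum at the unramified level `K₁′ = rtk6ebK q 1 ≤ ℚ̄^I` is obtained from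
`rtk6dbc_chart_t_of_ss1`, `rtk6dbc_chart_tinv_of_ss1` (`RT/K6/DBCSS1.lean`, helper56), with the
family and (SS1) at `K₁′` for `w₁ = rtk6diwEquiv w₀ hcomm` (`RT/K6/W1.lean`: in case (U) the
operator `w₀` descends to every field containing `ℚ̄^I`).

* `rtk6fxu_not_sq_dvd` : `¬ q ^ 2 ∣ M` from `M ∣ M₁ q`, `¬ q ∣ M₁`;
* `rtk6fxu_dbc_unr` : the (D-BC) datum on the two charts, for all `K₁ ⊇ rtk6ebK q 1`;
* `rtk6fxu_hFix` : **the provider `hFix` of `rtk6ei_geomUnip_of_pieces`**, literally;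
* `rtk6fxu_geomUnip_final` : `StmtRtk6GeomUnip` from the provider (C4-U) `hNode` alone.
-/

set_option autoImplicit false
set_option linter.style.haveILetI false
set_option linter.unusedSectionVars false
set_option linter.unusedVariables false
set_option linter.style.longLine false

noncomputable section

namespace Fermat.Agent.RT.K6

open ModularCurve AlgebraicCurve Fermat.Agent.ES Fermat.Agent.ES.G2 Fermat.Agent.INJ
open Fermat.Agent.UNIP Fermat.Agent.STB Fermat.Agent.ES1 Fermat.Agent.ES1.G2 Fermat.Agent.AL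
open IntermediateField

/-- `q ∥ M₁ q`: no multiple-free divisor `M` of `M₁ q` is divisible by `q ^ 2`. -/
theorem rtk6fxu_not_sq_dvd {q M₁ M : ℕ} (hq : q.Prime) (hqM : ¬ q ∣ M₁) (hML : M ∣ M₁ * q) :
    ¬ q ^ 2 ∣ M := by
  intro h
  have h1 : q * q ∣ M₁ * q := by
    rw [← pow_two]
    exact dvd_trans h hML
  exact hqM ((Nat.mul_dvd_mul_iff_right hq.pos).mp h1)

/-- **The (D-BC) datum at the unramified level**: for `K₁ ⊇ rtk6ebK q 1` and both charts. -/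
theorem rtk6fxu_dbc_unr {q M₁ : ℕ} [NeZero q] [NeZero M₁] [NeZero (M₁ * q)] {M : ℕ}
    {H : Subgroup (ZMod M)ˣ} (hq : q.Prime) (hqM' : q ∣ M) (hM0 : M ≠ 0) (hqM : ¬ q ∣ M₁)
    (hML : M ∣ M₁ * q) (hat : ∀ c : (ZMod M)ˣ, IsAtR M q c → c ∈ pmH H)
    (htame : IsTameAt (M₁ * q) M q H) (h4 : 4 ∣ M₁ * q)
    (w₀ : fieldBar (M₁ * q) M H ≃ₐ[Qb] fieldBar (M₁ * q) M H)
    (hw₀ : IsWAt (M₁ * q) M H q w₀) {A : ValuationSubring Qb} (hA : A.LiesOverPrime q)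
    {K₁ : IntermediateField ℚ Qb} [NumberField ↥K₁] [IsGalois ℚ ↥K₁]
    [IsDiscreteValuationRing ↥(mgcA A K₁)] (hK : rtk6ebK q 1 ≤ K₁)
    {π : ↥(mgcA A K₁)} (hπ : Irreducible π) (u : ↥(rtk6diF A K₁ (M₁ * q) M H))
    (hu : u = rtk6diT A K₁ (M₁ * q) M H ∨ u = (rtk6diT A K₁ (M₁ * q) M H)⁻¹) :
    Rtk6fxuDbc A K₁ (M₁ * q) M H π u := by
  haveI : IsDiscreteValuationRing ↥(mgcA A (rtk6ebK q 1)) := rtk6eb_isDVR hq hA
  obtain ⟨ϖ₁, hϖ₁⟩ := rtk6eb_exists_irreducible (A := A) (K₁ := rtk6ebK q 1)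
  have hL : M₁ * q ≠ 0 := NeZero.ne _
  have hr2 : ¬ q ^ 2 ∣ M := rtk6fxu_not_sq_dvd hq hqM hML
  have hE : beta0Field A ≤ mgcE A (rtk6ebK q 1) := le_sup_left
  have hcomm : RtkCommK (mgcE A (rtk6ebK q 1)) w₀ :=
    rtk6w1_commK_of_hat hw₀ hM0 hq hqM' hr2 A hA hat hE
  have hw₁ : Rtk6dvWIncl (mgdIota (mgcE A (rtk6ebK q 1))) hq hqM M H
      (rtk6diwEquiv w₀ hcomm) :=
    rtk6w1_wIncl w₀ hw₀ hcomm hq (mgdIota (mgcE A (rtk6ebK q 1))) hqM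
  have fam₁ := rtk6m1_emFam hϖ₁ (mgdIota (mgcE A (rtk6ebK q 1))) hq hqM hw₁ hA hML
  obtain ⟨d, hdc, hd⟩ := htame
  have hq2 : q ≠ 2 := by
    rintro rfl
    apply hqM
    have h5 : 2 ∣ M₁ := by omega
    exact h5
  have hd0 : d ≠ 0 := by
    rintro rfl
    rw [Nat.coprime_zero_left] at hdc
    have : 6 ≤ 6 * (M₁ * q) := Nat.le_mul_of_pos_right 6 (Nat.pos_of_ne_zero hL)
    omega
  have hqd : ¬ q ∣ d := by
    intro hqd
    have h6 : q ∣ 6 * (M₁ * q) := Dvd.dvd.mul_left (Dvd.intro_left M₁ rfl) 6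
    have h7 : q ∣ Nat.gcd d (6 * (M₁ * q)) := Nat.dvd_gcd hqd h6
    rw [hdc.gcd_eq_one] at h7
    exact hq.one_lt.ne' (Nat.dvd_one.mp h7)
  have h3 : q = 3 → 2 ∣ M₁ := by
    rintro rfl
    have h5 : 4 ∣ M₁ :=
      (Nat.Coprime.dvd_mul_right (by norm_num : Nat.Coprime 4 3)).mp h4
    exact dvd_trans (by norm_num : 2 ∣ 4) h5
  have ss1₁ := rtk6sj_emSS1 hϖ₁ (mgdIota (mgcE A (rtk6ebK q 1))) hq hqM hw₁ hA hML
    (fun h => absurd h hq2) h3 hd0 hqd hd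
  rcases hu with rfl | rfl
  · exact rtk6fxu_dbc_of_hD hK (rtk6fxu_ebK_one_le A q)
      (rtk6dbc_chart_t_of_ss1 (M₁ * q) M H hq hA hK hL hML hϖ₁ hπ fam₁ ss1₁)
  · exact rtk6fxu_dbc_of_hD hK (rtk6fxu_ebK_one_le A q)
      (rtk6dbc_chart_tinv_of_ss1 (M₁ * q) M H hq hA hK hL hML hϖ₁ hπ fam₁ ss1₁)

/-- **The provider (FIX-U) `hFix` of `rtk6ei_geomUnip_of_pieces`**, literally, without
hypotheses (`K₀ = rtk6ebK q 1`). -/
theorem rtk6fxu_hFix :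
    ∀ (q M₁ : ℕ) [NeZero q] [NeZero M₁] [NeZero (M₁ * q)] (M : ℕ)
      (H : Subgroup (ZMod M)ˣ) (hq : q.Prime) (hqM' : q ∣ M) (hM0 : M ≠ 0), ¬ q ∣ M₁ →
      M ∣ M₁ * q → (∀ c : (ZMod M)ˣ, IsAtR M q c → c ∈ pmH H) → IsTameAt (M₁ * q) M q H →
      4 ∣ M₁ * q →
      ∀ (w₀ : fieldBar (M₁ * q) M H ≃ₐ[Qb] fieldBar (M₁ * q) M H)
        (hw₀ : IsWAt (M₁ * q) M H q w₀) (A : ValuationSubring Qb), A.LiesOverPrime q →
        Rtk6eiEv q A (fun K₁ _ hζ π hπ =>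
          ∀ σ ∈ A.inertiaSubgroupIn ℚ, ∀ (hσE : ∀ x ∈ mgcE A K₁, σ x ∈ mgcE A K₁)
            (u : ↥(rtk6diF A K₁ (M₁ * q) M H)),
            (u = rtk6diT A K₁ (M₁ * q) M H ∨ u = (rtk6diT A K₁ (M₁ * q) M H)⁻¹) →
            Rtk6emFixAt A K₁ (M₁ * q) M H π
              (rtk6dfV hπ M H (rtk6diwW (K₀ := mgcE A K₁) w₀ hw₀ hM0 hq hqM' hζ))
              (rtk6diGal (M₁ * q) M H σ hσE) u ∧
            Rtk6emCongAt A K₁ (M₁ * q) M H π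
              (rtk6dfV hπ M H (rtk6diwW (K₀ := mgcE A K₁) w₀ hw₀ hM0 hq hqM' hζ))
              (rtk6diGal (M₁ * q) M H σ hσE) u) := by
  intro q M₁ _ _ _ M H hq hqM' hM0 hqM hML hat htame h4 w₀ hw₀ A hA
  refine ⟨rtk6ebK q 1, inferInstance, ?_⟩
  intro K₁ _ _ _ hK hζ π hπ σ hσI hσE u hu
  exact rtk6fxu_of_dbc hσI hσE hπ _ hu
    (rtk6fxu_dbc_unr hq hqM' hM0 hqM hML hat htame h4 w₀ hw₀ hA hK hπ u hu)

/-- **`StmtRtk6GeomUnip` from the provider (C4-U) `hNode` alone**: (SS1-inst) is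
`rtk6sj_hSS1_unip`, (FIX-U) is `rtk6fxu_hFix`. -/
theorem rtk6fxu_geomUnip_final
    (hNode : ∀ (q M₁ : ℕ) [NeZero q] [NeZero M₁] [NeZero (M₁ * q)] (M : ℕ)
      (H : Subgroup (ZMod M)ˣ) (hq : q.Prime) (hqM' : q ∣ M) (hM0 : M ≠ 0), ¬ q ∣ M₁ →
      M ∣ M₁ * q → (∀ c : (ZMod M)ˣ, IsAtR M q c → c ∈ pmH H) → IsTameAt (M₁ * q) M q H →
      4 ∣ M₁ * q →
      ∀ (w₀ : fieldBar (M₁ * q) M H ≃ₐ[Qb] fieldBar (M₁ * q) M H)
        (hw₀ : IsWAt (M₁ * q) M H q w₀) (A : ValuationSubring Qb), A.LiesOverPrime q →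
        Rtk6eiEv q A (fun K₁ _ hζ π hπ => Rtk6emNode A K₁ (M₁ * q) M H π
          (rtk6dfV hπ M H (rtk6diwW (K₀ := mgcE A K₁) w₀ hw₀ hM0 hq hqM' hζ)))) :
    StmtRtk6GeomUnip :=
  rtk6ei_geomUnip_of_pieces rtk6sj_hSS1_unip hNode rtk6fxu_hFix

end Fermat.Agent.RT.K6

end


end ZBRT_074_8
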