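/- GENERATED FILE (helper35, build-time optimisation, NOTES/ZB.md): verbatim concatenation of the modules
   Fermat.Agent.RT.K6.GenInstGenAbs
   Fermat.Agent.RT.K6.GenInstK
   Do not edit; do not import together with these modules. -/
import Mathlib
import Fermat.Agent.ZB.RT_078
import Fermat.Agent.ZB.RT_079

/-! ### bundled: `Fermat.Agent.RT.K6.GenInstGenAbs` -/
section ZBRT_080_0
/-
K-machine, piece K6, piece GEN-inst (helper74), part 4: GENERATION and exponent bookkeeping for the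
generators of (G-et) / (G-sm) (Mathlib only).

`K ⊆ F` fields.  The function field `F` is generated over `K` by the Kummer elements `y_i`
(étale), `y` (the ramified character `ψ_r`) and the uniformiser `ϖ₁` of the ramified base
((F1), helper70).  At a closed point the `y`'s are replaced by the local generators
`t_i = y_i / γ_i`, `t = y / γ` resp. `t = (y / γ) ^ a / (π ^ b ϖ₁)`.

* `rtk6gi_adjoin_top`     : `K[Y] = ⊤`, `Y ⊆ K[T]` ⇒ `K[T] = ⊤`;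
* `rtk6gi_zpow_mem`       : `z ∈ S`, `z ^ m = c ∈ Kˣ` ⇒ `z ^ n ∈ S` for all `n : ℤ`;
* `rtk6gi_pow_unify`      : `φ b · t ^ m' = φ a`, `m' ∣ m` ⇒ `φ b' · t ^ m = φ a'` (`a', b'` powers
                            of `a, b`);
* `rtk6gi_hgen_cross_abs` : `hgen` of `Rtk6c4Cross(E)` for the set `S` of the `t_i`;
* `rtk6gi_hgen_sm_abs`    : `hgen` of `Rtk6c4Sm` for `{ϖ₁} ∪ (S ∪ {t})`;
* `rtk6gi_fix_of_div`     : `σ t = t` for `t = y_i / c`, `σ : F ≃ₐ[K] F` fixing `y_i`.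
-/

set_option autoImplicit false
set_option linter.unusedSectionVars false
set_option linter.unusedVariables false

namespace Fermat.Agent.RT.K6

section GenAbs

variable {K F : Type*} [Field K] [Field F] [Algebra K F]

/-- `K[Y] = ⊤` and `Y ⊆ K[T]` ⇒ `K[T] = ⊤` -/
theorem rtk6gi_adjoin_top {Y T : Set F} (hY : Algebra.adjoin K Y = ⊤)
    (h : ∀ y ∈ Y, y ∈ Algebra.adjoin K T) : Algebra.adjoin K T = ⊤ := by
  rw [eq_top_iff, ← hY]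
  exact Algebra.adjoin_le h

/-- a subalgebra containing `z` with `z ^ m ∈ Kˣ` contains all integer powers of `z` -/
theorem rtk6gi_zpow_mem (S : Subalgebra K F) {z : F} (hz : z ∈ S) {m : ℕ} (hm : 0 < m)
    {c : K} (hc : c ≠ 0) (hzm : z ^ m = algebraMap K F c) (n : ℤ) : z ^ n ∈ S := by
  have hcF : algebraMap K F c ≠ 0 := (map_ne_zero _).2 hc
  have hinv : z⁻¹ ∈ S := by
    have h1 : z⁻¹ = algebraMap K F c⁻¹ * z ^ (m - 1) := by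
      have hz0 : z ≠ 0 := by
        intro h0
        rw [h0, zero_pow hm.ne'] at hzm
        exact hcF hzm.symm
      have hmm : z ^ m = z ^ (m - 1) * z := by
        rw [← pow_succ, Nat.sub_add_cancel hm]
      rw [map_inv₀, ← hzm, hmm, mul_inv, mul_comm (z ^ (m - 1))⁻¹, mul_assoc,
        inv_mul_cancel₀ (pow_ne_zero _ hz0), mul_one]
    rw [h1]
    exact S.mul_mem (S.algebraMap_mem _) (S.pow_mem hz _)
  cases n with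
  | ofNat n => rw [Int.ofNat_eq_natCast, zpow_natCast]; exact S.pow_mem hz n
  | negSucc n => rw [zpow_negSucc, ← inv_pow]; exact S.pow_mem hinv _

/-- exponent bookkeeping: a Kummer relation of exponent `m'` gives one of every exponent `m`
divisible by `m'` -/
theorem rtk6gi_pow_unify {R₀ : Type*} [CommRing R₀] (φ : R₀ →+* F) (𝔫 : Ideal R₀)
    [h𝔫 : 𝔫.IsPrime] {t : F} {m' m : ℕ} (hdvd : m' ∣ m) {a b : R₀} (ha : a ∉ 𝔫) (hb : b ∉ 𝔫)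
    (h : φ b * t ^ m' = φ a) :
    ∃ a' b' : R₀, a' ∉ 𝔫 ∧ b' ∉ 𝔫 ∧ φ b' * t ^ m = φ a' := by
  obtain ⟨k, rfl⟩ := hdvd
  refine ⟨a ^ k, b ^ k, fun h1 => ha (h𝔫.mem_of_pow_mem k h1),
    fun h1 => hb (h𝔫.mem_of_pow_mem k h1), ?_⟩
  rw [map_pow, map_pow, pow_mul, ← mul_pow, h]

/-- the same with the membership tested after a ring homomorphism `j` (shape of the field `hSet`
of `Rtk6c4Cross`, `Rtk6c4Sm`) -/
theorem rtk6gi_pow_unify_j {R₀ B : Type*} [CommRing R₀] [CommRing B] (φ : R₀ →+* F)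
    (j : R₀ →+* B) (𝔫 : Ideal B) [h𝔫 : 𝔫.IsPrime] {t : F} {m' m : ℕ} (hdvd : m' ∣ m)
    {a b : R₀} (ha : j a ∉ 𝔫) (hb : j b ∉ 𝔫) (h : φ b * t ^ m' = φ a) :
    ∃ a' b' : R₀, j a' ∉ 𝔫 ∧ j b' ∉ 𝔫 ∧ φ b' * t ^ m = φ a' := by
  obtain ⟨k, rfl⟩ := hdvd
  refine ⟨a ^ k, b ^ k, fun h1 => ha (h𝔫.mem_of_pow_mem k (by rw [← map_pow]; exact h1)),
    fun h1 => hb (h𝔫.mem_of_pow_mem k (by rw [← map_pow]; exact h1)), ?_⟩
  rw [map_pow, map_pow, pow_mul, ← mul_pow, h]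

/-- **`hgen` at a crossing point**: if `F = K[Y]`, every element of `Y` being one of the `y_i` or
an element of `T`, and every `y_i` is a `K`-multiple of an element of `S`, then `F = K[S ∪ T]`. -/
theorem rtk6gi_hgen_cross_abs {ι : Type*} (yy : ι → F) (S T Y : Set F)
    (hS : ∀ i, ∃ t ∈ S, ∃ c : K, yy i = algebraMap K F c * t)
    (hY : ∀ z ∈ Y, z ∈ T ∨ ∃ i, z = yy i)
    (hF1 : Algebra.adjoin K Y = ⊤) : Algebra.adjoin K (S ∪ T) = ⊤ := by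
  refine rtk6gi_adjoin_top hF1 fun z hz => ?_
  rcases hY z hz with h | ⟨i, rfl⟩
  · exact Algebra.subset_adjoin (Or.inr h)
  · obtain ⟨t, ht, c, hc⟩ := hS i
    rw [hc]
    exact Subalgebra.mul_mem _ (Subalgebra.algebraMap_mem _ _)
      (Algebra.subset_adjoin (Or.inl ht))

/-- **`hgen` at a smooth point**: `F = K[Y]`, every element of `Y` being `ϖ₁`, `y` or one of the
`y_i`; the `y_i` are `K`-multiples of elements of `S`; `y = c t` (on `Σ_∞`) or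
`y = c (t ϖ₁) ^ n₀` with `(t ϖ₁) ^ m ∈ Kˣ` (on `Σ_0`).  Then `F = K[{ϖ₁} ∪ (S ∪ {t})]`. -/
theorem rtk6gi_hgen_sm_abs {ι : Type*} (yy : ι → F) (S Y : Set F) {ϖ₁ y t : F}
    (hS : ∀ i, ∃ t ∈ S, ∃ c : K, yy i = algebraMap K F c * t)
    (hY : ∀ z ∈ Y, z = ϖ₁ ∨ z = y ∨ ∃ i, z = yy i)
    (hF1 : Algebra.adjoin K Y = ⊤)
    (hy : (∃ c : K, y = algebraMap K F c * t) ∨
      ∃ (c c' : K) (n₀ : ℤ) (m : ℕ), 0 < m ∧ c' ≠ 0 ∧ (t * ϖ₁) ^ m = algebraMap K F c' ∧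
        y = algebraMap K F c * (t * ϖ₁) ^ n₀) :
    Algebra.adjoin K ({ϖ₁} ∪ (S ∪ {t})) = ⊤ := by
  have hϖ : ϖ₁ ∈ Algebra.adjoin K ({ϖ₁} ∪ (S ∪ {t}) : Set F) :=
    Algebra.subset_adjoin (Or.inl rfl)
  have ht : t ∈ Algebra.adjoin K ({ϖ₁} ∪ (S ∪ {t}) : Set F) :=
    Algebra.subset_adjoin (Or.inr (Or.inr rfl))
  refine rtk6gi_adjoin_top hF1 fun z hz => ?_
  rcases hY z hz with rfl | rfl | ⟨i, rfl⟩
  · exact hϖ
  · rcases hy with ⟨c, hc⟩ | ⟨c, c', n₀, m, hm, hc', hpow, hc⟩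
    · rw [hc]
      exact Subalgebra.mul_mem _ (Subalgebra.algebraMap_mem _ _) ht
    · rw [hc]
      exact Subalgebra.mul_mem _ (Subalgebra.algebraMap_mem _ _)
        (rtk6gi_zpow_mem _ (Subalgebra.mul_mem _ ht hϖ) hm hc' hpow n₀)
  · obtain ⟨s, hs, c, hc⟩ := hS i
    rw [hc]
    exact Subalgebra.mul_mem _ (Subalgebra.algebraMap_mem _ _)
      (Algebra.subset_adjoin (Or.inr (Or.inl hs)))

/-- a `K`-automorphism fixing `y` fixes `y / c`, `c ∈ K` -/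
theorem rtk6gi_fix_of_div (σ : F ≃ₐ[K] F) {y t : F} {c : K} (ht : t = y / algebraMap K F c)
    (h : σ y = y) : σ t = t := by
  rw [ht, map_div₀, σ.commutes, h]

/-- the fields `hσS`, `hδS`: a `K`-automorphism fixing all `y_i` fixes every element of a set `S`
of elements `y_i / c` -/
theorem rtk6gi_fix_set {ι : Type*} (yy : ι → F) (S : Set F)
    (hS : ∀ t ∈ S, ∃ i, ∃ c : K, c ≠ 0 ∧ t = yy i / algebraMap K F c)
    (σ : F ≃ₐ[K] F) (h : ∀ i, σ (yy i) = yy i) : ∀ t ∈ S, σ t = t := by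
  intro t ht
  obtain ⟨i, c, -, hc⟩ := hS t ht
  exact rtk6gi_fix_of_div σ hc (h i)

end GenAbs

end Fermat.Agent.RT.K6


end ZBRT_080_0

/-! ### bundled: `Fermat.Agent.RT.K6.GenInstK` -/
section ZBRT_080_1
/-
K-machine, piece K6, piece GEN-inst (helper74), part 6: **(G-et), (G-sm) and the packs over a
GENERIC unramified base** `K₀ ⊇ ℚ̄^I` (fork of `GenInst.lean`, `GenInstEt.lean`, `GenInstGen.lean`
from `K₀ = beta0Field A` to the setting of `section Reg` of `DLFConc.lean`: `hE : beta0Field A ≤ K₀`,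
`hφF : A.IsFrobeniusAt φ q`, `hφ : φ K₀ ⊆ K₀`, `hqπ : Associated q π`), for the level
`K₀ = mgcE A K₁′` of C4-U (A) (helper37).

`K = FullC K₀ (Mq)`, `R₀ = zchClosure {j}` over `A ∩ K₀`, `𝔫` a closed point of the special fibre.

* `rtk6gik_LF_J`       : (LF) at every closed point, FRACTION form;
* `rtk6gik_et_J`       : `m ∣ n₀` ⇒ `e₂ y = e₁ γ' ^ m`, `e₁, e₂ ∈ R₀ ∖ 𝔫`, at EVERY closed point;
* `rtk6gik_et_JF`, `rtk6gik_et_family` : the same in `F` (`f : K →+* F`), finite families;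
* `rtk6gik_sm_JF`      : the smooth generator for a character ramified at `r`;
* `rtk6gik_cross_pack`, `rtk6gik_sm_pack` : the fields `hS hSet hgen hσS` of `Rtk6c4Cross(E)`,
  `hl hgen` of `rtk6c4et_locGen` / `rtk6c4et_nodeAt`, `hS hSet hgen` of `Rtk6c4Sm`.
-/

set_option autoImplicit false
set_option linter.style.haveILetI false
set_option linter.unusedSectionVars false
set_option linter.unusedVariables false
set_option linter.style.longLine false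
set_option synthInstance.maxHeartbeats 400000
set_option maxHeartbeats 4000000

noncomputable section

namespace Fermat.Agent.RT.K6

open ModularCurve Polynomial IntermediateField Fermat.Agent.INJ Fermat.Agent.AL AlgebraicCurve
open Fermat.Agent.ES Fermat.Agent.ES.G2 Fermat.Agent.STB Fermat.Agent.UNIP Fermat.Agent.S36
open Fermat.Agent.RIB.MP

section RegK

variable {A : ValuationSubring Qb} {K₀ : IntermediateField ℚ Qb}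
  [IsDiscreteValuationRing ↥(beta0Ring A K₀)] {π : ↥(beta0Ring A K₀)} (hπ : Irreducible π)
  (ιC : ↥K₀ →+* ℂ) {q M : ℕ} [NeZero q] [NeZero M] [NeZero (M * q)]
  (hq : q.Prime) (hqM : ¬ q ∣ M)

omit [NeZero q] [NeZero M] in
/-- **the thin crossing datum in the shape of C4**: `w ∉ 𝔫`, `w π = X Y`, `X, Y ∈ 𝔫`,
`𝔫 = (π, X, Y)` locally. -/
theorem rtk6gik_crossAt_data {V₁ V₂ : ValuationSubring ↥(modularFunctionFieldFullC ↥K₀ (M * q))}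
    {𝔫 : AtPt (F := ↥(modularFunctionFieldFullC ↥K₀ (M * q))) π (bgJ ↥K₀ (M * q))} {X Y : ↥(zchClosure (A₀ := ↥(beta0Ring A K₀)) ({bgJ ↥K₀ (M * q)} : Set ↥(modularFunctionFieldFullC ↥K₀ (M * q))))}
    (h : Rtk6lfCrossAt V₁ V₂ 𝔫 X Y) :
    X ∈ 𝔫.1 ∧ Y ∈ 𝔫.1 ∧ (∃ w : ↥(zchClosure (A₀ := ↥(beta0Ring A K₀)) ({bgJ ↥K₀ (M * q)} : Set ↥(modularFunctionFieldFullC ↥K₀ (M * q)))), w ∉ 𝔫.1 ∧ w * algebraMap _ ↥(zchClosure (A₀ := ↥(beta0Ring A K₀)) ({bgJ ↥K₀ (M * q)} : Set ↥(modularFunctionFieldFullC ↥K₀ (M * q)))) π = X * Y) ∧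
      NodesLocGen 𝔫.1 {algebraMap _ ↥(zchClosure (A₀ := ↥(beta0Ring A K₀)) ({bgJ ↥K₀ (M * q)} : Set ↥(modularFunctionFieldFullC ↥K₀ (M * q)))) π, X, Y} := by
  obtain ⟨h₁, h₂, hX, hY, hw, hgen⟩ := h
  exact ⟨h₁ X hX, h₂ Y hY, hw, hgen⟩

include hπ ιC hq hqM in
/-- **(LF) at a crossing point, fraction form** (for the generator `ψ_r`: the fields `hγ he₁ he₂`
and, after `rtk6gi_LF_lift`, `hy` of `Rtk6c4Cross`). -/
theorem rtk6gik_cross_J (hA : A.LiesOverPrime q) (hE : beta0Field A ≤ K₀) {φ : Qb ≃ₐ[ℚ] Qb}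
    (hφF : A.IsFrobeniusAt φ q) (hφ : ∀ x ∈ K₀, φ x ∈ K₀)
    (hqπ : Associated ((q : ℕ) : ↥(beta0Ring A K₀)) π)
    (rigid : (q ≠ 2 → 4 ∣ M) ∧ (q = 2 → 9 ∣ M))
    (𝔫 : AtPt (F := ↥(modularFunctionFieldFullC ↥K₀ (M * q))) π (bgJ ↥K₀ (M * q))) {X Y : ↥(zchClosure (A₀ := ↥(beta0Ring A K₀)) ({bgJ ↥K₀ (M * q)} : Set ↥(modularFunctionFieldFullC ↥K₀ (M * q))))}
    (h : Rtk6lfCrossAt (mgvV hπ ιC hq hqM true) (mgvV hπ ιC hq hqM false) 𝔫 X Y)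
    (m : ℕ) {y : ↥(modularFunctionFieldFullC ↥K₀ (M * q))} (hy : y ≠ 0)
    (hhor : ∀ P : Place ↥K₀ ↥(modularFunctionFieldFullC ↥K₀ (M * q)), (m : ℤ) ∣ P.ord y)
    (hy₁ : (mgvV hπ ιC hq hqM true).valuation y = 1) {n₀ : ℤ}
    (hn₀ : (mgvV hπ ιC hq hqM false).valuation y = (mgvV hπ ιC hq hqM false).valuation
      (algebraMap ↥(beta0Ring A K₀) ↥(modularFunctionFieldFullC ↥K₀ (M * q)) π) ^ n₀) :
    ∃ (γ : ↥(modularFunctionFieldFullC ↥K₀ (M * q))) (e₁ e₂ : ↥(zchClosure (A₀ := ↥(beta0Ring A K₀)) ({bgJ ↥K₀ (M * q)} : Set ↥(modularFunctionFieldFullC ↥K₀ (M * q))))), γ ≠ 0 ∧ e₁ ∉ 𝔫.1 ∧ e₂ ∉ 𝔫.1 ∧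
      (e₂ : ↥(modularFunctionFieldFullC ↥K₀ (M * q))) * y = (e₁ : ↥(modularFunctionFieldFullC ↥K₀ (M * q))) * (Y : ↥(modularFunctionFieldFullC ↥K₀ (M * q))) ^ n₀ * γ ^ m := by
  obtain ⟨γ, ε, hε, hyε, hγ, -, -⟩ := rtk6lfb_cross_LF_J hπ ιC hq hqM hA hE
    (rtk6lfb_rigid_h2 rigid) (rtk6lfb_rigid_h3 rigid) 𝔫 h m hy (fun P _ => hhor P) hy₁ hn₀
  haveI := 𝔫.2.1.isPrime
  obtain ⟨e₁, e₂, h1, h2, h3⟩ := rtk6gi_LF_frac (F := ↥(modularFunctionFieldFullC ↥K₀ (M * q))) (B := ↥(zchClosure (A₀ := ↥(beta0Ring A K₀)) ({bgJ ↥K₀ (M * q)} : Set ↥(modularFunctionFieldFullC ↥K₀ (M * q))))) Subtype.val_injective 𝔫.1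
    (ε := ε) hε hyε
  exact ⟨γ, e₁, e₂, hγ, h1, h2, h3⟩

include hπ ιC hq hqM in
/-- **(LF) at every closed point of the chart `j`, fraction form.** -/
theorem rtk6gik_LF_J (hA : A.LiesOverPrime q) (hE : beta0Field A ≤ K₀) {φ : Qb ≃ₐ[ℚ] Qb}
    (hφF : A.IsFrobeniusAt φ q) (hφ : ∀ x ∈ K₀, φ x ∈ K₀)
    (hqπ : Associated ((q : ℕ) : ↥(beta0Ring A K₀)) π)
    (rigid : (q ≠ 2 → 4 ∣ M) ∧ (q = 2 → 9 ∣ M))
    (m : ℕ) {y : ↥(modularFunctionFieldFullC ↥K₀ (M * q))} (hy : y ≠ 0)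
    (hhor : ∀ P : Place ↥K₀ ↥(modularFunctionFieldFullC ↥K₀ (M * q)), (m : ℤ) ∣ P.ord y)
    (hy₁ : (mgvV hπ ιC hq hqM true).valuation y = 1) {n₀ : ℤ}
    (hn₀ : (mgvV hπ ιC hq hqM false).valuation y = (mgvV hπ ιC hq hqM false).valuation
      (algebraMap ↥(beta0Ring A K₀) ↥(modularFunctionFieldFullC ↥K₀ (M * q)) π) ^ n₀)
    (𝔫 : AtPt (F := ↥(modularFunctionFieldFullC ↥K₀ (M * q))) π (bgJ ↥K₀ (M * q))) :
    (∃ X Y : ↥(zchClosure (A₀ := ↥(beta0Ring A K₀)) ({bgJ ↥K₀ (M * q)} : Set ↥(modularFunctionFieldFullC ↥K₀ (M * q)))),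
      Rtk6lfCrossAt (mgvV hπ ιC hq hqM true) (mgvV hπ ιC hq hqM false) 𝔫 X Y ∧
      ∃ (γ : ↥(modularFunctionFieldFullC ↥K₀ (M * q))) (e₁ e₂ : ↥(zchClosure (A₀ := ↥(beta0Ring A K₀)) ({bgJ ↥K₀ (M * q)} : Set ↥(modularFunctionFieldFullC ↥K₀ (M * q))))), γ ≠ 0 ∧ e₁ ∉ 𝔫.1 ∧ e₂ ∉ 𝔫.1 ∧
        (e₂ : ↥(modularFunctionFieldFullC ↥K₀ (M * q))) * y = (e₁ : ↥(modularFunctionFieldFullC ↥K₀ (M * q))) * (Y : ↥(modularFunctionFieldFullC ↥K₀ (M * q))) ^ n₀ * γ ^ m) ∨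
    (atThrough 𝔫 (mgvV hπ ιC hq hqM false) ∧ ¬ atThrough 𝔫 (mgvV hπ ιC hq hqM true) ∧
      (∃ s : ↥(zchClosure (A₀ := ↥(beta0Ring A K₀)) ({bgJ ↥K₀ (M * q)} : Set ↥(modularFunctionFieldFullC ↥K₀ (M * q)))), s ∈ 𝔫.1 ∧ NodesLocGen 𝔫.1 {algebraMap _ ↥(zchClosure (A₀ := ↥(beta0Ring A K₀)) ({bgJ ↥K₀ (M * q)} : Set ↥(modularFunctionFieldFullC ↥K₀ (M * q)))) π, s}) ∧
      ∃ (γ : ↥(modularFunctionFieldFullC ↥K₀ (M * q))) (e₁ e₂ : ↥(zchClosure (A₀ := ↥(beta0Ring A K₀)) ({bgJ ↥K₀ (M * q)} : Set ↥(modularFunctionFieldFullC ↥K₀ (M * q))))), γ ≠ 0 ∧ e₁ ∉ 𝔫.1 ∧ e₂ ∉ 𝔫.1 ∧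
        (e₂ : ↥(modularFunctionFieldFullC ↥K₀ (M * q))) * y = (e₁ : ↥(modularFunctionFieldFullC ↥K₀ (M * q))) *
          algebraMap ↥(beta0Ring A K₀) ↥(modularFunctionFieldFullC ↥K₀ (M * q)) π ^ n₀ * γ ^ m) ∨
    (atThrough 𝔫 (mgvV hπ ιC hq hqM true) ∧ ¬ atThrough 𝔫 (mgvV hπ ιC hq hqM false) ∧
      (∃ s : ↥(zchClosure (A₀ := ↥(beta0Ring A K₀)) ({bgJ ↥K₀ (M * q)} : Set ↥(modularFunctionFieldFullC ↥K₀ (M * q)))), s ∈ 𝔫.1 ∧ NodesLocGen 𝔫.1 {algebraMap _ ↥(zchClosure (A₀ := ↥(beta0Ring A K₀)) ({bgJ ↥K₀ (M * q)} : Set ↥(modularFunctionFieldFullC ↥K₀ (M * q)))) π, s}) ∧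
      ∃ (γ : ↥(modularFunctionFieldFullC ↥K₀ (M * q))) (e₁ e₂ : ↥(zchClosure (A₀ := ↥(beta0Ring A K₀)) ({bgJ ↥K₀ (M * q)} : Set ↥(modularFunctionFieldFullC ↥K₀ (M * q))))), γ ≠ 0 ∧ e₁ ∉ 𝔫.1 ∧ e₂ ∉ 𝔫.1 ∧
        (e₂ : ↥(modularFunctionFieldFullC ↥K₀ (M * q))) * y = (e₁ : ↥(modularFunctionFieldFullC ↥K₀ (M * q))) * γ ^ m) := by
  haveI := 𝔫.2.1.isPrime
  rcases rtk6lfb_LF_J hπ ιC hq hqM hA hE hφF hφ hqπ rigid m hy hhor hy₁ hn₀ 𝔫 with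
    ⟨X, Y, h, γ, ε, hε, hyε, hγ, -, -⟩ | ⟨h1, h2, hs, γ, ε, hε, hyε, hγ, -⟩ |
    ⟨h1, h2, hs, γ, ε, hε, hyε, hγ, -⟩
  · obtain ⟨e₁, e₂, he₁, he₂, h3⟩ := rtk6gi_LF_frac (F := ↥(modularFunctionFieldFullC ↥K₀ (M * q))) (B := ↥(zchClosure (A₀ := ↥(beta0Ring A K₀)) ({bgJ ↥K₀ (M * q)} : Set ↥(modularFunctionFieldFullC ↥K₀ (M * q)))))
      Subtype.val_injective 𝔫.1 (ε := ε) hε hyε
    exact Or.inl ⟨X, Y, h, γ, e₁, e₂, hγ, he₁, he₂, h3⟩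
  · obtain ⟨e₁, e₂, he₁, he₂, h3⟩ := rtk6gi_LF_frac (F := ↥(modularFunctionFieldFullC ↥K₀ (M * q))) (B := ↥(zchClosure (A₀ := ↥(beta0Ring A K₀)) ({bgJ ↥K₀ (M * q)} : Set ↥(modularFunctionFieldFullC ↥K₀ (M * q)))))
      Subtype.val_injective 𝔫.1 (ε := ε) hε hyε
    exact Or.inr (Or.inl ⟨h1, h2, hs, γ, e₁, e₂, hγ, he₁, he₂, h3⟩)
  · have hyε' : y = (ε : ↥(modularFunctionFieldFullC ↥K₀ (M * q))) * (1 : ↥(modularFunctionFieldFullC ↥K₀ (M * q))) ^ (0 : ℤ) * γ ^ m := by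
      rw [zpow_zero, mul_one]
      exact hyε
    obtain ⟨e₁, e₂, he₁, he₂, h3⟩ := rtk6gi_LF_frac (F := ↥(modularFunctionFieldFullC ↥K₀ (M * q))) (B := ↥(zchClosure (A₀ := ↥(beta0Ring A K₀)) ({bgJ ↥K₀ (M * q)} : Set ↥(modularFunctionFieldFullC ↥K₀ (M * q)))))
      Subtype.val_injective 𝔫.1 (ε := ε) hε hyε'
    rw [zpow_zero, mul_one] at h3
    exact Or.inr (Or.inr ⟨h1, h2, hs, γ, e₁, e₂, hγ, he₁, he₂, h3⟩)

include hπ ιC hq hqM in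
/-- **(G-et), `K`-level**: a function `y ≠ 0` on the `Γ₀(Mq)`-curve whose divisor is divisible by
`m`, unit at `V_∞`, with `v_0(y) = v_0(π) ^ n₀` and **`m ∣ n₀`**, is at EVERY closed point `𝔫` of
the chart `j` a unit times an `m`-th power: `e₂ y = e₁ γ' ^ m`, `e₁, e₂ ∈ R₀ ∖ 𝔫`. -/
theorem rtk6gik_et_J (hA : A.LiesOverPrime q) (hE : beta0Field A ≤ K₀) {φ : Qb ≃ₐ[ℚ] Qb}
    (hφF : A.IsFrobeniusAt φ q) (hφ : ∀ x ∈ K₀, φ x ∈ K₀)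
    (hqπ : Associated ((q : ℕ) : ↥(beta0Ring A K₀)) π)
    (rigid : (q ≠ 2 → 4 ∣ M) ∧ (q = 2 → 9 ∣ M))
    (m : ℕ) {y : ↥(modularFunctionFieldFullC ↥K₀ (M * q))} (hy : y ≠ 0)
    (hhor : ∀ P : Place ↥K₀ ↥(modularFunctionFieldFullC ↥K₀ (M * q)), (m : ℤ) ∣ P.ord y)
    (hy₁ : (mgvV hπ ιC hq hqM true).valuation y = 1) {n₀ : ℤ}
    (hn₀ : (mgvV hπ ιC hq hqM false).valuation y = (mgvV hπ ιC hq hqM false).valuation
      (algebraMap ↥(beta0Ring A K₀) ↥(modularFunctionFieldFullC ↥K₀ (M * q)) π) ^ n₀)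
    (hdvd : (m : ℤ) ∣ n₀)
    (𝔫 : AtPt (F := ↥(modularFunctionFieldFullC ↥K₀ (M * q))) π (bgJ ↥K₀ (M * q))) :
    ∃ (γ' : ↥(modularFunctionFieldFullC ↥K₀ (M * q))) (e₁ e₂ : ↥(zchClosure (A₀ := ↥(beta0Ring A K₀)) ({bgJ ↥K₀ (M * q)} : Set ↥(modularFunctionFieldFullC ↥K₀ (M * q))))), γ' ≠ 0 ∧ e₁ ∉ 𝔫.1 ∧ e₂ ∉ 𝔫.1 ∧
      (e₂ : ↥(modularFunctionFieldFullC ↥K₀ (M * q))) * y = (e₁ : ↥(modularFunctionFieldFullC ↥K₀ (M * q))) * γ' ^ m := by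
  haveI := 𝔫.2.1.isPrime
  have hπ0 : algebraMap ↥(beta0Ring A K₀) ↥(modularFunctionFieldFullC ↥K₀ (M * q)) π ≠ 0 := ribmp_fc_hπ0 hπ
  rcases rtk6lfb_LF_J hπ ιC hq hqM hA hE hφF hφ hqπ rigid m hy hhor hy₁ hn₀ 𝔫 with
    ⟨X, Y, h, γ, ε, hε, hyε, hγ, -, -⟩ | ⟨-, -, -, γ, ε, hε, hyε, hγ, -⟩ |
    ⟨-, -, -, γ, ε, hε, hyε, hγ, -⟩
  · have hY0 : (Y : ↥(modularFunctionFieldFullC ↥K₀ (M * q))) ≠ 0 := by
      intro h0
      obtain ⟨-, -, -, -, ⟨w, hw, hXY⟩, -⟩ := h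
      have hY : Y = 0 := Subtype.ext h0
      rw [hY, mul_zero] at hXY
      have hπR : algebraMap ↥(beta0Ring A K₀) ↥(zchClosure (A₀ := ↥(beta0Ring A K₀)) ({bgJ ↥K₀ (M * q)} : Set ↥(modularFunctionFieldFullC ↥K₀ (M * q)))) π ≠ 0 := by
        intro h1
        apply hπ0
        have := congrArg (fun z : ↥(zchClosure (A₀ := ↥(beta0Ring A K₀)) ({bgJ ↥K₀ (M * q)} : Set ↥(modularFunctionFieldFullC ↥K₀ (M * q)))) => (z : ↥(modularFunctionFieldFullC ↥K₀ (M * q)))) h1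
        simpa using this
      rcases mul_eq_zero.1 hXY with h2 | h2
      · exact hw (h2 ▸ 𝔫.1.zero_mem)
      · exact hπR h2
    exact rtk6gi_et_of_LF (F := ↥(modularFunctionFieldFullC ↥K₀ (M * q))) (B := ↥(zchClosure (A₀ := ↥(beta0Ring A K₀)) ({bgJ ↥K₀ (M * q)} : Set ↥(modularFunctionFieldFullC ↥K₀ (M * q))))) Subtype.val_injective 𝔫.1 (ε := ε) hε hY0 hγ
      hyε hdvd
  · exact rtk6gi_et_of_LF (F := ↥(modularFunctionFieldFullC ↥K₀ (M * q))) (B := ↥(zchClosure (A₀ := ↥(beta0Ring A K₀)) ({bgJ ↥K₀ (M * q)} : Set ↥(modularFunctionFieldFullC ↥K₀ (M * q))))) Subtype.val_injective 𝔫.1 (ε := ε) hε hπ0 hγ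
      hyε hdvd
  · have hyε' : y = (ε : ↥(modularFunctionFieldFullC ↥K₀ (M * q))) * (1 : ↥(modularFunctionFieldFullC ↥K₀ (M * q))) ^ (0 : ℤ) * γ ^ m := by
      rw [zpow_zero, mul_one]
      exact hyε
    exact rtk6gi_et_of_LF (F := ↥(modularFunctionFieldFullC ↥K₀ (M * q))) (B := ↥(zchClosure (A₀ := ↥(beta0Ring A K₀)) ({bgJ ↥K₀ (M * q)} : Set ↥(modularFunctionFieldFullC ↥K₀ (M * q))))) Subtype.val_injective 𝔫.1 (ε := ε) hε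
      one_ne_zero hγ hyε' (dvd_zero _)


end RegK

section RegKF

variable {A : ValuationSubring Qb} {K₀ : IntermediateField ℚ Qb}
  [IsDiscreteValuationRing ↥(beta0Ring A K₀)] {π : ↥(beta0Ring A K₀)} (hπ : Irreducible π)
  (ιC : ↥K₀ →+* ℂ) {q M : ℕ} [NeZero q] [NeZero M] [NeZero (M * q)]
  (hq : q.Prime) (hqM : ¬ q ∣ M)

variable {F : Type*} [Field F] (f : ↥(modularFunctionFieldFullC ↥K₀ (M * q)) →+* F)

include hπ ιC hq hqM in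
/-- **(G-et)**, one generator: `t = y / f γ'` with `f e₂ · t ^ m = f e₁`, `e₁, e₂ ∈ R₀ ∖ 𝔫`. -/
theorem rtk6gik_et_JF (hA : A.LiesOverPrime q) (hE : beta0Field A ≤ K₀) {φ : Qb ≃ₐ[ℚ] Qb}
    (hφF : A.IsFrobeniusAt φ q) (hφ : ∀ x ∈ K₀, φ x ∈ K₀)
    (hqπ : Associated ((q : ℕ) : ↥(beta0Ring A K₀)) π)
    (rigid : (q ≠ 2 → 4 ∣ M) ∧ (q = 2 → 9 ∣ M))
    (m : ℕ) {y : F} {u : ↥(modularFunctionFieldFullC ↥K₀ (M * q))} (hyu : y ^ m = f u) (hu : u ≠ 0)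
    (hhor : ∀ P : Place ↥K₀ ↥(modularFunctionFieldFullC ↥K₀ (M * q)), (m : ℤ) ∣ P.ord u)
    (hy₁ : (mgvV hπ ιC hq hqM true).valuation u = 1) {n₀ : ℤ}
    (hn₀ : (mgvV hπ ιC hq hqM false).valuation u = (mgvV hπ ιC hq hqM false).valuation
      (algebraMap ↥(beta0Ring A K₀) ↥(modularFunctionFieldFullC ↥K₀ (M * q)) π) ^ n₀)
    (hdvd : (m : ℤ) ∣ n₀)
    (𝔫 : AtPt (F := ↥(modularFunctionFieldFullC ↥K₀ (M * q))) π (bgJ ↥K₀ (M * q))) :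
    ∃ (γ' : ↥(modularFunctionFieldFullC ↥K₀ (M * q))) (e₁ e₂ : ↥(zchClosure (A₀ := ↥(beta0Ring A K₀)) ({bgJ ↥K₀ (M * q)} : Set ↥(modularFunctionFieldFullC ↥K₀ (M * q))))), γ' ≠ 0 ∧ e₁ ∉ 𝔫.1 ∧ e₂ ∉ 𝔫.1 ∧
      f (e₂ : ↥(modularFunctionFieldFullC ↥K₀ (M * q))) * (y / f γ') ^ m = f (e₁ : ↥(modularFunctionFieldFullC ↥K₀ (M * q))) ∧ y = f γ' * (y / f γ') := by
  obtain ⟨γ', e₁, e₂, hγ', he₁, he₂, h⟩ :=
    rtk6gik_et_J hπ ιC hq hqM hA hE hφF hφ hqπ rigid m hu hhor hy₁ hn₀ hdvd 𝔫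
  refine ⟨γ', e₁, e₂, hγ', he₁, he₂, rtk6gi_t_pow_hom f hyu hγ' h, ?_⟩
  rw [mul_div_cancel₀ _ ((map_ne_zero f).2 hγ')]

include hπ ιC hq hqM in
/-- **(G-et)**, finite family: the set `S` of the étale generators at the point `𝔫`, with the
fields `hS`, `hSet` of `Rtk6c4Cross` and the relation to the `y_i`. -/
theorem rtk6gik_et_family (hA : A.LiesOverPrime q) (hE : beta0Field A ≤ K₀) {φ : Qb ≃ₐ[ℚ] Qb}
    (hφF : A.IsFrobeniusAt φ q) (hφ : ∀ x ∈ K₀, φ x ∈ K₀)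
    (hqπ : Associated ((q : ℕ) : ↥(beta0Ring A K₀)) π)
    (rigid : (q ≠ 2 → 4 ∣ M) ∧ (q = 2 → 9 ∣ M))
    (m : ℕ) {ι : Type*} [Finite ι] (y : ι → F) (u : ι → ↥(modularFunctionFieldFullC ↥K₀ (M * q))) (n₀ : ι → ℤ)
    (hyu : ∀ i, y i ^ m = f (u i)) (hu : ∀ i, u i ≠ 0)
    (hhor : ∀ i, ∀ P : Place ↥K₀ ↥(modularFunctionFieldFullC ↥K₀ (M * q)), (m : ℤ) ∣ P.ord (u i))
    (hy₁ : ∀ i, (mgvV hπ ιC hq hqM true).valuation (u i) = 1)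
    (hn₀ : ∀ i, (mgvV hπ ιC hq hqM false).valuation (u i) =
      (mgvV hπ ιC hq hqM false).valuation
        (algebraMap ↥(beta0Ring A K₀) ↥(modularFunctionFieldFullC ↥K₀ (M * q)) π) ^ n₀ i)
    (hdvd : ∀ i, (m : ℤ) ∣ n₀ i)
    (𝔫 : AtPt (F := ↥(modularFunctionFieldFullC ↥K₀ (M * q))) π (bgJ ↥K₀ (M * q))) :
    ∃ S : Set F, S.Finite ∧
      (∀ t ∈ S, ∃ a b : ↥(zchClosure (A₀ := ↥(beta0Ring A K₀)) ({bgJ ↥K₀ (M * q)} : Set ↥(modularFunctionFieldFullC ↥K₀ (M * q)))), a ∉ 𝔫.1 ∧ b ∉ 𝔫.1 ∧ f (b : ↥(modularFunctionFieldFullC ↥K₀ (M * q))) * t ^ m = f (a : ↥(modularFunctionFieldFullC ↥K₀ (M * q)))) ∧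
      (∀ t ∈ S, ∃ i, ∃ c : ↥(modularFunctionFieldFullC ↥K₀ (M * q)), c ≠ 0 ∧ t = y i / f c) ∧
      (∀ i, ∃ t ∈ S, ∃ c : ↥(modularFunctionFieldFullC ↥K₀ (M * q)), c ≠ 0 ∧ y i = f c * t) := by
  have key := fun i => rtk6gik_et_JF hπ ιC hq hqM f hA hE hφF hφ hqπ rigid m (hyu i) (hu i) (hhor i) (hy₁ i)
    (hn₀ i) (hdvd i) 𝔫
  choose γ' e₁ e₂ hγ' he₁ he₂ hpow hy using key
  refine ⟨Set.range fun i => y i / f (γ' i), Set.finite_range _, ?_, ?_, ?_⟩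
  · rintro t ⟨i, rfl⟩
    exact ⟨e₁ i, e₂ i, he₁ i, he₂ i, hpow i⟩
  · rintro t ⟨i, rfl⟩
    exact ⟨i, γ' i, hγ' i, rfl⟩
  · intro i
    exact ⟨y i / f (γ' i), ⟨i, rfl⟩, γ' i, hγ' i, hy i⟩

include hπ ιC hq hqM in
/-- **(G-sm)**: the generator for `ψ_r` at a closed point `𝔫` which is NOT a crossing point. -/
theorem rtk6gik_sm_JF (hA : A.LiesOverPrime q) (hE : beta0Field A ≤ K₀) {φ : Qb ≃ₐ[ℚ] Qb}
    (hφF : A.IsFrobeniusAt φ q) (hφ : ∀ x ∈ K₀, φ x ∈ K₀)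
    (hqπ : Associated ((q : ℕ) : ↥(beta0Ring A K₀)) π)
    (rigid : (q ≠ 2 → 4 ∣ M) ∧ (q = 2 → 9 ∣ M))
    (m : ℕ) {y ϖ₁ : F} {u : ↥(modularFunctionFieldFullC ↥K₀ (M * q))} (hyu : y ^ m = f u) (hu : u ≠ 0)
    (hhor : ∀ P : Place ↥K₀ ↥(modularFunctionFieldFullC ↥K₀ (M * q)), (m : ℤ) ∣ P.ord u)
    (hy₁ : (mgvV hπ ιC hq hqM true).valuation u = 1) {n₀ : ℤ}
    (hn₀ : (mgvV hπ ιC hq hqM false).valuation u = (mgvV hπ ιC hq hqM false).valuation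
      (algebraMap ↥(beta0Ring A K₀) ↥(modularFunctionFieldFullC ↥K₀ (M * q)) π) ^ n₀)
    {a b : ℤ} (hab : a * n₀ - b * m = 1)
    (hϖ : ϖ₁ ^ m = f (algebraMap ↥(beta0Ring A K₀) ↥(modularFunctionFieldFullC ↥K₀ (M * q)) π))
    (𝔫 : AtPt (F := ↥(modularFunctionFieldFullC ↥K₀ (M * q))) π (bgJ ↥K₀ (M * q)))
    (hnc : ¬ (atThrough 𝔫 (mgvV hπ ιC hq hqM true) ∧ atThrough 𝔫 (mgvV hπ ιC hq hqM false))) :
    ∃ (t : F) (a' b' : ↥(zchClosure (A₀ := ↥(beta0Ring A K₀)) ({bgJ ↥K₀ (M * q)} : Set ↥(modularFunctionFieldFullC ↥K₀ (M * q))))) (c : ↥(modularFunctionFieldFullC ↥K₀ (M * q))), a' ∉ 𝔫.1 ∧ b' ∉ 𝔫.1 ∧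
      f (b' : ↥(modularFunctionFieldFullC ↥K₀ (M * q))) * t ^ m = f (a' : ↥(modularFunctionFieldFullC ↥K₀ (M * q))) ∧ c ≠ 0 ∧
      ((atThrough 𝔫 (mgvV hπ ιC hq hqM true) ∧ y = f c * t) ∨
        (atThrough 𝔫 (mgvV hπ ιC hq hqM false) ∧ y = f c * (t * ϖ₁) ^ n₀)) := by
  haveI := 𝔫.2.1.isPrime
  have hπ0 : algebraMap ↥(beta0Ring A K₀) ↥(modularFunctionFieldFullC ↥K₀ (M * q)) π ≠ 0 := ribmp_fc_hπ0 hπ
  have hne : ∀ e : ↥(zchClosure (A₀ := ↥(beta0Ring A K₀)) ({bgJ ↥K₀ (M * q)} : Set ↥(modularFunctionFieldFullC ↥K₀ (M * q)))), e ∉ 𝔫.1 → (e : ↥(modularFunctionFieldFullC ↥K₀ (M * q))) ≠ 0 := fun e he h0 =>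
    he ((Subtype.ext h0 : e = 0) ▸ 𝔫.1.zero_mem)
  rcases rtk6gik_LF_J hπ ιC hq hqM hA hE hφF hφ hqπ rigid m hu hhor hy₁ hn₀ 𝔫 with
    ⟨X, Y, h, -⟩ | ⟨h1, h2, hs, γ, e₁, e₂, hγ, he₁, he₂, h⟩ |
    ⟨h1, h2, hs, γ, e₁, e₂, hγ, he₁, he₂, h⟩
  · exact absurd ⟨h.1, h.2.1⟩ hnc
  · -- `Σ_0`
    have hpow := rtk6gi_sm_zero_pow_hom f hyu hγ hπ0 (hne e₂ he₂) hϖ hab h
    have hγF : f γ ≠ 0 := (map_ne_zero f).2 hγ
    have hπF : f (algebraMap ↥(beta0Ring A K₀) ↥(modularFunctionFieldFullC ↥K₀ (M * q)) π) ≠ 0 :=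
      (map_ne_zero f).2 hπ0
    have he₁F : f (e₁ : ↥(modularFunctionFieldFullC ↥K₀ (M * q))) ≠ 0 := (map_ne_zero f).2 (hne e₁ he₁)
    have he₂F : f (e₂ : ↥(modularFunctionFieldFullC ↥K₀ (M * q))) ≠ 0 := (map_ne_zero f).2 (hne e₂ he₂)
    have hm : 0 < m := by
      rcases Nat.eq_zero_or_pos m with hm | hm
      · exfalso
        subst hm
        rw [pow_zero] at hϖ
        have h1 : algebraMap ↥(beta0Ring A K₀) ↥(modularFunctionFieldFullC ↥K₀ (M * q)) π = 1 :=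
          f.injective (by rw [← hϖ, map_one])
        have h3 := mgv_hπV hπ ιC hq hqM false
        rw [h1, ValuationSubring.mem_nonunits_iff, map_one] at h3
        exact lt_irrefl _ h3
      · exact hm
    have hϖ0 : ϖ₁ ≠ 0 := by
      intro h0
      rw [h0, zero_pow hm.ne'] at hϖ
      exact hπF hϖ.symm
    -- the fraction form of `t ^ m = (e₁ / e₂) ^ a`
    obtain ⟨a', b', ha', hb', hab'⟩ : ∃ a' b' : ↥(zchClosure (A₀ := ↥(beta0Ring A K₀)) ({bgJ ↥K₀ (M * q)} : Set ↥(modularFunctionFieldFullC ↥K₀ (M * q)))), a' ∉ 𝔫.1 ∧ b' ∉ 𝔫.1 ∧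
        f (b' : ↥(modularFunctionFieldFullC ↥K₀ (M * q))) * (f (e₁ : ↥(modularFunctionFieldFullC ↥K₀ (M * q))) / f (e₂ : ↥(modularFunctionFieldFullC ↥K₀ (M * q)))) ^ a = f (a' : ↥(modularFunctionFieldFullC ↥K₀ (M * q))) := by
      rcases le_total 0 a with ha | ha
      · obtain ⟨n, rfl⟩ := Int.eq_ofNat_of_zero_le ha
        refine ⟨e₁ ^ n, e₂ ^ n, fun h => he₁ (‹𝔫.1.IsPrime›.mem_of_pow_mem n h),
          fun h => he₂ (‹𝔫.1.IsPrime›.mem_of_pow_mem n h), ?_⟩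
        rw [zpow_natCast, div_pow]
        push_cast
        rw [map_pow, map_pow, mul_div_assoc', mul_comm, mul_div_assoc,
          div_self (pow_ne_zero _ he₂F), mul_one]
      · obtain ⟨n, rfl⟩ := Int.exists_eq_neg_ofNat ha
        refine ⟨e₂ ^ n, e₁ ^ n, fun h => he₂ (‹𝔫.1.IsPrime›.mem_of_pow_mem n h),
          fun h => he₁ (‹𝔫.1.IsPrime›.mem_of_pow_mem n h), ?_⟩
        rw [zpow_neg, zpow_natCast, ← inv_pow, inv_div, div_pow]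
        push_cast
        rw [map_pow, map_pow, mul_div_assoc', mul_comm, mul_div_assoc,
          div_self (pow_ne_zero _ he₁F), mul_one]
    refine ⟨(y / f γ) ^ a / (f (algebraMap ↥(beta0Ring A K₀) ↥(modularFunctionFieldFullC ↥K₀ (M * q)) π) ^ b * ϖ₁),
      a', b', γ * (((e₁ : ↥(modularFunctionFieldFullC ↥K₀ (M * q))) / (e₂ : ↥(modularFunctionFieldFullC ↥K₀ (M * q)))) ^ b)⁻¹, ha', hb', ?_,
      mul_ne_zero hγ (inv_ne_zero (zpow_ne_zero _ (div_ne_zero (hne e₁ he₁) (hne e₂ he₂)))),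
      Or.inr ⟨h1, ?_⟩⟩
    · rw [hpow]
      exact hab'
    · -- `y = γ ε^{-b} (t ϖ₁)^{n₀}`
      have hF := rtk6gi_LF_lift_hom f hyu h
      have hyΓ : (y / f γ) ^ m = f (e₁ : ↥(modularFunctionFieldFullC ↥K₀ (M * q))) / f (e₂ : ↥(modularFunctionFieldFullC ↥K₀ (M * q))) *
          f (algebraMap ↥(beta0Ring A K₀) ↥(modularFunctionFieldFullC ↥K₀ (M * q)) π) ^ n₀ := by
        rw [div_pow, div_eq_iff (pow_ne_zero _ hγF), div_mul_eq_mul_div, div_mul_eq_mul_div,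
          eq_div_iff he₂F, mul_comm]
        exact hF
      have hy0 : y / f γ ≠ 0 := by
        intro h0
        rw [h0, zero_pow hm.ne'] at hyΓ
        exact mul_ne_zero (div_ne_zero he₁F he₂F) (zpow_ne_zero _ hπF) hyΓ.symm
      have hrel := rtk6gi_sm_zero_rel (T := y / f γ)
        (P := f (algebraMap ↥(beta0Ring A K₀)
          ↥(modularFunctionFieldFullC ↥K₀ (M * q)) π))
        (E := f (e₁ : ↥(modularFunctionFieldFullC ↥K₀ (M * q))) /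
          f (e₂ : ↥(modularFunctionFieldFullC ↥K₀ (M * q))))
        (ϖ₁ := ϖ₁) (d := m) (n₀ := n₀) (a := a) (b := b) hy0 hπF hϖ0 hab hyΓ
      have hE0 : (f (e₁ : ↥(modularFunctionFieldFullC ↥K₀ (M * q))) /
          f (e₂ : ↥(modularFunctionFieldFullC ↥K₀ (M * q)))) ^ b ≠ 0 :=
        zpow_ne_zero _ (div_ne_zero he₁F he₂F)
      rw [hrel, map_mul, map_inv₀, map_zpow₀, map_div₀, mul_assoc, mul_comm (y / f γ),
        ← mul_assoc _ _ (y / f γ), inv_mul_cancel₀ hE0, one_mul,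
        mul_div_cancel₀ _ hγF]
  · -- `Σ_∞`
    refine ⟨y / f γ, e₁, e₂, γ, he₁, he₂, rtk6gi_t_pow_hom f hyu hγ h, hγ, Or.inl ⟨h1, ?_⟩⟩
    rw [mul_div_cancel₀ _ ((map_ne_zero f).2 hγ)]


end RegKF

section RegKPack

variable {A : ValuationSubring Qb} {K₀ : IntermediateField ℚ Qb}
  [IsDiscreteValuationRing ↥(beta0Ring A K₀)] {π : ↥(beta0Ring A K₀)} (hπ : Irreducible π)
  (ιC : ↥K₀ →+* ℂ) {q M : ℕ} [NeZero q] [NeZero M] [NeZero (M * q)]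
  (hq : q.Prime) (hqM : ¬ q ∣ M)

variable {F : Type*} [Field F] [Algebra ↥(modularFunctionFieldFullC ↥K₀ (M * q)) F]

include hπ ιC hq hqM in
/-- **the étale pack at ANY closed point of the chart `j`** (crossing or not): the fields `hS`,
`hSet`, `hgen`, `hσS`/`hδS` of `Rtk6c4Cross(E)`. -/
theorem rtk6gik_cross_pack (hA : A.LiesOverPrime q) (hE : beta0Field A ≤ K₀) {φ : Qb ≃ₐ[ℚ] Qb}
    (hφF : A.IsFrobeniusAt φ q) (hφ : ∀ x ∈ K₀, φ x ∈ K₀)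
    (hqπ : Associated ((q : ℕ) : ↥(beta0Ring A K₀)) π)
    (rigid : (q ≠ 2 → 4 ∣ M) ∧ (q = 2 → 9 ∣ M))
    (m : ℕ) {ι : Type*} [Finite ι] (y : ι → F)
    (u : ι → ↥(modularFunctionFieldFullC ↥K₀ (M * q))) (n₀ : ι → ℤ)
    (hyu : ∀ i, y i ^ m = algebraMap ↥(modularFunctionFieldFullC ↥K₀ (M * q)) F (u i))
    (hu : ∀ i, u i ≠ 0)
    (hhor : ∀ i, ∀ P : Place ↥K₀ ↥(modularFunctionFieldFullC ↥K₀ (M * q)),
      (m : ℤ) ∣ P.ord (u i))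
    (hy₁ : ∀ i, (mgvV hπ ιC hq hqM true).valuation (u i) = 1)
    (hn₀ : ∀ i, (mgvV hπ ιC hq hqM false).valuation (u i) =
      (mgvV hπ ιC hq hqM false).valuation
        (algebraMap ↥(beta0Ring A K₀)
          ↥(modularFunctionFieldFullC ↥K₀ (M * q)) π) ^ n₀ i)
    (hdvd : ∀ i, (m : ℤ) ∣ n₀ i)
    (T Y : Set F) (hY : ∀ z ∈ Y, z ∈ T ∨ ∃ i, z = y i)
    (hF1 : Algebra.adjoin ↥(modularFunctionFieldFullC ↥K₀ (M * q)) Y = ⊤)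
    (𝔫 : AtPt (F := ↥(modularFunctionFieldFullC ↥K₀ (M * q))) π
      (bgJ ↥K₀ (M * q))) :
    ∃ S : Set F, S.Finite ∧
      (∀ t ∈ S, ∃ a b : ↥(zchClosure (A₀ := ↥(beta0Ring A K₀))
          ({bgJ ↥K₀ (M * q)} :
            Set ↥(modularFunctionFieldFullC ↥K₀ (M * q)))),
        a ∉ 𝔫.1 ∧ b ∉ 𝔫.1 ∧
        algebraMap ↥(modularFunctionFieldFullC ↥K₀ (M * q)) F
            (b : ↥(modularFunctionFieldFullC ↥K₀ (M * q))) * t ^ m =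
          algebraMap ↥(modularFunctionFieldFullC ↥K₀ (M * q)) F
            (a : ↥(modularFunctionFieldFullC ↥K₀ (M * q)))) ∧
      Algebra.adjoin ↥(modularFunctionFieldFullC ↥K₀ (M * q)) (S ∪ T) = ⊤ ∧
      (∀ σ : F ≃ₐ[↥(modularFunctionFieldFullC ↥K₀ (M * q))] F,
        (∀ i, σ (y i) = y i) → ∀ t ∈ S, σ t = t) ∧
      (∀ t ∈ S, ∃ i, ∃ c : ↥(modularFunctionFieldFullC ↥K₀ (M * q)), c ≠ 0 ∧
        t = y i / algebraMap ↥(modularFunctionFieldFullC ↥K₀ (M * q)) F c) ∧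
      (∀ i, ∃ t ∈ S, ∃ c : ↥(modularFunctionFieldFullC ↥K₀ (M * q)), c ≠ 0 ∧
        y i = algebraMap ↥(modularFunctionFieldFullC ↥K₀ (M * q)) F c * t) := by
  obtain ⟨S, hS, hSet, hSy, hyS⟩ := rtk6gik_et_family hπ ιC hq hqM
    (algebraMap ↥(modularFunctionFieldFullC ↥K₀ (M * q)) F) hA hE hφF hφ hqπ rigid m y u n₀
    hyu hu hhor hy₁ hn₀ hdvd 𝔫
  refine ⟨S, hS, hSet, ?_, ?_, hSy, hyS⟩
  · refine rtk6gi_hgen_cross_abs y S T Y (fun i => ?_) hY hF1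
    obtain ⟨t, ht, c, -, hc⟩ := hyS i
    exact ⟨t, ht, c, hc⟩
  · intro σ hσ
    exact rtk6gi_fix_set y S hSy σ hσ

include hπ ιC hq hqM in
/-- **the smooth pack**: at a closed point `𝔫` of the chart `j` which is NOT a crossing point,
the fields `hS`, `hSet` (exponent `m`), `hgen` of `Rtk6c4Sm`: `F = K[{ϖ₁} ∪ S]`, every
`t ∈ S` with `φ b · t ^ m = φ a`, `a, b ∈ R₀ ∖ 𝔫`.  The étale family has exponent `m`, the
ramified generator `y` and `ϖ₁` have exponent `m' ∣ m`. -/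
theorem rtk6gik_sm_pack (hA : A.LiesOverPrime q) (hE : beta0Field A ≤ K₀) {φ : Qb ≃ₐ[ℚ] Qb}
    (hφF : A.IsFrobeniusAt φ q) (hφ : ∀ x ∈ K₀, φ x ∈ K₀)
    (hqπ : Associated ((q : ℕ) : ↥(beta0Ring A K₀)) π)
    (rigid : (q ≠ 2 → 4 ∣ M) ∧ (q = 2 → 9 ∣ M))
    (m : ℕ) {ι : Type*} [Finite ι] (y : ι → F)
    (u : ι → ↥(modularFunctionFieldFullC ↥K₀ (M * q))) (n₀ : ι → ℤ)
    (hyu : ∀ i, y i ^ m = algebraMap ↥(modularFunctionFieldFullC ↥K₀ (M * q)) F (u i))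
    (hu : ∀ i, u i ≠ 0)
    (hhor : ∀ i, ∀ P : Place ↥K₀ ↥(modularFunctionFieldFullC ↥K₀ (M * q)),
      (m : ℤ) ∣ P.ord (u i))
    (hy₁ : ∀ i, (mgvV hπ ιC hq hqM true).valuation (u i) = 1)
    (hn₀ : ∀ i, (mgvV hπ ιC hq hqM false).valuation (u i) =
      (mgvV hπ ιC hq hqM false).valuation
        (algebraMap ↥(beta0Ring A K₀)
          ↥(modularFunctionFieldFullC ↥K₀ (M * q)) π) ^ n₀ i)
    (hdvd : ∀ i, (m : ℤ) ∣ n₀ i)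
    -- the ramified generator
    (m' : ℕ) (hm' : m' ∣ m) {yr ϖ₁ : F}
    {ur : ↥(modularFunctionFieldFullC ↥K₀ (M * q))}
    (hyur : yr ^ m' = algebraMap ↥(modularFunctionFieldFullC ↥K₀ (M * q)) F ur)
    (hur : ur ≠ 0)
    (hhorr : ∀ P : Place ↥K₀ ↥(modularFunctionFieldFullC ↥K₀ (M * q)),
      (m' : ℤ) ∣ P.ord ur)
    (hyr₁ : (mgvV hπ ιC hq hqM true).valuation ur = 1) {nr : ℤ}
    (hnr : (mgvV hπ ιC hq hqM false).valuation ur = (mgvV hπ ιC hq hqM false).valuation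
      (algebraMap ↥(beta0Ring A K₀)
        ↥(modularFunctionFieldFullC ↥K₀ (M * q)) π) ^ nr)
    {a b : ℤ} (hab : a * nr - b * m' = 1)
    (hϖ : ϖ₁ ^ m' = algebraMap ↥(modularFunctionFieldFullC ↥K₀ (M * q)) F
      (algebraMap ↥(beta0Ring A K₀)
        ↥(modularFunctionFieldFullC ↥K₀ (M * q)) π))
    -- (F1)
    (Y : Set F) (hY : ∀ z ∈ Y, z = ϖ₁ ∨ z = yr ∨ ∃ i, z = y i)
    (hF1 : Algebra.adjoin ↥(modularFunctionFieldFullC ↥K₀ (M * q)) Y = ⊤)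
    (𝔫 : AtPt (F := ↥(modularFunctionFieldFullC ↥K₀ (M * q))) π
      (bgJ ↥K₀ (M * q)))
    (hnc : ¬ (atThrough 𝔫 (mgvV hπ ιC hq hqM true) ∧ atThrough 𝔫 (mgvV hπ ιC hq hqM false))) :
    ∃ S : Set F, S.Finite ∧
      (∀ t ∈ S, ∃ a b : ↥(zchClosure (A₀ := ↥(beta0Ring A K₀))
          ({bgJ ↥K₀ (M * q)} :
            Set ↥(modularFunctionFieldFullC ↥K₀ (M * q)))),
        a ∉ 𝔫.1 ∧ b ∉ 𝔫.1 ∧
        algebraMap ↥(modularFunctionFieldFullC ↥K₀ (M * q)) F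
            (b : ↥(modularFunctionFieldFullC ↥K₀ (M * q))) * t ^ m =
          algebraMap ↥(modularFunctionFieldFullC ↥K₀ (M * q)) F
            (a : ↥(modularFunctionFieldFullC ↥K₀ (M * q)))) ∧
      Algebra.adjoin ↥(modularFunctionFieldFullC ↥K₀ (M * q)) ({ϖ₁} ∪ S) = ⊤ := by
  haveI := 𝔫.2.1.isPrime
  have hπ0 : algebraMap ↥(beta0Ring A K₀)
      ↥(modularFunctionFieldFullC ↥K₀ (M * q)) π ≠ 0 := ribmp_fc_hπ0 hπ
  have hne : ∀ e : ↥(zchClosure (A₀ := ↥(beta0Ring A K₀))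
      ({bgJ ↥K₀ (M * q)} :
        Set ↥(modularFunctionFieldFullC ↥K₀ (M * q)))), e ∉ 𝔫.1 →
      (e : ↥(modularFunctionFieldFullC ↥K₀ (M * q))) ≠ 0 := fun e he h0 =>
    he ((Subtype.ext h0 : e = 0) ▸ 𝔫.1.zero_mem)
  obtain ⟨S, hS, hSet, hSy, hyS⟩ := rtk6gik_et_family hπ ιC hq hqM
    (algebraMap ↥(modularFunctionFieldFullC ↥K₀ (M * q)) F) hA hE hφF hφ hqπ rigid m y u n₀
    hyu hu hhor hy₁ hn₀ hdvd 𝔫
  obtain ⟨t, a', b', c, ha', hb', ht, hc, hcase⟩ := rtk6gik_sm_JF hπ ιC hq hqM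
    (algebraMap ↥(modularFunctionFieldFullC ↥K₀ (M * q)) F) hA hE hφF hφ hqπ rigid m' hyur hur
    hhorr hyr₁ hnr hab hϖ 𝔫 hnc
  have hm'0 : 0 < m' := by
    rcases Nat.eq_zero_or_pos m' with h0 | h0
    · exfalso
      subst h0
      rw [pow_zero] at hϖ
      have h1 : algebraMap ↥(beta0Ring A K₀)
          ↥(modularFunctionFieldFullC ↥K₀ (M * q)) π = 1 :=
        (algebraMap ↥(modularFunctionFieldFullC ↥K₀ (M * q)) F).injective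
          (by rw [← hϖ, map_one])
      have h3 := mgv_hπV hπ ιC hq hqM false
      rw [h1, ValuationSubring.mem_nonunits_iff, map_one] at h3
      exact lt_irrefl _ h3
    · exact h0
  refine ⟨S ∪ {t}, hS.union (Set.finite_singleton t), ?_, ?_⟩
  · rintro s (hs | hs)
    · exact hSet s hs
    · rw [Set.mem_singleton_iff.1 hs]
      exact rtk6gi_pow_unify
        ((algebraMap ↥(modularFunctionFieldFullC ↥K₀ (M * q)) F).comp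
          (zchClosure (A₀ := ↥(beta0Ring A K₀))
            ({bgJ ↥K₀ (M * q)} :
              Set ↥(modularFunctionFieldFullC ↥K₀ (M * q)))).subtype)
        𝔫.1 hm' ha' hb' ht
  · refine rtk6gi_hgen_sm_abs y S Y (fun i => ?_) hY hF1 ?_
    · obtain ⟨s, hs, c', -, hc'⟩ := hyS i
      exact ⟨s, hs, c', hc'⟩
    · rcases hcase with ⟨-, h⟩ | ⟨-, h⟩
      · exact Or.inl ⟨c, h⟩
      · refine Or.inr ⟨c, (a' : ↥(modularFunctionFieldFullC ↥K₀ (M * q))) /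
          (b' : ↥(modularFunctionFieldFullC ↥K₀ (M * q))) *
          algebraMap ↥(beta0Ring A K₀)
            ↥(modularFunctionFieldFullC ↥K₀ (M * q)) π, nr, m', hm'0,
          mul_ne_zero (div_ne_zero (hne a' ha') (hne b' hb')) hπ0, ?_, h⟩
        have hb'F : algebraMap ↥(modularFunctionFieldFullC ↥K₀ (M * q)) F
            (b' : ↥(modularFunctionFieldFullC ↥K₀ (M * q))) ≠ 0 :=
          (_root_.map_ne_zero _).2 (hne b' hb')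
        rw [mul_pow, hϖ, map_mul, map_div₀, ← ht, mul_comm
          (algebraMap ↥(modularFunctionFieldFullC ↥K₀ (M * q)) F
            (b' : ↥(modularFunctionFieldFullC ↥K₀ (M * q)))) (t ^ m'),
          mul_div_assoc, div_self hb'F, mul_one]


end RegKPack

end Fermat.Agent.RT.K6

end


end ZBRT_080_1
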