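/- GENERATED FILE (helper35, build-time optimisation, NOTES/ZB.md): verbatim concatenation of the modules
   Fermat.Agent.RT.K6.DEt
   Fermat.Agent.RT.K6.DEtMulti
   Fermat.Agent.RT.K6.C4Et
   Do not edit; do not import together with these modules. -/
import Mathlib
import Fermat.Agent.ZB.RT_001
import Fermat.Agent.ZB.RT_031
import Fermat.Agent.ZB.UNIP_010
import Fermat.Agent.ZB.UNIP_019
import Fermat.Agent.ZB.UNIP_012

/-! ### bundled: `Fermat.Agent.RT.K6.DEt` -/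
section ZBRT_075_0
/-
K-machine, piece K6, piece **D-ET** (helper60): étale Kummer covers of a normal chart.

Pure algebra (Mathlib only).  `R` an integrally closed domain, `K = Frac R`, `L = K(t)` with
`t ^ d = ε ∈ R`, `𝔫` a maximal ideal of `R` with `d, ε ∉ 𝔫` (a closed point at which the Kummer
generator is a `d`-th root of a unit, `d` prime to the residue characteristic), `B` the integral
closure of `R` in `L`.  Then `B` is étale over `R` at `𝔫`, in element form: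

* `rtk6et_poly_sep`  : (polynomials) a prime `P ⊇ 𝔫[X]` of `R[X]` containing `F = X ^ d - ε`:
  every `q ∈ P` has `h q ∈ 𝔫[X] + (F)` for some `h ∉ P`   (`F mod 𝔫` is separable).
* `rtk6et_discr`     : there is `D ∈ R`, `D ∉ 𝔫`, with `D • z ∈ R[t]` for all `z ∈ L` integral over
  `R` (the discriminant of `1, t, …`: its `d`-th power divides a power of `d ε`).
* `rtk6et_locGen`    : for a prime `𝔫'` of `B` above `𝔫`: `∀ b ∈ 𝔫', ∃ u ∉ 𝔫', u * b ∈ 𝔫 B`
  (`𝔫'` is generated by `𝔫` locally at `𝔫'`).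
* `rtk6et_locGen_of_span` : hence local generators `T` of `𝔫` are local generators of `𝔫'`.
* `rtk6et_integral_mem_adjoin` : the local case (`d`, `ε` units): the integral closure is `R[t]`.
-/

set_option autoImplicit false
set_option linter.style.haveILetI false

namespace Fermat.Agent.RT.K6

open Polynomial

/-! ### Polynomials: separation modulo a maximal ideal -/

section Poly

variable {R : Type*} [CommRing R]

/-- `𝔫` maximal, `d, ε ∉ 𝔫`, `P` a prime of `R[X]` containing `𝔫[X]` and `F = X ^ d - ε`.  Then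
`P` is generated by `𝔫[X]` and `F` locally at `P`. -/
theorem rtk6et_poly_sep (𝔫 : Ideal R) [h𝔫 : 𝔫.IsMaximal] (d : ℕ) (hd : (d : R) ∉ 𝔫)
    (ε : R) (hε : ε ∉ 𝔫) (P : Ideal R[X]) [hP : P.IsPrime] (hnP : Ideal.map C 𝔫 ≤ P)
    (hF : X ^ d - C ε ∈ P) :
    ∀ q ∈ P, ∃ h : R[X], h ∉ P ∧
      h * q ∈ Ideal.map (C : R →+* R[X]) 𝔫 ⊔ Ideal.span {X ^ d - C ε} := by
  letI : Field (R ⧸ 𝔫) := Ideal.Quotient.field 𝔫
  set π : R[X] →+* (R ⧸ 𝔫)[X] := mapRingHom (Ideal.Quotient.mk 𝔫) with hπ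
  have hπs : Function.Surjective π := map_surjective _ Ideal.Quotient.mk_surjective
  have hker : RingHom.ker π = Ideal.map (C : R →+* R[X]) 𝔫 := by
    rw [hπ, ker_mapRingHom, Ideal.mk_ker]
  have hkerP : RingHom.ker π ≤ P := hker ▸ hnP
  haveI hPbar : (P.map π).IsPrime := Ideal.map_isPrime_of_surjective hπs hkerP
  have hmem : ∀ q : R[X], π q ∈ P.map π ↔ q ∈ P := by
    intro q
    constructor
    · intro hq
      have : q ∈ (P.map π).comap π := hq
      rw [Ideal.comap_map_of_surjective π hπs] at this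
      have hle : P ⊔ Ideal.comap π ⊥ ≤ P := sup_le le_rfl hkerP
      exact hle this
    · exact fun hq => Ideal.mem_map_of_mem π hq
  -- the reduction of `F`
  have hdk : ((d : ℕ) : R ⧸ 𝔫) ≠ 0 := by
    intro h
    apply hd
    rw [← Ideal.Quotient.eq_zero_iff_mem, map_natCast]
    exact h
  have hεk : Ideal.Quotient.mk 𝔫 ε ≠ 0 := by
    intro h
    exact hε (Ideal.Quotient.eq_zero_iff_mem.1 h)
  have hFbar : π (X ^ d - C ε) = X ^ d - C (Ideal.Quotient.mk 𝔫 ε) := by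
    simp [hπ]
  have hsep : (X ^ d - C (Ideal.Quotient.mk 𝔫 ε) : (R ⧸ 𝔫)[X]).Separable :=
    separable_X_pow_sub_C _ hdk hεk
  have hFne : (X ^ d - C (Ideal.Quotient.mk 𝔫 ε) : (R ⧸ 𝔫)[X]) ≠ 0 := hsep.ne_zero
  have hFmem : (X ^ d - C (Ideal.Quotient.mk 𝔫 ε) : (R ⧸ 𝔫)[X]) ∈ P.map π := by
    rw [← hFbar]
    exact Ideal.mem_map_of_mem π hF
  -- the generator of the reduction of `P`
  obtain ⟨g, hg⟩ := (IsPrincipalIdealRing.principal (P.map π)).principal
  have hg' : P.map π = Ideal.span {g} := by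
    rw [hg]
  have hgne : g ≠ 0 := by
    rintro rfl
    rw [hg', Ideal.mem_span_singleton, zero_dvd_iff] at hFmem
    exact hFne hFmem
  have hgprime : Prime g := by
    rw [← Ideal.span_singleton_prime hgne, ← hg']
    exact hPbar
  obtain ⟨hbar, hgh⟩ : g ∣ X ^ d - C (Ideal.Quotient.mk 𝔫 ε) := by
    rw [← Ideal.mem_span_singleton, ← hg']
    exact hFmem
  have hndvd : ¬ g ∣ hbar := by
    rintro ⟨c, rfl⟩
    have h1 : g * g ∣ X ^ d - C (Ideal.Quotient.mk 𝔫 ε) := ⟨c, by rw [hgh]; ring⟩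
    exact hgprime.not_isUnit (hsep.squarefree g h1)
  obtain ⟨h, hh⟩ := hπs hbar
  have hhP : h ∉ P := by
    intro hh'
    have := (hmem h).2 hh'
    rw [hh, hg', Ideal.mem_span_singleton] at this
    exact hndvd this
  intro q hq
  have hq' := (hmem q).2 hq
  rw [hg', Ideal.mem_span_singleton] at hq'
  obtain ⟨abar, ha⟩ := hq'
  obtain ⟨a, rfl⟩ := hπs abar
  refine ⟨h, hhP, ?_⟩
  have h0 : h * q - (X ^ d - C ε) * a ∈ RingHom.ker π := by
    rw [RingHom.mem_ker, map_sub, map_mul, map_mul, hFbar, hh, ha, hgh]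
    ring
  rw [hker] at h0
  have h1 : h * q = (h * q - (X ^ d - C ε) * a) + (X ^ d - C ε) * a := by ring
  rw [h1]
  exact Ideal.add_mem _ (Ideal.mem_sup_left h0)
    (Ideal.mem_sup_right (Ideal.mul_mem_right _ _ (Ideal.mem_span_singleton_self _)))

end Poly

/-! ### The discriminant -/

section Discr

variable {R K L : Type*} [CommRing R] [IsDomain R] [IsIntegrallyClosed R]
  [Field K] [Algebra R K] [IsFractionRing R K] [Field L] [Algebra K L] [Algebra R L]
  [IsScalarTower R K L]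

omit [IsDomain R] [IsIntegrallyClosed R] [Field L] in
lemma rtk6et_isIntegral_aeval {L' : Type*} [CommRing L'] [Algebra R L'] {t : L'}
    (ht : IsIntegral R t) (q : R[X]) : IsIntegral R (aeval t q) := by
  have h1 : aeval t q ∈ Algebra.adjoin R ({t} : Set L') := aeval_mem_adjoin_singleton R t
  have h2 : Algebra.adjoin R ({t} : Set L') ≤ integralClosure R L' :=
    Algebra.adjoin_le (by
      rintro x hx
      rw [Set.mem_singleton_iff.1 hx]
      exact ht)
  exact h2 h1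

/-- **The discriminant relation.**  `L = K(t)`, `t ^ d = ε`, `d ε ≠ 0`: there are `D, c, τ ∈ R`
with `D c = d ^ n τ ^ (d - 1)`, `τ ^ d = ε ^ n` and `D z ∈ R[t]` for every `z ∈ L` integral over
`R`.  (`D` is the discriminant of `1, t, …, t ^ (n - 1)`, `τ` the norm of `t`.) -/
theorem rtk6et_discr_rel (d : ℕ) (hdR : (d : R) ≠ 0) (ε : R) (hεR : ε ≠ 0) (t : L)
    (ht : t ^ d = algebraMap R L ε) (hgen : Algebra.adjoin K ({t} : Set L) = ⊤) :
    ∃ (D c τ : R) (n : ℕ), D * c = (d : R) ^ n * τ ^ (d - 1) ∧ τ ^ d = ε ^ n ∧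
      ∀ z : L, IsIntegral R z → algebraMap R L D * z ∈ Algebra.adjoin R ({t} : Set L) := by
  have hd0 : d ≠ 0 := by
    rintro rfl
    exact hdR (by simp)
  have hinj : Function.Injective (algebraMap R K) := IsFractionRing.injective R K
  have hdK : ((d : ℕ) : K) ≠ 0 := by
    rw [← map_natCast (algebraMap R K)]
    exact fun h => hdR (hinj (by rw [h, map_zero]))
  have hεK : algebraMap R K ε ≠ 0 := fun h => hεR (hinj (by rw [h, map_zero]))
  -- `t` is integral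
  have htR : IsIntegral R t := ⟨X ^ d - C ε, monic_X_pow_sub_C _ hd0, by simp [ht]⟩
  have htK : IsIntegral K t := htR.tower_top
  -- separability
  have hsepF : (X ^ d - C (algebraMap R K ε) : K[X]).Separable :=
    separable_X_pow_sub_C _ hdK hεK
  have haev : aeval t (X ^ d - C (algebraMap R K ε) : K[X]) = 0 := by
    simp [ht, ← IsScalarTower.algebraMap_apply]
  have hsept : IsSeparable K t := hsepF.of_dvd (minpoly.dvd K t haev)
  let pb : PowerBasis K L := PowerBasis.ofAdjoinEqTop htK hgen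
  have hpbgen : pb.gen = t := rfl
  haveI : FiniteDimensional K L := pb.finite
  haveI : Algebra.IsSeparable K L := by
    refine ⟨fun x => ?_⟩
    have hle : IntermediateField.adjoin K ({t} : Set L) ≤ separableClosure K L := by
      rw [IntermediateField.adjoin_simple_le_iff]
      exact mem_separableClosure_iff.2 hsept
    have htop : IntermediateField.adjoin K ({t} : Set L) = ⊤ :=
      IntermediateField.adjoin_eq_top_of_algebra K _ hgen
    rw [htop] at hle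
    exact mem_separableClosure_iff.1 (hle IntermediateField.mem_top)
  -- the factorisation of `F` over `R`
  have hinjL : Function.Injective (algebraMap R L) := by
    rw [IsScalarTower.algebraMap_eq R K L]
    exact (algebraMap K L).injective.comp hinj
  haveI : Module.IsTorsionFree R L := (Module.isTorsionFree_iff_algebraMap_injective).2 hinjL
  obtain ⟨h, hFh⟩ : minpoly R t ∣ X ^ d - C ε :=
    minpoly.isIntegrallyClosed_dvd htR (by simp [ht])
  -- derivative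
  have hder : aeval t (derivative (minpoly R t)) * aeval t h = (d : L) * t ^ (d - 1) := by
    have h1 := congrArg (fun p => aeval t (derivative p)) hFh
    simp only [derivative_mul, derivative_sub, derivative_X_pow, derivative_C, sub_zero,
      map_add, map_mul, minpoly.aeval, zero_mul, add_zero] at h1
    rw [← h1]
    simp
  set δ := aeval t (derivative (minpoly R t)) with hδ
  have hδK : aeval t (derivative (minpoly K t)) = δ := by
    rw [minpoly.isIntegrallyClosed_eq_field_fractions' K htR, derivative_map,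
      aeval_map_algebraMap]
  -- norms
  obtain ⟨a, ha⟩ := IsIntegrallyClosed.isIntegral_iff.1
    (Algebra.isIntegral_norm K (rtk6et_isIntegral_aeval htR (derivative (minpoly R t))))
  obtain ⟨c, hc⟩ := IsIntegrallyClosed.isIntegral_iff.1
    (Algebra.isIntegral_norm K (rtk6et_isIntegral_aeval htR h))
  obtain ⟨τ, hτ⟩ := IsIntegrallyClosed.isIntegral_iff.1 (Algebra.isIntegral_norm K htR)
  set n := Module.finrank K L with hn
  have hNd : Algebra.norm K ((d : ℕ) : L) = ((d : ℕ) : K) ^ n := by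
    rw [← map_natCast (algebraMap K L) d, Algebra.norm_algebraMap]
  have hNder : Algebra.norm K δ * Algebra.norm K (aeval t h) =
      ((d : ℕ) : K) ^ n * (Algebra.norm K t) ^ (d - 1) := by
    rw [← map_mul, hder, map_mul, map_pow, hNd]
  have hac : a * c = (d : R) ^ n * τ ^ (d - 1) := by
    apply hinj
    rw [map_mul, ha, hc, hNder, map_mul, map_pow, map_pow, map_natCast, hτ]
  have hτd : τ ^ d = ε ^ n := by
    apply hinj
    rw [map_pow, hτ, ← map_pow, ht, IsScalarTower.algebraMap_apply R K L,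
      Algebra.norm_algebraMap, map_pow]
  -- the discriminant
  have hdisc := Algebra.discr_powerBasis_eq_norm K pb
  rw [hpbgen, hδK, ← ha] at hdisc
  set m := Module.finrank K L * (Module.finrank K L - 1) / 2 with hm
  refine ⟨(-1) ^ m * a, (-1) ^ m * c, τ, n, ?_, hτd, fun z hz => ?_⟩
  · have h1 : (-1) ^ m * a * ((-1) ^ m * c) = ((-1) ^ m * (-1) ^ m) * (a * c) := by ring
    rw [h1, hac, ← mul_pow]
    simp
  · have h1 := Algebra.discr_mul_isIntegral_mem_adjoin (R := R) (K := K) (B := pb)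
      (hpbgen ▸ htR) hz
    rw [hpbgen, hdisc] at h1
    have h2 : ((-1) ^ m * (algebraMap R K) a) • z = algebraMap R L ((-1) ^ m * a) * z := by
      rw [Algebra.smul_def, IsScalarTower.algebraMap_apply R K L]
      simp
    rw [h2] at h1
    exact h1

/-- **The discriminant is a unit at `𝔫`.**  `L = K(t)`, `t ^ d = ε`, `d, ε ∉ 𝔫`: there is
`D ∉ 𝔫` with `D z ∈ R[t]` for every `z ∈ L` integral over `R`. -/
theorem rtk6et_discr (𝔫 : Ideal R) [h𝔫 : 𝔫.IsPrime] (d : ℕ) (hd : (d : R) ∉ 𝔫) (ε : R)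
    (hε : ε ∉ 𝔫) (t : L) (ht : t ^ d = algebraMap R L ε)
    (hgen : Algebra.adjoin K ({t} : Set L) = ⊤) :
    ∃ D : R, D ∉ 𝔫 ∧ ∀ z : L, IsIntegral R z →
      algebraMap R L D * z ∈ Algebra.adjoin R ({t} : Set L) := by
  have hd0 : d ≠ 0 := by
    rintro rfl
    exact hd (by simp)
  have hdR : (d : R) ≠ 0 := fun h => hd (h ▸ 𝔫.zero_mem)
  have hεR : ε ≠ 0 := fun h => hε (h ▸ 𝔫.zero_mem)
  obtain ⟨D, c, τ, n, hDc, hτd, hDz⟩ := rtk6et_discr_rel (K := K) d hdR ε hεR t ht hgen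
  refine ⟨D, fun hD => ?_, hDz⟩
  have h1 : (d : R) ^ n * τ ^ (d - 1) ∈ 𝔫 := hDc ▸ 𝔫.mul_mem_right c hD
  rcases h𝔫.mem_or_mem h1 with h2 | h2
  · exact hd (h𝔫.mem_of_pow_mem _ h2)
  · have h3 : τ ∈ 𝔫 := h𝔫.mem_of_pow_mem _ h2
    have h4 : ε ^ n ∈ 𝔫 := hτd ▸ 𝔫.pow_mem_of_mem h3 d (Nat.pos_of_ne_zero hd0)
    exact hε (h𝔫.mem_of_pow_mem _ h4)

/-- **The integral closure of an étale Kummer extension** (`d` and `ε` units of `R`): every
element of `L = K(t)`, `t ^ d = ε`, which is integral over `R` lies in `R[t]`. -/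
theorem rtk6et_integral_mem_adjoin (d : ℕ) (hd : IsUnit (d : R)) (ε : R) (hε : IsUnit ε)
    (t : L) (ht : t ^ d = algebraMap R L ε) (hgen : Algebra.adjoin K ({t} : Set L) = ⊤)
    {z : L} (hz : IsIntegral R z) : z ∈ Algebra.adjoin R ({t} : Set L) := by
  obtain ⟨D, c, τ, n, hDc, hτd, hDz⟩ :=
    rtk6et_discr_rel (K := K) d hd.ne_zero ε hε.ne_zero t ht hgen
  have hd0 : d ≠ 0 := by
    rintro rfl
    exact hd.ne_zero (by simp)
  have hτ : IsUnit τ := by
    have h1 : IsUnit (τ ^ d) := hτd ▸ hε.pow n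
    exact (isUnit_pow_iff hd0).1 h1
  have hD : IsUnit D := by
    have h1 : IsUnit (D * c) := hDc ▸ (hd.pow n).mul (hτ.pow (d - 1))
    exact isUnit_of_mul_isUnit_left h1
  obtain ⟨u, rfl⟩ := hD
  have h1 := hDz z hz
  have h2 : z = algebraMap R L (↑u⁻¹ : R) * (algebraMap R L (u : R) * z) := by
    rw [← mul_assoc, ← map_mul, Units.inv_mul, map_one, one_mul]
  rw [h2, ← Algebra.smul_def]
  exact Subalgebra.smul_mem _ h1 _

end Discr

/-! ### The main statement -/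

section Main

variable {R K L B : Type*} [CommRing R] [IsDomain R] [IsIntegrallyClosed R]
  [Field K] [Algebra R K] [IsFractionRing R K] [Field L] [Algebra K L] [Algebra R L]
  [IsScalarTower R K L] [CommRing B] [Algebra R B] [Algebra B L] [IsScalarTower R B L]
  [IsIntegralClosure B R L]

/-- **D-ET.**  `B` the integral closure of `R` in `L = K(t)`, `t ^ d = ε`, `𝔫` a maximal ideal of
`R` with `d, ε ∉ 𝔫`, `𝔫'` a prime of `B` above `𝔫`.  Then `𝔫'` is generated by `𝔫` locally at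
`𝔫'`: for every `b ∈ 𝔫'` there is `u ∉ 𝔫'` with `u b ∈ 𝔫 B`. -/
theorem rtk6et_locGen (𝔫 : Ideal R) [h𝔫 : 𝔫.IsMaximal] (d : ℕ) (hd : (d : R) ∉ 𝔫) (ε : R)
    (hε : ε ∉ 𝔫) (t : L) (ht : t ^ d = algebraMap R L ε)
    (hgen : Algebra.adjoin K ({t} : Set L) = ⊤)
    (𝔫' : Ideal B) [h𝔫' : 𝔫'.IsPrime] (hlie : 𝔫'.comap (algebraMap R B) = 𝔫) :
    ∀ b ∈ 𝔫', ∃ u : B, u ∉ 𝔫' ∧ u * b ∈ Ideal.map (algebraMap R B) 𝔫 := by
  have hd0 : d ≠ 0 := by
    rintro rfl
    exact hd (by simp)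
  have htR : IsIntegral R t := ⟨X ^ d - C ε, monic_X_pow_sub_C _ hd0, by simp [ht]⟩
  have hBinj : Function.Injective (algebraMap B L) :=
    IsIntegralClosure.algebraMap_injective B R L
  obtain ⟨tB, htB⟩ : ∃ tB : B, algebraMap B L tB = t :=
    IsIntegralClosure.isIntegral_iff.1 htR
  have htBd : tB ^ d = algebraMap R B ε :=
    hBinj (by rw [map_pow, htB, ht, ← IsScalarTower.algebraMap_apply])
  obtain ⟨D, hD, hDz⟩ := rtk6et_discr (K := K) 𝔫 d hd ε hε t ht hgen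
  set φ : R[X] →ₐ[R] B := aeval tB with hφ
  have hφL : ∀ q : R[X], algebraMap B L (φ q) = aeval t q := by
    intro q
    rw [hφ, ← htB]
    exact (aeval_algebraMap_apply L tB q).symm
  have hφF : φ (X ^ d - C ε) = 0 := by
    rw [hφ]
    simp [htBd]
  set P : Ideal R[X] := 𝔫'.comap (φ : R[X] →+* B) with hPdef
  haveI : P.IsPrime := Ideal.comap_isPrime _ _
  have hnP : Ideal.map C 𝔫 ≤ P := by
    rw [Ideal.map_le_iff_le_comap]
    intro x hx
    show φ (C x) ∈ 𝔫'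
    rw [hφ, aeval_C]
    have : x ∈ 𝔫'.comap (algebraMap R B) := hlie ▸ hx
    exact this
  have hF : X ^ d - C ε ∈ P := by
    show φ (X ^ d - C ε) ∈ 𝔫'
    rw [hφF]
    exact 𝔫'.zero_mem
  have hsep := rtk6et_poly_sep 𝔫 d hd ε hε P hnP hF
  intro b hb
  obtain ⟨q, hq⟩ : ∃ q : R[X], aeval t q = algebraMap R L D * algebraMap B L b := by
    have := hDz (algebraMap B L b)
      (IsIntegralClosure.isIntegral_iff (A := B).2 ⟨b, rfl⟩)
    rw [Algebra.adjoin_singleton_eq_range_aeval] at this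
    obtain ⟨q, hq⟩ := this
    exact ⟨q, hq⟩
  have hq' : φ q = algebraMap R B D * b :=
    hBinj (by rw [hφL, hq, map_mul, ← IsScalarTower.algebraMap_apply])
  have hqP : q ∈ P := by
    show φ q ∈ 𝔫'
    rw [hq']
    exact 𝔫'.mul_mem_left _ hb
  obtain ⟨h, hhP, hhq⟩ := hsep q hqP
  refine ⟨φ h * algebraMap R B D, ?_, ?_⟩
  · intro hmem
    rcases h𝔫'.mem_or_mem hmem with h1 | h1
    · exact hhP h1
    · have : D ∈ 𝔫'.comap (algebraMap R B) := h1
      rw [hlie] at this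
      exact hD this
  · have h1 : φ h * algebraMap R B D * b = φ (h * q) := by
      rw [map_mul, hq']
      ring
    rw [h1]
    have hle : Ideal.map (C : R →+* R[X]) 𝔫 ⊔ Ideal.span {X ^ d - C ε} ≤
        (Ideal.map (algebraMap R B) 𝔫).comap (φ : R[X] →+* B) := by
      refine sup_le ?_ ?_
      · rw [Ideal.map_le_iff_le_comap]
        intro x hx
        show φ (C x) ∈ Ideal.map (algebraMap R B) 𝔫
        rw [hφ, aeval_C]
        exact Ideal.mem_map_of_mem _ hx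
      · rw [Ideal.span_le, Set.singleton_subset_iff]
        show φ (X ^ d - C ε) ∈ Ideal.map (algebraMap R B) 𝔫
        rw [hφF]
        exact Ideal.zero_mem _
    exact hle hhq

end Main

/-! ### Transport of local generators, variants -/

section Trans

/-- Transitivity of local generation: if `𝔫'` is generated by `𝔫 B` locally at `𝔫'` and `𝔫` is
generated by `T` locally at `𝔫`, then `𝔫'` is generated by the image of `T` locally at `𝔫'`. -/
theorem rtk6et_locGen_trans {R B : Type*} [CommRing R] [CommRing B] [Algebra R B]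
    (𝔫 : Ideal R) [h𝔫 : 𝔫.IsPrime] (𝔫' : Ideal B) [h𝔫' : 𝔫'.IsPrime]
    (hlie : 𝔫'.comap (algebraMap R B) = 𝔫)
    (h1 : ∀ b ∈ 𝔫', ∃ u : B, u ∉ 𝔫' ∧ u * b ∈ Ideal.map (algebraMap R B) 𝔫)
    (T : Set R) (hT : ∀ b ∈ 𝔫, ∃ u : R, u ∉ 𝔫 ∧ u * b ∈ Ideal.span T) :
    ∀ b ∈ 𝔫', ∃ u : B, u ∉ 𝔫' ∧ u * b ∈ Ideal.span (algebraMap R B '' T) := by
  -- the ideal of the elements which land in `span T` after multiplication by some `v ∉ 𝔫`
  let J : Ideal B :=
    { carrier := {x | ∃ v : R, v ∉ 𝔫 ∧ algebraMap R B v * x ∈ Ideal.span (algebraMap R B '' T)}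
      zero_mem' := ⟨1, fun h => h𝔫.ne_top ((Ideal.eq_top_iff_one 𝔫).2 h), by simp⟩
      add_mem' := by
        rintro x y ⟨v, hv, hvx⟩ ⟨w, hw, hwy⟩
        refine ⟨v * w, fun h => (h𝔫.mem_or_mem h).elim hv hw, ?_⟩
        have : algebraMap R B (v * w) * (x + y) =
            algebraMap R B w * (algebraMap R B v * x) +
              algebraMap R B v * (algebraMap R B w * y) := by
          rw [map_mul]
          ring
        rw [this]
        exact Ideal.add_mem _ (Ideal.mul_mem_left _ _ hvx) (Ideal.mul_mem_left _ _ hwy)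
      smul_mem' := by
        rintro c x ⟨v, hv, hvx⟩
        refine ⟨v, hv, ?_⟩
        have : algebraMap R B v * (c • x) = c * (algebraMap R B v * x) := by
          rw [smul_eq_mul]
          ring
        rw [this]
        exact Ideal.mul_mem_left _ _ hvx }
  have hJ : Ideal.map (algebraMap R B) 𝔫 ≤ J := by
    rw [Ideal.map_le_iff_le_comap]
    intro n hn
    obtain ⟨u, hu, hun⟩ := hT n hn
    refine ⟨u, hu, ?_⟩
    rw [← map_mul, ← Ideal.map_span]
    exact Ideal.mem_map_of_mem _ hun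
  intro b hb
  obtain ⟨u₁, hu₁, hu₁b⟩ := h1 b hb
  obtain ⟨v, hv, hvb⟩ := hJ hu₁b
  refine ⟨algebraMap R B v * u₁, fun h => ?_, by rw [mul_assoc]; exact hvb⟩
  rcases h𝔫'.mem_or_mem h with h2 | h2
  · have : v ∈ 𝔫'.comap (algebraMap R B) := h2
    rw [hlie] at this
    exact hv this
  · exact hu₁ h2

variable {R K L B : Type*} [CommRing R] [IsDomain R] [IsIntegrallyClosed R]
  [Field K] [Algebra R K] [IsFractionRing R K] [Field L] [Algebra K L] [Algebra R L]
  [IsScalarTower R K L] [CommRing B] [Algebra R B] [Algebra B L] [IsScalarTower R B L]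
  [IsIntegralClosure B R L]

/-- **D-ET with a unit of the local ring.**  As `rtk6et_locGen`, for a Kummer generator `t` with
`t ^ d = a / b`, `a, b ∈ R`, `a, b ∉ 𝔫` (a `d`-th root of a unit of `R_𝔫`; `t` need not be
integral over `R`). -/
theorem rtk6et_locGen_frac (𝔫 : Ideal R) [h𝔫 : 𝔫.IsMaximal] (d : ℕ) (hd : (d : R) ∉ 𝔫)
    (a b : R) (ha : a ∉ 𝔫) (hb : b ∉ 𝔫) (t : L)
    (ht : algebraMap R L b * t ^ d = algebraMap R L a)
    (hgen : Algebra.adjoin K ({t} : Set L) = ⊤)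
    (𝔫' : Ideal B) [h𝔫' : 𝔫'.IsPrime] (hlie : 𝔫'.comap (algebraMap R B) = 𝔫) :
    ∀ x ∈ 𝔫', ∃ u : B, u ∉ 𝔫' ∧ u * x ∈ Ideal.map (algebraMap R B) 𝔫 := by
  have hd0 : d ≠ 0 := by
    rintro rfl
    exact hd (by simp)
  have hbR : b ≠ 0 := fun h => hb (h ▸ 𝔫.zero_mem)
  have hinj : Function.Injective (algebraMap R K) := IsFractionRing.injective R K
  have hbK : algebraMap R K b ≠ 0 := fun h => hbR (hinj (by rw [h, map_zero]))
  -- the integral generator `t₁ = b t`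
  set t₁ : L := algebraMap R L b * t with ht₁
  have ht₁d : t₁ ^ d = algebraMap R L (b ^ (d - 1) * a) := by
    obtain ⟨e, rfl⟩ : ∃ e, d = e + 1 := ⟨d - 1, by omega⟩
    rw [ht₁, mul_pow, pow_succ (algebraMap R L b), mul_assoc, ht, Nat.add_sub_cancel, map_mul,
      map_pow]
  have hε : b ^ (d - 1) * a ∉ 𝔫 := fun h =>
    (h𝔫.isPrime.mem_or_mem h).elim (fun h' => hb (h𝔫.isPrime.mem_of_pow_mem _ h')) ha
  have hgen₁ : Algebra.adjoin K ({t₁} : Set L) = ⊤ := by
    rw [eq_top_iff, ← hgen]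
    refine Algebra.adjoin_le ?_
    rintro x hx
    rw [Set.mem_singleton_iff.1 hx]
    have h1 : t = (algebraMap R K b)⁻¹ • t₁ := by
      rw [ht₁, Algebra.smul_def, IsScalarTower.algebraMap_apply R K L, ← mul_assoc, ← map_mul,
        inv_mul_cancel₀ hbK, map_one, one_mul]
    rw [h1]
    exact Subalgebra.smul_mem _ (Algebra.subset_adjoin (Set.mem_singleton _)) _
  exact rtk6et_locGen (K := K) 𝔫 d hd _ hε t₁ ht₁d hgen₁ 𝔫' hlie

/-- **D-ET, generators.**  Local generators `T` of `𝔫` are local generators of every prime `𝔫'`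
of the integral closure above `𝔫` (in the shape of `UNIP.NodesLocGen`). -/
theorem rtk6et_locGen_of_span (𝔫 : Ideal R) [h𝔫 : 𝔫.IsMaximal] (d : ℕ) (hd : (d : R) ∉ 𝔫)
    (a b : R) (ha : a ∉ 𝔫) (hb : b ∉ 𝔫) (t : L)
    (ht : algebraMap R L b * t ^ d = algebraMap R L a)
    (hgen : Algebra.adjoin K ({t} : Set L) = ⊤)
    (𝔫' : Ideal B) [h𝔫' : 𝔫'.IsPrime] (hlie : 𝔫'.comap (algebraMap R B) = 𝔫)
    (T : Set R) (hT : ∀ x ∈ 𝔫, ∃ u : R, u ∉ 𝔫 ∧ u * x ∈ Ideal.span T) :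
    ∀ x ∈ 𝔫', ∃ u : B, u ∉ 𝔫' ∧ u * x ∈ Ideal.span (algebraMap R B '' T) :=
  haveI := h𝔫.isPrime
  rtk6et_locGen_trans 𝔫 𝔫' hlie
    (rtk6et_locGen_frac (K := K) (L := L) 𝔫 d hd a b ha hb t ht hgen 𝔫' hlie) T hT

end Trans

end Fermat.Agent.RT.K6


end ZBRT_075_0

/-! ### bundled: `Fermat.Agent.RT.K6.DEtMulti` -/
section ZBRT_075_1
/-
K-machine, piece K6, piece C4-1 (helper4): **D-ET for SEVERAL Kummer generators** (Mathlib +
`DEt.lean`).

`R` an integrally closed domain, `K = Frac R`, `L = K(t₁, …, t_m)` with `b_i t_i ^ d = a_i`,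
`a_i, b_i ∈ R ∖ 𝔫`, `d ∉ 𝔫` (`𝔫` a maximal ideal of `R`), `B` the integral closure of `R` in `L`,
`𝔫'` a prime of `B` above `𝔫`.  Then `𝔫'` is generated by `𝔫` locally at `𝔫'`.

* `rtk6etm_locGen`         : `∀ x ∈ 𝔫', ∃ u ∉ 𝔫', u x ∈ 𝔫 B`;
* `rtk6etm_locGen_of_span` : local generators `T` of `𝔫` are local generators of `𝔫'`.

Proof: induction on the list of generators along the tower `K ⊆ K(t₁) ⊆ L` (`rtk6et_locGen_frac`
at each step, `rtk6et_locGen_trans`).
-/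

set_option autoImplicit false
set_option linter.style.haveILetI false
set_option linter.unusedSectionVars false
set_option linter.unusedVariables false

namespace Fermat.Agent.RT.K6

open Polynomial IntermediateField

universe u

section Multi

/-- the base of the induction: `L = K` -/
theorem rtk6etm_base {R K L B : Type*} [CommRing R] [IsDomain R] [IsIntegrallyClosed R]
    [Field K] [Algebra R K] [IsFractionRing R K] [Field L] [Algebra K L] [Algebra R L]
    [IsScalarTower R K L] [CommRing B] [Algebra R B] [Algebra B L] [IsScalarTower R B L]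
    [IsIntegralClosure B R L]
    (hsurj : Function.Surjective (algebraMap K L))
    (𝔫 : Ideal R) (𝔫' : Ideal B) [h𝔫' : 𝔫'.IsPrime] (hlie : 𝔫'.comap (algebraMap R B) = 𝔫) :
    ∀ x ∈ 𝔫', ∃ u : B, u ∉ 𝔫' ∧ u * x ∈ Ideal.map (algebraMap R B) 𝔫 := by
  intro x hx
  refine ⟨1, fun h => h𝔫'.ne_top ((Ideal.eq_top_iff_one 𝔫').2 h), ?_⟩
  rw [one_mul]
  have hint : IsIntegral R (algebraMap B L x) :=
    (IsIntegralClosure.isIntegral_iff (A := B)).2 ⟨x, rfl⟩
  obtain ⟨k, hk⟩ := hsurj (algebraMap B L x)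
  have hk' : IsIntegral R k := by
    rw [← hk] at hint
    exact (isIntegral_algebraMap_iff (algebraMap K L).injective).1 hint
  obtain ⟨r, hr⟩ := IsIntegrallyClosed.isIntegral_iff.1 hk'
  have hx' : algebraMap R B r = x := by
    apply IsIntegralClosure.algebraMap_injective B R L
    rw [← IsScalarTower.algebraMap_apply R B L, IsScalarTower.algebraMap_apply R K L, hr, hk]
  have hr𝔫 : r ∈ 𝔫 := by
    rw [← hlie, Ideal.mem_comap, hx']
    exact hx
  rw [← hx']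
  exact Ideal.mem_map_of_mem _ hr𝔫

/-- the generator of `K⟮t⟯`, inside `K⟮t⟯`, generates it as an algebra (`t` algebraic) -/
theorem rtk6etm_adjoin_gen {K L : Type*} [Field K] [Field L] [Algebra K L] (t : L)
    (ht : IsIntegral K t) :
    Algebra.adjoin K ({(⟨t, mem_adjoin_simple_self K t⟩ : ↥K⟮t⟯)} : Set ↥K⟮t⟯) = ⊤ := by
  rw [eq_top_iff]
  rintro ⟨x, hx⟩ -
  have h1 : x ∈ (K⟮t⟯).toSubalgebra := hx
  rw [IntermediateField.adjoin_simple_toSubalgebra_of_isAlgebraic ht.isAlgebraic,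
    Algebra.adjoin_singleton_eq_range_aeval] at h1
  obtain ⟨p, hp⟩ := h1
  rw [Algebra.adjoin_singleton_eq_range_aeval]
  refine ⟨p, ?_⟩
  apply Subtype.ext
  have h2 : ((aeval (⟨t, mem_adjoin_simple_self K t⟩ : ↥K⟮t⟯) p : ↥K⟮t⟯) : L)
      = aeval t p := by
    have := (Polynomial.aeval_algHom_apply (K⟮t⟯).val
      (⟨t, mem_adjoin_simple_self K t⟩ : ↥K⟮t⟯) p).symm
    simpa using this
  show ((aeval (⟨t, mem_adjoin_simple_self K t⟩ : ↥K⟮t⟯) p : ↥K⟮t⟯) : L) = x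
  rw [h2]
  exact hp

/-- generation along the tower `K ⊆ K(t₁) ⊆ L` -/
theorem rtk6etm_adjoin_tower {K L : Type*} [Field K] [Field L] [Algebra K L] (t₁ : L)
    (S : Set L) (h : Algebra.adjoin K (insert t₁ S) = ⊤) :
    Algebra.adjoin ↥K⟮t₁⟯ S = ⊤ := by
  rw [eq_top_iff]
  intro x hxtop
  clear hxtop
  have hx : x ∈ Algebra.adjoin K (insert t₁ S) := by
    rw [h]
    exact Algebra.mem_top
  induction hx using Algebra.adjoin_induction with
  | mem y hy =>
    rcases hy with rfl | hy'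
    · exact (Algebra.adjoin ↥K⟮y⟯ S).algebraMap_mem ⟨y, mem_adjoin_simple_self K y⟩
    · exact Algebra.subset_adjoin hy'
  | algebraMap k =>
    exact (Algebra.adjoin ↥K⟮t₁⟯ S).algebraMap_mem (algebraMap K ↥K⟮t₁⟯ k)
  | add y z _ _ hy hz => exact add_mem hy hz
  | mul y z _ _ hy hz => exact mul_mem hy hz

/-- **D-ET for several Kummer generators**, all types in one universe (the induction changes the
base). -/
theorem rtk6etm_locGen_aux (L : Type u) [Field L] (d : ℕ) (l : List L) :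
    ∀ (R K B : Type u) [CommRing R] [IsDomain R] [IsIntegrallyClosed R]
      [Field K] [Algebra R K] [IsFractionRing R K] [Algebra K L] [Algebra R L]
      [IsScalarTower R K L] [CommRing B] [Algebra R B] [Algebra B L] [IsScalarTower R B L]
      [IsIntegralClosure B R L]
      (𝔫 : Ideal R) [𝔫.IsMaximal] (_ : (d : R) ∉ 𝔫)
      (_ : ∀ t ∈ l, ∃ a b : R, a ∉ 𝔫 ∧ b ∉ 𝔫 ∧ algebraMap R L b * t ^ d = algebraMap R L a)
      (_ : Algebra.adjoin K {t : L | t ∈ l} = ⊤)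
      (𝔫' : Ideal B) [𝔫'.IsPrime] (_ : 𝔫'.comap (algebraMap R B) = 𝔫),
      ∀ x ∈ 𝔫', ∃ u : B, u ∉ 𝔫' ∧ u * x ∈ Ideal.map (algebraMap R B) 𝔫 := by
  induction l with
  | nil =>
    intro R K B _ _ _ _ _ _ _ _ _ _ _ _ _ _ 𝔫 h𝔫 hd hl hgen 𝔫' h𝔫' hlie
    refine rtk6etm_base (K := K) (L := L) ?_ 𝔫 𝔫' hlie
    intro x
    have hx : x ∈ Algebra.adjoin K {t : L | t ∈ ([] : List L)} := by
      rw [hgen]
      exact Algebra.mem_top
    have he : {t : L | t ∈ ([] : List L)} = (∅ : Set L) := by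
      ext t
      simp
    rw [he, Algebra.adjoin_empty] at hx
    obtain ⟨k, hk⟩ := Algebra.mem_bot.1 hx
    exact ⟨k, hk⟩
  | cons t₁ l' ih =>
    intro R K B _ _ _ _ _ _ _ _ _ _ _ _ _ _ 𝔫 h𝔫 hd hl hgen 𝔫' h𝔫' hlie
    have hd0 : d ≠ 0 := by
      rintro rfl
      exact hd (by simp)
    have hinjRK : Function.Injective (algebraMap R K) := IsFractionRing.injective R K
    have hinjRL : Function.Injective (algebraMap R L) := by
      rw [IsScalarTower.algebraMap_eq R K L]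
      exact (algebraMap K L).injective.comp hinjRK
    obtain ⟨a, b, ha, hb, hab⟩ := hl t₁ (List.mem_cons_self)
    have hb0 : b ≠ 0 := fun h => hb (h ▸ 𝔫.zero_mem)
    -- `t₁` is integral over `K`
    have ht₁ : IsIntegral K t₁ := by
      rw [← isAlgebraic_iff_isIntegral]
      refine ⟨C (algebraMap R K b) * X ^ d - C (algebraMap R K a), ?_, ?_⟩
      · intro h0
        have h1 := congrArg (fun p : K[X] => p.coeff d) h0
        simp only [coeff_sub, coeff_C_mul, coeff_X_pow, if_true, mul_one, coeff_zero,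
          coeff_C, if_neg hd0] at h1
        rw [sub_zero] at h1
        exact hb0 (hinjRK (by rw [h1, map_zero]))
      · simp only [map_sub, map_mul, aeval_C, map_pow, aeval_X]
        rw [← IsScalarTower.algebraMap_apply R K L, ← IsScalarTower.algebraMap_apply R K L, hab,
          sub_self]
    -- the intermediate field `K' = K(t₁)` and the integral closure `R'` of `R` in `K'`
    let K' : IntermediateField K L := K⟮t₁⟯
    haveI : FiniteDimensional K ↥K' := IntermediateField.adjoin.finiteDimensional ht₁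
    let R' : Subalgebra R ↥K' := integralClosure R ↥K'
    haveI : IsIntegrallyClosed ↥R' := integralClosure.isIntegrallyClosedOfFiniteExtension K
    haveI : IsFractionRing ↥R' ↥K' := integralClosure.isFractionRing_of_finite_extension K ↥K'
    -- `B` is the integral closure of `R'` in `L`
    haveI : IsScalarTower R ↥R' L := IsScalarTower.of_algebraMap_eq fun r => rfl
    let φ : ↥R' →ₐ[R] B := IsIntegralClosure.lift R B L
    letI : Algebra ↥R' B := φ.toRingHom.toAlgebra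
    have hφ : ∀ x : ↥R', algebraMap ↥R' B x = φ x := fun _ => rfl
    haveI : IsScalarTower ↥R' B L := IsScalarTower.of_algebraMap_eq fun x => by
      rw [hφ]
      exact (IsIntegralClosure.algebraMap_lift R B L x).symm
    haveI : IsIntegralClosure B ↥R' L := IsIntegralClosure.tower_top (R := R) (A := ↥R')
    have hcomp : ∀ r : R, algebraMap ↥R' B (algebraMap R ↥R' r) = algebraMap R B r := fun r => by
      rw [hφ]
      exact φ.commutes r
    -- the prime of `R'` below `𝔫'`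
    let 𝔫'' : Ideal ↥R' := 𝔫'.comap (algebraMap ↥R' B)
    haveI h𝔫''p : 𝔫''.IsPrime := Ideal.comap_isPrime _ _
    have hlie'' : 𝔫''.comap (algebraMap R ↥R') = 𝔫 := by
      ext r
      rw [Ideal.mem_comap, Ideal.mem_comap, hcomp, ← hlie, Ideal.mem_comap]
    haveI h𝔫''m : 𝔫''.IsMaximal :=
      Ideal.isMaximal_of_isIntegral_of_isMaximal_comap (R := R) 𝔫'' (by rw [hlie'']; exact h𝔫)
    -- step A: `𝔫''` is generated by `𝔫` locally
    have hA : ∀ x ∈ 𝔫'', ∃ u : ↥R', u ∉ 𝔫'' ∧ u * x ∈ Ideal.map (algebraMap R ↥R') 𝔫 := by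
      refine rtk6et_locGen_frac (K := K) (L := ↥K') (B := ↥R') 𝔫 d hd a b ha hb
        ⟨t₁, mem_adjoin_simple_self K t₁⟩ ?_ (rtk6etm_adjoin_gen t₁ ht₁) 𝔫'' hlie''
      apply Subtype.ext
      exact hab
    -- step B: the induction hypothesis over `R'`
    have hB : ∀ x ∈ 𝔫', ∃ u : B, u ∉ 𝔫' ∧ u * x ∈ Ideal.map (algebraMap ↥R' B) 𝔫'' := by
      refine ih ↥R' ↥K' B 𝔫'' ?_ ?_ ?_ 𝔫' rfl
      · intro h
        apply hd
        rw [← hlie'', Ideal.mem_comap, map_natCast]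
        exact h
      · intro t ht
        obtain ⟨a', b', ha', hb', hab'⟩ := hl t (List.mem_cons_of_mem _ ht)
        refine ⟨algebraMap R ↥R' a', algebraMap R ↥R' b', ?_, ?_, ?_⟩
        · intro h
          apply ha'
          rw [← hlie'', Ideal.mem_comap]
          exact h
        · intro h
          apply hb'
          rw [← hlie'', Ideal.mem_comap]
          exact h
        · exact hab'
      · apply rtk6etm_adjoin_tower t₁
        have he : insert t₁ {t : L | t ∈ l'} = {t : L | t ∈ t₁ :: l'} := by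
          ext y
          simp
        rw [he]
        exact hgen
    -- combine
    have hC := rtk6et_locGen_trans 𝔫'' 𝔫' rfl hB (algebraMap R ↥R' '' (𝔫 : Set R)) hA
    have himg : (algebraMap ↥R' B '' (algebraMap R ↥R' '' (𝔫 : Set R)))
        = algebraMap R B '' (𝔫 : Set R) := by
      rw [Set.image_image]
      exact Set.image_congr fun r _ => hcomp r
    rw [himg] at hC
    exact hC

/-- **D-ET for several Kummer generators.**  `B` the integral closure of `R` in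
`L = K(t₁, …, t_m)`, `b_i t_i ^ d = a_i` with `a_i, b_i ∈ R ∖ 𝔫`, `d ∉ 𝔫`: every prime `𝔫'` of
`B` above the maximal ideal `𝔫` is generated by `𝔫` locally at `𝔫'`. -/
theorem rtk6etm_locGen {R K L B : Type u} [CommRing R] [IsDomain R] [IsIntegrallyClosed R]
    [Field K] [Algebra R K] [IsFractionRing R K] [Field L] [Algebra K L] [Algebra R L]
    [IsScalarTower R K L] [CommRing B] [Algebra R B] [Algebra B L] [IsScalarTower R B L]
    [IsIntegralClosure B R L]
    (𝔫 : Ideal R) [h𝔫 : 𝔫.IsMaximal] (d : ℕ) (hd : (d : R) ∉ 𝔫) (S : Set L) (hS : S.Finite)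
    (hl : ∀ t ∈ S, ∃ a b : R, a ∉ 𝔫 ∧ b ∉ 𝔫 ∧ algebraMap R L b * t ^ d = algebraMap R L a)
    (hgen : Algebra.adjoin K S = ⊤)
    (𝔫' : Ideal B) [h𝔫' : 𝔫'.IsPrime] (hlie : 𝔫'.comap (algebraMap R B) = 𝔫) :
    ∀ x ∈ 𝔫', ∃ u : B, u ∉ 𝔫' ∧ u * x ∈ Ideal.map (algebraMap R B) 𝔫 := by
  classical
  have he : {t : L | t ∈ hS.toFinset.toList} = S := by
    ext t
    simp
  refine rtk6etm_locGen_aux L d hS.toFinset.toList R K B 𝔫 hd ?_ ?_ 𝔫' hlie
  · intro t ht
    exact hl t (by simpa using ht)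
  · rw [he]
    exact hgen

/-- **D-ET for several Kummer generators, generators.**  Local generators `T` of `𝔫` are local
generators of every prime `𝔫'` of the integral closure above `𝔫` (shape of
`UNIP.NodesLocGen`). -/
theorem rtk6etm_locGen_of_span {R K L B : Type u} [CommRing R] [IsDomain R]
    [IsIntegrallyClosed R]
    [Field K] [Algebra R K] [IsFractionRing R K] [Field L] [Algebra K L] [Algebra R L]
    [IsScalarTower R K L] [CommRing B] [Algebra R B] [Algebra B L] [IsScalarTower R B L]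
    [IsIntegralClosure B R L]
    (𝔫 : Ideal R) [h𝔫 : 𝔫.IsMaximal] (d : ℕ) (hd : (d : R) ∉ 𝔫) (S : Set L) (hS : S.Finite)
    (hl : ∀ t ∈ S, ∃ a b : R, a ∉ 𝔫 ∧ b ∉ 𝔫 ∧ algebraMap R L b * t ^ d = algebraMap R L a)
    (hgen : Algebra.adjoin K S = ⊤)
    (𝔫' : Ideal B) [h𝔫' : 𝔫'.IsPrime] (hlie : 𝔫'.comap (algebraMap R B) = 𝔫)
    (T : Set R) (hT : ∀ x ∈ 𝔫, ∃ u : R, u ∉ 𝔫 ∧ u * x ∈ Ideal.span T) :
    ∀ x ∈ 𝔫', ∃ u : B, u ∉ 𝔫' ∧ u * x ∈ Ideal.span (algebraMap R B '' T) :=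
  haveI := h𝔫.isPrime
  rtk6et_locGen_trans 𝔫 𝔫' hlie (rtk6etm_locGen (K := K) 𝔫 d hd S hS hl hgen 𝔫' hlie) T hT

end Multi

end Fermat.Agent.RT.K6


end ZBRT_075_1

/-! ### bundled: `Fermat.Agent.RT.K6.C4Et` -/
section ZBRT_075_2
/-
K-machine, piece K6, piece **C4-ET-abs** (helper97): the ÉTALE stage at the closed points of a
chart, chart level (table v7 of `NOTES/RT-K6-D.md`).

Setting: `A₀` a discrete valuation ring (`π`), `E = Frac A₀`, `F₀ ⊆ F` function fields over `E`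
(all types in one universe), `u₀ ∈ F₀`, `u = algebraMap F₀ F u₀`, the charts
`R = zchClosure {u₀} ⊆ F₀`, `B = zchClosure {u} ⊆ F`, the chart map `rtk6c4etJ u₀ : R →+* B`.
`F = F₀[S]`, `S` finite, every `t ∈ S` an étale Kummer generator at the point:
`b t ^ d = a` with `a, b ∈ R ∖ 𝔫₀`, `d ∉ 𝔫₀`.

* `rtk6c4et_mem`, `rtk6c4etJ`, `rtk6c4etJ_coe`, `rtk6c4etJ_algebraMap` : the chart map;
* `rtk6c4et_isIntegral` : `B` is integral over `R`; `rtk6c4et_closed` : `B` is the integral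
  closure of `R` in `F`;
* `rtk6c4et_comap_isMaximal`, `rtk6c4etPt` : the closed point `𝔫 ∩ R` of `R` below a closed point
  `𝔫` of `B`;
* `rtk6c4et_locGen` : **D-ET at the chart level**: local generators `T` of `𝔫 ∩ R` are local
  generators of `𝔫` (`UNIP.NodesLocGen`);
* `rtk6c4et_nodeAt` : **C4-ET-abs**: the thin dichotomy `Rtk6lfThinAt W₁ W₂ 𝔫₀` at `𝔫₀ = 𝔫 ∩ R`
  gives `Rtk6ewmNodeAt V 𝔫 (RingHom.id _) π` (the hypothesis `hnode` of `rtk6ew_main_multi` on the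
  unramified chart), given at the crossing points two components `c₁, c₂` of the family through
  `𝔫` above `W₁, W₂`.
-/

set_option autoImplicit false
set_option linter.style.haveILetI false
set_option linter.unusedSectionVars false
set_option linter.unusedVariables false

namespace Fermat.Agent.RT.K6

open Polynomial IntermediateField Fermat.Agent.INJ Fermat.Agent.UNIP Fermat.Agent.STB

section C4Et

universe u

variable {A₀ E F₀ F : Type u} [CommRing A₀] [IsDomain A₀] [IsDiscreteValuationRing A₀]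
  [Field E] [Algebra A₀ E] [IsFractionRing A₀ E] [CharZero E]
  [Field F₀] [Algebra E F₀] [Algebra A₀ F₀] [IsScalarTower A₀ E F₀]
  [Field F] [Algebra E F] [Algebra A₀ F] [IsScalarTower A₀ E F]
  [Algebra F₀ F] [IsScalarTower A₀ F₀ F]
  {π : A₀} {κ : Type*}

/-- the image of the base chart lies in the top chart -/
theorem rtk6c4et_mem (u₀ : F₀) {x : F₀} (hx : x ∈ zchClosure (A₀ := A₀) ({u₀} : Set F₀)) :
    algebraMap F₀ F x ∈ zchClosure (A₀ := A₀) ({algebraMap F₀ F u₀} : Set F) := by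
  rw [mem_zchClosure] at hx ⊢
  exact cusp_isIntegral_adjoin_map (algebraMap F₀ F)
    (fun c => (IsScalarTower.algebraMap_apply A₀ F₀ F c).symm) hx

/-- **the chart map** `R = zchClosure {u₀} →+* B = zchClosure {u}` -/
def rtk6c4etJ (u₀ : F₀) : ↥(zchClosure (A₀ := A₀) ({u₀} : Set F₀)) →+*
    ↥(zchClosure (A₀ := A₀) ({algebraMap F₀ F u₀} : Set F)) where
  toFun x := ⟨algebraMap F₀ F (x : F₀), rtk6c4et_mem u₀ x.2⟩
  map_one' := Subtype.ext (map_one _)
  map_mul' _ _ := Subtype.ext (map_mul _ _ _)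
  map_zero' := Subtype.ext (map_zero _)
  map_add' _ _ := Subtype.ext (map_add _ _ _)

theorem rtk6c4etJ_coe (u₀ : F₀) (x : ↥(zchClosure (A₀ := A₀) ({u₀} : Set F₀))) :
    ((rtk6c4etJ (F := F) u₀ x : ↥(zchClosure (A₀ := A₀) ({algebraMap F₀ F u₀} : Set F))) : F)
      = algebraMap F₀ F (x : F₀) := rfl

theorem rtk6c4etJ_injective (u₀ : F₀) :
    Function.Injective (rtk6c4etJ (A₀ := A₀) (F := F) u₀) := by
  intro x y hxy
  apply Subtype.ext
  apply (algebraMap F₀ F).injective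
  exact congrArg Subtype.val hxy

/-- the chart map is the identity on the constants -/
theorem rtk6c4etJ_algebraMap (u₀ : F₀) (a : A₀) :
    rtk6c4etJ (F := F) u₀ (algebraMap A₀ ↥(zchClosure (A₀ := A₀) ({u₀} : Set F₀)) a)
      = algebraMap A₀ ↥(zchClosure (A₀ := A₀) ({algebraMap F₀ F u₀} : Set F)) a := by
  apply Subtype.ext
  show algebraMap F₀ F (algebraMap A₀ F₀ a) = algebraMap A₀ F a
  rw [← IsScalarTower.algebraMap_apply]

theorem rtk6c4etJ_natCast (u₀ : F₀) (d : ℕ) :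
    rtk6c4etJ (A₀ := A₀) (F := F) u₀ (d : ↥(zchClosure (A₀ := A₀) ({u₀} : Set F₀)))
      = (d : ↥(zchClosure (A₀ := A₀) ({algebraMap F₀ F u₀} : Set F))) := map_natCast _ d

/-- **`B` is integral over `R`** (in the form of a ring homomorphism) -/
theorem rtk6c4et_isIntegral (u₀ : F₀) : (rtk6c4etJ (A₀ := A₀) (F := F) u₀).IsIntegral := by
  intro b
  have hb : IsIntegral (Algebra.adjoin A₀ ({algebraMap F₀ F u₀} : Set F)) (b : F) := b.2
  rw [cusp_isIntegral_adjoin_iff] at hb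
  obtain ⟨p, hp, hpb⟩ := hb
  -- the polynomial ring maps to `R`
  have hu₀ : u₀ ∈ zchClosure (A₀ := A₀) ({u₀} : Set F₀) :=
    mem_zchClosure.mpr (isIntegral_algebraMap (R := ↥(Algebra.adjoin A₀ ({u₀} : Set F₀)))
      (x := ⟨u₀, Algebra.subset_adjoin (Set.mem_singleton u₀)⟩))
  let g : A₀[X] →+* ↥(zchClosure (A₀ := A₀) ({u₀} : Set F₀)) :=
    ((aeval (⟨u₀, hu₀⟩ : ↥(zchClosure (A₀ := A₀) ({u₀} : Set F₀))) :
      A₀[X] →ₐ[A₀] ↥(zchClosure (A₀ := A₀) ({u₀} : Set F₀))) : A₀[X] →+* _)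
  refine ⟨p.map g, hp.map g, ?_⟩
  rw [Polynomial.eval₂_map]
  have hc : ((zchClosure (A₀ := A₀) ({algebraMap F₀ F u₀} : Set F)).val.toRingHom).comp
      ((rtk6c4etJ (A₀ := A₀) (F := F) u₀).comp g)
      = ((aeval (algebraMap F₀ F u₀) : A₀[X] →ₐ[A₀] F) : A₀[X] →+* F) := by
    apply Polynomial.ringHom_ext
    · intro a
      show algebraMap F₀ F ((g (C a) : ↥(zchClosure (A₀ := A₀) ({u₀} : Set F₀))) : F₀) = _
      have h1 : g (C a) = algebraMap A₀ _ a := by
        show aeval _ (C a) = _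
        rw [aeval_C]
      rw [h1]
      show algebraMap F₀ F (algebraMap A₀ F₀ a) = _
      rw [← IsScalarTower.algebraMap_apply]
      show _ = aeval _ (C a)
      rw [aeval_C]
    · show algebraMap F₀ F ((g X : ↥(zchClosure (A₀ := A₀) ({u₀} : Set F₀))) : F₀) = _
      have h1 : g X = ⟨u₀, hu₀⟩ := by
        show aeval _ X = _
        rw [aeval_X]
      rw [h1]
      show _ = aeval _ X
      rw [aeval_X]
  apply Subtype.ext
  show (zchClosure (A₀ := A₀) ({algebraMap F₀ F u₀} : Set F)).val.toRingHom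
    (eval₂ ((rtk6c4etJ (A₀ := A₀) (F := F) u₀).comp g) b p) = 0
  rw [Polynomial.hom_eval₂, hc]
  exact hpb

/-- **`B` is the integral closure of `R` in `F`**: an element of `F` integral over `R` lies in
`B`. -/
theorem rtk6c4et_closed (u₀ : F₀) (x : F)
    (hx : ((algebraMap F₀ F).comp
      (zchClosure (A₀ := A₀) ({u₀} : Set F₀)).val.toRingHom).IsIntegralElem x) :
    x ∈ zchClosure (A₀ := A₀) ({algebraMap F₀ F u₀} : Set F) := by
  obtain ⟨p, hp, hpx⟩ := hx
  have h1 : IsIntegral ↥(zchClosure (A₀ := A₀) ({algebraMap F₀ F u₀} : Set F)) x := by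
    refine ⟨p.map (rtk6c4etJ (A₀ := A₀) (F := F) u₀), hp.map _, ?_⟩
    rw [Polynomial.eval₂_map]
    exact hpx
  obtain ⟨r, hr⟩ := at_chart_integrallyClosed (A₀ := A₀) (algebraMap F₀ F u₀) x h1
  have h2 : x = (r : F) := hr.symm
  rw [h2]
  exact r.2

/-- the contraction of a maximal ideal of `B` to `R` is maximal -/
theorem rtk6c4et_comap_isMaximal (u₀ : F₀)
    (𝔫 : Ideal ↥(zchClosure (A₀ := A₀) ({algebraMap F₀ F u₀} : Set F))) [h𝔫 : 𝔫.IsMaximal] :
    (𝔫.comap (rtk6c4etJ (A₀ := A₀) (F := F) u₀)).IsMaximal :=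
  Ideal.isMaximal_comap_of_isIntegral_of_isMaximal' (rtk6c4etJ (A₀ := A₀) (F := F) u₀)
    (rtk6c4et_isIntegral u₀) 𝔫

/-- **the closed point `𝔫 ∩ R` of the base chart** below a closed point `𝔫` of the top chart -/
def rtk6c4etPt (u₀ : F₀) (𝔫 : AtPt (F := F) π (algebraMap F₀ F u₀)) : AtPt (F := F₀) π u₀ :=
  ⟨𝔫.1.comap (rtk6c4etJ (A₀ := A₀) (F := F) u₀),
    haveI := 𝔫.2.1
    rtk6c4et_comap_isMaximal u₀ 𝔫.1, by
    rw [Ideal.mem_comap, rtk6c4etJ_algebraMap]
    exact 𝔫.2.2⟩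

theorem rtk6c4etPt_val (u₀ : F₀) (𝔫 : AtPt (F := F) π (algebraMap F₀ F u₀)) :
    (rtk6c4etPt u₀ 𝔫).1 = 𝔫.1.comap (rtk6c4etJ (A₀ := A₀) (F := F) u₀) := rfl

/-- **D-ET at the chart level.**  `F = F₀[S]`, `S` finite, `b t ^ d = a` with
`a, b ∈ R ∖ 𝔫₀` for `t ∈ S`, `d ∉ 𝔫₀`, `𝔫₀ = 𝔫 ∩ R` maximal: local generators `T` of `𝔫₀` are local
generators of `𝔫`. -/
theorem rtk6c4et_locGen (u₀ : F₀) [FiniteDimensional E⟮u₀⟯ F₀]
    (𝔫 : Ideal ↥(zchClosure (A₀ := A₀) ({algebraMap F₀ F u₀} : Set F))) [h𝔫 : 𝔫.IsPrime]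
    (𝔫₀ : Ideal ↥(zchClosure (A₀ := A₀) ({u₀} : Set F₀))) [h𝔫₀ : 𝔫₀.IsMaximal]
    (hlie : 𝔫.comap (rtk6c4etJ (A₀ := A₀) (F := F) u₀) = 𝔫₀)
    (d : ℕ) (hd : (d : ↥(zchClosure (A₀ := A₀) ({u₀} : Set F₀))) ∉ 𝔫₀)
    (S : Set F) (hS : S.Finite)
    (hl : ∀ t ∈ S, ∃ a b : ↥(zchClosure (A₀ := A₀) ({u₀} : Set F₀)), a ∉ 𝔫₀ ∧ b ∉ 𝔫₀ ∧
      algebraMap F₀ F (b : F₀) * t ^ d = algebraMap F₀ F (a : F₀))
    (hgen : Algebra.adjoin F₀ S = ⊤)
    (T : Set ↥(zchClosure (A₀ := A₀) ({u₀} : Set F₀))) (hT : NodesLocGen 𝔫₀ T) :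
    NodesLocGen 𝔫 (rtk6c4etJ (A₀ := A₀) (F := F) u₀ '' T) := by
  letI : Algebra ↥(zchClosure (A₀ := A₀) ({u₀} : Set F₀))
      ↥(zchClosure (A₀ := A₀) ({algebraMap F₀ F u₀} : Set F)) :=
    (rtk6c4etJ (A₀ := A₀) (F := F) u₀).toAlgebra
  haveI : IsScalarTower ↥(zchClosure (A₀ := A₀) ({u₀} : Set F₀))
      ↥(zchClosure (A₀ := A₀) ({algebraMap F₀ F u₀} : Set F)) F :=
    IsScalarTower.of_algebraMap_eq fun _ => rfl
  haveI : IsIntegrallyClosed ↥(zchClosure (A₀ := A₀) ({u₀} : Set F₀)) :=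
    nodesInst_isIntegrallyClosed ↥(Algebra.adjoin A₀ ({u₀} : Set F₀)) F₀
  haveI : IsFractionRing ↥(zchClosure (A₀ := A₀) ({u₀} : Set F₀)) F₀ :=
    mgc_chart_isFractionRing (A₀ := A₀) (E₀ := E) u₀
  haveI : IsIntegralClosure ↥(zchClosure (A₀ := A₀) ({algebraMap F₀ F u₀} : Set F))
      ↥(zchClosure (A₀ := A₀) ({u₀} : Set F₀)) F :=
    { algebraMap_injective := Subtype.val_injective
      isIntegral_iff := fun {x} => by
        constructor
        · intro hx
          exact ⟨⟨x, rtk6c4et_closed u₀ x hx⟩, rfl⟩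
        · rintro ⟨b, rfl⟩
          obtain ⟨p, hp, hpb⟩ := rtk6c4et_isIntegral (A₀ := A₀) (F := F) u₀ b
          refine ⟨p, hp, ?_⟩
          have h1 := congrArg (fun z : ↥(zchClosure (A₀ := A₀)
            ({algebraMap F₀ F u₀} : Set F)) => (z : F)) hpb
          simp only [ZeroMemClass.coe_zero] at h1
          rw [← h1]
          exact (Polynomial.hom_eval₂ p (rtk6c4etJ (A₀ := A₀) (F := F) u₀)
            (zchClosure (A₀ := A₀) ({algebraMap F₀ F u₀} : Set F)).val.toRingHom b).symm }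
  intro x hx
  exact rtk6etm_locGen_of_span (K := F₀) (L := F) 𝔫₀ d hd S hS hl hgen 𝔫 hlie T hT x hx

/-- **C4-ET-abs, general form.**  `j : B →+* B′` any ring homomorphism from the chart `B` of `F`
(over `A₀`) to a chart `B′ = zchClosure {u′}` (over another discrete valuation ring `A′`, e.g. the
ramified base), `𝔫′` a closed point of `B′`, `𝔫₀ = 𝔫′ ∩ R` a closed point of the base chart `R`.
The thin dichotomy at `𝔫₀` gives `Rtk6ewmNodeAt V 𝔫′ j π` for the family `V` of `F′`, when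
`F = F₀[S]` is generated by étale Kummer generators at `𝔫₀`.  At a crossing point the two
components `c₁, c₂` of the family through `𝔫′` containing `X`, `Y` are an input (`hcross`). -/
theorem rtk6c4et_nodeAt_gen {A' F' : Type*} [CommRing A'] [IsDomain A']
    [IsDiscreteValuationRing A'] [Field F'] [Algebra A' F'] {π' : A'} {u' : F'}
    (u₀ : F₀) [FiniteDimensional E⟮u₀⟯ F₀]
    (W₁ W₂ : ValuationSubring F₀) (V : κ → ValuationSubring F')
    (𝔫' : AtPt (F := F') π' u')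
    (j : ↥(zchClosure (A₀ := A₀) ({algebraMap F₀ F u₀} : Set F)) →+*
      ↥(zchClosure (A₀ := A') ({u'} : Set F')))
    (𝔫₀ : AtPt (F := F₀) π u₀)
    (hlie : (𝔫'.1.comap j).comap (rtk6c4etJ (A₀ := A₀) (F := F) u₀) = 𝔫₀.1)
    (h0 : Rtk6lfThinAt W₁ W₂ 𝔫₀)
    (d : ℕ) (hd : (d : ↥(zchClosure (A₀ := A₀) ({u₀} : Set F₀))) ∉ 𝔫₀.1)
    (S : Set F) (hS : S.Finite)
    (hl : ∀ t ∈ S, ∃ a b : ↥(zchClosure (A₀ := A₀) ({u₀} : Set F₀)), a ∉ 𝔫₀.1 ∧ b ∉ 𝔫₀.1 ∧
      algebraMap F₀ F (b : F₀) * t ^ d = algebraMap F₀ F (a : F₀))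
    (hgen : Algebra.adjoin F₀ S = ⊤)
    (hcross : ∀ X Y : ↥(zchClosure (A₀ := A₀) ({u₀} : Set F₀)),
      Rtk6lfCrossAt W₁ W₂ 𝔫₀ X Y →
      ∃ c₁ c₂ : κ,
        (∀ x : ↥(zchClosure (A₀ := A₀) ({algebraMap F₀ F u₀} : Set F)),
          ((j x : ↥(zchClosure (A₀ := A') ({u'} : Set F'))) : F') ∈ (V c₁).nonunits →
            j x ∈ 𝔫'.1) ∧
        (∀ x : ↥(zchClosure (A₀ := A₀) ({algebraMap F₀ F u₀} : Set F)),
          ((j x : ↥(zchClosure (A₀ := A') ({u'} : Set F'))) : F') ∈ (V c₂).nonunits →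
            j x ∈ 𝔫'.1) ∧
        ((j (rtk6c4etJ u₀ X) : ↥(zchClosure (A₀ := A') ({u'} : Set F'))) : F')
          ∈ (V c₁).nonunits ∧
        ((j (rtk6c4etJ u₀ Y) : ↥(zchClosure (A₀ := A') ({u'} : Set F'))) : F')
          ∈ (V c₂).nonunits) :
    Rtk6ewmNodeAt V 𝔫' j
      (algebraMap A₀ ↥(zchClosure (A₀ := A₀) ({algebraMap F₀ F u₀} : Set F)) π) := by
  haveI := 𝔫'.2.1.isPrime
  haveI : (𝔫'.1.comap j).IsPrime := Ideal.comap_isPrime j 𝔫'.1
  haveI := 𝔫₀.2.1
  rcases h0 with ⟨s, hs, hgen₀⟩ | ⟨X, Y, hXY⟩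
  · left
    refine ⟨rtk6c4etJ u₀ s, ?_, ?_⟩
    · rw [← Ideal.mem_comap, ← Ideal.mem_comap, hlie]
      exact hs
    · have h := rtk6c4et_locGen (E := E) u₀ (𝔫'.1.comap j) 𝔫₀.1 hlie d hd S hS hl hgen _ hgen₀
      rw [Set.image_pair, rtk6c4etJ_algebraMap] at h
      exact h
  · right
    obtain ⟨c₁, c₂, ht₁, ht₂, hV₁, hV₂⟩ := hcross X Y hXY
    obtain ⟨h₁, h₂, hX, hY, ⟨w, hw, hwXY⟩, hgen₀⟩ := hXY
    refine ⟨c₁, c₂, rtk6c4etJ u₀ X, rtk6c4etJ u₀ Y, rtk6c4etJ u₀ w, ht₁, ht₂, hV₁, hV₂,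
      ?_, ?_, ?_⟩
    · rw [← Ideal.mem_comap, ← Ideal.mem_comap, hlie]
      exact hw
    · rw [← rtk6c4etJ_algebraMap, ← map_mul, hwXY, map_mul]
    · have h := rtk6c4et_locGen (E := E) u₀ (𝔫'.1.comap j) 𝔫₀.1 hlie d hd S hS hl hgen _ hgen₀
      rw [Set.image_insert_eq, Set.image_pair, rtk6c4etJ_algebraMap] at h
      exact h

/-- **C4-ET-abs.**  The thin dichotomy at the closed point `𝔫₀ = 𝔫 ∩ R` of the base chart gives
the dichotomy `Rtk6ewmNodeAt` at the closed point `𝔫` of the top chart `B` (on `B` itself), when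
`F = F₀[S]` is generated by étale Kummer generators at `𝔫₀`.  At a crossing point the two
components `c₁, c₂` of the family through `𝔫` above `W₁, W₂` are an input (`hcross`). -/
theorem rtk6c4et_nodeAt (u₀ : F₀) [FiniteDimensional E⟮u₀⟯ F₀]
    (W₁ W₂ : ValuationSubring F₀) (V : κ → ValuationSubring F)
    (𝔫 : AtPt (F := F) π (algebraMap F₀ F u₀)) (𝔫₀ : AtPt (F := F₀) π u₀)
    (hlie : 𝔫.1.comap (rtk6c4etJ (A₀ := A₀) (F := F) u₀) = 𝔫₀.1)
    (h0 : Rtk6lfThinAt W₁ W₂ 𝔫₀)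
    (d : ℕ) (hd : (d : ↥(zchClosure (A₀ := A₀) ({u₀} : Set F₀))) ∉ 𝔫₀.1)
    (S : Set F) (hS : S.Finite)
    (hl : ∀ t ∈ S, ∃ a b : ↥(zchClosure (A₀ := A₀) ({u₀} : Set F₀)), a ∉ 𝔫₀.1 ∧ b ∉ 𝔫₀.1 ∧
      algebraMap F₀ F (b : F₀) * t ^ d = algebraMap F₀ F (a : F₀))
    (hgen : Algebra.adjoin F₀ S = ⊤)
    (hcross : ∀ X Y : ↥(zchClosure (A₀ := A₀) ({u₀} : Set F₀)),
      Rtk6lfCrossAt W₁ W₂ 𝔫₀ X Y →
      ∃ c₁ c₂ : κ, atThrough 𝔫 (V c₁) ∧ atThrough 𝔫 (V c₂) ∧
        (∀ x : F₀, x ∈ W₁.nonunits → algebraMap F₀ F x ∈ (V c₁).nonunits) ∧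
        (∀ x : F₀, x ∈ W₂.nonunits → algebraMap F₀ F x ∈ (V c₂).nonunits)) :
    Rtk6ewmNodeAt V 𝔫 (RingHom.id ↥(zchClosure (A₀ := A₀) ({algebraMap F₀ F u₀} : Set F)))
      (algebraMap A₀ ↥(zchClosure (A₀ := A₀) ({algebraMap F₀ F u₀} : Set F)) π) := by
  refine rtk6c4et_nodeAt_gen (E := E) u₀ W₁ W₂ V 𝔫 (RingHom.id _) 𝔫₀ ?_ h0 d hd S hS hl hgen ?_
  · rw [Ideal.comap_id]
    exact hlie
  · intro X Y hXY
    obtain ⟨c₁, c₂, ht₁, ht₂, hV₁, hV₂⟩ := hcross X Y hXY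
    exact ⟨c₁, c₂, fun x hx => ht₁ x hx, fun x hx => ht₂ x hx, hV₁ _ hXY.2.2.1,
      hV₂ _ hXY.2.2.2.1⟩

/-- **C4-ET-abs** at `𝔫₀ := rtk6c4etPt u₀ 𝔫` (the closed point `𝔫 ∩ R`). -/
theorem rtk6c4et_nodeAt_pt (u₀ : F₀) [FiniteDimensional E⟮u₀⟯ F₀]
    (W₁ W₂ : ValuationSubring F₀) (V : κ → ValuationSubring F)
    (𝔫 : AtPt (F := F) π (algebraMap F₀ F u₀))
    (h0 : Rtk6lfThinAt W₁ W₂ (rtk6c4etPt u₀ 𝔫))
    (d : ℕ) (hd : (d : ↥(zchClosure (A₀ := A₀) ({algebraMap F₀ F u₀} : Set F))) ∉ 𝔫.1)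
    (S : Set F) (hS : S.Finite)
    (hl : ∀ t ∈ S, ∃ a b : ↥(zchClosure (A₀ := A₀) ({u₀} : Set F₀)),
      rtk6c4etJ (F := F) u₀ a ∉ 𝔫.1 ∧ rtk6c4etJ (F := F) u₀ b ∉ 𝔫.1 ∧
      algebraMap F₀ F (b : F₀) * t ^ d = algebraMap F₀ F (a : F₀))
    (hgen : Algebra.adjoin F₀ S = ⊤)
    (hcross : ∀ X Y : ↥(zchClosure (A₀ := A₀) ({u₀} : Set F₀)),
      Rtk6lfCrossAt W₁ W₂ (rtk6c4etPt u₀ 𝔫) X Y →
      ∃ c₁ c₂ : κ, atThrough 𝔫 (V c₁) ∧ atThrough 𝔫 (V c₂) ∧
        (∀ x : F₀, x ∈ W₁.nonunits → algebraMap F₀ F x ∈ (V c₁).nonunits) ∧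
        (∀ x : F₀, x ∈ W₂.nonunits → algebraMap F₀ F x ∈ (V c₂).nonunits)) :
    Rtk6ewmNodeAt V 𝔫 (RingHom.id ↥(zchClosure (A₀ := A₀) ({algebraMap F₀ F u₀} : Set F)))
      (algebraMap A₀ ↥(zchClosure (A₀ := A₀) ({algebraMap F₀ F u₀} : Set F)) π) :=
  rtk6c4et_nodeAt (E := E) u₀ W₁ W₂ V 𝔫 (rtk6c4etPt u₀ 𝔫) rfl h0 d
    (fun h => hd (by rw [← rtk6c4etJ_natCast u₀ d]; exact h)) S hS
    (fun t ht => by
      obtain ⟨a, b, ha, hb, hab⟩ := hl t ht
      exact ⟨a, b, ha, hb, hab⟩) hgen hcross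

end C4Et

end Fermat.Agent.RT.K6


end ZBRT_075_2
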