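/- GENERATED FILE (helper35, build-time optimisation, NOTES/ZB.md): verbatim concatenation of the modules
   Fermat.Agent.RT.K6.DEBridge
   Fermat.Agent.RT.K6.N0Abs
   Fermat.Agent.RT.K6.N0Inf
   Do not edit; do not import together with these modules. -/
import Fermat.Agent.ZB.INJ_003
import Fermat.Agent.ZB.ES_002
import Fermat.Agent.ZB.ES1_009
import Fermat.Agent.ZB.S34_001

/-! ### bundled: `Fermat.Agent.RT.K6.DEBridge` -/
section ZBRT_082_0
/-
K-machine, piece K6 / D-E (helper74): BRIDGE from the Gauss ring over a number field (UNIP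
`VtUnit ι r`, `A₀ → E` a DVR with residue map `r`) to Kronecker contents over `ℚ̄`.

`φ : E →+* Ω` a ring homomorphism into a field `Ω` with a valuation subring `A` such that
`φ (ι a) ∈ A` for all `a : A₀` and `φ (ι a)` is a unit of `A` if `r a ≠ 0`.

* `rtk6de_kronPrim_of_red` : `T` over `A₀` with nonzero reduction ⇒ `coeffMap (φ ∘ ι) T` primitive.
* `rtk6de_content_of_vtUnit` : a unit `ε₀` of the Gauss ring has unit content after base change:
  `coeffMap φ ε₀ · e₂ = C 1 · e₁`, `e₁`, `e₂` primitive at `A`.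
* `rtk6de_content_of_pow_mul` : `x = C (ι π) ^ n · ε₀` ⇒ `coeffMap φ x · e₂ = C (φ (ι π) ^ n) · e₁`.
These are the shapes consumed by `rtk6de_main'` / `rtk6de_inst` (`RT/K6/DE.lean`).
-/

set_option autoImplicit false
set_option linter.unusedSectionVars false
set_option linter.unusedVariables false

noncomputable section

namespace Fermat.Agent.RT.K6

open ModularCurve HahnSeries Fermat.Agent.ES Fermat.Agent.UNIP

section Bridge

variable {A₀ E k Ω : Type*} [CommRing A₀] [Field E] [Field k] [Field Ω]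
  {ι : A₀ →+* E} {r : A₀ →+* k} (A : ValuationSubring Ω) (φ : E →+* Ω)

/-- a series over `A₀` with nonzero reduction is primitive at `A` after base change -/
theorem rtk6de_kronPrim_of_red (hφA : ∀ a : A₀, φ (ι a) ∈ A)
    (hφu : ∀ a : A₀, r a ≠ 0 → φ (ι a) ∉ A.nonunits) {T : LaurentSeries A₀}
    (hT : coeffMap r T ≠ 0) : KronPrim A (coeffMap (φ.comp ι) T) := by
  refine ⟨fun n => ?_, ?_⟩
  · rw [coeffMap_coeff]
    exact hφA _
  · have hex : ∃ n, (coeffMap r T).coeff n ≠ 0 := by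
      by_contra hcon
      apply hT
      ext n
      by_contra hne
      exact hcon ⟨n, hne⟩
    obtain ⟨n, hn⟩ := hex
    rw [coeffMap_coeff] at hn
    refine ⟨n, ?_⟩
    rw [coeffMap_coeff]
    exact hφu _ hn

/-- **a unit of the Gauss ring has unit content after base change** -/
theorem rtk6de_content_of_vtUnit (hφA : ∀ a : A₀, φ (ι a) ∈ A)
    (hφu : ∀ a : A₀, r a ≠ 0 → φ (ι a) ∉ A.nonunits) {ε₀ : LaurentSeries E}
    (h : VtUnit ι r ε₀) :
    ∃ e₁ e₂ : LaurentSeries Ω, KronPrim A e₁ ∧ KronPrim A e₂ ∧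
      coeffMap φ ε₀ * e₂ = HahnSeries.C (1 : Ω) * e₁ := by
  obtain ⟨T, b, hT, hb, hrel⟩ := h
  refine ⟨coeffMap (φ.comp ι) T, coeffMap (φ.comp ι) b,
    rtk6de_kronPrim_of_red A φ hφA hφu hT, rtk6de_kronPrim_of_red A φ hφA hφu hb, ?_⟩
  have h1 := congrArg (coeffMap φ) hrel
  rw [map_mul, coeffMap_coeffMap, coeffMap_coeffMap] at h1
  rw [map_one, one_mul, mul_comm]
  exact h1

/-- `x = π ^ n · (unit of the Gauss ring)` has content `φ (ι π) ^ n` after base change -/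
theorem rtk6de_content_of_pow_mul (hφA : ∀ a : A₀, φ (ι a) ∈ A)
    (hφu : ∀ a : A₀, r a ≠ 0 → φ (ι a) ∉ A.nonunits) {x ε₀ : LaurentSeries E} (t : E)
    (hε : VtUnit ι r ε₀) (hx : x = HahnSeries.C t * ε₀) :
    ∃ e₁ e₂ : LaurentSeries Ω, KronPrim A e₁ ∧ KronPrim A e₂ ∧
      coeffMap φ x * e₂ = HahnSeries.C (φ t) * e₁ := by
  obtain ⟨e₁, e₂, h1, h2, h⟩ := rtk6de_content_of_vtUnit A φ hφA hφu hε
  refine ⟨e₁, e₂, h1, h2, ?_⟩
  rw [map_one, one_mul] at h
  rw [hx, map_mul, mul_assoc, h]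
  congr 1
  show coeffMap φ (HahnSeries.single 0 t) = HahnSeries.single 0 (φ t)
  rw [coeffMap_single]

end Bridge

end Fermat.Agent.RT.K6

end


end ZBRT_082_0

/-! ### bundled: `Fermat.Agent.RT.K6.N0Abs` -/
section ZBRT_082_1
/-
K-machine, piece K6 / N0-inst (helper6), ABSTRACT part: Gauss valuations and contents.

`hB : VtBase ι r π` (a DVR `A₀` with fraction field `E`, residue map `r`), `F` a field embedded in
`E((Q))` by `e` (all values quotients of series over `A₀`), `vtSub hB e hfrac` the Gauss valuation.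

* `rtk6n0_vtUnit_of_kronPrim` : a primitive series (at a valuation subring `V` of `E`) is a unit
  of the Gauss ring of `V`;
* `rtk6n0_val_one_of_kronPrim` : hence an element of `F` with primitive expansion has Gauss
  valuation `1`;
* `rtk6n0_decomp` : `v(x) = v(π) ^ n` (`n : ℤ`) ⇒ `e x = C (ι π) ^ n * ε₀`, `ε₀` a unit of the
  Gauss ring;
* `rtk6n0_content` : base change `φ : E →+* Ω`, `A` a valuation subring of `Ω` over `A₀`,
  `ι π = t₁ * t₂` with `φ t₂` a unit of `A`: from `v(x) = v(π) ^ n` we get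
  `coeffMap φ (e x) = C (φ t₁ ^ n) * ε`, `ε * e₂ = C c' * e₁`, `e₁`, `e₂` primitive at `A`,
  `v_A(c') = 1`  — the shape consumed by `rtk6de_inst_coprime` / `rtk6de0_inst` (helper74).
-/

set_option autoImplicit false
set_option linter.unusedSectionVars false
set_option linter.unusedVariables false
set_option linter.style.haveILetI false

noncomputable section

namespace Fermat.Agent.RT.K6

open ModularCurve HahnSeries Fermat.Agent.ES Fermat.Agent.UNIP

section Prim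

variable {E : Type*} [Field E] (V : ValuationSubring E)

/-- a primitive series is a unit of the Gauss ring -/
theorem rtk6n0_vtUnit_of_kronPrim {x : LaurentSeries E} (hx : KronPrim V x) :
    VtUnit (algebraMap ↥V E) (IsLocalRing.residue ↥V) x := by
  obtain ⟨hint, n, hn⟩ := hx
  obtain ⟨T, hT⟩ := hint.exists_lift
  have hT' : coeffMap (algebraMap ↥V E) T = x := hT
  rw [← hT']
  refine vtUnit_coeffMap fun h0 => hn ?_
  have h1 := congrArg (fun z : LaurentSeries (IsLocalRing.ResidueField ↥V) => z.coeff n) h0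
  simp only [coeffMap_coeff, HahnSeries.coeff_zero] at h1
  rw [IsLocalRing.residue_eq_zero_iff] at h1
  have h2 : ((T.coeff n : ↥V) : E) ∈ V.nonunits :=
    (ValuationSubring.coe_mem_nonunits_iff (A := V)).2 h1
  have h3 : ((T.coeff n : ↥V) : E) = x.coeff n := by
    rw [← hT]
    rfl
  rwa [h3] at h2

variable {F : Type*} [Field F] {π : ↥V}
  (hB : VtBase (algebraMap ↥V E) (IsLocalRing.residue ↥V) π)
  (e : F →+* LaurentSeries E) (hfrac : ∀ x : F, VtFrac (algebraMap ↥V E) (e x))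

/-- an element with primitive expansion has Gauss valuation `1` -/
theorem rtk6n0_val_one_of_kronPrim {x : F} (hx : KronPrim V (e x)) :
    (vtSub hB e hfrac).valuation x = 1 :=
  (vtSub_valuation_eq_one_iff hB e hfrac).2 (rtk6n0_vtUnit_of_kronPrim V hx)

end Prim

section Decomp

variable {A₀ E k : Type*} [CommRing A₀] [Field E] [Field k]
  {ι : A₀ →+* E} {r : A₀ →+* k} {π : A₀} {F : Type*} [Field F]
  (hB : VtBase ι r π) (e : F →+* LaurentSeries E) (hfrac : ∀ x : F, VtFrac ι (e x))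

/-- **decomposition**: `v(x) = v(π) ^ n` ⇒ `e x = C (ι π) ^ n * (unit of the Gauss ring)` -/
theorem rtk6n0_decomp {x c : F} (hc : e c = HahnSeries.C (ι π)) {n : ℤ}
    (hx : (vtSub hB e hfrac).valuation x = (vtSub hB e hfrac).valuation c ^ n) :
    ∃ ε₀ : LaurentSeries E, VtUnit ι r ε₀ ∧
      e x = (HahnSeries.C (ι π) : LaurentSeries E) ^ n * ε₀ := by
  have hc0 : c ≠ 0 := by
    intro h0
    rw [h0, map_zero] at hc
    exact hB.Cιπ_ne hc.symm
  have hvc : (vtSub hB e hfrac).valuation c ≠ 0 := (Valuation.ne_zero_iff _).2 hc0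
  have h1 : (vtSub hB e hfrac).valuation (x / c ^ n) = 1 := by
    rw [map_div₀, map_zpow₀, hx]
    exact div_self (zpow_ne_zero n hvc)
  have h2 := (vtSub_valuation_eq_one_iff hB e hfrac).1 h1
  refine ⟨e (x / c ^ n), h2, ?_⟩
  rw [map_div₀, map_zpow₀, hc]
  have h3 : (HahnSeries.C (ι π) : LaurentSeries E) ^ n ≠ 0 := zpow_ne_zero n hB.Cιπ_ne
  field_simp

/-- **discreteness**: every nonzero element has valuation `v(π) ^ n`, `n : ℤ` -/
theorem rtk6n0_exists_zpow {x c : F} (hc : e c = HahnSeries.C (ι π)) (hx : x ≠ 0) :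
    ∃ n : ℤ, (vtSub hB e hfrac).valuation x = (vtSub hB e hfrac).valuation c ^ n := by
  have hc0 : c ≠ 0 := by
    intro h0
    rw [h0, map_zero] at hc
    exact hB.Cιπ_ne hc.symm
  have hvc : (vtSub hB e hfrac).valuation c ≠ 0 := (Valuation.ne_zero_iff _).2 hc0
  have hex0 : e x ≠ 0 := (map_ne_zero e).mpr hx
  have hCd : ∀ d : ℕ, (HahnSeries.C (ι π) : LaurentSeries E) ^ d ≠ 0 :=
    fun d => pow_ne_zero d hB.Cιπ_ne
  obtain ⟨d, u, hu, h | h⟩ := vt_exists_pow_mul hB hex0 (hfrac x)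
  · refine ⟨(d : ℤ), ?_⟩
    have h1 : e (x / c ^ d) = u := by
      rw [map_div₀, map_pow, hc, h]
      exact mul_div_cancel_left₀ u (hCd d)
    have h2 : (vtSub hB e hfrac).valuation (x / c ^ d) = 1 := by
      rw [vtSub_valuation_eq_one_iff, h1]
      exact hu
    rw [map_div₀, map_pow, div_eq_one_iff_eq (pow_ne_zero d hvc)] at h2
    rw [h2, zpow_natCast]
  · refine ⟨-(d : ℤ), ?_⟩
    have h1 : e (x⁻¹ / c ^ d) = u := by
      rw [map_div₀, map_pow, map_inv₀, hc, h]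
      exact mul_div_cancel_left₀ u (hCd d)
    have h2 : (vtSub hB e hfrac).valuation (x⁻¹ / c ^ d) = 1 := by
      rw [vtSub_valuation_eq_one_iff, h1]
      exact hu
    rw [map_div₀, map_pow, div_eq_one_iff_eq (pow_ne_zero d hvc), map_inv₀] at h2
    rw [zpow_neg, zpow_natCast, ← h2, inv_inv]

variable {Ω : Type*} [Field Ω] (A : ValuationSubring Ω) (φ : E →+* Ω)

/-- **the content after base change**: `v(x) = v(π) ^ n`, `ι π = t₁ * t₂`, `φ t₂` a unit of `A` ⇒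
`coeffMap φ (e x) = C (φ t₁ ^ n) * ε` with `ε` of unit content at `A`. -/
theorem rtk6n0_content (hφA : ∀ a : A₀, φ (ι a) ∈ A)
    (hφu : ∀ a : A₀, r a ≠ 0 → φ (ι a) ∉ A.nonunits) {x c : F}
    (hc : e c = HahnSeries.C (ι π)) {n : ℤ}
    (hx : (vtSub hB e hfrac).valuation x = (vtSub hB e hfrac).valuation c ^ n)
    {t₁ t₂ : E} (ht : ι π = t₁ * t₂) (ht₂ : A.valuation (φ t₂) = 1) :
    ∃ (ε e₁ e₂ : LaurentSeries Ω) (c' : Ω), A.valuation c' = 1 ∧ KronPrim A e₁ ∧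
      KronPrim A e₂ ∧ ε * e₂ = HahnSeries.C c' * e₁ ∧
      coeffMap φ (e x) = HahnSeries.C (φ t₁ ^ n) * ε := by
  obtain ⟨ε₀, hε₀, hxe⟩ := rtk6n0_decomp hB e hfrac hc hx
  obtain ⟨e₁, e₂, he1, he2, he⟩ := rtk6de_content_of_vtUnit A φ hφA hφu hε₀
  rw [map_one, one_mul] at he
  refine ⟨HahnSeries.C (φ t₂ ^ n) * coeffMap φ ε₀, e₁, e₂, φ t₂ ^ n, ?_, he1, he2, ?_, ?_⟩
  · rw [map_zpow₀, ht₂, one_zpow]
  · rw [mul_assoc, he]
  · have hC : coeffMap φ (HahnSeries.C (ι π) : LaurentSeries E)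
        = (HahnSeries.C (φ t₁) : LaurentSeries Ω) * HahnSeries.C (φ t₂) := by
      rw [ht, ← map_mul, ← map_mul]
      show coeffMap φ (HahnSeries.single 0 _) = HahnSeries.single 0 _
      rw [coeffMap_single]
    have h1 : (HahnSeries.C (φ t₁ ^ n) : LaurentSeries Ω) = HahnSeries.C (φ t₁) ^ n :=
      map_zpow₀ (HahnSeries.C : Ω →+* LaurentSeries Ω) (φ t₁) n
    have h2 : (HahnSeries.C (φ t₂ ^ n) : LaurentSeries Ω) = HahnSeries.C (φ t₂) ^ n :=
      map_zpow₀ (HahnSeries.C : Ω →+* LaurentSeries Ω) (φ t₂) n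
    rw [hxe, map_mul, map_zpow₀, hC, mul_zpow, h1, h2, mul_assoc]

end Decomp

end Fermat.Agent.RT.K6

end


end ZBRT_082_1

/-! ### bundled: `Fermat.Agent.RT.K6.N0Inf` -/
section ZBRT_082_2
/-
K-machine, piece K6 / N0-inst (helper6), **(N1)**: the Kummer element `u_ψ = y_ψ ^ d` is a unit
of the vertical valuation `V_∞ = mgvV hπ ιC hq hqM true` (Gauss valuation of the expansion at `∞`)
— PROVIDED `n₀ = rtk6d0N N H D = #(D ∩ ±H)` (the `q³`-coefficient of `y_ψ`) is prime to `q`.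

(For `D = ⊤` the resolvent is `#(±H)` times the reduced resolvent, so this hypothesis cannot be
dropped; the normalised statement is in `N0Norm.lean`.)

Setting: `A` a valuation subring of `ℚ̄`, `K₀ ⊆ ℚ̄` with `A ∩ K₀` a DVR with uniformizer `π`,
level `M q`, character level `N`, `ψ : (ℤ/N)ˣ →* K₀ˣ` trivial on `H` and `-1`.

* `rtk6n0_inf_of_prim` : an element of `F_{Mq}(K₀)` with primitive expansion has `v_∞ = 1`;
* `rtk6n0_kronPrim`, `rtk6n0_kronPrim_pow` : `y_ψ`, `y_ψ ^ d` are primitive at `A ∩ K₀`;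
* `rtk6n0_inf` : **(N1)** `v_∞(u_ψ) = 1`; `rtk6n0_inf'` : with `hn : ¬ q ∣ rtk6d0N N H D`.
-/

set_option autoImplicit false
set_option linter.style.haveILetI false
set_option linter.unusedSectionVars false
set_option linter.unusedVariables false
set_option synthInstance.maxHeartbeats 400000
set_option maxHeartbeats 1000000

noncomputable section

namespace Fermat.Agent.RT.K6

open ModularCurve AlgebraicCurve HahnSeries Fermat.Agent.ES Fermat.Agent.ES.G2 Fermat.Agent.INJ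
open Fermat.Agent.UNIP Fermat.Agent.ES1 Fermat.Agent.ES1.G2 IntermediateField Fermat.Agent.AL

section Nat

/-- an integer prime to `q` is a unit of `A` -/
theorem rtk6n0_nat_unit {A : ValuationSubring Qb} {q : ℕ} (hq : q.Prime)
    (hA : A.LiesOverPrime q) {n : ℕ} (hn : ¬ q ∣ n) :
    ((n : ℕ) : Qb) ∉ A.nonunits := by
  have hnd : ¬ (q : ℤ) ∣ ((n : ℕ) : ℤ) := by
    intro h
    exact hn (by exact_mod_cast h)
  have h4 := Fermat.Agent.S15.tame_val_int A hq hA _ hnd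
  rw [ValuationSubring.mem_nonunits_iff]
  have h5 : A.valuation ((n : ℕ) : Qb) = 1 := by
    simpa using h4
  rw [h5]
  exact lt_irrefl _

end Nat

section Inf

variable {A : ValuationSubring Qb} {K₀ : IntermediateField ℚ Qb}
  [IsDiscreteValuationRing ↥(beta0Ring A K₀)] {π : ↥(beta0Ring A K₀)} (hπ : Irreducible π)
  (ιC : ↥K₀ →+* ℂ) {q M : ℕ} [NeZero q] [NeZero M] [NeZero (M * q)]
  (hq : q.Prime) (hqM : ¬ q ∣ M)

/-- an element of `F_{Mq}(K₀)` whose expansion at `∞` is primitive at `A ∩ K₀` is a unit of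
`V_∞` -/
theorem rtk6n0_inf_of_prim {x : ↥(modularFunctionFieldFullC ↥K₀ (M * q))}
    (hx : KronPrim (beta0Ring A K₀) (x : LaurentSeries ↥K₀)) :
    (mgvV hπ ιC hq hqM true).valuation x = 1 :=
  (vtFam_valuation_eq_one_iff (vtBase_residue hπ) ιC hq hqM true).2
    (rtk6n0_vtUnit_of_kronPrim (beta0Ring A K₀) hx)

variable {N : ℕ} [NeZero N] (H D : Subgroup (ZMod N)ˣ) (ψ : (ZMod N)ˣ →* (↥K₀)ˣ)

/-- the resolvent is primitive at `A ∩ K₀` if `n₀ = #(D ∩ ±H)` is a unit of `A` -/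
theorem rtk6n0_kronPrim (hN3 : 3 ≤ N) (hψH : ∀ h ∈ H, ψ h = 1) (hψ1 : ψ (-1) = 1)
    (hn : ((rtk6d0N N H D : ℕ) : Qb) ∉ A.nonunits) :
    KronPrim (beta0Ring A K₀) (rtk6d0Y ↥K₀ N H D ψ) := by
  refine rtk6d0_kronPrim ↥K₀ D ψ (beta0Ring A K₀) hN3 hψH hψ1 ?_
  intro h
  apply hn
  obtain ⟨ha, hm⟩ := (ValuationSubring.mem_nonunits_iff_exists_mem_maximalIdeal).1 h
  have h1 := (beta0Ring_mem_maximalIdeal_iff _).1 hm
  have h3 : (((rtk6d0N N H D : ℕ) : ↥K₀) : Qb) = ((rtk6d0N N H D : ℕ) : Qb) := by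
    simp
  rw [← h3]
  exact h1

theorem rtk6n0_kronPrim_pow (hN3 : 3 ≤ N) (hψH : ∀ h ∈ H, ψ h = 1) (hψ1 : ψ (-1) = 1)
    (hn : ((rtk6d0N N H D : ℕ) : Qb) ∉ A.nonunits) (d : ℕ) :
    KronPrim (beta0Ring A K₀) (rtk6d0Y ↥K₀ N H D ψ ^ d) :=
  (rtk6n0_kronPrim H D ψ hN3 hψH hψ1 hn).pow d

/-- **(N1)**: `v_∞(u_ψ) = 1` for `u_ψ = y_ψ ^ d`, if `n₀ = #(D ∩ ±H)` is a unit of `A`. -/
theorem rtk6n0_inf (hN3 : 3 ≤ N) (hψH : ∀ h ∈ H, ψ h = 1) (hψ1 : ψ (-1) = 1)
    (hn : ((rtk6d0N N H D : ℕ) : Qb) ∉ A.nonunits) (d : ℕ)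
    (hmem : rtk6d0Y ↥K₀ N H D ψ ^ d ∈ modularFunctionFieldFullC ↥K₀ (M * q)) :
    (mgvV hπ ιC hq hqM true).valuation
      (⟨rtk6d0Y ↥K₀ N H D ψ ^ d, hmem⟩ : ↥(modularFunctionFieldFullC ↥K₀ (M * q))) = 1 :=
  rtk6n0_inf_of_prim hπ ιC hq hqM (rtk6n0_kronPrim_pow H D ψ hN3 hψH hψ1 hn d)

/-- **(N1)**, arithmetic form: `v_∞(u_ψ) = 1` if `q ∤ #(D ∩ ±H)`. -/
theorem rtk6n0_inf' (hA : A.LiesOverPrime q) (hN3 : 3 ≤ N) (hψH : ∀ h ∈ H, ψ h = 1)
    (hψ1 : ψ (-1) = 1) (hn : ¬ q ∣ rtk6d0N N H D) (d : ℕ)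
    (hmem : rtk6d0Y ↥K₀ N H D ψ ^ d ∈ modularFunctionFieldFullC ↥K₀ (M * q)) :
    (mgvV hπ ιC hq hqM true).valuation
      (⟨rtk6d0Y ↥K₀ N H D ψ ^ d, hmem⟩ : ↥(modularFunctionFieldFullC ↥K₀ (M * q))) = 1 :=
  rtk6n0_inf hπ ιC hq hqM H D ψ hN3 hψH hψ1 (rtk6n0_nat_unit hq hA hn) d hmem

end Inf

end Fermat.Agent.RT.K6

end


end ZBRT_082_2
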