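/- GENERATED FILE (helper35, build-time optimisation, NOTES/ZB.md): verbatim concatenation of the modules
   Fermat.Agent.RT.K6.N0AL
   Fermat.Agent.RT.K6.N0Zero
   Fermat.Agent.RT.K6.N0Norm
   Fermat.Agent.RT.K6.N0Final
   Do not edit; do not import together with these modules. -/
import Fermat.Agent.ZB.ES1_010
import Fermat.Agent.ZB.ES1_009
import Fermat.Agent.ZB.RT_082
import Fermat.Agent.ZB.S34_001
import Fermat.Agent.ZB.ES1_013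

/-! ### bundled: `Fermat.Agent.RT.K6.N0AL` -/
section ZBRT_083_0
/-
K-machine, piece K6 / N0-inst (helper6): the Atkin–Lehner involution of UNIP (on the
`Γ₀(M₁ q)`-field over ANY `K₀ ⊆ ℚ̄`) is the restriction of `w` (`IsWAt`), and the base change of
the Lagrange resolvent.

* `rtk6n0Emb` : `F_{M₁q}(K₀) →+* fieldBar (M₁ q) N H` (coefficientwise base change);
* `rtk6n0_w_emb` : `w (emb x) = emb (atkinLehner x)` — NO hypothesis `μ_q ⊆ K₀`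
  (compare `rtk6diwW_incl`, DIW.lean);
* `rtk6n0Psi f ψ` : the character `ψ` pushed along `f : K →+* K'`; `rtk6n0_coeffMap_Y`:
  `coeffMap f (rtk6d0Y K N H D ψ) = rtk6d0Y K' N H D (rtk6n0Psi f ψ)`;
* `rtk6n0_emb_pow` : `emb ⟨y_ψ ^ d, _⟩ = (rtk6deY D ψ' H hNL) ^ d`.
-/

set_option autoImplicit false
set_option linter.style.haveILetI false
set_option linter.unusedSectionVars false
set_option linter.unusedVariables false

noncomputable section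

namespace Fermat.Agent.RT.K6

open ModularCurve AlgebraicCurve HahnSeries Fermat.Agent.ES Fermat.Agent.ES.G2 Fermat.Agent.INJ
open Fermat.Agent.UNIP Fermat.Agent.ES1 Fermat.Agent.ES1.G2 IntermediateField Fermat.Agent.AL

section Emb

variable (K₀ : IntermediateField ℚ Qb) (L N : ℕ) (H : Subgroup (ZMod N)ˣ)

/-- coefficientwise base change `F_L(K₀) → fieldBar L N H` -/
def rtk6n0Emb : modularFunctionFieldFullC K₀ L →+* fieldBar L N H :=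
  (nfEmbH K₀ L N H).comp (rtk6diIncl L N H)

theorem rtk6n0Emb_coe (x : modularFunctionFieldFullC K₀ L) :
    ((rtk6n0Emb K₀ L N H x : fieldBar L N H) : LaurentSeries Qb)
      = coeffMap (algebraMap K₀ Qb) (x : LaurentSeries K₀) := by
  show ((nfEmbH K₀ L N H (rtk6diIncl L N H x) : fieldBar L N H) : LaurentSeries Qb) = _
  rw [nfEmbH_coe, rtk6diIncl_coe]

theorem rtk6n0Emb_injective : Function.Injective (rtk6n0Emb K₀ L N H) :=
  (rtk6n0Emb K₀ L N H).injective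

theorem rtk6n0Emb_algebraMap (c : K₀) :
    rtk6n0Emb K₀ L N H (algebraMap K₀ (modularFunctionFieldFullC K₀ L) c)
      = algebraMap Qb (fieldBar L N H) (algebraMap K₀ Qb c) := by
  show nfEmbH K₀ L N H (rtk6diIncl L N H (algebraMap K₀ _ c)) = _
  rw [rtk6diIncl_algebraMap, nfEmbH_algebraMap]

end Emb

section W

variable {K₀ : IntermediateField ℚ Qb} {M₁ q : ℕ} [NeZero q] [NeZero M₁] [NeZero (M₁ * q)]
  {N : ℕ} {H : Subgroup (ZMod N)ˣ}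
  (w : fieldBar (M₁ * q) N H ≃ₐ[Qb] fieldBar (M₁ * q) N H) (hw : IsWAt (M₁ * q) N H q w)
  (hq : q.Prime) (ιC : K₀ →+* ℂ) (hqM : ¬ q ∣ M₁)

include hw in
/-- **`w` restricted to the `Γ₀`-field over `K₀` is the Atkin–Lehner involution of UNIP** -/
theorem rtk6n0_w_emb (x : modularFunctionFieldFullC K₀ (M₁ * q)) :
    w (rtk6n0Emb K₀ (M₁ * q) N H x) =
      rtk6n0Emb K₀ (M₁ * q) N H (atkinLehner K₀ ιC hq hqM x) := by
  have key : ((w : fieldBar (M₁ * q) N H →+* fieldBar (M₁ * q) N H).comp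
        (rtk6n0Emb K₀ (M₁ * q) N H)) =
      (rtk6n0Emb K₀ (M₁ * q) N H).comp
        ((atkinLehner K₀ ιC hq hqM).toRingEquiv.toRingHom) := by
    apply al_ringHom_ext K₀ (M₁ * q)
    · intro c
      show w (rtk6n0Emb K₀ (M₁ * q) N H (algebraMap K₀ _ c)) =
        rtk6n0Emb K₀ (M₁ * q) N H (atkinLehner K₀ ιC hq hqM (algebraMap K₀ _ c))
      rw [AlgEquiv.commutes, rtk6n0Emb_algebraMap, AlgEquiv.commutes]
    · intro d _ hd
      show w (rtk6n0Emb K₀ (M₁ * q) N H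
          ⟨qExpand K₀ d (jqModC K₀), jqModCd_mem_full K₀ (M₁ * q) hd⟩) =
        rtk6n0Emb K₀ (M₁ * q) N H (atkinLehner K₀ ιC hq hqM
          ⟨qExpand K₀ d (jqModC K₀), jqModCd_mem_full K₀ (M₁ * q) hd⟩)
      have hsw : alSwap q (M₁ * q) d = (if q ∣ d then d / q else d * q) := by
        unfold alSwap
        rw [if_pos hd]
      have hsd : alSwap q (M₁ * q) d ∣ M₁ * q := alSwap_dvd hq hqM hd
      haveI : NeZero (alSwap q (M₁ * q) d) :=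
        ⟨fun h0 => NeZero.ne (M₁ * q) (by rw [h0] at hsd; exact Nat.eq_zero_of_zero_dvd hsd)⟩
      apply Subtype.ext
      have h3 : ((rtk6n0Emb K₀ (M₁ * q) N H
          ⟨qExpand K₀ d (jqModC K₀), jqModCd_mem_full K₀ (M₁ * q) hd⟩ :
            fieldBar (M₁ * q) N H) : LaurentSeries Qb) = qExpand Qb d (jqModC Qb) := by
        rw [rtk6n0Emb_coe]
        exact coeffMap_jqNModC (algebraMap K₀ Qb) d
      rw [hw.map_j d (alSwap q (M₁ * q) d) hd hsw _ h3, rtk6n0Emb_coe]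
      have e0 : (⟨qExpand K₀ d (jqModC K₀), jqModCd_mem_full K₀ (M₁ * q) hd⟩ :
          modularFunctionFieldFullC K₀ (M₁ * q)) = ⟨alGen K₀ (M₁ * q) d, alGen_mem K₀ d⟩ :=
        Subtype.ext (alGen_of_dvd K₀ hd).symm
      rw [e0, atkinLehner_gen, alGen_of_dvd K₀ hsd]
      exact (coeffMap_jqNModC (algebraMap K₀ Qb) (alSwap q (M₁ * q) d)).symm
  exact congrArg (fun φ : modularFunctionFieldFullC K₀ (M₁ * q) →+*
    fieldBar (M₁ * q) N H => φ x) key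

end W

section Psi

variable {K K' : Type*} [Field K] [Field K'] (f : K →+* K') {N : ℕ} [NeZero N]
  (H D : Subgroup (ZMod N)ˣ) (ψ : (ZMod N)ˣ →* Kˣ)

/-- the character `ψ` pushed along `f : K →+* K'` -/
def rtk6n0Psi : (ZMod N)ˣ →* K'ˣ := (Units.map (f : K →* K')).comp ψ

theorem rtk6n0Psi_apply (c : (ZMod N)ˣ) :
    ((rtk6n0Psi f ψ c : K'ˣ) : K') = f ((ψ c : Kˣ) : K) := rfl

theorem rtk6n0Psi_inv_apply (c : (ZMod N)ˣ) :
    (((rtk6n0Psi f ψ c)⁻¹ : K'ˣ) : K') = f (((ψ c)⁻¹ : Kˣ) : K) := by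
  have h : (rtk6n0Psi f ψ c)⁻¹ = Units.map (f : K →* K') (ψ c)⁻¹ :=
    (map_inv (Units.map (f : K →* K')) (ψ c)).symm
  rw [h]
  rfl

theorem rtk6n0Psi_eq_one {c : (ZMod N)ˣ} (h : ψ c = 1) : rtk6n0Psi f ψ c = 1 := by
  show Units.map (f : K →* K') (ψ c) = 1
  rw [h, map_one]

theorem rtk6n0Psi_pow_eq_one {c : (ZMod N)ˣ} {d : ℕ} (h : ψ c ^ d = 1) :
    rtk6n0Psi f ψ c ^ d = 1 := by
  show Units.map (f : K →* K') (ψ c) ^ d = 1
  rw [← map_pow, h, map_one]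

theorem rtk6n0Psi_injective : Function.Injective (Units.map (f : K →* K')) := by
  intro a b h
  apply Units.ext
  apply f.injective
  exact congrArg (fun u : K'ˣ => (u : K')) h

theorem rtk6n0Psi_orderOf (c : (ZMod N)ˣ) : orderOf (rtk6n0Psi f ψ c) = orderOf (ψ c) :=
  orderOf_injective (Units.map (f : K →* K')) (rtk6n0Psi_injective f) (ψ c)

/-- **base change of the resolvent** -/
theorem rtk6n0_coeffMap_Y :
    coeffMap f (rtk6d0Y K N H D ψ) = rtk6d0Y K' N H D (rtk6n0Psi f ψ) := by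
  unfold rtk6d0Y
  rw [map_sum]
  refine Finset.sum_congr rfl fun c _ => ?_
  rw [map_mul, es1f_coeffMap_sS, rtk6n0Psi_inv_apply]
  congr 1
  show coeffMap f (HahnSeries.single 0 _) = HahnSeries.single 0 _
  rw [coeffMap_single]

end Psi

section EmbPow

variable (K₀ : IntermediateField ℚ Qb) {L N : ℕ} [NeZero N] (H D : Subgroup (ZMod N)ˣ)
  (ψ : (ZMod N)ˣ →* (↥K₀)ˣ)

/-- the base change of the Kummer element `u = y_ψ ^ d` is `(y_{ψ'}) ^ d` -/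
theorem rtk6n0_emb_pow (hNL : N ∣ L) (d : ℕ)
    (hmem : rtk6d0Y ↥K₀ N H D ψ ^ d ∈ modularFunctionFieldFullC ↥K₀ L) :
    rtk6n0Emb K₀ L N H ⟨rtk6d0Y ↥K₀ N H D ψ ^ d, hmem⟩
      = rtk6deY D (rtk6n0Psi (algebraMap ↥K₀ Qb) ψ) H hNL ^ d := by
  apply Subtype.ext
  rw [rtk6n0Emb_coe, SubmonoidClass.coe_pow, rtk6deY_coe, map_pow, rtk6n0_coeffMap_Y]

end EmbPow

end Fermat.Agent.RT.K6

end


end ZBRT_083_0

/-! ### bundled: `Fermat.Agent.RT.K6.N0Zero` -/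
section ZBRT_083_1
/-
K-machine, piece K6 / N0-inst (helper6), **(N2), (N3)**: the order of the Kummer element
`u_ψ = y_ψ ^ d` along the component `V_0 = mgvV hπ ιC hq hqM false` of the special fibre.

Setting: `A` a valuation subring of `ℚ̄` over `q`, `K₀ ⊆ ℚ̄` with `A ∩ K₀` a DVR with uniformizer
`π`, UNRAMIFIED (`hqπ : Associated q π`; e.g. `K₀ = ℚ̄^I = beta0Field A`), level `M q`, `q ∤ M`,
character level `N ∣ M q`, `q ∣ N`, `w` an automorphism of `fieldBar (M q) N H` with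
`IsWAt (M q) N H q w` (piece B: `stmtB`).

* `rtk6n0_exists` : `v_c(x) = v_c(π) ^ n` for some `n : ℤ` (`x ≠ 0`; both components);
* `rtk6n0_zero_shape` : if `v_0(u) = v_0(π) ^ n₀` then `w (u ⊗ ℚ̄) = C (q ^ n₀) · ε`, `ε` of unit
  content at `A` — the shape of the hypotheses of helper74's `rtk6de_inst_coprime`, `rtk6de0_inst`;
* `rtk6n0_zero_coprime_of` / `rtk6n0_zero_coprime` : **(N2)** `ψ(c₀)` of order `d` for a diamond
  `c₀` at `q` ⇒ `gcd(n₀, d) = 1`;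
* `rtk6n0_zero_dvd_of` / `rtk6n0_zero_dvd` : **(N3)** `ψ` trivial on the diamonds at `q` ⇒
  `d ∣ n₀`;
* `rtk6n0_zero_dvd_gen` : (N3) for any `u ∈ F_{Mq}(K₀)` with `u ⊗ ℚ̄ = y ^ d`, `y ∈ fieldBar` fixed
  by the inertia group and the diamonds at `q`.
-/

set_option autoImplicit false
set_option linter.style.haveILetI false
set_option linter.unusedSectionVars false
set_option linter.unusedVariables false
set_option synthInstance.maxHeartbeats 400000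
set_option maxHeartbeats 1000000

noncomputable section

namespace Fermat.Agent.RT.K6

open ModularCurve AlgebraicCurve HahnSeries Fermat.Agent.ES Fermat.Agent.ES.G2 Fermat.Agent.INJ
open Fermat.Agent.UNIP Fermat.Agent.ES1 Fermat.Agent.ES1.G2 IntermediateField Fermat.Agent.AL

section Zero

variable {A : ValuationSubring Qb} {K₀ : IntermediateField ℚ Qb}
  [IsDiscreteValuationRing ↥(beta0Ring A K₀)] {π : ↥(beta0Ring A K₀)} (hπ : Irreducible π)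
  (ιC : ↥K₀ →+* ℂ) {q M : ℕ} [NeZero q] [NeZero M] [NeZero (M * q)]
  (hq : q.Prime) (hqM : ¬ q ∣ M)

/-- the uniformizer, as a constant function, has expansion `C π` at both cusps -/
theorem rtk6n0_emb_unif (c : Bool) :
    vtEmbFam ιC hq hqM c
        (algebraMap ↥(beta0Ring A K₀) ↥(modularFunctionFieldFullC ↥K₀ (M * q)) π)
      = HahnSeries.C (algebraMap ↥(beta0Ring A K₀) ↥K₀ π) :=
  vtEmbFam_const ιC hq hqM c (algebraMap ↥(beta0Ring A K₀) ↥K₀ π)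

/-- **discreteness of the vertical valuations** (= `rtk6lfb_val_zpow_J`, re-proved here to keep
the import closure small) -/
theorem rtk6n0_exists (c : Bool) {x : ↥(modularFunctionFieldFullC ↥K₀ (M * q))} (hx : x ≠ 0) :
    ∃ n : ℤ, (mgvV hπ ιC hq hqM c).valuation x = (mgvV hπ ιC hq hqM c).valuation
      (algebraMap ↥(beta0Ring A K₀) ↥(modularFunctionFieldFullC ↥K₀ (M * q)) π) ^ n :=
  rtk6n0_exists_zpow (vtBase_residue hπ) (vtEmbFam ιC hq hqM c)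
    (vt_frac_fam (vtBase_residue hπ) ιC hq hqM c) (rtk6n0_emb_unif ιC hq hqM c) hx

variable {N : ℕ} {H : Subgroup (ZMod N)ˣ}
  {w : fieldBar (M * q) N H ≃ₐ[Qb] fieldBar (M * q) N H}

/-- **the shape of `w u` over `ℚ̄`**: if `v_0(u) = v_0(π) ^ n₀` on the unramified base, then
`w (u ⊗ ℚ̄) = C (q ^ n₀) · ε` with `ε` of unit content at `A`. -/
theorem rtk6n0_zero_shape (hqπ : Associated (((q : ℕ) : ↥(beta0Ring A K₀))) π)
    (hw : IsWAt (M * q) N H q w)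
    {u : ↥(modularFunctionFieldFullC ↥K₀ (M * q))} {n₀ : ℤ}
    (hn₀ : (mgvV hπ ιC hq hqM false).valuation u = (mgvV hπ ιC hq hqM false).valuation
      (algebraMap ↥(beta0Ring A K₀) ↥(modularFunctionFieldFullC ↥K₀ (M * q)) π) ^ n₀) :
    ∃ (ε e₁ e₂ : LaurentSeries Qb) (c' : Qb), A.valuation c' = 1 ∧ KronPrim A e₁ ∧
      KronPrim A e₂ ∧ ε * e₂ = HahnSeries.C c' * e₁ ∧
      ((w (rtk6n0Emb K₀ (M * q) N H u) : fieldBar (M * q) N H) : LaurentSeries Qb)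
        = HahnSeries.C (((q : ℕ) : Qb) ^ n₀) * ε := by
  obtain ⟨v, hv⟩ := hqπ
  have hφA : ∀ a : ↥(beta0Ring A K₀),
      algebraMap ↥K₀ Qb (algebraMap ↥(beta0Ring A K₀) ↥K₀ a) ∈ A := fun a => a.2
  have hφu : ∀ a : ↥(beta0Ring A K₀), IsLocalRing.residue ↥(beta0Ring A K₀) a ≠ 0 →
      algebraMap ↥K₀ Qb (algebraMap ↥(beta0Ring A K₀) ↥K₀ a) ∉ A.nonunits := by
    intro a ha h
    apply ha
    rw [IsLocalRing.residue_eq_zero_iff, beta0Ring_mem_maximalIdeal_iff]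
    exact h
  have ht : algebraMap ↥(beta0Ring A K₀) ↥K₀ π
      = ((q : ℕ) : ↥K₀) * algebraMap ↥(beta0Ring A K₀) ↥K₀ (v : ↥(beta0Ring A K₀)) := by
    rw [← hv, map_mul, map_natCast]
  have ht₂ : A.valuation (algebraMap ↥K₀ Qb
      (algebraMap ↥(beta0Ring A K₀) ↥K₀ (v : ↥(beta0Ring A K₀)))) = 1 :=
    (beta0Ring_isUnit_iff (v : ↥(beta0Ring A K₀))).1 v.isUnit
  obtain ⟨ε, e₁, e₂, c', hc', he1, he2, he, hx⟩ :=
    rtk6n0_content (vtBase_residue hπ) (vtEmbFam ιC hq hqM false)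
      (vt_frac_fam (vtBase_residue hπ) ιC hq hqM false) A (algebraMap ↥K₀ Qb) hφA hφu
      (rtk6n0_emb_unif ιC hq hqM false) hn₀ ht ht₂
  refine ⟨ε, e₁, e₂, c', hc', he1, he2, he, ?_⟩
  rw [rtk6n0_w_emb w hw hq ιC hqM u, rtk6n0Emb_coe]
  rw [map_natCast] at hx
  exact hx

/-! ### (N3) -/

/-- **(N3), general form**: `u ∈ F_{Mq}(K₀)` with `u ⊗ ℚ̄ = y ^ d`, `y ∈ fieldBar (M q) N H`
nonzero, fixed by the inertia group (coefficientwise) and by the diamonds at `q`, `q ∤ d`: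
if `v_0(u) = v_0(π) ^ n₀` then `d ∣ n₀`. -/
theorem rtk6n0_zero_dvd_gen [NeZero N] (hA : A.LiesOverPrime q)
    (hqπ : Associated (((q : ℕ) : ↥(beta0Ring A K₀))) π)
    (hNL : N ∣ M * q) (hqN : q ∣ N) (hw : IsWAt (M * q) N H q w) {d : ℕ} (hd : ¬ q ∣ d)
    (y : fieldBar (M * q) N H) (hy : y ≠ 0)
    (hgal : ∀ σ ∈ A.inertiaSubgroupIn ℚ,
      arithmeticGalois (fieldQ (M * q) N H) σ • y = y)
    (hdiam : ∀ c : (ZMod N)ˣ, IsAtR N q c →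
      ∀ δ : fieldBar (M * q) N H ≃ₐ[Qb] fieldBar (M * q) N H,
        IsDiamondH (M * q) N H c δ → δ y = y)
    {u : ↥(modularFunctionFieldFullC ↥K₀ (M * q))}
    (hu : rtk6n0Emb K₀ (M * q) N H u = y ^ d) {n₀ : ℤ}
    (hn₀ : (mgvV hπ ιC hq hqM false).valuation u = (mgvV hπ ιC hq hqM false).valuation
      (algebraMap ↥(beta0Ring A K₀) ↥(modularFunctionFieldFullC ↥K₀ (M * q)) π) ^ n₀) :
    (d : ℤ) ∣ n₀ := by
  obtain ⟨ε, e₁, e₂, c', hc', he1, he2, he, hx⟩ :=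
    rtk6n0_zero_shape hπ ιC hq hqM hqπ hw hn₀
  have hL : M * q ≠ 0 := NeZero.ne (M * q)
  have hr2 : ¬ q ^ 2 ∣ N := by
    intro h
    have h1 : q ^ 2 ∣ M * q := h.trans hNL
    rw [pow_two] at h1
    exact hqM (Nat.dvd_of_mul_dvd_mul_right hq.pos h1)
  refine rtk6de0_inst_gen hL hNL hq hqN hr2 A hA hd hw y hy hgal hdiam hc' he1 he2 he ?_
  rw [← hx, hu, map_pow, SubmonoidClass.coe_pow]

variable [NeZero N] (ψ : (ZMod N)ˣ →* (↥K₀)ˣ)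

/-- **(N3)**, implication form: `ψ` trivial on the diamonds at `q` ⇒ `d ∣ n₀` for every `n₀` with
`v_0(u_ψ) = v_0(π) ^ n₀`. -/
theorem rtk6n0_zero_dvd_of (hA : A.LiesOverPrime q)
    (hqπ : Associated (((q : ℕ) : ↥(beta0Ring A K₀))) π)
    (hNL : N ∣ M * q) (hqN : q ∣ N) (hN3 : 3 ≤ N) (hw : IsWAt (M * q) N H q w)
    (hψH : ∀ h ∈ H, ψ h = 1) (hψ1 : ψ (-1) = 1) {d : ℕ} (hd : ¬ q ∣ d)
    (hψd : ∀ c, ψ c ^ d = 1) (hψr : ∀ c : (ZMod N)ˣ, IsAtR N q c → ψ c = 1)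
    (hmem : rtk6d0Y ↥K₀ N H ⊤ ψ ^ d ∈ modularFunctionFieldFullC ↥K₀ (M * q)) {n₀ : ℤ}
    (hn₀ : (mgvV hπ ιC hq hqM false).valuation
        (⟨rtk6d0Y ↥K₀ N H ⊤ ψ ^ d, hmem⟩ : ↥(modularFunctionFieldFullC ↥K₀ (M * q)))
      = (mgvV hπ ιC hq hqM false).valuation
        (algebraMap ↥(beta0Ring A K₀) ↥(modularFunctionFieldFullC ↥K₀ (M * q)) π) ^ n₀) :
    (d : ℤ) ∣ n₀ := by
  obtain ⟨ε, e₁, e₂, c', hc', he1, he2, he, hx⟩ :=
    rtk6n0_zero_shape hπ ιC hq hqM hqπ hw hn₀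
  have hL : M * q ≠ 0 := NeZero.ne (M * q)
  have hr2 : ¬ q ^ 2 ∣ N := by
    intro h
    have h1 : q ^ 2 ∣ M * q := h.trans hNL
    rw [pow_two] at h1
    exact hqM (Nat.dvd_of_mul_dvd_mul_right hq.pos h1)
  refine rtk6de0_inst ⊤ (rtk6n0Psi (algebraMap ↥K₀ Qb) ψ) hL hNL hq hqN hr2 A hA hd hN3
    (fun h hh => rtk6n0Psi_eq_one _ ψ (hψH h hh)) (rtk6n0Psi_eq_one _ ψ hψ1)
    (fun c _ => rtk6n0Psi_pow_eq_one _ ψ (hψd c)) (fun c _ => Subgroup.mem_top c)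
    (fun c hc => rtk6n0Psi_eq_one _ ψ (hψr c hc)) hw hc' he1 he2 he ?_
  rw [← hx, rtk6n0_emb_pow K₀ H ⊤ ψ hNL d hmem, map_pow, SubmonoidClass.coe_pow]

/-- the Kummer element is nonzero -/
theorem rtk6n0_u_ne_zero (hN3 : 3 ≤ N) (hψH : ∀ h ∈ H, ψ h = 1) (hψ1 : ψ (-1) = 1)
    (D : Subgroup (ZMod N)ˣ) (d : ℕ)
    (hmem : rtk6d0Y ↥K₀ N H D ψ ^ d ∈ modularFunctionFieldFullC ↥K₀ (M * q)) :
    (⟨rtk6d0Y ↥K₀ N H D ψ ^ d, hmem⟩ : ↥(modularFunctionFieldFullC ↥K₀ (M * q))) ≠ 0 := by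
  intro h
  have h1 : rtk6d0Y ↥K₀ N H D ψ ^ d = 0 :=
    congrArg (fun z : ↥(modularFunctionFieldFullC ↥K₀ (M * q)) => (z : LaurentSeries ↥K₀)) h
  exact rtk6d0Y_ne_zero ↥K₀ D ψ hN3 hψH hψ1 (eq_zero_of_pow_eq_zero h1)

/-- **(N3)**: `ψ` trivial on the diamonds at `q` ⇒ `v_0(u_ψ) = v_0(π) ^ n₀` with `d ∣ n₀`. -/
theorem rtk6n0_zero_dvd (hA : A.LiesOverPrime q)
    (hqπ : Associated (((q : ℕ) : ↥(beta0Ring A K₀))) π)
    (hNL : N ∣ M * q) (hqN : q ∣ N) (hN3 : 3 ≤ N) (hw : IsWAt (M * q) N H q w)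
    (hψH : ∀ h ∈ H, ψ h = 1) (hψ1 : ψ (-1) = 1) {d : ℕ} (hd : ¬ q ∣ d)
    (hψd : ∀ c, ψ c ^ d = 1) (hψr : ∀ c : (ZMod N)ˣ, IsAtR N q c → ψ c = 1)
    (hmem : rtk6d0Y ↥K₀ N H ⊤ ψ ^ d ∈ modularFunctionFieldFullC ↥K₀ (M * q)) :
    ∃ n₀ : ℤ, (d : ℤ) ∣ n₀ ∧
      (mgvV hπ ιC hq hqM false).valuation
        (⟨rtk6d0Y ↥K₀ N H ⊤ ψ ^ d, hmem⟩ : ↥(modularFunctionFieldFullC ↥K₀ (M * q)))
      = (mgvV hπ ιC hq hqM false).valuation
        (algebraMap ↥(beta0Ring A K₀) ↥(modularFunctionFieldFullC ↥K₀ (M * q)) π) ^ n₀ := by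
  obtain ⟨n₀, hn₀⟩ := rtk6n0_exists hπ ιC hq hqM false
    (rtk6n0_u_ne_zero (M := M) (q := q) ψ hN3 hψH hψ1 ⊤ d hmem)
  exact ⟨n₀, rtk6n0_zero_dvd_of hπ ιC hq hqM ψ hA hqπ hNL hqN hN3 hw hψH hψ1 hd hψd hψr hmem
    hn₀, hn₀⟩

/-! ### (N2) -/

/-- **(N2)**, implication form: `ψ(c₀)` of order `d` for a diamond `c₀` at `q`, `q ∤ d` ⇒
`gcd(n₀, d) = 1` for every `n₀` with `v_0(u_ψ) = v_0(π) ^ n₀`. -/
theorem rtk6n0_zero_coprime_of (hA : A.LiesOverPrime q)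
    (hqπ : Associated (((q : ℕ) : ↥(beta0Ring A K₀))) π)
    (hNL : N ∣ M * q) (hqN : q ∣ N) (hw : IsWAt (M * q) N H q w)
    (hψH : ∀ h ∈ H, ψ h = 1) (hψ1 : ψ (-1) = 1) {d : ℕ} (hd : ¬ q ∣ d)
    (hψd : ∀ c, ψ c ^ d = 1) {c₀ : (ZMod N)ˣ} (hc₀ : IsAtR N q c₀)
    (hord : orderOf (ψ c₀) = d)
    (hmem : rtk6d0Y ↥K₀ N H ⊤ ψ ^ d ∈ modularFunctionFieldFullC ↥K₀ (M * q)) {n₀ : ℤ}
    (hn₀ : (mgvV hπ ιC hq hqM false).valuation
        (⟨rtk6d0Y ↥K₀ N H ⊤ ψ ^ d, hmem⟩ : ↥(modularFunctionFieldFullC ↥K₀ (M * q)))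
      = (mgvV hπ ιC hq hqM false).valuation
        (algebraMap ↥(beta0Ring A K₀) ↥(modularFunctionFieldFullC ↥K₀ (M * q)) π) ^ n₀) :
    Nat.Coprime n₀.natAbs d := by
  obtain ⟨ε, e₁, e₂, c', hc', he1, he2, he, hx⟩ :=
    rtk6n0_zero_shape hπ ιC hq hqM hqπ hw hn₀
  have hL : M * q ≠ 0 := NeZero.ne (M * q)
  refine rtk6de_inst_coprime ⊤ (rtk6n0Psi (algebraMap ↥K₀ Qb) ψ) hL hNL hq hqN A hA hd
    (fun h hh => rtk6n0Psi_eq_one _ ψ (hψH h hh)) (rtk6n0Psi_eq_one _ ψ hψ1)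
    (fun c _ => rtk6n0Psi_pow_eq_one _ ψ (hψd c)) hw (Subgroup.mem_top c₀) hc₀
    ((rtk6n0Psi_orderOf _ ψ c₀).trans hord) hc' he1 he2 he ?_
  rw [← hx, rtk6n0_emb_pow K₀ H ⊤ ψ hNL d hmem, map_pow, SubmonoidClass.coe_pow]

/-- **(N2)**: `ψ(c₀)` of order `d` for a diamond `c₀` at `q`, `q ∤ d` ⇒
`v_0(u_ψ) = v_0(π) ^ n₀` with `gcd(n₀, d) = 1`. -/
theorem rtk6n0_zero_coprime (hA : A.LiesOverPrime q)
    (hqπ : Associated (((q : ℕ) : ↥(beta0Ring A K₀))) π)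
    (hNL : N ∣ M * q) (hqN : q ∣ N) (hN3 : 3 ≤ N) (hw : IsWAt (M * q) N H q w)
    (hψH : ∀ h ∈ H, ψ h = 1) (hψ1 : ψ (-1) = 1) {d : ℕ} (hd : ¬ q ∣ d)
    (hψd : ∀ c, ψ c ^ d = 1) {c₀ : (ZMod N)ˣ} (hc₀ : IsAtR N q c₀)
    (hord : orderOf (ψ c₀) = d)
    (hmem : rtk6d0Y ↥K₀ N H ⊤ ψ ^ d ∈ modularFunctionFieldFullC ↥K₀ (M * q)) :
    ∃ n₀ : ℤ, (mgvV hπ ιC hq hqM false).valuation
        (⟨rtk6d0Y ↥K₀ N H ⊤ ψ ^ d, hmem⟩ : ↥(modularFunctionFieldFullC ↥K₀ (M * q)))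
      = (mgvV hπ ιC hq hqM false).valuation
        (algebraMap ↥(beta0Ring A K₀) ↥(modularFunctionFieldFullC ↥K₀ (M * q)) π) ^ n₀ ∧
      Nat.Coprime n₀.natAbs d := by
  obtain ⟨n₀, hn₀⟩ := rtk6n0_exists hπ ιC hq hqM false
    (rtk6n0_u_ne_zero (M := M) (q := q) ψ hN3 hψH hψ1 ⊤ d hmem)
  exact ⟨n₀, hn₀, rtk6n0_zero_coprime_of hπ ιC hq hqM ψ hA hqπ hNL hqN hw hψH hψ1 hd hψd hc₀
    hord hmem hn₀⟩

end Zero

/-! ### `K₀ = ℚ̄^I = beta0Field A` : the base is unramified -/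

section Base

variable {A : ValuationSubring Qb} {q : ℕ}
  [IsDiscreteValuationRing ↥(beta0Ring A (beta0Field A))]
  {π : ↥(beta0Ring A (beta0Field A))}

/-- `q` is a uniformizer of `A ∩ ℚ̄^I` -/
theorem rtk6n0_base_assoc (hπ : Irreducible π) (hq : q.Prime) (hA : A.LiesOverPrime q) :
    Associated (((q : ℕ) : ↥(beta0Ring A (beta0Field A)))) π :=
  IsDiscreteValuationRing.associated_of_irreducible _ (beta0Ring_irreducible_q hq hA) hπ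

end Base

end Fermat.Agent.RT.K6

end


end ZBRT_083_1

/-! ### bundled: `Fermat.Agent.RT.K6.N0Norm` -/
section ZBRT_083_2
/-
K-machine, piece K6 / N0-inst (helper6): the NORMALISED Kummer generator.

For `D = ⊤` the Lagrange resolvent `y_ψ = Σ_{c ∈ (ℤ/N)ˣ} ψ(c)⁻¹ S_c` is `n₀ = #(±H)` times the
reduced resolvent `Σ_{c ∈ (ℤ/N)ˣ/±H} ψ(c)⁻¹ S_c` (`S_c` and `ψ(c)` only depend on `c·(±H)`), and
`n₀` need not be a unit at `q`.  The normalised generator `rtk6n0Y = y_ψ / n₀` is primitive at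
EVERY valuation subring.

* `rtk6n0_sum_cosets` : `Σ_{c ∈ G} f c = #P · Σ_{x ∈ G/P} f(x.out)` for `f` right-`P`-invariant;
* `rtk6n0P H` : the subgroup `±H` of `(ℤ/N)ˣ`; `rtk6n0_mem_P`, `rtk6n0_card_P`;
* `rtk6n0Y K N H ψ = C (n₀⁻¹) * rtk6d0Y K N H ⊤ ψ`; `rtk6n0Y_mul`, `rtk6n0Y_kronPrim`,
  `rtk6n0Y_mem`, `rtk6n0Y_pow_mem`, `rtk6n0Y_pow`;
* **(N1′)** `rtk6n0_norm_inf` : `v_∞(u′) = 1` for `u′ = (y_ψ / n₀) ^ d` — NO hypothesis on `n₀`;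
* **(N2′)** `rtk6n0_norm_zero_coprime`, **(N3′)** `rtk6n0_norm_zero_dvd` : the same statements as
  (N2), (N3) for `u′`;
* `rtk6n0_norm_hor` : `d ∣ ord_P u ⇒ d ∣ ord_P u′` at every place.
-/

set_option autoImplicit false
set_option linter.style.haveILetI false
set_option linter.unusedSectionVars false
set_option linter.unusedVariables false
set_option synthInstance.maxHeartbeats 400000
set_option maxHeartbeats 1000000

noncomputable section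

namespace Fermat.Agent.RT.K6

open ModularCurve AlgebraicCurve HahnSeries Fermat.Agent.ES Fermat.Agent.ES.G2 Fermat.Agent.INJ
open Fermat.Agent.UNIP Fermat.Agent.ES1 Fermat.Agent.ES1.G2 IntermediateField Fermat.Agent.AL

/-! ### sums over a group of a function constant on cosets -/

section Cosets

variable {G M₀ : Type*} [Group G] [AddCommMonoid M₀] (P : Subgroup G)

/-- the bijection `(G ⧸ P) × P ≃ G`, `(x, p) ↦ x.out * p` -/
def rtk6n0CosetEquiv : (G ⧸ P) × P ≃ G where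
  toFun xp := Quotient.out xp.1 * (xp.2 : G)
  invFun c := ((c : G ⧸ P), ⟨(Quotient.out (c : G ⧸ P))⁻¹ * c, by
    rw [← QuotientGroup.eq]
    exact QuotientGroup.out_eq' _⟩)
  left_inv := by
    rintro ⟨x, p⟩
    have hx : (((Quotient.out x * (p : G) : G)) : G ⧸ P) = x := by
      rw [QuotientGroup.mk_mul_of_mem _ p.2]
      exact QuotientGroup.out_eq' x
    refine Prod.ext hx (Subtype.ext ?_)
    show (Quotient.out ((Quotient.out x * (p : G) : G) : G ⧸ P))⁻¹ * (Quotient.out x * (p : G))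
      = (p : G)
    rw [hx, inv_mul_cancel_left]
  right_inv := by
    intro c
    show Quotient.out (c : G ⧸ P) * ((Quotient.out (c : G ⧸ P))⁻¹ * c) = c
    rw [mul_inv_cancel_left]

theorem rtk6n0_sum_cosets [Fintype G] [Fintype P] [Fintype (G ⧸ P)] (f : G → M₀)
    (hf : ∀ c : G, ∀ p ∈ P, f (c * p) = f c) :
    ∑ c : G, f c = Fintype.card P • ∑ x : G ⧸ P, f (Quotient.out x) := by
  rw [← Equiv.sum_comp (rtk6n0CosetEquiv P) f, Fintype.sum_prod_type, Finset.smul_sum]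
  refine Finset.sum_congr rfl fun x _ => ?_
  have h1 : ∀ p : P, f (rtk6n0CosetEquiv P (x, p)) = f (Quotient.out x) :=
    fun p => hf _ p p.2
  rw [Finset.sum_congr rfl fun p _ => h1 p, Finset.sum_const, Finset.card_univ]

end Cosets

/-! ### the subgroup `±H` -/

section PM

variable {N : ℕ} (H : Subgroup (ZMod N)ˣ)

/-- the subgroup `±H` of `(ℤ/N)ˣ` -/
def rtk6n0P : Subgroup (ZMod N)ˣ where
  carrier := {c | InPM H c (1 : ZMod N)}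
  one_mem' := ⟨1, H.one_mem, Or.inl (by rw [mul_one, Units.val_one])⟩
  mul_mem' := by
    rintro a b ⟨h₁, hh₁, e₁⟩ ⟨h₂, hh₂, e₂⟩
    refine ⟨h₁ * h₂, H.mul_mem hh₁ hh₂, ?_⟩
    simp only [Units.val_mul] at e₁ e₂ ⊢
    rcases e₁ with e₁ | e₁ <;> rcases e₂ with e₂ | e₂
    · left; linear_combination e₁ + ((a : ZMod N) * (h₁ : ZMod N)) * e₂
    · right; linear_combination e₁ + ((a : ZMod N) * (h₁ : ZMod N)) * e₂
    · right; linear_combination e₁ - ((a : ZMod N) * (h₁ : ZMod N)) * e₂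
    · left; linear_combination e₁ - ((a : ZMod N) * (h₁ : ZMod N)) * e₂
  inv_mem' := by
    rintro a ⟨h, hh, e⟩
    refine ⟨h⁻¹, H.inv_mem hh, ?_⟩
    have hu : ((a⁻¹ * h⁻¹ : (ZMod N)ˣ) : ZMod N) * ((a * h : (ZMod N)ˣ) : ZMod N) = 1 := by
      rw [← Units.val_mul]
      have : a⁻¹ * h⁻¹ * (a * h) = 1 := by
        rw [mul_comm a h, ← mul_inv_rev, inv_mul_cancel]
      rw [this, Units.val_one]
    rcases e with e | e
    · left
      rw [← e, mul_one] at hu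
      exact hu.symm
    · right
      have e' : ((a * h : (ZMod N)ˣ) : ZMod N) = -1 := by rw [e, neg_neg]
      rw [e', mul_neg, mul_one] at hu
      exact hu.symm

variable {H}

theorem rtk6n0_mem_P {c : (ZMod N)ˣ} : c ∈ rtk6n0P H ↔ InPM H c (1 : ZMod N) := Iff.rfl

/-- `c p ∈ ± c H` for `p ∈ ±H` -/
theorem rtk6n0_inPM_mul (c : (ZMod N)ˣ) {p : (ZMod N)ˣ} (hp : p ∈ rtk6n0P H) :
    InPM H c ((c * p : (ZMod N)ˣ) : ZMod N) := by
  obtain ⟨h, hh, e⟩ := hp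
  refine ⟨h⁻¹, H.inv_mem hh, ?_⟩
  have hu : ((h : (ZMod N)ˣ) : ZMod N) * ((h⁻¹ : (ZMod N)ˣ) : ZMod N) = 1 := by
    rw [← Units.val_mul, mul_inv_cancel, Units.val_one]
  simp only [Units.val_mul] at e ⊢
  rcases e with e | e
  · left
    linear_combination (-((c : ZMod N) * (p : ZMod N))) * hu
      - ((c : ZMod N) * ((h⁻¹ : (ZMod N)ˣ) : ZMod N)) * e
  · right
    linear_combination (-((c : ZMod N) * (p : ZMod N))) * hu
      + ((c : ZMod N) * ((h⁻¹ : (ZMod N)ˣ) : ZMod N)) * e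

variable (H) in
/-- `#(±H) = rtk6d0N N H ⊤` -/
theorem rtk6n0_card_P [NeZero N] [Fintype (rtk6n0P H)] :
    Fintype.card (rtk6n0P H) = rtk6d0N N H ⊤ := by
  classical
  unfold rtk6d0N
  refine Fintype.card_of_subtype _ fun c => ?_
  rw [Finset.mem_filter, rtk6d0_mem_set]
  exact ⟨fun h => h.2, fun h => ⟨Subgroup.mem_top c, h⟩⟩

end PM

/-! ### the normalised resolvent -/

section Norm

variable (K : Type*) [Field K] (N : ℕ) [NeZero N] (H : Subgroup (ZMod N)ˣ)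
  (ψ : (ZMod N)ˣ →* Kˣ)

/-- **the normalised Kummer generator** `y_ψ / #(±H)` -/
def rtk6n0Y : LaurentSeries K :=
  HahnSeries.C (((rtk6d0N N H ⊤ : ℕ) : K)⁻¹) * rtk6d0Y K N H ⊤ ψ

variable {K N H ψ}

theorem rtk6n0_N_ne_zero [CharZero K] : ((rtk6d0N N H ⊤ : ℕ) : K) ≠ 0 := by
  have h2 := rtk6d0N_pos N H ⊤
  exact_mod_cast h2.ne'

theorem rtk6n0_C_ne_zero {a : K} (ha : a ≠ 0) : (HahnSeries.C a : LaurentSeries K) ≠ 0 := by
  intro h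
  apply ha
  have := congrArg (fun z : LaurentSeries K => z.coeff 0) h
  simpa using this

/-- `y_ψ = n₀ · (normalised generator)` -/
theorem rtk6n0Y_mul [CharZero K] :
    HahnSeries.C ((rtk6d0N N H ⊤ : ℕ) : K) * rtk6n0Y K N H ψ = rtk6d0Y K N H ⊤ ψ := by
  unfold rtk6n0Y
  rw [← mul_assoc, ← map_mul, mul_inv_cancel₀ rtk6n0_N_ne_zero, map_one, one_mul]

theorem rtk6n0Y_pow [CharZero K] (d : ℕ) :
    HahnSeries.C (((rtk6d0N N H ⊤ : ℕ) : K) ^ d) * rtk6n0Y K N H ψ ^ d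
      = rtk6d0Y K N H ⊤ ψ ^ d := by
  rw [map_pow, ← mul_pow, rtk6n0Y_mul]

theorem rtk6n0Y_ne_zero [CharZero K] (hN3 : 3 ≤ N) (hψH : ∀ h ∈ H, ψ h = 1)
    (hψ1 : ψ (-1) = 1) : rtk6n0Y K N H ψ ≠ 0 := by
  intro h
  apply rtk6d0Y_ne_zero K ⊤ ψ hN3 hψH hψ1
  rw [← rtk6n0Y_mul, h, mul_zero]

/-- the coefficients of the resolvent, regrouped along the cosets of `±H` -/
theorem rtk6n0_coeff_regroup (hψH : ∀ h ∈ H, ψ h = 1) (hψ1 : ψ (-1) = 1) (k : ℤ) :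
    ∃ S : Finset (ZMod N)ˣ, (rtk6d0Y K N H ⊤ ψ).coeff k
      = ((rtk6d0N N H ⊤ : ℕ) : K) *
          ∑ c ∈ S, (((ψ c)⁻¹ : Kˣ) : K) * (sS K N H c).coeff k := by
  classical
  haveI : Fintype (rtk6n0P H) := Fintype.ofFinite _
  haveI : Fintype ((ZMod N)ˣ ⧸ rtk6n0P H) := Fintype.ofFinite _
  refine ⟨Finset.univ.image (fun x : (ZMod N)ˣ ⧸ rtk6n0P H => Quotient.out x), ?_⟩
  have hinj : Function.Injective (fun x : (ZMod N)ˣ ⧸ rtk6n0P H => Quotient.out x) := by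
    intro x y hxy
    have := congrArg (fun c : (ZMod N)ˣ => (c : (ZMod N)ˣ ⧸ rtk6n0P H)) hxy
    simpa [QuotientGroup.out_eq'] using this
  rw [rtk6d0Y_coeff, Finset.sum_image (fun x _ y _ h => hinj h)]
  have hset : rtk6d0Set N (⊤ : Subgroup (ZMod N)ˣ) = Finset.univ := by
    ext c
    rw [rtk6d0_mem_set]
    exact ⟨fun _ => Finset.mem_univ c, fun _ => Subgroup.mem_top c⟩
  rw [hset, rtk6n0_sum_cosets (rtk6n0P H)
    (fun c => (((ψ c)⁻¹ : Kˣ) : K) * (sS K N H c).coeff k) ?_, rtk6n0_card_P H, nsmul_eq_mul]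
  intro c p hp
  have h1 : ψ (c * p) = ψ c := by
    rw [map_mul, rtk6d0_psi_eq_one hψH hψ1 (rtk6n0_mem_P.1 hp), mul_one]
  have h2 : sS K N H (c * p) = sS K N H c := by
    unfold sS sZ
    rw [es1f_cosetReps_eq (rtk6n0_inPM_mul c hp)]
  show (((ψ (c * p))⁻¹ : Kˣ) : K) * (sS K N H (c * p)).coeff k = _
  rw [h1, h2]

/-- **the normalised generator is primitive at EVERY valuation subring** -/
theorem rtk6n0Y_kronPrim [CharZero K] (A : ValuationSubring K) (hN3 : 3 ≤ N)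
    (hψH : ∀ h ∈ H, ψ h = 1) (hψ1 : ψ (-1) = 1) : KronPrim A (rtk6n0Y K N H ψ) := by
  have hcoeff : ∀ k : ℤ, (rtk6n0Y K N H ψ).coeff k
      = (((rtk6d0N N H ⊤ : ℕ) : K)⁻¹) * (rtk6d0Y K N H ⊤ ψ).coeff k := by
    intro k
    unfold rtk6n0Y
    rw [HahnSeries.C_mul_eq_smul, HahnSeries.coeff_smul, smul_eq_mul]
  refine ⟨fun k => ?_, 3, ?_⟩
  · obtain ⟨S, hS⟩ := rtk6n0_coeff_regroup (K := K) (ψ := ψ) hψH hψ1 k
    rw [hcoeff, hS, ← mul_assoc, inv_mul_cancel₀ rtk6n0_N_ne_zero, one_mul]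
    refine sum_mem fun c _ => mul_mem ?_ ?_
    · have hcard : (ψ c)⁻¹ ^ Fintype.card (ZMod N)ˣ = 1 := by
        rw [inv_pow, ← map_pow, pow_card_eq_one, map_one, inv_one]
      exact rtk6d0_unit_mem K A _ Fintype.card_ne_zero hcard
    · unfold sS
      rw [coeffMap_coeff]
      exact intCast_mem A _
  · rw [hcoeff, rtk6d0_coeff_three K ⊤ ψ hN3 hψH hψ1, inv_mul_cancel₀ rtk6n0_N_ne_zero,
      ValuationSubring.mem_nonunits_iff, map_one]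
    exact lt_irrefl _

/-- membership in an intermediate field is inherited -/
theorem rtk6n0Y_pow_mem [CharZero K] (F : IntermediateField K (LaurentSeries K)) {d : ℕ}
    (hmem : rtk6d0Y K N H ⊤ ψ ^ d ∈ F) : rtk6n0Y K N H ψ ^ d ∈ F := by
  unfold rtk6n0Y
  rw [mul_pow]
  refine mul_mem (pow_mem ?_ d) hmem
  rw [← LaurentSeries.algebraMap_apply K]
  exact F.algebraMap_mem _

theorem rtk6n0Y_mem [CharZero K] {L : ℕ} (hNL : N ∣ L) : rtk6n0Y K N H ψ ∈ fieldC K L N H := by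
  have h := rtk6n0Y_pow_mem (fieldC K L N H) (d := 1) (ψ := ψ)
    (by rw [pow_one]; exact rtk6d0Y_mem K N H ⊤ ψ hNL)
  rwa [pow_one] at h

end Norm

/-! ### the vertical orders of the normalised Kummer element -/

section NormVal

variable {A : ValuationSubring Qb} {K₀ : IntermediateField ℚ Qb}
  [IsDiscreteValuationRing ↥(beta0Ring A K₀)] {π : ↥(beta0Ring A K₀)} (hπ : Irreducible π)
  (ιC : ↥K₀ →+* ℂ) {q M : ℕ} [NeZero q] [NeZero M] [NeZero (M * q)]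
  (hq : q.Prime) (hqM : ¬ q ∣ M)
  {N : ℕ} [NeZero N] {H : Subgroup (ZMod N)ˣ} (ψ : (ZMod N)ˣ →* (↥K₀)ˣ)

/-- **(N1′)**: the normalised Kummer element `u′ = (y_ψ / n₀) ^ d` is a unit of `V_∞`
(no hypothesis on `n₀ = #(±H)`). -/
theorem rtk6n0_norm_inf (hN3 : 3 ≤ N) (hψH : ∀ h ∈ H, ψ h = 1) (hψ1 : ψ (-1) = 1) (d : ℕ)
    (hmem : rtk6n0Y ↥K₀ N H ψ ^ d ∈ modularFunctionFieldFullC ↥K₀ (M * q)) :
    (mgvV hπ ιC hq hqM true).valuation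
      (⟨rtk6n0Y ↥K₀ N H ψ ^ d, hmem⟩ : ↥(modularFunctionFieldFullC ↥K₀ (M * q))) = 1 :=
  rtk6n0_inf_of_prim hπ ιC hq hqM
    ((rtk6n0Y_kronPrim (beta0Ring A K₀) hN3 hψH hψ1).pow d)

/-- `y_ψ ^ d` lies in the `Γ₀`-field if `(y_ψ / n₀) ^ d` does -/
theorem rtk6n0_mem_of_norm {d : ℕ}
    (hmem : rtk6n0Y ↥K₀ N H ψ ^ d ∈ modularFunctionFieldFullC ↥K₀ (M * q)) :
    rtk6d0Y ↥K₀ N H ⊤ ψ ^ d ∈ modularFunctionFieldFullC ↥K₀ (M * q) := by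
  rw [← rtk6n0Y_pow]
  refine mul_mem ?_ hmem
  rw [← LaurentSeries.algebraMap_apply ↥K₀]
  exact (modularFunctionFieldFullC ↥K₀ (M * q)).algebraMap_mem _

/-- `u = n₀ ^ d · u′` in the `Γ₀`-field -/
theorem rtk6n0_u_eq {d : ℕ}
    (hmem : rtk6n0Y ↥K₀ N H ψ ^ d ∈ modularFunctionFieldFullC ↥K₀ (M * q)) :
    (⟨rtk6d0Y ↥K₀ N H ⊤ ψ ^ d, rtk6n0_mem_of_norm ψ hmem⟩ :
        ↥(modularFunctionFieldFullC ↥K₀ (M * q)))
      = algebraMap ↥K₀ ↥(modularFunctionFieldFullC ↥K₀ (M * q))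
          (((rtk6d0N N H ⊤ : ℕ) : ↥K₀)) ^ d *
        ⟨rtk6n0Y ↥K₀ N H ψ ^ d, hmem⟩ := by
  apply Subtype.ext
  show rtk6d0Y ↥K₀ N H ⊤ ψ ^ d
    = (algebraMap ↥K₀ (LaurentSeries ↥K₀) (((rtk6d0N N H ⊤ : ℕ) : ↥K₀))) ^ d *
        rtk6n0Y ↥K₀ N H ψ ^ d
  rw [LaurentSeries.algebraMap_apply, ← map_pow, rtk6n0Y_pow]

/-- the order of `u_ψ` along `V_0` from the order of the normalised element -/
theorem rtk6n0_norm_val {d : ℕ}
    (hmem : rtk6n0Y ↥K₀ N H ψ ^ d ∈ modularFunctionFieldFullC ↥K₀ (M * q)) (c : Bool)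
    {n' : ℤ}
    (hn' : (mgvV hπ ιC hq hqM c).valuation
        (⟨rtk6n0Y ↥K₀ N H ψ ^ d, hmem⟩ : ↥(modularFunctionFieldFullC ↥K₀ (M * q)))
      = (mgvV hπ ιC hq hqM c).valuation
        (algebraMap ↥(beta0Ring A K₀) ↥(modularFunctionFieldFullC ↥K₀ (M * q)) π) ^ n') :
    ∃ k : ℤ, (mgvV hπ ιC hq hqM c).valuation
        (⟨rtk6d0Y ↥K₀ N H ⊤ ψ ^ d, rtk6n0_mem_of_norm ψ hmem⟩ :
          ↥(modularFunctionFieldFullC ↥K₀ (M * q)))
      = (mgvV hπ ιC hq hqM c).valuation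
        (algebraMap ↥(beta0Ring A K₀) ↥(modularFunctionFieldFullC ↥K₀ (M * q)) π)
          ^ (k * d + n') := by
  have hc0 : algebraMap ↥K₀ ↥(modularFunctionFieldFullC ↥K₀ (M * q))
      (((rtk6d0N N H ⊤ : ℕ) : ↥K₀)) ≠ 0 := by
    rw [Ne, map_eq_zero_iff _ (algebraMap ↥K₀ _).injective]
    exact rtk6n0_N_ne_zero
  obtain ⟨k, hk⟩ := rtk6n0_exists hπ ιC hq hqM c hc0
  have hπ0 : (mgvV hπ ιC hq hqM c).valuation
      (algebraMap ↥(beta0Ring A K₀) ↥(modularFunctionFieldFullC ↥K₀ (M * q)) π) ≠ 0 := by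
    rw [Valuation.ne_zero_iff]
    intro h0
    have h1 := rtk6n0_emb_unif (π := π) ιC hq hqM c
    rw [h0, map_zero] at h1
    exact (vtBase_residue hπ).Cιπ_ne h1.symm
  refine ⟨k, ?_⟩
  rw [rtk6n0_u_eq ψ hmem, map_mul, map_pow, hk, hn', ← zpow_natCast, ← zpow_mul,
    ← zpow_add₀ hπ0]

variable {w : fieldBar (M * q) N H ≃ₐ[Qb] fieldBar (M * q) N H}

/-- **(N2′)**: `ψ(c₀)` of order `d` for a diamond `c₀` at `q`, `q ∤ d` ⇒
`v_0(u′) = v_0(π) ^ n₀` with `gcd(n₀, d) = 1`, for the normalised `u′ = (y_ψ / n₀) ^ d`. -/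
theorem rtk6n0_norm_zero_coprime (hA : A.LiesOverPrime q)
    (hqπ : Associated (((q : ℕ) : ↥(beta0Ring A K₀))) π)
    (hNL : N ∣ M * q) (hqN : q ∣ N) (hN3 : 3 ≤ N) (hw : IsWAt (M * q) N H q w)
    (hψH : ∀ h ∈ H, ψ h = 1) (hψ1 : ψ (-1) = 1) {d : ℕ} (hd : ¬ q ∣ d)
    (hψd : ∀ c, ψ c ^ d = 1) {c₀ : (ZMod N)ˣ} (hc₀ : IsAtR N q c₀)
    (hord : orderOf (ψ c₀) = d)
    (hmem : rtk6n0Y ↥K₀ N H ψ ^ d ∈ modularFunctionFieldFullC ↥K₀ (M * q)) :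
    ∃ n₀ : ℤ, (mgvV hπ ιC hq hqM false).valuation
        (⟨rtk6n0Y ↥K₀ N H ψ ^ d, hmem⟩ : ↥(modularFunctionFieldFullC ↥K₀ (M * q)))
      = (mgvV hπ ιC hq hqM false).valuation
        (algebraMap ↥(beta0Ring A K₀) ↥(modularFunctionFieldFullC ↥K₀ (M * q)) π) ^ n₀ ∧
      Nat.Coprime n₀.natAbs d := by
  have hu0 : (⟨rtk6n0Y ↥K₀ N H ψ ^ d, hmem⟩ : ↥(modularFunctionFieldFullC ↥K₀ (M * q))) ≠ 0 := by
    intro h
    have h1 : rtk6n0Y ↥K₀ N H ψ ^ d = 0 :=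
      congrArg (fun z : ↥(modularFunctionFieldFullC ↥K₀ (M * q)) => (z : LaurentSeries ↥K₀)) h
    exact rtk6n0Y_ne_zero hN3 hψH hψ1 (eq_zero_of_pow_eq_zero h1)
  obtain ⟨n', hn'⟩ := rtk6n0_exists hπ ιC hq hqM false hu0
  obtain ⟨k, hk⟩ := rtk6n0_norm_val hπ ιC hq hqM ψ hmem false hn'
  refine ⟨n', hn', ?_⟩
  have h1 := rtk6n0_zero_coprime_of hπ ιC hq hqM ψ hA hqπ hNL hqN hw hψH hψ1 hd hψd hc₀ hord
    (rtk6n0_mem_of_norm ψ hmem) hk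
  have h2 : IsCoprime (k * (d : ℤ) + n') (d : ℤ) := by
    rw [Int.isCoprime_iff_gcd_eq_one, Int.gcd_eq_natAbs, Int.natAbs_natCast]
    exact h1
  have h3 : IsCoprime n' (d : ℤ) := by
    have h4 : k * (d : ℤ) + n' = n' + (d : ℤ) * k := by ring
    rw [h4] at h2
    exact h2.of_add_mul_left_left
  rw [Int.isCoprime_iff_gcd_eq_one, Int.gcd_eq_natAbs, Int.natAbs_natCast] at h3
  exact h3

/-- **(N3′)**: `ψ` trivial on the diamonds at `q` ⇒ `v_0(u′) = v_0(π) ^ n₀` with `d ∣ n₀`, for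
the normalised `u′ = (y_ψ / n₀) ^ d`. -/
theorem rtk6n0_norm_zero_dvd (hA : A.LiesOverPrime q)
    (hqπ : Associated (((q : ℕ) : ↥(beta0Ring A K₀))) π)
    (hNL : N ∣ M * q) (hqN : q ∣ N) (hN3 : 3 ≤ N) (hw : IsWAt (M * q) N H q w)
    (hψH : ∀ h ∈ H, ψ h = 1) (hψ1 : ψ (-1) = 1) {d : ℕ} (hd : ¬ q ∣ d)
    (hψd : ∀ c, ψ c ^ d = 1) (hψr : ∀ c : (ZMod N)ˣ, IsAtR N q c → ψ c = 1)
    (hmem : rtk6n0Y ↥K₀ N H ψ ^ d ∈ modularFunctionFieldFullC ↥K₀ (M * q)) :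
    ∃ n₀ : ℤ, (d : ℤ) ∣ n₀ ∧
      (mgvV hπ ιC hq hqM false).valuation
        (⟨rtk6n0Y ↥K₀ N H ψ ^ d, hmem⟩ : ↥(modularFunctionFieldFullC ↥K₀ (M * q)))
      = (mgvV hπ ιC hq hqM false).valuation
        (algebraMap ↥(beta0Ring A K₀) ↥(modularFunctionFieldFullC ↥K₀ (M * q)) π) ^ n₀ := by
  have hu0 : (⟨rtk6n0Y ↥K₀ N H ψ ^ d, hmem⟩ : ↥(modularFunctionFieldFullC ↥K₀ (M * q))) ≠ 0 := by
    intro h
    have h1 : rtk6n0Y ↥K₀ N H ψ ^ d = 0 :=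
      congrArg (fun z : ↥(modularFunctionFieldFullC ↥K₀ (M * q)) => (z : LaurentSeries ↥K₀)) h
    exact rtk6n0Y_ne_zero hN3 hψH hψ1 (eq_zero_of_pow_eq_zero h1)
  obtain ⟨n', hn'⟩ := rtk6n0_exists hπ ιC hq hqM false hu0
  obtain ⟨k, hk⟩ := rtk6n0_norm_val hπ ιC hq hqM ψ hmem false hn'
  refine ⟨n', ?_, hn'⟩
  have h1 := rtk6n0_zero_dvd_of hπ ιC hq hqM ψ hA hqπ hNL hqN hN3 hw hψH hψ1 hd hψd hψr
    (rtk6n0_mem_of_norm ψ hmem) hk
  exact (Int.dvd_add_right (Dvd.intro_left k rfl)).1 h1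

end NormVal

end Fermat.Agent.RT.K6

end


end ZBRT_083_2

/-! ### bundled: `Fermat.Agent.RT.K6.N0Final` -/
section ZBRT_083_3
/-
K-machine, piece K6 / N0-inst (helper6), FINAL forms: `K₀ = ℚ̄^I = beta0Field A` (the unramified
base of UNIP / DLFConc), `w` discharged by piece B (`stmtB`, helper96) from `IsStarStable N q H`.

For the NORMALISED Kummer element `u′ = ⟨rtk6n0Y E₀ N H ψ ^ d, hmem⟩` (`N0Norm.lean`) and for
`u = ⟨rtk6d0Y E₀ N H ⊤ ψ ^ d, hmem⟩`: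

* `rtk6n0b_exists_w` : `∃ w, IsWAt (M q) N H q w`;
* `rtk6n0b_norm_inf`          : (N1′) `v_∞(u′) = 1`;
* `rtk6n0b_norm_zero_coprime` : (N2′) `∃ n₀, v_0(u′) = v_0(π) ^ n₀ ∧ gcd(n₀, d) = 1`, and Bézout
  `rtk6n0b_norm_zero_bezout` : `∃ n₀ a b, v_0(u′) = v_0(π) ^ n₀ ∧ a * n₀ - b * d = 1`;
* `rtk6n0b_norm_zero_dvd`     : (N3′) `∃ n₀, d ∣ n₀ ∧ v_0(u′) = v_0(π) ^ n₀`;
* `rtk6n0b_zero_coprime`, `rtk6n0b_zero_dvd` : (N2), (N3) for `u`.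
-/

set_option autoImplicit false
set_option linter.style.haveILetI false
set_option linter.unusedSectionVars false
set_option linter.unusedVariables false
set_option synthInstance.maxHeartbeats 400000
set_option maxHeartbeats 1000000

noncomputable section

namespace Fermat.Agent.RT.K6

open ModularCurve AlgebraicCurve HahnSeries Fermat.Agent.ES Fermat.Agent.ES.G2 Fermat.Agent.INJ
open Fermat.Agent.UNIP Fermat.Agent.ES1 Fermat.Agent.ES1.G2 IntermediateField Fermat.Agent.AL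

section W

variable {q M N : ℕ} [NeZero (M * q)] {H : Subgroup (ZMod N)ˣ}

/-- piece B at the level `M q`, `q ∤ M` -/
theorem rtk6n0b_exists_w (hq : q.Prime) (hqM : ¬ q ∣ M) (hNL : N ∣ M * q) (hqN : q ∣ N)
    (hstar : IsStarStable N q H) :
    ∃ w : fieldBar (M * q) N H ≃ₐ[Qb] fieldBar (M * q) N H, IsWAt (M * q) N H q w := by
  refine stmtB (M * q) N H q (NeZero.ne (M * q)) hNL hq hqN ?_ hstar
  intro h
  rw [pow_two] at h
  exact hqM (Nat.dvd_of_mul_dvd_mul_right hq.pos h)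

/-- Bézout from coprimality, in the shape `a * n₀ - b * d = 1` -/
theorem rtk6n0b_bezout {n₀ : ℤ} {d : ℕ} (h : Nat.Coprime n₀.natAbs d) :
    ∃ a b : ℤ, a * n₀ - b * d = 1 := by
  have h1 : IsCoprime n₀ (d : ℤ) := by
    rw [Int.isCoprime_iff_gcd_eq_one, Int.gcd_eq_natAbs, Int.natAbs_natCast]
    exact h
  obtain ⟨a, b, hab⟩ := h1
  exact ⟨a, -b, by linear_combination hab⟩

end W

section Base

variable {A : ValuationSubring Qb} {q M : ℕ} [NeZero q] [NeZero M] [NeZero (M * q)]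
  [IsDiscreteValuationRing ↥(beta0Ring A (beta0Field A))]
  {π : ↥(beta0Ring A (beta0Field A))} (hπ : Irreducible π)
  (ιC : ↥(beta0Field A) →+* ℂ) (hq : q.Prime) (hqM : ¬ q ∣ M)
  {N : ℕ} [NeZero N] {H : Subgroup (ZMod N)ˣ} (ψ : (ZMod N)ˣ →* (↥(beta0Field A))ˣ)

/-- **(N1′)** at `K₀ = ℚ̄^I` -/
theorem rtk6n0b_norm_inf (hN3 : 3 ≤ N) (hψH : ∀ h ∈ H, ψ h = 1) (hψ1 : ψ (-1) = 1) (d : ℕ)
    (hmem : rtk6n0Y ↥(beta0Field A) N H ψ ^ d
      ∈ modularFunctionFieldFullC ↥(beta0Field A) (M * q)) :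
    (mgvV hπ ιC hq hqM true).valuation
      (⟨rtk6n0Y ↥(beta0Field A) N H ψ ^ d, hmem⟩ :
        ↥(modularFunctionFieldFullC ↥(beta0Field A) (M * q))) = 1 :=
  rtk6n0_norm_inf hπ ιC hq hqM ψ hN3 hψH hψ1 d hmem

/-- **(N2′)** at `K₀ = ℚ̄^I`, `w` from piece B -/
theorem rtk6n0b_norm_zero_coprime (hA : A.LiesOverPrime q) (hNL : N ∣ M * q) (hqN : q ∣ N)
    (hN3 : 3 ≤ N) (hstar : IsStarStable N q H)
    (hψH : ∀ h ∈ H, ψ h = 1) (hψ1 : ψ (-1) = 1) {d : ℕ} (hd : ¬ q ∣ d)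
    (hψd : ∀ c, ψ c ^ d = 1) {c₀ : (ZMod N)ˣ} (hc₀ : IsAtR N q c₀)
    (hord : orderOf (ψ c₀) = d)
    (hmem : rtk6n0Y ↥(beta0Field A) N H ψ ^ d
      ∈ modularFunctionFieldFullC ↥(beta0Field A) (M * q)) :
    ∃ n₀ : ℤ, (mgvV hπ ιC hq hqM false).valuation
        (⟨rtk6n0Y ↥(beta0Field A) N H ψ ^ d, hmem⟩ :
          ↥(modularFunctionFieldFullC ↥(beta0Field A) (M * q)))
      = (mgvV hπ ιC hq hqM false).valuation
        (algebraMap ↥(beta0Ring A (beta0Field A))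
          ↥(modularFunctionFieldFullC ↥(beta0Field A) (M * q)) π) ^ n₀ ∧
      Nat.Coprime n₀.natAbs d := by
  obtain ⟨w, hw⟩ := rtk6n0b_exists_w (H := H) hq hqM hNL hqN hstar
  exact rtk6n0_norm_zero_coprime hπ ιC hq hqM ψ hA (rtk6n0_base_assoc hπ hq hA) hNL hqN hN3 hw
    hψH hψ1 hd hψd hc₀ hord hmem

/-- **(N2′)** with Bézout coefficients (`hab` of `Rtk6c4Cross`) -/
theorem rtk6n0b_norm_zero_bezout (hA : A.LiesOverPrime q) (hNL : N ∣ M * q) (hqN : q ∣ N)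
    (hN3 : 3 ≤ N) (hstar : IsStarStable N q H)
    (hψH : ∀ h ∈ H, ψ h = 1) (hψ1 : ψ (-1) = 1) {d : ℕ} (hd : ¬ q ∣ d)
    (hψd : ∀ c, ψ c ^ d = 1) {c₀ : (ZMod N)ˣ} (hc₀ : IsAtR N q c₀)
    (hord : orderOf (ψ c₀) = d)
    (hmem : rtk6n0Y ↥(beta0Field A) N H ψ ^ d
      ∈ modularFunctionFieldFullC ↥(beta0Field A) (M * q)) :
    ∃ n₀ a b : ℤ, (mgvV hπ ιC hq hqM false).valuation
        (⟨rtk6n0Y ↥(beta0Field A) N H ψ ^ d, hmem⟩ :
          ↥(modularFunctionFieldFullC ↥(beta0Field A) (M * q)))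
      = (mgvV hπ ιC hq hqM false).valuation
        (algebraMap ↥(beta0Ring A (beta0Field A))
          ↥(modularFunctionFieldFullC ↥(beta0Field A) (M * q)) π) ^ n₀ ∧
      a * n₀ - b * d = 1 := by
  obtain ⟨n₀, hn₀, hcop⟩ := rtk6n0b_norm_zero_coprime hπ ιC hq hqM ψ hA hNL hqN hN3 hstar hψH
    hψ1 hd hψd hc₀ hord hmem
  obtain ⟨a, b, hab⟩ := rtk6n0b_bezout hcop
  exact ⟨n₀, a, b, hn₀, hab⟩

/-- **(N3′)** at `K₀ = ℚ̄^I`, `w` from piece B -/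
theorem rtk6n0b_norm_zero_dvd (hA : A.LiesOverPrime q) (hNL : N ∣ M * q) (hqN : q ∣ N)
    (hN3 : 3 ≤ N) (hstar : IsStarStable N q H)
    (hψH : ∀ h ∈ H, ψ h = 1) (hψ1 : ψ (-1) = 1) {d : ℕ} (hd : ¬ q ∣ d)
    (hψd : ∀ c, ψ c ^ d = 1) (hψr : ∀ c : (ZMod N)ˣ, IsAtR N q c → ψ c = 1)
    (hmem : rtk6n0Y ↥(beta0Field A) N H ψ ^ d
      ∈ modularFunctionFieldFullC ↥(beta0Field A) (M * q)) :
    ∃ n₀ : ℤ, (d : ℤ) ∣ n₀ ∧
      (mgvV hπ ιC hq hqM false).valuation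
        (⟨rtk6n0Y ↥(beta0Field A) N H ψ ^ d, hmem⟩ :
          ↥(modularFunctionFieldFullC ↥(beta0Field A) (M * q)))
      = (mgvV hπ ιC hq hqM false).valuation
        (algebraMap ↥(beta0Ring A (beta0Field A))
          ↥(modularFunctionFieldFullC ↥(beta0Field A) (M * q)) π) ^ n₀ := by
  obtain ⟨w, hw⟩ := rtk6n0b_exists_w (H := H) hq hqM hNL hqN hstar
  exact rtk6n0_norm_zero_dvd hπ ιC hq hqM ψ hA (rtk6n0_base_assoc hπ hq hA) hNL hqN hN3 hw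
    hψH hψ1 hd hψd hψr hmem

/-- **(N2)** for `u = y_ψ ^ d` at `K₀ = ℚ̄^I`, `w` from piece B -/
theorem rtk6n0b_zero_coprime (hA : A.LiesOverPrime q) (hNL : N ∣ M * q) (hqN : q ∣ N)
    (hN3 : 3 ≤ N) (hstar : IsStarStable N q H)
    (hψH : ∀ h ∈ H, ψ h = 1) (hψ1 : ψ (-1) = 1) {d : ℕ} (hd : ¬ q ∣ d)
    (hψd : ∀ c, ψ c ^ d = 1) {c₀ : (ZMod N)ˣ} (hc₀ : IsAtR N q c₀)
    (hord : orderOf (ψ c₀) = d)
    (hmem : rtk6d0Y ↥(beta0Field A) N H ⊤ ψ ^ d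
      ∈ modularFunctionFieldFullC ↥(beta0Field A) (M * q)) :
    ∃ n₀ : ℤ, (mgvV hπ ιC hq hqM false).valuation
        (⟨rtk6d0Y ↥(beta0Field A) N H ⊤ ψ ^ d, hmem⟩ :
          ↥(modularFunctionFieldFullC ↥(beta0Field A) (M * q)))
      = (mgvV hπ ιC hq hqM false).valuation
        (algebraMap ↥(beta0Ring A (beta0Field A))
          ↥(modularFunctionFieldFullC ↥(beta0Field A) (M * q)) π) ^ n₀ ∧
      Nat.Coprime n₀.natAbs d := by
  obtain ⟨w, hw⟩ := rtk6n0b_exists_w (H := H) hq hqM hNL hqN hstar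
  exact rtk6n0_zero_coprime hπ ιC hq hqM ψ hA (rtk6n0_base_assoc hπ hq hA) hNL hqN hN3 hw
    hψH hψ1 hd hψd hc₀ hord hmem

/-- **(N3)** for `u = y_ψ ^ d` at `K₀ = ℚ̄^I`, `w` from piece B -/
theorem rtk6n0b_zero_dvd (hA : A.LiesOverPrime q) (hNL : N ∣ M * q) (hqN : q ∣ N)
    (hN3 : 3 ≤ N) (hstar : IsStarStable N q H)
    (hψH : ∀ h ∈ H, ψ h = 1) (hψ1 : ψ (-1) = 1) {d : ℕ} (hd : ¬ q ∣ d)
    (hψd : ∀ c, ψ c ^ d = 1) (hψr : ∀ c : (ZMod N)ˣ, IsAtR N q c → ψ c = 1)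
    (hmem : rtk6d0Y ↥(beta0Field A) N H ⊤ ψ ^ d
      ∈ modularFunctionFieldFullC ↥(beta0Field A) (M * q)) :
    ∃ n₀ : ℤ, (d : ℤ) ∣ n₀ ∧
      (mgvV hπ ιC hq hqM false).valuation
        (⟨rtk6d0Y ↥(beta0Field A) N H ⊤ ψ ^ d, hmem⟩ :
          ↥(modularFunctionFieldFullC ↥(beta0Field A) (M * q)))
      = (mgvV hπ ιC hq hqM false).valuation
        (algebraMap ↥(beta0Ring A (beta0Field A))
          ↥(modularFunctionFieldFullC ↥(beta0Field A) (M * q)) π) ^ n₀ := by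
  obtain ⟨w, hw⟩ := rtk6n0b_exists_w (H := H) hq hqM hNL hqN hstar
  exact rtk6n0_zero_dvd hπ ιC hq hqM ψ hA (rtk6n0_base_assoc hπ hq hA) hNL hqN hN3 hw
    hψH hψ1 hd hψd hψr hmem

end Base

end Fermat.Agent.RT.K6

end


end ZBRT_083_3
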