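/- GENERATED FILE (helper35, build-time optimisation, NOTES/ZB.md): verbatim concatenation of the modules
   Fermat.Agent.RT.K6.C4ThrAbs
   Fermat.Agent.RT.K6.C4Thr
   Fermat.Agent.RT.K6.C4UInst
   Fermat.Agent.RT.K6.C4UKum
   Do not edit; do not import together with these modules. -/
import Mathlib
import Fermat.Agent.ZB.RT_032
import Fermat.Agent.ZB.UNIP_010
import Fermat.Agent.ZB.RT_075
import Fermat.Agent.ZB.RT_001
import Fermat.Agent.ZB.ES1_010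
import Fermat.Agent.ZB.RT_083

/-! ### bundled: `Fermat.Agent.RT.K6.C4ThrAbs` -/
section ZBRT_076_0
/-
K-machine, piece K6, piece **C4-THR** (helper66), abstract part (Mathlib only):
**a component over a point of the base chart has a conjugate through every point above it.**

`F` a field with an action of a finite group `G`, `R ⊆ B` subrings of `F`, `B` stable under `G`,
`B ^ G = R`  (so `B` is integral over `R` and `G` is transitive on the primes of `B` over a prime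
of `R`);  `W` a valuation subring of `F` containing `B`;  `𝔫` a prime of `B` such that the centre
of `W` on `R` lies in `𝔫 ∩ R`.  Then some conjugate `g⁻¹ W` passes through `𝔫`:
`∀ b ∈ B, g • b ∈ 𝔪(W) → b ∈ 𝔫`.

* `rtk6thr_abs` : the statement above (going-up + `Algebra.IsInvariant.exists_smul_of_under_eq`);
* `rtk6thr_of_decomp` : through-ness at a ramified chart `B = j R + ϖ B`: `W` passes through `𝔫`
  as soon as `𝔪(W) ∩ j R ⊆ 𝔫`.
-/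

set_option autoImplicit false
set_option linter.style.haveILetI false
set_option linter.unusedSectionVars false
set_option linter.unusedVariables false

namespace Fermat.Agent.RT.K6

open scoped Pointwise

section Abs

variable {F : Type*} [Field F] {G : Type*} [Group G] [MulSemiringAction G F]
  {A₀ : Type*} [CommRing A₀] [Algebra A₀ F]

/-- the action of `G` on a stable subalgebra -/
@[reducible] def rtk6thrAct (B : Subalgebra A₀ F) (hGB : ∀ (g : G), ∀ b ∈ B, g • b ∈ B) :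
    MulSemiringAction G ↥B where
  smul g b := ⟨g • (b : F), hGB g b b.2⟩
  one_smul b := Subtype.ext (one_smul G (b : F))
  mul_smul g h b := Subtype.ext (mul_smul g h (b : F))
  smul_zero g := Subtype.ext (smul_zero g)
  smul_add g a b := Subtype.ext (smul_add g (a : F) (b : F))
  smul_one g := Subtype.ext (smul_one g)
  smul_mul g a b := Subtype.ext (MulSemiringAction.smul_mul g (a : F) (b : F))

/-- **Some conjugate of `W` passes through `𝔫`.** -/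
theorem rtk6thr_abs [Finite G] (R : Subring F) (B : Subalgebra A₀ F) (hRB : ∀ x ∈ R, x ∈ B)
    (hGB : ∀ (g : G), ∀ b ∈ B, g • b ∈ B)
    (hGR : ∀ (g : G), ∀ x ∈ R, g • x = x)
    (hfix : ∀ b ∈ B, (∀ g : G, g • b = b) → b ∈ R)
    (W : ValuationSubring F) (hBW : ∀ b ∈ B, b ∈ W)
    (𝔫 : Ideal ↥B) [h𝔫 : 𝔫.IsPrime]
    (hthr : ∀ b : ↥B, (b : F) ∈ R → (b : F) ∈ W.nonunits → b ∈ 𝔫) :
    ∃ g : G, ∀ b : ↥B, g • (b : F) ∈ W.nonunits → b ∈ 𝔫 := by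
  classical
  letI : MulSemiringAction G ↥B := rtk6thrAct B hGB
  let jRB : ↥R →+* ↥B :=
    { toFun := fun x => ⟨(x : F), hRB x x.2⟩
      map_one' := rfl
      map_mul' := fun _ _ => rfl
      map_zero' := rfl
      map_add' := fun _ _ => rfl }
  letI : Algebra ↥R ↥B := jRB.toAlgebra
  have hsmul : ∀ (g : G) (b : ↥B), ((g • b : ↥B) : F) = g • (b : F) := fun _ _ => rfl
  have halg : ∀ x : ↥R, ((algebraMap ↥R ↥B x : ↥B) : F) = (x : F) := fun _ => rfl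
  haveI : SMulCommClass G ↥R ↥B := ⟨fun g x b => by
    apply Subtype.ext
    rw [hsmul, Algebra.smul_def, Algebra.smul_def]
    show g • ((x : F) * (b : F)) = (x : F) * g • (b : F)
    rw [MulSemiringAction.smul_mul, hGR g x x.2]⟩
  haveI : Algebra.IsInvariant ↥R ↥B G := ⟨fun b hb =>
    ⟨⟨(b : F), hfix b b.2 fun g => by rw [← hsmul, hb g]⟩, Subtype.ext rfl⟩⟩
  haveI : Algebra.IsIntegral ↥R ↥B := Algebra.IsInvariant.isIntegral ↥R ↥B G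
  -- the centre of `W` on `B`
  let f : ↥B →+* ↥W :=
    { toFun := fun b => ⟨(b : F), hBW b b.2⟩
      map_one' := rfl
      map_mul' := fun _ _ => rfl
      map_zero' := rfl
      map_add' := fun _ _ => rfl }
  let P : Ideal ↥B := (IsLocalRing.maximalIdeal ↥W).comap f
  haveI hP : P.IsPrime := Ideal.comap_isPrime f _
  have hPmem : ∀ b : ↥B, b ∈ P ↔ (b : F) ∈ W.nonunits := by
    intro b
    show f b ∈ IsLocalRing.maximalIdeal ↥W ↔ _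
    rw [IsLocalRing.mem_maximalIdeal, mem_nonunits_iff]
    constructor
    · intro h
      by_contra hcon
      have hval : W.valuation (b : F) = 1 := by
        have hle : W.valuation (b : F) ≤ 1 := (W.valuation_le_one_iff _).mpr (hBW b b.2)
        rcases lt_or_eq_of_le hle with hlt | heq
        · exact absurd ((ValuationSubring.mem_nonunits_iff W).mpr hlt) hcon
        · exact heq
      exact h ((W.valuation_eq_one_iff (f b)).mpr hval)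
    · intro h hu
      have hval : W.valuation ((f b : ↥W) : F) = 1 := (W.valuation_eq_one_iff (f b)).mp hu
      have hlt : W.valuation (b : F) < 1 := (ValuationSubring.mem_nonunits_iff W).mp h
      exact absurd hval hlt.ne
  -- the centre of `W` on `R` lies in `𝔫 ∩ R`
  have hle : P.comap (algebraMap ↥R ↥B) ≤ 𝔫.comap (algebraMap ↥R ↥B) := by
    intro x hx
    rw [Ideal.mem_comap] at hx ⊢
    exact hthr _ (by rw [halg]; exact x.2) ((hPmem _).mp hx)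
  -- going up
  obtain ⟨Q, hPQ, hQ, hQ𝔫⟩ :=
    Ideal.exists_ideal_over_prime_of_isIntegral_of_isPrime (𝔫.comap (algebraMap ↥R ↥B)) P hle
  -- transitivity
  haveI := hQ
  obtain ⟨g, hg⟩ := Algebra.IsInvariant.exists_smul_of_under_eq ↥R ↥B G Q 𝔫 hQ𝔫
  refine ⟨g⁻¹, fun b hb => ?_⟩
  rw [hg, Ideal.mem_pointwise_smul_iff_inv_smul_mem]
  apply hPQ
  rw [hPmem, hsmul]
  exact hb

end Abs

section Ramified

variable {F : Type*} [Field F] {R B : Type*} [CommRing R] [CommRing B]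

/-- **Through-ness at a ramified chart.**  If `B = j R + ϖ B` (`MgcRamified.decomp`), `ϖ ∈ 𝔫` and
`ϖ ∈ 𝔪(W)`, then `W` passes through `𝔫` as soon as `𝔪(W) ∩ j R ⊆ 𝔫`. -/
theorem rtk6thr_of_decomp (ι : B →+* F) (j : R →+* B) (ϖ : B)
    (hdec : ∀ x : B, ∃ c : R, ∃ z : B, x = j c + ϖ * z)
    (W : ValuationSubring F) (hBW : ∀ b, ι b ∈ W) (hϖW : ι ϖ ∈ W.nonunits)
    (𝔫 : Ideal B) (hϖ𝔫 : ϖ ∈ 𝔫)
    (h : ∀ x : R, ι (j x) ∈ W.nonunits → j x ∈ 𝔫) :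
    ∀ b : B, ι b ∈ W.nonunits → b ∈ 𝔫 := by
  intro b hb
  obtain ⟨c, z, rfl⟩ := hdec b
  have hϖz : ι (ϖ * z) ∈ W.nonunits := by
    rw [map_mul, ValuationSubring.mem_nonunits_iff, map_mul]
    have h1 : W.valuation (ι ϖ) < 1 := (ValuationSubring.mem_nonunits_iff W).mp hϖW
    have h2 : W.valuation (ι z) ≤ 1 := (W.valuation_le_one_iff _).mpr (hBW z)
    exact lt_of_le_of_lt (mul_le_of_le_one_right' h2) h1
  have hjc : ι (j c) ∈ W.nonunits := by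
    have e : ι (j c) = ι (j c + ϖ * z) - ι (ϖ * z) := by rw [map_add]; ring
    rw [e, ValuationSubring.mem_nonunits_iff]
    exact lt_of_le_of_lt (W.valuation.map_sub _ _)
      (max_lt ((ValuationSubring.mem_nonunits_iff W).mp hb)
        ((ValuationSubring.mem_nonunits_iff W).mp hϖz))
  exact 𝔫.add_mem (h c hjc) (𝔫.mul_mem_right z hϖ𝔫)

end Ramified

end Fermat.Agent.RT.K6


end ZBRT_076_0

/-! ### bundled: `Fermat.Agent.RT.K6.C4Thr` -/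
section ZBRT_076_1
/-
K-machine, piece K6, piece **C4-THR** (helper66): THE COMPONENTS THROUGH A CLOSED POINT.

Setting of `DIFamMg.lean` (helper82): `A′ = mgcA A K₁` a DVR with uniformizer `π`,
`E′ = mgcE A K₁`, `F′ = rtk6diF A K₁ (M₁ q) M H`, `F₀′ = mgcF A K₁ (M₁ q)` the `Γ₀(M₁ q)`-field,
`incl = rtk6diIncl : F₀′ → F′`, `κ = rtk6dfK`, `V = rtk6dfV` the family of all conjugates of
`V_∞`, `V_0` under `Γ = Gal(F′ / F₀′)`.  `u₀ ∈ F₀′`, `u = incl u₀`, `B = zchClosure {u}` the chart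
of `F′`, `R₀ = zchClosure {u₀}` the chart of the `Γ₀`-field, `𝔫 : AtPt π u` a closed point of `B`.

* `rtk6thr_isIntegral_of_incl` : `incl x` integral over `A′[incl u₀]` ⇒ `x` integral over `A′[u₀]`;
* `rtk6thrJ u₀ : R₀ →+* B` the chart map (`rtk6thrJ_coe`), `rtk6thrPt 𝔫 : AtPt π u₀` the closed
  point `𝔫 ∩ R₀` of the `Γ₀`-chart;
* **`rtk6thr_main`** : if `UNIP.mgvV b` passes through `𝔫 ∩ R₀` (elementwise form), then there
  is `c : κ` with `(V c).comap incl = mgvV b` and `atThrough 𝔫 (V c)`;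
* `rtk6thr_of_atThrough`, `rtk6thr_J`, `rtk6thr_Jinv` : the same with `atThrough (𝔫 ∩ R₀) (mgvV b)`,
  for the charts `u₀`, `j`, `1 / j`;
* `rtk6thr_cross` : both components at a crossing point;
* `rtk6thr_comap_atThrough`, `rtk6thr_side` : conversely, `V c` through `𝔫` ⇒ `(V c) ∩ F₀′`
  (`= mgvV b` for some `b`) through `𝔫 ∩ R₀`;
* `rtk6thr_atThrough_of_ramified` (abstract charts): through-ness at a ramified chart
  `B_u = j R + π B_u` follows from `𝔪(W) ∩ j R ⊆ 𝔫` (level change `A₀ → A′`).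
-/

set_option autoImplicit false
set_option linter.style.haveILetI false
set_option linter.unusedSectionVars false
set_option linter.unusedVariables false

noncomputable section

namespace Fermat.Agent.RT.K6

open ModularCurve AlgebraicCurve Fermat.Agent.ES Fermat.Agent.ES.G2 Fermat.Agent.INJ
open Fermat.Agent.UNIP Fermat.Agent.ES1 Fermat.Agent.ES1.G2 Fermat.Agent.AL IntermediateField
open Polynomial

/-! ### Transfer along the inclusion, converse direction -/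

section Transfer

variable {K : Type*} [Field K] {A' : ValuationSubring K} {L M : ℕ} {H : Subgroup (ZMod M)ˣ}

theorem rtk6thr_inclAdj_surjective (u₀ : ↥(modularFunctionFieldFullC K L)) :
    Function.Surjective (rtk6dvInclAdj A' L M H u₀) := by
  rintro ⟨s, hs⟩
  obtain ⟨s₀, hs₀, rfl⟩ := rtk6dv_exists_of_mem_adjoin hs
  exact ⟨⟨s₀, hs₀⟩, Subtype.ext rfl⟩

/-- integrality over the chart ring is reflected by the inclusion -/
theorem rtk6thr_isIntegral_of_incl {u₀ b₀ : ↥(modularFunctionFieldFullC K L)}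
    (hb : IsIntegral ↥(Algebra.adjoin ↥A' ({rtk6diIncl L M H u₀} : Set ↥(fieldC K L M H)))
      (rtk6diIncl L M H b₀)) :
    IsIntegral ↥(Algebra.adjoin ↥A' ({u₀} : Set ↥(modularFunctionFieldFullC K L))) b₀ := by
  obtain ⟨P, hPm, hP⟩ := hb
  obtain ⟨P₁, hP₁⟩ := Polynomial.map_surjective _ (rtk6thr_inclAdj_surjective (A' := A')
    (M := M) (H := H) u₀) P
  obtain ⟨P₀, hP₀, -, hP₀m⟩ := Polynomial.lifts_and_degree_eq_and_monic
    ((Polynomial.mem_lifts P).mpr ⟨P₁, hP₁⟩) hPm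
  refine ⟨P₀, hP₀m, ?_⟩
  apply rtk6diIncl_injective (K := K) L M H
  rw [map_zero, Polynomial.hom_eval₂]
  have e : (rtk6diIncl L M H).comp
      (algebraMap ↥(Algebra.adjoin ↥A' ({u₀} : Set ↥(modularFunctionFieldFullC K L)))
        ↥(modularFunctionFieldFullC K L)) =
      (algebraMap ↥(Algebra.adjoin ↥A' ({rtk6diIncl L M H u₀} : Set ↥(fieldC K L M H)))
        ↥(fieldC K L M H)).comp (rtk6dvInclAdj A' L M H u₀) := RingHom.ext fun _ => rfl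
  rw [e, ← Polynomial.eval₂_map, hP₀]
  exact hP

end Transfer

/-! ### Through-ness at a ramified chart -/

section Ramified

variable {A₀ E F : Type*} [CommRing A₀] [IsDomain A₀] [IsDiscreteValuationRing A₀]
  [Field E] [Algebra A₀ E] [IsFractionRing A₀ E] [CharZero E]
  [Field F] [Algebra E F] [Algebra A₀ F] [IsScalarTower A₀ E F]
  {π : A₀}

/-- **Through-ness at a ramified chart**: if `j : R →+* B_u` is `MgcRamified` (`B_u = j R + π B_u`)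
and `𝔪(W) ∩ j R ⊆ 𝔫` (the first two fields of `Rtk6ewmCrossAt`), then `W` passes through `𝔫`. -/
theorem rtk6thr_atThrough_of_ramified {u : F} (𝔫 : AtPt (F := F) π u)
    {R : Type*} [CommRing R] (j : R →+* ↥(zchClosure (A₀ := A₀) ({u} : Set F))) {p : R}
    (hram : MgcRamified j (algebraMap A₀ ↥(zchClosure (A₀ := A₀) ({u} : Set F)) π) p)
    (W : ValuationSubring F)
    (hBW : ∀ b : F, IsIntegral ↥(Algebra.adjoin A₀ ({u} : Set F)) b → b ∈ W)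
    (hπW : algebraMap A₀ F π ∈ W.nonunits)
    (h : ∀ x : R, ((j x : ↥(zchClosure (A₀ := A₀) ({u} : Set F))) : F) ∈ W.nonunits →
      j x ∈ 𝔫.1) :
    atThrough 𝔫 W :=
  rtk6thr_of_decomp (zchClosure (A₀ := A₀) ({u} : Set F)).val.toRingHom j
    (algebraMap A₀ ↥(zchClosure (A₀ := A₀) ({u} : Set F)) π) hram.decomp W
    (fun b => hBW _ (mem_zchClosure.mp b.2)) hπW 𝔫.1 𝔫.2.2 h

end Ramified

/-! ### The chart map `R₀ →+* B` and the point `𝔫 ∩ R₀` -/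

section ChartMap

variable {A : ValuationSubring Qb} {K₁ : IntermediateField ℚ Qb}
  [IsDiscreteValuationRing ↥(mgcA A K₁)] {π : ↥(mgcA A K₁)}
  {L : ℕ} (M : ℕ) (H : Subgroup (ZMod M)ˣ)

/-- **the chart map** `R₀ = zchClosure {u₀} →+* B = zchClosure {u}`, `u = incl u₀` -/
def rtk6thrJ (u₀ : ↥(mgcF A K₁ L)) {u : ↥(rtk6diF A K₁ L M H)}
    (hu : rtk6diIncl L M H u₀ = u) :
    ↥(zchClosure (A₀ := ↥(mgcA A K₁)) ({u₀} : Set ↥(mgcF A K₁ L))) →+*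
      ↥(zchClosure (A₀ := ↥(mgcA A K₁)) ({u} : Set ↥(rtk6diF A K₁ L M H))) :=
  RingHom.codRestrict ((rtk6diIncl (K := ↥(mgcE A K₁)) L M H).comp
      (zchClosure (A₀ := ↥(mgcA A K₁)) ({u₀} : Set ↥(mgcF A K₁ L))).val.toRingHom)
    (zchClosure (A₀ := ↥(mgcA A K₁)) ({u} : Set ↥(rtk6diF A K₁ L M H)))
    (fun x => by
      subst hu
      exact mem_zchClosure.mpr (rtk6dv_isIntegral_incl (mem_zchClosure.mp x.2)))

@[simp]
theorem rtk6thrJ_coe (u₀ : ↥(mgcF A K₁ L)) {u : ↥(rtk6diF A K₁ L M H)}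
    (hu : rtk6diIncl L M H u₀ = u)
    (x : ↥(zchClosure (A₀ := ↥(mgcA A K₁)) ({u₀} : Set ↥(mgcF A K₁ L)))) :
    ((rtk6thrJ M H u₀ hu x : ↥(zchClosure (A₀ := ↥(mgcA A K₁))
      ({u} : Set ↥(rtk6diF A K₁ L M H)))) : ↥(rtk6diF A K₁ L M H)) =
      rtk6diIncl L M H (x : ↥(mgcF A K₁ L)) := rfl

theorem rtk6thrJ_injective (u₀ : ↥(mgcF A K₁ L)) {u : ↥(rtk6diF A K₁ L M H)}
    (hu : rtk6diIncl L M H u₀ = u) : Function.Injective (rtk6thrJ M H u₀ hu) := by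
  intro x y hxy
  apply Subtype.ext
  apply rtk6diIncl_injective (K := ↥(mgcE A K₁)) L M H
  rw [← rtk6thrJ_coe M H u₀ hu x, ← rtk6thrJ_coe M H u₀ hu y, hxy]

theorem rtk6thrJ_algebraMap (u₀ : ↥(mgcF A K₁ L)) {u : ↥(rtk6diF A K₁ L M H)}
    (hu : rtk6diIncl L M H u₀ = u) (a : ↥(mgcA A K₁)) :
    rtk6thrJ M H u₀ hu (algebraMap ↥(mgcA A K₁)
      ↥(zchClosure (A₀ := ↥(mgcA A K₁)) ({u₀} : Set ↥(mgcF A K₁ L))) a) =
    algebraMap ↥(mgcA A K₁)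
      ↥(zchClosure (A₀ := ↥(mgcA A K₁)) ({u} : Set ↥(rtk6diF A K₁ L M H))) a :=
  Subtype.ext (rtk6dv_incl_algebraMapA (mgcA A K₁) L M H a)

/-- an element of `B` lying in the image of the `Γ₀`-field comes from `R₀` -/
theorem rtk6thrJ_exists_of_incl (u₀ : ↥(mgcF A K₁ L)) {u : ↥(rtk6diF A K₁ L M H)}
    (hu : rtk6diIncl L M H u₀ = u)
    (y : ↥(zchClosure (A₀ := ↥(mgcA A K₁)) ({u} : Set ↥(rtk6diF A K₁ L M H))))
    (x : ↥(mgcF A K₁ L)) (hxy : rtk6diIncl L M H x = (y : ↥(rtk6diF A K₁ L M H))) :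
    ∃ x' : ↥(zchClosure (A₀ := ↥(mgcA A K₁)) ({u₀} : Set ↥(mgcF A K₁ L))),
      (x' : ↥(mgcF A K₁ L)) = x ∧ rtk6thrJ M H u₀ hu x' = y := by
  subst hu
  have hint : IsIntegral ↥(Algebra.adjoin ↥(mgcA A K₁) ({u₀} : Set ↥(mgcF A K₁ L))) x :=
    rtk6thr_isIntegral_of_incl (A' := mgcA A K₁) (M := M) (H := H)
      (by rw [hxy]; exact mem_zchClosure.mp y.2)
  exact ⟨⟨x, mem_zchClosure.mpr hint⟩, rfl, Subtype.ext hxy⟩

/-- **`B` is integral over `R₀`** -/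
theorem rtk6thrJ_isIntegral (u₀ : ↥(mgcF A K₁ L)) {u : ↥(rtk6diF A K₁ L M H)}
    (hu : rtk6diIncl L M H u₀ = u) : (rtk6thrJ M H u₀ hu).IsIntegral := by
  subst hu
  intro y
  obtain ⟨P, hPm, hP⟩ := mem_zchClosure.mp y.2
  obtain ⟨P₁, hP₁⟩ := Polynomial.map_surjective _ (rtk6thr_inclAdj_surjective
    (A' := mgcA A K₁) (M := M) (H := H) u₀) P
  obtain ⟨P₀, hP₀, -, hP₀m⟩ := Polynomial.lifts_and_degree_eq_and_monic
    ((Polynomial.mem_lifts P).mpr ⟨P₁, hP₁⟩) hPm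
  -- the inclusion `A′[u₀] → R₀`
  let i : ↥(Algebra.adjoin ↥(mgcA A K₁) ({u₀} : Set ↥(mgcF A K₁ L))) →+*
      ↥(zchClosure (A₀ := ↥(mgcA A K₁)) ({u₀} : Set ↥(mgcF A K₁ L))) :=
    { toFun := fun s => ⟨(s : ↥(mgcF A K₁ L)), mem_zchClosure.mpr isIntegral_algebraMap⟩
      map_one' := rfl
      map_mul' := fun _ _ => rfl
      map_zero' := rfl
      map_add' := fun _ _ => rfl }
  refine ⟨P₀.map i, hP₀m.map i, ?_⟩
  apply Subtype.ext
  have e1 : ((Polynomial.eval₂ (rtk6thrJ M H u₀ rfl) y (P₀.map i) :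
      ↥(zchClosure (A₀ := ↥(mgcA A K₁))
        ({rtk6diIncl L M H u₀} : Set ↥(rtk6diF A K₁ L M H)))) : ↥(rtk6diF A K₁ L M H)) =
      Polynomial.eval₂ ((zchClosure (A₀ := ↥(mgcA A K₁))
        ({rtk6diIncl L M H u₀} : Set ↥(rtk6diF A K₁ L M H))).val.toRingHom.comp
          (rtk6thrJ M H u₀ rfl)) (y : ↥(rtk6diF A K₁ L M H)) (P₀.map i) :=
    Polynomial.hom_eval₂ (P₀.map i) (rtk6thrJ M H u₀ rfl)
      (zchClosure (A₀ := ↥(mgcA A K₁))
        ({rtk6diIncl L M H u₀} : Set ↥(rtk6diF A K₁ L M H))).val.toRingHom y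
  rw [e1, Polynomial.eval₂_map]
  have e2 : ((zchClosure (A₀ := ↥(mgcA A K₁))
        ({rtk6diIncl L M H u₀} : Set ↥(rtk6diF A K₁ L M H))).val.toRingHom.comp
          (rtk6thrJ M H u₀ rfl)).comp i =
      (algebraMap ↥(Algebra.adjoin ↥(mgcA A K₁)
        ({rtk6diIncl L M H u₀} : Set ↥(rtk6diF A K₁ L M H))) ↥(rtk6diF A K₁ L M H)).comp
        (rtk6dvInclAdj (mgcA A K₁) L M H u₀) := RingHom.ext fun _ => rfl
  rw [e2, ← Polynomial.eval₂_map, hP₀]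
  exact hP

/-- **the closed point `𝔫 ∩ R₀` of the `Γ₀`-chart** -/
def rtk6thrPt (u₀ : ↥(mgcF A K₁ L)) {u : ↥(rtk6diF A K₁ L M H)}
    (hu : rtk6diIncl L M H u₀ = u) (𝔫 : AtPt (F := ↥(rtk6diF A K₁ L M H)) π u) :
    AtPt (F := ↥(mgcF A K₁ L)) π u₀ :=
  ⟨𝔫.1.comap (rtk6thrJ M H u₀ hu),
    haveI := 𝔫.2.1
    Ideal.isMaximal_comap_of_isIntegral_of_isMaximal' (rtk6thrJ M H u₀ hu)
      (rtk6thrJ_isIntegral M H u₀ hu) 𝔫.1,
    by
      rw [Ideal.mem_comap, rtk6thrJ_algebraMap]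
      exact 𝔫.2.2⟩

theorem mem_rtk6thrPt (u₀ : ↥(mgcF A K₁ L)) {u : ↥(rtk6diF A K₁ L M H)}
    (hu : rtk6diIncl L M H u₀ = u) (𝔫 : AtPt (F := ↥(rtk6diF A K₁ L M H)) π u)
    (x : ↥(zchClosure (A₀ := ↥(mgcA A K₁)) ({u₀} : Set ↥(mgcF A K₁ L)))) :
    x ∈ (rtk6thrPt M H u₀ hu 𝔫).1 ↔ rtk6thrJ M H u₀ hu x ∈ 𝔫.1 :=
  Ideal.mem_comap (f := rtk6thrJ M H u₀ hu) (K := 𝔫.1) (x := x)

/-- **`W` through `𝔫` ⇒ `W ∩ F₀′` through `𝔫 ∩ R₀`** -/
theorem rtk6thr_comap_atThrough (u₀ : ↥(mgcF A K₁ L)) {u : ↥(rtk6diF A K₁ L M H)}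
    (hu : rtk6diIncl L M H u₀ = u) (𝔫 : AtPt (F := ↥(rtk6diF A K₁ L M H)) π u)
    (W : ValuationSubring ↥(rtk6diF A K₁ L M H)) (h : atThrough 𝔫 W) :
    atThrough (rtk6thrPt M H u₀ hu 𝔫) (W.comap (rtk6diIncl L M H)) := by
  intro x hx
  rw [mem_rtk6thrPt]
  refine h _ ?_
  rw [rtk6thrJ_coe]
  exact (vt_mem_nonunits_comap W _ _).mp hx

end ChartMap

section Concrete

variable {A : ValuationSubring Qb} {K₁ : IntermediateField ℚ Qb}
  [IsDiscreteValuationRing ↥(mgcA A K₁)] {π : ↥(mgcA A K₁)} (hπ : Irreducible π)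
  (ιC : ↥(mgcE A K₁) →+* ℂ) {q M₁ : ℕ} [NeZero q] [NeZero M₁] [NeZero (M₁ * q)]
  (hq : q.Prime) (hqM : ¬ q ∣ M₁) (M : ℕ) (H : Subgroup (ZMod M)ˣ)
  (w : ↥(rtk6diF A K₁ (M₁ * q) M H) ≃ₐ[↥(mgcE A K₁)] ↥(rtk6diF A K₁ (M₁ * q) M H))

/-- **C4-THR, elementwise form.**  If `mgvV b` passes through `𝔫 ∩ R₀`, then some member `V c` of
the family with `(V c) ∩ F₀′ = mgvV b` passes through `𝔫`. -/
theorem rtk6thr_main (hw : Rtk6dvWIncl ιC hq hqM M H w) (hML : M ∣ M₁ * q)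
    (u₀ : ↥(mgcF A K₁ (M₁ * q))) {u : ↥(rtk6diF A K₁ (M₁ * q) M H)}
    (hu : rtk6diIncl (M₁ * q) M H u₀ = u)
    (b : Bool) (hu₀ : u₀ ∈ mgvV hπ ιC hq hqM b)
    (𝔫 : AtPt (F := ↥(rtk6diF A K₁ (M₁ * q) M H)) π u)
    (hthr : ∀ (y : ↥(zchClosure (A₀ := ↥(mgcA A K₁))
        ({u} : Set ↥(rtk6diF A K₁ (M₁ * q) M H)))) (x : ↥(mgcF A K₁ (M₁ * q))),
      rtk6diIncl (M₁ * q) M H x = (y : ↥(rtk6diF A K₁ (M₁ * q) M H)) →
      x ∈ (mgvV hπ ιC hq hqM b).nonunits → y ∈ 𝔫.1) :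
    ∃ c : rtk6dfK hπ M H w,
      (rtk6dfV hπ M H w c).comap (rtk6diIncl (M₁ * q) M H) = mgvV hπ ιC hq hqM b ∧
      atThrough 𝔫 (rtk6dfV hπ M H w c) := by
  subst hu
  haveI : Algebra.IsAlgebraic ℚ Qb := AlgebraicClosure.isAlgebraic ℚ
  haveI : Algebra.IsAlgebraic ℚ ↥(mgcE A K₁) :=
    Algebra.IsAlgebraic.of_injective (mgcE A K₁).val Subtype.val_injective
  haveI : NeZero M := ⟨fun h0 => NeZero.ne (M₁ * q) (Nat.eq_zero_of_zero_dvd (h0 ▸ hML))⟩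
  haveI : Finite ↥(rtk6dfGam ↥(mgcE A K₁) (M₁ * q) M H) :=
    rtk6df_finite (K := ↥(mgcE A K₁)) (H := H) (NeZero.ne (M₁ * q)) hML
  haveI := 𝔫.2.1.isPrime
  -- the image of the `Γ₀`-field inside the chart
  let R : Subring ↥(rtk6diF A K₁ (M₁ * q) M H) :=
    (zchClosure (A₀ := ↥(mgcA A K₁))
      ({rtk6diIncl (M₁ * q) M H u₀} : Set ↥(rtk6diF A K₁ (M₁ * q) M H))).toSubring ⊓
    (rtk6diIncl (K := ↥(mgcE A K₁)) (M₁ * q) M H).range
  have hgfix : ∀ (g : ↥(rtk6dfGam ↥(mgcE A K₁) (M₁ * q) M H))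
      (s : ↥(rtk6diF A K₁ (M₁ * q) M H)),
      s ∈ Algebra.adjoin ↥(mgcA A K₁)
        ({rtk6diIncl (M₁ * q) M H u₀} : Set ↥(rtk6diF A K₁ (M₁ * q) M H)) →
      (g : ↥(rtk6diF A K₁ (M₁ * q) M H) ≃ₐ[↥(mgcE A K₁)] _) s = s :=
    fun g s hs => rtk6df_gam_adjoin (mgcA A K₁) g.2 hs
  obtain ⟨g, hg⟩ := rtk6thr_abs (G := ↥(rtk6dfGam ↥(mgcE A K₁) (M₁ * q) M H)) R
    (zchClosure (A₀ := ↥(mgcA A K₁))
      ({rtk6diIncl (M₁ * q) M H u₀} : Set ↥(rtk6diF A K₁ (M₁ * q) M H)))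
    (fun x hx => hx.1)
    (fun g y hy => by
      have h := IsIntegral.map_of_comp_eq
        (RingHom.id ↥(Algebra.adjoin ↥(mgcA A K₁)
          ({rtk6diIncl (M₁ * q) M H u₀} : Set ↥(rtk6diF A K₁ (M₁ * q) M H))))
        (g.1.toRingEquiv.toRingHom)
        (RingHom.ext fun s => (hgfix g _ s.2).symm) (mem_zchClosure.mp hy)
      exact mem_zchClosure.mpr h)
    (fun g x hx => by
      obtain ⟨x₀, rfl⟩ := hx.2
      exact g.2 x₀)
    (fun y hy hfix => by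
      refine ⟨hy, ?_⟩
      have h := rtk6d0_mem_full_of_fixed ↥(mgcE A K₁) H (NeZero.ne (M₁ * q)) hML y
        (fun c σ hσ => hfix ⟨σ, hσ.mem_gam⟩)
      exact ⟨⟨_, h⟩, Subtype.ext rfl⟩)
    (rtk6dvV hπ M H w b)
    (fun y hy => rtk6df_mem_of_isIntegral (rtk6dvV hπ M H w b)
      (fun a => rtk6dvFam_const_mem (vtBase_residue hπ) (M₁ * q) M H w b a) _
      (by
        rintro s rfl
        exact (rtk6dv_incl_mem_iff hπ ιC hq hqM M H w hw b u₀).mpr hu₀)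
      (mem_zchClosure.mp hy))
    𝔫.1
    (fun y hyR hyW => by
      obtain ⟨x₀, hx₀⟩ := hyR.2
      refine hthr y x₀ hx₀ ?_
      rw [← rtk6dv_incl_mem_nonunits_iff hπ ιC hq hqM M H w hw b x₀]
      show rtk6diIncl (M₁ * q) M H x₀ ∈ _
      rw [hx₀]
      exact hyW)
  refine ⟨rtk6dfComap (rtk6dvV hπ M H w) g.1 g.2 (rtk6dfBase (rtk6dvV hπ M H w) b),
    rtk6dfc_comap_incl hπ ιC hq hqM M H w g.1 g.2 b hw, fun y hy => hg y ?_⟩
  exact mem_nonunits_rtk6dfCo.mp hy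

/-- **C4-THR.**  `𝔫₀` a closed point of the `Γ₀`-chart containing `𝔫 ∩ R₀`: if `mgvV b` passes
through `𝔫₀`, then some `V c` with `(V c) ∩ F₀′ = mgvV b` passes through `𝔫`. -/
theorem rtk6thr_of_atThrough (hw : Rtk6dvWIncl ιC hq hqM M H w) (hML : M ∣ M₁ * q)
    (u₀ : ↥(mgcF A K₁ (M₁ * q))) {u : ↥(rtk6diF A K₁ (M₁ * q) M H)}
    (hu : rtk6diIncl (M₁ * q) M H u₀ = u)
    (b : Bool) (hu₀ : u₀ ∈ mgvV hπ ιC hq hqM b)
    (𝔫 : AtPt (F := ↥(rtk6diF A K₁ (M₁ * q) M H)) π u)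
    (𝔫₀ : AtPt (F := ↥(mgcF A K₁ (M₁ * q))) π u₀)
    (h𝔫₀ : ∀ x, x ∈ 𝔫₀.1 → rtk6thrJ M H u₀ hu x ∈ 𝔫.1)
    (hthr : atThrough 𝔫₀ (mgvV hπ ιC hq hqM b)) :
    ∃ c : rtk6dfK hπ M H w,
      (rtk6dfV hπ M H w c).comap (rtk6diIncl (M₁ * q) M H) = mgvV hπ ιC hq hqM b ∧
      atThrough 𝔫 (rtk6dfV hπ M H w c) := by
  refine rtk6thr_main hπ ιC hq hqM M H w hw hML u₀ hu b hu₀ 𝔫 fun y x hxy hx => ?_
  obtain ⟨x', hx', hJ⟩ := rtk6thrJ_exists_of_incl M H u₀ hu y x hxy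
  rw [← hJ]
  exact h𝔫₀ x' (hthr x' (by rw [hx']; exact hx))

/-- **C4-THR at `𝔫 ∩ R₀`.** -/
theorem rtk6thr_of_atThrough_pt (hw : Rtk6dvWIncl ιC hq hqM M H w) (hML : M ∣ M₁ * q)
    (u₀ : ↥(mgcF A K₁ (M₁ * q))) {u : ↥(rtk6diF A K₁ (M₁ * q) M H)}
    (hu : rtk6diIncl (M₁ * q) M H u₀ = u)
    (b : Bool) (hu₀ : u₀ ∈ mgvV hπ ιC hq hqM b)
    (𝔫 : AtPt (F := ↥(rtk6diF A K₁ (M₁ * q) M H)) π u)
    (hthr : atThrough (rtk6thrPt M H u₀ hu 𝔫) (mgvV hπ ιC hq hqM b)) :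
    ∃ c : rtk6dfK hπ M H w,
      (rtk6dfV hπ M H w c).comap (rtk6diIncl (M₁ * q) M H) = mgvV hπ ιC hq hqM b ∧
      atThrough 𝔫 (rtk6dfV hπ M H w c) :=
  rtk6thr_of_atThrough hπ ιC hq hqM M H w hw hML u₀ hu b hu₀ 𝔫 (rtk6thrPt M H u₀ hu 𝔫)
    (fun x hx => (mem_rtk6thrPt M H u₀ hu 𝔫 x).mp hx) hthr

/-- **C4-THR on the chart `j`.** -/
theorem rtk6thr_J (hw : Rtk6dvWIncl ιC hq hqM M H w) (hML : M ∣ M₁ * q) (b : Bool)
    (𝔫 : AtPt (F := ↥(rtk6diF A K₁ (M₁ * q) M H)) π (rtk6diT A K₁ (M₁ * q) M H))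
    (𝔫₀ : AtPt (F := ↥(mgcF A K₁ (M₁ * q))) π (mgcT A K₁ (M₁ * q)))
    (h𝔫₀ : ∀ x, x ∈ 𝔫₀.1 → rtk6thrJ M H (mgcT A K₁ (M₁ * q)) rfl x ∈ 𝔫.1)
    (hthr : atThrough 𝔫₀ (mgvV hπ ιC hq hqM b)) :
    ∃ c : rtk6dfK hπ M H w,
      (rtk6dfV hπ M H w c).comap (rtk6diIncl (M₁ * q) M H) = mgvV hπ ιC hq hqM b ∧
      atThrough 𝔫 (rtk6dfV hπ M H w c) :=
  rtk6thr_of_atThrough hπ ιC hq hqM M H w hw hML (mgcT A K₁ (M₁ * q)) rfl b
    (mgv_T_mem hπ ιC hq hqM b) 𝔫 𝔫₀ h𝔫₀ hthr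

/-- `incl (1 / j) = 1 / j` -/
theorem rtk6thr_incl_inv :
    rtk6diIncl (M₁ * q) M H (mgcT A K₁ (M₁ * q))⁻¹ = (rtk6diT A K₁ (M₁ * q) M H)⁻¹ :=
  map_inv₀ _ _

/-- **C4-THR on the chart `1 / j`.** -/
theorem rtk6thr_Jinv (hw : Rtk6dvWIncl ιC hq hqM M H w) (hML : M ∣ M₁ * q) (b : Bool)
    (𝔫 : AtPt (F := ↥(rtk6diF A K₁ (M₁ * q) M H)) π (rtk6diT A K₁ (M₁ * q) M H)⁻¹)
    (𝔫₀ : AtPt (F := ↥(mgcF A K₁ (M₁ * q))) π (mgcT A K₁ (M₁ * q))⁻¹)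
    (h𝔫₀ : ∀ x, x ∈ 𝔫₀.1 →
      rtk6thrJ M H (mgcT A K₁ (M₁ * q))⁻¹ (rtk6thr_incl_inv M H) x ∈ 𝔫.1)
    (hthr : atThrough 𝔫₀ (mgvV hπ ιC hq hqM b)) :
    ∃ c : rtk6dfK hπ M H w,
      (rtk6dfV hπ M H w c).comap (rtk6diIncl (M₁ * q) M H) = mgvV hπ ιC hq hqM b ∧
      atThrough 𝔫 (rtk6dfV hπ M H w c) :=
  rtk6thr_of_atThrough hπ ιC hq hqM M H w hw hML (mgcT A K₁ (M₁ * q))⁻¹
    (rtk6thr_incl_inv M H) b (mgv_T_inv_mem hπ ιC hq hqM b) 𝔫 𝔫₀ h𝔫₀ hthr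

/-- **C4-THR at a crossing point**: both components. -/
theorem rtk6thr_cross (hw : Rtk6dvWIncl ιC hq hqM M H w) (hML : M ∣ M₁ * q)
    (u₀ : ↥(mgcF A K₁ (M₁ * q))) {u : ↥(rtk6diF A K₁ (M₁ * q) M H)}
    (hu : rtk6diIncl (M₁ * q) M H u₀ = u)
    (hu₀ : ∀ b, u₀ ∈ mgvV hπ ιC hq hqM b)
    (𝔫 : AtPt (F := ↥(rtk6diF A K₁ (M₁ * q) M H)) π u)
    (𝔫₀ : AtPt (F := ↥(mgcF A K₁ (M₁ * q))) π u₀)
    (h𝔫₀ : ∀ x, x ∈ 𝔫₀.1 → rtk6thrJ M H u₀ hu x ∈ 𝔫.1)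
    (h₁ : atThrough 𝔫₀ (mgvV hπ ιC hq hqM true))
    (h₂ : atThrough 𝔫₀ (mgvV hπ ιC hq hqM false)) :
    ∃ c₁ c₂ : rtk6dfK hπ M H w,
      (rtk6dfV hπ M H w c₁).comap (rtk6diIncl (M₁ * q) M H) = mgvV hπ ιC hq hqM true ∧
      (rtk6dfV hπ M H w c₂).comap (rtk6diIncl (M₁ * q) M H) = mgvV hπ ιC hq hqM false ∧
      atThrough 𝔫 (rtk6dfV hπ M H w c₁) ∧ atThrough 𝔫 (rtk6dfV hπ M H w c₂) := by
  obtain ⟨c₁, hc₁, ht₁⟩ := rtk6thr_of_atThrough hπ ιC hq hqM M H w hw hML u₀ hu true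
    (hu₀ true) 𝔫 𝔫₀ h𝔫₀ h₁
  obtain ⟨c₂, hc₂, ht₂⟩ := rtk6thr_of_atThrough hπ ιC hq hqM M H w hw hML u₀ hu false
    (hu₀ false) 𝔫 𝔫₀ h𝔫₀ h₂
  exact ⟨c₁, c₂, hc₁, hc₂, ht₁, ht₂⟩

/-- **the side of a component through `𝔫`**: `(V c) ∩ F₀′ = mgvV b` passes through `𝔫 ∩ R₀`. -/
theorem rtk6thr_side (hw : Rtk6dvWIncl ιC hq hqM M H w)
    (u₀ : ↥(mgcF A K₁ (M₁ * q))) {u : ↥(rtk6diF A K₁ (M₁ * q) M H)}
    (hu : rtk6diIncl (M₁ * q) M H u₀ = u)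
    (𝔫 : AtPt (F := ↥(rtk6diF A K₁ (M₁ * q) M H)) π u)
    (c : rtk6dfK hπ M H w) (hc : atThrough 𝔫 (rtk6dfV hπ M H w c)) :
    ∃ b : Bool,
      (rtk6dfV hπ M H w c).comap (rtk6diIncl (M₁ * q) M H) = mgvV hπ ιC hq hqM b ∧
      atThrough (rtk6thrPt M H u₀ hu 𝔫) (mgvV hπ ιC hq hqM b) := by
  obtain ⟨b, hb⟩ := rtk6df_comap_incl hπ ιC hq hqM M H w hw c
  refine ⟨b, hb, ?_⟩
  rw [← hb]
  exact rtk6thr_comap_atThrough M H u₀ hu 𝔫 _ hc


end Concrete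

end Fermat.Agent.RT.K6

end
end ZBRT_076_1

/-! ### bundled: `Fermat.Agent.RT.K6.C4UInst` -/
section ZBRT_076_2
/-
K-machine, piece K6, piece **C4-U-inst, half (A)** (helper37): the dichotomy `Rtk6ewmNodeAt` at
every closed point of the two charts of `F = rtk6diF A K₁ (M₁ q) M H` over an UNRAMIFIED base
`A₁ = mgcA A K₁`, when `F` is generated over the `Γ₀(M₁ q)`-field by étale Kummer generators
(the case (U): `H` contains the diamonds at `q`).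

Setting of `RT/K6/DIFamMg.lean` (helper82): `A₁ = mgcA A K₁` a DVR, `π` a uniformizer,
`F₀ = modularFunctionFieldFullC ↥(mgcE A K₁) (M₁ q)` (the `Γ₀`-field), `F = rtk6diF A K₁ (M₁ q) M H`,
`incl = rtk6diIncl : F₀ →+* F`, `w` with `Rtk6dvWIncl`, `V = rtk6dfV hπ M H w` the family of all
conjugates of `V_∞`, `V_0`.

The open inputs, one Prop each (all at the chart `u₀` of `F₀`, `u₀ = j` or `1 / j`):
* `Rtk6c4uThin hπ ιC hq hqM u₀` : the thin dichotomy `Rtk6lfThinAt` of the chart `u₀` of `F₀`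
  (chart `j`: helper54 `rtk6lfb_thinAt_J`, proved here: `rtk6c4u_thin_J`; chart `1 / j`: helper71);
* `Rtk6c4uGet π M H u₀`  : (G-et) (helper74): at every closed point `𝔫₀` of the chart `u₀` there
  are `d ∉ 𝔫₀` and a finite set `S ⊆ F` generating `F` over `F₀` with `b t ^ d = a`,
  `a, b ∉ 𝔫₀`, for `t ∈ S`;
* `Rtk6c4uThr hπ ιC hq hqM M H w u₀` : (C4-THR) (helper66): over a closed point through which
  `mgvV b` passes there is a component `c` of the family through the point with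
  `(V c).comap incl = mgvV b`.

Results:
* `rtk6c4uAlg`, `rtk6c4u_tower`, `rtk6c4u_towerE` : the algebra structure `F₀ → F`;
* **`rtk6c4u_nodeAt_of`** : `Rtk6ewmNodeAt V 𝔫 (RingHom.id _) π` at every closed point `𝔫` of the
  chart `u = incl u₀` (helper97's `rtk6c4et_nodeAt`);
* `rtk6c4u_nodeAt_J`, `rtk6c4u_nodeAt_Jinv` : the two charts `t = rtk6diT`, `t⁻¹`.
-/

set_option autoImplicit false
set_option linter.style.haveILetI false
set_option linter.unusedSectionVars false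
set_option linter.unusedVariables false
set_option linter.style.longLine false
set_option synthInstance.maxHeartbeats 400000
set_option maxHeartbeats 1000000

noncomputable section

namespace Fermat.Agent.RT.K6

open ModularCurve AlgebraicCurve Fermat.Agent.ES Fermat.Agent.ES.G2 Fermat.Agent.INJ
open Fermat.Agent.UNIP Fermat.Agent.STB Fermat.Agent.ES1 Fermat.Agent.ES1.G2 Fermat.Agent.AL
  IntermediateField

/-! ### the algebra structure `F₀ → F` -/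

section Setup

variable (E : IntermediateField ℚ Qb) (L M : ℕ) (H : Subgroup (ZMod M)ˣ)

/-- the algebra structure `F₀ → F` given by the inclusion of the `Γ₀(L)`-field -/
@[reducible] def rtk6c4uAlg :
    Algebra ↥(modularFunctionFieldFullC ↥E L) ↥(fieldC ↥E L M H) :=
  (rtk6diIncl L M H).toAlgebra

theorem rtk6c4uAlg_algebraMap (x : ↥(modularFunctionFieldFullC ↥E L)) :
    letI := rtk6c4uAlg E L M H
    algebraMap ↥(modularFunctionFieldFullC ↥E L) ↥(fieldC ↥E L M H) x = rtk6diIncl L M H x :=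
  rfl

variable {E}

theorem rtk6c4u_tower (A' : ValuationSubring ↥E) :
    letI := rtk6c4uAlg E L M H
    IsScalarTower ↥A' ↥(modularFunctionFieldFullC ↥E L) ↥(fieldC ↥E L M H) := by
  letI := rtk6c4uAlg E L M H
  refine IsScalarTower.of_algebraMap_eq fun a => ?_
  show algebraMap ↥E ↥(fieldC ↥E L M H) (a : ↥E) =
    rtk6diIncl L M H (algebraMap ↥E ↥(modularFunctionFieldFullC ↥E L) (a : ↥E))
  rw [rtk6diIncl_algebraMap]

end Setup

/-! ### the open inputs -/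

section Concrete

variable {A : ValuationSubring Qb} {K₁ : IntermediateField ℚ Qb}
  [IsDiscreteValuationRing ↥(mgcA A K₁)] {π : ↥(mgcA A K₁)} (hπ : Irreducible π)
  (ιC : ↥(mgcE A K₁) →+* ℂ) {q M₁ : ℕ} [NeZero q] [NeZero M₁] [NeZero (M₁ * q)]
  (hq : q.Prime) (hqM : ¬ q ∣ M₁) (M : ℕ) (H : Subgroup (ZMod M)ˣ)
  (w : ↥(rtk6diF A K₁ (M₁ * q) M H) ≃ₐ[↥(mgcE A K₁)] ↥(rtk6diF A K₁ (M₁ * q) M H))

/-- **the thin dichotomy** of the chart `u₀` of the `Γ₀(M₁ q)`-field over `A₁` -/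
def Rtk6c4uThin (u₀ : ↥(modularFunctionFieldFullC ↥(mgcE A K₁) (M₁ * q))) : Prop :=
  ∀ 𝔫₀ : AtPt (F := ↥(modularFunctionFieldFullC ↥(mgcE A K₁) (M₁ * q))) π u₀,
    Rtk6lfThinAt (mgvV hπ ιC hq hqM true) (mgvV hπ ιC hq hqM false) 𝔫₀

variable (π) in
/-- **(G-et)** on the chart `u₀` of the `Γ₀(M₁ q)`-field: at every closed point, `F` is generated
over `F₀` by finitely many étale Kummer generators. -/
def Rtk6c4uGet (u₀ : ↥(modularFunctionFieldFullC ↥(mgcE A K₁) (M₁ * q))) : Prop :=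
  ∀ 𝔫₀ : AtPt (F := ↥(modularFunctionFieldFullC ↥(mgcE A K₁) (M₁ * q))) π u₀,
    ∃ (d : ℕ) (S : Set ↥(rtk6diF A K₁ (M₁ * q) M H)),
      (d : ↥(zchClosure (A₀ := ↥(mgcA A K₁))
        ({u₀} : Set ↥(modularFunctionFieldFullC ↥(mgcE A K₁) (M₁ * q))))) ∉ 𝔫₀.1 ∧
      S.Finite ∧
      (∀ t ∈ S, ∃ a b : ↥(zchClosure (A₀ := ↥(mgcA A K₁))
          ({u₀} : Set ↥(modularFunctionFieldFullC ↥(mgcE A K₁) (M₁ * q)))),
        a ∉ 𝔫₀.1 ∧ b ∉ 𝔫₀.1 ∧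
        rtk6diIncl (M₁ * q) M H (b : ↥(modularFunctionFieldFullC ↥(mgcE A K₁) (M₁ * q))) * t ^ d =
          rtk6diIncl (M₁ * q) M H (a : ↥(modularFunctionFieldFullC ↥(mgcE A K₁) (M₁ * q)))) ∧
      Subring.closure (Set.range (rtk6diIncl (K := ↥(mgcE A K₁)) (M₁ * q) M H) ∪ S) = ⊤

/-! ### the dichotomy -/

/-- **C4-U, (A)**: the dichotomy `Rtk6ewmNodeAt` at every closed point of the chart
`u = incl u₀` of `F` over the unramified base. -/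
theorem rtk6c4u_nodeAt_of (hw : Rtk6dvWIncl ιC hq hqM M H w) (hML : M ∣ M₁ * q)
    (u₀ : ↥(modularFunctionFieldFullC ↥(mgcE A K₁) (M₁ * q)))
    [FiniteDimensional (↥(mgcE A K₁))⟮u₀⟯ ↥(modularFunctionFieldFullC ↥(mgcE A K₁) (M₁ * q))]
    (hu₀ : ∀ b, u₀ ∈ mgvV hπ ιC hq hqM b)
    (hthin : Rtk6c4uThin hπ ιC hq hqM u₀) (hget : Rtk6c4uGet π M H u₀)
    {u : ↥(rtk6diF A K₁ (M₁ * q) M H)} (hu : rtk6diIncl (M₁ * q) M H u₀ = u)
    (𝔫 : AtPt (F := ↥(rtk6diF A K₁ (M₁ * q) M H)) π u) :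
    Rtk6ewmNodeAt (rtk6dfV hπ M H w) 𝔫
      (RingHom.id ↥(zchClosure (A₀ := ↥(mgcA A K₁)) ({u} : Set ↥(rtk6diF A K₁ (M₁ * q) M H))))
      (algebraMap ↥(mgcA A K₁)
        ↥(zchClosure (A₀ := ↥(mgcA A K₁)) ({u} : Set ↥(rtk6diF A K₁ (M₁ * q) M H))) π) := by
  subst hu
  letI := rtk6c4uAlg (mgcE A K₁) (M₁ * q) M H
  haveI := rtk6c4u_tower (E := mgcE A K₁) (M₁ * q) M H (mgcA A K₁)
  obtain ⟨d, S, hd, hS, hl, hgen⟩ := hget (rtk6c4etPt (F := ↥(rtk6diF A K₁ (M₁ * q) M H)) u₀ 𝔫)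
  refine rtk6c4et_nodeAt (E := ↥(mgcE A K₁)) u₀ (mgvV hπ ιC hq hqM true)
    (mgvV hπ ιC hq hqM false) (rtk6dfV hπ M H w) 𝔫 (rtk6c4etPt u₀ 𝔫) rfl (hthin _) d hd S hS hl
    ?_ ?_
  · -- generation
    rw [← Subalgebra.toSubring_injective.eq_iff, Algebra.adjoin_eq_ring_closure]
    exact hgen
  · -- the two components at a crossing point
    intro X Y hXY
    obtain ⟨c₁, c₂, hc₁, hc₂, ht₁, ht₂⟩ := rtk6thr_cross hπ ιC hq hqM M H w hw hML u₀ rfl hu₀ 𝔫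
      (rtk6c4etPt (F := ↥(rtk6diF A K₁ (M₁ * q) M H)) u₀ 𝔫) (fun x hx => hx) hXY.1 hXY.2.1
    refine ⟨c₁, c₂, ht₁, ht₂, fun x hx => ?_, fun x hx => ?_⟩
    · rw [← hc₁] at hx
      exact (vt_mem_nonunits_comap _ _ x).mp hx
    · rw [← hc₂] at hx
      exact (vt_mem_nonunits_comap _ _ x).mp hx

/-! ### the two charts -/

/-- the thin dichotomy of the chart `j` of the `Γ₀`-field over an unramified, Frobenius-stable
base (helper54's `rtk6lfb_thinAt_J`), rigid level -/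
theorem rtk6c4u_thin_J [Normal ℚ K₁] (hA : A.LiesOverPrime q)
    (hqπ : Associated ((q : ℕ) : ↥(mgcA A K₁)) π)
    (rigid : (q ≠ 2 → 4 ∣ M₁) ∧ (q = 2 → 9 ∣ M₁)) :
    Rtk6c4uThin hπ ιC hq hqM (bgJ ↥(mgcE A K₁) (M₁ * q)) := by
  intro 𝔫₀
  obtain ⟨φ, hφF⟩ := Fermat.Agent.Common.exists_isFrobeniusAt_of_liesOverPrime q hq A hA
  exact rtk6lfb_thinAt_J hπ ιC hq hqM hA hφF
    (stb_stable_beta0_sup hφF.mem_decompositionSubgroup K₁) hqπ rigid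
    (stb_regChart_conc_J M₁ hq hA le_sup_left hπ hqM (rtk6lfb_rigid_h2 rigid)
      (rtk6lfb_rigid_h3 rigid)) 𝔫₀

/-- **C4-U, (A), chart `j`** -/
theorem rtk6c4u_nodeAt_J (hw : Rtk6dvWIncl ιC hq hqM M H w) (hML : M ∣ M₁ * q)
    (hthin : Rtk6c4uThin hπ ιC hq hqM (bgJ ↥(mgcE A K₁) (M₁ * q)))
    (hget : Rtk6c4uGet π M H (bgJ ↥(mgcE A K₁) (M₁ * q)))
    (𝔫 : AtPt (F := ↥(rtk6diF A K₁ (M₁ * q) M H)) π (rtk6diT A K₁ (M₁ * q) M H)) :
    Rtk6ewmNodeAt (rtk6dfV hπ M H w) 𝔫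
      (RingHom.id ↥(zchClosure (A₀ := ↥(mgcA A K₁))
        ({rtk6diT A K₁ (M₁ * q) M H} : Set ↥(rtk6diF A K₁ (M₁ * q) M H))))
      (algebraMap ↥(mgcA A K₁) ↥(zchClosure (A₀ := ↥(mgcA A K₁))
        ({rtk6diT A K₁ (M₁ * q) M H} : Set ↥(rtk6diF A K₁ (M₁ * q) M H))) π) := by
  haveI : FiniteDimensional (↥(mgcE A K₁))⟮bgJ ↥(mgcE A K₁) (M₁ * q)⟯
      ↥(modularFunctionFieldFullC ↥(mgcE A K₁) (M₁ * q)) :=
    bgFin_finiteDimensional_full ↥(mgcE A K₁) (M₁ * q)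
  exact rtk6c4u_nodeAt_of hπ ιC hq hqM M H w hw hML (bgJ ↥(mgcE A K₁) (M₁ * q))
    (mgv_T_mem hπ ιC hq hqM) hthin hget rfl 𝔫

/-- **C4-U, (A), chart `1 / j`** -/
theorem rtk6c4u_nodeAt_Jinv (hw : Rtk6dvWIncl ιC hq hqM M H w) (hML : M ∣ M₁ * q)
    (hthin : Rtk6c4uThin hπ ιC hq hqM (bgJ ↥(mgcE A K₁) (M₁ * q))⁻¹)
    (hget : Rtk6c4uGet π M H (bgJ ↥(mgcE A K₁) (M₁ * q))⁻¹)
    (𝔫 : AtPt (F := ↥(rtk6diF A K₁ (M₁ * q) M H)) π (rtk6diT A K₁ (M₁ * q) M H)⁻¹) :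
    Rtk6ewmNodeAt (rtk6dfV hπ M H w) 𝔫
      (RingHom.id ↥(zchClosure (A₀ := ↥(mgcA A K₁))
        ({(rtk6diT A K₁ (M₁ * q) M H)⁻¹} : Set ↥(rtk6diF A K₁ (M₁ * q) M H))))
      (algebraMap ↥(mgcA A K₁) ↥(zchClosure (A₀ := ↥(mgcA A K₁))
        ({(rtk6diT A K₁ (M₁ * q) M H)⁻¹} : Set ↥(rtk6diF A K₁ (M₁ * q) M H))) π) := by
  haveI : FiniteDimensional (↥(mgcE A K₁))⟮bgJ ↥(mgcE A K₁) (M₁ * q)⟯
      ↥(modularFunctionFieldFullC ↥(mgcE A K₁) (M₁ * q)) :=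
    bgFin_finiteDimensional_full ↥(mgcE A K₁) (M₁ * q)
  haveI : FiniteDimensional (↥(mgcE A K₁))⟮(bgJ ↥(mgcE A K₁) (M₁ * q))⁻¹⟯
      ↥(modularFunctionFieldFullC ↥(mgcE A K₁) (M₁ * q)) :=
    at_finiteDimensional_inv (bgJ ↥(mgcE A K₁) (M₁ * q))
  exact rtk6c4u_nodeAt_of hπ ιC hq hqM M H w hw hML (bgJ ↥(mgcE A K₁) (M₁ * q))⁻¹
    (mgv_T_inv_mem hπ ιC hq hqM) hthin hget (map_inv₀ (rtk6diIncl (M₁ * q) M H) _) 𝔫

end Concrete

end Fermat.Agent.RT.K6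

end


end ZBRT_076_2

/-! ### bundled: `Fermat.Agent.RT.K6.C4UKum` -/
section ZBRT_076_3
/-
K-machine, piece K6, piece **C4-U-inst (A), (K2)** (helper81): GENERATION of
`F = fieldC K L M H` over the `Γ₀(L)`-field `F₀ = modularFunctionFieldFullC K L` by the
NORMALISED Kummer generators `rtk6n0Y K M H (ψ i)` (`RT/K6/N0Norm.lean`), in ALGEBRA form
(`Algebra.adjoin F₀ (range y) = ⊤`), for a family of characters `ψ i`, trivial on `±H`, of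
exponent dividing `d ≠ 0`, jointly faithful on `(ℤ/M)ˣ / ±H`.

From helper36's `rtk6d0_gen` (`RT/K6/D0Gal.lean`, field form for the resolvents `rtk6d0Y`) and
`rtk6d0_pow_mem_full` (the Kummer elements lie in `F₀`).

* `rtk6c4uk_mem_adjoin` : every element of `F` lies in `IntermediateField.adjoin F₀ (range y)`;
* `rtk6c4uk_field_adjoin_eq_top` : `IntermediateField.adjoin F₀ (range y) = ⊤`;
* `rtk6c4uk_isIntegral` : the generators are integral over `F₀`;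
* `rtk6c4uk_gen` : `Algebra.adjoin F₀ (range y) = ⊤`, any algebra structure with
  `algebraMap = rtk6diIncl`;
* `rtk6c4uk_gen_alg` : the same for `rtk6c4uAlg K₀ L M H`, `K₀ : IntermediateField ℚ Qb`
  (the shape of helper37's note);
* `rtk6c4uk_subring_closure` : `Subring.closure (range rtk6diIncl ∪ range y) = ⊤`.
-/

set_option autoImplicit false
set_option linter.style.haveILetI false
set_option linter.unusedSectionVars false
set_option linter.unusedVariables false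
set_option linter.style.longLine false

noncomputable section

namespace Fermat.Agent.RT.K6

open HahnSeries ModularCurve AlgebraicCurve Polynomial IntermediateField
open Fermat.Agent.ES Fermat.Agent.ES1

section Gen

variable {K : Type} [Field K] [CharZero K] [Algebra.IsAlgebraic ℚ K]
  {L M : ℕ} [NeZero M] {H : Subgroup (ZMod M)ˣ}
  [Algebra (modularFunctionFieldFullC K L) (fieldC K L M H)]

/-- the generators are integral over the `Γ₀(L)`-field -/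
theorem rtk6c4uk_isIntegral
    (halg : ∀ z : modularFunctionFieldFullC K L,
      algebraMap (modularFunctionFieldFullC K L) (fieldC K L M H) z = rtk6diIncl L M H z)
    (ψ : (ZMod M)ˣ →* Kˣ) (hL : L ≠ 0) (hML : M ∣ L)
    {d : ℕ} (hd0 : d ≠ 0) (hψd : ∀ c, ψ c ^ d = 1) :
    IsIntegral (modularFunctionFieldFullC K L)
      (⟨rtk6n0Y K M H ψ, rtk6n0Y_mem hML⟩ : fieldC K L M H) := by
  apply IsIntegral.of_pow (Nat.pos_of_ne_zero hd0)
  have hmem : rtk6n0Y K M H ψ ^ d ∈ modularFunctionFieldFullC K L :=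
    rtk6n0Y_pow_mem _ (rtk6d0_pow_mem_full K H ψ hL hML hψd)
  have h1 : (⟨rtk6n0Y K M H ψ, rtk6n0Y_mem hML⟩ : fieldC K L M H) ^ d
      = algebraMap (modularFunctionFieldFullC K L) (fieldC K L M H)
          ⟨rtk6n0Y K M H ψ ^ d, hmem⟩ := by
    rw [halg]
    apply Subtype.ext
    rw [rtk6diIncl_coe]
    rfl
  rw [h1]
  exact isIntegral_algebraMap

/-- every element of `F` lies in the field generated over `F₀` by the normalised Kummer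
generators -/
theorem rtk6c4uk_mem_adjoin
    (halg : ∀ z : modularFunctionFieldFullC K L,
      algebraMap (modularFunctionFieldFullC K L) (fieldC K L M H) z = rtk6diIncl L M H z)
    {ι : Type*} (ψ : ι → ((ZMod M)ˣ →* Kˣ)) (hL : L ≠ 0) (hML : M ∣ L) (hM : 3 ≤ M)
    (hψH : ∀ i, ∀ h ∈ H, ψ i h = 1) (hψ1 : ∀ i, ψ i (-1) = 1)
    (hfaith : ∀ c : (ZMod M)ˣ, (∀ i, ψ i c = 1) → c ∈ pmH H)
    (x : fieldC K L M H) :
    x ∈ IntermediateField.adjoin (modularFunctionFieldFullC K L)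
      (Set.range fun i => (⟨rtk6n0Y K M H (ψ i), rtk6n0Y_mem hML⟩ : fieldC K L M H)) := by
  set T := IntermediateField.adjoin (modularFunctionFieldFullC K L)
      (Set.range fun i => (⟨rtk6n0Y K M H (ψ i), rtk6n0Y_mem hML⟩ : fieldC K L M H)) with hT
  have hgen := rtk6d0_gen (K := K) (L := L) (H := H) ψ hL hML hM hψH hψ1
    (fun c hc => es1rc_mem_pmH_iff.mp (hfaith c hc))
  -- the image of `T` in `K((q))` contains the field generated by `F₀` and the resolvents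
  have key : ∀ z ∈ IntermediateField.adjoin K
      ((modularFunctionFieldFullC K L : Set (LaurentSeries K)) ∪
        Set.range fun i => rtk6d0Y K M H ⊤ (ψ i)),
      ∃ t ∈ T, ((t : fieldC K L M H) : LaurentSeries K) = z := by
    intro z hz
    have hF₀ : ∀ w : modularFunctionFieldFullC K L,
        ∃ t ∈ T, ((t : fieldC K L M H) : LaurentSeries K) = (w : LaurentSeries K) := by
      intro w
      refine ⟨algebraMap (modularFunctionFieldFullC K L) (fieldC K L M H) w,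
        T.algebraMap_mem w, ?_⟩
      rw [halg, rtk6diIncl_coe]
    induction hz using IntermediateField.adjoin_induction with
    | mem z hz =>
      rcases hz with hz | ⟨i, rfl⟩
      · exact hF₀ ⟨z, hz⟩
      · -- `y = n₀ · y′`
        obtain ⟨t, ht, hte⟩ := hF₀ (algebraMap K (modularFunctionFieldFullC K L)
          ((rtk6d0N M H ⊤ : ℕ) : K))
        refine ⟨t * ⟨rtk6n0Y K M H (ψ i), rtk6n0Y_mem hML⟩,
          T.mul_mem ht (IntermediateField.subset_adjoin _ _ ⟨i, rfl⟩), ?_⟩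
        show ((t : fieldC K L M H) : LaurentSeries K) * rtk6n0Y K M H (ψ i)
          = rtk6d0Y K M H ⊤ (ψ i)
        rw [hte, ← rtk6n0Y_mul (K := K) (N := M) (H := H) (ψ := ψ i),
          ← LaurentSeries.algebraMap_apply K]
        rfl
    | algebraMap k =>
      obtain ⟨t, ht, hte⟩ := hF₀ (algebraMap K (modularFunctionFieldFullC K L) k)
      exact ⟨t, ht, hte⟩
    | add z₁ z₂ _ _ h₁ h₂ =>
      obtain ⟨t₁, ht₁, rfl⟩ := h₁
      obtain ⟨t₂, ht₂, rfl⟩ := h₂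
      exact ⟨t₁ + t₂, T.add_mem ht₁ ht₂, rfl⟩
    | inv z _ h =>
      obtain ⟨t, ht, rfl⟩ := h
      exact ⟨t⁻¹, T.inv_mem ht, rfl⟩
    | mul z₁ z₂ _ _ h₁ h₂ =>
      obtain ⟨t₁, ht₁, rfl⟩ := h₁
      obtain ⟨t₂, ht₂, rfl⟩ := h₂
      exact ⟨t₁ * t₂, T.mul_mem ht₁ ht₂, rfl⟩
  obtain ⟨t, ht, hte⟩ := key (x : LaurentSeries K) (hgen x.2)
  have : t = x := Subtype.ext hte
  rw [← this]
  exact ht

/-- **(K2), field form**: `F = F₀(y′_i)`. -/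
theorem rtk6c4uk_field_adjoin_eq_top
    (halg : ∀ z : modularFunctionFieldFullC K L,
      algebraMap (modularFunctionFieldFullC K L) (fieldC K L M H) z = rtk6diIncl L M H z)
    {ι : Type*} (ψ : ι → ((ZMod M)ˣ →* Kˣ)) (hL : L ≠ 0) (hML : M ∣ L) (hM : 3 ≤ M)
    (hψH : ∀ i, ∀ h ∈ H, ψ i h = 1) (hψ1 : ∀ i, ψ i (-1) = 1)
    (hfaith : ∀ c : (ZMod M)ˣ, (∀ i, ψ i c = 1) → c ∈ pmH H) :
    IntermediateField.adjoin (modularFunctionFieldFullC K L)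
      (Set.range fun i => (⟨rtk6n0Y K M H (ψ i), rtk6n0Y_mem hML⟩ : fieldC K L M H)) = ⊤ := by
  rw [eq_top_iff]
  rintro x -
  exact rtk6c4uk_mem_adjoin halg ψ hL hML hM hψH hψ1 hfaith x

/-- **(K2), algebra form**: `F = F₀[y′_i]`, for any algebra structure with
`algebraMap = rtk6diIncl`. -/
theorem rtk6c4uk_gen
    (halg : ∀ z : modularFunctionFieldFullC K L,
      algebraMap (modularFunctionFieldFullC K L) (fieldC K L M H) z = rtk6diIncl L M H z)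
    {ι : Type*} (ψ : ι → ((ZMod M)ˣ →* Kˣ)) (hL : L ≠ 0) (hML : M ∣ L) (hM : 3 ≤ M)
    (hψH : ∀ i, ∀ h ∈ H, ψ i h = 1) (hψ1 : ∀ i, ψ i (-1) = 1)
    {d : ℕ} (hd0 : d ≠ 0) (hψd : ∀ i c, ψ i c ^ d = 1)
    (hfaith : ∀ c : (ZMod M)ˣ, (∀ i, ψ i c = 1) → c ∈ pmH H) :
    Algebra.adjoin (modularFunctionFieldFullC K L)
      (Set.range fun i => (⟨rtk6n0Y K M H (ψ i), rtk6n0Y_mem hML⟩ : fieldC K L M H)) = ⊤ := by
  have h1 := IntermediateField.adjoin_toSubalgebra_of_isAlgebraic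
    (F := modularFunctionFieldFullC K L) (E := fieldC K L M H)
    (S := Set.range fun i => (⟨rtk6n0Y K M H (ψ i), rtk6n0Y_mem hML⟩ : fieldC K L M H))
    (by
      rintro x ⟨i, rfl⟩
      exact (rtk6c4uk_isIntegral halg (ψ i) hL hML hd0 (hψd i)).isAlgebraic)
  rw [← h1, rtk6c4uk_field_adjoin_eq_top halg ψ hL hML hM hψH hψ1 hfaith,
    IntermediateField.top_toSubalgebra]

end Gen

section Conc

open Fermat.Agent.ES.G2

variable (K₀ : IntermediateField ℚ Qb) {L M : ℕ} [NeZero M] (H : Subgroup (ZMod M)ˣ)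

/-- **(K2)** for the algebra structure `rtk6c4uAlg K₀ L M H` (`F₀ → F` the inclusion of the
`Γ₀(L)`-field), `K₀` any intermediate field of `ℚ̄ / ℚ`. -/
theorem rtk6c4uk_gen_alg
    {ι : Type*} (ψ : ι → ((ZMod M)ˣ →* (↥K₀)ˣ)) (hL : L ≠ 0) (hML : M ∣ L) (hM : 3 ≤ M)
    (hψH : ∀ i, ∀ h ∈ H, ψ i h = 1) (hψ1 : ∀ i, ψ i (-1) = 1)
    {d : ℕ} (hd0 : d ≠ 0) (hψd : ∀ i c, ψ i c ^ d = 1)
    (hfaith : ∀ c : (ZMod M)ˣ, (∀ i, ψ i c = 1) → c ∈ pmH H) :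
    letI := rtk6c4uAlg K₀ L M H
    Algebra.adjoin ↥(modularFunctionFieldFullC ↥K₀ L)
      (Set.range fun i => (⟨rtk6n0Y ↥K₀ M H (ψ i), rtk6n0Y_mem hML⟩ :
        ↥(fieldC ↥K₀ L M H))) = ⊤ := by
  letI := rtk6c4uAlg K₀ L M H
  haveI : Algebra.IsAlgebraic ℚ Qb := AlgebraicClosure.isAlgebraic ℚ
  haveI : Algebra.IsAlgebraic ℚ ↥K₀ :=
    Algebra.IsAlgebraic.of_injective K₀.val Subtype.val_injective
  exact rtk6c4uk_gen (K := ↥K₀) (L := L) (M := M) (H := H) (rtk6c4uAlg_algebraMap K₀ L M H)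
    ψ hL hML hM hψH hψ1 hd0 hψd hfaith

/-- **(K2), subring form**: `F` is generated as a ring by the `Γ₀(L)`-field and the normalised
Kummer generators. -/
theorem rtk6c4uk_subring_closure
    {ι : Type*} (ψ : ι → ((ZMod M)ˣ →* (↥K₀)ˣ)) (hL : L ≠ 0) (hML : M ∣ L) (hM : 3 ≤ M)
    (hψH : ∀ i, ∀ h ∈ H, ψ i h = 1) (hψ1 : ∀ i, ψ i (-1) = 1)
    {d : ℕ} (hd0 : d ≠ 0) (hψd : ∀ i c, ψ i c ^ d = 1)
    (hfaith : ∀ c : (ZMod M)ˣ, (∀ i, ψ i c = 1) → c ∈ pmH H) :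
    Subring.closure (Set.range (rtk6diIncl (K := ↥K₀) L M H) ∪
      Set.range fun i => (⟨rtk6n0Y ↥K₀ M H (ψ i), rtk6n0Y_mem hML⟩ :
        ↥(fieldC ↥K₀ L M H))) = ⊤ := by
  letI := rtk6c4uAlg K₀ L M H
  have h := rtk6c4uk_gen_alg K₀ H ψ hL hML hM hψH hψ1 hd0 hψd hfaith
  rw [← Subalgebra.toSubring_injective.eq_iff, Algebra.adjoin_eq_ring_closure] at h
  exact h

end Conc

end Fermat.Agent.RT.K6

end
end ZBRT_076_3
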