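/- GENERATED FILE (helper35, build-time optimisation, NOTES/ZB.md): verbatim concatenation of the modules
   Fermat.Agent.RT.K6.GenInstClos
   Do not edit; do not import together with these modules. -/
import Mathlib

/-! ### bundled: `Fermat.Agent.RT.K6.GenInstClos` -/
section ZBRT_081_0
/-
K-machine, piece K6, piece GEN-inst (helper74), part 7: generation in `Subring.closure` form (the
last clause of `Rtk6c4uGet`, C4UInst.lean, helper37).  Mathlib only.

`f : K →+* F`, `F` generated as a ring by `f K` and the Kummer elements `y_i`; `S` a set of local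
generators with `y_i = f c · t`, `t ∈ S`.  Then `F` is generated as a ring by `f K` and `S`.
-/

set_option autoImplicit false
set_option linter.unusedSectionVars false
set_option linter.unusedVariables false

namespace Fermat.Agent.RT.K6

/-- `Subring.closure (f K ∪ Y) = ⊤`, every element of `Y` is `f c · t` with `t ∈ S` (or lies in
`f K ∪ S`) ⇒ `Subring.closure (f K ∪ S) = ⊤` -/
theorem rtk6gi_closure_top_of {K F : Type*} [Ring K] [Ring F] (f : K →+* F) (Y S : Set F)
    (hS : ∀ z ∈ Y, ∃ t ∈ S, ∃ c : K, z = f c * t)
    (hY : Subring.closure (Set.range f ∪ Y) = ⊤) :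
    Subring.closure (Set.range f ∪ S) = ⊤ := by
  rw [eq_top_iff, ← hY, Subring.closure_le]
  rintro z (hz | hz)
  · exact Subring.subset_closure (Or.inl hz)
  · obtain ⟨t, ht, c, rfl⟩ := hS z hz
    exact Subring.mul_mem _ (Subring.subset_closure (Or.inl ⟨c, rfl⟩))
      (Subring.subset_closure (Or.inr ht))

/-- the same for a family `y : ι → F` -/
theorem rtk6gi_closure_top {K F : Type*} [Ring K] [Ring F] (f : K →+* F) {ι : Type*}
    (y : ι → F) (S : Set F) (hS : ∀ i, ∃ t ∈ S, ∃ c : K, y i = f c * t)
    (hY : Subring.closure (Set.range f ∪ Set.range y) = ⊤) :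
    Subring.closure (Set.range f ∪ S) = ⊤ := by
  refine rtk6gi_closure_top_of f (Set.range y) S ?_ hY
  rintro z ⟨i, rfl⟩
  exact hS i

/-- from `Algebra.adjoin` to `Subring.closure`: for `f = algebraMap K F` -/
theorem rtk6gi_closure_of_adjoin {K F : Type*} [CommRing K] [CommRing F] [Algebra K F]
    (S : Set F) (h : Algebra.adjoin K S = ⊤) :
    Subring.closure (Set.range (algebraMap K F) ∪ S) = ⊤ := by
  rw [eq_top_iff]
  intro x _
  have hx : x ∈ Algebra.adjoin K S := by rw [h]; exact Algebra.mem_top
  induction hx using Algebra.adjoin_induction with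
  | mem z hz => exact Subring.subset_closure (Or.inr hz)
  | algebraMap k => exact Subring.subset_closure (Or.inl ⟨k, rfl⟩)
  | add a b _ _ ha hb => exact Subring.add_mem _ (ha trivial) (hb trivial)
  | mul a b _ _ ha hb => exact Subring.mul_mem _ (ha trivial) (hb trivial)

end Fermat.Agent.RT.K6


end ZBRT_081_0
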