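/- GENERATED FILE (helper35, build-time optimisation, NOTES/ZB.md): verbatim concatenation of the modules
   Fermat.Agent.RT.K6.DUnr
   Fermat.Agent.RT.K6.C4UGet
   Fermat.Agent.RT.K6.C4UGetFinal
   Do not edit; do not import together with these modules. -/
import Fermat.Agent.ZB.ES1_002
import Fermat.Agent.ZB.ES1_012
import Fermat.Agent.ZB.ES1_007
import Fermat.Agent.ZB.ES_020
import Fermat.Agent.ZB.ES_003
import Fermat.Agent.ZB.INJ_013
import Fermat.Agent.ZB.ES1_010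
import Fermat.Agent.ZB.RT_076
import Fermat.Agent.ZB.RT_080
import Fermat.Agent.ZB.RT_081
import Fermat.Agent.ZB.RT_083
import Fermat.Agent.ZB.RT_032

/-! ### bundled: `Fermat.Agent.RT.K6.DUnr` -/
section ZBRT_084_0

/-!
# RT-K6, piece D-unr: the Kummer cover `F_H / F₀` is unramified (tame case)

`F₀ = ` the `Γ₀(L)`-field, `F_H = fieldC K L M H`.  If `y ∈ F_H`, `y ^ d = u ∈ F₀` and
`gcd (d, 6 L) = 1`, then `d ∣ ord_P u` at EVERY place `P` of `F₀`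
(the ramification of `F_H` over the `j`-line divides `2`, `3` or `L`: `ES1.stmtRamJH`).

* `rtk6unr_abs` : the abstract statement (fundamental identity + a coprime ramification witness);
* `rtk6unr_bar` : over `ℚ̄`, for `FF L ⊆ fieldBar L M H`;
* `rtk6unr_nf` : over an intermediate field `K₀ ⊆ ℚ̄`, for
  `modularFunctionFieldFullC K₀ L ⊆ fieldC K₀ L M H`;
* `rtk6unr_Y` : the instance `u₀ = y_ψ ^ d` of piece D0.
-/

set_option autoImplicit false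
set_option linter.style.haveILetI false
set_option linter.unusedSectionVars false
set_option synthInstance.maxHeartbeats 400000
set_option maxHeartbeats 1000000

noncomputable section

namespace Fermat.Agent.RT.K6

open HahnSeries ModularCurve AlgebraicCurve Polynomial IntermediateField
open Fermat.Agent.ES Fermat.Agent.ES1 Fermat.Agent.S24 Fermat.Agent.INJ

section Abs

variable {K F F' : Type*} [Field K] [Field F] [Field F'] [Algebra K F] [Algebra K F']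

/-- a place of nonzero degree has a place above it (fundamental identity) -/
theorem rtk6unr_exists_over [HasPrincipalDivisors K F'] (φ : F →ₐ[K] F')
    (hφ : φ.toRingHom.IsIntegral)
    (hFI : FundamentalIdentityAlong K φ hφ) (hn : finrankAlong K φ ≠ 0) (x : Place K F)
    (hx : x.deg ≠ 0) :
    ∃ w : Place K F', w.restrictAlong φ hφ = x := by
  letI := algebraAlong φ
  haveI := isScalarTower_along φ
  haveI := isIntegral_along φ hφ
  haveI : FundamentalIdentity K F F' := hFI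
  by_contra hne
  have hempty : x.fiber F' = ∅ := by
    rw [Finset.eq_empty_iff_forall_notMem]
    intro w hw
    exact hne ⟨w, Place.mem_fiber.1 hw⟩
  have h := FundamentalIdentity.sum_ramificationIndex_mul_deg (K := K) (F := F) (F' := F') x
  rw [hempty, Finset.sum_empty] at h
  have h0 : ((Module.finrank F F' : ℤ)) * (x.deg : ℤ) ≠ 0 := by
    refine mul_ne_zero ?_ ?_
    · exact_mod_cast hn
    · exact_mod_cast hx
  exact h0 h.symm

/-- **D-unr, abstract form.**  If at every place `w` of `F'` some `s ∈ F` has positive order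
prime to `d`, then `d ∣ ord_P u` for every `u ∈ F` which is a `d`-th power in `F'`. -/
theorem rtk6unr_abs [HasPrincipalDivisors K F'] (φ : F →ₐ[K] F')
    (hφ : φ.toRingHom.IsIntegral)
    (hFI : FundamentalIdentityAlong K φ hφ) (hn : finrankAlong K φ ≠ 0) (d : ℕ)
    (hram : ∀ w : Place K F', ∃ s : F, 0 < w.ord (φ s) ∧ IsCoprime (w.ord (φ s)) (d : ℤ))
    (u : F) (y : F') (hy : y ^ d = φ u) (P : Place K F) (hP : P.deg ≠ 0) :
    (d : ℤ) ∣ P.ord u := by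
  obtain ⟨w, rfl⟩ := rtk6unr_exists_over φ hφ hFI hn P hP
  obtain ⟨s, hs0, hsd⟩ := hram w
  have h1 := Place.ord_restrictAlong φ hφ w s
  have h2 := Place.ord_restrictAlong φ hφ w u
  have h3 : w.ord (φ u) = (d : ℤ) * w.ord y := by
    rw [← hy, ← zpow_natCast, Place.ord_zpow]
  rw [h1] at hsd
  have hcop : IsCoprime (Place.ramificationIndexAlong φ w : ℤ) (d : ℤ) :=
    IsCoprime.of_mul_left_left hsd
  have h4 : (d : ℤ) ∣ (Place.ramificationIndexAlong φ w : ℤ) * (w.restrictAlong φ hφ).ord u := by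
    rw [← h2, h3]
    exact dvd_mul_right _ _
  exact hcop.symm.dvd_of_dvd_mul_left h4

end Abs

section Bar

variable (L M : ℕ) (H : Subgroup (ZMod M)ˣ) [NeZero L]

/-- the inclusion `F₀(L) → F_H(L)` over `ℚ̄` -/
def rtk6unrIncl : FF L →ₐ[Kb] fieldBar L M H :=
  IntermediateField.inclusion (dlh_bar_le_fieldBar L M H)

theorem rtk6unrIncl_coe (x : FF L) :
    ((rtk6unrIncl L M H x : fieldBar L M H) : LaurentSeries Kb) = (x : LaurentSeries Kb) :=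
  IntermediateField.coe_inclusion (dlh_bar_le_fieldBar L M H) x

theorem rtk6unr_ff1 : Es1hFF1 Kb (FF L) :=
  ⟨jF L, Fermat.Agent.S24.transcendental_jF L, Fermat.Agent.ES.H.finiteDimensional_adjoin_jF L⟩

theorem rtk6unr_ff1' (hML : M ∣ L) : Es1hFF1 Kb (fieldBar L M H) :=
  (es1hFin_of_ramJH (stmtRamJH L M H hML)).ff1

theorem rtk6unrIncl_jF : rtk6unrIncl L M H (jF L) = jFH L M H := by
  apply Subtype.ext
  rw [rtk6unrIncl_coe, coe_jF]
  rfl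

/-- the ramification witness at every place of `fieldBar L M H` -/
theorem rtk6unr_hram (hML : M ∣ L) (d : ℕ) (hd : Nat.Coprime d (6 * L))
    (w : Place Kb (fieldBar L M H)) :
    ∃ s : FF L, 0 < w.ord (rtk6unrIncl L M H s) ∧
      IsCoprime (w.ord (rtk6unrIncl L M H s)) (d : ℤ) := by
  have hR := stmtRamJH L M H hML
  have hd6 : Nat.Coprime d 6 := Nat.Coprime.coprime_mul_right_right hd
  have hdL : Nat.Coprime d L := Nat.Coprime.coprime_mul_left_right hd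
  have hd2 : IsCoprime (2 : ℤ) (d : ℤ) := by
    have : Nat.Coprime 2 d := (Nat.Coprime.coprime_dvd_right (by norm_num : 2 ∣ 6) hd6).symm
    exact_mod_cast Nat.isCoprime_iff_coprime.2 this
  have hd3 : IsCoprime (3 : ℤ) (d : ℤ) := by
    have : Nat.Coprime 3 d := (Nat.Coprime.coprime_dvd_right (by norm_num : 3 ∣ 6) hd6).symm
    exact_mod_cast Nat.isCoprime_iff_coprime.2 this
  have hdL' : IsCoprime (L : ℤ) (d : ℤ) := Nat.isCoprime_iff_coprime.2 hdL.symm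
  rcases ramJH_cases L M H hR w with ⟨c, hc⟩ | hinf
  · refine ⟨jF L - algebraMap Kb (FF L) c, ?_, ?_⟩
    · rw [map_sub, rtk6unrIncl_jF, AlgHom.commutes]
      exact hc
    · rw [map_sub, rtk6unrIncl_jF, AlgHom.commutes]
      by_cases h0 : c = 0
      · subst h0
        rw [map_zero, sub_zero] at hc ⊢
        exact IsCoprime.of_isCoprime_of_dvd_left hd3 (hR.zero w hc)
      by_cases h1 : c = 1728
      · subst h1
        exact IsCoprime.of_isCoprime_of_dvd_left hd2 (hR.e1728 w hc)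
      · rw [hR.gen c h0 h1 w hc]
        exact isCoprime_one_left
  · refine ⟨(jF L)⁻¹, ?_, ?_⟩
    · rw [map_inv₀, rtk6unrIncl_jF, Place.ord_inv]
      omega
    · rw [map_inv₀, rtk6unrIncl_jF]
      exact IsCoprime.of_isCoprime_of_dvd_left hdL' (hR.inf w hinf)

/-- **D-unr over `ℚ̄`.**  `y ∈ F_H(L)`, `y ^ d = u ∈ F₀(L)`, `gcd (d, 6 L) = 1`: then
`d ∣ ord_P u` at every place `P` of `F₀(L)`. -/
theorem rtk6unr_bar (hML : M ∣ L) (d : ℕ) (hd : Nat.Coprime d (6 * L))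
    (u : FF L) (y : LaurentSeries Kb) (hy : y ∈ fieldBar L M H)
    (hyu : y ^ d = (u : LaurentSeries Kb)) (P : Place Kb (FF L)) :
    (d : ℤ) ∣ P.ord u := by
  have hFF := rtk6unr_ff1 L
  have hFF' := rtk6unr_ff1' L M H hML
  haveI := es1h_gen_hasPrincipalDivisors hFF'
  have hfin := es1h_gen_finiteAlong (rtk6unrIncl L M H) hFF hFF'
  have hn : finrankAlong Kb (rtk6unrIncl L M H) ≠ 0 := by
    letI := algebraAlong (rtk6unrIncl L M H)
    haveI : Module.Finite (FF L) (fieldBar L M H) := hfin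
    exact (Module.finrank_pos (R := FF L) (M := fieldBar L M H)).ne'
  refine rtk6unr_abs (rtk6unrIncl L M H) (es1h_gen_integral _ hFF hFF')
    (es1h_gen_fundamentalIdentityAlong _ hFF hFF') hn d (rtk6unr_hram L M H hML d hd) u
    ⟨y, hy⟩ ?_ P ?_
  · apply Subtype.ext
    rw [rtk6unrIncl_coe]
    exact hyu
  · rw [Fermat.Agent.ES.R.place_deg_eq_one P (es1h_gen_residue_bijective hFF P)]
    exact one_ne_zero

end Bar

section NF

variable (K₀ : IntermediateField ℚ NfQb) (L M : ℕ) (H : Subgroup (ZMod M)ˣ)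

/-- **D-unr over an intermediate field `K₀ ⊆ ℚ̄`.**  `y ∈ fieldC K₀ L M H`,
`y ^ d = u ∈ modularFunctionFieldFullC K₀ L`, `gcd (d, 6 L) = 1`: then `d ∣ ord_Q u` at every
place `Q` of the `Γ₀(L)`-field over `K₀`. -/
theorem rtk6unr_nf (hL : L ≠ 0) (hML : M ∣ L) (d : ℕ) (hd : Nat.Coprime d (6 * L))
    (u : modularFunctionFieldFullC K₀ L) (y : LaurentSeries K₀) (hy : y ∈ fieldC K₀ L M H)
    (hyu : y ^ d = (u : LaurentSeries K₀)) (Q : Place K₀ (modularFunctionFieldFullC K₀ L)) :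
    (d : ℤ) ∣ Q.ord u := by
  haveI : NeZero L := ⟨hL⟩
  obtain ⟨v, hv⟩ := bgRam_hext K₀ L Q
  rw [← hv u]
  refine rtk6unr_bar L M H hML d hd (nfEmb K₀ L u) (coeffMap (algebraMap K₀ NfQb) y)
    (nfH_coeffMap_mem_bar K₀ L M H hy) ?_ v
  rw [nfEmb_coe, ← hyu, map_pow]

/-- the Kummer element `u₀ = y_ψ ^ d` lies in the `Γ₀(L)`-field over `K₀` -/
theorem rtk6unr_Y_mem [NeZero M] (hL : L ≠ 0) (hML : M ∣ L) (ψ : (ZMod M)ˣ →* (K₀)ˣ) (d : ℕ)
    (hψ : ∀ c, ψ c ^ d = 1) :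
    rtk6d0Y K₀ M H ⊤ ψ ^ d ∈ modularFunctionFieldFullC K₀ L := by
  haveI : Algebra.IsAlgebraic ℚ NfQb := AlgebraicClosure.isAlgebraic ℚ
  haveI : Algebra.IsAlgebraic ℚ K₀ :=
    Algebra.IsAlgebraic.of_injective K₀.val Subtype.val_injective
  exact rtk6d0_pow_mem_full K₀ H ψ hL hML hψ

/-- **D-unr for the Kummer generator of piece D0**: `u₀ = y_ψ ^ d`, `ψ ^ d = 1`,
`gcd (d, 6 L) = 1`. -/
theorem rtk6unr_Y [NeZero M] (hL : L ≠ 0) (hML : M ∣ L) (ψ : (ZMod M)ˣ →* (K₀)ˣ) (d : ℕ)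
    (hd : Nat.Coprime d (6 * L))
    (hmem : rtk6d0Y K₀ M H ⊤ ψ ^ d ∈ modularFunctionFieldFullC K₀ L)
    (Q : Place K₀ (modularFunctionFieldFullC K₀ L)) :
    (d : ℤ) ∣ Q.ord (⟨rtk6d0Y K₀ M H ⊤ ψ ^ d, hmem⟩ : modularFunctionFieldFullC K₀ L) :=
  rtk6unr_nf K₀ L M H hL hML d hd _ (rtk6d0Y K₀ M H ⊤ ψ) (rtk6d0Y_mem K₀ M H ⊤ ψ hML) rfl Q

end NF

end Fermat.Agent.RT.K6

end
end ZBRT_084_0

/-! ### bundled: `Fermat.Agent.RT.K6.C4UGet` -/
section ZBRT_084_1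
/-
K-machine, piece K6, piece **C4-U-inst, half (A)** (helper37), part 2: **(G-et) on the chart `j`
from chart-free Kummer data**, and the Kummer data from the characters.

Setting of `C4UInst.lean`: `A₁ = mgcA A K₁` a DVR (unramified level), `π` a uniformizer,
`F₀ = modularFunctionFieldFullC ↥(mgcE A K₁) (M₁ q)`, `F = rtk6diF A K₁ (M₁ q) M H`,
`incl = rtk6diIncl`.

* `Rtk6c4uKummer hπ ιC hq hqM M H` : **the chart-free Kummer data**: an exponent `m` prime to `q`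
  and a finite family `y_i ∈ F`, `y_i ^ m = u_i ∈ F₀`, with `m ∣ ord_P u_i` at every place of the
  generic fibre, `v_∞(u_i) = 1`, `v_0(u_i) = v_0(π) ^ n₀ i`, `m ∣ n₀ i`, generating `F` over `F₀`;
* `rtk6c4u_natCast_not_mem` : `q ∤ m ⇒ m ∉ 𝔫₀`;
* **`rtk6c4u_get_J`** : `Rtk6c4uKummer → Rtk6c4uGet π M H (bgJ)` (helper74's generic-`K₀`
  `rtk6gik_et_family`);
* `rtk6c4u_kummer_of_psi` : the Kummer data from a family of characters `ψ_i` of `(ℤ/M)ˣ`,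
  trivial on `±H` (hence on the diamonds at `q`: case (U)), of exponent `d` prime to `6 M₁ q`,
  whose normalised resolvents generate `F` over `F₀` (helper6's N0, helper36's D-unr).
-/

set_option autoImplicit false
set_option linter.style.haveILetI false
set_option linter.unusedSectionVars false
set_option linter.unusedVariables false
set_option linter.style.longLine false
set_option synthInstance.maxHeartbeats 400000
set_option maxHeartbeats 1000000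

noncomputable section

namespace Fermat.Agent.RT.K6

open ModularCurve AlgebraicCurve Fermat.Agent.ES Fermat.Agent.ES.G2 Fermat.Agent.INJ
open Fermat.Agent.UNIP Fermat.Agent.STB Fermat.Agent.ES1 Fermat.Agent.ES1.G2 Fermat.Agent.AL
  IntermediateField

section Concrete

variable {A : ValuationSubring Qb} {K₁ : IntermediateField ℚ Qb}
  [IsDiscreteValuationRing ↥(mgcA A K₁)] {π : ↥(mgcA A K₁)} (hπ : Irreducible π)
  (ιC : ↥(mgcE A K₁) →+* ℂ) {q M₁ : ℕ} [NeZero q] [NeZero M₁] [NeZero (M₁ * q)]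
  (hq : q.Prime) (hqM : ¬ q ∣ M₁) (M : ℕ) (H : Subgroup (ZMod M)ˣ)

/-- **The chart-free Kummer data** of `F / F₀` at an unramified level (case (U)). -/
def Rtk6c4uKummer : Prop :=
  ∃ (m k : ℕ) (y : Fin k → ↥(rtk6diF A K₁ (M₁ * q) M H))
    (u : Fin k → ↥(modularFunctionFieldFullC ↥(mgcE A K₁) (M₁ * q))) (n₀ : Fin k → ℤ),
    ¬ q ∣ m ∧
    (∀ i, y i ^ m = rtk6diIncl (M₁ * q) M H (u i)) ∧
    (∀ i, u i ≠ 0) ∧
    (∀ i, ∀ P : Place ↥(mgcE A K₁) ↥(modularFunctionFieldFullC ↥(mgcE A K₁) (M₁ * q)),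
      (m : ℤ) ∣ P.ord (u i)) ∧
    (∀ i, (mgvV hπ ιC hq hqM true).valuation (u i) = 1) ∧
    (∀ i, (mgvV hπ ιC hq hqM false).valuation (u i) =
      (mgvV hπ ιC hq hqM false).valuation
        (algebraMap ↥(mgcA A K₁) ↥(modularFunctionFieldFullC ↥(mgcE A K₁) (M₁ * q)) π)
          ^ n₀ i) ∧
    (∀ i, (m : ℤ) ∣ n₀ i) ∧
    Subring.closure (Set.range (rtk6diIncl (K := ↥(mgcE A K₁)) (M₁ * q) M H) ∪ Set.range y) = ⊤

omit [NeZero q] [NeZero M₁] in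
/-- an integer prime to `q` is a unit at every closed point of the special fibre -/
theorem rtk6c4u_natCast_not_mem (hq : q.Prime)
    (hqπ : Associated ((q : ℕ) : ↥(mgcA A K₁)) π) {m : ℕ} (hqm : ¬ q ∣ m)
    {u₀ : ↥(modularFunctionFieldFullC ↥(mgcE A K₁) (M₁ * q))}
    (𝔫₀ : AtPt (F := ↥(modularFunctionFieldFullC ↥(mgcE A K₁) (M₁ * q))) π u₀) :
    (m : ↥(zchClosure (A₀ := ↥(mgcA A K₁))
      ({u₀} : Set ↥(modularFunctionFieldFullC ↥(mgcE A K₁) (M₁ * q))))) ∉ 𝔫₀.1 := by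
  intro hm
  have hq𝔫 : ((q : ℕ) : ↥(zchClosure (A₀ := ↥(mgcA A K₁))
      ({u₀} : Set ↥(modularFunctionFieldFullC ↥(mgcE A K₁) (M₁ * q))))) ∈ 𝔫₀.1 := by
    obtain ⟨v, hv⟩ := hqπ.symm
    have e : ((q : ℕ) : ↥(zchClosure (A₀ := ↥(mgcA A K₁))
        ({u₀} : Set ↥(modularFunctionFieldFullC ↥(mgcE A K₁) (M₁ * q))))) =
        algebraMap ↥(mgcA A K₁) _ π * algebraMap ↥(mgcA A K₁) _ (v : ↥(mgcA A K₁)) := by
      rw [← map_mul, hv, map_natCast]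
    rw [e]
    exact 𝔫₀.1.mul_mem_right _ 𝔫₀.2.2
  have hcop : IsCoprime (m : ℤ) (q : ℤ) :=
    Nat.isCoprime_iff_coprime.2 ((Nat.Prime.coprime_iff_not_dvd hq).2 hqm).symm
  obtain ⟨a, b, hab⟩ := hcop
  have h1 : (1 : ↥(zchClosure (A₀ := ↥(mgcA A K₁))
      ({u₀} : Set ↥(modularFunctionFieldFullC ↥(mgcE A K₁) (M₁ * q))))) ∈ 𝔫₀.1 := by
    have e := congrArg (Int.cast : ℤ → ↥(zchClosure (A₀ := ↥(mgcA A K₁))
      ({u₀} : Set ↥(modularFunctionFieldFullC ↥(mgcE A K₁) (M₁ * q))))) hab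
    push_cast at e
    rw [← e]
    exact 𝔫₀.1.add_mem (𝔫₀.1.mul_mem_left _ hm) (𝔫₀.1.mul_mem_left _ hq𝔫)
  exact 𝔫₀.2.1.ne_top ((Ideal.eq_top_iff_one _).2 h1)

/-- **(G-et) on the chart `j`** from the chart-free Kummer data. -/
theorem rtk6c4u_get_J [Normal ℚ K₁] (hA : A.LiesOverPrime q)
    (hqπ : Associated ((q : ℕ) : ↥(mgcA A K₁)) π)
    (rigid : (q ≠ 2 → 4 ∣ M₁) ∧ (q = 2 → 9 ∣ M₁))
    (hk : Rtk6c4uKummer hπ ιC hq hqM M H) :
    Rtk6c4uGet π M H (bgJ ↥(mgcE A K₁) (M₁ * q)) := by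
  intro 𝔫₀
  obtain ⟨m, k, y, u, n₀, hqm, hyu, hu, hhor, hy₁, hn₀, hdvd, hgen⟩ := hk
  obtain ⟨φ, hφF⟩ := Fermat.Agent.Common.exists_isFrobeniusAt_of_liesOverPrime q hq A hA
  obtain ⟨S, hS, hSet, -, hyS⟩ := rtk6gik_et_family hπ ιC hq hqM
    (rtk6diIncl (K := ↥(mgcE A K₁)) (M₁ * q) M H) hA le_sup_left hφF
    (stb_stable_beta0_sup hφF.mem_decompositionSubgroup K₁) hqπ rigid m y u n₀ hyu hu hhor hy₁
    hn₀ hdvd 𝔫₀
  refine ⟨m, S, rtk6c4u_natCast_not_mem hq hqπ hqm 𝔫₀, hS, hSet, ?_⟩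
  refine rtk6gi_closure_top (rtk6diIncl (K := ↥(mgcE A K₁)) (M₁ * q) M H) y S (fun i => ?_) hgen
  obtain ⟨t, ht, c, -, h⟩ := hyS i
  exact ⟨t, ht, c, h⟩

/-! ### the Kummer data from the characters -/

omit [NeZero q] [NeZero M₁] in
/-- a character trivial on `H` and at `-1` is trivial on `±H` -/
theorem rtk6c4u_psi_pmH {K : Type*} [Field K] {M : ℕ} {H : Subgroup (ZMod M)ˣ}
    (ψ : (ZMod M)ˣ →* Kˣ) (hψH : ∀ h ∈ H, ψ h = 1) (hψ1 : ψ (-1) = 1)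
    {c : (ZMod M)ˣ} (hc : c ∈ pmH H) : ψ c = 1 := by
  have hle : pmH H ≤ ψ.ker :=
    sup_le (fun h hh => MonoidHom.mem_ker.2 (hψH h hh))
      ((Subgroup.zpowers_le).2 (MonoidHom.mem_ker.2 hψ1))
  exact MonoidHom.mem_ker.1 (hle hc)

/-- **The Kummer data of the case (U)** from a finite family of characters `ψ_i` of `(ℤ/M)ˣ`,
trivial on `±H ⊇` the diamonds at `q`, of exponent `d` prime to `6 M₁ q`, whose normalised
resolvents `y_i = rtk6n0Y (ψ_i)` generate `F` over `F₀`. -/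
theorem rtk6c4u_kummer_of_psi [NeZero M] (hA : A.LiesOverPrime q)
    (hqπ : Associated ((q : ℕ) : ↥(mgcA A K₁)) π)
    (hML : M ∣ M₁ * q) (hqN : q ∣ M) (hN3 : 3 ≤ M)
    {w₀ : fieldBar (M₁ * q) M H ≃ₐ[Qb] fieldBar (M₁ * q) M H} (hw₀ : IsWAt (M₁ * q) M H q w₀)
    (hat : ∀ c : (ZMod M)ˣ, IsAtR M q c → c ∈ pmH H)
    {d : ℕ} (hd : Nat.Coprime d (6 * (M₁ * q)))
    {k : ℕ} (ψ : Fin k → ((ZMod M)ˣ →* (↥(mgcE A K₁))ˣ))
    (hψH : ∀ i, ∀ h ∈ H, ψ i h = 1) (hψ1 : ∀ i, ψ i (-1) = 1) (hψd : ∀ i c, ψ i c ^ d = 1)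
    (hgen : Subring.closure (Set.range (rtk6diIncl (K := ↥(mgcE A K₁)) (M₁ * q) M H) ∪
      Set.range fun i => (⟨rtk6n0Y ↥(mgcE A K₁) M H (ψ i), rtk6n0Y_mem hML⟩ :
        ↥(rtk6diF A K₁ (M₁ * q) M H))) = ⊤) :
    Rtk6c4uKummer hπ ιC hq hqM M H := by
  have hL : M₁ * q ≠ 0 := NeZero.ne _
  have hqd : ¬ q ∣ d := by
    intro h
    have h1 : q ∣ Nat.gcd d (6 * (M₁ * q)) :=
      Nat.dvd_gcd h (Dvd.dvd.mul_left (Dvd.intro_left M₁ rfl) 6)
    rw [hd] at h1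
    exact hq.one_lt.ne' (Nat.dvd_one.1 h1)
  have hmem : ∀ i, rtk6n0Y ↥(mgcE A K₁) M H (ψ i) ^ d
      ∈ modularFunctionFieldFullC ↥(mgcE A K₁) (M₁ * q) := fun i =>
    rtk6n0Y_pow_mem _ (rtk6unr_Y_mem (mgcE A K₁) (M₁ * q) M H hL hML (ψ i) d (hψd i))
  have hzero := fun i => rtk6n0_norm_zero_dvd hπ ιC hq hqM (ψ i) hA hqπ hML hqN hN3 hw₀
    (hψH i) (hψ1 i) hqd (hψd i)
    (fun c hc => rtk6c4u_psi_pmH (ψ i) (hψH i) (hψ1 i) (hat c hc)) (hmem i)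
  choose n₀ hdvd hn₀ using hzero
  refine ⟨d, k, fun i => ⟨rtk6n0Y ↥(mgcE A K₁) M H (ψ i), rtk6n0Y_mem hML⟩,
    fun i => ⟨rtk6n0Y ↥(mgcE A K₁) M H (ψ i) ^ d, hmem i⟩, n₀, hqd, fun i => ?_, fun i => ?_,
    fun i P => ?_, fun i => ?_, hn₀, hdvd, hgen⟩
  · exact Subtype.ext rfl
  · intro h
    have h1 : rtk6n0Y ↥(mgcE A K₁) M H (ψ i) ^ d = 0 :=
      congrArg (fun z : ↥(modularFunctionFieldFullC ↥(mgcE A K₁) (M₁ * q)) =>
        (z : LaurentSeries ↥(mgcE A K₁))) h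
    exact rtk6n0Y_ne_zero hN3 (hψH i) (hψ1 i) (eq_zero_of_pow_eq_zero h1)
  · exact rtk6unr_nf (mgcE A K₁) (M₁ * q) M H hL hML d hd _
      (rtk6n0Y ↥(mgcE A K₁) M H (ψ i)) (rtk6n0Y_mem hML) rfl P
  · exact rtk6n0_norm_inf hπ ιC hq hqM (ψ i) hN3 (hψH i) (hψ1 i) d (hmem i)

/-- the same with the generation in `Algebra.adjoin` form -/
theorem rtk6c4u_kummer_of_psi_adjoin [NeZero M] (hA : A.LiesOverPrime q)
    (hqπ : Associated ((q : ℕ) : ↥(mgcA A K₁)) π)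
    (hML : M ∣ M₁ * q) (hqN : q ∣ M) (hN3 : 3 ≤ M)
    {w₀ : fieldBar (M₁ * q) M H ≃ₐ[Qb] fieldBar (M₁ * q) M H} (hw₀ : IsWAt (M₁ * q) M H q w₀)
    (hat : ∀ c : (ZMod M)ˣ, IsAtR M q c → c ∈ pmH H)
    {d : ℕ} (hd : Nat.Coprime d (6 * (M₁ * q)))
    {k : ℕ} (ψ : Fin k → ((ZMod M)ˣ →* (↥(mgcE A K₁))ˣ))
    (hψH : ∀ i, ∀ h ∈ H, ψ i h = 1) (hψ1 : ∀ i, ψ i (-1) = 1) (hψd : ∀ i c, ψ i c ^ d = 1)
    (hgen : letI := rtk6c4uAlg (mgcE A K₁) (M₁ * q) M H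
      Algebra.adjoin ↥(modularFunctionFieldFullC ↥(mgcE A K₁) (M₁ * q))
        (Set.range fun i => (⟨rtk6n0Y ↥(mgcE A K₁) M H (ψ i), rtk6n0Y_mem hML⟩ :
          ↥(fieldC ↥(mgcE A K₁) (M₁ * q) M H))) = ⊤) :
    Rtk6c4uKummer hπ ιC hq hqM M H := by
  letI := rtk6c4uAlg (mgcE A K₁) (M₁ * q) M H
  exact rtk6c4u_kummer_of_psi hπ ιC hq hqM M H hA hqπ hML hqN hN3 hw₀ hat hd ψ hψH hψ1 hψd
    (rtk6gi_closure_of_adjoin _ hgen)

end Concrete

end Fermat.Agent.RT.K6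

end


end ZBRT_084_1

/-! ### bundled: `Fermat.Agent.RT.K6.C4UGetFinal` -/
section ZBRT_084_2
/-
K-machine, piece K6, piece **C4-U-inst, half (A)** (helper37), part 3: (G-et) on the chart `j`
in the case (U), from the characters (K1) and the generation (K2).

* `rtk6c4u_three_le` : `3 ≤ M` from `q ∣ M`, `4 ∣ M₁ q`, `q ∤ M₁`;
* `rtk6c4u_kummer_of_K` : `Rtk6c4uKummer` from (K1) + (K2) (`w` from piece B);
* `rtk6c4u_get_J_of_K` : `Rtk6c4uGet π M H (bgJ)` from (K1) + (K2).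
-/

set_option autoImplicit false
set_option linter.style.haveILetI false
set_option linter.unusedSectionVars false
set_option linter.unusedVariables false
set_option linter.style.longLine false
set_option synthInstance.maxHeartbeats 400000
set_option maxHeartbeats 1000000

noncomputable section

namespace Fermat.Agent.RT.K6

open ModularCurve AlgebraicCurve Fermat.Agent.ES Fermat.Agent.ES.G2 Fermat.Agent.INJ
open Fermat.Agent.UNIP Fermat.Agent.STB Fermat.Agent.ES1 Fermat.Agent.ES1.G2 Fermat.Agent.AL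
  IntermediateField

/-- `q ≠ 2` at a rigid level -/
theorem rtk6c4u_ne_two {q M₁ : ℕ} (hqM : ¬ q ∣ M₁) (h4 : 4 ∣ M₁ * q) : q ≠ 2 := by
  rintro rfl
  apply hqM
  omega

/-- `3 ≤ M` from `q ∣ M`, `q` an odd prime -/
theorem rtk6c4u_three_le {q M₁ M : ℕ} (hq : q.Prime) (hqM' : q ∣ M) (hM0 : M ≠ 0)
    (hqM : ¬ q ∣ M₁) (h4 : 4 ∣ M₁ * q) : 3 ≤ M := by
  have h2 := rtk6c4u_ne_two hqM h4
  have h3 : 3 ≤ q := by
    have := hq.two_le
    omega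
  exact h3.trans (Nat.le_of_dvd (Nat.pos_of_ne_zero hM0) hqM')

section Concrete

variable {A : ValuationSubring Qb} {K₁ : IntermediateField ℚ Qb}
  [IsDiscreteValuationRing ↥(mgcA A K₁)] {π : ↥(mgcA A K₁)} (hπ : Irreducible π)
  (ιC : ↥(mgcE A K₁) →+* ℂ) {q M₁ : ℕ} [NeZero q] [NeZero M₁] [NeZero (M₁ * q)]
  (hq : q.Prime) (hqM : ¬ q ∣ M₁) (M : ℕ) (H : Subgroup (ZMod M)ˣ)

/-- **The Kummer data of the case (U)** from (K1) the characters and (K2) the generation. -/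
theorem rtk6c4u_kummer_of_K [NeZero M] (hA : A.LiesOverPrime q)
    (hqπ : Associated ((q : ℕ) : ↥(mgcA A K₁)) π)
    (hML : M ∣ M₁ * q) (hqN : q ∣ M) (h4 : 4 ∣ M₁ * q)
    (hat : ∀ c : (ZMod M)ˣ, IsAtR M q c → c ∈ pmH H)
    (htame : IsTameAt (M₁ * q) M q H)
    (hK1 : ∀ d : ℕ, Nat.Coprime d (6 * (M₁ * q)) → (∀ c : (ZMod M)ˣ, c ^ d ∈ pmH H) →
      ∃ (k : ℕ) (ψ : Fin k → ((ZMod M)ˣ →* (↥(mgcE A K₁))ˣ)),
        (∀ i, ∀ h ∈ H, ψ i h = 1) ∧ (∀ i, ψ i (-1) = 1) ∧ (∀ i c, ψ i c ^ d = 1) ∧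
        (∀ c, (∀ i, ψ i c = 1) → c ∈ pmH H))
    (hK2 : ∀ (d k : ℕ) (ψ : Fin k → ((ZMod M)ˣ →* (↥(mgcE A K₁))ˣ)), d ≠ 0 →
      (∀ i, ∀ h ∈ H, ψ i h = 1) → (∀ i, ψ i (-1) = 1) → (∀ i c, ψ i c ^ d = 1) →
      (∀ c, (∀ i, ψ i c = 1) → c ∈ pmH H) →
      letI := rtk6c4uAlg (mgcE A K₁) (M₁ * q) M H
      Algebra.adjoin ↥(modularFunctionFieldFullC ↥(mgcE A K₁) (M₁ * q))
        (Set.range fun i => (⟨rtk6n0Y ↥(mgcE A K₁) M H (ψ i), rtk6n0Y_mem hML⟩ :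
          ↥(fieldC ↥(mgcE A K₁) (M₁ * q) M H))) = ⊤) :
    Rtk6c4uKummer hπ ιC hq hqM M H := by
  have hM0 : M ≠ 0 := NeZero.ne M
  have hN3 := rtk6c4u_three_le hq hqN hM0 hqM h4
  obtain ⟨w₀, hw₀⟩ := rtk6n0b_exists_w (H := H) hq hqM hML hqN
    (rtk6ei_starStable_of_hat hM0 hqN hat)
  obtain ⟨d, hd, hdH⟩ := htame
  obtain ⟨k, ψ, hψH, hψ1, hψd, hfaith⟩ := hK1 d hd hdH
  have hd0 : d ≠ 0 := by
    rintro rfl
    rw [Nat.coprime_zero_left] at hd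
    have := hq.two_le
    have h1 : q ∣ 6 * (M₁ * q) := Dvd.dvd.mul_left (Dvd.intro_left M₁ rfl) 6
    rw [hd] at h1
    exact hq.one_lt.ne' (Nat.dvd_one.1 h1)
  exact rtk6c4u_kummer_of_psi_adjoin hπ ιC hq hqM M H hA hqπ hML hqN hN3 hw₀ hat hd ψ hψH hψ1
    hψd (hK2 d k ψ hd0 hψH hψ1 hψd hfaith)

include hπ ιC hq hqM in
/-- **(G-et) on the chart `j`, case (U)**, from (K1) + (K2). -/
theorem rtk6c4u_get_J_of_K [NeZero M] [Normal ℚ K₁] (hA : A.LiesOverPrime q)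
    (hqπ : Associated ((q : ℕ) : ↥(mgcA A K₁)) π)
    (hML : M ∣ M₁ * q) (hqN : q ∣ M) (h4 : 4 ∣ M₁ * q)
    (hat : ∀ c : (ZMod M)ˣ, IsAtR M q c → c ∈ pmH H)
    (htame : IsTameAt (M₁ * q) M q H)
    (hK1 : ∀ d : ℕ, Nat.Coprime d (6 * (M₁ * q)) → (∀ c : (ZMod M)ˣ, c ^ d ∈ pmH H) →
      ∃ (k : ℕ) (ψ : Fin k → ((ZMod M)ˣ →* (↥(mgcE A K₁))ˣ)),
        (∀ i, ∀ h ∈ H, ψ i h = 1) ∧ (∀ i, ψ i (-1) = 1) ∧ (∀ i c, ψ i c ^ d = 1) ∧
        (∀ c, (∀ i, ψ i c = 1) → c ∈ pmH H))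
    (hK2 : ∀ (d k : ℕ) (ψ : Fin k → ((ZMod M)ˣ →* (↥(mgcE A K₁))ˣ)), d ≠ 0 →
      (∀ i, ∀ h ∈ H, ψ i h = 1) → (∀ i, ψ i (-1) = 1) → (∀ i c, ψ i c ^ d = 1) →
      (∀ c, (∀ i, ψ i c = 1) → c ∈ pmH H) →
      letI := rtk6c4uAlg (mgcE A K₁) (M₁ * q) M H
      Algebra.adjoin ↥(modularFunctionFieldFullC ↥(mgcE A K₁) (M₁ * q))
        (Set.range fun i => (⟨rtk6n0Y ↥(mgcE A K₁) M H (ψ i), rtk6n0Y_mem hML⟩ :
          ↥(fieldC ↥(mgcE A K₁) (M₁ * q) M H))) = ⊤) :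
    Rtk6c4uGet π M H (bgJ ↥(mgcE A K₁) (M₁ * q)) := by
  have rigid : (q ≠ 2 → 4 ∣ M₁) ∧ (q = 2 → 9 ∣ M₁) := by
    have hq2 := rtk6c4u_ne_two hqM h4
    refine ⟨fun _ => ?_, fun h => absurd h hq2⟩
    have hodd : Nat.Coprime 4 q := by
      have h2q : Nat.Coprime 2 q := (Nat.coprime_primes Nat.prime_two hq).mpr (Ne.symm hq2)
      exact Nat.Coprime.pow_left 2 h2q
    exact (Nat.Coprime.dvd_mul_right hodd).mp h4
  exact rtk6c4u_get_J hπ ιC hq hqM M H hA hqπ rigid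
    (rtk6c4u_kummer_of_K hπ ιC hq hqM M H hA hqπ hML hqN h4 hat htame hK1 hK2)

end Concrete

end Fermat.Agent.RT.K6

end


end ZBRT_084_2
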