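/- GENERATED FILE (helper35, build-time optimisation, NOTES/ZB.md): verbatim concatenation of the modules
   Fermat.Agent.RT.K6.Psi
   Fermat.Agent.RT.K6.C4UKumChar
   Do not edit; do not import together with these modules. -/
import Fermat.Agent.ZB.ES1_001
import Fermat.Agent.ZB.STB_004

/-! ### bundled: `Fermat.Agent.RT.K6.Psi` -/
section ZBRT_085_0
/-
K-machine, piece K6 / PSI (helper5): THE CHARACTERS `ψ_r` AND `ψ′_i` OF `(ℤ/M)ˣ / ±H`.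
Spec: helper4's note "RT-K6 piece PSI" (00:50Z).  Pure group theory over Mathlib.

Setting: `r` prime, `r ∣ M`, `¬ r² ∣ M`, `H ≤ (ℤ/M)ˣ` with `IsStarStable M r H` and
`IsTameAt L M r H`; `P = pmH H = ±H`, `Δ = (ℤ/M)ˣ / P`;
`D_r = {c | IsAtR M r c}` (`c ≡ 1` mod `M / r`), `D′ = {c | rtk6psiAway M r c}` (`c ≡ 1` mod `r`).

* `rtk6psi_crt`, `rtk6psi_crt_unique` : every `c` is `a * b`, `a ∈ D_r`, `b ∈ D′`, uniquely (CRT).
* `rtk6psi_product` (`_odd`) : **(P1)** `a ∈ D_r`, `b ∈ D′`, `a * b ∈ ±H` ⇒ `a ∈ ±H`, `b ∈ ±H`.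
* `rtk6psiDr M r H`   : **(P2)** `d_r`, the order of the (cyclic) image of `D_r` in `Δ`, defined
  as the least `n > 0` with `c ^ n ∈ ±H` for all `c ∈ D_r`; `rtk6psiDr_dvd_iff` (the
  characterisation `d_r ∣ n ↔ ∀ c ∈ D_r, c ^ n ∈ ±H`), `rtk6psiDr_pos`, `rtk6psi_pow_mem`,
  `rtk6psiDr_dvd_of_forall` (`d_r ∣ d`), `rtk6psiDr_dvd_pred` (`d_r ∣ r − 1`),
  `rtk6psiDr_not_dvd` (`¬ r ∣ d_r`), `rtk6psiDr_eq_one_iff`, `rtk6psiDr_coprime`,
  `rtk6psi_card_quot` (`d_r = [(ℤ/M)ˣ : ±H · D′]`).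
* `Rtk6psiGen M r c₀` : `c₀` generates `D_r`; `rtk6psi_exists_gen`; `Rtk6psiGen.pow_mem_iff`.
* `Rtk6psiIsR K M r H ψ` : the properties of `ψ_r` (trivial on `±H` and on `D′`, `ψ ^ d_r = 1`,
  faithful on the image of `D_r`, kernel `±H · D′`, exact order `d_r` at every generator);
  `rtk6psi_exists_psiR` (`_odd`) : **(P3)** `ψ_r` exists; `Rtk6psiIsR.exists_orderOf`.
* `Rtk6psiIsFam K M r d H ψ'` : the properties of the family `ψ′_i` (trivial on `±H` and on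
  `D_r`, `ψ′_i ^ d = 1`, joint kernel `±H · D_r`); `rtk6psi_exists_fam` : **(P4)** it exists,
  indexed by `Fin k`; `Rtk6psiIsFam.faithful`, `.faithful_psiR` : JOINT FAITHFULNESS.
* `rtk6psi_exists` : (P3) + (P4) together; `rtk6psi_exists_tame` : the same for `K`
  algebraically closed of characteristic `0`, from `IsTameAt`;
  `rtk6psi_exists_fin` : as ONE family indexed by `Fin (k + 1)`, `ψ 0 = ψ_r` (the hypotheses
  `hψH`, `hψ1`, `hfaith` of `rtk6d0_gen`; `InPM H 1 c` is `c ∈ pmH H` by `es1rc_mem_pmH_iff`).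
-/

set_option autoImplicit false
set_option linter.style.haveILetI false
set_option linter.unusedVariables false

noncomputable section

namespace Fermat.Agent.RT.K6

open Fermat.Agent.ES1

/-! ### abstract part: characters of a finite commutative group -/

section Abs

variable {G : Type*} [CommGroup G] [Finite G]

/-- a character with prescribed kernel `N`, when `G ⧸ N` is cyclic and `K` contains a primitive
root of unity of order `[G : N]` -/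
theorem rtk6psi_abs_exists_ker (K : Type*) [Field K] (N : Subgroup G) (hcyc : IsCyclic (G ⧸ N))
    (hζ : ∃ ζ : K, IsPrimitiveRoot ζ (Nat.card (G ⧸ N))) :
    ∃ ψ : G →* Kˣ, ∀ x, ψ x = 1 ↔ x ∈ N := by
  classical
  haveI : NeZero (Nat.card (G ⧸ N)) := ⟨Nat.card_pos.ne'⟩
  haveI : HasEnoughRootsOfUnity K (Nat.card (G ⧸ N)) := ⟨hζ, rootsOfUnity.isCyclic K _⟩
  have hcard := HasEnoughRootsOfUnity.natCard_rootsOfUnity K (Nat.card (G ⧸ N))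
  let e : (G ⧸ N) ≃* rootsOfUnity (Nat.card (G ⧸ N)) K := mulEquivOfCyclicCardEq hcard.symm
  refine ⟨((rootsOfUnity (Nat.card (G ⧸ N)) K).subtype.comp e.toMonoidHom).comp
    (QuotientGroup.mk' N), fun x => ?_⟩
  rw [MonoidHom.comp_apply, MonoidHom.comp_apply, ← QuotientGroup.eq_one_iff (N := N) x]
  constructor
  · intro h
    have h1 : e.toMonoidHom (QuotientGroup.mk' N x) = 1 := by
      apply Subtype.ext
      exact h
    exact (MulEquiv.map_eq_one_iff e).1 h1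
  · intro h
    show (rootsOfUnity (Nat.card (G ⧸ N)) K).subtype (e.toMonoidHom (QuotientGroup.mk' N x)) = 1
    have h2 : QuotientGroup.mk' N x = 1 := h
    rw [h2, map_one, map_one]

/-- a finite family of characters, trivial on `N`, jointly faithful on `G ⧸ N`, when `G ⧸ N` has
exponent dividing `d` and `K` contains a primitive `d`-th root of unity -/
theorem rtk6psi_abs_family (K : Type*) [Field K] (N : Subgroup G) {d : ℕ} (hd0 : d ≠ 0)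
    (hd : ∀ x : G, x ^ d ∈ N) (hζ : ∃ ζ : K, IsPrimitiveRoot ζ d) :
    ∃ (k : ℕ) (ψ : Fin k → (G →* Kˣ)), (∀ i, ∀ x ∈ N, ψ i x = 1) ∧ (∀ i x, ψ i x ^ d = 1) ∧
      ∀ x, (∀ i, ψ i x = 1) → x ∈ N := by
  classical
  haveI : NeZero d := ⟨hd0⟩
  haveI hE : HasEnoughRootsOfUnity K d := ⟨hζ, rootsOfUnity.isCyclic K _⟩
  have hexp : Monoid.exponent (G ⧸ N) ∣ d := by
    apply Monoid.exponent_dvd_of_forall_pow_eq_one
    intro q
    obtain ⟨x, rfl⟩ := QuotientGroup.mk_surjective q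
    rw [← QuotientGroup.mk_pow, QuotientGroup.eq_one_iff]
    exact hd x
  haveI : HasEnoughRootsOfUnity K (Monoid.exponent (G ⧸ N)) := HasEnoughRootsOfUnity.of_dvd K hexp
  haveI : Finite ((G ⧸ N) →* Kˣ) := inferInstance
  let e := Finite.equivFin ((G ⧸ N) →* Kˣ)
  refine ⟨Nat.card ((G ⧸ N) →* Kˣ), fun i => (e.symm i).comp (QuotientGroup.mk' N), ?_, ?_, ?_⟩
  · intro i x hx
    rw [MonoidHom.comp_apply]
    have h2 : QuotientGroup.mk' N x = 1 := (QuotientGroup.eq_one_iff x).2 hx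
    rw [h2, map_one]
  · intro i x
    rw [← map_pow, MonoidHom.comp_apply]
    have h2 : QuotientGroup.mk' N (x ^ d) = 1 := (QuotientGroup.eq_one_iff _).2 (hd x)
    rw [h2, map_one]
  · intro x hx
    by_contra hxN
    have h1 : (QuotientGroup.mk' N x) ≠ 1 := fun h => hxN ((QuotientGroup.eq_one_iff x).1 h)
    obtain ⟨φ, hφ⟩ := CommGroup.exists_apply_ne_one_of_hasEnoughRootsOfUnity (G ⧸ N) K h1
    apply hφ
    have h3 : ((e.symm (e φ)).comp (QuotientGroup.mk' N)) x = 1 := hx (e φ)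
    rw [Equiv.symm_apply_apply, MonoidHom.comp_apply] at h3
    exact h3

end Abs

/-! ### the Chinese remainder theorem for `(ℤ/M)ˣ`, `r ∥ M` -/

section CRT

variable {M r : ℕ}

/-- `c ≡ 1` mod `r`: the class `c` is "away from `r`" (the group `D′`) -/
def rtk6psiAway (M r : ℕ) (c : (ZMod M)ˣ) : Prop :=
  (((c : ZMod M).val : ℕ) : ZMod r) = 1

theorem rtk6psi_ne_zero (hr2 : ¬ r ^ 2 ∣ M) : M ≠ 0 := by
  rintro rfl
  exact hr2 (dvd_zero _)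

/-- `r ∥ M`: `r` is prime to `M / r` -/
theorem rtk6psi_coprime_div (hr : r.Prime) (hrM : r ∣ M) (hr2 : ¬ r ^ 2 ∣ M) :
    Nat.Coprime r (M / r) := by
  rw [Nat.Prime.coprime_iff_not_dvd hr]
  intro h
  apply hr2
  have h1 : r * r ∣ r * (M / r) := Nat.mul_dvd_mul_left r h
  rwa [Nat.mul_div_cancel' hrM, ← pow_two] at h1

/-- reduction mod `r` on the units -/
def rtk6psiRedR (hrM : r ∣ M) : (ZMod M)ˣ →* (ZMod r)ˣ :=
  Units.map ((ZMod.castHom hrM (ZMod r)) : ZMod M →* ZMod r)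

/-- reduction mod `M / r` on the units -/
def rtk6psiRedA (hrM : r ∣ M) : (ZMod M)ˣ →* (ZMod (M / r))ˣ :=
  Units.map ((ZMod.castHom (Nat.div_dvd_of_dvd hrM) (ZMod (M / r))) : ZMod M →* ZMod (M / r))

theorem rtk6psi_val_redR [NeZero M] (hrM : r ∣ M) (c : (ZMod M)ˣ) :
    (((c : ZMod M).val : ℕ) : ZMod r) = ((rtk6psiRedR hrM c : (ZMod r)ˣ) : ZMod r) := by
  unfold rtk6psiRedR
  rw [Units.coe_map, ZMod.natCast_val]
  rfl

theorem rtk6psi_val_redA [NeZero M] (hrM : r ∣ M) (c : (ZMod M)ˣ) :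
    (((c : ZMod M).val : ℕ) : ZMod (M / r)) =
      ((rtk6psiRedA hrM c : (ZMod (M / r))ˣ) : ZMod (M / r)) := by
  unfold rtk6psiRedA
  rw [Units.coe_map, ZMod.natCast_val]
  rfl

theorem rtk6psi_isAtR_iff [NeZero M] (hrM : r ∣ M) (c : (ZMod M)ˣ) :
    IsAtR M r c ↔ rtk6psiRedA hrM c = 1 := by
  unfold IsAtR
  rw [rtk6psi_val_redA hrM, Units.ext_iff, Units.val_one]

theorem rtk6psi_away_iff [NeZero M] (hrM : r ∣ M) (c : (ZMod M)ˣ) :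
    rtk6psiAway M r c ↔ rtk6psiRedR hrM c = 1 := by
  unfold rtk6psiAway
  rw [rtk6psi_val_redR hrM, Units.ext_iff, Units.val_one]

/-- CRT, injectivity: a class is determined by its reductions mod `r` and mod `M / r` -/
theorem rtk6psi_crt_inj [NeZero M] (hr : r.Prime) (hrM : r ∣ M) (hr2 : ¬ r ^ 2 ∣ M)
    {c c' : (ZMod M)ˣ} (h1 : rtk6psiRedR hrM c = rtk6psiRedR hrM c')
    (h2 : rtk6psiRedA hrM c = rtk6psiRedA hrM c') : c = c' := by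
  have e1 : (((c : ZMod M).val : ℕ) : ZMod r) = (((c' : ZMod M).val : ℕ) : ZMod r) := by
    rw [rtk6psi_val_redR hrM, rtk6psi_val_redR hrM, h1]
  have e2 : (((c : ZMod M).val : ℕ) : ZMod (M / r)) = (((c' : ZMod M).val : ℕ) : ZMod (M / r)) := by
    rw [rtk6psi_val_redA hrM, rtk6psi_val_redA hrM, h2]
  have m1 := (ZMod.natCast_eq_natCast_iff _ _ _).1 e1
  have m2 := (ZMod.natCast_eq_natCast_iff _ _ _).1 e2
  have m3 : (c : ZMod M).val ≡ (c' : ZMod M).val [MOD r * (M / r)] :=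
    (Nat.modEq_and_modEq_iff_modEq_mul (rtk6psi_coprime_div hr hrM hr2)).1 ⟨m1, m2⟩
  rw [Nat.mul_div_cancel' hrM] at m3
  have h4 : (c : ZMod M).val = (c' : ZMod M).val := by
    have := m3
    unfold Nat.ModEq at this
    rwa [Nat.mod_eq_of_lt (ZMod.val_lt _), Nat.mod_eq_of_lt (ZMod.val_lt _)] at this
  exact Units.ext (ZMod.val_injective M h4)

/-- CRT, existence of the component at `r` -/
theorem rtk6psi_crt_exists [NeZero M] (hr : r.Prime) (hrM : r ∣ M) (hr2 : ¬ r ^ 2 ∣ M)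
    (c : (ZMod M)ˣ) :
    ∃ a : (ZMod M)ˣ, rtk6psiRedR hrM a = rtk6psiRedR hrM c ∧ rtk6psiRedA hrM a = 1 := by
  have hco := rtk6psi_coprime_div hr hrM hr2
  obtain ⟨n, hn1, hn2⟩ := Nat.chineseRemainder hco (c : ZMod M).val 1
  have hcM : Nat.Coprime (c : ZMod M).val M := ZMod.val_coe_unit_coprime c
  have hnr : Nat.Coprime n r := by
    have h1 : Nat.Coprime (c : ZMod M).val r := Nat.Coprime.coprime_dvd_right hrM hcM
    have h2 := hn1.gcd_eq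
    unfold Nat.Coprime
    rw [h2]
    exact h1
  have hnM' : Nat.Coprime n (M / r) := by
    have h2 := hn2.gcd_eq
    unfold Nat.Coprime
    rw [h2]
    exact Nat.gcd_one_left _
  have hnM : Nat.Coprime n M := by
    rw [← Nat.mul_div_cancel' hrM]
    exact Nat.Coprime.mul_right hnr hnM'
  refine ⟨ZMod.unitOfCoprime n hnM, ?_, ?_⟩
  · apply Units.ext
    rw [← rtk6psi_val_redR hrM, ← rtk6psi_val_redR hrM, ZMod.coe_unitOfCoprime,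
      ZMod.natCast_eq_natCast_iff]
    refine Nat.ModEq.trans ?_ hn1
    have h3 : (((n : ZMod M).val : ℕ) : ZMod M) = ((n : ℕ) : ZMod M) := ZMod.natCast_zmod_val _
    have h4 := (ZMod.natCast_eq_natCast_iff _ _ _).1 h3
    exact h4.of_dvd hrM
  · apply Units.ext
    rw [← rtk6psi_val_redA hrM, Units.val_one, ZMod.coe_unitOfCoprime]
    have h3 : (((n : ZMod M).val : ℕ) : ZMod M) = ((n : ℕ) : ZMod M) := ZMod.natCast_zmod_val _
    have h4 := (ZMod.natCast_eq_natCast_iff _ _ _).1 h3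
    have h5 : (n : ZMod M).val ≡ 1 [MOD M / r] :=
      (h4.of_dvd (Nat.div_dvd_of_dvd hrM)).trans hn2
    have h6 := (ZMod.natCast_eq_natCast_iff _ _ _).2 h5
    rw [h6, Nat.cast_one]

/-- **CRT**: every class is `a * b` with `a` a diamond at `r` and `b ≡ 1` mod `r` -/
theorem rtk6psi_crt (hr : r.Prime) (hrM : r ∣ M) (hr2 : ¬ r ^ 2 ∣ M) (c : (ZMod M)ˣ) :
    ∃ a b : (ZMod M)ˣ, IsAtR M r a ∧ rtk6psiAway M r b ∧ c = a * b := by
  haveI : NeZero M := ⟨rtk6psi_ne_zero hr2⟩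
  obtain ⟨a, ha1, ha2⟩ := rtk6psi_crt_exists hr hrM hr2 c
  refine ⟨a, a⁻¹ * c, (rtk6psi_isAtR_iff hrM a).2 ha2, ?_, ?_⟩
  · rw [rtk6psi_away_iff hrM, map_mul, map_inv, ha1, inv_mul_cancel]
  · rw [mul_inv_cancel_left]

/-- the decomposition is unique -/
theorem rtk6psi_crt_unique (hr : r.Prime) (hrM : r ∣ M) (hr2 : ¬ r ^ 2 ∣ M)
    {a b a' b' : (ZMod M)ˣ} (ha : IsAtR M r a) (hb : rtk6psiAway M r b) (ha' : IsAtR M r a')
    (hb' : rtk6psiAway M r b') (h : a * b = a' * b') : a = a' ∧ b = b' := by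
  haveI : NeZero M := ⟨rtk6psi_ne_zero hr2⟩
  rw [rtk6psi_isAtR_iff hrM] at ha ha'
  rw [rtk6psi_away_iff hrM] at hb hb'
  have h1 := congrArg (rtk6psiRedR hrM) h
  have h2 := congrArg (rtk6psiRedA hrM) h
  rw [map_mul, map_mul, hb, hb', mul_one, mul_one] at h1
  rw [map_mul, map_mul, ha, ha', one_mul, one_mul] at h2
  have e1 : a = a' := rtk6psi_crt_inj hr hrM hr2 h1 (by rw [ha, ha'])
  have e2 : b = b' := rtk6psi_crt_inj hr hrM hr2 (by rw [hb, hb']) h2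
  exact ⟨e1, e2⟩

/-- the diamonds at `r` have exponent `r − 1` -/
theorem rtk6psi_pow_pred (hr : r.Prime) (hrM : r ∣ M) (hr2 : ¬ r ^ 2 ∣ M) {c : (ZMod M)ˣ}
    (hc : IsAtR M r c) : c ^ (r - 1) = 1 := by
  haveI : NeZero M := ⟨rtk6psi_ne_zero hr2⟩
  haveI : Fact r.Prime := ⟨hr⟩
  rw [rtk6psi_isAtR_iff hrM] at hc
  apply rtk6psi_crt_inj hr hrM hr2
  · rw [map_pow, map_one]
    exact ZMod.units_pow_card_sub_one_eq_one r _
  · rw [map_pow, map_one, hc, one_pow]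

end CRT

/-! ### (P1): the product decomposition of `±H` -/

section Product

variable {M r : ℕ} {H : Subgroup (ZMod M)ˣ}

/-- an element of `zpowers (-1)` is its own inverse -/
theorem rtk6psi_sq_of_mem_zpowers {z : (ZMod M)ˣ} (hz : z ∈ Subgroup.zpowers (-1 : (ZMod M)ˣ)) :
    z * z = 1 := by
  obtain ⟨k, rfl⟩ := Subgroup.mem_zpowers_iff.1 hz
  rw [← mul_zpow, neg_mul_neg, one_mul, one_zpow]

/-- `IsStarStable`, in terms of the reduction maps, for elements of `±H` -/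
theorem rtk6psi_star (hr2 : ¬ r ^ 2 ∣ M) (hrM : r ∣ M) (hstar : IsStarStable M r H)
    {c c' : (ZMod M)ˣ} (hc : c ∈ pmH H)
    (h1 : rtk6psiRedR hrM c' = (rtk6psiRedR hrM c)⁻¹)
    (h2 : rtk6psiRedA hrM c' = rtk6psiRedA hrM c) : c' ∈ pmH H := by
  haveI : NeZero M := ⟨rtk6psi_ne_zero hr2⟩
  obtain ⟨h, hh, z, hz, hhz⟩ := Subgroup.mem_sup.1 hc
  have hzz := rtk6psi_sq_of_mem_zpowers hz
  have hzP : z ∈ pmH H := (le_sup_right : Subgroup.zpowers (-1) ≤ pmH H) hz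
  have hzinv : z⁻¹ = z := inv_eq_of_mul_eq_one_right hzz
  -- `c' * z` is the star of `h`
  have hmem : c' * z ∈ pmH H := by
    apply hstar h hh (c' * z)
    · rw [rtk6psi_val_redR hrM, rtk6psi_val_redR hrM]
      congr 1
      rw [map_mul, h1, ← hhz, map_mul, map_inv, mul_inv, mul_assoc, inv_mul_cancel, mul_one]
    · rw [rtk6psi_val_redA hrM, rtk6psi_val_redA hrM]
      congr 1
      rw [map_mul, h2, ← hhz, map_mul, mul_assoc, ← map_mul, hzz, map_one, mul_one]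
  have h3 : c' = c' * z * z := by rw [mul_assoc, hzz, mul_one]
  rw [h3]
  exact mul_mem hmem hzP

/-- **(P1), product decomposition.**  If `a * b ∈ ±H` with `a` a diamond at `r` and `b ≡ 1`
mod `r`, then `a ∈ ±H` and `b ∈ ±H` (`H` star-stable, `(ℤ/M)ˣ/±H` of odd exponent). -/
theorem rtk6psi_product_odd (hr : r.Prime) (hrM : r ∣ M) (hr2 : ¬ r ^ 2 ∣ M)
    (hstar : IsStarStable M r H) {d : ℕ} (hodd : Odd d) (hd : ∀ c : (ZMod M)ˣ, c ^ d ∈ pmH H)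
    {a b : (ZMod M)ˣ} (ha : IsAtR M r a) (hb : rtk6psiAway M r b) (hab : a * b ∈ pmH H) :
    a ∈ pmH H ∧ b ∈ pmH H := by
  haveI : NeZero M := ⟨rtk6psi_ne_zero hr2⟩
  rw [rtk6psi_isAtR_iff hrM] at ha
  rw [rtk6psi_away_iff hrM] at hb
  have h1 : a⁻¹ * b ∈ pmH H := by
    apply rtk6psi_star hr2 hrM hstar hab
    · rw [map_mul, map_mul, map_inv, hb, mul_one, mul_one]
    · rw [map_mul, map_mul, map_inv, ha, inv_one]
  have h2 : a * a ∈ pmH H := by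
    have h3 : a * a = a * b * (a⁻¹ * b)⁻¹ := by
      rw [mul_inv, inv_inv, mul_assoc, mul_left_comm b a b⁻¹, mul_inv_cancel, mul_one]
    rw [h3]
    exact mul_mem hab (inv_mem h1)
  obtain ⟨m, hm⟩ := hodd
  have h4 : a ∈ pmH H := by
    have h5 : a = a ^ d * ((a * a) ^ m)⁻¹ := by
      rw [hm, pow_succ, ← pow_two, ← pow_mul, mul_comm (a ^ (2 * m)) a, mul_assoc,
        mul_inv_cancel, mul_one]
    rw [h5]
    exact mul_mem (hd a) (inv_mem (pow_mem h2 m))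
  refine ⟨h4, ?_⟩
  have h6 : b = a⁻¹ * (a * b) := by rw [inv_mul_cancel_left]
  rw [h6]
  exact mul_mem (inv_mem h4) hab

/-- a tame exponent is odd -/
theorem rtk6psi_odd_of_coprime {L d : ℕ} (h : Nat.Coprime d (6 * L)) : Odd d := by
  have h1 : Nat.Coprime d 6 := Nat.Coprime.coprime_mul_right_right h
  have h2 : Nat.Coprime d 2 := Nat.Coprime.coprime_dvd_right (by norm_num) h1
  exact Nat.coprime_two_right.1 h2

/-- a tame exponent is not zero -/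
theorem rtk6psi_ne_zero_of_coprime {L d : ℕ} (h : Nat.Coprime d (6 * L)) : d ≠ 0 := by
  rintro rfl
  have h1 := (Nat.coprime_zero_left _).1 h
  omega

/-- **(P1)** with the hypothesis `IsTameAt`. -/
theorem rtk6psi_product {L : ℕ} (hr : r.Prime) (hrM : r ∣ M) (hr2 : ¬ r ^ 2 ∣ M)
    (hstar : IsStarStable M r H) (htame : IsTameAt L M r H)
    {a b : (ZMod M)ˣ} (ha : IsAtR M r a) (hb : rtk6psiAway M r b) (hab : a * b ∈ pmH H) :
    a ∈ pmH H ∧ b ∈ pmH H := by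
  obtain ⟨d, hcop, hd⟩ := htame
  exact rtk6psi_product_odd hr hrM hr2 hstar (rtk6psi_odd_of_coprime hcop) hd ha hb hab

end Product

/-! ### (P2): the number `d_r` -/

section Dr

variable {M r : ℕ} {H : Subgroup (ZMod M)ˣ}

/-- **`d_r`**: the order of the (cyclic) image of the diamonds at `r` in `(ℤ/M)ˣ / ±H`, as the
least `n > 0` with `c ^ n ∈ ±H` for every diamond `c` at `r`. -/
def rtk6psiDr (M r : ℕ) (H : Subgroup (ZMod M)ˣ) : ℕ :=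
  sInf {n : ℕ | 0 < n ∧ ∀ c : (ZMod M)ˣ, IsAtR M r c → c ^ n ∈ pmH H}

theorem rtk6psiDr_mem [NeZero M] :
    rtk6psiDr M r H ∈ {n : ℕ | 0 < n ∧ ∀ c : (ZMod M)ˣ, IsAtR M r c → c ^ n ∈ pmH H} := by
  apply Nat.sInf_mem
  refine ⟨Nat.card (ZMod M)ˣ, Nat.card_pos, fun c _ => ?_⟩
  rw [pow_card_eq_one']
  exact one_mem _

theorem rtk6psiDr_pos [NeZero M] : 0 < rtk6psiDr M r H := (rtk6psiDr_mem (r := r) (H := H)).1

/-- `c ^ d_r ∈ ±H` for every diamond `c` at `r` -/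
theorem rtk6psi_pow_mem [NeZero M] {c : (ZMod M)ˣ} (hc : IsAtR M r c) :
    c ^ rtk6psiDr M r H ∈ pmH H := (rtk6psiDr_mem (r := r) (H := H)).2 c hc

/-- **the characterisation of `d_r`** -/
theorem rtk6psiDr_dvd_iff [NeZero M] (n : ℕ) :
    rtk6psiDr M r H ∣ n ↔ ∀ c : (ZMod M)ˣ, IsAtR M r c → c ^ n ∈ pmH H := by
  constructor
  · rintro ⟨k, rfl⟩ c hc
    rw [pow_mul]
    exact pow_mem (rtk6psi_pow_mem hc) k
  · intro h
    by_contra hnd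
    have hpos : 0 < n % rtk6psiDr M r H := by
      rcases Nat.eq_zero_or_pos (n % rtk6psiDr M r H) with h0 | h0
      · exact absurd (Nat.dvd_of_mod_eq_zero h0) hnd
      · exact h0
    have hmem : n % rtk6psiDr M r H ∈
        {n : ℕ | 0 < n ∧ ∀ c : (ZMod M)ˣ, IsAtR M r c → c ^ n ∈ pmH H} := by
      refine ⟨hpos, fun c hc => ?_⟩
      have h1 : c ^ (n % rtk6psiDr M r H) =
          c ^ n * ((c ^ rtk6psiDr M r H) ^ (n / rtk6psiDr M r H))⁻¹ := by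
        rw [eq_mul_inv_iff_mul_eq, ← pow_mul, ← pow_add, Nat.mod_add_div]
      rw [h1]
      exact mul_mem (h c hc) (inv_mem (pow_mem (rtk6psi_pow_mem hc) _))
    have h2 : rtk6psiDr M r H ≤ n % rtk6psiDr M r H := Nat.sInf_le hmem
    have h3 : n % rtk6psiDr M r H < rtk6psiDr M r H := Nat.mod_lt _ rtk6psiDr_pos
    omega

/-- `d_r` divides every exponent of `(ℤ/M)ˣ / ±H` -/
theorem rtk6psiDr_dvd_of_forall [NeZero M] {d : ℕ} (hd : ∀ c : (ZMod M)ˣ, c ^ d ∈ pmH H) :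
    rtk6psiDr M r H ∣ d :=
  (rtk6psiDr_dvd_iff d).2 fun c _ => hd c

/-- `d_r ∣ r − 1` -/
theorem rtk6psiDr_dvd_pred (hr : r.Prime) (hrM : r ∣ M) (hr2 : ¬ r ^ 2 ∣ M) :
    rtk6psiDr M r H ∣ r - 1 := by
  haveI : NeZero M := ⟨rtk6psi_ne_zero hr2⟩
  rw [rtk6psiDr_dvd_iff]
  intro c hc
  rw [rtk6psi_pow_pred hr hrM hr2 hc]
  exact one_mem _

/-- `r ∤ d_r` -/
theorem rtk6psiDr_not_dvd (hr : r.Prime) (hrM : r ∣ M) (hr2 : ¬ r ^ 2 ∣ M) :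
    ¬ r ∣ rtk6psiDr M r H := by
  haveI : NeZero M := ⟨rtk6psi_ne_zero hr2⟩
  have h1 : rtk6psiDr M r H ∣ r - 1 := rtk6psiDr_dvd_pred hr hrM hr2
  have h2 : 0 < r - 1 := Nat.sub_pos_of_lt hr.one_lt
  have h3 : rtk6psiDr M r H ≤ r - 1 := Nat.le_of_dvd h2 h1
  have h4 : 0 < rtk6psiDr M r H := rtk6psiDr_pos
  intro h
  have h5 := Nat.le_of_dvd h4 h
  omega

/-- `d_r = 1` iff all diamonds at `r` lie in `±H` (the case UNIP_H) -/
theorem rtk6psiDr_eq_one_iff [NeZero M] :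
    rtk6psiDr M r H = 1 ↔ ∀ c : (ZMod M)ˣ, IsAtR M r c → c ∈ pmH H := by
  rw [← Nat.dvd_one, rtk6psiDr_dvd_iff]
  simp only [pow_one]

/-- `d_r` is prime to `6 L` in the tame case -/
theorem rtk6psiDr_coprime [NeZero M] {L : ℕ} (htame : IsTameAt L M r H) :
    Nat.Coprime (rtk6psiDr M r H) (6 * L) := by
  obtain ⟨d, hcop, hd⟩ := htame
  exact Nat.Coprime.coprime_dvd_left (rtk6psiDr_dvd_of_forall hd) hcop

end Dr

/-! ### (P3), (P4): the characters -/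

section Psi

variable {M r : ℕ} {H : Subgroup (ZMod M)ˣ}

/-- the subgroup `D_r` of the diamonds at `r` (`c ≡ 1` mod `M / r`) -/
def rtk6psiA (hrM : r ∣ M) : Subgroup (ZMod M)ˣ := (rtk6psiRedA hrM).ker

/-- the subgroup `D′` of the classes `c ≡ 1` mod `r` -/
def rtk6psiB (hrM : r ∣ M) : Subgroup (ZMod M)ˣ := (rtk6psiRedR hrM).ker

theorem rtk6psi_mem_A [NeZero M] (hrM : r ∣ M) (c : (ZMod M)ˣ) :
    c ∈ rtk6psiA hrM ↔ IsAtR M r c := by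
  rw [rtk6psi_isAtR_iff hrM]
  exact MonoidHom.mem_ker

theorem rtk6psi_mem_B [NeZero M] (hrM : r ∣ M) (c : (ZMod M)ˣ) :
    c ∈ rtk6psiB hrM ↔ rtk6psiAway M r c := by
  rw [rtk6psi_away_iff hrM]
  exact MonoidHom.mem_ker

/-- `D_r` is cyclic (it embeds into `(ℤ/r)ˣ`) -/
theorem rtk6psi_isCyclic_A (hr : r.Prime) (hrM : r ∣ M) (hr2 : ¬ r ^ 2 ∣ M) :
    IsCyclic (rtk6psiA (M := M) hrM) := by
  haveI : NeZero M := ⟨rtk6psi_ne_zero hr2⟩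
  haveI : Fact r.Prime := ⟨hr⟩
  apply isCyclic_of_injective ((rtk6psiRedR hrM).comp (rtk6psiA hrM).subtype)
  intro x y hxy
  apply Subtype.ext
  apply rtk6psi_crt_inj hr hrM hr2 hxy
  have hx : rtk6psiRedA hrM (x : (ZMod M)ˣ) = 1 := MonoidHom.mem_ker.1 x.2
  have hy : rtk6psiRedA hrM (y : (ZMod M)ˣ) = 1 := MonoidHom.mem_ker.1 y.2
  exact hx.trans hy.symm

/-- `c₀` generates the diamonds at `r` -/
def Rtk6psiGen (M r : ℕ) (c₀ : (ZMod M)ˣ) : Prop :=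
  IsAtR M r c₀ ∧ ∀ c : (ZMod M)ˣ, IsAtR M r c → ∃ k : ℕ, c = c₀ ^ k

/-- the diamonds at `r` have a generator -/
theorem rtk6psi_exists_gen (hr : r.Prime) (hrM : r ∣ M) (hr2 : ¬ r ^ 2 ∣ M) :
    ∃ c₀ : (ZMod M)ˣ, Rtk6psiGen M r c₀ := by
  haveI : NeZero M := ⟨rtk6psi_ne_zero hr2⟩
  haveI := rtk6psi_isCyclic_A (M := M) hr hrM hr2
  obtain ⟨g, hg⟩ := IsCyclic.exists_monoid_generator (α := rtk6psiA (M := M) hrM)
  refine ⟨g.1, (rtk6psi_mem_A hrM _).1 g.2, fun c hc => ?_⟩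
  obtain ⟨k, hk⟩ := (Submonoid.mem_powers_iff _ _).1 (hg ⟨c, (rtk6psi_mem_A hrM c).2 hc⟩)
  refine ⟨k, ?_⟩
  have := congrArg Subtype.val hk
  simpa using this.symm

/-- the powers of a generator in `±H` -/
theorem Rtk6psiGen.pow_mem_iff [NeZero M] (hrM : r ∣ M) {c₀ : (ZMod M)ˣ}
    (hgen : Rtk6psiGen M r c₀) (n : ℕ) : c₀ ^ n ∈ pmH H ↔ rtk6psiDr M r H ∣ n := by
  rw [rtk6psiDr_dvd_iff]
  constructor
  · intro h c hc
    obtain ⟨k, rfl⟩ := hgen.2 c hc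
    rw [← pow_mul, mul_comm, pow_mul]
    exact pow_mem h k
  · intro h
    exact h c₀ hgen.1

/-- a diamond at `r` in `±H · D′` lies in `±H` -/
theorem rtk6psi_mem_of_mem_sup (hr : r.Prime) (hrM : r ∣ M) (hr2 : ¬ r ^ 2 ∣ M)
    (hstar : IsStarStable M r H) {d : ℕ} (hodd : Odd d) (hd : ∀ c : (ZMod M)ˣ, c ^ d ∈ pmH H)
    {a : (ZMod M)ˣ} (ha : IsAtR M r a) (haN : a ∈ pmH H ⊔ rtk6psiB hrM) : a ∈ pmH H := by
  haveI : NeZero M := ⟨rtk6psi_ne_zero hr2⟩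
  obtain ⟨p, hp, b, hb, hpb⟩ := Subgroup.mem_sup.1 haN
  have hb' : rtk6psiAway M r b⁻¹ := (rtk6psi_mem_B hrM _).1 (inv_mem hb)
  have h1 : a * b⁻¹ ∈ pmH H := by
    rw [← hpb, mul_inv_cancel_right]
    exact hp
  exact (rtk6psi_product_odd hr hrM hr2 hstar hodd hd ha hb' h1).1

/-- `(ℤ/M)ˣ / (±H · D′)` is generated by the class of a generator of `D_r` -/
theorem Rtk6psiGen.mk_mem_zpowers (hr : r.Prime) (hrM : r ∣ M) (hr2 : ¬ r ^ 2 ∣ M)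
    {c₀ : (ZMod M)ˣ} (hgen : Rtk6psiGen M r c₀)
    (q : (ZMod M)ˣ ⧸ (pmH H ⊔ rtk6psiB hrM)) :
    q ∈ Subgroup.zpowers (QuotientGroup.mk' (pmH H ⊔ rtk6psiB hrM) c₀) := by
  haveI : NeZero M := ⟨rtk6psi_ne_zero hr2⟩
  obtain ⟨c, rfl⟩ := QuotientGroup.mk_surjective q
  obtain ⟨a, b, ha, hb, rfl⟩ := rtk6psi_crt hr hrM hr2 c
  obtain ⟨k, rfl⟩ := hgen.2 a ha
  rw [Subgroup.mem_zpowers_iff]
  refine ⟨(k : ℤ), ?_⟩
  rw [zpow_natCast, ← map_pow]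
  have hbN : b ∈ pmH H ⊔ rtk6psiB hrM :=
    (le_sup_right : rtk6psiB hrM ≤ pmH H ⊔ rtk6psiB hrM) ((rtk6psi_mem_B hrM b).2 hb)
  exact (QuotientGroup.mk'_eq_mk' (pmH H ⊔ rtk6psiB hrM)).2 ⟨b, hbN, rfl⟩

/-- `[(ℤ/M)ˣ : ±H · D′] = d_r` -/
theorem rtk6psi_card_quot (hr : r.Prime) (hrM : r ∣ M) (hr2 : ¬ r ^ 2 ∣ M)
    (hstar : IsStarStable M r H) {d : ℕ} (hodd : Odd d) (hd : ∀ c : (ZMod M)ˣ, c ^ d ∈ pmH H) :
    Nat.card ((ZMod M)ˣ ⧸ (pmH H ⊔ rtk6psiB hrM)) = rtk6psiDr M r H := by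
  haveI : NeZero M := ⟨rtk6psi_ne_zero hr2⟩
  obtain ⟨c₀, hgen⟩ := rtk6psi_exists_gen (M := M) hr hrM hr2
  rw [← orderOf_eq_card_of_forall_mem_zpowers (hgen.mk_mem_zpowers (H := H) hr hrM hr2)]
  have hkey : ∀ n : ℕ, orderOf (QuotientGroup.mk' (pmH H ⊔ rtk6psiB hrM) c₀) ∣ n ↔
      rtk6psiDr M r H ∣ n := by
    intro n
    rw [orderOf_dvd_iff_pow_eq_one, ← map_pow, ← hgen.pow_mem_iff hrM]
    constructor
    · intro h
      have h1 : c₀ ^ n ∈ pmH H ⊔ rtk6psiB hrM := (QuotientGroup.eq_one_iff _).1 h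
      have h2 : IsAtR M r (c₀ ^ n) :=
        (rtk6psi_mem_A hrM _).1 (pow_mem ((rtk6psi_mem_A hrM _).2 hgen.1) n)
      exact rtk6psi_mem_of_mem_sup hr hrM hr2 hstar hodd hd h2 h1
    · intro h
      exact (QuotientGroup.eq_one_iff _).2
        ((le_sup_left : pmH H ≤ pmH H ⊔ rtk6psiB hrM) h)
  exact Nat.dvd_antisymm ((hkey _).2 dvd_rfl) ((hkey _).1 dvd_rfl)

/-- **the properties of the character `ψ_r`** -/
structure Rtk6psiIsR (K : Type*) [Field K] (M r : ℕ) (H : Subgroup (ZMod M)ˣ)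
    (ψ : (ZMod M)ˣ →* Kˣ) : Prop where
  /-- `ψ_r` is trivial on `H` -/
  map_H : ∀ h ∈ H, ψ h = 1
  /-- `ψ_r (-1) = 1` -/
  map_neg_one : ψ (-1) = 1
  /-- `ψ_r` is trivial on `±H` -/
  map_pm : ∀ c ∈ pmH H, ψ c = 1
  /-- `ψ_r` is trivial on `D′` (`c ≡ 1` mod `r`) -/
  map_away : ∀ c : (ZMod M)ˣ, rtk6psiAway M r c → ψ c = 1
  /-- `ψ_r ^ d_r = 1` -/
  pow_dr : ∀ c : (ZMod M)ˣ, ψ c ^ rtk6psiDr M r H = 1
  /-- `ψ_r` is faithful on the image of the diamonds at `r` -/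
  faithful : ∀ c : (ZMod M)ˣ, IsAtR M r c → ψ c = 1 → c ∈ pmH H
  /-- the kernel of `ψ_r` is `±H · D′` -/
  ker : ∀ c : (ZMod M)ˣ, ψ c = 1 ↔
    ∃ p ∈ pmH H, ∃ b : (ZMod M)ˣ, rtk6psiAway M r b ∧ c = p * b
  /-- `ψ_r` has exact order `d_r` at every generator of the diamonds at `r` -/
  orderOf_gen : ∀ c₀ : (ZMod M)ˣ, Rtk6psiGen M r c₀ → orderOf (ψ c₀) = rtk6psiDr M r H

/-- **(P3): the character `ψ_r` exists** (`K` contains a primitive `d_r`-th root of unity). -/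
theorem rtk6psi_exists_psiR_odd (K : Type*) [Field K] (hr : r.Prime) (hrM : r ∣ M)
    (hr2 : ¬ r ^ 2 ∣ M) (hstar : IsStarStable M r H) {d : ℕ} (hodd : Odd d)
    (hd : ∀ c : (ZMod M)ˣ, c ^ d ∈ pmH H)
    (hζ : ∃ ζ : K, IsPrimitiveRoot ζ (rtk6psiDr M r H)) :
    ∃ ψ : (ZMod M)ˣ →* Kˣ, Rtk6psiIsR K M r H ψ := by
  haveI : NeZero M := ⟨rtk6psi_ne_zero hr2⟩
  obtain ⟨c₀, hgen⟩ := rtk6psi_exists_gen (M := M) hr hrM hr2
  have hcard := rtk6psi_card_quot hr hrM hr2 hstar hodd hd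
  have hcyc : IsCyclic ((ZMod M)ˣ ⧸ (pmH H ⊔ rtk6psiB hrM)) :=
    ⟨⟨_, hgen.mk_mem_zpowers (H := H) hr hrM hr2⟩⟩
  obtain ⟨ψ, hψ⟩ := rtk6psi_abs_exists_ker K (pmH H ⊔ rtk6psiB hrM) hcyc (by rw [hcard]; exact hζ)
  have hpm : ∀ c ∈ pmH H, ψ c = 1 := fun c hc =>
    (hψ c).2 ((le_sup_left : pmH H ≤ pmH H ⊔ rtk6psiB hrM) hc)
  have hfaith : ∀ c : (ZMod M)ˣ, IsAtR M r c → ψ c = 1 → c ∈ pmH H := fun c hc h =>
    rtk6psi_mem_of_mem_sup hr hrM hr2 hstar hodd hd hc ((hψ c).1 h)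
  refine ⟨ψ, ⟨fun h hh => hpm h (le_pmH H hh), hpm _ (neg_one_mem_pmH H), hpm, ?_, ?_, hfaith,
    ?_, ?_⟩⟩
  · intro c hc
    exact (hψ c).2 ((le_sup_right : rtk6psiB hrM ≤ pmH H ⊔ rtk6psiB hrM)
      ((rtk6psi_mem_B hrM c).2 hc))
  · intro c
    rw [← map_pow, hψ, ← hcard, ← QuotientGroup.eq_one_iff, QuotientGroup.mk_pow]
    exact pow_card_eq_one'
  · intro c
    rw [hψ, Subgroup.mem_sup]
    constructor
    · rintro ⟨p, hp, b, hb, hpb⟩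
      exact ⟨p, hp, b, (rtk6psi_mem_B hrM b).1 hb, hpb.symm⟩
    · rintro ⟨p, hp, b, hb, rfl⟩
      exact ⟨p, hp, b, (rtk6psi_mem_B hrM b).2 hb, rfl⟩
  · intro c₁ hgen₁
    have hkey : ∀ n : ℕ, orderOf (ψ c₁) ∣ n ↔ rtk6psiDr M r H ∣ n := by
      intro n
      rw [orderOf_dvd_iff_pow_eq_one, ← map_pow, ← hgen₁.pow_mem_iff hrM]
      constructor
      · intro h
        have h2 : IsAtR M r (c₁ ^ n) :=
          (rtk6psi_mem_A hrM _).1 (pow_mem ((rtk6psi_mem_A hrM _).2 hgen₁.1) n)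
        exact hfaith _ h2 h
      · intro h
        exact hpm _ h
    exact Nat.dvd_antisymm ((hkey _).2 dvd_rfl) ((hkey _).1 dvd_rfl)

/-- **the properties of the family `ψ′_i`** (`d` an exponent of `(ℤ/M)ˣ / ±H`) -/
structure Rtk6psiIsFam (K : Type*) [Field K] (M r d : ℕ) (H : Subgroup (ZMod M)ˣ)
    {ι : Type*} (ψ' : ι → ((ZMod M)ˣ →* Kˣ)) : Prop where
  /-- the `ψ′_i` are trivial on `H` -/
  map_H : ∀ i, ∀ h ∈ H, ψ' i h = 1
  /-- `ψ′_i (-1) = 1` -/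
  map_neg_one : ∀ i, ψ' i (-1) = 1
  /-- the `ψ′_i` are trivial on `±H` -/
  map_pm : ∀ i, ∀ c ∈ pmH H, ψ' i c = 1
  /-- the `ψ′_i` are trivial on the diamonds at `r` -/
  map_atR : ∀ i, ∀ c : (ZMod M)ˣ, IsAtR M r c → ψ' i c = 1
  /-- `ψ′_i ^ d = 1` -/
  pow_d : ∀ i, ∀ c : (ZMod M)ˣ, ψ' i c ^ d = 1
  /-- the joint kernel of the `ψ′_i` is `±H · D_r` -/
  ker : ∀ c : (ZMod M)ˣ, (∀ i, ψ' i c = 1) →
    ∃ p ∈ pmH H, ∃ a : (ZMod M)ˣ, IsAtR M r a ∧ c = p * a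

/-- **(P4): the family `ψ′_i` exists** (`K` contains a primitive `d`-th root of unity). -/
theorem rtk6psi_exists_fam (K : Type*) [Field K] (hrM : r ∣ M) (hM : M ≠ 0) {d : ℕ}
    (hd0 : d ≠ 0) (hd : ∀ c : (ZMod M)ˣ, c ^ d ∈ pmH H) (hζ : ∃ ζ : K, IsPrimitiveRoot ζ d) :
    ∃ (k : ℕ) (ψ' : Fin k → ((ZMod M)ˣ →* Kˣ)), Rtk6psiIsFam K M r d H ψ' := by
  haveI : NeZero M := ⟨hM⟩
  obtain ⟨k, ψ', h1, h2, h3⟩ := rtk6psi_abs_family K (pmH H ⊔ rtk6psiA hrM) hd0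
    (fun c => (le_sup_left : pmH H ≤ pmH H ⊔ rtk6psiA hrM) (hd c)) hζ
  have hpm : ∀ i, ∀ c ∈ pmH H, ψ' i c = 1 := fun i c hc =>
    h1 i c ((le_sup_left : pmH H ≤ pmH H ⊔ rtk6psiA hrM) hc)
  refine ⟨k, ψ', ⟨fun i h hh => hpm i h (le_pmH H hh), fun i => hpm i _ (neg_one_mem_pmH H), hpm,
    ?_, h2, ?_⟩⟩
  · intro i c hc
    exact h1 i c ((le_sup_right : rtk6psiA hrM ≤ pmH H ⊔ rtk6psiA hrM)
      ((rtk6psi_mem_A hrM c).2 hc))
  · intro c hc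
    obtain ⟨p, hp, a, ha, hpa⟩ := Subgroup.mem_sup.1 (h3 c hc)
    exact ⟨p, hp, a, (rtk6psi_mem_A hrM a).1 ha, hpa.symm⟩

/-- **joint faithfulness**: `ψ_r` and the `ψ′_i` together are faithful on `(ℤ/M)ˣ / ±H`. -/
theorem Rtk6psiIsFam.faithful {K : Type*} [Field K] {d : ℕ} {ι : Type*}
    {ψ' : ι → ((ZMod M)ˣ →* Kˣ)} (hfam : Rtk6psiIsFam K M r d H ψ')
    {ψ : (ZMod M)ˣ →* Kˣ} (hpm : ∀ c ∈ pmH H, ψ c = 1)
    (hfaith : ∀ c : (ZMod M)ˣ, IsAtR M r c → ψ c = 1 → c ∈ pmH H)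
    {c : (ZMod M)ˣ} (hc : ψ c = 1) (hc' : ∀ i, ψ' i c = 1) : c ∈ pmH H := by
  obtain ⟨p, hp, a, ha, rfl⟩ := hfam.ker c hc'
  rw [map_mul, hpm p hp, one_mul] at hc
  exact mul_mem hp (hfaith a ha hc)

/-- joint faithfulness, for `ψ_r` -/
theorem Rtk6psiIsFam.faithful_psiR {K : Type*} [Field K] {d : ℕ} {ι : Type*}
    {ψ' : ι → ((ZMod M)ˣ →* Kˣ)} (hfam : Rtk6psiIsFam K M r d H ψ')
    {ψ : (ZMod M)ˣ →* Kˣ} (hψ : Rtk6psiIsR K M r H ψ)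
    {c : (ZMod M)ˣ} (hc : ψ c = 1) (hc' : ∀ i, ψ' i c = 1) : c ∈ pmH H :=
  hfam.faithful hψ.map_pm hψ.faithful hc hc'

/-- **(P3) + (P4)**, from a tame exponent `d` and a primitive `d`-th root of unity in `K`. -/
theorem rtk6psi_exists (K : Type*) [Field K] {L : ℕ} (hr : r.Prime) (hrM : r ∣ M)
    (hr2 : ¬ r ^ 2 ∣ M) (hstar : IsStarStable M r H) {d : ℕ} (hcop : Nat.Coprime d (6 * L))
    (hd : ∀ c : (ZMod M)ˣ, c ^ d ∈ pmH H) (hζ : ∃ ζ : K, IsPrimitiveRoot ζ d) :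
    ∃ (ψr : (ZMod M)ˣ →* Kˣ) (k : ℕ) (ψ' : Fin k → ((ZMod M)ˣ →* Kˣ)),
      Rtk6psiIsR K M r H ψr ∧ Rtk6psiIsFam K M r d H ψ' := by
  haveI : NeZero M := ⟨rtk6psi_ne_zero hr2⟩
  have hd0 := rtk6psi_ne_zero_of_coprime hcop
  have hodd := rtk6psi_odd_of_coprime hcop
  have hζr : ∃ ζ : K, IsPrimitiveRoot ζ (rtk6psiDr M r H) := by
    obtain ⟨ζ, hζ⟩ := hζ
    obtain ⟨e, he⟩ := rtk6psiDr_dvd_of_forall (r := r) hd
    refine ⟨ζ ^ e, IsPrimitiveRoot.pow (Nat.pos_of_ne_zero hd0) hζ ?_⟩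
    rw [he, mul_comm]
  obtain ⟨ψr, hψr⟩ := rtk6psi_exists_psiR_odd K hr hrM hr2 hstar hodd hd hζr
  obtain ⟨k, ψ', hψ'⟩ := rtk6psi_exists_fam (r := r) K hrM (rtk6psi_ne_zero hr2) hd0 hd hζ
  exact ⟨ψr, k, ψ', hψr, hψ'⟩

/-- **(P3) + (P4) as ONE family** indexed by `Fin (k + 1)`: `ψ 0 = ψ_r`, `ψ (i + 1) = ψ′_i`;
all members are trivial on `±H`, of exponent `d`, and the family is faithful on
`(ℤ/M)ˣ / ±H` (the hypotheses of `rtk6d0_gen`). -/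
theorem rtk6psi_exists_fin (K : Type*) [Field K] {L : ℕ} (hr : r.Prime) (hrM : r ∣ M)
    (hr2 : ¬ r ^ 2 ∣ M) (hstar : IsStarStable M r H) {d : ℕ} (hcop : Nat.Coprime d (6 * L))
    (hd : ∀ c : (ZMod M)ˣ, c ^ d ∈ pmH H) (hζ : ∃ ζ : K, IsPrimitiveRoot ζ d) :
    ∃ (k : ℕ) (ψ : Fin (k + 1) → ((ZMod M)ˣ →* Kˣ)),
      Rtk6psiIsR K M r H (ψ 0) ∧ Rtk6psiIsFam K M r d H (fun i : Fin k => ψ i.succ) ∧
      (∀ i, ∀ h ∈ H, ψ i h = 1) ∧ (∀ i, ψ i (-1) = 1) ∧ (∀ i, ∀ c, ψ i c ^ d = 1) ∧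
      ∀ c : (ZMod M)ˣ, (∀ i, ψ i c = 1) → c ∈ pmH H := by
  haveI : NeZero M := ⟨rtk6psi_ne_zero hr2⟩
  obtain ⟨ψr, k, ψ', hψr, hψ'⟩ := rtk6psi_exists K hr hrM hr2 hstar hcop hd hζ
  refine ⟨k, Fin.cons ψr ψ', ?_, ?_, ?_, ?_, ?_, ?_⟩
  · simpa using hψr
  · simpa using hψ'
  · intro i
    refine Fin.cases ?_ (fun j => ?_) i
    · simpa using hψr.map_H
    · simpa using hψ'.map_H j
  · intro i
    refine Fin.cases ?_ (fun j => ?_) i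
    · simpa using hψr.map_neg_one
    · simpa using hψ'.map_neg_one j
  · intro i c
    refine Fin.cases ?_ (fun j => ?_) i
    · obtain ⟨e, he⟩ := rtk6psiDr_dvd_of_forall (r := r) hd
      have h1 := hψr.pow_dr c
      rw [Fin.cons_zero, he, pow_mul, h1, one_pow]
    · simpa using hψ'.pow_d j c
  · intro c hc
    apply hψ'.faithful_psiR hψr
    · simpa using hc 0
    · intro j
      simpa using hc j.succ

/-- an algebraically closed field of characteristic `0` contains a primitive `d`-th root of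
unity, `d ≠ 0` -/
theorem rtk6psi_exists_primitiveRoot (K : Type*) [Field K] [IsAlgClosed K] [CharZero K] {d : ℕ}
    (hd0 : d ≠ 0) : ∃ ζ : K, IsPrimitiveRoot ζ d := by
  haveI : NeZero (d : K) := ⟨Nat.cast_ne_zero.2 hd0⟩
  exact HasEnoughRootsOfUnity.exists_primitiveRoot K d

/-- **(P3) + (P4), tame case, `K` algebraically closed of characteristic `0`** (e.g. `K = ℚ̄`):
a tame exponent `d`, the character `ψ_r` and the family `ψ′_i`. -/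
theorem rtk6psi_exists_tame (K : Type*) [Field K] [IsAlgClosed K] [CharZero K] {L : ℕ}
    (hr : r.Prime) (hrM : r ∣ M) (hr2 : ¬ r ^ 2 ∣ M) (hstar : IsStarStable M r H)
    (htame : IsTameAt L M r H) :
    ∃ d : ℕ, Nat.Coprime d (6 * L) ∧ (∀ c : (ZMod M)ˣ, c ^ d ∈ pmH H) ∧
      rtk6psiDr M r H ∣ d ∧
      ∃ (ψr : (ZMod M)ˣ →* Kˣ) (k : ℕ) (ψ' : Fin k → ((ZMod M)ˣ →* Kˣ)),
        Rtk6psiIsR K M r H ψr ∧ Rtk6psiIsFam K M r d H ψ' := by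
  haveI : NeZero M := ⟨rtk6psi_ne_zero hr2⟩
  obtain ⟨d, hcop, hd⟩ := htame
  exact ⟨d, hcop, hd, rtk6psiDr_dvd_of_forall hd,
    rtk6psi_exists K hr hrM hr2 hstar hcop hd
      (rtk6psi_exists_primitiveRoot K (rtk6psi_ne_zero_of_coprime hcop))⟩

/-- **(P3) alone, tame case**, `K` with a primitive `d_r`-th root of unity. -/
theorem rtk6psi_exists_psiR (K : Type*) [Field K] {L : ℕ} (hr : r.Prime) (hrM : r ∣ M)
    (hr2 : ¬ r ^ 2 ∣ M) (hstar : IsStarStable M r H) (htame : IsTameAt L M r H)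
    (hζ : ∃ ζ : K, IsPrimitiveRoot ζ (rtk6psiDr M r H)) :
    ∃ ψ : (ZMod M)ˣ →* Kˣ, Rtk6psiIsR K M r H ψ := by
  obtain ⟨d, hcop, hd⟩ := htame
  exact rtk6psi_exists_psiR_odd K hr hrM hr2 hstar (rtk6psi_odd_of_coprime hcop) hd hζ

/-- the data of `rtk6de_inst_coprime` for `ψ_r`: a diamond `c₀` at `r` with `ψ_r (c₀)` of exact
order `d_r`, and `ψ_r ^ d_r = 1`. -/
theorem Rtk6psiIsR.exists_orderOf {K : Type*} [Field K] {ψ : (ZMod M)ˣ →* Kˣ}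
    (hψ : Rtk6psiIsR K M r H ψ) (hr : r.Prime) (hrM : r ∣ M) (hr2 : ¬ r ^ 2 ∣ M) :
    ∃ c₀ : (ZMod M)ˣ, IsAtR M r c₀ ∧ orderOf (ψ c₀) = rtk6psiDr M r H := by
  obtain ⟨c₀, hgen⟩ := rtk6psi_exists_gen (M := M) hr hrM hr2
  exact ⟨c₀, hgen.1, hψ.orderOf_gen c₀ hgen⟩

end Psi

end Fermat.Agent.RT.K6

end
end ZBRT_085_0

/-! ### bundled: `Fermat.Agent.RT.K6.C4UKumChar` -/
section ZBRT_085_1
/-
K-machine, piece K6, piece **C4-U (A), (K1) characters** (helper18): the characters `ψ_i` of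
`(ℤ/M)ˣ / ±H` with values in an intermediate field `K₀ ⊇ ℚ̄^I` (`= beta0Field A`), for the Kummer
generators of `fieldC K₀ L M H` over the `Γ₀(L)`-field (helper37's `Rtk6c4uGet`, case (U)).

`d` prime to `6 L`, `q ∣ L` ⇒ `q ∤ d` ⇒ the `d`-th roots of unity lie in the inertia field
`ℚ̄^I ⊆ K₀` (`stb_unit_data`); the group theory is helper5's `rtk6psi_abs_family` (`Psi.lean`).

* `rtk6c4uc_not_dvd`             : `¬ q ∣ d`;
* `rtk6c4uc_exists_primitiveRoot` : a primitive `d`-th root of unity in `K₀`;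
* **`rtk6c4uc_characters`**      : `∃ k (ψ : Fin k → ((ZMod M)ˣ →* K₀ˣ))`, trivial on `H` and on
  `−1`, `ψ_i ^ d = 1`, jointly faithful modulo `±H`;
* `rtk6c4uc_characters_pm`       : the same with "trivial on `±H`" in addition;
* `rtk6c4uc_characters_tame`     : the same from `IsTameAt L M q H`.
-/

set_option autoImplicit false
set_option linter.style.haveILetI false
set_option linter.unusedSectionVars false
set_option linter.unusedVariables false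

noncomputable section

namespace Fermat.Agent.RT.K6

open Fermat.Agent.ES1 Fermat.Agent.UNIP Fermat.Agent.STB IntermediateField
open Fermat.Agent.ES Fermat.Agent.ES.G2

section Char

variable {A : ValuationSubring Qb} {K₀ : IntermediateField ℚ Qb} {q : ℕ}

/-- `d` prime to `6 L`, `q ∣ L` ⇒ `q ∤ d` -/
theorem rtk6c4uc_not_dvd (hq : q.Prime) {L d : ℕ} (hdc : Nat.Coprime d (6 * L)) (hqL : q ∣ L) :
    ¬ q ∣ d := by
  intro hqd
  have h6 : q ∣ 6 * L := Dvd.dvd.mul_left hqL 6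
  have h7 : q ∣ Nat.gcd d (6 * L) := Nat.dvd_gcd hqd h6
  rw [hdc.gcd_eq_one] at h7
  exact hq.one_lt.ne' (Nat.dvd_one.mp h7)

/-- a primitive `d`-th root of unity in `K₀ ⊇ ℚ̄^I`, `q ∤ d` -/
theorem rtk6c4uc_exists_primitiveRoot (hq : q.Prime) (hA : A.LiesOverPrime q)
    (hE : beta0Field A ≤ K₀) {d : ℕ} (hd0 : d ≠ 0) (hqd : ¬ q ∣ d) :
    ∃ ζ : ↥K₀, IsPrimitiveRoot ζ d := by
  have hM : ((d : ℕ) : Qb) ∉ A.nonunits := stb_natCast_not_mem_nonunits A hq hA hqd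
  obtain ⟨ζ, hζ⟩ := beta0Ring_exists_primitiveRoot (A := A) (K₀ := K₀) hE hd0 hM
  exact ⟨(ζ : ↥K₀), hζ.map_of_injective (f := (beta0Ring A K₀).subtype)
    Subtype.val_injective⟩

/-- **(K1), with the triviality on `±H`.** -/
theorem rtk6c4uc_characters_pm (hq : q.Prime) (hA : A.LiesOverPrime q)
    (hE : beta0Field A ≤ K₀) {L M : ℕ} (H : Subgroup (ZMod M)ˣ) (hM0 : M ≠ 0) {d : ℕ}
    (hdc : Nat.Coprime d (6 * L)) (hqL : q ∣ L) (hdH : ∀ c : (ZMod M)ˣ, c ^ d ∈ pmH H) :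
    ∃ (k : ℕ) (ψ : Fin k → ((ZMod M)ˣ →* (↥K₀)ˣ)),
      (∀ i, ∀ h ∈ pmH H, ψ i h = 1) ∧ (∀ i, ∀ h ∈ H, ψ i h = 1) ∧ (∀ i, ψ i (-1) = 1) ∧
      (∀ i c, ψ i c ^ d = 1) ∧ (∀ c, (∀ i, ψ i c = 1) → c ∈ pmH H) := by
  haveI : NeZero M := ⟨hM0⟩
  have hd0 : d ≠ 0 := rtk6psi_ne_zero_of_coprime hdc
  obtain ⟨k, ψ, h1, h2, h3⟩ := rtk6psi_abs_family (G := (ZMod M)ˣ) ↥K₀ (pmH H) hd0 hdH
    (rtk6c4uc_exists_primitiveRoot hq hA hE hd0 (rtk6c4uc_not_dvd hq hdc hqL))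
  exact ⟨k, ψ, h1, fun i h hh => h1 i h (le_pmH H hh), fun i => h1 i _ (neg_one_mem_pmH H),
    h2, h3⟩

/-- **(K1) CHARACTERS**: the characters `ψ_i : (ℤ/M)ˣ → K₀ˣ`, trivial on `H` and on `−1`, of
exponent `d`, jointly faithful modulo `±H`. -/
theorem rtk6c4uc_characters (hq : q.Prime) (hA : A.LiesOverPrime q)
    (hE : beta0Field A ≤ K₀) {L M : ℕ} (H : Subgroup (ZMod M)ˣ) (hM0 : M ≠ 0) {d : ℕ}
    (hdc : Nat.Coprime d (6 * L)) (hqL : q ∣ L) (hdH : ∀ c : (ZMod M)ˣ, c ^ d ∈ pmH H) :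
    ∃ (k : ℕ) (ψ : Fin k → ((ZMod M)ˣ →* (↥K₀)ˣ)),
      (∀ i, ∀ h ∈ H, ψ i h = 1) ∧ (∀ i, ψ i (-1) = 1) ∧ (∀ i c, ψ i c ^ d = 1) ∧
      (∀ c, (∀ i, ψ i c = 1) → c ∈ pmH H) := by
  obtain ⟨k, ψ, -, h1, h2, h3, h4⟩ := rtk6c4uc_characters_pm hq hA hE H hM0 hdc hqL hdH
  exact ⟨k, ψ, h1, h2, h3, h4⟩

/-- **(K1) from `IsTameAt`**: the exponent `d` and the characters. -/
theorem rtk6c4uc_characters_tame (hq : q.Prime) (hA : A.LiesOverPrime q)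
    (hE : beta0Field A ≤ K₀) {L M : ℕ} (H : Subgroup (ZMod M)ˣ) (hM0 : M ≠ 0) (hqL : q ∣ L)
    (htame : IsTameAt L M q H) :
    ∃ d : ℕ, Nat.Coprime d (6 * L) ∧ d ≠ 0 ∧ ¬ q ∣ d ∧ (∀ c : (ZMod M)ˣ, c ^ d ∈ pmH H) ∧
      ∃ (k : ℕ) (ψ : Fin k → ((ZMod M)ˣ →* (↥K₀)ˣ)),
        (∀ i, ∀ h ∈ H, ψ i h = 1) ∧ (∀ i, ψ i (-1) = 1) ∧ (∀ i c, ψ i c ^ d = 1) ∧
        (∀ c, (∀ i, ψ i c = 1) → c ∈ pmH H) := by
  obtain ⟨d, hdc, hdH⟩ := htame
  exact ⟨d, hdc, rtk6psi_ne_zero_of_coprime hdc, rtk6c4uc_not_dvd hq hdc hqL, hdH,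
    rtk6c4uc_characters hq hA hE H hM0 hdc hqL hdH⟩

end Char

end Fermat.Agent.RT.K6

end
end ZBRT_085_1
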