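/- GENERATED FILE (helper35, build-time optimisation, NOTES/ZB.md): verbatim concatenation of the modules
   Fermat.Agent.RT.K6.LFInvAbs
   Fermat.Agent.RT.K6.LFInv
   Fermat.Agent.RT.K6.C4InstBUGet
   Fermat.Agent.RT.K6.GenInstKInv
   Fermat.Agent.RT.K6.UnipFinal
   Do not edit; do not import together with these modules. -/
import Fermat.Agent.ZB.RT_001
import Fermat.Agent.ZB.RIB_005
import Fermat.Agent.ZB.RT_074
import Fermat.Agent.ZB.RT_076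
import Fermat.Agent.ZB.RT_080
import Fermat.Agent.ZB.RT_084
import Fermat.Agent.ZB.RT_085

/-! ### bundled: `Fermat.Agent.RT.K6.LFInvAbs` -/
section ZBRT_077_0
/-
K-machine, piece K6, LF-inst on the chart `1/j` (helper71): ABSTRACT CHART TRANSFER.

Two charts `B₁`, `B₂ ⊆ F` (injective `Algebra B_i F`), primes `𝔫₁ ⊆ B₁`, `𝔫₂ ⊆ B₂` with the SAME
local ring `ls_localSubring 𝔫₁ = ls_localSubring 𝔫₂ ⊆ F`.  Then local generation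
(`UNIP.NodesLocGen`) and the thin dichotomy of `RT/K6/DLFChart.lean` (`Rtk6lfThinAt`) move from
`𝔫₁` to `𝔫₂`.

* `rtk6lfi_exists_num`     : every element of `B₁` is `b / v` with `b, v ∈ B₂`, `v ∉ 𝔫₂`;
* `rtk6lfi_not_mem_of_not_mem` : `x ∉ 𝔫₁`, `v x = x'` ⇒ `x' ∉ 𝔫₂`;
* `rtk6lfi_mem_of_mem`     : `x ∈ 𝔫₁`, `v x = x'` (`v ∉ 𝔫₂`) ⇒ `x' ∈ 𝔫₂`;
* `rtk6lfi_span_transfer`  : clearing denominators in `Ideal.span T₁`;
* `rtk6lfi_locGen_transfer`: `NodesLocGen 𝔫₁ T₁ → NodesLocGen 𝔫₂ T₂` if every element of `T₁`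
  is, up to a factor outside `𝔫₂`, in `Ideal.span T₂`;
* `rtk6lfi_thinAt_transfer`: **`Rtk6lfThinAt V₁ V₂ 𝔫₁ → Rtk6lfThinAt V₁ V₂ 𝔫₂`** for closed points
  of two charts `u`, `u'` with `atLoc 𝔫₁ = atLoc 𝔫₂`.
-/

set_option autoImplicit false
set_option linter.unusedSectionVars false
set_option linter.unusedVariables false
set_option linter.style.haveILetI false

namespace Fermat.Agent.RT.K6

open Fermat.Agent.UNIP Fermat.Agent.STB Fermat.Agent.INJ IntermediateField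

section Abs

variable {F : Type*} [Field F] {B₁ B₂ : Type*} [CommRing B₁] [CommRing B₂]
  [Algebra B₁ F] [Algebra B₂ F]

/-- every element of `B₁` is a fraction over `B₂` with denominator outside `𝔫₂` -/
theorem rtk6lfi_exists_num (𝔫₁ : Ideal B₁) [𝔫₁.IsPrime] (𝔫₂ : Ideal B₂) [𝔫₂.IsPrime]
    (h : ls_localSubring (F := F) 𝔫₁ ≤ ls_localSubring (F := F) 𝔫₂) (x : B₁) :
    ∃ b v : B₂, v ∉ 𝔫₂ ∧ algebraMap B₂ F v * algebraMap B₁ F x = algebraMap B₂ F b :=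
  h (ls_algebraMap_mem (F := F) 𝔫₁ x)

/-- numerators of elements outside `𝔫₁` are outside `𝔫₂` -/
theorem rtk6lfi_not_mem_of_not_mem (hinj₁ : Function.Injective (algebraMap B₁ F))
    (hinj₂ : Function.Injective (algebraMap B₂ F))
    (𝔫₁ : Ideal B₁) [h₁ : 𝔫₁.IsPrime] (𝔫₂ : Ideal B₂) [h₂ : 𝔫₂.IsPrime]
    (h : ls_localSubring (F := F) 𝔫₁ ≤ ls_localSubring (F := F) 𝔫₂) {x : B₁} (hx : x ∉ 𝔫₁)
    {x' v : B₂} (hv : v ∉ 𝔫₂)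
    (hxx' : algebraMap B₂ F v * algebraMap B₁ F x = algebraMap B₂ F x') : x' ∉ 𝔫₂ := by
  intro hx'
  have hx0 : algebraMap B₁ F x ≠ 0 := by
    intro h0
    apply hx
    have : x = 0 := hinj₁ (by rw [h0, map_zero])
    rw [this]
    exact 𝔫₁.zero_mem
  have hmem : (algebraMap B₁ F x)⁻¹ ∈ ls_localSubring (F := F) 𝔫₁ :=
    ⟨1, x, hx, by rw [mul_inv_cancel₀ hx0, map_one]⟩
  obtain ⟨c, s, hs, hsc⟩ := h hmem
  -- `s = c · x`, so `v s = c x'`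
  have e : algebraMap B₂ F (v * s) = algebraMap B₂ F (c * x') := by
    rw [map_mul, map_mul, ← hsc, ← hxx']
    field_simp
  have e' : v * s = c * x' := hinj₂ e
  have : v * s ∈ 𝔫₂ := by rw [e']; exact 𝔫₂.mul_mem_left _ hx'
  rcases h₂.mem_or_mem this with h' | h'
  · exact hv h'
  · exact hs h'

/-- numerators of elements of `𝔫₁` are in `𝔫₂` -/
theorem rtk6lfi_mem_of_mem (hinj₁ : Function.Injective (algebraMap B₁ F))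
    (hinj₂ : Function.Injective (algebraMap B₂ F))
    (𝔫₁ : Ideal B₁) [h₁ : 𝔫₁.IsPrime] (𝔫₂ : Ideal B₂) [h₂ : 𝔫₂.IsPrime]
    (h : ls_localSubring (F := F) 𝔫₂ ≤ ls_localSubring (F := F) 𝔫₁) {x : B₁} (hx : x ∈ 𝔫₁)
    {x' v : B₂}
    (hxx' : algebraMap B₂ F v * algebraMap B₁ F x = algebraMap B₂ F x') : x' ∈ 𝔫₂ := by
  by_contra hx'
  -- `x' ∉ 𝔫₂`: then `x'` is a unit of the local ring, `1 / x = v / x'`
  have hx'0 : algebraMap B₂ F x' ≠ 0 := by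
    intro h0
    apply hx'
    have : x' = 0 := hinj₂ (by rw [h0, map_zero])
    rw [this]
    exact 𝔫₂.zero_mem
  have hx0 : algebraMap B₁ F x ≠ 0 := by
    intro h0
    rw [h0, mul_zero] at hxx'
    exact hx'0 hxx'.symm
  have hmem : (algebraMap B₁ F x)⁻¹ ∈ ls_localSubring (F := F) 𝔫₂ :=
    ⟨v, x', hx', by rw [← hxx']; field_simp⟩
  obtain ⟨c, s, hs, hsc⟩ := h hmem
  -- `s = c x`
  have e : algebraMap B₁ F s = algebraMap B₁ F (c * x) := by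
    rw [map_mul, ← hsc]
    field_simp
  have e' : s = c * x := hinj₁ e
  exact hs (by rw [e']; exact 𝔫₁.mul_mem_left _ hx)

/-- **Clearing denominators in a span.** -/
theorem rtk6lfi_span_transfer (hinj₂ : Function.Injective (algebraMap B₂ F))
    (𝔫₁ : Ideal B₁) [h₁ : 𝔫₁.IsPrime] (𝔫₂ : Ideal B₂) [h₂ : 𝔫₂.IsPrime]
    (h : ls_localSubring (F := F) 𝔫₁ ≤ ls_localSubring (F := F) 𝔫₂)
    {T₁ : Set B₁} {T₂ : Set B₂}
    (hT : ∀ x ∈ T₁, ∃ w y : B₂, w ∉ 𝔫₂ ∧ y ∈ Ideal.span T₂ ∧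
      algebraMap B₂ F w * algebraMap B₁ F x = algebraMap B₂ F y)
    {z : B₁} (hz : z ∈ Ideal.span T₁) :
    ∃ w y : B₂, w ∉ 𝔫₂ ∧ y ∈ Ideal.span T₂ ∧
      algebraMap B₂ F w * algebraMap B₁ F z = algebraMap B₂ F y := by
  induction hz using Submodule.span_induction with
  | mem x hx => exact hT x hx
  | zero =>
    exact ⟨1, 0, fun h' => h₂.ne_top ((Ideal.eq_top_iff_one 𝔫₂).mpr h'), Ideal.zero_mem _,
      by simp⟩
  | add x y _ _ hx hy =>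
    obtain ⟨w, a, hw, ha, e⟩ := hx
    obtain ⟨w', a', hw', ha', e'⟩ := hy
    refine ⟨w * w', w' * a + w * a', fun h' => ?_,
      Ideal.add_mem _ (Ideal.mul_mem_left _ _ ha) (Ideal.mul_mem_left _ _ ha'), ?_⟩
    · rcases h₂.mem_or_mem h' with h'' | h''
      · exact hw h''
      · exact hw' h''
    · rw [map_add, map_add, map_mul, map_mul, map_mul, ← e, ← e']
      ring
  | smul c x _ hx =>
    obtain ⟨w, a, hw, ha, e⟩ := hx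
    obtain ⟨c', v, hv, ec⟩ := rtk6lfi_exists_num 𝔫₁ 𝔫₂ h c
    refine ⟨v * w, c' * a, fun h' => ?_, Ideal.mul_mem_left _ _ ha, ?_⟩
    · rcases h₂.mem_or_mem h' with h'' | h''
      · exact hv h''
      · exact hw h''
    · rw [smul_eq_mul, map_mul, map_mul, map_mul, ← e, ← ec]
      ring

/-- **Transfer of local generation** between two charts with the same local ring. -/
theorem rtk6lfi_locGen_transfer (hinj₁ : Function.Injective (algebraMap B₁ F))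
    (hinj₂ : Function.Injective (algebraMap B₂ F))
    (𝔫₁ : Ideal B₁) [h₁ : 𝔫₁.IsPrime] (𝔫₂ : Ideal B₂) [h₂ : 𝔫₂.IsPrime]
    (h : ls_localSubring (F := F) 𝔫₁ = ls_localSubring (F := F) 𝔫₂)
    {T₁ : Set B₁} {T₂ : Set B₂}
    (hT : ∀ x ∈ T₁, ∃ w y : B₂, w ∉ 𝔫₂ ∧ y ∈ Ideal.span T₂ ∧
      algebraMap B₂ F w * algebraMap B₁ F x = algebraMap B₂ F y)
    (hgen : NodesLocGen 𝔫₁ T₁) : NodesLocGen 𝔫₂ T₂ := by
  intro b' hb'
  -- `b' = b / t` over `B₁`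
  obtain ⟨b, t, ht, e⟩ := rtk6lfi_exists_num 𝔫₂ 𝔫₁ h.ge b'
  have hb : b ∈ 𝔫₁ := rtk6lfi_mem_of_mem hinj₂ hinj₁ 𝔫₂ 𝔫₁ h.le hb' e
  obtain ⟨u₁, hu₁, hub⟩ := hgen b hb
  obtain ⟨w, y, hw, hy, e₂⟩ := rtk6lfi_span_transfer hinj₂ 𝔫₁ 𝔫₂ h.le hT hub
  -- `u₁ t = w₁ / w₀`
  have hut : u₁ * t ∉ 𝔫₁ := fun h' => by
    rcases h₁.mem_or_mem h' with h'' | h''
    · exact hu₁ h''
    · exact ht h''
  obtain ⟨w₁, w₀, hw₀, e₃⟩ := rtk6lfi_exists_num 𝔫₁ 𝔫₂ h.le (u₁ * t)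
  have hw₁ : w₁ ∉ 𝔫₂ := rtk6lfi_not_mem_of_not_mem hinj₁ hinj₂ 𝔫₁ 𝔫₂ h.le hut hw₀ e₃
  refine ⟨w * w₁, fun h' => ?_, ?_⟩
  · rcases h₂.mem_or_mem h' with h'' | h''
    · exact hw h''
    · exact hw₁ h''
  · have e₄ : w * w₁ * b' = w₀ * y := by
      apply hinj₂
      rw [map_mul, map_mul, map_mul, ← e₂, ← e₃, map_mul, map_mul, ← e]
      ring
    rw [e₄]
    exact Ideal.mul_mem_left _ _ hy

end Abs

section Chart

universe u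

variable {A₀ E F : Type u} [CommRing A₀] [IsDomain A₀] [IsDiscreteValuationRing A₀]
  [Field E] [Algebra A₀ E] [IsFractionRing A₀ E] [CharZero E]
  [Field F] [Algebra E F] [Algebra A₀ F] [IsScalarTower A₀ E F]
  {π : A₀}

/-- incidence moves between charts with the same local ring -/
theorem rtk6lfi_through_transfer {u u' : F} (𝔫₁ : AtPt (F := F) π u) (𝔫₂ : AtPt (F := F) π u')
    (h : atLoc 𝔫₁ = atLoc 𝔫₂) (W : ValuationSubring F)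
    (hBW : ∀ b : F, IsIntegral ↥(Algebra.adjoin A₀ {u}) b → b ∈ W)
    (h₁ : atThrough 𝔫₁ W) : atThrough 𝔫₂ W := by
  haveI := 𝔫₁.2.1.isPrime
  haveI := 𝔫₂.2.1.isPrime
  intro b' hb'
  obtain ⟨b, t, ht, e⟩ := rtk6lfi_exists_num (F := F) 𝔫₂.1 𝔫₁.1 h.ge b'
  have e' : (t : F) * (b' : F) = (b : F) := e
  have hb : (b : F) ∈ W.nonunits := by
    rw [← e']
    exact pwi_mul_mem_nonunits W (hBW _ (mem_zchClosure.mp t.2)) hb'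
  have hb𝔫 : b ∈ 𝔫₁.1 := h₁ b hb
  by_contra hb'𝔫
  exact rtk6lfi_not_mem_of_not_mem (F := F) Subtype.val_injective Subtype.val_injective
    𝔫₂.1 𝔫₁.1 h.ge hb'𝔫 ht e hb𝔫

/-- the coercion of the uniformizer of a chart -/
theorem rtk6lfi_coe_pi (u : F) :
    ((algebraMap A₀ ↥(zchClosure (A₀ := A₀) ({u} : Set F)) π :
      ↥(zchClosure (A₀ := A₀) ({u} : Set F))) : F) = algebraMap A₀ F π := rfl

/-- the uniformizer moves between charts -/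
theorem rtk6lfi_pi_transfer {u u' : F} (𝔫₂ : AtPt (F := F) π u')
    (T₂ : Set ↥(zchClosure (A₀ := A₀) ({u'} : Set F)))
    (hT₂ : algebraMap A₀ ↥(zchClosure (A₀ := A₀) ({u'} : Set F)) π ∈ T₂) :
    ∃ w y : ↥(zchClosure (A₀ := A₀) ({u'} : Set F)), w ∉ 𝔫₂.1 ∧ y ∈ Ideal.span T₂ ∧
      algebraMap ↥(zchClosure (A₀ := A₀) ({u'} : Set F)) F w *
        algebraMap ↥(zchClosure (A₀ := A₀) ({u} : Set F)) F
          (algebraMap A₀ ↥(zchClosure (A₀ := A₀) ({u} : Set F)) π) =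
      algebraMap ↥(zchClosure (A₀ := A₀) ({u'} : Set F)) F y := by
  haveI := 𝔫₂.2.1.isPrime
  refine ⟨1, algebraMap A₀ ↥(zchClosure (A₀ := A₀) ({u'} : Set F)) π,
    fun h' => 𝔫₂.2.1.isPrime.ne_top ((Ideal.eq_top_iff_one 𝔫₂.1).mpr h'),
    Ideal.subset_span hT₂, ?_⟩
  rw [map_one, one_mul]
  exact (rtk6lfi_coe_pi (π := π) u).trans (rtk6lfi_coe_pi (π := π) u').symm

/-- **Transfer of the thin dichotomy, smooth case.** -/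
theorem rtk6lfi_smooth_transfer {u u' : F} (𝔫₁ : AtPt (F := F) π u) (𝔫₂ : AtPt (F := F) π u')
    (h : atLoc 𝔫₁ = atLoc 𝔫₂)
    {s : ↥(zchClosure (A₀ := A₀) ({u} : Set F))} (hs : s ∈ 𝔫₁.1)
    (hgen : NodesLocGen 𝔫₁.1 {algebraMap A₀ ↥(zchClosure (A₀ := A₀) ({u} : Set F)) π, s}) :
    ∃ s' : ↥(zchClosure (A₀ := A₀) ({u'} : Set F)), s' ∈ 𝔫₂.1 ∧
      NodesLocGen 𝔫₂.1 {algebraMap A₀ ↥(zchClosure (A₀ := A₀) ({u'} : Set F)) π, s'} := by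
  haveI := 𝔫₁.2.1.isPrime
  haveI := 𝔫₂.2.1.isPrime
  have hinj₁ : Function.Injective
      (algebraMap ↥(zchClosure (A₀ := A₀) ({u} : Set F)) F) := Subtype.val_injective
  have hinj₂ : Function.Injective
      (algebraMap ↥(zchClosure (A₀ := A₀) ({u'} : Set F)) F) := Subtype.val_injective
  have hloc : ls_localSubring (F := F) 𝔫₁.1 = ls_localSubring (F := F) 𝔫₂.1 := h
  obtain ⟨s', v, hv, e⟩ := rtk6lfi_exists_num (F := F) 𝔫₁.1 𝔫₂.1 hloc.le s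
  have hs' : s' ∈ 𝔫₂.1 := rtk6lfi_mem_of_mem hinj₁ hinj₂ 𝔫₁.1 𝔫₂.1 hloc.ge hs e
  refine ⟨s', hs', ?_⟩
  refine rtk6lfi_locGen_transfer hinj₁ hinj₂ 𝔫₁.1 𝔫₂.1 hloc ?_ hgen
  intro x hx
  rcases hx with hx | hx
  · rw [hx]
    exact rtk6lfi_pi_transfer 𝔫₂ _ (Set.mem_insert _ _)
  · rw [Set.mem_singleton_iff] at hx
    rw [hx]
    exact ⟨v, s', hv, Ideal.subset_span (Set.mem_insert_of_mem _ rfl), e⟩

/-- **Transfer of the thin dichotomy, crossing case.** -/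
theorem rtk6lfi_cross_transfer {u u' : F} (𝔫₁ : AtPt (F := F) π u) (𝔫₂ : AtPt (F := F) π u')
    (h : atLoc 𝔫₁ = atLoc 𝔫₂) (V₁ V₂ : ValuationSubring F)
    (hBV₁ : ∀ b : F, IsIntegral ↥(Algebra.adjoin A₀ {u}) b → b ∈ V₁)
    (hBV₂ : ∀ b : F, IsIntegral ↥(Algebra.adjoin A₀ {u}) b → b ∈ V₂)
    (hBV₁' : ∀ b : F, IsIntegral ↥(Algebra.adjoin A₀ {u'}) b → b ∈ V₁)
    (hBV₂' : ∀ b : F, IsIntegral ↥(Algebra.adjoin A₀ {u'}) b → b ∈ V₂)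
    {X Y : ↥(zchClosure (A₀ := A₀) ({u} : Set F))}
    (hc : Rtk6lfCrossAt V₁ V₂ 𝔫₁ X Y) :
    ∃ X' Y' : ↥(zchClosure (A₀ := A₀) ({u'} : Set F)), Rtk6lfCrossAt V₁ V₂ 𝔫₂ X' Y' := by
  haveI := 𝔫₁.2.1.isPrime
  haveI := 𝔫₂.2.1.isPrime
  have hinj₁ : Function.Injective
      (algebraMap ↥(zchClosure (A₀ := A₀) ({u} : Set F)) F) := Subtype.val_injective
  have hinj₂ : Function.Injective
      (algebraMap ↥(zchClosure (A₀ := A₀) ({u'} : Set F)) F) := Subtype.val_injective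
  have hloc : ls_localSubring (F := F) 𝔫₁.1 = ls_localSubring (F := F) 𝔫₂.1 := h
  obtain ⟨hth₁, hth₂, hX, hY, ⟨w, hw, hXY⟩, hgen⟩ := hc
  obtain ⟨X', v₁, hv₁, eX⟩ := rtk6lfi_exists_num (F := F) 𝔫₁.1 𝔫₂.1 hloc.le X
  obtain ⟨Y', v₂, hv₂, eY⟩ := rtk6lfi_exists_num (F := F) 𝔫₁.1 𝔫₂.1 hloc.le Y
  obtain ⟨w₁, w₀, hw₀, ew⟩ := rtk6lfi_exists_num (F := F) 𝔫₁.1 𝔫₂.1 hloc.le w
  have hw₁ : w₁ ∉ 𝔫₂.1 :=
    rtk6lfi_not_mem_of_not_mem hinj₁ hinj₂ 𝔫₁.1 𝔫₂.1 hloc.le hw hw₀ ew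
  have eX' : (v₁ : F) * (X : F) = (X' : F) := eX
  have eY' : (v₂ : F) * (Y : F) = (Y' : F) := eY
  have ew' : (w₀ : F) * (w : F) = (w₁ : F) := ew
  have hXY' : (w : F) * algebraMap A₀ F π = (X : F) * (Y : F) := by
    have h1 := congrArg (fun z : ↥(zchClosure (A₀ := A₀) ({u} : Set F)) => (z : F)) hXY
    simp only [MulMemClass.coe_mul] at h1
    rw [rtk6lfi_coe_pi] at h1
    exact h1
  have hwv : w₀ * v₁ ∉ 𝔫₂.1 := fun h' => by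
    rcases 𝔫₂.2.1.isPrime.mem_or_mem h' with h'' | h''
    · exact hw₀ h''
    · exact hv₁ h''
  have e1 : ((w₀ * X' : ↥(zchClosure (A₀ := A₀) ({u'} : Set F))) : F) =
      ((w₀ : F) * (v₁ : F)) * (X : F) := by
    rw [MulMemClass.coe_mul, ← eX']; ring
  refine ⟨w₀ * X', Y', ?_, ?_, ?_, ?_, ⟨w₁ * v₁ * v₂, ?_, ?_⟩, ?_⟩
  · exact rtk6lfi_through_transfer 𝔫₁ 𝔫₂ h V₁ hBV₁ hth₁
  · exact rtk6lfi_through_transfer 𝔫₁ 𝔫₂ h V₂ hBV₂ hth₂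
  · -- `w₀ X' = (w₀ v₁) X ∈ 𝔪(V₁)`
    rw [e1]
    exact pwi_mul_mem_nonunits V₁
      (V₁.mul_mem _ _ (hBV₁' _ (mem_zchClosure.mp w₀.2)) (hBV₁' _ (mem_zchClosure.mp v₁.2))) hX
  · rw [← eY']
    exact pwi_mul_mem_nonunits V₂ (hBV₂' _ (mem_zchClosure.mp v₂.2)) hY
  · intro h'
    rcases 𝔫₂.2.1.isPrime.mem_or_mem h' with h'' | h''
    · rcases 𝔫₂.2.1.isPrime.mem_or_mem h'' with h3 | h3
      · exact hw₁ h3
      · exact hv₁ h3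
    · exact hv₂ h''
  · apply Subtype.ext
    rw [MulMemClass.coe_mul, MulMemClass.coe_mul, MulMemClass.coe_mul, MulMemClass.coe_mul,
      MulMemClass.coe_mul, rtk6lfi_coe_pi, ← ew', ← eX', ← eY']
    calc (w₀ : F) * (w : F) * (v₁ : F) * (v₂ : F) * algebraMap A₀ F π
        = (w₀ : F) * (v₁ : F) * (v₂ : F) * ((w : F) * algebraMap A₀ F π) := by ring
      _ = (w₀ : F) * (v₁ : F) * (v₂ : F) * ((X : F) * (Y : F)) := by rw [hXY']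
      _ = (w₀ : F) * ((v₁ : F) * (X : F)) * ((v₂ : F) * (Y : F)) := by ring
  · refine rtk6lfi_locGen_transfer hinj₁ hinj₂ 𝔫₁.1 𝔫₂.1 hloc ?_ hgen
    intro x hx
    rcases hx with hx | hx | hx
    · rw [hx]
      exact rtk6lfi_pi_transfer 𝔫₂ _ (Set.mem_insert _ _)
    · rw [hx]
      exact ⟨w₀ * v₁, w₀ * X', hwv,
        Ideal.subset_span (Set.mem_insert_of_mem _ (Set.mem_insert _ _)), by
          show ((w₀ * v₁ : ↥(zchClosure (A₀ := A₀) ({u'} : Set F))) : F) * (X : F) =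
            ((w₀ * X' : ↥(zchClosure (A₀ := A₀) ({u'} : Set F))) : F)
          rw [e1, MulMemClass.coe_mul]⟩
    · rw [Set.mem_singleton_iff] at hx
      rw [hx]
      exact ⟨v₂, Y', hv₂,
        Ideal.subset_span (Set.mem_insert_of_mem _ (Set.mem_insert_of_mem _ rfl)), eY⟩

/-- **Transfer of the thin dichotomy** between two charts with the same local ring. -/
theorem rtk6lfi_thinAt_transfer {u u' : F} (𝔫₁ : AtPt (F := F) π u) (𝔫₂ : AtPt (F := F) π u')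
    (h : atLoc 𝔫₁ = atLoc 𝔫₂) (V₁ V₂ : ValuationSubring F)
    (hBV₁ : ∀ b : F, IsIntegral ↥(Algebra.adjoin A₀ {u}) b → b ∈ V₁)
    (hBV₂ : ∀ b : F, IsIntegral ↥(Algebra.adjoin A₀ {u}) b → b ∈ V₂)
    (hBV₁' : ∀ b : F, IsIntegral ↥(Algebra.adjoin A₀ {u'}) b → b ∈ V₁)
    (hBV₂' : ∀ b : F, IsIntegral ↥(Algebra.adjoin A₀ {u'}) b → b ∈ V₂)
    (hthin : Rtk6lfThinAt V₁ V₂ 𝔫₁) : Rtk6lfThinAt V₁ V₂ 𝔫₂ := by
  rcases hthin with ⟨s, hs, hgen⟩ | ⟨X, Y, hc⟩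
  · exact Or.inl (rtk6lfi_smooth_transfer 𝔫₁ 𝔫₂ h hs hgen)
  · exact Or.inr (rtk6lfi_cross_transfer 𝔫₁ 𝔫₂ h V₁ V₂ hBV₁ hBV₂ hBV₁' hBV₂' hc)

end Chart

end Fermat.Agent.RT.K6


end ZBRT_077_0

/-! ### bundled: `Fermat.Agent.RT.K6.LFInv` -/
section ZBRT_077_1
/-
K-machine, piece K6, LF-inst on the chart `1 / j` (helper71): the twin of `RT/K6/DLFConc.lean`
(helper54, chart `j`) for the chart `1 / j` of `F_{Mq}(K₀)`.

Level `M q`, `q ∤ M`, RIGID: `4 ∣ M` if `q ≠ 2`, `9 ∣ M` if `q = 2`.  `A` a valuation subring of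
`ℚ̄` over `q`, `K₀ ⊇ ℚ̄^I` with `A₀ = A ∩ K₀` a DVR, unramified (`q` a uniformizer), stable under a
Frobenius element; `F = F_{Mq}(K₀)`, `V = mgvV hπ ιC hq hqM` (`V true = V_∞`, `V false = V_0`).

A closed point `𝔫` of the special fibre of the chart `1 / j` is either a CUSP (`1 / j ∈ 𝔫`), which
is a smooth point (`RIB.MP.ribmp_fcu_smooth`, helper81), or it lies on the chart `j`
(`RIB.MP.ribmp_fgl_exists_pt_inv`, helper2), where the thin dichotomy is `rtk6lfb_thinAt_J`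
(helper54); the thin datum moves between the charts by `rtk6lfi_thinAt_transfer`
(`RT/K6/LFInvAbs.lean`).

* `rtk6lfi_thinAt_Jinv` : **`Rtk6lfThinAt V_∞ V_0 𝔫` at every closed point of the chart `1 / j`**;
* `rtk6lfi_ufd_Jinv` : `atLoc 𝔫` is a UFD;
* `rtk6lfi_cross_LF_Jinv`, `rtk6lfi_smooth_LF_Jinv`, `rtk6lfi_LF_Jinv` : **(LF)** on the chart
  `1 / j`, in exactly the shape of `rtk6lfb_LF_J`;
* `rtk6lfi0_thinAt_Jinv`, `rtk6lfi0_ufd_Jinv`, `rtk6lfi0_LF_Jinv` : the same for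
  `K₀ = ℚ̄^I = beta0Field A` (no hypothesis left but the rigidity of the level).
-/

set_option autoImplicit false
set_option linter.style.haveILetI false
set_option linter.unusedSectionVars false
set_option linter.unusedVariables false
set_option linter.style.longLine false
set_option synthInstance.maxHeartbeats 400000
set_option maxHeartbeats 8000000

noncomputable section

namespace Fermat.Agent.RT.K6

open ModularCurve Polynomial IntermediateField Fermat.Agent.INJ Fermat.Agent.AL AlgebraicCurve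
open Fermat.Agent.ES Fermat.Agent.ES.G2 Fermat.Agent.STB Fermat.Agent.UNIP Fermat.Agent.S36
open Fermat.Agent.RIB.MP

section Reg

variable {A : ValuationSubring Qb} {K₀ : IntermediateField ℚ Qb}
  [IsDiscreteValuationRing ↥(beta0Ring A K₀)] {π : ↥(beta0Ring A K₀)} (hπ : Irreducible π)
  (ιC : ↥K₀ →+* ℂ) {q M : ℕ} [NeZero q] [NeZero M] [NeZero (M * q)]
  (hq : q.Prime) (hqM : ¬ q ∣ M)

include hπ ιC hq hqM in
/-- **The thin dichotomy at every closed point of the chart `1 / j`** of `F_{Mq}(K₀)` over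
`A₀ = A ∩ K₀` (unramified, Frobenius-stable), rigid level. -/
theorem rtk6lfi_thinAt_Jinv (hA : A.LiesOverPrime q) (hE : beta0Field A ≤ K₀)
    {φ : Qb ≃ₐ[ℚ] Qb} (hφF : A.IsFrobeniusAt φ q) (hφ : ∀ x ∈ K₀, φ x ∈ K₀)
    (hqπ : Associated ((q : ℕ) : ↥(beta0Ring A K₀)) π)
    (rigid : (q ≠ 2 → 4 ∣ M) ∧ (q = 2 → 9 ∣ M))
    (𝔫 : AtPt (F := ↥(modularFunctionFieldFullC ↥K₀ (M * q))) π (bgJ ↥K₀ (M * q))⁻¹) :
    Rtk6lfThinAt (mgvV hπ ιC hq hqM true) (mgvV hπ ιC hq hqM false) 𝔫 := by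
  have h2 := rtk6lfb_rigid_h2 rigid
  have h3 := rtk6lfb_rigid_h3 rigid
  by_cases hT : ribmpFglGen (A₀ := ↥(beta0Ring A K₀)) (bgJ ↥K₀ (M * q))⁻¹ ∈ 𝔫.1
  · exact Or.inl (ribmp_fcu_smooth hπ hq hqM hA hE hφF hφ h2 h3 𝔫 hT)
  · obtain ⟨𝔫₁, h𝔫₁⟩ := ribmp_fgl_exists_pt_inv hπ (ribmp_fcu_bgJ_ne_zero K₀ M q) 𝔫 hT
    exact rtk6lfi_thinAt_transfer 𝔫₁ 𝔫 h𝔫₁ _ _
      (mgv_hBV₁ hπ ιC hq hqM true) (mgv_hBV₁ hπ ιC hq hqM false)
      (mgv_hBV₂ hπ ιC hq hqM true) (mgv_hBV₂ hπ ιC hq hqM false)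
      (rtk6lfb_thinAt_J hπ ιC hq hqM hA hφF hφ hqπ rigid
        (stb_regChart_conc_J M hq hA hE hπ hqM h2 h3) 𝔫₁)

include hπ ιC hq hqM in
/-- **`atLoc 𝔫` is a UFD at every closed point of the chart `1 / j`**. -/
theorem rtk6lfi_ufd_Jinv (hA : A.LiesOverPrime q) (hE : beta0Field A ≤ K₀) {φ : Qb ≃ₐ[ℚ] Qb}
    (hφF : A.IsFrobeniusAt φ q) (hφ : ∀ x ∈ K₀, φ x ∈ K₀)
    (hqπ : Associated ((q : ℕ) : ↥(beta0Ring A K₀)) π)
    (rigid : (q ≠ 2 → 4 ∣ M) ∧ (q = 2 → 9 ∣ M))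
    (𝔫 : AtPt (F := ↥(modularFunctionFieldFullC ↥K₀ (M * q))) π (bgJ ↥K₀ (M * q))⁻¹) :
    UniqueFactorizationMonoid ↥(atLoc 𝔫) := by
  have h2 := rtk6lfb_rigid_h2 rigid
  have h3 := rtk6lfb_rigid_h3 rigid
  by_cases hT : ribmpFglGen (A₀ := ↥(beta0Ring A K₀)) (bgJ ↥K₀ (M * q))⁻¹ ∈ 𝔫.1
  · exact ribmp_fcu_ufd_atLoc hπ hq hqM hA hE hφF hφ h2 h3 𝔫 hT
  · obtain ⟨𝔫₁, h𝔫₁⟩ := ribmp_fgl_exists_pt_inv hπ (ribmp_fcu_bgJ_ne_zero K₀ M q) 𝔫 hT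
    exact ribmp_fgl_ufd_of_eq h𝔫₁ (rtk6lfb_ufd_J hπ ιC hq hqM hA hE hφF hφ hqπ rigid 𝔫₁)

/-! ### (LF) -/

include hπ ιC hq hqM in
/-- **(LF) at a thin crossing point** of the chart `1 / j`: `y = ε · Y ^ n₀ · γ ^ m`. -/
theorem rtk6lfi_cross_LF_Jinv (hA : A.LiesOverPrime q) (hE : beta0Field A ≤ K₀)
    (h2 : q = 2 → 3 ∣ M) (h3 : q = 3 → 2 ∣ M)
    (𝔫 : AtPt (F := ↥(modularFunctionFieldFullC ↥K₀ (M * q))) π (bgJ ↥K₀ (M * q))⁻¹)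
    {X Y : ↥(zchClosure (A₀ := ↥(beta0Ring A K₀))
      ({(bgJ ↥K₀ (M * q))⁻¹} : Set ↥(modularFunctionFieldFullC ↥K₀ (M * q))))}
    (h : Rtk6lfCrossAt (mgvV hπ ιC hq hqM true) (mgvV hπ ιC hq hqM false) 𝔫 X Y)
    (m : ℕ) {y : ↥(modularFunctionFieldFullC ↥K₀ (M * q))} (hy : y ≠ 0)
    (hhor : ∀ P : Place ↥K₀ ↥(modularFunctionFieldFullC ↥K₀ (M * q)),
      (∀ x ∈ atLoc 𝔫, x ∈ P.toValuationSubring) → (m : ℤ) ∣ P.ord y)
    (hy₁ : (mgvV hπ ιC hq hqM true).valuation y = 1) {n₀ : ℤ}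
    (hn₀ : (mgvV hπ ιC hq hqM false).valuation y = (mgvV hπ ιC hq hqM false).valuation
      (algebraMap ↥(beta0Ring A K₀) ↥(modularFunctionFieldFullC ↥K₀ (M * q)) π) ^ n₀) :
    ∃ (γ : ↥(modularFunctionFieldFullC ↥K₀ (M * q))) (ε : ↥(atLoc 𝔫)), IsUnit ε ∧
      y = (ε : ↥(modularFunctionFieldFullC ↥K₀ (M * q))) *
        (Y : ↥(modularFunctionFieldFullC ↥K₀ (M * q))) ^ n₀ * γ ^ m ∧ γ ≠ 0 ∧
      (mgvV hπ ιC hq hqM true).valuation γ = 1 ∧ (mgvV hπ ιC hq hqM false).valuation γ = 1 := by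
  haveI := ribmp_fcu_noeth (A := A) (K₀ := K₀) (M := M) (q := q)
  haveI := ribmp_fc_fin_inv (K₀ := K₀) (M * q)
  obtain ⟨γ, ε, b, hε, hyε, hγ, hγ₁, hγ₂, hb⟩ := rtk6lfc_cross_LF (E := ↥K₀) hπ
    (mgvV hπ ιC hq hqM) true false mgv_hκ (mgv_hBV₂ hπ ιC hq hqM) (mgv_hπV hπ ιC hq hqM)
    (ribmp_fc_hSS1_inv hπ ιC hq hqM hA hE h2 h3) (ribmp_fc_hU hπ ιC hq hqM) 𝔫 h m hy hhor hy₁
  have hbn : b = n₀ := rtk6lfb_zpow_inj _ (mgv_hπV hπ ιC hq hqM false) (ribmp_fc_hπ0 hπ)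
    (hb.symm.trans hn₀)
  subst hbn
  exact ⟨γ, ε, hε, hyε, hγ, hγ₁, hγ₂⟩

include hπ ιC hq hqM in
/-- **(LF) at a smooth point** of the chart `1 / j` on the component `V c`:
`y = ε · π ^ n · γ ^ m`, `v_c(y) = v_c(π) ^ n`. -/
theorem rtk6lfi_smooth_LF_Jinv (hA : A.LiesOverPrime q) (hE : beta0Field A ≤ K₀)
    (h2 : q = 2 → 3 ∣ M) (h3 : q = 3 → 2 ∣ M)
    (𝔫 : AtPt (F := ↥(modularFunctionFieldFullC ↥K₀ (M * q))) π (bgJ ↥K₀ (M * q))⁻¹)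
    {s : ↥(zchClosure (A₀ := ↥(beta0Ring A K₀))
      ({(bgJ ↥K₀ (M * q))⁻¹} : Set ↥(modularFunctionFieldFullC ↥K₀ (M * q))))} (hs : s ∈ 𝔫.1)
    (hgen : NodesLocGen 𝔫.1 {algebraMap ↥(beta0Ring A K₀) ↥(zchClosure (A₀ := ↥(beta0Ring A K₀))
      ({(bgJ ↥K₀ (M * q))⁻¹} : Set ↥(modularFunctionFieldFullC ↥K₀ (M * q)))) π, s})
    (m : ℕ) {y : ↥(modularFunctionFieldFullC ↥K₀ (M * q))} (hy : y ≠ 0)
    (hhor : ∀ P : Place ↥K₀ ↥(modularFunctionFieldFullC ↥K₀ (M * q)),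
      (∀ x ∈ atLoc 𝔫, x ∈ P.toValuationSubring) → (m : ℤ) ∣ P.ord y) :
    ∃ c : Bool, atThrough 𝔫 (mgvV hπ ιC hq hqM c) ∧
      (∀ c', atThrough 𝔫 (mgvV hπ ιC hq hqM c') → c' = c) ∧
      ∀ n : ℤ, (mgvV hπ ιC hq hqM c).valuation y = (mgvV hπ ιC hq hqM c).valuation
          (algebraMap ↥(beta0Ring A K₀) ↥(modularFunctionFieldFullC ↥K₀ (M * q)) π) ^ n →
        ∃ (γ : ↥(modularFunctionFieldFullC ↥K₀ (M * q))) (ε : ↥(atLoc 𝔫)), IsUnit ε ∧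
          y = (ε : ↥(modularFunctionFieldFullC ↥K₀ (M * q))) *
            algebraMap ↥(beta0Ring A K₀) ↥(modularFunctionFieldFullC ↥K₀ (M * q)) π ^ n *
              γ ^ m ∧ γ ≠ 0 ∧ (mgvV hπ ιC hq hqM c).valuation γ = 1 := by
  haveI := ribmp_fcu_noeth (A := A) (K₀ := K₀) (M := M) (q := q)
  haveI := ribmp_fc_fin_inv (K₀ := K₀) (M * q)
  have hSS1 := ribmp_fc_hSS1_inv hπ ιC hq hqM hA hE h2 h3
  have harch' : ∀ c, StbArch (mgvV hπ ιC hq hqM c) := fun c x a ha => by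
    obtain ⟨N, hN⟩ := mgv_harch hπ ιC hq hqM c a x ha
    exact ⟨N, by rw [mul_comm x (a ^ N)]; exact hN⟩
  obtain ⟨c, hc, hone⟩ := stb_sx_exists_unique (mgvV hπ ιC hq hqM) (mgv_hBV₂ hπ ιC hq hqM)
    (mgv_hπV hπ ιC hq hqM) hSS1
    (mgv_hVloc₂ hπ ιC hq hqM hA (ribmp_fc_hSS1 hπ ιC hq hqM hA hE h2 h3))
    (fun c c' hcc' => stb_not_le_of_ne (harch' c) (ribmp_fc_hπ0 hπ) (mgv_hπV hπ ιC hq hqM c')
      (rtk6lfb_hne hπ ιC hq hqM hA c c' hcc')) 𝔫 s hs hgen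
  refine ⟨c, hc, hone, fun n hn => ?_⟩
  obtain ⟨γ, ε, a, hε, hyε, hγ, hγ₁, ha⟩ := rtk6lfc_smooth_fac (E := ↥K₀) hπ
    (mgvV hπ ιC hq hqM) (mgv_hBV₂ hπ ιC hq hqM) (mgv_hπV hπ ιC hq hqM)
    hSS1 (ribmp_fc_hU hπ ιC hq hqM) 𝔫 c hc hone hs hgen m hy hhor
  have han : a = n := rtk6lfb_zpow_inj _ (mgv_hπV hπ ιC hq hqM c) (ribmp_fc_hπ0 hπ)
    (ha.symm.trans hn)
  subst han
  exact ⟨γ, ε, hε, hyε, hγ, hγ₁⟩

include hπ ιC hq hqM in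
/-- **(LF) at every closed point of the chart `1 / j`** (rigid level, unramified
Frobenius-stable base): `y ≠ 0` with divisor divisible by `m`, unit at `V_∞`,
`v_0(y) = v_0(π) ^ n₀`.  Then at `𝔫`:
* crossing point `𝔫 = (π, X, Y)`, `w π = X Y`: `y = ε · Y ^ n₀ · γ ^ m`;
* smooth point of `Σ_0`: `y = ε · π ^ n₀ · γ ^ m`;
* smooth point of `Σ_∞`: `y = ε · γ ^ m`;
with `ε` a unit of `atLoc 𝔫` and `γ` a unit at the components through `𝔫`. -/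
theorem rtk6lfi_LF_Jinv (hA : A.LiesOverPrime q) (hE : beta0Field A ≤ K₀) {φ : Qb ≃ₐ[ℚ] Qb}
    (hφF : A.IsFrobeniusAt φ q) (hφ : ∀ x ∈ K₀, φ x ∈ K₀)
    (hqπ : Associated ((q : ℕ) : ↥(beta0Ring A K₀)) π)
    (rigid : (q ≠ 2 → 4 ∣ M) ∧ (q = 2 → 9 ∣ M))
    (m : ℕ) {y : ↥(modularFunctionFieldFullC ↥K₀ (M * q))} (hy : y ≠ 0)
    (hhor : ∀ P : Place ↥K₀ ↥(modularFunctionFieldFullC ↥K₀ (M * q)), (m : ℤ) ∣ P.ord y)
    (hy₁ : (mgvV hπ ιC hq hqM true).valuation y = 1) {n₀ : ℤ}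
    (hn₀ : (mgvV hπ ιC hq hqM false).valuation y = (mgvV hπ ιC hq hqM false).valuation
      (algebraMap ↥(beta0Ring A K₀) ↥(modularFunctionFieldFullC ↥K₀ (M * q)) π) ^ n₀)
    (𝔫 : AtPt (F := ↥(modularFunctionFieldFullC ↥K₀ (M * q))) π (bgJ ↥K₀ (M * q))⁻¹) :
    (∃ X Y : ↥(zchClosure (A₀ := ↥(beta0Ring A K₀))
        ({(bgJ ↥K₀ (M * q))⁻¹} : Set ↥(modularFunctionFieldFullC ↥K₀ (M * q)))),
      Rtk6lfCrossAt (mgvV hπ ιC hq hqM true) (mgvV hπ ιC hq hqM false) 𝔫 X Y ∧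
      ∃ (γ : ↥(modularFunctionFieldFullC ↥K₀ (M * q))) (ε : ↥(atLoc 𝔫)), IsUnit ε ∧
        y = (ε : ↥(modularFunctionFieldFullC ↥K₀ (M * q))) *
          (Y : ↥(modularFunctionFieldFullC ↥K₀ (M * q))) ^ n₀ * γ ^ m ∧ γ ≠ 0 ∧
        (mgvV hπ ιC hq hqM true).valuation γ = 1 ∧
        (mgvV hπ ιC hq hqM false).valuation γ = 1) ∨
    (atThrough 𝔫 (mgvV hπ ιC hq hqM false) ∧ ¬ atThrough 𝔫 (mgvV hπ ιC hq hqM true) ∧
      (∃ s : ↥(zchClosure (A₀ := ↥(beta0Ring A K₀))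
          ({(bgJ ↥K₀ (M * q))⁻¹} : Set ↥(modularFunctionFieldFullC ↥K₀ (M * q)))), s ∈ 𝔫.1 ∧
        NodesLocGen 𝔫.1 {algebraMap ↥(beta0Ring A K₀) ↥(zchClosure (A₀ := ↥(beta0Ring A K₀))
          ({(bgJ ↥K₀ (M * q))⁻¹} : Set ↥(modularFunctionFieldFullC ↥K₀ (M * q)))) π, s}) ∧
      ∃ (γ : ↥(modularFunctionFieldFullC ↥K₀ (M * q))) (ε : ↥(atLoc 𝔫)), IsUnit ε ∧
        y = (ε : ↥(modularFunctionFieldFullC ↥K₀ (M * q))) *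
          algebraMap ↥(beta0Ring A K₀) ↥(modularFunctionFieldFullC ↥K₀ (M * q)) π ^ n₀ *
            γ ^ m ∧ γ ≠ 0 ∧ (mgvV hπ ιC hq hqM false).valuation γ = 1) ∨
    (atThrough 𝔫 (mgvV hπ ιC hq hqM true) ∧ ¬ atThrough 𝔫 (mgvV hπ ιC hq hqM false) ∧
      (∃ s : ↥(zchClosure (A₀ := ↥(beta0Ring A K₀))
          ({(bgJ ↥K₀ (M * q))⁻¹} : Set ↥(modularFunctionFieldFullC ↥K₀ (M * q)))), s ∈ 𝔫.1 ∧
        NodesLocGen 𝔫.1 {algebraMap ↥(beta0Ring A K₀) ↥(zchClosure (A₀ := ↥(beta0Ring A K₀))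
          ({(bgJ ↥K₀ (M * q))⁻¹} : Set ↥(modularFunctionFieldFullC ↥K₀ (M * q)))) π, s}) ∧
      ∃ (γ : ↥(modularFunctionFieldFullC ↥K₀ (M * q))) (ε : ↥(atLoc 𝔫)), IsUnit ε ∧
        y = (ε : ↥(modularFunctionFieldFullC ↥K₀ (M * q))) * γ ^ m ∧ γ ≠ 0 ∧
        (mgvV hπ ιC hq hqM true).valuation γ = 1) := by
  have h2 := rtk6lfb_rigid_h2 rigid
  have h3 := rtk6lfb_rigid_h3 rigid
  rcases rtk6lfi_thinAt_Jinv hπ ιC hq hqM hA hE hφF hφ hqπ rigid 𝔫 with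
    ⟨s, hs, hgen⟩ | ⟨X, Y, h⟩
  · obtain ⟨c, hc, hone, hfac⟩ := rtk6lfi_smooth_LF_Jinv hπ ιC hq hqM hA hE h2 h3 𝔫 hs hgen m hy
      (fun P _ => hhor P)
    cases c
    · -- the point lies on `Σ_0`
      obtain ⟨γ, ε, hε, hyε, hγ, hγ₁⟩ := hfac n₀ hn₀
      exact Or.inr (Or.inl ⟨hc, fun h => Bool.noConfusion (hone true h), ⟨s, hs, hgen⟩,
        γ, ε, hε, hyε, hγ, hγ₁⟩)
    · -- the point lies on `Σ_∞`
      obtain ⟨γ, ε, hε, hyε, hγ, hγ₁⟩ := hfac 0 (by rw [hy₁, zpow_zero])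
      rw [zpow_zero, mul_one] at hyε
      exact Or.inr (Or.inr ⟨hc, fun h => Bool.noConfusion (hone false h), ⟨s, hs, hgen⟩,
        γ, ε, hε, hyε, hγ, hγ₁⟩)
  · exact Or.inl ⟨X, Y, h, rtk6lfi_cross_LF_Jinv hπ ιC hq hqM hA hE h2 h3 𝔫 h m hy
      (fun P _ => hhor P) hy₁ hn₀⟩

end Reg

/-! ### `K₀ = ℚ̄^I` -/

section Base

variable {A : ValuationSubring Qb} {q M : ℕ} [NeZero q] [NeZero M] [NeZero (M * q)]
  [IsDiscreteValuationRing ↥(beta0Ring A (beta0Field A))]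
  {π : ↥(beta0Ring A (beta0Field A))} (hπ : Irreducible π)
  (ιC : ↥(beta0Field A) →+* ℂ) (hq : q.Prime) (hqM : ¬ q ∣ M)

include hπ ιC hq hqM in
/-- **The thin dichotomy at every closed point of the chart `1 / j`** of `F_{Mq}(ℚ̄^I)`, rigid
level. -/
theorem rtk6lfi0_thinAt_Jinv (hA : A.LiesOverPrime q)
    (rigid : (q ≠ 2 → 4 ∣ M) ∧ (q = 2 → 9 ∣ M))
    (𝔫 : AtPt (F := ↥(modularFunctionFieldFullC ↥(beta0Field A) (M * q))) π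
      (bgJ ↥(beta0Field A) (M * q))⁻¹) :
    Rtk6lfThinAt (mgvV hπ ιC hq hqM true) (mgvV hπ ιC hq hqM false) 𝔫 := by
  obtain ⟨φ, hφF⟩ := Fermat.Agent.Common.exists_isFrobeniusAt_of_liesOverPrime q hq A hA
  exact rtk6lfi_thinAt_Jinv hπ ιC hq hqM hA le_rfl hφF
    (fun x hx => beta0_decomp_apply_mem hφF.mem_decompositionSubgroup hx)
    (rtk6lfb0_hqπ hπ hq hA) rigid 𝔫

include hπ ιC hq hqM in
/-- **`atLoc 𝔫` is a UFD at every closed point of the chart `1 / j`** of `F_{Mq}(ℚ̄^I)`, rigid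
level. -/
theorem rtk6lfi0_ufd_Jinv (hA : A.LiesOverPrime q)
    (rigid : (q ≠ 2 → 4 ∣ M) ∧ (q = 2 → 9 ∣ M))
    (𝔫 : AtPt (F := ↥(modularFunctionFieldFullC ↥(beta0Field A) (M * q))) π
      (bgJ ↥(beta0Field A) (M * q))⁻¹) :
    UniqueFactorizationMonoid ↥(atLoc 𝔫) := by
  obtain ⟨φ, hφF⟩ := Fermat.Agent.Common.exists_isFrobeniusAt_of_liesOverPrime q hq A hA
  exact rtk6lfi_ufd_Jinv hπ ιC hq hqM hA le_rfl hφF
    (fun x hx => beta0_decomp_apply_mem hφF.mem_decompositionSubgroup hx)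
    (rtk6lfb0_hqπ hπ hq hA) rigid 𝔫

include hπ ιC hq hqM in
/-- **(LF) at every closed point of the chart `1 / j`** of `F_{Mq}(ℚ̄^I)`, rigid level
(see `rtk6lfi_LF_Jinv`). -/
theorem rtk6lfi0_LF_Jinv (hA : A.LiesOverPrime q)
    (rigid : (q ≠ 2 → 4 ∣ M) ∧ (q = 2 → 9 ∣ M))
    (m : ℕ) {y : ↥(modularFunctionFieldFullC ↥(beta0Field A) (M * q))} (hy : y ≠ 0)
    (hhor : ∀ P : Place ↥(beta0Field A) ↥(modularFunctionFieldFullC ↥(beta0Field A) (M * q)),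
      (m : ℤ) ∣ P.ord y)
    (hy₁ : (mgvV hπ ιC hq hqM true).valuation y = 1) {n₀ : ℤ}
    (hn₀ : (mgvV hπ ιC hq hqM false).valuation y = (mgvV hπ ιC hq hqM false).valuation
      (algebraMap ↥(beta0Ring A (beta0Field A))
        ↥(modularFunctionFieldFullC ↥(beta0Field A) (M * q)) π) ^ n₀)
    (𝔫 : AtPt (F := ↥(modularFunctionFieldFullC ↥(beta0Field A) (M * q))) π
      (bgJ ↥(beta0Field A) (M * q))⁻¹) :
    (∃ X Y : ↥(zchClosure (A₀ := ↥(beta0Ring A (beta0Field A)))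
        ({(bgJ ↥(beta0Field A) (M * q))⁻¹} :
          Set ↥(modularFunctionFieldFullC ↥(beta0Field A) (M * q)))),
      Rtk6lfCrossAt (mgvV hπ ιC hq hqM true) (mgvV hπ ιC hq hqM false) 𝔫 X Y ∧
      ∃ (γ : ↥(modularFunctionFieldFullC ↥(beta0Field A) (M * q))) (ε : ↥(atLoc 𝔫)), IsUnit ε ∧
        y = (ε : ↥(modularFunctionFieldFullC ↥(beta0Field A) (M * q))) *
          (Y : ↥(modularFunctionFieldFullC ↥(beta0Field A) (M * q))) ^ n₀ * γ ^ m ∧ γ ≠ 0 ∧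
        (mgvV hπ ιC hq hqM true).valuation γ = 1 ∧
        (mgvV hπ ιC hq hqM false).valuation γ = 1) ∨
    (atThrough 𝔫 (mgvV hπ ιC hq hqM false) ∧ ¬ atThrough 𝔫 (mgvV hπ ιC hq hqM true) ∧
      (∃ s : ↥(zchClosure (A₀ := ↥(beta0Ring A (beta0Field A)))
          ({(bgJ ↥(beta0Field A) (M * q))⁻¹} :
            Set ↥(modularFunctionFieldFullC ↥(beta0Field A) (M * q)))), s ∈ 𝔫.1 ∧
        NodesLocGen 𝔫.1 {algebraMap ↥(beta0Ring A (beta0Field A))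
          ↥(zchClosure (A₀ := ↥(beta0Ring A (beta0Field A)))
            ({(bgJ ↥(beta0Field A) (M * q))⁻¹} :
              Set ↥(modularFunctionFieldFullC ↥(beta0Field A) (M * q)))) π, s}) ∧
      ∃ (γ : ↥(modularFunctionFieldFullC ↥(beta0Field A) (M * q))) (ε : ↥(atLoc 𝔫)), IsUnit ε ∧
        y = (ε : ↥(modularFunctionFieldFullC ↥(beta0Field A) (M * q))) *
          algebraMap ↥(beta0Ring A (beta0Field A))
            ↥(modularFunctionFieldFullC ↥(beta0Field A) (M * q)) π ^ n₀ *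
            γ ^ m ∧ γ ≠ 0 ∧ (mgvV hπ ιC hq hqM false).valuation γ = 1) ∨
    (atThrough 𝔫 (mgvV hπ ιC hq hqM true) ∧ ¬ atThrough 𝔫 (mgvV hπ ιC hq hqM false) ∧
      (∃ s : ↥(zchClosure (A₀ := ↥(beta0Ring A (beta0Field A)))
          ({(bgJ ↥(beta0Field A) (M * q))⁻¹} :
            Set ↥(modularFunctionFieldFullC ↥(beta0Field A) (M * q)))), s ∈ 𝔫.1 ∧
        NodesLocGen 𝔫.1 {algebraMap ↥(beta0Ring A (beta0Field A))
          ↥(zchClosure (A₀ := ↥(beta0Ring A (beta0Field A)))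
            ({(bgJ ↥(beta0Field A) (M * q))⁻¹} :
              Set ↥(modularFunctionFieldFullC ↥(beta0Field A) (M * q)))) π, s}) ∧
      ∃ (γ : ↥(modularFunctionFieldFullC ↥(beta0Field A) (M * q))) (ε : ↥(atLoc 𝔫)), IsUnit ε ∧
        y = (ε : ↥(modularFunctionFieldFullC ↥(beta0Field A) (M * q))) * γ ^ m ∧ γ ≠ 0 ∧
        (mgvV hπ ιC hq hqM true).valuation γ = 1) := by
  obtain ⟨φ, hφF⟩ := Fermat.Agent.Common.exists_isFrobeniusAt_of_liesOverPrime q hq A hA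
  exact rtk6lfi_LF_Jinv hπ ιC hq hqM hA le_rfl hφF
    (fun x hx => beta0_decomp_apply_mem hφF.mem_decompositionSubgroup hx)
    (rtk6lfb0_hqπ hπ hq hA) rigid m hy hhor hy₁ hn₀ 𝔫

end Base

end Fermat.Agent.RT.K6

end


end ZBRT_077_1

/-! ### bundled: `Fermat.Agent.RT.K6.C4InstBUGet` -/
section ZBRT_077_2
/-
K-machine, piece K6, piece **C4-U-inst** (helper81), adapter: the case (U) from (G-et) ALONE.

(C4-U-inst) (A) = helper37's `rtk6c4u_nodeAt_J`, `rtk6c4u_nodeAt_Jinv` (`RT/K6/C4UInst.lean`)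
needs, at the unramified level `K₁′ = rtk6ebK q 1`, the thin dichotomy of the two charts of the
`Γ₀(M₁ q)`-field (chart `j`: `rtk6c4u_thin_J`; chart `1 / j`: helper71 / helper54's
`rtk6lfi_thinAt_Jinv`, here `rtk6c4b_thin_Jinv`) and (G-et) `Rtk6c4uGet` on the two charts.

* `rtk6c4b_rigid` : the rigidity of the level from `4 ∣ M₁ q`, `q ∤ M₁`;
* `rtk6c4b_thin_Jinv` : `Rtk6c4uThin` on the chart `1 / j`;
* `rtk6c4b_asm_of_get` : (G-et) on the two charts → (A) (`Rtk6c4bAsm`);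
* `rtk6c4b_stmtUnipHRig_of_get` : (G-et) on the two charts → `StmtUnipHRig`.
-/

set_option autoImplicit false
set_option linter.style.haveILetI false
set_option linter.unusedSectionVars false
set_option linter.unusedVariables false
set_option linter.style.longLine false

noncomputable section

namespace Fermat.Agent.RT.K6

open ModularCurve AlgebraicCurve Fermat.Agent.ES Fermat.Agent.ES.G2 Fermat.Agent.INJ
open Fermat.Agent.UNIP Fermat.Agent.STB Fermat.Agent.ES1 Fermat.Agent.ES1.G2 Fermat.Agent.AL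
  IntermediateField

/-- the rigidity of the level `M₁` from `4 ∣ M₁ q`, `q ∤ M₁` -/
theorem rtk6c4b_rigid {q M₁ : ℕ} (hq : q.Prime) (hqM : ¬ q ∣ M₁) (h4 : 4 ∣ M₁ * q) :
    (q ≠ 2 → 4 ∣ M₁) ∧ (q = 2 → 9 ∣ M₁) := by
  have hq2 : q ≠ 2 := by
    rintro rfl
    apply hqM
    have h5 : 2 ∣ M₁ := by omega
    exact h5
  refine ⟨fun _ => ?_, fun h => absurd h hq2⟩
  have hodd : Nat.Coprime 4 q := by
    have h2q : Nat.Coprime 2 q := (Nat.coprime_primes Nat.prime_two hq).mpr (Ne.symm hq2)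
    exact Nat.Coprime.pow_left 2 h2q
  exact (Nat.Coprime.dvd_mul_right hodd).mp h4

section Thin

variable {A : ValuationSubring Qb} {K₁ : IntermediateField ℚ Qb}
  [IsDiscreteValuationRing ↥(mgcA A K₁)] {π : ↥(mgcA A K₁)} (hπ : Irreducible π)
  (ιC : ↥(mgcE A K₁) →+* ℂ) {q M₁ : ℕ} [NeZero q] [NeZero M₁] [NeZero (M₁ * q)]
  (hq : q.Prime) (hqM : ¬ q ∣ M₁)

/-- the thin dichotomy of the chart `1 / j` of the `Γ₀`-field over an unramified,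
Frobenius-stable base, rigid level -/
theorem rtk6c4b_thin_Jinv [Normal ℚ K₁] (hA : A.LiesOverPrime q)
    (hqπ : Associated ((q : ℕ) : ↥(mgcA A K₁)) π)
    (rigid : (q ≠ 2 → 4 ∣ M₁) ∧ (q = 2 → 9 ∣ M₁)) :
    Rtk6c4uThin hπ ιC hq hqM (bgJ ↥(mgcE A K₁) (M₁ * q))⁻¹ := by
  intro 𝔫₀
  obtain ⟨φ, hφF⟩ := Fermat.Agent.Common.exists_isFrobeniusAt_of_liesOverPrime q hq A hA
  exact rtk6lfi_thinAt_Jinv hπ ιC hq hqM hA le_sup_left hφF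
    (stb_stable_beta0_sup hφF.mem_decompositionSubgroup K₁) hqπ rigid 𝔫₀

end Thin

/-- **(A) from (G-et) on the two charts** at the level `rtk6ebK q 1`. -/
theorem rtk6c4b_asm_of_get {q M₁ : ℕ} [NeZero q] [NeZero M₁] [NeZero (M₁ * q)] {M : ℕ}
    {H : Subgroup (ZMod M)ˣ} (hq : q.Prime) (hqM' : q ∣ M) (hM0 : M ≠ 0) (hqM : ¬ q ∣ M₁)
    (hML : M ∣ M₁ * q) (h4 : 4 ∣ M₁ * q)
    (w₀ : fieldBar (M₁ * q) M H ≃ₐ[Qb] fieldBar (M₁ * q) M H)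
    (hw₀ : IsWAt (M₁ * q) M H q w₀)
    {A : ValuationSubring Qb} (hA : A.LiesOverPrime q)
    [IsDiscreteValuationRing ↥(mgcA A (rtk6ebK q 1))]
    (hcomm : RtkCommK (mgcE A (rtk6ebK q 1)) w₀)
    (hget₁ : ∀ {ϖ₁ : ↥(mgcA A (rtk6ebK q 1))}, Irreducible ϖ₁ →
      Associated ((q : ℕ) : ↥(mgcA A (rtk6ebK q 1))) ϖ₁ →
      Rtk6c4uGet ϖ₁ M H (bgJ ↥(mgcE A (rtk6ebK q 1)) (M₁ * q)))
    (hget₂ : ∀ {ϖ₁ : ↥(mgcA A (rtk6ebK q 1))}, Irreducible ϖ₁ →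
      Associated ((q : ℕ) : ↥(mgcA A (rtk6ebK q 1))) ϖ₁ →
      Rtk6c4uGet ϖ₁ M H (bgJ ↥(mgcE A (rtk6ebK q 1)) (M₁ * q))⁻¹) :
    Rtk6c4bAsm q M₁ M H w₀ A hcomm := by
  have hwI := rtk6w1_wIncl w₀ hw₀ hcomm hq (mgdIota (mgcE A (rtk6ebK q 1))) hqM
  have rigid := rtk6c4b_rigid hq hqM h4
  refine rtk6c4b_asm_of_charts hq w₀ hA hcomm (fun {ϖ₁} hϖ₁ hass 𝔫₁ => ?_)
    (fun {ϖ₁} hϖ₁ hass 𝔫₁ => ?_)
  · exact rtk6c4u_nodeAt_J hϖ₁ (mgdIota (mgcE A (rtk6ebK q 1))) hq hqM M H _ hwI hML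
      (rtk6c4u_thin_J hϖ₁ (mgdIota (mgcE A (rtk6ebK q 1))) hq hqM hA hass rigid)
      (hget₁ hϖ₁ hass) 𝔫₁
  · exact rtk6c4u_nodeAt_Jinv hϖ₁ (mgdIota (mgcE A (rtk6ebK q 1))) hq hqM M H _ hwI hML
      (rtk6c4b_thin_Jinv hϖ₁ (mgdIota (mgcE A (rtk6ebK q 1))) hq hqM hA hass rigid)
      (hget₂ hϖ₁ hass) 𝔫₁

/-- **Case (U): `StmtUnipHRig` from (G-et) on the two charts ALONE.** -/
theorem rtk6c4b_stmtUnipHRig_of_get
    (hGet : ∀ (q M₁ : ℕ) [NeZero q] [NeZero M₁] [NeZero (M₁ * q)] (M : ℕ)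
      (H : Subgroup (ZMod M)ˣ) (hq : q.Prime) (hqM' : q ∣ M) (hM0 : M ≠ 0), ¬ q ∣ M₁ →
      M ∣ M₁ * q → (∀ c : (ZMod M)ˣ, IsAtR M q c → c ∈ pmH H) → IsTameAt (M₁ * q) M q H →
      4 ∣ M₁ * q →
      ∀ (A : ValuationSubring Qb), A.LiesOverPrime q →
      ∀ [IsDiscreteValuationRing ↥(mgcA A (rtk6ebK q 1))] {ϖ₁ : ↥(mgcA A (rtk6ebK q 1))},
        Irreducible ϖ₁ → Associated ((q : ℕ) : ↥(mgcA A (rtk6ebK q 1))) ϖ₁ →
        Rtk6c4uGet ϖ₁ M H (bgJ ↥(mgcE A (rtk6ebK q 1)) (M₁ * q)) ∧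
        Rtk6c4uGet ϖ₁ M H (bgJ ↥(mgcE A (rtk6ebK q 1)) (M₁ * q))⁻¹) :
    StmtUnipHRig :=
  rtk6c4b_stmtUnipHRig
    (fun q M₁ _ _ _ M H hq hqM' hM0 hqM hML hat htame h4 w₀ hw₀ A hA _ hcomm =>
      rtk6c4b_asm_of_get hq hqM' hM0 hqM hML h4 w₀ hw₀ hA hcomm
        (fun hϖ₁ hass => (hGet q M₁ M H hq hqM' hM0 hqM hML hat htame h4 A hA hϖ₁ hass).1)
        (fun hϖ₁ hass => (hGet q M₁ M H hq hqM' hM0 hqM hML hat htame h4 A hA hϖ₁ hass).2))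

end Fermat.Agent.RT.K6

end
end ZBRT_077_2

/-! ### bundled: `Fermat.Agent.RT.K6.GenInstKInv` -/
section ZBRT_077_3
/-
K-machine, piece K6, piece GEN-inst, the CHART `1 / j` half over a GENERIC unramified base
`K₀ ⊇ ℚ̄^I` (helper3): the verbatim twins of helper74's `GenInstK.lean` (chart `j`) on the chart
`1 / j`, on top of helper71's (LF) `rtk6lfi_LF_Jinv`, `rtk6lfi_cross_LF_Jinv` (`LFInv.lean`).
Setting of `section Reg` of `DLFConc.lean`: `hE : beta0Field A ≤ K₀`, `hφF : A.IsFrobeniusAt φ q`,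
`hφ : φ K₀ ⊆ K₀`, `hqπ : Associated q π` (for the level `K₀ = mgcE A K₁′` of C4-U (A)).

`K = FullC K₀ (Mq)`, `R₀ = zchClosure {j⁻¹}` over `A ∩ K₀`, `𝔫 : AtPt π (bgJ K₀ (M q))⁻¹`.

* `rtk6giki_crossAt_data`, `rtk6giki_cross_J`, `rtk6giki_LF_J` : (LF), FRACTION form;
* `rtk6giki_et_J`       : `m ∣ n₀` ⇒ `e₂ y = e₁ γ' ^ m`, `e₁, e₂ ∈ R₀ ∖ 𝔫`, at EVERY closed point;
* `rtk6giki_et_JF`, `rtk6giki_et_family` : the same in `F` (`f : K →+* F`), finite families;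
* `rtk6giki_sm_JF`      : the smooth generator for a character ramified at `r`;
* `rtk6giki_cross_pack`, `rtk6giki_sm_pack` : the fields `hS hSet hgen hσS` of `Rtk6c4Cross(E)`,
  `hl hgen` of `rtk6c4et_locGen` / `rtk6c4et_nodeAt`, `hS hSet hgen` of `Rtk6c4Sm`.
(The names keep helper74's suffixes `_J`, `_JF`: only the prefix `rtk6giki_` marks the chart.)
-/

set_option autoImplicit false
set_option linter.style.haveILetI false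
set_option linter.unusedSectionVars false
set_option linter.unusedVariables false
set_option linter.style.longLine false
set_option synthInstance.maxHeartbeats 400000
set_option maxHeartbeats 4000000

noncomputable section

namespace Fermat.Agent.RT.K6

open ModularCurve Polynomial IntermediateField Fermat.Agent.INJ Fermat.Agent.AL AlgebraicCurve
open Fermat.Agent.ES Fermat.Agent.ES.G2 Fermat.Agent.STB Fermat.Agent.UNIP Fermat.Agent.S36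
open Fermat.Agent.RIB.MP

section RegK

variable {A : ValuationSubring Qb} {K₀ : IntermediateField ℚ Qb}
  [IsDiscreteValuationRing ↥(beta0Ring A K₀)] {π : ↥(beta0Ring A K₀)} (hπ : Irreducible π)
  (ιC : ↥K₀ →+* ℂ) {q M : ℕ} [NeZero q] [NeZero M] [NeZero (M * q)]
  (hq : q.Prime) (hqM : ¬ q ∣ M)

omit [NeZero q] [NeZero M] in
/-- **the thin crossing datum in the shape of C4**: `w ∉ 𝔫`, `w π = X Y`, `X, Y ∈ 𝔫`,
`𝔫 = (π, X, Y)` locally. -/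
theorem rtk6giki_crossAt_data {V₁ V₂ : ValuationSubring ↥(modularFunctionFieldFullC ↥K₀ (M * q))}
    {𝔫 : AtPt (F := ↥(modularFunctionFieldFullC ↥K₀ (M * q))) π (bgJ ↥K₀ (M * q))⁻¹} {X Y : ↥(zchClosure (A₀ := ↥(beta0Ring A K₀)) ({(bgJ ↥K₀ (M * q))⁻¹} : Set ↥(modularFunctionFieldFullC ↥K₀ (M * q))))}
    (h : Rtk6lfCrossAt V₁ V₂ 𝔫 X Y) :
    X ∈ 𝔫.1 ∧ Y ∈ 𝔫.1 ∧ (∃ w : ↥(zchClosure (A₀ := ↥(beta0Ring A K₀)) ({(bgJ ↥K₀ (M * q))⁻¹} : Set ↥(modularFunctionFieldFullC ↥K₀ (M * q)))), w ∉ 𝔫.1 ∧ w * algebraMap _ ↥(zchClosure (A₀ := ↥(beta0Ring A K₀)) ({(bgJ ↥K₀ (M * q))⁻¹} : Set ↥(modularFunctionFieldFullC ↥K₀ (M * q)))) π = X * Y) ∧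
      NodesLocGen 𝔫.1 {algebraMap _ ↥(zchClosure (A₀ := ↥(beta0Ring A K₀)) ({(bgJ ↥K₀ (M * q))⁻¹} : Set ↥(modularFunctionFieldFullC ↥K₀ (M * q)))) π, X, Y} := by
  obtain ⟨h₁, h₂, hX, hY, hw, hgen⟩ := h
  exact ⟨h₁ X hX, h₂ Y hY, hw, hgen⟩

include hπ ιC hq hqM in
/-- **(LF) at a crossing point, fraction form** (for the generator `ψ_r`: the fields `hγ he₁ he₂`
and, after `rtk6gi_LF_lift`, `hy` of `Rtk6c4Cross`). -/
theorem rtk6giki_cross_J (hA : A.LiesOverPrime q) (hE : beta0Field A ≤ K₀) {φ : Qb ≃ₐ[ℚ] Qb}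
    (hφF : A.IsFrobeniusAt φ q) (hφ : ∀ x ∈ K₀, φ x ∈ K₀)
    (hqπ : Associated ((q : ℕ) : ↥(beta0Ring A K₀)) π)
    (rigid : (q ≠ 2 → 4 ∣ M) ∧ (q = 2 → 9 ∣ M))
    (𝔫 : AtPt (F := ↥(modularFunctionFieldFullC ↥K₀ (M * q))) π (bgJ ↥K₀ (M * q))⁻¹) {X Y : ↥(zchClosure (A₀ := ↥(beta0Ring A K₀)) ({(bgJ ↥K₀ (M * q))⁻¹} : Set ↥(modularFunctionFieldFullC ↥K₀ (M * q))))}
    (h : Rtk6lfCrossAt (mgvV hπ ιC hq hqM true) (mgvV hπ ιC hq hqM false) 𝔫 X Y)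
    (m : ℕ) {y : ↥(modularFunctionFieldFullC ↥K₀ (M * q))} (hy : y ≠ 0)
    (hhor : ∀ P : Place ↥K₀ ↥(modularFunctionFieldFullC ↥K₀ (M * q)), (m : ℤ) ∣ P.ord y)
    (hy₁ : (mgvV hπ ιC hq hqM true).valuation y = 1) {n₀ : ℤ}
    (hn₀ : (mgvV hπ ιC hq hqM false).valuation y = (mgvV hπ ιC hq hqM false).valuation
      (algebraMap ↥(beta0Ring A K₀) ↥(modularFunctionFieldFullC ↥K₀ (M * q)) π) ^ n₀) :
    ∃ (γ : ↥(modularFunctionFieldFullC ↥K₀ (M * q))) (e₁ e₂ : ↥(zchClosure (A₀ := ↥(beta0Ring A K₀)) ({(bgJ ↥K₀ (M * q))⁻¹} : Set ↥(modularFunctionFieldFullC ↥K₀ (M * q))))), γ ≠ 0 ∧ e₁ ∉ 𝔫.1 ∧ e₂ ∉ 𝔫.1 ∧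
      (e₂ : ↥(modularFunctionFieldFullC ↥K₀ (M * q))) * y = (e₁ : ↥(modularFunctionFieldFullC ↥K₀ (M * q))) * (Y : ↥(modularFunctionFieldFullC ↥K₀ (M * q))) ^ n₀ * γ ^ m := by
  obtain ⟨γ, ε, hε, hyε, hγ, -, -⟩ := rtk6lfi_cross_LF_Jinv hπ ιC hq hqM hA hE
    (rtk6lfb_rigid_h2 rigid) (rtk6lfb_rigid_h3 rigid) 𝔫 h m hy (fun P _ => hhor P) hy₁ hn₀
  haveI := 𝔫.2.1.isPrime
  obtain ⟨e₁, e₂, h1, h2, h3⟩ := rtk6gi_LF_frac (F := ↥(modularFunctionFieldFullC ↥K₀ (M * q))) (B := ↥(zchClosure (A₀ := ↥(beta0Ring A K₀)) ({(bgJ ↥K₀ (M * q))⁻¹} : Set ↥(modularFunctionFieldFullC ↥K₀ (M * q))))) Subtype.val_injective 𝔫.1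
    (ε := ε) hε hyε
  exact ⟨γ, e₁, e₂, hγ, h1, h2, h3⟩

include hπ ιC hq hqM in
/-- **(LF) at every closed point of the chart `1 / j`, fraction form.** -/
theorem rtk6giki_LF_J (hA : A.LiesOverPrime q) (hE : beta0Field A ≤ K₀) {φ : Qb ≃ₐ[ℚ] Qb}
    (hφF : A.IsFrobeniusAt φ q) (hφ : ∀ x ∈ K₀, φ x ∈ K₀)
    (hqπ : Associated ((q : ℕ) : ↥(beta0Ring A K₀)) π)
    (rigid : (q ≠ 2 → 4 ∣ M) ∧ (q = 2 → 9 ∣ M))
    (m : ℕ) {y : ↥(modularFunctionFieldFullC ↥K₀ (M * q))} (hy : y ≠ 0)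
    (hhor : ∀ P : Place ↥K₀ ↥(modularFunctionFieldFullC ↥K₀ (M * q)), (m : ℤ) ∣ P.ord y)
    (hy₁ : (mgvV hπ ιC hq hqM true).valuation y = 1) {n₀ : ℤ}
    (hn₀ : (mgvV hπ ιC hq hqM false).valuation y = (mgvV hπ ιC hq hqM false).valuation
      (algebraMap ↥(beta0Ring A K₀) ↥(modularFunctionFieldFullC ↥K₀ (M * q)) π) ^ n₀)
    (𝔫 : AtPt (F := ↥(modularFunctionFieldFullC ↥K₀ (M * q))) π (bgJ ↥K₀ (M * q))⁻¹) :
    (∃ X Y : ↥(zchClosure (A₀ := ↥(beta0Ring A K₀)) ({(bgJ ↥K₀ (M * q))⁻¹} : Set ↥(modularFunctionFieldFullC ↥K₀ (M * q)))),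
      Rtk6lfCrossAt (mgvV hπ ιC hq hqM true) (mgvV hπ ιC hq hqM false) 𝔫 X Y ∧
      ∃ (γ : ↥(modularFunctionFieldFullC ↥K₀ (M * q))) (e₁ e₂ : ↥(zchClosure (A₀ := ↥(beta0Ring A K₀)) ({(bgJ ↥K₀ (M * q))⁻¹} : Set ↥(modularFunctionFieldFullC ↥K₀ (M * q))))), γ ≠ 0 ∧ e₁ ∉ 𝔫.1 ∧ e₂ ∉ 𝔫.1 ∧
        (e₂ : ↥(modularFunctionFieldFullC ↥K₀ (M * q))) * y = (e₁ : ↥(modularFunctionFieldFullC ↥K₀ (M * q))) * (Y : ↥(modularFunctionFieldFullC ↥K₀ (M * q))) ^ n₀ * γ ^ m) ∨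
    (atThrough 𝔫 (mgvV hπ ιC hq hqM false) ∧ ¬ atThrough 𝔫 (mgvV hπ ιC hq hqM true) ∧
      (∃ s : ↥(zchClosure (A₀ := ↥(beta0Ring A K₀)) ({(bgJ ↥K₀ (M * q))⁻¹} : Set ↥(modularFunctionFieldFullC ↥K₀ (M * q)))), s ∈ 𝔫.1 ∧ NodesLocGen 𝔫.1 {algebraMap _ ↥(zchClosure (A₀ := ↥(beta0Ring A K₀)) ({(bgJ ↥K₀ (M * q))⁻¹} : Set ↥(modularFunctionFieldFullC ↥K₀ (M * q)))) π, s}) ∧
      ∃ (γ : ↥(modularFunctionFieldFullC ↥K₀ (M * q))) (e₁ e₂ : ↥(zchClosure (A₀ := ↥(beta0Ring A K₀)) ({(bgJ ↥K₀ (M * q))⁻¹} : Set ↥(modularFunctionFieldFullC ↥K₀ (M * q))))), γ ≠ 0 ∧ e₁ ∉ 𝔫.1 ∧ e₂ ∉ 𝔫.1 ∧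
        (e₂ : ↥(modularFunctionFieldFullC ↥K₀ (M * q))) * y = (e₁ : ↥(modularFunctionFieldFullC ↥K₀ (M * q))) *
          algebraMap ↥(beta0Ring A K₀) ↥(modularFunctionFieldFullC ↥K₀ (M * q)) π ^ n₀ * γ ^ m) ∨
    (atThrough 𝔫 (mgvV hπ ιC hq hqM true) ∧ ¬ atThrough 𝔫 (mgvV hπ ιC hq hqM false) ∧
      (∃ s : ↥(zchClosure (A₀ := ↥(beta0Ring A K₀)) ({(bgJ ↥K₀ (M * q))⁻¹} : Set ↥(modularFunctionFieldFullC ↥K₀ (M * q)))), s ∈ 𝔫.1 ∧ NodesLocGen 𝔫.1 {algebraMap _ ↥(zchClosure (A₀ := ↥(beta0Ring A K₀)) ({(bgJ ↥K₀ (M * q))⁻¹} : Set ↥(modularFunctionFieldFullC ↥K₀ (M * q)))) π, s}) ∧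
      ∃ (γ : ↥(modularFunctionFieldFullC ↥K₀ (M * q))) (e₁ e₂ : ↥(zchClosure (A₀ := ↥(beta0Ring A K₀)) ({(bgJ ↥K₀ (M * q))⁻¹} : Set ↥(modularFunctionFieldFullC ↥K₀ (M * q))))), γ ≠ 0 ∧ e₁ ∉ 𝔫.1 ∧ e₂ ∉ 𝔫.1 ∧
        (e₂ : ↥(modularFunctionFieldFullC ↥K₀ (M * q))) * y = (e₁ : ↥(modularFunctionFieldFullC ↥K₀ (M * q))) * γ ^ m) := by
  haveI := 𝔫.2.1.isPrime
  rcases rtk6lfi_LF_Jinv hπ ιC hq hqM hA hE hφF hφ hqπ rigid m hy hhor hy₁ hn₀ 𝔫 with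
    ⟨X, Y, h, γ, ε, hε, hyε, hγ, -, -⟩ | ⟨h1, h2, hs, γ, ε, hε, hyε, hγ, -⟩ |
    ⟨h1, h2, hs, γ, ε, hε, hyε, hγ, -⟩
  · obtain ⟨e₁, e₂, he₁, he₂, h3⟩ := rtk6gi_LF_frac (F := ↥(modularFunctionFieldFullC ↥K₀ (M * q))) (B := ↥(zchClosure (A₀ := ↥(beta0Ring A K₀)) ({(bgJ ↥K₀ (M * q))⁻¹} : Set ↥(modularFunctionFieldFullC ↥K₀ (M * q)))))
      Subtype.val_injective 𝔫.1 (ε := ε) hε hyε
    exact Or.inl ⟨X, Y, h, γ, e₁, e₂, hγ, he₁, he₂, h3⟩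
  · obtain ⟨e₁, e₂, he₁, he₂, h3⟩ := rtk6gi_LF_frac (F := ↥(modularFunctionFieldFullC ↥K₀ (M * q))) (B := ↥(zchClosure (A₀ := ↥(beta0Ring A K₀)) ({(bgJ ↥K₀ (M * q))⁻¹} : Set ↥(modularFunctionFieldFullC ↥K₀ (M * q)))))
      Subtype.val_injective 𝔫.1 (ε := ε) hε hyε
    exact Or.inr (Or.inl ⟨h1, h2, hs, γ, e₁, e₂, hγ, he₁, he₂, h3⟩)
  · have hyε' : y = (ε : ↥(modularFunctionFieldFullC ↥K₀ (M * q))) * (1 : ↥(modularFunctionFieldFullC ↥K₀ (M * q))) ^ (0 : ℤ) * γ ^ m := by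
      rw [zpow_zero, mul_one]
      exact hyε
    obtain ⟨e₁, e₂, he₁, he₂, h3⟩ := rtk6gi_LF_frac (F := ↥(modularFunctionFieldFullC ↥K₀ (M * q))) (B := ↥(zchClosure (A₀ := ↥(beta0Ring A K₀)) ({(bgJ ↥K₀ (M * q))⁻¹} : Set ↥(modularFunctionFieldFullC ↥K₀ (M * q)))))
      Subtype.val_injective 𝔫.1 (ε := ε) hε hyε'
    rw [zpow_zero, mul_one] at h3
    exact Or.inr (Or.inr ⟨h1, h2, hs, γ, e₁, e₂, hγ, he₁, he₂, h3⟩)

include hπ ιC hq hqM in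
/-- **(G-et), `K`-level**: a function `y ≠ 0` on the `Γ₀(Mq)`-curve whose divisor is divisible by
`m`, unit at `V_∞`, with `v_0(y) = v_0(π) ^ n₀` and **`m ∣ n₀`**, is at EVERY closed point `𝔫` of
the chart `1 / j` a unit times an `m`-th power: `e₂ y = e₁ γ' ^ m`, `e₁, e₂ ∈ R₀ ∖ 𝔫`. -/
theorem rtk6giki_et_J (hA : A.LiesOverPrime q) (hE : beta0Field A ≤ K₀) {φ : Qb ≃ₐ[ℚ] Qb}
    (hφF : A.IsFrobeniusAt φ q) (hφ : ∀ x ∈ K₀, φ x ∈ K₀)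
    (hqπ : Associated ((q : ℕ) : ↥(beta0Ring A K₀)) π)
    (rigid : (q ≠ 2 → 4 ∣ M) ∧ (q = 2 → 9 ∣ M))
    (m : ℕ) {y : ↥(modularFunctionFieldFullC ↥K₀ (M * q))} (hy : y ≠ 0)
    (hhor : ∀ P : Place ↥K₀ ↥(modularFunctionFieldFullC ↥K₀ (M * q)), (m : ℤ) ∣ P.ord y)
    (hy₁ : (mgvV hπ ιC hq hqM true).valuation y = 1) {n₀ : ℤ}
    (hn₀ : (mgvV hπ ιC hq hqM false).valuation y = (mgvV hπ ιC hq hqM false).valuation
      (algebraMap ↥(beta0Ring A K₀) ↥(modularFunctionFieldFullC ↥K₀ (M * q)) π) ^ n₀)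
    (hdvd : (m : ℤ) ∣ n₀)
    (𝔫 : AtPt (F := ↥(modularFunctionFieldFullC ↥K₀ (M * q))) π (bgJ ↥K₀ (M * q))⁻¹) :
    ∃ (γ' : ↥(modularFunctionFieldFullC ↥K₀ (M * q))) (e₁ e₂ : ↥(zchClosure (A₀ := ↥(beta0Ring A K₀)) ({(bgJ ↥K₀ (M * q))⁻¹} : Set ↥(modularFunctionFieldFullC ↥K₀ (M * q))))), γ' ≠ 0 ∧ e₁ ∉ 𝔫.1 ∧ e₂ ∉ 𝔫.1 ∧
      (e₂ : ↥(modularFunctionFieldFullC ↥K₀ (M * q))) * y = (e₁ : ↥(modularFunctionFieldFullC ↥K₀ (M * q))) * γ' ^ m := by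
  haveI := 𝔫.2.1.isPrime
  have hπ0 : algebraMap ↥(beta0Ring A K₀) ↥(modularFunctionFieldFullC ↥K₀ (M * q)) π ≠ 0 := ribmp_fc_hπ0 hπ
  rcases rtk6lfi_LF_Jinv hπ ιC hq hqM hA hE hφF hφ hqπ rigid m hy hhor hy₁ hn₀ 𝔫 with
    ⟨X, Y, h, γ, ε, hε, hyε, hγ, -, -⟩ | ⟨-, -, -, γ, ε, hε, hyε, hγ, -⟩ |
    ⟨-, -, -, γ, ε, hε, hyε, hγ, -⟩
  · have hY0 : (Y : ↥(modularFunctionFieldFullC ↥K₀ (M * q))) ≠ 0 := by
      intro h0
      obtain ⟨-, -, -, -, ⟨w, hw, hXY⟩, -⟩ := h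
      have hY : Y = 0 := Subtype.ext h0
      rw [hY, mul_zero] at hXY
      have hπR : algebraMap ↥(beta0Ring A K₀) ↥(zchClosure (A₀ := ↥(beta0Ring A K₀)) ({(bgJ ↥K₀ (M * q))⁻¹} : Set ↥(modularFunctionFieldFullC ↥K₀ (M * q)))) π ≠ 0 := by
        intro h1
        apply hπ0
        have := congrArg (fun z : ↥(zchClosure (A₀ := ↥(beta0Ring A K₀)) ({(bgJ ↥K₀ (M * q))⁻¹} : Set ↥(modularFunctionFieldFullC ↥K₀ (M * q)))) => (z : ↥(modularFunctionFieldFullC ↥K₀ (M * q)))) h1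
        simpa using this
      rcases mul_eq_zero.1 hXY with h2 | h2
      · exact hw (h2 ▸ 𝔫.1.zero_mem)
      · exact hπR h2
    exact rtk6gi_et_of_LF (F := ↥(modularFunctionFieldFullC ↥K₀ (M * q))) (B := ↥(zchClosure (A₀ := ↥(beta0Ring A K₀)) ({(bgJ ↥K₀ (M * q))⁻¹} : Set ↥(modularFunctionFieldFullC ↥K₀ (M * q))))) Subtype.val_injective 𝔫.1 (ε := ε) hε hY0 hγ
      hyε hdvd
  · exact rtk6gi_et_of_LF (F := ↥(modularFunctionFieldFullC ↥K₀ (M * q))) (B := ↥(zchClosure (A₀ := ↥(beta0Ring A K₀)) ({(bgJ ↥K₀ (M * q))⁻¹} : Set ↥(modularFunctionFieldFullC ↥K₀ (M * q))))) Subtype.val_injective 𝔫.1 (ε := ε) hε hπ0 hγ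
      hyε hdvd
  · have hyε' : y = (ε : ↥(modularFunctionFieldFullC ↥K₀ (M * q))) * (1 : ↥(modularFunctionFieldFullC ↥K₀ (M * q))) ^ (0 : ℤ) * γ ^ m := by
      rw [zpow_zero, mul_one]
      exact hyε
    exact rtk6gi_et_of_LF (F := ↥(modularFunctionFieldFullC ↥K₀ (M * q))) (B := ↥(zchClosure (A₀ := ↥(beta0Ring A K₀)) ({(bgJ ↥K₀ (M * q))⁻¹} : Set ↥(modularFunctionFieldFullC ↥K₀ (M * q))))) Subtype.val_injective 𝔫.1 (ε := ε) hε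
      one_ne_zero hγ hyε' (dvd_zero _)


end RegK

section RegKF

variable {A : ValuationSubring Qb} {K₀ : IntermediateField ℚ Qb}
  [IsDiscreteValuationRing ↥(beta0Ring A K₀)] {π : ↥(beta0Ring A K₀)} (hπ : Irreducible π)
  (ιC : ↥K₀ →+* ℂ) {q M : ℕ} [NeZero q] [NeZero M] [NeZero (M * q)]
  (hq : q.Prime) (hqM : ¬ q ∣ M)

variable {F : Type*} [Field F] (f : ↥(modularFunctionFieldFullC ↥K₀ (M * q)) →+* F)

include hπ ιC hq hqM in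
/-- **(G-et)**, one generator: `t = y / f γ'` with `f e₂ · t ^ m = f e₁`, `e₁, e₂ ∈ R₀ ∖ 𝔫`. -/
theorem rtk6giki_et_JF (hA : A.LiesOverPrime q) (hE : beta0Field A ≤ K₀) {φ : Qb ≃ₐ[ℚ] Qb}
    (hφF : A.IsFrobeniusAt φ q) (hφ : ∀ x ∈ K₀, φ x ∈ K₀)
    (hqπ : Associated ((q : ℕ) : ↥(beta0Ring A K₀)) π)
    (rigid : (q ≠ 2 → 4 ∣ M) ∧ (q = 2 → 9 ∣ M))
    (m : ℕ) {y : F} {u : ↥(modularFunctionFieldFullC ↥K₀ (M * q))} (hyu : y ^ m = f u) (hu : u ≠ 0)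
    (hhor : ∀ P : Place ↥K₀ ↥(modularFunctionFieldFullC ↥K₀ (M * q)), (m : ℤ) ∣ P.ord u)
    (hy₁ : (mgvV hπ ιC hq hqM true).valuation u = 1) {n₀ : ℤ}
    (hn₀ : (mgvV hπ ιC hq hqM false).valuation u = (mgvV hπ ιC hq hqM false).valuation
      (algebraMap ↥(beta0Ring A K₀) ↥(modularFunctionFieldFullC ↥K₀ (M * q)) π) ^ n₀)
    (hdvd : (m : ℤ) ∣ n₀)
    (𝔫 : AtPt (F := ↥(modularFunctionFieldFullC ↥K₀ (M * q))) π (bgJ ↥K₀ (M * q))⁻¹) :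
    ∃ (γ' : ↥(modularFunctionFieldFullC ↥K₀ (M * q))) (e₁ e₂ : ↥(zchClosure (A₀ := ↥(beta0Ring A K₀)) ({(bgJ ↥K₀ (M * q))⁻¹} : Set ↥(modularFunctionFieldFullC ↥K₀ (M * q))))), γ' ≠ 0 ∧ e₁ ∉ 𝔫.1 ∧ e₂ ∉ 𝔫.1 ∧
      f (e₂ : ↥(modularFunctionFieldFullC ↥K₀ (M * q))) * (y / f γ') ^ m = f (e₁ : ↥(modularFunctionFieldFullC ↥K₀ (M * q))) ∧ y = f γ' * (y / f γ') := by
  obtain ⟨γ', e₁, e₂, hγ', he₁, he₂, h⟩ :=
    rtk6giki_et_J hπ ιC hq hqM hA hE hφF hφ hqπ rigid m hu hhor hy₁ hn₀ hdvd 𝔫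
  refine ⟨γ', e₁, e₂, hγ', he₁, he₂, rtk6gi_t_pow_hom f hyu hγ' h, ?_⟩
  rw [mul_div_cancel₀ _ ((map_ne_zero f).2 hγ')]

include hπ ιC hq hqM in
/-- **(G-et)**, finite family: the set `S` of the étale generators at the point `𝔫`, with the
fields `hS`, `hSet` of `Rtk6c4Cross` and the relation to the `y_i`. -/
theorem rtk6giki_et_family (hA : A.LiesOverPrime q) (hE : beta0Field A ≤ K₀) {φ : Qb ≃ₐ[ℚ] Qb}
    (hφF : A.IsFrobeniusAt φ q) (hφ : ∀ x ∈ K₀, φ x ∈ K₀)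
    (hqπ : Associated ((q : ℕ) : ↥(beta0Ring A K₀)) π)
    (rigid : (q ≠ 2 → 4 ∣ M) ∧ (q = 2 → 9 ∣ M))
    (m : ℕ) {ι : Type*} [Finite ι] (y : ι → F) (u : ι → ↥(modularFunctionFieldFullC ↥K₀ (M * q))) (n₀ : ι → ℤ)
    (hyu : ∀ i, y i ^ m = f (u i)) (hu : ∀ i, u i ≠ 0)
    (hhor : ∀ i, ∀ P : Place ↥K₀ ↥(modularFunctionFieldFullC ↥K₀ (M * q)), (m : ℤ) ∣ P.ord (u i))
    (hy₁ : ∀ i, (mgvV hπ ιC hq hqM true).valuation (u i) = 1)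
    (hn₀ : ∀ i, (mgvV hπ ιC hq hqM false).valuation (u i) =
      (mgvV hπ ιC hq hqM false).valuation
        (algebraMap ↥(beta0Ring A K₀) ↥(modularFunctionFieldFullC ↥K₀ (M * q)) π) ^ n₀ i)
    (hdvd : ∀ i, (m : ℤ) ∣ n₀ i)
    (𝔫 : AtPt (F := ↥(modularFunctionFieldFullC ↥K₀ (M * q))) π (bgJ ↥K₀ (M * q))⁻¹) :
    ∃ S : Set F, S.Finite ∧
      (∀ t ∈ S, ∃ a b : ↥(zchClosure (A₀ := ↥(beta0Ring A K₀)) ({(bgJ ↥K₀ (M * q))⁻¹} : Set ↥(modularFunctionFieldFullC ↥K₀ (M * q)))), a ∉ 𝔫.1 ∧ b ∉ 𝔫.1 ∧ f (b : ↥(modularFunctionFieldFullC ↥K₀ (M * q))) * t ^ m = f (a : ↥(modularFunctionFieldFullC ↥K₀ (M * q)))) ∧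
      (∀ t ∈ S, ∃ i, ∃ c : ↥(modularFunctionFieldFullC ↥K₀ (M * q)), c ≠ 0 ∧ t = y i / f c) ∧
      (∀ i, ∃ t ∈ S, ∃ c : ↥(modularFunctionFieldFullC ↥K₀ (M * q)), c ≠ 0 ∧ y i = f c * t) := by
  have key := fun i => rtk6giki_et_JF hπ ιC hq hqM f hA hE hφF hφ hqπ rigid m (hyu i) (hu i) (hhor i) (hy₁ i)
    (hn₀ i) (hdvd i) 𝔫
  choose γ' e₁ e₂ hγ' he₁ he₂ hpow hy using key
  refine ⟨Set.range fun i => y i / f (γ' i), Set.finite_range _, ?_, ?_, ?_⟩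
  · rintro t ⟨i, rfl⟩
    exact ⟨e₁ i, e₂ i, he₁ i, he₂ i, hpow i⟩
  · rintro t ⟨i, rfl⟩
    exact ⟨i, γ' i, hγ' i, rfl⟩
  · intro i
    exact ⟨y i / f (γ' i), ⟨i, rfl⟩, γ' i, hγ' i, hy i⟩

include hπ ιC hq hqM in
/-- **(G-sm)**: the generator for `ψ_r` at a closed point `𝔫` which is NOT a crossing point. -/
theorem rtk6giki_sm_JF (hA : A.LiesOverPrime q) (hE : beta0Field A ≤ K₀) {φ : Qb ≃ₐ[ℚ] Qb}
    (hφF : A.IsFrobeniusAt φ q) (hφ : ∀ x ∈ K₀, φ x ∈ K₀)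
    (hqπ : Associated ((q : ℕ) : ↥(beta0Ring A K₀)) π)
    (rigid : (q ≠ 2 → 4 ∣ M) ∧ (q = 2 → 9 ∣ M))
    (m : ℕ) {y ϖ₁ : F} {u : ↥(modularFunctionFieldFullC ↥K₀ (M * q))} (hyu : y ^ m = f u) (hu : u ≠ 0)
    (hhor : ∀ P : Place ↥K₀ ↥(modularFunctionFieldFullC ↥K₀ (M * q)), (m : ℤ) ∣ P.ord u)
    (hy₁ : (mgvV hπ ιC hq hqM true).valuation u = 1) {n₀ : ℤ}
    (hn₀ : (mgvV hπ ιC hq hqM false).valuation u = (mgvV hπ ιC hq hqM false).valuation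
      (algebraMap ↥(beta0Ring A K₀) ↥(modularFunctionFieldFullC ↥K₀ (M * q)) π) ^ n₀)
    {a b : ℤ} (hab : a * n₀ - b * m = 1)
    (hϖ : ϖ₁ ^ m = f (algebraMap ↥(beta0Ring A K₀) ↥(modularFunctionFieldFullC ↥K₀ (M * q)) π))
    (𝔫 : AtPt (F := ↥(modularFunctionFieldFullC ↥K₀ (M * q))) π (bgJ ↥K₀ (M * q))⁻¹)
    (hnc : ¬ (atThrough 𝔫 (mgvV hπ ιC hq hqM true) ∧ atThrough 𝔫 (mgvV hπ ιC hq hqM false))) :
    ∃ (t : F) (a' b' : ↥(zchClosure (A₀ := ↥(beta0Ring A K₀)) ({(bgJ ↥K₀ (M * q))⁻¹} : Set ↥(modularFunctionFieldFullC ↥K₀ (M * q))))) (c : ↥(modularFunctionFieldFullC ↥K₀ (M * q))), a' ∉ 𝔫.1 ∧ b' ∉ 𝔫.1 ∧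
      f (b' : ↥(modularFunctionFieldFullC ↥K₀ (M * q))) * t ^ m = f (a' : ↥(modularFunctionFieldFullC ↥K₀ (M * q))) ∧ c ≠ 0 ∧
      ((atThrough 𝔫 (mgvV hπ ιC hq hqM true) ∧ y = f c * t) ∨
        (atThrough 𝔫 (mgvV hπ ιC hq hqM false) ∧ y = f c * (t * ϖ₁) ^ n₀)) := by
  haveI := 𝔫.2.1.isPrime
  have hπ0 : algebraMap ↥(beta0Ring A K₀) ↥(modularFunctionFieldFullC ↥K₀ (M * q)) π ≠ 0 := ribmp_fc_hπ0 hπ
  have hne : ∀ e : ↥(zchClosure (A₀ := ↥(beta0Ring A K₀)) ({(bgJ ↥K₀ (M * q))⁻¹} : Set ↥(modularFunctionFieldFullC ↥K₀ (M * q)))), e ∉ 𝔫.1 → (e : ↥(modularFunctionFieldFullC ↥K₀ (M * q))) ≠ 0 := fun e he h0 =>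
    he ((Subtype.ext h0 : e = 0) ▸ 𝔫.1.zero_mem)
  rcases rtk6giki_LF_J hπ ιC hq hqM hA hE hφF hφ hqπ rigid m hu hhor hy₁ hn₀ 𝔫 with
    ⟨X, Y, h, -⟩ | ⟨h1, h2, hs, γ, e₁, e₂, hγ, he₁, he₂, h⟩ |
    ⟨h1, h2, hs, γ, e₁, e₂, hγ, he₁, he₂, h⟩
  · exact absurd ⟨h.1, h.2.1⟩ hnc
  · -- `Σ_0`
    have hpow := rtk6gi_sm_zero_pow_hom f hyu hγ hπ0 (hne e₂ he₂) hϖ hab h
    have hγF : f γ ≠ 0 := (map_ne_zero f).2 hγ
    have hπF : f (algebraMap ↥(beta0Ring A K₀) ↥(modularFunctionFieldFullC ↥K₀ (M * q)) π) ≠ 0 :=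
      (map_ne_zero f).2 hπ0
    have he₁F : f (e₁ : ↥(modularFunctionFieldFullC ↥K₀ (M * q))) ≠ 0 := (map_ne_zero f).2 (hne e₁ he₁)
    have he₂F : f (e₂ : ↥(modularFunctionFieldFullC ↥K₀ (M * q))) ≠ 0 := (map_ne_zero f).2 (hne e₂ he₂)
    have hm : 0 < m := by
      rcases Nat.eq_zero_or_pos m with hm | hm
      · exfalso
        subst hm
        rw [pow_zero] at hϖ
        have h1 : algebraMap ↥(beta0Ring A K₀) ↥(modularFunctionFieldFullC ↥K₀ (M * q)) π = 1 :=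
          f.injective (by rw [← hϖ, map_one])
        have h3 := mgv_hπV hπ ιC hq hqM false
        rw [h1, ValuationSubring.mem_nonunits_iff, map_one] at h3
        exact lt_irrefl _ h3
      · exact hm
    have hϖ0 : ϖ₁ ≠ 0 := by
      intro h0
      rw [h0, zero_pow hm.ne'] at hϖ
      exact hπF hϖ.symm
    -- the fraction form of `t ^ m = (e₁ / e₂) ^ a`
    obtain ⟨a', b', ha', hb', hab'⟩ : ∃ a' b' : ↥(zchClosure (A₀ := ↥(beta0Ring A K₀)) ({(bgJ ↥K₀ (M * q))⁻¹} : Set ↥(modularFunctionFieldFullC ↥K₀ (M * q)))), a' ∉ 𝔫.1 ∧ b' ∉ 𝔫.1 ∧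
        f (b' : ↥(modularFunctionFieldFullC ↥K₀ (M * q))) * (f (e₁ : ↥(modularFunctionFieldFullC ↥K₀ (M * q))) / f (e₂ : ↥(modularFunctionFieldFullC ↥K₀ (M * q)))) ^ a = f (a' : ↥(modularFunctionFieldFullC ↥K₀ (M * q))) := by
      rcases le_total 0 a with ha | ha
      · obtain ⟨n, rfl⟩ := Int.eq_ofNat_of_zero_le ha
        refine ⟨e₁ ^ n, e₂ ^ n, fun h => he₁ (‹𝔫.1.IsPrime›.mem_of_pow_mem n h),
          fun h => he₂ (‹𝔫.1.IsPrime›.mem_of_pow_mem n h), ?_⟩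
        rw [zpow_natCast, div_pow]
        push_cast
        rw [map_pow, map_pow, mul_div_assoc', mul_comm, mul_div_assoc,
          div_self (pow_ne_zero _ he₂F), mul_one]
      · obtain ⟨n, rfl⟩ := Int.exists_eq_neg_ofNat ha
        refine ⟨e₂ ^ n, e₁ ^ n, fun h => he₂ (‹𝔫.1.IsPrime›.mem_of_pow_mem n h),
          fun h => he₁ (‹𝔫.1.IsPrime›.mem_of_pow_mem n h), ?_⟩
        rw [zpow_neg, zpow_natCast, ← inv_pow, inv_div, div_pow]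
        push_cast
        rw [map_pow, map_pow, mul_div_assoc', mul_comm, mul_div_assoc,
          div_self (pow_ne_zero _ he₁F), mul_one]
    refine ⟨(y / f γ) ^ a / (f (algebraMap ↥(beta0Ring A K₀) ↥(modularFunctionFieldFullC ↥K₀ (M * q)) π) ^ b * ϖ₁),
      a', b', γ * (((e₁ : ↥(modularFunctionFieldFullC ↥K₀ (M * q))) / (e₂ : ↥(modularFunctionFieldFullC ↥K₀ (M * q)))) ^ b)⁻¹, ha', hb', ?_,
      mul_ne_zero hγ (inv_ne_zero (zpow_ne_zero _ (div_ne_zero (hne e₁ he₁) (hne e₂ he₂)))),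
      Or.inr ⟨h1, ?_⟩⟩
    · rw [hpow]
      exact hab'
    · -- `y = γ ε^{-b} (t ϖ₁)^{n₀}`
      have hF := rtk6gi_LF_lift_hom f hyu h
      have hyΓ : (y / f γ) ^ m = f (e₁ : ↥(modularFunctionFieldFullC ↥K₀ (M * q))) / f (e₂ : ↥(modularFunctionFieldFullC ↥K₀ (M * q))) *
          f (algebraMap ↥(beta0Ring A K₀) ↥(modularFunctionFieldFullC ↥K₀ (M * q)) π) ^ n₀ := by
        rw [div_pow, div_eq_iff (pow_ne_zero _ hγF), div_mul_eq_mul_div, div_mul_eq_mul_div,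
          eq_div_iff he₂F, mul_comm]
        exact hF
      have hy0 : y / f γ ≠ 0 := by
        intro h0
        rw [h0, zero_pow hm.ne'] at hyΓ
        exact mul_ne_zero (div_ne_zero he₁F he₂F) (zpow_ne_zero _ hπF) hyΓ.symm
      have hrel := rtk6gi_sm_zero_rel (T := y / f γ)
        (P := f (algebraMap ↥(beta0Ring A K₀)
          ↥(modularFunctionFieldFullC ↥K₀ (M * q)) π))
        (E := f (e₁ : ↥(modularFunctionFieldFullC ↥K₀ (M * q))) /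
          f (e₂ : ↥(modularFunctionFieldFullC ↥K₀ (M * q))))
        (ϖ₁ := ϖ₁) (d := m) (n₀ := n₀) (a := a) (b := b) hy0 hπF hϖ0 hab hyΓ
      have hE0 : (f (e₁ : ↥(modularFunctionFieldFullC ↥K₀ (M * q))) /
          f (e₂ : ↥(modularFunctionFieldFullC ↥K₀ (M * q)))) ^ b ≠ 0 :=
        zpow_ne_zero _ (div_ne_zero he₁F he₂F)
      rw [hrel, map_mul, map_inv₀, map_zpow₀, map_div₀, mul_assoc, mul_comm (y / f γ),
        ← mul_assoc _ _ (y / f γ), inv_mul_cancel₀ hE0, one_mul,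
        mul_div_cancel₀ _ hγF]
  · -- `Σ_∞`
    refine ⟨y / f γ, e₁, e₂, γ, he₁, he₂, rtk6gi_t_pow_hom f hyu hγ h, hγ, Or.inl ⟨h1, ?_⟩⟩
    rw [mul_div_cancel₀ _ ((map_ne_zero f).2 hγ)]


end RegKF

section RegKPack

variable {A : ValuationSubring Qb} {K₀ : IntermediateField ℚ Qb}
  [IsDiscreteValuationRing ↥(beta0Ring A K₀)] {π : ↥(beta0Ring A K₀)} (hπ : Irreducible π)
  (ιC : ↥K₀ →+* ℂ) {q M : ℕ} [NeZero q] [NeZero M] [NeZero (M * q)]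
  (hq : q.Prime) (hqM : ¬ q ∣ M)

variable {F : Type*} [Field F] [Algebra ↥(modularFunctionFieldFullC ↥K₀ (M * q)) F]

include hπ ιC hq hqM in
/-- **the étale pack at ANY closed point of the chart `1 / j`** (crossing or not): the fields `hS`,
`hSet`, `hgen`, `hσS`/`hδS` of `Rtk6c4Cross(E)`. -/
theorem rtk6giki_cross_pack (hA : A.LiesOverPrime q) (hE : beta0Field A ≤ K₀) {φ : Qb ≃ₐ[ℚ] Qb}
    (hφF : A.IsFrobeniusAt φ q) (hφ : ∀ x ∈ K₀, φ x ∈ K₀)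
    (hqπ : Associated ((q : ℕ) : ↥(beta0Ring A K₀)) π)
    (rigid : (q ≠ 2 → 4 ∣ M) ∧ (q = 2 → 9 ∣ M))
    (m : ℕ) {ι : Type*} [Finite ι] (y : ι → F)
    (u : ι → ↥(modularFunctionFieldFullC ↥K₀ (M * q))) (n₀ : ι → ℤ)
    (hyu : ∀ i, y i ^ m = algebraMap ↥(modularFunctionFieldFullC ↥K₀ (M * q)) F (u i))
    (hu : ∀ i, u i ≠ 0)
    (hhor : ∀ i, ∀ P : Place ↥K₀ ↥(modularFunctionFieldFullC ↥K₀ (M * q)),
      (m : ℤ) ∣ P.ord (u i))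
    (hy₁ : ∀ i, (mgvV hπ ιC hq hqM true).valuation (u i) = 1)
    (hn₀ : ∀ i, (mgvV hπ ιC hq hqM false).valuation (u i) =
      (mgvV hπ ιC hq hqM false).valuation
        (algebraMap ↥(beta0Ring A K₀)
          ↥(modularFunctionFieldFullC ↥K₀ (M * q)) π) ^ n₀ i)
    (hdvd : ∀ i, (m : ℤ) ∣ n₀ i)
    (T Y : Set F) (hY : ∀ z ∈ Y, z ∈ T ∨ ∃ i, z = y i)
    (hF1 : Algebra.adjoin ↥(modularFunctionFieldFullC ↥K₀ (M * q)) Y = ⊤)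
    (𝔫 : AtPt (F := ↥(modularFunctionFieldFullC ↥K₀ (M * q))) π
      (bgJ ↥K₀ (M * q))⁻¹) :
    ∃ S : Set F, S.Finite ∧
      (∀ t ∈ S, ∃ a b : ↥(zchClosure (A₀ := ↥(beta0Ring A K₀))
          ({(bgJ ↥K₀ (M * q))⁻¹} :
            Set ↥(modularFunctionFieldFullC ↥K₀ (M * q)))),
        a ∉ 𝔫.1 ∧ b ∉ 𝔫.1 ∧
        algebraMap ↥(modularFunctionFieldFullC ↥K₀ (M * q)) F
            (b : ↥(modularFunctionFieldFullC ↥K₀ (M * q))) * t ^ m =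
          algebraMap ↥(modularFunctionFieldFullC ↥K₀ (M * q)) F
            (a : ↥(modularFunctionFieldFullC ↥K₀ (M * q)))) ∧
      Algebra.adjoin ↥(modularFunctionFieldFullC ↥K₀ (M * q)) (S ∪ T) = ⊤ ∧
      (∀ σ : F ≃ₐ[↥(modularFunctionFieldFullC ↥K₀ (M * q))] F,
        (∀ i, σ (y i) = y i) → ∀ t ∈ S, σ t = t) ∧
      (∀ t ∈ S, ∃ i, ∃ c : ↥(modularFunctionFieldFullC ↥K₀ (M * q)), c ≠ 0 ∧
        t = y i / algebraMap ↥(modularFunctionFieldFullC ↥K₀ (M * q)) F c) ∧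
      (∀ i, ∃ t ∈ S, ∃ c : ↥(modularFunctionFieldFullC ↥K₀ (M * q)), c ≠ 0 ∧
        y i = algebraMap ↥(modularFunctionFieldFullC ↥K₀ (M * q)) F c * t) := by
  obtain ⟨S, hS, hSet, hSy, hyS⟩ := rtk6giki_et_family hπ ιC hq hqM
    (algebraMap ↥(modularFunctionFieldFullC ↥K₀ (M * q)) F) hA hE hφF hφ hqπ rigid m y u n₀
    hyu hu hhor hy₁ hn₀ hdvd 𝔫
  refine ⟨S, hS, hSet, ?_, ?_, hSy, hyS⟩
  · refine rtk6gi_hgen_cross_abs y S T Y (fun i => ?_) hY hF1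
    obtain ⟨t, ht, c, -, hc⟩ := hyS i
    exact ⟨t, ht, c, hc⟩
  · intro σ hσ
    exact rtk6gi_fix_set y S hSy σ hσ

include hπ ιC hq hqM in
/-- **the smooth pack**: at a closed point `𝔫` of the chart `1 / j` which is NOT a crossing point,
the fields `hS`, `hSet` (exponent `m`), `hgen` of `Rtk6c4Sm`: `F = K[{ϖ₁} ∪ S]`, every
`t ∈ S` with `φ b · t ^ m = φ a`, `a, b ∈ R₀ ∖ 𝔫`.  The étale family has exponent `m`, the
ramified generator `y` and `ϖ₁` have exponent `m' ∣ m`. -/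
theorem rtk6giki_sm_pack (hA : A.LiesOverPrime q) (hE : beta0Field A ≤ K₀) {φ : Qb ≃ₐ[ℚ] Qb}
    (hφF : A.IsFrobeniusAt φ q) (hφ : ∀ x ∈ K₀, φ x ∈ K₀)
    (hqπ : Associated ((q : ℕ) : ↥(beta0Ring A K₀)) π)
    (rigid : (q ≠ 2 → 4 ∣ M) ∧ (q = 2 → 9 ∣ M))
    (m : ℕ) {ι : Type*} [Finite ι] (y : ι → F)
    (u : ι → ↥(modularFunctionFieldFullC ↥K₀ (M * q))) (n₀ : ι → ℤ)
    (hyu : ∀ i, y i ^ m = algebraMap ↥(modularFunctionFieldFullC ↥K₀ (M * q)) F (u i))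
    (hu : ∀ i, u i ≠ 0)
    (hhor : ∀ i, ∀ P : Place ↥K₀ ↥(modularFunctionFieldFullC ↥K₀ (M * q)),
      (m : ℤ) ∣ P.ord (u i))
    (hy₁ : ∀ i, (mgvV hπ ιC hq hqM true).valuation (u i) = 1)
    (hn₀ : ∀ i, (mgvV hπ ιC hq hqM false).valuation (u i) =
      (mgvV hπ ιC hq hqM false).valuation
        (algebraMap ↥(beta0Ring A K₀)
          ↥(modularFunctionFieldFullC ↥K₀ (M * q)) π) ^ n₀ i)
    (hdvd : ∀ i, (m : ℤ) ∣ n₀ i)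
    -- the ramified generator
    (m' : ℕ) (hm' : m' ∣ m) {yr ϖ₁ : F}
    {ur : ↥(modularFunctionFieldFullC ↥K₀ (M * q))}
    (hyur : yr ^ m' = algebraMap ↥(modularFunctionFieldFullC ↥K₀ (M * q)) F ur)
    (hur : ur ≠ 0)
    (hhorr : ∀ P : Place ↥K₀ ↥(modularFunctionFieldFullC ↥K₀ (M * q)),
      (m' : ℤ) ∣ P.ord ur)
    (hyr₁ : (mgvV hπ ιC hq hqM true).valuation ur = 1) {nr : ℤ}
    (hnr : (mgvV hπ ιC hq hqM false).valuation ur = (mgvV hπ ιC hq hqM false).valuation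
      (algebraMap ↥(beta0Ring A K₀)
        ↥(modularFunctionFieldFullC ↥K₀ (M * q)) π) ^ nr)
    {a b : ℤ} (hab : a * nr - b * m' = 1)
    (hϖ : ϖ₁ ^ m' = algebraMap ↥(modularFunctionFieldFullC ↥K₀ (M * q)) F
      (algebraMap ↥(beta0Ring A K₀)
        ↥(modularFunctionFieldFullC ↥K₀ (M * q)) π))
    -- (F1)
    (Y : Set F) (hY : ∀ z ∈ Y, z = ϖ₁ ∨ z = yr ∨ ∃ i, z = y i)
    (hF1 : Algebra.adjoin ↥(modularFunctionFieldFullC ↥K₀ (M * q)) Y = ⊤)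
    (𝔫 : AtPt (F := ↥(modularFunctionFieldFullC ↥K₀ (M * q))) π
      (bgJ ↥K₀ (M * q))⁻¹)
    (hnc : ¬ (atThrough 𝔫 (mgvV hπ ιC hq hqM true) ∧ atThrough 𝔫 (mgvV hπ ιC hq hqM false))) :
    ∃ S : Set F, S.Finite ∧
      (∀ t ∈ S, ∃ a b : ↥(zchClosure (A₀ := ↥(beta0Ring A K₀))
          ({(bgJ ↥K₀ (M * q))⁻¹} :
            Set ↥(modularFunctionFieldFullC ↥K₀ (M * q)))),
        a ∉ 𝔫.1 ∧ b ∉ 𝔫.1 ∧
        algebraMap ↥(modularFunctionFieldFullC ↥K₀ (M * q)) F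
            (b : ↥(modularFunctionFieldFullC ↥K₀ (M * q))) * t ^ m =
          algebraMap ↥(modularFunctionFieldFullC ↥K₀ (M * q)) F
            (a : ↥(modularFunctionFieldFullC ↥K₀ (M * q)))) ∧
      Algebra.adjoin ↥(modularFunctionFieldFullC ↥K₀ (M * q)) ({ϖ₁} ∪ S) = ⊤ := by
  haveI := 𝔫.2.1.isPrime
  have hπ0 : algebraMap ↥(beta0Ring A K₀)
      ↥(modularFunctionFieldFullC ↥K₀ (M * q)) π ≠ 0 := ribmp_fc_hπ0 hπ
  have hne : ∀ e : ↥(zchClosure (A₀ := ↥(beta0Ring A K₀))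
      ({(bgJ ↥K₀ (M * q))⁻¹} :
        Set ↥(modularFunctionFieldFullC ↥K₀ (M * q)))), e ∉ 𝔫.1 →
      (e : ↥(modularFunctionFieldFullC ↥K₀ (M * q))) ≠ 0 := fun e he h0 =>
    he ((Subtype.ext h0 : e = 0) ▸ 𝔫.1.zero_mem)
  obtain ⟨S, hS, hSet, hSy, hyS⟩ := rtk6giki_et_family hπ ιC hq hqM
    (algebraMap ↥(modularFunctionFieldFullC ↥K₀ (M * q)) F) hA hE hφF hφ hqπ rigid m y u n₀
    hyu hu hhor hy₁ hn₀ hdvd 𝔫
  obtain ⟨t, a', b', c, ha', hb', ht, hc, hcase⟩ := rtk6giki_sm_JF hπ ιC hq hqM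
    (algebraMap ↥(modularFunctionFieldFullC ↥K₀ (M * q)) F) hA hE hφF hφ hqπ rigid m' hyur hur
    hhorr hyr₁ hnr hab hϖ 𝔫 hnc
  have hm'0 : 0 < m' := by
    rcases Nat.eq_zero_or_pos m' with h0 | h0
    · exfalso
      subst h0
      rw [pow_zero] at hϖ
      have h1 : algebraMap ↥(beta0Ring A K₀)
          ↥(modularFunctionFieldFullC ↥K₀ (M * q)) π = 1 :=
        (algebraMap ↥(modularFunctionFieldFullC ↥K₀ (M * q)) F).injective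
          (by rw [← hϖ, map_one])
      have h3 := mgv_hπV hπ ιC hq hqM false
      rw [h1, ValuationSubring.mem_nonunits_iff, map_one] at h3
      exact lt_irrefl _ h3
    · exact h0
  refine ⟨S ∪ {t}, hS.union (Set.finite_singleton t), ?_, ?_⟩
  · rintro s (hs | hs)
    · exact hSet s hs
    · rw [Set.mem_singleton_iff.1 hs]
      exact rtk6gi_pow_unify
        ((algebraMap ↥(modularFunctionFieldFullC ↥K₀ (M * q)) F).comp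
          (zchClosure (A₀ := ↥(beta0Ring A K₀))
            ({(bgJ ↥K₀ (M * q))⁻¹} :
              Set ↥(modularFunctionFieldFullC ↥K₀ (M * q)))).subtype)
        𝔫.1 hm' ha' hb' ht
  · refine rtk6gi_hgen_sm_abs y S Y (fun i => ?_) hY hF1 ?_
    · obtain ⟨s, hs, c', -, hc'⟩ := hyS i
      exact ⟨s, hs, c', hc'⟩
    · rcases hcase with ⟨-, h⟩ | ⟨-, h⟩
      · exact Or.inl ⟨c, h⟩
      · refine Or.inr ⟨c, (a' : ↥(modularFunctionFieldFullC ↥K₀ (M * q))) /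
          (b' : ↥(modularFunctionFieldFullC ↥K₀ (M * q))) *
          algebraMap ↥(beta0Ring A K₀)
            ↥(modularFunctionFieldFullC ↥K₀ (M * q)) π, nr, m', hm'0,
          mul_ne_zero (div_ne_zero (hne a' ha') (hne b' hb')) hπ0, ?_, h⟩
        have hb'F : algebraMap ↥(modularFunctionFieldFullC ↥K₀ (M * q)) F
            (b' : ↥(modularFunctionFieldFullC ↥K₀ (M * q))) ≠ 0 :=
          (_root_.map_ne_zero _).2 (hne b' hb')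
        rw [mul_pow, hϖ, map_mul, map_div₀, ← ht, mul_comm
          (algebraMap ↥(modularFunctionFieldFullC ↥K₀ (M * q)) F
            (b' : ↥(modularFunctionFieldFullC ↥K₀ (M * q)))) (t ^ m'),
          mul_div_assoc, div_self hb'F, mul_one]


end RegKPack

end Fermat.Agent.RT.K6

end


end ZBRT_077_3

/-! ### bundled: `Fermat.Agent.RT.K6.UnipFinal` -/
section ZBRT_077_4
/-
K-machine, piece K6, **CASE (U), CLOSED TERM** (helper81): `rtk6uf_stmtUnipHRig : StmtUnipHRig`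
and `rtk6uf_geomUnip : StmtRtk6GeomUnip`, with NO hypotheses.

At the unramified level `K₁′ = rtk6ebK q 1`, uniformizer `ϖ₁ ~ q`:

* the Kummer data `Rtk6c4uKummer` (helper37, `rtk6c4u_kummer_of_K`) from (K1) the characters
  (helper18, `rtk6c4uc_characters`) and (K2) the generation (`rtk6c4uk_gen_alg`);
* (G-et) on the chart `j` : helper37's `rtk6c4u_get_J`;
* (G-et) on the chart `1 / j` : `rtk6uf_get_Jinv`, the twin of `rtk6c4u_get_J` with helper74's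
  `rtk6giki_et_family` (`RT/K6/GenInstKInv.lean`);
* the thin dichotomies `rtk6c4u_thin_J`, `rtk6c4b_thin_Jinv`, the dichotomy (A)
  `rtk6c4u_nodeAt_J`, `rtk6c4u_nodeAt_Jinv`, and the top half `rtk6c4b_stmtUnipHRig_of_get`.
-/

set_option autoImplicit false
set_option linter.style.haveILetI false
set_option linter.unusedSectionVars false
set_option linter.unusedVariables false
set_option linter.style.longLine false
set_option synthInstance.maxHeartbeats 400000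
set_option maxHeartbeats 1000000

noncomputable section

namespace Fermat.Agent.RT.K6

open ModularCurve AlgebraicCurve Fermat.Agent.ES Fermat.Agent.ES.G2 Fermat.Agent.INJ
open Fermat.Agent.UNIP Fermat.Agent.STB Fermat.Agent.ES1 Fermat.Agent.ES1.G2 Fermat.Agent.AL
  IntermediateField

section Concrete

variable {A : ValuationSubring Qb} {K₁ : IntermediateField ℚ Qb}
  [IsDiscreteValuationRing ↥(mgcA A K₁)] {π : ↥(mgcA A K₁)} (hπ : Irreducible π)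
  (ιC : ↥(mgcE A K₁) →+* ℂ) {q M₁ : ℕ} [NeZero q] [NeZero M₁] [NeZero (M₁ * q)]
  (hq : q.Prime) (hqM : ¬ q ∣ M₁) (M : ℕ) (H : Subgroup (ZMod M)ˣ)

/-- **The Kummer data of the case (U)**, unconditionally (level `K₁` unramified). -/
theorem rtk6uf_kummer [NeZero M] (hA : A.LiesOverPrime q)
    (hqπ : Associated ((q : ℕ) : ↥(mgcA A K₁)) π)
    (hML : M ∣ M₁ * q) (hqN : q ∣ M) (h4 : 4 ∣ M₁ * q)
    (hat : ∀ c : (ZMod M)ˣ, IsAtR M q c → c ∈ pmH H)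
    (htame : IsTameAt (M₁ * q) M q H) :
    Rtk6c4uKummer hπ ιC hq hqM M H :=
  rtk6c4u_kummer_of_K hπ ιC hq hqM M H hA hqπ hML hqN h4 hat htame
    (fun d hdc hdH => rtk6c4uc_characters hq hA le_sup_left H (NeZero.ne M) hdc
      (Dvd.intro_left M₁ rfl) hdH)
    (fun d k ψ hd0 hψH hψ1 hψd hfaith =>
      rtk6c4uk_gen_alg (mgcE A K₁) H ψ (NeZero.ne (M₁ * q)) hML
        (rtk6c4u_three_le hq hqN (NeZero.ne M) hqM h4) hψH hψ1 hd0 hψd hfaith)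

include hπ ιC hq hqM in
/-- **(G-et) on the chart `1 / j`** from the chart-free Kummer data. -/
theorem rtk6uf_get_Jinv [Normal ℚ K₁] (hA : A.LiesOverPrime q)
    (hqπ : Associated ((q : ℕ) : ↥(mgcA A K₁)) π)
    (rigid : (q ≠ 2 → 4 ∣ M₁) ∧ (q = 2 → 9 ∣ M₁))
    (hk : Rtk6c4uKummer hπ ιC hq hqM M H) :
    Rtk6c4uGet π M H (bgJ ↥(mgcE A K₁) (M₁ * q))⁻¹ := by
  intro 𝔫₀
  obtain ⟨m, k, y, u, n₀, hqm, hyu, hu, hhor, hy₁, hn₀, hdvd, hgen⟩ := hk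
  obtain ⟨φ, hφF⟩ := Fermat.Agent.Common.exists_isFrobeniusAt_of_liesOverPrime q hq A hA
  obtain ⟨S, hS, hSet, -, hyS⟩ := rtk6giki_et_family hπ ιC hq hqM
    (rtk6diIncl (K := ↥(mgcE A K₁)) (M₁ * q) M H) hA le_sup_left hφF
    (stb_stable_beta0_sup hφF.mem_decompositionSubgroup K₁) hqπ rigid m y u n₀ hyu hu hhor hy₁
    hn₀ hdvd 𝔫₀
  refine ⟨m, S, rtk6c4u_natCast_not_mem hq hqπ hqm 𝔫₀, hS, hSet, ?_⟩
  refine rtk6gi_closure_top (rtk6diIncl (K := ↥(mgcE A K₁)) (M₁ * q) M H) y S (fun i => ?_) hgen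
  obtain ⟨t, ht, c, -, h⟩ := hyS i
  exact ⟨t, ht, c, h⟩

include hπ ιC hq hqM in
/-- **(G-et) on both charts, case (U)**, unconditionally. -/
theorem rtk6uf_get [NeZero M] [Normal ℚ K₁] (hA : A.LiesOverPrime q)
    (hqπ : Associated ((q : ℕ) : ↥(mgcA A K₁)) π)
    (hML : M ∣ M₁ * q) (hqN : q ∣ M) (h4 : 4 ∣ M₁ * q)
    (hat : ∀ c : (ZMod M)ˣ, IsAtR M q c → c ∈ pmH H)
    (htame : IsTameAt (M₁ * q) M q H) :
    Rtk6c4uGet π M H (bgJ ↥(mgcE A K₁) (M₁ * q)) ∧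
      Rtk6c4uGet π M H (bgJ ↥(mgcE A K₁) (M₁ * q))⁻¹ := by
  have hk := rtk6uf_kummer hπ ιC hq hqM M H hA hqπ hML hqN h4 hat htame
  have rigid := rtk6c4b_rigid hq hqM h4
  exact ⟨rtk6c4u_get_J hπ ιC hq hqM M H hA hqπ rigid hk,
    rtk6uf_get_Jinv hπ ιC hq hqM M H hA hqπ rigid hk⟩

end Concrete

/-- **CASE (U), CLOSED: `StmtUnipHRig`.** -/
theorem rtk6uf_stmtUnipHRig : StmtUnipHRig :=
  rtk6c4b_stmtUnipHRig_of_get
    (fun q M₁ _ _ _ M H hq hqM' hM0 hqM hML hat htame h4 A hA _ ϖ₁ hϖ₁ hass => by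
      haveI : NeZero M := ⟨hM0⟩
      exact rtk6uf_get hϖ₁ (mgdIota (mgcE A (rtk6ebK q 1))) hq hqM M H hA hass hML hqM' h4
        hat htame)

/-- **CASE (U), CLOSED: `StmtRtk6GeomUnip`.** -/
theorem rtk6uf_geomUnip : StmtRtk6GeomUnip :=
  rtk6c4b_geomUnip
    (fun q M₁ _ _ _ M H hq hqM' hM0 hqM hML hat htame h4 w₀ hw₀ A hA _ hcomm => by
      haveI : NeZero M := ⟨hM0⟩
      exact rtk6c4b_asm_of_get hq hqM' hM0 hqM hML h4 w₀ hw₀ hA hcomm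
        (fun {ϖ₁} hϖ₁ hass => (rtk6uf_get hϖ₁ (mgdIota (mgcE A (rtk6ebK q 1))) hq hqM M H hA
          hass hML hqM' h4 hat htame).1)
        (fun {ϖ₁} hϖ₁ hass => (rtk6uf_get hϖ₁ (mgdIota (mgcE A (rtk6ebK q 1))) hq hqM M H hA
          hass hML hqM' h4 hat htame).2))

end Fermat.Agent.RT.K6

end
end ZBRT_077_4
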