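/- GENERATED FILE (helper35, build-time optimisation, NOTES/ZB.md): verbatim concatenation of the modules
   Fermat.Agent.RT.K6.C4Sm
   Do not edit; do not import together with these modules. -/
import Fermat.Agent.ZB.RT_075
import Fermat.Agent.ZB.UNIP_010

/-! ### bundled: `Fermat.Agent.RT.K6.C4Sm` -/
section ZBRT_096_0
/-
K-machine, piece K6, piece C4-SM (helper86), abstract core: the SMOOTH points of the chart of the
`Γ_H`-field over the ramified base `A₁`.

`R₀` the chart of the `Γ₀`-field over the unramified base `A₀` (`p` the uniformizer), `R` the chart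
of the `Γ₀`-field over `A₁` (`ϖ` the uniformizer, `j₀ : R₀ →+* R`, `MgcRamified j₀ ϖ p`),
`K = Frac R`, `F = K(S)` with Kummer generators `t ∈ S`, `b t ^ d = a` with `a, b` units at the
point, `B` the chart of `F` over `A₁` (`= ` the integral closure of `R` in `F`, in HOM form:
`j : R →+* B`, `ι : B →+* F` injective, `hint`, `hcl`), `𝔫` a maximal ideal of `B`.

* `rtk6c4sm_locGen`  : (ET-multi, hom form) local generators `T` of `𝔫 ∩ R` are local generators
  of `𝔫`:  `NodesLocGen (𝔫.comap j) T → NodesLocGen 𝔫 (j '' T)`;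
* `rtk6c4sm_smooth`  : if `𝔫 ∩ R₀ = (p, s₀)` locally (smooth point of the `Γ₀`-chart over `A₀`),
  then `𝔫 = (ϖ, s)` locally, `s` the image of `s₀`;
* `rtk6c4sm_smooth_of_gen` : the same with the Kummer equations over `R₀` (shape (G-sm)/(G-et) of
  GEN-inst).
-/

set_option autoImplicit false
set_option linter.style.haveILetI false
set_option linter.unusedSectionVars false
set_option linter.unusedVariables false

namespace Fermat.Agent.RT.K6

open Fermat.Agent.UNIP

universe u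

section Abs

variable {R K F B : Type u} [CommRing R] [IsDomain R] [IsIntegrallyClosed R]
  [Field K] [Algebra R K] [IsFractionRing R K] [Field F] [Algebra K F]
  [CommRing B] (j : R →+* B) (ι : B →+* F)

/-- **C4-SM, étale stage (hom form of `rtk6etm_locGen_of_span`).**  `B` the integral closure of
`R` in `F = K(S)`, `b t ^ d = a` with `a, b ∉ 𝔫`, `d ∉ 𝔫`: local generators of `𝔫 ∩ R` generate
`𝔫` locally. -/
theorem rtk6c4sm_locGen (hι : Function.Injective ι)
    (hjι : ∀ x : R, ι (j x) = algebraMap K F (algebraMap R K x))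
    (hint : ∀ b : B, (ι.comp j).IsIntegralElem (ι b))
    (hcl : ∀ x : F, (ι.comp j).IsIntegralElem x → ∃ b : B, ι b = x)
    (𝔫 : Ideal B) [h𝔫 : 𝔫.IsMaximal] (d : ℕ) (hd : (d : B) ∉ 𝔫)
    (S : Set F) (hS : S.Finite)
    (hl : ∀ t ∈ S, ∃ a b : R, j a ∉ 𝔫 ∧ j b ∉ 𝔫 ∧ ι (j b) * t ^ d = ι (j a))
    (hgen : Algebra.adjoin K S = ⊤)
    (T : Set R) (hT : NodesLocGen (𝔫.comap j) T) :
    NodesLocGen 𝔫 (j '' T) := by
  letI : Algebra R B := j.toAlgebra
  letI : Algebra B F := ι.toAlgebra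
  letI : Algebra R F := ((algebraMap K F).comp (algebraMap R K)).toAlgebra
  haveI : IsScalarTower R K F := IsScalarTower.of_algebraMap_eq fun _ => rfl
  haveI : IsScalarTower R B F := IsScalarTower.of_algebraMap_eq fun x => (hjι x).symm
  have hcomp : ι.comp j = algebraMap R F := RingHom.ext fun x => hjι x
  haveI : IsIntegralClosure B R F :=
    { algebraMap_injective := hι
      isIntegral_iff := fun {x} => by
        constructor
        · intro hx
          exact hcl x (by rw [hcomp]; exact hx)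
        · rintro ⟨b, rfl⟩
          have := hint b
          rw [hcomp] at this
          exact this }
  haveI : Algebra.IsIntegral R B := IsIntegralClosure.isIntegral_algebra R F
  haveI h𝔫₀ : (𝔫.comap (algebraMap R B)).IsMaximal :=
    Ideal.isMaximal_comap_of_isIntegral_of_isMaximal 𝔫
  haveI := h𝔫.isPrime
  have hd' : (d : R) ∉ 𝔫.comap (algebraMap R B) := by
    intro h
    rw [Ideal.mem_comap, map_natCast] at h
    exact hd h
  exact rtk6etm_locGen_of_span (K := K) (L := F) (B := B) (𝔫.comap (algebraMap R B)) d hd' S hS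
    (fun t ht => by
      obtain ⟨a, b, ha, hb, hab⟩ := hl t ht
      refine ⟨a, b, fun h => ha (Ideal.mem_comap.1 h), fun h => hb (Ideal.mem_comap.1 h), ?_⟩
      have hb' : algebraMap R F b = ι (j b) := (hjι b).symm
      have ha' : algebraMap R F a = ι (j a) := (hjι a).symm
      rw [hb', ha']
      exact hab)
    hgen 𝔫 rfl T hT

variable {R₀ : Type*} [CommRing R₀] (j₀ : R₀ →+* R)

/-- **C4-SM, abstract form.**  A closed point `𝔫` of the chart `B` of `F` over the ramified base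
lying over a SMOOTH point `(p, s₀)` of the chart `R₀` over the unramified base is a smooth point
`(ϖ, s)` of `B`. -/
theorem rtk6c4sm_smooth (hι : Function.Injective ι)
    (hjι : ∀ x : R, ι (j x) = algebraMap K F (algebraMap R K x))
    (hint : ∀ b : B, (ι.comp j).IsIntegralElem (ι b))
    (hcl : ∀ x : F, (ι.comp j).IsIntegralElem x → ∃ b : B, ι b = x)
    (𝔫 : Ideal B) [h𝔫 : 𝔫.IsMaximal] (d : ℕ) (hd : (d : B) ∉ 𝔫)
    (S : Set F) (hS : S.Finite)
    (hl : ∀ t ∈ S, ∃ a b : R, j a ∉ 𝔫 ∧ j b ∉ 𝔫 ∧ ι (j b) * t ^ d = ι (j a))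
    (hgen : Algebra.adjoin K S = ⊤)
    {ϖ : R} {p : R₀} (hram : MgcRamified j₀ ϖ p) (hϖ : j ϖ ∈ 𝔫)
    (s₀ : R₀) (hs₀ : j (j₀ s₀) ∈ 𝔫)
    (hsm : NodesLocGen ((𝔫.comap j).comap j₀) {p, s₀}) :
    ∃ s : B, s ∈ 𝔫 ∧ NodesLocGen 𝔫 {j ϖ, s} := by
  have h1 : NodesLocGen (𝔫.comap j) {ϖ, j₀ s₀} :=
    hram.mgg_locGen_pair (Ideal.mem_comap.2 hϖ) s₀ hsm
  have h2 := rtk6c4sm_locGen (K := K) j ι hι hjι hint hcl 𝔫 d hd S hS hl hgen {ϖ, j₀ s₀} h1
  rw [Set.image_pair] at h2
  exact ⟨j (j₀ s₀), hs₀, h2⟩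

/-- **C4-SM, abstract form, with the Kummer equations over the unramified chart** (the shape of
(G-sm), (G-et) of GEN-inst: `b t ^ d = a`, `a, b ∈ R₀` units at the point). -/
theorem rtk6c4sm_smooth_of_gen (hι : Function.Injective ι)
    (hjι : ∀ x : R, ι (j x) = algebraMap K F (algebraMap R K x))
    (hint : ∀ b : B, (ι.comp j).IsIntegralElem (ι b))
    (hcl : ∀ x : F, (ι.comp j).IsIntegralElem x → ∃ b : B, ι b = x)
    (𝔫 : Ideal B) [h𝔫 : 𝔫.IsMaximal] (d : ℕ) (hd : (d : B) ∉ 𝔫)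
    (S : Set F) (hS : S.Finite)
    (hl : ∀ t ∈ S, ∃ a b : R₀, j (j₀ a) ∉ 𝔫 ∧ j (j₀ b) ∉ 𝔫 ∧
      ι (j (j₀ b)) * t ^ d = ι (j (j₀ a)))
    (hgen : Algebra.adjoin K S = ⊤)
    {ϖ : R} {p : R₀} (hram : MgcRamified j₀ ϖ p) (hϖ : j ϖ ∈ 𝔫)
    (s₀ : R₀) (hs₀ : j (j₀ s₀) ∈ 𝔫)
    (hsm : NodesLocGen ((𝔫.comap j).comap j₀) {p, s₀}) :
    ∃ s : B, s ∈ 𝔫 ∧ NodesLocGen 𝔫 {j ϖ, s} :=
  rtk6c4sm_smooth (K := K) j ι j₀ hι hjι hint hcl 𝔫 d hd S hS
    (fun t ht => by
      obtain ⟨a, b, ha, hb, hab⟩ := hl t ht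
      exact ⟨j₀ a, j₀ b, ha, hb, hab⟩)
    hgen hram hϖ s₀ hs₀ hsm

end Abs

end Fermat.Agent.RT.K6


end ZBRT_096_0
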