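/- GENERATED FILE (helper35, build-time optimisation, NOTES/ZB.md): verbatim concatenation of the modules
   Fermat.Agent.RT.K6.C4Pre
   Fermat.Agent.RT.K6.C4SmR0
   Fermat.Agent.RT.K6.C4SmAt
   Fermat.Agent.RT.K6.C4SmInst
   Do not edit; do not import together with these modules. -/
import Mathlib
import Fermat.Agent.ZB.RT_096
import Fermat.Agent.ZB.UNIP_003
import Fermat.Agent.ZB.RT_031
import Fermat.Agent.ZB.UNIP_007
import Fermat.Agent.ZB.UNIP_010

/-! ### bundled: `Fermat.Agent.RT.K6.C4Pre` -/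
section ZBRT_089_0
/-
K-machine, piece K6, piece C4 (helper94), part 1: preliminaries for the tower
`R₀ ⊆ R₀′ ⊆ B` (ÉTALE FIRST, then TKC), Mathlib only.

`K ⊆ F` fields, `S ⊆ F` the étale Kummer generators, `K′ := K(S)` (`rtk6c4K`),
`R₀′ := integralClosure R₀ K′` (`rtk6c4R`), `B` the chart of `F`
(`ι : B →+* F` injective, `hcl : ∀ x, IsIntegral R₀ x → ∃ b, ι b = x`).

* `rtk6c4_fix_adjoin`, `rtk6c4Lift` : a `K`-automorphism of `F` fixing `S` pointwise is a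
  `K(S)`-automorphism;
* `rtk6c4_adjoin_lift` : `K′ = K[S]` inside `K′`;
* `rtk6c4_adjoin_top`  : `F = K[S ∪ {ϖ₁, y}]` gives `F = K′[ϖ₁, y]`;
* `rtk6c4J`            : the ring homomorphism `R₀′ →+* B`, `ι (rtk6c4J x) = x`;
* `rtk6c4_isIntegralElem`, `rtk6c4_hcl` : `hint`, `hcl` of `rtk6gls_cross` for `R₀′ → B`.
-/

set_option autoImplicit false
set_option linter.style.haveILetI false
set_option linter.unusedSectionVars false
set_option linter.unusedVariables false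

namespace Fermat.Agent.RT.K6

open IntermediateField

section Fields

universe u

variable {K F : Type u} [Field K] [Field F] [Algebra K F]

/-- the field generated by the étale generators -/
abbrev rtk6c4K (K : Type u) {F : Type u} [Field K] [Field F] [Algebra K F] (S : Set F) :
    IntermediateField K F := IntermediateField.adjoin K S

/-- a `K`-automorphism fixing `S` pointwise fixes `K(S)` pointwise -/
theorem rtk6c4_fix_adjoin (S : Set F) (σ : F ≃ₐ[K] F) (hσ : ∀ t ∈ S, σ t = t) :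
    ∀ x ∈ rtk6c4K K S, σ x = x := by
  intro x hx
  induction hx using IntermediateField.adjoin_induction with
  | mem x hx => exact hσ x hx
  | algebraMap k => exact σ.commutes k
  | add x y _ _ hx hy => rw [map_add, hx, hy]
  | inv x _ hx => rw [map_inv₀, hx]
  | mul x y _ _ hx hy => rw [map_mul, hx, hy]

/-- a `K`-automorphism fixing `S` pointwise, as a `K(S)`-automorphism -/
noncomputable def rtk6c4Lift (S : Set F) (σ : F ≃ₐ[K] F) (hσ : ∀ t ∈ S, σ t = t) :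
    F ≃ₐ[rtk6c4K K S] F :=
  { σ.toRingEquiv with
    commutes' := fun k => rtk6c4_fix_adjoin S σ hσ (k : F) k.2 }

theorem rtk6c4Lift_apply (S : Set F) (σ : F ≃ₐ[K] F) (hσ : ∀ t ∈ S, σ t = t) (x : F) :
    rtk6c4Lift S σ hσ x = σ x := rfl

/-- `K′ = K[S]`, inside `K′` -/
theorem rtk6c4_adjoin_lift (S : Set F) (hS : ∀ t ∈ S, IsIntegral K t) :
    Algebra.adjoin K {z : rtk6c4K K S | (z : F) ∈ S} = ⊤ := by
  have hsub : (rtk6c4K K S).toSubalgebra = Algebra.adjoin K S :=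
    IntermediateField.adjoin_toSubalgebra_of_isAlgebraic fun s hs => (hS s hs).isAlgebraic
  rw [eq_top_iff]
  intro z _
  have hz : (z : F) ∈ Algebra.adjoin K S := by
    rw [← hsub]
    exact z.2
  have himg : Algebra.adjoin K S =
      (Algebra.adjoin K {z : rtk6c4K K S | (z : F) ∈ S}).map (rtk6c4K K S).val := by
    rw [AlgHom.map_adjoin]
    congr 1
    ext s
    constructor
    · intro hs
      exact ⟨⟨s, IntermediateField.subset_adjoin K S hs⟩, hs, rfl⟩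
    · rintro ⟨z', hz', rfl⟩
      exact hz'
  rw [himg] at hz
  obtain ⟨z', hz', hzz'⟩ := hz
  have : z' = z := Subtype.ext hzz'
  rwa [this] at hz'

/-- `F = K[S ∪ T]` gives `F = K(S)[T]` -/
theorem rtk6c4_adjoin_top (S T : Set F) (h : Algebra.adjoin K (S ∪ T) = ⊤) :
    Algebra.adjoin (rtk6c4K K S) T = ⊤ := by
  rw [eq_top_iff]
  intro x hxtop
  clear hxtop
  have hx : x ∈ Algebra.adjoin K (S ∪ T) := by
    rw [h]
    exact Algebra.mem_top
  induction hx using Algebra.adjoin_induction with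
  | mem y hy =>
    rcases hy with hy | hy
    · exact (Algebra.adjoin (rtk6c4K K S) T).algebraMap_mem
        (⟨y, IntermediateField.subset_adjoin K S hy⟩ : rtk6c4K K S)
    · exact Algebra.subset_adjoin hy
  | algebraMap k =>
    exact (Algebra.adjoin (rtk6c4K K S) T).algebraMap_mem (algebraMap K (rtk6c4K K S) k)
  | add y z _ _ hy hz => exact add_mem hy hz
  | mul y z _ _ hy hz => exact mul_mem hy hz

/-- the lifted set of generators is finite -/
theorem rtk6c4_finite_lift (S : Set F) (hS : S.Finite) :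
    {z : rtk6c4K K S | (z : F) ∈ S}.Finite := by
  have h : {z : rtk6c4K K S | (z : F) ∈ S} = (fun z : rtk6c4K K S => (z : F)) ⁻¹' S := rfl
  rw [h]
  exact hS.preimage (fun a _ b _ hab => Subtype.ext hab)

end Fields

section Chart

universe u

variable {K F R₀ B : Type u} [Field K] [Field F] [Algebra K F]
  [CommRing R₀] [Algebra R₀ K] [Algebra R₀ F] [IsScalarTower R₀ K F] [CommRing B]

/-- the chart of `K′ = K(S)`: the integral closure of `R₀` in `K′` -/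
abbrev rtk6c4R (R₀ K : Type u) {F : Type u} [Field K] [Field F] [Algebra K F]
    [CommRing R₀] [Algebra R₀ K] [Algebra R₀ F] [IsScalarTower R₀ K F] (S : Set F) :
    Subalgebra R₀ (rtk6c4K K S) := integralClosure R₀ (rtk6c4K K S)

instance rtk6c4_isScalarTower_K (S : Set F) : IsScalarTower R₀ (rtk6c4K K S) F :=
  IsScalarTower.of_algebraMap_eq fun r => by
    rw [IsScalarTower.algebraMap_apply R₀ K F, IsScalarTower.algebraMap_apply R₀ K (rtk6c4K K S)]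
    rfl

instance rtk6c4_isScalarTower_R (S : Set F) : IsScalarTower R₀ (rtk6c4R R₀ K S) F :=
  IsScalarTower.of_algebraMap_eq fun r => by
    rw [IsScalarTower.algebraMap_apply R₀ (rtk6c4K K S) F]
    rfl

/-- the elements of `R₀′` are integral over `R₀`, in `F` -/
theorem rtk6c4_isIntegral_coe (S : Set F) (x : rtk6c4R R₀ K S) :
    IsIntegral R₀ (((x : rtk6c4K K S) : F)) := by
  have := x.2
  exact this.map (IsScalarTower.toAlgHom R₀ (rtk6c4K K S) F)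

variable (ι : B →+* F) (hι : Function.Injective ι)
  (hcl : ∀ x : F, IsIntegral R₀ x → ∃ b, ι b = x)

/-- **the ring homomorphism `R₀′ →+* B`** -/
noncomputable def rtk6c4J (S : Set F) : rtk6c4R R₀ K S →+* B where
  toFun x := (hcl _ (rtk6c4_isIntegral_coe S x)).choose
  map_one' := hι (by
    rw [(hcl _ (rtk6c4_isIntegral_coe S (1 : rtk6c4R R₀ K S))).choose_spec, map_one]
    rfl)
  map_mul' x y := hι (by
    rw [(hcl _ (rtk6c4_isIntegral_coe S (x * y))).choose_spec, map_mul,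
      (hcl _ (rtk6c4_isIntegral_coe S x)).choose_spec,
      (hcl _ (rtk6c4_isIntegral_coe S y)).choose_spec]
    rfl)
  map_zero' := hι (by
    rw [(hcl _ (rtk6c4_isIntegral_coe S (0 : rtk6c4R R₀ K S))).choose_spec, map_zero]
    rfl)
  map_add' x y := hι (by
    rw [(hcl _ (rtk6c4_isIntegral_coe S (x + y))).choose_spec, map_add,
      (hcl _ (rtk6c4_isIntegral_coe S x)).choose_spec,
      (hcl _ (rtk6c4_isIntegral_coe S y)).choose_spec]
    rfl)

theorem rtk6c4J_spec (S : Set F) (x : rtk6c4R R₀ K S) :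
    ι (rtk6c4J ι hι hcl S x) = ((x : rtk6c4K K S) : F) :=
  (hcl _ (rtk6c4_isIntegral_coe S x)).choose_spec

/-- compatibility with `j : R₀ →+* B` -/
theorem rtk6c4J_algebraMap (S : Set F) (j : R₀ →+* B) (hjι : ∀ r, ι (j r) = algebraMap R₀ F r)
    (r : R₀) : rtk6c4J ι hι hcl S (algebraMap R₀ (rtk6c4R R₀ K S) r) = j r := by
  apply hι
  rw [rtk6c4J_spec (K := K) ι hι hcl S, hjι,
    IsScalarTower.algebraMap_apply R₀ (rtk6c4R R₀ K S) F]
  rfl

/-- `hjι` for `R₀′` -/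
theorem rtk6c4J_hjι (S : Set F) (x : rtk6c4R R₀ K S) :
    ι (rtk6c4J ι hι hcl S x) =
      algebraMap (rtk6c4K K S) F (algebraMap (rtk6c4R R₀ K S) (rtk6c4K K S) x) :=
  rtk6c4J_spec ι hι hcl S x

/-- `hint` for `R₀′ → B` -/
theorem rtk6c4_isIntegralElem (S : Set F) (hint : ∀ b : B, IsIntegral R₀ (ι b)) (b : B) :
    (rtk6c4J (K := K) ι hι hcl S).IsIntegralElem b := by
  obtain ⟨P, hP, hPb⟩ := hint b
  refine ⟨P.map (algebraMap R₀ (rtk6c4R R₀ K S)), hP.map _, ?_⟩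
  apply hι
  rw [Polynomial.eval₂_map, Polynomial.hom_eval₂, map_zero]
  have e : (ι.comp ((rtk6c4J (K := K) ι hι hcl S).comp (algebraMap R₀ (rtk6c4R R₀ K S)))) =
      algebraMap R₀ F := by
    ext r
    simp only [RingHom.comp_apply]
    rw [rtk6c4J_spec (K := K) ι hι hcl S, IsScalarTower.algebraMap_apply R₀ (rtk6c4R R₀ K S) F]
    rfl
  rw [e]
  exact hPb

/-- `hcl` for `R₀′ → B` -/
theorem rtk6c4_hcl (S : Set F) (x : F) (hx : (ι.comp (rtk6c4J (K := K) ι hι hcl S)).IsIntegralElem x) :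
    ∃ b, ι b = x := by
  apply hcl
  have e : ι.comp (rtk6c4J (K := K) ι hι hcl S) = algebraMap (rtk6c4R R₀ K S) F := by
    ext r
    simp only [RingHom.comp_apply]
    rw [rtk6c4J_spec (K := K) ι hι hcl S]
    rfl
  rw [e] at hx
  have hx' : IsIntegral (rtk6c4R R₀ K S) x := hx
  exact isIntegral_trans (A := rtk6c4R R₀ K S) x hx'

end Chart

end Fermat.Agent.RT.K6


end ZBRT_089_0

/-! ### bundled: `Fermat.Agent.RT.K6.C4SmR0` -/
section ZBRT_089_1
/-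
K-machine, piece K6, piece C4-SM (helper86), part 2: **the smooth points, `R₀`-level form**
(the same base data as `Rtk6c4Cross`, `C4Abs.lean`).

`R₀` the chart of the `Γ₀`-field `K` over the UNRAMIFIED base `A₀` (uniformizer `π₀`,
`p = algebraMap A₀ R₀ π₀`, `R₀ / p` reduced), `F ⊇ K` the top field, `B` the top chart
(`j : R₀ →+* B`, `ι : B →+* F`), `ϖ₁ ∈ F` with `ϖ₁ ^ e = p`, `S ⊆ F` Kummer generators
(`b t ^ d = a`, `a, b ∈ R₀` units at the point), `F = K[ϖ₁, S]`.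

* `rtk6c4sm0_eisenstein` : `X ^ e - C π₀` is Eisenstein at `(π₀)`;
* `rtk6c4sm0_ramified`   : **D-BC, abstract**: the integral closure `R'` of a normal domain `R`
  with `R / π` reduced in `L = K(α)`, `α ^ e = π`, satisfies `MgcRamified (R → R') α π`
  (`UNIP.normalBC`; the twin of `UNIP.mgc_ramified_of_incl` for a general `R`);
* `Rtk6c4Sm` : the data at a smooth point (a `Prop`-valued structure);
* `rtk6c4sm0_smooth` : **C4-SM, `R₀`-level**: `∃ ϖ s : B, ι ϖ = ϖ₁ ∧ s ∈ 𝔫 ∧ NodesLocGen 𝔫 {ϖ, s}`.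
-/

set_option autoImplicit false
set_option linter.style.haveILetI false
set_option linter.unusedSectionVars false
set_option linter.unusedVariables false

namespace Fermat.Agent.RT.K6

open Polynomial Fermat.Agent.UNIP IntermediateField

section Eis

variable {A₀ : Type*} [CommRing A₀] [IsDomain A₀]

/-- `X ^ e - C π` is Eisenstein at `(π)`. -/
theorem rtk6c4sm0_eisenstein {π : A₀} (hπ : Irreducible π) {e : ℕ} (he : e ≠ 0) :
    (X ^ e - C π : A₀[X]).IsEisensteinAt (Ideal.span {π}) := by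
  have hfm : (X ^ e - C π : A₀[X]).Monic := monic_X_pow_sub_C π he
  have hdeg : (X ^ e - C π : A₀[X]).natDegree = e := natDegree_X_pow_sub_C
  have hcoeff : ∀ n, n < e → (X ^ e - C π : A₀[X]).coeff n = if n = 0 then -π else 0 := by
    intro n hn
    rw [coeff_sub, coeff_X_pow, coeff_C, if_neg (Nat.ne_of_lt hn)]
    split_ifs <;> simp
  refine hfm.isEisensteinAt_of_mem_of_notMem ?_ ?_ ?_
  · rw [Ne, Ideal.span_singleton_eq_top]
    exact hπ.not_isUnit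
  · intro n hn
    rw [hdeg] at hn
    rw [hcoeff n hn]
    split_ifs
    · exact Ideal.neg_mem_iff _ |>.2 (Ideal.mem_span_singleton_self π)
    · exact Ideal.zero_mem _
  · rw [hcoeff 0 (Nat.pos_of_ne_zero he), if_pos rfl, Ideal.span_singleton_pow,
      Ideal.mem_span_singleton]
    rintro ⟨c, hc⟩
    apply hπ.not_isUnit
    have h1 : π * (1 + π * c) = 0 := by
      have : π ^ 2 * c = π * (π * c) := by ring
      rw [this] at hc
      linear_combination -hc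
    rcases mul_eq_zero.1 h1 with h | h
    · exact absurd h hπ.ne_zero
    · exact isUnit_iff_exists_inv.2 ⟨-c, by linear_combination -h⟩

end Eis

section Ram

variable {A₀ R K L : Type*} [CommRing A₀] [IsDomain A₀] [IsDiscreteValuationRing A₀]
  [CommRing R] [IsDomain R] [IsIntegrallyClosed R] [Algebra A₀ R]
  [Field K] [CharZero K] [Algebra R K] [IsFractionRing R K] [Algebra A₀ K] [IsScalarTower A₀ R K]
  [Field L] [Algebra K L] [Algebra R L] [IsScalarTower R K L] [Algebra A₀ L]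
  [IsScalarTower A₀ K L] [IsScalarTower A₀ R L]

/-- **D-BC, abstract (Kummer form).**  `R` a normal domain over the discrete valuation ring `A₀`
with `R / π` reduced, `L = K(α)` with `α ^ e = π`, `R'` the integral closure of `R` in `L`
(hom form): `R' = j R + α R'`, `α ∣ j π`, `α ∣ j c → π ∣ c`. -/
theorem rtk6c4sm0_ramified {π : A₀} (hπ : Irreducible π)
    (hπ0 : algebraMap A₀ R π ≠ 0) (hπu : ¬ IsUnit (algebraMap A₀ R π))
    (hred : ∀ c : R, algebraMap A₀ R π ∣ c ^ 2 → algebraMap A₀ R π ∣ c)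
    {e : ℕ} (he : e ≠ 0) {α : L} (hα : α ^ e = algebraMap A₀ L π)
    (htop : Algebra.adjoin K ({α} : Set L) = ⊤)
    {R' : Type*} [CommRing R'] (j : R →+* R') (ι' : R' →+* L) (hι' : Function.Injective ι')
    (hjι : ∀ r, ι' (j r) = algebraMap R L r)
    (hint : ∀ x : R', IsIntegral R (ι' x)) (hcl : ∀ x : L, IsIntegral R x → ∃ b, ι' b = x)
    (ϖ : R') (hϖ : ι' ϖ = α) :
    MgcRamified j ϖ (algebraMap A₀ R π) := by
  classical
  have hfm : (X ^ e - C π : A₀[X]).Monic := monic_X_pow_sub_C π he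
  have hfE : (X ^ e - C π : A₀[X]).IsEisensteinAt (Ideal.span {π}) :=
    rtk6c4sm0_eisenstein hπ he
  have hfdeg : 0 < (X ^ e - C π : A₀[X]).natDegree := by
    rw [natDegree_X_pow_sub_C]
    exact Nat.pos_of_ne_zero he
  have hroot : aeval α (X ^ e - C π : A₀[X]) = 0 := by
    rw [map_sub, map_pow, aeval_X, aeval_C, hα, sub_self]
  have hintA : IsIntegral A₀ α := ⟨_, hfm, by simpa [aeval_def] using hroot⟩
  have hintK : IsIntegral K α := hintA.tower_top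
  let B : PowerBasis K L := PowerBasis.ofAdjoinEqTop hintK htop
  have hBgen : B.gen = α := PowerBasis.ofAdjoinEqTop_gen hintK htop
  haveI : Module.Finite K L := B.finite
  haveI : Algebra.IsSeparable K L := inferInstance
  have hrootB : aeval B.gen (X ^ e - C π : A₀[X]) = 0 := by rw [hBgen]; exact hroot
  have hcl' : integralClosure R L = Algebra.adjoin R ({α} : Set L) := by
    rw [← hBgen]
    exact normalBC_integralClosure_eq hπ hπ0 hπu hred B _ hfm hfE hrootB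
  have hmem : ∀ x : R', ι' x ∈ Algebra.adjoin R ({α} : Set L) := fun x => by
    rw [← hcl']
    exact hint x
  have hsurj : ∀ y ∈ Algebra.adjoin R ({α} : Set L), ∃ x : R', ι' x = y := fun y hy =>
    hcl y (by rw [← hcl'] at hy; exact hy)
  refine ⟨?_, ?_, ?_⟩
  · -- `ϖ ∣ j π`
    have hroot' : aeval α ((X ^ e - C π : A₀[X]).map (algebraMap A₀ R)) = 0 := by
      rw [aeval_map_algebraMap]; exact hroot
    obtain ⟨z', hz', hz⟩ := nbc_gen_dvd α hroot'
      (nbc_coeff_zero_eq (R := R) hπ _ hfE hfdeg)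
    obtain ⟨zB, rfl⟩ := hsurj z' hz'
    refine ⟨zB, hι' ?_⟩
    rw [hjι, map_mul, hϖ, ← hz]
  · -- decomposition
    intro x
    obtain ⟨c, z', hz', hxz⟩ := nbc_exists_eq_add_mul α (hmem x)
    obtain ⟨zB, rfl⟩ := hsurj z' hz'
    refine ⟨c, zB, hι' ?_⟩
    rw [hxz, map_add, map_mul, hϖ, hjι]
  · -- cancellation
    rintro c ⟨w, hw⟩
    have h1 : algebraMap R L c = α * ι' w := by
      have := congrArg ι' hw
      rw [hjι, map_mul, hϖ] at this
      exact this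
    have h2 : nbcGen R α ∣ algebraMap R (Algebra.adjoin R ({α} : Set L)) c :=
      (nbcGen_dvd_iff _ _).2 ⟨ι' w, hmem w, h1⟩
    exact (normalBC_gen_dvd_iff K hπ hπ0 hπu hred _ hfm hfE hfdeg hroot c).1 h2

end Ram

section R0

universe u

variable {K F R₀ B : Type u} [Field K] [Field F] [Algebra K F]
  [CommRing R₀] [Algebra R₀ K] [Algebra R₀ F] [IsScalarTower R₀ K F] [CommRing B]

/-- **The data at a smooth point of the top chart `B` over a smooth point of the base chart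
`R₀`** (C4-SM; the same base data as `Rtk6c4Cross`). -/
structure Rtk6c4Sm (j : R₀ →+* B) (ι : B →+* F) (𝔫 : Ideal B) (d e : ℕ) (p s₀ : R₀)
    (S : Set F) (ϖ₁ : F) : Prop where
  /-- the chart `B` is the integral closure of `R₀` in `F` -/
  hι : Function.Injective ι
  hjι : ∀ r, ι (j r) = algebraMap R₀ F r
  hint : ∀ b : B, IsIntegral R₀ (ι b)
  hcl : ∀ x : F, IsIntegral R₀ x → ∃ b, ι b = x
  /-- `d` is prime to the residue characteristic -/
  hd : j (d : R₀) ∉ 𝔫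
  /-- the special fibre of the base chart is reduced -/
  hp0 : p ≠ 0
  hp : j p ∈ 𝔫
  hred : ∀ c : R₀, p ∣ c ^ 2 → p ∣ c
  /-- the smooth point of the base chart at `𝔫 ∩ R₀` -/
  hs₀ : j s₀ ∈ 𝔫
  hgen₀ : NodesLocGen (𝔫.comap j) {p, s₀}
  /-- the ramified generator -/
  he : e ≠ 0
  hϖ : ϖ₁ ^ e = algebraMap R₀ F p
  /-- the Kummer generators, units at the point -/
  hS : S.Finite
  hSet : ∀ t ∈ S, ∃ a b : R₀, j a ∉ 𝔫 ∧ j b ∉ 𝔫 ∧
    algebraMap R₀ F b * t ^ d = algebraMap R₀ F a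
  hgen : Algebra.adjoin K ({ϖ₁} ∪ S) = ⊤

variable {A₀ : Type*} [CommRing A₀] [IsDomain A₀] [IsDiscreteValuationRing A₀] [Algebra A₀ R₀]
  [CharZero K] [IsDomain R₀] [IsIntegrallyClosed R₀] [IsFractionRing R₀ K]
  {j : R₀ →+* B} {ι : B →+* F} {𝔫 : Ideal B} {d e : ℕ} {p s₀ : R₀} {S : Set F} {ϖ₁ : F}

set_option maxHeartbeats 1600000 in
/-- **C4-SM, `R₀`-level.**  At a closed point `𝔫` of the top chart over a smooth point `(p, s₀)`
of the base chart (`p` the image of the uniformizer `π₀` of the unramified base `A₀`):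
`𝔫 = (ϖ, s)` locally, `ϖ` the element of `B` with image `ϖ₁`. -/
theorem rtk6c4sm0_smooth (h : Rtk6c4Sm (K := K) j ι 𝔫 d e p s₀ S ϖ₁) [h𝔫 : 𝔫.IsMaximal]
    {π₀ : A₀} (hπ₀ : Irreducible π₀) (hpπ : algebraMap A₀ R₀ π₀ = p) :
    ∃ ϖ s : B, ι ϖ = ϖ₁ ∧ ϖ ∈ 𝔫 ∧ s ∈ 𝔫 ∧ NodesLocGen 𝔫 {ϖ, s} := by
  classical
  subst hpπ
  haveI := h𝔫.isPrime
  have hepos : 0 < e := Nat.pos_of_ne_zero h.he
  -- the field `K¹ = K(ϖ₁)` and its chart `R₁`
  have hϖint : IsIntegral K ϖ₁ := by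
    apply IsIntegral.of_pow hepos
    rw [h.hϖ, IsScalarTower.algebraMap_apply R₀ K F]
    exact isIntegral_algebraMap
  have hS1 : ∀ t ∈ ({ϖ₁} : Set F), IsIntegral K t := by
    intro t ht
    rw [Set.mem_singleton_iff] at ht
    rw [ht]
    exact hϖint
  haveI hfd : FiniteDimensional K (rtk6c4K K ({ϖ₁} : Set F)) :=
    IntermediateField.finiteDimensional_adjoin hS1
  haveI : IsIntegrallyClosed (rtk6c4R R₀ K ({ϖ₁} : Set F)) :=
    integralClosure.isIntegrallyClosedOfFiniteExtension K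
  haveI : IsFractionRing (rtk6c4R R₀ K ({ϖ₁} : Set F)) (rtk6c4K K ({ϖ₁} : Set F)) :=
    integralClosure.isFractionRing_of_finite_extension K (rtk6c4K K ({ϖ₁} : Set F))
  set j₁ : rtk6c4R R₀ K ({ϖ₁} : Set F) →+* B := rtk6c4J (K := K) ι h.hι h.hcl {ϖ₁} with hj₁
  have hj₁ι : ∀ x : rtk6c4R R₀ K ({ϖ₁} : Set F), ι (j₁ x) = ((x : rtk6c4K K ({ϖ₁} : Set F)) : F) :=
    rtk6c4J_spec (K := K) ι h.hι h.hcl {ϖ₁}
  have hj₁j : ∀ r : R₀, j₁ (algebraMap R₀ (rtk6c4R R₀ K ({ϖ₁} : Set F)) r) = j r :=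
    rtk6c4J_algebraMap (K := K) ι h.hι h.hcl {ϖ₁} j h.hjι
  have hcoe : ∀ r : R₀, ((algebraMap R₀ (rtk6c4K K ({ϖ₁} : Set F)) r :
      rtk6c4K K ({ϖ₁} : Set F)) : F) = algebraMap R₀ F r :=
    fun r => (IsScalarTower.algebraMap_apply R₀ (rtk6c4K K ({ϖ₁} : Set F)) F r).symm
  -- the generator
  set α : rtk6c4K K ({ϖ₁} : Set F) :=
    ⟨ϖ₁, IntermediateField.subset_adjoin K _ (Set.mem_singleton ϖ₁)⟩ with hα
  have hαe : α ^ e = algebraMap R₀ (rtk6c4K K ({ϖ₁} : Set F)) (algebraMap A₀ R₀ π₀) := by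
    apply Subtype.ext
    rw [hcoe, ← h.hϖ]
    rfl
  have hαint : IsIntegral R₀ α := by
    apply IsIntegral.of_pow hepos
    rw [hαe]
    exact isIntegral_algebraMap
  set ϖ : rtk6c4R R₀ K ({ϖ₁} : Set F) := ⟨α, hαint⟩ with hϖdef
  -- the `A₀`-algebra structures
  letI : Algebra A₀ K := ((algebraMap R₀ K).comp (algebraMap A₀ R₀)).toAlgebra
  haveI : IsScalarTower A₀ R₀ K := IsScalarTower.of_algebraMap_eq fun _ => rfl
  letI : Algebra A₀ (rtk6c4K K ({ϖ₁} : Set F)) :=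
    ((algebraMap R₀ (rtk6c4K K ({ϖ₁} : Set F))).comp (algebraMap A₀ R₀)).toAlgebra
  haveI : IsScalarTower A₀ R₀ (rtk6c4K K ({ϖ₁} : Set F)) :=
    IsScalarTower.of_algebraMap_eq fun _ => rfl
  haveI : IsScalarTower A₀ K (rtk6c4K K ({ϖ₁} : Set F)) :=
    IsScalarTower.of_algebraMap_eq fun a =>
      IsScalarTower.algebraMap_apply R₀ K (rtk6c4K K ({ϖ₁} : Set F)) (algebraMap A₀ R₀ a)
  have hπu : ¬ IsUnit (algebraMap A₀ R₀ π₀) := fun hu =>
    h𝔫.ne_top (Ideal.eq_top_of_isUnit_mem _ h.hp (hu.map j))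
  have htop : Algebra.adjoin K ({α} : Set (rtk6c4K K ({ϖ₁} : Set F))) = ⊤ := by
    have h1 := rtk6c4_adjoin_lift (K := K) ({ϖ₁} : Set F) hS1
    have h2 : {z : rtk6c4K K ({ϖ₁} : Set F) | (z : F) ∈ ({ϖ₁} : Set F)} = {α} := by
      ext z
      constructor
      · intro hz
        exact Subtype.ext hz
      · intro hz
        rw [Set.mem_singleton_iff] at hz
        rw [hz]
        rfl
    rw [h2] at h1
    exact h1
  have hram : MgcRamified (algebraMap R₀ (rtk6c4R R₀ K ({ϖ₁} : Set F))) ϖ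
      (algebraMap A₀ R₀ π₀) :=
    rtk6c4sm0_ramified (K := K) (L := rtk6c4K K ({ϖ₁} : Set F)) hπ₀ h.hp0 hπu h.hred h.he
      (α := α) hαe htop (algebraMap R₀ (rtk6c4R R₀ K ({ϖ₁} : Set F)))
      (algebraMap (rtk6c4R R₀ K ({ϖ₁} : Set F)) (rtk6c4K K ({ϖ₁} : Set F)))
      Subtype.val_injective (fun r => rfl) (fun x => x.2) (fun x hx => ⟨⟨x, hx⟩, rfl⟩) ϖ rfl
  -- `ϖ ∈ 𝔫`
  have hϖι : ι (j₁ ϖ) = ϖ₁ := hj₁ι ϖ
  have hϖmem : j₁ ϖ ∈ 𝔫 := by
    apply Ideal.IsPrime.mem_of_pow_mem inferInstance e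
    have e1 : j₁ ϖ ^ e = j (algebraMap A₀ R₀ π₀) := by
      apply h.hι
      rw [map_pow, hϖι, h.hϖ, h.hjι]
    rw [e1]
    exact h.hp
  -- the smooth point
  have hcomap : (𝔫.comap j₁).comap (algebraMap R₀ (rtk6c4R R₀ K ({ϖ₁} : Set F))) = 𝔫.comap j := by
    ext r
    rw [Ideal.mem_comap, Ideal.mem_comap, Ideal.mem_comap, hj₁j]
  have hsm : NodesLocGen ((𝔫.comap j₁).comap (algebraMap R₀ (rtk6c4R R₀ K ({ϖ₁} : Set F))))
      {algebraMap A₀ R₀ π₀, s₀} := by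
    rw [hcomap]
    exact h.hgen₀
  obtain ⟨s, hs, hgen⟩ := rtk6c4sm_smooth_of_gen (K := rtk6c4K K ({ϖ₁} : Set F)) j₁ ι
    (algebraMap R₀ (rtk6c4R R₀ K ({ϖ₁} : Set F))) h.hι
    (rtk6c4J_hjι (K := K) ι h.hι h.hcl {ϖ₁})
    (fun b => by
      obtain ⟨P, hP, hPb⟩ := rtk6c4_isIntegralElem (K := K) ι h.hι h.hcl {ϖ₁} h.hint b
      refine ⟨P, hP, ?_⟩
      rw [← Polynomial.hom_eval₂, hPb, map_zero])
    (rtk6c4_hcl (K := K) ι h.hι h.hcl {ϖ₁})
    𝔫 d (fun hd => h.hd (by rw [map_natCast]; exact hd)) S h.hS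
    (fun t ht => by
      obtain ⟨a, b, ha, hb, hab⟩ := h.hSet t ht
      refine ⟨a, b, by rw [hj₁j]; exact ha, by rw [hj₁j]; exact hb, ?_⟩
      rw [hj₁j, hj₁j, h.hjι, h.hjι]
      exact hab)
    (rtk6c4_adjoin_top (K := K) ({ϖ₁} : Set F) S h.hgen)
    hram hϖmem s₀ (by rw [hj₁j]; exact h.hs₀) hsm
  exact ⟨j₁ ϖ, s, hϖι, hϖmem, hs, hgen⟩

end R0

end Fermat.Agent.RT.K6


end ZBRT_089_1

/-! ### bundled: `Fermat.Agent.RT.K6.C4SmAt` -/
section ZBRT_089_2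
/-
K-machine, piece K6, piece C4-SM (helper86), part 3: **the smooth points on a chart
`B = zchClosure {u}`** (typed form of `rtk6c4sm0_smooth`, `C4SmR0.lean`; the twin of helper94's
`rtk6c4x_crossAt`, `C4X.lean`).

`A₁` the (ramified) base with uniformizer `π` (`= ϖ₁`), `F` the top field, `B_u` its chart,
`𝔫 : AtPt π u` a closed point over a SMOOTH point of the base chart `R₀` (of the `Γ₀`-field `K`
over the UNRAMIFIED base `A₀`): `Rtk6c4Sm j ι 𝔫 d e p s₀ S (algebraMap A₁ F π)`.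

* `rtk6c4sm0_smoothAt` : `∃ s ∈ 𝔫, NodesLocGen 𝔫 {π, s}`;
* `rtk6c4sm0_nodeAt`   : `Rtk6ewmNodeAt V 𝔫 (RingHom.id _) π` (the smooth alternative,
  `EWMulti.lean`), for every family `V`.
-/

set_option autoImplicit false
set_option linter.style.haveILetI false
set_option linter.unusedSectionVars false
set_option linter.unusedVariables false

namespace Fermat.Agent.RT.K6

open Polynomial IntermediateField Fermat.Agent.INJ AlgebraicCurve Fermat.Agent.UNIP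
  Fermat.Agent.STB

section C4SmAt

universe u

variable {A₁ E : Type*} {F : Type u} [CommRing A₁] [IsDomain A₁] [IsDiscreteValuationRing A₁]
  [Field E] [Algebra A₁ E] [IsFractionRing A₁ E] [CharZero E]
  [Field F] [Algebra E F] [Algebra A₁ F] [IsScalarTower A₁ E F]
  {π : A₁}
  {K R₀ : Type u} [Field K] [CharZero K] [Algebra K F] [CommRing R₀] [IsDomain R₀]
  [IsIntegrallyClosed R₀] [Algebra R₀ K] [IsFractionRing R₀ K]
  [Algebra R₀ F] [IsScalarTower R₀ K F]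
  {A₀ : Type*} [CommRing A₀] [IsDomain A₀] [IsDiscreteValuationRing A₀] [Algebra A₀ R₀]

/-- **C4-SM on the chart.** -/
theorem rtk6c4sm0_smoothAt {u : F} (𝔫 : AtPt (F := F) π u)
    (j : R₀ →+* ↥(zchClosure (A₀ := A₁) ({u} : Set F)))
    (ι : ↥(zchClosure (A₀ := A₁) ({u} : Set F)) →+* F) (hιv : ∀ b, ι b = (b : F))
    {d e : ℕ} {p s₀ : R₀} {S : Set F}
    (h : Rtk6c4Sm (K := K) j ι 𝔫.1 d e p s₀ S (algebraMap A₁ F π))
    {π₀ : A₀} (hπ₀ : Irreducible π₀) (hpπ : algebraMap A₀ R₀ π₀ = p) :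
    ∃ s : ↥(zchClosure (A₀ := A₁) ({u} : Set F)), s ∈ 𝔫.1 ∧
      NodesLocGen 𝔫.1 {algebraMap A₁ ↥(zchClosure (A₀ := A₁) ({u} : Set F)) π, s} := by
  haveI : 𝔫.1.IsMaximal := 𝔫.2.1
  obtain ⟨ϖ, s, hϖ, -, hs, hgen⟩ := rtk6c4sm0_smooth h hπ₀ hpπ
  have hϖeq : ϖ = algebraMap A₁ ↥(zchClosure (A₀ := A₁) ({u} : Set F)) π := by
    apply Subtype.ext
    rw [← hιv, hϖ]
    rfl
  subst hϖeq
  exact ⟨s, hs, hgen⟩

/-- **C4-SM on the chart, `Rtk6ewmNodeAt` form** (the smooth alternative). -/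
theorem rtk6c4sm0_nodeAt {κ : Type*} (V : κ → ValuationSubring F) {u : F}
    (𝔫 : AtPt (F := F) π u)
    (j : R₀ →+* ↥(zchClosure (A₀ := A₁) ({u} : Set F)))
    (ι : ↥(zchClosure (A₀ := A₁) ({u} : Set F)) →+* F) (hιv : ∀ b, ι b = (b : F))
    {d e : ℕ} {p s₀ : R₀} {S : Set F}
    (h : Rtk6c4Sm (K := K) j ι 𝔫.1 d e p s₀ S (algebraMap A₁ F π))
    {π₀ : A₀} (hπ₀ : Irreducible π₀) (hpπ : algebraMap A₀ R₀ π₀ = p) :
    Rtk6ewmNodeAt V 𝔫 (RingHom.id ↥(zchClosure (A₀ := A₁) ({u} : Set F)))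
      (algebraMap A₁ ↥(zchClosure (A₀ := A₁) ({u} : Set F)) π) := by
  obtain ⟨s, hs, hgen⟩ := rtk6c4sm0_smoothAt 𝔫 j ι hιv h hπ₀ hpπ
  refine Or.inl ⟨s, hs, ?_⟩
  rw [Ideal.comap_id]
  exact hgen

end C4SmAt

end Fermat.Agent.RT.K6


end ZBRT_089_2

/-! ### bundled: `Fermat.Agent.RT.K6.C4SmInst` -/
section ZBRT_089_3
/-
K-machine, piece K6, piece C4-SM (helper86), part 4: **the smooth alternative of the dichotomy on
the top chart, from the smooth alternative of the thin dichotomy on the base chart** (consumer form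
for C4-χ-ASM).

Base chart: `A₀` the UNRAMIFIED discrete valuation ring (`π₀`), `E₀ = Frac A₀`, `K` the `Γ₀`-field
over `E₀`, `u₀ ∈ K`, `R₀ = zchClosure {u₀}`, with (SS1) for a family `V0` of valuation rings of `K`
(e.g. `mgvV`, `mgv_hBV₁`, `mgv_hπV`, `ribmp_fc_hSS1`).
Top chart: `A₁` the ramified base (`π = ϖ₁`, `π ^ e = π₀`), `F ⊇ K` the top field, `u ∈ F`,
`B = zchClosure {u}`, `j : R₀ →+* B` with `B` the integral closure of `R₀` in `F`.
`Algebra R₀ F` is the canonical instance (`Subalgebra.toAlgebra`, through `K`):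
`algebraMap R₀ F r = algebraMap K F (r : K)` by `rfl`.

* `rtk6c4smi_hred_of_ss1` : `π₀ ∣ c ^ 2 → π₀ ∣ c` on `R₀`, from (SS1) (the twin of helper45's
  `rtk6hr_hred_of_ss1` for `zchClosure`);
* `rtk6c4smi_hp0`         : `π₀ ≠ 0` in `R₀`;
* `rtk6c4smi_mk`          : the structure `Rtk6c4Sm` at a closed point `𝔫` of `B` over a smooth
  point `𝔫₀ = (π₀, s₀)` of `R₀`;
* `rtk6c4smi_nodeAt`      : **`Rtk6ewmNodeAt V 𝔫 (RingHom.id _) π`** at such a point.
-/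

set_option autoImplicit false
set_option linter.style.haveILetI false
set_option linter.unusedSectionVars false
set_option linter.unusedVariables false

namespace Fermat.Agent.RT.K6

open Polynomial IntermediateField Fermat.Agent.INJ AlgebraicCurve Fermat.Agent.UNIP
  Fermat.Agent.STB

section Base

variable {A₀ E₀ K : Type*} [CommRing A₀] [IsDomain A₀] [IsDiscreteValuationRing A₀]
  [Field E₀] [Algebra A₀ E₀] [IsFractionRing A₀ E₀] [CharZero E₀]
  [Field K] [Algebra E₀ K] [Algebra A₀ K] [IsScalarTower A₀ E₀ K]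
  {π₀ : A₀} {κ₀ : Type*}

/-- **`hred`**: the special fibre of the chart `zchClosure {u₀}` is reduced, from (SS1). -/
theorem rtk6c4smi_hred_of_ss1 (u₀ : K) (V : κ₀ → ValuationSubring K)
    (hBV : ∀ c (b : K), IsIntegral ↥(Algebra.adjoin A₀ ({u₀} : Set K)) b → b ∈ V c)
    (hπV : ∀ c, algebraMap A₀ K π₀ ∈ (V c).nonunits)
    (hSS1 : ∀ b : K, IsIntegral ↥(Algebra.adjoin A₀ ({u₀} : Set K)) b →
      (∀ c, b ∈ (V c).nonunits) →
      ∃ b' : K, IsIntegral ↥(Algebra.adjoin A₀ ({u₀} : Set K)) b' ∧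
        b = algebraMap A₀ K π₀ * b')
    (c : ↥(zchClosure (A₀ := A₀) ({u₀} : Set K)))
    (hc : algebraMap A₀ ↥(zchClosure (A₀ := A₀) ({u₀} : Set K)) π₀ ∣ c ^ 2) :
    algebraMap A₀ ↥(zchClosure (A₀ := A₀) ({u₀} : Set K)) π₀ ∣ c := by
  obtain ⟨b, hb⟩ := hc
  have hbF : (c : K) ^ 2 = algebraMap A₀ K π₀ * (b : K) := congrArg Subtype.val hb
  have hcV : ∀ i, (c : K) ∈ (V i).nonunits := by
    intro i
    apply ats_mem_nonunits_of_pow (V i) (n := 2)
    rw [hbF, mul_comm]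
    exact pwi_mul_mem_nonunits (V i) (hBV i _ b.2) (hπV i)
  obtain ⟨b', hb', hcb'⟩ := hSS1 (c : K) c.2 hcV
  exact ⟨⟨b', hb'⟩, Subtype.ext hcb'⟩

include E₀ in
/-- `π₀ ≠ 0` in the chart -/
theorem rtk6c4smi_hp0 (hπ₀ : Irreducible π₀) (u₀ : K) :
    algebraMap A₀ ↥(zchClosure (A₀ := A₀) ({u₀} : Set K)) π₀ ≠ 0 := by
  intro h0
  have h1 : algebraMap A₀ K π₀ = 0 := congrArg Subtype.val h0
  exact ei_algebraMap_ne_zero (E := E₀) hπ₀ h1

end Base

section Inst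

universe u

variable {A₀ E₀ : Type u} {K : Type u} [CommRing A₀] [IsDomain A₀] [IsDiscreteValuationRing A₀]
  [Field E₀] [Algebra A₀ E₀] [IsFractionRing A₀ E₀] [CharZero E₀]
  [Field K] [Algebra E₀ K] [Algebra A₀ K] [IsScalarTower A₀ E₀ K]
  {π₀ : A₀} {κ₀ : Type*}
  {A₁ E₁ : Type*} {F : Type u} [CommRing A₁] [IsDomain A₁] [IsDiscreteValuationRing A₁]
  [Field E₁] [Algebra A₁ E₁] [IsFractionRing A₁ E₁] [CharZero E₁]
  [Field F] [Algebra E₁ F] [Algebra A₁ F] [IsScalarTower A₁ E₁ F]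
  {π : A₁} [Algebra K F]

include E₀ in
/-- **The structure `Rtk6c4Sm` at a closed point of the top chart over a smooth point of the base
chart.** -/
theorem rtk6c4smi_mk (hπ₀ : Irreducible π₀) (u₀ : K)
    (V0 : κ₀ → ValuationSubring K)
    (hBV : ∀ c (b : K), IsIntegral ↥(Algebra.adjoin A₀ ({u₀} : Set K)) b → b ∈ V0 c)
    (hπV : ∀ c, algebraMap A₀ K π₀ ∈ (V0 c).nonunits)
    (hSS1 : ∀ b : K, IsIntegral ↥(Algebra.adjoin A₀ ({u₀} : Set K)) b →
      (∀ c, b ∈ (V0 c).nonunits) →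
      ∃ b' : K, IsIntegral ↥(Algebra.adjoin A₀ ({u₀} : Set K)) b' ∧
        b = algebraMap A₀ K π₀ * b')
    {u : F} (𝔫 : AtPt (F := F) π u)
    (j : ↥(zchClosure (A₀ := A₀) ({u₀} : Set K)) →+* ↥(zchClosure (A₀ := A₁) ({u} : Set F)))
    (ι : ↥(zchClosure (A₀ := A₁) ({u} : Set F)) →+* F) (hιv : ∀ b, ι b = (b : F))
    (hjι : ∀ r, ι (j r) = algebraMap ↥(zchClosure (A₀ := A₀) ({u₀} : Set K)) F r)
    (hint : ∀ b : ↥(zchClosure (A₀ := A₁) ({u} : Set F)),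
      IsIntegral ↥(zchClosure (A₀ := A₀) ({u₀} : Set K)) (ι b))
    (hcl : ∀ x : F, IsIntegral ↥(zchClosure (A₀ := A₀) ({u₀} : Set K)) x → ∃ b, ι b = x)
    {d e : ℕ} (hd : j (d : ↥(zchClosure (A₀ := A₀) ({u₀} : Set K))) ∉ 𝔫.1)
    (𝔫₀ : AtPt (F := K) π₀ u₀) (hlie : 𝔫.1.comap j = 𝔫₀.1)
    {s₀ : ↥(zchClosure (A₀ := A₀) ({u₀} : Set K))} (hs₀ : s₀ ∈ 𝔫₀.1)
    (hgen₀ : NodesLocGen 𝔫₀.1
      {algebraMap A₀ ↥(zchClosure (A₀ := A₀) ({u₀} : Set K)) π₀, s₀})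
    (he : e ≠ 0)
    (hϖ : algebraMap A₁ F π ^ e = algebraMap ↥(zchClosure (A₀ := A₀) ({u₀} : Set K)) F
      (algebraMap A₀ ↥(zchClosure (A₀ := A₀) ({u₀} : Set K)) π₀))
    {S : Set F} (hS : S.Finite)
    (hSet : ∀ t ∈ S, ∃ a b : ↥(zchClosure (A₀ := A₀) ({u₀} : Set K)), j a ∉ 𝔫.1 ∧ j b ∉ 𝔫.1 ∧
      algebraMap ↥(zchClosure (A₀ := A₀) ({u₀} : Set K)) F b * t ^ d =
        algebraMap ↥(zchClosure (A₀ := A₀) ({u₀} : Set K)) F a)
    (hgen : Algebra.adjoin K ({algebraMap A₁ F π} ∪ S) = ⊤) :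
    Rtk6c4Sm (K := K) j ι 𝔫.1 d e
      (algebraMap A₀ ↥(zchClosure (A₀ := A₀) ({u₀} : Set K)) π₀) s₀ S (algebraMap A₁ F π) where
  hι := fun x y hxy => Subtype.ext (by rw [← hιv, ← hιv]; exact hxy)
  hjι := hjι
  hint := hint
  hcl := hcl
  hd := hd
  hp0 := rtk6c4smi_hp0 (E₀ := E₀) hπ₀ u₀
  hp := by
    have : algebraMap A₀ ↥(zchClosure (A₀ := A₀) ({u₀} : Set K)) π₀ ∈ 𝔫.1.comap j := by
      rw [hlie]
      exact 𝔫₀.2.2
    exact Ideal.mem_comap.1 this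
  hred := rtk6c4smi_hred_of_ss1 u₀ V0 hBV hπV hSS1
  hs₀ := by
    have : s₀ ∈ 𝔫.1.comap j := by
      rw [hlie]
      exact hs₀
    exact Ideal.mem_comap.1 this
  hgen₀ := by
    rw [hlie]
    exact hgen₀
  he := he
  hϖ := hϖ
  hS := hS
  hSet := hSet
  hgen := hgen

include E₀ in
/-- **C4-SM, consumer form.**  At a closed point `𝔫` of the top chart over a smooth point
`𝔫₀ = (π₀, s₀)` of the base chart: the smooth alternative of `Rtk6ewmNodeAt`. -/
theorem rtk6c4smi_nodeAt (hπ₀ : Irreducible π₀) (u₀ : K) [FiniteDimensional E₀⟮u₀⟯ K]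
    (V0 : κ₀ → ValuationSubring K)
    (hBV : ∀ c (b : K), IsIntegral ↥(Algebra.adjoin A₀ ({u₀} : Set K)) b → b ∈ V0 c)
    (hπV : ∀ c, algebraMap A₀ K π₀ ∈ (V0 c).nonunits)
    (hSS1 : ∀ b : K, IsIntegral ↥(Algebra.adjoin A₀ ({u₀} : Set K)) b →
      (∀ c, b ∈ (V0 c).nonunits) →
      ∃ b' : K, IsIntegral ↥(Algebra.adjoin A₀ ({u₀} : Set K)) b' ∧
        b = algebraMap A₀ K π₀ * b')
    {κ : Type*} (V : κ → ValuationSubring F)
    {u : F} (𝔫 : AtPt (F := F) π u)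
    (j : ↥(zchClosure (A₀ := A₀) ({u₀} : Set K)) →+* ↥(zchClosure (A₀ := A₁) ({u} : Set F)))
    (ι : ↥(zchClosure (A₀ := A₁) ({u} : Set F)) →+* F) (hιv : ∀ b, ι b = (b : F))
    (hjι : ∀ r, ι (j r) = algebraMap ↥(zchClosure (A₀ := A₀) ({u₀} : Set K)) F r)
    (hint : ∀ b : ↥(zchClosure (A₀ := A₁) ({u} : Set F)),
      IsIntegral ↥(zchClosure (A₀ := A₀) ({u₀} : Set K)) (ι b))
    (hcl : ∀ x : F, IsIntegral ↥(zchClosure (A₀ := A₀) ({u₀} : Set K)) x → ∃ b, ι b = x)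
    {d e : ℕ} (hd : j (d : ↥(zchClosure (A₀ := A₀) ({u₀} : Set K))) ∉ 𝔫.1)
    (𝔫₀ : AtPt (F := K) π₀ u₀) (hlie : 𝔫.1.comap j = 𝔫₀.1)
    (hsm : ∃ s : ↥(zchClosure (A₀ := A₀) ({u₀} : Set K)), s ∈ 𝔫₀.1 ∧ NodesLocGen 𝔫₀.1
      {algebraMap A₀ ↥(zchClosure (A₀ := A₀) ({u₀} : Set K)) π₀, s})
    (he : e ≠ 0)
    (hϖ : algebraMap A₁ F π ^ e = algebraMap ↥(zchClosure (A₀ := A₀) ({u₀} : Set K)) F
      (algebraMap A₀ ↥(zchClosure (A₀ := A₀) ({u₀} : Set K)) π₀))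
    {S : Set F} (hS : S.Finite)
    (hSet : ∀ t ∈ S, ∃ a b : ↥(zchClosure (A₀ := A₀) ({u₀} : Set K)), j a ∉ 𝔫.1 ∧ j b ∉ 𝔫.1 ∧
      algebraMap ↥(zchClosure (A₀ := A₀) ({u₀} : Set K)) F b * t ^ d =
        algebraMap ↥(zchClosure (A₀ := A₀) ({u₀} : Set K)) F a)
    (hgen : Algebra.adjoin K ({algebraMap A₁ F π} ∪ S) = ⊤) :
    Rtk6ewmNodeAt V 𝔫 (RingHom.id ↥(zchClosure (A₀ := A₁) ({u} : Set F)))
      (algebraMap A₁ ↥(zchClosure (A₀ := A₁) ({u} : Set F)) π) := by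
  obtain ⟨s₀, hs₀, hgen₀⟩ := hsm
  haveI : CharZero K := charZero_of_injective_algebraMap (algebraMap E₀ K).injective
  haveI : IsFractionRing ↥(zchClosure (A₀ := A₀) ({u₀} : Set K)) K :=
    mgc_chart_isFractionRing (A₀ := A₀) (E₀ := E₀) u₀
  haveI : IsIntegrallyClosed ↥(zchClosure (A₀ := A₀) ({u₀} : Set K)) :=
    mgc_chart_isIntegrallyClosed (A₀ := A₀) (E₀ := E₀) u₀
  exact rtk6c4sm0_nodeAt (K := K) V 𝔫 j ι hιv
    (rtk6c4smi_mk (E₀ := E₀) hπ₀ u₀ V0 hBV hπV hSS1 𝔫 j ι hιv hjι hint hcl hd 𝔫₀ hlie hs₀ hgen₀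
      he hϖ hS hSet hgen) hπ₀ rfl

end Inst

end Fermat.Agent.RT.K6


end ZBRT_089_3
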