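/- GENERATED FILE (helper35, build-time optimisation, NOTES/ZB.md): verbatim concatenation of the modules
   Fermat.Agent.RT.K6.DGen
   Do not edit; do not import together with these modules. -/
import Mathlib

/-! ### bundled: `Fermat.Agent.RT.K6.DGen` -/
section ZBRT_092_0
/-
K-machine, piece K6, piece (GEN) (helper54): from the local factorisation (LF) to the Kummer
generators `x₂, y₂` of the node.  Mathlib only.

`K ⊆ L` fields, `O ≤ K` a subring (the local ring of the base chart at a closed point),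
`d > 0`, `ζ ∈ K` with `ζ ^ d = 1`;  `w p = X₀ Y₀` in `O` (`w` a unit: THIN node, `p` the
uniformizer of the base), `ϖ₁ ∈ L` with `ϖ₁ ^ d = η p` (`η` a unit), `y ∈ L` with
  (LF)  `y ^ d = ε · Y₀ ^ n₀ · γ ^ d`,  `ε ∈ Oˣ`, `γ ∈ Kˣ`, `n₀` prime to `d`.
With `a n₀ − b d = 1`:  `y₂ := (y / γ) ^ a / Y₀ ^ b`, `x₂ := ϖ₁ / y₂`.

* `rtk6gen_core` : `y₂ ^ d = ε ^ a · Y₀`, `y₂ ^ n₀ = (y / γ) · ε ^ b`  (field identities);
* `rtk6gen_cross` : **crossing point**: `x₂ ^ d = ε₁ X₀`, `y₂ ^ d = ε₂ Y₀` (`ε_i ∈ Oˣ`),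
  `x₂ y₂ = ϖ₁`, `K[x₂, y₂] = K[ϖ₁, y]`, and from `σ` (`σ ϖ₁ = ζ ϖ₁`, `σ y = y`), `δ`
  (`δ ϖ₁ = ϖ₁`, `δ y = ζ ^ n₀ y`) the automorphisms `s₁ = σ`, `s₂ = σ ∘ δ` with
  `s₁ x₂ = ζ x₂`, `s₁ y₂ = y₂`, `s₂ x₂ = x₂`, `s₂ y₂ = ζ y₂`
  — exactly the inputs `hx hy h11 h12 h21 h22 hgen` of `rtk6gls_cross` (helper79);
* `rtk6gen_smooth₀` : **smooth point of `Σ_0`** (`y ^ d = ε p ^ n₀ γ ^ d`):
  `t := (y / γ) ^ a / (p ^ b ϖ₁)` has `t ^ d = ε′ ∈ Oˣ` and `K[ϖ₁, t] = K[ϖ₁, y]`;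
* `rtk6gen_smooth_inf` : **smooth point of `Σ_∞`** (`y ^ d = ε γ ^ d`): `t := y / γ`, `t ^ d = ε`;
* `rtk6gen_exists_delta` : from ANY `δ₀` with `δ₀ ϖ₁ = ϖ₁`, `δ₀ y = ζ′ y`, `ζ′` a primitive `d`-th
  root of unity, a power `δ` of `δ₀` with `δ y = ζ ^ n₀ y`.
-/

set_option autoImplicit false
set_option linter.unusedSectionVars false
set_option linter.unusedVariables false

namespace Fermat.Agent.RT.K6

section Core

variable {L : Type*} [Field L]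

/-- the two field identities behind (GEN) -/
theorem rtk6gen_core {d : ℕ} (hd : 0 < d) {u e Y : L} {n₀ a b : ℤ}
    (hu : u ^ d = e * Y ^ n₀) (hY : Y ≠ 0) (he : e ≠ 0) (hab : a * n₀ - b * d = 1) :
    (u ^ a / Y ^ b) ^ d = e ^ a * Y ∧ (u ^ a / Y ^ b) ^ n₀ = u * e ^ b := by
  have hu0 : u ≠ 0 := by
    intro h0
    rw [h0, zero_pow hd.ne'] at hu
    exact mul_ne_zero he (zpow_ne_zero _ hY) hu.symm
  have hud : ∀ c : ℤ, u ^ (c * (d : ℤ)) = e ^ c * Y ^ (n₀ * c) := by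
    intro c
    rw [mul_comm c, zpow_mul, zpow_natCast, hu, mul_zpow, ← zpow_mul]
  constructor
  · rw [div_pow, ← zpow_natCast (u ^ a), ← zpow_natCast (Y ^ b), ← zpow_mul, ← zpow_mul, hud,
      mul_div_assoc, ← zpow_sub₀ hY]
    have : n₀ * a - b * (d : ℤ) = 1 := by rw [mul_comm]; exact hab
    rw [this, zpow_one]
  · rw [div_zpow, ← zpow_mul, ← zpow_mul]
    have h1 : a * n₀ = 1 + b * (d : ℤ) := by linarith
    rw [h1, zpow_add₀ hu0, zpow_one, hud, mul_comm b n₀]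
    have hYb : Y ^ (n₀ * b) ≠ 0 := zpow_ne_zero _ hY
    field_simp

/-- integral powers stay in a subalgebra containing `z` and `z⁻¹` -/
theorem rtk6gen_zpow_mem {K : Type*} [Field K] [Algebra K L] (S : Subalgebra K L) {z : L}
    (hz : z ∈ S) (hz' : z⁻¹ ∈ S) (n : ℤ) : z ^ n ∈ S := by
  cases n with
  | ofNat n => rw [Int.ofNat_eq_natCast, zpow_natCast]; exact pow_mem hz n
  | negSucc n => rw [zpow_negSucc, ← inv_pow]; exact pow_mem hz' _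

/-- the inverse of a `d`-th root of a nonzero element of `K` lies in `K[z]` -/
theorem rtk6gen_inv_mem {K : Type*} [Field K] [Algebra K L] (S : Subalgebra K L) {z : L}
    (hz : z ∈ S) {d : ℕ} (hd : 0 < d) {c : K} (hc : c ≠ 0) (hzd : z ^ d = algebraMap K L c) :
    z⁻¹ ∈ S := by
  have hcL : algebraMap K L c ≠ 0 := (map_ne_zero _).2 hc
  have hz0 : z ≠ 0 := by
    intro h0
    rw [h0, zero_pow hd.ne'] at hzd
    exact hcL hzd.symm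
  have : z⁻¹ = algebraMap K L c⁻¹ * z ^ (d - 1) := by
    rw [map_inv₀, ← hzd]
    have hdd : z ^ d = z ^ (d - 1) * z := by
      rw [← pow_succ, Nat.sub_add_cancel hd]
    rw [hdd]
    field_simp
  rw [this]
  exact S.mul_mem (S.algebraMap_mem _) (pow_mem hz _)

end Core

section Main

variable {K L : Type*} [Field K] [Field L] [Algebra K L] (O : Subring K)

/-- a unit of a subring of a field is nonzero in the field -/
theorem rtk6gen_unit_ne_zero {ε : O} (hε : IsUnit ε) : (ε : K) ≠ 0 := by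
  obtain ⟨v, rfl⟩ := hε
  intro h0
  have h1 : ((v * v⁻¹ : Oˣ) : O) = 1 := by rw [mul_inv_cancel]; rfl
  have h2 := congrArg (fun z : O => (z : K)) h1
  simp only [Units.val_mul, Subring.coe_mul, Subring.coe_one] at h2
  rw [h0, zero_mul] at h2
  exact zero_ne_one h2

/-- integral powers of a unit of `O`, in `K` -/
theorem rtk6gen_unit_zpow {ε : O} (hε : IsUnit ε) (a : ℤ) :
    (((hε.unit ^ a : Oˣ) : O) : K) = (ε : K) ^ a := by
  have h := map_zpow ((Units.map (O.subtype : O →* K)) : Oˣ →* Kˣ) hε.unit a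
  have h' := congrArg (fun z : Kˣ => (z : K)) h
  simp only [Units.coe_map, MonoidHom.coe_coe, Subring.coe_subtype, Units.val_zpow_eq_zpow_val,
    IsUnit.unit_spec] at h'
  exact h'

/-- **(GEN) at a crossing point.** -/
theorem rtk6gen_cross {d : ℕ} (hd : 0 < d) {ζ : K} (hζ : ζ ^ d = 1)
    {X₀ Y₀ w η ε p : O} (hw : IsUnit w) (hη : IsUnit η) (hε : IsUnit ε)
    (hXY : w * p = X₀ * Y₀) (hY₀ : Y₀ ≠ 0)
    {ϖ₁ y : L} (hϖ : ϖ₁ ^ d = algebraMap K L ((η * p : O) : K))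
    {γ : K} (hγ : γ ≠ 0) {n₀ : ℤ}
    (hy : y ^ d = algebraMap K L ((ε : K) * (Y₀ : K) ^ n₀ * γ ^ d))
    {a b : ℤ} (hab : a * n₀ - b * d = 1)
    (σ δ : L ≃ₐ[K] L) (hσϖ : σ ϖ₁ = ζ • ϖ₁) (hσy : σ y = y) (hδϖ : δ ϖ₁ = ϖ₁)
    (hδy : δ y = (ζ ^ n₀) • y)
    (hgen : Algebra.adjoin K ({ϖ₁, y} : Set L) = ⊤) :
    ∃ (ε₁ ε₂ : O) (x₂ y₂ : L) (s₁ s₂ : L ≃ₐ[K] L), IsUnit ε₁ ∧ IsUnit ε₂ ∧
      x₂ ^ d = algebraMap K L ((ε₁ * X₀ : O) : K) ∧
      y₂ ^ d = algebraMap K L ((ε₂ * Y₀ : O) : K) ∧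
      x₂ * y₂ = ϖ₁ ∧ y₂ = (y / algebraMap K L γ) ^ a / algebraMap K L (Y₀ : K) ^ b ∧
      y = algebraMap K L (γ * ((ε : K) ^ b)⁻¹) * y₂ ^ n₀ ∧
      s₁ x₂ = ζ • x₂ ∧ s₁ y₂ = y₂ ∧ s₂ x₂ = x₂ ∧ s₂ y₂ = ζ • y₂ ∧
      Algebra.adjoin K ({x₂, y₂} : Set L) = ⊤ := by
  -- notation in `L`
  have hY0K : (Y₀ : K) ≠ 0 := fun h => hY₀ (Subtype.ext h)
  have hεK : (ε : K) ≠ 0 := rtk6gen_unit_ne_zero O hε
  have hgL : algebraMap K L γ ≠ 0 := (map_ne_zero _).2 hγ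
  have hYL : algebraMap K L (Y₀ : K) ≠ 0 := (map_ne_zero _).2 hY0K
  have heL : algebraMap K L (ε : K) ≠ 0 := (map_ne_zero _).2 hεK
  have hζ0 : ζ ≠ 0 := by
    intro h0
    rw [h0, zero_pow hd.ne'] at hζ
    exact zero_ne_one hζ
  have hζL : algebraMap K L ζ ≠ 0 := (map_ne_zero _).2 hζ0
  have hu : (y / algebraMap K L γ) ^ d =
      algebraMap K L (ε : K) * algebraMap K L (Y₀ : K) ^ n₀ := by
    rw [div_pow, hy, map_mul, map_mul, map_pow, map_zpow₀]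
    field_simp
  obtain ⟨h1, h2⟩ := rtk6gen_core hd hu hYL heL hab
  set y₂ : L := (y / algebraMap K L γ) ^ a / algebraMap K L (Y₀ : K) ^ b with hy₂
  have hy₂d : y₂ ^ d = algebraMap K L (((hε.unit ^ a : Oˣ) : O) * Y₀ : O) := by
    rw [h1, Subring.coe_mul, map_mul, rtk6gen_unit_zpow O hε a, map_zpow₀]
  have hε₂K : (((hε.unit ^ a : Oˣ) : O) : K) ≠ 0 :=
    rtk6gen_unit_ne_zero O (hε.unit ^ a).isUnit
  have hy₂0 : y₂ ≠ 0 := by
    intro h0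
    rw [h0, zero_pow hd.ne', Subring.coe_mul, map_mul] at hy₂d
    exact mul_ne_zero ((map_ne_zero _).2 hε₂K) hYL hy₂d.symm
  -- the unit `ε₁ = η w⁻¹ ε₂⁻¹`
  have hpK : (p : K) = ((hw.unit⁻¹ : Oˣ) : O) * (X₀ : K) * (Y₀ : K) := by
    have h3 : ((hw.unit⁻¹ : Oˣ) : O) * (w * p) = p := by
      rw [← mul_assoc]
      have : ((hw.unit⁻¹ : Oˣ) : O) * w = 1 := by
        have := hw.unit.inv_mul
        rwa [IsUnit.unit_spec] at this
      rw [this, one_mul]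
    have h4 := congrArg (fun z : O => (z : K)) h3
    simp only [hXY, Subring.coe_mul] at h4
    rw [← h4]; ring
  have hx₂d : (ϖ₁ / y₂) ^ d = algebraMap K L
      (((hη.unit * hw.unit⁻¹ * (hε.unit ^ a)⁻¹ : Oˣ) : O) * X₀ : O) := by
    rw [div_pow, hϖ, hy₂d, ← map_div₀]
    congr 1
    have hinv : (((hε.unit ^ a)⁻¹ : Oˣ) : O) * ((hε.unit ^ a : Oˣ) : O) = 1 :=
      (hε.unit ^ a).inv_mul
    have hinvK := congrArg (fun z : O => (z : K)) hinv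
    simp only [Subring.coe_mul, Subring.coe_one] at hinvK
    simp only [Subring.coe_mul, Units.val_mul, IsUnit.unit_spec]
    rw [hpK, div_eq_iff (mul_ne_zero hε₂K hY0K)]
    calc (η : K) * (((hw.unit⁻¹ : Oˣ) : O) * (X₀ : K) * (Y₀ : K))
        = (η : K) * ((hw.unit⁻¹ : Oˣ) : O) * (X₀ : K) * (Y₀ : K) * 1 := by ring
      _ = (η : K) * ((hw.unit⁻¹ : Oˣ) : O) * (X₀ : K) * (Y₀ : K) *
          ((((hε.unit ^ a)⁻¹ : Oˣ) : O) * ((hε.unit ^ a : Oˣ) : O)) := by rw [hinvK]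
      _ = _ := by ring
  -- the automorphisms
  have hσc : ∀ c : K, σ (algebraMap K L c) = algebraMap K L c := σ.commutes
  have hδc : ∀ c : K, δ (algebraMap K L c) = algebraMap K L c := δ.commutes
  have hσy₂ : σ y₂ = y₂ := by
    rw [hy₂, map_div₀, map_zpow₀, map_zpow₀, map_div₀, hσy, hσc, hσc]
  have hσx₂ : σ (ϖ₁ / y₂) = ζ • (ϖ₁ / y₂) := by
    rw [map_div₀, hσϖ, hσy₂, smul_div_assoc]
  have hζpow : algebraMap K L ζ ^ (n₀ * a) = algebraMap K L ζ := by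
    have h3 : n₀ * a = 1 + b * (d : ℤ) := by linarith
    have h4 : algebraMap K L ζ ^ (d : ℤ) = 1 := by
      rw [zpow_natCast, ← map_pow, hζ, map_one]
    rw [h3, zpow_add₀ hζL, zpow_one, mul_comm b, zpow_mul, h4, one_zpow, mul_one]
  have hδy₂ : δ y₂ = ζ • y₂ := by
    rw [hy₂, map_div₀, map_zpow₀, map_zpow₀, map_div₀, hδy, hδc, hδc, Algebra.smul_def,
      Algebra.smul_def, map_zpow₀, mul_div_assoc, mul_zpow, ← zpow_mul, hζpow, mul_div_assoc]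
  have hδx₂ : δ (ϖ₁ / y₂) = (algebraMap K L ζ)⁻¹ * (ϖ₁ / y₂) := by
    rw [map_div₀, hδϖ, hδy₂, Algebra.smul_def]
    field_simp
  refine ⟨((hη.unit * hw.unit⁻¹ * (hε.unit ^ a)⁻¹ : Oˣ) : O), ((hε.unit ^ a : Oˣ) : O),
    ϖ₁ / y₂, y₂, σ, δ.trans σ, Units.isUnit _, Units.isUnit _, hx₂d, hy₂d,
    div_mul_cancel₀ _ hy₂0, rfl, ?_, hσx₂, hσy₂, ?_, ?_, ?_⟩
  · rw [h2, map_mul, map_inv₀, map_zpow₀]
    field_simp
  · rw [AlgEquiv.trans_apply, hδx₂, map_mul, map_inv₀, hσc, hσx₂, Algebra.smul_def]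
    field_simp
  · rw [AlgEquiv.trans_apply, hδy₂, Algebra.smul_def, map_mul, hσc, hσy₂]
  · rw [eq_top_iff, ← hgen]
    apply Algebra.adjoin_le
    have hy₂S : y₂ ∈ Algebra.adjoin K ({ϖ₁ / y₂, y₂} : Set L) :=
      Algebra.subset_adjoin (by simp)
    have hx₂S : ϖ₁ / y₂ ∈ Algebra.adjoin K ({ϖ₁ / y₂, y₂} : Set L) :=
      Algebra.subset_adjoin (by simp)
    have hy₂S' : y₂⁻¹ ∈ Algebra.adjoin K ({ϖ₁ / y₂, y₂} : Set L) :=
      rtk6gen_inv_mem _ hy₂S hd (mul_ne_zero hε₂K hY0K)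
        (by rw [hy₂d, Subring.coe_mul])
    rintro z (hz | hz)
    · have h := Subalgebra.mul_mem _ hx₂S hy₂S
      rw [div_mul_cancel₀ _ hy₂0] at h
      rw [hz]
      exact h
    · have hz' : z = algebraMap K L (γ * ((ε : K) ^ b)⁻¹) * y₂ ^ n₀ := by
        rw [Set.mem_singleton_iff.1 hz, h2, map_mul, map_inv₀, map_zpow₀]
        field_simp
      rw [hz']
      exact Subalgebra.mul_mem _ (Subalgebra.algebraMap_mem _ _)
        (rtk6gen_zpow_mem _ hy₂S hy₂S' n₀)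

/-- **(GEN) at a smooth point of `Σ_0`**: `y ^ d = ε · p ^ n₀ · γ ^ d`, `ϖ₁ ^ d = η p`;
`t := (y / γ) ^ a / (p ^ b ϖ₁)` is a `d`-th root of a unit of `O` and `K[ϖ₁, t] = K[ϖ₁, y]`. -/
theorem rtk6gen_smooth₀ {d : ℕ} (hd : 0 < d)
    {η ε p : O} (hη : IsUnit η) (hε : IsUnit ε) (hp : p ≠ 0)
    {ϖ₁ y : L} (hϖ : ϖ₁ ^ d = algebraMap K L ((η * p : O) : K))
    {γ : K} (hγ : γ ≠ 0) {n₀ : ℤ}
    (hy : y ^ d = algebraMap K L ((ε : K) * (p : K) ^ n₀ * γ ^ d))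
    {a b : ℤ} (hab : a * n₀ - b * d = 1)
    (hgen : Algebra.adjoin K ({ϖ₁, y} : Set L) = ⊤) :
    ∃ (ε' : O) (t : L), IsUnit ε' ∧ t ^ d = algebraMap K L (ε' : K) ∧
      t = (y / algebraMap K L γ) ^ a / algebraMap K L (p : K) ^ b / ϖ₁ ∧
      y = algebraMap K L (γ * ((ε : K) ^ b)⁻¹) * (t * ϖ₁) ^ n₀ ∧
      Algebra.adjoin K ({ϖ₁, t} : Set L) = ⊤ := by
  have hpK : (p : K) ≠ 0 := fun h => hp (Subtype.ext h)
  have hεK : (ε : K) ≠ 0 := rtk6gen_unit_ne_zero O hε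
  have hηK : (η : K) ≠ 0 := rtk6gen_unit_ne_zero O hη
  have hgL : algebraMap K L γ ≠ 0 := (map_ne_zero _).2 hγ
  have hpL : algebraMap K L (p : K) ≠ 0 := (map_ne_zero _).2 hpK
  have heL : algebraMap K L (ε : K) ≠ 0 := (map_ne_zero _).2 hεK
  have hηL : algebraMap K L (η : K) ≠ 0 := (map_ne_zero _).2 hηK
  have hu : (y / algebraMap K L γ) ^ d =
      algebraMap K L (ε : K) * algebraMap K L (p : K) ^ n₀ := by
    rw [div_pow, hy, map_mul, map_mul, map_pow, map_zpow₀]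
    field_simp
  obtain ⟨h1, h2⟩ := rtk6gen_core hd hu hpL heL hab
  set y₂ : L := (y / algebraMap K L γ) ^ a / algebraMap K L (p : K) ^ b with hy₂
  have hϖ0 : ϖ₁ ≠ 0 := by
    intro h0
    rw [h0, zero_pow hd.ne', Subring.coe_mul, map_mul] at hϖ
    exact mul_ne_zero hηL hpL hϖ.symm
  have htd : (y₂ / ϖ₁) ^ d = algebraMap K L (((hε.unit ^ a * hη.unit⁻¹ : Oˣ) : O) : K) := by
    have hinv : ((hη.unit⁻¹ : Oˣ) : O) * η = 1 := by
      have := hη.unit.inv_mul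
      rwa [IsUnit.unit_spec] at this
    have hinvK := congrArg (fun z : O => (z : K)) hinv
    simp only [Subring.coe_mul, Subring.coe_one] at hinvK
    rw [div_pow, h1, hϖ]
    simp only [Units.val_mul, Subring.coe_mul]
    rw [rtk6gen_unit_zpow O hε a, map_mul, map_mul, map_zpow₀,
      div_eq_iff (mul_ne_zero hηL hpL)]
    calc algebraMap K L (ε : K) ^ a * algebraMap K L (p : K)
        = algebraMap K L (ε : K) ^ a * algebraMap K L (1 : K) * algebraMap K L (p : K) := by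
          rw [map_one, mul_one]
      _ = algebraMap K L (ε : K) ^ a * algebraMap K L ((((hη.unit⁻¹ : Oˣ) : O) : K) * (η : K)) *
          algebraMap K L (p : K) := by rw [hinvK]
      _ = _ := by rw [map_mul]; ring
  have hy₂t : y₂ = y₂ / ϖ₁ * ϖ₁ := (div_mul_cancel₀ _ hϖ0).symm
  have hyy : y = algebraMap K L (γ * ((ε : K) ^ b)⁻¹) * (y₂ / ϖ₁ * ϖ₁) ^ n₀ := by
    rw [← hy₂t, h2, map_mul, map_inv₀, map_zpow₀]
    field_simp
  refine ⟨((hε.unit ^ a * hη.unit⁻¹ : Oˣ) : O), y₂ / ϖ₁, Units.isUnit _, htd, rfl, hyy, ?_⟩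
  rw [eq_top_iff, ← hgen]
  apply Algebra.adjoin_le
  have hϖS : ϖ₁ ∈ Algebra.adjoin K ({ϖ₁, y₂ / ϖ₁} : Set L) :=
    Algebra.subset_adjoin (by simp)
  have htS : y₂ / ϖ₁ ∈ Algebra.adjoin K ({ϖ₁, y₂ / ϖ₁} : Set L) :=
    Algebra.subset_adjoin (by simp)
  have hy₂S : y₂ / ϖ₁ * ϖ₁ ∈ Algebra.adjoin K ({ϖ₁, y₂ / ϖ₁} : Set L) :=
    Subalgebra.mul_mem _ htS hϖS
  have hy₂d : (y₂ / ϖ₁ * ϖ₁) ^ d =
      algebraMap K L ((ε : K) ^ a * (p : K)) := by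
    rw [← hy₂t, h1, map_mul, map_zpow₀]
  have hy₂S' : (y₂ / ϖ₁ * ϖ₁)⁻¹ ∈ Algebra.adjoin K ({ϖ₁, y₂ / ϖ₁} : Set L) :=
    rtk6gen_inv_mem _ hy₂S hd (mul_ne_zero (zpow_ne_zero _ hεK) hpK) hy₂d
  rintro z (hz | hz)
  · rw [hz]
    exact hϖS
  · have h := Subalgebra.mul_mem _
      (Subalgebra.algebraMap_mem (Algebra.adjoin K ({ϖ₁, y₂ / ϖ₁} : Set L))
        (γ * ((ε : K) ^ b)⁻¹)) (rtk6gen_zpow_mem _ hy₂S hy₂S' n₀)
    rw [← hyy] at h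
    rw [Set.mem_singleton_iff.1 hz]
    exact h

/-- **(GEN) at a smooth point of `Σ_∞`**: `y ^ d = ε · γ ^ d`; `t := y / γ` is a `d`-th root of
the unit `ε` and `K[ϖ₁, t] = K[ϖ₁, y]`. -/
theorem rtk6gen_smooth_inf {d : ℕ} {ε : O} {ϖ₁ y : L}
    {γ : K} (hγ : γ ≠ 0)
    (hy : y ^ d = algebraMap K L ((ε : K) * γ ^ d))
    (hgen : Algebra.adjoin K ({ϖ₁, y} : Set L) = ⊤) :
    (y / algebraMap K L γ) ^ d = algebraMap K L (ε : K) ∧
      y = algebraMap K L γ * (y / algebraMap K L γ) ∧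
      Algebra.adjoin K ({ϖ₁, y / algebraMap K L γ} : Set L) = ⊤ := by
  have hgL : algebraMap K L γ ≠ 0 := (map_ne_zero _).2 hγ
  have hyy : y = algebraMap K L γ * (y / algebraMap K L γ) := by field_simp
  refine ⟨?_, hyy, ?_⟩
  · rw [div_pow, hy, map_mul, map_pow]
    field_simp
  · rw [eq_top_iff, ← hgen]
    apply Algebra.adjoin_le
    rintro z (hz | hz)
    · rw [hz]
      exact Algebra.subset_adjoin (by simp)
    · have h := Subalgebra.mul_mem _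
        (Subalgebra.algebraMap_mem (Algebra.adjoin K ({ϖ₁, y / algebraMap K L γ} : Set L)) γ)
        (Algebra.subset_adjoin
          (show y / algebraMap K L γ ∈ ({ϖ₁, y / algebraMap K L γ} : Set L) by simp))
      rw [← hyy] at h
      rw [Set.mem_singleton_iff.1 hz]
      exact h

/-- **The diamond for `s₂`**: from any automorphism `δ₀` with `δ₀ ϖ₁ = ϖ₁`, `δ₀ y = ζ′ y`,
`ζ′` a primitive `d`-th root of unity, a power `δ` of `δ₀` with `δ y = ξ y`, for any `ξ` with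
`ξ ^ d = 1`. -/
theorem rtk6gen_exists_delta {d : ℕ} (hd : 0 < d) {ζ' ξ : K} (hζ' : IsPrimitiveRoot ζ' d)
    (hξ : ξ ^ d = 1) {ϖ₁ y : L} (δ₀ : L ≃ₐ[K] L) (hδϖ : δ₀ ϖ₁ = ϖ₁) (hδy : δ₀ y = ζ' • y) :
    ∃ δ : L ≃ₐ[K] L, δ ϖ₁ = ϖ₁ ∧ δ y = ξ • y := by
  haveI : NeZero d := ⟨hd.ne'⟩
  obtain ⟨i, -, hi⟩ := hζ'.eq_pow_of_pow_eq_one hξ
  have key : ∀ n : ℕ, (δ₀ ^ n) ϖ₁ = ϖ₁ ∧ (δ₀ ^ n) y = (ζ' ^ n) • y := by
    intro n
    induction n with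
    | zero => simp
    | succ n ih =>
      rw [pow_succ', AlgEquiv.mul_apply, AlgEquiv.mul_apply, ih.1, ih.2, hδϖ]
      refine ⟨rfl, ?_⟩
      rw [map_smul, hδy, smul_smul, pow_succ]
  exact ⟨δ₀ ^ i, (key i).1, by rw [(key i).2, hi]⟩

end Main

end Fermat.Agent.RT.K6


end ZBRT_092_0
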