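/- GENERATED FILE (helper35, build-time optimisation, NOTES/ZB.md): verbatim concatenation of the modules
   Fermat.Agent.RT.K6.DGLStab
   Fermat.Agent.RT.K6.C4Abs
   Fermat.Agent.RT.K6.C4Cross
   Fermat.Agent.RT.K6.C4X
   Fermat.Agent.RT.K6.C4Asm
   Fermat.Agent.RT.K6.GenCrossAbs
   Do not edit; do not import together with these modules. -/
import Mathlib
import Fermat.Agent.ZB.RT_001
import Fermat.Agent.ZB.RT_089
import Fermat.Agent.ZB.RT_091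
import Fermat.Agent.ZB.RT_092
import Fermat.Agent.ZB.RT_075
import Fermat.Agent.ZB.RT_031
import Fermat.Agent.ZB.UNIP_007

/-! ### bundled: `Fermat.Agent.RT.K6.DGLStab` -/
section ZBRT_093_0
/-
K-machine, piece K6, v5 (M3)/(M4) (helper79): LOCAL UNIQUENESS of the components through a
crossing point, and D-STAB (an automorphism fixing the point and the branch preserves the
component).

Pure algebra (Mathlib + `DUfd.lean`).  `O` a noetherian local domain, `F = Frac O`,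
`𝔪_O = (X, Y)` (the local ring of the chart at a crossing point).  `W` a valuation ring of `F`
containing `O`.

* `rtk6glu_centre`  : if `X ∈ 𝔪(W)` and `Y ∉ 𝔪(W)` then `𝔪(W) ∩ O = X O`;
* `rtk6glu_le`, `rtk6glu_unique` : two valuation rings `W, W' ⊇ O` with `X ∈ 𝔪(W) ∩ 𝔪(W')`,
  `Y ∉ 𝔪(W) ∪ 𝔪(W')` are EQUAL (both are `O_(X)`);
* `rtk6glu_dich`    : if `u π = X Y` with `u` a unit of `W`, `π ∈ 𝔪(W)` a uniformizer of `W`
  (`x ∈ 𝔪(W) → x / π ∈ W`), then exactly one of `X`, `Y` lies in `𝔪(W)`;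
* `rtk6glu_cross`   : LOCAL UNIQUENESS: `V c ∋ X`, `V c' ∋ Y` (in the maximal ideals), then every
  `W ⊇ O` with uniformizer `π` is `V c` or `V c'`;
* `rtk6glu_stab`    : D-STAB: a ring automorphism `g` of `F` with `g⁻¹ O ⊆ O`,
  `g⁻¹ X ∈ O X`, `g⁻¹ Y ∈ O^× Y` preserves `W`.
-/

set_option autoImplicit false
set_option linter.style.haveILetI false
set_option linter.unusedSectionVars false

namespace Fermat.Agent.RT.K6

open IsLocalRing

section Val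

variable {F : Type*} [Field F]

theorem rtk6glu_inv_mem (W : ValuationSubring F) {x : F} (hx : x ∈ W) (h : x ∉ W.nonunits) :
    x⁻¹ ∈ W := by
  have h1 : ¬ W.valuation x < 1 := fun h' => h ((ValuationSubring.mem_nonunits_iff W).mpr h')
  have h2 : W.valuation x ≤ 1 := (ValuationSubring.valuation_le_one_iff W x).mpr hx
  have h3 : W.valuation x = 1 := le_antisymm h2 (not_lt.mp h1)
  rw [← ValuationSubring.valuation_le_one_iff, map_inv₀, h3, inv_one]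

theorem rtk6glu_mul_mem_nonunits (W : ValuationSubring F) {a x : F} (ha : a ∈ W)
    (hx : x ∈ W.nonunits) : a * x ∈ W.nonunits := by
  rw [ValuationSubring.mem_nonunits_iff] at hx ⊢
  rw [map_mul]
  have h1 : W.valuation a ≤ 1 := (ValuationSubring.valuation_le_one_iff W a).mpr ha
  calc W.valuation a * W.valuation x ≤ 1 * W.valuation x := by gcongr
    _ = W.valuation x := one_mul _
    _ < 1 := hx

theorem rtk6glu_one_not_mem (W : ValuationSubring F) : (1 : F) ∉ W.nonunits := by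
  rw [ValuationSubring.mem_nonunits_iff, map_one]
  exact lt_irrefl _

theorem rtk6glu_pow_mem_nonunits (W : ValuationSubring F) {x : F} (hx : x ∈ W.nonunits) {n : ℕ}
    (hn : n ≠ 0) : x ^ n ∈ W.nonunits := by
  obtain ⟨m, rfl⟩ := Nat.exists_eq_succ_of_ne_zero hn
  have hxW : x ∈ W := ValuationSubring.nonunits_le hx
  rw [pow_succ]
  exact rtk6glu_mul_mem_nonunits W (pow_mem hxW m) hx

/-- `𝔪(W)` is prime -/
theorem rtk6glu_mem_or_mem (W : ValuationSubring F) {x y : F} (hx : x ∈ W) (hy : y ∈ W)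
    (h : x * y ∈ W.nonunits) : x ∈ W.nonunits ∨ y ∈ W.nonunits := by
  by_contra hcon
  push Not at hcon
  have h1 := rtk6glu_inv_mem W hx hcon.1
  have h2 := rtk6glu_inv_mem W hy hcon.2
  have hx0 : x ≠ 0 := fun h0 => hcon.1 (h0 ▸ W.nonunits.zero_mem)
  have hy0 : y ≠ 0 := fun h0 => hcon.2 (h0 ▸ W.nonunits.zero_mem)
  have h3 : x⁻¹ * y⁻¹ * (x * y) ∈ W.nonunits :=
    rtk6glu_mul_mem_nonunits W (W.mul_mem _ _ h1 h2) h
  have e : x⁻¹ * y⁻¹ * (x * y) = 1 := by field_simp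
  rw [e] at h3
  exact rtk6glu_one_not_mem W h3

end Val

section Centre

variable {O F : Type*} [CommRing O] [IsDomain O] [IsLocalRing O] [IsNoetherianRing O]
  [Field F] [Algebra O F] [IsFractionRing O F]

/-- the centre of `W` on `O` -/
def rtk6gluCentre (W : ValuationSubring F) (hOW : ∀ a : O, algebraMap O F a ∈ W) : Ideal O where
  carrier := {a | algebraMap O F a ∈ W.nonunits}
  zero_mem' := by
    show algebraMap O F 0 ∈ W.nonunits
    rw [map_zero]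
    exact W.nonunits.zero_mem
  add_mem' := by
    intro a b ha hb
    show algebraMap O F (a + b) ∈ W.nonunits
    rw [map_add]
    have ha' : algebraMap O F a ∈ W.nonunits := ha
    have hb' : algebraMap O F b ∈ W.nonunits := hb
    rw [ValuationSubring.mem_nonunits_iff] at ha' hb' ⊢
    exact Valuation.map_add_lt _ ha' hb'
  smul_mem' := by
    intro c a ha
    show algebraMap O F (c • a) ∈ W.nonunits
    rw [smul_eq_mul, map_mul]
    exact rtk6glu_mul_mem_nonunits W (hOW c) ha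

theorem mem_rtk6gluCentre (W : ValuationSubring F) (hOW : ∀ a : O, algebraMap O F a ∈ W)
    (a : O) : a ∈ rtk6gluCentre W hOW ↔ algebraMap O F a ∈ W.nonunits := Iff.rfl

/-- the quotient `O / X` is local with maximal ideal `(Ȳ)`; every ideal of `O` containing `X`
and not `Y ^ k` for any `k` is `(X)` -/
theorem rtk6glu_le_span (X Y : O) (hm : maximalIdeal O = Ideal.span {X, Y}) (𝔮 : Ideal O)
    (hX : X ∈ 𝔮) (hY : ∀ k : ℕ, Y ^ k ∉ 𝔮) : 𝔮 ≤ Ideal.span {X} := by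
  have hXm : X ∈ maximalIdeal O := by
    rw [hm]
    exact Ideal.subset_span (by simp)
  have hYm : Y ∈ maximalIdeal O := by
    rw [hm]
    exact Ideal.subset_span (by simp)
  set J : Ideal O := Ideal.span {X} with hJ
  have hJ𝔮 : J ≤ 𝔮 := by
    rw [hJ, Ideal.span_singleton_le_iff_mem]
    exact hX
  have hJne : J ≠ ⊤ := fun h => by
    have h1 : (1 : O) ∈ J := by rw [h]; trivial
    rw [hJ, Ideal.mem_span_singleton] at h1
    exact (mem_maximalIdeal X).1 hXm (isUnit_of_dvd_one h1)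
  haveI : Nontrivial (O ⧸ J) := Ideal.Quotient.nontrivial_iff.mpr hJne
  haveI : IsLocalRing (O ⧸ J) :=
    IsLocalRing.of_surjective' (Ideal.Quotient.mk J) Ideal.Quotient.mk_surjective
  have hmq : maximalIdeal (O ⧸ J) = Ideal.span {Ideal.Quotient.mk J Y} := by
    apply le_antisymm
    · intro z hz
      obtain ⟨s, rfl⟩ := Ideal.Quotient.mk_surjective z
      have hs : s ∈ maximalIdeal O := by
        rw [mem_maximalIdeal, mem_nonunits_iff] at hz ⊢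
        exact fun hu => hz (hu.map _)
      rw [hm, Ideal.mem_span_pair] at hs
      obtain ⟨a, b, rfl⟩ := hs
      rw [map_add, map_mul, map_mul]
      have hX0 : Ideal.Quotient.mk J X = 0 :=
        Ideal.Quotient.eq_zero_iff_mem.mpr (Ideal.mem_span_singleton_self X)
      rw [hX0, mul_zero, zero_add]
      exact Ideal.mul_mem_left _ _ (Ideal.mem_span_singleton_self _)
    · rw [Ideal.span_singleton_le_iff_mem, mem_maximalIdeal, mem_nonunits_iff]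
      intro hu
      obtain ⟨z, hz⟩ := hu.exists_right_inv
      obtain ⟨s, rfl⟩ := Ideal.Quotient.mk_surjective z
      rw [← map_mul, ← map_one (Ideal.Quotient.mk J), Ideal.Quotient.eq, hJ,
        Ideal.mem_span_singleton] at hz
      obtain ⟨c, hc⟩ := hz
      have h1 : (1 : O) ∈ maximalIdeal O := by
        have : (1 : O) = Y * s - X * c := by rw [← hc]; ring
        rw [this]
        exact Ideal.sub_mem _ (Ideal.mul_mem_right _ _ hYm) (Ideal.mul_mem_right _ _ hXm)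
      exact (mem_maximalIdeal (1 : O)).1 h1 isUnit_one
  rcases rtk6d_ideal_of_principal_max (Ideal.Quotient.mk J Y) hmq (𝔮.map (Ideal.Quotient.mk J))
    with h0 | ⟨k, hk⟩
  · intro a ha
    have : Ideal.Quotient.mk J a ∈ 𝔮.map (Ideal.Quotient.mk J) := Ideal.mem_map_of_mem _ ha
    rw [h0] at this
    exact Ideal.Quotient.eq_zero_iff_mem.mp this
  · exfalso
    have h1 : Ideal.Quotient.mk J (Y ^ k) ∈ 𝔮.map (Ideal.Quotient.mk J) := by
      rw [hk, map_pow]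
      exact Ideal.mem_span_singleton_self _
    rw [Ideal.mem_map_iff_of_surjective _ Ideal.Quotient.mk_surjective] at h1
    obtain ⟨q, hq, hqY⟩ := h1
    have h2 : q - Y ^ k ∈ J := by
      rw [← Ideal.Quotient.eq]
      exact hqY
    have h3 : Y ^ k = q - (q - Y ^ k) := by ring
    apply hY k
    rw [h3]
    exact 𝔮.sub_mem hq (hJ𝔮 h2)

/-- **The centre of `W` is `X O`.** -/
theorem rtk6glu_centre (X Y : O) (hm : maximalIdeal O = Ideal.span {X, Y})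
    (W : ValuationSubring F) (hOW : ∀ a : O, algebraMap O F a ∈ W)
    (hXW : algebraMap O F X ∈ W.nonunits) (hYW : algebraMap O F Y ∉ W.nonunits) (a : O)
    (ha : algebraMap O F a ∈ W.nonunits) : X ∣ a := by
  have h := rtk6glu_le_span X Y hm (rtk6gluCentre W hOW) hXW (fun k hk => by
    have hk' : algebraMap O F (Y ^ k) ∈ W.nonunits := hk
    rw [map_pow] at hk'
    -- `Y` is a unit of `W`
    have hYinv := rtk6glu_inv_mem W (hOW Y) hYW
    have hY0 : algebraMap O F Y ≠ 0 := fun h0 => hYW (h0 ▸ W.nonunits.zero_mem)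
    have h1 : (algebraMap O F Y)⁻¹ ^ k * algebraMap O F Y ^ k ∈ W.nonunits :=
      rtk6glu_mul_mem_nonunits W (pow_mem hYinv k) hk'
    have e : (algebraMap O F Y)⁻¹ ^ k * algebraMap O F Y ^ k = 1 := by
      rw [← mul_pow, inv_mul_cancel₀ hY0, one_pow]
    rw [e] at h1
    exact rtk6glu_one_not_mem W h1) ha
  exact Ideal.mem_span_singleton.mp h

/-- **`W ≤ W'`** for two valuation rings with centre `X O`. -/
theorem rtk6glu_le (X Y : O) (hm : maximalIdeal O = Ideal.span {X, Y})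
    (W W' : ValuationSubring F) (hOW : ∀ a : O, algebraMap O F a ∈ W)
    (hOW' : ∀ a : O, algebraMap O F a ∈ W')
    (hXW : algebraMap O F X ∈ W.nonunits) (hYW : algebraMap O F Y ∉ W.nonunits)
    (hXW' : algebraMap O F X ∈ W'.nonunits) (hYW' : algebraMap O F Y ∉ W'.nonunits) :
    ∀ x : F, x ∈ W → x ∈ W' := by
  haveI : WfDvdMonoid O := IsNoetherianRing.wfDvdMonoid
  have hinj : Function.Injective (algebraMap O F) := IsFractionRing.injective O F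
  have hXu : ¬ IsUnit X := by
    intro hu
    have h1 : IsUnit (algebraMap O F X) := hu.map _
    obtain ⟨v, hv⟩ := h1
    have h2 : algebraMap O F ↑(hu.unit⁻¹) * algebraMap O F X ∈ W.nonunits :=
      rtk6glu_mul_mem_nonunits W (hOW _) hXW
    rw [← map_mul, IsUnit.val_inv_mul, map_one] at h2
    exact rtk6glu_one_not_mem W h2
  intro x hx
  rcases eq_or_ne x 0 with rfl | hx0
  · exact W'.zero_mem
  obtain ⟨a, b, hb, hab⟩ := IsFractionRing.div_surjective (A := O) x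
  have hb0 : b ≠ 0 := nonZeroDivisors.ne_zero hb
  have ha0 : a ≠ 0 := by
    rintro rfl
    rw [map_zero, zero_div] at hab
    exact hx0 hab.symm
  obtain ⟨a', ha', hXa'⟩ := (FiniteMultiplicity.of_not_isUnit hXu ha0).exists_eq_pow_mul_and_not_dvd
  obtain ⟨b', hb', hXb'⟩ := (FiniteMultiplicity.of_not_isUnit hXu hb0).exists_eq_pow_mul_and_not_dvd
  set m := multiplicity X a with hm'
  set n := multiplicity X b with hn'
  -- `a'`, `b'` are units of `W` and of `W'`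
  have hua : algebraMap O F a' ∉ W.nonunits := fun h =>
    hXa' (rtk6glu_centre X Y hm W hOW hXW hYW a' h)
  have hub : algebraMap O F b' ∉ W.nonunits := fun h =>
    hXb' (rtk6glu_centre X Y hm W hOW hXW hYW b' h)
  have hua' : algebraMap O F a' ∉ W'.nonunits := fun h =>
    hXa' (rtk6glu_centre X Y hm W' hOW' hXW' hYW' a' h)
  have hub' : algebraMap O F b' ∉ W'.nonunits := fun h =>
    hXb' (rtk6glu_centre X Y hm W' hOW' hXW' hYW' b' h)
  have hAa : algebraMap O F a = algebraMap O F X ^ m * algebraMap O F a' := by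
    conv_lhs => rw [ha']
    rw [map_mul, map_pow]
  have hAb : algebraMap O F b = algebraMap O F X ^ n * algebraMap O F b' := by
    conv_lhs => rw [hb']
    rw [map_mul, map_pow]
  have hAa0 : algebraMap O F a ≠ 0 := fun h0 => ha0 (hinj (by rw [h0, map_zero]))
  have hAb0 : algebraMap O F b ≠ 0 := fun h0 => hb0 (hinj (by rw [h0, map_zero]))
  have hXm0 : algebraMap O F X ^ m ≠ 0 := fun h0 => hAa0 (by rw [hAa, h0, zero_mul])
  have hXn0 : algebraMap O F X ^ n ≠ 0 := fun h0 => hAb0 (by rw [hAb, h0, zero_mul])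
  have ha'0 : algebraMap O F a' ≠ 0 := fun h0 => hAa0 (by rw [hAa, h0, mul_zero])
  have hb'0 : algebraMap O F b' ≠ 0 := fun h0 => hAb0 (by rw [hAb, h0, mul_zero])
  rcases le_or_gt n m with hnm | hnm
  · obtain ⟨k, hk⟩ := Nat.exists_eq_add_of_le hnm
    have e : x = algebraMap O F X ^ k * algebraMap O F a' * (algebraMap O F b')⁻¹ := by
      rw [← hab, hAa, hAb, hk, pow_add]
      field_simp
    rw [e]
    exact W'.mul_mem _ _ (W'.mul_mem _ _ (pow_mem (hOW' X) k) (hOW' a'))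
      (rtk6glu_inv_mem W' (hOW' b') hub')
  · exfalso
    obtain ⟨k, hk⟩ := Nat.exists_eq_add_of_lt hnm
    have e : x⁻¹ = algebraMap O F b' * (algebraMap O F a')⁻¹ * algebraMap O F X ^ (k + 1) := by
      rw [← hab, hAa, hAb, hk, inv_div, add_assoc, pow_add]
      field_simp
    have h1 : x⁻¹ ∈ W.nonunits := by
      rw [e]
      exact rtk6glu_mul_mem_nonunits W
        (W.mul_mem _ _ (hOW b') (rtk6glu_inv_mem W (hOW a') hua))
        (rtk6glu_pow_mem_nonunits W hXW (Nat.succ_ne_zero k))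
    have h2 : x * x⁻¹ ∈ W.nonunits := rtk6glu_mul_mem_nonunits W hx h1
    rw [mul_inv_cancel₀ hx0] at h2
    exact rtk6glu_one_not_mem W h2

/-- **Two valuation rings with centre `X O` are equal.** -/
theorem rtk6glu_unique (X Y : O) (hm : maximalIdeal O = Ideal.span {X, Y})
    (W W' : ValuationSubring F) (hOW : ∀ a : O, algebraMap O F a ∈ W)
    (hOW' : ∀ a : O, algebraMap O F a ∈ W')
    (hXW : algebraMap O F X ∈ W.nonunits) (hYW : algebraMap O F Y ∉ W.nonunits)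
    (hXW' : algebraMap O F X ∈ W'.nonunits) (hYW' : algebraMap O F Y ∉ W'.nonunits) :
    W = W' := by
  ext x
  exact ⟨rtk6glu_le X Y hm W W' hOW hOW' hXW hYW hXW' hYW' x,
    rtk6glu_le X Y hm W' W hOW' hOW hXW' hYW' hXW hYW x⟩

/-- **Dichotomy.**  `u π = X Y`, `u` a unit of `O`, `π ≠ 0` a uniformizer of `W`: exactly one of
`X`, `Y` lies in `𝔪(W)`. -/
theorem rtk6glu_dich (W : ValuationSubring F) (hOW : ∀ a : O, algebraMap O F a ∈ W)
    {π : F} (hπ0 : π ≠ 0) (hπW : π ∈ W.nonunits)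
    (hU : ∀ x ∈ W.nonunits, ∃ z ∈ W, x = π * z) {u X Y : O} (hu : IsUnit u)
    (hXY : algebraMap O F u * π = algebraMap O F X * algebraMap O F Y) :
    (algebraMap O F X ∈ W.nonunits ∧ algebraMap O F Y ∉ W.nonunits) ∨
      (algebraMap O F Y ∈ W.nonunits ∧ algebraMap O F X ∉ W.nonunits) := by
  have huW : algebraMap O F u ∉ W.nonunits := by
    intro h
    have h2 : algebraMap O F ↑(hu.unit⁻¹) * algebraMap O F u ∈ W.nonunits :=
      rtk6glu_mul_mem_nonunits W (hOW _) h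
    rw [← map_mul, IsUnit.val_inv_mul, map_one] at h2
    exact rtk6glu_one_not_mem W h2
  have hprod : algebraMap O F X * algebraMap O F Y ∈ W.nonunits := by
    rw [← hXY]
    exact rtk6glu_mul_mem_nonunits W (hOW u) hπW
  have hnot : ¬ (algebraMap O F X ∈ W.nonunits ∧ algebraMap O F Y ∈ W.nonunits) := by
    rintro ⟨hX, hY⟩
    obtain ⟨z₁, hz₁, e₁⟩ := hU _ hX
    obtain ⟨z₂, hz₂, e₂⟩ := hU _ hY
    apply huW
    have e : algebraMap O F u = (z₁ * z₂) * π := by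
      have h1 : algebraMap O F u * π = (z₁ * z₂ * π) * π := by
        rw [hXY, e₁, e₂]
        ring
      exact mul_right_cancel₀ hπ0 h1
    rw [e]
    exact rtk6glu_mul_mem_nonunits W (W.mul_mem _ _ hz₁ hz₂) hπW
  rcases rtk6glu_mem_or_mem W (hOW X) (hOW Y) hprod with hX | hY
  · exact Or.inl ⟨hX, fun hY => hnot ⟨hX, hY⟩⟩
  · exact Or.inr ⟨hY, fun hX => hnot ⟨hX, hY⟩⟩

/-- **LOCAL UNIQUENESS at a crossing point.**  `W₁ ∋ X`, `W₂ ∋ Y` (in the maximal ideals): every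
valuation ring `W ⊇ O` with uniformizer `π` is `W₁` or `W₂`. -/
theorem rtk6glu_cross (X Y : O) (hm : maximalIdeal O = Ideal.span {X, Y})
    {π : F} (hπ0 : π ≠ 0) {u : O} (hu : IsUnit u)
    (hXY : algebraMap O F u * π = algebraMap O F X * algebraMap O F Y)
    (W₁ W₂ W : ValuationSubring F)
    (hOW₁ : ∀ a : O, algebraMap O F a ∈ W₁) (hπW₁ : π ∈ W₁.nonunits)
    (hU₁ : ∀ x ∈ W₁.nonunits, ∃ z ∈ W₁, x = π * z)
    (hOW₂ : ∀ a : O, algebraMap O F a ∈ W₂) (hπW₂ : π ∈ W₂.nonunits)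
    (hU₂ : ∀ x ∈ W₂.nonunits, ∃ z ∈ W₂, x = π * z)
    (hOW : ∀ a : O, algebraMap O F a ∈ W) (hπW : π ∈ W.nonunits)
    (hU : ∀ x ∈ W.nonunits, ∃ z ∈ W, x = π * z)
    (hX₁ : algebraMap O F X ∈ W₁.nonunits) (hY₂ : algebraMap O F Y ∈ W₂.nonunits) :
    W = W₁ ∨ W = W₂ := by
  have hY₁ : algebraMap O F Y ∉ W₁.nonunits := by
    rcases rtk6glu_dich W₁ hOW₁ hπ0 hπW₁ hU₁ hu hXY with h | h
    · exact h.2
    · exact absurd hX₁ h.2
  have hX₂ : algebraMap O F X ∉ W₂.nonunits := by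
    rcases rtk6glu_dich W₂ hOW₂ hπ0 hπW₂ hU₂ hu hXY with h | h
    · exact absurd hY₂ h.2
    · exact h.2
  have hm' : maximalIdeal O = Ideal.span {Y, X} := by rw [hm, Set.pair_comm]
  rcases rtk6glu_dich W hOW hπ0 hπW hU hu hXY with h | h
  · exact Or.inl (rtk6glu_unique X Y hm W W₁ hOW hOW₁ h.1 h.2 hX₁ hY₁)
  · exact Or.inr (rtk6glu_unique Y X hm' W W₂ hOW hOW₂ h.1 h.2 hY₂ hX₂)

omit [IsDomain O] [IsLocalRing O] [IsNoetherianRing O] [IsFractionRing O F] [Algebra O F]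
  [CommRing O] in
/-- the maximal ideal of a valuation ring, elementwise -/
theorem rtk6glu_mem_nonunits_iff (W : ValuationSubring F) (x : F) :
    x ∈ W.nonunits ↔ x ∈ W ∧ (x = 0 ∨ x⁻¹ ∉ W) := by
  constructor
  · intro hx
    refine ⟨ValuationSubring.nonunits_le hx, ?_⟩
    by_cases hx0 : x = 0
    · exact Or.inl hx0
    · right
      intro hinv
      have h := rtk6glu_mul_mem_nonunits W hinv hx
      rw [inv_mul_cancel₀ hx0] at h
      exact rtk6glu_one_not_mem W h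
  · rintro ⟨hx, h0 | hinv⟩
    · rw [h0]
      exact W.nonunits.zero_mem
    · by_contra hcon
      exact hinv (rtk6glu_inv_mem W hx hcon)

omit [IsDomain O] [IsLocalRing O] [IsNoetherianRing O] [IsFractionRing O F] [Algebra O F]
  [CommRing O] in
/-- the maximal ideal of `g W` -/
theorem rtk6glu_mem_comap_nonunits (W : ValuationSubring F) (f : F →+* F) (x : F) :
    x ∈ (W.comap f).nonunits ↔ f x ∈ W.nonunits := by
  rw [rtk6glu_mem_nonunits_iff, rtk6glu_mem_nonunits_iff, ValuationSubring.mem_comap,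
    ValuationSubring.mem_comap, map_inv₀, map_eq_zero]

/-- **D-STAB.**  A ring automorphism `g` of `F` with `g⁻¹ O ⊆ O`, `g⁻¹ X ∈ O X`,
`g⁻¹ Y ∈ O^× Y` preserves the component `W` (`X ∈ 𝔪(W)`, `Y ∉ 𝔪(W)`): `g W = W`. -/
theorem rtk6glu_stab (X Y : O) (hm : maximalIdeal O = Ideal.span {X, Y})
    (W : ValuationSubring F) (hOW : ∀ a : O, algebraMap O F a ∈ W)
    (hXW : algebraMap O F X ∈ W.nonunits) (hYW : algebraMap O F Y ∉ W.nonunits)
    (g : F ≃+* F) (hgO : ∀ a : O, ∃ a' : O, g.symm (algebraMap O F a) = algebraMap O F a')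
    (hgX : ∃ a : O, g.symm (algebraMap O F X) = algebraMap O F a * algebraMap O F X)
    (hgY : ∃ b : O, IsUnit b ∧ g.symm (algebraMap O F Y) = algebraMap O F b * algebraMap O F Y) :
    W.comap (g.symm : F →+* F) = W := by
  refine rtk6glu_unique X Y hm _ W ?_ hOW ?_ ?_ hXW hYW
  · intro a
    obtain ⟨a', ha'⟩ := hgO a
    rw [ValuationSubring.mem_comap]
    show g.symm (algebraMap O F a) ∈ W
    rw [ha']
    exact hOW a'
  · rw [rtk6glu_mem_comap_nonunits]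
    obtain ⟨a, ha⟩ := hgX
    show g.symm (algebraMap O F X) ∈ W.nonunits
    rw [ha]
    exact rtk6glu_mul_mem_nonunits W (hOW a) hXW
  · rw [rtk6glu_mem_comap_nonunits]
    obtain ⟨b, hb, hbY⟩ := hgY
    show g.symm (algebraMap O F Y) ∉ W.nonunits
    rw [hbY]
    intro h
    apply hYW
    have h2 : algebraMap O F ↑(hb.unit⁻¹) * (algebraMap O F b * algebraMap O F Y) ∈ W.nonunits :=
      rtk6glu_mul_mem_nonunits W (hOW _) h
    rwa [← mul_assoc, ← map_mul, IsUnit.val_inv_mul, map_one, one_mul] at h2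

/-- **D-STAB, pointwise form**: `x ∈ W ↔ g x ∈ W`, and the same for the maximal ideals. -/
theorem rtk6glu_stab_mem (X Y : O) (hm : maximalIdeal O = Ideal.span {X, Y})
    (W : ValuationSubring F) (hOW : ∀ a : O, algebraMap O F a ∈ W)
    (hXW : algebraMap O F X ∈ W.nonunits) (hYW : algebraMap O F Y ∉ W.nonunits)
    (g : F ≃+* F) (hgO : ∀ a : O, ∃ a' : O, g.symm (algebraMap O F a) = algebraMap O F a')
    (hgX : ∃ a : O, g.symm (algebraMap O F X) = algebraMap O F a * algebraMap O F X)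
    (hgY : ∃ b : O, IsUnit b ∧ g.symm (algebraMap O F Y) = algebraMap O F b * algebraMap O F Y)
    (x : F) : (g x ∈ W ↔ x ∈ W) ∧ (g x ∈ W.nonunits ↔ x ∈ W.nonunits) := by
  have h := rtk6glu_stab X Y hm W hOW hXW hYW g hgO hgX hgY
  constructor
  · have h1 : g x ∈ W.comap (g.symm : F →+* F) ↔ x ∈ W := by
      rw [ValuationSubring.mem_comap]
      show g.symm (g x) ∈ W ↔ x ∈ W
      rw [RingEquiv.symm_apply_apply]
    rwa [h] at h1
  · have h1 : g x ∈ (W.comap (g.symm : F →+* F)).nonunits ↔ x ∈ W.nonunits := by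
      rw [rtk6glu_mem_comap_nonunits]
      show g.symm (g x) ∈ W.nonunits ↔ x ∈ W.nonunits
      rw [RingEquiv.symm_apply_apply]
    rwa [h] at h1

end Centre

end Fermat.Agent.RT.K6


end ZBRT_093_0

/-! ### bundled: `Fermat.Agent.RT.K6.C4Abs` -/
section ZBRT_093_1
/-
K-machine, piece K6, piece C4 (helper94), part 2: **the abstract crossing point, ÉTALE FIRST**.

Setting (all types in one universe, as in `DEtMulti.lean`):
 `R₀` the base chart (UNIP's chart of the `Γ₀`-field over the unramified base), `K = Frac R₀`,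
 `F ⊇ K` the top field (`fieldC E₁ L M H`), `B` the top chart (`j : R₀ →+* B`, `ι : B →+* F`),
 `𝔫` a maximal ideal of `B`, `𝔫₀ = 𝔫 ∩ R₀` a THIN crossing point of `R₀`
 (`NodesLocGen 𝔫₀ {p, X₀, Y₀}`, `w p = X₀ Y₀`, `w ∉ 𝔫₀`);
 `S` the étale Kummer generators (`b t ^ d = a`, `a, b ∈ R₀ ∖ 𝔫₀`), `K′ = K(S)`, `R₀′` its chart;
 `ϖ₁ ^ d = p`, `y` the ramified Kummer generator with (LF) `e₂ y ^ d = e₁ Y₀ ^ n₀ γ ^ d`
 (`e_i ∈ R₀ ∖ 𝔫₀`, `γ ∈ Kˣ`), `a n₀ − b d = 1`, `F = K[S, ϖ₁, y]`;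
 `σ, δ ∈ Aut(F / K)` fixing `S`, `σ ϖ₁ = ζ ϖ₁`, `σ y = y`, `δ ϖ₁ = ϖ₁`, `δ y = ζ ^ n₀ y`.

`Rtk6c4Cross` bundles these hypotheses (a `Prop`-valued structure).
-/

set_option autoImplicit false
set_option linter.style.haveILetI false
set_option linter.unusedSectionVars false
set_option linter.unusedVariables false

namespace Fermat.Agent.RT.K6

open Fermat.Agent.UNIP Fermat.Agent.STB Fermat.Agent.S36 IntermediateField

section Abs

universe u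

variable {K F R₀ B : Type u} [Field K] [Field F] [Algebra K F]
  [CommRing R₀] [Algebra R₀ K] [Algebra R₀ F] [IsScalarTower R₀ K F] [CommRing B]

/-- **The data at a crossing point of the top chart `B` over a thin crossing point of the base
chart `R₀`** (C4, étale first). -/
structure Rtk6c4Cross (j : R₀ →+* B) (ι : B →+* F) (𝔫 : Ideal B) (d : ℕ) (ζ : R₀)
    (p X₀ Y₀ w : R₀) (S : Set F) (ϖ₁ y : F) (γ : K) (e₁ e₂ : R₀) (n₀ a b : ℤ)
    (σ δ : F ≃ₐ[K] F) : Prop where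
  /-- the chart `B` is the integral closure of `R₀` in `F` -/
  hι : Function.Injective ι
  hjι : ∀ r, ι (j r) = algebraMap R₀ F r
  hint : ∀ b : B, IsIntegral R₀ (ι b)
  hcl : ∀ x : F, IsIntegral R₀ x → ∃ b, ι b = x
  /-- `d` is prime to the residue characteristic, `ζ` a primitive `d`-th root of unity -/
  hd : j (d : R₀) ∉ 𝔫
  hζ : IsPrimitiveRoot ζ d
  /-- the thin node of the base chart at `𝔫 ∩ R₀` -/
  hw : j w ∉ 𝔫
  hXY : w * p = X₀ * Y₀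
  hX₀ : j X₀ ∈ 𝔫
  hY₀ : j Y₀ ∈ 𝔫
  hgen₀ : NodesLocGen (𝔫.comap j) {p, X₀, Y₀}
  /-- the étale generators -/
  hS : S.Finite
  hSet : ∀ t ∈ S, ∃ a b : R₀, j a ∉ 𝔫 ∧ j b ∉ 𝔫 ∧
    algebraMap R₀ F b * t ^ d = algebraMap R₀ F a
  /-- the ramified generators, (LF) -/
  hϖ : ϖ₁ ^ d = algebraMap R₀ F p
  hγ : γ ≠ 0
  he₁ : j e₁ ∉ 𝔫
  he₂ : j e₂ ∉ 𝔫
  hy : algebraMap R₀ F e₂ * y ^ d =
    algebraMap R₀ F e₁ * algebraMap R₀ F Y₀ ^ n₀ * algebraMap K F γ ^ d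
  hab : a * n₀ - b * d = 1
  hgen : Algebra.adjoin K (S ∪ {ϖ₁, y}) = ⊤
  /-- the automorphisms -/
  hσS : ∀ t ∈ S, σ t = t
  hσϖ : σ ϖ₁ = algebraMap R₀ F ζ * ϖ₁
  hσy : σ y = y
  hδS : ∀ t ∈ S, δ t = t
  hδϖ : δ ϖ₁ = ϖ₁
  hδy : δ y = algebraMap R₀ F ζ ^ n₀ * y

/-- **The data at a crossing point, with TWO exponents**: the étale generators satisfy
`b t ^ dS = a` (`dS` prime to the residue characteristic), the ramified generators have exponent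
`d` (`ϖ₁ ^ d = p`, `e₂ y ^ d = e₁ Y₀ ^ n₀ γ ^ d`).  `Rtk6c4Cross` is the case `dS = d`. -/
structure Rtk6c4CrossE (j : R₀ →+* B) (ι : B →+* F) (𝔫 : Ideal B) (d dS : ℕ) (ζ : R₀)
    (p X₀ Y₀ w : R₀) (S : Set F) (ϖ₁ y : F) (γ : K) (e₁ e₂ : R₀) (n₀ a b : ℤ)
    (σ δ : F ≃ₐ[K] F) : Prop where
  /-- the chart `B` is the integral closure of `R₀` in `F` -/
  hι : Function.Injective ι
  hjι : ∀ r, ι (j r) = algebraMap R₀ F r
  hint : ∀ b : B, IsIntegral R₀ (ι b)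
  hcl : ∀ x : F, IsIntegral R₀ x → ∃ b, ι b = x
  /-- `d`, `dS` are prime to the residue characteristic, `ζ` a primitive `d`-th root of unity -/
  hd : j (d : R₀) ∉ 𝔫
  hdS : j (dS : R₀) ∉ 𝔫
  hζ : IsPrimitiveRoot ζ d
  /-- the thin node of the base chart at `𝔫 ∩ R₀` -/
  hw : j w ∉ 𝔫
  hXY : w * p = X₀ * Y₀
  hX₀ : j X₀ ∈ 𝔫
  hY₀ : j Y₀ ∈ 𝔫
  hgen₀ : NodesLocGen (𝔫.comap j) {p, X₀, Y₀}
  /-- the étale generators (exponent `dS`) -/
  hS : S.Finite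
  hSet : ∀ t ∈ S, ∃ a b : R₀, j a ∉ 𝔫 ∧ j b ∉ 𝔫 ∧
    algebraMap R₀ F b * t ^ dS = algebraMap R₀ F a
  /-- the ramified generators, (LF) -/
  hϖ : ϖ₁ ^ d = algebraMap R₀ F p
  hγ : γ ≠ 0
  he₁ : j e₁ ∉ 𝔫
  he₂ : j e₂ ∉ 𝔫
  hy : algebraMap R₀ F e₂ * y ^ d =
    algebraMap R₀ F e₁ * algebraMap R₀ F Y₀ ^ n₀ * algebraMap K F γ ^ d
  hab : a * n₀ - b * d = 1
  hgen : Algebra.adjoin K (S ∪ {ϖ₁, y}) = ⊤
  /-- the automorphisms -/
  hσS : ∀ t ∈ S, σ t = t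
  hσϖ : σ ϖ₁ = algebraMap R₀ F ζ * ϖ₁
  hσy : σ y = y
  hδS : ∀ t ∈ S, δ t = t
  hδϖ : δ ϖ₁ = ϖ₁
  hδy : δ y = algebraMap R₀ F ζ ^ n₀ * y

/-- the one-exponent datum is a two-exponent datum with `dS = d` -/
theorem Rtk6c4Cross.toE {j : R₀ →+* B} {ι : B →+* F} {𝔫 : Ideal B} {d : ℕ} {ζ : R₀}
    {p X₀ Y₀ w : R₀} {S : Set F} {ϖ₁ y : F} {γ : K} {e₁ e₂ : R₀} {n₀ a b : ℤ}
    {σ δ : F ≃ₐ[K] F} (h : Rtk6c4Cross j ι 𝔫 d ζ p X₀ Y₀ w S ϖ₁ y γ e₁ e₂ n₀ a b σ δ) :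
    Rtk6c4CrossE j ι 𝔫 d d ζ p X₀ Y₀ w S ϖ₁ y γ e₁ e₂ n₀ a b σ δ :=
  { hι := h.hι, hjι := h.hjι, hint := h.hint, hcl := h.hcl, hd := h.hd, hdS := h.hd,
    hζ := h.hζ, hw := h.hw, hXY := h.hXY, hX₀ := h.hX₀, hY₀ := h.hY₀, hgen₀ := h.hgen₀,
    hS := h.hS, hSet := h.hSet, hϖ := h.hϖ, hγ := h.hγ, he₁ := h.he₁, he₂ := h.he₂,
    hy := h.hy, hab := h.hab, hgen := h.hgen, hσS := h.hσS, hσϖ := h.hσϖ, hσy := h.hσy,
    hδS := h.hδS, hδϖ := h.hδϖ, hδy := h.hδy }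

end Abs

section Val

variable {K' F : Type*} [Field K'] [Field F]

/-- the maximal ideal of the restriction of a valuation ring -/
theorem rtk6c4_mem_comap_nonunits (W : ValuationSubring F) (f : K' →+* F) (x : K') :
    x ∈ (W.comap f).nonunits ↔ f x ∈ W.nonunits := by
  rw [rtk6glu_mem_nonunits_iff, rtk6glu_mem_nonunits_iff, ValuationSubring.mem_comap,
    ValuationSubring.mem_comap, map_inv₀, map_eq_zero]

/-- a root of an element of `𝔪(W)` lies in `𝔪(W)` -/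
theorem rtk6c4_mem_nonunits_of_pow (W : ValuationSubring F) {x : F} {d : ℕ}
    (h : x ^ d ∈ W.nonunits) : x ∈ W.nonunits := by
  rw [ValuationSubring.mem_nonunits_iff] at h ⊢
  rw [map_pow] at h
  by_contra hx
  rw [not_lt] at hx
  exact absurd h (not_lt.2 (one_le_pow₀ hx))

/-- a ring endomorphism fixing `K` and `S` pointwise fixes `K(S)` pointwise -/
theorem rtk6c4_fix_adjoin_hom {K : Type*} [Field K] [Algebra K F] (S : Set F) (Φ : F →+* F)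
    (hΦK : ∀ k : K, Φ (algebraMap K F k) = algebraMap K F k) (hΦS : ∀ t ∈ S, Φ t = t) :
    ∀ x ∈ IntermediateField.adjoin K S, Φ x = x := by
  intro x hx
  induction hx using IntermediateField.adjoin_induction with
  | mem x hx => exact hΦS x hx
  | algebraMap k => exact hΦK k
  | add x y _ _ hx hy => rw [map_add, hx, hy]
  | inv x _ hx => rw [map_inv₀, hx]
  | mul x y _ _ hx hy => rw [map_mul, hx, hy]

end Val

end Fermat.Agent.RT.K6


end ZBRT_093_1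

/-! ### bundled: `Fermat.Agent.RT.K6.C4Cross` -/
section ZBRT_093_2
/-
K-machine, piece K6, piece C4 (helper94), part 3: **the abstract crossing point, ÉTALE FIRST**.

From `Rtk6c4Cross` (`C4Abs.lean`) and two components `W₁ ∋ X₀`, `W₂ ∋ Y₀` through `𝔫`:
`𝔫 = (ϖ, X, Y)` locally, `w′ ϖ = X Y`, `w′ ∉ 𝔫`, `X ∈ 𝔪(W₁)`, `Y ∈ 𝔪(W₂)`
(`rtk6c4_cross`), and every ring endomorphism `Φ` of `F` preserving the chart, fixing `K` and the
étale generators and multiplying `ϖ₁`, `y` by units of `R₀` multiplies `X`, `Y` by units and is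
the identity modulo `𝔫` (C4+).
-/

set_option autoImplicit false
set_option linter.style.haveILetI false
set_option linter.unusedSectionVars false
set_option linter.unusedVariables false

namespace Fermat.Agent.RT.K6

open Fermat.Agent.UNIP Fermat.Agent.STB Fermat.Agent.S36 IntermediateField

section Cross

universe u

variable {K F R₀ B : Type u} [Field K] [Field F] [Algebra K F]
  [CommRing R₀] [IsDomain R₀] [Algebra R₀ K] [IsFractionRing R₀ K] [Algebra R₀ F]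
  [IsScalarTower R₀ K F] [CommRing B]
  {j : R₀ →+* B} {ι : B →+* F} {𝔫 : Ideal B} {d dS : ℕ} {ζ : R₀}
  {p X₀ Y₀ w : R₀} {S : Set F} {ϖ₁ y : F} {γ : K} {e₁ e₂ : R₀} {n₀ a b : ℤ} {σ δ : F ≃ₐ[K] F}

namespace Rtk6c4CrossE

variable (h : Rtk6c4CrossE j ι 𝔫 d dS ζ p X₀ Y₀ w S ϖ₁ y γ e₁ e₂ n₀ a b σ δ)

include h

theorem d_ne_zero : d ≠ 0 := by
  rintro rfl
  apply h.hd
  rw [Nat.cast_zero, map_zero]
  exact 𝔫.zero_mem

theorem dS_ne_zero : dS ≠ 0 := by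
  rintro rfl
  apply h.hdS
  rw [Nat.cast_zero, map_zero]
  exact 𝔫.zero_mem

theorem ne_zero_of_not_mem {r : R₀} (hr : j r ∉ 𝔫) : r ≠ 0 := by
  rintro rfl
  apply hr
  rw [map_zero]
  exact 𝔫.zero_mem

theorem algebraMap_injective : Function.Injective (algebraMap R₀ F) := by
  have e : algebraMap R₀ F = (algebraMap K F).comp (algebraMap R₀ K) :=
    IsScalarTower.algebraMap_eq R₀ K F
  rw [e]
  exact (algebraMap K F).injective.comp (IsFractionRing.injective R₀ K)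

theorem algebraMap_ne_zero {r : R₀} (hr : j r ∉ 𝔫) : algebraMap R₀ F r ≠ 0 := fun h0 =>
  h.ne_zero_of_not_mem hr (h.algebraMap_injective (by rw [h0, map_zero]))

/-- the étale generators are integral over `K` -/
theorem isIntegral_S : ∀ t ∈ S, IsIntegral K t := by
  intro t ht
  obtain ⟨a', b', ha', hb', hab'⟩ := h.hSet t ht
  have hb0 : algebraMap R₀ F b' ≠ 0 := h.algebraMap_ne_zero hb'
  apply IsIntegral.of_pow (Nat.pos_of_ne_zero h.dS_ne_zero)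
  have e : t ^ dS = algebraMap K F (algebraMap R₀ K a' / algebraMap R₀ K b') := by
    rw [map_div₀, ← IsScalarTower.algebraMap_apply R₀ K F,
      ← IsScalarTower.algebraMap_apply R₀ K F, eq_div_iff hb0, mul_comm]
    exact hab'
  rw [e]
  exact isIntegral_algebraMap

theorem finiteDimensional : FiniteDimensional K (rtk6c4K K S) := by
  haveI : Finite S := h.hS.to_subtype
  exact IntermediateField.finiteDimensional_adjoin h.isIntegral_S

/-- `j` is integral -/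
theorem j_isIntegral : j.IsIntegral := by
  intro b'
  obtain ⟨P, hP, hPb⟩ := h.hint b'
  refine ⟨P, hP, h.hι ?_⟩
  rw [Polynomial.hom_eval₂, map_zero]
  have e : ι.comp j = algebraMap R₀ F := by
    ext r
    exact h.hjι r
  rw [e]
  exact hPb

/-- `ϖ₁` lies in the chart -/
theorem exists_unif : ∃ ϖ : B, ι ϖ = ϖ₁ := by
  apply h.hcl
  apply IsIntegral.of_pow (Nat.pos_of_ne_zero h.d_ne_zero)
  rw [h.hϖ]
  exact isIntegral_algebraMap

end Rtk6c4CrossE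

omit [IsDomain R₀] [IsFractionRing R₀ K] [IsScalarTower R₀ K F] [Algebra K F] [Algebra R₀ K] in
/-- integral powers of a unit, under a ring homomorphism to a field -/
theorem rtk6c4_unit_zpow {α : R₀} (hα : IsUnit α) (n : ℤ) :
    algebraMap R₀ F (((hα.unit ^ n : R₀ˣ) : R₀)) = algebraMap R₀ F α ^ n := by
  have h1 := map_zpow (Units.map (algebraMap R₀ F : R₀ →* F)) hα.unit n
  have h2 := congrArg (fun z : Fˣ => (z : F)) h1
  simp only [Units.coe_map, MonoidHom.coe_coe, Units.val_zpow_eq_zpow_val,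
    IsUnit.unit_spec] at h2
  exact h2

variable [CharZero K] [IsIntegrallyClosed R₀] [IsNoetherianRing R₀]

set_option maxHeartbeats 1600000 in
/-- **C4-X, abstract: the crossing point of the top chart.** -/
theorem rtk6c4_crossE_ex (h : Rtk6c4CrossE j ι 𝔫 d dS ζ p X₀ Y₀ w S ϖ₁ y γ e₁ e₂ n₀ a b σ δ)
    [h𝔫 : 𝔫.IsMaximal]
    (W₁ W₂ : ValuationSubring F) (hBW₁ : ∀ z, ι z ∈ W₁) (hBW₂ : ∀ z, ι z ∈ W₂)
    (hthr₁ : ∀ z : B, ι z ∈ W₁.nonunits → z ∈ 𝔫) (hthr₂ : ∀ z : B, ι z ∈ W₂.nonunits → z ∈ 𝔫)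
    (hX₁ : ι (j X₀) ∈ W₁.nonunits) (hY₁ : ι (j Y₀) ∉ W₁.nonunits)
    (hY₂ : ι (j Y₀) ∈ W₂.nonunits) (hX₂ : ι (j X₀) ∉ W₂.nonunits) :
    ∃ (X Y w' ϖ : B), ι ϖ = ϖ₁ ∧ w' ∉ 𝔫 ∧ w' * ϖ = X * Y ∧ ι X ∈ W₁.nonunits ∧
      ι Y ∈ W₂.nonunits ∧ X ∈ 𝔫 ∧ Y ∈ 𝔫 ∧ NodesLocGen 𝔫 {ϖ, X, Y} ∧
      ∀ Φ : F →+* F, (∀ z : B, ∃ z' : B, Φ (ι z) = ι z') →
        (∀ k : K, Φ (algebraMap K F k) = algebraMap K F k) → (∀ t ∈ S, Φ t = t) →
        ∀ (α β : R₀) (hα : IsUnit α) (hβ : IsUnit β), Φ ϖ₁ = algebraMap R₀ F α * ϖ₁ →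
          Φ y = algebraMap R₀ F β * y →
          (Φ (ι X) = ι (j ((hα.unit * hβ.unit ^ (-a) : R₀ˣ) : R₀)) * ι X ∧
            Φ (ι Y) = ι (j ((hβ.unit ^ a : R₀ˣ) : R₀)) * ι Y) ∧
          ∀ z : B, ∃ c ∈ 𝔫, Φ (ι z) = ι z + ι c := by
  classical
  have hd0 : d ≠ 0 := h.d_ne_zero
  have hdpos : 0 < d := Nat.pos_of_ne_zero hd0
  -- the étale stage
  haveI hfd : FiniteDimensional K (rtk6c4K K S) := h.finiteDimensional
  haveI : IsIntegrallyClosed (rtk6c4R R₀ K S) :=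
    integralClosure.isIntegrallyClosedOfFiniteExtension K
  haveI : IsFractionRing (rtk6c4R R₀ K S) (rtk6c4K K S) :=
    integralClosure.isFractionRing_of_finite_extension K (rtk6c4K K S)
  haveI : IsNoetherianRing (rtk6c4R R₀ K S) :=
    IsIntegralClosure.isNoetherianRing R₀ K (rtk6c4K K S) (rtk6c4R R₀ K S)
  set j' : rtk6c4R R₀ K S →+* B := rtk6c4J (K := K) ι h.hι h.hcl S with hj'
  have hj'ι : ∀ x : rtk6c4R R₀ K S, ι (j' x) = ((x : rtk6c4K K S) : F) :=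
    rtk6c4J_spec (K := K) ι h.hι h.hcl S
  have hj'j : ∀ r : R₀, j' (algebraMap R₀ (rtk6c4R R₀ K S) r) = j r :=
    rtk6c4J_algebraMap (K := K) ι h.hι h.hcl S j h.hjι
  have hcoe : ∀ r : R₀, ((algebraMap R₀ (rtk6c4K K S) r : rtk6c4K K S) : F) = algebraMap R₀ F r :=
    fun r => (IsScalarTower.algebraMap_apply R₀ (rtk6c4K K S) F r).symm
  set 𝔫' : Ideal (rtk6c4R R₀ K S) := 𝔫.comap j' with h𝔫'
  haveI h𝔫'p : 𝔫'.IsPrime := Ideal.comap_isPrime _ _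
  haveI h𝔫₀ : (𝔫.comap j).IsMaximal :=
    Ideal.isMaximal_comap_of_isIntegral_of_isMaximal' j h.j_isIntegral 𝔫
  have hlie0 : 𝔫'.comap (algebraMap R₀ (rtk6c4R R₀ K S)) = 𝔫.comap j := by
    ext r
    rw [Ideal.mem_comap, Ideal.mem_comap, Ideal.mem_comap, hj'j]
  have hmem' : ∀ r : R₀, algebraMap R₀ (rtk6c4R R₀ K S) r ∈ 𝔫' ↔ j r ∈ 𝔫 := fun r => by
    rw [h𝔫', Ideal.mem_comap, hj'j]
  -- ET-multi
  have hET := rtk6etm_locGen_of_span (R := R₀) (K := K) (L := rtk6c4K K S)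
    (B := rtk6c4R R₀ K S) (𝔫.comap j) dS h.hdS {z : rtk6c4K K S | (z : F) ∈ S}
    (rtk6c4_finite_lift S h.hS)
    (by
      intro t ht
      obtain ⟨a', b', ha', hb', hab'⟩ := h.hSet (t : F) ht
      refine ⟨a', b', ha', hb', Subtype.ext ?_⟩
      show ((algebraMap R₀ (rtk6c4K K S) b' : rtk6c4K K S) : F) * (t : F) ^ dS =
        ((algebraMap R₀ (rtk6c4K K S) a' : rtk6c4K K S) : F)
      rw [hcoe, hcoe]
      exact hab')
    (rtk6c4_adjoin_lift S h.isIntegral_S) 𝔫' hlie0 {p, X₀, Y₀} h.hgen₀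
  set p' : rtk6c4R R₀ K S := algebraMap R₀ (rtk6c4R R₀ K S) p with hp'
  set X' : rtk6c4R R₀ K S := algebraMap R₀ (rtk6c4R R₀ K S) X₀ with hX'
  set Y' : rtk6c4R R₀ K S := algebraMap R₀ (rtk6c4R R₀ K S) Y₀ with hY'
  set w₀ : rtk6c4R R₀ K S := algebraMap R₀ (rtk6c4R R₀ K S) w with hw₀
  have hgen' : NodesLocGen 𝔫' {p', X', Y'} := by
    intro x hx
    obtain ⟨u, hu, hux⟩ := hET x hx
    refine ⟨u, hu, ?_⟩
    rw [Set.image_insert_eq, Set.image_insert_eq, Set.image_singleton] at hux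
    exact hux
  have hw' : w₀ ∉ 𝔫' := fun hh => h.hw ((hmem' w).1 hh)
  have hXY' : w₀ * p' = X' * Y' := by
    rw [hw₀, hp', hX', hY', ← map_mul, ← map_mul, h.hXY]
  have hX'm : X' ∈ 𝔫' := (hmem' X₀).2 h.hX₀
  have hY'm : Y' ∈ 𝔫' := (hmem' Y₀).2 h.hY₀
  -- the local ring `O′`
  have hinj' : Function.Injective (algebraMap (rtk6c4R R₀ K S) (rtk6c4K K S)) :=
    Subtype.val_injective
  haveI : IsLocalRing (ls_localSubring (F := rtk6c4K K S) 𝔫') :=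
    ls_localSubring_isLocalRing hinj' 𝔫'
  haveI : IsNoetherianRing (ls_localSubring (F := rtk6c4K K S) 𝔫') :=
    s36n2p_isNoetherianRing hinj' 𝔫'
  haveI : IsFractionRing (ls_localSubring (F := rtk6c4K K S) 𝔫') (rtk6c4K K S) :=
    rtk6gls_isFractionRing (K := rtk6c4K K S) 𝔫'
  have hm := rtk6lfp_cross_max hinj' 𝔫' p' hw' hXY' hX'm hY'm hgen'
  -- the two components on `K′`
  set V₁ : ValuationSubring (rtk6c4K K S) := W₁.comap (algebraMap (rtk6c4K K S) F) with hV₁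
  set V₂ : ValuationSubring (rtk6c4K K S) := W₂.comap (algebraMap (rtk6c4K K S) F) with hV₂
  have hιj' : ∀ r : R₀, ι (j r) = ((algebraMap R₀ (rtk6c4R R₀ K S) r : rtk6c4K K S) : F) :=
    fun r => by rw [← hj'j, hj'ι]
  have hBV₁ : ∀ z : rtk6c4R R₀ K S,
      algebraMap (rtk6c4R R₀ K S) (rtk6c4K K S) z ∈ V₁ := fun z => by
    show ((z : rtk6c4K K S) : F) ∈ W₁
    rw [← hj'ι]
    exact hBW₁ _
  have hBV₂ : ∀ z : rtk6c4R R₀ K S,
      algebraMap (rtk6c4R R₀ K S) (rtk6c4K K S) z ∈ V₂ := fun z => by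
    show ((z : rtk6c4K K S) : F) ∈ W₂
    rw [← hj'ι]
    exact hBW₂ _
  have hthrV₁ : ∀ z : rtk6c4R R₀ K S,
      algebraMap (rtk6c4R R₀ K S) (rtk6c4K K S) z ∈ V₁.nonunits → z ∈ 𝔫' := fun z hz => by
    rw [hV₁, rtk6c4_mem_comap_nonunits] at hz
    refine hthr₁ _ ?_
    rw [hj'ι]
    exact hz
  have hthrV₂ : ∀ z : rtk6c4R R₀ K S,
      algebraMap (rtk6c4R R₀ K S) (rtk6c4K K S) z ∈ V₂.nonunits → z ∈ 𝔫' := fun z hz => by
    rw [hV₂, rtk6c4_mem_comap_nonunits] at hz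
    refine hthr₂ _ ?_
    rw [hj'ι]
    exact hz
  have hOV₁ : ∀ o : ls_localSubring (F := rtk6c4K K S) 𝔫',
      algebraMap (ls_localSubring (F := rtk6c4K K S) 𝔫') (rtk6c4K K S) o ∈ V₁ := fun o =>
    stb_gc_le 𝔫' V₁ hBV₁ hthrV₁ o o.2
  have hOV₂ : ∀ o : ls_localSubring (F := rtk6c4K K S) 𝔫',
      algebraMap (ls_localSubring (F := rtk6c4K K S) 𝔫') (rtk6c4K K S) o ∈ V₂ := fun o =>
    stb_gc_le 𝔫' V₂ hBV₂ hthrV₂ o o.2
  set X₁ : ls_localSubring (F := rtk6c4K K S) 𝔫' := s36n2pToLoc (F := rtk6c4K K S) 𝔫' X'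
    with hX₁def
  set Y₁ : ls_localSubring (F := rtk6c4K K S) 𝔫' := s36n2pToLoc (F := rtk6c4K K S) 𝔫' Y'
    with hY₁def
  have hX₁F : (((X₁ : rtk6c4K K S)) : F) = ι (j X₀) := (hιj' X₀).symm
  have hY₁F : (((Y₁ : rtk6c4K K S)) : F) = ι (j Y₀) := (hιj' Y₀).symm
  have hX₁V₁ : ((X₁ : rtk6c4K K S)) ∈ V₁.nonunits := by
    rw [hV₁, rtk6c4_mem_comap_nonunits]
    show (((X₁ : rtk6c4K K S)) : F) ∈ W₁.nonunits
    rw [hX₁F]
    exact hX₁
  have hY₁V₁ : ((Y₁ : rtk6c4K K S)) ∉ V₁.nonunits := by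
    rw [hV₁, rtk6c4_mem_comap_nonunits]
    show (((Y₁ : rtk6c4K K S)) : F) ∉ W₁.nonunits
    rw [hY₁F]
    exact hY₁
  have hY₁V₂ : ((Y₁ : rtk6c4K K S)) ∈ V₂.nonunits := by
    rw [hV₂, rtk6c4_mem_comap_nonunits]
    show (((Y₁ : rtk6c4K K S)) : F) ∈ W₂.nonunits
    rw [hY₁F]
    exact hY₂
  have hX₁V₂ : ((X₁ : rtk6c4K K S)) ∉ V₂.nonunits := by
    rw [hV₂, rtk6c4_mem_comap_nonunits]
    show (((X₁ : rtk6c4K K S)) : F) ∉ W₂.nonunits
    rw [hX₁F]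
    exact hX₂
  have hX₁ne : X₁ ≠ 0 := by
    intro h0
    apply hX₁V₂
    rw [h0]
    exact V₂.nonunits.zero_mem
  have hY₁ne : Y₁ ≠ 0 := by
    intro h0
    apply hY₁V₁
    rw [h0]
    exact V₁.nonunits.zero_mem
  have hm' : IsLocalRing.maximalIdeal (ls_localSubring (F := rtk6c4K K S) 𝔫') =
      Ideal.span {Y₁, X₁} := by
    rw [hm, Set.pair_comm]
  have hX₁prime : Prime X₁ :=
    s36n2p_prime hinj' 𝔫' V₁ hBV₁ hthrV₁ X₁ hX₁ne hX₁V₁
      (fun o ho => rtk6glu_centre X₁ Y₁ hm V₁ hOV₁ hX₁V₁ hY₁V₁ o ho)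
  have hY₁prime : Prime Y₁ :=
    s36n2p_prime hinj' 𝔫' V₂ hBV₂ hthrV₂ Y₁ hY₁ne hY₁V₂
      (fun o ho => rtk6glu_centre Y₁ X₁ hm' V₂ hOV₂ hY₁V₂ hX₁V₂ o ho)
  have hYX : ¬ Y₁ ∣ X₁ := by
    rintro ⟨c, hc⟩
    apply hX₁V₂
    rw [hc]
    have := rtk6glu_mul_mem_nonunits V₂ (hOV₂ c) hY₁V₂
    rw [mul_comm] at this
    exact this
  -- (GEN) over `O′`
  have hinjRK : Function.Injective (algebraMap (rtk6c4R R₀ K S) (rtk6c4K K S)) := hinj'
  set w₁ : ls_localSubring (F := rtk6c4K K S) 𝔫' := s36n2pToLoc (F := rtk6c4K K S) 𝔫' w₀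
    with hw₁def
  set p₁ : ls_localSubring (F := rtk6c4K K S) 𝔫' := s36n2pToLoc (F := rtk6c4K K S) 𝔫' p'
    with hp₁def
  have hw₁u : IsUnit w₁ := rtk6gls_isUnit (K := rtk6c4K K S) hinjRK 𝔫' hw'
  have hXY₁ : w₁ * p₁ = X₁ * Y₁ := by
    have := congrArg (s36n2pToLoc (F := rtk6c4K K S) 𝔫') hXY'
    rwa [map_mul, map_mul] at this
  have he₁' : algebraMap R₀ (rtk6c4R R₀ K S) e₁ ∉ 𝔫' := fun hh => h.he₁ ((hmem' e₁).1 hh)
  have he₂' : algebraMap R₀ (rtk6c4R R₀ K S) e₂ ∉ 𝔫' := fun hh => h.he₂ ((hmem' e₂).1 hh)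
  have he₂K : algebraMap R₀ (rtk6c4K K S) e₂ ≠ 0 := by
    intro h0
    apply h.algebraMap_ne_zero h.he₂
    rw [← hcoe, h0]
    rfl
  have hεmem : algebraMap R₀ (rtk6c4K K S) e₁ / algebraMap R₀ (rtk6c4K K S) e₂ ∈
      ls_localSubring (F := rtk6c4K K S) 𝔫' := by
    refine ⟨algebraMap R₀ (rtk6c4R R₀ K S) e₁, algebraMap R₀ (rtk6c4R R₀ K S) e₂, he₂', ?_⟩
    rw [← IsScalarTower.algebraMap_apply R₀ (rtk6c4R R₀ K S) (rtk6c4K K S),
      ← IsScalarTower.algebraMap_apply R₀ (rtk6c4R R₀ K S) (rtk6c4K K S)]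
    field_simp
  set ε : ls_localSubring (F := rtk6c4K K S) 𝔫' :=
    ⟨algebraMap R₀ (rtk6c4K K S) e₁ / algebraMap R₀ (rtk6c4K K S) e₂, hεmem⟩ with hεdef
  have hεu : IsUnit ε := by
    refine ls_isUnit_of_not_mem hinj' 𝔫' ε (b := algebraMap R₀ (rtk6c4R R₀ K S) e₁)
      (s := algebraMap R₀ (rtk6c4R R₀ K S) e₂) he₁' he₂' ?_
    rw [← IsScalarTower.algebraMap_apply R₀ (rtk6c4R R₀ K S) (rtk6c4K K S),
      ← IsScalarTower.algebraMap_apply R₀ (rtk6c4R R₀ K S) (rtk6c4K K S)]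
    show algebraMap R₀ (rtk6c4K K S) e₂ *
      (algebraMap R₀ (rtk6c4K K S) e₁ / algebraMap R₀ (rtk6c4K K S) e₂) = _
    field_simp
  set ζ' : rtk6c4K K S := algebraMap (rtk6c4R R₀ K S) (rtk6c4K K S)
    (algebraMap R₀ (rtk6c4R R₀ K S) ζ) with hζ'def
  have hζ'F : ((ζ' : rtk6c4K K S) : F) = algebraMap R₀ F ζ := by
    rw [hζ'def, ← IsScalarTower.algebraMap_apply R₀ (rtk6c4R R₀ K S) (rtk6c4K K S), hcoe]
  have hζ'd : ζ' ^ d = 1 := by
    rw [hζ'def, ← map_pow, ← map_pow, h.hζ.pow_eq_one, map_one, map_one]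
  set γ' : rtk6c4K K S := algebraMap K (rtk6c4K K S) γ with hγ'def
  have hγ'0 : γ' ≠ 0 := (map_ne_zero _).2 h.hγ
  have hϖ' : ϖ₁ ^ d = algebraMap (rtk6c4K K S) F
      (((1 * p₁ : ls_localSubring (F := rtk6c4K K S) 𝔫') : rtk6c4K K S)) := by
    rw [one_mul, h.hϖ]
    show algebraMap R₀ F p = ((algebraMap R₀ (rtk6c4R R₀ K S) p : rtk6c4K K S) : F)
    rw [← hιj', h.hjι]
  have hyF : y ^ d = algebraMap (rtk6c4K K S) F
      ((ε : rtk6c4K K S) * (Y₁ : rtk6c4K K S) ^ n₀ * γ' ^ d) := by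
    have he₂F : algebraMap R₀ F e₂ ≠ 0 := h.algebraMap_ne_zero h.he₂
    have h1 : algebraMap (rtk6c4K K S) F (ε : rtk6c4K K S) =
        algebraMap R₀ F e₁ / algebraMap R₀ F e₂ := by
      show algebraMap (rtk6c4K K S) F
        (algebraMap R₀ (rtk6c4K K S) e₁ / algebraMap R₀ (rtk6c4K K S) e₂) = _
      rw [map_div₀, ← IsScalarTower.algebraMap_apply R₀ (rtk6c4K K S) F,
        ← IsScalarTower.algebraMap_apply R₀ (rtk6c4K K S) F]
    have h2 : algebraMap (rtk6c4K K S) F (Y₁ : rtk6c4K K S) = algebraMap R₀ F Y₀ := by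
      show (((Y₁ : rtk6c4K K S)) : F) = _
      rw [hY₁F, h.hjι]
    have h3 : algebraMap (rtk6c4K K S) F γ' = algebraMap K F γ := rfl
    rw [map_mul, map_mul, map_zpow₀, map_pow, h1, h2, h3, div_mul_eq_mul_div, div_mul_eq_mul_div,
      eq_div_iff he₂F, mul_comm]
    exact h.hy
  obtain ⟨ε₁, ε₂, x₂, y₂, s₁, s₂, hε₁, hε₂, hx, hy, hxy, hy₂def, hydef, h11, h12, h21, h22,
      hgen₂⟩ :=
    rtk6gen_cross (K := rtk6c4K K S) (L := F) (ls_localSubring (F := rtk6c4K K S) 𝔫') hdpos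
      hζ'd hw₁u isUnit_one hεu hXY₁ hY₁ne hϖ' hγ'0 hyF h.hab
      (rtk6c4Lift S σ h.hσS) (rtk6c4Lift S δ h.hδS)
      (by
        rw [rtk6c4Lift_apply, h.hσϖ, Algebra.smul_def]
        show _ = ((ζ' : rtk6c4K K S) : F) * ϖ₁
        rw [hζ'F])
      (by rw [rtk6c4Lift_apply, h.hσy])
      (by rw [rtk6c4Lift_apply, h.hδϖ])
      (by
        rw [rtk6c4Lift_apply, h.hδy, Algebra.smul_def, map_zpow₀]
        show _ = ((ζ' : rtk6c4K K S) : F) ^ n₀ * y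
        rw [hζ'F])
      (rtk6c4_adjoin_top S {ϖ₁, y} h.hgen)
  -- TKC over `O′`
  have hd' : ((d : ℕ) : rtk6c4R R₀ K S) ∉ 𝔫' := by
    intro hh
    apply h.hd
    rw [← hmem', map_natCast]
    exact hh
  have hζ'' : IsPrimitiveRoot (algebraMap R₀ (rtk6c4R R₀ K S) ζ) d :=
    h.hζ.map_of_injective (fun r r' hrr' => h.algebraMap_injective (by
      rw [← hcoe, ← hcoe]
      exact congrArg (fun z : rtk6c4R R₀ K S => ((z : rtk6c4K K S) : F)) hrr'))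
  obtain ⟨u₁, u₂, X, Y, hu₁, hu₂, hXι, hYι, hXm, hYm, hgenXY, -⟩ :=
    rtk6gls_cross (K := rtk6c4K K S) (L := F) (R := rtk6c4R R₀ K S) (B := B) 𝔫' hd' hζ''
      (Or.inl hX₁prime) (Or.inl ⟨hY₁prime, hYX⟩) hm hε₁ hε₂ hx hy s₁ s₂ h11 h12 h21 h22 hgen₂
      j' ι h.hι (rtk6c4J_hjι (K := K) ι h.hι h.hcl S) 𝔫 (fun u => Iff.rfl)
      (rtk6c4_isIntegralElem (K := K) ι h.hι h.hcl S h.hint)
      (rtk6c4_hcl (K := K) ι h.hι h.hcl S)
  obtain ⟨ϖ, hϖι⟩ := h.exists_unif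
  have hx₂W : x₂ ∈ W₁.nonunits := by
    apply rtk6c4_mem_nonunits_of_pow W₁ (d := d)
    rw [hx]
    show (((ε₁ * X₁ : ls_localSubring (F := rtk6c4K K S) 𝔫') : rtk6c4K K S) : F) ∈ W₁.nonunits
    rw [Subring.coe_mul]
    show ((ε₁ : rtk6c4K K S) : F) * ((X₁ : rtk6c4K K S) : F) ∈ W₁.nonunits
    refine rtk6glu_mul_mem_nonunits W₁ (hOV₁ ε₁) ?_
    rw [hX₁F]
    exact hX₁
  have hy₂W : y₂ ∈ W₂.nonunits := by
    apply rtk6c4_mem_nonunits_of_pow W₂ (d := d)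
    rw [hy]
    show (((ε₂ * Y₁ : ls_localSubring (F := rtk6c4K K S) 𝔫') : rtk6c4K K S) : F) ∈ W₂.nonunits
    rw [Subring.coe_mul]
    show ((ε₂ : rtk6c4K K S) : F) * ((Y₁ : rtk6c4K K S) : F) ∈ W₂.nonunits
    refine rtk6glu_mul_mem_nonunits W₂ (hOV₂ ε₂) ?_
    rw [hY₁F]
    exact hY₂
  refine ⟨X, Y, j' (u₁ * u₂), ϖ, hϖι, ?_, ?_, ?_, ?_, hXm, hYm, ?_, ?_⟩
  · rw [map_mul]
    exact fun hh => (h𝔫.isPrime.mem_or_mem hh).elim hu₁ hu₂
  · apply h.hι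
    simp only [map_mul]
    rw [hXι, hYι, hϖι, ← hxy]
    ring
  · rw [hXι]
    exact rtk6glu_mul_mem_nonunits W₁ (hBW₁ _) hx₂W
  · rw [hYι]
    exact rtk6glu_mul_mem_nonunits W₂ (hBW₂ _) hy₂W
  · exact hgenXY.mono (Set.subset_insert _ _)
  · -- C4+
    intro Φ hΦB hΦK hΦS α β hα hβ hΦϖ hΦy
    have hΦK' : ∀ x : rtk6c4K K S, Φ ((x : F)) = (x : F) := fun x =>
      rtk6c4_fix_adjoin_hom S Φ hΦK hΦS (x : F) x.2
    have hΦR : ∀ r : rtk6c4R R₀ K S, Φ (ι (j' r)) = ι (j' r) := fun r => by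
      rw [hj'ι]
      exact hΦK' _
    have hy₂0 : y₂ ≠ 0 := by
      intro h0
      have h1 : algebraMap (rtk6c4K K S) F
          (((ε₂ * Y₁ : ls_localSubring (F := rtk6c4K K S) 𝔫') : rtk6c4K K S)) = 0 := by
        rw [← hy, h0, zero_pow hd0]
      have h2 : ((ε₂ * Y₁ : ls_localSubring (F := rtk6c4K K S) 𝔫') : rtk6c4K K S) = 0 :=
        (map_eq_zero _).1 h1
      have h3 : ε₂ * Y₁ = 0 := Subtype.ext h2
      rcases mul_eq_zero.1 h3 with h4 | h4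
      · exact hε₂.ne_zero h4
      · exact hY₁ne h4
    have hβ0 : algebraMap R₀ F β ≠ 0 := by
      intro h0
      have : β = 0 := h.algebraMap_injective (by rw [h0, map_zero])
      exact hβ.ne_zero this
    have hΦy₂ : Φ y₂ = algebraMap R₀ F β ^ a * y₂ := by
      rw [hy₂def, map_div₀, map_zpow₀, map_zpow₀, map_div₀, hΦy]
      have e1 : Φ (algebraMap (rtk6c4K K S) F γ') = algebraMap (rtk6c4K K S) F γ' := hΦK' γ'
      have e2 : Φ (algebraMap (rtk6c4K K S) F (Y₁ : rtk6c4K K S)) =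
          algebraMap (rtk6c4K K S) F (Y₁ : rtk6c4K K S) := hΦK' _
      rw [e1, e2, mul_div_assoc, mul_zpow, mul_div_assoc]
    have hx₂eq : x₂ = ϖ₁ / y₂ := by
      rw [← hxy]
      field_simp
    have hΦx₂ : Φ x₂ = algebraMap R₀ F α * (algebraMap R₀ F β ^ a)⁻¹ * x₂ := by
      rw [hx₂eq, map_div₀, hΦϖ, hΦy₂]
      have : algebraMap R₀ F β ^ a ≠ 0 := zpow_ne_zero _ hβ0
      field_simp
    set a' : R₀ := ((hα.unit * hβ.unit ^ (-a) : R₀ˣ) : R₀) with ha'def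
    set b' : R₀ := ((hβ.unit ^ a : R₀ˣ) : R₀) with hb'def
    have ha'F : algebraMap R₀ F a' = algebraMap R₀ F α * (algebraMap R₀ F β ^ a)⁻¹ := by
      rw [ha'def, Units.val_mul, map_mul, rtk6c4_unit_zpow hβ (-a), zpow_neg, IsUnit.unit_spec]
    have hb'F : algebraMap R₀ F b' = algebraMap R₀ F β ^ a := rtk6c4_unit_zpow hβ a
    have hcoeR : ∀ r : R₀, algebraMap (rtk6c4K K S) F
        (algebraMap (rtk6c4R R₀ K S) (rtk6c4K K S) (algebraMap R₀ (rtk6c4R R₀ K S) r)) =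
        algebraMap R₀ F r := fun r => hcoe r
    have hΦx₂' : Φ x₂ = algebraMap (rtk6c4K K S) F
        (algebraMap (rtk6c4R R₀ K S) (rtk6c4K K S) (algebraMap R₀ (rtk6c4R R₀ K S) a')) * x₂ := by
      rw [hcoeR, ha'F]
      exact hΦx₂
    have hΦy₂' : Φ y₂ = algebraMap (rtk6c4K K S) F
        (algebraMap (rtk6c4R R₀ K S) (rtk6c4K K S) (algebraMap R₀ (rtk6c4R R₀ K S) b')) * y₂ := by
      rw [hcoeR, hb'F]
      exact hΦy₂
    refine ⟨⟨?_, ?_⟩, fun z => ?_⟩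
    · rw [hXι, map_mul, hΦR, hΦx₂, h.hjι, ha'F]
      ring
    · rw [hYι, map_mul, hΦR, hΦy₂, h.hjι, hb'F]
      ring
    · exact rtk6gf_ls_cong (K := rtk6c4K K S) (L := F) (R := rtk6c4R R₀ K S) (B := B) 𝔫' hd' hζ''
        (Or.inl hX₁prime) (Or.inl ⟨hY₁prime, hYX⟩) hm hε₁ hε₂ hx hy s₁ s₂ h11 h12 h21 h22 hgen₂
        j' ι h.hι (rtk6c4J_hjι (K := K) ι h.hι h.hcl S) 𝔫 (fun u => Iff.rfl)
        (rtk6c4_isIntegralElem (K := K) ι h.hι h.hcl S h.hint)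
        (rtk6c4_hcl (K := K) ι h.hι h.hcl S) Φ hΦB hΦR
        (rtk6gf_ls_integral (K := rtk6c4K K S) (L := F) 𝔫' (algebraMap R₀ (rtk6c4R R₀ K S) a'))
        (rtk6gf_ls_integral (K := rtk6c4K K S) (L := F) 𝔫' (algebraMap R₀ (rtk6c4R R₀ K S) b'))
        hΦx₂' hΦy₂' z

/-- **C4-X, abstract: the crossing point of the top chart** (two exponents; the multipliers of
`X`, `Y` as units of `R₀`, without their explicit form). -/
theorem rtk6c4_crossE (h : Rtk6c4CrossE j ι 𝔫 d dS ζ p X₀ Y₀ w S ϖ₁ y γ e₁ e₂ n₀ a b σ δ)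
    [h𝔫 : 𝔫.IsMaximal]
    (W₁ W₂ : ValuationSubring F) (hBW₁ : ∀ z, ι z ∈ W₁) (hBW₂ : ∀ z, ι z ∈ W₂)
    (hthr₁ : ∀ z : B, ι z ∈ W₁.nonunits → z ∈ 𝔫) (hthr₂ : ∀ z : B, ι z ∈ W₂.nonunits → z ∈ 𝔫)
    (hX₁ : ι (j X₀) ∈ W₁.nonunits) (hY₁ : ι (j Y₀) ∉ W₁.nonunits)
    (hY₂ : ι (j Y₀) ∈ W₂.nonunits) (hX₂ : ι (j X₀) ∉ W₂.nonunits) :
    ∃ (X Y w' ϖ : B), ι ϖ = ϖ₁ ∧ w' ∉ 𝔫 ∧ w' * ϖ = X * Y ∧ ι X ∈ W₁.nonunits ∧
      ι Y ∈ W₂.nonunits ∧ X ∈ 𝔫 ∧ Y ∈ 𝔫 ∧ NodesLocGen 𝔫 {ϖ, X, Y} ∧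
      ∀ Φ : F →+* F, (∀ z : B, ∃ z' : B, Φ (ι z) = ι z') →
        (∀ k : K, Φ (algebraMap K F k) = algebraMap K F k) → (∀ t ∈ S, Φ t = t) →
        ∀ α β : R₀, IsUnit α → IsUnit β → Φ ϖ₁ = algebraMap R₀ F α * ϖ₁ →
          Φ y = algebraMap R₀ F β * y →
          (∃ a' b' : R₀, IsUnit a' ∧ IsUnit b' ∧ Φ (ι X) = ι (j a') * ι X ∧
            Φ (ι Y) = ι (j b') * ι Y) ∧
          ∀ z : B, ∃ c ∈ 𝔫, Φ (ι z) = ι z + ι c := by
  obtain ⟨X, Y, w', ϖ, hϖ, hw', hXY, hXW, hYW, hXm, hYm, hgen, hC⟩ :=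
    rtk6c4_crossE_ex h W₁ W₂ hBW₁ hBW₂ hthr₁ hthr₂ hX₁ hY₁ hY₂ hX₂
  refine ⟨X, Y, w', ϖ, hϖ, hw', hXY, hXW, hYW, hXm, hYm, hgen, ?_⟩
  intro Φ hΦB hΦK hΦS α β hα hβ hΦϖ hΦy
  obtain ⟨⟨hX', hY'⟩, hcong⟩ := hC Φ hΦB hΦK hΦS α β hα hβ hΦϖ hΦy
  exact ⟨⟨_, _, Units.isUnit _, Units.isUnit _, hX', hY'⟩, hcong⟩

/-! ### the case of ONE exponent (`dS = d`) -/

namespace Rtk6c4Cross

variable (h : Rtk6c4Cross j ι 𝔫 d ζ p X₀ Y₀ w S ϖ₁ y γ e₁ e₂ n₀ a b σ δ)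

include h

omit [CharZero K] [IsIntegrallyClosed R₀] [IsNoetherianRing R₀] in
theorem d_ne_zero : d ≠ 0 := h.toE.d_ne_zero

omit [CharZero K] [IsIntegrallyClosed R₀] [IsNoetherianRing R₀] in
theorem ne_zero_of_not_mem {r : R₀} (hr : j r ∉ 𝔫) : r ≠ 0 := h.toE.ne_zero_of_not_mem hr

omit [CharZero K] [IsIntegrallyClosed R₀] [IsNoetherianRing R₀] in
theorem algebraMap_injective : Function.Injective (algebraMap R₀ F) :=
  h.toE.algebraMap_injective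

omit [CharZero K] [IsIntegrallyClosed R₀] [IsNoetherianRing R₀] in
theorem algebraMap_ne_zero {r : R₀} (hr : j r ∉ 𝔫) : algebraMap R₀ F r ≠ 0 :=
  h.toE.algebraMap_ne_zero hr

omit [CharZero K] [IsIntegrallyClosed R₀] [IsNoetherianRing R₀] in
theorem isIntegral_S : ∀ t ∈ S, IsIntegral K t := h.toE.isIntegral_S

omit [CharZero K] [IsIntegrallyClosed R₀] [IsNoetherianRing R₀] in
theorem finiteDimensional : FiniteDimensional K (rtk6c4K K S) := h.toE.finiteDimensional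

omit [CharZero K] [IsIntegrallyClosed R₀] [IsNoetherianRing R₀] in
theorem j_isIntegral : j.IsIntegral := h.toE.j_isIntegral

omit [CharZero K] [IsIntegrallyClosed R₀] [IsNoetherianRing R₀] in
theorem exists_unif : ∃ ϖ : B, ι ϖ = ϖ₁ := h.toE.exists_unif

end Rtk6c4Cross

/-- **C4-X, abstract: the crossing point of the top chart** (one exponent). -/
theorem rtk6c4_cross (h : Rtk6c4Cross j ι 𝔫 d ζ p X₀ Y₀ w S ϖ₁ y γ e₁ e₂ n₀ a b σ δ)
    [h𝔫 : 𝔫.IsMaximal]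
    (W₁ W₂ : ValuationSubring F) (hBW₁ : ∀ z, ι z ∈ W₁) (hBW₂ : ∀ z, ι z ∈ W₂)
    (hthr₁ : ∀ z : B, ι z ∈ W₁.nonunits → z ∈ 𝔫) (hthr₂ : ∀ z : B, ι z ∈ W₂.nonunits → z ∈ 𝔫)
    (hX₁ : ι (j X₀) ∈ W₁.nonunits) (hY₁ : ι (j Y₀) ∉ W₁.nonunits)
    (hY₂ : ι (j Y₀) ∈ W₂.nonunits) (hX₂ : ι (j X₀) ∉ W₂.nonunits) :
    ∃ (X Y w' ϖ : B), ι ϖ = ϖ₁ ∧ w' ∉ 𝔫 ∧ w' * ϖ = X * Y ∧ ι X ∈ W₁.nonunits ∧
      ι Y ∈ W₂.nonunits ∧ X ∈ 𝔫 ∧ Y ∈ 𝔫 ∧ NodesLocGen 𝔫 {ϖ, X, Y} ∧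
      ∀ Φ : F →+* F, (∀ z : B, ∃ z' : B, Φ (ι z) = ι z') →
        (∀ k : K, Φ (algebraMap K F k) = algebraMap K F k) → (∀ t ∈ S, Φ t = t) →
        ∀ α β : R₀, IsUnit α → IsUnit β → Φ ϖ₁ = algebraMap R₀ F α * ϖ₁ →
          Φ y = algebraMap R₀ F β * y →
          (∃ a' b' : R₀, IsUnit a' ∧ IsUnit b' ∧ Φ (ι X) = ι (j a') * ι X ∧
            Φ (ι Y) = ι (j b') * ι Y) ∧
          ∀ z : B, ∃ c ∈ 𝔫, Φ (ι z) = ι z + ι c :=
  rtk6c4_crossE h.toE W₁ W₂ hBW₁ hBW₂ hthr₁ hthr₂ hX₁ hY₁ hY₂ hX₂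

end Cross

end Fermat.Agent.RT.K6


end ZBRT_093_2

/-! ### bundled: `Fermat.Agent.RT.K6.C4X` -/
section ZBRT_093_3
/-
K-machine, piece K6, piece C4-X (helper94), part 4: **the crossing point on a chart
`B = zchClosure {u}`** (typed form of `rtk6c4_cross`, `C4Cross.lean`).

`A₀` the (thin, ramified) base with uniformizer `π` (`= ϖ₁`), `F` the top field, `B_u` its chart,
`𝔫 : AtPt π u` a closed point over a thin crossing point of the base chart `R₀` (of the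
`Γ₀`-field `K` over the UNRAMIFIED base): `Rtk6c4Cross j ι 𝔫 … (algebraMap A₀ F π) …`.

* `rtk6c4x_crossAt` : `Rtk6ewmCrossAt W₁ W₂ 𝔫 (RingHom.id _) π X Y w′` (the crossing alternative of
  `Rtk6ewmNodeAt`, `EWMulti.lean`) together with C4+: for every semilinear automorphism `g` with
  `g • u = u`, preserving `A₀`, fixing `K` and the étale generators, `g • π = α π`, `g • y = β y`
  (`α, β` units of `R₀`):  `Rtk6ewFix g 𝔫`, `Rtk6ewCong g 1 𝔫`, `g • X = a′ X`, `g • Y = b′ Y`.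
-/

set_option autoImplicit false
set_option linter.style.haveILetI false
set_option linter.unusedSectionVars false
set_option linter.unusedVariables false

namespace Fermat.Agent.RT.K6

open Polynomial IntermediateField Fermat.Agent.INJ AlgebraicCurve Fermat.Agent.UNIP
  Fermat.Agent.STB

section C4X

universe u

variable {A₀ E : Type*} {F : Type u} [CommRing A₀] [IsDomain A₀] [IsDiscreteValuationRing A₀]
  [Field E] [Algebra A₀ E] [IsFractionRing A₀ E] [CharZero E]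
  [Field F] [Algebra E F] [Algebra A₀ F] [IsScalarTower A₀ E F]
  {π : A₀}
  {K R₀ : Type u} [Field K] [CharZero K] [Algebra K F] [CommRing R₀] [IsDomain R₀]
  [IsIntegrallyClosed R₀] [IsNoetherianRing R₀] [Algebra R₀ K] [IsFractionRing R₀ K]
  [Algebra R₀ F] [IsScalarTower R₀ K F]

omit [CharZero K] [IsDomain R₀] [IsIntegrallyClosed R₀] [IsNoetherianRing R₀]
  [IsFractionRing R₀ K] in
/-- a semilinear automorphism fixing `K` fixes the image of `R₀` -/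
theorem rtk6c4x_fix_R (g : SemilinearAut E F)
    (hgK : ∀ k : K, g • algebraMap K F k = algebraMap K F k) (r : R₀) :
    g • algebraMap R₀ F r = algebraMap R₀ F r := by
  rw [IsScalarTower.algebraMap_apply R₀ K F]
  exact hgK _

/-- **C4-X on the chart** (two exponents, explicit multipliers of `X`, `Y`). -/
theorem rtk6c4x_crossAtE_ex {u : F} (𝔫 : AtPt (F := F) π u)
    (j : R₀ →+* ↥(zchClosure (A₀ := A₀) ({u} : Set F)))
    (ι : ↥(zchClosure (A₀ := A₀) ({u} : Set F)) →+* F) (hιv : ∀ b, ι b = (b : F))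
    {d dS : ℕ} {ζ p X₀ Y₀ w : R₀} {S : Set F} {y : F} {γ : K} {e₁ e₂ : R₀} {n₀ a b : ℤ}
    {σ δ : F ≃ₐ[K] F}
    (h : Rtk6c4CrossE j ι 𝔫.1 d dS ζ p X₀ Y₀ w S (algebraMap A₀ F π) y γ e₁ e₂ n₀ a b σ δ)
    (W₁ W₂ : ValuationSubring F)
    (hBW₁ : ∀ z : F, IsIntegral ↥(Algebra.adjoin A₀ {u}) z → z ∈ W₁)
    (hBW₂ : ∀ z : F, IsIntegral ↥(Algebra.adjoin A₀ {u}) z → z ∈ W₂)
    (hthr₁ : atThrough 𝔫 W₁) (hthr₂ : atThrough 𝔫 W₂)
    (hX₁ : ((j X₀ : ↥(zchClosure (A₀ := A₀) ({u} : Set F))) : F) ∈ W₁.nonunits)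
    (hY₁ : ((j Y₀ : ↥(zchClosure (A₀ := A₀) ({u} : Set F))) : F) ∉ W₁.nonunits)
    (hY₂ : ((j Y₀ : ↥(zchClosure (A₀ := A₀) ({u} : Set F))) : F) ∈ W₂.nonunits)
    (hX₂ : ((j X₀ : ↥(zchClosure (A₀ := A₀) ({u} : Set F))) : F) ∉ W₂.nonunits) :
    ∃ X Y w' : ↥(zchClosure (A₀ := A₀) ({u} : Set F)),
      Rtk6ewmCrossAt W₁ W₂ 𝔫 (RingHom.id _)
        (algebraMap A₀ ↥(zchClosure (A₀ := A₀) ({u} : Set F)) π) X Y w' ∧
      ∀ g : SemilinearAut E F, g • u = u →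
        (∀ α : A₀, ∃ α' : A₀, g • algebraMap A₀ F α = algebraMap A₀ F α') →
        (∀ α : A₀, ∃ α' : A₀, g⁻¹ • algebraMap A₀ F α = algebraMap A₀ F α') →
        (∀ k : K, g • algebraMap K F k = algebraMap K F k) → (∀ t ∈ S, g • t = t) →
        ∀ (α β : R₀) (hα : IsUnit α) (hβ : IsUnit β),
          g • algebraMap A₀ F π = algebraMap R₀ F α * algebraMap A₀ F π →
          g • y = algebraMap R₀ F β * y →
          Rtk6ewFix g 𝔫 ∧ Rtk6ewCong (SemilinearAut.toRingAut g : F ≃+* F).toRingHom 1 𝔫 ∧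
            g • (X : F) = ((j ((hα.unit * hβ.unit ^ (-a) : R₀ˣ) : R₀) :
              ↥(zchClosure (A₀ := A₀) ({u} : Set F))) : F) * (X : F) ∧
            g • (Y : F) = ((j ((hβ.unit ^ a : R₀ˣ) : R₀) :
              ↥(zchClosure (A₀ := A₀) ({u} : Set F))) : F) * (Y : F) := by
  haveI : 𝔫.1.IsMaximal := 𝔫.2.1
  obtain ⟨X, Y, w', ϖ, hϖ, hw', hXY, hXW, hYW, hXm, hYm, hgen, hC⟩ :=
    rtk6c4_crossE_ex h W₁ W₂ (fun z => by rw [hιv]; exact hBW₁ _ z.2)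
      (fun z => by rw [hιv]; exact hBW₂ _ z.2)
      (fun z hz => hthr₁ z (by rw [← hιv]; exact hz))
      (fun z hz => hthr₂ z (by rw [← hιv]; exact hz))
      (by rw [hιv]; exact hX₁) (by rw [hιv]; exact hY₁) (by rw [hιv]; exact hY₂)
      (by rw [hιv]; exact hX₂)
  have hϖeq : ϖ = algebraMap A₀ ↥(zchClosure (A₀ := A₀) ({u} : Set F)) π := by
    apply Subtype.ext
    rw [← hιv, hϖ]
    rfl
  subst hϖeq
  refine ⟨X, Y, w', ⟨fun x hx => hthr₁ x hx, fun x hx => hthr₂ x hx, ?_, ?_, hw', ?_, ?_⟩, ?_⟩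
  · show ((X : ↥(zchClosure (A₀ := A₀) ({u} : Set F))) : F) ∈ W₁.nonunits
    rw [← hιv]
    exact hXW
  · show ((Y : ↥(zchClosure (A₀ := A₀) ({u} : Set F))) : F) ∈ W₂.nonunits
    rw [← hιv]
    exact hYW
  · exact hXY
  · rw [Ideal.comap_id]
    exact hgen
  · intro g hgu hgA hgA' hgK hgS α β hα hβ hgϖ hgy
    have hαF : algebraMap R₀ F α ≠ 0 := fun h0 =>
      hα.ne_zero (h.algebraMap_injective (by rw [h0, map_zero]))
    have hβF : algebraMap R₀ F β ≠ 0 := fun h0 =>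
      hβ.ne_zero (h.algebraMap_injective (by rw [h0, map_zero]))
    have hinvα : algebraMap R₀ F ((hα.unit⁻¹ : R₀ˣ) : R₀) = (algebraMap R₀ F α)⁻¹ := by
      have := rtk6c4_unit_zpow (F := F) hα (-1)
      rwa [zpow_neg, zpow_one, zpow_neg, zpow_one] at this
    have hinvβ : algebraMap R₀ F ((hβ.unit⁻¹ : R₀ˣ) : R₀) = (algebraMap R₀ F β)⁻¹ := by
      have := rtk6c4_unit_zpow (F := F) hβ (-1)
      rwa [zpow_neg, zpow_one, zpow_neg, zpow_one] at this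
    -- `g`
    obtain ⟨⟨hgX, hgY⟩, hcong⟩ :=
      hC (SemilinearAut.toRingAut g : F ≃+* F).toRingHom
        (fun z => by
          obtain ⟨z', hz'⟩ := rtk6gf_ew_preserves g hgu hgA z
          exact ⟨z', by rw [hιv, hιv]; exact hz'⟩)
        hgK hgS α β hα hβ hgϖ hgy
    -- `g⁻¹`
    obtain ⟨-, hcong'⟩ :=
      hC (SemilinearAut.toRingAut g⁻¹ : F ≃+* F).toRingHom
        (fun z => by
          obtain ⟨z', hz'⟩ := rtk6gf_ew_preserves g⁻¹ (rtk6gf_inv_smul_of_smul g hgu) hgA' z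
          exact ⟨z', by rw [hιv, hιv]; exact hz'⟩)
        (fun k => rtk6gf_inv_smul_of_smul g (hgK k))
        (fun t ht => rtk6gf_inv_smul_of_smul g (hgS t ht))
        ((hα.unit⁻¹ : R₀ˣ) : R₀) ((hβ.unit⁻¹ : R₀ˣ) : R₀) (Units.isUnit _) (Units.isUnit _)
        (by
          rw [hinvα]
          exact rtk6gf_inv_smul_of_mul g (rtk6c4x_fix_R g hgK α) hgϖ hαF)
        (by
          rw [hinvβ]
          exact rtk6gf_inv_smul_of_mul g (rtk6c4x_fix_R g hgK β) hgy hβF)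
    refine ⟨⟨fun z hz => ?_, fun z hz => ?_⟩, fun z => ?_, ?_, ?_⟩
    · obtain ⟨c, hc, hzc⟩ := hcong z
      refine ⟨z + c, 𝔫.1.add_mem hz hc, ?_⟩
      rw [hιv, hιv] at hzc
      exact hzc
    · obtain ⟨c, hc, hzc⟩ := hcong' z
      refine ⟨z + c, 𝔫.1.add_mem hz hc, ?_⟩
      rw [hιv, hιv] at hzc
      exact hzc
    · obtain ⟨c, hc, hzc⟩ := hcong z
      refine ⟨c, hc, ?_⟩
      rw [hιv, hιv] at hzc
      rw [pow_one]
      exact hzc
    · rw [hιv, hιv] at hgX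
      exact hgX
    · rw [hιv, hιv] at hgY
      exact hgY

/-- **C4-X on the chart** (two exponents). -/
theorem rtk6c4x_crossAtE {u : F} (𝔫 : AtPt (F := F) π u)
    (j : R₀ →+* ↥(zchClosure (A₀ := A₀) ({u} : Set F)))
    (ι : ↥(zchClosure (A₀ := A₀) ({u} : Set F)) →+* F) (hιv : ∀ b, ι b = (b : F))
    {d dS : ℕ} {ζ p X₀ Y₀ w : R₀} {S : Set F} {y : F} {γ : K} {e₁ e₂ : R₀} {n₀ a b : ℤ}
    {σ δ : F ≃ₐ[K] F}
    (h : Rtk6c4CrossE j ι 𝔫.1 d dS ζ p X₀ Y₀ w S (algebraMap A₀ F π) y γ e₁ e₂ n₀ a b σ δ)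
    (W₁ W₂ : ValuationSubring F)
    (hBW₁ : ∀ z : F, IsIntegral ↥(Algebra.adjoin A₀ {u}) z → z ∈ W₁)
    (hBW₂ : ∀ z : F, IsIntegral ↥(Algebra.adjoin A₀ {u}) z → z ∈ W₂)
    (hthr₁ : atThrough 𝔫 W₁) (hthr₂ : atThrough 𝔫 W₂)
    (hX₁ : ((j X₀ : ↥(zchClosure (A₀ := A₀) ({u} : Set F))) : F) ∈ W₁.nonunits)
    (hY₁ : ((j Y₀ : ↥(zchClosure (A₀ := A₀) ({u} : Set F))) : F) ∉ W₁.nonunits)
    (hY₂ : ((j Y₀ : ↥(zchClosure (A₀ := A₀) ({u} : Set F))) : F) ∈ W₂.nonunits)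
    (hX₂ : ((j X₀ : ↥(zchClosure (A₀ := A₀) ({u} : Set F))) : F) ∉ W₂.nonunits) :
    ∃ X Y w' : ↥(zchClosure (A₀ := A₀) ({u} : Set F)),
      Rtk6ewmCrossAt W₁ W₂ 𝔫 (RingHom.id _)
        (algebraMap A₀ ↥(zchClosure (A₀ := A₀) ({u} : Set F)) π) X Y w' ∧
      ∀ g : SemilinearAut E F, g • u = u →
        (∀ α : A₀, ∃ α' : A₀, g • algebraMap A₀ F α = algebraMap A₀ F α') →
        (∀ α : A₀, ∃ α' : A₀, g⁻¹ • algebraMap A₀ F α = algebraMap A₀ F α') →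
        (∀ k : K, g • algebraMap K F k = algebraMap K F k) → (∀ t ∈ S, g • t = t) →
        ∀ α β : R₀, IsUnit α → IsUnit β →
          g • algebraMap A₀ F π = algebraMap R₀ F α * algebraMap A₀ F π →
          g • y = algebraMap R₀ F β * y →
          Rtk6ewFix g 𝔫 ∧ Rtk6ewCong (SemilinearAut.toRingAut g : F ≃+* F).toRingHom 1 𝔫 ∧
          ∃ a' b' : R₀, IsUnit a' ∧ IsUnit b' ∧
            g • (X : F) = ((j a' : ↥(zchClosure (A₀ := A₀) ({u} : Set F))) : F) * (X : F) ∧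
            g • (Y : F) = ((j b' : ↥(zchClosure (A₀ := A₀) ({u} : Set F))) : F) * (Y : F) := by
  obtain ⟨X, Y, w', hcr, hC⟩ := rtk6c4x_crossAtE_ex (E := E) 𝔫 j ι hιv h W₁ W₂ hBW₁ hBW₂ hthr₁
    hthr₂ hX₁ hY₁ hY₂ hX₂
  refine ⟨X, Y, w', hcr, fun g hgu hgA hgA' hgK hgS α β hα hβ hgϖ hgy => ?_⟩
  obtain ⟨hfix, hcong, hgX, hgY⟩ := hC g hgu hgA hgA' hgK hgS α β hα hβ hgϖ hgy
  exact ⟨hfix, hcong, _, _, Units.isUnit _, Units.isUnit _, hgX, hgY⟩

/-- **C4-X on the chart** (one exponent). -/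
theorem rtk6c4x_crossAt {u : F} (𝔫 : AtPt (F := F) π u)
    (j : R₀ →+* ↥(zchClosure (A₀ := A₀) ({u} : Set F)))
    (ι : ↥(zchClosure (A₀ := A₀) ({u} : Set F)) →+* F) (hιv : ∀ b, ι b = (b : F))
    {d : ℕ} {ζ p X₀ Y₀ w : R₀} {S : Set F} {y : F} {γ : K} {e₁ e₂ : R₀} {n₀ a b : ℤ}
    {σ δ : F ≃ₐ[K] F}
    (h : Rtk6c4Cross j ι 𝔫.1 d ζ p X₀ Y₀ w S (algebraMap A₀ F π) y γ e₁ e₂ n₀ a b σ δ)
    (W₁ W₂ : ValuationSubring F)
    (hBW₁ : ∀ z : F, IsIntegral ↥(Algebra.adjoin A₀ {u}) z → z ∈ W₁)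
    (hBW₂ : ∀ z : F, IsIntegral ↥(Algebra.adjoin A₀ {u}) z → z ∈ W₂)
    (hthr₁ : atThrough 𝔫 W₁) (hthr₂ : atThrough 𝔫 W₂)
    (hX₁ : ((j X₀ : ↥(zchClosure (A₀ := A₀) ({u} : Set F))) : F) ∈ W₁.nonunits)
    (hY₁ : ((j Y₀ : ↥(zchClosure (A₀ := A₀) ({u} : Set F))) : F) ∉ W₁.nonunits)
    (hY₂ : ((j Y₀ : ↥(zchClosure (A₀ := A₀) ({u} : Set F))) : F) ∈ W₂.nonunits)
    (hX₂ : ((j X₀ : ↥(zchClosure (A₀ := A₀) ({u} : Set F))) : F) ∉ W₂.nonunits) :
    ∃ X Y w' : ↥(zchClosure (A₀ := A₀) ({u} : Set F)),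
      Rtk6ewmCrossAt W₁ W₂ 𝔫 (RingHom.id _)
        (algebraMap A₀ ↥(zchClosure (A₀ := A₀) ({u} : Set F)) π) X Y w' ∧
      ∀ g : SemilinearAut E F, g • u = u →
        (∀ α : A₀, ∃ α' : A₀, g • algebraMap A₀ F α = algebraMap A₀ F α') →
        (∀ α : A₀, ∃ α' : A₀, g⁻¹ • algebraMap A₀ F α = algebraMap A₀ F α') →
        (∀ k : K, g • algebraMap K F k = algebraMap K F k) → (∀ t ∈ S, g • t = t) →
        ∀ α β : R₀, IsUnit α → IsUnit β →
          g • algebraMap A₀ F π = algebraMap R₀ F α * algebraMap A₀ F π →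
          g • y = algebraMap R₀ F β * y →
          Rtk6ewFix g 𝔫 ∧ Rtk6ewCong (SemilinearAut.toRingAut g : F ≃+* F).toRingHom 1 𝔫 ∧
          ∃ a' b' : R₀, IsUnit a' ∧ IsUnit b' ∧
            g • (X : F) = ((j a' : ↥(zchClosure (A₀ := A₀) ({u} : Set F))) : F) * (X : F) ∧
            g • (Y : F) = ((j b' : ↥(zchClosure (A₀ := A₀) ({u} : Set F))) : F) * (Y : F) :=
  rtk6c4x_crossAtE 𝔫 j ι hιv h.toE W₁ W₂ hBW₁ hBW₂ hthr₁ hthr₂ hX₁ hY₁ hY₂ hX₂

end C4X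

end Fermat.Agent.RT.K6


end ZBRT_093_3

/-! ### bundled: `Fermat.Agent.RT.K6.C4Asm` -/
section ZBRT_093_4
/-
K-machine, piece K6, piece C4-χ-ASM (helper94), abstract part: **the dichotomy with C4+ at a
closed point of the top chart** over the thin ramified base.

`A₀` the (thin, ramified) base with uniformizer `π` (`= ϖ₁`), `F` the top field, `B_u` its chart,
`V : κ → ValuationSubring F` the family of the vertical valuation rings, `𝒢` a set of semilinear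
automorphisms of `F` (the coefficientwise action of the inertia group and the diamonds at `r`).

* `Rtk6c4aPlusAt V 𝒢 𝔫` : the closed point `𝔫` is a smooth point `(π, s)`, or a THIN crossing point
  `(π, X, Y)`, `w π = X Y`, of two components `V c₁ ∋ X`, `V c₂ ∋ Y`, and every `g ∈ 𝒢` fixes `𝔫`,
  is the identity modulo `𝔫` and multiplies `X`, `Y` by units of the chart (C4+);
* `Rtk6c4aPlusAt.nodeAt` : `Rtk6ewmNodeAt V 𝔫 (RingHom.id _) π` (`EWMulti.lean`);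
* `Rtk6c4aPlusAt.mono`   : monotonicity in `𝒢`;
* `rtk6c4a_smooth`       : the smooth alternative;
* `rtk6c4a_cross`        : the crossing alternative from `Rtk6c4CrossE` (`C4Abs.lean`), the
  positions of `X₀`, `Y₀` with respect to two valuation rings `Vb₁`, `Vb₂` of the base field `K`,
  two components `c₁`, `c₂` through `𝔫` restricting to `Vb₁`, `Vb₂` (C4-THR), and the conditions on
  the elements of `𝒢`.
-/

set_option autoImplicit false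
set_option linter.style.haveILetI false
set_option linter.unusedSectionVars false
set_option linter.unusedVariables false

namespace Fermat.Agent.RT.K6

open Polynomial IntermediateField Fermat.Agent.INJ AlgebraicCurve Fermat.Agent.UNIP
  Fermat.Agent.STB

section C4Asm

universe u

variable {A₀ E : Type*} {F : Type u} [CommRing A₀] [IsDomain A₀] [IsDiscreteValuationRing A₀]
  [Field E] [Algebra A₀ E] [IsFractionRing A₀ E] [CharZero E]
  [Field F] [Algebra E F] [Algebra A₀ F] [IsScalarTower A₀ E F]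
  {π : A₀} {κ : Type*}

/-- **The dichotomy with C4+** at the closed point `𝔫` of the chart `u`: smooth point, or thin
crossing point of two components of the family on which every `g ∈ 𝒢` acts as in C4+
(FIX, CONG, EIGEN). -/
def Rtk6c4aPlusAt (V : κ → ValuationSubring F) (𝒢 : Set (SemilinearAut E F)) {u : F}
    (𝔫 : AtPt (F := F) π u) : Prop :=
  (∃ s : ↥(zchClosure (A₀ := A₀) ({u} : Set F)),
    (RingHom.id ↥(zchClosure (A₀ := A₀) ({u} : Set F))) s ∈ 𝔫.1 ∧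
    NodesLocGen (𝔫.1.comap (RingHom.id ↥(zchClosure (A₀ := A₀) ({u} : Set F))))
      {algebraMap A₀ ↥(zchClosure (A₀ := A₀) ({u} : Set F)) π, s}) ∨
  ∃ (c₁ c₂ : κ) (X Y w : ↥(zchClosure (A₀ := A₀) ({u} : Set F))),
    Rtk6ewmCrossAt (V c₁) (V c₂) 𝔫 (RingHom.id _)
      (algebraMap A₀ ↥(zchClosure (A₀ := A₀) ({u} : Set F)) π) X Y w ∧
    ∀ g ∈ 𝒢, Rtk6ewFix g 𝔫 ∧
      Rtk6ewCong (SemilinearAut.toRingAut g : F ≃+* F).toRingHom 1 𝔫 ∧
      ∃ a' b' : ↥(zchClosure (A₀ := A₀) ({u} : Set F)), IsUnit a' ∧ IsUnit b' ∧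
        g • (X : F) = (a' : F) * (X : F) ∧ g • (Y : F) = (b' : F) * (Y : F)

/-- C4+ contains the dichotomy (M3) -/
theorem Rtk6c4aPlusAt.nodeAt {V : κ → ValuationSubring F} {𝒢 : Set (SemilinearAut E F)} {u : F}
    {𝔫 : AtPt (F := F) π u} (h : Rtk6c4aPlusAt V 𝒢 𝔫) :
    Rtk6ewmNodeAt V 𝔫 (RingHom.id ↥(zchClosure (A₀ := A₀) ({u} : Set F)))
      (algebraMap A₀ ↥(zchClosure (A₀ := A₀) ({u} : Set F)) π) := by
  rcases h with h | ⟨c₁, c₂, X, Y, w, h, -⟩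
  · exact Or.inl h
  · exact Or.inr ⟨c₁, c₂, X, Y, w, h⟩

/-- monotonicity in the set of automorphisms -/
theorem Rtk6c4aPlusAt.mono {V : κ → ValuationSubring F} {𝒢 𝒢' : Set (SemilinearAut E F)}
    (h𝒢 : 𝒢' ⊆ 𝒢) {u : F} {𝔫 : AtPt (F := F) π u} (h : Rtk6c4aPlusAt V 𝒢 𝔫) :
    Rtk6c4aPlusAt V 𝒢' 𝔫 := by
  rcases h with h | ⟨c₁, c₂, X, Y, w, h, hg⟩
  · exact Or.inl h
  · exact Or.inr ⟨c₁, c₂, X, Y, w, h, fun g hgm => hg g (h𝒢 hgm)⟩

/-- the dichotomy for the empty set of automorphisms is the dichotomy (M3) -/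
theorem rtk6c4a_plusAt_empty_iff {V : κ → ValuationSubring F} {u : F}
    {𝔫 : AtPt (F := F) π u} :
    Rtk6c4aPlusAt V (∅ : Set (SemilinearAut E F)) 𝔫 ↔
      Rtk6ewmNodeAt V 𝔫 (RingHom.id ↥(zchClosure (A₀ := A₀) ({u} : Set F)))
        (algebraMap A₀ ↥(zchClosure (A₀ := A₀) ({u} : Set F)) π) := by
  constructor
  · exact fun h => h.nodeAt
  · rintro (h | ⟨c₁, c₂, X, Y, w, h⟩)
    · exact Or.inl h
    · exact Or.inr ⟨c₁, c₂, X, Y, w, h, fun g hgm => absurd hgm (Set.notMem_empty g)⟩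

/-- **The smooth alternative.** -/
theorem rtk6c4a_smooth (V : κ → ValuationSubring F) (𝒢 : Set (SemilinearAut E F)) {u : F}
    (𝔫 : AtPt (F := F) π u)
    (h : ∃ s : ↥(zchClosure (A₀ := A₀) ({u} : Set F)), s ∈ 𝔫.1 ∧
      NodesLocGen 𝔫.1 {algebraMap A₀ ↥(zchClosure (A₀ := A₀) ({u} : Set F)) π, s}) :
    Rtk6c4aPlusAt V 𝒢 𝔫 := by
  obtain ⟨s, hs, hgen⟩ := h
  refine Or.inl ⟨s, hs, ?_⟩
  rw [Ideal.comap_id]
  exact hgen

/-- the smooth alternative, from the dichotomy (M3) with the crossing alternative excluded -/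
theorem rtk6c4a_of_nodeAt_smooth (V : κ → ValuationSubring F) (𝒢 : Set (SemilinearAut E F))
    {u : F} (𝔫 : AtPt (F := F) π u)
    (h : ∃ s : ↥(zchClosure (A₀ := A₀) ({u} : Set F)),
      (RingHom.id ↥(zchClosure (A₀ := A₀) ({u} : Set F))) s ∈ 𝔫.1 ∧
      NodesLocGen (𝔫.1.comap (RingHom.id ↥(zchClosure (A₀ := A₀) ({u} : Set F))))
        {algebraMap A₀ ↥(zchClosure (A₀ := A₀) ({u} : Set F)) π, s}) :
    Rtk6c4aPlusAt V 𝒢 𝔫 := Or.inl h

/-- **FIX-X, thin half** (the hypothesis `hthin` of `RT/K6/FixX.lean`): smooth point, or `g`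
fixes `𝔫` and is the identity modulo `𝔫`. -/
theorem Rtk6c4aPlusAt.fixCong {V : κ → ValuationSubring F} {𝒢 : Set (SemilinearAut E F)} {u : F}
    {𝔫 : AtPt (F := F) π u} (h : Rtk6c4aPlusAt V 𝒢 𝔫) {g : SemilinearAut E F} (hg : g ∈ 𝒢) :
    (∃ s : ↥(zchClosure (A₀ := A₀) ({u} : Set F)), s ∈ 𝔫.1 ∧
      NodesLocGen 𝔫.1 {algebraMap A₀ ↥(zchClosure (A₀ := A₀) ({u} : Set F)) π, s}) ∨
    (Rtk6ewFix g 𝔫 ∧ Rtk6ewCong (SemilinearAut.toRingAut g : F ≃+* F).toRingHom 1 𝔫) := by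
  rcases h with ⟨s, hs, hgen⟩ | ⟨c₁, c₂, X, Y, w, -, hC⟩
  · refine Or.inl ⟨s, hs, ?_⟩
    rw [Ideal.comap_id] at hgen
    exact hgen
  · exact Or.inr ⟨(hC g hg).1, (hC g hg).2.1⟩

/-- **HSTAB, thin EIGEN** (the shape of `Rtk6hsThinAt`, `RT/K6/HStabThin.lean`, on the chart
itself): smooth point, or thin crossing datum `(π, X, Y)` on which every `g ∈ 𝒢` acts by
multiplication by elements of the chart. -/
theorem Rtk6c4aPlusAt.eigen {V : κ → ValuationSubring F} {𝒢 : Set (SemilinearAut E F)} {u : F}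
    {𝔫 : AtPt (F := F) π u} (h : Rtk6c4aPlusAt V 𝒢 𝔫) :
    (∃ s : ↥(zchClosure (A₀ := A₀) ({u} : Set F)), s ∈ 𝔫.1 ∧
      NodesLocGen 𝔫.1 {algebraMap A₀ ↥(zchClosure (A₀ := A₀) ({u} : Set F)) π, s}) ∨
    ∃ X Y w : ↥(zchClosure (A₀ := A₀) ({u} : Set F)), w ∉ 𝔫.1 ∧
      w * algebraMap A₀ ↥(zchClosure (A₀ := A₀) ({u} : Set F)) π = X * Y ∧ X ∈ 𝔫.1 ∧ Y ∈ 𝔫.1 ∧
      NodesLocGen 𝔫.1 {algebraMap A₀ ↥(zchClosure (A₀ := A₀) ({u} : Set F)) π, X, Y} ∧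
      ∀ g ∈ 𝒢, (∃ a' : ↥(zchClosure (A₀ := A₀) ({u} : Set F)),
          g • (X : F) = (a' : F) * (X : F)) ∧
        ∃ b' : ↥(zchClosure (A₀ := A₀) ({u} : Set F)), g • (Y : F) = (b' : F) * (Y : F) := by
  rcases h with ⟨s, hs, hgen⟩ | ⟨c₁, c₂, X, Y, w, hcr, hC⟩
  · refine Or.inl ⟨s, hs, ?_⟩
    rw [Ideal.comap_id] at hgen
    exact hgen
  · obtain ⟨h₁, h₂, hX, hY, hw, hXY, hgen⟩ := hcr
    rw [Ideal.comap_id] at hgen
    refine Or.inr ⟨X, Y, w, hw, hXY, h₁ X hX, h₂ Y hY, hgen, fun g hg => ?_⟩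
    obtain ⟨-, -, a', b', -, -, hgX, hgY⟩ := hC g hg
    exact ⟨⟨a', hgX⟩, ⟨b', hgY⟩⟩

variable {K R₀ : Type u} [Field K] [CharZero K] [Algebra K F] [CommRing R₀] [IsDomain R₀]
  [IsIntegrallyClosed R₀] [IsNoetherianRing R₀] [Algebra R₀ K] [IsFractionRing R₀ K]
  [Algebra R₀ F] [IsScalarTower R₀ K F]

/-- **The conditions on an automorphism `g`** for C4+ at a crossing point with étale generators
`S` and ramified generator `y`: `g` fixes the coordinate, preserves the base, fixes `K` and `S`,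
and multiplies the uniformizer and `y` by units of `R₀`. -/
def Rtk6c4aAut (R₀ K : Type u) [Field K] [Algebra K F] [CommRing R₀] [Algebra R₀ F]
    (π : A₀) (u : F) (S : Set F) (y : F) (g : SemilinearAut E F) : Prop :=
  g • u = u ∧
  (∀ α : A₀, ∃ α' : A₀, g • algebraMap A₀ F α = algebraMap A₀ F α') ∧
  (∀ α : A₀, ∃ α' : A₀, g⁻¹ • algebraMap A₀ F α = algebraMap A₀ F α') ∧
  (∀ k : K, g • algebraMap K F k = algebraMap K F k) ∧ (∀ t ∈ S, g • t = t) ∧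
  ∃ α β : R₀, IsUnit α ∧ IsUnit β ∧
    g • algebraMap A₀ F π = algebraMap R₀ F α * algebraMap A₀ F π ∧
    g • y = algebraMap R₀ F β * y

omit [CharZero K] [IsDomain R₀] [IsIntegrallyClosed R₀] [IsNoetherianRing R₀] [Algebra R₀ K]
  [IsFractionRing R₀ K] [IsScalarTower R₀ K F] in
/-- the conditions on `g` are invariant under rescaling of the generators by elements of `K`:
if `g` satisfies them for `S₀`, `y₀`, then also for `y = k_y y₀` and every `S` whose elements are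
`K`-multiples of elements of `S₀`. -/
theorem Rtk6c4aAut.rescale {u : F} {S₀ S : Set F} {y₀ y : F} {g : SemilinearAut E F}
    (h : Rtk6c4aAut R₀ K π u S₀ y₀ g) (ky : K) (hy : y = algebraMap K F ky * y₀)
    (hS : ∀ t ∈ S, ∃ k : K, ∃ t₀ ∈ S₀, t = algebraMap K F k * t₀) :
    Rtk6c4aAut R₀ K π u S y g := by
  obtain ⟨hgu, hgA, hgA', hgK, hgS, α, β, hα, hβ, hgϖ, hgy⟩ := h
  refine ⟨hgu, hgA, hgA', hgK, fun t ht => ?_, α, β, hα, hβ, hgϖ, ?_⟩
  · obtain ⟨k, t₀, ht₀, rfl⟩ := hS t ht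
    rw [smul_mul', hgK, hgS t₀ ht₀]
  · rw [hy, smul_mul', hgK, hgy]
    ring

/-- **The crossing alternative, with C4+.** -/
theorem rtk6c4a_cross {u : F} (𝔫 : AtPt (F := F) π u)
    (j : R₀ →+* ↥(zchClosure (A₀ := A₀) ({u} : Set F)))
    (ι : ↥(zchClosure (A₀ := A₀) ({u} : Set F)) →+* F) (hιv : ∀ b, ι b = (b : F))
    {d dS : ℕ} {ζ p X₀ Y₀ w : R₀} {S : Set F} {y : F} {γ : K} {e₁ e₂ : R₀} {n₀ a b : ℤ}
    {σ δ : F ≃ₐ[K] F}
    (h : Rtk6c4CrossE j ι 𝔫.1 d dS ζ p X₀ Y₀ w S (algebraMap A₀ F π) y γ e₁ e₂ n₀ a b σ δ)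
    (V : κ → ValuationSubring F)
    (hBV : ∀ c (z : F), IsIntegral ↥(Algebra.adjoin A₀ {u}) z → z ∈ V c)
    (Vb₁ Vb₂ : ValuationSubring K)
    (hX₁ : algebraMap R₀ K X₀ ∈ Vb₁.nonunits) (hY₁ : algebraMap R₀ K Y₀ ∉ Vb₁.nonunits)
    (hY₂ : algebraMap R₀ K Y₀ ∈ Vb₂.nonunits) (hX₂ : algebraMap R₀ K X₀ ∉ Vb₂.nonunits)
    (c₁ c₂ : κ) (hthr₁ : atThrough 𝔫 (V c₁)) (hthr₂ : atThrough 𝔫 (V c₂))
    (hc₁ : ∀ x : K, algebraMap K F x ∈ (V c₁).nonunits ↔ x ∈ Vb₁.nonunits)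
    (hc₂ : ∀ x : K, algebraMap K F x ∈ (V c₂).nonunits ↔ x ∈ Vb₂.nonunits)
    (𝒢 : Set (SemilinearAut E F)) (h𝒢 : ∀ g ∈ 𝒢, Rtk6c4aAut R₀ K π u S y g) :
    Rtk6c4aPlusAt V 𝒢 𝔫 := by
  have hjF : ∀ x : R₀, ((j x : ↥(zchClosure (A₀ := A₀) ({u} : Set F))) : F) =
      algebraMap K F (algebraMap R₀ K x) := fun x => by
    rw [← hιv, h.hjι, IsScalarTower.algebraMap_apply R₀ K F]
  obtain ⟨X, Y, w', hcr, hC⟩ := rtk6c4x_crossAtE (E := E) 𝔫 j ι hιv h (V c₁) (V c₂) (hBV c₁)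
    (hBV c₂)
    hthr₁ hthr₂
    (by rw [hjF]; exact (hc₁ _).2 hX₁)
    (by rw [hjF]; exact fun hh => hY₁ ((hc₁ _).1 hh))
    (by rw [hjF]; exact (hc₂ _).2 hY₂)
    (by rw [hjF]; exact fun hh => hX₂ ((hc₂ _).1 hh))
  refine Or.inr ⟨c₁, c₂, X, Y, w', hcr, fun g hg => ?_⟩
  obtain ⟨hgu, hgA, hgA', hgK, hgS, α, β, hα, hβ, hgϖ, hgy⟩ := h𝒢 g hg
  obtain ⟨hfix, hcong, a', b', ha', hb', hgX, hgY⟩ :=
    hC g hgu hgA hgA' hgK hgS α β hα hβ hgϖ hgy
  exact ⟨hfix, hcong, j a', j b', ha'.map j, hb'.map j, hgX, hgY⟩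

end C4Asm

end Fermat.Agent.RT.K6


end ZBRT_093_4

/-! ### bundled: `Fermat.Agent.RT.K6.GenCrossAbs` -/
section ZBRT_093_5
/-
K-machine, piece K6, GEN-inst, half (G-cross), part 2a (helper54): **abstract chart transfer** for
the instance of helper94's `Rtk6c4Cross` (`C4Abs.lean`).

`g : A₀ →+* A₁` an integral ring homomorphism (the unramified base → the thin ramified base),
`K`, `F` fields, `[Algebra A₀ K] [Algebra A₁ F] [Algebra K F]` compatible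
(`algebraMap K F (algebraMap A₀ K a) = algebraMap A₁ F (g a)`), `u₀ : K`,
`R₀ = zchClosure (A₀ := A₀) {u₀} ⊆ K` (the base chart), `B = zchClosure (A₀ := A₁) {u} ⊆ F`
(the top chart, `u = algebraMap K F u₀`).

* `rtk6gxa_mem`    : `x ∈ R₀ → algebraMap K F x ∈ B`;
* `rtk6gxaJ`       : `j : R₀ →+* B`;  `rtk6gxaJ_coe`;
* `rtk6gxa_hint`   : every element of `B` is integral over `R₀`;
* `rtk6gxa_hcl`    : every element of `F` integral over `R₀` lies in `B`;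
* `rtk6gxaPt`      : the closed point `𝔫 ∩ R₀ : AtPt π u₀` under a closed point `𝔫 : AtPt ϖ u`
  (`ϖ ^ d = g π`);
* `rtk6gxa_crossE` : the same for the two-exponent structure `Rtk6c4CrossE`;
* `rtk6gxa_cross`  : **the structure `Rtk6c4Cross`** from the `R₀`-level data of the crossing point
  `𝔫 ∩ R₀` (the output of `rtk6gx_cross_J`, `GenCross.lean`) and the field-theoretic inputs
  ((G-et), (F1)–(F4)) in the shape of the fields of the structure.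
-/

set_option autoImplicit false
set_option linter.style.haveILetI false
set_option linter.unusedSectionVars false
set_option linter.unusedVariables false

noncomputable section

namespace Fermat.Agent.RT.K6

open Polynomial Fermat.Agent.INJ Fermat.Agent.UNIP Fermat.Agent.STB

section Gen

/-- integrality along a ring homomorphism of the bases -/
theorem rtk6gxa_isIntegral_of_hom {R S T : Type*} [CommRing R] [CommRing S] [CommRing T]
    [Algebra R T] [Algebra S T] (h : R →+* S)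
    (hh : ∀ r, algebraMap S T (h r) = algebraMap R T r) {x : T} (hx : IsIntegral R x) :
    IsIntegral S x := by
  obtain ⟨P, hP, hPx⟩ := hx
  refine ⟨P.map h, hP.map h, ?_⟩
  rw [eval₂_map]
  have e : (algebraMap S T).comp h = algebraMap R T := RingHom.ext hh
  rw [e]
  exact hPx

/-- integrality along a ring homomorphism of the bases and of the tops -/
theorem rtk6gxa_isIntegral_map {R S T T' : Type*} [CommRing R] [CommRing S] [CommRing T]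
    [CommRing T'] [Algebra R T] [Algebra S T'] (h : R →+* S) (φ : T →+* T')
    (hh : ∀ r, algebraMap S T' (h r) = φ (algebraMap R T r)) {x : T} (hx : IsIntegral R x) :
    IsIntegral S (φ x) := by
  obtain ⟨P, hP, hPx⟩ := hx
  refine ⟨P.map h, hP.map h, ?_⟩
  rw [eval₂_map]
  have e : (algebraMap S T').comp h = φ.comp (algebraMap R T) := RingHom.ext hh
  rw [e, ← hom_eval₂, hPx, map_zero]

end Gen

section Chart

variable {A₀ A₁ : Type*} [CommRing A₀] [CommRing A₁]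
  {K F : Type*} [Field K] [Field F] [Algebra A₀ K] [Algebra A₁ F] [Algebra K F]
  (g : A₀ →+* A₁)
  (hgφ : ∀ a, algebraMap K F (algebraMap A₀ K a) = algebraMap A₁ F (g a))
  {u₀ : K} {u : F} (hu : algebraMap K F u₀ = u)

include hgφ hu in
/-- `A₀[u₀]` maps into `A₁[u]` -/
theorem rtk6gxa_adjoin_mem {y : K} (hy : y ∈ Algebra.adjoin A₀ ({u₀} : Set K)) :
    algebraMap K F y ∈ Algebra.adjoin A₁ ({u} : Set F) := by
  induction hy using Algebra.adjoin_induction with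
  | mem s hs =>
    rw [Set.mem_singleton_iff.1 hs, hu]
    exact Algebra.subset_adjoin (Set.mem_singleton _)
  | algebraMap a =>
    rw [hgφ]
    exact Subalgebra.algebraMap_mem _ _
  | add s t _ _ hs ht =>
    rw [map_add]
    exact Subalgebra.add_mem _ hs ht
  | mul s t _ _ hs ht =>
    rw [map_mul]
    exact Subalgebra.mul_mem _ hs ht

/-- the restriction `A₀[u₀] → A₁[u]` -/
def rtk6gxaRes : ↥(Algebra.adjoin A₀ ({u₀} : Set K)) →+* ↥(Algebra.adjoin A₁ ({u} : Set F)) where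
  toFun y := ⟨algebraMap K F (y : K), rtk6gxa_adjoin_mem g hgφ hu y.2⟩
  map_one' := Subtype.ext (map_one _)
  map_mul' _ _ := Subtype.ext (map_mul _ _ _)
  map_zero' := Subtype.ext (map_zero _)
  map_add' _ _ := Subtype.ext (map_add _ _ _)

include hgφ hu in
/-- the base chart maps into the top chart -/
theorem rtk6gxa_mem {x : K} (hx : x ∈ zchClosure (A₀ := A₀) ({u₀} : Set K)) :
    algebraMap K F x ∈ zchClosure (A₀ := A₁) ({u} : Set F) := by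
  have hx' : IsIntegral ↥(Algebra.adjoin A₀ ({u₀} : Set K)) x := hx
  show IsIntegral ↥(Algebra.adjoin A₁ ({u} : Set F)) (algebraMap K F x)
  exact rtk6gxa_isIntegral_map (rtk6gxaRes g hgφ hu) (algebraMap K F) (fun r => rfl) hx'

/-- **`j : R₀ →+* B`** -/
def rtk6gxaJ : ↥(zchClosure (A₀ := A₀) ({u₀} : Set K)) →+*
    ↥(zchClosure (A₀ := A₁) ({u} : Set F)) where
  toFun x := ⟨algebraMap K F (x : K), rtk6gxa_mem g hgφ hu x.2⟩
  map_one' := Subtype.ext (map_one _)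
  map_mul' _ _ := Subtype.ext (map_mul _ _ _)
  map_zero' := Subtype.ext (map_zero _)
  map_add' _ _ := Subtype.ext (map_add _ _ _)

theorem rtk6gxaJ_coe (x : ↥(zchClosure (A₀ := A₀) ({u₀} : Set K))) :
    ((rtk6gxaJ g hgφ hu x : ↥(zchClosure (A₀ := A₁) ({u} : Set F))) : F) =
      algebraMap K F (x : K) := rfl

theorem rtk6gxaJ_algebraMap (a : A₀) :
    rtk6gxaJ g hgφ hu (algebraMap A₀ ↥(zchClosure (A₀ := A₀) ({u₀} : Set K)) a) =
      algebraMap A₁ ↥(zchClosure (A₀ := A₁) ({u} : Set F)) (g a) :=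
  Subtype.ext (hgφ a)

omit [Algebra A₁ F] in
theorem rtk6gxa_algebraMap_R (x : ↥(zchClosure (A₀ := A₀) ({u₀} : Set K))) :
    algebraMap ↥(zchClosure (A₀ := A₀) ({u₀} : Set K)) F x = algebraMap K F (x : K) := rfl

variable (u₀) in
/-- `u₀` as an element of the base chart -/
def rtk6gxaU : ↥(zchClosure (A₀ := A₀) ({u₀} : Set K)) :=
  ⟨u₀, isIntegral_algebraMap (R := ↥(Algebra.adjoin A₀ ({u₀} : Set K)))
    (x := ⟨u₀, Algebra.subset_adjoin (Set.mem_singleton _)⟩)⟩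

include hgφ hu in
/-- the elements of `A₁[u]` are integral over `R₀` -/
theorem rtk6gxa_adjoin_isIntegral (hg : g.IsIntegral) {y : F}
    (hy : y ∈ Algebra.adjoin A₁ ({u} : Set F)) :
    IsIntegral ↥(zchClosure (A₀ := A₀) ({u₀} : Set K)) y := by
  induction hy using Algebra.adjoin_induction with
  | mem s hs =>
    rw [Set.mem_singleton_iff.1 hs, ← hu]
    exact isIntegral_algebraMap (R := ↥(zchClosure (A₀ := A₀) ({u₀} : Set K)))
      (x := rtk6gxaU (A₀ := A₀) u₀)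
  | algebraMap a =>
    obtain ⟨P, hP, hPa⟩ := hg a
    refine ⟨P.map (algebraMap A₀ ↥(zchClosure (A₀ := A₀) ({u₀} : Set K))), hP.map _, ?_⟩
    rw [eval₂_map]
    have e : (algebraMap ↥(zchClosure (A₀ := A₀) ({u₀} : Set K)) F).comp
        (algebraMap A₀ ↥(zchClosure (A₀ := A₀) ({u₀} : Set K))) = (algebraMap A₁ F).comp g :=
      RingHom.ext fun a => hgφ a
    rw [e, ← hom_eval₂, hPa, map_zero]
  | add s t _ _ hs ht => exact hs.add ht
  | mul s t _ _ hs ht => exact hs.mul ht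

include hgφ hu in
/-- **hint**: every element of the top chart is integral over the base chart -/
theorem rtk6gxa_hint (hg : g.IsIntegral)
    (b : ↥(zchClosure (A₀ := A₁) ({u} : Set F))) :
    IsIntegral ↥(zchClosure (A₀ := A₀) ({u₀} : Set K)) (b : F) := by
  have hb : IsIntegral ↥(Algebra.adjoin A₁ ({u} : Set F)) (b : F) := b.2
  -- the coefficients lie in the integral closure of `R₀`
  let h : ↥(Algebra.adjoin A₁ ({u} : Set F)) →+*
      ↥(integralClosure ↥(zchClosure (A₀ := A₀) ({u₀} : Set K)) F) :=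
    { toFun := fun y => ⟨(y : F), rtk6gxa_adjoin_isIntegral g hgφ hu hg y.2⟩
      map_one' := rfl
      map_mul' := fun _ _ => rfl
      map_zero' := rfl
      map_add' := fun _ _ => rfl }
  have h1 : IsIntegral ↥(integralClosure ↥(zchClosure (A₀ := A₀) ({u₀} : Set K)) F) (b : F) :=
    rtk6gxa_isIntegral_of_hom h (fun r => rfl) hb
  exact isIntegral_trans (b : F) h1

include hgφ hu in
/-- **hcl**: every element of `F` integral over the base chart lies in the top chart -/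
theorem rtk6gxa_hcl {x : F} (hx : IsIntegral ↥(zchClosure (A₀ := A₀) ({u₀} : Set K)) x) :
    x ∈ zchClosure (A₀ := A₁) ({u} : Set F) := by
  let h : ↥(zchClosure (A₀ := A₀) ({u₀} : Set K)) →+*
      ↥(integralClosure ↥(Algebra.adjoin A₁ ({u} : Set F)) F) :=
    { toFun := fun y => ⟨algebraMap K F (y : K), rtk6gxa_mem g hgφ hu y.2⟩
      map_one' := Subtype.ext (map_one _)
      map_mul' := fun _ _ => Subtype.ext (map_mul _ _ _)
      map_zero' := Subtype.ext (map_zero _)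
      map_add' := fun _ _ => Subtype.ext (map_add _ _ _) }
  have h1 : IsIntegral ↥(integralClosure ↥(Algebra.adjoin A₁ ({u} : Set F)) F) x :=
    rtk6gxa_isIntegral_of_hom h (fun r => rfl) hx
  show IsIntegral ↥(Algebra.adjoin A₁ ({u} : Set F)) x
  exact isIntegral_trans x h1

include hgφ hu in
/-- `j` is integral -/
theorem rtk6gxaJ_isIntegral (hg : g.IsIntegral) : (rtk6gxaJ g hgφ hu).IsIntegral := by
  intro b
  obtain ⟨P, hP, hPb⟩ := rtk6gxa_hint g hgφ hu hg b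
  refine ⟨P, hP, Subtype.ext ?_⟩
  have e : (algebraMap ↥(zchClosure (A₀ := A₀) ({u₀} : Set K)) F) =
      (algebraMap ↥(zchClosure (A₀ := A₁) ({u} : Set F)) F).comp (rtk6gxaJ g hgφ hu) :=
    RingHom.ext fun x => rfl
  rw [e, ← eval₂_map] at hPb
  have h2 := hom_eval₂ (P.map (rtk6gxaJ g hgφ hu)) (RingHom.id _)
    (algebraMap ↥(zchClosure (A₀ := A₁) ({u} : Set F)) F) b
  rw [RingHom.comp_id, eval₂_id] at h2
  rw [← Polynomial.eval_map]
  exact h2.trans hPb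

end Chart

section Cross

universe v

variable {A₀ A₁ : Type*} [CommRing A₀] [CommRing A₁]
  {K F : Type v} [Field K] [Field F] [Algebra A₀ K] [Algebra A₁ F] [Algebra K F]
  (g : A₀ →+* A₁)
  (hgφ : ∀ a, algebraMap K F (algebraMap A₀ K a) = algebraMap A₁ F (g a))
  {u₀ : K} {u : F} (hu : algebraMap K F u₀ = u)
  {π : A₀} {ϖ : A₁} {d : ℕ}

/-- **the closed point `𝔫 ∩ R₀`** of the base chart under a closed point `𝔫` of the top chart -/
def rtk6gxaPt (hg : g.IsIntegral) (hd0 : d ≠ 0) (hϖd : ϖ ^ d = g π)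
    (𝔫 : AtPt (F := F) ϖ u) : AtPt (F := K) π u₀ :=
  ⟨𝔫.1.comap (rtk6gxaJ g hgφ hu), by
    haveI := 𝔫.2.1
    exact Ideal.isMaximal_comap_of_isIntegral_of_isMaximal' _ (rtk6gxaJ_isIntegral g hgφ hu hg) 𝔫.1,
    by
      rw [Ideal.mem_comap, rtk6gxaJ_algebraMap, ← hϖd, map_pow]
      exact Ideal.pow_mem_of_mem _ 𝔫.2.2 d (Nat.pos_of_ne_zero hd0)⟩

theorem rtk6gxaPt_val (hg : g.IsIntegral) (hd0 : d ≠ 0) (hϖd : ϖ ^ d = g π)
    (𝔫 : AtPt (F := F) ϖ u) :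
    (rtk6gxaPt g hgφ hu hg hd0 hϖd 𝔫).1 = 𝔫.1.comap (rtk6gxaJ g hgφ hu) := rfl

theorem rtk6gxa_mem_pt (hg : g.IsIntegral) (hd0 : d ≠ 0) (hϖd : ϖ ^ d = g π)
    (𝔫 : AtPt (F := F) ϖ u) (x : ↥(zchClosure (A₀ := A₀) ({u₀} : Set K))) :
    x ∈ (rtk6gxaPt g hgφ hu hg hd0 hϖd 𝔫).1 ↔ rtk6gxaJ g hgφ hu x ∈ 𝔫.1 := Iff.rfl

/-- **(G-cross), abstract: the structure `Rtk6c4Cross`** at a closed point `𝔫` of the top chart
over a thin crossing point `𝔫 ∩ R₀` of the base chart. -/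
theorem rtk6gxa_cross (hg : g.IsIntegral) (hd0 : d ≠ 0) (hϖd : ϖ ^ d = g π)
    (𝔫 : AtPt (F := F) ϖ u)
    (hdn : ((d : ℕ) : ↥(zchClosure (A₀ := A₁) ({u} : Set F))) ∉ 𝔫.1)
    {ζ : ↥(zchClosure (A₀ := A₀) ({u₀} : Set K))} (hζ : IsPrimitiveRoot ζ d)
    -- the `R₀`-level data of the crossing point (`rtk6gx_cross_J`)
    {X Y w e₁ e₂ : ↥(zchClosure (A₀ := A₀) ({u₀} : Set K))} {γ z : K} {n₀ : ℤ}
    (hw : w ∉ (rtk6gxaPt g hgφ hu hg hd0 hϖd 𝔫).1)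
    (hXY : w * algebraMap A₀ ↥(zchClosure (A₀ := A₀) ({u₀} : Set K)) π = X * Y)
    (hX : X ∈ (rtk6gxaPt g hgφ hu hg hd0 hϖd 𝔫).1)
    (hY : Y ∈ (rtk6gxaPt g hgφ hu hg hd0 hϖd 𝔫).1)
    (hgen₀ : NodesLocGen (rtk6gxaPt g hgφ hu hg hd0 hϖd 𝔫).1
      {algebraMap A₀ ↥(zchClosure (A₀ := A₀) ({u₀} : Set K)) π, X, Y})
    (he₁ : e₁ ∉ (rtk6gxaPt g hgφ hu hg hd0 hϖd 𝔫).1)
    (he₂ : e₂ ∉ (rtk6gxaPt g hgφ hu hg hd0 hϖd 𝔫).1) (hγ : γ ≠ 0)
    (hLF : (e₂ : K) * z = (e₁ : K) * (Y : K) ^ n₀ * γ ^ d)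
    -- the field-theoretic data
    {y : F} (hzy : algebraMap K F z = y ^ d) {a b : ℤ} (hab : a * n₀ - b * d = 1)
    {S : Set F} (hS : S.Finite)
    (hSet : ∀ t ∈ S, ∃ a b : ↥(zchClosure (A₀ := A₀) ({u₀} : Set K)),
      rtk6gxaJ g hgφ hu a ∉ 𝔫.1 ∧ rtk6gxaJ g hgφ hu b ∉ 𝔫.1 ∧
      algebraMap ↥(zchClosure (A₀ := A₀) ({u₀} : Set K)) F b * t ^ d =
        algebraMap ↥(zchClosure (A₀ := A₀) ({u₀} : Set K)) F a)
    (hgen : Algebra.adjoin K (S ∪ {algebraMap A₁ F ϖ, y}) = ⊤)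
    {σ δ : F ≃ₐ[K] F} (hσS : ∀ t ∈ S, σ t = t)
    (hσϖ : σ (algebraMap A₁ F ϖ) =
      algebraMap ↥(zchClosure (A₀ := A₀) ({u₀} : Set K)) F ζ * algebraMap A₁ F ϖ)
    (hσy : σ y = y) (hδS : ∀ t ∈ S, δ t = t)
    (hδϖ : δ (algebraMap A₁ F ϖ) = algebraMap A₁ F ϖ)
    (hδy : δ y = algebraMap ↥(zchClosure (A₀ := A₀) ({u₀} : Set K)) F ζ ^ n₀ * y) :
    Rtk6c4Cross (rtk6gxaJ g hgφ hu)
      (algebraMap ↥(zchClosure (A₀ := A₁) ({u} : Set F)) F) 𝔫.1 d ζ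
      (algebraMap A₀ ↥(zchClosure (A₀ := A₀) ({u₀} : Set K)) π) X Y w S
      (algebraMap A₁ F ϖ) y γ e₁ e₂ n₀ a b σ δ where
  hι := Subtype.val_injective
  hjι := fun r => rfl
  hint := fun b => rtk6gxa_hint g hgφ hu hg b
  hcl := fun x hx => ⟨⟨x, rtk6gxa_hcl g hgφ hu hx⟩, rfl⟩
  hd := by
    rw [map_natCast]
    exact hdn
  hζ := hζ
  hw := hw
  hXY := hXY
  hX₀ := hX
  hY₀ := hY
  hgen₀ := hgen₀
  hS := hS
  hSet := hSet
  hϖ := by
    rw [← map_pow, hϖd, ← hgφ]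
    rfl
  hγ := hγ
  he₁ := he₁
  he₂ := he₂
  hy := by
    have h := congrArg (algebraMap K F) hLF
    rw [map_mul, map_mul, map_mul, map_zpow₀, map_pow, hzy] at h
    exact h
  hab := hab
  hgen := hgen
  hσS := hσS
  hσϖ := hσϖ
  hσy := hσy
  hδS := hδS
  hδϖ := hδϖ
  hδy := hδy

/-- **(G-cross), abstract, two exponents: the structure `Rtk6c4CrossE`** at a closed point `𝔫` of
the top chart over a thin crossing point `𝔫 ∩ R₀` of the base chart (`dS` the exponent of the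
étale generators). -/
theorem rtk6gxa_crossE {dS : ℕ} (hg : g.IsIntegral) (hd0 : d ≠ 0) (hϖd : ϖ ^ d = g π)
    (𝔫 : AtPt (F := F) ϖ u)
    (hdn : ((d : ℕ) : ↥(zchClosure (A₀ := A₁) ({u} : Set F))) ∉ 𝔫.1)
    (hdSn : ((dS : ℕ) : ↥(zchClosure (A₀ := A₁) ({u} : Set F))) ∉ 𝔫.1)
    {ζ : ↥(zchClosure (A₀ := A₀) ({u₀} : Set K))} (hζ : IsPrimitiveRoot ζ d)
    -- the `R₀`-level data of the crossing point (`rtk6gx_cross_J`)
    {X Y w e₁ e₂ : ↥(zchClosure (A₀ := A₀) ({u₀} : Set K))} {γ z : K} {n₀ : ℤ}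
    (hw : w ∉ (rtk6gxaPt g hgφ hu hg hd0 hϖd 𝔫).1)
    (hXY : w * algebraMap A₀ ↥(zchClosure (A₀ := A₀) ({u₀} : Set K)) π = X * Y)
    (hX : X ∈ (rtk6gxaPt g hgφ hu hg hd0 hϖd 𝔫).1)
    (hY : Y ∈ (rtk6gxaPt g hgφ hu hg hd0 hϖd 𝔫).1)
    (hgen₀ : NodesLocGen (rtk6gxaPt g hgφ hu hg hd0 hϖd 𝔫).1
      {algebraMap A₀ ↥(zchClosure (A₀ := A₀) ({u₀} : Set K)) π, X, Y})
    (he₁ : e₁ ∉ (rtk6gxaPt g hgφ hu hg hd0 hϖd 𝔫).1)
    (he₂ : e₂ ∉ (rtk6gxaPt g hgφ hu hg hd0 hϖd 𝔫).1) (hγ : γ ≠ 0)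
    (hLF : (e₂ : K) * z = (e₁ : K) * (Y : K) ^ n₀ * γ ^ d)
    -- the field-theoretic data
    {y : F} (hzy : algebraMap K F z = y ^ d) {a b : ℤ} (hab : a * n₀ - b * d = 1)
    {S : Set F} (hS : S.Finite)
    (hSet : ∀ t ∈ S, ∃ a b : ↥(zchClosure (A₀ := A₀) ({u₀} : Set K)),
      rtk6gxaJ g hgφ hu a ∉ 𝔫.1 ∧ rtk6gxaJ g hgφ hu b ∉ 𝔫.1 ∧
      algebraMap ↥(zchClosure (A₀ := A₀) ({u₀} : Set K)) F b * t ^ dS =
        algebraMap ↥(zchClosure (A₀ := A₀) ({u₀} : Set K)) F a)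
    (hgen : Algebra.adjoin K (S ∪ {algebraMap A₁ F ϖ, y}) = ⊤)
    {σ δ : F ≃ₐ[K] F} (hσS : ∀ t ∈ S, σ t = t)
    (hσϖ : σ (algebraMap A₁ F ϖ) =
      algebraMap ↥(zchClosure (A₀ := A₀) ({u₀} : Set K)) F ζ * algebraMap A₁ F ϖ)
    (hσy : σ y = y) (hδS : ∀ t ∈ S, δ t = t)
    (hδϖ : δ (algebraMap A₁ F ϖ) = algebraMap A₁ F ϖ)
    (hδy : δ y = algebraMap ↥(zchClosure (A₀ := A₀) ({u₀} : Set K)) F ζ ^ n₀ * y) :
    Rtk6c4CrossE (rtk6gxaJ g hgφ hu)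
      (algebraMap ↥(zchClosure (A₀ := A₁) ({u} : Set F)) F) 𝔫.1 d dS ζ
      (algebraMap A₀ ↥(zchClosure (A₀ := A₀) ({u₀} : Set K)) π) X Y w S
      (algebraMap A₁ F ϖ) y γ e₁ e₂ n₀ a b σ δ where
  hι := Subtype.val_injective
  hjι := fun r => rfl
  hint := fun b => rtk6gxa_hint g hgφ hu hg b
  hcl := fun x hx => ⟨⟨x, rtk6gxa_hcl g hgφ hu hx⟩, rfl⟩
  hd := by
    rw [map_natCast]
    exact hdn
  hdS := by
    rw [map_natCast]
    exact hdSn
  hζ := hζ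
  hw := hw
  hXY := hXY
  hX₀ := hX
  hY₀ := hY
  hgen₀ := hgen₀
  hS := hS
  hSet := hSet
  hϖ := by
    rw [← map_pow, hϖd, ← hgφ]
    rfl
  hγ := hγ
  he₁ := he₁
  he₂ := he₂
  hy := by
    have h := congrArg (algebraMap K F) hLF
    rw [map_mul, map_mul, map_mul, map_zpow₀, map_pow, hzy] at h
    exact h
  hab := hab
  hgen := hgen
  hσS := hσS
  hσϖ := hσϖ
  hσy := hσy
  hδS := hδS
  hδϖ := hδϖ
  hδy := hδy

end Cross

end Fermat.Agent.RT.K6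

end
end ZBRT_093_5
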