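/- GENERATED FILE (helper35, build-time optimisation, NOTES/ZB.md): verbatim concatenation of the modules
   Fermat.Agent.RT.K6.DK
   Fermat.Agent.RT.K6.DGLCrossTKC
   Fermat.Agent.RT.K6.DGLLs
   Fermat.Agent.RT.K6.DGLFix
   Fermat.Agent.RT.K6.DGLFixLs
   Fermat.Agent.RT.K6.DGLFixEW
   Fermat.Agent.RT.K6.FixXAbs
   Fermat.Agent.RT.K6.FixX
   Do not edit; do not import together with these modules. -/
import Mathlib
import Fermat.Agent.ZB.RT_090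
import Fermat.Agent.ZB.S36_005
import Fermat.Agent.ZB.RT_030
import Fermat.Agent.ZB.UNIP_010
import Fermat.Agent.ZB.RT_032
import Fermat.Agent.ZB.RT_071
import Fermat.Agent.ZB.UNIP_039
import Fermat.Agent.ZB.STB_003

/-! ### bundled: `Fermat.Agent.RT.K6.DK` -/
section ZBRT_091_0
/-
K-machine, piece K6, piece D-K / TKC (helper4): the integral closure in a two-generator Kummer
extension branched along two prime elements.

Pure algebra (Mathlib only).  `O` an integrally closed domain, `K = Frac O`, `d` invertible in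
`O`, `ζ ∈ O` a primitive `d`-th root of unity, `X, Y ∈ O` (prime elements, `Y ∤ X`, or units),
`L ⊇ K` a field generated by `x₂, y₂` with `x₂ ^ d = ε₁ X`, `y₂ ^ d = ε₂ Y` (`ε_i` units of `O`),
and automorphisms `s₁, s₂` of `L / K` with `s₁ x₂ = ζ x₂`, `s₁ y₂ = y₂`, `s₂ x₂ = x₂`,
`s₂ y₂ = ζ y₂`.  Then every element of `L` integral over `O` is `Σ_{i,j<d} c_ij x₂^i y₂^j`
with `c_ij ∈ O`; in particular the integral closure of `O` in `L` is `O[x₂, y₂]`.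

* `rtk6k_trick_one`, `rtk6k_trick_two` : `f ^ d X ^ i Y ^ j ∈ O`, `i, j < d` ⇒ `f ∈ O`.
* `rtk6k_integral_coeff`              : the coefficient form.
* `rtk6k_integral_mem_adjoin`         : `IsIntegral O b → b ∈ Algebra.adjoin O {x₂, y₂}`.
-/

set_option autoImplicit false
set_option linter.style.haveILetI false

namespace Fermat.Agent.RT.K6

open Finset

section Trick

variable {O K : Type*} [CommRing O] [IsDomain O] [IsIntegrallyClosed O]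
  [Field K] [Algebra O K] [IsFractionRing O K]

/-- an element of `K` with a power in `O` lies in `O` -/
theorem rtk6k_mem_of_pow {d : ℕ} (hd : 0 < d) {f : K} {c : O}
    (h : f ^ d = algebraMap O K c) : ∃ a : O, algebraMap O K a = f := by
  have hint : IsIntegral O f := by
    apply IsIntegral.of_pow hd
    rw [h]
    exact isIntegral_algebraMap
  exact IsIntegrallyClosed.isIntegral_iff.mp hint

/-- **The trick, one element.**  `f ^ d · X ^ i ∈ O`, `i < d`, `X` prime or a unit ⇒ `f ∈ O`. -/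
theorem rtk6k_trick_one {d i : ℕ} (hi : i < d) {X : O} (hX : Prime X ∨ IsUnit X) {f : K} {c : O}
    (h : f ^ d * algebraMap O K X ^ i = algebraMap O K c) : ∃ a : O, algebraMap O K a = f := by
  have hd : 0 < d := by omega
  have hinj := IsFractionRing.injective O K
  have eX : algebraMap O K X ^ d = algebraMap O K X ^ i * algebraMap O K X ^ (d - i) := by
    rw [← pow_add]
    congr 1
    omega
  have h1 : (f * algebraMap O K X) ^ d = algebraMap O K (c * X ^ (d - i)) := by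
    rw [mul_pow, eX, map_mul, map_pow, ← h]
    ring
  obtain ⟨e, he⟩ := rtk6k_mem_of_pow hd h1
  rcases hX with hX | hX
  · have h2 : e ^ d = c * X ^ (d - i) := by
      apply hinj
      rw [map_pow, he, h1]
    have h3 : X ∣ e ^ d := by
      rw [h2]
      exact Dvd.dvd.mul_left (dvd_pow_self X (by omega)) c
    obtain ⟨e', rfl⟩ := hX.dvd_of_dvd_pow h3
    refine ⟨e', ?_⟩
    have hX0 : algebraMap O K X ≠ 0 := by
      intro h0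
      exact hX.ne_zero (hinj (by rw [h0, map_zero]))
    rw [map_mul] at he
    apply mul_right_cancel₀ hX0
    rw [← he]
    ring
  · obtain ⟨u, rfl⟩ := hX
    refine ⟨e * ↑u⁻¹, ?_⟩
    rw [map_mul, he, mul_assoc, ← map_mul, Units.mul_inv, map_one, mul_one]

/-- **The trick, two elements.**  `f ^ d · X ^ i · Y ^ j ∈ O`, `i, j < d`, `X` prime or a unit,
`Y` prime with `Y ∤ X` or a unit ⇒ `f ∈ O`. -/
theorem rtk6k_trick_two {d i j : ℕ} (hi : i < d) (hj : j < d) {X Y : O}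
    (hX : Prime X ∨ IsUnit X) (hY : (Prime Y ∧ ¬ Y ∣ X) ∨ IsUnit Y) {f : K} {c : O}
    (h : f ^ d * algebraMap O K X ^ i * algebraMap O K Y ^ j = algebraMap O K c) :
    ∃ a : O, algebraMap O K a = f := by
  have hd : 0 < d := by omega
  have hinj := IsFractionRing.injective O K
  have eY : algebraMap O K Y ^ d = algebraMap O K Y ^ j * algebraMap O K Y ^ (d - j) := by
    rw [← pow_add]
    congr 1
    omega
  have h1 : (f * algebraMap O K Y) ^ d * algebraMap O K X ^ i =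
      algebraMap O K (c * Y ^ (d - j)) := by
    rw [mul_pow, eY, map_mul, map_pow, ← h]
    ring
  obtain ⟨e, he⟩ := rtk6k_trick_one hi hX h1
  rcases hY with ⟨hYp, hYX⟩ | hY
  · have h2 : e ^ d * X ^ i = c * Y ^ (d - j) := by
      apply hinj
      rw [map_mul, map_pow, map_pow, he, h1]
    have h3 : Y ∣ e ^ d * X ^ i := by
      rw [h2]
      exact Dvd.dvd.mul_left (dvd_pow_self Y (by omega)) c
    have h4 : Y ∣ e := by
      rcases hYp.dvd_or_dvd h3 with h | h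
      · exact hYp.dvd_of_dvd_pow h
      · exact absurd (hYp.dvd_of_dvd_pow h) hYX
    obtain ⟨e', rfl⟩ := h4
    refine ⟨e', ?_⟩
    have hY0 : algebraMap O K Y ≠ 0 := by
      intro h0
      exact hYp.ne_zero (hinj (by rw [h0, map_zero]))
    rw [map_mul] at he
    apply mul_right_cancel₀ hY0
    rw [← he]
    ring
  · obtain ⟨u, rfl⟩ := hY
    refine ⟨e * ↑u⁻¹, ?_⟩
    rw [map_mul, he, mul_assoc, ← map_mul, Units.mul_inv, map_one, mul_one]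

end Trick

section Sum

variable {K : Type*} [Field K]

/-- the character sum: `Σ_{a<d} ω^a = 0` for `ω ≠ 1`, `ω^d = 1` -/
theorem rtk6k_geom_zero {d : ℕ} {ω : K} (h1 : ω ≠ 1) (hd : ω ^ d = 1) :
    ∑ a ∈ range d, ω ^ a = 0 := by
  have h := geom_sum_mul ω d
  rw [hd, sub_self] at h
  rcases mul_eq_zero.mp h with h | h
  · exact h
  · exact absurd (sub_eq_zero.mp h) h1

/-- orthogonality: for a primitive `d`-th root of unity `ζ` and `i, i₀ < d`,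
`d⁻¹ Σ_{a<d} (ζ⁻¹)^(a i₀) (ζ^a)^i = [i = i₀]` -/
theorem rtk6k_orth {d : ℕ} (hd0 : (d : K) ≠ 0) {ζ : K} (hζ : IsPrimitiveRoot ζ d) {i i₀ : ℕ}
    (hi : i < d) (hi₀ : i₀ < d) :
    (d : K)⁻¹ * ∑ a ∈ range d, (ζ⁻¹) ^ (a * i₀) * (ζ ^ a) ^ i = if i = i₀ then 1 else 0 := by
  have hd : 0 < d := by omega
  have hζ0 : ζ ≠ 0 := hζ.ne_zero hd.ne'
  have e : ∀ a : ℕ, (ζ⁻¹) ^ (a * i₀) * (ζ ^ a) ^ i = (ζ ^ i * (ζ⁻¹) ^ i₀) ^ a := by
    intro a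
    rw [mul_pow, ← pow_mul, ← pow_mul, ← pow_mul, mul_comm a i₀, mul_comm a i, mul_comm]
  simp only [e]
  split_ifs with h
  · subst h
    have : ζ ^ i * (ζ⁻¹) ^ i = 1 := by
      rw [inv_pow, mul_inv_cancel₀ (pow_ne_zero _ hζ0)]
    simp only [this, one_pow, sum_const, card_range, nsmul_eq_mul, mul_one]
    exact inv_mul_cancel₀ hd0
  · have hne : ζ ^ i * (ζ⁻¹) ^ i₀ ≠ 1 := by
      intro h1
      apply h
      have h2 : ζ ^ i = ζ ^ i₀ := by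
        have := congrArg (fun z => z * ζ ^ i₀) h1
        simp only [one_mul] at this
        rw [mul_assoc, inv_pow, inv_mul_cancel₀ (pow_ne_zero _ hζ0), mul_one] at this
        exact this
      exact hζ.pow_inj hi hi₀ h2
    have hpow : (ζ ^ i * (ζ⁻¹) ^ i₀) ^ d = 1 := by
      rw [mul_pow, ← pow_mul, ← pow_mul, mul_comm i d, mul_comm i₀ d, pow_mul, pow_mul,
        hζ.pow_eq_one, inv_pow, hζ.pow_eq_one, one_pow, inv_one, one_pow, mul_one]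
    rw [rtk6k_geom_zero hne hpow, mul_zero]

end Sum

section Proj

variable {K L : Type*} [Field K] [Field L] [Algebra K L]

/-- the eigen-projector `d⁻¹ Σ_{a<d} ζ^(-a i₀) s^a` -/
noncomputable def rtk6kProj (d : ℕ) (ζ : K) (s : L ≃ₐ[K] L) (i₀ : ℕ) : L →ₗ[K] L :=
  (d : K)⁻¹ • ∑ a ∈ range d, ((ζ⁻¹) ^ (a * i₀)) • (s ^ a).toLinearMap

theorem rtk6kProj_apply (d : ℕ) (ζ : K) (s : L ≃ₐ[K] L) (i₀ : ℕ) (b : L) :
    rtk6kProj d ζ s i₀ b = (d : K)⁻¹ • ∑ a ∈ range d, ((ζ⁻¹) ^ (a * i₀)) • (s ^ a) b := by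
  simp only [rtk6kProj, LinearMap.smul_apply, LinearMap.sum_apply, AlgEquiv.toLinearMap_apply]

/-- powers of `s` on an eigenvector -/
theorem rtk6k_pow_apply_eigen (s : L ≃ₐ[K] L) {ζ : K} {x : L} (hx : s x = ζ • x) (a : ℕ) :
    (s ^ a) x = (ζ ^ a) • x := by
  induction a with
  | zero => simp
  | succ a ih =>
    rw [pow_succ, AlgEquiv.mul_apply, hx, map_smul, ih, smul_smul, pow_succ, mul_comm]

/-- powers of `s` on a fixed vector -/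
theorem rtk6k_pow_apply_fixed (s : L ≃ₐ[K] L) {y : L} (hy : s y = y) (a : ℕ) :
    (s ^ a) y = y := by
  induction a with
  | zero => simp
  | succ a ih => rw [pow_succ, AlgEquiv.mul_apply, hy, ih]

/-- the projector on a monomial `x ^ i * z`, `s x = ζ x`, `s z = z` -/
theorem rtk6kProj_monomial {d : ℕ} (hd0 : (d : K) ≠ 0) {ζ : K} (hζ : IsPrimitiveRoot ζ d)
    (s : L ≃ₐ[K] L) {x z : L} (hx : s x = ζ • x) (hz : s z = z) {i i₀ : ℕ}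
    (hi : i < d) (hi₀ : i₀ < d) :
    rtk6kProj d ζ s i₀ (x ^ i * z) = if i = i₀ then x ^ i * z else 0 := by
  rw [rtk6kProj_apply]
  have e : ∀ a ∈ range d, ((ζ⁻¹) ^ (a * i₀)) • (s ^ a) (x ^ i * z) =
      ((ζ⁻¹) ^ (a * i₀) * (ζ ^ a) ^ i) • (x ^ i * z) := by
    intro a _
    rw [map_mul, map_pow, rtk6k_pow_apply_eigen s hx, rtk6k_pow_apply_fixed s hz, smul_pow,
      smul_mul_assoc, smul_smul]
  rw [sum_congr rfl e, ← sum_smul, smul_smul, rtk6k_orth hd0 hζ hi hi₀]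
  split_ifs
  · rw [one_smul]
  · rw [zero_smul]

end Proj

section Main

variable {O K L : Type*} [CommRing O] [IsDomain O] [IsIntegrallyClosed O]
  [Field K] [Algebra O K] [IsFractionRing O K]
  [Field L] [Algebra K L] [Algebra O L] [IsScalarTower O K L]

omit [IsDomain O] [IsIntegrallyClosed O] [IsFractionRing O K] in
/-- the inverse of the image of a unit -/
theorem rtk6k_inv_algebraMap {a : O} (ha : IsUnit a) :
    (algebraMap O K a)⁻¹ = algebraMap O K ↑(ha.unit⁻¹) := by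
  have h1 : algebraMap O K a * algebraMap O K ↑(ha.unit⁻¹) = 1 := by
    rw [← map_mul, IsUnit.mul_val_inv, map_one]
  exact inv_eq_of_mul_eq_one_right h1

omit [IsDomain O] [IsIntegrallyClosed O] [IsFractionRing O K] in
/-- the projector preserves integrality over `O` -/
theorem rtk6kProj_isIntegral {d : ℕ} (hd : IsUnit (d : O)) {ζ : O} (hζ : IsUnit ζ)
    (s : L ≃ₐ[K] L) (i₀ : ℕ) {b : L} (hb : IsIntegral O b) :
    IsIntegral O (rtk6kProj d (algebraMap O K ζ) s i₀ b) := by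
  rw [rtk6kProj_apply]
  have e1 : ((d : K))⁻¹ = algebraMap O K ↑(hd.unit⁻¹) := by
    rw [← rtk6k_inv_algebraMap hd, map_natCast]
  rw [e1, algebraMap_smul]
  refine IsIntegral.smul _ (IsIntegral.sum _ fun a _ => ?_)
  rw [rtk6k_inv_algebraMap hζ, ← map_pow, algebraMap_smul]
  refine IsIntegral.smul _ ?_
  exact hb.map ((s ^ a : L ≃ₐ[K] L).toAlgHom.restrictScalars O)

omit [IsDomain O] [IsIntegrallyClosed O] [IsFractionRing O K] [Algebra O L] [IsScalarTower O K L]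
  [CommRing O] [Algebra O K] in
/-- **Spanning.**  If `L = K[x, y]` with `x ^ d, y ^ d ∈ K`, `d > 0`, every element of `L` is a
`K`-combination of the monomials `x ^ i y ^ j`, `i, j < d`. -/
theorem rtk6k_span {d : ℕ} (hd : 0 < d) {x y : L} {a b : K} (hx : x ^ d = algebraMap K L a)
    (hy : y ^ d = algebraMap K L b) (hgen : Algebra.adjoin K ({x, y} : Set L) = ⊤) (z : L) :
    ∃ c : Fin d × Fin d → K, z = ∑ ι, c ι • (x ^ (ι.1 : ℕ) * y ^ (ι.2 : ℕ)) := by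
  set v : Fin d × Fin d → L := fun ι => x ^ (ι.1 : ℕ) * y ^ (ι.2 : ℕ) with hv
  have hmono : ∀ n k : ℕ, x ^ n * y ^ k ∈ Submodule.span K (Set.range v) := by
    intro n k
    have e1 : x ^ n = algebraMap K L (a ^ (n / d)) * x ^ (n % d) := by
      conv_lhs => rw [← Nat.div_add_mod n d, pow_add, pow_mul, hx, ← map_pow]
    have e2 : y ^ k = algebraMap K L (b ^ (k / d)) * y ^ (k % d) := by
      conv_lhs => rw [← Nat.div_add_mod k d, pow_add, pow_mul, hy, ← map_pow]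
    have e3 : x ^ n * y ^ k = (a ^ (n / d) * b ^ (k / d)) •
        v (⟨n % d, Nat.mod_lt n hd⟩, ⟨k % d, Nat.mod_lt k hd⟩) := by
      rw [e1, e2, Algebra.smul_def, map_mul]
      simp only [hv]
      ring
    rw [e3]
    exact Submodule.smul_mem _ _ (Submodule.subset_span ⟨_, rfl⟩)
  have hz : z ∈ Submodule.span K (Set.range v) := by
    have h1 : z ∈ Algebra.adjoin K ({x, y} : Set L) := by
      rw [hgen]
      exact Algebra.mem_top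
    rw [← Subalgebra.mem_toSubmodule, Algebra.adjoin_eq_span] at h1
    refine Submodule.span_le.mpr ?_ h1
    intro w hw
    obtain ⟨n, k, rfl⟩ := (Submonoid.mem_closure_pair x y w).mp hw
    exact hmono n k
  obtain ⟨c, hc⟩ := (Submodule.mem_span_range_iff_exists_fun K).mp hz
  exact ⟨c, hc.symm⟩

/-- **TKC, coefficient form.**  Every element of `L = K(x₂, y₂)` integral over `O` is an
`O`-combination of the monomials `x₂ ^ i y₂ ^ j`, `i, j < d`. -/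
theorem rtk6k_integral_coeff {d : ℕ} (hd : IsUnit (d : O)) {ζ : O} (hζ : IsPrimitiveRoot ζ d)
    {X Y : O} (hX : Prime X ∨ IsUnit X) (hY : (Prime Y ∧ ¬ Y ∣ X) ∨ IsUnit Y)
    {ε₁ ε₂ : O} (hε₁ : IsUnit ε₁) (hε₂ : IsUnit ε₂) {x₂ y₂ : L}
    (hx : x₂ ^ d = algebraMap O L (ε₁ * X)) (hy : y₂ ^ d = algebraMap O L (ε₂ * Y))
    (s₁ s₂ : L ≃ₐ[K] L) (h11 : s₁ x₂ = algebraMap O K ζ • x₂) (h12 : s₁ y₂ = y₂)
    (h21 : s₂ x₂ = x₂) (h22 : s₂ y₂ = algebraMap O K ζ • y₂)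
    (hgen : Algebra.adjoin K ({x₂, y₂} : Set L) = ⊤) {b : L} (hb : IsIntegral O b) :
    ∃ c : Fin d × Fin d → O,
      b = ∑ ι, algebraMap O L (c ι) * (x₂ ^ (ι.1 : ℕ) * y₂ ^ (ι.2 : ℕ)) := by
  classical
  have hinjOK := IsFractionRing.injective O K
  have hinjKL : Function.Injective (algebraMap K L) := (algebraMap K L).injective
  have hdK : (d : K) ≠ 0 := by
    have := hd.map (algebraMap O K)
    rw [map_natCast] at this
    exact this.ne_zero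
  have hdpos : 0 < d := by
    rcases Nat.eq_zero_or_pos d with h | h
    · exfalso
      apply hdK
      rw [h, Nat.cast_zero]
    · exact h
  have hζK : IsPrimitiveRoot (algebraMap O K ζ) d := hζ.map_of_injective hinjOK
  have hζu : IsUnit ζ := hζ.isUnit hdpos.ne'
  have hx' : x₂ ^ d = algebraMap K L (algebraMap O K (ε₁ * X)) := by
    rw [hx, IsScalarTower.algebraMap_apply O K L]
  have hy' : y₂ ^ d = algebraMap K L (algebraMap O K (ε₂ * Y)) := by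
    rw [hy, IsScalarTower.algebraMap_apply O K L]
  obtain ⟨c, hc⟩ := rtk6k_span hdpos hx' hy' hgen b
  -- the projection onto the `(i₀, j₀)`-component
  have hproj : ∀ ι₀ : Fin d × Fin d,
      rtk6kProj d (algebraMap O K ζ) s₁ ι₀.1 (rtk6kProj d (algebraMap O K ζ) s₂ ι₀.2 b) =
        c ι₀ • (x₂ ^ (ι₀.1 : ℕ) * y₂ ^ (ι₀.2 : ℕ)) := by
    intro ι₀
    have hmon : ∀ ι : Fin d × Fin d,
        rtk6kProj d (algebraMap O K ζ) s₁ ι₀.1 (rtk6kProj d (algebraMap O K ζ) s₂ ι₀.2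
          (x₂ ^ (ι.1 : ℕ) * y₂ ^ (ι.2 : ℕ))) =
          if ι = ι₀ then x₂ ^ (ι.1 : ℕ) * y₂ ^ (ι.2 : ℕ) else 0 := by
      intro ι
      have hs2 : s₂ (x₂ ^ (ι.1 : ℕ)) = x₂ ^ (ι.1 : ℕ) := by rw [map_pow, h21]
      have hs1 : s₁ (y₂ ^ (ι.2 : ℕ)) = y₂ ^ (ι.2 : ℕ) := by rw [map_pow, h12]
      have e2 := rtk6kProj_monomial hdK hζK s₂ h22 hs2 ι.2.2 ι₀.2.2
      rw [mul_comm (x₂ ^ (ι.1 : ℕ)) (y₂ ^ (ι.2 : ℕ)), e2]
      by_cases hj : (ι.2 : ℕ) = (ι₀.2 : ℕ)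
      · rw [if_pos hj, mul_comm (y₂ ^ (ι.2 : ℕ)) (x₂ ^ (ι.1 : ℕ)),
          rtk6kProj_monomial hdK hζK s₁ h11 hs1 ι.1.2 ι₀.1.2]
        by_cases hi : (ι.1 : ℕ) = (ι₀.1 : ℕ)
        · rw [if_pos hi, if_pos (Prod.ext (Fin.ext hi) (Fin.ext hj))]
        · rw [if_neg hi, if_neg]
          intro h
          exact hi (by rw [h])
      · rw [if_neg hj, map_zero, if_neg]
        intro h
        exact hj (by rw [h])
    rw [hc, map_sum, map_sum]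
    simp only [map_smul, hmon]
    rw [Finset.sum_eq_single ι₀]
    · rw [if_pos rfl]
    · intro ι _ hι
      rw [if_neg hι, smul_zero]
    · intro h
      exact absurd (Finset.mem_univ _) h
  -- each component is integral
  have hint : ∀ ι₀ : Fin d × Fin d,
      IsIntegral O (c ι₀ • (x₂ ^ (ι₀.1 : ℕ) * y₂ ^ (ι₀.2 : ℕ))) := by
    intro ι₀
    rw [← hproj ι₀]
    exact rtk6kProj_isIntegral hd hζu s₁ _ (rtk6kProj_isIntegral hd hζu s₂ _ hb)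
  -- hence each coefficient lies in `O`
  have hcO : ∀ ι₀ : Fin d × Fin d, ∃ a : O, algebraMap O K a = c ι₀ := by
    intro ι₀
    have h1 : (c ι₀ • (x₂ ^ (ι₀.1 : ℕ) * y₂ ^ (ι₀.2 : ℕ))) ^ d =
        algebraMap K L (c ι₀ ^ d * algebraMap O K ((ε₁ * X) ^ (ι₀.1 : ℕ) *
          (ε₂ * Y) ^ (ι₀.2 : ℕ))) := by
      rw [smul_pow, mul_pow, ← pow_mul, ← pow_mul, mul_comm (ι₀.1 : ℕ) d,
        mul_comm (ι₀.2 : ℕ) d, pow_mul, pow_mul, hx', hy', Algebra.smul_def]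
      simp only [map_mul, map_pow]
    have h2 : IsIntegral O (c ι₀ ^ d * algebraMap O K ((ε₁ * X) ^ (ι₀.1 : ℕ) *
        (ε₂ * Y) ^ (ι₀.2 : ℕ))) := by
      have := (hint ι₀).pow d
      rw [h1] at this
      exact (isIntegral_algebraMap_iff hinjKL).mp this
    obtain ⟨e, he⟩ := IsIntegrallyClosed.isIntegral_iff.mp h2
    obtain ⟨u₁, hu₁⟩ := hε₁
    obtain ⟨u₂, hu₂⟩ := hε₂
    refine rtk6k_trick_two ι₀.1.2 ι₀.2.2 hX hY
      (c := e * ↑(u₁⁻¹ ^ (ι₀.1 : ℕ) * u₂⁻¹ ^ (ι₀.2 : ℕ))) ?_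
    rw [map_mul, he, ← hu₁, ← hu₂]
    simp only [map_mul, map_pow, Units.val_mul, Units.val_pow_eq_pow_val]
    have k1 : algebraMap O K (↑u₁ : O) * algebraMap O K (↑u₁⁻¹ : O) = 1 := by
      rw [← map_mul, Units.mul_inv, map_one]
    have k2 : algebraMap O K (↑u₂ : O) * algebraMap O K (↑u₂⁻¹ : O) = 1 := by
      rw [← map_mul, Units.mul_inv, map_one]
    have k1' : (algebraMap O K (↑u₁ : O) * algebraMap O K (↑u₁⁻¹ : O)) ^ (ι₀.1 : ℕ) = 1 := by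
      rw [k1, one_pow]
    have k2' : (algebraMap O K (↑u₂ : O) * algebraMap O K (↑u₂⁻¹ : O)) ^ (ι₀.2 : ℕ) = 1 := by
      rw [k2, one_pow]
    rw [mul_pow] at k1' k2'
    calc c ι₀ ^ d * algebraMap O K X ^ (ι₀.1 : ℕ) * algebraMap O K Y ^ (ι₀.2 : ℕ)
        = c ι₀ ^ d * algebraMap O K X ^ (ι₀.1 : ℕ) * algebraMap O K Y ^ (ι₀.2 : ℕ) *
          ((algebraMap O K ↑u₁ ^ (ι₀.1 : ℕ) * algebraMap O K (↑u₁⁻¹ : O) ^ (ι₀.1 : ℕ)) *
           (algebraMap O K ↑u₂ ^ (ι₀.2 : ℕ) * algebraMap O K (↑u₂⁻¹ : O) ^ (ι₀.2 : ℕ))) := by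
          rw [k1', k2', mul_one, mul_one]
      _ = _ := by ring
  choose a ha using hcO
  refine ⟨a, ?_⟩
  rw [hc]
  refine Finset.sum_congr rfl fun ι _ => ?_
  rw [← ha ι, Algebra.smul_def, ← IsScalarTower.algebraMap_apply O K L]

/-- **TKC.**  The integral closure of `O` in `L = K(x₂, y₂)` is `O[x₂, y₂]`. -/
theorem rtk6k_integral_mem_adjoin {d : ℕ} (hd : IsUnit (d : O)) {ζ : O}
    (hζ : IsPrimitiveRoot ζ d)
    {X Y : O} (hX : Prime X ∨ IsUnit X) (hY : (Prime Y ∧ ¬ Y ∣ X) ∨ IsUnit Y)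
    {ε₁ ε₂ : O} (hε₁ : IsUnit ε₁) (hε₂ : IsUnit ε₂) {x₂ y₂ : L}
    (hx : x₂ ^ d = algebraMap O L (ε₁ * X)) (hy : y₂ ^ d = algebraMap O L (ε₂ * Y))
    (s₁ s₂ : L ≃ₐ[K] L) (h11 : s₁ x₂ = algebraMap O K ζ • x₂) (h12 : s₁ y₂ = y₂)
    (h21 : s₂ x₂ = x₂) (h22 : s₂ y₂ = algebraMap O K ζ • y₂)
    (hgen : Algebra.adjoin K ({x₂, y₂} : Set L) = ⊤) {b : L} (hb : IsIntegral O b) :
    b ∈ Algebra.adjoin O ({x₂, y₂} : Set L) := by
  obtain ⟨c, rfl⟩ := rtk6k_integral_coeff hd hζ hX hY hε₁ hε₂ hx hy s₁ s₂ h11 h12 h21 h22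
    hgen hb
  refine Subalgebra.sum_mem _ fun ι _ => ?_
  refine Subalgebra.mul_mem _ (Subalgebra.algebraMap_mem _ _) (Subalgebra.mul_mem _ ?_ ?_)
  · exact Subalgebra.pow_mem _ (Algebra.subset_adjoin (Set.mem_insert _ _)) _
  · exact Subalgebra.pow_mem _
      (Algebra.subset_adjoin (Set.mem_insert_of_mem _ (Set.mem_singleton _))) _

omit [IsIntegrallyClosed O] [IsFractionRing O K] [IsScalarTower O K L] [Algebra O K] [Algebra K L]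
  [Field K] [IsDomain O] in
/-- an element of `L` integral over the local ring `O`, whose `d`-th power is in `𝔪`, lies in
every maximal ideal of the integral closure -/
theorem rtk6k_mem_maximal [IsLocalRing O] {d : ℕ} {x : L} (hx : IsIntegral O x)
    {a : O} (ha : a ∈ IsLocalRing.maximalIdeal O) (hxa : x ^ d = algebraMap O L a)
    (𝔑 : Ideal (integralClosure O L)) [h𝔑 : 𝔑.IsMaximal] :
    (⟨x, hx⟩ : integralClosure O L) ∈ 𝔑 := by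
  haveI : Algebra.IsIntegral O (integralClosure O L) := inferInstance
  have hmax : (𝔑.comap (algebraMap O (integralClosure O L))).IsMaximal :=
    Ideal.isMaximal_comap_of_isIntegral_of_isMaximal 𝔑
  have hcomap : 𝔑.comap (algebraMap O (integralClosure O L)) = IsLocalRing.maximalIdeal O :=
    IsLocalRing.eq_maximalIdeal hmax
  have h1 : algebraMap O (integralClosure O L) a ∈ 𝔑 := by
    have : a ∈ 𝔑.comap (algebraMap O (integralClosure O L)) := by rw [hcomap]; exact ha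
    exact this
  have h2 : (⟨x, hx⟩ : integralClosure O L) ^ d = algebraMap O (integralClosure O L) a := by
    apply Subtype.ext
    rw [SubmonoidClass.coe_pow]
    exact hxa
  exact h𝔑.isPrime.mem_of_pow_mem d (h2 ▸ h1)

/-- **TKC, local form.**  If moreover `O` is local with `𝔪 = (X, Y)`, every element of the
integral closure `C` of `O` in `L` is a unit of `C` or lies in `x₂ C + y₂ C`; and
`x₂ C + y₂ C ≠ C`.  (So `C` is local with maximal ideal `(x₂, y₂)`.) -/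
theorem rtk6k_local [IsLocalRing O] {d : ℕ} (hd : IsUnit (d : O)) {ζ : O}
    (hζ : IsPrimitiveRoot ζ d)
    {X Y : O} (hX : Prime X ∨ IsUnit X) (hY : (Prime Y ∧ ¬ Y ∣ X) ∨ IsUnit Y)
    (hm : IsLocalRing.maximalIdeal O = Ideal.span {X, Y})
    {ε₁ ε₂ : O} (hε₁ : IsUnit ε₁) (hε₂ : IsUnit ε₂) {x₂ y₂ : L}
    (hx : x₂ ^ d = algebraMap O L (ε₁ * X)) (hy : y₂ ^ d = algebraMap O L (ε₂ * Y))
    (s₁ s₂ : L ≃ₐ[K] L) (h11 : s₁ x₂ = algebraMap O K ζ • x₂) (h12 : s₁ y₂ = y₂)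
    (h21 : s₂ x₂ = x₂) (h22 : s₂ y₂ = algebraMap O K ζ • y₂)
    (hgen : Algebra.adjoin K ({x₂, y₂} : Set L) = ⊤) :
    (∀ b : L, IsIntegral O b → (∃ b' : L, IsIntegral O b' ∧ b * b' = 1) ∨
      ∃ c₁ c₂ : L, IsIntegral O c₁ ∧ IsIntegral O c₂ ∧ b = c₁ * x₂ + c₂ * y₂) ∧
    ¬ ∃ c₁ c₂ : L, IsIntegral O c₁ ∧ IsIntegral O c₂ ∧ 1 = c₁ * x₂ + c₂ * y₂ := by
  classical
  have hdpos : 0 < d := by
    rcases Nat.eq_zero_or_pos d with h | h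
    · exfalso
      rw [h, Nat.cast_zero] at hd
      exact not_isUnit_zero hd
    · exact h
  have hXm : X ∈ IsLocalRing.maximalIdeal O := by
    rw [hm]; exact Ideal.subset_span (Set.mem_insert _ _)
  have hYm : Y ∈ IsLocalRing.maximalIdeal O := by
    rw [hm]; exact Ideal.subset_span (Set.mem_insert_of_mem _ (Set.mem_singleton _))
  have hx2int : IsIntegral O x₂ := by
    apply IsIntegral.of_pow hdpos
    rw [hx]; exact isIntegral_algebraMap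
  have hy2int : IsIntegral O y₂ := by
    apply IsIntegral.of_pow hdpos
    rw [hy]; exact isIntegral_algebraMap
  have hεX : ε₁ * X ∈ IsLocalRing.maximalIdeal O := Ideal.mul_mem_left _ _ hXm
  have hεY : ε₂ * Y ∈ IsLocalRing.maximalIdeal O := Ideal.mul_mem_left _ _ hYm
  -- `X`, `Y` in terms of `x₂`, `y₂`
  obtain ⟨u₁, hu₁⟩ := hε₁
  obtain ⟨u₂, hu₂⟩ := hε₂
  have hXx : algebraMap O L X = algebraMap O L (↑u₁⁻¹ : O) * x₂ ^ (d - 1) * x₂ := by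
    rw [mul_assoc, ← pow_succ, Nat.sub_add_cancel hdpos, hx, ← hu₁, ← map_mul, ← mul_assoc,
      Units.inv_mul, one_mul]
  have hYy : algebraMap O L Y = algebraMap O L (↑u₂⁻¹ : O) * y₂ ^ (d - 1) * y₂ := by
    rw [mul_assoc, ← pow_succ, Nat.sub_add_cancel hdpos, hy, ← hu₂, ← map_mul, ← mul_assoc,
      Units.inv_mul, one_mul]
  -- elements of `𝔪` lie in `(x₂, y₂)`
  have hmem : ∀ a ∈ IsLocalRing.maximalIdeal O, ∃ c₁ c₂ : L, IsIntegral O c₁ ∧ IsIntegral O c₂ ∧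
      algebraMap O L a = c₁ * x₂ + c₂ * y₂ := by
    intro a ha
    rw [hm, Ideal.mem_span_pair] at ha
    obtain ⟨p, q, rfl⟩ := ha
    refine ⟨algebraMap O L p * (algebraMap O L (↑u₁⁻¹ : O) * x₂ ^ (d - 1)),
      algebraMap O L q * (algebraMap O L (↑u₂⁻¹ : O) * y₂ ^ (d - 1)), ?_, ?_, ?_⟩
    · exact isIntegral_algebraMap.mul (isIntegral_algebraMap.mul (hx2int.pow _))
    · exact isIntegral_algebraMap.mul (isIntegral_algebraMap.mul (hy2int.pow _))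
    · rw [map_add, map_mul, map_mul, hXx, hYy]
      ring
  -- monomials other than `1` lie in `(x₂, y₂)`
  have hmono : ∀ ι : Fin d × Fin d, ι ≠ (⟨0, hdpos⟩, ⟨0, hdpos⟩) → ∀ c : O,
      ∃ c₁ c₂ : L, IsIntegral O c₁ ∧ IsIntegral O c₂ ∧
        algebraMap O L c * (x₂ ^ (ι.1 : ℕ) * y₂ ^ (ι.2 : ℕ)) = c₁ * x₂ + c₂ * y₂ := by
    intro ι hι c
    by_cases hi : (ι.1 : ℕ) = 0
    · have hj : (ι.2 : ℕ) ≠ 0 := by
        intro hj
        apply hι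
        exact Prod.ext (Fin.ext hi) (Fin.ext hj)
      refine ⟨0, algebraMap O L c * (x₂ ^ (ι.1 : ℕ) * y₂ ^ ((ι.2 : ℕ) - 1)), isIntegral_zero,
        isIntegral_algebraMap.mul ((hx2int.pow _).mul (hy2int.pow _)), ?_⟩
      have : y₂ ^ (ι.2 : ℕ) = y₂ ^ ((ι.2 : ℕ) - 1) * y₂ := by
        rw [← pow_succ, Nat.sub_add_cancel (Nat.pos_of_ne_zero hj)]
      rw [this]
      ring
    · refine ⟨algebraMap O L c * (x₂ ^ ((ι.1 : ℕ) - 1) * y₂ ^ (ι.2 : ℕ)), 0,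
        isIntegral_algebraMap.mul ((hx2int.pow _).mul (hy2int.pow _)), isIntegral_zero, ?_⟩
      have : x₂ ^ (ι.1 : ℕ) = x₂ ^ ((ι.1 : ℕ) - 1) * x₂ := by
        rw [← pow_succ, Nat.sub_add_cancel (Nat.pos_of_ne_zero hi)]
      rw [this]
      ring
  -- `1 ∉ (x₂, y₂)`
  have hprop : ¬ ∃ c₁ c₂ : L, IsIntegral O c₁ ∧ IsIntegral O c₂ ∧ 1 = c₁ * x₂ + c₂ * y₂ := by
    rintro ⟨c₁, c₂, hc₁, hc₂, h1⟩
    obtain ⟨𝔑, h𝔑⟩ := Ideal.exists_maximal (integralClosure O L)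
    haveI := h𝔑
    have hx𝔑 := rtk6k_mem_maximal hx2int hεX hx 𝔑
    have hy𝔑 := rtk6k_mem_maximal hy2int hεY hy 𝔑
    have : (1 : integralClosure O L) ∈ 𝔑 := by
      have e : (1 : integralClosure O L) =
          ⟨c₁, hc₁⟩ * ⟨x₂, hx2int⟩ + ⟨c₂, hc₂⟩ * ⟨y₂, hy2int⟩ := by
        apply Subtype.ext
        simpa using h1
      rw [e]
      exact Ideal.add_mem _ (Ideal.mul_mem_left _ _ hx𝔑) (Ideal.mul_mem_left _ _ hy𝔑)
    exact h𝔑.ne_top ((Ideal.eq_top_iff_one _).mpr this)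
  refine ⟨?_, hprop⟩
  intro b hb
  obtain ⟨c, hc⟩ := rtk6k_integral_coeff hd hζ hX hY ⟨u₁, hu₁⟩ ⟨u₂, hu₂⟩ hx hy s₁ s₂ h11 h12
    h21 h22 hgen hb
  set ι₀ : Fin d × Fin d := (⟨0, hdpos⟩, ⟨0, hdpos⟩) with hι₀
  -- the part of `b` outside the constant term
  have hrest : ∃ c₁ c₂ : L, IsIntegral O c₁ ∧ IsIntegral O c₂ ∧
      b - algebraMap O L (c ι₀) = c₁ * x₂ + c₂ * y₂ := by
    have hsplit : b - algebraMap O L (c ι₀) =
        ∑ ι ∈ Finset.univ.erase ι₀, algebraMap O L (c ι) * (x₂ ^ (ι.1 : ℕ) * y₂ ^ (ι.2 : ℕ)) := by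
      rw [hc, ← Finset.add_sum_erase Finset.univ _ (Finset.mem_univ ι₀)]
      simp [hι₀]
    rw [hsplit]
    have key : ∀ S : Finset (Fin d × Fin d), (∀ ι ∈ S, ι ≠ ι₀) →
        ∃ c₁ c₂ : L, IsIntegral O c₁ ∧ IsIntegral O c₂ ∧
          ∑ ι ∈ S, algebraMap O L (c ι) * (x₂ ^ (ι.1 : ℕ) * y₂ ^ (ι.2 : ℕ)) =
            c₁ * x₂ + c₂ * y₂ := by
      intro S
      induction S using Finset.induction_on with
      | empty =>
        intro _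
        exact ⟨0, 0, isIntegral_zero, isIntegral_zero, by simp⟩
      | insert a S ha ih =>
        intro hS
        obtain ⟨p₁, p₂, hp₁, hp₂, hp⟩ := ih (fun ι hι => hS ι (Finset.mem_insert_of_mem hι))
        obtain ⟨q₁, q₂, hq₁, hq₂, hq⟩ := hmono a (hS a (Finset.mem_insert_self _ _)) (c a)
        refine ⟨q₁ + p₁, q₂ + p₂, hq₁.add hp₁, hq₂.add hp₂, ?_⟩
        rw [Finset.sum_insert ha, hp, hq]
        ring
    exact key _ (fun ι hι => Finset.ne_of_mem_erase hι)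
  obtain ⟨r₁, r₂, hr₁, hr₂, hr⟩ := hrest
  by_cases hc0 : c ι₀ ∈ IsLocalRing.maximalIdeal O
  · right
    obtain ⟨p₁, p₂, hp₁, hp₂, hp⟩ := hmem _ hc0
    refine ⟨p₁ + r₁, p₂ + r₂, hp₁.add hr₁, hp₂.add hr₂, ?_⟩
    have e : b = algebraMap O L (c ι₀) + (b - algebraMap O L (c ι₀)) := by ring
    calc b = algebraMap O L (c ι₀) + (b - algebraMap O L (c ι₀)) := e
      _ = (p₁ * x₂ + p₂ * y₂) + (r₁ * x₂ + r₂ * y₂) := by rw [hr, hp]
      _ = _ := by ring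
  · left
    -- `b` is a unit of the integral closure
    have hbu : IsUnit (⟨b, hb⟩ : integralClosure O L) := by
      by_contra hnu
      obtain ⟨𝔑, h𝔑, hb𝔑⟩ := exists_max_ideal_of_mem_nonunits (mem_nonunits_iff.mpr hnu)
      haveI := h𝔑
      have hx𝔑 := rtk6k_mem_maximal hx2int hεX hx 𝔑
      have hy𝔑 := rtk6k_mem_maximal hy2int hεY hy 𝔑
      have hz : (⟨r₁, hr₁⟩ * ⟨x₂, hx2int⟩ + ⟨r₂, hr₂⟩ * ⟨y₂, hy2int⟩ :
          integralClosure O L) ∈ 𝔑 :=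
        Ideal.add_mem _ (Ideal.mul_mem_left _ _ hx𝔑) (Ideal.mul_mem_left _ _ hy𝔑)
      have hc𝔑 : algebraMap O (integralClosure O L) (c ι₀) ∈ 𝔑 := by
        have e : algebraMap O (integralClosure O L) (c ι₀) =
            ⟨b, hb⟩ - (⟨r₁, hr₁⟩ * ⟨x₂, hx2int⟩ + ⟨r₂, hr₂⟩ * ⟨y₂, hy2int⟩) := by
          apply Subtype.ext
          have := hr
          simp only [Subalgebra.coe_sub, Subalgebra.coe_add, Subalgebra.coe_mul]
          rw [← hr]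
          simp
        rw [e]
        exact Ideal.sub_mem _ hb𝔑 hz
      haveI : Algebra.IsIntegral O (integralClosure O L) := inferInstance
      have hmax : (𝔑.comap (algebraMap O (integralClosure O L))).IsMaximal :=
        Ideal.isMaximal_comap_of_isIntegral_of_isMaximal 𝔑
      have hcomap : 𝔑.comap (algebraMap O (integralClosure O L)) = IsLocalRing.maximalIdeal O :=
        IsLocalRing.eq_maximalIdeal hmax
      apply hc0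
      rw [← hcomap]
      exact hc𝔑
    obtain ⟨v, hv⟩ := hbu
    refine ⟨((↑v⁻¹ : integralClosure O L) : L), (↑v⁻¹ : integralClosure O L).2, ?_⟩
    have h1 : (⟨b, hb⟩ : integralClosure O L) * ↑v⁻¹ = 1 := by
      rw [← hv]
      exact Units.mul_inv v
    have := congrArg (Subtype.val) h1
    simpa using this

end Main

end Fermat.Agent.RT.K6


end ZBRT_091_0

/-! ### bundled: `Fermat.Agent.RT.K6.DGLCrossTKC` -/
section ZBRT_091_1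
/-
K-machine, piece K6, piece D-GL part 4 (helper79): TKC on the chart.

`rtk6gl_cross_tkc` = `rtk6k_local` (TKC, helper4, `DK.lean`) + `rtk6gl_cross_local`
(`DGLCross.lean`): in the situation of TKC for the local ring `O` of the base chart `R` at the
point `𝔫 ∩ R` (`O` local, `𝔪 = (X₀, Y₀)`, `x₂ ^ d = ε₁ X₀`, `y₂ ^ d = ε₂ Y₀`), every maximal ideal
`𝔫` of the chart `B` (= integral closure of `R` in `L = K(x₂, y₂)`) over `𝔫 ∩ R` is generated,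
locally at `𝔫`, by `X = u₁ x₂` and `Y = u₂ y₂` (`u_i ∈ R ∖ 𝔫`), and the components through
`𝔫 ∩ R` pass through `𝔫`.
-/

set_option autoImplicit false
set_option linter.style.haveILetI false
set_option linter.unusedSectionVars false

namespace Fermat.Agent.RT.K6

open Fermat.Agent.UNIP

/-- **TKC on the chart.** -/
theorem rtk6gl_cross_tkc {O K L R B : Type*} [CommRing O] [IsDomain O] [IsIntegrallyClosed O]
    [Field K] [Algebra O K] [IsFractionRing O K] [Field L] [Algebra K L] [Algebra O L]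
    [IsScalarTower O K L] [IsLocalRing O] [CommRing R] [CommRing B]
    {d : ℕ} (hd : IsUnit (d : O)) {ζ : O}
    (hζ : IsPrimitiveRoot ζ d)
    {X₀ Y₀ : O} (hX : Prime X₀ ∨ IsUnit X₀) (hY : (Prime Y₀ ∧ ¬ Y₀ ∣ X₀) ∨ IsUnit Y₀)
    (hm : IsLocalRing.maximalIdeal O = Ideal.span {X₀, Y₀})
    {ε₁ ε₂ : O} (hε₁ : IsUnit ε₁) (hε₂ : IsUnit ε₂) {x₂ y₂ : L}
    (hx : x₂ ^ d = algebraMap O L (ε₁ * X₀)) (hy : y₂ ^ d = algebraMap O L (ε₂ * Y₀))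
    (s₁ s₂ : L ≃ₐ[K] L) (h11 : s₁ x₂ = algebraMap O K ζ • x₂) (h12 : s₁ y₂ = y₂)
    (h21 : s₂ x₂ = x₂) (h22 : s₂ y₂ = algebraMap O K ζ • y₂)
    (hgen : Algebra.adjoin K ({x₂, y₂} : Set L) = ⊤)
    (j : R →+* B) (ι : B →+* L) (hι : Function.Injective ι)
    (𝔫 : Ideal B) [h𝔫 : 𝔫.IsMaximal]
    (φ : R →+* O) (hφ : ∀ r, algebraMap O L (φ r) = ι (j r))
    (hO2 : ∀ o : O, ∃ u r : R, j u ∉ 𝔫 ∧ φ u * o = φ r)
    (hO3 : ∀ u : R, j u ∉ 𝔫 → IsUnit (φ u))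
    (hint : ∀ b : B, j.IsIntegralElem b)
    (hcl : ∀ x : L, (ι.comp j).IsIntegralElem x → ∃ b, ι b = x) :
    ∃ (u₁ u₂ : R) (X Y : B), j u₁ ∉ 𝔫 ∧ j u₂ ∉ 𝔫 ∧ ι X = ι (j u₁) * x₂ ∧ ι Y = ι (j u₂) * y₂ ∧
      X ∈ 𝔫 ∧ Y ∈ 𝔫 ∧ NodesLocGen 𝔫 {X, Y} ∧
      ∀ W : ValuationSubring L, (∀ b, ι b ∈ W) →
        (∀ u : R, ι (j u) ∈ W.nonunits → j u ∈ 𝔫) → ∀ b : B, ι b ∈ W.nonunits → b ∈ 𝔫 := by
  have hd0 : 0 < d := by
    rcases Nat.eq_zero_or_pos d with h | h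
    · exfalso
      rw [h, Nat.cast_zero] at hd
      exact not_isUnit_zero hd
    · exact h
  exact rtk6gl_cross_local j ι hι 𝔫 φ hφ hO2 hO3 hint hcl
    (IsIntegral.of_pow hd0 (by rw [hx]; exact isIntegral_algebraMap))
    (IsIntegral.of_pow hd0 (by rw [hy]; exact isIntegral_algebraMap))
    (rtk6k_local (K := K) hd hζ hX hY hm hε₁ hε₂ hx hy s₁ s₂ h11 h12 h21 h22 hgen)

end Fermat.Agent.RT.K6


end ZBRT_091_1

/-! ### bundled: `Fermat.Agent.RT.K6.DGLLs` -/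
section ZBRT_091_2
/-
K-machine, piece K6, piece D-GL(d) (helper79): TKC on the chart, instantiated at the local ring
`O = ls_localSubring 𝔫₀ = R_𝔫₀ ⊆ K` of the base chart `R` (the form in which D-LF, `DLFPt.lean`,
produces `Prime X₀`, `𝔪_O = (X₀, Y₀)`).

* `rtk6gls_isIntegrallyClosed` : `R_𝔫₀` is integrally closed if `R` is;
* `rtk6gls_isFractionRing`     : `K = Frac R_𝔫₀` if `K = Frac R`;
* `rtk6gls_isUnit`             : the elements of `R ∖ 𝔫₀` are units of `R_𝔫₀`;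
* `rtk6gls_cross`              : `rtk6gl_cross_tkc` at `O = ls_localSubring 𝔫₀`, `φ = s36n2pToLoc`:
  only chart-level hypotheses on `(R, 𝔫₀)`, `(B, 𝔫)` are left.
-/

set_option autoImplicit false
set_option linter.style.haveILetI false
set_option linter.unusedSectionVars false

namespace Fermat.Agent.RT.K6

open Fermat.Agent.UNIP Fermat.Agent.S36

section Ls

variable {K : Type*} [Field K] {R : Type*} [CommRing R] [Algebra R K]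

/-- the elements of `R ∖ 𝔫₀` are units of `R_𝔫₀` -/
theorem rtk6gls_isUnit (hinj : Function.Injective (algebraMap R K)) (𝔫₀ : Ideal R)
    [h𝔫₀ : 𝔫₀.IsPrime] {u : R} (hu : u ∉ 𝔫₀) : IsUnit (s36n2pToLoc (F := K) 𝔫₀ u) :=
  ls_isUnit_of_not_mem hinj 𝔫₀ (s36n2pToLoc (F := K) 𝔫₀ u) (b := u) (s := 1) hu
    (fun h => h𝔫₀.ne_top ((Ideal.eq_top_iff_one 𝔫₀).mpr h)) (by rw [map_one, one_mul]; rfl)

/-- `R_𝔫₀` is integrally closed if `R` is -/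
theorem rtk6gls_isIntegrallyClosed (hinj : Function.Injective (algebraMap R K)) (𝔫₀ : Ideal R)
    [h𝔫₀ : 𝔫₀.IsPrime] [IsDomain R] [IsIntegrallyClosed R] :
    IsIntegrallyClosed (ls_localSubring (F := K) 𝔫₀) := by
  letI : Algebra R (ls_localSubring (F := K) 𝔫₀) := (s36n2pToLoc (F := K) 𝔫₀).toAlgebra
  haveI := s36n2p_isLocalization (F := K) hinj 𝔫₀
  exact isIntegrallyClosed_of_isLocalization _ 𝔫₀.primeCompl 𝔫₀.primeCompl_le_nonZeroDivisors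

/-- `K = Frac R_𝔫₀` if `K = Frac R` -/
theorem rtk6gls_isFractionRing (𝔫₀ : Ideal R) [h𝔫₀ : 𝔫₀.IsPrime] [IsDomain R]
    [IsFractionRing R K] : IsFractionRing (ls_localSubring (F := K) 𝔫₀) K := by
  refine s36n2p_isFractionRing _ fun x => ?_
  obtain ⟨a, b, hb, h⟩ := IsFractionRing.div_surjective (A := R) x
  have hb0 : algebraMap R K b ≠ 0 := by
    intro h0
    have : b = 0 := IsFractionRing.injective R K (by rw [h0, map_zero])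
    rw [this] at hb
    exact absurd hb (by simp)
  refine ⟨s36n2pToLoc (F := K) 𝔫₀ a, s36n2pToLoc (F := K) 𝔫₀ b, hb0, ?_⟩
  show x * algebraMap R K b = algebraMap R K a
  rw [← h]
  field_simp

end Ls

section Cross

variable {K L R B : Type*} [Field K] [Field L] [Algebra K L] [CommRing R] [IsDomain R]
  [IsIntegrallyClosed R] [Algebra R K] [IsFractionRing R K] [CommRing B]

/-- **TKC on the chart, at `O = R_𝔫₀ = ls_localSubring 𝔫₀`.** -/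
theorem rtk6gls_cross (𝔫₀ : Ideal R) [h𝔫₀ : 𝔫₀.IsPrime]
    [IsLocalRing (ls_localSubring (F := K) 𝔫₀)]
    {d : ℕ} (hd : (d : R) ∉ 𝔫₀) {ζ : R} (hζ : IsPrimitiveRoot ζ d)
    {X₀ Y₀ : ls_localSubring (F := K) 𝔫₀} (hX : Prime X₀ ∨ IsUnit X₀)
    (hY : (Prime Y₀ ∧ ¬ Y₀ ∣ X₀) ∨ IsUnit Y₀)
    (hm : IsLocalRing.maximalIdeal (ls_localSubring (F := K) 𝔫₀) = Ideal.span {X₀, Y₀})
    {ε₁ ε₂ : ls_localSubring (F := K) 𝔫₀} (hε₁ : IsUnit ε₁) (hε₂ : IsUnit ε₂) {x₂ y₂ : L}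
    (hx : x₂ ^ d = algebraMap K L ((ε₁ * X₀ : ls_localSubring (F := K) 𝔫₀) : K))
    (hy : y₂ ^ d = algebraMap K L ((ε₂ * Y₀ : ls_localSubring (F := K) 𝔫₀) : K))
    (s₁ s₂ : L ≃ₐ[K] L) (h11 : s₁ x₂ = algebraMap R K ζ • x₂) (h12 : s₁ y₂ = y₂)
    (h21 : s₂ x₂ = x₂) (h22 : s₂ y₂ = algebraMap R K ζ • y₂)
    (hgen : Algebra.adjoin K ({x₂, y₂} : Set L) = ⊤)
    (j : R →+* B) (ι : B →+* L) (hι : Function.Injective ι)
    (hjι : ∀ r, ι (j r) = algebraMap K L (algebraMap R K r))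
    (𝔫 : Ideal B) [h𝔫 : 𝔫.IsMaximal] (hlie : ∀ u : R, j u ∈ 𝔫 ↔ u ∈ 𝔫₀)
    (hint : ∀ b : B, j.IsIntegralElem b)
    (hcl : ∀ x : L, (ι.comp j).IsIntegralElem x → ∃ b, ι b = x) :
    ∃ (u₁ u₂ : R) (X Y : B), j u₁ ∉ 𝔫 ∧ j u₂ ∉ 𝔫 ∧ ι X = ι (j u₁) * x₂ ∧ ι Y = ι (j u₂) * y₂ ∧
      X ∈ 𝔫 ∧ Y ∈ 𝔫 ∧ NodesLocGen 𝔫 {X, Y} ∧
      ∀ W : ValuationSubring L, (∀ b, ι b ∈ W) →
        (∀ u : R, ι (j u) ∈ W.nonunits → j u ∈ 𝔫) → ∀ b : B, ι b ∈ W.nonunits → b ∈ 𝔫 := by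
  have hinj : Function.Injective (algebraMap R K) := IsFractionRing.injective R K
  haveI := rtk6gls_isIntegrallyClosed (K := K) hinj 𝔫₀
  haveI := rtk6gls_isFractionRing (K := K) 𝔫₀
  have hφinj : Function.Injective (s36n2pToLoc (F := K) 𝔫₀) := fun a b hab =>
    hinj (congrArg Subtype.val hab)
  have hdO : IsUnit ((d : ℕ) : ls_localSubring (F := K) 𝔫₀) := by
    have := rtk6gls_isUnit (K := K) hinj 𝔫₀ hd
    rwa [map_natCast] at this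
  have hζO : IsPrimitiveRoot (s36n2pToLoc (F := K) 𝔫₀ ζ) d := hζ.map_of_injective hφinj
  refine rtk6gl_cross_tkc (O := ls_localSubring (F := K) 𝔫₀) (K := K) hdO hζO hX hY hm hε₁ hε₂
    (x₂ := x₂) (y₂ := y₂) hx hy s₁ s₂ h11 h12 h21 h22 hgen j ι hι 𝔫
    (s36n2pToLoc (F := K) 𝔫₀) (fun r => (hjι r).symm) ?_ ?_ hint hcl
  · intro o
    obtain ⟨b, s, hs, h⟩ := o.2
    exact ⟨s, b, fun hjs => hs ((hlie s).mp hjs), Subtype.ext h⟩
  · intro u hu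
    exact rtk6gls_isUnit (K := K) hinj 𝔫₀ (fun h => hu ((hlie u).mpr h))

end Cross

end Fermat.Agent.RT.K6


end ZBRT_091_2

/-! ### bundled: `Fermat.Agent.RT.K6.DGLFix` -/
section ZBRT_091_3
/-
K-machine, piece K6, piece D-GL(c) (helper94): the automorphisms at a crossing point.

Abstract (Mathlib + `DK.lean` + `DGLCross.lean`).  In the situation of TKC (`rtk6k_local`):
`O` a normal local domain, `𝔪 = (X, Y)`, `L = K(x₂, y₂)`, `x₂ ^ d = ε₁ X`, `y₂ ^ d = ε₂ Y`, the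
integral closure `C` of `O` in `L` is local with maximal ideal `(x₂, y₂)` and `C / (x₂, y₂) = O / 𝔪`.
Hence a ring endomorphism `Φ` of `L` which is the identity on `O` (or the identity modulo
`x₂ C + y₂ C` on `O`) and multiplies `x₂` and `y₂` by integral elements is the identity modulo
`x₂ C + y₂ C` on `C`:

* `rtk6gfIn O x y z`     : `z ∈ x C + y C` (element form);
* `rtk6gf_cong_coeff`    : `Φ c - c ∈ x₂ C + y₂ C` for every `c ∈ C` (from `rtk6k_integral_coeff`);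
* `rtk6gf_cong`          : C-form (`rtk6glIsLoc`): `Φ (ι b) = ι b + ι c`, `c ∈ 𝔫`, for every `b` of
                           the chart `B`;
* `rtk6gf_fix`           : C-form: `Φ 𝔫 ⊆ 𝔫`;
* `rtk6gf_cong_local`, `rtk6gf_fix_local` : the same from the `O`-form hypotheses of
                           `rtk6gl_cross_local`;
* `rtk6gf_cong_tkc`, `rtk6gf_fix_tkc`     : the same from the hypotheses of `rtk6gl_cross_tkc`
                           (TKC on the chart) and `Φ x₂ = a x₂`, `Φ y₂ = b y₂`, `Φ|_O = id`.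

The forms for `Rtk6ewFix` / `Rtk6ewCong` of `EWCross.lean` are in `DGLFixEW.lean`.
-/

set_option autoImplicit false
set_option linter.style.haveILetI false
set_option linter.unusedSectionVars false

namespace Fermat.Agent.RT.K6

open Fermat.Agent.UNIP

section Pred

/-- `z ∈ x C + y C`, where `C` is the integral closure of `O` in `L` (element form, as in the
conclusion of `rtk6k_local`). -/
def rtk6gfIn (O : Type*) {L : Type*} [CommRing O] [CommRing L] [Algebra O L] (x y z : L) : Prop :=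
  ∃ c₁ c₂ : L, IsIntegral O c₁ ∧ IsIntegral O c₂ ∧ z = c₁ * x + c₂ * y

variable {O L : Type*} [CommRing O] [CommRing L] [Algebra O L] {x y : L}

theorem rtk6gfIn_zero : rtk6gfIn O x y 0 :=
  ⟨0, 0, isIntegral_zero, isIntegral_zero, by rw [zero_mul, zero_mul, add_zero]⟩

theorem rtk6gfIn_left : rtk6gfIn O x y x :=
  ⟨1, 0, isIntegral_one, isIntegral_zero, by rw [one_mul, zero_mul, add_zero]⟩

theorem rtk6gfIn_right : rtk6gfIn O x y y :=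
  ⟨0, 1, isIntegral_zero, isIntegral_one, by rw [one_mul, zero_mul, zero_add]⟩

theorem rtk6gfIn_add {z z' : L} (h : rtk6gfIn O x y z) (h' : rtk6gfIn O x y z') :
    rtk6gfIn O x y (z + z') := by
  obtain ⟨c₁, c₂, hc₁, hc₂, rfl⟩ := h
  obtain ⟨d₁, d₂, hd₁, hd₂, rfl⟩ := h'
  exact ⟨c₁ + d₁, c₂ + d₂, hc₁.add hd₁, hc₂.add hd₂, by ring⟩

theorem rtk6gfIn_neg {z : L} (h : rtk6gfIn O x y z) : rtk6gfIn O x y (-z) := by
  obtain ⟨c₁, c₂, hc₁, hc₂, rfl⟩ := h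
  exact ⟨-c₁, -c₂, hc₁.neg, hc₂.neg, by ring⟩

theorem rtk6gfIn_sub {z z' : L} (h : rtk6gfIn O x y z) (h' : rtk6gfIn O x y z') :
    rtk6gfIn O x y (z - z') := by
  rw [sub_eq_add_neg]
  exact rtk6gfIn_add h (rtk6gfIn_neg h')

theorem rtk6gfIn_mul {c z : L} (hc : IsIntegral O c) (h : rtk6gfIn O x y z) :
    rtk6gfIn O x y (c * z) := by
  obtain ⟨c₁, c₂, hc₁, hc₂, rfl⟩ := h
  exact ⟨c * c₁, c * c₂, hc.mul hc₁, hc.mul hc₂, by ring⟩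

theorem rtk6gfIn_mul_right {c z : L} (hc : IsIntegral O c) (h : rtk6gfIn O x y z) :
    rtk6gfIn O x y (z * c) := by
  rw [mul_comm]
  exact rtk6gfIn_mul hc h

theorem rtk6gfIn_sum {α : Type*} (s : Finset α) (f : α → L)
    (h : ∀ i ∈ s, rtk6gfIn O x y (f i)) : rtk6gfIn O x y (∑ i ∈ s, f i) := by
  classical
  induction s using Finset.induction_on with
  | empty =>
    rw [Finset.sum_empty]
    exact rtk6gfIn_zero
  | insert a s ha ih =>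
    rw [Finset.sum_insert ha]
    exact rtk6gfIn_add (h a (Finset.mem_insert_self a s))
      (ih fun i hi => h i (Finset.mem_insert_of_mem hi))

theorem rtk6gfIn_isIntegral (hx : IsIntegral O x) (hy : IsIntegral O y) {z : L}
    (h : rtk6gfIn O x y z) : IsIntegral O z := by
  obtain ⟨c₁, c₂, hc₁, hc₂, rfl⟩ := h
  exact (hc₁.mul hx).add (hc₂.mul hy)

/-- the monomials `x ^ i y ^ j`, `(i, j) ≠ (0, 0)`, lie in `x C + y C` -/
theorem rtk6gfIn_monomial (hx : IsIntegral O x) (hy : IsIntegral O y) {i j : ℕ}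
    (hij : i ≠ 0 ∨ j ≠ 0) : rtk6gfIn O x y (x ^ i * y ^ j) := by
  rcases hij with hi | hj
  · obtain ⟨i', rfl⟩ := Nat.exists_eq_succ_of_ne_zero hi
    have e : x ^ (i' + 1) * y ^ j = (x ^ i' * y ^ j) * x := by ring
    rw [e]
    exact rtk6gfIn_mul ((hx.pow i').mul (hy.pow j)) rtk6gfIn_left
  · obtain ⟨j', rfl⟩ := Nat.exists_eq_succ_of_ne_zero hj
    have e : x ^ i * y ^ (j' + 1) = (x ^ i * y ^ j') * y := by ring
    rw [e]
    exact rtk6gfIn_mul ((hx.pow i).mul (hy.pow j')) rtk6gfIn_right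

/-- `Φ` is the identity modulo `x C + y C` on a sum of terms `α · x ^ i y ^ j`, if it is on the
coefficients `α` and `Φ x = a x`, `Φ y = b y` with `a`, `b` integral. -/
theorem rtk6gf_cong_term (hx : IsIntegral O x) (hy : IsIntegral O y) (Φ : L →+* L)
    {a b : L} (ha : IsIntegral O a) (hb : IsIntegral O b) (hΦx : Φ x = a * x)
    (hΦy : Φ y = b * y) {α : L} (hα : IsIntegral O α) (hΦα : rtk6gfIn O x y (Φ α - α))
    (i j : ℕ) : rtk6gfIn O x y (Φ (α * (x ^ i * y ^ j)) - α * (x ^ i * y ^ j)) := by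
  have hΦαi : IsIntegral O (Φ α) := by
    have : Φ α = (Φ α - α) + α := by ring
    rw [this]
    exact (rtk6gfIn_isIntegral hx hy hΦα).add hα
  have e1 : Φ (α * (x ^ i * y ^ j)) = Φ α * (a ^ i * b ^ j) * (x ^ i * y ^ j) := by
    rw [map_mul, map_mul, map_pow, map_pow, hΦx, hΦy, mul_pow, mul_pow]
    ring
  by_cases hij : i ≠ 0 ∨ j ≠ 0
  · have hm := rtk6gfIn_monomial (O := O) hx hy hij
    rw [e1]
    exact rtk6gfIn_sub (rtk6gfIn_mul (hΦαi.mul ((ha.pow i).mul (hb.pow j))) hm)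
      (rtk6gfIn_mul hα hm)
  · have hi : i = 0 := by
      by_contra h
      exact hij (Or.inl h)
    have hj : j = 0 := by
      by_contra h
      exact hij (Or.inr h)
    subst hi
    subst hj
    simpa using hΦα

end Pred

section Coeff

variable {O K L : Type*} [CommRing O] [IsDomain O] [IsIntegrallyClosed O]
  [Field K] [Algebra O K] [IsFractionRing O K]
  [Field L] [Algebra K L] [Algebra O L] [IsScalarTower O K L]

/-- **The automorphisms at a crossing point, local form.**  In the situation of TKC, a ring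
endomorphism `Φ` of `L` with `Φ o ≡ o` modulo `x₂ C + y₂ C` for `o ∈ O` and `Φ x₂ = a x₂`,
`Φ y₂ = b y₂` (`a`, `b` integral over `O`) satisfies `Φ c ≡ c` modulo `x₂ C + y₂ C` for every
`c ∈ C` (the integral closure of `O` in `L`). -/
theorem rtk6gf_cong_coeff {d : ℕ} (hd : IsUnit (d : O)) {ζ : O} (hζ : IsPrimitiveRoot ζ d)
    {X Y : O} (hX : Prime X ∨ IsUnit X) (hY : (Prime Y ∧ ¬ Y ∣ X) ∨ IsUnit Y)
    {ε₁ ε₂ : O} (hε₁ : IsUnit ε₁) (hε₂ : IsUnit ε₂) {x₂ y₂ : L}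
    (hx : x₂ ^ d = algebraMap O L (ε₁ * X)) (hy : y₂ ^ d = algebraMap O L (ε₂ * Y))
    (s₁ s₂ : L ≃ₐ[K] L) (h11 : s₁ x₂ = algebraMap O K ζ • x₂) (h12 : s₁ y₂ = y₂)
    (h21 : s₂ x₂ = x₂) (h22 : s₂ y₂ = algebraMap O K ζ • y₂)
    (hgen : Algebra.adjoin K ({x₂, y₂} : Set L) = ⊤)
    (Φ : L →+* L)
    (hΦO : ∀ o : O, rtk6gfIn O x₂ y₂ (Φ (algebraMap O L o) - algebraMap O L o))
    {a b : L} (ha : IsIntegral O a) (hb : IsIntegral O b) (hΦx : Φ x₂ = a * x₂)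
    (hΦy : Φ y₂ = b * y₂) {c : L} (hc : IsIntegral O c) :
    rtk6gfIn O x₂ y₂ (Φ c - c) := by
  have hd0 : 0 < d := by
    rcases Nat.eq_zero_or_pos d with h | h
    · exfalso
      rw [h, Nat.cast_zero] at hd
      exact not_isUnit_zero hd
    · exact h
  have hxi : IsIntegral O x₂ := IsIntegral.of_pow hd0 (by rw [hx]; exact isIntegral_algebraMap)
  have hyi : IsIntegral O y₂ := IsIntegral.of_pow hd0 (by rw [hy]; exact isIntegral_algebraMap)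
  obtain ⟨cf, rfl⟩ := rtk6k_integral_coeff hd hζ hX hY hε₁ hε₂ hx hy s₁ s₂ h11 h12 h21 h22
    hgen hc
  rw [map_sum, ← Finset.sum_sub_distrib]
  refine rtk6gfIn_sum _ _ fun ι _ => ?_
  exact rtk6gf_cong_term hxi hyi Φ ha hb hΦx hΦy isIntegral_algebraMap (hΦO (cf ι)) _ _

/-- the same when `Φ` is the identity on `O` -/
theorem rtk6gf_cong_coeff_id {d : ℕ} (hd : IsUnit (d : O)) {ζ : O} (hζ : IsPrimitiveRoot ζ d)
    {X Y : O} (hX : Prime X ∨ IsUnit X) (hY : (Prime Y ∧ ¬ Y ∣ X) ∨ IsUnit Y)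
    {ε₁ ε₂ : O} (hε₁ : IsUnit ε₁) (hε₂ : IsUnit ε₂) {x₂ y₂ : L}
    (hx : x₂ ^ d = algebraMap O L (ε₁ * X)) (hy : y₂ ^ d = algebraMap O L (ε₂ * Y))
    (s₁ s₂ : L ≃ₐ[K] L) (h11 : s₁ x₂ = algebraMap O K ζ • x₂) (h12 : s₁ y₂ = y₂)
    (h21 : s₂ x₂ = x₂) (h22 : s₂ y₂ = algebraMap O K ζ • y₂)
    (hgen : Algebra.adjoin K ({x₂, y₂} : Set L) = ⊤)
    (Φ : L →+* L) (hΦO : ∀ o : O, Φ (algebraMap O L o) = algebraMap O L o)
    {a b : L} (ha : IsIntegral O a) (hb : IsIntegral O b) (hΦx : Φ x₂ = a * x₂)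
    (hΦy : Φ y₂ = b * y₂) {c : L} (hc : IsIntegral O c) :
    rtk6gfIn O x₂ y₂ (Φ c - c) :=
  rtk6gf_cong_coeff hd hζ hX hY hε₁ hε₂ hx hy s₁ s₂ h11 h12 h21 h22 hgen Φ
    (fun o => by rw [hΦO o, sub_self]; exact rtk6gfIn_zero) ha hb hΦx hΦy hc

end Coeff

section CForm

variable {L : Type*} [Field L] {R B : Type*} [CommRing R] [CommRing B]

/-- the elements of the chart `B` in `x C + y C` lie in `𝔫` (`C` local with maximal ideal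
`(x, y)`) -/
theorem rtk6gf_mem_of_in (j : R →+* B) (ι : B →+* L) (hι : Function.Injective ι)
    (𝔫 : Ideal B) [h𝔫 : 𝔫.IsMaximal] (C : Subring L) (hC : rtk6glIsLoc j ι 𝔫 C)
    {x y : L}
    (hloc : ∀ c ∈ C, (∃ c' ∈ C, c * c' = 1) ∨ ∃ c₁ ∈ C, ∃ c₂ ∈ C, c = c₁ * x + c₂ * y)
    (hprop : ¬ ∃ c₁ ∈ C, ∃ c₂ ∈ C, (1 : L) = c₁ * x + c₂ * y)
    {b : B} (hb : ∃ c₁ ∈ C, ∃ c₂ ∈ C, ι b = c₁ * x + c₂ * y) : b ∈ 𝔫 := by
  by_contra hb𝔫
  obtain ⟨c₁, hc₁, c₂, hc₂, hbc⟩ := hb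
  obtain ⟨a, n, hn, han⟩ := h𝔫.exists_inv hb𝔫
  rcases hloc (ι n) (hC.le n) with ⟨c', hc', hnc'⟩ | ⟨d₁, hd₁, d₂, hd₂, hnd⟩
  · exact rtk6gl_not_mem_of_unit j ι hι 𝔫 C hC hc' hnc' hn
  · apply hprop
    refine ⟨ι a * c₁ + d₁, C.add_mem (C.mul_mem (hC.le a) hc₁) hd₁,
      ι a * c₂ + d₂, C.add_mem (C.mul_mem (hC.le a) hc₂) hd₂, ?_⟩
    have : (1 : L) = ι a * ι b + ι n := by rw [← map_mul, ← map_add, han, map_one]
    rw [this, hbc, hnd]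
    ring

/-- **`Φ b ≡ b` modulo `𝔫` on the chart, C-form.** -/
theorem rtk6gf_cong (j : R →+* B) (ι : B →+* L) (hι : Function.Injective ι)
    (𝔫 : Ideal B) [h𝔫 : 𝔫.IsMaximal] (C : Subring L) (hC : rtk6glIsLoc j ι 𝔫 C)
    {x y : L}
    (hloc : ∀ c ∈ C, (∃ c' ∈ C, c * c' = 1) ∨ ∃ c₁ ∈ C, ∃ c₂ ∈ C, c = c₁ * x + c₂ * y)
    (hprop : ¬ ∃ c₁ ∈ C, ∃ c₂ ∈ C, (1 : L) = c₁ * x + c₂ * y)
    (Φ : L →+* L) (hΦB : ∀ b : B, ∃ b' : B, Φ (ι b) = ι b')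
    (hΦC : ∀ b : B, ∃ c₁ ∈ C, ∃ c₂ ∈ C, Φ (ι b) - ι b = c₁ * x + c₂ * y) (b : B) :
    ∃ c ∈ 𝔫, Φ (ι b) = ι b + ι c := by
  obtain ⟨b', hb'⟩ := hΦB b
  refine ⟨b' - b, ?_, ?_⟩
  · refine rtk6gf_mem_of_in j ι hι 𝔫 C hC hloc hprop ?_
    obtain ⟨c₁, hc₁, c₂, hc₂, h⟩ := hΦC b
    exact ⟨c₁, hc₁, c₂, hc₂, by rw [map_sub, ← hb', h]⟩
  · rw [map_sub, ← hb']
    ring

/-- **`Φ 𝔫 ⊆ 𝔫` on the chart, C-form.** -/
theorem rtk6gf_fix (j : R →+* B) (ι : B →+* L) (hι : Function.Injective ι)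
    (𝔫 : Ideal B) [h𝔫 : 𝔫.IsMaximal] (C : Subring L) (hC : rtk6glIsLoc j ι 𝔫 C)
    {x y : L}
    (hloc : ∀ c ∈ C, (∃ c' ∈ C, c * c' = 1) ∨ ∃ c₁ ∈ C, ∃ c₂ ∈ C, c = c₁ * x + c₂ * y)
    (hprop : ¬ ∃ c₁ ∈ C, ∃ c₂ ∈ C, (1 : L) = c₁ * x + c₂ * y)
    (Φ : L →+* L) (hΦB : ∀ b : B, ∃ b' : B, Φ (ι b) = ι b')
    (hΦC : ∀ b : B, ∃ c₁ ∈ C, ∃ c₂ ∈ C, Φ (ι b) - ι b = c₁ * x + c₂ * y) {b : B}
    (hb : b ∈ 𝔫) : ∃ b' ∈ 𝔫, Φ (ι b) = ι b' := by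
  obtain ⟨c, hc, h⟩ := rtk6gf_cong j ι hι 𝔫 C hC hloc hprop Φ hΦB hΦC b
  exact ⟨b + c, 𝔫.add_mem hb hc, by rw [h, map_add]⟩

end CForm

section OForm

variable {L : Type*} [Field L] {R B O : Type*} [CommRing R] [CommRing B] [CommRing O]
  [Algebra O L]

/-- **`Φ b ≡ b` modulo `𝔫` on the chart, from the conclusion of TKC** (`rtk6k_local`) and
`Φ c ≡ c` modulo `x C + y C` on the integral closure `C` of `O` in `L`. -/
theorem rtk6gf_cong_local (j : R →+* B) (ι : B →+* L) (hι : Function.Injective ι)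
    (𝔫 : Ideal B) [h𝔫 : 𝔫.IsMaximal]
    (φ : R →+* O) (hφ : ∀ r, algebraMap O L (φ r) = ι (j r))
    (hO2 : ∀ o : O, ∃ u r : R, j u ∉ 𝔫 ∧ φ u * o = φ r)
    (hO3 : ∀ u : R, j u ∉ 𝔫 → IsUnit (φ u))
    (hint : ∀ b : B, j.IsIntegralElem b)
    (hcl : ∀ x : L, (ι.comp j).IsIntegralElem x → ∃ b, ι b = x)
    {x y : L}
    (hloc : (∀ b : L, IsIntegral O b → (∃ b' : L, IsIntegral O b' ∧ b * b' = 1) ∨
      ∃ c₁ c₂ : L, IsIntegral O c₁ ∧ IsIntegral O c₂ ∧ b = c₁ * x + c₂ * y) ∧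
      ¬ ∃ c₁ c₂ : L, IsIntegral O c₁ ∧ IsIntegral O c₂ ∧ 1 = c₁ * x + c₂ * y)
    (Φ : L →+* L) (hΦB : ∀ b : B, ∃ b' : B, Φ (ι b) = ι b')
    (hΦC : ∀ c : L, IsIntegral O c → rtk6gfIn O x y (Φ c - c)) (b : B) :
    ∃ c ∈ 𝔫, Φ (ι b) = ι b + ι c := by
  haveI : 𝔫.IsPrime := h𝔫.isPrime
  have hC := rtk6gl_isLoc_of_local j ι 𝔫 φ hφ hO2 hO3 hint hcl
  refine rtk6gf_cong j ι hι 𝔫 _ hC (x := x) (y := y) ?_ ?_ Φ hΦB ?_ b
  · intro c hc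
    rcases hloc.1 c hc with ⟨b', hb', h⟩ | ⟨c₁, c₂, hc₁, hc₂, h⟩
    · exact Or.inl ⟨b', hb', h⟩
    · exact Or.inr ⟨c₁, hc₁, c₂, hc₂, h⟩
  · rintro ⟨c₁, hc₁, c₂, hc₂, h⟩
    exact hloc.2 ⟨c₁, c₂, hc₁, hc₂, h⟩
  · intro b
    obtain ⟨c₁, c₂, hc₁, hc₂, h⟩ := hΦC (ι b) (hC.le b)
    exact ⟨c₁, hc₁, c₂, hc₂, h⟩

/-- **`Φ 𝔫 ⊆ 𝔫` on the chart, from the conclusion of TKC.** -/
theorem rtk6gf_fix_local (j : R →+* B) (ι : B →+* L) (hι : Function.Injective ι)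
    (𝔫 : Ideal B) [h𝔫 : 𝔫.IsMaximal]
    (φ : R →+* O) (hφ : ∀ r, algebraMap O L (φ r) = ι (j r))
    (hO2 : ∀ o : O, ∃ u r : R, j u ∉ 𝔫 ∧ φ u * o = φ r)
    (hO3 : ∀ u : R, j u ∉ 𝔫 → IsUnit (φ u))
    (hint : ∀ b : B, j.IsIntegralElem b)
    (hcl : ∀ x : L, (ι.comp j).IsIntegralElem x → ∃ b, ι b = x)
    {x y : L}
    (hloc : (∀ b : L, IsIntegral O b → (∃ b' : L, IsIntegral O b' ∧ b * b' = 1) ∨
      ∃ c₁ c₂ : L, IsIntegral O c₁ ∧ IsIntegral O c₂ ∧ b = c₁ * x + c₂ * y) ∧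
      ¬ ∃ c₁ c₂ : L, IsIntegral O c₁ ∧ IsIntegral O c₂ ∧ 1 = c₁ * x + c₂ * y)
    (Φ : L →+* L) (hΦB : ∀ b : B, ∃ b' : B, Φ (ι b) = ι b')
    (hΦC : ∀ c : L, IsIntegral O c → rtk6gfIn O x y (Φ c - c)) {b : B} (hb : b ∈ 𝔫) :
    ∃ b' ∈ 𝔫, Φ (ι b) = ι b' := by
  obtain ⟨c, hc, h⟩ := rtk6gf_cong_local j ι hι 𝔫 φ hφ hO2 hO3 hint hcl hloc Φ hΦB hΦC b
  exact ⟨b + c, 𝔫.add_mem hb hc, by rw [h, map_add]⟩

end OForm

section TKC

/-- **The automorphisms at a crossing point, on the chart** (hypotheses of `rtk6gl_cross_tkc`):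
a ring endomorphism `Φ` of `L` which preserves the chart `B`, is the identity modulo
`x₂ C + y₂ C` on `O` and multiplies `x₂`, `y₂` by integral elements is the identity modulo `𝔫`
on `B`. -/
theorem rtk6gf_cong_tkc {O K L R B : Type*} [CommRing O] [IsDomain O] [IsIntegrallyClosed O]
    [Field K] [Algebra O K] [IsFractionRing O K] [Field L] [Algebra K L] [Algebra O L]
    [IsScalarTower O K L] [IsLocalRing O] [CommRing R] [CommRing B]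
    {d : ℕ} (hd : IsUnit (d : O)) {ζ : O}
    (hζ : IsPrimitiveRoot ζ d)
    {X₀ Y₀ : O} (hX : Prime X₀ ∨ IsUnit X₀) (hY : (Prime Y₀ ∧ ¬ Y₀ ∣ X₀) ∨ IsUnit Y₀)
    (hm : IsLocalRing.maximalIdeal O = Ideal.span {X₀, Y₀})
    {ε₁ ε₂ : O} (hε₁ : IsUnit ε₁) (hε₂ : IsUnit ε₂) {x₂ y₂ : L}
    (hx : x₂ ^ d = algebraMap O L (ε₁ * X₀)) (hy : y₂ ^ d = algebraMap O L (ε₂ * Y₀))
    (s₁ s₂ : L ≃ₐ[K] L) (h11 : s₁ x₂ = algebraMap O K ζ • x₂) (h12 : s₁ y₂ = y₂)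
    (h21 : s₂ x₂ = x₂) (h22 : s₂ y₂ = algebraMap O K ζ • y₂)
    (hgen : Algebra.adjoin K ({x₂, y₂} : Set L) = ⊤)
    (j : R →+* B) (ι : B →+* L) (hι : Function.Injective ι)
    (𝔫 : Ideal B) [h𝔫 : 𝔫.IsMaximal]
    (φ : R →+* O) (hφ : ∀ r, algebraMap O L (φ r) = ι (j r))
    (hO2 : ∀ o : O, ∃ u r : R, j u ∉ 𝔫 ∧ φ u * o = φ r)
    (hO3 : ∀ u : R, j u ∉ 𝔫 → IsUnit (φ u))
    (hint : ∀ b : B, j.IsIntegralElem b)
    (hcl : ∀ x : L, (ι.comp j).IsIntegralElem x → ∃ b, ι b = x)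
    (Φ : L →+* L) (hΦB : ∀ b : B, ∃ b' : B, Φ (ι b) = ι b')
    (hΦO : ∀ o : O, rtk6gfIn O x₂ y₂ (Φ (algebraMap O L o) - algebraMap O L o))
    {a b : L} (ha : IsIntegral O a) (hb : IsIntegral O b) (hΦx : Φ x₂ = a * x₂)
    (hΦy : Φ y₂ = b * y₂) (z : B) :
    ∃ c ∈ 𝔫, Φ (ι z) = ι z + ι c :=
  rtk6gf_cong_local j ι hι 𝔫 φ hφ hO2 hO3 hint hcl
    (rtk6k_local (K := K) hd hζ hX hY hm hε₁ hε₂ hx hy s₁ s₂ h11 h12 h21 h22 hgen) Φ hΦB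
    (fun _ hc => rtk6gf_cong_coeff hd hζ hX hY hε₁ hε₂ hx hy s₁ s₂ h11 h12 h21 h22 hgen Φ hΦO
      ha hb hΦx hΦy hc) z

/-- **`Φ 𝔫 ⊆ 𝔫` at a crossing point, on the chart** (hypotheses of `rtk6gl_cross_tkc`). -/
theorem rtk6gf_fix_tkc {O K L R B : Type*} [CommRing O] [IsDomain O] [IsIntegrallyClosed O]
    [Field K] [Algebra O K] [IsFractionRing O K] [Field L] [Algebra K L] [Algebra O L]
    [IsScalarTower O K L] [IsLocalRing O] [CommRing R] [CommRing B]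
    {d : ℕ} (hd : IsUnit (d : O)) {ζ : O}
    (hζ : IsPrimitiveRoot ζ d)
    {X₀ Y₀ : O} (hX : Prime X₀ ∨ IsUnit X₀) (hY : (Prime Y₀ ∧ ¬ Y₀ ∣ X₀) ∨ IsUnit Y₀)
    (hm : IsLocalRing.maximalIdeal O = Ideal.span {X₀, Y₀})
    {ε₁ ε₂ : O} (hε₁ : IsUnit ε₁) (hε₂ : IsUnit ε₂) {x₂ y₂ : L}
    (hx : x₂ ^ d = algebraMap O L (ε₁ * X₀)) (hy : y₂ ^ d = algebraMap O L (ε₂ * Y₀))
    (s₁ s₂ : L ≃ₐ[K] L) (h11 : s₁ x₂ = algebraMap O K ζ • x₂) (h12 : s₁ y₂ = y₂)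
    (h21 : s₂ x₂ = x₂) (h22 : s₂ y₂ = algebraMap O K ζ • y₂)
    (hgen : Algebra.adjoin K ({x₂, y₂} : Set L) = ⊤)
    (j : R →+* B) (ι : B →+* L) (hι : Function.Injective ι)
    (𝔫 : Ideal B) [h𝔫 : 𝔫.IsMaximal]
    (φ : R →+* O) (hφ : ∀ r, algebraMap O L (φ r) = ι (j r))
    (hO2 : ∀ o : O, ∃ u r : R, j u ∉ 𝔫 ∧ φ u * o = φ r)
    (hO3 : ∀ u : R, j u ∉ 𝔫 → IsUnit (φ u))
    (hint : ∀ b : B, j.IsIntegralElem b)
    (hcl : ∀ x : L, (ι.comp j).IsIntegralElem x → ∃ b, ι b = x)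
    (Φ : L →+* L) (hΦB : ∀ b : B, ∃ b' : B, Φ (ι b) = ι b')
    (hΦO : ∀ o : O, rtk6gfIn O x₂ y₂ (Φ (algebraMap O L o) - algebraMap O L o))
    {a b : L} (ha : IsIntegral O a) (hb : IsIntegral O b) (hΦx : Φ x₂ = a * x₂)
    (hΦy : Φ y₂ = b * y₂) {z : B} (hz : z ∈ 𝔫) :
    ∃ z' ∈ 𝔫, Φ (ι z) = ι z' := by
  obtain ⟨c, hc, h⟩ := rtk6gf_cong_tkc hd hζ hX hY hm hε₁ hε₂ hx hy s₁ s₂ h11 h12 h21 h22 hgen
    j ι hι 𝔫 φ hφ hO2 hO3 hint hcl Φ hΦB hΦO ha hb hΦx hΦy z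
  exact ⟨z + c, 𝔫.add_mem hz hc, by rw [h, map_add]⟩

end TKC

end Fermat.Agent.RT.K6


end ZBRT_091_3

/-! ### bundled: `Fermat.Agent.RT.K6.DGLFixLs` -/
section ZBRT_091_4
/-
K-machine, piece K6, piece D-GL(c) (helper94), part 3: the automorphisms at a crossing point, at
the local ring `O = ls_localSubring 𝔫₀ = R_𝔫₀` of the base chart `R` (the setting of
`rtk6gls_cross`, `DGLLs.lean`): only chart-level hypotheses on `(R, 𝔫₀)`, `(B, 𝔫)`, `Φ` are left.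

* `rtk6gf_ls_fixO`  : a ring endomorphism `Φ` of `L` which fixes (the image of) `R` fixes `R_𝔫₀`;
* `rtk6gf_ls_cong`  : `Φ` preserves `B`, fixes `R`, `Φ x₂ = a x₂`, `Φ y₂ = b y₂` with `a`, `b`
                      integral over `R_𝔫₀` ⟹ `Φ (ι z) = ι z + ι c`, `c ∈ 𝔫`, for every `z : B`;
* `rtk6gf_ls_fix`   : … ⟹ `Φ 𝔫 ⊆ 𝔫`;
* `rtk6gf_ls_integral_inv` : `(ι (j α))⁻¹` is integral over `R_𝔫₀` for `α ∉ 𝔫₀`.
-/

set_option autoImplicit false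
set_option linter.style.haveILetI false
set_option linter.unusedSectionVars false

namespace Fermat.Agent.RT.K6

open Fermat.Agent.UNIP Fermat.Agent.S36

section LsFix

variable {K L R B : Type*} [Field K] [Field L] [Algebra K L] [CommRing R] [IsDomain R]
  [IsIntegrallyClosed R] [Algebra R K] [IsFractionRing R K] [CommRing B]

omit [IsIntegrallyClosed R] in
/-- a ring endomorphism of `L` which fixes the image of `R` fixes the image of `R_𝔫₀` -/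
theorem rtk6gf_ls_fixO (𝔫₀ : Ideal R) [h𝔫₀ : 𝔫₀.IsPrime] (Φ : L →+* L)
    (hΦR : ∀ r : R, Φ (algebraMap K L (algebraMap R K r)) = algebraMap K L (algebraMap R K r))
    (o : ls_localSubring (F := K) 𝔫₀) :
    Φ (algebraMap K L (o : K)) = algebraMap K L (o : K) := by
  obtain ⟨b, s, hs, h⟩ := o.2
  have hs0 : algebraMap K L (algebraMap R K s) ≠ 0 := by
    intro h0
    have h1 : algebraMap R K s = 0 := (algebraMap K L).injective (by rw [h0, map_zero])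
    have h2 : s = 0 := IsFractionRing.injective R K (by rw [h1, map_zero])
    exact hs (h2 ▸ 𝔫₀.zero_mem)
  have h' : algebraMap K L (algebraMap R K s) * algebraMap K L (o : K) =
      algebraMap K L (algebraMap R K b) := by
    rw [← map_mul]
    exact congrArg (algebraMap K L) h
  have h2 := congrArg Φ h'
  rw [map_mul, hΦR, hΦR, ← h'] at h2
  exact mul_left_cancel₀ hs0 h2

omit [IsIntegrallyClosed R] in
/-- `(ι (j α))⁻¹` is integral over `R_𝔫₀` for `α ∉ 𝔫₀` -/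
theorem rtk6gf_ls_integral_inv (𝔫₀ : Ideal R) [h𝔫₀ : 𝔫₀.IsPrime] {α : R} (hα : α ∉ 𝔫₀) :
    IsIntegral (ls_localSubring (F := K) 𝔫₀) (algebraMap K L (algebraMap R K α))⁻¹ := by
  have hinj : Function.Injective (algebraMap R K) := IsFractionRing.injective R K
  obtain ⟨v, hv⟩ := rtk6gls_isUnit (K := K) hinj 𝔫₀ hα
  have e : (algebraMap K L (algebraMap R K α))⁻¹ =
      algebraMap (ls_localSubring (F := K) 𝔫₀) L (↑v⁻¹ : ls_localSubring (F := K) 𝔫₀) := by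
    have h1 : algebraMap K L (algebraMap R K α) *
        algebraMap (ls_localSubring (F := K) 𝔫₀) L (↑v⁻¹ : ls_localSubring (F := K) 𝔫₀) = 1 := by
      have h2 : algebraMap K L (algebraMap R K α) =
          algebraMap (ls_localSubring (F := K) 𝔫₀) L (s36n2pToLoc (F := K) 𝔫₀ α) := rfl
      rw [h2, ← hv, ← map_mul, Units.mul_inv, map_one]
    exact inv_eq_of_mul_eq_one_right h1
  rw [e]
  exact isIntegral_algebraMap

omit [IsIntegrallyClosed R] in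
/-- `ι (j α)` is integral over `R_𝔫₀` -/
theorem rtk6gf_ls_integral (𝔫₀ : Ideal R) [h𝔫₀ : 𝔫₀.IsPrime] (α : R) :
    IsIntegral (ls_localSubring (F := K) 𝔫₀) (algebraMap K L (algebraMap R K α)) := by
  have h2 : algebraMap K L (algebraMap R K α) =
      algebraMap (ls_localSubring (F := K) 𝔫₀) L (s36n2pToLoc (F := K) 𝔫₀ α) := rfl
  rw [h2]
  exact isIntegral_algebraMap

/-- **The automorphisms at a crossing point, at `O = R_𝔫₀ = ls_localSubring 𝔫₀`**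
(hypotheses of `rtk6gls_cross`): `Φ b ≡ b` modulo `𝔫` on the chart `B`. -/
theorem rtk6gf_ls_cong (𝔫₀ : Ideal R) [h𝔫₀ : 𝔫₀.IsPrime]
    [IsLocalRing (ls_localSubring (F := K) 𝔫₀)]
    {d : ℕ} (hd : (d : R) ∉ 𝔫₀) {ζ : R} (hζ : IsPrimitiveRoot ζ d)
    {X₀ Y₀ : ls_localSubring (F := K) 𝔫₀} (hX : Prime X₀ ∨ IsUnit X₀)
    (hY : (Prime Y₀ ∧ ¬ Y₀ ∣ X₀) ∨ IsUnit Y₀)
    (hm : IsLocalRing.maximalIdeal (ls_localSubring (F := K) 𝔫₀) = Ideal.span {X₀, Y₀})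
    {ε₁ ε₂ : ls_localSubring (F := K) 𝔫₀} (hε₁ : IsUnit ε₁) (hε₂ : IsUnit ε₂) {x₂ y₂ : L}
    (hx : x₂ ^ d = algebraMap K L ((ε₁ * X₀ : ls_localSubring (F := K) 𝔫₀) : K))
    (hy : y₂ ^ d = algebraMap K L ((ε₂ * Y₀ : ls_localSubring (F := K) 𝔫₀) : K))
    (s₁ s₂ : L ≃ₐ[K] L) (h11 : s₁ x₂ = algebraMap R K ζ • x₂) (h12 : s₁ y₂ = y₂)
    (h21 : s₂ x₂ = x₂) (h22 : s₂ y₂ = algebraMap R K ζ • y₂)
    (hgen : Algebra.adjoin K ({x₂, y₂} : Set L) = ⊤)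
    (j : R →+* B) (ι : B →+* L) (hι : Function.Injective ι)
    (hjι : ∀ r, ι (j r) = algebraMap K L (algebraMap R K r))
    (𝔫 : Ideal B) [h𝔫 : 𝔫.IsMaximal] (hlie : ∀ u : R, j u ∈ 𝔫 ↔ u ∈ 𝔫₀)
    (hint : ∀ b : B, j.IsIntegralElem b)
    (hcl : ∀ x : L, (ι.comp j).IsIntegralElem x → ∃ b, ι b = x)
    (Φ : L →+* L) (hΦB : ∀ b : B, ∃ b' : B, Φ (ι b) = ι b')
    (hΦR : ∀ r : R, Φ (ι (j r)) = ι (j r))
    {a b : L} (ha : IsIntegral (ls_localSubring (F := K) 𝔫₀) a)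
    (hb : IsIntegral (ls_localSubring (F := K) 𝔫₀) b)
    (hΦx : Φ x₂ = a * x₂) (hΦy : Φ y₂ = b * y₂) (z : B) :
    ∃ c ∈ 𝔫, Φ (ι z) = ι z + ι c := by
  have hinj : Function.Injective (algebraMap R K) := IsFractionRing.injective R K
  haveI := rtk6gls_isIntegrallyClosed (K := K) hinj 𝔫₀
  haveI := rtk6gls_isFractionRing (K := K) 𝔫₀
  have hφinj : Function.Injective (s36n2pToLoc (F := K) 𝔫₀) := fun a b hab =>
    hinj (congrArg Subtype.val hab)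
  have hdO : IsUnit ((d : ℕ) : ls_localSubring (F := K) 𝔫₀) := by
    have := rtk6gls_isUnit (K := K) hinj 𝔫₀ hd
    rwa [map_natCast] at this
  have hζO : IsPrimitiveRoot (s36n2pToLoc (F := K) 𝔫₀ ζ) d := hζ.map_of_injective hφinj
  have hΦR' : ∀ r : R,
      Φ (algebraMap K L (algebraMap R K r)) = algebraMap K L (algebraMap R K r) := fun r => by
    rw [← hjι]
    exact hΦR r
  refine rtk6gf_cong_tkc (O := ls_localSubring (F := K) 𝔫₀) (K := K) hdO hζO hX hY hm hε₁ hε₂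
    (x₂ := x₂) (y₂ := y₂) hx hy s₁ s₂ h11 h12 h21 h22 hgen j ι hι 𝔫
    (s36n2pToLoc (F := K) 𝔫₀) (fun r => (hjι r).symm) ?_ ?_ hint hcl Φ hΦB ?_ ha hb hΦx hΦy z
  · intro o
    obtain ⟨b, s, hs, h⟩ := o.2
    exact ⟨s, b, fun hjs => hs ((hlie s).mp hjs), Subtype.ext h⟩
  · intro u hu
    exact rtk6gls_isUnit (K := K) hinj 𝔫₀ (fun h => hu ((hlie u).mpr h))
  · intro o
    have h : Φ (algebraMap (ls_localSubring (F := K) 𝔫₀) L o) -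
        algebraMap (ls_localSubring (F := K) 𝔫₀) L o = 0 :=
      sub_eq_zero.mpr (rtk6gf_ls_fixO 𝔫₀ Φ hΦR' o)
    rw [h]
    exact rtk6gfIn_zero

/-- **`Φ 𝔫 ⊆ 𝔫` at a crossing point, at `O = R_𝔫₀`** (hypotheses of `rtk6gls_cross`). -/
theorem rtk6gf_ls_fix (𝔫₀ : Ideal R) [h𝔫₀ : 𝔫₀.IsPrime]
    [IsLocalRing (ls_localSubring (F := K) 𝔫₀)]
    {d : ℕ} (hd : (d : R) ∉ 𝔫₀) {ζ : R} (hζ : IsPrimitiveRoot ζ d)
    {X₀ Y₀ : ls_localSubring (F := K) 𝔫₀} (hX : Prime X₀ ∨ IsUnit X₀)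
    (hY : (Prime Y₀ ∧ ¬ Y₀ ∣ X₀) ∨ IsUnit Y₀)
    (hm : IsLocalRing.maximalIdeal (ls_localSubring (F := K) 𝔫₀) = Ideal.span {X₀, Y₀})
    {ε₁ ε₂ : ls_localSubring (F := K) 𝔫₀} (hε₁ : IsUnit ε₁) (hε₂ : IsUnit ε₂) {x₂ y₂ : L}
    (hx : x₂ ^ d = algebraMap K L ((ε₁ * X₀ : ls_localSubring (F := K) 𝔫₀) : K))
    (hy : y₂ ^ d = algebraMap K L ((ε₂ * Y₀ : ls_localSubring (F := K) 𝔫₀) : K))
    (s₁ s₂ : L ≃ₐ[K] L) (h11 : s₁ x₂ = algebraMap R K ζ • x₂) (h12 : s₁ y₂ = y₂)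
    (h21 : s₂ x₂ = x₂) (h22 : s₂ y₂ = algebraMap R K ζ • y₂)
    (hgen : Algebra.adjoin K ({x₂, y₂} : Set L) = ⊤)
    (j : R →+* B) (ι : B →+* L) (hι : Function.Injective ι)
    (hjι : ∀ r, ι (j r) = algebraMap K L (algebraMap R K r))
    (𝔫 : Ideal B) [h𝔫 : 𝔫.IsMaximal] (hlie : ∀ u : R, j u ∈ 𝔫 ↔ u ∈ 𝔫₀)
    (hint : ∀ b : B, j.IsIntegralElem b)
    (hcl : ∀ x : L, (ι.comp j).IsIntegralElem x → ∃ b, ι b = x)
    (Φ : L →+* L) (hΦB : ∀ b : B, ∃ b' : B, Φ (ι b) = ι b')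
    (hΦR : ∀ r : R, Φ (ι (j r)) = ι (j r))
    {a b : L} (ha : IsIntegral (ls_localSubring (F := K) 𝔫₀) a)
    (hb : IsIntegral (ls_localSubring (F := K) 𝔫₀) b)
    (hΦx : Φ x₂ = a * x₂) (hΦy : Φ y₂ = b * y₂) {z : B} (hz : z ∈ 𝔫) :
    ∃ z' ∈ 𝔫, Φ (ι z) = ι z' := by
  obtain ⟨c, hc, h⟩ := rtk6gf_ls_cong (K := K) 𝔫₀ hd hζ hX hY hm hε₁ hε₂ hx hy s₁ s₂ h11 h12 h21
    h22 hgen j ι hι hjι 𝔫 hlie hint hcl Φ hΦB hΦR ha hb hΦx hΦy z
  exact ⟨z + c, 𝔫.add_mem hz hc, by rw [h, map_add]⟩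

end LsFix

end Fermat.Agent.RT.K6


end ZBRT_091_4

/-! ### bundled: `Fermat.Agent.RT.K6.DGLFixEW` -/
section ZBRT_091_5
/-
K-machine, piece K6, piece D-GL(c) (helper94), part 2: `Rtk6ewFix g 𝔫` and `Rtk6ewCong Φ 1 𝔫`
(`EWCross.lean`, the hypotheses `hfix`, `hcong` of `rtk6ew_main_two`) at the crossing points.

The chart is `B = zchClosure {u} ⊆ F`, `𝔫 : AtPt π u` a closed point of its special fibre, and
the local data are those of `rtk6gl_cross_tkc` (TKC on the chart): `O` the (normal, local) local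
ring of the base chart `R` at `𝔫 ∩ R`, `𝔪 = (X₀, Y₀)`, `F = K(x₂, y₂)`, `x₂ ^ d = ε₁ X₀`,
`y₂ ^ d = ε₂ Y₀`.  A semilinear automorphism `g` of `F` with `g • u = u`, preserving `A₀`, which is
the identity on `O` and multiplies `x₂`, `y₂` by units of `O` fixes `𝔫` and is the identity on
its residue field:

* `rtk6gf_ew_cong`     : `Rtk6ewCong Φ' 1 𝔫` (`Φ' x = g • x`);
* `rtk6gf_ew_fix`      : `Rtk6ewFix g 𝔫`;
* `rtk6gf_ew_crossFrob`: `StbCrossFrob g 1 𝔫`.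
Generic forms (any `ι`, hypotheses on `g` and `g⁻¹` separately): `rtk6gf_ew_cong_gen`,
`rtk6gf_ew_fix_gen`.

The same at `O = ls_localSubring 𝔫₀ = R_𝔫₀` (the setting of `rtk6gls_cross`, only chart-level
hypotheses; `g` fixes the base chart `R` and multiplies `x₂`, `y₂` by elements of `R ∖ 𝔫₀`):
`rtk6gf_ew_ls_cong`, `rtk6gf_ew_ls_fix`, `rtk6gf_ew_ls_crossFrob`.
-/

set_option autoImplicit false
set_option linter.style.haveILetI false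
set_option linter.unusedSectionVars false
set_option linter.unusedVariables false

namespace Fermat.Agent.RT.K6

open Polynomial IntermediateField Fermat.Agent.INJ AlgebraicCurve Fermat.Agent.UNIP
  Fermat.Agent.STB

section EW

variable {A₀ E F : Type*} [CommRing A₀] [IsDomain A₀] [IsDiscreteValuationRing A₀]
  [Field E] [Algebra A₀ E] [IsFractionRing A₀ E] [CharZero E]
  [Field F] [Algebra E F] [Algebra A₀ F] [IsScalarTower A₀ E F]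
  {π : A₀}

/-- a semilinear automorphism fixing `u` and preserving `A₀` preserves the chart `B_u` -/
theorem rtk6gf_ew_preserves (g : SemilinearAut E F) {u : F} (hgu : g • u = u)
    (hgA : ∀ α : A₀, ∃ α' : A₀, g • algebraMap A₀ F α = algebraMap A₀ F α')
    (b : ↥(zchClosure (A₀ := A₀) ({u} : Set F))) :
    ∃ b' : ↥(zchClosure (A₀ := A₀) ({u} : Set F)), g • (b : F) = (b' : F) :=
  ⟨⟨g • (b : F), mem_zchClosure.mpr (stb_mt_isIntegral_smul g hgu hgA (mem_zchClosure.mp b.2))⟩,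
    rfl⟩

/-- `g • u = u` ⇒ `g⁻¹ • u = u` -/
theorem rtk6gf_inv_smul_of_smul (g : SemilinearAut E F) {u : F} (hgu : g • u = u) :
    g⁻¹ • u = u := by
  conv_lhs => rw [← hgu]
  rw [inv_smul_smul]

/-- `g • x = a x`, `g • a = a`, `a ≠ 0` ⇒ `g⁻¹ • x = a⁻¹ x` -/
theorem rtk6gf_inv_smul_of_mul (g : SemilinearAut E F) {a x : F} (hga : g • a = a)
    (hgx : g • x = a * x) (ha : a ≠ 0) : g⁻¹ • x = a⁻¹ * x := by
  have h1 : g⁻¹ • (a * x) = x := by rw [← hgx, inv_smul_smul]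
  rw [smul_mul', rtk6gf_inv_smul_of_smul g hga] at h1
  have h2 : g⁻¹ • x = a⁻¹ * (a * g⁻¹ • x) := by
    rw [← mul_assoc, inv_mul_cancel₀ ha, one_mul]
  rw [h2, h1]

/-- **`Rtk6ewCong Φ' 1 𝔫` at a crossing point**, generic form. -/
theorem rtk6gf_ew_cong_gen {O K R : Type*} [CommRing O] [IsDomain O] [IsIntegrallyClosed O]
    [Field K] [Algebra O K] [IsFractionRing O K] [Algebra K F] [Algebra O F]
    [IsScalarTower O K F] [IsLocalRing O] [CommRing R]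
    {d : ℕ} (hd : IsUnit (d : O)) {ζ : O}
    (hζ : IsPrimitiveRoot ζ d)
    {X₀ Y₀ : O} (hX : Prime X₀ ∨ IsUnit X₀) (hY : (Prime Y₀ ∧ ¬ Y₀ ∣ X₀) ∨ IsUnit Y₀)
    (hm : IsLocalRing.maximalIdeal O = Ideal.span {X₀, Y₀})
    {ε₁ ε₂ : O} (hε₁ : IsUnit ε₁) (hε₂ : IsUnit ε₂) {x₂ y₂ : F}
    (hx : x₂ ^ d = algebraMap O F (ε₁ * X₀)) (hy : y₂ ^ d = algebraMap O F (ε₂ * Y₀))
    (s₁ s₂ : F ≃ₐ[K] F) (h11 : s₁ x₂ = algebraMap O K ζ • x₂) (h12 : s₁ y₂ = y₂)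
    (h21 : s₂ x₂ = x₂) (h22 : s₂ y₂ = algebraMap O K ζ • y₂)
    (hgen : Algebra.adjoin K ({x₂, y₂} : Set F) = ⊤)
    {u : F} (𝔫 : AtPt (F := F) π u)
    (j : R →+* ↥(zchClosure (A₀ := A₀) ({u} : Set F)))
    (ι : ↥(zchClosure (A₀ := A₀) ({u} : Set F)) →+* F) (hιv : ∀ b, ι b = (b : F))
    (φ : R →+* O) (hφ : ∀ r, algebraMap O F (φ r) = ι (j r))
    (hO2 : ∀ o : O, ∃ u r : R, j u ∉ 𝔫.1 ∧ φ u * o = φ r)
    (hO3 : ∀ u : R, j u ∉ 𝔫.1 → IsUnit (φ u))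
    (hint : ∀ b : ↥(zchClosure (A₀ := A₀) ({u} : Set F)), j.IsIntegralElem b)
    (hcl : ∀ x : F, (ι.comp j).IsIntegralElem x → ∃ b, ι b = x)
    (Φ : F →+* F)
    (hΦB : ∀ b : ↥(zchClosure (A₀ := A₀) ({u} : Set F)),
      ∃ b' : ↥(zchClosure (A₀ := A₀) ({u} : Set F)), Φ (b : F) = (b' : F))
    (hΦO : ∀ o : O, rtk6gfIn O x₂ y₂ (Φ (algebraMap O F o) - algebraMap O F o))
    {a b : F} (ha : IsIntegral O a) (hb : IsIntegral O b) (hΦx : Φ x₂ = a * x₂)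
    (hΦy : Φ y₂ = b * y₂) :
    Rtk6ewCong Φ 1 𝔫 := by
  haveI : 𝔫.1.IsMaximal := 𝔫.2.1
  have hι : Function.Injective ι := by
    intro b b' h
    rw [hιv, hιv] at h
    exact Subtype.ext h
  intro z
  obtain ⟨c, hc, h⟩ := rtk6gf_cong_tkc (K := K) hd hζ hX hY hm hε₁ hε₂ hx hy s₁ s₂ h11 h12 h21
    h22 hgen j ι hι 𝔫.1 φ hφ hO2 hO3 hint hcl Φ
    (fun b => by
      obtain ⟨b', hb'⟩ := hΦB b
      exact ⟨b', by rw [hιv, hιv, hb']⟩)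
    hΦO ha hb hΦx hΦy z
  refine ⟨c, hc, ?_⟩
  rw [hιv, hιv] at h
  rw [h, pow_one]

/-- **`Φ 𝔫 ⊆ 𝔫` at a crossing point**, generic form. -/
theorem rtk6gf_ew_fix_gen {O K R : Type*} [CommRing O] [IsDomain O] [IsIntegrallyClosed O]
    [Field K] [Algebra O K] [IsFractionRing O K] [Algebra K F] [Algebra O F]
    [IsScalarTower O K F] [IsLocalRing O] [CommRing R]
    {d : ℕ} (hd : IsUnit (d : O)) {ζ : O}
    (hζ : IsPrimitiveRoot ζ d)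
    {X₀ Y₀ : O} (hX : Prime X₀ ∨ IsUnit X₀) (hY : (Prime Y₀ ∧ ¬ Y₀ ∣ X₀) ∨ IsUnit Y₀)
    (hm : IsLocalRing.maximalIdeal O = Ideal.span {X₀, Y₀})
    {ε₁ ε₂ : O} (hε₁ : IsUnit ε₁) (hε₂ : IsUnit ε₂) {x₂ y₂ : F}
    (hx : x₂ ^ d = algebraMap O F (ε₁ * X₀)) (hy : y₂ ^ d = algebraMap O F (ε₂ * Y₀))
    (s₁ s₂ : F ≃ₐ[K] F) (h11 : s₁ x₂ = algebraMap O K ζ • x₂) (h12 : s₁ y₂ = y₂)
    (h21 : s₂ x₂ = x₂) (h22 : s₂ y₂ = algebraMap O K ζ • y₂)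
    (hgen : Algebra.adjoin K ({x₂, y₂} : Set F) = ⊤)
    {u : F} (𝔫 : AtPt (F := F) π u)
    (j : R →+* ↥(zchClosure (A₀ := A₀) ({u} : Set F)))
    (ι : ↥(zchClosure (A₀ := A₀) ({u} : Set F)) →+* F) (hιv : ∀ b, ι b = (b : F))
    (φ : R →+* O) (hφ : ∀ r, algebraMap O F (φ r) = ι (j r))
    (hO2 : ∀ o : O, ∃ u r : R, j u ∉ 𝔫.1 ∧ φ u * o = φ r)
    (hO3 : ∀ u : R, j u ∉ 𝔫.1 → IsUnit (φ u))
    (hint : ∀ b : ↥(zchClosure (A₀ := A₀) ({u} : Set F)), j.IsIntegralElem b)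
    (hcl : ∀ x : F, (ι.comp j).IsIntegralElem x → ∃ b, ι b = x)
    (Φ : F →+* F)
    (hΦB : ∀ b : ↥(zchClosure (A₀ := A₀) ({u} : Set F)),
      ∃ b' : ↥(zchClosure (A₀ := A₀) ({u} : Set F)), Φ (b : F) = (b' : F))
    (hΦO : ∀ o : O, rtk6gfIn O x₂ y₂ (Φ (algebraMap O F o) - algebraMap O F o))
    {a b : F} (ha : IsIntegral O a) (hb : IsIntegral O b) (hΦx : Φ x₂ = a * x₂)
    (hΦy : Φ y₂ = b * y₂)
    (z : ↥(zchClosure (A₀ := A₀) ({u} : Set F))) (hz : z ∈ 𝔫.1) :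
    ∃ z' : ↥(zchClosure (A₀ := A₀) ({u} : Set F)), z' ∈ 𝔫.1 ∧ Φ (z : F) = (z' : F) := by
  obtain ⟨c, hc, h⟩ := rtk6gf_ew_cong_gen (K := K) hd hζ hX hY hm hε₁ hε₂ hx hy s₁ s₂ h11 h12
    h21 h22 hgen 𝔫 j ι hιv φ hφ hO2 hO3 hint hcl Φ hΦB hΦO ha hb hΦx hΦy z
  refine ⟨z + c, 𝔫.1.add_mem hz hc, ?_⟩
  rw [h, pow_one]
  rfl

/-- **`Rtk6ewCong Φ' 1 𝔫` at a crossing point** for a semilinear automorphism `g` of `F` with
`g • u = u`, preserving `A₀`, which is the identity on `O` and multiplies `x₂`, `y₂` by elements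
of `O`. -/
theorem rtk6gf_ew_cong {O K R : Type*} [CommRing O] [IsDomain O] [IsIntegrallyClosed O]
    [Field K] [Algebra O K] [IsFractionRing O K] [Algebra K F] [Algebra O F]
    [IsScalarTower O K F] [IsLocalRing O] [CommRing R]
    {d : ℕ} (hd : IsUnit (d : O)) {ζ : O}
    (hζ : IsPrimitiveRoot ζ d)
    {X₀ Y₀ : O} (hX : Prime X₀ ∨ IsUnit X₀) (hY : (Prime Y₀ ∧ ¬ Y₀ ∣ X₀) ∨ IsUnit Y₀)
    (hm : IsLocalRing.maximalIdeal O = Ideal.span {X₀, Y₀})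
    {ε₁ ε₂ : O} (hε₁ : IsUnit ε₁) (hε₂ : IsUnit ε₂) {x₂ y₂ : F}
    (hx : x₂ ^ d = algebraMap O F (ε₁ * X₀)) (hy : y₂ ^ d = algebraMap O F (ε₂ * Y₀))
    (s₁ s₂ : F ≃ₐ[K] F) (h11 : s₁ x₂ = algebraMap O K ζ • x₂) (h12 : s₁ y₂ = y₂)
    (h21 : s₂ x₂ = x₂) (h22 : s₂ y₂ = algebraMap O K ζ • y₂)
    (hgen : Algebra.adjoin K ({x₂, y₂} : Set F) = ⊤)
    {u : F} (𝔫 : AtPt (F := F) π u)
    (j : R →+* ↥(zchClosure (A₀ := A₀) ({u} : Set F)))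
    (ι : ↥(zchClosure (A₀ := A₀) ({u} : Set F)) →+* F) (hιv : ∀ b, ι b = (b : F))
    (φ : R →+* O) (hφ : ∀ r, algebraMap O F (φ r) = ι (j r))
    (hO2 : ∀ o : O, ∃ u r : R, j u ∉ 𝔫.1 ∧ φ u * o = φ r)
    (hO3 : ∀ u : R, j u ∉ 𝔫.1 → IsUnit (φ u))
    (hint : ∀ b : ↥(zchClosure (A₀ := A₀) ({u} : Set F)), j.IsIntegralElem b)
    (hcl : ∀ x : F, (ι.comp j).IsIntegralElem x → ∃ b, ι b = x)
    (g : SemilinearAut E F) (hgu : g • u = u)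
    (hgA : ∀ α : A₀, ∃ α' : A₀, g • algebraMap A₀ F α = algebraMap A₀ F α')
    (hgO : ∀ o : O, g • algebraMap O F o = algebraMap O F o)
    {α β : O} (hgx : g • x₂ = algebraMap O F α * x₂) (hgy : g • y₂ = algebraMap O F β * y₂)
    (Φ' : F →+* F) (hΦ' : ∀ x : F, Φ' x = g • x) :
    Rtk6ewCong Φ' 1 𝔫 :=
  rtk6gf_ew_cong_gen (K := K) hd hζ hX hY hm hε₁ hε₂ hx hy s₁ s₂ h11 h12 h21 h22 hgen 𝔫 j ι hιv
    φ hφ hO2 hO3 hint hcl Φ'
    (fun b => by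
      obtain ⟨b', hb'⟩ := rtk6gf_ew_preserves g hgu hgA b
      exact ⟨b', by rw [hΦ', hb']⟩)
    (fun o => by
      rw [hΦ', hgO o, sub_self]
      exact rtk6gfIn_zero)
    (isIntegral_algebraMap (x := α)) (isIntegral_algebraMap (x := β))
    (by rw [hΦ', hgx]) (by rw [hΦ', hgy])

/-- **`Rtk6ewFix g 𝔫` at a crossing point** for a semilinear automorphism `g` of `F` with
`g • u = u`, `g` and `g⁻¹` preserving `A₀`, which is the identity on `O` and multiplies `x₂`,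
`y₂` by units of `O`. -/
theorem rtk6gf_ew_fix {O K R : Type*} [CommRing O] [IsDomain O] [IsIntegrallyClosed O]
    [Field K] [Algebra O K] [IsFractionRing O K] [Algebra K F] [Algebra O F]
    [IsScalarTower O K F] [IsLocalRing O] [CommRing R]
    {d : ℕ} (hd : IsUnit (d : O)) {ζ : O}
    (hζ : IsPrimitiveRoot ζ d)
    {X₀ Y₀ : O} (hX : Prime X₀ ∨ IsUnit X₀) (hY : (Prime Y₀ ∧ ¬ Y₀ ∣ X₀) ∨ IsUnit Y₀)
    (hm : IsLocalRing.maximalIdeal O = Ideal.span {X₀, Y₀})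
    {ε₁ ε₂ : O} (hε₁ : IsUnit ε₁) (hε₂ : IsUnit ε₂) {x₂ y₂ : F}
    (hx : x₂ ^ d = algebraMap O F (ε₁ * X₀)) (hy : y₂ ^ d = algebraMap O F (ε₂ * Y₀))
    (s₁ s₂ : F ≃ₐ[K] F) (h11 : s₁ x₂ = algebraMap O K ζ • x₂) (h12 : s₁ y₂ = y₂)
    (h21 : s₂ x₂ = x₂) (h22 : s₂ y₂ = algebraMap O K ζ • y₂)
    (hgen : Algebra.adjoin K ({x₂, y₂} : Set F) = ⊤)
    {u : F} (𝔫 : AtPt (F := F) π u)
    (j : R →+* ↥(zchClosure (A₀ := A₀) ({u} : Set F)))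
    (ι : ↥(zchClosure (A₀ := A₀) ({u} : Set F)) →+* F) (hιv : ∀ b, ι b = (b : F))
    (φ : R →+* O) (hφ : ∀ r, algebraMap O F (φ r) = ι (j r))
    (hO2 : ∀ o : O, ∃ u r : R, j u ∉ 𝔫.1 ∧ φ u * o = φ r)
    (hO3 : ∀ u : R, j u ∉ 𝔫.1 → IsUnit (φ u))
    (hint : ∀ b : ↥(zchClosure (A₀ := A₀) ({u} : Set F)), j.IsIntegralElem b)
    (hcl : ∀ x : F, (ι.comp j).IsIntegralElem x → ∃ b, ι b = x)
    (g : SemilinearAut E F) (hgu : g • u = u)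
    (hgA : ∀ α : A₀, ∃ α' : A₀, g • algebraMap A₀ F α = algebraMap A₀ F α')
    (hgA' : ∀ α : A₀, ∃ α' : A₀, g⁻¹ • algebraMap A₀ F α = algebraMap A₀ F α')
    (hgO : ∀ o : O, g • algebraMap O F o = algebraMap O F o)
    {α β : O} (hα : IsUnit α) (hβ : IsUnit β)
    (hgx : g • x₂ = algebraMap O F α * x₂) (hgy : g • y₂ = algebraMap O F β * y₂) :
    Rtk6ewFix g 𝔫 := by
  have hgO' : ∀ o : O, g⁻¹ • algebraMap O F o = algebraMap O F o := fun o =>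
    rtk6gf_inv_smul_of_smul g (hgO o)
  have hne : ∀ {γ : O}, IsUnit γ → algebraMap O F γ ≠ 0 := fun hγ =>
    (hγ.map (algebraMap O F)).ne_zero
  have hinv : ∀ {γ : O} (hγ : IsUnit γ),
      (algebraMap O F γ)⁻¹ = algebraMap O F (↑(hγ.unit⁻¹) : O) := by
    intro γ hγ
    have h1 : algebraMap O F γ * algebraMap O F (↑(hγ.unit⁻¹) : O) = 1 := by
      rw [← map_mul, IsUnit.mul_val_inv, map_one]
    exact inv_eq_of_mul_eq_one_right h1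
  have hgx' : g⁻¹ • x₂ = algebraMap O F (↑(hα.unit⁻¹) : O) * x₂ := by
    rw [← hinv hα]
    exact rtk6gf_inv_smul_of_mul g (hgO α) hgx (hne hα)
  have hgy' : g⁻¹ • y₂ = algebraMap O F (↑(hβ.unit⁻¹) : O) * y₂ := by
    rw [← hinv hβ]
    exact rtk6gf_inv_smul_of_mul g (hgO β) hgy (hne hβ)
  refine ⟨fun z hz => ?_, fun z hz => ?_⟩
  · exact rtk6gf_ew_fix_gen (K := K) hd hζ hX hY hm hε₁ hε₂ hx hy s₁ s₂ h11 h12 h21 h22 hgen 𝔫 j
      ι hιv φ hφ hO2 hO3 hint hcl (SemilinearAut.toRingAut g : F ≃+* F).toRingHom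
      (fun b => rtk6gf_ew_preserves g hgu hgA b)
      (fun o => by
        show rtk6gfIn O x₂ y₂ (g • algebraMap O F o - algebraMap O F o)
        rw [hgO o, sub_self]
        exact rtk6gfIn_zero)
      (isIntegral_algebraMap (x := α)) (isIntegral_algebraMap (x := β)) hgx hgy z hz
  · exact rtk6gf_ew_fix_gen (K := K) hd hζ hX hY hm hε₁ hε₂ hx hy s₁ s₂ h11 h12 h21 h22 hgen 𝔫 j
      ι hιv φ hφ hO2 hO3 hint hcl (SemilinearAut.toRingAut g⁻¹ : F ≃+* F).toRingHom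
      (fun b => rtk6gf_ew_preserves g⁻¹ (rtk6gf_inv_smul_of_smul g hgu) hgA' b)
      (fun o => by
        show rtk6gfIn O x₂ y₂ (g⁻¹ • algebraMap O F o - algebraMap O F o)
        rw [hgO' o, sub_self]
        exact rtk6gfIn_zero)
      (isIntegral_algebraMap (x := (↑(hα.unit⁻¹) : O)))
      (isIntegral_algebraMap (x := (↑(hβ.unit⁻¹) : O))) hgx' hgy' z hz

/-- **`StbCrossFrob g 1 𝔫` at a crossing point.** -/
theorem rtk6gf_ew_crossFrob {O K R : Type*} [CommRing O] [IsDomain O] [IsIntegrallyClosed O]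
    [Field K] [Algebra O K] [IsFractionRing O K] [Algebra K F] [Algebra O F]
    [IsScalarTower O K F] [IsLocalRing O] [CommRing R]
    {d : ℕ} (hd : IsUnit (d : O)) {ζ : O}
    (hζ : IsPrimitiveRoot ζ d)
    {X₀ Y₀ : O} (hX : Prime X₀ ∨ IsUnit X₀) (hY : (Prime Y₀ ∧ ¬ Y₀ ∣ X₀) ∨ IsUnit Y₀)
    (hm : IsLocalRing.maximalIdeal O = Ideal.span {X₀, Y₀})
    {ε₁ ε₂ : O} (hε₁ : IsUnit ε₁) (hε₂ : IsUnit ε₂) {x₂ y₂ : F}
    (hx : x₂ ^ d = algebraMap O F (ε₁ * X₀)) (hy : y₂ ^ d = algebraMap O F (ε₂ * Y₀))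
    (s₁ s₂ : F ≃ₐ[K] F) (h11 : s₁ x₂ = algebraMap O K ζ • x₂) (h12 : s₁ y₂ = y₂)
    (h21 : s₂ x₂ = x₂) (h22 : s₂ y₂ = algebraMap O K ζ • y₂)
    (hgen : Algebra.adjoin K ({x₂, y₂} : Set F) = ⊤)
    {u : F} (𝔫 : AtPt (F := F) π u)
    (j : R →+* ↥(zchClosure (A₀ := A₀) ({u} : Set F)))
    (ι : ↥(zchClosure (A₀ := A₀) ({u} : Set F)) →+* F) (hιv : ∀ b, ι b = (b : F))
    (φ : R →+* O) (hφ : ∀ r, algebraMap O F (φ r) = ι (j r))
    (hO2 : ∀ o : O, ∃ u r : R, j u ∉ 𝔫.1 ∧ φ u * o = φ r)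
    (hO3 : ∀ u : R, j u ∉ 𝔫.1 → IsUnit (φ u))
    (hint : ∀ b : ↥(zchClosure (A₀ := A₀) ({u} : Set F)), j.IsIntegralElem b)
    (hcl : ∀ x : F, (ι.comp j).IsIntegralElem x → ∃ b, ι b = x)
    (g : SemilinearAut E F) (hgu : g • u = u)
    (hgA : ∀ α : A₀, ∃ α' : A₀, g • algebraMap A₀ F α = algebraMap A₀ F α')
    (hgA' : ∀ α : A₀, ∃ α' : A₀, g⁻¹ • algebraMap A₀ F α = algebraMap A₀ F α')
    (hgO : ∀ o : O, g • algebraMap O F o = algebraMap O F o)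
    {α β : O} (hα : IsUnit α) (hβ : IsUnit β)
    (hgx : g • x₂ = algebraMap O F α * x₂) (hgy : g • y₂ = algebraMap O F β * y₂) :
    StbCrossFrob g 1 𝔫 :=
  (rtk6ew_crossFrob_iff g 1 𝔫).mpr
    ⟨rtk6gf_ew_fix (K := K) hd hζ hX hY hm hε₁ hε₂ hx hy s₁ s₂ h11 h12 h21 h22 hgen 𝔫 j ι hιv
        φ hφ hO2 hO3 hint hcl g hgu hgA hgA' hgO hα hβ hgx hgy,
      rtk6gf_ew_cong (K := K) hd hζ hX hY hm hε₁ hε₂ hx hy s₁ s₂ h11 h12 h21 h22 hgen 𝔫 j ι hιv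
        φ hφ hO2 hO3 hint hcl g hgu hgA hgO hgx hgy _ (fun _ => rfl)⟩

end EW

section EWLs

open Fermat.Agent.S36

variable {A₀ E F : Type*} [CommRing A₀] [IsDomain A₀] [IsDiscreteValuationRing A₀]
  [Field E] [Algebra A₀ E] [IsFractionRing A₀ E] [CharZero E]
  [Field F] [Algebra E F] [Algebra A₀ F] [IsScalarTower A₀ E F]
  {π : A₀}

/-- **`Rtk6ewCong Φ' 1 𝔫` at a crossing point, at `O = R_𝔫₀`** (hypotheses of `rtk6gls_cross`):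
`g` fixes `u` and the base chart `R`, preserves `A₀` and multiplies `x₂`, `y₂` by elements of
`R`. -/
theorem rtk6gf_ew_ls_cong {K R : Type*} [Field K] [Algebra K F] [CommRing R] [IsDomain R]
    [IsIntegrallyClosed R] [Algebra R K] [IsFractionRing R K]
    (𝔫₀ : Ideal R) [h𝔫₀ : 𝔫₀.IsPrime]
    [IsLocalRing (ls_localSubring (F := K) 𝔫₀)]
    {d : ℕ} (hd : (d : R) ∉ 𝔫₀) {ζ : R} (hζ : IsPrimitiveRoot ζ d)
    {X₀ Y₀ : ls_localSubring (F := K) 𝔫₀} (hX : Prime X₀ ∨ IsUnit X₀)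
    (hY : (Prime Y₀ ∧ ¬ Y₀ ∣ X₀) ∨ IsUnit Y₀)
    (hm : IsLocalRing.maximalIdeal (ls_localSubring (F := K) 𝔫₀) = Ideal.span {X₀, Y₀})
    {ε₁ ε₂ : ls_localSubring (F := K) 𝔫₀} (hε₁ : IsUnit ε₁) (hε₂ : IsUnit ε₂) {x₂ y₂ : F}
    (hx : x₂ ^ d = algebraMap K F ((ε₁ * X₀ : ls_localSubring (F := K) 𝔫₀) : K))
    (hy : y₂ ^ d = algebraMap K F ((ε₂ * Y₀ : ls_localSubring (F := K) 𝔫₀) : K))
    (s₁ s₂ : F ≃ₐ[K] F) (h11 : s₁ x₂ = algebraMap R K ζ • x₂) (h12 : s₁ y₂ = y₂)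
    (h21 : s₂ x₂ = x₂) (h22 : s₂ y₂ = algebraMap R K ζ • y₂)
    (hgen : Algebra.adjoin K ({x₂, y₂} : Set F) = ⊤)
    {u : F} (𝔫 : AtPt (F := F) π u)
    (j : R →+* ↥(zchClosure (A₀ := A₀) ({u} : Set F)))
    (ι : ↥(zchClosure (A₀ := A₀) ({u} : Set F)) →+* F) (hιv : ∀ b, ι b = (b : F))
    (hjι : ∀ r, ι (j r) = algebraMap K F (algebraMap R K r))
    (hlie : ∀ r : R, j r ∈ 𝔫.1 ↔ r ∈ 𝔫₀)
    (hint : ∀ b : ↥(zchClosure (A₀ := A₀) ({u} : Set F)), j.IsIntegralElem b)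
    (hcl : ∀ x : F, (ι.comp j).IsIntegralElem x → ∃ b, ι b = x)
    (g : SemilinearAut E F) (hgu : g • u = u)
    (hgA : ∀ α : A₀, ∃ α' : A₀, g • algebraMap A₀ F α = algebraMap A₀ F α')
    (hgR : ∀ r : R, g • algebraMap K F (algebraMap R K r) = algebraMap K F (algebraMap R K r))
    {α β : R} (hgx : g • x₂ = algebraMap K F (algebraMap R K α) * x₂)
    (hgy : g • y₂ = algebraMap K F (algebraMap R K β) * y₂)
    (Φ' : F →+* F) (hΦ' : ∀ x : F, Φ' x = g • x) :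
    Rtk6ewCong Φ' 1 𝔫 := by
  haveI : 𝔫.1.IsMaximal := 𝔫.2.1
  have hι : Function.Injective ι := by
    intro b b' h
    rw [hιv, hιv] at h
    exact Subtype.ext h
  intro z
  obtain ⟨c, hc, h⟩ := rtk6gf_ls_cong (K := K) 𝔫₀ hd hζ hX hY hm hε₁ hε₂ hx hy s₁ s₂ h11 h12 h21
    h22 hgen j ι hι hjι 𝔫.1 hlie hint hcl Φ'
    (fun b => by
      obtain ⟨b', hb'⟩ := rtk6gf_ew_preserves g hgu hgA b
      exact ⟨b', by rw [hιv, hιv, hΦ', hb']⟩)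
    (fun r => by rw [hjι, hΦ', hgR r])
    (rtk6gf_ls_integral (K := K) (L := F) 𝔫₀ α) (rtk6gf_ls_integral (K := K) (L := F) 𝔫₀ β)
    (by rw [hΦ', hgx]) (by rw [hΦ', hgy]) z
  refine ⟨c, hc, ?_⟩
  rw [hιv, hιv] at h
  rw [h, pow_one]

/-- **`Rtk6ewFix g 𝔫` at a crossing point, at `O = R_𝔫₀`** (hypotheses of `rtk6gls_cross`):
`g` fixes `u` and the base chart `R`, `g` and `g⁻¹` preserve `A₀`, and `g` multiplies `x₂`, `y₂`
by elements of `R ∖ 𝔫₀`. -/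
theorem rtk6gf_ew_ls_fix {K R : Type*} [Field K] [Algebra K F] [CommRing R] [IsDomain R]
    [IsIntegrallyClosed R] [Algebra R K] [IsFractionRing R K]
    (𝔫₀ : Ideal R) [h𝔫₀ : 𝔫₀.IsPrime]
    [IsLocalRing (ls_localSubring (F := K) 𝔫₀)]
    {d : ℕ} (hd : (d : R) ∉ 𝔫₀) {ζ : R} (hζ : IsPrimitiveRoot ζ d)
    {X₀ Y₀ : ls_localSubring (F := K) 𝔫₀} (hX : Prime X₀ ∨ IsUnit X₀)
    (hY : (Prime Y₀ ∧ ¬ Y₀ ∣ X₀) ∨ IsUnit Y₀)
    (hm : IsLocalRing.maximalIdeal (ls_localSubring (F := K) 𝔫₀) = Ideal.span {X₀, Y₀})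
    {ε₁ ε₂ : ls_localSubring (F := K) 𝔫₀} (hε₁ : IsUnit ε₁) (hε₂ : IsUnit ε₂) {x₂ y₂ : F}
    (hx : x₂ ^ d = algebraMap K F ((ε₁ * X₀ : ls_localSubring (F := K) 𝔫₀) : K))
    (hy : y₂ ^ d = algebraMap K F ((ε₂ * Y₀ : ls_localSubring (F := K) 𝔫₀) : K))
    (s₁ s₂ : F ≃ₐ[K] F) (h11 : s₁ x₂ = algebraMap R K ζ • x₂) (h12 : s₁ y₂ = y₂)
    (h21 : s₂ x₂ = x₂) (h22 : s₂ y₂ = algebraMap R K ζ • y₂)
    (hgen : Algebra.adjoin K ({x₂, y₂} : Set F) = ⊤)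
    {u : F} (𝔫 : AtPt (F := F) π u)
    (j : R →+* ↥(zchClosure (A₀ := A₀) ({u} : Set F)))
    (ι : ↥(zchClosure (A₀ := A₀) ({u} : Set F)) →+* F) (hιv : ∀ b, ι b = (b : F))
    (hjι : ∀ r, ι (j r) = algebraMap K F (algebraMap R K r))
    (hlie : ∀ r : R, j r ∈ 𝔫.1 ↔ r ∈ 𝔫₀)
    (hint : ∀ b : ↥(zchClosure (A₀ := A₀) ({u} : Set F)), j.IsIntegralElem b)
    (hcl : ∀ x : F, (ι.comp j).IsIntegralElem x → ∃ b, ι b = x)
    (g : SemilinearAut E F) (hgu : g • u = u)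
    (hgA : ∀ α : A₀, ∃ α' : A₀, g • algebraMap A₀ F α = algebraMap A₀ F α')
    (hgA' : ∀ α : A₀, ∃ α' : A₀, g⁻¹ • algebraMap A₀ F α = algebraMap A₀ F α')
    (hgR : ∀ r : R, g • algebraMap K F (algebraMap R K r) = algebraMap K F (algebraMap R K r))
    {α β : R} (hα : α ∉ 𝔫₀) (hβ : β ∉ 𝔫₀)
    (hgx : g • x₂ = algebraMap K F (algebraMap R K α) * x₂)
    (hgy : g • y₂ = algebraMap K F (algebraMap R K β) * y₂) :
    Rtk6ewFix g 𝔫 := by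
  haveI : 𝔫.1.IsMaximal := 𝔫.2.1
  have hι : Function.Injective ι := by
    intro b b' h
    rw [hιv, hιv] at h
    exact Subtype.ext h
  have hgR' : ∀ r : R,
      g⁻¹ • algebraMap K F (algebraMap R K r) = algebraMap K F (algebraMap R K r) := fun r =>
    rtk6gf_inv_smul_of_smul g (hgR r)
  have hne : ∀ {γ : R}, γ ∉ 𝔫₀ → algebraMap K F (algebraMap R K γ) ≠ 0 := by
    intro γ hγ h0
    have h1 : algebraMap R K γ = 0 := (algebraMap K F).injective (by rw [h0, map_zero])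
    have h2 : γ = 0 := IsFractionRing.injective R K (by rw [h1, map_zero])
    exact hγ (h2 ▸ 𝔫₀.zero_mem)
  have hgx' : g⁻¹ • x₂ = (algebraMap K F (algebraMap R K α))⁻¹ * x₂ :=
    rtk6gf_inv_smul_of_mul g (hgR α) hgx (hne hα)
  have hgy' : g⁻¹ • y₂ = (algebraMap K F (algebraMap R K β))⁻¹ * y₂ :=
    rtk6gf_inv_smul_of_mul g (hgR β) hgy (hne hβ)
  refine ⟨fun z hz => ?_, fun z hz => ?_⟩
  · obtain ⟨z', hz', h⟩ := rtk6gf_ls_fix (K := K) 𝔫₀ hd hζ hX hY hm hε₁ hε₂ hx hy s₁ s₂ h11 h12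
      h21 h22 hgen j ι hι hjι 𝔫.1 hlie hint hcl (SemilinearAut.toRingAut g : F ≃+* F).toRingHom
      (fun b => by
        obtain ⟨b', hb'⟩ := rtk6gf_ew_preserves g hgu hgA b
        exact ⟨b', by rw [hιv, hιv]; exact hb'⟩)
      (fun r => by rw [hjι]; exact hgR r)
      (rtk6gf_ls_integral (K := K) (L := F) 𝔫₀ α) (rtk6gf_ls_integral (K := K) (L := F) 𝔫₀ β)
      hgx hgy hz
    refine ⟨z', hz', ?_⟩
    rw [hιv, hιv] at h
    exact h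
  · obtain ⟨z', hz', h⟩ := rtk6gf_ls_fix (K := K) 𝔫₀ hd hζ hX hY hm hε₁ hε₂ hx hy s₁ s₂ h11 h12
      h21 h22 hgen j ι hι hjι 𝔫.1 hlie hint hcl (SemilinearAut.toRingAut g⁻¹ : F ≃+* F).toRingHom
      (fun b => by
        obtain ⟨b', hb'⟩ := rtk6gf_ew_preserves g⁻¹ (rtk6gf_inv_smul_of_smul g hgu) hgA' b
        exact ⟨b', by rw [hιv, hιv]; exact hb'⟩)
      (fun r => by rw [hjι]; exact hgR' r)
      (rtk6gf_ls_integral_inv (K := K) (L := F) 𝔫₀ hα)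
      (rtk6gf_ls_integral_inv (K := K) (L := F) 𝔫₀ hβ)
      hgx' hgy' hz
    refine ⟨z', hz', ?_⟩
    rw [hιv, hιv] at h
    exact h

/-- **`StbCrossFrob g 1 𝔫` at a crossing point, at `O = R_𝔫₀`.** -/
theorem rtk6gf_ew_ls_crossFrob {K R : Type*} [Field K] [Algebra K F] [CommRing R] [IsDomain R]
    [IsIntegrallyClosed R] [Algebra R K] [IsFractionRing R K]
    (𝔫₀ : Ideal R) [h𝔫₀ : 𝔫₀.IsPrime]
    [IsLocalRing (ls_localSubring (F := K) 𝔫₀)]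
    {d : ℕ} (hd : (d : R) ∉ 𝔫₀) {ζ : R} (hζ : IsPrimitiveRoot ζ d)
    {X₀ Y₀ : ls_localSubring (F := K) 𝔫₀} (hX : Prime X₀ ∨ IsUnit X₀)
    (hY : (Prime Y₀ ∧ ¬ Y₀ ∣ X₀) ∨ IsUnit Y₀)
    (hm : IsLocalRing.maximalIdeal (ls_localSubring (F := K) 𝔫₀) = Ideal.span {X₀, Y₀})
    {ε₁ ε₂ : ls_localSubring (F := K) 𝔫₀} (hε₁ : IsUnit ε₁) (hε₂ : IsUnit ε₂) {x₂ y₂ : F}
    (hx : x₂ ^ d = algebraMap K F ((ε₁ * X₀ : ls_localSubring (F := K) 𝔫₀) : K))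
    (hy : y₂ ^ d = algebraMap K F ((ε₂ * Y₀ : ls_localSubring (F := K) 𝔫₀) : K))
    (s₁ s₂ : F ≃ₐ[K] F) (h11 : s₁ x₂ = algebraMap R K ζ • x₂) (h12 : s₁ y₂ = y₂)
    (h21 : s₂ x₂ = x₂) (h22 : s₂ y₂ = algebraMap R K ζ • y₂)
    (hgen : Algebra.adjoin K ({x₂, y₂} : Set F) = ⊤)
    {u : F} (𝔫 : AtPt (F := F) π u)
    (j : R →+* ↥(zchClosure (A₀ := A₀) ({u} : Set F)))
    (ι : ↥(zchClosure (A₀ := A₀) ({u} : Set F)) →+* F) (hιv : ∀ b, ι b = (b : F))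
    (hjι : ∀ r, ι (j r) = algebraMap K F (algebraMap R K r))
    (hlie : ∀ r : R, j r ∈ 𝔫.1 ↔ r ∈ 𝔫₀)
    (hint : ∀ b : ↥(zchClosure (A₀ := A₀) ({u} : Set F)), j.IsIntegralElem b)
    (hcl : ∀ x : F, (ι.comp j).IsIntegralElem x → ∃ b, ι b = x)
    (g : SemilinearAut E F) (hgu : g • u = u)
    (hgA : ∀ α : A₀, ∃ α' : A₀, g • algebraMap A₀ F α = algebraMap A₀ F α')
    (hgA' : ∀ α : A₀, ∃ α' : A₀, g⁻¹ • algebraMap A₀ F α = algebraMap A₀ F α')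
    (hgR : ∀ r : R, g • algebraMap K F (algebraMap R K r) = algebraMap K F (algebraMap R K r))
    {α β : R} (hα : α ∉ 𝔫₀) (hβ : β ∉ 𝔫₀)
    (hgx : g • x₂ = algebraMap K F (algebraMap R K α) * x₂)
    (hgy : g • y₂ = algebraMap K F (algebraMap R K β) * y₂) :
    StbCrossFrob g 1 𝔫 :=
  (rtk6ew_crossFrob_iff g 1 𝔫).mpr
    ⟨rtk6gf_ew_ls_fix (K := K) 𝔫₀ hd hζ hX hY hm hε₁ hε₂ hx hy s₁ s₂ h11 h12 h21 h22 hgen 𝔫 j ι
        hιv hjι hlie hint hcl g hgu hgA hgA' hgR hα hβ hgx hgy,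
      rtk6gf_ew_ls_cong (K := K) 𝔫₀ hd hζ hX hY hm hε₁ hε₂ hx hy s₁ s₂ h11 h12 h21 h22 hgen 𝔫 j ι
        hιv hjι hlie hint hcl g hgu hgA hgR hgx hgy _ (fun _ => rfl)⟩

end EWLs

end Fermat.Agent.RT.K6


end ZBRT_091_5

/-! ### bundled: `Fermat.Agent.RT.K6.FixXAbs` -/
section ZBRT_091_6
/-
K-machine, piece K6, piece **FIX-X** (helper67), abstract part: transfer of `Rtk6ewFix` /
`Rtk6ewCong` (`RT/K6/EWCross.lean`) from the chart over the thin ramified base `A₁` to the chart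
over the final base `A′`, along a map `j` with `MgcRamified j π′ p` (`UNIP/MGChartsGen.lean`).

* `rtk6fxx_fix_of_cong`     : `Rtk6ewCong g 1 𝔫` and `Rtk6ewCong g⁻¹ 1 𝔫` give `Rtk6ewFix g 𝔫`;
* `rtk6fxx_smul_unif_mem`   : `g`, `g⁻¹` preserve `A₀` ⇒ `g • π ∈ 𝔫`;
* `rtk6fxx_cong_of_decomp`  : ONE level: `Φ` preserves the chart `B`, `Φ π ∈ 𝔫`,
                              `Φ (j c) ≡ j c` mod `𝔫` for every `c : R` ⇒ `Rtk6ewCong Φ 1 𝔫`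
                              (`B = j R + π B`);
* `rtk6fxx_cong_of_fixed`   : the case (U): `Φ (j c) = j c` for every `c : R`;
* `rtk6fxxPt`               : the closed point `𝔫 ∩ R₁` of the chart of the level `A₁`;
* `rtk6fxx_cong_transfer`   : TWO levels: `Rtk6ewCong Φ₁ 1 (𝔫 ∩ R₁)` ⇒ `Rtk6ewCong Φ 1 𝔫` when
                              `Φ ∘ ι = ι ∘ Φ₁` on the chart `R₁`;
* `rtk6fxx_fix_transfer`    : the same for `Rtk6ewFix g 𝔫` (from `Rtk6ewCong` for `g₁`, `g₁⁻¹`);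
* `rtk6fxx_crossFrob_transfer` : both, from `Rtk6ewFix g₁ _ ∧ Rtk6ewCong g₁ 1 _` … (the output of
                              `rtk6c4x_crossAt`, `RT/K6/C4X.lean`, for `g₁` and `g₁⁻¹`).
-/

set_option autoImplicit false
set_option linter.style.haveILetI false
set_option linter.unusedSectionVars false
set_option linter.unusedVariables false

namespace Fermat.Agent.RT.K6

open Polynomial IntermediateField Fermat.Agent.INJ AlgebraicCurve Fermat.Agent.UNIP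
  Fermat.Agent.STB

section OneLevel

variable {A₀ E F : Type*} [CommRing A₀] [IsDomain A₀] [IsDiscreteValuationRing A₀]
  [Field E] [Algebra A₀ E] [IsFractionRing A₀ E] [CharZero E]
  [Field F] [Algebra E F] [Algebra A₀ F] [IsScalarTower A₀ E F]
  {π : A₀}

/-- `Rtk6ewFix` from `Rtk6ewCong` (with `Q = 1`) for `g` and for `g⁻¹`. -/
theorem rtk6fxx_fix_of_cong (g : SemilinearAut E F) {u : F} (𝔫 : AtPt (F := F) π u)
    (h : Rtk6ewCong (SemilinearAut.toRingAut g : F ≃+* F).toRingHom 1 𝔫)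
    (h' : Rtk6ewCong (SemilinearAut.toRingAut g⁻¹ : F ≃+* F).toRingHom 1 𝔫) :
    Rtk6ewFix g 𝔫 := by
  refine ⟨fun b hb => ?_, fun b hb => ?_⟩
  · obtain ⟨c, hc, hbc⟩ := h b
    refine ⟨b + c, 𝔫.1.add_mem hb hc, ?_⟩
    rw [pow_one] at hbc
    exact hbc
  · obtain ⟨c, hc, hbc⟩ := h' b
    refine ⟨b + c, 𝔫.1.add_mem hb hc, ?_⟩
    rw [pow_one] at hbc
    exact hbc

omit [CharZero E] in
/-- `algebraMap A₀ F` is injective -/
theorem rtk6fxx_algebraMap_injective (E : Type*) [Field E] [Algebra A₀ E] [IsFractionRing A₀ E]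
    [Algebra E F] [IsScalarTower A₀ E F] : Function.Injective (algebraMap A₀ F) := by
  rw [IsScalarTower.algebraMap_eq A₀ E F]
  exact (algebraMap E F).injective.comp (IsFractionRing.injective A₀ E)

/-- a nonunit of `A₀` lies in every closed point of the special fibre (`π ≠ 0`) -/
theorem rtk6fxx_nonunit_mem (hπ0 : π ≠ 0) {u : F} (𝔫 : AtPt (F := F) π u) {α : A₀}
    (hα : ¬ IsUnit α) :
    algebraMap A₀ ↥(zchClosure (A₀ := A₀) ({u} : Set F)) α ∈ 𝔫.1 := by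
  haveI : 𝔫.1.IsMaximal := 𝔫.2.1
  have hP : (𝔫.1.comap (algebraMap A₀ ↥(zchClosure (A₀ := A₀) ({u} : Set F)))).IsPrime :=
    Ideal.IsPrime.comap _
  have hne : 𝔫.1.comap (algebraMap A₀ ↥(zchClosure (A₀ := A₀) ({u} : Set F))) ≠ ⊥ := by
    intro h0
    have : π ∈ 𝔫.1.comap (algebraMap A₀ ↥(zchClosure (A₀ := A₀) ({u} : Set F))) :=
      Ideal.mem_comap.2 𝔫.2.2
    rw [h0, Ideal.mem_bot] at this
    exact hπ0 this
  have hM := hP.isMaximal hne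
  have heq := IsLocalRing.eq_maximalIdeal hM
  have : α ∈ 𝔫.1.comap (algebraMap A₀ ↥(zchClosure (A₀ := A₀) ({u} : Set F))) := by
    rw [heq]
    exact (IsLocalRing.mem_maximalIdeal α).2 hα
  exact Ideal.mem_comap.1 this

/-- `g` and `g⁻¹` preserve `A₀` ⇒ `g • π` is (the image of) a nonunit of `A₀`, hence lies in every
closed point of the special fibre. -/
theorem rtk6fxx_smul_unif_mem (hπ0 : π ≠ 0) (g : SemilinearAut E F) {u : F}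
    (𝔫 : AtPt (F := F) π u)
    (hgA : ∀ α : A₀, ∃ α' : A₀, g • algebraMap A₀ F α = algebraMap A₀ F α')
    (hgA' : ∀ α : A₀, ∃ α' : A₀, g⁻¹ • algebraMap A₀ F α = algebraMap A₀ F α') :
    ∃ z : ↥(zchClosure (A₀ := A₀) ({u} : Set F)), z ∈ 𝔫.1 ∧
      (SemilinearAut.toRingAut g : F ≃+* F).toRingHom (algebraMap A₀ F π) = (z : F) := by
  haveI : 𝔫.1.IsMaximal := 𝔫.2.1
  obtain ⟨α', hα'⟩ := hgA π
  have hnu : ¬ IsUnit α' := by
    intro hu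
    obtain ⟨β, hβ⟩ := hu.exists_right_inv
    obtain ⟨β', hβ'⟩ := hgA' β
    have h1 : g⁻¹ • algebraMap A₀ F α' = algebraMap A₀ F π := by
      rw [← hα', inv_smul_smul]
    have h2 : algebraMap A₀ F (π * β') = algebraMap A₀ F 1 := by
      rw [map_mul, ← h1, ← hβ', ← smul_mul', ← map_mul, hβ, map_one, smul_one]
    have h3 : π * β' = 1 := rtk6fxx_algebraMap_injective E h2
    have h4 : algebraMap A₀ ↥(zchClosure (A₀ := A₀) ({u} : Set F)) π *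
        algebraMap A₀ ↥(zchClosure (A₀ := A₀) ({u} : Set F)) β' = 1 := by
      rw [← map_mul, h3, map_one]
    exact 𝔫.2.1.ne_top ((Ideal.eq_top_iff_one _).2 (h4 ▸ 𝔫.1.mul_mem_right _ 𝔫.2.2))
  exact ⟨algebraMap A₀ ↥(zchClosure (A₀ := A₀) ({u} : Set F)) α',
    rtk6fxx_nonunit_mem hπ0 𝔫 hnu, hα'⟩

/-- **FIX-X, one level.**  `B = j R + π B` (`MgcRamified`), `Φ` preserves `B`, `Φ π ∈ 𝔫` and
`Φ (j c) ≡ j c` modulo `𝔫` for every `c : R` ⇒ `Φ b ≡ b` modulo `𝔫` for every `b : B`. -/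
theorem rtk6fxx_cong_of_decomp {R : Type*} [CommRing R] {u : F} (𝔫 : AtPt (F := F) π u)
    (j : R →+* ↥(zchClosure (A₀ := A₀) ({u} : Set F))) {p : R}
    (hram : MgcRamified j (algebraMap A₀ ↥(zchClosure (A₀ := A₀) ({u} : Set F)) π) p)
    (Φ : F →+* F)
    (hΦB : ∀ b : ↥(zchClosure (A₀ := A₀) ({u} : Set F)),
      ∃ b' : ↥(zchClosure (A₀ := A₀) ({u} : Set F)), Φ (b : F) = (b' : F))
    (hΦπ : ∃ z : ↥(zchClosure (A₀ := A₀) ({u} : Set F)), z ∈ 𝔫.1 ∧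
      Φ (algebraMap A₀ F π) = (z : F))
    (hj : ∀ c : R, ∃ c' : ↥(zchClosure (A₀ := A₀) ({u} : Set F)), c' ∈ 𝔫.1 ∧
      Φ ((j c : ↥(zchClosure (A₀ := A₀) ({u} : Set F))) : F) =
        ((j c : ↥(zchClosure (A₀ := A₀) ({u} : Set F))) : F) + (c' : F)) :
    Rtk6ewCong Φ 1 𝔫 := by
  intro b
  obtain ⟨c, z, rfl⟩ := hram.decomp b
  obtain ⟨c', hc', hΦc⟩ := hj c
  obtain ⟨z', hz'⟩ := hΦB z
  obtain ⟨w, hw, hΦw⟩ := hΦπ
  refine ⟨c' + w * z' - algebraMap A₀ ↥(zchClosure (A₀ := A₀) ({u} : Set F)) π * z,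
    𝔫.1.sub_mem (𝔫.1.add_mem hc' (𝔫.1.mul_mem_right _ hw)) (𝔫.1.mul_mem_right _ 𝔫.2.2), ?_⟩
  have e1 : ((j c + algebraMap A₀ ↥(zchClosure (A₀ := A₀) ({u} : Set F)) π * z :
      ↥(zchClosure (A₀ := A₀) ({u} : Set F))) : F) =
      ((j c : ↥(zchClosure (A₀ := A₀) ({u} : Set F))) : F) + algebraMap A₀ F π * (z : F) := rfl
  have e2 : ((c' + w * z' - algebraMap A₀ ↥(zchClosure (A₀ := A₀) ({u} : Set F)) π * z :
      ↥(zchClosure (A₀ := A₀) ({u} : Set F))) : F) =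
      (c' : F) + (w : F) * (z' : F) - algebraMap A₀ F π * (z : F) := rfl
  rw [e1, e2, map_add, map_mul, hΦc, hΦw, hz', pow_one]
  ring

/-- **FIX-U form, one level.**  If `Φ` fixes `j R` pointwise then `Φ b ≡ b` modulo `𝔫`. -/
theorem rtk6fxx_cong_of_fixed {R : Type*} [CommRing R] {u : F} (𝔫 : AtPt (F := F) π u)
    (j : R →+* ↥(zchClosure (A₀ := A₀) ({u} : Set F))) {p : R}
    (hram : MgcRamified j (algebraMap A₀ ↥(zchClosure (A₀ := A₀) ({u} : Set F)) π) p)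
    (Φ : F →+* F)
    (hΦB : ∀ b : ↥(zchClosure (A₀ := A₀) ({u} : Set F)),
      ∃ b' : ↥(zchClosure (A₀ := A₀) ({u} : Set F)), Φ (b : F) = (b' : F))
    (hΦπ : ∃ z : ↥(zchClosure (A₀ := A₀) ({u} : Set F)), z ∈ 𝔫.1 ∧
      Φ (algebraMap A₀ F π) = (z : F))
    (hj : ∀ c : R, Φ ((j c : ↥(zchClosure (A₀ := A₀) ({u} : Set F))) : F) =
        ((j c : ↥(zchClosure (A₀ := A₀) ({u} : Set F))) : F)) :
    Rtk6ewCong Φ 1 𝔫 :=
  rtk6fxx_cong_of_decomp 𝔫 j hram Φ hΦB hΦπ fun c =>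
    ⟨0, 𝔫.1.zero_mem, by rw [hj c]; exact (add_zero _).symm⟩

/-- **FIX-X for a semilinear automorphism, one level**: `Rtk6ewFix g 𝔫 ∧ Rtk6ewCong g 1 𝔫` from
the congruences `g (j c) ≡ j c`, `g⁻¹ (j c) ≡ j c` modulo `𝔫` on `j R`. -/
theorem rtk6fxx_crossFrob_of_decomp (hπ0 : π ≠ 0) {R : Type*} [CommRing R] {u : F}
    (𝔫 : AtPt (F := F) π u)
    (j : R →+* ↥(zchClosure (A₀ := A₀) ({u} : Set F))) {p : R}
    (hram : MgcRamified j (algebraMap A₀ ↥(zchClosure (A₀ := A₀) ({u} : Set F)) π) p)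
    (g : SemilinearAut E F) (hgu : g • u = u)
    (hgA : ∀ α : A₀, ∃ α' : A₀, g • algebraMap A₀ F α = algebraMap A₀ F α')
    (hgA' : ∀ α : A₀, ∃ α' : A₀, g⁻¹ • algebraMap A₀ F α = algebraMap A₀ F α')
    (hj : ∀ c : R, ∃ c' : ↥(zchClosure (A₀ := A₀) ({u} : Set F)), c' ∈ 𝔫.1 ∧
      g • ((j c : ↥(zchClosure (A₀ := A₀) ({u} : Set F))) : F) =
        ((j c : ↥(zchClosure (A₀ := A₀) ({u} : Set F))) : F) + (c' : F))
    (hj' : ∀ c : R, ∃ c' : ↥(zchClosure (A₀ := A₀) ({u} : Set F)), c' ∈ 𝔫.1 ∧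
      g⁻¹ • ((j c : ↥(zchClosure (A₀ := A₀) ({u} : Set F))) : F) =
        ((j c : ↥(zchClosure (A₀ := A₀) ({u} : Set F))) : F) + (c' : F)) :
    Rtk6ewFix g 𝔫 ∧ Rtk6ewCong (SemilinearAut.toRingAut g : F ≃+* F).toRingHom 1 𝔫 := by
  have h1 : Rtk6ewCong (SemilinearAut.toRingAut g : F ≃+* F).toRingHom 1 𝔫 :=
    rtk6fxx_cong_of_decomp 𝔫 j hram _ (fun b => rtk6gf_ew_preserves g hgu hgA b)
      (rtk6fxx_smul_unif_mem hπ0 g 𝔫 hgA hgA') hj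
  have h2 : Rtk6ewCong (SemilinearAut.toRingAut g⁻¹ : F ≃+* F).toRingHom 1 𝔫 :=
    rtk6fxx_cong_of_decomp 𝔫 j hram _
      (fun b => rtk6gf_ew_preserves g⁻¹ (rtk6gf_inv_smul_of_smul g hgu) hgA' b)
      (rtk6fxx_smul_unif_mem hπ0 g⁻¹ 𝔫 hgA' (by rwa [inv_inv])) hj'
  exact ⟨rtk6fxx_fix_of_cong g 𝔫 h1 h2, h1⟩

end OneLevel

section TwoLevel

variable {A₁ E₁ F₁ : Type*} [CommRing A₁] [IsDomain A₁] [IsDiscreteValuationRing A₁]
  [Field E₁] [Algebra A₁ E₁] [IsFractionRing A₁ E₁] [CharZero E₁]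
  [Field F₁] [Algebra E₁ F₁] [Algebra A₁ F₁] [IsScalarTower A₁ E₁ F₁]
  {π₁ : A₁}
  {A' E' F' : Type*} [CommRing A'] [IsDomain A'] [IsDiscreteValuationRing A']
  [Field E'] [Algebra A' E'] [IsFractionRing A' E'] [CharZero E']
  [Field F'] [Algebra E' F'] [Algebra A' F'] [IsScalarTower A' E' F']
  {π' : A'}

/-- The closed point `𝔫 ∩ R₁` of the chart `R₁ = zchClosure {u₁}` of the level `A₁` under a closed
point `𝔫` of the chart `B′ = zchClosure {u}` of the level `A′`. -/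
def rtk6fxxPt {u₁ : F₁} {u : F'}
    (j : ↥(zchClosure (A₀ := A₁) ({u₁} : Set F₁)) →+* ↥(zchClosure (A₀ := A') ({u} : Set F')))
    (hram : MgcRamified j (algebraMap A' ↥(zchClosure (A₀ := A') ({u} : Set F')) π')
      (algebraMap A₁ ↥(zchClosure (A₀ := A₁) ({u₁} : Set F₁)) π₁))
    (𝔫 : AtPt (F := F') π' u) : AtPt (F := F₁) π₁ u₁ :=
  ⟨𝔫.1.comap j,
    haveI : 𝔫.1.IsMaximal := 𝔫.2.1
    hram.mgg_comap_isMaximal 𝔫.1 𝔫.2.2,
    Ideal.mem_comap.2 (by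
      obtain ⟨z, hz⟩ := hram.dvd
      rw [hz]
      exact 𝔫.1.mul_mem_right _ 𝔫.2.2)⟩

theorem rtk6fxx_mem_pt {u₁ : F₁} {u : F'}
    (j : ↥(zchClosure (A₀ := A₁) ({u₁} : Set F₁)) →+* ↥(zchClosure (A₀ := A') ({u} : Set F')))
    (hram : MgcRamified j (algebraMap A' ↥(zchClosure (A₀ := A') ({u} : Set F')) π')
      (algebraMap A₁ ↥(zchClosure (A₀ := A₁) ({u₁} : Set F₁)) π₁))
    (𝔫 : AtPt (F := F') π' u) (c : ↥(zchClosure (A₀ := A₁) ({u₁} : Set F₁))) :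
    c ∈ (rtk6fxxPt j hram 𝔫).1 ↔ j c ∈ 𝔫.1 := Iff.rfl

omit [Algebra E₁ F₁] [Algebra A₁ F₁] [IsScalarTower A₁ E₁ F₁] [Algebra E' F'] [Algebra A' F']
  [IsScalarTower A' E' F'] [CommRing A₁] [IsDomain A₁] [IsDiscreteValuationRing A₁]
  [Field E₁] [Algebra A₁ E₁] [IsFractionRing A₁ E₁] [CharZero E₁] [CommRing A'] [IsDomain A']
  [IsDiscreteValuationRing A'] [Field E'] [Algebra A' E'] [IsFractionRing A' E'] [CharZero E'] in
/-- the nonunits of the restriction of a valuation ring -/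
theorem rtk6fxx_nonunits_comap (ι : F₁ →+* F') (W : ValuationSubring F') {x : F₁} :
    x ∈ (W.comap ι).nonunits ↔ ι x ∈ W.nonunits := by
  rw [ValuationSubring.mem_nonunits_iff_or, ValuationSubring.mem_nonunits_iff_or,
    ValuationSubring.mem_comap, map_inv₀, map_eq_zero]

/-- a component through `𝔫` restricts to a component through `𝔫 ∩ R₁` -/
theorem rtk6fxx_through_comap {u₁ : F₁} {u : F'} (ι : F₁ →+* F')
    (j : ↥(zchClosure (A₀ := A₁) ({u₁} : Set F₁)) →+* ↥(zchClosure (A₀ := A') ({u} : Set F')))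
    (hj : ∀ b, ((j b : ↥(zchClosure (A₀ := A') ({u} : Set F'))) : F') = ι (b : F₁))
    (hram : MgcRamified j (algebraMap A' ↥(zchClosure (A₀ := A') ({u} : Set F')) π')
      (algebraMap A₁ ↥(zchClosure (A₀ := A₁) ({u₁} : Set F₁)) π₁))
    (𝔫 : AtPt (F := F') π' u) (W : ValuationSubring F') (hW : atThrough 𝔫 W) :
    atThrough (rtk6fxxPt j hram 𝔫) (W.comap ι) := by
  intro b hb
  refine (rtk6fxx_mem_pt j hram 𝔫 b).2 (hW (j b) ?_)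
  rw [hj]
  exact (rtk6fxx_nonunits_comap ι W).1 hb

/-- **FIX-X, two levels, ring homomorphisms.**  `Φ ∘ ι = ι ∘ Φ₁` on the chart `R₁`, `Φ` preserves
the chart `B′`, `Φ π′ ∈ 𝔫`: `Φ₁ ≡ id` modulo `𝔫 ∩ R₁` ⇒ `Φ ≡ id` modulo `𝔫`. -/
theorem rtk6fxx_cong_transfer {u₁ : F₁} {u : F'} (ι : F₁ →+* F')
    (j : ↥(zchClosure (A₀ := A₁) ({u₁} : Set F₁)) →+* ↥(zchClosure (A₀ := A') ({u} : Set F')))
    (hj : ∀ b, ((j b : ↥(zchClosure (A₀ := A') ({u} : Set F'))) : F') = ι (b : F₁))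
    (hram : MgcRamified j (algebraMap A' ↥(zchClosure (A₀ := A') ({u} : Set F')) π')
      (algebraMap A₁ ↥(zchClosure (A₀ := A₁) ({u₁} : Set F₁)) π₁))
    (𝔫 : AtPt (F := F') π' u) (Φ₁ : F₁ →+* F₁) (Φ : F' →+* F')
    (hΦι : ∀ b : ↥(zchClosure (A₀ := A₁) ({u₁} : Set F₁)), Φ (ι (b : F₁)) = ι (Φ₁ (b : F₁)))
    (hΦB : ∀ b : ↥(zchClosure (A₀ := A') ({u} : Set F')),
      ∃ b' : ↥(zchClosure (A₀ := A') ({u} : Set F')), Φ (b : F') = (b' : F'))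
    (hΦπ : ∃ z : ↥(zchClosure (A₀ := A') ({u} : Set F')), z ∈ 𝔫.1 ∧
      Φ (algebraMap A' F' π') = (z : F'))
    (h₁ : Rtk6ewCong Φ₁ 1 (rtk6fxxPt j hram 𝔫)) : Rtk6ewCong Φ 1 𝔫 := by
  refine rtk6fxx_cong_of_decomp 𝔫 j hram Φ hΦB hΦπ fun c => ?_
  obtain ⟨c₁, hc₁, hΦc⟩ := h₁ c
  refine ⟨j c₁, (rtk6fxx_mem_pt j hram 𝔫 c₁).1 hc₁, ?_⟩
  rw [hj, hj, hΦι, hΦc, pow_one, map_add]

/-- `Rtk6ewCong g⁻¹ 1 𝔫` from `Rtk6ewFix g 𝔫` and `Rtk6ewCong g 1 𝔫` -/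
theorem rtk6fxx_cong_inv (g : SemilinearAut E₁ F₁) {u₁ : F₁} (𝔫₁ : AtPt (F := F₁) π₁ u₁)
    (hf : Rtk6ewFix g 𝔫₁)
    (hc : Rtk6ewCong (SemilinearAut.toRingAut g : F₁ ≃+* F₁).toRingHom 1 𝔫₁) :
    Rtk6ewCong (SemilinearAut.toRingAut g⁻¹ : F₁ ≃+* F₁).toRingHom 1 𝔫₁ := by
  intro b
  obtain ⟨c, hc𝔫, hbc⟩ := hc b
  obtain ⟨c', hc', hcc'⟩ := hf.2 c hc𝔫
  refine ⟨-c', 𝔫₁.1.neg_mem hc', ?_⟩
  rw [pow_one] at hbc ⊢
  have h1 : g • (b : F₁) = (b : F₁) + (c : F₁) := hbc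
  have h2 : g⁻¹ • ((b : F₁) + (c : F₁)) = (b : F₁) := by rw [← h1, inv_smul_smul]
  rw [smul_add, hcc'] at h2
  show g⁻¹ • (b : F₁) = (b : F₁) + ((-c' : ↥(zchClosure (A₀ := A₁) ({u₁} : Set F₁))) : F₁)
  have e : ((-c' : ↥(zchClosure (A₀ := A₁) ({u₁} : Set F₁))) : F₁) = -(c' : F₁) := rfl
  rw [e]
  linear_combination h2

/-- **FIX-X, two levels, semilinear automorphisms** (the transfer of `StbCrossFrob g 1 𝔫`):
`g ∘ ι = ι ∘ g₁`, `g • u = u`, `g`, `g⁻¹` preserve `A′`; then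
`Rtk6ewFix g₁ (𝔫 ∩ R₁) ∧ Rtk6ewCong g₁ 1 (𝔫 ∩ R₁)` (the output of `rtk6c4x_crossAt`) gives
`Rtk6ewFix g 𝔫 ∧ Rtk6ewCong g 1 𝔫`. -/
theorem rtk6fxx_crossFrob_transfer (hπ0 : π' ≠ 0) {u₁ : F₁} {u : F'} (ι : F₁ →+* F')
    (j : ↥(zchClosure (A₀ := A₁) ({u₁} : Set F₁)) →+* ↥(zchClosure (A₀ := A') ({u} : Set F')))
    (hj : ∀ b, ((j b : ↥(zchClosure (A₀ := A') ({u} : Set F'))) : F') = ι (b : F₁))
    (hram : MgcRamified j (algebraMap A' ↥(zchClosure (A₀ := A') ({u} : Set F')) π')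
      (algebraMap A₁ ↥(zchClosure (A₀ := A₁) ({u₁} : Set F₁)) π₁))
    (𝔫 : AtPt (F := F') π' u) (g₁ : SemilinearAut E₁ F₁) (g : SemilinearAut E' F')
    (hgι : ∀ x : F₁, g • ι x = ι (g₁ • x)) (hgu : g • u = u)
    (hgA : ∀ α : A', ∃ α' : A', g • algebraMap A' F' α = algebraMap A' F' α')
    (hgA' : ∀ α : A', ∃ α' : A', g⁻¹ • algebraMap A' F' α = algebraMap A' F' α')
    (h₁ : Rtk6ewFix g₁ (rtk6fxxPt j hram 𝔫) ∧
      Rtk6ewCong (SemilinearAut.toRingAut g₁ : F₁ ≃+* F₁).toRingHom 1 (rtk6fxxPt j hram 𝔫)) :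
    Rtk6ewFix g 𝔫 ∧ Rtk6ewCong (SemilinearAut.toRingAut g : F' ≃+* F').toRingHom 1 𝔫 := by
  have hgι' : ∀ x : F₁, g⁻¹ • ι x = ι (g₁⁻¹ • x) := by
    intro x
    have h := hgι (g₁⁻¹ • x)
    rw [smul_inv_smul] at h
    rw [← h, inv_smul_smul]
  have h1 : Rtk6ewCong (SemilinearAut.toRingAut g : F' ≃+* F').toRingHom 1 𝔫 :=
    rtk6fxx_cong_transfer ι j hj hram 𝔫 _ _ (fun b => hgι _)
      (fun b => rtk6gf_ew_preserves g hgu hgA b)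
      (rtk6fxx_smul_unif_mem hπ0 g 𝔫 hgA hgA') h₁.2
  have h2 : Rtk6ewCong (SemilinearAut.toRingAut g⁻¹ : F' ≃+* F').toRingHom 1 𝔫 :=
    rtk6fxx_cong_transfer ι j hj hram 𝔫 _ _ (fun b => hgι' _)
      (fun b => rtk6gf_ew_preserves g⁻¹ (rtk6gf_inv_smul_of_smul g hgu) hgA' b)
      (rtk6fxx_smul_unif_mem hπ0 g⁻¹ 𝔫 hgA' (by rwa [inv_inv]))
      (rtk6fxx_cong_inv g₁ _ h₁.1 h₁.2)
  exact ⟨rtk6fxx_fix_of_cong g 𝔫 h1 h2, h1⟩

/-- **FIX-X, the family form** (abstract `Rtk6emFixAt` / `Rtk6emCongAt`): if two distinct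
components of the family `V` through a closed point `𝔫` of the chart `B′` restrict to two
distinct components of the family `V₁` through `𝔫 ∩ R₁` (FAM-res), and `g₁` satisfies (FIX) and
(CONG) at the crossing points of the chart `R₁` of the level `A₁`, then `g` satisfies (FIX) and
(CONG) at the crossing points of the chart `B′`. -/
theorem rtk6fxx_family_transfer (hπ0 : π' ≠ 0) {u₁ : F₁} {u : F'} (ι : F₁ →+* F')
    (j : ↥(zchClosure (A₀ := A₁) ({u₁} : Set F₁)) →+* ↥(zchClosure (A₀ := A') ({u} : Set F')))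
    (hj : ∀ b, ((j b : ↥(zchClosure (A₀ := A') ({u} : Set F'))) : F') = ι (b : F₁))
    (hram : MgcRamified j (algebraMap A' ↥(zchClosure (A₀ := A') ({u} : Set F')) π')
      (algebraMap A₁ ↥(zchClosure (A₀ := A₁) ({u₁} : Set F₁)) π₁))
    {κ κ₁ : Type*} (V : κ → ValuationSubring F') (V₁ : κ₁ → ValuationSubring F₁)
    (hres : ∀ (𝔫 : AtPt (F := F') π' u) (c₁ c₂ : κ), c₁ ≠ c₂ → atThrough 𝔫 (V c₁) →
      atThrough 𝔫 (V c₂) → ∃ d₁ d₂ : κ₁, d₁ ≠ d₂ ∧ atThrough (rtk6fxxPt j hram 𝔫) (V₁ d₁) ∧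
        atThrough (rtk6fxxPt j hram 𝔫) (V₁ d₂))
    (g₁ : SemilinearAut E₁ F₁) (g : SemilinearAut E' F')
    (hgι : ∀ x : F₁, g • ι x = ι (g₁ • x)) (hgu : g • u = u)
    (hgA : ∀ α : A', ∃ α' : A', g • algebraMap A' F' α = algebraMap A' F' α')
    (hgA' : ∀ α : A', ∃ α' : A', g⁻¹ • algebraMap A' F' α = algebraMap A' F' α')
    (hfix₁ : ∀ (𝔫₁ : AtPt (F := F₁) π₁ u₁) (d₁ d₂ : κ₁), d₁ ≠ d₂ → atThrough 𝔫₁ (V₁ d₁) →
      atThrough 𝔫₁ (V₁ d₂) → Rtk6ewFix g₁ 𝔫₁)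
    (hcong₁ : ∀ (𝔫₁ : AtPt (F := F₁) π₁ u₁) (d₁ d₂ : κ₁), d₁ ≠ d₂ → atThrough 𝔫₁ (V₁ d₁) →
      atThrough 𝔫₁ (V₁ d₂) →
      Rtk6ewCong (SemilinearAut.toRingAut g₁ : F₁ ≃+* F₁).toRingHom 1 𝔫₁) :
    (∀ (𝔫 : AtPt (F := F') π' u) (c₁ c₂ : κ), c₁ ≠ c₂ → atThrough 𝔫 (V c₁) →
      atThrough 𝔫 (V c₂) → Rtk6ewFix g 𝔫) ∧
    (∀ (𝔫 : AtPt (F := F') π' u) (c₁ c₂ : κ), c₁ ≠ c₂ → atThrough 𝔫 (V c₁) →
      atThrough 𝔫 (V c₂) →
      Rtk6ewCong (SemilinearAut.toRingAut g : F' ≃+* F').toRingHom 1 𝔫) := by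
  have key : ∀ (𝔫 : AtPt (F := F') π' u) (c₁ c₂ : κ), c₁ ≠ c₂ → atThrough 𝔫 (V c₁) →
      atThrough 𝔫 (V c₂) →
      Rtk6ewFix g 𝔫 ∧ Rtk6ewCong (SemilinearAut.toRingAut g : F' ≃+* F').toRingHom 1 𝔫 := by
    intro 𝔫 c₁ c₂ hc h1 h2
    obtain ⟨d₁, d₂, hd, hd1, hd2⟩ := hres 𝔫 c₁ c₂ hc h1 h2
    exact rtk6fxx_crossFrob_transfer hπ0 ι j hj hram 𝔫 g₁ g hgι hgu hgA hgA'
      ⟨hfix₁ _ d₁ d₂ hd hd1 hd2, hcong₁ _ d₁ d₂ hd hd1 hd2⟩
  exact ⟨fun 𝔫 c₁ c₂ hc h1 h2 => (key 𝔫 c₁ c₂ hc h1 h2).1,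
    fun 𝔫 c₁ c₂ hc h1 h2 => (key 𝔫 c₁ c₂ hc h1 h2).2⟩

end TwoLevel

end Fermat.Agent.RT.K6


end ZBRT_091_6

/-! ### bundled: `Fermat.Agent.RT.K6.FixX` -/
section ZBRT_091_7
/-
K-machine, piece K6, piece **FIX-X** (helper67), concrete TOP half: the hypotheses `Rtk6emFixAt`,
`Rtk6emCongAt` of E-MAIN (`RT/K6/EMain.lean`) at the level `K₁`, for `g = σ̂ = rtk6diGal σ` and
`Φ = δ′` a diamond, from the corresponding statements at a THIN intermediate level `K₁′ ≤ K₁`.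

`A₁ = mgcA A K₁′` (uniformizer `ϖ₁`), `A′ = mgcA A K₁` (uniformizer `π`),
`F₁ = rtk6diF A K₁′ L M H`, `F′ = rtk6diF A K₁ L M H`, `ι : F₁ → F′`,
`R₁ = zchClosure {u₁}`, `B′ = zchClosure {u}`, `j : R₁ →+* B′` the (D-BC) map
(`MgcRamified j π ϖ₁`, `(j b : F′) = ι b`): the hypothesis `hD` has LITERALLY the shape of
helper81's `rtk6c4b_chartAt` (`RT/K6/C4InstBNode.lean`), the output of helper56's
`rtk6dbc_chart_t`, `rtk6dbc_chart_tinv`.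

**The thin hypothesis** (`Rtk6fxxThin g₁ u₁`): at every closed point `𝔫₁` of the special fibre of
`R₁`, either `𝔫₁` is a smooth point, `𝔫₁ = (ϖ₁, s)` locally, or
`Rtk6ewFix g₁ 𝔫₁ ∧ Rtk6ewCong g₁ 1 𝔫₁` (the second part of helper94's `rtk6c4x_crossAt`).

NO FAM-res is needed: if `𝔫 ∩ R₁` is a smooth point then `𝔫 = (π, j s)` locally
(`mgg_locGen_pair`) and only one component of the family passes through `𝔫` (`stb_sx_only`).

* `rtk6fxx_point`        : abstract, at one closed point `𝔫` of `B′`;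
* `Rtk6fxxThin`, `rtk6fxx_thin_of_node` : the thin hypothesis, and its derivation from a
  dichotomy in the shape of `Rtk6ewmNodeAt … (RingHom.id _) ϖ₁` with C4+ attached;
* `rtk6fxx_fixCongAt`    : `Rtk6emFixAt … g u ∧ Rtk6emCongAt … g u` for general `g`, `g₁`;
* `rtk6fxx_gal_compat`, `rtk6fxx_diamond_compat` : `g ∘ ι = ι ∘ g₁` for `σ̂` and the diamonds;
* `rtk6fxx_fixCongAt_gal`, `rtk6fxx_fixCongAt_diamond` : the two instances;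
* `rtk6fxx_provider`     : `Rtk6emFixAt … (rtk6diGal σ) u ∧ Rtk6emCongAt … (ofAlgAut δ′) u`, the
  body of the provider `hFix` of `rtk6ei_geomChi_of_pieces` (`RT/K6/EInstGlue.lean`).
-/

set_option autoImplicit false
set_option linter.style.haveILetI false
set_option linter.unusedSectionVars false
set_option linter.unusedVariables false
set_option linter.style.longLine false

noncomputable section

namespace Fermat.Agent.RT.K6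

open ModularCurve AlgebraicCurve Fermat.Agent.ES Fermat.Agent.ES.G2 Fermat.Agent.INJ
open Fermat.Agent.UNIP Fermat.Agent.STB Fermat.Agent.ES1 Fermat.Agent.ES1.G2 IntermediateField

/-! ### Abstract: one closed point -/

section Point

variable {A₁ E₁ F₁ : Type*} [CommRing A₁] [IsDomain A₁] [IsDiscreteValuationRing A₁]
  [Field E₁] [Algebra A₁ E₁] [IsFractionRing A₁ E₁] [CharZero E₁]
  [Field F₁] [Algebra E₁ F₁] [Algebra A₁ F₁] [IsScalarTower A₁ E₁ F₁]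
  {π₁ : A₁}
  {A' E' F' : Type*} [CommRing A'] [IsDomain A'] [IsDiscreteValuationRing A']
  [Field E'] [Algebra A' E'] [IsFractionRing A' E'] [CharZero E']
  [Field F'] [Algebra E' F'] [Algebra A' F'] [IsScalarTower A' E' F']
  {π' : A'} {κ : Type*}

/-- **The thin hypothesis at one point**: smooth point, or (FIX) + (CONG) for `g₁`. -/
def Rtk6fxxThinAt (g₁ : SemilinearAut E₁ F₁) {u₁ : F₁} (𝔫₁ : AtPt (F := F₁) π₁ u₁) : Prop :=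
  (∃ s : ↥(zchClosure (A₀ := A₁) ({u₁} : Set F₁)), s ∈ 𝔫₁.1 ∧
    NodesLocGen 𝔫₁.1 {algebraMap A₁ ↥(zchClosure (A₀ := A₁) ({u₁} : Set F₁)) π₁, s}) ∨
  (Rtk6ewFix g₁ 𝔫₁ ∧ Rtk6ewCong (SemilinearAut.toRingAut g₁ : F₁ ≃+* F₁).toRingHom 1 𝔫₁)

/-- the thin hypothesis from a dichotomy in the shape of `Rtk6ewmNodeAt V₁ 𝔫₁ (RingHom.id _) ϖ₁`
whose crossing alternative carries C4+ -/
theorem rtk6fxx_thinAt_of_node (g₁ : SemilinearAut E₁ F₁) {u₁ : F₁}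
    (𝔫₁ : AtPt (F := F₁) π₁ u₁)
    (h : (∃ s : ↥(zchClosure (A₀ := A₁) ({u₁} : Set F₁)),
        (RingHom.id ↥(zchClosure (A₀ := A₁) ({u₁} : Set F₁))) s ∈ 𝔫₁.1 ∧
        NodesLocGen (𝔫₁.1.comap (RingHom.id ↥(zchClosure (A₀ := A₁) ({u₁} : Set F₁))))
          {algebraMap A₁ ↥(zchClosure (A₀ := A₁) ({u₁} : Set F₁)) π₁, s}) ∨
      (Rtk6ewFix g₁ 𝔫₁ ∧
        Rtk6ewCong (SemilinearAut.toRingAut g₁ : F₁ ≃+* F₁).toRingHom 1 𝔫₁)) :
    Rtk6fxxThinAt g₁ 𝔫₁ := by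
  rcases h with ⟨s, hs, hgen⟩ | h
  · refine Or.inl ⟨s, hs, ?_⟩
    rwa [Ideal.comap_id] at hgen
  · exact Or.inr h

/-- **FIX-X at one closed point `𝔫` of the chart `B′`** through which two distinct components
of the family `V` pass. -/
theorem rtk6fxx_point (hπ0 : π' ≠ 0) {u₁ : F₁} {u : F'}
    [IsNoetherianRing ↥(zchClosure (A₀ := A') ({u} : Set F'))]
    (V : κ → ValuationSubring F') (hinj : Function.Injective V)
    (hBV : ∀ c (b : F'), IsIntegral ↥(Algebra.adjoin A' {u}) b → b ∈ V c)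
    (hπV : ∀ c, algebraMap A' F' π' ∈ (V c).nonunits)
    (harch : ∀ c (a x : F'), a ∈ (V c).nonunits → ∃ N : ℕ, a ^ N * x ∈ (V c).nonunits)
    (hVloc : ∀ c (x : F'), x ∈ V c → ∃ b s : F', IsIntegral ↥(Algebra.adjoin A' {u}) b ∧
      IsIntegral ↥(Algebra.adjoin A' {u}) s ∧ s ∉ (V c).nonunits ∧ s * x = b)
    (ι : F₁ →+* F')
    (j : ↥(zchClosure (A₀ := A₁) ({u₁} : Set F₁)) →+* ↥(zchClosure (A₀ := A') ({u} : Set F')))
    (hj : ∀ b, ((j b : ↥(zchClosure (A₀ := A') ({u} : Set F'))) : F') = ι (b : F₁))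
    (hram : MgcRamified j (algebraMap A' ↥(zchClosure (A₀ := A') ({u} : Set F')) π')
      (algebraMap A₁ ↥(zchClosure (A₀ := A₁) ({u₁} : Set F₁)) π₁))
    (g₁ : SemilinearAut E₁ F₁) (g : SemilinearAut E' F')
    (hgι : ∀ x : F₁, g • ι x = ι (g₁ • x)) (hgu : g • u = u)
    (hgA : ∀ α : A', ∃ α' : A', g • algebraMap A' F' α = algebraMap A' F' α')
    (hgA' : ∀ α : A', ∃ α' : A', g⁻¹ • algebraMap A' F' α = algebraMap A' F' α')
    (𝔫 : AtPt (F := F') π' u) (hthin : Rtk6fxxThinAt g₁ (rtk6fxxPt j hram 𝔫))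
    (c₁ c₂ : κ) (hc : c₁ ≠ c₂) (h₁ : atThrough 𝔫 (V c₁)) (h₂ : atThrough 𝔫 (V c₂)) :
    Rtk6ewFix g 𝔫 ∧ Rtk6ewCong (SemilinearAut.toRingAut g : F' ≃+* F').toRingHom 1 𝔫 := by
  have hπ0' : algebraMap A' F' π' ≠ 0 := fun h0 =>
    hπ0 (rtk6fxx_algebraMap_injective (A₀ := A') (F := F') E' (by rw [h0, map_zero]))
  rcases hthin with ⟨s, hs, hgen⟩ | h
  · have hnle := rtk6ewm_hinc hπ0' V hinj hπV harch
    exact absurd (stb_sx_only V hBV hπV hVloc hnle 𝔫 (j s)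
      ((rtk6fxx_mem_pt j hram 𝔫 s).1 hs) (hram.mgg_locGen_pair 𝔫.2.2 s hgen) c₁ c₂ h₁ h₂) hc
  · exact rtk6fxx_crossFrob_transfer hπ0 ι j hj hram 𝔫 g₁ g hgι hgu hgA hgA' h

end Point

/-! ### Concrete -/

section Conc

variable {A : ValuationSubring Qb} {K₁' K₁ : IntermediateField ℚ Qb}
  [IsDiscreteValuationRing ↥(mgcA A K₁')] [IsDiscreteValuationRing ↥(mgcA A K₁)]
  {ϖ₁ : ↥(mgcA A K₁')} {π : ↥(mgcA A K₁)} {L M : ℕ} {H : Subgroup (ZMod M)ˣ}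
  {κ : Type} (V : κ → ValuationSubring ↥(rtk6diF A K₁ L M H))
  (ι : ↥(rtk6diF A K₁' L M H) →+* ↥(rtk6diF A K₁ L M H))

/-- **The thin hypothesis** on the chart `u₁` of the level `K₁′`, for `g₁`. -/
def Rtk6fxxThin (ϖ₁ : ↥(mgcA A K₁'))
    (g₁ : SemilinearAut ↥(mgcE A K₁') ↥(rtk6diF A K₁' L M H))
    (u₁ : ↥(rtk6diF A K₁' L M H)) : Prop :=
  ∀ 𝔫₁ : AtPt (F := ↥(rtk6diF A K₁' L M H)) ϖ₁ u₁, Rtk6fxxThinAt g₁ 𝔫₁

/-- **FIX-X, general `g`**: `Rtk6emFixAt` and `Rtk6emCongAt` at `K₁` on the chart `u` (`= t` or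
`t⁻¹`) from the thin hypothesis on the chart `u₁` at `K₁′`, the (D-BC) datum and the family. -/
theorem rtk6fxx_fixCongAt (hL : L ≠ 0) (hML : M ∣ L) (hπ : Irreducible π)
    (hfam : Rtk6emFam A K₁ L M H π V)
    {u₁ : ↥(rtk6diF A K₁' L M H)} {u : ↥(rtk6diF A K₁ L M H)}
    (hu : u = rtk6diT A K₁ L M H ∨ u = (rtk6diT A K₁ L M H)⁻¹)
    (hD : ∃ j : ↥(zchClosure (A₀ := ↥(mgcA A K₁'))
          ({u₁} : Set ↥(rtk6diF A K₁' L M H))) →+*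
        ↥(zchClosure (A₀ := ↥(mgcA A K₁)) ({u} : Set ↥(rtk6diF A K₁ L M H))),
      (∀ b, ((j b : ↥(zchClosure (A₀ := ↥(mgcA A K₁))
        ({u} : Set ↥(rtk6diF A K₁ L M H)))) : ↥(rtk6diF A K₁ L M H)) =
          ι (b : ↥(rtk6diF A K₁' L M H))) ∧
      MgcRamified j
        (algebraMap ↥(mgcA A K₁) ↥(zchClosure (A₀ := ↥(mgcA A K₁))
          ({u} : Set ↥(rtk6diF A K₁ L M H))) π)
        (algebraMap ↥(mgcA A K₁') ↥(zchClosure (A₀ := ↥(mgcA A K₁'))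
          ({u₁} : Set ↥(rtk6diF A K₁' L M H))) ϖ₁))
    (g₁ : SemilinearAut ↥(mgcE A K₁') ↥(rtk6diF A K₁' L M H))
    (g : SemilinearAut ↥(mgcE A K₁) ↥(rtk6diF A K₁ L M H))
    (hgι : ∀ x : ↥(rtk6diF A K₁' L M H), g • ι x = ι (g₁ • x)) (hgu : g • u = u)
    (hgA : ∀ α : ↥(mgcA A K₁), ∃ α' : ↥(mgcA A K₁),
      g • algebraMap ↥(mgcA A K₁) ↥(rtk6diF A K₁ L M H) α =
        algebraMap ↥(mgcA A K₁) ↥(rtk6diF A K₁ L M H) α')
    (hgA' : ∀ α : ↥(mgcA A K₁), ∃ α' : ↥(mgcA A K₁),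
      g⁻¹ • algebraMap ↥(mgcA A K₁) ↥(rtk6diF A K₁ L M H) α =
        algebraMap ↥(mgcA A K₁) ↥(rtk6diF A K₁ L M H) α')
    (hthin : Rtk6fxxThin ϖ₁ g₁ u₁) :
    Rtk6emFixAt A K₁ L M H π V g u ∧ Rtk6emCongAt A K₁ L M H π V g u := by
  obtain ⟨j, hj, hram⟩ := hD
  haveI := rtk6di_finiteDimensional A K₁ L M H hL hML
  have ht := rtk6di_transcendental A K₁ L M H
  have ht' : Transcendental ↥(mgcE A K₁) (rtk6diT A K₁ L M H)⁻¹ := zch_transcendental_inv ht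
  haveI : FiniteDimensional (↥(mgcE A K₁))⟮(rtk6diT A K₁ L M H)⁻¹⟯ ↥(rtk6diF A K₁ L M H) :=
    at_finiteDimensional_inv (rtk6diT A K₁ L M H)
  have key : ∀ (𝔫 : AtPt (F := ↥(rtk6diF A K₁ L M H)) π u) (c₁ c₂ : κ), c₁ ≠ c₂ →
      atThrough 𝔫 (V c₁) → atThrough 𝔫 (V c₂) →
      Rtk6ewFix g 𝔫 ∧ Rtk6ewCong (SemilinearAut.toRingAut g :
        ↥(rtk6diF A K₁ L M H) ≃+* ↥(rtk6diF A K₁ L M H)).toRingHom 1 𝔫 := by
    rcases hu with rfl | rfl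
    · haveI : IsNoetherianRing ↥(zchClosure (A₀ := ↥(mgcA A K₁))
          ({rtk6diT A K₁ L M H} : Set ↥(rtk6diF A K₁ L M H))) :=
        chart_closure_isNoetherianRing (A₀ := ↥(mgcA A K₁)) (E := ↥(mgcE A K₁)) ht
      intro 𝔫 c₁ c₂ hc h₁ h₂
      exact rtk6fxx_point (E₁ := ↥(mgcE A K₁')) (E' := ↥(mgcE A K₁)) hπ.ne_zero V hfam.hinj
        hfam.hBV₁ hfam.hπV hfam.harch hfam.hVloc₁ ι j hj hram g₁ g hgι hgu hgA hgA' 𝔫
        (hthin _) c₁ c₂ hc h₁ h₂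
    · haveI : IsNoetherianRing ↥(zchClosure (A₀ := ↥(mgcA A K₁))
          ({(rtk6diT A K₁ L M H)⁻¹} : Set ↥(rtk6diF A K₁ L M H))) :=
        chart_closure_isNoetherianRing (A₀ := ↥(mgcA A K₁)) (E := ↥(mgcE A K₁)) ht'
      intro 𝔫 c₁ c₂ hc h₁ h₂
      exact rtk6fxx_point (E₁ := ↥(mgcE A K₁')) (E' := ↥(mgcE A K₁)) hπ.ne_zero V hfam.hinj
        hfam.hBV₂ hfam.hπV hfam.harch hfam.hVloc₂ ι j hj hram g₁ g hgι hgu hgA hgA' 𝔫
        (hthin _) c₁ c₂ hc h₁ h₂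
  exact ⟨fun 𝔫 c₁ c₂ hc h₁ h₂ => (key 𝔫 c₁ c₂ hc h₁ h₂).1,
    fun 𝔫 c₁ c₂ hc h₁ h₂ => (key 𝔫 c₁ c₂ hc h₁ h₂).2⟩

end Conc

/-! ### The two instances: `σ̂` and the diamonds -/

section Inst

variable {A : ValuationSubring Qb} {K₁' K₁ : IntermediateField ℚ Qb}
  {L M : ℕ} {H : Subgroup (ZMod M)ˣ}
  (f : ↥(mgcE A K₁') →+* ↥(mgcE A K₁))
  (hf : ∀ a : ↥(mgcE A K₁'), ((f a : ↥(mgcE A K₁)) : Qb) = (a : Qb))

include hf in
/-- `σ̂ ∘ ι = ι ∘ σ̂₁` for the coefficientwise inclusion `ι` -/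
theorem rtk6fxx_gal_compat (σ : Qb ≃ₐ[ℚ] Qb) (hσ₁ : ∀ x ∈ mgcE A K₁', σ x ∈ mgcE A K₁')
    (hσ : ∀ x ∈ mgcE A K₁, σ x ∈ mgcE A K₁) (x : ↥(rtk6diF A K₁' L M H)) :
    rtk6diGal L M H σ hσ • rtk6diCoeffHom L M H f x =
      rtk6diCoeffHom L M H f (rtk6diGal L M H σ hσ₁ • x) := by
  rw [rtk6diGal_smul, rtk6diGal_smul]
  show rtk6diCoeffHom L M H (mgRestrict (mgcE A K₁) σ hσ) (rtk6diCoeffHom L M H f x) =
    rtk6diCoeffHom L M H f (rtk6diCoeffHom L M H (mgRestrict (mgcE A K₁') σ hσ₁) x)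
  rw [rtk6diCoeffHom_comp, rtk6diCoeffHom_comp]
  refine rtk6diCoeffHom_congr L M H (fun a => Subtype.ext ?_) x
  show σ ((f a : ↥(mgcE A K₁)) : Qb) =
    ((f (mgRestrict (mgcE A K₁') σ hσ₁ a) : ↥(mgcE A K₁)) : Qb)
  rw [hf, hf]
  rfl

include hf in
/-- `δ ∘ ι = ι ∘ δ₁` for the diamonds of the same `c` at the two levels -/
theorem rtk6fxx_diamond_compat (hL : L ≠ 0) (hML : M ∣ L) {c : (ZMod M)ˣ}
    {δ₁ : ↥(rtk6diF A K₁' L M H) ≃ₐ[↥(mgcE A K₁')] ↥(rtk6diF A K₁' L M H)}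
    (hδ₁ : IsDiamondC ↥(mgcE A K₁') L M H c δ₁)
    {δ : ↥(rtk6diF A K₁ L M H) ≃ₐ[↥(mgcE A K₁)] ↥(rtk6diF A K₁ L M H)}
    (hδ : IsDiamondC ↥(mgcE A K₁) L M H c δ) (x : ↥(rtk6diF A K₁' L M H)) :
    SemilinearAut.ofAlgAut δ • rtk6diCoeffHom L M H f x =
      rtk6diCoeffHom L M H f (SemilinearAut.ofAlgAut δ₁ • x) :=
  rtk6frf_diamond L M H f hf hL hML hδ₁ hδ x

/-- a diamond fixes `t⁻¹` -/
theorem rtk6fxx_hΦt_inv {c : (ZMod M)ˣ}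
    {δ : ↥(rtk6diF A K₁ L M H) ≃ₐ[↥(mgcE A K₁)] ↥(rtk6diF A K₁ L M H)}
    (hδ : IsDiamondC ↥(mgcE A K₁) L M H c δ) :
    SemilinearAut.ofAlgAut δ • (rtk6diT A K₁ L M H)⁻¹ = (rtk6diT A K₁ L M H)⁻¹ :=
  at_smul_inv (rtk6em_hΦt hδ)

variable [IsDiscreteValuationRing ↥(mgcA A K₁')] [IsDiscreteValuationRing ↥(mgcA A K₁)]
  {ϖ₁ : ↥(mgcA A K₁')} {π : ↥(mgcA A K₁)}
  {κ : Type} (V : κ → ValuationSubring ↥(rtk6diF A K₁ L M H))

include hf in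
/-- **FIX-X for `g = σ̂`**, `σ` in the decomposition group of `A`. -/
theorem rtk6fxx_fixCongAt_gal (hL : L ≠ 0) (hML : M ∣ L) (hπ : Irreducible π)
    (hfam : Rtk6emFam A K₁ L M H π V)
    {u₁ : ↥(rtk6diF A K₁' L M H)} {u : ↥(rtk6diF A K₁ L M H)}
    (hu : u = rtk6diT A K₁ L M H ∨ u = (rtk6diT A K₁ L M H)⁻¹)
    (hD : ∃ j : ↥(zchClosure (A₀ := ↥(mgcA A K₁'))
          ({u₁} : Set ↥(rtk6diF A K₁' L M H))) →+*
        ↥(zchClosure (A₀ := ↥(mgcA A K₁)) ({u} : Set ↥(rtk6diF A K₁ L M H))),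
      (∀ b, ((j b : ↥(zchClosure (A₀ := ↥(mgcA A K₁))
        ({u} : Set ↥(rtk6diF A K₁ L M H)))) : ↥(rtk6diF A K₁ L M H)) =
          rtk6diCoeffHom L M H f (b : ↥(rtk6diF A K₁' L M H))) ∧
      MgcRamified j
        (algebraMap ↥(mgcA A K₁) ↥(zchClosure (A₀ := ↥(mgcA A K₁))
          ({u} : Set ↥(rtk6diF A K₁ L M H))) π)
        (algebraMap ↥(mgcA A K₁') ↥(zchClosure (A₀ := ↥(mgcA A K₁'))
          ({u₁} : Set ↥(rtk6diF A K₁' L M H))) ϖ₁))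
    {σ : Qb ≃ₐ[ℚ] Qb} (hσD : σ ∈ A.decompositionSubgroup ℚ)
    (hσ₁ : ∀ x ∈ mgcE A K₁', σ x ∈ mgcE A K₁') (hσ : ∀ x ∈ mgcE A K₁, σ x ∈ mgcE A K₁)
    (hthin : Rtk6fxxThin ϖ₁ (rtk6diGal L M H σ hσ₁) u₁) :
    Rtk6emFixAt A K₁ L M H π V (rtk6diGal L M H σ hσ) u ∧
      Rtk6emCongAt A K₁ L M H π V (rtk6diGal L M H σ hσ) u := by
  have hgu : rtk6diGal L M H σ hσ • u = u := by
    rcases hu with rfl | rfl
    · exact rtk6di_smul_T L M H σ hσ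
    · exact rtk6fxu_smul_T_inv L M H σ hσ
  exact rtk6fxx_fixCongAt V (rtk6diCoeffHom L M H f) hL hML hπ hfam hu hD
    (rtk6diGal L M H σ hσ₁) (rtk6diGal L M H σ hσ) (rtk6fxx_gal_compat f hf σ hσ₁ hσ) hgu
    (rtk6dv_hgA L M H hσD hσ) (rtk6dv_hgA_inv L M H hσD hσ) hthin

include hf in
/-- **FIX-X for `Φ = δ`**, a diamond. -/
theorem rtk6fxx_fixCongAt_diamond (hL : L ≠ 0) (hML : M ∣ L) (hπ : Irreducible π)
    (hfam : Rtk6emFam A K₁ L M H π V)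
    {u₁ : ↥(rtk6diF A K₁' L M H)} {u : ↥(rtk6diF A K₁ L M H)}
    (hu : u = rtk6diT A K₁ L M H ∨ u = (rtk6diT A K₁ L M H)⁻¹)
    (hD : ∃ j : ↥(zchClosure (A₀ := ↥(mgcA A K₁'))
          ({u₁} : Set ↥(rtk6diF A K₁' L M H))) →+*
        ↥(zchClosure (A₀ := ↥(mgcA A K₁)) ({u} : Set ↥(rtk6diF A K₁ L M H))),
      (∀ b, ((j b : ↥(zchClosure (A₀ := ↥(mgcA A K₁))
        ({u} : Set ↥(rtk6diF A K₁ L M H)))) : ↥(rtk6diF A K₁ L M H)) =
          rtk6diCoeffHom L M H f (b : ↥(rtk6diF A K₁' L M H))) ∧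
      MgcRamified j
        (algebraMap ↥(mgcA A K₁) ↥(zchClosure (A₀ := ↥(mgcA A K₁))
          ({u} : Set ↥(rtk6diF A K₁ L M H))) π)
        (algebraMap ↥(mgcA A K₁') ↥(zchClosure (A₀ := ↥(mgcA A K₁'))
          ({u₁} : Set ↥(rtk6diF A K₁' L M H))) ϖ₁))
    {c : (ZMod M)ˣ}
    {δ₁ : ↥(rtk6diF A K₁' L M H) ≃ₐ[↥(mgcE A K₁')] ↥(rtk6diF A K₁' L M H)}
    (hδ₁ : IsDiamondC ↥(mgcE A K₁') L M H c δ₁)
    {δ : ↥(rtk6diF A K₁ L M H) ≃ₐ[↥(mgcE A K₁)] ↥(rtk6diF A K₁ L M H)}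
    (hδ : IsDiamondC ↥(mgcE A K₁) L M H c δ)
    (hthin : Rtk6fxxThin ϖ₁ (SemilinearAut.ofAlgAut δ₁) u₁) :
    Rtk6emFixAt A K₁ L M H π V (SemilinearAut.ofAlgAut δ) u ∧
      Rtk6emCongAt A K₁ L M H π V (SemilinearAut.ofAlgAut δ) u := by
  have hgu : SemilinearAut.ofAlgAut δ • u = u := by
    rcases hu with rfl | rfl
    · exact rtk6em_hΦt hδ
    · exact rtk6fxx_hΦt_inv hδ
  exact rtk6fxx_fixCongAt V (rtk6diCoeffHom L M H f) hL hML hπ hfam hu hD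
    (SemilinearAut.ofAlgAut δ₁) (SemilinearAut.ofAlgAut δ)
    (rtk6fxx_diamond_compat f hf hL hML hδ₁ hδ) hgu
    (rtk6em_hΦA L M H δ) (rtk6em_hΦA' L M H δ) hthin

include hf in
/-- **FIX-X, the body of the provider `hFix`** of `rtk6ei_geomChi_of_pieces`
(`RT/K6/EInstGlue.lean`): `Rtk6emFixAt` for `σ̂` and `Rtk6emCongAt` for the diamond `δ`. -/
theorem rtk6fxx_provider (hL : L ≠ 0) (hML : M ∣ L) (hπ : Irreducible π)
    (hfam : Rtk6emFam A K₁ L M H π V)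
    {u₁ : ↥(rtk6diF A K₁' L M H)} {u : ↥(rtk6diF A K₁ L M H)}
    (hu : u = rtk6diT A K₁ L M H ∨ u = (rtk6diT A K₁ L M H)⁻¹)
    (hD : ∃ j : ↥(zchClosure (A₀ := ↥(mgcA A K₁'))
          ({u₁} : Set ↥(rtk6diF A K₁' L M H))) →+*
        ↥(zchClosure (A₀ := ↥(mgcA A K₁)) ({u} : Set ↥(rtk6diF A K₁ L M H))),
      (∀ b, ((j b : ↥(zchClosure (A₀ := ↥(mgcA A K₁))
        ({u} : Set ↥(rtk6diF A K₁ L M H)))) : ↥(rtk6diF A K₁ L M H)) =
          rtk6diCoeffHom L M H f (b : ↥(rtk6diF A K₁' L M H))) ∧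
      MgcRamified j
        (algebraMap ↥(mgcA A K₁) ↥(zchClosure (A₀ := ↥(mgcA A K₁))
          ({u} : Set ↥(rtk6diF A K₁ L M H))) π)
        (algebraMap ↥(mgcA A K₁') ↥(zchClosure (A₀ := ↥(mgcA A K₁'))
          ({u₁} : Set ↥(rtk6diF A K₁' L M H))) ϖ₁))
    {σ : Qb ≃ₐ[ℚ] Qb} (hσD : σ ∈ A.decompositionSubgroup ℚ)
    (hσ₁ : ∀ x ∈ mgcE A K₁', σ x ∈ mgcE A K₁') (hσ : ∀ x ∈ mgcE A K₁, σ x ∈ mgcE A K₁)
    (hthinσ : Rtk6fxxThin ϖ₁ (rtk6diGal L M H σ hσ₁) u₁)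
    {c : (ZMod M)ˣ}
    {δ₁ : ↥(rtk6diF A K₁' L M H) ≃ₐ[↥(mgcE A K₁')] ↥(rtk6diF A K₁' L M H)}
    (hδ₁ : IsDiamondC ↥(mgcE A K₁') L M H c δ₁)
    {δ : ↥(rtk6diF A K₁ L M H) ≃ₐ[↥(mgcE A K₁)] ↥(rtk6diF A K₁ L M H)}
    (hδ : IsDiamondC ↥(mgcE A K₁) L M H c δ)
    (hthinδ : Rtk6fxxThin ϖ₁ (SemilinearAut.ofAlgAut δ₁) u₁) :
    Rtk6emFixAt A K₁ L M H π V (rtk6diGal L M H σ hσ) u ∧
      Rtk6emCongAt A K₁ L M H π V (SemilinearAut.ofAlgAut δ) u :=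
  ⟨(rtk6fxx_fixCongAt_gal f hf V hL hML hπ hfam hu hD hσD hσ₁ hσ hthinσ).1,
    (rtk6fxx_fixCongAt_diamond f hf V hL hML hπ hfam hu hD hδ₁ hδ hthinδ).2⟩

end Inst

end Fermat.Agent.RT.K6

end
end ZBRT_091_7
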