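/- GENERATED FILE (helper35, build-time optimisation, NOTES/ZB.md): verbatim concatenation of the modules
   Fermat.Agent.RT.K6.W1Core
   Fermat.Agent.RT.K6.C4ChiInstB
   Do not edit; do not import together with these modules. -/
import Fermat.Agent.ZB.RT_072
import Fermat.Agent.ZB.RT_082
import Fermat.Agent.ZB.UNIP_038
import Fermat.Agent.ZB.UNIP_006
import Fermat.Agent.ZB.RT_066
import Fermat.Agent.ZB.RT_071
import Fermat.Agent.ZB.RT_069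

/-! ### bundled: `Fermat.Agent.RT.K6.W1Core` -/
section ZBRT_098_0
/-
K-machine, piece K6 / W1 CORE (helper80): an automorphism `σ` of `ℚ̄` fixing `E₀ = ℚ̄^{I_A}`
(`A` a valuation ring of `ℚ̄` over `r`) and a `d`-th root `ϖ` of `r` (`r ∤ d`) has its
cyclotomic image at `r` in `±H`, as soon as the `d`-th powers of the diamonds at `r` lie in `±H`.

* `rtk6w1b_abs`      : ABSTRACT — `z` a Laurent series over `ℚ̄` with a content, `σ z = ζ z`,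
                       `ζ^d = 1`, the content of `z^d` is a power of `r`, `σ ϖ = ϖ` ⇒ `ζ = 1`.
* `rtk6w1b_content`  : an element of `fieldBar L M H` fixed by `Gal(ℚ̄/E₀)` has a content which is
                       a power of `r` (`r` is a uniformizer of `A ∩ E₀`).
* `rtk6w1b_psi`      : `ψ (c(σ)) = 1` for every character `ψ` trivial on `±H`.
* `rtk6w1b_mem_pmH`  : **the core**, `c(σ) ∈ ±H`.
* `rtk6w1b_core`     : `Rtk6w1Core K₀ M r H` for `K₀ ⊇ E₀(ϖ)`;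
  `rtk6w1b_commK`    : `RtkCommK K₀ w` for `K₀ ⊇ E₀(ϖ)`  (= W1).
-/

set_option autoImplicit false
set_option linter.unusedSectionVars false
set_option linter.unusedVariables false
set_option linter.style.haveILetI false

noncomputable section

namespace Fermat.Agent.RT.K6

open ModularCurve AlgebraicCurve HahnSeries Fermat.Agent.ES Fermat.Agent.ES.G2 Fermat.Agent.INJ
open Fermat.Agent.UNIP Fermat.Agent.ES1 Fermat.Agent.ES1.G2 Fermat.Agent.S05 Fermat.Agent.S15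
open IntermediateField

section Abs

variable (A : ValuationSubring QbH)

/-- **abstract core**: `z` with content `c`, `σ z = ζ z` with `ζ ^ d = 1`, the content of `z ^ d`
is `r ^ n₀`, `σ` in the inertia group fixes a `d`-th root of `r`, `r ∤ d` ⇒ `ζ = 1`. -/
theorem rtk6w1b_abs {r d : ℕ} (hr : r.Prime) (hA : A.LiesOverPrime r) (hd : 0 < d)
    (hrd : ¬ r ∣ d) {ϖ : QbH} (hϖ : ϖ ^ d = ((r : ℕ) : QbH))
    {σ : QbH ≃ₐ[ℚ] QbH} (hσ : σ ∈ A.inertiaSubgroupIn ℚ) (hσϖ : σ ϖ = ϖ)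
    {z y₁ y₂ : LaurentSeries QbH} {c ζ : QbH} (hz : z ≠ 0) (hc : c ≠ 0)
    (h1 : KronPrim A y₁) (h2 : KronPrim A y₂) (h : z * y₂ = HahnSeries.C c * y₁)
    (hζd : ζ ^ d = 1)
    (hσz : coeffMap (σ : QbH →+* QbH) z = HahnSeries.C ζ * z)
    {n₀ : ℤ} {e₁ e₂ : LaurentSeries QbH}
    (he1 : KronPrim A e₁) (he2 : KronPrim A e₂)
    (hzd : z ^ d * e₂ = HahnSeries.C (((r : ℕ) : QbH) ^ n₀) * e₁) : ζ = 1 := by
  haveI : Algebra.IsAlgebraic ℚ QbH := isAlgebraic_rat_qbar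
  have hr0 : ((r : ℕ) : QbH) ≠ 0 := Nat.cast_ne_zero.2 hr.ne_zero
  have hϖ0 : ϖ ≠ 0 := by
    rintro rfl
    rw [zero_pow hd.ne'] at hϖ
    exact hr0 hϖ.symm
  have hz0 : ϖ ^ n₀ ≠ 0 := zpow_ne_zero _ hϖ0
  -- the valuation of the content
  have hA1 : z ^ d * y₂ ^ d = HahnSeries.C (c ^ d) * y₁ ^ d := by
    rw [← mul_pow, h, mul_pow, map_pow]
  have hval : A.valuation c ^ d = A.valuation ((r : ℕ) : QbH) ^ n₀ := by
    have := rtk6de_content_unique A (pow_ne_zero d hz) (pow_ne_zero d hc)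
      (zpow_ne_zero _ hr0) (h1.pow d) (h2.pow d) he1 he2 hA1 hzd
    rw [map_pow, map_zpow₀] at this
    exact this
  have hw0 : tameW A (Units.mk0 (ϖ ^ n₀) hz0) = tameW A (Units.mk0 c hc) := by
    have h2' : (tameW A (Units.mk0 (ϖ ^ n₀) hz0) * (tameW A (Units.mk0 c hc))⁻¹) ^ d = 1 := by
      rw [mul_pow, inv_pow, mul_inv_eq_one]
      apply Units.ext
      rw [Units.val_pow_eq_pow_val, tameW_val, Units.val_mk0, Units.val_pow_eq_pow_val, tameW_val,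
        Units.val_mk0, hval, ← hϖ, map_pow, map_zpow₀, ← zpow_natCast, ← zpow_mul,
        ← zpow_natCast (A.valuation ϖ) d, ← zpow_mul, mul_comm]
    exact mul_inv_eq_one.1 (tameW_torsionFree A _ d hd h2')
  have hw1 : tameW A (Units.mk0 c hc) = tameW A (Units.mk0 (ϖ ^ n₀) hz0) ^ (1 : ℤ) := by
    rw [zpow_one]
    exact hw0.symm
  have hTϖ : tameTr A σ (ϖ ^ n₀) := by
    rw [tameTr_iff A σ hz0, map_zpow₀, hσϖ, sub_self, map_zero]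
    exact zero_lt_iff.2 ((Valuation.ne_zero_iff _).2 hz0)
  have hTc : tameTr A σ c := by
    have h3 := tameTr_of_val_zpow A hσ (Units.mk0 c hc) (Units.mk0 (ϖ ^ n₀) hz0) 1 hw1
      (by rw [Units.val_mk0]; exact hTϖ)
    rwa [Units.val_mk0] at h3
  have hζA : ζ ∈ A := by
    rw [← A.valuation_le_one_iff, rtk6de_val_root A hd.ne' hζd]
  have hsym := rtk6de_symbol A hσ hc hζA h1 h2 h hσz
  by_contra hne
  apply rtk6de_root_unit_gen A hr hA hrd hζd hne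
  have e : ζ - 1 = (σ c / c - 1) - (σ c / c - ζ) := by ring
  rw [e, ValuationSubring.mem_nonunits_iff]
  have hT' : A.valuation (σ c / c - 1) < 1 := (ValuationSubring.mem_nonunits_iff A).1 hTc
  have hs' : A.valuation (σ c / c - ζ) < 1 := (ValuationSubring.mem_nonunits_iff A).1 hsym
  exact lt_of_le_of_lt (Valuation.map_sub _ _ _) (max_lt hT' hs')

end Abs

section Content

variable {L M : ℕ} {H : Subgroup (ZMod M)ˣ}

/-- the two compatibilities of the base `A ∩ E₀ → E₀ → ℚ̄` with `A` -/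
theorem rtk6w1b_c1 (A : ValuationSubring QbH) (K₀ : IntermediateField ℚ QbH)
    (a : ↥(beta0Ring A K₀)) :
    algebraMap ↥K₀ QbH (algebraMap ↥(beta0Ring A K₀) ↥K₀ a) ∈ A := a.2

theorem rtk6w1b_c2 (A : ValuationSubring QbH) (K₀ : IntermediateField ℚ QbH)
    (a : ↥(beta0Ring A K₀)) (h : IsLocalRing.residue ↥(beta0Ring A K₀) a ≠ 0) :
    algebraMap ↥K₀ QbH (algebraMap ↥(beta0Ring A K₀) ↥K₀ a) ∉ A.nonunits := fun h0 =>
  h ((IsLocalRing.residue_eq_zero_iff a).2 ((beta0Ring_mem_maximalIdeal_iff a).2 h0))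

/-- **the content of a series defined over `E₀` is a power of `r`**, abstract form: base
`A₀ → E` with `VtBase`, `φ : E → ℚ̄` compatible with `A`. -/
theorem rtk6w1b_content_abs {A₀ E k : Type*} [CommRing A₀] [Field E] [Field k]
    {ι : A₀ →+* E} {ρ : A₀ →+* k} {π : A₀} (hB : VtBase ι ρ π)
    (A : ValuationSubring QbH) (φ : E →+* QbH) (hφA : ∀ a : A₀, φ (ι a) ∈ A)
    (hφu : ∀ a : A₀, ρ a ≠ 0 → φ (ι a) ∉ A.nonunits)
    {x : LaurentSeries E} (hx : x ≠ 0) (hfrac : VtFrac ι x) :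
    ∃ (n₀ : ℤ) (e₁ e₂ : LaurentSeries QbH), KronPrim A e₁ ∧ KronPrim A e₂ ∧
      coeffMap φ x * e₂ = HahnSeries.C (φ (ι π) ^ n₀) * e₁ := by
  obtain ⟨n, u, hu, hxu | hxu⟩ := vt_exists_pow_mul hB hx hfrac
  · have hx' : x = HahnSeries.C ((ι π) ^ n) * u := by rw [hxu, map_pow]
    obtain ⟨e₁, e₂, he1, he2, he⟩ := rtk6de_content_of_pow_mul A φ hφA hφu ((ι π) ^ n) hu hx'
    refine ⟨(n : ℤ), e₁, e₂, he1, he2, ?_⟩
    rw [he, zpow_natCast, map_pow]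
  · have hx' : x = HahnSeries.C (((ι π) ^ n)⁻¹) * u⁻¹ := by
      rw [← inv_inv x, hxu, mul_inv, map_inv₀, map_pow]
    obtain ⟨e₁, e₂, he1, he2, he⟩ := rtk6de_content_of_pow_mul A φ hφA hφu (((ι π) ^ n)⁻¹)
      (hu.inv hB.inj) hx'
    refine ⟨-(n : ℤ), e₁, e₂, he1, he2, ?_⟩
    rw [he, zpow_neg, zpow_natCast, map_inv₀, map_pow]

/-- **the content of an element of `fieldBar L M H` fixed by `Gal(ℚ̄/E₀)` is a power of `r`** -/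
theorem rtk6w1b_content {r : ℕ} (hr : r.Prime) (A : ValuationSubring QbH)
    (hA : A.LiesOverPrime r) (g : fieldBar L M H) (hg : g ≠ 0)
    (hfix : ∀ σ : QbH ≃ₐ[ℚ] QbH, (∀ a ∈ beta0Field A, σ a = a) →
      arithmeticGalois (fieldQ L M H) σ • g = g) :
    ∃ (n₀ : ℤ) (e₁ e₂ : LaurentSeries QbH), KronPrim A e₁ ∧ KronPrim A e₂ ∧
      (g : LaurentSeries QbH) * e₂ = HahnSeries.C (((r : ℕ) : QbH) ^ n₀) * e₁ := by
  obtain ⟨g₀, hg₀⟩ := rtk6diw_exists_of_fixed (beta0Field A) L M H g hfix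
  haveI := beta0Ring_isDVR_base hr hA
  have hπ := beta0Ring_irreducible_q hr hA
  have hB := vtBase_residue (E := ↥(beta0Field A)) hπ
  have hg₀ne : (g₀ : LaurentSeries ↥(beta0Field A)) ≠ 0 := by
    intro h0
    apply hg
    rw [← hg₀]
    have : g₀ = 0 := Subtype.ext h0
    rw [this, map_zero]
  obtain ⟨n₀, e₁, e₂, he1, he2, he⟩ := rtk6w1b_content_abs hB A
    (algebraMap ↥(beta0Field A) QbH) (rtk6w1b_c1 A (beta0Field A))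
    (rtk6w1b_c2 A (beta0Field A)) hg₀ne (rtk6dv_frac hB L M H g₀.2)
  refine ⟨n₀, e₁, e₂, he1, he2, ?_⟩
  have e1 : (g : LaurentSeries QbH) =
      coeffMap (algebraMap ↥(beta0Field A) QbH) (g₀ : LaurentSeries ↥(beta0Field A)) := by
    rw [← hg₀]
    rfl
  rw [e1, he, map_natCast, map_natCast]

end Content

section Inst

variable {L M : ℕ} [NeZero M] {H : Subgroup (ZMod M)ˣ}

/-- **`ψ (c(σ)) = 1`** for every character `ψ` of `(ℤ/M)ˣ`, trivial on `±H`, whose `d`-th power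
is trivial on the diamonds at `r`, if `σ` fixes `E₀` and a `d`-th root of `r`. -/
theorem rtk6w1b_psi (hL : L ≠ 0) (hML : M ∣ L) {r d : ℕ} (hr : r.Prime) (hrM : r ∣ M)
    (hr2 : ¬ r ^ 2 ∣ M) (A : ValuationSubring QbH) (hA : A.LiesOverPrime r) (hd : ¬ r ∣ d)
    (ψ : (ZMod M)ˣ →* QbHˣ) (hψH : ∀ h ∈ H, ψ h = 1) (hψ1 : ψ (-1) = 1)
    (hψd : ∀ c : (ZMod M)ˣ, IsAtR M r c → ψ c ^ d = 1)
    {w : fieldBar L M H ≃ₐ[QbH] fieldBar L M H} (hw : IsWAt L M H r w)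
    {ϖ : QbH} (hϖ : ϖ ^ d = ((r : ℕ) : QbH))
    {σ : QbH ≃ₐ[ℚ] QbH} (hσE : ∀ a ∈ beta0Field A, σ a = a) (hσϖ : σ ϖ = ϖ)
    {c : (ZMod M)ˣ} (hcyc : IsCycAt M r σ c) : ψ c = 1 := by
  by_contra hne
  haveI : Algebra.IsAlgebraic ℚ QbH := isAlgebraic_rat_qbar
  have hM0 : M ≠ 0 := NeZero.ne M
  have hM3 : 3 ≤ M := rtk6de_three_le ψ hM0 hne
  have hd0 : 0 < d := by
    rcases Nat.eq_zero_or_pos d with h | h
    · exact absurd (h ▸ dvd_zero r) hd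
    · exact h
  have hψD : ∀ c ∈ rtk6deD M r hrM, ψ c ^ d = 1 := fun c hc =>
    hψd c ((rtk6de_mem_D hrM c).1 hc)
  have hy : rtk6deY (rtk6deD M r hrM) ψ H hML ≠ 0 :=
    rtk6deY_ne_zero (rtk6deD M r hrM) ψ hM3 hψH hψ1 hML
  have hwy : w (rtk6deY (rtk6deD M r hrM) ψ H hML) ≠ 0 :=
    fun h0 => hy ((map_eq_zero_iff w w.injective).1 h0)
  have hz : ((w (rtk6deY (rtk6deD M r hrM) ψ H hML) : fieldBar L M H) : LaurentSeries QbH)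
      ≠ 0 := fun h0 => hwy (Subtype.ext h0)
  have hσI : σ ∈ A.inertiaSubgroupIn ℚ := beta0_mem_inertia_of_fixes hr hA σ hσE
  have heig : ∀ σ' : QbH ≃ₐ[ℚ] QbH, σ' ∈ A.inertiaSubgroupIn ℚ → ∀ c' : (ZMod M)ˣ,
      IsCycAt M r σ' c' →
      coeffMap (σ' : QbH →+* QbH)
        ((w (rtk6deY (rtk6deD M r hrM) ψ H hML) : fieldBar L M H) : LaurentSeries QbH) =
      HahnSeries.C ((ψ c' : QbHˣ) : QbH) *
        ((w (rtk6deY (rtk6deD M r hrM) ψ H hML) : fieldBar L M H) : LaurentSeries QbH) :=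
    fun σ' hσ' c' hc' => rtk6de_eigen (rtk6deD M r hrM) ψ hL hML hr A hA hd hψD hw hσ'
      ((rtk6de_mem_D hrM c').2 hc'.2) hc'
  have hζ : ∀ c' : (ZMod M)ˣ, IsAtR M r c' → ((ψ c' : QbHˣ) : QbH) ^ d = 1 := fun c' hc' => by
    rw [← Units.val_pow_eq_pow_val, hψd c' hc', Units.val_one]
  -- `(w y)^d` is fixed by `Gal(ℚ̄/E₀)`
  have hfix : ∀ σ' : QbH ≃ₐ[ℚ] QbH, (∀ a ∈ beta0Field A, σ' a = a) →
      arithmeticGalois (fieldQ L M H) σ' • (w (rtk6deY (rtk6deD M r hrM) ψ H hML)) ^ d =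
        (w (rtk6deY (rtk6deD M r hrM) ψ H hML)) ^ d := by
    intro σ' hσ'
    have hσ'I : σ' ∈ A.inertiaSubgroupIn ℚ := beta0_mem_inertia_of_fixes hr hA σ' hσ'
    obtain ⟨c', hc'⟩ := rtk6de0_isCycAt hr hrM hr2 A hA hσ'I
    apply Subtype.ext
    rw [coe_arithmeticGalois_smul]
    show coeffMap (σ' : QbH →+* QbH)
        (((w (rtk6deY (rtk6deD M r hrM) ψ H hML) : fieldBar L M H) : LaurentSeries QbH) ^ d) =
      ((w (rtk6deY (rtk6deD M r hrM) ψ H hML) : fieldBar L M H) : LaurentSeries QbH) ^ d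
    rw [map_pow, heig σ' hσ'I c' hc', mul_pow, ← map_pow, hζ c' hc'.2, map_one, one_mul]
  obtain ⟨n₀, e₁, e₂, he1, he2, he⟩ := rtk6w1b_content hr A hA
    ((w (rtk6deY (rtk6deD M r hrM) ψ H hML)) ^ d) (pow_ne_zero d hwy) hfix
  have he' : ((w (rtk6deY (rtk6deD M r hrM) ψ H hML) : fieldBar L M H) : LaurentSeries QbH) ^ d
      * e₂ = HahnSeries.C (((r : ℕ) : QbH) ^ n₀) * e₁ := he
  obtain ⟨c₁, y₁, y₂, hc₁, -, -, h1, h2, h⟩ := stmtPrimH L M H A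
    (w (rtk6deY (rtk6deD M r hrM) ψ H hML)) hwy
  have h1' := rtk6w1b_abs A hr hA hd0 hd hϖ hσI hσϖ hz hc₁ h1 h2 h (hζ c hcyc.2)
    (heig σ hσI c hcyc) he1 he2 he'
  exact hne (Units.ext h1')

/-- **THE CORE of W1**: if `σ` fixes `E₀ = ℚ̄^{I_A}` and a `d`-th root `ϖ` of `r` (`r ∤ d`), and the
`d`-th powers of the diamonds at `r` lie in `±H`, then the cyclotomic image of `σ` at `r` lies in
`±H`. -/
theorem rtk6w1b_mem_pmH (hL : L ≠ 0) (hML : M ∣ L) {r d : ℕ} (hr : r.Prime) (hrM : r ∣ M)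
    (hr2 : ¬ r ^ 2 ∣ M) (A : ValuationSubring QbH) (hA : A.LiesOverPrime r) (hd : ¬ r ∣ d)
    (htame : ∀ c : (ZMod M)ˣ, IsAtR M r c → c ^ d ∈ pmH H)
    {w : fieldBar L M H ≃ₐ[QbH] fieldBar L M H} (hw : IsWAt L M H r w)
    {ϖ : QbH} (hϖ : ϖ ^ d = ((r : ℕ) : QbH))
    {σ : QbH ≃ₐ[ℚ] QbH} (hσE : ∀ a ∈ beta0Field A, σ a = a) (hσϖ : σ ϖ = ϖ)
    {c : (ZMod M)ˣ} (hcyc : IsCycAt M r σ c) : c ∈ pmH H := by
  by_contra hc
  have hne : (QuotientGroup.mk c : (ZMod M)ˣ ⧸ pmH H) ≠ 1 := by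
    rwa [Ne, QuotientGroup.eq_one_iff]
  haveI : NeZero ((Monoid.exponent ((ZMod M)ˣ ⧸ pmH H) : ℕ) : QbH) :=
    ⟨Nat.cast_ne_zero.mpr (Monoid.exponent_ne_zero_of_finite (G := (ZMod M)ˣ ⧸ pmH H))⟩
  obtain ⟨φ, hφ⟩ := CommGroup.exists_apply_ne_one_of_hasEnoughRootsOfUnity
    ((ZMod M)ˣ ⧸ pmH H) QbH hne
  have hψ : ∀ x ∈ pmH H, (φ.comp (QuotientGroup.mk' (pmH H))) x = 1 := fun x hx => by
    show φ (QuotientGroup.mk x) = 1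
    rw [(QuotientGroup.eq_one_iff x).2 hx, map_one]
  apply hφ
  exact rtk6w1b_psi hL hML hr hrM hr2 A hA hd (φ.comp (QuotientGroup.mk' (pmH H)))
    (fun h hh => hψ h (le_pmH H hh)) (hψ _ (neg_one_mem_pmH H))
    (fun c' hc' => by rw [← map_pow]; exact hψ _ (htame c' hc')) hw hϖ hσE hσϖ hcyc

/-- **`Rtk6w1Core K₀ M r H`** for `K₀ ⊇ E₀(ϖ)`, `ϖ ^ d = r`, `r ∤ d`, `r ∥ M`. -/
theorem rtk6w1b_core (hL : L ≠ 0) (hML : M ∣ L) {r d : ℕ} (hr : r.Prime) (hrM : r ∣ M)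
    (hr2 : ¬ r ^ 2 ∣ M) (A : ValuationSubring QbH) (hA : A.LiesOverPrime r) (hd : ¬ r ∣ d)
    (htame : ∀ c : (ZMod M)ˣ, IsAtR M r c → c ^ d ∈ pmH H)
    {w : fieldBar L M H ≃ₐ[QbH] fieldBar L M H} (hw : IsWAt L M H r w)
    {ϖ : QbH} (hϖ : ϖ ^ d = ((r : ℕ) : QbH))
    {K₀ : IntermediateField ℚ QbH} (hE : beta0Field A ≤ K₀) (hϖK : ϖ ∈ K₀) :
    Rtk6w1Core K₀ M r H :=
  fun σ hσ c hcyc => rtk6w1b_mem_pmH hL hML hr hrM hr2 A hA hd htame hw hϖ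
    (fun a ha => hσ a (hE ha)) (hσ ϖ hϖK) hcyc

/-- **W1**: `w` commutes with `Gal(ℚ̄/K₀)` for `K₀ ⊇ E₀(ϖ)`, `ϖ ^ d = r`, `r ∤ d`, `r ∥ M`, if the
`d`-th powers of the diamonds at `r` lie in `±H`. -/
theorem rtk6w1b_commK (hL : L ≠ 0) (hML : M ∣ L) {r d : ℕ} (hr : r.Prime) (hrM : r ∣ M)
    (hr2 : ¬ r ^ 2 ∣ M) (A : ValuationSubring QbH) (hA : A.LiesOverPrime r) (hd : ¬ r ∣ d)
    (htame : ∀ c : (ZMod M)ˣ, IsAtR M r c → c ^ d ∈ pmH H)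
    {w : fieldBar L M H ≃ₐ[QbH] fieldBar L M H} (hw : IsWAt L M H r w)
    {ϖ : QbH} (hϖ : ϖ ^ d = ((r : ℕ) : QbH))
    {K₀ : IntermediateField ℚ QbH} (hE : beta0Field A ≤ K₀) (hϖK : ϖ ∈ K₀) :
    RtkCommK K₀ w :=
  rtk6w1_commK_of_core hw (NeZero.ne M) hr hrM hr2 A hA hE
    (rtk6w1b_core hL hML hr hrM hr2 A hA hd htame hw hϖ hE hϖK)

end Inst

end Fermat.Agent.RT.K6

end


end ZBRT_098_0

/-! ### bundled: `Fermat.Agent.RT.K6.C4ChiInstB` -/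
section ZBRT_098_1
/-
K-machine, piece K6, piece **C4-χ-inst (B)** (helper76): the provider **`hNode`** of
`rtk6ei_geomChi_of_pieces` (`RT/K6/EInstGlue.lean`), i.e. `Rtk6emNode` at every sufficiently large
level `K₁`, from the dichotomy at ONE thin level `K₁′` (C4-χ-ASM, helper94), by the generic top half
`rtk6c4b_node` (helper81, `RT/K6/C4InstBNode.lean`).

All the other inputs of `rtk6c4b_node` are discharged here:
* (E-BASE) `q′ := rtk6ebQ h ϖ₁`, `q′ ≠ 0`, `π ∣ q′` (helper66);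
* (FAM-res) (R2) `rtk6frf_hR2_E` (helper82);
* (D-BC) `rtk6dbc_chart_t_of_ss1`, `rtk6dbc_chart_tinv_of_ss1` (helper56), from `Rtk6emFam`
  (`rtk6m1_emFam`, helper82) and `Rtk6emSS1` at the thin level ((SS1-inst) generic in `(K₁, w)`,
  `StmtRtk6SS1Gen`, `RT/K6/EInstU.lean`);
* (W1) `rtk6w1_wIncl`, `rtk6w1_commK_mono`, `rtk6w1b_commK` (helper96, helper80).

* `rtk6cxb_node_E`   : `Rtk6emNode` at `K₁` for `w = rtk6diwEquiv w₀ hc₂`, from `Rtk6emFam`,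
                       `Rtk6emSS1` and the dichotomy on the two charts at `K₁′ ≤ K₁`;
* `rtk6cxb_node`     : the same for `w = rtk6diwW w₀ …` (the family of the glue), `Rtk6emFam` and
                       `Rtk6emSS1` discharged;
* `Rtk6cxbThin`      : **the open input**: a thin level `K₁′` (Galois number field, `A ∩ E₁` a
                       DVR), a uniformizer `ϖ₁`, `hc₁ : RtkCommK E₁ w₀`, and the dichotomy
                       `Rtk6ewmNodeAt V₁ 𝔫₁ id ϖ₁` at every closed point of the two charts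
                       `t₁`, `t₁⁻¹` of `F₁` (`V₁ = rtk6dfV hϖ₁ M H (rtk6diwEquiv w₀ hc₁)`);
* `rtk6cxb_ev`       : `Rtk6cxbThin → Rtk6eiEv q A (Rtk6emNode …)`  (`K₀ := K₁′`);
* `rtk6cxb_hNode`    : **the provider `hNode` of `rtk6ei_geomChi_of_pieces`**;
* `rtk6cxb_commK`    : `RtkCommK (mgcE A (rtk6ebK q d)) w₀` at the thin level of the case (χ)
                       (`d`-th powers of the diamonds at `q` in `±H`, `q ∤ d`);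
* `rtk6cxb_tame_exists` : an exponent `d ≠ 0`, `q ∤ d`, with `c ^ d ∈ ±H` for all `c`, from
                       `IsTameAt`;
* `rtk6cxb_thin_chi` : `Rtk6cxbThin` from the dichotomy at `K₁′ = rtk6ebK q d`,
                       `ϖ₁ = rtk6ebVarpi …`.
-/

set_option autoImplicit false
set_option linter.style.haveILetI false
set_option linter.unusedSectionVars false
set_option linter.unusedVariables false
set_option linter.style.longLine false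

noncomputable section

namespace Fermat.Agent.RT.K6

open ModularCurve AlgebraicCurve Fermat.Agent.ES Fermat.Agent.ES.G2 Fermat.Agent.INJ
open Fermat.Agent.UNIP Fermat.Agent.STB Fermat.Agent.ES1 Fermat.Agent.ES1.G2 IntermediateField

/-! ### `Rtk6emNode` at `K₁` from the thin level -/

section Node

variable {A : ValuationSubring Qb} {K₁' K₁ : IntermediateField ℚ Qb}
  [NumberField ↥K₁'] [IsGalois ℚ ↥K₁'] [NumberField ↥K₁] [IsGalois ℚ ↥K₁]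
  [IsDiscreteValuationRing ↥(mgcA A K₁')] [IsDiscreteValuationRing ↥(mgcA A K₁)]
  {q M₁ : ℕ} [NeZero q] [NeZero M₁] [NeZero (M₁ * q)] {M : ℕ} {H : Subgroup (ZMod M)ˣ}

/-- **`Rtk6emNode` at `K₁`** for the family of `w = rtk6diwEquiv w₀ hc₂`, from `Rtk6emFam`,
`Rtk6emSS1` and the dichotomy on the two charts at a lower level `K₁′ ≤ K₁`
(`w₁ = rtk6diwEquiv w₀ hc₁`). -/
theorem rtk6cxb_node_E (hq : q.Prime) (hA : A.LiesOverPrime q) (h : K₁' ≤ K₁)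
    (hML : M ∣ M₁ * q)
    (w₀ : fieldBar (M₁ * q) M H ≃ₐ[Qb] fieldBar (M₁ * q) M H)
    (hc₁ : RtkCommK (mgcE A K₁') w₀) (hc₂ : RtkCommK (mgcE A K₁) w₀)
    {ϖ₁ : ↥(mgcA A K₁')} (hϖ₁ : Irreducible ϖ₁) {π : ↥(mgcA A K₁)} (hπ : Irreducible π)
    (fam : Rtk6emFam A K₁' (M₁ * q) M H ϖ₁
      (rtk6dfV hϖ₁ M H (rtk6diwEquiv (K₀ := mgcE A K₁') w₀ hc₁)))
    (ss1 : Rtk6emSS1 A K₁' (M₁ * q) M H ϖ₁
      (rtk6dfV hϖ₁ M H (rtk6diwEquiv (K₀ := mgcE A K₁') w₀ hc₁)))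
    (hA₁ : ∀ 𝔫₁ : AtPt (F := ↥(rtk6diF A K₁' (M₁ * q) M H)) ϖ₁ (rtk6diT A K₁' (M₁ * q) M H),
      Rtk6ewmNodeAt (rtk6dfV hϖ₁ M H (rtk6diwEquiv (K₀ := mgcE A K₁') w₀ hc₁)) 𝔫₁
        (RingHom.id _)
        (algebraMap ↥(mgcA A K₁') ↥(zchClosure (A₀ := ↥(mgcA A K₁'))
          ({rtk6diT A K₁' (M₁ * q) M H} : Set ↥(rtk6diF A K₁' (M₁ * q) M H))) ϖ₁))
    (hA₂ : ∀ 𝔫₁ : AtPt (F := ↥(rtk6diF A K₁' (M₁ * q) M H)) ϖ₁
        (rtk6diT A K₁' (M₁ * q) M H)⁻¹,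
      Rtk6ewmNodeAt (rtk6dfV hϖ₁ M H (rtk6diwEquiv (K₀ := mgcE A K₁') w₀ hc₁)) 𝔫₁
        (RingHom.id _)
        (algebraMap ↥(mgcA A K₁') ↥(zchClosure (A₀ := ↥(mgcA A K₁'))
          ({(rtk6diT A K₁' (M₁ * q) M H)⁻¹} : Set ↥(rtk6diF A K₁' (M₁ * q) M H))) ϖ₁)) :
    Rtk6emNode A K₁ (M₁ * q) M H π
      (rtk6dfV hπ M H (rtk6diwEquiv (K₀ := mgcE A K₁) w₀ hc₂)) :=
  rtk6c4b_node hϖ₁ hπ M H (rtk6diwEquiv (K₀ := mgcE A K₁') w₀ hc₁)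
    (rtk6diwEquiv (K₀ := mgcE A K₁) w₀ hc₂) (rtk6dbcIncl (A := A) (M₁ * q) M H h)
    (rtk6ebQ_ne_zero h hϖ₁.ne_zero) (rtk6ebQ_dvd_of_irreducible h hπ hϖ₁)
    (rtk6frf_hR2_E hϖ₁ hπ w₀
      (IntermediateField.inclusion (rtk6eb_mgcE_mono (A := A) h)).toRingHom (fun _ => rfl)
      hc₁ hc₂ hML)
    (rtk6dbc_chart_t_of_ss1 (M₁ * q) M H hq hA h (NeZero.ne (M₁ * q)) hML hϖ₁ hπ fam ss1)
    (rtk6dbc_chart_tinv_of_ss1 (M₁ * q) M H hq hA h (NeZero.ne (M₁ * q)) hML hϖ₁ hπ fam ss1)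
    hA₁ hA₂

/-- **`Rtk6emNode` at `K₁`** for the family of the glue (`w = rtk6diwW w₀ …`), from the generic
(SS1-inst) and the dichotomy on the two charts at a lower level `K₁′ ≤ K₁`. -/
theorem rtk6cxb_node (hS : StmtRtk6SS1Gen) (hq : q.Prime) (hqM' : q ∣ M) (hM0 : M ≠ 0)
    (hqM : ¬ q ∣ M₁) (hML : M ∣ M₁ * q) (htame : IsTameAt (M₁ * q) M q H) (h4 : 4 ∣ M₁ * q)
    (w₀ : fieldBar (M₁ * q) M H ≃ₐ[Qb] fieldBar (M₁ * q) M H)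
    (hw₀ : IsWAt (M₁ * q) M H q w₀) (hA : A.LiesOverPrime q) (h : K₁' ≤ K₁)
    (hc₁ : RtkCommK (mgcE A K₁') w₀)
    {ϖ₁ : ↥(mgcA A K₁')} (hϖ₁ : Irreducible ϖ₁)
    (hA₁ : ∀ 𝔫₁ : AtPt (F := ↥(rtk6diF A K₁' (M₁ * q) M H)) ϖ₁ (rtk6diT A K₁' (M₁ * q) M H),
      Rtk6ewmNodeAt (rtk6dfV hϖ₁ M H (rtk6diwEquiv (K₀ := mgcE A K₁') w₀ hc₁)) 𝔫₁
        (RingHom.id _)
        (algebraMap ↥(mgcA A K₁') ↥(zchClosure (A₀ := ↥(mgcA A K₁'))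
          ({rtk6diT A K₁' (M₁ * q) M H} : Set ↥(rtk6diF A K₁' (M₁ * q) M H))) ϖ₁))
    (hA₂ : ∀ 𝔫₁ : AtPt (F := ↥(rtk6diF A K₁' (M₁ * q) M H)) ϖ₁
        (rtk6diT A K₁' (M₁ * q) M H)⁻¹,
      Rtk6ewmNodeAt (rtk6dfV hϖ₁ M H (rtk6diwEquiv (K₀ := mgcE A K₁') w₀ hc₁)) 𝔫₁
        (RingHom.id _)
        (algebraMap ↥(mgcA A K₁') ↥(zchClosure (A₀ := ↥(mgcA A K₁'))
          ({(rtk6diT A K₁' (M₁ * q) M H)⁻¹} : Set ↥(rtk6diF A K₁' (M₁ * q) M H))) ϖ₁))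
    (hζ : ∀ ζ : Qb, ζ ^ q = 1 → ζ ∈ mgcE A K₁) {π : ↥(mgcA A K₁)} (hπ : Irreducible π) :
    Rtk6emNode A K₁ (M₁ * q) M H π
      (rtk6dfV hπ M H (rtk6diwW (K₀ := mgcE A K₁) w₀ hw₀ hM0 hq hqM' hζ)) := by
  have hwI := rtk6w1_wIncl w₀ hw₀ hc₁ hq (mgdIota (mgcE A K₁')) hqM
  have fam := rtk6m1_emFam hϖ₁ (mgdIota (mgcE A K₁')) hq hqM hwI hA hML
  have ss1 := hS q M₁ M H hq hqM hML htame h4 A hA K₁' hϖ₁ (mgdIota (mgcE A K₁')) _ hwI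
  have hc₂ : RtkCommK (mgcE A K₁) w₀ :=
    rtk6w1_commK_mono (rtk6eb_mgcE_mono (A := A) h) hc₁
  exact rtk6cxb_node_E hq hA h hML w₀ hc₁ hc₂ hϖ₁ hπ fam ss1 hA₁ hA₂

end Node

/-! ### The open input and the provider -/

section Ev

variable {q M₁ : ℕ} [NeZero q] [NeZero M₁] [NeZero (M₁ * q)] {M : ℕ} {H : Subgroup (ZMod M)ˣ}

/-- **The open input (C4-χ-ASM at ONE thin level)**: a Galois number field `K₁′` with
`A₁ = A ∩ E₁` a discrete valuation ring, a uniformizer `ϖ₁` of `A₁`, the commutation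
`hc₁ : RtkCommK E₁ w₀` (W1), and the dichotomy "smooth point or thin crossing point of two
components of `V₁ = rtk6dfV hϖ₁ M H (rtk6diwEquiv w₀ hc₁)`" at every closed point of the special
fibre of the two charts `zchClosure {t₁}`, `zchClosure {t₁⁻¹}` of `F₁` over `A₁`. -/
def Rtk6cxbThin (A : ValuationSubring Qb)
    (w₀ : fieldBar (M₁ * q) M H ≃ₐ[Qb] fieldBar (M₁ * q) M H) : Prop :=
  ∃ (K₁' : IntermediateField ℚ Qb) (_ : NumberField ↥K₁') (_ : IsGalois ℚ ↥K₁')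
    (_ : IsDiscreteValuationRing ↥(mgcA A K₁')) (ϖ₁ : ↥(mgcA A K₁')) (hϖ₁ : Irreducible ϖ₁)
    (hc₁ : RtkCommK (mgcE A K₁') w₀),
    (∀ 𝔫₁ : AtPt (F := ↥(rtk6diF A K₁' (M₁ * q) M H)) ϖ₁ (rtk6diT A K₁' (M₁ * q) M H),
      Rtk6ewmNodeAt (rtk6dfV hϖ₁ M H (rtk6diwEquiv (K₀ := mgcE A K₁') w₀ hc₁)) 𝔫₁
        (RingHom.id _)
        (algebraMap ↥(mgcA A K₁') ↥(zchClosure (A₀ := ↥(mgcA A K₁'))
          ({rtk6diT A K₁' (M₁ * q) M H} : Set ↥(rtk6diF A K₁' (M₁ * q) M H))) ϖ₁)) ∧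
    (∀ 𝔫₁ : AtPt (F := ↥(rtk6diF A K₁' (M₁ * q) M H)) ϖ₁
        (rtk6diT A K₁' (M₁ * q) M H)⁻¹,
      Rtk6ewmNodeAt (rtk6dfV hϖ₁ M H (rtk6diwEquiv (K₀ := mgcE A K₁') w₀ hc₁)) 𝔫₁
        (RingHom.id _)
        (algebraMap ↥(mgcA A K₁') ↥(zchClosure (A₀ := ↥(mgcA A K₁'))
          ({(rtk6diT A K₁' (M₁ * q) M H)⁻¹} : Set ↥(rtk6diF A K₁' (M₁ * q) M H))) ϖ₁))

/-- **`Rtk6emNode` at all sufficiently large `K₁`** (`K₀ := K₁′`) from the open input. -/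
theorem rtk6cxb_ev (hS : StmtRtk6SS1Gen) (hq : q.Prime) (hqM' : q ∣ M) (hM0 : M ≠ 0)
    (hqM : ¬ q ∣ M₁) (hML : M ∣ M₁ * q) (htame : IsTameAt (M₁ * q) M q H) (h4 : 4 ∣ M₁ * q)
    (w₀ : fieldBar (M₁ * q) M H ≃ₐ[Qb] fieldBar (M₁ * q) M H)
    (hw₀ : IsWAt (M₁ * q) M H q w₀) {A : ValuationSubring Qb} (hA : A.LiesOverPrime q)
    (hT : Rtk6cxbThin A w₀) :
    Rtk6eiEv q A (fun K₁ _ hζ π hπ => Rtk6emNode A K₁ (M₁ * q) M H π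
      (rtk6dfV hπ M H (rtk6diwW (K₀ := mgcE A K₁) w₀ hw₀ hM0 hq hqM' hζ))) := by
  obtain ⟨K₁', hNF, hGal, hDVR, ϖ₁, hϖ₁, hc₁, hA₁, hA₂⟩ := hT
  haveI := hNF
  haveI := hGal
  haveI := hDVR
  refine ⟨K₁', inferInstance, fun K₁ _ _ _ hK hζ π hπ => ?_⟩
  exact rtk6cxb_node hS hq hqM' hM0 hqM hML htame h4 w₀ hw₀ hA hK hc₁ hϖ₁ hA₁ hA₂ hζ hπ

end Ev

/-- **The provider `hNode` of `rtk6ei_geomChi_of_pieces`** from the generic (SS1-inst) and the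
dichotomy at ONE thin level per level datum (C4-χ-ASM). -/
theorem rtk6cxb_hNode (hS : StmtRtk6SS1Gen)
    (hThin : ∀ (q M₁ : ℕ) [NeZero q] [NeZero M₁] [NeZero (M₁ * q)] (M : ℕ)
      (H : Subgroup (ZMod M)ˣ) (hq : q.Prime) (hqM' : q ∣ M) (hM0 : M ≠ 0), ¬ q ∣ M₁ →
      M ∣ M₁ * q → IsStarStable M q H → IsTameAt (M₁ * q) M q H → 4 ∣ M₁ * q →
      ∀ (w₀ : fieldBar (M₁ * q) M H ≃ₐ[Qb] fieldBar (M₁ * q) M H)
        (hw₀ : IsWAt (M₁ * q) M H q w₀) (A : ValuationSubring Qb), A.LiesOverPrime q →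
        Rtk6cxbThin A w₀) :
    ∀ (q M₁ : ℕ) [NeZero q] [NeZero M₁] [NeZero (M₁ * q)] (M : ℕ)
      (H : Subgroup (ZMod M)ˣ) (hq : q.Prime) (hqM' : q ∣ M) (hM0 : M ≠ 0), ¬ q ∣ M₁ →
      M ∣ M₁ * q → IsStarStable M q H → IsTameAt (M₁ * q) M q H → 4 ∣ M₁ * q →
      ∀ (w₀ : fieldBar (M₁ * q) M H ≃ₐ[Qb] fieldBar (M₁ * q) M H)
        (hw₀ : IsWAt (M₁ * q) M H q w₀) (A : ValuationSubring Qb), A.LiesOverPrime q →
        Rtk6eiEv q A (fun K₁ _ hζ π hπ => Rtk6emNode A K₁ (M₁ * q) M H π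
          (rtk6dfV hπ M H (rtk6diwW (K₀ := mgcE A K₁) w₀ hw₀ hM0 hq hqM' hζ))) := by
  intro q M₁ _ _ _ M H hq hqM' hM0 hqM hML hstar htame h4 w₀ hw₀ A hA
  exact rtk6cxb_ev hS hq hqM' hM0 hqM hML htame h4 w₀ hw₀ hA
    (hThin q M₁ M H hq hqM' hM0 hqM hML hstar htame h4 w₀ hw₀ A hA)

/-! ### The thin level of the case (χ): `K₁′ = rtk6ebK q d` -/

section Chi

variable {q M₁ : ℕ} [NeZero q] [NeZero M₁] [NeZero (M₁ * q)] {M : ℕ} {H : Subgroup (ZMod M)ˣ}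

/-- an exponent `d ≠ 0`, `q ∤ d`, killing `(ℤ/M)ˣ / ±H`, from `IsTameAt` -/
theorem rtk6cxb_tame_exists (hq : q.Prime) (htame : IsTameAt (M₁ * q) M q H) :
    ∃ d : ℕ, d ≠ 0 ∧ ¬ q ∣ d ∧ ∀ c : (ZMod M)ˣ, c ^ d ∈ pmH H := by
  obtain ⟨d, hd, hc⟩ := htame
  have hdq : ¬ q ∣ d := by
    intro hqd
    have h1 : q ∣ Nat.gcd d (6 * (M₁ * q)) :=
      Nat.dvd_gcd hqd (Dvd.intro_left (6 * M₁) (by ring))
    rw [Nat.Coprime] at hd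
    rw [hd] at h1
    exact hq.one_lt.ne' (Nat.dvd_one.mp h1)
  exact ⟨d, fun h0 => hdq (h0 ▸ dvd_zero q), hdq, hc⟩

/-- **W1 at the thin level `K₁′ = rtk6ebK q d`** of the case (χ). -/
theorem rtk6cxb_commK (hq : q.Prime) (hqM' : q ∣ M) (hM0 : M ≠ 0) (hqM : ¬ q ∣ M₁)
    (hML : M ∣ M₁ * q) {w₀ : fieldBar (M₁ * q) M H ≃ₐ[Qb] fieldBar (M₁ * q) M H}
    (hw₀ : IsWAt (M₁ * q) M H q w₀) (A : ValuationSubring Qb) (hA : A.LiesOverPrime q)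
    {d : ℕ} (hd0 : d ≠ 0) (hdq : ¬ q ∣ d)
    (hd : ∀ c : (ZMod M)ˣ, IsAtR M q c → c ^ d ∈ pmH H) :
    RtkCommK (mgcE A (rtk6ebK q d)) w₀ := by
  haveI : NeZero M := ⟨hM0⟩
  obtain ⟨ϖ, hϖ⟩ := IsAlgClosed.exists_pow_nat_eq ((q : ℕ) : Qb) (Nat.pos_of_ne_zero hd0)
  exact rtk6w1b_commK (NeZero.ne (M₁ * q)) hML hq hqM' (rtk6eiu_not_sq_dvd hq hqM hML) A hA hdq
    hd hw₀ hϖ le_sup_left (rtk6eb_varpi_mem_E hd0 hϖ)

/-- **`Rtk6cxbThin` from the dichotomy at `K₁′ = rtk6ebK q d`**, `ϖ₁` ANY uniformizer of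
`A₁ = mgcA A (rtk6ebK q d)` (e.g. `rtk6ebVarpi hA hd0 hϖ`, `ϖ ^ d = q`), `hc₁` ANY proof of the
commutation (e.g. `rtk6cxb_commK`). -/
theorem rtk6cxb_thin_chi (hq : q.Prime) {A : ValuationSubring Qb} (hA : A.LiesOverPrime q)
    {w₀ : fieldBar (M₁ * q) M H ≃ₐ[Qb] fieldBar (M₁ * q) M H} (d : ℕ)
    [IsDiscreteValuationRing ↥(mgcA A (rtk6ebK q d))]
    {ϖ₁ : ↥(mgcA A (rtk6ebK q d))} (hϖ₁ : Irreducible ϖ₁)
    (hc₁ : RtkCommK (mgcE A (rtk6ebK q d)) w₀)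
    (hA₁ : ∀ 𝔫₁ : AtPt (F := ↥(rtk6diF A (rtk6ebK q d) (M₁ * q) M H)) ϖ₁
        (rtk6diT A (rtk6ebK q d) (M₁ * q) M H),
      Rtk6ewmNodeAt (rtk6dfV hϖ₁ M H (rtk6diwEquiv (K₀ := mgcE A (rtk6ebK q d)) w₀ hc₁)) 𝔫₁
        (RingHom.id _)
        (algebraMap ↥(mgcA A (rtk6ebK q d)) ↥(zchClosure (A₀ := ↥(mgcA A (rtk6ebK q d)))
          ({rtk6diT A (rtk6ebK q d) (M₁ * q) M H} :
            Set ↥(rtk6diF A (rtk6ebK q d) (M₁ * q) M H))) ϖ₁))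
    (hA₂ : ∀ 𝔫₁ : AtPt (F := ↥(rtk6diF A (rtk6ebK q d) (M₁ * q) M H)) ϖ₁
        (rtk6diT A (rtk6ebK q d) (M₁ * q) M H)⁻¹,
      Rtk6ewmNodeAt (rtk6dfV hϖ₁ M H (rtk6diwEquiv (K₀ := mgcE A (rtk6ebK q d)) w₀ hc₁)) 𝔫₁
        (RingHom.id _)
        (algebraMap ↥(mgcA A (rtk6ebK q d)) ↥(zchClosure (A₀ := ↥(mgcA A (rtk6ebK q d)))
          ({(rtk6diT A (rtk6ebK q d) (M₁ * q) M H)⁻¹} :
            Set ↥(rtk6diF A (rtk6ebK q d) (M₁ * q) M H))) ϖ₁)) :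
    Rtk6cxbThin A w₀ :=
  ⟨rtk6ebK q d, inferInstance, inferInstance, inferInstance, ϖ₁, hϖ₁, hc₁, hA₁, hA₂⟩

end Chi

end Fermat.Agent.RT.K6

end
end ZBRT_098_1
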