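/- GENERATED FILE (helper35, build-time optimisation, NOTES/ZB.md): verbatim concatenation of the modules
   Fermat.Agent.RT.K6.HStabAbs
   Fermat.Agent.RT.K6.HStabThinAbs
   Fermat.Agent.RT.K6.HStab
   Fermat.Agent.RT.K6.HStabThin
   Fermat.Agent.RT.K6.C4ChiInstBThin
   Fermat.Agent.RT.K6.C4ChiPlus
   Fermat.Agent.RT.K6.HStabDiam
   Fermat.Agent.RT.K6.FixXInst
   Do not edit; do not import together with these modules. -/
import Fermat.Agent.ZB.RT_031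
import Fermat.Agent.ZB.STB_003
import Fermat.Agent.ZB.INJ_003
import Fermat.Agent.ZB.RT_032
import Fermat.Agent.ZB.RT_070
import Fermat.Agent.ZB.RT_098
import Fermat.Agent.ZB.RT_093
import Fermat.Agent.ZB.ES1_013
import Fermat.Agent.ZB.RT_085
import Fermat.Agent.ZB.RT_069
import Fermat.Agent.ZB.ES1_010
import Fermat.Agent.ZB.RT_091

/-! ### bundled: `Fermat.Agent.RT.K6.HStabAbs` -/
section ZBRT_099_0
/-
K-machine, piece K6, piece **HSTAB** (helper11), ABSTRACT part.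

Setting of `RT/K6/EWMultiAbs.lean`: `A₀` a DVR (uniformizer `π`), `E = Frac A₀`, `F / E(t)`
finite, charts `B_t`, `B_{t⁻¹}`, `V : κ → ValuationSubring F` an injective finite family of
vertical valuation rings with (SS1), `hBV`, `hVloc`, `harch`.

`δ : F →+* F` a ring endomorphism which permutes the family (`∃ c', V c' = (V c₀).comap δ`) and
maps the two charts into themselves.  If at every closed point which is a crossing point the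
coordinates `X`, `Y` of the crossing datum satisfy `δ X ∈ 𝔪(V c₁)`, `δ Y ∈ 𝔪(V c₂)` ("EIGEN":
`δ X = a X`, `a` in the chart) and `δ⁻¹ 𝔫 ⊆ 𝔫` ("FIX"), then `δ` maps EVERY component which meets
another component into itself: `(V c₀).comap δ = V c₀`.

No thinness is used: the crossing datum is the one of `Rtk6ewmNodeAt` (on the unramified chart
`R`, `MgcRamified j π p`), so the node may be thick on the chart of `F`.

* `rtk6hs_exists_edge`   : a connected incidence relation with two different vertices has an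
                           edge at every vertex;
* `rtk6hs_through_comap` : `δ⁻¹ W` passes through `𝔫` if `W` does and `δ⁻¹ 𝔫 ⊆ 𝔫`;
* `rtk6hs_core`          : the semantic core;
* `Rtk6hsCrossPlus`, `Rtk6hsNodeAt` : the crossing datum with (EIGEN) + (FIX) ("C4+");
* `rtk6hs_fix_of_ewFix`, `rtk6hs_fix_of_ewCong`, `rtk6hs_eigen_of_mul` : the inputs from
  `Rtk6ewFix`, `Rtk6ewCong`, `δ X = a X`;
* `rtk6hs_point`         : the statement at one point;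
* `rtk6hs_stab_abs`      : **the abstract theorem**.
-/

set_option autoImplicit false
set_option linter.style.haveILetI false
set_option linter.unusedSectionVars false
set_option linter.unusedVariables false

namespace Fermat.Agent.RT.K6

open Polynomial IntermediateField Fermat.Agent.INJ AlgebraicCurve Fermat.Agent.UNIP
  Fermat.Agent.STB Fermat.Agent.S36

section Graph

variable {κ ι : Type*}

/-- a connected incidence relation with two different vertices has an edge at every vertex -/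
theorem rtk6hs_exists_edge (inc : ι → κ → Prop)
    (hconn : ∀ c c' : κ, Relation.ReflTransGen (fun a b => ∃ i, inc i a ∧ inc i b) c c')
    (c₀ c₁ : κ) (hne : c₁ ≠ c₀) : ∃ i c, c ≠ c₀ ∧ inc i c₀ ∧ inc i c := by
  by_contra hcon
  have key : ∀ c, Relation.ReflTransGen (fun a b => ∃ i, inc i a ∧ inc i b) c₀ c → c = c₀ := by
    intro c hc
    induction hc with
    | refl => rfl
    | tail _ hbc ih =>
      obtain ⟨i, hib, hic⟩ := hbc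
      rw [ih] at hib
      by_contra hne'
      exact hcon ⟨i, _, hne', hib, hic⟩
  exact hne (key c₁ (hconn c₀ c₁))

end Graph

section Abs

variable {A₀ E F : Type*} [CommRing A₀] [IsDomain A₀] [IsDiscreteValuationRing A₀]
  [Field E] [Algebra A₀ E] [IsFractionRing A₀ E] [CharZero E]
  [Field F] [Algebra E F] [Algebra A₀ F] [IsScalarTower A₀ E F]
  {π : A₀} {κ : Type*}

/-- `δ⁻¹ W` passes through `𝔫` if `W` does, `δ` maps the chart into itself and `δ⁻¹ 𝔫 ⊆ 𝔫` -/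
theorem rtk6hs_through_comap (W : ValuationSubring F) (δ : F →+* F) {u : F}
    (𝔫 : AtPt (F := F) π u) (hthr : atThrough 𝔫 W)
    (hδB : ∀ b : F, IsIntegral ↥(Algebra.adjoin A₀ {u}) b →
      IsIntegral ↥(Algebra.adjoin A₀ {u}) (δ b))
    (hfix : ∀ b b' : ↥(zchClosure (A₀ := A₀) ({u} : Set F)), δ (b : F) = (b' : F) →
      b' ∈ 𝔫.1 → b ∈ 𝔫.1) :
    atThrough 𝔫 (W.comap δ) := by
  intro b hb
  have h1 : δ (b : F) ∈ W.nonunits := (vt_mem_nonunits_comap W δ _).mp hb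
  have h2 : δ (b : F) ∈ zchClosure (A₀ := A₀) ({u} : Set F) :=
    mem_zchClosure.mpr (hδB _ (mem_zchClosure.mp b.2))
  exact hfix b ⟨δ (b : F), h2⟩ rfl (hthr ⟨δ (b : F), h2⟩ h1)

/-- **The semantic core.**  `δ` permutes the family, `δ⁻¹ (V c₀)` passes through `𝔫`, and there
is `X` with `δ X ∈ 𝔪(V c₀)` which lies in no `𝔪(V c')`, `c' ≠ c₀` through `𝔫`: then
`δ⁻¹ (V c₀) = V c₀`. -/
theorem rtk6hs_core (V : κ → ValuationSubring F) (c₀ : κ) (δ : F →+* F)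
    (hperm : ∃ c', V c' = (V c₀).comap δ) {u : F} (𝔫 : AtPt (F := F) π u)
    (hthr : atThrough 𝔫 ((V c₀).comap δ))
    {X : F} (hδX : δ X ∈ (V c₀).nonunits)
    (hXc : ∀ c', c' ≠ c₀ → atThrough 𝔫 (V c') → X ∉ (V c').nonunits) :
    (V c₀).comap δ = V c₀ := by
  obtain ⟨c', hc'⟩ := hperm
  by_cases h : c' = c₀
  · rw [← hc', h]
  · exfalso
    refine hXc c' h (by rw [hc']; exact hthr) ?_
    rw [hc']
    exact (vt_mem_nonunits_comap _ _ _).mpr hδX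

/-- **C4+ at a crossing point**: a crossing datum of two components of the family at `𝔫` whose
coordinates satisfy (EIGEN) `δ X ∈ 𝔪(V c₁)`, `δ Y ∈ 𝔪(V c₂)`, and (FIX) `δ⁻¹ 𝔫 ⊆ 𝔫`. -/
def Rtk6hsCrossPlus (V : κ → ValuationSubring F) (δ : F →+* F) {u : F}
    (𝔫 : AtPt (F := F) π u)
    {R : Type*} [CommRing R] (j : R →+* ↥(zchClosure (A₀ := A₀) ({u} : Set F))) (p : R) : Prop :=
  ∃ (c₁ c₂ : κ) (X Y w : R), Rtk6ewmCrossAt (V c₁) (V c₂) 𝔫 j p X Y w ∧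
    δ ((j X : ↥(zchClosure (A₀ := A₀) ({u} : Set F))) : F) ∈ (V c₁).nonunits ∧
    δ ((j Y : ↥(zchClosure (A₀ := A₀) ({u} : Set F))) : F) ∈ (V c₂).nonunits ∧
    ∀ b b' : ↥(zchClosure (A₀ := A₀) ({u} : Set F)), δ (b : F) = (b' : F) →
      b' ∈ 𝔫.1 → b ∈ 𝔫.1

/-- **The dichotomy with C4+** at the closed point `𝔫`: smooth point, or crossing point with
(EIGEN) + (FIX) for `δ`. -/
def Rtk6hsNodeAt (V : κ → ValuationSubring F) (δ : F →+* F) {u : F} (𝔫 : AtPt (F := F) π u)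
    {R : Type*} [CommRing R] (j : R →+* ↥(zchClosure (A₀ := A₀) ({u} : Set F))) (p : R) : Prop :=
  (∃ s : R, j s ∈ 𝔫.1 ∧ NodesLocGen (𝔫.1.comap j) {p, s}) ∨ Rtk6hsCrossPlus V δ 𝔫 j p

/-- the dichotomy with C4+ contains the dichotomy (M3) -/
theorem Rtk6hsNodeAt.nodeAt {V : κ → ValuationSubring F} {δ : F →+* F} {u : F}
    {𝔫 : AtPt (F := F) π u} {R : Type*} [CommRing R]
    {j : R →+* ↥(zchClosure (A₀ := A₀) ({u} : Set F))} {p : R}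
    (h : Rtk6hsNodeAt V δ 𝔫 j p) : Rtk6ewmNodeAt V 𝔫 j p := by
  rcases h with h | ⟨c₁, c₂, X, Y, w, h, -⟩
  · exact Or.inl h
  · exact Or.inr ⟨c₁, c₂, X, Y, w, h⟩

/-- (FIX) from `Rtk6ewFix` -/
theorem rtk6hs_fix_of_ewFix (g : SemilinearAut E F) {u : F} (𝔫 : AtPt (F := F) π u)
    (h : Rtk6ewFix g 𝔫) (δ : F →+* F) (hδ : ∀ x : F, δ x = g • x) :
    ∀ b b' : ↥(zchClosure (A₀ := A₀) ({u} : Set F)), δ (b : F) = (b' : F) →
      b' ∈ 𝔫.1 → b ∈ 𝔫.1 := by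
  intro b b' hbb' hb'
  obtain ⟨b'', hb'', e⟩ := h.2 b' hb'
  have e2 : (b : F) = (b'' : F) := by
    rw [← e, ← hbb', hδ, inv_smul_smul]
  have e3 : b = b'' := Subtype.ext e2
  rw [e3]
  exact hb''

/-- (FIX) from `Rtk6ewCong` with `Q = 1` -/
theorem rtk6hs_fix_of_ewCong (δ : F →+* F) {u : F} (𝔫 : AtPt (F := F) π u)
    (h : Rtk6ewCong δ 1 𝔫) :
    ∀ b b' : ↥(zchClosure (A₀ := A₀) ({u} : Set F)), δ (b : F) = (b' : F) →
      b' ∈ 𝔫.1 → b ∈ 𝔫.1 := by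
  intro b b' hbb' hb'
  obtain ⟨c, hc, e⟩ := h b
  have e2 : b = b' - c := by
    apply Subtype.ext
    show (b : F) = (b' : F) - (c : F)
    rw [← hbb', e, pow_one]
    ring
  rw [e2]
  exact Ideal.sub_mem _ hb' hc

/-- (EIGEN) from `δ X = a X`, `a ∈ W` -/
theorem rtk6hs_eigen_of_mul (W : ValuationSubring F) (δ : F →+* F) {X a : F}
    (hX : X ∈ W.nonunits) (ha : a ∈ W) (h : δ X = a * X) : δ X ∈ W.nonunits := by
  rw [h, ValuationSubring.mem_nonunits_iff, map_mul]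
  have h1 : W.valuation a ≤ 1 := (ValuationSubring.valuation_le_one_iff W a).mpr ha
  have h2 : W.valuation X < 1 := (ValuationSubring.mem_nonunits_iff W).mp hX
  calc W.valuation a * W.valuation X ≤ 1 * W.valuation X := by gcongr
    _ = W.valuation X := one_mul _
    _ < 1 := h2

/-- **The statement at one point** where `V c₀` and another component pass, from the dichotomy
with C4+. -/
theorem rtk6hs_point (hπ0 : algebraMap A₀ F π ≠ 0) {u : F} [Finite κ]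
    [IsNoetherianRing ↥(zchClosure (A₀ := A₀) ({u} : Set F))]
    (V : κ → ValuationSubring F) (hinj : Function.Injective V)
    (hBV : ∀ c (b : F), IsIntegral ↥(Algebra.adjoin A₀ {u}) b → b ∈ V c)
    (hπV : ∀ c, algebraMap A₀ F π ∈ (V c).nonunits)
    (hSS1 : ∀ b : F, IsIntegral ↥(Algebra.adjoin A₀ {u}) b → (∀ c, b ∈ (V c).nonunits) →
      ∃ b' : F, IsIntegral ↥(Algebra.adjoin A₀ {u}) b' ∧ b = algebraMap A₀ F π * b')
    (harch : ∀ c (a x : F), a ∈ (V c).nonunits → ∃ N : ℕ, a ^ N * x ∈ (V c).nonunits)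
    (hVloc : ∀ c (x : F), x ∈ V c → ∃ b s : F, IsIntegral ↥(Algebra.adjoin A₀ {u}) b ∧
      IsIntegral ↥(Algebra.adjoin A₀ {u}) s ∧ s ∉ (V c).nonunits ∧ s * x = b)
    (δ : F →+* F)
    (hδB : ∀ b : F, IsIntegral ↥(Algebra.adjoin A₀ {u}) b →
      IsIntegral ↥(Algebra.adjoin A₀ {u}) (δ b))
    (c₀ : κ) (hperm : ∃ c', V c' = (V c₀).comap δ)
    {R : Type*} [CommRing R] (j : R →+* ↥(zchClosure (A₀ := A₀) ({u} : Set F))) (p : R)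
    (hram : MgcRamified j (algebraMap A₀ ↥(zchClosure (A₀ := A₀) ({u} : Set F)) π) p)
    (hjp0 : j p ≠ 0)
    (𝔫 : AtPt (F := F) π u) (hnode : Rtk6hsNodeAt V δ 𝔫 j p)
    (c : κ) (hc : c ≠ c₀) (h₀ : atThrough 𝔫 (V c₀)) (h₁ : atThrough 𝔫 (V c)) :
    (V c₀).comap δ = V c₀ := by
  have hnle := rtk6ewm_hinc hπ0 V hinj hπV harch
  rcases hnode with ⟨s, hs, hgen⟩ | ⟨c₁, c₂, X, Y, w, hcr, hX, hY, hfix⟩
  · exact absurd (stb_sx_only V hBV hπV hVloc hnle 𝔫 (j s) hs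
      (hram.mgg_locGen_pair 𝔫.2.2 s hgen) c c₀ h₁ h₀) hc
  · have honly := rtk6ewm_cross_only hπ0 V hinj hBV hπV harch hVloc 𝔫 j p hram hcr
    have hX2 := rtk6ewm_cross_not_mem hπ0 V hinj hBV hπV hSS1 harch hVloc 𝔫 j p hram hjp0 hcr
    have hY1 := rtk6ewm_cross_not_mem hπ0 V hinj hBV hπV hSS1 harch hVloc 𝔫 j p hram hjp0
      hcr.symm
    have hthr := rtk6hs_through_comap (V c₀) δ 𝔫 h₀ hδB hfix
    rcases honly c₀ h₀ with h0 | h0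
    · subst h0
      refine rtk6hs_core V _ δ hperm 𝔫 hthr hX fun c' hc' hthr' => ?_
      rcases honly c' hthr' with h' | h'
      · exact absurd h' hc'
      · rw [h']
        exact hX2
    · subst h0
      refine rtk6hs_core V _ δ hperm 𝔫 hthr hY fun c' hc' hthr' => ?_
      rcases honly c' hthr' with h' | h'
      · rw [h']
        exact hY1
      · exact absurd h' hc'

/-- **HSTAB, abstract, semantic form.**  `δ` permutes the family and maps the charts into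
themselves; at every closed point `𝔫` through which `V c₀` and another component pass,
`δ⁻¹ 𝔫 ⊆ 𝔫` and there is `X` with `δ X ∈ 𝔪(V c₀)` lying in no other `𝔪(V c')` through `𝔫`.
If the family has at least two members, `δ⁻¹ (V c₀) = V c₀`. -/
theorem rtk6hs_stab_sem_abs (hπ : Irreducible π) {t : F} (ht : Transcendental E t)
    [FiniteDimensional E⟮t⟯ F]
    (hcl : ∀ x : F, IsAlgebraic E x → x ∈ (algebraMap E F).range)
    [Finite κ] (V : κ → ValuationSubring F) (hinj : Function.Injective V)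
    (hBV₁ : ∀ c (b : F), IsIntegral ↥(Algebra.adjoin A₀ {t}) b → b ∈ V c)
    (hBV₂ : ∀ c (b : F), IsIntegral ↥(Algebra.adjoin A₀ {t⁻¹}) b → b ∈ V c)
    (hπV : ∀ c, algebraMap A₀ F π ∈ (V c).nonunits)
    (hSS1 : ∀ b : F, IsIntegral ↥(Algebra.adjoin A₀ {t}) b → (∀ c, b ∈ (V c).nonunits) →
      ∃ b' : F, IsIntegral ↥(Algebra.adjoin A₀ {t}) b' ∧ b = algebraMap A₀ F π * b')
    (harch : ∀ c (a x : F), a ∈ (V c).nonunits → ∃ N : ℕ, a ^ N * x ∈ (V c).nonunits)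
    (hVloc₁ : ∀ c (x : F), x ∈ V c → ∃ b s : F, IsIntegral ↥(Algebra.adjoin A₀ {t}) b ∧
      IsIntegral ↥(Algebra.adjoin A₀ {t}) s ∧ s ∉ (V c).nonunits ∧ s * x = b)
    (δ : F →+* F)
    (hδB₁ : ∀ b : F, IsIntegral ↥(Algebra.adjoin A₀ {t}) b →
      IsIntegral ↥(Algebra.adjoin A₀ {t}) (δ b))
    (hδB₂ : ∀ b : F, IsIntegral ↥(Algebra.adjoin A₀ {t⁻¹}) b →
      IsIntegral ↥(Algebra.adjoin A₀ {t⁻¹}) (δ b))
    (c₀ c₁ : κ) (hne : c₁ ≠ c₀) (hperm : ∃ c', V c' = (V c₀).comap δ)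
    (hpt₁ : ∀ (𝔫 : AtPt (F := F) π t) (c : κ), c ≠ c₀ → atThrough 𝔫 (V c₀) →
      atThrough 𝔫 (V c) →
      (∀ b b' : ↥(zchClosure (A₀ := A₀) ({t} : Set F)), δ (b : F) = (b' : F) →
        b' ∈ 𝔫.1 → b ∈ 𝔫.1) ∧
      ∃ X : F, δ X ∈ (V c₀).nonunits ∧
        ∀ c', c' ≠ c₀ → atThrough 𝔫 (V c') → X ∉ (V c').nonunits)
    (hpt₂ : ∀ (𝔫 : AtPt (F := F) π t⁻¹) (c : κ), c ≠ c₀ → atThrough 𝔫 (V c₀) →
      atThrough 𝔫 (V c) →
      (∀ b b' : ↥(zchClosure (A₀ := A₀) ({t⁻¹} : Set F)), δ (b : F) = (b' : F) →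
        b' ∈ 𝔫.1 → b ∈ 𝔫.1) ∧
      ∃ X : F, δ X ∈ (V c₀).nonunits ∧
        ∀ c', c' ≠ c₀ → atThrough 𝔫 (V c') → X ∉ (V c').nonunits) :
    (V c₀).comap δ = V c₀ := by
  have hconn := rtk6ewm_hconn hπ ht hcl V hinj hBV₁ hBV₂ hπV hSS1 harch hVloc₁
  obtain ⟨i, c, hc, h₀, h₁⟩ := rtk6hs_exists_edge (atInc π t V) hconn c₀ c₁ hne
  rcases i with 𝔫 | 𝔫
  · obtain ⟨hfix, X, hX, hXc⟩ := hpt₁ 𝔫 c hc h₀ h₁
    exact rtk6hs_core V c₀ δ hperm 𝔫 (rtk6hs_through_comap (V c₀) δ 𝔫 h₀ hδB₁ hfix) hX hXc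
  · obtain ⟨hfix, X, hX, hXc⟩ := hpt₂ 𝔫 c hc h₀ h₁
    exact rtk6hs_core V c₀ δ hperm 𝔫 (rtk6hs_through_comap (V c₀) δ 𝔫 h₀ hδB₂ hfix) hX hXc

/-- **HSTAB, abstract form**, from the dichotomy with C4+ on the two charts. -/
theorem rtk6hs_stab_abs (hπ : Irreducible π) {t : F} (ht : Transcendental E t)
    [FiniteDimensional E⟮t⟯ F]
    (hcl : ∀ x : F, IsAlgebraic E x → x ∈ (algebraMap E F).range)
    [Finite κ]
    [IsNoetherianRing ↥(zchClosure (A₀ := A₀) ({t} : Set F))]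
    [IsNoetherianRing ↥(zchClosure (A₀ := A₀) ({t⁻¹} : Set F))]
    (V : κ → ValuationSubring F) (hinj : Function.Injective V)
    (hBV₁ : ∀ c (b : F), IsIntegral ↥(Algebra.adjoin A₀ {t}) b → b ∈ V c)
    (hBV₂ : ∀ c (b : F), IsIntegral ↥(Algebra.adjoin A₀ {t⁻¹}) b → b ∈ V c)
    (hπV : ∀ c, algebraMap A₀ F π ∈ (V c).nonunits)
    (hSS1 : ∀ b : F, IsIntegral ↥(Algebra.adjoin A₀ {t}) b → (∀ c, b ∈ (V c).nonunits) →
      ∃ b' : F, IsIntegral ↥(Algebra.adjoin A₀ {t}) b' ∧ b = algebraMap A₀ F π * b')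
    (harch : ∀ c (a x : F), a ∈ (V c).nonunits → ∃ N : ℕ, a ^ N * x ∈ (V c).nonunits)
    (hVloc₁ : ∀ c (x : F), x ∈ V c → ∃ b s : F, IsIntegral ↥(Algebra.adjoin A₀ {t}) b ∧
      IsIntegral ↥(Algebra.adjoin A₀ {t}) s ∧ s ∉ (V c).nonunits ∧ s * x = b)
    (hVloc₂ : ∀ c (x : F), x ∈ V c → ∃ b s : F, IsIntegral ↥(Algebra.adjoin A₀ {t⁻¹}) b ∧
      IsIntegral ↥(Algebra.adjoin A₀ {t⁻¹}) s ∧ s ∉ (V c).nonunits ∧ s * x = b)
    (δ : F →+* F)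
    (hδB₁ : ∀ b : F, IsIntegral ↥(Algebra.adjoin A₀ {t}) b →
      IsIntegral ↥(Algebra.adjoin A₀ {t}) (δ b))
    (hδB₂ : ∀ b : F, IsIntegral ↥(Algebra.adjoin A₀ {t⁻¹}) b →
      IsIntegral ↥(Algebra.adjoin A₀ {t⁻¹}) (δ b))
    (c₀ c₁ : κ) (hne : c₁ ≠ c₀) (hperm : ∃ c', V c' = (V c₀).comap δ)
    {R₁ : Type*} [CommRing R₁] (j₁ : R₁ →+* ↥(zchClosure (A₀ := A₀) ({t} : Set F))) (p₁ : R₁)
    (hram₁ : MgcRamified j₁ (algebraMap A₀ ↥(zchClosure (A₀ := A₀) ({t} : Set F)) π) p₁)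
    (hjp₁ : j₁ p₁ ≠ 0)
    {R₂ : Type*} [CommRing R₂] (j₂ : R₂ →+* ↥(zchClosure (A₀ := A₀) ({t⁻¹} : Set F))) (p₂ : R₂)
    (hram₂ : MgcRamified j₂ (algebraMap A₀ ↥(zchClosure (A₀ := A₀) ({t⁻¹} : Set F)) π) p₂)
    (hjp₂ : j₂ p₂ ≠ 0)
    (hnode₁ : ∀ 𝔫 : AtPt (F := F) π t, Rtk6hsNodeAt V δ 𝔫 j₁ p₁)
    (hnode₂ : ∀ 𝔫 : AtPt (F := F) π t⁻¹, Rtk6hsNodeAt V δ 𝔫 j₂ p₂) :
    (V c₀).comap δ = V c₀ := by
  have hπ0 : algebraMap A₀ F π ≠ 0 :=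
    (map_ne_zero_iff _ (zch_algebraMap_injective (A₀ := A₀) (E := E) (L := F))).mpr hπ.ne_zero
  have hconn := rtk6ewm_hconn hπ ht hcl V hinj hBV₁ hBV₂ hπV hSS1 harch hVloc₁
  obtain ⟨i, c, hc, h₀, h₁⟩ := rtk6hs_exists_edge (atInc π t V) hconn c₀ c₁ hne
  rcases i with 𝔫 | 𝔫
  · exact rtk6hs_point hπ0 V hinj hBV₁ hπV hSS1 harch hVloc₁ δ hδB₁ c₀ hperm j₁ p₁ hram₁ hjp₁ 𝔫
      (hnode₁ 𝔫) c hc h₀ h₁
  · exact rtk6hs_point hπ0 V hinj hBV₂ hπV (ats_SS1_inv ht hπ V hBV₁ hSS1) harch hVloc₂ δ hδB₂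
      c₀ hperm j₂ p₂ hram₂ hjp₂ 𝔫 (hnode₂ 𝔫) c hc h₀ h₁

end Abs

end Fermat.Agent.RT.K6


end ZBRT_099_0

/-! ### bundled: `Fermat.Agent.RT.K6.HStabThinAbs` -/
section ZBRT_099_1
/-
K-machine, piece K6, piece **HSTAB-inst** (helper11), ABSTRACT part: the semantic form of C4+
(`Rtk6hsSemAt`, `RT/K6/HStab.lean`) from the THIN datum with (EIGEN) on a chart `(R, j, p)`,
`MgcRamified j π p` — WITHOUT components: no `c₁ c₂`, no `atThrough` hypothesis, hence no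
(FAM-res) and no (C4-THR) at the level of `F`.

Setting of `RT/K6/EWMultiAbs.lean` / `RT/K6/HStabAbs.lean`.

* `Rtk6hsThinAt D 𝔫 j p` : at the closed point `𝔫` of the chart `u`: smooth point
  (`𝔫 ∩ R = (p, s)` locally), or thin crossing point `𝔫 ∩ R = (p, X, Y)` locally, `w p = X Y`,
  `j w ∉ 𝔫`, with (EIGEN) `δ (j X) = a (j X)`, `δ (j Y) = b (j Y)`, `a b` in the chart, for all
  `δ ∈ D`;
* `rtk6hs_mem_or_mem`   : every component contains `j X` or `j Y` in its maximal ideal;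
* `rtk6hs_locGen_drop`  : `𝔫 = (π, X, Y)` locally and `d X ∈ (π)`, `d ∉ 𝔫` ⇒ `𝔫 = (π, Y)` locally;
* **`rtk6hs_sem_of_thin`** : the coordinate `X'` of the semantic form at a point through which
  `V c₀` and another component pass;
* `rtk6hs_point_thin`    : `δ⁻¹ (V c₀) = V c₀` from the thin datum + (FIX) at one such point;
* **`rtk6hs_stab_thin_abs`** : the abstract theorem.
-/

set_option autoImplicit false
set_option linter.style.haveILetI false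
set_option linter.unusedSectionVars false
set_option linter.unusedVariables false

namespace Fermat.Agent.RT.K6

open Polynomial IntermediateField Fermat.Agent.INJ AlgebraicCurve Fermat.Agent.UNIP
  Fermat.Agent.STB Fermat.Agent.S36

section Val

variable {F : Type*} [Field F]

/-- `a ∈ W`, `x ∈ 𝔪(W)` ⇒ `a x ∈ 𝔪(W)` -/
theorem rtk6hs_mul_mem_nonunits (W : ValuationSubring F) {a x : F} (ha : a ∈ W)
    (hx : x ∈ W.nonunits) : a * x ∈ W.nonunits := by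
  rw [ValuationSubring.mem_nonunits_iff, map_mul]
  have h1 : W.valuation a ≤ 1 := (ValuationSubring.valuation_le_one_iff W a).mpr ha
  have h2 : W.valuation x < 1 := (ValuationSubring.mem_nonunits_iff W).mp hx
  calc W.valuation a * W.valuation x ≤ 1 * W.valuation x := by gcongr
    _ = W.valuation x := one_mul _
    _ < 1 := h2

/-- `x, y ∈ W`, `x y ∈ 𝔪(W)` ⇒ `x ∈ 𝔪(W)` or `y ∈ 𝔪(W)` -/
theorem rtk6hs_nonunits_or (W : ValuationSubring F) {x y : F} (hx : x ∈ W) (hy : y ∈ W)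
    (hxy : x * y ∈ W.nonunits) : x ∈ W.nonunits ∨ y ∈ W.nonunits := by
  by_contra hcon
  rw [not_or] at hcon
  obtain ⟨h1, h2⟩ := hcon
  have e1 : W.valuation x = 1 := by
    refine le_antisymm ((ValuationSubring.valuation_le_one_iff W x).mpr hx) ?_
    by_contra h
    exact h1 ((ValuationSubring.mem_nonunits_iff W).mpr (not_le.mp h))
  have e2 : W.valuation y = 1 := by
    refine le_antisymm ((ValuationSubring.valuation_le_one_iff W y).mpr hy) ?_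
    by_contra h
    exact h2 ((ValuationSubring.mem_nonunits_iff W).mpr (not_le.mp h))
  have h3 := (ValuationSubring.mem_nonunits_iff W).mp hxy
  rw [map_mul, e1, e2, one_mul] at h3
  exact lt_irrefl _ h3

end Val

section Gen

variable {B : Type*} [CommRing B]

/-- `𝔫 = (ϖ, X, Y)` locally and `d X ∈ (ϖ)` with `d ∉ 𝔫` ⇒ `𝔫 = (ϖ, Y)` locally -/
theorem rtk6hs_locGen_drop (𝔫 : Ideal B) [𝔫.IsPrime] {ϖ X Y d b' : B} (hd : d ∉ 𝔫)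
    (hdX : d * X = ϖ * b') (hgen : NodesLocGen 𝔫 {ϖ, X, Y}) : NodesLocGen 𝔫 {ϖ, Y} := by
  intro b hb
  obtain ⟨u, hu, hub⟩ := hgen b hb
  refine ⟨d * u, fun h => ?_, ?_⟩
  · rcases (inferInstance : 𝔫.IsPrime).mem_or_mem h with h | h
    · exact hd h
    · exact hu h
  · obtain ⟨α, z, hz, e⟩ := Ideal.mem_span_insert.mp hub
    obtain ⟨β, z', hz', e'⟩ := Ideal.mem_span_insert.mp hz
    obtain ⟨γ, rfl⟩ := Ideal.mem_span_singleton'.mp hz'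
    have e3 : d * u * b = (d * α + β * b') * ϖ + (d * γ) * Y := by
      calc d * u * b = d * (u * b) := by ring
        _ = d * (α * ϖ + (β * X + γ * Y)) := by rw [e, e']
        _ = d * α * ϖ + β * (d * X) + d * γ * Y := by ring
        _ = (d * α + β * b') * ϖ + (d * γ) * Y := by rw [hdX]; ring
    rw [e3]
    refine Ideal.add_mem _ (Ideal.mul_mem_left _ _ (Ideal.subset_span (Set.mem_insert _ _)))
      (Ideal.mul_mem_left _ _ (Ideal.subset_span (Set.mem_insert_of_mem _ rfl)))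

end Gen

section Abs

variable {A₀ E F : Type*} [CommRing A₀] [IsDomain A₀] [IsDiscreteValuationRing A₀]
  [Field E] [Algebra A₀ E] [IsFractionRing A₀ E] [CharZero E]
  [Field F] [Algebra E F] [Algebra A₀ F] [IsScalarTower A₀ E F]
  {π : A₀} {κ : Type*}

/-- **The thin datum with (EIGEN)** for the endomorphisms `δ ∈ D` at the closed point `𝔫` of the
chart `u`, on the chart `(R, j, p)`: smooth point, or thin crossing point `w p = X Y` with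
`δ (j X) = a (j X)`, `δ (j Y) = b (j Y)`.  NO components of the special fibre are named. -/
def Rtk6hsThinAt (D : Set (F →+* F)) {u : F} (𝔫 : AtPt (F := F) π u)
    {R : Type*} [CommRing R] (j : R →+* ↥(zchClosure (A₀ := A₀) ({u} : Set F))) (p : R) : Prop :=
  (∃ s : R, j s ∈ 𝔫.1 ∧ NodesLocGen (𝔫.1.comap j) {p, s}) ∨
  ∃ X Y w : R, j w ∉ 𝔫.1 ∧ w * p = X * Y ∧ j X ∈ 𝔫.1 ∧ j Y ∈ 𝔫.1 ∧
    NodesLocGen (𝔫.1.comap j) {p, X, Y} ∧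
    ∀ δ ∈ D,
      (∃ a : ↥(zchClosure (A₀ := A₀) ({u} : Set F)),
        δ ((j X : ↥(zchClosure (A₀ := A₀) ({u} : Set F))) : F) =
          (a : F) * ((j X : ↥(zchClosure (A₀ := A₀) ({u} : Set F))) : F)) ∧
      (∃ b : ↥(zchClosure (A₀ := A₀) ({u} : Set F)),
        δ ((j Y : ↥(zchClosure (A₀ := A₀) ({u} : Set F))) : F) =
          (b : F) * ((j Y : ↥(zchClosure (A₀ := A₀) ({u} : Set F))) : F))

/-- monotonicity in `D` -/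
theorem Rtk6hsThinAt.mono {D D' : Set (F →+* F)} (hD : D' ⊆ D) {u : F}
    {𝔫 : AtPt (F := F) π u} {R : Type*} [CommRing R]
    {j : R →+* ↥(zchClosure (A₀ := A₀) ({u} : Set F))} {p : R}
    (h : Rtk6hsThinAt D 𝔫 j p) : Rtk6hsThinAt D' 𝔫 j p := by
  rcases h with h | ⟨X, Y, w, hw, hXY, hX, hY, hgen, heig⟩
  · exact Or.inl h
  · exact Or.inr ⟨X, Y, w, hw, hXY, hX, hY, hgen, fun δ hδ => heig δ (hD hδ)⟩

/-- the thin datum from the crossing datum of two components with (EIGEN) in the strong form -/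
theorem rtk6hs_thinAt_of_cross (D : Set (F →+* F)) {u : F} {𝔫 : AtPt (F := F) π u}
    {R : Type*} [CommRing R] {j : R →+* ↥(zchClosure (A₀ := A₀) ({u} : Set F))} {p : R}
    {W₁ W₂ : ValuationSubring F} {X Y w : R} (h : Rtk6ewmCrossAt W₁ W₂ 𝔫 j p X Y w)
    (heig : ∀ δ ∈ D,
      (∃ a : ↥(zchClosure (A₀ := A₀) ({u} : Set F)),
        δ ((j X : ↥(zchClosure (A₀ := A₀) ({u} : Set F))) : F) =
          (a : F) * ((j X : ↥(zchClosure (A₀ := A₀) ({u} : Set F))) : F)) ∧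
      (∃ b : ↥(zchClosure (A₀ := A₀) ({u} : Set F)),
        δ ((j Y : ↥(zchClosure (A₀ := A₀) ({u} : Set F))) : F) =
          (b : F) * ((j Y : ↥(zchClosure (A₀ := A₀) ({u} : Set F))) : F))) :
    Rtk6hsThinAt D 𝔫 j p := by
  obtain ⟨h1, h2, hX, hY, hw, hXY, hgen⟩ := h
  exact Or.inr ⟨X, Y, w, hw, hXY, h1 X hX, h2 Y hY, hgen, heig⟩

/-- every component contains `j X` or `j Y` in its maximal ideal -/
theorem rtk6hs_mem_or_mem {u : F} (W : ValuationSubring F)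
    (hBW : ∀ b : F, IsIntegral ↥(Algebra.adjoin A₀ {u}) b → b ∈ W)
    (hπW : algebraMap A₀ F π ∈ W.nonunits)
    {R : Type*} [CommRing R] (j : R →+* ↥(zchClosure (A₀ := A₀) ({u} : Set F))) (p : R)
    (hram : MgcRamified j (algebraMap A₀ ↥(zchClosure (A₀ := A₀) ({u} : Set F)) π) p)
    {X Y w : R} (hXY : w * p = X * Y) :
    ((j X : ↥(zchClosure (A₀ := A₀) ({u} : Set F))) : F) ∈ W.nonunits ∨
      ((j Y : ↥(zchClosure (A₀ := A₀) ({u} : Set F))) : F) ∈ W.nonunits := by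
  have hmem : ∀ b : ↥(zchClosure (A₀ := A₀) ({u} : Set F)), (b : F) ∈ W := fun b =>
    hBW _ (mem_zchClosure.mp b.2)
  refine rtk6hs_nonunits_or W (hmem _) (hmem _) ?_
  obtain ⟨z, hz⟩ := hram.dvd
  have e : ((j X : ↥(zchClosure (A₀ := A₀) ({u} : Set F))) : F) *
      ((j Y : ↥(zchClosure (A₀ := A₀) ({u} : Set F))) : F) =
      (((j w * z : ↥(zchClosure (A₀ := A₀) ({u} : Set F))) : F)) * algebraMap A₀ F π := by
    have e1 : j X * j Y = (j w * z) * algebraMap A₀ ↥(zchClosure (A₀ := A₀) ({u} : Set F)) π := by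
      rw [← map_mul, ← hXY, map_mul, hz]
      ring
    have e2 := congrArg (fun b : ↥(zchClosure (A₀ := A₀) ({u} : Set F)) => (b : F)) e1
    exact e2
  rw [e]
  exact rtk6hs_mul_mem_nonunits W (hmem _) hπW

/-- **The coordinate of the semantic form of C4+ from the thin datum.**  At a closed point `𝔫`
through which `V c₀` and another component pass, there is `X'` with `δ X' ∈ 𝔪(V c₀)` lying in no
other `𝔪(V c')`, `c'` through `𝔫`. -/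
theorem rtk6hs_sem_of_thin (hπ0 : algebraMap A₀ F π ≠ 0) {u : F} [Finite κ]
    [IsNoetherianRing ↥(zchClosure (A₀ := A₀) ({u} : Set F))]
    (V : κ → ValuationSubring F) (hinj : Function.Injective V)
    (hBV : ∀ c (b : F), IsIntegral ↥(Algebra.adjoin A₀ {u}) b → b ∈ V c)
    (hπV : ∀ c, algebraMap A₀ F π ∈ (V c).nonunits)
    (hSS1 : ∀ b : F, IsIntegral ↥(Algebra.adjoin A₀ {u}) b → (∀ c, b ∈ (V c).nonunits) →
      ∃ b' : F, IsIntegral ↥(Algebra.adjoin A₀ {u}) b' ∧ b = algebraMap A₀ F π * b')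
    (harch : ∀ c (a x : F), a ∈ (V c).nonunits → ∃ N : ℕ, a ^ N * x ∈ (V c).nonunits)
    (hVloc : ∀ c (x : F), x ∈ V c → ∃ b s : F, IsIntegral ↥(Algebra.adjoin A₀ {u}) b ∧
      IsIntegral ↥(Algebra.adjoin A₀ {u}) s ∧ s ∉ (V c).nonunits ∧ s * x = b)
    (D : Set (F →+* F)) (δ : F →+* F) (hδ : δ ∈ D)
    {R : Type*} [CommRing R] (j : R →+* ↥(zchClosure (A₀ := A₀) ({u} : Set F))) (p : R)
    (hram : MgcRamified j (algebraMap A₀ ↥(zchClosure (A₀ := A₀) ({u} : Set F)) π) p)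
    (hjp0 : j p ≠ 0)
    (𝔫 : AtPt (F := F) π u) (hthin : Rtk6hsThinAt D 𝔫 j p)
    (c₀ c : κ) (hc : c ≠ c₀) (h₀ : atThrough 𝔫 (V c₀)) (h₁ : atThrough 𝔫 (V c)) :
    ∃ X' : F, δ X' ∈ (V c₀).nonunits ∧
      ∀ c', c' ≠ c₀ → atThrough 𝔫 (V c') → X' ∉ (V c').nonunits := by
  haveI := 𝔫.2.1.isPrime
  have hnle := rtk6ewm_hinc hπ0 V hinj hπV harch
  rcases hthin with ⟨s, hs, hgen⟩ | ⟨X, Y, w, hw, hXY, hX𝔫, hY𝔫, hgen, heig⟩
  · exact absurd (stb_sx_only V hBV hπV hVloc hnle 𝔫 (j s) hs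
      (hram.mgg_locGen_pair 𝔫.2.2 s hgen) c c₀ h₁ h₀) hc
  · have hor : ∀ c', ((j X : ↥(zchClosure (A₀ := A₀) ({u} : Set F))) : F) ∈ (V c').nonunits ∨
        ((j Y : ↥(zchClosure (A₀ := A₀) ({u} : Set F))) : F) ∈ (V c').nonunits := fun c' =>
      rtk6hs_mem_or_mem (V c') (hBV c') (hπV c') j p hram hXY
    have hgen3 := hram.mgg_locGen_triple 𝔫.2.2 X Y hgen
    obtain ⟨⟨a, ha⟩, ⟨b, hb⟩⟩ := heig δ hδ
    by_cases hP : ∃ c₁, atThrough 𝔫 (V c₁) ∧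
        ((j X : ↥(zchClosure (A₀ := A₀) ({u} : Set F))) : F) ∈ (V c₁).nonunits
    · by_cases hQ : ∃ c₂, atThrough 𝔫 (V c₂) ∧
          ((j Y : ↥(zchClosure (A₀ := A₀) ({u} : Set F))) : F) ∈ (V c₂).nonunits
      · obtain ⟨c₁, hT₁, hX₁⟩ := hP
        obtain ⟨c₂, hT₂, hY₂⟩ := hQ
        have hcr : Rtk6ewmCrossAt (V c₁) (V c₂) 𝔫 j p X Y w :=
          ⟨fun x hx => hT₁ (j x) hx, fun x hx => hT₂ (j x) hx, hX₁, hY₂, hw, hXY, hgen⟩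
        have honly := rtk6ewm_cross_only hπ0 V hinj hBV hπV harch hVloc 𝔫 j p hram hcr
        have hX2 := rtk6ewm_cross_not_mem hπ0 V hinj hBV hπV hSS1 harch hVloc 𝔫 j p hram hjp0
          hcr
        have hY1 := rtk6ewm_cross_not_mem hπ0 V hinj hBV hπV hSS1 harch hVloc 𝔫 j p hram hjp0
          hcr.symm
        rcases honly c₀ h₀ with h0 | h0
        · subst h0
          refine ⟨_, rtk6hs_eigen_of_mul (V c₀) δ hX₁ (hBV _ _ (mem_zchClosure.mp a.2)) ha,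
            fun c' hc' hthr' => ?_⟩
          rcases honly c' hthr' with h' | h'
          · exact absurd h' hc'
          · rw [h']
            exact hX2
        · subst h0
          refine ⟨_, rtk6hs_eigen_of_mul (V c₀) δ hY₂ (hBV _ _ (mem_zchClosure.mp b.2)) hb,
            fun c' hc' hthr' => ?_⟩
          rcases honly c' hthr' with h' | h'
          · rw [h']
            exact hY1
          · exact absurd h' hc'
      · -- no component through `𝔫` contains `j Y`: the point is smooth with parameter `j Y`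
        exfalso
        obtain ⟨d, b', hd, hdb⟩ := rtk6ewm_loc_dvd hπ0 V hBV hSS1 𝔫 (j X) (fun c' hc' => by
          rcases hor c' with h | h
          · exact h
          · exact absurd ⟨c', hc', h⟩ hQ)
        have hgen2 : NodesLocGen 𝔫.1
            {algebraMap A₀ ↥(zchClosure (A₀ := A₀) ({u} : Set F)) π, j Y} :=
          rtk6hs_locGen_drop 𝔫.1 hd hdb hgen3
        exact hc (stb_sx_only V hBV hπV hVloc hnle 𝔫 (j Y) hY𝔫 hgen2 c c₀ h₁ h₀)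
    · -- no component through `𝔫` contains `j X`: the point is smooth with parameter `j X`
      exfalso
      obtain ⟨d, b', hd, hdb⟩ := rtk6ewm_loc_dvd hπ0 V hBV hSS1 𝔫 (j Y) (fun c' hc' => by
        rcases hor c' with h | h
        · exact absurd ⟨c', hc', h⟩ hP
        · exact h)
      have hgen3' : NodesLocGen 𝔫.1
          {algebraMap A₀ ↥(zchClosure (A₀ := A₀) ({u} : Set F)) π, j Y, j X} := by
        have e : ({algebraMap A₀ ↥(zchClosure (A₀ := A₀) ({u} : Set F)) π, j Y, j X} :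
            Set ↥(zchClosure (A₀ := A₀) ({u} : Set F))) =
            {algebraMap A₀ ↥(zchClosure (A₀ := A₀) ({u} : Set F)) π, j X, j Y} := by
          rw [Set.pair_comm (j Y) (j X)]
        rw [e]
        exact hgen3
      have hgen2 : NodesLocGen 𝔫.1
          {algebraMap A₀ ↥(zchClosure (A₀ := A₀) ({u} : Set F)) π, j X} :=
        rtk6hs_locGen_drop 𝔫.1 hd hdb hgen3'
      exact hc (stb_sx_only V hBV hπV hVloc hnle 𝔫 (j X) hX𝔫 hgen2 c c₀ h₁ h₀)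

/-- **HSTAB, abstract form, from the thin datum** on the two charts and (FIX) at the closed
points through which two components pass. -/
theorem rtk6hs_stab_thin_abs (hπ : Irreducible π) {t : F} (ht : Transcendental E t)
    [FiniteDimensional E⟮t⟯ F]
    (hcl : ∀ x : F, IsAlgebraic E x → x ∈ (algebraMap E F).range)
    [Finite κ]
    [IsNoetherianRing ↥(zchClosure (A₀ := A₀) ({t} : Set F))]
    [IsNoetherianRing ↥(zchClosure (A₀ := A₀) ({t⁻¹} : Set F))]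
    (V : κ → ValuationSubring F) (hinj : Function.Injective V)
    (hBV₁ : ∀ c (b : F), IsIntegral ↥(Algebra.adjoin A₀ {t}) b → b ∈ V c)
    (hBV₂ : ∀ c (b : F), IsIntegral ↥(Algebra.adjoin A₀ {t⁻¹}) b → b ∈ V c)
    (hπV : ∀ c, algebraMap A₀ F π ∈ (V c).nonunits)
    (hSS1 : ∀ b : F, IsIntegral ↥(Algebra.adjoin A₀ {t}) b → (∀ c, b ∈ (V c).nonunits) →
      ∃ b' : F, IsIntegral ↥(Algebra.adjoin A₀ {t}) b' ∧ b = algebraMap A₀ F π * b')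
    (harch : ∀ c (a x : F), a ∈ (V c).nonunits → ∃ N : ℕ, a ^ N * x ∈ (V c).nonunits)
    (hVloc₁ : ∀ c (x : F), x ∈ V c → ∃ b s : F, IsIntegral ↥(Algebra.adjoin A₀ {t}) b ∧
      IsIntegral ↥(Algebra.adjoin A₀ {t}) s ∧ s ∉ (V c).nonunits ∧ s * x = b)
    (hVloc₂ : ∀ c (x : F), x ∈ V c → ∃ b s : F, IsIntegral ↥(Algebra.adjoin A₀ {t⁻¹}) b ∧
      IsIntegral ↥(Algebra.adjoin A₀ {t⁻¹}) s ∧ s ∉ (V c).nonunits ∧ s * x = b)
    (D : Set (F →+* F)) (δ : F →+* F) (hδ : δ ∈ D)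
    (hδB₁ : ∀ b : F, IsIntegral ↥(Algebra.adjoin A₀ {t}) b →
      IsIntegral ↥(Algebra.adjoin A₀ {t}) (δ b))
    (hδB₂ : ∀ b : F, IsIntegral ↥(Algebra.adjoin A₀ {t⁻¹}) b →
      IsIntegral ↥(Algebra.adjoin A₀ {t⁻¹}) (δ b))
    (c₀ c₁ : κ) (hne : c₁ ≠ c₀) (hperm : ∃ c', V c' = (V c₀).comap δ)
    {R₁ : Type*} [CommRing R₁] (j₁ : R₁ →+* ↥(zchClosure (A₀ := A₀) ({t} : Set F))) (p₁ : R₁)
    (hram₁ : MgcRamified j₁ (algebraMap A₀ ↥(zchClosure (A₀ := A₀) ({t} : Set F)) π) p₁)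
    (hjp₁ : j₁ p₁ ≠ 0)
    {R₂ : Type*} [CommRing R₂] (j₂ : R₂ →+* ↥(zchClosure (A₀ := A₀) ({t⁻¹} : Set F))) (p₂ : R₂)
    (hram₂ : MgcRamified j₂ (algebraMap A₀ ↥(zchClosure (A₀ := A₀) ({t⁻¹} : Set F)) π) p₂)
    (hjp₂ : j₂ p₂ ≠ 0)
    (hthin₁ : ∀ 𝔫 : AtPt (F := F) π t, Rtk6hsThinAt D 𝔫 j₁ p₁)
    (hthin₂ : ∀ 𝔫 : AtPt (F := F) π t⁻¹, Rtk6hsThinAt D 𝔫 j₂ p₂)
    (hfix₁ : ∀ (𝔫 : AtPt (F := F) π t) (c c' : κ), c ≠ c' → atThrough 𝔫 (V c) →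
      atThrough 𝔫 (V c') → Rtk6ewCong δ 1 𝔫)
    (hfix₂ : ∀ (𝔫 : AtPt (F := F) π t⁻¹) (c c' : κ), c ≠ c' → atThrough 𝔫 (V c) →
      atThrough 𝔫 (V c') → Rtk6ewCong δ 1 𝔫) :
    (V c₀).comap δ = V c₀ := by
  have hπ0 : algebraMap A₀ F π ≠ 0 :=
    (map_ne_zero_iff _ (zch_algebraMap_injective (A₀ := A₀) (E := E) (L := F))).mpr hπ.ne_zero
  refine rtk6hs_stab_sem_abs hπ ht hcl V hinj hBV₁ hBV₂ hπV hSS1 harch hVloc₁ δ hδB₁ hδB₂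
    c₀ c₁ hne hperm ?_ ?_
  · intro 𝔫 c hc h₀ h₁
    exact ⟨rtk6hs_fix_of_ewCong δ 𝔫 (hfix₁ 𝔫 c c₀ hc h₁ h₀),
      rtk6hs_sem_of_thin hπ0 V hinj hBV₁ hπV hSS1 harch hVloc₁ D δ hδ j₁ p₁ hram₁ hjp₁ 𝔫
        (hthin₁ 𝔫) c₀ c hc h₀ h₁⟩
  · intro 𝔫 c hc h₀ h₁
    exact ⟨rtk6hs_fix_of_ewCong δ 𝔫 (hfix₂ 𝔫 c c₀ hc h₁ h₀),
      rtk6hs_sem_of_thin hπ0 V hinj hBV₂ hπV (ats_SS1_inv ht hπ V hBV₁ hSS1) harch hVloc₂ D δ
        hδ j₂ p₂ hram₂ hjp₂ 𝔫 (hthin₂ 𝔫) c₀ c hc h₀ h₁⟩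

end Abs

end Fermat.Agent.RT.K6


end ZBRT_099_1

/-! ### bundled: `Fermat.Agent.RT.K6.HStab` -/
section ZBRT_099_2
/-
K-machine, piece K6, piece **HSTAB** (helper11): `Rtk6m4Stab` (`RT/K6/M4Inst.lean`), i.e.
every diamond AT `q` maps `V_∞` into `V_∞`, from the dichotomy with C4+.

Setting of `RT/K6/M4Inst.lean`, `RT/K6/EMain.lean`: `A′ = mgcA A K₁` a DVR, `π` a uniformizer,
`F′ = rtk6diF A K₁ (M₁ q) M H`, `t = rtk6diT`, the family `κ = rtk6dfK`, `V = rtk6dfV` of all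
conjugates of `V_∞`, `V_0`.  NO thinness and NO base change: the crossing datum is the one of
`Rtk6ewmNodeAt` (M6), on ANY chart `R` with `MgcRamified j π p`.

* `Rtk6hsChartAt π q₀ V δ u` : the chart `u` with the dichotomy with C4+ for `δ`
  (`Rtk6hsNodeAt`, `RT/K6/HStabAbs.lean`) at every closed point; it contains `Rtk6emChartAt`
  (`Rtk6hsChartAt.chartAt`);
* `Rtk6hsPlus π V δ`         : the two charts;
* `Rtk6hsSemAt π V c₀ δ u`   : the SEMANTIC form of C4+ on the chart `u`;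
* `rtk6hs_comap_eq`          : `δ⁻¹ V_∞ = V_∞` for ONE `δ ∈ Γ`;
* **`rtk6hs_stab`**          : `Rtk6m4Stab hπ M H w` from `Rtk6emFam`, `Rtk6emSS1`, `V_∞ ≠ V_0` and
                               `Rtk6hsPlus` for every diamond at `q`;
* **`rtk6hs_stab_sem`**      : the same from the semantic form;
* `rtk6hs_stab_of_wIncl`     : with `V_∞ ≠ V_0` discharged by `rtk6dv_hne`.
-/

set_option autoImplicit false
set_option linter.style.haveILetI false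
set_option linter.unusedSectionVars false
set_option linter.unusedVariables false

noncomputable section

namespace Fermat.Agent.RT.K6

open ModularCurve AlgebraicCurve Fermat.Agent.ES Fermat.Agent.ES.G2 Fermat.Agent.INJ
open Fermat.Agent.UNIP Fermat.Agent.STB Fermat.Agent.ES1 Fermat.Agent.ES1.G2 IntermediateField

/-! ### The inputs -/

section Inputs

variable (A : ValuationSubring Qb) (K₁ : IntermediateField ℚ Qb)
  (L M : ℕ) (H : Subgroup (ZMod M)ˣ) [IsDiscreteValuationRing ↥(mgcA A K₁)]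

/-- **C4+ on the chart `zchClosure {u}`** for the endomorphism `δ`: a chart `R`
(`j : R →+* B′_u`, `MgcRamified j π p`, `j p = q₀`) on which every closed point of the special
fibre is a smooth point or a crossing point of two components of the family with (EIGEN) and
(FIX) for `δ`. -/
def Rtk6hsChartAt (π q₀ : ↥(mgcA A K₁)) {κ : Type}
    (V : κ → ValuationSubring ↥(rtk6diF A K₁ L M H))
    (δ : ↥(rtk6diF A K₁ L M H) →+* ↥(rtk6diF A K₁ L M H)) (u : ↥(rtk6diF A K₁ L M H)) : Prop :=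
  ∃ (R : Type) (_ : CommRing R)
    (j : R →+* ↥(zchClosure (A₀ := ↥(mgcA A K₁)) ({u} : Set ↥(rtk6diF A K₁ L M H)))) (p : R),
    MgcRamified j (algebraMap ↥(mgcA A K₁) ↥(zchClosure (A₀ := ↥(mgcA A K₁))
      ({u} : Set ↥(rtk6diF A K₁ L M H))) π) p ∧
    j p = algebraMap ↥(mgcA A K₁) ↥(zchClosure (A₀ := ↥(mgcA A K₁))
      ({u} : Set ↥(rtk6diF A K₁ L M H))) q₀ ∧
    ∀ 𝔫 : AtPt (F := ↥(rtk6diF A K₁ L M H)) π u, Rtk6hsNodeAt V δ 𝔫 j p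

/-- **C4+ for `δ`** on the two charts. -/
def Rtk6hsPlus (π : ↥(mgcA A K₁)) {κ : Type}
    (V : κ → ValuationSubring ↥(rtk6diF A K₁ L M H))
    (δ : ↥(rtk6diF A K₁ L M H) →+* ↥(rtk6diF A K₁ L M H)) : Prop :=
  ∃ q₀ : ↥(mgcA A K₁), q₀ ≠ 0 ∧
    Rtk6hsChartAt A K₁ L M H π q₀ V δ (rtk6diT A K₁ L M H) ∧
    Rtk6hsChartAt A K₁ L M H π q₀ V δ (rtk6diT A K₁ L M H)⁻¹

/-- **The semantic form of C4+** on the chart `u`, at the component `c₀`: at every closed point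
through which `V c₀` and another component pass, `δ⁻¹ 𝔫 ⊆ 𝔫` and there is `X` with
`δ X ∈ 𝔪(V c₀)` which lies in no `𝔪(V c′)`, `c′ ≠ c₀` through `𝔫`. -/
def Rtk6hsSemAt (π : ↥(mgcA A K₁)) {κ : Type}
    (V : κ → ValuationSubring ↥(rtk6diF A K₁ L M H)) (c₀ : κ)
    (δ : ↥(rtk6diF A K₁ L M H) →+* ↥(rtk6diF A K₁ L M H)) (u : ↥(rtk6diF A K₁ L M H)) : Prop :=
  ∀ (𝔫 : AtPt (F := ↥(rtk6diF A K₁ L M H)) π u) (c : κ), c ≠ c₀ → atThrough 𝔫 (V c₀) →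
    atThrough 𝔫 (V c) →
    (∀ b b' : ↥(zchClosure (A₀ := ↥(mgcA A K₁)) ({u} : Set ↥(rtk6diF A K₁ L M H))),
      δ (b : ↥(rtk6diF A K₁ L M H)) = (b' : ↥(rtk6diF A K₁ L M H)) → b' ∈ 𝔫.1 → b ∈ 𝔫.1) ∧
    ∃ X : ↥(rtk6diF A K₁ L M H), δ X ∈ (V c₀).nonunits ∧
      ∀ c', c' ≠ c₀ → atThrough 𝔫 (V c') → X ∉ (V c').nonunits

variable {A K₁ L M H}

/-- C4+ on a chart contains (D-BC) + (C4) on the chart -/
theorem Rtk6hsChartAt.chartAt {π q₀ : ↥(mgcA A K₁)} {κ : Type}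
    {V : κ → ValuationSubring ↥(rtk6diF A K₁ L M H)}
    {δ : ↥(rtk6diF A K₁ L M H) →+* ↥(rtk6diF A K₁ L M H)} {u : ↥(rtk6diF A K₁ L M H)}
    (h : Rtk6hsChartAt A K₁ L M H π q₀ V δ u) : Rtk6emChartAt A K₁ L M H π q₀ V u := by
  obtain ⟨R, _, j, p, hram, hjp, hnode⟩ := h
  exact ⟨R, _, j, p, hram, hjp, fun 𝔫 => (hnode 𝔫).nodeAt⟩

end Inputs

/-! ### The theorem -/

section Main

variable {A : ValuationSubring Qb} {K₁ : IntermediateField ℚ Qb}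
  [IsDiscreteValuationRing ↥(mgcA A K₁)] {π : ↥(mgcA A K₁)} (hπ : Irreducible π)
  {q M₁ : ℕ} [NeZero q] [NeZero M₁] [NeZero (M₁ * q)]
  {M : ℕ} {H : Subgroup (ZMod M)ˣ}
  {w : ↥(rtk6diF A K₁ (M₁ * q) M H) ≃ₐ[↥(mgcE A K₁)] ↥(rtk6diF A K₁ (M₁ * q) M H)}

/-- an element of `Γ` maps the chart `zchClosure {t}` into itself -/
theorem rtk6hs_gam_isIntegral
    {γ : ↥(rtk6diF A K₁ (M₁ * q) M H) ≃ₐ[↥(mgcE A K₁)] ↥(rtk6diF A K₁ (M₁ * q) M H)}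
    (hγ : γ ∈ rtk6dfGam ↥(mgcE A K₁) (M₁ * q) M H) {b : ↥(rtk6diF A K₁ (M₁ * q) M H)}
    (hb : IsIntegral ↥(Algebra.adjoin ↥(mgcA A K₁) {rtk6diT A K₁ (M₁ * q) M H}) b) :
    IsIntegral ↥(Algebra.adjoin ↥(mgcA A K₁) {rtk6diT A K₁ (M₁ * q) M H})
      (γ.toRingEquiv.toRingHom b) := by
  have h := stb_mt_isIntegral_smul (A₀ := ↥(mgcA A K₁)) (SemilinearAut.ofAlgAut γ)
    (u := rtk6diT A K₁ (M₁ * q) M H) (hγ _) (rtk6em_hΦA (M₁ * q) M H γ) hb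
  exact h

/-- an element of `Γ` maps the chart `zchClosure {t⁻¹}` into itself -/
theorem rtk6hs_gam_isIntegral_inv
    {γ : ↥(rtk6diF A K₁ (M₁ * q) M H) ≃ₐ[↥(mgcE A K₁)] ↥(rtk6diF A K₁ (M₁ * q) M H)}
    (hγ : γ ∈ rtk6dfGam ↥(mgcE A K₁) (M₁ * q) M H) {b : ↥(rtk6diF A K₁ (M₁ * q) M H)}
    (hb : IsIntegral ↥(Algebra.adjoin ↥(mgcA A K₁) {(rtk6diT A K₁ (M₁ * q) M H)⁻¹}) b) :
    IsIntegral ↥(Algebra.adjoin ↥(mgcA A K₁) {(rtk6diT A K₁ (M₁ * q) M H)⁻¹})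
      (γ.toRingEquiv.toRingHom b) := by
  have hγt : SemilinearAut.ofAlgAut γ • rtk6diT A K₁ (M₁ * q) M H =
      rtk6diT A K₁ (M₁ * q) M H := hγ _
  have h := stb_mt_isIntegral_smul (A₀ := ↥(mgcA A K₁)) (SemilinearAut.ofAlgAut γ)
    (u := (rtk6diT A K₁ (M₁ * q) M H)⁻¹) (at_smul_inv hγt) (rtk6em_hΦA (M₁ * q) M H γ) hb
  exact h

/-- `V_0 ≠ V_∞` as components -/
theorem rtk6hs_zero_ne_inf (hne : rtk6dvV hπ M H w true ≠ rtk6dvV hπ M H w false) :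
    rtk6dfZero hπ M H w ≠ rtk6dfInf hπ M H w := fun h =>
  hne (by rw [← rtk6dfV_inf, ← rtk6dfV_zero, h])

set_option maxHeartbeats 1600000 in
/-- **`δ⁻¹ V_∞ = V_∞` for ONE `δ ∈ Γ`**, from the dichotomy with C4+ for `δ`. -/
theorem rtk6hs_comap_eq (hML : M ∣ M₁ * q)
    (fam : Rtk6emFam A K₁ (M₁ * q) M H π (rtk6dfV hπ M H w))
    (ss1 : Rtk6emSS1 A K₁ (M₁ * q) M H π (rtk6dfV hπ M H w))
    (hne : rtk6dvV hπ M H w true ≠ rtk6dvV hπ M H w false)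
    {δ : ↥(rtk6diF A K₁ (M₁ * q) M H) ≃ₐ[↥(mgcE A K₁)] ↥(rtk6diF A K₁ (M₁ * q) M H)}
    (hδ : δ ∈ rtk6dfGam ↥(mgcE A K₁) (M₁ * q) M H)
    (hplus : Rtk6hsPlus A K₁ (M₁ * q) M H π (rtk6dfV hπ M H w) δ.toRingEquiv.toRingHom) :
    (rtk6dvV hπ M H w true).comap δ.toRingEquiv.toRingHom = rtk6dvV hπ M H w true := by
  haveI := rtk6di_finiteDimensional A K₁ (M₁ * q) M H (NeZero.ne (M₁ * q)) hML
  haveI : Finite (rtk6dfK hπ M H w) := fam.hfin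
  have ht := rtk6di_transcendental A K₁ (M₁ * q) M H
  have ht' : Transcendental ↥(mgcE A K₁) (rtk6diT A K₁ (M₁ * q) M H)⁻¹ :=
    zch_transcendental_inv ht
  haveI : FiniteDimensional (↥(mgcE A K₁))⟮(rtk6diT A K₁ (M₁ * q) M H)⁻¹⟯
      ↥(rtk6diF A K₁ (M₁ * q) M H) :=
    at_finiteDimensional_inv (rtk6diT A K₁ (M₁ * q) M H)
  haveI : IsNoetherianRing ↥(zchClosure (A₀ := ↥(mgcA A K₁))
      ({rtk6diT A K₁ (M₁ * q) M H} : Set ↥(rtk6diF A K₁ (M₁ * q) M H))) :=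
    chart_closure_isNoetherianRing (A₀ := ↥(mgcA A K₁)) (E := ↥(mgcE A K₁)) ht
  haveI : IsNoetherianRing ↥(zchClosure (A₀ := ↥(mgcA A K₁))
      ({(rtk6diT A K₁ (M₁ * q) M H)⁻¹} : Set ↥(rtk6diF A K₁ (M₁ * q) M H))) :=
    chart_closure_isNoetherianRing (A₀ := ↥(mgcA A K₁)) (E := ↥(mgcE A K₁)) ht'
  obtain ⟨q₀, hq0, ⟨R₁, _, j₁, p₁, hram₁, hjp₁, hnode₁⟩,
    ⟨R₂, _, j₂, p₂, hram₂, hjp₂, hnode₂⟩⟩ := hplus
  exact rtk6hs_stab_abs hπ ht (rtk6di_hcl A K₁ (M₁ * q) M H) (rtk6dfV hπ M H w)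
    fam.hinj fam.hBV₁ fam.hBV₂ fam.hπV ss1 fam.harch fam.hVloc₁ fam.hVloc₂
    δ.toRingEquiv.toRingHom (fun b hb => rtk6hs_gam_isIntegral hδ hb)
    (fun b hb => rtk6hs_gam_isIntegral_inv hδ hb)
    (rtk6dfInf hπ M H w) (rtk6dfZero hπ M H w) (rtk6hs_zero_ne_inf hπ hne)
    ⟨rtk6dfComap (rtk6dvV hπ M H w) δ hδ (rtk6dfInf hπ M H w), rfl⟩
    j₁ p₁ hram₁ (rtk6ewm_jp_ne_zero (E := ↥(mgcE A K₁)) hπ q₀ hq0 j₁ p₁ hjp₁)
    j₂ p₂ hram₂ (rtk6ewm_jp_ne_zero (E := ↥(mgcE A K₁)) hπ q₀ hq0 j₂ p₂ hjp₂)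
    hnode₁ hnode₂

set_option maxHeartbeats 1600000 in
/-- **`δ⁻¹ V_∞ = V_∞` for ONE `δ ∈ Γ`**, from the semantic form of C4+ for `δ`. -/
theorem rtk6hs_comap_eq_sem (hML : M ∣ M₁ * q)
    (fam : Rtk6emFam A K₁ (M₁ * q) M H π (rtk6dfV hπ M H w))
    (ss1 : Rtk6emSS1 A K₁ (M₁ * q) M H π (rtk6dfV hπ M H w))
    (hne : rtk6dvV hπ M H w true ≠ rtk6dvV hπ M H w false)
    {δ : ↥(rtk6diF A K₁ (M₁ * q) M H) ≃ₐ[↥(mgcE A K₁)] ↥(rtk6diF A K₁ (M₁ * q) M H)}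
    (hδ : δ ∈ rtk6dfGam ↥(mgcE A K₁) (M₁ * q) M H)
    (h₁ : Rtk6hsSemAt A K₁ (M₁ * q) M H π (rtk6dfV hπ M H w) (rtk6dfInf hπ M H w)
      δ.toRingEquiv.toRingHom (rtk6diT A K₁ (M₁ * q) M H))
    (h₂ : Rtk6hsSemAt A K₁ (M₁ * q) M H π (rtk6dfV hπ M H w) (rtk6dfInf hπ M H w)
      δ.toRingEquiv.toRingHom (rtk6diT A K₁ (M₁ * q) M H)⁻¹) :
    (rtk6dvV hπ M H w true).comap δ.toRingEquiv.toRingHom = rtk6dvV hπ M H w true := by
  haveI := rtk6di_finiteDimensional A K₁ (M₁ * q) M H (NeZero.ne (M₁ * q)) hML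
  haveI : Finite (rtk6dfK hπ M H w) := fam.hfin
  have ht := rtk6di_transcendental A K₁ (M₁ * q) M H
  exact rtk6hs_stab_sem_abs hπ ht (rtk6di_hcl A K₁ (M₁ * q) M H) (rtk6dfV hπ M H w)
    fam.hinj fam.hBV₁ fam.hBV₂ fam.hπV ss1 fam.harch fam.hVloc₁
    δ.toRingEquiv.toRingHom (fun b hb => rtk6hs_gam_isIntegral hδ hb)
    (fun b hb => rtk6hs_gam_isIntegral_inv hδ hb)
    (rtk6dfInf hπ M H w) (rtk6dfZero hπ M H w) (rtk6hs_zero_ne_inf hπ hne)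
    ⟨rtk6dfComap (rtk6dvV hπ M H w) δ hδ (rtk6dfInf hπ M H w), rfl⟩ h₁ h₂

/-- **HSTAB.**  `Rtk6m4Stab`: every diamond at `q` maps `V_∞` into `V_∞`, from (M1), (SS1-inst),
`V_∞ ≠ V_0` and the dichotomy with C4+ for every diamond at `q`. -/
theorem rtk6hs_stab (hML : M ∣ M₁ * q)
    (fam : Rtk6emFam A K₁ (M₁ * q) M H π (rtk6dfV hπ M H w))
    (ss1 : Rtk6emSS1 A K₁ (M₁ * q) M H π (rtk6dfV hπ M H w))
    (hne : rtk6dvV hπ M H w true ≠ rtk6dvV hπ M H w false)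
    (hplus : ∀ c : (ZMod M)ˣ, IsAtR M q c →
      ∀ δ : ↥(rtk6diF A K₁ (M₁ * q) M H) ≃ₐ[↥(mgcE A K₁)] ↥(rtk6diF A K₁ (M₁ * q) M H),
        IsDiamondC ↥(mgcE A K₁) (M₁ * q) M H c δ →
        Rtk6hsPlus A K₁ (M₁ * q) M H π (rtk6dfV hπ M H w) δ.toRingEquiv.toRingHom) :
    Rtk6m4Stab hπ M H w := by
  intro c hc δ hδ x hx
  have key := rtk6hs_comap_eq hπ hML fam ss1 hne hδ.mem_gam (hplus c hc δ hδ)
  have hx' : x ∈ (rtk6dvV hπ M H w true).comap δ.toRingEquiv.toRingHom := by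
    rw [key]
    exact hx
  exact hx'

/-- **HSTAB, semantic form.** -/
theorem rtk6hs_stab_sem (hML : M ∣ M₁ * q)
    (fam : Rtk6emFam A K₁ (M₁ * q) M H π (rtk6dfV hπ M H w))
    (ss1 : Rtk6emSS1 A K₁ (M₁ * q) M H π (rtk6dfV hπ M H w))
    (hne : rtk6dvV hπ M H w true ≠ rtk6dvV hπ M H w false)
    (hsem : ∀ c : (ZMod M)ˣ, IsAtR M q c →
      ∀ δ : ↥(rtk6diF A K₁ (M₁ * q) M H) ≃ₐ[↥(mgcE A K₁)] ↥(rtk6diF A K₁ (M₁ * q) M H),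
        IsDiamondC ↥(mgcE A K₁) (M₁ * q) M H c δ →
        Rtk6hsSemAt A K₁ (M₁ * q) M H π (rtk6dfV hπ M H w) (rtk6dfInf hπ M H w)
          δ.toRingEquiv.toRingHom (rtk6diT A K₁ (M₁ * q) M H) ∧
        Rtk6hsSemAt A K₁ (M₁ * q) M H π (rtk6dfV hπ M H w) (rtk6dfInf hπ M H w)
          δ.toRingEquiv.toRingHom (rtk6diT A K₁ (M₁ * q) M H)⁻¹) :
    Rtk6m4Stab hπ M H w := by
  intro c hc δ hδ x hx
  obtain ⟨h₁, h₂⟩ := hsem c hc δ hδ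
  have key := rtk6hs_comap_eq_sem hπ hML fam ss1 hne hδ.mem_gam h₁ h₂
  have hx' : x ∈ (rtk6dvV hπ M H w true).comap δ.toRingEquiv.toRingHom := by
    rw [key]
    exact hx
  exact hx'

end Main

/-! ### `V_∞ ≠ V_0` discharged -/

section WIncl

variable {A : ValuationSubring Qb} {K₁ : IntermediateField ℚ Qb}
  [IsDiscreteValuationRing ↥(mgcA A K₁)] {π : ↥(mgcA A K₁)} (hπ : Irreducible π)
  (ιC : ↥(mgcE A K₁) →+* ℂ) {q M₁ : ℕ} [NeZero q] [NeZero M₁] [NeZero (M₁ * q)]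
  (hq : q.Prime) (hqM : ¬ q ∣ M₁) {M : ℕ} {H : Subgroup (ZMod M)ˣ}
  {w : ↥(rtk6diF A K₁ (M₁ * q) M H) ≃ₐ[↥(mgcE A K₁)] ↥(rtk6diF A K₁ (M₁ * q) M H)}

/-- **HSTAB** with `V_∞ ≠ V_0` from `rtk6dv_hne`. -/
theorem rtk6hs_stab_of_wIncl (hw : Rtk6dvWIncl ιC hq hqM M H w) (hA : A.LiesOverPrime q)
    (hML : M ∣ M₁ * q)
    (fam : Rtk6emFam A K₁ (M₁ * q) M H π (rtk6dfV hπ M H w))
    (ss1 : Rtk6emSS1 A K₁ (M₁ * q) M H π (rtk6dfV hπ M H w))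
    (hplus : ∀ c : (ZMod M)ˣ, IsAtR M q c →
      ∀ δ : ↥(rtk6diF A K₁ (M₁ * q) M H) ≃ₐ[↥(mgcE A K₁)] ↥(rtk6diF A K₁ (M₁ * q) M H),
        IsDiamondC ↥(mgcE A K₁) (M₁ * q) M H c δ →
        Rtk6hsPlus A K₁ (M₁ * q) M H π (rtk6dfV hπ M H w) δ.toRingEquiv.toRingHom) :
    Rtk6m4Stab hπ M H w :=
  rtk6hs_stab hπ hML fam ss1 (rtk6dv_hne hπ ιC hq hqM M H w hw hA) hplus

end WIncl

end Fermat.Agent.RT.K6

end
end ZBRT_099_2

/-! ### bundled: `Fermat.Agent.RT.K6.HStabThin` -/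
section ZBRT_099_3
/-
K-machine, piece K6, piece **HSTAB-inst** (helper11): the provider `hStab` of the glue
`rtk6ei_geomChi_of_pieces` (`RT/K6/EInstGlue.lean`), i.e. `Rtk6m4Stab hπ M H w′`, from

* the THIN datum with (EIGEN) for the diamonds at `q` on the two charts of `F′`
  (`Rtk6hsThin`): a chart `(R, j, p)` with `MgcRamified j π p` (D-BC) on which every closed point
  is a smooth point or a thin crossing point `w p = X Y` with `δ (j X) = a (j X)`,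
  `δ (j Y) = b (j Y)` — NO components are named (no FAM-res, no C4-THR at the level of `F′`);
* (SS1-inst) and (FIX-X) (`Rtk6emCongAt` for the diamonds at `q`) — the SAME providers as in the
  glue.

* `rtk6hsDiam`          : the set of the diamonds at `q`, as ring endomorphisms of `F′`;
* `Rtk6hsThinChart`, `Rtk6hsThin` : the thin datum on a chart / on the two charts;
* `rtk6hs_comap_eq_thin` : `δ⁻¹ V_∞ = V_∞` for ONE `δ ∈ Γ`;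
* **`rtk6hs_stab_thin`** : `Rtk6m4Stab hπ M H w`;
* `rtk6hs_stab_thin_W`  : the instance `w = rtk6diwW`, (M1) and `V_∞ ≠ V_0` discharged;
* **`rtk6hs_hStab_of_pieces`**  : the provider `hStab` in the shape of the glue;
* **`rtk6hs_geomChi_of_pieces`** : `StmtRtk6GeomChi` from (THIN), (SS1-inst), (C4), (FIX-X).
-/

set_option autoImplicit false
set_option linter.style.haveILetI false
set_option linter.unusedSectionVars false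
set_option linter.unusedVariables false

noncomputable section

namespace Fermat.Agent.RT.K6

open ModularCurve AlgebraicCurve Fermat.Agent.ES Fermat.Agent.ES.G2 Fermat.Agent.INJ
open Fermat.Agent.UNIP Fermat.Agent.STB Fermat.Agent.ES1 Fermat.Agent.ES1.G2 IntermediateField

/-! ### The inputs -/

section Inputs

variable (A : ValuationSubring Qb) (K₁ : IntermediateField ℚ Qb)
  (L M : ℕ) (H : Subgroup (ZMod M)ˣ) [IsDiscreteValuationRing ↥(mgcA A K₁)]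

/-- the diamonds at `r`, as ring endomorphisms of `F′` -/
def rtk6hsDiam (r : ℕ) : Set (↥(rtk6diF A K₁ L M H) →+* ↥(rtk6diF A K₁ L M H)) :=
  {φ | ∃ (c : (ZMod M)ˣ)
    (δ : ↥(rtk6diF A K₁ L M H) ≃ₐ[↥(mgcE A K₁)] ↥(rtk6diF A K₁ L M H)),
    IsAtR M r c ∧ IsDiamondC ↥(mgcE A K₁) L M H c δ ∧ φ = δ.toRingEquiv.toRingHom}

/-- **The thin datum with (EIGEN) on the chart `zchClosure {u}`** for the endomorphisms in `D`:
a chart `R` (`j : R →+* B′_u`, `MgcRamified j π p`, `j p = q₀`) on which every closed point of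
the special fibre is a smooth point or a thin crossing point with (EIGEN)
(`Rtk6hsThinAt`, `RT/K6/HStabThinAbs.lean`). -/
def Rtk6hsThinChart (π q₀ : ↥(mgcA A K₁))
    (D : Set (↥(rtk6diF A K₁ L M H) →+* ↥(rtk6diF A K₁ L M H)))
    (u : ↥(rtk6diF A K₁ L M H)) : Prop :=
  ∃ (R : Type) (_ : CommRing R)
    (j : R →+* ↥(zchClosure (A₀ := ↥(mgcA A K₁)) ({u} : Set ↥(rtk6diF A K₁ L M H)))) (p : R),
    MgcRamified j (algebraMap ↥(mgcA A K₁) ↥(zchClosure (A₀ := ↥(mgcA A K₁))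
      ({u} : Set ↥(rtk6diF A K₁ L M H))) π) p ∧
    j p = algebraMap ↥(mgcA A K₁) ↥(zchClosure (A₀ := ↥(mgcA A K₁))
      ({u} : Set ↥(rtk6diF A K₁ L M H))) q₀ ∧
    ∀ 𝔫 : AtPt (F := ↥(rtk6diF A K₁ L M H)) π u, Rtk6hsThinAt D 𝔫 j p

/-- **The thin datum with (EIGEN)** on the two charts. -/
def Rtk6hsThin (π : ↥(mgcA A K₁))
    (D : Set (↥(rtk6diF A K₁ L M H) →+* ↥(rtk6diF A K₁ L M H))) : Prop :=
  ∃ q₀ : ↥(mgcA A K₁), q₀ ≠ 0 ∧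
    Rtk6hsThinChart A K₁ L M H π q₀ D (rtk6diT A K₁ L M H) ∧
    Rtk6hsThinChart A K₁ L M H π q₀ D (rtk6diT A K₁ L M H)⁻¹

variable {A K₁ L M H}

/-- the thin datum on a chart from the dichotomy (M3) whose crossing data satisfy (EIGEN) -/
theorem rtk6hs_thinChart_of_node {π q₀ : ↥(mgcA A K₁)} {κ : Type}
    {V : κ → ValuationSubring ↥(rtk6diF A K₁ L M H)}
    {D : Set (↥(rtk6diF A K₁ L M H) →+* ↥(rtk6diF A K₁ L M H))} {u : ↥(rtk6diF A K₁ L M H)}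
    {R : Type} [CommRing R]
    (j : R →+* ↥(zchClosure (A₀ := ↥(mgcA A K₁)) ({u} : Set ↥(rtk6diF A K₁ L M H)))) (p : R)
    (hram : MgcRamified j (algebraMap ↥(mgcA A K₁) ↥(zchClosure (A₀ := ↥(mgcA A K₁))
      ({u} : Set ↥(rtk6diF A K₁ L M H))) π) p)
    (hjp : j p = algebraMap ↥(mgcA A K₁) ↥(zchClosure (A₀ := ↥(mgcA A K₁))
      ({u} : Set ↥(rtk6diF A K₁ L M H))) q₀)
    (hnode : ∀ 𝔫 : AtPt (F := ↥(rtk6diF A K₁ L M H)) π u,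
      (∃ s : R, j s ∈ 𝔫.1 ∧ NodesLocGen (𝔫.1.comap j) {p, s}) ∨
      ∃ (c₁ c₂ : κ) (X Y w : R), Rtk6ewmCrossAt (V c₁) (V c₂) 𝔫 j p X Y w ∧
        ∀ δ ∈ D,
          (∃ a : ↥(zchClosure (A₀ := ↥(mgcA A K₁)) ({u} : Set ↥(rtk6diF A K₁ L M H))),
            δ ((j X : ↥(zchClosure (A₀ := ↥(mgcA A K₁))
              ({u} : Set ↥(rtk6diF A K₁ L M H)))) : ↥(rtk6diF A K₁ L M H)) =
              (a : ↥(rtk6diF A K₁ L M H)) * ((j X : ↥(zchClosure (A₀ := ↥(mgcA A K₁))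
                ({u} : Set ↥(rtk6diF A K₁ L M H)))) : ↥(rtk6diF A K₁ L M H))) ∧
          (∃ b : ↥(zchClosure (A₀ := ↥(mgcA A K₁)) ({u} : Set ↥(rtk6diF A K₁ L M H))),
            δ ((j Y : ↥(zchClosure (A₀ := ↥(mgcA A K₁))
              ({u} : Set ↥(rtk6diF A K₁ L M H)))) : ↥(rtk6diF A K₁ L M H)) =
              (b : ↥(rtk6diF A K₁ L M H)) * ((j Y : ↥(zchClosure (A₀ := ↥(mgcA A K₁))
                ({u} : Set ↥(rtk6diF A K₁ L M H)))) : ↥(rtk6diF A K₁ L M H)))) :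
    Rtk6hsThinChart A K₁ L M H π q₀ D u ∧ Rtk6emChartAt A K₁ L M H π q₀ V u := by
  refine ⟨⟨R, _, j, p, hram, hjp, fun 𝔫 => ?_⟩, ⟨R, _, j, p, hram, hjp, fun 𝔫 => ?_⟩⟩
  · rcases hnode 𝔫 with h | ⟨c₁, c₂, X, Y, w, hcr, heig⟩
    · exact Or.inl h
    · exact rtk6hs_thinAt_of_cross D hcr heig
  · rcases hnode 𝔫 with h | ⟨c₁, c₂, X, Y, w, hcr, heig⟩
    · exact Or.inl h
    · exact Or.inr ⟨c₁, c₂, X, Y, w, hcr⟩

end Inputs

/-! ### The theorem -/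

section Main

variable {A : ValuationSubring Qb} {K₁ : IntermediateField ℚ Qb}
  [IsDiscreteValuationRing ↥(mgcA A K₁)] {π : ↥(mgcA A K₁)} (hπ : Irreducible π)
  {q M₁ : ℕ} [NeZero q] [NeZero M₁] [NeZero (M₁ * q)]
  {M : ℕ} {H : Subgroup (ZMod M)ˣ}
  {w : ↥(rtk6diF A K₁ (M₁ * q) M H) ≃ₐ[↥(mgcE A K₁)] ↥(rtk6diF A K₁ (M₁ * q) M H)}

set_option maxHeartbeats 1600000 in
/-- **`δ⁻¹ V_∞ = V_∞` for ONE `δ ∈ Γ`**, from the thin datum with (EIGEN) for `δ` and (FIX-X)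
for `δ`. -/
theorem rtk6hs_comap_eq_thin (hML : M ∣ M₁ * q)
    (fam : Rtk6emFam A K₁ (M₁ * q) M H π (rtk6dfV hπ M H w))
    (ss1 : Rtk6emSS1 A K₁ (M₁ * q) M H π (rtk6dfV hπ M H w))
    (hne : rtk6dvV hπ M H w true ≠ rtk6dvV hπ M H w false)
    {δ : ↥(rtk6diF A K₁ (M₁ * q) M H) ≃ₐ[↥(mgcE A K₁)] ↥(rtk6diF A K₁ (M₁ * q) M H)}
    (hδ : δ ∈ rtk6dfGam ↥(mgcE A K₁) (M₁ * q) M H)
    (D : Set (↥(rtk6diF A K₁ (M₁ * q) M H) →+* ↥(rtk6diF A K₁ (M₁ * q) M H)))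
    (hδD : δ.toRingEquiv.toRingHom ∈ D)
    (hthin : Rtk6hsThin A K₁ (M₁ * q) M H π D)
    (hcong₁ : Rtk6emCongAt A K₁ (M₁ * q) M H π (rtk6dfV hπ M H w)
      (SemilinearAut.ofAlgAut δ) (rtk6diT A K₁ (M₁ * q) M H))
    (hcong₂ : Rtk6emCongAt A K₁ (M₁ * q) M H π (rtk6dfV hπ M H w)
      (SemilinearAut.ofAlgAut δ) (rtk6diT A K₁ (M₁ * q) M H)⁻¹) :
    (rtk6dvV hπ M H w true).comap δ.toRingEquiv.toRingHom = rtk6dvV hπ M H w true := by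
  haveI := rtk6di_finiteDimensional A K₁ (M₁ * q) M H (NeZero.ne (M₁ * q)) hML
  haveI : Finite (rtk6dfK hπ M H w) := fam.hfin
  have ht := rtk6di_transcendental A K₁ (M₁ * q) M H
  have ht' : Transcendental ↥(mgcE A K₁) (rtk6diT A K₁ (M₁ * q) M H)⁻¹ :=
    zch_transcendental_inv ht
  haveI : FiniteDimensional (↥(mgcE A K₁))⟮(rtk6diT A K₁ (M₁ * q) M H)⁻¹⟯
      ↥(rtk6diF A K₁ (M₁ * q) M H) :=
    at_finiteDimensional_inv (rtk6diT A K₁ (M₁ * q) M H)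
  haveI : IsNoetherianRing ↥(zchClosure (A₀ := ↥(mgcA A K₁))
      ({rtk6diT A K₁ (M₁ * q) M H} : Set ↥(rtk6diF A K₁ (M₁ * q) M H))) :=
    chart_closure_isNoetherianRing (A₀ := ↥(mgcA A K₁)) (E := ↥(mgcE A K₁)) ht
  haveI : IsNoetherianRing ↥(zchClosure (A₀ := ↥(mgcA A K₁))
      ({(rtk6diT A K₁ (M₁ * q) M H)⁻¹} : Set ↥(rtk6diF A K₁ (M₁ * q) M H))) :=
    chart_closure_isNoetherianRing (A₀ := ↥(mgcA A K₁)) (E := ↥(mgcE A K₁)) ht'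
  obtain ⟨q₀, hq0, ⟨R₁, _, j₁, p₁, hram₁, hjp₁, hthin₁⟩,
    ⟨R₂, _, j₂, p₂, hram₂, hjp₂, hthin₂⟩⟩ := hthin
  exact rtk6hs_stab_thin_abs hπ ht (rtk6di_hcl A K₁ (M₁ * q) M H) (rtk6dfV hπ M H w)
    fam.hinj fam.hBV₁ fam.hBV₂ fam.hπV ss1 fam.harch fam.hVloc₁ fam.hVloc₂
    D δ.toRingEquiv.toRingHom hδD (fun b hb => rtk6hs_gam_isIntegral hδ hb)
    (fun b hb => rtk6hs_gam_isIntegral_inv hδ hb)
    (rtk6dfInf hπ M H w) (rtk6dfZero hπ M H w) (rtk6hs_zero_ne_inf hπ hne)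
    ⟨rtk6dfComap (rtk6dvV hπ M H w) δ hδ (rtk6dfInf hπ M H w), rfl⟩
    j₁ p₁ hram₁ (rtk6ewm_jp_ne_zero (E := ↥(mgcE A K₁)) hπ q₀ hq0 j₁ p₁ hjp₁)
    j₂ p₂ hram₂ (rtk6ewm_jp_ne_zero (E := ↥(mgcE A K₁)) hπ q₀ hq0 j₂ p₂ hjp₂)
    hthin₁ hthin₂
    (fun 𝔫 c c' hcc' hc hc' b => hcong₁ 𝔫 c c' hcc' hc hc' b)
    (fun 𝔫 c c' hcc' hc hc' b => hcong₂ 𝔫 c c' hcc' hc hc' b)

/-- **HSTAB from the thin datum.**  `Rtk6m4Stab`: every diamond at `q` maps `V_∞` into `V_∞`,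
from (M1), (SS1-inst), `V_∞ ≠ V_0`, the thin datum with (EIGEN) for the diamonds at `q` and
(FIX-X) for the diamonds at `q`. -/
theorem rtk6hs_stab_thin (hML : M ∣ M₁ * q)
    (fam : Rtk6emFam A K₁ (M₁ * q) M H π (rtk6dfV hπ M H w))
    (ss1 : Rtk6emSS1 A K₁ (M₁ * q) M H π (rtk6dfV hπ M H w))
    (hne : rtk6dvV hπ M H w true ≠ rtk6dvV hπ M H w false)
    (hthin : Rtk6hsThin A K₁ (M₁ * q) M H π (rtk6hsDiam A K₁ (M₁ * q) M H q))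
    (hcong : ∀ c : (ZMod M)ˣ, IsAtR M q c →
      ∀ δ : ↥(rtk6diF A K₁ (M₁ * q) M H) ≃ₐ[↥(mgcE A K₁)] ↥(rtk6diF A K₁ (M₁ * q) M H),
        IsDiamondC ↥(mgcE A K₁) (M₁ * q) M H c δ →
        Rtk6emCongAt A K₁ (M₁ * q) M H π (rtk6dfV hπ M H w)
          (SemilinearAut.ofAlgAut δ) (rtk6diT A K₁ (M₁ * q) M H) ∧
        Rtk6emCongAt A K₁ (M₁ * q) M H π (rtk6dfV hπ M H w)
          (SemilinearAut.ofAlgAut δ) (rtk6diT A K₁ (M₁ * q) M H)⁻¹) :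
    Rtk6m4Stab hπ M H w := by
  intro c hc δ hδ x hx
  have key := rtk6hs_comap_eq_thin hπ hML fam ss1 hne hδ.mem_gam
    (rtk6hsDiam A K₁ (M₁ * q) M H q) ⟨c, δ, hc, hδ, rfl⟩ hthin (hcong c hc δ hδ).1
    (hcong c hc δ hδ).2
  have hx' : x ∈ (rtk6dvV hπ M H w true).comap δ.toRingEquiv.toRingHom := by
    rw [key]
    exact hx
  exact hx'

end Main

/-! ### The instance `w = rtk6diwW` -/

section Inst

variable {A : ValuationSubring Qb} {K₁ : IntermediateField ℚ Qb}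
  [IsDiscreteValuationRing ↥(mgcA A K₁)] {π : ↥(mgcA A K₁)} (hπ : Irreducible π)
  {q M₁ : ℕ} [NeZero q] [NeZero M₁] [NeZero (M₁ * q)]
  {M : ℕ} {H : Subgroup (ZMod M)ˣ}
  (w₀ : fieldBar (M₁ * q) M H ≃ₐ[Qb] fieldBar (M₁ * q) M H) (hw₀ : IsWAt (M₁ * q) M H q w₀)
  (hM0 : M ≠ 0) (hq : q.Prime) (hqM' : q ∣ M)
  (hζ : ∀ ζ : Qb, ζ ^ q = 1 → ζ ∈ mgcE A K₁)

/-- **HSTAB at `w = rtk6diwW`** from (SS1-inst), the thin datum with (EIGEN) and (FIX-X). -/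
theorem rtk6hs_stab_thin_W (hqM : ¬ q ∣ M₁) (hA : A.LiesOverPrime q) (hML : M ∣ M₁ * q)
    (ss1 : Rtk6emSS1 A K₁ (M₁ * q) M H π
      (rtk6dfV hπ M H (rtk6diwW (K₀ := mgcE A K₁) w₀ hw₀ hM0 hq hqM' hζ)))
    (hthin : Rtk6hsThin A K₁ (M₁ * q) M H π (rtk6hsDiam A K₁ (M₁ * q) M H q))
    (hcong : ∀ c : (ZMod M)ˣ, IsAtR M q c →
      ∀ δ : ↥(rtk6diF A K₁ (M₁ * q) M H) ≃ₐ[↥(mgcE A K₁)] ↥(rtk6diF A K₁ (M₁ * q) M H),
        IsDiamondC ↥(mgcE A K₁) (M₁ * q) M H c δ →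
        Rtk6emCongAt A K₁ (M₁ * q) M H π
          (rtk6dfV hπ M H (rtk6diwW (K₀ := mgcE A K₁) w₀ hw₀ hM0 hq hqM' hζ))
          (SemilinearAut.ofAlgAut δ) (rtk6diT A K₁ (M₁ * q) M H) ∧
        Rtk6emCongAt A K₁ (M₁ * q) M H π
          (rtk6dfV hπ M H (rtk6diwW (K₀ := mgcE A K₁) w₀ hw₀ hM0 hq hqM' hζ))
          (SemilinearAut.ofAlgAut δ) (rtk6diT A K₁ (M₁ * q) M H)⁻¹) :
    Rtk6m4Stab hπ M H (rtk6diwW (K₀ := mgcE A K₁) w₀ hw₀ hM0 hq hqM' hζ) :=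
  rtk6hs_stab_thin hπ hML
    (rtk6m1_emFam_W hπ (mgdIota (mgcE A K₁)) w₀ hw₀ hM0 hq hqM' hqM hζ hA hML) ss1
    (rtk6dv_hne hπ (mgdIota (mgcE A K₁)) hq hqM M H _
      (rtk6m1_wIncl (mgdIota (mgcE A K₁)) w₀ hw₀ hM0 hq hqM' hqM hζ) hA)
    hthin hcong

end Inst

/-! ### The provider of the glue -/

/-- **The provider `hStab` of `rtk6ei_geomChi_of_pieces`** from (THIN), (SS1-inst), (FIX-X). -/
theorem rtk6hs_hStab_of_pieces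
    (hThin : ∀ (q M₁ : ℕ) [NeZero q] [NeZero M₁] [NeZero (M₁ * q)] (M : ℕ)
      (H : Subgroup (ZMod M)ˣ) (hq : q.Prime) (hqM' : q ∣ M) (hM0 : M ≠ 0), ¬ q ∣ M₁ →
      M ∣ M₁ * q → IsStarStable M q H → IsTameAt (M₁ * q) M q H → 4 ∣ M₁ * q →
      ∀ (A : ValuationSubring Qb), A.LiesOverPrime q →
        Rtk6eiEv q A (fun K₁ _ hζ π hπ =>
          Rtk6hsThin A K₁ (M₁ * q) M H π (rtk6hsDiam A K₁ (M₁ * q) M H q)))
    (hSS1 : ∀ (q M₁ : ℕ) [NeZero q] [NeZero M₁] [NeZero (M₁ * q)] (M : ℕ)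
      (H : Subgroup (ZMod M)ˣ) (hq : q.Prime) (hqM' : q ∣ M) (hM0 : M ≠ 0), ¬ q ∣ M₁ →
      M ∣ M₁ * q → IsStarStable M q H → IsTameAt (M₁ * q) M q H → 4 ∣ M₁ * q →
      ∀ (w₀ : fieldBar (M₁ * q) M H ≃ₐ[Qb] fieldBar (M₁ * q) M H)
        (hw₀ : IsWAt (M₁ * q) M H q w₀) (A : ValuationSubring Qb), A.LiesOverPrime q →
        Rtk6eiEv q A (fun K₁ _ hζ π hπ => Rtk6emSS1 A K₁ (M₁ * q) M H π
          (rtk6dfV hπ M H (rtk6diwW (K₀ := mgcE A K₁) w₀ hw₀ hM0 hq hqM' hζ))))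
    (hFix : ∀ (q M₁ : ℕ) [NeZero q] [NeZero M₁] [NeZero (M₁ * q)] (M : ℕ)
      (H : Subgroup (ZMod M)ˣ) (hq : q.Prime) (hqM' : q ∣ M) (hM0 : M ≠ 0), ¬ q ∣ M₁ →
      M ∣ M₁ * q → IsStarStable M q H → IsTameAt (M₁ * q) M q H → 4 ∣ M₁ * q →
      ∀ (w₀ : fieldBar (M₁ * q) M H ≃ₐ[Qb] fieldBar (M₁ * q) M H)
        (hw₀ : IsWAt (M₁ * q) M H q w₀) (A : ValuationSubring Qb), A.LiesOverPrime q →
        Rtk6eiEv q A (fun K₁ _ hζ π hπ =>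
          ∀ σ ∈ A.inertiaSubgroupIn ℚ, ∀ (hσE : ∀ x ∈ mgcE A K₁, σ x ∈ mgcE A K₁)
            (c' : (ZMod M)ˣ), IsAtR M q c' →
            ∀ δ₀' : ↥(rtk6diF A K₁ (M₁ * q) M H) ≃ₐ[↥(mgcE A K₁)]
                ↥(rtk6diF A K₁ (M₁ * q) M H),
              IsDiamondC ↥(mgcE A K₁) (M₁ * q) M H c' δ₀' →
              ∀ u : ↥(rtk6diF A K₁ (M₁ * q) M H),
                (u = rtk6diT A K₁ (M₁ * q) M H ∨ u = (rtk6diT A K₁ (M₁ * q) M H)⁻¹) →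
                Rtk6emFixAt A K₁ (M₁ * q) M H π
                  (rtk6dfV hπ M H (rtk6diwW (K₀ := mgcE A K₁) w₀ hw₀ hM0 hq hqM' hζ))
                  (rtk6diGal (M₁ * q) M H σ hσE) u ∧
                Rtk6emCongAt A K₁ (M₁ * q) M H π
                  (rtk6dfV hπ M H (rtk6diwW (K₀ := mgcE A K₁) w₀ hw₀ hM0 hq hqM' hζ))
                  (SemilinearAut.ofAlgAut δ₀') u)) :
    ∀ (q M₁ : ℕ) [NeZero q] [NeZero M₁] [NeZero (M₁ * q)] (M : ℕ)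
      (H : Subgroup (ZMod M)ˣ) (hq : q.Prime) (hqM' : q ∣ M) (hM0 : M ≠ 0), ¬ q ∣ M₁ →
      M ∣ M₁ * q → IsStarStable M q H → IsTameAt (M₁ * q) M q H → 4 ∣ M₁ * q →
      ∀ (w₀ : fieldBar (M₁ * q) M H ≃ₐ[Qb] fieldBar (M₁ * q) M H)
        (hw₀ : IsWAt (M₁ * q) M H q w₀) (A : ValuationSubring Qb), A.LiesOverPrime q →
        Rtk6eiEv q A (fun K₁ _ hζ π hπ =>
          Rtk6m4Stab hπ M H (rtk6diwW (K₀ := mgcE A K₁) w₀ hw₀ hM0 hq hqM' hζ)) := by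
  intro q M₁ _ _ _ M H hq hqM' hM0 hqM hML hstar htame h4 w₀ hw₀ A hA
  have h0 := hThin q M₁ M H hq hqM' hM0 hqM hML hstar htame h4 A hA
  have h1 := hSS1 q M₁ M H hq hqM' hM0 hqM hML hstar htame h4 w₀ hw₀ A hA
  have h3 := hFix q M₁ M H hq hqM' hM0 hqM hML hstar htame h4 w₀ hw₀ A hA
  obtain ⟨K₀, hfin, hK₀⟩ := (h0.and h1).and h3
  refine ⟨K₀, hfin, fun K₁ _ _ _ hK hζ π hπ => ?_⟩
  obtain ⟨⟨hthin, hss1⟩, hfix⟩ := hK₀ K₁ hK hζ hπ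
  refine rtk6hs_stab_thin_W hπ w₀ hw₀ hM0 hq hqM' hζ hqM hA hML hss1 hthin
    fun c hc δ hδ => ?_
  have hone : (1 : Qb ≃ₐ[ℚ] Qb) ∈ A.inertiaSubgroupIn ℚ := Subgroup.one_mem _
  have hσE : ∀ x ∈ mgcE A K₁, (1 : Qb ≃ₐ[ℚ] Qb) x ∈ mgcE A K₁ := fun x hx => hx
  exact ⟨(hfix 1 hone hσE c hc δ hδ _ (Or.inl rfl)).2,
    (hfix 1 hone hσE c hc δ hδ _ (Or.inr rfl)).2⟩

/-- **`StmtRtk6GeomChi` from (THIN), (SS1-inst), (C4), (FIX-X)**: the glue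
`rtk6ei_geomChi_of_pieces` with (HSTAB) discharged. -/
theorem rtk6hs_geomChi_of_pieces
    (hThin : ∀ (q M₁ : ℕ) [NeZero q] [NeZero M₁] [NeZero (M₁ * q)] (M : ℕ)
      (H : Subgroup (ZMod M)ˣ) (hq : q.Prime) (hqM' : q ∣ M) (hM0 : M ≠ 0), ¬ q ∣ M₁ →
      M ∣ M₁ * q → IsStarStable M q H → IsTameAt (M₁ * q) M q H → 4 ∣ M₁ * q →
      ∀ (A : ValuationSubring Qb), A.LiesOverPrime q →
        Rtk6eiEv q A (fun K₁ _ hζ π hπ =>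
          Rtk6hsThin A K₁ (M₁ * q) M H π (rtk6hsDiam A K₁ (M₁ * q) M H q)))
    (hSS1 : ∀ (q M₁ : ℕ) [NeZero q] [NeZero M₁] [NeZero (M₁ * q)] (M : ℕ)
      (H : Subgroup (ZMod M)ˣ) (hq : q.Prime) (hqM' : q ∣ M) (hM0 : M ≠ 0), ¬ q ∣ M₁ →
      M ∣ M₁ * q → IsStarStable M q H → IsTameAt (M₁ * q) M q H → 4 ∣ M₁ * q →
      ∀ (w₀ : fieldBar (M₁ * q) M H ≃ₐ[Qb] fieldBar (M₁ * q) M H)
        (hw₀ : IsWAt (M₁ * q) M H q w₀) (A : ValuationSubring Qb), A.LiesOverPrime q →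
        Rtk6eiEv q A (fun K₁ _ hζ π hπ => Rtk6emSS1 A K₁ (M₁ * q) M H π
          (rtk6dfV hπ M H (rtk6diwW (K₀ := mgcE A K₁) w₀ hw₀ hM0 hq hqM' hζ))))
    (hNode : ∀ (q M₁ : ℕ) [NeZero q] [NeZero M₁] [NeZero (M₁ * q)] (M : ℕ)
      (H : Subgroup (ZMod M)ˣ) (hq : q.Prime) (hqM' : q ∣ M) (hM0 : M ≠ 0), ¬ q ∣ M₁ →
      M ∣ M₁ * q → IsStarStable M q H → IsTameAt (M₁ * q) M q H → 4 ∣ M₁ * q →
      ∀ (w₀ : fieldBar (M₁ * q) M H ≃ₐ[Qb] fieldBar (M₁ * q) M H)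
        (hw₀ : IsWAt (M₁ * q) M H q w₀) (A : ValuationSubring Qb), A.LiesOverPrime q →
        Rtk6eiEv q A (fun K₁ _ hζ π hπ => Rtk6emNode A K₁ (M₁ * q) M H π
          (rtk6dfV hπ M H (rtk6diwW (K₀ := mgcE A K₁) w₀ hw₀ hM0 hq hqM' hζ))))
    (hFix : ∀ (q M₁ : ℕ) [NeZero q] [NeZero M₁] [NeZero (M₁ * q)] (M : ℕ)
      (H : Subgroup (ZMod M)ˣ) (hq : q.Prime) (hqM' : q ∣ M) (hM0 : M ≠ 0), ¬ q ∣ M₁ →
      M ∣ M₁ * q → IsStarStable M q H → IsTameAt (M₁ * q) M q H → 4 ∣ M₁ * q →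
      ∀ (w₀ : fieldBar (M₁ * q) M H ≃ₐ[Qb] fieldBar (M₁ * q) M H)
        (hw₀ : IsWAt (M₁ * q) M H q w₀) (A : ValuationSubring Qb), A.LiesOverPrime q →
        Rtk6eiEv q A (fun K₁ _ hζ π hπ =>
          ∀ σ ∈ A.inertiaSubgroupIn ℚ, ∀ (hσE : ∀ x ∈ mgcE A K₁, σ x ∈ mgcE A K₁)
            (c' : (ZMod M)ˣ), IsAtR M q c' →
            ∀ δ₀' : ↥(rtk6diF A K₁ (M₁ * q) M H) ≃ₐ[↥(mgcE A K₁)]
                ↥(rtk6diF A K₁ (M₁ * q) M H),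
              IsDiamondC ↥(mgcE A K₁) (M₁ * q) M H c' δ₀' →
              ∀ u : ↥(rtk6diF A K₁ (M₁ * q) M H),
                (u = rtk6diT A K₁ (M₁ * q) M H ∨ u = (rtk6diT A K₁ (M₁ * q) M H)⁻¹) →
                Rtk6emFixAt A K₁ (M₁ * q) M H π
                  (rtk6dfV hπ M H (rtk6diwW (K₀ := mgcE A K₁) w₀ hw₀ hM0 hq hqM' hζ))
                  (rtk6diGal (M₁ * q) M H σ hσE) u ∧
                Rtk6emCongAt A K₁ (M₁ * q) M H π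
                  (rtk6dfV hπ M H (rtk6diwW (K₀ := mgcE A K₁) w₀ hw₀ hM0 hq hqM' hζ))
                  (SemilinearAut.ofAlgAut δ₀') u)) :
    StmtRtk6GeomChi :=
  rtk6ei_geomChi_of_pieces (rtk6hs_hStab_of_pieces hThin hSS1 hFix) hSS1 hNode hFix

end Fermat.Agent.RT.K6

end
end ZBRT_099_3

/-! ### bundled: `Fermat.Agent.RT.K6.C4ChiInstBThin` -/
section ZBRT_099_4
/-
K-machine, piece K6, piece **C4-χ-inst (B)** (helper76), part 2: the providers **`hThin`**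
(`rtk6hs_hStab_of_pieces`, `RT/K6/HStabThin.lean`, helper11) AND **`hNode`**
(`rtk6ei_geomChi_of_pieces`) from ONE open input, the dichotomy WITH C4+ (`Rtk6c4aPlusAt`,
`RT/K6/C4Asm.lean`, helper94) for the diamonds at `q` at ONE thin level `K₁′`.

The crossing data `X`, `Y`, `w` of the thin level are kept (`R := zchClosure {t₁^{±1}}` over
`A₁`, `j :=` the (D-BC) map, `p := ϖ₁`); (EIGEN) for a diamond `δ` at `q` of `F′` follows from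
(EIGEN) for the diamond `δ₁` of `F₁` of the same class (`rtk6frf_diamond`: `δ ∘ ι = ι ∘ δ₁`):
`δ (j X) = (j a′) (j X)`.

* `rtk6cxbDiam`       : the diamonds at `r`, as semilinear automorphisms of `F₁`;
* `rtk6cxb_thinAt`    : (abstract) `Rtk6c4aPlusAt V₁ 𝒢 (𝔫 ∩ R₁) → Rtk6hsThinAt D 𝔫 j ϖ₁`;
* `rtk6cxb_diam_lift` : every diamond at `r` of `F′` restricts to a diamond at `r` of `F₁`;
* `rtk6cxb_hsThin_E`  : `Rtk6hsThin A K₁ … π (rtk6hsDiam …)` at `K₁ ⊇ K₁′`;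
* `Rtk6cxbThinPlus`   : **the open input** (C4-χ-ASM at ONE thin level, with C4+ for the diamonds
                        at `q`); `Rtk6cxbThinPlus.thin : Rtk6cxbThin A w₀`;
* `rtk6cxb_hThin`     : **the provider `hThin`** of `rtk6hs_hStab_of_pieces` /
                        `rtk6hs_geomChi_of_pieces` (`w₀` from piece B, `stmtB`);
* `rtk6cxb_hNode_plus` : the provider `hNode` from the same input;
* `rtk6cxb_hSS1`      : the provider `hSS1` of the case (χ) from the generic (SS1-inst);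
* **`rtk6cxb_geomChi`** : `StmtRtk6GeomChi` from the generic (SS1-inst), the open input and the
                        provider `hFix` (FIX-X).
-/

set_option autoImplicit false
set_option linter.style.haveILetI false
set_option linter.unusedSectionVars false
set_option linter.unusedVariables false
set_option linter.style.longLine false

noncomputable section

namespace Fermat.Agent.RT.K6

open ModularCurve AlgebraicCurve Fermat.Agent.ES Fermat.Agent.ES.G2 Fermat.Agent.INJ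
open Fermat.Agent.UNIP Fermat.Agent.STB Fermat.Agent.ES1 Fermat.Agent.ES1.G2 IntermediateField

/-! ### Abstract transfer of the thin datum with (EIGEN) -/

section Transfer

universe v

variable {A₁ E₁ : Type*} {F₁ : Type v} [CommRing A₁] [IsDomain A₁] [IsDiscreteValuationRing A₁]
  [Field E₁] [Algebra A₁ E₁] [IsFractionRing A₁ E₁] [CharZero E₁]
  [Field F₁] [Algebra E₁ F₁] [Algebra A₁ F₁] [IsScalarTower A₁ E₁ F₁]
  {A' E' F' : Type*} [CommRing A'] [IsDomain A'] [IsDiscreteValuationRing A']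
  [Field E'] [Algebra A' E'] [IsFractionRing A' E'] [CharZero E']
  [Field F'] [Algebra E' F'] [Algebra A' F'] [IsScalarTower A' E' F']
  {ϖ₁ : A₁} {π : A'} {u₁ : F₁} {u : F'}
  {κ₁ : Type*} (V₁ : κ₁ → ValuationSubring F₁)
  (ι : F₁ →+* F')
  (j : ↥(zchClosure (A₀ := A₁) ({u₁} : Set F₁)) →+* ↥(zchClosure (A₀ := A') ({u} : Set F')))

/-- **transfer of the thin datum with (EIGEN)** from the chart `R₁` (over `A₁`, dichotomy with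
C4+ for `𝒢`) to `(B′, j)`, for a set `D` of endomorphisms of `F′` each of which restricts along
`ι` to an element of `𝒢`. -/
theorem rtk6cxb_thinAt
    (hj : ∀ b, ((j b : ↥(zchClosure (A₀ := A') ({u} : Set F'))) : F') = ι (b : F₁))
    (hram : MgcRamified j (algebraMap A' ↥(zchClosure (A₀ := A') ({u} : Set F')) π)
      (algebraMap A₁ ↥(zchClosure (A₀ := A₁) ({u₁} : Set F₁)) ϖ₁))
    (𝒢 : Set (SemilinearAut E₁ F₁)) (D : Set (F' →+* F'))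
    (hD : ∀ δ ∈ D, ∃ g ∈ 𝒢, ∀ x : F₁, δ (ι x) = ι (g • x))
    (𝔫 : AtPt (F := F') π u)
    (h : Rtk6c4aPlusAt V₁ 𝒢 (rtk6c4bPt j hram 𝔫)) :
    Rtk6hsThinAt D 𝔫 j (algebraMap A₁ ↥(zchClosure (A₀ := A₁) ({u₁} : Set F₁)) ϖ₁) := by
  rcases h with ⟨s, hs, hgen⟩ | ⟨c₁, c₂, X, Y, w, ⟨h1, h2, hX, hY, hw, hwp, hgen⟩, hg⟩
  · exact Or.inl ⟨s, hs, hgen⟩
  · refine Or.inr ⟨X, Y, w, hw, hwp, h1 X hX, h2 Y hY, hgen, fun δ hδ => ?_⟩
    obtain ⟨g, hg𝒢, hgι⟩ := hD δ hδ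
    obtain ⟨-, -, a', b', -, -, hgX, hgY⟩ := hg g hg𝒢
    refine ⟨⟨j a', ?_⟩, ⟨j b', ?_⟩⟩
    · rw [hj X, hgι, hgX, map_mul, hj a']
    · rw [hj Y, hgι, hgY, map_mul, hj b']

end Transfer

/-! ### The diamonds at `r` -/

section Diam

variable (A : ValuationSubring Qb) (K₁ : IntermediateField ℚ Qb)
  (L M : ℕ) (H : Subgroup (ZMod M)ˣ)

/-- the diamonds at `r`, as semilinear automorphisms of `F₁` -/
def rtk6cxbDiam (r : ℕ) : Set (SemilinearAut ↥(mgcE A K₁) ↥(rtk6diF A K₁ L M H)) :=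
  {g | ∃ (c : (ZMod M)ˣ)
    (δ : ↥(rtk6diF A K₁ L M H) ≃ₐ[↥(mgcE A K₁)] ↥(rtk6diF A K₁ L M H)),
    IsAtR M r c ∧ IsDiamondC ↥(mgcE A K₁) L M H c δ ∧ g = SemilinearAut.ofAlgAut δ}

variable {A} {K₁' : IntermediateField ℚ Qb} {K₁ L M H}

/-- **every diamond at `r` of `F′` restricts to a diamond at `r` of `F₁`** -/
theorem rtk6cxb_diam_lift (h : K₁' ≤ K₁) (hL : L ≠ 0) (hML : M ∣ L) (r : ℕ)
    [IsDiscreteValuationRing ↥(mgcA A K₁)] :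
    ∀ δ ∈ rtk6hsDiam A K₁ L M H r, ∃ g ∈ rtk6cxbDiam A K₁' L M H r,
      ∀ x : ↥(rtk6diF A K₁' L M H),
        δ (rtk6dbcIncl (A := A) L M H h x) = rtk6dbcIncl (A := A) L M H h (g • x) := by
  rintro δ ⟨c, δ', hc, hδ', rfl⟩
  haveI : Algebra.IsAlgebraic ℚ Qb := AlgebraicClosure.isAlgebraic ℚ
  haveI : Algebra.IsAlgebraic ℚ ↥(mgcE A K₁') :=
    Algebra.IsAlgebraic.of_injective (mgcE A K₁').val Subtype.val_injective
  haveI : NeZero M := ⟨fun h0 => hL (Nat.eq_zero_of_zero_dvd (h0 ▸ hML))⟩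
  obtain ⟨δ₁, hδ₁⟩ := rtk6d0_exists_diamond ↥(mgcE A K₁') H hL hML c
  refine ⟨SemilinearAut.ofAlgAut δ₁, ⟨c, δ₁, hc, hδ₁, rfl⟩, fun x => ?_⟩
  exact rtk6frf_diamond L M H
    (IntermediateField.inclusion (rtk6eb_mgcE_mono (A := A) h)).toRingHom (fun _ => rfl)
    hL hML hδ₁ hδ' x

end Diam

/-! ### `Rtk6hsThin` at `K₁` from the thin level -/

section Thin

variable {A : ValuationSubring Qb} {K₁' K₁ : IntermediateField ℚ Qb}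
  [NumberField ↥K₁'] [IsGalois ℚ ↥K₁'] [NumberField ↥K₁] [IsGalois ℚ ↥K₁]
  [IsDiscreteValuationRing ↥(mgcA A K₁')] [IsDiscreteValuationRing ↥(mgcA A K₁)]
  {q M₁ : ℕ} [NeZero q] [NeZero M₁] [NeZero (M₁ * q)] {M : ℕ} {H : Subgroup (ZMod M)ˣ}

/-- **`Rtk6hsThin` at `K₁`** (thin datum with (EIGEN) for the diamonds at `q`) from `Rtk6emFam`,
`Rtk6emSS1` and the dichotomy with C4+ on the two charts at a lower level `K₁′ ≤ K₁`. -/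
theorem rtk6cxb_hsThin_E (hq : q.Prime) (hA : A.LiesOverPrime q) (h : K₁' ≤ K₁)
    (hML : M ∣ M₁ * q)
    {ϖ₁ : ↥(mgcA A K₁')} (hϖ₁ : Irreducible ϖ₁) {π : ↥(mgcA A K₁)} (hπ : Irreducible π)
    {κ₁ : Type} {V₁ : κ₁ → ValuationSubring ↥(rtk6diF A K₁' (M₁ * q) M H)}
    (fam : Rtk6emFam A K₁' (M₁ * q) M H ϖ₁ V₁) (ss1 : Rtk6emSS1 A K₁' (M₁ * q) M H ϖ₁ V₁)
    (hP₁ : ∀ 𝔫₁ : AtPt (F := ↥(rtk6diF A K₁' (M₁ * q) M H)) ϖ₁ (rtk6diT A K₁' (M₁ * q) M H),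
      Rtk6c4aPlusAt V₁ (rtk6cxbDiam A K₁' (M₁ * q) M H q) 𝔫₁)
    (hP₂ : ∀ 𝔫₁ : AtPt (F := ↥(rtk6diF A K₁' (M₁ * q) M H)) ϖ₁
        (rtk6diT A K₁' (M₁ * q) M H)⁻¹,
      Rtk6c4aPlusAt V₁ (rtk6cxbDiam A K₁' (M₁ * q) M H q) 𝔫₁) :
    Rtk6hsThin A K₁ (M₁ * q) M H π (rtk6hsDiam A K₁ (M₁ * q) M H q) := by
  obtain ⟨j₁, hj₁, hram₁, hjp₁⟩ := rtk6dbc_chart_t_of_ss1 (M₁ * q) M H hq hA h
    (NeZero.ne (M₁ * q)) hML hϖ₁ hπ fam ss1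
  obtain ⟨j₂, hj₂, hram₂, hjp₂⟩ := rtk6dbc_chart_tinv_of_ss1 (M₁ * q) M H hq hA h
    (NeZero.ne (M₁ * q)) hML hϖ₁ hπ fam ss1
  have hD := rtk6cxb_diam_lift (A := A) (H := H) h (NeZero.ne (M₁ * q)) hML q
  refine ⟨rtk6ebQ h ϖ₁, rtk6ebQ_ne_zero h hϖ₁.ne_zero,
    ⟨_, inferInstance, j₁, _, hram₁, hjp₁, fun 𝔫 => ?_⟩,
    ⟨_, inferInstance, j₂, _, hram₂, hjp₂, fun 𝔫 => ?_⟩⟩
  · exact rtk6cxb_thinAt V₁ (rtk6dbcIncl (A := A) (M₁ * q) M H h) j₁ hj₁ hram₁ _ _ hD 𝔫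
      (hP₁ _)
  · exact rtk6cxb_thinAt V₁ (rtk6dbcIncl (A := A) (M₁ * q) M H h) j₂ hj₂ hram₂ _ _ hD 𝔫
      (hP₂ _)

end Thin

/-! ### The open input and the providers -/

section Ev

variable {q M₁ : ℕ} [NeZero q] [NeZero M₁] [NeZero (M₁ * q)] {M : ℕ} {H : Subgroup (ZMod M)ˣ}

/-- **The open input (C4-χ-ASM at ONE thin level, with C4+)**: a Galois number field `K₁′` with
`A₁ = A ∩ E₁` a discrete valuation ring, a uniformizer `ϖ₁` of `A₁`, the commutation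
`hc₁ : RtkCommK E₁ w₀` (W1), and the dichotomy with C4+ (`Rtk6c4aPlusAt`) for the diamonds at `q`
at every closed point of the special fibre of the two charts `zchClosure {t₁}`,
`zchClosure {t₁⁻¹}` of `F₁` over `A₁`, for the family
`V₁ = rtk6dfV hϖ₁ M H (rtk6diwEquiv w₀ hc₁)`. -/
def Rtk6cxbThinPlus (A : ValuationSubring Qb)
    (w₀ : fieldBar (M₁ * q) M H ≃ₐ[Qb] fieldBar (M₁ * q) M H) : Prop :=
  ∃ (K₁' : IntermediateField ℚ Qb) (_ : NumberField ↥K₁') (_ : IsGalois ℚ ↥K₁')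
    (_ : IsDiscreteValuationRing ↥(mgcA A K₁')) (ϖ₁ : ↥(mgcA A K₁')) (hϖ₁ : Irreducible ϖ₁)
    (hc₁ : RtkCommK (mgcE A K₁') w₀),
    (∀ 𝔫₁ : AtPt (F := ↥(rtk6diF A K₁' (M₁ * q) M H)) ϖ₁ (rtk6diT A K₁' (M₁ * q) M H),
      Rtk6c4aPlusAt (rtk6dfV hϖ₁ M H (rtk6diwEquiv (K₀ := mgcE A K₁') w₀ hc₁))
        (rtk6cxbDiam A K₁' (M₁ * q) M H q) 𝔫₁) ∧
    (∀ 𝔫₁ : AtPt (F := ↥(rtk6diF A K₁' (M₁ * q) M H)) ϖ₁
        (rtk6diT A K₁' (M₁ * q) M H)⁻¹,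
      Rtk6c4aPlusAt (rtk6dfV hϖ₁ M H (rtk6diwEquiv (K₀ := mgcE A K₁') w₀ hc₁))
        (rtk6cxbDiam A K₁' (M₁ * q) M H q) 𝔫₁)

/-- the input with C4+ contains the input of the dichotomy -/
theorem Rtk6cxbThinPlus.thin {A : ValuationSubring Qb}
    {w₀ : fieldBar (M₁ * q) M H ≃ₐ[Qb] fieldBar (M₁ * q) M H}
    (hT : Rtk6cxbThinPlus A w₀) : Rtk6cxbThin A w₀ := by
  obtain ⟨K₁', hNF, hGal, hDVR, ϖ₁, hϖ₁, hc₁, hP₁, hP₂⟩ := hT
  exact ⟨K₁', hNF, hGal, hDVR, ϖ₁, hϖ₁, hc₁, fun 𝔫₁ => (hP₁ 𝔫₁).nodeAt,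
    fun 𝔫₁ => (hP₂ 𝔫₁).nodeAt⟩

/-- **`Rtk6hsThin` at all sufficiently large `K₁`** (`K₀ := K₁′`) from the open input. -/
theorem rtk6cxb_ev_thin (hS : StmtRtk6SS1Gen) (hq : q.Prime) (hqM : ¬ q ∣ M₁)
    (hML : M ∣ M₁ * q) (htame : IsTameAt (M₁ * q) M q H) (h4 : 4 ∣ M₁ * q)
    (w₀ : fieldBar (M₁ * q) M H ≃ₐ[Qb] fieldBar (M₁ * q) M H)
    (hw₀ : IsWAt (M₁ * q) M H q w₀) {A : ValuationSubring Qb} (hA : A.LiesOverPrime q)
    (hT : Rtk6cxbThinPlus A w₀) :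
    Rtk6eiEv q A (fun K₁ _ hζ π hπ =>
      Rtk6hsThin A K₁ (M₁ * q) M H π (rtk6hsDiam A K₁ (M₁ * q) M H q)) := by
  obtain ⟨K₁', hNF, hGal, hDVR, ϖ₁, hϖ₁, hc₁, hP₁, hP₂⟩ := hT
  haveI := hNF
  haveI := hGal
  haveI := hDVR
  refine ⟨K₁', inferInstance, fun K₁ _ _ _ hK hζ π hπ => ?_⟩
  have hwI := rtk6w1_wIncl w₀ hw₀ hc₁ hq (mgdIota (mgcE A K₁')) hqM
  have fam := rtk6m1_emFam hϖ₁ (mgdIota (mgcE A K₁')) hq hqM hwI hA hML
  have ss1 := hS q M₁ M H hq hqM hML htame h4 A hA K₁' hϖ₁ (mgdIota (mgcE A K₁')) _ hwI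
  exact rtk6cxb_hsThin_E hq hA hK hML hϖ₁ hπ fam ss1 hP₁ hP₂

end Ev

/-- **The provider `hThin` of `rtk6hs_hStab_of_pieces` / `rtk6hs_geomChi_of_pieces`** from the
generic (SS1-inst) and the dichotomy with C4+ at ONE thin level per level datum (C4-χ-ASM);
the Atkin–Lehner automorphism `w₀` is the one of piece B (`stmtB`). -/
theorem rtk6cxb_hThin (hS : StmtRtk6SS1Gen)
    (hPlus : ∀ (q M₁ : ℕ) [NeZero q] [NeZero M₁] [NeZero (M₁ * q)] (M : ℕ)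
      (H : Subgroup (ZMod M)ˣ) (hq : q.Prime) (hqM' : q ∣ M) (hM0 : M ≠ 0), ¬ q ∣ M₁ →
      M ∣ M₁ * q → IsStarStable M q H → IsTameAt (M₁ * q) M q H → 4 ∣ M₁ * q →
      ∀ (w₀ : fieldBar (M₁ * q) M H ≃ₐ[Qb] fieldBar (M₁ * q) M H)
        (hw₀ : IsWAt (M₁ * q) M H q w₀) (A : ValuationSubring Qb), A.LiesOverPrime q →
        Rtk6cxbThinPlus A w₀) :
    ∀ (q M₁ : ℕ) [NeZero q] [NeZero M₁] [NeZero (M₁ * q)] (M : ℕ)
      (H : Subgroup (ZMod M)ˣ) (hq : q.Prime) (hqM' : q ∣ M) (hM0 : M ≠ 0), ¬ q ∣ M₁ →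
      M ∣ M₁ * q → IsStarStable M q H → IsTameAt (M₁ * q) M q H → 4 ∣ M₁ * q →
      ∀ (A : ValuationSubring Qb), A.LiesOverPrime q →
        Rtk6eiEv q A (fun K₁ _ hζ π hπ =>
          Rtk6hsThin A K₁ (M₁ * q) M H π (rtk6hsDiam A K₁ (M₁ * q) M H q)) := by
  intro q M₁ _ _ _ M H hq hqM' hM0 hqM hML hstar htame h4 A hA
  have hsq : ¬ q ^ 2 ∣ M₁ * q := by
    intro h
    rw [pow_two] at h
    exact hqM (Nat.dvd_of_mul_dvd_mul_right hq.pos h)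
  obtain ⟨w₀, hw₀⟩ := stmtB (M₁ * q) M H q (NeZero.ne (M₁ * q)) hML hq hqM' hsq hstar
  exact rtk6cxb_ev_thin hS hq hqM hML htame h4 w₀ hw₀ hA
    (hPlus q M₁ M H hq hqM' hM0 hqM hML hstar htame h4 w₀ hw₀ A hA)

/-- **The provider `hNode` of `rtk6ei_geomChi_of_pieces`** from the same input. -/
theorem rtk6cxb_hNode_plus (hS : StmtRtk6SS1Gen)
    (hPlus : ∀ (q M₁ : ℕ) [NeZero q] [NeZero M₁] [NeZero (M₁ * q)] (M : ℕ)
      (H : Subgroup (ZMod M)ˣ) (hq : q.Prime) (hqM' : q ∣ M) (hM0 : M ≠ 0), ¬ q ∣ M₁ →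
      M ∣ M₁ * q → IsStarStable M q H → IsTameAt (M₁ * q) M q H → 4 ∣ M₁ * q →
      ∀ (w₀ : fieldBar (M₁ * q) M H ≃ₐ[Qb] fieldBar (M₁ * q) M H)
        (hw₀ : IsWAt (M₁ * q) M H q w₀) (A : ValuationSubring Qb), A.LiesOverPrime q →
        Rtk6cxbThinPlus A w₀) :
    ∀ (q M₁ : ℕ) [NeZero q] [NeZero M₁] [NeZero (M₁ * q)] (M : ℕ)
      (H : Subgroup (ZMod M)ˣ) (hq : q.Prime) (hqM' : q ∣ M) (hM0 : M ≠ 0), ¬ q ∣ M₁ →
      M ∣ M₁ * q → IsStarStable M q H → IsTameAt (M₁ * q) M q H → 4 ∣ M₁ * q →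
      ∀ (w₀ : fieldBar (M₁ * q) M H ≃ₐ[Qb] fieldBar (M₁ * q) M H)
        (hw₀ : IsWAt (M₁ * q) M H q w₀) (A : ValuationSubring Qb), A.LiesOverPrime q →
        Rtk6eiEv q A (fun K₁ _ hζ π hπ => Rtk6emNode A K₁ (M₁ * q) M H π
          (rtk6dfV hπ M H (rtk6diwW (K₀ := mgcE A K₁) w₀ hw₀ hM0 hq hqM' hζ))) :=
  rtk6cxb_hNode hS fun q M₁ _ _ _ M H hq hqM' hM0 hqM hML hstar htame h4 w₀ hw₀ A hA =>
    (hPlus q M₁ M H hq hqM' hM0 hqM hML hstar htame h4 w₀ hw₀ A hA).thin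

/-- the provider `hSS1` of `rtk6ei_geomChi_of_pieces` from the generic (SS1-inst) -/
theorem rtk6cxb_hSS1 (hS : StmtRtk6SS1Gen) :
    ∀ (q M₁ : ℕ) [NeZero q] [NeZero M₁] [NeZero (M₁ * q)] (M : ℕ)
      (H : Subgroup (ZMod M)ˣ) (hq : q.Prime) (hqM' : q ∣ M) (hM0 : M ≠ 0), ¬ q ∣ M₁ →
      M ∣ M₁ * q → IsStarStable M q H → IsTameAt (M₁ * q) M q H → 4 ∣ M₁ * q →
      ∀ (w₀ : fieldBar (M₁ * q) M H ≃ₐ[Qb] fieldBar (M₁ * q) M H)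
        (hw₀ : IsWAt (M₁ * q) M H q w₀) (A : ValuationSubring Qb), A.LiesOverPrime q →
        Rtk6eiEv q A (fun K₁ _ hζ π hπ => Rtk6emSS1 A K₁ (M₁ * q) M H π
          (rtk6dfV hπ M H (rtk6diwW (K₀ := mgcE A K₁) w₀ hw₀ hM0 hq hqM' hζ))) := by
  intro q M₁ _ _ _ M H hq hqM' hM0 hqM hML _ htame h4 w₀ hw₀ A hA
  refine ⟨⊥, inferInstance, fun K₁ _ _ _ _ hζ π hπ => ?_⟩
  exact hS q M₁ M H hq hqM hML htame h4 A hA K₁ hπ (mgdIota (mgcE A K₁)) _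
    (rtk6m1_wIncl (mgdIota (mgcE A K₁)) w₀ hw₀ hM0 hq hqM' hqM hζ)

/-- **FINAL wiring, case (χ)**: `StmtRtk6GeomChi` from the generic (SS1-inst), the dichotomy with
C4+ for the diamonds at `q` at ONE thin level per level datum (C4-χ-ASM), and the provider `hFix`
((FIX-X)). -/
theorem rtk6cxb_geomChi (hS : StmtRtk6SS1Gen)
    (hPlus : ∀ (q M₁ : ℕ) [NeZero q] [NeZero M₁] [NeZero (M₁ * q)] (M : ℕ)
      (H : Subgroup (ZMod M)ˣ) (hq : q.Prime) (hqM' : q ∣ M) (hM0 : M ≠ 0), ¬ q ∣ M₁ →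
      M ∣ M₁ * q → IsStarStable M q H → IsTameAt (M₁ * q) M q H → 4 ∣ M₁ * q →
      ∀ (w₀ : fieldBar (M₁ * q) M H ≃ₐ[Qb] fieldBar (M₁ * q) M H)
        (hw₀ : IsWAt (M₁ * q) M H q w₀) (A : ValuationSubring Qb), A.LiesOverPrime q →
        Rtk6cxbThinPlus A w₀)
    (hFix : ∀ (q M₁ : ℕ) [NeZero q] [NeZero M₁] [NeZero (M₁ * q)] (M : ℕ)
      (H : Subgroup (ZMod M)ˣ) (hq : q.Prime) (hqM' : q ∣ M) (hM0 : M ≠ 0), ¬ q ∣ M₁ →
      M ∣ M₁ * q → IsStarStable M q H → IsTameAt (M₁ * q) M q H → 4 ∣ M₁ * q →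
      ∀ (w₀ : fieldBar (M₁ * q) M H ≃ₐ[Qb] fieldBar (M₁ * q) M H)
        (hw₀ : IsWAt (M₁ * q) M H q w₀) (A : ValuationSubring Qb), A.LiesOverPrime q →
        Rtk6eiEv q A (fun K₁ _ hζ π hπ =>
          ∀ σ ∈ A.inertiaSubgroupIn ℚ, ∀ (hσE : ∀ x ∈ mgcE A K₁, σ x ∈ mgcE A K₁)
            (c' : (ZMod M)ˣ), IsAtR M q c' →
            ∀ δ₀' : ↥(rtk6diF A K₁ (M₁ * q) M H) ≃ₐ[↥(mgcE A K₁)]
                ↥(rtk6diF A K₁ (M₁ * q) M H),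
              IsDiamondC ↥(mgcE A K₁) (M₁ * q) M H c' δ₀' →
              ∀ u : ↥(rtk6diF A K₁ (M₁ * q) M H),
                (u = rtk6diT A K₁ (M₁ * q) M H ∨ u = (rtk6diT A K₁ (M₁ * q) M H)⁻¹) →
                Rtk6emFixAt A K₁ (M₁ * q) M H π
                  (rtk6dfV hπ M H (rtk6diwW (K₀ := mgcE A K₁) w₀ hw₀ hM0 hq hqM' hζ))
                  (rtk6diGal (M₁ * q) M H σ hσE) u ∧
                Rtk6emCongAt A K₁ (M₁ * q) M H π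
                  (rtk6dfV hπ M H (rtk6diwW (K₀ := mgcE A K₁) w₀ hw₀ hM0 hq hqM' hζ))
                  (SemilinearAut.ofAlgAut δ₀') u)) :
    StmtRtk6GeomChi :=
  rtk6hs_geomChi_of_pieces (rtk6cxb_hThin hS hPlus) (rtk6cxb_hSS1 hS)
    (rtk6cxb_hNode_plus hS hPlus) hFix

end Fermat.Agent.RT.K6

end
end ZBRT_099_4

/-! ### bundled: `Fermat.Agent.RT.K6.C4ChiPlus` -/
section ZBRT_099_5
/-
K-machine, piece K6, case (χ), **the hPlus final glue** (helper76): the open input `hPlus` of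
`rtk6cxb_geomChi` (`RT/K6/C4ChiInstBThin.lean`), i.e. `Rtk6cxbThinPlus A w₀` for every level datum,
at the thin level

  `K₁′ := rtk6ebK q d_q`,  `d_q := rtk6psiDr M q H`  (PSI, helper85 / `RT/K6/Psi.lean`),

with `A₁ = mgcA A K₁′` a discrete valuation ring (`rtk6eb_isDVR`), the uniformizer
`ϖ₁ := rtk6ebVarpi hA hd0 hϖ` (`ϖ ^ d_q = q`, E-BASE, helper66) and the commutation
`hc₁ := rtk6cxb_commK …` (W1, helper80 / helper96).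

The inputs are the conclusions of C4-χ-ASM on the two charts (`rtk6c4aj_plusAt`, helper94, and its
twin on the chart `1/j`), for ANY uniformizer `ϖ₁` with `ϖ₁ ^ d_q = q`, ANY proof `hc₁` of the
commutation and ANY set `𝒢` containing the diamonds at `q`.

* `rtk6cxpD`           : `d_q`; `rtk6cxpD_ne_zero`, `rtk6cxpD_not_dvd`, `rtk6cxpD_pow_mem`;
* `rtk6cxp_not_sq_dvd` : `q² ∤ M`;
* `rtk6cxp_rigid`      : `(q ≠ 2 → 4 ∣ M₁) ∧ (q = 2 → 9 ∣ M₁)` from `4 ∣ M₁ q`, `q ∤ M₁` (the hypothesis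
                         `rigid` of `rtk6c4aj_plusAt`);
* `rtk6cxp_commK`      : `hc₁` at the thin level;
* `rtk6cxp_varpi_pow`  : `ϖ₁ ^ d_q = beta0RingIncl le_sup_left q` (the hypothesis `hϖd` of
                         `rtk6c4aj_plusAt`, `π := q`);
* **`rtk6cxp_thinPlus`** : `Rtk6cxbThinPlus A w₀` from the two charts (one level datum);
* **`rtk6cxp_hPlus`**    : the provider `hPlus` of `rtk6cxb_geomChi`;
* **`rtk6cxp_geomChi`**  : `StmtRtk6GeomChi` from (SS1-inst) generic, C4-χ-ASM on the two charts at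
                         the thin level, and (FIX-X).
-/

set_option autoImplicit false
set_option linter.style.haveILetI false
set_option linter.unusedSectionVars false
set_option linter.unusedVariables false
set_option linter.style.longLine false

noncomputable section

namespace Fermat.Agent.RT.K6

open ModularCurve AlgebraicCurve Fermat.Agent.ES Fermat.Agent.ES.G2 Fermat.Agent.INJ
open Fermat.Agent.UNIP Fermat.Agent.STB Fermat.Agent.ES1 Fermat.Agent.ES1.G2 IntermediateField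

/-! ### The exponent `d_q` and the arithmetic of the level -/

section Arith

variable {q M₁ M : ℕ} {H : Subgroup (ZMod M)ˣ}

/-- **`d_q`** := the order of the image of the diamonds at `q` in `(ℤ/M)ˣ / ±H`. -/
abbrev rtk6cxpD (M q : ℕ) (H : Subgroup (ZMod M)ˣ) : ℕ := rtk6psiDr M q H

/-- `q² ∤ M` at the levels `M ∣ M₁ q`, `q ∤ M₁` -/
theorem rtk6cxp_not_sq_dvd (hq : q.Prime) (hqM : ¬ q ∣ M₁) (hML : M ∣ M₁ * q) :
    ¬ q ^ 2 ∣ M := by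
  intro h
  have h1 : q ^ 2 ∣ M₁ * q := h.trans hML
  rw [pow_two] at h1
  exact hqM (Nat.dvd_of_mul_dvd_mul_right hq.pos h1)

theorem rtk6cxpD_ne_zero (hM0 : M ≠ 0) : rtk6cxpD M q H ≠ 0 := by
  haveI : NeZero M := ⟨hM0⟩
  exact (rtk6psiDr_pos (r := q) (H := H)).ne'

theorem rtk6cxpD_not_dvd (hq : q.Prime) (hqM' : q ∣ M) (hqM : ¬ q ∣ M₁) (hML : M ∣ M₁ * q) :
    ¬ q ∣ rtk6cxpD M q H :=
  rtk6psiDr_not_dvd hq hqM' (rtk6cxp_not_sq_dvd hq hqM hML)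

theorem rtk6cxpD_pow_mem (hM0 : M ≠ 0) (c : (ZMod M)ˣ) (hc : IsAtR M q c) :
    c ^ rtk6cxpD M q H ∈ pmH H := by
  haveI : NeZero M := ⟨hM0⟩
  exact rtk6psi_pow_mem hc

/-- **the rigidity hypothesis of the thin dichotomy** (`rtk6lfb0_thinAt_J`, `rtk6c4aj_plusAt`):
at the levels of the glue (`4 ∣ M₁ q`, `q ∤ M₁`) the prime `q` is odd and `4 ∣ M₁`. -/
theorem rtk6cxp_rigid (hq : q.Prime) (hqM : ¬ q ∣ M₁) (h4 : 4 ∣ M₁ * q) :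
    (q ≠ 2 → 4 ∣ M₁) ∧ (q = 2 → 9 ∣ M₁) := by
  have hq2 : q ≠ 2 := by
    rintro rfl
    apply hqM
    have h2 : (2 : ℕ) * 2 ∣ M₁ * 2 := h4
    exact Nat.dvd_of_mul_dvd_mul_right (by norm_num) h2
  refine ⟨fun _ => ?_, fun h => absurd h hq2⟩
  have hodd : Nat.Coprime 4 q := by
    have h2q : Nat.Coprime 2 q := by
      rw [Nat.coprime_primes Nat.prime_two hq]
      exact fun h => hq2 h.symm
    have : Nat.Coprime (2 ^ 2) q := Nat.Coprime.pow_left 2 h2q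
    simpa using this
  exact hodd.dvd_of_dvd_mul_right h4

end Arith

/-! ### The thin level -/

section Thin

variable {q M₁ : ℕ} [NeZero q] [NeZero M₁] [NeZero (M₁ * q)] {M : ℕ} {H : Subgroup (ZMod M)ˣ}

/-- **W1 at the thin level** `K₁′ = rtk6ebK q d_q`. -/
theorem rtk6cxp_commK (hq : q.Prime) (hqM' : q ∣ M) (hM0 : M ≠ 0) (hqM : ¬ q ∣ M₁)
    (hML : M ∣ M₁ * q) {w₀ : fieldBar (M₁ * q) M H ≃ₐ[Qb] fieldBar (M₁ * q) M H}
    (hw₀ : IsWAt (M₁ * q) M H q w₀) (A : ValuationSubring Qb) (hA : A.LiesOverPrime q) :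
    RtkCommK (mgcE A (rtk6ebK q (rtk6cxpD M q H))) w₀ :=
  rtk6cxb_commK hq hqM' hM0 hqM hML hw₀ A hA (rtk6cxpD_ne_zero hM0)
    (rtk6cxpD_not_dvd hq hqM' hqM hML) (rtk6cxpD_pow_mem hM0)

/-- **`ϖ₁ ^ d = ι q`**: the hypothesis `hϖd` of `rtk6c4aj_plusAt` (`π := q`, the uniformizer of the
unramified base `A ∩ ℚ̄^I`) for a uniformizer with `ϖ₁ ^ d = q`. -/
theorem rtk6cxp_varpi_pow {A : ValuationSubring Qb} {K₁' : IntermediateField ℚ Qb} {d : ℕ}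
    {ϖ₁ : ↥(mgcA A K₁')} (hϖd : ϖ₁ ^ d = ((q : ℕ) : ↥(mgcA A K₁'))) :
    ϖ₁ ^ d = beta0RingIncl (A := A) (le_sup_left : beta0Field A ≤ beta0Field A ⊔ K₁')
      ((q : ℕ) : ↥(beta0Ring A (beta0Field A))) := by
  rw [hϖd, map_natCast]

/-- **`Rtk6cxbThinPlus A w₀` at the thin level `K₁′ = rtk6ebK q d_q`** from C4-χ-ASM on the two
charts (for every uniformizer `ϖ₁` with `ϖ₁ ^ d_q = q` and every proof of the commutation). -/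
theorem rtk6cxp_thinPlus (hq : q.Prime) (hqM' : q ∣ M) (hM0 : M ≠ 0) (hqM : ¬ q ∣ M₁)
    (hML : M ∣ M₁ * q) (w₀ : fieldBar (M₁ * q) M H ≃ₐ[Qb] fieldBar (M₁ * q) M H)
    (hw₀ : IsWAt (M₁ * q) M H q w₀) (A : ValuationSubring Qb) (hA : A.LiesOverPrime q)
    (hJ : ∀ [IsDiscreteValuationRing ↥(mgcA A (rtk6ebK q (rtk6cxpD M q H)))]
      (ϖ₁ : ↥(mgcA A (rtk6ebK q (rtk6cxpD M q H)))) (hϖ₁ : Irreducible ϖ₁)
      (_ : ϖ₁ ^ rtk6cxpD M q H = ((q : ℕ) : ↥(mgcA A (rtk6ebK q (rtk6cxpD M q H)))))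
      (hc₁ : RtkCommK (mgcE A (rtk6ebK q (rtk6cxpD M q H))) w₀)
      (𝔫₁ : AtPt (F := ↥(rtk6diF A (rtk6ebK q (rtk6cxpD M q H)) (M₁ * q) M H)) ϖ₁
        (rtk6diT A (rtk6ebK q (rtk6cxpD M q H)) (M₁ * q) M H)),
      Rtk6c4aPlusAt
        (rtk6dfV hϖ₁ M H (rtk6diwEquiv (K₀ := mgcE A (rtk6ebK q (rtk6cxpD M q H))) w₀ hc₁))
        (rtk6cxbDiam A (rtk6ebK q (rtk6cxpD M q H)) (M₁ * q) M H q) 𝔫₁)
    (hJinv : ∀ [IsDiscreteValuationRing ↥(mgcA A (rtk6ebK q (rtk6cxpD M q H)))]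
      (ϖ₁ : ↥(mgcA A (rtk6ebK q (rtk6cxpD M q H)))) (hϖ₁ : Irreducible ϖ₁)
      (_ : ϖ₁ ^ rtk6cxpD M q H = ((q : ℕ) : ↥(mgcA A (rtk6ebK q (rtk6cxpD M q H)))))
      (hc₁ : RtkCommK (mgcE A (rtk6ebK q (rtk6cxpD M q H))) w₀)
      (𝔫₁ : AtPt (F := ↥(rtk6diF A (rtk6ebK q (rtk6cxpD M q H)) (M₁ * q) M H)) ϖ₁
        (rtk6diT A (rtk6ebK q (rtk6cxpD M q H)) (M₁ * q) M H)⁻¹),
      Rtk6c4aPlusAt
        (rtk6dfV hϖ₁ M H (rtk6diwEquiv (K₀ := mgcE A (rtk6ebK q (rtk6cxpD M q H))) w₀ hc₁))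
        (rtk6cxbDiam A (rtk6ebK q (rtk6cxpD M q H)) (M₁ * q) M H q) 𝔫₁) :
    Rtk6cxbThinPlus A w₀ := by
  have hd0 : rtk6cxpD M q H ≠ 0 := rtk6cxpD_ne_zero hM0
  have hdq : ¬ q ∣ rtk6cxpD M q H := rtk6cxpD_not_dvd hq hqM' hqM hML
  obtain ⟨ϖ, hϖ⟩ := IsAlgClosed.exists_pow_nat_eq ((q : ℕ) : Qb) (Nat.pos_of_ne_zero hd0)
  haveI hDVR : IsDiscreteValuationRing ↥(mgcA A (rtk6ebK q (rtk6cxpD M q H))) :=
    rtk6eb_isDVR hq hA
  have hirr := rtk6ebVarpi_irreducible hq hA hd0 hdq hϖ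
  have hpow := rtk6ebVarpi_pow hA hd0 hϖ
  have hc₁ := rtk6cxp_commK hq hqM' hM0 hqM hML hw₀ A hA
  exact ⟨rtk6ebK q (rtk6cxpD M q H), inferInstance, inferInstance, hDVR,
    rtk6ebVarpi hA hd0 hϖ, hirr, hc₁,
    fun 𝔫₁ => hJ (rtk6ebVarpi hA hd0 hϖ) hirr hpow hc₁ 𝔫₁,
    fun 𝔫₁ => hJinv (rtk6ebVarpi hA hd0 hϖ) hirr hpow hc₁ 𝔫₁⟩

end Thin

/-! ### The providers -/

/-- **The provider `hPlus` of `rtk6cxb_geomChi`** from C4-χ-ASM on the two charts at the thin level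
`K₁′ = rtk6ebK q d_q`. -/
theorem rtk6cxp_hPlus
    (hJ : ∀ (q M₁ : ℕ) [NeZero q] [NeZero M₁] [NeZero (M₁ * q)] (M : ℕ)
      (H : Subgroup (ZMod M)ˣ) (hq : q.Prime) (hqM' : q ∣ M) (hM0 : M ≠ 0), ¬ q ∣ M₁ →
      M ∣ M₁ * q → IsStarStable M q H → IsTameAt (M₁ * q) M q H → 4 ∣ M₁ * q →
      ∀ (w₀ : fieldBar (M₁ * q) M H ≃ₐ[Qb] fieldBar (M₁ * q) M H)
        (hw₀ : IsWAt (M₁ * q) M H q w₀) (A : ValuationSubring Qb), A.LiesOverPrime q →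
      ∀ [IsDiscreteValuationRing ↥(mgcA A (rtk6ebK q (rtk6cxpD M q H)))]
        (ϖ₁ : ↥(mgcA A (rtk6ebK q (rtk6cxpD M q H)))) (hϖ₁ : Irreducible ϖ₁)
        (_ : ϖ₁ ^ rtk6cxpD M q H = ((q : ℕ) : ↥(mgcA A (rtk6ebK q (rtk6cxpD M q H)))))
        (hc₁ : RtkCommK (mgcE A (rtk6ebK q (rtk6cxpD M q H))) w₀)
        (𝔫₁ : AtPt (F := ↥(rtk6diF A (rtk6ebK q (rtk6cxpD M q H)) (M₁ * q) M H)) ϖ₁
          (rtk6diT A (rtk6ebK q (rtk6cxpD M q H)) (M₁ * q) M H)),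
        Rtk6c4aPlusAt
          (rtk6dfV hϖ₁ M H (rtk6diwEquiv (K₀ := mgcE A (rtk6ebK q (rtk6cxpD M q H))) w₀ hc₁))
          (rtk6cxbDiam A (rtk6ebK q (rtk6cxpD M q H)) (M₁ * q) M H q) 𝔫₁)
    (hJinv : ∀ (q M₁ : ℕ) [NeZero q] [NeZero M₁] [NeZero (M₁ * q)] (M : ℕ)
      (H : Subgroup (ZMod M)ˣ) (hq : q.Prime) (hqM' : q ∣ M) (hM0 : M ≠ 0), ¬ q ∣ M₁ →
      M ∣ M₁ * q → IsStarStable M q H → IsTameAt (M₁ * q) M q H → 4 ∣ M₁ * q →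
      ∀ (w₀ : fieldBar (M₁ * q) M H ≃ₐ[Qb] fieldBar (M₁ * q) M H)
        (hw₀ : IsWAt (M₁ * q) M H q w₀) (A : ValuationSubring Qb), A.LiesOverPrime q →
      ∀ [IsDiscreteValuationRing ↥(mgcA A (rtk6ebK q (rtk6cxpD M q H)))]
        (ϖ₁ : ↥(mgcA A (rtk6ebK q (rtk6cxpD M q H)))) (hϖ₁ : Irreducible ϖ₁)
        (_ : ϖ₁ ^ rtk6cxpD M q H = ((q : ℕ) : ↥(mgcA A (rtk6ebK q (rtk6cxpD M q H)))))
        (hc₁ : RtkCommK (mgcE A (rtk6ebK q (rtk6cxpD M q H))) w₀)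
        (𝔫₁ : AtPt (F := ↥(rtk6diF A (rtk6ebK q (rtk6cxpD M q H)) (M₁ * q) M H)) ϖ₁
          (rtk6diT A (rtk6ebK q (rtk6cxpD M q H)) (M₁ * q) M H)⁻¹),
        Rtk6c4aPlusAt
          (rtk6dfV hϖ₁ M H (rtk6diwEquiv (K₀ := mgcE A (rtk6ebK q (rtk6cxpD M q H))) w₀ hc₁))
          (rtk6cxbDiam A (rtk6ebK q (rtk6cxpD M q H)) (M₁ * q) M H q) 𝔫₁) :
    ∀ (q M₁ : ℕ) [NeZero q] [NeZero M₁] [NeZero (M₁ * q)] (M : ℕ)
      (H : Subgroup (ZMod M)ˣ) (hq : q.Prime) (hqM' : q ∣ M) (hM0 : M ≠ 0), ¬ q ∣ M₁ →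
      M ∣ M₁ * q → IsStarStable M q H → IsTameAt (M₁ * q) M q H → 4 ∣ M₁ * q →
      ∀ (w₀ : fieldBar (M₁ * q) M H ≃ₐ[Qb] fieldBar (M₁ * q) M H)
        (hw₀ : IsWAt (M₁ * q) M H q w₀) (A : ValuationSubring Qb), A.LiesOverPrime q →
        Rtk6cxbThinPlus A w₀ := by
  intro q M₁ _ _ _ M H hq hqM' hM0 hqM hML hstar htame h4 w₀ hw₀ A hA
  exact rtk6cxp_thinPlus hq hqM' hM0 hqM hML w₀ hw₀ A hA
    (fun ϖ₁ hϖ₁ hϖd hc₁ 𝔫₁ =>
      hJ q M₁ M H hq hqM' hM0 hqM hML hstar htame h4 w₀ hw₀ A hA ϖ₁ hϖ₁ hϖd hc₁ 𝔫₁)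
    (fun ϖ₁ hϖ₁ hϖd hc₁ 𝔫₁ =>
      hJinv q M₁ M H hq hqM' hM0 hqM hML hstar htame h4 w₀ hw₀ A hA ϖ₁ hϖ₁ hϖd hc₁ 𝔫₁)

/-- **FINAL wiring, case (χ), at the thin level `K₁′ = rtk6ebK q d_q`**: `StmtRtk6GeomChi` from the
generic (SS1-inst), C4-χ-ASM on the two charts, and the provider `hFix` ((FIX-X)). -/
theorem rtk6cxp_geomChi (hS : StmtRtk6SS1Gen)
    (hJ : ∀ (q M₁ : ℕ) [NeZero q] [NeZero M₁] [NeZero (M₁ * q)] (M : ℕ)
      (H : Subgroup (ZMod M)ˣ) (hq : q.Prime) (hqM' : q ∣ M) (hM0 : M ≠ 0), ¬ q ∣ M₁ →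
      M ∣ M₁ * q → IsStarStable M q H → IsTameAt (M₁ * q) M q H → 4 ∣ M₁ * q →
      ∀ (w₀ : fieldBar (M₁ * q) M H ≃ₐ[Qb] fieldBar (M₁ * q) M H)
        (hw₀ : IsWAt (M₁ * q) M H q w₀) (A : ValuationSubring Qb), A.LiesOverPrime q →
      ∀ [IsDiscreteValuationRing ↥(mgcA A (rtk6ebK q (rtk6cxpD M q H)))]
        (ϖ₁ : ↥(mgcA A (rtk6ebK q (rtk6cxpD M q H)))) (hϖ₁ : Irreducible ϖ₁)
        (_ : ϖ₁ ^ rtk6cxpD M q H = ((q : ℕ) : ↥(mgcA A (rtk6ebK q (rtk6cxpD M q H)))))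
        (hc₁ : RtkCommK (mgcE A (rtk6ebK q (rtk6cxpD M q H))) w₀)
        (𝔫₁ : AtPt (F := ↥(rtk6diF A (rtk6ebK q (rtk6cxpD M q H)) (M₁ * q) M H)) ϖ₁
          (rtk6diT A (rtk6ebK q (rtk6cxpD M q H)) (M₁ * q) M H)),
        Rtk6c4aPlusAt
          (rtk6dfV hϖ₁ M H (rtk6diwEquiv (K₀ := mgcE A (rtk6ebK q (rtk6cxpD M q H))) w₀ hc₁))
          (rtk6cxbDiam A (rtk6ebK q (rtk6cxpD M q H)) (M₁ * q) M H q) 𝔫₁)
    (hJinv : ∀ (q M₁ : ℕ) [NeZero q] [NeZero M₁] [NeZero (M₁ * q)] (M : ℕ)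
      (H : Subgroup (ZMod M)ˣ) (hq : q.Prime) (hqM' : q ∣ M) (hM0 : M ≠ 0), ¬ q ∣ M₁ →
      M ∣ M₁ * q → IsStarStable M q H → IsTameAt (M₁ * q) M q H → 4 ∣ M₁ * q →
      ∀ (w₀ : fieldBar (M₁ * q) M H ≃ₐ[Qb] fieldBar (M₁ * q) M H)
        (hw₀ : IsWAt (M₁ * q) M H q w₀) (A : ValuationSubring Qb), A.LiesOverPrime q →
      ∀ [IsDiscreteValuationRing ↥(mgcA A (rtk6ebK q (rtk6cxpD M q H)))]
        (ϖ₁ : ↥(mgcA A (rtk6ebK q (rtk6cxpD M q H)))) (hϖ₁ : Irreducible ϖ₁)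
        (_ : ϖ₁ ^ rtk6cxpD M q H = ((q : ℕ) : ↥(mgcA A (rtk6ebK q (rtk6cxpD M q H)))))
        (hc₁ : RtkCommK (mgcE A (rtk6ebK q (rtk6cxpD M q H))) w₀)
        (𝔫₁ : AtPt (F := ↥(rtk6diF A (rtk6ebK q (rtk6cxpD M q H)) (M₁ * q) M H)) ϖ₁
          (rtk6diT A (rtk6ebK q (rtk6cxpD M q H)) (M₁ * q) M H)⁻¹),
        Rtk6c4aPlusAt
          (rtk6dfV hϖ₁ M H (rtk6diwEquiv (K₀ := mgcE A (rtk6ebK q (rtk6cxpD M q H))) w₀ hc₁))
          (rtk6cxbDiam A (rtk6ebK q (rtk6cxpD M q H)) (M₁ * q) M H q) 𝔫₁)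
    (hFix : ∀ (q M₁ : ℕ) [NeZero q] [NeZero M₁] [NeZero (M₁ * q)] (M : ℕ)
      (H : Subgroup (ZMod M)ˣ) (hq : q.Prime) (hqM' : q ∣ M) (hM0 : M ≠ 0), ¬ q ∣ M₁ →
      M ∣ M₁ * q → IsStarStable M q H → IsTameAt (M₁ * q) M q H → 4 ∣ M₁ * q →
      ∀ (w₀ : fieldBar (M₁ * q) M H ≃ₐ[Qb] fieldBar (M₁ * q) M H)
        (hw₀ : IsWAt (M₁ * q) M H q w₀) (A : ValuationSubring Qb), A.LiesOverPrime q →
        Rtk6eiEv q A (fun K₁ _ hζ π hπ =>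
          ∀ σ ∈ A.inertiaSubgroupIn ℚ, ∀ (hσE : ∀ x ∈ mgcE A K₁, σ x ∈ mgcE A K₁)
            (c' : (ZMod M)ˣ), IsAtR M q c' →
            ∀ δ₀' : ↥(rtk6diF A K₁ (M₁ * q) M H) ≃ₐ[↥(mgcE A K₁)]
                ↥(rtk6diF A K₁ (M₁ * q) M H),
              IsDiamondC ↥(mgcE A K₁) (M₁ * q) M H c' δ₀' →
              ∀ u : ↥(rtk6diF A K₁ (M₁ * q) M H),
                (u = rtk6diT A K₁ (M₁ * q) M H ∨ u = (rtk6diT A K₁ (M₁ * q) M H)⁻¹) →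
                Rtk6emFixAt A K₁ (M₁ * q) M H π
                  (rtk6dfV hπ M H (rtk6diwW (K₀ := mgcE A K₁) w₀ hw₀ hM0 hq hqM' hζ))
                  (rtk6diGal (M₁ * q) M H σ hσE) u ∧
                Rtk6emCongAt A K₁ (M₁ * q) M H π
                  (rtk6dfV hπ M H (rtk6diwW (K₀ := mgcE A K₁) w₀ hw₀ hM0 hq hqM' hζ))
                  (SemilinearAut.ofAlgAut δ₀') u)) :
    StmtRtk6GeomChi :=
  rtk6cxb_geomChi hS (rtk6cxp_hPlus hJ hJinv) hFix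

end Fermat.Agent.RT.K6

end
end ZBRT_099_5

/-! ### bundled: `Fermat.Agent.RT.K6.HStabDiam` -/
section ZBRT_099_6
/-
K-machine, piece K6, piece **HSTAB-inst** (helper11): the diamonds of the two levels
`K₁′ ≤ K₁` are compatible with the coefficientwise inclusion
`rtk6dbcIncl L M H h : F₁ = rtk6diF A K₁′ L M H →+* F′ = rtk6diF A K₁ L M H` (`RT/K6/DBCConc.lean`).

* `rtk6hs_nfEmbH_incl`     : `nfEmbH E′ ∘ incl = nfEmbH E₁`;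
* **`rtk6hs_diamond_incl`** : `δ′ (incl x) = incl (δ₁ x)` for diamonds `δ′`, `δ₁` with the same `c`;
* `rtk6hs_exists_diamond_incl` : every diamond `δ′` of `F′` restricts to a diamond `δ₁` of `F₁`;
* `rtk6hsDiam_restrict`    : the form needed for `rtk6hs_thinAt_transfer`
  (`RT/K6/HStabThinTr.lean`) with `D = rtk6hsDiam A K₁ …`, `D₁ = rtk6hsDiam A K₁′ …`;
* `rtk6hsDiam_restrict_smul` : the form needed for `rtk6hs_thinAt_of_plusAt_transfer`, for `𝒢`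
  containing `SemilinearAut.ofAlgAut δ₁` for the diamonds `δ₁` at `r` of `F₁`.
-/

set_option autoImplicit false
set_option linter.style.haveILetI false
set_option linter.unusedSectionVars false
set_option linter.unusedVariables false

noncomputable section

namespace Fermat.Agent.RT.K6

open ModularCurve AlgebraicCurve Fermat.Agent.ES Fermat.Agent.ES.G2 Fermat.Agent.INJ
open Fermat.Agent.UNIP Fermat.Agent.STB Fermat.Agent.ES1 Fermat.Agent.ES1.G2 IntermediateField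

section Diam

variable {A : ValuationSubring Qb} {K₁' K₁ : IntermediateField ℚ Qb}
  {L M : ℕ} {H : Subgroup (ZMod M)ˣ}

/-- `nfEmbH E′ ∘ incl = nfEmbH E₁` -/
theorem rtk6hs_nfEmbH_incl (h : K₁' ≤ K₁) (x : ↥(rtk6diF A K₁' L M H)) :
    nfEmbH (mgcE A K₁) L M H (rtk6dbcIncl (A := A) L M H h x) = nfEmbH (mgcE A K₁') L M H x := by
  apply Subtype.ext
  show coeffMap (algebraMap ↥(mgcE A K₁) Qb)
      (coeffMap (IntermediateField.inclusion (rtk6eb_mgcE_mono (A := A) h)).toRingHom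
        (x : LaurentSeries ↥(mgcE A K₁'))) =
    coeffMap (algebraMap ↥(mgcE A K₁') Qb) (x : LaurentSeries ↥(mgcE A K₁'))
  rw [coeffMap_coeffMap]
  rfl

/-- **The diamonds of the two levels are compatible with the coefficientwise inclusion.** -/
theorem rtk6hs_diamond_incl [NeZero M] (hL : L ≠ 0) (hML : M ∣ L) (h : K₁' ≤ K₁)
    {c : (ZMod M)ˣ}
    {δ' : ↥(rtk6diF A K₁ L M H) ≃ₐ[↥(mgcE A K₁)] ↥(rtk6diF A K₁ L M H)}
    (hδ' : IsDiamondC ↥(mgcE A K₁) L M H c δ')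
    {δ₁ : ↥(rtk6diF A K₁' L M H) ≃ₐ[↥(mgcE A K₁')] ↥(rtk6diF A K₁' L M H)}
    (hδ₁ : IsDiamondC ↥(mgcE A K₁') L M H c δ₁) (x : ↥(rtk6diF A K₁' L M H)) :
    δ' (rtk6dbcIncl (A := A) L M H h x) = rtk6dbcIncl (A := A) L M H h (δ₁ x) := by
  obtain ⟨δ, hδ⟩ := rtk6diw_exists_diamondH (H := H) hL hML c
  apply nfEmbH_injective (mgcE A K₁) L M H
  rw [rtk6diw_diamond_nfEmbH hδ' hδ, rtk6hs_nfEmbH_incl, rtk6hs_nfEmbH_incl,
    rtk6diw_diamond_nfEmbH hδ₁ hδ]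

/-- every diamond of `F′` restricts to a diamond of `F₁` -/
theorem rtk6hs_exists_diamond_incl [NeZero M] (hL : L ≠ 0) (hML : M ∣ L) (h : K₁' ≤ K₁)
    {c : (ZMod M)ˣ}
    {δ' : ↥(rtk6diF A K₁ L M H) ≃ₐ[↥(mgcE A K₁)] ↥(rtk6diF A K₁ L M H)}
    (hδ' : IsDiamondC ↥(mgcE A K₁) L M H c δ') :
    ∃ δ₁ : ↥(rtk6diF A K₁' L M H) ≃ₐ[↥(mgcE A K₁')] ↥(rtk6diF A K₁' L M H),
      IsDiamondC ↥(mgcE A K₁') L M H c δ₁ ∧
      ∀ x, δ' (rtk6dbcIncl (A := A) L M H h x) = rtk6dbcIncl (A := A) L M H h (δ₁ x) := by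
  haveI : Algebra.IsAlgebraic ℚ Qb := AlgebraicClosure.isAlgebraic ℚ
  haveI : Algebra.IsAlgebraic ℚ ↥(mgcE A K₁') :=
    Algebra.IsAlgebraic.of_injective (mgcE A K₁').val Subtype.val_injective
  obtain ⟨δ₁, hδ₁⟩ := rtk6d0_exists_diamond ↥(mgcE A K₁') H hL hML c
  exact ⟨δ₁, hδ₁, rtk6hs_diamond_incl hL hML h hδ' hδ₁⟩

variable [IsDiscreteValuationRing ↥(mgcA A K₁')] [IsDiscreteValuationRing ↥(mgcA A K₁)]

/-- the diamonds at `r` of `F′` restrict to diamonds at `r` of `F₁`: the hypothesis `hD` of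
`rtk6hs_thinAt_transfer` -/
theorem rtk6hsDiam_restrict [NeZero M] (hL : L ≠ 0) (hML : M ∣ L) (h : K₁' ≤ K₁) (r : ℕ) :
    ∀ δ ∈ rtk6hsDiam A K₁ L M H r, ∃ δ₁ ∈ rtk6hsDiam A K₁' L M H r,
      ∀ x : ↥(rtk6diF A K₁' L M H),
        δ (rtk6dbcIncl (A := A) L M H h x) = rtk6dbcIncl (A := A) L M H h (δ₁ x) := by
  rintro _ ⟨c, δ', hc, hδ', rfl⟩
  obtain ⟨δ₁, hδ₁, hcomm⟩ := rtk6hs_exists_diamond_incl hL hML h hδ'
  exact ⟨δ₁.toRingEquiv.toRingHom, ⟨c, δ₁, hc, hδ₁, rfl⟩, hcomm⟩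

/-- the hypothesis `hD` of `rtk6hs_thinAt_of_plusAt_transfer`, for a set `𝒢` of semilinear
automorphisms of `F₁` containing the diamonds at `r` -/
theorem rtk6hsDiam_restrict_smul [NeZero M] (hL : L ≠ 0) (hML : M ∣ L) (h : K₁' ≤ K₁) (r : ℕ)
    (𝒢 : Set (SemilinearAut ↥(mgcE A K₁') ↥(rtk6diF A K₁' L M H)))
    (h𝒢 : ∀ c : (ZMod M)ˣ, IsAtR M r c →
      ∀ δ₁ : ↥(rtk6diF A K₁' L M H) ≃ₐ[↥(mgcE A K₁')] ↥(rtk6diF A K₁' L M H),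
        IsDiamondC ↥(mgcE A K₁') L M H c δ₁ → SemilinearAut.ofAlgAut δ₁ ∈ 𝒢) :
    ∀ δ ∈ rtk6hsDiam A K₁ L M H r, ∃ g ∈ 𝒢,
      ∀ x : ↥(rtk6diF A K₁' L M H),
        δ (rtk6dbcIncl (A := A) L M H h x) = rtk6dbcIncl (A := A) L M H h (g • x) := by
  rintro _ ⟨c, δ', hc, hδ', rfl⟩
  obtain ⟨δ₁, hδ₁, hcomm⟩ := rtk6hs_exists_diamond_incl hL hML h hδ'
  exact ⟨SemilinearAut.ofAlgAut δ₁, h𝒢 c hc δ₁ hδ₁, hcomm⟩

end Diam

end Fermat.Agent.RT.K6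

end
end ZBRT_099_6

/-! ### bundled: `Fermat.Agent.RT.K6.FixXInst` -/
section ZBRT_099_7
/-
K-machine, piece K6, piece **FIX-X** (helper67), the PROVIDER: the hypothesis `hFix` of
`rtk6ei_geomChi_of_pieces` (`RT/K6/EInstGlue.lean`) / `rtk6cxb_geomChi`
(`RT/K6/C4ChiInstBThin.lean`), VERBATIM, from the generic (SS1-inst) and the dichotomy with C4+
at ONE thin level per level datum, for the set of automorphisms

  `rtk6fxxG A K₁′ L M H q` = `{σ̂ = rtk6diGal σ | σ ∈ I_A} ∪ {diamonds at q}`.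

* `rtk6fxxG`, `rtk6fxx_gal_mem_G`, `rtk6fxx_diamond_mem_G`, `rtk6fxx_cxbDiam_subset_G`;
* `Rtk6fxxThinPlus A w₀` : the open input — LITERALLY helper76's `Rtk6cxbThinPlus A w₀` with
  `rtk6cxbDiam` replaced by the bigger set `rtk6fxxG`; `Rtk6fxxThinPlus.cxb` (monotonicity);
* `rtk6fxx_fixCong_E` : `Rtk6emFixAt … σ̂ u ∧ Rtk6emCongAt … δ′ u` at `K₁ ⊇ K₁′`, both charts;
* `rtk6fxx_ev`        : the same at all sufficiently large `K₁` (`Rtk6eiEv`, `K₀ := K₁′`);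
* **`rtk6fxx_hFix`**    : the provider `hFix`, VERBATIM;
* **`rtk6fxx_geomChi`** : `StmtRtk6SS1Gen → (hPlus with rtk6fxxG) → StmtRtk6GeomChi`.
-/

set_option autoImplicit false
set_option linter.style.haveILetI false
set_option linter.unusedSectionVars false
set_option linter.unusedVariables false
set_option linter.style.longLine false

noncomputable section

namespace Fermat.Agent.RT.K6

open ModularCurve AlgebraicCurve Fermat.Agent.ES Fermat.Agent.ES.G2 Fermat.Agent.INJ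
open Fermat.Agent.UNIP Fermat.Agent.STB Fermat.Agent.ES1 Fermat.Agent.ES1.G2 IntermediateField

/-! ### The set of automorphisms -/

section G

variable (A : ValuationSubring Qb) (K₁ : IntermediateField ℚ Qb)
  (L M : ℕ) (H : Subgroup (ZMod M)ˣ)

/-- **The automorphisms of FIX-X**: the coefficientwise actions `σ̂` of the elements of the
inertia group of `A`, and the diamonds at `r`. -/
def rtk6fxxG (r : ℕ) : Set (SemilinearAut ↥(mgcE A K₁) ↥(rtk6diF A K₁ L M H)) :=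
  {g | (∃ (σ : Qb ≃ₐ[ℚ] Qb) (hσ : ∀ x ∈ mgcE A K₁, σ x ∈ mgcE A K₁),
      σ ∈ A.inertiaSubgroupIn ℚ ∧ g = rtk6diGal L M H σ hσ) ∨
    g ∈ rtk6cxbDiam A K₁ L M H r}

variable {A K₁ L M H}

theorem rtk6fxx_gal_mem_G (r : ℕ) {σ : Qb ≃ₐ[ℚ] Qb} (hσI : σ ∈ A.inertiaSubgroupIn ℚ)
    (hσ : ∀ x ∈ mgcE A K₁, σ x ∈ mgcE A K₁) :
    rtk6diGal L M H σ hσ ∈ rtk6fxxG A K₁ L M H r :=
  Or.inl ⟨σ, hσ, hσI, rfl⟩

theorem rtk6fxx_diamond_mem_G {r : ℕ} {c : (ZMod M)ˣ} (hc : IsAtR M r c)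
    {δ : ↥(rtk6diF A K₁ L M H) ≃ₐ[↥(mgcE A K₁)] ↥(rtk6diF A K₁ L M H)}
    (hδ : IsDiamondC ↥(mgcE A K₁) L M H c δ) :
    SemilinearAut.ofAlgAut δ ∈ rtk6fxxG A K₁ L M H r :=
  Or.inr ⟨c, δ, hc, hδ, rfl⟩

theorem rtk6fxx_cxbDiam_subset_G (r : ℕ) :
    rtk6cxbDiam A K₁ L M H r ⊆ rtk6fxxG A K₁ L M H r := fun _ hg => Or.inr hg

end G

/-! ### One pair of levels -/

section Level

variable {A : ValuationSubring Qb} {K₁' K₁ : IntermediateField ℚ Qb}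
  [NumberField ↥K₁'] [IsGalois ℚ ↥K₁'] [NumberField ↥K₁] [IsGalois ℚ ↥K₁]
  [IsDiscreteValuationRing ↥(mgcA A K₁')] [IsDiscreteValuationRing ↥(mgcA A K₁)]
  {q M₁ : ℕ} [NeZero q] [NeZero M₁] [NeZero (M₁ * q)] {M : ℕ} {H : Subgroup (ZMod M)ˣ}

/-- the inclusion `E₁ → E′` is the inclusion on the underlying elements of `ℚ̄` -/
theorem rtk6fxx_hf (h : K₁' ≤ K₁) (a : ↥(mgcE A K₁')) :
    (((IntermediateField.inclusion (rtk6eb_mgcE_mono (A := A) h)).toRingHom a :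
      ↥(mgcE A K₁)) : Qb) = (a : Qb) := by
  rw [AlgHom.toRingHom_eq_coe, RingHom.coe_coe, IntermediateField.coe_inclusion]

/-- the (D-BC) datum in the shape of `rtk6fxx_provider` -/
theorem rtk6fxx_hD_of_dbc {L : ℕ} (h : K₁' ≤ K₁)
    {ϖ₁ : ↥(mgcA A K₁')} {π : ↥(mgcA A K₁)} {q' : ↥(mgcA A K₁)}
    {u₁ : ↥(rtk6diF A K₁' L M H)} {u : ↥(rtk6diF A K₁ L M H)}
    (hD : ∃ j : ↥(zchClosure (A₀ := ↥(mgcA A K₁'))
          ({u₁} : Set ↥(rtk6diF A K₁' L M H))) →+*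
        ↥(zchClosure (A₀ := ↥(mgcA A K₁)) ({u} : Set ↥(rtk6diF A K₁ L M H))),
      (∀ b, ((j b : ↥(zchClosure (A₀ := ↥(mgcA A K₁))
        ({u} : Set ↥(rtk6diF A K₁ L M H)))) : ↥(rtk6diF A K₁ L M H)) =
          rtk6dbcIncl (A := A) L M H h (b : ↥(rtk6diF A K₁' L M H))) ∧
      MgcRamified j
        (algebraMap ↥(mgcA A K₁) ↥(zchClosure (A₀ := ↥(mgcA A K₁))
          ({u} : Set ↥(rtk6diF A K₁ L M H))) π)
        (algebraMap ↥(mgcA A K₁') ↥(zchClosure (A₀ := ↥(mgcA A K₁'))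
          ({u₁} : Set ↥(rtk6diF A K₁' L M H))) ϖ₁) ∧
      j (algebraMap ↥(mgcA A K₁') ↥(zchClosure (A₀ := ↥(mgcA A K₁'))
          ({u₁} : Set ↥(rtk6diF A K₁' L M H))) ϖ₁) =
        algebraMap ↥(mgcA A K₁) ↥(zchClosure (A₀ := ↥(mgcA A K₁))
          ({u} : Set ↥(rtk6diF A K₁ L M H))) q') :
    ∃ j : ↥(zchClosure (A₀ := ↥(mgcA A K₁'))
          ({u₁} : Set ↥(rtk6diF A K₁' L M H))) →+*
        ↥(zchClosure (A₀ := ↥(mgcA A K₁)) ({u} : Set ↥(rtk6diF A K₁ L M H))),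
      (∀ b, ((j b : ↥(zchClosure (A₀ := ↥(mgcA A K₁))
        ({u} : Set ↥(rtk6diF A K₁ L M H)))) : ↥(rtk6diF A K₁ L M H)) =
          rtk6diCoeffHom L M H
            (IntermediateField.inclusion (rtk6eb_mgcE_mono (A := A) h)).toRingHom
            (b : ↥(rtk6diF A K₁' L M H))) ∧
      MgcRamified j
        (algebraMap ↥(mgcA A K₁) ↥(zchClosure (A₀ := ↥(mgcA A K₁))
          ({u} : Set ↥(rtk6diF A K₁ L M H))) π)
        (algebraMap ↥(mgcA A K₁') ↥(zchClosure (A₀ := ↥(mgcA A K₁'))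
          ({u₁} : Set ↥(rtk6diF A K₁' L M H))) ϖ₁) := by
  obtain ⟨j, hj, hram, -⟩ := hD
  exact ⟨j, fun b => hj b, hram⟩

set_option maxHeartbeats 1000000 in
/-- **FIX-X at `K₁`**, both charts, from `Rtk6emFam` + `Rtk6emSS1` and the dichotomy with C4+
for `rtk6fxxG` on the two charts at a lower level `K₁′ ≤ K₁`, and `Rtk6emFam` at `K₁`. -/
theorem rtk6fxx_fixCong_E (hq : q.Prime) (hA : A.LiesOverPrime q) (h : K₁' ≤ K₁)
    (hML : M ∣ M₁ * q)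
    {ϖ₁ : ↥(mgcA A K₁')} (hϖ₁ : Irreducible ϖ₁) {π : ↥(mgcA A K₁)} (hπ : Irreducible π)
    {κ₁ : Type} {V₁ : κ₁ → ValuationSubring ↥(rtk6diF A K₁' (M₁ * q) M H)}
    (fam₁ : Rtk6emFam A K₁' (M₁ * q) M H ϖ₁ V₁) (ss1₁ : Rtk6emSS1 A K₁' (M₁ * q) M H ϖ₁ V₁)
    {κ : Type} {V : κ → ValuationSubring ↥(rtk6diF A K₁ (M₁ * q) M H)}
    (fam : Rtk6emFam A K₁ (M₁ * q) M H π V)
    (hP₁ : ∀ 𝔫₁ : AtPt (F := ↥(rtk6diF A K₁' (M₁ * q) M H)) ϖ₁ (rtk6diT A K₁' (M₁ * q) M H),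
      Rtk6c4aPlusAt V₁ (rtk6fxxG A K₁' (M₁ * q) M H q) 𝔫₁)
    (hP₂ : ∀ 𝔫₁ : AtPt (F := ↥(rtk6diF A K₁' (M₁ * q) M H)) ϖ₁
        (rtk6diT A K₁' (M₁ * q) M H)⁻¹,
      Rtk6c4aPlusAt V₁ (rtk6fxxG A K₁' (M₁ * q) M H q) 𝔫₁)
    {σ : Qb ≃ₐ[ℚ] Qb} (hσI : σ ∈ A.inertiaSubgroupIn ℚ)
    (hσE : ∀ x ∈ mgcE A K₁, σ x ∈ mgcE A K₁)
    {c' : (ZMod M)ˣ} (hc' : IsAtR M q c')
    {δ₀' : ↥(rtk6diF A K₁ (M₁ * q) M H) ≃ₐ[↥(mgcE A K₁)] ↥(rtk6diF A K₁ (M₁ * q) M H)}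
    (hδ₀' : IsDiamondC ↥(mgcE A K₁) (M₁ * q) M H c' δ₀')
    {u : ↥(rtk6diF A K₁ (M₁ * q) M H)}
    (hu : u = rtk6diT A K₁ (M₁ * q) M H ∨ u = (rtk6diT A K₁ (M₁ * q) M H)⁻¹) :
    Rtk6emFixAt A K₁ (M₁ * q) M H π V (rtk6diGal (M₁ * q) M H σ hσE) u ∧
      Rtk6emCongAt A K₁ (M₁ * q) M H π V (SemilinearAut.ofAlgAut δ₀') u := by
  have hL : M₁ * q ≠ 0 := NeZero.ne (M₁ * q)
  haveI : NeZero M := ⟨fun h0 => hL (Nat.eq_zero_of_zero_dvd (h0 ▸ hML))⟩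
  have hσD : σ ∈ A.decompositionSubgroup ℚ := kron_mem_decomposition_of_mem_inertia hσI
  have hσ₁ : ∀ x ∈ mgcE A K₁', σ x ∈ mgcE A K₁' := rtk6eb_stable hσI K₁'
  obtain ⟨δ₁, hδ₁, -⟩ := rtk6hs_exists_diamond_incl (K₁' := K₁') hL hML h hδ₀'
  have hGσ : rtk6diGal (M₁ * q) M H σ hσ₁ ∈ rtk6fxxG A K₁' (M₁ * q) M H q :=
    rtk6fxx_gal_mem_G q hσI hσ₁
  have hGδ : SemilinearAut.ofAlgAut δ₁ ∈ rtk6fxxG A K₁' (M₁ * q) M H q :=
    rtk6fxx_diamond_mem_G hc' hδ₁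
  rcases hu with rfl | rfl
  · have hD := rtk6fxx_hD_of_dbc (H := H) h
      (rtk6dbc_chart_t_of_ss1 (M₁ * q) M H hq hA h hL hML hϖ₁ hπ fam₁ ss1₁)
    have hthσ : Rtk6fxxThin ϖ₁ (rtk6diGal (M₁ * q) M H σ hσ₁)
        (rtk6diT A K₁' (M₁ * q) M H) := fun 𝔫₁ => (hP₁ 𝔫₁).fixCong hGσ
    have hthδ : Rtk6fxxThin ϖ₁ (SemilinearAut.ofAlgAut δ₁)
        (rtk6diT A K₁' (M₁ * q) M H) := fun 𝔫₁ => (hP₁ 𝔫₁).fixCong hGδ
    exact rtk6fxx_provider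
      (IntermediateField.inclusion (rtk6eb_mgcE_mono (A := A) h)).toRingHom (rtk6fxx_hf h) V
      hL hML hπ fam (Or.inl rfl) hD hσD hσ₁ hσE hthσ hδ₁ hδ₀' hthδ
  · have hD := rtk6fxx_hD_of_dbc (H := H) h
      (rtk6dbc_chart_tinv_of_ss1 (M₁ * q) M H hq hA h hL hML hϖ₁ hπ fam₁ ss1₁)
    have hthσ : Rtk6fxxThin ϖ₁ (rtk6diGal (M₁ * q) M H σ hσ₁)
        (rtk6diT A K₁' (M₁ * q) M H)⁻¹ := fun 𝔫₁ => (hP₂ 𝔫₁).fixCong hGσ
    have hthδ : Rtk6fxxThin ϖ₁ (SemilinearAut.ofAlgAut δ₁)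
        (rtk6diT A K₁' (M₁ * q) M H)⁻¹ := fun 𝔫₁ => (hP₂ 𝔫₁).fixCong hGδ
    exact rtk6fxx_provider
      (IntermediateField.inclusion (rtk6eb_mgcE_mono (A := A) h)).toRingHom (rtk6fxx_hf h) V
      hL hML hπ fam (Or.inr rfl) hD hσD hσ₁ hσE hthσ hδ₁ hδ₀' hthδ

end Level

/-! ### The open input and the provider -/

section Ev

variable {q M₁ : ℕ} [NeZero q] [NeZero M₁] [NeZero (M₁ * q)] {M : ℕ} {H : Subgroup (ZMod M)ˣ}

/-- **The open input of FIX-X** (C4-χ-ASM at ONE thin level, with C4+ for the inertia group and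
the diamonds at `q`): helper76's `Rtk6cxbThinPlus` with the set `rtk6fxxG`. -/
def Rtk6fxxThinPlus (A : ValuationSubring Qb)
    (w₀ : fieldBar (M₁ * q) M H ≃ₐ[Qb] fieldBar (M₁ * q) M H) : Prop :=
  ∃ (K₁' : IntermediateField ℚ Qb) (_ : NumberField ↥K₁') (_ : IsGalois ℚ ↥K₁')
    (_ : IsDiscreteValuationRing ↥(mgcA A K₁')) (ϖ₁ : ↥(mgcA A K₁')) (hϖ₁ : Irreducible ϖ₁)
    (hc₁ : RtkCommK (mgcE A K₁') w₀),
    (∀ 𝔫₁ : AtPt (F := ↥(rtk6diF A K₁' (M₁ * q) M H)) ϖ₁ (rtk6diT A K₁' (M₁ * q) M H),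
      Rtk6c4aPlusAt (rtk6dfV hϖ₁ M H (rtk6diwEquiv (K₀ := mgcE A K₁') w₀ hc₁))
        (rtk6fxxG A K₁' (M₁ * q) M H q) 𝔫₁) ∧
    (∀ 𝔫₁ : AtPt (F := ↥(rtk6diF A K₁' (M₁ * q) M H)) ϖ₁
        (rtk6diT A K₁' (M₁ * q) M H)⁻¹,
      Rtk6c4aPlusAt (rtk6dfV hϖ₁ M H (rtk6diwEquiv (K₀ := mgcE A K₁') w₀ hc₁))
        (rtk6fxxG A K₁' (M₁ * q) M H q) 𝔫₁)

/-- the input of FIX-X contains the input of C4-χ-inst (B) -/
theorem Rtk6fxxThinPlus.cxb {A : ValuationSubring Qb}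
    {w₀ : fieldBar (M₁ * q) M H ≃ₐ[Qb] fieldBar (M₁ * q) M H}
    (hT : Rtk6fxxThinPlus A w₀) : Rtk6cxbThinPlus A w₀ := by
  obtain ⟨K₁', hNF, hGal, hDVR, ϖ₁, hϖ₁, hc₁, hP₁, hP₂⟩ := hT
  exact ⟨K₁', hNF, hGal, hDVR, ϖ₁, hϖ₁, hc₁,
    fun 𝔫₁ => (hP₁ 𝔫₁).mono (rtk6fxx_cxbDiam_subset_G q),
    fun 𝔫₁ => (hP₂ 𝔫₁).mono (rtk6fxx_cxbDiam_subset_G q)⟩

/-- **FIX-X at all sufficiently large `K₁`** (`K₀ := K₁′`) from the open input. -/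
theorem rtk6fxx_ev (hS : StmtRtk6SS1Gen) (hq : q.Prime) (hqM' : q ∣ M) (hM0 : M ≠ 0)
    (hqM : ¬ q ∣ M₁) (hML : M ∣ M₁ * q) (htame : IsTameAt (M₁ * q) M q H) (h4 : 4 ∣ M₁ * q)
    (w₀ : fieldBar (M₁ * q) M H ≃ₐ[Qb] fieldBar (M₁ * q) M H)
    (hw₀ : IsWAt (M₁ * q) M H q w₀) {A : ValuationSubring Qb} (hA : A.LiesOverPrime q)
    (hT : Rtk6fxxThinPlus A w₀) :
    Rtk6eiEv q A (fun K₁ _ hζ π hπ =>
      ∀ σ ∈ A.inertiaSubgroupIn ℚ, ∀ (hσE : ∀ x ∈ mgcE A K₁, σ x ∈ mgcE A K₁)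
        (c' : (ZMod M)ˣ), IsAtR M q c' →
        ∀ δ₀' : ↥(rtk6diF A K₁ (M₁ * q) M H) ≃ₐ[↥(mgcE A K₁)]
            ↥(rtk6diF A K₁ (M₁ * q) M H),
          IsDiamondC ↥(mgcE A K₁) (M₁ * q) M H c' δ₀' →
          ∀ u : ↥(rtk6diF A K₁ (M₁ * q) M H),
            (u = rtk6diT A K₁ (M₁ * q) M H ∨ u = (rtk6diT A K₁ (M₁ * q) M H)⁻¹) →
            Rtk6emFixAt A K₁ (M₁ * q) M H π
              (rtk6dfV hπ M H (rtk6diwW (K₀ := mgcE A K₁) w₀ hw₀ hM0 hq hqM' hζ))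
              (rtk6diGal (M₁ * q) M H σ hσE) u ∧
            Rtk6emCongAt A K₁ (M₁ * q) M H π
              (rtk6dfV hπ M H (rtk6diwW (K₀ := mgcE A K₁) w₀ hw₀ hM0 hq hqM' hζ))
              (SemilinearAut.ofAlgAut δ₀') u) := by
  obtain ⟨K₁', hNF, hGal, hDVR, ϖ₁, hϖ₁, hc₁, hP₁, hP₂⟩ := hT
  haveI := hNF
  haveI := hGal
  haveI := hDVR
  refine ⟨K₁', inferInstance, fun K₁ _ _ _ hK hζ π hπ σ hσI hσE c' hc' δ₀' hδ₀' u hu => ?_⟩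
  have hwI := rtk6w1_wIncl w₀ hw₀ hc₁ hq (mgdIota (mgcE A K₁')) hqM
  have fam₁ := rtk6m1_emFam hϖ₁ (mgdIota (mgcE A K₁')) hq hqM hwI hA hML
  have ss1₁ := hS q M₁ M H hq hqM hML htame h4 A hA K₁' hϖ₁ (mgdIota (mgcE A K₁')) _ hwI
  have fam := rtk6m1_emFam_W hπ (mgdIota (mgcE A K₁)) w₀ hw₀ hM0 hq hqM' hqM hζ hA hML
  exact rtk6fxx_fixCong_E hq hA hK hML hϖ₁ hπ fam₁ ss1₁ fam hP₁ hP₂ hσI hσE hc' hδ₀' hu

end Ev

/-- **The provider `hFix` of `rtk6ei_geomChi_of_pieces` / `rtk6cxb_geomChi`**, VERBATIM, from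
the generic (SS1-inst) and the dichotomy with C4+ for `rtk6fxxG` at ONE thin level per level
datum. -/
theorem rtk6fxx_hFix (hS : StmtRtk6SS1Gen)
    (hPlus : ∀ (q M₁ : ℕ) [NeZero q] [NeZero M₁] [NeZero (M₁ * q)] (M : ℕ)
      (H : Subgroup (ZMod M)ˣ) (hq : q.Prime) (hqM' : q ∣ M) (hM0 : M ≠ 0), ¬ q ∣ M₁ →
      M ∣ M₁ * q → IsStarStable M q H → IsTameAt (M₁ * q) M q H → 4 ∣ M₁ * q →
      ∀ (w₀ : fieldBar (M₁ * q) M H ≃ₐ[Qb] fieldBar (M₁ * q) M H)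
        (hw₀ : IsWAt (M₁ * q) M H q w₀) (A : ValuationSubring Qb), A.LiesOverPrime q →
        Rtk6fxxThinPlus A w₀) :
    ∀ (q M₁ : ℕ) [NeZero q] [NeZero M₁] [NeZero (M₁ * q)] (M : ℕ)
      (H : Subgroup (ZMod M)ˣ) (hq : q.Prime) (hqM' : q ∣ M) (hM0 : M ≠ 0), ¬ q ∣ M₁ →
      M ∣ M₁ * q → IsStarStable M q H → IsTameAt (M₁ * q) M q H → 4 ∣ M₁ * q →
      ∀ (w₀ : fieldBar (M₁ * q) M H ≃ₐ[Qb] fieldBar (M₁ * q) M H)
        (hw₀ : IsWAt (M₁ * q) M H q w₀) (A : ValuationSubring Qb), A.LiesOverPrime q →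
        Rtk6eiEv q A (fun K₁ _ hζ π hπ =>
          ∀ σ ∈ A.inertiaSubgroupIn ℚ, ∀ (hσE : ∀ x ∈ mgcE A K₁, σ x ∈ mgcE A K₁)
            (c' : (ZMod M)ˣ), IsAtR M q c' →
            ∀ δ₀' : ↥(rtk6diF A K₁ (M₁ * q) M H) ≃ₐ[↥(mgcE A K₁)]
                ↥(rtk6diF A K₁ (M₁ * q) M H),
              IsDiamondC ↥(mgcE A K₁) (M₁ * q) M H c' δ₀' →
              ∀ u : ↥(rtk6diF A K₁ (M₁ * q) M H),
                (u = rtk6diT A K₁ (M₁ * q) M H ∨ u = (rtk6diT A K₁ (M₁ * q) M H)⁻¹) →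
                Rtk6emFixAt A K₁ (M₁ * q) M H π
                  (rtk6dfV hπ M H (rtk6diwW (K₀ := mgcE A K₁) w₀ hw₀ hM0 hq hqM' hζ))
                  (rtk6diGal (M₁ * q) M H σ hσE) u ∧
                Rtk6emCongAt A K₁ (M₁ * q) M H π
                  (rtk6dfV hπ M H (rtk6diwW (K₀ := mgcE A K₁) w₀ hw₀ hM0 hq hqM' hζ))
                  (SemilinearAut.ofAlgAut δ₀') u) := by
  intro q M₁ _ _ _ M H hq hqM' hM0 hqM hML hstar htame h4 w₀ hw₀ A hA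
  exact rtk6fxx_ev hS hq hqM' hM0 hqM hML htame h4 w₀ hw₀ hA
    (hPlus q M₁ M H hq hqM' hM0 hqM hML hstar htame h4 w₀ hw₀ A hA)

/-- **FINAL wiring, case (χ), ONE open input**: `StmtRtk6GeomChi` from the generic (SS1-inst) and
the dichotomy with C4+ for the inertia group and the diamonds at `q` at ONE thin level per level
datum (C4-χ-ASM). -/
theorem rtk6fxx_geomChi (hS : StmtRtk6SS1Gen)
    (hPlus : ∀ (q M₁ : ℕ) [NeZero q] [NeZero M₁] [NeZero (M₁ * q)] (M : ℕ)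
      (H : Subgroup (ZMod M)ˣ) (hq : q.Prime) (hqM' : q ∣ M) (hM0 : M ≠ 0), ¬ q ∣ M₁ →
      M ∣ M₁ * q → IsStarStable M q H → IsTameAt (M₁ * q) M q H → 4 ∣ M₁ * q →
      ∀ (w₀ : fieldBar (M₁ * q) M H ≃ₐ[Qb] fieldBar (M₁ * q) M H)
        (hw₀ : IsWAt (M₁ * q) M H q w₀) (A : ValuationSubring Qb), A.LiesOverPrime q →
        Rtk6fxxThinPlus A w₀) :
    StmtRtk6GeomChi :=
  rtk6cxb_geomChi hS
    (fun q M₁ _ _ _ M H hq hqM' hM0 hqM hML hstar htame h4 w₀ hw₀ A hA =>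
      (hPlus q M₁ M H hq hqM' hM0 hqM hML hstar htame h4 w₀ hw₀ A hA).cxb)
    (rtk6fxx_hFix hS hPlus)

end Fermat.Agent.RT.K6

end
end ZBRT_099_7
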