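/- GENERATED FILE (helper35, build-time optimisation, NOTES/ZB.md): verbatim concatenation of the modules
   Fermat.Agent.RT.K6.C4FDiam
   Fermat.Agent.RT.K6.GenCrossInst
   Fermat.Agent.RT.K6.C4AsmJ
   Fermat.Agent.RT.K6.GenCrossInv
   Fermat.Agent.RT.K6.C4FAut
   Fermat.Agent.RT.K6.C4ChiWire
   Fermat.Agent.RT.K6.C4FGen
   Fermat.Agent.RT.K6.C4FNorm
   Fermat.Agent.RT.K6.C4ChiWireGen
   Fermat.Agent.RT.K6.C4ThrChi
   Fermat.Agent.RT.K6.FixXB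
   Fermat.Agent.RT.K6.FixXBT2
   Fermat.Agent.RT.K6.C4ChiPlusG
   Fermat.Agent.RT.K6.C4AsmJInv
   Fermat.Agent.RT.K6.C4ThrChiInv
   Do not edit; do not import together with these modules. -/
import Fermat.Agent.ZB.ES1_010
import Fermat.Agent.ZB.ES1_009
import Fermat.Agent.ZB.RT_094
import Fermat.Agent.ZB.RT_093
import Fermat.Agent.ZB.RT_077
import Fermat.Agent.ZB.UNIP_006
import Fermat.Agent.ZB.RT_085
import Fermat.Agent.ZB.INJ_005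
import Fermat.Agent.ZB.RT_083
import Fermat.Agent.ZB.RT_069
import Fermat.Agent.ZB.RT_076
import Fermat.Agent.ZB.STB_003
import Fermat.Agent.ZB.STB_004
import Fermat.Agent.ZB.UNIP_039
import Fermat.Agent.ZB.RT_099
import Fermat.Agent.ZB.RT_074

/-! ### bundled: `Fermat.Agent.RT.K6.C4FDiam` -/
section ZBRT_095_0
/-
RT-K6, piece C4-F, half (F3) + (F4) (helper36; (F1) + (F2) = helper70, `RT/K6/C4FSetup.lean`).

Setting: `f : E₀ →+* E₁` fields of characteristic `0`, algebraic over `ℚ`; `M ∣ L`; `ψ : (ℤ/M)ˣ →* E₀ˣ`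
a character; `F₁ = fieldC E₁ L M H`, `ι = coeffHom f ∘ incl : FullC E₀ L →+* F₁`, `K = range ι`;
`y_ψ = rtk6d0Y E₁ M H ⊤ (f ∘ ψ) ∈ F₁` (= the coefficientwise image of the resolvent over `E₀`).

* `rtk6c4fd_coeffMap_Y`   : `coeffMap f (y over E₀) = y over E₁`;
* (F4) `rtk6c4fd_pow_mem` : `ψ ^ d = 1 ⇒ y_ψ ^ d ∈ range ι`;  `rtk6c4fd_Y_ne_zero`;
* (F3) `rtk6c4fd_diamond_iota`, `rtk6c4fd_diamond_const`, `rtk6c4fd_diamond_Y` : a diamond `δ_c` of `F₁`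
  fixes `range ι` pointwise and the constants, and `δ_c y_ψ = f (ψ c) • y_ψ`;
  `rtk6c4fd_diamond_comm` : it commutes with the coefficientwise action of `σ ∈ G_ℚ` stabilising `E₁`.
-/

set_option autoImplicit false
set_option linter.style.haveILetI false
set_option linter.unusedSectionVars false
set_option linter.unusedVariables false

noncomputable section

namespace Fermat.Agent.RT.K6

open HahnSeries ModularCurve AlgebraicCurve IntermediateField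
open Fermat.Agent.ES Fermat.Agent.ES.G2 Fermat.Agent.INJ Fermat.Agent.UNIP Fermat.Agent.ES1
  Fermat.Agent.ES1.G2

section Generic

variable {E₀ E₁ : Type} [Field E₀] [Field E₁] (f : E₀ →+* E₁)
  (L M : ℕ) [NeZero M] (H D : Subgroup (ZMod M)ˣ) (ψ : (ZMod M)ˣ →* E₀ˣ)

/-- the character `f ∘ ψ` -/
def rtk6c4fdPsi : (ZMod M)ˣ →* E₁ˣ := (Units.map (f : E₀ →* E₁)).comp ψ

@[simp]
theorem rtk6c4fdPsi_apply (c : (ZMod M)ˣ) :
    ((rtk6c4fdPsi f M ψ c : E₁ˣ) : E₁) = f ((ψ c : E₀ˣ) : E₀) := rfl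

theorem rtk6c4fdPsi_inv_apply (c : (ZMod M)ˣ) :
    (((rtk6c4fdPsi f M ψ c)⁻¹ : E₁ˣ) : E₁) = f (((ψ c)⁻¹ : E₀ˣ) : E₀) := by
  have h : (rtk6c4fdPsi f M ψ c)⁻¹ = Units.map (f : E₀ →* E₁) ((ψ c)⁻¹) :=
    (map_inv (Units.map (f : E₀ →* E₁)) (ψ c)).symm
  rw [h]
  rfl

theorem rtk6c4fdPsi_pow {d : ℕ} (hd : ∀ c, ψ c ^ d = 1) (c : (ZMod M)ˣ) :
    rtk6c4fdPsi f M ψ c ^ d = 1 := by
  show Units.map (f : E₀ →* E₁) (ψ c) ^ d = 1
  rw [← map_pow (Units.map (f : E₀ →* E₁)) (ψ c) d, hd c, map_one]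

theorem rtk6c4fdPsi_H (hψH : ∀ h ∈ H, ψ h = 1) : ∀ h ∈ H, rtk6c4fdPsi f M ψ h = 1 := by
  intro h hh
  show Units.map (f : E₀ →* E₁) (ψ h) = 1
  rw [hψH h hh, map_one]

theorem rtk6c4fdPsi_neg (hψ1 : ψ (-1) = 1) : rtk6c4fdPsi f M ψ (-1) = 1 := by
  show Units.map (f : E₀ →* E₁) (ψ (-1)) = 1
  rw [hψ1, map_one]

/-- **base change of the resolvent** -/
theorem rtk6c4fd_coeffMap_Y :
    coeffMap f (rtk6d0Y E₀ M H D ψ) = rtk6d0Y E₁ M H D (rtk6c4fdPsi f M ψ) := by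
  unfold rtk6d0Y
  rw [map_sum]
  refine Finset.sum_congr rfl fun c _ => ?_
  rw [map_mul, es1f_coeffMap_sS, rtk6c4fdPsi_inv_apply]
  congr 1
  rw [← LaurentSeries.algebraMap_apply, ← LaurentSeries.algebraMap_apply]
  exact nf_coeffMap_algebraMap f _

/-- the map `ι : FullC E₀ L →+* fieldC E₁ L M H` (coefficient extension of the `Γ₀(L)`-field) -/
def rtk6c4fdIota : modularFunctionFieldFullC E₀ L →+* fieldC E₁ L M H :=
  (rtk6diCoeffHom L M H f).comp (rtk6diIncl L M H)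

@[simp]
theorem rtk6c4fdIota_coe (z : modularFunctionFieldFullC E₀ L) :
    ((rtk6c4fdIota f L M H z : fieldC E₁ L M H) : LaurentSeries E₁)
      = coeffMap f (z : LaurentSeries E₀) := by
  show ((rtk6diCoeffHom L M H f (rtk6diIncl L M H z) : fieldC E₁ L M H) : LaurentSeries E₁) = _
  rw [rtk6diCoeffHom_coe, rtk6diIncl_coe]

/-- the image of `ι` lies in the `Γ₀(L)`-field over `E₁` -/
theorem rtk6c4fdIota_mem_full (z : modularFunctionFieldFullC E₀ L) :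
    ((rtk6c4fdIota f L M H z : fieldC E₁ L M H) : LaurentSeries E₁)
      ∈ modularFunctionFieldFullC E₁ L := by
  rw [rtk6c4fdIota_coe]
  exact nf_coeffMap_mem_fullC f L z.2

theorem rtk6c4fdIota_algebraMap (a : E₀) :
    rtk6c4fdIota f L M H (algebraMap E₀ (modularFunctionFieldFullC E₀ L) a)
      = algebraMap E₁ (fieldC E₁ L M H) (f a) := by
  show rtk6diCoeffHom L M H f (rtk6diIncl L M H _) = _
  rw [rtk6diIncl_algebraMap, rtk6diCoeffHom_algebraMap]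

/-- the resolvent `y_ψ ∈ fieldC E₁ L M H` -/
def rtk6c4fdY (hML : M ∣ L) : fieldC E₁ L M H :=
  ⟨rtk6d0Y E₁ M H ⊤ (rtk6c4fdPsi f M ψ), rtk6d0Y_mem E₁ M H ⊤ _ hML⟩

@[simp]
theorem rtk6c4fdY_coe (hML : M ∣ L) :
    ((rtk6c4fdY f L M H ψ hML : fieldC E₁ L M H) : LaurentSeries E₁)
      = rtk6d0Y E₁ M H ⊤ (rtk6c4fdPsi f M ψ) := rfl

/-- `y_ψ` is the coefficientwise image of the resolvent over `E₀` -/
theorem rtk6c4fdY_eq (hML : M ∣ L) :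
    rtk6c4fdY f L M H ψ hML
      = rtk6diCoeffHom L M H f ⟨rtk6d0Y E₀ M H ⊤ ψ, rtk6d0Y_mem E₀ M H ⊤ ψ hML⟩ := by
  apply Subtype.ext
  rw [rtk6c4fdY_coe, rtk6diCoeffHom_coe]
  exact (rtk6c4fd_coeffMap_Y f M H ⊤ ψ).symm

/-- **(F4)** `y_ψ ≠ 0` -/
theorem rtk6c4fdY_ne_zero [CharZero E₁] (hML : M ∣ L) (hM : 3 ≤ M) (hψH : ∀ h ∈ H, ψ h = 1)
    (hψ1 : ψ (-1) = 1) : rtk6c4fdY f L M H ψ hML ≠ 0 := by
  intro h0
  have h1 := congrArg Subtype.val h0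
  exact rtk6d0Y_ne_zero E₁ ⊤ (rtk6c4fdPsi f M ψ) hM (rtk6c4fdPsi_H f M H ψ hψH)
    (rtk6c4fdPsi_neg f M ψ hψ1) h1

/-- **(F4)** `y_ψ ^ d ∈ range ι` if `ψ ^ d = 1` -/
theorem rtk6c4fd_pow_mem [CharZero E₀] [Algebra.IsAlgebraic ℚ E₀] (hL : L ≠ 0) (hML : M ∣ L)
    {d : ℕ} (hd : ∀ c, ψ c ^ d = 1) :
    ∃ z : modularFunctionFieldFullC E₀ L,
      rtk6c4fdIota f L M H z = rtk6c4fdY f L M H ψ hML ^ d := by
  have h := rtk6d0_pow_mem_full E₀ H ψ hL hML hd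
  refine ⟨⟨_, h⟩, ?_⟩
  apply Subtype.ext
  rw [rtk6c4fdIota_coe]
  show coeffMap f (rtk6d0Y E₀ M H ⊤ ψ ^ d) = ((rtk6c4fdY f L M H ψ hML ^ d : fieldC E₁ L M H) :
    LaurentSeries E₁)
  rw [map_pow, rtk6c4fd_coeffMap_Y]
  rfl

/-! ### (F3): the diamonds -/

variable {f L M H ψ}

/-- **(F3)** a diamond fixes `range ι` pointwise -/
theorem rtk6c4fd_diamond_iota {c : (ZMod M)ˣ}
    {δ : fieldC E₁ L M H ≃ₐ[E₁] fieldC E₁ L M H} (hδ : IsDiamondC E₁ L M H c δ)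
    (z : modularFunctionFieldFullC E₀ L) :
    δ (rtk6c4fdIota f L M H z) = rtk6c4fdIota f L M H z :=
  hδ.fix _ (rtk6c4fdIota_mem_full f L M H z)

/-- **(F3)** a diamond fixes the constants -/
theorem rtk6c4fd_diamond_const (δ : fieldC E₁ L M H ≃ₐ[E₁] fieldC E₁ L M H) (a : E₁) :
    δ (algebraMap E₁ (fieldC E₁ L M H) a) = algebraMap E₁ (fieldC E₁ L M H) a :=
  δ.commutes a

/-- **(F3)** `δ_c y_ψ = ψ(c) · y_ψ` -/
theorem rtk6c4fd_diamond_Y [CharZero E₁] [Algebra.IsAlgebraic ℚ E₁] (hML : M ∣ L)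
    {c : (ZMod M)ˣ} {δ : fieldC E₁ L M H ≃ₐ[E₁] fieldC E₁ L M H}
    (hδ : IsDiamondC E₁ L M H c δ) :
    δ (rtk6c4fdY f L M H ψ hML)
      = algebraMap E₁ (fieldC E₁ L M H) (f ((ψ c : E₀ˣ) : E₀)) * rtk6c4fdY f L M H ψ hML := by
  apply Subtype.ext
  have h := rtk6d0_diamond_Y (rtk6c4fdPsi f M ψ) hML hδ
  rw [show (δ (rtk6c4fdY f L M H ψ hML) : fieldC E₁ L M H)
    = δ ⟨rtk6d0Y E₁ M H ⊤ (rtk6c4fdPsi f M ψ), rtk6d0Y_mem E₁ M H ⊤ _ hML⟩ from rfl, h,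
    MulMemClass.coe_mul, rtk6c4fdY_coe, rtk6c4fdPsi_apply, ← LaurentSeries.algebraMap_apply]
  rfl

/-! ### The diamonds as automorphisms over `K = FullC E₀ L` (algebra structure `= ι`) -/

/-- **(F3)** a diamond of `fieldC E₁ L M H`, as an automorphism over the `Γ₀(L)`-field over `E₀`,
for ANY algebra structure whose `algebraMap` is `ι` (e.g. `ι.toAlgebra`). -/
def rtk6c4fdDiamK [Algebra (modularFunctionFieldFullC E₀ L) (fieldC E₁ L M H)]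
    (halg : ∀ z : modularFunctionFieldFullC E₀ L,
      algebraMap (modularFunctionFieldFullC E₀ L) (fieldC E₁ L M H) z = rtk6c4fdIota f L M H z)
    {c : (ZMod M)ˣ} {δ : fieldC E₁ L M H ≃ₐ[E₁] fieldC E₁ L M H}
    (hδ : IsDiamondC E₁ L M H c δ) :
    fieldC E₁ L M H ≃ₐ[modularFunctionFieldFullC E₀ L] fieldC E₁ L M H :=
  AlgEquiv.ofRingEquiv (f := δ.toRingEquiv) (fun z => by
    rw [halg]
    exact rtk6c4fd_diamond_iota hδ z)

@[simp]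
theorem rtk6c4fdDiamK_apply [Algebra (modularFunctionFieldFullC E₀ L) (fieldC E₁ L M H)]
    (halg : ∀ z : modularFunctionFieldFullC E₀ L,
      algebraMap (modularFunctionFieldFullC E₀ L) (fieldC E₁ L M H) z = rtk6c4fdIota f L M H z)
    {c : (ZMod M)ˣ} {δ : fieldC E₁ L M H ≃ₐ[E₁] fieldC E₁ L M H}
    (hδ : IsDiamondC E₁ L M H c δ) (x : fieldC E₁ L M H) :
    rtk6c4fdDiamK halg hδ x = δ x := rfl

/-- `δ_K` fixes the constants of `E₁` (e.g. `ϖ₁`) -/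
theorem rtk6c4fdDiamK_const [Algebra (modularFunctionFieldFullC E₀ L) (fieldC E₁ L M H)]
    (halg : ∀ z : modularFunctionFieldFullC E₀ L,
      algebraMap (modularFunctionFieldFullC E₀ L) (fieldC E₁ L M H) z = rtk6c4fdIota f L M H z)
    {c : (ZMod M)ˣ} {δ : fieldC E₁ L M H ≃ₐ[E₁] fieldC E₁ L M H}
    (hδ : IsDiamondC E₁ L M H c δ) (a : E₁) :
    rtk6c4fdDiamK halg hδ (algebraMap E₁ (fieldC E₁ L M H) a)
      = algebraMap E₁ (fieldC E₁ L M H) a :=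
  δ.commutes a

/-- `δ_K y_ψ = ι(ψ c) · y_ψ` (the factor is the constant `ψ c ∈ E₀ ⊆ K`) -/
theorem rtk6c4fdDiamK_Y [CharZero E₁] [Algebra.IsAlgebraic ℚ E₁]
    [Algebra (modularFunctionFieldFullC E₀ L) (fieldC E₁ L M H)]
    (halg : ∀ z : modularFunctionFieldFullC E₀ L,
      algebraMap (modularFunctionFieldFullC E₀ L) (fieldC E₁ L M H) z = rtk6c4fdIota f L M H z)
    (hML : M ∣ L) {c : (ZMod M)ˣ} {δ : fieldC E₁ L M H ≃ₐ[E₁] fieldC E₁ L M H}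
    (hδ : IsDiamondC E₁ L M H c δ) :
    rtk6c4fdDiamK halg hδ (rtk6c4fdY f L M H ψ hML)
      = algebraMap (modularFunctionFieldFullC E₀ L) (fieldC E₁ L M H)
          (algebraMap E₀ (modularFunctionFieldFullC E₀ L) ((ψ c : E₀ˣ) : E₀))
        * rtk6c4fdY f L M H ψ hML := by
  rw [rtk6c4fdDiamK_apply, rtk6c4fd_diamond_Y hML hδ, halg, rtk6c4fdIota_algebraMap]

/-- `y_ψ ^ d ∈ K` in the algebra form -/
theorem rtk6c4fd_pow_mem_K [CharZero E₀] [Algebra.IsAlgebraic ℚ E₀]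
    [Algebra (modularFunctionFieldFullC E₀ L) (fieldC E₁ L M H)]
    (halg : ∀ z : modularFunctionFieldFullC E₀ L,
      algebraMap (modularFunctionFieldFullC E₀ L) (fieldC E₁ L M H) z = rtk6c4fdIota f L M H z)
    (hL : L ≠ 0) (hML : M ∣ L) {d : ℕ} (hd : ∀ c, ψ c ^ d = 1) :
    ∃ z : modularFunctionFieldFullC E₀ L,
      algebraMap (modularFunctionFieldFullC E₀ L) (fieldC E₁ L M H) z
        = rtk6c4fdY f L M H ψ hML ^ d := by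
  obtain ⟨z, hz⟩ := rtk6c4fd_pow_mem f L M H ψ hL hML hd
  exact ⟨z, by rw [halg, hz]⟩

/-- two diamonds commute on `y_ψ`, and the composite of diamonds is the diamond of the product:
`δ_c δ_{c'} y_ψ = ψ(c c') y_ψ` -/
theorem rtk6c4fd_diamond_diamond_Y [CharZero E₁] [Algebra.IsAlgebraic ℚ E₁] (hML : M ∣ L)
    {c c' : (ZMod M)ˣ} {δ δ' : fieldC E₁ L M H ≃ₐ[E₁] fieldC E₁ L M H}
    (hδ : IsDiamondC E₁ L M H c δ) (hδ' : IsDiamondC E₁ L M H c' δ') :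
    δ (δ' (rtk6c4fdY f L M H ψ hML))
      = algebraMap E₁ (fieldC E₁ L M H) (f ((ψ (c * c') : E₀ˣ) : E₀))
        * rtk6c4fdY f L M H ψ hML := by
  rw [rtk6c4fd_diamond_Y hML hδ', map_mul, rtk6c4fd_diamond_const, rtk6c4fd_diamond_Y hML hδ,
    ← mul_assoc, ← map_mul, ← map_mul, ← Units.val_mul, ← map_mul, mul_comm c' c]

end Generic

/-! ### Commutation with the coefficientwise Galois action (concrete fields `⊆ ℚ̄`) -/

section Concrete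

variable {K₁ : IntermediateField ℚ Qb} {L M : ℕ} {H : Subgroup (ZMod M)ˣ}

/-- **(F3)** a diamond of `fieldC K₁ L M H` commutes with the coefficientwise action of every
`σ ∈ G_ℚ` stabilising `K₁` (in particular with `s₁`).  (= helper96's
`rtk6diw_diamond_coeffHom`.) -/
theorem rtk6c4fd_diamond_comm (hL : L ≠ 0) (hML : M ∣ L) {c : (ZMod M)ˣ}
    {δ : fieldC K₁ L M H ≃ₐ[K₁] fieldC K₁ L M H} (hδ : IsDiamondC ↥K₁ L M H c δ)
    (σ : Qb ≃ₐ[ℚ] Qb) (hσ : ∀ x ∈ K₁, σ x ∈ K₁) (x : fieldC K₁ L M H) :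
    δ (rtk6diCoeffHom L M H (mgRestrict K₁ σ hσ) x)
      = rtk6diCoeffHom L M H (mgRestrict K₁ σ hσ) (δ x) :=
  rtk6diw_diamond_coeffHom hL hML hδ σ hσ x

/-- the coefficientwise action of `σ` fixes `y_ψ` if `σ` fixes the values of `ψ` -/
theorem rtk6c4fd_coeffHom_Y [NeZero M] {E₀ : Type} [Field E₀] (f : E₀ →+* K₁)
    (ψ : (ZMod M)ˣ →* E₀ˣ) (hML : M ∣ L) (σ : Qb ≃ₐ[ℚ] Qb) (hσ : ∀ x ∈ K₁, σ x ∈ K₁)
    (hfix : ∀ a : E₀, σ (f a : Qb) = (f a : Qb)) :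
    rtk6diCoeffHom L M H (mgRestrict K₁ σ hσ) (rtk6c4fdY f L M H ψ hML)
      = rtk6c4fdY f L M H ψ hML := by
  rw [rtk6c4fdY_eq, rtk6diCoeffHom_comp]
  apply rtk6diCoeffHom_congr
  intro a
  apply Subtype.ext
  exact hfix a

/-- the coefficientwise action of `σ` fixes `range ι` if `σ` fixes `f E₀` -/
theorem rtk6c4fd_coeffHom_iota [NeZero M] {E₀ : Type} [Field E₀] (f : E₀ →+* K₁)
    (σ : Qb ≃ₐ[ℚ] Qb) (hσ : ∀ x ∈ K₁, σ x ∈ K₁)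
    (hfix : ∀ a : E₀, σ (f a : Qb) = (f a : Qb)) (z : modularFunctionFieldFullC E₀ L) :
    rtk6diCoeffHom L M H (mgRestrict K₁ σ hσ) (rtk6c4fdIota f L M H z)
      = rtk6c4fdIota f L M H z := by
  show rtk6diCoeffHom L M H (mgRestrict K₁ σ hσ)
    (rtk6diCoeffHom L M H f (rtk6diIncl L M H z)) = rtk6diCoeffHom L M H f (rtk6diIncl L M H z)
  rw [rtk6diCoeffHom_comp]
  apply rtk6diCoeffHom_congr
  intro a
  apply Subtype.ext
  exact hfix a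

/-- the coefficientwise action of `σ` on a constant -/
theorem rtk6c4fd_coeffHom_const (σ : Qb ≃ₐ[ℚ] Qb) (hσ : ∀ x ∈ K₁, σ x ∈ K₁) (a : K₁) :
    rtk6diCoeffHom L M H (mgRestrict K₁ σ hσ) (algebraMap K₁ (fieldC K₁ L M H) a)
      = algebraMap K₁ (fieldC K₁ L M H) (mgRestrict K₁ σ hσ a) :=
  rtk6diCoeffHom_algebraMap L M H _ a

end Concrete

end Fermat.Agent.RT.K6

end
end ZBRT_095_0

/-! ### bundled: `Fermat.Agent.RT.K6.GenCrossInst` -/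
section ZBRT_095_1
/-
K-machine, piece K6, GEN-inst, half (G-cross), part 2b (helper54): **the CONCRETE structure
`Rtk6c4Cross`** (helper94, `C4Abs.lean`) at a closed point of the chart `j` of
`F = rtk6diF A K₁ (M₁ q) M H` (over `A₁ = mgcA A K₁`, uniformizer `ϖ`, `ϖ ^ d = π`) lying over a
crossing point of the chart `j` of the `Γ₀`-field `K = F_{M₁ q}(ℚ̄^I)` (over the unramified base
`A₀ = A ∩ ℚ̄^I`, uniformizer `π`), rigid level.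

`[Algebra K F]` is ANY algebra structure with `algebraMap K F z = rtk6c4fdIota f (M₁ q) M H z`
(helper36's convention, `C4FDiam.lean`), `f : ℚ̄^I →+* E₁` the inclusion.

* `rtk6gxiJ`      : `j : R₀ →+* B`, `R₀ = zchClosure {bgJ}`, `B = zchClosure {rtk6diT}`;
* `rtk6gxiPt`     : the closed point `𝔫 ∩ R₀ : AtPt π bgJ`;
* `rtk6gxi_crossE`: the same for the two-exponent structure `Rtk6c4CrossE` (étale exponent `dS`);
* `rtk6gxi_cross` : **`Rtk6c4Cross`** + the positions of `X₀`, `Y₀` with respect to `V_∞`, `V_0`.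
  PROVED here: `hι hjι hint hcl hd hϖ` + thin node (`hw hXY hX₀ hY₀ hgen₀`) + (LF)
  (`hγ he₁ he₂ hy`, from `u = y ^ d ∈ K` with `d ∣ ord_P u`, `v_∞(u) = 1`,
  `v_0(u) = v_0(π) ^ n₀`).  HYPOTHESES (in the shape of the fields): `hζ`, `hab`, `S hS hSet`
  ((G-et)), `hgen` ((F1)), `σ δ` + `hσ* hδ*` ((F2), (F3)).
-/

set_option autoImplicit false
set_option linter.style.haveILetI false
set_option linter.unusedSectionVars false
set_option linter.unusedVariables false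
set_option linter.style.longLine false
set_option synthInstance.maxHeartbeats 400000
set_option maxHeartbeats 4000000

noncomputable section

namespace Fermat.Agent.RT.K6

open ModularCurve Polynomial IntermediateField Fermat.Agent.INJ Fermat.Agent.AL AlgebraicCurve
open Fermat.Agent.ES Fermat.Agent.ES.G2 Fermat.Agent.STB Fermat.Agent.UNIP Fermat.Agent.S36
open Fermat.Agent.RIB.MP Fermat.Agent.ES1

section Prime

/-- a natural number prime to `q ∈ 𝔫` is not in the prime ideal `𝔫` -/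
theorem rtk6gxi_natCast_not_mem {B : Type*} [CommRing B] (𝔫 : Ideal B) (h𝔫 : 𝔫 ≠ ⊤) {q d : ℕ}
    (hq : ((q : ℕ) : B) ∈ 𝔫) (hcop : Nat.Coprime d q) : ((d : ℕ) : B) ∉ 𝔫 := by
  intro hd
  apply h𝔫
  rw [Ideal.eq_top_iff_one]
  have h1 : ((d.gcd q : ℕ) : ℤ) = d * d.gcdA q + q * d.gcdB q := Nat.gcd_eq_gcd_ab d q
  rw [hcop.gcd_eq_one] at h1
  have h2 : (1 : B) = (d : B) * ((d.gcdA q : ℤ) : B) + (q : B) * ((d.gcdB q : ℤ) : B) := by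
    have := congrArg (fun z : ℤ => (z : B)) h1
    simpa using this
  rw [h2]
  exact 𝔫.add_mem (𝔫.mul_mem_right _ hd) (𝔫.mul_mem_right _ hq)

end Prime

section Inst

variable {A : ValuationSubring Qb} {q M₁ : ℕ} [NeZero q] [NeZero M₁] [NeZero (M₁ * q)]
  (K₁ : IntermediateField ℚ Qb) (M : ℕ) [NeZero M] (H : Subgroup (ZMod M)ˣ)
  (f : ↥(beta0Field A) →+* ↥(mgcE A K₁))
  (hf : ∀ a : ↥(beta0Field A), ((f a : ↥(mgcE A K₁)) : Qb) = (a : Qb))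
  [Algebra ↥(modularFunctionFieldFullC ↥(beta0Field A) (M₁ * q))
    ↥(rtk6diF A K₁ (M₁ * q) M H)]
  (halg : ∀ z : ↥(modularFunctionFieldFullC ↥(beta0Field A) (M₁ * q)),
    algebraMap ↥(modularFunctionFieldFullC ↥(beta0Field A) (M₁ * q))
      ↥(rtk6diF A K₁ (M₁ * q) M H) z = rtk6c4fdIota f (M₁ * q) M H z)

include hf halg in
/-- compatibility of the bases -/
theorem rtk6gxi_hgφ (a : ↥(beta0Ring A (beta0Field A))) :
    algebraMap ↥(modularFunctionFieldFullC ↥(beta0Field A) (M₁ * q))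
        ↥(rtk6diF A K₁ (M₁ * q) M H)
      (algebraMap ↥(beta0Ring A (beta0Field A))
        ↥(modularFunctionFieldFullC ↥(beta0Field A) (M₁ * q)) a) =
    algebraMap ↥(mgcA A K₁) ↥(rtk6diF A K₁ (M₁ * q) M H)
      (beta0RingIncl (A := A) (le_sup_left : beta0Field A ≤ beta0Field A ⊔ K₁) a) := by
  rw [halg]
  have h1 : algebraMap ↥(beta0Ring A (beta0Field A))
      ↥(modularFunctionFieldFullC ↥(beta0Field A) (M₁ * q)) a =
      algebraMap ↥(beta0Field A) ↥(modularFunctionFieldFullC ↥(beta0Field A) (M₁ * q))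
        (a : ↥(beta0Field A)) := rfl
  rw [h1, rtk6c4fdIota_algebraMap]
  have h2 : f (a : ↥(beta0Field A)) =
      ((beta0RingIncl (A := A) (le_sup_left : beta0Field A ≤ beta0Field A ⊔ K₁) a :
        ↥(mgcA A K₁)) : ↥(mgcE A K₁)) := Subtype.ext (hf _)
  rw [h2]
  rfl

include halg in
/-- the coordinate `j` of `K` maps to the coordinate `j` of `F` -/
theorem rtk6gxi_hu :
    algebraMap ↥(modularFunctionFieldFullC ↥(beta0Field A) (M₁ * q))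
        ↥(rtk6diF A K₁ (M₁ * q) M H) (bgJ ↥(beta0Field A) (M₁ * q)) =
      rtk6diT A K₁ (M₁ * q) M H := by
  rw [halg]
  exact rtk6diCoeffHom_J ↥(beta0Field A) (M₁ * q) M H f

/-- **`j : R₀ →+* B`** (the base chart `j` over `A ∩ ℚ̄^I` → the top chart `j` over `A₁`) -/
def rtk6gxiJ : ↥(zchClosure (A₀ := ↥(beta0Ring A (beta0Field A)))
      ({bgJ ↥(beta0Field A) (M₁ * q)} :
        Set ↥(modularFunctionFieldFullC ↥(beta0Field A) (M₁ * q)))) →+*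
    ↥(zchClosure (A₀ := ↥(mgcA A K₁))
      ({rtk6diT A K₁ (M₁ * q) M H} : Set ↥(rtk6diF A K₁ (M₁ * q) M H))) :=
  rtk6gxaJ (beta0RingIncl (A := A) (le_sup_left : beta0Field A ≤ beta0Field A ⊔ K₁))
    (rtk6gxi_hgφ K₁ M H f hf halg) (rtk6gxi_hu K₁ M H f halg)

theorem rtk6gxiJ_coe (x : ↥(zchClosure (A₀ := ↥(beta0Ring A (beta0Field A)))
      ({bgJ ↥(beta0Field A) (M₁ * q)} :
        Set ↥(modularFunctionFieldFullC ↥(beta0Field A) (M₁ * q))))) :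
    ((rtk6gxiJ K₁ M H f hf halg x : ↥(zchClosure (A₀ := ↥(mgcA A K₁))
      ({rtk6diT A K₁ (M₁ * q) M H} : Set ↥(rtk6diF A K₁ (M₁ * q) M H)))) :
        ↥(rtk6diF A K₁ (M₁ * q) M H)) =
      algebraMap ↥(modularFunctionFieldFullC ↥(beta0Field A) (M₁ * q))
        ↥(rtk6diF A K₁ (M₁ * q) M H)
        (x : ↥(modularFunctionFieldFullC ↥(beta0Field A) (M₁ * q))) := rfl

/-- the inclusion `A ∩ ℚ̄^I → A₁` is integral -/
theorem rtk6gxi_hg [NumberField ↥K₁] [IsGalois ℚ ↥K₁] (hq : q.Prime)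
    (hA : A.LiesOverPrime q) :
    (beta0RingIncl (A := A) (le_sup_left : beta0Field A ≤ beta0Field A ⊔ K₁)).IsIntegral := by
  letI := beta0InstAlgebra A K₁
  have h := beta0Inst_isIntegral (A := A) K₁ hq hA
  exact fun x => h.isIntegral x

end Inst

section Cross

variable {A : ValuationSubring Qb} {q M₁ : ℕ} [NeZero q] [NeZero M₁] [NeZero (M₁ * q)]
  [IsDiscreteValuationRing ↥(beta0Ring A (beta0Field A))]
  {π : ↥(beta0Ring A (beta0Field A))} (hπ : Irreducible π)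
  (ιC : ↥(beta0Field A) →+* ℂ) (hq : q.Prime) (hqM : ¬ q ∣ M₁)
  (K₁ : IntermediateField ℚ Qb) [NumberField ↥K₁] [IsGalois ℚ ↥K₁]
  (M : ℕ) [NeZero M] (H : Subgroup (ZMod M)ˣ)
  (f : ↥(beta0Field A) →+* ↥(mgcE A K₁))
  (hf : ∀ a : ↥(beta0Field A), ((f a : ↥(mgcE A K₁)) : Qb) = (a : Qb))
  [Algebra ↥(modularFunctionFieldFullC ↥(beta0Field A) (M₁ * q))
    ↥(rtk6diF A K₁ (M₁ * q) M H)]
  (halg : ∀ z : ↥(modularFunctionFieldFullC ↥(beta0Field A) (M₁ * q)),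
    algebraMap ↥(modularFunctionFieldFullC ↥(beta0Field A) (M₁ * q))
      ↥(rtk6diF A K₁ (M₁ * q) M H) z = rtk6c4fdIota f (M₁ * q) M H z)
  (hA : A.LiesOverPrime q) {d : ℕ} (hd0 : d ≠ 0) {ϖ : ↥(mgcA A K₁)}
  (hϖd : ϖ ^ d =
    beta0RingIncl (A := A) (le_sup_left : beta0Field A ≤ beta0Field A ⊔ K₁) π)

/-- **the closed point `𝔫 ∩ R₀`** of the base chart `j` -/
def rtk6gxiPt (𝔫 : AtPt (F := ↥(rtk6diF A K₁ (M₁ * q) M H)) ϖ (rtk6diT A K₁ (M₁ * q) M H)) :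
    AtPt (F := ↥(modularFunctionFieldFullC ↥(beta0Field A) (M₁ * q))) π
      (bgJ ↥(beta0Field A) (M₁ * q)) :=
  rtk6gxaPt (beta0RingIncl (A := A) (le_sup_left : beta0Field A ≤ beta0Field A ⊔ K₁))
    (rtk6gxi_hgφ K₁ M H f hf halg) (rtk6gxi_hu K₁ M H f halg) (rtk6gxi_hg K₁ hq hA) hd0 hϖd 𝔫

theorem rtk6gxi_mem_pt
    (𝔫 : AtPt (F := ↥(rtk6diF A K₁ (M₁ * q) M H)) ϖ (rtk6diT A K₁ (M₁ * q) M H))
    (x : ↥(zchClosure (A₀ := ↥(beta0Ring A (beta0Field A)))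
      ({bgJ ↥(beta0Field A) (M₁ * q)} :
        Set ↥(modularFunctionFieldFullC ↥(beta0Field A) (M₁ * q))))) :
    x ∈ (rtk6gxiPt hq K₁ M H f hf halg hA hd0 hϖd 𝔫).1 ↔ rtk6gxiJ K₁ M H f hf halg x ∈ 𝔫.1 :=
  Iff.rfl

include hπ hq hA hd0 hϖd in
/-- `q ∈ 𝔫` -/
theorem rtk6gxi_q_mem
    (𝔫 : AtPt (F := ↥(rtk6diF A K₁ (M₁ * q) M H)) ϖ (rtk6diT A K₁ (M₁ * q) M H)) :
    ((q : ℕ) : ↥(zchClosure (A₀ := ↥(mgcA A K₁))
      ({rtk6diT A K₁ (M₁ * q) M H} : Set ↥(rtk6diF A K₁ (M₁ * q) M H)))) ∈ 𝔫.1 := by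
  obtain ⟨v, hv⟩ := (rtk6lfb0_hqπ hπ hq hA).symm
  -- `q = π v`
  have h1 : ((q : ℕ) : ↥(mgcA A K₁)) =
      beta0RingIncl (A := A) (le_sup_left : beta0Field A ≤ beta0Field A ⊔ K₁) π *
        beta0RingIncl (A := A) (le_sup_left : beta0Field A ≤ beta0Field A ⊔ K₁)
          (v : ↥(beta0Ring A (beta0Field A))) := by
    rw [← map_mul, hv, map_natCast]
  have h2 : ((q : ℕ) : ↥(zchClosure (A₀ := ↥(mgcA A K₁))
      ({rtk6diT A K₁ (M₁ * q) M H} : Set ↥(rtk6diF A K₁ (M₁ * q) M H)))) =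
      algebraMap ↥(mgcA A K₁) _ ((q : ℕ) : ↥(mgcA A K₁)) := (map_natCast _ q).symm
  rw [h2, h1, ← hϖd, map_mul, map_pow]
  exact 𝔫.1.mul_mem_right _ (Ideal.pow_mem_of_mem _ 𝔫.2.2 d (Nat.pos_of_ne_zero hd0))

include hπ ιC hqM in
/-- **(G-cross): the concrete structure `Rtk6c4Cross`** at a closed point `𝔫` of the chart `j` of
`F` over a crossing point of the chart `j` of `K`. -/
theorem rtk6gxi_cross (rigid : (q ≠ 2 → 4 ∣ M₁) ∧ (q = 2 → 9 ∣ M₁)) (hqd : ¬ q ∣ d)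
    (𝔫 : AtPt (F := ↥(rtk6diF A K₁ (M₁ * q) M H)) ϖ (rtk6diT A K₁ (M₁ * q) M H))
    (h₁ : atThrough (rtk6gxiPt hq K₁ M H f hf halg hA hd0 hϖd 𝔫) (mgvV hπ ιC hq hqM true))
    (h₂ : atThrough (rtk6gxiPt hq K₁ M H f hf halg hA hd0 hϖd 𝔫) (mgvV hπ ιC hq hqM false))
    {ζ : ↥(zchClosure (A₀ := ↥(beta0Ring A (beta0Field A)))
      ({bgJ ↥(beta0Field A) (M₁ * q)} :
        Set ↥(modularFunctionFieldFullC ↥(beta0Field A) (M₁ * q))))}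
    (hζ : IsPrimitiveRoot ζ d)
    -- the Kummer element `u = y ^ d ∈ K`
    {z : ↥(modularFunctionFieldFullC ↥(beta0Field A) (M₁ * q))} (hz0 : z ≠ 0)
    (hhor : ∀ P : Place ↥(beta0Field A) ↥(modularFunctionFieldFullC ↥(beta0Field A) (M₁ * q)),
      (d : ℤ) ∣ P.ord z)
    (hz₁ : (mgvV hπ ιC hq hqM true).valuation z = 1) {n₀ : ℤ}
    (hn₀ : (mgvV hπ ιC hq hqM false).valuation z = (mgvV hπ ιC hq hqM false).valuation
      (algebraMap ↥(beta0Ring A (beta0Field A))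
        ↥(modularFunctionFieldFullC ↥(beta0Field A) (M₁ * q)) π) ^ n₀)
    {y : ↥(rtk6diF A K₁ (M₁ * q) M H)}
    (hzy : algebraMap ↥(modularFunctionFieldFullC ↥(beta0Field A) (M₁ * q))
      ↥(rtk6diF A K₁ (M₁ * q) M H) z = y ^ d)
    {a b : ℤ} (hab : a * n₀ - b * d = 1)
    -- the field-theoretic data
    {S : Set ↥(rtk6diF A K₁ (M₁ * q) M H)} (hS : S.Finite)
    (hSet : ∀ t ∈ S, ∃ a b : ↥(zchClosure (A₀ := ↥(beta0Ring A (beta0Field A)))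
        ({bgJ ↥(beta0Field A) (M₁ * q)} :
          Set ↥(modularFunctionFieldFullC ↥(beta0Field A) (M₁ * q)))),
      rtk6gxiJ K₁ M H f hf halg a ∉ 𝔫.1 ∧ rtk6gxiJ K₁ M H f hf halg b ∉ 𝔫.1 ∧
      algebraMap ↥(zchClosure (A₀ := ↥(beta0Ring A (beta0Field A)))
        ({bgJ ↥(beta0Field A) (M₁ * q)} :
          Set ↥(modularFunctionFieldFullC ↥(beta0Field A) (M₁ * q))))
        ↥(rtk6diF A K₁ (M₁ * q) M H) b * t ^ d =
      algebraMap ↥(zchClosure (A₀ := ↥(beta0Ring A (beta0Field A)))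
        ({bgJ ↥(beta0Field A) (M₁ * q)} :
          Set ↥(modularFunctionFieldFullC ↥(beta0Field A) (M₁ * q))))
        ↥(rtk6diF A K₁ (M₁ * q) M H) a)
    (hgen : Algebra.adjoin ↥(modularFunctionFieldFullC ↥(beta0Field A) (M₁ * q))
      (S ∪ {algebraMap ↥(mgcA A K₁) ↥(rtk6diF A K₁ (M₁ * q) M H) ϖ, y}) = ⊤)
    {σ δ : ↥(rtk6diF A K₁ (M₁ * q) M H) ≃ₐ[↥(modularFunctionFieldFullC ↥(beta0Field A) (M₁ * q))]
      ↥(rtk6diF A K₁ (M₁ * q) M H)}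
    (hσS : ∀ t ∈ S, σ t = t)
    (hσϖ : σ (algebraMap ↥(mgcA A K₁) ↥(rtk6diF A K₁ (M₁ * q) M H) ϖ) =
      algebraMap ↥(zchClosure (A₀ := ↥(beta0Ring A (beta0Field A)))
        ({bgJ ↥(beta0Field A) (M₁ * q)} :
          Set ↥(modularFunctionFieldFullC ↥(beta0Field A) (M₁ * q))))
        ↥(rtk6diF A K₁ (M₁ * q) M H) ζ *
      algebraMap ↥(mgcA A K₁) ↥(rtk6diF A K₁ (M₁ * q) M H) ϖ)
    (hσy : σ y = y) (hδS : ∀ t ∈ S, δ t = t)
    (hδϖ : δ (algebraMap ↥(mgcA A K₁) ↥(rtk6diF A K₁ (M₁ * q) M H) ϖ) =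
      algebraMap ↥(mgcA A K₁) ↥(rtk6diF A K₁ (M₁ * q) M H) ϖ)
    (hδy : δ y = algebraMap ↥(zchClosure (A₀ := ↥(beta0Ring A (beta0Field A)))
        ({bgJ ↥(beta0Field A) (M₁ * q)} :
          Set ↥(modularFunctionFieldFullC ↥(beta0Field A) (M₁ * q))))
        ↥(rtk6diF A K₁ (M₁ * q) M H) ζ ^ n₀ * y) :
    ∃ (X Y w e₁ e₂ : ↥(zchClosure (A₀ := ↥(beta0Ring A (beta0Field A)))
        ({bgJ ↥(beta0Field A) (M₁ * q)} :
          Set ↥(modularFunctionFieldFullC ↥(beta0Field A) (M₁ * q)))))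
      (γ : ↥(modularFunctionFieldFullC ↥(beta0Field A) (M₁ * q))),
      Rtk6c4Cross (rtk6gxiJ K₁ M H f hf halg)
        (algebraMap ↥(zchClosure (A₀ := ↥(mgcA A K₁))
          ({rtk6diT A K₁ (M₁ * q) M H} : Set ↥(rtk6diF A K₁ (M₁ * q) M H)))
          ↥(rtk6diF A K₁ (M₁ * q) M H)) 𝔫.1 d ζ
        (algebraMap ↥(beta0Ring A (beta0Field A))
          ↥(zchClosure (A₀ := ↥(beta0Ring A (beta0Field A)))
            ({bgJ ↥(beta0Field A) (M₁ * q)} :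
              Set ↥(modularFunctionFieldFullC ↥(beta0Field A) (M₁ * q)))) π) X Y w S
        (algebraMap ↥(mgcA A K₁) ↥(rtk6diF A K₁ (M₁ * q) M H) ϖ) y γ e₁ e₂ n₀ a b σ δ ∧
      (X : ↥(modularFunctionFieldFullC ↥(beta0Field A) (M₁ * q))) ∈
        (mgvV hπ ιC hq hqM true).nonunits ∧
      (Y : ↥(modularFunctionFieldFullC ↥(beta0Field A) (M₁ * q))) ∉
        (mgvV hπ ιC hq hqM true).nonunits ∧
      (Y : ↥(modularFunctionFieldFullC ↥(beta0Field A) (M₁ * q))) ∈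
        (mgvV hπ ιC hq hqM false).nonunits ∧
      (X : ↥(modularFunctionFieldFullC ↥(beta0Field A) (M₁ * q))) ∉
        (mgvV hπ ιC hq hqM false).nonunits := by
  obtain ⟨X, Y, w, e₁, e₂, γ, hw, hXY, hX, hY, hgen₀, hXV, hYV, hYV', hXV', he₁, he₂, hγ, hLF,
    -, -⟩ := rtk6gx_cross_J hπ ιC hq hqM hA rigid d hz0 hhor hz₁ hn₀
      (rtk6gxiPt hq K₁ M H f hf halg hA hd0 hϖd 𝔫) h₁ h₂
  have hdn : ((d : ℕ) : ↥(zchClosure (A₀ := ↥(mgcA A K₁))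
      ({rtk6diT A K₁ (M₁ * q) M H} : Set ↥(rtk6diF A K₁ (M₁ * q) M H)))) ∉ 𝔫.1 :=
    rtk6gxi_natCast_not_mem 𝔫.1 𝔫.2.1.ne_top (rtk6gxi_q_mem hπ hq K₁ M H hA hd0 hϖd 𝔫)
      ((Nat.coprime_comm.1 ((Nat.Prime.coprime_iff_not_dvd hq).2 hqd)))
  exact ⟨X, Y, w, e₁, e₂, γ,
    rtk6gxa_cross (beta0RingIncl (A := A) (le_sup_left : beta0Field A ≤ beta0Field A ⊔ K₁))
      (rtk6gxi_hgφ K₁ M H f hf halg) (rtk6gxi_hu K₁ M H f halg) (rtk6gxi_hg K₁ hq hA) hd0 hϖd 𝔫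
      hdn hζ hw hXY hX hY hgen₀ he₁ he₂ hγ hLF hzy hab hS hSet hgen hσS hσϖ hσy hδS hδϖ hδy,
    hXV, hYV, hYV', hXV'⟩

include hπ ιC hqM in
/-- **(G-cross), two exponents: the concrete structure `Rtk6c4CrossE`** at a closed point `𝔫` of
the chart `j` of `F` over a crossing point of the chart `j` of `K` (`dS` the exponent of the étale
generators, prime to `q`). -/
theorem rtk6gxi_crossE {dS : ℕ} (hqdS : ¬ q ∣ dS) (rigid : (q ≠ 2 → 4 ∣ M₁) ∧ (q = 2 → 9 ∣ M₁)) (hqd : ¬ q ∣ d)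
    (𝔫 : AtPt (F := ↥(rtk6diF A K₁ (M₁ * q) M H)) ϖ (rtk6diT A K₁ (M₁ * q) M H))
    (h₁ : atThrough (rtk6gxiPt hq K₁ M H f hf halg hA hd0 hϖd 𝔫) (mgvV hπ ιC hq hqM true))
    (h₂ : atThrough (rtk6gxiPt hq K₁ M H f hf halg hA hd0 hϖd 𝔫) (mgvV hπ ιC hq hqM false))
    {ζ : ↥(zchClosure (A₀ := ↥(beta0Ring A (beta0Field A)))
      ({bgJ ↥(beta0Field A) (M₁ * q)} :
        Set ↥(modularFunctionFieldFullC ↥(beta0Field A) (M₁ * q))))}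
    (hζ : IsPrimitiveRoot ζ d)
    -- the Kummer element `u = y ^ d ∈ K`
    {z : ↥(modularFunctionFieldFullC ↥(beta0Field A) (M₁ * q))} (hz0 : z ≠ 0)
    (hhor : ∀ P : Place ↥(beta0Field A) ↥(modularFunctionFieldFullC ↥(beta0Field A) (M₁ * q)),
      (d : ℤ) ∣ P.ord z)
    (hz₁ : (mgvV hπ ιC hq hqM true).valuation z = 1) {n₀ : ℤ}
    (hn₀ : (mgvV hπ ιC hq hqM false).valuation z = (mgvV hπ ιC hq hqM false).valuation
      (algebraMap ↥(beta0Ring A (beta0Field A))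
        ↥(modularFunctionFieldFullC ↥(beta0Field A) (M₁ * q)) π) ^ n₀)
    {y : ↥(rtk6diF A K₁ (M₁ * q) M H)}
    (hzy : algebraMap ↥(modularFunctionFieldFullC ↥(beta0Field A) (M₁ * q))
      ↥(rtk6diF A K₁ (M₁ * q) M H) z = y ^ d)
    {a b : ℤ} (hab : a * n₀ - b * d = 1)
    -- the field-theoretic data
    {S : Set ↥(rtk6diF A K₁ (M₁ * q) M H)} (hS : S.Finite)
    (hSet : ∀ t ∈ S, ∃ a b : ↥(zchClosure (A₀ := ↥(beta0Ring A (beta0Field A)))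
        ({bgJ ↥(beta0Field A) (M₁ * q)} :
          Set ↥(modularFunctionFieldFullC ↥(beta0Field A) (M₁ * q)))),
      rtk6gxiJ K₁ M H f hf halg a ∉ 𝔫.1 ∧ rtk6gxiJ K₁ M H f hf halg b ∉ 𝔫.1 ∧
      algebraMap ↥(zchClosure (A₀ := ↥(beta0Ring A (beta0Field A)))
        ({bgJ ↥(beta0Field A) (M₁ * q)} :
          Set ↥(modularFunctionFieldFullC ↥(beta0Field A) (M₁ * q))))
        ↥(rtk6diF A K₁ (M₁ * q) M H) b * t ^ dS =
      algebraMap ↥(zchClosure (A₀ := ↥(beta0Ring A (beta0Field A)))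
        ({bgJ ↥(beta0Field A) (M₁ * q)} :
          Set ↥(modularFunctionFieldFullC ↥(beta0Field A) (M₁ * q))))
        ↥(rtk6diF A K₁ (M₁ * q) M H) a)
    (hgen : Algebra.adjoin ↥(modularFunctionFieldFullC ↥(beta0Field A) (M₁ * q))
      (S ∪ {algebraMap ↥(mgcA A K₁) ↥(rtk6diF A K₁ (M₁ * q) M H) ϖ, y}) = ⊤)
    {σ δ : ↥(rtk6diF A K₁ (M₁ * q) M H) ≃ₐ[↥(modularFunctionFieldFullC ↥(beta0Field A) (M₁ * q))]
      ↥(rtk6diF A K₁ (M₁ * q) M H)}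
    (hσS : ∀ t ∈ S, σ t = t)
    (hσϖ : σ (algebraMap ↥(mgcA A K₁) ↥(rtk6diF A K₁ (M₁ * q) M H) ϖ) =
      algebraMap ↥(zchClosure (A₀ := ↥(beta0Ring A (beta0Field A)))
        ({bgJ ↥(beta0Field A) (M₁ * q)} :
          Set ↥(modularFunctionFieldFullC ↥(beta0Field A) (M₁ * q))))
        ↥(rtk6diF A K₁ (M₁ * q) M H) ζ *
      algebraMap ↥(mgcA A K₁) ↥(rtk6diF A K₁ (M₁ * q) M H) ϖ)
    (hσy : σ y = y) (hδS : ∀ t ∈ S, δ t = t)
    (hδϖ : δ (algebraMap ↥(mgcA A K₁) ↥(rtk6diF A K₁ (M₁ * q) M H) ϖ) =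
      algebraMap ↥(mgcA A K₁) ↥(rtk6diF A K₁ (M₁ * q) M H) ϖ)
    (hδy : δ y = algebraMap ↥(zchClosure (A₀ := ↥(beta0Ring A (beta0Field A)))
        ({bgJ ↥(beta0Field A) (M₁ * q)} :
          Set ↥(modularFunctionFieldFullC ↥(beta0Field A) (M₁ * q))))
        ↥(rtk6diF A K₁ (M₁ * q) M H) ζ ^ n₀ * y) :
    ∃ (X Y w e₁ e₂ : ↥(zchClosure (A₀ := ↥(beta0Ring A (beta0Field A)))
        ({bgJ ↥(beta0Field A) (M₁ * q)} :
          Set ↥(modularFunctionFieldFullC ↥(beta0Field A) (M₁ * q)))))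
      (γ : ↥(modularFunctionFieldFullC ↥(beta0Field A) (M₁ * q))),
      Rtk6c4CrossE (rtk6gxiJ K₁ M H f hf halg)
        (algebraMap ↥(zchClosure (A₀ := ↥(mgcA A K₁))
          ({rtk6diT A K₁ (M₁ * q) M H} : Set ↥(rtk6diF A K₁ (M₁ * q) M H)))
          ↥(rtk6diF A K₁ (M₁ * q) M H)) 𝔫.1 d dS ζ
        (algebraMap ↥(beta0Ring A (beta0Field A))
          ↥(zchClosure (A₀ := ↥(beta0Ring A (beta0Field A)))
            ({bgJ ↥(beta0Field A) (M₁ * q)} :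
              Set ↥(modularFunctionFieldFullC ↥(beta0Field A) (M₁ * q)))) π) X Y w S
        (algebraMap ↥(mgcA A K₁) ↥(rtk6diF A K₁ (M₁ * q) M H) ϖ) y γ e₁ e₂ n₀ a b σ δ ∧
      (X : ↥(modularFunctionFieldFullC ↥(beta0Field A) (M₁ * q))) ∈
        (mgvV hπ ιC hq hqM true).nonunits ∧
      (Y : ↥(modularFunctionFieldFullC ↥(beta0Field A) (M₁ * q))) ∉
        (mgvV hπ ιC hq hqM true).nonunits ∧
      (Y : ↥(modularFunctionFieldFullC ↥(beta0Field A) (M₁ * q))) ∈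
        (mgvV hπ ιC hq hqM false).nonunits ∧
      (X : ↥(modularFunctionFieldFullC ↥(beta0Field A) (M₁ * q))) ∉
        (mgvV hπ ιC hq hqM false).nonunits := by
  obtain ⟨X, Y, w, e₁, e₂, γ, hw, hXY, hX, hY, hgen₀, hXV, hYV, hYV', hXV', he₁, he₂, hγ, hLF,
    -, -⟩ := rtk6gx_cross_J hπ ιC hq hqM hA rigid d hz0 hhor hz₁ hn₀
      (rtk6gxiPt hq K₁ M H f hf halg hA hd0 hϖd 𝔫) h₁ h₂
  have hdn : ((d : ℕ) : ↥(zchClosure (A₀ := ↥(mgcA A K₁))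
      ({rtk6diT A K₁ (M₁ * q) M H} : Set ↥(rtk6diF A K₁ (M₁ * q) M H)))) ∉ 𝔫.1 :=
    rtk6gxi_natCast_not_mem 𝔫.1 𝔫.2.1.ne_top (rtk6gxi_q_mem hπ hq K₁ M H hA hd0 hϖd 𝔫)
      ((Nat.coprime_comm.1 ((Nat.Prime.coprime_iff_not_dvd hq).2 hqd)))
  have hdSn : ((dS : ℕ) : ↥(zchClosure (A₀ := ↥(mgcA A K₁))
      ({rtk6diT A K₁ (M₁ * q) M H} : Set ↥(rtk6diF A K₁ (M₁ * q) M H)))) ∉ 𝔫.1 :=
    rtk6gxi_natCast_not_mem 𝔫.1 𝔫.2.1.ne_top (rtk6gxi_q_mem hπ hq K₁ M H hA hd0 hϖd 𝔫)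
      ((Nat.coprime_comm.1 ((Nat.Prime.coprime_iff_not_dvd hq).2 hqdS)))
  exact ⟨X, Y, w, e₁, e₂, γ,
    rtk6gxa_crossE (beta0RingIncl (A := A) (le_sup_left : beta0Field A ≤ beta0Field A ⊔ K₁))
      (rtk6gxi_hgφ K₁ M H f hf halg) (rtk6gxi_hu K₁ M H f halg) (rtk6gxi_hg K₁ hq hA) hd0 hϖd 𝔫
      hdn hdSn hζ hw hXY hX hY hgen₀ he₁ he₂ hγ hLF hzy hab hS hSet hgen hσS hσϖ hσy hδS hδϖ hδy,
    hXV, hYV, hYV', hXV'⟩

end Cross

end Fermat.Agent.RT.K6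

end
end ZBRT_095_1

/-! ### bundled: `Fermat.Agent.RT.K6.C4AsmJ` -/
section ZBRT_095_2
/-
K-machine, piece K6, piece C4-χ-ASM (helper94), concrete part, chart `j`:
**the dichotomy with C4+ at every closed point of the chart `j` of `F₁ = rtk6diF A K₁ (M₁ q) M H`**
over the thin ramified base `A₁ = mgcA A K₁` (uniformizer `ϖ`, `ϖ ^ d = π`).

Setting of `GenCrossInst.lean` (helper54): `K = F_{M₁ q}(ℚ̄^I)` the `Γ₀`-field over the unramified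
base `A₀ = A ∩ ℚ̄^I` (uniformizer `π`), `R₀ = zchClosure {bgJ}`, `j = rtk6gxiJ : R₀ →+* B`,
`𝔫₀ = rtk6gxiPt 𝔫` the closed point `𝔫 ∩ R₀`.

* `rtk6c4aj_plusAt` : `Rtk6c4aPlusAt V 𝒢 𝔫` from the thin dichotomy at `𝔫₀`
  (`rtk6lfb0_thinAt_J`, `DLFConc.lean`) and
  - `hsm`  : (SM-inst) the smooth alternative at `𝔫` over a smooth point `𝔫₀`;
  - `hcr`  : (G-cross) + (WIRE) + (T2): the datum `Rtk6c4CrossE` at `𝔫` over a crossing point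
    `𝔫₀`, the positions of `X₀`, `Y₀`, and the conditions `Rtk6c4aAut` on the elements of `𝒢`;
  - `hthr` : (THR-χ) a component of the family through `𝔫` over each base component through `𝔫₀`.
-/

set_option autoImplicit false
set_option linter.style.haveILetI false
set_option linter.unusedSectionVars false
set_option linter.unusedVariables false
set_option linter.style.longLine false
set_option synthInstance.maxHeartbeats 400000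
set_option maxHeartbeats 4000000

noncomputable section

namespace Fermat.Agent.RT.K6

open ModularCurve Polynomial IntermediateField Fermat.Agent.INJ Fermat.Agent.AL AlgebraicCurve
open Fermat.Agent.ES Fermat.Agent.ES.G2 Fermat.Agent.STB Fermat.Agent.UNIP Fermat.Agent.S36
open Fermat.Agent.RIB.MP Fermat.Agent.ES1

section AsmJ

variable {A : ValuationSubring Qb} {q M₁ : ℕ} [NeZero q] [NeZero M₁] [NeZero (M₁ * q)]
  [IsDiscreteValuationRing ↥(beta0Ring A (beta0Field A))]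
  {π : ↥(beta0Ring A (beta0Field A))} (hπ : Irreducible π)
  (ιC : ↥(beta0Field A) →+* ℂ) (hq : q.Prime) (hqM : ¬ q ∣ M₁)
  (K₁ : IntermediateField ℚ Qb) [NumberField ↥K₁] [IsGalois ℚ ↥K₁]
  [IsDiscreteValuationRing ↥(mgcA A K₁)]
  (M : ℕ) [NeZero M] (H : Subgroup (ZMod M)ˣ)
  (f : ↥(beta0Field A) →+* ↥(mgcE A K₁))
  (hf : ∀ a : ↥(beta0Field A), ((f a : ↥(mgcE A K₁)) : Qb) = (a : Qb))
  [Algebra ↥(modularFunctionFieldFullC ↥(beta0Field A) (M₁ * q))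
    ↥(rtk6diF A K₁ (M₁ * q) M H)]
  (halg : ∀ z : ↥(modularFunctionFieldFullC ↥(beta0Field A) (M₁ * q)),
    algebraMap ↥(modularFunctionFieldFullC ↥(beta0Field A) (M₁ * q))
      ↥(rtk6diF A K₁ (M₁ * q) M H) z = rtk6c4fdIota f (M₁ * q) M H z)
  (hA : A.LiesOverPrime q) {d : ℕ} (hd0 : d ≠ 0) {ϖ : ↥(mgcA A K₁)}
  (hϖd : ϖ ^ d =
    beta0RingIncl (A := A) (le_sup_left : beta0Field A ≤ beta0Field A ⊔ K₁) π)

include hπ ιC hqM in
/-- **C4-χ-ASM, chart `j`.** -/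
theorem rtk6c4aj_plusAt (rigid : (q ≠ 2 → 4 ∣ M₁) ∧ (q = 2 → 9 ∣ M₁))
    {κ : Type*} (V : κ → ValuationSubring ↥(rtk6diF A K₁ (M₁ * q) M H))
    (hBV : ∀ c (z : ↥(rtk6diF A K₁ (M₁ * q) M H)),
      IsIntegral ↥(Algebra.adjoin ↥(mgcA A K₁)
        ({rtk6diT A K₁ (M₁ * q) M H} : Set ↥(rtk6diF A K₁ (M₁ * q) M H))) z → z ∈ V c)
    (𝒢 : Set (SemilinearAut ↥(mgcE A K₁) ↥(rtk6diF A K₁ (M₁ * q) M H)))
    (𝔫 : AtPt (F := ↥(rtk6diF A K₁ (M₁ * q) M H)) ϖ (rtk6diT A K₁ (M₁ * q) M H))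
    -- (SM-inst)
    (hsm : (∃ s₀ : ↥(zchClosure (A₀ := ↥(beta0Ring A (beta0Field A)))
          ({bgJ ↥(beta0Field A) (M₁ * q)} :
            Set ↥(modularFunctionFieldFullC ↥(beta0Field A) (M₁ * q)))),
        s₀ ∈ (rtk6gxiPt hq K₁ M H f hf halg hA hd0 hϖd 𝔫).1 ∧
        NodesLocGen (rtk6gxiPt hq K₁ M H f hf halg hA hd0 hϖd 𝔫).1
          {algebraMap ↥(beta0Ring A (beta0Field A))
            ↥(zchClosure (A₀ := ↥(beta0Ring A (beta0Field A)))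
              ({bgJ ↥(beta0Field A) (M₁ * q)} :
                Set ↥(modularFunctionFieldFullC ↥(beta0Field A) (M₁ * q)))) π, s₀}) →
      ∃ s : ↥(zchClosure (A₀ := ↥(mgcA A K₁))
          ({rtk6diT A K₁ (M₁ * q) M H} : Set ↥(rtk6diF A K₁ (M₁ * q) M H))),
        s ∈ 𝔫.1 ∧ NodesLocGen 𝔫.1
          {algebraMap ↥(mgcA A K₁) ↥(zchClosure (A₀ := ↥(mgcA A K₁))
            ({rtk6diT A K₁ (M₁ * q) M H} : Set ↥(rtk6diF A K₁ (M₁ * q) M H))) ϖ, s})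
    -- (G-cross) + (WIRE) + (T2)
    (hcr : atThrough (rtk6gxiPt hq K₁ M H f hf halg hA hd0 hϖd 𝔫) (mgvV hπ ιC hq hqM true) →
      atThrough (rtk6gxiPt hq K₁ M H f hf halg hA hd0 hϖd 𝔫) (mgvV hπ ιC hq hqM false) →
      ∃ (d' dS : ℕ) (ζ X Y w e₁ e₂ : ↥(zchClosure (A₀ := ↥(beta0Ring A (beta0Field A)))
          ({bgJ ↥(beta0Field A) (M₁ * q)} :
            Set ↥(modularFunctionFieldFullC ↥(beta0Field A) (M₁ * q)))))
        (S : Set ↥(rtk6diF A K₁ (M₁ * q) M H)) (y : ↥(rtk6diF A K₁ (M₁ * q) M H))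
        (γ : ↥(modularFunctionFieldFullC ↥(beta0Field A) (M₁ * q))) (n₀ a b : ℤ)
        (σ δ : ↥(rtk6diF A K₁ (M₁ * q) M H) ≃ₐ[↥(modularFunctionFieldFullC ↥(beta0Field A)
          (M₁ * q))] ↥(rtk6diF A K₁ (M₁ * q) M H)),
        Rtk6c4CrossE (rtk6gxiJ K₁ M H f hf halg)
          (algebraMap ↥(zchClosure (A₀ := ↥(mgcA A K₁))
            ({rtk6diT A K₁ (M₁ * q) M H} : Set ↥(rtk6diF A K₁ (M₁ * q) M H)))
            ↥(rtk6diF A K₁ (M₁ * q) M H)) 𝔫.1 d' dS ζ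
          (algebraMap ↥(beta0Ring A (beta0Field A))
            ↥(zchClosure (A₀ := ↥(beta0Ring A (beta0Field A)))
              ({bgJ ↥(beta0Field A) (M₁ * q)} :
                Set ↥(modularFunctionFieldFullC ↥(beta0Field A) (M₁ * q)))) π) X Y w S
          (algebraMap ↥(mgcA A K₁) ↥(rtk6diF A K₁ (M₁ * q) M H) ϖ) y γ e₁ e₂ n₀ a b σ δ ∧
        (X : ↥(modularFunctionFieldFullC ↥(beta0Field A) (M₁ * q))) ∈
          (mgvV hπ ιC hq hqM true).nonunits ∧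
        (Y : ↥(modularFunctionFieldFullC ↥(beta0Field A) (M₁ * q))) ∉
          (mgvV hπ ιC hq hqM true).nonunits ∧
        (Y : ↥(modularFunctionFieldFullC ↥(beta0Field A) (M₁ * q))) ∈
          (mgvV hπ ιC hq hqM false).nonunits ∧
        (X : ↥(modularFunctionFieldFullC ↥(beta0Field A) (M₁ * q))) ∉
          (mgvV hπ ιC hq hqM false).nonunits ∧
        ∀ g ∈ 𝒢, Rtk6c4aAut
          ↥(zchClosure (A₀ := ↥(beta0Ring A (beta0Field A)))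
            ({bgJ ↥(beta0Field A) (M₁ * q)} :
              Set ↥(modularFunctionFieldFullC ↥(beta0Field A) (M₁ * q))))
          ↥(modularFunctionFieldFullC ↥(beta0Field A) (M₁ * q)) ϖ
          (rtk6diT A K₁ (M₁ * q) M H) S y g)
    -- (THR-χ)
    (hthr : ∀ b : Bool,
      atThrough (rtk6gxiPt hq K₁ M H f hf halg hA hd0 hϖd 𝔫) (mgvV hπ ιC hq hqM b) →
      ∃ c : κ, atThrough 𝔫 (V c) ∧
        ∀ x : ↥(modularFunctionFieldFullC ↥(beta0Field A) (M₁ * q)),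
          algebraMap ↥(modularFunctionFieldFullC ↥(beta0Field A) (M₁ * q))
            ↥(rtk6diF A K₁ (M₁ * q) M H) x ∈ (V c).nonunits ↔
          x ∈ (mgvV hπ ιC hq hqM b).nonunits) :
    Rtk6c4aPlusAt V 𝒢 𝔫 := by
  rcases rtk6lfb0_thinAt_J hπ ιC hq hqM hA rigid
      (rtk6gxiPt hq K₁ M H f hf halg hA hd0 hϖd 𝔫) with ⟨s₀, hs₀, hgen₀⟩ | ⟨X', Y', h₁, h₂, -⟩
  · exact rtk6c4a_smooth V 𝒢 𝔫 (hsm ⟨s₀, hs₀, hgen₀⟩)
  · obtain ⟨d', dS, ζ, X, Y, w, e₁, e₂, S, y, γ, n₀, a, b, σ, δ, hC, hX₁, hY₁, hY₂, hX₂, h𝒢⟩ :=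
      hcr h₁ h₂
    obtain ⟨c₁, hthr₁, hc₁⟩ := hthr true h₁
    obtain ⟨c₂, hthr₂, hc₂⟩ := hthr false h₂
    haveI := ribmp_fc_fin (K₀ := beta0Field A) (M₁ * q)
    haveI : IsNoetherianRing ↥(zchClosure (A₀ := ↥(beta0Ring A (beta0Field A)))
        ({bgJ ↥(beta0Field A) (M₁ * q)} :
          Set ↥(modularFunctionFieldFullC ↥(beta0Field A) (M₁ * q)))) := rtk6lfb_noeth_J
    haveI : IsFractionRing ↥(zchClosure (A₀ := ↥(beta0Ring A (beta0Field A)))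
        ({bgJ ↥(beta0Field A) (M₁ * q)} :
          Set ↥(modularFunctionFieldFullC ↥(beta0Field A) (M₁ * q))))
        ↥(modularFunctionFieldFullC ↥(beta0Field A) (M₁ * q)) :=
      mgc_chart_isFractionRing (A₀ := ↥(beta0Ring A (beta0Field A))) (E₀ := ↥(beta0Field A))
        (bgJ ↥(beta0Field A) (M₁ * q))
    haveI : IsIntegrallyClosed ↥(zchClosure (A₀ := ↥(beta0Ring A (beta0Field A)))
        ({bgJ ↥(beta0Field A) (M₁ * q)} :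
          Set ↥(modularFunctionFieldFullC ↥(beta0Field A) (M₁ * q)))) :=
      mgc_chart_isIntegrallyClosed (A₀ := ↥(beta0Ring A (beta0Field A)))
        (E₀ := ↥(beta0Field A)) (bgJ ↥(beta0Field A) (M₁ * q))
    exact rtk6c4a_cross 𝔫 (rtk6gxiJ K₁ M H f hf halg) _ (fun _ => rfl) hC V hBV
      (mgvV hπ ιC hq hqM true) (mgvV hπ ιC hq hqM false) hX₁ hY₁ hY₂ hX₂ c₁ c₂ hthr₁ hthr₂
      hc₁ hc₂ 𝒢 h𝒢

end AsmJ

end Fermat.Agent.RT.K6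

end
end ZBRT_095_2

/-! ### bundled: `Fermat.Agent.RT.K6.GenCrossInv` -/
section ZBRT_095_3
/-
K-machine, piece K6, GEN-inst, half (G-cross), part 3 (helper54): **the chart `1 / j`** — twins of
`GenCross.lean` / `GenCrossInst.lean` on helper71's (LF) for the chart `1 / j` (`LFInv.lean`).

* `rtk6gx_cross_pos_inv`, `rtk6gx_cross_Jinv` : the `R₀`-level data of a crossing point of the chart
  `1 / j` of `K = F_{M q}(ℚ̄^I)`;
* `rtk6gxiJInv`, `rtk6gxiPtInv` : `j : R₀ →+* B` and `𝔫 ∩ R₀` for the charts `1 / j`;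
* `rtk6gxi_crossE_inv` : **the concrete structure `Rtk6c4CrossE`** at a closed point of the chart
  `1 / j` of `F = rtk6diF A K₁ (M₁ q) M H` over a crossing point of the chart `1 / j` of `K`.
-/

set_option autoImplicit false
set_option linter.style.haveILetI false
set_option linter.unusedSectionVars false
set_option linter.unusedVariables false
set_option linter.style.longLine false
set_option synthInstance.maxHeartbeats 400000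
set_option maxHeartbeats 4000000

noncomputable section

namespace Fermat.Agent.RT.K6

open ModularCurve Polynomial IntermediateField Fermat.Agent.INJ Fermat.Agent.AL AlgebraicCurve
open Fermat.Agent.ES Fermat.Agent.ES.G2 Fermat.Agent.STB Fermat.Agent.UNIP Fermat.Agent.S36
open Fermat.Agent.RIB.MP Fermat.Agent.ES1

/-! ### the base chart `1 / j` -/

section Base

variable {A : ValuationSubring Qb} {q M : ℕ} [NeZero q] [NeZero M] [NeZero (M * q)]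
  [IsDiscreteValuationRing ↥(beta0Ring A (beta0Field A))]
  {π : ↥(beta0Ring A (beta0Field A))} (hπ : Irreducible π)
  (ιC : ↥(beta0Field A) →+* ℂ) (hq : q.Prime) (hqM : ¬ q ∣ M)

include hπ ιC hq hqM in
/-- the positions of the coordinates of a thin crossing point with respect to `V_∞`, `V_0` -/
theorem rtk6gx_cross_pos_inv
    (𝔫 : AtPt (F := ↥(modularFunctionFieldFullC ↥(beta0Field A) (M * q))) π
      (bgJ ↥(beta0Field A) (M * q))⁻¹)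
    {X Y : ↥(zchClosure (A₀ := ↥(beta0Ring A (beta0Field A)))
      ({(bgJ ↥(beta0Field A) (M * q))⁻¹} :
        Set ↥(modularFunctionFieldFullC ↥(beta0Field A) (M * q))))}
    (h : Rtk6lfCrossAt (mgvV hπ ιC hq hqM true) (mgvV hπ ιC hq hqM false) 𝔫 X Y) :
    X ∈ 𝔫.1 ∧ Y ∈ 𝔫.1 ∧
      (Y : ↥(modularFunctionFieldFullC ↥(beta0Field A) (M * q))) ∉
        (mgvV hπ ιC hq hqM true).nonunits ∧
      (X : ↥(modularFunctionFieldFullC ↥(beta0Field A) (M * q))) ∉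
        (mgvV hπ ιC hq hqM false).nonunits := by
  haveI := 𝔫.2.1.isPrime
  obtain ⟨h₁, h₂, hX, hY, ⟨w, hw, hXY⟩, hgen⟩ := h
  refine ⟨h₁ X hX, h₂ Y hY, ?_, ?_⟩
  · exact rtk6lfp_not_mem_nonunits _
      (rtk6lfp_cross_val (B := ↥(zchClosure (A₀ := ↥(beta0Ring A (beta0Field A)))
        ({(bgJ ↥(beta0Field A) (M * q))⁻¹} :
          Set ↥(modularFunctionFieldFullC ↥(beta0Field A) (M * q))))) 𝔫.1
        (mgvV hπ ιC hq hqM true) (fun b => mgv_hBV₂ hπ ιC hq hqM true _ (mem_zchClosure.mp b.2))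
        (algebraMap ↥(beta0Ring A (beta0Field A)) _ π)
        (ribmp_fc_hU hπ ιC hq hqM true) (ribmp_fc_hπ0 hπ) h₁ hw hXY hX).1
  · have hYX : w * algebraMap ↥(beta0Ring A (beta0Field A)) _ π = Y * X :=
      hXY.trans (mul_comm X Y)
    exact rtk6lfp_not_mem_nonunits _
      (rtk6lfp_cross_val (B := ↥(zchClosure (A₀ := ↥(beta0Ring A (beta0Field A)))
        ({(bgJ ↥(beta0Field A) (M * q))⁻¹} :
          Set ↥(modularFunctionFieldFullC ↥(beta0Field A) (M * q))))) 𝔫.1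
        (mgvV hπ ιC hq hqM false) (fun b => mgv_hBV₂ hπ ιC hq hqM false _ (mem_zchClosure.mp b.2))
        (algebraMap ↥(beta0Ring A (beta0Field A)) _ π)
        (ribmp_fc_hU hπ ιC hq hqM false) (ribmp_fc_hπ0 hπ) h₂ hw hYX hY).1

include hπ ιC hq hqM in
/-- **(G-cross), `R₀`-level data at a crossing point of the chart `1 / j`** of `F_{Mq}(ℚ̄^I)`, rigid
level: the thin node `w π = X Y`, `𝔫 = (π, X, Y)` locally, `X ∈ 𝔪(V_∞) ∖ 𝔪(V_0)`,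
`Y ∈ 𝔪(V_0) ∖ 𝔪(V_∞)`, and (LF) `e₂ · u = e₁ · Y ^ n₀ · γ ^ m` with `e₁, e₂ ∈ R₀ ∖ 𝔫`. -/
theorem rtk6gx_cross_Jinv (hA : A.LiesOverPrime q)
    (rigid : (q ≠ 2 → 4 ∣ M) ∧ (q = 2 → 9 ∣ M))
    (m : ℕ) {y : ↥(modularFunctionFieldFullC ↥(beta0Field A) (M * q))} (hy : y ≠ 0)
    (hhor : ∀ P : Place ↥(beta0Field A) ↥(modularFunctionFieldFullC ↥(beta0Field A) (M * q)),
      (m : ℤ) ∣ P.ord y)
    (hy₁ : (mgvV hπ ιC hq hqM true).valuation y = 1) {n₀ : ℤ}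
    (hn₀ : (mgvV hπ ιC hq hqM false).valuation y = (mgvV hπ ιC hq hqM false).valuation
      (algebraMap ↥(beta0Ring A (beta0Field A))
        ↥(modularFunctionFieldFullC ↥(beta0Field A) (M * q)) π) ^ n₀)
    (𝔫 : AtPt (F := ↥(modularFunctionFieldFullC ↥(beta0Field A) (M * q))) π
      (bgJ ↥(beta0Field A) (M * q))⁻¹)
    (h₁ : atThrough 𝔫 (mgvV hπ ιC hq hqM true)) (h₂ : atThrough 𝔫 (mgvV hπ ιC hq hqM false)) :
    ∃ (X Y w e₁ e₂ : ↥(zchClosure (A₀ := ↥(beta0Ring A (beta0Field A)))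
        ({(bgJ ↥(beta0Field A) (M * q))⁻¹} :
          Set ↥(modularFunctionFieldFullC ↥(beta0Field A) (M * q)))))
      (γ : ↥(modularFunctionFieldFullC ↥(beta0Field A) (M * q))),
      w ∉ 𝔫.1 ∧
      w * algebraMap ↥(beta0Ring A (beta0Field A))
        ↥(zchClosure (A₀ := ↥(beta0Ring A (beta0Field A)))
          ({(bgJ ↥(beta0Field A) (M * q))⁻¹} :
            Set ↥(modularFunctionFieldFullC ↥(beta0Field A) (M * q)))) π = X * Y ∧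
      X ∈ 𝔫.1 ∧ Y ∈ 𝔫.1 ∧
      NodesLocGen 𝔫.1 {algebraMap ↥(beta0Ring A (beta0Field A))
        ↥(zchClosure (A₀ := ↥(beta0Ring A (beta0Field A)))
          ({(bgJ ↥(beta0Field A) (M * q))⁻¹} :
            Set ↥(modularFunctionFieldFullC ↥(beta0Field A) (M * q)))) π, X, Y} ∧
      (X : ↥(modularFunctionFieldFullC ↥(beta0Field A) (M * q))) ∈
        (mgvV hπ ιC hq hqM true).nonunits ∧
      (Y : ↥(modularFunctionFieldFullC ↥(beta0Field A) (M * q))) ∉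
        (mgvV hπ ιC hq hqM true).nonunits ∧
      (Y : ↥(modularFunctionFieldFullC ↥(beta0Field A) (M * q))) ∈
        (mgvV hπ ιC hq hqM false).nonunits ∧
      (X : ↥(modularFunctionFieldFullC ↥(beta0Field A) (M * q))) ∉
        (mgvV hπ ιC hq hqM false).nonunits ∧
      e₁ ∉ 𝔫.1 ∧ e₂ ∉ 𝔫.1 ∧ γ ≠ 0 ∧
      (e₂ : ↥(modularFunctionFieldFullC ↥(beta0Field A) (M * q))) * y =
        (e₁ : ↥(modularFunctionFieldFullC ↥(beta0Field A) (M * q))) *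
          (Y : ↥(modularFunctionFieldFullC ↥(beta0Field A) (M * q))) ^ n₀ * γ ^ m ∧
      (mgvV hπ ιC hq hqM true).valuation γ = 1 ∧
      (mgvV hπ ιC hq hqM false).valuation γ = 1 := by
  rcases rtk6lfi0_LF_Jinv hπ ιC hq hqM hA rigid m hy hhor hy₁ hn₀ 𝔫 with
    ⟨X, Y, hc, γ, ε, hε, hyε, hγ, hγ₁, hγ₂⟩ | ⟨-, hno, -⟩ | ⟨-, hno, -⟩
  · obtain ⟨hXn, hYn, hYV, hXV⟩ := rtk6gx_cross_pos_inv hπ ιC hq hqM 𝔫 hc
    obtain ⟨e₁, e₂, he₁, he₂, hee⟩ := rtk6gx_unit_frac 𝔫 hε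
    obtain ⟨-, -, hX, hY, ⟨w, hw, hXY⟩, hgen⟩ := hc
    refine ⟨X, Y, w, e₁, e₂, γ, hw, hXY, hXn, hYn, hgen, hX, hYV, hY, hXV, he₁, he₂, hγ, ?_,
      hγ₁, hγ₂⟩
    rw [hyε, ← hee]
    ring
  · exact absurd h₁ hno
  · exact absurd h₂ hno

end Base

/-! ### the top chart `1 / j` -/

section Inst

variable {A : ValuationSubring Qb} {q M₁ : ℕ} [NeZero q] [NeZero M₁] [NeZero (M₁ * q)]
  (K₁ : IntermediateField ℚ Qb) (M : ℕ) [NeZero M] (H : Subgroup (ZMod M)ˣ)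
  (f : ↥(beta0Field A) →+* ↥(mgcE A K₁))
  (hf : ∀ a : ↥(beta0Field A), ((f a : ↥(mgcE A K₁)) : Qb) = (a : Qb))
  [Algebra ↥(modularFunctionFieldFullC ↥(beta0Field A) (M₁ * q))
    ↥(rtk6diF A K₁ (M₁ * q) M H)]
  (halg : ∀ z : ↥(modularFunctionFieldFullC ↥(beta0Field A) (M₁ * q)),
    algebraMap ↥(modularFunctionFieldFullC ↥(beta0Field A) (M₁ * q))
      ↥(rtk6diF A K₁ (M₁ * q) M H) z = rtk6c4fdIota f (M₁ * q) M H z)

include halg in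
/-- the coordinate `j` of `K` maps to the coordinate `j` of `F` -/
theorem rtk6gxi_hu_inv :
    algebraMap ↥(modularFunctionFieldFullC ↥(beta0Field A) (M₁ * q))
        ↥(rtk6diF A K₁ (M₁ * q) M H) (bgJ ↥(beta0Field A) (M₁ * q))⁻¹ =
      (rtk6diT A K₁ (M₁ * q) M H)⁻¹ := by
  rw [map_inv₀, rtk6gxi_hu K₁ M H f halg]

/-- **`j : R₀ →+* B`** (the base chart `1 / j` over `A ∩ ℚ̄^I` → the top chart `1 / j` over `A₁`) -/
def rtk6gxiJInv : ↥(zchClosure (A₀ := ↥(beta0Ring A (beta0Field A)))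
      ({(bgJ ↥(beta0Field A) (M₁ * q))⁻¹} :
        Set ↥(modularFunctionFieldFullC ↥(beta0Field A) (M₁ * q)))) →+*
    ↥(zchClosure (A₀ := ↥(mgcA A K₁))
      ({(rtk6diT A K₁ (M₁ * q) M H)⁻¹} : Set ↥(rtk6diF A K₁ (M₁ * q) M H))) :=
  rtk6gxaJ (beta0RingIncl (A := A) (le_sup_left : beta0Field A ≤ beta0Field A ⊔ K₁))
    (rtk6gxi_hgφ K₁ M H f hf halg) (rtk6gxi_hu_inv K₁ M H f halg)

theorem rtk6gxiJInv_coe (x : ↥(zchClosure (A₀ := ↥(beta0Ring A (beta0Field A)))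
      ({(bgJ ↥(beta0Field A) (M₁ * q))⁻¹} :
        Set ↥(modularFunctionFieldFullC ↥(beta0Field A) (M₁ * q))))) :
    ((rtk6gxiJInv K₁ M H f hf halg x : ↥(zchClosure (A₀ := ↥(mgcA A K₁))
      ({(rtk6diT A K₁ (M₁ * q) M H)⁻¹} : Set ↥(rtk6diF A K₁ (M₁ * q) M H)))) :
        ↥(rtk6diF A K₁ (M₁ * q) M H)) =
      algebraMap ↥(modularFunctionFieldFullC ↥(beta0Field A) (M₁ * q))
        ↥(rtk6diF A K₁ (M₁ * q) M H)
        (x : ↥(modularFunctionFieldFullC ↥(beta0Field A) (M₁ * q))) := rfl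

end Inst

section Cross

variable {A : ValuationSubring Qb} {q M₁ : ℕ} [NeZero q] [NeZero M₁] [NeZero (M₁ * q)]
  [IsDiscreteValuationRing ↥(beta0Ring A (beta0Field A))]
  {π : ↥(beta0Ring A (beta0Field A))} (hπ : Irreducible π)
  (ιC : ↥(beta0Field A) →+* ℂ) (hq : q.Prime) (hqM : ¬ q ∣ M₁)
  (K₁ : IntermediateField ℚ Qb) [NumberField ↥K₁] [IsGalois ℚ ↥K₁]
  (M : ℕ) [NeZero M] (H : Subgroup (ZMod M)ˣ)
  (f : ↥(beta0Field A) →+* ↥(mgcE A K₁))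
  (hf : ∀ a : ↥(beta0Field A), ((f a : ↥(mgcE A K₁)) : Qb) = (a : Qb))
  [Algebra ↥(modularFunctionFieldFullC ↥(beta0Field A) (M₁ * q))
    ↥(rtk6diF A K₁ (M₁ * q) M H)]
  (halg : ∀ z : ↥(modularFunctionFieldFullC ↥(beta0Field A) (M₁ * q)),
    algebraMap ↥(modularFunctionFieldFullC ↥(beta0Field A) (M₁ * q))
      ↥(rtk6diF A K₁ (M₁ * q) M H) z = rtk6c4fdIota f (M₁ * q) M H z)
  (hA : A.LiesOverPrime q) {d : ℕ} (hd0 : d ≠ 0) {ϖ : ↥(mgcA A K₁)}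
  (hϖd : ϖ ^ d =
    beta0RingIncl (A := A) (le_sup_left : beta0Field A ≤ beta0Field A ⊔ K₁) π)

/-- **the closed point `𝔫 ∩ R₀`** of the base chart `1 / j` -/
def rtk6gxiPtInv (𝔫 : AtPt (F := ↥(rtk6diF A K₁ (M₁ * q) M H)) ϖ (rtk6diT A K₁ (M₁ * q) M H)⁻¹) :
    AtPt (F := ↥(modularFunctionFieldFullC ↥(beta0Field A) (M₁ * q))) π
      (bgJ ↥(beta0Field A) (M₁ * q))⁻¹ :=
  rtk6gxaPt (beta0RingIncl (A := A) (le_sup_left : beta0Field A ≤ beta0Field A ⊔ K₁))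
    (rtk6gxi_hgφ K₁ M H f hf halg) (rtk6gxi_hu_inv K₁ M H f halg) (rtk6gxi_hg K₁ hq hA) hd0 hϖd 𝔫

theorem rtk6gxi_mem_pt_inv
    (𝔫 : AtPt (F := ↥(rtk6diF A K₁ (M₁ * q) M H)) ϖ (rtk6diT A K₁ (M₁ * q) M H)⁻¹)
    (x : ↥(zchClosure (A₀ := ↥(beta0Ring A (beta0Field A)))
      ({(bgJ ↥(beta0Field A) (M₁ * q))⁻¹} :
        Set ↥(modularFunctionFieldFullC ↥(beta0Field A) (M₁ * q))))) :
    x ∈ (rtk6gxiPtInv hq K₁ M H f hf halg hA hd0 hϖd 𝔫).1 ↔ rtk6gxiJInv K₁ M H f hf halg x ∈ 𝔫.1 :=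
  Iff.rfl

include hπ hq hA hd0 hϖd in
/-- `q ∈ 𝔫` -/
theorem rtk6gxi_q_mem_inv
    (𝔫 : AtPt (F := ↥(rtk6diF A K₁ (M₁ * q) M H)) ϖ (rtk6diT A K₁ (M₁ * q) M H)⁻¹) :
    ((q : ℕ) : ↥(zchClosure (A₀ := ↥(mgcA A K₁))
      ({(rtk6diT A K₁ (M₁ * q) M H)⁻¹} : Set ↥(rtk6diF A K₁ (M₁ * q) M H)))) ∈ 𝔫.1 := by
  obtain ⟨v, hv⟩ := (rtk6lfb0_hqπ hπ hq hA).symm
  -- `q = π v`
  have h1 : ((q : ℕ) : ↥(mgcA A K₁)) =
      beta0RingIncl (A := A) (le_sup_left : beta0Field A ≤ beta0Field A ⊔ K₁) π *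
        beta0RingIncl (A := A) (le_sup_left : beta0Field A ≤ beta0Field A ⊔ K₁)
          (v : ↥(beta0Ring A (beta0Field A))) := by
    rw [← map_mul, hv, map_natCast]
  have h2 : ((q : ℕ) : ↥(zchClosure (A₀ := ↥(mgcA A K₁))
      ({(rtk6diT A K₁ (M₁ * q) M H)⁻¹} : Set ↥(rtk6diF A K₁ (M₁ * q) M H)))) =
      algebraMap ↥(mgcA A K₁) _ ((q : ℕ) : ↥(mgcA A K₁)) := (map_natCast _ q).symm
  rw [h2, h1, ← hϖd, map_mul, map_pow]
  exact 𝔫.1.mul_mem_right _ (Ideal.pow_mem_of_mem _ 𝔫.2.2 d (Nat.pos_of_ne_zero hd0))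

include hπ ιC hqM in
/-- **(G-cross), two exponents: the concrete structure `Rtk6c4CrossE`** at a closed point `𝔫` of
the chart `1 / j` of `F` over a crossing point of the chart `1 / j` of `K` (`dS` the exponent of the étale
generators, prime to `q`). -/
theorem rtk6gxi_crossE_inv {dS : ℕ} (hqdS : ¬ q ∣ dS) (rigid : (q ≠ 2 → 4 ∣ M₁) ∧ (q = 2 → 9 ∣ M₁)) (hqd : ¬ q ∣ d)
    (𝔫 : AtPt (F := ↥(rtk6diF A K₁ (M₁ * q) M H)) ϖ (rtk6diT A K₁ (M₁ * q) M H)⁻¹)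
    (h₁ : atThrough (rtk6gxiPtInv hq K₁ M H f hf halg hA hd0 hϖd 𝔫) (mgvV hπ ιC hq hqM true))
    (h₂ : atThrough (rtk6gxiPtInv hq K₁ M H f hf halg hA hd0 hϖd 𝔫) (mgvV hπ ιC hq hqM false))
    {ζ : ↥(zchClosure (A₀ := ↥(beta0Ring A (beta0Field A)))
      ({(bgJ ↥(beta0Field A) (M₁ * q))⁻¹} :
        Set ↥(modularFunctionFieldFullC ↥(beta0Field A) (M₁ * q))))}
    (hζ : IsPrimitiveRoot ζ d)
    -- the Kummer element `u = y ^ d ∈ K`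
    {z : ↥(modularFunctionFieldFullC ↥(beta0Field A) (M₁ * q))} (hz0 : z ≠ 0)
    (hhor : ∀ P : Place ↥(beta0Field A) ↥(modularFunctionFieldFullC ↥(beta0Field A) (M₁ * q)),
      (d : ℤ) ∣ P.ord z)
    (hz₁ : (mgvV hπ ιC hq hqM true).valuation z = 1) {n₀ : ℤ}
    (hn₀ : (mgvV hπ ιC hq hqM false).valuation z = (mgvV hπ ιC hq hqM false).valuation
      (algebraMap ↥(beta0Ring A (beta0Field A))
        ↥(modularFunctionFieldFullC ↥(beta0Field A) (M₁ * q)) π) ^ n₀)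
    {y : ↥(rtk6diF A K₁ (M₁ * q) M H)}
    (hzy : algebraMap ↥(modularFunctionFieldFullC ↥(beta0Field A) (M₁ * q))
      ↥(rtk6diF A K₁ (M₁ * q) M H) z = y ^ d)
    {a b : ℤ} (hab : a * n₀ - b * d = 1)
    -- the field-theoretic data
    {S : Set ↥(rtk6diF A K₁ (M₁ * q) M H)} (hS : S.Finite)
    (hSet : ∀ t ∈ S, ∃ a b : ↥(zchClosure (A₀ := ↥(beta0Ring A (beta0Field A)))
        ({(bgJ ↥(beta0Field A) (M₁ * q))⁻¹} :
          Set ↥(modularFunctionFieldFullC ↥(beta0Field A) (M₁ * q)))),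
      rtk6gxiJInv K₁ M H f hf halg a ∉ 𝔫.1 ∧ rtk6gxiJInv K₁ M H f hf halg b ∉ 𝔫.1 ∧
      algebraMap ↥(zchClosure (A₀ := ↥(beta0Ring A (beta0Field A)))
        ({(bgJ ↥(beta0Field A) (M₁ * q))⁻¹} :
          Set ↥(modularFunctionFieldFullC ↥(beta0Field A) (M₁ * q))))
        ↥(rtk6diF A K₁ (M₁ * q) M H) b * t ^ dS =
      algebraMap ↥(zchClosure (A₀ := ↥(beta0Ring A (beta0Field A)))
        ({(bgJ ↥(beta0Field A) (M₁ * q))⁻¹} :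
          Set ↥(modularFunctionFieldFullC ↥(beta0Field A) (M₁ * q))))
        ↥(rtk6diF A K₁ (M₁ * q) M H) a)
    (hgen : Algebra.adjoin ↥(modularFunctionFieldFullC ↥(beta0Field A) (M₁ * q))
      (S ∪ {algebraMap ↥(mgcA A K₁) ↥(rtk6diF A K₁ (M₁ * q) M H) ϖ, y}) = ⊤)
    {σ δ : ↥(rtk6diF A K₁ (M₁ * q) M H) ≃ₐ[↥(modularFunctionFieldFullC ↥(beta0Field A) (M₁ * q))]
      ↥(rtk6diF A K₁ (M₁ * q) M H)}
    (hσS : ∀ t ∈ S, σ t = t)
    (hσϖ : σ (algebraMap ↥(mgcA A K₁) ↥(rtk6diF A K₁ (M₁ * q) M H) ϖ) =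
      algebraMap ↥(zchClosure (A₀ := ↥(beta0Ring A (beta0Field A)))
        ({(bgJ ↥(beta0Field A) (M₁ * q))⁻¹} :
          Set ↥(modularFunctionFieldFullC ↥(beta0Field A) (M₁ * q))))
        ↥(rtk6diF A K₁ (M₁ * q) M H) ζ *
      algebraMap ↥(mgcA A K₁) ↥(rtk6diF A K₁ (M₁ * q) M H) ϖ)
    (hσy : σ y = y) (hδS : ∀ t ∈ S, δ t = t)
    (hδϖ : δ (algebraMap ↥(mgcA A K₁) ↥(rtk6diF A K₁ (M₁ * q) M H) ϖ) =
      algebraMap ↥(mgcA A K₁) ↥(rtk6diF A K₁ (M₁ * q) M H) ϖ)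
    (hδy : δ y = algebraMap ↥(zchClosure (A₀ := ↥(beta0Ring A (beta0Field A)))
        ({(bgJ ↥(beta0Field A) (M₁ * q))⁻¹} :
          Set ↥(modularFunctionFieldFullC ↥(beta0Field A) (M₁ * q))))
        ↥(rtk6diF A K₁ (M₁ * q) M H) ζ ^ n₀ * y) :
    ∃ (X Y w e₁ e₂ : ↥(zchClosure (A₀ := ↥(beta0Ring A (beta0Field A)))
        ({(bgJ ↥(beta0Field A) (M₁ * q))⁻¹} :
          Set ↥(modularFunctionFieldFullC ↥(beta0Field A) (M₁ * q)))))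
      (γ : ↥(modularFunctionFieldFullC ↥(beta0Field A) (M₁ * q))),
      Rtk6c4CrossE (rtk6gxiJInv K₁ M H f hf halg)
        (algebraMap ↥(zchClosure (A₀ := ↥(mgcA A K₁))
          ({(rtk6diT A K₁ (M₁ * q) M H)⁻¹} : Set ↥(rtk6diF A K₁ (M₁ * q) M H)))
          ↥(rtk6diF A K₁ (M₁ * q) M H)) 𝔫.1 d dS ζ
        (algebraMap ↥(beta0Ring A (beta0Field A))
          ↥(zchClosure (A₀ := ↥(beta0Ring A (beta0Field A)))
            ({(bgJ ↥(beta0Field A) (M₁ * q))⁻¹} :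
              Set ↥(modularFunctionFieldFullC ↥(beta0Field A) (M₁ * q)))) π) X Y w S
        (algebraMap ↥(mgcA A K₁) ↥(rtk6diF A K₁ (M₁ * q) M H) ϖ) y γ e₁ e₂ n₀ a b σ δ ∧
      (X : ↥(modularFunctionFieldFullC ↥(beta0Field A) (M₁ * q))) ∈
        (mgvV hπ ιC hq hqM true).nonunits ∧
      (Y : ↥(modularFunctionFieldFullC ↥(beta0Field A) (M₁ * q))) ∉
        (mgvV hπ ιC hq hqM true).nonunits ∧
      (Y : ↥(modularFunctionFieldFullC ↥(beta0Field A) (M₁ * q))) ∈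
        (mgvV hπ ιC hq hqM false).nonunits ∧
      (X : ↥(modularFunctionFieldFullC ↥(beta0Field A) (M₁ * q))) ∉
        (mgvV hπ ιC hq hqM false).nonunits := by
  obtain ⟨X, Y, w, e₁, e₂, γ, hw, hXY, hX, hY, hgen₀, hXV, hYV, hYV', hXV', he₁, he₂, hγ, hLF,
    -, -⟩ := rtk6gx_cross_Jinv hπ ιC hq hqM hA rigid d hz0 hhor hz₁ hn₀
      (rtk6gxiPtInv hq K₁ M H f hf halg hA hd0 hϖd 𝔫) h₁ h₂
  have hdn : ((d : ℕ) : ↥(zchClosure (A₀ := ↥(mgcA A K₁))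
      ({(rtk6diT A K₁ (M₁ * q) M H)⁻¹} : Set ↥(rtk6diF A K₁ (M₁ * q) M H)))) ∉ 𝔫.1 :=
    rtk6gxi_natCast_not_mem 𝔫.1 𝔫.2.1.ne_top (rtk6gxi_q_mem_inv hπ hq K₁ M H hA hd0 hϖd 𝔫)
      ((Nat.coprime_comm.1 ((Nat.Prime.coprime_iff_not_dvd hq).2 hqd)))
  have hdSn : ((dS : ℕ) : ↥(zchClosure (A₀ := ↥(mgcA A K₁))
      ({(rtk6diT A K₁ (M₁ * q) M H)⁻¹} : Set ↥(rtk6diF A K₁ (M₁ * q) M H)))) ∉ 𝔫.1 :=
    rtk6gxi_natCast_not_mem 𝔫.1 𝔫.2.1.ne_top (rtk6gxi_q_mem_inv hπ hq K₁ M H hA hd0 hϖd 𝔫)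
      ((Nat.coprime_comm.1 ((Nat.Prime.coprime_iff_not_dvd hq).2 hqdS)))
  exact ⟨X, Y, w, e₁, e₂, γ,
    rtk6gxa_crossE (beta0RingIncl (A := A) (le_sup_left : beta0Field A ≤ beta0Field A ⊔ K₁))
      (rtk6gxi_hgφ K₁ M H f hf halg) (rtk6gxi_hu_inv K₁ M H f halg) (rtk6gxi_hg K₁ hq hA) hd0 hϖd 𝔫
      hdn hdSn hζ hw hXY hX hY hgen₀ he₁ he₂ hγ hLF hzy hab hS hSet hgen hσS hσϖ hσy hδS hδϖ hδy,
    hXV, hYV, hYV', hXV'⟩

end Cross

end Fermat.Agent.RT.K6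

end
end ZBRT_095_3

/-! ### bundled: `Fermat.Agent.RT.K6.C4FAut` -/
section ZBRT_095_4
/-
RT-K6, piece C4-F, part (F2) (helper70): the automorphism `s₁` of `F₁ = fieldC E₁ L M H`.

* `rtk6c4fa_not_pow`, `rtk6c4fa_irreducible` : `X ^ d − r` is irreducible over `E₀ = ℚ̄^I`
  (`d` odd; the value group of `E₀` is generated by `v(r)`);
* `rtk6c4fa_exists_inertia` : the inertia group permutes the roots of `X ^ d − r` transitively:
  `ϖ ^ d = r = ϖ' ^ d ⇒ ∃ σ ∈ I, σ ϖ = ϖ'`;  `rtk6c4fa_exists_zeta` : `∃ σ ∈ I, σ ϖ = ζ ϖ`;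
* `rtk6c4faS1 halg σ hσ hfix : F₁ ≃ₐ[K] F₁` : the coefficientwise action of `σ` (stabilising `E₁`,
  fixing `f E₀`) as an automorphism over `K = FullC E₀ L` (algebra structure `= ι`);
  `rtk6c4faS1_apply`, `_const`, `_Y`, `_iota`, `_diamond`;
* `rtk6c4fa_main` : the concrete statement at `E₀ = ℚ̄^I`, `E₁ = mgcE A K₁`.
-/

set_option autoImplicit false
set_option linter.style.haveILetI false
set_option linter.unusedSectionVars false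
set_option linter.unusedVariables false

noncomputable section

namespace Fermat.Agent.RT.K6

open ModularCurve AlgebraicCurve IntermediateField
open Fermat.Agent.ES Fermat.Agent.ES.G2 Fermat.Agent.INJ Fermat.Agent.UNIP Fermat.Agent.ES1
  Fermat.Agent.ES1.G2

/-! ### The inertia group permutes the roots of `X ^ d − r` transitively -/

section Inertia

variable {A : ValuationSubring Qb} {r d : ℕ}

/-- `r` is not a `p`-th power in `E₀ = ℚ̄^I` -/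
theorem rtk6c4fa_not_pow (hr : r.Prime) (hA : A.LiesOverPrime r) {p : ℕ} (hp : p.Prime)
    (b : ↥(beta0Field A)) : b ^ p ≠ ((r : ℕ) : ↥(beta0Field A)) := by
  intro hb
  have hr0 : ((r : ℕ) : Qb) ≠ 0 := Nat.cast_ne_zero.mpr hr.ne_zero
  have hbQ : (b : Qb) ^ p = ((r : ℕ) : Qb) := by
    have := congrArg (fun z : ↥(beta0Field A) => (z : Qb)) hb
    simpa using this
  have hb0 : (b : Qb) ≠ 0 := by
    intro h0
    rw [h0, zero_pow hp.ne_zero] at hbQ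
    exact hr0 hbQ.symm
  obtain ⟨k, hk⟩ := beta0_valuation_eq_zpow hr hA b.2 hb0
  have hv1 : A.valuation ((r : ℕ) : Qb) < 1 := (ValuationSubring.mem_nonunits_iff A).mp hA
  have hv0 : 0 < A.valuation ((r : ℕ) : Qb) :=
    zero_lt_iff.mpr ((Valuation.ne_zero_iff _).mpr hr0)
  have h1 : A.valuation ((r : ℕ) : Qb) ^ (k * (p : ℤ)) = A.valuation ((r : ℕ) : Qb) ^ (1 : ℤ) := by
    rw [zpow_mul, ← hk, zpow_natCast, ← map_pow, hbQ, zpow_one]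
  have h2 : k * (p : ℤ) = 1 := zpow_right_injective₀ hv0 hv1.ne h1
  have h3 : ((p : ℤ)) ∣ 1 := ⟨k, by rw [mul_comm]; exact h2.symm⟩
  have h4 : (p : ℤ) = 1 ∨ (p : ℤ) = -1 := Int.isUnit_iff.mp (isUnit_of_dvd_one h3)
  have hp2 := hp.two_le
  omega

/-- `X ^ d − r` is irreducible over `E₀ = ℚ̄^I` (`d` odd) -/
theorem rtk6c4fa_irreducible (hr : r.Prime) (hA : A.LiesOverPrime r) (hd : Odd d) :
    Irreducible (Polynomial.X ^ d - Polynomial.C (((r : ℕ) : ↥(beta0Field A))) : Polynomial ↥(beta0Field A)) :=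
  X_pow_sub_C_irreducible_of_odd hd (fun p hp _ b => rtk6c4fa_not_pow hr hA hp b)

/-- **The inertia group permutes the roots of `X ^ d − r` transitively.** -/
theorem rtk6c4fa_exists_inertia (hr : r.Prime) (hA : A.LiesOverPrime r) (hd : Odd d)
    {ϖ ϖ' : Qb} (hϖ : ϖ ^ d = ((r : ℕ) : Qb)) (hϖ' : ϖ' ^ d = ((r : ℕ) : Qb)) :
    ∃ σ ∈ A.inertiaSubgroupIn ℚ, σ ϖ = ϖ' := by
  have hd0 : d ≠ 0 := hd.pos.ne'
  have hirr := rtk6c4fa_irreducible hr hA hd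
  have hmonic : (Polynomial.X ^ d - Polynomial.C (((r : ℕ) : ↥(beta0Field A))) : Polynomial ↥(beta0Field A)).Monic :=
    Polynomial.monic_X_pow_sub_C _ hd0
  have hev : ∀ x : Qb, x ^ d = ((r : ℕ) : Qb) →
      Polynomial.aeval x (Polynomial.X ^ d - Polynomial.C (((r : ℕ) : ↥(beta0Field A))) : Polynomial ↥(beta0Field A)) = 0 := by
    intro x hx
    rw [map_sub, map_pow, Polynomial.aeval_X, Polynomial.aeval_C, hx, map_natCast, sub_self]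
  have hmin : minpoly ↥(beta0Field A) ϖ
      = (Polynomial.X ^ d - Polynomial.C (((r : ℕ) : ↥(beta0Field A))) : Polynomial ↥(beta0Field A)) :=
    (minpoly.eq_of_irreducible_of_monic hirr (hev ϖ hϖ) hmonic).symm
  haveI hnormQ : Normal ℚ Qb := by
    have h1 : @Normal ℚ (AlgebraicClosure ℚ) _ _ (AlgebraicClosure.instAlgebra ℚ) := inferInstance
    convert h1
    exact Subsingleton.elim _ _
  haveI hnorm : Normal ↥(beta0Field A) Qb := Normal.tower_top_of_normal ℚ ↥(beta0Field A) Qb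
  have halg : IsAlgebraic ↥(beta0Field A) ϖ := hnorm.isAlgebraic ϖ
  have hroot : Polynomial.aeval ϖ' (minpoly ↥(beta0Field A) ϖ) = 0 := by
    rw [hmin]
    exact hev ϖ' hϖ'
  obtain ⟨σ₀, hσ₀⟩ := minpoly.exists_algEquiv_of_root' halg hroot
  refine ⟨σ₀.restrictScalars ℚ, ?_, hσ₀⟩
  refine beta0_mem_inertia_of_fixes hr hA _ (fun x hx => ?_)
  exact σ₀.commutes ⟨x, hx⟩

/-- `∃ σ ∈ I, σ ϖ = ζ ϖ` for every `d`-th root of unity `ζ` -/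
theorem rtk6c4fa_exists_zeta (hr : r.Prime) (hA : A.LiesOverPrime r) (hd : Odd d)
    {ϖ ζ : Qb} (hϖ : ϖ ^ d = ((r : ℕ) : Qb)) (hζ : ζ ^ d = 1) :
    ∃ σ ∈ A.inertiaSubgroupIn ℚ, σ ϖ = ζ * ϖ :=
  rtk6c4fa_exists_inertia hr hA hd hϖ (by rw [mul_pow, hζ, one_mul, hϖ])

end Inertia

/-! ### `s₁` as an automorphism over `K = FullC E₀ L` -/

section S1

variable {K₁ : IntermediateField ℚ Qb} {L M : ℕ} [NeZero M] {H : Subgroup (ZMod M)ˣ}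
  {E₀ : Type} [Field E₀] {f : E₀ →+* K₁}

/-- **(F2)** the coefficientwise action of `σ` (stabilising `E₁ = K₁`, fixing `f E₀`) as an
automorphism of `fieldC K₁ L M H` over the `Γ₀(L)`-field over `E₀`, for ANY algebra structure
whose `algebraMap` is `ι`. -/
def rtk6c4faS1 [Algebra (modularFunctionFieldFullC E₀ L) (fieldC K₁ L M H)]
    (halg : ∀ z : modularFunctionFieldFullC E₀ L,
      algebraMap (modularFunctionFieldFullC E₀ L) (fieldC K₁ L M H) z = rtk6c4fdIota f L M H z)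
    (σ : Qb ≃ₐ[ℚ] Qb) (hσ : ∀ x ∈ K₁, σ x ∈ K₁)
    (hfix : ∀ a : E₀, σ (f a : Qb) = (f a : Qb)) :
    fieldC K₁ L M H ≃ₐ[modularFunctionFieldFullC E₀ L] fieldC K₁ L M H :=
  AlgEquiv.ofRingEquiv (f := rtk6diRingAut L M H (mgaRestrictEquiv K₁ σ hσ)) (fun z => by
    rw [halg]
    exact rtk6c4fd_coeffHom_iota f σ hσ hfix z)

variable [Algebra (modularFunctionFieldFullC E₀ L) (fieldC K₁ L M H)]
  (halg : ∀ z : modularFunctionFieldFullC E₀ L,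
    algebraMap (modularFunctionFieldFullC E₀ L) (fieldC K₁ L M H) z = rtk6c4fdIota f L M H z)
  (σ : Qb ≃ₐ[ℚ] Qb) (hσ : ∀ x ∈ K₁, σ x ∈ K₁) (hfix : ∀ a : E₀, σ (f a : Qb) = (f a : Qb))

theorem rtk6c4faS1_apply (x : fieldC K₁ L M H) :
    rtk6c4faS1 halg σ hσ hfix x = rtk6diCoeffHom L M H (mgRestrict K₁ σ hσ) x := rfl

/-- `s₁ x = σ̂ • x` (the semilinear action `rtk6diGalGen`) -/
theorem rtk6c4faS1_eq_smul (x : fieldC K₁ L M H) :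
    rtk6c4faS1 halg σ hσ hfix x = rtk6diGalGen L M H (mgaRestrictEquiv K₁ σ hσ) • x := rfl

/-- `s₁` on the constants: `s₁ (C a) = C (σ a)` -/
theorem rtk6c4faS1_const (a : K₁) :
    rtk6c4faS1 halg σ hσ hfix (algebraMap K₁ (fieldC K₁ L M H) a)
      = algebraMap K₁ (fieldC K₁ L M H) (mgRestrict K₁ σ hσ a) :=
  rtk6c4fd_coeffHom_const σ hσ a

/-- `s₁ (C ϖ₁) = C ζ · C ϖ₁` if `σ ϖ₁ = ζ ϖ₁` -/
theorem rtk6c4faS1_varpi {ϖ₁ ζ : K₁} (hϖ : σ (ϖ₁ : Qb) = (ζ : Qb) * (ϖ₁ : Qb)) :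
    rtk6c4faS1 halg σ hσ hfix (algebraMap K₁ (fieldC K₁ L M H) ϖ₁)
      = algebraMap K₁ (fieldC K₁ L M H) ζ * algebraMap K₁ (fieldC K₁ L M H) ϖ₁ := by
  rw [rtk6c4faS1_const, ← map_mul]
  congr 1
  apply Subtype.ext
  rw [mgRestrict_coe, hϖ]
  rfl

/-- the same with the factor in `K`: `s₁ (C ϖ₁) = ι (C ζ₀) · C ϖ₁`, `ζ₀ ∈ E₀` -/
theorem rtk6c4faS1_varpi_K {ϖ₁ : K₁} {ζ₀ : E₀}
    (hϖ : σ (ϖ₁ : Qb) = ((f ζ₀ : K₁) : Qb) * (ϖ₁ : Qb)) :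
    rtk6c4faS1 halg σ hσ hfix (algebraMap K₁ (fieldC K₁ L M H) ϖ₁)
      = algebraMap (modularFunctionFieldFullC E₀ L) (fieldC K₁ L M H)
          (algebraMap E₀ (modularFunctionFieldFullC E₀ L) ζ₀)
        * algebraMap K₁ (fieldC K₁ L M H) ϖ₁ := by
  rw [rtk6c4faS1_varpi halg σ hσ hfix hϖ, halg, rtk6c4fdIota_algebraMap]

/-- `s₁ y_ψ = y_ψ` -/
theorem rtk6c4faS1_Y (ψ : (ZMod M)ˣ →* E₀ˣ) (hML : M ∣ L) :
    rtk6c4faS1 halg σ hσ hfix (rtk6c4fdY f L M H ψ hML) = rtk6c4fdY f L M H ψ hML :=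
  rtk6c4fd_coeffHom_Y f ψ hML σ hσ hfix

/-- `s₁` fixes `range ι` -/
theorem rtk6c4faS1_iota (z : modularFunctionFieldFullC E₀ L) :
    rtk6c4faS1 halg σ hσ hfix (rtk6c4fdIota f L M H z) = rtk6c4fdIota f L M H z :=
  rtk6c4fd_coeffHom_iota f σ hσ hfix z

/-- `s₁` commutes with the diamonds -/
theorem rtk6c4faS1_diamond (hL : L ≠ 0) (hML : M ∣ L) {c : (ZMod M)ˣ}
    {δ : fieldC K₁ L M H ≃ₐ[K₁] fieldC K₁ L M H} (hδ : IsDiamondC ↥K₁ L M H c δ)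
    (x : fieldC K₁ L M H) :
    δ (rtk6c4faS1 halg σ hσ hfix x) = rtk6c4faS1 halg σ hσ hfix (δ x) :=
  rtk6c4fd_diamond_comm hL hML hδ σ hσ x

/-- `s₁` commutes with the diamonds over `K` -/
theorem rtk6c4faS1_diamK (hL : L ≠ 0) (hML : M ∣ L) {c : (ZMod M)ˣ}
    {δ : fieldC K₁ L M H ≃ₐ[K₁] fieldC K₁ L M H} (hδ : IsDiamondC ↥K₁ L M H c δ)
    (x : fieldC K₁ L M H) :
    rtk6c4fdDiamK halg hδ (rtk6c4faS1 halg σ hσ hfix x)
      = rtk6c4faS1 halg σ hσ hfix (rtk6c4fdDiamK halg hδ x) :=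
  rtk6c4fd_diamond_comm hL hML hδ σ hσ x

end S1

/-! ### The concrete statement at `E₀ = ℚ̄^I`, `E₁ = mgcE A K₁′` -/

section Main

variable {A : ValuationSubring Qb} {r d : ℕ} {L M : ℕ} [NeZero M] {H : Subgroup (ZMod M)ˣ}

/-- **(F2), concrete form.**  `E₀ = ℚ̄^I`, `E₁ = mgcE A K₁′` (`K₁′` a Galois number field),
`ϖ₁ ∈ E₁` with `ϖ₁ ^ d = r` (`d` odd), `ζ₀ ∈ E₀` with `ζ₀ ^ d = 1`: there are `σ` in the inertia
group and the automorphism `s₁ = σ̂` of `F₁ = fieldC E₁ L M H` over `K = FullC E₀ L` with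
`s₁ (C ϖ₁) = ζ₀ · C ϖ₁`, `s₁ y_ψ = y_ψ`, `s₁` fixes `K`, and `s₁` commutes with the diamonds. -/
theorem rtk6c4fa_main (hr : r.Prime) (hA : A.LiesOverPrime r) (hd : Odd d)
    (K₁' : IntermediateField ℚ Qb) [NumberField ↥K₁'] [IsGalois ℚ ↥K₁']
    (f : ↥(beta0Field A) →+* ↥(mgcE A K₁'))
    (hf : ∀ a : ↥(beta0Field A), ((f a : ↥(mgcE A K₁')) : Qb) = (a : Qb))
    [Algebra (modularFunctionFieldFullC ↥(beta0Field A) L) (fieldC ↥(mgcE A K₁') L M H)]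
    (halg : ∀ z : modularFunctionFieldFullC ↥(beta0Field A) L,
      algebraMap (modularFunctionFieldFullC ↥(beta0Field A) L) (fieldC ↥(mgcE A K₁') L M H) z
        = rtk6c4fdIota f L M H z)
    (ϖ₁ : ↥(mgcE A K₁')) (hϖ : ϖ₁ ^ d = ((r : ℕ) : ↥(mgcE A K₁')))
    (ζ₀ : ↥(beta0Field A)) (hζ : ζ₀ ^ d = 1) :
    ∃ (σ : Qb ≃ₐ[ℚ] Qb) (_ : σ ∈ A.inertiaSubgroupIn ℚ)
      (hσE : ∀ x ∈ mgcE A K₁', σ x ∈ mgcE A K₁')
      (s₁ : fieldC ↥(mgcE A K₁') L M H ≃ₐ[modularFunctionFieldFullC ↥(beta0Field A) L]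
        fieldC ↥(mgcE A K₁') L M H),
      σ (ϖ₁ : Qb) = (ζ₀ : Qb) * (ϖ₁ : Qb) ∧
      (∀ x, s₁ x = rtk6diGal L M H σ hσE • x) ∧
      s₁ (algebraMap ↥(mgcE A K₁') (fieldC ↥(mgcE A K₁') L M H) ϖ₁)
        = algebraMap (modularFunctionFieldFullC ↥(beta0Field A) L) (fieldC ↥(mgcE A K₁') L M H)
            (algebraMap ↥(beta0Field A) (modularFunctionFieldFullC ↥(beta0Field A) L) ζ₀)
          * algebraMap ↥(mgcE A K₁') (fieldC ↥(mgcE A K₁') L M H) ϖ₁ ∧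
      (∀ (ψ : (ZMod M)ˣ →* (↥(beta0Field A))ˣ) (hML : M ∣ L),
        s₁ (rtk6c4fdY f L M H ψ hML) = rtk6c4fdY f L M H ψ hML) ∧
      (∀ z, s₁ (rtk6c4fdIota f L M H z) = rtk6c4fdIota f L M H z) ∧
      (L ≠ 0 → M ∣ L → ∀ (c : (ZMod M)ˣ)
        (δ : fieldC ↥(mgcE A K₁') L M H ≃ₐ[↥(mgcE A K₁')] fieldC ↥(mgcE A K₁') L M H),
        IsDiamondC ↥(mgcE A K₁') L M H c δ → ∀ x, δ (s₁ x) = s₁ (δ x)) := by
  have hϖQ : (ϖ₁ : Qb) ^ d = ((r : ℕ) : Qb) := by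
    have := congrArg (fun z : ↥(mgcE A K₁') => (z : Qb)) hϖ
    simpa using this
  have hζQ : (ζ₀ : Qb) ^ d = 1 := by
    have := congrArg (fun z : ↥(beta0Field A) => (z : Qb)) hζ
    simpa using this
  obtain ⟨σ, hσI, hσϖ⟩ := rtk6c4fa_exists_zeta hr hA hd hϖQ hζQ
  have hσE : ∀ x ∈ mgcE A K₁', σ x ∈ mgcE A K₁' := fun x hx =>
    beta0_sup_apply_mem K₁' hσI hx
  have hfix : ∀ a : ↥(beta0Field A), σ ((f a : ↥(mgcE A K₁')) : Qb) = ((f a : ↥(mgcE A K₁')) : Qb) :=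
    fun a => by rw [hf a]; exact mem_beta0Field.mp a.2 σ hσI
  refine ⟨σ, hσI, hσE, rtk6c4faS1 halg σ hσE hfix, hσϖ, fun x => rfl, ?_,
    fun ψ hML => rtk6c4faS1_Y halg σ hσE hfix ψ hML,
    fun z => rtk6c4faS1_iota halg σ hσE hfix z,
    fun hL hML c δ hδ x => rtk6c4faS1_diamond halg σ hσE hfix hL hML hδ x⟩
  refine rtk6c4faS1_varpi_K halg σ hσE hfix ?_
  rw [hf ζ₀]
  exact hσϖ

end Main

end Fermat.Agent.RT.K6

end


end ZBRT_095_4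

/-! ### bundled: `Fermat.Agent.RT.K6.C4ChiWire` -/
section ZBRT_095_5
/-
RT-K6, piece C4-χ-WIRE (helper70): **the NON-POINTWISE fields of `Rtk6c4Cross` / `Rtk6c4CrossE`**
(helper94, `C4Abs.lean`) in the concrete shape of helper54's `rtk6gxi_cross`
(`GenCrossInst.lean`), from PSI (helper5, `Psi.lean`), C4-F (F2) (`C4FAut.lean`),
(F3) (helper36, `C4FDiam.lean`) and the coprimality of `n₀` (helper6, N0).

Setting: `E₀ = ℚ̄^I = beta0Field A`, `E₁ = mgcE A K₁`, `K = FullC E₀ L`, `F = rtk6diF A K₁ L M H`,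
`R₀ = zchClosure {bgJ E₀ L}` (the base chart `j`), `ϖ : A₁ = mgcA A K₁` with `ϖ ^ d = r`,
`ψ_r` with `orderOf (ψ_r c₀) = d` for a diamond `c₀` at `r`, `ψ′_i` trivial on the diamonds at `r`,
`y = y_{ψ_r}`, `S = {y_{ψ′_i}}`, `n₀` prime to `d`.

* `rtk6c4w_bezout`     : `a n₀ − b d = 1`;
* `rtk6c4w_isAtR_zpow` : the diamonds at `r` form a group;
* `rtk6c4w_primitive`  : `ζ₀ = ψ_r (c₀)` is a primitive `d`-th root of unity;
* `rtk6c4wZeta`        : `ζ₀` as an element of a chart `R₀` (any `A₀`-subalgebra of `K`);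
* `rtk6c4w_auts`       : `σ = s₁` (coefficientwise action of an inertia element with
  `σ ϖ = ζ₀ ϖ`) and `δ = δ_{c₀ ^ n₀}` with all their values, factors in `K`;
* `rtk6c4w_fields`     : **the fields `hζ hab hS hgen hσS hσϖ hσy hδS hδϖ hδy`** in the shape of
  `rtk6gxi_cross` (for any chart `R₀`), `hgen` from any generating set `T ⊆ S ∪ {ϖ, y}` ((F1)).
-/

set_option autoImplicit false
set_option linter.style.haveILetI false
set_option linter.unusedSectionVars false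
set_option linter.unusedVariables false
set_option linter.style.longLine false
set_option synthInstance.maxHeartbeats 400000
set_option maxHeartbeats 4000000

noncomputable section

namespace Fermat.Agent.RT.K6

open ModularCurve AlgebraicCurve IntermediateField
open Fermat.Agent.ES Fermat.Agent.ES.G2 Fermat.Agent.INJ Fermat.Agent.UNIP Fermat.Agent.ES1
  Fermat.Agent.ES1.G2

/-! ### Arithmetic -/

section Arith

/-- Bezout in the shape of the field `hab` -/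
theorem rtk6c4w_bezout {n₀ : ℤ} {d : ℕ} (h : Nat.Coprime n₀.natAbs d) :
    ∃ a b : ℤ, a * n₀ - b * (d : ℤ) = 1 := by
  have h1 : IsCoprime n₀ (d : ℤ) := by
    rw [Int.isCoprime_iff_gcd_eq_one]
    simpa [Int.gcd] using h
  obtain ⟨a, b, hab⟩ := h1
  exact ⟨a, -b, by linarith⟩

variable {M r : ℕ}

/-- the diamonds at `r` are closed under integer powers -/
theorem rtk6c4w_isAtR_zpow [NeZero M] (hrM : r ∣ M) {c : (ZMod M)ˣ} (hc : IsAtR M r c) (n : ℤ) :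
    IsAtR M r (c ^ n) :=
  (rtk6psi_mem_A hrM _).1 (Subgroup.zpow_mem _ ((rtk6psi_mem_A hrM c).2 hc) n)

/-- a unit of exact order `d` is a primitive `d`-th root of unity -/
theorem rtk6c4w_primitive {E₀ : Type*} [Field E₀] {u : E₀ˣ} {d : ℕ} (h : orderOf u = d) :
    IsPrimitiveRoot (u : E₀) d := by
  rw [IsPrimitiveRoot.coe_units_iff]
  exact h ▸ IsPrimitiveRoot.orderOf u

end Arith

/-! ### `ζ` in a chart -/

section Zeta

variable {K₀ : Type} [Field K₀] (A₀ : ValuationSubring K₀)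
  {K : Type} [Field K] [Algebra K₀ K] (R₀ : Subalgebra ↥A₀ K)

/-- a root of unity of `K₀`, as an element of the chart `R₀` -/
def rtk6c4wZeta (u : K₀ˣ) {d : ℕ} (hd0 : d ≠ 0) (hu : u ^ d = 1) : ↥R₀ :=
  algebraMap ↥A₀ ↥R₀ ⟨(u : K₀), rtk6d0_unit_mem K₀ A₀ u hd0 hu⟩

theorem rtk6c4wZeta_coe (u : K₀ˣ) {d : ℕ} (hd0 : d ≠ 0) (hu : u ^ d = 1) :
    ((rtk6c4wZeta A₀ R₀ u hd0 hu : ↥R₀) : K) = algebraMap K₀ K (u : K₀) := rfl

theorem rtk6c4wZeta_isPrimitiveRoot (u : K₀ˣ) {d : ℕ} (hd0 : d ≠ 0) (hu : u ^ d = 1)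
    (hord : orderOf u = d) : IsPrimitiveRoot (rtk6c4wZeta A₀ R₀ u hd0 hu) d := by
  have h1 : IsPrimitiveRoot (algebraMap K₀ K (u : K₀)) d :=
    (rtk6c4w_primitive hord).map_of_injective (algebraMap K₀ K).injective
  have h2 : IsPrimitiveRoot (R₀.val (rtk6c4wZeta A₀ R₀ u hd0 hu)) d := h1
  exact IsPrimitiveRoot.of_map_of_injective h2 Subtype.val_injective

end Zeta

/-! ### The automorphisms `σ`, `δ` -/

section Auts

variable {A : ValuationSubring Qb} {r d : ℕ} {L M : ℕ} [NeZero M] {H : Subgroup (ZMod M)ˣ}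

/-- **`σ` and `δ`.**  `σ = s₁` is the coefficientwise action of an inertia element with
`σ ϖ = ζ₀ ϖ`, `ζ₀ = ψ_r (c₀)`; `δ` is the diamond of `c₀ ^ n₀` (a diamond at `r`).
All factors are constants of `E₀ ⊆ K`. -/
theorem rtk6c4w_auts (hr : r.Prime) (hA : A.LiesOverPrime r) (hrM : r ∣ M) (hd : Odd d)
    (K₁ : IntermediateField ℚ Qb) [NumberField ↥K₁] [IsGalois ℚ ↥K₁]
    (f : ↥(beta0Field A) →+* ↥(mgcE A K₁))
    (hf : ∀ a : ↥(beta0Field A), ((f a : ↥(mgcE A K₁)) : Qb) = (a : Qb))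
    [Algebra ↥(modularFunctionFieldFullC ↥(beta0Field A) L) ↥(rtk6diF A K₁ L M H)]
    (halg : ∀ z : ↥(modularFunctionFieldFullC ↥(beta0Field A) L),
      algebraMap ↥(modularFunctionFieldFullC ↥(beta0Field A) L) ↥(rtk6diF A K₁ L M H) z
        = rtk6c4fdIota f L M H z)
    (hL : L ≠ 0) (hML : M ∣ L)
    {ϖ : ↥(mgcA A K₁)} (hϖ : ϖ ^ d = ((r : ℕ) : ↥(mgcA A K₁)))
    (ψr : (ZMod M)ˣ →* (↥(beta0Field A))ˣ) {c₀ : (ZMod M)ˣ} (hc₀ : IsAtR M r c₀)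
    (hord : orderOf (ψr c₀) = d) (n₀ : ℤ) :
    ∃ (σ δ : ↥(rtk6diF A K₁ L M H) ≃ₐ[↥(modularFunctionFieldFullC ↥(beta0Field A) L)]
        ↥(rtk6diF A K₁ L M H)),
      -- `σ`
      σ (algebraMap ↥(mgcA A K₁) ↥(rtk6diF A K₁ L M H) ϖ)
        = algebraMap ↥(modularFunctionFieldFullC ↥(beta0Field A) L) ↥(rtk6diF A K₁ L M H)
            (algebraMap ↥(beta0Field A) ↥(modularFunctionFieldFullC ↥(beta0Field A) L)
              ((ψr c₀ : (↥(beta0Field A))ˣ) : ↥(beta0Field A)))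
          * algebraMap ↥(mgcA A K₁) ↥(rtk6diF A K₁ L M H) ϖ ∧
      (∀ ψ : (ZMod M)ˣ →* (↥(beta0Field A))ˣ,
        σ (rtk6c4fdY f L M H ψ hML) = rtk6c4fdY f L M H ψ hML) ∧
      -- `δ`
      δ (algebraMap ↥(mgcA A K₁) ↥(rtk6diF A K₁ L M H) ϖ)
        = algebraMap ↥(mgcA A K₁) ↥(rtk6diF A K₁ L M H) ϖ ∧
      δ (rtk6c4fdY f L M H ψr hML)
        = algebraMap ↥(modularFunctionFieldFullC ↥(beta0Field A) L) ↥(rtk6diF A K₁ L M H)
            (algebraMap ↥(beta0Field A) ↥(modularFunctionFieldFullC ↥(beta0Field A) L)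
              ((ψr c₀ : (↥(beta0Field A))ˣ) : ↥(beta0Field A))) ^ n₀
          * rtk6c4fdY f L M H ψr hML ∧
      (∀ ψ : (ZMod M)ˣ →* (↥(beta0Field A))ˣ, (∀ c, IsAtR M r c → ψ c = 1) →
        δ (rtk6c4fdY f L M H ψ hML) = rtk6c4fdY f L M H ψ hML) ∧
      -- provenance
      (∃ (σ₀ : Qb ≃ₐ[ℚ] Qb) (_ : σ₀ ∈ A.inertiaSubgroupIn ℚ)
          (hσE : ∀ x ∈ mgcE A K₁, σ₀ x ∈ mgcE A K₁),
        ∀ x, σ x = rtk6diGal L M H σ₀ hσE • x) ∧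
      (∃ (c : (ZMod M)ˣ) (δ₀ : ↥(rtk6diF A K₁ L M H) ≃ₐ[↥(mgcE A K₁)] ↥(rtk6diF A K₁ L M H)),
        IsAtR M r c ∧ IsDiamondC ↥(mgcE A K₁) L M H c δ₀ ∧ ∀ x, δ x = δ₀ x) := by
  have hd0 : d ≠ 0 := hd.pos.ne'
  haveI : Algebra.IsAlgebraic ℚ Qb := AlgebraicClosure.isAlgebraic ℚ
  haveI : Algebra.IsAlgebraic ℚ ↥(mgcE A K₁) :=
    Algebra.IsAlgebraic.of_injective (mgcE A K₁).val Subtype.val_injective
  have hζd : ((ψr c₀ : (↥(beta0Field A))ˣ) : ↥(beta0Field A)) ^ d = 1 := by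
    rw [← Units.val_pow_eq_pow_val, ← hord, pow_orderOf_eq_one, Units.val_one]
  have hϖE : ((ϖ : ↥(mgcA A K₁)) : ↥(mgcE A K₁)) ^ d = ((r : ℕ) : ↥(mgcE A K₁)) := by
    have := congrArg (fun z : ↥(mgcA A K₁) => (z : ↥(mgcE A K₁))) hϖ
    simpa using this
  obtain ⟨σ₀, hσI, hσE, s₁, -, hs₁, hs₁ϖ, hs₁Y, -, -⟩ :=
    rtk6c4fa_main (L := L) (M := M) (H := H) hr hA hd K₁ f hf halg
      ((ϖ : ↥(mgcA A K₁)) : ↥(mgcE A K₁)) hϖE
      ((ψr c₀ : (↥(beta0Field A))ˣ) : ↥(beta0Field A)) hζd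
  obtain ⟨δ₀, hδ₀⟩ := rtk6d0_exists_diamond ↥(mgcE A K₁) H hL hML (c₀ ^ n₀)
  have hcn : IsAtR M r (c₀ ^ n₀) := rtk6c4w_isAtR_zpow hrM hc₀ n₀
  refine ⟨s₁, rtk6c4fdDiamK halg hδ₀, hs₁ϖ, fun ψ => hs₁Y ψ hML,
    rtk6c4fdDiamK_const halg hδ₀ _, ?_, fun ψ hψ => ?_, ⟨σ₀, hσI, hσE, hs₁⟩,
    ⟨c₀ ^ n₀, δ₀, hcn, hδ₀, fun x => rfl⟩⟩
  · rw [rtk6c4fdDiamK_Y halg hML hδ₀, map_zpow, Units.val_zpow_eq_zpow_val, map_zpow₀,
      map_zpow₀]
  · rw [rtk6c4fdDiamK_Y halg hML hδ₀, hψ _ hcn, Units.val_one, map_one, map_one, one_mul]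

end Auts

/-! ### The fields, in the shape of `rtk6gxi_cross` -/

section Fields

variable {A : ValuationSubring Qb} {r d : ℕ} {L M : ℕ} [NeZero M] {H : Subgroup (ZMod M)ˣ}

/-- rescaling a generating set by nonzero factors of the base field -/
theorem rtk6c4w_adjoin_scaled {K F : Type*} [Field K] [Field F] [Algebra K F] {ι : Type*}
    (v : ι → F) (k : ι → K) (hk : ∀ i, k i ≠ 0) (ϖ y : F) (ky : K) (hky : ky ≠ 0)
    {T : Set F} (hT : Algebra.adjoin K T = ⊤) (hTS : T ⊆ Set.range v ∪ {ϖ, y}) :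
    Algebra.adjoin K ((Set.range fun i => algebraMap K F (k i) * v i) ∪
      {ϖ, algebraMap K F ky * y}) = ⊤ := by
  rw [eq_top_iff, ← hT]
  refine Algebra.adjoin_le fun t ht => ?_
  rcases hTS ht with ⟨i, rfl⟩ | ht'
  · have h1 : algebraMap K F (k i) * v i ∈ Algebra.adjoin K
        ((Set.range fun i => algebraMap K F (k i) * v i) ∪ {ϖ, algebraMap K F ky * y}) :=
      Algebra.subset_adjoin (Or.inl ⟨i, rfl⟩)
    have h2 : v i = algebraMap K F (k i)⁻¹ * (algebraMap K F (k i) * v i) := by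
      rw [← mul_assoc, ← map_mul, inv_mul_cancel₀ (hk i), map_one, one_mul]
    rw [SetLike.mem_coe, h2]
    exact Subalgebra.mul_mem _ (Subalgebra.algebraMap_mem _ _) h1
  · rcases ht' with rfl | ht''
    · exact Algebra.subset_adjoin (Or.inr (Or.inl rfl))
    · rw [Set.mem_singleton_iff] at ht''
      subst ht''
      have h1 : algebraMap K F ky * t ∈ Algebra.adjoin K
          ((Set.range fun i => algebraMap K F (k i) * v i) ∪ {ϖ, algebraMap K F ky * t}) :=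
        Algebra.subset_adjoin (Or.inr (Or.inr rfl))
      have h2 : algebraMap K F ky⁻¹ * (algebraMap K F ky * t) = t := by
        rw [← mul_assoc, ← map_mul, inv_mul_cancel₀ hky, map_one, one_mul]
      have h3 := Subalgebra.mul_mem _ (Subalgebra.algebraMap_mem _ ky⁻¹) h1
      rw [h2] at h3
      exact h3

/-- **C4-χ-WIRE: the non-pointwise fields of `Rtk6c4Cross`** for
`y = k_y · y_{ψ_r}`, `S = {k_i · y_{ψ′_i}}` (`k_y, k_i ∈ Kˣ` ARBITRARY rescalings, e.g. the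
normalisation `1 / n` or the pointwise factors `1 / (n γ Y₀ ^ m)`), in the shape of the
hypotheses of `rtk6gxi_cross` (`R₀` any `A₀`-subalgebra of `K`, e.g. the chart
`zchClosure {bgJ}`). -/
theorem rtk6c4w_fields (hr : r.Prime) (hA : A.LiesOverPrime r) (hrM : r ∣ M) (hd : Odd d)
    (K₁ : IntermediateField ℚ Qb) [NumberField ↥K₁] [IsGalois ℚ ↥K₁]
    (f : ↥(beta0Field A) →+* ↥(mgcE A K₁))
    (hf : ∀ a : ↥(beta0Field A), ((f a : ↥(mgcE A K₁)) : Qb) = (a : Qb))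
    [Algebra ↥(modularFunctionFieldFullC ↥(beta0Field A) L) ↥(rtk6diF A K₁ L M H)]
    (halg : ∀ z : ↥(modularFunctionFieldFullC ↥(beta0Field A) L),
      algebraMap ↥(modularFunctionFieldFullC ↥(beta0Field A) L) ↥(rtk6diF A K₁ L M H) z
        = rtk6c4fdIota f L M H z)
    (hL : L ≠ 0) (hML : M ∣ L)
    (R₀ : Subalgebra ↥(beta0Ring A (beta0Field A))
      ↥(modularFunctionFieldFullC ↥(beta0Field A) L))
    {ϖ : ↥(mgcA A K₁)} (hϖ : ϖ ^ d = ((r : ℕ) : ↥(mgcA A K₁)))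
    (ψr : (ZMod M)ˣ →* (↥(beta0Field A))ˣ) {c₀ : (ZMod M)ˣ} (hc₀ : IsAtR M r c₀)
    (hord : orderOf (ψr c₀) = d)
    {ι : Type*} [Finite ι] (ψ' : ι → ((ZMod M)ˣ →* (↥(beta0Field A))ˣ))
    (hψ' : ∀ i c, IsAtR M r c → ψ' i c = 1)
    {T : Set ↥(rtk6diF A K₁ L M H)}
    (hT : Algebra.adjoin ↥(modularFunctionFieldFullC ↥(beta0Field A) L) T = ⊤)
    (hTS : T ⊆ (Set.range fun i => rtk6c4fdY f L M H (ψ' i) hML) ∪
      {algebraMap ↥(mgcA A K₁) ↥(rtk6diF A K₁ L M H) ϖ, rtk6c4fdY f L M H ψr hML})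
    (k : ι → ↥(modularFunctionFieldFullC ↥(beta0Field A) L)) (hk : ∀ i, k i ≠ 0)
    (ky : ↥(modularFunctionFieldFullC ↥(beta0Field A) L)) (hky : ky ≠ 0)
    {n₀ : ℤ} (hn₀ : Nat.Coprime n₀.natAbs d) :
    ∃ (ζ : ↥R₀) (a b : ℤ)
      (σ δ : ↥(rtk6diF A K₁ L M H) ≃ₐ[↥(modularFunctionFieldFullC ↥(beta0Field A) L)]
        ↥(rtk6diF A K₁ L M H)),
      IsPrimitiveRoot ζ d ∧
      ((ζ : ↥R₀) : ↥(modularFunctionFieldFullC ↥(beta0Field A) L))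
        = algebraMap ↥(beta0Field A) ↥(modularFunctionFieldFullC ↥(beta0Field A) L)
            ((ψr c₀ : (↥(beta0Field A))ˣ) : ↥(beta0Field A)) ∧
      a * n₀ - b * (d : ℤ) = 1 ∧
      (Set.range fun i => algebraMap ↥(modularFunctionFieldFullC ↥(beta0Field A) L)
        ↥(rtk6diF A K₁ L M H) (k i) * rtk6c4fdY f L M H (ψ' i) hML).Finite ∧
      Algebra.adjoin ↥(modularFunctionFieldFullC ↥(beta0Field A) L)
        ((Set.range fun i => algebraMap ↥(modularFunctionFieldFullC ↥(beta0Field A) L)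
            ↥(rtk6diF A K₁ L M H) (k i) * rtk6c4fdY f L M H (ψ' i) hML) ∪
          {algebraMap ↥(mgcA A K₁) ↥(rtk6diF A K₁ L M H) ϖ,
            algebraMap ↥(modularFunctionFieldFullC ↥(beta0Field A) L)
              ↥(rtk6diF A K₁ L M H) ky * rtk6c4fdY f L M H ψr hML}) = ⊤ ∧
      (∀ t ∈ Set.range fun i => algebraMap ↥(modularFunctionFieldFullC ↥(beta0Field A) L)
        ↥(rtk6diF A K₁ L M H) (k i) * rtk6c4fdY f L M H (ψ' i) hML, σ t = t) ∧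
      σ (algebraMap ↥(mgcA A K₁) ↥(rtk6diF A K₁ L M H) ϖ)
        = algebraMap ↥R₀ ↥(rtk6diF A K₁ L M H) ζ
          * algebraMap ↥(mgcA A K₁) ↥(rtk6diF A K₁ L M H) ϖ ∧
      σ (algebraMap ↥(modularFunctionFieldFullC ↥(beta0Field A) L)
          ↥(rtk6diF A K₁ L M H) ky * rtk6c4fdY f L M H ψr hML)
        = algebraMap ↥(modularFunctionFieldFullC ↥(beta0Field A) L)
          ↥(rtk6diF A K₁ L M H) ky * rtk6c4fdY f L M H ψr hML ∧
      (∀ t ∈ Set.range fun i => algebraMap ↥(modularFunctionFieldFullC ↥(beta0Field A) L)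
        ↥(rtk6diF A K₁ L M H) (k i) * rtk6c4fdY f L M H (ψ' i) hML, δ t = t) ∧
      δ (algebraMap ↥(mgcA A K₁) ↥(rtk6diF A K₁ L M H) ϖ)
        = algebraMap ↥(mgcA A K₁) ↥(rtk6diF A K₁ L M H) ϖ ∧
      δ (algebraMap ↥(modularFunctionFieldFullC ↥(beta0Field A) L)
          ↥(rtk6diF A K₁ L M H) ky * rtk6c4fdY f L M H ψr hML)
        = algebraMap ↥R₀ ↥(rtk6diF A K₁ L M H) ζ ^ n₀ *
          (algebraMap ↥(modularFunctionFieldFullC ↥(beta0Field A) L)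
            ↥(rtk6diF A K₁ L M H) ky * rtk6c4fdY f L M H ψr hML) ∧
      -- provenance
      (∃ (σ₀ : Qb ≃ₐ[ℚ] Qb) (_ : σ₀ ∈ A.inertiaSubgroupIn ℚ)
          (hσE : ∀ x ∈ mgcE A K₁, σ₀ x ∈ mgcE A K₁),
        ∀ x, σ x = rtk6diGal L M H σ₀ hσE • x) ∧
      (∃ (c : (ZMod M)ˣ) (δ₀ : ↥(rtk6diF A K₁ L M H) ≃ₐ[↥(mgcE A K₁)] ↥(rtk6diF A K₁ L M H)),
        IsAtR M r c ∧ IsDiamondC ↥(mgcE A K₁) L M H c δ₀ ∧ ∀ x, δ x = δ₀ x) := by
  have hd0 : d ≠ 0 := hd.pos.ne'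
  have hu : ψr c₀ ^ d = 1 := by rw [← hord, pow_orderOf_eq_one]
  obtain ⟨a, b, hab⟩ := rtk6c4w_bezout hn₀
  obtain ⟨σ, δ, hσϖ, hσY, hδϖ, hδy, hδY, hσprov, hδprov⟩ :=
    rtk6c4w_auts (L := L) (M := M) (H := H) hr hA hrM hd K₁ f hf halg hL hML hϖ ψr hc₀ hord n₀
  refine ⟨rtk6c4wZeta (beta0Ring A (beta0Field A)) R₀ (ψr c₀) hd0 hu, a, b, σ, δ,
    rtk6c4wZeta_isPrimitiveRoot _ R₀ _ hd0 hu hord, rfl, hab, Set.finite_range _,
    rtk6c4w_adjoin_scaled _ k hk _ _ ky hky hT hTS, ?_, hσϖ, ?_, ?_, hδϖ, ?_, hσprov, hδprov⟩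
  · rintro t ⟨i, rfl⟩
    rw [map_mul, AlgEquiv.commutes, hσY (ψ' i)]
  · rw [map_mul, AlgEquiv.commutes, hσY ψr]
  · rintro t ⟨i, rfl⟩
    rw [map_mul, AlgEquiv.commutes, hδY (ψ' i) (hψ' i)]
  · rw [map_mul, AlgEquiv.commutes, hδy]
    exact mul_left_comm _ _ _

end Fields

end Fermat.Agent.RT.K6

end


end ZBRT_095_5

/-! ### bundled: `Fermat.Agent.RT.K6.C4FGen` -/
section ZBRT_095_6
/-
RT-K6, piece C4-F, part (F1): GENERATION (helper36; (F2) = helper70, `C4FAut.lean`).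

Setting (as in `C4FDiam.lean`): fields `E₀`, `E₁`, a ring hom `f : E₀ →+* E₁`,
`K = FullC E₀ L` (the `Γ₀(L)`-field over `E₀`), `F₁ = fieldC E₁ L M H`,
`ι = rtk6c4fdIota f : K →+* F₁`; `ψ i : (ℤ/M)ˣ →* E₀ˣ` a family of characters,
trivial on `±H` and jointly faithful on `(ℤ/M)ˣ/±H`; `y_i = rtk6c4fdY f … (ψ i)` the resolvents;
`ϖ ∈ E₁` with `E₁ = (f E₀)(ϖ)`.

* `rtk6c4fg_subfield_eq_top_of_const` : a subfield of `F₁` containing `ι K`, the constants `E₁`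
  and the `y_i` is everything;
* `rtk6c4fg_subfield_eq_top` : the same with `ϖ` instead of all constants
  (`Subfield.closure (range f ∪ {ϖ}) = ⊤`);
* `rtk6c4fg_adjoin_eq_top`   : `IntermediateField.adjoin K ({C ϖ} ∪ {y_i}) = ⊤`
  (for ANY algebra structure `K → F₁` with `algebraMap = ι`);
* `rtk6c4fg_algebra_adjoin_eq_top` : `Algebra.adjoin K ({C ϖ} ∪ {y_i}) = ⊤` if moreover
  `ϖ ^ d ∈ f E₀`, `ψ i ^ d = 1` (`0 < d`)  —  the field `hgen` of helper94's `Rtk6c4Cross`;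
* `rtk6c4fg_closure_of_adjoin` : `Algebra.adjoin E₀ {ϖ} = ⊤ ⇒ Subfield.closure (…) = ⊤`
  (`f = algebraMap`).
-/

set_option autoImplicit false
set_option linter.style.haveILetI false
set_option linter.unusedSectionVars false
set_option linter.unusedVariables false

noncomputable section

namespace Fermat.Agent.RT.K6

open HahnSeries ModularCurve AlgebraicCurve IntermediateField
open Fermat.Agent.ES Fermat.Agent.ES.G2 Fermat.Agent.INJ Fermat.Agent.UNIP Fermat.Agent.ES1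
  Fermat.Agent.ES1.G2

section Gen

variable {E₀ E₁ : Type} [Field E₀] [Field E₁] (f : E₀ →+* E₁)
  {L M : ℕ} [NeZero M] (H : Subgroup (ZMod M)ˣ)

/-- (A) the constants of `E₁` lie in `Ω`, if `E₁` is generated (as a field) by `f E₀` and `ϖ` -/
theorem rtk6c4fg_const_mem {ϖ : E₁} (hϖ : Subfield.closure (Set.range f ∪ {ϖ}) = ⊤)
    (Ω : Subfield (fieldC E₁ L M H))
    (hK : ∀ z : modularFunctionFieldFullC E₀ L, rtk6c4fdIota f L M H z ∈ Ω)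
    (hϖΩ : algebraMap E₁ (fieldC E₁ L M H) ϖ ∈ Ω) (c : E₁) :
    algebraMap E₁ (fieldC E₁ L M H) c ∈ Ω := by
  have hc : c ∈ Subfield.closure (Set.range f ∪ {ϖ}) := by rw [hϖ]; exact Subfield.mem_top c
  induction hc using Subfield.closure_induction with
  | mem x hx =>
    rcases hx with ⟨a, rfl⟩ | hx
    · rw [← rtk6c4fdIota_algebraMap f L M H a]
      exact hK _
    · rw [Set.mem_singleton_iff] at hx
      rw [hx]
      exact hϖΩ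
  | one =>
    rw [map_one]
    exact Ω.one_mem
  | add x y hx hy ihx ihy =>
    rw [map_add]
    exact Ω.add_mem ihx ihy
  | neg x hx ihx =>
    rw [map_neg]
    exact Ω.neg_mem ihx
  | inv x hx ihx =>
    rw [map_inv₀]
    exact Ω.inv_mem ihx
  | mul x y hx hy ihx ihy =>
    rw [map_mul]
    exact Ω.mul_mem ihx ihy

/-- (B) the `Γ₀(L)`-field over `E₁` lies in `Ω` -/
theorem rtk6c4fg_full_mem (Ω : Subfield (fieldC E₁ L M H))
    (hK : ∀ z : modularFunctionFieldFullC E₀ L, rtk6c4fdIota f L M H z ∈ Ω)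
    (hconst : ∀ c : E₁, algebraMap E₁ (fieldC E₁ L M H) c ∈ Ω)
    (z : LaurentSeries E₁) (hz : z ∈ modularFunctionFieldFullC E₁ L) :
    ∃ w : fieldC E₁ L M H, w ∈ Ω ∧ ((w : fieldC E₁ L M H) : LaurentSeries E₁) = z := by
  unfold modularFunctionFieldFullC at hz
  induction hz using IntermediateField.adjoin_induction with
  | mem x hx =>
    obtain ⟨d, hd, hdN, rfl⟩ := hx
    refine ⟨rtk6c4fdIota f L M H ⟨qExpand E₀ d (jqModC E₀), jqModCd_mem_full E₀ L hdN⟩,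
      hK _, ?_⟩
    rw [rtk6c4fdIota_coe]
    exact coeffMap_jqNModC f d
  | algebraMap c =>
    exact ⟨algebraMap E₁ (fieldC E₁ L M H) c, hconst c,
      IntermediateField.coe_algebraMap_apply _ c⟩
  | add x y hx hy ihx ihy =>
    obtain ⟨w₁, hw₁, e₁⟩ := ihx
    obtain ⟨w₂, hw₂, e₂⟩ := ihy
    exact ⟨w₁ + w₂, Ω.add_mem hw₁ hw₂, by rw [AddMemClass.coe_add, e₁, e₂]⟩
  | inv x hx ihx =>
    obtain ⟨w₁, hw₁, e₁⟩ := ihx
    exact ⟨w₁⁻¹, Ω.inv_mem hw₁, by rw [IntermediateField.coe_inv, e₁]⟩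
  | mul x y hx hy ihx ihy =>
    obtain ⟨w₁, hw₁, e₁⟩ := ihx
    obtain ⟨w₂, hw₂, e₂⟩ := ihy
    exact ⟨w₁ * w₂, Ω.mul_mem hw₁ hw₂, by rw [MulMemClass.coe_mul, e₁, e₂]⟩

/-- (C1) everything in `E₁(FullC E₁ L, y_i)` lies in `Ω` -/
theorem rtk6c4fg_adjoin_mem {ι : Type*} (ψ : ι → ((ZMod M)ˣ →* E₀ˣ)) (hML : M ∣ L)
    (Ω : Subfield (fieldC E₁ L M H))
    (hK : ∀ z : modularFunctionFieldFullC E₀ L, rtk6c4fdIota f L M H z ∈ Ω)
    (hconst : ∀ c : E₁, algebraMap E₁ (fieldC E₁ L M H) c ∈ Ω)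
    (hy : ∀ i, rtk6c4fdY f L M H (ψ i) hML ∈ Ω)
    (z : LaurentSeries E₁) (hz : z ∈ IntermediateField.adjoin E₁
      ((modularFunctionFieldFullC E₁ L : Set (LaurentSeries E₁)) ∪
        Set.range fun i => rtk6d0Y E₁ M H ⊤ (rtk6c4fdPsi f M (ψ i)))) :
    ∃ w : fieldC E₁ L M H, w ∈ Ω ∧ ((w : fieldC E₁ L M H) : LaurentSeries E₁) = z := by
  induction hz using IntermediateField.adjoin_induction with
  | mem x hx =>
    rcases hx with hx | ⟨i, rfl⟩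
    · exact rtk6c4fg_full_mem f H Ω hK hconst x hx
    · exact ⟨rtk6c4fdY f L M H (ψ i) hML, hy i, rtk6c4fdY_coe f L M H _ hML⟩
  | algebraMap c =>
    exact ⟨algebraMap E₁ (fieldC E₁ L M H) c, hconst c,
      IntermediateField.coe_algebraMap_apply _ c⟩
  | add x y hx hy ihx ihy =>
    obtain ⟨w₁, hw₁, e₁⟩ := ihx
    obtain ⟨w₂, hw₂, e₂⟩ := ihy
    exact ⟨w₁ + w₂, Ω.add_mem hw₁ hw₂, by rw [AddMemClass.coe_add, e₁, e₂]⟩
  | inv x hx ihx =>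
    obtain ⟨w₁, hw₁, e₁⟩ := ihx
    exact ⟨w₁⁻¹, Ω.inv_mem hw₁, by rw [IntermediateField.coe_inv, e₁]⟩
  | mul x y hx hy ihx ihy =>
    obtain ⟨w₁, hw₁, e₁⟩ := ihx
    obtain ⟨w₂, hw₂, e₂⟩ := ihy
    exact ⟨w₁ * w₂, Ω.mul_mem hw₁ hw₂, by rw [MulMemClass.coe_mul, e₁, e₂]⟩

/-- faithfulness transfers along the injective `f` -/
theorem rtk6c4fg_faith {ι : Type*} (ψ : ι → ((ZMod M)ˣ →* E₀ˣ))
    (hfaith : ∀ c : (ZMod M)ˣ, (∀ i, ψ i c = 1) → InPM H 1 (c : ZMod M))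
    (c : (ZMod M)ˣ) (hc : ∀ i, rtk6c4fdPsi f M (ψ i) c = 1) : InPM H 1 (c : ZMod M) := by
  refine hfaith c fun i => ?_
  have h2 := congrArg Units.val (hc i)
  rw [rtk6c4fdPsi_apply, Units.val_one] at h2
  apply Units.ext
  rw [Units.val_one]
  exact f.injective (by rw [h2, map_one])

/-- **(F1), subfield form (core)**: a subfield of `F₁` containing `ι K`, the constants and the
resolvents `y_i` is everything. -/
theorem rtk6c4fg_subfield_eq_top_of_const [CharZero E₁] [Algebra.IsAlgebraic ℚ E₁]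
    {ι : Type*} (ψ : ι → ((ZMod M)ˣ →* E₀ˣ)) (hL : L ≠ 0)
    (hML : M ∣ L) (hM : 3 ≤ M) (hψH : ∀ i, ∀ h ∈ H, ψ i h = 1) (hψ1 : ∀ i, ψ i (-1) = 1)
    (hfaith : ∀ c : (ZMod M)ˣ, (∀ i, ψ i c = 1) → InPM H 1 (c : ZMod M))
    (Ω : Subfield (fieldC E₁ L M H))
    (hK : ∀ z : modularFunctionFieldFullC E₀ L, rtk6c4fdIota f L M H z ∈ Ω)
    (hconst : ∀ c : E₁, algebraMap E₁ (fieldC E₁ L M H) c ∈ Ω)
    (hy : ∀ i, rtk6c4fdY f L M H (ψ i) hML ∈ Ω) : Ω = ⊤ := by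
  have hgen := rtk6d0_gen E₁ H (fun i => rtk6c4fdPsi f M (ψ i)) hL hML hM
    (fun i => rtk6c4fdPsi_H f M H (ψ i) (hψH i)) (fun i => rtk6c4fdPsi_neg f M (ψ i) (hψ1 i))
    (rtk6c4fg_faith f H ψ hfaith)
  rw [eq_top_iff]
  rintro x -
  obtain ⟨w, hw, hwx⟩ := rtk6c4fg_adjoin_mem f H ψ hML Ω hK hconst hy x.1 (hgen x.2)
  have : w = x := Subtype.ext hwx
  rw [← this]
  exact hw

/-- **(F1), subfield form**: a subfield of `F₁` containing `ι K`, `C ϖ` and the `y_i` is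
everything (`E₁ = (f E₀)(ϖ)`). -/
theorem rtk6c4fg_subfield_eq_top [CharZero E₁] [Algebra.IsAlgebraic ℚ E₁]
    {ι : Type*} (ψ : ι → ((ZMod M)ˣ →* E₀ˣ)) (hL : L ≠ 0)
    (hML : M ∣ L) (hM : 3 ≤ M) (hψH : ∀ i, ∀ h ∈ H, ψ i h = 1) (hψ1 : ∀ i, ψ i (-1) = 1)
    (hfaith : ∀ c : (ZMod M)ˣ, (∀ i, ψ i c = 1) → InPM H 1 (c : ZMod M))
    {ϖ : E₁} (hϖ : Subfield.closure (Set.range f ∪ {ϖ}) = ⊤)
    (Ω : Subfield (fieldC E₁ L M H))
    (hK : ∀ z : modularFunctionFieldFullC E₀ L, rtk6c4fdIota f L M H z ∈ Ω)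
    (hϖΩ : algebraMap E₁ (fieldC E₁ L M H) ϖ ∈ Ω)
    (hy : ∀ i, rtk6c4fdY f L M H (ψ i) hML ∈ Ω) : Ω = ⊤ :=
  rtk6c4fg_subfield_eq_top_of_const f H ψ hL hML hM hψH hψ1 hfaith Ω hK
    (rtk6c4fg_const_mem f H hϖ Ω hK hϖΩ) hy

variable [Algebra (modularFunctionFieldFullC E₀ L) (fieldC E₁ L M H)]

/-- **(F1), field form**: `F₁ = K(C ϖ, y_i)`, for any algebra structure with `algebraMap = ι`. -/
theorem rtk6c4fg_adjoin_eq_top [CharZero E₁] [Algebra.IsAlgebraic ℚ E₁]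
    (halg : ∀ z : modularFunctionFieldFullC E₀ L,
      algebraMap (modularFunctionFieldFullC E₀ L) (fieldC E₁ L M H) z
        = rtk6c4fdIota f L M H z)
    {ι : Type*} (ψ : ι → ((ZMod M)ˣ →* E₀ˣ)) (hL : L ≠ 0)
    (hML : M ∣ L) (hM : 3 ≤ M) (hψH : ∀ i, ∀ h ∈ H, ψ i h = 1) (hψ1 : ∀ i, ψ i (-1) = 1)
    (hfaith : ∀ c : (ZMod M)ˣ, (∀ i, ψ i c = 1) → InPM H 1 (c : ZMod M))
    {ϖ : E₁} (hϖ : Subfield.closure (Set.range f ∪ {ϖ}) = ⊤) :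
    IntermediateField.adjoin (modularFunctionFieldFullC E₀ L)
      (({algebraMap E₁ (fieldC E₁ L M H) ϖ} : Set (fieldC E₁ L M H)) ∪
        Set.range fun i => rtk6c4fdY f L M H (ψ i) hML) = ⊤ := by
  have h := rtk6c4fg_subfield_eq_top f H ψ hL hML hM hψH hψ1 hfaith hϖ
    (IntermediateField.adjoin (modularFunctionFieldFullC E₀ L)
      (({algebraMap E₁ (fieldC E₁ L M H) ϖ} : Set (fieldC E₁ L M H)) ∪
        Set.range fun i => rtk6c4fdY f L M H (ψ i) hML)).toSubfield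
    (fun z => by
      rw [← halg]
      exact IntermediateField.algebraMap_mem _ z)
    (IntermediateField.subset_adjoin _ _ (Or.inl rfl))
    (fun i => IntermediateField.subset_adjoin _ _ (Or.inr ⟨i, rfl⟩))
  rw [eq_top_iff]
  rintro x -
  have hx : x ∈ (IntermediateField.adjoin (modularFunctionFieldFullC E₀ L)
      (({algebraMap E₁ (fieldC E₁ L M H) ϖ} : Set (fieldC E₁ L M H)) ∪
        Set.range fun i => rtk6c4fdY f L M H (ψ i) hML)).toSubfield := by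
    rw [h]
    exact Subfield.mem_top x
  exact (IntermediateField.mem_toSubfield _ _).1 hx

/-- the generators are algebraic over `K` -/
theorem rtk6c4fg_isAlgebraic [CharZero E₀] [Algebra.IsAlgebraic ℚ E₀]
    (halg : ∀ z : modularFunctionFieldFullC E₀ L,
      algebraMap (modularFunctionFieldFullC E₀ L) (fieldC E₁ L M H) z
        = rtk6c4fdIota f L M H z)
    {ι : Type*} (ψ : ι → ((ZMod M)ˣ →* E₀ˣ)) (hL : L ≠ 0) (hML : M ∣ L)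
    {ϖ : E₁} {d : ℕ} (hd : 0 < d) (hϖd : ∃ a : E₀, ϖ ^ d = f a)
    (hψd : ∀ i c, ψ i c ^ d = 1) :
    ∀ x ∈ (({algebraMap E₁ (fieldC E₁ L M H) ϖ} : Set (fieldC E₁ L M H)) ∪
      Set.range fun i => rtk6c4fdY f L M H (ψ i) hML),
      IsAlgebraic (modularFunctionFieldFullC E₀ L) x := by
  rintro x (hx | ⟨i, rfl⟩)
  · rw [Set.mem_singleton_iff] at hx
    subst hx
    obtain ⟨a, ha⟩ := hϖd
    apply IsIntegral.isAlgebraic
    apply IsIntegral.of_pow hd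
    have h1 : algebraMap E₁ (fieldC E₁ L M H) ϖ ^ d
        = algebraMap (modularFunctionFieldFullC E₀ L) (fieldC E₁ L M H)
            (algebraMap E₀ (modularFunctionFieldFullC E₀ L) a) := by
      rw [halg, rtk6c4fdIota_algebraMap, ← ha, map_pow]
    rw [h1]
    exact isIntegral_algebraMap
  · obtain ⟨z, hz⟩ := rtk6c4fd_pow_mem_K (ψ := ψ i) halg hL hML (hψd i)
    apply IsIntegral.isAlgebraic
    apply IsIntegral.of_pow hd
    rw [← hz]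
    exact isIntegral_algebraMap

/-- **(F1), algebra form** (`hgen` of `Rtk6c4Cross`): `F₁ = K[C ϖ, y_i]`. -/
theorem rtk6c4fg_algebra_adjoin_eq_top [CharZero E₀] [Algebra.IsAlgebraic ℚ E₀]
    [CharZero E₁] [Algebra.IsAlgebraic ℚ E₁]
    (halg : ∀ z : modularFunctionFieldFullC E₀ L,
      algebraMap (modularFunctionFieldFullC E₀ L) (fieldC E₁ L M H) z
        = rtk6c4fdIota f L M H z)
    {ι : Type*} (ψ : ι → ((ZMod M)ˣ →* E₀ˣ)) (hL : L ≠ 0)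
    (hML : M ∣ L) (hM : 3 ≤ M) (hψH : ∀ i, ∀ h ∈ H, ψ i h = 1) (hψ1 : ∀ i, ψ i (-1) = 1)
    (hfaith : ∀ c : (ZMod M)ˣ, (∀ i, ψ i c = 1) → InPM H 1 (c : ZMod M))
    {ϖ : E₁} (hϖ : Subfield.closure (Set.range f ∪ {ϖ}) = ⊤)
    {d : ℕ} (hd : 0 < d) (hϖd : ∃ a : E₀, ϖ ^ d = f a)
    (hψd : ∀ i c, ψ i c ^ d = 1) :
    Algebra.adjoin (modularFunctionFieldFullC E₀ L)
      (({algebraMap E₁ (fieldC E₁ L M H) ϖ} : Set (fieldC E₁ L M H)) ∪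
        Set.range fun i => rtk6c4fdY f L M H (ψ i) hML) = ⊤ := by
  have h1 := IntermediateField.adjoin_toSubalgebra_of_isAlgebraic
    (rtk6c4fg_isAlgebraic f H halg ψ hL hML hd hϖd hψd)
  rw [← h1, rtk6c4fg_adjoin_eq_top f H halg ψ hL hML hM hψH hψ1 hfaith hϖ,
    IntermediateField.top_toSubalgebra]

end Gen

section Closure

variable {E₀ E₁ : Type} [Field E₀] [Field E₁] [Algebra E₀ E₁]

/-- `E₁ = E₀[ϖ]` gives the generation hypothesis of this file for `f = algebraMap E₀ E₁` -/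
theorem rtk6c4fg_closure_of_adjoin {ϖ : E₁} (hϖ : Algebra.adjoin E₀ ({ϖ} : Set E₁) = ⊤) :
    Subfield.closure (Set.range (algebraMap E₀ E₁) ∪ {ϖ}) = ⊤ := by
  rw [eq_top_iff]
  rintro c -
  have hc : c ∈ Algebra.adjoin E₀ ({ϖ} : Set E₁) := by rw [hϖ]; exact Algebra.mem_top
  induction hc using Algebra.adjoin_induction with
  | mem x hx => exact Subfield.subset_closure (Or.inr hx)
  | algebraMap a => exact Subfield.subset_closure (Or.inl ⟨a, rfl⟩)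
  | add x y hx hy ihx ihy => exact Subfield.add_mem _ ihx ihy
  | mul x y hx hy ihx ihy => exact Subfield.mul_mem _ ihx ihy

/-- `E₁ = E₀(ϖ)` (field adjunction) gives the generation hypothesis of this file -/
theorem rtk6c4fg_closure_of_field_adjoin {ϖ : E₁}
    (hϖ : IntermediateField.adjoin E₀ ({ϖ} : Set E₁) = ⊤) :
    Subfield.closure (Set.range (algebraMap E₀ E₁) ∪ {ϖ}) = ⊤ := by
  have h := congrArg IntermediateField.toSubfield hϖ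
  rw [IntermediateField.adjoin_toSubfield] at h
  rw [h]
  rfl

end Closure

end Fermat.Agent.RT.K6

end
end ZBRT_095_6

/-! ### bundled: `Fermat.Agent.RT.K6.C4FNorm` -/
section ZBRT_095_7
/-
K-machine, piece K6 (helper6): the NORMALISED Kummer generator in the top field — the twin of
helper36's `C4FDiam.lean` for `y′ = y_ψ / n₀`, `n₀ = #(±H) = rtk6d0N M H ⊤`.

WHY: `v_∞(y_ψ ^ d) = 1` is false if the residue characteristic divides `#(±H)`; the normalised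
Kummer element `u′ = (y_ψ / n₀) ^ d = ⟨rtk6n0Y E₀ M H ψ ^ d, _⟩` satisfies (N1′), (N2′), (N3′) of
`N0Norm.lean` without any hypothesis.  Feed helper54's `rtk6gxi_cross` with `z := u′`, `y := y′`.

Setting of `C4FDiam.lean`: `f : E₀ →+* E₁`, `F₁ = fieldC E₁ L M H`, `ι = rtk6c4fdIota f L M H`.

* `rtk6n0fY f L M H ψ hML : fieldC E₁ L M H` — `y′ = f(n₀⁻¹) · y_ψ`; `rtk6n0fY_coe`,
  `rtk6n0fY_mul`, `rtk6n0fY_ne_zero`;
* `rtk6n0f_iota_pow` : `ι ⟨rtk6n0Y E₀ M H ψ ^ d, _⟩ = y′ ^ d`; `rtk6n0f_pow_mem`,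
  `rtk6n0f_pow_mem_K`;
* `rtk6n0f_diamond_Y`, `rtk6n0fDiamK_Y` : `δ_c y′ = ψ(c) · y′`; `rtk6n0f_coeffHom_Y` : `σ̂ y′ = y′`;
* `rtk6n0fY_eq_K` : `y′ = (constant of K) · y_ψ`; `rtk6n0f_adjoin_eq` : the generated algebras
  agree.
-/

set_option autoImplicit false
set_option linter.style.haveILetI false
set_option linter.unusedSectionVars false
set_option linter.unusedVariables false

noncomputable section

namespace Fermat.Agent.RT.K6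

open HahnSeries ModularCurve AlgebraicCurve IntermediateField
open Fermat.Agent.ES Fermat.Agent.ES.G2 Fermat.Agent.INJ Fermat.Agent.UNIP Fermat.Agent.ES1
  Fermat.Agent.ES1.G2

section Adjoin

variable {K F : Type*} [Field K] [Field F] [Algebra K F]

/-- replacing a generator by a nonzero `K`-multiple does not change the generated algebra -/
theorem rtk6n0f_adjoin_eq (T : Set F) (ϖ y : F) {k : K} (hk : k ≠ 0) :
    Algebra.adjoin K (T ∪ {ϖ, algebraMap K F k * y}) = Algebra.adjoin K (T ∪ {ϖ, y}) := by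
  apply le_antisymm
  · refine Algebra.adjoin_le ?_
    rintro x (hx | hx | hx)
    · exact Algebra.subset_adjoin (Or.inl hx)
    · exact Algebra.subset_adjoin (Or.inr (Or.inl hx))
    · rw [Set.mem_singleton_iff] at hx
      rw [hx]
      exact mul_mem (Subalgebra.algebraMap_mem _ k)
        (Algebra.subset_adjoin (Or.inr (Or.inr rfl)))
  · refine Algebra.adjoin_le ?_
    rintro x (hx | hx | hx)
    · exact Algebra.subset_adjoin (Or.inl hx)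
    · exact Algebra.subset_adjoin (Or.inr (Or.inl hx))
    · rw [Set.mem_singleton_iff] at hx
      have h1 : x = algebraMap K F k⁻¹ * (algebraMap K F k * y) := by
        rw [← mul_assoc, ← map_mul, inv_mul_cancel₀ hk, map_one, one_mul, hx]
      rw [h1]
      exact mul_mem (Subalgebra.algebraMap_mem _ k⁻¹)
        (Algebra.subset_adjoin (Or.inr (Or.inr rfl)))

end Adjoin

section Generic

variable {E₀ E₁ : Type} [Field E₀] [Field E₁] (f : E₀ →+* E₁)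
  (L M : ℕ) [NeZero M] (H : Subgroup (ZMod M)ˣ) (ψ : (ZMod M)ˣ →* E₀ˣ)

/-- **the normalised Kummer generator** `y′ = y_ψ / #(±H)` of `fieldC E₁ L M H` -/
def rtk6n0fY (hML : M ∣ L) : fieldC E₁ L M H :=
  algebraMap E₁ (fieldC E₁ L M H) (f (((rtk6d0N M H ⊤ : ℕ) : E₀)⁻¹)) * rtk6c4fdY f L M H ψ hML

theorem rtk6n0f_map_inv : f (((rtk6d0N M H ⊤ : ℕ) : E₀)⁻¹) = (((rtk6d0N M H ⊤ : ℕ) : E₁))⁻¹ := by
  rw [map_inv₀, map_natCast]

theorem rtk6n0fY_coe (hML : M ∣ L) :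
    ((rtk6n0fY f L M H ψ hML : fieldC E₁ L M H) : LaurentSeries E₁)
      = rtk6n0Y E₁ M H (rtk6c4fdPsi f M ψ) := by
  unfold rtk6n0fY rtk6n0Y
  rw [MulMemClass.coe_mul, rtk6c4fdY_coe, rtk6n0f_map_inv, ← LaurentSeries.algebraMap_apply]
  rfl

/-- `y′` is the coefficientwise image of the normalised generator over `E₀` -/
theorem rtk6n0f_coeffMap_Y :
    coeffMap f (rtk6n0Y E₀ M H ψ) = rtk6n0Y E₁ M H (rtk6c4fdPsi f M ψ) := by
  unfold rtk6n0Y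
  rw [map_mul, rtk6c4fd_coeffMap_Y, ← rtk6n0f_map_inv f M H]
  congr 1
  show coeffMap f (HahnSeries.single 0 _) = HahnSeries.single 0 _
  rw [coeffMap_single]

/-- `y_ψ = n₀ · y′` -/
theorem rtk6n0fY_mul [CharZero E₁] (hML : M ∣ L) :
    algebraMap E₁ (fieldC E₁ L M H) (((rtk6d0N M H ⊤ : ℕ) : E₁)) * rtk6n0fY f L M H ψ hML
      = rtk6c4fdY f L M H ψ hML := by
  unfold rtk6n0fY
  rw [← mul_assoc, ← map_mul, rtk6n0f_map_inv, mul_inv_cancel₀ rtk6n0_N_ne_zero, map_one,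
    one_mul]

theorem rtk6n0fY_ne_zero [CharZero E₁] (hML : M ∣ L) (hM : 3 ≤ M) (hψH : ∀ h ∈ H, ψ h = 1)
    (hψ1 : ψ (-1) = 1) : rtk6n0fY f L M H ψ hML ≠ 0 := by
  intro h0
  apply rtk6c4fdY_ne_zero f L M H ψ hML hM hψH hψ1
  rw [← rtk6n0fY_mul, h0, mul_zero]

/-- **`ι u′ = y′ ^ d`** for the normalised Kummer element `u′ = ⟨rtk6n0Y E₀ M H ψ ^ d, _⟩` -/
theorem rtk6n0f_iota_pow (hML : M ∣ L) {d : ℕ}
    (hmem : rtk6n0Y E₀ M H ψ ^ d ∈ modularFunctionFieldFullC E₀ L) :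
    rtk6c4fdIota f L M H ⟨rtk6n0Y E₀ M H ψ ^ d, hmem⟩ = rtk6n0fY f L M H ψ hML ^ d := by
  apply Subtype.ext
  rw [rtk6c4fdIota_coe, SubmonoidClass.coe_pow, rtk6n0fY_coe]
  show coeffMap f (rtk6n0Y E₀ M H ψ ^ d) = _
  rw [map_pow, rtk6n0f_coeffMap_Y]

/-- **(F4′)** the normalised Kummer element lies in the `Γ₀(L)`-field over `E₀` -/
theorem rtk6n0f_mem [CharZero E₀] [Algebra.IsAlgebraic ℚ E₀] (hL : L ≠ 0) (hML : M ∣ L)
    {d : ℕ} (hd : ∀ c, ψ c ^ d = 1) :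
    rtk6n0Y E₀ M H ψ ^ d ∈ modularFunctionFieldFullC E₀ L :=
  rtk6n0Y_pow_mem _ (rtk6d0_pow_mem_full E₀ H ψ hL hML hd)

/-- **(F4′)** `y′ ^ d ∈ range ι` if `ψ ^ d = 1` -/
theorem rtk6n0f_pow_mem [CharZero E₀] [Algebra.IsAlgebraic ℚ E₀] (hL : L ≠ 0) (hML : M ∣ L)
    {d : ℕ} (hd : ∀ c, ψ c ^ d = 1) :
    rtk6c4fdIota f L M H ⟨rtk6n0Y E₀ M H ψ ^ d, rtk6n0f_mem L M H ψ hL hML hd⟩
      = rtk6n0fY f L M H ψ hML ^ d :=
  rtk6n0f_iota_pow f L M H ψ hML _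

variable {f L M H ψ}

/-- **(F3′)** `δ_c y′ = ψ(c) · y′` -/
theorem rtk6n0f_diamond_Y [CharZero E₁] [Algebra.IsAlgebraic ℚ E₁] (hML : M ∣ L)
    {c : (ZMod M)ˣ} {δ : fieldC E₁ L M H ≃ₐ[E₁] fieldC E₁ L M H}
    (hδ : IsDiamondC E₁ L M H c δ) :
    δ (rtk6n0fY f L M H ψ hML)
      = algebraMap E₁ (fieldC E₁ L M H) (f ((ψ c : E₀ˣ) : E₀)) * rtk6n0fY f L M H ψ hML := by
  unfold rtk6n0fY
  rw [map_mul, rtk6c4fd_diamond_const, rtk6c4fd_diamond_Y hML hδ, mul_left_comm]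

/-- `y′ = (constant of K) · y_ψ`, for ANY algebra structure with `algebraMap = ι` -/
theorem rtk6n0fY_eq_K [Algebra (modularFunctionFieldFullC E₀ L) (fieldC E₁ L M H)]
    (halg : ∀ z : modularFunctionFieldFullC E₀ L,
      algebraMap (modularFunctionFieldFullC E₀ L) (fieldC E₁ L M H) z = rtk6c4fdIota f L M H z)
    (hML : M ∣ L) :
    rtk6n0fY f L M H ψ hML
      = algebraMap (modularFunctionFieldFullC E₀ L) (fieldC E₁ L M H)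
          (algebraMap E₀ (modularFunctionFieldFullC E₀ L) (((rtk6d0N M H ⊤ : ℕ) : E₀)⁻¹))
        * rtk6c4fdY f L M H ψ hML := by
  rw [halg, rtk6c4fdIota_algebraMap]
  rfl

/-- the constant `n₀⁻¹` of `K` is nonzero -/
theorem rtk6n0f_const_ne_zero [CharZero E₀] :
    algebraMap E₀ (modularFunctionFieldFullC E₀ L) (((rtk6d0N M H ⊤ : ℕ) : E₀)⁻¹) ≠ 0 := by
  rw [Ne, map_eq_zero_iff _ (algebraMap E₀ (modularFunctionFieldFullC E₀ L)).injective]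
  exact inv_ne_zero rtk6n0_N_ne_zero

/-- `δ_K y′ = ι(ψ c) · y′` -/
theorem rtk6n0fDiamK_Y [CharZero E₁] [Algebra.IsAlgebraic ℚ E₁]
    [Algebra (modularFunctionFieldFullC E₀ L) (fieldC E₁ L M H)]
    (halg : ∀ z : modularFunctionFieldFullC E₀ L,
      algebraMap (modularFunctionFieldFullC E₀ L) (fieldC E₁ L M H) z = rtk6c4fdIota f L M H z)
    (hML : M ∣ L) {c : (ZMod M)ˣ} {δ : fieldC E₁ L M H ≃ₐ[E₁] fieldC E₁ L M H}
    (hδ : IsDiamondC E₁ L M H c δ) :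
    rtk6c4fdDiamK halg hδ (rtk6n0fY f L M H ψ hML)
      = algebraMap (modularFunctionFieldFullC E₀ L) (fieldC E₁ L M H)
          (algebraMap E₀ (modularFunctionFieldFullC E₀ L) ((ψ c : E₀ˣ) : E₀))
        * rtk6n0fY f L M H ψ hML := by
  rw [rtk6c4fdDiamK_apply, rtk6n0f_diamond_Y hML hδ, halg, rtk6c4fdIota_algebraMap]

/-- the generated algebras agree: `K[S, ϖ, y′] = K[S, ϖ, y_ψ]` -/
theorem rtk6n0f_adjoin [CharZero E₀]
    [Algebra (modularFunctionFieldFullC E₀ L) (fieldC E₁ L M H)]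
    (halg : ∀ z : modularFunctionFieldFullC E₀ L,
      algebraMap (modularFunctionFieldFullC E₀ L) (fieldC E₁ L M H) z = rtk6c4fdIota f L M H z)
    (hML : M ∣ L) (S : Set (fieldC E₁ L M H)) (ϖ : fieldC E₁ L M H) :
    Algebra.adjoin (modularFunctionFieldFullC E₀ L) (S ∪ {ϖ, rtk6n0fY f L M H ψ hML})
      = Algebra.adjoin (modularFunctionFieldFullC E₀ L) (S ∪ {ϖ, rtk6c4fdY f L M H ψ hML}) := by
  rw [rtk6n0fY_eq_K halg hML]
  exact rtk6n0f_adjoin_eq S ϖ _ rtk6n0f_const_ne_zero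

end Generic

section Concrete

variable {K₁ : IntermediateField ℚ Qb} {L M : ℕ} {H : Subgroup (ZMod M)ˣ}

/-- the coefficientwise action of `σ` fixes `y′` if `σ` fixes the values of `f` -/
theorem rtk6n0f_coeffHom_Y [NeZero M] {E₀ : Type} [Field E₀] (f : E₀ →+* K₁)
    (ψ : (ZMod M)ˣ →* E₀ˣ) (hML : M ∣ L) (σ : Qb ≃ₐ[ℚ] Qb) (hσ : ∀ x ∈ K₁, σ x ∈ K₁)
    (hfix : ∀ a : E₀, σ (f a : Qb) = (f a : Qb)) :
    rtk6diCoeffHom L M H (mgRestrict K₁ σ hσ) (rtk6n0fY f L M H ψ hML)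
      = rtk6n0fY f L M H ψ hML := by
  unfold rtk6n0fY
  rw [map_mul, rtk6c4fd_coeffHom_const, rtk6c4fd_coeffHom_Y f ψ hML σ hσ hfix]
  congr 2
  apply Subtype.ext
  exact hfix _

end Concrete

end Fermat.Agent.RT.K6

end


end ZBRT_095_7

/-! ### bundled: `Fermat.Agent.RT.K6.C4ChiWireGen` -/
section ZBRT_095_8
/-
RT-K6, piece C4-χ-WIRE, part 2 (helper70): **`hgen` discharged** at the thin level
`K₁′ = rtk6ebK r d` and the wiring of PSI into the fields of `Rtk6c4Cross(E)`.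

* `rtk6c4w_closure`    : `E₁ = mgcE A (rtk6ebK r d)` is generated, as a field, by `ℚ̄^I` and `ϖ`
  (`ϖ ^ d = r`)  — the hypothesis `hϖ` of helper36's (F1) (`C4FGen.lean`);
* `rtk6c4w_hgen_base`  : `K[y_{ψ′_i}, C ϖ, y_{ψ_r}] = F₁` for `ψ_r`, `ψ′_i` of PSI;
* `rtk6c4w_wireS`      : **all non-pointwise fields** for an ABSTRACT `S` (helper98's interface:
  `hSfix`, `hSadj`) and `y = k_y · y_{ψ_r}`;
* `rtk6c4w_wire`       : the same for `S = {k_i · y_{ψ′_i}}`;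
* `rtk6c4w_wireN`      : the same for the NORMALISED `y′ = rtk6n0fY` (helper6, `C4FNorm.lean`).
-/

set_option autoImplicit false
set_option linter.style.haveILetI false
set_option linter.unusedSectionVars false
set_option linter.unusedVariables false
set_option linter.style.longLine false
set_option synthInstance.maxHeartbeats 400000
set_option maxHeartbeats 4000000

noncomputable section

namespace Fermat.Agent.RT.K6

open ModularCurve AlgebraicCurve IntermediateField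
open Fermat.Agent.ES Fermat.Agent.ES.G2 Fermat.Agent.INJ Fermat.Agent.UNIP Fermat.Agent.ES1
  Fermat.Agent.ES1.G2

/-! ### `E₁ = E₀(ϖ)` at the thin level -/

section Closure

variable {A : ValuationSubring Qb} {r d : ℕ}

/-- **`E₁ = ℚ̄^I(ϖ)`**: the hypothesis `hϖ` of (F1) at the thin level `K₁′ = rtk6ebK r d`. -/
theorem rtk6c4w_closure (hr : r.Prime) (hA : A.LiesOverPrime r) (hd0 : d ≠ 0) (hdr : ¬ r ∣ d)
    (f : ↥(beta0Field A) →+* ↥(mgcE A (rtk6ebK r d)))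
    (hf : ∀ a : ↥(beta0Field A), ((f a : ↥(mgcE A (rtk6ebK r d))) : Qb) = (a : Qb))
    {ϖ : ↥(mgcE A (rtk6ebK r d))} (hϖ : ϖ ^ d = ((r : ℕ) : ↥(mgcE A (rtk6ebK r d)))) :
    Subfield.closure (Set.range f ∪ {ϖ}) = ⊤ := by
  rw [eq_top_iff]
  rintro x -
  have hϖQ : (ϖ : Qb) ^ d = ((r : ℕ) : Qb) := by
    have := congrArg (fun z : ↥(mgcE A (rtk6ebK r d)) => (z : Qb)) hϖ
    simpa using this
  obtain ⟨c, hc, hx⟩ := rtk6eb_exists_coeff hr hA hd0 hdr hϖQ x.2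
  have hx' : x = ∑ i, f ⟨c i, hc i⟩ * ϖ ^ (i : ℕ) := by
    apply Subtype.ext
    rw [hx]
    have h1 : ((∑ i, f ⟨c i, hc i⟩ * ϖ ^ (i : ℕ) : ↥(mgcE A (rtk6ebK r d))) : Qb)
        = ∑ i, ((f ⟨c i, hc i⟩ * ϖ ^ (i : ℕ) : ↥(mgcE A (rtk6ebK r d))) : Qb) :=
      map_sum (mgcE A (rtk6ebK r d)).val _ _
    rw [h1]
    refine Finset.sum_congr rfl fun i _ => ?_
    rw [MulMemClass.coe_mul, SubmonoidClass.coe_pow, hf]
  rw [hx']
  refine sum_mem fun i _ => mul_mem ?_ (pow_mem ?_ _)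
  · exact Subfield.subset_closure (Or.inl ⟨_, rfl⟩)
  · exact Subfield.subset_closure (Or.inr rfl)

end Closure

/-! ### `hgen` for the characters of PSI -/

section Gen

variable {A : ValuationSubring Qb} {r : ℕ} {L M : ℕ} [NeZero M] {H : Subgroup (ZMod M)ˣ}

/-- the family `ψ_r, ψ′_i` -/
def rtk6c4wFam {E₀ : Type} [Field E₀] {ι : Type*} (ψr : (ZMod M)ˣ →* E₀ˣ)
    (ψ' : ι → ((ZMod M)ˣ →* E₀ˣ)) : Option ι → ((ZMod M)ˣ →* E₀ˣ) :=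
  fun o => o.elim ψr ψ'

/-- **(F1) for PSI at the thin level**: `F₁ = K[y_{ψ′_i}, C ϖ, y_{ψ_r}]`. -/
theorem rtk6c4w_hgen_base (hr : r.Prime) (hA : A.LiesOverPrime r) (hrM : r ∣ M)
    (hr2 : ¬ r ^ 2 ∣ M)
    (f : ↥(beta0Field A) →+* ↥(mgcE A (rtk6ebK r (rtk6psiDr M r H))))
    (hf : ∀ a : ↥(beta0Field A),
      ((f a : ↥(mgcE A (rtk6ebK r (rtk6psiDr M r H)))) : Qb) = (a : Qb))
    [Algebra ↥(modularFunctionFieldFullC ↥(beta0Field A) L)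
      ↥(rtk6diF A (rtk6ebK r (rtk6psiDr M r H)) L M H)]
    (halg : ∀ z : ↥(modularFunctionFieldFullC ↥(beta0Field A) L),
      algebraMap ↥(modularFunctionFieldFullC ↥(beta0Field A) L)
        ↥(rtk6diF A (rtk6ebK r (rtk6psiDr M r H)) L M H) z = rtk6c4fdIota f L M H z)
    (hL : L ≠ 0) (hML : M ∣ L) (hM : 3 ≤ M)
    {ϖ : ↥(mgcA A (rtk6ebK r (rtk6psiDr M r H)))}
    (hϖ : ϖ ^ rtk6psiDr M r H = ((r : ℕ) : ↥(mgcA A (rtk6ebK r (rtk6psiDr M r H)))))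
    {ψr : (ZMod M)ˣ →* (↥(beta0Field A))ˣ} (hψr : Rtk6psiIsR ↥(beta0Field A) M r H ψr)
    {ι : Type*} {dS : ℕ} {ψ' : ι → ((ZMod M)ˣ →* (↥(beta0Field A))ˣ)}
    (hfam : Rtk6psiIsFam ↥(beta0Field A) M r dS H ψ')
    (hdS0 : dS ≠ 0) (hdS : rtk6psiDr M r H ∣ dS) :
    Algebra.adjoin ↥(modularFunctionFieldFullC ↥(beta0Field A) L)
      ((Set.range fun i => rtk6c4fdY f L M H (ψ' i) hML) ∪
        {algebraMap ↥(mgcA A (rtk6ebK r (rtk6psiDr M r H)))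
            ↥(rtk6diF A (rtk6ebK r (rtk6psiDr M r H)) L M H) ϖ,
          rtk6c4fdY f L M H ψr hML}) = ⊤ := by
  haveI : Algebra.IsAlgebraic ℚ Qb := AlgebraicClosure.isAlgebraic ℚ
  haveI : Algebra.IsAlgebraic ℚ ↥(mgcE A (rtk6ebK r (rtk6psiDr M r H))) :=
    Algebra.IsAlgebraic.of_injective (mgcE A (rtk6ebK r (rtk6psiDr M r H))).val
      Subtype.val_injective
  haveI : Algebra.IsAlgebraic ℚ ↥(beta0Field A) :=
    Algebra.IsAlgebraic.of_injective (beta0Field A).val Subtype.val_injective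
  have hd0 : rtk6psiDr M r H ≠ 0 := (rtk6psiDr_pos (M := M) (r := r) (H := H)).ne'
  have hdr : ¬ r ∣ rtk6psiDr M r H := rtk6psiDr_not_dvd hr hrM hr2
  have hϖE : ((ϖ : ↥(mgcA A (rtk6ebK r (rtk6psiDr M r H)))) :
      ↥(mgcE A (rtk6ebK r (rtk6psiDr M r H)))) ^ rtk6psiDr M r H
      = ((r : ℕ) : ↥(mgcE A (rtk6ebK r (rtk6psiDr M r H)))) := by
    have := congrArg (fun z : ↥(mgcA A (rtk6ebK r (rtk6psiDr M r H))) =>
      (z : ↥(mgcE A (rtk6ebK r (rtk6psiDr M r H))))) hϖ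
    simpa using this
  have hcl := rtk6c4w_closure hr hA hd0 hdr f hf hϖE
  obtain ⟨e, he⟩ := hdS
  have hϖd : ∃ a : ↥(beta0Field A),
      ((ϖ : ↥(mgcA A (rtk6ebK r (rtk6psiDr M r H)))) :
        ↥(mgcE A (rtk6ebK r (rtk6psiDr M r H)))) ^ dS = f a := by
    refine ⟨((r : ℕ) : ↥(beta0Field A)) ^ e, ?_⟩
    rw [he, pow_mul, hϖE, map_pow, map_natCast]
  have hψd : ∀ (i : Option ι) (c : (ZMod M)ˣ), rtk6c4wFam ψr ψ' i c ^ dS = 1 := by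
    rintro (_ | i) c
    · show ψr c ^ dS = 1
      rw [he, pow_mul, hψr.pow_dr c, one_pow]
    · exact hfam.pow_d i c
  have hψH : ∀ (i : Option ι), ∀ h ∈ H, rtk6c4wFam ψr ψ' i h = 1 := by
    rintro (_ | i) h hh
    · exact hψr.map_H h hh
    · exact hfam.map_H i h hh
  have hψ1 : ∀ (i : Option ι), rtk6c4wFam ψr ψ' i (-1) = 1 := by
    rintro (_ | i)
    · exact hψr.map_neg_one
    · exact hfam.map_neg_one i
  have hfaith : ∀ c : (ZMod M)ˣ, (∀ i, rtk6c4wFam ψr ψ' i c = 1) → InPM H 1 (c : ZMod M) :=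
    fun c hc => es1rc_mem_pmH_iff.1
      (hfam.faithful_psiR hψr (hc none) (fun i => hc (some i)))
  have h := rtk6c4fg_algebra_adjoin_eq_top f H halg (rtk6c4wFam ψr ψ') hL hML hM hψH hψ1 hfaith
    hcl (Nat.pos_of_ne_zero hdS0) hϖd hψd
  rw [eq_top_iff, ← h]
  refine Algebra.adjoin_mono ?_
  rintro t (ht | ⟨o, rfl⟩)
  · rw [Set.mem_singleton_iff] at ht
    subst ht
    exact Or.inr (Or.inl rfl)
  · rcases o with _ | i
    · exact Or.inr (Or.inr rfl)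
    · exact Or.inl ⟨i, rfl⟩

end Gen

/-! ### The wiring -/

section Wire

variable {A : ValuationSubring Qb} {r : ℕ} {L M : ℕ} [NeZero M] {H : Subgroup (ZMod M)ˣ}

/-- **C4-χ-WIRE, abstract `S`.**  All non-pointwise fields of `Rtk6c4Cross(E)` at the thin level
`K₁′ = rtk6ebK r d_r`, in the shape of `rtk6gxi_cross(E)`, for `y = k_y · y_{ψ_r}` and ANY set `S`
with: every `K`-automorphism fixing the `y_{ψ′_i}` fixes `S` (`hSfix`), and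
`K[S, T] = K[y_{ψ′_i}, T]` for all `T` (`hSadj`). -/
theorem rtk6c4w_wireS (hr : r.Prime) (hA : A.LiesOverPrime r) (hrM : r ∣ M)
    (hr2 : ¬ r ^ 2 ∣ M) (hodd : Odd (rtk6psiDr M r H))
    (f : ↥(beta0Field A) →+* ↥(mgcE A (rtk6ebK r (rtk6psiDr M r H))))
    (hf : ∀ a : ↥(beta0Field A),
      ((f a : ↥(mgcE A (rtk6ebK r (rtk6psiDr M r H)))) : Qb) = (a : Qb))
    [Algebra ↥(modularFunctionFieldFullC ↥(beta0Field A) L)
      ↥(rtk6diF A (rtk6ebK r (rtk6psiDr M r H)) L M H)]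
    (halg : ∀ z : ↥(modularFunctionFieldFullC ↥(beta0Field A) L),
      algebraMap ↥(modularFunctionFieldFullC ↥(beta0Field A) L)
        ↥(rtk6diF A (rtk6ebK r (rtk6psiDr M r H)) L M H) z = rtk6c4fdIota f L M H z)
    (hL : L ≠ 0) (hML : M ∣ L) (hM : 3 ≤ M)
    (R₀ : Subalgebra ↥(beta0Ring A (beta0Field A))
      ↥(modularFunctionFieldFullC ↥(beta0Field A) L))
    {ϖ : ↥(mgcA A (rtk6ebK r (rtk6psiDr M r H)))}
    (hϖ : ϖ ^ rtk6psiDr M r H = ((r : ℕ) : ↥(mgcA A (rtk6ebK r (rtk6psiDr M r H)))))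
    {ψr : (ZMod M)ˣ →* (↥(beta0Field A))ˣ} (hψr : Rtk6psiIsR ↥(beta0Field A) M r H ψr)
    {ι : Type*} {dS : ℕ} {ψ' : ι → ((ZMod M)ˣ →* (↥(beta0Field A))ˣ)}
    (hfam : Rtk6psiIsFam ↥(beta0Field A) M r dS H ψ')
    (hdS0 : dS ≠ 0) (hdS : rtk6psiDr M r H ∣ dS)
    (S : Set ↥(rtk6diF A (rtk6ebK r (rtk6psiDr M r H)) L M H))
    (hSfix : ∀ φ : ↥(rtk6diF A (rtk6ebK r (rtk6psiDr M r H)) L M H)
        ≃ₐ[↥(modularFunctionFieldFullC ↥(beta0Field A) L)]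
        ↥(rtk6diF A (rtk6ebK r (rtk6psiDr M r H)) L M H),
      (∀ i, φ (rtk6c4fdY f L M H (ψ' i) hML) = rtk6c4fdY f L M H (ψ' i) hML) →
        ∀ t ∈ S, φ t = t)
    (hSadj : ∀ T : Set ↥(rtk6diF A (rtk6ebK r (rtk6psiDr M r H)) L M H),
      Algebra.adjoin ↥(modularFunctionFieldFullC ↥(beta0Field A) L) (S ∪ T)
        = Algebra.adjoin ↥(modularFunctionFieldFullC ↥(beta0Field A) L)
          ((Set.range fun i => rtk6c4fdY f L M H (ψ' i) hML) ∪ T))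
    (ky : ↥(modularFunctionFieldFullC ↥(beta0Field A) L)) (hky : ky ≠ 0)
    {n₀ : ℤ} (hn₀ : Nat.Coprime n₀.natAbs (rtk6psiDr M r H)) :
    ∃ (ζ : ↥R₀) (a b : ℤ)
      (σ δ : ↥(rtk6diF A (rtk6ebK r (rtk6psiDr M r H)) L M H)
        ≃ₐ[↥(modularFunctionFieldFullC ↥(beta0Field A) L)]
        ↥(rtk6diF A (rtk6ebK r (rtk6psiDr M r H)) L M H)),
      IsPrimitiveRoot ζ (rtk6psiDr M r H) ∧
      a * n₀ - b * (rtk6psiDr M r H : ℤ) = 1 ∧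
      Algebra.adjoin ↥(modularFunctionFieldFullC ↥(beta0Field A) L)
        (S ∪ {algebraMap ↥(mgcA A (rtk6ebK r (rtk6psiDr M r H)))
            ↥(rtk6diF A (rtk6ebK r (rtk6psiDr M r H)) L M H) ϖ,
          algebraMap ↥(modularFunctionFieldFullC ↥(beta0Field A) L)
            ↥(rtk6diF A (rtk6ebK r (rtk6psiDr M r H)) L M H) ky
              * rtk6c4fdY f L M H ψr hML}) = ⊤ ∧
      (∀ t ∈ S, σ t = t) ∧
      σ (algebraMap ↥(mgcA A (rtk6ebK r (rtk6psiDr M r H)))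
          ↥(rtk6diF A (rtk6ebK r (rtk6psiDr M r H)) L M H) ϖ)
        = algebraMap ↥R₀ ↥(rtk6diF A (rtk6ebK r (rtk6psiDr M r H)) L M H) ζ
          * algebraMap ↥(mgcA A (rtk6ebK r (rtk6psiDr M r H)))
            ↥(rtk6diF A (rtk6ebK r (rtk6psiDr M r H)) L M H) ϖ ∧
      σ (algebraMap ↥(modularFunctionFieldFullC ↥(beta0Field A) L)
          ↥(rtk6diF A (rtk6ebK r (rtk6psiDr M r H)) L M H) ky * rtk6c4fdY f L M H ψr hML)
        = algebraMap ↥(modularFunctionFieldFullC ↥(beta0Field A) L)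
          ↥(rtk6diF A (rtk6ebK r (rtk6psiDr M r H)) L M H) ky * rtk6c4fdY f L M H ψr hML ∧
      (∀ t ∈ S, δ t = t) ∧
      δ (algebraMap ↥(mgcA A (rtk6ebK r (rtk6psiDr M r H)))
          ↥(rtk6diF A (rtk6ebK r (rtk6psiDr M r H)) L M H) ϖ)
        = algebraMap ↥(mgcA A (rtk6ebK r (rtk6psiDr M r H)))
          ↥(rtk6diF A (rtk6ebK r (rtk6psiDr M r H)) L M H) ϖ ∧
      δ (algebraMap ↥(modularFunctionFieldFullC ↥(beta0Field A) L)
          ↥(rtk6diF A (rtk6ebK r (rtk6psiDr M r H)) L M H) ky * rtk6c4fdY f L M H ψr hML)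
        = algebraMap ↥R₀ ↥(rtk6diF A (rtk6ebK r (rtk6psiDr M r H)) L M H) ζ ^ n₀ *
          (algebraMap ↥(modularFunctionFieldFullC ↥(beta0Field A) L)
            ↥(rtk6diF A (rtk6ebK r (rtk6psiDr M r H)) L M H) ky
              * rtk6c4fdY f L M H ψr hML) ∧
      -- provenance
      (∃ (σ₀ : Qb ≃ₐ[ℚ] Qb) (_ : σ₀ ∈ A.inertiaSubgroupIn ℚ)
          (hσE : ∀ x ∈ mgcE A (rtk6ebK r (rtk6psiDr M r H)),
            σ₀ x ∈ mgcE A (rtk6ebK r (rtk6psiDr M r H))),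
        ∀ x, σ x = rtk6diGal L M H σ₀ hσE • x) ∧
      (∃ (c : (ZMod M)ˣ) (δ₀ : ↥(rtk6diF A (rtk6ebK r (rtk6psiDr M r H)) L M H)
          ≃ₐ[↥(mgcE A (rtk6ebK r (rtk6psiDr M r H)))]
          ↥(rtk6diF A (rtk6ebK r (rtk6psiDr M r H)) L M H)),
        IsAtR M r c ∧ IsDiamondC ↥(mgcE A (rtk6ebK r (rtk6psiDr M r H))) L M H c δ₀ ∧
          ∀ x, δ x = δ₀ x) := by
  have hd0 : rtk6psiDr M r H ≠ 0 := hodd.pos.ne'
  obtain ⟨c₀, hc₀, hord⟩ := hψr.exists_orderOf hr hrM hr2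
  have hu : ψr c₀ ^ rtk6psiDr M r H = 1 := hψr.pow_dr c₀
  obtain ⟨a, b, hab⟩ := rtk6c4w_bezout hn₀
  obtain ⟨σ, δ, hσϖ, hσY, hδϖ, hδy, hδY, hσprov, hδprov⟩ :=
    rtk6c4w_auts (L := L) (M := M) (H := H) hr hA hrM hodd (rtk6ebK r (rtk6psiDr M r H)) f hf
      halg hL hML hϖ ψr hc₀ hord n₀
  have hbase := rtk6c4w_hgen_base hr hA hrM hr2 f hf halg hL hML hM hϖ hψr hfam hdS0 hdS
  refine ⟨rtk6c4wZeta (beta0Ring A (beta0Field A)) R₀ (ψr c₀) hd0 hu, a, b, σ, δ,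
    rtk6c4wZeta_isPrimitiveRoot _ R₀ _ hd0 hu hord, hab, ?_,
    hSfix σ (fun i => hσY (ψ' i)), hσϖ, ?_,
    hSfix δ (fun i => hδY (ψ' i) (hfam.map_atR i)), hδϖ, ?_, hσprov, hδprov⟩
  · rw [hSadj, rtk6n0f_adjoin_eq _ _ _ hky]
    exact hbase
  · rw [map_mul, AlgEquiv.commutes, hσY ψr]
  · rw [map_mul, AlgEquiv.commutes, hδy]
    exact mul_left_comm _ _ _

/-- **C4-χ-WIRE, NORMALISED generators** (the form for helper74's `rtk6gi_cross_pack` and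
helper54's `rtk6gxi_cross(E)` with `z := u′`, `y := y′`): `y′_ψ = rtk6n0fY f L M H ψ hML`
(helper6, `C4FNorm.lean`).  Output: `ζ a b σ δ` with `hζ`, `hab`,
(F1) `K[y′_{ψ′_i}, C ϖ, y′_{ψ_r}] = F₁`, the values of `σ`, `δ` on `C ϖ` and on ALL `y′_ψ`
(`hσϖ hσy hδϖ hδy`; `hσS hδS` through `rtk6gi_cross_pack`), and the provenance of `σ`, `δ`. -/
theorem rtk6c4w_wireN (hr : r.Prime) (hA : A.LiesOverPrime r) (hrM : r ∣ M)
    (hr2 : ¬ r ^ 2 ∣ M) (hodd : Odd (rtk6psiDr M r H))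
    (f : ↥(beta0Field A) →+* ↥(mgcE A (rtk6ebK r (rtk6psiDr M r H))))
    (hf : ∀ a : ↥(beta0Field A),
      ((f a : ↥(mgcE A (rtk6ebK r (rtk6psiDr M r H)))) : Qb) = (a : Qb))
    [Algebra ↥(modularFunctionFieldFullC ↥(beta0Field A) L)
      ↥(rtk6diF A (rtk6ebK r (rtk6psiDr M r H)) L M H)]
    (halg : ∀ z : ↥(modularFunctionFieldFullC ↥(beta0Field A) L),
      algebraMap ↥(modularFunctionFieldFullC ↥(beta0Field A) L)
        ↥(rtk6diF A (rtk6ebK r (rtk6psiDr M r H)) L M H) z = rtk6c4fdIota f L M H z)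
    (hL : L ≠ 0) (hML : M ∣ L) (hM : 3 ≤ M)
    (R₀ : Subalgebra ↥(beta0Ring A (beta0Field A))
      ↥(modularFunctionFieldFullC ↥(beta0Field A) L))
    {ϖ : ↥(mgcA A (rtk6ebK r (rtk6psiDr M r H)))}
    (hϖ : ϖ ^ rtk6psiDr M r H = ((r : ℕ) : ↥(mgcA A (rtk6ebK r (rtk6psiDr M r H)))))
    {ψr : (ZMod M)ˣ →* (↥(beta0Field A))ˣ} (hψr : Rtk6psiIsR ↥(beta0Field A) M r H ψr)
    {ι : Type*} {dS : ℕ} {ψ' : ι → ((ZMod M)ˣ →* (↥(beta0Field A))ˣ)}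
    (hfam : Rtk6psiIsFam ↥(beta0Field A) M r dS H ψ')
    (hdS0 : dS ≠ 0) (hdS : rtk6psiDr M r H ∣ dS)
    {n₀ : ℤ} (hn₀ : Nat.Coprime n₀.natAbs (rtk6psiDr M r H)) :
    ∃ (ζ : ↥R₀) (a b : ℤ)
      (σ δ : ↥(rtk6diF A (rtk6ebK r (rtk6psiDr M r H)) L M H)
        ≃ₐ[↥(modularFunctionFieldFullC ↥(beta0Field A) L)]
        ↥(rtk6diF A (rtk6ebK r (rtk6psiDr M r H)) L M H)),
      IsPrimitiveRoot ζ (rtk6psiDr M r H) ∧
      a * n₀ - b * (rtk6psiDr M r H : ℤ) = 1 ∧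
      -- (F1), normalised generators
      Algebra.adjoin ↥(modularFunctionFieldFullC ↥(beta0Field A) L)
        ((Set.range fun i => rtk6n0fY f L M H (ψ' i) hML) ∪
          {algebraMap ↥(mgcA A (rtk6ebK r (rtk6psiDr M r H)))
              ↥(rtk6diF A (rtk6ebK r (rtk6psiDr M r H)) L M H) ϖ,
            rtk6n0fY f L M H ψr hML}) = ⊤ ∧
      -- `σ`
      (∀ ψ : (ZMod M)ˣ →* (↥(beta0Field A))ˣ,
        σ (rtk6n0fY f L M H ψ hML) = rtk6n0fY f L M H ψ hML) ∧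
      (∀ ψ : (ZMod M)ˣ →* (↥(beta0Field A))ˣ,
        σ (rtk6c4fdY f L M H ψ hML) = rtk6c4fdY f L M H ψ hML) ∧
      σ (algebraMap ↥(mgcA A (rtk6ebK r (rtk6psiDr M r H)))
          ↥(rtk6diF A (rtk6ebK r (rtk6psiDr M r H)) L M H) ϖ)
        = algebraMap ↥R₀ ↥(rtk6diF A (rtk6ebK r (rtk6psiDr M r H)) L M H) ζ
          * algebraMap ↥(mgcA A (rtk6ebK r (rtk6psiDr M r H)))
            ↥(rtk6diF A (rtk6ebK r (rtk6psiDr M r H)) L M H) ϖ ∧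
      -- `δ`
      (∀ ψ : (ZMod M)ˣ →* (↥(beta0Field A))ˣ, (∀ c, IsAtR M r c → ψ c = 1) →
        δ (rtk6n0fY f L M H ψ hML) = rtk6n0fY f L M H ψ hML) ∧
      (∀ ψ : (ZMod M)ˣ →* (↥(beta0Field A))ˣ, (∀ c, IsAtR M r c → ψ c = 1) →
        δ (rtk6c4fdY f L M H ψ hML) = rtk6c4fdY f L M H ψ hML) ∧
      δ (algebraMap ↥(mgcA A (rtk6ebK r (rtk6psiDr M r H)))
          ↥(rtk6diF A (rtk6ebK r (rtk6psiDr M r H)) L M H) ϖ)
        = algebraMap ↥(mgcA A (rtk6ebK r (rtk6psiDr M r H)))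
          ↥(rtk6diF A (rtk6ebK r (rtk6psiDr M r H)) L M H) ϖ ∧
      δ (rtk6n0fY f L M H ψr hML)
        = algebraMap ↥R₀ ↥(rtk6diF A (rtk6ebK r (rtk6psiDr M r H)) L M H) ζ ^ n₀ *
          rtk6n0fY f L M H ψr hML ∧
      δ (rtk6c4fdY f L M H ψr hML)
        = algebraMap ↥R₀ ↥(rtk6diF A (rtk6ebK r (rtk6psiDr M r H)) L M H) ζ ^ n₀ *
          rtk6c4fdY f L M H ψr hML ∧
      -- provenance
      (∃ (σ₀ : Qb ≃ₐ[ℚ] Qb) (_ : σ₀ ∈ A.inertiaSubgroupIn ℚ)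
          (hσE : ∀ x ∈ mgcE A (rtk6ebK r (rtk6psiDr M r H)),
            σ₀ x ∈ mgcE A (rtk6ebK r (rtk6psiDr M r H))),
        ∀ x, σ x = rtk6diGal L M H σ₀ hσE • x) ∧
      (∃ (c : (ZMod M)ˣ) (δ₀ : ↥(rtk6diF A (rtk6ebK r (rtk6psiDr M r H)) L M H)
          ≃ₐ[↥(mgcE A (rtk6ebK r (rtk6psiDr M r H)))]
          ↥(rtk6diF A (rtk6ebK r (rtk6psiDr M r H)) L M H)),
        IsAtR M r c ∧ IsDiamondC ↥(mgcE A (rtk6ebK r (rtk6psiDr M r H))) L M H c δ₀ ∧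
          ∀ x, δ x = δ₀ x) := by
  have hd0 : rtk6psiDr M r H ≠ 0 := hodd.pos.ne'
  obtain ⟨c₀, hc₀, hord⟩ := hψr.exists_orderOf hr hrM hr2
  have hu : ψr c₀ ^ rtk6psiDr M r H = 1 := hψr.pow_dr c₀
  obtain ⟨a, b, hab⟩ := rtk6c4w_bezout hn₀
  obtain ⟨σ, δ, hσϖ, hσY, hδϖ, hδy, hδY, hσprov, hδprov⟩ :=
    rtk6c4w_auts (L := L) (M := M) (H := H) hr hA hrM hodd (rtk6ebK r (rtk6psiDr M r H)) f hf
      halg hL hML hϖ ψr hc₀ hord n₀
  have hbase := rtk6c4w_hgen_base hr hA hrM hr2 f hf halg hL hML hM hϖ hψr hfam hdS0 hdS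
  have hN := rtk6c4w_adjoin_scaled (fun i => rtk6c4fdY f L M H (ψ' i) hML)
    (fun _ => algebraMap ↥(beta0Field A) ↥(modularFunctionFieldFullC ↥(beta0Field A) L)
      (((rtk6d0N M H ⊤ : ℕ) : ↥(beta0Field A))⁻¹))
    (fun _ => rtk6n0f_const_ne_zero)
    (algebraMap ↥(mgcA A (rtk6ebK r (rtk6psiDr M r H)))
      ↥(rtk6diF A (rtk6ebK r (rtk6psiDr M r H)) L M H) ϖ)
    (rtk6c4fdY f L M H ψr hML)
    (algebraMap ↥(beta0Field A) ↥(modularFunctionFieldFullC ↥(beta0Field A) L)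
      (((rtk6d0N M H ⊤ : ℕ) : ↥(beta0Field A))⁻¹))
    rtk6n0f_const_ne_zero hbase (le_refl _)
  have e : (fun i => algebraMap ↥(modularFunctionFieldFullC ↥(beta0Field A) L)
      ↥(rtk6diF A (rtk6ebK r (rtk6psiDr M r H)) L M H)
      (algebraMap ↥(beta0Field A) ↥(modularFunctionFieldFullC ↥(beta0Field A) L)
        (((rtk6d0N M H ⊤ : ℕ) : ↥(beta0Field A))⁻¹)) * rtk6c4fdY f L M H (ψ' i) hML)
      = fun i => rtk6n0fY f L M H (ψ' i) hML :=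
    funext fun i => (rtk6n0fY_eq_K halg hML).symm
  rw [e, ← rtk6n0fY_eq_K halg hML] at hN
  have hσN : ∀ ψ : (ZMod M)ˣ →* (↥(beta0Field A))ˣ,
      σ (rtk6n0fY f L M H ψ hML) = rtk6n0fY f L M H ψ hML := fun ψ => by
    rw [rtk6n0fY_eq_K halg hML, map_mul, AlgEquiv.commutes, hσY ψ]
  have hδN : ∀ ψ : (ZMod M)ˣ →* (↥(beta0Field A))ˣ, (∀ c, IsAtR M r c → ψ c = 1) →
      δ (rtk6n0fY f L M H ψ hML) = rtk6n0fY f L M H ψ hML := fun ψ hψ => by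
    rw [rtk6n0fY_eq_K halg hML, map_mul, AlgEquiv.commutes, hδY ψ hψ]
  refine ⟨rtk6c4wZeta (beta0Ring A (beta0Field A)) R₀ (ψr c₀) hd0 hu, a, b, σ, δ,
    rtk6c4wZeta_isPrimitiveRoot _ R₀ _ hd0 hu hord, hab, hN, hσN, hσY, hσϖ, hδN, hδY, hδϖ,
    ?_, hδy, hσprov, hδprov⟩
  rw [rtk6n0fY_eq_K halg hML, map_mul, AlgEquiv.commutes, hδy]
  exact mul_left_comm _ _ _

end Wire

end Fermat.Agent.RT.K6

end


end ZBRT_095_8

/-! ### bundled: `Fermat.Agent.RT.K6.C4ThrChi` -/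
section ZBRT_095_9
/-
K-machine, piece K6, piece **(THR-χ)** (helper66, for helper94's C4-χ-ASM): THE COMPONENTS THROUGH A
CLOSED POINT OF THE TOP CHART, STARTING FROM THE UNRAMIFIED BASE.

Setting of helper54's `GenCrossInst.lean`, section `Cross`: `A₀ = A ∩ ℚ̄^I` (uniformizer `π`),
`K = F_{M₁ q}(ℚ̄^I)` the `Γ₀`-field over the unramified base, `V⁰ b = mgvV hπ ιC hq hqM b`;
`A₁ = mgcA A K₁` (uniformizer `ϖ`), `E₁ = mgcE A K₁`, `F₀′ = mgcF A K₁ (M₁ q)` the `Γ₀`-field over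
`E₁`, `F₁ = rtk6diF A K₁ (M₁ q) M H` the top field, `V₁ = rtk6dfV hϖ M H w` the family of all
conjugates of `V_∞`, `V_0`; `𝔫₁ : AtPt ϖ t₁` a closed point of the top chart `j`,
`𝔫₀ = rtk6gxiPt … 𝔫₁` the closed point `𝔫₁ ∩ R₀` of the base chart `j`.

Two steps:
* LEVEL CHANGE `E₀ → E₁` on the `Γ₀`-field (`rtk6thrx_stage`, `rtk6thrx_modular`,
  `rtk6thrx_decomp`, `rtk6thrx_level`): the chart `R₀′` of `F₀′` over `A₁` is `R₀ + ϖ R₀′`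
  ((D-BC) = MG-4 `UNIP.mgc_isIntegral_iff`, the special fibre of `R₀` being reduced:
  `UNIP.u5c_reduced_J`), hence `V⁰ b` through `𝔫₁ ∩ R₀` ⇒ `mgvV hϖ ιC₁ hq hqM b` through
  `𝔫₁ ∩ R₀′`;
* C4-THR at the level `E₁` (`rtk6thr_J`, `C4Thr.lean`).

**`rtk6thrx_main`** (chart `j`): `atThrough 𝔫₀ (V⁰ b) → ∃ c, atThrough 𝔫₁ (V₁ c) ∧
  ∀ x : K, algebraMap K F₁ x ∈ (V₁ c).nonunits ↔ x ∈ (V⁰ b).nonunits`;
`rtk6thrx_main_inv` (chart `1 / j`), `rtk6thrx_cross` (both components), `rtk6thrx_hthr`,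
`rtk6thrx_hthr_inv` (LITERALLY `hthr` of helper94's `rtk6c4aj_plusAt`, rigid level).
Extra hypotheses w.r.t. helper54's section `Cross`: `[IsDiscreteValuationRing A₁]`,
`hϖ : Irreducible ϖ`, `ιC₁ : E₁ →+* ℂ` (ANY, no compatibility with `ιC` needed),
`w` with `hw : Rtk6dvWIncl ιC₁ hq hqM M H w`, `hML : M ∣ M₁ q`.
-/

set_option autoImplicit false
set_option linter.style.haveILetI false
set_option linter.unusedSectionVars false
set_option linter.unusedVariables false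
set_option linter.style.longLine false

noncomputable section

namespace Fermat.Agent.RT.K6

open ModularCurve AlgebraicCurve Fermat.Agent.ES Fermat.Agent.ES.G2 Fermat.Agent.INJ
open Fermat.Agent.UNIP Fermat.Agent.ES1 Fermat.Agent.ES1.G2 Fermat.Agent.AL IntermediateField
open Fermat.Agent.STB Polynomial

/-! ### Level change, abstract stage -/

section Stage

universe u v

variable {A₀ E₀ K : Type u} [CommRing A₀] [IsDomain A₀] [IsDiscreteValuationRing A₀]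
  [Field E₀] [CharZero E₀] [Algebra A₀ E₀] [IsFractionRing A₀ E₀]
  [Field K] [Algebra E₀ K] [Algebra A₀ K] [IsScalarTower A₀ E₀ K]

variable {A' L : Type v} [CommRing A'] [IsDomain A'] [IsDiscreteValuationRing A']
  [Field L] [Algebra A' L]
  [Algebra A₀ A'] [Algebra K L] [Algebra A₀ L] [IsScalarTower A₀ K L] [IsScalarTower A₀ A' L]

/-- **(D-BC), elementwise**: the chart over `A'` is `B₀ + ϖ B'`, for ANY uniformizer `ϖ` of
`A'`. -/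
theorem rtk6thrx_stage {π : A₀} (hπ : Irreducible π) (τ : K) [FiniteDimensional E₀⟮τ⟯ K]
    (hπu : ¬ IsUnit (algebraMap A₀ (integralClosure (Algebra.adjoin A₀ {τ}) K) π))
    (hred : ∀ c : integralClosure (Algebra.adjoin A₀ {τ}) K,
      algebraMap A₀ (integralClosure (Algebra.adjoin A₀ {τ}) K) π ∣ c ^ 2 →
        algebraMap A₀ (integralClosure (Algebra.adjoin A₀ {τ}) K) π ∣ c)
    [Algebra.IsIntegral A₀ A']
    {π' : A'} (hπ' : Irreducible π') {e : ℕ}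
    (hram : π' ^ e ∣ algebraMap A₀ A' π)
    (g₀ : A₀[X]) (hgm : g₀.Monic) (hroot : aeval π' g₀ = 0) (hdeg : g₀.natDegree ≤ e)
    (htop : Algebra.adjoin K ({algebraMap A' L π'} : Set L) = ⊤)
    {ϖ : A'} (hϖ : Irreducible ϖ) (x : L)
    (hx : IsIntegral (Algebra.adjoin A' ({algebraMap K L τ} : Set L)) x) :
    ∃ c : K, IsIntegral (Algebra.adjoin A₀ ({τ} : Set K)) c ∧
      ∃ z : L, IsIntegral (Algebra.adjoin A' ({algebraMap K L τ} : Set L)) z ∧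
        x = algebraMap K L c + algebraMap A' L ϖ * z := by
  have hiff := mgc_isIntegral_iff (E₀ := E₀) (L := L) hπ τ hπu hred hπ'.ne_zero
    hπ'.not_isUnit hram g₀ hgm hroot hdeg htop
  obtain ⟨c, z', hz', hxz⟩ := nbc_exists_eq_add_mul (algebraMap A' L π') ((hiff x).1 hx)
  obtain ⟨v, hv⟩ := IsDiscreteValuationRing.associated_of_irreducible A' hϖ hπ'
  refine ⟨c.1, c.2, algebraMap A' L (v : A') * z', ?_, ?_⟩
  · have h1 : IsIntegral (Algebra.adjoin A' ({algebraMap K L τ} : Set L))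
        (algebraMap A' L (v : A')) :=
      isIntegral_algebraMap (R := Algebra.adjoin A' ({algebraMap K L τ} : Set L))
        (x := ⟨algebraMap A' L (v : A'), Subalgebra.algebraMap_mem _ _⟩)
    exact h1.mul ((hiff z').2 hz')
  · rw [hxz, ← hv, map_mul, mul_assoc]
    rfl

end Stage

/-! ### Level change, modular layer -/

section Modular

universe u v

variable {A₀ E₀ : Type u} [CommRing A₀] [IsDomain A₀] [IsDiscreteValuationRing A₀]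
  [Field E₀] [CharZero E₀] [Algebra A₀ E₀] [IsFractionRing A₀ E₀]
  {A' E' : Type v} [CommRing A'] [IsDomain A'] [IsDiscreteValuationRing A']
  [Field E'] [CharZero E'] [Algebra A' E'] [IsFractionRing A' E']
  [Algebra E₀ E'] [Algebra A₀ A'] (N : ℕ)
  [Algebra A₀ (modularFunctionFieldFullC E₀ N)]
  [IsScalarTower A₀ E₀ (modularFunctionFieldFullC E₀ N)]
  [Algebra A' (modularFunctionFieldFullC E' N)]
  [IsScalarTower A' E' (modularFunctionFieldFullC E' N)]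

/-- **(D-BC), elementwise, modular layer**: `K = F_N(E₀)`, `L = F_N(E')`. -/
theorem rtk6thrx_modular
    (hcomp : ∀ a : A₀, algebraMap A' E' (algebraMap A₀ A' a) =
      algebraMap E₀ E' (algebraMap A₀ E₀ a))
    [Algebra.IsIntegral A₀ A']
    {π : A₀} (hπ : Irreducible π) (τ : modularFunctionFieldFullC E₀ N)
    [FiniteDimensional E₀⟮τ⟯ (modularFunctionFieldFullC E₀ N)]
    (hπu : ¬ IsUnit (algebraMap A₀
      (integralClosure (Algebra.adjoin A₀ {τ}) (modularFunctionFieldFullC E₀ N)) π))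
    (hred : ∀ c : integralClosure (Algebra.adjoin A₀ {τ}) (modularFunctionFieldFullC E₀ N),
      algebraMap A₀ (integralClosure (Algebra.adjoin A₀ {τ})
        (modularFunctionFieldFullC E₀ N)) π ∣ c ^ 2 →
      algebraMap A₀ (integralClosure (Algebra.adjoin A₀ {τ})
        (modularFunctionFieldFullC E₀ N)) π ∣ c)
    {π' : A'} (hπ' : Irreducible π') {e : ℕ}
    (hram : π' ^ e ∣ algebraMap A₀ A' π)
    (g₀ : A₀[X]) (hgm : g₀.Monic) (hroot : aeval π' g₀ = 0) (hdeg : g₀.natDegree ≤ e)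
    (hadj : Algebra.adjoin E₀ ({algebraMap A' E' π'} : Set E') = ⊤)
    (halg : IsAlgebraic E₀ (algebraMap A' E' π'))
    {t : modularFunctionFieldFullC E' N} (ht : mgcEmb E₀ E' N τ = t)
    {ϖ : A'} (hϖ : Irreducible ϖ) (x : modularFunctionFieldFullC E' N)
    (hx : IsIntegral (Algebra.adjoin A' ({t} : Set (modularFunctionFieldFullC E' N))) x) :
    ∃ c : modularFunctionFieldFullC E₀ N,
      IsIntegral (Algebra.adjoin A₀ ({τ} : Set (modularFunctionFieldFullC E₀ N))) c ∧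
      ∃ z : modularFunctionFieldFullC E' N,
        IsIntegral (Algebra.adjoin A' ({t} : Set (modularFunctionFieldFullC E' N))) z ∧
        x = mgcEmb E₀ E' N c + algebraMap A' (modularFunctionFieldFullC E' N) ϖ * z := by
  letI := mgcAlgebra E₀ E' N
  letI := mgccAlgebra (A₀ := A₀) (E₀ := E₀) (E' := E') N
  haveI := mgcc_isScalarTower (A₀ := A₀) (E₀ := E₀) (E' := E') N
  haveI := mgcc_isScalarTower' (A₀ := A₀) (E₀ := E₀) (A' := A') (E' := E') N hcomp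
  subst ht
  exact rtk6thrx_stage (E₀ := E₀) hπ τ hπu hred hπ' hram g₀ hgm hroot hdeg
    (mgcc_htop (E₀ := E₀) N hadj halg) hϖ x hx

end Modular

/-! ### Level change, concrete layer -/

section Concrete

variable {A : ValuationSubring Qb} {q M₁ : ℕ} [NeZero q] [NeZero M₁] [NeZero (M₁ * q)]
  [IsDiscreteValuationRing ↥(beta0Ring A (beta0Field A))]
  {π : ↥(beta0Ring A (beta0Field A))} (hπ : Irreducible π)
  (K₁ : IntermediateField ℚ Qb) [NumberField ↥K₁] [IsGalois ℚ ↥K₁]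
  [IsDiscreteValuationRing ↥(mgcA A K₁)] {ϖ : ↥(mgcA A K₁)} (hϖ : Irreducible ϖ)

set_option synthInstance.maxHeartbeats 400000 in
set_option maxHeartbeats 3200000 in
include hπ hϖ in
/-- **(D-BC) for the `Γ₀`-chart `j`, elementwise**: `R₀′ = R₀ + ϖ R₀′` (`R₀` the chart `j` of
`F_{M₁ q}(ℚ̄^I)` over `A ∩ ℚ̄^I`, `R₀′` the chart `j` of `F_{M₁ q}(E₁)` over `A₁`). -/
theorem rtk6thrx_decomp (hq : q.Prime) (hqM : ¬ q ∣ M₁) (hA : A.LiesOverPrime q)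
    (h2 : q = 2 → 3 ∣ M₁) (h3 : q = 3 → 2 ∣ M₁)
    (x : ↥(mgcF A K₁ (M₁ * q)))
    (hx : IsIntegral ↥(Algebra.adjoin ↥(mgcA A K₁)
      ({mgcT A K₁ (M₁ * q)} : Set ↥(mgcF A K₁ (M₁ * q)))) x) :
    ∃ c : ↥(modularFunctionFieldFullC ↥(beta0Field A) (M₁ * q)),
      IsIntegral ↥(Algebra.adjoin ↥(beta0Ring A (beta0Field A))
        ({bgJ ↥(beta0Field A) (M₁ * q)} :
          Set ↥(modularFunctionFieldFullC ↥(beta0Field A) (M₁ * q)))) c ∧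
      ∃ z : ↥(mgcF A K₁ (M₁ * q)),
        IsIntegral ↥(Algebra.adjoin ↥(mgcA A K₁)
          ({mgcT A K₁ (M₁ * q)} : Set ↥(mgcF A K₁ (M₁ * q)))) z ∧
        x = mgaIncl (le_sup_left : beta0Field A ≤ beta0Field A ⊔ K₁) (M₁ * q) c +
          algebraMap ↥(mgcA A K₁) ↥(mgcF A K₁ (M₁ * q)) ϖ * z := by
  letI := beta0InstAlgebra A K₁
  letI := beta0InstFieldAlgebra A K₁
  haveI := beta0Inst_isIntegral (A := A) K₁ hq hA
  obtain ⟨π₁, hπ₁, -, -, -, -, -, hram, ⟨g₀, hgm, hroot, hdeg, -⟩, hadj, halg⟩ :=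
    beta0Inst_main (A := A) K₁ hq hA
  have hram' : π₁ ^ (beta0Deg A K₁) ∣ algebraMap ↥(beta0Ring A (beta0Field A))
      ↥(beta0Ring A (beta0Field A ⊔ K₁)) π := by
    obtain ⟨v, hv⟩ := rtk6lfb0_hqπ hπ hq hA
    rw [← hv, map_mul]
    exact Dvd.dvd.mul_right hram _
  haveI := mgcc_finiteDimensional_j ↥(beta0Field A) (M₁ * q)
  exact rtk6thrx_modular (A₀ := ↥(beta0Ring A (beta0Field A))) (E₀ := ↥(beta0Field A))
    (A' := ↥(beta0Ring A (beta0Field A ⊔ K₁))) (E' := ↥(beta0Field A ⊔ K₁)) (M₁ * q)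
    (fun a => mgcb_hcomp K₁ a) hπ (bgJ ↥(beta0Field A) (M₁ * q))
    (u5c_notUnit_J hq hA le_rfl hπ hqM h2 h3) (u5c_reduced_J hq hA le_rfl hπ hqM h2 h3)
    hπ₁ hram' g₀ hgm hroot hdeg hadj halg (t := mgcT A K₁ (M₁ * q))
    (mgcc_emb_bgJ (E₀ := ↥(beta0Field A)) (E' := ↥(beta0Field A ⊔ K₁)) (M₁ * q)) hϖ x hx

set_option synthInstance.maxHeartbeats 400000 in
set_option maxHeartbeats 3200000 in
include hπ hϖ in
/-- **(D-BC) for the `Γ₀`-chart `1 / j`, elementwise.** -/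
theorem rtk6thrx_decomp_inv (hq : q.Prime) (hqM : ¬ q ∣ M₁) (hA : A.LiesOverPrime q)
    (h2 : q = 2 → 3 ∣ M₁) (h3 : q = 3 → 2 ∣ M₁)
    (x : ↥(mgcF A K₁ (M₁ * q)))
    (hx : IsIntegral ↥(Algebra.adjoin ↥(mgcA A K₁)
      ({(mgcT A K₁ (M₁ * q))⁻¹} : Set ↥(mgcF A K₁ (M₁ * q)))) x) :
    ∃ c : ↥(modularFunctionFieldFullC ↥(beta0Field A) (M₁ * q)),
      IsIntegral ↥(Algebra.adjoin ↥(beta0Ring A (beta0Field A))
        ({(bgJ ↥(beta0Field A) (M₁ * q))⁻¹} :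
          Set ↥(modularFunctionFieldFullC ↥(beta0Field A) (M₁ * q)))) c ∧
      ∃ z : ↥(mgcF A K₁ (M₁ * q)),
        IsIntegral ↥(Algebra.adjoin ↥(mgcA A K₁)
          ({(mgcT A K₁ (M₁ * q))⁻¹} : Set ↥(mgcF A K₁ (M₁ * q)))) z ∧
        x = mgaIncl (le_sup_left : beta0Field A ≤ beta0Field A ⊔ K₁) (M₁ * q) c +
          algebraMap ↥(mgcA A K₁) ↥(mgcF A K₁ (M₁ * q)) ϖ * z := by
  letI := beta0InstAlgebra A K₁
  letI := beta0InstFieldAlgebra A K₁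
  haveI := beta0Inst_isIntegral (A := A) K₁ hq hA
  obtain ⟨π₁, hπ₁, -, -, -, -, -, hram, ⟨g₀, hgm, hroot, hdeg, -⟩, hadj, halg⟩ :=
    beta0Inst_main (A := A) K₁ hq hA
  have hram' : π₁ ^ (beta0Deg A K₁) ∣ algebraMap ↥(beta0Ring A (beta0Field A))
      ↥(beta0Ring A (beta0Field A ⊔ K₁)) π := by
    obtain ⟨v, hv⟩ := rtk6lfb0_hqπ hπ hq hA
    rw [← hv, map_mul]
    exact Dvd.dvd.mul_right hram _
  haveI := mgcc_finiteDimensional_jinv ↥(beta0Field A) (M₁ * q)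
  exact rtk6thrx_modular (A₀ := ↥(beta0Ring A (beta0Field A))) (E₀ := ↥(beta0Field A))
    (A' := ↥(beta0Ring A (beta0Field A ⊔ K₁))) (E' := ↥(beta0Field A ⊔ K₁)) (M₁ * q)
    (fun a => mgcb_hcomp K₁ a) hπ (bgJ ↥(beta0Field A) (M₁ * q))⁻¹
    (u5c_notUnit_Jinv hq hA le_rfl hπ hqM h2 h3) (u5c_reduced_Jinv hq hA le_rfl hπ hqM h2 h3)
    hπ₁ hram' g₀ hgm hroot hdeg hadj halg (t := (mgcT A K₁ (M₁ * q))⁻¹)
    (mgcc_emb_bgJ_inv (E₀ := ↥(beta0Field A)) (E' := ↥(beta0Field A ⊔ K₁)) (M₁ * q)) hϖ x hx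

end Concrete

/-! ### (THR-χ) -/

section Main

variable {A : ValuationSubring Qb} {q M₁ : ℕ} [NeZero q] [NeZero M₁] [NeZero (M₁ * q)]
  [IsDiscreteValuationRing ↥(beta0Ring A (beta0Field A))]
  {π : ↥(beta0Ring A (beta0Field A))} (hπ : Irreducible π)
  (ιC : ↥(beta0Field A) →+* ℂ) (hq : q.Prime) (hqM : ¬ q ∣ M₁)
  (K₁ : IntermediateField ℚ Qb) [NumberField ↥K₁] [IsGalois ℚ ↥K₁]
  (M : ℕ) [NeZero M] (H : Subgroup (ZMod M)ˣ)
  (f : ↥(beta0Field A) →+* ↥(mgcE A K₁))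
  (hf : ∀ a : ↥(beta0Field A), ((f a : ↥(mgcE A K₁)) : Qb) = (a : Qb))
  [Algebra ↥(modularFunctionFieldFullC ↥(beta0Field A) (M₁ * q))
    ↥(rtk6diF A K₁ (M₁ * q) M H)]
  (halg : ∀ z : ↥(modularFunctionFieldFullC ↥(beta0Field A) (M₁ * q)),
    algebraMap ↥(modularFunctionFieldFullC ↥(beta0Field A) (M₁ * q))
      ↥(rtk6diF A K₁ (M₁ * q) M H) z = rtk6c4fdIota f (M₁ * q) M H z)
  (hA : A.LiesOverPrime q) {d : ℕ} (hd0 : d ≠ 0) {ϖ : ↥(mgcA A K₁)}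
  (hϖd : ϖ ^ d =
    beta0RingIncl (A := A) (le_sup_left : beta0Field A ≤ beta0Field A ⊔ K₁) π)
  [IsDiscreteValuationRing ↥(mgcA A K₁)] (hϖ : Irreducible ϖ)
  (ιC₁ : ↥(mgcE A K₁) →+* ℂ)
  (w : ↥(rtk6diF A K₁ (M₁ * q) M H) ≃ₐ[↥(mgcE A K₁)] ↥(rtk6diF A K₁ (M₁ * q) M H))

include hf halg in
/-- `algebraMap K F₁ = incl ∘ (coefficientwise inclusion)` -/
theorem rtk6thrx_iota (x : ↥(modularFunctionFieldFullC ↥(beta0Field A) (M₁ * q))) :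
    algebraMap ↥(modularFunctionFieldFullC ↥(beta0Field A) (M₁ * q))
        ↥(rtk6diF A K₁ (M₁ * q) M H) x =
      rtk6diIncl (M₁ * q) M H
        (mgaIncl (le_sup_left : beta0Field A ≤ beta0Field A ⊔ K₁) (M₁ * q) x) := by
  rw [halg]
  have hfe : f = (IntermediateField.inclusion
      (le_sup_left : beta0Field A ≤ beta0Field A ⊔ K₁)).toRingHom :=
    RingHom.ext fun a => Subtype.ext (hf a)
  apply Subtype.ext
  rw [rtk6c4fdIota_coe, rtk6diIncl_coe, mgaIncl_coe, hfe]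

set_option synthInstance.maxHeartbeats 400000 in
set_option maxHeartbeats 1600000 in
include hπ hϖ hf halg in
/-- **Level change of through-ness, general chart.**  `u₀ ∈ K` a coordinate with images
`u₀′ ∈ F₀′`, `u ∈ F₁`, with (D-BC) for the chart `u₀` (elementwise form, `hdec`): if `V⁰ b` passes
through `𝔫₁ ∩ R₀`, then `mgvV hϖ ιC₁ hq hqM b` passes through `𝔫₁ ∩ R₀′`. -/
theorem rtk6thrx_level_gen (b : Bool)
    {u₀ : ↥(modularFunctionFieldFullC ↥(beta0Field A) (M₁ * q))}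
    {u₀' : ↥(mgcF A K₁ (M₁ * q))} {u : ↥(rtk6diF A K₁ (M₁ * q) M H)}
    (hu : algebraMap ↥(modularFunctionFieldFullC ↥(beta0Field A) (M₁ * q))
      ↥(rtk6diF A K₁ (M₁ * q) M H) u₀ = u)
    (hu' : rtk6diIncl (M₁ * q) M H u₀' = u)
    (hu₀V : u₀' ∈ mgvV hϖ ιC₁ hq hqM b)
    (hdec : ∀ x : ↥(mgcF A K₁ (M₁ * q)),
      IsIntegral ↥(Algebra.adjoin ↥(mgcA A K₁) ({u₀'} : Set ↥(mgcF A K₁ (M₁ * q)))) x →
      ∃ c : ↥(modularFunctionFieldFullC ↥(beta0Field A) (M₁ * q)),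
        IsIntegral ↥(Algebra.adjoin ↥(beta0Ring A (beta0Field A))
          ({u₀} : Set ↥(modularFunctionFieldFullC ↥(beta0Field A) (M₁ * q)))) c ∧
        ∃ z : ↥(mgcF A K₁ (M₁ * q)),
          IsIntegral ↥(Algebra.adjoin ↥(mgcA A K₁)
            ({u₀'} : Set ↥(mgcF A K₁ (M₁ * q)))) z ∧
          x = mgaIncl (le_sup_left : beta0Field A ≤ beta0Field A ⊔ K₁) (M₁ * q) c +
            algebraMap ↥(mgcA A K₁) ↥(mgcF A K₁ (M₁ * q)) ϖ * z)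
    (𝔫₁ : AtPt (F := ↥(rtk6diF A K₁ (M₁ * q) M H)) ϖ u)
    (h : atThrough (rtk6gxaPt
        (beta0RingIncl (A := A) (le_sup_left : beta0Field A ≤ beta0Field A ⊔ K₁))
        (rtk6gxi_hgφ K₁ M H f hf halg) hu (rtk6gxi_hg K₁ hq hA) hd0 hϖd 𝔫₁)
      (mgvV hπ ιC hq hqM b)) :
    atThrough (rtk6thrPt M H u₀' hu' 𝔫₁) (mgvV hϖ ιC₁ hq hqM b) := by
  intro y hy
  rw [mem_rtk6thrPt]
  obtain ⟨c, hc, z, hz, hyz⟩ := hdec (y : ↥(mgcF A K₁ (M₁ * q))) (mem_zchClosure.mp y.2)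
  have hzV : z ∈ mgvV hϖ ιC₁ hq hqM b :=
    vtFam_mem_of_isIntegral (vtBase_residue hϖ) ιC₁ hq hqM b (fun a => ⟨a, rfl⟩) _
      (by rintro s rfl; exact hu₀V) hz
  have hϖz : algebraMap ↥(mgcA A K₁) ↥(mgcF A K₁ (M₁ * q)) ϖ * z ∈
      (mgvV hϖ ιC₁ hq hqM b).nonunits := by
    have h1 := vt_mul_mem_nonunits (mgvV hϖ ιC₁ hq hqM b) hzV (mgv_hπV hϖ ιC₁ hq hqM b)
    rwa [mul_comm z] at h1
  have hce : mgaIncl (le_sup_left : beta0Field A ≤ beta0Field A ⊔ K₁) (M₁ * q) c =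
      (y : ↥(mgcF A K₁ (M₁ * q))) - algebraMap ↥(mgcA A K₁) ↥(mgcF A K₁ (M₁ * q)) ϖ * z := by
    rw [hyz]; ring
  have hc1 : mgaIncl (le_sup_left : beta0Field A ≤ beta0Field A ⊔ K₁) (M₁ * q) c ∈
      (mgvV hϖ ιC₁ hq hqM b).nonunits := by
    rw [hce]
    exact vt_sub_mem_nonunits _ hy hϖz
  have hc2 : c ∈ (mgvV hπ ιC hq hqM b).nonunits :=
    (mgv_incl_mem_nonunits_iff hπ hϖ ιC ιC₁ hq hqM le_sup_left b c).mp hc1
  have hc3 := h ⟨c, mem_zchClosure.mpr hc⟩ hc2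
  rw [rtk6gxa_mem_pt] at hc3
  -- the decomposition inside the chart `R₀′`
  have hcR : mgaIncl (le_sup_left : beta0Field A ≤ beta0Field A ⊔ K₁) (M₁ * q) c ∈
      zchClosure (A₀ := ↥(mgcA A K₁)) ({u₀'} : Set ↥(mgcF A K₁ (M₁ * q))) := by
    rw [hce]
    exact Subalgebra.sub_mem _ y.2
      (Subalgebra.mul_mem _ (Subalgebra.algebraMap_mem _ _) (mem_zchClosure.mpr hz))
  have hyR : y = (⟨_, hcR⟩ : ↥(zchClosure (A₀ := ↥(mgcA A K₁))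
        ({u₀'} : Set ↥(mgcF A K₁ (M₁ * q))))) +
      algebraMap ↥(mgcA A K₁) ↥(zchClosure (A₀ := ↥(mgcA A K₁))
        ({u₀'} : Set ↥(mgcF A K₁ (M₁ * q)))) ϖ * ⟨z, mem_zchClosure.mpr hz⟩ :=
    Subtype.ext hyz
  have hJc : rtk6thrJ M H u₀' hu' (⟨_, hcR⟩ : ↥(zchClosure (A₀ := ↥(mgcA A K₁))
        ({u₀'} : Set ↥(mgcF A K₁ (M₁ * q))))) =
      rtk6gxaJ (beta0RingIncl (A := A) (le_sup_left : beta0Field A ≤ beta0Field A ⊔ K₁))
        (rtk6gxi_hgφ K₁ M H f hf halg) hu ⟨c, mem_zchClosure.mpr hc⟩ := by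
    apply Subtype.ext
    rw [rtk6thrJ_coe, rtk6gxaJ_coe]
    exact (rtk6thrx_iota K₁ M H f hf halg c).symm
  rw [hyR, RingHom.map_add, RingHom.map_mul, rtk6thrJ_algebraMap, hJc]
  exact 𝔫₁.1.add_mem hc3 (𝔫₁.1.mul_mem_right _ 𝔫₁.2.2)

set_option synthInstance.maxHeartbeats 400000 in
set_option maxHeartbeats 1600000 in
include hπ hϖ hf halg in
/-- **(THR-χ), general chart.** -/
theorem rtk6thrx_main_gen (hw : Rtk6dvWIncl ιC₁ hq hqM M H w) (hML : M ∣ M₁ * q) (b : Bool)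
    {u₀ : ↥(modularFunctionFieldFullC ↥(beta0Field A) (M₁ * q))}
    {u₀' : ↥(mgcF A K₁ (M₁ * q))} {u : ↥(rtk6diF A K₁ (M₁ * q) M H)}
    (hu : algebraMap ↥(modularFunctionFieldFullC ↥(beta0Field A) (M₁ * q))
      ↥(rtk6diF A K₁ (M₁ * q) M H) u₀ = u)
    (hu' : rtk6diIncl (M₁ * q) M H u₀' = u)
    (hu₀V : u₀' ∈ mgvV hϖ ιC₁ hq hqM b)
    (hdec : ∀ x : ↥(mgcF A K₁ (M₁ * q)),
      IsIntegral ↥(Algebra.adjoin ↥(mgcA A K₁) ({u₀'} : Set ↥(mgcF A K₁ (M₁ * q)))) x →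
      ∃ c : ↥(modularFunctionFieldFullC ↥(beta0Field A) (M₁ * q)),
        IsIntegral ↥(Algebra.adjoin ↥(beta0Ring A (beta0Field A))
          ({u₀} : Set ↥(modularFunctionFieldFullC ↥(beta0Field A) (M₁ * q)))) c ∧
        ∃ z : ↥(mgcF A K₁ (M₁ * q)),
          IsIntegral ↥(Algebra.adjoin ↥(mgcA A K₁)
            ({u₀'} : Set ↥(mgcF A K₁ (M₁ * q)))) z ∧
          x = mgaIncl (le_sup_left : beta0Field A ≤ beta0Field A ⊔ K₁) (M₁ * q) c +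
            algebraMap ↥(mgcA A K₁) ↥(mgcF A K₁ (M₁ * q)) ϖ * z)
    (𝔫₁ : AtPt (F := ↥(rtk6diF A K₁ (M₁ * q) M H)) ϖ u)
    (h : atThrough (rtk6gxaPt
        (beta0RingIncl (A := A) (le_sup_left : beta0Field A ≤ beta0Field A ⊔ K₁))
        (rtk6gxi_hgφ K₁ M H f hf halg) hu (rtk6gxi_hg K₁ hq hA) hd0 hϖd 𝔫₁)
      (mgvV hπ ιC hq hqM b)) :
    ∃ c : rtk6dfK hϖ M H w, atThrough 𝔫₁ (rtk6dfV hϖ M H w c) ∧
      ∀ x : ↥(modularFunctionFieldFullC ↥(beta0Field A) (M₁ * q)),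
        algebraMap ↥(modularFunctionFieldFullC ↥(beta0Field A) (M₁ * q))
            ↥(rtk6diF A K₁ (M₁ * q) M H) x ∈ (rtk6dfV hϖ M H w c).nonunits ↔
          x ∈ (mgvV hπ ιC hq hqM b).nonunits := by
  obtain ⟨c, hc, ht⟩ := rtk6thr_of_atThrough_pt hϖ ιC₁ hq hqM M H w hw hML u₀' hu' b hu₀V 𝔫₁
    (rtk6thrx_level_gen hπ ιC hq hqM K₁ M H f hf halg hA hd0 hϖd hϖ ιC₁ b hu hu' hu₀V hdec 𝔫₁ h)
  refine ⟨c, ht, fun x => ?_⟩
  rw [rtk6thrx_iota K₁ M H f hf halg x, ← vt_mem_nonunits_comap, hc]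
  exact mgv_incl_mem_nonunits_iff hπ hϖ ιC ιC₁ hq hqM le_sup_left b x

include hπ hϖ in
/-- **(THR-χ), chart `j`** — in the shape asked by helper94 (C4-χ-ASM):
`𝔫₀ = rtk6gxiPt … 𝔫₁`, `V⁰ b = mgvV hπ ιC hq hqM b`, `V₁ = rtk6dfV hϖ M H w`. -/
theorem rtk6thrx_main (hw : Rtk6dvWIncl ιC₁ hq hqM M H w) (hML : M ∣ M₁ * q)
    (h2 : q = 2 → 3 ∣ M₁) (h3 : q = 3 → 2 ∣ M₁) (b : Bool)
    (𝔫₁ : AtPt (F := ↥(rtk6diF A K₁ (M₁ * q) M H)) ϖ (rtk6diT A K₁ (M₁ * q) M H))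
    (h : atThrough (rtk6gxiPt hq K₁ M H f hf halg hA hd0 hϖd 𝔫₁) (mgvV hπ ιC hq hqM b)) :
    ∃ c : rtk6dfK hϖ M H w, atThrough 𝔫₁ (rtk6dfV hϖ M H w c) ∧
      ∀ x : ↥(modularFunctionFieldFullC ↥(beta0Field A) (M₁ * q)),
        algebraMap ↥(modularFunctionFieldFullC ↥(beta0Field A) (M₁ * q))
            ↥(rtk6diF A K₁ (M₁ * q) M H) x ∈ (rtk6dfV hϖ M H w c).nonunits ↔
          x ∈ (mgvV hπ ιC hq hqM b).nonunits :=
  rtk6thrx_main_gen hπ ιC hq hqM K₁ M H f hf halg hA hd0 hϖd hϖ ιC₁ w hw hML b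
    (rtk6gxi_hu K₁ M H f halg) rfl (mgv_T_mem hϖ ιC₁ hq hqM b)
    (rtk6thrx_decomp hπ K₁ hϖ hq hqM hA h2 h3) 𝔫₁ h

include hπ hϖ in
/-- **(THR-χ), chart `1 / j`**: `𝔫₀ = rtk6gxaPt … 𝔫₁` (the closed point `𝔫₁ ∩ R₀` of the base
chart `1 / j`, for ANY proof `hu` of `algebraMap K F₁ (1 / j) = 1 / t₁`). -/
theorem rtk6thrx_main_inv (hw : Rtk6dvWIncl ιC₁ hq hqM M H w) (hML : M ∣ M₁ * q)
    (h2 : q = 2 → 3 ∣ M₁) (h3 : q = 3 → 2 ∣ M₁) (b : Bool)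
    (hu : algebraMap ↥(modularFunctionFieldFullC ↥(beta0Field A) (M₁ * q))
      ↥(rtk6diF A K₁ (M₁ * q) M H) (bgJ ↥(beta0Field A) (M₁ * q))⁻¹ =
        (rtk6diT A K₁ (M₁ * q) M H)⁻¹)
    (𝔫₁ : AtPt (F := ↥(rtk6diF A K₁ (M₁ * q) M H)) ϖ (rtk6diT A K₁ (M₁ * q) M H)⁻¹)
    (h : atThrough (rtk6gxaPt
        (beta0RingIncl (A := A) (le_sup_left : beta0Field A ≤ beta0Field A ⊔ K₁))
        (rtk6gxi_hgφ K₁ M H f hf halg) hu (rtk6gxi_hg K₁ hq hA) hd0 hϖd 𝔫₁)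
      (mgvV hπ ιC hq hqM b)) :
    ∃ c : rtk6dfK hϖ M H w, atThrough 𝔫₁ (rtk6dfV hϖ M H w c) ∧
      ∀ x : ↥(modularFunctionFieldFullC ↥(beta0Field A) (M₁ * q)),
        algebraMap ↥(modularFunctionFieldFullC ↥(beta0Field A) (M₁ * q))
            ↥(rtk6diF A K₁ (M₁ * q) M H) x ∈ (rtk6dfV hϖ M H w c).nonunits ↔
          x ∈ (mgvV hπ ιC hq hqM b).nonunits :=
  rtk6thrx_main_gen hπ ιC hq hqM K₁ M H f hf halg hA hd0 hϖd hϖ ιC₁ w hw hML b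
    hu (rtk6thr_incl_inv M H) (mgv_T_inv_mem hϖ ιC₁ hq hqM b)
    (rtk6thrx_decomp_inv hπ K₁ hϖ hq hqM hA h2 h3) 𝔫₁ h

include halg in
/-- the hypothesis `hu` of `rtk6thrx_main_inv` -/
theorem rtk6thrx_hu_inv :
    algebraMap ↥(modularFunctionFieldFullC ↥(beta0Field A) (M₁ * q))
      ↥(rtk6diF A K₁ (M₁ * q) M H) (bgJ ↥(beta0Field A) (M₁ * q))⁻¹ =
        (rtk6diT A K₁ (M₁ * q) M H)⁻¹ := by
  rw [map_inv₀, rtk6gxi_hu K₁ M H f halg]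

/-- `rigid ⇒ h2, h3` -/
theorem rtk6thrx_h23 {q M₁ : ℕ} (rigid : (q ≠ 2 → 4 ∣ M₁) ∧ (q = 2 → 9 ∣ M₁)) :
    (q = 2 → 3 ∣ M₁) ∧ (q = 3 → 2 ∣ M₁) :=
  ⟨fun h => dvd_trans (by norm_num : 3 ∣ 9) (rigid.2 h),
    fun h => dvd_trans (by norm_num : 2 ∣ 4) (rigid.1 (by omega))⟩

include hπ hϖ in
/-- **(THR-χ), chart `j`, rigid level** (the hypotheses of `rtk6gxi_cross`). -/
theorem rtk6thrx_main_rigid (hw : Rtk6dvWIncl ιC₁ hq hqM M H w) (hML : M ∣ M₁ * q)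
    (rigid : (q ≠ 2 → 4 ∣ M₁) ∧ (q = 2 → 9 ∣ M₁)) (b : Bool)
    (𝔫₁ : AtPt (F := ↥(rtk6diF A K₁ (M₁ * q) M H)) ϖ (rtk6diT A K₁ (M₁ * q) M H))
    (h : atThrough (rtk6gxiPt hq K₁ M H f hf halg hA hd0 hϖd 𝔫₁) (mgvV hπ ιC hq hqM b)) :
    ∃ c : rtk6dfK hϖ M H w, atThrough 𝔫₁ (rtk6dfV hϖ M H w c) ∧
      ∀ x : ↥(modularFunctionFieldFullC ↥(beta0Field A) (M₁ * q)),
        algebraMap ↥(modularFunctionFieldFullC ↥(beta0Field A) (M₁ * q))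
            ↥(rtk6diF A K₁ (M₁ * q) M H) x ∈ (rtk6dfV hϖ M H w c).nonunits ↔
          x ∈ (mgvV hπ ιC hq hqM b).nonunits :=
  rtk6thrx_main hπ ιC hq hqM K₁ M H f hf halg hA hd0 hϖd hϖ ιC₁ w hw hML
    (rtk6thrx_h23 rigid).1 (rtk6thrx_h23 rigid).2 b 𝔫₁ h

include hπ hϖ in
/-- **(THR-χ) at a crossing point of the chart `j`**: both components, in the shape of
`hthr₁ hthr₂ hc₁ hc₂` of helper94's `rtk6c4a_cross` (`C4Asm.lean`). -/
theorem rtk6thrx_cross (hw : Rtk6dvWIncl ιC₁ hq hqM M H w) (hML : M ∣ M₁ * q)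
    (rigid : (q ≠ 2 → 4 ∣ M₁) ∧ (q = 2 → 9 ∣ M₁))
    (𝔫₁ : AtPt (F := ↥(rtk6diF A K₁ (M₁ * q) M H)) ϖ (rtk6diT A K₁ (M₁ * q) M H))
    (h₁ : atThrough (rtk6gxiPt hq K₁ M H f hf halg hA hd0 hϖd 𝔫₁) (mgvV hπ ιC hq hqM true))
    (h₂ : atThrough (rtk6gxiPt hq K₁ M H f hf halg hA hd0 hϖd 𝔫₁) (mgvV hπ ιC hq hqM false)) :
    ∃ c₁ c₂ : rtk6dfK hϖ M H w,
      atThrough 𝔫₁ (rtk6dfV hϖ M H w c₁) ∧ atThrough 𝔫₁ (rtk6dfV hϖ M H w c₂) ∧
      (∀ x : ↥(modularFunctionFieldFullC ↥(beta0Field A) (M₁ * q)),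
        algebraMap ↥(modularFunctionFieldFullC ↥(beta0Field A) (M₁ * q))
            ↥(rtk6diF A K₁ (M₁ * q) M H) x ∈ (rtk6dfV hϖ M H w c₁).nonunits ↔
          x ∈ (mgvV hπ ιC hq hqM true).nonunits) ∧
      (∀ x : ↥(modularFunctionFieldFullC ↥(beta0Field A) (M₁ * q)),
        algebraMap ↥(modularFunctionFieldFullC ↥(beta0Field A) (M₁ * q))
            ↥(rtk6diF A K₁ (M₁ * q) M H) x ∈ (rtk6dfV hϖ M H w c₂).nonunits ↔
          x ∈ (mgvV hπ ιC hq hqM false).nonunits) := by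
  obtain ⟨c₁, ht₁, hc₁⟩ := rtk6thrx_main_rigid hπ ιC hq hqM K₁ M H f hf halg hA hd0 hϖd hϖ ιC₁ w
    hw hML rigid true 𝔫₁ h₁
  obtain ⟨c₂, ht₂, hc₂⟩ := rtk6thrx_main_rigid hπ ιC hq hqM K₁ M H f hf halg hA hd0 hϖd hϖ ιC₁ w
    hw hML rigid false 𝔫₁ h₂
  exact ⟨c₁, c₂, ht₁, ht₂, hc₁, hc₂⟩

include hπ hϖ in
/-- **(THR-χ), chart `j`: LITERALLY the hypothesis `hthr` of helper94's `rtk6c4aj_plusAt`**
(`C4AsmJ.lean`) with `V := rtk6dfV hϖ M H w`, `κ := rtk6dfK hϖ M H w`. -/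
theorem rtk6thrx_hthr (hw : Rtk6dvWIncl ιC₁ hq hqM M H w) (hML : M ∣ M₁ * q)
    (rigid : (q ≠ 2 → 4 ∣ M₁) ∧ (q = 2 → 9 ∣ M₁))
    (𝔫 : AtPt (F := ↥(rtk6diF A K₁ (M₁ * q) M H)) ϖ (rtk6diT A K₁ (M₁ * q) M H)) :
    ∀ b : Bool,
      atThrough (rtk6gxiPt hq K₁ M H f hf halg hA hd0 hϖd 𝔫) (mgvV hπ ιC hq hqM b) →
      ∃ c : rtk6dfK hϖ M H w, atThrough 𝔫 (rtk6dfV hϖ M H w c) ∧
        ∀ x : ↥(modularFunctionFieldFullC ↥(beta0Field A) (M₁ * q)),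
          algebraMap ↥(modularFunctionFieldFullC ↥(beta0Field A) (M₁ * q))
            ↥(rtk6diF A K₁ (M₁ * q) M H) x ∈ (rtk6dfV hϖ M H w c).nonunits ↔
          x ∈ (mgvV hπ ιC hq hqM b).nonunits :=
  fun b h => rtk6thrx_main_rigid hπ ιC hq hqM K₁ M H f hf halg hA hd0 hϖd hϖ ιC₁ w hw hML
    rigid b 𝔫 h

include hπ hϖ in
/-- **(THR-χ), chart `1 / j`**, in the shape of `hthr` (the point `𝔫 ∩ R₀` written with
`rtk6gxaPt`, ANY proof `hu` of `algebraMap K F₁ (1 / j) = 1 / t₁`, e.g. `rtk6thrx_hu_inv`). -/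
theorem rtk6thrx_hthr_inv (hw : Rtk6dvWIncl ιC₁ hq hqM M H w) (hML : M ∣ M₁ * q)
    (rigid : (q ≠ 2 → 4 ∣ M₁) ∧ (q = 2 → 9 ∣ M₁))
    (hu : algebraMap ↥(modularFunctionFieldFullC ↥(beta0Field A) (M₁ * q))
      ↥(rtk6diF A K₁ (M₁ * q) M H) (bgJ ↥(beta0Field A) (M₁ * q))⁻¹ =
        (rtk6diT A K₁ (M₁ * q) M H)⁻¹)
    (𝔫 : AtPt (F := ↥(rtk6diF A K₁ (M₁ * q) M H)) ϖ (rtk6diT A K₁ (M₁ * q) M H)⁻¹) :
    ∀ b : Bool,
      atThrough (rtk6gxaPt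
          (beta0RingIncl (A := A) (le_sup_left : beta0Field A ≤ beta0Field A ⊔ K₁))
          (rtk6gxi_hgφ K₁ M H f hf halg) hu (rtk6gxi_hg K₁ hq hA) hd0 hϖd 𝔫)
        (mgvV hπ ιC hq hqM b) →
      ∃ c : rtk6dfK hϖ M H w, atThrough 𝔫 (rtk6dfV hϖ M H w c) ∧
        ∀ x : ↥(modularFunctionFieldFullC ↥(beta0Field A) (M₁ * q)),
          algebraMap ↥(modularFunctionFieldFullC ↥(beta0Field A) (M₁ * q))
            ↥(rtk6diF A K₁ (M₁ * q) M H) x ∈ (rtk6dfV hϖ M H w c).nonunits ↔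
          x ∈ (mgvV hπ ιC hq hqM b).nonunits :=
  fun b h => rtk6thrx_main_inv hπ ιC hq hqM K₁ M H f hf halg hA hd0 hϖd hϖ ιC₁ w hw hML
    (rtk6thrx_h23 rigid).1 (rtk6thrx_h23 rigid).2 b hu 𝔫 h

end Main



end Fermat.Agent.RT.K6

end
end ZBRT_095_9

/-! ### bundled: `Fermat.Agent.RT.K6.FixXB` -/
section ZBRT_095_10
/-
K-machine, piece K6, piece **FIX-X, THIN half, part (T2)** (helper34): **the conditions
`Rtk6c4aAut`** (helper94, `C4Asm.lean`) **for the two kinds of automorphisms of the thin level**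
`F₁ = rtk6diF A K₁ L M H` (`K₁ = K₁′ = rtk6ebK r d`, but ANY `K₁` is allowed here):

* `g = rtk6diGal L M H σ hσE`, `σ` in the inertia group of `A` (coefficientwise action):
  `g` fixes `t = j`, preserves `A₁ = mgcA A K₁`, fixes `K = FullC ℚ̄^I L` and every Kummer
  generator `y_ψ`, and `g • ϖ = α · ϖ`, `α = ζ₀ ^ k` (`ζ₀ = ψ_r (c₀)` a primitive `d`-th root
  of unity of `ℚ̄^I`, `ϖ ^ d ∈ ℚ̄^I`), `g • y = 1 · y`;
* `g = SemilinearAut.ofAlgAut δ`, `δ` a diamond of `c` (`IsDiamondC`): `g` fixes `t`, the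
  constants, `K`, every `y_ψ′` with `ψ′ c = 1`, `g • ϖ = 1 · ϖ` and `g • y_ψ = ψ (c) · y_ψ`.

`R₀` is ANY `A₀`-subalgebra of `K` (`A₀ = beta0Ring A (beta0Field A)`), e.g. the chart
`zchClosure {bgJ}`; the units `α`, `β` are helper70's `rtk6c4wZeta` (`C4ChiWire.lean`).

* `rtk6fxb_zeta_isUnit`, `rtk6fxb_root_eq_pow`;
* `rtk6fxb_aut_gal`     : `Rtk6c4aAut ↥R₀ K ϖ t S y_ψ (rtk6diGal L M H σ hσE)`;
* `rtk6fxb_aut_diamond` : `Rtk6c4aAut ↥R₀ K ϖ t S y_ψ (SemilinearAut.ofAlgAut δ)`;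
* `rtk6fxbG`, `rtk6fxb_aut` : the set `𝒢` of all these automorphisms (`σ` in the inertia group,
  `δ` a diamond at `r`) and the conditions for all its elements
  (`S = range y_ψ′`, `ψ′ i` trivial on the diamonds at `r`);
* `rtk6fxb_thin_gal`, `rtk6fxb_thin_diamond` : **the hypothesis `hthin` of FIX-X** (helper67,
  `FixX.lean`) from `∀ 𝔫₁, Rtk6c4aPlusAt V₁ (rtk6fxbG …) 𝔫₁` (the output of C4-χ-ASM).
-/

set_option autoImplicit false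
set_option linter.style.haveILetI false
set_option linter.unusedSectionVars false
set_option linter.unusedVariables false
set_option linter.style.longLine false
set_option synthInstance.maxHeartbeats 400000
set_option maxHeartbeats 4000000

noncomputable section

namespace Fermat.Agent.RT.K6

open ModularCurve AlgebraicCurve IntermediateField
open Fermat.Agent.ES Fermat.Agent.ES.G2 Fermat.Agent.INJ Fermat.Agent.UNIP Fermat.Agent.ES1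
  Fermat.Agent.ES1.G2 Fermat.Agent.STB

/-! ### Roots of unity -/

section Roots

/-- helper70's `rtk6c4wZeta` is a unit of the chart -/
theorem rtk6fxb_zeta_isUnit {K₀ : Type} [Field K₀] (A₀ : ValuationSubring K₀)
    {K : Type} [Field K] [Algebra K₀ K] (R₀ : Subalgebra ↥A₀ K)
    (u : K₀ˣ) {d : ℕ} (hd0 : d ≠ 0) (hu : u ^ d = 1) :
    IsUnit (rtk6c4wZeta A₀ R₀ u hd0 hu) := by
  refine IsUnit.of_pow_eq_one (n := d) ?_ hd0
  apply Subtype.ext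
  rw [SubmonoidClass.coe_pow, rtk6c4wZeta_coe, ← map_pow, ← Units.val_pow_eq_pow_val, hu,
    Units.val_one, map_one]
  rfl

/-- every `d`-th root of unity of the big field is the image of a power of a unit of exact
order `d` of the small field -/
theorem rtk6fxb_root_eq_pow {E₀ Ω : Type*} [Field E₀] [Field Ω] (φ : E₀ →+* Ω) {u : E₀ˣ}
    {d : ℕ} (hd0 : d ≠ 0) (hord : orderOf u = d) {ζ : Ω} (hζ : ζ ^ d = 1) :
    ∃ k : ℕ, ζ = φ (((u ^ k : E₀ˣ) : E₀ˣ) : E₀) := by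
  have h1 : IsPrimitiveRoot (φ (u : E₀)) d :=
    (rtk6c4w_primitive hord).map_of_injective φ.injective
  haveI : NeZero d := ⟨hd0⟩
  obtain ⟨k, -, hk⟩ := h1.eq_pow_of_pow_eq_one hζ
  exact ⟨k, by rw [Units.val_pow_eq_pow_val, map_pow, hk]⟩

end Roots

/-! ### The coefficientwise action of the inertia group -/

section Gal

variable {A : ValuationSubring Qb} {d : ℕ} {L M : ℕ} [NeZero M] {H : Subgroup (ZMod M)ˣ}

/-- **(T2), inertia.**  The conditions `Rtk6c4aAut` for `g = rtk6diGal L M H σ hσE`, `σ` in the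
inertia group: `α = ζ₀ ^ k`, `β = 1`. -/
theorem rtk6fxb_aut_gal (K₁ : IntermediateField ℚ Qb) [IsDiscreteValuationRing ↥(mgcA A K₁)]
    (f : ↥(beta0Field A) →+* ↥(mgcE A K₁))
    (hf : ∀ a : ↥(beta0Field A), ((f a : ↥(mgcE A K₁)) : Qb) = (a : Qb))
    [Algebra ↥(modularFunctionFieldFullC ↥(beta0Field A) L) ↥(rtk6diF A K₁ L M H)]
    (halg : ∀ z : ↥(modularFunctionFieldFullC ↥(beta0Field A) L),
      algebraMap ↥(modularFunctionFieldFullC ↥(beta0Field A) L) ↥(rtk6diF A K₁ L M H) z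
        = rtk6c4fdIota f L M H z)
    (hML : M ∣ L)
    (R₀ : Subalgebra ↥(beta0Ring A (beta0Field A))
      ↥(modularFunctionFieldFullC ↥(beta0Field A) L))
    {ϖ : ↥(mgcA A K₁)} (hϖ0 : ϖ ≠ 0)
    (hϖ : (((ϖ : ↥(mgcA A K₁)) : ↥(mgcE A K₁)) : Qb) ^ d ∈ beta0Field A)
    {ζ₀ : (↥(beta0Field A))ˣ} (hd0 : d ≠ 0) (hord : orderOf ζ₀ = d)
    (S : Set ↥(rtk6diF A K₁ L M H))
    (hS : ∀ t ∈ S, ∃ ψ' : (ZMod M)ˣ →* (↥(beta0Field A))ˣ, t = rtk6c4fdY f L M H ψ' hML)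
    (ψ : (ZMod M)ˣ →* (↥(beta0Field A))ˣ)
    {σ : Qb ≃ₐ[ℚ] Qb} (hσI : σ ∈ A.inertiaSubgroupIn ℚ)
    (hσE : ∀ x ∈ mgcE A K₁, σ x ∈ mgcE A K₁) :
    Rtk6c4aAut (A₀ := ↥(mgcA A K₁)) (E := ↥(mgcE A K₁)) (F := ↥(rtk6diF A K₁ L M H)) ↥R₀
      ↥(modularFunctionFieldFullC ↥(beta0Field A) L) ϖ (rtk6diT A K₁ L M H) S
      (rtk6c4fdY f L M H ψ hML) (rtk6diGal L M H σ hσE) := by
  have hσD : σ ∈ A.decompositionSubgroup ℚ := kron_mem_decomposition_of_mem_inertia hσI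
  have hfix : ∀ a : ↥(beta0Field A),
      σ ((f a : ↥(mgcE A K₁)) : Qb) = ((f a : ↥(mgcE A K₁)) : Qb) :=
    fun a => by rw [hf a]; exact mem_beta0Field.mp a.2 σ hσI
  -- the root of unity `σ ϖ / ϖ`
  have hϖQ0 : (((ϖ : ↥(mgcA A K₁)) : ↥(mgcE A K₁)) : Qb) ≠ 0 := by
    intro h0
    apply hϖ0
    apply Subtype.ext
    apply Subtype.ext
    exact h0
  have hζ' : (σ (((ϖ : ↥(mgcA A K₁)) : ↥(mgcE A K₁)) : Qb) /
      (((ϖ : ↥(mgcA A K₁)) : ↥(mgcE A K₁)) : Qb)) ^ d = 1 := by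
    rw [div_pow, ← map_pow, mem_beta0Field.mp hϖ σ hσI, div_self (pow_ne_zero d hϖQ0)]
  obtain ⟨k, hk⟩ := rtk6fxb_root_eq_pow (beta0Field A).val.toRingHom hd0 hord hζ'
  have hu : (ζ₀ ^ k) ^ d = 1 := by
    rw [← pow_mul, mul_comm, pow_mul, ← hord, pow_orderOf_eq_one, one_pow]
  have hσϖ : σ (((ϖ : ↥(mgcA A K₁)) : ↥(mgcE A K₁)) : Qb) =
      ((f (((ζ₀ ^ k : (↥(beta0Field A))ˣ) : (↥(beta0Field A))ˣ) : ↥(beta0Field A)) :
        ↥(mgcE A K₁)) : Qb) * (((ϖ : ↥(mgcA A K₁)) : ↥(mgcE A K₁)) : Qb) := by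
    rw [hf]
    have h1 : ((((ζ₀ ^ k : (↥(beta0Field A))ˣ) : (↥(beta0Field A))ˣ) : ↥(beta0Field A)) : Qb) =
        σ (((ϖ : ↥(mgcA A K₁)) : ↥(mgcE A K₁)) : Qb) /
          (((ϖ : ↥(mgcA A K₁)) : ↥(mgcE A K₁)) : Qb) := hk.symm
    rw [h1, div_mul_cancel₀ _ hϖQ0]
  refine ⟨rtk6di_smul_T L M H σ hσE, rtk6dv_hgA L M H hσD hσE, rtk6dv_hgA_inv L M H hσD hσE,
    fun z => ?_, fun t ht => ?_,
    rtk6c4wZeta (beta0Ring A (beta0Field A)) R₀ (ζ₀ ^ k) hd0 hu, 1,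
    rtk6fxb_zeta_isUnit _ R₀ _ hd0 hu, isUnit_one, ?_, ?_⟩
  · rw [halg]
    exact rtk6c4fd_coeffHom_iota f σ hσE hfix z
  · obtain ⟨ψ', rfl⟩ := hS t ht
    exact rtk6c4fd_coeffHom_Y f ψ' hML σ hσE hfix
  · exact rtk6c4faS1_varpi_K halg σ hσE hfix hσϖ
  · rw [map_one, one_mul]
    exact rtk6c4fd_coeffHom_Y f ψ hML σ hσE hfix

end Gal

/-! ### The diamonds -/

section Diamond

variable {A : ValuationSubring Qb} {L M : ℕ} [NeZero M] {H : Subgroup (ZMod M)ˣ}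

/-- **(T2), diamonds.**  The conditions `Rtk6c4aAut` for `g = ofAlgAut δ`, `δ` a diamond of `c`:
`α = 1`, `β = ψ (c)`; the étale generators are the `y_ψ′` with `ψ′ c = 1`. -/
theorem rtk6fxb_aut_diamond (K₁ : IntermediateField ℚ Qb)
    [IsDiscreteValuationRing ↥(mgcA A K₁)]
    (f : ↥(beta0Field A) →+* ↥(mgcE A K₁))
    [Algebra ↥(modularFunctionFieldFullC ↥(beta0Field A) L) ↥(rtk6diF A K₁ L M H)]
    (halg : ∀ z : ↥(modularFunctionFieldFullC ↥(beta0Field A) L),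
      algebraMap ↥(modularFunctionFieldFullC ↥(beta0Field A) L) ↥(rtk6diF A K₁ L M H) z
        = rtk6c4fdIota f L M H z)
    (hML : M ∣ L)
    (R₀ : Subalgebra ↥(beta0Ring A (beta0Field A))
      ↥(modularFunctionFieldFullC ↥(beta0Field A) L))
    (ϖ : ↥(mgcA A K₁))
    {c : (ZMod M)ˣ}
    {δ : ↥(rtk6diF A K₁ L M H) ≃ₐ[↥(mgcE A K₁)] ↥(rtk6diF A K₁ L M H)}
    (hδ : IsDiamondC ↥(mgcE A K₁) L M H c δ)
    (S : Set ↥(rtk6diF A K₁ L M H))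
    (hS : ∀ t ∈ S, ∃ ψ' : (ZMod M)ˣ →* (↥(beta0Field A))ˣ,
      ψ' c = 1 ∧ t = rtk6c4fdY f L M H ψ' hML)
    (ψ : (ZMod M)ˣ →* (↥(beta0Field A))ˣ) :
    Rtk6c4aAut (A₀ := ↥(mgcA A K₁)) (E := ↥(mgcE A K₁)) (F := ↥(rtk6diF A K₁ L M H)) ↥R₀
      ↥(modularFunctionFieldFullC ↥(beta0Field A) L) ϖ (rtk6diT A K₁ L M H) S
      (rtk6c4fdY f L M H ψ hML) (SemilinearAut.ofAlgAut δ) := by
  haveI : Algebra.IsAlgebraic ℚ Qb := AlgebraicClosure.isAlgebraic ℚ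
  haveI : Algebra.IsAlgebraic ℚ ↥(mgcE A K₁) :=
    Algebra.IsAlgebraic.of_injective (mgcE A K₁).val Subtype.val_injective
  have hc0 : orderOf c ≠ 0 := (orderOf_pos c).ne'
  have hu : ψ c ^ orderOf c = 1 := by rw [← map_pow, pow_orderOf_eq_one, map_one]
  have hK : ∀ z : ↥(modularFunctionFieldFullC ↥(beta0Field A) L),
      SemilinearAut.ofAlgAut δ •
        algebraMap ↥(modularFunctionFieldFullC ↥(beta0Field A) L) ↥(rtk6diF A K₁ L M H) z =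
      algebraMap ↥(modularFunctionFieldFullC ↥(beta0Field A) L) ↥(rtk6diF A K₁ L M H) z := by
    intro z
    rw [SemilinearAut.ofAlgAut_smul, halg]
    exact rtk6c4fd_diamond_iota hδ z
  have hT : algebraMap ↥(modularFunctionFieldFullC ↥(beta0Field A) L)
      ↥(rtk6diF A K₁ L M H) (bgJ ↥(beta0Field A) L) = rtk6diT A K₁ L M H := by
    rw [halg]
    exact rtk6diCoeffHom_J ↥(beta0Field A) L M H f
  have hA : ∀ α : ↥(mgcA A K₁), SemilinearAut.ofAlgAut δ •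
      algebraMap ↥(mgcA A K₁) ↥(rtk6diF A K₁ L M H) α =
        algebraMap ↥(mgcA A K₁) ↥(rtk6diF A K₁ L M H) α := by
    intro α
    rw [SemilinearAut.ofAlgAut_smul,
      IsScalarTower.algebraMap_apply ↥(mgcA A K₁) ↥(mgcE A K₁) ↥(rtk6diF A K₁ L M H)]
    exact δ.commutes _
  refine ⟨?_, fun α => ⟨α, hA α⟩, fun α => ⟨α, rtk6gf_inv_smul_of_smul _ (hA α)⟩, hK,
    fun t ht => ?_, 1, rtk6c4wZeta (beta0Ring A (beta0Field A)) R₀ (ψ c) hc0 hu, isUnit_one,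
    rtk6fxb_zeta_isUnit _ R₀ _ hc0 hu, ?_, ?_⟩
  · rw [← hT]
    exact hK _
  · obtain ⟨ψ', hψ', rfl⟩ := hS t ht
    rw [SemilinearAut.ofAlgAut_smul]
    have h := rtk6c4fdDiamK_Y (ψ := ψ') halg hML hδ
    rw [hψ', Units.val_one, map_one, map_one, one_mul] at h
    exact h
  · rw [map_one, one_mul]
    exact hA ϖ
  · rw [SemilinearAut.ofAlgAut_smul]
    exact rtk6c4fdDiamK_Y (ψ := ψ) halg hML hδ

end Diamond

/-! ### The set `𝒢` -/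

section GSet

/-- **the set `𝒢`** of the automorphisms of FIX-X: the coefficientwise actions of the inertia
group and the diamonds at `r` -/
def rtk6fxbG (A : ValuationSubring Qb) (K₁ : IntermediateField ℚ Qb) (L M : ℕ)
    (H : Subgroup (ZMod M)ˣ) (r : ℕ) :
    Set (SemilinearAut ↥(mgcE A K₁) ↥(rtk6diF A K₁ L M H)) :=
  {g | (∃ (σ : Qb ≃ₐ[ℚ] Qb) (_ : σ ∈ A.inertiaSubgroupIn ℚ)
        (hσE : ∀ x ∈ mgcE A K₁, σ x ∈ mgcE A K₁), g = rtk6diGal L M H σ hσE) ∨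
    ∃ (c : (ZMod M)ˣ)
      (δ : ↥(rtk6diF A K₁ L M H) ≃ₐ[↥(mgcE A K₁)] ↥(rtk6diF A K₁ L M H)),
      IsAtR M r c ∧ IsDiamondC ↥(mgcE A K₁) L M H c δ ∧ g = SemilinearAut.ofAlgAut δ}

variable {A : ValuationSubring Qb} {r d : ℕ} {L M : ℕ} [NeZero M] {H : Subgroup (ZMod M)ˣ}

theorem rtk6fxb_gal_mem {K₁ : IntermediateField ℚ Qb} {σ : Qb ≃ₐ[ℚ] Qb}
    (hσI : σ ∈ A.inertiaSubgroupIn ℚ) (hσE : ∀ x ∈ mgcE A K₁, σ x ∈ mgcE A K₁) :
    rtk6diGal L M H σ hσE ∈ rtk6fxbG A K₁ L M H r :=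
  Or.inl ⟨σ, hσI, hσE, rfl⟩

theorem rtk6fxb_diamond_mem {K₁ : IntermediateField ℚ Qb} {c : (ZMod M)ˣ}
    {δ : ↥(rtk6diF A K₁ L M H) ≃ₐ[↥(mgcE A K₁)] ↥(rtk6diF A K₁ L M H)}
    (hc : IsAtR M r c) (hδ : IsDiamondC ↥(mgcE A K₁) L M H c δ) :
    SemilinearAut.ofAlgAut δ ∈ rtk6fxbG A K₁ L M H r :=
  Or.inr ⟨c, δ, hc, hδ, rfl⟩

/-- **(T2)**: the conditions `Rtk6c4aAut` for every element of `𝒢`, with the unnormalised
generators `y = y_{ψ_r}`, `S = {y_{ψ′ i}}` (`ψ′ i` trivial on the diamonds at `r`). -/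
theorem rtk6fxb_aut (K₁ : IntermediateField ℚ Qb) [IsDiscreteValuationRing ↥(mgcA A K₁)]
    (f : ↥(beta0Field A) →+* ↥(mgcE A K₁))
    (hf : ∀ a : ↥(beta0Field A), ((f a : ↥(mgcE A K₁)) : Qb) = (a : Qb))
    [Algebra ↥(modularFunctionFieldFullC ↥(beta0Field A) L) ↥(rtk6diF A K₁ L M H)]
    (halg : ∀ z : ↥(modularFunctionFieldFullC ↥(beta0Field A) L),
      algebraMap ↥(modularFunctionFieldFullC ↥(beta0Field A) L) ↥(rtk6diF A K₁ L M H) z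
        = rtk6c4fdIota f L M H z)
    (hML : M ∣ L)
    (R₀ : Subalgebra ↥(beta0Ring A (beta0Field A))
      ↥(modularFunctionFieldFullC ↥(beta0Field A) L))
    {ϖ : ↥(mgcA A K₁)} (hϖ0 : ϖ ≠ 0)
    (hϖ : (((ϖ : ↥(mgcA A K₁)) : ↥(mgcE A K₁)) : Qb) ^ d ∈ beta0Field A)
    (ψr : (ZMod M)ˣ →* (↥(beta0Field A))ˣ) {c₀ : (ZMod M)ˣ} (hd0 : d ≠ 0)
    (hord : orderOf (ψr c₀) = d)
    {ι : Type*} (ψ' : ι → ((ZMod M)ˣ →* (↥(beta0Field A))ˣ))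
    (hψ' : ∀ i c, IsAtR M r c → ψ' i c = 1) :
    ∀ g ∈ rtk6fxbG A K₁ L M H r,
      Rtk6c4aAut (A₀ := ↥(mgcA A K₁)) (E := ↥(mgcE A K₁)) (F := ↥(rtk6diF A K₁ L M H)) ↥R₀
        ↥(modularFunctionFieldFullC ↥(beta0Field A) L) ϖ (rtk6diT A K₁ L M H)
        (Set.range fun i => rtk6c4fdY f L M H (ψ' i) hML) (rtk6c4fdY f L M H ψr hML) g := by
  rintro g (⟨σ, hσI, hσE, rfl⟩ | ⟨c, δ, hc, hδ, rfl⟩)
  · exact rtk6fxb_aut_gal K₁ f hf halg hML R₀ hϖ0 hϖ hd0 hord _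
      (fun t ht => by obtain ⟨i, rfl⟩ := ht; exact ⟨ψ' i, rfl⟩) ψr hσI hσE
  · exact rtk6fxb_aut_diamond K₁ f halg hML R₀ ϖ hδ _
      (fun t ht => by obtain ⟨i, rfl⟩ := ht; exact ⟨ψ' i, hψ' i c hc, rfl⟩) ψr

/-- **(T2), rescaled**: the same for `y = k_y · y_{ψ_r}`, `S = {k_i · y_{ψ′ i}}`
(`k_y, k_i ∈ K` arbitrary: the shapes of helper70's `rtk6c4w_fields`). -/
theorem rtk6fxb_aut_scaled (K₁ : IntermediateField ℚ Qb)
    [IsDiscreteValuationRing ↥(mgcA A K₁)]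
    (f : ↥(beta0Field A) →+* ↥(mgcE A K₁))
    (hf : ∀ a : ↥(beta0Field A), ((f a : ↥(mgcE A K₁)) : Qb) = (a : Qb))
    [Algebra ↥(modularFunctionFieldFullC ↥(beta0Field A) L) ↥(rtk6diF A K₁ L M H)]
    (halg : ∀ z : ↥(modularFunctionFieldFullC ↥(beta0Field A) L),
      algebraMap ↥(modularFunctionFieldFullC ↥(beta0Field A) L) ↥(rtk6diF A K₁ L M H) z
        = rtk6c4fdIota f L M H z)
    (hML : M ∣ L)
    (R₀ : Subalgebra ↥(beta0Ring A (beta0Field A))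
      ↥(modularFunctionFieldFullC ↥(beta0Field A) L))
    {ϖ : ↥(mgcA A K₁)} (hϖ0 : ϖ ≠ 0)
    (hϖ : (((ϖ : ↥(mgcA A K₁)) : ↥(mgcE A K₁)) : Qb) ^ d ∈ beta0Field A)
    (ψr : (ZMod M)ˣ →* (↥(beta0Field A))ˣ) {c₀ : (ZMod M)ˣ} (hd0 : d ≠ 0)
    (hord : orderOf (ψr c₀) = d)
    {ι : Type*} (ψ' : ι → ((ZMod M)ˣ →* (↥(beta0Field A))ˣ))
    (hψ' : ∀ i c, IsAtR M r c → ψ' i c = 1)
    (k : ι → ↥(modularFunctionFieldFullC ↥(beta0Field A) L))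
    (ky : ↥(modularFunctionFieldFullC ↥(beta0Field A) L)) :
    ∀ g ∈ rtk6fxbG A K₁ L M H r,
      Rtk6c4aAut (A₀ := ↥(mgcA A K₁)) (E := ↥(mgcE A K₁)) (F := ↥(rtk6diF A K₁ L M H)) ↥R₀
        ↥(modularFunctionFieldFullC ↥(beta0Field A) L) ϖ (rtk6diT A K₁ L M H)
        (Set.range fun i => algebraMap ↥(modularFunctionFieldFullC ↥(beta0Field A) L)
          ↥(rtk6diF A K₁ L M H) (k i) * rtk6c4fdY f L M H (ψ' i) hML)
        (algebraMap ↥(modularFunctionFieldFullC ↥(beta0Field A) L)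
          ↥(rtk6diF A K₁ L M H) ky * rtk6c4fdY f L M H ψr hML) g := by
  intro g hg
  refine (rtk6fxb_aut K₁ f hf halg hML R₀ hϖ0 hϖ ψr hd0 hord ψ' hψ' g hg).rescale ky rfl ?_
  rintro t ⟨i, rfl⟩
  exact ⟨k i, _, ⟨i, rfl⟩, rfl⟩

/-- the hypothesis `hϖ` of `rtk6fxb_aut` from `ϖ ^ d = r` (helper70's convention) -/
theorem rtk6fxb_hvarpi_of_natCast {K₁ : IntermediateField ℚ Qb} {ϖ : ↥(mgcA A K₁)}
    (hϖ : ϖ ^ d = ((r : ℕ) : ↥(mgcA A K₁))) :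
    (((ϖ : ↥(mgcA A K₁)) : ↥(mgcE A K₁)) : Qb) ^ d ∈ beta0Field A := by
  have h1 : (((ϖ : ↥(mgcA A K₁)) : ↥(mgcE A K₁)) : Qb) ^ d = ((r : ℕ) : Qb) := by
    have := congrArg (fun z : ↥(mgcA A K₁) => (((z : ↥(mgcA A K₁)) : ↥(mgcE A K₁)) : Qb)) hϖ
    simpa using this
  rw [h1]
  exact _root_.natCast_mem (beta0Field A) r

/-- the hypothesis `hϖ` of `rtk6fxb_aut` from `ϖ ^ d = π`, `π ∈ A ∩ ℚ̄^I` (helper54's
convention) -/
theorem rtk6fxb_hvarpi_of_incl {K₁ : IntermediateField ℚ Qb} {ϖ : ↥(mgcA A K₁)}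
    {π : ↥(beta0Ring A (beta0Field A))}
    (hϖ : ϖ ^ d =
      beta0RingIncl (A := A) (le_sup_left : beta0Field A ≤ beta0Field A ⊔ K₁) π) :
    (((ϖ : ↥(mgcA A K₁)) : ↥(mgcE A K₁)) : Qb) ^ d ∈ beta0Field A := by
  have h1 : (((ϖ : ↥(mgcA A K₁)) : ↥(mgcE A K₁)) : Qb) ^ d =
      (((π : ↥(beta0Ring A (beta0Field A))) : ↥(beta0Field A)) : Qb) := by
    have := congrArg (fun z : ↥(mgcA A K₁) => (((z : ↥(mgcA A K₁)) : ↥(mgcE A K₁)) : Qb)) hϖ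
    simpa using this
  rw [h1]
  exact (π : ↥(beta0Field A)).2

end GSet

/-! ### The hypothesis `hthin` of FIX-X -/

section Thin

variable {A : ValuationSubring Qb} {r : ℕ} {L M : ℕ} [NeZero M] {H : Subgroup (ZMod M)ˣ}
  {K₁ : IntermediateField ℚ Qb} [IsDiscreteValuationRing ↥(mgcA A K₁)]

/-- **FIX-X, thin half, `g₁ = σ̂`**: the hypothesis `hthin` of helper67's `FixX.lean` from the
output of C4-χ-ASM with `𝒢 = rtk6fxbG`. -/
theorem rtk6fxb_thin_gal {κ : Type*} (V₁ : κ → ValuationSubring ↥(rtk6diF A K₁ L M H))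
    {ϖ : ↥(mgcA A K₁)} {u : ↥(rtk6diF A K₁ L M H)}
    (hplus : ∀ 𝔫₁ : AtPt (F := ↥(rtk6diF A K₁ L M H)) ϖ u,
      Rtk6c4aPlusAt V₁ (rtk6fxbG A K₁ L M H r) 𝔫₁)
    {σ : Qb ≃ₐ[ℚ] Qb} (hσI : σ ∈ A.inertiaSubgroupIn ℚ)
    (hσE : ∀ x ∈ mgcE A K₁, σ x ∈ mgcE A K₁)
    (𝔫₁ : AtPt (F := ↥(rtk6diF A K₁ L M H)) ϖ u) :
    (∃ s : ↥(zchClosure (A₀ := ↥(mgcA A K₁)) ({u} : Set ↥(rtk6diF A K₁ L M H))), s ∈ 𝔫₁.1 ∧
      NodesLocGen 𝔫₁.1 {algebraMap ↥(mgcA A K₁)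
        ↥(zchClosure (A₀ := ↥(mgcA A K₁)) ({u} : Set ↥(rtk6diF A K₁ L M H))) ϖ, s}) ∨
    (Rtk6ewFix (rtk6diGal L M H σ hσE) 𝔫₁ ∧
      Rtk6ewCong (SemilinearAut.toRingAut (rtk6diGal L M H σ hσE) :
        ↥(rtk6diF A K₁ L M H) ≃+* ↥(rtk6diF A K₁ L M H)).toRingHom 1 𝔫₁) :=
  (hplus 𝔫₁).fixCong (rtk6fxb_gal_mem hσI hσE)

/-- **FIX-X, thin half, `g₁ = δ₁`** (diamond at `r`). -/
theorem rtk6fxb_thin_diamond {κ : Type*} (V₁ : κ → ValuationSubring ↥(rtk6diF A K₁ L M H))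
    {ϖ : ↥(mgcA A K₁)} {u : ↥(rtk6diF A K₁ L M H)}
    (hplus : ∀ 𝔫₁ : AtPt (F := ↥(rtk6diF A K₁ L M H)) ϖ u,
      Rtk6c4aPlusAt V₁ (rtk6fxbG A K₁ L M H r) 𝔫₁)
    {c : (ZMod M)ˣ} {δ : ↥(rtk6diF A K₁ L M H) ≃ₐ[↥(mgcE A K₁)] ↥(rtk6diF A K₁ L M H)}
    (hc : IsAtR M r c) (hδ : IsDiamondC ↥(mgcE A K₁) L M H c δ)
    (𝔫₁ : AtPt (F := ↥(rtk6diF A K₁ L M H)) ϖ u) :
    (∃ s : ↥(zchClosure (A₀ := ↥(mgcA A K₁)) ({u} : Set ↥(rtk6diF A K₁ L M H))), s ∈ 𝔫₁.1 ∧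
      NodesLocGen 𝔫₁.1 {algebraMap ↥(mgcA A K₁)
        ↥(zchClosure (A₀ := ↥(mgcA A K₁)) ({u} : Set ↥(rtk6diF A K₁ L M H))) ϖ, s}) ∨
    (Rtk6ewFix (SemilinearAut.ofAlgAut δ) 𝔫₁ ∧
      Rtk6ewCong (SemilinearAut.toRingAut (SemilinearAut.ofAlgAut δ) :
        ↥(rtk6diF A K₁ L M H) ≃+* ↥(rtk6diF A K₁ L M H)).toRingHom 1 𝔫₁) :=
  (hplus 𝔫₁).fixCong (rtk6fxb_diamond_mem hc hδ)

end Thin

/-! ### The chart `1/j` -/

section InvChart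

universe u

variable {A₀ E : Type*} {F : Type u} [CommRing A₀] [IsDomain A₀] [IsDiscreteValuationRing A₀]
  [Field E] [Algebra A₀ E] [IsFractionRing A₀ E] [CharZero E]
  [Field F] [Algebra E F] [Algebra A₀ F] [IsScalarTower A₀ E F]
  {π : A₀} {K R₀ : Type u} [Field K] [Algebra K F] [CommRing R₀] [Algebra R₀ F]

/-- the conditions `Rtk6c4aAut` do not depend on the chart: `u ↦ u⁻¹` -/
theorem rtk6fxb_aut_inv {u : F} {S : Set F} {y : F} {g : SemilinearAut E F}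
    (h : Rtk6c4aAut R₀ K π u S y g) : Rtk6c4aAut R₀ K π u⁻¹ S y g := by
  obtain ⟨hgu, hrest⟩ := h
  refine ⟨?_, hrest⟩
  have h1 : g • u⁻¹ = (g • u)⁻¹ := map_inv₀ (SemilinearAut.toRingAut g) u
  rw [h1, hgu]

/-- the conditions `Rtk6c4aAut` on either chart -/
theorem rtk6fxb_aut_chart {t u : F} (hu : u = t ∨ u = t⁻¹) {S : Set F} {y : F}
    {g : SemilinearAut E F} (h : Rtk6c4aAut R₀ K π t S y g) : Rtk6c4aAut R₀ K π u S y g := by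
  rcases hu with rfl | rfl
  · exact h
  · exact rtk6fxb_aut_inv h

end InvChart

end Fermat.Agent.RT.K6

end


end ZBRT_095_10

/-! ### bundled: `Fermat.Agent.RT.K6.FixXBT2` -/
section ZBRT_095_11
/-
K-machine, piece K6, piece **FIX-X, THIN half, (T2) in the shape of `hT2`** (helper34): the
hypothesis `hT2` of helper54's `rtk6c4ac_hcr` (`RT/K6/C4AsmCr.lean`, the discharge of `hcr` of
C4-χ-ASM) for `𝒢 := rtk6fxbG A K₁ L M H q` (`FixXB.lean`: the coefficientwise actions of the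
inertia group and the diamonds at `q`):

  for EVERY `ψr` with `Rtk6psiIsR` and every family `ψ'` with `Rtk6psiIsFam` (any `dS`), every
  `g ∈ 𝒢` satisfies `Rtk6c4aAut` on the unnormalised generators
  `S₀ = range (rtk6c4fdY … (ψ' i))`, `y₀ = rtk6c4fdY … ψr`.

* `rtk6fxb_varpi_ne_zero` : `ϖ ≠ 0` from `ϖ ^ d = q`;
* `rtk6fxb_hT2`           : **`hT2`** for `𝒢 = rtk6fxbG`, ANY level `K₁`, ANY chart `R₀`
  (a subalgebra of `K` over `A ∩ ℚ̄^I`), `ϖ ^ d_q = q`;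
* `rtk6fxb_hT2_chart`     : the same with the coordinate `u = t` or `u = t⁻¹`.
-/

set_option autoImplicit false
set_option linter.style.haveILetI false
set_option linter.unusedSectionVars false
set_option linter.unusedVariables false
set_option linter.style.longLine false
set_option synthInstance.maxHeartbeats 400000
set_option maxHeartbeats 4000000

noncomputable section

namespace Fermat.Agent.RT.K6

open ModularCurve AlgebraicCurve IntermediateField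
open Fermat.Agent.ES Fermat.Agent.ES.G2 Fermat.Agent.INJ Fermat.Agent.UNIP Fermat.Agent.ES1
  Fermat.Agent.ES1.G2 Fermat.Agent.STB

section T2

variable {A : ValuationSubring Qb} {q d : ℕ} {L M : ℕ} [NeZero M] {H : Subgroup (ZMod M)ˣ}

/-- `ϖ ≠ 0` from `ϖ ^ d = q` -/
theorem rtk6fxb_varpi_ne_zero {K₁ : IntermediateField ℚ Qb} {ϖ : ↥(mgcA A K₁)}
    (hq0 : q ≠ 0) (hd0 : d ≠ 0) (hϖ : ϖ ^ d = ((q : ℕ) : ↥(mgcA A K₁))) : ϖ ≠ 0 := by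
  intro h0
  have h1 : (((ϖ : ↥(mgcA A K₁)) : ↥(mgcE A K₁)) : Qb) ^ d = ((q : ℕ) : Qb) := by
    have := congrArg (fun z : ↥(mgcA A K₁) => (((z : ↥(mgcA A K₁)) : ↥(mgcE A K₁)) : Qb)) hϖ
    simpa using this
  rw [h0] at h1
  have h2 : ((q : ℕ) : Qb) = 0 := by
    rw [← h1]
    simp [hd0]
  exact hq0 (Nat.cast_eq_zero.mp h2)

/-- **(T2) in the shape of `hT2`** (`rtk6c4ac_hcr`, helper54) for `𝒢 = rtk6fxbG`. -/
theorem rtk6fxb_hT2 (K₁ : IntermediateField ℚ Qb) [IsDiscreteValuationRing ↥(mgcA A K₁)]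
    (f : ↥(beta0Field A) →+* ↥(mgcE A K₁))
    (hf : ∀ a : ↥(beta0Field A), ((f a : ↥(mgcE A K₁)) : Qb) = (a : Qb))
    [Algebra ↥(modularFunctionFieldFullC ↥(beta0Field A) L) ↥(rtk6diF A K₁ L M H)]
    (halg : ∀ z : ↥(modularFunctionFieldFullC ↥(beta0Field A) L),
      algebraMap ↥(modularFunctionFieldFullC ↥(beta0Field A) L) ↥(rtk6diF A K₁ L M H) z
        = rtk6c4fdIota f L M H z)
    (hML : M ∣ L)
    (R₀ : Subalgebra ↥(beta0Ring A (beta0Field A))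
      ↥(modularFunctionFieldFullC ↥(beta0Field A) L))
    (hq : q.Prime) (hqM : q ∣ M) (hq2 : ¬ q ^ 2 ∣ M)
    {ϖ : ↥(mgcA A K₁)} (hϖq : ϖ ^ rtk6psiDr M q H = ((q : ℕ) : ↥(mgcA A K₁))) :
    ∀ (dS : ℕ) (ψr : (ZMod M)ˣ →* (↥(beta0Field A))ˣ) (k : ℕ)
      (ψ' : Fin k → ((ZMod M)ˣ →* (↥(beta0Field A))ˣ)),
      Rtk6psiIsR ↥(beta0Field A) M q H ψr → Rtk6psiIsFam ↥(beta0Field A) M q dS H ψ' →
      ∀ g ∈ rtk6fxbG A K₁ L M H q,
        Rtk6c4aAut (A₀ := ↥(mgcA A K₁)) (E := ↥(mgcE A K₁)) (F := ↥(rtk6diF A K₁ L M H)) ↥R₀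
          ↥(modularFunctionFieldFullC ↥(beta0Field A) L) ϖ (rtk6diT A K₁ L M H)
          (Set.range fun i => rtk6c4fdY f L M H (ψ' i) hML) (rtk6c4fdY f L M H ψr hML) g := by
  intro dS ψr k ψ' hR hFam
  have hd0 : rtk6psiDr M q H ≠ 0 := (rtk6psiDr_pos (r := q) (H := H)).ne'
  obtain ⟨c₀, -, hord⟩ := hR.exists_orderOf hq hqM hq2
  exact rtk6fxb_aut K₁ f hf halg hML R₀ (rtk6fxb_varpi_ne_zero hq.ne_zero hd0 hϖq)
    (rtk6fxb_hvarpi_of_natCast hϖq) ψr hd0 hord ψ' hFam.map_atR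

/-- **(T2) in the shape of `hT2`, on either chart** (`u = t` or `u = t⁻¹`). -/
theorem rtk6fxb_hT2_chart (K₁ : IntermediateField ℚ Qb)
    [IsDiscreteValuationRing ↥(mgcA A K₁)]
    (f : ↥(beta0Field A) →+* ↥(mgcE A K₁))
    (hf : ∀ a : ↥(beta0Field A), ((f a : ↥(mgcE A K₁)) : Qb) = (a : Qb))
    [Algebra ↥(modularFunctionFieldFullC ↥(beta0Field A) L) ↥(rtk6diF A K₁ L M H)]
    (halg : ∀ z : ↥(modularFunctionFieldFullC ↥(beta0Field A) L),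
      algebraMap ↥(modularFunctionFieldFullC ↥(beta0Field A) L) ↥(rtk6diF A K₁ L M H) z
        = rtk6c4fdIota f L M H z)
    (hML : M ∣ L)
    (R₀ : Subalgebra ↥(beta0Ring A (beta0Field A))
      ↥(modularFunctionFieldFullC ↥(beta0Field A) L))
    (hq : q.Prime) (hqM : q ∣ M) (hq2 : ¬ q ^ 2 ∣ M)
    {ϖ : ↥(mgcA A K₁)} (hϖq : ϖ ^ rtk6psiDr M q H = ((q : ℕ) : ↥(mgcA A K₁)))
    {u : ↥(rtk6diF A K₁ L M H)}
    (hu : u = rtk6diT A K₁ L M H ∨ u = (rtk6diT A K₁ L M H)⁻¹) :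
    ∀ (dS : ℕ) (ψr : (ZMod M)ˣ →* (↥(beta0Field A))ˣ) (k : ℕ)
      (ψ' : Fin k → ((ZMod M)ˣ →* (↥(beta0Field A))ˣ)),
      Rtk6psiIsR ↥(beta0Field A) M q H ψr → Rtk6psiIsFam ↥(beta0Field A) M q dS H ψ' →
      ∀ g ∈ rtk6fxbG A K₁ L M H q,
        Rtk6c4aAut (A₀ := ↥(mgcA A K₁)) (E := ↥(mgcE A K₁)) (F := ↥(rtk6diF A K₁ L M H)) ↥R₀
          ↥(modularFunctionFieldFullC ↥(beta0Field A) L) ϖ u
          (Set.range fun i => rtk6c4fdY f L M H (ψ' i) hML) (rtk6c4fdY f L M H ψr hML) g :=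
  fun dS ψr k ψ' hR hFam g hg =>
    rtk6fxb_aut_chart hu (rtk6fxb_hT2 K₁ f hf halg hML R₀ hq hqM hq2 hϖq dS ψr k ψ' hR hFam g hg)

end T2

end Fermat.Agent.RT.K6

end


end ZBRT_095_11

/-! ### bundled: `Fermat.Agent.RT.K6.C4ChiPlusG` -/
section ZBRT_095_12
/-
K-machine, piece K6, case (χ), **the hPlus final glue, full set of automorphisms** (helper76):
the open input of `rtk6fxx_geomChi` (`RT/K6/FixXInst.lean`, helper67), i.e.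
`Rtk6fxxThinPlus A w₀` for every level datum, at the thin level `K₁′ := rtk6ebK q d_q`
(`d_q = rtk6psiDr M q H`), from C4-χ-ASM on the two charts with the set of automorphisms of (T2)

  `rtk6fxbG A K₁′ L M H q` (helper34, `RT/K6/FixXB.lean`)   (`= rtk6fxxG …`, helper67),

and the CLOSED form of the case (χ) modulo C4-χ-ASM:

* `rtk6cxp_fxxG_subset_fxbG`, `rtk6cxp_fxbG_subset_fxxG` : the two descriptions of `𝒢` agree;
* `rtk6cxp_thinPlusG` : `Rtk6fxxThinPlus A w₀` from the two charts (one level datum);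
* `rtk6cxp_hPlusG`    : the provider `hPlus` of `rtk6fxx_geomChi`;
* **`rtk6cxp_geomChiG`** : `StmtRtk6GeomChi` from C4-χ-ASM on the two charts at the thin level
  ((SS1-inst) generic is `rtk6eiu_stmtSS1Gen`, (FIX-X) is `rtk6fxx_hFix`).
-/

set_option autoImplicit false
set_option linter.style.haveILetI false
set_option linter.unusedSectionVars false
set_option linter.unusedVariables false
set_option linter.style.longLine false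

noncomputable section

namespace Fermat.Agent.RT.K6

open ModularCurve AlgebraicCurve Fermat.Agent.ES Fermat.Agent.ES.G2 Fermat.Agent.INJ
open Fermat.Agent.UNIP Fermat.Agent.STB Fermat.Agent.ES1 Fermat.Agent.ES1.G2 IntermediateField

/-! ### The two descriptions of `𝒢` -/

section G

variable {A : ValuationSubring Qb} {K₁ : IntermediateField ℚ Qb} {L M : ℕ}
  {H : Subgroup (ZMod M)ˣ} {r : ℕ}

theorem rtk6cxp_fxxG_subset_fxbG :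
    rtk6fxxG A K₁ L M H r ⊆ rtk6fxbG A K₁ L M H r := by
  rintro g (⟨σ, hσ, hσI, rfl⟩ | ⟨c, δ, hc, hδ, rfl⟩)
  · exact Or.inl ⟨σ, hσI, hσ, rfl⟩
  · exact Or.inr ⟨c, δ, hc, hδ, rfl⟩

theorem rtk6cxp_fxbG_subset_fxxG :
    rtk6fxbG A K₁ L M H r ⊆ rtk6fxxG A K₁ L M H r := by
  rintro g (⟨σ, hσI, hσ, rfl⟩ | ⟨c, δ, hc, hδ, rfl⟩)
  · exact Or.inl ⟨σ, hσ, hσI, rfl⟩
  · exact Or.inr ⟨c, δ, hc, hδ, rfl⟩

end G

/-! ### The thin level -/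

section Thin

variable {q M₁ : ℕ} [NeZero q] [NeZero M₁] [NeZero (M₁ * q)] {M : ℕ} {H : Subgroup (ZMod M)ˣ}

/-- **`Rtk6fxxThinPlus A w₀` at the thin level `K₁′ = rtk6ebK q d_q`** from C4-χ-ASM on the two
charts, with the set `rtk6fxbG` of (T2) (for every uniformizer `ϖ₁` with `ϖ₁ ^ d_q = q` and every
proof of the commutation). -/
theorem rtk6cxp_thinPlusG (hq : q.Prime) (hqM' : q ∣ M) (hM0 : M ≠ 0) (hqM : ¬ q ∣ M₁)
    (hML : M ∣ M₁ * q) (w₀ : fieldBar (M₁ * q) M H ≃ₐ[Qb] fieldBar (M₁ * q) M H)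
    (hw₀ : IsWAt (M₁ * q) M H q w₀) (A : ValuationSubring Qb) (hA : A.LiesOverPrime q)
    (hJ : ∀ [IsDiscreteValuationRing ↥(mgcA A (rtk6ebK q (rtk6cxpD M q H)))]
      (ϖ₁ : ↥(mgcA A (rtk6ebK q (rtk6cxpD M q H)))) (hϖ₁ : Irreducible ϖ₁)
      (_ : ϖ₁ ^ rtk6cxpD M q H = ((q : ℕ) : ↥(mgcA A (rtk6ebK q (rtk6cxpD M q H)))))
      (hc₁ : RtkCommK (mgcE A (rtk6ebK q (rtk6cxpD M q H))) w₀)
      (𝔫₁ : AtPt (F := ↥(rtk6diF A (rtk6ebK q (rtk6cxpD M q H)) (M₁ * q) M H)) ϖ₁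
        (rtk6diT A (rtk6ebK q (rtk6cxpD M q H)) (M₁ * q) M H)),
      Rtk6c4aPlusAt
        (rtk6dfV hϖ₁ M H (rtk6diwEquiv (K₀ := mgcE A (rtk6ebK q (rtk6cxpD M q H))) w₀ hc₁))
        (rtk6fxbG A (rtk6ebK q (rtk6cxpD M q H)) (M₁ * q) M H q) 𝔫₁)
    (hJinv : ∀ [IsDiscreteValuationRing ↥(mgcA A (rtk6ebK q (rtk6cxpD M q H)))]
      (ϖ₁ : ↥(mgcA A (rtk6ebK q (rtk6cxpD M q H)))) (hϖ₁ : Irreducible ϖ₁)
      (_ : ϖ₁ ^ rtk6cxpD M q H = ((q : ℕ) : ↥(mgcA A (rtk6ebK q (rtk6cxpD M q H)))))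
      (hc₁ : RtkCommK (mgcE A (rtk6ebK q (rtk6cxpD M q H))) w₀)
      (𝔫₁ : AtPt (F := ↥(rtk6diF A (rtk6ebK q (rtk6cxpD M q H)) (M₁ * q) M H)) ϖ₁
        (rtk6diT A (rtk6ebK q (rtk6cxpD M q H)) (M₁ * q) M H)⁻¹),
      Rtk6c4aPlusAt
        (rtk6dfV hϖ₁ M H (rtk6diwEquiv (K₀ := mgcE A (rtk6ebK q (rtk6cxpD M q H))) w₀ hc₁))
        (rtk6fxbG A (rtk6ebK q (rtk6cxpD M q H)) (M₁ * q) M H q) 𝔫₁) :
    Rtk6fxxThinPlus A w₀ := by
  have hd0 : rtk6cxpD M q H ≠ 0 := rtk6cxpD_ne_zero hM0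
  have hdq : ¬ q ∣ rtk6cxpD M q H := rtk6cxpD_not_dvd hq hqM' hqM hML
  obtain ⟨ϖ, hϖ⟩ := IsAlgClosed.exists_pow_nat_eq ((q : ℕ) : Qb) (Nat.pos_of_ne_zero hd0)
  haveI hDVR : IsDiscreteValuationRing ↥(mgcA A (rtk6ebK q (rtk6cxpD M q H))) :=
    rtk6eb_isDVR hq hA
  have hirr := rtk6ebVarpi_irreducible hq hA hd0 hdq hϖ
  have hpow := rtk6ebVarpi_pow hA hd0 hϖ
  have hc₁ := rtk6cxp_commK hq hqM' hM0 hqM hML hw₀ A hA
  exact ⟨rtk6ebK q (rtk6cxpD M q H), inferInstance, inferInstance, hDVR,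
    rtk6ebVarpi hA hd0 hϖ, hirr, hc₁,
    fun 𝔫₁ => (hJ (rtk6ebVarpi hA hd0 hϖ) hirr hpow hc₁ 𝔫₁).mono rtk6cxp_fxxG_subset_fxbG,
    fun 𝔫₁ => (hJinv (rtk6ebVarpi hA hd0 hϖ) hirr hpow hc₁ 𝔫₁).mono rtk6cxp_fxxG_subset_fxbG⟩

end Thin

/-! ### The providers -/

/-- **The provider `hPlus` of `rtk6fxx_geomChi`** from C4-χ-ASM on the two charts at the thin level
`K₁′ = rtk6ebK q d_q`, with the set `rtk6fxbG` of (T2). -/
theorem rtk6cxp_hPlusG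
    (hJ : ∀ (q M₁ : ℕ) [NeZero q] [NeZero M₁] [NeZero (M₁ * q)] (M : ℕ)
      (H : Subgroup (ZMod M)ˣ) (hq : q.Prime) (hqM' : q ∣ M) (hM0 : M ≠ 0), ¬ q ∣ M₁ →
      M ∣ M₁ * q → IsStarStable M q H → IsTameAt (M₁ * q) M q H → 4 ∣ M₁ * q →
      ∀ (w₀ : fieldBar (M₁ * q) M H ≃ₐ[Qb] fieldBar (M₁ * q) M H)
        (hw₀ : IsWAt (M₁ * q) M H q w₀) (A : ValuationSubring Qb), A.LiesOverPrime q →
      ∀ [IsDiscreteValuationRing ↥(mgcA A (rtk6ebK q (rtk6cxpD M q H)))]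
        (ϖ₁ : ↥(mgcA A (rtk6ebK q (rtk6cxpD M q H)))) (hϖ₁ : Irreducible ϖ₁)
        (_ : ϖ₁ ^ rtk6cxpD M q H = ((q : ℕ) : ↥(mgcA A (rtk6ebK q (rtk6cxpD M q H)))))
        (hc₁ : RtkCommK (mgcE A (rtk6ebK q (rtk6cxpD M q H))) w₀)
        (𝔫₁ : AtPt (F := ↥(rtk6diF A (rtk6ebK q (rtk6cxpD M q H)) (M₁ * q) M H)) ϖ₁
          (rtk6diT A (rtk6ebK q (rtk6cxpD M q H)) (M₁ * q) M H)),
        Rtk6c4aPlusAt
          (rtk6dfV hϖ₁ M H (rtk6diwEquiv (K₀ := mgcE A (rtk6ebK q (rtk6cxpD M q H))) w₀ hc₁))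
          (rtk6fxbG A (rtk6ebK q (rtk6cxpD M q H)) (M₁ * q) M H q) 𝔫₁)
    (hJinv : ∀ (q M₁ : ℕ) [NeZero q] [NeZero M₁] [NeZero (M₁ * q)] (M : ℕ)
      (H : Subgroup (ZMod M)ˣ) (hq : q.Prime) (hqM' : q ∣ M) (hM0 : M ≠ 0), ¬ q ∣ M₁ →
      M ∣ M₁ * q → IsStarStable M q H → IsTameAt (M₁ * q) M q H → 4 ∣ M₁ * q →
      ∀ (w₀ : fieldBar (M₁ * q) M H ≃ₐ[Qb] fieldBar (M₁ * q) M H)
        (hw₀ : IsWAt (M₁ * q) M H q w₀) (A : ValuationSubring Qb), A.LiesOverPrime q →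
      ∀ [IsDiscreteValuationRing ↥(mgcA A (rtk6ebK q (rtk6cxpD M q H)))]
        (ϖ₁ : ↥(mgcA A (rtk6ebK q (rtk6cxpD M q H)))) (hϖ₁ : Irreducible ϖ₁)
        (_ : ϖ₁ ^ rtk6cxpD M q H = ((q : ℕ) : ↥(mgcA A (rtk6ebK q (rtk6cxpD M q H)))))
        (hc₁ : RtkCommK (mgcE A (rtk6ebK q (rtk6cxpD M q H))) w₀)
        (𝔫₁ : AtPt (F := ↥(rtk6diF A (rtk6ebK q (rtk6cxpD M q H)) (M₁ * q) M H)) ϖ₁
          (rtk6diT A (rtk6ebK q (rtk6cxpD M q H)) (M₁ * q) M H)⁻¹),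
        Rtk6c4aPlusAt
          (rtk6dfV hϖ₁ M H (rtk6diwEquiv (K₀ := mgcE A (rtk6ebK q (rtk6cxpD M q H))) w₀ hc₁))
          (rtk6fxbG A (rtk6ebK q (rtk6cxpD M q H)) (M₁ * q) M H q) 𝔫₁) :
    ∀ (q M₁ : ℕ) [NeZero q] [NeZero M₁] [NeZero (M₁ * q)] (M : ℕ)
      (H : Subgroup (ZMod M)ˣ) (hq : q.Prime) (hqM' : q ∣ M) (hM0 : M ≠ 0), ¬ q ∣ M₁ →
      M ∣ M₁ * q → IsStarStable M q H → IsTameAt (M₁ * q) M q H → 4 ∣ M₁ * q →
      ∀ (w₀ : fieldBar (M₁ * q) M H ≃ₐ[Qb] fieldBar (M₁ * q) M H)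
        (hw₀ : IsWAt (M₁ * q) M H q w₀) (A : ValuationSubring Qb), A.LiesOverPrime q →
        Rtk6fxxThinPlus A w₀ := by
  intro q M₁ _ _ _ M H hq hqM' hM0 hqM hML hstar htame h4 w₀ hw₀ A hA
  exact rtk6cxp_thinPlusG hq hqM' hM0 hqM hML w₀ hw₀ A hA
    (fun ϖ₁ hϖ₁ hϖd hc₁ 𝔫₁ =>
      hJ q M₁ M H hq hqM' hM0 hqM hML hstar htame h4 w₀ hw₀ A hA ϖ₁ hϖ₁ hϖd hc₁ 𝔫₁)
    (fun ϖ₁ hϖ₁ hϖd hc₁ 𝔫₁ =>
      hJinv q M₁ M H hq hqM' hM0 hqM hML hstar htame h4 w₀ hw₀ A hA ϖ₁ hϖ₁ hϖd hc₁ 𝔫₁)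

/-- **CLOSED form of the case (χ) modulo C4-χ-ASM**: `StmtRtk6GeomChi` from the dichotomy with C4+
for `𝒢 = rtk6fxbG` on the two charts at the thin level `K₁′ = rtk6ebK q d_q`. -/
theorem rtk6cxp_geomChiG
    (hJ : ∀ (q M₁ : ℕ) [NeZero q] [NeZero M₁] [NeZero (M₁ * q)] (M : ℕ)
      (H : Subgroup (ZMod M)ˣ) (hq : q.Prime) (hqM' : q ∣ M) (hM0 : M ≠ 0), ¬ q ∣ M₁ →
      M ∣ M₁ * q → IsStarStable M q H → IsTameAt (M₁ * q) M q H → 4 ∣ M₁ * q →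
      ∀ (w₀ : fieldBar (M₁ * q) M H ≃ₐ[Qb] fieldBar (M₁ * q) M H)
        (hw₀ : IsWAt (M₁ * q) M H q w₀) (A : ValuationSubring Qb), A.LiesOverPrime q →
      ∀ [IsDiscreteValuationRing ↥(mgcA A (rtk6ebK q (rtk6cxpD M q H)))]
        (ϖ₁ : ↥(mgcA A (rtk6ebK q (rtk6cxpD M q H)))) (hϖ₁ : Irreducible ϖ₁)
        (_ : ϖ₁ ^ rtk6cxpD M q H = ((q : ℕ) : ↥(mgcA A (rtk6ebK q (rtk6cxpD M q H)))))
        (hc₁ : RtkCommK (mgcE A (rtk6ebK q (rtk6cxpD M q H))) w₀)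
        (𝔫₁ : AtPt (F := ↥(rtk6diF A (rtk6ebK q (rtk6cxpD M q H)) (M₁ * q) M H)) ϖ₁
          (rtk6diT A (rtk6ebK q (rtk6cxpD M q H)) (M₁ * q) M H)),
        Rtk6c4aPlusAt
          (rtk6dfV hϖ₁ M H (rtk6diwEquiv (K₀ := mgcE A (rtk6ebK q (rtk6cxpD M q H))) w₀ hc₁))
          (rtk6fxbG A (rtk6ebK q (rtk6cxpD M q H)) (M₁ * q) M H q) 𝔫₁)
    (hJinv : ∀ (q M₁ : ℕ) [NeZero q] [NeZero M₁] [NeZero (M₁ * q)] (M : ℕ)
      (H : Subgroup (ZMod M)ˣ) (hq : q.Prime) (hqM' : q ∣ M) (hM0 : M ≠ 0), ¬ q ∣ M₁ →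
      M ∣ M₁ * q → IsStarStable M q H → IsTameAt (M₁ * q) M q H → 4 ∣ M₁ * q →
      ∀ (w₀ : fieldBar (M₁ * q) M H ≃ₐ[Qb] fieldBar (M₁ * q) M H)
        (hw₀ : IsWAt (M₁ * q) M H q w₀) (A : ValuationSubring Qb), A.LiesOverPrime q →
      ∀ [IsDiscreteValuationRing ↥(mgcA A (rtk6ebK q (rtk6cxpD M q H)))]
        (ϖ₁ : ↥(mgcA A (rtk6ebK q (rtk6cxpD M q H)))) (hϖ₁ : Irreducible ϖ₁)
        (_ : ϖ₁ ^ rtk6cxpD M q H = ((q : ℕ) : ↥(mgcA A (rtk6ebK q (rtk6cxpD M q H)))))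
        (hc₁ : RtkCommK (mgcE A (rtk6ebK q (rtk6cxpD M q H))) w₀)
        (𝔫₁ : AtPt (F := ↥(rtk6diF A (rtk6ebK q (rtk6cxpD M q H)) (M₁ * q) M H)) ϖ₁
          (rtk6diT A (rtk6ebK q (rtk6cxpD M q H)) (M₁ * q) M H)⁻¹),
        Rtk6c4aPlusAt
          (rtk6dfV hϖ₁ M H (rtk6diwEquiv (K₀ := mgcE A (rtk6ebK q (rtk6cxpD M q H))) w₀ hc₁))
          (rtk6fxbG A (rtk6ebK q (rtk6cxpD M q H)) (M₁ * q) M H q) 𝔫₁) :
    StmtRtk6GeomChi :=
  rtk6fxx_geomChi rtk6eiu_stmtSS1Gen (rtk6cxp_hPlusG hJ hJinv)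

end Fermat.Agent.RT.K6

end
end ZBRT_095_12

/-! ### bundled: `Fermat.Agent.RT.K6.C4AsmJInv` -/
section ZBRT_095_13
/-
K-machine, piece K6, piece C4-χ-ASM (helper94), concrete part, chart `1 / j`:
**the dichotomy with C4+ at every closed point of the chart `1 / j` of
`F₁ = rtk6diF A K₁ (M₁ q) M H`** over the thin ramified base `A₁ = mgcA A K₁`
(uniformizer `ϖ`, `ϖ ^ d = π`).  LITERAL twin of `C4AsmJ.lean` (`rtk6c4aj_plusAt`):
`bgJ ↦ (bgJ)⁻¹`, `rtk6diT ↦ (rtk6diT)⁻¹`, `rtk6gxiJ ↦ rtk6gxiJInv`, `rtk6gxiPt ↦ rtk6gxiPtInv`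
(`GenCrossInv.lean`, helper54), thin dichotomy `rtk6lfi0_thinAt_Jinv` (`LFInv.lean`).

* `rtk6c4aj_plusAt_inv` : `Rtk6c4aPlusAt V 𝒢 𝔫` from `hsm`, `hcr`, `hthr` (same shapes as on the
  chart `j`).
-/

set_option autoImplicit false
set_option linter.style.haveILetI false
set_option linter.unusedSectionVars false
set_option linter.unusedVariables false
set_option linter.style.longLine false
set_option synthInstance.maxHeartbeats 400000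
set_option maxHeartbeats 4000000

noncomputable section

namespace Fermat.Agent.RT.K6

open ModularCurve Polynomial IntermediateField Fermat.Agent.INJ Fermat.Agent.AL AlgebraicCurve
open Fermat.Agent.ES Fermat.Agent.ES.G2 Fermat.Agent.STB Fermat.Agent.UNIP Fermat.Agent.S36
open Fermat.Agent.RIB.MP Fermat.Agent.ES1

section AsmJInv

variable {A : ValuationSubring Qb} {q M₁ : ℕ} [NeZero q] [NeZero M₁] [NeZero (M₁ * q)]
  [IsDiscreteValuationRing ↥(beta0Ring A (beta0Field A))]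
  {π : ↥(beta0Ring A (beta0Field A))} (hπ : Irreducible π)
  (ιC : ↥(beta0Field A) →+* ℂ) (hq : q.Prime) (hqM : ¬ q ∣ M₁)
  (K₁ : IntermediateField ℚ Qb) [NumberField ↥K₁] [IsGalois ℚ ↥K₁]
  [IsDiscreteValuationRing ↥(mgcA A K₁)]
  (M : ℕ) [NeZero M] (H : Subgroup (ZMod M)ˣ)
  (f : ↥(beta0Field A) →+* ↥(mgcE A K₁))
  (hf : ∀ a : ↥(beta0Field A), ((f a : ↥(mgcE A K₁)) : Qb) = (a : Qb))
  [Algebra ↥(modularFunctionFieldFullC ↥(beta0Field A) (M₁ * q))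
    ↥(rtk6diF A K₁ (M₁ * q) M H)]
  (halg : ∀ z : ↥(modularFunctionFieldFullC ↥(beta0Field A) (M₁ * q)),
    algebraMap ↥(modularFunctionFieldFullC ↥(beta0Field A) (M₁ * q))
      ↥(rtk6diF A K₁ (M₁ * q) M H) z = rtk6c4fdIota f (M₁ * q) M H z)
  (hA : A.LiesOverPrime q) {d : ℕ} (hd0 : d ≠ 0) {ϖ : ↥(mgcA A K₁)}
  (hϖd : ϖ ^ d =
    beta0RingIncl (A := A) (le_sup_left : beta0Field A ≤ beta0Field A ⊔ K₁) π)

include hπ ιC hqM in
/-- **C4-χ-ASM, chart `1 / j`.** -/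
theorem rtk6c4aj_plusAt_inv (rigid : (q ≠ 2 → 4 ∣ M₁) ∧ (q = 2 → 9 ∣ M₁))
    {κ : Type*} (V : κ → ValuationSubring ↥(rtk6diF A K₁ (M₁ * q) M H))
    (hBV : ∀ c (z : ↥(rtk6diF A K₁ (M₁ * q) M H)),
      IsIntegral ↥(Algebra.adjoin ↥(mgcA A K₁)
        ({(rtk6diT A K₁ (M₁ * q) M H)⁻¹} : Set ↥(rtk6diF A K₁ (M₁ * q) M H))) z → z ∈ V c)
    (𝒢 : Set (SemilinearAut ↥(mgcE A K₁) ↥(rtk6diF A K₁ (M₁ * q) M H)))
    (𝔫 : AtPt (F := ↥(rtk6diF A K₁ (M₁ * q) M H)) ϖ ((rtk6diT A K₁ (M₁ * q) M H)⁻¹))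
    -- (SM-inst)
    (hsm : (∃ s₀ : ↥(zchClosure (A₀ := ↥(beta0Ring A (beta0Field A)))
          ({(bgJ ↥(beta0Field A) (M₁ * q))⁻¹} :
            Set ↥(modularFunctionFieldFullC ↥(beta0Field A) (M₁ * q)))),
        s₀ ∈ (rtk6gxiPtInv hq K₁ M H f hf halg hA hd0 hϖd 𝔫).1 ∧
        NodesLocGen (rtk6gxiPtInv hq K₁ M H f hf halg hA hd0 hϖd 𝔫).1
          {algebraMap ↥(beta0Ring A (beta0Field A))
            ↥(zchClosure (A₀ := ↥(beta0Ring A (beta0Field A)))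
              ({(bgJ ↥(beta0Field A) (M₁ * q))⁻¹} :
                Set ↥(modularFunctionFieldFullC ↥(beta0Field A) (M₁ * q)))) π, s₀}) →
      ∃ s : ↥(zchClosure (A₀ := ↥(mgcA A K₁))
          ({(rtk6diT A K₁ (M₁ * q) M H)⁻¹} : Set ↥(rtk6diF A K₁ (M₁ * q) M H))),
        s ∈ 𝔫.1 ∧ NodesLocGen 𝔫.1
          {algebraMap ↥(mgcA A K₁) ↥(zchClosure (A₀ := ↥(mgcA A K₁))
            ({(rtk6diT A K₁ (M₁ * q) M H)⁻¹} : Set ↥(rtk6diF A K₁ (M₁ * q) M H))) ϖ, s})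
    -- (G-cross) + (WIRE) + (T2)
    (hcr : atThrough (rtk6gxiPtInv hq K₁ M H f hf halg hA hd0 hϖd 𝔫) (mgvV hπ ιC hq hqM true) →
      atThrough (rtk6gxiPtInv hq K₁ M H f hf halg hA hd0 hϖd 𝔫) (mgvV hπ ιC hq hqM false) →
      ∃ (d' dS : ℕ) (ζ X Y w e₁ e₂ : ↥(zchClosure (A₀ := ↥(beta0Ring A (beta0Field A)))
          ({(bgJ ↥(beta0Field A) (M₁ * q))⁻¹} :
            Set ↥(modularFunctionFieldFullC ↥(beta0Field A) (M₁ * q)))))
        (S : Set ↥(rtk6diF A K₁ (M₁ * q) M H)) (y : ↥(rtk6diF A K₁ (M₁ * q) M H))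
        (γ : ↥(modularFunctionFieldFullC ↥(beta0Field A) (M₁ * q))) (n₀ a b : ℤ)
        (σ δ : ↥(rtk6diF A K₁ (M₁ * q) M H) ≃ₐ[↥(modularFunctionFieldFullC ↥(beta0Field A)
          (M₁ * q))] ↥(rtk6diF A K₁ (M₁ * q) M H)),
        Rtk6c4CrossE (rtk6gxiJInv K₁ M H f hf halg)
          (algebraMap ↥(zchClosure (A₀ := ↥(mgcA A K₁))
            ({(rtk6diT A K₁ (M₁ * q) M H)⁻¹} : Set ↥(rtk6diF A K₁ (M₁ * q) M H)))
            ↥(rtk6diF A K₁ (M₁ * q) M H)) 𝔫.1 d' dS ζ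
          (algebraMap ↥(beta0Ring A (beta0Field A))
            ↥(zchClosure (A₀ := ↥(beta0Ring A (beta0Field A)))
              ({(bgJ ↥(beta0Field A) (M₁ * q))⁻¹} :
                Set ↥(modularFunctionFieldFullC ↥(beta0Field A) (M₁ * q)))) π) X Y w S
          (algebraMap ↥(mgcA A K₁) ↥(rtk6diF A K₁ (M₁ * q) M H) ϖ) y γ e₁ e₂ n₀ a b σ δ ∧
        (X : ↥(modularFunctionFieldFullC ↥(beta0Field A) (M₁ * q))) ∈
          (mgvV hπ ιC hq hqM true).nonunits ∧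
        (Y : ↥(modularFunctionFieldFullC ↥(beta0Field A) (M₁ * q))) ∉
          (mgvV hπ ιC hq hqM true).nonunits ∧
        (Y : ↥(modularFunctionFieldFullC ↥(beta0Field A) (M₁ * q))) ∈
          (mgvV hπ ιC hq hqM false).nonunits ∧
        (X : ↥(modularFunctionFieldFullC ↥(beta0Field A) (M₁ * q))) ∉
          (mgvV hπ ιC hq hqM false).nonunits ∧
        ∀ g ∈ 𝒢, Rtk6c4aAut
          ↥(zchClosure (A₀ := ↥(beta0Ring A (beta0Field A)))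
            ({(bgJ ↥(beta0Field A) (M₁ * q))⁻¹} :
              Set ↥(modularFunctionFieldFullC ↥(beta0Field A) (M₁ * q))))
          ↥(modularFunctionFieldFullC ↥(beta0Field A) (M₁ * q)) ϖ
          ((rtk6diT A K₁ (M₁ * q) M H)⁻¹) S y g)
    -- (THR-χ)
    (hthr : ∀ b : Bool,
      atThrough (rtk6gxiPtInv hq K₁ M H f hf halg hA hd0 hϖd 𝔫) (mgvV hπ ιC hq hqM b) →
      ∃ c : κ, atThrough 𝔫 (V c) ∧
        ∀ x : ↥(modularFunctionFieldFullC ↥(beta0Field A) (M₁ * q)),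
          algebraMap ↥(modularFunctionFieldFullC ↥(beta0Field A) (M₁ * q))
            ↥(rtk6diF A K₁ (M₁ * q) M H) x ∈ (V c).nonunits ↔
          x ∈ (mgvV hπ ιC hq hqM b).nonunits) :
    Rtk6c4aPlusAt V 𝒢 𝔫 := by
  rcases rtk6lfi0_thinAt_Jinv hπ ιC hq hqM hA rigid
      (rtk6gxiPtInv hq K₁ M H f hf halg hA hd0 hϖd 𝔫) with ⟨s₀, hs₀, hgen₀⟩ | ⟨X', Y', h₁, h₂, -⟩
  · exact rtk6c4a_smooth V 𝒢 𝔫 (hsm ⟨s₀, hs₀, hgen₀⟩)
  · obtain ⟨d', dS, ζ, X, Y, w, e₁, e₂, S, y, γ, n₀, a, b, σ, δ, hC, hX₁, hY₁, hY₂, hX₂, h𝒢⟩ :=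
      hcr h₁ h₂
    obtain ⟨c₁, hthr₁, hc₁⟩ := hthr true h₁
    obtain ⟨c₂, hthr₂, hc₂⟩ := hthr false h₂
    haveI := ribmp_fc_fin_inv (K₀ := beta0Field A) (M₁ * q)
    haveI : IsNoetherianRing ↥(zchClosure (A₀ := ↥(beta0Ring A (beta0Field A)))
        ({(bgJ ↥(beta0Field A) (M₁ * q))⁻¹} :
          Set ↥(modularFunctionFieldFullC ↥(beta0Field A) (M₁ * q)))) := ribmp_fcu_noeth
    haveI : IsFractionRing ↥(zchClosure (A₀ := ↥(beta0Ring A (beta0Field A)))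
        ({(bgJ ↥(beta0Field A) (M₁ * q))⁻¹} :
          Set ↥(modularFunctionFieldFullC ↥(beta0Field A) (M₁ * q))))
        ↥(modularFunctionFieldFullC ↥(beta0Field A) (M₁ * q)) :=
      mgc_chart_isFractionRing (A₀ := ↥(beta0Ring A (beta0Field A))) (E₀ := ↥(beta0Field A))
        ((bgJ ↥(beta0Field A) (M₁ * q))⁻¹)
    haveI : IsIntegrallyClosed ↥(zchClosure (A₀ := ↥(beta0Ring A (beta0Field A)))
        ({(bgJ ↥(beta0Field A) (M₁ * q))⁻¹} :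
          Set ↥(modularFunctionFieldFullC ↥(beta0Field A) (M₁ * q)))) :=
      mgc_chart_isIntegrallyClosed (A₀ := ↥(beta0Ring A (beta0Field A)))
        (E₀ := ↥(beta0Field A)) ((bgJ ↥(beta0Field A) (M₁ * q))⁻¹)
    exact rtk6c4a_cross 𝔫 (rtk6gxiJInv K₁ M H f hf halg) _ (fun _ => rfl) hC V hBV
      (mgvV hπ ιC hq hqM true) (mgvV hπ ιC hq hqM false) hX₁ hY₁ hY₂ hX₂ c₁ c₂ hthr₁ hthr₂
      hc₁ hc₂ 𝒢 h𝒢

end AsmJInv

end Fermat.Agent.RT.K6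

end
end ZBRT_095_13

/-! ### bundled: `Fermat.Agent.RT.K6.C4ThrChiInv` -/
section ZBRT_095_14
/-
K-machine, piece K6, piece **(THR-χ)**, chart `1 / j` (helper66, for helper94's C4-χ-ASM):
`rtk6thrx_hthrInv` = LITERALLY the hypothesis `hthr` of `rtk6c4aj_plusAt_inv` (`C4AsmJInv.lean`)
with `V := rtk6dfV hϖ M H w`, `κ := rtk6dfK hϖ M H w`, the closed point of the base chart written
`rtk6gxiPtInv` (helper54, `GenCrossInv.lean`).  Twin of `rtk6thrx_hthr` (`C4ThrChi.lean`).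
-/

set_option autoImplicit false
set_option linter.style.haveILetI false
set_option linter.unusedSectionVars false
set_option linter.unusedVariables false
set_option linter.style.longLine false

noncomputable section

namespace Fermat.Agent.RT.K6

open ModularCurve AlgebraicCurve Fermat.Agent.ES Fermat.Agent.ES.G2 Fermat.Agent.INJ
open Fermat.Agent.UNIP Fermat.Agent.ES1 Fermat.Agent.ES1.G2 Fermat.Agent.AL IntermediateField
open Fermat.Agent.STB Polynomial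

section MainInv

variable {A : ValuationSubring Qb} {q M₁ : ℕ} [NeZero q] [NeZero M₁] [NeZero (M₁ * q)]
  [IsDiscreteValuationRing ↥(beta0Ring A (beta0Field A))]
  {π : ↥(beta0Ring A (beta0Field A))} (hπ : Irreducible π)
  (ιC : ↥(beta0Field A) →+* ℂ) (hq : q.Prime) (hqM : ¬ q ∣ M₁)
  (K₁ : IntermediateField ℚ Qb) [NumberField ↥K₁] [IsGalois ℚ ↥K₁]
  (M : ℕ) [NeZero M] (H : Subgroup (ZMod M)ˣ)
  (f : ↥(beta0Field A) →+* ↥(mgcE A K₁))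
  (hf : ∀ a : ↥(beta0Field A), ((f a : ↥(mgcE A K₁)) : Qb) = (a : Qb))
  [Algebra ↥(modularFunctionFieldFullC ↥(beta0Field A) (M₁ * q))
    ↥(rtk6diF A K₁ (M₁ * q) M H)]
  (halg : ∀ z : ↥(modularFunctionFieldFullC ↥(beta0Field A) (M₁ * q)),
    algebraMap ↥(modularFunctionFieldFullC ↥(beta0Field A) (M₁ * q))
      ↥(rtk6diF A K₁ (M₁ * q) M H) z = rtk6c4fdIota f (M₁ * q) M H z)
  (hA : A.LiesOverPrime q) {d : ℕ} (hd0 : d ≠ 0) {ϖ : ↥(mgcA A K₁)}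
  (hϖd : ϖ ^ d =
    beta0RingIncl (A := A) (le_sup_left : beta0Field A ≤ beta0Field A ⊔ K₁) π)
  [IsDiscreteValuationRing ↥(mgcA A K₁)] (hϖ : Irreducible ϖ)
  (ιC₁ : ↥(mgcE A K₁) →+* ℂ)
  (w : ↥(rtk6diF A K₁ (M₁ * q) M H) ≃ₐ[↥(mgcE A K₁)] ↥(rtk6diF A K₁ (M₁ * q) M H))

set_option synthInstance.maxHeartbeats 400000 in
set_option maxHeartbeats 1600000 in
include hπ hϖ in
/-- **(THR-χ), chart `1 / j`: LITERALLY the hypothesis `hthr` of helper94's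
`rtk6c4aj_plusAt_inv`** with `V := rtk6dfV hϖ M H w`, `κ := rtk6dfK hϖ M H w`. -/
theorem rtk6thrx_hthrInv (hw : Rtk6dvWIncl ιC₁ hq hqM M H w) (hML : M ∣ M₁ * q)
    (rigid : (q ≠ 2 → 4 ∣ M₁) ∧ (q = 2 → 9 ∣ M₁))
    (𝔫 : AtPt (F := ↥(rtk6diF A K₁ (M₁ * q) M H)) ϖ (rtk6diT A K₁ (M₁ * q) M H)⁻¹) :
    ∀ b : Bool,
      atThrough (rtk6gxiPtInv hq K₁ M H f hf halg hA hd0 hϖd 𝔫) (mgvV hπ ιC hq hqM b) →
      ∃ c : rtk6dfK hϖ M H w, atThrough 𝔫 (rtk6dfV hϖ M H w c) ∧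
        ∀ x : ↥(modularFunctionFieldFullC ↥(beta0Field A) (M₁ * q)),
          algebraMap ↥(modularFunctionFieldFullC ↥(beta0Field A) (M₁ * q))
            ↥(rtk6diF A K₁ (M₁ * q) M H) x ∈ (rtk6dfV hϖ M H w c).nonunits ↔
          x ∈ (mgvV hπ ιC hq hqM b).nonunits :=
  rtk6thrx_hthr_inv hπ ιC hq hqM K₁ M H f hf halg hA hd0 hϖd hϖ ιC₁ w hw hML rigid
    (rtk6gxi_hu_inv K₁ M H f halg) 𝔫

end MainInv

end Fermat.Agent.RT.K6

end
end ZBRT_095_14
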