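/- GENERATED FILE (helper35, build-time optimisation, NOTES/ZB.md): verbatim concatenation of the modules
   Fermat.Agent.RT.K6.GenInstEt
   Fermat.Agent.RT.K6.C4SmConc
   Fermat.Agent.RT.K6.GenInstGen
   Fermat.Agent.RT.K6.GenInstInv
   Fermat.Agent.RT.K6.C4SmConcInv
   Fermat.Agent.RT.K6.C4AsmSm
   Fermat.Agent.RT.K6.C4ChiWireS
   Fermat.Agent.RT.K6.C4AsmCr
   Fermat.Agent.RT.K6.C4AsmThin
   Fermat.Agent.RT.K6.C4AsmThinInv
   Fermat.Agent.RT.K6.ChiJDiv5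
   Do not edit; do not import together with these modules. -/
import Fermat.Agent.ZB.RT_078
import Fermat.Agent.ZB.RT_079
import Fermat.Agent.ZB.RT_089
import Fermat.Agent.ZB.RT_095
import Fermat.Agent.ZB.RT_080
import Fermat.Agent.ZB.RT_077
import Fermat.Agent.ZB.RT_083
import Fermat.Agent.ZB.RT_085
import Fermat.Agent.ZB.RT_084
import Fermat.Agent.ZB.RT_093
import Fermat.Agent.ZB.RT_065

/-! ### bundled: `Fermat.Agent.RT.K6.GenInstEt` -/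
section ZBRT_097_0
/-
K-machine, piece K6, piece GEN-inst (helper74), part 3: **(G-et) and (G-sm)** on the chart `j`,
`F`-level, in the shapes `hSet` of `Rtk6c4Cross` (C4Abs.lean) and `hl` of `rtk6c4sm_smooth_of_gen`
(C4Sm.lean).

`K = FullC E₀ (Mq)` the `Γ₀(Mq)`-field over `E₀ = ℚ̄^I`, `R₀ = zchClosure {j}`, `𝔫` a closed point
of the special fibre of `R₀`; `F` ANY field with a ring homomorphism `φ : K →+* F` (in the
application `F = fieldC E₁ L M H`, `φ = rtk6c4fdIota`); `y ∈ F` a Kummer generator,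
`y ^ d = φ u`, `u ∈ K` with divisor divisible by `d`, unit at `V_∞`, `v_0(u) = v_0(π) ^ n₀`
(N0-inst, helper6).

* `rtk6gi_et_JF`     : **(G-et)** `d ∣ n₀` ⇒ `t = y / φ γ'`, `φ e₂ · t ^ d = φ e₁`, `e₁, e₂ ∈ R₀ ∖ 𝔫`.
* `rtk6gi_et_family` : the same for a finite family: the set `S` of the `t_i`, with `hS`, `hSet`,
                       and `y_i = φ c_i · t_i` (for `hσS`, `hδS`, `hgen`).
* `rtk6gi_sm_JF`     : **(G-sm)** at a point which is not a crossing point, `a n₀ − b d = 1`,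
                       `ϖ₁ ^ d = φ π`: on `Σ_∞` `t = y / φ γ`, on `Σ_0`
                       `t = (y / φ γ) ^ a / (φ π ^ b ϖ₁)`; `φ b' · t ^ d = φ a'`, `a', b' ∈ R₀ ∖ 𝔫`,
                       and `y = φ c · t` resp. `y = φ c · (t ϖ₁) ^ n₀`.
-/

set_option autoImplicit false
set_option linter.style.haveILetI false
set_option linter.unusedSectionVars false
set_option linter.unusedVariables false
set_option linter.style.longLine false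
set_option synthInstance.maxHeartbeats 400000
set_option maxHeartbeats 4000000

noncomputable section

namespace Fermat.Agent.RT.K6

open ModularCurve Polynomial IntermediateField Fermat.Agent.INJ Fermat.Agent.AL AlgebraicCurve
open Fermat.Agent.ES Fermat.Agent.ES.G2 Fermat.Agent.STB Fermat.Agent.UNIP Fermat.Agent.S36
open Fermat.Agent.RIB.MP

section Base

variable {A : ValuationSubring Qb} {q M : ℕ} [NeZero q] [NeZero M] [NeZero (M * q)]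
  [IsDiscreteValuationRing ↥(beta0Ring A (beta0Field A))]
  {π : ↥(beta0Ring A (beta0Field A))} (hπ : Irreducible π)
  (ιC : ↥(beta0Field A) →+* ℂ) (hq : q.Prime) (hqM : ¬ q ∣ M)

variable {F : Type*} [Field F] (φ : ↥(modularFunctionFieldFullC ↥(beta0Field A) (M * q)) →+* F)

include hπ ιC hq hqM in
/-- **(G-et)**, one generator: `t = y / φ γ'` with `φ e₂ · t ^ m = φ e₁`, `e₁, e₂ ∈ R₀ ∖ 𝔫`. -/
theorem rtk6gi_et_JF (hA : A.LiesOverPrime q)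
    (rigid : (q ≠ 2 → 4 ∣ M) ∧ (q = 2 → 9 ∣ M))
    (m : ℕ) {y : F} {u : ↥(modularFunctionFieldFullC ↥(beta0Field A) (M * q))} (hyu : y ^ m = φ u) (hu : u ≠ 0)
    (hhor : ∀ P : Place ↥(beta0Field A) ↥(modularFunctionFieldFullC ↥(beta0Field A) (M * q)), (m : ℤ) ∣ P.ord u)
    (hy₁ : (mgvV hπ ιC hq hqM true).valuation u = 1) {n₀ : ℤ}
    (hn₀ : (mgvV hπ ιC hq hqM false).valuation u = (mgvV hπ ιC hq hqM false).valuation
      (algebraMap ↥(beta0Ring A (beta0Field A)) ↥(modularFunctionFieldFullC ↥(beta0Field A) (M * q)) π) ^ n₀)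
    (hdvd : (m : ℤ) ∣ n₀)
    (𝔫 : AtPt (F := ↥(modularFunctionFieldFullC ↥(beta0Field A) (M * q))) π (bgJ ↥(beta0Field A) (M * q))) :
    ∃ (γ' : ↥(modularFunctionFieldFullC ↥(beta0Field A) (M * q))) (e₁ e₂ : ↥(zchClosure (A₀ := ↥(beta0Ring A (beta0Field A))) ({bgJ ↥(beta0Field A) (M * q)} : Set ↥(modularFunctionFieldFullC ↥(beta0Field A) (M * q))))), γ' ≠ 0 ∧ e₁ ∉ 𝔫.1 ∧ e₂ ∉ 𝔫.1 ∧
      φ (e₂ : ↥(modularFunctionFieldFullC ↥(beta0Field A) (M * q))) * (y / φ γ') ^ m = φ (e₁ : ↥(modularFunctionFieldFullC ↥(beta0Field A) (M * q))) ∧ y = φ γ' * (y / φ γ') := by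
  obtain ⟨γ', e₁, e₂, hγ', he₁, he₂, h⟩ :=
    rtk6gi_et_J hπ ιC hq hqM hA rigid m hu hhor hy₁ hn₀ hdvd 𝔫
  refine ⟨γ', e₁, e₂, hγ', he₁, he₂, rtk6gi_t_pow_hom φ hyu hγ' h, ?_⟩
  rw [mul_div_cancel₀ _ ((map_ne_zero φ).2 hγ')]

include hπ ιC hq hqM in
/-- **(G-et)**, finite family: the set `S` of the étale generators at the point `𝔫`, with the
fields `hS`, `hSet` of `Rtk6c4Cross` and the relation to the `y_i`. -/
theorem rtk6gi_et_family (hA : A.LiesOverPrime q)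
    (rigid : (q ≠ 2 → 4 ∣ M) ∧ (q = 2 → 9 ∣ M))
    (m : ℕ) {ι : Type*} [Finite ι] (y : ι → F) (u : ι → ↥(modularFunctionFieldFullC ↥(beta0Field A) (M * q))) (n₀ : ι → ℤ)
    (hyu : ∀ i, y i ^ m = φ (u i)) (hu : ∀ i, u i ≠ 0)
    (hhor : ∀ i, ∀ P : Place ↥(beta0Field A) ↥(modularFunctionFieldFullC ↥(beta0Field A) (M * q)), (m : ℤ) ∣ P.ord (u i))
    (hy₁ : ∀ i, (mgvV hπ ιC hq hqM true).valuation (u i) = 1)
    (hn₀ : ∀ i, (mgvV hπ ιC hq hqM false).valuation (u i) =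
      (mgvV hπ ιC hq hqM false).valuation
        (algebraMap ↥(beta0Ring A (beta0Field A)) ↥(modularFunctionFieldFullC ↥(beta0Field A) (M * q)) π) ^ n₀ i)
    (hdvd : ∀ i, (m : ℤ) ∣ n₀ i)
    (𝔫 : AtPt (F := ↥(modularFunctionFieldFullC ↥(beta0Field A) (M * q))) π (bgJ ↥(beta0Field A) (M * q))) :
    ∃ S : Set F, S.Finite ∧
      (∀ t ∈ S, ∃ a b : ↥(zchClosure (A₀ := ↥(beta0Ring A (beta0Field A))) ({bgJ ↥(beta0Field A) (M * q)} : Set ↥(modularFunctionFieldFullC ↥(beta0Field A) (M * q)))), a ∉ 𝔫.1 ∧ b ∉ 𝔫.1 ∧ φ (b : ↥(modularFunctionFieldFullC ↥(beta0Field A) (M * q))) * t ^ m = φ (a : ↥(modularFunctionFieldFullC ↥(beta0Field A) (M * q)))) ∧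
      (∀ t ∈ S, ∃ i, ∃ c : ↥(modularFunctionFieldFullC ↥(beta0Field A) (M * q)), c ≠ 0 ∧ t = y i / φ c) ∧
      (∀ i, ∃ t ∈ S, ∃ c : ↥(modularFunctionFieldFullC ↥(beta0Field A) (M * q)), c ≠ 0 ∧ y i = φ c * t) := by
  have key := fun i => rtk6gi_et_JF hπ ιC hq hqM φ hA rigid m (hyu i) (hu i) (hhor i) (hy₁ i)
    (hn₀ i) (hdvd i) 𝔫
  choose γ' e₁ e₂ hγ' he₁ he₂ hpow hy using key
  refine ⟨Set.range fun i => y i / φ (γ' i), Set.finite_range _, ?_, ?_, ?_⟩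
  · rintro t ⟨i, rfl⟩
    exact ⟨e₁ i, e₂ i, he₁ i, he₂ i, hpow i⟩
  · rintro t ⟨i, rfl⟩
    exact ⟨i, γ' i, hγ' i, rfl⟩
  · intro i
    exact ⟨y i / φ (γ' i), ⟨i, rfl⟩, γ' i, hγ' i, hy i⟩

include hπ ιC hq hqM in
/-- **(G-sm)**: the generator for `ψ_r` at a closed point `𝔫` which is NOT a crossing point. -/
theorem rtk6gi_sm_JF (hA : A.LiesOverPrime q)
    (rigid : (q ≠ 2 → 4 ∣ M) ∧ (q = 2 → 9 ∣ M))
    (m : ℕ) {y ϖ₁ : F} {u : ↥(modularFunctionFieldFullC ↥(beta0Field A) (M * q))} (hyu : y ^ m = φ u) (hu : u ≠ 0)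
    (hhor : ∀ P : Place ↥(beta0Field A) ↥(modularFunctionFieldFullC ↥(beta0Field A) (M * q)), (m : ℤ) ∣ P.ord u)
    (hy₁ : (mgvV hπ ιC hq hqM true).valuation u = 1) {n₀ : ℤ}
    (hn₀ : (mgvV hπ ιC hq hqM false).valuation u = (mgvV hπ ιC hq hqM false).valuation
      (algebraMap ↥(beta0Ring A (beta0Field A)) ↥(modularFunctionFieldFullC ↥(beta0Field A) (M * q)) π) ^ n₀)
    {a b : ℤ} (hab : a * n₀ - b * m = 1)
    (hϖ : ϖ₁ ^ m = φ (algebraMap ↥(beta0Ring A (beta0Field A)) ↥(modularFunctionFieldFullC ↥(beta0Field A) (M * q)) π))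
    (𝔫 : AtPt (F := ↥(modularFunctionFieldFullC ↥(beta0Field A) (M * q))) π (bgJ ↥(beta0Field A) (M * q)))
    (hnc : ¬ (atThrough 𝔫 (mgvV hπ ιC hq hqM true) ∧ atThrough 𝔫 (mgvV hπ ιC hq hqM false))) :
    ∃ (t : F) (a' b' : ↥(zchClosure (A₀ := ↥(beta0Ring A (beta0Field A))) ({bgJ ↥(beta0Field A) (M * q)} : Set ↥(modularFunctionFieldFullC ↥(beta0Field A) (M * q))))) (c : ↥(modularFunctionFieldFullC ↥(beta0Field A) (M * q))), a' ∉ 𝔫.1 ∧ b' ∉ 𝔫.1 ∧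
      φ (b' : ↥(modularFunctionFieldFullC ↥(beta0Field A) (M * q))) * t ^ m = φ (a' : ↥(modularFunctionFieldFullC ↥(beta0Field A) (M * q))) ∧ c ≠ 0 ∧
      ((atThrough 𝔫 (mgvV hπ ιC hq hqM true) ∧ y = φ c * t) ∨
        (atThrough 𝔫 (mgvV hπ ιC hq hqM false) ∧ y = φ c * (t * ϖ₁) ^ n₀)) := by
  haveI := 𝔫.2.1.isPrime
  have hπ0 : algebraMap ↥(beta0Ring A (beta0Field A)) ↥(modularFunctionFieldFullC ↥(beta0Field A) (M * q)) π ≠ 0 := ribmp_fc_hπ0 hπ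
  have hne : ∀ e : ↥(zchClosure (A₀ := ↥(beta0Ring A (beta0Field A))) ({bgJ ↥(beta0Field A) (M * q)} : Set ↥(modularFunctionFieldFullC ↥(beta0Field A) (M * q)))), e ∉ 𝔫.1 → (e : ↥(modularFunctionFieldFullC ↥(beta0Field A) (M * q))) ≠ 0 := fun e he h0 =>
    he ((Subtype.ext h0 : e = 0) ▸ 𝔫.1.zero_mem)
  rcases rtk6gi_LF_J hπ ιC hq hqM hA rigid m hu hhor hy₁ hn₀ 𝔫 with
    ⟨X, Y, h, -⟩ | ⟨h1, h2, hs, γ, e₁, e₂, hγ, he₁, he₂, h⟩ |
    ⟨h1, h2, hs, γ, e₁, e₂, hγ, he₁, he₂, h⟩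
  · exact absurd ⟨h.1, h.2.1⟩ hnc
  · -- `Σ_0`
    have hpow := rtk6gi_sm_zero_pow_hom φ hyu hγ hπ0 (hne e₂ he₂) hϖ hab h
    have hγF : φ γ ≠ 0 := (map_ne_zero φ).2 hγ
    have hπF : φ (algebraMap ↥(beta0Ring A (beta0Field A)) ↥(modularFunctionFieldFullC ↥(beta0Field A) (M * q)) π) ≠ 0 :=
      (map_ne_zero φ).2 hπ0
    have he₁F : φ (e₁ : ↥(modularFunctionFieldFullC ↥(beta0Field A) (M * q))) ≠ 0 := (map_ne_zero φ).2 (hne e₁ he₁)
    have he₂F : φ (e₂ : ↥(modularFunctionFieldFullC ↥(beta0Field A) (M * q))) ≠ 0 := (map_ne_zero φ).2 (hne e₂ he₂)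
    have hm : 0 < m := by
      rcases Nat.eq_zero_or_pos m with hm | hm
      · exfalso
        subst hm
        rw [pow_zero] at hϖ
        have h1 : algebraMap ↥(beta0Ring A (beta0Field A)) ↥(modularFunctionFieldFullC ↥(beta0Field A) (M * q)) π = 1 :=
          φ.injective (by rw [← hϖ, map_one])
        have h3 := mgv_hπV hπ ιC hq hqM false
        rw [h1, ValuationSubring.mem_nonunits_iff, map_one] at h3
        exact lt_irrefl _ h3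
      · exact hm
    have hϖ0 : ϖ₁ ≠ 0 := by
      intro h0
      rw [h0, zero_pow hm.ne'] at hϖ
      exact hπF hϖ.symm
    -- the fraction form of `t ^ m = (e₁ / e₂) ^ a`
    obtain ⟨a', b', ha', hb', hab'⟩ : ∃ a' b' : ↥(zchClosure (A₀ := ↥(beta0Ring A (beta0Field A))) ({bgJ ↥(beta0Field A) (M * q)} : Set ↥(modularFunctionFieldFullC ↥(beta0Field A) (M * q)))), a' ∉ 𝔫.1 ∧ b' ∉ 𝔫.1 ∧
        φ (b' : ↥(modularFunctionFieldFullC ↥(beta0Field A) (M * q))) * (φ (e₁ : ↥(modularFunctionFieldFullC ↥(beta0Field A) (M * q))) / φ (e₂ : ↥(modularFunctionFieldFullC ↥(beta0Field A) (M * q)))) ^ a = φ (a' : ↥(modularFunctionFieldFullC ↥(beta0Field A) (M * q))) := by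
      rcases le_total 0 a with ha | ha
      · obtain ⟨n, rfl⟩ := Int.eq_ofNat_of_zero_le ha
        refine ⟨e₁ ^ n, e₂ ^ n, fun h => he₁ (‹𝔫.1.IsPrime›.mem_of_pow_mem n h),
          fun h => he₂ (‹𝔫.1.IsPrime›.mem_of_pow_mem n h), ?_⟩
        rw [zpow_natCast, div_pow]
        push_cast
        rw [map_pow, map_pow, mul_div_assoc', mul_comm, mul_div_assoc,
          div_self (pow_ne_zero _ he₂F), mul_one]
      · obtain ⟨n, rfl⟩ := Int.exists_eq_neg_ofNat ha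
        refine ⟨e₂ ^ n, e₁ ^ n, fun h => he₂ (‹𝔫.1.IsPrime›.mem_of_pow_mem n h),
          fun h => he₁ (‹𝔫.1.IsPrime›.mem_of_pow_mem n h), ?_⟩
        rw [zpow_neg, zpow_natCast, ← inv_pow, inv_div, div_pow]
        push_cast
        rw [map_pow, map_pow, mul_div_assoc', mul_comm, mul_div_assoc,
          div_self (pow_ne_zero _ he₁F), mul_one]
    refine ⟨(y / φ γ) ^ a / (φ (algebraMap ↥(beta0Ring A (beta0Field A)) ↥(modularFunctionFieldFullC ↥(beta0Field A) (M * q)) π) ^ b * ϖ₁),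
      a', b', γ * (((e₁ : ↥(modularFunctionFieldFullC ↥(beta0Field A) (M * q))) / (e₂ : ↥(modularFunctionFieldFullC ↥(beta0Field A) (M * q)))) ^ b)⁻¹, ha', hb', ?_,
      mul_ne_zero hγ (inv_ne_zero (zpow_ne_zero _ (div_ne_zero (hne e₁ he₁) (hne e₂ he₂)))),
      Or.inr ⟨h1, ?_⟩⟩
    · rw [hpow]
      exact hab'
    · -- `y = γ ε^{-b} (t ϖ₁)^{n₀}`
      have hF := rtk6gi_LF_lift_hom φ hyu h
      have hyΓ : (y / φ γ) ^ m = φ (e₁ : ↥(modularFunctionFieldFullC ↥(beta0Field A) (M * q))) / φ (e₂ : ↥(modularFunctionFieldFullC ↥(beta0Field A) (M * q))) *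
          φ (algebraMap ↥(beta0Ring A (beta0Field A)) ↥(modularFunctionFieldFullC ↥(beta0Field A) (M * q)) π) ^ n₀ := by
        rw [div_pow, div_eq_iff (pow_ne_zero _ hγF), div_mul_eq_mul_div, div_mul_eq_mul_div,
          eq_div_iff he₂F, mul_comm]
        exact hF
      have hy0 : y / φ γ ≠ 0 := by
        intro h0
        rw [h0, zero_pow hm.ne'] at hyΓ
        exact mul_ne_zero (div_ne_zero he₁F he₂F) (zpow_ne_zero _ hπF) hyΓ.symm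
      have hrel := rtk6gi_sm_zero_rel (T := y / φ γ)
        (P := φ (algebraMap ↥(beta0Ring A (beta0Field A))
          ↥(modularFunctionFieldFullC ↥(beta0Field A) (M * q)) π))
        (E := φ (e₁ : ↥(modularFunctionFieldFullC ↥(beta0Field A) (M * q))) /
          φ (e₂ : ↥(modularFunctionFieldFullC ↥(beta0Field A) (M * q))))
        (ϖ₁ := ϖ₁) (d := m) (n₀ := n₀) (a := a) (b := b) hy0 hπF hϖ0 hab hyΓ
      have hE0 : (φ (e₁ : ↥(modularFunctionFieldFullC ↥(beta0Field A) (M * q))) /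
          φ (e₂ : ↥(modularFunctionFieldFullC ↥(beta0Field A) (M * q)))) ^ b ≠ 0 :=
        zpow_ne_zero _ (div_ne_zero he₁F he₂F)
      rw [hrel, map_mul, map_inv₀, map_zpow₀, map_div₀, mul_assoc, mul_comm (y / φ γ),
        ← mul_assoc _ _ (y / φ γ), inv_mul_cancel₀ hE0, one_mul,
        mul_div_cancel₀ _ hγF]
  · -- `Σ_∞`
    refine ⟨y / φ γ, e₁, e₂, γ, he₁, he₂, rtk6gi_t_pow_hom φ hyu hγ h, hγ, Or.inl ⟨h1, ?_⟩⟩
    rw [mul_div_cancel₀ _ ((map_ne_zero φ).2 hγ)]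

end Base

end Fermat.Agent.RT.K6

end


end ZBRT_097_0

/-! ### bundled: `Fermat.Agent.RT.K6.C4SmConc` -/
section ZBRT_097_1
/-
K-machine, piece K6, piece C4-SM (helper86), part 5, (SM-inst): **the CONCRETE structure
`Rtk6c4Sm`** (`C4SmR0.lean`) at a closed point of the chart `j` of `F = rtk6diF A K₁ (M₁ q) M H`
(over `A₁ = mgcA A K₁`, uniformizer `ϖ`, `ϖ ^ e = π`) lying over a SMOOTH point of the chart `j` of
the `Γ₀`-field `K = F_{M₁ q}(ℚ̄^I)` (over the unramified base `A₀ = A ∩ ℚ̄^I`, uniformizer `π`),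
rigid level.  The concrete twin of helper54's `rtk6gxi_cross` (`GenCrossInst.lean`), in the same
setting (`rtk6gxiJ`, `rtk6gxiPt`, `[Algebra K F]` with `halg`).

Inputs (global, in the shapes of helper74's `rtk6gi_sm_JF`, `rtk6gi_et_family`):
* the ramified Kummer generator `y` (`y ^ e = z ∈ K`, `e ∣ ord_P z`, `v_∞(z) = 1`,
  `v_0(z) = v_0(π) ^ n₀`, `a n₀ − b e = 1`);
* the étale Kummer generators `yy i` (`yy i ^ m = uu i ∈ K`, `m ∣ ord_P (uu i)`, `v_∞ = 1`,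
  `v_0(uu i) = v_0(π) ^ nn i`, `m ∣ nn i`);
* generation `F = K[ϖ, y, yy i]`.

* `rtk6c4smc_not_cross` : a smooth point of the base chart is not a crossing point;
* `rtk6c4smc_sm`        : **`∃ S, Rtk6c4Sm j ι 𝔫 (m e) e π s₀ S ϖ`**;
* `rtk6c4smc_nodeAt`    : **`Rtk6ewmNodeAt V 𝔫 (RingHom.id _) ϖ`** for every family `V`.
-/

set_option autoImplicit false
set_option linter.style.haveILetI false
set_option linter.unusedSectionVars false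
set_option linter.unusedVariables false
set_option linter.style.longLine false
set_option synthInstance.maxHeartbeats 400000
set_option maxHeartbeats 4000000

noncomputable section

namespace Fermat.Agent.RT.K6

open ModularCurve Polynomial IntermediateField Fermat.Agent.INJ Fermat.Agent.AL AlgebraicCurve
open Fermat.Agent.ES Fermat.Agent.ES.G2 Fermat.Agent.STB Fermat.Agent.UNIP Fermat.Agent.S36
open Fermat.Agent.RIB.MP Fermat.Agent.ES1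

section Alg

variable {K F : Type*} [Field K] [Field F] [Algebra K F]

/-- a subalgebra of a field containing an element algebraic over the base contains its integral
powers -/
theorem rtk6c4smc_zpow_mem (T : Subalgebra K F) {x : F} (hx : x ∈ T) (hxi : IsIntegral K x)
    (n : ℤ) : x ^ n ∈ T := by
  have hinv : x⁻¹ ∈ T := by
    have := Subalgebra.inv_mem_of_algebraic (A := T) (x := ⟨x, hx⟩) hxi.isAlgebraic
    exact this
  rcases le_total 0 n with hn | hn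
  · obtain ⟨k, rfl⟩ := Int.eq_ofNat_of_zero_le hn
    rw [zpow_natCast]
    exact Subalgebra.pow_mem _ hx k
  · obtain ⟨k, rfl⟩ := Int.exists_eq_neg_ofNat hn
    rw [zpow_neg, zpow_natCast, ← inv_pow]
    exact Subalgebra.pow_mem _ hinv k

end Alg

section Base

variable {A : ValuationSubring Qb} {q M₁ : ℕ} [NeZero q] [NeZero M₁] [NeZero (M₁ * q)]
  [IsDiscreteValuationRing ↥(beta0Ring A (beta0Field A))]
  {π : ↥(beta0Ring A (beta0Field A))} (hπ : Irreducible π)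
  (ιC : ↥(beta0Field A) →+* ℂ) (hq : q.Prime) (hqM : ¬ q ∣ M₁)

include hπ ιC hq hqM in
/-- **a smooth point of the base chart `j` is not a crossing point** -/
theorem rtk6c4smc_not_cross (hA : A.LiesOverPrime q)
    (rigid : (q ≠ 2 → 4 ∣ M₁) ∧ (q = 2 → 9 ∣ M₁))
    (𝔫 : AtPt (F := ↥(modularFunctionFieldFullC ↥(beta0Field A) (M₁ * q))) π
      (bgJ ↥(beta0Field A) (M₁ * q)))
    {s : ↥(zchClosure (A₀ := ↥(beta0Ring A (beta0Field A)))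
      ({bgJ ↥(beta0Field A) (M₁ * q)} :
        Set ↥(modularFunctionFieldFullC ↥(beta0Field A) (M₁ * q))))} (hs : s ∈ 𝔫.1)
    (hgen : NodesLocGen 𝔫.1 {algebraMap ↥(beta0Ring A (beta0Field A))
      ↥(zchClosure (A₀ := ↥(beta0Ring A (beta0Field A)))
        ({bgJ ↥(beta0Field A) (M₁ * q)} :
          Set ↥(modularFunctionFieldFullC ↥(beta0Field A) (M₁ * q)))) π, s}) :
    ¬ (atThrough 𝔫 (mgvV hπ ιC hq hqM true) ∧ atThrough 𝔫 (mgvV hπ ιC hq hqM false)) := by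
  rintro ⟨h₁, h₂⟩
  obtain ⟨c, -, hone, -⟩ := rtk6lfb_smooth_LF_J hπ ιC hq hqM hA le_rfl
    (rtk6lfb_rigid_h2 rigid) (rtk6lfb_rigid_h3 rigid) 𝔫 hs hgen 1
    (y := 1) one_ne_zero (fun P _ => one_dvd _)
  have e1 := hone true h₁
  have e2 := hone false h₂
  rw [← e2] at e1
  exact Bool.noConfusion e1

end Base

section Conc

variable {A : ValuationSubring Qb} {q M₁ : ℕ} [NeZero q] [NeZero M₁] [NeZero (M₁ * q)]
  [IsDiscreteValuationRing ↥(beta0Ring A (beta0Field A))]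
  {π : ↥(beta0Ring A (beta0Field A))} (hπ : Irreducible π)
  (ιC : ↥(beta0Field A) →+* ℂ) (hq : q.Prime) (hqM : ¬ q ∣ M₁)
  (K₁ : IntermediateField ℚ Qb) [NumberField ↥K₁] [IsGalois ℚ ↥K₁]
  [IsDiscreteValuationRing ↥(mgcA A K₁)]
  (M : ℕ) [NeZero M] (H : Subgroup (ZMod M)ˣ)
  (f : ↥(beta0Field A) →+* ↥(mgcE A K₁))
  (hf : ∀ a : ↥(beta0Field A), ((f a : ↥(mgcE A K₁)) : Qb) = (a : Qb))
  [Algebra ↥(modularFunctionFieldFullC ↥(beta0Field A) (M₁ * q))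
    ↥(rtk6diF A K₁ (M₁ * q) M H)]
  (halg : ∀ z : ↥(modularFunctionFieldFullC ↥(beta0Field A) (M₁ * q)),
    algebraMap ↥(modularFunctionFieldFullC ↥(beta0Field A) (M₁ * q))
      ↥(rtk6diF A K₁ (M₁ * q) M H) z = rtk6c4fdIota f (M₁ * q) M H z)
  (hA : A.LiesOverPrime q) {e : ℕ} (he0 : e ≠ 0) {ϖ : ↥(mgcA A K₁)}
  (hϖe : ϖ ^ e =
    beta0RingIncl (A := A) (le_sup_left : beta0Field A ≤ beta0Field A ⊔ K₁) π)

include hπ ιC hqM in
/-- **(SM-inst): the concrete structure `Rtk6c4Sm`** at a closed point `𝔫` of the chart `j` of `F`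
over a smooth point `(π, s₀)` of the chart `j` of `K`. -/
theorem rtk6c4smc_sm (rigid : (q ≠ 2 → 4 ∣ M₁) ∧ (q = 2 → 9 ∣ M₁)) (hqe : ¬ q ∣ e)
    {m : ℕ} (hm0 : m ≠ 0) (hqm : ¬ q ∣ m)
    (𝔫 : AtPt (F := ↥(rtk6diF A K₁ (M₁ * q) M H)) ϖ (rtk6diT A K₁ (M₁ * q) M H))
    {s₀ : ↥(zchClosure (A₀ := ↥(beta0Ring A (beta0Field A)))
      ({bgJ ↥(beta0Field A) (M₁ * q)} :
        Set ↥(modularFunctionFieldFullC ↥(beta0Field A) (M₁ * q))))}
    (hs₀ : s₀ ∈ (rtk6gxiPt hq K₁ M H f hf halg hA he0 hϖe 𝔫).1)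
    (hgen₀ : NodesLocGen (rtk6gxiPt hq K₁ M H f hf halg hA he0 hϖe 𝔫).1
      {algebraMap ↥(beta0Ring A (beta0Field A))
        ↥(zchClosure (A₀ := ↥(beta0Ring A (beta0Field A)))
          ({bgJ ↥(beta0Field A) (M₁ * q)} :
            Set ↥(modularFunctionFieldFullC ↥(beta0Field A) (M₁ * q)))) π, s₀})
    -- the ramified Kummer generator `y`, `y ^ e = z ∈ K`
    {z : ↥(modularFunctionFieldFullC ↥(beta0Field A) (M₁ * q))} (hz0 : z ≠ 0)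
    (hhor : ∀ P : Place ↥(beta0Field A) ↥(modularFunctionFieldFullC ↥(beta0Field A) (M₁ * q)),
      (e : ℤ) ∣ P.ord z)
    (hz₁ : (mgvV hπ ιC hq hqM true).valuation z = 1) {n₀ : ℤ}
    (hn₀ : (mgvV hπ ιC hq hqM false).valuation z = (mgvV hπ ιC hq hqM false).valuation
      (algebraMap ↥(beta0Ring A (beta0Field A))
        ↥(modularFunctionFieldFullC ↥(beta0Field A) (M₁ * q)) π) ^ n₀)
    {y : ↥(rtk6diF A K₁ (M₁ * q) M H)}
    (hzy : algebraMap ↥(modularFunctionFieldFullC ↥(beta0Field A) (M₁ * q))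
      ↥(rtk6diF A K₁ (M₁ * q) M H) z = y ^ e)
    {a b : ℤ} (hab : a * n₀ - b * e = 1)
    -- the étale Kummer generators `yy i`, `yy i ^ m = uu i ∈ K`
    {ι : Type*} [Finite ι] (yy : ι → ↥(rtk6diF A K₁ (M₁ * q) M H))
    (uu : ι → ↥(modularFunctionFieldFullC ↥(beta0Field A) (M₁ * q))) (nn : ι → ℤ)
    (hyu : ∀ i, yy i ^ m = algebraMap ↥(modularFunctionFieldFullC ↥(beta0Field A) (M₁ * q))
      ↥(rtk6diF A K₁ (M₁ * q) M H) (uu i))
    (hu : ∀ i, uu i ≠ 0)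
    (hhor' : ∀ i, ∀ P : Place ↥(beta0Field A)
      ↥(modularFunctionFieldFullC ↥(beta0Field A) (M₁ * q)), (m : ℤ) ∣ P.ord (uu i))
    (hy₁' : ∀ i, (mgvV hπ ιC hq hqM true).valuation (uu i) = 1)
    (hn₀' : ∀ i, (mgvV hπ ιC hq hqM false).valuation (uu i) =
      (mgvV hπ ιC hq hqM false).valuation
        (algebraMap ↥(beta0Ring A (beta0Field A))
          ↥(modularFunctionFieldFullC ↥(beta0Field A) (M₁ * q)) π) ^ nn i)
    (hdvd : ∀ i, (m : ℤ) ∣ nn i)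
    -- generation
    (hgen : Algebra.adjoin ↥(modularFunctionFieldFullC ↥(beta0Field A) (M₁ * q))
      (({algebraMap ↥(mgcA A K₁) ↥(rtk6diF A K₁ (M₁ * q) M H) ϖ, y} :
        Set ↥(rtk6diF A K₁ (M₁ * q) M H)) ∪ Set.range yy) = ⊤) :
    ∃ S : Set ↥(rtk6diF A K₁ (M₁ * q) M H),
      Rtk6c4Sm (K := ↥(modularFunctionFieldFullC ↥(beta0Field A) (M₁ * q)))
        (rtk6gxiJ K₁ M H f hf halg)
        (algebraMap ↥(zchClosure (A₀ := ↥(mgcA A K₁))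
          ({rtk6diT A K₁ (M₁ * q) M H} : Set ↥(rtk6diF A K₁ (M₁ * q) M H)))
          ↥(rtk6diF A K₁ (M₁ * q) M H)) 𝔫.1 (m * e) e
        (algebraMap ↥(beta0Ring A (beta0Field A))
          ↥(zchClosure (A₀ := ↥(beta0Ring A (beta0Field A)))
            ({bgJ ↥(beta0Field A) (M₁ * q)} :
              Set ↥(modularFunctionFieldFullC ↥(beta0Field A) (M₁ * q)))) π) s₀ S
        (algebraMap ↥(mgcA A K₁) ↥(rtk6diF A K₁ (M₁ * q) M H) ϖ) := by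
  classical
  haveI h𝔫₀p : (rtk6gxiPt hq K₁ M H f hf halg hA he0 hϖe 𝔫).1.IsPrime :=
    (rtk6gxiPt hq K₁ M H f hf halg hA he0 hϖe 𝔫).2.1.isPrime
  -- abbreviations
  set φ := algebraMap ↥(modularFunctionFieldFullC ↥(beta0Field A) (M₁ * q))
    ↥(rtk6diF A K₁ (M₁ * q) M H) with hφ
  set ϖ₁ := algebraMap ↥(mgcA A K₁) ↥(rtk6diF A K₁ (M₁ * q) M H) ϖ with hϖ₁
  have hϖpow : ϖ₁ ^ e = φ (algebraMap ↥(beta0Ring A (beta0Field A))
      ↥(modularFunctionFieldFullC ↥(beta0Field A) (M₁ * q)) π) := by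
    rw [hϖ₁, ← map_pow, hϖe]
    exact (rtk6gxi_hgφ K₁ M H f hf halg π).symm
  -- the point is not a crossing point
  have hnc := rtk6c4smc_not_cross hπ ιC hq hqM hA rigid
    (rtk6gxiPt hq K₁ M H f hf halg hA he0 hϖe 𝔫) hs₀ hgen₀
  -- (G-et)
  obtain ⟨S₁, hS₁, hSet₁, -, hyS₁⟩ := rtk6gi_et_family hπ ιC hq hqM φ hA rigid m yy uu nn hyu hu
    hhor' hy₁' hn₀' hdvd (rtk6gxiPt hq K₁ M H f hf halg hA he0 hϖe 𝔫)
  -- (G-sm)
  obtain ⟨t, a', b', c, ha', hb', hpow, hc, hyt⟩ := rtk6gi_sm_JF hπ ιC hq hqM φ hA rigid e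
    hzy.symm hz0 hhor hz₁ hn₀ hab hϖpow (rtk6gxiPt hq K₁ M H f hf halg hA he0 hϖe 𝔫) hnc
  -- `d ∉ 𝔫`
  have hcop : Nat.Coprime (m * e) q := by
    apply Nat.Coprime.mul_left
    · exact Nat.coprime_comm.1 ((Nat.Prime.coprime_iff_not_dvd hq).2 hqm)
    · exact Nat.coprime_comm.1 ((Nat.Prime.coprime_iff_not_dvd hq).2 hqe)
  have hdn : (((m * e : ℕ) : ℕ) : ↥(zchClosure (A₀ := ↥(mgcA A K₁))
      ({rtk6diT A K₁ (M₁ * q) M H} : Set ↥(rtk6diF A K₁ (M₁ * q) M H)))) ∉ 𝔫.1 :=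
    rtk6gxi_natCast_not_mem 𝔫.1 𝔫.2.1.ne_top (rtk6gxi_q_mem hπ hq K₁ M H hA he0 hϖe 𝔫) hcop
  -- integrality of `t` and `ϖ₁` over `K`
  have hb'0 : (b' : ↥(modularFunctionFieldFullC ↥(beta0Field A) (M₁ * q))) ≠ 0 := fun h0 =>
    hb' ((Subtype.ext h0 : b' = 0) ▸ Ideal.zero_mem _)
  have hepos : 0 < e := Nat.pos_of_ne_zero he0
  have htint : IsIntegral ↥(modularFunctionFieldFullC ↥(beta0Field A) (M₁ * q)) t := by
    apply IsIntegral.of_pow hepos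
    have h1 : t ^ e = φ ((a' : ↥(modularFunctionFieldFullC ↥(beta0Field A) (M₁ * q))) /
        (b' : ↥(modularFunctionFieldFullC ↥(beta0Field A) (M₁ * q)))) := by
      rw [map_div₀, eq_div_iff ((map_ne_zero φ).2 hb'0), ← hpow]
      exact mul_comm _ _
    rw [h1]
    exact isIntegral_algebraMap
  have hϖint : IsIntegral ↥(modularFunctionFieldFullC ↥(beta0Field A) (M₁ * q)) ϖ₁ := by
    apply IsIntegral.of_pow hepos
    rw [hϖpow]
    exact isIntegral_algebraMap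
  refine ⟨insert t S₁, rtk6c4smi_mk (E₀ := ↥(beta0Field A)) hπ (bgJ ↥(beta0Field A) (M₁ * q))
    (mgvV hπ ιC hq hqM) (mgv_hBV₁ hπ ιC hq hqM) (mgv_hπV hπ ιC hq hqM)
    (ribmp_fc_hSS1 hπ ιC hq hqM hA le_rfl (rtk6lfb_rigid_h2 rigid) (rtk6lfb_rigid_h3 rigid))
    𝔫 (rtk6gxiJ K₁ M H f hf halg) _ (fun _ => rfl) (fun _ => rfl)
    (fun b => rtk6gxa_hint _ (rtk6gxi_hgφ K₁ M H f hf halg) (rtk6gxi_hu K₁ M H f halg)
      (rtk6gxi_hg K₁ hq hA) b)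
    (fun x hx => ⟨⟨x, rtk6gxa_hcl _ (rtk6gxi_hgφ K₁ M H f hf halg)
      (rtk6gxi_hu K₁ M H f halg) hx⟩, rfl⟩)
    (by rw [map_natCast]; exact hdn)
    (rtk6gxiPt hq K₁ M H f hf halg hA he0 hϖe 𝔫) rfl hs₀ hgen₀ he0 hϖpow
    (hS₁.insert t) ?_ ?_⟩
  · -- hSet, exponent `m * e`
    have hkey : ∀ r : ↥(zchClosure (A₀ := ↥(beta0Ring A (beta0Field A)))
        ({bgJ ↥(beta0Field A) (M₁ * q)} :
          Set ↥(modularFunctionFieldFullC ↥(beta0Field A) (M₁ * q)))),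
        algebraMap ↥(zchClosure (A₀ := ↥(beta0Ring A (beta0Field A)))
          ({bgJ ↥(beta0Field A) (M₁ * q)} :
            Set ↥(modularFunctionFieldFullC ↥(beta0Field A) (M₁ * q))))
          ↥(rtk6diF A K₁ (M₁ * q) M H) r =
        φ (r : ↥(modularFunctionFieldFullC ↥(beta0Field A) (M₁ * q))) := fun _ => rfl
    intro x hx
    rcases hx with rfl | hx
    · refine ⟨a' ^ m, b' ^ m, fun h => ha' (h𝔫₀p.mem_of_pow_mem m h),
        fun h => hb' (h𝔫₀p.mem_of_pow_mem m h), ?_⟩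
      rw [hkey, hkey, Subalgebra.coe_pow, Subalgebra.coe_pow, map_pow, map_pow,
        Nat.mul_comm m e, pow_mul, ← mul_pow, hpow]
    · obtain ⟨a₁, b₁, ha₁, hb₁, hab₁⟩ := hSet₁ x hx
      refine ⟨a₁ ^ e, b₁ ^ e, fun h => ha₁ (h𝔫₀p.mem_of_pow_mem e h),
        fun h => hb₁ (h𝔫₀p.mem_of_pow_mem e h), ?_⟩
      rw [hkey, hkey, Subalgebra.coe_pow, Subalgebra.coe_pow, map_pow, map_pow,
        pow_mul, ← mul_pow, hab₁]
  · -- generation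
    rw [eq_top_iff, ← hgen]
    refine Algebra.adjoin_le ?_
    rintro x (hx | ⟨i, rfl⟩)
    · rcases hx with rfl | hx
      · exact Algebra.subset_adjoin (Or.inl rfl)
      · rw [Set.mem_singleton_iff] at hx
        subst hx
        have htm : t ∈ Algebra.adjoin ↥(modularFunctionFieldFullC ↥(beta0Field A) (M₁ * q))
            (({ϖ₁} : Set ↥(rtk6diF A K₁ (M₁ * q) M H)) ∪ insert t S₁) :=
          Algebra.subset_adjoin (Or.inr (Set.mem_insert _ _))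
        have hϖm : ϖ₁ ∈ Algebra.adjoin ↥(modularFunctionFieldFullC ↥(beta0Field A) (M₁ * q))
            (({ϖ₁} : Set ↥(rtk6diF A K₁ (M₁ * q) M H)) ∪ insert t S₁) :=
          Algebra.subset_adjoin (Or.inl rfl)
        rcases hyt with ⟨-, hy⟩ | ⟨-, hy⟩
        · rw [hy]
          exact Subalgebra.mul_mem _ (Subalgebra.algebraMap_mem _ _) htm
        · rw [hy]
          exact Subalgebra.mul_mem _ (Subalgebra.algebraMap_mem _ _)
            (rtk6c4smc_zpow_mem _ (Subalgebra.mul_mem _ htm hϖm) (htint.mul hϖint) n₀)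
    · obtain ⟨t₁, ht₁, c₁, -, hyi⟩ := hyS₁ i
      show yy i ∈ _
      rw [hyi]
      exact Subalgebra.mul_mem _ (Subalgebra.algebraMap_mem _ _)
        (Algebra.subset_adjoin (Or.inr (Set.mem_insert_of_mem _ ht₁)))

include hπ ιC hqM in
/-- **(SM-inst), `Rtk6ewmNodeAt` form**: the smooth alternative of the dichotomy at a closed point
`𝔫` of the chart `j` of `F` over a smooth point of the chart `j` of `K`, for every family `V`. -/
theorem rtk6c4smc_nodeAt (rigid : (q ≠ 2 → 4 ∣ M₁) ∧ (q = 2 → 9 ∣ M₁)) (hqe : ¬ q ∣ e)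
    {m : ℕ} (hm0 : m ≠ 0) (hqm : ¬ q ∣ m)
    {κ : Type*} (V : κ → ValuationSubring ↥(rtk6diF A K₁ (M₁ * q) M H))
    (𝔫 : AtPt (F := ↥(rtk6diF A K₁ (M₁ * q) M H)) ϖ (rtk6diT A K₁ (M₁ * q) M H))
    (hsm : ∃ s₀ : ↥(zchClosure (A₀ := ↥(beta0Ring A (beta0Field A)))
        ({bgJ ↥(beta0Field A) (M₁ * q)} :
          Set ↥(modularFunctionFieldFullC ↥(beta0Field A) (M₁ * q)))),
      s₀ ∈ (rtk6gxiPt hq K₁ M H f hf halg hA he0 hϖe 𝔫).1 ∧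
      NodesLocGen (rtk6gxiPt hq K₁ M H f hf halg hA he0 hϖe 𝔫).1
        {algebraMap ↥(beta0Ring A (beta0Field A))
          ↥(zchClosure (A₀ := ↥(beta0Ring A (beta0Field A)))
            ({bgJ ↥(beta0Field A) (M₁ * q)} :
              Set ↥(modularFunctionFieldFullC ↥(beta0Field A) (M₁ * q)))) π, s₀})
    {z : ↥(modularFunctionFieldFullC ↥(beta0Field A) (M₁ * q))} (hz0 : z ≠ 0)
    (hhor : ∀ P : Place ↥(beta0Field A) ↥(modularFunctionFieldFullC ↥(beta0Field A) (M₁ * q)),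
      (e : ℤ) ∣ P.ord z)
    (hz₁ : (mgvV hπ ιC hq hqM true).valuation z = 1) {n₀ : ℤ}
    (hn₀ : (mgvV hπ ιC hq hqM false).valuation z = (mgvV hπ ιC hq hqM false).valuation
      (algebraMap ↥(beta0Ring A (beta0Field A))
        ↥(modularFunctionFieldFullC ↥(beta0Field A) (M₁ * q)) π) ^ n₀)
    {y : ↥(rtk6diF A K₁ (M₁ * q) M H)}
    (hzy : algebraMap ↥(modularFunctionFieldFullC ↥(beta0Field A) (M₁ * q))
      ↥(rtk6diF A K₁ (M₁ * q) M H) z = y ^ e)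
    {a b : ℤ} (hab : a * n₀ - b * e = 1)
    {ι : Type*} [Finite ι] (yy : ι → ↥(rtk6diF A K₁ (M₁ * q) M H))
    (uu : ι → ↥(modularFunctionFieldFullC ↥(beta0Field A) (M₁ * q))) (nn : ι → ℤ)
    (hyu : ∀ i, yy i ^ m = algebraMap ↥(modularFunctionFieldFullC ↥(beta0Field A) (M₁ * q))
      ↥(rtk6diF A K₁ (M₁ * q) M H) (uu i))
    (hu : ∀ i, uu i ≠ 0)
    (hhor' : ∀ i, ∀ P : Place ↥(beta0Field A)
      ↥(modularFunctionFieldFullC ↥(beta0Field A) (M₁ * q)), (m : ℤ) ∣ P.ord (uu i))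
    (hy₁' : ∀ i, (mgvV hπ ιC hq hqM true).valuation (uu i) = 1)
    (hn₀' : ∀ i, (mgvV hπ ιC hq hqM false).valuation (uu i) =
      (mgvV hπ ιC hq hqM false).valuation
        (algebraMap ↥(beta0Ring A (beta0Field A))
          ↥(modularFunctionFieldFullC ↥(beta0Field A) (M₁ * q)) π) ^ nn i)
    (hdvd : ∀ i, (m : ℤ) ∣ nn i)
    (hgen : Algebra.adjoin ↥(modularFunctionFieldFullC ↥(beta0Field A) (M₁ * q))
      (({algebraMap ↥(mgcA A K₁) ↥(rtk6diF A K₁ (M₁ * q) M H) ϖ, y} :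
        Set ↥(rtk6diF A K₁ (M₁ * q) M H)) ∪ Set.range yy) = ⊤) :
    Rtk6ewmNodeAt V 𝔫 (RingHom.id ↥(zchClosure (A₀ := ↥(mgcA A K₁))
        ({rtk6diT A K₁ (M₁ * q) M H} : Set ↥(rtk6diF A K₁ (M₁ * q) M H))))
      (algebraMap ↥(mgcA A K₁) ↥(zchClosure (A₀ := ↥(mgcA A K₁))
        ({rtk6diT A K₁ (M₁ * q) M H} : Set ↥(rtk6diF A K₁ (M₁ * q) M H))) ϖ) := by
  obtain ⟨s₀, hs₀, hgen₀⟩ := hsm
  obtain ⟨S, hS⟩ := rtk6c4smc_sm hπ ιC hq hqM K₁ M H f hf halg hA he0 hϖe rigid hqe hm0 hqm 𝔫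
    hs₀ hgen₀ hz0 hhor hz₁ hn₀ hzy hab yy uu nn hyu hu hhor' hy₁' hn₀' hdvd hgen
  haveI := ribmp_fc_fin (K₀ := beta0Field A) (M₁ * q)
  haveI : CharZero ↥(modularFunctionFieldFullC ↥(beta0Field A) (M₁ * q)) :=
    charZero_of_injective_algebraMap
      (algebraMap ↥(beta0Field A) ↥(modularFunctionFieldFullC ↥(beta0Field A) (M₁ * q))).injective
  haveI : IsFractionRing ↥(zchClosure (A₀ := ↥(beta0Ring A (beta0Field A)))
      ({bgJ ↥(beta0Field A) (M₁ * q)} :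
        Set ↥(modularFunctionFieldFullC ↥(beta0Field A) (M₁ * q))))
      ↥(modularFunctionFieldFullC ↥(beta0Field A) (M₁ * q)) :=
    mgc_chart_isFractionRing (A₀ := ↥(beta0Ring A (beta0Field A))) (E₀ := ↥(beta0Field A))
      (bgJ ↥(beta0Field A) (M₁ * q))
  haveI : IsIntegrallyClosed ↥(zchClosure (A₀ := ↥(beta0Ring A (beta0Field A)))
      ({bgJ ↥(beta0Field A) (M₁ * q)} :
        Set ↥(modularFunctionFieldFullC ↥(beta0Field A) (M₁ * q)))) :=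
    mgc_chart_isIntegrallyClosed (A₀ := ↥(beta0Ring A (beta0Field A))) (E₀ := ↥(beta0Field A))
      (bgJ ↥(beta0Field A) (M₁ * q))
  exact rtk6c4sm0_nodeAt (K := ↥(modularFunctionFieldFullC ↥(beta0Field A) (M₁ * q))) V 𝔫
    (rtk6gxiJ K₁ M H f hf halg) _ (fun _ => rfl) hS hπ rfl

end Conc

end Fermat.Agent.RT.K6

end


end ZBRT_097_1

/-! ### bundled: `Fermat.Agent.RT.K6.GenInstGen` -/
section ZBRT_097_2
/-
K-machine, piece K6, piece GEN-inst (helper74), part 5: the PACKS on the chart `j` — the fields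
`hS`, `hSet`, `hgen` (and `hσS`, `hδS`) of `Rtk6c4Cross(E)` (C4Abs.lean) and of `Rtk6c4Sm`
(C4SmR0.lean) at one closed point `𝔫` of the chart `j`, from

* the étale family `y_i ^ m = u_i` (`ψ′_i` trivial at `r`: `m ∣ n₀ i`),
* the ramified generator `y ^ m' = u` (`ψ_r`: `a n₀ − b m' = 1`), `ϖ₁ ^ m' = π`, `m' ∣ m`,
* (F1) `F = K[Y]`, `Y ⊆ {ϖ₁, y} ∪ {y_i}`.

`rtk6gi_cross_pack` : `∃ S`, `S.Finite`, `hSet` (exponent `m`), `K[S ∪ T] = ⊤`, `σ|S = id`.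
`rtk6gi_sm_pack`    : at a point which is not a crossing point: `∃ S`, `S.Finite`, `hSet`
                      (exponent `m`), `K[{ϖ₁} ∪ S] = ⊤`.
-/

set_option autoImplicit false
set_option linter.style.haveILetI false
set_option linter.unusedSectionVars false
set_option linter.unusedVariables false
set_option linter.style.longLine false
set_option synthInstance.maxHeartbeats 400000
set_option maxHeartbeats 4000000

noncomputable section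

namespace Fermat.Agent.RT.K6

open ModularCurve Polynomial IntermediateField Fermat.Agent.INJ Fermat.Agent.AL AlgebraicCurve
open Fermat.Agent.ES Fermat.Agent.ES.G2 Fermat.Agent.STB Fermat.Agent.UNIP Fermat.Agent.S36
open Fermat.Agent.RIB.MP

section Base

variable {A : ValuationSubring Qb} {q M : ℕ} [NeZero q] [NeZero M] [NeZero (M * q)]
  [IsDiscreteValuationRing ↥(beta0Ring A (beta0Field A))]
  {π : ↥(beta0Ring A (beta0Field A))} (hπ : Irreducible π)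
  (ιC : ↥(beta0Field A) →+* ℂ) (hq : q.Prime) (hqM : ¬ q ∣ M)

variable {F : Type*} [Field F] [Algebra ↥(modularFunctionFieldFullC ↥(beta0Field A) (M * q)) F]

include hπ ιC hq hqM in
/-- **the étale pack at ANY closed point of the chart `j`** (crossing or not): the fields `hS`,
`hSet`, `hgen`, `hσS`/`hδS` of `Rtk6c4Cross(E)`. -/
theorem rtk6gi_cross_pack (hA : A.LiesOverPrime q)
    (rigid : (q ≠ 2 → 4 ∣ M) ∧ (q = 2 → 9 ∣ M))
    (m : ℕ) {ι : Type*} [Finite ι] (y : ι → F)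
    (u : ι → ↥(modularFunctionFieldFullC ↥(beta0Field A) (M * q))) (n₀ : ι → ℤ)
    (hyu : ∀ i, y i ^ m = algebraMap ↥(modularFunctionFieldFullC ↥(beta0Field A) (M * q)) F (u i))
    (hu : ∀ i, u i ≠ 0)
    (hhor : ∀ i, ∀ P : Place ↥(beta0Field A) ↥(modularFunctionFieldFullC ↥(beta0Field A) (M * q)),
      (m : ℤ) ∣ P.ord (u i))
    (hy₁ : ∀ i, (mgvV hπ ιC hq hqM true).valuation (u i) = 1)
    (hn₀ : ∀ i, (mgvV hπ ιC hq hqM false).valuation (u i) =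
      (mgvV hπ ιC hq hqM false).valuation
        (algebraMap ↥(beta0Ring A (beta0Field A))
          ↥(modularFunctionFieldFullC ↥(beta0Field A) (M * q)) π) ^ n₀ i)
    (hdvd : ∀ i, (m : ℤ) ∣ n₀ i)
    (T Y : Set F) (hY : ∀ z ∈ Y, z ∈ T ∨ ∃ i, z = y i)
    (hF1 : Algebra.adjoin ↥(modularFunctionFieldFullC ↥(beta0Field A) (M * q)) Y = ⊤)
    (𝔫 : AtPt (F := ↥(modularFunctionFieldFullC ↥(beta0Field A) (M * q))) π
      (bgJ ↥(beta0Field A) (M * q))) :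
    ∃ S : Set F, S.Finite ∧
      (∀ t ∈ S, ∃ a b : ↥(zchClosure (A₀ := ↥(beta0Ring A (beta0Field A)))
          ({bgJ ↥(beta0Field A) (M * q)} :
            Set ↥(modularFunctionFieldFullC ↥(beta0Field A) (M * q)))),
        a ∉ 𝔫.1 ∧ b ∉ 𝔫.1 ∧
        algebraMap ↥(modularFunctionFieldFullC ↥(beta0Field A) (M * q)) F
            (b : ↥(modularFunctionFieldFullC ↥(beta0Field A) (M * q))) * t ^ m =
          algebraMap ↥(modularFunctionFieldFullC ↥(beta0Field A) (M * q)) F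
            (a : ↥(modularFunctionFieldFullC ↥(beta0Field A) (M * q)))) ∧
      Algebra.adjoin ↥(modularFunctionFieldFullC ↥(beta0Field A) (M * q)) (S ∪ T) = ⊤ ∧
      (∀ σ : F ≃ₐ[↥(modularFunctionFieldFullC ↥(beta0Field A) (M * q))] F,
        (∀ i, σ (y i) = y i) → ∀ t ∈ S, σ t = t) ∧
      (∀ t ∈ S, ∃ i, ∃ c : ↥(modularFunctionFieldFullC ↥(beta0Field A) (M * q)), c ≠ 0 ∧
        t = y i / algebraMap ↥(modularFunctionFieldFullC ↥(beta0Field A) (M * q)) F c) ∧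
      (∀ i, ∃ t ∈ S, ∃ c : ↥(modularFunctionFieldFullC ↥(beta0Field A) (M * q)), c ≠ 0 ∧
        y i = algebraMap ↥(modularFunctionFieldFullC ↥(beta0Field A) (M * q)) F c * t) := by
  obtain ⟨S, hS, hSet, hSy, hyS⟩ := rtk6gi_et_family hπ ιC hq hqM
    (algebraMap ↥(modularFunctionFieldFullC ↥(beta0Field A) (M * q)) F) hA rigid m y u n₀
    hyu hu hhor hy₁ hn₀ hdvd 𝔫
  refine ⟨S, hS, hSet, ?_, ?_, hSy, hyS⟩
  · refine rtk6gi_hgen_cross_abs y S T Y (fun i => ?_) hY hF1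
    obtain ⟨t, ht, c, -, hc⟩ := hyS i
    exact ⟨t, ht, c, hc⟩
  · intro σ hσ
    exact rtk6gi_fix_set y S hSy σ hσ

include hπ ιC hq hqM in
/-- **the smooth pack**: at a closed point `𝔫` of the chart `j` which is NOT a crossing point,
the fields `hS`, `hSet` (exponent `m`), `hgen` of `Rtk6c4Sm`: `F = K[{ϖ₁} ∪ S]`, every
`t ∈ S` with `φ b · t ^ m = φ a`, `a, b ∈ R₀ ∖ 𝔫`.  The étale family has exponent `m`, the
ramified generator `y` and `ϖ₁` have exponent `m' ∣ m`. -/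
theorem rtk6gi_sm_pack (hA : A.LiesOverPrime q)
    (rigid : (q ≠ 2 → 4 ∣ M) ∧ (q = 2 → 9 ∣ M))
    (m : ℕ) {ι : Type*} [Finite ι] (y : ι → F)
    (u : ι → ↥(modularFunctionFieldFullC ↥(beta0Field A) (M * q))) (n₀ : ι → ℤ)
    (hyu : ∀ i, y i ^ m = algebraMap ↥(modularFunctionFieldFullC ↥(beta0Field A) (M * q)) F (u i))
    (hu : ∀ i, u i ≠ 0)
    (hhor : ∀ i, ∀ P : Place ↥(beta0Field A) ↥(modularFunctionFieldFullC ↥(beta0Field A) (M * q)),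
      (m : ℤ) ∣ P.ord (u i))
    (hy₁ : ∀ i, (mgvV hπ ιC hq hqM true).valuation (u i) = 1)
    (hn₀ : ∀ i, (mgvV hπ ιC hq hqM false).valuation (u i) =
      (mgvV hπ ιC hq hqM false).valuation
        (algebraMap ↥(beta0Ring A (beta0Field A))
          ↥(modularFunctionFieldFullC ↥(beta0Field A) (M * q)) π) ^ n₀ i)
    (hdvd : ∀ i, (m : ℤ) ∣ n₀ i)
    -- the ramified generator
    (m' : ℕ) (hm' : m' ∣ m) {yr ϖ₁ : F}
    {ur : ↥(modularFunctionFieldFullC ↥(beta0Field A) (M * q))}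
    (hyur : yr ^ m' = algebraMap ↥(modularFunctionFieldFullC ↥(beta0Field A) (M * q)) F ur)
    (hur : ur ≠ 0)
    (hhorr : ∀ P : Place ↥(beta0Field A) ↥(modularFunctionFieldFullC ↥(beta0Field A) (M * q)),
      (m' : ℤ) ∣ P.ord ur)
    (hyr₁ : (mgvV hπ ιC hq hqM true).valuation ur = 1) {nr : ℤ}
    (hnr : (mgvV hπ ιC hq hqM false).valuation ur = (mgvV hπ ιC hq hqM false).valuation
      (algebraMap ↥(beta0Ring A (beta0Field A))
        ↥(modularFunctionFieldFullC ↥(beta0Field A) (M * q)) π) ^ nr)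
    {a b : ℤ} (hab : a * nr - b * m' = 1)
    (hϖ : ϖ₁ ^ m' = algebraMap ↥(modularFunctionFieldFullC ↥(beta0Field A) (M * q)) F
      (algebraMap ↥(beta0Ring A (beta0Field A))
        ↥(modularFunctionFieldFullC ↥(beta0Field A) (M * q)) π))
    -- (F1)
    (Y : Set F) (hY : ∀ z ∈ Y, z = ϖ₁ ∨ z = yr ∨ ∃ i, z = y i)
    (hF1 : Algebra.adjoin ↥(modularFunctionFieldFullC ↥(beta0Field A) (M * q)) Y = ⊤)
    (𝔫 : AtPt (F := ↥(modularFunctionFieldFullC ↥(beta0Field A) (M * q))) π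
      (bgJ ↥(beta0Field A) (M * q)))
    (hnc : ¬ (atThrough 𝔫 (mgvV hπ ιC hq hqM true) ∧ atThrough 𝔫 (mgvV hπ ιC hq hqM false))) :
    ∃ S : Set F, S.Finite ∧
      (∀ t ∈ S, ∃ a b : ↥(zchClosure (A₀ := ↥(beta0Ring A (beta0Field A)))
          ({bgJ ↥(beta0Field A) (M * q)} :
            Set ↥(modularFunctionFieldFullC ↥(beta0Field A) (M * q)))),
        a ∉ 𝔫.1 ∧ b ∉ 𝔫.1 ∧
        algebraMap ↥(modularFunctionFieldFullC ↥(beta0Field A) (M * q)) F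
            (b : ↥(modularFunctionFieldFullC ↥(beta0Field A) (M * q))) * t ^ m =
          algebraMap ↥(modularFunctionFieldFullC ↥(beta0Field A) (M * q)) F
            (a : ↥(modularFunctionFieldFullC ↥(beta0Field A) (M * q)))) ∧
      Algebra.adjoin ↥(modularFunctionFieldFullC ↥(beta0Field A) (M * q)) ({ϖ₁} ∪ S) = ⊤ := by
  haveI := 𝔫.2.1.isPrime
  have hπ0 : algebraMap ↥(beta0Ring A (beta0Field A))
      ↥(modularFunctionFieldFullC ↥(beta0Field A) (M * q)) π ≠ 0 := ribmp_fc_hπ0 hπ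
  have hne : ∀ e : ↥(zchClosure (A₀ := ↥(beta0Ring A (beta0Field A)))
      ({bgJ ↥(beta0Field A) (M * q)} :
        Set ↥(modularFunctionFieldFullC ↥(beta0Field A) (M * q)))), e ∉ 𝔫.1 →
      (e : ↥(modularFunctionFieldFullC ↥(beta0Field A) (M * q))) ≠ 0 := fun e he h0 =>
    he ((Subtype.ext h0 : e = 0) ▸ 𝔫.1.zero_mem)
  obtain ⟨S, hS, hSet, hSy, hyS⟩ := rtk6gi_et_family hπ ιC hq hqM
    (algebraMap ↥(modularFunctionFieldFullC ↥(beta0Field A) (M * q)) F) hA rigid m y u n₀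
    hyu hu hhor hy₁ hn₀ hdvd 𝔫
  obtain ⟨t, a', b', c, ha', hb', ht, hc, hcase⟩ := rtk6gi_sm_JF hπ ιC hq hqM
    (algebraMap ↥(modularFunctionFieldFullC ↥(beta0Field A) (M * q)) F) hA rigid m' hyur hur
    hhorr hyr₁ hnr hab hϖ 𝔫 hnc
  have hm'0 : 0 < m' := by
    rcases Nat.eq_zero_or_pos m' with h0 | h0
    · exfalso
      subst h0
      rw [pow_zero] at hϖ
      have h1 : algebraMap ↥(beta0Ring A (beta0Field A))
          ↥(modularFunctionFieldFullC ↥(beta0Field A) (M * q)) π = 1 :=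
        (algebraMap ↥(modularFunctionFieldFullC ↥(beta0Field A) (M * q)) F).injective
          (by rw [← hϖ, map_one])
      have h3 := mgv_hπV hπ ιC hq hqM false
      rw [h1, ValuationSubring.mem_nonunits_iff, map_one] at h3
      exact lt_irrefl _ h3
    · exact h0
  refine ⟨S ∪ {t}, hS.union (Set.finite_singleton t), ?_, ?_⟩
  · rintro s (hs | hs)
    · exact hSet s hs
    · rw [Set.mem_singleton_iff.1 hs]
      exact rtk6gi_pow_unify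
        ((algebraMap ↥(modularFunctionFieldFullC ↥(beta0Field A) (M * q)) F).comp
          (zchClosure (A₀ := ↥(beta0Ring A (beta0Field A)))
            ({bgJ ↥(beta0Field A) (M * q)} :
              Set ↥(modularFunctionFieldFullC ↥(beta0Field A) (M * q)))).subtype)
        𝔫.1 hm' ha' hb' ht
  · refine rtk6gi_hgen_sm_abs y S Y (fun i => ?_) hY hF1 ?_
    · obtain ⟨s, hs, c', -, hc'⟩ := hyS i
      exact ⟨s, hs, c', hc'⟩
    · rcases hcase with ⟨-, h⟩ | ⟨-, h⟩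
      · exact Or.inl ⟨c, h⟩
      · refine Or.inr ⟨c, (a' : ↥(modularFunctionFieldFullC ↥(beta0Field A) (M * q))) /
          (b' : ↥(modularFunctionFieldFullC ↥(beta0Field A) (M * q))) *
          algebraMap ↥(beta0Ring A (beta0Field A))
            ↥(modularFunctionFieldFullC ↥(beta0Field A) (M * q)) π, nr, m', hm'0,
          mul_ne_zero (div_ne_zero (hne a' ha') (hne b' hb')) hπ0, ?_, h⟩
        have hb'F : algebraMap ↥(modularFunctionFieldFullC ↥(beta0Field A) (M * q)) F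
            (b' : ↥(modularFunctionFieldFullC ↥(beta0Field A) (M * q))) ≠ 0 :=
          (_root_.map_ne_zero _).2 (hne b' hb')
        rw [mul_pow, hϖ, map_mul, map_div₀, ← ht, mul_comm
          (algebraMap ↥(modularFunctionFieldFullC ↥(beta0Field A) (M * q)) F
            (b' : ↥(modularFunctionFieldFullC ↥(beta0Field A) (M * q)))) (t ^ m'),
          mul_div_assoc, div_self hb'F, mul_one]

end Base

end Fermat.Agent.RT.K6

end


end ZBRT_097_2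

/-! ### bundled: `Fermat.Agent.RT.K6.GenInstInv` -/
section ZBRT_097_3
/-
K-machine, piece K6, piece GEN-inst, the CHART `1 / j` half (helper3): **(G-et) and (G-sm)** on the
chart `1 / j` of the `Γ₀(Mq)`-field `K = FullC E₀ (Mq)` over `A₀ = A ∩ ℚ̄^I` — the verbatim twins of
helper74's `GenInst.lean` / `GenInstEt.lean` / `GenInstGen.lean` (chart `j`), on top of helper71's
(LF) on the chart `1 / j` (`LFInv.lean`: `rtk6lfi0_LF_Jinv`, `rtk6lfi_cross_LF_Jinv`).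

`R₀ = zchClosure {j⁻¹}`, `𝔫` a closed point of the special fibre of `R₀` (cusps included).

* `rtk6gii_crossAt_data` : the thin crossing datum in the shape `hw hXY hX₀ hY₀ hgen₀` of C4;
* `rtk6gii_cross_Jinv`   : (LF) at a crossing point, fraction form;
* `rtk6gii_LF_Jinv`      : (LF) at every closed point of the chart `1 / j`, fraction form;
* `rtk6gii_et_Jinv`      : **(G-et), `K`-level**: `m ∣ n₀` ⇒ `e₂ y = e₁ γ' ^ m`, `e₁, e₂ ∈ R₀ ∖ 𝔫`;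
* `rtk6gii_et_JinvF`, `rtk6gii_et_family` : **(G-et)**, `F`-level (shape `hSet` of `Rtk6c4Cross`,
  `hl` of `rtk6c4sm_smooth_of_gen`);
* `rtk6gii_sm_JinvF`     : **(G-sm)** at a closed point which is not a crossing point;
* `rtk6gii_cross_pack`, `rtk6gii_sm_pack` : the PACKS (`hS`, `hSet`, `hgen`, `hσS`) of
  `Rtk6c4Cross(E)` / `Rtk6c4Sm` at one closed point of the chart `1 / j`.
-/

set_option autoImplicit false
set_option linter.style.haveILetI false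
set_option linter.unusedSectionVars false
set_option linter.unusedVariables false
set_option linter.style.longLine false
set_option synthInstance.maxHeartbeats 400000
set_option maxHeartbeats 4000000

noncomputable section

namespace Fermat.Agent.RT.K6

open ModularCurve Polynomial IntermediateField Fermat.Agent.INJ Fermat.Agent.AL AlgebraicCurve
open Fermat.Agent.ES Fermat.Agent.ES.G2 Fermat.Agent.STB Fermat.Agent.UNIP Fermat.Agent.S36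
open Fermat.Agent.RIB.MP

section Base

variable {A : ValuationSubring Qb} {q M : ℕ} [NeZero q] [NeZero M] [NeZero (M * q)]
  [IsDiscreteValuationRing ↥(beta0Ring A (beta0Field A))]
  {π : ↥(beta0Ring A (beta0Field A))} (hπ : Irreducible π)
  (ιC : ↥(beta0Field A) →+* ℂ) (hq : q.Prime) (hqM : ¬ q ∣ M)

omit [NeZero q] [NeZero M] in
/-- **the thin crossing datum in the shape of C4**: `w ∉ 𝔫`, `w π = X Y`, `X, Y ∈ 𝔫`,
`𝔫 = (π, X, Y)` locally. -/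
theorem rtk6gii_crossAt_data {V₁ V₂ : ValuationSubring ↥(modularFunctionFieldFullC ↥(beta0Field A) (M * q))}
    {𝔫 : AtPt (F := ↥(modularFunctionFieldFullC ↥(beta0Field A) (M * q))) π (bgJ ↥(beta0Field A) (M * q))⁻¹} {X Y : ↥(zchClosure (A₀ := ↥(beta0Ring A (beta0Field A))) ({(bgJ ↥(beta0Field A) (M * q))⁻¹} : Set ↥(modularFunctionFieldFullC ↥(beta0Field A) (M * q))))}
    (h : Rtk6lfCrossAt V₁ V₂ 𝔫 X Y) :
    X ∈ 𝔫.1 ∧ Y ∈ 𝔫.1 ∧ (∃ w : ↥(zchClosure (A₀ := ↥(beta0Ring A (beta0Field A))) ({(bgJ ↥(beta0Field A) (M * q))⁻¹} : Set ↥(modularFunctionFieldFullC ↥(beta0Field A) (M * q)))), w ∉ 𝔫.1 ∧ w * algebraMap _ ↥(zchClosure (A₀ := ↥(beta0Ring A (beta0Field A))) ({(bgJ ↥(beta0Field A) (M * q))⁻¹} : Set ↥(modularFunctionFieldFullC ↥(beta0Field A) (M * q)))) π = X * Y) ∧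
      NodesLocGen 𝔫.1 {algebraMap _ ↥(zchClosure (A₀ := ↥(beta0Ring A (beta0Field A))) ({(bgJ ↥(beta0Field A) (M * q))⁻¹} : Set ↥(modularFunctionFieldFullC ↥(beta0Field A) (M * q)))) π, X, Y} := by
  obtain ⟨h₁, h₂, hX, hY, hw, hgen⟩ := h
  exact ⟨h₁ X hX, h₂ Y hY, hw, hgen⟩

include hπ ιC hq hqM in
/-- **(LF) at a crossing point, fraction form** (for the generator `ψ_r`: the fields `hγ he₁ he₂`
and, after `rtk6gi_LF_lift`, `hy` of `Rtk6c4Cross`). -/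
theorem rtk6gii_cross_Jinv (hA : A.LiesOverPrime q)
    (rigid : (q ≠ 2 → 4 ∣ M) ∧ (q = 2 → 9 ∣ M))
    (𝔫 : AtPt (F := ↥(modularFunctionFieldFullC ↥(beta0Field A) (M * q))) π (bgJ ↥(beta0Field A) (M * q))⁻¹) {X Y : ↥(zchClosure (A₀ := ↥(beta0Ring A (beta0Field A))) ({(bgJ ↥(beta0Field A) (M * q))⁻¹} : Set ↥(modularFunctionFieldFullC ↥(beta0Field A) (M * q))))}
    (h : Rtk6lfCrossAt (mgvV hπ ιC hq hqM true) (mgvV hπ ιC hq hqM false) 𝔫 X Y)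
    (m : ℕ) {y : ↥(modularFunctionFieldFullC ↥(beta0Field A) (M * q))} (hy : y ≠ 0)
    (hhor : ∀ P : Place ↥(beta0Field A) ↥(modularFunctionFieldFullC ↥(beta0Field A) (M * q)), (m : ℤ) ∣ P.ord y)
    (hy₁ : (mgvV hπ ιC hq hqM true).valuation y = 1) {n₀ : ℤ}
    (hn₀ : (mgvV hπ ιC hq hqM false).valuation y = (mgvV hπ ιC hq hqM false).valuation
      (algebraMap ↥(beta0Ring A (beta0Field A)) ↥(modularFunctionFieldFullC ↥(beta0Field A) (M * q)) π) ^ n₀) :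
    ∃ (γ : ↥(modularFunctionFieldFullC ↥(beta0Field A) (M * q))) (e₁ e₂ : ↥(zchClosure (A₀ := ↥(beta0Ring A (beta0Field A))) ({(bgJ ↥(beta0Field A) (M * q))⁻¹} : Set ↥(modularFunctionFieldFullC ↥(beta0Field A) (M * q))))), γ ≠ 0 ∧ e₁ ∉ 𝔫.1 ∧ e₂ ∉ 𝔫.1 ∧
      (e₂ : ↥(modularFunctionFieldFullC ↥(beta0Field A) (M * q))) * y = (e₁ : ↥(modularFunctionFieldFullC ↥(beta0Field A) (M * q))) * (Y : ↥(modularFunctionFieldFullC ↥(beta0Field A) (M * q))) ^ n₀ * γ ^ m := by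
  obtain ⟨γ, ε, hε, hyε, hγ, -, -⟩ := rtk6lfi_cross_LF_Jinv hπ ιC hq hqM hA le_rfl
    (rtk6lfb_rigid_h2 rigid) (rtk6lfb_rigid_h3 rigid) 𝔫 h m hy (fun P _ => hhor P) hy₁ hn₀
  haveI := 𝔫.2.1.isPrime
  obtain ⟨e₁, e₂, h1, h2, h3⟩ := rtk6gi_LF_frac (F := ↥(modularFunctionFieldFullC ↥(beta0Field A) (M * q))) (B := ↥(zchClosure (A₀ := ↥(beta0Ring A (beta0Field A))) ({(bgJ ↥(beta0Field A) (M * q))⁻¹} : Set ↥(modularFunctionFieldFullC ↥(beta0Field A) (M * q))))) Subtype.val_injective 𝔫.1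
    (ε := ε) hε hyε
  exact ⟨γ, e₁, e₂, hγ, h1, h2, h3⟩

include hπ ιC hq hqM in
/-- **(LF) at every closed point of the chart `1 / j`, fraction form.** -/
theorem rtk6gii_LF_Jinv (hA : A.LiesOverPrime q)
    (rigid : (q ≠ 2 → 4 ∣ M) ∧ (q = 2 → 9 ∣ M))
    (m : ℕ) {y : ↥(modularFunctionFieldFullC ↥(beta0Field A) (M * q))} (hy : y ≠ 0)
    (hhor : ∀ P : Place ↥(beta0Field A) ↥(modularFunctionFieldFullC ↥(beta0Field A) (M * q)), (m : ℤ) ∣ P.ord y)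
    (hy₁ : (mgvV hπ ιC hq hqM true).valuation y = 1) {n₀ : ℤ}
    (hn₀ : (mgvV hπ ιC hq hqM false).valuation y = (mgvV hπ ιC hq hqM false).valuation
      (algebraMap ↥(beta0Ring A (beta0Field A)) ↥(modularFunctionFieldFullC ↥(beta0Field A) (M * q)) π) ^ n₀)
    (𝔫 : AtPt (F := ↥(modularFunctionFieldFullC ↥(beta0Field A) (M * q))) π (bgJ ↥(beta0Field A) (M * q))⁻¹) :
    (∃ X Y : ↥(zchClosure (A₀ := ↥(beta0Ring A (beta0Field A))) ({(bgJ ↥(beta0Field A) (M * q))⁻¹} : Set ↥(modularFunctionFieldFullC ↥(beta0Field A) (M * q)))),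
      Rtk6lfCrossAt (mgvV hπ ιC hq hqM true) (mgvV hπ ιC hq hqM false) 𝔫 X Y ∧
      ∃ (γ : ↥(modularFunctionFieldFullC ↥(beta0Field A) (M * q))) (e₁ e₂ : ↥(zchClosure (A₀ := ↥(beta0Ring A (beta0Field A))) ({(bgJ ↥(beta0Field A) (M * q))⁻¹} : Set ↥(modularFunctionFieldFullC ↥(beta0Field A) (M * q))))), γ ≠ 0 ∧ e₁ ∉ 𝔫.1 ∧ e₂ ∉ 𝔫.1 ∧
        (e₂ : ↥(modularFunctionFieldFullC ↥(beta0Field A) (M * q))) * y = (e₁ : ↥(modularFunctionFieldFullC ↥(beta0Field A) (M * q))) * (Y : ↥(modularFunctionFieldFullC ↥(beta0Field A) (M * q))) ^ n₀ * γ ^ m) ∨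
    (atThrough 𝔫 (mgvV hπ ιC hq hqM false) ∧ ¬ atThrough 𝔫 (mgvV hπ ιC hq hqM true) ∧
      (∃ s : ↥(zchClosure (A₀ := ↥(beta0Ring A (beta0Field A))) ({(bgJ ↥(beta0Field A) (M * q))⁻¹} : Set ↥(modularFunctionFieldFullC ↥(beta0Field A) (M * q)))), s ∈ 𝔫.1 ∧ NodesLocGen 𝔫.1 {algebraMap _ ↥(zchClosure (A₀ := ↥(beta0Ring A (beta0Field A))) ({(bgJ ↥(beta0Field A) (M * q))⁻¹} : Set ↥(modularFunctionFieldFullC ↥(beta0Field A) (M * q)))) π, s}) ∧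
      ∃ (γ : ↥(modularFunctionFieldFullC ↥(beta0Field A) (M * q))) (e₁ e₂ : ↥(zchClosure (A₀ := ↥(beta0Ring A (beta0Field A))) ({(bgJ ↥(beta0Field A) (M * q))⁻¹} : Set ↥(modularFunctionFieldFullC ↥(beta0Field A) (M * q))))), γ ≠ 0 ∧ e₁ ∉ 𝔫.1 ∧ e₂ ∉ 𝔫.1 ∧
        (e₂ : ↥(modularFunctionFieldFullC ↥(beta0Field A) (M * q))) * y = (e₁ : ↥(modularFunctionFieldFullC ↥(beta0Field A) (M * q))) *
          algebraMap ↥(beta0Ring A (beta0Field A)) ↥(modularFunctionFieldFullC ↥(beta0Field A) (M * q)) π ^ n₀ * γ ^ m) ∨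
    (atThrough 𝔫 (mgvV hπ ιC hq hqM true) ∧ ¬ atThrough 𝔫 (mgvV hπ ιC hq hqM false) ∧
      (∃ s : ↥(zchClosure (A₀ := ↥(beta0Ring A (beta0Field A))) ({(bgJ ↥(beta0Field A) (M * q))⁻¹} : Set ↥(modularFunctionFieldFullC ↥(beta0Field A) (M * q)))), s ∈ 𝔫.1 ∧ NodesLocGen 𝔫.1 {algebraMap _ ↥(zchClosure (A₀ := ↥(beta0Ring A (beta0Field A))) ({(bgJ ↥(beta0Field A) (M * q))⁻¹} : Set ↥(modularFunctionFieldFullC ↥(beta0Field A) (M * q)))) π, s}) ∧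
      ∃ (γ : ↥(modularFunctionFieldFullC ↥(beta0Field A) (M * q))) (e₁ e₂ : ↥(zchClosure (A₀ := ↥(beta0Ring A (beta0Field A))) ({(bgJ ↥(beta0Field A) (M * q))⁻¹} : Set ↥(modularFunctionFieldFullC ↥(beta0Field A) (M * q))))), γ ≠ 0 ∧ e₁ ∉ 𝔫.1 ∧ e₂ ∉ 𝔫.1 ∧
        (e₂ : ↥(modularFunctionFieldFullC ↥(beta0Field A) (M * q))) * y = (e₁ : ↥(modularFunctionFieldFullC ↥(beta0Field A) (M * q))) * γ ^ m) := by
  haveI := 𝔫.2.1.isPrime
  rcases rtk6lfi0_LF_Jinv hπ ιC hq hqM hA rigid m hy hhor hy₁ hn₀ 𝔫 with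
    ⟨X, Y, h, γ, ε, hε, hyε, hγ, -, -⟩ | ⟨h1, h2, hs, γ, ε, hε, hyε, hγ, -⟩ |
    ⟨h1, h2, hs, γ, ε, hε, hyε, hγ, -⟩
  · obtain ⟨e₁, e₂, he₁, he₂, h3⟩ := rtk6gi_LF_frac (F := ↥(modularFunctionFieldFullC ↥(beta0Field A) (M * q))) (B := ↥(zchClosure (A₀ := ↥(beta0Ring A (beta0Field A))) ({(bgJ ↥(beta0Field A) (M * q))⁻¹} : Set ↥(modularFunctionFieldFullC ↥(beta0Field A) (M * q)))))
      Subtype.val_injective 𝔫.1 (ε := ε) hε hyε
    exact Or.inl ⟨X, Y, h, γ, e₁, e₂, hγ, he₁, he₂, h3⟩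
  · obtain ⟨e₁, e₂, he₁, he₂, h3⟩ := rtk6gi_LF_frac (F := ↥(modularFunctionFieldFullC ↥(beta0Field A) (M * q))) (B := ↥(zchClosure (A₀ := ↥(beta0Ring A (beta0Field A))) ({(bgJ ↥(beta0Field A) (M * q))⁻¹} : Set ↥(modularFunctionFieldFullC ↥(beta0Field A) (M * q)))))
      Subtype.val_injective 𝔫.1 (ε := ε) hε hyε
    exact Or.inr (Or.inl ⟨h1, h2, hs, γ, e₁, e₂, hγ, he₁, he₂, h3⟩)
  · have hyε' : y = (ε : ↥(modularFunctionFieldFullC ↥(beta0Field A) (M * q))) * (1 : ↥(modularFunctionFieldFullC ↥(beta0Field A) (M * q))) ^ (0 : ℤ) * γ ^ m := by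
      rw [zpow_zero, mul_one]
      exact hyε
    obtain ⟨e₁, e₂, he₁, he₂, h3⟩ := rtk6gi_LF_frac (F := ↥(modularFunctionFieldFullC ↥(beta0Field A) (M * q))) (B := ↥(zchClosure (A₀ := ↥(beta0Ring A (beta0Field A))) ({(bgJ ↥(beta0Field A) (M * q))⁻¹} : Set ↥(modularFunctionFieldFullC ↥(beta0Field A) (M * q)))))
      Subtype.val_injective 𝔫.1 (ε := ε) hε hyε'
    rw [zpow_zero, mul_one] at h3
    exact Or.inr (Or.inr ⟨h1, h2, hs, γ, e₁, e₂, hγ, he₁, he₂, h3⟩)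

include hπ ιC hq hqM in
/-- **(G-et), `K`-level**: a function `y ≠ 0` on the `Γ₀(Mq)`-curve whose divisor is divisible by
`m`, unit at `V_∞`, with `v_0(y) = v_0(π) ^ n₀` and **`m ∣ n₀`**, is at EVERY closed point `𝔫` of
the chart `1 / j` a unit times an `m`-th power: `e₂ y = e₁ γ' ^ m`, `e₁, e₂ ∈ R₀ ∖ 𝔫`. -/
theorem rtk6gii_et_Jinv (hA : A.LiesOverPrime q)
    (rigid : (q ≠ 2 → 4 ∣ M) ∧ (q = 2 → 9 ∣ M))
    (m : ℕ) {y : ↥(modularFunctionFieldFullC ↥(beta0Field A) (M * q))} (hy : y ≠ 0)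
    (hhor : ∀ P : Place ↥(beta0Field A) ↥(modularFunctionFieldFullC ↥(beta0Field A) (M * q)), (m : ℤ) ∣ P.ord y)
    (hy₁ : (mgvV hπ ιC hq hqM true).valuation y = 1) {n₀ : ℤ}
    (hn₀ : (mgvV hπ ιC hq hqM false).valuation y = (mgvV hπ ιC hq hqM false).valuation
      (algebraMap ↥(beta0Ring A (beta0Field A)) ↥(modularFunctionFieldFullC ↥(beta0Field A) (M * q)) π) ^ n₀)
    (hdvd : (m : ℤ) ∣ n₀)
    (𝔫 : AtPt (F := ↥(modularFunctionFieldFullC ↥(beta0Field A) (M * q))) π (bgJ ↥(beta0Field A) (M * q))⁻¹) :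
    ∃ (γ' : ↥(modularFunctionFieldFullC ↥(beta0Field A) (M * q))) (e₁ e₂ : ↥(zchClosure (A₀ := ↥(beta0Ring A (beta0Field A))) ({(bgJ ↥(beta0Field A) (M * q))⁻¹} : Set ↥(modularFunctionFieldFullC ↥(beta0Field A) (M * q))))), γ' ≠ 0 ∧ e₁ ∉ 𝔫.1 ∧ e₂ ∉ 𝔫.1 ∧
      (e₂ : ↥(modularFunctionFieldFullC ↥(beta0Field A) (M * q))) * y = (e₁ : ↥(modularFunctionFieldFullC ↥(beta0Field A) (M * q))) * γ' ^ m := by
  haveI := 𝔫.2.1.isPrime
  have hπ0 : algebraMap ↥(beta0Ring A (beta0Field A)) ↥(modularFunctionFieldFullC ↥(beta0Field A) (M * q)) π ≠ 0 := ribmp_fc_hπ0 hπ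
  rcases rtk6lfi0_LF_Jinv hπ ιC hq hqM hA rigid m hy hhor hy₁ hn₀ 𝔫 with
    ⟨X, Y, h, γ, ε, hε, hyε, hγ, -, -⟩ | ⟨-, -, -, γ, ε, hε, hyε, hγ, -⟩ |
    ⟨-, -, -, γ, ε, hε, hyε, hγ, -⟩
  · have hY0 : (Y : ↥(modularFunctionFieldFullC ↥(beta0Field A) (M * q))) ≠ 0 := by
      intro h0
      obtain ⟨-, -, -, -, ⟨w, hw, hXY⟩, -⟩ := h
      have hY : Y = 0 := Subtype.ext h0
      rw [hY, mul_zero] at hXY
      have hπR : algebraMap ↥(beta0Ring A (beta0Field A)) ↥(zchClosure (A₀ := ↥(beta0Ring A (beta0Field A))) ({(bgJ ↥(beta0Field A) (M * q))⁻¹} : Set ↥(modularFunctionFieldFullC ↥(beta0Field A) (M * q)))) π ≠ 0 := by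
        intro h1
        apply hπ0
        have := congrArg (fun z : ↥(zchClosure (A₀ := ↥(beta0Ring A (beta0Field A))) ({(bgJ ↥(beta0Field A) (M * q))⁻¹} : Set ↥(modularFunctionFieldFullC ↥(beta0Field A) (M * q)))) => (z : ↥(modularFunctionFieldFullC ↥(beta0Field A) (M * q)))) h1
        simpa using this
      rcases mul_eq_zero.1 hXY with h2 | h2
      · exact hw (h2 ▸ 𝔫.1.zero_mem)
      · exact hπR h2
    exact rtk6gi_et_of_LF (F := ↥(modularFunctionFieldFullC ↥(beta0Field A) (M * q))) (B := ↥(zchClosure (A₀ := ↥(beta0Ring A (beta0Field A))) ({(bgJ ↥(beta0Field A) (M * q))⁻¹} : Set ↥(modularFunctionFieldFullC ↥(beta0Field A) (M * q))))) Subtype.val_injective 𝔫.1 (ε := ε) hε hY0 hγ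
      hyε hdvd
  · exact rtk6gi_et_of_LF (F := ↥(modularFunctionFieldFullC ↥(beta0Field A) (M * q))) (B := ↥(zchClosure (A₀ := ↥(beta0Ring A (beta0Field A))) ({(bgJ ↥(beta0Field A) (M * q))⁻¹} : Set ↥(modularFunctionFieldFullC ↥(beta0Field A) (M * q))))) Subtype.val_injective 𝔫.1 (ε := ε) hε hπ0 hγ
      hyε hdvd
  · have hyε' : y = (ε : ↥(modularFunctionFieldFullC ↥(beta0Field A) (M * q))) * (1 : ↥(modularFunctionFieldFullC ↥(beta0Field A) (M * q))) ^ (0 : ℤ) * γ ^ m := by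
      rw [zpow_zero, mul_one]
      exact hyε
    exact rtk6gi_et_of_LF (F := ↥(modularFunctionFieldFullC ↥(beta0Field A) (M * q))) (B := ↥(zchClosure (A₀ := ↥(beta0Ring A (beta0Field A))) ({(bgJ ↥(beta0Field A) (M * q))⁻¹} : Set ↥(modularFunctionFieldFullC ↥(beta0Field A) (M * q))))) Subtype.val_injective 𝔫.1 (ε := ε) hε
      one_ne_zero hγ hyε' (dvd_zero _)

end Base

section BaseF

variable {A : ValuationSubring Qb} {q M : ℕ} [NeZero q] [NeZero M] [NeZero (M * q)]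
  [IsDiscreteValuationRing ↥(beta0Ring A (beta0Field A))]
  {π : ↥(beta0Ring A (beta0Field A))} (hπ : Irreducible π)
  (ιC : ↥(beta0Field A) →+* ℂ) (hq : q.Prime) (hqM : ¬ q ∣ M)

variable {F : Type*} [Field F] (φ : ↥(modularFunctionFieldFullC ↥(beta0Field A) (M * q)) →+* F)

include hπ ιC hq hqM in
/-- **(G-et)**, one generator: `t = y / φ γ'` with `φ e₂ · t ^ m = φ e₁`, `e₁, e₂ ∈ R₀ ∖ 𝔫`. -/
theorem rtk6gii_et_JinvF (hA : A.LiesOverPrime q)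
    (rigid : (q ≠ 2 → 4 ∣ M) ∧ (q = 2 → 9 ∣ M))
    (m : ℕ) {y : F} {u : ↥(modularFunctionFieldFullC ↥(beta0Field A) (M * q))} (hyu : y ^ m = φ u) (hu : u ≠ 0)
    (hhor : ∀ P : Place ↥(beta0Field A) ↥(modularFunctionFieldFullC ↥(beta0Field A) (M * q)), (m : ℤ) ∣ P.ord u)
    (hy₁ : (mgvV hπ ιC hq hqM true).valuation u = 1) {n₀ : ℤ}
    (hn₀ : (mgvV hπ ιC hq hqM false).valuation u = (mgvV hπ ιC hq hqM false).valuation
      (algebraMap ↥(beta0Ring A (beta0Field A)) ↥(modularFunctionFieldFullC ↥(beta0Field A) (M * q)) π) ^ n₀)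
    (hdvd : (m : ℤ) ∣ n₀)
    (𝔫 : AtPt (F := ↥(modularFunctionFieldFullC ↥(beta0Field A) (M * q))) π (bgJ ↥(beta0Field A) (M * q))⁻¹) :
    ∃ (γ' : ↥(modularFunctionFieldFullC ↥(beta0Field A) (M * q))) (e₁ e₂ : ↥(zchClosure (A₀ := ↥(beta0Ring A (beta0Field A))) ({(bgJ ↥(beta0Field A) (M * q))⁻¹} : Set ↥(modularFunctionFieldFullC ↥(beta0Field A) (M * q))))), γ' ≠ 0 ∧ e₁ ∉ 𝔫.1 ∧ e₂ ∉ 𝔫.1 ∧
      φ (e₂ : ↥(modularFunctionFieldFullC ↥(beta0Field A) (M * q))) * (y / φ γ') ^ m = φ (e₁ : ↥(modularFunctionFieldFullC ↥(beta0Field A) (M * q))) ∧ y = φ γ' * (y / φ γ') := by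
  obtain ⟨γ', e₁, e₂, hγ', he₁, he₂, h⟩ :=
    rtk6gii_et_Jinv hπ ιC hq hqM hA rigid m hu hhor hy₁ hn₀ hdvd 𝔫
  refine ⟨γ', e₁, e₂, hγ', he₁, he₂, rtk6gi_t_pow_hom φ hyu hγ' h, ?_⟩
  rw [mul_div_cancel₀ _ ((map_ne_zero φ).2 hγ')]

include hπ ιC hq hqM in
/-- **(G-et)**, finite family: the set `S` of the étale generators at the point `𝔫`, with the
fields `hS`, `hSet` of `Rtk6c4Cross` and the relation to the `y_i`. -/
theorem rtk6gii_et_family (hA : A.LiesOverPrime q)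
    (rigid : (q ≠ 2 → 4 ∣ M) ∧ (q = 2 → 9 ∣ M))
    (m : ℕ) {ι : Type*} [Finite ι] (y : ι → F) (u : ι → ↥(modularFunctionFieldFullC ↥(beta0Field A) (M * q))) (n₀ : ι → ℤ)
    (hyu : ∀ i, y i ^ m = φ (u i)) (hu : ∀ i, u i ≠ 0)
    (hhor : ∀ i, ∀ P : Place ↥(beta0Field A) ↥(modularFunctionFieldFullC ↥(beta0Field A) (M * q)), (m : ℤ) ∣ P.ord (u i))
    (hy₁ : ∀ i, (mgvV hπ ιC hq hqM true).valuation (u i) = 1)
    (hn₀ : ∀ i, (mgvV hπ ιC hq hqM false).valuation (u i) =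
      (mgvV hπ ιC hq hqM false).valuation
        (algebraMap ↥(beta0Ring A (beta0Field A)) ↥(modularFunctionFieldFullC ↥(beta0Field A) (M * q)) π) ^ n₀ i)
    (hdvd : ∀ i, (m : ℤ) ∣ n₀ i)
    (𝔫 : AtPt (F := ↥(modularFunctionFieldFullC ↥(beta0Field A) (M * q))) π (bgJ ↥(beta0Field A) (M * q))⁻¹) :
    ∃ S : Set F, S.Finite ∧
      (∀ t ∈ S, ∃ a b : ↥(zchClosure (A₀ := ↥(beta0Ring A (beta0Field A))) ({(bgJ ↥(beta0Field A) (M * q))⁻¹} : Set ↥(modularFunctionFieldFullC ↥(beta0Field A) (M * q)))), a ∉ 𝔫.1 ∧ b ∉ 𝔫.1 ∧ φ (b : ↥(modularFunctionFieldFullC ↥(beta0Field A) (M * q))) * t ^ m = φ (a : ↥(modularFunctionFieldFullC ↥(beta0Field A) (M * q)))) ∧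
      (∀ t ∈ S, ∃ i, ∃ c : ↥(modularFunctionFieldFullC ↥(beta0Field A) (M * q)), c ≠ 0 ∧ t = y i / φ c) ∧
      (∀ i, ∃ t ∈ S, ∃ c : ↥(modularFunctionFieldFullC ↥(beta0Field A) (M * q)), c ≠ 0 ∧ y i = φ c * t) := by
  have key := fun i => rtk6gii_et_JinvF hπ ιC hq hqM φ hA rigid m (hyu i) (hu i) (hhor i) (hy₁ i)
    (hn₀ i) (hdvd i) 𝔫
  choose γ' e₁ e₂ hγ' he₁ he₂ hpow hy using key
  refine ⟨Set.range fun i => y i / φ (γ' i), Set.finite_range _, ?_, ?_, ?_⟩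
  · rintro t ⟨i, rfl⟩
    exact ⟨e₁ i, e₂ i, he₁ i, he₂ i, hpow i⟩
  · rintro t ⟨i, rfl⟩
    exact ⟨i, γ' i, hγ' i, rfl⟩
  · intro i
    exact ⟨y i / φ (γ' i), ⟨i, rfl⟩, γ' i, hγ' i, hy i⟩

include hπ ιC hq hqM in
/-- **(G-sm)**: the generator for `ψ_r` at a closed point `𝔫` which is NOT a crossing point. -/
theorem rtk6gii_sm_JinvF (hA : A.LiesOverPrime q)
    (rigid : (q ≠ 2 → 4 ∣ M) ∧ (q = 2 → 9 ∣ M))
    (m : ℕ) {y ϖ₁ : F} {u : ↥(modularFunctionFieldFullC ↥(beta0Field A) (M * q))} (hyu : y ^ m = φ u) (hu : u ≠ 0)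
    (hhor : ∀ P : Place ↥(beta0Field A) ↥(modularFunctionFieldFullC ↥(beta0Field A) (M * q)), (m : ℤ) ∣ P.ord u)
    (hy₁ : (mgvV hπ ιC hq hqM true).valuation u = 1) {n₀ : ℤ}
    (hn₀ : (mgvV hπ ιC hq hqM false).valuation u = (mgvV hπ ιC hq hqM false).valuation
      (algebraMap ↥(beta0Ring A (beta0Field A)) ↥(modularFunctionFieldFullC ↥(beta0Field A) (M * q)) π) ^ n₀)
    {a b : ℤ} (hab : a * n₀ - b * m = 1)
    (hϖ : ϖ₁ ^ m = φ (algebraMap ↥(beta0Ring A (beta0Field A)) ↥(modularFunctionFieldFullC ↥(beta0Field A) (M * q)) π))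
    (𝔫 : AtPt (F := ↥(modularFunctionFieldFullC ↥(beta0Field A) (M * q))) π (bgJ ↥(beta0Field A) (M * q))⁻¹)
    (hnc : ¬ (atThrough 𝔫 (mgvV hπ ιC hq hqM true) ∧ atThrough 𝔫 (mgvV hπ ιC hq hqM false))) :
    ∃ (t : F) (a' b' : ↥(zchClosure (A₀ := ↥(beta0Ring A (beta0Field A))) ({(bgJ ↥(beta0Field A) (M * q))⁻¹} : Set ↥(modularFunctionFieldFullC ↥(beta0Field A) (M * q))))) (c : ↥(modularFunctionFieldFullC ↥(beta0Field A) (M * q))), a' ∉ 𝔫.1 ∧ b' ∉ 𝔫.1 ∧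
      φ (b' : ↥(modularFunctionFieldFullC ↥(beta0Field A) (M * q))) * t ^ m = φ (a' : ↥(modularFunctionFieldFullC ↥(beta0Field A) (M * q))) ∧ c ≠ 0 ∧
      ((atThrough 𝔫 (mgvV hπ ιC hq hqM true) ∧ y = φ c * t) ∨
        (atThrough 𝔫 (mgvV hπ ιC hq hqM false) ∧ y = φ c * (t * ϖ₁) ^ n₀)) := by
  haveI := 𝔫.2.1.isPrime
  have hπ0 : algebraMap ↥(beta0Ring A (beta0Field A)) ↥(modularFunctionFieldFullC ↥(beta0Field A) (M * q)) π ≠ 0 := ribmp_fc_hπ0 hπ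
  have hne : ∀ e : ↥(zchClosure (A₀ := ↥(beta0Ring A (beta0Field A))) ({(bgJ ↥(beta0Field A) (M * q))⁻¹} : Set ↥(modularFunctionFieldFullC ↥(beta0Field A) (M * q)))), e ∉ 𝔫.1 → (e : ↥(modularFunctionFieldFullC ↥(beta0Field A) (M * q))) ≠ 0 := fun e he h0 =>
    he ((Subtype.ext h0 : e = 0) ▸ 𝔫.1.zero_mem)
  rcases rtk6gii_LF_Jinv hπ ιC hq hqM hA rigid m hu hhor hy₁ hn₀ 𝔫 with
    ⟨X, Y, h, -⟩ | ⟨h1, h2, hs, γ, e₁, e₂, hγ, he₁, he₂, h⟩ |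
    ⟨h1, h2, hs, γ, e₁, e₂, hγ, he₁, he₂, h⟩
  · exact absurd ⟨h.1, h.2.1⟩ hnc
  · -- `Σ_0`
    have hpow := rtk6gi_sm_zero_pow_hom φ hyu hγ hπ0 (hne e₂ he₂) hϖ hab h
    have hγF : φ γ ≠ 0 := (map_ne_zero φ).2 hγ
    have hπF : φ (algebraMap ↥(beta0Ring A (beta0Field A)) ↥(modularFunctionFieldFullC ↥(beta0Field A) (M * q)) π) ≠ 0 :=
      (map_ne_zero φ).2 hπ0
    have he₁F : φ (e₁ : ↥(modularFunctionFieldFullC ↥(beta0Field A) (M * q))) ≠ 0 := (map_ne_zero φ).2 (hne e₁ he₁)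
    have he₂F : φ (e₂ : ↥(modularFunctionFieldFullC ↥(beta0Field A) (M * q))) ≠ 0 := (map_ne_zero φ).2 (hne e₂ he₂)
    have hm : 0 < m := by
      rcases Nat.eq_zero_or_pos m with hm | hm
      · exfalso
        subst hm
        rw [pow_zero] at hϖ
        have h1 : algebraMap ↥(beta0Ring A (beta0Field A)) ↥(modularFunctionFieldFullC ↥(beta0Field A) (M * q)) π = 1 :=
          φ.injective (by rw [← hϖ, map_one])
        have h3 := mgv_hπV hπ ιC hq hqM false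
        rw [h1, ValuationSubring.mem_nonunits_iff, map_one] at h3
        exact lt_irrefl _ h3
      · exact hm
    have hϖ0 : ϖ₁ ≠ 0 := by
      intro h0
      rw [h0, zero_pow hm.ne'] at hϖ
      exact hπF hϖ.symm
    -- the fraction form of `t ^ m = (e₁ / e₂) ^ a`
    obtain ⟨a', b', ha', hb', hab'⟩ : ∃ a' b' : ↥(zchClosure (A₀ := ↥(beta0Ring A (beta0Field A))) ({(bgJ ↥(beta0Field A) (M * q))⁻¹} : Set ↥(modularFunctionFieldFullC ↥(beta0Field A) (M * q)))), a' ∉ 𝔫.1 ∧ b' ∉ 𝔫.1 ∧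
        φ (b' : ↥(modularFunctionFieldFullC ↥(beta0Field A) (M * q))) * (φ (e₁ : ↥(modularFunctionFieldFullC ↥(beta0Field A) (M * q))) / φ (e₂ : ↥(modularFunctionFieldFullC ↥(beta0Field A) (M * q)))) ^ a = φ (a' : ↥(modularFunctionFieldFullC ↥(beta0Field A) (M * q))) := by
      rcases le_total 0 a with ha | ha
      · obtain ⟨n, rfl⟩ := Int.eq_ofNat_of_zero_le ha
        refine ⟨e₁ ^ n, e₂ ^ n, fun h => he₁ (‹𝔫.1.IsPrime›.mem_of_pow_mem n h),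
          fun h => he₂ (‹𝔫.1.IsPrime›.mem_of_pow_mem n h), ?_⟩
        rw [zpow_natCast, div_pow]
        push_cast
        rw [map_pow, map_pow, mul_div_assoc', mul_comm, mul_div_assoc,
          div_self (pow_ne_zero _ he₂F), mul_one]
      · obtain ⟨n, rfl⟩ := Int.exists_eq_neg_ofNat ha
        refine ⟨e₂ ^ n, e₁ ^ n, fun h => he₂ (‹𝔫.1.IsPrime›.mem_of_pow_mem n h),
          fun h => he₁ (‹𝔫.1.IsPrime›.mem_of_pow_mem n h), ?_⟩
        rw [zpow_neg, zpow_natCast, ← inv_pow, inv_div, div_pow]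
        push_cast
        rw [map_pow, map_pow, mul_div_assoc', mul_comm, mul_div_assoc,
          div_self (pow_ne_zero _ he₁F), mul_one]
    refine ⟨(y / φ γ) ^ a / (φ (algebraMap ↥(beta0Ring A (beta0Field A)) ↥(modularFunctionFieldFullC ↥(beta0Field A) (M * q)) π) ^ b * ϖ₁),
      a', b', γ * (((e₁ : ↥(modularFunctionFieldFullC ↥(beta0Field A) (M * q))) / (e₂ : ↥(modularFunctionFieldFullC ↥(beta0Field A) (M * q)))) ^ b)⁻¹, ha', hb', ?_,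
      mul_ne_zero hγ (inv_ne_zero (zpow_ne_zero _ (div_ne_zero (hne e₁ he₁) (hne e₂ he₂)))),
      Or.inr ⟨h1, ?_⟩⟩
    · rw [hpow]
      exact hab'
    · -- `y = γ ε^{-b} (t ϖ₁)^{n₀}`
      have hF := rtk6gi_LF_lift_hom φ hyu h
      have hyΓ : (y / φ γ) ^ m = φ (e₁ : ↥(modularFunctionFieldFullC ↥(beta0Field A) (M * q))) / φ (e₂ : ↥(modularFunctionFieldFullC ↥(beta0Field A) (M * q))) *
          φ (algebraMap ↥(beta0Ring A (beta0Field A)) ↥(modularFunctionFieldFullC ↥(beta0Field A) (M * q)) π) ^ n₀ := by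
        rw [div_pow, div_eq_iff (pow_ne_zero _ hγF), div_mul_eq_mul_div, div_mul_eq_mul_div,
          eq_div_iff he₂F, mul_comm]
        exact hF
      have hy0 : y / φ γ ≠ 0 := by
        intro h0
        rw [h0, zero_pow hm.ne'] at hyΓ
        exact mul_ne_zero (div_ne_zero he₁F he₂F) (zpow_ne_zero _ hπF) hyΓ.symm
      have hrel := rtk6gi_sm_zero_rel (T := y / φ γ)
        (P := φ (algebraMap ↥(beta0Ring A (beta0Field A))
          ↥(modularFunctionFieldFullC ↥(beta0Field A) (M * q)) π))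
        (E := φ (e₁ : ↥(modularFunctionFieldFullC ↥(beta0Field A) (M * q))) /
          φ (e₂ : ↥(modularFunctionFieldFullC ↥(beta0Field A) (M * q))))
        (ϖ₁ := ϖ₁) (d := m) (n₀ := n₀) (a := a) (b := b) hy0 hπF hϖ0 hab hyΓ
      have hE0 : (φ (e₁ : ↥(modularFunctionFieldFullC ↥(beta0Field A) (M * q))) /
          φ (e₂ : ↥(modularFunctionFieldFullC ↥(beta0Field A) (M * q)))) ^ b ≠ 0 :=
        zpow_ne_zero _ (div_ne_zero he₁F he₂F)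
      rw [hrel, map_mul, map_inv₀, map_zpow₀, map_div₀, mul_assoc, mul_comm (y / φ γ),
        ← mul_assoc _ _ (y / φ γ), inv_mul_cancel₀ hE0, one_mul,
        mul_div_cancel₀ _ hγF]
  · -- `Σ_∞`
    refine ⟨y / φ γ, e₁, e₂, γ, he₁, he₂, rtk6gi_t_pow_hom φ hyu hγ h, hγ, Or.inl ⟨h1, ?_⟩⟩
    rw [mul_div_cancel₀ _ ((map_ne_zero φ).2 hγ)]

end BaseF

section BasePack

variable {A : ValuationSubring Qb} {q M : ℕ} [NeZero q] [NeZero M] [NeZero (M * q)]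
  [IsDiscreteValuationRing ↥(beta0Ring A (beta0Field A))]
  {π : ↥(beta0Ring A (beta0Field A))} (hπ : Irreducible π)
  (ιC : ↥(beta0Field A) →+* ℂ) (hq : q.Prime) (hqM : ¬ q ∣ M)

variable {F : Type*} [Field F] [Algebra ↥(modularFunctionFieldFullC ↥(beta0Field A) (M * q)) F]

include hπ ιC hq hqM in
/-- **the étale pack at ANY closed point of the chart `1 / j`** (crossing or not): the fields `hS`,
`hSet`, `hgen`, `hσS`/`hδS` of `Rtk6c4Cross(E)`. -/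
theorem rtk6gii_cross_pack (hA : A.LiesOverPrime q)
    (rigid : (q ≠ 2 → 4 ∣ M) ∧ (q = 2 → 9 ∣ M))
    (m : ℕ) {ι : Type*} [Finite ι] (y : ι → F)
    (u : ι → ↥(modularFunctionFieldFullC ↥(beta0Field A) (M * q))) (n₀ : ι → ℤ)
    (hyu : ∀ i, y i ^ m = algebraMap ↥(modularFunctionFieldFullC ↥(beta0Field A) (M * q)) F (u i))
    (hu : ∀ i, u i ≠ 0)
    (hhor : ∀ i, ∀ P : Place ↥(beta0Field A) ↥(modularFunctionFieldFullC ↥(beta0Field A) (M * q)),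
      (m : ℤ) ∣ P.ord (u i))
    (hy₁ : ∀ i, (mgvV hπ ιC hq hqM true).valuation (u i) = 1)
    (hn₀ : ∀ i, (mgvV hπ ιC hq hqM false).valuation (u i) =
      (mgvV hπ ιC hq hqM false).valuation
        (algebraMap ↥(beta0Ring A (beta0Field A))
          ↥(modularFunctionFieldFullC ↥(beta0Field A) (M * q)) π) ^ n₀ i)
    (hdvd : ∀ i, (m : ℤ) ∣ n₀ i)
    (T Y : Set F) (hY : ∀ z ∈ Y, z ∈ T ∨ ∃ i, z = y i)
    (hF1 : Algebra.adjoin ↥(modularFunctionFieldFullC ↥(beta0Field A) (M * q)) Y = ⊤)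
    (𝔫 : AtPt (F := ↥(modularFunctionFieldFullC ↥(beta0Field A) (M * q))) π
      (bgJ ↥(beta0Field A) (M * q))⁻¹) :
    ∃ S : Set F, S.Finite ∧
      (∀ t ∈ S, ∃ a b : ↥(zchClosure (A₀ := ↥(beta0Ring A (beta0Field A)))
          ({(bgJ ↥(beta0Field A) (M * q))⁻¹} :
            Set ↥(modularFunctionFieldFullC ↥(beta0Field A) (M * q)))),
        a ∉ 𝔫.1 ∧ b ∉ 𝔫.1 ∧
        algebraMap ↥(modularFunctionFieldFullC ↥(beta0Field A) (M * q)) F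
            (b : ↥(modularFunctionFieldFullC ↥(beta0Field A) (M * q))) * t ^ m =
          algebraMap ↥(modularFunctionFieldFullC ↥(beta0Field A) (M * q)) F
            (a : ↥(modularFunctionFieldFullC ↥(beta0Field A) (M * q)))) ∧
      Algebra.adjoin ↥(modularFunctionFieldFullC ↥(beta0Field A) (M * q)) (S ∪ T) = ⊤ ∧
      (∀ σ : F ≃ₐ[↥(modularFunctionFieldFullC ↥(beta0Field A) (M * q))] F,
        (∀ i, σ (y i) = y i) → ∀ t ∈ S, σ t = t) ∧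
      (∀ t ∈ S, ∃ i, ∃ c : ↥(modularFunctionFieldFullC ↥(beta0Field A) (M * q)), c ≠ 0 ∧
        t = y i / algebraMap ↥(modularFunctionFieldFullC ↥(beta0Field A) (M * q)) F c) ∧
      (∀ i, ∃ t ∈ S, ∃ c : ↥(modularFunctionFieldFullC ↥(beta0Field A) (M * q)), c ≠ 0 ∧
        y i = algebraMap ↥(modularFunctionFieldFullC ↥(beta0Field A) (M * q)) F c * t) := by
  obtain ⟨S, hS, hSet, hSy, hyS⟩ := rtk6gii_et_family hπ ιC hq hqM
    (algebraMap ↥(modularFunctionFieldFullC ↥(beta0Field A) (M * q)) F) hA rigid m y u n₀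
    hyu hu hhor hy₁ hn₀ hdvd 𝔫
  refine ⟨S, hS, hSet, ?_, ?_, hSy, hyS⟩
  · refine rtk6gi_hgen_cross_abs y S T Y (fun i => ?_) hY hF1
    obtain ⟨t, ht, c, -, hc⟩ := hyS i
    exact ⟨t, ht, c, hc⟩
  · intro σ hσ
    exact rtk6gi_fix_set y S hSy σ hσ

include hπ ιC hq hqM in
/-- **the smooth pack**: at a closed point `𝔫` of the chart `1 / j` which is NOT a crossing point,
the fields `hS`, `hSet` (exponent `m`), `hgen` of `Rtk6c4Sm`: `F = K[{ϖ₁} ∪ S]`, every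
`t ∈ S` with `φ b · t ^ m = φ a`, `a, b ∈ R₀ ∖ 𝔫`.  The étale family has exponent `m`, the
ramified generator `y` and `ϖ₁` have exponent `m' ∣ m`. -/
theorem rtk6gii_sm_pack (hA : A.LiesOverPrime q)
    (rigid : (q ≠ 2 → 4 ∣ M) ∧ (q = 2 → 9 ∣ M))
    (m : ℕ) {ι : Type*} [Finite ι] (y : ι → F)
    (u : ι → ↥(modularFunctionFieldFullC ↥(beta0Field A) (M * q))) (n₀ : ι → ℤ)
    (hyu : ∀ i, y i ^ m = algebraMap ↥(modularFunctionFieldFullC ↥(beta0Field A) (M * q)) F (u i))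
    (hu : ∀ i, u i ≠ 0)
    (hhor : ∀ i, ∀ P : Place ↥(beta0Field A) ↥(modularFunctionFieldFullC ↥(beta0Field A) (M * q)),
      (m : ℤ) ∣ P.ord (u i))
    (hy₁ : ∀ i, (mgvV hπ ιC hq hqM true).valuation (u i) = 1)
    (hn₀ : ∀ i, (mgvV hπ ιC hq hqM false).valuation (u i) =
      (mgvV hπ ιC hq hqM false).valuation
        (algebraMap ↥(beta0Ring A (beta0Field A))
          ↥(modularFunctionFieldFullC ↥(beta0Field A) (M * q)) π) ^ n₀ i)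
    (hdvd : ∀ i, (m : ℤ) ∣ n₀ i)
    -- the ramified generator
    (m' : ℕ) (hm' : m' ∣ m) {yr ϖ₁ : F}
    {ur : ↥(modularFunctionFieldFullC ↥(beta0Field A) (M * q))}
    (hyur : yr ^ m' = algebraMap ↥(modularFunctionFieldFullC ↥(beta0Field A) (M * q)) F ur)
    (hur : ur ≠ 0)
    (hhorr : ∀ P : Place ↥(beta0Field A) ↥(modularFunctionFieldFullC ↥(beta0Field A) (M * q)),
      (m' : ℤ) ∣ P.ord ur)
    (hyr₁ : (mgvV hπ ιC hq hqM true).valuation ur = 1) {nr : ℤ}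
    (hnr : (mgvV hπ ιC hq hqM false).valuation ur = (mgvV hπ ιC hq hqM false).valuation
      (algebraMap ↥(beta0Ring A (beta0Field A))
        ↥(modularFunctionFieldFullC ↥(beta0Field A) (M * q)) π) ^ nr)
    {a b : ℤ} (hab : a * nr - b * m' = 1)
    (hϖ : ϖ₁ ^ m' = algebraMap ↥(modularFunctionFieldFullC ↥(beta0Field A) (M * q)) F
      (algebraMap ↥(beta0Ring A (beta0Field A))
        ↥(modularFunctionFieldFullC ↥(beta0Field A) (M * q)) π))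
    -- (F1)
    (Y : Set F) (hY : ∀ z ∈ Y, z = ϖ₁ ∨ z = yr ∨ ∃ i, z = y i)
    (hF1 : Algebra.adjoin ↥(modularFunctionFieldFullC ↥(beta0Field A) (M * q)) Y = ⊤)
    (𝔫 : AtPt (F := ↥(modularFunctionFieldFullC ↥(beta0Field A) (M * q))) π
      (bgJ ↥(beta0Field A) (M * q))⁻¹)
    (hnc : ¬ (atThrough 𝔫 (mgvV hπ ιC hq hqM true) ∧ atThrough 𝔫 (mgvV hπ ιC hq hqM false))) :
    ∃ S : Set F, S.Finite ∧
      (∀ t ∈ S, ∃ a b : ↥(zchClosure (A₀ := ↥(beta0Ring A (beta0Field A)))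
          ({(bgJ ↥(beta0Field A) (M * q))⁻¹} :
            Set ↥(modularFunctionFieldFullC ↥(beta0Field A) (M * q)))),
        a ∉ 𝔫.1 ∧ b ∉ 𝔫.1 ∧
        algebraMap ↥(modularFunctionFieldFullC ↥(beta0Field A) (M * q)) F
            (b : ↥(modularFunctionFieldFullC ↥(beta0Field A) (M * q))) * t ^ m =
          algebraMap ↥(modularFunctionFieldFullC ↥(beta0Field A) (M * q)) F
            (a : ↥(modularFunctionFieldFullC ↥(beta0Field A) (M * q)))) ∧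
      Algebra.adjoin ↥(modularFunctionFieldFullC ↥(beta0Field A) (M * q)) ({ϖ₁} ∪ S) = ⊤ := by
  haveI := 𝔫.2.1.isPrime
  have hπ0 : algebraMap ↥(beta0Ring A (beta0Field A))
      ↥(modularFunctionFieldFullC ↥(beta0Field A) (M * q)) π ≠ 0 := ribmp_fc_hπ0 hπ
  have hne : ∀ e : ↥(zchClosure (A₀ := ↥(beta0Ring A (beta0Field A)))
      ({(bgJ ↥(beta0Field A) (M * q))⁻¹} :
        Set ↥(modularFunctionFieldFullC ↥(beta0Field A) (M * q)))), e ∉ 𝔫.1 →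
      (e : ↥(modularFunctionFieldFullC ↥(beta0Field A) (M * q))) ≠ 0 := fun e he h0 =>
    he ((Subtype.ext h0 : e = 0) ▸ 𝔫.1.zero_mem)
  obtain ⟨S, hS, hSet, hSy, hyS⟩ := rtk6gii_et_family hπ ιC hq hqM
    (algebraMap ↥(modularFunctionFieldFullC ↥(beta0Field A) (M * q)) F) hA rigid m y u n₀
    hyu hu hhor hy₁ hn₀ hdvd 𝔫
  obtain ⟨t, a', b', c, ha', hb', ht, hc, hcase⟩ := rtk6gii_sm_JinvF hπ ιC hq hqM
    (algebraMap ↥(modularFunctionFieldFullC ↥(beta0Field A) (M * q)) F) hA rigid m' hyur hur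
    hhorr hyr₁ hnr hab hϖ 𝔫 hnc
  have hm'0 : 0 < m' := by
    rcases Nat.eq_zero_or_pos m' with h0 | h0
    · exfalso
      subst h0
      rw [pow_zero] at hϖ
      have h1 : algebraMap ↥(beta0Ring A (beta0Field A))
          ↥(modularFunctionFieldFullC ↥(beta0Field A) (M * q)) π = 1 :=
        (algebraMap ↥(modularFunctionFieldFullC ↥(beta0Field A) (M * q)) F).injective
          (by rw [← hϖ, map_one])
      have h3 := mgv_hπV hπ ιC hq hqM false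
      rw [h1, ValuationSubring.mem_nonunits_iff, map_one] at h3
      exact lt_irrefl _ h3
    · exact h0
  refine ⟨S ∪ {t}, hS.union (Set.finite_singleton t), ?_, ?_⟩
  · rintro s (hs | hs)
    · exact hSet s hs
    · rw [Set.mem_singleton_iff.1 hs]
      exact rtk6gi_pow_unify
        ((algebraMap ↥(modularFunctionFieldFullC ↥(beta0Field A) (M * q)) F).comp
          (zchClosure (A₀ := ↥(beta0Ring A (beta0Field A)))
            ({(bgJ ↥(beta0Field A) (M * q))⁻¹} :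
              Set ↥(modularFunctionFieldFullC ↥(beta0Field A) (M * q)))).subtype)
        𝔫.1 hm' ha' hb' ht
  · refine rtk6gi_hgen_sm_abs y S Y (fun i => ?_) hY hF1 ?_
    · obtain ⟨s, hs, c', -, hc'⟩ := hyS i
      exact ⟨s, hs, c', hc'⟩
    · rcases hcase with ⟨-, h⟩ | ⟨-, h⟩
      · exact Or.inl ⟨c, h⟩
      · refine Or.inr ⟨c, (a' : ↥(modularFunctionFieldFullC ↥(beta0Field A) (M * q))) /
          (b' : ↥(modularFunctionFieldFullC ↥(beta0Field A) (M * q))) *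
          algebraMap ↥(beta0Ring A (beta0Field A))
            ↥(modularFunctionFieldFullC ↥(beta0Field A) (M * q)) π, nr, m', hm'0,
          mul_ne_zero (div_ne_zero (hne a' ha') (hne b' hb')) hπ0, ?_, h⟩
        have hb'F : algebraMap ↥(modularFunctionFieldFullC ↥(beta0Field A) (M * q)) F
            (b' : ↥(modularFunctionFieldFullC ↥(beta0Field A) (M * q))) ≠ 0 :=
          (_root_.map_ne_zero _).2 (hne b' hb')
        rw [mul_pow, hϖ, map_mul, map_div₀, ← ht, mul_comm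
          (algebraMap ↥(modularFunctionFieldFullC ↥(beta0Field A) (M * q)) F
            (b' : ↥(modularFunctionFieldFullC ↥(beta0Field A) (M * q)))) (t ^ m'),
          mul_div_assoc, div_self hb'F, mul_one]

end BasePack

end Fermat.Agent.RT.K6

end


end ZBRT_097_3

/-! ### bundled: `Fermat.Agent.RT.K6.C4SmConcInv` -/
section ZBRT_097_4
/-
K-machine, piece K6, piece C4-SM (helper86), part 6, (SM-inst) on the CHART `1 / j`: **the CONCRETE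
structure `Rtk6c4Sm`** (`C4SmR0.lean`) at a closed point of the chart `1 / j` of
`F = rtk6diF A K₁ (M₁ q) M H` (over `A₁ = mgcA A K₁`, uniformizer `ϖ`, `ϖ ^ e = π`) lying over a
SMOOTH point of the chart `1 / j` of the `Γ₀`-field `K = F_{M₁ q}(ℚ̄^I)` (cusps included), rigid
level.  The verbatim twin of `C4SmConc.lean` (chart `j`), on top of helper54's `GenCrossInv.lean`
(`rtk6gxiJInv`, `rtk6gxiPtInv`), helper71's `LFInv.lean` and helper3's `GenInstInv.lean`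
(`rtk6gii_et_family`, `rtk6gii_sm_JinvF`).

* `rtk6c4smc_not_cross_inv_inv` : a smooth point of the base chart `1 / j` is not a crossing point;
* `rtk6c4smc_sm_inv`        : **`∃ S, Rtk6c4Sm jInv ι 𝔫 (m e) e π s₀ S ϖ`**;
* `rtk6c4smc_nodeAt_inv`    : **`Rtk6ewmNodeAt V 𝔫 (RingHom.id _) ϖ`** for every family `V`.
-/

set_option autoImplicit false
set_option linter.style.haveILetI false
set_option linter.unusedSectionVars false
set_option linter.unusedVariables false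
set_option linter.style.longLine false
set_option synthInstance.maxHeartbeats 400000
set_option maxHeartbeats 4000000

noncomputable section

namespace Fermat.Agent.RT.K6

open ModularCurve Polynomial IntermediateField Fermat.Agent.INJ Fermat.Agent.AL AlgebraicCurve
open Fermat.Agent.ES Fermat.Agent.ES.G2 Fermat.Agent.STB Fermat.Agent.UNIP Fermat.Agent.S36
open Fermat.Agent.RIB.MP Fermat.Agent.ES1



section Base

variable {A : ValuationSubring Qb} {q M₁ : ℕ} [NeZero q] [NeZero M₁] [NeZero (M₁ * q)]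
  [IsDiscreteValuationRing ↥(beta0Ring A (beta0Field A))]
  {π : ↥(beta0Ring A (beta0Field A))} (hπ : Irreducible π)
  (ιC : ↥(beta0Field A) →+* ℂ) (hq : q.Prime) (hqM : ¬ q ∣ M₁)

include hπ ιC hq hqM in
/-- **a smooth point of the base chart `j` is not a crossing point** -/
theorem rtk6c4smc_not_cross_inv (hA : A.LiesOverPrime q)
    (rigid : (q ≠ 2 → 4 ∣ M₁) ∧ (q = 2 → 9 ∣ M₁))
    (𝔫 : AtPt (F := ↥(modularFunctionFieldFullC ↥(beta0Field A) (M₁ * q))) π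
      (bgJ ↥(beta0Field A) (M₁ * q))⁻¹)
    {s : ↥(zchClosure (A₀ := ↥(beta0Ring A (beta0Field A)))
      ({(bgJ ↥(beta0Field A) (M₁ * q))⁻¹} :
        Set ↥(modularFunctionFieldFullC ↥(beta0Field A) (M₁ * q))))} (hs : s ∈ 𝔫.1)
    (hgen : NodesLocGen 𝔫.1 {algebraMap ↥(beta0Ring A (beta0Field A))
      ↥(zchClosure (A₀ := ↥(beta0Ring A (beta0Field A)))
        ({(bgJ ↥(beta0Field A) (M₁ * q))⁻¹} :
          Set ↥(modularFunctionFieldFullC ↥(beta0Field A) (M₁ * q)))) π, s}) :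
    ¬ (atThrough 𝔫 (mgvV hπ ιC hq hqM true) ∧ atThrough 𝔫 (mgvV hπ ιC hq hqM false)) := by
  rintro ⟨h₁, h₂⟩
  obtain ⟨c, -, hone, -⟩ := rtk6lfi_smooth_LF_Jinv hπ ιC hq hqM hA le_rfl
    (rtk6lfb_rigid_h2 rigid) (rtk6lfb_rigid_h3 rigid) 𝔫 hs hgen 1
    (y := 1) one_ne_zero (fun P _ => one_dvd _)
  have e1 := hone true h₁
  have e2 := hone false h₂
  rw [← e2] at e1
  exact Bool.noConfusion e1

end Base

section Conc

variable {A : ValuationSubring Qb} {q M₁ : ℕ} [NeZero q] [NeZero M₁] [NeZero (M₁ * q)]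
  [IsDiscreteValuationRing ↥(beta0Ring A (beta0Field A))]
  {π : ↥(beta0Ring A (beta0Field A))} (hπ : Irreducible π)
  (ιC : ↥(beta0Field A) →+* ℂ) (hq : q.Prime) (hqM : ¬ q ∣ M₁)
  (K₁ : IntermediateField ℚ Qb) [NumberField ↥K₁] [IsGalois ℚ ↥K₁]
  [IsDiscreteValuationRing ↥(mgcA A K₁)]
  (M : ℕ) [NeZero M] (H : Subgroup (ZMod M)ˣ)
  (f : ↥(beta0Field A) →+* ↥(mgcE A K₁))
  (hf : ∀ a : ↥(beta0Field A), ((f a : ↥(mgcE A K₁)) : Qb) = (a : Qb))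
  [Algebra ↥(modularFunctionFieldFullC ↥(beta0Field A) (M₁ * q))
    ↥(rtk6diF A K₁ (M₁ * q) M H)]
  (halg : ∀ z : ↥(modularFunctionFieldFullC ↥(beta0Field A) (M₁ * q)),
    algebraMap ↥(modularFunctionFieldFullC ↥(beta0Field A) (M₁ * q))
      ↥(rtk6diF A K₁ (M₁ * q) M H) z = rtk6c4fdIota f (M₁ * q) M H z)
  (hA : A.LiesOverPrime q) {e : ℕ} (he0 : e ≠ 0) {ϖ : ↥(mgcA A K₁)}
  (hϖe : ϖ ^ e =
    beta0RingIncl (A := A) (le_sup_left : beta0Field A ≤ beta0Field A ⊔ K₁) π)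

include hπ ιC hqM in
/-- **(SM-inst): the concrete structure `Rtk6c4Sm`** at a closed point `𝔫` of the chart `1 / j` of `F`
over a smooth point `(π, s₀)` of the chart `1 / j` of `K`. -/
theorem rtk6c4smc_sm_inv (rigid : (q ≠ 2 → 4 ∣ M₁) ∧ (q = 2 → 9 ∣ M₁)) (hqe : ¬ q ∣ e)
    {m : ℕ} (hm0 : m ≠ 0) (hqm : ¬ q ∣ m)
    (𝔫 : AtPt (F := ↥(rtk6diF A K₁ (M₁ * q) M H)) ϖ (rtk6diT A K₁ (M₁ * q) M H)⁻¹)
    {s₀ : ↥(zchClosure (A₀ := ↥(beta0Ring A (beta0Field A)))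
      ({(bgJ ↥(beta0Field A) (M₁ * q))⁻¹} :
        Set ↥(modularFunctionFieldFullC ↥(beta0Field A) (M₁ * q))))}
    (hs₀ : s₀ ∈ (rtk6gxiPtInv hq K₁ M H f hf halg hA he0 hϖe 𝔫).1)
    (hgen₀ : NodesLocGen (rtk6gxiPtInv hq K₁ M H f hf halg hA he0 hϖe 𝔫).1
      {algebraMap ↥(beta0Ring A (beta0Field A))
        ↥(zchClosure (A₀ := ↥(beta0Ring A (beta0Field A)))
          ({(bgJ ↥(beta0Field A) (M₁ * q))⁻¹} :
            Set ↥(modularFunctionFieldFullC ↥(beta0Field A) (M₁ * q)))) π, s₀})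
    -- the ramified Kummer generator `y`, `y ^ e = z ∈ K`
    {z : ↥(modularFunctionFieldFullC ↥(beta0Field A) (M₁ * q))} (hz0 : z ≠ 0)
    (hhor : ∀ P : Place ↥(beta0Field A) ↥(modularFunctionFieldFullC ↥(beta0Field A) (M₁ * q)),
      (e : ℤ) ∣ P.ord z)
    (hz₁ : (mgvV hπ ιC hq hqM true).valuation z = 1) {n₀ : ℤ}
    (hn₀ : (mgvV hπ ιC hq hqM false).valuation z = (mgvV hπ ιC hq hqM false).valuation
      (algebraMap ↥(beta0Ring A (beta0Field A))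
        ↥(modularFunctionFieldFullC ↥(beta0Field A) (M₁ * q)) π) ^ n₀)
    {y : ↥(rtk6diF A K₁ (M₁ * q) M H)}
    (hzy : algebraMap ↥(modularFunctionFieldFullC ↥(beta0Field A) (M₁ * q))
      ↥(rtk6diF A K₁ (M₁ * q) M H) z = y ^ e)
    {a b : ℤ} (hab : a * n₀ - b * e = 1)
    -- the étale Kummer generators `yy i`, `yy i ^ m = uu i ∈ K`
    {ι : Type*} [Finite ι] (yy : ι → ↥(rtk6diF A K₁ (M₁ * q) M H))
    (uu : ι → ↥(modularFunctionFieldFullC ↥(beta0Field A) (M₁ * q))) (nn : ι → ℤ)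
    (hyu : ∀ i, yy i ^ m = algebraMap ↥(modularFunctionFieldFullC ↥(beta0Field A) (M₁ * q))
      ↥(rtk6diF A K₁ (M₁ * q) M H) (uu i))
    (hu : ∀ i, uu i ≠ 0)
    (hhor' : ∀ i, ∀ P : Place ↥(beta0Field A)
      ↥(modularFunctionFieldFullC ↥(beta0Field A) (M₁ * q)), (m : ℤ) ∣ P.ord (uu i))
    (hy₁' : ∀ i, (mgvV hπ ιC hq hqM true).valuation (uu i) = 1)
    (hn₀' : ∀ i, (mgvV hπ ιC hq hqM false).valuation (uu i) =
      (mgvV hπ ιC hq hqM false).valuation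
        (algebraMap ↥(beta0Ring A (beta0Field A))
          ↥(modularFunctionFieldFullC ↥(beta0Field A) (M₁ * q)) π) ^ nn i)
    (hdvd : ∀ i, (m : ℤ) ∣ nn i)
    -- generation
    (hgen : Algebra.adjoin ↥(modularFunctionFieldFullC ↥(beta0Field A) (M₁ * q))
      (({algebraMap ↥(mgcA A K₁) ↥(rtk6diF A K₁ (M₁ * q) M H) ϖ, y} :
        Set ↥(rtk6diF A K₁ (M₁ * q) M H)) ∪ Set.range yy) = ⊤) :
    ∃ S : Set ↥(rtk6diF A K₁ (M₁ * q) M H),
      Rtk6c4Sm (K := ↥(modularFunctionFieldFullC ↥(beta0Field A) (M₁ * q)))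
        (rtk6gxiJInv K₁ M H f hf halg)
        (algebraMap ↥(zchClosure (A₀ := ↥(mgcA A K₁))
          ({(rtk6diT A K₁ (M₁ * q) M H)⁻¹} : Set ↥(rtk6diF A K₁ (M₁ * q) M H)))
          ↥(rtk6diF A K₁ (M₁ * q) M H)) 𝔫.1 (m * e) e
        (algebraMap ↥(beta0Ring A (beta0Field A))
          ↥(zchClosure (A₀ := ↥(beta0Ring A (beta0Field A)))
            ({(bgJ ↥(beta0Field A) (M₁ * q))⁻¹} :
              Set ↥(modularFunctionFieldFullC ↥(beta0Field A) (M₁ * q)))) π) s₀ S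
        (algebraMap ↥(mgcA A K₁) ↥(rtk6diF A K₁ (M₁ * q) M H) ϖ) := by
  classical
  haveI h𝔫₀p : (rtk6gxiPtInv hq K₁ M H f hf halg hA he0 hϖe 𝔫).1.IsPrime :=
    (rtk6gxiPtInv hq K₁ M H f hf halg hA he0 hϖe 𝔫).2.1.isPrime
  -- abbreviations
  set φ := algebraMap ↥(modularFunctionFieldFullC ↥(beta0Field A) (M₁ * q))
    ↥(rtk6diF A K₁ (M₁ * q) M H) with hφ
  set ϖ₁ := algebraMap ↥(mgcA A K₁) ↥(rtk6diF A K₁ (M₁ * q) M H) ϖ with hϖ₁
  have hϖpow : ϖ₁ ^ e = φ (algebraMap ↥(beta0Ring A (beta0Field A))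
      ↥(modularFunctionFieldFullC ↥(beta0Field A) (M₁ * q)) π) := by
    rw [hϖ₁, ← map_pow, hϖe]
    exact (rtk6gxi_hgφ K₁ M H f hf halg π).symm
  -- the point is not a crossing point
  have hnc := rtk6c4smc_not_cross_inv hπ ιC hq hqM hA rigid
    (rtk6gxiPtInv hq K₁ M H f hf halg hA he0 hϖe 𝔫) hs₀ hgen₀
  -- (G-et)
  obtain ⟨S₁, hS₁, hSet₁, -, hyS₁⟩ := rtk6gii_et_family hπ ιC hq hqM φ hA rigid m yy uu nn hyu hu
    hhor' hy₁' hn₀' hdvd (rtk6gxiPtInv hq K₁ M H f hf halg hA he0 hϖe 𝔫)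
  -- (G-sm)
  obtain ⟨t, a', b', c, ha', hb', hpow, hc, hyt⟩ := rtk6gii_sm_JinvF hπ ιC hq hqM φ hA rigid e
    hzy.symm hz0 hhor hz₁ hn₀ hab hϖpow (rtk6gxiPtInv hq K₁ M H f hf halg hA he0 hϖe 𝔫) hnc
  -- `d ∉ 𝔫`
  have hcop : Nat.Coprime (m * e) q := by
    apply Nat.Coprime.mul_left
    · exact Nat.coprime_comm.1 ((Nat.Prime.coprime_iff_not_dvd hq).2 hqm)
    · exact Nat.coprime_comm.1 ((Nat.Prime.coprime_iff_not_dvd hq).2 hqe)
  have hdn : (((m * e : ℕ) : ℕ) : ↥(zchClosure (A₀ := ↥(mgcA A K₁))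
      ({(rtk6diT A K₁ (M₁ * q) M H)⁻¹} : Set ↥(rtk6diF A K₁ (M₁ * q) M H)))) ∉ 𝔫.1 :=
    rtk6gxi_natCast_not_mem 𝔫.1 𝔫.2.1.ne_top (rtk6gxi_q_mem_inv hπ hq K₁ M H hA he0 hϖe 𝔫) hcop
  -- integrality of `t` and `ϖ₁` over `K`
  have hb'0 : (b' : ↥(modularFunctionFieldFullC ↥(beta0Field A) (M₁ * q))) ≠ 0 := fun h0 =>
    hb' ((Subtype.ext h0 : b' = 0) ▸ Ideal.zero_mem _)
  have hepos : 0 < e := Nat.pos_of_ne_zero he0
  have htint : IsIntegral ↥(modularFunctionFieldFullC ↥(beta0Field A) (M₁ * q)) t := by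
    apply IsIntegral.of_pow hepos
    have h1 : t ^ e = φ ((a' : ↥(modularFunctionFieldFullC ↥(beta0Field A) (M₁ * q))) /
        (b' : ↥(modularFunctionFieldFullC ↥(beta0Field A) (M₁ * q)))) := by
      rw [map_div₀, eq_div_iff ((map_ne_zero φ).2 hb'0), ← hpow]
      exact mul_comm _ _
    rw [h1]
    exact isIntegral_algebraMap
  have hϖint : IsIntegral ↥(modularFunctionFieldFullC ↥(beta0Field A) (M₁ * q)) ϖ₁ := by
    apply IsIntegral.of_pow hepos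
    rw [hϖpow]
    exact isIntegral_algebraMap
  refine ⟨insert t S₁, rtk6c4smi_mk (E₀ := ↥(beta0Field A)) hπ (bgJ ↥(beta0Field A) (M₁ * q))⁻¹
    (mgvV hπ ιC hq hqM) (mgv_hBV₂ hπ ιC hq hqM) (mgv_hπV hπ ιC hq hqM)
    (ribmp_fc_hSS1_inv hπ ιC hq hqM hA le_rfl (rtk6lfb_rigid_h2 rigid) (rtk6lfb_rigid_h3 rigid))
    𝔫 (rtk6gxiJInv K₁ M H f hf halg) _ (fun _ => rfl) (fun _ => rfl)
    (fun b => rtk6gxa_hint _ (rtk6gxi_hgφ K₁ M H f hf halg) (rtk6gxi_hu_inv K₁ M H f halg)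
      (rtk6gxi_hg K₁ hq hA) b)
    (fun x hx => ⟨⟨x, rtk6gxa_hcl _ (rtk6gxi_hgφ K₁ M H f hf halg)
      (rtk6gxi_hu_inv K₁ M H f halg) hx⟩, rfl⟩)
    (by rw [map_natCast]; exact hdn)
    (rtk6gxiPtInv hq K₁ M H f hf halg hA he0 hϖe 𝔫) rfl hs₀ hgen₀ he0 hϖpow
    (hS₁.insert t) ?_ ?_⟩
  · -- hSet, exponent `m * e`
    have hkey : ∀ r : ↥(zchClosure (A₀ := ↥(beta0Ring A (beta0Field A)))
        ({(bgJ ↥(beta0Field A) (M₁ * q))⁻¹} :
          Set ↥(modularFunctionFieldFullC ↥(beta0Field A) (M₁ * q)))),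
        algebraMap ↥(zchClosure (A₀ := ↥(beta0Ring A (beta0Field A)))
          ({(bgJ ↥(beta0Field A) (M₁ * q))⁻¹} :
            Set ↥(modularFunctionFieldFullC ↥(beta0Field A) (M₁ * q))))
          ↥(rtk6diF A K₁ (M₁ * q) M H) r =
        φ (r : ↥(modularFunctionFieldFullC ↥(beta0Field A) (M₁ * q))) := fun _ => rfl
    intro x hx
    rcases hx with rfl | hx
    · refine ⟨a' ^ m, b' ^ m, fun h => ha' (h𝔫₀p.mem_of_pow_mem m h),
        fun h => hb' (h𝔫₀p.mem_of_pow_mem m h), ?_⟩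
      rw [hkey, hkey, Subalgebra.coe_pow, Subalgebra.coe_pow, map_pow, map_pow,
        Nat.mul_comm m e, pow_mul, ← mul_pow, hpow]
    · obtain ⟨a₁, b₁, ha₁, hb₁, hab₁⟩ := hSet₁ x hx
      refine ⟨a₁ ^ e, b₁ ^ e, fun h => ha₁ (h𝔫₀p.mem_of_pow_mem e h),
        fun h => hb₁ (h𝔫₀p.mem_of_pow_mem e h), ?_⟩
      rw [hkey, hkey, Subalgebra.coe_pow, Subalgebra.coe_pow, map_pow, map_pow,
        pow_mul, ← mul_pow, hab₁]
  · -- generation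
    rw [eq_top_iff, ← hgen]
    refine Algebra.adjoin_le ?_
    rintro x (hx | ⟨i, rfl⟩)
    · rcases hx with rfl | hx
      · exact Algebra.subset_adjoin (Or.inl rfl)
      · rw [Set.mem_singleton_iff] at hx
        subst hx
        have htm : t ∈ Algebra.adjoin ↥(modularFunctionFieldFullC ↥(beta0Field A) (M₁ * q))
            (({ϖ₁} : Set ↥(rtk6diF A K₁ (M₁ * q) M H)) ∪ insert t S₁) :=
          Algebra.subset_adjoin (Or.inr (Set.mem_insert _ _))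
        have hϖm : ϖ₁ ∈ Algebra.adjoin ↥(modularFunctionFieldFullC ↥(beta0Field A) (M₁ * q))
            (({ϖ₁} : Set ↥(rtk6diF A K₁ (M₁ * q) M H)) ∪ insert t S₁) :=
          Algebra.subset_adjoin (Or.inl rfl)
        rcases hyt with ⟨-, hy⟩ | ⟨-, hy⟩
        · rw [hy]
          exact Subalgebra.mul_mem _ (Subalgebra.algebraMap_mem _ _) htm
        · rw [hy]
          exact Subalgebra.mul_mem _ (Subalgebra.algebraMap_mem _ _)
            (rtk6c4smc_zpow_mem _ (Subalgebra.mul_mem _ htm hϖm) (htint.mul hϖint) n₀)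
    · obtain ⟨t₁, ht₁, c₁, -, hyi⟩ := hyS₁ i
      show yy i ∈ _
      rw [hyi]
      exact Subalgebra.mul_mem _ (Subalgebra.algebraMap_mem _ _)
        (Algebra.subset_adjoin (Or.inr (Set.mem_insert_of_mem _ ht₁)))

include hπ ιC hqM in
/-- **(SM-inst), `Rtk6ewmNodeAt` form**: the smooth alternative of the dichotomy at a closed point
`𝔫` of the chart `1 / j` of `F` over a smooth point of the chart `1 / j` of `K`, for every family `V`. -/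
theorem rtk6c4smc_nodeAt_inv (rigid : (q ≠ 2 → 4 ∣ M₁) ∧ (q = 2 → 9 ∣ M₁)) (hqe : ¬ q ∣ e)
    {m : ℕ} (hm0 : m ≠ 0) (hqm : ¬ q ∣ m)
    {κ : Type*} (V : κ → ValuationSubring ↥(rtk6diF A K₁ (M₁ * q) M H))
    (𝔫 : AtPt (F := ↥(rtk6diF A K₁ (M₁ * q) M H)) ϖ (rtk6diT A K₁ (M₁ * q) M H)⁻¹)
    (hsm : ∃ s₀ : ↥(zchClosure (A₀ := ↥(beta0Ring A (beta0Field A)))
        ({(bgJ ↥(beta0Field A) (M₁ * q))⁻¹} :
          Set ↥(modularFunctionFieldFullC ↥(beta0Field A) (M₁ * q)))),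
      s₀ ∈ (rtk6gxiPtInv hq K₁ M H f hf halg hA he0 hϖe 𝔫).1 ∧
      NodesLocGen (rtk6gxiPtInv hq K₁ M H f hf halg hA he0 hϖe 𝔫).1
        {algebraMap ↥(beta0Ring A (beta0Field A))
          ↥(zchClosure (A₀ := ↥(beta0Ring A (beta0Field A)))
            ({(bgJ ↥(beta0Field A) (M₁ * q))⁻¹} :
              Set ↥(modularFunctionFieldFullC ↥(beta0Field A) (M₁ * q)))) π, s₀})
    {z : ↥(modularFunctionFieldFullC ↥(beta0Field A) (M₁ * q))} (hz0 : z ≠ 0)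
    (hhor : ∀ P : Place ↥(beta0Field A) ↥(modularFunctionFieldFullC ↥(beta0Field A) (M₁ * q)),
      (e : ℤ) ∣ P.ord z)
    (hz₁ : (mgvV hπ ιC hq hqM true).valuation z = 1) {n₀ : ℤ}
    (hn₀ : (mgvV hπ ιC hq hqM false).valuation z = (mgvV hπ ιC hq hqM false).valuation
      (algebraMap ↥(beta0Ring A (beta0Field A))
        ↥(modularFunctionFieldFullC ↥(beta0Field A) (M₁ * q)) π) ^ n₀)
    {y : ↥(rtk6diF A K₁ (M₁ * q) M H)}
    (hzy : algebraMap ↥(modularFunctionFieldFullC ↥(beta0Field A) (M₁ * q))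
      ↥(rtk6diF A K₁ (M₁ * q) M H) z = y ^ e)
    {a b : ℤ} (hab : a * n₀ - b * e = 1)
    {ι : Type*} [Finite ι] (yy : ι → ↥(rtk6diF A K₁ (M₁ * q) M H))
    (uu : ι → ↥(modularFunctionFieldFullC ↥(beta0Field A) (M₁ * q))) (nn : ι → ℤ)
    (hyu : ∀ i, yy i ^ m = algebraMap ↥(modularFunctionFieldFullC ↥(beta0Field A) (M₁ * q))
      ↥(rtk6diF A K₁ (M₁ * q) M H) (uu i))
    (hu : ∀ i, uu i ≠ 0)
    (hhor' : ∀ i, ∀ P : Place ↥(beta0Field A)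
      ↥(modularFunctionFieldFullC ↥(beta0Field A) (M₁ * q)), (m : ℤ) ∣ P.ord (uu i))
    (hy₁' : ∀ i, (mgvV hπ ιC hq hqM true).valuation (uu i) = 1)
    (hn₀' : ∀ i, (mgvV hπ ιC hq hqM false).valuation (uu i) =
      (mgvV hπ ιC hq hqM false).valuation
        (algebraMap ↥(beta0Ring A (beta0Field A))
          ↥(modularFunctionFieldFullC ↥(beta0Field A) (M₁ * q)) π) ^ nn i)
    (hdvd : ∀ i, (m : ℤ) ∣ nn i)
    (hgen : Algebra.adjoin ↥(modularFunctionFieldFullC ↥(beta0Field A) (M₁ * q))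
      (({algebraMap ↥(mgcA A K₁) ↥(rtk6diF A K₁ (M₁ * q) M H) ϖ, y} :
        Set ↥(rtk6diF A K₁ (M₁ * q) M H)) ∪ Set.range yy) = ⊤) :
    Rtk6ewmNodeAt V 𝔫 (RingHom.id ↥(zchClosure (A₀ := ↥(mgcA A K₁))
        ({(rtk6diT A K₁ (M₁ * q) M H)⁻¹} : Set ↥(rtk6diF A K₁ (M₁ * q) M H))))
      (algebraMap ↥(mgcA A K₁) ↥(zchClosure (A₀ := ↥(mgcA A K₁))
        ({(rtk6diT A K₁ (M₁ * q) M H)⁻¹} : Set ↥(rtk6diF A K₁ (M₁ * q) M H))) ϖ) := by
  obtain ⟨s₀, hs₀, hgen₀⟩ := hsm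
  obtain ⟨S, hS⟩ := rtk6c4smc_sm_inv hπ ιC hq hqM K₁ M H f hf halg hA he0 hϖe rigid hqe hm0 hqm 𝔫
    hs₀ hgen₀ hz0 hhor hz₁ hn₀ hzy hab yy uu nn hyu hu hhor' hy₁' hn₀' hdvd hgen
  haveI := ribmp_fc_fin_inv (K₀ := beta0Field A) (M₁ * q)
  haveI : CharZero ↥(modularFunctionFieldFullC ↥(beta0Field A) (M₁ * q)) :=
    charZero_of_injective_algebraMap
      (algebraMap ↥(beta0Field A) ↥(modularFunctionFieldFullC ↥(beta0Field A) (M₁ * q))).injective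
  haveI : IsFractionRing ↥(zchClosure (A₀ := ↥(beta0Ring A (beta0Field A)))
      ({(bgJ ↥(beta0Field A) (M₁ * q))⁻¹} :
        Set ↥(modularFunctionFieldFullC ↥(beta0Field A) (M₁ * q))))
      ↥(modularFunctionFieldFullC ↥(beta0Field A) (M₁ * q)) :=
    mgc_chart_isFractionRing (A₀ := ↥(beta0Ring A (beta0Field A))) (E₀ := ↥(beta0Field A))
      (bgJ ↥(beta0Field A) (M₁ * q))⁻¹
  haveI : IsIntegrallyClosed ↥(zchClosure (A₀ := ↥(beta0Ring A (beta0Field A)))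
      ({(bgJ ↥(beta0Field A) (M₁ * q))⁻¹} :
        Set ↥(modularFunctionFieldFullC ↥(beta0Field A) (M₁ * q)))) :=
    mgc_chart_isIntegrallyClosed (A₀ := ↥(beta0Ring A (beta0Field A))) (E₀ := ↥(beta0Field A))
      (bgJ ↥(beta0Field A) (M₁ * q))⁻¹
  exact rtk6c4sm0_nodeAt (K := ↥(modularFunctionFieldFullC ↥(beta0Field A) (M₁ * q))) V 𝔫
    (rtk6gxiJInv K₁ M H f hf halg) _ (fun _ => rfl) hS hπ rfl

end Conc

end Fermat.Agent.RT.K6

end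


end ZBRT_097_4

/-! ### bundled: `Fermat.Agent.RT.K6.C4AsmSm` -/
section ZBRT_097_5
/-
K-machine, piece K6, piece C4-χ-ASM, **the DISCHARGE of `hsm`** (helper86) at the thin level
`K₁ = rtk6ebK q d_q` (`d_q = rtk6psiDr M q H`), both charts: the twin of helper54's discharge of
`hcr` (`C4AsmCr.lean`).

`hsm` of helper94's `rtk6c4aj_plusAt` (`C4AsmJ.lean`), LITERALLY: at a closed point `𝔫` of the
chart `j` (resp. `1 / j`) of `F₁ = rtk6diF A K₁ (M₁ q) M H` over `A₁ = mgcA A K₁` (uniformizer `ϖ`,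
`ϖ ^ d_q = q`), if `𝔫₀ = 𝔫 ∩ R₀` is a SMOOTH point `(π, s₀)` of the chart of the `Γ₀`-field
`K = F_{M₁ q}(ℚ̄^I)`, then `𝔫` is a smooth point `(ϖ, s)`.

Inputs, all on main:
* PSI (`Psi.lean`): the characters `ψ_q`, `ψ′_i` over `ℚ̄^I` (`rtk6psi_exists`; the roots of unity
  of order prime to `q` lie in `ℚ̄^I`, `rtk6eb_root_mem_beta0`);
* N0 (`N0Final.lean`, helper6): the valuations of the normalised Kummer elements `u′`;
* D-unr (`DUnr.lean`): the horizontal divisibility `d ∣ ord_P u′`;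
* WIRE (`C4ChiWireGen.lean`, helper70): (F1) `K[y′_{ψ′_i}, C ϖ, y′_{ψ_q}] = F₁`;
* (SM-inst) (`C4SmConc.lean`, `C4SmConcInv.lean`): the concrete structure `Rtk6c4Sm`.

* `rtk6c4as_rigid`     : `4 ∣ M₁ q`, `q ∤ M₁` ⇒ the level is rigid;
* `rtk6c4as_root`      : a primitive `d`-th root of unity in `ℚ̄^I`, `q ∤ d`;
* `rtk6c4as_hsm_both`  : `hsm` on the two charts;
* `rtk6c4as_hsm`, `rtk6c4as_hsm_inv` : **`hsm` of `rtk6c4aj_plusAt` and of its `1 / j` twin**.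
-/

set_option autoImplicit false
set_option linter.style.haveILetI false
set_option linter.unusedSectionVars false
set_option linter.unusedVariables false
set_option linter.style.longLine false
set_option synthInstance.maxHeartbeats 400000
set_option maxHeartbeats 4000000

noncomputable section

namespace Fermat.Agent.RT.K6

open ModularCurve Polynomial IntermediateField Fermat.Agent.INJ Fermat.Agent.AL AlgebraicCurve
open Fermat.Agent.ES Fermat.Agent.ES.G2 Fermat.Agent.STB Fermat.Agent.UNIP Fermat.Agent.S36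
open Fermat.Agent.RIB.MP Fermat.Agent.ES1 Fermat.Agent.ES1.G2

section Arith

/-- `q ≠ 2` at a level `M₁ q` divisible by `4`, `q ∤ M₁` -/
theorem rtk6c4as_ne_two {q M₁ : ℕ} (hqM : ¬ q ∣ M₁) (h4 : 4 ∣ M₁ * q) : q ≠ 2 := by
  rintro rfl
  apply hqM
  omega

/-- the level `M₁ q` is rigid -/
theorem rtk6c4as_rigid {q M₁ : ℕ} (hq : q.Prime) (hqM : ¬ q ∣ M₁) (h4 : 4 ∣ M₁ * q) :
    (q ≠ 2 → 4 ∣ M₁) ∧ (q = 2 → 9 ∣ M₁) := by
  have hq2 := rtk6c4as_ne_two hqM h4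
  refine ⟨fun _ => ?_, fun h => absurd h hq2⟩
  have hodd : Nat.Coprime 4 q := by
    have h2q : Nat.Coprime 2 q := (Nat.coprime_primes Nat.prime_two hq).mpr (Ne.symm hq2)
    exact Nat.Coprime.pow_left 2 h2q
  exact (Nat.Coprime.dvd_mul_right hodd).mp h4

/-- `3 ≤ M` -/
theorem rtk6c4as_three_le {q M₁ M : ℕ} (hq : q.Prime) (hqN : q ∣ M) (hM0 : M ≠ 0)
    (hqM : ¬ q ∣ M₁) (h4 : 4 ∣ M₁ * q) : 3 ≤ M := by
  have h2 := rtk6c4as_ne_two hqM h4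
  have h3 : 3 ≤ q := by
    have := hq.two_le
    omega
  exact h3.trans (Nat.le_of_dvd (Nat.pos_of_ne_zero hM0) hqN)

/-- `q² ∤ M` -/
theorem rtk6c4as_not_sq {q M₁ M : ℕ} (hq : q.Prime) (hqM : ¬ q ∣ M₁) (hML : M ∣ M₁ * q) :
    ¬ q ^ 2 ∣ M := by
  intro h
  have h1 : q * q ∣ M₁ * q := by
    rw [← pow_two]
    exact h.trans hML
  exact hqM (Nat.dvd_of_mul_dvd_mul_right hq.pos h1)

/-- `q ∤ d` for `d` prime to `6 M₁ q` -/
theorem rtk6c4as_not_dvd {q M₁ d : ℕ} (hq : q.Prime) (hd : Nat.Coprime d (6 * (M₁ * q))) :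
    ¬ q ∣ d := by
  intro h
  have h1 : q ∣ Nat.gcd d (6 * (M₁ * q)) :=
    Nat.dvd_gcd h (Dvd.dvd.mul_left (Dvd.intro_left M₁ rfl) 6)
  rw [hd] at h1
  exact hq.one_lt.ne' (Nat.dvd_one.1 h1)

end Arith

section Root

variable {A : ValuationSubring Qb} {q : ℕ}

/-- **a primitive `d`-th root of unity in `ℚ̄^I`**, `q ∤ d` -/
theorem rtk6c4as_root (hq : q.Prime) (hA : A.LiesOverPrime q) {d : ℕ} (hd0 : d ≠ 0)
    (hqd : ¬ q ∣ d) : ∃ ζ : ↥(beta0Field A), IsPrimitiveRoot ζ d := by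
  obtain ⟨ζ, hζ⟩ := rtk6psi_exists_primitiveRoot Qb hd0
  have hmem : ζ ∈ beta0Field A := rtk6eb_root_mem_beta0 hq hA hqd hζ.pow_eq_one
  refine ⟨⟨ζ, hmem⟩, ?_⟩
  exact IsPrimitiveRoot.of_map_of_injective (f := (beta0Field A).val) hζ
    Subtype.val_injective

end Root

section Data

variable {A : ValuationSubring Qb} {q M₁ : ℕ} [NeZero q] [NeZero M₁] [NeZero (M₁ * q)]
  [IsDiscreteValuationRing ↥(beta0Ring A (beta0Field A))]
  {π : ↥(beta0Ring A (beta0Field A))} (hπ : Irreducible π)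
  (ιC : ↥(beta0Field A) →+* ℂ) (hq : q.Prime) (hqM : ¬ q ∣ M₁)
  (M : ℕ) [NeZero M] (H : Subgroup (ZMod M)ˣ)
  [IsDiscreteValuationRing ↥(mgcA A (rtk6ebK q (rtk6psiDr M q H)))]
  (f : ↥(beta0Field A) →+* ↥(mgcE A (rtk6ebK q (rtk6psiDr M q H))))
  (hf : ∀ a : ↥(beta0Field A),
    ((f a : ↥(mgcE A (rtk6ebK q (rtk6psiDr M q H)))) : Qb) = (a : Qb))
  [Algebra ↥(modularFunctionFieldFullC ↥(beta0Field A) (M₁ * q))
    ↥(rtk6diF A (rtk6ebK q (rtk6psiDr M q H)) (M₁ * q) M H)]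
  (halg : ∀ z : ↥(modularFunctionFieldFullC ↥(beta0Field A) (M₁ * q)),
    algebraMap ↥(modularFunctionFieldFullC ↥(beta0Field A) (M₁ * q))
      ↥(rtk6diF A (rtk6ebK q (rtk6psiDr M q H)) (M₁ * q) M H) z
        = rtk6c4fdIota f (M₁ * q) M H z)
  (hA : A.LiesOverPrime q) (hd0 : rtk6psiDr M q H ≠ 0)
  {ϖ : ↥(mgcA A (rtk6ebK q (rtk6psiDr M q H)))}
  (hϖd : ϖ ^ rtk6psiDr M q H =
    beta0RingIncl (A := A)
      (le_sup_left : beta0Field A ≤ beta0Field A ⊔ rtk6ebK q (rtk6psiDr M q H)) π)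

include hπ ιC hqM in
/-- **the discharge of `hsm` on the two charts** at the thin level `K₁ = rtk6ebK q d_q`. -/
theorem rtk6c4as_hsm_both
    (hϖ : ϖ ^ rtk6psiDr M q H = ((q : ℕ) : ↥(mgcA A (rtk6ebK q (rtk6psiDr M q H)))))
    (hML : M ∣ M₁ * q) (hqN : q ∣ M) (h4 : 4 ∣ M₁ * q) (hstar : IsStarStable M q H)
    (htame : IsTameAt (M₁ * q) M q H) :
    (∀ 𝔫 : AtPt (F := ↥(rtk6diF A (rtk6ebK q (rtk6psiDr M q H)) (M₁ * q) M H)) ϖ
        (rtk6diT A (rtk6ebK q (rtk6psiDr M q H)) (M₁ * q) M H),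
      (∃ s₀ : ↥(zchClosure (A₀ := ↥(beta0Ring A (beta0Field A)))
          ({bgJ ↥(beta0Field A) (M₁ * q)} :
            Set ↥(modularFunctionFieldFullC ↥(beta0Field A) (M₁ * q)))),
        s₀ ∈ (rtk6gxiPt hq (rtk6ebK q (rtk6psiDr M q H)) M H f hf halg hA hd0 hϖd 𝔫).1 ∧
        NodesLocGen (rtk6gxiPt hq (rtk6ebK q (rtk6psiDr M q H)) M H f hf halg hA hd0 hϖd 𝔫).1
          {algebraMap ↥(beta0Ring A (beta0Field A))
            ↥(zchClosure (A₀ := ↥(beta0Ring A (beta0Field A)))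
              ({bgJ ↥(beta0Field A) (M₁ * q)} :
                Set ↥(modularFunctionFieldFullC ↥(beta0Field A) (M₁ * q)))) π, s₀}) →
      ∃ s : ↥(zchClosure (A₀ := ↥(mgcA A (rtk6ebK q (rtk6psiDr M q H))))
          ({rtk6diT A (rtk6ebK q (rtk6psiDr M q H)) (M₁ * q) M H} :
            Set ↥(rtk6diF A (rtk6ebK q (rtk6psiDr M q H)) (M₁ * q) M H))),
        s ∈ 𝔫.1 ∧ NodesLocGen 𝔫.1
          {algebraMap ↥(mgcA A (rtk6ebK q (rtk6psiDr M q H)))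
            ↥(zchClosure (A₀ := ↥(mgcA A (rtk6ebK q (rtk6psiDr M q H))))
              ({rtk6diT A (rtk6ebK q (rtk6psiDr M q H)) (M₁ * q) M H} :
                Set ↥(rtk6diF A (rtk6ebK q (rtk6psiDr M q H)) (M₁ * q) M H))) ϖ, s}) ∧
    (∀ 𝔫 : AtPt (F := ↥(rtk6diF A (rtk6ebK q (rtk6psiDr M q H)) (M₁ * q) M H)) ϖ
        (rtk6diT A (rtk6ebK q (rtk6psiDr M q H)) (M₁ * q) M H)⁻¹,
      (∃ s₀ : ↥(zchClosure (A₀ := ↥(beta0Ring A (beta0Field A)))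
          ({(bgJ ↥(beta0Field A) (M₁ * q))⁻¹} :
            Set ↥(modularFunctionFieldFullC ↥(beta0Field A) (M₁ * q)))),
        s₀ ∈ (rtk6gxiPtInv hq (rtk6ebK q (rtk6psiDr M q H)) M H f hf halg hA hd0 hϖd 𝔫).1 ∧
        NodesLocGen
          (rtk6gxiPtInv hq (rtk6ebK q (rtk6psiDr M q H)) M H f hf halg hA hd0 hϖd 𝔫).1
          {algebraMap ↥(beta0Ring A (beta0Field A))
            ↥(zchClosure (A₀ := ↥(beta0Ring A (beta0Field A)))
              ({(bgJ ↥(beta0Field A) (M₁ * q))⁻¹} :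
                Set ↥(modularFunctionFieldFullC ↥(beta0Field A) (M₁ * q)))) π, s₀}) →
      ∃ s : ↥(zchClosure (A₀ := ↥(mgcA A (rtk6ebK q (rtk6psiDr M q H))))
          ({(rtk6diT A (rtk6ebK q (rtk6psiDr M q H)) (M₁ * q) M H)⁻¹} :
            Set ↥(rtk6diF A (rtk6ebK q (rtk6psiDr M q H)) (M₁ * q) M H))),
        s ∈ 𝔫.1 ∧ NodesLocGen 𝔫.1
          {algebraMap ↥(mgcA A (rtk6ebK q (rtk6psiDr M q H)))
            ↥(zchClosure (A₀ := ↥(mgcA A (rtk6ebK q (rtk6psiDr M q H))))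
              ({(rtk6diT A (rtk6ebK q (rtk6psiDr M q H)) (M₁ * q) M H)⁻¹} :
                Set ↥(rtk6diF A (rtk6ebK q (rtk6psiDr M q H)) (M₁ * q) M H))) ϖ, s}) := by
  classical
  -- arithmetic of the level
  have hL : M₁ * q ≠ 0 := NeZero.ne _
  have hM0 : M ≠ 0 := NeZero.ne M
  have hr2 : ¬ q ^ 2 ∣ M := rtk6c4as_not_sq hq hqM hML
  have hN3 : 3 ≤ M := rtk6c4as_three_le hq hqN hM0 hqM h4
  have rigid := rtk6c4as_rigid hq hqM h4
  have hcopr : Nat.Coprime (rtk6psiDr M q H) (6 * (M₁ * q)) := rtk6psiDr_coprime htame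
  have hqe : ¬ q ∣ rtk6psiDr M q H := rtk6psiDr_not_dvd hq hqN hr2
  have hodd : Odd (rtk6psiDr M q H) := rtk6psi_odd_of_coprime hcopr
  -- PSI over `ℚ̄^I`
  obtain ⟨dS, hcop, hdS⟩ := htame
  have hdS0 : dS ≠ 0 := rtk6psi_ne_zero_of_coprime hcop
  have hqdS : ¬ q ∣ dS := rtk6c4as_not_dvd hq hcop
  have hdvd : rtk6psiDr M q H ∣ dS := rtk6psiDr_dvd_of_forall hdS
  obtain ⟨ψr, k, ψ', hψr, hfam⟩ := rtk6psi_exists (↥(beta0Field A)) hq hqN hr2 hstar hcop hdS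
    (rtk6c4as_root hq hA hdS0 hqdS)
  haveI : Algebra.IsAlgebraic ℚ Qb := AlgebraicClosure.isAlgebraic ℚ
  haveI : Algebra.IsAlgebraic ℚ ↥(beta0Field A) :=
    Algebra.IsAlgebraic.of_injective (beta0Field A).val Subtype.val_injective
  -- WIRE: (F1)
  obtain ⟨-, -, -, -, -, -, -, hgenN, -⟩ := rtk6c4w_wireN (L := M₁ * q) hq hA hqN hr2 hodd f hf
    halg hL hML hN3
    (⊤ : Subalgebra ↥(beta0Ring A (beta0Field A))
      ↥(modularFunctionFieldFullC ↥(beta0Field A) (M₁ * q)))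
    hϖ hψr hfam hdS0 hdvd (n₀ := 1) (by simp)
  have hgen : Algebra.adjoin ↥(modularFunctionFieldFullC ↥(beta0Field A) (M₁ * q))
      (({algebraMap ↥(mgcA A (rtk6ebK q (rtk6psiDr M q H)))
          ↥(rtk6diF A (rtk6ebK q (rtk6psiDr M q H)) (M₁ * q) M H) ϖ,
        rtk6n0fY f (M₁ * q) M H ψr hML} :
          Set ↥(rtk6diF A (rtk6ebK q (rtk6psiDr M q H)) (M₁ * q) M H)) ∪
        Set.range fun i => rtk6n0fY f (M₁ * q) M H (ψ' i) hML) = ⊤ := by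
    rw [Set.union_comm]
    exact hgenN
  -- N0 + D-unr for `ψ_q`
  have hmem : rtk6n0Y ↥(beta0Field A) M H ψr ^ rtk6psiDr M q H
      ∈ modularFunctionFieldFullC ↥(beta0Field A) (M₁ * q) :=
    rtk6n0f_mem (M₁ * q) M H ψr hL hML hψr.pow_dr
  obtain ⟨c₀, hc₀, hord⟩ := hψr.exists_orderOf hq hqN hr2
  obtain ⟨n₀, a, b, hn₀, hab⟩ := rtk6n0b_norm_zero_bezout hπ ιC hq hqM ψr hA hML hqN hN3 hstar
    hψr.map_H hψr.map_neg_one hqe hψr.pow_dr hc₀ hord hmem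
  have hz₁ := rtk6n0b_norm_inf hπ ιC hq hqM ψr hN3 hψr.map_H hψr.map_neg_one
    (rtk6psiDr M q H) hmem
  have hz0 : (⟨rtk6n0Y ↥(beta0Field A) M H ψr ^ rtk6psiDr M q H, hmem⟩ :
      ↥(modularFunctionFieldFullC ↥(beta0Field A) (M₁ * q))) ≠ 0 := by
    intro h
    have h1 : rtk6n0Y ↥(beta0Field A) M H ψr ^ rtk6psiDr M q H = 0 :=
      congrArg (fun z : ↥(modularFunctionFieldFullC ↥(beta0Field A) (M₁ * q)) =>
        (z : LaurentSeries ↥(beta0Field A))) h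
    exact rtk6n0Y_ne_zero hN3 hψr.map_H hψr.map_neg_one (eq_zero_of_pow_eq_zero h1)
  have hhor : ∀ P : Place ↥(beta0Field A) ↥(modularFunctionFieldFullC ↥(beta0Field A) (M₁ * q)),
      ((rtk6psiDr M q H : ℕ) : ℤ) ∣ P.ord (⟨rtk6n0Y ↥(beta0Field A) M H ψr ^ rtk6psiDr M q H,
        hmem⟩ : ↥(modularFunctionFieldFullC ↥(beta0Field A) (M₁ * q))) := fun P =>
    rtk6unr_nf (beta0Field A) (M₁ * q) M H hL hML (rtk6psiDr M q H) hcopr _
      (rtk6n0Y ↥(beta0Field A) M H ψr) (rtk6n0Y_mem hML) rfl P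
  have hzy : algebraMap ↥(modularFunctionFieldFullC ↥(beta0Field A) (M₁ * q))
      ↥(rtk6diF A (rtk6ebK q (rtk6psiDr M q H)) (M₁ * q) M H)
      (⟨rtk6n0Y ↥(beta0Field A) M H ψr ^ rtk6psiDr M q H, hmem⟩ :
        ↥(modularFunctionFieldFullC ↥(beta0Field A) (M₁ * q)))
      = rtk6n0fY f (M₁ * q) M H ψr hML ^ rtk6psiDr M q H := by
    rw [halg]
    exact rtk6n0f_iota_pow f (M₁ * q) M H ψr hML hmem
  -- N0 + D-unr for the `ψ′_i`
  have hmem' : ∀ i, rtk6n0Y ↥(beta0Field A) M H (ψ' i) ^ dS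
      ∈ modularFunctionFieldFullC ↥(beta0Field A) (M₁ * q) := fun i =>
    rtk6n0f_mem (M₁ * q) M H (ψ' i) hL hML (hfam.pow_d i)
  have hzero := fun i => rtk6n0b_norm_zero_dvd hπ ιC hq hqM (ψ' i) hA hML hqN hN3 hstar
    (hfam.map_H i) (hfam.map_neg_one i) hqdS (hfam.pow_d i) (hfam.map_atR i) (hmem' i)
  choose nn hnndvd hnn using hzero
  have hyu : ∀ i, rtk6n0fY f (M₁ * q) M H (ψ' i) hML ^ dS
      = algebraMap ↥(modularFunctionFieldFullC ↥(beta0Field A) (M₁ * q))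
        ↥(rtk6diF A (rtk6ebK q (rtk6psiDr M q H)) (M₁ * q) M H)
        (⟨rtk6n0Y ↥(beta0Field A) M H (ψ' i) ^ dS, hmem' i⟩ :
          ↥(modularFunctionFieldFullC ↥(beta0Field A) (M₁ * q))) := fun i => by
    rw [halg]
    exact (rtk6n0f_iota_pow f (M₁ * q) M H (ψ' i) hML (hmem' i)).symm
  have hu : ∀ i, (⟨rtk6n0Y ↥(beta0Field A) M H (ψ' i) ^ dS, hmem' i⟩ :
      ↥(modularFunctionFieldFullC ↥(beta0Field A) (M₁ * q))) ≠ 0 := fun i h => by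
    have h1 : rtk6n0Y ↥(beta0Field A) M H (ψ' i) ^ dS = 0 :=
      congrArg (fun z : ↥(modularFunctionFieldFullC ↥(beta0Field A) (M₁ * q)) =>
        (z : LaurentSeries ↥(beta0Field A))) h
    exact rtk6n0Y_ne_zero hN3 (hfam.map_H i) (hfam.map_neg_one i) (eq_zero_of_pow_eq_zero h1)
  have hhor' : ∀ i, ∀ P : Place ↥(beta0Field A)
      ↥(modularFunctionFieldFullC ↥(beta0Field A) (M₁ * q)),
      ((dS : ℕ) : ℤ) ∣ P.ord (⟨rtk6n0Y ↥(beta0Field A) M H (ψ' i) ^ dS, hmem' i⟩ :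
        ↥(modularFunctionFieldFullC ↥(beta0Field A) (M₁ * q))) := fun i P =>
    rtk6unr_nf (beta0Field A) (M₁ * q) M H hL hML dS hcop _
      (rtk6n0Y ↥(beta0Field A) M H (ψ' i)) (rtk6n0Y_mem hML) rfl P
  have hy₁' := fun i => rtk6n0b_norm_inf hπ ιC hq hqM (ψ' i) hN3 (hfam.map_H i)
    (hfam.map_neg_one i) dS (hmem' i)
  -- the charts
  haveI : CharZero ↥(modularFunctionFieldFullC ↥(beta0Field A) (M₁ * q)) :=
    charZero_of_injective_algebraMap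
      (algebraMap ↥(beta0Field A) ↥(modularFunctionFieldFullC ↥(beta0Field A) (M₁ * q))).injective
  refine ⟨fun 𝔫 hsm => ?_, fun 𝔫 hsm => ?_⟩
  · obtain ⟨s₀, hs₀, hgen₀⟩ := hsm
    obtain ⟨S, hS⟩ := rtk6c4smc_sm hπ ιC hq hqM (rtk6ebK q (rtk6psiDr M q H)) M H f hf halg hA
      hd0 hϖd rigid hqe hdS0 hqdS 𝔫 hs₀ hgen₀ hz0 hhor hz₁ hn₀ hzy hab
      (fun i => rtk6n0fY f (M₁ * q) M H (ψ' i) hML)
      (fun i => (⟨rtk6n0Y ↥(beta0Field A) M H (ψ' i) ^ dS, hmem' i⟩ :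
        ↥(modularFunctionFieldFullC ↥(beta0Field A) (M₁ * q)))) nn hyu hu hhor' hy₁' hnn
      hnndvd hgen
    haveI := ribmp_fc_fin (K₀ := beta0Field A) (M₁ * q)
    haveI : IsFractionRing ↥(zchClosure (A₀ := ↥(beta0Ring A (beta0Field A)))
        ({bgJ ↥(beta0Field A) (M₁ * q)} :
          Set ↥(modularFunctionFieldFullC ↥(beta0Field A) (M₁ * q))))
        ↥(modularFunctionFieldFullC ↥(beta0Field A) (M₁ * q)) :=
      mgc_chart_isFractionRing (A₀ := ↥(beta0Ring A (beta0Field A))) (E₀ := ↥(beta0Field A))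
        (bgJ ↥(beta0Field A) (M₁ * q))
    haveI : IsIntegrallyClosed ↥(zchClosure (A₀ := ↥(beta0Ring A (beta0Field A)))
        ({bgJ ↥(beta0Field A) (M₁ * q)} :
          Set ↥(modularFunctionFieldFullC ↥(beta0Field A) (M₁ * q)))) :=
      mgc_chart_isIntegrallyClosed (A₀ := ↥(beta0Ring A (beta0Field A))) (E₀ := ↥(beta0Field A))
        (bgJ ↥(beta0Field A) (M₁ * q))
    exact rtk6c4sm0_smoothAt (K := ↥(modularFunctionFieldFullC ↥(beta0Field A) (M₁ * q))) 𝔫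
      (rtk6gxiJ (rtk6ebK q (rtk6psiDr M q H)) M H f hf halg) _ (fun _ => rfl) hS hπ rfl
  · obtain ⟨s₀, hs₀, hgen₀⟩ := hsm
    obtain ⟨S, hS⟩ := rtk6c4smc_sm_inv hπ ιC hq hqM (rtk6ebK q (rtk6psiDr M q H)) M H f hf halg
      hA hd0 hϖd rigid hqe hdS0 hqdS 𝔫 hs₀ hgen₀ hz0 hhor hz₁ hn₀ hzy hab
      (fun i => rtk6n0fY f (M₁ * q) M H (ψ' i) hML)
      (fun i => (⟨rtk6n0Y ↥(beta0Field A) M H (ψ' i) ^ dS, hmem' i⟩ :
        ↥(modularFunctionFieldFullC ↥(beta0Field A) (M₁ * q)))) nn hyu hu hhor' hy₁' hnn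
      hnndvd hgen
    haveI := ribmp_fc_fin_inv (K₀ := beta0Field A) (M₁ * q)
    haveI : IsFractionRing ↥(zchClosure (A₀ := ↥(beta0Ring A (beta0Field A)))
        ({(bgJ ↥(beta0Field A) (M₁ * q))⁻¹} :
          Set ↥(modularFunctionFieldFullC ↥(beta0Field A) (M₁ * q))))
        ↥(modularFunctionFieldFullC ↥(beta0Field A) (M₁ * q)) :=
      mgc_chart_isFractionRing (A₀ := ↥(beta0Ring A (beta0Field A))) (E₀ := ↥(beta0Field A))
        (bgJ ↥(beta0Field A) (M₁ * q))⁻¹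
    haveI : IsIntegrallyClosed ↥(zchClosure (A₀ := ↥(beta0Ring A (beta0Field A)))
        ({(bgJ ↥(beta0Field A) (M₁ * q))⁻¹} :
          Set ↥(modularFunctionFieldFullC ↥(beta0Field A) (M₁ * q)))) :=
      mgc_chart_isIntegrallyClosed (A₀ := ↥(beta0Ring A (beta0Field A))) (E₀ := ↥(beta0Field A))
        (bgJ ↥(beta0Field A) (M₁ * q))⁻¹
    exact rtk6c4sm0_smoothAt (K := ↥(modularFunctionFieldFullC ↥(beta0Field A) (M₁ * q))) 𝔫
      (rtk6gxiJInv (rtk6ebK q (rtk6psiDr M q H)) M H f hf halg) _ (fun _ => rfl) hS hπ rfl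

include hπ ιC hqM in
/-- **`hsm` of `rtk6c4aj_plusAt`** (chart `j`) at the thin level `K₁ = rtk6ebK q d_q`. -/
theorem rtk6c4as_hsm
    (hϖ : ϖ ^ rtk6psiDr M q H = ((q : ℕ) : ↥(mgcA A (rtk6ebK q (rtk6psiDr M q H)))))
    (hML : M ∣ M₁ * q) (hqN : q ∣ M) (h4 : 4 ∣ M₁ * q) (hstar : IsStarStable M q H)
    (htame : IsTameAt (M₁ * q) M q H)
    (𝔫 : AtPt (F := ↥(rtk6diF A (rtk6ebK q (rtk6psiDr M q H)) (M₁ * q) M H)) ϖ
        (rtk6diT A (rtk6ebK q (rtk6psiDr M q H)) (M₁ * q) M H))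
    (hsm : ∃ s₀ : ↥(zchClosure (A₀ := ↥(beta0Ring A (beta0Field A)))
          ({bgJ ↥(beta0Field A) (M₁ * q)} :
            Set ↥(modularFunctionFieldFullC ↥(beta0Field A) (M₁ * q)))),
        s₀ ∈ (rtk6gxiPt hq (rtk6ebK q (rtk6psiDr M q H)) M H f hf halg hA hd0 hϖd 𝔫).1 ∧
        NodesLocGen (rtk6gxiPt hq (rtk6ebK q (rtk6psiDr M q H)) M H f hf halg hA hd0 hϖd 𝔫).1
          {algebraMap ↥(beta0Ring A (beta0Field A))
            ↥(zchClosure (A₀ := ↥(beta0Ring A (beta0Field A)))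
              ({bgJ ↥(beta0Field A) (M₁ * q)} :
                Set ↥(modularFunctionFieldFullC ↥(beta0Field A) (M₁ * q)))) π, s₀}) :
    ∃ s : ↥(zchClosure (A₀ := ↥(mgcA A (rtk6ebK q (rtk6psiDr M q H))))
        ({rtk6diT A (rtk6ebK q (rtk6psiDr M q H)) (M₁ * q) M H} :
          Set ↥(rtk6diF A (rtk6ebK q (rtk6psiDr M q H)) (M₁ * q) M H))),
      s ∈ 𝔫.1 ∧ NodesLocGen 𝔫.1
        {algebraMap ↥(mgcA A (rtk6ebK q (rtk6psiDr M q H)))
          ↥(zchClosure (A₀ := ↥(mgcA A (rtk6ebK q (rtk6psiDr M q H))))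
            ({rtk6diT A (rtk6ebK q (rtk6psiDr M q H)) (M₁ * q) M H} :
              Set ↥(rtk6diF A (rtk6ebK q (rtk6psiDr M q H)) (M₁ * q) M H))) ϖ, s} :=
  (rtk6c4as_hsm_both hπ ιC hq hqM M H f hf halg hA hd0 hϖd hϖ hML hqN h4 hstar htame).1 𝔫 hsm

include hπ ιC hqM in
/-- **`hsm` of the `1 / j` twin of `rtk6c4aj_plusAt`** at the thin level `K₁ = rtk6ebK q d_q`. -/
theorem rtk6c4as_hsm_inv
    (hϖ : ϖ ^ rtk6psiDr M q H = ((q : ℕ) : ↥(mgcA A (rtk6ebK q (rtk6psiDr M q H)))))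
    (hML : M ∣ M₁ * q) (hqN : q ∣ M) (h4 : 4 ∣ M₁ * q) (hstar : IsStarStable M q H)
    (htame : IsTameAt (M₁ * q) M q H)
    (𝔫 : AtPt (F := ↥(rtk6diF A (rtk6ebK q (rtk6psiDr M q H)) (M₁ * q) M H)) ϖ
        (rtk6diT A (rtk6ebK q (rtk6psiDr M q H)) (M₁ * q) M H)⁻¹)
    (hsm : ∃ s₀ : ↥(zchClosure (A₀ := ↥(beta0Ring A (beta0Field A)))
          ({(bgJ ↥(beta0Field A) (M₁ * q))⁻¹} :
            Set ↥(modularFunctionFieldFullC ↥(beta0Field A) (M₁ * q)))),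
        s₀ ∈ (rtk6gxiPtInv hq (rtk6ebK q (rtk6psiDr M q H)) M H f hf halg hA hd0 hϖd 𝔫).1 ∧
        NodesLocGen
          (rtk6gxiPtInv hq (rtk6ebK q (rtk6psiDr M q H)) M H f hf halg hA hd0 hϖd 𝔫).1
          {algebraMap ↥(beta0Ring A (beta0Field A))
            ↥(zchClosure (A₀ := ↥(beta0Ring A (beta0Field A)))
              ({(bgJ ↥(beta0Field A) (M₁ * q))⁻¹} :
                Set ↥(modularFunctionFieldFullC ↥(beta0Field A) (M₁ * q)))) π, s₀}) :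
    ∃ s : ↥(zchClosure (A₀ := ↥(mgcA A (rtk6ebK q (rtk6psiDr M q H))))
        ({(rtk6diT A (rtk6ebK q (rtk6psiDr M q H)) (M₁ * q) M H)⁻¹} :
          Set ↥(rtk6diF A (rtk6ebK q (rtk6psiDr M q H)) (M₁ * q) M H))),
      s ∈ 𝔫.1 ∧ NodesLocGen 𝔫.1
        {algebraMap ↥(mgcA A (rtk6ebK q (rtk6psiDr M q H)))
          ↥(zchClosure (A₀ := ↥(mgcA A (rtk6ebK q (rtk6psiDr M q H))))
            ({(rtk6diT A (rtk6ebK q (rtk6psiDr M q H)) (M₁ * q) M H)⁻¹} :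
              Set ↥(rtk6diF A (rtk6ebK q (rtk6psiDr M q H)) (M₁ * q) M H))) ϖ, s} :=
  (rtk6c4as_hsm_both hπ ιC hq hqM M H f hf halg hA hd0 hϖd hϖ hML hqN h4 hstar htame).2 𝔫 hsm

end Data

end Fermat.Agent.RT.K6

end


end ZBRT_097_5

/-! ### bundled: `Fermat.Agent.RT.K6.C4ChiWireS` -/
section ZBRT_097_6
/-
K-machine, piece K6, C4-χ-WIRE, the `S`-part (helper98): **the concrete Kummer families** — the
instances of the hypotheses `hyu hu hhor hy₁ hn₀ hdvd` of helper74's `rtk6gi_et_family`,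
`rtk6gi_cross_pack`, `rtk6gi_sm_pack` (`GenInstEt.lean`, `GenInstGen.lean`) and of the hypotheses
`hz0 hhor hz₁ hn₀ hzy` (+ coprimality of `n₀`) of helper54's `rtk6gxi_crossE`
(`GenCrossInst.lean`), for the NORMALISED resolvents `y′_ψ = y_ψ / #(±H)` of helper6
(`N0Norm.lean`, `C4FNorm.lean`); and the rescalings `k_i ∈ Kˣ` for which `S = {k_i · y_{ψ′_i}}`
satisfies the field `hSet` (exponent `dS`) of helper94's `Rtk6c4CrossE` (`C4Abs.lean`), with `S` in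
the shape of helper70's `rtk6c4w_fields` (`C4ChiWire.lean`: `hS`, `hgen`, `hσS`, `hδS` for
ARBITRARY `k_i`).

Setting of `GenCrossInst.lean`: `E₀ = ℚ̄^I = beta0Field A`, `K = FullC E₀ (M₁ q)` the `Γ₀`-field,
`R₀ = zchClosure {j}` its chart over `A ∩ ℚ̄^I`, `F = fieldC E₁ (M₁ q) M H` (`E₁` ANY field with
`f : E₀ →+* E₁`; in the application `E₁ = mgcE A K₁`, `F = rtk6diF A K₁ (M₁ q) M H`),
`[Algebra K F]` with `algebraMap = rtk6c4fdIota f` (helper36's convention).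
`w` is the Atkin–Lehner automorphism of piece B (`IsWAt`).

* `rtk6c4wsU ψ hML hψd` : the normalised Kummer element `u′_ψ = (y_ψ / n₀) ^ dS ∈ K`;
* `rtk6c4ws_hyu`, `rtk6c4ws_hu`, `rtk6c4ws_hhor`, `rtk6c4ws_hy₁` : `y′ ^ dS = u′`, `u′ ≠ 0`,
  `dS ∣ ord_P u′`, `v_∞(u′) = 1`;
* `rtk6c4ws_et`   : `ψ` trivial on the diamonds at `q` ⇒ `∃ n₀`, `dS ∣ n₀`, `v_0(u′) = v_0(π) ^ n₀`;
* `rtk6c4ws_ram`  : `ψ(c₀)` of order `d` for a diamond `c₀` at `q` ⇒ `∃ n₀` prime to `d`,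
  `v_0(u′) = v_0(π) ^ n₀`;
* **`rtk6c4ws_family`** : the étale family `(y′_i, u′_i, n₀ i)` with all six hypotheses;
* `rtk6c4ws_one`  : one character: `∃ k ≠ 0, ∃ a b ∈ R₀ ∖ 𝔫₀`, `b (k y_ψ) ^ dS = a`;
* **`rtk6c4ws_hSet`** : at a closed point `𝔫` of the TOP chart: `∃ k`, `k i ≠ 0` ∧ `hSet` for
  `S = range (k_i · y_i)` (shape of `rtk6gxi_crossE`);  `rtk6c4ws_hdS` : `j (dS : R₀) ∉ 𝔫`.
-/

set_option autoImplicit false
set_option linter.style.haveILetI false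
set_option linter.unusedSectionVars false
set_option linter.unusedVariables false
set_option linter.style.longLine false
set_option synthInstance.maxHeartbeats 400000
set_option maxHeartbeats 4000000

noncomputable section

namespace Fermat.Agent.RT.K6

open ModularCurve Polynomial IntermediateField Fermat.Agent.INJ Fermat.Agent.AL AlgebraicCurve
open Fermat.Agent.ES Fermat.Agent.ES.G2 Fermat.Agent.STB Fermat.Agent.UNIP Fermat.Agent.S36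
open Fermat.Agent.RIB.MP Fermat.Agent.ES1

/-- `gcd (d, 6 L) = 1`, `q ∣ L` ⇒ `q ∤ d` -/
theorem rtk6c4ws_not_dvd {q L d : ℕ} (hq : q.Prime) (hqL : q ∣ L) (hd : Nat.Coprime d (6 * L)) :
    ¬ q ∣ d := by
  intro h
  have h1 : q ∣ 6 * L := Dvd.dvd.mul_left hqL 6
  have h2 := Nat.dvd_gcd h h1
  rw [Nat.Coprime] at hd
  rw [hd] at h2
  exact hq.one_lt.ne' (Nat.dvd_one.1 h2)

section Base

variable {A : ValuationSubring Qb} {q M₁ : ℕ} [NeZero q] [NeZero M₁] [NeZero (M₁ * q)]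
  {M : ℕ} [NeZero M] {H : Subgroup (ZMod M)ˣ}

/-- the normalised Kummer element `u′_ψ = (y_ψ / #(±H)) ^ dS` of the `Γ₀`-field `K` -/
def rtk6c4wsU (ψ : (ZMod M)ˣ →* (↥(beta0Field A))ˣ) (hML : M ∣ M₁ * q) {dS : ℕ}
    (hψd : ∀ c, ψ c ^ dS = 1) : ↥(modularFunctionFieldFullC ↥(beta0Field A) (M₁ * q)) :=
  haveI : Algebra.IsAlgebraic ℚ Qb := AlgebraicClosure.isAlgebraic ℚ
  haveI : Algebra.IsAlgebraic ℚ ↥(beta0Field A) :=
    Algebra.IsAlgebraic.of_injective (beta0Field A).val Subtype.val_injective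
  ⟨rtk6n0Y ↥(beta0Field A) M H ψ ^ dS,
    rtk6n0f_mem (M₁ * q) M H ψ (NeZero.ne (M₁ * q)) hML hψd⟩

theorem rtk6c4wsU_coe (ψ : (ZMod M)ˣ →* (↥(beta0Field A))ˣ) (hML : M ∣ M₁ * q) {dS : ℕ}
    (hψd : ∀ c, ψ c ^ dS = 1) :
    ((rtk6c4wsU (M₁ := M₁) (H := H) ψ hML hψd :
        ↥(modularFunctionFieldFullC ↥(beta0Field A) (M₁ * q))) :
      LaurentSeries ↥(beta0Field A)) = rtk6n0Y ↥(beta0Field A) M H ψ ^ dS := rfl

/-- `u′_ψ ≠ 0` -/
theorem rtk6c4ws_hu (ψ : (ZMod M)ˣ →* (↥(beta0Field A))ˣ) (hML : M ∣ M₁ * q) (hM3 : 3 ≤ M)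
    (hψH : ∀ h ∈ H, ψ h = 1) (hψ1 : ψ (-1) = 1) {dS : ℕ} (hψd : ∀ c, ψ c ^ dS = 1) :
    rtk6c4wsU (M₁ := M₁) (H := H) ψ hML hψd ≠ 0 := by
  intro h
  have h1 : rtk6n0Y ↥(beta0Field A) M H ψ ^ dS = 0 :=
    congrArg (fun z : ↥(modularFunctionFieldFullC ↥(beta0Field A) (M₁ * q)) =>
      (z : LaurentSeries ↥(beta0Field A))) h
  exact rtk6n0Y_ne_zero hM3 hψH hψ1 (eq_zero_of_pow_eq_zero h1)

/-- **D-unr**: `dS ∣ ord_P u′_ψ` at every place of the `Γ₀`-field -/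
theorem rtk6c4ws_hhor (ψ : (ZMod M)ˣ →* (↥(beta0Field A))ˣ) (hML : M ∣ M₁ * q) {dS : ℕ}
    (hdS : Nat.Coprime dS (6 * (M₁ * q))) (hψd : ∀ c, ψ c ^ dS = 1)
    (P : Place ↥(beta0Field A) ↥(modularFunctionFieldFullC ↥(beta0Field A) (M₁ * q))) :
    (dS : ℤ) ∣ P.ord (rtk6c4wsU (M₁ := M₁) (H := H) ψ hML hψd) :=
  rtk6unr_nf (beta0Field A) (M₁ * q) M H (NeZero.ne (M₁ * q)) hML dS hdS _
    (rtk6n0Y ↥(beta0Field A) M H ψ) (rtk6n0Y_mem hML) rfl P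

variable {E₁ : Type} [Field E₁] (f : ↥(beta0Field A) →+* E₁)
  [Algebra ↥(modularFunctionFieldFullC ↥(beta0Field A) (M₁ * q)) ↥(fieldC E₁ (M₁ * q) M H)]
  (halg : ∀ z : ↥(modularFunctionFieldFullC ↥(beta0Field A) (M₁ * q)),
    algebraMap ↥(modularFunctionFieldFullC ↥(beta0Field A) (M₁ * q))
      ↥(fieldC E₁ (M₁ * q) M H) z = rtk6c4fdIota f (M₁ * q) M H z)

include halg in
/-- `y′_ψ ^ dS = u′_ψ` in `F` -/
theorem rtk6c4ws_hyu (ψ : (ZMod M)ˣ →* (↥(beta0Field A))ˣ) (hML : M ∣ M₁ * q) {dS : ℕ}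
    (hψd : ∀ c, ψ c ^ dS = 1) :
    rtk6n0fY f (M₁ * q) M H ψ hML ^ dS =
      algebraMap ↥(modularFunctionFieldFullC ↥(beta0Field A) (M₁ * q))
        ↥(fieldC E₁ (M₁ * q) M H) (rtk6c4wsU (M₁ := M₁) (H := H) ψ hML hψd) := by
  rw [halg]
  exact (rtk6n0f_iota_pow f (M₁ * q) M H ψ hML _).symm

variable [IsDiscreteValuationRing ↥(beta0Ring A (beta0Field A))]
  {π : ↥(beta0Ring A (beta0Field A))} (hπ : Irreducible π)
  (ιC : ↥(beta0Field A) →+* ℂ) (hq : q.Prime) (hqM : ¬ q ∣ M₁)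

/-- **(N1′)**: `v_∞(u′_ψ) = 1` -/
theorem rtk6c4ws_hy₁ (ψ : (ZMod M)ˣ →* (↥(beta0Field A))ˣ) (hML : M ∣ M₁ * q) (hM3 : 3 ≤ M)
    (hψH : ∀ h ∈ H, ψ h = 1) (hψ1 : ψ (-1) = 1) {dS : ℕ} (hψd : ∀ c, ψ c ^ dS = 1) :
    (mgvV hπ ιC hq hqM true).valuation (rtk6c4wsU (M₁ := M₁) (H := H) ψ hML hψd) = 1 :=
  rtk6n0_norm_inf hπ ιC hq hqM ψ hM3 hψH hψ1 dS _

/-- **(N3′)**: `ψ` trivial on the diamonds at `q` ⇒ `v_0(u′_ψ) = v_0(π) ^ n₀` with `dS ∣ n₀` -/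
theorem rtk6c4ws_et (hA : A.LiesOverPrime q) (hML : M ∣ M₁ * q) (hqN : q ∣ M) (hM3 : 3 ≤ M)
    {w : fieldBar (M₁ * q) M H ≃ₐ[Qb] fieldBar (M₁ * q) M H} (hw : IsWAt (M₁ * q) M H q w)
    (ψ : (ZMod M)ˣ →* (↥(beta0Field A))ˣ)
    (hψH : ∀ h ∈ H, ψ h = 1) (hψ1 : ψ (-1) = 1) {dS : ℕ} (hqd : ¬ q ∣ dS)
    (hψd : ∀ c, ψ c ^ dS = 1) (hψr : ∀ c : (ZMod M)ˣ, IsAtR M q c → ψ c = 1) :
    ∃ n₀ : ℤ, (dS : ℤ) ∣ n₀ ∧
      (mgvV hπ ιC hq hqM false).valuation (rtk6c4wsU (M₁ := M₁) (H := H) ψ hML hψd)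
        = (mgvV hπ ιC hq hqM false).valuation
          (algebraMap ↥(beta0Ring A (beta0Field A))
            ↥(modularFunctionFieldFullC ↥(beta0Field A) (M₁ * q)) π) ^ n₀ :=
  rtk6n0_norm_zero_dvd hπ ιC hq hqM ψ hA (rtk6n0_base_assoc hπ hq hA) hML hqN hM3 hw hψH hψ1
    hqd hψd hψr _

/-- **(N2′)**: `ψ(c₀)` of order `d` for a diamond `c₀` at `q` ⇒ `v_0(u′_ψ) = v_0(π) ^ n₀` with
`gcd (n₀, d) = 1` -/
theorem rtk6c4ws_ram (hA : A.LiesOverPrime q) (hML : M ∣ M₁ * q) (hqN : q ∣ M) (hM3 : 3 ≤ M)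
    {w : fieldBar (M₁ * q) M H ≃ₐ[Qb] fieldBar (M₁ * q) M H} (hw : IsWAt (M₁ * q) M H q w)
    (ψ : (ZMod M)ˣ →* (↥(beta0Field A))ˣ)
    (hψH : ∀ h ∈ H, ψ h = 1) (hψ1 : ψ (-1) = 1) {d : ℕ} (hqd : ¬ q ∣ d)
    (hψd : ∀ c, ψ c ^ d = 1) {c₀ : (ZMod M)ˣ} (hc₀ : IsAtR M q c₀)
    (hord : orderOf (ψ c₀) = d) :
    ∃ n₀ : ℤ,
      (mgvV hπ ιC hq hqM false).valuation (rtk6c4wsU (M₁ := M₁) (H := H) ψ hML hψd)
        = (mgvV hπ ιC hq hqM false).valuation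
          (algebraMap ↥(beta0Ring A (beta0Field A))
            ↥(modularFunctionFieldFullC ↥(beta0Field A) (M₁ * q)) π) ^ n₀ ∧
      Nat.Coprime n₀.natAbs d :=
  rtk6n0_norm_zero_coprime hπ ιC hq hqM ψ hA (rtk6n0_base_assoc hπ hq hA) hML hqN hM3 hw hψH
    hψ1 hqd hψd hc₀ hord _

include halg in
/-- **the concrete étale family**: all the hypotheses of helper74's `rtk6gi_et_family`,
`rtk6gi_cross_pack`, `rtk6gi_sm_pack` for `y i := rtk6n0fY f (M₁ q) M H (ψ′ i) hML`,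
`u i := rtk6c4wsU (ψ′ i) hML _`, `m := dS`. -/
theorem rtk6c4ws_family (hA : A.LiesOverPrime q) (hML : M ∣ M₁ * q) (hqN : q ∣ M)
    (hM3 : 3 ≤ M)
    {w : fieldBar (M₁ * q) M H ≃ₐ[Qb] fieldBar (M₁ * q) M H} (hw : IsWAt (M₁ * q) M H q w)
    {dS : ℕ} (hdS : Nat.Coprime dS (6 * (M₁ * q)))
    {ι : Type*} (ψ' : ι → ((ZMod M)ˣ →* (↥(beta0Field A))ˣ))
    (hψH : ∀ i, ∀ h ∈ H, ψ' i h = 1) (hψ1 : ∀ i, ψ' i (-1) = 1)
    (hψd : ∀ i, ∀ c, ψ' i c ^ dS = 1)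
    (hψr : ∀ i, ∀ c : (ZMod M)ˣ, IsAtR M q c → ψ' i c = 1) :
    ∃ n₀ : ι → ℤ,
      (∀ i, rtk6n0fY f (M₁ * q) M H (ψ' i) hML ^ dS =
        algebraMap ↥(modularFunctionFieldFullC ↥(beta0Field A) (M₁ * q))
          ↥(fieldC E₁ (M₁ * q) M H) (rtk6c4wsU (M₁ := M₁) (H := H) (ψ' i) hML (hψd i))) ∧
      (∀ i, rtk6c4wsU (M₁ := M₁) (H := H) (ψ' i) hML (hψd i) ≠ 0) ∧
      (∀ i, ∀ P : Place ↥(beta0Field A)
          ↥(modularFunctionFieldFullC ↥(beta0Field A) (M₁ * q)),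
        (dS : ℤ) ∣ P.ord (rtk6c4wsU (M₁ := M₁) (H := H) (ψ' i) hML (hψd i))) ∧
      (∀ i, (mgvV hπ ιC hq hqM true).valuation
        (rtk6c4wsU (M₁ := M₁) (H := H) (ψ' i) hML (hψd i)) = 1) ∧
      (∀ i, (mgvV hπ ιC hq hqM false).valuation
          (rtk6c4wsU (M₁ := M₁) (H := H) (ψ' i) hML (hψd i))
        = (mgvV hπ ιC hq hqM false).valuation
          (algebraMap ↥(beta0Ring A (beta0Field A))
            ↥(modularFunctionFieldFullC ↥(beta0Field A) (M₁ * q)) π) ^ n₀ i) ∧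
      (∀ i, (dS : ℤ) ∣ n₀ i) := by
  have hqd : ¬ q ∣ dS := rtk6c4ws_not_dvd hq (Dvd.intro_left M₁ rfl) hdS
  have key := fun i => rtk6c4ws_et hπ ιC hq hqM hA hML hqN hM3 hw (ψ' i) (hψH i) (hψ1 i) hqd
    (hψd i) (hψr i)
  choose n₀ hdvd hn₀ using key
  exact ⟨n₀, fun i => rtk6c4ws_hyu f halg (ψ' i) hML (hψd i),
    fun i => rtk6c4ws_hu (ψ' i) hML hM3 (hψH i) (hψ1 i) (hψd i),
    fun i P => rtk6c4ws_hhor (ψ' i) hML hdS (hψd i) P,
    fun i => rtk6c4ws_hy₁ hπ ιC hq hqM (ψ' i) hML hM3 (hψH i) (hψ1 i) (hψd i), hn₀, hdvd⟩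

include hπ ιC hq hqM halg in
/-- **(G-et) for one character, with the normalisation**: at a closed point `𝔫₀` of the base
chart there is `k ∈ Kˣ` with `b · (k y_ψ) ^ dS = a`, `a, b ∈ R₀ ∖ 𝔫₀`. -/
theorem rtk6c4ws_one (hA : A.LiesOverPrime q)
    (rigid : (q ≠ 2 → 4 ∣ M₁) ∧ (q = 2 → 9 ∣ M₁))
    (hML : M ∣ M₁ * q) (hqN : q ∣ M) (hM3 : 3 ≤ M)
    {w : fieldBar (M₁ * q) M H ≃ₐ[Qb] fieldBar (M₁ * q) M H} (hw : IsWAt (M₁ * q) M H q w)
    {dS : ℕ} (hdS : Nat.Coprime dS (6 * (M₁ * q)))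
    (ψ : (ZMod M)ˣ →* (↥(beta0Field A))ˣ)
    (hψH : ∀ h ∈ H, ψ h = 1) (hψ1 : ψ (-1) = 1) (hψd : ∀ c, ψ c ^ dS = 1)
    (hψr : ∀ c : (ZMod M)ˣ, IsAtR M q c → ψ c = 1)
    (𝔫₀ : AtPt (F := ↥(modularFunctionFieldFullC ↥(beta0Field A) (M₁ * q))) π
      (bgJ ↥(beta0Field A) (M₁ * q))) :
    ∃ (k : ↥(modularFunctionFieldFullC ↥(beta0Field A) (M₁ * q)))
      (a b : ↥(zchClosure (A₀ := ↥(beta0Ring A (beta0Field A)))
        ({bgJ ↥(beta0Field A) (M₁ * q)} :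
          Set ↥(modularFunctionFieldFullC ↥(beta0Field A) (M₁ * q))))),
      k ≠ 0 ∧ a ∉ 𝔫₀.1 ∧ b ∉ 𝔫₀.1 ∧
      algebraMap ↥(modularFunctionFieldFullC ↥(beta0Field A) (M₁ * q))
          ↥(fieldC E₁ (M₁ * q) M H)
          (b : ↥(modularFunctionFieldFullC ↥(beta0Field A) (M₁ * q))) *
        (algebraMap ↥(modularFunctionFieldFullC ↥(beta0Field A) (M₁ * q))
          ↥(fieldC E₁ (M₁ * q) M H) k * rtk6c4fdY f (M₁ * q) M H ψ hML) ^ dS =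
      algebraMap ↥(modularFunctionFieldFullC ↥(beta0Field A) (M₁ * q))
          ↥(fieldC E₁ (M₁ * q) M H)
          (a : ↥(modularFunctionFieldFullC ↥(beta0Field A) (M₁ * q))) := by
  have hqd : ¬ q ∣ dS := rtk6c4ws_not_dvd hq (Dvd.intro_left M₁ rfl) hdS
  obtain ⟨n₀, hdvd, hn₀⟩ := rtk6c4ws_et hπ ιC hq hqM hA hML hqN hM3 hw ψ hψH hψ1 hqd hψd hψr
  obtain ⟨γ', e₁, e₂, hγ', he₁, he₂, hpow, -⟩ :=
    rtk6gi_et_JF hπ ιC hq hqM
      (algebraMap ↥(modularFunctionFieldFullC ↥(beta0Field A) (M₁ * q))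
        ↥(fieldC E₁ (M₁ * q) M H)) hA rigid dS (rtk6c4ws_hyu f halg ψ hML hψd)
      (rtk6c4ws_hu ψ hML hM3 hψH hψ1 hψd) (fun P => rtk6c4ws_hhor ψ hML hdS hψd P)
      (rtk6c4ws_hy₁ hπ ιC hq hqM ψ hML hM3 hψH hψ1 hψd) hn₀ hdvd 𝔫₀
  refine ⟨algebraMap ↥(beta0Field A) ↥(modularFunctionFieldFullC ↥(beta0Field A) (M₁ * q))
      (((rtk6d0N M H ⊤ : ℕ) : ↥(beta0Field A))⁻¹) * γ'⁻¹, e₁, e₂,
    mul_ne_zero rtk6n0f_const_ne_zero (inv_ne_zero hγ'), he₁, he₂, ?_⟩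
  have hk : algebraMap ↥(modularFunctionFieldFullC ↥(beta0Field A) (M₁ * q))
        ↥(fieldC E₁ (M₁ * q) M H)
        (algebraMap ↥(beta0Field A) ↥(modularFunctionFieldFullC ↥(beta0Field A) (M₁ * q))
          (((rtk6d0N M H ⊤ : ℕ) : ↥(beta0Field A))⁻¹) * γ'⁻¹) *
        rtk6c4fdY f (M₁ * q) M H ψ hML =
      rtk6n0fY f (M₁ * q) M H ψ hML /
        algebraMap ↥(modularFunctionFieldFullC ↥(beta0Field A) (M₁ * q))
          ↥(fieldC E₁ (M₁ * q) M H) γ' := by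
    rw [rtk6n0fY_eq_K halg hML, map_mul, map_inv₀ _ γ', div_eq_mul_inv]
    ring
  rw [hk]
  exact hpow

include hπ ιC hq hqM halg in
/-- **the ramified generator**: the hypotheses `hz0 hhor hz₁ hn₀ hzy` of helper54's
`rtk6gxi_crossE` for `z := rtk6c4wsU ψ_r hML _`, `y := rtk6n0fY f (M₁ q) M H ψ_r hML`, with `n₀`
prime to `d` (so that `a n₀ − b d = 1` is solvable: `rtk6c4w_bezout`). -/
theorem rtk6c4ws_ram_data (hA : A.LiesOverPrime q) (hML : M ∣ M₁ * q) (hqN : q ∣ M)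
    (hM3 : 3 ≤ M)
    {w : fieldBar (M₁ * q) M H ≃ₐ[Qb] fieldBar (M₁ * q) M H} (hw : IsWAt (M₁ * q) M H q w)
    {d : ℕ} (hd : Nat.Coprime d (6 * (M₁ * q)))
    (ψ : (ZMod M)ˣ →* (↥(beta0Field A))ˣ)
    (hψH : ∀ h ∈ H, ψ h = 1) (hψ1 : ψ (-1) = 1) (hψd : ∀ c, ψ c ^ d = 1)
    {c₀ : (ZMod M)ˣ} (hc₀ : IsAtR M q c₀) (hord : orderOf (ψ c₀) = d) :
    ∃ n₀ : ℤ, Nat.Coprime n₀.natAbs d ∧
      rtk6c4wsU (M₁ := M₁) (H := H) ψ hML hψd ≠ 0 ∧
      (∀ P : Place ↥(beta0Field A) ↥(modularFunctionFieldFullC ↥(beta0Field A) (M₁ * q)),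
        (d : ℤ) ∣ P.ord (rtk6c4wsU (M₁ := M₁) (H := H) ψ hML hψd)) ∧
      (mgvV hπ ιC hq hqM true).valuation (rtk6c4wsU (M₁ := M₁) (H := H) ψ hML hψd) = 1 ∧
      (mgvV hπ ιC hq hqM false).valuation (rtk6c4wsU (M₁ := M₁) (H := H) ψ hML hψd)
        = (mgvV hπ ιC hq hqM false).valuation
          (algebraMap ↥(beta0Ring A (beta0Field A))
            ↥(modularFunctionFieldFullC ↥(beta0Field A) (M₁ * q)) π) ^ n₀ ∧
      algebraMap ↥(modularFunctionFieldFullC ↥(beta0Field A) (M₁ * q))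
        ↥(fieldC E₁ (M₁ * q) M H) (rtk6c4wsU (M₁ := M₁) (H := H) ψ hML hψd)
        = rtk6n0fY f (M₁ * q) M H ψ hML ^ d := by
  have hqd : ¬ q ∣ d := rtk6c4ws_not_dvd hq (Dvd.intro_left M₁ rfl) hd
  obtain ⟨n₀, hn₀, hcop⟩ := rtk6c4ws_ram hπ ιC hq hqM hA hML hqN hM3 hw ψ hψH hψ1 hqd hψd
    hc₀ hord
  exact ⟨n₀, hcop, rtk6c4ws_hu ψ hML hM3 hψH hψ1 hψd, fun P => rtk6c4ws_hhor ψ hML hd hψd P,
    rtk6c4ws_hy₁ hπ ιC hq hqM ψ hML hM3 hψH hψ1 hψd, hn₀,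
    (rtk6c4ws_hyu f halg ψ hML hψd).symm⟩

end Base

/-! ### at a closed point of the top chart -/

section Top

variable {A : ValuationSubring Qb} {q M₁ : ℕ} [NeZero q] [NeZero M₁] [NeZero (M₁ * q)]
  [IsDiscreteValuationRing ↥(beta0Ring A (beta0Field A))]
  {π : ↥(beta0Ring A (beta0Field A))} (hπ : Irreducible π)
  (ιC : ↥(beta0Field A) →+* ℂ) (hq : q.Prime) (hqM : ¬ q ∣ M₁)
  (K₁ : IntermediateField ℚ Qb) [NumberField ↥K₁] [IsGalois ℚ ↥K₁]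
  (M : ℕ) [NeZero M] (H : Subgroup (ZMod M)ˣ)
  (f : ↥(beta0Field A) →+* ↥(mgcE A K₁))
  (hf : ∀ a : ↥(beta0Field A), ((f a : ↥(mgcE A K₁)) : Qb) = (a : Qb))
  [Algebra ↥(modularFunctionFieldFullC ↥(beta0Field A) (M₁ * q))
    ↥(rtk6diF A K₁ (M₁ * q) M H)]
  (halg : ∀ z : ↥(modularFunctionFieldFullC ↥(beta0Field A) (M₁ * q)),
    algebraMap ↥(modularFunctionFieldFullC ↥(beta0Field A) (M₁ * q))
      ↥(rtk6diF A K₁ (M₁ * q) M H) z = rtk6c4fdIota f (M₁ * q) M H z)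
  (hA : A.LiesOverPrime q) {d : ℕ} (hd0 : d ≠ 0) {ϖ : ↥(mgcA A K₁)}
  (hϖd : ϖ ^ d =
    beta0RingIncl (A := A) (le_sup_left : beta0Field A ≤ beta0Field A ⊔ K₁) π)

include hπ ιC hq hqM hA hd0 hϖd in
/-- **C4-χ-WIRE, the field `hSet`** (exponent `dS`) at a closed point `𝔫` of the top chart, in
the shape of helper54's `rtk6gxi_crossE`, for `S = {k_i · y_{ψ′_i}}` (the shape of helper70's
`rtk6c4w_fields`, which gives `hS`, `hgen`, `hσS`, `hδS` for these `k_i`). -/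
theorem rtk6c4ws_hSet (rigid : (q ≠ 2 → 4 ∣ M₁) ∧ (q = 2 → 9 ∣ M₁))
    (hML : M ∣ M₁ * q) (hqN : q ∣ M) (hM3 : 3 ≤ M)
    {w : fieldBar (M₁ * q) M H ≃ₐ[Qb] fieldBar (M₁ * q) M H} (hw : IsWAt (M₁ * q) M H q w)
    {dS : ℕ} (hdS : Nat.Coprime dS (6 * (M₁ * q)))
    {ι : Type*} (ψ' : ι → ((ZMod M)ˣ →* (↥(beta0Field A))ˣ))
    (hψH : ∀ i, ∀ h ∈ H, ψ' i h = 1) (hψ1 : ∀ i, ψ' i (-1) = 1)
    (hψd : ∀ i, ∀ c, ψ' i c ^ dS = 1)
    (hψr : ∀ i, ∀ c : (ZMod M)ˣ, IsAtR M q c → ψ' i c = 1)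
    (𝔫 : AtPt (F := ↥(rtk6diF A K₁ (M₁ * q) M H)) ϖ (rtk6diT A K₁ (M₁ * q) M H)) :
    ∃ k : ι → ↥(modularFunctionFieldFullC ↥(beta0Field A) (M₁ * q)), (∀ i, k i ≠ 0) ∧
      ∀ t ∈ Set.range (fun i =>
          algebraMap ↥(modularFunctionFieldFullC ↥(beta0Field A) (M₁ * q))
            ↥(rtk6diF A K₁ (M₁ * q) M H) (k i) * rtk6c4fdY f (M₁ * q) M H (ψ' i) hML),
        ∃ a b : ↥(zchClosure (A₀ := ↥(beta0Ring A (beta0Field A)))
            ({bgJ ↥(beta0Field A) (M₁ * q)} :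
              Set ↥(modularFunctionFieldFullC ↥(beta0Field A) (M₁ * q)))),
          rtk6gxiJ K₁ M H f hf halg a ∉ 𝔫.1 ∧ rtk6gxiJ K₁ M H f hf halg b ∉ 𝔫.1 ∧
          algebraMap ↥(zchClosure (A₀ := ↥(beta0Ring A (beta0Field A)))
            ({bgJ ↥(beta0Field A) (M₁ * q)} :
              Set ↥(modularFunctionFieldFullC ↥(beta0Field A) (M₁ * q))))
            ↥(rtk6diF A K₁ (M₁ * q) M H) b * t ^ dS =
          algebraMap ↥(zchClosure (A₀ := ↥(beta0Ring A (beta0Field A)))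
            ({bgJ ↥(beta0Field A) (M₁ * q)} :
              Set ↥(modularFunctionFieldFullC ↥(beta0Field A) (M₁ * q))))
            ↥(rtk6diF A K₁ (M₁ * q) M H) a := by
  have key := fun i => rtk6c4ws_one f halg hπ ιC hq hqM hA rigid hML hqN hM3 hw hdS (ψ' i)
    (hψH i) (hψ1 i) (hψd i) (hψr i) (rtk6gxiPt hq K₁ M H f hf halg hA hd0 hϖd 𝔫)
  choose k a b hk ha hb hpow using key
  refine ⟨k, hk, ?_⟩
  rintro t ⟨i, rfl⟩
  exact ⟨a i, b i, ha i, hb i, hpow i⟩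

include hπ ιC hq hqM hA hd0 hϖd in
/-- the same for the family of PSI (`Rtk6psiIsFam`, `Psi.lean`) -/
theorem rtk6c4ws_hSet_fam (rigid : (q ≠ 2 → 4 ∣ M₁) ∧ (q = 2 → 9 ∣ M₁))
    (hML : M ∣ M₁ * q) (hqN : q ∣ M) (hM3 : 3 ≤ M)
    {w : fieldBar (M₁ * q) M H ≃ₐ[Qb] fieldBar (M₁ * q) M H} (hw : IsWAt (M₁ * q) M H q w)
    {dS : ℕ} (hdS : Nat.Coprime dS (6 * (M₁ * q)))
    {ι : Type*} (ψ' : ι → ((ZMod M)ˣ →* (↥(beta0Field A))ˣ))
    (hfam : Rtk6psiIsFam ↥(beta0Field A) M q dS H ψ')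
    (𝔫 : AtPt (F := ↥(rtk6diF A K₁ (M₁ * q) M H)) ϖ (rtk6diT A K₁ (M₁ * q) M H)) :
    ∃ k : ι → ↥(modularFunctionFieldFullC ↥(beta0Field A) (M₁ * q)), (∀ i, k i ≠ 0) ∧
      ∀ t ∈ Set.range (fun i =>
          algebraMap ↥(modularFunctionFieldFullC ↥(beta0Field A) (M₁ * q))
            ↥(rtk6diF A K₁ (M₁ * q) M H) (k i) * rtk6c4fdY f (M₁ * q) M H (ψ' i) hML),
        ∃ a b : ↥(zchClosure (A₀ := ↥(beta0Ring A (beta0Field A)))
            ({bgJ ↥(beta0Field A) (M₁ * q)} :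
              Set ↥(modularFunctionFieldFullC ↥(beta0Field A) (M₁ * q)))),
          rtk6gxiJ K₁ M H f hf halg a ∉ 𝔫.1 ∧ rtk6gxiJ K₁ M H f hf halg b ∉ 𝔫.1 ∧
          algebraMap ↥(zchClosure (A₀ := ↥(beta0Ring A (beta0Field A)))
            ({bgJ ↥(beta0Field A) (M₁ * q)} :
              Set ↥(modularFunctionFieldFullC ↥(beta0Field A) (M₁ * q))))
            ↥(rtk6diF A K₁ (M₁ * q) M H) b * t ^ dS =
          algebraMap ↥(zchClosure (A₀ := ↥(beta0Ring A (beta0Field A)))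
            ({bgJ ↥(beta0Field A) (M₁ * q)} :
              Set ↥(modularFunctionFieldFullC ↥(beta0Field A) (M₁ * q))))
            ↥(rtk6diF A K₁ (M₁ * q) M H) a :=
  rtk6c4ws_hSet hπ ιC hq hqM K₁ M H f hf halg hA hd0 hϖd rigid hML hqN hM3 hw hdS ψ'
    hfam.map_H hfam.map_neg_one hfam.pow_d hfam.map_atR 𝔫

end Top

end Fermat.Agent.RT.K6

end


end ZBRT_097_6

/-! ### bundled: `Fermat.Agent.RT.K6.C4AsmCr` -/
section ZBRT_097_7
/-
K-machine, piece K6, piece C4-χ-ASM, **the discharge of `hcr`** (helper54): at the thin level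
`K₁ = rtk6ebK q d_q` (`d_q = rtk6psiDr M q H`, `ϖ ^ d_q = q`) the crossing alternative of
helper94's `rtk6c4aj_plusAt` (`C4AsmJ.lean`), LITERALLY: at a closed point `𝔫` of the chart `j`
of `F₁ = rtk6diF A K₁ (M₁ q) M H` over a crossing point `𝔫₀ = 𝔫 ∩ R₀` of the chart `j` of the
`Γ₀`-field `K`, the datum `Rtk6c4CrossE`, the positions of `X₀`, `Y₀` and the conditions
`Rtk6c4aAut` on the elements of `𝒢`.

Inputs: PSI (`Psi.lean`, helper5), N0 + D-unr through `C4ChiWireS.lean` (helper98, helper6,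
helper74), WIRE (`C4ChiWireGen.lean`, helper70), the packs (`GenInstGen.lean`, helper74),
(G-cross) (`GenCrossInst.lean`).  (T2) is a hypothesis, on the UNNORMALISED generators
`y_ψ = rtk6c4fdY`, and is transported by `Rtk6c4aAut.rescale` (helper94).

* `rtk6c4ac_exists_root` : `ℚ̄^I` contains a primitive `d`-th root of unity, `q ∤ d`;
* `rtk6c4ac_psi`         : PSI over `E₀ = ℚ̄^I` from `IsTameAt`;
* `rtk6c4ac_hcr_of`      : `hcr` for GIVEN characters `ψ_r`, `ψ′_i`;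
* **`rtk6c4ac_hcr`**     : `hcr` from `IsStarStable` + `IsTameAt`, (T2) for all characters.
-/

set_option autoImplicit false
set_option linter.style.haveILetI false
set_option linter.unusedSectionVars false
set_option linter.unusedVariables false
set_option linter.style.longLine false
set_option synthInstance.maxHeartbeats 400000
set_option maxHeartbeats 4000000

noncomputable section

namespace Fermat.Agent.RT.K6

open ModularCurve Polynomial IntermediateField Fermat.Agent.INJ Fermat.Agent.AL AlgebraicCurve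
open Fermat.Agent.ES Fermat.Agent.ES.G2 Fermat.Agent.STB Fermat.Agent.UNIP Fermat.Agent.S36
open Fermat.Agent.RIB.MP Fermat.Agent.ES1 Fermat.Agent.ES1.G2

section Psi

variable {A : ValuationSubring Qb} {q : ℕ}

/-- `ℚ̄^I` contains a primitive `d`-th root of unity, `q ∤ d` -/
theorem rtk6c4ac_exists_root (hq : q.Prime) (hA : A.LiesOverPrime q) {d : ℕ} (hd0 : d ≠ 0)
    (hqd : ¬ q ∣ d) : ∃ ζ : ↥(beta0Field A), IsPrimitiveRoot ζ d := by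
  obtain ⟨ζ, hζ⟩ := beta0Ring_exists_primitiveRoot (A := A) (K₀ := beta0Field A) le_rfl hd0
    (rtk6n0_nat_unit hq hA hqd)
  exact ⟨(ζ : ↥(beta0Field A)), hζ.map_of_injective
    (f := (beta0Ring A (beta0Field A)).subtype) Subtype.val_injective⟩

/-- **PSI over `E₀ = ℚ̄^I`**, from `IsStarStable` and `IsTameAt`. -/
theorem rtk6c4ac_psi (hq : q.Prime) (hA : A.LiesOverPrime q) {L M : ℕ} [NeZero M]
    {H : Subgroup (ZMod M)ˣ} (hqL : q ∣ L) (hqM : q ∣ M) (hq2 : ¬ q ^ 2 ∣ M)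
    (hstar : IsStarStable M q H) (htame : IsTameAt L M q H) :
    ∃ dS : ℕ, Nat.Coprime dS (6 * L) ∧ dS ≠ 0 ∧ rtk6psiDr M q H ∣ dS ∧
      ∃ (ψr : (ZMod M)ˣ →* (↥(beta0Field A))ˣ) (k : ℕ)
        (ψ' : Fin k → ((ZMod M)ˣ →* (↥(beta0Field A))ˣ)),
        Rtk6psiIsR ↥(beta0Field A) M q H ψr ∧ Rtk6psiIsFam ↥(beta0Field A) M q dS H ψ' := by
  obtain ⟨d, hcop, hd⟩ := htame
  have hd0 : d ≠ 0 := rtk6psi_ne_zero_of_coprime hcop
  have hqd : ¬ q ∣ d := rtk6c4ws_not_dvd hq hqL hcop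
  exact ⟨d, hcop, hd0, rtk6psiDr_dvd_of_forall hd,
    rtk6psi_exists ↥(beta0Field A) hq hqM hq2 hstar hcop hd
      (rtk6c4ac_exists_root hq hA hd0 hqd)⟩

end Psi

section Cr

variable {A : ValuationSubring Qb} {q M₁ : ℕ} [NeZero q] [NeZero M₁] [NeZero (M₁ * q)]
  [IsDiscreteValuationRing ↥(beta0Ring A (beta0Field A))]
  {π : ↥(beta0Ring A (beta0Field A))} (hπ : Irreducible π)
  (ιC : ↥(beta0Field A) →+* ℂ) (hq : q.Prime) (hqM : ¬ q ∣ M₁)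
  (M : ℕ) [NeZero M] (H : Subgroup (ZMod M)ˣ)
  [IsDiscreteValuationRing ↥(mgcA A (rtk6ebK q (rtk6psiDr M q H)))]
  (f : ↥(beta0Field A) →+* ↥(mgcE A (rtk6ebK q (rtk6psiDr M q H))))
  (hf : ∀ a : ↥(beta0Field A),
    ((f a : ↥(mgcE A (rtk6ebK q (rtk6psiDr M q H)))) : Qb) = (a : Qb))
  [Algebra ↥(modularFunctionFieldFullC ↥(beta0Field A) (M₁ * q))
    ↥(rtk6diF A (rtk6ebK q (rtk6psiDr M q H)) (M₁ * q) M H)]
  (halg : ∀ z : ↥(modularFunctionFieldFullC ↥(beta0Field A) (M₁ * q)),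
    algebraMap ↥(modularFunctionFieldFullC ↥(beta0Field A) (M₁ * q))
      ↥(rtk6diF A (rtk6ebK q (rtk6psiDr M q H)) (M₁ * q) M H) z
        = rtk6c4fdIota f (M₁ * q) M H z)
  (hA : A.LiesOverPrime q) (hd0 : rtk6psiDr M q H ≠ 0)
  {ϖ : ↥(mgcA A (rtk6ebK q (rtk6psiDr M q H)))}
  (hϖd : ϖ ^ rtk6psiDr M q H =
    beta0RingIncl (A := A)
      (le_sup_left : beta0Field A ≤ beta0Field A ⊔ rtk6ebK q (rtk6psiDr M q H)) π)

include hπ ιC hqM in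
/-- **the discharge of `hcr`, chart `j`, for given characters `ψ_r`, `ψ′_i`.** -/
theorem rtk6c4ac_hcr_of (rigid : (q ≠ 2 → 4 ∣ M₁) ∧ (q = 2 → 9 ∣ M₁))
    (hϖq : ϖ ^ rtk6psiDr M q H = ((q : ℕ) : ↥(mgcA A (rtk6ebK q (rtk6psiDr M q H)))))
    (hqN : q ∣ M) (hML : M ∣ M₁ * q) (hM3 : 3 ≤ M) (hstar : IsStarStable M q H)
    {dS : ℕ} (hdS : Nat.Coprime dS (6 * (M₁ * q))) (hdS0 : dS ≠ 0)
    (hdr : rtk6psiDr M q H ∣ dS)
    {ψr : (ZMod M)ˣ →* (↥(beta0Field A))ˣ} (hψr : Rtk6psiIsR ↥(beta0Field A) M q H ψr)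
    {k : ℕ} {ψ' : Fin k → ((ZMod M)ˣ →* (↥(beta0Field A))ˣ)}
    (hfam : Rtk6psiIsFam ↥(beta0Field A) M q dS H ψ')
    (𝒢 : Set (SemilinearAut ↥(mgcE A (rtk6ebK q (rtk6psiDr M q H)))
      ↥(rtk6diF A (rtk6ebK q (rtk6psiDr M q H)) (M₁ * q) M H)))
    (hT2 : ∀ g ∈ 𝒢, Rtk6c4aAut
      ↥(zchClosure (A₀ := ↥(beta0Ring A (beta0Field A)))
        ({bgJ ↥(beta0Field A) (M₁ * q)} :
          Set ↥(modularFunctionFieldFullC ↥(beta0Field A) (M₁ * q))))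
      ↥(modularFunctionFieldFullC ↥(beta0Field A) (M₁ * q)) ϖ
      (rtk6diT A (rtk6ebK q (rtk6psiDr M q H)) (M₁ * q) M H)
      (Set.range fun i => rtk6c4fdY f (M₁ * q) M H (ψ' i) hML)
      (rtk6c4fdY f (M₁ * q) M H ψr hML) g)
    (𝔫 : AtPt (F := ↥(rtk6diF A (rtk6ebK q (rtk6psiDr M q H)) (M₁ * q) M H)) ϖ
      (rtk6diT A (rtk6ebK q (rtk6psiDr M q H)) (M₁ * q) M H))
    (h₁ : atThrough (rtk6gxiPt hq (rtk6ebK q (rtk6psiDr M q H)) M H f hf halg hA hd0 hϖd 𝔫)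
      (mgvV hπ ιC hq hqM true))
    (h₂ : atThrough (rtk6gxiPt hq (rtk6ebK q (rtk6psiDr M q H)) M H f hf halg hA hd0 hϖd 𝔫)
      (mgvV hπ ιC hq hqM false)) :
    ∃ (d' dS : ℕ) (ζ X Y w e₁ e₂ : ↥(zchClosure (A₀ := ↥(beta0Ring A (beta0Field A)))
        ({bgJ ↥(beta0Field A) (M₁ * q)} :
          Set ↥(modularFunctionFieldFullC ↥(beta0Field A) (M₁ * q)))))
      (S : Set ↥(rtk6diF A (rtk6ebK q (rtk6psiDr M q H)) (M₁ * q) M H))
      (y : ↥(rtk6diF A (rtk6ebK q (rtk6psiDr M q H)) (M₁ * q) M H))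
      (γ : ↥(modularFunctionFieldFullC ↥(beta0Field A) (M₁ * q))) (n₀ a b : ℤ)
      (σ δ : ↥(rtk6diF A (rtk6ebK q (rtk6psiDr M q H)) (M₁ * q) M H)
        ≃ₐ[↥(modularFunctionFieldFullC ↥(beta0Field A) (M₁ * q))]
        ↥(rtk6diF A (rtk6ebK q (rtk6psiDr M q H)) (M₁ * q) M H)),
      Rtk6c4CrossE (rtk6gxiJ (rtk6ebK q (rtk6psiDr M q H)) M H f hf halg)
        (algebraMap ↥(zchClosure (A₀ := ↥(mgcA A (rtk6ebK q (rtk6psiDr M q H))))
          ({rtk6diT A (rtk6ebK q (rtk6psiDr M q H)) (M₁ * q) M H} :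
            Set ↥(rtk6diF A (rtk6ebK q (rtk6psiDr M q H)) (M₁ * q) M H)))
          ↥(rtk6diF A (rtk6ebK q (rtk6psiDr M q H)) (M₁ * q) M H)) 𝔫.1 d' dS ζ
        (algebraMap ↥(beta0Ring A (beta0Field A))
          ↥(zchClosure (A₀ := ↥(beta0Ring A (beta0Field A)))
            ({bgJ ↥(beta0Field A) (M₁ * q)} :
              Set ↥(modularFunctionFieldFullC ↥(beta0Field A) (M₁ * q)))) π) X Y w S
        (algebraMap ↥(mgcA A (rtk6ebK q (rtk6psiDr M q H)))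
          ↥(rtk6diF A (rtk6ebK q (rtk6psiDr M q H)) (M₁ * q) M H) ϖ) y γ e₁ e₂ n₀ a b σ δ ∧
      (X : ↥(modularFunctionFieldFullC ↥(beta0Field A) (M₁ * q))) ∈
        (mgvV hπ ιC hq hqM true).nonunits ∧
      (Y : ↥(modularFunctionFieldFullC ↥(beta0Field A) (M₁ * q))) ∉
        (mgvV hπ ιC hq hqM true).nonunits ∧
      (Y : ↥(modularFunctionFieldFullC ↥(beta0Field A) (M₁ * q))) ∈
        (mgvV hπ ιC hq hqM false).nonunits ∧
      (X : ↥(modularFunctionFieldFullC ↥(beta0Field A) (M₁ * q))) ∉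
        (mgvV hπ ιC hq hqM false).nonunits ∧
      ∀ g ∈ 𝒢, Rtk6c4aAut
        ↥(zchClosure (A₀ := ↥(beta0Ring A (beta0Field A)))
          ({bgJ ↥(beta0Field A) (M₁ * q)} :
            Set ↥(modularFunctionFieldFullC ↥(beta0Field A) (M₁ * q))))
        ↥(modularFunctionFieldFullC ↥(beta0Field A) (M₁ * q)) ϖ
        (rtk6diT A (rtk6ebK q (rtk6psiDr M q H)) (M₁ * q) M H) S y g := by
  have hL : M₁ * q ≠ 0 := NeZero.ne (M₁ * q)
  have hqL : q ∣ M₁ * q := Dvd.intro_left M₁ rfl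
  have hq2 : ¬ q ^ 2 ∣ M := by
    intro h
    have h1 : q ^ 2 ∣ M₁ * q := h.trans hML
    rw [pow_two] at h1
    exact hqM (Nat.dvd_of_mul_dvd_mul_right hq.pos h1)
  have hqdS : ¬ q ∣ dS := rtk6c4ws_not_dvd hq hqL hdS
  have hcopr : Nat.Coprime (rtk6psiDr M q H) (6 * (M₁ * q)) :=
    Nat.Coprime.coprime_dvd_left hdr hdS
  have hqd : ¬ q ∣ rtk6psiDr M q H := rtk6c4ws_not_dvd hq hqL hcopr
  have hodd : Odd (rtk6psiDr M q H) := rtk6psi_odd_of_coprime hcopr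
  obtain ⟨w, hw⟩ := rtk6n0b_exists_w (H := H) hq hqM hML hqN hstar
  obtain ⟨c₀, hc₀, hord⟩ := hψr.exists_orderOf hq hqN hq2
  -- the ramified generator
  obtain ⟨n₀, hcop, hz0, hhor, hz₁, hn₀, hzy⟩ :=
    rtk6c4ws_ram_data f halg hπ ιC hq hqM hA hML hqN hM3 hw hcopr ψr hψr.map_H
      hψr.map_neg_one hψr.pow_dr hc₀ hord
  -- the étale family
  obtain ⟨nn, hyu, hu, hhor', hy₁', hn₀', hdvd⟩ :=
    rtk6c4ws_family f halg hπ ιC hq hqM hA hML hqN hM3 hw hdS ψ' hfam.map_H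
      hfam.map_neg_one hfam.pow_d hfam.map_atR
  -- WIRE
  obtain ⟨ζ, a, b, σ, δ, hζ, hab, hF1, hσN, hσY, hσϖ, hδN, hδY, hδϖ, hδy, hδy', -, -⟩ :=
    rtk6c4w_wireN hq hA hqN hq2 hodd f hf halg hL hML hM3
      (zchClosure (A₀ := ↥(beta0Ring A (beta0Field A)))
        ({bgJ ↥(beta0Field A) (M₁ * q)} :
          Set ↥(modularFunctionFieldFullC ↥(beta0Field A) (M₁ * q))))
      hϖq hψr hfam hdS0 hdr hcop
  -- the pack
  obtain ⟨S, hS, hSet, hgen, hfix, hSy, hyS⟩ :=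
    rtk6gi_cross_pack hπ ιC hq hqM hA rigid dS
      (fun i => rtk6n0fY f (M₁ * q) M H (ψ' i) hML)
      (fun i => rtk6c4wsU (M₁ := M₁) (H := H) (ψ' i) hML (hfam.pow_d i)) nn hyu hu hhor'
      hy₁' hn₀' hdvd
      ({algebraMap ↥(mgcA A (rtk6ebK q (rtk6psiDr M q H)))
          ↥(rtk6diF A (rtk6ebK q (rtk6psiDr M q H)) (M₁ * q) M H) ϖ,
        rtk6n0fY f (M₁ * q) M H ψr hML} :
        Set ↥(rtk6diF A (rtk6ebK q (rtk6psiDr M q H)) (M₁ * q) M H))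
      ((Set.range fun i => rtk6n0fY f (M₁ * q) M H (ψ' i) hML) ∪
        {algebraMap ↥(mgcA A (rtk6ebK q (rtk6psiDr M q H)))
            ↥(rtk6diF A (rtk6ebK q (rtk6psiDr M q H)) (M₁ * q) M H) ϖ,
          rtk6n0fY f (M₁ * q) M H ψr hML})
      (by
        rintro z (⟨i, rfl⟩ | hz)
        · exact Or.inr ⟨i, rfl⟩
        · exact Or.inl hz)
      hF1 (rtk6gxiPt hq (rtk6ebK q (rtk6psiDr M q H)) M H f hf halg hA hd0 hϖd 𝔫)
  -- (G-cross)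
  obtain ⟨X, Y, w', e₁, e₂, γ, hC, hX₁, hY₁, hY₂, hX₂⟩ :=
    rtk6gxi_crossE hπ ιC hq hqM (rtk6ebK q (rtk6psiDr M q H)) M H f hf halg hA hd0 hϖd
      hqdS rigid hqd 𝔫 h₁ h₂ hζ hz0 hhor hz₁ hn₀ hzy hab hS
      (fun t ht => by
        obtain ⟨a', b', ha', hb', hpow⟩ := hSet t ht
        exact ⟨a', b', ha', hb', hpow⟩)
      hgen (hfix σ (fun i => hσN (ψ' i))) hσϖ (hσN ψr)
      (hfix δ (fun i => hδN (ψ' i) (hfam.map_atR i))) hδϖ hδy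
  refine ⟨rtk6psiDr M q H, dS, ζ, X, Y, w', e₁, e₂, S, rtk6n0fY f (M₁ * q) M H ψr hML, γ, n₀,
    a, b, σ, δ, hC, hX₁, hY₁, hY₂, hX₂, fun g hg => ?_⟩
  refine (hT2 g hg).rescale
    (algebraMap ↥(beta0Field A) ↥(modularFunctionFieldFullC ↥(beta0Field A) (M₁ * q))
      (((rtk6d0N M H ⊤ : ℕ) : ↥(beta0Field A))⁻¹))
    (rtk6n0fY_eq_K halg hML) (fun t ht => ?_)
  obtain ⟨i, c, hc, rfl⟩ := hSy t ht
  refine ⟨algebraMap ↥(beta0Field A) ↥(modularFunctionFieldFullC ↥(beta0Field A) (M₁ * q))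
      (((rtk6d0N M H ⊤ : ℕ) : ↥(beta0Field A))⁻¹) * c⁻¹,
    rtk6c4fdY f (M₁ * q) M H (ψ' i) hML, ⟨i, rfl⟩, ?_⟩
  rw [rtk6n0fY_eq_K halg hML, map_mul, map_inv₀ _ c, div_eq_mul_inv]
  exact mul_right_comm _ _ _

include hπ ιC hqM in
/-- **the discharge of `hcr`, chart `j`**: the crossing alternative of `rtk6c4aj_plusAt` at the
thin level, from `IsStarStable`, `IsTameAt` and (T2) for the unnormalised generators of ALL
characters `ψ_r`, `ψ′_i` of PSI. -/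
theorem rtk6c4ac_hcr (rigid : (q ≠ 2 → 4 ∣ M₁) ∧ (q = 2 → 9 ∣ M₁))
    (hϖq : ϖ ^ rtk6psiDr M q H = ((q : ℕ) : ↥(mgcA A (rtk6ebK q (rtk6psiDr M q H)))))
    (hqN : q ∣ M) (hML : M ∣ M₁ * q) (hM3 : 3 ≤ M) (hstar : IsStarStable M q H)
    (htame : IsTameAt (M₁ * q) M q H)
    (𝒢 : Set (SemilinearAut ↥(mgcE A (rtk6ebK q (rtk6psiDr M q H)))
      ↥(rtk6diF A (rtk6ebK q (rtk6psiDr M q H)) (M₁ * q) M H)))
    (hT2 : ∀ (dS : ℕ) (ψr : (ZMod M)ˣ →* (↥(beta0Field A))ˣ) (k : ℕ)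
      (ψ' : Fin k → ((ZMod M)ˣ →* (↥(beta0Field A))ˣ)),
      Rtk6psiIsR ↥(beta0Field A) M q H ψr → Rtk6psiIsFam ↥(beta0Field A) M q dS H ψ' →
      ∀ g ∈ 𝒢, Rtk6c4aAut
        ↥(zchClosure (A₀ := ↥(beta0Ring A (beta0Field A)))
          ({bgJ ↥(beta0Field A) (M₁ * q)} :
            Set ↥(modularFunctionFieldFullC ↥(beta0Field A) (M₁ * q))))
        ↥(modularFunctionFieldFullC ↥(beta0Field A) (M₁ * q)) ϖ
        (rtk6diT A (rtk6ebK q (rtk6psiDr M q H)) (M₁ * q) M H)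
        (Set.range fun i => rtk6c4fdY f (M₁ * q) M H (ψ' i) hML)
        (rtk6c4fdY f (M₁ * q) M H ψr hML) g)
    (𝔫 : AtPt (F := ↥(rtk6diF A (rtk6ebK q (rtk6psiDr M q H)) (M₁ * q) M H)) ϖ
      (rtk6diT A (rtk6ebK q (rtk6psiDr M q H)) (M₁ * q) M H))
    (h₁ : atThrough (rtk6gxiPt hq (rtk6ebK q (rtk6psiDr M q H)) M H f hf halg hA hd0 hϖd 𝔫)
      (mgvV hπ ιC hq hqM true))
    (h₂ : atThrough (rtk6gxiPt hq (rtk6ebK q (rtk6psiDr M q H)) M H f hf halg hA hd0 hϖd 𝔫)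
      (mgvV hπ ιC hq hqM false)) :
    ∃ (d' dS : ℕ) (ζ X Y w e₁ e₂ : ↥(zchClosure (A₀ := ↥(beta0Ring A (beta0Field A)))
        ({bgJ ↥(beta0Field A) (M₁ * q)} :
          Set ↥(modularFunctionFieldFullC ↥(beta0Field A) (M₁ * q)))))
      (S : Set ↥(rtk6diF A (rtk6ebK q (rtk6psiDr M q H)) (M₁ * q) M H))
      (y : ↥(rtk6diF A (rtk6ebK q (rtk6psiDr M q H)) (M₁ * q) M H))
      (γ : ↥(modularFunctionFieldFullC ↥(beta0Field A) (M₁ * q))) (n₀ a b : ℤ)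
      (σ δ : ↥(rtk6diF A (rtk6ebK q (rtk6psiDr M q H)) (M₁ * q) M H)
        ≃ₐ[↥(modularFunctionFieldFullC ↥(beta0Field A) (M₁ * q))]
        ↥(rtk6diF A (rtk6ebK q (rtk6psiDr M q H)) (M₁ * q) M H)),
      Rtk6c4CrossE (rtk6gxiJ (rtk6ebK q (rtk6psiDr M q H)) M H f hf halg)
        (algebraMap ↥(zchClosure (A₀ := ↥(mgcA A (rtk6ebK q (rtk6psiDr M q H))))
          ({rtk6diT A (rtk6ebK q (rtk6psiDr M q H)) (M₁ * q) M H} :
            Set ↥(rtk6diF A (rtk6ebK q (rtk6psiDr M q H)) (M₁ * q) M H)))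
          ↥(rtk6diF A (rtk6ebK q (rtk6psiDr M q H)) (M₁ * q) M H)) 𝔫.1 d' dS ζ
        (algebraMap ↥(beta0Ring A (beta0Field A))
          ↥(zchClosure (A₀ := ↥(beta0Ring A (beta0Field A)))
            ({bgJ ↥(beta0Field A) (M₁ * q)} :
              Set ↥(modularFunctionFieldFullC ↥(beta0Field A) (M₁ * q)))) π) X Y w S
        (algebraMap ↥(mgcA A (rtk6ebK q (rtk6psiDr M q H)))
          ↥(rtk6diF A (rtk6ebK q (rtk6psiDr M q H)) (M₁ * q) M H) ϖ) y γ e₁ e₂ n₀ a b σ δ ∧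
      (X : ↥(modularFunctionFieldFullC ↥(beta0Field A) (M₁ * q))) ∈
        (mgvV hπ ιC hq hqM true).nonunits ∧
      (Y : ↥(modularFunctionFieldFullC ↥(beta0Field A) (M₁ * q))) ∉
        (mgvV hπ ιC hq hqM true).nonunits ∧
      (Y : ↥(modularFunctionFieldFullC ↥(beta0Field A) (M₁ * q))) ∈
        (mgvV hπ ιC hq hqM false).nonunits ∧
      (X : ↥(modularFunctionFieldFullC ↥(beta0Field A) (M₁ * q))) ∉
        (mgvV hπ ιC hq hqM false).nonunits ∧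
      ∀ g ∈ 𝒢, Rtk6c4aAut
        ↥(zchClosure (A₀ := ↥(beta0Ring A (beta0Field A)))
          ({bgJ ↥(beta0Field A) (M₁ * q)} :
            Set ↥(modularFunctionFieldFullC ↥(beta0Field A) (M₁ * q))))
        ↥(modularFunctionFieldFullC ↥(beta0Field A) (M₁ * q)) ϖ
        (rtk6diT A (rtk6ebK q (rtk6psiDr M q H)) (M₁ * q) M H) S y g := by
  have hq2 : ¬ q ^ 2 ∣ M := by
    intro h
    have h1 : q ^ 2 ∣ M₁ * q := h.trans hML
    rw [pow_two] at h1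
    exact hqM (Nat.dvd_of_mul_dvd_mul_right hq.pos h1)
  obtain ⟨dS, hdS, hdS0, hdr, ψr, k, ψ', hψr, hfam⟩ :=
    rtk6c4ac_psi (A := A) hq hA (Dvd.intro_left M₁ rfl) hqN hq2 hstar htame
  exact rtk6c4ac_hcr_of hπ ιC hq hqM M H f hf halg hA hd0 hϖd rigid hϖq hqN hML hM3 hstar
    hdS hdS0 hdr hψr hfam 𝒢 (hT2 dS ψr k ψ' hψr hfam) 𝔫 h₁ h₂

/-- the level hypotheses of piece E give `rigid`: `4 ∣ M₁ q`, `q ∤ M₁` ⇒ `q ≠ 2` and `4 ∣ M₁` -/
theorem rtk6c4ac_rigid {q M₁ : ℕ} (hq : q.Prime) (hqM : ¬ q ∣ M₁) (h4 : 4 ∣ M₁ * q) :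
    (q ≠ 2 → 4 ∣ M₁) ∧ (q = 2 → 9 ∣ M₁) := by
  have hq2 : q ≠ 2 := by
    rintro rfl
    apply hqM
    have h2 : 2 * 2 ∣ M₁ * 2 := h4
    exact Nat.dvd_of_mul_dvd_mul_right (by norm_num) h2
  refine ⟨fun _ => ?_, fun h => absurd h hq2⟩
  have hcop : Nat.Coprime 4 q := by
    have h2q : Nat.Coprime 2 q := (Nat.coprime_primes Nat.prime_two hq).2 (Ne.symm hq2)
    exact Nat.Coprime.pow_left 2 h2q
  exact hcop.dvd_of_dvd_mul_right h4

/-- the level hypotheses of piece E give `3 ≤ M`: `q ∣ M`, `q` odd -/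
theorem rtk6c4ac_three_le {q M₁ M : ℕ} (hq : q.Prime) (hqM : ¬ q ∣ M₁) (h4 : 4 ∣ M₁ * q)
    (hqN : q ∣ M) (hM0 : M ≠ 0) : 3 ≤ M := by
  have hq2 : q ≠ 2 := by
    rintro rfl
    apply hqM
    have h2 : 2 * 2 ∣ M₁ * 2 := h4
    exact Nat.dvd_of_mul_dvd_mul_right (by norm_num) h2
  have h3 : 3 ≤ q := by
    have := hq.two_le
    omega
  exact h3.trans (Nat.le_of_dvd (Nat.pos_of_ne_zero hM0) hqN)

end Cr

end Fermat.Agent.RT.K6

end


end ZBRT_097_7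

/-! ### bundled: `Fermat.Agent.RT.K6.C4AsmThin` -/
section ZBRT_097_8
/-
K-machine, piece K6, piece C4-χ-ASM (helper94), FINAL PLUG, chart `j`:
**the dichotomy with C4+ at every closed point of the chart `j` at the thin level
`K₁′ = rtk6ebK q d_q`** (`d_q = rtk6psiDr M q H`), for the family
`V₁ = rtk6dfV hϖ₁ M H (rtk6diwEquiv w₀ hc₁)` and the set `𝒢 = rtk6fxbG A K₁′ (M₁ q) M H q`,

  = LITERALLY the hypothesis `hJ` of `rtk6cxp_geomChiG` (`C4ChiPlusG.lean`, helper76),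

from `rtk6c4aj_plusAt` (`C4AsmJ.lean`) and the three discharges
`rtk6c4as_hsm` (helper86), `rtk6c4ac_hcr` (helper54) with `rtk6fxb_hT2` (helper34),
`rtk6thrx_hthr` (helper66); base data `π := q`, `ιC := mgdIota (ℚ̄^I)`, `f` the inclusion
`ℚ̄^I → E₁`, `ιC₁ := mgdIota E₁`, (W1) `rtk6w1_wIncl`.

* `rtk6c4atF`, `rtk6c4atF_coe` : the inclusion `ℚ̄^I → E₁ = ℚ̄^I ⊔ K₁`;
* `rtk6c4at_plusJ` : one level datum, one point;
* `rtk6c4at_hJ`    : the hypothesis `hJ` of `rtk6cxp_geomChiG`.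
-/

set_option autoImplicit false
set_option linter.style.haveILetI false
set_option linter.unusedSectionVars false
set_option linter.unusedVariables false
set_option linter.style.longLine false
set_option synthInstance.maxHeartbeats 400000
set_option maxHeartbeats 4000000

noncomputable section

namespace Fermat.Agent.RT.K6

open ModularCurve Polynomial IntermediateField Fermat.Agent.INJ Fermat.Agent.AL AlgebraicCurve
open Fermat.Agent.ES Fermat.Agent.ES.G2 Fermat.Agent.STB Fermat.Agent.UNIP Fermat.Agent.S36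
open Fermat.Agent.RIB.MP Fermat.Agent.ES1 Fermat.Agent.ES1.G2

/-- the inclusion `ℚ̄^I → E₁ = ℚ̄^I ⊔ K₁` -/
def rtk6c4atF (A : ValuationSubring Qb) (K₁ : IntermediateField ℚ Qb) :
    ↥(beta0Field A) →+* ↥(mgcE A K₁) :=
  (IntermediateField.inclusion (le_sup_left : beta0Field A ≤ beta0Field A ⊔ K₁)).toRingHom

theorem rtk6c4atF_coe (A : ValuationSubring Qb) (K₁ : IntermediateField ℚ Qb)
    (a : ↥(beta0Field A)) : ((rtk6c4atF A K₁ a : ↥(mgcE A K₁)) : Qb) = (a : Qb) := rfl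

section Thin

variable {q M₁ : ℕ} [NeZero q] [NeZero M₁] [NeZero (M₁ * q)] {M : ℕ} {H : Subgroup (ZMod M)ˣ}

/-- **C4-χ-ASM at the thin level, chart `j`** (one level datum, one point). -/
theorem rtk6c4at_plusJ (hq : q.Prime) (hqM' : q ∣ M) (hM0 : M ≠ 0) (hqM : ¬ q ∣ M₁)
    (hML : M ∣ M₁ * q) (hstar : IsStarStable M q H) (htame : IsTameAt (M₁ * q) M q H)
    (h4 : 4 ∣ M₁ * q) (w₀ : fieldBar (M₁ * q) M H ≃ₐ[Qb] fieldBar (M₁ * q) M H)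
    (hw₀ : IsWAt (M₁ * q) M H q w₀) (A : ValuationSubring Qb) (hA : A.LiesOverPrime q)
    [IsDiscreteValuationRing ↥(mgcA A (rtk6ebK q (rtk6cxpD M q H)))]
    (ϖ₁ : ↥(mgcA A (rtk6ebK q (rtk6cxpD M q H)))) (hϖ₁ : Irreducible ϖ₁)
    (hϖq : ϖ₁ ^ rtk6cxpD M q H = ((q : ℕ) : ↥(mgcA A (rtk6ebK q (rtk6cxpD M q H)))))
    (hc₁ : RtkCommK (mgcE A (rtk6ebK q (rtk6cxpD M q H))) w₀)
    (𝔫₁ : AtPt (F := ↥(rtk6diF A (rtk6ebK q (rtk6cxpD M q H)) (M₁ * q) M H)) ϖ₁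
      (rtk6diT A (rtk6ebK q (rtk6cxpD M q H)) (M₁ * q) M H)) :
    Rtk6c4aPlusAt
      (rtk6dfV hϖ₁ M H (rtk6diwEquiv (K₀ := mgcE A (rtk6ebK q (rtk6cxpD M q H))) w₀ hc₁))
      (rtk6fxbG A (rtk6ebK q (rtk6cxpD M q H)) (M₁ * q) M H q) 𝔫₁ := by
  haveI : NeZero M := ⟨hM0⟩
  haveI : IsDiscreteValuationRing ↥(beta0Ring A (beta0Field A)) := beta0Ring_isDVR_base hq hA
  have hπ : Irreducible ((q : ℕ) : ↥(beta0Ring A (beta0Field A))) :=
    beta0Ring_irreducible_q (A := A) hq hA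
  have hd0 : rtk6psiDr M q H ≠ 0 := rtk6cxpD_ne_zero hM0
  have hq2 : ¬ q ^ 2 ∣ M := rtk6cxp_not_sq_dvd hq hqM hML
  have rigid : (q ≠ 2 → 4 ∣ M₁) ∧ (q = 2 → 9 ∣ M₁) := rtk6cxp_rigid hq hqM h4
  have hM3 : 3 ≤ M := rtk6c4ac_three_le hq hqM h4 hqM' hM0
  letI : Algebra ↥(modularFunctionFieldFullC ↥(beta0Field A) (M₁ * q))
      ↥(rtk6diF A (rtk6ebK q (rtk6cxpD M q H)) (M₁ * q) M H) :=
    (rtk6c4fdIota (rtk6c4atF A (rtk6ebK q (rtk6cxpD M q H))) (M₁ * q) M H).toAlgebra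
  have halg : ∀ z : ↥(modularFunctionFieldFullC ↥(beta0Field A) (M₁ * q)),
      algebraMap ↥(modularFunctionFieldFullC ↥(beta0Field A) (M₁ * q))
        ↥(rtk6diF A (rtk6ebK q (rtk6cxpD M q H)) (M₁ * q) M H) z =
      rtk6c4fdIota (rtk6c4atF A (rtk6ebK q (rtk6cxpD M q H))) (M₁ * q) M H z := fun _ => rfl
  have hϖd := rtk6cxp_varpi_pow (A := A) (K₁' := rtk6ebK q (rtk6cxpD M q H)) hϖq
  have hwI := rtk6w1_wIncl w₀ hw₀ hc₁ hq (mgdIota (mgcE A (rtk6ebK q (rtk6cxpD M q H)))) hqM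
  exact rtk6c4aj_plusAt hπ (mgdIota (beta0Field A)) hq hqM (rtk6ebK q (rtk6cxpD M q H)) M H
    (rtk6c4atF A (rtk6ebK q (rtk6cxpD M q H))) (rtk6c4atF_coe A _) halg hA hd0 hϖd rigid
    (rtk6dfV hϖ₁ M H (rtk6diwEquiv (K₀ := mgcE A (rtk6ebK q (rtk6cxpD M q H))) w₀ hc₁))
    (fun c z hz => rtk6df_hBV₁ hϖ₁ (mgdIota (mgcE A (rtk6ebK q (rtk6cxpD M q H)))) hq hqM M H
      _ hwI c z hz)
    (rtk6fxbG A (rtk6ebK q (rtk6cxpD M q H)) (M₁ * q) M H q) 𝔫₁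
    (rtk6c4as_hsm hπ (mgdIota (beta0Field A)) hq hqM M H
      (rtk6c4atF A (rtk6ebK q (rtk6cxpD M q H))) (rtk6c4atF_coe A _) halg hA hd0 hϖd hϖq hML
      hqM' h4 hstar htame 𝔫₁)
    (rtk6c4ac_hcr hπ (mgdIota (beta0Field A)) hq hqM M H
      (rtk6c4atF A (rtk6ebK q (rtk6cxpD M q H))) (rtk6c4atF_coe A _) halg hA hd0 hϖd rigid hϖq
      hqM' hML hM3 hstar htame _
      (rtk6fxb_hT2 (rtk6ebK q (rtk6cxpD M q H)) (rtk6c4atF A (rtk6ebK q (rtk6cxpD M q H)))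
        (rtk6c4atF_coe A _) halg hML _ hq hqM' hq2 hϖq) 𝔫₁)
    (rtk6thrx_hthr hπ (mgdIota (beta0Field A)) hq hqM (rtk6ebK q (rtk6cxpD M q H)) M H
      (rtk6c4atF A (rtk6ebK q (rtk6cxpD M q H))) (rtk6c4atF_coe A _) halg hA hd0 hϖd hϖ₁
      (mgdIota (mgcE A (rtk6ebK q (rtk6cxpD M q H)))) _ hwI hML rigid 𝔫₁)

end Thin

/-- **The hypothesis `hJ` of `rtk6cxp_geomChiG`** (chart `j`), closed. -/
theorem rtk6c4at_hJ :
    ∀ (q M₁ : ℕ) [NeZero q] [NeZero M₁] [NeZero (M₁ * q)] (M : ℕ)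
      (H : Subgroup (ZMod M)ˣ) (hq : q.Prime) (hqM' : q ∣ M) (hM0 : M ≠ 0), ¬ q ∣ M₁ →
      M ∣ M₁ * q → IsStarStable M q H → IsTameAt (M₁ * q) M q H → 4 ∣ M₁ * q →
      ∀ (w₀ : fieldBar (M₁ * q) M H ≃ₐ[Qb] fieldBar (M₁ * q) M H)
        (hw₀ : IsWAt (M₁ * q) M H q w₀) (A : ValuationSubring Qb), A.LiesOverPrime q →
      ∀ [IsDiscreteValuationRing ↥(mgcA A (rtk6ebK q (rtk6cxpD M q H)))]
        (ϖ₁ : ↥(mgcA A (rtk6ebK q (rtk6cxpD M q H)))) (hϖ₁ : Irreducible ϖ₁)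
        (_ : ϖ₁ ^ rtk6cxpD M q H = ((q : ℕ) : ↥(mgcA A (rtk6ebK q (rtk6cxpD M q H)))))
        (hc₁ : RtkCommK (mgcE A (rtk6ebK q (rtk6cxpD M q H))) w₀)
        (𝔫₁ : AtPt (F := ↥(rtk6diF A (rtk6ebK q (rtk6cxpD M q H)) (M₁ * q) M H)) ϖ₁
          (rtk6diT A (rtk6ebK q (rtk6cxpD M q H)) (M₁ * q) M H)),
        Rtk6c4aPlusAt
          (rtk6dfV hϖ₁ M H (rtk6diwEquiv (K₀ := mgcE A (rtk6ebK q (rtk6cxpD M q H))) w₀ hc₁))
          (rtk6fxbG A (rtk6ebK q (rtk6cxpD M q H)) (M₁ * q) M H q) 𝔫₁ := by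
  intro q M₁ _ _ _ M H hq hqM' hM0 hqM hML hstar htame h4 w₀ hw₀ A hA _ ϖ₁ hϖ₁ hϖq hc₁ 𝔫₁
  exact rtk6c4at_plusJ hq hqM' hM0 hqM hML hstar htame h4 w₀ hw₀ A hA ϖ₁ hϖ₁ hϖq hc₁ 𝔫₁

end Fermat.Agent.RT.K6

end
end ZBRT_097_8

/-! ### bundled: `Fermat.Agent.RT.K6.C4AsmThinInv` -/
section ZBRT_097_9
/-
K-machine, piece K6, piece C4-χ-ASM (helper94), FINAL PLUG, chart `1 / j`:
**the dichotomy with C4+ at every closed point of the chart `1 / j` at the thin level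
`K₁′ = rtk6ebK q d_q`**, = LITERALLY the hypothesis `hJinv` of `rtk6cxp_geomChiG`
(`C4ChiPlusG.lean`, helper76), and the CLOSED statement of the case (χ).

* `rtk6c4ati_hcr_of`, `rtk6c4ati_hcr` : the discharge of `hcr` on the chart `1 / j` (LITERAL twin of
  helper54's `rtk6c4ac_hcr_of`, `rtk6c4ac_hcr` of `C4AsmCr.lean`, with `rtk6gii_cross_pack`
  (`GenInstInv.lean`) and `rtk6gxi_crossE_inv` (`GenCrossInv.lean`));
* `rtk6c4at_plusJinv` : one level datum, one point (from `rtk6c4aj_plusAt_inv`,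
  `rtk6c4as_hsm_inv` (helper86), `rtk6c4ati_hcr` with `rtk6fxb_hT2_chart` (helper34),
  `rtk6thrx_hthrInv` (helper66));
* `rtk6c4at_hJinv`    : the hypothesis `hJinv` of `rtk6cxp_geomChiG`;
* **`rtk6c4at_geomChi : StmtRtk6GeomChi`** (closed, no hypothesis).
-/

set_option autoImplicit false
set_option linter.style.haveILetI false
set_option linter.unusedSectionVars false
set_option linter.unusedVariables false
set_option linter.style.longLine false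
set_option synthInstance.maxHeartbeats 400000
set_option maxHeartbeats 4000000

noncomputable section

namespace Fermat.Agent.RT.K6

open ModularCurve Polynomial IntermediateField Fermat.Agent.INJ Fermat.Agent.AL AlgebraicCurve
open Fermat.Agent.ES Fermat.Agent.ES.G2 Fermat.Agent.STB Fermat.Agent.UNIP Fermat.Agent.S36
open Fermat.Agent.RIB.MP Fermat.Agent.ES1 Fermat.Agent.ES1.G2

section CrInv

variable {A : ValuationSubring Qb} {q M₁ : ℕ} [NeZero q] [NeZero M₁] [NeZero (M₁ * q)]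
  [IsDiscreteValuationRing ↥(beta0Ring A (beta0Field A))]
  {π : ↥(beta0Ring A (beta0Field A))} (hπ : Irreducible π)
  (ιC : ↥(beta0Field A) →+* ℂ) (hq : q.Prime) (hqM : ¬ q ∣ M₁)
  (M : ℕ) [NeZero M] (H : Subgroup (ZMod M)ˣ)
  [IsDiscreteValuationRing ↥(mgcA A (rtk6ebK q (rtk6psiDr M q H)))]
  (f : ↥(beta0Field A) →+* ↥(mgcE A (rtk6ebK q (rtk6psiDr M q H))))
  (hf : ∀ a : ↥(beta0Field A),
    ((f a : ↥(mgcE A (rtk6ebK q (rtk6psiDr M q H)))) : Qb) = (a : Qb))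
  [Algebra ↥(modularFunctionFieldFullC ↥(beta0Field A) (M₁ * q))
    ↥(rtk6diF A (rtk6ebK q (rtk6psiDr M q H)) (M₁ * q) M H)]
  (halg : ∀ z : ↥(modularFunctionFieldFullC ↥(beta0Field A) (M₁ * q)),
    algebraMap ↥(modularFunctionFieldFullC ↥(beta0Field A) (M₁ * q))
      ↥(rtk6diF A (rtk6ebK q (rtk6psiDr M q H)) (M₁ * q) M H) z
        = rtk6c4fdIota f (M₁ * q) M H z)
  (hA : A.LiesOverPrime q) (hd0 : rtk6psiDr M q H ≠ 0)
  {ϖ : ↥(mgcA A (rtk6ebK q (rtk6psiDr M q H)))}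
  (hϖd : ϖ ^ rtk6psiDr M q H =
    beta0RingIncl (A := A)
      (le_sup_left : beta0Field A ≤ beta0Field A ⊔ rtk6ebK q (rtk6psiDr M q H)) π)

include hπ ιC hqM in
/-- **the discharge of `hcr`, chart `1 / j`, for given characters `ψ_r`, `ψ′_i`.** -/
theorem rtk6c4ati_hcr_of (rigid : (q ≠ 2 → 4 ∣ M₁) ∧ (q = 2 → 9 ∣ M₁))
    (hϖq : ϖ ^ rtk6psiDr M q H = ((q : ℕ) : ↥(mgcA A (rtk6ebK q (rtk6psiDr M q H)))))
    (hqN : q ∣ M) (hML : M ∣ M₁ * q) (hM3 : 3 ≤ M) (hstar : IsStarStable M q H)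
    {dS : ℕ} (hdS : Nat.Coprime dS (6 * (M₁ * q))) (hdS0 : dS ≠ 0)
    (hdr : rtk6psiDr M q H ∣ dS)
    {ψr : (ZMod M)ˣ →* (↥(beta0Field A))ˣ} (hψr : Rtk6psiIsR ↥(beta0Field A) M q H ψr)
    {k : ℕ} {ψ' : Fin k → ((ZMod M)ˣ →* (↥(beta0Field A))ˣ)}
    (hfam : Rtk6psiIsFam ↥(beta0Field A) M q dS H ψ')
    (𝒢 : Set (SemilinearAut ↥(mgcE A (rtk6ebK q (rtk6psiDr M q H)))
      ↥(rtk6diF A (rtk6ebK q (rtk6psiDr M q H)) (M₁ * q) M H)))
    (hT2 : ∀ g ∈ 𝒢, Rtk6c4aAut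
      ↥(zchClosure (A₀ := ↥(beta0Ring A (beta0Field A)))
        ({(bgJ ↥(beta0Field A) (M₁ * q))⁻¹} :
          Set ↥(modularFunctionFieldFullC ↥(beta0Field A) (M₁ * q))))
      ↥(modularFunctionFieldFullC ↥(beta0Field A) (M₁ * q)) ϖ
      ((rtk6diT A (rtk6ebK q (rtk6psiDr M q H)) (M₁ * q) M H)⁻¹)
      (Set.range fun i => rtk6c4fdY f (M₁ * q) M H (ψ' i) hML)
      (rtk6c4fdY f (M₁ * q) M H ψr hML) g)
    (𝔫 : AtPt (F := ↥(rtk6diF A (rtk6ebK q (rtk6psiDr M q H)) (M₁ * q) M H)) ϖ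
      ((rtk6diT A (rtk6ebK q (rtk6psiDr M q H)) (M₁ * q) M H)⁻¹))
    (h₁ : atThrough (rtk6gxiPtInv hq (rtk6ebK q (rtk6psiDr M q H)) M H f hf halg hA hd0 hϖd 𝔫)
      (mgvV hπ ιC hq hqM true))
    (h₂ : atThrough (rtk6gxiPtInv hq (rtk6ebK q (rtk6psiDr M q H)) M H f hf halg hA hd0 hϖd 𝔫)
      (mgvV hπ ιC hq hqM false)) :
    ∃ (d' dS : ℕ) (ζ X Y w e₁ e₂ : ↥(zchClosure (A₀ := ↥(beta0Ring A (beta0Field A)))
        ({(bgJ ↥(beta0Field A) (M₁ * q))⁻¹} :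
          Set ↥(modularFunctionFieldFullC ↥(beta0Field A) (M₁ * q)))))
      (S : Set ↥(rtk6diF A (rtk6ebK q (rtk6psiDr M q H)) (M₁ * q) M H))
      (y : ↥(rtk6diF A (rtk6ebK q (rtk6psiDr M q H)) (M₁ * q) M H))
      (γ : ↥(modularFunctionFieldFullC ↥(beta0Field A) (M₁ * q))) (n₀ a b : ℤ)
      (σ δ : ↥(rtk6diF A (rtk6ebK q (rtk6psiDr M q H)) (M₁ * q) M H)
        ≃ₐ[↥(modularFunctionFieldFullC ↥(beta0Field A) (M₁ * q))]
        ↥(rtk6diF A (rtk6ebK q (rtk6psiDr M q H)) (M₁ * q) M H)),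
      Rtk6c4CrossE (rtk6gxiJInv (rtk6ebK q (rtk6psiDr M q H)) M H f hf halg)
        (algebraMap ↥(zchClosure (A₀ := ↥(mgcA A (rtk6ebK q (rtk6psiDr M q H))))
          ({(rtk6diT A (rtk6ebK q (rtk6psiDr M q H)) (M₁ * q) M H)⁻¹} :
            Set ↥(rtk6diF A (rtk6ebK q (rtk6psiDr M q H)) (M₁ * q) M H)))
          ↥(rtk6diF A (rtk6ebK q (rtk6psiDr M q H)) (M₁ * q) M H)) 𝔫.1 d' dS ζ
        (algebraMap ↥(beta0Ring A (beta0Field A))
          ↥(zchClosure (A₀ := ↥(beta0Ring A (beta0Field A)))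
            ({(bgJ ↥(beta0Field A) (M₁ * q))⁻¹} :
              Set ↥(modularFunctionFieldFullC ↥(beta0Field A) (M₁ * q)))) π) X Y w S
        (algebraMap ↥(mgcA A (rtk6ebK q (rtk6psiDr M q H)))
          ↥(rtk6diF A (rtk6ebK q (rtk6psiDr M q H)) (M₁ * q) M H) ϖ) y γ e₁ e₂ n₀ a b σ δ ∧
      (X : ↥(modularFunctionFieldFullC ↥(beta0Field A) (M₁ * q))) ∈
        (mgvV hπ ιC hq hqM true).nonunits ∧
      (Y : ↥(modularFunctionFieldFullC ↥(beta0Field A) (M₁ * q))) ∉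
        (mgvV hπ ιC hq hqM true).nonunits ∧
      (Y : ↥(modularFunctionFieldFullC ↥(beta0Field A) (M₁ * q))) ∈
        (mgvV hπ ιC hq hqM false).nonunits ∧
      (X : ↥(modularFunctionFieldFullC ↥(beta0Field A) (M₁ * q))) ∉
        (mgvV hπ ιC hq hqM false).nonunits ∧
      ∀ g ∈ 𝒢, Rtk6c4aAut
        ↥(zchClosure (A₀ := ↥(beta0Ring A (beta0Field A)))
          ({(bgJ ↥(beta0Field A) (M₁ * q))⁻¹} :
            Set ↥(modularFunctionFieldFullC ↥(beta0Field A) (M₁ * q))))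
        ↥(modularFunctionFieldFullC ↥(beta0Field A) (M₁ * q)) ϖ
        ((rtk6diT A (rtk6ebK q (rtk6psiDr M q H)) (M₁ * q) M H)⁻¹) S y g := by
  have hL : M₁ * q ≠ 0 := NeZero.ne (M₁ * q)
  have hqL : q ∣ M₁ * q := Dvd.intro_left M₁ rfl
  have hq2 : ¬ q ^ 2 ∣ M := by
    intro h
    have h1 : q ^ 2 ∣ M₁ * q := h.trans hML
    rw [pow_two] at h1
    exact hqM (Nat.dvd_of_mul_dvd_mul_right hq.pos h1)
  have hqdS : ¬ q ∣ dS := rtk6c4ws_not_dvd hq hqL hdS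
  have hcopr : Nat.Coprime (rtk6psiDr M q H) (6 * (M₁ * q)) :=
    Nat.Coprime.coprime_dvd_left hdr hdS
  have hqd : ¬ q ∣ rtk6psiDr M q H := rtk6c4ws_not_dvd hq hqL hcopr
  have hodd : Odd (rtk6psiDr M q H) := rtk6psi_odd_of_coprime hcopr
  obtain ⟨w, hw⟩ := rtk6n0b_exists_w (H := H) hq hqM hML hqN hstar
  obtain ⟨c₀, hc₀, hord⟩ := hψr.exists_orderOf hq hqN hq2
  -- the ramified generator
  obtain ⟨n₀, hcop, hz0, hhor, hz₁, hn₀, hzy⟩ :=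
    rtk6c4ws_ram_data f halg hπ ιC hq hqM hA hML hqN hM3 hw hcopr ψr hψr.map_H
      hψr.map_neg_one hψr.pow_dr hc₀ hord
  -- the étale family
  obtain ⟨nn, hyu, hu, hhor', hy₁', hn₀', hdvd⟩ :=
    rtk6c4ws_family f halg hπ ιC hq hqM hA hML hqN hM3 hw hdS ψ' hfam.map_H
      hfam.map_neg_one hfam.pow_d hfam.map_atR
  -- WIRE
  obtain ⟨ζ, a, b, σ, δ, hζ, hab, hF1, hσN, hσY, hσϖ, hδN, hδY, hδϖ, hδy, hδy', -, -⟩ :=
    rtk6c4w_wireN hq hA hqN hq2 hodd f hf halg hL hML hM3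
      (zchClosure (A₀ := ↥(beta0Ring A (beta0Field A)))
        ({(bgJ ↥(beta0Field A) (M₁ * q))⁻¹} :
          Set ↥(modularFunctionFieldFullC ↥(beta0Field A) (M₁ * q))))
      hϖq hψr hfam hdS0 hdr hcop
  -- the pack
  obtain ⟨S, hS, hSet, hgen, hfix, hSy, hyS⟩ :=
    rtk6gii_cross_pack hπ ιC hq hqM hA rigid dS
      (fun i => rtk6n0fY f (M₁ * q) M H (ψ' i) hML)
      (fun i => rtk6c4wsU (M₁ := M₁) (H := H) (ψ' i) hML (hfam.pow_d i)) nn hyu hu hhor'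
      hy₁' hn₀' hdvd
      ({algebraMap ↥(mgcA A (rtk6ebK q (rtk6psiDr M q H)))
          ↥(rtk6diF A (rtk6ebK q (rtk6psiDr M q H)) (M₁ * q) M H) ϖ,
        rtk6n0fY f (M₁ * q) M H ψr hML} :
        Set ↥(rtk6diF A (rtk6ebK q (rtk6psiDr M q H)) (M₁ * q) M H))
      ((Set.range fun i => rtk6n0fY f (M₁ * q) M H (ψ' i) hML) ∪
        {algebraMap ↥(mgcA A (rtk6ebK q (rtk6psiDr M q H)))
            ↥(rtk6diF A (rtk6ebK q (rtk6psiDr M q H)) (M₁ * q) M H) ϖ,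
          rtk6n0fY f (M₁ * q) M H ψr hML})
      (by
        rintro z (⟨i, rfl⟩ | hz)
        · exact Or.inr ⟨i, rfl⟩
        · exact Or.inl hz)
      hF1 (rtk6gxiPtInv hq (rtk6ebK q (rtk6psiDr M q H)) M H f hf halg hA hd0 hϖd 𝔫)
  -- (G-cross)
  obtain ⟨X, Y, w', e₁, e₂, γ, hC, hX₁, hY₁, hY₂, hX₂⟩ :=
    rtk6gxi_crossE_inv hπ ιC hq hqM (rtk6ebK q (rtk6psiDr M q H)) M H f hf halg hA hd0 hϖd
      hqdS rigid hqd 𝔫 h₁ h₂ hζ hz0 hhor hz₁ hn₀ hzy hab hS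
      (fun t ht => by
        obtain ⟨a', b', ha', hb', hpow⟩ := hSet t ht
        exact ⟨a', b', ha', hb', hpow⟩)
      hgen (hfix σ (fun i => hσN (ψ' i))) hσϖ (hσN ψr)
      (hfix δ (fun i => hδN (ψ' i) (hfam.map_atR i))) hδϖ hδy
  refine ⟨rtk6psiDr M q H, dS, ζ, X, Y, w', e₁, e₂, S, rtk6n0fY f (M₁ * q) M H ψr hML, γ, n₀,
    a, b, σ, δ, hC, hX₁, hY₁, hY₂, hX₂, fun g hg => ?_⟩
  refine (hT2 g hg).rescale
    (algebraMap ↥(beta0Field A) ↥(modularFunctionFieldFullC ↥(beta0Field A) (M₁ * q))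
      (((rtk6d0N M H ⊤ : ℕ) : ↥(beta0Field A))⁻¹))
    (rtk6n0fY_eq_K halg hML) (fun t ht => ?_)
  obtain ⟨i, c, hc, rfl⟩ := hSy t ht
  refine ⟨algebraMap ↥(beta0Field A) ↥(modularFunctionFieldFullC ↥(beta0Field A) (M₁ * q))
      (((rtk6d0N M H ⊤ : ℕ) : ↥(beta0Field A))⁻¹) * c⁻¹,
    rtk6c4fdY f (M₁ * q) M H (ψ' i) hML, ⟨i, rfl⟩, ?_⟩
  rw [rtk6n0fY_eq_K halg hML, map_mul, map_inv₀ _ c, div_eq_mul_inv]
  exact mul_right_comm _ _ _

include hπ ιC hqM in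
/-- **the discharge of `hcr`, chart `1 / j`**: the crossing alternative of `rtk6c4aj_plusAt_inv` at the
thin level, from `IsStarStable`, `IsTameAt` and (T2) for the unnormalised generators of ALL
characters `ψ_r`, `ψ′_i` of PSI. -/
theorem rtk6c4ati_hcr (rigid : (q ≠ 2 → 4 ∣ M₁) ∧ (q = 2 → 9 ∣ M₁))
    (hϖq : ϖ ^ rtk6psiDr M q H = ((q : ℕ) : ↥(mgcA A (rtk6ebK q (rtk6psiDr M q H)))))
    (hqN : q ∣ M) (hML : M ∣ M₁ * q) (hM3 : 3 ≤ M) (hstar : IsStarStable M q H)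
    (htame : IsTameAt (M₁ * q) M q H)
    (𝒢 : Set (SemilinearAut ↥(mgcE A (rtk6ebK q (rtk6psiDr M q H)))
      ↥(rtk6diF A (rtk6ebK q (rtk6psiDr M q H)) (M₁ * q) M H)))
    (hT2 : ∀ (dS : ℕ) (ψr : (ZMod M)ˣ →* (↥(beta0Field A))ˣ) (k : ℕ)
      (ψ' : Fin k → ((ZMod M)ˣ →* (↥(beta0Field A))ˣ)),
      Rtk6psiIsR ↥(beta0Field A) M q H ψr → Rtk6psiIsFam ↥(beta0Field A) M q dS H ψ' →
      ∀ g ∈ 𝒢, Rtk6c4aAut
        ↥(zchClosure (A₀ := ↥(beta0Ring A (beta0Field A)))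
          ({(bgJ ↥(beta0Field A) (M₁ * q))⁻¹} :
            Set ↥(modularFunctionFieldFullC ↥(beta0Field A) (M₁ * q))))
        ↥(modularFunctionFieldFullC ↥(beta0Field A) (M₁ * q)) ϖ
        ((rtk6diT A (rtk6ebK q (rtk6psiDr M q H)) (M₁ * q) M H)⁻¹)
        (Set.range fun i => rtk6c4fdY f (M₁ * q) M H (ψ' i) hML)
        (rtk6c4fdY f (M₁ * q) M H ψr hML) g)
    (𝔫 : AtPt (F := ↥(rtk6diF A (rtk6ebK q (rtk6psiDr M q H)) (M₁ * q) M H)) ϖ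
      ((rtk6diT A (rtk6ebK q (rtk6psiDr M q H)) (M₁ * q) M H)⁻¹))
    (h₁ : atThrough (rtk6gxiPtInv hq (rtk6ebK q (rtk6psiDr M q H)) M H f hf halg hA hd0 hϖd 𝔫)
      (mgvV hπ ιC hq hqM true))
    (h₂ : atThrough (rtk6gxiPtInv hq (rtk6ebK q (rtk6psiDr M q H)) M H f hf halg hA hd0 hϖd 𝔫)
      (mgvV hπ ιC hq hqM false)) :
    ∃ (d' dS : ℕ) (ζ X Y w e₁ e₂ : ↥(zchClosure (A₀ := ↥(beta0Ring A (beta0Field A)))
        ({(bgJ ↥(beta0Field A) (M₁ * q))⁻¹} :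
          Set ↥(modularFunctionFieldFullC ↥(beta0Field A) (M₁ * q)))))
      (S : Set ↥(rtk6diF A (rtk6ebK q (rtk6psiDr M q H)) (M₁ * q) M H))
      (y : ↥(rtk6diF A (rtk6ebK q (rtk6psiDr M q H)) (M₁ * q) M H))
      (γ : ↥(modularFunctionFieldFullC ↥(beta0Field A) (M₁ * q))) (n₀ a b : ℤ)
      (σ δ : ↥(rtk6diF A (rtk6ebK q (rtk6psiDr M q H)) (M₁ * q) M H)
        ≃ₐ[↥(modularFunctionFieldFullC ↥(beta0Field A) (M₁ * q))]
        ↥(rtk6diF A (rtk6ebK q (rtk6psiDr M q H)) (M₁ * q) M H)),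
      Rtk6c4CrossE (rtk6gxiJInv (rtk6ebK q (rtk6psiDr M q H)) M H f hf halg)
        (algebraMap ↥(zchClosure (A₀ := ↥(mgcA A (rtk6ebK q (rtk6psiDr M q H))))
          ({(rtk6diT A (rtk6ebK q (rtk6psiDr M q H)) (M₁ * q) M H)⁻¹} :
            Set ↥(rtk6diF A (rtk6ebK q (rtk6psiDr M q H)) (M₁ * q) M H)))
          ↥(rtk6diF A (rtk6ebK q (rtk6psiDr M q H)) (M₁ * q) M H)) 𝔫.1 d' dS ζ
        (algebraMap ↥(beta0Ring A (beta0Field A))
          ↥(zchClosure (A₀ := ↥(beta0Ring A (beta0Field A)))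
            ({(bgJ ↥(beta0Field A) (M₁ * q))⁻¹} :
              Set ↥(modularFunctionFieldFullC ↥(beta0Field A) (M₁ * q)))) π) X Y w S
        (algebraMap ↥(mgcA A (rtk6ebK q (rtk6psiDr M q H)))
          ↥(rtk6diF A (rtk6ebK q (rtk6psiDr M q H)) (M₁ * q) M H) ϖ) y γ e₁ e₂ n₀ a b σ δ ∧
      (X : ↥(modularFunctionFieldFullC ↥(beta0Field A) (M₁ * q))) ∈
        (mgvV hπ ιC hq hqM true).nonunits ∧
      (Y : ↥(modularFunctionFieldFullC ↥(beta0Field A) (M₁ * q))) ∉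
        (mgvV hπ ιC hq hqM true).nonunits ∧
      (Y : ↥(modularFunctionFieldFullC ↥(beta0Field A) (M₁ * q))) ∈
        (mgvV hπ ιC hq hqM false).nonunits ∧
      (X : ↥(modularFunctionFieldFullC ↥(beta0Field A) (M₁ * q))) ∉
        (mgvV hπ ιC hq hqM false).nonunits ∧
      ∀ g ∈ 𝒢, Rtk6c4aAut
        ↥(zchClosure (A₀ := ↥(beta0Ring A (beta0Field A)))
          ({(bgJ ↥(beta0Field A) (M₁ * q))⁻¹} :
            Set ↥(modularFunctionFieldFullC ↥(beta0Field A) (M₁ * q))))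
        ↥(modularFunctionFieldFullC ↥(beta0Field A) (M₁ * q)) ϖ
        ((rtk6diT A (rtk6ebK q (rtk6psiDr M q H)) (M₁ * q) M H)⁻¹) S y g := by
  have hq2 : ¬ q ^ 2 ∣ M := by
    intro h
    have h1 : q ^ 2 ∣ M₁ * q := h.trans hML
    rw [pow_two] at h1
    exact hqM (Nat.dvd_of_mul_dvd_mul_right hq.pos h1)
  obtain ⟨dS, hdS, hdS0, hdr, ψr, k, ψ', hψr, hfam⟩ :=
    rtk6c4ac_psi (A := A) hq hA (Dvd.intro_left M₁ rfl) hqN hq2 hstar htame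
  exact rtk6c4ati_hcr_of hπ ιC hq hqM M H f hf halg hA hd0 hϖd rigid hϖq hqN hML hM3 hstar
    hdS hdS0 hdr hψr hfam 𝒢 (hT2 dS ψr k ψ' hψr hfam) 𝔫 h₁ h₂

end CrInv

section ThinInv

variable {q M₁ : ℕ} [NeZero q] [NeZero M₁] [NeZero (M₁ * q)] {M : ℕ} {H : Subgroup (ZMod M)ˣ}

/-- **C4-χ-ASM at the thin level, chart `1 / j`** (one level datum, one point). -/
theorem rtk6c4at_plusJinv (hq : q.Prime) (hqM' : q ∣ M) (hM0 : M ≠ 0) (hqM : ¬ q ∣ M₁)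
    (hML : M ∣ M₁ * q) (hstar : IsStarStable M q H) (htame : IsTameAt (M₁ * q) M q H)
    (h4 : 4 ∣ M₁ * q) (w₀ : fieldBar (M₁ * q) M H ≃ₐ[Qb] fieldBar (M₁ * q) M H)
    (hw₀ : IsWAt (M₁ * q) M H q w₀) (A : ValuationSubring Qb) (hA : A.LiesOverPrime q)
    [IsDiscreteValuationRing ↥(mgcA A (rtk6ebK q (rtk6cxpD M q H)))]
    (ϖ₁ : ↥(mgcA A (rtk6ebK q (rtk6cxpD M q H)))) (hϖ₁ : Irreducible ϖ₁)
    (hϖq : ϖ₁ ^ rtk6cxpD M q H = ((q : ℕ) : ↥(mgcA A (rtk6ebK q (rtk6cxpD M q H)))))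
    (hc₁ : RtkCommK (mgcE A (rtk6ebK q (rtk6cxpD M q H))) w₀)
    (𝔫₁ : AtPt (F := ↥(rtk6diF A (rtk6ebK q (rtk6cxpD M q H)) (M₁ * q) M H)) ϖ₁
      (rtk6diT A (rtk6ebK q (rtk6cxpD M q H)) (M₁ * q) M H)⁻¹) :
    Rtk6c4aPlusAt
      (rtk6dfV hϖ₁ M H (rtk6diwEquiv (K₀ := mgcE A (rtk6ebK q (rtk6cxpD M q H))) w₀ hc₁))
      (rtk6fxbG A (rtk6ebK q (rtk6cxpD M q H)) (M₁ * q) M H q) 𝔫₁ := by
  haveI : NeZero M := ⟨hM0⟩
  haveI : IsDiscreteValuationRing ↥(beta0Ring A (beta0Field A)) := beta0Ring_isDVR_base hq hA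
  have hπ : Irreducible ((q : ℕ) : ↥(beta0Ring A (beta0Field A))) :=
    beta0Ring_irreducible_q (A := A) hq hA
  have hd0 : rtk6psiDr M q H ≠ 0 := rtk6cxpD_ne_zero hM0
  have hq2 : ¬ q ^ 2 ∣ M := rtk6cxp_not_sq_dvd hq hqM hML
  have rigid : (q ≠ 2 → 4 ∣ M₁) ∧ (q = 2 → 9 ∣ M₁) := rtk6cxp_rigid hq hqM h4
  have hM3 : 3 ≤ M := rtk6c4ac_three_le hq hqM h4 hqM' hM0
  letI : Algebra ↥(modularFunctionFieldFullC ↥(beta0Field A) (M₁ * q))
      ↥(rtk6diF A (rtk6ebK q (rtk6cxpD M q H)) (M₁ * q) M H) :=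
    (rtk6c4fdIota (rtk6c4atF A (rtk6ebK q (rtk6cxpD M q H))) (M₁ * q) M H).toAlgebra
  have halg : ∀ z : ↥(modularFunctionFieldFullC ↥(beta0Field A) (M₁ * q)),
      algebraMap ↥(modularFunctionFieldFullC ↥(beta0Field A) (M₁ * q))
        ↥(rtk6diF A (rtk6ebK q (rtk6cxpD M q H)) (M₁ * q) M H) z =
      rtk6c4fdIota (rtk6c4atF A (rtk6ebK q (rtk6cxpD M q H))) (M₁ * q) M H z := fun _ => rfl
  have hϖd := rtk6cxp_varpi_pow (A := A) (K₁' := rtk6ebK q (rtk6cxpD M q H)) hϖq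
  have hwI := rtk6w1_wIncl w₀ hw₀ hc₁ hq (mgdIota (mgcE A (rtk6ebK q (rtk6cxpD M q H)))) hqM
  exact rtk6c4aj_plusAt_inv hπ (mgdIota (beta0Field A)) hq hqM (rtk6ebK q (rtk6cxpD M q H)) M H
    (rtk6c4atF A (rtk6ebK q (rtk6cxpD M q H))) (rtk6c4atF_coe A _) halg hA hd0 hϖd rigid
    (rtk6dfV hϖ₁ M H (rtk6diwEquiv (K₀ := mgcE A (rtk6ebK q (rtk6cxpD M q H))) w₀ hc₁))
    (fun c z hz => rtk6df_hBV₂ hϖ₁ (mgdIota (mgcE A (rtk6ebK q (rtk6cxpD M q H)))) hq hqM M H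
      _ hwI c z hz)
    (rtk6fxbG A (rtk6ebK q (rtk6cxpD M q H)) (M₁ * q) M H q) 𝔫₁
    (rtk6c4as_hsm_inv hπ (mgdIota (beta0Field A)) hq hqM M H
      (rtk6c4atF A (rtk6ebK q (rtk6cxpD M q H))) (rtk6c4atF_coe A _) halg hA hd0 hϖd hϖq hML
      hqM' h4 hstar htame 𝔫₁)
    (rtk6c4ati_hcr hπ (mgdIota (beta0Field A)) hq hqM M H
      (rtk6c4atF A (rtk6ebK q (rtk6cxpD M q H))) (rtk6c4atF_coe A _) halg hA hd0 hϖd rigid hϖq
      hqM' hML hM3 hstar htame _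
      (rtk6fxb_hT2_chart (rtk6ebK q (rtk6cxpD M q H)) (rtk6c4atF A (rtk6ebK q (rtk6cxpD M q H)))
        (rtk6c4atF_coe A _) halg hML _ hq hqM' hq2 hϖq (Or.inr rfl)) 𝔫₁)
    (rtk6thrx_hthrInv hπ (mgdIota (beta0Field A)) hq hqM (rtk6ebK q (rtk6cxpD M q H)) M H
      (rtk6c4atF A (rtk6ebK q (rtk6cxpD M q H))) (rtk6c4atF_coe A _) halg hA hd0 hϖd hϖ₁
      (mgdIota (mgcE A (rtk6ebK q (rtk6cxpD M q H)))) _ hwI hML rigid 𝔫₁)

end ThinInv

/-- **The hypothesis `hJinv` of `rtk6cxp_geomChiG`** (chart `1 / j`), closed. -/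
theorem rtk6c4at_hJinv :
    ∀ (q M₁ : ℕ) [NeZero q] [NeZero M₁] [NeZero (M₁ * q)] (M : ℕ)
      (H : Subgroup (ZMod M)ˣ) (hq : q.Prime) (hqM' : q ∣ M) (hM0 : M ≠ 0), ¬ q ∣ M₁ →
      M ∣ M₁ * q → IsStarStable M q H → IsTameAt (M₁ * q) M q H → 4 ∣ M₁ * q →
      ∀ (w₀ : fieldBar (M₁ * q) M H ≃ₐ[Qb] fieldBar (M₁ * q) M H)
        (hw₀ : IsWAt (M₁ * q) M H q w₀) (A : ValuationSubring Qb), A.LiesOverPrime q →
      ∀ [IsDiscreteValuationRing ↥(mgcA A (rtk6ebK q (rtk6cxpD M q H)))]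
        (ϖ₁ : ↥(mgcA A (rtk6ebK q (rtk6cxpD M q H)))) (hϖ₁ : Irreducible ϖ₁)
        (_ : ϖ₁ ^ rtk6cxpD M q H = ((q : ℕ) : ↥(mgcA A (rtk6ebK q (rtk6cxpD M q H)))))
        (hc₁ : RtkCommK (mgcE A (rtk6ebK q (rtk6cxpD M q H))) w₀)
        (𝔫₁ : AtPt (F := ↥(rtk6diF A (rtk6ebK q (rtk6cxpD M q H)) (M₁ * q) M H)) ϖ₁
          (rtk6diT A (rtk6ebK q (rtk6cxpD M q H)) (M₁ * q) M H)⁻¹),
        Rtk6c4aPlusAt
          (rtk6dfV hϖ₁ M H (rtk6diwEquiv (K₀ := mgcE A (rtk6ebK q (rtk6cxpD M q H))) w₀ hc₁))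
          (rtk6fxbG A (rtk6ebK q (rtk6cxpD M q H)) (M₁ * q) M H q) 𝔫₁ := by
  intro q M₁ _ _ _ M H hq hqM' hM0 hqM hML hstar htame h4 w₀ hw₀ A hA _ ϖ₁ hϖ₁ hϖq hc₁ 𝔫₁
  exact rtk6c4at_plusJinv hq hqM' hM0 hqM hML hstar htame h4 w₀ hw₀ A hA ϖ₁ hϖ₁ hϖq hc₁ 𝔫₁


/-- **The case (χ), CLOSED**: `StmtRtk6GeomChi`. -/
theorem rtk6c4at_geomChi : StmtRtk6GeomChi :=
  rtk6cxp_geomChiG rtk6c4at_hJ rtk6c4at_hJinv

end Fermat.Agent.RT.K6

end
end ZBRT_097_9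

/-! ### bundled: `Fermat.Agent.RT.K6.ChiJDiv5` -/
section ZBRT_097_10
/-
K-machine, piece K6, **CLOSED**: `StmtChiJDiv5` (helper94's one-line wiring of the two cases).

* case (χ): `rtk6c4at_geomChi : StmtRtk6GeomChi` (`C4AsmThinInv.lean`);
* case (U): `rtk6uf_geomUnip : StmtRtk6GeomUnip` (`UnipFinal.lean`, helper81);
* master:   `rtk6_master : StmtRtk6GeomChi → StmtRtk6GeomUnip → StmtChiJDiv5` (`Master.lean`,
  helper66).

**`rtk6c4at_stmtChiJDiv5 : StmtChiJDiv5`** (no hypothesis).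
-/

set_option autoImplicit false

namespace Fermat.Agent.RT.K6

/-- **K6, closed**: `StmtChiJDiv5`. -/
theorem rtk6c4at_stmtChiJDiv5 : StmtChiJDiv5 :=
  rtk6_master rtk6c4at_geomChi rtk6uf_geomUnip

end Fermat.Agent.RT.K6


end ZBRT_097_10
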