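/- GENERATED FILE (helper35, build-time optimisation, NOTES/ZB.md): verbatim concatenation of the modules
   Fermat.Agent.S42.Burnside
   Fermat.Agent.EC.Bn2
   Fermat.Agent.S58.GlueCmp
   Do not edit; do not import together with these modules. -/
import Mathlib
import Fermat.Prelude.Def_GaloisRep_Residual
import Fermat.Prelude.Def_GaloisRep_Adic
import Fermat.Agent.ZB.EC_011
import Fermat.Agent.ZB.EC_008
import Fermat.Agent.ZB.RED_002

/-! ### bundled: `Fermat.Agent.S42.Burnside` -/
section ZBS42_001_0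

/-!
# Burnside's theorem in arbitrary finite dimension

`Fermat.Agent.S42.burnside_subalgebra_eq_top`: over an algebraically closed field, a subalgebra of
`End_K W` (`W` finite-dimensional, nonzero) with no proper nonzero stable subspace is everything.
Proof: Schur's lemma and the Jacobson density theorem (both in Mathlib).
-/

set_option autoImplicit false

namespace Fermat.Agent.S42

open Module

variable {K W : Type*} [Field K] [AddCommGroup W] [Module K W]

theorem burnside_isSimpleModule (B : Subalgebra K (Module.End K W)) [Nontrivial W]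
    (irr : ∀ U : Submodule K W, (∀ b ∈ B, ∀ x ∈ U, b x ∈ U) → U = ⊥ ∨ U = ⊤) :
    IsSimpleModule B W := by
  rw [isSimpleModule_iff]
  refine { exists_pair_ne := ⟨⊥, ⊤, bot_ne_top⟩, eq_bot_or_eq_top := ?_ }
  intro U
  rcases irr (U.restrictScalars K) (fun b hb x hx => U.smul_mem ⟨b, hb⟩ hx) with h | h
  · left
    rw [eq_bot_iff]
    intro x hx
    have : x ∈ U.restrictScalars K := hx
    rw [h] at this
    exact this
  · right
    rw [eq_top_iff]
    intro x _
    have : x ∈ U.restrictScalars K := by rw [h]; trivial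
    exact this

theorem burnside_subalgebra_eq_top [IsAlgClosed K] [FiniteDimensional K W] [Nontrivial W]
    (B : Subalgebra K (Module.End K W))
    (irr : ∀ U : Submodule K W, (∀ b ∈ B, ∀ x ∈ U, b x ∈ U) → U = ⊥ ∨ U = ⊤) :
    B = ⊤ := by
  have hs : IsSimpleModule B W := burnside_isSimpleModule B irr
  have schur := IsSimpleModule.algebraMap_end_bijective_of_isAlgClosed (A := B) (V := W) K
  have hfin : Module.Finite (Module.End B W) W := by
    obtain ⟨s, hs⟩ := (Module.finite_def (R := K) (M := W)).mp inferInstance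
    refine ⟨s, ?_⟩
    rw [eq_top_iff]
    rintro x -
    have hx : x ∈ Submodule.span K (s : Set W) := by rw [hs]; trivial
    clear hs
    induction hx using Submodule.span_induction with
    | mem y hy => exact Submodule.subset_span hy
    | zero => exact Submodule.zero_mem _
    | add y z _ _ hy hz => exact Submodule.add_mem _ hy hz
    | smul c y _ hy =>
      have : c • y = (algebraMap K (Module.End B W) c) • y := by
        simp
      rw [this]
      exact Submodule.smul_mem _ _ hy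
  have dens := Module.Finite.toModuleEnd_moduleEnd_surjective (R := B) (M := W)
  rw [eq_top_iff]
  intro f _
  let f' : Module.End (Module.End B W) W :=
    { toFun := f
      map_add' := f.map_add
      map_smul' := fun φ w => by
        obtain ⟨c, hc⟩ := schur.2 φ
        rw [← hc]
        simp }
  obtain ⟨b, hb⟩ := dens f'
  have hbf : (b : Module.End K W) = f := by
    ext w
    have := congrArg (fun g : Module.End (Module.End B W) W => g w) hb
    exact this
  exact hbf ▸ b.2

end Fermat.Agent.S42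


end ZBS42_001_0

/-! ### bundled: `Fermat.Agent.EC.Bn2` -/
section ZBS42_001_1

/-!
# EC package, brick BN2 (helper46): absolute irreducibility is determined by the traces

Pure algebra (`bn2_irr_of_trace`): `ρ₁ : G →* End_{K₁} V₁` irreducible over an algebraically closed
field `K₁`, `ρ₂ : G →* End_{K₂} V₂` over any field `K₂`, `dim V₁ = dim V₂`, `φ : K₁ →+* K₂` with
`tr ρ₂(g) = φ (tr ρ₁(g))` for all `g`.  Then `ρ₂(G)` spans `End_{K₂} V₂`; in particular `ρ₂` is
irreducible.  (Burnside: `ρ₁(G)` contains a basis `ρ₁(gᵢ)` of `End V₁`; its Gram matrix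
`tr ρ₁(gᵢ gⱼ)` for the trace form is nonsingular; so is its image under `φ`, which is the Gram
matrix of the `ρ₂(gᵢ)`; hence these are linearly independent.)

Consequences for the prelude's `ResidualGaloisRep` / `GaloisRepAdic`:
* `bn2_isAbsolutelyIrreducible_of_trace_eq`, `bn2_isAbsolutelyIrreducible_of_charpoly_eq`
  (two `ResidualGaloisRep`s compared along `φ : k₁ →+* k₂`), `bn2_isOdd_of_charpoly_eq`;
* `bn2_residual_isAbsolutelyIrreducible_of_charpoly_eq`, `bn2_residual_isOdd_of_charpoly_eq`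
  (two `GaloisRepAdic`s compared along a local homomorphism), and the mixed forms
  `bn2_residual_isAbsolutelyIrreducible_of_residual_charpoly`, `bn2_residual_isOdd_of_residual_charpoly`;
* `bn2_residual_trace`, `bn2_residual_charpoly`, `bn2_residual_det`.
-/

set_option autoImplicit false

open Module

namespace Fermat.Agent.EC

section General

variable {G : Type*} [Monoid G]

/-- no proper nonzero stable subspace -/
def Bn2Irr {K V : Type*} [Field K] [AddCommGroup V] [Module K V] (ρ : G →* Module.End K V) :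
    Prop :=
  ∀ W : Submodule K V, (∀ g : G, ∀ x ∈ W, ρ g x ∈ W) → W = ⊥ ∨ W = ⊤

/-- Burnside: an irreducible representation over an algebraically closed field spans `End V`. -/
theorem bn2_span_eq_top {K V : Type*} [Field K] [IsAlgClosed K] [AddCommGroup V] [Module K V]
    [FiniteDimensional K V] [Nontrivial V] (ρ : G →* Module.End K V) (h : Bn2Irr ρ) :
    Submodule.span K (Set.range ρ) = ⊤ := by
  have hB := Fermat.Agent.S42.burnside_subalgebra_eq_top (Algebra.adjoin K (Set.range ρ))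
    (fun U hU => h U (fun g x hx => hU (ρ g) (Algebra.subset_adjoin ⟨g, rfl⟩) x hx))
  have h1 := Algebra.adjoin_eq_span K (Set.range ρ)
  have hcl : (Submonoid.closure (Set.range ρ) : Set (Module.End K V)) = Set.range ρ := by
    rw [← MonoidHom.coe_mrange, Submonoid.closure_eq]
  rw [hB, hcl] at h1
  rw [← h1]
  exact Algebra.top_toSubmodule

/-- a representation spanning `End V` is irreducible -/
theorem bn2_irr_of_span {K V : Type*} [Field K] [AddCommGroup V] [Module K V]
    (ρ : G →* Module.End K V) (h : Submodule.span K (Set.range ρ) = ⊤) : Bn2Irr ρ := by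
  intro W hW
  have hall : ∀ f : Module.End K V, ∀ x ∈ W, f x ∈ W := by
    intro f
    have hf : f ∈ Submodule.span K (Set.range ρ) := by rw [h]; trivial
    induction hf using Submodule.span_induction with
    | mem y hy =>
      obtain ⟨g, rfl⟩ := hy
      exact hW g
    | zero => intro x _; simp
    | add y z _ _ hy hz =>
      intro x hx
      rw [LinearMap.add_apply]
      exact W.add_mem (hy x hx) (hz x hx)
    | smul c y _ hy =>
      intro x hx
      rw [LinearMap.smul_apply]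
      exact W.smul_mem c (hy x hx)
  by_cases hbot : W = ⊥
  · exact Or.inl hbot
  right
  obtain ⟨w, hwW, hw0⟩ := (Submodule.ne_bot_iff W).mp hbot
  obtain ⟨φ, hφ⟩ : ∃ φ : Module.Dual K V, φ w ≠ 0 := by
    by_contra hcon
    push Not at hcon
    exact hw0 ((Module.forall_dual_apply_eq_zero_iff K w).mp hcon)
  rw [eq_top_iff]
  intro v _
  have := hall (φ.smulRight ((φ w)⁻¹ • v)) w hwW
  rw [LinearMap.smulRight_apply, smul_smul, mul_inv_cancel₀ hφ, one_smul] at this
  exact this

/-- nondegeneracy of the trace form on `End V` -/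
theorem bn2_eq_zero_of_trace {K V : Type*} [Field K] [AddCommGroup V] [Module K V]
    [FiniteDimensional K V] (A : Module.End K V)
    (h : ∀ B : Module.End K V, LinearMap.trace K V (A * B) = 0) : A = 0 := by
  classical
  let b := Module.finBasis K V
  have h1 : LinearMap.toMatrix b b A = 0 := by
    rw [Matrix.ext_iff_trace_mul_right]
    intro X
    have := h (Matrix.toLin b b X)
    rw [LinearMap.trace_eq_matrix_trace K b, LinearMap.toMatrix_mul,
      LinearMap.toMatrix_toLin] at this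
    rw [this, zero_mul, Matrix.trace_zero]
  have h2 := congrArg (Matrix.toLin b b) h1
  rw [Matrix.toLin_toMatrix, map_zero] at h2
  exact h2

/-- **BN2, general form**: traces determine absolute irreducibility. -/
theorem bn2_span_of_trace {K₁ K₂ V₁ V₂ : Type*} [Field K₁] [Field K₂] [IsAlgClosed K₁]
    [AddCommGroup V₁] [Module K₁ V₁] [FiniteDimensional K₁ V₁] [Nontrivial V₁]
    [AddCommGroup V₂] [Module K₂ V₂] [FiniteDimensional K₂ V₂]
    (φ : K₁ →+* K₂) (hdim : finrank K₁ V₁ = finrank K₂ V₂)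
    (ρ₁ : G →* Module.End K₁ V₁) (ρ₂ : G →* Module.End K₂ V₂)
    (htr : ∀ g, LinearMap.trace K₂ V₂ (ρ₂ g) = φ (LinearMap.trace K₁ V₁ (ρ₁ g)))
    (h : Bn2Irr ρ₁) : Submodule.span K₂ (Set.range ρ₂) = ⊤ := by
  classical
  have hspan := bn2_span_eq_top ρ₁ h
  obtain ⟨b, hb_sub, hb_span, hb_li⟩ := exists_linearIndependent K₁ (Set.range ρ₁)
  rw [hspan] at hb_span
  have hfin : Finite b := hb_li.finite
  have : Fintype b := Fintype.ofFinite b
  let B₁ : Basis b K₁ (Module.End K₁ V₁) :=
    Basis.mk hb_li (by rw [Subtype.range_coe, hb_span])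
  have hcard : Fintype.card b = finrank K₁ (Module.End K₁ V₁) :=
    (Module.finrank_eq_card_basis B₁).symm
  choose g hg using fun i : b => hb_sub i.2
  -- the Gram matrix
  let M₁ : Matrix b b K₁ := Matrix.of fun i j => LinearMap.trace K₁ V₁ (ρ₁ (g i * g j))
  have hdet : M₁.det ≠ 0 := by
    intro h0
    obtain ⟨v, hv0, hv⟩ := Matrix.exists_vecMul_eq_zero_iff.mpr h0
    apply hv0
    have hA : (∑ i, v i • (i : Module.End K₁ V₁)) = 0 := by
      apply bn2_eq_zero_of_trace
      intro B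
      have hB : B ∈ Submodule.span K₁ b := by rw [hb_span]; trivial
      induction hB using Submodule.span_induction with
      | mem y hy =>
        have := congrFun hv ⟨y, hy⟩
        simp only [Matrix.vecMul, dotProduct, M₁, Matrix.of_apply, Pi.zero_apply] at this
        rw [Finset.sum_mul, map_sum]
        rw [← this]
        refine Finset.sum_congr rfl fun i _ => ?_
        rw [smul_mul_assoc, map_smul, smul_eq_mul, map_mul ρ₁, hg i, hg ⟨y, hy⟩]
      | zero => simp
      | add y z _ _ hy hz => rw [mul_add, map_add, hy, hz, add_zero]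
      | smul c y _ hy => rw [mul_smul_comm, map_smul, hy, smul_zero]
    funext i
    exact (Fintype.linearIndependent_iff.mp hb_li) v hA i
  have hdet2 : (M₁.map φ).det ≠ 0 := by
    have := RingHom.map_det φ M₁
    rw [RingHom.mapMatrix_apply] at this
    rw [← this]
    exact (map_ne_zero φ).mpr hdet
  have hli2 : LinearIndependent K₂ (fun i : b => ρ₂ (g i)) := by
    rw [Fintype.linearIndependent_iff]
    intro c hc
    have hvm : Matrix.vecMul c (M₁.map φ) = 0 := by
      funext j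
      simp only [Matrix.vecMul, dotProduct, M₁, Matrix.map_apply, Matrix.of_apply,
        Pi.zero_apply]
      have h1 := congrArg (fun A : Module.End K₂ V₂ => LinearMap.trace K₂ V₂ (A * ρ₂ (g j))) hc
      simp only [zero_mul, map_zero] at h1
      rw [Finset.sum_mul, map_sum] at h1
      rw [← h1]
      refine Finset.sum_congr rfl fun i _ => ?_
      rw [smul_mul_assoc, map_smul, smul_eq_mul, ← map_mul, htr]
    have := Matrix.eq_zero_of_vecMul_eq_zero hdet2 hvm
    intro i
    exact congrFun this i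
  have hcard2 : Fintype.card b = finrank K₂ (Module.End K₂ V₂) := by
    rw [hcard, Module.finrank_linearMap, Module.finrank_linearMap, hdim]
  have htop := hli2.span_eq_top_of_card_eq_finrank' hcard2
  rw [eq_top_iff, ← htop]
  apply Submodule.span_mono
  rintro _ ⟨i, rfl⟩
  exact ⟨g i, rfl⟩

theorem bn2_irr_of_trace {K₁ K₂ V₁ V₂ : Type*} [Field K₁] [Field K₂] [IsAlgClosed K₁]
    [AddCommGroup V₁] [Module K₁ V₁] [FiniteDimensional K₁ V₁]
    [AddCommGroup V₂] [Module K₂ V₂] [FiniteDimensional K₂ V₂]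
    (φ : K₁ →+* K₂) (hdim : finrank K₁ V₁ = finrank K₂ V₂)
    (ρ₁ : G →* Module.End K₁ V₁) (ρ₂ : G →* Module.End K₂ V₂)
    (htr : ∀ g, LinearMap.trace K₂ V₂ (ρ₂ g) = φ (LinearMap.trace K₁ V₁ (ρ₁ g)))
    (h : Bn2Irr ρ₁) : Bn2Irr ρ₂ := by
  by_cases h0 : finrank K₂ V₂ = 0
  · have : Subsingleton V₂ := Module.finrank_zero_iff.mp h0
    intro W _
    left
    exact Submodule.eq_bot_of_subsingleton
  · have : Nontrivial V₁ := Module.finrank_pos_iff.mp (by rw [hdim]; omega)
    exact bn2_irr_of_span ρ₂ (bn2_span_of_trace φ hdim ρ₁ ρ₂ htr h)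

end General

/-! ### trace and determinant from the characteristic polynomial -/

section Charpoly

open Polynomial

theorem bn2_monic_nextCoeff_map {R S : Type*} [CommRing R] [CommRing S] [Nontrivial S]
    (f : R →+* S) {p : R[X]} (hp : p.Monic) : (p.map f).nextCoeff = f p.nextCoeff := by
  unfold Polynomial.nextCoeff
  rw [hp.natDegree_map]
  split_ifs
  · rw [map_zero]
  · rw [coeff_map]

theorem bn2_trace_eq_neg_nextCoeff {R M : Type*} [CommRing R] [AddCommGroup M] [Module R M]
    [Module.Free R M] [Module.Finite R M] (f : M →ₗ[R] M) :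
    LinearMap.trace R M f = - f.charpoly.nextCoeff := by
  classical
  rw [LinearMap.trace_eq_matrix_trace R (Module.Free.chooseBasis R M),
    ← LinearMap.charpoly_toMatrix f (Module.Free.chooseBasis R M),
    Matrix.trace_eq_neg_charpoly_nextCoeff]

/-- equal (mapped) characteristic polynomials give equal (mapped) traces -/
theorem bn2_trace_of_charpoly {R S M N : Type*} [CommRing R] [CommRing S] [Nontrivial S]
    [AddCommGroup M] [Module R M] [Module.Free R M] [Module.Finite R M]
    [AddCommGroup N] [Module S N] [Module.Free S N] [Module.Finite S N]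
    (φ : R →+* S) (f : M →ₗ[R] M) (g : N →ₗ[S] N)
    (h : g.charpoly = f.charpoly.map φ) :
    LinearMap.trace S N g = φ (LinearMap.trace R M f) := by
  rw [bn2_trace_eq_neg_nextCoeff, bn2_trace_eq_neg_nextCoeff, h,
    bn2_monic_nextCoeff_map φ (LinearMap.charpoly_monic f), map_neg]

/-- equal (mapped) characteristic polynomials and equal ranks give equal (mapped) determinants -/
theorem bn2_det_of_charpoly {R S M N : Type*} [CommRing R] [CommRing S]
    [AddCommGroup M] [Module R M] [Module.Free R M] [Module.Finite R M]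
    [AddCommGroup N] [Module S N] [Module.Free S N] [Module.Finite S N]
    (φ : R →+* S) (f : M →ₗ[R] M) (g : N →ₗ[S] N) (hrk : finrank R M = finrank S N)
    (h : g.charpoly = f.charpoly.map φ) :
    LinearMap.det g = φ (LinearMap.det f) := by
  rw [LinearMap.det_eq_sign_charpoly_coeff, LinearMap.det_eq_sign_charpoly_coeff, h, coeff_map,
    hrk, map_mul, map_pow, map_neg, map_one]

end Charpoly

/-! ### the prelude's residual representations -/

section Residual

open Polynomial

variable {k₁ k₂ : Type} [Field k₁] [Field k₂]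

/-- **BN2** for residual representations, trace form, along a field homomorphism. -/
theorem bn2_isAbsolutelyIrreducible_of_trace_eq (φ : k₁ →+* k₂)
    (ρ₁ : ResidualGaloisRep k₁) (ρ₂ : ResidualGaloisRep k₂)
    (htr : ∀ σ, LinearMap.trace k₂ ρ₂.V (ρ₂.ρ σ) = φ (LinearMap.trace k₁ ρ₁.V (ρ₁.ρ σ)))
    (h : ρ₁.IsAbsolutelyIrreducible) : ρ₂.IsAbsolutelyIrreducible := by
  let : Algebra k₁ (AlgebraicClosure k₂) :=
    ((algebraMap k₂ (AlgebraicClosure k₂)).comp φ).toAlgebra
  let ψ : AlgebraicClosure k₁ →ₐ[k₁] AlgebraicClosure k₂ := IsAlgClosed.lift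
  have hψ : ∀ x : k₁, ψ (algebraMap k₁ (AlgebraicClosure k₁) x)
      = algebraMap k₂ (AlgebraicClosure k₂) (φ x) := fun x => ψ.commutes x
  unfold ResidualGaloisRep.IsAbsolutelyIrreducible at h ⊢
  refine bn2_irr_of_trace (ψ : AlgebraicClosure k₁ →+* AlgebraicClosure k₂) ?_
    (ρ₁.baseChange (AlgebraicClosure k₁)).ρ (ρ₂.baseChange (AlgebraicClosure k₂)).ρ ?_ h
  · rw [(ρ₁.baseChange (AlgebraicClosure k₁)).finrank_eq,
      (ρ₂.baseChange (AlgebraicClosure k₂)).finrank_eq]
  · intro σ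
    show LinearMap.trace _ _ ((ρ₂.ρ σ).baseChange (AlgebraicClosure k₂))
      = ψ (LinearMap.trace _ _ ((ρ₁.ρ σ).baseChange (AlgebraicClosure k₁)))
    rw [LinearMap.trace_baseChange, LinearMap.trace_baseChange, htr]
    exact (hψ _).symm

/-- **BN2** for residual representations, characteristic-polynomial form. -/
theorem bn2_isAbsolutelyIrreducible_of_charpoly_eq (φ : k₁ →+* k₂)
    (ρ₁ : ResidualGaloisRep k₁) (ρ₂ : ResidualGaloisRep k₂)
    (hcp : ∀ σ, LinearMap.charpoly (ρ₂.ρ σ) = (LinearMap.charpoly (ρ₁.ρ σ)).map φ)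
    (h : ρ₁.IsAbsolutelyIrreducible) : ρ₂.IsAbsolutelyIrreducible :=
  bn2_isAbsolutelyIrreducible_of_trace_eq φ ρ₁ ρ₂
    (fun σ => bn2_trace_of_charpoly φ _ _ (hcp σ)) h

/-- same field -/
theorem bn2_isAbsolutelyIrreducible_of_charpoly_eq_self {k : Type} [Field k]
    (ρ₁ ρ₂ : ResidualGaloisRep k)
    (hcp : ∀ σ, LinearMap.charpoly (ρ₂.ρ σ) = LinearMap.charpoly (ρ₁.ρ σ))
    (h : ρ₁.IsAbsolutelyIrreducible) : ρ₂.IsAbsolutelyIrreducible :=
  bn2_isAbsolutelyIrreducible_of_charpoly_eq (RingHom.id k) ρ₁ ρ₂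
    (fun σ => by rw [hcp σ, Polynomial.map_id]) h

/-- oddness is determined by the characteristic polynomials -/
theorem bn2_isOdd_of_charpoly_eq (φ : k₁ →+* k₂)
    (ρ₁ : ResidualGaloisRep k₁) (ρ₂ : ResidualGaloisRep k₂)
    (hcp : ∀ σ, LinearMap.charpoly (ρ₂.ρ σ) = (LinearMap.charpoly (ρ₁.ρ σ)).map φ)
    (h : ρ₁.IsOdd) : ρ₂.IsOdd := by
  intro c hc hc1
  rw [bn2_det_of_charpoly φ (ρ₁.ρ c) (ρ₂.ρ c) (by rw [ρ₁.finrank_eq, ρ₂.finrank_eq]) (hcp c),
    h c hc hc1, map_neg, map_one]

end Residual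

/-! ### residual representations of adic representations -/

section Adic

open Polynomial

variable {A B : Type} [CommRing A] [IsLocalRing A] [CommRing B] [IsLocalRing B]

theorem bn2_residual_trace (ρ : GaloisRepAdic A) (σ : AlgebraicClosure ℚ ≃ₐ[ℚ] AlgebraicClosure ℚ) :
    LinearMap.trace (IsLocalRing.ResidueField A) ρ.residual.V (ρ.residual.ρ σ)
      = IsLocalRing.residue A (LinearMap.trace A ρ.V (ρ.ρ σ)) := by
  show LinearMap.trace _ _ ((ρ.ρ σ).baseChange (IsLocalRing.ResidueField A)) = _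
  rw [LinearMap.trace_baseChange]
  rfl

theorem bn2_residual_charpoly (ρ : GaloisRepAdic A)
    (σ : AlgebraicClosure ℚ ≃ₐ[ℚ] AlgebraicClosure ℚ) :
    LinearMap.charpoly (ρ.residual.ρ σ)
      = (LinearMap.charpoly (ρ.ρ σ)).map (IsLocalRing.residue A) := by
  show LinearMap.charpoly ((ρ.ρ σ).baseChange (IsLocalRing.ResidueField A)) = _
  rw [LinearMap.charpoly_baseChange]
  rfl

theorem bn2_residual_det (ρ : GaloisRepAdic A) (σ : AlgebraicClosure ℚ ≃ₐ[ℚ] AlgebraicClosure ℚ) :
    LinearMap.det (ρ.residual.ρ σ) = IsLocalRing.residue A (LinearMap.det (ρ.ρ σ)) := by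
  show LinearMap.det ((ρ.ρ σ).baseChange (IsLocalRing.ResidueField A)) = _
  rw [LinearMap.det_baseChange]
  rfl

/-- **BN2**, adic form: if the characteristic polynomials of `ρ₂` are the images of those of `ρ₁`
under a local homomorphism and `ρ₁` is residually absolutely irreducible, so is `ρ₂`. -/
theorem bn2_residual_isAbsolutelyIrreducible_of_charpoly_eq (φ : A →+* B) [IsLocalHom φ]
    (ρ₁ : GaloisRepAdic A) (ρ₂ : GaloisRepAdic B)
    (hcp : ∀ σ, LinearMap.charpoly (ρ₂.ρ σ) = (LinearMap.charpoly (ρ₁.ρ σ)).map φ)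
    (h : ρ₁.residual.IsAbsolutelyIrreducible) : ρ₂.residual.IsAbsolutelyIrreducible := by
  refine bn2_isAbsolutelyIrreducible_of_trace_eq (IsLocalRing.ResidueField.map φ) ρ₁.residual
    ρ₂.residual (fun σ => ?_) h
  rw [bn2_residual_trace, bn2_residual_trace, bn2_trace_of_charpoly φ _ _ (hcp σ),
    IsLocalRing.ResidueField.map_residue]

/-- oddness, adic form -/
theorem bn2_residual_isOdd_of_charpoly_eq (φ : A →+* B) [IsLocalHom φ]
    (ρ₁ : GaloisRepAdic A) (ρ₂ : GaloisRepAdic B)
    (hcp : ∀ σ, LinearMap.charpoly (ρ₂.ρ σ) = (LinearMap.charpoly (ρ₁.ρ σ)).map φ)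
    (h : ρ₁.residual.IsOdd) : ρ₂.residual.IsOdd := by
  intro c hc hc1
  have h1 := h c hc hc1
  rw [bn2_residual_det] at h1 ⊢
  rw [bn2_det_of_charpoly φ (ρ₁.ρ c) (ρ₂.ρ c) (by rw [ρ₁.finrank_eq, ρ₂.finrank_eq]) (hcp c),
    ← IsLocalRing.ResidueField.map_residue, h1, map_neg, map_one]

/-- mixed form: a residual representation over `k` and an adic representation over `B`,
compared through `φ : k →+* ResidueField B`. -/
theorem bn2_residual_isAbsolutelyIrreducible_of_residual_charpoly {k : Type} [Field k]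
    (φ : k →+* IsLocalRing.ResidueField B) (ρ₁ : ResidualGaloisRep k) (ρ₂ : GaloisRepAdic B)
    (hcp : ∀ σ, (LinearMap.charpoly (ρ₂.ρ σ)).map (IsLocalRing.residue B)
      = (LinearMap.charpoly (ρ₁.ρ σ)).map φ)
    (h : ρ₁.IsAbsolutelyIrreducible) : ρ₂.residual.IsAbsolutelyIrreducible :=
  bn2_isAbsolutelyIrreducible_of_charpoly_eq φ ρ₁ ρ₂.residual
    (fun σ => by rw [bn2_residual_charpoly, hcp σ]) h

theorem bn2_residual_isOdd_of_residual_charpoly {k : Type} [Field k]
    (φ : k →+* IsLocalRing.ResidueField B) (ρ₁ : ResidualGaloisRep k) (ρ₂ : GaloisRepAdic B)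
    (hcp : ∀ σ, (LinearMap.charpoly (ρ₂.ρ σ)).map (IsLocalRing.residue B)
      = (LinearMap.charpoly (ρ₁.ρ σ)).map φ)
    (h : ρ₁.IsOdd) : ρ₂.residual.IsOdd :=
  bn2_isOdd_of_charpoly_eq φ ρ₁ ρ₂.residual (fun σ => by rw [bn2_residual_charpoly, hcp σ]) h

end Adic

end Fermat.Agent.EC


end ZBS42_001_1

/-! ### bundled: `Fermat.Agent.S58.GlueCmp` -/
section ZBS42_001_2

/-!
# S58 GLUE, brick CMP2 (helper66): comparison with the Tate module across two rings

* `s58g_charpoly_map_of_frobenius` : two-ring form of CMP (`EC.charpoly_eq_of_frobenius`):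
  `ρ₁` over `O₁`, `ρ₂` over `O₂`, `φ : O₁ →+* O₂` local; if `charpoly ρ₂(Frob) = φ(charpoly ρ₁(Frob))`
  outside a finite set of primes then the same holds on all of `G_ℚ`.
* `s58g_cmp_tate` : a representation over `O'' ⊇ ℤ_lam` with Frobenius polynomials
  `X² − a_ℓ(W) X + ℓ` outside a finite set has the characteristic polynomials of `T_lam(W)`.
* `s58g_trace_of_map_charpoly` : the trace of Frobenius at a good prime `ℓ ≠ lam` (`ℓ = 2` allowed)
  recovered from the quadratic relation once the constant term is known to be `ℓ`.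
* `s58g_hres`, `s58g_unipotent_of_charpoly` : residual absolute irreducibility/oddness and
  unipotence on inertia transfer along equality of characteristic polynomials.
-/

set_option autoImplicit false

namespace Fermat.Agent.S58

open Polynomial Fermat.Agent.EC

local notation "Γℚ" => (AlgebraicClosure ℚ ≃ₐ[ℚ] AlgebraicClosure ℚ)

section Mat

variable {R : Type*} [CommRing R]

/-- entrywise congruent matrices have congruent characteristic polynomials -/
theorem s58g_charpoly_map_mk_eq {n : Type*} [Fintype n] [DecidableEq n] (I : Ideal R)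
    (P Q : Matrix n n R) (h : ∀ i j, P i j - Q i j ∈ I) :
    P.charpoly.map (Ideal.Quotient.mk I) = Q.charpoly.map (Ideal.Quotient.mk I) := by
  rw [← Matrix.charpoly_map, ← Matrix.charpoly_map]
  congr 1
  ext i j
  simp only [Matrix.map_apply]
  exact (Ideal.Quotient.eq).mpr (h i j)

end Mat

section TwoRing

variable {O₁ O₂ : Type} [CommRing O₁] [IsLocalRing O₁] [CommRing O₂] [IsLocalRing O₂]

theorem s58g_map_mem_maximalIdeal_pow (φ : O₁ →+* O₂) [IsLocalHom φ] (n : ℕ) {x : O₁}
    (hx : x ∈ IsLocalRing.maximalIdeal O₁ ^ n) : φ x ∈ IsLocalRing.maximalIdeal O₂ ^ n := by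
  have h1 : Ideal.map φ (IsLocalRing.maximalIdeal O₁) ≤ IsLocalRing.maximalIdeal O₂ := by
    rw [Ideal.map_le_iff_le_comap]
    intro y hy
    rw [Ideal.mem_comap, IsLocalRing.mem_maximalIdeal, mem_nonunits_iff]
    intro hu
    exact (IsLocalRing.mem_maximalIdeal _).1 hy (isUnit_of_map_unit φ y hu)
  have h2 : φ x ∈ Ideal.map φ (IsLocalRing.maximalIdeal O₁ ^ n) := Ideal.mem_map_of_mem φ hx
  rw [Ideal.map_pow] at h2
  exact Ideal.pow_right_mono h1 n h2

/-- **CMP, two-ring form.** -/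
theorem s58g_charpoly_map_of_frobenius (φ : O₁ →+* O₂) [IsLocalHom φ]
    (hsep : ∀ x : O₂, (∀ n : ℕ, x ∈ IsLocalRing.maximalIdeal O₂ ^ n) → x = 0)
    (ρ₁ : GaloisRepAdic O₁) (ρ₂ : GaloisRepAdic O₂) (S : Finset ℕ)
    (h : ∀ ℓ : ℕ, ℓ.Prime → ℓ ∉ S →
      ∀ A : ValuationSubring (AlgebraicClosure ℚ), A.LiesOverPrime ℓ →
        ∀ τ : Γℚ, A.IsFrobeniusAt τ ℓ →
          LinearMap.charpoly (ρ₂.ρ τ) = (LinearMap.charpoly (ρ₁.ρ τ)).map φ)
    (σ : Γℚ) : LinearMap.charpoly (ρ₂.ρ σ) = (LinearMap.charpoly (ρ₁.ρ σ)).map φ := by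
  rw [← cmpMat_charpoly, ← cmpMat_charpoly, ← Matrix.charpoly_map]
  ext k
  rw [← sub_eq_zero]
  apply hsep
  intro n
  set I := IsLocalRing.maximalIdeal O₂ ^ n with hI
  obtain ⟨L₁, hL₁, h₁⟩ := ρ₁.isAdicContinuous n
  obtain ⟨L₂, hL₂, h₂⟩ := ρ₂.isAdicContinuous n
  obtain ⟨F, hFfin, hFgal, hF₁, hF₂⟩ := cmp_exists_galois_hull L₁ L₂
  obtain ⟨ℓ, A, τ, m, hℓ, hℓS, hA, hτ, hτσ⟩ := Fermat.Agent.Cheb.exists_frobenius_pow_eq F S σ
  set g : Γℚ := σ⁻¹ * τ ^ m with hg
  have hgF : ∀ x ∈ F, g x = x := by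
    intro x hx
    rw [hg, AlgEquiv.mul_apply, hτσ x hx]
    exact σ.symm_apply_apply x
  have hτm : τ ^ m = σ * g := by rw [hg, mul_inv_cancel_left]
  have hg₁ := h₁ g (fun x hx => hgF x (hF₁ hx))
  have hg₂ := h₂ g (fun x hx => hgF x (hF₂ hx))
  -- `ρ₂`
  have e₂ : (cmpMat ρ₂ σ).charpoly.map (Ideal.Quotient.mk I)
      = ((cmpMat ρ₂ τ) ^ m).charpoly.map (Ideal.Quotient.mk I) := by
    rw [← cmpMat_pow, hτm]
    refine s58g_charpoly_map_mk_eq I _ _ fun i j => ?_
    have := cmpMat_congr ρ₂ I σ g hg₂ i j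
    rw [← neg_sub]
    exact I.neg_mem this
  -- `ρ₁`
  have e₁ : ((cmpMat ρ₁ σ).map φ).charpoly.map (Ideal.Quotient.mk I)
      = (((cmpMat ρ₁ τ).map φ) ^ m).charpoly.map (Ideal.Quotient.mk I) := by
    have hpow : ((cmpMat ρ₁ τ).map φ) ^ m = (cmpMat ρ₁ (σ * g)).map φ := by
      rw [← hτm, cmpMat_pow]
      exact (map_pow φ.mapMatrix (cmpMat ρ₁ τ) m).symm
    rw [hpow]
    refine s58g_charpoly_map_mk_eq I _ _ fun i j => ?_
    have := cmpMat_congr ρ₁ (IsLocalRing.maximalIdeal O₁ ^ n) σ g hg₁ i j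
    have h3 := s58g_map_mem_maximalIdeal_pow φ n this
    rw [map_sub] at h3
    simp only [Matrix.map_apply]
    rw [← neg_sub]
    exact I.neg_mem h3
  have hτeq : ((cmpMat ρ₁ τ).map φ).charpoly = (cmpMat ρ₂ τ).charpoly := by
    rw [Matrix.charpoly_map, cmpMat_charpoly, cmpMat_charpoly]
    exact (h ℓ hℓ hℓS A hA τ hτ).symm
  have key : (cmpMat ρ₂ σ).charpoly.map (Ideal.Quotient.mk I)
      = ((cmpMat ρ₁ σ).map φ).charpoly.map (Ideal.Quotient.mk I) := by
    rw [e₁, e₂, mat2_charpoly_pow_eq hτeq m]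
  have := congrArg (fun p => p.coeff k) key
  simp only [Polynomial.coeff_map] at this
  exact (Ideal.Quotient.eq).mp this

/-- separatedness of a Noetherian local ring (Krull) -/
theorem s58g_sep_of_noetherian [IsNoetherianRing O₂] (x : O₂)
    (hx : ∀ n : ℕ, x ∈ IsLocalRing.maximalIdeal O₂ ^ n) : x = 0 := by
  have hbot := Ideal.iInf_pow_eq_bot_of_isLocalRing (IsLocalRing.maximalIdeal O₂)
    (IsLocalRing.maximalIdeal.isMaximal O₂).ne_top
  have : x ∈ ⨅ n : ℕ, IsLocalRing.maximalIdeal O₂ ^ n := by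
    rw [Ideal.mem_iInf]; exact hx
  rw [hbot] at this
  exact this

/-- unipotence on inertia is a condition on characteristic polynomials -/
theorem s58g_unipotent_of_charpoly (φ : O₁ →+* O₂) (ρ₁ : GaloisRepAdic O₁)
    (ρ₂ : GaloisRepAdic O₂)
    (hcp : ∀ σ, LinearMap.charpoly (ρ₂.ρ σ) = (LinearMap.charpoly (ρ₁.ρ σ)).map φ) {q : ℕ}
    (h : ρ₁.IsUnipotentOnInertiaAt q) : ρ₂.IsUnipotentOnInertiaAt q := by
  intro P hP σ hσ
  rw [hcp σ, h P hP σ hσ]
  simp

end TwoRing

section Tate

variable (W : WeierstrassCurve ℤ) (hΔ : W.Δ ≠ 0) (lam : ℕ) [hlam : Fact lam.Prime]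

/-- the trace of Frobenius at a good prime `ℓ ≠ lam` (`ℓ = 2` allowed), recovered from the
quadratic relation when the characteristic polynomial is `X² − t X + ℓ` -/
theorem s58g_trace_frob_of_charpoly {ℓ : ℕ} (hℓ : ℓ.Prime) (hgood : W.IsGoodPrimeFor ℓ)
    (hne : ℓ ≠ lam) (A : ValuationSubring (AlgebraicClosure ℚ)) (hA : A.LiesOverPrime ℓ)
    (τ : Γℚ) (hτ : A.IsFrobeniusAt τ ℓ) (t : ℤ_[lam])
    (h : LinearMap.charpoly ((tateRepInt W hΔ lam).ρ τ) = X ^ 2 - C t * X + C (ℓ : ℤ_[lam])) :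
    t = ((W.apOfModel ℓ : ℤ) : ℤ_[lam]) := by
  set f := (tateRepInt W hΔ lam).ρ τ with hf
  have hq := tateRepInt_frob_quadratic W hΔ lam hℓ hgood hne A hA τ hτ
  rw [← hf] at hq
  rw [← Int.cast_smul_eq_zsmul ℤ_[lam] (W.apOfModel ℓ), ← Int.cast_smul_eq_zsmul ℤ_[lam] (ℓ : ℤ),
    Int.cast_natCast] at hq
  have hch := LinearMap.aeval_self_charpoly f
  rw [h] at hch
  simp only [map_add, map_sub, map_mul, map_pow, aeval_X, aeval_C] at hch
  have hch' : f * f - t • f + (ℓ : ℤ_[lam]) • (1 : Module.End ℤ_[lam] (tateRepInt W hΔ lam).V)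
      = 0 := by
    rw [← hch, pow_two, Algebra.algebraMap_eq_smul_one, Algebra.algebraMap_eq_smul_one,
      smul_mul_assoc, one_mul]
  have hsub : (t - ((W.apOfModel ℓ : ℤ) : ℤ_[lam])) • f = 0 := by
    have := congrArg₂ (· - ·) hq hch'
    simp only [sub_zero] at this
    rw [sub_smul]
    rw [← this]
    abel
  -- `f` is invertible
  have hinv : f * (tateRepInt W hΔ lam).ρ τ⁻¹ = 1 := by
    rw [hf, ← map_mul, mul_inv_cancel, map_one]
  have h1 : (t - ((W.apOfModel ℓ : ℤ) : ℤ_[lam])) •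
      (1 : Module.End ℤ_[lam] (tateRepInt W hΔ lam).V) = 0 := by
    rw [← hinv, ← smul_mul_assoc, hsub, zero_mul]
  have h2 := congrArg (LinearMap.trace ℤ_[lam] (tateRepInt W hΔ lam).V) h1
  rw [map_smul, LinearMap.trace_one, (tateRepInt W hΔ lam).finrank_eq, map_zero, smul_eq_mul]
    at h2
  have h3 : t - ((W.apOfModel ℓ : ℤ) : ℤ_[lam]) = 0 := by
    rcases mul_eq_zero.mp h2 with h | h
    · exact h
    · exfalso
      have : ((2 : ℕ) : ℤ_[lam]) = 0 := h
      exact two_ne_zero (Nat.cast_injective this)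
  exact sub_eq_zero.mp h3

variable {O'' : Type} [CommRing O''] [IsLocalRing O'']

omit [IsLocalRing O''] in
/-- the same through an injective ring homomorphism `ℤ_lam → O''` -/
theorem s58g_trace_of_map_charpoly (φ : ℤ_[lam] →+* O'') (hφ : Function.Injective φ)
    {ℓ : ℕ} (hℓ : ℓ.Prime) (hgood : W.IsGoodPrimeFor ℓ)
    (hne : ℓ ≠ lam) (A : ValuationSubring (AlgebraicClosure ℚ)) (hA : A.LiesOverPrime ℓ)
    (τ : Γℚ) (hτ : A.IsFrobeniusAt τ ℓ) (t : O'')
    (h : (LinearMap.charpoly ((tateRepInt W hΔ lam).ρ τ)).map φ = X ^ 2 - C t * X + C (ℓ : O'')) :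
    t = ((W.apOfModel ℓ : ℤ) : O'') := by
  have hc : LinearMap.charpoly ((tateRepInt W hΔ lam).ρ τ)
      = X ^ 2 - C (cmpMat (tateRepInt W hΔ lam) τ).trace * X
        + C (cmpMat (tateRepInt W hΔ lam) τ).det := by
    rw [← cmpMat_charpoly, Matrix.charpoly_fin_two]
  rw [hc] at h
  have h0 := congrArg (fun p => p.coeff 0) h
  have h1 := congrArg (fun p => p.coeff 1) h
  simp [Polynomial.coeff_X, Polynomial.coeff_C, Polynomial.coeff_X_pow] at h0 h1
  have hdet : (cmpMat (tateRepInt W hΔ lam) τ).det = (ℓ : ℤ_[lam]) := by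
    apply hφ
    rw [h0, map_natCast]
  rw [hdet] at hc
  have := s58g_trace_frob_of_charpoly W hΔ lam hℓ hgood hne A hA τ hτ _ hc
  rw [← h1, this, map_intCast]

/-- **CMP for the Tate module**: Frobenius polynomials `X² − a_ℓ(W) X + ℓ` outside a finite set
force the characteristic polynomials of `T_lam(W)` everywhere. -/
theorem s58g_cmp_tate [IsNoetherianRing O''] (φ : ℤ_[lam] →+* O'') [IsLocalHom φ]
    (ρ : GaloisRepAdic O'') (S : Finset ℕ)
    (hS : ∀ ℓ : ℕ, ℓ.Prime → ℓ ∉ S → W.IsGoodPrimeFor ℓ ∧ ℓ ≠ lam)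
    (h : ∀ ℓ : ℕ, ℓ.Prime → ℓ ∉ S →
      ∀ A : ValuationSubring (AlgebraicClosure ℚ), A.LiesOverPrime ℓ →
        ∀ τ : Γℚ, A.IsFrobeniusAt τ ℓ →
          LinearMap.charpoly (ρ.ρ τ)
            = X ^ 2 - C ((W.apOfModel ℓ : ℤ) : O'') * X + C (ℓ : O''))
    (σ : Γℚ) :
    LinearMap.charpoly (ρ.ρ σ) = (LinearMap.charpoly ((tateRepInt W hΔ lam).ρ σ)).map φ := by
  classical
  refine s58g_charpoly_map_of_frobenius φ s58g_sep_of_noetherian (tateRepInt W hΔ lam) ρ
    (insert 2 S) ?_ σ
  intro ℓ hℓ hℓS A hA τ hτ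
  have hℓ2 : ℓ ≠ 2 := fun h2 => hℓS (by rw [h2]; exact Finset.mem_insert_self _ _)
  have hℓS' : ℓ ∉ S := fun h' => hℓS (Finset.mem_insert_of_mem h')
  obtain ⟨hgood, hne⟩ := hS ℓ hℓ hℓS'
  rw [h ℓ hℓ hℓS' A hA τ hτ, tateRepInt_charpoly_frob W hΔ lam hℓ hℓ2 hgood hne A hA τ hτ]
  simp

end Tate

section Res

variable (W : WeierstrassCurve ℤ) (hΔ : W.Δ ≠ 0) (p : ℕ) [hp : Fact p.Prime]
variable {O'' : Type} [CommRing O''] [IsLocalRing O'']

/-- **hres**: a representation with the characteristic polynomials of `T_p(W)` is residually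
absolutely irreducible and odd (`p` odd, `W[p]` irreducible). -/
theorem s58g_hres (hp2 : p ≠ 2) (hirr : W.ModRepIsIrreducible p) (φ : ℤ_[p] →+* O'')
    [IsLocalHom φ] (ρ : GaloisRepAdic O'')
    (hcp : ∀ σ, LinearMap.charpoly (ρ.ρ σ)
      = (LinearMap.charpoly ((tateRepInt W hΔ p).ρ σ)).map φ) :
    ρ.residual.IsAbsolutelyIrreducible ∧ ρ.residual.IsOdd :=
  ⟨bn2_residual_isAbsolutelyIrreducible_of_charpoly_eq φ (tateRepInt W hΔ p) ρ hcp
      (tateResInt_isAbsolutelyIrreducible W hΔ p hp2 hirr),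
    bn2_residual_isOdd_of_charpoly_eq φ (tateRepInt W hΔ p) ρ hcp
      (tateResInt_isOdd W hΔ p hirr)⟩

end Res

end Fermat.Agent.S58


end ZBS42_001_2
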