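/- GENERATED FILE (helper35, build-time optimisation, NOTES/ZB.md): verbatim concatenation of the modules
   Fermat.Agent.S42.Lucas
   Fermat.Agent.S42.AbstractGlue
   Do not edit; do not import together with these modules. -/
import Mathlib
import Fermat.Agent.ZB.Z4S42_001

/-! ### bundled: `Fermat.Agent.S42.Lucas` -/
section ZBZ4S42_002_0

/-!
# The Lucas recursion

If `X + b • X⁻¹ = a` is a scalar then so is `X ^ m + b ^ m • X⁻¹ ^ m` for every `m`.
-/

set_option autoImplicit false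

namespace Fermat.Agent.S42

theorem lucas_pair {R K : Type*} [Field K] [Ring R] [Algebra K R] (X Y : R)
    (hXY : X * Y = 1) (hYX : Y * X = 1) (a b : K) (h : X + b • Y = a • (1 : R)) (m : ℕ) :
    (∃ c : K, X ^ m + b ^ m • Y ^ m = c • (1 : R)) ∧
      ∃ c : K, X ^ (m + 1) + b ^ (m + 1) • Y ^ (m + 1) = c • (1 : R) := by
  induction m with
  | zero =>
    refine ⟨⟨2, ?_⟩, ⟨a, ?_⟩⟩
    · simp only [pow_zero, one_smul]
      rw [two_smul]
    · simpa using h
  | succ m ih =>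
    obtain ⟨⟨c₀, h₀⟩, ⟨c₁, h₁⟩⟩ := ih
    refine ⟨⟨c₁, h₁⟩, ⟨a * c₁ - b * c₀, ?_⟩⟩
    have e1 : X * Y ^ (m + 1) = Y ^ m := by
      rw [pow_succ', ← mul_assoc, hXY, one_mul]
    have e2 : Y * X ^ (m + 1) = X ^ m := by
      rw [pow_succ', ← mul_assoc, hYX, one_mul]
    have key : (X + b • Y) * (X ^ (m + 1) + b ^ (m + 1) • Y ^ (m + 1))
        = (X ^ (m + 1 + 1) + b ^ (m + 1 + 1) • Y ^ (m + 1 + 1)) + b • (X ^ m + b ^ m • Y ^ m) := by
      have e3 : X * X ^ (m + 1) = X ^ (m + 1 + 1) := (pow_succ' X (m + 1)).symm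
      have e4 : Y * Y ^ (m + 1) = Y ^ (m + 1 + 1) := (pow_succ' Y (m + 1)).symm
      simp only [add_mul, mul_add, smul_mul_assoc, mul_smul_comm, e1, e2, e3, e4, smul_smul,
        smul_add]
      rw [pow_succ b (m + 1), pow_succ' b m]
      abel
    rw [h, h₁, h₀] at key
    have : X ^ (m + 1 + 1) + b ^ (m + 1 + 1) • Y ^ (m + 1 + 1)
        = a • (1 : R) * c₁ • (1 : R) - b • c₀ • (1 : R) := by
      rw [key]; abel
    rw [this, sub_smul, smul_mul_smul_comm, mul_one, smul_smul]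

theorem lucas {R K : Type*} [Field K] [Ring R] [Algebra K R] (X Y : R)
    (hXY : X * Y = 1) (hYX : Y * X = 1) (a b : K) (h : X + b • Y = a • (1 : R)) (m : ℕ) :
    ∃ c : K, X ^ m + b ^ m • Y ^ m = c • (1 : R) :=
  (lucas_pair X Y hXY hYX a b h m).1

end Fermat.Agent.S42


end ZBZ4S42_002_0

/-! ### bundled: `Fermat.Agent.S42.AbstractGlue` -/
section ZBZ4S42_002_1

/-!
# Abstract glue

`G` acts on a finite abelian group `V` commuting with a commutative ring `H` of operators;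
`ev : H →+* K` (`K` algebraically closed) has maximal kernel and some nonzero `v₀ ∈ V` is killed by
`ker ev`.  If every `σ` acts like a power of an element `τ` satisfying a quadratic relation
`τ² − T τ + b = 0` with `ev b = ω τ`, there is a two-dimensional representation with
`trace (ρ' τ) = ev T`, `det (ρ' τ) = ω τ` for all such `τ`.
-/

set_option autoImplicit false

namespace Fermat.Agent.S42

open Module TensorProduct

section

variable {G : Type*} [Group G] {H : Type*} [CommRing H] {V : Type*} [AddCommGroup V] [Module H V]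
  [DistribMulAction G V]

/-- the action of `σ` on the `𝔫`-torsion, as a linear map over `H ⧸ 𝔫` -/
def torsionAct (hcomm : ∀ (σ : G) (t : H) (v : V), σ • t • v = t • σ • v) (𝔫 : Ideal H) :
    G →* Module.End (H ⧸ 𝔫) (Submodule.torsionBySet H V (𝔫 : Set H)) where
  toFun σ :=
    { toFun := fun x => ⟨σ • (x : V), by
        rw [Submodule.mem_torsionBySet_iff]
        intro t
        rw [← hcomm, (Submodule.mem_torsionBySet_iff _ _).mp x.2 t, smul_zero]⟩
      map_add' := fun x y => by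
        ext
        simp [smul_add]
      map_smul' := fun r x => by
        obtain ⟨a, rfl⟩ := Ideal.Quotient.mk_surjective r
        ext
        simp only [Submodule.torsionBySet.mk_smul, RingHom.id_apply, Submodule.coe_smul]
        exact hcomm σ a (x : V) }
  map_one' := by
    ext x
    simp
  map_mul' σ τ := by
    ext x
    simp [mul_smul]

@[simp] theorem coe_torsionAct_apply
    (hcomm : ∀ (σ : G) (t : H) (v : V), σ • t • v = t • σ • v) (𝔫 : Ideal H) (σ : G)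
    (x : Submodule.torsionBySet H V (𝔫 : Set H)) :
    ((torsionAct hcomm 𝔫 σ x : Submodule.torsionBySet H V (𝔫 : Set H)) : V) = σ • (x : V) := rfl

/-- the quadratic relation on the torsion -/
theorem torsionAct_quadratic
    (hcomm : ∀ (σ : G) (t : H) (v : V), σ • t • v = t • σ • v) (𝔫 : Ideal H) (τ : G) (T b : H)
    (h : ∀ v : V, τ • τ • v - T • τ • v + b • v = 0) :
    torsionAct hcomm 𝔫 τ * torsionAct hcomm 𝔫 τ
      - Ideal.Quotient.mk 𝔫 T • torsionAct hcomm 𝔫 τ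
      + Ideal.Quotient.mk 𝔫 b • (1 : Module.End (H ⧸ 𝔫) (Submodule.torsionBySet H V (𝔫 : Set H)))
      = 0 := by
  ext x
  simp only [LinearMap.add_apply, LinearMap.sub_apply, Module.End.mul_apply, LinearMap.smul_apply,
    Module.End.one_apply, Submodule.torsionBySet.mk_smul, Submodule.coe_add, Submodule.coe_sub,
    Submodule.coe_smul, coe_torsionAct_apply, LinearMap.zero_apply, Submodule.coe_zero]
  exact h x

end

end Fermat.Agent.S42

namespace Fermat.Agent.S42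

open Module TensorProduct

theorem abstract_glue {G : Type*} [Group G] {H : Type*} [CommRing H] {K : Type*} [Field K]
    [IsAlgClosed K] {V : Type*} [AddCommGroup V] [Module H V] [DistribMulAction G V] [Finite V]
    (hcomm : ∀ (σ : G) (t : H) (v : V), σ • t • v = t • σ • v)
    (ev : H →+* K) (hmax : (RingHom.ker ev).IsMaximal)
    (v₀ : V) (hv₀ : v₀ ≠ 0) (hkill : ∀ t : H, ev t = 0 → t • v₀ = 0)
    (ω : G →* Kˣ)
    (hWC : ∀ σ : G, ∃ (τ : G) (T b : H) (m : ℕ),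
      (∀ v : V, τ • τ • v - T • τ • v + b • v = 0) ∧
      ev b = ((ω τ : Kˣ) : K) ∧ (∀ v : V, σ • v = τ ^ m • v) ∧ ω σ = ω τ ^ m) :
    ∃ ρ' : G →* Matrix (Fin 2) (Fin 2) K,
      (∀ σ, (∀ v : V, σ • v = v) → ω σ = 1 → ρ' σ = 1) ∧
      ∀ (τ : G) (T b : H), (∀ v : V, τ • τ • v - T • τ • v + b • v = 0) →
        ev b = ((ω τ : Kˣ) : K) →
        (ρ' τ).trace = ev T ∧ (ρ' τ).det = ((ω τ : Kˣ) : K) := by
  classical
  set 𝔫 : Ideal H := RingHom.ker ev with h𝔫
  let _ : Field (H ⧸ 𝔫) := Ideal.Quotient.field 𝔫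
  let _ : Algebra (H ⧸ 𝔫) K := (RingHom.kerLift ev).toAlgebra
  have halg : ∀ a : H, algebraMap (H ⧸ 𝔫) K (Ideal.Quotient.mk 𝔫 a) = ev a := fun a =>
    RingHom.kerLift_mk ev a
  set W := Submodule.torsionBySet H V (𝔫 : Set H) with hW
  -- W is nontrivial
  have hv₀W : v₀ ∈ W := by
    rw [Submodule.mem_torsionBySet_iff]
    intro t
    exact hkill t (RingHom.mem_ker.mp t.2)
  have hWnt : Nontrivial W := ⟨⟨⟨v₀, hv₀W⟩, 0, fun h => hv₀ (congrArg Subtype.val h)⟩⟩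
  have hWfin : Module.Finite (H ⧸ 𝔫) W := Module.Finite.of_finite
  -- V₀ = K ⊗ W
  have hV₀nt : Nontrivial (K ⊗[H ⧸ 𝔫] W) := by
    apply Module.nontrivial_of_finrank_pos (R := K)
    rw [Module.finrank_baseChange]
    exact Module.finrank_pos
  have hV₀fin : FiniteDimensional K (K ⊗[H ⧸ 𝔫] W) := Module.Finite.base_change _ _ _
  let Φ : Module.End (H ⧸ 𝔫) W →ₐ[H ⧸ 𝔫] Module.End K (K ⊗[H ⧸ 𝔫] W) :=
    Module.End.baseChangeHom (H ⧸ 𝔫) K W
  let ρW : G →* Module.End (H ⧸ 𝔫) W := torsionAct hcomm 𝔫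
  let ρ₀ : G →* Module.End K (K ⊗[H ⧸ 𝔫] W) := (Φ : _ →* _).comp ρW
  have hρ₀ : ∀ σ, ρ₀ σ = Φ (ρW σ) := fun σ => rfl
  -- the quadratic relation on V₀
  have hquad : ∀ (τ : G) (T b : H), (∀ v : V, τ • τ • v - T • τ • v + b • v = 0) →
      ρ₀ τ * ρ₀ τ - ev T • ρ₀ τ + ev b • (1 : Module.End K (K ⊗[H ⧸ 𝔫] W)) = 0 := by
    intro τ T b h
    have h1 := congrArg Φ (torsionAct_quadratic hcomm 𝔫 τ T b h)
    rw [map_zero, map_add, map_sub, map_mul, map_smul, map_smul, map_one] at h1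
    rw [hρ₀, ← halg T, ← halg b, algebraMap_smul, algebraMap_smul]
    exact h1
  -- X + b Y = a
  have hlin : ∀ (τ : G) (T b : H), (∀ v : V, τ • τ • v - T • τ • v + b • v = 0) →
      ρ₀ τ + ev b • ρ₀ τ⁻¹ = ev T • (1 : Module.End K (K ⊗[H ⧸ 𝔫] W)) := by
    intro τ T b h
    have h1 := hquad τ T b h
    have hXY : ρ₀ τ * ρ₀ τ⁻¹ = 1 := by rw [← map_mul, mul_inv_cancel, map_one]
    apply LinearMap.ext
    intro x
    have hx := congrArg (fun Z : Module.End K (K ⊗[H ⧸ 𝔫] W) => Z (ρ₀ τ⁻¹ x)) h1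
    have hXYx : ρ₀ τ (ρ₀ τ⁻¹ x) = x := by
      have := congrArg (fun Z : Module.End K (K ⊗[H ⧸ 𝔫] W) => Z x) hXY
      simpa using this
    simp only [LinearMap.add_apply, LinearMap.sub_apply, Module.End.mul_apply,
      LinearMap.smul_apply, Module.End.one_apply, LinearMap.zero_apply, hXYx] at hx
    simp only [LinearMap.add_apply, LinearMap.smul_apply, Module.End.one_apply]
    rw [sub_add_eq_add_sub, sub_eq_zero] at hx
    exact hx
  -- hypothesis of BLR-lite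
  have hBLR : ∀ σ, ∃ c : K, ρ₀ σ + ((ω σ : Kˣ) : K) • ρ₀ σ⁻¹ =
      c • (1 : Module.End K (K ⊗[H ⧸ 𝔫] W)) := by
    intro σ
    obtain ⟨τ, T, b, m, hq, hb, hσ, hω⟩ := hWC σ
    have hXY : ρ₀ τ * ρ₀ τ⁻¹ = 1 := by rw [← map_mul, mul_inv_cancel, map_one]
    have hYX : ρ₀ τ⁻¹ * ρ₀ τ = 1 := by rw [← map_mul, inv_mul_cancel, map_one]
    obtain ⟨c, hc⟩ := lucas (ρ₀ τ) (ρ₀ τ⁻¹) hXY hYX (ev T) (ev b) (hlin τ T b hq) m
    refine ⟨c, ?_⟩
    have hσW : ρW σ = ρW (τ ^ m) := by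
      ext x
      exact hσ (x : V)
    have h1 : ρ₀ σ = ρ₀ τ ^ m := by rw [hρ₀, hσW, ← hρ₀, map_pow]
    have h2 : ρ₀ σ⁻¹ = ρ₀ τ⁻¹ ^ m := by
      have e1 : ρ₀ σ * ρ₀ σ⁻¹ = 1 := by rw [← map_mul, mul_inv_cancel, map_one]
      have e2 : ρ₀ τ⁻¹ ^ m * ρ₀ σ = 1 := by
        rw [h1, ← map_pow, ← map_pow, ← map_mul, inv_pow, inv_mul_cancel, map_one]
      calc ρ₀ σ⁻¹ = (ρ₀ τ⁻¹ ^ m * ρ₀ σ) * ρ₀ σ⁻¹ := by rw [e2, one_mul]
        _ = ρ₀ τ⁻¹ ^ m := by rw [mul_assoc, e1, mul_one]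
    rw [h1, h2, hω, Units.val_pow_eq_pow_val, ← hb]
    exact hc
  obtain ⟨ρ', h1, h2⟩ := blr_lite ρ₀ ω hBLR
  refine ⟨ρ', fun σ hσ hω => h1 σ ?_ hω, fun τ T b hq hb => ?_⟩
  · have : ρW σ = 1 := by
      ext x
      exact hσ (x : V)
    rw [hρ₀, this, map_one]
  · apply h2 τ (ev T)
    rw [← hb]
    exact hlin τ T b hq

end Fermat.Agent.S42


end ZBZ4S42_002_1
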