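/- GENERATED FILE (helper35, build-time optimisation, NOTES/ZB.md): verbatim concatenation of the modules
   Fermat.Agent.S29.AlgClosed
   Fermat.Agent.ES1.Top
   Fermat.Agent.ES1.TopFinal
   Do not edit; do not import together with these modules. -/
import Mathlib
import Fermat.Agent.ZB.S48_002
import Fermat.Agent.ZB.S29_001
import Fermat.Agent.ZB.Z4S42_002
import Fermat.Agent.ZB.Z4S42_003
import Fermat.Agent.ZB.Cheb_001
import Fermat.Agent.ZB.Cheb_002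
import Fermat.Agent.ZB.S48_001

/-! ### bundled: `Fermat.Agent.S29.AlgClosed` -/
section ZBZ4S29_001_0

/-!
# [Alg-3] for S29: the residue fields of `ℤ̄ = integralClosure ℤ ℂ` are algebraically closed

`Fermat.Agent.S29.isAlgClosed_quotient`: for a maximal ideal `m` of `integralClosure ℤ ℂ`,
the quotient field is algebraically closed.

Proof: lift a monic polynomial to `ℤ̄[X]`, take a root in `ℂ`; it is integral over `ℤ̄`,
hence over `ℤ`, hence lies in `ℤ̄`; reduce it modulo `m`.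
-/

namespace Fermat.Agent.S29

/-- A monic polynomial of positive degree over `integralClosure ℤ ℂ` has a root in
`integralClosure ℤ ℂ`. -/
theorem zbar_exists_root (q : Polynomial (integralClosure ℤ ℂ)) (hq : q.Monic)
    (hdeg : q.degree ≠ 0) : ∃ z : integralClosure ℤ ℂ, q.eval z = 0 := by
  classical
  set f : integralClosure ℤ ℂ →+* ℂ := algebraMap (integralClosure ℤ ℂ) ℂ with hf
  have hmonic : (q.map f).Monic := hq.map f
  have hdeg' : (q.map f).degree ≠ 0 := by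
    rw [Polynomial.degree_map_eq_of_leadingCoeff_ne_zero]
    · exact hdeg
    · rw [hq.leadingCoeff, map_one]; exact one_ne_zero
  obtain ⟨z, hz⟩ := IsAlgClosed.exists_root (q.map f) hdeg'
  have hzint : IsIntegral (integralClosure ℤ ℂ) z := by
    refine ⟨q, hq, ?_⟩
    rw [Polynomial.eval₂_eq_eval_map]
    exact hz
  have hzint' : IsIntegral ℤ z := isIntegral_trans z hzint
  refine ⟨⟨z, hzint'⟩, ?_⟩
  have hinj : Function.Injective f := Subtype.val_injective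
  apply hinj
  rw [map_zero, ← Polynomial.eval₂_hom, Polynomial.eval₂_eq_eval_map]
  exact hz

/-- Same statement under the name used by the first landed version of this file. -/
theorem exists_root_integralClosure (f : Polynomial (integralClosure ℤ ℂ)) (hf : f.Monic)
    (hdeg : f.degree ≠ 0) : ∃ z : integralClosure ℤ ℂ, f.eval z = 0 :=
  zbar_exists_root f hf hdeg

theorem isAlgClosed_quotient (m : Ideal (integralClosure ℤ ℂ)) [m.IsMaximal] :
    letI := Ideal.Quotient.field m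
    IsAlgClosed (integralClosure ℤ ℂ ⧸ m) := by
  letI := Ideal.Quotient.field m
  apply IsAlgClosed.of_exists_root
  intro p hmonic hirr
  have hsurj : Function.Surjective (Ideal.Quotient.mk m) := Ideal.Quotient.mk_surjective
  have hlift : p ∈ Polynomial.lifts (Ideal.Quotient.mk m) := by
    rw [Polynomial.mem_lifts]
    exact Polynomial.map_surjective _ hsurj p
  obtain ⟨q, hqp, hqdeg, hqmonic⟩ := Polynomial.lifts_and_degree_eq_and_monic hlift hmonic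
  have hdeg : q.degree ≠ 0 := by
    rw [hqdeg]
    exact Polynomial.degree_pos_of_irreducible hirr |>.ne'
  obtain ⟨z, hz⟩ := zbar_exists_root q hqmonic hdeg
  refine ⟨Ideal.Quotient.mk m z, ?_⟩
  rw [← hqp, Polynomial.eval_map, Polynomial.eval₂_hom, hz, map_zero]

end Fermat.Agent.S29


end ZBZ4S29_001_0

/-! ### bundled: `Fermat.Agent.ES1.Top` -/
section ZBZ4S29_001_1

/-!
# ES₁ / TOP — the glue: `StmtInt1 → (∀ M θ p, ES1Pkg M θ p) → S48.StmtES1`

Fork of `S29/Core.lean` (`exists_residual_rep_gen`) for the Hecke–diamond ring: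

* `es1top_core` : from `ES1Data M θ p V`, a ring homomorphism `ψ : ℤ̄ → K` (`K` algebraically
  closed of characteristic `p`), a system of values `tv` (of the `T_ℓ`) and `dv` (of the `δ_c`)
  in `ℤ̄` and a nonzero vector of `V` killed by the kernel of the evaluation: a representation
  `ρ' : G_ℚ → M₂(K)` of finite level, unramified outside `M p`, with
  `tr ρ'(Frob_ℓ) = ψ(dv(ℓ)⁻¹ tv(ℓ))`, `det ρ'(Frob_ℓ) = ψ(ℓ dv(ℓ)⁻¹)`
  (the relation `δ_ℓ τ² − T_ℓ τ + ℓ = 0` is `τ² − δ_ℓ⁻¹ T_ℓ τ + ℓ δ_ℓ⁻¹ = 0`);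
* `es1top_stmtES1` : the two normalisations `s = true` (no twist) and `s = false`
  (twist by `θ ∘ χ_M`).
-/

set_option autoImplicit false
set_option linter.style.haveILetI false

open CongruenceSubgroup UpperHalfPlane
open scoped MatrixGroups

namespace Fermat.Agent.ES1

open Fermat.Agent.S48 Fermat.Agent.S42

/-! ## The polynomial ring in the good variables -/

/-- the Hecke–diamond polynomial ring in the good variables -/
abbrev es1top_GoodHD (M p : ℕ) : Type := MvPolynomial (es1top_goodVars M p) ℤ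

/-- the inclusion of the polynomial ring in the good variables -/
noncomputable def es1top_goodIncl (M p : ℕ) : es1top_GoodHD M p →+* HDAlg M :=
  (MvPolynomial.rename (Subtype.val : es1top_goodVars M p → HDVar M) :
    es1top_GoodHD M p →ₐ[ℤ] HDAlg M).toRingHom

theorem es1top_goodIncl_mem_supported (M p : ℕ) (t : es1top_GoodHD M p) :
    es1top_goodIncl M p t ∈ MvPolynomial.supported ℤ (es1top_goodVars M p) := by
  rw [MvPolynomial.supported_eq_range_rename]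
  exact ⟨t, rfl⟩

/-- the good variable `T_ℓ` -/
def es1top_gT (M p : ℕ) (ℓ : ℕ) (hℓ : ℓ.Prime) (h : ¬ ℓ ∣ M * p) : es1top_goodVars M p :=
  ⟨Sum.inl ⟨ℓ, hℓ⟩, fun ℓ' h' => by
    have := Sum.inl.inj h'
    rw [← this]
    exact h⟩

/-- the good variable `δ_c` -/
def es1top_gD (M p : ℕ) (c : (ZMod M)ˣ) : es1top_goodVars M p :=
  ⟨Sum.inr c, fun ℓ' h' => by cases h'⟩

theorem es1top_goodIncl_gT (M p : ℕ) (ℓ : ℕ) (hℓ : ℓ.Prime) (h : ¬ ℓ ∣ M * p) :
    es1top_goodIncl M p (MvPolynomial.X (es1top_gT M p ℓ hℓ h)) = es1top_tGen M ⟨ℓ, hℓ⟩ := by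
  simp [es1top_goodIncl, es1top_tGen, es1top_gT]

theorem es1top_goodIncl_gD (M p : ℕ) (c : (ZMod M)ˣ) :
    es1top_goodIncl M p (MvPolynomial.X (es1top_gD M p c)) = es1top_dGen M c := by
  simp [es1top_goodIncl, es1top_dGen, es1top_gD]

/-- the evaluation of the good polynomials at a system of algebraic integers -/
noncomputable def es1top_evZ (M p : ℕ) (tv : Nat.Primes → Zb) (dv : (ZMod M)ˣ → Zb) :
    es1top_GoodHD M p →+* Zb :=
  MvPolynomial.eval₂Hom (Int.castRingHom Zb)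
    (fun x : es1top_goodVars M p => Sum.elim tv dv x.1)

theorem es1top_evZ_gT (M p : ℕ) (tv : Nat.Primes → Zb) (dv : (ZMod M)ˣ → Zb)
    (ℓ : ℕ) (hℓ : ℓ.Prime) (h : ¬ ℓ ∣ M * p) :
    es1top_evZ M p tv dv (MvPolynomial.X (es1top_gT M p ℓ hℓ h)) = tv ⟨ℓ, hℓ⟩ := by
  rw [es1top_evZ, MvPolynomial.coe_eval₂Hom, MvPolynomial.eval₂_X]
  rfl

theorem es1top_evZ_gD (M p : ℕ) (tv : Nat.Primes → Zb) (dv : (ZMod M)ˣ → Zb)
    (c : (ZMod M)ˣ) :
    es1top_evZ M p tv dv (MvPolynomial.X (es1top_gD M p c)) = dv c := by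
  rw [es1top_evZ, MvPolynomial.coe_eval₂Hom, MvPolynomial.eval₂_X]
  rfl

/-- the complex value of `es1top_evZ` is the value at the complex system, if the two systems
agree on the good variables -/
theorem es1top_coe_evZ (M p : ℕ) (tv : Nat.Primes → Zb) (dv : (ZMod M)ˣ → Zb)
    (sys : HDVar M → ℂ)
    (h : ∀ x : es1top_goodVars M p, ((Sum.elim tv dv x.1 : Zb) : ℂ) = sys x.1)
    (t : es1top_GoodHD M p) :
    ((es1top_evZ M p tv dv t : Zb) : ℂ) =
      (MvPolynomial.aeval sys : HDAlg M →ₐ[ℤ] ℂ) (es1top_goodIncl M p t) := by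
  have h' : ((algebraMap Zb ℂ).comp (es1top_evZ M p tv dv)) =
      ((MvPolynomial.aeval sys : HDAlg M →ₐ[ℤ] ℂ).toRingHom.comp (es1top_goodIncl M p)) := by
    apply MvPolynomial.ringHom_ext
    · intro n
      simp
    · intro x
      simp only [RingHom.comp_apply, es1top_evZ, es1top_goodIncl, MvPolynomial.coe_eval₂Hom,
        MvPolynomial.eval₂_X, AlgHom.toRingHom_eq_coe, RingHom.coe_coe, MvPolynomial.rename_X,
        MvPolynomial.aeval_X]
      exact h x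
  exact congrArg (fun f : es1top_GoodHD M p →+* ℂ => f t) h'

/-! ## The core -/

theorem es1top_core (M p : ℕ) [NeZero M] (hp : p.Prime) (θ : DirichletCharacter ℂ M)
    (V : Type) [AddCommGroup V] [Module (HDAlg M) V] [DistribMulAction GalQ V]
    (hV : ES1Data M θ p V)
    (K : Type) [Field K] [IsAlgClosed K] [CharP K p] (ψ : Zb →+* K)
    (tv : Nat.Primes → Zb) (dv : (ZMod M)ˣ →* Zb)
    (v₀ : V) (hv₀ : v₀ ≠ 0)
    (hkill₀ : ∀ t : es1top_GoodHD M p, ψ (es1top_evZ M p tv dv t) = 0 →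
      es1top_goodIncl M p t • v₀ = 0) :
    ∃ (F : IntermediateField ℚ (AlgebraicClosure ℚ))
      (ρ' : GalQ →* Matrix (Fin 2) (Fin 2) K),
      FiniteDimensional ℚ F ∧ Normal ℚ F ∧
        (∀ σ : GalQ, FixesField F σ → ρ' σ = 1 ∧ cycloChar M σ = 1) ∧
        (∀ ℓ : ℕ, (hℓ : ℓ.Prime) → ¬ ℓ ∣ M * p →
          ∀ c : (ZMod M)ˣ, (c : ZMod M) = (ℓ : ZMod M) →
          ∀ A : ValuationSubring (AlgebraicClosure ℚ), A.LiesOverPrime ℓ →
            ∀ τ : GalQ, A.IsFrobeniusAt τ ℓ →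
              (ρ' τ).trace = ψ (dv c⁻¹ * tv ⟨ℓ, hℓ⟩) ∧
              (ρ' τ).det = ψ ((ℓ : Zb) * dv c⁻¹)) ∧
        ∀ ℓ : ℕ, ℓ.Prime → ¬ ℓ ∣ M * p →
          ∀ A : ValuationSubring (AlgebraicClosure ℚ), A.LiesOverPrime ℓ →
            ∀ σ ∈ A.inertiaSubgroupIn ℚ, ρ' σ = 1 := by
  classical
  haveI : Fact p.Prime := ⟨hp⟩
  letI : Algebra (ZMod p) K := ZMod.algebra K p
  have hCyc := stmtCyclo
  have hHull := stmtHull
  have hWC := Fermat.Agent.Cheb.weakChebotarev_holds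
  have hM0 : M ≠ 0 := NeZero.ne M
  -- the module structure over the good polynomials
  haveI : Finite V := hV.finite
  letI : Module (es1top_GoodHD M p) V := Module.compHom V (es1top_goodIncl M p)
  have hsm : ∀ (t : es1top_GoodHD M p) (v : V), t • v = es1top_goodIncl M p t • v :=
    fun _ _ => rfl
  have hcomm : ∀ (σ : GalQ) (t : es1top_GoodHD M p) (v : V), σ • t • v = t • σ • v := by
    intro σ t v
    rw [hsm, hsm, hV.smul_comm]
  let ev : es1top_GoodHD M p →+* K := ψ.comp (es1top_evZ M p tv dv)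
  have hmax : (RingHom.ker ev).IsMaximal := by
    apply ker_isMaximal_of_isIntegral p ev
    intro t
    exact map_isIntegral_int ψ (Algebra.IsIntegral.isIntegral (R := ℤ) (es1top_evZ M p tv dv t))
  have hkill : ∀ t : es1top_GoodHD M p, ev t = 0 → t • v₀ = 0 := by
    intro t ht
    rw [hsm]
    exact hkill₀ t ht
  -- the characters
  obtain ⟨ω₀, ⟨Eω, hEωfin, hEω⟩, hωfrob⟩ := hCyc p hp
  obtain ⟨EM, hEMfin, hEM⟩ := es1top_cycloChar_level M
  let ωp : GalQ →* Kˣ := (Units.map (algebraMap (ZMod p) K : ZMod p →* K)).comp ω₀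
  let dK : (ZMod M)ˣ →* Kˣ := (Units.map (ψ : Zb →* K)).comp dv.toHomUnits
  have hdK : ∀ c : (ZMod M)ˣ, ((dK c : Kˣ) : K) = ψ (dv c) := fun c => rfl
  let ω : GalQ →* Kˣ := ωp * (dK.comp (cycloChar M))⁻¹
  have hω : ∀ σ, ω σ = ωp σ * (dK (cycloChar M σ))⁻¹ := fun σ => rfl
  have hωp : ∀ σ, ((ωp σ : Kˣ) : K) = algebraMap (ZMod p) K ((ω₀ σ : (ZMod p)ˣ) : ZMod p) :=
    fun σ => rfl
  -- the field F
  have hlev := hV.finite_level
  choose Ev hEvfin hEv using hlev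
  letI : Fintype V := Fintype.ofFinite V
  obtain ⟨F, hFfin, hFnorm, hFle⟩ := hHull (insert Eω (insert EM (Finset.univ.image Ev))) (by
    intro E hE
    rcases Finset.mem_insert.mp hE with rfl | hE
    · exact hEωfin
    rcases Finset.mem_insert.mp hE with rfl | hE
    · exact hEMfin
    obtain ⟨v, -, rfl⟩ := Finset.mem_image.mp hE
    exact hEvfin v)
  have hFω : Eω ≤ F := hFle _ (Finset.mem_insert_self _ _)
  have hFM : EM ≤ F := hFle _ (Finset.mem_insert_of_mem (Finset.mem_insert_self _ _))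
  have hFv : ∀ v, Ev v ≤ F := fun v => hFle _ (Finset.mem_insert_of_mem
    (Finset.mem_insert_of_mem (Finset.mem_image_of_mem Ev (Finset.mem_univ v))))
  have hfixV : ∀ σ : GalQ, FixesField F σ → ∀ v : V, σ • v = v :=
    fun σ hσ v => hEv v σ fun x hx => hσ x (hFv v hx)
  have hfixM : ∀ σ : GalQ, FixesField F σ → cycloChar M σ = 1 :=
    fun σ hσ => hEM σ fun x hx => hσ x (hFM hx)
  have hfixω : ∀ σ : GalQ, FixesField F σ → ω σ = 1 := by
    intro σ hσ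
    have h1 : ω₀ σ = 1 := hEω σ fun x hx => hσ x (hFω hx)
    have h2 : ωp σ = 1 := by
      show (Units.map (algebraMap (ZMod p) K : ZMod p →* K)) (ω₀ σ) = 1
      rw [h1, map_one]
    rw [hω, h2, hfixM σ hσ, map_one, inv_one, mul_one]
  -- Frobenius data
  have hfrob : ∀ ℓ : ℕ, (hℓ : ℓ.Prime) → (hℓMp : ¬ ℓ ∣ M * p) →
      ∀ c : (ZMod M)ˣ, (c : ZMod M) = (ℓ : ZMod M) →
      ∀ A : ValuationSubring (AlgebraicClosure ℚ), A.LiesOverPrime ℓ →
        ∀ τ : GalQ, A.IsFrobeniusAt τ ℓ →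
          (∀ v : V, τ • τ • v -
              ((MvPolynomial.X (es1top_gD M p c⁻¹) : es1top_GoodHD M p) *
                MvPolynomial.X (es1top_gT M p ℓ hℓ hℓMp)) • τ • v +
              (((ℓ : ℕ) : es1top_GoodHD M p) * MvPolynomial.X (es1top_gD M p c⁻¹)) • v = 0) ∧
            ev (((ℓ : ℕ) : es1top_GoodHD M p) * MvPolynomial.X (es1top_gD M p c⁻¹)) =
              ((ω τ : Kˣ) : K) := by
    intro ℓ hℓ hℓMp c hc A hA τ hτ
    have hℓp : ℓ ≠ p := by
      rintro rfl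
      exact hℓMp (Dvd.intro_left M rfl)
    have hℓM : ¬ ℓ ∣ M := fun h => hℓMp (Dvd.dvd.mul_right h p)
    constructor
    · intro v
      have h0 := hV.frob ℓ hℓ hℓMp c hc A hA τ hτ v
      have h1 := congrArg (fun w : V => es1top_dGen M c⁻¹ • w) h0
      simp only [smul_add, smul_sub, smul_zero] at h1
      rw [← hV.diamond_mul, inv_mul_cancel, hV.diamond_one] at h1
      rw [hsm, hsm, map_mul, map_mul, es1top_goodIncl_gD, es1top_goodIncl_gT, map_natCast,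
        mul_smul, mul_smul, Nat.cast_smul_eq_nsmul]
      rw [← h1]
      congr 1
      exact (smul_comm _ _ _).symm
    · have hχ : cycloChar M τ = c :=
        Units.ext ((es1top_cycloChar_frob M ℓ hℓ hℓM A hA τ hτ).trans hc.symm)
      show ψ (es1top_evZ M p tv dv _) = _
      rw [map_mul, es1top_evZ_gD, map_natCast, map_mul, map_natCast, hω, hχ, Units.val_mul,
        hωp, hωfrob ℓ hℓ hℓp A hA τ hτ, map_natCast, ← map_inv, hdK]
  -- unramified characters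
  have hωunr : ∀ ℓ : ℕ, ℓ.Prime → ¬ ℓ ∣ M * p →
      ∀ A : ValuationSubring (AlgebraicClosure ℚ), A.LiesOverPrime ℓ →
        ∀ σ ∈ A.inertiaSubgroupIn ℚ, ω σ = 1 := by
    intro ℓ hℓ hℓMp A hA σ hσ
    have hℓp : ℓ ≠ p := by
      rintro rfl
      exact hℓMp (Dvd.intro_left M rfl)
    have hℓM : ¬ ℓ ∣ M := fun h => hℓMp (Dvd.dvd.mul_right h p)
    obtain ⟨τ, hτ⟩ := Fermat.Agent.Common.exists_isFrobeniusAt_of_liesOverPrime ℓ hℓ A hA
    have h1 := hωfrob ℓ hℓ hℓp A hA τ hτ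
    have h2 := hωfrob ℓ hℓ hℓp A hA (τ * σ) (Fermat.Agent.S29.isFrobeniusAt_mul_inertia hτ hσ)
    have h3 : ω₀ (τ * σ) = ω₀ τ := Units.ext (h2.trans h1.symm)
    have h4 : ω₀ σ = 1 := by
      rw [map_mul] at h3
      exact mul_left_cancel (h3.trans (mul_one _).symm)
    have h5 : ωp σ = 1 := by
      show (Units.map (algebraMap (ZMod p) K : ZMod p →* K)) (ω₀ σ) = 1
      rw [h4, map_one]
    rw [hω, h5, es1top_cycloChar_inertia M ℓ hℓ hℓM A hA σ hσ, map_one, inv_one, mul_one]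
  -- apply the abstract glue
  obtain ⟨ρ', h1, h2⟩ := abstract_glue hcomm ev hmax v₀ hv₀ hkill ω (by
    intro σ
    obtain ⟨ℓ, A, τ, m, hℓ, hℓS, hA, hτ, hm⟩ := @hWC F hFfin ⟨⟩ (M * p).primeFactors σ
    have hℓMp : ¬ ℓ ∣ M * p := by
      intro hdvd
      apply hℓS
      rw [Nat.mem_primeFactors]
      exact ⟨hℓ, hdvd, Nat.mul_ne_zero hM0 hp.ne_zero⟩
    have hℓM : ¬ ℓ ∣ M := fun h => hℓMp (Dvd.dvd.mul_right h p)
    obtain ⟨hq, hb⟩ := hfrob ℓ hℓ hℓMp (ZMod.unitOfCoprime ℓ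
      ((Nat.Prime.coprime_iff_not_dvd hℓ).mpr hℓM)) (ZMod.coe_unitOfCoprime ℓ _) A hA τ hτ
    have hκ : FixesField F ((τ ^ m)⁻¹ * σ) := by
      intro x hx
      rw [AlgEquiv.mul_apply, ← hm x hx]
      show (τ ^ m)⁻¹ ((τ ^ m) x) = x
      exact (τ ^ m).symm_apply_apply x
    refine ⟨τ, _, _, m, hq, hb, ?_, ?_⟩
    · intro v
      have := hfixV _ hκ v
      rw [mul_smul, inv_smul_eq_iff] at this
      exact this
    · have := hfixω _ hκ
      rw [map_mul, map_inv, inv_mul_eq_one, map_pow] at this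
      exact this.symm)
  refine ⟨F, ρ', hFfin, hFnorm, ?_, ?_, ?_⟩
  · intro σ hσ
    exact ⟨h1 σ (hfixV σ hσ) (hfixω σ hσ), hfixM σ hσ⟩
  · intro ℓ hℓ hℓMp c hc A hA τ hτ
    obtain ⟨hq, hb⟩ := hfrob ℓ hℓ hℓMp c hc A hA τ hτ
    obtain ⟨htr, hdet⟩ := h2 τ _ _ hq hb
    constructor
    · rw [htr]
      show ψ (es1top_evZ M p tv dv _) = _
      rw [map_mul, es1top_evZ_gD, es1top_evZ_gT]
    · rw [hdet, ← hb]
      show ψ (es1top_evZ M p tv dv _) = _
      rw [map_mul, es1top_evZ_gD, map_natCast]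
  · intro ℓ hℓ hℓMp A hA σ hσ
    exact h1 σ (hV.unram ℓ hℓ hℓMp A hA σ hσ) (hωunr ℓ hℓ hℓMp A hA σ hσ)

end Fermat.Agent.ES1

/-! ## The values of the nebentypus as algebraic integers -/

namespace Fermat.Agent.ES1

open Fermat.Agent.S48 Fermat.Agent.S42

/-- the values of a Dirichlet character are algebraic integers -/
theorem es1top_isIntegral_char {M : ℕ} [NeZero M] (θ : DirichletCharacter ℂ M) (a : ZMod M) :
    IsIntegral ℤ (θ a) := by
  by_cases ha : IsUnit a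
  · obtain ⟨u, rfl⟩ := ha
    have h : (θ u) ^ (Nat.totient M) = 1 := by
      rw [← map_pow, ← Units.val_pow_eq_pow_val, ZMod.pow_totient, Units.val_one, map_one]
    refine IsIntegral.of_pow (Nat.totient_pos.mpr (Nat.pos_of_ne_zero (NeZero.ne M))) ?_
    rw [h]
    exact isIntegral_one
  · rw [MulChar.map_nonunit θ ha]
    exact isIntegral_zero

/-- a Dirichlet character as a homomorphism `(ℤ/M)ˣ → ℤ̄` -/
noncomputable def es1top_thetaZ {M : ℕ} [NeZero M] (θ : DirichletCharacter ℂ M) :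
    (ZMod M)ˣ →* Zb where
  toFun c := ⟨θ (c : ZMod M), es1top_isIntegral_char θ _⟩
  map_one' := Subtype.ext (by simp)
  map_mul' c d := Subtype.ext (by simp)

theorem es1top_coe_thetaZ {M : ℕ} [NeZero M] (θ : DirichletCharacter ℂ M) (c : (ZMod M)ˣ) :
    ((es1top_thetaZ θ c : Zb) : ℂ) = θ (c : ZMod M) := rfl

/-- `θ⁻¹(c⁻¹) = θ(c)` -/
theorem es1top_inv_apply_inv {M : ℕ} (θ : DirichletCharacter ℂ M) (c : (ZMod M)ˣ) :
    θ⁻¹ ((c⁻¹ : (ZMod M)ˣ) : ZMod M) = θ (c : ZMod M) := by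
  rw [MulChar.inv_apply, Ring.inverse_unit, inv_inv]

/-- `θ(c⁻¹) θ(c) = 1` -/
theorem es1top_apply_inv_mul {M : ℕ} (θ : DirichletCharacter ℂ M) (c : (ZMod M)ˣ) :
    θ ((c⁻¹ : (ZMod M)ˣ) : ZMod M) * θ (c : ZMod M) = 1 := by
  rw [← map_mul, ← Units.val_mul, inv_mul_cancel, Units.val_one, map_one]

/-! ## Twists -/

/-- the twist of a matrix representation by a character -/
def es1top_twist {G : Type*} [Group G] {K : Type*} [CommRing K] (η : G →* Kˣ)
    (ρ' : G →* Matrix (Fin 2) (Fin 2) K) : G →* Matrix (Fin 2) (Fin 2) K where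
  toFun σ := ((η σ : Kˣ) : K) • ρ' σ
  map_one' := by simp
  map_mul' σ τ := by
    rw [map_mul, map_mul, Units.val_mul, smul_mul_smul_comm]

theorem es1top_twist_apply {G : Type*} [Group G] {K : Type*} [CommRing K] (η : G →* Kˣ)
    (ρ' : G →* Matrix (Fin 2) (Fin 2) K) (σ : G) :
    es1top_twist η ρ' σ = ((η σ : Kˣ) : K) • ρ' σ := rfl

theorem es1top_twist_trace {G : Type*} [Group G] {K : Type*} [CommRing K] (η : G →* Kˣ)
    (ρ' : G →* Matrix (Fin 2) (Fin 2) K) (σ : G) :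
    (es1top_twist η ρ' σ).trace = ((η σ : Kˣ) : K) * (ρ' σ).trace := by
  rw [es1top_twist_apply, Matrix.trace_smul, smul_eq_mul]

theorem es1top_twist_det {G : Type*} [Group G] {K : Type*} [CommRing K] (η : G →* Kˣ)
    (ρ' : G →* Matrix (Fin 2) (Fin 2) K) (σ : G) :
    (es1top_twist η ρ' σ).det = ((η σ : Kˣ) : K) ^ 2 * (ρ' σ).det := by
  rw [es1top_twist_apply, Matrix.det_smul, Fintype.card_fin]

theorem es1top_twist_eq_one {G : Type*} [Group G] {K : Type*} [CommRing K] (η : G →* Kˣ)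
    (ρ' : G →* Matrix (Fin 2) (Fin 2) K) (σ : G) (h1 : η σ = 1) (h2 : ρ' σ = 1) :
    es1top_twist η ρ' σ = 1 := by
  rw [es1top_twist_apply, h1, h2, Units.val_one, one_smul]

/-! ## From matrices to `GL₂` -/

theorem es1top_finish (M ℓ : ℕ) (θ : DirichletCharacter ℂ M) (𝔪 : Ideal Zb) (b : ℕ → ℂ)
    (ρm : GalQ →* Matrix (Fin 2) (Fin 2) (Zb ⧸ 𝔪))
    (F : IntermediateField ℚ (AlgebraicClosure ℚ)) (hFfin : FiniteDimensional ℚ F)
    (hFnorm : Normal ℚ F)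
    (hF : ∀ σ : GalQ, FixesField F σ → ρm σ = 1)
    (hfrob : ∀ p : ℕ, p.Prime → ¬ p ∣ M * ℓ →
      ∀ A : ValuationSubring (AlgebraicClosure ℚ), A.LiesOverPrime p →
        ∀ τ : GalQ, A.IsFrobeniusAt τ p →
          ∃ t d : Zb, (t : ℂ) = b p ∧ (d : ℂ) = (p : ℂ) * θ (p : ZMod M) ∧
            (ρm τ).trace = Ideal.Quotient.mk 𝔪 t ∧ (ρm τ).det = Ideal.Quotient.mk 𝔪 d)
    (hunr : ∀ p : ℕ, p.Prime → ¬ p ∣ M * ℓ →
      ∀ A : ValuationSubring (AlgebraicClosure ℚ), A.LiesOverPrime p →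
        ∀ σ ∈ A.inertiaSubgroupIn ℚ, ρm σ = 1) :
    ∃ ρ : GalQ →* GL (Fin 2) (Zb ⧸ 𝔪), FiniteLevel ρ ∧
      ∀ p : ℕ, p.Prime → ¬ p ∣ M * ℓ →
        ∀ A : ValuationSubring (AlgebraicClosure ℚ), A.LiesOverPrime p →
          (∀ σ ∈ A.inertiaSubgroupIn ℚ, ρ σ = 1) ∧
          ∀ τ : GalQ, A.IsFrobeniusAt τ p →
            ∃ t d : Zb, (t : ℂ) = b p ∧ (d : ℂ) = (p : ℂ) * θ (p : ZMod M) ∧
              Matrix.trace (ρ τ : Matrix (Fin 2) (Fin 2) (Zb ⧸ 𝔪)) = Ideal.Quotient.mk 𝔪 t ∧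
              Matrix.det (ρ τ : Matrix (Fin 2) (Fin 2) (Zb ⧸ 𝔪)) = Ideal.Quotient.mk 𝔪 d := by
  have hone : ∀ σ : GalQ, ρm σ = 1 → ρm.toHomUnits σ = 1 := by
    intro σ h
    apply Units.ext
    rw [MonoidHom.coe_toHomUnits, h]
    rfl
  refine ⟨ρm.toHomUnits, ⟨F, hFfin, ⟨⟩, fun σ hσ => hone σ (hF σ hσ)⟩, ?_⟩
  intro p hp hpMℓ A hA
  refine ⟨fun σ hσ => hone σ (hunr p hp hpMℓ A hA σ hσ), fun τ hτ => ?_⟩
  obtain ⟨t, d, ht, hd, htr, hdet⟩ := hfrob p hp hpMℓ A hA τ hτ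
  exact ⟨t, d, ht, hd, htr, hdet⟩

end Fermat.Agent.ES1

/-! ## The glue -/

namespace Fermat.Agent.ES1

open Fermat.Agent.S48 Fermat.Agent.S42

/-- **ES₁ / TOP.**  The Eichler–Shimura packages and the integrality of the eigenvalues give
the residual representations of the eigenvectors of weight two on `Γ₁(M)` with nebentypus. -/
theorem es1top_stmtES1 (hInt : StmtInt1)
    (hPkg : ∀ (M : ℕ) [NeZero M] (θ : DirichletCharacter ℂ M) (p : ℕ), p.Prime →
      ES1Pkg M θ p) : StmtES1 := by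
  classical
  intro M _ θ g hg hθ ℓ hℓ 𝔪 h𝔪 hℓ𝔪 b hb
  haveI := h𝔪
  letI : Field (Zb ⧸ 𝔪) := Ideal.Quotient.field 𝔪
  haveI : IsAlgClosed (Zb ⧸ 𝔪) := Fermat.Agent.S29.isAlgClosed_quotient 𝔪
  let ψ : Zb →+* (Zb ⧸ 𝔪) := Ideal.Quotient.mk 𝔪
  have hψker : ∀ z : Zb, ψ z = 0 ↔ z ∈ 𝔪 := fun z => Ideal.Quotient.eq_zero_iff_mem
  haveI : CharP (Zb ⧸ 𝔪) ℓ := by
    rw [CharP.charP_iff_prime_eq_zero hℓ]
    have : ψ (ℓ : Zb) = 0 := (hψker _).mpr hℓ𝔪
    rwa [map_natCast] at this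
  -- integrality of the eigenvalues
  have hIntex : ∀ q : Nat.Primes, ∃ a : Zb, ¬ (q : ℕ) ∣ M * ℓ → (a : ℂ) = b q := by
    intro q
    by_cases h : (q : ℕ) ∣ M * ℓ
    · exact ⟨0, fun h' => absurd h h'⟩
    · have hi : IsIntegral ℤ (b q) := by
        refine hInt M θ g hg hθ q q.2 (b q) fun n => ?_
        have := hb q q.2 h n
        simpa using this
      exact ⟨⟨b q, hi⟩, fun _ => rfl⟩
  choose bZ hbZ using hIntex
  -- the package
  obtain ⟨V, _, _, _, hV⟩ := hPkg M θ ℓ hℓ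
  obtain ⟨s, v₀, hv₀, hkill⟩ := hV.supp g hg hθ b hb 𝔪 h𝔪 hℓ𝔪
  cases s
  · -- the eigen-system `(b, θ)`: twist by `θ ∘ χ_M`
    have hsys : ∀ x : es1top_goodVars M ℓ,
        ((Sum.elim bZ (es1top_thetaZ θ) x.1 : Zb) : ℂ) = es1top_sys θ b false x.1 := by
      rintro ⟨x | c, hx⟩
      · exact hbZ x (hx x rfl)
      · rfl
    obtain ⟨F, ρ', hFfin, hFnorm, hfix, hfrob, hunr⟩ :=
      es1top_core M ℓ hℓ θ V hV (Zb ⧸ 𝔪) ψ bZ (es1top_thetaZ θ) v₀ hv₀ (by
        intro t ht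
        apply hkill _ (es1top_goodIncl_mem_supported M ℓ t)
        exact ⟨es1top_evZ M ℓ bZ (es1top_thetaZ θ) t, (hψker _).mp ht,
          es1top_coe_evZ M ℓ bZ (es1top_thetaZ θ) _ hsys t⟩)
    let η : GalQ →* (Zb ⧸ 𝔪)ˣ :=
      ((Units.map (ψ : Zb →* (Zb ⧸ 𝔪))).comp (es1top_thetaZ θ).toHomUnits).comp (cycloChar M)
    have hη : ∀ σ : GalQ, ((η σ : (Zb ⧸ 𝔪)ˣ) : Zb ⧸ 𝔪) = ψ (es1top_thetaZ θ (cycloChar M σ)) :=
      fun σ => rfl
    have hη1 : ∀ σ : GalQ, cycloChar M σ = 1 → η σ = 1 := by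
      intro σ h
      apply Units.ext
      rw [hη, h, map_one, map_one, Units.val_one]
    refine es1top_finish M ℓ θ 𝔪 b (es1top_twist η ρ') F hFfin hFnorm ?_ ?_ ?_
    · intro σ hσ
      exact es1top_twist_eq_one η ρ' σ (hη1 σ (hfix σ hσ).2) (hfix σ hσ).1
    · intro q hq hqMℓ A hA τ hτ
      have hqM : ¬ q ∣ M := fun h => hqMℓ (Dvd.dvd.mul_right h ℓ)
      set c : (ZMod M)ˣ := ZMod.unitOfCoprime q ((Nat.Prime.coprime_iff_not_dvd hq).mpr hqM)
        with hc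
      have hcq : (c : ZMod M) = (q : ZMod M) := ZMod.coe_unitOfCoprime q _
      have hχ : cycloChar M τ = c :=
        Units.ext ((es1top_cycloChar_frob M q hq hqM A hA τ hτ).trans hcq.symm)
      obtain ⟨htr, hdet⟩ := hfrob q hq hqMℓ c hcq A hA τ hτ
      have hcc : es1top_thetaZ θ c * es1top_thetaZ θ c⁻¹ = 1 := by
        rw [← map_mul, mul_inv_cancel, map_one]
      refine ⟨bZ ⟨q, hq⟩, (q : Zb) * es1top_thetaZ θ c, hbZ ⟨q, hq⟩ hqMℓ, ?_, ?_, ?_⟩
      · show ((q : Zb) : ℂ) * ((es1top_thetaZ θ c : Zb) : ℂ) = _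
        rw [es1top_coe_thetaZ, hcq]
        simp
      · rw [es1top_twist_trace, htr, hη, hχ, ← map_mul, ← mul_assoc, hcc, one_mul]
      · rw [es1top_twist_det, hdet, hη, hχ, ← map_pow, ← map_mul]
        congr 1
        calc es1top_thetaZ θ c ^ 2 * ((q : Zb) * es1top_thetaZ θ c⁻¹)
            = (q : Zb) * es1top_thetaZ θ c * (es1top_thetaZ θ c * es1top_thetaZ θ c⁻¹) := by
              ring
          _ = (q : Zb) * es1top_thetaZ θ c := by rw [hcc, mul_one]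
    · intro q hq hqMℓ A hA σ hσ
      have hqM : ¬ q ∣ M := fun h => hqMℓ (Dvd.dvd.mul_right h ℓ)
      exact es1top_twist_eq_one η ρ' σ
        (hη1 σ (es1top_cycloChar_inertia M q hq hqM A hA σ hσ)) (hunr q hq hqMℓ A hA σ hσ)
  · -- the eigen-system `(b θ⁻¹, θ⁻¹)`: no twist
    let tv : Nat.Primes → Zb := fun q =>
      bZ q * ⟨θ⁻¹ ((q : ℕ) : ZMod M), es1top_isIntegral_char θ⁻¹ _⟩
    have hsys : ∀ x : es1top_goodVars M ℓ,
        ((Sum.elim tv (es1top_thetaZ θ⁻¹) x.1 : Zb) : ℂ) = es1top_sys θ b true x.1 := by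
      rintro ⟨x | c, hx⟩
      · show ((bZ x : Zb) : ℂ) * θ⁻¹ ((x : ℕ) : ZMod M) = b x * θ⁻¹ ((x : ℕ) : ZMod M)
        rw [hbZ x (hx x rfl)]
      · rfl
    obtain ⟨F, ρ', hFfin, hFnorm, hfix, hfrob, hunr⟩ :=
      es1top_core M ℓ hℓ θ V hV (Zb ⧸ 𝔪) ψ tv (es1top_thetaZ θ⁻¹) v₀ hv₀ (by
        intro t ht
        apply hkill _ (es1top_goodIncl_mem_supported M ℓ t)
        exact ⟨es1top_evZ M ℓ tv (es1top_thetaZ θ⁻¹) t, (hψker _).mp ht,
          es1top_coe_evZ M ℓ tv (es1top_thetaZ θ⁻¹) _ hsys t⟩)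
    refine es1top_finish M ℓ θ 𝔪 b ρ' F hFfin hFnorm (fun σ hσ => (hfix σ hσ).1) ?_ hunr
    intro q hq hqMℓ A hA τ hτ
    have hqM : ¬ q ∣ M := fun h => hqMℓ (Dvd.dvd.mul_right h ℓ)
    set c : (ZMod M)ˣ := ZMod.unitOfCoprime q ((Nat.Prime.coprime_iff_not_dvd hq).mpr hqM)
      with hc
    have hcq : (c : ZMod M) = (q : ZMod M) := ZMod.coe_unitOfCoprime q _
    obtain ⟨htr, hdet⟩ := hfrob q hq hqMℓ c hcq A hA τ hτ
    have hT : es1top_thetaZ θ⁻¹ c⁻¹ * tv ⟨q, hq⟩ = bZ ⟨q, hq⟩ := by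
      apply Subtype.ext
      show θ⁻¹ ((c⁻¹ : (ZMod M)ˣ) : ZMod M) * (((bZ ⟨q, hq⟩ : Zb) : ℂ) * θ⁻¹ ((q : ℕ) : ZMod M))
        = ((bZ ⟨q, hq⟩ : Zb) : ℂ)
      rw [← hcq, mul_left_comm, es1top_apply_inv_mul, mul_one]
    refine ⟨bZ ⟨q, hq⟩, (q : Zb) * es1top_thetaZ θ⁻¹ c⁻¹, hbZ ⟨q, hq⟩ hqMℓ, ?_, ?_, ?_⟩
    · show ((q : Zb) : ℂ) * θ⁻¹ ((c⁻¹ : (ZMod M)ˣ) : ZMod M) = _
      rw [es1top_inv_apply_inv, hcq]
      simp
    · rw [htr, hT]
    · rw [hdet]

end Fermat.Agent.ES1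


end ZBZ4S29_001_1

/-! ### bundled: `Fermat.Agent.ES1.TopFinal` -/
section ZBZ4S29_001_2

/-!
# ES₁ / TOP — `StmtES1` from the Eichler–Shimura packages alone

`es1top_stmtES1_of_pkg : (∀ M θ p, p.Prime → ES1Pkg M θ p) → S48.StmtES1`
(`ES1/Top.lean` + the integrality `ES1/Int1.lean`).
-/

set_option autoImplicit false

namespace Fermat.Agent.ES1

/-- **ES₁ / TOP, final form.**  The only input of `S48.StmtES1` is the existence of the
Eichler–Shimura packages `ES1Pkg M θ p`. -/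
theorem es1top_stmtES1_of_pkg
    (hPkg : ∀ (M : ℕ) [NeZero M] (θ : DirichletCharacter ℂ M) (p : ℕ), p.Prime →
      ES1Pkg M θ p) : Fermat.Agent.S48.StmtES1 :=
  es1top_stmtES1 es1int_stmtInt1 hPkg

end Fermat.Agent.ES1


end ZBZ4S29_001_2
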