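/- GENERATED FILE (helper35, build-time optimisation, NOTES/ZB.md): verbatim concatenation of the modules
   Fermat.Agent.S48.GalFactor
   Do not edit; do not import together with these modules. -/
import Mathlib
import Fermat.Agent.ZB.S48_002

/-! ### bundled: `Fermat.Agent.S48.GalFactor` -/
section ZBZ4S48_002_0

/-!
# S48 (END assembly): factoring a representation of `G_ℚ` through a finite Galois group
-/

set_option autoImplicit false

namespace Fermat.Agent.S48

/-- `ℚ̄ / ℚ` is normal (for the instance of `Algebra ℚ ℚ̄` found by unification) -/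
theorem qbar_normal : Normal ℚ (AlgebraicClosure ℚ) := by
  have h1 : @Normal ℚ (AlgebraicClosure ℚ) _ _ (AlgebraicClosure.instAlgebra ℚ) := inferInstance
  convert h1
  exact Subsingleton.elim _ _

variable (F : IntermediateField ℚ (AlgebraicClosure ℚ)) [IsGalois ℚ F]

/-- restriction `G_ℚ → Gal(F/ℚ)` -/
noncomputable def resF : GalQ →* (F ≃ₐ[ℚ] F) :=
  AlgEquiv.restrictNormalHom (F := ℚ) (K₁ := AlgebraicClosure ℚ) F

theorem resF_apply (σ : GalQ) : resF F σ = AlgEquiv.restrictNormal σ F := rfl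

theorem resF_surjective : Function.Surjective (resF F) :=
  haveI := qbar_normal
  AlgEquiv.restrictNormalHom_surjective (F := ℚ) (K₁ := F) (AlgebraicClosure ℚ)

theorem resF_coe (σ : GalQ) (x : F) :
    ((resF F σ x : F) : AlgebraicClosure ℚ) = σ (x : AlgebraicClosure ℚ) :=
  AlgEquiv.restrictNormal_commutes σ F x

theorem fixes_of_resF_eq_one {σ : GalQ} (h : resF F σ = 1) : ∀ x ∈ F, σ x = x := by
  intro x hx
  have h2 := resF_coe F σ ⟨x, hx⟩
  rw [h] at h2
  exact h2.symm

theorem resF_eq_of_agree {σ τ : GalQ} (h : ∀ x ∈ F, σ x = τ x) : resF F σ = resF F τ := by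
  apply AlgEquiv.ext
  intro x
  apply Subtype.ext
  rw [resF_coe, resF_coe]
  exact h x x.2

/-- a homomorphism trivial on `Gal(ℚ̄/F)` factors through `Gal(F/ℚ)` -/
theorem exists_factor {M : Type*} [Group M] (ρ : GalQ →* M)
    (h : ∀ σ : GalQ, (∀ x ∈ F, σ x = x) → ρ σ = 1) :
    ∃ ρF : (F ≃ₐ[ℚ] F) →* M, ∀ σ : GalQ, ρF (resF F σ) = ρ σ := by
  have hker : (resF F).ker ≤ ρ.ker := by
    intro σ hσ
    rw [MonoidHom.mem_ker] at hσ ⊢
    exact h σ (fixes_of_resF_eq_one F hσ)
  refine ⟨(resF F).liftOfRightInverse (Function.surjInv (resF_surjective F))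
    (Function.rightInverse_surjInv (resF_surjective F)) ⟨ρ, hker⟩, fun σ => ?_⟩
  exact MonoidHom.liftOfRightInverse_comp_apply _ _ _ ⟨ρ, hker⟩ σ

theorem range_eq_of_factor {M : Type*} [Group M] {ρ : GalQ →* M} {ρF : (F ≃ₐ[ℚ] F) →* M}
    (h : ∀ σ : GalQ, ρF (resF F σ) = ρ σ) : ρF.range = ρ.range := by
  ext m
  constructor
  · rintro ⟨g, rfl⟩
    obtain ⟨σ, rfl⟩ := resF_surjective F g
    exact ⟨σ, (h σ).symm⟩
  · rintro ⟨σ, rfl⟩
    exact ⟨resF F σ, h σ⟩

theorem finite_galF [FiniteDimensional ℚ F] : Finite (F ≃ₐ[ℚ] F) := inferInstance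

end Fermat.Agent.S48


end ZBZ4S48_002_0
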