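/- GENERATED FILE (helper35, build-time optimisation, NOTES/ZB.md): verbatim concatenation of the modules
   Fermat.Agent.S48.EndDefs
   Do not edit; do not import together with these modules. -/
import Mathlib
import Fermat.Agent.ZB.S48_002

/-! ### bundled: `Fermat.Agent.S48.EndDefs` -/
section ZBZ4S48_001_0

/-!
# S48 (END assembly): auxiliary definitions

* `IsResidualRep N ε f ℓ 𝔪 ρ` : the conclusion of `StmtRes` for one representation.
* `StmtWeakCheb`, `StmtFrobExists` : the two facts on Frobenius elements that the assembly uses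
  (both are proved on main: `Fermat.Agent.Cheb.exists_frobenius_pow_eq`,
  `Fermat.Agent.Common.exists_isFrobeniusAt`); they are hypotheses here to keep the closure lean.
* `redSet 𝔪 Y` : the reduction mod `𝔪` of a finite set of complex numbers (non-integers go to `0`).
-/

set_option autoImplicit false

open CongruenceSubgroup

namespace Fermat.Agent.S48

/-- `ρ` is a residual representation attached to `f` at `𝔪 ∣ ℓ` -/
def IsResidualRep (N : ℕ) (ε : DirichletCharacter ℂ N) (f : CuspForm (Gamma1 N) 1) (ℓ : ℕ)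
    (𝔪 : Ideal Zb) (ρ : GalQ →* GL (Fin 2) (Zb ⧸ 𝔪)) : Prop :=
  FiniteLevel ρ ∧
    ∀ p : ℕ, p.Prime → ¬ p ∣ N * ℓ →
      ∀ A : ValuationSubring (AlgebraicClosure ℚ), A.LiesOverPrime p →
        (∀ σ ∈ A.inertiaSubgroupIn ℚ, ρ σ = 1) ∧
        ∀ τ : GalQ, A.IsFrobeniusAt τ p →
          ∃ a e : Zb, (a : ℂ) = ModularFormClass.qCoeff f p ∧ (e : ℂ) = ε (p : ZMod N) ∧
            Matrix.trace (ρ τ : Matrix (Fin 2) (Fin 2) (Zb ⧸ 𝔪)) = Ideal.Quotient.mk 𝔪 a ∧
            Matrix.det (ρ τ : Matrix (Fin 2) (Fin 2) (Zb ⧸ 𝔪)) = Ideal.Quotient.mk 𝔪 e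

theorem stmtRes_iff : StmtRes ↔
    ∀ (N : ℕ) [NeZero N] (ε : DirichletCharacter ℂ N) (f : CuspForm (Gamma1 N) 1),
      IsHeckeEigen N ε f → ∃ ℓ₀ : ℕ, ∀ ℓ : ℕ, ℓ.Prime → ℓ₀ ≤ ℓ →
        ∀ 𝔪 : Ideal Zb, 𝔪.IsMaximal → ((ℓ : ℕ) : Zb) ∈ 𝔪 →
          ∃ ρ : GalQ →* GL (Fin 2) (Zb ⧸ 𝔪), IsResidualRep N ε f ℓ 𝔪 ρ :=
  Iff.rfl

/-- weak Chebotarev: every element of `G_ℚ` agrees on `F` with a power of a Frobenius element at
a prime outside `S` -/
def StmtWeakCheb : Prop :=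
  ∀ (F : IntermediateField ℚ (AlgebraicClosure ℚ)) [FiniteDimensional ℚ F] [IsGalois ℚ F]
    (S : Finset ℕ) (σ : GalQ),
    ∃ (p : ℕ) (A : ValuationSubring (AlgebraicClosure ℚ)) (τ : GalQ) (m : ℕ),
      p.Prime ∧ p ∉ S ∧ A.LiesOverPrime p ∧ A.IsFrobeniusAt τ p ∧ ∀ x ∈ F, (τ ^ m) x = σ x

/-- Frobenius elements exist at every prime -/
def StmtFrobExists : Prop :=
  ∀ p : ℕ, p.Prime → ∃ (A : ValuationSubring (AlgebraicClosure ℚ)) (τ : GalQ),
    A.LiesOverPrime p ∧ A.IsFrobeniusAt τ p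

/-- reduction mod `𝔪` of a finite set of complex numbers -/
noncomputable def redSet (𝔪 : Ideal Zb) (Y : Finset ℂ) : Finset (Zb ⧸ 𝔪) :=
  letI : DecidableEq (Zb ⧸ 𝔪) := Classical.decEq _
  letI : DecidablePred fun y : ℂ => IsIntegral ℤ y := Classical.decPred _
  Y.image fun y => if h : IsIntegral ℤ y then Ideal.Quotient.mk 𝔪 ⟨y, h⟩ else 0

theorem card_redSet_le (𝔪 : Ideal Zb) (Y : Finset ℂ) : (redSet 𝔪 Y).card ≤ Y.card := by
  classical
  unfold redSet
  exact Finset.card_image_le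

theorem mk_mem_redSet (𝔪 : Ideal Zb) {Y : Finset ℂ} {a : Zb} (ha : (a : ℂ) ∈ Y) :
    Ideal.Quotient.mk 𝔪 a ∈ redSet 𝔪 Y := by
  classical
  unfold redSet
  rw [Finset.mem_image]
  refine ⟨(a : ℂ), ha, ?_⟩
  have h : IsIntegral ℤ (a : ℂ) := a.2
  rw [dif_pos h]

/-- the finite set of values of a Dirichlet character -/
noncomputable def charValues {N : ℕ} [NeZero N] (ε : DirichletCharacter ℂ N) : Finset ℂ :=
  letI : Fintype (ZMod N) := ZMod.fintype N
  letI : DecidableEq ℂ := Classical.decEq _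
  Finset.univ.image fun u : ZMod N => ε u

theorem mem_charValues {N : ℕ} [NeZero N] (ε : DirichletCharacter ℂ N) (u : ZMod N) :
    ε u ∈ charValues ε := by
  classical
  unfold charValues
  exact Finset.mem_image.mpr ⟨u, Finset.mem_univ _, rfl⟩

theorem card_charValues_le {N : ℕ} [NeZero N] (ε : DirichletCharacter ℂ N) :
    (charValues ε).card ≤ N := by
  classical
  unfold charValues
  refine Finset.card_image_le.trans ?_
  rw [Finset.card_univ, ZMod.card]

end Fermat.Agent.S48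


end ZBZ4S48_001_0
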