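/- GENERATED FILE (helper35, build-time optimisation, NOTES/ZB.md): verbatim concatenation of the modules
   Fermat.Agent.S48.E1.Plan
   Fermat.Agent.S48.E1.Asm
   Fermat.Agent.S48.E1.Zeta
   Fermat.Agent.S48.E1.RowQ
   Fermat.Agent.S48.E1.Gauss
   Do not edit; do not import together with these modules. -/
import Mathlib
import Fermat.Agent.ZB.S48_002

/-! ### bundled: `Fermat.Agent.S48.E1.Plan` -/
section ZBZ4S48_015_0

/-!
# S48 / E1: the weight one Eisenstein series on `Γ₁(ℓ)` — interface (definitions and statements)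

Route (helper56): division values of the Weierstrass `ζ`-function, NO division by theta functions.
For `(a, b) ∈ ℤ² ∖ N ℤ²` let `z₀ = (a τ + b)/N` and
`Z_{(a,b)}(τ) = ζ(z₀; ℤτ + ℤ) − (a η₁(τ) + b η₂(τ))/N`.
Summing the (absolutely convergent) lattice sum of `ζ` by rows and using Legendre's relation gives
`Z_{(a,b)}(τ) = 2πi a/N + ∑_{m ∈ ℤ} (π cot(π (z₀ − m τ)) + π cot(π m τ)) = e1Zrow N a b τ`.

* lattice sum  ⇒ `Z_{(a,b)}(γ τ) = (c τ + d) Z_{(a,b)γ}(τ)` and periodicity in `(a, b)` mod `N`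
  (`StmtE1Law`, `StmtE1Per`);
* row formula  ⇒ holomorphic, bounded at `i∞` (`StmtE1RowMDiff`, `StmtE1RowBdd`) and the
  `q`-expansion for `a = 0` (`StmtE1RowQ`);
* `E = (ℓ / 2πi G) ∑_b ψ⁻¹(b) Z_{(0,b)}` has nebentypus `ψ` and `q`-expansion
  `∑_j j ψ(j) − 2ℓ ∑_n (∑_{d ∣ n} ψ(d)) qⁿ` (`StmtE1Gauss`), which for `ψ = ω⁻¹` is integral with
  constant term `≡ −1` and all other coefficients `≡ 0` mod `𝔪` (`StmtE1Teich`).
-/

set_option autoImplicit false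

open Complex CongruenceSubgroup
open UpperHalfPlane hiding I
open scoped Real MatrixGroups Manifold

noncomputable section

namespace Fermat.Agent.S48

/-- the torsion point `(a τ + b)/N` -/
def e1Pt (N : ℕ) (a b : ℤ) (τ : ℂ) : ℂ := ((a : ℂ) * τ + (b : ℂ)) / (N : ℂ)

/-- the `m`-th row `π cot(π (z₀ − m τ)) + π cot(π m τ)` (for `m = 0` the second term is `0`,
because `Complex.cot 0 = 0` in Lean) -/
def e1Row (N : ℕ) (a b : ℤ) (τ : ℂ) (m : ℤ) : ℂ :=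
  π * Complex.cot (π * (e1Pt N a b τ - (m : ℂ) * τ)) + π * Complex.cot (π * ((m : ℂ) * τ))

/-- the division value `Z_{(a,b)}(τ)` of the Weierstrass `ζ`-function, in row form -/
def e1Zrow (N : ℕ) (a b : ℤ) (τ : ℂ) : ℂ :=
  2 * π * I * (a : ℂ) / (N : ℂ) + ∑' m : ℤ, e1Row N a b τ m

/-- the `q`-expansion coefficients of `Z_{(0,b)}` -/
def e1Coeff (N : ℕ) (b : ℤ) (n : ℕ) : ℂ :=
  if n = 0 then π * Complex.cot (π * (b : ℂ) / (N : ℂ))
  else 2 * π * I * ∑ k ∈ n.divisors,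
    (cexp (-(2 * π * I * (b : ℂ) * (k : ℂ) / (N : ℂ))) - cexp (2 * π * I * (b : ℂ) * (k : ℂ) / (N : ℂ)))

/-- the `q`-expansion coefficients of the integrally normalised Eisenstein series with
nebentypus `ψ`: `∑_j j ψ(j)` and `−2ℓ ∑_{d ∣ n} ψ(d)` -/
def e1IntCoeff (ℓ : ℕ) [NeZero ℓ] (ψ : DirichletCharacter ℂ ℓ) (n : ℕ) : ℂ :=
  if n = 0 then ∑ j : ZMod ℓ, ((j.val : ℕ) : ℂ) * ψ j
  else -(2 * (ℓ : ℂ)) * ∑ d ∈ n.divisors, ψ ((d : ℕ) : ZMod ℓ)

/-! ### The pieces -/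

/-- (E1-law) the transformation law of the division values under `SL₂(ℤ)`. -/
def StmtE1Law : Prop :=
  ∀ (N : ℕ) [NeZero N] (a b : ℤ), ¬ ((N : ℤ) ∣ a ∧ (N : ℤ) ∣ b) → ∀ (γ : SL(2, ℤ)) (τ : ℍ),
    e1Zrow N a b ((γ • τ : ℍ) : ℂ) =
      ((γ 1 0 : ℂ) * (τ : ℂ) + (γ 1 1 : ℂ)) *
        e1Zrow N (a * γ 0 0 + b * γ 1 0) (a * γ 0 1 + b * γ 1 1) (τ : ℂ)

/-- (E1-per) the division values only depend on `(a, b)` modulo `N`. -/
def StmtE1Per : Prop :=
  ∀ (N : ℕ) [NeZero N] (a b k l : ℤ), ¬ ((N : ℤ) ∣ a ∧ (N : ℤ) ∣ b) → ∀ τ : ℍ,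
    e1Zrow N (a + N * k) (b + N * l) (τ : ℂ) = e1Zrow N a b (τ : ℂ)

/-- (E1-mdiff) the division values are holomorphic on the upper half plane. -/
def StmtE1RowMDiff : Prop :=
  ∀ (N : ℕ) [NeZero N] (a b : ℤ), 0 ≤ a → a < N → ¬ ((N : ℤ) ∣ a ∧ (N : ℤ) ∣ b) →
    MDifferentiable 𝓘(ℂ) 𝓘(ℂ) (fun τ : ℍ => e1Zrow N a b (τ : ℂ))

/-- (E1-bdd) the division values are bounded at `i∞`. -/
def StmtE1RowBdd : Prop :=
  ∀ (N : ℕ) [NeZero N] (a b : ℤ), 0 ≤ a → a < N → ¬ ((N : ℤ) ∣ a ∧ (N : ℤ) ∣ b) →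
    IsBoundedAtImInfty (fun τ : ℍ => e1Zrow N a b (τ : ℂ))

/-- (E1-q) the `q`-expansion of `Z_{(0,b)}`. -/
def StmtE1RowQ : Prop :=
  ∀ (N : ℕ) [NeZero N] (b : ℤ), ¬ (N : ℤ) ∣ b → ∀ τ : ℍ,
    HasSum (fun n : ℕ => e1Coeff N b n * cexp (2 * π * I * (τ : ℂ)) ^ n) (e1Zrow N 0 b (τ : ℂ))

/-- (E1-gauss) finite Fourier analysis: the `ψ⁻¹`-combination of the coefficients of the
`Z_{(0,b)}` is a nonzero multiple (Gauss sum) of the integral coefficients. -/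
def StmtE1Gauss : Prop :=
  ∀ (ℓ : ℕ) [NeZero ℓ], ℓ.Prime → ∀ ψ : DirichletCharacter ℂ ℓ, ψ (-1) = -1 →
    ∃ G : ℂ, G ≠ 0 ∧ ∀ n : ℕ,
      ∑ b : ZMod ℓ, ψ⁻¹ b * e1Coeff ℓ ((b.val : ℕ) : ℤ) n =
        2 * π * I * G / (ℓ : ℂ) * e1IntCoeff ℓ ψ n

/-- (E1-teich) the inverse `ψ = ω⁻¹` of the Teichmüller character of `𝔪`: it is odd, its values
are algebraic integers with `a ψ(a) ≡ 1` mod `𝔪`, and the integral coefficients are algebraic
integers, the constant one a unit mod `𝔪`, the others in `𝔪`. -/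
def StmtE1Teich : Prop :=
  ∀ (ℓ : ℕ) [NeZero ℓ], ℓ.Prime → 3 ≤ ℓ → ∀ 𝔪 : Ideal Zb, 𝔪.IsMaximal → ((ℓ : ℕ) : Zb) ∈ 𝔪 →
    ∃ (ψ : DirichletCharacter ℂ ℓ) (c : ℕ → Zb), ψ (-1) = -1 ∧
      (∀ a : ℕ, ¬ ℓ ∣ a → ∃ w : Zb, (w : ℂ) = ψ (a : ZMod ℓ) ∧ (a : Zb) * w - 1 ∈ 𝔪) ∧
      (∀ n : ℕ, (c n : ℂ) = e1IntCoeff ℓ ψ n) ∧ c 0 ∉ 𝔪 ∧ ∀ n : ℕ, n ≠ 0 → c n ∈ 𝔪

/-- (E1-asm) the assembly. -/
def StmtE1OfPieces : Prop :=
  StmtE1Law → StmtE1Per → StmtE1RowMDiff → StmtE1RowBdd → StmtE1RowQ → StmtE1Gauss →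
    StmtE1Teich → StmtE1

end Fermat.Agent.S48

end
end ZBZ4S48_015_0

/-! ### bundled: `Fermat.Agent.S48.E1.Asm` -/
section ZBZ4S48_015_1

/-!
# S48 / E1-asm: assembly of the weight one Eisenstein series

`stmtE1OfPieces : StmtE1OfPieces`: from the transformation law and the periodicity of the
division values `Z_{(a,b)} = e1Zrow N a b`, their holomorphy and boundedness at `i∞`, the
`q`-expansion of `Z_{(0,b)}`, the Gauss sum identity and the Teichmüller character, the modular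
form `E = (ℓ / 2πi G) ∑_b ψ⁻¹(b) Z_{(0,b)}` of weight one on `Γ₁(ℓ)`.
-/

set_option autoImplicit false

open Complex Filter Topology CongruenceSubgroup ModularForm
open UpperHalfPlane hiding I
open scoped Real MatrixGroups Manifold

noncomputable section

namespace Fermat.Agent.S48

/-- congruent indices give the same division value -/
theorem e1a_congr (hPer : StmtE1Per) (N : ℕ) [NeZero N] {a₁ b₁ a₂ b₂ : ℤ}
    (ha : (N : ℤ) ∣ a₁ - a₂) (hb : (N : ℤ) ∣ b₁ - b₂)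
    (h : ¬ ((N : ℤ) ∣ a₂ ∧ (N : ℤ) ∣ b₂)) (τ : ℍ) :
    e1Zrow N a₁ b₁ (τ : ℂ) = e1Zrow N a₂ b₂ (τ : ℂ) := by
  obtain ⟨k, hk⟩ := ha
  obtain ⟨l, hl⟩ := hb
  have := hPer N a₂ b₂ k l h τ
  rw [← this]
  congr 1 <;> linarith

theorem e1a_not_dvd_act (N : ℕ) (b : ℤ) (hb : ¬ (N : ℤ) ∣ b) (δ : SL(2, ℤ)) :
    ¬ ((N : ℤ) ∣ b * δ 1 0 ∧ (N : ℤ) ∣ b * δ 1 1) := by
  rintro ⟨h1, h2⟩
  apply hb
  have hdet : δ 0 0 * δ 1 1 - δ 0 1 * δ 1 0 = 1 := by
    have := δ.2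
    rwa [Matrix.det_fin_two] at this
  have : b = (b * δ 1 1) * δ 0 0 - (b * δ 1 0) * δ 0 1 := by
    linear_combination -b * hdet
  rw [this]
  exact dvd_sub (Dvd.dvd.mul_right h2 _) (Dvd.dvd.mul_right h1 _)

theorem e1a_not_dvd_zero (N : ℕ) (b : ℤ) (hb : ¬ (N : ℤ) ∣ b) :
    ¬ ((N : ℤ) ∣ 0 ∧ (N : ℤ) ∣ b) := fun h => hb h.2

/-- the slash action on a division value -/
theorem e1a_slash (hLaw : StmtE1Law) (N : ℕ) [NeZero N] (b : ℤ) (hb : ¬ (N : ℤ) ∣ b)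
    (δ : SL(2, ℤ)) :
    (fun τ : ℍ => e1Zrow N 0 b (τ : ℂ)) ∣[(1 : ℤ)] δ =
      fun τ : ℍ => e1Zrow N (b * δ 1 0) (b * δ 1 1) (τ : ℂ) := by
  funext τ
  rw [SL_slash_apply, hLaw N 0 b (e1a_not_dvd_zero N b hb) δ τ]
  have hd : denom δ τ = (δ 1 0 : ℂ) * (τ : ℂ) + (δ 1 1 : ℂ) := by
    rw [ModularGroup.denom_apply]
  have hne : (δ 1 0 : ℂ) * (τ : ℂ) + (δ 1 1 : ℂ) ≠ 0 := by
    rw [← hd]
    exact denom_ne_zero δ τ
  rw [hd, zero_mul, zero_add, zero_mul, zero_add, zpow_neg, zpow_one]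
  field_simp

theorem e1a_T_mem_Gamma1 (N : ℕ) : ModularGroup.T ∈ Gamma1 N := by
  rw [Gamma1_mem]
  simp [ModularGroup.T]

theorem e1a_one_mem_strictPeriods (N : ℕ) :
    (1 : ℝ) ∈ ((Gamma1 N : Subgroup SL(2, ℤ)) : Subgroup (GL (Fin 2) ℝ)).strictPeriods := by
  rw [Subgroup.strictPeriods_eq_zmultiples_one_of_T_mem (e1a_T_mem_Gamma1 N)]
  exact AddSubgroup.mem_zmultiples 1

/-- the division value `Z_{(0,b)}` as a modular form of weight one on `Γ₁(N)` -/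
def e1aForm (hLaw : StmtE1Law) (hPer : StmtE1Per) (hMD : StmtE1RowMDiff) (hBdd : StmtE1RowBdd)
    (N : ℕ) [NeZero N] (b : ℤ) (hb : ¬ (N : ℤ) ∣ b) : ModularForm (Gamma1 N) 1 where
  toFun τ := e1Zrow N 0 b (τ : ℂ)
  slash_action_eq' := by
    rintro _ ⟨γ, hγ, rfl⟩
    change (fun τ : ℍ => e1Zrow N 0 b (τ : ℂ)) ∣[(1 : ℤ)] γ = _
    rw [e1a_slash hLaw N b hb γ]
    funext τ
    obtain ⟨-, h11, h10⟩ := (Gamma1_mem N γ).mp hγ
    refine e1a_congr hPer N ?_ ?_ (e1a_not_dvd_zero N b hb) τ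
    · rw [sub_zero]
      exact Dvd.dvd.mul_left ((ZMod.intCast_zmod_eq_zero_iff_dvd _ N).mp h10) b
    · have : (N : ℤ) ∣ γ 1 1 - 1 := by
        rw [← ZMod.intCast_zmod_eq_zero_iff_dvd]
        push_cast
        rw [h11, sub_self]
      have h2 : b * γ 1 1 - b = b * (γ 1 1 - 1) := by ring
      rw [h2]
      exact Dvd.dvd.mul_left this b
  holo' := hMD N 0 b le_rfl (by exact_mod_cast Nat.pos_of_ne_zero (NeZero.ne N))
    (e1a_not_dvd_zero N b hb)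
  bdd_at_cusps' := by
    intro c hc
    rw [Subgroup.IsArithmetic.isCusp_iff_isCusp_SL2Z] at hc
    rw [OnePoint.isBoundedAt_iff_forall_SL2Z hc]
    intro δ _
    rw [e1a_slash hLaw N b hb δ]
    have hN : (0 : ℤ) < N := by exact_mod_cast Nat.pos_of_ne_zero (NeZero.ne N)
    have hnd := e1a_not_dvd_act N b hb δ
    have hnd' : ¬ ((N : ℤ) ∣ (b * δ 1 0) % N ∧ (N : ℤ) ∣ b * δ 1 1) := by
      rintro ⟨h1, h2⟩
      exact hnd ⟨(Int.dvd_iff_emod_eq_zero).mpr (by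
        have := (Int.dvd_iff_emod_eq_zero).mp h1
        rwa [Int.emod_emod_of_dvd _ (dvd_refl _)] at this), h2⟩
    have hb := hBdd N ((b * δ 1 0) % N) (b * δ 1 1) (Int.emod_nonneg _ hN.ne')
      (Int.emod_lt_of_pos _ hN) hnd'
    have heq : (fun τ : ℍ => e1Zrow N (b * δ 1 0) (b * δ 1 1) (τ : ℂ)) =
        fun τ : ℍ => e1Zrow N ((b * δ 1 0) % N) (b * δ 1 1) (τ : ℂ) := by
      funext τ
      refine e1a_congr hPer N ?_ ?_ hnd' τ
      · exact ⟨(b * δ 1 0) / N, by have := Int.emod_add_mul_ediv (b * δ 1 0) N; linarith⟩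
      · simp
    rw [heq]
    exact hb


theorem e1aForm_apply (hLaw : StmtE1Law) (hPer : StmtE1Per) (hMD : StmtE1RowMDiff)
    (hBdd : StmtE1RowBdd) (N : ℕ) [NeZero N] (b : ℤ) (hb : ¬ (N : ℤ) ∣ b) (τ : ℍ) :
    e1aForm hLaw hPer hMD hBdd N b hb τ = e1Zrow N 0 b (τ : ℂ) := rfl

theorem e1a_dvd_val_iff (N : ℕ) [NeZero N] (b : ZMod N) :
    (N : ℤ) ∣ ((b.val : ℕ) : ℤ) ↔ b = 0 := by
  rw [← ZMod.intCast_zmod_eq_zero_iff_dvd]
  push_cast
  rw [ZMod.natCast_zmod_val]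

/-- the family `b ↦ Z_{(0,b)}` indexed by `ZMod N` (zero for `b = 0`) -/
def e1aFam (hLaw : StmtE1Law) (hPer : StmtE1Per) (hMD : StmtE1RowMDiff) (hBdd : StmtE1RowBdd)
    (N : ℕ) [NeZero N] (b : ZMod N) : ModularForm (Gamma1 N) 1 :=
  if h : (N : ℤ) ∣ ((b.val : ℕ) : ℤ) then 0 else e1aForm hLaw hPer hMD hBdd N _ h

theorem e1aFam_zero (hLaw : StmtE1Law) (hPer : StmtE1Per) (hMD : StmtE1RowMDiff)
    (hBdd : StmtE1RowBdd) (N : ℕ) [NeZero N] : e1aFam hLaw hPer hMD hBdd N 0 = 0 := by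
  unfold e1aFam
  rw [dif_pos ((e1a_dvd_val_iff N 0).mpr rfl)]

theorem e1aFam_apply (hLaw : StmtE1Law) (hPer : StmtE1Per) (hMD : StmtE1RowMDiff)
    (hBdd : StmtE1RowBdd) (N : ℕ) [NeZero N] (b : ZMod N) (hb : b ≠ 0) (τ : ℍ) :
    e1aFam hLaw hPer hMD hBdd N b τ = e1Zrow N 0 ((b.val : ℕ) : ℤ) (τ : ℂ) := by
  unfold e1aFam
  rw [dif_neg (fun h => hb ((e1a_dvd_val_iff N b).mp h))]
  rfl

theorem e1a_sum_apply {ι : Type*} (s : Finset ι) (N : ℕ) (f : ι → ModularForm (Gamma1 N) 1)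
    (τ : ℍ) : (∑ i ∈ s, f i) τ = ∑ i ∈ s, f i τ := by
  classical
  induction s using Finset.induction_on with
  | empty => simp
  | insert a s ha ih =>
    rw [Finset.sum_insert ha, Finset.sum_insert ha, ← ih]
    rfl

/-- the lower right entry of an element of `Γ₀(N)` is a unit modulo `N` -/
theorem e1a_isUnit_d (N : ℕ) (γ : SL(2, ℤ)) (hγ : γ ∈ Gamma0 N) :
    IsUnit (((γ 1 1 : ℤ) : ZMod N)) := by
  have hdet : γ 0 0 * γ 1 1 - γ 0 1 * γ 1 0 = 1 := by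
    have := γ.2
    rwa [Matrix.det_fin_two] at this
  have h10 : ((γ 1 0 : ℤ) : ZMod N) = 0 := Gamma0_mem.mp hγ
  have h := congrArg (Int.cast : ℤ → ZMod N) hdet
  push_cast at h
  rw [h10, mul_zero, sub_zero] at h
  exact IsUnit.of_mul_eq_one _ (by rw [mul_comm]; exact h)

/-- the action of `Γ₀(N)` on the family -/
theorem e1aFam_smul (hLaw : StmtE1Law) (hPer : StmtE1Per) (hMD : StmtE1RowMDiff)
    (hBdd : StmtE1RowBdd) (N : ℕ) [NeZero N] (γ : SL(2, ℤ)) (hγ : γ ∈ Gamma0 N)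
    (b : ZMod N) (τ : ℍ) :
    e1aFam hLaw hPer hMD hBdd N b (γ • τ) =
      ((γ 1 0 : ℂ) * (τ : ℂ) + (γ 1 1 : ℂ)) *
        e1aFam hLaw hPer hMD hBdd N (b * ((γ 1 1 : ℤ) : ZMod N)) τ := by
  by_cases hb : b = 0
  · subst hb
    rw [zero_mul, e1aFam_zero]
    simp
  · have hu := e1a_isUnit_d N γ hγ
    have hbd : b * ((γ 1 1 : ℤ) : ZMod N) ≠ 0 := by
      intro h
      apply hb
      have := congrArg (· * (hu.unit⁻¹ : (ZMod N)ˣ).1) h
      simpa [mul_assoc] using this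
    rw [e1aFam_apply _ _ _ _ N b hb, e1aFam_apply _ _ _ _ N _ hbd]
    have hnd : ¬ (N : ℤ) ∣ ((b.val : ℕ) : ℤ) := fun h => hb ((e1a_dvd_val_iff N b).mp h)
    have hnd' : ¬ (N : ℤ) ∣ (((b * ((γ 1 1 : ℤ) : ZMod N)).val : ℕ) : ℤ) :=
      fun h => hbd ((e1a_dvd_val_iff N _).mp h)
    rw [hLaw N 0 _ (e1a_not_dvd_zero N _ hnd) γ τ, zero_mul, zero_add, zero_mul, zero_add]
    congr 1
    refine e1a_congr hPer N ?_ ?_ (e1a_not_dvd_zero N _ hnd') τ
    · rw [sub_zero]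
      exact Dvd.dvd.mul_left ((ZMod.intCast_zmod_eq_zero_iff_dvd _ N).mp (Gamma0_mem.mp hγ)) _
    · rw [← ZMod.intCast_zmod_eq_zero_iff_dvd]
      push_cast
      rw [ZMod.natCast_zmod_val, ZMod.natCast_zmod_val, sub_self]


/-- **E1-asm**: the weight one Eisenstein series from its pieces. -/
theorem stmtE1OfPieces : StmtE1OfPieces := by
  intro hLaw hPer hMD hBdd hQ hGauss hTeich ℓ _ hℓ h5 𝔪 h𝔪 hℓ𝔪
  have : Fact ℓ.Prime := ⟨hℓ⟩
  obtain ⟨ψ, c, hodd, hteich, hc, hc0, hcn⟩ := hTeich ℓ hℓ (by omega) 𝔪 h𝔪 hℓ𝔪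
  obtain ⟨G, hG, hGs⟩ := hGauss ℓ hℓ ψ hodd
  have hℓ0 : (ℓ : ℂ) ≠ 0 := Nat.cast_ne_zero.mpr hℓ.ne_zero
  have hπ : (π : ℂ) ≠ 0 := by exact_mod_cast Real.pi_ne_zero
  set K : ℂ := (ℓ : ℂ) / (2 * π * I * G) with hK
  have hK1 : K * (2 * π * I * G / ℓ) = 1 := by
    rw [hK]
    field_simp [Complex.I_ne_zero]
  set Fam : ZMod ℓ → ModularForm (Gamma1 ℓ) 1 := e1aFam hLaw hPer hMD hBdd ℓ with hFam
  set E : ModularForm (Gamma1 ℓ) 1 := K • ∑ b : ZMod ℓ, ψ⁻¹ b • Fam b with hEdef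
  have hE : ∀ τ : ℍ, E τ = K * ∑ b : ZMod ℓ, ψ⁻¹ b * Fam b τ := by
    intro τ
    have h1 : E τ = K • ((∑ b : ZMod ℓ, ψ⁻¹ b • Fam b) τ) := rfl
    rw [h1, e1a_sum_apply, smul_eq_mul]
    rfl
  refine ⟨ψ, E, c, hteich, ?_, ?_, hc0, hcn⟩
  · -- nebentypus
    intro γ hγ z
    rw [hE, hE, pow_one]
    simp_rw [hFam, e1aFam_smul hLaw hPer hMD hBdd ℓ γ hγ]
    rw [← hFam]
    set d : ZMod ℓ := ((γ 1 1 : ℤ) : ZMod ℓ) with hd
    have hu : IsUnit d := e1a_isUnit_d ℓ γ hγ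
    have hψd : ψ d ≠ 0 := (IsUnit.map ψ hu).ne_zero
    have h1 : ∀ b : ZMod ℓ, ψ⁻¹ b = ψ d * ψ⁻¹ (b * d) := by
      intro b
      rw [MulChar.inv_apply_eq_inv', MulChar.inv_apply_eq_inv', map_mul, mul_inv]
      field_simp
    have h2 : ∑ b : ZMod ℓ, ψ⁻¹ (b * d) * Fam (b * d) z = ∑ b : ZMod ℓ, ψ⁻¹ b * Fam b z :=
      Fintype.sum_equiv (Units.mulRight hu.unit) (fun b => ψ⁻¹ (b * d) * Fam (b * d) z)
        (fun b => ψ⁻¹ b * Fam b z) (fun b => rfl)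
    have h3 : ∑ b : ZMod ℓ, ψ⁻¹ b * (((γ 1 0 : ℂ) * (z : ℂ) + (γ 1 1 : ℂ)) * Fam (b * d) z) =
        ψ d * ((γ 1 0 : ℂ) * (z : ℂ) + (γ 1 1 : ℂ)) *
          ∑ b : ZMod ℓ, ψ⁻¹ (b * d) * Fam (b * d) z := by
      rw [Finset.mul_sum]
      refine Finset.sum_congr rfl fun b _ => ?_
      rw [h1 b]
      ring
    rw [h3, h2]
    ring
  · -- the `q`-expansion
    intro n
    rw [hc n]
    refine ModularFormClass.qExpansion_coeff_unique (f := E) (c := e1IntCoeff ℓ ψ) one_pos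
      (e1a_one_mem_strictPeriods ℓ) (fun τ => ?_) n
    have hq : Function.Periodic.qParam 1 (τ : ℂ) = cexp (2 * π * I * τ) := by
      simp [Function.Periodic.qParam]
    rw [hq, hE]
    have hterm : ∀ b ∈ (Finset.univ : Finset (ZMod ℓ)),
        HasSum (fun m : ℕ => ψ⁻¹ b * (e1Coeff ℓ ((b.val : ℕ) : ℤ) m * cexp (2 * π * I * τ) ^ m))
          (ψ⁻¹ b * Fam b τ) := by
      intro b _
      by_cases hb : b = 0
      · subst hb
        have h0 : ψ⁻¹ (0 : ZMod ℓ) = 0 := MulChar.map_zero _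
        simp only [h0, zero_mul]
        exact hasSum_zero
      · rw [hFam, e1aFam_apply _ _ _ _ ℓ b hb]
        exact (hQ ℓ _ (fun h => hb ((e1a_dvd_val_iff ℓ b).mp h)) τ).mul_left _
    have hsum := (hasSum_sum hterm).mul_left K
    refine hsum.congr_fun ?_
    intro m
    rw [smul_eq_mul, ← one_mul (e1IntCoeff ℓ ψ m), ← hK1, mul_assoc K, ← hGs m, mul_assoc K,
      Finset.sum_mul]
    congr 1
    refine Finset.sum_congr rfl fun b _ => ?_
    ring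

end Fermat.Agent.S48

end
end ZBZ4S48_015_1

/-! ### bundled: `Fermat.Agent.S48.E1.Zeta` -/
section ZBZ4S48_015_2

/-!
# S48 / E1-zeta: the Weierstrass `ζ`-function of `ℤ τ + ℤ` as a lattice sum

* `e1Zeta τ z = ∑_{(m,n)} (1/(z - w) + 1/w + z/w²)`, `w = m τ + n` (absolutely convergent);
* homogeneity `e1Zeta (γ τ) (z / (c τ + d)) = (c τ + d) e1Zeta τ z` (`e1Zeta_smul`);
* rows: `e1Zeta τ z = ∑_m (π cot(π (z - m τ)) + π cot(π m τ) + z · e2Summand m τ)`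
  (`e1Zeta_hasSum_rows`);
* quasi-periods `η₂ = ∑_m e2Summand m τ`, `η₁ = τ η₂ - 2πi` (Legendre, by telescoping)
  (`e1Zeta_add_lattice`);
* `stmtE1Law : StmtE1Law`, `stmtE1Per : StmtE1Per`.
-/

set_option autoImplicit false

open Complex Filter Topology
open UpperHalfPlane hiding I
open scoped Real MatrixGroups

noncomputable section

namespace Fermat.Agent.S48


/-- the lattice point `m τ + n` -/
def e1W (τ : ℂ) (p : ℤ × ℤ) : ℂ := (p.1 : ℂ) * τ + (p.2 : ℂ)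

/-- the summand of the Weierstrass `ζ`-function (for `p = 0` it is `1/z`, as `1/0 = 0`) -/
def e1Term (τ z : ℂ) (p : ℤ × ℤ) : ℂ :=
  1 / (z - e1W τ p) + 1 / e1W τ p + z / e1W τ p ^ 2

/-- the Weierstrass `ζ`-function of the lattice `ℤ τ + ℤ` -/
def e1Zeta (τ z : ℂ) : ℂ := ∑' p : ℤ × ℤ, e1Term τ z p

theorem e1Term_eq {τ z : ℂ} {p : ℤ × ℤ} (hw : e1W τ p ≠ 0) (hz : z - e1W τ p ≠ 0) :
    e1Term τ z p = z ^ 2 / (e1W τ p ^ 2 * (z - e1W τ p)) := by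
  unfold e1Term
  field_simp
  ring

theorem e1W_eq_zero_iff (τ : ℍ) (p : ℤ × ℤ) : e1W τ p = 0 ↔ p = 0 := by
  constructor
  · intro h
    have him := congrArg Complex.im h
    have hre := congrArg Complex.re h
    simp only [e1W, add_im, mul_im, intCast_re, intCast_im, zero_mul, add_zero, zero_im,
      add_re, mul_re, sub_zero, zero_re, UpperHalfPlane.coe_im, UpperHalfPlane.coe_re] at him hre
    have h1 : (p.1 : ℝ) = 0 := by
      rcases mul_eq_zero.mp him with h | h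
      · exact h
      · exact absurd h τ.im_ne_zero
    rw [h1, zero_mul, zero_add] at hre
    ext
    · exact_mod_cast h1
    · exact_mod_cast hre
  · rintro rfl
    simp [e1W]

theorem e1W_norm_ge (τ : ℍ) (p : ℤ × ℤ) :
    EisensteinSeries.r τ * ‖(![p.1, p.2] : Fin 2 → ℤ)‖ ≤ ‖e1W τ p‖ := by
  by_cases hp : (![p.1, p.2] : Fin 2 → ℤ) = 0
  · rw [hp, norm_zero, mul_zero]
    exact norm_nonneg _
  · have := EisensteinSeries.r_mul_max_le τ hp
    simpa [e1W] using this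

theorem e1Term_summable (τ : ℍ) (z : ℂ) : Summable (e1Term τ z) := by
  rw [← (finTwoArrowEquiv ℤ).summable_iff]
  set r := EisensteinSeries.r τ with hr
  have hrpos : 0 < r := EisensteinSeries.r_pos τ
  have hg : Summable fun x : Fin 2 → ℤ => 2 * ‖z‖ ^ 2 * r ^ (-3 : ℝ) * ‖x‖ ^ (-3 : ℝ) :=
    (EisensteinSeries.summable_one_div_norm_rpow (k := 3) (by norm_num)).mul_left _
  refine Summable.of_norm_bounded_eventually hg ?_
  have hcof : ∀ᶠ x : Fin 2 → ℤ in cofinite, 2 * ‖z‖ / r + 1 ≤ ‖x‖ := by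
    have h1 := tendsto_norm_cocompact_atTop (E := Fin 2 → ℤ)
    rw [cocompact_eq_cofinite] at h1
    exact h1.eventually (eventually_ge_atTop _)
  filter_upwards [hcof] with x hx
  have hxpos : 0 < ‖x‖ := lt_of_lt_of_le (by positivity) hx
  have hx0 : x ≠ 0 := by
    rintro rfl
    simp at hxpos
  set p : ℤ × ℤ := finTwoArrowEquiv ℤ x with hp
  have hxp : (![p.1, p.2] : Fin 2 → ℤ) = x := by
    ext i
    fin_cases i <;> simp [hp, finTwoArrowEquiv]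
  have hw := e1W_norm_ge τ p
  rw [hxp] at hw
  have hwpos : 0 < ‖e1W τ p‖ := lt_of_lt_of_le (by positivity) hw
  have hw0 : e1W τ p ≠ 0 := norm_pos_iff.mp hwpos
  have hzw : 2 * ‖z‖ < ‖e1W τ p‖ := by
    have h2 : 2 * ‖z‖ / r + 1 ≤ ‖x‖ := hx
    have h3 : 2 * ‖z‖ + r ≤ r * ‖x‖ := by
      have := mul_le_mul_of_nonneg_left h2 hrpos.le
      rw [mul_add, mul_div_cancel₀ _ hrpos.ne', mul_one] at this
      exact this
    linarith
  have hdiff : ‖e1W τ p‖ / 2 ≤ ‖z - e1W τ p‖ := by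
    have := norm_sub_norm_le (e1W τ p) z
    rw [norm_sub_rev] at this
    have hz0 : 0 ≤ ‖z‖ := norm_nonneg _
    linarith
  have hdpos : 0 < ‖z - e1W τ p‖ := lt_of_lt_of_le (by positivity) hdiff
  have hzne : z - e1W τ p ≠ 0 := norm_pos_iff.mp hdpos
  show ‖e1Term τ z p‖ ≤ _
  rw [e1Term_eq hw0 hzne, norm_div, norm_mul, norm_pow, norm_pow]
  rw [div_le_iff₀ (by positivity)]
  have hrx : (r * ‖x‖) ^ 3 ≤ ‖e1W τ p‖ ^ 3 := pow_le_pow_left₀ (by positivity) hw 3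
  have hx3 : ‖x‖ ^ (-3 : ℝ) = (‖x‖ ^ 3)⁻¹ := by
    rw [Real.rpow_neg hxpos.le]
    norm_cast
  have hr3 : r ^ (-3 : ℝ) = (r ^ 3)⁻¹ := by
    rw [Real.rpow_neg hrpos.le]
    norm_cast
  rw [hx3, hr3]
  have h5 : ‖e1W τ p‖ ^ 3 / 2 ≤ ‖e1W τ p‖ ^ 2 * ‖z - e1W τ p‖ := by
    have := mul_le_mul_of_nonneg_left hdiff (sq_nonneg ‖e1W τ p‖)
    calc ‖e1W τ p‖ ^ 3 / 2 = ‖e1W τ p‖ ^ 2 * (‖e1W τ p‖ / 2) := by ring
      _ ≤ _ := this
  have h6 : 2 * ‖z‖ ^ 2 * (r ^ 3)⁻¹ * (‖x‖ ^ 3)⁻¹ * ((r * ‖x‖) ^ 3 / 2) = ‖z‖ ^ 2 := by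
    field_simp
  calc ‖z‖ ^ 2 = 2 * ‖z‖ ^ 2 * (r ^ 3)⁻¹ * (‖x‖ ^ 3)⁻¹ * ((r * ‖x‖) ^ 3 / 2) := h6.symm
    _ ≤ 2 * ‖z‖ ^ 2 * (r ^ 3)⁻¹ * (‖x‖ ^ 3)⁻¹ * (‖e1W τ p‖ ^ 2 * ‖z - e1W τ p‖) := by
        apply mul_le_mul_of_nonneg_left _ (by positivity)
        exact le_trans (by linarith) h5


/-! ### Homogeneity: the action of `SL₂(ℤ)` -/

/-- the right action of `γ` on row vectors, as a permutation of `ℤ × ℤ` -/
def e1Act (γ : SL(2, ℤ)) : ℤ × ℤ ≃ ℤ × ℤ where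
  toFun p := (p.1 * γ 0 0 + p.2 * γ 1 0, p.1 * γ 0 1 + p.2 * γ 1 1)
  invFun p := (p.1 * γ 1 1 - p.2 * γ 1 0, -(p.1 * γ 0 1) + p.2 * γ 0 0)
  left_inv p := by
    have hdet : γ 0 0 * γ 1 1 - γ 0 1 * γ 1 0 = 1 := by
      have := γ.2
      rwa [Matrix.det_fin_two] at this
    ext
    · simp only
      linear_combination p.1 * hdet
    · simp only
      linear_combination p.2 * hdet
  right_inv p := by
    have hdet : γ 0 0 * γ 1 1 - γ 0 1 * γ 1 0 = 1 := by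
      have := γ.2
      rwa [Matrix.det_fin_two] at this
    ext
    · simp only
      linear_combination p.1 * hdet
    · simp only
      linear_combination p.2 * hdet

theorem e1Act_apply (γ : SL(2, ℤ)) (p : ℤ × ℤ) :
    e1Act γ p = (p.1 * γ 0 0 + p.2 * γ 1 0, p.1 * γ 0 1 + p.2 * γ 1 1) := rfl

/-- the automorphy factor `c τ + d` -/
def e1J (γ : SL(2, ℤ)) (τ : ℂ) : ℂ := (γ 1 0 : ℂ) * τ + (γ 1 1 : ℂ)

theorem e1J_ne_zero (γ : SL(2, ℤ)) (τ : ℍ) : e1J γ τ ≠ 0 := by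
  have h := UpperHalfPlane.denom_ne_zero γ τ
  rwa [ModularGroup.denom_apply] at h

theorem e1_coe_smul (γ : SL(2, ℤ)) (τ : ℍ) :
    ((γ • τ : ℍ) : ℂ) = ((γ 0 0 : ℂ) * τ + (γ 0 1 : ℂ)) / e1J γ τ := by
  rw [UpperHalfPlane.coe_specialLinearGroup_apply]
  simp [e1J]

theorem e1W_smul (γ : SL(2, ℤ)) (τ : ℍ) (p : ℤ × ℤ) :
    e1W ((γ • τ : ℍ) : ℂ) p = e1W τ (e1Act γ p) / e1J γ τ := by
  have hj := e1J_ne_zero γ τ
  rw [e1_coe_smul, e1Act_apply]
  unfold e1W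
  simp only
  push_cast
  field_simp
  unfold e1J
  ring

theorem e1_div_div_sq (a b j : ℂ) (hj : j ≠ 0) : a / j / (b / j) ^ 2 = j * (a / b ^ 2) := by
  by_cases hb : b = 0
  · simp [hb]
  · field_simp

theorem e1Term_smul (γ : SL(2, ℤ)) (τ : ℍ) (z : ℂ) (p : ℤ × ℤ) :
    e1Term ((γ • τ : ℍ) : ℂ) (z / e1J γ τ) p = e1J γ τ * e1Term τ z (e1Act γ p) := by
  have hj := e1J_ne_zero γ τ
  unfold e1Term
  rw [e1W_smul, ← sub_div, one_div_div, one_div_div, e1_div_div_sq _ _ _ hj]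
  ring

/-- homogeneity of `ζ` -/
theorem e1Zeta_smul (γ : SL(2, ℤ)) (τ : ℍ) (z : ℂ) :
    e1Zeta ((γ • τ : ℍ) : ℂ) (z / e1J γ τ) = e1J γ τ * e1Zeta τ z := by
  unfold e1Zeta
  simp_rw [e1Term_smul]
  rw [tsum_mul_left]
  congr 1
  exact (e1Act γ).tsum_eq (e1Term τ z)


/-! ### Rows -/


theorem e1_cot_zero : Complex.cot 0 = 0 := by
  simp [Complex.cot]

/-- the partial fraction expansion of `π cot(π x)`, also for `x = 0` (Lean conventions) -/
theorem e1_hasSum_cotTerm {x : ℂ} (hx : x ∈ Complex.integerComplement ∨ x = 0) :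
    HasSum (fun n : ℕ => 1 / (x - ((n : ℂ) + 1)) + 1 / (x + ((n : ℂ) + 1)))
      (π * Complex.cot (π * x) - 1 / x) := by
  rcases hx with hx | rfl
  · have h1 := (summable_cotTerm hx).hasSum
    rw [← cot_series_rep' hx] at h1
    exact h1
  · have h0 : (fun n : ℕ => 1 / ((0 : ℂ) - ((n : ℂ) + 1)) + 1 / (0 + ((n : ℂ) + 1))) = fun _ => 0 := by
      funext n
      have hn : ((n : ℂ) + 1) ≠ 0 := by exact_mod_cast Nat.succ_ne_zero n
      field_simp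
      ring
    rw [h0]
    simp [e1_cot_zero, hasSum_zero]

theorem e1_int_mul_mem (τ : ℍ) (m : ℤ) :
    (m : ℂ) * (τ : ℂ) ∈ Complex.integerComplement ∨ (m : ℂ) * (τ : ℂ) = 0 := by
  by_cases hm : m = 0
  · right
    simp [hm]
  · left
    rw [Complex.mem_integerComplement_iff]
    rintro ⟨n, hn⟩
    have him := congrArg Complex.im hn
    simp only [intCast_im, mul_im, intCast_re, zero_mul, add_zero, UpperHalfPlane.coe_im] at him
    rcases mul_eq_zero.mp him.symm with h | h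
    · exact hm (by exact_mod_cast h)
    · exact τ.im_ne_zero h


/-- the value of the `m`-th row of the lattice sum -/
def e1RowZ (τ : ℍ) (z : ℂ) (m : ℤ) : ℂ :=
  π * Complex.cot (π * (z - (m : ℂ) * τ)) + π * Complex.cot (π * ((m : ℂ) * τ)) +
    z * EisensteinSeries.e2Summand m τ

theorem e1_eisSummand_two (τ : ℍ) (m n : ℤ) :
    EisensteinSeries.eisSummand 2 ![m, n] τ = 1 / ((m : ℂ) * τ + (n : ℂ)) ^ 2 := by
  simp only [EisensteinSeries.eisSummand, Matrix.cons_val_zero, Matrix.cons_val_one,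
    Matrix.cons_val_fin_one]
  rw [zpow_neg, one_div]
  norm_cast

theorem e1_row_hasSum (τ : ℍ) (z : ℂ) (m : ℤ) (hz : ∀ n : ℤ, z ≠ e1W τ (m, n)) :
    HasSum (fun n : ℤ => e1Term τ z (m, n)) (e1RowZ τ z m) := by
  set x : ℂ := z - (m : ℂ) * τ with hxdef
  set y : ℂ := (m : ℂ) * τ with hydef
  have hx : x ∈ Complex.integerComplement := by
    rw [Complex.mem_integerComplement_iff]
    rintro ⟨n, hn⟩
    apply hz n
    simp only [e1W]
    rw [hn, hxdef]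
    ring
  have hy := e1_int_mul_mem τ m
  set g : ℤ → ℂ := fun n => EisensteinSeries.eisSummand 2 ![m, n] τ with hgdef
  have hgs : Summable g := EisensteinSeries.e2Summand_summable m τ
  have hg : ∀ n : ℤ, g n = 1 / (y + (n : ℂ)) ^ 2 := fun n => e1_eisSummand_two τ m n
  set f : ℤ → ℂ := fun n => e1Term τ z (m, n) with hfdef
  have hfs : Summable f := (e1Term_summable τ z).prod_factor m
  have hf : ∀ n : ℤ, f n = 1 / (x - (n : ℂ)) + 1 / (y + (n : ℂ)) + z * g n := by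
    intro n
    rw [hg n]
    simp only [hfdef, e1Term, e1W]
    rw [show z - ((m : ℂ) * (τ : ℂ) + (n : ℂ)) = x - (n : ℂ) by rw [hxdef]; ring]
    ring
  -- symmetric sums
  have hF1 := hfs.hasSum.nat_add_neg
  have hG1 := hgs.hasSum.nat_add_neg
  have hF2 := (hasSum_nat_add_iff' 1).mpr hF1
  have hG2 := (hasSum_nat_add_iff' 1).mpr hG1
  simp only [Finset.sum_range_one, Nat.cast_zero, neg_zero, Nat.cast_add, Nat.cast_one] at hF2 hG2
  have hX := e1_hasSum_cotTerm (Or.inl hx)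
  have hY := e1_hasSum_cotTerm hy
  have hT := (hX.add hY).add (hG2.mul_left z)
  have hcongr : (fun n : ℕ => f ((n : ℤ) + 1) + f (-((n : ℤ) + 1))) =
      fun n : ℕ => 1 / (x - ((n : ℂ) + 1)) + 1 / (x + ((n : ℂ) + 1)) +
        (1 / (y - ((n : ℂ) + 1)) + 1 / (y + ((n : ℂ) + 1))) +
        z * (g ((n : ℤ) + 1) + g (-((n : ℤ) + 1))) := by
    funext n
    rw [hf, hf]
    push_cast
    rw [show x - -((n : ℂ) + 1) = x + ((n : ℂ) + 1) by ring,
      show y + -((n : ℂ) + 1) = y - ((n : ℂ) + 1) by ring]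
    ring
  rw [hcongr] at hF2
  have huniq := hF2.unique hT
  have hf0 : f 0 = 1 / x + 1 / y + z * g 0 := by
    rw [hf 0]
    simp
  have htsum : ∑' n, f n = π * Complex.cot (π * x) + π * Complex.cot (π * y) + z * ∑' n, g n := by
    linear_combination huniq + hf0
  have : e1RowZ τ z m = ∑' n, f n := by
    rw [htsum]
    rfl
  rw [this]
  exact hfs.hasSum


/-! ### Limits of the cotangent -/


theorem e1_cot_add_one (x : ℂ) : Complex.cot (π * (x + 1)) = Complex.cot (π * x) := by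
  rw [Complex.cot_pi_eq_exp_ratio, Complex.cot_pi_eq_exp_ratio]
  have : cexp (2 * π * I * (x + 1)) = cexp (2 * π * I * x) := by
    rw [mul_add, Complex.exp_add, mul_one, Complex.exp_two_pi_mul_I, mul_one]
  rw [this]

theorem e1_cot_neg (x : ℂ) : Complex.cot (-x) = -Complex.cot x := by
  simp [Complex.cot, Complex.sin_neg, Complex.cos_neg, div_neg]

/-- `cot(π (z + K τ)) → -i` as `K → ∞` -/
theorem e1_tendsto_cot_up (τ : ℍ) (z : ℂ) :
    Tendsto (fun K : ℕ => Complex.cot (π * (z + (K : ℂ) * τ))) atTop (𝓝 (-I)) := by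
  have hq : ‖cexp (2 * π * I * τ)‖ < 1 := UpperHalfPlane.norm_exp_two_pi_I_lt_one τ
  have h1 : Tendsto (fun K : ℕ => cexp (2 * π * I * z) * cexp (2 * π * I * τ) ^ K) atTop
      (𝓝 (cexp (2 * π * I * z) * 0)) :=
    (tendsto_pow_atTop_nhds_zero_of_norm_lt_one hq).const_mul _
  rw [mul_zero] at h1
  have h2 : ∀ K : ℕ, cexp (2 * π * I * (z + (K : ℂ) * τ)) =
      cexp (2 * π * I * z) * cexp (2 * π * I * τ) ^ K := by
    intro K
    rw [← Complex.exp_nat_mul, ← Complex.exp_add]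
    congr 1
    ring
  have h3 : Tendsto (fun K : ℕ => (cexp (2 * π * I * (z + (K : ℂ) * τ)) + 1) /
      (I * (1 - cexp (2 * π * I * (z + (K : ℂ) * τ))))) atTop (𝓝 ((0 + 1) / (I * (1 - 0)))) := by
    simp_rw [h2]
    apply Tendsto.div (h1.add_const 1) ((tendsto_const_nhds.sub h1).const_mul I)
    simp
  have h4 : ((0 : ℂ) + 1) / (I * (1 - 0)) = -I := by
    simp [Complex.inv_I]
  rw [h4] at h3
  refine h3.congr fun K => ?_
  rw [Complex.cot_pi_eq_exp_ratio]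

/-- `cot(π (z - K τ)) → i` as `K → ∞` -/
theorem e1_tendsto_cot_down (τ : ℍ) (z : ℂ) :
    Tendsto (fun K : ℕ => Complex.cot (π * (z - (K : ℂ) * τ))) atTop (𝓝 I) := by
  have h := (e1_tendsto_cot_up τ (-z)).neg
  rw [neg_neg] at h
  refine h.congr fun K => ?_
  rw [← e1_cot_neg]
  congr 1
  ring

/-! ### The row formula and the quasi-periods -/

/-- `z` is not a lattice point -/
def e1Off (τ z : ℂ) : Prop := ∀ p : ℤ × ℤ, z ≠ e1W τ p

theorem e1Off_add {τ z : ℂ} (hz : e1Off τ z) (q : ℤ × ℤ) : e1Off τ (z + e1W τ q) := by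
  intro p hp
  apply hz (p - q)
  have : e1W τ (p - q) = e1W τ p - e1W τ q := by
    simp only [e1W, Prod.fst_sub, Prod.snd_sub]
    push_cast
    ring
  rw [this, ← hp]
  ring

theorem e1Off_add_one {τ z : ℂ} (hz : e1Off τ z) : e1Off τ (z + 1) := by
  have := e1Off_add hz (0, 1)
  simpa [e1W] using this

theorem e1Off_add_tau {τ z : ℂ} (hz : e1Off τ z) : e1Off τ (z + τ) := by
  have := e1Off_add hz (1, 0)
  simpa [e1W] using this

theorem e1Off_sub_one {τ z : ℂ} (hz : e1Off τ z) : e1Off τ (z - 1) := by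
  have := e1Off_add hz (0, -1)
  simpa [e1W, sub_eq_add_neg] using this

theorem e1Off_sub_tau {τ z : ℂ} (hz : e1Off τ z) : e1Off τ (z - τ) := by
  have := e1Off_add hz (-1, 0)
  simpa [e1W, sub_eq_add_neg] using this

/-- the lattice sum, summed by rows -/
theorem e1Zeta_hasSum_rows (τ : ℍ) (z : ℂ) (hz : e1Off τ z) :
    HasSum (e1RowZ τ z) (e1Zeta τ z) :=
  (e1Term_summable τ z).hasSum.prod_fiberwise
    (fun m => e1_row_hasSum τ z m (fun n => hz (m, n)))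

/-- the quasi-period `η₂ = ζ(z + 1) - ζ(z)` -/
def e1Eta2 (τ : ℍ) : ℂ := ∑' m : ℤ, EisensteinSeries.e2Summand m τ

/-- the quasi-period `η₁ = ζ(z + τ) - ζ(z)` (Legendre's relation) -/
def e1Eta1 (τ : ℍ) : ℂ := (τ : ℂ) * e1Eta2 τ - 2 * π * I

theorem e1_e2_hasSum (τ : ℍ) (z : ℂ) (hz : e1Off τ z) :
    HasSum (fun m : ℤ => EisensteinSeries.e2Summand m τ) (e1Zeta τ (z + 1) - e1Zeta τ z) := by
  have h := (e1Zeta_hasSum_rows τ (z + 1) (e1Off_add_one hz)).sub (e1Zeta_hasSum_rows τ z hz)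
  refine h.congr_fun ?_
  intro m
  simp only [e1RowZ]
  rw [show z + 1 - (m : ℂ) * (τ : ℂ) = (z - (m : ℂ) * (τ : ℂ)) + 1 by ring, e1_cot_add_one]
  ring

/-- a lattice point off which everything is defined -/
theorem e1Off_half (τ : ℍ) : e1Off τ ((τ : ℂ) / 2) := by
  intro p hp
  have him := congrArg Complex.im hp
  have hre := congrArg Complex.re hp
  simp only [e1W, add_im, mul_im, intCast_re, intCast_im, zero_mul, add_zero,
    add_re, mul_re, sub_zero, UpperHalfPlane.coe_im, UpperHalfPlane.coe_re,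
    Complex.div_ofNat_im, Complex.div_ofNat_re] at him hre
  have h1 : (1 : ℝ) / 2 = (p.1 : ℝ) := by
    have hτ := τ.im_ne_zero
    field_simp at him ⊢
    linarith
  have h2 : (1 : ℝ) = 2 * (p.1 : ℝ) := by linarith
  have h3 : (1 : ℤ) = 2 * p.1 := by exact_mod_cast h2
  omega

theorem e1Eta2_summable (τ : ℍ) : Summable fun m : ℤ => EisensteinSeries.e2Summand m τ :=
  (e1_e2_hasSum τ _ (e1Off_half τ)).summable

theorem e1Zeta_add_one (τ : ℍ) (z : ℂ) (hz : e1Off τ z) :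
    e1Zeta τ (z + 1) = e1Zeta τ z + e1Eta2 τ := by
  have h := (e1_e2_hasSum τ z hz).tsum_eq
  unfold e1Eta2
  rw [h]
  ring

theorem e1_tele_hasSum (τ : ℍ) (z : ℂ) (hz : e1Off τ z) :
    HasSum (fun m : ℤ => π * Complex.cot (π * (z - ((m : ℂ) - 1) * τ)) -
        π * Complex.cot (π * (z - (m : ℂ) * τ)))
      (e1Zeta τ (z + τ) - e1Zeta τ z - (τ : ℂ) * e1Eta2 τ) := by
  have h := ((e1Zeta_hasSum_rows τ (z + τ) (e1Off_add_tau hz)).sub
    (e1Zeta_hasSum_rows τ z hz)).sub ((e1Eta2_summable τ).hasSum.mul_left (τ : ℂ))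
  refine h.congr_fun ?_
  intro m
  simp only [e1RowZ]
  rw [show z + (τ : ℂ) - (m : ℂ) * (τ : ℂ) = z - ((m : ℂ) - 1) * τ by ring]
  ring

theorem e1_tele_value (τ : ℍ) (z : ℂ) (A : ℂ)
    (h : HasSum (fun m : ℤ => π * Complex.cot (π * (z - ((m : ℂ) - 1) * τ)) -
        π * Complex.cot (π * (z - (m : ℂ) * τ))) A) : A = -(2 * π * I) := by
  set c : ℤ → ℂ := fun m => π * Complex.cot (π * (z - (m : ℂ) * τ)) with hc
  have hh : (fun m : ℤ => π * Complex.cot (π * (z - ((m : ℂ) - 1) * τ)) -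
        π * Complex.cot (π * (z - (m : ℂ) * τ))) = fun m : ℤ => c (m - 1) - c m := by
    funext m
    simp only [hc]
    push_cast
    rfl
  rw [hh] at h
  have h1 := h.nat_add_neg.tendsto_sum_nat
  have h2 : ∀ K : ℕ, ∑ n ∈ Finset.range K, ((c ((n : ℤ) - 1) - c (n : ℤ)) +
      (c (-(n : ℤ) - 1) - c (-(n : ℤ)))) =
      (c (-1) - c 0) + (c (-(K : ℤ)) - c ((K : ℤ) - 1)) := by
    intro K
    induction K with
    | zero => simp
    | succ K ih =>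
      rw [Finset.sum_range_succ, ih]
      push_cast
      rw [show (-((K : ℤ) + 1)) = -(K : ℤ) - 1 by ring, show ((K : ℤ) + 1 - 1) = (K : ℤ) by ring]
      ring
  simp_rw [h2] at h1
  have hup : Tendsto (fun K : ℕ => c (-(K : ℤ))) atTop (𝓝 (π * (-I))) := by
    have := (e1_tendsto_cot_up τ z).const_mul (π : ℂ)
    refine this.congr fun K => ?_
    simp only [hc]
    congr 2
    push_cast
    ring
  have hdown : Tendsto (fun K : ℕ => c ((K : ℤ) - 1)) atTop (𝓝 (π * I)) := by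
    have := (e1_tendsto_cot_down τ (z + τ)).const_mul (π : ℂ)
    refine this.congr fun K => ?_
    simp only [hc]
    congr 2
    push_cast
    ring
  have h3 : Tendsto (fun K : ℕ => (c (-1) - c 0) + (c (-(K : ℤ)) - c ((K : ℤ) - 1))) atTop
      (𝓝 ((c (-1) - c 0) + (π * (-I) - π * I))) :=
    tendsto_const_nhds.add (hup.sub hdown)
  have h4 := tendsto_nhds_unique h1 h3
  rw [zero_sub] at h4
  linear_combination h4

theorem e1Zeta_add_tau (τ : ℍ) (z : ℂ) (hz : e1Off τ z) :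
    e1Zeta τ (z + τ) = e1Zeta τ z + e1Eta1 τ := by
  have h := e1_tele_value τ z _ (e1_tele_hasSum τ z hz)
  unfold e1Eta1
  linear_combination h

theorem e1Zeta_add_int (τ : ℍ) (z : ℂ) (hz : e1Off τ z) (n : ℤ) :
    e1Zeta τ (z + (n : ℂ)) = e1Zeta τ z + (n : ℂ) * e1Eta2 τ := by
  induction n using Int.induction_on with
  | zero => simp
  | succ n ih =>
    have hoff : e1Off τ (z + (n : ℂ)) := by
      have := e1Off_add hz (0, (n : ℤ))
      simpa [e1W] using this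
    have := e1Zeta_add_one τ _ hoff
    push_cast at ih ⊢
    rw [← add_assoc, this, ih]
    ring
  | pred n ih =>
    have hoff : e1Off τ (z + ((-(n : ℤ) - 1 : ℤ) : ℂ)) := by
      have := e1Off_add hz (0, (-(n : ℤ) - 1))
      simpa [e1W] using this
    have := e1Zeta_add_one τ _ hoff
    have h2 : z + ((-(n : ℤ) - 1 : ℤ) : ℂ) + 1 = z + ((-(n : ℤ) : ℤ) : ℂ) := by
      push_cast
      ring
    rw [h2, ih] at this
    push_cast at this ⊢
    linear_combination -this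

theorem e1Zeta_add_int_tau (τ : ℍ) (z : ℂ) (hz : e1Off τ z) (m : ℤ) :
    e1Zeta τ (z + (m : ℂ) * τ) = e1Zeta τ z + (m : ℂ) * e1Eta1 τ := by
  induction m using Int.induction_on with
  | zero => simp
  | succ m ih =>
    have hoff : e1Off τ (z + (m : ℂ) * τ) := by
      have := e1Off_add hz ((m : ℤ), 0)
      simpa [e1W] using this
    have := e1Zeta_add_tau τ _ hoff
    push_cast at ih ⊢
    rw [show z + ((m : ℂ) + 1) * (τ : ℂ) = z + (m : ℂ) * τ + τ by ring, this, ih]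
    ring
  | pred m ih =>
    have hoff : e1Off τ (z + ((-(m : ℤ) - 1 : ℤ) : ℂ) * τ) := by
      have := e1Off_add hz ((-(m : ℤ) - 1), 0)
      simpa [e1W] using this
    have := e1Zeta_add_tau τ _ hoff
    have h2 : z + ((-(m : ℤ) - 1 : ℤ) : ℂ) * τ + τ = z + ((-(m : ℤ) : ℤ) : ℂ) * τ := by
      push_cast
      ring
    rw [h2, ih] at this
    push_cast at this ⊢
    linear_combination -this

/-- quasi-periodicity of `ζ` -/
theorem e1Zeta_add_lattice (τ : ℍ) (z : ℂ) (hz : e1Off τ z) (p : ℤ × ℤ) :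
    e1Zeta τ (z + e1W τ p) = e1Zeta τ z + (p.1 : ℂ) * e1Eta1 τ + (p.2 : ℂ) * e1Eta2 τ := by
  have hoff : e1Off τ (z + (p.1 : ℂ) * τ) := by
    have := e1Off_add hz (p.1, 0)
    simpa [e1W] using this
  have h1 := e1Zeta_add_int τ _ hoff p.2
  have h2 := e1Zeta_add_int_tau τ z hz p.1
  rw [show z + e1W τ p = z + (p.1 : ℂ) * τ + (p.2 : ℂ) by simp only [e1W]; ring, h1, h2]

/-! ### The division values -/

theorem e1Pt_eq (N : ℕ) (a b : ℤ) (τ : ℂ) : e1Pt N a b τ = e1W τ (a, b) / (N : ℂ) := rfl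

/-- the torsion point is not a lattice point -/
theorem e1Off_pt (N : ℕ) [NeZero N] (a b : ℤ) (h : ¬ ((N : ℤ) ∣ a ∧ (N : ℤ) ∣ b)) (τ : ℍ) :
    e1Off τ (e1Pt N a b τ) := by
  intro p hp
  apply h
  have hN : (N : ℂ) ≠ 0 := Nat.cast_ne_zero.mpr (NeZero.ne N)
  have h1 : e1W τ (a - N * p.1, b - N * p.2) = 0 := by
    rw [e1Pt_eq, div_eq_iff hN] at hp
    simp only [e1W] at hp ⊢
    push_cast
    linear_combination hp
  have h2 := (e1W_eq_zero_iff τ _).mp h1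
  have h3 : a - N * p.1 = 0 := congrArg Prod.fst h2
  have h4 : b - N * p.2 = 0 := congrArg Prod.snd h2
  exact ⟨⟨p.1, by linarith⟩, ⟨p.2, by linarith⟩⟩

theorem e1Row_hasSum (N : ℕ) [NeZero N] (a b : ℤ) (h : ¬ ((N : ℤ) ∣ a ∧ (N : ℤ) ∣ b)) (τ : ℍ) :
    HasSum (e1Row N a b τ) (e1Zeta τ (e1Pt N a b τ) - e1Pt N a b τ * e1Eta2 τ) := by
  have h1 := (e1Zeta_hasSum_rows τ _ (e1Off_pt N a b h τ)).sub
    ((e1Eta2_summable τ).hasSum.mul_left (e1Pt N a b τ))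
  refine h1.congr_fun ?_
  intro m
  simp only [e1Row, e1RowZ]
  ring

/-- the rows are summable -/
theorem e1Row_summable (N : ℕ) [NeZero N] (a b : ℤ) (h : ¬ ((N : ℤ) ∣ a ∧ (N : ℤ) ∣ b))
    (τ : ℍ) : Summable (e1Row N a b τ) :=
  (e1Row_hasSum N a b h τ).summable

/-- the row form of the division value is the division value of `ζ` -/
theorem e1Zrow_eq (N : ℕ) [NeZero N] (a b : ℤ) (h : ¬ ((N : ℤ) ∣ a ∧ (N : ℤ) ∣ b)) (τ : ℍ) :
    e1Zrow N a b τ =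
      e1Zeta τ (e1Pt N a b τ) - ((a : ℂ) * e1Eta1 τ + (b : ℂ) * e1Eta2 τ) / (N : ℂ) := by
  have hN : (N : ℂ) ≠ 0 := Nat.cast_ne_zero.mpr (NeZero.ne N)
  unfold e1Zrow
  rw [(e1Row_hasSum N a b h τ).tsum_eq]
  unfold e1Eta1 e1Pt
  field_simp
  ring

theorem e1_not_dvd_add (N : ℕ) (a b k l : ℤ) (h : ¬ ((N : ℤ) ∣ a ∧ (N : ℤ) ∣ b)) :
    ¬ ((N : ℤ) ∣ a + N * k ∧ (N : ℤ) ∣ b + N * l) := by
  rintro ⟨h1, h2⟩
  exact h ⟨(Int.dvd_add_left (dvd_mul_right _ _)).mp h1,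
    (Int.dvd_add_left (dvd_mul_right _ _)).mp h2⟩

/-- **E1-per**: the division values only depend on `(a, b)` modulo `N`. -/
theorem stmtE1Per : StmtE1Per := by
  intro N _ a b k l h τ
  have hN : (N : ℂ) ≠ 0 := Nat.cast_ne_zero.mpr (NeZero.ne N)
  rw [e1Zrow_eq N _ _ (e1_not_dvd_add N a b k l h) τ, e1Zrow_eq N a b h τ]
  have hpt : e1Pt N (a + N * k) (b + N * l) τ = e1Pt N a b τ + e1W τ (k, l) := by
    simp only [e1Pt, e1W]
    push_cast
    field_simp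
    ring
  rw [hpt, e1Zeta_add_lattice τ _ (e1Off_pt N a b h τ)]
  push_cast
  field_simp
  ring

theorem e1_not_dvd_act (N : ℕ) (a b : ℤ) (γ : SL(2, ℤ)) (h : ¬ ((N : ℤ) ∣ a ∧ (N : ℤ) ∣ b)) :
    ¬ ((N : ℤ) ∣ a * γ 0 0 + b * γ 1 0 ∧ (N : ℤ) ∣ a * γ 0 1 + b * γ 1 1) := by
  rintro ⟨h1, h2⟩
  apply h
  have hinv := (e1Act γ).left_inv (a, b)
  have ha : a = (a * γ 0 0 + b * γ 1 0) * γ 1 1 - (a * γ 0 1 + b * γ 1 1) * γ 1 0 :=
    (congrArg Prod.fst hinv).symm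
  have hb : b = -((a * γ 0 0 + b * γ 1 0) * γ 0 1) + (a * γ 0 1 + b * γ 1 1) * γ 0 0 :=
    (congrArg Prod.snd hinv).symm
  constructor
  · rw [ha]
    exact dvd_sub (Dvd.dvd.mul_right h1 _) (Dvd.dvd.mul_right h2 _)
  · rw [hb]
    exact dvd_add (dvd_neg.mpr (Dvd.dvd.mul_right h1 _)) (Dvd.dvd.mul_right h2 _)

theorem e1Off_smul (γ : SL(2, ℤ)) (τ : ℍ) {z : ℂ} (hz : e1Off τ z) :
    e1Off ((γ • τ : ℍ) : ℂ) (z / e1J γ τ) := by
  intro p hp
  apply hz (e1Act γ p)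
  rw [e1W_smul] at hp
  have hj := e1J_ne_zero γ τ
  field_simp at hp
  exact hp

/-- **E1-law**: the transformation law of the division values. -/
theorem stmtE1Law : StmtE1Law := by
  intro N _ a b h γ τ
  have hN : (N : ℂ) ≠ 0 := Nat.cast_ne_zero.mpr (NeZero.ne N)
  have hj := e1J_ne_zero γ τ
  set a' : ℤ := a * γ 0 0 + b * γ 1 0 with ha'
  set b' : ℤ := a * γ 0 1 + b * γ 1 1 with hb'
  have h' : ¬ ((N : ℤ) ∣ a' ∧ (N : ℤ) ∣ b') := e1_not_dvd_act N a b γ h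
  have hact : e1Act γ (a, b) = (a', b') := rfl
  rw [e1Zrow_eq N a b h (γ • τ), e1Zrow_eq N a' b' h' τ]
  -- the torsion point
  have hpt : e1Pt N a b ((γ • τ : ℍ) : ℂ) = e1Pt N a' b' τ / e1J γ τ := by
    rw [e1Pt_eq, e1Pt_eq, e1W_smul, hact]
    field_simp
  -- the quasi-periods
  set z₁ : ℂ := e1Pt N a' b' τ with hz₁
  have hoff : e1Off τ z₁ := e1Off_pt N a' b' h' τ
  have hq := e1Zeta_add_lattice (γ • τ) (z₁ / e1J γ τ) (e1Off_smul γ τ hoff) (a, b)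
  have hsum : z₁ / e1J γ τ + e1W ((γ • τ : ℍ) : ℂ) (a, b) = (z₁ + e1W τ (a', b')) / e1J γ τ := by
    rw [e1W_smul, hact]
    field_simp
  rw [hsum, e1Zeta_smul, e1Zeta_smul, e1Zeta_add_lattice τ z₁ hoff (a', b')] at hq
  rw [hpt, e1Zeta_smul]
  simp only at hq
  show _ = e1J γ τ * _
  field_simp
  field_simp at hq
  linear_combination hq

end Fermat.Agent.S48

end
end ZBZ4S48_015_2

/-! ### bundled: `Fermat.Agent.S48.E1.RowQ` -/
section ZBZ4S48_015_3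

/-!
# S48 / E1-q: the `q`-expansion of the division values `Z_{(0,b)}`

`∑_{m ∈ ℤ} (π cot(π (x − m τ)) + π cot(π m τ))
  = π cot(π x) + 2πi ∑_{n ≥ 1} (∑_{k ∣ n} (e^{−2πi k x} − e^{2πi k x})) qⁿ` for real `x`,
`q = e^{2πiτ}`, `τ` in the upper half plane.
-/

set_option autoImplicit false

open Complex
open UpperHalfPlane hiding I
open scoped Real

noncomputable section

namespace Fermat.Agent.S48

/-- `π cot(π z) = −πi − 2πi ∑_{k ≥ 1} e^{2πikz}` in the upper half plane. -/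
theorem e1q_cot_upper (z : ℂ) (hz : 0 < z.im) :
    HasSum (fun k : ℕ+ => -(2 * π * I) * cexp (2 * π * I * z) ^ (k : ℕ))
      (π * cot (π * z) + π * I) := by
  have hr : ‖cexp (2 * π * I * z)‖ < 1 := UpperHalfPlane.norm_exp_two_pi_I_lt_one ⟨z, hz⟩
  have h1 := pi_mul_cot_pi_q_exp ⟨z, hz⟩
  have hs : Summable fun n : ℕ => cexp (2 * π * I * z) ^ n :=
    summable_geometric_of_norm_lt_one hr
  have h2 : HasSum (fun n : ℕ => cexp (2 * π * I * z) ^ (n + 1))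
      (∑' n : ℕ, cexp (2 * π * I * z) ^ n - 1) := by
    have := (hasSum_nat_add_iff' (f := fun n : ℕ => cexp (2 * π * I * z) ^ n) 1).mpr hs.hasSum
    simpa using this
  have h3 := (hasSum_pnat_iff_hasSum_succ (f := fun n : ℕ => cexp (2 * π * I * z) ^ n)).mpr h2
  have h4 := h3.mul_left (-(2 * π * I))
  have h5 : -(2 * π * I) * (∑' n : ℕ, cexp (2 * π * I * z) ^ n - 1) = π * cot (π * z) + π * I := by
    have h1' : π * cot (π * z) = π * I - 2 * π * I * ∑' n : ℕ, cexp (2 * π * I * z) ^ n := h1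
    rw [h1']
    ring
  rw [← h5]
  exact h4

theorem e1q_cot_neg (z : ℂ) : cot (-z) = - cot z := by
  rw [Complex.cot_eq_cos_div_sin, Complex.cot_eq_cos_div_sin, Complex.cos_neg, Complex.sin_neg,
    div_neg]

/-- `π cot(π z) = πi + 2πi ∑_{k ≥ 1} e^{−2πikz}` in the lower half plane. -/
theorem e1q_cot_lower (z : ℂ) (hz : z.im < 0) :
    HasSum (fun k : ℕ+ => (2 * π * I) * cexp (-(2 * π * I * z)) ^ (k : ℕ))
      (π * cot (π * z) - π * I) := by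
  have h := e1q_cot_upper (-z) (by simpa using hz)
  have h2 := h.neg
  have e1 : π * z = -(π * (-z)) := by ring
  rw [e1, e1q_cot_neg]
  have e2 : 2 * π * I * (-z) = -(2 * π * I * z) := by ring
  rw [e2] at h2
  have h3 : (fun b : ℕ+ => -(-(2 * π * I) * cexp (-(2 * π * I * z)) ^ (b : ℕ))) =
      fun k : ℕ+ => (2 * π * I) * cexp (-(2 * π * I * z)) ^ (k : ℕ) := by
    funext k
    ring
  rw [h3] at h2
  have e3 : π * -cot (π * -z) - π * I = -(π * cot (π * -z) + π * I) := by ring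
  rw [e3]
  exact h2

/-- the rows `m ≥ 1` -/
theorem e1q_row_pos (x τ : ℂ) (hx : x.im = 0) (hτ : 0 < τ.im) (m : ℕ+) :
    HasSum (fun k : ℕ+ => 2 * π * I *
        (cexp (-(2 * π * I * x)) ^ (k : ℕ) - 1) * cexp (2 * π * I * τ) ^ ((m : ℕ) * (k : ℕ)))
      (π * cot (π * (x - ((m : ℕ) : ℂ) * τ)) + π * cot (π * (((m : ℕ) : ℂ) * τ))) := by
  have hm : (0 : ℝ) < ((m : ℕ) : ℝ) := by exact_mod_cast m.pos
  have i1 : (x - ((m : ℕ) : ℂ) * τ).im < 0 := by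
    simp only [sub_im, mul_im, natCast_re, natCast_im, zero_mul, add_zero, hx, zero_sub,
      neg_lt_zero]
    positivity
  have i2 : 0 < (((m : ℕ) : ℂ) * τ).im := by
    simp only [mul_im, natCast_re, natCast_im, zero_mul, add_zero]
    positivity
  have h1 := e1q_cot_lower _ i1
  have h2 := e1q_cot_upper _ i2
  have h3 := h1.add h2
  convert h3 using 1
  · funext k
    have e1 : cexp (-(2 * π * I * (x - ((m : ℕ) : ℂ) * τ))) ^ (k : ℕ) =
        cexp (-(2 * π * I * x)) ^ (k : ℕ) * cexp (2 * π * I * τ) ^ ((m : ℕ) * (k : ℕ)) := by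
      rw [← Complex.exp_nat_mul, ← Complex.exp_nat_mul, ← Complex.exp_nat_mul, ← Complex.exp_add]
      congr 1
      push_cast
      ring
    have e2 : cexp (2 * π * I * (((m : ℕ) : ℂ) * τ)) ^ (k : ℕ) =
        cexp (2 * π * I * τ) ^ ((m : ℕ) * (k : ℕ)) := by
      rw [← Complex.exp_nat_mul, ← Complex.exp_nat_mul]
      congr 1
      push_cast
      ring
    rw [e1, e2]
    ring
  · ring

/-- the rows `m ≤ -1` -/
theorem e1q_row_neg (x τ : ℂ) (hx : x.im = 0) (hτ : 0 < τ.im) (m : ℕ+) :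
    HasSum (fun k : ℕ+ => 2 * π * I *
        (1 - cexp (2 * π * I * x) ^ (k : ℕ)) * cexp (2 * π * I * τ) ^ ((m : ℕ) * (k : ℕ)))
      (π * cot (π * (x - (-((m : ℕ) : ℂ)) * τ)) + π * cot (π * ((-((m : ℕ) : ℂ)) * τ))) := by
  have hm : (0 : ℝ) < ((m : ℕ) : ℝ) := by exact_mod_cast m.pos
  have i1 : 0 < (x - (-((m : ℕ) : ℂ)) * τ).im := by
    simp only [sub_im, mul_im, neg_im, natCast_re, natCast_im, zero_mul,
      add_zero, hx, zero_sub, neg_mul, neg_neg]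
    positivity
  have i2 : ((-((m : ℕ) : ℂ)) * τ).im < 0 := by
    simp only [mul_im, neg_im, natCast_re, natCast_im, zero_mul, add_zero,
      neg_mul, neg_lt_zero]
    positivity
  have h1 := e1q_cot_upper _ i1
  have h2 := e1q_cot_lower _ i2
  have h3 := h1.add h2
  convert h3 using 1
  · funext k
    have e1 : cexp (2 * π * I * (x - (-((m : ℕ) : ℂ)) * τ)) ^ (k : ℕ) =
        cexp (2 * π * I * x) ^ (k : ℕ) * cexp (2 * π * I * τ) ^ ((m : ℕ) * (k : ℕ)) := by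
      rw [← Complex.exp_nat_mul, ← Complex.exp_nat_mul, ← Complex.exp_nat_mul, ← Complex.exp_add]
      congr 1
      push_cast
      ring
    have e2 : cexp (-(2 * π * I * ((-((m : ℕ) : ℂ)) * τ))) ^ (k : ℕ) =
        cexp (2 * π * I * τ) ^ ((m : ℕ) * (k : ℕ)) := by
      rw [← Complex.exp_nat_mul, ← Complex.exp_nat_mul]
      congr 1
      push_cast
      ring
    rw [e1, e2]
    ring
  · ring

/-- summability of a Lambert type double series with bounded coefficients -/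
theorem e1q_summable_pair {q : ℂ} (hq : ‖q‖ < 1) (c : ℕ → ℂ) (C : ℝ) (hc : ∀ k, ‖c k‖ ≤ C) :
    Summable (fun p : ℕ+ × ℕ+ => c (p.2 : ℕ) * q ^ ((p.1 : ℕ) * (p.2 : ℕ))) := by
  have h := (summable_prod_mul_pow (𝕜 := ℝ) 0 (r := ‖q‖) (by simpa using hq)).mul_left C
  refine Summable.of_norm_bounded h fun p => ?_
  rw [norm_mul, norm_pow]
  simp only [pow_zero, one_mul]
  exact mul_le_mul_of_nonneg_right (hc _) (by positivity)

/-- the Lambert rearrangement -/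
theorem e1q_hasSum_lambert {q : ℂ} (hq : ‖q‖ < 1) (c : ℕ → ℂ) (C : ℝ) (hc : ∀ k, ‖c k‖ ≤ C) :
    HasSum (fun n : ℕ+ => (∑ k ∈ (n : ℕ).divisors, c k) * q ^ (n : ℕ))
      (∑' p : ℕ+ × ℕ+, c (p.2 : ℕ) * q ^ ((p.1 : ℕ) * (p.2 : ℕ))) := by
  have hs := e1q_summable_pair hq c C hc
  have h1 := sigmaAntidiagonalEquivProd.hasSum_iff.mpr hs.hasSum
  refine h1.sigma fun n => ?_
  have h2 := hasSum_fintype (fun x : Nat.divisorsAntidiagonal n =>
    ((fun p : ℕ+ × ℕ+ => c (p.2 : ℕ) * q ^ ((p.1 : ℕ) * (p.2 : ℕ))) ∘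
      sigmaAntidiagonalEquivProd) ⟨n, x⟩)
  convert h2 using 1
  rw [Finset.univ_eq_attach]
  have h3 : ∀ x : Nat.divisorsAntidiagonal n,
      ((fun p : ℕ+ × ℕ+ => c (p.2 : ℕ) * q ^ ((p.1 : ℕ) * (p.2 : ℕ))) ∘
        sigmaAntidiagonalEquivProd) ⟨n, x⟩ =
      (fun y : ℕ × ℕ => c y.2 * q ^ (y.1 * y.2)) x.1 := by
    intro x
    simp [sigmaAntidiagonalEquivProd, divisorsAntidiagonalFactors]
  simp_rw [h3]
  rw [(n : ℕ).divisorsAntidiagonal.sum_attach (fun y : ℕ × ℕ => c y.2 * q ^ (y.1 * y.2))]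
  rw [Nat.sum_divisorsAntidiagonal' (fun x y => c y * q ^ (x * y))]
  rw [Finset.sum_mul]
  refine Finset.sum_congr rfl fun i hi => ?_
  rw [Nat.div_mul_cancel (Nat.dvd_of_mem_divisors hi)]

theorem e1q_cot_zero : Complex.cot 0 = 0 := by
  rw [Complex.cot_eq_cos_div_sin, Complex.sin_zero, div_zero]

theorem e1q_norm_exp_real (x : ℂ) (hx : x.im = 0) (s : ℂ) (hs : s.re = 0) :
    ‖cexp (s * x)‖ = 1 := by
  rw [Complex.norm_exp]
  simp [mul_re, hx, hs]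

/-- the core identity: the `q`-expansion of the row sum at a real point `x`. -/
theorem e1q_core (x τ : ℂ) (hx : x.im = 0) (hτ : 0 < τ.im) :
    HasSum (fun n : ℕ =>
        (if n = 0 then π * cot (π * x)
          else 2 * π * I * ∑ k ∈ n.divisors,
            (cexp (-(2 * π * I * x)) ^ k - cexp (2 * π * I * x) ^ k)) * cexp (2 * π * I * τ) ^ n)
      (∑' m : ℤ, (π * cot (π * (x - (m : ℂ) * τ)) + π * cot (π * ((m : ℂ) * τ)))) := by
  have hq1 : ‖cexp (2 * π * I * τ)‖ < 1 := UpperHalfPlane.norm_exp_two_pi_I_lt_one ⟨τ, hτ⟩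
  have hvn : ‖cexp (-(2 * π * I * x))‖ = 1 := by
    have := e1q_norm_exp_real x hx (-(2 * π * I)) (by simp)
    rwa [neg_mul] at this
  have hwn : ‖cexp (2 * π * I * x)‖ = 1 := e1q_norm_exp_real x hx (2 * π * I) (by simp)
  have h2pi : ‖(2 * π * I : ℂ)‖ = 2 * π := by
    simp [abs_of_pos Real.pi_pos]
  have hcA : ∀ k : ℕ, ‖2 * π * I * (cexp (-(2 * π * I * x)) ^ k - 1)‖ ≤ 2 * π * 2 := by
    intro k
    rw [norm_mul, h2pi]
    refine mul_le_mul_of_nonneg_left ?_ (by positivity)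
    calc ‖cexp (-(2 * π * I * x)) ^ k - 1‖ ≤ ‖cexp (-(2 * π * I * x)) ^ k‖ + ‖(1 : ℂ)‖ :=
          norm_sub_le _ _
      _ = 2 := by rw [norm_pow, hvn, one_pow, norm_one]; norm_num
  have hcB : ∀ k : ℕ, ‖2 * π * I * (1 - cexp (2 * π * I * x) ^ k)‖ ≤ 2 * π * 2 := by
    intro k
    rw [norm_mul, h2pi]
    refine mul_le_mul_of_nonneg_left ?_ (by positivity)
    calc ‖1 - cexp (2 * π * I * x) ^ k‖ ≤ ‖(1 : ℂ)‖ + ‖cexp (2 * π * I * x) ^ k‖ :=
          norm_sub_le _ _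
      _ = 2 := by rw [norm_pow, hwn, one_pow, norm_one]; norm_num
  have sA := e1q_summable_pair hq1 (fun k => 2 * π * I * (cexp (-(2 * π * I * x)) ^ k - 1)) _ hcA
  have sB := e1q_summable_pair hq1 (fun k => 2 * π * I * (1 - cexp (2 * π * I * x) ^ k)) _ hcB
  obtain ⟨SA, hSA⟩ := sA
  obtain ⟨SB, hSB⟩ := sB
  -- the rows
  have hpos : HasSum (fun m : ℕ+ =>
      π * cot (π * (x - ((m : ℕ) : ℂ) * τ)) + π * cot (π * (((m : ℕ) : ℂ) * τ))) SA := by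
    refine hSA.prod_fiberwise fun m => ?_
    exact e1q_row_pos x τ hx hτ m
  have hneg : HasSum (fun m : ℕ+ =>
      π * cot (π * (x - (-((m : ℕ) : ℂ)) * τ)) + π * cot (π * ((-((m : ℕ) : ℂ)) * τ))) SB := by
    refine hSB.prod_fiberwise fun m => ?_
    exact e1q_row_neg x τ hx hτ m
  -- pass to `ℕ`
  have hposN : HasSum (fun n : ℕ =>
      π * cot (π * (x - (((n : ℕ) : ℤ) : ℂ) * τ)) + π * cot (π * ((((n : ℕ) : ℤ) : ℂ) * τ)))
      (π * cot (π * x) + SA) := by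
    have h1 := (hasSum_pnat_iff_hasSum_succ (f := fun n : ℕ =>
      π * cot (π * (x - ((n : ℕ) : ℂ) * τ)) + π * cot (π * (((n : ℕ) : ℂ) * τ)))).mp hpos
    have h2 := HasSum.zero_add (f := fun n : ℕ =>
      π * cot (π * (x - ((n : ℕ) : ℂ) * τ)) + π * cot (π * (((n : ℕ) : ℂ) * τ))) h1
    simp only [Nat.cast_zero, zero_mul, sub_zero, mul_zero, e1q_cot_zero, add_zero] at h2
    simpa only [Int.cast_natCast] using h2
  have hnegN : HasSum (fun n : ℕ =>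
      π * cot (π * (x - ((-(((n : ℕ) : ℤ) + 1) : ℤ) : ℂ) * τ)) +
        π * cot (π * (((-(((n : ℕ) : ℤ) + 1) : ℤ) : ℂ) * τ))) SB := by
    have h1 := (hasSum_pnat_iff_hasSum_succ (f := fun n : ℕ =>
      π * cot (π * (x - (-((n : ℕ) : ℂ)) * τ)) + π * cot (π * ((-((n : ℕ) : ℂ)) * τ)))).mp hneg
    simpa only [Int.cast_neg, Int.cast_add, Int.cast_natCast, Int.cast_one, Nat.cast_add,
      Nat.cast_one] using h1
  have hZ := HasSum.of_nat_of_neg_add_one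
    (f := fun m : ℤ => π * cot (π * (x - (m : ℂ) * τ)) + π * cot (π * ((m : ℂ) * τ))) hposN hnegN
  rw [hZ.tsum_eq]
  -- the Lambert rearrangement
  have hL := e1q_hasSum_lambert hq1
    (fun k => 2 * π * I * (cexp (-(2 * π * I * x)) ^ k - 1) +
      2 * π * I * (1 - cexp (2 * π * I * x) ^ k)) (2 * π * 2 + 2 * π * 2)
    (fun k => (norm_add_le _ _).trans (add_le_add (hcA k) (hcB k)))
  have hAB := hSA.add hSB
  have hsum : (∑' p : ℕ+ × ℕ+, (2 * π * I * (cexp (-(2 * π * I * x)) ^ (p.2 : ℕ) - 1) +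
      2 * π * I * (1 - cexp (2 * π * I * x) ^ (p.2 : ℕ))) *
        cexp (2 * π * I * τ) ^ ((p.1 : ℕ) * (p.2 : ℕ))) = SA + SB := by
    rw [← hAB.tsum_eq]
    refine tsum_congr fun p => ?_
    ring
  rw [hsum] at hL
  have hLN := (hasSum_pnat_iff_hasSum_succ (f := fun n : ℕ =>
    (∑ k ∈ n.divisors, (2 * π * I * (cexp (-(2 * π * I * x)) ^ k - 1) +
      2 * π * I * (1 - cexp (2 * π * I * x) ^ k))) * cexp (2 * π * I * τ) ^ n)).mp hL
  have hfin : HasSum (fun n : ℕ =>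
      (if n + 1 = 0 then π * cot (π * x)
        else 2 * π * I * ∑ k ∈ (n + 1).divisors,
          (cexp (-(2 * π * I * x)) ^ k - cexp (2 * π * I * x) ^ k)) *
        cexp (2 * π * I * τ) ^ (n + 1)) (SA + SB) := by
    have e : (fun n : ℕ =>
        (if n + 1 = 0 then π * cot (π * x)
          else 2 * π * I * ∑ k ∈ (n + 1).divisors,
            (cexp (-(2 * π * I * x)) ^ k - cexp (2 * π * I * x) ^ k)) *
          cexp (2 * π * I * τ) ^ (n + 1)) = fun n : ℕ =>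
        (∑ k ∈ (n + 1).divisors, (2 * π * I * (cexp (-(2 * π * I * x)) ^ k - 1) +
          2 * π * I * (1 - cexp (2 * π * I * x) ^ k))) * cexp (2 * π * I * τ) ^ (n + 1) := by
      funext n
      rw [if_neg (Nat.succ_ne_zero n), Finset.mul_sum]
      congr 1
      refine Finset.sum_congr rfl fun k _ => ?_
      ring
    rw [e]
    exact hLN
  have hfinal := HasSum.zero_add (f := fun n : ℕ =>
        (if n = 0 then π * cot (π * x)
          else 2 * π * I * ∑ k ∈ n.divisors,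
            (cexp (-(2 * π * I * x)) ^ k - cexp (2 * π * I * x) ^ k)) *
          cexp (2 * π * I * τ) ^ n) hfin
  have e0 : (if (0 : ℕ) = 0 then π * cot (π * x)
          else 2 * π * I * ∑ k ∈ (0 : ℕ).divisors,
            (cexp (-(2 * π * I * x)) ^ k - cexp (2 * π * I * x) ^ k)) *
          cexp (2 * π * I * τ) ^ 0 = π * cot (π * x) := by
    rw [if_pos rfl, pow_zero, mul_one]
  rw [e0] at hfinal
  rw [add_assoc]
  exact hfinal

/-- (E1-q) the `q`-expansion of `Z_{(0,b)}`. -/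
theorem stmtE1RowQ : StmtE1RowQ := by
  intro N _ b _ τ
  have hN : ((N : ℕ) : ℂ) ≠ 0 := Nat.cast_ne_zero.mpr (NeZero.ne N)
  have hx : ((b : ℂ) / (N : ℂ)).im = 0 := by
    have : ((b : ℂ) / (N : ℂ)) = (((b : ℝ) / (N : ℝ) : ℝ) : ℂ) := by push_cast; rfl
    rw [this, Complex.ofReal_im]
  have h := e1q_core ((b : ℂ) / (N : ℂ)) (τ : ℂ) hx τ.im_pos
  have e1 : e1Zrow N 0 b (τ : ℂ) = ∑' m : ℤ, (π * cot (π * ((b : ℂ) / (N : ℂ) - (m : ℂ) * τ)) +
      π * cot (π * ((m : ℂ) * τ))) := by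
    unfold e1Zrow e1Row e1Pt
    simp only [Int.cast_zero, zero_mul, zero_add, mul_zero, zero_div]
  have e2 : (fun n : ℕ => e1Coeff N b n * cexp (2 * π * I * (τ : ℂ)) ^ n) = fun n : ℕ =>
      (if n = 0 then π * cot (π * ((b : ℂ) / (N : ℂ)))
        else 2 * π * I * ∑ k ∈ n.divisors,
          (cexp (-(2 * π * I * ((b : ℂ) / (N : ℂ)))) ^ k -
            cexp (2 * π * I * ((b : ℂ) / (N : ℂ))) ^ k)) * cexp (2 * π * I * (τ : ℂ)) ^ n := by
    funext n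
    unfold e1Coeff
    congr 1
    by_cases hn : n = 0
    · rw [if_pos hn, if_pos hn, mul_div_assoc]
    · rw [if_neg hn, if_neg hn]
      congr 1
      refine Finset.sum_congr rfl fun k _ => ?_
      rw [← Complex.exp_nat_mul, ← Complex.exp_nat_mul]
      congr 2
      · ring
      · ring
  rw [e1, e2]
  exact h

end Fermat.Agent.S48

end
end ZBZ4S48_015_3

/-! ### bundled: `Fermat.Agent.S48.E1.Gauss` -/
section ZBZ4S48_015_4

/-!
# S48 / E1 — piece `E1-gauss`: finite Fourier analysis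

`stmtE1Gauss : StmtE1Gauss`.  For an odd Dirichlet character `ψ` modulo a prime `ℓ`, with
`χ = ψ⁻¹`, `e = ZMod.stdAddChar` and the Gauss sum `G = ∑_b χ(b) e(b) ≠ 0`:

* `∑_b χ(b) e(b t) = ψ(t) G` for every `t` (`e1g_shift`);
* `n ≥ 1`: `∑_b χ(b) (e(-b k) - e(b k)) = (ψ(-k) - ψ(k)) G = -2 ψ(k) G`;
* `n = 0`: `π cot(π b/ℓ) = π i (u + 1)/(u - 1)`, `u = e(b)`, and
  `(u + 1)/(u - 1) = 1 + (2/ℓ) ∑_{j<ℓ} j u^j` for `u^ℓ = 1`, `u ≠ 1`.
-/

set_option autoImplicit false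

open Complex
open scoped Real

noncomputable section

namespace Fermat.Agent.S48

/-- `(u - 1) ∑_{j<n} j u^j = n u^n - u ∑_{j<n} u^j` -/
theorem e1g_sum_id_mul_pow (u : ℂ) (n : ℕ) :
    (u - 1) * ∑ j ∈ Finset.range n, (j : ℂ) * u ^ j =
      n * u ^ n - u * ∑ j ∈ Finset.range n, u ^ j := by
  induction n with
  | zero => simp
  | succ n ih =>
    rw [Finset.sum_range_succ, Finset.sum_range_succ, mul_add, ih]
    push_cast
    ring

/-- `(u - 1) ∑_{j<n} j u^j = n` for `u^n = 1`, `u ≠ 1` -/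
theorem e1g_sum_root (u : ℂ) (n : ℕ) (hu : u ^ n = 1) (hu1 : u ≠ 1) :
    (u - 1) * ∑ j ∈ Finset.range n, (j : ℂ) * u ^ j = n := by
  have hgeom : ∑ j ∈ Finset.range n, u ^ j = 0 := by
    have h := geom_sum_mul u n
    rw [hu, sub_self] at h
    exact (mul_eq_zero.1 h).resolve_right (sub_ne_zero.2 hu1)
  rw [e1g_sum_id_mul_pow, hu, hgeom]
  simp

/-- `π cot(π x) = π i (1 + (2/n) ∑_{j<n} j u^j)` for `u = exp(2 π i x)`, `u^n = 1`, `u ≠ 1` -/
theorem e1g_cot (x : ℂ) (n : ℕ) (hn : n ≠ 0) (hu : cexp (2 * π * I * x) ^ n = 1)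
    (hu1 : cexp (2 * π * I * x) ≠ 1) :
    π * Complex.cot (π * x) =
      π * I * (1 + 2 / (n : ℂ) * ∑ j ∈ Finset.range n, (j : ℂ) * cexp (2 * π * I * x) ^ j) := by
  have hS := e1g_sum_root _ n hu hu1
  have hne : cexp (2 * π * I * x) - 1 ≠ 0 := sub_ne_zero.2 hu1
  have hne' : 1 - cexp (2 * π * I * x) ≠ 0 := sub_ne_zero.2 (Ne.symm hu1)
  have hn' : (n : ℂ) ≠ 0 := Nat.cast_ne_zero.2 hn
  have hS' : ∑ j ∈ Finset.range n, (j : ℂ) * cexp (2 * π * I * x) ^ j =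
      n / (cexp (2 * π * I * x) - 1) := by
    rw [eq_div_iff hne, mul_comm]
    exact hS
  rw [Complex.cot_pi_eq_exp_ratio, hS']
  have hI : I ≠ 0 := I_ne_zero
  generalize cexp (2 * π * I * x) = u at *
  have h2 : 2 / (n : ℂ) * (n / (u - 1)) = 2 / (u - 1) := by
    field_simp
  rw [h2]
  have h3 : (u + 1) / (I * (1 - u)) = I * (1 + 2 / (u - 1)) := by
    rw [div_eq_iff (mul_ne_zero hI hne')]
    have h4 : I * (1 + 2 / (u - 1)) * (I * (1 - u)) = I * I * ((1 + 2 / (u - 1)) * (1 - u)) := by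
      ring
    have h5 : (1 + 2 / (u - 1)) * (1 - u) = -(u + 1) := by
      field_simp
      ring
    rw [h4, I_mul_I, h5]
    ring
  rw [h3]
  ring

section Char

variable {ℓ : ℕ} [NeZero ℓ]

/-- `exp(2 π i b k / ℓ)` is the value of the standard additive character at `b k` -/
theorem e1g_exp_pos (b : ZMod ℓ) (k : ℕ) :
    cexp (2 * π * I * ((((b.val : ℕ) : ℤ) : ℂ)) * (k : ℂ) / (ℓ : ℂ)) =
      ZMod.stdAddChar (N := ℓ) (b * (k : ZMod ℓ)) := by
  have h := ZMod.stdAddChar_coe (N := ℓ) ((b.val : ℤ) * (k : ℤ))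
  have h2 : (((b.val : ℤ) * (k : ℤ) : ℤ) : ZMod ℓ) = b * (k : ZMod ℓ) := by
    push_cast
    rw [ZMod.natCast_zmod_val]
  rw [h2] at h
  rw [h]
  congr 1
  push_cast
  ring

theorem e1g_exp_neg (b : ZMod ℓ) (k : ℕ) :
    cexp (-(2 * π * I * ((((b.val : ℕ) : ℤ) : ℂ)) * (k : ℂ) / (ℓ : ℂ))) =
      ZMod.stdAddChar (N := ℓ) (b * (-(k : ZMod ℓ))) := by
  rw [Complex.exp_neg, e1g_exp_pos, mul_neg, AddChar.map_neg_eq_inv]

theorem e1g_exp_one (b : ZMod ℓ) :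
    cexp (2 * π * I * (((b.val : ℕ) : ℂ) / (ℓ : ℂ))) = ZMod.stdAddChar (N := ℓ) b := by
  have h := e1g_exp_pos b 1
  simp only [Nat.cast_one, mul_one] at h
  rw [← h]
  congr 1
  push_cast
  ring

/-- `∑_b χ(b) e(b t) = χ⁻¹(t) G` -/
theorem e1g_shift [Fact ℓ.Prime] (χ : DirichletCharacter ℂ ℓ) (hχ : χ ≠ 1) (t : ZMod ℓ) :
    ∑ b : ZMod ℓ, χ b * ZMod.stdAddChar (N := ℓ) (b * t) =
      χ⁻¹ t * gaussSum χ (ZMod.stdAddChar (N := ℓ)) := by
  by_cases ht : IsUnit t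
  · have h := gaussSum_mulShift_eq χ (ZMod.stdAddChar (N := ℓ)) ht.unit
    rw [← ht.unit_spec] at *
    rw [← h, gaussSum]
    refine Finset.sum_congr rfl fun b _ => ?_
    rw [AddChar.mulShift_apply, mul_comm b]
  · have ht0 : t = 0 := by
      by_contra h0
      exact ht (IsUnit.mk0 t h0)
    rw [MulChar.map_nonunit _ ht, zero_mul, ht0]
    simp only [mul_zero, AddChar.map_zero_eq_one, mul_one]
    exact MulChar.sum_eq_zero_of_ne_one hχ

end Char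

/-- piece `E1-gauss` -/
theorem stmtE1Gauss : StmtE1Gauss := by
  intro ℓ _ hℓ ψ hψ
  have : Fact ℓ.Prime := ⟨hℓ⟩
  have hℓ0 : (ℓ : ℂ) ≠ 0 := Nat.cast_ne_zero.2 hℓ.ne_zero
  have hχm1 : ψ⁻¹ (-1) = -1 := by
    rw [MulChar.inv_apply_eq_inv', hψ]
    norm_num
  have hχ : ψ⁻¹ ≠ 1 := by
    intro h
    have h1 : ψ⁻¹ (-1) = 1 := by
      rw [h]
      exact MulChar.one_apply (isUnit_one.neg)
    rw [hχm1] at h1
    norm_num at h1
  have hsh : ∀ t : ZMod ℓ, ∑ b : ZMod ℓ, ψ⁻¹ b * ZMod.stdAddChar (N := ℓ) (b * t) =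
      ψ t * gaussSum ψ⁻¹ (ZMod.stdAddChar (N := ℓ)) := by
    intro t
    rw [e1g_shift ψ⁻¹ hχ t, inv_inv]
  refine ⟨gaussSum ψ⁻¹ (ZMod.stdAddChar (N := ℓ)), ?_, ?_⟩
  · refine gaussSum_ne_zero_of_nontrivial ?_ hχ (ZMod.isPrimitive_stdAddChar ℓ)
    rw [ZMod.card]
    exact hℓ0
  · intro n
    by_cases hn : n = 0
    · subst hn
      simp only [e1Coeff, e1IntCoeff, if_true]
      -- each summand
      have hterm : ∀ b : ZMod ℓ, ψ⁻¹ b * (π * Complex.cot (π * ((((b.val : ℕ) : ℤ) : ℂ)) / (ℓ : ℂ))) =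
          ψ⁻¹ b * (π * I * (1 + 2 / (ℓ : ℂ) *
            ∑ j : ZMod ℓ, ((j.val : ℕ) : ℂ) * ZMod.stdAddChar (N := ℓ) (b * j))) := by
        intro b
        by_cases hb : b = 0
        · rw [hb, MulChar.map_nonunit _ (by simp : ¬ IsUnit (0 : ZMod ℓ)), zero_mul, zero_mul]
        · congr 1
          have hu1 : cexp (2 * π * I * (((b.val : ℕ) : ℂ) / (ℓ : ℂ))) ≠ 1 := by
            rw [e1g_exp_one]
            intro h
            apply hb
            apply ZMod.injective_stdAddChar (N := ℓ)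
            rw [h, AddChar.map_zero_eq_one]
          have hu : cexp (2 * π * I * (((b.val : ℕ) : ℂ) / (ℓ : ℂ))) ^ ℓ = 1 := by
            rw [e1g_exp_one, ← AddChar.map_nsmul_eq_pow]
            simp
          have h := e1g_cot (((b.val : ℕ) : ℂ) / (ℓ : ℂ)) ℓ hℓ.ne_zero hu hu1
          have harg : π * ((((b.val : ℕ) : ℤ) : ℂ)) / (ℓ : ℂ) = π * (((b.val : ℕ) : ℂ) / (ℓ : ℂ)) := by
            push_cast
            ring
          rw [harg, h, e1g_exp_one]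
          congr 3
          -- sum over range vs sum over ZMod
          have hsum : ∑ j : ZMod ℓ, ((j.val : ℕ) : ℂ) * ZMod.stdAddChar (N := ℓ) (b * j) =
              ∑ j : ZMod ℓ, ((j.val : ℕ) : ℂ) * ZMod.stdAddChar (N := ℓ) b ^ j.val := by
            refine Finset.sum_congr rfl fun j _ => ?_
            rw [← AddChar.map_nsmul_eq_pow, nsmul_eq_mul, ZMod.natCast_zmod_val, mul_comm j b]
          rw [hsum]
          obtain ⟨m, rfl⟩ := Nat.exists_eq_succ_of_ne_zero hℓ.ne_zero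
          exact (Fin.sum_univ_eq_sum_range
            (fun j => (j : ℂ) * ZMod.stdAddChar (N := m + 1) b ^ j) (m + 1)).symm
      rw [Finset.sum_congr rfl fun b _ => hterm b]
      simp only [mul_add, mul_one, Finset.sum_add_distrib, ← Finset.sum_mul]
      rw [MulChar.sum_eq_zero_of_ne_one hχ, zero_mul, zero_add]
      -- swap the sums
      have hswap : ∑ b : ZMod ℓ, ψ⁻¹ b * (π * I * (2 / (ℓ : ℂ) *
            ∑ j : ZMod ℓ, ((j.val : ℕ) : ℂ) * ZMod.stdAddChar (N := ℓ) (b * j))) =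
          π * I * (2 / (ℓ : ℂ)) * ∑ j : ZMod ℓ, ((j.val : ℕ) : ℂ) *
            ∑ b : ZMod ℓ, ψ⁻¹ b * ZMod.stdAddChar (N := ℓ) (b * j) := by
        simp only [Finset.mul_sum]
        rw [Finset.sum_comm]
        refine Finset.sum_congr rfl fun j _ => Finset.sum_congr rfl fun b _ => ?_
        ring
      rw [hswap]
      simp only [hsh, Finset.mul_sum]
      refine Finset.sum_congr rfl fun j _ => ?_
      ring
    · simp only [e1Coeff, e1IntCoeff, if_neg hn]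
      have hterm : ∀ b : ZMod ℓ, ψ⁻¹ b * (2 * π * I * ∑ k ∈ n.divisors,
          (cexp (-(2 * π * I * ((((b.val : ℕ) : ℤ) : ℂ)) * (k : ℂ) / (ℓ : ℂ))) -
            cexp (2 * π * I * ((((b.val : ℕ) : ℤ) : ℂ)) * (k : ℂ) / (ℓ : ℂ)))) =
          2 * π * I * ∑ k ∈ n.divisors,
            (ψ⁻¹ b * ZMod.stdAddChar (N := ℓ) (b * (-(k : ZMod ℓ))) -
              ψ⁻¹ b * ZMod.stdAddChar (N := ℓ) (b * (k : ZMod ℓ))) := by
        intro b
        simp only [e1g_exp_neg, e1g_exp_pos, Finset.mul_sum]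
        refine Finset.sum_congr rfl fun k _ => ?_
        ring
      rw [Finset.sum_congr rfl fun b _ => hterm b, ← Finset.mul_sum, Finset.sum_comm]
      simp only [Finset.sum_sub_distrib, hsh]
      have hneg : ∀ k : ℕ, ψ (-(k : ZMod ℓ)) = -ψ (k : ZMod ℓ) := by
        intro k
        rw [← neg_one_mul, map_mul, hψ, neg_one_mul]
      simp only [hneg]
      have hL : (∑ x ∈ n.divisors, -ψ (x : ZMod ℓ) * gaussSum ψ⁻¹ (ZMod.stdAddChar (N := ℓ)) -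
          ∑ x ∈ n.divisors, ψ (x : ZMod ℓ) * gaussSum ψ⁻¹ (ZMod.stdAddChar (N := ℓ))) =
          -(2 * gaussSum ψ⁻¹ (ZMod.stdAddChar (N := ℓ))) * ∑ d ∈ n.divisors, ψ (d : ZMod ℓ) := by
        rw [← Finset.sum_sub_distrib, Finset.mul_sum]
        refine Finset.sum_congr rfl fun k _ => ?_
        ring
      rw [hL]
      field_simp

end Fermat.Agent.S48

end
end ZBZ4S48_015_4
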