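/- GENERATED FILE (helper35, build-time optimisation, NOTES/ZB.md): verbatim concatenation of the modules
   Fermat.Agent.S48.E1.Lambert
   Fermat.Agent.S48.E1.RowSum
   Fermat.Agent.S48.E1.RowBdd
   Do not edit; do not import together with these modules. -/
import Mathlib
import Fermat.Agent.ZB.Z4S48_015

/-! ### bundled: `Fermat.Agent.S48.E1.Lambert` -/
section ZBZ4S48_016_0

/-!
# S48 / E1: the Lambert series `A(u,q)` and the function `C(x,τ)`

* `e1b_lamA u q = ∑_{m ≥ 1} u qᵐ / (1 - u qᵐ)`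
* `e1b_cotC x τ = π cot(π x) - 2πi (A(e(x), e(τ)) - A(e(-x), e(τ)))`, the Eisenstein-summed series
  `∑_m ∑_n 1/(x + mτ + n)`.
* `e1b_cotC_add_one`, `e1b_cotC_add_tau`: `C(x+1,τ) = C(x,τ)`, `C(x+τ,τ) = C(x,τ) - 2πi`.
-/

set_option autoImplicit false

open Complex Filter Topology
open scoped Real

namespace Fermat.Agent.S48

/-- the general term of the Lambert series -/
noncomputable def e1b_lamTerm (u q : ℂ) (m : ℕ) : ℂ := u * q ^ (m + 1) / (1 - u * q ^ (m + 1))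

/-- `A(u,q) = ∑_{m ≥ 1} u qᵐ / (1 - u qᵐ)` -/
noncomputable def e1b_lamA (u q : ℂ) : ℂ := ∑' m : ℕ, e1b_lamTerm u q m

theorem e1b_norm_lamTerm_le {u q : ℂ} {m : ℕ} (h : ‖u * q ^ (m + 1)‖ ≤ 1 / 2) :
    ‖e1b_lamTerm u q m‖ ≤ 2 * ‖u‖ * ‖q‖ ^ (m + 1) := by
  unfold e1b_lamTerm
  have h1 : (1 : ℝ) / 2 ≤ ‖1 - u * q ^ (m + 1)‖ := by
    have := norm_sub_norm_le (1 : ℂ) (u * q ^ (m + 1))
    rw [norm_one] at this
    linarith
  rw [norm_div]
  have hpos : (0 : ℝ) < ‖1 - u * q ^ (m + 1)‖ := by linarith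
  rw [div_le_iff₀ hpos]
  have h2 : ‖u * q ^ (m + 1)‖ = ‖u‖ * ‖q‖ ^ (m + 1) := by rw [norm_mul, norm_pow]
  have h3 : 0 ≤ ‖u‖ * ‖q‖ ^ (m + 1) := by positivity
  rw [h2]
  nlinarith

theorem e1b_eventually_norm_mul_pow_le (u : ℂ) {q : ℂ} (hq : ‖q‖ < 1) :
    ∀ᶠ m : ℕ in atTop, ‖u * q ^ (m + 1)‖ ≤ 1 / 2 := by
  have h1 : Tendsto (fun m : ℕ => ‖u‖ * ‖q‖ ^ (m + 1)) atTop (𝓝 (‖u‖ * 0)) :=
    ((tendsto_pow_atTop_nhds_zero_of_lt_one (norm_nonneg q) hq).comp
      (tendsto_add_atTop_nat 1)).const_mul _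
  rw [mul_zero] at h1
  filter_upwards [h1.eventually (Iio_mem_nhds (show (0 : ℝ) < 1 / 2 by norm_num))] with m hm
  rw [norm_mul, norm_pow]
  exact le_of_lt hm

theorem e1b_summable_lamTerm (u : ℂ) {q : ℂ} (hq : ‖q‖ < 1) : Summable (e1b_lamTerm u q) := by
  have hg : Summable fun m : ℕ => 2 * ‖u‖ * ‖q‖ ^ (m + 1) := by
    have := (summable_geometric_of_lt_one (norm_nonneg q) hq).mul_left (2 * ‖u‖ * ‖q‖)
    refine this.congr fun m => ?_
    ring
  refine Summable.of_norm_bounded_eventually_nat hg ?_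
  filter_upwards [e1b_eventually_norm_mul_pow_le u hq] with m hm
  exact e1b_norm_lamTerm_le hm

theorem e1b_lamTerm_mul_q (u q : ℂ) (m : ℕ) : e1b_lamTerm (u * q) q m = e1b_lamTerm u q (m + 1) := by
  unfold e1b_lamTerm
  rw [show u * q * q ^ (m + 1) = u * q ^ (m + 1 + 1) by ring]

/-- `A(uq, q) = A(u,q) - uq/(1-uq)` -/
theorem e1b_lamA_mul_q (u : ℂ) {q : ℂ} (hq : ‖q‖ < 1) :
    e1b_lamA (u * q) q = e1b_lamA u q - u * q / (1 - u * q) := by
  unfold e1b_lamA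
  rw [(e1b_summable_lamTerm u hq).tsum_eq_zero_add]
  simp only [e1b_lamTerm_mul_q]
  simp [e1b_lamTerm]

/-- `A(u/q, q) = A(u,q) + u/(1-u)` -/
theorem e1b_lamA_div_q (u : ℂ) {q : ℂ} (hq : ‖q‖ < 1) (hq0 : q ≠ 0) :
    e1b_lamA (u / q) q = e1b_lamA u q + u / (1 - u) := by
  have := e1b_lamA_mul_q (u / q) hq
  rw [div_mul_cancel₀ u hq0] at this
  rw [this]
  ring

/-- a bound for `A(u,q)` when `‖u‖ ‖q‖ ≤ 1/2` and `‖q‖ ≤ 1/2` -/
theorem e1b_norm_lamA_le {u q : ℂ} (hq : ‖q‖ ≤ 1 / 2) (huq : ‖u‖ * ‖q‖ ≤ 1 / 2) :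
    ‖e1b_lamA u q‖ ≤ 4 * (‖u‖ * ‖q‖) := by
  have hq1 : ‖q‖ < 1 := by linarith
  have hterm : ∀ m : ℕ, ‖e1b_lamTerm u q m‖ ≤ 2 * (‖u‖ * ‖q‖) * ‖q‖ ^ m := by
    intro m
    have h1 : ‖u * q ^ (m + 1)‖ ≤ 1 / 2 := by
      rw [norm_mul, norm_pow, pow_succ, ← mul_assoc, mul_comm (‖u‖ * _) _, ← mul_assoc,
        mul_comm ‖q‖ ‖u‖]
      have : ‖q‖ ^ m ≤ 1 := pow_le_one₀ (norm_nonneg q) hq1.le
      have h0 : 0 ≤ ‖u‖ * ‖q‖ := by positivity
      nlinarith
    refine (e1b_norm_lamTerm_le h1).trans (le_of_eq ?_)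
    ring
  have hs : Summable fun m : ℕ => 2 * (‖u‖ * ‖q‖) * ‖q‖ ^ m :=
    (summable_geometric_of_lt_one (norm_nonneg q) hq1).mul_left _
  unfold e1b_lamA
  refine (norm_tsum_le_tsum_norm (e1b_summable_lamTerm u hq1).norm).trans ?_
  refine ((e1b_summable_lamTerm u hq1).norm.tsum_le_tsum hterm hs).trans ?_
  rw [tsum_mul_left, tsum_geometric_of_lt_one (norm_nonneg q) hq1]
  have h0 : 0 ≤ ‖u‖ * ‖q‖ := by positivity
  have h2 : (1 - ‖q‖)⁻¹ ≤ 2 := by
    rw [inv_le_comm₀ (by linarith) (by norm_num)]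
    linarith
  nlinarith

/-- `C(x,τ)`: the Eisenstein-summed series `∑_m ∑_n 1/(x + mτ + n)` -/
noncomputable def e1b_cotC (x τ : ℂ) : ℂ :=
  π * cot (π * x) - 2 * π * I *
    (e1b_lamA (cexp (2 * π * I * x)) (cexp (2 * π * I * τ)) -
      e1b_lamA (cexp (-(2 * π * I * x))) (cexp (2 * π * I * τ)))

/-- `π cot(πx) = -πi - 2πi u/(1-u)`, `u = e(x) ≠ 1` -/
theorem e1b_pi_mul_cot_eq (x : ℂ) (hx : cexp (2 * π * I * x) ≠ 1) :
    π * cot (π * x) = -(π * I) - 2 * π * I *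
      (cexp (2 * π * I * x) / (1 - cexp (2 * π * I * x))) := by
  rw [Complex.cot_pi_eq_exp_ratio]
  generalize cexp (2 * π * I * x) = e at hx ⊢
  have h1 : (1 : ℂ) - e ≠ 0 := sub_ne_zero.mpr (Ne.symm hx)
  have hI : (I : ℂ) ≠ 0 := I_ne_zero
  rw [mul_comm I (1 - e), ← div_div, div_I]
  field_simp
  ring

/-- `π cot(πx) = πi + 2πi u⁻¹/(1-u⁻¹)`, `u = e(x) ≠ 1` -/
theorem e1b_pi_mul_cot_eq' (x : ℂ) (hx : cexp (2 * π * I * x) ≠ 1) :
    π * cot (π * x) = π * I + 2 * π * I *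
      (cexp (-(2 * π * I * x)) / (1 - cexp (-(2 * π * I * x)))) := by
  rw [e1b_pi_mul_cot_eq x hx, Complex.exp_neg]
  have h0 : cexp (2 * π * I * x) ≠ 0 := Complex.exp_ne_zero _
  generalize cexp (2 * π * I * x) = e at hx h0 ⊢
  have h1 : (1 : ℂ) - e ≠ 0 := sub_ne_zero.mpr (Ne.symm hx)
  have h3 : e - 1 ≠ 0 := sub_ne_zero.mpr hx
  have h2 : (1 : ℂ) - e⁻¹ = (e - 1) / e := by field_simp
  rw [h2]
  field_simp
  ring

theorem e1b_exp_two_pi_I_add_one (x : ℂ) : cexp (2 * π * I * (x + 1)) = cexp (2 * π * I * x) := by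
  rw [mul_add, Complex.exp_add, mul_one, Complex.exp_two_pi_mul_I, mul_one]

theorem e1b_cotC_add_one (x τ : ℂ) : e1b_cotC (x + 1) τ = e1b_cotC x τ := by
  unfold e1b_cotC
  have h1 : cexp (2 * π * I * (x + 1)) = cexp (2 * π * I * x) := e1b_exp_two_pi_I_add_one x
  have h2 : cexp (-(2 * π * I * (x + 1))) = cexp (-(2 * π * I * x)) := by
    rw [Complex.exp_neg, Complex.exp_neg, h1]
  have h3 : cot (π * (x + 1)) = cot (π * x) := by
    rw [Complex.cot_pi_eq_exp_ratio, Complex.cot_pi_eq_exp_ratio, h1]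
  rw [h1, h2, h3]

theorem e1b_norm_exp_two_pi_I_lt_one_of_im_pos {τ : ℂ} (hτ : 0 < τ.im) :
    ‖cexp (2 * π * I * τ)‖ < 1 := by
  rw [Complex.norm_exp]
  have : (2 * π * I * τ).re = -(2 * π * τ.im) := by
    simp [Complex.mul_re, Complex.mul_im]
  rw [this, Real.exp_lt_one_iff]
  have := Real.pi_pos
  nlinarith

/-- `C(x+τ,τ) = C(x,τ) - 2πi` -/
theorem e1b_cotC_add_tau {x τ : ℂ} (hτ : 0 < τ.im) (hx : cexp (2 * π * I * x) ≠ 1)
    (hx' : cexp (2 * π * I * (x + τ)) ≠ 1) :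
    e1b_cotC (x + τ) τ = e1b_cotC x τ - 2 * π * I := by
  unfold e1b_cotC
  have hq := e1b_norm_exp_two_pi_I_lt_one_of_im_pos hτ
  set q := cexp (2 * π * I * τ) with hqdef
  set u := cexp (2 * π * I * x) with hudef
  have hq0 : q ≠ 0 := Complex.exp_ne_zero _
  have h1 : cexp (2 * π * I * (x + τ)) = u * q := by
    rw [mul_add, Complex.exp_add]
  have h2 : cexp (-(2 * π * I * (x + τ))) = cexp (-(2 * π * I * x)) / q := by
    rw [mul_add, neg_add, Complex.exp_add, Complex.exp_neg (2 * π * I * τ), div_eq_mul_inv]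
  rw [e1b_pi_mul_cot_eq (x + τ) hx', e1b_pi_mul_cot_eq' x hx, h1, h2, e1b_lamA_mul_q u hq,
    e1b_lamA_div_q _ hq hq0]
  ring

end Fermat.Agent.S48


end ZBZ4S48_016_0

/-! ### bundled: `Fermat.Agent.S48.E1.RowSum` -/
section ZBZ4S48_016_1

/-!
# S48 / E1-bdd, part 1: the rows of `e1Zrow` in Lambert form

For `0 ≤ a < N`, `Im τ > 0`, `z₀ = (aτ + b)/N`, `u = e(z₀)`, `q = e(τ)`:

* `e1b_row_pos`:  `e1Row N a b τ (n+1) = 2πi (u⁻¹qⁿ⁺¹/(1-u⁻¹qⁿ⁺¹) - qⁿ⁺¹/(1-qⁿ⁺¹))`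
* `e1b_row_neg`:  `e1Row N a b τ (-(n+1)) = -2πi (u qⁿ⁺¹/(1-u qⁿ⁺¹) - qⁿ⁺¹/(1-qⁿ⁺¹))`
* `e1b_hasSum_row`: `HasSum (e1Row N a b τ) (e1b_cotC z₀ τ)`
* `e1b_e1Zrow_eq`:  `e1Zrow N a b τ = 2πi a/N + e1b_cotC z₀ τ`
-/

set_option autoImplicit false
set_option linter.unusedSectionVars false

open Complex Filter Topology
open scoped Real

namespace Fermat.Agent.S48

theorem e1b_im_e1Pt (N : ℕ) (a b : ℤ) (τ : ℂ) :
    (e1Pt N a b τ).im = (a : ℝ) / (N : ℝ) * τ.im := by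
  unfold e1Pt
  rw [show ((a : ℂ) * τ + (b : ℂ)) / (N : ℂ) = ((a : ℂ) * τ + (b : ℂ)) * (((N : ℝ)⁻¹ : ℝ) : ℂ) by
    rw [div_eq_mul_inv]; push_cast; rfl]
  rw [Complex.im_mul_ofReal]
  simp [Complex.add_im, Complex.mul_im]
  ring

theorem e1b_norm_exp (x : ℂ) : ‖cexp (2 * π * I * x)‖ = Real.exp (-(2 * π * x.im)) := by
  rw [Complex.norm_exp]
  congr 1
  simp [Complex.mul_re, Complex.mul_im]

theorem e1b_norm_exp_neg (x : ℂ) : ‖cexp (-(2 * π * I * x))‖ = Real.exp (2 * π * x.im) := by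
  rw [Complex.norm_exp]
  congr 1
  simp [Complex.mul_re, Complex.mul_im]

theorem e1b_exp_ne_one_of_im_ne_zero {x : ℂ} (hx : x.im ≠ 0) : cexp (2 * π * I * x) ≠ 1 := by
  intro h
  have h1 := e1b_norm_exp x
  rw [h, norm_one] at h1
  have h2 : -(2 * π * x.im) = 0 := by
    have := h1.symm
    rwa [Real.exp_eq_one_iff] at this
  have := Real.pi_pos
  have h3 : x.im = 0 := by nlinarith
  exact hx h3

section Rows

variable (N : ℕ) [NeZero N] (a b : ℤ) {τ : ℂ}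

theorem e1b_exp_nat_mul (τ : ℂ) (n : ℕ) :
    cexp (2 * π * I * (((n + 1 : ℕ) : ℂ) * τ)) = cexp (2 * π * I * τ) ^ (n + 1) := by
  rw [← Complex.exp_nat_mul]
  congr 1
  push_cast
  ring

/-- the rows with positive index -/
theorem e1b_row_pos (hτ : 0 < τ.im) (ha0 : 0 ≤ a) (haN : a < N) (n : ℕ) :
    e1Row N a b τ ((n : ℤ) + 1) = 2 * π * I *
      (e1b_lamTerm (cexp (-(2 * π * I * e1Pt N a b τ))) (cexp (2 * π * I * τ)) n -
        e1b_lamTerm 1 (cexp (2 * π * I * τ)) n) := by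
  have hN : (0 : ℝ) < N := Nat.cast_pos.mpr (Nat.pos_of_ne_zero (NeZero.ne N))
  unfold e1Row e1b_lamTerm
  have him : (e1Pt N a b τ - (((n : ℤ) + 1 : ℤ) : ℂ) * τ).im ≠ 0 := by
    rw [Complex.sub_im, e1b_im_e1Pt]
    have h1 : ((((n : ℤ) + 1 : ℤ) : ℂ) * τ).im = ((n : ℝ) + 1) * τ.im := by
      simp [Complex.mul_im]
    rw [h1]
    have h2 : (a : ℝ) / N < 1 := by
      rw [div_lt_one hN]; exact_mod_cast haN
    have h3 : (0 : ℝ) ≤ n := Nat.cast_nonneg n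
    have : (a : ℝ) / N * τ.im - ((n : ℝ) + 1) * τ.im < 0 := by nlinarith
    exact ne_of_lt this
  have him2 : ((((n : ℤ) + 1 : ℤ) : ℂ) * τ).im ≠ 0 := by
    have h1 : ((((n : ℤ) + 1 : ℤ) : ℂ) * τ).im = ((n : ℝ) + 1) * τ.im := by
      simp [Complex.mul_im]
    rw [h1]
    have h3 : (0 : ℝ) ≤ n := Nat.cast_nonneg n
    positivity
  rw [e1b_pi_mul_cot_eq' _ (e1b_exp_ne_one_of_im_ne_zero him),
    e1b_pi_mul_cot_eq _ (e1b_exp_ne_one_of_im_ne_zero him2)]
  have hq : cexp (2 * π * I * ((((n : ℤ) + 1 : ℤ) : ℂ) * τ)) = cexp (2 * π * I * τ) ^ (n + 1) := by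
    rw [← e1b_exp_nat_mul]
    congr 2
  have hu : cexp (-(2 * π * I * (e1Pt N a b τ - (((n : ℤ) + 1 : ℤ) : ℂ) * τ))) =
      cexp (-(2 * π * I * e1Pt N a b τ)) * cexp (2 * π * I * τ) ^ (n + 1) := by
    rw [← hq, ← Complex.exp_add]
    congr 1
    ring
  rw [hq, hu, one_mul]
  push_cast
  ring

/-- the rows with negative index -/
theorem e1b_row_neg (hτ : 0 < τ.im) (ha0 : 0 ≤ a) (n : ℕ) :
    e1Row N a b τ (-((n : ℤ) + 1)) = -(2 * π * I) *
      (e1b_lamTerm (cexp (2 * π * I * e1Pt N a b τ)) (cexp (2 * π * I * τ)) n -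
        e1b_lamTerm 1 (cexp (2 * π * I * τ)) n) := by
  have hN : (0 : ℝ) < N := Nat.cast_pos.mpr (Nat.pos_of_ne_zero (NeZero.ne N))
  unfold e1Row e1b_lamTerm
  have hcast : ((-((n : ℤ) + 1) : ℤ) : ℂ) = -(((n + 1 : ℕ) : ℂ)) := by push_cast; ring
  rw [hcast]
  have him : (e1Pt N a b τ - -(((n + 1 : ℕ) : ℂ)) * τ).im ≠ 0 := by
    rw [Complex.sub_im, e1b_im_e1Pt]
    have h1 : (-(((n + 1 : ℕ) : ℂ)) * τ).im = -(((n : ℝ) + 1) * τ.im) := by
      simp [Complex.mul_im]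
      ring
    rw [h1]
    have h2 : (0 : ℝ) ≤ (a : ℝ) / N := div_nonneg (by exact_mod_cast ha0) hN.le
    have h3 : (0 : ℝ) ≤ n := Nat.cast_nonneg n
    have : 0 < (a : ℝ) / N * τ.im - -(((n : ℝ) + 1) * τ.im) := by nlinarith
    exact ne_of_gt this
  have him2 : ((((n + 1 : ℕ) : ℂ)) * τ).im ≠ 0 := by
    have h1 : ((((n + 1 : ℕ) : ℂ)) * τ).im = ((n : ℝ) + 1) * τ.im := by
      simp [Complex.mul_im]
    rw [h1]
    have h3 : (0 : ℝ) ≤ n := Nat.cast_nonneg n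
    positivity
  have hcot : cot (π * (-(((n + 1 : ℕ) : ℂ)) * τ)) = -cot (π * ((((n + 1 : ℕ) : ℂ)) * τ)) := by
    rw [show π * (-(((n + 1 : ℕ) : ℂ)) * τ) = -(π * ((((n + 1 : ℕ) : ℂ)) * τ)) by ring]
    simp only [Complex.cot, Complex.cos_neg, Complex.sin_neg, div_neg]
  rw [hcot, mul_neg, e1b_pi_mul_cot_eq _ (e1b_exp_ne_one_of_im_ne_zero him),
    e1b_pi_mul_cot_eq _ (e1b_exp_ne_one_of_im_ne_zero him2)]
  have hq : cexp (2 * π * I * ((((n + 1 : ℕ) : ℂ)) * τ)) = cexp (2 * π * I * τ) ^ (n + 1) :=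
    e1b_exp_nat_mul τ n
  have hu : cexp (2 * π * I * (e1Pt N a b τ - -(((n + 1 : ℕ) : ℂ)) * τ)) =
      cexp (2 * π * I * e1Pt N a b τ) * cexp (2 * π * I * τ) ^ (n + 1) := by
    rw [← hq, ← Complex.exp_add]
    congr 1
    ring
  rw [hq, hu, one_mul]
  ring

theorem e1b_row_zero (τ : ℂ) : e1Row N a b τ 0 = π * cot (π * e1Pt N a b τ) := by
  unfold e1Row
  simp [Complex.cot]

/-- the rows are summable, with sum `C(z₀, τ)` -/
theorem e1b_hasSum_row (hτ : 0 < τ.im) (ha0 : 0 ≤ a) (haN : a < N) :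
    HasSum (e1Row N a b τ) (e1b_cotC (e1Pt N a b τ) τ) := by
  have hq := e1b_norm_exp_two_pi_I_lt_one_of_im_pos hτ
  set q := cexp (2 * π * I * τ) with hqdef
  set u := cexp (2 * π * I * e1Pt N a b τ) with hudef
  set v := cexp (-(2 * π * I * e1Pt N a b τ)) with hvdef
  have h1 : HasSum (fun n : ℕ => e1Row N a b τ ((n : ℤ) + 1))
      (2 * π * I * (e1b_lamA v q - e1b_lamA 1 q)) := by
    have := (((e1b_summable_lamTerm v hq).hasSum.sub
      (e1b_summable_lamTerm 1 hq).hasSum).mul_left (2 * π * I))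
    refine this.congr_fun ?_
    intro n
    exact e1b_row_pos N a b hτ ha0 haN n
  have h2 : HasSum (fun n : ℕ => e1Row N a b τ (-((n : ℤ) + 1)))
      (-(2 * π * I) * (e1b_lamA u q - e1b_lamA 1 q)) := by
    have := (((e1b_summable_lamTerm u hq).hasSum.sub
      (e1b_summable_lamTerm 1 hq).hasSum).mul_left (-(2 * π * I)))
    refine this.congr_fun ?_
    intro n
    exact e1b_row_neg N a b hτ ha0 n
  have h3 := HasSum.of_add_one_of_neg_add_one h1 h2
  rw [e1b_row_zero] at h3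
  convert h3 using 1
  unfold e1b_cotC
  ring

theorem e1b_e1Zrow_eq (hτ : 0 < τ.im) (ha0 : 0 ≤ a) (haN : a < N) :
    e1Zrow N a b τ = 2 * π * I * (a : ℂ) / (N : ℂ) + e1b_cotC (e1Pt N a b τ) τ := by
  unfold e1Zrow
  rw [(e1b_hasSum_row N a b hτ ha0 haN).tsum_eq]

end Rows

end Fermat.Agent.S48


end ZBZ4S48_016_1

/-! ### bundled: `Fermat.Agent.S48.E1.RowBdd` -/
section ZBZ4S48_016_2

/-!
# S48 / E1-bdd: the division values `e1Zrow N a b` are holomorphic and bounded at `i∞`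

`stmtE1RowMDiff : StmtE1RowMDiff`, `stmtE1RowBdd : StmtE1RowBdd` (statements of `S48/E1/Plan.lean`).
Both are read off from the Lambert form `e1Zrow = 2πi a/N + C(z₀, τ)` (`e1b_e1Zrow_eq`).
-/

set_option autoImplicit false
set_option linter.unusedSectionVars false

open Complex Filter Topology
open UpperHalfPlane hiding I
open scoped Real Manifold

namespace Fermat.Agent.S48

/-! ### bounds for the Lambert terms -/

theorem e1b_one_sub_ne_zero {w : ℂ} (hw : ‖w‖ < 1) : (1 : ℂ) - w ≠ 0 := by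
  intro h
  have : w = 1 := (sub_eq_zero.mp h).symm
  rw [this, norm_one] at hw
  exact lt_irrefl _ hw

theorem e1b_norm_lamTerm_le_pow {u q : ℂ} {m : ℕ} {r : ℝ} (hr0 : 0 ≤ r) (hr : r < 1)
    (h : ‖u * q ^ (m + 1)‖ ≤ r ^ (m + 1)) :
    ‖e1b_lamTerm u q m‖ ≤ r ^ (m + 1) / (1 - r) := by
  unfold e1b_lamTerm
  have h1 : r ^ (m + 1) ≤ r := by
    calc r ^ (m + 1) ≤ r ^ 1 := pow_le_pow_of_le_one hr0 hr.le (by omega)
      _ = r := pow_one r
  have h2 : 1 - r ≤ ‖1 - u * q ^ (m + 1)‖ := by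
    have := norm_sub_norm_le (1 : ℂ) (u * q ^ (m + 1))
    rw [norm_one] at this
    linarith
  have hpos : 0 < 1 - r := by linarith
  rw [norm_div]
  calc ‖u * q ^ (m + 1)‖ / ‖1 - u * q ^ (m + 1)‖
      ≤ r ^ (m + 1) / ‖1 - u * q ^ (m + 1)‖ :=
        div_le_div_of_nonneg_right h (norm_nonneg _)
    _ ≤ r ^ (m + 1) / (1 - r) :=
        div_le_div_of_nonneg_left (pow_nonneg hr0 _) hpos h2

/-- holomorphy of `z ↦ A(U z, Q z)` -/
theorem e1b_differentiableOn_lamA {U Q : ℂ → ℂ} {s : Set ℂ} (hs : IsOpen s)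
    (hU : DifferentiableOn ℂ U s) (hQ : DifferentiableOn ℂ Q s) {r : ℝ} (hr0 : 0 ≤ r)
    (hr : r < 1) (hb : ∀ z ∈ s, ∀ m : ℕ, ‖U z * Q z ^ (m + 1)‖ ≤ r ^ (m + 1)) :
    DifferentiableOn ℂ (fun z => e1b_lamA (U z) (Q z)) s := by
  unfold e1b_lamA
  have hsum : Summable fun m : ℕ => r ^ (m + 1) / (1 - r) := by
    have := ((summable_geometric_of_lt_one hr0 hr).mul_left (r / (1 - r)))
    refine this.congr fun m => ?_
    rw [pow_succ]
    ring
  refine differentiableOn_tsum_of_summable_norm hsum ?_ hs ?_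
  · intro m
    unfold e1b_lamTerm
    refine DifferentiableOn.div (hU.mul (hQ.pow _)) ((differentiableOn_const _).sub
      (hU.mul (hQ.pow _))) ?_
    intro z hz
    refine e1b_one_sub_ne_zero ?_
    refine (hb z hz m).trans_lt ?_
    exact pow_lt_one₀ hr0 hr (by omega)
  · intro m z hz
    exact e1b_norm_lamTerm_le_pow hr0 hr (hb z hz m)

section Main

variable (N : ℕ) [NeZero N] (a b : ℤ)

theorem e1b_differentiable_e1Pt : Differentiable ℂ (fun z : ℂ => e1Pt N a b z) := by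
  unfold e1Pt
  fun_prop

theorem e1b_exp_le_one_half : Real.exp (-(2 * π)) ≤ 1 / 2 := by
  have h1 : (2 : ℝ) ≤ Real.exp (2 * π) := by
    have := Real.add_one_le_exp (2 * π)
    have := Real.pi_gt_three
    linarith
  rw [Real.exp_neg, inv_eq_one_div]
  exact div_le_div_of_nonneg_left zero_le_one (by norm_num) h1

/-- the point `z₀` is not an integer (as witnessed by `e(z₀) ≠ 1`) -/
theorem e1b_exp_e1Pt_ne_one {τ : ℂ} (hτ : 0 < τ.im) (ha0 : 0 ≤ a) (haN : a < N)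
    (hab : ¬ ((N : ℤ) ∣ a ∧ (N : ℤ) ∣ b)) : cexp (2 * π * I * e1Pt N a b τ) ≠ 1 := by
  have hN : (0 : ℝ) < N := Nat.cast_pos.mpr (Nat.pos_of_ne_zero (NeZero.ne N))
  rcases eq_or_lt_of_le ha0 with h0 | hpos
  · -- `a = 0`
    subst h0
    have hb : ¬ (N : ℤ) ∣ b := fun h => hab ⟨dvd_zero _, h⟩
    intro h
    rw [Complex.exp_eq_one_iff] at h
    obtain ⟨n, hn⟩ := h
    apply hb
    refine ⟨n, ?_⟩
    have hN' : (N : ℂ) ≠ 0 := Nat.cast_ne_zero.mpr (NeZero.ne N)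
    have h2 : e1Pt N 0 b τ = n := by
      have hpi : (2 * π * I : ℂ) ≠ 0 := by
        simp [Real.pi_ne_zero, I_ne_zero]
      have : 2 * π * I * e1Pt N 0 b τ = 2 * π * I * n := by rw [hn]; ring
      exact mul_left_cancel₀ hpi this
    unfold e1Pt at h2
    simp only [Int.cast_zero, zero_mul, zero_add] at h2
    rw [div_eq_iff hN'] at h2
    have h3 : ((b : ℤ) : ℂ) = ((n * N : ℤ) : ℂ) := by rw [h2]; push_cast; ring
    have := Int.cast_injective h3
    rw [this]; ring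
  · apply e1b_exp_ne_one_of_im_ne_zero
    rw [e1b_im_e1Pt]
    have : (0 : ℝ) < a := by exact_mod_cast hpos
    positivity

theorem e1b_differentiableOn (ha0 : 0 ≤ a) (haN : a < N)
    (hab : ¬ ((N : ℤ) ∣ a ∧ (N : ℤ) ∣ b)) :
    DifferentiableOn ℂ (fun z : ℂ => e1Zrow N a b z) {z | 0 < z.im} := by
  have hN : (0 : ℝ) < N := Nat.cast_pos.mpr (Nat.pos_of_ne_zero (NeZero.ne N))
  have haN' : (a : ℝ) / N < 1 := by rw [div_lt_one hN]; exact_mod_cast haN
  have ha0' : (0 : ℝ) ≤ (a : ℝ) / N := div_nonneg (by exact_mod_cast ha0) hN.le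
  intro z hz
  have hz' : 0 < z.im := hz
  -- work on the open half plane `{ε < Im}`
  set ε := z.im / 2 with hε
  have hεpos : 0 < ε := by positivity
  set s : Set ℂ := {w | ε < w.im} with hs
  have hsopen : IsOpen s := isOpen_lt continuous_const Complex.continuous_im
  have hzs : z ∈ s := by
    change ε < z.im
    rw [hε]; linarith
  have hsub : s ⊆ {w | 0 < w.im} := fun w hw => lt_trans hεpos hw
  suffices h : DifferentiableOn ℂ (fun w : ℂ => e1Zrow N a b w) s from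
    ((h z hzs).differentiableAt (hsopen.mem_nhds hzs)).differentiableWithinAt
  have hU : Differentiable ℂ (fun w : ℂ => cexp (2 * π * I * e1Pt N a b w)) :=
    (((differentiable_const _).mul (e1b_differentiable_e1Pt N a b))).cexp
  have hV : Differentiable ℂ (fun w : ℂ => cexp (-(2 * π * I * e1Pt N a b w))) :=
    (((differentiable_const _).mul (e1b_differentiable_e1Pt N a b))).neg.cexp
  have hQ : Differentiable ℂ (fun w : ℂ => cexp (2 * π * I * w)) :=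
    ((differentiable_const _).mul differentiable_id).cexp
  -- the Lambert parts
  have hA1 : DifferentiableOn ℂ (fun w : ℂ =>
      e1b_lamA (cexp (2 * π * I * e1Pt N a b w)) (cexp (2 * π * I * w))) s := by
    refine e1b_differentiableOn_lamA hsopen hU.differentiableOn hQ.differentiableOn
      (r := Real.exp (-(2 * π * ε))) (Real.exp_nonneg _) ?_ ?_
    · rw [Real.exp_lt_one_iff]
      have := Real.pi_pos
      nlinarith
    · intro w hw m
      have hw' : ε < w.im := hw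
      rw [norm_mul, norm_pow, e1b_norm_exp, e1b_norm_exp, ← Real.exp_nat_mul, ← Real.exp_nat_mul,
        ← Real.exp_add, Real.exp_le_exp, e1b_im_e1Pt]
      have hm : (0 : ℝ) ≤ m := Nat.cast_nonneg m
      have hπ := Real.pi_pos
      have hwpos : 0 < w.im := lt_trans hεpos hw'
      have h1 : 0 ≤ (a : ℝ) / N * w.im := by positivity
      have key : 0 ≤ π * (((m : ℝ) + 1) * (w.im - ε) + (a : ℝ) / N * w.im) := by
        have : 0 ≤ ((m : ℝ) + 1) * (w.im - ε) := mul_nonneg (by linarith) (by linarith)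
        positivity
      push_cast
      nlinarith [key]
  have hA2 : DifferentiableOn ℂ (fun w : ℂ =>
      e1b_lamA (cexp (-(2 * π * I * e1Pt N a b w))) (cexp (2 * π * I * w))) s := by
    refine e1b_differentiableOn_lamA hsopen hV.differentiableOn hQ.differentiableOn
      (r := Real.exp (-(2 * π * ((1 - (a : ℝ) / N) * ε)))) (Real.exp_nonneg _) ?_ ?_
    · rw [Real.exp_lt_one_iff]
      have := Real.pi_pos
      have : 0 < (1 - (a : ℝ) / N) * ε := by nlinarith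
      nlinarith
    · intro w hw m
      have hw' : ε < w.im := hw
      rw [norm_mul, norm_pow, e1b_norm_exp_neg, e1b_norm_exp, ← Real.exp_nat_mul,
        ← Real.exp_nat_mul, ← Real.exp_add, Real.exp_le_exp, e1b_im_e1Pt]
      have hm : (0 : ℝ) ≤ m := Nat.cast_nonneg m
      have hπ := Real.pi_pos
      have hwpos : 0 < w.im := lt_trans hεpos hw'
      have h1 : 0 < 1 - (a : ℝ) / N := by linarith
      have h2 : (1 - (a : ℝ) / N) * ε ≤ (1 - (a : ℝ) / N) * w.im := by nlinarith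
      have h3 : 0 ≤ (m : ℝ) * w.im := by positivity
      have key : 0 ≤ π * (((m : ℝ) + 1) * ((1 - (a : ℝ) / N) * (w.im - ε)) +
          (m : ℝ) * ((a : ℝ) / N * w.im)) := by
        have h4 : 0 ≤ ((m : ℝ) + 1) * ((1 - (a : ℝ) / N) * (w.im - ε)) :=
          mul_nonneg (by linarith) (mul_nonneg h1.le (by linarith))
        have h5 : 0 ≤ (m : ℝ) * ((a : ℝ) / N * w.im) := by positivity
        positivity
      push_cast
      nlinarith [key]
  -- the cotangent part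
  have hcot : DifferentiableOn ℂ (fun w : ℂ => (π : ℂ) * cot (π * e1Pt N a b w)) s := by
    have h1 : DifferentiableOn ℂ (fun w : ℂ => -(π * I) - 2 * π * I *
        (cexp (2 * π * I * e1Pt N a b w) / (1 - cexp (2 * π * I * e1Pt N a b w)))) s := by
      refine (differentiableOn_const _).sub ((differentiableOn_const _).mul
        (DifferentiableOn.div hU.differentiableOn
          ((differentiableOn_const _).sub hU.differentiableOn) ?_))
      intro w hw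
      exact sub_ne_zero.mpr (Ne.symm (e1b_exp_e1Pt_ne_one N a b (hsub hw) ha0 haN hab))
    refine h1.congr ?_
    intro w hw
    exact e1b_pi_mul_cot_eq _ (e1b_exp_e1Pt_ne_one N a b (hsub hw) ha0 haN hab)
  have htot : DifferentiableOn ℂ (fun w : ℂ => 2 * π * I * (a : ℂ) / (N : ℂ) +
      ((π : ℂ) * cot (π * e1Pt N a b w) - 2 * π * I *
        (e1b_lamA (cexp (2 * π * I * e1Pt N a b w)) (cexp (2 * π * I * w)) -
          e1b_lamA (cexp (-(2 * π * I * e1Pt N a b w))) (cexp (2 * π * I * w))))) s :=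
    (differentiableOn_const _).add (hcot.sub ((differentiableOn_const _).mul (hA1.sub hA2)))
  refine htot.congr ?_
  intro w hw
  rw [e1b_e1Zrow_eq N a b (hsub hw) ha0 haN]
  simp only [e1b_cotC]

/-- **E1-bdd, holomorphy.** -/
theorem stmtE1RowMDiff : StmtE1RowMDiff := by
  intro N _ a b ha0 haN hab
  rw [UpperHalfPlane.mdifferentiable_iff]
  refine (e1b_differentiableOn N a b ha0 haN hab).congr ?_
  intro z hz
  have hz' : 0 < z.im := hz
  simp only [Function.comp_apply, ofComplex_apply_of_im_pos hz']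

/-- **E1-bdd, boundedness at `i∞`.** -/
theorem stmtE1RowBdd : StmtE1RowBdd := by
  intro N _ a b ha0 haN hab
  have hN : (0 : ℝ) < N := Nat.cast_pos.mpr (Nat.pos_of_ne_zero (NeZero.ne N))
  have haN' : (a : ℝ) / N < 1 := by rw [div_lt_one hN]; exact_mod_cast haN
  have ha0' : (0 : ℝ) ≤ (a : ℝ) / N := div_nonneg (by exact_mod_cast ha0) hN.le
  have haN1 : (a : ℝ) + 1 ≤ N := by exact_mod_cast (Int.add_one_le_iff.mpr haN)
  rw [isBoundedAtImInfty_iff]
  refine ⟨‖2 * π * I * (a : ℂ) / (N : ℂ)‖ + (‖(π : ℂ) * cot (π * ((b : ℂ) / (N : ℂ)))‖ + 3 * π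
    + 2 * π * (2 + 2)), N, ?_⟩
  intro z hz
  have hzpos : 0 < (z : ℂ).im := z.im_pos
  have hzN : (N : ℝ) ≤ (z : ℂ).im := hz
  have hπ := Real.pi_pos
  rw [e1b_e1Zrow_eq N a b hzpos ha0 haN]
  refine (norm_add_le _ _).trans (add_le_add le_rfl ?_)
  unfold e1b_cotC
  set q := cexp (2 * π * I * (z : ℂ)) with hq
  set u := cexp (2 * π * I * e1Pt N a b z) with hu
  set v := cexp (-(2 * π * I * e1Pt N a b z)) with hv
  have hhalf := e1b_exp_le_one_half
  -- norms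
  have hqn : ‖q‖ ≤ 1 / 2 := by
    rw [hq, e1b_norm_exp]
    refine le_trans (Real.exp_le_exp.mpr ?_) hhalf
    have : (1 : ℝ) ≤ N := by exact_mod_cast Nat.one_le_iff_ne_zero.mpr (NeZero.ne N)
    nlinarith
  have hun : ‖u‖ ≤ 1 := by
    rw [hu, e1b_norm_exp, e1b_im_e1Pt]
    rw [Real.exp_le_one_iff]
    have : 0 ≤ (a : ℝ) / N * (z : ℂ).im := by positivity
    nlinarith
  have huq : ‖u‖ * ‖q‖ ≤ 1 / 2 := by
    calc ‖u‖ * ‖q‖ ≤ 1 * ‖q‖ := mul_le_mul_of_nonneg_right hun (norm_nonneg _)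
      _ = ‖q‖ := one_mul _
      _ ≤ 1 / 2 := hqn
  have hvq : ‖v‖ * ‖q‖ ≤ 1 / 2 := by
    rw [hv, hq, e1b_norm_exp_neg, e1b_norm_exp, ← Real.exp_add, e1b_im_e1Pt]
    refine le_trans (Real.exp_le_exp.mpr ?_) hhalf
    have h1 : (1 : ℝ) / N ≤ 1 - (a : ℝ) / N := by
      rw [le_sub_iff_add_le, ← add_div, div_le_one hN]
      linarith
    have h2 : 1 ≤ (1 - (a : ℝ) / N) * (z : ℂ).im := by
      calc (1 : ℝ) = 1 / N * N := by field_simp
        _ ≤ (1 - (a : ℝ) / N) * (z : ℂ).im :=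
          mul_le_mul h1 hzN hN.le (by linarith)
    nlinarith
  have hA1 : ‖e1b_lamA u q‖ ≤ 2 := by
    refine (e1b_norm_lamA_le hqn huq).trans ?_
    linarith
  have hA2 : ‖e1b_lamA v q‖ ≤ 2 := by
    refine (e1b_norm_lamA_le hqn hvq).trans ?_
    linarith
  -- the cotangent term
  have hcot : ‖(π : ℂ) * cot (π * e1Pt N a b z)‖ ≤
      ‖(π : ℂ) * cot (π * ((b : ℂ) / (N : ℂ)))‖ + 3 * π := by
    rcases eq_or_lt_of_le ha0 with h0 | hpos
    · subst h0
      have : e1Pt N 0 b (z : ℂ) = (b : ℂ) / (N : ℂ) := by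
        unfold e1Pt; simp
      rw [this]
      have : (0 : ℝ) ≤ 3 * π := by positivity
      linarith
    · have ha1 : (1 : ℝ) ≤ a := by exact_mod_cast hpos
      have hun' : ‖u‖ ≤ 1 / 2 := by
        rw [hu, e1b_norm_exp, e1b_im_e1Pt]
        refine le_trans (Real.exp_le_exp.mpr ?_) hhalf
        have h1 : (1 : ℝ) / N ≤ (a : ℝ) / N := div_le_div_of_nonneg_right ha1 hN.le
        have h2 : 1 ≤ (a : ℝ) / N * (z : ℂ).im := by
          calc (1 : ℝ) = 1 / N * N := by field_simp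
            _ ≤ (a : ℝ) / N * (z : ℂ).im :=
              mul_le_mul h1 hzN hN.le (by positivity)
        nlinarith
      rw [e1b_pi_mul_cot_eq _ (e1b_exp_e1Pt_ne_one N a b hzpos ha0 haN hab)]
      have h1 : ‖u / (1 - u)‖ ≤ 1 := by
        rw [norm_div]
        have h2 : (1 : ℝ) / 2 ≤ ‖1 - u‖ := by
          have := norm_sub_norm_le (1 : ℂ) u
          rw [norm_one] at this
          linarith
        rw [div_le_one (by linarith)]
        linarith
      have h3 : ‖-((π : ℂ) * I) - 2 * π * I * (u / (1 - u))‖ ≤ 3 * π := by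
        refine (norm_sub_le _ _).trans ?_
        rw [norm_neg, norm_mul, norm_mul, norm_mul, norm_mul, Complex.norm_I, Complex.norm_real,
          Real.norm_of_nonneg hπ.le]
        simp only [Complex.norm_ofNat, mul_one]
        nlinarith
      have : 0 ≤ ‖(π : ℂ) * cot (π * ((b : ℂ) / (N : ℂ)))‖ := norm_nonneg _
      linarith
  refine (norm_sub_le _ _).trans ?_
  have h5 : ‖2 * (π : ℂ) * I * (e1b_lamA u q - e1b_lamA v q)‖ ≤ 2 * π * (2 + 2) := by
    rw [norm_mul, norm_mul, norm_mul, Complex.norm_I, Complex.norm_real,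
      Real.norm_of_nonneg hπ.le]
    simp only [Complex.norm_ofNat, mul_one]
    have := norm_sub_le (e1b_lamA u q) (e1b_lamA v q)
    have h6 : ‖e1b_lamA u q - e1b_lamA v q‖ ≤ 2 + 2 := by linarith
    have : 0 ≤ 2 * π := by positivity
    nlinarith
  linarith

end Main

end Fermat.Agent.S48


end ZBZ4S48_016_2
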