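/- GENERATED FILE (helper35, build-time optimisation, NOTES/ZB.md): verbatim concatenation of the modules
   Fermat.Agent.S48.ZbLemmas
   Fermat.Agent.S48.Bound
   Fermat.Agent.S48.ResGlue
   Fermat.Agent.S48.E1.Teich
   Fermat.Agent.S48.E1.Final
   Do not edit; do not import together with these modules. -/
import Mathlib
import Fermat.Agent.ZB.S48_002
import Fermat.Agent.ZB.Z4S48_001
import Fermat.Agent.ZB.Z4S48_002
import Fermat.Agent.ZB.Z4S48_012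
import Fermat.Agent.ZB.Z4S48_015
import Fermat.Agent.ZB.Z4S48_016

/-! ### bundled: `Fermat.Agent.S48.ZbLemmas` -/
section ZBZ4S48_003_0

/-!
# S48 (END assembly): the ring `ℤ̄` of algebraic integers in `ℂ` and its maximal ideals

* `zb_int_dvd_of_mem` : a maximal ideal over `ℓ` meets `ℤ` in `ℓ ℤ`.
* `zb_prime_bound_of_mem` : a nonzero algebraic integer lies in maximal ideals over finitely many `ℓ`.
* `zb_exists_maximal` : every prime `ℓ` lies in a maximal ideal.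
* `zb_of_pow_eq_one` : roots of unity are algebraic integers.
* `zb_exists_root`, `zb_quotient_isAlgClosed` : `ℤ̄ / 𝔪` is algebraically closed.
-/

set_option autoImplicit false

namespace Fermat.Agent.S48

theorem zb_int_dvd_of_mem {𝔪 : Ideal Zb} (h𝔪 : 𝔪 ≠ ⊤) {ℓ : ℕ} (hℓ : ℓ.Prime)
    (hℓ𝔪 : ((ℓ : ℕ) : Zb) ∈ 𝔪) {n : ℤ} (hn : ((n : ℤ) : Zb) ∈ 𝔪) : (ℓ : ℤ) ∣ n := by
  by_contra hdvd
  have hcop : IsCoprime (ℓ : ℤ) n := by
    rw [Int.isCoprime_iff_gcd_eq_one]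
    have hp : Prime (ℓ : ℤ) := Nat.prime_iff_prime_int.mp hℓ
    exact Int.isCoprime_iff_gcd_eq_one.mp ((Prime.coprime_iff_not_dvd hp).mpr hdvd)
  obtain ⟨u, v, huv⟩ := hcop
  apply h𝔪
  rw [Ideal.eq_top_iff_one]
  have h1 : ((u : ℤ) : Zb) * ((ℓ : ℕ) : Zb) + ((v : ℤ) : Zb) * ((n : ℤ) : Zb) = 1 := by
    have := congrArg (fun z : ℤ => (z : Zb)) huv
    simpa using this
  rw [← h1]
  exact 𝔪.add_mem (𝔪.mul_mem_left _ hℓ𝔪) (𝔪.mul_mem_left _ hn)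

theorem zb_exists_int_mem_span {x : Zb} (hx : x ≠ 0) :
    ∃ c : ℤ, c ≠ 0 ∧ ((c : ℤ) : Zb) ∈ Ideal.span ({x} : Set Zb) := by
  have hxc : IsIntegral ℤ (x : ℂ) := x.2
  have hxc0 : (x : ℂ) ≠ 0 := fun h => hx (Subtype.ext h)
  set P := minpoly ℤ (x : ℂ) with hP
  have hPq : minpoly ℚ (x : ℂ) = P.map (algebraMap ℤ ℚ) :=
    minpoly.isIntegrallyClosed_eq_field_fractions' ℚ hxc
  have hc0 : P.coeff 0 ≠ 0 := by
    have h1 := minpoly.coeff_zero_ne_zero (hxc.tower_top (A := ℚ)) hxc0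
    rw [hPq, Polynomial.coeff_map] at h1
    intro h
    rw [h] at h1
    simp at h1
  refine ⟨P.coeff 0, hc0, ?_⟩
  have h0 : Polynomial.aeval x P = 0 := by
    apply Subtype.ext
    have h1 : ((Polynomial.aeval x P : Zb) : ℂ) = Polynomial.aeval (x : ℂ) P :=
      (Polynomial.aeval_algebraMap_apply ℂ x P).symm
    rw [h1]
    exact minpoly.aeval ℤ (x : ℂ)
  have hdecomp := Polynomial.divX_mul_X_add P
  rw [← hdecomp] at h0
  simp only [map_add, map_mul, Polynomial.aeval_X, Polynomial.aeval_C] at h0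
  have h1 : ((P.coeff 0 : ℤ) : Zb) = -(Polynomial.aeval x P.divX) * x := by
    have : algebraMap ℤ Zb (P.coeff 0) = ((P.coeff 0 : ℤ) : Zb) := by simp
    rw [← this]
    linear_combination h0
  rw [h1]
  exact Ideal.mul_mem_left _ _ (Ideal.subset_span rfl)

theorem zb_prime_bound_of_mem {x : Zb} (hx : x ≠ 0) :
    ∃ B : ℕ, ∀ ℓ : ℕ, ℓ.Prime → ∀ 𝔪 : Ideal Zb, 𝔪 ≠ ⊤ → ((ℓ : ℕ) : Zb) ∈ 𝔪 → x ∈ 𝔪 → ℓ ≤ B := by
  obtain ⟨c, hc0, hc⟩ := zb_exists_int_mem_span hx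
  refine ⟨c.natAbs, fun ℓ hℓ 𝔪 h𝔪 hℓ𝔪 hx𝔪 => ?_⟩
  have hc𝔪 : ((c : ℤ) : Zb) ∈ 𝔪 := by
    have : Ideal.span ({x} : Set Zb) ≤ 𝔪 := (Ideal.span_singleton_le_iff_mem _).mpr hx𝔪
    exact this hc
  have hdvd := zb_int_dvd_of_mem h𝔪 hℓ hℓ𝔪 hc𝔪
  have h2 : ℓ ∣ c.natAbs := Int.natCast_dvd.mp hdvd
  exact Nat.le_of_dvd (Int.natAbs_pos.mpr hc0) h2

theorem zb_exists_maximal {ℓ : ℕ} (hℓ : ℓ.Prime) :
    ∃ 𝔪 : Ideal Zb, 𝔪.IsMaximal ∧ ((ℓ : ℕ) : Zb) ∈ 𝔪 := by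
  have hne : Ideal.span ({((ℓ : ℕ) : Zb)} : Set Zb) ≠ ⊤ := by
    intro htop
    rw [Ideal.span_singleton_eq_top] at htop
    obtain ⟨y, hy⟩ := htop.exists_right_inv
    -- `y = 1/ℓ` is a rational algebraic integer
    have hy' : ((ℓ : ℕ) : ℂ) * (y : ℂ) = 1 := by
      have := congrArg (fun z : Zb => (z : ℂ)) hy
      simpa using this
    have hℓ0 : ((ℓ : ℕ) : ℂ) ≠ 0 := Nat.cast_ne_zero.mpr hℓ.ne_zero
    have hyq : (y : ℂ) = algebraMap ℚ ℂ (1 / (ℓ : ℚ)) := by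
      have : (y : ℂ) = 1 / ((ℓ : ℕ) : ℂ) := by field_simp; linear_combination hy'
      rw [this]
      simp
    have hint : IsIntegral ℤ (algebraMap ℚ ℂ (1 / (ℓ : ℚ))) := hyq ▸ y.2
    have hint' : IsIntegral ℤ (1 / (ℓ : ℚ)) :=
      (isIntegral_algebraMap_iff (algebraMap ℚ ℂ).injective).mp hint
    obtain ⟨z, hz⟩ := IsIntegrallyClosed.isIntegral_iff.mp hint'
    have hz' : (z : ℚ) * ℓ = 1 := by
      have : (algebraMap ℤ ℚ z) = (z : ℚ) := rfl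
      rw [this] at hz
      rw [hz]
      field_simp [Nat.cast_ne_zero.mpr hℓ.ne_zero]
    have hz'' : z * (ℓ : ℤ) = 1 := by exact_mod_cast hz'
    have := Int.isUnit_iff.mp (IsUnit.of_mul_eq_one _ ((mul_comm _ _).trans hz''))
    have hℓ2 := hℓ.two_le
    omega
  obtain ⟨𝔪, h𝔪, hle⟩ := Ideal.exists_le_maximal _ hne
  exact ⟨𝔪, h𝔪, hle (Ideal.subset_span rfl)⟩

theorem zb_of_pow_eq_one {x : ℂ} {n : ℕ} (hn : 0 < n) (hx : x ^ n = 1) :
    ∃ z : Zb, (z : ℂ) = x := by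
  have : IsIntegral ℤ x := IsIntegral.of_pow hn (hx ▸ isIntegral_one)
  exact ⟨⟨x, this⟩, rfl⟩


/-- every monic polynomial over `ℤ̄` has a root in `ℤ̄` -/
theorem zb_exists_root {P : Polynomial Zb} (hP : P.Monic) (hdeg : P.natDegree ≠ 0) :
    ∃ z : Zb, P.eval z = 0 := by
  have hdeg' : (P.map (algebraMap Zb ℂ)).degree ≠ 0 := by
    rw [Polynomial.degree_map_eq_of_injective (FaithfulSMul.algebraMap_injective Zb ℂ),
      Polynomial.degree_eq_natDegree hP.ne_zero]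
    exact_mod_cast hdeg
  obtain ⟨z, hz⟩ := IsAlgClosed.exists_root _ hdeg'
  have hz' : Polynomial.aeval z P = 0 := by
    rw [Polynomial.aeval_def, ← Polynomial.eval_map]
    exact hz
  have hint : IsIntegral Zb z := ⟨P, hP, by rw [← Polynomial.aeval_def]; exact hz'⟩
  have hint' : IsIntegral ℤ z := isIntegral_trans (A := Zb) z hint
  have hmem : z ∈ integralClosure ℤ ℂ := hint'
  refine ⟨⟨z, hmem⟩, ?_⟩
  have h1 : algebraMap Zb ℂ (P.eval (⟨z, hmem⟩ : Zb)) = Polynomial.aeval z P := by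
    rw [Polynomial.aeval_def, ← Polynomial.eval_map, ← Polynomial.eval₂_at_apply,
      Polynomial.eval₂_eq_eval_map]
    rfl
  rw [hz'] at h1
  exact (FaithfulSMul.algebraMap_injective Zb ℂ) (h1.trans (map_zero _).symm)

/-- the residue fields of `ℤ̄` are algebraically closed -/
theorem zb_quotient_isAlgClosed (𝔪 : Ideal Zb) [𝔪.IsMaximal] :
    @IsAlgClosed (Zb ⧸ 𝔪) (Ideal.Quotient.field 𝔪) := by
  let _ := Ideal.Quotient.field 𝔪
  apply IsAlgClosed.of_exists_root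
  intro p hmonic hirr
  have hlift : p ∈ Polynomial.lifts (Ideal.Quotient.mk 𝔪) := by
    rw [Polynomial.mem_lifts]
    exact Polynomial.map_surjective _ Ideal.Quotient.mk_surjective p
  obtain ⟨P, hPmap, hPdeg, hPmonic⟩ := Polynomial.lifts_and_degree_eq_and_monic hlift hmonic
  have hdeg : P.natDegree ≠ 0 := by
    have h1 : P.natDegree = p.natDegree := Polynomial.natDegree_eq_of_degree_eq hPdeg
    rw [h1]
    exact (Polynomial.natDegree_pos_iff_degree_pos.mpr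
      (Polynomial.degree_pos_of_irreducible hirr)).ne'
  obtain ⟨z, hz⟩ := zb_exists_root hPmonic hdeg
  refine ⟨Ideal.Quotient.mk 𝔪 z, ?_⟩
  rw [← hPmap, Polynomial.eval_map, Polynomial.eval₂_at_apply, hz, map_zero]


end Fermat.Agent.S48


end ZBZ4S48_003_0

/-! ### bundled: `Fermat.Agent.S48.Bound` -/
section ZBZ4S48_003_1

/-!
# S48 (END assembly), step 1: the images of the residual representations are uniformly bounded

`exists_bound`: from DENS (Rankin), CD (Chebotarev density) and GT' (Burnside trace bound): there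
is `B`, depending only on `f`, such that every residual representation attached to `f` (at any
`𝔪 ∣ ℓ`) has a semisimplification `ρ'` (same traces and determinants, trivial where `ρ` is) with
`# im ρ' ≤ B`.
-/

set_option autoImplicit false

open CongruenceSubgroup

namespace Fermat.Agent.S48

/-- if `a log (1/(s-1)) ≤ C` for all `s` close to `1`, then `a ≤ 0` -/
theorem nonpos_of_mul_log_le {a C s₁ : ℝ} (hs₁ : 1 < s₁)
    (h : ∀ s : ℝ, 1 < s → s < s₁ → a * Real.log (1 / (s - 1)) ≤ C) : a ≤ 0 := by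
  by_contra ha
  rw [not_le] at ha
  set L : ℝ := max (C / a + 1) (Real.log (1 / (s₁ - 1)) + 1) with hL
  have hL1 : C / a + 1 ≤ L := le_max_left _ _
  have hL2 : Real.log (1 / (s₁ - 1)) + 1 ≤ L := le_max_right _ _
  have hs₁' : 0 < s₁ - 1 := by linarith
  have hexp : Real.exp (-L) < s₁ - 1 := by
    rw [← Real.exp_log hs₁']
    apply Real.exp_lt_exp.mpr
    have : Real.log (1 / (s₁ - 1)) = -Real.log (s₁ - 1) := by
      rw [one_div, Real.log_inv]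
    linarith
  have h1 := h (1 + Real.exp (-L)) (by linarith [Real.exp_pos (-L)]) (by linarith)
  have h2 : Real.log (1 / (1 + Real.exp (-L) - 1)) = L := by
    rw [add_sub_cancel_left, one_div, ← Real.exp_neg, neg_neg, Real.log_exp]
  rw [h2] at h1
  have h3 : C / a < L := by linarith
  rw [div_lt_iff₀ ha] at h3
  linarith

section Bound

variable (hDens : StmtDensity) (hCD : StmtChebDensity) (hTS : StmtTraceSpan)
  (hTD : StmtTraceDiag) (hSemi : StmtSemi) (hWC : StmtWeakCheb) (hFrob : StmtFrobExists)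

include hDens hCD hTS hTD hSemi hWC hFrob in
/-- **Uniform bound for the images of the residual representations.** -/
theorem exists_bound (N : ℕ) [NeZero N] (ε : DirichletCharacter ℂ N) (f : CuspForm (Gamma1 N) 1)
    (hf : IsHeckeEigen N ε f) :
    ∃ B : ℕ, ∀ ℓ : ℕ, ℓ.Prime → ∀ 𝔪 : Ideal Zb, 𝔪.IsMaximal → ((ℓ : ℕ) : Zb) ∈ 𝔪 →
      ∀ ρ : GalQ →* GL (Fin 2) (Zb ⧸ 𝔪), IsResidualRep N ε f ℓ 𝔪 ρ →
        ∃ ρ' : GalQ →* GL (Fin 2) (Zb ⧸ 𝔪),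
          (∀ σ : GalQ, ρ σ = 1 → ρ' σ = 1) ∧
          (∀ σ : GalQ, Matrix.trace (ρ' σ : Matrix (Fin 2) (Fin 2) (Zb ⧸ 𝔪)) =
              Matrix.trace (ρ σ : Matrix (Fin 2) (Fin 2) (Zb ⧸ 𝔪)) ∧
            Matrix.det (ρ' σ : Matrix (Fin 2) (Fin 2) (Zb ⧸ 𝔪)) =
              Matrix.det (ρ σ : Matrix (Fin 2) (Fin 2) (Zb ⧸ 𝔪))) ∧
          Nat.card ρ'.range ≤ B := by
  obtain ⟨Y, C₀, hY⟩ := hDens N ε f hf (1 / 16) (by norm_num)
  refine ⟨max (2 * Y.card ^ 4) (4 * Y.card * N), fun ℓ hℓ 𝔪 h𝔪 hℓ𝔪 ρ hρ => ?_⟩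
  haveI := h𝔪
  letI : Field (Zb ⧸ 𝔪) := Ideal.Quotient.field 𝔪
  haveI : IsAlgClosed (Zb ⧸ 𝔪) := zb_quotient_isAlgClosed 𝔪
  obtain ⟨ρ', hker, htd, hcase⟩ := hSemi (Zb ⧸ 𝔪) GalQ ρ
  refine ⟨ρ', hker, htd, ?_⟩
  obtain ⟨⟨F, hFfin, hFgal, hFker⟩, hfrob⟩ := hρ
  haveI := hFfin
  haveI := hFgal
  haveI : Finite (F ≃ₐ[ℚ] F) := finite_galF F
  obtain ⟨ρF, hρF⟩ := exists_factor F ρ' fun σ hσ => hker σ (hFker σ hσ)
  have hrange : ρF.range = ρ'.range := range_eq_of_factor F hρF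
  rw [← hrange]
  -- the set of primes dividing `N ℓ`
  have hNℓ : N * ℓ ≠ 0 := Nat.mul_ne_zero (NeZero.ne N) hℓ.ne_zero
  set S : Finset ℕ := (N * ℓ).primeFactors with hS
  have hS' : ∀ p : ℕ, p.Prime → p ∉ S → ¬ p ∣ N * ℓ := by
    intro p hp hpS hdvd
    exact hpS (Nat.mem_primeFactors.mpr ⟨hp, hdvd, hNℓ⟩)
  -- trace of `ρF` at a Frobenius
  have htrF : ∀ p : ℕ, p.Prime → ¬ p ∣ N * ℓ →
      ∀ A : ValuationSubring (AlgebraicClosure ℚ), A.LiesOverPrime p →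
        ∀ τ : GalQ, A.IsFrobeniusAt τ p →
          ∃ a e : Zb, (a : ℂ) = ModularFormClass.qCoeff f p ∧ (e : ℂ) = ε (p : ZMod N) ∧
            Matrix.trace (ρF (resF F τ) : Matrix (Fin 2) (Fin 2) (Zb ⧸ 𝔪)) =
              Ideal.Quotient.mk 𝔪 a ∧
            Matrix.det (ρF (resF F τ) : Matrix (Fin 2) (Fin 2) (Zb ⧸ 𝔪)) =
              Ideal.Quotient.mk 𝔪 e := by
    intro p hp hpN A hA τ hτ
    obtain ⟨a, e, ha, he, htr, hdet⟩ := (hfrob p hp hpN A hA).2 τ hτ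
    refine ⟨a, e, ha, he, ?_, ?_⟩
    · rw [hρF, (htd τ).1, htr]
    · rw [hρF, (htd τ).2, hdet]
  -- the bad set
  set Ybar : Finset (Zb ⧸ 𝔪) := redSet 𝔪 Y with hYbar
  set C : Set (F ≃ₐ[ℚ] F) :=
    {g | Matrix.trace (ρF g : Matrix (Fin 2) (Fin 2) (Zb ⧸ 𝔪)) ∉ Ybar} with hC
  have hCconj : ∀ g σ : F ≃ₐ[ℚ] F, σ ∈ C → g * σ * g⁻¹ ∈ C := by
    intro g σ hσ
    simp only [hC, Set.mem_setOf_eq] at hσ ⊢
    have : (ρF (g * σ * g⁻¹) : Matrix (Fin 2) (Fin 2) (Zb ⧸ 𝔪)) =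
        (ρF g : Matrix (Fin 2) (Fin 2) (Zb ⧸ 𝔪)) * (ρF σ : Matrix (Fin 2) (Fin 2) (Zb ⧸ 𝔪)) *
          ((ρF g)⁻¹ : GL (Fin 2) (Zb ⧸ 𝔪)) := by
      rw [map_mul, map_mul, map_inv]
      rfl
    rw [this, Matrix.trace_mul_comm, ← mul_assoc]
    have h2 : (((ρF g)⁻¹ : GL (Fin 2) (Zb ⧸ 𝔪)) : Matrix (Fin 2) (Fin 2) (Zb ⧸ 𝔪)) *
        (ρF g : Matrix (Fin 2) (Fin 2) (Zb ⧸ 𝔪)) = 1 := by
      rw [← Units.val_mul, inv_mul_cancel, Units.val_one]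
    rw [h2, one_mul]
    exact hσ
  -- Chebotarev against Rankin
  have hprop : (C.ncard : ℝ) / (Nat.card (F ≃ₐ[ℚ] F) : ℝ) ≤ 1 / 8 := by
    obtain ⟨s₀, hs₀, hP⟩ := hCD F S C hCconj (1 / 16) (by norm_num)
    have key : ∀ s : ℝ, 1 < s → s < min s₀ 2 →
        ((C.ncard : ℝ) / (Nat.card (F ≃ₐ[ℚ] F) : ℝ) - 1 / 8) * Real.log (1 / (s - 1)) ≤ C₀ := by
      intro s hs hs2
      obtain ⟨P, hPmem, hPsum⟩ := hP s hs (lt_of_lt_of_le hs2 (min_le_left _ _))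
      have hbad : ∀ p ∈ P, p.Prime ∧ ¬ p ∣ N ∧ ModularFormClass.qCoeff f p ∉ Y := by
        intro p hp
        obtain ⟨hpp, hpS, hall⟩ := hPmem p hp
        have hpNℓ := hS' p hpp hpS
        refine ⟨hpp, fun hd => hpNℓ (Dvd.dvd.mul_right hd ℓ), ?_⟩
        obtain ⟨A, τ, hA, hτ⟩ := hFrob p hpp
        obtain ⟨a, e, ha, -, htr, -⟩ := htrF p hpp hpNℓ A hA τ hτ
        have hmem : resF F τ ∈ C := hall A hA τ hτ
        simp only [hC, Set.mem_setOf_eq, htr] at hmem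
        intro hin
        apply hmem
        rw [hYbar]
        exact mk_mem_redSet 𝔪 (ha ▸ hin)
      have h1 := hY s hs (le_of_lt (lt_of_lt_of_le hs2 (min_le_right _ _))) P hbad
      have h2 := hPsum.trans h1
      linarith
    have := nonpos_of_mul_log_le (lt_min hs₀ one_lt_two) key
    linarith
  have hG0 : 0 < Nat.card (F ≃ₐ[ℚ] F) := Nat.card_pos
  have hcard : 8 * Nat.card {g : F ≃ₐ[ℚ] F //
      Matrix.trace (ρF g : Matrix (Fin 2) (Fin 2) (Zb ⧸ 𝔪)) ∉ Ybar} ≤ Nat.card (F ≃ₐ[ℚ] F) := by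
    have h1 : Nat.card {g : F ≃ₐ[ℚ] F //
        Matrix.trace (ρF g : Matrix (Fin 2) (Fin 2) (Zb ⧸ 𝔪)) ∉ Ybar} = C.ncard := by
      rw [hC, ← _root_.Nat.card_coe_set_eq]
      rfl
    rw [h1]
    have hG0' : (0 : ℝ) < (Nat.card (F ≃ₐ[ℚ] F) : ℝ) := by exact_mod_cast hG0
    rw [div_le_iff₀ hG0'] at hprop
    have : (8 * C.ncard : ℝ) ≤ (Nat.card (F ≃ₐ[ℚ] F) : ℝ) := by linarith
    exact_mod_cast this
  rcases hcase with hspan | hdiag
  · -- absolutely irreducible case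
    have hspanF : Submodule.span (Zb ⧸ 𝔪)
        (Set.range fun g : F ≃ₐ[ℚ] F => (ρF g : Matrix (Fin 2) (Fin 2) (Zb ⧸ 𝔪))) = ⊤ := by
      have : (Set.range fun g : F ≃ₐ[ℚ] F => (ρF g : Matrix (Fin 2) (Fin 2) (Zb ⧸ 𝔪))) =
          Set.range fun σ : GalQ => (ρ' σ : Matrix (Fin 2) (Fin 2) (Zb ⧸ 𝔪)) := by
        ext M
        constructor
        · rintro ⟨g, rfl⟩
          obtain ⟨σ, rfl⟩ := resF_surjective F g
          exact ⟨σ, by simp only [hρF]⟩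
        · rintro ⟨σ, rfl⟩
          exact ⟨resF F σ, by simp only [hρF]⟩
      rw [this]
      exact hspan
    have h1 := hTS (Zb ⧸ 𝔪) (F ≃ₐ[ℚ] F) ρF Ybar hspanF hcard
    refine h1.trans (le_trans ?_ (le_max_left _ _))
    have := card_redSet_le 𝔪 Y
    gcongr
  · -- diagonal case
    set Ebar : Finset (Zb ⧸ 𝔪) := redSet 𝔪 (charValues ε) with hEbar
    have hdiagF : ∀ g : F ≃ₐ[ℚ] F, (ρF g : Matrix (Fin 2) (Fin 2) (Zb ⧸ 𝔪)) 0 1 = 0 ∧
        (ρF g : Matrix (Fin 2) (Fin 2) (Zb ⧸ 𝔪)) 1 0 = 0 := by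
      intro g
      obtain ⟨σ, rfl⟩ := resF_surjective F g
      rw [hρF]
      exact hdiag σ
    have hdetF : ∀ g : F ≃ₐ[ℚ] F,
        Matrix.det (ρF g : Matrix (Fin 2) (Fin 2) (Zb ⧸ 𝔪)) ∈ Ebar := by
      intro g
      obtain ⟨σ, rfl⟩ := resF_surjective F g
      obtain ⟨p, A, τ, m, hp, hpS, hA, hτ, hagree⟩ := hWC F S σ
      have hres : resF F σ = resF F τ ^ m := by
        rw [← map_pow]
        exact resF_eq_of_agree F fun x hx => (hagree x hx).symm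
      obtain ⟨a, e, -, he, -, hdet⟩ := htrF p hp (hS' p hp hpS) A hA τ hτ
      rw [hres, map_pow, Units.val_pow_eq_pow_val, Matrix.det_pow, hdet, ← map_pow]
      rw [hEbar]
      apply mk_mem_redSet
      have : ((e ^ m : Zb) : ℂ) = ε (((p : ZMod N)) ^ m) := by
        rw [map_pow, ← he]
        rfl
      rw [this]
      exact mem_charValues ε _
    have h1 := hTD (Zb ⧸ 𝔪) (F ≃ₐ[ℚ] F) ρF Ybar Ebar hdiagF hdetF hcard
    refine h1.trans (le_trans ?_ (le_max_right _ _))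
    have h2 := card_redSet_le 𝔪 Y
    have h3 : Ebar.card ≤ N := (card_redSet_le 𝔪 (charValues ε)).trans (card_charValues_le ε)
    exact Nat.mul_le_mul (Nat.mul_le_mul_left 4 h2) h3

end Bound

end Fermat.Agent.S48


end ZBZ4S48_003_1

/-! ### bundled: `Fermat.Agent.S48.ResGlue` -/
section ZBZ4S48_003_2

/-!
# S48 / RES glue: `StmtRes` from its pieces

`stmtResOfPieces : StmtIntPlus → StmtE1 → StmtDSL1 → StmtES1 → StmtRes`.

`h` = the form of `StmtIntPlus` (coefficients in `D⁻¹ ℤ̄`), `ℓ > D`, `E` = the Eisenstein series of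
`StmtE1`; `g := D h E` is a cusp form of weight two on `Γ₁(N ℓ)` with nebentypus `ε ψ`, with
integral `q`-expansion `≡ E(0) · D h` mod `𝔪`, hence an eigenform mod `𝔪`; `StmtDSL1` and
`StmtES1` give the representation, and `p · ψ(p) ≡ 1` mod `𝔪` turns its determinant into `ε(p)`.
-/

set_option autoImplicit false

open CongruenceSubgroup UpperHalfPlane

namespace Fermat.Agent.S48

/-- the values of a Dirichlet character are algebraic integers -/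
theorem resGlue_isIntegral_char {N : ℕ} [NeZero N] (χ : DirichletCharacter ℂ N) (a : ZMod N) :
    IsIntegral ℤ (χ a) := by
  by_cases ha : IsUnit a
  · obtain ⟨u, rfl⟩ := ha
    have h1 : (χ (u : ZMod N)) ^ (Fintype.card (ZMod N)ˣ) = 1 := by
      rw [← map_pow, ← Units.val_pow_eq_pow_val, pow_card_eq_one, Units.val_one, map_one]
    exact IsIntegral.of_pow Fintype.card_pos (h1 ▸ isIntegral_one)
  · rw [χ.map_nonunit ha]
    exact isIntegral_zero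

/-- the values of a Dirichlet character, as algebraic integers -/
noncomputable def charZb {N : ℕ} [NeZero N] (χ : DirichletCharacter ℂ N) (a : ℕ) : Zb :=
  ⟨χ (a : ZMod N), resGlue_isIntegral_char χ _⟩

theorem coe_charZb {N : ℕ} [NeZero N] (χ : DirichletCharacter ℂ N) (a : ℕ) :
    ((charZb χ a : Zb) : ℂ) = χ (a : ZMod N) := rfl

theorem resGlue_natCast_not_mem {𝔪 : Ideal Zb} (h𝔪 : 𝔪 ≠ ⊤) {ℓ : ℕ} (hℓ : ℓ.Prime)
    (hℓ𝔪 : ((ℓ : ℕ) : Zb) ∈ 𝔪) {D : ℕ} (hD : D ≠ 0) (hDℓ : D < ℓ) : ((D : ℕ) : Zb) ∉ 𝔪 := by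
  intro h
  have h' : (((D : ℤ) : ℤ) : Zb) ∈ 𝔪 := by
    have : (((D : ℤ) : ℤ) : Zb) = ((D : ℕ) : Zb) := by push_cast; rfl
    rw [this]; exact h
  have hdvd : (ℓ : ℤ) ∣ (D : ℤ) := zb_int_dvd_of_mem h𝔪 hℓ hℓ𝔪 h'
  have hdvd' : ℓ ∣ D := Int.natCast_dvd_natCast.mp hdvd
  have := Nat.le_of_dvd (Nat.pos_of_ne_zero hD) hdvd'
  omega

theorem resGlue_not_dvd_sq {p N ℓ : ℕ} (hp : p.Prime) (h : ¬ p ∣ N * ℓ) : ¬ p ∣ N * ℓ * ℓ := by
  intro h'
  rcases (Nat.Prime.dvd_mul hp).mp h' with h1 | h1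
  · exact h h1
  · exact h (Dvd.dvd.mul_left h1 N)

/-- the congruence `c ≡ E(0) · u` for the coefficients of a product with `E ≡ E(0)` -/
theorem resGlue_conv_congr (𝔪 : Ideal Zb) (u cE : ℕ → Zb) (hcE : ∀ n : ℕ, n ≠ 0 → cE n ∈ 𝔪)
    (n : ℕ) :
    (∑ x ∈ Finset.HasAntidiagonal.antidiagonal n, u x.1 * cE x.2) - u n * cE 0 ∈ 𝔪 := by
  classical
  have hmem : (n, 0) ∈ Finset.HasAntidiagonal.antidiagonal n := by
    rw [Finset.HasAntidiagonal.mem_antidiagonal]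
    simp
  rw [← Finset.add_sum_erase _ _ hmem]
  simp only [add_sub_cancel_left]
  refine Ideal.sum_mem _ fun x hx => ?_
  rw [Finset.mem_erase, Finset.HasAntidiagonal.mem_antidiagonal] at hx
  have hx2 : x.2 ≠ 0 := by
    intro h0
    apply hx.1
    have : x.1 = n := by have := hx.2; omega
    exact Prod.ext this h0
  exact Ideal.mul_mem_left _ _ (hcE x.2 hx2)

/-- **RES glue.** -/
theorem stmtResOfPieces : StmtResOfPieces := by
  intro hIP hE1 hDSL hES N _ ε f hf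
  classical
  obtain ⟨h, D, hD, hh, hhneb, hhc, hhp⟩ := hIP N ε f hf
  refine ⟨max 5 (D + 1), fun ℓ hℓ hℓge 𝔪 h𝔪 hℓ𝔪 => ?_⟩
  haveI : NeZero ℓ := ⟨hℓ.ne_zero⟩
  haveI hNℓ : NeZero (N * ℓ) := ⟨Nat.mul_ne_zero (NeZero.ne N) hℓ.ne_zero⟩
  haveI := h𝔪
  have h5 : 5 ≤ ℓ := le_trans (le_max_left _ _) hℓge
  have hDℓ : D < ℓ := by
    have := le_trans (le_max_right _ _) hℓge
    omega
  obtain ⟨ψ, E, cE, hψ, hEneb, hcE, hcE0, hcEn⟩ := hE1 ℓ hℓ h5 𝔪 h𝔪 hℓ𝔪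
  obtain ⟨g, hgneb, hgq⟩ := resProd_exists ε ψ h E hhneb hEneb (D : ℂ)
  -- integral coefficients of `D h`
  choose u hu using hhc
  -- the eigenvalues
  have hap : ∀ p : ℕ, ∃ a : Zb, p.Prime → ¬ p ∣ N → (a : ℂ) = ModularFormClass.qCoeff f p := by
    intro p
    by_cases hp : p.Prime ∧ ¬ p ∣ N
    · obtain ⟨a, ha⟩ := (hhp p hp.1 hp.2).2
      exact ⟨a, fun _ _ => ha⟩
    · exact ⟨0, fun h1 h2 => absurd ⟨h1, h2⟩ hp⟩
  choose a ha using hap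
  -- coefficients of `g`
  set c : ℕ → Zb := fun n => ∑ x ∈ Finset.HasAntidiagonal.antidiagonal n, u x.1 * cE x.2 with hc
  have hcg : ∀ n : ℕ, (c n : ℂ) = ModularFormClass.qCoeff g n := by
    intro n
    rw [hgq n, hc, Finset.mul_sum]
    push_cast
    refine Finset.sum_congr rfl fun x _ => ?_
    rw [hu, hcE]
    ring
  have hcong : ∀ n : ℕ, Ideal.Quotient.mk 𝔪 (c n) =
      Ideal.Quotient.mk 𝔪 (u n) * Ideal.Quotient.mk 𝔪 (cE 0) := by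
    intro n
    rw [← map_mul]
    exact Ideal.Quotient.eq.mpr (resGlue_conv_congr 𝔪 u cE hcEn n)
  have hDmem : ((D : ℕ) : Zb) ∉ 𝔪 := resGlue_natCast_not_mem h𝔪.ne_top hℓ hℓ𝔪 hD hDℓ
  have hu0 : u 0 = 0 := by
    apply Subtype.ext
    rw [hu 0]
    have : ModularFormClass.qCoeff h 0 = 0 := by
      unfold ModularFormClass.qCoeff
      have h1 := eisOdd_one_mem_strictPeriods N
      exact CuspFormClass.qExpansion_coeff_zero h one_pos h1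
    rw [this, mul_zero]
    rfl
  have hu1 : u 1 = ((D : ℕ) : Zb) := by
    apply Subtype.ext
    rw [hu 1, hh.1, mul_one]
    push_cast
    rfl
  have hc1 : c 1 ∉ 𝔪 := by
    intro hmem
    have h1 := hcong 1
    rw [Ideal.Quotient.eq_zero_iff_mem.mpr hmem, hu1] at h1
    have h2 : ((D : ℕ) : Zb) * cE 0 ∈ 𝔪 := by
      rw [← Ideal.Quotient.eq_zero_iff_mem, map_mul]
      exact h1.symm
    rcases (h𝔪.isPrime.mem_or_mem h2) with h3 | h3
    · exact hDmem h3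
    · exact hcE0 h3
  -- the Hecke relation for `u`
  have hrel : ∀ p : ℕ, p.Prime → ¬ p ∣ N → ∀ n : ℕ,
      u (p * n) + charZb ε p * (if p ∣ n then u (n / p) else 0) = a p * u n := by
    intro p hp hpN n
    apply Subtype.ext
    have h1 := hh.2 p hp hpN n
    have h2 : ((if p ∣ n then u (n / p) else 0 : Zb) : ℂ) =
        (D : ℂ) * (if p ∣ n then ModularFormClass.qCoeff h (n / p) else 0) := by
      split_ifs
      · exact hu _
      · simp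
    push_cast
    rw [h2, hu, hu, ha p hp hpN, coe_charZb, ← (hhp p hp hpN).1]
    linear_combination (D : ℂ) * h1
  -- the characters
  set e : ℕ → Zb := fun p => charZb ε p * charZb ψ p with he
  have hpψ : ∀ p : ℕ, p.Prime → ¬ p ∣ N * ℓ →
      Ideal.Quotient.mk 𝔪 ((p : ℕ) : Zb) * Ideal.Quotient.mk 𝔪 (charZb ψ p) = 1 := by
    intro p hp hpNℓ
    have hpℓ : ¬ ℓ ∣ p := by
      intro hdvd
      have : ℓ = p := (Nat.prime_dvd_prime_iff_eq hℓ hp).mp hdvd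
      exact hpNℓ (this ▸ dvd_mul_left ℓ N)
    obtain ⟨w, hw, hw1⟩ := hψ p hpℓ
    have hww : w = charZb ψ p := Subtype.ext (by rw [hw, coe_charZb])
    rw [hww] at hw1
    rw [← map_mul, ← map_one (Ideal.Quotient.mk 𝔪)]
    exact Ideal.Quotient.eq.mpr hw1
  have hunit : ∀ p : ℕ, p.Prime → ¬ p ∣ N * ℓ → IsUnit ((p : ℕ) : ZMod (N * ℓ)) :=
    fun p hp hpNℓ => (ZMod.isUnit_prime_iff_not_dvd hp).mpr hpNℓ
  have heθ : ∀ p : ℕ, p.Prime → ¬ p ∣ N * ℓ →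
      (e p : ℂ) = prodChar ε ψ ((p : ℕ) : ZMod (N * ℓ)) := by
    intro p hp hpNℓ
    rw [prodChar_natCast ε ψ (hunit p hp hpNℓ), he]
    push_cast
    rw [coe_charZb, coe_charZb]
  -- the eigenform relation mod `𝔪`
  have hmod : ∀ p : ℕ, p.Prime → ¬ p ∣ N * ℓ * ℓ → ∀ n : ℕ,
      c (p * n) + ((p : ℕ) : Zb) * e p * (if p ∣ n then c (n / p) else 0) - a p * c n ∈ 𝔪 := by
    intro p hp hpNℓℓ n
    have hpNℓ : ¬ p ∣ N * ℓ := fun h1 => hpNℓℓ (Dvd.dvd.mul_right h1 ℓ)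
    have hpN : ¬ p ∣ N := fun h1 => hpNℓ (Dvd.dvd.mul_right h1 ℓ)
    rw [← Ideal.Quotient.eq_zero_iff_mem]
    have h1 := congrArg (Ideal.Quotient.mk 𝔪) (hrel p hp hpN n)
    have h2 := hpψ p hp hpNℓ
    have h3 : Ideal.Quotient.mk 𝔪 (if p ∣ n then c (n / p) else 0) =
        Ideal.Quotient.mk 𝔪 (if p ∣ n then u (n / p) else 0) * Ideal.Quotient.mk 𝔪 (cE 0) := by
      split_ifs
      · exact hcong _
      · simp
    simp only [map_sub, map_add, map_mul] at h1 ⊢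
    rw [hcong, hcong, h3, he]
    simp only [map_mul]
    linear_combination (Ideal.Quotient.mk 𝔪 (cE 0)) * h1 +
      (Ideal.Quotient.mk 𝔪 (charZb ε p)) *
        (Ideal.Quotient.mk 𝔪 (if p ∣ n then u (n / p) else 0)) * (Ideal.Quotient.mk 𝔪 (cE 0)) * h2
  obtain ⟨g', b, hg'0, hg'neb, heig, hbcong⟩ :=
    hDSL (N * ℓ) (prodChar ε ψ) g hgneb ℓ hℓ 𝔪 h𝔪 hℓ𝔪 c hcg ⟨1, hc1⟩ a e
      (fun p hp hpNℓ => heθ p hp hpNℓ) hmod
  obtain ⟨ρ, hlev, hρ⟩ := hES (N * ℓ) (prodChar ε ψ) g' hg'0 hg'neb ℓ hℓ 𝔪 h𝔪 hℓ𝔪 b heig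
  refine ⟨ρ, hlev, fun p hp hpNℓ A hA => ?_⟩
  have hpN : ¬ p ∣ N := fun h1 => hpNℓ (Dvd.dvd.mul_right h1 ℓ)
  obtain ⟨hin, hfr⟩ := hρ p hp (resGlue_not_dvd_sq hp hpNℓ) A hA
  refine ⟨hin, fun τ hτ => ?_⟩
  obtain ⟨t, d, ht, hd, htr, hdet⟩ := hfr τ hτ
  refine ⟨a p, charZb ε p, ha p hp hpN, coe_charZb ε p, ?_, ?_⟩
  · rw [htr]
    exact Ideal.Quotient.eq.mpr (hbcong p hp (resGlue_not_dvd_sq hp hpNℓ) t ht)
  · rw [hdet]
    have hdd : d = ((p : ℕ) : Zb) * (charZb ε p * charZb ψ p) := by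
      apply Subtype.ext
      rw [hd, prodChar_natCast ε ψ (hunit p hp hpNℓ)]
      push_cast
      rw [coe_charZb, coe_charZb]
    rw [hdd]
    simp only [map_mul]
    have h2 := hpψ p hp hpNℓ
    linear_combination (Ideal.Quotient.mk 𝔪 (charZb ε p)) * h2

end Fermat.Agent.S48


end ZBZ4S48_003_2

/-! ### bundled: `Fermat.Agent.S48.E1.Teich` -/
section ZBZ4S48_003_3

/-!
# S48 / E1-alg (= E1-teich): the inverse Teichmüller character — core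

For an odd prime `ℓ` and a maximal ideal `𝔪 ∋ ℓ` of `ℤ̄` there is a Dirichlet character `ψ` mod `ℓ`
with `a ψ(a) ≡ 1` mod `𝔪`; it is odd, `∑_{a < ℓ} a ψ(a) ≡ -1` and `2 ℓ ∑_{d ∣ n} ψ(d) ∈ 𝔪`.
-/

set_option autoImplicit false
set_option linter.style.haveILetI false

open Polynomial

namespace Fermat.Agent.S48

section Root

variable {ℓ : ℕ} (hℓ : ℓ.Prime) (𝔪 : Ideal Zb) [h𝔪 : 𝔪.IsMaximal]

include hℓ in
/-- a primitive `(ℓ-1)`-th root of unity in `ℤ̄` -/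
theorem e1T_exists_primitiveRoot : ∃ ζ : Zb, IsPrimitiveRoot ζ (ℓ - 1) := by
  have hn : ℓ - 1 ≠ 0 := by have := hℓ.two_le; omega
  have h := Complex.isPrimitiveRoot_exp (ℓ - 1) hn
  obtain ⟨z, hz⟩ := zb_of_pow_eq_one (Nat.pos_of_ne_zero hn) h.pow_eq_one
  refine ⟨z, ?_⟩
  have hinj : Function.Injective (algebraMap Zb ℂ) := FaithfulSMul.algebraMap_injective Zb ℂ
  refine IsPrimitiveRoot.of_map_of_injective (f := algebraMap Zb ℂ) ?_ hinj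
  have : algebraMap Zb ℂ z = (z : ℂ) := rfl
  rw [this, hz]
  exact h

include hℓ in
/-- every integer prime to `ℓ` is congruent mod `𝔪` to an `(ℓ-1)`-th root of unity -/
theorem e1T_exists_root (hℓ𝔪 : ((ℓ : ℕ) : Zb) ∈ 𝔪) (b : ℕ) (hb : ¬ ℓ ∣ b) :
    ∃ w : Zb, w ^ (ℓ - 1) = 1 ∧ (b : Zb) - w ∈ 𝔪 := by
  have : Fact ℓ.Prime := ⟨hℓ⟩
  have hn : 0 < ℓ - 1 := by have := hℓ.two_le; omega
  obtain ⟨ζ, hζ⟩ := e1T_exists_primitiveRoot hℓ
  have hprod := X_pow_sub_C_eq_prod hζ hn (one_pow (ℓ - 1) : (1 : Zb) ^ (ℓ - 1) = 1)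
  have hev := congrArg (Polynomial.eval (b : Zb)) hprod
  simp only [eval_sub, eval_pow, eval_X, eval_C, eval_prod, mul_one] at hev
  -- Fermat
  have hF : ((b : ZMod ℓ)) ^ (ℓ - 1) = 1 := by
    apply ZMod.pow_card_sub_one_eq_one
    rwa [Ne, ZMod.natCast_eq_zero_iff]
  have hdvd : (ℓ : ℤ) ∣ (b : ℤ) ^ (ℓ - 1) - 1 := by
    rw [← ZMod.intCast_zmod_eq_zero_iff_dvd]
    push_cast
    rw [hF, sub_self]
  obtain ⟨t, ht⟩ := hdvd
  have hmem : (b : Zb) ^ (ℓ - 1) - 1 ∈ 𝔪 := by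
    have h1 : ((b : Zb) ^ (ℓ - 1) - 1) = (((b : ℤ) ^ (ℓ - 1) - 1 : ℤ) : Zb) := by push_cast; rfl
    rw [h1, ht]
    push_cast
    exact 𝔪.mul_mem_right _ hℓ𝔪
  rw [hev] at hmem
  obtain ⟨i, -, hi⟩ := (h𝔪.isPrime.prod_mem_iff).mp hmem
  refine ⟨ζ ^ i, ?_, hi⟩
  rw [← pow_mul, mul_comm, pow_mul, hζ.pow_eq_one, one_pow]

end Root

section Char

variable {ℓ : ℕ} [hF : Fact ℓ.Prime] (𝔪 : Ideal Zb) [h𝔪 : 𝔪.IsMaximal]

/-- `ℤ̄ ⧸ 𝔪` has characteristic `ℓ` -/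
theorem e1T_charP (hℓ𝔪 : ((ℓ : ℕ) : Zb) ∈ 𝔪) : CharP (Zb ⧸ 𝔪) ℓ := by
  haveI : Nontrivial (Zb ⧸ 𝔪) := Ideal.Quotient.nontrivial_iff.mpr h𝔪.ne_top
  rw [CharP.charP_iff_prime_eq_zero hF.out]
  rw [← map_natCast (Ideal.Quotient.mk 𝔪), Ideal.Quotient.eq_zero_iff_mem]
  exact hℓ𝔪

/-- the reduction of the representative `x.val` -/
theorem e1T_mk_val (hℓ𝔪 : ((ℓ : ℕ) : Zb) ∈ 𝔪) (x : ZMod ℓ) :
    haveI := e1T_charP 𝔪 hℓ𝔪
    Ideal.Quotient.mk 𝔪 ((x.val : ℕ) : Zb) = ZMod.castHom (dvd_refl ℓ) (Zb ⧸ 𝔪) x := by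
  haveI := e1T_charP 𝔪 hℓ𝔪
  rw [map_natCast, ZMod.castHom_apply, ZMod.natCast_val]

/-- the inverse Teichmüller character on units -/
theorem e1T_exists_unitHom (hℓ𝔪 : ((ℓ : ℕ) : Zb) ∈ 𝔪) :
    ∃ χ : (ZMod ℓ)ˣ →* ℂˣ, ∀ u : (ZMod ℓ)ˣ, ∃ w : Zb, (w : ℂ) = (χ u : ℂ) ∧
      (((u : ZMod ℓ).val : ℕ) : Zb) * w - 1 ∈ 𝔪 := by
  have hℓ : ℓ.Prime := hF.out
  haveI := e1T_charP 𝔪 hℓ𝔪
  have hn : ℓ - 1 ≠ 0 := by have := hℓ.two_le; omega
  obtain ⟨g, hg⟩ := IsCyclic.exists_generator (α := (ZMod ℓ)ˣ)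
  set b : ℕ := ((g⁻¹ : (ZMod ℓ)ˣ) : ZMod ℓ).val with hb
  have hbdvd : ¬ ℓ ∣ b := by
    rw [← ZMod.natCast_eq_zero_iff, hb, ZMod.natCast_zmod_val]
    exact Units.ne_zero _
  obtain ⟨w, hw1, hwm⟩ := e1T_exists_root hℓ 𝔪 hℓ𝔪 b hbdvd
  have hwC : (w : ℂ) ^ (ℓ - 1) = 1 := by
    have := congrArg (fun z : Zb => (z : ℂ)) hw1
    simpa using this
  set wU : ℂˣ := Units.ofPowEqOne (w : ℂ) (ℓ - 1) hwC hn with hwU
  have hwUval : (wU : ℂ) = (w : ℂ) := rfl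
  have hwUpow : wU ^ (ℓ - 1) = 1 := by
    ext
    rw [Units.val_pow_eq_pow_val, hwUval, hwC, Units.val_one]
  have hord : orderOf g = ℓ - 1 := by
    rw [orderOf_eq_card_of_forall_mem_zpowers hg, Nat.card_eq_fintype_card, ZMod.card_units]
  have hdvd : orderOf wU ∣ orderOf g := by
    rw [hord]
    exact orderOf_dvd_of_pow_eq_one hwUpow
  refine ⟨monoidHomOfForallMemZpowers hg hdvd, fun u => ?_⟩
  have hu : u ∈ Submonoid.powers g := mem_powers_iff_mem_zpowers.mpr (hg u)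
  obtain ⟨m, rfl⟩ := hu
  refine ⟨w ^ m, ?_, ?_⟩
  · rw [map_pow, monoidHomOfForallMemZpowers_apply_gen, Units.val_pow_eq_pow_val, hwUval]
    push_cast
    rfl
  · rw [← Ideal.Quotient.eq_zero_iff_mem, map_sub, map_mul, map_pow, map_one,
      e1T_mk_val 𝔪 hℓ𝔪]
    have h1 : Ideal.Quotient.mk 𝔪 w = ZMod.castHom (dvd_refl ℓ) (Zb ⧸ 𝔪) ((g⁻¹ : (ZMod ℓ)ˣ) : ZMod ℓ) := by
      rw [← e1T_mk_val 𝔪 hℓ𝔪, ← hb]
      symm
      rw [← sub_eq_zero, ← map_sub, Ideal.Quotient.eq_zero_iff_mem]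
      exact hwm
    rw [h1, ← map_pow, ← map_mul, ← Units.val_pow_eq_pow_val]
    show (ZMod.castHom (dvd_refl ℓ) (Zb ⧸ 𝔪)) (((g ^ m : (ZMod ℓ)ˣ) : ZMod ℓ) *
      ((g⁻¹ ^ m : (ZMod ℓ)ˣ) : ZMod ℓ)) - 1 = 0
    rw [← Units.val_mul, ← mul_pow, mul_inv_cancel, one_pow, Units.val_one, map_one, sub_self]

/-- the inverse Teichmüller character, with integral values -/
theorem e1T_exists_char (hℓ𝔪 : ((ℓ : ℕ) : Zb) ∈ 𝔪) :
    ∃ ψ : DirichletCharacter ℂ ℓ, ∀ x : ZMod ℓ, ∃ w : Zb, (w : ℂ) = ψ x ∧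
      (x ≠ 0 → ((x.val : ℕ) : Zb) * w - 1 ∈ 𝔪) := by
  obtain ⟨χ, hχ⟩ := e1T_exists_unitHom 𝔪 hℓ𝔪
  refine ⟨MulChar.ofUnitHom χ, fun x => ?_⟩
  by_cases hx : x = 0
  · refine ⟨0, ?_, fun h => absurd hx h⟩
    rw [hx, MulChar.map_zero]
    rfl
  · obtain ⟨w, hw, hwm⟩ := hχ (Units.mk0 x hx)
    refine ⟨w, ?_, fun _ => hwm⟩
    rw [hw, ← MulChar.ofUnitHom_coe]
    rfl

end Char

section Final

/-- **E1-teich.** -/
theorem stmtE1Teich : StmtE1Teich := by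
  intro ℓ _ hℓ h3 𝔪 h𝔪 hℓ𝔪
  haveI : Fact ℓ.Prime := ⟨hℓ⟩
  haveI := h𝔪
  haveI := e1T_charP 𝔪 hℓ𝔪
  have hne : (1 : Zb) ∉ 𝔪 := fun h => h𝔪.ne_top ((Ideal.eq_top_iff_one 𝔪).mpr h)
  obtain ⟨ψ, hψ⟩ := e1T_exists_char 𝔪 hℓ𝔪
  choose W hW hWm using hψ
  have hinj : Function.Injective (fun z : Zb => (z : ℂ)) := Subtype.val_injective
  -- congruence for natural numbers
  have hnat : ∀ a : ℕ, ¬ ℓ ∣ a → (a : Zb) * W (a : ZMod ℓ) - 1 ∈ 𝔪 := by
    intro a ha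
    have hx : (a : ZMod ℓ) ≠ 0 := by rwa [Ne, ZMod.natCast_eq_zero_iff]
    have h1 := hWm (a : ZMod ℓ) hx
    have h2 : (a : Zb) - (((a : ZMod ℓ).val : ℕ) : Zb) ∈ 𝔪 := by
      rw [ZMod.val_natCast]
      have : (a : Zb) - ((a % ℓ : ℕ) : Zb) = ((ℓ : ℕ) : Zb) * ((a / ℓ : ℕ) : Zb) := by
        have := Nat.div_add_mod a ℓ
        have h3 : (a : Zb) = ((ℓ * (a / ℓ) + a % ℓ : ℕ) : Zb) := by rw [this]
        rw [h3]
        push_cast
        ring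
      rw [this]
      exact 𝔪.mul_mem_right _ hℓ𝔪
    have h3 : (a : Zb) * W (a : ZMod ℓ) - 1 =
        ((((a : ZMod ℓ).val : ℕ) : Zb) * W (a : ZMod ℓ) - 1) +
          ((a : Zb) - (((a : ZMod ℓ).val : ℕ) : Zb)) * W (a : ZMod ℓ) := by ring
    rw [h3]
    exact 𝔪.add_mem h1 (𝔪.mul_mem_right _ h2)
  -- oddness
  have hodd : ψ (-1) = -1 := by
    have hsq : ψ (-1) * ψ (-1) = 1 := by
      rw [← map_mul, neg_mul_neg, one_mul, map_one]
    have hcases : ψ (-1) = 1 ∨ ψ (-1) = -1 := mul_self_eq_one_iff.mp hsq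
    rcases hcases with h1 | h1
    · exfalso
      have hW1 : W (-1) = 1 := by
        apply hinj
        show (W (-1) : ℂ) = ((1 : Zb) : ℂ)
        rw [hW, h1]
        rfl
      have hl1 : ¬ ℓ ∣ ℓ - 1 := fun h => by
        have := Nat.le_of_dvd (by omega) h
        omega
      have h2 := hnat (ℓ - 1) hl1
      have hcast : (((ℓ - 1 : ℕ)) : ZMod ℓ) = -1 := by
        rw [Nat.cast_sub (by omega : 1 ≤ ℓ), ZMod.natCast_self, Nat.cast_one, zero_sub]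
      rw [hcast, hW1, mul_one, Nat.cast_sub (by omega : 1 ≤ ℓ), Nat.cast_one] at h2
      -- `ℓ - 2 ∈ 𝔪`, so `2 ∈ 𝔪`
      have h2m : (2 : Zb) ∈ 𝔪 := by
        have : (2 : Zb) = ((ℓ : ℕ) : Zb) - (((ℓ : ℕ) : Zb) - 1 - 1) := by ring
        rw [this]
        exact 𝔪.sub_mem hℓ𝔪 h2
      obtain ⟨t, ht⟩ : ∃ t, ℓ = 2 * t + 1 := by
        rcases hℓ.eq_two_or_odd with h | h
        · omega
        · exact ⟨ℓ / 2, by omega⟩
      apply hne
      have : (1 : Zb) = ((ℓ : ℕ) : Zb) - 2 * ((t : ℕ) : Zb) := by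
        rw [ht]; push_cast; ring
      rw [this]
      exact 𝔪.sub_mem hℓ𝔪 (𝔪.mul_mem_right _ h2m)
    · exact h1
  -- the coefficients
  let c : ℕ → Zb := fun n =>
    if n = 0 then ∑ j : ZMod ℓ, ((j.val : ℕ) : Zb) * W j
    else -(2 * ((ℓ : ℕ) : Zb)) * ∑ d ∈ n.divisors, W ((d : ℕ) : ZMod ℓ)
  refine ⟨ψ, c, hodd, fun a ha => ⟨W (a : ZMod ℓ), hW _, hnat a ha⟩, ?_, ?_, ?_⟩
  · intro n
    by_cases hn : n = 0
    · simp only [c, e1IntCoeff, hn, if_true]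
      rw [← Subalgebra.coe_val, map_sum]
      refine Finset.sum_congr rfl fun j _ => ?_
      rw [map_mul, map_natCast, Subalgebra.coe_val, hW]
    · simp only [c, e1IntCoeff, hn, if_false]
      rw [← Subalgebra.coe_val, map_mul, map_neg, map_mul, map_sum, map_natCast, map_ofNat]
      congr 1
      refine Finset.sum_congr rfl fun d _ => ?_
      rw [Subalgebra.coe_val, hW]
  · -- `c 0 ≡ -1`
    simp only [c, if_true]
    intro hmem
    rw [← Ideal.Quotient.eq_zero_iff_mem, map_sum] at hmem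
    have hterm : ∀ j : ZMod ℓ, Ideal.Quotient.mk 𝔪 (((j.val : ℕ) : Zb) * W j) =
        if j = 0 then 0 else 1 := by
      intro j
      by_cases hj : j = 0
      · simp [hj]
      · rw [if_neg hj]
        have := hWm j hj
        rw [← Ideal.Quotient.eq_zero_iff_mem, map_sub, map_one, sub_eq_zero] at this
        exact this
    rw [Finset.sum_congr rfl fun j _ => hterm j] at hmem
    rw [Finset.sum_ite, Finset.sum_const_zero, zero_add, Finset.sum_const, nsmul_eq_mul, mul_one,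
      Finset.filter_ne' , Finset.card_erase_of_mem (Finset.mem_univ _), Finset.card_univ,
      ZMod.card] at hmem
    have h1 : ((ℓ - 1 : ℕ) : Zb ⧸ 𝔪) = -1 := by
      rw [Nat.cast_sub (by omega : 1 ≤ ℓ), CharP.cast_eq_zero, Nat.cast_one, zero_sub]
    rw [h1, neg_eq_zero] at hmem
    haveI : Nontrivial (Zb ⧸ 𝔪) := Ideal.Quotient.nontrivial_iff.mpr h𝔪.ne_top
    exact one_ne_zero hmem
  · intro n hn
    simp only [c, hn, if_false]
    rw [neg_mul, mul_assoc, mul_comm (2 : Zb), mul_assoc]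
    exact 𝔪.neg_mem (𝔪.mul_mem_right _ hℓ𝔪)

end Final

end Fermat.Agent.S48


end ZBZ4S48_003_3

/-! ### bundled: `Fermat.Agent.S48.E1.Final` -/
section ZBZ4S48_003_4

/-!
# S48 / E1: the weight one Eisenstein series on `Γ₁(ℓ)` congruent to a unit mod `𝔪`

`stmtE1 : StmtE1` (of `S48/Plan2.lean`), UNCONDITIONAL: for a prime `ℓ ≥ 5` and a maximal ideal
`𝔪 ∋ ℓ` of `ℤ̄` there is a modular form `E` of weight one on `Γ₁(ℓ)` with nebentypus `ψ = ω⁻¹`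
(the inverse of the Teichmüller character of `𝔪`), integral `q`-expansion, constant term a unit
mod `𝔪` and all other coefficients in `𝔪`.

Pieces: `Zeta.lean` (helper56), `RowBdd.lean` (helper29), `RowQ.lean` (helper83),
`Gauss.lean` (helper85), `Teich.lean` (helper66), `Asm.lean` (helper56).
-/

namespace Fermat.Agent.S48

/-- **E1**, unconditional. -/
theorem stmtE1 : StmtE1 :=
  stmtE1OfPieces stmtE1Law stmtE1Per stmtE1RowMDiff stmtE1RowBdd stmtE1RowQ stmtE1Gauss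
    stmtE1Teich

end Fermat.Agent.S48


end ZBZ4S48_003_4
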