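/- GENERATED FILE (helper35, build-time optimisation, NOTES/ZB.md): verbatim concatenation of the modules
   Fermat.Agent.S48.Mat2
   Fermat.Agent.S48.Exact
   Do not edit; do not import together with these modules. -/
import Mathlib
import Fermat.Agent.ZB.Z4S48_001
import Fermat.Agent.ZB.Z4S48_002
import Fermat.Agent.ZB.Z4S48_003

/-! ### bundled: `Fermat.Agent.S48.Mat2` -/
section ZBZ4S48_004_0

/-!
# S48 (END assembly): `2 × 2` matrices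

* `mat2_sq`, `mat2_pow_succ_succ` : Cayley–Hamilton.
* `mat2_trace_pow_congr` : the trace of `M ^ m` depends only on the trace and determinant of `M`.
* `mat2_eq_one_of_pow_eq_one` : finite order, trace `2`, determinant `1` ⇒ `M = 1` (char. zero).
* `mat2_exists_roots_of_pow_eq_one` : trace and determinant of a matrix of finite order are the sum
  and the product of two roots of unity.
-/

set_option autoImplicit false

namespace Fermat.Agent.S48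

open Matrix

section CommRing
variable {R : Type*} [CommRing R]

/-- Cayley–Hamilton for `2 × 2` matrices -/
theorem mat2_sq (M : Matrix (Fin 2) (Fin 2) R) :
    M ^ 2 = M.trace • M - M.det • (1 : Matrix (Fin 2) (Fin 2) R) := by
  ext i j
  fin_cases i <;> fin_cases j <;>
    simp [pow_two, Matrix.mul_apply, Fin.sum_univ_two, Matrix.trace_fin_two,
      Matrix.det_fin_two] <;> ring

theorem mat2_pow_succ_succ (M : Matrix (Fin 2) (Fin 2) R) (m : ℕ) :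
    M ^ (m + 2) = M.trace • M ^ (m + 1) - M.det • M ^ m := by
  rw [pow_add, mat2_sq, mul_sub, mul_smul_comm, mul_smul_comm, mul_one, ← pow_succ]

/-- the trace of a power of a `2 × 2` matrix depends only on trace and determinant -/
theorem mat2_trace_pow_congr {M M' : Matrix (Fin 2) (Fin 2) R} (ht : M.trace = M'.trace)
    (hd : M.det = M'.det) (m : ℕ) : (M ^ m).trace = (M' ^ m).trace := by
  have key : ∀ m : ℕ, (M ^ m).trace = (M' ^ m).trace ∧ (M ^ (m + 1)).trace = (M' ^ (m + 1)).trace := by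
    intro m
    induction m with
    | zero => exact ⟨by simp, by simpa using ht⟩
    | succ m ih =>
      refine ⟨ih.2, ?_⟩
      rw [mat2_pow_succ_succ, mat2_pow_succ_succ, Matrix.trace_sub, Matrix.trace_sub,
        Matrix.trace_smul, Matrix.trace_smul, Matrix.trace_smul, Matrix.trace_smul, ih.1, ih.2,
        ht, hd]
  exact (key m).1

/-- a unipotent `2 × 2` matrix of finite order in characteristic zero is the identity -/
theorem mat2_eq_one_of_pow_eq_one [IsDomain R] [CharZero R] {M : Matrix (Fin 2) (Fin 2) R}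
    (ht : M.trace = 2) (hd : M.det = 1) {n : ℕ} (hn : 0 < n) (hM : M ^ n = 1) : M = 1 := by
  have hsq : M ^ 2 = (2 : R) • M - (1 : Matrix (Fin 2) (Fin 2) R) := by
    rw [mat2_sq, ht, hd, one_smul]
  have key : ∀ k : ℕ, M ^ k = (k : R) • M - ((k : R) - 1) • (1 : Matrix (Fin 2) (Fin 2) R) := by
    intro k
    induction k with
    | zero => simp
    | succ k ih =>
      rw [pow_succ, ih, sub_mul, smul_mul_assoc, smul_mul_assoc, one_mul, ← pow_two, hsq]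
      push_cast
      module
  have h1 := key n
  rw [hM] at h1
  have h2 : (n : R) • (M - 1) = 0 := by
    have h4 : (n : R) • M = (1 : Matrix (Fin 2) (Fin 2) R) +
        ((n : R) - 1) • (1 : Matrix (Fin 2) (Fin 2) R) := eq_add_of_sub_eq h1.symm
    rw [smul_sub, h4]
    module
  have hn0 : (n : R) ≠ 0 := Nat.cast_ne_zero.mpr hn.ne'
  have h3 : M - 1 = 0 := by
    ext i j
    have := congrFun (congrFun h2 i) j
    simp only [Matrix.smul_apply, Matrix.zero_apply, smul_eq_mul] at this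
    rcases mul_eq_zero.mp this with h | h
    · exact absurd h hn0
    · simpa using h
  exact sub_eq_zero.mp h3

end CommRing

section Field
variable {K : Type*} [Field K]

theorem mat2_det_smul_one_sub (M : Matrix (Fin 2) (Fin 2) K) (x : K) :
    (x • (1 : Matrix (Fin 2) (Fin 2) K) - M).det = x ^ 2 - M.trace * x + M.det := by
  simp [Matrix.det_fin_two, Matrix.trace_fin_two]
  ring

/-- a root of the characteristic polynomial of a matrix of finite order is a root of unity -/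
theorem mat2_root_pow_eq_one {M : Matrix (Fin 2) (Fin 2) K} {n : ℕ} (hM : M ^ n = 1) {x : K}
    (hx : x ^ 2 - M.trace * x + M.det = 0) : x ^ n = 1 := by
  have hdet : (x • (1 : Matrix (Fin 2) (Fin 2) K) - M).det = 0 := by
    rw [mat2_det_smul_one_sub, hx]
  obtain ⟨v, hv0, hv⟩ := Matrix.exists_mulVec_eq_zero_iff.mpr hdet
  have hMv : M.mulVec v = x • v := by
    rw [Matrix.sub_mulVec, Matrix.smul_mulVec, Matrix.one_mulVec] at hv
    exact (sub_eq_zero.mp hv).symm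
  have hpow : ∀ k : ℕ, (M ^ k).mulVec v = x ^ k • v := by
    intro k
    induction k with
    | zero => simp
    | succ k ih =>
      rw [pow_succ, ← Matrix.mulVec_mulVec, hMv, Matrix.mulVec_smul, ih, smul_smul, pow_succ,
        mul_comm]
  have h1 := hpow n
  rw [hM, Matrix.one_mulVec] at h1
  have h2 : (x ^ n - 1) • v = 0 := by
    rw [sub_smul, one_smul, ← h1, sub_self]
  rcases smul_eq_zero.mp h2 with h | h
  · exact sub_eq_zero.mp h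
  · exact absurd h hv0

/-- trace and determinant of a `2 × 2` matrix of finite order over an algebraically closed field
are the sum and the product of two roots of unity -/
theorem mat2_exists_roots_of_pow_eq_one [IsAlgClosed K] {M : Matrix (Fin 2) (Fin 2) K} {n : ℕ}
    (hM : M ^ n = 1) :
    ∃ x y : K, x ^ n = 1 ∧ y ^ n = 1 ∧ M.trace = x + y ∧ M.det = x * y := by
  obtain ⟨x, hx⟩ : ∃ x : K, x ^ 2 - M.trace * x + M.det = 0 := by
    have hdeg : (Polynomial.X ^ 2 - Polynomial.C M.trace * Polynomial.X +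
        Polynomial.C M.det : Polynomial K).degree ≠ 0 := by
      have : (Polynomial.X ^ 2 - Polynomial.C M.trace * Polynomial.X +
        Polynomial.C M.det : Polynomial K).degree = 2 := by
        compute_degree!
      rw [this]
      norm_num
    obtain ⟨x, hx⟩ := IsAlgClosed.exists_root _ hdeg
    refine ⟨x, ?_⟩
    simpa [Polynomial.IsRoot] using hx
  refine ⟨x, M.trace - x, mat2_root_pow_eq_one hM hx, mat2_root_pow_eq_one hM ?_, by ring, ?_⟩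
  · linear_combination hx
  · linear_combination hx

end Field

end Fermat.Agent.S48


end ZBZ4S48_004_0

/-! ### bundled: `Fermat.Agent.S48.Exact` -/
section ZBZ4S48_004_1

/-!
# S48 (END assembly), steps 5–7: from bounded residual images to an exact complex representation

* `approxLift_of_residual` : a residual representation with image of order `≤ B < ℓ` lifts to a
  complex representation `ρ` with `ρ(σ)^{B!} = 1`, whose traces and determinants at Frobenius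
  elements are congruent mod `𝔪` to `a_p`, `ε(p)`.
* `coeff_mem_sumSet` : hence `a_p` is a sum of two `B!`-th roots of unity.
* `exists_exactLift` : hence for large `ℓ` the lift has exactly the traces `a_p` and the
  determinants `ε(p)` at Frobenius elements over `p ∤ N ℓ`.
* `exactLift_glue` : comparing two primes `ℓ₁ ≠ ℓ₂` (weak Chebotarev), the same holds at all
  `p ∤ N`, and the representation is unramified there.
-/

set_option autoImplicit false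

open CongruenceSubgroup

namespace Fermat.Agent.S48

/-- an approximate lift -/
def IsApproxLift (N : ℕ) (ε : DirichletCharacter ℂ N) (f : CuspForm (Gamma1 N) 1) (ℓ : ℕ)
    (𝔪 : Ideal Zb) (n : ℕ) (ρ : GalQ →* GL (Fin 2) ℂ) : Prop :=
  FiniteLevel ρ ∧ (∀ σ : GalQ, ρ σ ^ n = 1) ∧
    ∀ p : ℕ, p.Prime → ¬ p ∣ N * ℓ →
      ∀ A : ValuationSubring (AlgebraicClosure ℚ), A.LiesOverPrime p →
        (∀ σ ∈ A.inertiaSubgroupIn ℚ, ρ σ = 1) ∧
        ∀ τ : GalQ, A.IsFrobeniusAt τ p →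
          ∃ a e t d : Zb, (a : ℂ) = ModularFormClass.qCoeff f p ∧ (e : ℂ) = ε (p : ZMod N) ∧
            (t : ℂ) = Matrix.trace (ρ τ : Matrix (Fin 2) (Fin 2) ℂ) ∧
            (d : ℂ) = Matrix.det (ρ τ : Matrix (Fin 2) (Fin 2) ℂ) ∧ a - t ∈ 𝔪 ∧ e - d ∈ 𝔪

/-- an exact lift, away from the primes dividing `L` -/
def IsExactLift (N : ℕ) (ε : DirichletCharacter ℂ N) (f : CuspForm (Gamma1 N) 1) (L : ℕ)
    (n : ℕ) (ρ : GalQ →* GL (Fin 2) ℂ) : Prop :=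
  FiniteLevel ρ ∧ (∀ σ : GalQ, ρ σ ^ n = 1) ∧
    ∀ p : ℕ, p.Prime → ¬ p ∣ L →
      ∀ A : ValuationSubring (AlgebraicClosure ℚ), A.LiesOverPrime p →
        (∀ σ ∈ A.inertiaSubgroupIn ℚ, ρ σ = 1) ∧
        ∀ τ : GalQ, A.IsFrobeniusAt τ p →
          Matrix.trace (ρ τ : Matrix (Fin 2) (Fin 2) ℂ) = ModularFormClass.qCoeff f p ∧
          Matrix.det (ρ τ : Matrix (Fin 2) (Fin 2) ℂ) = ε (p : ZMod N)

/-! ### Step 5: lifting -/

theorem approxLift_of_residual (hLift : StmtLift) {N : ℕ} {ε : DirichletCharacter ℂ N}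
    {f : CuspForm (Gamma1 N) 1} {ℓ : ℕ} (hℓ : ℓ.Prime) {𝔪 : Ideal Zb} (h𝔪 : 𝔪.IsMaximal)
    (hℓ𝔪 : ((ℓ : ℕ) : Zb) ∈ 𝔪) {ρ ρ' : GalQ →* GL (Fin 2) (Zb ⧸ 𝔪)}
    (hρ : IsResidualRep N ε f ℓ 𝔪 ρ) (hker : ∀ σ : GalQ, ρ σ = 1 → ρ' σ = 1)
    (htd : ∀ σ : GalQ, Matrix.trace (ρ' σ : Matrix (Fin 2) (Fin 2) (Zb ⧸ 𝔪)) =
        Matrix.trace (ρ σ : Matrix (Fin 2) (Fin 2) (Zb ⧸ 𝔪)) ∧
      Matrix.det (ρ' σ : Matrix (Fin 2) (Fin 2) (Zb ⧸ 𝔪)) =
        Matrix.det (ρ σ : Matrix (Fin 2) (Fin 2) (Zb ⧸ 𝔪)))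
    {B : ℕ} (hB : Nat.card ρ'.range ≤ B) (hBℓ : B < ℓ) :
    ∃ ρc : GalQ →* GL (Fin 2) ℂ, IsApproxLift N ε f ℓ 𝔪 B.factorial ρc := by
  obtain ⟨⟨F, hFfin, hFgal, hFker⟩, hfrob⟩ := hρ
  haveI := hFfin
  haveI := hFgal
  haveI : Finite (F ≃ₐ[ℚ] F) := finite_galF F
  obtain ⟨ρF, hρF⟩ := exists_factor F ρ' fun σ hσ => hker σ (hFker σ hσ)
  have hrange : ρF.range = ρ'.range := range_eq_of_factor F hρF
  haveI hfinF : Finite ρF.range := Finite.of_surjective ρF.rangeRestrict ρF.rangeRestrict_surjective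
  haveI hfin : Finite ρ'.range := by rw [← hrange]; exact hfinF
  set n : ℕ := Nat.card ρ'.range with hn
  have hnpos : 0 < n := Nat.card_pos
  have hnB : n ≤ B := hB
  have hn𝔪 : ((n : ℕ) : Zb) ∉ 𝔪 := by
    intro h
    have h' : (((n : ℤ) : ℤ) : Zb) ∈ 𝔪 := by
      have : (((n : ℤ) : ℤ) : Zb) = ((n : ℕ) : Zb) := by push_cast; rfl
      rw [this]; exact h
    have hdvd : (ℓ : ℤ) ∣ (n : ℤ) := zb_int_dvd_of_mem h𝔪.ne_top hℓ hℓ𝔪 h'
    have hdvd' : ℓ ∣ n := Int.natCast_dvd_natCast.mp hdvd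
    have := Nat.le_of_dvd hnpos hdvd'
    omega
  obtain ⟨ρG, hρG⟩ := hLift 𝔪 h𝔪 ρ'.range hn𝔪 ρ'.range.subtype
  have hone : ∀ σ : GalQ, ρ' σ = 1 → (ρG.comp ρ'.rangeRestrict) σ = 1 := by
    intro σ hσ
    have h1 : ρ'.rangeRestrict σ = 1 := by
      apply Subtype.ext
      simpa using hσ
    rw [MonoidHom.comp_apply, h1, map_one]
  refine ⟨ρG.comp ρ'.rangeRestrict, ⟨F, hFfin, hFgal, fun σ hσ => hone σ (hker σ (hFker σ hσ))⟩,
    ?_, ?_⟩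
  · intro σ
    have h1 : (ρ'.rangeRestrict σ) ^ n = 1 := pow_card_eq_one'
    have h2 : n ∣ B.factorial := Nat.dvd_factorial hnpos hnB
    obtain ⟨c, hc⟩ := h2
    rw [MonoidHom.comp_apply, ← map_pow, hc, pow_mul, h1, one_pow, map_one]
  · intro p hp hpN A hA
    refine ⟨fun σ hσ => hone σ (hker σ ((hfrob p hp hpN A hA).1 σ hσ)), fun τ hτ => ?_⟩
    obtain ⟨a, e, ha, he, htr, hdet⟩ := (hfrob p hp hpN A hA).2 τ hτ
    obtain ⟨t, d, ht, htm, hd, hdm⟩ := hρG (ρ'.rangeRestrict τ)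
    refine ⟨a, e, t, d, ha, he, ht, hd, ?_, ?_⟩
    · apply Ideal.Quotient.eq.mp
      rw [← htr, ← (htd τ).1, htm]
      rfl
    · apply Ideal.Quotient.eq.mp
      rw [← hdet, ← (htd τ).2, hdm]
      rfl

/-! ### Step 6: finitely many possible traces -/

/-- the sums of two `n`-th roots of unity -/
noncomputable def sumSet (n : ℕ) : Finset ℂ :=
  letI : DecidableEq ℂ := Classical.decEq _
  ((Polynomial.nthRootsFinset n (1 : ℂ)) ×ˢ (Polynomial.nthRootsFinset n (1 : ℂ))).image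
    fun x => x.1 + x.2

theorem trace_mem_sumSet {n : ℕ} (hn : 0 < n) {M : Matrix (Fin 2) (Fin 2) ℂ} (hM : M ^ n = 1) :
    M.trace ∈ sumSet n := by
  classical
  obtain ⟨x, y, hx, hy, htr, -⟩ := mat2_exists_roots_of_pow_eq_one hM
  unfold sumSet
  rw [Finset.mem_image]
  refine ⟨(x, y), ?_, htr.symm⟩
  rw [Finset.mem_product]
  exact ⟨(Polynomial.mem_nthRootsFinset hn 1).mpr hx, (Polynomial.mem_nthRootsFinset hn 1).mpr hy⟩

theorem det_mem_roots {n : ℕ} (hn : 0 < n) {M : Matrix (Fin 2) (Fin 2) ℂ} (hM : M ^ n = 1) :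
    M.det ∈ Polynomial.nthRootsFinset n (1 : ℂ) := by
  rw [Polynomial.mem_nthRootsFinset hn 1, ← Matrix.det_pow, hM, Matrix.det_one]

theorem coe_pow_eq_one {n : ℕ} {g : GL (Fin 2) ℂ} (hg : g ^ n = 1) :
    (g : Matrix (Fin 2) (Fin 2) ℂ) ^ n = 1 := by
  rw [← Units.val_pow_eq_pow_val, hg, Units.val_one]

/-- two distinct elements of a finite set of algebraic integers stay distinct modulo every
maximal ideal of large residue characteristic -/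
theorem exists_sep (Y : Finset ℂ) :
    ∃ L : ℕ, ∀ ℓ : ℕ, ℓ.Prime → L < ℓ → ∀ 𝔪 : Ideal Zb, 𝔪 ≠ ⊤ → ((ℓ : ℕ) : Zb) ∈ 𝔪 →
      ∀ x y : Zb, (x : ℂ) ∈ Y → (y : ℂ) ∈ Y → x - y ∈ 𝔪 → x = y := by
  classical
  have key : ∀ u v : ℂ, ∃ L : ℕ, ∀ ℓ : ℕ, ℓ.Prime → L < ℓ → ∀ 𝔪 : Ideal Zb, 𝔪 ≠ ⊤ →
      ((ℓ : ℕ) : Zb) ∈ 𝔪 → ∀ x y : Zb, (x : ℂ) = u → (y : ℂ) = v → x - y ∈ 𝔪 → x = y := by
    intro u v
    by_cases h : ∃ x y : Zb, (x : ℂ) = u ∧ (y : ℂ) = v ∧ x ≠ y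
    · obtain ⟨x₀, y₀, hx₀, hy₀, hne⟩ := h
      obtain ⟨L, hL⟩ := zb_prime_bound_of_mem (sub_ne_zero.mpr hne)
      refine ⟨L, fun ℓ hℓ hLℓ 𝔪 h𝔪 hℓ𝔪 x y hx hy hxy => ?_⟩
      have hxx : x = x₀ := Subtype.ext (hx.trans hx₀.symm)
      have hyy : y = y₀ := Subtype.ext (hy.trans hy₀.symm)
      subst hxx hyy
      have := hL ℓ hℓ 𝔪 h𝔪 hℓ𝔪 hxy
      omega
    · refine ⟨0, fun ℓ _ _ 𝔪 _ _ x y hx hy _ => ?_⟩
      by_contra hne
      exact h ⟨x, y, hx, hy, hne⟩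
  choose b hb using key
  refine ⟨(Y ×ˢ Y).sup fun uv => b uv.1 uv.2, fun ℓ hℓ hLℓ 𝔪 h𝔪 hℓ𝔪 x y hx hy hxy => ?_⟩
  have hle : b (x : ℂ) (y : ℂ) ≤ (Y ×ˢ Y).sup fun uv => b uv.1 uv.2 :=
    Finset.le_sup (f := fun uv : ℂ × ℂ => b uv.1 uv.2) (b := ((x : ℂ), (y : ℂ)))
      (Finset.mem_product.mpr ⟨hx, hy⟩)
  exact hb (x : ℂ) (y : ℂ) ℓ hℓ (lt_of_le_of_lt hle hLℓ) 𝔪 h𝔪 hℓ𝔪 x y rfl rfl hxy

theorem not_dvd_mul_of_lt {p N ℓ : ℕ} (hp : p.Prime) (hℓ : ℓ.Prime) (hpN : ¬ p ∣ N)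
    (hne : p ≠ ℓ) : ¬ p ∣ N * ℓ := by
  intro h
  rcases (Nat.Prime.dvd_mul hp).mp h with h | h
  · exact hpN h
  · exact hne ((Nat.prime_dvd_prime_iff_eq hp hℓ).mp h)

theorem coeff_mem_sumSet (hFrob : StmtFrobExists) {N : ℕ} {ε : DirichletCharacter ℂ N}
    {f : CuspForm (Gamma1 N) 1} {n : ℕ} (hn : 0 < n) {ℓ₀ : ℕ}
    (hlift : ∀ ℓ : ℕ, ℓ.Prime → ℓ₀ ≤ ℓ → ∀ 𝔪 : Ideal Zb, 𝔪.IsMaximal → ((ℓ : ℕ) : Zb) ∈ 𝔪 →
      ∃ ρ : GalQ →* GL (Fin 2) ℂ, IsApproxLift N ε f ℓ 𝔪 n ρ)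
    {p : ℕ} (hp : p.Prime) (hpN : ¬ p ∣ N) :
    ModularFormClass.qCoeff f p ∈ sumSet n := by
  classical
  obtain ⟨L, hL⟩ := exists_sep (insert (ModularFormClass.qCoeff f p) (sumSet n))
  obtain ⟨ℓ, hℓge, hℓ⟩ := Nat.exists_infinite_primes (max ℓ₀ (max (L + 1) (p + 1)))
  have h1 : ℓ₀ ≤ ℓ := le_trans (le_max_left _ _) hℓge
  have h2 : L < ℓ := by
    have := le_trans (le_trans (le_max_left _ _) (le_max_right _ _)) hℓge
    omega
  have h3 : p < ℓ := by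
    have := le_trans (le_trans (le_max_right _ _) (le_max_right _ _)) hℓge
    omega
  obtain ⟨𝔪, h𝔪, hℓ𝔪⟩ := zb_exists_maximal hℓ
  obtain ⟨ρ, -, hpow, hρ⟩ := hlift ℓ hℓ h1 𝔪 h𝔪 hℓ𝔪
  obtain ⟨A, τ, hA, hτ⟩ := hFrob p hp
  obtain ⟨a, e, t, d, ha, -, ht, -, hat, -⟩ :=
    (hρ p hp (not_dvd_mul_of_lt hp hℓ hpN (by omega)) A hA).2 τ hτ
  have htmem : (t : ℂ) ∈ sumSet n := by
    rw [ht]
    exact trace_mem_sumSet hn (coe_pow_eq_one (hpow τ))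
  have hEq : a = t :=
    hL ℓ hℓ h2 𝔪 h𝔪.ne_top hℓ𝔪 a t (by rw [ha]; exact Finset.mem_insert_self _ _)
      (Finset.mem_insert_of_mem htmem) hat
  rw [← ha, hEq]
  exact htmem

/-! ### Step 6': exact traces for large `ℓ` -/

theorem exists_exactLift (hFrob : StmtFrobExists) {N : ℕ} [NeZero N]
    {ε : DirichletCharacter ℂ N}
    {f : CuspForm (Gamma1 N) 1} {n : ℕ} (hn : 0 < n) {ℓ₀ : ℕ}
    (hlift : ∀ ℓ : ℕ, ℓ.Prime → ℓ₀ ≤ ℓ → ∀ 𝔪 : Ideal Zb, 𝔪.IsMaximal → ((ℓ : ℕ) : Zb) ∈ 𝔪 →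
      ∃ ρ : GalQ →* GL (Fin 2) ℂ, IsApproxLift N ε f ℓ 𝔪 n ρ) :
    ∃ L : ℕ, ∀ ℓ : ℕ, ℓ.Prime → L ≤ ℓ → ∃ ρ : GalQ →* GL (Fin 2) ℂ,
      IsExactLift N ε f (N * ℓ) n ρ := by
  classical
  obtain ⟨L₁, hL₁⟩ := exists_sep (sumSet n)
  obtain ⟨L₂, hL₂⟩ := exists_sep (Polynomial.nthRootsFinset n (1 : ℂ) ∪ charValues ε)
  refine ⟨max ℓ₀ (max (L₁ + 1) (L₂ + 1)), fun ℓ hℓ hℓge => ?_⟩
  have h1 : ℓ₀ ≤ ℓ := le_trans (le_max_left _ _) hℓge
  have h2 : L₁ < ℓ := by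
    have := le_trans (le_trans (le_max_left _ _) (le_max_right _ _)) hℓge
    omega
  have h3 : L₂ < ℓ := by
    have := le_trans (le_trans (le_max_right _ _) (le_max_right _ _)) hℓge
    omega
  obtain ⟨𝔪, h𝔪, hℓ𝔪⟩ := zb_exists_maximal hℓ
  obtain ⟨ρ, hlev, hpow, hρ⟩ := hlift ℓ hℓ h1 𝔪 h𝔪 hℓ𝔪
  refine ⟨ρ, hlev, hpow, fun p hp hpN A hA => ⟨(hρ p hp hpN A hA).1, fun τ hτ => ?_⟩⟩
  obtain ⟨a, e, t, d, ha, he, ht, hd, hat, hed⟩ := (hρ p hp hpN A hA).2 τ hτ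
  have hpN' : ¬ p ∣ N := fun h => hpN (Dvd.dvd.mul_right h ℓ)
  have hamem : (a : ℂ) ∈ sumSet n := by
    rw [ha]
    exact coeff_mem_sumSet hFrob hn hlift hp hpN'
  have htmem : (t : ℂ) ∈ sumSet n := by
    rw [ht]
    exact trace_mem_sumSet hn (coe_pow_eq_one (hpow τ))
  have hemem : (e : ℂ) ∈ Polynomial.nthRootsFinset n (1 : ℂ) ∪ charValues ε := by
    rw [he]
    exact Finset.mem_union_right _ (mem_charValues ε _)
  have hdmem : (d : ℂ) ∈ Polynomial.nthRootsFinset n (1 : ℂ) ∪ charValues ε := by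
    rw [hd]
    exact Finset.mem_union_left _ (det_mem_roots hn (coe_pow_eq_one (hpow τ)))
  have hat' : a = t := hL₁ ℓ hℓ h2 𝔪 h𝔪.ne_top hℓ𝔪 a t hamem htmem hat
  have hed' : e = d := hL₂ ℓ hℓ h3 𝔪 h𝔪.ne_top hℓ𝔪 e d hemem hdmem hed
  exact ⟨by rw [← ht, ← hat', ha], by rw [← hd, ← hed', he]⟩

/-! ### Step 7: two primes -/

/-- two finite extensions of `ℚ` in `ℚ̄` lie in a finite Galois extension -/
theorem exists_hull2 (E₁ E₂ : IntermediateField ℚ (AlgebraicClosure ℚ))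
    [FiniteDimensional ℚ E₁] [FiniteDimensional ℚ E₂] :
    ∃ F : IntermediateField ℚ (AlgebraicClosure ℚ), FiniteDimensional ℚ F ∧ IsGalois ℚ F ∧
      E₁ ≤ F ∧ E₂ ≤ F := by
  have hn := qbar_normal
  set K : IntermediateField ℚ (AlgebraicClosure ℚ) := E₁ ⊔ E₂ with hK
  have hKfin : FiniteDimensional ℚ K := inferInstance
  refine ⟨IntermediateField.normalClosure ℚ K (AlgebraicClosure ℚ), inferInstance, ?_, ?_, ?_⟩
  · have : Normal ℚ (IntermediateField.normalClosure ℚ K (AlgebraicClosure ℚ)) :=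
      normalClosure.normal ℚ K (AlgebraicClosure ℚ)
    exact IsGalois.mk
  · exact le_trans le_sup_left (IntermediateField.le_normalClosure K)
  · exact le_trans le_sup_right (IntermediateField.le_normalClosure K)

theorem exactLift_same (hWC : StmtWeakCheb) {N : ℕ} [NeZero N] {ε : DirichletCharacter ℂ N}
    {f : CuspForm (Gamma1 N) 1} {n : ℕ} {ℓ₁ ℓ₂ : ℕ} (hℓ₁ : ℓ₁.Prime) (hℓ₂ : ℓ₂.Prime)
    {ρ₁ ρ₂ : GalQ →* GL (Fin 2) ℂ}
    (h₁ : IsExactLift N ε f (N * ℓ₁) n ρ₁) (h₂ : IsExactLift N ε f (N * ℓ₂) n ρ₂) (σ : GalQ) :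
    Matrix.trace (ρ₁ σ : Matrix (Fin 2) (Fin 2) ℂ) =
        Matrix.trace (ρ₂ σ : Matrix (Fin 2) (Fin 2) ℂ) ∧
      Matrix.det (ρ₁ σ : Matrix (Fin 2) (Fin 2) ℂ) =
        Matrix.det (ρ₂ σ : Matrix (Fin 2) (Fin 2) ℂ) := by
  obtain ⟨⟨F₁, hF₁fin, -, hF₁⟩, -, hρ₁⟩ := h₁
  obtain ⟨⟨F₂, hF₂fin, -, hF₂⟩, -, hρ₂⟩ := h₂
  haveI := hF₁fin
  haveI := hF₂fin
  obtain ⟨F, hFfin, hFgal, hF₁F, hF₂F⟩ := exists_hull2 F₁ F₂
  haveI := hFfin
  haveI := hFgal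
  have hNℓ : N * ℓ₁ * ℓ₂ ≠ 0 :=
    Nat.mul_ne_zero (Nat.mul_ne_zero (NeZero.ne N) hℓ₁.ne_zero) hℓ₂.ne_zero
  obtain ⟨p, A, τ, m, hp, hpS, hA, hτ, hagree⟩ := hWC F (N * ℓ₁ * ℓ₂).primeFactors σ
  have hpd : ¬ p ∣ N * ℓ₁ * ℓ₂ := fun h => hpS (Nat.mem_primeFactors.mpr ⟨hp, h, hNℓ⟩)
  have hp1 : ¬ p ∣ N * ℓ₁ := fun h => hpd (Dvd.dvd.mul_right h ℓ₂)
  have hp2 : ¬ p ∣ N * ℓ₂ := fun h => hpd (by
    have : N * ℓ₁ * ℓ₂ = N * ℓ₂ * ℓ₁ := by ring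
    rw [this]; exact Dvd.dvd.mul_right h ℓ₁)
  -- `ρ_i σ = ρ_i τ ^ m`
  have hfac : ∀ (ρ : GalQ →* GL (Fin 2) ℂ) (E : IntermediateField ℚ (AlgebraicClosure ℚ)),
      E ≤ F → (∀ σ : GalQ, (∀ x ∈ E, σ x = x) → ρ σ = 1) → ρ σ = ρ τ ^ m := by
    intro ρ E hEF hE
    have h1 : ρ (σ⁻¹ * τ ^ m) = 1 := by
      apply hE
      intro x hx
      have hx' := hagree x (hEF hx)
      rw [AlgEquiv.mul_apply, hx']
      exact AlgEquiv.symm_apply_apply σ x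
    rw [map_mul, map_inv, map_pow] at h1
    have := inv_mul_eq_one.mp h1
    exact this
  obtain ⟨htr₁, hdet₁⟩ := (hρ₁ p hp hp1 A hA).2 τ hτ
  obtain ⟨htr₂, hdet₂⟩ := (hρ₂ p hp hp2 A hA).2 τ hτ
  rw [hfac ρ₁ F₁ hF₁F hF₁, hfac ρ₂ F₂ hF₂F hF₂]
  rw [Units.val_pow_eq_pow_val, Units.val_pow_eq_pow_val]
  refine ⟨mat2_trace_pow_congr (htr₁.trans htr₂.symm) (hdet₁.trans hdet₂.symm) m, ?_⟩
  rw [Matrix.det_pow, Matrix.det_pow, hdet₁, hdet₂]

theorem eq_one_of_same {n : ℕ} (hn : 0 < n) {g h : GL (Fin 2) ℂ} (hg : g ^ n = 1)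
    (htr : Matrix.trace (g : Matrix (Fin 2) (Fin 2) ℂ) =
      Matrix.trace (h : Matrix (Fin 2) (Fin 2) ℂ))
    (hdet : Matrix.det (g : Matrix (Fin 2) (Fin 2) ℂ) =
      Matrix.det (h : Matrix (Fin 2) (Fin 2) ℂ)) (hh : h = 1) : g = 1 := by
  subst hh
  apply Units.ext
  rw [Units.val_one]
  refine mat2_eq_one_of_pow_eq_one ?_ ?_ hn (coe_pow_eq_one hg)
  · rw [htr, Units.val_one, Matrix.trace_one]
    simp
  · rw [hdet, Units.val_one, Matrix.det_one]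

/-- **Gluing two primes.** -/
theorem exactLift_glue (hWC : StmtWeakCheb) {N : ℕ} [NeZero N] {ε : DirichletCharacter ℂ N}
    {f : CuspForm (Gamma1 N) 1} {n : ℕ} (hn : 0 < n) {ℓ₁ ℓ₂ : ℕ} (hℓ₁ : ℓ₁.Prime)
    (hℓ₂ : ℓ₂.Prime) (hne : ℓ₁ ≠ ℓ₂) {ρ₁ ρ₂ : GalQ →* GL (Fin 2) ℂ}
    (h₁ : IsExactLift N ε f (N * ℓ₁) n ρ₁) (h₂ : IsExactLift N ε f (N * ℓ₂) n ρ₂) :
    IsExactLift N ε f N n ρ₁ := by
  have hsame := exactLift_same hWC hℓ₁ hℓ₂ h₁ h₂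
  refine ⟨h₁.1, h₁.2.1, fun p hp hpN A hA => ?_⟩
  by_cases hp1 : p ∣ N * ℓ₁
  · have hpℓ : p = ℓ₁ := by
      rcases (Nat.Prime.dvd_mul hp).mp hp1 with h | h
      · exact absurd h hpN
      · exact (Nat.prime_dvd_prime_iff_eq hp hℓ₁).mp h
    have hp2 : ¬ p ∣ N * ℓ₂ := not_dvd_mul_of_lt hp hℓ₂ hpN (by rw [hpℓ]; exact hne)
    obtain ⟨hin, hfr⟩ := h₂.2.2 p hp hp2 A hA
    refine ⟨fun σ hσ => ?_, fun τ hτ => ?_⟩
    · exact eq_one_of_same hn (h₁.2.1 σ) (hsame σ).1 (hsame σ).2 (hin σ hσ)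
    · obtain ⟨htr, hdet⟩ := hfr τ hτ
      exact ⟨(hsame τ).1.trans htr, (hsame τ).2.trans hdet⟩
  · exact h₁.2.2 p hp hp1 A hA

end Fermat.Agent.S48


end ZBZ4S48_004_1
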