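/- GENERATED FILE (helper35, build-time optimisation, NOTES/ZB.md): verbatim concatenation of the modules
   Fermat.Agent.S48.Parseval
   Do not edit; do not import together with these modules. -/
import Mathlib.NumberTheory.ModularForms.Bounds
import Mathlib.NumberTheory.ModularForms.QExpansion
import Mathlib.Analysis.Fourier.AddCircle

/-! ### bundled: `Fermat.Agent.S48.Parseval` -/
section ZBZ4S48_005_0

/-!
# S48 (Deligne–Serre), piece R1: the mean-square bound for the coefficients of a cusp form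

For a function `f` on the upper half plane with period `1`, holomorphic and bounded at `i∞`, with
`q`-expansion `∑ aₙ qⁿ`, Parseval on the horizontal line `Im τ = t` gives
`∑ₙ ‖aₙ‖² e^{-4πnt} = ∫₀¹ ‖f(u + it)‖² du`.  For a cusp form of weight `k` the right hand side is
`≤ C² t^{-k}`, hence `∑_{n ≤ X} ‖aₙ‖² ≤ e^{4π} C² X^k`.  No Rankin–Selberg continuation is needed.

* `lineFun f t ht u = f (u + i t)`.
* `fourierCoeffOn_lineFun` : its Fourier coefficients on `[0,1]` are `aₙ e^{-2πnt}`.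
* `sum_sq_coeff_mul_exp_le` : the Bessel/Parseval inequality for a finite set of indices.
* `cuspForm_sum_sq_coeff_le` : `∑_{n ≤ X} ‖aₙ‖² ≤ C · X^k` for a cusp form of weight `k`.
-/

set_option autoImplicit false

noncomputable section

namespace Fermat.Agent.S48

open UpperHalfPlane MeasureTheory Function
open scoped Real Manifold

local notation "𝕢" => Function.Periodic.qParam

/-- The restriction of `f` to the horizontal line `Im τ = t`. -/
def lineFun (f : ℍ → ℂ) (t : ℝ) (ht : 0 < t) (u : ℝ) : ℂ :=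
  f ⟨u + t * Complex.I, by simpa using ht⟩

theorem continuous_lineFun {f : ℍ → ℂ} (hf : Continuous f) (t : ℝ) (ht : 0 < t) :
    Continuous (lineFun f t ht) := by
  refine hf.comp ?_
  rw [UpperHalfPlane.isEmbedding_coe.continuous_iff]
  show Continuous fun u : ℝ => ((u : ℂ) + t * Complex.I)
  fun_prop

/-- The Fourier coefficients on `[0,1]` of `u ↦ f(u + it)` are `aₙ e^{-2πnt}`. -/
theorem fourierCoeffOn_lineFun {f : ℍ → ℂ} (hfper : Periodic (f ∘ ofComplex) (1 : ℝ))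
    (hfhol : MDiff f) (hfbdd : IsBoundedAtImInfty f) (t : ℝ) (ht : 0 < t) (n : ℕ) :
    fourierCoeffOn (zero_lt_one' ℝ) (lineFun f t ht) (n : ℤ) =
      (qExpansion 1 f).coeff n * Real.exp (-(2 * π * n * t)) := by
  rw [fourierCoeffOn_eq_integral,
    qExpansion_coeff_eq_intervalIntegral one_pos hfper hfhol hfbdd n ht]
  simp only [sub_zero, one_div, Complex.ofReal_one, inv_one, one_smul, one_mul]
  rw [← intervalIntegral.integral_mul_const]
  congr 1 with u
  rw [fourier_coe_apply, lineFun, smul_eq_mul]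
  have hq : 𝕢 1 ((u : ℂ) + t * Complex.I) ^ n ≠ 0 := pow_ne_zero _ (Complex.exp_ne_zero _)
  have key : Complex.exp (2 * π * Complex.I * ((-(n : ℤ) : ℤ) : ℂ) * u / ((1 : ℝ) - 0 : ℝ)) =
      (𝕢 1 ((u : ℂ) + t * Complex.I) ^ n)⁻¹ * (Real.exp (-(2 * π * n * t)) : ℂ) := by
    rw [Function.Periodic.qParam, ← Complex.exp_nat_mul, ← Complex.exp_neg, Complex.ofReal_exp,
      ← Complex.exp_add]
    congr 1
    push_cast
    have := Complex.I_mul_I
    ring_nf
    rw [Complex.I_sq]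
    ring
  rw [key]
  simp only [UpperHalfPlane.coe_I]
  ring

/-- **Bessel/Parseval** on the line `Im τ = t`: if `‖f(u + it)‖ ≤ B` for all `u`, then
`∑_{n ∈ s} ‖aₙ‖² e^{-4πnt} ≤ B²` for every finite set `s` of indices. -/
theorem sum_sq_coeff_mul_exp_le {f : ℍ → ℂ} (hfper : Periodic (f ∘ ofComplex) (1 : ℝ))
    (hfhol : MDiff f) (hfbdd : IsBoundedAtImInfty f) (t : ℝ) (ht : 0 < t) (B : ℝ)
    (hB : ∀ u : ℝ, ‖lineFun f t ht u‖ ≤ B) (s : Finset ℕ) :
    ∑ n ∈ s, ‖(qExpansion 1 f).coeff n‖ ^ 2 * Real.exp (-(4 * π * n * t)) ≤ B ^ 2 := by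
  have hc : Continuous (lineFun f t ht) := continuous_lineFun hfhol.continuous t ht
  have hL2 : MemLp (lineFun f t ht) 2 (volume.restrict (Set.Ioc (0 : ℝ) 1)) :=
    MemLp.of_bound hc.aestronglyMeasurable B (Filter.Eventually.of_forall hB)
  have hP := hasSum_sq_fourierCoeffOn (zero_lt_one' ℝ) hL2
  have h1 : ∑ i ∈ s.map ⟨((↑) : ℕ → ℤ), Nat.cast_injective⟩,
      ‖fourierCoeffOn (zero_lt_one' ℝ) (lineFun f t ht) i‖ ^ 2 ≤
      ((1 : ℝ) - 0)⁻¹ • ∫ x in (0 : ℝ)..1, ‖lineFun f t ht x‖ ^ 2 :=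
    sum_le_hasSum _ (fun i _ => by positivity) hP
  rw [Finset.sum_map] at h1
  simp only [Function.Embedding.coeFn_mk, fourierCoeffOn_lineFun hfper hfhol hfbdd t ht,
    sub_zero, inv_one, one_smul] at h1
  have h2 : ∫ x in (0 : ℝ)..1, ‖lineFun f t ht x‖ ^ 2 ≤ B ^ 2 := by
    have hB0 : 0 ≤ B := (norm_nonneg _).trans (hB 0)
    calc ∫ x in (0 : ℝ)..1, ‖lineFun f t ht x‖ ^ 2 ≤ ∫ _x in (0 : ℝ)..1, B ^ 2 := by
          refine intervalIntegral.integral_mono_on (by norm_num) ?_ ?_ ?_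
          · exact (hc.norm.pow 2).intervalIntegrable _ _
          · exact intervalIntegrable_const
          · intro x _
            exact pow_le_pow_left₀ (norm_nonneg _) (hB x) 2
      _ = B ^ 2 := by simp
  refine le_trans (le_of_eq ?_) (h1.trans h2)
  refine Finset.sum_congr rfl fun n _ => ?_
  rw [norm_mul, mul_pow, Complex.norm_real, Real.norm_eq_abs, abs_of_pos (Real.exp_pos _),
    ← Real.exp_nat_mul]
  congr 2
  push_cast
  ring

/-- **Mean-square bound** (Rankin's bound in its elementary form): for a cusp form of weight `k`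
on an arithmetic group containing `T`, `∑_{n ≤ X} ‖aₙ‖² ≤ C · X^k`. -/
theorem cuspForm_sum_sq_coeff_le {k : ℤ} {Γ : Subgroup (GL (Fin 2) ℝ)} [Γ.IsArithmetic]
    {F : Type*} [FunLike F ℍ ℂ] [CuspFormClass F Γ k] (f : F)
    (hΓ : (1 : ℝ) ∈ Γ.strictPeriods) :
    ∃ C : ℝ, 0 ≤ C ∧ ∀ X : ℕ, 1 ≤ X →
      ∑ n ∈ Finset.range (X + 1), ‖(qExpansion 1 f).coeff n‖ ^ 2 ≤ C * (X : ℝ) ^ (k : ℝ) := by
  obtain ⟨C, hC⟩ := CuspFormClass.exists_bound (k := k) (Γ := Γ) f
  have hfper : Periodic ((⇑f : ℍ → ℂ) ∘ ofComplex) (1 : ℝ) :=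
    SlashInvariantFormClass.periodic_comp_ofComplex f hΓ
  have hfhol : MDiff (⇑f : ℍ → ℂ) := ModularFormClass.holo f
  have hfbdd : IsBoundedAtImInfty (⇑f : ℍ → ℂ) := ModularFormClass.bdd_at_infty f
  refine ⟨Real.exp (4 * π) * C ^ 2, by positivity, fun X hX => ?_⟩
  have hXpos : (0 : ℝ) < X := by exact_mod_cast hX
  set t : ℝ := 1 / (X : ℝ) with ht_def
  have ht : 0 < t := by positivity
  have hB : ∀ u : ℝ, ‖lineFun (⇑f) t ht u‖ ≤ C / t ^ ((k : ℝ) / 2) := by
    intro u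
    have := hC ⟨u + t * Complex.I, by simpa using ht⟩
    have him : (⟨(u : ℂ) + t * Complex.I, by simpa using ht⟩ : ℍ).im = t := by
      show ((u : ℂ) + t * Complex.I).im = t
      simp
    rw [him] at this
    exact this
  have h1 := sum_sq_coeff_mul_exp_le hfper hfhol hfbdd t ht _ hB (Finset.range (X + 1))
  have hsq : (C / t ^ ((k : ℝ) / 2)) ^ 2 = C ^ 2 * (X : ℝ) ^ (k : ℝ) := by
    rw [div_pow, ← Real.rpow_natCast (t ^ ((k : ℝ) / 2)) 2, ← Real.rpow_mul ht.le]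
    have : (k : ℝ) / 2 * ((2 : ℕ) : ℝ) = (k : ℝ) := by push_cast; ring
    rw [this, ht_def, one_div, Real.inv_rpow hXpos.le, div_eq_mul_inv, inv_inv]
  rw [hsq] at h1
  have h2 : ∑ n ∈ Finset.range (X + 1), ‖(qExpansion 1 f).coeff n‖ ^ 2 * Real.exp (-(4 * π)) ≤
      ∑ n ∈ Finset.range (X + 1),
        ‖(qExpansion 1 f).coeff n‖ ^ 2 * Real.exp (-(4 * π * n * t)) := by
    refine Finset.sum_le_sum fun n hn => ?_
    refine mul_le_mul_of_nonneg_left ?_ (by positivity)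
    rw [Real.exp_le_exp, neg_le_neg_iff]
    have hn' : (n : ℝ) ≤ X := by
      have := Finset.mem_range.mp hn
      exact_mod_cast Nat.lt_succ_iff.mp this
    have hnt : (n : ℝ) * t ≤ 1 := by
      rw [ht_def, mul_one_div, div_le_one hXpos]
      exact hn'
    have hpi : 0 < 4 * π := by positivity
    calc 4 * π * n * t = 4 * π * (n * t) := by ring
      _ ≤ 4 * π * 1 := by gcongr
      _ = 4 * π := by ring
  rw [← Finset.sum_mul] at h2
  have h3 := h2.trans h1
  have hexp : Real.exp (-(4 * π)) * Real.exp (4 * π) = 1 := by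
    rw [← Real.exp_add]; simp
  calc ∑ n ∈ Finset.range (X + 1), ‖(qExpansion 1 f).coeff n‖ ^ 2
      = ((∑ n ∈ Finset.range (X + 1), ‖(qExpansion 1 f).coeff n‖ ^ 2) * Real.exp (-(4 * π)))
          * Real.exp (4 * π) := by
        rw [mul_assoc, hexp, mul_one]
    _ ≤ (C ^ 2 * (X : ℝ) ^ (k : ℝ)) * Real.exp (4 * π) :=
        mul_le_mul_of_nonneg_right h3 (Real.exp_pos _).le
    _ = Real.exp (4 * π) * C ^ 2 * (X : ℝ) ^ (k : ℝ) := by ring

/-- Weight one: `∑_{n ≤ X} ‖aₙ‖² ≤ C · X`. -/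
theorem cuspForm_weight_one_sum_sq_coeff_le {Γ : Subgroup (GL (Fin 2) ℝ)} [Γ.IsArithmetic]
    {F : Type*} [FunLike F ℍ ℂ] [CuspFormClass F Γ 1] (f : F)
    (hΓ : (1 : ℝ) ∈ Γ.strictPeriods) :
    ∃ C : ℝ, 0 ≤ C ∧ ∀ X : ℕ, 1 ≤ X →
      ∑ n ∈ Finset.range (X + 1), ‖(qExpansion 1 f).coeff n‖ ^ 2 ≤ C * (X : ℝ) := by
  obtain ⟨C, hC0, hC⟩ := cuspForm_sum_sq_coeff_le (k := 1) f hΓ
  refine ⟨C, hC0, fun X hX => ?_⟩
  have := hC X hX
  simpa using this

end Fermat.Agent.S48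

end
end ZBZ4S48_005_0
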