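/- GENERATED FILE (helper35, build-time optimisation, NOTES/ZB.md): verbatim concatenation of the modules
   Fermat.Agent.S48.Euler
   Fermat.Agent.S48.PrimeSum
   Fermat.Agent.S48.Density
   Do not edit; do not import together with these modules. -/
import Mathlib
import Fermat.Prelude.Def_FLTPrelim_Modularity
import Fermat.Agent.ZB.Z4S48_005
import Fermat.Prelude.Thm_ModularForm_sturm_bound_of_isArithmetic
import Fermat.Agent.ZB.S48_002
import Fermat.Agent.ZB.S23_004

/-! ### bundled: `Fermat.Agent.S48.Euler` -/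
section ZBZ4S48_006_0

/-!
# S48, pieces R2 + R3: from the mean-square bound to the prime sum bound

Let `a : ℕ → ℂ` satisfy `a 1 = 1` and the Hecke relations
`a (p n) + ε p [p ∣ n] a (n / p) = a p a n` at the primes `p ∤ N`, with `‖ε p‖ = 1`, and suppose
`∑_{n ≤ X} ‖a n‖² ≤ C X`.  Then `∑_{p ∈ P} ‖a p‖² p^{-s} ≤ log (1 / (s - 1)) + C'` for
`1 < s ≤ 2` and every finite set `P` of primes not dividing `N` (`prime_sum_le`).

No analytic continuation is used: only positivity of the local Rankin–Selberg factors.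
-/

set_option autoImplicit false

namespace Fermat.Agent.S48

open Finset ComplexConjugate

/-! ### Abel summation as an inequality -/

/-- If the partial sums of `b` are at most `C k` and `w` is antitone and nonnegative, then
`∑ b i w i ≤ C ∑ w i`. -/
theorem sum_mul_le_of_partial_sums_le (b w : ℕ → ℝ) (C : ℝ) (hw : Antitone w)
    (hw0 : ∀ n, 0 ≤ w n) (hB : ∀ k, ∑ i ∈ range k, b i ≤ C * k) (M : ℕ) :
    ∑ i ∈ range M, b i * w i ≤ C * ∑ i ∈ range M, w i := by
  have key : ∀ M, (C * M - ∑ i ∈ range M, b i) * w M ≤ ∑ i ∈ range M, (C - b i) * w i := by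
    intro M
    induction M with
    | zero => simp
    | succ M ih =>
      rw [sum_range_succ, sum_range_succ]
      have h1 : 0 ≤ C * ((M + 1 : ℕ) : ℝ) - (∑ i ∈ range M, b i + b M) := by
        have := hB (M + 1)
        rw [sum_range_succ] at this
        linarith
      have h2 : w (M + 1) ≤ w M := hw (Nat.le_succ M)
      have h3 : (C * ((M + 1 : ℕ) : ℝ) - (∑ i ∈ range M, b i + b M)) * w (M + 1) ≤
          (C * ((M + 1 : ℕ) : ℝ) - (∑ i ∈ range M, b i + b M)) * w M :=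
        mul_le_mul_of_nonneg_left h2 h1
      push_cast at h3 ⊢
      nlinarith [ih]
  have h0 : 0 ≤ (C * M - ∑ i ∈ range M, b i) * w M :=
    mul_nonneg (by have := hB M; linarith) (hw0 M)
  have h1 := key M
  have h2 : ∑ i ∈ range M, (C - b i) * w i =
      C * ∑ i ∈ range M, w i - ∑ i ∈ range M, b i * w i := by
    rw [mul_sum, ← sum_sub_distrib]
    exact sum_congr rfl fun i _ => by ring
  linarith

theorem sum_rpow_neg_le (s : ℝ) (hs : 1 < s) (M : ℕ) :
    ∑ i ∈ range M, ((i : ℝ) + 1) ^ (-s) ≤ 1 + 1 / (s - 1) := by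
  have hpos : 0 < 1 / (s - 1) := by
    have : 0 < s - 1 := by linarith
    positivity
  rcases Nat.eq_zero_or_pos M with rfl | hM
  · simp only [range_zero, sum_empty]
    linarith
  obtain ⟨a, rfl⟩ : ∃ a, M = a + 1 := ⟨M - 1, by omega⟩
  rw [sum_range_succ']
  have h1 : ((0 : ℕ) : ℝ) + 1 = 1 := by simp
  rw [h1, Real.one_rpow]
  have hanti : AntitoneOn (fun x : ℝ => x ^ (-s)) (Set.Icc (1 : ℝ) (1 + (a : ℝ))) := by
    intro x hx y hy hxy
    have hx0 : (0 : ℝ) < x := by linarith [hx.1]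
    exact Real.rpow_le_rpow_of_nonpos hx0 hxy (by linarith)
  have h2 := hanti.sum_le_integral
  have ha0 : (0 : ℝ) ≤ a := Nat.cast_nonneg a
  have h3 : ∫ x in (1 : ℝ)..(1 + (a : ℝ)), x ^ (-s) =
      ((1 + (a : ℝ)) ^ (-s + 1) - 1 ^ (-s + 1)) / (-s + 1) := by
    rw [integral_rpow]
    right
    refine ⟨by linarith, ?_⟩
    rw [Set.uIcc_of_le (by linarith)]
    intro h
    have := h.1
    linarith
  rw [h3, Real.one_rpow] at h2
  have h4 : 0 ≤ (1 + (a : ℝ)) ^ (-s + 1) := Real.rpow_nonneg (by linarith) _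
  have h5 : ((1 + (a : ℝ)) ^ (-s + 1) - 1) / (-s + 1) ≤ 1 / (s - 1) := by
    have h6 : ((1 + (a : ℝ)) ^ (-s + 1) - 1) / (-s + 1) =
        (1 - (1 + (a : ℝ)) ^ (-s + 1)) / (s - 1) := by
      rw [div_eq_div_iff (by linarith) (by linarith)]
      ring
    rw [h6]
    apply div_le_div_of_nonneg_right _ (by linarith)
    linarith
  have h7 : ∑ i ∈ range a, (((i + 1 : ℕ) : ℝ) + 1) ^ (-s) =
      ∑ i ∈ range a, (fun x : ℝ => x ^ (-s)) (1 + ((i + 1 : ℕ) : ℝ)) :=
    sum_congr rfl fun i _ => by simp only [add_comm]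
  rw [h7]
  linarith

/-- Dirichlet series with mean-bounded nonnegative coefficients: `∑ b n n^{-s} ≤ C (1 + 1/(s-1))`. -/
theorem dirichlet_sum_le (b : ℕ → ℝ) (hb : ∀ n, 0 ≤ b n) (C : ℝ)
    (hC : ∀ X : ℕ, 1 ≤ X → ∑ n ∈ range (X + 1), b n ≤ C * X) (s : ℝ) (hs : 1 < s) :
    Summable (fun n : ℕ => b n * (n : ℝ) ^ (-s)) ∧
      ∑' n : ℕ, b n * (n : ℝ) ^ (-s) ≤ C * (1 + 1 / (s - 1)) := by
  have hC0 : 0 ≤ C := by
    have := hC 1 le_rfl
    have h2 : 0 ≤ ∑ n ∈ range (1 + 1), b n := sum_nonneg fun i _ => hb i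
    simp only [Nat.cast_one, mul_one] at this
    linarith
  set w : ℕ → ℝ := fun i => ((i : ℝ) + 1) ^ (-s) with hw
  have hw0 : ∀ n, 0 ≤ w n := fun n => Real.rpow_nonneg (by positivity) _
  have hwanti : Antitone w := by
    intro m n hmn
    have hm0 : (0 : ℝ) < (m : ℝ) + 1 := by positivity
    have : ((m : ℝ) + 1) ≤ (n : ℝ) + 1 := by
      have : (m : ℝ) ≤ n := Nat.cast_le.mpr hmn
      linarith
    exact Real.rpow_le_rpow_of_nonpos hm0 this (by linarith)
  have hB : ∀ k, ∑ i ∈ range k, b (i + 1) ≤ C * k := by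
    intro k
    rcases Nat.eq_zero_or_pos k with rfl | hk
    · simp
    · have h1 := hC k hk
      rw [sum_range_succ'] at h1
      linarith [hb 0]
  have hpart : ∀ M, ∑ i ∈ range M, b (i + 1) * w i ≤ C * (1 + 1 / (s - 1)) := by
    intro M
    have h1 := sum_mul_le_of_partial_sums_le (fun i => b (i + 1)) w C hwanti hw0 hB M
    have h2 := sum_rpow_neg_le s hs M
    calc ∑ i ∈ range M, b (i + 1) * w i ≤ C * ∑ i ∈ range M, w i := h1
      _ ≤ C * (1 + 1 / (s - 1)) := mul_le_mul_of_nonneg_left h2 hC0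
  have hnn : ∀ i, 0 ≤ b (i + 1) * w i := fun i => mul_nonneg (hb _) (hw0 i)
  have hsum1 : Summable (fun i => b (i + 1) * w i) := summable_of_sum_range_le hnn hpart
  have hle1 : ∑' i, b (i + 1) * w i ≤ C * (1 + 1 / (s - 1)) :=
    Real.tsum_le_of_sum_range_le hnn hpart
  have hshift : ∀ i : ℕ, b (i + 1) * w i = (fun n : ℕ => b n * (n : ℝ) ^ (-s)) (i + 1) := by
    intro i
    simp only [hw, Nat.cast_add, Nat.cast_one]
  have hsum : Summable (fun n : ℕ => b n * (n : ℝ) ^ (-s)) := by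
    rw [← summable_nat_add_iff 1]
    exact hsum1.congr hshift
  refine ⟨hsum, ?_⟩
  rw [hsum.tsum_eq_zero_add]
  have h0 : b 0 * ((0 : ℕ) : ℝ) ^ (-s) = 0 := by
    rw [Nat.cast_zero, Real.zero_rpow (by linarith), mul_zero]
  rw [h0, zero_add]
  calc ∑' n : ℕ, b (n + 1) * ((n + 1 : ℕ) : ℝ) ^ (-s) = ∑' i, b (i + 1) * w i :=
        tsum_congr fun i => (hshift i).symm
    _ ≤ _ := hle1

/-! ### Multiplicativity from the Hecke relations -/

/-- the Hecke relations at the primes not dividing `N`, for a sequence `a` and a "character" `ε` -/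
def HeckeRel (a : ℕ → ℂ) (N : ℕ) (ε : ℕ → ℂ) : Prop :=
  ∀ p : ℕ, p.Prime → ¬ p ∣ N → ∀ n : ℕ,
    a (p * n) + ε p * (if p ∣ n then a (n / p) else 0) = a p * a n

namespace HeckeRel

variable {a : ℕ → ℂ} {N : ℕ} {ε : ℕ → ℂ}

theorem mul_of_not_dvd (h : HeckeRel a N ε) {p : ℕ} (hp : p.Prime) (hpN : ¬ p ∣ N) {m : ℕ}
    (hm : ¬ p ∣ m) : a (p * m) = a p * a m := by
  have := h p hp hpN m
  rwa [if_neg hm, mul_zero, add_zero] at this

theorem mul_of_dvd (h : HeckeRel a N ε) {p : ℕ} (hp : p.Prime) (hpN : ¬ p ∣ N) (m : ℕ) :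
    a (p * (p * m)) = a p * a (p * m) - ε p * a m := by
  have := h p hp hpN (p * m)
  rw [if_pos (dvd_mul_right p m), Nat.mul_div_cancel_left m hp.pos] at this
  rw [← this]
  ring

theorem pow_succ_succ (h : HeckeRel a N ε) {p : ℕ} (hp : p.Prime) (hpN : ¬ p ∣ N) (e : ℕ) :
    a (p ^ (e + 2)) = a p * a (p ^ (e + 1)) - ε p * a (p ^ e) := by
  have := h.mul_of_dvd hp hpN (p ^ e)
  have e1 : p * (p * p ^ e) = p ^ (e + 2) := by ring
  have e2 : p * p ^ e = p ^ (e + 1) := by ring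
  rwa [e1, e2] at this

theorem pow_mul (h : HeckeRel a N ε) (h1 : a 1 = 1) {p : ℕ} (hp : p.Prime) (hpN : ¬ p ∣ N)
    {m : ℕ} (hm : ¬ p ∣ m) : ∀ e : ℕ, a (p ^ e * m) = a (p ^ e) * a m := by
  have key : ∀ e : ℕ, a (p ^ e * m) = a (p ^ e) * a m ∧
      a (p ^ (e + 1) * m) = a (p ^ (e + 1)) * a m := by
    intro e
    induction e with
    | zero =>
      refine ⟨by simp [h1], ?_⟩
      simpa using h.mul_of_not_dvd hp hpN hm
    | succ e ih =>
      refine ⟨ih.2, ?_⟩
      have h2 := h.mul_of_dvd hp hpN (p ^ e * m)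
      have e1 : p * (p * (p ^ e * m)) = p ^ (e + 1 + 1) * m := by ring
      have e2 : p * (p ^ e * m) = p ^ (e + 1) * m := by ring
      rw [e1, e2, ih.1, ih.2] at h2
      rw [h2, h.pow_succ_succ hp hpN e]
      ring
  exact fun e => (key e).1

theorem mul_of_coprime (h : HeckeRel a N ε) (h1 : a 1 = 1) :
    ∀ m : ℕ, Nat.Coprime m N → ∀ n : ℕ, Nat.Coprime m n → a (m * n) = a m * a n := by
  intro m
  induction m using Nat.recOnPrimeCoprime with
  | zero =>
    intro _ n hn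
    have : n = 1 := by simpa using hn
    subst this
    simp [h1]
  | prime_pow p e hp =>
    intro hN n hn
    rcases Nat.eq_zero_or_pos e with rfl | he
    · simp [h1]
    have hpN : ¬ p ∣ N := by
      intro hd
      have h2 : p ∣ Nat.gcd (p ^ e) N := Nat.dvd_gcd (dvd_pow_self p he.ne') hd
      rw [Nat.Coprime] at hN
      rw [hN] at h2
      exact hp.one_lt.ne' (Nat.dvd_one.mp h2)
    have hpn : ¬ p ∣ n := by
      intro hd
      have h2 : p ∣ Nat.gcd (p ^ e) n := Nat.dvd_gcd (dvd_pow_self p he.ne') hd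
      rw [Nat.Coprime] at hn
      rw [hn] at h2
      exact hp.one_lt.ne' (Nat.dvd_one.mp h2)
    exact h.pow_mul h1 hp hpN hpn e
  | coprime m₁ m₂ _ _ hcop ih₁ ih₂ =>
    intro hN n hn
    have hN₁ : Nat.Coprime m₁ N := Nat.Coprime.coprime_mul_right hN
    have hN₂ : Nat.Coprime m₂ N := Nat.Coprime.coprime_mul_left hN
    have hn₁ : Nat.Coprime m₁ n := Nat.Coprime.coprime_mul_right hn
    have hn₂ : Nat.Coprime m₂ n := Nat.Coprime.coprime_mul_left hn
    rw [mul_assoc, ih₁ hN₁ (m₂ * n) (Nat.Coprime.mul_right hcop hn₁), ih₂ hN₂ n hn₂,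
      ih₁ hN₁ m₂ hcop]
    ring

end HeckeRel

/-! ### The local Rankin factor -/

theorem mul_conj_eq_one_of_norm_eq_one {e : ℂ} (he : ‖e‖ = 1) : e * conj e = 1 := by
  rw [Complex.mul_conj, Complex.normSq_eq_norm_sq, he]
  simp

/-- the coefficient of `T²` in the quartic denominator of the local Rankin factor, minus `2` -/
noncomputable def rankinMid (x e : ℂ) : ℝ := 2 * (conj e * x ^ 2).re - 2

theorem rankinMid_cast (x e : ℂ) :
    ((rankinMid x e : ℝ) : ℂ) = conj e * x ^ 2 + e * conj x ^ 2 - 2 := by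
  have h := Complex.add_conj (conj e * x ^ 2)
  simp only [map_mul, map_pow, Complex.conj_conj] at h
  rw [rankinMid]
  push_cast at h ⊢
  rw [← h]

/-- order four recurrence of `‖u n‖²` for a sequence `u (n+2) = x u (n+1) - e u n`, `‖e‖ = 1` -/
theorem normSq_rec {x e : ℂ} {u : ℕ → ℂ} (he : ‖e‖ = 1) (hrec : ∀ n, u (n + 2) = x * u (n + 1) - e * u n) (n : ℕ) :
    Complex.normSq (u (n + 4)) - Complex.normSq x * Complex.normSq (u (n + 3)) +
      rankinMid x e * Complex.normSq (u (n + 2)) - Complex.normSq x * Complex.normSq (u (n + 1)) +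
      Complex.normSq (u n) = 0 := by
  apply Complex.ofReal_injective
  have he' := mul_conj_eq_one_of_norm_eq_one he
  have h2 := hrec n
  have h3 : u (n + 3) = x * u (n + 2) - e * u (n + 1) := hrec (n + 1)
  have h4 : u (n + 4) = x * u (n + 3) - e * u (n + 2) := hrec (n + 2)
  push_cast
  rw [rankinMid_cast]
  simp only [Complex.normSq_eq_conj_mul_self]
  rw [h4, h3, h2]
  simp only [map_sub, map_mul]
  linear_combination (3 * u (n + 1) * x * conj (u (n + 1)) * conj x
    - 2 * u (n + 1) * x * conj (u n) * conj e - u n * conj (u n)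
    - 2 * u n * e * conj (u (n + 1)) * conj x + u n * e * conj (u n) * conj e) * he'

theorem normSq_init {x e : ℂ} {u : ℕ → ℂ} (he : ‖e‖ = 1) (h0 : u 0 = 1) (h1 : u 1 = x)
    (hrec : ∀ n, u (n + 2) = x * u (n + 1) - e * u n) :
    Complex.normSq (u 0) = 1 ∧ Complex.normSq (u 1) - Complex.normSq x * Complex.normSq (u 0) = 0 ∧
    Complex.normSq (u 2) - Complex.normSq x * Complex.normSq (u 1)
      + rankinMid x e * Complex.normSq (u 0) = -1 ∧
    Complex.normSq (u 3) - Complex.normSq x * Complex.normSq (u 2)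
      + rankinMid x e * Complex.normSq (u 1) - Complex.normSq x * Complex.normSq (u 0) = 0 := by
  have he' := mul_conj_eq_one_of_norm_eq_one he
  have h2 : u 2 = x * x - e := by rw [hrec 0, h1, h0]; ring
  have h3 : u 3 = x * (x * x - e) - e * x := by rw [hrec 1, h2, h1]
  refine ⟨by rw [h0]; simp, by rw [h0, h1]; simp, ?_, ?_⟩
  · apply Complex.ofReal_injective
    push_cast
    rw [rankinMid_cast]
    simp only [Complex.normSq_eq_conj_mul_self]
    rw [h2, h1, h0]
    simp only [map_sub, map_mul, map_one]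
    linear_combination he'
  · apply Complex.ofReal_injective
    push_cast
    rw [rankinMid_cast]
    simp only [Complex.normSq_eq_conj_mul_self]
    rw [h3, h2, h1, h0]
    simp only [map_sub, map_mul, map_one]
    linear_combination (3 * x * conj x) * he'

/-- generating function of a sequence with a palindromic order four recurrence -/
theorem tsum_mul_quartic (w : ℕ → ℝ) (A c T : ℝ)
    (hrec : ∀ n, w (n + 4) - A * w (n + 3) + c * w (n + 2) - A * w (n + 1) + w n = 0)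
    (h0 : w 0 = 1) (h1 : w 1 - A * w 0 = 0) (h2 : w 2 - A * w 1 + c * w 0 = -1)
    (h3 : w 3 - A * w 2 + c * w 1 - A * w 0 = 0)
    (hs : Summable fun n => w n * T ^ n) :
    (∑' n, w n * T ^ n) * (1 - A * T + c * T ^ 2 - A * T ^ 3 + T ^ 4) = 1 - T ^ 2 := by
  set g : ℕ → ℝ := fun n => w n * T ^ n with hg
  have hs1 : Summable fun n => g (n + 1) := (summable_nat_add_iff 1).mpr hs
  have hs2 : Summable fun n => g (n + 2) := (summable_nat_add_iff 2).mpr hs
  have hs3 : Summable fun n => g (n + 3) := (summable_nat_add_iff 3).mpr hs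
  have hs4 : Summable fun n => g (n + 4) := (summable_nat_add_iff 4).mpr hs
  have e1 := hs.sum_add_tsum_nat_add 1
  have e2 := hs.sum_add_tsum_nat_add 2
  have e3 := hs.sum_add_tsum_nat_add 3
  have e4 := hs.sum_add_tsum_nat_add 4
  simp only [sum_range_succ, range_zero, sum_empty, zero_add] at e1 e2 e3 e4
  have hrecT : ∀ n, g (n + 4) =
      A * T * g (n + 3) - c * T ^ 2 * g (n + 2) + A * T ^ 3 * g (n + 1) - T ^ 4 * g n := by
    intro n
    simp only [hg]
    have := hrec n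
    have hw : w (n + 4) = A * w (n + 3) - c * w (n + 2) + A * w (n + 1) - w n := by linarith
    rw [hw]
    ring
  have e5 : ∑' n, g (n + 4) = A * T * ∑' n, g (n + 3) - c * T ^ 2 * ∑' n, g (n + 2)
      + A * T ^ 3 * ∑' n, g (n + 1) - T ^ 4 * ∑' n, g n := by
    have := (((hs3.hasSum.mul_left (A * T)).sub (hs2.hasSum.mul_left (c * T ^ 2))).add
      (hs1.hasSum.mul_left (A * T ^ 3))).sub (hs.hasSum.mul_left (T ^ 4))
    rw [← this.tsum_eq]
    exact tsum_congr hrecT
  have g0 : g 0 = w 0 := by simp [hg]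
  have g1 : g 1 = w 1 * T := by simp [hg]
  have g2 : g 2 = w 2 * T ^ 2 := rfl
  have g3 : g 3 = w 3 * T ^ 3 := rfl
  rw [g0] at e1 e2 e3 e4
  rw [g1] at e2 e3 e4
  rw [g2] at e3 e4
  rw [g3] at e4
  have hS : ∑' n, w n * T ^ n = ∑' n, g n := rfl
  rw [hS]
  set S := ∑' n, g n
  set S1 := ∑' n, g (n + 1)
  set S2 := ∑' n, g (n + 2)
  set S3 := ∑' n, g (n + 3)
  set S4 := ∑' n, g (n + 4)
  have k1 : S1 = S - w 0 := by linarith
  have k2 : S2 = S - w 0 - w 1 * T := by linarith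
  have k3 : S3 = S - w 0 - w 1 * T - w 2 * T ^ 2 := by linarith
  have k4 : S4 = S - w 0 - w 1 * T - w 2 * T ^ 2 - w 3 * T ^ 3 := by linarith
  rw [k1, k2, k3, k4] at e5
  have w1 : w 1 = A := by rw [h0] at h1; linarith
  have w2 : w 2 = A * A - c - 1 := by rw [h0, w1] at h2; linarith
  have w3 : w 3 = A * (A * A - c - 1) - c * A + A := by rw [h0, w1, w2] at h3; linarith
  rw [h0, w1, w2, w3] at e5
  linear_combination e5

theorem one_sub_le_exp_neg_sub_sq {T : ℝ} (hT0 : 0 ≤ T) (hT1 : T < 1) :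
    1 - T ≤ Real.exp (-T - T ^ 2 / 2) := by
  have h := Real.hasSum_pow_div_log_of_abs_lt_one (x := T) (by rw [abs_lt]; constructor <;> linarith)
  have h2 : ∑ i ∈ range 2, T ^ (i + 1) / ((i : ℝ) + 1) ≤ -Real.log (1 - T) :=
    sum_le_hasSum _ (fun i _ => by positivity) h
  simp only [sum_range_succ, range_zero, sum_empty, zero_add, Nat.cast_zero, Nat.cast_one,
    pow_one, div_one] at h2
  have h3 : Real.log (1 - T) ≤ -T - T ^ 2 / 2 := by
    have : (1 : ℝ) + 1 = 2 := by norm_num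
    rw [this] at h2
    linarith
  calc 1 - T = Real.exp (Real.log (1 - T)) := (Real.exp_log (by linarith)).symm
    _ ≤ _ := Real.exp_le_exp.mpr h3

/-- the quadratic `1 - P T + T²` with `P ≥ 2` is below `exp (-P T - T²)` on `[0, 1)` -/
theorem quad_le_exp {P T : ℝ} (hP : 2 ≤ P) (hT0 : 0 ≤ T) (hT1 : T < 1) :
    1 - P * T + T ^ 2 ≤ Real.exp (-P * T - T ^ 2) := by
  have h1 := one_sub_le_exp_neg_sub_sq hT0 hT1
  have hE : (1 - T) ^ 2 ≤ Real.exp (-2 * T - T ^ 2) := by
    have h2 : Real.exp (-2 * T - T ^ 2) = Real.exp (-T - T ^ 2 / 2) ^ 2 := by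
      rw [← Real.exp_nat_mul]
      congr 1
      push_cast
      ring
    rw [h2]
    exact pow_le_pow_left₀ (by linarith) h1 2
  have hE1 : Real.exp (-2 * T - T ^ 2) ≤ 1 := by
    rw [Real.exp_le_one_iff]
    nlinarith
  have hE0 : 0 < Real.exp (-2 * T - T ^ 2) := Real.exp_pos _
  have h3 : Real.exp (-P * T - T ^ 2) =
      Real.exp (-2 * T - T ^ 2) * Real.exp (-(P - 2) * T) := by
    rw [← Real.exp_add]
    congr 1
    ring
  have h4 : -(P - 2) * T + 1 ≤ Real.exp (-(P - 2) * T) := Real.add_one_le_exp _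
  have h5 : 0 ≤ (P - 2) * T := mul_nonneg (by linarith) hT0
  rw [h3]
  have h6 : Real.exp (-2 * T - T ^ 2) * (-(P - 2) * T + 1) ≤
      Real.exp (-2 * T - T ^ 2) * Real.exp (-(P - 2) * T) :=
    mul_le_mul_of_nonneg_left h4 hE0.le
  nlinarith

/-- positivity of the local Rankin factor, abstract form -/
theorem local_ineq_aux {P Q T S : ℝ} (hP : 2 ≤ P) (hQ : Q ≤ 2) (hT0 : 0 ≤ T) (hT1 : T < 1)
    (hS : 0 < S) (hid : S * ((1 - P * T + T ^ 2) * (1 - Q * T + T ^ 2)) = 1 - T ^ 2) :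
    (1 - T ^ 2) * Real.exp ((P + Q) * T) ≤ S := by
  have hqQ : 0 < 1 - Q * T + T ^ 2 := by nlinarith
  have hT2 : 0 < 1 - T ^ 2 := by nlinarith
  have hqP : 0 < 1 - P * T + T ^ 2 := by
    by_contra hneg
    rw [not_lt] at hneg
    have : S * ((1 - P * T + T ^ 2) * (1 - Q * T + T ^ 2)) ≤ 0 :=
      mul_nonpos_of_nonneg_of_nonpos hS.le (mul_nonpos_of_nonpos_of_nonneg hneg hqQ.le)
    linarith
  have h1 := quad_le_exp hP hT0 hT1
  have h2 : 1 - Q * T + T ^ 2 ≤ Real.exp (-Q * T + T ^ 2) := by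
    have := Real.add_one_le_exp (-Q * T + T ^ 2)
    linarith
  have h3 : (1 - P * T + T ^ 2) * (1 - Q * T + T ^ 2) ≤
      Real.exp (-P * T - T ^ 2) * Real.exp (-Q * T + T ^ 2) :=
    mul_le_mul h1 h2 hqQ.le (Real.exp_pos _).le
  have h4 : Real.exp (-P * T - T ^ 2) * Real.exp (-Q * T + T ^ 2) * Real.exp ((P + Q) * T) = 1 := by
    rw [← Real.exp_add, ← Real.exp_add]
    have : -P * T - T ^ 2 + (-Q * T + T ^ 2) + (P + Q) * T = 0 := by ring
    rw [this, Real.exp_zero]
  have hpos : 0 < (1 - P * T + T ^ 2) * (1 - Q * T + T ^ 2) := mul_pos hqP hqQ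
  have h5 : (1 - T ^ 2) * Real.exp ((P + Q) * T) * ((1 - P * T + T ^ 2) * (1 - Q * T + T ^ 2))
      ≤ S * ((1 - P * T + T ^ 2) * (1 - Q * T + T ^ 2)) := by
    rw [hid]
    have h6 : (1 - P * T + T ^ 2) * (1 - Q * T + T ^ 2) * Real.exp ((P + Q) * T) ≤ 1 :=
      le_of_le_of_eq (mul_le_mul_of_nonneg_right h3 (Real.exp_pos ((P + Q) * T)).le) h4
    calc (1 - T ^ 2) * Real.exp ((P + Q) * T) * ((1 - P * T + T ^ 2) * (1 - Q * T + T ^ 2))
        = (1 - T ^ 2) * ((1 - P * T + T ^ 2) * (1 - Q * T + T ^ 2) * Real.exp ((P + Q) * T)) := by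
          ring
      _ ≤ (1 - T ^ 2) * 1 := mul_le_mul_of_nonneg_left h6 hT2.le
      _ = 1 - T ^ 2 := mul_one _
  exact le_of_mul_le_mul_right h5 hpos

/-- the discriminant identity behind the factorisation of the quartic -/
theorem normSq_sq_sub_norm_sq (x e : ℂ) (he : ‖e‖ = 1) :
    Complex.normSq x ^ 2 - ‖x ^ 2 - 4 * e‖ ^ 2 = 4 * (rankinMid x e - 2) := by
  apply Complex.ofReal_injective
  have he' := mul_conj_eq_one_of_norm_eq_one he
  rw [Complex.sq_norm]
  push_cast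
  rw [rankinMid_cast]
  simp only [Complex.normSq_eq_conj_mul_self]
  simp only [map_sub, map_mul, map_pow, map_ofNat]
  linear_combination (-16 : ℂ) * he'

/-- **Positivity of the local Rankin factor.**  If `u 0 = 1`, `u 1 = x`,
`u (n+2) = x u (n+1) - e u n` with `‖e‖ = 1`, and `∑ ‖u n‖² Tⁿ` converges (`0 ≤ T < 1`), then
`(1 - T²) exp (‖x‖² T) ≤ ∑ ‖u n‖² Tⁿ`. -/
theorem local_factor_ge {x e : ℂ} {u : ℕ → ℂ} (he : ‖e‖ = 1) (h0 : u 0 = 1) (h1 : u 1 = x)
    (hrec : ∀ n, u (n + 2) = x * u (n + 1) - e * u n) {T : ℝ} (hT0 : 0 ≤ T) (hT1 : T < 1)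
    (hs : Summable fun n => Complex.normSq (u n) * T ^ n) :
    (1 - T ^ 2) * Real.exp (Complex.normSq x * T) ≤ ∑' n, Complex.normSq (u n) * T ^ n := by
  set A := Complex.normSq x with hA
  set c := rankinMid x e with hc
  set d := ‖x ^ 2 - 4 * e‖ with hd
  obtain ⟨i0, i1, i2, i3⟩ := normSq_init he h0 h1 hrec
  have hq := tsum_mul_quartic (fun n => Complex.normSq (u n)) A c T (normSq_rec he hrec)
    i0 i1 i2 i3 hs
  have hdisc : A ^ 2 - d ^ 2 = 4 * (c - 2) := normSq_sq_sub_norm_sq x e he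
  have hAn : A = ‖x ^ 2‖ := by
    rw [hA, Complex.normSq_eq_norm_sq, norm_pow]
  have h4 : ‖(4 : ℂ) * e‖ = 4 := by
    rw [norm_mul, he]
    simp
  have hP : 2 ≤ (A + d) / 2 := by
    have := norm_sub_le (x ^ 2) (x ^ 2 - 4 * e)
    rw [sub_sub_cancel, h4] at this
    rw [hAn]
    linarith
  have hQ : (A - d) / 2 ≤ 2 := by
    have := norm_sub_norm_le (x ^ 2) (x ^ 2 - 4 * e)
    rw [sub_sub_cancel, h4] at this
    rw [hAn]
    linarith
  have hS : 0 < ∑' n, Complex.normSq (u n) * T ^ n := by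
    have h5 : Complex.normSq (u 0) * T ^ 0 ≤ ∑' n, Complex.normSq (u n) * T ^ n :=
      hs.le_tsum 0 fun j _ => mul_nonneg (Complex.normSq_nonneg _) (pow_nonneg hT0 _)
    rw [i0] at h5
    simp only [pow_zero, mul_one] at h5
    linarith
  have hid : (∑' n, Complex.normSq (u n) * T ^ n) *
      ((1 - (A + d) / 2 * T + T ^ 2) * (1 - (A - d) / 2 * T + T ^ 2)) = 1 - T ^ 2 := by
    rw [← hq]
    congr 1
    linear_combination (T ^ 2 / 4) * hdisc
  have := local_ineq_aux hP hQ hT0 hT1 hS hid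
  have e1 : (A + d) / 2 + (A - d) / 2 = A := by ring
  rwa [e1] at this

/-! ### The Euler product -/

/-- the coefficients of the Rankin Dirichlet series, restricted to `n` prime to `N` -/
noncomputable def rankinTerm (a : ℕ → ℂ) (N : ℕ) (s : ℝ) (n : ℕ) : ℝ :=
  if Nat.Coprime n N then Complex.normSq (a n) * (n : ℝ) ^ (-s) else 0

section Global

variable {a : ℕ → ℂ} {N : ℕ} {ε : ℕ → ℂ}

theorem rankinTerm_nonneg (a : ℕ → ℂ) (N : ℕ) (s : ℝ) (n : ℕ) : 0 ≤ rankinTerm a N s n := by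
  unfold rankinTerm
  split_ifs
  · exact mul_nonneg (Complex.normSq_nonneg _) (Real.rpow_nonneg (Nat.cast_nonneg n) _)
  · exact le_rfl

theorem rankinTerm_le (a : ℕ → ℂ) (N : ℕ) (s : ℝ) (n : ℕ) :
    rankinTerm a N s n ≤ Complex.normSq (a n) * (n : ℝ) ^ (-s) := by
  unfold rankinTerm
  split_ifs
  · exact le_rfl
  · exact mul_nonneg (Complex.normSq_nonneg _) (Real.rpow_nonneg (Nat.cast_nonneg n) _)

theorem rankinTerm_one (h1 : a 1 = 1) (s : ℝ) : rankinTerm a N s 1 = 1 := by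
  unfold rankinTerm
  rw [if_pos (Nat.coprime_one_left N), h1]
  simp

theorem rankinTerm_mul (h : HeckeRel a N ε) (h1 : a 1 = 1) (s : ℝ) {m n : ℕ}
    (hmn : Nat.Coprime m n) :
    rankinTerm a N s (m * n) = rankinTerm a N s m * rankinTerm a N s n := by
  unfold rankinTerm
  by_cases hm : Nat.Coprime m N
  · by_cases hn : Nat.Coprime n N
    · rw [if_pos hm, if_pos hn, if_pos (Nat.Coprime.mul_left hm hn), h.mul_of_coprime h1 m hm n hmn,
        map_mul, Nat.cast_mul, Real.mul_rpow (Nat.cast_nonneg m) (Nat.cast_nonneg n)]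
      ring
    · rw [if_neg hn, mul_zero, if_neg]
      exact fun hc => hn (Nat.Coprime.coprime_mul_left hc)
  · rw [if_neg hm, zero_mul, if_neg]
    exact fun hc => hm (Nat.Coprime.coprime_mul_right hc)

theorem rankinTerm_summable (C : ℝ)
    (hC : ∀ X : ℕ, 1 ≤ X → ∑ n ∈ range (X + 1), Complex.normSq (a n) ≤ C * X) {s : ℝ}
    (hs : 1 < s) :
    Summable (rankinTerm a N s) ∧ ∑' n, rankinTerm a N s n ≤ C * (1 + 1 / (s - 1)) := by
  obtain ⟨h1, h2⟩ := dirichlet_sum_le (fun n => Complex.normSq (a n))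
    (fun n => Complex.normSq_nonneg _) C hC s hs
  have h3 : Summable (rankinTerm a N s) :=
    Summable.of_nonneg_of_le (rankinTerm_nonneg a N s) (rankinTerm_le a N s) h1
  exact ⟨h3, (h3.tsum_le_tsum (rankinTerm_le a N s) h1).trans h2⟩

theorem rankinTerm_prime_pow {p : ℕ} (hp : p.Prime) (hpN : ¬ p ∣ N) (s : ℝ) (e : ℕ) :
    rankinTerm a N s (p ^ e) = Complex.normSq (a (p ^ e)) * ((p : ℝ) ^ (-s)) ^ e := by
  unfold rankinTerm
  rw [if_pos (Nat.Coprime.pow_left e ((Nat.Prime.coprime_iff_not_dvd hp).mpr hpN))]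
  congr 1
  rw [Nat.cast_pow, ← Real.rpow_natCast, ← Real.rpow_natCast, ← Real.rpow_mul (Nat.cast_nonneg p),
    ← Real.rpow_mul (Nat.cast_nonneg p), mul_comm]

theorem prime_rpow_neg_lt_one {p : ℕ} (hp : p.Prime) {s : ℝ} (hs : 1 < s) :
    0 ≤ (p : ℝ) ^ (-s) ∧ (p : ℝ) ^ (-s) < 1 ∧ ((p : ℝ) ^ (-s)) ^ 2 ≤ 1 / (p : ℝ) ^ 2 := by
  have hp1 : (1 : ℝ) < p := by exact_mod_cast hp.one_lt
  have h0 : 0 ≤ (p : ℝ) ^ (-s) := Real.rpow_nonneg (by linarith) _
  have h1 : (p : ℝ) ^ (-s) < 1 := Real.rpow_lt_one_of_one_lt_of_neg hp1 (by linarith)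
  have h2 : (p : ℝ) ^ (-s) ≤ (p : ℝ) ^ (-1 : ℝ) :=
    Real.rpow_le_rpow_of_exponent_le hp1.le (by linarith)
  refine ⟨h0, h1, ?_⟩
  rw [Real.rpow_neg_one] at h2
  calc ((p : ℝ) ^ (-s)) ^ 2 ≤ ((p : ℝ)⁻¹) ^ 2 := pow_le_pow_left₀ h0 h2 2
    _ = 1 / (p : ℝ) ^ 2 := by rw [inv_pow, one_div]

/-- the finite Euler product of the local lower bounds is bounded by the Rankin Dirichlet series -/
theorem prod_local_le (h : HeckeRel a N ε) (h1 : a 1 = 1)
    (hε : ∀ p : ℕ, p.Prime → ¬ p ∣ N → ‖ε p‖ = 1) (C : ℝ)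
    (hC : ∀ X : ℕ, 1 ≤ X → ∑ n ∈ range (X + 1), Complex.normSq (a n) ≤ C * X) {s : ℝ}
    (hs : 1 < s) (P : Finset ℕ) (hP : ∀ p ∈ P, p.Prime ∧ ¬ p ∣ N) :
    ∏ p ∈ P, ((1 - ((p : ℝ) ^ (-s)) ^ 2) * Real.exp (Complex.normSq (a p) * (p : ℝ) ^ (-s))) ≤
      C * (1 + 1 / (s - 1)) := by
  obtain ⟨hsum, hle⟩ := rankinTerm_summable (N := N) C hC hs
  have hsumn : Summable fun n => ‖rankinTerm a N s n‖ := by
    refine hsum.congr fun n => ?_
    rw [Real.norm_of_nonneg (rankinTerm_nonneg a N s n)]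
  have hE := EulerProduct.prod_filter_prime_tsum_eq_tsum_factoredNumbers
    (f := rankinTerm a N s) (rankinTerm_one h1 s) (fun hmn => rankinTerm_mul h h1 s hmn) hsumn P
  rw [Finset.filter_true_of_mem fun p hp => (hP p hp).1] at hE
  have hloc : ∀ p ∈ P, (1 - ((p : ℝ) ^ (-s)) ^ 2) *
      Real.exp (Complex.normSq (a p) * (p : ℝ) ^ (-s)) ≤ ∑' e : ℕ, rankinTerm a N s (p ^ e) := by
    intro p hp
    obtain ⟨hpp, hpN⟩ := hP p hp
    obtain ⟨t0, t1, -⟩ := prime_rpow_neg_lt_one hpp hs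
    have hs' : Summable fun e : ℕ => rankinTerm a N s (p ^ e) :=
      hsum.comp_injective (Nat.pow_right_injective hpp.two_le)
    simp only [rankinTerm_prime_pow hpp hpN] at hs' ⊢
    exact local_factor_ge (u := fun e => a (p ^ e)) (hε p hpp hpN) (by simpa using h1)
      (by simp) (fun n => h.pow_succ_succ hpp hpN n) t0 t1 hs'
  calc ∏ p ∈ P, ((1 - ((p : ℝ) ^ (-s)) ^ 2) * Real.exp (Complex.normSq (a p) * (p : ℝ) ^ (-s)))
      ≤ ∏ p ∈ P, ∑' e : ℕ, rankinTerm a N s (p ^ e) := by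
        refine Finset.prod_le_prod (fun p hp => ?_) hloc
        obtain ⟨t0, t1, -⟩ := prime_rpow_neg_lt_one (hP p hp).1 hs
        exact mul_nonneg (by nlinarith) (Real.exp_pos _).le
    _ = ∑' m : Nat.factoredNumbers P, rankinTerm a N s m := hE
    _ ≤ ∑' n, rankinTerm a N s n :=
        Summable.tsum_subtype_le _ _ (rankinTerm_nonneg a N s) hsum
    _ ≤ _ := hle

theorem exp_neg_two_mul_le {x : ℝ} (hx0 : 0 ≤ x) (hx1 : x ≤ 1 / 2) :
    Real.exp (-2 * x) ≤ 1 - x := by
  have h1 : 2 * x + 1 ≤ Real.exp (2 * x) := Real.add_one_le_exp _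
  have h2 : Real.exp (-2 * x) * Real.exp (2 * x) = 1 := by
    rw [← Real.exp_add]
    simp
  have h3 : 0 < Real.exp (-2 * x) := Real.exp_pos _
  have h4 : Real.exp (-2 * x) * (2 * x + 1) ≤ 1 :=
    le_of_le_of_eq (mul_le_mul_of_nonneg_left h1 h3.le) h2
  -- (1 - x) (1 + 2x) ≥ 1
  have h5 : 1 ≤ (1 - x) * (2 * x + 1) := by nlinarith
  have h6 : Real.exp (-2 * x) * (2 * x + 1) ≤ (1 - x) * (2 * x + 1) := h4.trans h5
  exact le_of_mul_le_mul_right h6 (by linarith)

/-- **R3.** The prime sum bound `∑_{p ∈ P} ‖a p‖² p^{-s} ≤ log (1 / (s - 1)) + C'`. -/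
theorem prime_sum_le (h : HeckeRel a N ε) (h1 : a 1 = 1)
    (hε : ∀ p : ℕ, p.Prime → ¬ p ∣ N → ‖ε p‖ = 1) (C : ℝ)
    (hC : ∀ X : ℕ, 1 ≤ X → ∑ n ∈ range (X + 1), ‖a n‖ ^ 2 ≤ C * X) :
    ∃ C' : ℝ, ∀ s : ℝ, 1 < s → s ≤ 2 → ∀ P : Finset ℕ, (∀ p ∈ P, p.Prime ∧ ¬ p ∣ N) →
      ∑ p ∈ P, ‖a p‖ ^ 2 * (p : ℝ) ^ (-s) ≤ Real.log (1 / (s - 1)) + C' := by
  have hC' : ∀ X : ℕ, 1 ≤ X → ∑ n ∈ range (X + 1), Complex.normSq (a n) ≤ C * X := by
    intro X hX
    simpa only [Complex.normSq_eq_norm_sq] using hC X hX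
  have hCpos : 1 ≤ C := by
    have := hC 1 le_rfl
    rw [sum_range_succ, sum_range_succ, range_zero, sum_empty, h1] at this
    simp only [norm_one, one_pow, Nat.cast_one, mul_one, zero_add] at this
    have h0 : 0 ≤ ‖a 0‖ ^ 2 := by positivity
    linarith
  have hZs : Summable fun n : ℕ => 1 / (n : ℝ) ^ 2 := Real.summable_one_div_nat_pow.mpr one_lt_two
  set Z : ℝ := ∑' n : ℕ, 1 / (n : ℝ) ^ 2 with hZ
  refine ⟨Real.log (2 * C) + 2 * Z, fun s hs hs2 P hP => ?_⟩
  have hmain := prod_local_le h h1 hε C hC' hs P hP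
  rw [Finset.prod_mul_distrib, ← Real.exp_sum] at hmain
  -- lower bound for the product of the `1 - T²`
  have hZP : ∑ p ∈ P, ((p : ℝ) ^ (-s)) ^ 2 ≤ Z := by
    calc ∑ p ∈ P, ((p : ℝ) ^ (-s)) ^ 2 ≤ ∑ p ∈ P, 1 / (p : ℝ) ^ 2 :=
          Finset.sum_le_sum fun p hp => (prime_rpow_neg_lt_one (hP p hp).1 hs).2.2
      _ ≤ Z := hZs.sum_le_tsum P fun n _ => by positivity
  have hprod : Real.exp (-2 * Z) ≤ ∏ p ∈ P, (1 - ((p : ℝ) ^ (-s)) ^ 2) := by
    calc Real.exp (-2 * Z) ≤ Real.exp (∑ p ∈ P, -2 * ((p : ℝ) ^ (-s)) ^ 2) := by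
          apply Real.exp_le_exp.mpr
          rw [← Finset.mul_sum]
          linarith
      _ = ∏ p ∈ P, Real.exp (-2 * ((p : ℝ) ^ (-s)) ^ 2) := Real.exp_sum _ _
      _ ≤ ∏ p ∈ P, (1 - ((p : ℝ) ^ (-s)) ^ 2) := by
          refine Finset.prod_le_prod (fun p _ => (Real.exp_pos _).le) fun p hp => ?_
          obtain ⟨t0, t1, t2⟩ := prime_rpow_neg_lt_one (hP p hp).1 hs
          apply exp_neg_two_mul_le (by positivity)
          have hp2 : (2 : ℝ) ≤ p := by exact_mod_cast (hP p hp).1.two_le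
          have : 1 / (p : ℝ) ^ 2 ≤ 1 / 2 := by
            apply one_div_le_one_div_of_le (by norm_num)
            nlinarith
          linarith
  set SP := ∑ p ∈ P, Complex.normSq (a p) * (p : ℝ) ^ (-s) with hSP
  have hs1 : 0 < s - 1 := by linarith
  have h2 : Real.exp (-2 * Z) * Real.exp SP ≤ C * (1 + 1 / (s - 1)) :=
    (mul_le_mul_of_nonneg_right hprod (Real.exp_pos _).le).trans hmain
  have h3 : C * (1 + 1 / (s - 1)) ≤ 2 * C * (1 / (s - 1)) := by
    have : 1 + 1 / (s - 1) ≤ 2 * (1 / (s - 1)) := by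
      have : 1 ≤ 1 / (s - 1) := by
        rw [le_div_iff₀ hs1]
        linarith
      linarith
    nlinarith
  have h4 : Real.exp (-2 * Z + SP) ≤ 2 * C * (1 / (s - 1)) := by
    rw [Real.exp_add]
    exact h2.trans h3
  have h5 : -2 * Z + SP ≤ Real.log (2 * C * (1 / (s - 1))) := by
    rw [Real.le_log_iff_exp_le (by positivity)]
    exact h4
  rw [Real.log_mul (by positivity) (by positivity)] at h5
  have h6 : ∑ p ∈ P, ‖a p‖ ^ 2 * (p : ℝ) ^ (-s) = SP := by
    rw [hSP]
    exact Finset.sum_congr rfl fun p _ => by rw [Complex.normSq_eq_norm_sq]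
  rw [h6]
  linarith

end Global

end Fermat.Agent.S48


end ZBZ4S48_006_0

/-! ### bundled: `Fermat.Agent.S48.PrimeSum` -/
section ZBZ4S48_006_1

/-!
# S48, piece R3 instantiated: the prime sum bound for the form of the statement

For `f : CuspForm (Gamma1 N) 1` with `a_1 = 1` and the Hecke relations of S48 at the primes
`p ∤ N` (character `ε`):
`∑_{p ∈ P} ‖a_p‖² p^{-s} ≤ log (1 / (s - 1)) + C'` for `1 < s ≤ 2`, uniformly in the finite set `P`
of primes not dividing `N` (`qCoeff_prime_sum_le`).  Also: multiplicativity of the coefficients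
prime to `N` (`qCoeff_mul_of_coprime`) and the recurrence at prime powers.
-/

set_option autoImplicit false

open CongruenceSubgroup
open scoped MatrixGroups

namespace Fermat.Agent.S48

theorem T_mem_Gamma1 (N : ℕ) : ModularGroup.T ∈ Gamma1 N := by
  rw [Gamma1_mem]
  simp [ModularGroup.T]

theorem one_mem_strictPeriods_Gamma1 (N : ℕ) :
    (1 : ℝ) ∈ ((Gamma1 N : Subgroup SL(2, ℤ)) : Subgroup (GL (Fin 2) ℝ)).strictPeriods := by
  rw [Subgroup.strictPeriods_eq_zmultiples_one_of_T_mem (T_mem_Gamma1 N)]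
  exact AddSubgroup.mem_zmultiples 1

section Statement

variable (N : ℕ) [NeZero N] (ε : DirichletCharacter ℂ N) (f : CuspForm (Gamma1 N) 1)

/-- the hypothesis `hT` of S48 is `HeckeRel` for the `q`-coefficients -/
theorem heckeRel_of_hT
    (hT : ∀ p : ℕ, p.Prime → ¬ p ∣ N → ∀ n : ℕ,
        ModularFormClass.qCoeff f (p * n) +
            ε (p : ZMod N) * (if p ∣ n then ModularFormClass.qCoeff f (n / p) else 0) =
          ModularFormClass.qCoeff f p * ModularFormClass.qCoeff f n) :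
    HeckeRel (fun n => ModularFormClass.qCoeff f n) N (fun p => ε (p : ZMod N)) :=
  fun p hp hpN n => hT p hp hpN n

theorem norm_char_prime (p : ℕ) (hp : p.Prime) (hpN : ¬ p ∣ N) : ‖ε (p : ZMod N)‖ = 1 := by
  have hcop : Nat.Coprime p N := (Nat.Prime.coprime_iff_not_dvd hp).mpr hpN
  have hu : IsUnit ((p : ℕ) : ZMod N) := (ZMod.isUnit_iff_coprime p N).mpr hcop
  obtain ⟨u, hu'⟩ := hu
  rw [← hu']
  exact DirichletCharacter.unit_norm_eq_one ε u

/-- mean square bound for the `q`-coefficients (piece R1) -/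
theorem qCoeff_sum_sq_le :
    ∃ C : ℝ, 0 ≤ C ∧ ∀ X : ℕ, 1 ≤ X →
      ∑ n ∈ Finset.range (X + 1), ‖ModularFormClass.qCoeff f n‖ ^ 2 ≤ C * (X : ℝ) :=
  cuspForm_weight_one_sum_sq_coeff_le f (one_mem_strictPeriods_Gamma1 N)

/-- **R3 for S48.** -/
theorem qCoeff_prime_sum_le
    (hf₁ : ModularFormClass.qCoeff f 1 = 1)
    (hT : ∀ p : ℕ, p.Prime → ¬ p ∣ N → ∀ n : ℕ,
        ModularFormClass.qCoeff f (p * n) +
            ε (p : ZMod N) * (if p ∣ n then ModularFormClass.qCoeff f (n / p) else 0) =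
          ModularFormClass.qCoeff f p * ModularFormClass.qCoeff f n) :
    ∃ C' : ℝ, ∀ s : ℝ, 1 < s → s ≤ 2 → ∀ P : Finset ℕ, (∀ p ∈ P, p.Prime ∧ ¬ p ∣ N) →
      ∑ p ∈ P, ‖ModularFormClass.qCoeff f p‖ ^ 2 * (p : ℝ) ^ (-s) ≤
        Real.log (1 / (s - 1)) + C' := by
  obtain ⟨C, -, hC⟩ := qCoeff_sum_sq_le N f
  exact prime_sum_le (heckeRel_of_hT N ε f hT) hf₁ (norm_char_prime N ε) C hC

/-- multiplicativity of the coefficients prime to the level -/
theorem qCoeff_mul_of_coprime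
    (hf₁ : ModularFormClass.qCoeff f 1 = 1)
    (hT : ∀ p : ℕ, p.Prime → ¬ p ∣ N → ∀ n : ℕ,
        ModularFormClass.qCoeff f (p * n) +
            ε (p : ZMod N) * (if p ∣ n then ModularFormClass.qCoeff f (n / p) else 0) =
          ModularFormClass.qCoeff f p * ModularFormClass.qCoeff f n)
    (m : ℕ) (hm : Nat.Coprime m N) (n : ℕ) (hmn : Nat.Coprime m n) :
    ModularFormClass.qCoeff f (m * n) =
      ModularFormClass.qCoeff f m * ModularFormClass.qCoeff f n :=
  (heckeRel_of_hT N ε f hT).mul_of_coprime hf₁ m hm n hmn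

end Statement

end Fermat.Agent.S48


end ZBZ4S48_006_1

/-! ### bundled: `Fermat.Agent.S48.Density` -/
section ZBZ4S48_006_2

/-!
# S48, piece DENS: outside a set of primes of small density the `a_p` take finitely many values

`stmtDensity_of : StmtSigma → StmtInt → StmtDensity`.

* (A) `S₁(Γ₁(N))` is finite dimensional (prelude Sturm bound) and the `q`-expansion is linear.
* (B) the span `W` of the conjugates `f^σ` is finite dimensional and stable under `Aut ℂ`, so it is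
  spanned by forms with rational coefficients (S23 descent): all `a_n` lie in a finite
  dimensional `ℚ`-space.
* (C) by the Hecke relations the `ℚ`-algebra generated by the `a_p`, `p ∤ N`, is finite
  dimensional; hence there are only finitely many systems `(σ a_p)_p`, `σ : ℂ →+* ℂ` (D).
* `∏_t (X - t p)` over the systems `t` is invariant under `Aut ℂ` and has integral coefficients,
  so it lies in `ℤ[X]`; if all `‖t p‖ ≤ B` its coefficients are bounded, so `a_p` lies in a finite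
  set `Y`.
* (E) if `a_p ∉ Y` some conjugate has `‖σ a_p‖² > B²`; Rankin's bound (R3) for the finitely many
  conjugate forms gives the density bound `D / B²`.
-/

set_option autoImplicit false
set_option linter.style.haveILetI false
set_option linter.unusedSectionVars false

noncomputable section

open CongruenceSubgroup UpperHalfPlane ModularForm Polynomial
open scoped MatrixGroups

namespace Fermat.Agent.S48

/-! ### (A) the `q`-expansion as an injective linear map, finite dimensionality -/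

section QLin

variable {Γ : Subgroup (GL (Fin 2) ℝ)} [Γ.IsArithmetic] [Γ.HasDetOne] {k : ℤ}

/-- the `q`-expansion (period `1`) as a linear map on cusp forms -/
def dens_qLin (hΓ : (1 : ℝ) ∈ Γ.strictPeriods) : CuspForm Γ k →ₗ[ℂ] PowerSeries ℂ where
  toFun f := qExpansion 1 f
  map_add' f g := by
    rw [FunLike.coe_add]
    exact ModularForm.qExpansion_add one_pos hΓ f g
  map_smul' c f := by
    have h1 : (⇑(c • f) : ℍ → ℂ) = c • ⇑f := by
      ext z
      simp
    rw [h1]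
    exact ModularForm.qExpansion_smul one_pos hΓ c f

@[simp] theorem dens_qLin_apply (hΓ : (1 : ℝ) ∈ Γ.strictPeriods) (f : CuspForm Γ k) :
    dens_qLin hΓ f = qExpansion 1 f := rfl

theorem dens_coeff_qLin (hΓ : (1 : ℝ) ∈ Γ.strictPeriods) (f : CuspForm Γ k) (n : ℕ) :
    PowerSeries.coeff n (dens_qLin hΓ f) = ModularFormClass.qCoeff f n := rfl

/-- the Sturm bound index -/
def dens_B (Γ : Subgroup (GL (Fin 2) ℝ)) (k : ℤ) : ℕ := (k * Γ.relIndex 𝒮ℒ).toNat / 12

/-- truncation of the `q`-expansion at the Sturm bound -/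
def dens_trunc (hΓ : (1 : ℝ) ∈ Γ.strictPeriods) :
    CuspForm Γ k →ₗ[ℂ] (Fin (dens_B Γ k + 1) → ℂ) where
  toFun f i := (qExpansion 1 f).coeff i
  map_add' f g := by
    funext i
    have h := (dens_qLin hΓ).map_add f g
    simp only [dens_qLin_apply] at h
    simp only [Pi.add_apply]
    rw [h, map_add]
  map_smul' c f := by
    funext i
    have h := (dens_qLin hΓ).map_smul c f
    simp only [dens_qLin_apply] at h
    simp only [Pi.smul_apply, RingHom.id_apply]
    rw [h, PowerSeries.coeff_smul]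

theorem dens_trunc_injective (hΓ : (1 : ℝ) ∈ Γ.strictPeriods) :
    Function.Injective (dens_trunc hΓ : CuspForm Γ k →ₗ[ℂ] _) := by
  rw [← LinearMap.ker_eq_bot, LinearMap.ker_eq_bot']
  intro f hf
  have hmf : (ModularFormClass.modularForm f : ModularForm Γ k) = 0 := by
    refine ModularForm.sturm_bound_of_isArithmetic hΓ ?_
    refine lt_of_lt_of_le (by exact_mod_cast Nat.lt_succ_self _)
      (PowerSeries.nat_le_order _ (dens_B Γ k + 1) fun n hn ↦ ?_)
    have := congrFun hf ⟨n, hn⟩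
    simpa [dens_trunc] using this
  have hcoe : (⇑f : ℍ → ℂ) = 0 := by
    have := congrArg (fun F : ModularForm Γ k ↦ (⇑F : ℍ → ℂ)) hmf
    simpa using this
  exact DFunLike.coe_injective (hcoe.trans (FunLike.coe_zero (F := CuspForm Γ k)).symm)

theorem dens_finiteDimensional (hΓ : (1 : ℝ) ∈ Γ.strictPeriods) :
    FiniteDimensional ℂ (CuspForm Γ k) :=
  FiniteDimensional.of_injective (dens_trunc hΓ) (dens_trunc_injective hΓ)

end QLin

/-! ### (B) descent: the coefficients lie in a finite dimensional `ℚ`-space -/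

/-- a power series all of whose conjugates lie in a finite dimensional space has its
coefficients in a finitely generated `ℚ`-vector space -/
theorem dens_exists_finset_span (Q : PowerSeries ℂ) (V₀ : Submodule ℂ (PowerSeries ℂ))
    [FiniteDimensional ℂ V₀]
    (h : ∀ σ : ℂ ≃+* ℂ, PowerSeries.map (σ : ℂ →+* ℂ) Q ∈ V₀) :
    ∃ C : Finset ℂ, ∀ n, PowerSeries.coeff n Q ∈ Submodule.span ℚ (C : Set ℂ) := by
  classical
  set W : Submodule ℂ (PowerSeries ℂ) :=
    Submodule.span ℂ (Set.range fun σ : ℂ ≃+* ℂ => PowerSeries.map (σ : ℂ →+* ℂ) Q) with hW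
  have hWV : W ≤ V₀ := by
    rw [hW, Submodule.span_le]
    rintro _ ⟨σ, rfl⟩
    exact h σ
  haveI : FiniteDimensional ℂ W := Submodule.finiteDimensional_of_le hWV
  have hstab : ∀ (τ : ℂ ≃+* ℂ), ∀ F ∈ W, PowerSeries.map (τ : ℂ →+* ℂ) F ∈ W := by
    intro τ F hF
    induction hF using Submodule.span_induction with
    | mem x hx =>
      obtain ⟨σ, rfl⟩ := hx
      refine Submodule.subset_span ⟨σ.trans τ, ?_⟩
      ext n
      simp
    | zero => rw [map_zero]; exact Submodule.zero_mem _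
    | add x y _ _ hx hy => rw [map_add]; exact Submodule.add_mem _ hx hy
    | smul c x _ hx =>
      have : PowerSeries.map (τ : ℂ →+* ℂ) (c • x)
          = (τ c) • PowerSeries.map (τ : ℂ →+* ℂ) x := by
        ext n
        simp
      rw [this]
      exact Submodule.smul_mem _ _ hx
  have hQW : Q ∈ W := by
    refine Submodule.subset_span ⟨RingEquiv.refl ℂ, ?_⟩
    ext n
    simp
  have hdesc := Fermat.Agent.S23.descent_le_span_rational W hstab hQW
  obtain ⟨n, f, g, hfg⟩ := Submodule.mem_span_set'.mp hdesc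
  refine ⟨Finset.univ.image f, fun m => ?_⟩
  rw [← hfg, map_sum]
  refine Submodule.sum_mem _ fun i _ => ?_
  obtain ⟨r, hr⟩ := (g i).2.2 m
  have : PowerSeries.coeff m (f i • ((g i : PowerSeries ℂ))) = r • f i := by
    rw [PowerSeries.coeff_smul, hr, smul_eq_mul, mul_comm]
    simp [Rat.smul_def]
  rw [this]
  refine Submodule.smul_mem _ _ (Submodule.subset_span ?_)
  exact Finset.mem_coe.mpr (Finset.mem_image.mpr ⟨i, Finset.mem_univ _, rfl⟩)

/-! ### (C) the field generated by the `a_p` is finite dimensional -/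

/-- Hecke relations force the algebra generated by the good `a_p` to be finite dimensional as
soon as all the `a_n` lie in a finite dimensional `ℚ`-space -/
theorem dens_adjoin_finite {N : ℕ} [NeZero N] (a : ℕ → ℂ) (ε : ZMod N → ℂ)
    (hε1 : ε 1 = 1) (hεmul : ∀ u v, ε (u * v) = ε u * ε v) (good : ℕ → Prop)
    (hrel : ∀ p, good p → ∀ n,
      a (p * n) + ε (p : ZMod N) * (if p ∣ n then a (n / p) else 0) = a p * a n)
    (ha1 : a 1 = 1) (C : Finset ℂ) (hC : ∀ n, a n ∈ Submodule.span ℚ (C : Set ℂ)) :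
    FiniteDimensional ℚ (Algebra.adjoin ℚ {x : ℂ | ∃ p, good p ∧ x = a p}) := by
  classical
  set M : Submodule ℚ ℂ := Submodule.span ℚ {x : ℂ | ∃ (u : ZMod N) (n : ℕ), x = ε u * a n}
    with hM
  set C' : Finset ℂ := (Finset.univ ×ˢ C).image (fun uc : ZMod N × ℂ => ε uc.1 * uc.2) with hC'
  have hMC : M ≤ Submodule.span ℚ (C' : Set ℂ) := by
    rw [hM, Submodule.span_le]
    rintro _ ⟨u, n, rfl⟩
    have h1 : ∀ y ∈ Submodule.span ℚ (C : Set ℂ), ε u * y ∈ Submodule.span ℚ (C' : Set ℂ) := by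
      intro y hy
      induction hy using Submodule.span_induction with
      | mem x hx =>
        refine Submodule.subset_span ?_
        rw [hC', Finset.mem_coe, Finset.mem_image]
        exact ⟨(u, x), Finset.mem_product.mpr ⟨Finset.mem_univ _, hx⟩, rfl⟩
      | zero => rw [mul_zero]; exact Submodule.zero_mem _
      | add x y _ _ hx hy => rw [mul_add]; exact Submodule.add_mem _ hx hy
      | smul c x _ hx =>
        rw [mul_smul_comm]
        exact Submodule.smul_mem _ _ hx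
    exact h1 _ (hC n)
  haveI : FiniteDimensional ℚ (Submodule.span ℚ (C' : Set ℂ)) :=
    FiniteDimensional.span_finset ℚ C'
  haveI : FiniteDimensional ℚ M := Submodule.finiteDimensional_of_le hMC
  -- `M` is stable under multiplication by the good `a_p`
  have hstab : ∀ p, good p → ∀ m ∈ M, a p * m ∈ M := by
    intro p hp m hm
    induction hm using Submodule.span_induction with
    | mem x hx =>
      obtain ⟨u, n, rfl⟩ := hx
      have h1 := hrel p hp n
      have h2 : a p * (ε u * a n) = ε u * a (p * n)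
          + ε (u * (p : ZMod N)) * (if p ∣ n then a (n / p) else 0) := by
        rw [hεmul]
        linear_combination (-(ε u)) * h1
      rw [h2]
      refine Submodule.add_mem _ (Submodule.subset_span ⟨u, p * n, rfl⟩) ?_
      split_ifs
      · exact Submodule.subset_span ⟨u * (p : ZMod N), n / p, rfl⟩
      · rw [mul_zero]; exact Submodule.zero_mem _
    | zero => rw [mul_zero]; exact Submodule.zero_mem _
    | add x y _ _ hx hy => rw [mul_add]; exact Submodule.add_mem _ hx hy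
    | smul c x _ hx =>
      rw [mul_smul_comm]
      exact Submodule.smul_mem _ _ hx
  have h1M : (1 : ℂ) ∈ M := by
    refine Submodule.subset_span ⟨1, 1, ?_⟩
    rw [hε1, ha1, mul_one]
  have hadj : ∀ x ∈ Algebra.adjoin ℚ {x : ℂ | ∃ p, good p ∧ x = a p}, ∀ m ∈ M, x * m ∈ M := by
    intro x hx
    induction hx using Algebra.adjoin_induction with
    | mem x hx =>
      obtain ⟨p, hp, rfl⟩ := hx
      exact hstab p hp
    | algebraMap r =>
      intro m hm
      rw [← Algebra.smul_def]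
      exact Submodule.smul_mem _ _ hm
    | add x y _ _ hx hy =>
      intro m hm
      rw [add_mul]
      exact Submodule.add_mem _ (hx m hm) (hy m hm)
    | mul x y _ _ hx hy =>
      intro m hm
      rw [mul_assoc]
      exact hx _ (hy m hm)
  have hle : Subalgebra.toSubmodule (Algebra.adjoin ℚ {x : ℂ | ∃ p, good p ∧ x = a p}) ≤ M := by
    intro x hx
    have := hadj x hx 1 h1M
    rwa [mul_one] at this
  exact Submodule.finiteDimensional_of_le hle

/-! ### (D) the conjugate systems -/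

/-- the systems `p ↦ σ (a p)` of conjugates of the good coefficients -/
def dens_sys (a : ℕ → ℂ) (good : ℕ → Prop) : Set ({p : ℕ // good p} → ℂ) :=
  Set.range fun σ : ℂ →+* ℂ => fun p : {p : ℕ // good p} => σ (a p)

theorem dens_sys_finite (a : ℕ → ℂ) (good : ℕ → Prop)
    (hfin : FiniteDimensional ℚ (Algebra.adjoin ℚ {x : ℂ | ∃ p, good p ∧ x = a p})) :
    (dens_sys a good).Finite := by
  haveI := hfin
  set K₀ := Algebra.adjoin ℚ {x : ℂ | ∃ p, good p ∧ x = a p} with hK₀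
  let G : (K₀ →ₐ[ℚ] ℂ) → ({p : ℕ // good p} → ℂ) := fun φ p =>
    φ ⟨a p, Algebra.subset_adjoin ⟨p, p.2, rfl⟩⟩
  refine (Set.finite_range G).subset ?_
  rintro _ ⟨σ, rfl⟩
  exact ⟨(σ.toRatAlgHom).comp K₀.val, rfl⟩

/-- a rational number which is an algebraic integer in `ℂ` is an integer -/
theorem dens_int_of_rat_of_isIntegral {x : ℂ} (hx : IsIntegral ℤ x) (r : ℚ) (hr : x = (r : ℂ)) :
    ∃ z : ℤ, x = (z : ℂ) := by
  have h1 : IsIntegral ℤ (r : ℚ) := by
    have h2 : IsIntegral ℤ (algebraMap ℚ ℂ r) := by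
      rw [hr] at hx
      exact hx
    exact (isIntegral_algebraMap_iff (algebraMap ℚ ℂ).injective).mp h2
  obtain ⟨z, hz⟩ := IsIntegrallyClosed.isIntegral_iff.mp h1
  refine ⟨z, ?_⟩
  rw [hr, ← hz]
  simp

/-- the finite set of algebraic integers of degree `≤ D` whose conjugates are bounded by `B` -/
def dens_Y (D : ℕ) (B : ℝ) : Set ℂ :=
  ⋃ (f : ℤ[X]) (_ : f.natDegree ≤ D ∧
      ∀ i, f.coeff i ∈ Set.Icc (-⌈max B 1 ^ D * D.choose (D / 2)⌉) ⌈max B 1 ^ D * D.choose (D / 2)⌉),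
    ((f.map (Int.castRingHom ℂ)).roots.toFinset : Set ℂ)

theorem dens_Y_finite (D : ℕ) (B : ℝ) : (dens_Y D B).Finite := by
  classical
  exact Polynomial.bUnion_roots_finite (Int.castRingHom ℂ) D (Set.finite_Icc _ _)

theorem dens_mem_Y (a : ℕ → ℂ) (good : ℕ → Prop) (hint : ∀ p, good p → IsIntegral ℤ (a p))
    (Sys : Finset ({p : ℕ // good p} → ℂ)) (hSys : (Sys : Set _) = dens_sys a good) (B : ℝ)
    (p : {p : ℕ // good p}) (hB : ∀ t ∈ Sys, ‖t p‖ ≤ B) : a p ∈ dens_Y Sys.card B := by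
  classical
  set P : ℂ[X] := ∏ t ∈ Sys, (X - C (t p)) with hP
  have hmonic : P.Monic := monic_prod_X_sub_C _ _
  have hdeg : P.natDegree = Sys.card := by
    rw [hP, natDegree_prod_of_monic _ _ (fun t _ => monic_X_sub_C (t p))]
    simp
  have hroots : P.roots = Sys.val.map (fun t => t p) := by
    have h1 : Sys.val.map (fun t : {p : ℕ // good p} → ℂ => (X - C (t p) : ℂ[X]))
        = (Sys.val.map (fun t => t p)).map (fun a : ℂ => X - C a) := by
      rw [Multiset.map_map]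
      rfl
    rw [hP, Finset.prod_eq_multiset_prod, h1, roots_multiset_prod_X_sub_C]
  have hsplit : Splits P := Splits.prod fun t _ => Splits.X_sub_C (t p)
  -- `a p` is a root
  have hmemSys : (fun q : {p : ℕ // good p} => a q) ∈ Sys := by
    rw [← Finset.mem_coe, hSys]
    exact ⟨RingHom.id ℂ, rfl⟩
  have hroot : P.IsRoot (a p) := by
    rw [IsRoot.def, hP, eval_prod]
    refine Finset.prod_eq_zero hmemSys ?_
    simp
  -- invariance under automorphisms
  have hinv : ∀ τ : ℂ ≃+* ℂ, P.map (τ : ℂ →+* ℂ) = P := by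
    intro τ
    have hmaps : ∀ t ∈ Sys, (fun q => τ (t q)) ∈ Sys := by
      intro t ht
      rw [← Finset.mem_coe, hSys] at ht ⊢
      obtain ⟨σ, rfl⟩ := ht
      exact ⟨(τ : ℂ →+* ℂ).comp σ, rfl⟩
    have hinj : Set.InjOn (fun (t : {p : ℕ // good p} → ℂ) => fun q => τ (t q)) (Sys : Set _) := by
      intro t _ t' _ h
      funext q
      exact τ.injective (congrFun h q)
    have himg : Sys.image (fun (t : {p : ℕ // good p} → ℂ) => fun q => τ (t q)) = Sys := by
      apply Finset.eq_of_subset_of_card_le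
      · intro t ht
        obtain ⟨t', ht', rfl⟩ := Finset.mem_image.mp ht
        exact hmaps t' ht'
      · rw [Finset.card_image_of_injOn hinj]
    rw [hP, Polynomial.map_prod]
    conv_rhs => rw [← himg]
    rw [Finset.prod_image hinj]
    refine Finset.prod_congr rfl fun t _ => ?_
    simp
  -- integrality of the coefficients
  have hintt : ∀ t ∈ Sys, IsIntegral ℤ (t p) := by
    intro t ht
    rw [← Finset.mem_coe, hSys] at ht
    obtain ⟨σ, rfl⟩ := ht
    exact (hint p p.2).map (σ.toIntAlgHom)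
  have hcoeffint : ∀ i, IsIntegral ℤ (P.coeff i) := by
    intro i
    have h1 : P ∈ Polynomial.lifts (algebraMap (integralClosure ℤ ℂ) ℂ) := by
      rw [hP]
      refine Subsemiring.prod_mem _ fun t ht => ?_
      rw [Polynomial.mem_lifts]
      refine ⟨X - C ⟨t p, hintt t ht⟩, ?_⟩
      simp
    rw [Polynomial.lifts_iff_coeff_lifts] at h1
    obtain ⟨y, hy⟩ := h1 i
    rw [← hy]
    exact y.2
  have hcoeffZ : ∀ i, ∃ z : ℤ, P.coeff i = (z : ℂ) := by
    intro i
    have hfix : ∀ τ : ℂ ≃+* ℂ, τ (P.coeff i) = P.coeff i := by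
      intro τ
      have := congrArg (fun Q : ℂ[X] => Q.coeff i) (hinv τ)
      simpa using this
    obtain ⟨r, hr⟩ := Fermat.Agent.S23.descent_exists_rat_of_fixed _ hfix
    exact dens_int_of_rat_of_isIntegral (hcoeffint i) r hr
  -- lift to `ℤ[X]`
  have hlift : P ∈ Polynomial.lifts (Int.castRingHom ℂ) := by
    rw [Polynomial.lifts_iff_coeff_lifts]
    intro i
    obtain ⟨z, hz⟩ := hcoeffZ i
    exact ⟨z, by rw [hz]; rfl⟩
  obtain ⟨q, hqP, hqdeg⟩ := Polynomial.exists_degree_eq_of_mem_lifts hlift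
  have hqnat : q.natDegree = Sys.card := by
    rw [← hdeg]
    exact natDegree_eq_natDegree hqdeg
  have hbound : ∀ i, ‖P.coeff i‖ ≤ max B 1 ^ Sys.card * Sys.card.choose (Sys.card / 2) := by
    intro i
    have := coeff_bdd_of_roots_le (B := B) (d := Sys.card) (RingHom.id ℂ) hmonic
      (by rw [Polynomial.map_id]; exact hsplit) hdeg.le (by
        intro z hz
        rw [Polynomial.map_id, hroots, Multiset.mem_map] at hz
        obtain ⟨t, ht, rfl⟩ := hz
        exact hB t ht) i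
    rwa [Polynomial.map_id] at this
  simp only [dens_Y, Set.mem_iUnion]
  refine ⟨q, ⟨hqnat.le, fun i => ?_⟩, ?_⟩
  · have h1 : ‖((q.coeff i : ℤ) : ℂ)‖ ≤ max B 1 ^ Sys.card * Sys.card.choose (Sys.card / 2) := by
      have := hbound i
      rw [← hqP, coeff_map] at this
      exact this
    have h2 : |((q.coeff i : ℤ) : ℝ)| ≤ max B 1 ^ Sys.card * Sys.card.choose (Sys.card / 2) := by
      have h3 : ‖((q.coeff i : ℤ) : ℂ)‖ = |((q.coeff i : ℤ) : ℝ)| := by
        rw [← Complex.ofReal_intCast, Complex.norm_real, Real.norm_eq_abs]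
      rw [← h3]
      exact h1
    rw [abs_le] at h2
    rw [Set.mem_Icc]
    constructor
    · have : ((-⌈max B 1 ^ Sys.card * Sys.card.choose (Sys.card / 2)⌉ : ℤ) : ℝ)
          ≤ ((q.coeff i : ℤ) : ℝ) := by
        push_cast
        have := Int.le_ceil (max B 1 ^ Sys.card * (Sys.card.choose (Sys.card / 2) : ℝ))
        linarith [h2.1]
      exact_mod_cast this
    · have : ((q.coeff i : ℤ) : ℝ)
          ≤ ((⌈max B 1 ^ Sys.card * Sys.card.choose (Sys.card / 2)⌉ : ℤ) : ℝ) := by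
        have := Int.le_ceil (max B 1 ^ Sys.card * (Sys.card.choose (Sys.card / 2) : ℝ))
        linarith [h2.2]
      exact_mod_cast this
  · rw [Finset.mem_coe, Multiset.mem_toFinset, hqP, mem_roots hmonic.ne_zero]
    exact hroot


/-! ### (E) the density bound -/

/-- the conjugate of a Hecke eigenform is a Hecke eigenform (for the conjugate character) -/
theorem dens_isHeckeEigen_conj (N : ℕ) [NeZero N] (ε : DirichletCharacter ℂ N)
    (f g : CuspForm (Gamma1 N) 1) (hf : IsHeckeEigen N ε f) (σ : ℂ →+* ℂ)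
    (hg : ∀ n : ℕ, ModularFormClass.qCoeff g n = σ (ModularFormClass.qCoeff f n)) :
    IsHeckeEigen N (ε.ringHomComp σ) g := by
  refine ⟨by rw [hg, hf.1, map_one], fun p hp hpN n => ?_⟩
  have h := congrArg σ (hf.2 p hp hpN n)
  rw [map_add, map_mul, map_mul, apply_ite σ, map_zero] at h
  simp only [hg, MulChar.ringHomComp_apply]
  exact h

/-- **DENS** from SIG and INT. -/
theorem stmtDensity_of (hSig : StmtSigma) (hInt : StmtInt) : StmtDensity := by
  intro N _ ε f hf δ hδ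
  classical
  set a : ℕ → ℂ := fun n => ModularFormClass.qCoeff f n with ha
  set good : ℕ → Prop := fun p => p.Prime ∧ ¬ p ∣ N with hgood
  have hΓ := one_mem_strictPeriods_Gamma1 N
  -- (A), (B): the coefficients lie in a finite dimensional `ℚ`-space
  haveI : FiniteDimensional ℂ (CuspForm (Gamma1 N) 1) := dens_finiteDimensional hΓ
  set V₀ : Submodule ℂ (PowerSeries ℂ) :=
    LinearMap.range (dens_qLin hΓ : CuspForm (Gamma1 N) 1 →ₗ[ℂ] PowerSeries ℂ) with hV₀
  haveI : FiniteDimensional ℂ V₀ := LinearMap.finiteDimensional_range _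
  have hconj : ∀ σ : ℂ ≃+* ℂ,
      PowerSeries.map (σ : ℂ →+* ℂ) (dens_qLin hΓ f) ∈ V₀ := by
    intro σ
    obtain ⟨g, hg⟩ := hSig N ε f hf (σ : ℂ →+* ℂ)
    refine ⟨g, ?_⟩
    ext n
    rw [PowerSeries.coeff_map, dens_coeff_qLin, dens_coeff_qLin, hg]
  obtain ⟨C, hC⟩ := dens_exists_finset_span (dens_qLin hΓ f) V₀ hconj
  -- (C): the algebra generated by the good `a_p` is finite dimensional
  have hK₀ : FiniteDimensional ℚ (Algebra.adjoin ℚ {x : ℂ | ∃ p, good p ∧ x = a p}) :=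
    dens_adjoin_finite a (fun u => ε u) (map_one ε) (fun u v => map_mul ε u v) good
      (fun p hp n => hf.2 p hp.1 hp.2 n) hf.1 C (fun n => hC n)
  -- (D): the systems
  have hSysfin := dens_sys_finite a good hK₀
  set Sys : Finset ({p : ℕ // good p} → ℂ) := hSysfin.toFinset with hSys
  have hSyscoe : (Sys : Set ({p : ℕ // good p} → ℂ)) = dens_sys a good :=
    hSysfin.coe_toFinset
  have hSysne : Sys.Nonempty :=
    ⟨fun q => a q, by rw [← Finset.mem_coe, hSyscoe]; exact ⟨RingHom.id ℂ, rfl⟩⟩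
  have hD0 : (0 : ℝ) < (Sys.card : ℝ) := by exact_mod_cast hSysne.card_pos
  -- Rankin for every system
  have hT : ∀ t ∈ Sys, ∃ (σ : ℂ →+* ℂ) (C' : ℝ),
      (t = fun p : {p : ℕ // good p} => σ (a p)) ∧
      ∀ s : ℝ, 1 < s → s ≤ 2 → ∀ P : Finset ℕ, (∀ p ∈ P, good p) →
        ∑ p ∈ P, ‖σ (a p)‖ ^ 2 * (p : ℝ) ^ (-s) ≤ Real.log (1 / (s - 1)) + C' := by
    intro t ht
    rw [← Finset.mem_coe, hSyscoe] at ht
    obtain ⟨σ, rfl⟩ := ht
    obtain ⟨g, hg⟩ := hSig N ε f hf σ
    have hgE := dens_isHeckeEigen_conj N ε f g hf σ hg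
    obtain ⟨C', hC'⟩ := qCoeff_prime_sum_le N (ε.ringHomComp σ) g hgE.1 hgE.2
    refine ⟨σ, C', rfl, fun s hs hs2 P hP => ?_⟩
    have := hC' s hs hs2 P hP
    simpa only [hg] using this
  choose! σ C' hσt hσR using hT
  set C₁ : ℝ := ∑ t ∈ Sys, |C' t| with hC₁
  have hC₁0 : 0 ≤ C₁ := Finset.sum_nonneg fun t _ => abs_nonneg _
  have hC'le : ∀ t ∈ Sys, C' t ≤ C₁ := fun t ht =>
    (le_abs_self _).trans (Finset.single_le_sum (f := fun t => |C' t|)
      (fun t _ => abs_nonneg _) ht)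
  -- the threshold
  set c : ℝ := (Sys.card : ℝ) / δ with hc
  have hc0 : 0 < c := div_pos hD0 hδ
  set B : ℝ := Real.sqrt c with hB
  have hB0 : 0 ≤ B := Real.sqrt_nonneg c
  have hBsq : B ^ 2 = c := Real.sq_sqrt hc0.le
  refine ⟨(dens_Y_finite Sys.card B).toFinset, δ * C₁, fun s hs hs2 P hP => ?_⟩
  have hL : 0 ≤ Real.log (1 / (s - 1)) := by
    apply Real.log_nonneg
    rw [one_div, one_le_inv₀ (by linarith)]
    linarith
  set L : ℝ := Real.log (1 / (s - 1)) with hLdef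
  have hPgood : ∀ p ∈ P, good p := fun p hp => ⟨(hP p hp).1, (hP p hp).2.1⟩
  -- every `p ∈ P` has a big conjugate
  have hbig : ∀ p ∈ P, 1 ≤ ∑ t ∈ Sys, ‖σ t (a p)‖ ^ 2 / c := by
    intro p hp
    have hgp : good p := hPgood p hp
    have hnotY : a p ∉ dens_Y Sys.card B := by
      have := (hP p hp).2.2
      rwa [Set.Finite.mem_toFinset] at this
    have hex : ∃ t ∈ Sys, B < ‖t ⟨p, hgp⟩‖ := by
      by_contra hcon
      simp only [not_exists, not_and, not_lt] at hcon
      refine hnotY (dens_mem_Y a good (fun q hq => ?_) Sys hSyscoe B ⟨p, hgp⟩ hcon)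
      obtain ⟨y, hy⟩ := hInt N ε f hf q hq.1 hq.2
      have : IsIntegral ℤ (y : ℂ) := y.2
      rwa [hy] at this
    obtain ⟨t, ht, htB⟩ := hex
    have h1 : t ⟨p, hgp⟩ = σ t (a p) := by
      have := congrFun (hσt t ht) ⟨p, hgp⟩
      exact this
    rw [h1] at htB
    have h2 : c ≤ ‖σ t (a p)‖ ^ 2 := by
      rw [← hBsq]
      exact pow_le_pow_left₀ hB0 htB.le 2
    have h3 : 1 ≤ ‖σ t (a p)‖ ^ 2 / c := by
      rw [le_div_iff₀ hc0, one_mul]
      exact h2
    exact h3.trans (Finset.single_le_sum (f := fun t => ‖σ t (a p)‖ ^ 2 / c)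
      (fun t _ => div_nonneg (sq_nonneg _) hc0.le) ht)
  have hpow0 : ∀ p : ℕ, 0 ≤ (p : ℝ) ^ (-s) := fun p => Real.rpow_nonneg (Nat.cast_nonneg p) _
  calc ∑ p ∈ P, (p : ℝ) ^ (-s)
      ≤ ∑ p ∈ P, (∑ t ∈ Sys, ‖σ t (a p)‖ ^ 2 / c) * (p : ℝ) ^ (-s) := by
        refine Finset.sum_le_sum fun p hp => ?_
        exact le_mul_of_one_le_left (hpow0 p) (hbig p hp)
    _ = ∑ t ∈ Sys, (1 / c) * ∑ p ∈ P, ‖σ t (a p)‖ ^ 2 * (p : ℝ) ^ (-s) := by
        simp only [Finset.sum_mul, Finset.mul_sum]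
        rw [Finset.sum_comm]
        refine Finset.sum_congr rfl fun t _ => Finset.sum_congr rfl fun p _ => ?_
        ring
    _ ≤ ∑ t ∈ Sys, (1 / c) * (L + C₁) := by
        refine Finset.sum_le_sum fun t ht => ?_
        refine mul_le_mul_of_nonneg_left ?_ (by positivity)
        exact (hσR t ht s hs hs2 P hPgood).trans (by linarith [hC'le t ht])
    _ = δ * L + δ * C₁ := by
        rw [Finset.sum_const, nsmul_eq_mul, hc]
        field_simp

end Fermat.Agent.S48

end
end ZBZ4S48_006_2
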