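/- GENERATED FILE (helper35, build-time optimisation, NOTES/ZB.md): verbatim concatenation of the modules
   Fermat.Agent.S48.TraceBound
   Fermat.Agent.S48.Irred
   Do not edit; do not import together with these modules. -/
import Fermat.Agent.ZB.S48_002
import Fermat.Agent.ZB.S42_001
import Fermat.Agent.ZB.Z4S48_006
import Fermat.Agent.ZB.Z4S48_003
import Fermat.Agent.ZB.Z4S48_002
import Fermat.Agent.ZB.Z4S48_001

/-! ### bundled: `Fermat.Agent.S48.TraceBound` -/
section ZBZ4S48_007_0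

/-!
# S48, piece GT': the Burnside trace bound

* `stmtTraceSpan : StmtTraceSpan` — if `ρ(G)` spans `M₂(k)` and at least `7/8` of `G` has trace in
  the finite set `Y`, then `#ρ(G) ≤ 2 #Y⁴`.  Proof: choose `γ₁, …, γ₄ ∈ G` with `ρ(γ_i)` a basis of
  `M₂(k)`; at least half of `G` has `tr ρ(g γ_i) ∈ Y` for all `i`, and `A ↦ (tr (A ρ(γ_i)))_i` is
  injective (the trace form is non-degenerate).
* `stmtTraceDiag : StmtTraceDiag` — the diagonal case: trace and determinant determine a diagonal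
  matrix up to the swap.
* `stmtSemi : StmtSemi` — over an algebraically closed field, `ρ` either spans `M₂(K)` or has a
  common eigenvector (Burnside, `S42/Burnside.lean`), and then the diagonal representation
  `χ₁ ⊕ χ₂` has the same traces and determinants.
-/

set_option autoImplicit false
set_option linter.style.haveILetI false

namespace Fermat.Agent.S48

open Finset

/-- counting: if a subset `S` of at least half of `G` has image of size `≤ c`, the image of `G`
has size `≤ 2 c` -/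
theorem traceBound_card_range_le {G H : Type*} [Group G] [Fintype G] [Group H] [DecidableEq H]
    (ρ : G →* H) (S : Finset G) (c : ℕ) (hS : Fintype.card G ≤ 2 * S.card)
    (hc : (S.image ρ).card ≤ c) : Nat.card ρ.range ≤ 2 * c := by
  classical
  set κ := Nat.card ρ.ker with hκ
  have hκpos : 0 < κ := Nat.card_pos
  have hκ' : κ = (Finset.univ.filter (fun g : G => ρ g = 1)).card := by
    rw [hκ, Nat.card_eq_fintype_card, Fintype.card_subtype]
    refine congrArg Finset.card (Finset.filter_congr fun g _ => ?_)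
    exact MonoidHom.mem_ker
  have hfib : ∀ b ∈ S.image ρ, (S.filter (fun a => ρ a = b)).card ≤ κ := by
    intro b hb
    obtain ⟨x₀, -, rfl⟩ := Finset.mem_image.mp hb
    calc (S.filter (fun a => ρ a = ρ x₀)).card
        ≤ (Finset.univ.filter (fun a : G => ρ a = ρ x₀)).card :=
          Finset.card_le_card (Finset.filter_subset_filter _ (Finset.subset_univ S))
      _ = (Finset.univ.filter (fun g : G => ρ g = 1)).card :=
          MonoidHom.card_fiber_eq_of_mem_range ρ ⟨x₀, rfl⟩ ⟨1, map_one ρ⟩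
      _ = κ := hκ'.symm
  have h1 : S.card ≤ κ * (S.image ρ).card := Finset.card_le_mul_card_image S κ hfib
  have h2 : κ * Nat.card ρ.range = Fintype.card G := by
    rw [hκ, ← Subgroup.index_ker, Subgroup.card_mul_index, Nat.card_eq_fintype_card]
  have h3 : κ * Nat.card ρ.range ≤ κ * (2 * c) := by
    calc κ * Nat.card ρ.range = Fintype.card G := h2
      _ ≤ 2 * S.card := hS
      _ ≤ 2 * (κ * (S.image ρ).card) := Nat.mul_le_mul_left 2 h1
      _ ≤ 2 * (κ * c) := Nat.mul_le_mul_left 2 (Nat.mul_le_mul_left κ hc)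
      _ = κ * (2 * c) := by ring
  exact Nat.le_of_mul_le_mul_left h3 hκpos

/-- a spanning family of `M₂(k)` contains four members which separate matrices through the trace
form -/
theorem traceBound_exists_separating {k : Type*} [Field k] {G : Type*}
    (f : G → Matrix (Fin 2) (Fin 2) k)
    (hspan : Submodule.span k (Set.range f) = ⊤) :
    ∃ γ : Fin 4 → G, ∀ A A' : Matrix (Fin 2) (Fin 2) k,
      (∀ i, (A * f (γ i)).trace = (A' * f (γ i)).trace) → A = A' := by
  classical
  have hs : ⊤ ≤ Submodule.span k (Set.range f) := hspan.ge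
  set b := Module.Basis.ofSpan hs with hb
  haveI : Fintype ((linearIndepOn_empty k id).extend (Set.empty_subset (Set.range f))) :=
    FiniteDimensional.fintypeBasisIndex b
  have hcard : Fintype.card ((linearIndepOn_empty k id).extend (Set.empty_subset (Set.range f)))
      = 4 := by
    rw [← Module.finrank_eq_card_basis b, Module.finrank_matrix]
    simp
  let e := Fintype.equivFinOfCardEq hcard
  have hmem : ∀ j : Fin 4, ∃ g : G, f g = b (e.symm j) := by
    intro j
    have := Module.Basis.ofSpan_subset hs (Set.mem_range_self (e.symm j))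
    exact this
  choose γ hγ using hmem
  refine ⟨γ, fun A A' h => ?_⟩
  rw [Matrix.ext_iff_trace_mul_right]
  intro X
  let L : Matrix (Fin 2) (Fin 2) k →ₗ[k] k :=
    (Matrix.traceLinearMap (Fin 2) k k).comp (LinearMap.mulLeft k A)
  let L' : Matrix (Fin 2) (Fin 2) k →ₗ[k] k :=
    (Matrix.traceLinearMap (Fin 2) k k).comp (LinearMap.mulLeft k A')
  have hLL' : L = L' := by
    refine b.ext fun i => ?_
    have := h (e i)
    rw [hγ, Equiv.symm_apply_apply] at this
    exact this
  exact congrArg (fun l : Matrix (Fin 2) (Fin 2) k →ₗ[k] k => l X) hLL'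

/-- the number of elements with a property, as a `Nat.card` and as a filter -/
theorem traceBound_natCard_subtype {G : Type*} [Fintype G] (p : G → Prop) [DecidablePred p] :
    Nat.card {g : G // p g} = (Finset.univ.filter p).card := by
  rw [Nat.card_eq_fintype_card, Fintype.card_subtype]

/-- (GT', irreducible case) Burnside trace bound. -/
theorem stmtTraceSpan : StmtTraceSpan := by
  intro k _ G _ _ ρ Y hspan hbad
  classical
  haveI : Fintype G := Fintype.ofFinite G
  obtain ⟨γ, hγ⟩ := traceBound_exists_separating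
    (fun g : G => (ρ g : Matrix (Fin 2) (Fin 2) k)) hspan
  rw [traceBound_natCard_subtype, Nat.card_eq_fintype_card] at hbad
  set bad : Finset G :=
    Finset.univ.filter (fun g : G => Matrix.trace (ρ g : Matrix (Fin 2) (Fin 2) k) ∉ Y) with hbadd
  set good : Finset G := Finset.univ.filter
    (fun g : G => ∀ i : Fin 4, Matrix.trace (ρ (g * γ i) : Matrix (Fin 2) (Fin 2) k) ∈ Y)
    with hgood
  -- the complement of `good` is small
  have hcompl : (Finset.univ \ good).card ≤ 4 * bad.card := by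
    have hsub : Finset.univ \ good ⊆
        (Finset.univ : Finset (Fin 4)).biUnion (fun i => bad.image (fun g => g * (γ i)⁻¹)) := by
      intro g hg
      rw [Finset.mem_sdiff, hgood, Finset.mem_filter] at hg
      have hg2 : ¬ ∀ i : Fin 4, Matrix.trace (ρ (g * γ i) : Matrix (Fin 2) (Fin 2) k) ∈ Y :=
        fun h => hg.2 ⟨Finset.mem_univ _, h⟩
      rw [not_forall] at hg2
      obtain ⟨i, hi⟩ := hg2
      rw [Finset.mem_biUnion]
      refine ⟨i, Finset.mem_univ _, Finset.mem_image.mpr ⟨g * γ i, ?_, ?_⟩⟩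
      · rw [hbadd, Finset.mem_filter]
        exact ⟨Finset.mem_univ _, hi⟩
      · rw [mul_inv_cancel_right]
    calc (Finset.univ \ good).card
        ≤ ((Finset.univ : Finset (Fin 4)).biUnion
            (fun i => bad.image (fun g => g * (γ i)⁻¹))).card := Finset.card_le_card hsub
      _ ≤ ∑ i : Fin 4, (bad.image (fun g => g * (γ i)⁻¹)).card := Finset.card_biUnion_le
      _ ≤ ∑ _i : Fin 4, bad.card := Finset.sum_le_sum fun i _ => Finset.card_image_le
      _ = 4 * bad.card := by simp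
  have hsplit : (Finset.univ \ good).card + good.card = Fintype.card G := by
    rw [Finset.card_sdiff_add_card_eq_card (Finset.subset_univ good), Finset.card_univ]
  have hS : Fintype.card G ≤ 2 * good.card := by omega
  -- the image of `good` is small
  have hc : (good.image ρ).card ≤ Y.card ^ 4 := by
    rw [← Fintype.card_piFinset_const Y 4]
    refine Finset.card_le_card_of_injOn
      (fun M : GL (Fin 2) k => fun i : Fin 4 =>
        Matrix.trace ((M : Matrix (Fin 2) (Fin 2) k) * (ρ (γ i) : Matrix (Fin 2) (Fin 2) k)))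
      ?_ ?_
    · intro M hM
      rw [Finset.mem_coe, Finset.mem_image] at hM
      obtain ⟨g, hg, rfl⟩ := hM
      rw [hgood, Finset.mem_filter] at hg
      rw [Finset.mem_coe, Fintype.mem_piFinset]
      intro i
      have := hg.2 i
      rw [map_mul, Units.val_mul] at this
      exact this
    · intro M _ M' _ hMM'
      apply Units.ext
      exact hγ _ _ fun i => congrFun hMM' i
  exact traceBound_card_range_le ρ good _ hS hc

/-- a diagonal `2 × 2` matrix is determined by its first entry and its trace -/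
theorem traceBound_diag_eq {k : Type*} [Field k] {M M' : Matrix (Fin 2) (Fin 2) k}
    (h01 : M 0 1 = 0) (h10 : M 1 0 = 0) (h01' : M' 0 1 = 0) (h10' : M' 1 0 = 0)
    (h00 : M 0 0 = M' 0 0) (ht : M.trace = M'.trace) : M = M' := by
  rw [Matrix.trace_fin_two, Matrix.trace_fin_two, h00] at ht
  have h11 : M 1 1 = M' 1 1 := add_left_cancel ht
  ext i j
  fin_cases i <;> fin_cases j
  · exact h00
  · exact h01.trans h01'.symm
  · exact h10.trans h10'.symm
  · exact h11

/-- two diagonal `2 × 2` matrices with the same trace and determinant and different first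
entries: the first entries add up to the trace -/
theorem traceBound_diag_sum {k : Type*} [Field k] {M M' : Matrix (Fin 2) (Fin 2) k}
    (h01 : M 0 1 = 0) (h01' : M' 0 1 = 0)
    (ht : M.trace = M'.trace) (hd : M.det = M'.det) (hne : M 0 0 ≠ M' 0 0) :
    M 0 0 + M' 0 0 = M.trace := by
  rw [Matrix.det_fin_two, Matrix.det_fin_two, h01, h01', zero_mul, zero_mul, sub_zero,
    sub_zero] at hd
  have ht' := ht
  rw [Matrix.trace_fin_two, Matrix.trace_fin_two] at ht'
  rw [Matrix.trace_fin_two]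
  have h1 : M 1 1 = M' 0 0 + M' 1 1 - M 0 0 := by rw [← ht']; ring
  have h2 : (M 0 0 - M' 0 0) * (M' 1 1 - M 0 0) = 0 := by
    have : M 0 0 * (M' 0 0 + M' 1 1 - M 0 0) = M' 0 0 * M' 1 1 := by rw [← h1]; exact hd
    linear_combination this
  rcases mul_eq_zero.mp h2 with h | h
  · exact absurd (sub_eq_zero.mp h) hne
  · rw [h1]
    have : M' 1 1 = M 0 0 := sub_eq_zero.mp h
    rw [this]
    ring

/-- (GT', diagonal case). -/
theorem stmtTraceDiag : StmtTraceDiag := by
  intro k _ G _ _ ρ Y E hdiag hdet hbad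
  classical
  haveI : Fintype G := Fintype.ofFinite G
  rw [traceBound_natCard_subtype, Nat.card_eq_fintype_card] at hbad
  set bad : Finset G :=
    Finset.univ.filter (fun g : G => Matrix.trace (ρ g : Matrix (Fin 2) (Fin 2) k) ∉ Y) with hbadd
  set good : Finset G :=
    Finset.univ.filter (fun g : G => Matrix.trace (ρ g : Matrix (Fin 2) (Fin 2) k) ∈ Y)
    with hgood
  have hsplit : bad.card + good.card = Fintype.card G := by
    rw [hbadd, hgood, add_comm]
    rw [Finset.card_filter_add_card_filter_not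
      (s := (Finset.univ : Finset G))
      (fun g : G => Matrix.trace (ρ g : Matrix (Fin 2) (Fin 2) k) ∈ Y), Finset.card_univ]
  have hS : Fintype.card G ≤ 2 * good.card := by omega
  set τ : GL (Fin 2) k → k × k := fun M =>
    (Matrix.trace (M : Matrix (Fin 2) (Fin 2) k), Matrix.det (M : Matrix (Fin 2) (Fin 2) k))
    with hτ
  have hfib : ∀ p ∈ (good.image ρ).image τ,
      ((good.image ρ).filter (fun M => τ M = p)).card ≤ 2 := by
    intro p _
    by_contra hcon
    rw [not_le, Finset.two_lt_card_iff] at hcon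
    obtain ⟨M₁, M₂, M₃, h1, h2, h3, h12, h13, h23⟩ := hcon
    rw [Finset.mem_filter, Finset.mem_image] at h1 h2 h3
    obtain ⟨⟨g₁, -, rfl⟩, hp1⟩ := h1
    obtain ⟨⟨g₂, -, rfl⟩, hp2⟩ := h2
    obtain ⟨⟨g₃, -, rfl⟩, hp3⟩ := h3
    have e12 : τ (ρ g₁) = τ (ρ g₂) := hp1.trans hp2.symm
    have e13 : τ (ρ g₁) = τ (ρ g₃) := hp1.trans hp3.symm
    have t12 : Matrix.trace (ρ g₁ : Matrix (Fin 2) (Fin 2) k)
        = Matrix.trace (ρ g₂ : Matrix (Fin 2) (Fin 2) k) := congrArg Prod.fst e12
    have d12 : Matrix.det (ρ g₁ : Matrix (Fin 2) (Fin 2) k)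
        = Matrix.det (ρ g₂ : Matrix (Fin 2) (Fin 2) k) := congrArg Prod.snd e12
    have t13 : Matrix.trace (ρ g₁ : Matrix (Fin 2) (Fin 2) k)
        = Matrix.trace (ρ g₃ : Matrix (Fin 2) (Fin 2) k) := congrArg Prod.fst e13
    have d13 : Matrix.det (ρ g₁ : Matrix (Fin 2) (Fin 2) k)
        = Matrix.det (ρ g₃ : Matrix (Fin 2) (Fin 2) k) := congrArg Prod.snd e13
    have n12 : (ρ g₁ : Matrix (Fin 2) (Fin 2) k) 0 0 ≠ (ρ g₂ : Matrix (Fin 2) (Fin 2) k) 0 0 :=
      fun h => h12 (Units.ext (traceBound_diag_eq (hdiag g₁).1 (hdiag g₁).2 (hdiag g₂).1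
        (hdiag g₂).2 h t12))
    have n13 : (ρ g₁ : Matrix (Fin 2) (Fin 2) k) 0 0 ≠ (ρ g₃ : Matrix (Fin 2) (Fin 2) k) 0 0 :=
      fun h => h13 (Units.ext (traceBound_diag_eq (hdiag g₁).1 (hdiag g₁).2 (hdiag g₃).1
        (hdiag g₃).2 h t13))
    have s12 := traceBound_diag_sum (hdiag g₁).1 (hdiag g₂).1 t12 d12 n12
    have s13 := traceBound_diag_sum (hdiag g₁).1 (hdiag g₃).1 t13 d13 n13
    have h00 : (ρ g₂ : Matrix (Fin 2) (Fin 2) k) 0 0 = (ρ g₃ : Matrix (Fin 2) (Fin 2) k) 0 0 :=
      add_left_cancel (s12.trans s13.symm)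
    exact h23 (Units.ext (traceBound_diag_eq (hdiag g₂).1 (hdiag g₂).2 (hdiag g₃).1
        (hdiag g₃).2 h00 (t12.symm.trans t13)))
  have hsub : (good.image ρ).image τ ⊆ Y ×ˢ E := by
    intro p hp
    rw [Finset.mem_image] at hp
    obtain ⟨M, hM, rfl⟩ := hp
    rw [Finset.mem_image] at hM
    obtain ⟨g, hg, rfl⟩ := hM
    rw [hgood, Finset.mem_filter] at hg
    rw [Finset.mem_product]
    exact ⟨hg.2, hdet g⟩
  have hc : (good.image ρ).card ≤ 2 * (Y.card * E.card) := by
    calc (good.image ρ).card ≤ 2 * ((good.image ρ).image τ).card :=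
          Finset.card_le_mul_card_image _ 2 hfib
      _ ≤ 2 * (Y ×ˢ E).card := Nat.mul_le_mul_left 2 (Finset.card_le_card hsub)
      _ = 2 * (Y.card * E.card) := by rw [Finset.card_product]
  have := traceBound_card_range_le ρ good _ hS hc
  calc Nat.card ρ.range ≤ 2 * (2 * (Y.card * E.card)) := this
    _ = 4 * Y.card * E.card := by ring

/-- an eigenvalue of a `2 × 2` matrix satisfies the characteristic equation -/
theorem traceBound_eigen_charpoly {K : Type*} [Field K] (M : Matrix (Fin 2) (Fin 2) K)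
    (v : Fin 2 → K) (hv : v ≠ 0) (c : K) (h : M.mulVec v = c • v) :
    c * c - M.trace * c + M.det = 0 := by
  have h0 : (M - c • (1 : Matrix (Fin 2) (Fin 2) K)).mulVec v = 0 := by
    rw [Matrix.sub_mulVec, h, Matrix.smul_mulVec, Matrix.one_mulVec, sub_self]
  have hdet : (M - c • (1 : Matrix (Fin 2) (Fin 2) K)).det = 0 :=
    Matrix.exists_mulVec_eq_zero_iff.mp ⟨v, hv, h0⟩
  rw [Matrix.det_fin_two] at hdet
  simp only [Matrix.sub_apply, Matrix.smul_apply, Matrix.one_apply_eq, smul_eq_mul, mul_one,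
    Matrix.one_apply_ne (show (0 : Fin 2) ≠ 1 by decide),
    Matrix.one_apply_ne (show (1 : Fin 2) ≠ 0 by decide), mul_zero, sub_zero] at hdet
  rw [Matrix.trace_fin_two, Matrix.det_fin_two]
  linear_combination hdet

/-- over an algebraically closed field, a group of `2 × 2` matrices which does not span the
matrix algebra has a common eigenvector (Burnside) -/
theorem traceBound_exists_eigen {K : Type*} [Field K] [IsAlgClosed K] {G : Type*} [Group G]
    (ρ : G →* GL (Fin 2) K)
    (hspan : Submodule.span K (Set.range fun g : G => (ρ g : Matrix (Fin 2) (Fin 2) K)) ≠ ⊤) :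
    ∃ v : Fin 2 → K, v ≠ 0 ∧ ∀ g : G, ∃ c : K,
      (ρ g : Matrix (Fin 2) (Fin 2) K).mulVec v = c • v := by
  classical
  by_contra hno
  apply hspan
  set Φ : Matrix (Fin 2) (Fin 2) K ≃ₐ[K] Module.End K (Fin 2 → K) := Matrix.toLinAlgEquiv'
    with hΦ
  let μ : G →* Module.End K (Fin 2 → K) :=
    (Φ : Matrix (Fin 2) (Fin 2) K →* Module.End K (Fin 2 → K)).comp
      ((Units.coeHom (Matrix (Fin 2) (Fin 2) K)).comp ρ)
  have hμ : ∀ g : G, μ g = Φ (ρ g : Matrix (Fin 2) (Fin 2) K) := fun g => rfl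
  set B : Subalgebra K (Module.End K (Fin 2 → K)) :=
    Algebra.adjoin K ((MonoidHom.mrange μ : Submonoid (Module.End K (Fin 2 → K))) :
      Set (Module.End K (Fin 2 → K))) with hB
  have irr : ∀ U : Submodule K (Fin 2 → K), (∀ b ∈ B, ∀ x ∈ U, b x ∈ U) → U = ⊥ ∨ U = ⊤ := by
    intro U hU
    by_contra hcon
    rw [not_or] at hcon
    obtain ⟨hbot, htop⟩ := hcon
    have h1 : 0 < Module.finrank K U := Module.finrank_pos_iff.mpr
      ((Submodule.nontrivial_iff_ne_bot).mpr hbot)
    have h2 : Module.finrank K U < 2 := by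
      have := Submodule.finrank_lt htop
      rw [Module.finrank_fintype_fun_eq_card, Fintype.card_fin] at this
      exact this
    have h3 : Module.finrank K U = 1 := by omega
    obtain ⟨v, hv, hvspan⟩ := finrank_eq_one_iff'.mp h3
    apply hno
    refine ⟨(v : Fin 2 → K), fun h => hv (Subtype.ext h), fun g => ?_⟩
    have hmem : μ g ∈ B := Algebra.subset_adjoin ⟨g, rfl⟩
    have hx := hU (μ g) hmem (v : Fin 2 → K) v.2
    obtain ⟨c, hc⟩ := hvspan ⟨_, hx⟩
    refine ⟨c, ?_⟩
    have h5 : c • (v : Fin 2 → K) = μ g (v : Fin 2 → K) := congrArg Subtype.val hc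
    rw [h5, hμ, hΦ, Matrix.toLinAlgEquiv'_apply]
  have hBtop : B = ⊤ := Fermat.Agent.S42.burnside_subalgebra_eq_top B irr
  have hBspan : Subalgebra.toSubmodule B
      = Submodule.map Φ.toLinearMap
        (Submodule.span K (Set.range fun g : G => (ρ g : Matrix (Fin 2) (Fin 2) K))) := by
    rw [hB, Algebra.adjoin_eq_span, Submonoid.closure_eq, Submodule.map_span]
    congr 1
    ext x
    constructor
    · rintro ⟨g, rfl⟩
      exact ⟨_, ⟨g, rfl⟩, rfl⟩
    · rintro ⟨_, ⟨g, rfl⟩, rfl⟩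
      exact ⟨g, rfl⟩
  rw [eq_top_iff]
  intro X _
  have hX : Φ X ∈ Subalgebra.toSubmodule B := by
    rw [hBtop]
    trivial
  rw [hBspan] at hX
  obtain ⟨X', hX', hXX'⟩ := hX
  have : X' = X := Φ.injective hXX'
  exact this ▸ hX'

/-- the diagonal matrix with entries `a`, `d` -/
theorem traceBound_diag_det {K : Type*} [Field K] (a d : K) :
    (!![a, 0; 0, d] : Matrix (Fin 2) (Fin 2) K).det = a * d := by
  rw [Matrix.det_fin_two_of]
  ring

theorem traceBound_diag_mul {K : Type*} [Field K] (a d a' d' : K) :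
    (!![a, 0; 0, d] : Matrix (Fin 2) (Fin 2) K) * !![a', 0; 0, d'] = !![a * a', 0; 0, d * d'] := by
  ext i j
  fin_cases i <;> fin_cases j <;> simp [Matrix.mul_apply, Fin.sum_univ_two]

/-- (GT', semisimplification). -/
theorem stmtSemi : StmtSemi := by
  intro K _ _ G _ ρ
  classical
  by_cases hspan :
      Submodule.span K (Set.range fun g : G => (ρ g : Matrix (Fin 2) (Fin 2) K)) = ⊤
  · exact ⟨ρ, fun g h => h, fun g => ⟨rfl, rfl⟩, Or.inl hspan⟩
  · obtain ⟨v, hv, hev⟩ := traceBound_exists_eigen ρ hspan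
    choose c hc using hev
    have hinj : ∀ a b : K, a • v = b • v → a = b := fun a b h => smul_left_injective K hv h
    have hc1 : c 1 = 1 := by
      apply hinj
      rw [← hc 1, map_one, Units.val_one, Matrix.one_mulVec, one_smul]
    have hcmul : ∀ g h : G, c (g * h) = c g * c h := by
      intro g h
      apply hinj
      rw [← hc (g * h), map_mul, Units.val_mul, ← Matrix.mulVec_mulVec, hc h, Matrix.mulVec_smul,
        hc g, smul_smul, mul_comm]
    have hcne : ∀ g : G, c g ≠ 0 := by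
      intro g h0
      have := hcmul g g⁻¹
      rw [mul_inv_cancel, hc1, h0, zero_mul] at this
      exact one_ne_zero this
    have hdetne : ∀ g : G, Matrix.det (ρ g : Matrix (Fin 2) (Fin 2) K) ≠ 0 := fun g =>
      ((Matrix.isUnit_iff_isUnit_det _).mp (ρ g).isUnit).ne_zero
    set d : G → K := fun g => Matrix.det (ρ g : Matrix (Fin 2) (Fin 2) K) / c g with hd
    have hdne : ∀ g : G, d g ≠ 0 := fun g => div_ne_zero (hdetne g) (hcne g)
    have hdmul : ∀ g h : G, d (g * h) = d g * d h := by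
      intro g h
      simp only [hd]
      rw [map_mul, Units.val_mul, Matrix.det_mul, hcmul, mul_div_mul_comm]
    have hcd : ∀ g : G, c g * d g = Matrix.det (ρ g : Matrix (Fin 2) (Fin 2) K) := by
      intro g
      simp only [hd]
      rw [mul_div_cancel₀ _ (hcne g)]
    have htr : ∀ g : G, c g + d g = Matrix.trace (ρ g : Matrix (Fin 2) (Fin 2) K) := by
      intro g
      have h1 := traceBound_eigen_charpoly (ρ g : Matrix (Fin 2) (Fin 2) K) v hv (c g) (hc g)
      rw [← hcd g] at h1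
      have h2 : c g * (c g + d g - Matrix.trace (ρ g : Matrix (Fin 2) (Fin 2) K)) = 0 := by
        linear_combination h1
      rcases mul_eq_zero.mp h2 with h | h
      · exact absurd h (hcne g)
      · exact sub_eq_zero.mp h
    let ρ' : G →* GL (Fin 2) K := MonoidHom.mk'
      (fun g => Matrix.GeneralLinearGroup.mkOfDetNeZero !![c g, 0; 0, d g]
        (by rw [traceBound_diag_det]; exact mul_ne_zero (hcne g) (hdne g)))
      (by
        intro g h
        apply Units.ext
        show (!![c (g * h), 0; 0, d (g * h)] : Matrix (Fin 2) (Fin 2) K)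
          = !![c g, 0; 0, d g] * !![c h, 0; 0, d h]
        rw [traceBound_diag_mul, hcmul, hdmul])
    have hρ' : ∀ g : G, (ρ' g : Matrix (Fin 2) (Fin 2) K) = !![c g, 0; 0, d g] := fun g => rfl
    refine ⟨ρ', ?_, ?_, Or.inr ?_⟩
    · intro g hg
      apply Units.ext
      rw [hρ', Units.val_one]
      have hcg : c g = 1 := by
        apply hinj
        rw [← hc g, hg, Units.val_one, Matrix.one_mulVec, one_smul]
      have hdg : d g = 1 := by
        simp only [hd]
        rw [hg, Units.val_one, Matrix.det_one, hcg, div_one]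
      rw [hcg, hdg]
      ext i j
      fin_cases i <;> fin_cases j <;> simp
    · intro g
      rw [hρ']
      refine ⟨?_, ?_⟩
      · rw [Matrix.trace_fin_two_of, htr]
      · rw [traceBound_diag_det, hcd]
    · intro g
      rw [hρ']
      exact ⟨rfl, rfl⟩

end Fermat.Agent.S48


end ZBZ4S48_007_0

/-! ### bundled: `Fermat.Agent.S48.Irred` -/
section ZBZ4S48_007_1

/-!
# S48, piece IRR (step 8): the representation attached to `f` is irreducible

`stmtIrred : StmtIrred`.  If `ρ : G_ℚ → GL₂(ℂ)` (of finite level, `tr ρ(Frob_p) = a_p` for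
`p ∤ N`) is not irreducible, it has a common eigenvector, so `tr ρ = χ₁ + χ₂` with two characters
of the finite group `G = Gal(F/ℚ)` and `∑_g ‖tr ρ(g)‖² = 2 #G + 2 Re ∑_g χ₁ χ̄₂ ≥ 2 #G`
(`irred_sum_normSq_trace_ge`).  On the other hand Chebotarev's density theorem applied to the
level sets of `‖tr ρ‖²` and Rankin's bound `∑_p ‖a_p‖² p^{-s} ≤ log (1/(s-1)) + C'`
(`qCoeff_prime_sum_le`) give `∑_g ‖tr ρ(g)‖² ≤ #G` (`irred_mean_le_one`).
-/

set_option autoImplicit false
set_option linter.style.haveILetI false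

open CongruenceSubgroup

namespace Fermat.Agent.S48

/-- a two dimensional matrix representation without a common eigenvector is irreducible -/
theorem irred_isIrreducible_of_no_eigen {k : Type} [Field k] {G : Type} [Group G]
    (ρ : G →* GL (Fin 2) k)
    (h : ¬ ∃ v : Fin 2 → k, v ≠ 0 ∧ ∀ g : G, ∃ c : k,
      (ρ g : Matrix (Fin 2) (Fin 2) k).mulVec v = c • v) :
    (Deformation.matrixRepresentation ρ).IsIrreducible := by
  refine { exists_pair_ne := ⟨⊥, ⊤, ?_⟩, eq_bot_or_eq_top := ?_ }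
  · intro hbt
    have h1 : (⊥ : Submodule k (Fin 2 → k)) = ⊤ :=
      congrArg Subrepresentation.toSubmodule hbt
    exact bot_ne_top h1
  · intro σ
    by_contra hcon
    rw [not_or] at hcon
    obtain ⟨hbot, htop⟩ := hcon
    have hbot' : σ.toSubmodule ≠ ⊥ := fun h0 =>
      hbot (Subrepresentation.toSubmodule_injective h0)
    have htop' : σ.toSubmodule ≠ ⊤ := fun h0 =>
      htop (Subrepresentation.toSubmodule_injective h0)
    have h1 : 0 < Module.finrank k σ.toSubmodule := Module.finrank_pos_iff.mpr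
      ((Submodule.nontrivial_iff_ne_bot).mpr hbot')
    have h2 : Module.finrank k σ.toSubmodule < 2 := by
      have := Submodule.finrank_lt htop'
      rw [Module.finrank_fintype_fun_eq_card, Fintype.card_fin] at this
      exact this
    have h3 : Module.finrank k σ.toSubmodule = 1 := by omega
    obtain ⟨v, hv, hvspan⟩ := finrank_eq_one_iff'.mp h3
    apply h
    refine ⟨(v : Fin 2 → k), fun h0 => hv (Subtype.ext h0), fun g => ?_⟩
    have hx := σ.apply_mem_toSubmodule g v.2
    obtain ⟨c, hc⟩ := hvspan ⟨_, hx⟩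
    refine ⟨c, ?_⟩
    have h5 : c • (v : Fin 2 → k) = Deformation.matrixRepresentation ρ g (v : Fin 2 → k) :=
      congrArg Subtype.val hc
    rw [h5, Deformation.matrixRepresentation_apply, Matrix.mulVecLin_apply]

/-- the sum of the values of a multiplicative function `G → ℂ` has nonnegative real part -/
theorem irred_re_sum_nonneg {G : Type} [Group G] [Fintype G] (ψ : G → ℂ)
    (hmul : ∀ g h : G, ψ (g * h) = ψ g * ψ h) :
    0 ≤ (∑ g : G, ψ g).re := by
  by_cases htriv : ∀ g : G, ψ g = 1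
  · simp only [htriv, Finset.sum_const, Finset.card_univ, nsmul_eq_mul, mul_one]
    simp
  · rw [not_forall] at htriv
    obtain ⟨h, hh⟩ := htriv
    have hsum : ψ h * ∑ g : G, ψ g = ∑ g : G, ψ g := by
      rw [Finset.mul_sum]
      simp only [← hmul]
      exact Fintype.sum_bijective (fun g => h * g) (Group.mulLeft_bijective h) _ _
        (fun g => rfl)
    have h0 : (ψ h - 1) * ∑ g : G, ψ g = 0 := by
      rw [sub_mul, hsum, one_mul, sub_self]
    rcases mul_eq_zero.mp h0 with h2 | h2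
    · exact absurd (sub_eq_zero.mp h2) hh
    · rw [h2]
      simp

/-- **Lemma A.**  A representation of a finite group on `ℂ²` with a common eigenvector has mean
square trace at least `2`. -/
theorem irred_sum_normSq_trace_ge {G : Type} [Group G] [Fintype G] (ρ : G →* GL (Fin 2) ℂ)
    (v : Fin 2 → ℂ) (hv : v ≠ 0)
    (hev : ∀ g : G, ∃ c : ℂ, (ρ g : Matrix (Fin 2) (Fin 2) ℂ).mulVec v = c • v) :
    2 * (Fintype.card G : ℝ) ≤
      ∑ g : G, ‖Matrix.trace (ρ g : Matrix (Fin 2) (Fin 2) ℂ)‖ ^ 2 := by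
  classical
  choose c hc using hev
  have hinj : ∀ a b : ℂ, a • v = b • v → a = b := fun a b h => smul_left_injective ℂ hv h
  have hc1 : c 1 = 1 := by
    apply hinj
    rw [← hc 1, map_one, Units.val_one, Matrix.one_mulVec, one_smul]
  have hcmul : ∀ g h : G, c (g * h) = c g * c h := by
    intro g h
    apply hinj
    rw [← hc (g * h), map_mul, Units.val_mul, ← Matrix.mulVec_mulVec, hc h, Matrix.mulVec_smul,
      hc g, smul_smul, mul_comm]
  have hcne : ∀ g : G, c g ≠ 0 := by
    intro g h0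
    have := hcmul g g⁻¹
    rw [mul_inv_cancel, hc1, h0, zero_mul] at this
    exact one_ne_zero this
  have hdetne : ∀ g : G, Matrix.det (ρ g : Matrix (Fin 2) (Fin 2) ℂ) ≠ 0 := fun g =>
    ((Matrix.isUnit_iff_isUnit_det _).mp (ρ g).isUnit).ne_zero
  set d : G → ℂ := fun g => Matrix.det (ρ g : Matrix (Fin 2) (Fin 2) ℂ) / c g with hd
  have hd1 : d 1 = 1 := by
    simp only [hd]
    rw [map_one, Units.val_one, Matrix.det_one, hc1, div_one]
  have hdmul : ∀ g h : G, d (g * h) = d g * d h := by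
    intro g h
    simp only [hd]
    rw [map_mul, Units.val_mul, Matrix.det_mul, hcmul, mul_div_mul_comm]
  have hcd : ∀ g : G, c g * d g = Matrix.det (ρ g : Matrix (Fin 2) (Fin 2) ℂ) := by
    intro g
    simp only [hd]
    rw [mul_div_cancel₀ _ (hcne g)]
  have htr : ∀ g : G, Matrix.trace (ρ g : Matrix (Fin 2) (Fin 2) ℂ) = c g + d g := by
    intro g
    have h1 := traceBound_eigen_charpoly (ρ g : Matrix (Fin 2) (Fin 2) ℂ) v hv (c g) (hc g)
    rw [← hcd g] at h1
    have h2 : c g * (c g + d g - Matrix.trace (ρ g : Matrix (Fin 2) (Fin 2) ℂ)) = 0 := by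
      linear_combination h1
    rcases mul_eq_zero.mp h2 with h | h
    · exact absurd h (hcne g)
    · exact (sub_eq_zero.mp h).symm
  -- absolute values
  have hpow : ∀ (ψ : G → ℂ), (∀ g h : G, ψ (g * h) = ψ g * ψ h) → ψ 1 = 1 →
      ∀ g : G, ‖ψ g‖ = 1 := by
    intro ψ hmul h1 g
    have hpw : ∀ n : ℕ, ψ (g ^ n) = ψ g ^ n := by
      intro n
      induction n with
      | zero => rw [pow_zero, pow_zero, h1]
      | succ n ih => rw [pow_succ, hmul, ih, pow_succ]
    have h2 : ψ g ^ Fintype.card G = 1 := by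
      rw [← hpw, pow_card_eq_one, h1]
    exact Complex.norm_eq_one_of_pow_eq_one h2 Fintype.card_ne_zero
  have hcn := hpow c hcmul hc1
  have hdn := hpow d hdmul hd1
  -- the cross term
  set ψ : G → ℂ := fun g => c g * (starRingEnd ℂ) (d g) with hψ
  have hψmul : ∀ g h : G, ψ (g * h) = ψ g * ψ h := by
    intro g h
    simp only [hψ]
    rw [hcmul, hdmul, map_mul]
    ring
  have hre := irred_re_sum_nonneg ψ hψmul
  have hterm : ∀ g : G, ‖Matrix.trace (ρ g : Matrix (Fin 2) (Fin 2) ℂ)‖ ^ 2 =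
      2 + 2 * (ψ g).re := by
    intro g
    rw [htr, ← Complex.normSq_eq_norm_sq, Complex.normSq_add, Complex.normSq_eq_norm_sq,
      Complex.normSq_eq_norm_sq, hcn, hdn]
    simp only [hψ]
    ring
  simp only [hterm]
  rw [Finset.sum_add_distrib, ← Finset.mul_sum, Finset.sum_const, Finset.card_univ,
    nsmul_eq_mul]
  have : (∑ g : G, (ψ g).re) = (∑ g : G, ψ g).re := (Complex.re_sum _ _).symm
  rw [this]
  linarith


/-- **Lemma B.**  Chebotarev's density theorem against a Rankin bound: a nonnegative class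
function `Φ` on `Gal(F/ℚ)` whose values at the Frobenius elements are `a p`, with
`∑_{p ∈ P} a p · p^{-s} ≤ log (1/(s-1)) + C'`, has mean at most `1`. -/
theorem irred_mean_le_one (hCD : StmtChebDensity) (hFrob : StmtFrobExists)
    (F : IntermediateField ℚ (AlgebraicClosure ℚ)) [FiniteDimensional ℚ F] [IsGalois ℚ F]
    [Fintype (F ≃ₐ[ℚ] F)]
    (S : Finset ℕ) (Φ : (F ≃ₐ[ℚ] F) → ℝ) (hΦ0 : ∀ g, 0 ≤ Φ g)
    (hΦconj : ∀ g σ : F ≃ₐ[ℚ] F, Φ (g * σ * g⁻¹) = Φ σ)
    (a : ℕ → ℝ)
    (ha : ∀ p : ℕ, p.Prime → p ∉ S →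
      ∀ A : ValuationSubring (AlgebraicClosure ℚ), A.LiesOverPrime p →
        ∀ τ : GalQ, A.IsFrobeniusAt τ p → Φ (resF F τ) = a p)
    (C' : ℝ)
    (hR : ∀ s : ℝ, 1 < s → s ≤ 2 → ∀ P : Finset ℕ, (∀ p ∈ P, p.Prime ∧ p ∉ S) →
      ∑ p ∈ P, a p * (p : ℝ) ^ (-s) ≤ Real.log (1 / (s - 1)) + C') :
    ∑ g : F ≃ₐ[ℚ] F, Φ g ≤ (Fintype.card (F ≃ₐ[ℚ] F) : ℝ) := by
  classical
  by_contra hcon
  rw [not_le] at hcon
  have hn0 : (0 : ℝ) < (Fintype.card (F ≃ₐ[ℚ] F) : ℝ) := by
    exact_mod_cast Fintype.card_pos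
  set n : ℝ := (Fintype.card (F ≃ₐ[ℚ] F) : ℝ) with hn
  set T : Finset ℝ := Finset.univ.image Φ with hT
  have hT0 : ∀ t ∈ T, 0 ≤ t := by
    intro t ht
    rw [hT, Finset.mem_image] at ht
    obtain ⟨g, -, rfl⟩ := ht
    exact hΦ0 g
  set sT : ℝ := ∑ t ∈ T, t with hsT
  have hsT0 : 0 ≤ sT := Finset.sum_nonneg hT0
  set m : ℝ := (∑ g : F ≃ₐ[ℚ] F, Φ g) / n with hm
  have hm1 : 1 < m := by
    rw [hm, lt_div_iff₀ hn0, one_mul]
    exact hcon
  set δ : ℝ := (m - 1) / (2 * (sT + 1)) with hδ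
  have hδ0 : 0 < δ := div_pos (by linarith) (by linarith)
  have hδT : δ * sT ≤ (m - 1) / 2 := by
    rw [hδ, div_mul_eq_mul_div, div_le_iff₀ (by linarith)]
    have : 0 ≤ (m - 1) := by linarith
    nlinarith
  set C : ℝ → Set (F ≃ₐ[ℚ] F) := fun t => {g | Φ g = t} with hC
  have hconj : ∀ t : ℝ, ∀ g σ : F ≃ₐ[ℚ] F, σ ∈ C t → g * σ * g⁻¹ ∈ C t := by
    intro t g σ hσ
    have hσ' : Φ σ = t := hσ
    show Φ (g * σ * g⁻¹) = t
    rw [hΦconj, hσ']
  have hncard : ∀ t : ℝ, ((C t).ncard : ℝ)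
      = ((Finset.univ.filter (fun g : F ≃ₐ[ℚ] F => Φ g = t)).card : ℝ) := by
    intro t
    congr 1
    rw [Set.ncard_eq_toFinset_card']
    congr 1
    ext g
    simp [hC]
  have hCDt : ∀ t : ℝ, ∃ s₀ : ℝ, 1 < s₀ ∧ ∀ s : ℝ, 1 < s → s < s₀ →
      ∃ P : Finset ℕ,
        (∀ p ∈ P, p.Prime ∧ p ∉ S ∧
          ∀ A : ValuationSubring (AlgebraicClosure ℚ), A.LiesOverPrime p →
            ∀ τ : GalQ, A.IsFrobeniusAt τ p → AlgEquiv.restrictNormal τ F ∈ C t) ∧
        (((C t).ncard : ℝ) / (Nat.card (F ≃ₐ[ℚ] F) : ℝ) - δ) * Real.log (1 / (s - 1)) ≤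
          ∑ p ∈ P, (p : ℝ) ^ (-s) := fun t => hCD F S (C t) (hconj t) δ hδ0
  choose s₀ hs₀ hP using hCDt
  -- a common `s₁`
  obtain ⟨s₁, hs₁, hs₁2, hs₁le⟩ : ∃ s₁ : ℝ, 1 < s₁ ∧ s₁ ≤ 2 ∧ ∀ t ∈ T, s₁ ≤ s₀ t := by
    have hgen : ∀ T' : Finset ℝ, ∃ s₁ : ℝ, 1 < s₁ ∧ s₁ ≤ 2 ∧ ∀ t ∈ T', s₁ ≤ s₀ t := by
      intro T'
      induction T' using Finset.induction_on with
      | empty => exact ⟨2, one_lt_two, le_rfl, fun t ht => absurd ht (Finset.notMem_empty t)⟩
      | insert t₀ T' _ ih =>
        obtain ⟨s₁, h1, h2, h3⟩ := ih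
        refine ⟨min s₁ (s₀ t₀), lt_min h1 (hs₀ t₀), (min_le_left _ _).trans h2, fun t ht => ?_⟩
        rcases Finset.mem_insert.mp ht with rfl | ht
        · exact min_le_right _ _
        · exact (min_le_left _ _).trans (h3 t ht)
    exact hgen T
  have key : ∀ s : ℝ, 1 < s → s < s₁ → ((m - 1) / 2) * Real.log (1 / (s - 1)) ≤ C' := by
    intro s hs hss₁
    have hs2 : s < 2 := lt_of_lt_of_le hss₁ hs₁2
    have hL : 0 < Real.log (1 / (s - 1)) := by
      apply Real.log_pos
      rw [one_div, one_lt_inv₀ (by linarith)]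
      linarith
    set L : ℝ := Real.log (1 / (s - 1)) with hLdef
    have hPt : ∀ t : ℝ, t ∈ T → ∃ P : Finset ℕ,
        (∀ p ∈ P, p.Prime ∧ p ∉ S ∧
          ∀ A : ValuationSubring (AlgebraicClosure ℚ), A.LiesOverPrime p →
            ∀ τ : GalQ, A.IsFrobeniusAt τ p → AlgEquiv.restrictNormal τ F ∈ C t) ∧
        (((C t).ncard : ℝ) / (Nat.card (F ≃ₐ[ℚ] F) : ℝ) - δ) * L ≤
          ∑ p ∈ P, (p : ℝ) ^ (-s) :=
      fun t ht => hP t s hs (lt_of_lt_of_le hss₁ (hs₁le t ht))
    choose! P hP1 hP2 using hPt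
    -- values of `a` on `P t`
    have haP : ∀ t ∈ T, ∀ p ∈ P t, a p = t := by
      intro t ht p hp
      obtain ⟨hpp, hpS, hall⟩ := hP1 t ht p hp
      obtain ⟨A, τ, hA, hτ⟩ := hFrob p hpp
      have h1 := hall A hA τ hτ
      have h2 := ha p hpp hpS A hA τ hτ
      rw [resF_apply] at h2
      rw [← h2]
      exact h1
    have hdisj : (T : Set ℝ).PairwiseDisjoint P := by
      intro t ht t' ht' htt'
      rw [Function.onFun, Finset.disjoint_left]
      intro p hp hp'
      exact htt' ((haP t ht p hp).symm.trans (haP t' ht' p hp'))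
    have hsum1 : ∑ p ∈ T.biUnion P, a p * (p : ℝ) ^ (-s)
        = ∑ t ∈ T, t * ∑ p ∈ P t, (p : ℝ) ^ (-s) := by
      rw [Finset.sum_biUnion hdisj]
      refine Finset.sum_congr rfl fun t ht => ?_
      rw [Finset.mul_sum]
      exact Finset.sum_congr rfl fun p hp => by rw [haP t ht p hp]
    have hsum2 : ∑ t ∈ T, t * ((((C t).ncard : ℝ) / n - δ) * L)
        ≤ ∑ t ∈ T, t * ∑ p ∈ P t, (p : ℝ) ^ (-s) := by
      refine Finset.sum_le_sum fun t ht => ?_
      have := hP2 t ht
      rw [Nat.card_eq_fintype_card] at this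
      exact mul_le_mul_of_nonneg_left this (hT0 t ht)
    have hfib : ∑ t ∈ T, t * ((C t).ncard : ℝ) = ∑ g : F ≃ₐ[ℚ] F, Φ g := by
      have h1 : ∑ g : F ≃ₐ[ℚ] F, Φ g
          = ∑ t ∈ T, ∑ g ∈ Finset.univ.filter (fun g : F ≃ₐ[ℚ] F => Φ g = t), Φ g :=
        (Finset.sum_fiberwise_of_maps_to
          (fun g _ => Finset.mem_image_of_mem Φ (Finset.mem_univ g)) Φ).symm
      rw [h1]
      refine Finset.sum_congr rfl fun t _ => ?_
      rw [hncard, Finset.sum_congr rfl (fun g hg => (Finset.mem_filter.mp hg).2),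
        Finset.sum_const, nsmul_eq_mul, mul_comm]
    have hsum3 : ∑ t ∈ T, t * ((((C t).ncard : ℝ) / n - δ) * L) = (m - δ * sT) * L := by
      have : ∀ t ∈ T, t * ((((C t).ncard : ℝ) / n - δ) * L)
          = (L / n) * (t * ((C t).ncard : ℝ)) - (δ * L) * t := by
        intro t _
        field_simp
      rw [Finset.sum_congr rfl this, Finset.sum_sub_distrib, ← Finset.mul_sum, ← Finset.mul_sum,
        hfib, ← hsT, hm]
      field_simp
    have hR' := hR s hs hs2.le (T.biUnion P) (by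
      intro p hp
      rw [Finset.mem_biUnion] at hp
      obtain ⟨t, ht, hpt⟩ := hp
      exact ⟨(hP1 t ht p hpt).1, (hP1 t ht p hpt).2.1⟩)
    rw [hsum1] at hR'
    have h5 : (m - δ * sT) * L ≤ L + C' := by
      rw [← hsum3]
      exact hsum2.trans hR'
    nlinarith
  have := nonpos_of_mul_log_le hs₁ key
  linarith

/-- (IRR) -/
def StmtIrred : Prop :=
  StmtChebDensity → StmtFrobExists →
  ∀ (N : ℕ) [NeZero N] (ε : DirichletCharacter ℂ N) (f : CuspForm (Gamma1 N) 1),
    IsHeckeEigen N ε f → ∀ ρ : GalQ →* GL (Fin 2) ℂ, FiniteLevel ρ →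
      (∀ p : ℕ, p.Prime → ¬ p ∣ N →
        ∀ A : ValuationSubring (AlgebraicClosure ℚ), A.LiesOverPrime p →
          ∀ τ : GalQ, A.IsFrobeniusAt τ p →
            Matrix.trace (ρ τ : Matrix (Fin 2) (Fin 2) ℂ) = ModularFormClass.qCoeff f p) →
      (Deformation.matrixRepresentation ρ).IsIrreducible

/-- **(IRR)** the representation attached to `f` is irreducible. -/
theorem stmtIrred : StmtIrred := by
  intro hCD hFrob N _ ε f hf ρ hfin htr
  classical
  by_contra hirr
  have hev : ∃ v : Fin 2 → ℂ, v ≠ 0 ∧ ∀ σ : GalQ, ∃ c : ℂ,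
      (ρ σ : Matrix (Fin 2) (Fin 2) ℂ).mulVec v = c • v := by
    by_contra h
    exact hirr (irred_isIrreducible_of_no_eigen ρ h)
  obtain ⟨v, hv, hev⟩ := hev
  obtain ⟨F, hFfin, hFgal, hFker⟩ := hfin
  haveI := hFfin
  haveI := hFgal
  haveI : Finite (F ≃ₐ[ℚ] F) := finite_galF F
  letI : Fintype (F ≃ₐ[ℚ] F) := Fintype.ofFinite _
  obtain ⟨ρF, hρF⟩ := exists_factor F ρ hFker
  have hevF : ∀ g : F ≃ₐ[ℚ] F, ∃ c : ℂ,
      (ρF g : Matrix (Fin 2) (Fin 2) ℂ).mulVec v = c • v := by
    intro g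
    obtain ⟨σ, rfl⟩ := resF_surjective F g
    rw [hρF]
    exact hev σ
  have hA := irred_sum_normSq_trace_ge ρF v hv hevF
  obtain ⟨C', hC'⟩ := qCoeff_prime_sum_le N ε f hf.1 hf.2
  have hN : N ≠ 0 := NeZero.ne N
  have hB := irred_mean_le_one hCD hFrob F N.primeFactors
    (fun g => ‖Matrix.trace (ρF g : Matrix (Fin 2) (Fin 2) ℂ)‖ ^ 2)
    (fun g => sq_nonneg _)
    (fun g σ => by
      have h1 : (ρF (g * σ * g⁻¹) : Matrix (Fin 2) (Fin 2) ℂ) =
          (ρF g : Matrix (Fin 2) (Fin 2) ℂ) * (ρF σ : Matrix (Fin 2) (Fin 2) ℂ) *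
            ((ρF g)⁻¹ : GL (Fin 2) ℂ) := by
        rw [map_mul, map_mul, map_inv]
        rfl
      have h2 : (((ρF g)⁻¹ : GL (Fin 2) ℂ) : Matrix (Fin 2) (Fin 2) ℂ) *
          (ρF g : Matrix (Fin 2) (Fin 2) ℂ) = 1 := by
        rw [← Units.val_mul, inv_mul_cancel, Units.val_one]
      show ‖Matrix.trace (ρF (g * σ * g⁻¹) : Matrix (Fin 2) (Fin 2) ℂ)‖ ^ 2 = _
      rw [h1, Matrix.trace_mul_comm, ← mul_assoc, h2, one_mul])
    (fun p => ‖ModularFormClass.qCoeff f p‖ ^ 2)
    (fun p hp hpS A hA' τ hτ => by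
      have hpN : ¬ p ∣ N := fun hd => hpS (Nat.mem_primeFactors.mpr ⟨hp, hd, hN⟩)
      show ‖Matrix.trace (ρF (resF F τ) : Matrix (Fin 2) (Fin 2) ℂ)‖ ^ 2 = _
      rw [hρF, htr p hp hpN A hA' τ hτ])
    C'
    (fun s hs hs2 P hP => hC' s hs hs2 P fun p hp =>
      ⟨(hP p hp).1, fun hd => (hP p hp).2 (Nat.mem_primeFactors.mpr ⟨(hP p hp).1, hd, hN⟩)⟩)
  have hn0 : (0 : ℝ) < (Fintype.card (F ≃ₐ[ℚ] F) : ℝ) := by
    exact_mod_cast Fintype.card_pos
  linarith

end Fermat.Agent.S48


end ZBZ4S48_007_1
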