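/- GENERATED FILE (helper35, build-time optimisation, NOTES/ZB.md): verbatim concatenation of the modules
   Fermat.Agent.S48.LiftReg
   Do not edit; do not import together with these modules. -/
import Mathlib

/-! ### bundled: `Fermat.Agent.S48.LiftReg` -/
section ZBZ4S48_010_0
/-
S48, piece LIFT, part C (helper65): the regular representation with matrix coefficients.

`I = G × Fin d`.  For `m : G → M_d(S)` the matrix `convMat m` ("right multiplication by
`Σ m(g) g`") commutes with the left shifts `shift h`.  Over a field `k` in which `#G` is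
invertible and for `ρbar : G →* GL_d(k)` the matrix `ebar = convMat ((#G)⁻¹ ρbar)` is idempotent
and its image is, `G`-equivariantly, `k^d` with the action `ρbar` (maps `sbar`, `pibar`).
-/

set_option autoImplicit false
set_option linter.unusedSectionVars false

open Polynomial

namespace Fermat.Agent.S48

section Reg

variable {G : Type} [Group G] [Fintype G] [DecidableEq G] {d : ℕ}
variable {S : Type*} [CommRing S]

/-- the matrix of "right multiplication by `Σ m(g) g`" on `S^(G × d)` -/
def convMat (m : G → Matrix (Fin d) (Fin d) S) : Matrix (G × Fin d) (G × Fin d) S :=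
  Matrix.of fun a b => m (a.1⁻¹ * b.1) a.2 b.2

@[simp] theorem convMat_apply (m : G → Matrix (Fin d) (Fin d) S) (a b : G × Fin d) :
    convMat m a b = m (a.1⁻¹ * b.1) a.2 b.2 := rfl

/-- the left shift by `h` on functions -/
def shift (S : Type*) [CommRing S] (d : ℕ) (h : G) : (G × Fin d → S) →ₗ[S] (G × Fin d → S) :=
  LinearMap.funLeft S S (fun a : G × Fin d => (h⁻¹ * a.1, a.2))

@[simp] theorem shift_apply (h : G) (f : G × Fin d → S) (a : G × Fin d) :
    shift S d h f a = f (h⁻¹ * a.1, a.2) := rfl

theorem shift_one : shift (G := G) S d 1 = LinearMap.id := by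
  refine LinearMap.ext fun f => funext fun a => ?_
  simp

theorem shift_mul (h h' : G) : shift S d (h * h') = shift S d h ∘ₗ shift S d h' := by
  refine LinearMap.ext fun f => funext fun a => ?_
  simp [mul_assoc]

/-- reindexing a sum over `G × Fin d` by a left translation -/
theorem sum_translate {M : Type*} [AddCommMonoid M] (h : G) (F : G × Fin d → M) :
    ∑ b, F b = ∑ b : G × Fin d, F (h * b.1, b.2) := by
  let ε : G × Fin d ≃ G × Fin d := Equiv.prodCongr (Equiv.mulLeft h) (Equiv.refl _)
  exact (Equiv.sum_comp ε F).symm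

theorem shift_comm_convMat (m : G → Matrix (Fin d) (Fin d) S) (h : G) :
    shift S d h ∘ₗ Matrix.toLin' (convMat m) = Matrix.toLin' (convMat m) ∘ₗ shift S d h := by
  refine LinearMap.ext fun f => funext fun a => ?_
  simp only [LinearMap.coe_comp, Function.comp_apply, shift_apply, Matrix.toLin'_apply,
    Matrix.mulVec, dotProduct, convMat_apply]
  rw [sum_translate h (fun b : G × Fin d => m (a.1⁻¹ * b.1) a.2 b.2 * f (h⁻¹ * b.1, b.2))]
  refine Finset.sum_congr rfl fun b _ => ?_
  simp only [inv_mul_cancel_left, mul_inv_rev, inv_inv, mul_assoc]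

/-- polynomials in `convMat m` commute with the shifts -/
theorem shift_comm_aeval (m : G → Matrix (Fin d) (Fin d) S) (h : G) (P : S[X]) :
    shift S d h ∘ₗ Matrix.toLin' (aeval (convMat m) P) =
      Matrix.toLin' (aeval (convMat m) P) ∘ₗ shift S d h := by
  induction P using Polynomial.induction_on' with
  | add p q hp hq =>
    rw [map_add, map_add, LinearMap.comp_add, LinearMap.add_comp, hp, hq]
  | monomial n a =>
    rw [aeval_monomial]
    induction n with
    | zero =>
      rw [pow_zero, mul_one, Algebra.algebraMap_eq_smul_one, map_smul, Matrix.toLin'_one]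
      refine LinearMap.ext fun f => funext fun b => ?_
      simp
    | succ n ih =>
      rw [pow_succ, ← mul_assoc, Matrix.toLin'_mul, ← LinearMap.comp_assoc, ih,
        LinearMap.comp_assoc, shift_comm_convMat, ← LinearMap.comp_assoc]

/-- the averaging map `(G × d → S) → (d → S)` attached to `r` -/
def pibar (r : G →* Matrix (Fin d) (Fin d) S) (c : S) : (G × Fin d → S) →ₗ[S] (Fin d → S) where
  toFun f := c • ∑ g : G, (r g).mulVec (fun i => f (g, i))
  map_add' f f' := by
    have h : ∀ g : G, (r g).mulVec (fun i => (f + f') (g, i)) =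
        (r g).mulVec (fun i => f (g, i)) + (r g).mulVec (fun i => f' (g, i)) := by
      intro g
      rw [← Matrix.mulVec_add]
      rfl
    rw [Finset.sum_congr rfl (fun g _ => h g), Finset.sum_add_distrib, smul_add]
  map_smul' a f := by
    have h : ∀ g : G, (r g).mulVec (fun i => (a • f) (g, i)) =
        a • (r g).mulVec (fun i => f (g, i)) := by
      intro g
      rw [← Matrix.mulVec_smul]
      rfl
    rw [Finset.sum_congr rfl (fun g _ => h g), ← Finset.smul_sum, RingHom.id_apply, smul_comm]

/-- the orbit map `(d → S) → (G × d → S)` attached to `r` -/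
def sbar (r : G →* Matrix (Fin d) (Fin d) S) : (Fin d → S) →ₗ[S] (G × Fin d → S) where
  toFun w := fun a => (r a.1⁻¹).mulVec w a.2
  map_add' w w' := by
    funext a
    simp [Matrix.mulVec_add]
  map_smul' a w := by
    funext b
    simp [Matrix.mulVec_smul]

theorem pibar_apply (r : G →* Matrix (Fin d) (Fin d) S) (c : S) (f : G × Fin d → S) :
    pibar r c f = c • ∑ g : G, (r g).mulVec (fun i => f (g, i)) := rfl

theorem sbar_apply (r : G →* Matrix (Fin d) (Fin d) S) (w : Fin d → S) (a : G × Fin d) :
    sbar r w a = (r a.1⁻¹).mulVec w a.2 := rfl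

theorem pibar_sbar (r : G →* Matrix (Fin d) (Fin d) S) (c : S)
    (hc : c * (Fintype.card G : S) = 1) (w : Fin d → S) : pibar r c (sbar r w) = w := by
  rw [pibar_apply]
  have h1 : ∀ g : G, (r g).mulVec (fun i => sbar r w (g, i)) = w := by
    intro g
    have : (fun i => sbar r w (g, i)) = (r g⁻¹).mulVec w := by
      funext i
      rfl
    rw [this, Matrix.mulVec_mulVec, ← map_mul, mul_inv_cancel, map_one, Matrix.one_mulVec]
  rw [Finset.sum_congr rfl (fun g _ => h1 g), Finset.sum_const, Finset.card_univ, ← Nat.cast_smul_eq_nsmul S,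
    smul_smul, hc, one_smul]

theorem sbar_pibar (r : G →* Matrix (Fin d) (Fin d) S) (c : S) (f : G × Fin d → S) :
    sbar r (pibar r c f) = Matrix.toLin' (convMat fun g => c • r g) f := by
  funext a
  rw [sbar_apply, pibar_apply, Matrix.mulVec_smul, Matrix.mulVec_sum]
  simp only [Matrix.mulVec_mulVec, ← map_mul, Matrix.toLin'_apply]
  simp only [Matrix.mulVec, dotProduct, convMat_apply, Pi.smul_apply, Finset.sum_apply,
    Matrix.smul_apply, smul_eq_mul, Fintype.sum_prod_type, Finset.mul_sum, mul_assoc]

theorem pibar_shift (r : G →* Matrix (Fin d) (Fin d) S) (c : S) (h : G) (f : G × Fin d → S) :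
    pibar r c (shift S d h f) = (r h).mulVec (pibar r c f) := by
  rw [pibar_apply, pibar_apply, Matrix.mulVec_smul, Matrix.mulVec_sum]
  congr 1
  simp only [Matrix.mulVec_mulVec, ← map_mul]
  rw [← Equiv.sum_comp (Equiv.mulLeft h)]
  refine Finset.sum_congr rfl fun g _ => ?_
  simp [shift_apply]

/-- `ebar` is idempotent -/
theorem ebar_idem (r : G →* Matrix (Fin d) (Fin d) S) (c : S)
    (hc : c * (Fintype.card G : S) = 1) :
    (convMat fun g => c • r g) * (convMat fun g => c • r g) = convMat fun g => c • r g := by
  apply Matrix.toLin'.injective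
  rw [Matrix.toLin'_mul]
  refine LinearMap.ext fun f => ?_
  rw [LinearMap.comp_apply, ← sbar_pibar, ← sbar_pibar, pibar_sbar r c hc]

/-- the image of `ebar` has dimension `d` -/
theorem ebar_finrank {k : Type*} [Field k] (r : G →* Matrix (Fin d) (Fin d) k) (c : k)
    (hc : c * (Fintype.card G : k) = 1) :
    Module.finrank k (LinearMap.range (Matrix.toLin' (convMat fun g => c • r g))) = d := by
  have h1 : Matrix.toLin' (convMat fun g => c • r g) = sbar r ∘ₗ pibar r c := by
    refine LinearMap.ext fun f => ?_
    rw [LinearMap.comp_apply, sbar_pibar]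
  have hsurj : Function.Surjective (pibar r c) := fun w => ⟨sbar r w, pibar_sbar r c hc w⟩
  have hinj : Function.Injective (sbar r) := by
    intro w w' h
    rw [← pibar_sbar r c hc w, ← pibar_sbar r c hc w', h]
  rw [h1, LinearMap.range_comp, LinearMap.range_eq_top.2 hsurj, Submodule.map_top,
    LinearMap.finrank_range_of_inj hinj, Module.finrank_fin_fun]

end Reg

end Fermat.Agent.S48


end ZBZ4S48_010_0
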