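/- GENERATED FILE (helper35, build-time optimisation, NOTES/ZB.md): verbatim concatenation of the modules
   Fermat.Agent.S48.LiftSplit
   Fermat.Agent.S48.LiftAbs
   Fermat.Agent.S48.LiftAbs2
   Fermat.Agent.S48.Lift0
   Fermat.Agent.S48.LiftStmt
   Fermat.Agent.S48.Reduced
   Fermat.Agent.S48.Reduced2
   Do not edit; do not import together with these modules. -/
import Mathlib
import Fermat.Agent.ZB.Z4S48_008
import Fermat.Agent.ZB.Z4S48_009
import Fermat.Agent.ZB.Z4S48_010
import Fermat.Agent.ZB.S48_002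
import Fermat.Agent.ZB.Z4S48_003
import Fermat.Agent.ZB.Z4S48_004
import Fermat.Agent.ZB.Z4S48_007
import Fermat.Agent.ZB.S48_003
import Fermat.Agent.ZB.S48_001
import Fermat.Agent.ZB.Z4S48_006
import Fermat.Agent.ZB.Cheb_002
import Fermat.Agent.ZB.Common_003

/-! ### bundled: `Fermat.Agent.S48.LiftSplit` -/
section ZBZ4S48_011_0
/-
S48, piece LIFT, part B (helper65): monic polynomials over the ring of all algebraic integers
split into linear factors; products of linear factors with unit differences are coprime.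
-/

set_option autoImplicit false

open Polynomial

namespace Fermat.Agent.S48

/-- every monic polynomial over `ℤ̄ = integralClosure ℤ ℂ` is a product of linear factors -/
theorem zbar_splits (Q : (integralClosure ℤ ℂ)[X]) (hQ : Q.Monic) :
    ∃ s : Multiset (integralClosure ℤ ℂ), Q = (s.map fun a => X - C a).prod := by
  classical
  set f : integralClosure ℤ ℂ →+* ℂ := algebraMap (integralClosure ℤ ℂ) ℂ with hf
  have hinj : Function.Injective f := Subtype.val_injective
  have hsp : (Q.map f).Splits := IsAlgClosed.splits _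
  have hmon : (Q.map f).Monic := hQ.map f
  have hroot : ∀ a ∈ (Q.map f).roots, a ∈ integralClosure ℤ ℂ := by
    intro a ha
    have h0 : (Q.map f).IsRoot a := (Polynomial.mem_roots hmon.ne_zero).1 ha
    have h1 : IsIntegral (integralClosure ℤ ℂ) a := by
      refine ⟨Q, hQ, ?_⟩
      rw [← Polynomial.eval_map]
      exact h0
    exact isIntegral_trans (R := ℤ) (A := integralClosure ℤ ℂ) a h1
  refine ⟨(Q.map f).roots.pmap (fun a ha => (⟨a, ha⟩ : integralClosure ℤ ℂ)) hroot, ?_⟩
  apply Polynomial.map_injective f hinj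
  rw [Polynomial.map_multiset_prod, Multiset.map_map, Multiset.map_pmap]
  have h2 : Multiset.pmap (fun a (_ : a ∈ integralClosure ℤ ℂ) =>
      (Polynomial.map f ∘ fun a => X - C a) (⟨a, ‹_›⟩ : integralClosure ℤ ℂ)) (Q.map f).roots hroot
      = (Q.map f).roots.map fun a => X - C a := by
    rw [Multiset.pmap_eq_map_attach]
    conv_rhs => rw [← Multiset.attach_map_val (Q.map f).roots, Multiset.map_map]
    refine Multiset.map_congr rfl fun a _ => ?_
    simp only [Function.comp_apply, Polynomial.map_sub, Polynomial.map_X, Polynomial.map_C]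
    rfl
  rw [h2]
  exact (hsp.eq_prod_roots_of_monic hmon)

/-- coprimality to a product -/
theorem isCoprime_multiset_prod_right' {A : Type*} [CommRing A] (x : A) (s : Multiset A)
    (h : ∀ y ∈ s, IsCoprime x y) : IsCoprime x s.prod := by
  induction s using Multiset.induction_on with
  | empty => simpa using isCoprime_one_right
  | cons a s ih =>
    rw [Multiset.prod_cons]
    exact IsCoprime.mul_right (h a (Multiset.mem_cons_self a s))
      (ih fun y hy => h y (Multiset.mem_cons_of_mem hy))

/-- products of linear factors with pairwise unit differences of roots are coprime -/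
theorem isCoprime_linear_prods {A : Type*} [CommRing A] (T₀ T₁ : Multiset A)
    (h : ∀ a ∈ T₀, ∀ b ∈ T₁, IsUnit (a - b)) :
    IsCoprime (T₀.map fun a => (X - C a : A[X])).prod (T₁.map fun a => (X - C a : A[X])).prod := by
  refine isCoprime_multiset_prod_right' _ _ fun y hy => ?_
  obtain ⟨b, hb, rfl⟩ := Multiset.mem_map.1 hy
  refine IsCoprime.symm (isCoprime_multiset_prod_right' _ _ fun z hz => ?_)
  obtain ⟨a, ha, rfl⟩ := Multiset.mem_map.1 hz
  exact (Polynomial.isCoprime_X_sub_C_of_isUnit_sub (h a ha b hb)).symm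

end Fermat.Agent.S48


end ZBZ4S48_011_0

/-! ### bundled: `Fermat.Agent.S48.LiftAbs` -/
section ZBZ4S48_011_1
/-
S48, piece LIFT, part D-final (helper65): from an idempotent lift of `ebar` commuting with the
shifts to a lifted representation with the right traces and determinants.
-/

set_option autoImplicit false
set_option linter.style.haveILetI false
set_option linter.unusedSectionVars false

open Polynomial

namespace Fermat.Agent.S48

section Abs

variable {R k : Type} [CommRing R] [Field k]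
variable {G : Type} [Group G] [Fintype G] [DecidableEq G] {d : ℕ}

/-- entrywise reduction of vectors -/
def redV (red : R →+* k) {I : Type} (v : I → R) : I → k := fun i => red (v i)

theorem redV_sum_smul (red : R →+* k) {I J : Type} [Fintype J] (a : J → R) (v : J → I → R) :
    redV red (∑ j, a j • v j) = ∑ j, red (a j) • redV red (v j) := by
  funext i
  simp [redV, Finset.sum_apply, map_sum, map_mul]

theorem redV_shift (red : R →+* k) (h : G) (v : G × Fin d → R) :
    redV red (shift R d h v) = shift k d h (redV red v) := rfl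

theorem redV_mulVec (red : R →+* k) {I : Type} [Fintype I] (e : Matrix I I R) (u : I → R) :
    redV red (e.mulVec u) = (e.map red).mulVec (redV red u) := by
  funext i
  exact RingHom.map_mulVec red e u i

theorem lift_of_idem [IsLocalRing R] (red : R →+* k) (hred : Function.Surjective red)
    (r : G →* Matrix (Fin d) (Fin d) k) (c : k) (hc : c * (Fintype.card G : k) = 1)
    (e : Matrix (G × Fin d) (G × Fin d) R) (he : e * e = e)
    (hred_e : e.map red = convMat fun g => c • r g)
    (hcomm : ∀ h : G, shift R d h ∘ₗ Matrix.toLin' e = Matrix.toLin' e ∘ₗ shift R d h) :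
    ∃ ρ : G →* Matrix (Fin d) (Fin d) R,
      ∀ g, red (ρ g).trace = (r g).trace ∧ red (ρ g).det = (r g).det := by
  classical
  set L := LinearMap.range (Matrix.toLin' e) with hL
  haveI : Module.Free R L := liftRank_free (liftRank_idem he)
  have hrank : Module.finrank R L = d := by
    rw [hL, liftRank_eq red hred e he, hred_e, ebar_finrank r c hc]
  let b : Module.Basis (Fin d) R L := Module.finBasisOfFinrankEq R L hrank
  -- invariance
  have hinv : ∀ h : G, ∀ v ∈ L, shift R d h v ∈ L := by
    rintro h v ⟨u, rfl⟩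
    exact ⟨shift R d h u, (congrArg (fun F => F u) (hcomm h)).symm⟩
  -- action on L
  let T : G →* Module.End R L :=
    { toFun := fun h => (shift R d h).restrict (hinv h)
      map_one' := by
        refine LinearMap.ext fun v => Subtype.ext ?_
        exact congrArg (fun F : (G × Fin d → R) →ₗ[R] (G × Fin d → R) =>
          F (v : G × Fin d → R)) (shift_one (G := G) (S := R) (d := d))
      map_mul' := fun h h' => by
        refine LinearMap.ext fun v => Subtype.ext ?_
        exact congrArg (fun F : (G × Fin d → R) →ₗ[R] (G × Fin d → R) =>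
          F (v : G × Fin d → R)) (shift_mul (S := R) (d := d) h h') }
  have hT : ∀ (h : G) (v : L), ((T h v : L) : G × Fin d → R) = shift R d h (v : G × Fin d → R) :=
    fun h v => rfl
  let ρ : G →* Matrix (Fin d) (Fin d) R :=
    ((LinearMap.toMatrixAlgEquiv b : Module.End R L ≃ₐ[R] Matrix (Fin d) (Fin d) R) :
      Module.End R L →* Matrix (Fin d) (Fin d) R).comp T
  have hρ : ∀ (h : G) (i j : Fin d), ρ h i j = b.repr (T h (b j)) i := fun h i j =>
    LinearMap.toMatrixAlgEquiv_apply b (T h) i j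
  -- the key expansion
  have hexp : ∀ (h : G) (j : Fin d),
      shift R d h (b j : G × Fin d → R) = ∑ i, ρ h i j • (b i : G × Fin d → R) := by
    intro h j
    have h1 := b.sum_repr (T h (b j))
    have h2 := congrArg (fun z : L => (z : G × Fin d → R)) h1
    simp only [Submodule.coe_sum, Submodule.coe_smul] at h2
    rw [← hT h (b j), ← h2]
    refine Finset.sum_congr rfl fun i _ => ?_
    rw [hρ]
  -- the reduced basis vectors
  set cv : Fin d → (Fin d → k) := fun j => pibar r c (redV red (b j : G × Fin d → R)) with hcv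
  set C : Matrix (Fin d) (Fin d) k := Matrix.of fun i j => cv j i with hC
  have hkey : ∀ (h : G) (j : Fin d), (r h).mulVec (cv j) = ∑ i, red (ρ h i j) • cv i := by
    intro h j
    rw [hcv]
    simp only
    rw [← pibar_shift, ← redV_shift, hexp, redV_sum_smul, map_sum]
    refine Finset.sum_congr rfl fun i _ => ?_
    rw [map_smul]
  have hconj : ∀ h : G, r h * C = C * (ρ h).map red := by
    intro h
    ext i' j
    have := congrFun (hkey h j) i'
    simp only [Matrix.mulVec, dotProduct, Finset.sum_apply, Pi.smul_apply, smul_eq_mul] at this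
    simp only [Matrix.mul_apply, hC, Matrix.of_apply, Matrix.map_apply]
    rw [this]
    refine Finset.sum_congr rfl fun i _ => ?_
    rw [mul_comm]
  -- `C` is invertible
  have hCunit : IsUnit C := by
    rw [← Matrix.mulVec_surjective_iff_isUnit]
    intro w
    -- `sbar w` lies in the image of `ebar`
    have h1 : (e.map red).mulVec (sbar r w) = sbar r w := by
      rw [hred_e, ← Matrix.toLin'_apply, ← sbar_pibar, pibar_sbar r c hc]
    choose u hu using fun a => hred (sbar r w a)
    have hu' : redV red u = sbar r w := funext hu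
    have hmem : Matrix.toLin' e u ∈ L := LinearMap.mem_range_self _ u
    have h2 := b.sum_repr ⟨Matrix.toLin' e u, hmem⟩
    have h3 := congrArg (fun z : L => (z : G × Fin d → R)) h2
    simp only [Submodule.coe_sum, Submodule.coe_smul] at h3
    have h4 : sbar r w = ∑ j, red (b.repr ⟨Matrix.toLin' e u, hmem⟩ j) •
        redV red (b j : G × Fin d → R) := by
      rw [← redV_sum_smul, h3, Matrix.toLin'_apply, redV_mulVec, hu', h1]
    refine ⟨fun j => red (b.repr ⟨Matrix.toLin' e u, hmem⟩ j), ?_⟩
    have h5 : w = ∑ j, red (b.repr ⟨Matrix.toLin' e u, hmem⟩ j) • cv j := by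
      conv_lhs => rw [← pibar_sbar r c hc w, h4, map_sum]
      refine Finset.sum_congr rfl fun j _ => ?_
      rw [map_smul]
    conv_rhs => rw [h5]
    funext i
    simp only [Matrix.mulVec, dotProduct, hC, Matrix.of_apply, Finset.sum_apply, Pi.smul_apply,
      smul_eq_mul]
    refine Finset.sum_congr rfl fun j _ => ?_
    rw [mul_comm]
  refine ⟨ρ, fun g => ⟨?_, ?_⟩⟩
  · obtain ⟨Cu, hCu⟩ := hCunit
    have h1 : r g = (Cu : Matrix (Fin d) (Fin d) k) * (ρ g).map red *
        ((Cu⁻¹ : (Matrix (Fin d) (Fin d) k)ˣ) : Matrix (Fin d) (Fin d) k) := by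
      rw [hCu, ← hconj g, ← hCu, mul_assoc, Units.mul_inv, mul_one]
    rw [h1, Matrix.trace_units_conj, AddMonoidHom.map_trace]
  · have h1 := congrArg Matrix.det (hconj g)
    rw [Matrix.det_mul, Matrix.det_mul, mul_comm] at h1
    have h2 : C.det ≠ 0 := ((Matrix.isUnit_iff_isUnit_det C).1 hCunit).ne_zero
    rw [RingHom.map_det, RingHom.mapMatrix_apply]
    exact (mul_left_cancel₀ h2 h1).symm

end Abs

end Fermat.Agent.S48


end ZBZ4S48_011_1

/-! ### bundled: `Fermat.Agent.S48.LiftAbs2` -/
section ZBZ4S48_011_2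
/-
S48, piece LIFT, part D2 (helper65): construction of the idempotent lift by splitting the
characteristic polynomial, and the resulting abstract lifting theorem.
-/

set_option autoImplicit false
set_option linter.style.haveILetI false
set_option linter.unusedSectionVars false

open Polynomial

namespace Fermat.Agent.S48

section Abs2

variable {R k : Type} [CommRing R] [Field k]
variable {G : Type} [Group G] [Fintype G] [DecidableEq G] {d : ℕ}

theorem lift_abstract {Z : Type} [CommRing Z] [IsLocalRing R] (φ : Z →+* R) (red : R →+* k)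
    (hZ : Function.Surjective (red.comp φ))
    (hunit : ∀ x : R, red x ≠ 0 → IsUnit x)
    (hsplit : ∀ Q : Z[X], Q.Monic → ∃ s : Multiset Z, Q = (s.map fun a => X - C a).prod)
    (r : G →* Matrix (Fin d) (Fin d) k) (c : k) (hc : c * (Fintype.card G : k) = 1) :
    ∃ ρ : G →* Matrix (Fin d) (Fin d) R,
      ∀ g, red (ρ g).trace = (r g).trace ∧ red (ρ g).det = (r g).det := by
  classical
  have hred : Function.Surjective red := fun y => by
    obtain ⟨z, hz⟩ := hZ y
    exact ⟨φ z, hz⟩
  choose lift hlift using hZ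
  set m : G → Matrix (Fin d) (Fin d) Z := fun g => (c • r g).map lift with hm
  set mR : G → Matrix (Fin d) (Fin d) R := fun g => (m g).map φ with hmR
  have hmR_red : ∀ g i j, red (mR g i j) = (c • r g) i j := by
    intro g i j
    exact hlift _
  set xZ : Matrix (G × Fin d) (G × Fin d) Z := convMat m with hxZ
  set xR : Matrix (G × Fin d) (G × Fin d) R := convMat mR with hxRdef
  have hxR : xR = xZ.map φ := by
    ext a b
    rfl
  have hxk : xR.map red = convMat fun g => c • r g := by
    ext a b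
    exact hmR_red _ _ _
  obtain ⟨s, hs⟩ := hsplit xZ.charpoly (Matrix.charpoly_monic xZ)
  set p : Z → Prop := fun a => red (φ a) = 0 with hp
  set T₀ : Multiset R := 0 ::ₘ (s.filter p).map φ with hT₀
  set T₁ : Multiset R := 1 ::ₘ (s.filter (fun a => ¬ p a)).map φ with hT₁
  set P₀ : R[X] := (((s.filter p).map φ).map fun a => (X - C a : R[X])).prod with hP₀
  set P₁ : R[X] := (((s.filter fun a => ¬ p a).map φ).map fun a => (X - C a : R[X])).prod with hP₁
  have hP : xR.charpoly = P₀ * P₁ := by
    rw [hxR, Matrix.charpoly_map, hs, Polynomial.map_multiset_prod, hP₀, hP₁, ← Multiset.prod_add,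
      ← Multiset.map_add, ← Multiset.map_add, Multiset.filter_add_not, Multiset.map_map,
      Multiset.map_map]
    congr 1
    refine Multiset.map_congr rfl fun a _ => ?_
    simp
  have hcop : IsCoprime (X * P₀) ((X - 1) * P₁) := by
    have h1 : IsCoprime (T₀.map fun a => (X - C a : R[X])).prod
        (T₁.map fun a => (X - C a : R[X])).prod := by
      refine isCoprime_linear_prods T₀ T₁ ?_
      intro a ha b hb
      apply hunit
      have ha0 : red a = 0 := by
        rw [hT₀, Multiset.mem_cons] at ha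
        rcases ha with rfl | ha
        · exact map_zero red
        · obtain ⟨z, hz, rfl⟩ := Multiset.mem_map.1 ha
          exact (Multiset.mem_filter.1 hz).2
      have hb0 : red b ≠ 0 := by
        rw [hT₁, Multiset.mem_cons] at hb
        rcases hb with rfl | hb
        · rw [map_one]
          exact one_ne_zero
        · obtain ⟨z, hz, rfl⟩ := Multiset.mem_map.1 hb
          exact (Multiset.mem_filter.1 hz).2
      rw [map_sub, ha0, zero_sub, neg_ne_zero]
      exact hb0
    rw [hT₀, hT₁, Multiset.map_cons, Multiset.map_cons, Multiset.prod_cons, Multiset.prod_cons,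
      C_0, sub_zero, C_1] at h1
    exact h1
  have hx : aeval xR (X * P₀ * ((X - 1) * P₁)) = 0 := by
    have h1 : X * P₀ * ((X - 1) * P₁) = X * (X - 1) * (P₀ * P₁) := by ring
    rw [h1, map_mul, ← hP, Matrix.aeval_self_charpoly, mul_zero]
  obtain ⟨P, hPidem, hPψ⟩ := liftIdem_exists.{0, 0, 0} xR P₀ P₁ hcop hx
  letI : Algebra R k := red.toAlgebra
  let ψ : Matrix (G × Fin d) (G × Fin d) R →ₐ[R] Matrix (G × Fin d) (G × Fin d) k :=
    (Algebra.ofId R k).mapMatrix
  have hψ : ∀ M, ψ M = M.map red := fun M => rfl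
  have he_red : (aeval xR P).map red = convMat fun g => c • r g := by
    have h1 : ψ xR * ψ xR = ψ xR := by
      rw [hψ, hxk]
      exact ebar_idem r c hc
    have h2 := hPψ _ ψ h1
    rw [hψ, hψ, hxk] at h2
    exact h2
  exact lift_of_idem red hred r c hc (aeval xR P) hPidem he_red
    (fun h => shift_comm_aeval mR h P)

end Abs2

end Fermat.Agent.S48


end ZBZ4S48_011_2

/-! ### bundled: `Fermat.Agent.S48.Lift0` -/
section ZBZ4S48_011_3
/-
S48, piece LIFT (helper65): lifting a 2-dimensional representation of a finite group of order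
prime to the residue characteristic from `ℤ̄/𝔪` to `ℂ`, with integral traces and determinants
reducing to the given ones.

Route: idempotent lifting in the group algebra (uniformly; no case distinction).  With
`R = ℤ̄_𝔪` (a local ring with residue field `ℤ̄/𝔪`, embedded in `ℂ`) the averaging idempotent
`ebar` of `ρbar` inside `M_{G × 2}(ℤ̄/𝔪)` is lifted to an idempotent `e` of `M_{G × 2}(R)`
commuting with the regular action of `G`; the image of `e` is a free `R`-module of rank 2 with a
`G`-action whose reduction is conjugate to `ρbar`.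
-/

set_option autoImplicit false
set_option linter.style.haveILetI false
set_option linter.unusedSectionVars false

open Polynomial

namespace Fermat.Agent.S48

/-- trace and determinant of a complex matrix of finite order are algebraic integers -/
theorem finiteOrder_isIntegral {n : ℕ} (hn : 0 < n) (A : Matrix (Fin 2) (Fin 2) ℂ)
    (hA : A ^ n = 1) : IsIntegral ℤ A.trace ∧ IsIntegral ℤ A.det := by
  constructor
  · rw [Matrix.trace_eq_sum_roots_charpoly]
    refine IsIntegral.multiset_sum fun μ hμ => ?_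
    have h1 : A.charpoly.IsRoot μ :=
      (Polynomial.mem_roots (Matrix.charpoly_monic A).ne_zero).1 hμ
    have h2 : μ ∈ spectrum ℂ A := Matrix.mem_spectrum_iff_isRoot_charpoly.2 h1
    have h3 := spectrum.pow_mem_pow A n h2
    rw [hA, spectrum.one_eq, Set.mem_singleton_iff] at h3
    refine IsIntegral.of_pow hn ?_
    rw [h3]
    exact isIntegral_one
  · refine IsIntegral.of_pow hn ?_
    rw [← Matrix.det_pow, hA, Matrix.det_one]
    exact isIntegral_one

/-- **LIFT**: a representation `ρbar : G → GL₂(ℤ̄/𝔪)` of a finite group of order prime to the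
residue characteristic lifts to `ρ : G → GL₂(ℂ)` with integral traces and determinants reducing
to those of `ρbar`. -/
theorem lift_exists (𝔪 : Ideal (integralClosure ℤ ℂ)) [𝔪.IsMaximal] (G : Type) [Group G]
    [Finite G] (hG : ((Nat.card G : ℕ) : integralClosure ℤ ℂ) ∉ 𝔪)
    (ρbar : G →* GL (Fin 2) (integralClosure ℤ ℂ ⧸ 𝔪)) :
    ∃ ρ : G →* GL (Fin 2) ℂ, ∀ g : G, ∃ t d : integralClosure ℤ ℂ,
      (t : ℂ) = Matrix.trace (ρ g : Matrix (Fin 2) (Fin 2) ℂ) ∧
      Ideal.Quotient.mk 𝔪 t = Matrix.trace (ρbar g).val ∧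
      (d : ℂ) = Matrix.det (ρ g : Matrix (Fin 2) (Fin 2) ℂ) ∧
      Ideal.Quotient.mk 𝔪 d = Matrix.det (ρbar g).val := by
  classical
  letI : Fintype G := Fintype.ofFinite G
  letI : Field (integralClosure ℤ ℂ ⧸ 𝔪) := Ideal.Quotient.field 𝔪
  -- maps
  let φ : integralClosure ℤ ℂ →+* Localization.AtPrime 𝔪 :=
    algebraMap (integralClosure ℤ ℂ) (Localization.AtPrime 𝔪)
  have hgk : ∀ y : 𝔪.primeCompl, IsUnit (Ideal.Quotient.mk 𝔪 (y : integralClosure ℤ ℂ)) := by
    intro y
    rw [isUnit_iff_ne_zero, Ne, Ideal.Quotient.eq_zero_iff_mem]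
    exact y.2
  let red : Localization.AtPrime 𝔪 →+* (integralClosure ℤ ℂ ⧸ 𝔪) := IsLocalization.lift hgk
  have hredφ : ∀ z : integralClosure ℤ ℂ, red (φ z) = Ideal.Quotient.mk 𝔪 z :=
    fun z => IsLocalization.lift_eq hgk z
  have hZ : Function.Surjective (red.comp φ) := by
    intro y
    obtain ⟨z, rfl⟩ := Ideal.Quotient.mk_surjective y
    exact ⟨z, hredφ z⟩
  have hred : Function.Surjective red := fun y => by
    obtain ⟨z, hz⟩ := hZ y
    exact ⟨φ z, hz⟩
  have hunit : ∀ x : Localization.AtPrime 𝔪, red x ≠ 0 → IsUnit x := by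
    intro x hx
    have h1 : RingHom.ker red = IsLocalRing.maximalIdeal (Localization.AtPrime 𝔪) :=
      IsLocalRing.eq_maximalIdeal (RingHom.ker_isMaximal_of_surjective red hred)
    rw [← IsLocalRing.notMem_maximalIdeal, ← h1, RingHom.mem_ker]
    exact hx
  -- the inverse of `#G`
  have hcard : ((Fintype.card G : ℕ) : integralClosure ℤ ℂ ⧸ 𝔪) ≠ 0 := by
    have h1 : ((Fintype.card G : ℕ) : integralClosure ℤ ℂ ⧸ 𝔪) =
        Ideal.Quotient.mk 𝔪 ((Fintype.card G : ℕ) : integralClosure ℤ ℂ) :=
      (map_natCast _ _).symm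
    rw [h1, Ne, Ideal.Quotient.eq_zero_iff_mem, ← Nat.card_eq_fintype_card]
    exact hG
  let r : G →* Matrix (Fin 2) (Fin 2) (integralClosure ℤ ℂ ⧸ 𝔪) := (Units.coeHom _).comp ρbar
  obtain ⟨ρR, hρR⟩ := lift_abstract φ red hZ hunit zbar_splits r
    ((Fintype.card G : integralClosure ℤ ℂ ⧸ 𝔪))⁻¹ (inv_mul_cancel₀ hcard)
  -- to `ℂ`
  have hgC : ∀ y : 𝔪.primeCompl,
      IsUnit (algebraMap (integralClosure ℤ ℂ) ℂ (y : integralClosure ℤ ℂ)) := by
    intro y
    rw [isUnit_iff_ne_zero]
    intro h0
    have h1 : (y : integralClosure ℤ ℂ) = 0 := Subtype.ext h0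
    exact y.2 (h1 ▸ 𝔪.zero_mem)
  let ι : Localization.AtPrime 𝔪 →+* ℂ := IsLocalization.lift hgC
  have hιφ : ∀ z : integralClosure ℤ ℂ, ι (φ z) = (z : ℂ) := fun z => IsLocalization.lift_eq hgC z
  have hιinj : Function.Injective ι := by
    rw [IsLocalization.lift_injective_iff]
    intro x y
    constructor
    · intro h
      have := congrArg ι h
      rw [hιφ, hιφ] at this
      exact this
    · intro h
      have h1 : x = y := Subtype.ext h
      rw [h1]
  let ρC : G →* Matrix (Fin 2) (Fin 2) ℂ :=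
    (RingHom.mapMatrix ι :
      Matrix (Fin 2) (Fin 2) (Localization.AtPrime 𝔪) →+* Matrix (Fin 2) (Fin 2) ℂ).toMonoidHom.comp
      ρR
  have hρC : ∀ g, ρC g = (ρR g).map ι := fun g => rfl
  refine ⟨ρC.toHomUnits, fun g => ?_⟩
  have hpow : (ρC g) ^ Fintype.card G = 1 := by
    rw [← map_pow, pow_card_eq_one, map_one]
  obtain ⟨htr, hdet⟩ := finiteOrder_isIntegral Fintype.card_pos (ρC g) hpow
  have htr' : ι (ρR g).trace = (ρC g).trace := AddMonoidHom.map_trace ι (ρR g)
  have hdet' : ι (ρR g).det = (ρC g).det := RingHom.map_det ι (ρR g)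
  refine ⟨⟨(ρC g).trace, htr⟩, ⟨(ρC g).det, hdet⟩, ?_, ?_, ?_, ?_⟩
  · rw [MonoidHom.coe_toHomUnits]
  · have h1 : φ ⟨(ρC g).trace, htr⟩ = (ρR g).trace := hιinj (by rw [hιφ, htr'])
    rw [← hredφ, h1]
    exact (hρR g).1
  · rw [MonoidHom.coe_toHomUnits]
  · have h1 : φ ⟨(ρC g).det, hdet⟩ = (ρR g).det := hιinj (by rw [hιφ, hdet'])
    rw [← hredφ, h1]
    exact (hρR g).2

end Fermat.Agent.S48


end ZBZ4S48_011_3

/-! ### bundled: `Fermat.Agent.S48.LiftStmt` -/
section ZBZ4S48_011_4
/-
S48, piece LIFT (helper65): `stmtLift : StmtLift` (the statement of `Plan.lean`).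
-/

set_option autoImplicit false
set_option linter.style.haveILetI false

namespace Fermat.Agent.S48

/-- (LIFT) lifting to characteristic zero -/
theorem stmtLift : StmtLift := by
  intro 𝔪 h𝔪 G _ _ hG ρbar
  haveI := h𝔪
  exact lift_exists 𝔪 G hG ρbar

end Fermat.Agent.S48


end ZBZ4S48_011_4

/-! ### bundled: `Fermat.Agent.S48.Reduced` -/
section ZBZ4S48_011_5

/-!
# S48 (Deligne–Serre) reduced to its two remaining inputs

`s48_of_res_cd : StmtRes → StmtChebDensity → (the statement of S48)`.

Everything else is proved and plugged in here: Rankin's estimate (R1–R3), the nebentypus (N), the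
conjugates (SIG), integrality (INT), the density statement (DENS), the Burnside trace bound (GT'),
lifting to characteristic zero (LIFT), irreducibility (IRR), weak Chebotarev and the existence of
Frobenius elements.

* `StmtRes` = the residual representations (weight one Eisenstein series + lifting lemma +
  Eichler–Shimura for `Γ₁(N ℓ)`), see `Plan2.lean`;
* `StmtChebDensity` = Chebotarev's density theorem (lower density), see `CD/Plan.lean`.
-/

set_option autoImplicit false

open CongruenceSubgroup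

namespace Fermat.Agent.S48

theorem stmtWeakCheb : StmtWeakCheb :=
  fun F _ _ S σ => Fermat.Agent.Cheb.exists_frobenius_pow_eq F S σ

theorem stmtFrobExists : StmtFrobExists :=
  fun p hp => Fermat.Agent.Common.exists_isFrobeniusAt p hp

theorem stmtSigma : StmtSigma := stmtSigma_of_neben stmtNeben

theorem stmtInt : StmtInt := stmtInt_of_neben stmtNeben

theorem stmtDensity : StmtDensity := stmtDensity_of stmtSigma stmtInt

/-- the complex representation attached to `f`, from `StmtRes` and `StmtChebDensity` -/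
theorem exists_exactLift_all (hRes : StmtRes) (hCD : StmtChebDensity)
    (N : ℕ) [NeZero N] (ε : DirichletCharacter ℂ N) (f : CuspForm (Gamma1 N) 1)
    (hf : IsHeckeEigen N ε f) :
    ∃ (n : ℕ) (ρ : GalQ →* GL (Fin 2) ℂ), 0 < n ∧ IsExactLift N ε f N n ρ := by
  obtain ⟨B, hB⟩ := exists_bound stmtDensity hCD stmtTraceSpan stmtTraceDiag stmtSemi
    stmtWeakCheb stmtFrobExists N ε f hf
  obtain ⟨ℓ₀, hℓ₀⟩ := hRes N ε f hf
  have hlift : ∀ ℓ : ℕ, ℓ.Prime → max ℓ₀ (B + 1) ≤ ℓ → ∀ 𝔪 : Ideal Zb, 𝔪.IsMaximal →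
      ((ℓ : ℕ) : Zb) ∈ 𝔪 → ∃ ρ : GalQ →* GL (Fin 2) ℂ, IsApproxLift N ε f ℓ 𝔪 B.factorial ρ := by
    intro ℓ hℓ hge 𝔪 h𝔪 hℓ𝔪
    have h1 : ℓ₀ ≤ ℓ := le_trans (le_max_left _ _) hge
    have h2 : B < ℓ := by
      have := le_trans (le_max_right _ _) hge
      omega
    obtain ⟨ρ, hρ⟩ := hℓ₀ ℓ hℓ h1 𝔪 h𝔪 hℓ𝔪
    have hρ' : IsResidualRep N ε f ℓ 𝔪 ρ := hρ
    obtain ⟨ρ', hker, htd, hcard⟩ := hB ℓ hℓ 𝔪 h𝔪 hℓ𝔪 ρ hρ'
    exact approxLift_of_residual stmtLift hℓ h𝔪 hℓ𝔪 hρ' hker htd hcard h2
  obtain ⟨L, hL⟩ := exists_exactLift stmtFrobExists (Nat.factorial_pos B) hlift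
  obtain ⟨ℓ₁, hℓ₁ge, hℓ₁⟩ := Nat.exists_infinite_primes L
  obtain ⟨ℓ₂, hℓ₂ge, hℓ₂⟩ := Nat.exists_infinite_primes (max L (ℓ₁ + 1))
  have hne : ℓ₁ ≠ ℓ₂ := by
    have := le_trans (le_max_right _ _) hℓ₂ge
    omega
  obtain ⟨ρ₁, hρ₁⟩ := hL ℓ₁ hℓ₁ hℓ₁ge
  obtain ⟨ρ₂, hρ₂⟩ := hL ℓ₂ hℓ₂ (le_trans (le_max_left _ _) hℓ₂ge)
  exact ⟨B.factorial, ρ₁, Nat.factorial_pos B,
    exactLift_glue stmtWeakCheb (Nat.factorial_pos B) hℓ₁ hℓ₂ hne hρ₁ hρ₂⟩

/-- **S48 from the residual representations and Chebotarev's density theorem.** -/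
theorem s48_of_res_cd (hRes : StmtRes) (hCD : StmtChebDensity)
    (N : ℕ) [NeZero N] (ε : DirichletCharacter ℂ N) (f : CuspForm (Gamma1 N) 1)
    (hf₁ : ModularFormClass.qCoeff f 1 = 1)
    (hT : ∀ p : ℕ, p.Prime → ¬ p ∣ N → ∀ n : ℕ,
        ModularFormClass.qCoeff f (p * n) +
            ε (p : ZMod N) * (if p ∣ n then ModularFormClass.qCoeff f (n / p) else 0) =
          ModularFormClass.qCoeff f p * ModularFormClass.qCoeff f n) :
    ∃ ρ : GalQ →* GL (Fin 2) ℂ, GaloisFactorsThroughFiniteLevel ρ ∧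
      (Deformation.matrixRepresentation ρ).IsIrreducible ∧
      ∀ p : ℕ, p.Prime → ¬ p ∣ N →
        ∀ A : ValuationSubring (AlgebraicClosure ℚ), A.LiesOverPrime p →
          (∀ σ ∈ A.inertiaSubgroupIn ℚ, ρ σ = 1) ∧
          ∀ σ : GalQ, A.IsFrobeniusAt σ p →
            ((ρ σ : GL (Fin 2) ℂ) : Matrix (Fin 2) (Fin 2) ℂ).trace = ModularFormClass.qCoeff f p ∧
            ((ρ σ : GL (Fin 2) ℂ) : Matrix (Fin 2) (Fin 2) ℂ).det = ε (p : ZMod N) := by
  have hf : IsHeckeEigen N ε f := ⟨hf₁, hT⟩
  obtain ⟨n, ρ, -, hlev, -, hρ⟩ := exists_exactLift_all hRes hCD N ε f hf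
  refine ⟨ρ, ?_, ?_, hρ⟩
  · obtain ⟨F, hFfin, -, hF⟩ := hlev
    exact ⟨F, hFfin, hF⟩
  · exact stmtIrred hCD stmtFrobExists N ε f hf ρ hlev
      fun p hp hpN A hA τ hτ => ((hρ p hp hpN A hA).2 τ hτ).1

end Fermat.Agent.S48


end ZBZ4S48_011_5

/-! ### bundled: `Fermat.Agent.S48.Reduced2` -/
section ZBZ4S48_011_6

/-!
# S48 (Deligne–Serre) from the five open pieces

`s48_of_pieces : StmtIntPlus → StmtE1 → StmtDSL1 → StmtES1 → StmtChebDensity → (S48)`.
-/

set_option autoImplicit false

open CongruenceSubgroup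

namespace Fermat.Agent.S48

theorem stmtRes_of_pieces (hIP : StmtIntPlus) (hE1 : StmtE1) (hDSL : StmtDSL1) (hES : StmtES1) :
    StmtRes :=
  stmtResOfPieces hIP hE1 hDSL hES

/-- **S48 from its open pieces.** -/
theorem s48_of_pieces (hIP : StmtIntPlus) (hE1 : StmtE1) (hDSL : StmtDSL1) (hES : StmtES1)
    (hCD : StmtChebDensity)
    (N : ℕ) [NeZero N] (ε : DirichletCharacter ℂ N) (f : CuspForm (Gamma1 N) 1)
    (hf₁ : ModularFormClass.qCoeff f 1 = 1)
    (hT : ∀ p : ℕ, p.Prime → ¬ p ∣ N → ∀ n : ℕ,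
        ModularFormClass.qCoeff f (p * n) +
            ε (p : ZMod N) * (if p ∣ n then ModularFormClass.qCoeff f (n / p) else 0) =
          ModularFormClass.qCoeff f p * ModularFormClass.qCoeff f n) :
    ∃ ρ : GalQ →* GL (Fin 2) ℂ, GaloisFactorsThroughFiniteLevel ρ ∧
      (Deformation.matrixRepresentation ρ).IsIrreducible ∧
      ∀ p : ℕ, p.Prime → ¬ p ∣ N →
        ∀ A : ValuationSubring (AlgebraicClosure ℚ), A.LiesOverPrime p →
          (∀ σ ∈ A.inertiaSubgroupIn ℚ, ρ σ = 1) ∧
          ∀ σ : GalQ, A.IsFrobeniusAt σ p →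
            ((ρ σ : GL (Fin 2) ℂ) : Matrix (Fin 2) (Fin 2) ℂ).trace = ModularFormClass.qCoeff f p ∧
            ((ρ σ : GL (Fin 2) ℂ) : Matrix (Fin 2) (Fin 2) ℂ).det = ε (p : ZMod N) :=
  s48_of_res_cd (stmtRes_of_pieces hIP hE1 hDSL hES) hCD N ε f hf₁ hT

end Fermat.Agent.S48


end ZBZ4S48_011_6
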