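/- GENERATED FILE (helper35, build-time optimisation, NOTES/ZB.md): verbatim concatenation of the modules
   Fermat.Agent.S48.IntPlusAlg
   Fermat.Agent.S48.IntPlus
   Do not edit; do not import together with these modules. -/
import Mathlib
import Fermat.Agent.ZB.S48_001
import Fermat.Agent.ZB.S48_002

/-! ### bundled: `Fermat.Agent.S48.IntPlusAlg` -/
section ZBZ4S48_013_0

/-!
# S48 / INT+: algebraic tools

* `intPlus_isAlgebraic_of_fixed` : a complex number which is fixed by all automorphisms of `ℂ` over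
  `ℚ̄` is algebraic.
* `intPlus_le_span_of_stable` : echelon descent for finite dimensional subspaces of `ℂ⟦X⟧`.
* `intPlus_specialise` : a finite family of complex numbers can be specialised to algebraic
  numbers, preserving all polynomial relations over `ℚ̄` (Nullstellensatz).
* `intPlus_exists_den` : the algebraic elements of a finitely generated subgroup of `ℂ` have a
  common denominator.
-/

set_option autoImplicit false

noncomputable section

namespace Fermat.Agent.S48

open MvPolynomial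

/-- the field of algebraic numbers inside `ℂ` -/
abbrev Qb : IntermediateField ℚ ℂ := algebraicClosure ℚ ℂ

theorem mem_Qb_iff {x : ℂ} : x ∈ Qb ↔ IsAlgebraic ℚ x := mem_algebraicClosure_iff

instance intPlus_isAlgClosed_Qb : IsAlgClosed Qb :=
  (algebraicClosure.isAlgClosure ℚ ℂ).isAlgClosed

/-- algebraic integers are algebraic numbers -/
theorem intPlus_isAlgebraic_of_isIntegral {x : ℂ} (h : IsIntegral ℤ x) : IsAlgebraic ℚ x :=
  (IsFractionRing.isAlgebraic_iff ℤ ℚ ℂ).mp h.isAlgebraic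

/-- A transcendental complex number is moved by some ring automorphism of `ℂ` which fixes all
algebraic numbers. -/
theorem intPlus_exists_equiv_ne {z : ℂ} (hz : Transcendental ℚ z) :
    ∃ σ : ℂ ≃+* ℂ, (∀ y : ℂ, IsAlgebraic ℚ y → σ y = y) ∧ σ z ≠ z := by
  have hzK : Transcendental Qb z := by
    intro h
    apply hz
    have : Algebra.IsAlgebraic ℚ Qb := algebraicClosure.isAlgebraic ℚ ℂ
    exact h.restrictScalars ℚ
  have hs : AlgebraicIndepOn Qb id ({z} : Set ℂ) :=
    (algebraicIndependent_singleton_iff (⟨z, Set.mem_singleton z⟩ : ({z} : Set ℂ))).mpr hzK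
  obtain ⟨t, hzt, ht⟩ := exists_isTranscendenceBasis_superset hs
  have hzt' : z ∈ t := hzt (Set.mem_singleton z)
  have := IsAlgClosed.isAlgClosure_of_transcendence_basis ((↑) : t → ℂ) ht
  let φ : MvPolynomial t Qb ≃ₐ[Qb] MvPolynomial t Qb :=
    AlgEquiv.ofAlgHom (MvPolynomial.aeval fun b => - MvPolynomial.X b)
      (MvPolynomial.aeval fun b => - MvPolynomial.X b) (by ext; simp) (by ext; simp)
  let e : Algebra.adjoin Qb (Set.range ((↑) : t → ℂ)) ≃+*
      Algebra.adjoin Qb (Set.range ((↑) : t → ℂ)) :=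
    (ht.1.aevalEquiv.symm.trans (φ.trans ht.1.aevalEquiv)).toRingEquiv
  refine ⟨IsAlgClosure.equivOfEquiv ℂ ℂ e, ?_, ?_⟩
  · intro y hy
    let y' : Qb := ⟨y, mem_Qb_iff.mpr hy⟩
    have h1 : (ht.1.aevalEquiv (C y') : ℂ) = y := by
      simp [AlgebraicIndependent.aevalEquiv_apply_coe, y']
    have h2 : (e (ht.1.aevalEquiv (C y')) : ℂ) = y := by
      simp [e, φ, AlgebraicIndependent.aevalEquiv_apply_coe, y']
    have h3 := IsAlgClosure.equivOfEquiv_algebraMap ℂ ℂ e (ht.1.aevalEquiv (C y'))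
    have h4 : algebraMap (Algebra.adjoin Qb (Set.range ((↑) : t → ℂ))) ℂ
        (ht.1.aevalEquiv (C y')) = y := h1
    have h5 : algebraMap (Algebra.adjoin Qb (Set.range ((↑) : t → ℂ))) ℂ
        (e (ht.1.aevalEquiv (C y'))) = y := h2
    rw [h4, h5] at h3
    exact h3
  · have hz0 : z ≠ 0 := by
      rintro rfl
      exact hz isAlgebraic_zero
    have h1 : (ht.1.aevalEquiv (X ⟨z, hzt'⟩) : ℂ) = z := by
      simp [AlgebraicIndependent.aevalEquiv_apply_coe]
    have h2 : (e (ht.1.aevalEquiv (X ⟨z, hzt'⟩)) : ℂ) = -z := by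
      simp [e, φ, AlgebraicIndependent.aevalEquiv_apply_coe]
    have h3 := IsAlgClosure.equivOfEquiv_algebraMap ℂ ℂ e (ht.1.aevalEquiv (X ⟨z, hzt'⟩))
    have h4 : algebraMap (Algebra.adjoin Qb (Set.range ((↑) : t → ℂ))) ℂ
        (ht.1.aevalEquiv (X ⟨z, hzt'⟩)) = z := h1
    have h5 : algebraMap (Algebra.adjoin Qb (Set.range ((↑) : t → ℂ))) ℂ
        (e (ht.1.aevalEquiv (X ⟨z, hzt'⟩))) = -z := h2
    rw [h4, h5] at h3
    rw [h3]
    intro h
    apply hz0
    have : (2 : ℂ) * z = 0 := by linear_combination -h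
    simpa using this

/-- a complex number which is fixed by all automorphisms of `ℂ` over `ℚ̄` is algebraic -/
theorem intPlus_isAlgebraic_of_fixed (x : ℂ)
    (h : ∀ σ : ℂ ≃+* ℂ, (∀ y : ℂ, IsAlgebraic ℚ y → σ y = y) → σ x = x) : IsAlgebraic ℚ x := by
  by_contra hx
  obtain ⟨σ, hσ, hne⟩ := intPlus_exists_equiv_ne (z := x) hx
  exact hne (h σ hσ)

open Module in
/-- Echelon descent: a finite dimensional subspace of `ℂ⟦X⟧` which is stable under the
coefficientwise action of a set `S` of automorphisms of `ℂ` is spanned by its elements with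
coefficients in the fixed field of `S`. -/
theorem intPlus_le_span_of_stable (S : Set (ℂ ≃+* ℂ)) (P : ℂ → Prop)
    (hfix : ∀ x : ℂ, (∀ σ ∈ S, σ x = x) → P x)
    (V : Submodule ℂ (PowerSeries ℂ)) [FiniteDimensional ℂ V]
    (hV : ∀ σ ∈ S, ∀ F ∈ V, PowerSeries.map (σ : ℂ →+* ℂ) F ∈ V) :
    V ≤ Submodule.span ℂ {F | F ∈ V ∧ ∀ n, P (PowerSeries.coeff n F)} := by
  classical
  let c : ℕ → Module.Dual ℂ V := fun n => (PowerSeries.coeff (R := ℂ) n).comp V.subtype
  have hc : ∀ n (f : V), c n f = PowerSeries.coeff n (f : PowerSeries ℂ) := fun n f => rfl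
  have hspan : (⊤ : Submodule ℂ (Module.Dual ℂ V)) ≤ Submodule.span ℂ (Set.range c) := by
    have h0 : (Submodule.span ℂ (Set.range c)).dualCoannihilator = ⊥ := by
      rw [eq_bot_iff]
      intro f hf
      rw [Submodule.mem_dualCoannihilator] at hf
      rw [Submodule.mem_bot]
      apply Subtype.ext
      ext n
      have := hf (c n) (Submodule.subset_span ⟨n, rfl⟩)
      simpa [hc] using this
    have h1 := Subspace.dualCoannihilator_dualAnnihilator_eq
      (W := Submodule.span ℂ (Set.range c))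
    rw [h0, Submodule.dualAnnihilator_bot] at h1
    exact h1.le
  let β := Module.Basis.ofSpan hspan
  have hβc : ∀ i, ∃ n, c n = β i := fun i => Module.Basis.ofSpan_subset hspan ⟨i, rfl⟩
  have : Finite _ := Module.Finite.finite_basis β
  let b := β.dualBasis.map (Module.evalEquiv ℂ V).symm
  have hb : ∀ i j, β i (b j) = if i = j then 1 else 0 := by
    intro i j
    simp only [b, Module.Basis.map_apply, Module.apply_evalEquiv_symm_apply]
    exact β.dualBasis_apply_self j i
  have hzero : ∀ f : V, (∀ i, β i f = 0) → f = 0 := by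
    intro f hf
    have : Module.evalEquiv ℂ V f = 0 := by
      apply β.ext
      intro i
      simpa using hf i
    exact (LinearEquiv.map_eq_zero_iff (Module.evalEquiv ℂ V)).mp this
  have hfixed : ∀ σ ∈ S, ∀ j,
      PowerSeries.map (σ : ℂ →+* ℂ) (b j : PowerSeries ℂ) = (b j : PowerSeries ℂ) := by
    intro σ hσ j
    have hmem := hV σ hσ _ (b j).2
    have : (⟨_, hmem⟩ : V) - b j = 0 := by
      apply hzero
      intro i
      obtain ⟨n, hn⟩ := hβc i
      have h1 : β i (b j) = PowerSeries.coeff n (b j : PowerSeries ℂ) := by rw [← hn, hc]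
      rw [map_sub, sub_eq_zero, ← hn, hc, hc]
      simp only [PowerSeries.coeff_map, RingHom.coe_coe]
      rw [← h1, hb]
      split_ifs <;> simp
    exact congrArg Subtype.val (sub_eq_zero.mp this)
  intro f hf
  have hmemspan : (⟨f, hf⟩ : V) ∈ Submodule.span ℂ (Set.range b) := by
    rw [b.span_eq]; exact Submodule.mem_top
  have := Submodule.mem_map_of_mem (f := V.subtype) hmemspan
  rw [Submodule.map_span] at this
  refine Submodule.span_mono ?_ this
  rintro _ ⟨_, ⟨j, rfl⟩, rfl⟩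
  refine ⟨(b j).2, fun n => hfix _ fun σ hσ => ?_⟩
  have := congrArg (PowerSeries.coeff n) (hfixed σ hσ j)
  simpa using this

/-- **Specialisation.**  A finite family of complex numbers can be specialised to algebraic
numbers, preserving all polynomial relations with algebraic coefficients. -/
theorem intPlus_specialise {r : ℕ} (c : Fin r → ℂ) :
    ∃ y : Fin r → Qb, ∀ P : MvPolynomial (Fin r) Qb,
      MvPolynomial.aeval c P = 0 → MvPolynomial.eval y P = 0 := by
  let I : Ideal (MvPolynomial (Fin r) Qb) :=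
    RingHom.ker (MvPolynomial.aeval c : MvPolynomial (Fin r) Qb →ₐ[Qb] ℂ).toRingHom
  have hI : I ≠ ⊤ := by
    intro h
    have h1 : (1 : MvPolynomial (Fin r) Qb) ∈ I := by rw [h]; exact Submodule.mem_top
    rw [RingHom.mem_ker] at h1
    simp at h1
  obtain ⟨J, hJ, hIJ⟩ := Ideal.exists_le_maximal I hI
  obtain ⟨y, hy⟩ := MvPolynomial.eq_vanishingIdeal_singleton_of_isMaximal Qb hJ
  refine ⟨y, fun P hP => ?_⟩
  have h1 : P ∈ J := hIJ (by rw [RingHom.mem_ker]; exact hP)
  rw [hy, MvPolynomial.mem_vanishingIdeal_singleton_iff] at h1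
  simpa using h1

/-- the algebraic elements of a finitely generated subgroup of `ℂ` have a common denominator -/
theorem intPlus_exists_den (M : Submodule ℤ ℂ) (hM : M.FG) :
    ∃ D : ℕ, D ≠ 0 ∧ ∀ y ∈ M, IsAlgebraic ℚ y → IsIntegral ℤ ((D : ℂ) * y) := by
  classical
  let A : Submodule ℤ ℂ :=
    { carrier := {y | IsAlgebraic ℚ y}
      add_mem' := fun ha hb => ha.add hb
      zero_mem' := isAlgebraic_zero
      smul_mem' := fun m y hy => by
        rw [zsmul_eq_mul]
        exact (isAlgebraic_algebraMap (m : ℚ)).mul hy |> fun h => by simpa using h }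
  have hfg : (M ⊓ A).FG := Submodule.FG.of_le hM inf_le_left
  obtain ⟨s, hs⟩ := hfg
  have hd : ∀ x : ℂ, x ∈ s → ∃ d : ℕ, d ≠ 0 ∧ IsIntegral ℤ ((d : ℂ) * x) := by
    intro x hx
    have hxA : IsAlgebraic ℚ x := by
      have : x ∈ M ⊓ A := hs ▸ Submodule.subset_span hx
      exact this.2
    have hxZ : IsAlgebraic ℤ x := (IsFractionRing.isAlgebraic_iff ℤ ℚ ℂ).mpr hxA
    obtain ⟨m, hm0, hm⟩ := hxZ.exists_integral_multiple
    refine ⟨m.natAbs, Int.natAbs_ne_zero.mpr hm0, ?_⟩
    rw [zsmul_eq_mul] at hm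
    rcases Int.natAbs_eq m with h | h
    · have : ((m.natAbs : ℕ) : ℂ) = (m : ℂ) := by
        conv_rhs => rw [h]
        simp
      rw [this]
      exact hm
    · have : ((m.natAbs : ℕ) : ℂ) = -(m : ℂ) := by
        conv_rhs => rw [h]
        simp
      rw [this, neg_mul]
      exact hm.neg
  choose! d hd0 hdi using hd
  refine ⟨∏ x ∈ s, d x, Finset.prod_ne_zero_iff.mpr fun x hx => hd0 x hx, ?_⟩
  intro y hy hyA
  have hyMA : y ∈ Submodule.span ℤ (s : Set ℂ) := hs ▸ (⟨hy, hyA⟩ : y ∈ M ⊓ A)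
  refine Submodule.span_induction
    (p := fun y _ => IsIntegral ℤ (((∏ x ∈ s, d x : ℕ) : ℂ) * y)) ?_ ?_ ?_ ?_ hyMA
  · intro x hx
    have hx' : x ∈ s := hx
    rw [← Finset.prod_erase_mul s d hx']
    push_cast
    rw [mul_assoc]
    refine IsIntegral.mul ?_ (hdi x hx')
    exact_mod_cast isIntegral_algebraMap (R := ℤ) (A := ℂ) (x := ((∏ x ∈ s.erase x, d x : ℕ) : ℤ))
  · rw [mul_zero]
    exact isIntegral_zero
  · intro x y _ _ hx hy
    rw [mul_add]
    exact hx.add hy
  · intro m x _ hx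
    rw [zsmul_eq_mul, mul_left_comm]
    exact (isIntegral_algebraMap (R := ℤ) (A := ℂ) (x := m)).mul hx

end Fermat.Agent.S48

end
end ZBZ4S48_013_0

/-! ### bundled: `Fermat.Agent.S48.IntPlus` -/
section ZBZ4S48_013_1

/-!
# S48 / INT+: WLOG the coefficients of `f` are algebraic with bounded denominators

`stmtIntPlus_of_neben : StmtNeben → StmtIntPlus`.

Route.  `V` := the space of `q`-expansions of the weight one cusp forms with nebentypus `ε`.
* `V` is finite dimensional (multiplication by the Eisenstein series `H_{ε⁻¹}` maps it into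
  the `q`-expansions of `S₄(Γ₀(N))`).
* `V` is stable under the automorphisms of `ℂ` over `ℚ̄` (`stmtSigmaGen`), hence spanned by its
  elements with algebraic coefficients (echelon descent).
* `f = ∑ c_j E_j` with `E_j ∈ V` algebraic; specialise `c ↦ y ∈ ℚ̄^r` (Nullstellensatz): all
  polynomial relations over `ℚ̄` between the `a_n(f)` persist, in particular the Hecke relations
  and the values `a_p(f) ∈ ℤ̄` (`stmtInt_of_neben`).  `h := ∑ y_j E_j`.
* the coefficients of `h` lie in a finitely generated `ℤ`-module (`int_coeff_bdd`) and are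
  algebraic, hence have a common denominator.
-/

set_option autoImplicit false

open CongruenceSubgroup UpperHalfPlane ModularForm Filter Topology
open Fermat.Agent.S23
open scoped MatrixGroups Manifold

noncomputable section

namespace Fermat.Agent.S48

/-! ## The space of `q`-expansions -/

theorem intPlus_qExpansion_add {N : ℕ} (g₁ g₂ : CuspForm (Gamma1 N) 1) :
    qExpansion 1 (⇑(g₁ + g₂) : ℍ → ℂ) =
      qExpansion 1 (⇑g₁ : ℍ → ℂ) + qExpansion 1 (⇑g₂ : ℍ → ℂ) := by
  have h : (⇑(g₁ + g₂) : ℍ → ℂ) = ⇑g₁ + ⇑g₂ := rfl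
  rw [h]
  exact UpperHalfPlane.qExpansion_add (sigma_isHPB g₁).analyticAt (sigma_isHPB g₂).analyticAt

theorem intPlus_qExpansion_smul {N : ℕ} (c : ℂ) (g : CuspForm (Gamma1 N) 1) :
    qExpansion 1 (⇑(c • g) : ℍ → ℂ) = c • qExpansion 1 (⇑g : ℍ → ℂ) := by
  have h : (⇑(c • g) : ℍ → ℂ) = c • ⇑g := rfl
  rw [h]
  exact UpperHalfPlane.qExpansion_smul (sigma_isHPB g).analyticAt c

/-- the `q`-expansions of the weight one cusp forms with nebentypus `ε` -/
def intPlusV (N : ℕ) [NeZero N] (ε : DirichletCharacter ℂ N) : Submodule ℂ (PowerSeries ℂ) where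
  carrier := {F | ∃ g : CuspForm (Gamma1 N) 1, HasNeben N ε g ∧ qExpansion 1 (⇑g : ℍ → ℂ) = F}
  add_mem' := by
    rintro _ _ ⟨g₁, h₁, rfl⟩ ⟨g₂, h₂, rfl⟩
    refine ⟨g₁ + g₂, ?_, intPlus_qExpansion_add g₁ g₂⟩
    intro γ hγ z
    have e1 : (g₁ + g₂) (γ • z) = g₁ (γ • z) + g₂ (γ • z) := rfl
    have e2 : (g₁ + g₂) z = g₁ z + g₂ z := rfl
    rw [e1, e2, h₁ γ hγ z, h₂ γ hγ z]
    ring
  zero_mem' := by
    refine ⟨0, ?_, ?_⟩
    · intro γ _ z
      simp
    · exact UpperHalfPlane.qExpansion_zero 1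
  smul_mem' := by
    rintro c _ ⟨g, h, rfl⟩
    refine ⟨c • g, ?_, intPlus_qExpansion_smul c g⟩
    intro γ hγ z
    have e1 : (c • g) (γ • z) = c * g (γ • z) := rfl
    have e2 : (c • g) z = c * g z := rfl
    rw [e1, e2, h γ hγ z]
    ring

theorem mem_intPlusV {N : ℕ} [NeZero N] {ε : DirichletCharacter ℂ N} {F : PowerSeries ℂ} :
    F ∈ intPlusV N ε ↔
      ∃ g : CuspForm (Gamma1 N) 1, HasNeben N ε g ∧ qExpansion 1 (⇑g : ℍ → ℂ) = F := Iff.rfl

/-- `V` is finite dimensional -/
theorem intPlusV_finiteDimensional {N : ℕ} [NeZero N] (ε : DirichletCharacter ℂ N)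
    (hε1 : ε (-1) = -1) : FiniteDimensional ℂ (intPlusV N ε) := by
  have hne : ∀ a : ZMod N, IsUnit a → ε a ≠ 0 := fun a ha => (ha.map ε).ne_zero
  have hinv : ∀ a : ZMod N, IsUnit a → ε a * ε⁻¹ a = 1 := by
    intro a ha
    rw [MulChar.inv_apply_eq_inv', mul_inv_cancel₀ (hne a ha)]
  have hε'1 : ε⁻¹ (-1) = -1 := by
    rw [MulChar.inv_apply_eq_inv', hε1]
    norm_num
  obtain ⟨H, hHneb, hH0, hHn⟩ :=
    exists_eisOdd_of_odd N (k := 3) le_rfl (by decide) ε⁻¹ hε'1
  have hqH1 : (qExpansion 1 (⇑H : ℍ → ℂ)).coeff 1 = 1 := by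
    change ModularFormClass.qCoeff H 1 = 1
    rw [hHn 1 one_ne_zero]
    simp
  have hqHne : qExpansion 1 (⇑H : ℍ → ℂ) ≠ 0 := by
    intro h
    rw [h] at hqH1
    simp at hqH1
  let μ : PowerSeries ℂ →ₗ[ℂ] PowerSeries ℂ := LinearMap.mulRight ℂ (qExpansion 1 (⇑H : ℍ → ℂ))
  have hμ : Function.Injective μ := by
    intro x y hxy
    exact mul_right_cancel₀ hqHne hxy
  have : FiniteDimensional ℂ (CuspForm (G0 N) 4) := cuspForm_finiteDimensional N 4
  have hle : (intPlusV N ε).map μ ≤ LinearMap.range (qExpLin N 4) := by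
    rintro _ ⟨F, ⟨g, hg, rfl⟩, rfl⟩
    obtain ⟨G, hG⟩ := sigma_exists_mul ε ε⁻¹ hinv g hg H (by
      intro γ hγ z
      have := hHneb γ hγ z
      simpa using this)
    refine ⟨G, ?_⟩
    rw [qExpLin_apply, hG, sigma_qExpansion_mul (sigma_isHPB g) (sigma_isHPB H)]
    rfl
  have : FiniteDimensional ℂ ((intPlusV N ε).map μ) :=
    Submodule.finiteDimensional_of_le hle
  exact LinearEquiv.finiteDimensional (Submodule.equivMapOfInjective μ hμ (intPlusV N ε)).symm

/-- `V` is stable under the automorphisms of `ℂ` which fix the algebraic numbers -/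
theorem intPlusV_stable {N : ℕ} [NeZero N] (ε : DirichletCharacter ℂ N) (σ : ℂ ≃+* ℂ)
    (hσ : ∀ y : ℂ, IsAlgebraic ℚ y → σ y = y) (F : PowerSeries ℂ) (hF : F ∈ intPlusV N ε) :
    PowerSeries.map (σ : ℂ →+* ℂ) F ∈ intPlusV N ε := by
  obtain ⟨g, hg, rfl⟩ := hF
  obtain ⟨g', hg', hq⟩ := stmtSigmaGen N ε g hg (σ : ℂ →+* ℂ)
  have hεσ : ε.ringHomComp (σ : ℂ →+* ℂ) = ε := by
    ext a
    rw [MulChar.ringHomComp_apply]
    exact hσ _ (intPlus_isAlgebraic_of_isIntegral (int_isIntegral_char ε _))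
  rw [hεσ] at hg'
  refine ⟨g', hg', ?_⟩
  ext n
  rw [PowerSeries.coeff_map]
  exact hq n

/-! ## The theorem -/

/-- **INT+.**  Given the nebentypus statement, a Hecke eigenform of weight one can be replaced by
one with the same eigenvalues whose coefficients are algebraic with bounded denominators. -/
theorem stmtIntPlus_of_neben (hN : StmtNeben) : StmtIntPlus := by
  intro N _ ε f hf
  classical
  have hneb : HasNeben N ε f := hN N ε f hf
  have h0 : (⇑f : ℍ → ℂ) ≠ 0 := by
    apply int_ne_zero_of_qCoeff (n := 1)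
    rw [hf.1]
    exact one_ne_zero
  have hε1 : ε (-1) = -1 := sigma_neg_one hneb h0
  have hfin : FiniteDimensional ℂ (intPlusV N ε) := intPlusV_finiteDimensional ε hε1
  have hFf : qExpansion 1 (⇑f : ℍ → ℂ) ∈ intPlusV N ε := ⟨f, hneb, rfl⟩
  have hdesc := intPlus_le_span_of_stable {σ | ∀ y : ℂ, IsAlgebraic ℚ y → σ y = y}
    (fun x => IsAlgebraic ℚ x) (fun x hx => intPlus_isAlgebraic_of_fixed x hx) (intPlusV N ε)
    (fun σ hσ F hF => intPlusV_stable ε σ hσ F hF) hFf
  obtain ⟨r, c, E, hsum⟩ := Submodule.mem_span_set'.mp hdesc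
  -- the coefficients of the `E j`, in `ℚ̄`
  let e : Fin r → ℕ → Qb := fun j n =>
    ⟨PowerSeries.coeff n ((E j : PowerSeries ℂ)), mem_Qb_iff.mpr ((E j).2.2 n)⟩
  have he : ∀ j n, ((e j n : Qb) : ℂ) = PowerSeries.coeff n ((E j : PowerSeries ℂ)) :=
    fun j n => rfl
  obtain ⟨y, hy⟩ := intPlus_specialise c
  -- the linear forms `a_n`
  let L : ℕ → MvPolynomial (Fin r) Qb := fun n =>
    ∑ j, MvPolynomial.C (e j n) * MvPolynomial.X j
  have hLc : ∀ n, MvPolynomial.aeval c (L n) = ModularFormClass.qCoeff (⇑f) n := by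
    intro n
    change _ = (qExpansion 1 (⇑f : ℍ → ℂ)).coeff n
    rw [← hsum, map_sum, map_sum]
    refine Finset.sum_congr rfl fun j _ => ?_
    rw [map_mul, MvPolynomial.aeval_C, MvPolynomial.aeval_X, PowerSeries.coeff_smul,
      mul_comm]
    rfl
  -- the form `h`
  have hFh : (∑ j, ((y j : Qb) : ℂ) • ((E j : PowerSeries ℂ))) ∈ intPlusV N ε :=
    Submodule.sum_mem _ fun j _ => Submodule.smul_mem _ _ (E j).2.1
  obtain ⟨h, hhneb, hhq⟩ := hFh
  have hLy : ∀ n, ((MvPolynomial.eval y (L n) : Qb) : ℂ) = ModularFormClass.qCoeff (⇑h) n := by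
    intro n
    change _ = (qExpansion 1 (⇑h : ℍ → ℂ)).coeff n
    rw [hhq, map_sum, map_sum]
    push_cast
    refine Finset.sum_congr rfl fun j _ => ?_
    rw [map_mul, MvPolynomial.eval_C, MvPolynomial.eval_X, PowerSeries.coeff_smul]
    push_cast
    rw [mul_comm, smul_eq_mul]
  -- transfer of relations
  have htrans : ∀ P : MvPolynomial (Fin r) Qb, MvPolynomial.aeval c P = 0 →
      ((MvPolynomial.eval y P : Qb) : ℂ) = 0 := by
    intro P hP
    rw [hy P hP]
    rfl
  -- the character values and the eigenvalues, in `ℚ̄`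
  let εK : ZMod N → Qb := fun a =>
    ⟨ε a, mem_Qb_iff.mpr (intPlus_isAlgebraic_of_isIntegral (int_isIntegral_char ε a))⟩
  have hInt := stmtInt_of_neben hN N ε f hf
  -- the Hecke relations for `h`
  have hh1 : ModularFormClass.qCoeff (⇑h) 1 = 1 := by
    have := htrans (L 1 - 1) (by rw [map_sub, hLc, hf.1, map_one, sub_self])
    rw [map_sub, map_one] at this
    push_cast at this
    rw [hLy] at this
    exact sub_eq_zero.mp this
  have hhp : ∀ p : ℕ, p.Prime → ¬ p ∣ N →
      ModularFormClass.qCoeff (⇑h) p = ModularFormClass.qCoeff (⇑f) p := by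
    intro p hp hpN
    obtain ⟨a, ha⟩ := hInt p hp hpN
    let κ : Qb := ⟨ModularFormClass.qCoeff (⇑f) p,
      mem_Qb_iff.mpr (intPlus_isAlgebraic_of_isIntegral (ha ▸ a.2))⟩
    have := htrans (L p - MvPolynomial.C κ) (by
      rw [map_sub, hLc, MvPolynomial.aeval_C]
      exact sub_self _)
    rw [map_sub, MvPolynomial.eval_C] at this
    push_cast at this
    rw [hLy] at this
    exact sub_eq_zero.mp this
  have hheig : IsHeckeEigen N ε h := by
    refine ⟨hh1, fun p hp hpN n => ?_⟩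
    have hrel := hf.2 p hp hpN n
    by_cases hd : p ∣ n
    · rw [if_pos hd] at hrel ⊢
      have := htrans (L (p * n) + MvPolynomial.C (εK (p : ZMod N)) * L (n / p) - L p * L n) (by
        rw [map_sub, map_add, map_mul, map_mul, hLc, hLc, hLc, hLc, MvPolynomial.aeval_C]
        exact sub_eq_zero.mpr hrel)
      rw [map_sub, map_add, map_mul, map_mul, MvPolynomial.eval_C] at this
      push_cast at this
      rw [hLy, hLy, hLy, hLy] at this
      exact sub_eq_zero.mp this
    · rw [if_neg hd] at hrel ⊢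
      rw [mul_zero, add_zero] at hrel ⊢
      have := htrans (L (p * n) - L p * L n) (by
        rw [map_sub, map_mul, hLc, hLc, hLc]
        exact sub_eq_zero.mpr hrel)
      rw [map_sub, map_mul] at this
      push_cast at this
      rw [hLy, hLy, hLy] at this
      exact sub_eq_zero.mp this
  -- bounded denominators
  have hh0 : (⇑h : ℍ → ℂ) ≠ 0 := by
    apply int_ne_zero_of_qCoeff (n := 1)
    rw [hh1]
    exact one_ne_zero
  obtain ⟨M, hM, -, hmem⟩ := int_coeff_bdd ε h hhneb hh0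
  obtain ⟨D, hD0, hD⟩ := intPlus_exists_den M hM
  refine ⟨h, D, hD0, hheig, ?_, ?_, ?_⟩
  · intro γ hγ z
    rw [pow_one]
    exact hhneb γ hγ z
  · intro n
    have halg : IsAlgebraic ℚ (ModularFormClass.qCoeff (⇑h) n) := by
      rw [← hLy n]
      exact mem_Qb_iff.mp (MvPolynomial.eval y (L n)).2
    exact ⟨⟨_, hD _ (hmem n) halg⟩, rfl⟩
  · intro p hp hpN
    exact ⟨hhp p hp hpN, hInt p hp hpN⟩

end Fermat.Agent.S48

end
end ZBZ4S48_013_1
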