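/- GENERATED FILE (helper35, build-time optimisation, NOTES/ZB.md): verbatim concatenation of the modules
   Fermat.Agent.S48.DSL.Main
   Fermat.Agent.S48.Reduced3
   Do not edit; do not import together with these modules. -/
import Mathlib
import Fermat.Agent.ZB.S48_003
import Fermat.Agent.ZB.S49_002
import Fermat.Agent.ZB.Z4S48_011
import Fermat.Agent.ZB.Z4S48_013

/-! ### bundled: `Fermat.Agent.S48.DSL.Main` -/
section ZBZ4S48_014_0

/-!
# S48 / DSL: the lifting lemma of Deligne–Serre for `S₂(Γ₁(M), θ)` (`stmtDSL1 : StmtDSL1`)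

`V = S₂(Γ₁(M), θ)`, `R ⊂ End V` the (commutative) ring generated by the scalars of `ℤ̄` and the
`T_p`, `p ∤ M ℓ`.  The set `I = {t ∈ R : t g ≡ 0 mod 𝔪}` is a proper ideal containing `𝔪` and the
`T_p - a_p`.  `S49.exists_eigenvector_of_injective` for a maximal ideal above `I` gives a common
eigenvector `v ≠ 0` with character `ψ`, `ker ψ ⊂ 𝔫`; if `t ∈ ℤ̄` is the eigenvalue of `T_p` then
`T_p - t ∈ ker ψ`, so `t - a_p ∈ 𝔫 ∩ ℤ̄ = 𝔪`.
-/

set_option autoImplicit false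

open CongruenceSubgroup UpperHalfPlane Matrix.SpecialLinearGroup
open scoped MatrixGroups ModularForm OnePoint Manifold

namespace Fermat.Agent.S48

open ModularForm

/-- the generators of the Hecke ring: scalars from `ℤ̄` and the `T_p`, `p ∤ L` (`p ∤ M`) -/
def dslGen (M : ℕ) [NeZero M] (θ : DirichletCharacter ℂ M) (L : ℕ) :
    Set (Module.End ℂ (dslV M 2 θ)) :=
  {t | (∃ z : Zb, t = algebraMap ℂ (Module.End ℂ (dslV M 2 θ)) (z : ℂ)) ∨
    ∃ (p : ℕ) (hp : p.Prime) (hpM : ¬ p ∣ M), ¬ p ∣ L ∧ t = dslT hp hpM}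

theorem dslGen_comm (M : ℕ) [NeZero M] (θ : DirichletCharacter ℂ M) (L : ℕ) :
    ∀ a ∈ dslGen M θ L, ∀ b ∈ dslGen M θ L, a * b = b * a := by
  rintro a (⟨z, rfl⟩ | ⟨p, hp, hpM, -, rfl⟩) b (⟨w, rfl⟩ | ⟨q, hq, hqM, -, rfl⟩)
  · exact Algebra.commutes _ _
  · exact Algebra.commutes _ _
  · exact (Algebra.commutes _ _).symm
  · exact dslT_comm hp hpM hq hqM

/-- all `q`-coefficients lie in (the image of) `𝔪` -/
def dslIn {M : ℕ} {θ : DirichletCharacter ℂ M} (𝔪 : Ideal Zb) (h : dslV M 2 θ) : Prop :=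
  ∀ n : ℕ, ∃ m ∈ 𝔪, ((m : Zb) : ℂ) = ModularFormClass.qCoeff (⇑h.1) n

theorem dslIn_add {M : ℕ} {θ : DirichletCharacter ℂ M} {𝔪 : Ideal Zb} {h h' : dslV M 2 θ}
    (hh : dslIn 𝔪 h) (hh' : dslIn 𝔪 h') : dslIn 𝔪 (h + h') := by
  intro n
  obtain ⟨m, hm, e⟩ := hh n
  obtain ⟨m', hm', e'⟩ := hh' n
  refine ⟨m + m', 𝔪.add_mem hm hm', ?_⟩
  rw [Submodule.coe_add, dsl_qCoeff_add, ← e, ← e']
  push_cast
  rfl

theorem dslIn_smul {M : ℕ} {θ : DirichletCharacter ℂ M} {𝔪 : Ideal Zb} {h : dslV M 2 θ}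
    (hh : dslIn 𝔪 h) (z : Zb) : dslIn 𝔪 ((z : ℂ) • h) := by
  intro n
  obtain ⟨m, hm, e⟩ := hh n
  refine ⟨z * m, 𝔪.mul_mem_left z hm, ?_⟩
  rw [Submodule.coe_smul, dsl_qCoeff_smul, ← e]
  push_cast
  rfl

theorem dslIn_T {M : ℕ} [NeZero M] {θ : DirichletCharacter ℂ M} {𝔪 : Ideal Zb} {h : dslV M 2 θ}
    (hh : dslIn 𝔪 h) {p : ℕ} (hp : p.Prime) (hpM : ¬ p ∣ M) (e : Zb)
    (he : (e : ℂ) = θ (p : ZMod M)) : dslIn 𝔪 (dslT hp hpM h) := by
  intro n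
  obtain ⟨m, hm, e1⟩ := hh (p * n)
  obtain ⟨m', hm', e2⟩ := hh (n / p)
  rw [dslT_qCoeff, ← e1, ← e2, ← he]
  by_cases hpn : p ∣ n
  · refine ⟨m + (p : Zb) * e * m', 𝔪.add_mem hm (𝔪.mul_mem_left _ hm'), ?_⟩
    rw [if_pos hpn]
    push_cast
    norm_num
  · refine ⟨m, hm, ?_⟩
    rw [if_neg hpn, mul_zero, add_zero]

theorem dslIn_adjoin {M : ℕ} [NeZero M] {θ : DirichletCharacter ℂ M} {𝔪 : Ideal Zb} (L : ℕ)
    (e : ℕ → Zb) (he : ∀ p : ℕ, p.Prime → ¬ p ∣ M → (e p : ℂ) = θ (p : ZMod M))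
    {t : Module.End ℂ (dslV M 2 θ)} (ht : t ∈ Algebra.adjoin ℤ (dslGen M θ L)) :
    ∀ h : dslV M 2 θ, dslIn 𝔪 h → dslIn 𝔪 (t h) := by
  induction ht using Algebra.adjoin_induction with
  | mem x hx =>
    intro h hh
    rcases hx with ⟨z, rfl⟩ | ⟨p, hp, hpM, -, rfl⟩
    · have : (algebraMap ℂ (Module.End ℂ (dslV M 2 θ)) (z : ℂ)) h = (z : ℂ) • h := rfl
      rw [this]
      exact dslIn_smul hh z
    · exact dslIn_T hh hp hpM (e p) (he p hp hpM)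
  | algebraMap r =>
    intro h hh
    have : (algebraMap ℤ (Module.End ℂ (dslV M 2 θ)) r) h = (((r : Zb) : ℂ)) • h := by
      rw [Module.algebraMap_end_apply]
      push_cast
      exact (Int.cast_smul_eq_zsmul ℂ r h).symm
    rw [this]
    exact dslIn_smul hh r
  | add x y _ _ hx hy =>
    intro h hh
    rw [LinearMap.add_apply]
    exact dslIn_add (hx h hh) (hy h hh)
  | mul x y _ _ hx hy =>
    intro h hh
    rw [Module.End.mul_apply]
    exact hx _ (hy h hh)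

/-! ### The Hecke ring -/

/-- the Hecke ring: the subring of `End V` generated by `ℤ̄` and the `T_p`, `p ∤ L` -/
def DslRing (M : ℕ) [NeZero M] (θ : DirichletCharacter ℂ M) (L : ℕ) : Type :=
  Algebra.adjoin ℤ (dslGen M θ L)

noncomputable instance dslRing_commRing (M : ℕ) [NeZero M] (θ : DirichletCharacter ℂ M)
    (L : ℕ) : CommRing (DslRing M θ L) :=
  { (show Ring (Algebra.adjoin ℤ (dslGen M θ L)) from inferInstance) with
    mul_comm := fun a b =>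
      (Algebra.isMulCommutative_adjoin ℤ (dslGen_comm M θ L)).is_comm.comm a b }

/-- the inclusion of the Hecke ring into `End V` -/
noncomputable def dslRho (M : ℕ) [NeZero M] (θ : DirichletCharacter ℂ M) (L : ℕ) :
    DslRing M θ L →+* Module.End ℂ (dslV M 2 θ) where
  toFun t := t.1
  map_one' := rfl
  map_mul' _ _ := rfl
  map_zero' := rfl
  map_add' _ _ := rfl

theorem dslRho_injective (M : ℕ) [NeZero M] (θ : DirichletCharacter ℂ M) (L : ℕ) :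
    Function.Injective (dslRho M θ L) := Subtype.val_injective

/-- the scalars -/
noncomputable def dslSc (M : ℕ) [NeZero M] (θ : DirichletCharacter ℂ M) (L : ℕ) :
    Zb →+* DslRing M θ L where
  toFun z := ⟨algebraMap ℂ (Module.End ℂ (dslV M 2 θ)) (z : ℂ),
    Algebra.subset_adjoin (Or.inl ⟨z, rfl⟩)⟩
  map_one' := by
    apply Subtype.ext
    change algebraMap ℂ (Module.End ℂ (dslV M 2 θ)) (1 : ℂ) = 1
    rw [map_one]
  map_mul' z w := by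
    apply Subtype.ext
    change algebraMap ℂ (Module.End ℂ (dslV M 2 θ)) ((z : ℂ) * (w : ℂ)) =
      algebraMap ℂ (Module.End ℂ (dslV M 2 θ)) (z : ℂ) *
        algebraMap ℂ (Module.End ℂ (dslV M 2 θ)) (w : ℂ)
    rw [map_mul]
  map_zero' := by
    apply Subtype.ext
    change algebraMap ℂ (Module.End ℂ (dslV M 2 θ)) (0 : ℂ) = 0
    rw [map_zero]
  map_add' z w := by
    apply Subtype.ext
    change algebraMap ℂ (Module.End ℂ (dslV M 2 θ)) ((z : ℂ) + (w : ℂ)) =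
      algebraMap ℂ (Module.End ℂ (dslV M 2 θ)) (z : ℂ) +
        algebraMap ℂ (Module.End ℂ (dslV M 2 θ)) (w : ℂ)
    rw [map_add]

theorem dslRho_sc {M : ℕ} [NeZero M] {θ : DirichletCharacter ℂ M} {L : ℕ} (z : Zb)
    (h : dslV M 2 θ) : dslRho M θ L (dslSc M θ L z) h = (z : ℂ) • h := rfl

/-- the Hecke operators as elements of the Hecke ring -/
noncomputable def dslTel {M : ℕ} [NeZero M] {θ : DirichletCharacter ℂ M} {L : ℕ} {p : ℕ}
    (hp : p.Prime) (hpM : ¬ p ∣ M) (hpL : ¬ p ∣ L) : DslRing M θ L :=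
  ⟨dslT hp hpM, Algebra.subset_adjoin (Or.inr ⟨p, hp, hpM, hpL, rfl⟩)⟩

theorem dslRho_tel {M : ℕ} [NeZero M] {θ : DirichletCharacter ℂ M} {L : ℕ} {p : ℕ}
    (hp : p.Prime) (hpM : ¬ p ∣ M) (hpL : ¬ p ∣ L) (h : dslV M 2 θ) :
    dslRho M θ L (dslTel hp hpM hpL) h = dslT hp hpM h := rfl

theorem dslIn_rho {M : ℕ} [NeZero M] {θ : DirichletCharacter ℂ M} {𝔪 : Ideal Zb} (L : ℕ)
    (e : ℕ → Zb) (he : ∀ p : ℕ, p.Prime → ¬ p ∣ M → (e p : ℂ) = θ (p : ZMod M))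
    (t : DslRing M θ L) (h : dslV M 2 θ) (hh : dslIn 𝔪 h) : dslIn 𝔪 (dslRho M θ L t h) :=
  dslIn_adjoin L e he t.2 h hh

theorem dslIn_zero {M : ℕ} [NeZero M] {θ : DirichletCharacter ℂ M} (𝔪 : Ideal Zb) :
    dslIn 𝔪 (0 : dslV M 2 θ) := by
  intro n
  refine ⟨0, 𝔪.zero_mem, ?_⟩
  have h0 := dsl_qCoeff_smul (0 : ℂ) (0 : CuspForm (Gamma1 M) 2) n
  rw [zero_smul, zero_mul] at h0
  change _ = ModularFormClass.qCoeff (⇑(0 : CuspForm (Gamma1 M) 2)) n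
  rw [h0]
  rfl

/-- the ideal `{t : t g ≡ 0 mod 𝔪}` -/
def dslI {M : ℕ} [NeZero M] {θ : DirichletCharacter ℂ M} (L : ℕ) (𝔪 : Ideal Zb)
    (e : ℕ → Zb) (he : ∀ p : ℕ, p.Prime → ¬ p ∣ M → (e p : ℂ) = θ (p : ZMod M))
    (gV : dslV M 2 θ) : Ideal (DslRing M θ L) where
  carrier := {t | dslIn 𝔪 (dslRho M θ L t gV)}
  add_mem' := fun {x y} hx hy => by
    change dslIn 𝔪 (dslRho M θ L (x + y) gV)
    rw [map_add, LinearMap.add_apply]
    exact dslIn_add hx hy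
  zero_mem' := by
    change dslIn 𝔪 (dslRho M θ L 0 gV)
    rw [map_zero, LinearMap.zero_apply]
    exact dslIn_zero 𝔪
  smul_mem' := fun x {y} hy => by
    change dslIn 𝔪 (dslRho M θ L (x * y) gV)
    rw [map_mul, Module.End.mul_apply]
    exact dslIn_rho L e he x _ hy

theorem mem_dslI {M : ℕ} [NeZero M] {θ : DirichletCharacter ℂ M} (L : ℕ) (𝔪 : Ideal Zb)
    (e : ℕ → Zb) (he : ∀ p : ℕ, p.Prime → ¬ p ∣ M → (e p : ℂ) = θ (p : ZMod M))
    (gV : dslV M 2 θ) (t : DslRing M θ L) :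
    t ∈ dslI L 𝔪 e he gV ↔ dslIn 𝔪 (dslRho M θ L t gV) := Iff.rfl

/-- **(DSL)** the lifting lemma of Deligne–Serre for `S₂(Γ₁(M), θ)`. -/
theorem stmtDSL1 : StmtDSL1 := by
  intro M _ θ g hg ℓ hℓ 𝔪 h𝔪 hℓ𝔪 c hc hc𝔪 a e he hcong
  classical
  -- the vector `g` of `V`
  have hg' : NebChar M 2 θ ⇑g := by
    have := (nebChar_iff_hasNebenK 2 θ ⇑g).mpr hg
    simpa using this
  set gV : dslV M 2 θ := ⟨g, hg'⟩ with hgV
  have hpM_of : ∀ {p : ℕ}, ¬ p ∣ M * ℓ → ¬ p ∣ M := fun hpL h => hpL (Dvd.dvd.mul_right h ℓ)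
  -- `I` is proper
  have hI_ne : dslI (M * ℓ) 𝔪 e he gV ≠ ⊤ := by
    intro htop
    have h1 : (1 : DslRing M θ (M * ℓ)) ∈ dslI (M * ℓ) 𝔪 e he gV := by rw [htop]; trivial
    rw [mem_dslI, map_one] at h1
    obtain ⟨n, hn⟩ := hc𝔪
    obtain ⟨m, hm, em⟩ := h1 n
    have e1 : ((1 : Module.End ℂ (dslV M 2 θ)) gV) = gV := rfl
    rw [e1] at em
    have e2 : (m : ℂ) = (c n : ℂ) := by rw [em, hc n]
    have e3 : m = c n := Subtype.ext e2
    exact hn (e3 ▸ hm)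
  -- scalars of `𝔪` lie in `I`
  have hI_sc : ∀ m ∈ 𝔪, dslSc M θ (M * ℓ) m ∈ dslI (M * ℓ) 𝔪 e he gV := by
    intro m hm
    rw [mem_dslI, dslRho_sc]
    intro n
    refine ⟨m * c n, 𝔪.mul_mem_right _ hm, ?_⟩
    rw [Submodule.coe_smul, dsl_qCoeff_smul, ← hc n]
    push_cast
    rfl
  -- `T_p - a_p ∈ I`
  have hI_T : ∀ (p : ℕ) (hp : p.Prime) (hpL : ¬ p ∣ M * ℓ),
      dslTel hp (hpM_of hpL) hpL - dslSc M θ (M * ℓ) (a p) ∈ dslI (M * ℓ) 𝔪 e he gV := by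
    intro p hp hpL
    rw [mem_dslI]
    intro n
    refine ⟨_, hcong p hp hpL n, ?_⟩
    rw [map_sub, LinearMap.sub_apply, dslRho_tel, dslRho_sc, Submodule.coe_sub, dsl_qCoeff_sub,
      dslT_qCoeff, Submodule.coe_smul, dsl_qCoeff_smul, ← hc, ← hc, ← hc,
      ← he p hp (hpM_of hpL)]
    push_cast
    split_ifs <;> norm_num
  -- maximal ideal above `I`
  obtain ⟨𝔫, h𝔫, hI𝔫⟩ := Ideal.exists_le_maximal _ hI_ne
  have h𝔫prime : 𝔫.IsPrime := h𝔫.isPrime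
  obtain ⟨v, ψ, hv, hψ, hker⟩ :=
    Fermat.Agent.S49.exists_eigenvector_of_injective (K := ℂ) (V := dslV M 2 θ)
      (dslRho M θ (M * ℓ)) (dslRho_injective M θ (M * ℓ)) 𝔫
  -- `ψ` on scalars
  have hψ_sc : ∀ z : Zb, ψ (dslSc M θ (M * ℓ) z) = (z : ℂ) := by
    intro z
    have h1 := hψ (dslSc M θ (M * ℓ) z)
    rw [dslRho_sc] at h1
    have h3 : ((z : ℂ) - ψ (dslSc M θ (M * ℓ) z)) • v = 0 := by rw [sub_smul, h1, sub_self]
    rcases smul_eq_zero.mp h3 with h4 | h4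
    · exact (sub_eq_zero.mp h4).symm
    · exact absurd h4 hv
  let b : ℕ → ℂ := fun p =>
    if h : p.Prime ∧ ¬ p ∣ M * ℓ then ψ (dslTel h.1 (hpM_of h.2) h.2) else 0
  have hb : ∀ (p : ℕ) (hp : p.Prime) (hpL : ¬ p ∣ M * ℓ),
      b p = ψ (dslTel hp (hpM_of hpL) hpL) := by
    intro p hp hpL
    simp only [b]
    rw [dif_pos ⟨hp, hpL⟩]
  refine ⟨v.1, b, ?_, ?_, ?_, ?_⟩
  · intro h0
    apply hv
    apply Subtype.ext
    exact DFunLike.coe_injective h0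
  · have hv2 : NebChar M 2 θ ⇑v.1 := v.2
    exact (nebChar_iff_hasNebenK 2 θ ⇑v.1).mp hv2
  · intro p hp hpL n
    have h1 := hψ (dslTel hp (hpM_of hpL) hpL)
    rw [dslRho_tel, ← hb p hp hpL] at h1
    have h3 := dslT_qCoeff hp (hpM_of hpL) v n
    rw [h1, Submodule.coe_smul, dsl_qCoeff_smul] at h3
    rw [h3]
    norm_num
  · intro p hp hpL t ht
    by_contra hcon
    -- `T_p - t ∈ ker ψ ⊂ 𝔫`
    have h1 : dslTel hp (hpM_of hpL) hpL - dslSc M θ (M * ℓ) t ∈ 𝔫 := by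
      apply hker
      rw [RingHom.mem_ker, map_sub, hψ_sc, ← hb p hp hpL, ht, sub_self]
    -- `T_p - a_p ∈ I ⊂ 𝔫`
    have h2 : dslTel hp (hpM_of hpL) hpL - dslSc M θ (M * ℓ) (a p) ∈ 𝔫 :=
      hI𝔫 (hI_T p hp hpL)
    have h3 : dslSc M θ (M * ℓ) (t - a p) ∈ 𝔫 := by
      have : dslSc M θ (M * ℓ) (t - a p) =
          (dslTel hp (hpM_of hpL) hpL - dslSc M θ (M * ℓ) (a p)) -
            (dslTel hp (hpM_of hpL) hpL - dslSc M θ (M * ℓ) t) := by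
        rw [map_sub]
        abel
      rw [this]
      exact 𝔫.sub_mem h2 h1
    obtain ⟨y, i, hi, hyi⟩ := h𝔪.exists_inv hcon
    have h4 : (1 : DslRing M θ (M * ℓ)) =
        dslSc M θ (M * ℓ) y * dslSc M θ (M * ℓ) (t - a p) + dslSc M θ (M * ℓ) i := by
      rw [← map_mul, ← map_add, hyi, map_one]
    have h5 : (1 : DslRing M θ (M * ℓ)) ∈ 𝔫 := by
      rw [h4]
      exact 𝔫.add_mem (𝔫.mul_mem_left _ h3) (hI𝔫 (hI_sc i hi))
    exact h𝔫.ne_top ((Ideal.eq_top_iff_one 𝔫).mpr h5)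

end Fermat.Agent.S48


end ZBZ4S48_014_0

/-! ### bundled: `Fermat.Agent.S48.Reduced3` -/
section ZBZ4S48_014_1

/-!
# S48 (Deligne–Serre) from its three open inputs

`s48_of_e1_es1_cd : StmtE1 → StmtES1 → StmtChebDensity → (S48)`:
* `StmtE1`  — the weight one Eisenstein series `≡ 1` mod `𝔪` (`S48/E1`),
* `StmtES1` — the Eichler–Shimura package for `Γ₁(M)` with nebentypus (`Fermat/Agent/ES1`),
* `StmtChebDensity` — Chebotarev's density theorem (`S48/CD`).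
-/

set_option autoImplicit false

open CongruenceSubgroup

namespace Fermat.Agent.S48

theorem stmtIntPlus : StmtIntPlus := stmtIntPlus_of_neben stmtNeben

theorem stmtRes_of_e1_es1 (hE1 : StmtE1) (hES : StmtES1) : StmtRes :=
  stmtResOfPieces stmtIntPlus hE1 stmtDSL1 hES

/-- **S48 from its three open inputs.** -/
theorem s48_of_e1_es1_cd (hE1 : StmtE1) (hES : StmtES1) (hCD : StmtChebDensity)
    (N : ℕ) [NeZero N] (ε : DirichletCharacter ℂ N) (f : CuspForm (Gamma1 N) 1)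
    (hf₁ : ModularFormClass.qCoeff f 1 = 1)
    (hT : ∀ p : ℕ, p.Prime → ¬ p ∣ N → ∀ n : ℕ,
        ModularFormClass.qCoeff f (p * n) +
            ε (p : ZMod N) * (if p ∣ n then ModularFormClass.qCoeff f (n / p) else 0) =
          ModularFormClass.qCoeff f p * ModularFormClass.qCoeff f n) :
    ∃ ρ : GalQ →* GL (Fin 2) ℂ, GaloisFactorsThroughFiniteLevel ρ ∧
      (Deformation.matrixRepresentation ρ).IsIrreducible ∧
      ∀ p : ℕ, p.Prime → ¬ p ∣ N →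
        ∀ A : ValuationSubring (AlgebraicClosure ℚ), A.LiesOverPrime p →
          (∀ σ ∈ A.inertiaSubgroupIn ℚ, ρ σ = 1) ∧
          ∀ σ : GalQ, A.IsFrobeniusAt σ p →
            ((ρ σ : GL (Fin 2) ℂ) : Matrix (Fin 2) (Fin 2) ℂ).trace = ModularFormClass.qCoeff f p ∧
            ((ρ σ : GL (Fin 2) ℂ) : Matrix (Fin 2) (Fin 2) ℂ).det = ε (p : ZMod N) :=
  s48_of_res_cd (stmtRes_of_e1_es1 hE1 hES) hCD N ε f hf₁ hT

end Fermat.Agent.S48


end ZBZ4S48_014_1
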