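/- GENERATED FILE (helper35, build-time optimisation, NOTES/ZB.md): verbatim concatenation of the modules
   Fermat.Agent.S48.CD.NormLSign
   Fermat.Agent.S48.CD.NormLShift
   Do not edit; do not import together with these modules. -/
import Mathlib
import Fermat.Agent.ZB.S14_006

/-! ### bundled: `Fermat.Agent.S48.CD.NormLSign` -/
section ZBZ4S48_017_0

/-!
# S48/CD-L, part 1: the norm residue of `x + ρ`

For `ρ ∈ m 𝓞 K` and `x` large compared with `ρ` at every infinite place, the absolute norms of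
the principal ideals `(x + ρ)` and `(x)` are congruent modulo `m`:
`N (x + ρ) ≡ N x mod m` (determinants modulo `m`) and `N (x + ρ) / N x = N (1 + ρ / x) > 0`.
-/

set_option autoImplicit false

open NumberField

namespace Fermat.Agent.S48.CD

variable {K : Type} [Field K] [NumberField K]

/-- `N (x + ρ) ≡ N x mod m` for `ρ ∈ m 𝓞 K`. -/
theorem normL_norm_congr (m : ℕ) (x ρ : 𝓞 K) (hρ : ρ ∈ Ideal.span {((m : ℕ) : 𝓞 K)}) :
    ((Algebra.norm ℤ (x + ρ) : ℤ) : ZMod m) = ((Algebra.norm ℤ x : ℤ) : ZMod m) := by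
  classical
  obtain ⟨ρ', rfl⟩ := Ideal.mem_span_singleton'.mp hρ
  rw [Algebra.norm_eq_matrix_det (RingOfIntegers.basis K),
    Algebra.norm_eq_matrix_det (RingOfIntegers.basis K)]
  show (Int.castRingHom (ZMod m)) _ = (Int.castRingHom (ZMod m)) _
  rw [RingHom.map_det, RingHom.map_det]
  congr 1
  rw [map_add, map_mul, map_natCast, map_add, map_mul, map_natCast]
  have h0 : ((m : ℕ) : Matrix (Module.Free.ChooseBasisIndex ℤ (𝓞 K))
      (Module.Free.ChooseBasisIndex ℤ (𝓞 K)) (ZMod m)) = 0 := by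
    ext i j
    rw [Matrix.natCast_apply]
    simp
  rw [h0, mul_zero, add_zero]

/-- `exp (1/2) < 2`. -/
theorem normL_exp_half_lt_two : Real.exp (1 / 2) < 2 := by
  have h1 : Real.exp (1 / 2) * Real.exp (1 / 2) = Real.exp 1 := by
    rw [← Real.exp_add]; norm_num
  have h2 : Real.exp 1 < 4 := lt_trans Real.exp_one_lt_d9 (by norm_num)
  have h3 : 0 < Real.exp (1 / 2) := Real.exp_pos _
  nlinarith

/-- The norm of `1 + u` is positive if `u` is small at every infinite place. -/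
theorem normL_norm_pos (u : K)
    (hu : ∀ v : InfinitePlace K, v u ≤ 1 / (2 * (Module.finrank ℚ K : ℝ))) :
    0 < Algebra.norm ℚ (1 + u) := by
  have hn : (0 : ℝ) < (Module.finrank ℚ K : ℝ) := Nat.cast_pos.mpr Module.finrank_pos
  have h1 := Algebra.norm_eq_prod_embeddings ℚ ℂ (1 + u)
  have h2 : ‖(∏ σ : K →ₐ[ℚ] ℂ, (1 + σ u)) - 1‖ ≤
      Real.exp (∑ σ : K →ₐ[ℚ] ℂ, ‖σ u‖) - 1 :=
    Finset.norm_prod_one_add_sub_one_le _ _
  have h3 : ∑ σ : K →ₐ[ℚ] ℂ, ‖σ u‖ ≤ 1 / 2 := by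
    have h4 : ∀ σ : K →ₐ[ℚ] ℂ, ‖σ u‖ ≤ 1 / (2 * (Module.finrank ℚ K : ℝ)) := by
      intro σ
      have := hu (InfinitePlace.mk σ.toRingHom)
      rwa [InfinitePlace.apply] at this
    calc ∑ σ : K →ₐ[ℚ] ℂ, ‖σ u‖ ≤ ∑ _σ : K →ₐ[ℚ] ℂ, 1 / (2 * (Module.finrank ℚ K : ℝ)) :=
          Finset.sum_le_sum fun σ _ => h4 σ
      _ = 1 / 2 := by
          rw [Finset.sum_const, Finset.card_univ, AlgHom.card, nsmul_eq_mul]
          field_simp
  have h5 : ‖(∏ σ : K →ₐ[ℚ] ℂ, (1 + σ u)) - 1‖ < 1 := by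
    have h6 : Real.exp (∑ σ : K →ₐ[ℚ] ℂ, ‖σ u‖) ≤ Real.exp (1 / 2) := Real.exp_le_exp.mpr h3
    have := normL_exp_half_lt_two
    linarith
  have h7 : (∏ σ : K →ₐ[ℚ] ℂ, (1 + σ u)) = ((Algebra.norm ℚ (1 + u) : ℚ) : ℂ) := by
    rw [show ((Algebra.norm ℚ (1 + u) : ℚ) : ℂ) = algebraMap ℚ ℂ (Algebra.norm ℚ (1 + u)) from rfl,
      h1]
    refine Finset.prod_congr rfl fun σ _ => ?_
    rw [map_add, map_one]
  rw [h7] at h5
  have h8 : ‖(((Algebra.norm ℚ (1 + u) : ℚ) : ℂ)) - 1‖ =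
      |((Algebra.norm ℚ (1 + u) : ℚ) : ℝ) - 1| := by
    have : (((Algebra.norm ℚ (1 + u) : ℚ) : ℂ)) - 1 =
        (((((Algebra.norm ℚ (1 + u) : ℚ) : ℝ) - 1 : ℝ)) : ℂ) := by
      push_cast; ring
    rw [this, Complex.norm_real, Real.norm_eq_abs]
  rw [h8, abs_lt] at h5
  have h9 : (0 : ℝ) < ((Algebra.norm ℚ (1 + u) : ℚ) : ℝ) := by linarith [h5.1]
  exact_mod_cast h9

/-- **(P)**: for `ρ ∈ m 𝓞 K` and `x` large compared with `ρ` at every infinite place, the
absolute norms of `(x + ρ)` and `(x)` agree modulo `m`. -/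
theorem normL_absNorm_shift (m : ℕ) (x ρ : 𝓞 K) (hρ : ρ ∈ Ideal.span {((m : ℕ) : 𝓞 K)})
    (hx0 : x ≠ 0)
    (hx : ∀ v : InfinitePlace K, 2 * (Module.finrank ℚ K : ℝ) * v (ρ : K) ≤ v (x : K)) :
    ((Ideal.absNorm (Ideal.span {x + ρ}) : ℕ) : ZMod m) =
      ((Ideal.absNorm (Ideal.span {x}) : ℕ) : ZMod m) := by
  have hn : (0 : ℝ) < (Module.finrank ℚ K : ℝ) := Nat.cast_pos.mpr Module.finrank_pos
  have hxK : (x : K) ≠ 0 := by
    intro h; exact hx0 (by exact_mod_cast h)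
  set u : K := (ρ : K) / (x : K) with hu
  have hupos : 0 < Algebra.norm ℚ (1 + u) := by
    apply normL_norm_pos
    intro v
    have hvx : 0 < v (x : K) := v.pos_iff.mpr hxK
    rw [hu, map_div₀, div_le_iff₀ hvx]
    have := hx v
    have e : 1 / (2 * (Module.finrank ℚ K : ℝ)) * v (x : K) =
        v (x : K) / (2 * (Module.finrank ℚ K : ℝ)) := by ring
    rw [e, le_div_iff₀ (by positivity)]
    linarith
  have hmul : ((x + ρ : 𝓞 K) : K) = (x : K) * (1 + u) := by
    rw [hu]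
    push_cast
    field_simp
  -- relation between the integral norms
  have hrel : ((Algebra.norm ℤ (x + ρ) : ℤ) : ℚ) =
      ((Algebra.norm ℤ x : ℤ) : ℚ) * Algebra.norm ℚ (1 + u) := by
    rw [Algebra.coe_norm_int, Algebra.coe_norm_int, hmul, map_mul]
  have hb0 : Algebra.norm ℤ x ≠ 0 := by
    rw [Ne, Algebra.norm_eq_zero_iff]
    exact hx0
  have hcong := normL_norm_congr m x ρ hρ
  rw [Ideal.absNorm_span_singleton, Ideal.absNorm_span_singleton]
  rcases lt_or_gt_of_ne hb0 with hb | hb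
  · -- both negative
    have ha : Algebra.norm ℤ (x + ρ) < 0 := by
      have h1 : ((Algebra.norm ℤ x : ℤ) : ℚ) < 0 := by exact_mod_cast hb
      have h2 : ((Algebra.norm ℤ (x + ρ) : ℤ) : ℚ) < 0 := by
        rw [hrel]; exact mul_neg_of_neg_of_pos h1 hupos
      exact_mod_cast h2
    have e1 : ((Algebra.norm ℤ (x + ρ)).natAbs : ℤ) = - Algebra.norm ℤ (x + ρ) := by
      rw [Int.natCast_natAbs, abs_of_neg ha]
    have e2 : ((Algebra.norm ℤ x).natAbs : ℤ) = - Algebra.norm ℤ x := by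
      rw [Int.natCast_natAbs, abs_of_neg hb]
    have e3 : (((Algebra.norm ℤ (x + ρ)).natAbs : ℕ) : ZMod m) =
        ((((Algebra.norm ℤ (x + ρ)).natAbs : ℕ) : ℤ) : ZMod m) := (Int.cast_natCast _).symm
    have e4 : (((Algebra.norm ℤ x).natAbs : ℕ) : ZMod m) =
        ((((Algebra.norm ℤ x).natAbs : ℕ) : ℤ) : ZMod m) := (Int.cast_natCast _).symm
    rw [e3, e4, e1, e2, Int.cast_neg, Int.cast_neg, hcong]
  · have ha : 0 < Algebra.norm ℤ (x + ρ) := by
      have h1 : (0 : ℚ) < ((Algebra.norm ℤ x : ℤ) : ℚ) := by exact_mod_cast hb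
      have h2 : (0 : ℚ) < ((Algebra.norm ℤ (x + ρ) : ℤ) : ℚ) := by
        rw [hrel]; exact mul_pos h1 hupos
      exact_mod_cast h2
    have e1 : ((Algebra.norm ℤ (x + ρ)).natAbs : ℤ) = Algebra.norm ℤ (x + ρ) := by
      rw [Int.natCast_natAbs, abs_of_pos ha]
    have e2 : ((Algebra.norm ℤ x).natAbs : ℤ) = Algebra.norm ℤ x := by
      rw [Int.natCast_natAbs, abs_of_pos hb]
    have e3 : (((Algebra.norm ℤ (x + ρ)).natAbs : ℕ) : ZMod m) =
        ((((Algebra.norm ℤ (x + ρ)).natAbs : ℕ) : ℤ) : ZMod m) := (Int.cast_natCast _).symm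
    have e4 : (((Algebra.norm ℤ x).natAbs : ℕ) : ZMod m) =
        ((((Algebra.norm ℤ x).natAbs : ℕ) : ℤ) : ZMod m) := (Int.cast_natCast _).symm
    rw [e3, e4, e1, e2, hcong]

end Fermat.Agent.S48.CD


end ZBZ4S48_017_0

/-! ### bundled: `Fermat.Agent.S48.CD.NormLShift` -/
section ZBZ4S48_017_1

/-!
# S48/CD-L, part 2: the shift estimate with a norm character, with continuity

`F_s x = χ (N (x)) · w x · |N x|^(-s)`.  For `ρ ∈ m 𝓞 K` the differences `F_s (x + ρ) - F_s x`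
are dominated, uniformly in `s ∈ [1, 2]`, by a summable function of `x`; hence
`s ↦ ∑_{x ∈ 𝔞} (F_s (x + ρ) - F_s x)` is continuous on `[1, 2]`.
-/

set_option autoImplicit false
set_option linter.unusedSectionVars false
set_option linter.unusedVariables false

open NumberField
open scoped nonZeroDivisors
open Fermat.Agent.S14

namespace Fermat.Agent.S48.CD

variable {K : Type} [Field K] [NumberField K] {m : ℕ}

/-- `ψ I = χ (N I mod m)`. -/
noncomputable def normChar (χ : DirichletCharacter ℂ m) (I : Ideal (𝓞 K)) : ℂ :=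
  χ ((Ideal.absNorm I : ℕ) : ZMod m)

theorem norm_normChar_le (χ : DirichletCharacter ℂ m) (I : Ideal (𝓞 K)) :
    ‖normChar χ I‖ ≤ 1 :=
  DirichletCharacter.norm_le_one χ _

theorem normChar_mul (χ : DirichletCharacter ℂ m) (I J : Ideal (𝓞 K)) :
    normChar χ (I * J) = normChar χ I * normChar χ J := by
  unfold normChar
  rw [map_mul, Nat.cast_mul, map_mul]

/-- The summand `F_s x = χ (N (x)) w x |N x|^(-s)`. -/
noncomputable def normLF (χ : DirichletCharacter ℂ m) (w : K → ℝ) (s : ℝ) (x : 𝓞 K) : ℂ :=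
  normChar χ (Ideal.span {x}) * ((fs w s x : ℝ) : ℂ)

theorem norm_normLF_le (χ : DirichletCharacter ℂ m) {w : K → ℝ} (hw0 : ∀ x, 0 ≤ w x) (s : ℝ)
    (x : 𝓞 K) : ‖normLF χ w s x‖ ≤ fs w s x := by
  unfold normLF
  rw [norm_mul, Complex.norm_real, Real.norm_of_nonneg (fs_nonneg hw0 s x)]
  exact mul_le_of_le_one_left (fs_nonneg hw0 s x) (norm_normChar_le χ _)

theorem normLF_zero (χ : DirichletCharacter ℂ m) (w : K → ℝ) {s : ℝ} (hs : s ≠ 0) :
    normLF χ w s (0 : 𝓞 K) = 0 := by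
  unfold normLF
  rw [fs_zero w hs, Complex.ofReal_zero, mul_zero]

/-- The constant `M` of the sign-change estimate. -/
noncomputable def normLM (K : Type) [Field K] [NumberField K] (B : ℝ) (ρ : 𝓞 K) : ℝ :=
  1 + ∑ v : InfinitePlace K,
    (B * (2 * (Module.finrank ℚ K : ℝ) * v (ρ : K))) ^ (Module.finrank ℚ K)

theorem one_le_normLM {B : ℝ} (hB : 0 < B) (ρ : 𝓞 K) : 1 ≤ normLM K B ρ := by
  unfold normLM
  have : 0 ≤ ∑ v : InfinitePlace K,
      (B * (2 * (Module.finrank ℚ K : ℝ) * v (ρ : K))) ^ (Module.finrank ℚ K) :=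
    Finset.sum_nonneg fun v _ => pow_nonneg (mul_nonneg hB.le
      (mul_nonneg (by positivity) (apply_nonneg v _))) _
  linarith

/-- **Domination**: the shift estimate of S14 with the norm character inserted. -/
theorem normL_shift_dom {w : K → ℝ} {T : Finset (𝓞 K)ˣ} {B L : ℝ}
    (hW : IsUnitWeight K w T B L) (χ : DirichletCharacter ℂ m) (ρ : 𝓞 K)
    (hρ : ρ ∈ Ideal.span {((m : ℕ) : 𝓞 K)}) :
    ∃ A : ℝ, 0 ≤ A ∧ ∀ s : ℝ, 1 ≤ s → s ≤ 2 → ∀ x : 𝓞 K,
      ‖normLF χ w s (x + ρ) - normLF χ w s x‖ ≤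
        A * (gs w T (sig K) x + gs w T (sig K) (x + ρ)) + ind0 x + ind0 (x + ρ) := by
  obtain ⟨A₀, hA₀0, hA₀⟩ := lb_shift_dom hW ρ
  set M : ℝ := normLM K B ρ with hM
  have hM1 : 1 ≤ M := one_le_normLM hW.B_pos ρ
  have hM0 : 0 < M := lt_of_lt_of_le zero_lt_one hM1
  have hσ0 : 0 < sig K := lt_trans zero_lt_one one_lt_sig
  have hMσ : 0 ≤ M ^ (sig K) := Real.rpow_nonneg hM0.le _
  refine ⟨A₀ + 2 * M ^ (sig K), by positivity, ?_⟩
  intro s hs1 hs2 x
  have hs0 : (0 : ℝ) < s := by linarith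
  have hg1 := gs_nonneg hW.nonneg T (sig K) x
  have hg2 := gs_nonneg hW.nonneg T (sig K) (x + ρ)
  have hi1 := ind0_nonneg x
  have hi2 := ind0_nonneg (x + ρ)
  have hf1 := fs_nonneg hW.nonneg s x
  have hf2 := fs_nonneg hW.nonneg s (x + ρ)
  have hf1' := fs_le_one hW.nonneg hW.le_one hs0 x
  have hf2' := fs_le_one hW.nonneg hW.le_one hs0 (x + ρ)
  have hn1 := norm_normLF_le χ hW.nonneg s x
  have hn2 := norm_normLF_le χ hW.nonneg s (x + ρ)
  have hAg : 0 ≤ (A₀ + 2 * M ^ (sig K)) * (gs w T (sig K) x + gs w T (sig K) (x + ρ)) := by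
    positivity
  by_cases hx : x = 0
  · have e1 : ind0 x = 1 := by simp [ind0, hx]
    have e2 : normLF χ w s x = 0 := by rw [hx]; exact normLF_zero χ w hs0.ne'
    rw [e2, sub_zero]
    linarith
  by_cases hy : x + ρ = 0
  · have e1 : ind0 (x + ρ) = 1 := by simp [ind0, hy]
    have e2 : normLF χ w s (x + ρ) = 0 := by rw [hy]; exact normLF_zero χ w hs0.ne'
    rw [e2, zero_sub, norm_neg]
    linarith
  -- the generic case
  have hind1 : ind0 x = 0 := by simp [ind0, hx]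
  have hind2 : ind0 (x + ρ) = 0 := by simp [ind0, hy]
  have hΔ : |fs w s (x + ρ) - fs w s x| ≤
      A₀ * (gs w T (sig K) x + gs w T (sig K) (x + ρ)) := by
    have := hA₀ s hs1 hs2 x
    rwa [hind1, hind2, add_zero, add_zero] at this
  have hdecomp : normLF χ w s (x + ρ) - normLF χ w s x =
      normChar χ (Ideal.span {x + ρ}) * (((fs w s (x + ρ) - fs w s x : ℝ)) : ℂ) +
        (normChar χ (Ideal.span {x + ρ}) - normChar χ (Ideal.span {x})) *
          ((fs w s x : ℝ) : ℂ) := by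
    unfold normLF
    push_cast
    ring
  have hfirst : ‖normChar χ (Ideal.span {x + ρ}) * (((fs w s (x + ρ) - fs w s x : ℝ)) : ℂ)‖ ≤
      A₀ * (gs w T (sig K) x + gs w T (sig K) (x + ρ)) := by
    rw [norm_mul, Complex.norm_real, Real.norm_eq_abs]
    calc ‖normChar χ (Ideal.span {x + ρ})‖ * |fs w s (x + ρ) - fs w s x|
        ≤ 1 * |fs w s (x + ρ) - fs w s x| :=
          mul_le_mul_of_nonneg_right (norm_normChar_le χ _) (abs_nonneg _)
      _ = |fs w s (x + ρ) - fs w s x| := one_mul _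
      _ ≤ _ := hΔ
  have hsecond : ‖(normChar χ (Ideal.span {x + ρ}) - normChar χ (Ideal.span {x})) *
      ((fs w s x : ℝ) : ℂ)‖ ≤ 2 * M ^ (sig K) * gs w T (sig K) x := by
    by_cases hbig : ∀ v : InfinitePlace K,
        2 * (Module.finrank ℚ K : ℝ) * v (ρ : K) ≤ v (x : K)
    · have e : normChar χ (Ideal.span {x + ρ}) = normChar χ (Ideal.span {x}) := by
        unfold normChar
        rw [normL_absNorm_shift m x ρ hρ hx hbig]
      rw [e, sub_self, zero_mul, norm_zero]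
      positivity
    · simp only [not_forall, not_le] at hbig
      obtain ⟨v, hv⟩ := hbig
      by_cases hwx : w (x : K) = 0
      · have e : fs w s x = 0 := by rw [fs, hwx, zero_mul]
        rw [e, Complex.ofReal_zero, mul_zero, norm_zero]
        positivity
      · have hx' : (x : K) ≠ 0 := by
          intro h; exact hx (by exact_mod_cast h)
        have hNx := one_le_nm_of_integer hx
        have hNx0 : 0 < nm (x : K) := lt_of_lt_of_le zero_lt_one hNx
        have hsupp := hW.supp (x : K) hx' hwx v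
        have hle : nm (x : K) ≤ M := by
          have h1 : (B * v (x : K)) ^ (Module.finrank ℚ K) ≤
              (B * (2 * (Module.finrank ℚ K : ℝ) * v (ρ : K))) ^ (Module.finrank ℚ K) := by
            apply pow_le_pow_left₀ (mul_nonneg hW.B_pos.le (apply_nonneg v _))
            exact mul_le_mul_of_nonneg_left hv.le hW.B_pos.le
          have h2 : (B * (2 * (Module.finrank ℚ K : ℝ) * v (ρ : K))) ^ (Module.finrank ℚ K) ≤
              ∑ v : InfinitePlace K,
                (B * (2 * (Module.finrank ℚ K : ℝ) * v (ρ : K))) ^ (Module.finrank ℚ K) :=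
            Finset.single_le_sum (f := fun v : InfinitePlace K =>
              (B * (2 * (Module.finrank ℚ K : ℝ) * v (ρ : K))) ^ (Module.finrank ℚ K))
              (fun v _ => pow_nonneg (mul_nonneg hW.B_pos.le
                (mul_nonneg (by positivity) (apply_nonneg v _))) _) (Finset.mem_univ v)
          have h3 : nm (x : K) ≤ (B * v (x : K)) ^ (Module.finrank ℚ K) := hsupp
          rw [hM, normLM]
          linarith
        -- `fs w s x ≤ M^σ gs x`
        have h4 : nm (x : K) ^ (sig K) ≤ M ^ (sig K) :=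
          Real.rpow_le_rpow hNx0.le hle hσ0.le
        have h5 : 1 ≤ M ^ (sig K) * nm (x : K) ^ (-sig K) := by
          rw [Real.rpow_neg hNx0.le, ← div_eq_mul_inv, le_div_iff₀ (Real.rpow_pos_of_pos hNx0 _),
            one_mul]
          exact h4
        have h6 : nm (x : K) ^ (-sig K) ≤ gs w T (sig K) x := le_gs_of_ne_zero hW (sig K) hx hwx
        have h7 : fs w s x ≤ M ^ (sig K) * gs w T (sig K) x := by
          calc fs w s x ≤ 1 := hf1'
            _ ≤ M ^ (sig K) * nm (x : K) ^ (-sig K) := h5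
            _ ≤ M ^ (sig K) * gs w T (sig K) x := mul_le_mul_of_nonneg_left h6 hMσ
        rw [norm_mul, Complex.norm_real, Real.norm_of_nonneg hf1]
        have h8 : ‖normChar χ (Ideal.span {x + ρ}) - normChar χ (Ideal.span {x})‖ ≤ 2 := by
          calc ‖normChar χ (Ideal.span {x + ρ}) - normChar χ (Ideal.span {x})‖
              ≤ ‖normChar χ (Ideal.span {x + ρ})‖ + ‖normChar χ (Ideal.span {x})‖ :=
                norm_sub_le _ _
            _ ≤ 1 + 1 := add_le_add (norm_normChar_le χ _) (norm_normChar_le χ _)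
            _ = 2 := by norm_num
        calc ‖normChar χ (Ideal.span {x + ρ}) - normChar χ (Ideal.span {x})‖ * fs w s x
            ≤ 2 * (M ^ (sig K) * gs w T (sig K) x) :=
              mul_le_mul h8 h7 hf1 (by norm_num)
          _ = 2 * M ^ (sig K) * gs w T (sig K) x := by ring
  rw [hdecomp, hind1, hind2, add_zero, add_zero]
  refine (norm_add_le _ _).trans ?_
  have h9 : 0 ≤ 2 * M ^ (sig K) * gs w T (sig K) (x + ρ) := by positivity
  calc _ ≤ A₀ * (gs w T (sig K) x + gs w T (sig K) (x + ρ)) +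
        2 * M ^ (sig K) * gs w T (sig K) x := add_le_add hfirst hsecond
    _ ≤ (A₀ + 2 * M ^ (sig K)) * (gs w T (sig K) x + gs w T (sig K) (x + ρ)) := by
        nlinarith

/-- `s ↦ F_s x` is continuous on `[1, 2]`. -/
theorem normLF_continuousOn (χ : DirichletCharacter ℂ m) (w : K → ℝ) (x : 𝓞 K) :
    ContinuousOn (fun s : ℝ => normLF χ w s x) (Set.Icc 1 2) := by
  unfold normLF fs
  refine ContinuousOn.mul continuousOn_const ?_
  refine Complex.continuous_ofReal.comp_continuousOn ?_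
  refine ContinuousOn.mul continuousOn_const ?_
  intro s hs
  have hs0 : -s ≠ 0 := by
    have := hs.1
    intro h
    linarith
  have h1 : ContinuousAt (fun t : ℝ => nm (x : K) ^ t) (-s) :=
    Real.continuousAt_const_rpow' hs0
  have h2 : ContinuousAt (fun t : ℝ => nm (x : K) ^ (-t)) s :=
    ContinuousAt.comp (f := fun t : ℝ => -t) (g := fun t : ℝ => nm (x : K) ^ t) h1
      continuous_neg.continuousAt
  exact h2.continuousWithinAt

/-- Summability of `F_s` on `𝓞 K` for `s > 1`. -/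
theorem normLF_summable {w : K → ℝ} {T : Finset (𝓞 K)ˣ} {B L : ℝ}
    (hW : IsUnitWeight K w T B L) (hF : FiberwiseAt K w) (χ : DirichletCharacter ℂ m)
    {s : ℝ} (hs : 1 < s) : Summable (normLF χ w s) :=
  Summable.of_norm_bounded (hasSum_fs hF hs).summable (fun x => norm_normLF_le χ hW.nonneg s x)

/-- **Continuity of the shift error**: `s ↦ ∑_{x ∈ 𝔞} (F_s (x + ρ) - F_s x)` is continuous on
`[1, 2]`, for `ρ ∈ m 𝓞 K`. -/
theorem normL_shift_continuousOn {w : K → ℝ} {T : Finset (𝓞 K)ˣ} {B L : ℝ}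
    (hW : IsUnitWeight K w T B L) (hF : FiberwiseAt K w) (χ : DirichletCharacter ℂ m)
    (ρ : 𝓞 K) (hρ : ρ ∈ Ideal.span {((m : ℕ) : 𝓞 K)}) (𝔞 : Ideal (𝓞 K)) :
    ContinuousOn (fun s : ℝ =>
      ∑' x : 𝔞, (normLF χ w s ((x : 𝓞 K) + ρ) - normLF χ w s (x : 𝓞 K))) (Set.Icc 1 2) := by
  obtain ⟨A, hA0, hA⟩ := normL_shift_dom hW χ ρ hρ
  have hdom := hasSum_dom hF T A ρ
  have hdomS : Summable (fun x : 𝔞 =>
      A * (gs w T (sig K) (x : 𝓞 K) + gs w T (sig K) ((x : 𝓞 K) + ρ)) + ind0 (x : 𝓞 K) +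
        ind0 ((x : 𝓞 K) + ρ)) :=
    hdom.summable.comp_injective Subtype.val_injective
  refine continuousOn_tsum (fun x => ?_) hdomS (fun x s hs => hA s hs.1 hs.2 (x : 𝓞 K))
  exact (normLF_continuousOn χ w ((x : 𝓞 K) + ρ)).sub (normLF_continuousOn χ w (x : 𝓞 K))

/-- The shift identity for `s > 1`. -/
theorem normL_shift_eq {w : K → ℝ} {T : Finset (𝓞 K)ˣ} {B L : ℝ}
    (hW : IsUnitWeight K w T B L) (hF : FiberwiseAt K w) (χ : DirichletCharacter ℂ m)
    (ρ : 𝓞 K) (𝔞 : Ideal (𝓞 K)) {s : ℝ} (hs : 1 < s) :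
    ∑' x : 𝔞, normLF χ w s ((x : 𝓞 K) + ρ) =
      ∑' x : 𝔞, normLF χ w s (x : 𝓞 K) +
        ∑' x : 𝔞, (normLF χ w s ((x : 𝓞 K) + ρ) - normLF χ w s (x : 𝓞 K)) := by
  have hS := normLF_summable hW hF χ hs
  have h1 : Summable (fun x : 𝔞 => normLF χ w s (x : 𝓞 K)) :=
    hS.comp_injective Subtype.val_injective
  have hinj : Function.Injective (fun x : 𝔞 => (x : 𝓞 K) + ρ) := by
    intro x y hxy
    exact Subtype.ext (add_right_cancel hxy)
  have h2 : Summable (fun x : 𝔞 => normLF χ w s ((x : 𝓞 K) + ρ)) := hS.comp_injective hinj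
  rw [h2.tsum_sub h1]
  ring

end Fermat.Agent.S48.CD


end ZBZ4S48_017_1
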