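/- GENERATED FILE (helper35, build-time optimisation, NOTES/ZB.md): verbatim concatenation of the modules
   Fermat.Agent.S48.CD.Plan
   Fermat.Agent.S48.CD.NormL
   Fermat.Agent.S48.CD.EulerLog
   Fermat.Agent.S48.CD.ArgBounded
   Fermat.Agent.S48.CD.SplitOne
   Fermat.Agent.S48.CD.NormRange
   Fermat.Agent.S48.CD.NormGen
   Fermat.Agent.S48.CD.DirichletE
   Fermat.Agent.S48.CD.FrobTransfer
   Fermat.Agent.S48.CD.FiberCount
   Fermat.Agent.S48.CD.ChebCycT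
   Fermat.Agent.S48.CD.GlueConj
   Fermat.Agent.S48.CD.CycLift
   Fermat.Agent.S48.CD.GoodCount
   Fermat.Agent.S48.CD.ChebClass
   Fermat.Agent.S48.CD.Final
   Fermat.Agent.S48.CD.Main
   Fermat.Agent.ES1.S48Glue
   Do not edit; do not import together with these modules. -/
import Mathlib
import Fermat.Agent.ZB.S48_002
import Fermat.Agent.ZB.Cheb_001
import Fermat.Agent.ZB.Z4S48_017
import Fermat.Agent.ZB.S14_003
import Fermat.Agent.ZB.PT_072
import Fermat.Agent.ZB.PT_071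
import Fermat.Agent.ZB.S14_001
import Fermat.Agent.ZB.Cheb_002
import Fermat.Agent.ZB.Z4S48_002
import Fermat.Agent.ZB.Common_003
import Fermat.Agent.ZB.ES1_020
import Fermat.Agent.ZB.ES1_005
import Fermat.Agent.ZB.ES1_003
import Fermat.Agent.ZB.Z4S29_001
import Fermat.Agent.ZB.Z4S48_014
import Fermat.Agent.ZB.Z4S48_003

/-! ### bundled: `Fermat.Agent.S48.CD.Plan` -/
section ZBZ4S48_018_0
/-
S48/CD (Chebotarev density, sub-captain helper61): INTERFACE FILE (definitions only, no proofs).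

Goal: `Fermat.Agent.S48.StmtChebDensity`.  Route (NOTES/S48-CD.md):

  Dirichlet over `E` for norms mod `ℓ`  (analysis: `StmtNormL`, `StmtEulerLog`, `StmtArgBounded`;
                                         algebra: `StmtSplitOne`, `StmtNormRange`, `StmtNormGen`)
    ⇒ `StmtDirichletE`
    ⇒ (Deuring: `StmtFrobTransfer`, `StmtFiberCount`)  `StmtChebCycT`   (classes of "cyclotomic type")
    ⇒ (crossing: `StmtGlueConj`, `StmtCycLift`, `StmtGoodCount`)  `StmtChebClass`  (one class)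
    ⇒ `StmtChebDensity`.
-/

set_option autoImplicit false

namespace Fermat.Agent.S48.CD

open NumberField IsDedekindDomain
open Fermat.Agent.Cheb (HasLogDensity)

/-- `∑_I χ(N I) N I^{-s}`, the sum over the nonzero ideals of `𝓞 E` -/
noncomputable def idealL (E : Type) [Field E] [NumberField E] (m : ℕ)
    (χ : DirichletCharacter ℂ m) (s : ℝ) : ℂ :=
  ∑' I : nonZeroDivisors (Ideal (𝓞 E)),
    (χ ((Ideal.absNorm (I : Ideal (𝓞 E)) : ℕ) : ZMod m) : ℂ) *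
      (((Ideal.absNorm (I : Ideal (𝓞 E)) : ℝ) ^ (-s) : ℝ) : ℂ)

/-- `∑_v χ(N v) N v^{-s}`, the sum over the nonzero primes of `𝓞 E` -/
noncomputable def primeL (E : Type) [Field E] [NumberField E] (m : ℕ)
    (χ : DirichletCharacter ℂ m) (s : ℝ) : ℂ :=
  ∑' v : HeightOneSpectrum (𝓞 E),
    (χ ((Ideal.absNorm v.asIdeal : ℕ) : ZMod m) : ℂ) *
      (((Ideal.absNorm v.asIdeal : ℝ) ^ (-s) : ℝ) : ℂ)

/-- `M/E` with a primitive `ℓ`-th root of unity `ζ ∈ M` (`ℓ` prime) on which `Gal(M/E)` acts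
faithfully (so `M = E(ζ)` when `M/E` is Galois). -/
def IsCycl (E M : Type) [Field E] [Field M] [Algebra E M] (ℓ : ℕ) (ζ : M) : Prop :=
  ℓ.Prime ∧ IsPrimitiveRoot ζ ℓ ∧ ∀ g : M ≃ₐ[E] M, g ζ = ζ → g = 1

/-! ### Analysis -/

/-- (CD-L) `L(s, χ ∘ N)` extends continuously to `[1,2]` when `χ ∘ N` is not trivial. -/
def StmtNormL : Prop :=
  ∀ (E : Type) [Field E] [NumberField E] (m : ℕ) [NeZero m] (χ : DirichletCharacter ℂ m),
    (∃ I : nonZeroDivisors (Ideal (𝓞 E)),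
      χ ((Ideal.absNorm (I : Ideal (𝓞 E)) : ℕ) : ZMod m) ≠ 0 ∧
      χ ((Ideal.absNorm (I : Ideal (𝓞 E)) : ℕ) : ZMod m) ≠ 1) →
    ∃ Λ : ℝ → ℂ, ContinuousOn Λ (Set.Icc 1 2) ∧
      ∀ s : ℝ, 1 < s → s ≤ 2 → Λ s = idealL E m χ s

/-- (EUL) Euler product in logarithmic form: `L(s, χ ∘ N) = exp (∑_v χ(N v) N v^{-s} + R(s))`,
`R` bounded and continuous, the prime sum continuous, on `(1,2]`. -/
def StmtEulerLog : Prop :=
  ∀ (E : Type) [Field E] [NumberField E] (m : ℕ) [NeZero m] (χ : DirichletCharacter ℂ m),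
    ∃ R : ℝ → ℂ, ContinuousOn R (Set.Ioc 1 2) ∧ (∃ C : ℝ, ∀ s : ℝ, 1 < s → s ≤ 2 → ‖R s‖ ≤ C) ∧
      ContinuousOn (primeL E m χ) (Set.Ioc 1 2) ∧
      ∀ s : ℝ, 1 < s → s ≤ 2 → idealL E m χ s = Complex.exp (primeL E m χ s + R s)

/-- (ARG) a continuous logarithm of a function which is continuous and nonzero up to the end
point is bounded. -/
def StmtArgBounded : Prop :=
  ∀ f Λ : ℝ → ℂ, ContinuousOn f (Set.Ioc 1 2) → ContinuousOn Λ (Set.Icc 1 2) → Λ 1 ≠ 0 →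
    (∀ s : ℝ, 1 < s → s ≤ 2 → Λ s = Complex.exp (f s)) →
    ∃ C : ℝ, ∀ s : ℝ, 1 < s → s ≤ 2 → ‖f s‖ ≤ C

/-! ### Algebra of `M = E(ζ_ℓ)` over `E` -/

/-- (SP1) the primes of `E` of norm `≡ 1 mod ℓ` have density `1/[M:E]` (they are the primes which
split completely in `M`, up to finitely many). -/
def StmtSplitOne : Prop :=
  ∀ (E M : Type) [Field E] [NumberField E] [Field M] [NumberField M] [Algebra E M] [IsGalois E M]
    (ℓ : ℕ) (ζ : M), IsCycl E M ℓ ζ →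
    HasLogDensity
      {v : HeightOneSpectrum (𝓞 E) | ((Ideal.absNorm v.asIdeal : ℕ) : ZMod ℓ) = 1}
      (1 / (Module.finrank E M : ℝ))

/-- (NR) the norm of a prime not above `ℓ` is the cyclotomic character of an element of
`Gal(M/E)` (of a Frobenius element). -/
def StmtNormRange : Prop :=
  ∀ (E M : Type) [Field E] [NumberField E] [Field M] [NumberField M] [Algebra E M] [IsGalois E M]
    (ℓ : ℕ) (ζ : M), IsCycl E M ℓ ζ →
    ∀ v : HeightOneSpectrum (𝓞 E), ((Ideal.absNorm v.asIdeal : ℕ) : ZMod ℓ) ≠ 0 →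
      ∃ g : M ≃ₐ[E] M, g ζ = ζ ^ Ideal.absNorm v.asIdeal

/-- (NG) there is a prime `v` of `E`, not above `ℓ`, whose Frobenius generates `Gal(M/E)`: every
`g` acts on `ζ` as a power of `N v`. -/
def StmtNormGen : Prop :=
  ∀ (E M : Type) [Field E] [NumberField E] [Field M] [NumberField M] [Algebra E M] [IsGalois E M]
    (ℓ : ℕ) (ζ : M), IsCycl E M ℓ ζ →
    ∃ v : HeightOneSpectrum (𝓞 E), ((Ideal.absNorm v.asIdeal : ℕ) : ZMod ℓ) ≠ 0 ∧
      ∀ g : M ≃ₐ[E] M, ∃ j : ℕ, g ζ = ζ ^ (Ideal.absNorm v.asIdeal ^ j)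

/-- (DIRE) Dirichlet's theorem over `E`: the primes of `E` of norm `≡ t mod ℓ`, where `t` is the
cyclotomic character of an element of `Gal(M/E)`, have density `1/[M:E]`. -/
def StmtDirichletE : Prop :=
  ∀ (E M : Type) [Field E] [NumberField E] [Field M] [NumberField M] [Algebra E M] [IsGalois E M]
    (ℓ : ℕ) (ζ : M), IsCycl E M ℓ ζ → ∀ (z : M ≃ₐ[E] M) (t : ℕ), z ζ = ζ ^ t →
    HasLogDensity
      {v : HeightOneSpectrum (𝓞 E) | ((Ideal.absNorm v.asIdeal : ℕ) : ZMod ℓ) = (t : ZMod ℓ)}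
      (1 / (Module.finrank E M : ℝ))

/-! ### Deuring's reduction: `M/ℚ` Galois, `z ∈ Gal(M/ℚ)`, `E = M^⟨z⟩` -/

/-- the fixed field of `z` -/
abbrev fixZ {M : Type} [Field M] [NumberField M] (z : M ≃ₐ[ℚ] M) : IntermediateField ℚ M :=
  IntermediateField.fixedField (Subgroup.zpowers z)

/-- `z` is of cyclotomic type: it acts faithfully (with all its powers) on `ζ`, a primitive
`ℓ`-th root of unity. -/
def IsCyclZ {M : Type} [Field M] [NumberField M] (z : M ≃ₐ[ℚ] M) (ℓ : ℕ) (ζ : M) : Prop :=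
  ℓ.Prime ∧ IsPrimitiveRoot ζ ℓ ∧ ∀ j : ℕ, (z ^ j) ζ = ζ → z ^ j = 1

/-- `p` is unramified in `M` -/
def UnramAt (M : Type) [Field M] [NumberField M] (p : ℕ) : Prop :=
  ∀ (𝔓 : Ideal (𝓞 M)) [𝔓.IsPrime], (p : 𝓞 M) ∈ 𝔓 → Algebra.IsUnramifiedAt ℤ 𝔓

/-- `z` is a Frobenius element at some prime of `M` above `p` -/
def FrobAt (M : Type) [Field M] [NumberField M] (z : M ≃ₐ[ℚ] M) (p : ℕ) : Prop :=
  ∃ 𝔓 : Ideal (𝓞 M), 𝔓.IsPrime ∧ (p : 𝓞 M) ∈ 𝔓 ∧ IsArithFrobAt ℤ z 𝔓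

/-- (DEU-1) if `v` is a prime of degree one of `E = M^⟨z⟩` with `N v ≡ t mod ℓ`, `z ζ = ζ ^ t`,
then `z` is a Frobenius element (over `ℤ`) at every prime of `M` above `v`. -/
def StmtFrobTransfer : Prop :=
  ∀ (M : Type) [Field M] [NumberField M] [IsGalois ℚ M] (z : M ≃ₐ[ℚ] M) (ℓ : ℕ) (ζ : M) (t : ℕ),
    IsCyclZ z ℓ ζ → z ζ = ζ ^ t →
    ∀ v : HeightOneSpectrum (𝓞 (fixZ z)), (Ideal.absNorm v.asIdeal).Prime →
      ((Ideal.absNorm v.asIdeal : ℕ) : ZMod ℓ) = (t : ZMod ℓ) →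
      ∀ 𝔓 : Ideal (𝓞 M), 𝔓.IsPrime → 𝔓.under (𝓞 (fixZ z)) = v.asIdeal → IsArithFrobAt ℤ z 𝔓

/-- (DEU-2) above an unramified `p` there are at most `|Z(z)| / ord z` primes `v` of `E = M^⟨z⟩`
below a prime of `M` with Frobenius element `z`. -/
def StmtFiberCount : Prop :=
  ∀ (M : Type) [Field M] [NumberField M] [IsGalois ℚ M] (z : M ≃ₐ[ℚ] M) (p : ℕ),
    p.Prime → UnramAt M p →
    orderOf z *
      {v : HeightOneSpectrum (𝓞 (fixZ z)) | Ideal.absNorm v.asIdeal = p ∧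
        ∃ 𝔓 : Ideal (𝓞 M), 𝔓.IsPrime ∧ 𝔓.under (𝓞 (fixZ z)) = v.asIdeal ∧
          IsArithFrobAt ℤ z 𝔓}.ncard ≤
      Nat.card (Subgroup.centralizer {z})

/-- (CYC-T) Chebotarev, lower bound with `O(1)` error, for an element `z` of cyclotomic type. -/
def StmtChebCycT : Prop :=
  ∀ (M : Type) [Field M] [NumberField M] [IsGalois ℚ M] (z : M ≃ₐ[ℚ] M) (ℓ : ℕ) (ζ : M),
    IsCyclZ z ℓ ζ → ∀ S : Finset ℕ, ∃ C : ℝ, ∀ s : ℝ, 1 < s → s < 2 →
      ∃ P : Finset ℕ, (∀ p ∈ P, p.Prime ∧ p ∉ S ∧ UnramAt M p ∧ FrobAt M z p) ∧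
        1 / (Nat.card (Subgroup.centralizer {z}) : ℝ) * Real.log (1 / (s - 1)) - C ≤
          ∑ p ∈ P, (p : ℝ) ^ (-s)

/-! ### Crossing with `ℚ(ζ_ℓ)`, inside `ℚ̄` -/

/-- (GLUE) at an unramified `p`, all the Frobenius elements of `G_ℚ` at `p` restrict to the
conjugacy class of `φ`, if `φ` is a Frobenius element at one prime of `F` above `p`. -/
def StmtGlueConj : Prop :=
  ∀ (F : IntermediateField ℚ (AlgebraicClosure ℚ)) [NumberField F] [IsGalois ℚ F]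
    (φ : F ≃ₐ[ℚ] F) (p : ℕ), p.Prime → UnramAt F p → FrobAt F φ p →
    ∀ A : ValuationSubring (AlgebraicClosure ℚ), A.LiesOverPrime p →
      ∀ τ : GalQ, A.IsFrobeniusAt τ p → ∃ g : F ≃ₐ[ℚ] F, AlgEquiv.restrictNormal τ F = g * φ * g⁻¹

/-- (LIFTζ) for all large primes `ℓ`, `Gal(ℚ̄/F)` acts on the `ℓ`-th roots of unity through all of
`(ℤ/ℓ)ˣ` (the `ℓ`-th cyclotomic polynomial is irreducible over `F`). -/
def StmtCycLift : Prop :=
  ∀ (F : IntermediateField ℚ (AlgebraicClosure ℚ)) [NumberField F],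
    ∃ N₀ : ℕ, ∀ ℓ : ℕ, ℓ.Prime → N₀ < ℓ → ∀ ζ : AlgebraicClosure ℚ, IsPrimitiveRoot ζ ℓ →
      ∀ t : ℕ, ¬ ℓ ∣ t → ∃ h : GalQ, (∀ x ∈ F, h x = x) ∧ h ζ = ζ ^ t

/-- (CNT) in `(ℤ/ℓ)ˣ`, `ℓ ≡ 1 mod n ^ k`, all but a proportion `≤ n / 2 ^ k` of the elements have
order divisible by `n`. -/
def StmtGoodCount : Prop :=
  ∀ n k ℓ : ℕ, 0 < n → ℓ.Prime → ℓ ≡ 1 [MOD n ^ k] →
    Nat.card {t : (ZMod ℓ)ˣ // ¬ n ∣ orderOf t} * 2 ^ k ≤ n * (ℓ - 1)

/-- (CLS) Chebotarev, lower density, for one conjugacy class. -/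
def StmtChebClass : Prop :=
  ∀ (F : IntermediateField ℚ (AlgebraicClosure ℚ)) [NumberField F] [IsGalois ℚ F]
    (S : Finset ℕ) (σ : F ≃ₐ[ℚ] F) (δ : ℝ), 0 < δ →
    ∃ s₀ : ℝ, 1 < s₀ ∧ ∀ s : ℝ, 1 < s → s < s₀ →
      ∃ P : Finset ℕ,
        (∀ p ∈ P, p.Prime ∧ p ∉ S ∧
          ∀ A : ValuationSubring (AlgebraicClosure ℚ), A.LiesOverPrime p →
            ∀ τ : GalQ, A.IsFrobeniusAt τ p →
              ∃ g : F ≃ₐ[ℚ] F, AlgEquiv.restrictNormal τ F = g * σ * g⁻¹) ∧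
        (1 / (Nat.card (Subgroup.centralizer {σ}) : ℝ) - δ) * Real.log (1 / (s - 1)) ≤
          ∑ p ∈ P, (p : ℝ) ^ (-s)

end Fermat.Agent.S48.CD


end ZBZ4S48_018_0

/-! ### bundled: `Fermat.Agent.S48.CD.NormL` -/
section ZBZ4S48_018_1

/-!
# S48/CD-L: `L(s, χ ∘ N)` extends continuously to `[1, 2]`

For a number field `K`, a Dirichlet character `χ` modulo `m` and an ideal `𝔟` with
`χ (N 𝔟) ∉ {0, 1}`, the series `L(s) = ∑_I χ (N I) N(I)^(-s)` (`s > 1`) agrees on `(1, 2]` with a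
function which is continuous on `[1, 2]` (`normL_continuous`); in particular it is bounded
(`normL_bounded`) and has a limit for `s → 1⁺` (`normL_tendsto`).

Route (helper87's `𝔟`-trick on top of the S14 shift method): with `S₀(s) = ∑_{x ∈ 𝓞} F_s x` and
`𝔞` coprime to `m`, representatives of `𝓞 / 𝔞` in `m 𝓞` give
`S₀(s) = χ(N𝔞) N𝔞^(1-s) L_{[𝔞]⁻¹}(s) + E_𝔞(s)` with `E_𝔞` continuous on `[1, 2]`.  Comparing `𝔞`
and `𝔟 𝔞` and summing over the classes: `(1 - χ(N𝔟) N𝔟^(1-s)) L(s)` is continuous on `[1, 2]`.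
-/

set_option autoImplicit false
set_option linter.unusedSectionVars false
set_option linter.unusedVariables false
set_option linter.style.haveILetI false

open NumberField
open scoped nonZeroDivisors
open Fermat.Agent.S14 Fermat.Agent.PT.G2

namespace Fermat.Agent.S48.CD

variable {K : Type} [Field K] [NumberField K] {m : ℕ}

/-! ### Coprimality -/

/-- An ideal coprime to `(m)` has absolute norm coprime to `m`. -/
theorem normL_coprime_absNorm (𝔞 : Ideal (𝓞 K)) (h𝔞 : 𝔞 ≠ ⊥)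
    (hcop : IsCoprime 𝔞 (Ideal.span {((m : ℕ) : 𝓞 K)})) : Nat.Coprime (Ideal.absNorm 𝔞) m := by
  rw [Nat.coprime_iff_gcd_eq_one]
  by_contra hne
  obtain ⟨p, hp, hpd⟩ := Nat.exists_prime_and_dvd hne
  have hpN : p ∣ Ideal.absNorm 𝔞 := hpd.trans (Nat.gcd_dvd_left _ _)
  have hpm : p ∣ m := hpd.trans (Nat.gcd_dvd_right _ _)
  haveI : Fact p.Prime := ⟨hp⟩
  haveI : Finite (𝓞 K ⧸ 𝔞) := Ideal.finiteQuotientOfFreeOfNeBot 𝔞 h𝔞
  have hcard : Nat.card (𝓞 K ⧸ 𝔞) = Ideal.absNorm 𝔞 := by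
    rw [Ideal.absNorm_apply, Submodule.cardQuot_apply]
  have hpc : p ∣ Nat.card (𝓞 K ⧸ 𝔞) := by rw [hcard]; exact hpN
  obtain ⟨g, hg⟩ := exists_prime_addOrderOf_dvd_card' p hpc
  obtain ⟨y, rfl⟩ := Ideal.Quotient.mk_surjective g
  have hpy : (p : 𝓞 K) * y ∈ 𝔞 := by
    have h1 : p • (Ideal.Quotient.mk 𝔞 y) = 0 := by
      rw [← hg]; exact addOrderOf_nsmul_eq_zero _
    rw [← map_nsmul, Ideal.Quotient.eq_zero_iff_mem, nsmul_eq_mul] at h1
    exact h1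
  -- `1 = a + p z`
  obtain ⟨a, ha, b, hb, hab⟩ := Submodule.mem_sup.mp
    (show (1 : 𝓞 K) ∈ 𝔞 ⊔ Ideal.span {((m : ℕ) : 𝓞 K)} by
      rw [Ideal.isCoprime_iff_sup_eq.mp hcop]; exact Submodule.mem_top)
  obtain ⟨z, rfl⟩ := Ideal.mem_span_singleton'.mp hb
  obtain ⟨k, rfl⟩ := hpm
  have hy : y ∈ 𝔞 := by
    have e : y = a * y + z * ((k : 𝓞 K)) * ((p : 𝓞 K) * y) := by
      have : a + z * (((p * k : ℕ)) : 𝓞 K) = 1 := hab
      push_cast at this
      calc y = (a + z * ((p : 𝓞 K) * (k : 𝓞 K))) * y := by rw [this, one_mul]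
        _ = _ := by ring
    rw [e]
    exact 𝔞.add_mem (𝔞.mul_mem_right _ ha) (𝔞.mul_mem_left _ hpy)
  have h0 : Ideal.Quotient.mk 𝔞 y = 0 := Ideal.Quotient.eq_zero_iff_mem.mpr hy
  rw [h0, addOrderOf_zero] at hg
  exact hp.one_lt.ne hg

/-- An ideal with absolute norm coprime to `m` is coprime to `(m)`. -/
theorem normL_isCoprime_of_absNorm (𝔟 : Ideal (𝓞 K)) (h : Nat.Coprime (Ideal.absNorm 𝔟) m) :
    IsCoprime 𝔟 (Ideal.span {((m : ℕ) : 𝓞 K)}) := by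
  rw [Ideal.isCoprime_iff_exists]
  have h1 : IsCoprime ((Ideal.absNorm 𝔟 : ℕ) : ℤ) ((m : ℕ) : ℤ) := Nat.isCoprime_iff_coprime.mpr h
  obtain ⟨u, v, huv⟩ := h1
  refine ⟨(u : 𝓞 K) * ((Ideal.absNorm 𝔟 : ℕ) : 𝓞 K), 𝔟.mul_mem_left _ (Ideal.absNorm_mem 𝔟),
    (v : 𝓞 K) * ((m : ℕ) : 𝓞 K), Ideal.mul_mem_left _ _ (Ideal.mem_span_singleton_self _), ?_⟩
  have := congrArg (fun t : ℤ => (t : 𝓞 K)) huv
  simpa using this

theorem normChar_ne_zero_iff (χ : DirichletCharacter ℂ m) (I : Ideal (𝓞 K)) :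
    normChar χ I ≠ 0 ↔ Nat.Coprime (Ideal.absNorm I) m := by
  unfold normChar
  rw [← ZMod.isUnit_iff_coprime]
  constructor
  · intro h
    by_contra hu
    exact h (MulChar.map_nonunit χ hu)
  · intro hu
    exact (IsUnit.map χ hu).ne_zero

/-! ### The class parts -/

/-- The term `χ (N I) N(I)^(-s)`. -/
noncomputable def normLTerm (χ : DirichletCharacter ℂ m) (s : ℝ) (I : (Ideal (𝓞 K))⁰) : ℂ :=
  normChar χ (I : Ideal (𝓞 K)) * (((Ideal.absNorm (I : Ideal (𝓞 K)) : ℝ) ^ (-s) : ℝ) : ℂ)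

/-- The series `L(s, χ ∘ N)`. -/
noncomputable def normL (K : Type) [Field K] [NumberField K] (χ : DirichletCharacter ℂ m)
    (s : ℝ) : ℂ :=
  ∑' I : (Ideal (𝓞 K))⁰, normLTerm χ s I

/-- The part of `L(s, χ ∘ N)` in an ideal class. -/
noncomputable def normLClass (K : Type) [Field K] [NumberField K] (χ : DirichletCharacter ℂ m)
    (s : ℝ) (c : ClassGroup (𝓞 K)) : ℂ :=
  ∑' I : {I : (Ideal (𝓞 K))⁰ // ClassGroup.mk0 I = c}, normLTerm χ s (I : (Ideal (𝓞 K))⁰)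

theorem norm_normLTerm_le (χ : DirichletCharacter ℂ m) (s : ℝ) (I : (Ideal (𝓞 K))⁰) :
    ‖normLTerm χ s I‖ ≤ (Ideal.absNorm (I : Ideal (𝓞 K)) : ℝ) ^ (-s) := by
  have h0 : (0 : ℝ) ≤ (Ideal.absNorm (I : Ideal (𝓞 K)) : ℝ) ^ (-s) :=
    Real.rpow_nonneg (Nat.cast_nonneg _) _
  unfold normLTerm
  rw [norm_mul, Complex.norm_real, Real.norm_of_nonneg h0]
  exact mul_le_of_le_one_left h0 (norm_normChar_le χ _)

/-- **Summability** of `L(s, χ ∘ N)` for `s > 1`. -/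
theorem normL_summable (χ : DirichletCharacter ℂ m) {s : ℝ} (hs : 1 < s) :
    Summable (normLTerm (K := K) χ s) :=
  Summable.of_norm_bounded (summable_absNorm_rpow K hs) (fun I => norm_normLTerm_le χ s I)

theorem normL_eq_sum (χ : DirichletCharacter ℂ m) {s : ℝ} (hs : 1 < s) :
    normL K χ s = ∑ c : ClassGroup (𝓞 K), normLClass K χ s c := by
  have h1 := (normL_summable (K := K) χ hs).hasSum.tsum_fiberwise
    (fun I : (Ideal (𝓞 K))⁰ => ClassGroup.mk0 I)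
  rw [normL, ← h1.tsum_eq, tsum_fintype]
  rfl

/-! ### The orbit formula -/

/-- Complex version of `hasSum_ideal_of_hasSum_ne_zero`. -/
theorem normL_hasSum_ideal_of_ne_zero (𝔠 : Ideal (𝓞 K)) (F : 𝓞 K → ℂ) (hF0 : F 0 = 0) {a : ℂ}
    (h : HasSum (fun x : {x : 𝓞 K // x ∈ 𝔠 ∧ x ≠ 0} => F (x : 𝓞 K)) a) :
    HasSum (fun x : 𝔠 => F (x : 𝓞 K)) a := by
  have h1 : HasSum (Set.indicator {x : 𝓞 K | x ∈ 𝔠 ∧ x ≠ 0} F) a :=
    (hasSum_subtype_iff_indicator (s := {x : 𝓞 K | x ∈ 𝔠 ∧ x ≠ 0}) (f := F)).mp h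
  have h2 : Set.indicator {x : 𝓞 K | x ∈ 𝔠 ∧ x ≠ 0} F = Set.indicator (𝔠 : Set (𝓞 K)) F := by
    funext x
    by_cases hx : x = 0
    · subst hx
      simp [hF0]
    · by_cases hxc : x ∈ 𝔠
      · rw [Set.indicator_of_mem (show x ∈ {x : 𝓞 K | x ∈ 𝔠 ∧ x ≠ 0} from ⟨hxc, hx⟩),
          Set.indicator_of_mem (show x ∈ (𝔠 : Set (𝓞 K)) from hxc)]
      · rw [Set.indicator_of_notMem (fun h : x ∈ {x : 𝓞 K | x ∈ 𝔠 ∧ x ≠ 0} => hxc h.1),
          Set.indicator_of_notMem (fun h : x ∈ (𝔠 : Set (𝓞 K)) => hxc h)]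
  rw [h2] at h1
  exact (hasSum_subtype_iff_indicator (s := (𝔠 : Set (𝓞 K))) (f := F)).mpr h1

/-- **Orbit formula**: `∑_{x ∈ 𝔞} F_s x = χ(N𝔞) N𝔞^(-s) L_{[𝔞]⁻¹}(s)`. -/
theorem normL_orbit {w : K → ℝ} {T : Finset (𝓞 K)ˣ} {B L : ℝ}
    (hW : IsUnitWeight K w T B L) (χ : DirichletCharacter ℂ m) (𝔞 : (Ideal (𝓞 K))⁰)
    {s : ℝ} (hs : 1 < s) :
    HasSum (fun x : (𝔞 : Ideal (𝓞 K)) => normLF χ w s (x : 𝓞 K))
      (normChar χ (𝔞 : Ideal (𝓞 K)) *
        ((((Ideal.absNorm (𝔞 : Ideal (𝓞 K)) : ℝ) ^ (-s) : ℝ) : ℂ) *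
          normLClass K χ s (ClassGroup.mk0 𝔞)⁻¹)) := by
  have h1 := os_hasSum_weighted 𝔞 w hW.nonneg hW.hasSum s (summable_absNorm_rpow K hs)
    (fun I => normChar χ ((𝔞 : Ideal (𝓞 K)) * I)) (fun I => norm_normChar_le χ _)
    (fun x => normChar χ (Ideal.span {x}))
    (fun x I hx h => by rw [h])
  have h2 : (∑' I : {I : (Ideal (𝓞 K))⁰ // ClassGroup.mk0 I = (ClassGroup.mk0 𝔞)⁻¹},
      normChar χ ((𝔞 : Ideal (𝓞 K)) * ((I : (Ideal (𝓞 K))⁰) : Ideal (𝓞 K))) *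
        ((Ideal.absNorm ((I : (Ideal (𝓞 K))⁰) : Ideal (𝓞 K)) : ℝ) ^ (-s) : ℝ)) =
      normChar χ (𝔞 : Ideal (𝓞 K)) * normLClass K χ s (ClassGroup.mk0 𝔞)⁻¹ := by
    unfold normLClass
    rw [← tsum_mul_left]
    refine tsum_congr fun I => ?_
    rw [normChar_mul, normLTerm, mul_assoc]
  rw [h2] at h1
  have h3 := normL_hasSum_ideal_of_ne_zero (𝔞 : Ideal (𝓞 K)) (normLF χ w s)
    (normLF_zero χ w (by linarith)) h1
  convert h3 using 1
  ring

/-! ### Decomposition along cosets with prescribed representatives -/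

/-- The translation equivalence between an ideal and one of its cosets. -/
noncomputable def normLCosetEquiv (𝔞 : Ideal (𝓞 K)) (q : 𝓞 K ⧸ 𝔞) (r : 𝓞 K)
    (hr : Ideal.Quotient.mk 𝔞 r = q) :
    (𝔞 : Ideal (𝓞 K)) ≃ {y : 𝓞 K // Ideal.Quotient.mk 𝔞 y = q} where
  toFun x := ⟨(x : 𝓞 K) + r, by
    rw [map_add, Ideal.Quotient.eq_zero_iff_mem.mpr x.2, zero_add]
    exact hr⟩
  invFun y := ⟨(y : 𝓞 K) - r, by
    rw [← Ideal.Quotient.eq_zero_iff_mem, map_sub, y.2, sub_eq_zero]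
    exact hr.symm⟩
  left_inv x := by
    apply Subtype.ext
    simp
  right_inv y := by
    apply Subtype.ext
    simp

theorem normL_tsum_cosets (𝔞 : Ideal (𝓞 K)) [Fintype (𝓞 K ⧸ 𝔞)] (r : 𝓞 K ⧸ 𝔞 → 𝓞 K)
    (hr : ∀ u, Ideal.Quotient.mk 𝔞 (r u) = u) (F : 𝓞 K → ℂ) (hF : Summable F) :
    ∑' y : 𝓞 K, F y = ∑ q : 𝓞 K ⧸ 𝔞, ∑' x : 𝔞, F ((x : 𝓞 K) + r q) := by
  have h1 : HasSum (fun q : 𝓞 K ⧸ 𝔞 =>
      ∑' y : {y : 𝓞 K // Ideal.Quotient.mk 𝔞 y = q}, F y) (∑' y : 𝓞 K, F y) :=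
    hF.hasSum.tsum_fiberwise (Ideal.Quotient.mk 𝔞)
  rw [← h1.tsum_eq, tsum_fintype]
  refine Finset.sum_congr rfl fun q _ => ?_
  rw [← (normLCosetEquiv 𝔞 q (r q) (hr q)).tsum_eq]
  rfl

/-! ### Lemma A: the sum over `𝓞 K` against the class part of `[𝔞]⁻¹` -/

theorem normL_span_ne_bot (K : Type) [Field K] [NumberField K] (m : ℕ) [NeZero m] :
    Ideal.span {((m : ℕ) : 𝓞 K)} ≠ ⊥ := by
  rw [Ne, Ideal.span_singleton_eq_bot]
  exact_mod_cast NeZero.ne m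

theorem normL_lemmaA {w : K → ℝ} {T : Finset (𝓞 K)ˣ} {B L : ℝ}
    (hW : IsUnitWeight K w T B L) (hF : FiberwiseAt K w) (χ : DirichletCharacter ℂ m)
    (𝔞 : (Ideal (𝓞 K))⁰) (hcop : IsCoprime (𝔞 : Ideal (𝓞 K)) (Ideal.span {((m : ℕ) : 𝓞 K)})) :
    ∃ E : ℝ → ℂ, ContinuousOn E (Set.Icc 1 2) ∧ ∀ s : ℝ, 1 < s → s ≤ 2 →
      ∑' x : 𝓞 K, normLF χ w s x =
        normChar χ (𝔞 : Ideal (𝓞 K)) *
          ((((Ideal.absNorm (𝔞 : Ideal (𝓞 K)) : ℝ) ^ (1 - s) : ℝ) : ℂ) *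
            normLClass K χ s (ClassGroup.mk0 𝔞)⁻¹) + E s := by
  classical
  have h𝔞0 : (𝔞 : Ideal (𝓞 K)) ≠ ⊥ := nonZeroDivisors.coe_ne_zero 𝔞
  haveI : Finite (𝓞 K ⧸ (𝔞 : Ideal (𝓞 K))) := Ideal.finiteQuotientOfFreeOfNeBot _ h𝔞0
  letI : Fintype (𝓞 K ⧸ (𝔞 : Ideal (𝓞 K))) := Fintype.ofFinite _
  obtain ⟨r, hr⟩ := exists_residue_rep (Ideal.span {((m : ℕ) : 𝓞 K)}) (𝔞 : Ideal (𝓞 K))
    hcop.symm
  refine ⟨fun s => ∑ q : 𝓞 K ⧸ (𝔞 : Ideal (𝓞 K)),
    ∑' x : (𝔞 : Ideal (𝓞 K)), (normLF χ w s ((x : 𝓞 K) + r q) - normLF χ w s (x : 𝓞 K)), ?_, ?_⟩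
  · exact continuousOn_finsetSum _ fun q _ =>
      normL_shift_continuousOn hW hF χ (r q) (hr q).1 (𝔞 : Ideal (𝓞 K))
  · intro s hs1 hs2
    have hS := normLF_summable hW hF χ hs1
    rw [normL_tsum_cosets (𝔞 : Ideal (𝓞 K)) r (fun u => (hr u).2) (normLF χ w s) hS]
    have h1 : ∀ q : 𝓞 K ⧸ (𝔞 : Ideal (𝓞 K)),
        ∑' x : (𝔞 : Ideal (𝓞 K)), normLF χ w s ((x : 𝓞 K) + r q) =
          ∑' x : (𝔞 : Ideal (𝓞 K)), normLF χ w s (x : 𝓞 K) +
            ∑' x : (𝔞 : Ideal (𝓞 K)),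
              (normLF χ w s ((x : 𝓞 K) + r q) - normLF χ w s (x : 𝓞 K)) :=
      fun q => normL_shift_eq hW hF χ (r q) (𝔞 : Ideal (𝓞 K)) hs1
    rw [Finset.sum_congr rfl fun q _ => h1 q, Finset.sum_add_distrib, Finset.sum_const,
      Finset.card_univ, (normL_orbit hW χ 𝔞 hs1).tsum_eq, nsmul_eq_mul]
    congr 1
    have hcard : (Fintype.card (𝓞 K ⧸ (𝔞 : Ideal (𝓞 K))) : ℂ) =
        (((Ideal.absNorm (𝔞 : Ideal (𝓞 K)) : ℝ)) : ℂ) := by
      rw [← Nat.card_eq_fintype_card, natCard_quot_eq_absNorm]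
      push_cast
      rfl
    have hN0 : (0 : ℝ) < (Ideal.absNorm (𝔞 : Ideal (𝓞 K)) : ℝ) := by
      have h0 : Ideal.absNorm (𝔞 : Ideal (𝓞 K)) ≠ 0 := by
        rw [Ne, Ideal.absNorm_eq_zero_iff]
        exact h𝔞0
      exact_mod_cast Nat.pos_of_ne_zero h0
    have hpow : (Ideal.absNorm (𝔞 : Ideal (𝓞 K)) : ℝ) ^ (1 - s) =
        (Ideal.absNorm (𝔞 : Ideal (𝓞 K)) : ℝ) *
          (Ideal.absNorm (𝔞 : Ideal (𝓞 K)) : ℝ) ^ (-s) := by
      rw [show (1 : ℝ) - s = 1 + -s by ring, Real.rpow_add hN0, Real.rpow_one]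
    rw [hcard, hpow]
    push_cast
    ring

/-! ### Lemma B: comparison of the class parts of `c` and `c [𝔟]⁻¹` -/

/-- The multiplier `γ(s) = χ(N𝔟) N𝔟^(1-s)`. -/
noncomputable def normLGamma (χ : DirichletCharacter ℂ m) (𝔟 : (Ideal (𝓞 K))⁰) (s : ℝ) : ℂ :=
  normChar χ (𝔟 : Ideal (𝓞 K)) * (((Ideal.absNorm (𝔟 : Ideal (𝓞 K)) : ℝ) ^ (1 - s) : ℝ) : ℂ)

theorem normL_absNorm_pos (𝔞 : (Ideal (𝓞 K))⁰) :
    (0 : ℝ) < (Ideal.absNorm (𝔞 : Ideal (𝓞 K)) : ℝ) := by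
  have h0 : Ideal.absNorm (𝔞 : Ideal (𝓞 K)) ≠ 0 := by
    rw [Ne, Ideal.absNorm_eq_zero_iff]
    exact nonZeroDivisors.coe_ne_zero 𝔞
  exact_mod_cast Nat.pos_of_ne_zero h0

theorem normL_rpow_continuousOn (𝔞 : (Ideal (𝓞 K))⁰) :
    ContinuousOn (fun s : ℝ => (((Ideal.absNorm (𝔞 : Ideal (𝓞 K)) : ℝ) ^ (1 - s) : ℝ) : ℂ))
      (Set.Icc 1 2) := by
  refine Complex.continuous_ofReal.comp_continuousOn ?_
  have h : Continuous (fun s : ℝ => (Ideal.absNorm (𝔞 : Ideal (𝓞 K)) : ℝ) ^ (1 - s)) :=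
    Real.continuous_const_rpow (normL_absNorm_pos 𝔞).ne' |>.comp (continuous_const.sub continuous_id)
  exact h.continuousOn

theorem normLGamma_continuousOn (χ : DirichletCharacter ℂ m) (𝔟 : (Ideal (𝓞 K))⁰) :
    ContinuousOn (normLGamma χ 𝔟) (Set.Icc 1 2) :=
  continuousOn_const.mul (normL_rpow_continuousOn 𝔟)

theorem normL_lemmaB [NeZero m] {w : K → ℝ} {T : Finset (𝓞 K)ˣ} {B L : ℝ}
    (hW : IsUnitWeight K w T B L) (hF : FiberwiseAt K w) (χ : DirichletCharacter ℂ m)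
    (𝔟 : (Ideal (𝓞 K))⁰) (h𝔟 : normChar χ (𝔟 : Ideal (𝓞 K)) ≠ 0) (c : ClassGroup (𝓞 K)) :
    ∃ D : ℝ → ℂ, ContinuousOn D (Set.Icc 1 2) ∧ ∀ s : ℝ, 1 < s → s ≤ 2 →
      normLClass K χ s c - normLGamma χ 𝔟 s * normLClass K χ s (c * (ClassGroup.mk0 𝔟)⁻¹) =
        D s := by
  obtain ⟨𝔞, hcop, h𝔞c⟩ := exists_coprime_rep K (Ideal.span {((m : ℕ) : 𝓞 K)})
    (normL_span_ne_bot K m) c⁻¹
  have hc : (ClassGroup.mk0 𝔞)⁻¹ = c := by rw [h𝔞c, inv_inv]
  have h𝔟cop : IsCoprime (𝔟 : Ideal (𝓞 K)) (Ideal.span {((m : ℕ) : 𝓞 K)}) :=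
    normL_isCoprime_of_absNorm _ ((normChar_ne_zero_iff χ _).mp h𝔟)
  have hcop2 : IsCoprime (((𝔟 * 𝔞 : (Ideal (𝓞 K))⁰)) : Ideal (𝓞 K))
      (Ideal.span {((m : ℕ) : 𝓞 K)}) := by
    rw [Submonoid.coe_mul]
    exact IsCoprime.mul_left h𝔟cop hcop
  have hc2 : (ClassGroup.mk0 (𝔟 * 𝔞))⁻¹ = c * (ClassGroup.mk0 𝔟)⁻¹ := by
    rw [map_mul, mul_inv, hc, mul_comm]
  obtain ⟨E₁, hE₁c, hE₁⟩ := normL_lemmaA hW hF χ 𝔞 hcop
  obtain ⟨E₂, hE₂c, hE₂⟩ := normL_lemmaA hW hF χ (𝔟 * 𝔞) hcop2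
  have hψ𝔞 : normChar χ (𝔞 : Ideal (𝓞 K)) ≠ 0 :=
    (normChar_ne_zero_iff χ _).mpr
      (normL_coprime_absNorm _ (nonZeroDivisors.coe_ne_zero 𝔞) hcop)
  have hpow_ne : ∀ s : ℝ, (((Ideal.absNorm (𝔞 : Ideal (𝓞 K)) : ℝ) ^ (1 - s) : ℝ) : ℂ) ≠ 0 := by
    intro s
    exact_mod_cast (Real.rpow_pos_of_pos (normL_absNorm_pos 𝔞) _).ne'
  refine ⟨fun s => (normChar χ (𝔞 : Ideal (𝓞 K)) *
      (((Ideal.absNorm (𝔞 : Ideal (𝓞 K)) : ℝ) ^ (1 - s) : ℝ) : ℂ))⁻¹ * (E₂ s - E₁ s), ?_, ?_⟩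
  · refine ContinuousOn.mul ?_ (hE₂c.sub hE₁c)
    refine ContinuousOn.inv₀ (continuousOn_const.mul (normL_rpow_continuousOn 𝔞)) ?_
    intro s _
    exact mul_ne_zero hψ𝔞 (hpow_ne s)
  · intro s hs1 hs2
    have e1 := hE₁ s hs1 hs2
    have e2 := hE₂ s hs1 hs2
    rw [hc] at e1
    rw [hc2, Submonoid.coe_mul, normChar_mul, map_mul, Nat.cast_mul,
      Real.mul_rpow (normL_absNorm_pos 𝔟).le (normL_absNorm_pos 𝔞).le] at e2
    have hne : normChar χ (𝔞 : Ideal (𝓞 K)) *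
        (((Ideal.absNorm (𝔞 : Ideal (𝓞 K)) : ℝ) ^ (1 - s) : ℝ) : ℂ) ≠ 0 :=
      mul_ne_zero hψ𝔞 (hpow_ne s)
    rw [eq_comm, inv_mul_eq_iff_eq_mul₀ hne]
    unfold normLGamma
    have e3 := e1.symm.trans e2
    push_cast at e3 ⊢
    linear_combination (-1 : ℂ) * e3

/-! ### The main theorem -/

/-- `γ(s) ≠ 1` on `[1, 2]` if `χ(N𝔟) ≠ 1`. -/
theorem normLGamma_ne_one (χ : DirichletCharacter ℂ m) (𝔟 : (Ideal (𝓞 K))⁰)
    (h𝔟 : normChar χ (𝔟 : Ideal (𝓞 K)) ≠ 1) {s : ℝ} (hs : 1 ≤ s) :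
    normLGamma χ 𝔟 s ≠ 1 := by
  intro h
  have hN1 : (1 : ℝ) ≤ (Ideal.absNorm (𝔟 : Ideal (𝓞 K)) : ℝ) := by
    have h0 : Ideal.absNorm (𝔟 : Ideal (𝓞 K)) ≠ 0 := by
      rw [Ne, Ideal.absNorm_eq_zero_iff]
      exact nonZeroDivisors.coe_ne_zero 𝔟
    exact_mod_cast Nat.one_le_iff_ne_zero.mpr h0
  have hp0 : 0 ≤ (Ideal.absNorm (𝔟 : Ideal (𝓞 K)) : ℝ) ^ (1 - s) :=
    Real.rpow_nonneg (by linarith) _
  have hp1 : (Ideal.absNorm (𝔟 : Ideal (𝓞 K)) : ℝ) ^ (1 - s) ≤ 1 :=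
    Real.rpow_le_one_of_one_le_of_nonpos hN1 (by linarith)
  have hnorm : ‖normLGamma χ 𝔟 s‖ = 1 := by rw [h, norm_one]
  unfold normLGamma at hnorm h
  rw [norm_mul, Complex.norm_real, Real.norm_of_nonneg hp0] at hnorm
  have hχ1 := norm_normChar_le χ (𝔟 : Ideal (𝓞 K))
  have hχ0 := norm_nonneg (normChar χ (𝔟 : Ideal (𝓞 K)))
  have hp : (Ideal.absNorm (𝔟 : Ideal (𝓞 K)) : ℝ) ^ (1 - s) = 1 := by
    nlinarith
  rw [hp, Complex.ofReal_one, mul_one] at h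
  exact h𝔟 h

/-- Internal form of the main theorem. -/
theorem normL_continuous_aux [NeZero m] (χ : DirichletCharacter ℂ m) (𝔟 : (Ideal (𝓞 K))⁰)
    (h𝔟0 : normChar χ (𝔟 : Ideal (𝓞 K)) ≠ 0) (h𝔟1 : normChar χ (𝔟 : Ideal (𝓞 K)) ≠ 1) :
    ∃ g : ℝ → ℂ, ContinuousOn g (Set.Icc 1 2) ∧ ∀ s : ℝ, 1 < s → s ≤ 2 → normL K χ s = g s := by
  classical
  obtain ⟨w, T, B, L, hB, hL, h0, h1, hsum, hcov, hsupp, hlip⟩ := unitWeightStatement K
  have hW : IsUnitWeight K w T B L := ⟨hB, hL, h0, h1, hsum, hcov, hsupp, hlip⟩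
  have hF : FiberwiseAt K w := fiberwise_of_idealZeta idealZetaStatement K w h0 hsum
  choose D hDc hD using fun c : ClassGroup (𝓞 K) => normL_lemmaB hW hF χ 𝔟 h𝔟0 c
  refine ⟨fun s => (1 - normLGamma χ 𝔟 s)⁻¹ * ∑ c : ClassGroup (𝓞 K), D c s, ?_, ?_⟩
  · refine ContinuousOn.mul ?_ (continuousOn_finsetSum _ fun c _ => hDc c)
    refine ContinuousOn.inv₀ (continuousOn_const.sub (normLGamma_continuousOn χ 𝔟)) ?_
    intro s hs
    exact sub_ne_zero.mpr (normLGamma_ne_one χ 𝔟 h𝔟1 hs.1).symm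
  · intro s hs1 hs2
    have hne : 1 - normLGamma χ 𝔟 s ≠ 0 :=
      sub_ne_zero.mpr (normLGamma_ne_one χ 𝔟 h𝔟1 hs1.le).symm
    rw [eq_comm, inv_mul_eq_iff_eq_mul₀ hne]
    have hL := normL_eq_sum (K := K) χ hs1
    have hshift : ∑ c : ClassGroup (𝓞 K), normLClass K χ s (c * (ClassGroup.mk0 𝔟)⁻¹) =
        ∑ c : ClassGroup (𝓞 K), normLClass K χ s c :=
      Fintype.sum_equiv (Equiv.mulRight (ClassGroup.mk0 𝔟)⁻¹) _ _ (fun c => rfl)
    calc ∑ c : ClassGroup (𝓞 K), D c s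
        = ∑ c : ClassGroup (𝓞 K), (normLClass K χ s c -
            normLGamma χ 𝔟 s * normLClass K χ s (c * (ClassGroup.mk0 𝔟)⁻¹)) :=
          Finset.sum_congr rfl fun c _ => (hD c s hs1 hs2).symm
      _ = (1 - normLGamma χ 𝔟 s) * normL K χ s := by
          rw [Finset.sum_sub_distrib, ← Finset.mul_sum, hshift, ← hL]
          ring

/-- **S48/CD-L**: for a Dirichlet character `χ` modulo `m` such that `χ ∘ N` takes a value
different from `0` and `1` on the ideals of `K`, the series `L(s, χ ∘ N)` agrees on `(1, 2]` with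
a function that is continuous on `[1, 2]`. -/
theorem normL_continuous (K : Type) [Field K] [NumberField K] (m : ℕ) [NeZero m]
    (χ : DirichletCharacter ℂ m)
    (hχ : ∃ I : (Ideal (𝓞 K))⁰, χ ((Ideal.absNorm (I : Ideal (𝓞 K)) : ℕ) : ZMod m) ≠ 0 ∧
      χ ((Ideal.absNorm (I : Ideal (𝓞 K)) : ℕ) : ZMod m) ≠ 1) :
    ∃ g : ℝ → ℂ, ContinuousOn g (Set.Icc 1 2) ∧ ∀ s : ℝ, 1 < s → s ≤ 2 →
      ∑' I : (Ideal (𝓞 K))⁰, (χ ((Ideal.absNorm (I : Ideal (𝓞 K)) : ℕ) : ZMod m) : ℂ) *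
          (((Ideal.absNorm (I : Ideal (𝓞 K)) : ℝ) ^ (-s) : ℝ) : ℂ) = g s := by
  obtain ⟨𝔟, h0, h1⟩ := hχ
  exact normL_continuous_aux χ 𝔟 h0 h1

/-- **S48/CD-L**, boundedness on `(1, 2]`. -/
theorem normL_bounded (K : Type) [Field K] [NumberField K] (m : ℕ) [NeZero m]
    (χ : DirichletCharacter ℂ m)
    (hχ : ∃ I : (Ideal (𝓞 K))⁰, χ ((Ideal.absNorm (I : Ideal (𝓞 K)) : ℕ) : ZMod m) ≠ 0 ∧
      χ ((Ideal.absNorm (I : Ideal (𝓞 K)) : ℕ) : ZMod m) ≠ 1) :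
    ∃ C : ℝ, ∀ s : ℝ, 1 < s → s ≤ 2 →
      ‖∑' I : (Ideal (𝓞 K))⁰, (χ ((Ideal.absNorm (I : Ideal (𝓞 K)) : ℕ) : ZMod m) : ℂ) *
          (((Ideal.absNorm (I : Ideal (𝓞 K)) : ℝ) ^ (-s) : ℝ) : ℂ)‖ ≤ C := by
  obtain ⟨g, hgc, hg⟩ := normL_continuous K m χ hχ
  obtain ⟨C, hC⟩ := isCompact_Icc.exists_bound_of_continuousOn hgc
  refine ⟨C, fun s hs1 hs2 => ?_⟩
  rw [hg s hs1 hs2]
  exact hC s ⟨hs1.le, hs2⟩

/-- **S48/CD-L**, the limit for `s → 1⁺`. -/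
theorem normL_tendsto (K : Type) [Field K] [NumberField K] (m : ℕ) [NeZero m]
    (χ : DirichletCharacter ℂ m)
    (hχ : ∃ I : (Ideal (𝓞 K))⁰, χ ((Ideal.absNorm (I : Ideal (𝓞 K)) : ℕ) : ZMod m) ≠ 0 ∧
      χ ((Ideal.absNorm (I : Ideal (𝓞 K)) : ℕ) : ZMod m) ≠ 1) :
    ∃ ℓ : ℂ, Filter.Tendsto (fun s : ℝ =>
      ∑' I : (Ideal (𝓞 K))⁰, (χ ((Ideal.absNorm (I : Ideal (𝓞 K)) : ℕ) : ZMod m) : ℂ) *
          (((Ideal.absNorm (I : Ideal (𝓞 K)) : ℝ) ^ (-s) : ℝ) : ℂ))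
      (nhdsWithin 1 (Set.Ioi 1)) (nhds ℓ) := by
  obtain ⟨g, hgc, hg⟩ := normL_continuous K m χ hχ
  refine ⟨g 1, ?_⟩
  have h1 : Filter.Tendsto g (nhdsWithin 1 (Set.Icc 1 2)) (nhds (g 1)) :=
    hgc 1 ⟨le_rfl, by norm_num⟩
  have h2 : Filter.Tendsto g (nhdsWithin 1 (Set.Ioc 1 2)) (nhds (g 1)) :=
    h1.mono_left (nhdsWithin_mono _ Set.Ioc_subset_Icc_self)
  have h3 : nhdsWithin (1 : ℝ) (Set.Ioi 1) = nhdsWithin 1 (Set.Ioc 1 2) := by
    have : Set.Ioc (1 : ℝ) 2 = Set.Ioi 1 ∩ Set.Iic 2 := by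
      ext x; simp [Set.mem_Ioc]
    rw [this]
    exact (nhdsWithin_inter_of_mem' (mem_nhdsWithin_of_mem_nhds
      (Iic_mem_nhds (by norm_num : (1 : ℝ) < 2)))).symm
  rw [h3]
  refine h2.congr' ?_
  filter_upwards [self_mem_nhdsWithin] with s hs
  exact (hg s hs.1 hs.2).symm

/-- **S48/CD-L**, summability for `s > 1`. -/
theorem normL_summable' (K : Type) [Field K] [NumberField K] (m : ℕ)
    (χ : DirichletCharacter ℂ m) {s : ℝ} (hs : 1 < s) :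
    Summable fun I : (Ideal (𝓞 K))⁰ =>
      (χ ((Ideal.absNorm (I : Ideal (𝓞 K)) : ℕ) : ZMod m) : ℂ) *
          (((Ideal.absNorm (I : Ideal (𝓞 K)) : ℝ) ^ (-s) : ℝ) : ℂ) :=
  normL_summable χ hs

/-- **S48/CD-L** in the form of the interface `Fermat/Agent/S48/CD/Plan.lean`. -/
theorem stmtNormL : StmtNormL := by
  intro E _ _ m _ χ hχ
  obtain ⟨g, hgc, hg⟩ := normL_continuous E m χ hχ
  exact ⟨g, hgc, fun s hs1 hs2 => (hg s hs1 hs2).symm⟩

end Fermat.Agent.S48.CD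


end ZBZ4S48_018_1

/-! ### bundled: `Fermat.Agent.S48.CD.EulerLog` -/
section ZBZ4S48_018_2

/-!
# S48/CD, piece EUL: the Euler product of `L(s, χ ∘ N)` in logarithmic form

`L(s, χ ∘ N) = exp (∑_v χ(N v) N v^{-s} + R(s))` on `(1, 2]`, with `R` continuous and bounded and
the prime sum continuous.  (`R(s) = ∑_v (log (1 - w_v)⁻¹ - w_v)`, `w_v = χ(N v) N v^{-s}`.)
-/

set_option autoImplicit false
set_option linter.unusedSectionVars false

noncomputable section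

namespace Fermat.Agent.S48.CD

open NumberField IsDedekindDomain Filter Topology

variable (E : Type) [Field E] [NumberField E] (m : ℕ) [NeZero m] (χ : DirichletCharacter ℂ m)

/-- the multiplicative function `I ↦ χ(N I) N I^{-s}` -/
def eulTerm (s : ℝ) : nonZeroDivisors (Ideal (𝓞 E)) →* ℂ where
  toFun I := (χ ((Ideal.absNorm (I : Ideal (𝓞 E)) : ℕ) : ZMod m) : ℂ) *
    (((Ideal.absNorm (I : Ideal (𝓞 E)) : ℝ) ^ (-s) : ℝ) : ℂ)
  map_one' := by simp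
  map_mul' I J := by
    simp only [Submonoid.coe_mul, map_mul, Nat.cast_mul]
    rw [Real.mul_rpow (Nat.cast_nonneg _) (Nat.cast_nonneg _)]
    push_cast
    ring

/-- the local term `w_v(s) = χ(N v) N v^{-s}` -/
def eulW (v : HeightOneSpectrum (𝓞 E)) (s : ℝ) : ℂ :=
  (χ ((Ideal.absNorm v.asIdeal : ℕ) : ZMod m) : ℂ) *
    (((Ideal.absNorm v.asIdeal : ℝ) ^ (-s) : ℝ) : ℂ)

theorem eulTerm_prime (s : ℝ) (v : HeightOneSpectrum (𝓞 E)) :
    eulTerm E m χ s (Fermat.Agent.S14.primeIdeal₀ v) = eulW E m χ v s := rfl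

theorem eul_norm_term_le (s : ℝ) (I : nonZeroDivisors (Ideal (𝓞 E))) :
    ‖eulTerm E m χ s I‖ ≤ (Ideal.absNorm (I : Ideal (𝓞 E)) : ℝ) ^ (-s) := by
  have h0 : 0 ≤ (Ideal.absNorm (I : Ideal (𝓞 E)) : ℝ) ^ (-s) :=
    Real.rpow_nonneg (Nat.cast_nonneg _) _
  simp only [eulTerm, MonoidHom.coe_mk, OneHom.coe_mk, norm_mul, Complex.norm_real,
    Real.norm_eq_abs, abs_of_nonneg h0]
  calc ‖χ ((Ideal.absNorm (I : Ideal (𝓞 E)) : ℕ) : ZMod m)‖ *
        (Ideal.absNorm (I : Ideal (𝓞 E)) : ℝ) ^ (-s)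
      ≤ 1 * (Ideal.absNorm (I : Ideal (𝓞 E)) : ℝ) ^ (-s) :=
        mul_le_mul_of_nonneg_right (DirichletCharacter.norm_le_one χ _) h0
    _ = _ := one_mul _

theorem eul_norm_W_le (v : HeightOneSpectrum (𝓞 E)) (s : ℝ) :
    ‖eulW E m χ v s‖ ≤ (Ideal.absNorm v.asIdeal : ℝ) ^ (-s) :=
  eul_norm_term_le E m χ s (Fermat.Agent.S14.primeIdeal₀ v)

theorem eul_primeIdeal₀_injective :
    Function.Injective
      (Fermat.Agent.S14.primeIdeal₀ : HeightOneSpectrum (𝓞 E) → nonZeroDivisors (Ideal (𝓞 E))) := by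
  intro v w h
  have h1 : v.asIdeal = w.asIdeal :=
    congrArg (fun I : nonZeroDivisors (Ideal (𝓞 E)) => (I : Ideal (𝓞 E))) h
  exact HeightOneSpectrum.ext h1

/-- `∑_v N v^{-s}` converges for `s > 1` -/
theorem eul_summable_prime {s : ℝ} (hs : 1 < s) :
    Summable fun v : HeightOneSpectrum (𝓞 E) => (Ideal.absNorm v.asIdeal : ℝ) ^ (-s) := by
  have h := (Fermat.Agent.S14.summable_absNorm_rpow E hs).comp_injective
    (eul_primeIdeal₀_injective E)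
  refine h.congr ?_
  intro v
  rfl

theorem eul_rpow_anti (v : HeightOneSpectrum (𝓞 E)) {s t : ℝ} (hst : s ≤ t) :
    (Ideal.absNorm v.asIdeal : ℝ) ^ (-t) ≤ (Ideal.absNorm v.asIdeal : ℝ) ^ (-s) := by
  have h1 : (1 : ℝ) ≤ (Ideal.absNorm v.asIdeal : ℝ) := by
    have := Fermat.Agent.S14.two_le_absNorm E v
    exact_mod_cast (by omega : 1 ≤ Ideal.absNorm v.asIdeal)
  exact Real.rpow_le_rpow_of_exponent_le h1 (by linarith)

theorem eul_rpow_le_half (v : HeightOneSpectrum (𝓞 E)) {s : ℝ} (hs : 1 ≤ s) :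
    (Ideal.absNorm v.asIdeal : ℝ) ^ (-s) ≤ 1 / 2 := by
  have h2 : (2 : ℝ) ≤ (Ideal.absNorm v.asIdeal : ℝ) := by
    exact_mod_cast Fermat.Agent.S14.two_le_absNorm E v
  have h3 := eul_rpow_anti E v hs
  have h4 : (Ideal.absNorm v.asIdeal : ℝ) ^ (-(1 : ℝ)) ≤ 1 / 2 := by
    rw [Real.rpow_neg_one, one_div]
    exact inv_anti₀ (by norm_num) h2
  linarith

theorem eul_norm_W_le_half (v : HeightOneSpectrum (𝓞 E)) {s : ℝ} (hs : 1 ≤ s) :
    ‖eulW E m χ v s‖ ≤ 1 / 2 :=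
  (eul_norm_W_le E m χ v s).trans (eul_rpow_le_half E v hs)

theorem eul_continuous_W (v : HeightOneSpectrum (𝓞 E)) : Continuous (eulW E m χ v) := by
  unfold eulW
  have h2 : (0 : ℝ) < (Ideal.absNorm v.asIdeal : ℝ) := by
    have := Fermat.Agent.S14.two_le_absNorm E v
    exact_mod_cast (by omega : 0 < Ideal.absNorm v.asIdeal)
  refine continuous_const.mul (Complex.continuous_ofReal.comp ?_)
  exact (Real.continuous_const_rpow h2.ne').comp continuous_neg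

/-- the remainder term `r_v(s) = log (1 - w_v)⁻¹ - w_v` -/
def eulR (v : HeightOneSpectrum (𝓞 E)) (s : ℝ) : ℂ :=
  Complex.log (1 - eulW E m χ v s)⁻¹ - eulW E m χ v s

theorem eul_norm_R_le (v : HeightOneSpectrum (𝓞 E)) {s : ℝ} (hs : 1 ≤ s) :
    ‖eulR E m χ v s‖ ≤ (Ideal.absNorm v.asIdeal : ℝ) ^ (-(2 : ℝ)) := by
  have hw := eul_norm_W_le_half E m χ v hs
  have hw1 : ‖eulW E m χ v s‖ < 1 := lt_of_le_of_lt hw (by norm_num)
  have h1 := Complex.norm_log_one_sub_inv_sub_self_le hw1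
  have h2 : (1 - ‖eulW E m χ v s‖)⁻¹ ≤ 2 := by
    rw [inv_le_comm₀ (by linarith) (by norm_num)]
    linarith
  have h3 : ‖eulW E m χ v s‖ ^ 2 * (1 - ‖eulW E m χ v s‖)⁻¹ / 2 ≤ ‖eulW E m χ v s‖ ^ 2 := by
    have h0 : 0 ≤ ‖eulW E m χ v s‖ ^ 2 := by positivity
    nlinarith
  have h4 : ‖eulW E m χ v s‖ ^ 2 ≤ ((Ideal.absNorm v.asIdeal : ℝ) ^ (-s)) ^ 2 :=
    pow_le_pow_left₀ (norm_nonneg _) (eul_norm_W_le E m χ v s) 2
  have h5 : ((Ideal.absNorm v.asIdeal : ℝ) ^ (-s)) ^ 2 ≤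
      (Ideal.absNorm v.asIdeal : ℝ) ^ (-(2 : ℝ)) := by
    rw [← Real.rpow_natCast, ← Real.rpow_mul (Nat.cast_nonneg _)]
    have h1' : (1 : ℝ) ≤ (Ideal.absNorm v.asIdeal : ℝ) := by
      have := Fermat.Agent.S14.two_le_absNorm E v
      exact_mod_cast (by omega : 1 ≤ Ideal.absNorm v.asIdeal)
    apply Real.rpow_le_rpow_of_exponent_le h1'
    push_cast
    linarith
  exact h1.trans (h3.trans (h4.trans h5))

theorem eul_continuousOn_R (v : HeightOneSpectrum (𝓞 E)) :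
    ContinuousOn (eulR E m χ v) (Set.Ici 1) := by
  unfold eulR
  refine ContinuousOn.sub ?_ (eul_continuous_W E m χ v).continuousOn
  refine ContinuousOn.clog ?_ ?_
  · refine ContinuousOn.inv₀ (continuous_const.sub (eul_continuous_W E m χ v)).continuousOn ?_
    intro s hs h0
    have hw := eul_norm_W_le_half E m χ v (Set.mem_Ici.1 hs)
    have h1 : eulW E m χ v s = 1 := by
      rw [sub_eq_zero] at h0
      exact h0.symm
    rw [h1, norm_one] at hw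
    norm_num at hw
  · intro s hs
    have hw := eul_norm_W_le_half E m χ v (Set.mem_Ici.1 hs)
    have hw1 : ‖-eulW E m χ v s‖ < 1 := by
      rw [norm_neg]
      exact lt_of_le_of_lt hw (by norm_num)
    have h1 := Complex.mem_slitPlane_of_norm_lt_one hw1
    rw [← sub_eq_add_neg] at h1
    rw [Complex.mem_slitPlane_iff_arg] at h1 ⊢
    refine ⟨?_, inv_ne_zero h1.2⟩
    rw [Complex.arg_inv, if_neg h1.1]
    intro h2
    have h3 := Complex.neg_pi_lt_arg (1 - eulW E m χ v s)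
    have h4 : (1 - eulW E m χ v s).arg = -Real.pi := by linarith [neg_eq_iff_eq_neg.1 h2]
    linarith

theorem eul_summable_two : Summable fun v : HeightOneSpectrum (𝓞 E) =>
    (Ideal.absNorm v.asIdeal : ℝ) ^ (-(2 : ℝ)) := eul_summable_prime E (by norm_num)

/-- the majorant `N v ^ (-t)` -/
def eulU (t : ℝ) (v : HeightOneSpectrum (𝓞 E)) : ℝ := (Ideal.absNorm v.asIdeal : ℝ) ^ (-t)

/-- the majorant `N v ^ (-2)` -/
def eulU2 (v : HeightOneSpectrum (𝓞 E)) : ℝ := (Ideal.absNorm v.asIdeal : ℝ) ^ (-(2 : ℝ))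

theorem eul_summable_U {t : ℝ} (ht : 1 < t) : Summable (eulU E t) := eul_summable_prime E ht

theorem eul_summable_U2 : Summable (eulU2 E) := eul_summable_two E

/-- the remainder `R(s) = ∑_v r_v(s)` -/
def eulRsum (s : ℝ) : ℂ := ∑' v : HeightOneSpectrum (𝓞 E), eulR E m χ v s

theorem eul_continuousOn_Rsum : ContinuousOn (eulRsum E m χ) (Set.Ioc 1 2) := by
  have h1 : ∀ v : HeightOneSpectrum (𝓞 E), ContinuousOn (eulR E m χ v) (Set.Ici (1 : ℝ)) :=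
    fun v => eul_continuousOn_R E m χ v
  have h2 : ∀ (v : HeightOneSpectrum (𝓞 E)) (s : ℝ), s ∈ Set.Ici (1 : ℝ) →
      ‖eulR E m χ v s‖ ≤ eulU2 E v :=
    fun v s hs => eul_norm_R_le E m χ v (Set.mem_Ici.1 hs)
  have h : ContinuousOn (fun s => ∑' v : HeightOneSpectrum (𝓞 E), eulR E m χ v s)
      (Set.Ici (1 : ℝ)) := continuousOn_tsum h1 (eul_summable_U2 E) h2
  exact h.mono fun s hs => Set.mem_Ici.2 hs.1.le

theorem eul_summable_R {s : ℝ} (hs : 1 ≤ s) :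
    Summable fun v : HeightOneSpectrum (𝓞 E) => eulR E m χ v s :=
  Summable.of_norm_bounded (eul_summable_two E) (fun v => eul_norm_R_le E m χ v hs)

theorem eul_summable_W {s : ℝ} (hs : 1 < s) :
    Summable fun v : HeightOneSpectrum (𝓞 E) => eulW E m χ v s :=
  Summable.of_norm_bounded (eul_summable_prime E hs) (fun v => eul_norm_W_le E m χ v s)

theorem eul_norm_Rsum_le {s : ℝ} (hs : 1 ≤ s) :
    ‖eulRsum E m χ s‖ ≤
      ∑' v : HeightOneSpectrum (𝓞 E), (Ideal.absNorm v.asIdeal : ℝ) ^ (-(2 : ℝ)) := by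
  have hle : ∀ v, ‖eulR E m χ v s‖ ≤ (Ideal.absNorm v.asIdeal : ℝ) ^ (-(2 : ℝ)) :=
    fun v => eul_norm_R_le E m χ v hs
  have hsn : Summable fun v => ‖eulR E m χ v s‖ :=
    Summable.of_nonneg_of_le (fun _ => norm_nonneg _) hle (eul_summable_two E)
  exact (norm_tsum_le_tsum_norm hsn).trans (hsn.tsum_le_tsum hle (eul_summable_two E))

theorem eul_primeL_eq (s : ℝ) :
    primeL E m χ s = ∑' v : HeightOneSpectrum (𝓞 E), eulW E m χ v s := rfl

theorem eul_idealL_eq (s : ℝ) :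
    idealL E m χ s = ∑' I : nonZeroDivisors (Ideal (𝓞 E)), eulTerm E m χ s I := rfl

theorem eul_continuousOn_primeL : ContinuousOn (primeL E m χ) (Set.Ioc 1 2) := by
  intro s₀ hs₀
  have hεpos : 0 < (s₀ - 1) / 2 := by linarith [hs₀.1]
  have h1 : ∀ v : HeightOneSpectrum (𝓞 E),
      ContinuousOn (eulW E m χ v) (Set.Ici (1 + (s₀ - 1) / 2)) :=
    fun v => (eul_continuous_W E m χ v).continuousOn
  have h3 : ∀ (v : HeightOneSpectrum (𝓞 E)) (s : ℝ), s ∈ Set.Ici (1 + (s₀ - 1) / 2) →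
      ‖eulW E m χ v s‖ ≤ eulU E (1 + (s₀ - 1) / 2) v :=
    fun v s hs => (eul_norm_W_le E m χ v s).trans (eul_rpow_anti E v (Set.mem_Ici.1 hs))
  have hc : ContinuousOn (fun s => ∑' v : HeightOneSpectrum (𝓞 E), eulW E m χ v s)
      (Set.Ici (1 + (s₀ - 1) / 2)) :=
    continuousOn_tsum h1 (eul_summable_U E (by linarith)) h3
  have hmem : Set.Ici (1 + (s₀ - 1) / 2) ∈ 𝓝 s₀ := Ici_mem_nhds (by linarith [hs₀.1])
  have h2 : ContinuousAt (fun s => ∑' v : HeightOneSpectrum (𝓞 E), eulW E m χ v s) s₀ :=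
    hc.continuousAt hmem
  exact h2.continuousWithinAt

theorem eul_W_ne_one (v : HeightOneSpectrum (𝓞 E)) {s : ℝ} (hs : 1 ≤ s) :
    (1 - eulW E m χ v s) ≠ 0 := by
  intro h0
  have hw := eul_norm_W_le_half E m χ v hs
  have h1 : eulW E m χ v s = 1 := by
    rw [sub_eq_zero] at h0
    exact h0.symm
  rw [h1, norm_one] at hw
  norm_num at hw

theorem eul_hasProd {s : ℝ} (hs : 1 < s) :
    HasProd (fun v : HeightOneSpectrum (𝓞 E) => (1 - eulW E m χ v s)⁻¹) (idealL E m χ s) := by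
  have hsum : Summable fun I : nonZeroDivisors (Ideal (𝓞 E)) => ‖eulTerm E m χ s I‖ :=
    Summable.of_nonneg_of_le (fun _ => norm_nonneg _) (eul_norm_term_le E m χ s)
      (Fermat.Agent.S14.summable_absNorm_rpow E hs)
  have hlt : ∀ v : HeightOneSpectrum (𝓞 E),
      ‖eulTerm E m χ s (Fermat.Agent.S14.primeIdeal₀ v)‖ < 1 := fun v =>
    lt_of_le_of_lt (eul_norm_W_le_half E m χ v hs.le) (by norm_num)
  exact Fermat.Agent.S14.eulerHasProd (eulTerm E m χ s) hsum hlt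

theorem eul_hasSum_log {s : ℝ} (hs : 1 < s) :
    HasSum (fun v : HeightOneSpectrum (𝓞 E) => Complex.log (1 - eulW E m χ v s)⁻¹)
      (primeL E m χ s + eulRsum E m χ s) := by
  have h := (eul_summable_W E m χ hs).hasSum.add (eul_summable_R E m χ hs.le).hasSum
  have hfun : (fun v : HeightOneSpectrum (𝓞 E) => eulW E m χ v s + eulR E m χ v s) =
      fun v => Complex.log (1 - eulW E m χ v s)⁻¹ := by
    funext v
    unfold eulR
    ring
  rw [hfun] at h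
  exact h

theorem eul_identity {s : ℝ} (hs : 1 < s) :
    idealL E m χ s = Complex.exp (primeL E m χ s + eulRsum E m χ s) := by
  have hexp := (eul_hasSum_log E m χ hs).cexp
  have hfun2 : (Complex.exp ∘ fun v : HeightOneSpectrum (𝓞 E) =>
      Complex.log (1 - eulW E m χ v s)⁻¹) = fun v => (1 - eulW E m χ v s)⁻¹ := by
    funext v
    simp only [Function.comp]
    rw [Complex.exp_log (inv_ne_zero (eul_W_ne_one E m χ v hs.le))]
  rw [hfun2] at hexp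
  exact (eul_hasProd E m χ hs).unique hexp

/-- **piece EUL** -/
theorem stmtEulerLog : StmtEulerLog := by
  intro E _ _ m _ χ
  exact ⟨eulRsum E m χ, eul_continuousOn_Rsum E m χ,
    ⟨_, fun s hs _ => eul_norm_Rsum_le E m χ hs.le⟩, eul_continuousOn_primeL E m χ,
    fun s hs _ => eul_identity E m χ hs⟩

end Fermat.Agent.S48.CD

end
end ZBZ4S48_018_2

/-! ### bundled: `Fermat.Agent.S48.CD.ArgBounded` -/
section ZBZ4S48_018_3
/-
S48/CD — piece **ARG** (helper32): a continuous logarithm `f` on `(1,2]` of a function `Λ` which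
is continuous on `[1,2]` with `Λ 1 ≠ 0` is bounded.

Near `1`: `Λ s / Λ 1` stays in the disc `|w - 1| ≤ 1/2`, where `Complex.log` is continuous and
bounded; `f - log (Λ / Λ 1)` is continuous with `exp = Λ 1`, hence constant on the interval
`(1, 1 + d]` (intermediate value theorem for the integer `(Im …)/(2π)`).  Away from `1`: `f` is
continuous on the compact `[1 + d, 2]`.
-/

set_option autoImplicit false

namespace Fermat.Agent.S48.CD

open Complex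

/-- an integer valued continuous real function on a preconnected set is constant -/
lemma argB_int_const {S : Set ℝ} (hS : IsPreconnected S) {r : ℝ → ℝ} (hr : ContinuousOn r S)
    (hint : ∀ s ∈ S, ∃ n : ℤ, r s = n) {x y : ℝ} (hx : x ∈ S) (hy : y ∈ S) : r x = r y := by
  by_contra hne
  wlog hlt : r x < r y generalizing x y
  · exact this hy hx (Ne.symm hne) (lt_of_le_of_ne (not_lt.1 hlt) (Ne.symm hne))
  obtain ⟨m, hm⟩ := hint x hx
  obtain ⟨n, hn⟩ := hint y hy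
  have hmn : m < n := by
    rw [hm, hn] at hlt
    exact_mod_cast hlt
  have hmn' : (m : ℝ) + 1 ≤ n := by exact_mod_cast hmn
  have hmem : (m : ℝ) + 1 / 2 ∈ Set.Icc (r x) (r y) := by
    rw [hm, hn]
    constructor <;> linarith
  obtain ⟨z, hz, hrz⟩ := hS.intermediate_value hx hy hr hmem
  obtain ⟨k, hk⟩ := hint z hz
  rw [hk] at hrz
  have h1 : (2 * k : ℝ) = 2 * m + 1 := by linarith
  have h2 : (2 * k : ℤ) = 2 * m + 1 := by exact_mod_cast h1
  omega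

/-- a continuous function with constant exponential on a preconnected subset of `ℝ` is
constant -/
lemma argB_exp_const {S : Set ℝ} (hS : IsPreconnected S) {h : ℝ → ℂ} (hh : ContinuousOn h S)
    {c : ℂ} (hc : ∀ s ∈ S, Complex.exp (h s) = c) {x y : ℝ} (hx : x ∈ S) (hy : y ∈ S) :
    h x = h y := by
  have hint : ∀ s ∈ S, ∃ n : ℤ, h s = h y + n * (2 * Real.pi * I) := by
    intro s hs
    exact Complex.exp_eq_exp_iff_exists_int.1 ((hc s hs).trans (hc y hy).symm)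
  have hpi : (2 * Real.pi : ℝ) ≠ 0 := by positivity
  have hr : ContinuousOn (fun s => (h s - h y).im / (2 * Real.pi)) S := by
    apply ContinuousOn.div_const
    exact Complex.continuous_im.comp_continuousOn (hh.sub continuousOn_const)
  have hint' : ∀ s ∈ S, ∃ n : ℤ, (fun s => (h s - h y).im / (2 * Real.pi)) s = n := by
    intro s hs
    obtain ⟨n, hn⟩ := hint s hs
    refine ⟨n, ?_⟩
    show (h s - h y).im / (2 * Real.pi) = n
    rw [hn, add_sub_cancel_left]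
    have : ((n : ℂ) * (2 * Real.pi * I)).im = n * (2 * Real.pi) := by
      simp [Complex.mul_im]
    rw [this]
    field_simp
  have h0 := argB_int_const hS hr hint' hx hy
  obtain ⟨n, hn⟩ := hint x hx
  have h1 : (h x - h y).im / (2 * Real.pi) = 0 := by
    have : (fun s => (h s - h y).im / (2 * Real.pi)) y = 0 := by
      show (h y - h y).im / (2 * Real.pi) = 0
      simp
    rw [← this]
    exact h0
  rw [hn, add_sub_cancel_left] at h1
  have h2 : ((n : ℂ) * (2 * Real.pi * I)).im = n * (2 * Real.pi) := by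
    simp [Complex.mul_im]
  rw [h2, mul_div_assoc, div_self hpi, mul_one] at h1
  have h3 : n = 0 := by exact_mod_cast h1
  rw [hn, h3]
  simp

/-- **ARG**. -/
theorem stmtArgBounded : StmtArgBounded := by
  intro f Λ hf hΛ h1 hexp
  have hΛ1 : 0 < ‖Λ 1‖ := norm_pos_iff.2 h1
  have hcont := hΛ 1 (by simp : (1 : ℝ) ∈ Set.Icc 1 2)
  rw [Metric.continuousWithinAt_iff] at hcont
  obtain ⟨δ, hδ, hδΛ⟩ := hcont (‖Λ 1‖ / 2) (by positivity)
  set d : ℝ := min (δ / 2) 1 with hd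
  have hd0 : 0 < d := lt_min (by positivity) one_pos
  have hd1 : d ≤ 1 := min_le_right _ _
  have hdδ : d < δ := lt_of_le_of_lt (min_le_left _ _) (by linarith)
  -- the disc
  have hw : ∀ s : ℝ, 1 < s → s ≤ 1 + d → ‖Λ s / Λ 1 - 1‖ ≤ 1 / 2 := by
    intro s hs1 hs2
    have h2 : dist (Λ s) (Λ 1) < ‖Λ 1‖ / 2 := by
      apply hδΛ
      · exact ⟨hs1.le, by linarith⟩
      · rw [Real.dist_eq, abs_of_pos (by linarith)]
        linarith
    rw [dist_eq_norm] at h2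
    have h3 : Λ s / Λ 1 - 1 = (Λ s - Λ 1) / Λ 1 := by
      field_simp
    rw [h3, norm_div, div_le_iff₀ hΛ1]
    linarith
  set g : ℝ → ℂ := fun s => Complex.log (Λ s / Λ 1) with hg
  have hgb : ∀ s : ℝ, 1 < s → s ≤ 1 + d → ‖g s‖ ≤ 3 / 4 := by
    intro s hs1 hs2
    have h2 := Complex.norm_log_one_add_half_le_self (hw s hs1 hs2)
    rw [show (1 : ℂ) + (Λ s / Λ 1 - 1) = Λ s / Λ 1 by ring] at h2
    have := hw s hs1 hs2
    show ‖Complex.log (Λ s / Λ 1)‖ ≤ 3 / 4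
    linarith
  have hsub : Set.Ioc (1 : ℝ) (1 + d) ⊆ Set.Ioc 1 2 := by
    intro s hs
    exact ⟨hs.1, by linarith [hs.2]⟩
  have hsub' : Set.Ioc (1 : ℝ) (1 + d) ⊆ Set.Icc 1 2 := by
    intro s hs
    exact ⟨hs.1.le, by linarith [hs.2]⟩
  have hgc : ContinuousOn g (Set.Ioc 1 (1 + d)) := by
    apply ContinuousOn.clog
    · exact (hΛ.mono hsub').div_const _
    · intro s hs
      have h2 := hw s hs.1 hs.2
      have h3 := Complex.mem_slitPlane_of_norm_lt_one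
        (lt_of_le_of_lt h2 (by norm_num : (1 / 2 : ℝ) < 1))
      rwa [show (1 : ℂ) + (Λ s / Λ 1 - 1) = Λ s / Λ 1 by ring] at h3
  have hhc : ContinuousOn (fun s => f s - g s) (Set.Ioc 1 (1 + d)) :=
    (hf.mono hsub).sub hgc
  have hexp' : ∀ s ∈ Set.Ioc (1 : ℝ) (1 + d), Complex.exp (f s - g s) = Λ 1 := by
    intro s hs
    have hs2 : s ≤ 2 := by linarith [hs.2]
    have hne : Λ s ≠ 0 := by
      rw [hexp s hs.1 hs2]
      exact Complex.exp_ne_zero _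
    rw [Complex.exp_sub, ← hexp s hs.1 hs2]
    show Λ s / Complex.exp (Complex.log (Λ s / Λ 1)) = Λ 1
    rw [Complex.exp_log (div_ne_zero hne h1)]
    field_simp
  have hs₀ : (1 + d : ℝ) ∈ Set.Ioc (1 : ℝ) (1 + d) := ⟨by linarith, le_refl _⟩
  have hconst : ∀ s ∈ Set.Ioc (1 : ℝ) (1 + d), f s - g s = f (1 + d) - g (1 + d) := by
    intro s hs
    exact argB_exp_const isPreconnected_Ioc hhc hexp' hs hs₀
  -- away from `1`
  have hsub2 : Set.Icc (1 + d) 2 ⊆ Set.Ioc (1 : ℝ) 2 := by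
    intro s hs
    exact ⟨by linarith [hs.1], hs.2⟩
  obtain ⟨C₂, hC₂⟩ := isCompact_Icc.exists_bound_of_continuousOn (hf.mono hsub2)
  refine ⟨max (3 / 4 + ‖f (1 + d) - g (1 + d)‖) C₂, fun s hs1 hs2 => ?_⟩
  by_cases hsd : s ≤ 1 + d
  · have h2 := hconst s ⟨hs1, hsd⟩
    have h3 : f s = g s + (f (1 + d) - g (1 + d)) := by
      rw [← h2]
      ring
    rw [h3]
    exact le_trans (norm_add_le _ _)
      (le_trans (add_le_add (hgb s hs1 hsd) (le_refl _)) (le_max_left _ _))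
  · exact le_trans (hC₂ s ⟨(not_le.1 hsd).le, hs2⟩) (le_max_right _ _)

end Fermat.Agent.S48.CD


end ZBZ4S48_018_3

/-! ### bundled: `Fermat.Agent.S48.CD.SplitOne` -/
section ZBZ4S48_018_4

/-!
# S48/CD, piece SP1: the primes of norm `≡ 1 mod ℓ` have density `1/[M:E]`

`M/E` Galois, `ζ ∈ M` a primitive `ℓ`-th root of unity on which `Gal(M/E)` acts faithfully.
Outside the finite set of the primes of `E` which ramify in `M` or lie above `ℓ`, a prime `v`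
splits completely in `M` iff `N v ≡ 1 mod ℓ`:

* if `v` splits completely, the residue field at `w ∣ v` has `N v` elements and contains an
  element of order `ℓ` (the class of `ζ`), so `ℓ ∣ N v - 1`;
* if `N v ≡ 1 mod ℓ`, a Frobenius element `φ` at `w ∣ v` fixes `ζ` (`φ ζ = ζ ^ (N v)`), so
  `φ = 1` and `x ^ (N v) ≡ x mod w` for all `x`: the residue degree is one.

Then `Cheb.stmtSplit` gives the density.
-/

set_option autoImplicit false
set_option linter.unusedSectionVars false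
set_option linter.unusedVariables false
set_option linter.style.haveILetI false

open NumberField IsDedekindDomain
open Fermat.Agent.Cheb

namespace Fermat.Agent.S48.CD

attribute [local instance] FractionRing.liftAlgebra

section

variable (E M : Type) [Field E] [NumberField E] [Field M] [NumberField M] [Algebra E M]

/-- The primes of `E` above `ℓ` form a finite set. -/
theorem sp1_finite_above (ℓ : ℕ) (hℓ : ℓ ≠ 0) :
    {v : HeightOneSpectrum (𝓞 E) | ((ℓ : ℕ) : 𝓞 E) ∈ v.asIdeal}.Finite := by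
  have h0 : Ideal.span {((ℓ : ℕ) : 𝓞 E)} ≠ ⊥ := by
    rw [Ne, Ideal.span_singleton_eq_bot]
    exact_mod_cast hℓ
  refine (Ideal.finite_factors h0).subset ?_
  intro v hv
  exact Ideal.dvd_span_singleton.mpr hv

/-- `N v ≡ 0 mod ℓ` if `v` lies above `ℓ`. -/
theorem sp1_absNorm_of_mem (ℓ : ℕ) (hℓ : ℓ.Prime) (v : HeightOneSpectrum (𝓞 E))
    (hv : ((ℓ : ℕ) : 𝓞 E) ∈ v.asIdeal) : ((Ideal.absNorm v.asIdeal : ℕ) : ZMod ℓ) = 0 := by
  haveI : v.asIdeal.IsPrime := v.isPrime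
  rw [ZMod.natCast_eq_zero_iff]
  have h1 : (Ideal.absNorm v.asIdeal : ℤ) ∈ Ideal.span {((ℓ : ℕ) : ℤ)} := by
    have h2 : v.asIdeal.under ℤ = Ideal.span {((ℓ : ℕ) : ℤ)} := by
      have h3 : ((ℓ : ℕ) : ℤ) ∈ v.asIdeal.under ℤ := by
        rw [Ideal.mem_comap]
        simpa using hv
      have hmax : (Ideal.span {((ℓ : ℕ) : ℤ)}).IsMaximal :=
        (Ideal.span_singleton_prime (by exact_mod_cast hℓ.ne_zero)).mpr
          (Nat.prime_iff_prime_int.mp hℓ) |>.isMaximal (by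
            rw [Ne, Ideal.span_singleton_eq_bot]; exact_mod_cast hℓ.ne_zero)
      have hle : Ideal.span {((ℓ : ℕ) : ℤ)} ≤ v.asIdeal.under ℤ :=
        (Ideal.span_singleton_le_iff_mem _).mpr h3
      have hne : v.asIdeal.under ℤ ≠ ⊤ := Ideal.IsPrime.ne_top inferInstance
      exact (hmax.eq_of_le hne hle).symm
    rw [← h2, Ideal.mem_comap]
    have := Ideal.absNorm_mem v.asIdeal
    simpa using this
  obtain ⟨k, hk⟩ := Ideal.mem_span_singleton'.mp h1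
  exact_mod_cast (Dvd.intro_left k hk : ((ℓ : ℕ) : ℤ) ∣ (Ideal.absNorm v.asIdeal : ℤ))

end

section galois

variable (E M : Type) [Field E] [NumberField E] [Field M] [NumberField M] [Algebra E M]
  [IsGalois E M]

/-- The primes of `E` below a ramified prime of `M` form a finite set. -/
theorem sp1_finite_ram :
    {v : HeightOneSpectrum (𝓞 E) | ∃ w : HeightOneSpectrum (𝓞 M),
      c2Under E M w = v ∧ w.asIdeal ∣ differentIdeal (𝓞 E) (𝓞 M)}.Finite := by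
  refine ((c2_finite_ramified E M).image (c2Under E M)).subset ?_
  rintro v ⟨w, hw, hdvd⟩
  exact ⟨w, hdvd, hw⟩

/-- Every prime of `E` has a prime of `M` above it. -/
theorem sp1_exists_over (v : HeightOneSpectrum (𝓞 E)) :
    ∃ w : HeightOneSpectrum (𝓞 M), c2Under E M w = v := by
  haveI : v.asIdeal.IsPrime := v.isPrime
  haveI : v.asIdeal.IsMaximal := v.isMaximal
  obtain ⟨P, hP⟩ := Ideal.nonempty_primesOver (S := 𝓞 M) v.asIdeal
  haveI : P.IsPrime := hP.1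
  haveI hlo : P.LiesOver v.asIdeal := hP.2
  have hPne : P ≠ ⊥ := by
    intro h
    subst h
    have := hlo.over
    apply v.ne_bot
    rw [this]
    exact Ideal.under_bot (𝓞 E) (𝓞 M)
  exact ⟨⟨P, hP.1, hPne⟩, HeightOneSpectrum.ext hlo.over.symm⟩

variable {E M}

/-- `ℓ ∉ w` if `ℓ` is not in the prime below `w`. -/
theorem sp1_not_mem_of_under (ℓ : ℕ) (w : HeightOneSpectrum (𝓞 M))
    (h : ((ℓ : ℕ) : 𝓞 E) ∉ (c2Under E M w).asIdeal) : ((ℓ : ℕ) : 𝓞 M) ∉ w.asIdeal := by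
  intro hw
  apply h
  show ((ℓ : ℕ) : 𝓞 E) ∈ w.asIdeal.under (𝓞 E)
  rw [Ideal.mem_comap]
  simpa using hw

/-- The integral element `ζ`. -/
theorem sp1_exists_integer {ℓ : ℕ} (hℓ : ℓ.Prime) {ζ : M} (hζ : IsPrimitiveRoot ζ ℓ) :
    ∃ ζ' : 𝓞 M, (ζ' : M) = ζ ∧ IsPrimitiveRoot ζ' ℓ := by
  have hint : IsIntegral ℤ ζ := hζ.isIntegral hℓ.pos
  refine ⟨⟨ζ, hint⟩, rfl, ?_⟩
  refine IsPrimitiveRoot.of_map_of_injective (f := algebraMap (𝓞 M) M) ?_
    RingOfIntegers.coe_injective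
  exact hζ

attribute [local instance] Ideal.Quotient.field in
/-- (a) a completely split prime not above `ℓ` has norm `≡ 1 mod ℓ`. -/
theorem sp1_norm_of_split {ℓ : ℕ} (hℓ : ℓ.Prime) {ζ : M} (hζ : IsPrimitiveRoot ζ ℓ)
    (w : HeightOneSpectrum (𝓞 M)) (hsplit : SplitsCompletely M (c2Under E M w))
    (hw : ((ℓ : ℕ) : 𝓞 M) ∉ w.asIdeal) :
    ((Ideal.absNorm (c2Under E M w).asIdeal : ℕ) : ZMod ℓ) = 1 := by
  classical
  haveI : Fact ℓ.Prime := ⟨hℓ⟩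
  rw [← c2_absNorm_eq_of_split E M w hsplit]
  haveI : w.asIdeal.IsMaximal := w.isMaximal
  haveI : Finite (𝓞 M ⧸ w.asIdeal) := Ideal.finiteQuotientOfFreeOfNeBot _ w.ne_bot
  letI : Fintype (𝓞 M ⧸ w.asIdeal) := Fintype.ofFinite _
  obtain ⟨ζ', -, hζ'⟩ := sp1_exists_integer hℓ hζ
  set z : 𝓞 M ⧸ w.asIdeal := Ideal.Quotient.mk w.asIdeal ζ' with hz
  have hzpow : z ^ ℓ = 1 := by rw [hz, ← map_pow, hζ'.pow_eq_one, map_one]
  have hz1 : z ≠ 1 := by
    intro h1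
    have hsum := hζ'.geom_sum_eq_zero hℓ.one_lt
    have h2 := congrArg (Ideal.Quotient.mk w.asIdeal) hsum
    rw [map_sum, map_zero] at h2
    have h3 : ∀ i ∈ Finset.range ℓ, Ideal.Quotient.mk w.asIdeal (ζ' ^ i) = 1 := by
      intro i _
      rw [map_pow, ← hz, h1, one_pow]
    rw [Finset.sum_congr rfl h3, Finset.sum_const, Finset.card_range, nsmul_eq_mul, mul_one,
      ← map_natCast (Ideal.Quotient.mk w.asIdeal), Ideal.Quotient.eq_zero_iff_mem] at h2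
    exact hw h2
  have hz0 : z ≠ 0 := by
    intro h0
    rw [h0, zero_pow hℓ.ne_zero] at hzpow
    exact zero_ne_one hzpow
  have hord : orderOf z = ℓ := orderOf_eq_prime hzpow hz1
  have hcard : Fintype.card (𝓞 M ⧸ w.asIdeal) = Ideal.absNorm w.asIdeal := by
    rw [← Nat.card_eq_fintype_card, Ideal.absNorm_apply, Submodule.cardQuot_apply]
  have hpow : z ^ (Ideal.absNorm w.asIdeal - 1) = 1 := by
    rw [← hcard]
    exact FiniteField.pow_card_sub_one_eq_one z hz0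
  have hdvd : ℓ ∣ Ideal.absNorm w.asIdeal - 1 := by
    rw [← hord]
    exact orderOf_dvd_of_pow_eq_one hpow
  have hq1 : 1 ≤ Ideal.absNorm w.asIdeal := one_le_absNorm w
  have e : Ideal.absNorm w.asIdeal = (Ideal.absNorm w.asIdeal - 1) + 1 := by omega
  rw [e, Nat.cast_add, (ZMod.natCast_eq_zero_iff _ _).mpr hdvd, zero_add, Nat.cast_one]

attribute [local instance] Ideal.Quotient.field in
/-- (b) an unramified prime of norm `≡ 1 mod ℓ` splits completely. -/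
theorem sp1_split_of_norm {ℓ : ℕ} {ζ : M} (hcyc : IsCycl E M ℓ ζ)
    (w : HeightOneSpectrum (𝓞 M)) (hur : ¬ w.asIdeal ∣ differentIdeal (𝓞 E) (𝓞 M))
    (hw : ((ℓ : ℕ) : 𝓞 M) ∉ w.asIdeal)
    (hN : ((Ideal.absNorm (c2Under E M w).asIdeal : ℕ) : ZMod ℓ) = 1) :
    SplitsCompletely M (c2Under E M w) := by
  classical
  obtain ⟨hℓ, hζ, hfaith⟩ := hcyc
  haveI : Fact ℓ.Prime := ⟨hℓ⟩
  haveI : w.asIdeal.IsPrime := w.isPrime
  haveI : w.asIdeal.IsMaximal := w.isMaximal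
  haveI : Finite (𝓞 M ⧸ w.asIdeal) := Ideal.finiteQuotientOfFreeOfNeBot _ w.ne_bot
  letI : Fintype (𝓞 M ⧸ w.asIdeal) := Fintype.ofFinite _
  set v := c2Under E M w with hv
  set q := Ideal.absNorm v.asIdeal with hq
  have hq1 : 1 ≤ q := one_le_absNorm v
  have hcardv : Nat.card (𝓞 E ⧸ w.asIdeal.under (𝓞 E)) = q := by
    show Nat.card (𝓞 E ⧸ v.asIdeal) = q
    rw [hq, Ideal.absNorm_apply, Submodule.cardQuot_apply]
  obtain ⟨ζ', hζ'coe, hζ'⟩ := sp1_exists_integer hℓ hζ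
  obtain ⟨φ, hφ⟩ := IsArithFrobAt.exists_of_isInvariant (𝓞 E) (M ≃ₐ[E] M) w.asIdeal
  -- `φ ζ = ζ ^ q = ζ`
  have h1 : φ • ζ' = ζ' ^ q := by
    have := hφ.apply_of_pow_eq_one hζ'.pow_eq_one hw
    rw [hcardv] at this
    exact this
  have hdvd : ℓ ∣ q - 1 := by
    rw [← ZMod.natCast_eq_zero_iff]
    have e : ((q - 1 : ℕ) : ZMod ℓ) = (q : ZMod ℓ) - 1 := by
      rw [Nat.cast_sub hq1, Nat.cast_one]
    rw [e, hN, sub_self]
  have h2 : ζ' ^ q = ζ' := by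
    obtain ⟨k, hk⟩ := hdvd
    have e : q = ℓ * k + 1 := by omega
    rw [e, pow_succ, pow_mul, hζ'.pow_eq_one, one_pow, one_mul]
  have h3 : φ ζ = ζ := by
    have h' : ((φ • ζ' : 𝓞 M) : M) = (ζ' : M) :=
      congrArg (fun x : 𝓞 M => (x : M)) (h1.trans h2)
    rw [← hζ'coe]
    exact h'
  have hφ1 : φ = 1 := hfaith φ h3
  -- `x ^ q ≡ x mod w`
  have h4 : ∀ x : 𝓞 M ⧸ w.asIdeal, x ^ q = x := by
    intro x
    obtain ⟨y, rfl⟩ := Ideal.Quotient.mk_surjective x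
    have h5 : φ • y - y ^ q ∈ w.asIdeal := by
      have := hφ y
      rw [hcardv] at this
      exact this
    rw [hφ1, one_smul] at h5
    rw [← map_pow, eq_comm, Ideal.Quotient.eq]
    exact h5
  -- a generator of the unit group of the residue field
  have hQ : Fintype.card (𝓞 M ⧸ w.asIdeal) = Ideal.absNorm w.asIdeal := by
    rw [← Nat.card_eq_fintype_card, Ideal.absNorm_apply, Submodule.cardQuot_apply]
  have hq2 : 2 ≤ q := by
    rcases Nat.lt_or_ge q 2 with h | h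
    · exfalso
      have hq' : q = 1 := by omega
      rw [hq, Ideal.absNorm_eq_one_iff] at hq'
      exact (Ideal.IsPrime.ne_top v.isPrime) hq'
    · exact h
  have hle : Ideal.absNorm w.asIdeal ≤ q := by
    obtain ⟨g, hg⟩ := IsCyclic.exists_generator (α := (𝓞 M ⧸ w.asIdeal)ˣ)
    have hgo : orderOf g = Fintype.card (𝓞 M ⧸ w.asIdeal)ˣ := by
      rw [← Nat.card_eq_fintype_card]
      exact orderOf_eq_card_of_forall_mem_zpowers hg
    rw [Fintype.card_units, hQ] at hgo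
    have hg1 : g ^ (q - 1) = 1 := by
      apply Units.ext
      rw [Units.val_pow_eq_pow_val, Units.val_one]
      have h6 := h4 (g : 𝓞 M ⧸ w.asIdeal)
      have e : q = (q - 1) + 1 := by omega
      rw [e, pow_succ] at h6
      have h7 : ((g : 𝓞 M ⧸ w.asIdeal)) ^ (q - 1) * g = 1 * g := by rw [one_mul]; exact h6
      exact mul_right_cancel₀ g.ne_zero h7
    have h8 : Ideal.absNorm w.asIdeal - 1 ∣ q - 1 := by
      rw [← hgo]
      exact orderOf_dvd_of_pow_eq_one hg1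
    have h9 : Ideal.absNorm w.asIdeal - 1 ≤ q - 1 := Nat.le_of_dvd (by omega) h8
    omega
  have hpowf := c2_absNorm E M w
  have hf : w.asIdeal.inertiaDeg (𝓞 E) = 1 := by
    have hfpos : 0 < w.asIdeal.inertiaDeg (𝓞 E) := by
      rcases Nat.eq_zero_or_pos (w.asIdeal.inertiaDeg (𝓞 E)) with h0 | h0
      · exfalso
        rw [h0, pow_zero] at hpowf
        have : Ideal.absNorm w.asIdeal = 1 := hpowf.symm
        rw [Ideal.absNorm_eq_one_iff] at this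
        exact (Ideal.IsPrime.ne_top w.isPrime) this
      · exact h0
    by_contra hne
    have h2f : 2 ≤ w.asIdeal.inertiaDeg (𝓞 E) := by omega
    have h10 : q ^ 2 ≤ q ^ w.asIdeal.inertiaDeg (𝓞 E) := Nat.pow_le_pow_right (by omega) h2f
    have h11 : q ^ w.asIdeal.inertiaDeg (𝓞 E) ≤ q := by
      rw [show q ^ w.asIdeal.inertiaDeg (𝓞 E) = Ideal.absNorm w.asIdeal from hpowf]
      exact hle
    nlinarith
  have hun : Algebra.IsUnramifiedAt (𝓞 E) w.asIdeal := not_dvd_differentIdeal_iff.mp hur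
  have he : w.asIdeal.ramificationIdx (𝓞 E) = 1 := Ideal.ramificationIdx_eq_one _ _
  have hfund := c2_fund E M w
  rw [he, hf, mul_one, mul_one] at hfund
  exact hfund

/-- **(SP1)** the primes of `E` of norm `≡ 1 mod ℓ` have density `1/[M:E]`. -/
theorem stmtSplitOne : StmtSplitOne := by
  intro E M _ _ _ _ _ _ ℓ ζ hcyc
  have hℓ : ℓ.Prime := hcyc.1
  have hE : PrimeSummable E := (stmtPrimeSum E).1
  have hA := stmtSplit stmtPrimeSum E M
  set N : Set (HeightOneSpectrum (𝓞 E)) :=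
    {v | ∃ w : HeightOneSpectrum (𝓞 M),
      c2Under E M w = v ∧ w.asIdeal ∣ differentIdeal (𝓞 E) (𝓞 M)} ∪
    {v | ((ℓ : ℕ) : 𝓞 E) ∈ v.asIdeal} with hNdef
  have hNfin : N.Finite := (sp1_finite_ram E M).union (sp1_finite_above E ℓ hℓ.ne_zero)
  have hN0 : HasLogDensity N 0 := hasLogDensity_zero_of_finite hNfin
  refine HasLogDensity.congr_of_symmDiff hE hA hN0 ?_ ?_
  · intro v hv
    by_cases hvN : v ∈ N
    · exact Or.inr hvN
    · left
      obtain ⟨w, rfl⟩ := sp1_exists_over E M v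
      have hℓv : ((ℓ : ℕ) : 𝓞 E) ∉ (c2Under E M w).asIdeal := fun h => hvN (Or.inr h)
      exact sp1_norm_of_split hℓ hcyc.2.1 w hv (sp1_not_mem_of_under ℓ w hℓv)
  · intro v hv
    by_cases hvN : v ∈ N
    · exact Or.inr hvN
    · left
      obtain ⟨w, rfl⟩ := sp1_exists_over E M v
      have hℓv : ((ℓ : ℕ) : 𝓞 E) ∉ (c2Under E M w).asIdeal := fun h => hvN (Or.inr h)
      have hur : ¬ w.asIdeal ∣ differentIdeal (𝓞 E) (𝓞 M) := fun h =>
        hvN (Or.inl ⟨w, rfl, h⟩)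
      exact sp1_split_of_norm hcyc w hur (sp1_not_mem_of_under ℓ w hℓv) hv

end galois

end Fermat.Agent.S48.CD


end ZBZ4S48_018_4

/-! ### bundled: `Fermat.Agent.S48.CD.NormRange` -/
section ZBZ4S48_018_5
/-
S48/CD — piece **NR** (helper32): the norm of a prime `v` of `E` not above `ℓ` is the cyclotomic
character of an element of `Gal(M/E)`: a Frobenius element `φ` at a prime `𝔓 ∣ v` of `M` satisfies
`φ ζ = ζ ^ N v`  (`IsArithFrobAt.exists_of_isInvariant`, `apply_of_pow_eq_one`).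
-/

set_option autoImplicit false
set_option linter.style.haveILetI false

namespace Fermat.Agent.S48.CD

open NumberField IsDedekindDomain

/-- a prime number `ℓ` not dividing `N v` does not lie in `v` -/
lemma nrng_natCast_not_mem {E : Type} [Field E] [NumberField E] (v : HeightOneSpectrum (𝓞 E))
    (ℓ : ℕ) (hℓ : ℓ.Prime) (hv : ((Ideal.absNorm v.asIdeal : ℕ) : ZMod ℓ) ≠ 0) :
    (ℓ : 𝓞 E) ∉ v.asIdeal := by
  intro hmem
  have hnd : ¬ ℓ ∣ Ideal.absNorm v.asIdeal := by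
    intro hd
    exact hv ((ZMod.natCast_eq_zero_iff _ _).2 hd)
  have hcop : Nat.Coprime ℓ (Ideal.absNorm v.asIdeal) :=
    (Nat.Prime.coprime_iff_not_dvd hℓ).2 hnd
  have hN : ((Ideal.absNorm v.asIdeal : ℕ) : 𝓞 E) ∈ v.asIdeal := by
    have := Ideal.absNorm_mem v.asIdeal
    exact_mod_cast this
  have h1 : ((Nat.gcd ℓ (Ideal.absNorm v.asIdeal) : ℕ) : ℤ) =
      (ℓ : ℤ) * Nat.gcdA ℓ (Ideal.absNorm v.asIdeal) +
        (Ideal.absNorm v.asIdeal : ℤ) * Nat.gcdB ℓ (Ideal.absNorm v.asIdeal) :=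
    Nat.gcd_eq_gcd_ab _ _
  rw [hcop.gcd_eq_one] at h1
  have h2 : (1 : 𝓞 E) = (ℓ : 𝓞 E) * ((Nat.gcdA ℓ (Ideal.absNorm v.asIdeal) : ℤ) : 𝓞 E) +
      ((Ideal.absNorm v.asIdeal : ℕ) : 𝓞 E) *
        ((Nat.gcdB ℓ (Ideal.absNorm v.asIdeal) : ℤ) : 𝓞 E) := by
    have := congrArg (fun z : ℤ => (z : 𝓞 E)) h1
    simpa using this
  have h3 : (1 : 𝓞 E) ∈ v.asIdeal := by
    rw [h2]
    exact v.asIdeal.add_mem (v.asIdeal.mul_mem_right _ hmem) (v.asIdeal.mul_mem_right _ hN)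
  exact v.isPrime.ne_top ((Ideal.eq_top_iff_one _).2 h3)

/-- **NR**. -/
theorem stmtNormRange : StmtNormRange := by
  intro E M _ _ _ _ _ _ ℓ ζ hcyc v hv
  obtain ⟨hℓ, hζ, -⟩ := hcyc
  haveI := v.isPrime
  obtain ⟨⟨𝔓, h𝔓p, h𝔓over⟩⟩ := v.asIdeal.nonempty_primesOver (S := 𝓞 M)
  haveI := h𝔓p
  have h𝔓0 : 𝔓 ≠ ⊥ := by
    rintro rfl
    apply v.ne_bot
    rw [h𝔓over.over, Ideal.under, eq_bot_iff]
    intro x hx
    rw [Ideal.mem_comap, Ideal.mem_bot] at hx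
    rw [Ideal.mem_bot]
    exact FaithfulSMul.algebraMap_injective (𝓞 E) (𝓞 M) (hx.trans (map_zero _).symm)
  haveI : Finite (𝓞 M ⧸ 𝔓) := Ideal.finiteQuotientOfFreeOfNeBot 𝔓 h𝔓0
  obtain ⟨φ, hφ⟩ := IsArithFrobAt.exists_of_isInvariant (𝓞 E) (M ≃ₐ[E] M) 𝔓
  have hint : IsIntegral ℤ ζ := hζ.isIntegral hℓ.pos
  set ζ' : 𝓞 M := ⟨ζ, hint⟩ with hζ'
  have h1 : ζ' ^ ℓ = 1 := by
    apply RingOfIntegers.ext
    show ζ ^ ℓ = 1
    exact hζ.pow_eq_one
  have h2 : ((ℓ : ℕ) : 𝓞 M) ∉ 𝔓 := by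
    intro hmem
    apply nrng_natCast_not_mem v ℓ hℓ hv
    rw [h𝔓over.over, Ideal.under_def, Ideal.mem_comap, map_natCast]
    exact hmem
  have h3 := AlgHom.IsArithFrobAt.apply_of_pow_eq_one hφ h1 h2
  have hcard : Nat.card (𝓞 E ⧸ 𝔓.under (𝓞 E)) = Ideal.absNorm v.asIdeal := by
    rw [← h𝔓over.over, Ideal.absNorm_apply, Submodule.cardQuot_apply]
  rw [hcard] at h3
  refine ⟨φ, ?_⟩
  have h4 := congrArg (fun x : 𝓞 M => (x : M)) h3
  exact h4

end Fermat.Agent.S48.CD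


end ZBZ4S48_018_5

/-! ### bundled: `Fermat.Agent.S48.CD.NormGen` -/
section ZBZ4S48_018_6
/-
S48/CD — piece **NG** (helper32): there is a prime `v` of `E`, not above `ℓ`, such that every
element of `Gal(M/E)` acts on `ζ` as a power of `N v`.

`Gal(M/E) ↪ (ℤ/ℓ)ˣ` is cyclic; `Cheb.stmtCyclic` (with `S = {ℓ}`) gives a prime `v` of degree one,
`N v ≠ ℓ`, with a unique prime `𝔓` of `M` above it.  Every `g` stabilises `𝔓` and acts on the
residue field as a power of the Frobenius `x ↦ x ^ N v`; since `ℓ ∉ 𝔓` the `ℓ`-th roots of unity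
are distinct modulo `𝔓`, so `g ζ = ζ ^ (N v ^ j)`.  (No ramification hypothesis is needed.)
-/

set_option autoImplicit false
set_option linter.style.haveILetI false

namespace Fermat.Agent.S48.CD

open NumberField IsDedekindDomain
open scoped Pointwise

/-- an `ℓ`-th root of unity congruent to `1` modulo an ideal not containing `ℓ` is `1` -/
lemma ngen_eq_one_of_sub_mem {S : Type*} [CommRing S] [IsDomain S] (Q : Ideal S) (ℓ : ℕ)
    (hℓQ : (ℓ : S) ∉ Q) (η : S) (hη : η ^ ℓ = 1) (hmem : η - 1 ∈ Q) : η = 1 := by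
  by_contra hne
  have hsum : ∑ i ∈ Finset.range ℓ, η ^ i = 0 := by
    have h := geom_sum_mul η ℓ
    rw [hη, sub_self] at h
    exact (mul_eq_zero.1 h).resolve_right (sub_ne_zero.2 hne)
  apply hℓQ
  have h1 : (ℓ : S) = - ∑ i ∈ Finset.range ℓ, (η ^ i - 1) := by
    rw [Finset.sum_sub_distrib, hsum]
    simp
  rw [h1]
  apply Q.neg_mem
  apply Q.sum_mem
  intro i _
  exact Ideal.mem_of_dvd Q (sub_one_dvd_pow_sub_one η i) hmem

/-- two `ℓ`-th roots of unity which are congruent modulo an ideal not containing `ℓ` are equal -/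
lemma ngen_root_eq {S : Type*} [CommRing S] [IsDomain S] (Q : Ideal S) (ℓ : ℕ) (hℓ0 : ℓ ≠ 0)
    (hℓQ : (ℓ : S) ∉ Q) (x y : S) (hx : x ^ ℓ = 1) (hy : y ^ ℓ = 1) (hmem : x - y ∈ Q) :
    x = y := by
  have hyy : y ^ (ℓ - 1) * y = 1 := by
    rw [← pow_succ, Nat.sub_add_cancel (Nat.pos_of_ne_zero hℓ0), hy]
  have h1 : x * y ^ (ℓ - 1) = 1 := by
    apply ngen_eq_one_of_sub_mem Q ℓ hℓQ
    · rw [mul_pow, hx, one_mul, ← pow_mul, mul_comm, pow_mul, hy, one_pow]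
    · have h2 : x * y ^ (ℓ - 1) - 1 = y ^ (ℓ - 1) * (x - y) := by
        rw [mul_sub, hyy]
        ring
      rw [h2]
      exact Q.mul_mem_left _ hmem
  calc x = x * (y ^ (ℓ - 1) * y) := by rw [hyy, mul_one]
    _ = (x * y ^ (ℓ - 1)) * y := by ring
    _ = y := by rw [h1, one_mul]

/-- `Gal(M/E)` is cyclic when it acts faithfully on a primitive `ℓ`-th root of unity -/
lemma ngen_isCyclic {E M : Type} [Field E] [Field M] [Algebra E M] {ℓ : ℕ} {ζ : M}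
    (hcyc : IsCycl E M ℓ ζ) : IsCyclic (M ≃ₐ[E] M) := by
  obtain ⟨hℓ, hζ, hfaith⟩ := hcyc
  haveI : Fact ℓ.Prime := ⟨hℓ⟩
  haveI : NeZero ℓ := ⟨hℓ.ne_zero⟩
  have hinj : Function.Injective (hζ.autToPow E) := by
    rw [injective_iff_map_eq_one]
    intro g hg
    apply hfaith
    have h1 := hζ.autToPow_spec E g
    rw [hg] at h1
    have h2 : ((1 : (ZMod ℓ)ˣ) : ZMod ℓ).val = 1 := by
      rw [Units.val_one]
      exact ZMod.val_one ℓ
    rw [h2, pow_one] at h1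
    exact h1.symm
  exact isCyclic_of_injective (hζ.autToPow E) hinj

attribute [local instance] Ideal.Quotient.field in
/-- **NG**. -/
theorem stmtNormGen : StmtNormGen := by
  intro E M _ _ _ _ _ _ ℓ ζ hcyc
  haveI := ngen_isCyclic hcyc
  obtain ⟨hℓ, hζ, hfaith⟩ := hcyc
  obtain ⟨v, hvp, hvS, hone⟩ := Fermat.Agent.Cheb.stmtCyclic Fermat.Agent.Cheb.stmtPrimeSum
    (Fermat.Agent.Cheb.stmtSplit Fermat.Agent.Cheb.stmtPrimeSum)
    Fermat.Agent.Cheb.stmtCyclicSplit E M {ℓ}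
  have hv : ((Ideal.absNorm v.asIdeal : ℕ) : ZMod ℓ) ≠ 0 := by
    rw [Ne, ZMod.natCast_eq_zero_iff]
    intro hd
    have := (Nat.prime_dvd_prime_iff_eq hℓ hvp).1 hd
    exact hvS (by simp [this])
  refine ⟨v, hv, fun g => ?_⟩
  haveI := v.isPrime
  obtain ⟨𝔓, h𝔓⟩ := Set.ncard_eq_one.1 hone
  have h𝔓mem : 𝔓 ∈ Ideal.primesOver v.asIdeal (𝓞 M) := by
    rw [h𝔓]
    exact Set.mem_singleton _
  haveI h𝔓p : 𝔓.IsPrime := h𝔓mem.1
  haveI h𝔓over : 𝔓.LiesOver v.asIdeal := h𝔓mem.2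
  have hg : g • 𝔓 = 𝔓 := by
    have h1 : g • 𝔓 ∈ Ideal.primesOver v.asIdeal (𝓞 M) := ⟨inferInstance, inferInstance⟩
    rw [h𝔓] at h1
    exact h1
  have h𝔓0 : 𝔓 ≠ ⊥ := by
    rintro rfl
    apply v.ne_bot
    rw [h𝔓over.over, Ideal.under, eq_bot_iff]
    intro x hx
    rw [Ideal.mem_comap, Ideal.mem_bot] at hx
    rw [Ideal.mem_bot]
    exact FaithfulSMul.algebraMap_injective (𝓞 E) (𝓞 M) (hx.trans (map_zero _).symm)
  haveI : Finite (𝓞 M ⧸ 𝔓) := Ideal.finiteQuotientOfFreeOfNeBot 𝔓 h𝔓0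
  haveI hvmax : v.asIdeal.IsMaximal := v.isMaximal
  haveI h𝔓max : 𝔓.IsMaximal := Ideal.IsPrime.isMaximal inferInstance h𝔓0
  haveI : Finite (𝓞 E ⧸ v.asIdeal) := Ideal.finiteQuotientOfFreeOfNeBot v.asIdeal v.ne_bot
  letI : Fintype (𝓞 E ⧸ v.asIdeal) := Fintype.ofFinite _
  obtain ⟨n, hn⟩ := (FiniteField.bijective_frobeniusAlgEquivOfAlgebraic_pow
    (𝓞 E ⧸ v.asIdeal) (𝓞 M ⧸ 𝔓)).2
    (Ideal.Quotient.stabilizerHom 𝔓 v.asIdeal (M ≃ₐ[E] M) ⟨g, hg⟩)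
  have hcard : Nat.card (𝓞 E ⧸ v.asIdeal) = Ideal.absNorm v.asIdeal := by
    rw [Ideal.absNorm_apply, Submodule.cardQuot_apply]
  have h2 : ∀ x : 𝓞 M, g • x - x ^ (Ideal.absNorm v.asIdeal ^ (n : ℕ)) ∈ 𝔓 := by
    intro x
    have h := congrArg (fun f : (𝓞 M ⧸ 𝔓) ≃ₐ[𝓞 E ⧸ v.asIdeal] (𝓞 M ⧸ 𝔓) =>
      f (Ideal.Quotient.mk 𝔓 x)) hn
    simp only [AlgEquiv.coe_pow, FiniteField.coe_frobeniusAlgEquivOfAlgebraic_iterate,
      Ideal.Quotient.stabilizerHom_apply] at h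
    rw [← Ideal.Quotient.eq, map_pow, ← hcard, Nat.card_eq_fintype_card]
    exact h.symm
  have hint : IsIntegral ℤ ζ := hζ.isIntegral hℓ.pos
  set ζ' : 𝓞 M := ⟨ζ, hint⟩ with hζ'
  have h1 : ζ' ^ ℓ = 1 := by
    apply RingOfIntegers.ext
    show ζ ^ ℓ = 1
    exact hζ.pow_eq_one
  have hℓ𝔓 : ((ℓ : ℕ) : 𝓞 M) ∉ 𝔓 := by
    intro hmem
    apply nrng_natCast_not_mem v ℓ hℓ hv
    rw [h𝔓over.over, Ideal.under_def, Ideal.mem_comap, map_natCast]
    exact hmem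
  have h3 : g • ζ' = ζ' ^ (Ideal.absNorm v.asIdeal ^ (n : ℕ)) := by
    apply ngen_root_eq 𝔓 ℓ hℓ.ne_zero hℓ𝔓
    · rw [← smul_pow', h1, smul_one]
    · rw [← pow_mul, mul_comm, pow_mul, h1, one_pow]
    · exact h2 ζ'
  refine ⟨n, ?_⟩
  have h4 := congrArg (fun x : 𝓞 M => (x : M)) h3
  exact h4

end Fermat.Agent.S48.CD


end ZBZ4S48_018_6

/-! ### bundled: `Fermat.Agent.S48.CD.DirichletE` -/
section ZBZ4S48_018_7
/-
S48/CD piece DIRE (helper61): Dirichlet's theorem over a number field `E`, for the norms of the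
primes modulo a prime `ℓ`, from the analytic and algebraic pieces of `S48/CD/Plan.lean`.
-/

set_option autoImplicit false

namespace Fermat.Agent.S48.CD

open NumberField IsDedekindDomain Filter Topology
open Fermat.Agent.Cheb

variable {E : Type} [Field E] [NumberField E]

/-- the norm of `v` modulo `ℓ` -/
noncomputable def dirA (E : Type) [Field E] [NumberField E] (ℓ : ℕ)
    (v : HeightOneSpectrum (𝓞 E)) : ZMod ℓ :=
  ((Ideal.absNorm v.asIdeal : ℕ) : ZMod ℓ)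

/-- the term of the prime sum with a character -/
noncomputable def dirTerm (E : Type) [Field E] [NumberField E] (ℓ : ℕ)
    (χ : DirichletCharacter ℂ ℓ) (s : ℝ) (v : HeightOneSpectrum (𝓞 E)) : ℂ :=
  (χ (dirA E ℓ v) : ℂ) * ((nrm E s v : ℝ) : ℂ)

theorem dire_primeSummable : PrimeSummable E := (stmtPrimeSum E).1

theorem dire_primeL_eq (ℓ : ℕ) (χ : DirichletCharacter ℂ ℓ) (s : ℝ) :
    primeL E ℓ χ s = ∑' v, dirTerm E ℓ χ s v := rfl

theorem dire_norm_term_le (ℓ : ℕ) (χ : DirichletCharacter ℂ ℓ) (s : ℝ)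
    (v : HeightOneSpectrum (𝓞 E)) : ‖dirTerm E ℓ χ s v‖ ≤ nrm E s v := by
  unfold dirTerm
  rw [norm_mul, Complex.norm_real, Real.norm_of_nonneg (nrm_nonneg s v)]
  calc ‖χ (dirA E ℓ v)‖ * nrm E s v ≤ 1 * nrm E s v :=
        mul_le_mul_of_nonneg_right (DirichletCharacter.norm_le_one χ _) (nrm_nonneg s v)
    _ = nrm E s v := one_mul _

theorem dire_summable (ℓ : ℕ) (χ : DirichletCharacter ℂ ℓ) {s : ℝ} (hs : 1 < s) :
    Summable (dirTerm E ℓ χ s) :=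
  Summable.of_norm_bounded (dire_primeSummable s hs) (dire_norm_term_le ℓ χ s)

/-- the density sum of a residue class, as a complex number -/
theorem dire_classSum (ℓ : ℕ) (b : ZMod ℓ) (s : ℝ) :
    (({v : HeightOneSpectrum (𝓞 E) | dirA E ℓ v = b}.primeIdealZetaSum s : ℝ) : ℂ) =
      ∑' v : HeightOneSpectrum (𝓞 E), if b = dirA E ℓ v then ((nrm E s v : ℝ) : ℂ) else 0 := by
  rw [primeIdealZetaSum_eq_tsum_indicator, Complex.ofReal_tsum]
  refine tsum_congr fun v => ?_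
  by_cases h : b = dirA E ℓ v
  · rw [if_pos h, Set.indicator_of_mem (by exact h.symm)]
  · rw [if_neg h, Set.indicator_of_notMem (by exact fun h' => h h'.symm)]
    simp

/-- orthogonality of the characters -/
theorem dire_orth (ℓ : ℕ) [NeZero ℓ] {t : ZMod ℓ} (ht : IsUnit t) {s : ℝ} (hs : 1 < s) :
    ∑ χ : DirichletCharacter ℂ ℓ, χ t⁻¹ * primeL E ℓ χ s =
      (ℓ.totient : ℂ) *
        (({v : HeightOneSpectrum (𝓞 E) | dirA E ℓ v = t}.primeIdealZetaSum s : ℝ) : ℂ) := by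
  rw [dire_classSum, ← tsum_mul_left]
  have h1 : ∀ χ : DirichletCharacter ℂ ℓ, χ t⁻¹ * primeL E ℓ χ s =
      ∑' v, χ t⁻¹ * dirTerm E ℓ χ s v := fun χ => by
    rw [dire_primeL_eq, tsum_mul_left]
  simp_rw [h1]
  rw [← Summable.tsum_finsetSum (fun χ _ => (dire_summable ℓ χ hs).mul_left _)]
  refine tsum_congr fun v => ?_
  have h2 := DirichletCharacter.sum_char_inv_mul_char_eq ℂ ht (dirA E ℓ v)
  unfold dirTerm
  simp_rw [← mul_assoc]
  rw [← Finset.sum_mul, h2]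
  split_ifs <;> simp

/-! ### The primes above `ℓ` -/

theorem dire_finite_zero (ℓ : ℕ) (hℓ : ℓ.Prime) :
    {v : HeightOneSpectrum (𝓞 E) | dirA E ℓ v = 0}.Finite := by
  have hne : Ideal.span {((ℓ : ℕ) : 𝓞 E)} ≠ 0 := by
    rw [Ne, Ideal.zero_eq_bot, Ideal.span_singleton_eq_bot]
    exact_mod_cast hℓ.ne_zero
  refine (Ideal.finite_factors hne).subset fun v hv => ?_
  have h1 : (ℓ : ℕ) ∣ Ideal.absNorm v.asIdeal := (ZMod.natCast_eq_zero_iff _ _).mp hv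
  haveI : v.asIdeal.IsMaximal := v.isMaximal
  obtain ⟨p, n, _, hp, hpp, hpn⟩ := Ideal.exists_prime_and_absNorm_eq_pow v.asIdeal
  rw [hpn] at h1
  have h2 : ℓ = p := (Nat.prime_dvd_prime_iff_eq hℓ hpp).mp (hℓ.dvd_of_dvd_pow h1)
  rw [Set.mem_setOf_eq, Ideal.dvd_iff_le, Ideal.span_singleton_le_iff_mem, h2]
  exact hp

theorem dire_density_nonzero (ℓ : ℕ) (hℓ : ℓ.Prime) :
    HasLogDensity {v : HeightOneSpectrum (𝓞 E) | dirA E ℓ v ≠ 0} 1 := by
  have h1 := (stmtPrimeSum E).2.1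
  have h2 := h1.diff_zero dire_primeSummable
    (hasLogDensity_zero_of_finite (dire_finite_zero (E := E) ℓ hℓ))
  have e : (Set.univ \ {v : HeightOneSpectrum (𝓞 E) | dirA E ℓ v = 0}) =
      {v : HeightOneSpectrum (𝓞 E) | dirA E ℓ v ≠ 0} := by
    ext v; simp
  rwa [e] at h2

/-- a character which is trivial on the norms: its prime sum is `log (1/(s-1)) + O(1)` -/
theorem dire_triv (ℓ : ℕ) (hℓ : ℓ.Prime) (χ : DirichletCharacter ℂ ℓ)
    (h : ∀ v : HeightOneSpectrum (𝓞 E), dirA E ℓ v ≠ 0 → χ (dirA E ℓ v) = 1) :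
    ∃ C : ℝ, ∀ s : ℝ, 1 < s → s < 2 →
      ‖primeL E ℓ χ s - ((Real.log (1 / (s - 1)) : ℝ) : ℂ)‖ ≤ C := by
  haveI : Fact (1 < ℓ) := ⟨hℓ.one_lt⟩
  obtain ⟨C, hC⟩ := dire_density_nonzero (E := E) ℓ hℓ
  refine ⟨C, fun s hs hs2 => ?_⟩
  have h1 : primeL E ℓ χ s =
      (({v : HeightOneSpectrum (𝓞 E) | dirA E ℓ v ≠ 0}.primeIdealZetaSum s : ℝ) : ℂ) := by
    rw [dire_primeL_eq, primeIdealZetaSum_eq_tsum_indicator, Complex.ofReal_tsum]
    refine tsum_congr fun v => ?_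
    unfold dirTerm
    by_cases hv : dirA E ℓ v = 0
    · rw [Set.indicator_of_notMem (by simpa using hv), hv, MulChar.map_zero]
      simp
    · rw [Set.indicator_of_mem (by exact hv), h v hv, one_mul]
  rw [h1, ← Complex.ofReal_sub, Complex.norm_real, Real.norm_eq_abs]
  simpa using hC s hs hs2

/-! ### The cyclotomic character of `Gal(M/E)` and the characters trivial on its image -/

section Gal

variable {M : Type} [Field M] [NumberField M] [Algebra E M] [IsGalois E M]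
variable {ℓ : ℕ} [NeZero ℓ] {ζ : M} (hζ : IsPrimitiveRoot ζ ℓ)

theorem dire_kappa_eq (g : M ≃ₐ[E] M) (a : ℕ) (h : g ζ = ζ ^ a) :
    ((hζ.autToPow E g : (ZMod ℓ)ˣ) : ZMod ℓ) = (a : ZMod ℓ) := by
  have h1 := hζ.autToPow_spec E g
  rw [h] at h1
  have hfin : IsOfFinOrder ζ := isOfFinOrder_iff_pow_eq_one.mpr ⟨ℓ, NeZero.pos ℓ, hζ.pow_eq_one⟩
  have h2 := hfin.pow_eq_pow_iff_modEq.mp h1
  rw [← hζ.eq_orderOf] at h2
  have h3 := (ZMod.natCast_eq_natCast_iff _ _ _).mpr h2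
  rwa [ZMod.natCast_zmod_val] at h3

theorem dire_kappa_injective (hfaith : ∀ g : M ≃ₐ[E] M, g ζ = ζ → g = 1) :
    Function.Injective (hζ.autToPow E) := by
  rw [injective_iff_map_eq_one]
  intro g hg
  apply hfaith
  have h1 := hζ.autToPow_spec E g
  rw [hg] at h1
  rw [← h1]
  rcases Nat.lt_or_ge 1 ℓ with h | h
  · haveI : Fact (1 < ℓ) := ⟨h⟩
    simp [ZMod.val_one]
  · have h0 : ℓ = 1 := le_antisymm h (NeZero.pos ℓ)
    have h2 : ζ = 1 := by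
      have := hζ.pow_eq_one
      rwa [h0, pow_one] at this
    rw [h2, one_pow]

/-- `χ` is trivial on the image of the cyclotomic character -/
def dirTriv (χ : DirichletCharacter ℂ ℓ) : Prop :=
  ∀ g : M ≃ₐ[E] M, χ ((hζ.autToPow E g : (ZMod ℓ)ˣ) : ZMod ℓ) = 1

theorem dire_sum_gal (χ : DirichletCharacter ℂ ℓ) [Decidable (dirTriv (E := E) hζ χ)] :
    ∑ g : M ≃ₐ[E] M, χ ((hζ.autToPow E g : (ZMod ℓ)ˣ) : ZMod ℓ) =
      if dirTriv (E := E) hζ χ then (Nat.card (M ≃ₐ[E] M) : ℂ) else 0 := by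
  split_ifs with h
  · rw [Finset.sum_congr rfl fun g _ => h g]
    simp [Nat.card_eq_fintype_card]
  · unfold dirTriv at h
    push Not at h
    obtain ⟨g₀, hg₀⟩ := h
    refine eq_zero_of_mul_eq_self_left hg₀ ?_
    rw [Finset.mul_sum]
    refine Fintype.sum_bijective (fun g => g₀ * g) (Group.mulLeft_bijective g₀) _ _ fun g => ?_
    rw [map_mul, Units.val_mul, map_mul]

open Classical in
theorem dire_count (hinj : Function.Injective (hζ.autToPow E)) :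
    ((Finset.univ.filter fun χ : DirichletCharacter ℂ ℓ => dirTriv (E := E) hζ χ).card : ℂ) *
      (Nat.card (M ≃ₐ[E] M) : ℂ) = (ℓ.totient : ℂ) := by
  have h1 : ∑ χ : DirichletCharacter ℂ ℓ,
      ∑ g : M ≃ₐ[E] M, χ ((hζ.autToPow E g : (ZMod ℓ)ˣ) : ZMod ℓ) =
      ((Finset.univ.filter fun χ : DirichletCharacter ℂ ℓ => dirTriv (E := E) hζ χ).card : ℂ) *
        (Nat.card (M ≃ₐ[E] M) : ℂ) := by
    simp_rw [dire_sum_gal]
    rw [← Finset.sum_filter, Finset.sum_const, nsmul_eq_mul]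
  rw [← h1, Finset.sum_comm]
  simp_rw [DirichletCharacter.sum_characters_eq]
  rw [Finset.sum_eq_single (1 : M ≃ₐ[E] M)]
  · simp
  · intro g _ hg
    rw [if_neg]
    intro h
    apply hg
    apply hinj
    rw [map_one]
    exact Units.ext h
  · intro h
    exact absurd (Finset.mem_univ _) h

end Gal

/-! ### The abstract comparison of the characters -/

open Classical in
/-- lower bound for the real part of the prime sum of a character outside `T` -/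
theorem dire_lower {X : Type} [Fintype X] (P : X → ℝ → ℂ) (T : X → Prop) (L D : ℝ → ℝ)
    (n φ : ℕ) (hn : 0 < n) (hcard : (Finset.univ.filter T).card * n = φ)
    (h1 : ∀ χ, T χ → ∃ C : ℝ, ∀ s : ℝ, 1 < s → s < 2 → ‖P χ s - ((L s : ℝ) : ℂ)‖ ≤ C)
    (h2 : ∀ χ, ¬ T χ → ∃ C : ℝ, ∀ s : ℝ, 1 < s → s < 2 → (P χ s).re ≤ C)
    (h3 : ∃ C : ℝ, ∀ s : ℝ, 1 < s → s < 2 → |D s - 1 / (n : ℝ) * L s| ≤ C)
    (h4 : ∀ s : ℝ, 1 < s → s < 2 → ∑ χ, P χ s = ((φ : ℝ) : ℂ) * ((D s : ℝ) : ℂ))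
    (χ₁ : X) (hχ₁ : ¬ T χ₁) :
    ∃ C : ℝ, ∀ s : ℝ, 1 < s → s < 2 → -C ≤ (P χ₁ s).re := by
  -- uniform upper bounds
  have hup : ∀ χ, ∃ c : ℝ, ∀ s : ℝ, 1 < s → s < 2 →
      (P χ s).re ≤ (if T χ then L s else 0) + c := by
    intro χ
    by_cases hT : T χ
    · obtain ⟨C, hC⟩ := h1 χ hT
      refine ⟨C, fun s hs hs2 => ?_⟩
      rw [if_pos hT]
      have h5 := (Complex.abs_re_le_norm _).trans (hC s hs hs2)
      rw [Complex.sub_re, Complex.ofReal_re] at h5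
      linarith [(abs_le.mp h5).2]
    · obtain ⟨C, hC⟩ := h2 χ hT
      refine ⟨C, fun s hs hs2 => ?_⟩
      rw [if_neg hT, zero_add]
      exact hC s hs hs2
  choose c hc using hup
  obtain ⟨C3, hC3⟩ := h3
  refine ⟨φ * C3 + ∑ χ ∈ Finset.univ.erase χ₁, c χ, fun s hs hs2 => ?_⟩
  have h5 : ∑ χ, (P χ s).re = φ * D s := by
    have := congrArg Complex.re (h4 s hs hs2)
    rw [Complex.re_sum] at this
    rw [this, ← Complex.ofReal_mul, Complex.ofReal_re]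
  have h6 : (P χ₁ s).re + ∑ χ ∈ Finset.univ.erase χ₁, (P χ s).re = φ * D s := by
    rw [Finset.add_sum_erase Finset.univ (fun χ => (P χ s).re) (Finset.mem_univ χ₁)]
    exact h5
  have h7 : ∑ χ ∈ Finset.univ.erase χ₁, (P χ s).re ≤
      ∑ χ ∈ Finset.univ.erase χ₁, ((if T χ then L s else 0) + c χ) :=
    Finset.sum_le_sum fun χ _ => hc χ s hs hs2
  have h8 : ∑ χ ∈ Finset.univ.erase χ₁, (if T χ then L s else 0) =
      ((Finset.univ.filter T).card : ℝ) * L s := by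
    have h9 : ∑ χ ∈ Finset.univ.erase χ₁, (if T χ then L s else 0) =
        ∑ χ : X, (if T χ then L s else 0) := by
      rw [← Finset.add_sum_erase Finset.univ (fun χ => if T χ then L s else 0)
        (Finset.mem_univ χ₁), if_neg hχ₁, zero_add]
    rw [h9, ← Finset.sum_filter, Finset.sum_const, nsmul_eq_mul]
  rw [Finset.sum_add_distrib, h8] at h7
  have h10 := (abs_le.mp (hC3 s hs hs2)).1
  have h11 : (φ : ℝ) * (1 / (n : ℝ) * L s) = ((Finset.univ.filter T).card : ℝ) * L s := by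
    rw [← hcard]
    push_cast
    field_simp
  have h12 : (φ : ℝ) * (D s - 1 / (n : ℝ) * L s) ≥ φ * (-C3) :=
    mul_le_mul_of_nonneg_left h10 (Nat.cast_nonneg φ)
  nlinarith [h6, h7, h11, h12]

/-! ### The analytic input for one character -/

/-- upper bound of the real part of the prime sum -/
theorem dire_re_le {Λ R P : ℝ → ℂ} (hΛc : ContinuousOn Λ (Set.Icc 1 2)) (CR : ℝ)
    (hCR : ∀ s : ℝ, 1 < s → s ≤ 2 → ‖R s‖ ≤ CR)
    (hexp : ∀ s : ℝ, 1 < s → s ≤ 2 → Λ s = Complex.exp (P s + R s)) :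
    ∃ C : ℝ, ∀ s : ℝ, 1 < s → s < 2 → (P s).re ≤ C := by
  obtain ⟨K, hK⟩ := isCompact_Icc.exists_bound_of_continuousOn hΛc
  refine ⟨Real.log (max K 1) + CR, fun s hs hs2 => ?_⟩
  have h1 : ‖Λ s‖ ≤ max K 1 := (hK s ⟨hs.le, hs2.le⟩).trans (le_max_left _ _)
  rw [hexp s hs hs2.le, Complex.norm_exp] at h1
  have h2 : (P s + R s).re ≤ Real.log (max K 1) :=
    (Real.le_log_iff_exp_le (lt_of_lt_of_le one_pos (le_max_right _ _))).mpr h1
  have h3 : -(R s).re ≤ CR :=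
    (neg_le_abs _).trans ((Complex.abs_re_le_norm _).trans (hCR s hs hs2.le))
  rw [Complex.add_re] at h2
  linarith

/-- nonvanishing at `1`, and boundedness of the prime sum -/
theorem dire_bounded (hArg : StmtArgBounded) {Λ R P : ℝ → ℂ}
    (hΛc : ContinuousOn Λ (Set.Icc 1 2)) (hRc : ContinuousOn R (Set.Ioc 1 2))
    (hPc : ContinuousOn P (Set.Ioc 1 2)) (CR : ℝ)
    (hCR : ∀ s : ℝ, 1 < s → s ≤ 2 → ‖R s‖ ≤ CR)
    (hexp : ∀ s : ℝ, 1 < s → s ≤ 2 → Λ s = Complex.exp (P s + R s))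
    (C : ℝ) (hlow : ∀ s : ℝ, 1 < s → s < 2 → -C ≤ (P s).re) :
    ∃ C' : ℝ, ∀ s : ℝ, 1 < s → s < 2 → ‖P s‖ ≤ C' := by
  have hge : ∀ s : ℝ, 1 < s → s < 2 → Real.exp (-C - CR) ≤ ‖Λ s‖ := by
    intro s hs hs2
    rw [hexp s hs hs2.le, Complex.norm_exp, Real.exp_le_exp, Complex.add_re]
    have h3 : -(R s).re ≤ CR :=
      (neg_le_abs _).trans ((Complex.abs_re_le_norm _).trans (hCR s hs hs2.le))
    linarith [hlow s hs hs2]
  have h1 : Λ 1 ≠ 0 := by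
    have hcont : ContinuousWithinAt Λ (Set.Icc 1 2) 1 :=
      hΛc 1 ⟨le_refl _, by norm_num⟩
    have hmono : ContinuousWithinAt Λ (Set.Ioo 1 2) 1 :=
      hcont.mono Set.Ioo_subset_Icc_self
    have ht : Tendsto (fun s => ‖Λ s‖) (𝓝[Set.Ioo 1 2] (1 : ℝ)) (𝓝 ‖Λ 1‖) :=
      (continuous_norm.tendsto _).comp hmono
    haveI : (𝓝[Set.Ioo 1 2] (1 : ℝ)).NeBot := by
      rw [← mem_closure_iff_nhdsWithin_neBot, closure_Ioo (by norm_num)]
      exact ⟨le_refl _, by norm_num⟩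
    have h2 : Real.exp (-C - CR) ≤ ‖Λ 1‖ := by
      refine ge_of_tendsto ht ?_
      filter_upwards [self_mem_nhdsWithin] with s hs
      exact hge s hs.1 hs.2
    intro h0
    rw [h0, norm_zero] at h2
    exact absurd h2 (not_le.mpr (Real.exp_pos _))
  obtain ⟨C', hC'⟩ := hArg (fun s => P s + R s) Λ (hPc.add hRc) hΛc h1 hexp
  refine ⟨C' + CR, fun s hs hs2 => ?_⟩
  have h2 := hC' s hs hs2.le
  have h3 := hCR s hs hs2.le
  calc ‖P s‖ = ‖(P s + R s) - R s‖ := by rw [add_sub_cancel_right]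
    _ ≤ ‖P s + R s‖ + ‖R s‖ := norm_sub_le _ _
    _ ≤ C' + CR := add_le_add h2 h3

/-! ### The theorem -/

open Classical in
theorem stmtDirichletE (hL : StmtNormL) (hEu : StmtEulerLog) (hArg : StmtArgBounded)
    (hSp : StmtSplitOne) (hNR : StmtNormRange) (hNG : StmtNormGen) : StmtDirichletE := by
  intro E M _ _ _ _ _ _ ℓ ζ hcyc z t hz
  have hcyc' := hcyc
  obtain ⟨hℓ, hζ, hfaith⟩ := hcyc
  haveI : NeZero ℓ := ⟨hℓ.ne_zero⟩
  haveI : Fact (1 < ℓ) := ⟨hℓ.one_lt⟩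
  haveI : Fact ℓ.Prime := ⟨hℓ⟩
  have hκinj := dire_kappa_injective (E := E) hζ hfaith
  set L : ℝ → ℝ := fun s => Real.log (1 / (s - 1)) with hLdef
  -- characters trivial on the image
  have hB1 : ∀ χ : DirichletCharacter ℂ ℓ, dirTriv (E := E) hζ χ →
      ∃ C : ℝ, ∀ s : ℝ, 1 < s → s < 2 → ‖primeL E ℓ χ s - ((L s : ℝ) : ℂ)‖ ≤ C := by
    intro χ hχ
    refine dire_triv ℓ hℓ χ fun v hv => ?_
    obtain ⟨g, hg⟩ := hNR E M ℓ ζ hcyc' v hv
    have h1 := dire_kappa_eq (E := E) hζ g _ hg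
    have h2 := hχ g
    rw [h1] at h2
    exact h2
  -- the analytic data of the other characters
  have hdata : ∀ χ : DirichletCharacter ℂ ℓ, ¬ dirTriv (E := E) hζ χ →
      ∃ Λ R : ℝ → ℂ, ContinuousOn Λ (Set.Icc 1 2) ∧ ContinuousOn R (Set.Ioc 1 2) ∧
        ContinuousOn (primeL E ℓ χ) (Set.Ioc 1 2) ∧
        (∃ CR : ℝ, ∀ s : ℝ, 1 < s → s ≤ 2 → ‖R s‖ ≤ CR) ∧
        ∀ s : ℝ, 1 < s → s ≤ 2 → Λ s = Complex.exp (primeL E ℓ χ s + R s) := by
    intro χ hχ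
    unfold dirTriv at hχ
    push Not at hχ
    obtain ⟨g₀, hg₀⟩ := hχ
    obtain ⟨v₀, hv₀, hgen⟩ := hNG E M ℓ ζ hcyc'
    obtain ⟨j, hj⟩ := hgen g₀
    have h1 := dire_kappa_eq (E := E) hζ g₀ _ hj
    rw [h1, Nat.cast_pow, map_pow] at hg₀
    have h2 : χ ((Ideal.absNorm v₀.asIdeal : ℕ) : ZMod ℓ) ≠ 1 := by
      intro h
      rw [h, one_pow] at hg₀
      exact hg₀ rfl
    have h3 : χ ((Ideal.absNorm v₀.asIdeal : ℕ) : ZMod ℓ) ≠ 0 := by
      have hu : IsUnit ((Ideal.absNorm v₀.asIdeal : ℕ) : ZMod ℓ) := isUnit_iff_ne_zero.mpr hv₀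
      exact (hu.map χ).ne_zero
    obtain ⟨Λ, hΛc, hΛ⟩ := hL E ℓ χ
      ⟨⟨v₀.asIdeal, mem_nonZeroDivisors_of_ne_zero v₀.ne_bot⟩, h3, h2⟩
    obtain ⟨R, hRc, hCR, hPc, hexp⟩ := hEu E ℓ χ
    exact ⟨Λ, R, hΛc, hRc, hPc, hCR, fun s hs hs2 => (hΛ s hs hs2).trans (hexp s hs hs2)⟩
  have hB2up : ∀ χ : DirichletCharacter ℂ ℓ, ¬ dirTriv (E := E) hζ χ →
      ∃ C : ℝ, ∀ s : ℝ, 1 < s → s < 2 → (primeL E ℓ χ s).re ≤ C := by
    intro χ hχ
    obtain ⟨Λ, R, hΛc, -, -, ⟨CR, hCR⟩, hexp⟩ := hdata χ hχ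
    exact dire_re_le hΛc CR hCR hexp
  -- the class of `1`
  have hD1 := hSp E M ℓ ζ hcyc'
  have hn : 0 < Module.finrank E M := Module.finrank_pos
  have hcard : (Finset.univ.filter fun χ : DirichletCharacter ℂ ℓ =>
      dirTriv (E := E) hζ χ).card * Module.finrank E M = ℓ.totient := by
    have h1 := dire_count (E := E) hζ hκinj
    rw [IsGalois.card_aut_eq_finrank] at h1
    exact_mod_cast h1
  have horth1 : ∀ s : ℝ, 1 < s → s < 2 → ∑ χ : DirichletCharacter ℂ ℓ, primeL E ℓ χ s =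
      ((ℓ.totient : ℝ) : ℂ) *
        (({v : HeightOneSpectrum (𝓞 E) | dirA E ℓ v = 1}.primeIdealZetaSum s : ℝ) : ℂ) := by
    intro s hs _
    have h1 := dire_orth (E := E) ℓ (t := 1) isUnit_one hs
    simp only [inv_one, map_one, one_mul] at h1
    rw [h1]
    norm_cast
  have hB2low : ∀ χ : DirichletCharacter ℂ ℓ, ¬ dirTriv (E := E) hζ χ →
      ∃ C : ℝ, ∀ s : ℝ, 1 < s → s < 2 → -C ≤ (primeL E ℓ χ s).re :=
    dire_lower (fun χ s => primeL E ℓ χ s) _ L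
      (fun s => {v : HeightOneSpectrum (𝓞 E) | dirA E ℓ v = 1}.primeIdealZetaSum s)
      (Module.finrank E M) ℓ.totient hn hcard hB1 hB2up hD1 horth1
  have hB2 : ∀ χ : DirichletCharacter ℂ ℓ, ¬ dirTriv (E := E) hζ χ →
      ∃ C : ℝ, ∀ s : ℝ, 1 < s → s < 2 → ‖primeL E ℓ χ s‖ ≤ C := by
    intro χ hχ
    obtain ⟨Λ, R, hΛc, hRc, hPc, ⟨CR, hCR⟩, hexp⟩ := hdata χ hχ
    obtain ⟨C, hC⟩ := hB2low χ hχ
    exact dire_bounded hArg hΛc hRc hPc CR hCR hexp C hC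
  -- the class of `t`
  have ht : ((hζ.autToPow E z : (ZMod ℓ)ˣ) : ZMod ℓ) = (t : ZMod ℓ) := dire_kappa_eq hζ z t hz
  have htu : IsUnit (t : ZMod ℓ) := ht ▸ Units.isUnit _
  have hall : ∀ χ : DirichletCharacter ℂ ℓ, ∃ C : ℝ, ∀ s : ℝ, 1 < s → s < 2 →
      ‖(χ (t : ZMod ℓ)⁻¹ - 1) * primeL E ℓ χ s‖ ≤ C := by
    intro χ
    by_cases hχ : dirTriv (E := E) hζ χ
    · refine ⟨0, fun s _ _ => ?_⟩
      have h1 : χ (t : ZMod ℓ)⁻¹ = 1 := by
        have h2 := hχ z⁻¹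
        rw [map_inv, ← ht] at *
        rwa [Units.val_inv_eq_inv_val] at h2
      rw [h1, sub_self, zero_mul, norm_zero]
    · obtain ⟨C, hC⟩ := hB2 χ hχ
      refine ⟨2 * C, fun s hs hs2 => ?_⟩
      rw [norm_mul]
      have h1 : ‖χ (t : ZMod ℓ)⁻¹ - 1‖ ≤ 2 := by
        calc ‖χ (t : ZMod ℓ)⁻¹ - 1‖ ≤ ‖χ (t : ZMod ℓ)⁻¹‖ + ‖(1 : ℂ)‖ := norm_sub_le _ _
          _ ≤ 1 + 1 := add_le_add (DirichletCharacter.norm_le_one χ _) (by simp)
          _ = 2 := by norm_num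
      exact mul_le_mul h1 (hC s hs hs2) (norm_nonneg _) (by norm_num)
  choose c hc using hall
  obtain ⟨C1, hC1⟩ := hD1
  have hφ : (0 : ℝ) < ℓ.totient := by exact_mod_cast Nat.totient_pos.mpr hℓ.pos
  refine ⟨C1 + (∑ χ : DirichletCharacter ℂ ℓ, c χ) / ℓ.totient, fun s hs hs2 => ?_⟩
  have h1 := dire_orth (E := E) ℓ htu hs
  have h2 := dire_orth (E := E) ℓ (t := 1) isUnit_one hs
  simp only [inv_one, map_one, one_mul] at h2
  have h3 : ∑ χ : DirichletCharacter ℂ ℓ, (χ (t : ZMod ℓ)⁻¹ - 1) * primeL E ℓ χ s =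
      (ℓ.totient : ℂ) *
        ((({v : HeightOneSpectrum (𝓞 E) | dirA E ℓ v = (t : ZMod ℓ)}.primeIdealZetaSum s -
          {v : HeightOneSpectrum (𝓞 E) | dirA E ℓ v = 1}.primeIdealZetaSum s : ℝ)) : ℂ) := by
    simp_rw [sub_mul, one_mul]
    rw [Finset.sum_sub_distrib, h1, h2]
    push_cast
    ring
  have h4 : ‖∑ χ : DirichletCharacter ℂ ℓ, (χ (t : ZMod ℓ)⁻¹ - 1) * primeL E ℓ χ s‖ ≤
      ∑ χ : DirichletCharacter ℂ ℓ, c χ :=
    (norm_sum_le _ _).trans (Finset.sum_le_sum fun χ _ => hc χ s hs hs2)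
  rw [h3, norm_mul, Complex.norm_natCast, Complex.norm_real, Real.norm_eq_abs] at h4
  have h5 : |{v : HeightOneSpectrum (𝓞 E) | dirA E ℓ v = (t : ZMod ℓ)}.primeIdealZetaSum s -
      {v : HeightOneSpectrum (𝓞 E) | dirA E ℓ v = 1}.primeIdealZetaSum s| ≤
      (∑ χ : DirichletCharacter ℂ ℓ, c χ) / ℓ.totient := by
    rw [le_div_iff₀ hφ, mul_comm]
    exact h4
  have h6 := hC1 s hs hs2
  have e : {v : HeightOneSpectrum (𝓞 E) |
      ((Ideal.absNorm v.asIdeal : ℕ) : ZMod ℓ) = (t : ZMod ℓ)}.primeIdealZetaSum s -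
      1 / (Module.finrank E M : ℝ) * Real.log (1 / (s - 1)) =
      ({v : HeightOneSpectrum (𝓞 E) | dirA E ℓ v = (t : ZMod ℓ)}.primeIdealZetaSum s -
        {v : HeightOneSpectrum (𝓞 E) | dirA E ℓ v = 1}.primeIdealZetaSum s) +
      ({v : HeightOneSpectrum (𝓞 E) | dirA E ℓ v = 1}.primeIdealZetaSum s -
        1 / (Module.finrank E M : ℝ) * Real.log (1 / (s - 1))) := by
    unfold dirA
    ring
  rw [e]
  calc _ ≤ _ + _ := abs_add_le _ _
    _ ≤ (∑ χ : DirichletCharacter ℂ ℓ, c χ) / ℓ.totient + C1 := add_le_add h5 h6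
    _ = _ := add_comm _ _

end Fermat.Agent.S48.CD


end ZBZ4S48_018_7

/-! ### bundled: `Fermat.Agent.S48.CD.FrobTransfer` -/
section ZBZ4S48_018_8
/-
S48/CD, piece **DEU-1** (helper87): `stmtFrobTransfer : StmtFrobTransfer`.

`M/ℚ` Galois, `z ∈ Gal(M/ℚ)` of cyclotomic type (`z ζ = ζ ^ t`, faithful on `ζ`), `E = M^⟨z⟩`,
`v` a prime of degree one of `E` with `N v ≡ t mod ℓ`, `𝔓 ∣ v` a prime of `M`.
A Frobenius `ψ ∈ Gal(M/E) = ⟨z⟩` of `𝔓` over `𝓞 E` satisfies `ψ ζ = ζ ^ (N v) = ζ ^ t = z ζ`, hence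
`ψ = z`; as `N v = p` is prime, `ψ` is also a Frobenius over `ℤ`.
-/

set_option autoImplicit false
set_option linter.style.haveILetI false
set_option linter.unusedSectionVars false

namespace Fermat.Agent.S48.CD

open NumberField IsDedekindDomain
open Fermat.Agent.Cheb

/-- An element of `⟨z⟩` which acts on `ζ` as `z` does is `z`, if `z` is of cyclotomic type. -/
theorem frobT_eq_of_apply_eq {M : Type} [Field M] [NumberField M] (z : M ≃ₐ[ℚ] M) (ℓ : ℕ) (ζ : M)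
    (hcyc : IsCyclZ z ℓ ζ) (ψ : M ≃ₐ[ℚ] M) (hψ : ψ ∈ Subgroup.zpowers z) (h : ψ ζ = z ζ) :
    ψ = z := by
  haveI : Finite (M ≃ₐ[ℚ] M) := inferInstance
  rw [← mem_powers_iff_mem_zpowers, Submonoid.mem_powers_iff] at hψ
  obtain ⟨j, rfl⟩ := hψ
  have hn : 0 < orderOf z := orderOf_pos z
  have h1 : (z ^ (orderOf z - 1 + j)) ζ = ζ := by
    rw [pow_add, AlgEquiv.mul_apply, h, ← AlgEquiv.mul_apply, ← pow_succ,
      Nat.sub_add_cancel hn, pow_orderOf_eq_one, AlgEquiv.one_apply]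
  have h2 := hcyc.2.2 _ h1
  have h3 : z ^ (orderOf z - 1) * z = 1 := by
    rw [← pow_succ, Nat.sub_add_cancel hn, pow_orderOf_eq_one]
  rw [pow_add] at h2
  exact mul_left_cancel (h2.trans h3.symm)

/-- **DEU-1**. -/
theorem stmtFrobTransfer : StmtFrobTransfer := by
  intro M _ _ _ z ℓ ζ t hcyc hzt v hvp hvt 𝔓 h𝔓 hunder
  haveI := h𝔓
  have hℓ := hcyc.1
  have hζ := hcyc.2.1
  obtain ⟨p, hp⟩ : ∃ p : ℕ, p = Ideal.absNorm v.asIdeal := ⟨_, rfl⟩
  rw [← hp] at hvp hvt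
  -- `𝔓 ≠ ⊥`
  have h𝔓0 : 𝔓 ≠ ⊥ := by
    intro h0
    apply v.ne_bot
    rw [← hunder, h0]
    exact Ideal.under_bot _ _
  haveI : Finite (𝓞 M ⧸ 𝔓) := Ideal.finiteQuotientOfFreeOfNeBot 𝔓 h𝔓0
  -- `p ∈ 𝔓`
  have hpv : ((p : ℕ) : 𝓞 (fixZ z)) ∈ v.asIdeal := by rw [hp]; exact Ideal.absNorm_mem v.asIdeal
  have hp𝔓 : ((p : ℕ) : 𝓞 M) ∈ 𝔓 := by
    have h1 : ((p : ℕ) : 𝓞 (fixZ z)) ∈ 𝔓.under (𝓞 (fixZ z)) := by rw [hunder]; exact hpv
    rw [Ideal.under_def, Ideal.mem_comap, map_natCast] at h1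
    exact h1
  have hcardZ : Nat.card (ℤ ⧸ 𝔓.under ℤ) = p := Strong.card_under_int 𝔓 p hvp hp𝔓
  have hcardE : Nat.card (𝓞 (fixZ z) ⧸ 𝔓.under (𝓞 (fixZ z))) = p := by
    rw [hunder, hp, Ideal.absNorm_apply, Submodule.cardQuot_apply]
  -- `ℓ ≠ p`
  have hζ1 : ζ ≠ 1 := hζ.ne_one hℓ.one_lt
  have hℓt : ¬ ℓ ∣ t := by
    intro hdvd
    obtain ⟨c, rfl⟩ := hdvd
    rw [pow_mul, hζ.pow_eq_one, one_pow] at hzt
    apply hζ1
    apply z.injective
    rw [hzt, map_one]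
  have hℓp : ℓ ≠ p := by
    intro h
    apply hℓt
    rw [← ZMod.natCast_eq_zero_iff, ← hvt, ← h]
    exact ZMod.natCast_self ℓ
  have hℓ𝔓 : ((ℓ : ℕ) : 𝓞 M) ∉ 𝔓 := by
    intro h
    have hcop : Nat.Coprime ℓ p := (Nat.coprime_primes hℓ hvp).mpr hℓp
    have h1 : ((Nat.gcd ℓ p : ℕ) : ℤ) = ℓ * Nat.gcdA ℓ p + p * Nat.gcdB ℓ p := Nat.gcd_eq_gcd_ab ℓ p
    rw [hcop] at h1
    have h2 : (1 : 𝓞 M) = (ℓ : 𝓞 M) * ((Nat.gcdA ℓ p : ℤ) : 𝓞 M) +
        (p : 𝓞 M) * ((Nat.gcdB ℓ p : ℤ) : 𝓞 M) := by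
      have := congrArg (fun n : ℤ => (n : 𝓞 M)) h1
      simpa using this
    apply Ideal.IsPrime.ne_top h𝔓
    rw [Ideal.eq_top_iff_one, h2]
    exact 𝔓.add_mem (𝔓.mul_mem_right _ h) (𝔓.mul_mem_right _ hp𝔓)
  -- a Frobenius of `M/E` at `𝔓`
  obtain ⟨ψ, hψ⟩ := IsArithFrobAt.exists_of_isInvariant (𝓞 (fixZ z)) (M ≃ₐ[fixZ z] M) 𝔓
  have hψ' : IsArithFrobAt ℤ (ψ.restrictScalars ℚ) 𝔓 := by
    intro x
    have h := hψ x
    rw [hcardE] at h
    rw [hcardZ]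
    have e : (MulSemiringAction.toAlgHom ℤ (𝓞 M) (ψ.restrictScalars ℚ)) x =
        (MulSemiringAction.toAlgHom (𝓞 (fixZ z)) (𝓞 M) ψ) x :=
      Strong.restrictScalars_smul (fixZ z) ψ x
    rw [e]
    exact h
  -- its action on `ζ`
  let ζ' : 𝓞 M := ⟨ζ, (hζ.isIntegral hℓ.pos)⟩
  have hζ' : ζ' ^ ℓ = 1 := by
    apply RingOfIntegers.ext
    show ζ ^ ℓ = 1
    exact hζ.pow_eq_one
  have h1 := AlgHom.IsArithFrobAt.apply_of_pow_eq_one hψ' hζ' hℓ𝔓
  rw [hcardZ] at h1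
  have h2 : (ψ.restrictScalars ℚ) ζ = ζ ^ p := by
    have := congrArg (fun y : 𝓞 M => (y : M)) h1
    exact this
  have h3 : ζ ^ p = ζ ^ t := by
    have hmod : p % ℓ = t % ℓ := (ZMod.natCast_eq_natCast_iff _ _ _).mp hvt
    have ho : orderOf ζ = ℓ := hζ.eq_orderOf.symm
    rw [← pow_mod_orderOf ζ p, ← pow_mod_orderOf ζ t, ho, hmod]
  have hmem : ψ.restrictScalars ℚ ∈ Subgroup.zpowers z := by
    have h4 : ψ.restrictScalars ℚ ∈ (fixZ z).fixingSubgroup := fun x => ψ.commutes x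
    have h5 : (fixZ z).fixingSubgroup = Subgroup.zpowers z :=
      IntermediateField.fixingSubgroup_fixedField (Subgroup.zpowers z)
    rwa [h5] at h4
  have heq : ψ.restrictScalars ℚ = z :=
    frobT_eq_of_apply_eq z ℓ ζ hcyc _ hmem (by rw [h2, h3, hzt])
  rw [← heq]
  exact hψ'

end Fermat.Agent.S48.CD


end ZBZ4S48_018_8

/-! ### bundled: `Fermat.Agent.S48.CD.FiberCount` -/
section ZBZ4S48_018_9
/-
S48/CD — piece **DEU-2** (helper19): above an unramified `p` there are at most `|Z(z)| / ord z`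
primes `v` of `E = M^⟨z⟩` of norm `p` lying below a prime of `M` with Frobenius element `z`.

Proof.  Let `𝔓₀` be one prime of `M` above `p` with Frobenius `z`.  Every other such prime is
`g • 𝔓₀` (transitivity), and `g z g⁻¹ = z` by uniqueness of the Frobenius element at an unramified
prime, so `g ∈ Z(z)`.  Choose such a `g_v` for every `v`; then `(v, z^j) ↦ g_v z^j` is injective
into `Z(z)` because `z` stabilises `𝔓₀` and `𝔓` determines `v = 𝔓 ∩ 𝓞 E`.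
-/

set_option autoImplicit false
set_option linter.style.haveILetI false

namespace Fermat.Agent.S48.CD

open NumberField IsDedekindDomain
open scoped Pointwise

/-- An element of `Gal(M/ℚ)` is determined by its action on `𝓞 M`. -/
theorem fbc_algEquiv_eq {M : Type} [Field M] [NumberField M] (φ ψ : M ≃ₐ[ℚ] M)
    (h : MulSemiringAction.toAlgHom ℤ (𝓞 M) φ = MulSemiringAction.toAlgHom ℤ (𝓞 M) ψ) :
    φ = ψ := by
  ext x
  obtain ⟨a, b, hb, rfl⟩ := IsFractionRing.div_surjective (A := 𝓞 M) x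
  have ha' : φ (a : M) = ψ (a : M) := by
    have := congrArg (fun f => ((f a : 𝓞 M) : M)) h
    exact this
  have hb' : φ (b : M) = ψ (b : M) := by
    have := congrArg (fun f => ((f b : 𝓞 M) : M)) h
    exact this
  rw [map_div₀, map_div₀, ha', hb']

/-- uniqueness of the Frobenius element at an unramified prime. -/
theorem fbc_frob_unique {M : Type} [Field M] [NumberField M]
    (𝔓 : Ideal (𝓞 M)) [𝔓.IsPrime] [Algebra.IsUnramifiedAt ℤ 𝔓]
    {σ τ : M ≃ₐ[ℚ] M} (hσ : IsArithFrobAt ℤ σ 𝔓) (hτ : IsArithFrobAt ℤ τ 𝔓) : σ = τ := by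
  have h2 := AlgHom.IsArithFrobAt.eq_of_isUnramifiedAt hσ hτ
    (by
      intro x hx
      rw [mem_nonZeroDivisors_iff_ne_zero]
      rintro rfl
      exact hx (Ideal.zero_mem _))
  exact fbc_algEquiv_eq _ _ h2

/-- a prime of `𝓞 M` containing the prime number `p` lies over `(p)`. -/
theorem fbc_under_int {M : Type} [Field M] [NumberField M] (p : ℕ) (hp : p.Prime)
    (𝔓 : Ideal (𝓞 M)) [h𝔓 : 𝔓.IsPrime] (hmem : (p : 𝓞 M) ∈ 𝔓) :
    𝔓.under ℤ = Ideal.span {(p : ℤ)} := by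
  have hle : Ideal.span {(p : ℤ)} ≤ 𝔓.under ℤ := by
    rw [Ideal.span_singleton_le_iff_mem, Ideal.under_def, Ideal.mem_comap]
    simpa using hmem
  have hmax : (Ideal.span {(p : ℤ)}).IsMaximal :=
    PrincipalIdealRing.isMaximal_of_irreducible
      (Nat.prime_iff_prime_int.mp hp).irreducible
  have hne : 𝔓.under ℤ ≠ ⊤ := (inferInstance : (𝔓.under ℤ).IsPrime).ne_top
  exact (hmax.eq_of_le hne hle).symm

/-- **DEU-2**. -/
theorem stmtFiberCount : StmtFiberCount := by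
  intro M _ _ _ z p hp hunr
  classical
  set V : Set (HeightOneSpectrum (𝓞 (fixZ z))) :=
    {v | Ideal.absNorm v.asIdeal = p ∧
      ∃ 𝔓 : Ideal (𝓞 M), 𝔓.IsPrime ∧ 𝔓.under (𝓞 (fixZ z)) = v.asIdeal ∧
        IsArithFrobAt ℤ z 𝔓} with hVdef
  -- membership of `p`
  have hpmem : ∀ (v : HeightOneSpectrum (𝓞 (fixZ z))) (𝔓 : Ideal (𝓞 M)),
      Ideal.absNorm v.asIdeal = p → 𝔓.under (𝓞 (fixZ z)) = v.asIdeal → (p : 𝓞 M) ∈ 𝔓 := by
    intro v 𝔓 hN hu
    have h1 : ((Ideal.absNorm v.asIdeal : ℕ) : 𝓞 (fixZ z)) ∈ v.asIdeal := by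
      have := Ideal.absNorm_mem v.asIdeal
      exact_mod_cast this
    rw [hN, ← hu, Ideal.under_def, Ideal.mem_comap, map_natCast] at h1
    exact h1
  by_cases hne : V.Nonempty
  swap
  · rw [Set.not_nonempty_iff_eq_empty] at hne
    rw [hne]
    simp
  obtain ⟨v₀, hv₀N, 𝔓₀, h𝔓₀p, h𝔓₀u, h𝔓₀f⟩ := hne
  haveI := h𝔓₀p
  have h𝔓₀mem : (p : 𝓞 M) ∈ 𝔓₀ := hpmem v₀ 𝔓₀ hv₀N h𝔓₀u
  have hstab : z • 𝔓₀ = 𝔓₀ := MulAction.mem_stabilizer_iff.mp h𝔓₀f.mem_stabilizer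
  have hstabpow : ∀ y ∈ Subgroup.zpowers z, y • 𝔓₀ = 𝔓₀ := by
    intro y hy
    have : Subgroup.zpowers z ≤ MulAction.stabilizer (M ≃ₐ[ℚ] M) 𝔓₀ := by
      rw [Subgroup.zpowers_le]
      exact MulAction.mem_stabilizer_iff.mpr hstab
    exact MulAction.mem_stabilizer_iff.mp (this hy)
  -- for every `v ∈ V` an element of the centraliser moving `𝔓₀` above `v`
  have key : ∀ v : V, ∃ g : Subgroup.centralizer ({z} : Set (M ≃ₐ[ℚ] M)),
      ((g : M ≃ₐ[ℚ] M) • 𝔓₀).under (𝓞 (fixZ z)) = v.1.asIdeal := by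
    rintro ⟨v, hvN, 𝔓, h𝔓p, h𝔓u, h𝔓f⟩
    haveI := h𝔓p
    have h𝔓mem : (p : 𝓞 M) ∈ 𝔓 := hpmem v 𝔓 hvN h𝔓u
    have hunder : 𝔓₀.under ℤ = 𝔓.under ℤ := by
      rw [fbc_under_int p hp 𝔓₀ h𝔓₀mem, fbc_under_int p hp 𝔓 h𝔓mem]
    obtain ⟨g, hg⟩ :=
      Algebra.IsInvariant.exists_smul_of_under_eq ℤ (𝓞 M) (M ≃ₐ[ℚ] M) 𝔓₀ 𝔓 hunder
    haveI : Algebra.IsUnramifiedAt ℤ 𝔓 := hunr 𝔓 h𝔓mem
    have hconj : IsArithFrobAt ℤ (g * z * g⁻¹) 𝔓 := by
      have := h𝔓₀f.conj g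
      rwa [← hg] at this
    have heq : g * z * g⁻¹ = z := fbc_frob_unique 𝔓 hconj h𝔓f
    have hgc : g ∈ Subgroup.centralizer ({z} : Set (M ≃ₐ[ℚ] M)) := by
      rw [Subgroup.mem_centralizer_iff]
      intro h hh
      rw [Set.mem_singleton_iff] at hh
      subst hh
      calc h * g = g * h * g⁻¹ * g := by rw [heq]
        _ = g * h := by group
    refine ⟨⟨g, hgc⟩, ?_⟩
    show (g • 𝔓₀).under (𝓞 (fixZ z)) = v.asIdeal
    rw [← hg, h𝔓u]
  choose g hg using key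
  have hzc : ∀ y ∈ Subgroup.zpowers z, y ∈ Subgroup.centralizer ({z} : Set (M ≃ₐ[ℚ] M)) := by
    intro y hy
    have : Subgroup.zpowers z ≤ Subgroup.centralizer ({z} : Set (M ≃ₐ[ℚ] M)) := by
      rw [Subgroup.zpowers_le, Subgroup.mem_centralizer_iff]
      intro h hh
      rw [Set.mem_singleton_iff] at hh
      rw [hh]
    exact this hy
  let f : V × Subgroup.zpowers z → Subgroup.centralizer ({z} : Set (M ≃ₐ[ℚ] M)) :=
    fun x => g x.1 * ⟨x.2.1, hzc x.2.1 x.2.2⟩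
  have hf : Function.Injective f := by
    rintro ⟨v, y⟩ ⟨w, y'⟩ hvw
    have h1 : ((g v : M ≃ₐ[ℚ] M) * (y : M ≃ₐ[ℚ] M)) = (g w : M ≃ₐ[ℚ] M) * (y' : M ≃ₐ[ℚ] M) := by
      have := congrArg (fun t : Subgroup.centralizer ({z} : Set (M ≃ₐ[ℚ] M)) =>
        (t : M ≃ₐ[ℚ] M)) hvw
      exact this
    have h2 : (g v : M ≃ₐ[ℚ] M) • 𝔓₀ = (g w : M ≃ₐ[ℚ] M) • 𝔓₀ := by
      have := congrArg (fun t : M ≃ₐ[ℚ] M => t • 𝔓₀) h1
      simp only [mul_smul] at this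
      rwa [hstabpow _ y.2, hstabpow _ y'.2] at this
    have h3 : v.1.asIdeal = w.1.asIdeal := by
      rw [← hg v, ← hg w, h2]
    have h4 : v = w := Subtype.ext (HeightOneSpectrum.ext h3)
    subst h4
    have h5 : (y : M ≃ₐ[ℚ] M) = (y' : M ≃ₐ[ℚ] M) := mul_left_cancel h1
    rw [Subtype.ext h5]
  have hcard := Nat.card_le_card_of_injective f hf
  rw [Nat.card_prod, Nat.card_zpowers] at hcard
  have hV : Nat.card V = V.ncard := Nat.card_coe_set_eq V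
  rw [hV, mul_comm] at hcard
  exact hcard

end Fermat.Agent.S48.CD


end ZBZ4S48_018_9

/-! ### bundled: `Fermat.Agent.S48.CD.ChebCycT` -/
section ZBZ4S48_018_10
/-
S48/CD, piece CYC-T (helper24): Chebotarev, lower bound with `O(1)` error, for an element `z` of
cyclotomic type.

`stmtChebCycT_of : StmtDirichletE → StmtFrobTransfer → StmtFiberCount → StmtChebCycT`.

`E = M^⟨z⟩`, `z ζ = ζ ^ t`.  By (DIRE) the primes `v` of `E` with `N v ≡ t mod ℓ` have density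
`1/[M:E] = 1/ord z`; removing the primes of degree `≥ 2` (density `0`, `Cheb.stmtPrimeSum`) and the
finitely many primes with norm in `S` or dividing the discriminant of `M` leaves a set `G` of the
same density.  For `v ∈ G`, `p = N v`: `z` is a Frobenius element at every prime of `M` above `v`
(DEU-1), and at most `|Z(z)|/ord z` primes `v` of `E` lie above the same `p` (DEU-2).  A finite
part `G₀ ⊆ G` carries the sum up to `1`, and `P = N(G₀)`: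
`ord z · ∑_{v ∈ G₀} N v^{-s} ≤ |Z(z)| · ∑_{p ∈ P} p^{-s}`.
-/

set_option autoImplicit false
set_option linter.unusedSectionVars false

namespace Fermat.Agent.S48.CD

open NumberField IsDedekindDomain
open Fermat.Agent.Cheb

section

variable {M : Type} [Field M] [NumberField M] [IsGalois ℚ M] (z : M ≃ₐ[ℚ] M)

theorem cyct_mem_fixing : z ∈ (fixZ z).fixingSubgroup := by
  rw [fixZ, IntermediateField.fixingSubgroup_fixedField]
  exact Subgroup.mem_zpowers z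

/-- `z` as an element of `Gal(M/E)`, `E = M^⟨z⟩` -/
noncomputable def cyctZE : M ≃ₐ[fixZ z] M :=
  IntermediateField.fixingSubgroupEquiv (fixZ z) ⟨z, cyct_mem_fixing z⟩

theorem cyctZE_apply (x : M) : cyctZE z x = z x := rfl

theorem cyct_finrank : Module.finrank (fixZ z) M = orderOf z := by
  rw [fixZ, IntermediateField.finrank_fixedField_eq_card, Nat.card_zpowers]

theorem cyct_isCycl {ℓ : ℕ} {ζ : M} (h : IsCyclZ z ℓ ζ) : IsCycl (fixZ z) M ℓ ζ := by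
  obtain ⟨hℓ, hζ, hf⟩ := h
  refine ⟨hℓ, hζ, fun g hg => ?_⟩
  have hmem : g.restrictScalars ℚ ∈ (fixZ z).fixingSubgroup := by
    rw [IntermediateField.mem_fixingSubgroup_iff]
    intro x hx
    exact g.commutes ⟨x, hx⟩
  rw [IntermediateField.fixingSubgroup_fixedField] at hmem
  have hfin : IsOfFinOrder z := isOfFinOrder_of_finite z
  rw [← hfin.mem_powers_iff_mem_zpowers] at hmem
  obtain ⟨j, hj⟩ := hmem
  replace hj : z ^ j = g.restrictScalars ℚ := hj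
  have h1 : (z ^ j) ζ = ζ := by
    have : (z ^ j) ζ = (g.restrictScalars ℚ) ζ := by rw [hj]
    rw [this]
    exact hg
  have h2 := hf j h1
  ext x
  have h3 : (g.restrictScalars ℚ) x = (1 : M ≃ₐ[ℚ] M) x := by
    rw [← h2]
    exact (congrArg (fun σ : M ≃ₐ[ℚ] M => σ x) hj).symm
  exact h3

theorem cyct_exists_t {ℓ : ℕ} {ζ : M} (h : IsCyclZ z ℓ ζ) : ∃ t : ℕ, z ζ = ζ ^ t := by
  obtain ⟨hℓ, hζ, -⟩ := h
  have : NeZero ℓ := ⟨hℓ.ne_zero⟩
  have h1 : (z ζ) ^ ℓ = 1 := by rw [← map_pow, hζ.pow_eq_one, map_one]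
  obtain ⟨i, -, hi⟩ := hζ.eq_pow_of_pow_eq_one h1
  exact ⟨i, hi.symm⟩

/-- a prime of `M` above a prime of `E` -/
theorem cyct_exists_above (v : HeightOneSpectrum (𝓞 (fixZ z))) :
    ∃ 𝔓 : Ideal (𝓞 M), 𝔓.IsPrime ∧ 𝔓.under (𝓞 (fixZ z)) = v.asIdeal := by
  obtain ⟨⟨𝔓, h1, h2⟩⟩ := Ideal.nonempty_primesOver (S := 𝓞 M) v.asIdeal
  exact ⟨𝔓, h1, h2.over.symm⟩

theorem cyct_natCast_mem (v : HeightOneSpectrum (𝓞 (fixZ z))) (𝔓 : Ideal (𝓞 M))
    (h : 𝔓.under (𝓞 (fixZ z)) = v.asIdeal) :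
    ((Ideal.absNorm v.asIdeal : ℕ) : 𝓞 M) ∈ 𝔓 := by
  have h1 : ((Ideal.absNorm v.asIdeal : ℕ) : 𝓞 (fixZ z)) ∈ v.asIdeal := Ideal.absNorm_mem v.asIdeal
  have : 𝔓.LiesOver v.asIdeal := ⟨h.symm⟩
  have h2 := (Ideal.mem_of_liesOver 𝔓 v.asIdeal _).mp h1
  rwa [map_natCast] at h2

theorem cyct_unramAt (p : ℕ) (hp : p.Prime) (hd : p ∉ (discr M).natAbs.primeFactors) :
    UnramAt M p := by
  have hnd : ¬ ((p : ℤ) ∣ discr M) := by
    intro hdvd
    apply hd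
    rw [Nat.mem_primeFactors]
    exact ⟨hp, Int.natCast_dvd.mp hdvd, Int.natAbs_ne_zero.mpr (discr_ne_zero M)⟩
  intro 𝔓 h𝔓 hmem
  exact (not_dvd_discr_iff_forall_mem M (𝓞 M) (Nat.prime_iff_prime_int.mp hp)).mp hnd 𝔓 h𝔓
    (by rw [Int.cast_natCast]; exact hmem)

end

/-- the good primes of `E = M^⟨z⟩` -/
def cyctGood {M : Type} [Field M] [NumberField M] (z : M ≃ₐ[ℚ] M) (ℓ t : ℕ) (T : Finset ℕ) :
    Set (HeightOneSpectrum (𝓞 (fixZ z))) :=
  {v | ((Ideal.absNorm v.asIdeal : ℕ) : ZMod ℓ) = (t : ZMod ℓ)} \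
    ({v | ¬ (Ideal.absNorm v.asIdeal).Prime} ∪ {v | Ideal.absNorm v.asIdeal ∈ T})

theorem cyct_good_density (hD : StmtDirichletE) {M : Type} [Field M] [NumberField M]
    [IsGalois ℚ M] (z : M ≃ₐ[ℚ] M) (ℓ : ℕ) (ζ : M) (h : IsCyclZ z ℓ ζ) (t : ℕ)
    (ht : z ζ = ζ ^ t) (T : Finset ℕ) :
    HasLogDensity (cyctGood z ℓ t T) (1 / (orderOf z : ℝ)) := by
  have hPS := stmtPrimeSum (fixZ z)
  have hE : PrimeSummable (fixZ z) := hPS.1
  have h1 := hD (fixZ z) M ℓ ζ (cyct_isCycl z h) (cyctZE z) t ht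
  rw [cyct_finrank] at h1
  have h2 : HasLogDensity ({v : HeightOneSpectrum (𝓞 (fixZ z)) |
      ¬ (Ideal.absNorm v.asIdeal).Prime} ∪ {v | Ideal.absNorm v.asIdeal ∈ T}) 0 :=
    HasLogDensity.union_zero hE hPS.2.2 (hasLogDensity_zero_of_finite (finite_setOf_absNorm_mem T))
  exact h1.diff_zero hE h2

theorem cyct_good_spec {M : Type} [Field M] [NumberField M] [IsGalois ℚ M]
    (hFT : StmtFrobTransfer) (z : M ≃ₐ[ℚ] M) (ℓ : ℕ) (ζ : M) (h : IsCyclZ z ℓ ζ) (t : ℕ)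
    (ht : z ζ = ζ ^ t) (S : Finset ℕ) (v : HeightOneSpectrum (𝓞 (fixZ z)))
    (hv : v ∈ cyctGood z ℓ t (S ∪ (discr M).natAbs.primeFactors)) :
    (Ideal.absNorm v.asIdeal).Prime ∧ Ideal.absNorm v.asIdeal ∉ S ∧
      UnramAt M (Ideal.absNorm v.asIdeal) ∧
      ∃ 𝔓 : Ideal (𝓞 M), 𝔓.IsPrime ∧ 𝔓.under (𝓞 (fixZ z)) = v.asIdeal ∧
        ((Ideal.absNorm v.asIdeal : ℕ) : 𝓞 M) ∈ 𝔓 ∧ IsArithFrobAt ℤ z 𝔓 := by
  obtain ⟨hv1, hv2⟩ := hv
  simp only [Set.mem_union, Set.mem_ofPred_eq, not_or, not_not, Finset.mem_union] at hv1 hv2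
  obtain ⟨hp, hS, hd⟩ := hv2
  refine ⟨hp, hS, cyct_unramAt _ hp hd, ?_⟩
  obtain ⟨𝔓, h𝔓, hu⟩ := cyct_exists_above z v
  exact ⟨𝔓, h𝔓, hu, cyct_natCast_mem z v 𝔓 hu, hFT M z ℓ ζ t h ht v hp hv1 𝔓 h𝔓 hu⟩

theorem cyct_fiber_le {M : Type} [Field M] [NumberField M] [IsGalois ℚ M]
    (hFT : StmtFrobTransfer) (hFC : StmtFiberCount) (z : M ≃ₐ[ℚ] M) (ℓ : ℕ) (ζ : M)
    (h : IsCyclZ z ℓ ζ) (t : ℕ) (ht : z ζ = ζ ^ t) (S : Finset ℕ)
    (G₀ : Finset (HeightOneSpectrum (𝓞 (fixZ z))))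
    (hG₀ : ∀ v ∈ G₀, v ∈ cyctGood z ℓ t (S ∪ (discr M).natAbs.primeFactors))
    (p : ℕ) (w : HeightOneSpectrum (𝓞 (fixZ z))) (hw : w ∈ G₀)
    (hwp : Ideal.absNorm w.asIdeal = p) :
    orderOf z * (G₀.filter (fun v => Ideal.absNorm v.asIdeal = p)).card ≤
      Nat.card (Subgroup.centralizer {z}) := by
  classical
  obtain ⟨hp, -, hur, -⟩ := cyct_good_spec hFT z ℓ ζ h t ht S w (hG₀ w hw)
  rw [hwp] at hp hur
  refine le_trans (Nat.mul_le_mul_left _ ?_) (hFC M z p hp hur)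
  rw [← Set.ncard_coe_finset]
  refine Set.ncard_le_ncard ?_ ?_
  · intro v hv
    simp only [Finset.coe_filter, Set.mem_ofPred_eq] at hv
    obtain ⟨hv1, hv2⟩ := hv
    obtain ⟨-, -, -, 𝔓, h𝔓, hu, -, hfr⟩ := cyct_good_spec hFT z ℓ ζ h t ht S v (hG₀ v hv1)
    exact ⟨hv2, 𝔓, h𝔓, hu, hfr⟩
  · refine (finite_setOf_absNorm_mem ({p} : Finset ℕ)).subset ?_
    intro v hv
    simp only [Set.mem_ofPred_eq, Finset.mem_singleton]
    exact hv.1

/-- piece CYC-T. -/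
theorem stmtChebCycT_of (hD : StmtDirichletE) (hFT : StmtFrobTransfer) (hFC : StmtFiberCount) :
    StmtChebCycT := by
  intro M _ _ _ z ℓ ζ h S
  classical
  obtain ⟨t, ht⟩ := cyct_exists_t z h
  obtain ⟨C₀, hC₀⟩ := cyct_good_density hD z ℓ ζ h t ht (S ∪ (discr M).natAbs.primeFactors)
  have hE : PrimeSummable (fixZ z) := (stmtPrimeSum (fixZ z)).1
  have hn : 0 < orderOf z := orderOf_pos z
  have hc : 0 < Nat.card (Subgroup.centralizer {z}) := Nat.card_pos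
  have hnR : (0 : ℝ) < orderOf z := by exact_mod_cast hn
  have hcR : (0 : ℝ) < Nat.card (Subgroup.centralizer {z}) := by exact_mod_cast hc
  refine ⟨(orderOf z : ℝ) / Nat.card (Subgroup.centralizer {z}) * (C₀ + 1), fun s hs hs2 => ?_⟩
  set G := cyctGood z ℓ t (S ∪ (discr M).natAbs.primeFactors) with hGdef
  -- a finite part of the sum
  have hsum : Summable (G.indicator (nrm (fixZ z) s)) := summable_indicator hE G hs
  have hlt : G.primeIdealZetaSum s - 1 < ∑' v, G.indicator (nrm (fixZ z) s) v := by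
    rw [← primeIdealZetaSum_eq_tsum_indicator]
    linarith
  obtain ⟨F, hF⟩ := (hsum.hasSum.eventually (lt_mem_nhds hlt)).exists
  set G₀ : Finset (HeightOneSpectrum (𝓞 (fixZ z))) := F.filter (fun v => v ∈ G) with hG₀def
  have hG₀ : ∀ v ∈ G₀, v ∈ G := fun v hv => (Finset.mem_filter.mp hv).2
  have hF' : G.primeIdealZetaSum s - 1 < ∑ v ∈ G₀, nrm (fixZ z) s v := by
    have e : ∑ v ∈ F, G.indicator (nrm (fixZ z) s) v = ∑ v ∈ G₀, nrm (fixZ z) s v := by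
      rw [hG₀def, Finset.sum_filter]
      refine Finset.sum_congr rfl fun v _ => ?_
      by_cases hv : v ∈ G
      · rw [Set.indicator_of_mem hv, if_pos hv]
      · rw [Set.indicator_of_notMem hv, if_neg hv]
    rw [← e]
    exact hF
  set P : Finset ℕ := G₀.image (fun v => Ideal.absNorm v.asIdeal) with hPdef
  refine ⟨P, fun p hp => ?_, ?_⟩
  · obtain ⟨v, hv, rfl⟩ := Finset.mem_image.mp hp
    obtain ⟨h1, h2, h3, 𝔓, h𝔓, -, hmem, hfr⟩ := cyct_good_spec hFT z ℓ ζ h t ht S v (hG₀ v hv)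
    exact ⟨h1, h2, h3, 𝔓, h𝔓, hmem, hfr⟩
  · -- the counting inequality
    have key : (orderOf z : ℝ) * ∑ v ∈ G₀, nrm (fixZ z) s v ≤
        (Nat.card (Subgroup.centralizer {z}) : ℝ) * ∑ p ∈ P, (p : ℝ) ^ (-s) := by
      have hmaps : ∀ v ∈ G₀, (fun v : HeightOneSpectrum (𝓞 (fixZ z)) =>
          Ideal.absNorm v.asIdeal) v ∈ P := fun v hv => Finset.mem_image_of_mem _ hv
      rw [← Finset.sum_fiberwise_of_maps_to hmaps, Finset.mul_sum, Finset.mul_sum]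
      refine Finset.sum_le_sum fun p hp => ?_
      obtain ⟨w, hw, hwp⟩ := Finset.mem_image.mp hp
      have h1 : ∑ v ∈ G₀ with Ideal.absNorm v.asIdeal = p, nrm (fixZ z) s v =
          ((G₀.filter (fun v => Ideal.absNorm v.asIdeal = p)).card : ℝ) * (p : ℝ) ^ (-s) := by
        rw [Finset.sum_congr rfl (g := fun _ => (p : ℝ) ^ (-s)), Finset.sum_const, nsmul_eq_mul]
        intro v hv
        rw [nrm, (Finset.mem_filter.mp hv).2]
      rw [h1, ← mul_assoc]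
      refine mul_le_mul_of_nonneg_right ?_ (by positivity)
      exact_mod_cast cyct_fiber_le hFT hFC z ℓ ζ h t ht S G₀ hG₀ p w hw hwp
    have h2 := abs_le.mp (hC₀ s hs hs2)
    have h3 : (orderOf z : ℝ) * (1 / (orderOf z : ℝ) * Real.log (1 / (s - 1)) - C₀ - 1) ≤
        (Nat.card (Subgroup.centralizer {z}) : ℝ) * ∑ p ∈ P, (p : ℝ) ^ (-s) := by
      refine le_trans (mul_le_mul_of_nonneg_left ?_ hnR.le) key
      linarith [h2.1]
    have h4 : (orderOf z : ℝ) * (1 / (orderOf z : ℝ) * Real.log (1 / (s - 1)) - C₀ - 1) =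
        Real.log (1 / (s - 1)) - (orderOf z : ℝ) * (C₀ + 1) := by
      field_simp
      ring
    rw [h4] at h3
    have h5 : 1 / (Nat.card (Subgroup.centralizer {z}) : ℝ) * Real.log (1 / (s - 1)) -
        (orderOf z : ℝ) / Nat.card (Subgroup.centralizer {z}) * (C₀ + 1) =
        (Real.log (1 / (s - 1)) - (orderOf z : ℝ) * (C₀ + 1)) /
          (Nat.card (Subgroup.centralizer {z}) : ℝ) := by
      field_simp
    rw [h5, div_le_iff₀ hcR]
    linarith [h3]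

end Fermat.Agent.S48.CD


end ZBZ4S48_018_10

/-! ### bundled: `Fermat.Agent.S48.CD.GlueConj` -/
section ZBZ4S48_018_11

/-!
# S48/CD, piece GLUE: Frobenius elements of `G_ℚ` restrict to one conjugacy class

`F ⊆ ℚ̄` finite Galois over `ℚ`, `p` unramified in `F`, `φ` a Frobenius element at one prime of
`𝓞 F` above `p`.  Then for every valuation subring `A` of `ℚ̄` over `p` and every Frobenius
element `τ` at `A`, the restriction `τ|F` is conjugate to `φ`.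
-/

set_option autoImplicit false

open NumberField

namespace Fermat.Agent.S48.CD

open Fermat.Agent.Cheb
open scoped Pointwise

/-- `𝓞 F → A`, the inclusion of the integers of `F ⊆ ℚ̄` into a valuation subring of `ℚ̄`. -/
noncomputable def glc_hom (F : IntermediateField ℚ (AlgebraicClosure ℚ))
    (A : ValuationSubring (AlgebraicClosure ℚ)) : 𝓞 F →+* A :=
  (intEmb F).codRestrict A.toSubring (intEmb_mem F A)

theorem glc_hom_coe (F : IntermediateField ℚ (AlgebraicClosure ℚ))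
    (A : ValuationSubring (AlgebraicClosure ℚ)) (x : 𝓞 F) :
    ((glc_hom F A x : A) : AlgebraicClosure ℚ) = intEmb F x := rfl

/-- the prime of `𝓞 F` below the valuation subring `A` of `ℚ̄` -/
noncomputable def glc_under (F : IntermediateField ℚ (AlgebraicClosure ℚ))
    (A : ValuationSubring (AlgebraicClosure ℚ)) : Ideal (𝓞 F) :=
  Ideal.comap (glc_hom F A) (IsLocalRing.maximalIdeal A)

instance glc_under_isPrime (F : IntermediateField ℚ (AlgebraicClosure ℚ))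
    (A : ValuationSubring (AlgebraicClosure ℚ)) : (glc_under F A).IsPrime :=
  Ideal.comap_isPrime _ _

theorem glc_mem_under (F : IntermediateField ℚ (AlgebraicClosure ℚ))
    (A : ValuationSubring (AlgebraicClosure ℚ)) (x : 𝓞 F) :
    x ∈ glc_under F A ↔ intEmb F x ∈ A.nonunits := by
  rw [glc_under, Ideal.mem_comap, ← ValuationSubring.coe_mem_nonunits_iff, glc_hom_coe]

theorem glc_natCast_mem_under (F : IntermediateField ℚ (AlgebraicClosure ℚ))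
    (A : ValuationSubring (AlgebraicClosure ℚ)) (p : ℕ) (hA : A.LiesOverPrime p) :
    (p : 𝓞 F) ∈ glc_under F A := by
  rw [glc_mem_under, map_natCast]
  exact hA

/-- a prime of `𝓞 F` containing the prime number `p` lies over `(p)` -/
theorem glc_under_int (F : IntermediateField ℚ (AlgebraicClosure ℚ)) (p : ℕ) (hp : p.Prime)
    (𝔓 : Ideal (𝓞 F)) [𝔓.IsPrime] (hp𝔓 : (p : 𝓞 F) ∈ 𝔓) :
    𝔓.under ℤ = Ideal.span {(p : ℤ)} := by
  have hmax : (Ideal.span {(p : ℤ)}).IsMaximal :=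
    (Ideal.span_singleton_prime (by exact_mod_cast hp.ne_zero)).mpr
      (Nat.prime_iff_prime_int.mp hp) |>.isMaximal (by simpa using hp.ne_zero)
  have hle : Ideal.span {(p : ℤ)} ≤ 𝔓.under ℤ := by
    rw [Ideal.span_singleton_le_iff_mem, Ideal.under_def, Ideal.mem_comap]
    simpa using hp𝔓
  have hne : 𝔓.under ℤ ≠ ⊤ := (Ideal.IsPrime.under ℤ 𝔓).ne_top
  exact (hmax.eq_of_le hne hle).symm

/-- **GLUE**, explicit form. -/
theorem glc_main (F : IntermediateField ℚ (AlgebraicClosure ℚ)) [NumberField F] [IsGalois ℚ F]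
    (φ : F ≃ₐ[ℚ] F) (p : ℕ) (hp : p.Prime) (hunr : UnramAt F p) (hφ : FrobAt F φ p)
    (A : ValuationSubring (AlgebraicClosure ℚ)) (hA : A.LiesOverPrime p)
    (τ : GalQ) (hτ : A.IsFrobeniusAt τ p) :
    ∃ g : F ≃ₐ[ℚ] F, AlgEquiv.restrictNormal τ F = g * φ * g⁻¹ := by
  obtain ⟨𝔓₀, h𝔓₀, hp𝔓₀, hfrob₀⟩ := hφ
  have := h𝔓₀
  -- the prime below `A`
  have hp𝔓 : (p : 𝓞 F) ∈ glc_under F A := glc_natCast_mem_under F A p hA
  have hne : glc_under F A ≠ ⊥ := by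
    intro h
    rw [h, Ideal.mem_bot] at hp𝔓
    exact hp.ne_zero (by exact_mod_cast hp𝔓)
  have hmax : (glc_under F A).IsMaximal := Ideal.IsPrime.isMaximal inferInstance hne
  have h1 : IsArithFrobAt ℤ (AlgEquiv.restrictNormal τ F) (glc_under F A) :=
    restrictNormal_isArithFrobAt F A p hp (glc_under F A) hmax hp𝔓
      (fun x hx => (glc_mem_under F A x).mp hx) τ hτ
  -- transitivity
  have hunder : 𝔓₀.under ℤ = (glc_under F A).under ℤ := by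
    rw [glc_under_int F p hp 𝔓₀ hp𝔓₀, glc_under_int F p hp (glc_under F A) hp𝔓]
  obtain ⟨g, hg⟩ := Algebra.IsInvariant.exists_smul_of_under_eq ℤ (𝓞 F) (F ≃ₐ[ℚ] F) 𝔓₀
    (glc_under F A) hunder
  have h2 : IsArithFrobAt ℤ (g * φ * g⁻¹) (glc_under F A) := by
    rw [hg]
    exact hfrob₀.conj g
  -- uniqueness at an unramified prime
  have : Algebra.IsUnramifiedAt ℤ (glc_under F A) := hunr (glc_under F A) hp𝔓
  have h3 := AlgHom.IsArithFrobAt.eq_of_isUnramifiedAt h1 h2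
    (by
      intro x hx
      rw [mem_nonZeroDivisors_iff_ne_zero]
      rintro rfl
      exact hx (Ideal.zero_mem _))
  exact ⟨g, algEquiv_eq_of_toAlgHom_eq F _ _ h3⟩

/-- **Piece GLUE** of S48/CD. -/
theorem stmtGlueConj : StmtGlueConj := by
  intro F _ _ φ p hp hunr hφ A hA τ hτ
  exact glc_main F φ p hp hunr hφ A hA τ hτ

end Fermat.Agent.S48.CD


end ZBZ4S48_018_11

/-! ### bundled: `Fermat.Agent.S48.CD.CycLift` -/
section ZBZ4S48_018_12

/-!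
# S48/CD, piece LIFTζ: `Gal(ℚ̄/F)` acts on `μ_ℓ` through all of `(ℤ/ℓ)ˣ` for large `ℓ`

If the prime `ℓ` does not divide the discriminant of the number field `F`, then `Φ_ℓ(X + 1)` is an
Eisenstein polynomial at any prime `𝔩 ∣ ℓ` of `𝓞 F`, so `Φ_ℓ` is irreducible over `F`, and all
primitive `ℓ`-th roots of unity in `ℚ̄` are conjugate over `F`.
-/

set_option autoImplicit false

open NumberField Polynomial

namespace Fermat.Agent.S48.CD

section Eis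

variable (F : Type) [Field F] [NumberField F]

/-- there is a prime of `𝓞 F` above the prime number `ℓ` -/
theorem cyl_exists_prime (ℓ : ℕ) (hℓ : ℓ.Prime) :
    ∃ 𝔩 : Ideal (𝓞 F), 𝔩.IsPrime ∧ (ℓ : 𝓞 F) ∈ 𝔩 := by
  have hp : (Ideal.span {(ℓ : ℤ)}).IsPrime :=
    (Ideal.span_singleton_prime (by exact_mod_cast hℓ.ne_zero)).mpr
      (Nat.prime_iff_prime_int.mp hℓ)
  obtain ⟨Q, hQ, hQc⟩ := Ideal.exists_ideal_over_prime_of_isIntegral_of_isDomain (S := 𝓞 F)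
    (Ideal.span {(ℓ : ℤ)}) (by
      rw [(RingHom.injective_iff_ker_eq_bot _).mp
        (FaithfulSMul.algebraMap_injective ℤ (𝓞 F))]
      exact bot_le)
  refine ⟨Q, hQ, ?_⟩
  have h1 : (ℓ : ℤ) ∈ Q.comap (algebraMap ℤ (𝓞 F)) := by
    rw [hQc]
    exact Ideal.mem_span_singleton_self _
  rw [Ideal.mem_comap] at h1
  simpa using h1

/-- a prime above an unramified prime number does not contain it to the second power -/
theorem cyl_natCast_notMem_sq (ℓ : ℕ) (hℓ : ℓ.Prime) (hd : ¬ (ℓ : ℤ) ∣ discr F)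
    (𝔩 : Ideal (𝓞 F)) [h𝔩p : 𝔩.IsPrime] (h𝔩 : (ℓ : 𝓞 F) ∈ 𝔩) : (ℓ : 𝓞 F) ∉ 𝔩 ^ 2 := by
  have hp : Prime (ℓ : ℤ) := Nat.prime_iff_prime_int.mp hℓ
  have hunr : Algebra.IsUnramifiedAt ℤ 𝔩 :=
    (NumberField.not_dvd_discr_iff_forall_mem F (𝓞 F) hp).mp hd 𝔩 inferInstance
      (by simpa using h𝔩)
  have he : 𝔩.ramificationIdx ℤ = 1 := Ideal.ramificationIdx_eq_one 𝔩 ℤ
  have hlies : 𝔩.LiesOver (Ideal.span {(ℓ : ℤ)}) :=
    (Ideal.liesOver_span_iff h𝔩p.ne_top hp).mpr (by simpa using h𝔩)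
  have hmap : (Ideal.span {(ℓ : ℤ)}).map (algebraMap ℤ (𝓞 F)) = Ideal.span {(ℓ : 𝓞 F)} := by
    rw [Ideal.map_span, Set.image_singleton]
    simp
  have hℓ0 : (ℓ : 𝓞 F) ≠ 0 := by exact_mod_cast hℓ.ne_zero
  have hne : (Ideal.span {(ℓ : ℤ)}).map (algebraMap ℤ (𝓞 F)) ≠ ⊥ := by
    rw [hmap, Ne, Ideal.span_singleton_eq_bot]
    exact hℓ0
  have hmul := Ideal.IsDedekindDomain.ramificationIdx_eq_multiplicity
    (Ideal.span {(ℓ : ℤ)}) 𝔩 hne
  rw [he, hmap] at hmul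
  intro hsq
  have hdvd : 𝔩 ^ 2 ∣ Ideal.span {(ℓ : 𝓞 F)} := by
    rw [Ideal.dvd_iff_le, Ideal.span_singleton_le_iff_mem]
    exact hsq
  have hfin : FiniteMultiplicity 𝔩 (Ideal.span {(ℓ : 𝓞 F)}) := by
    apply FiniteMultiplicity.of_not_isUnit
    · rw [Ideal.isUnit_iff]
      exact h𝔩p.ne_top
    · rw [Ne, Ideal.zero_eq_bot, Ideal.span_singleton_eq_bot]
      exact hℓ0
  have := hfin.le_multiplicity_of_pow_dvd hdvd
  omega

omit [NumberField F] in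
/-- `Φ_ℓ(X + 1)` over `𝓞 F` is an Eisenstein polynomial at `𝔩` -/
theorem cyl_isEisensteinAt (ℓ : ℕ) (hℓ : ℓ.Prime) (𝔩 : Ideal (𝓞 F)) [h𝔩p : 𝔩.IsPrime]
    (h𝔩 : (ℓ : 𝓞 F) ∈ 𝔩) (hsq : (ℓ : 𝓞 F) ∉ 𝔩 ^ 2) :
    ((cyclotomic ℓ (𝓞 F)).comp (X + 1)).IsEisensteinAt 𝔩 := by
  have : Fact ℓ.Prime := ⟨hℓ⟩
  have h0 : ((cyclotomic ℓ ℤ).comp (X + 1)).IsEisensteinAt (Submodule.span ℤ {(ℓ : ℤ)}) :=
    cyclotomic_comp_X_add_one_isEisensteinAt ℓ
  have hmonic0 : ((cyclotomic ℓ ℤ).comp (X + 1)).Monic :=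
    (cyclotomic.monic ℓ ℤ).comp_X_add_C 1
  have hmap : (cyclotomic ℓ (𝓞 F)).comp (X + 1) =
      ((cyclotomic ℓ ℤ).comp (X + 1)).map (algebraMap ℤ (𝓞 F)) := by
    rw [Polynomial.map_comp, map_cyclotomic]
    simp
  have hmonic : ((cyclotomic ℓ (𝓞 F)).comp (X + 1)).Monic :=
    (cyclotomic.monic ℓ (𝓞 F)).comp_X_add_C 1
  have hdeg : ((cyclotomic ℓ (𝓞 F)).comp (X + 1)).natDegree =
      ((cyclotomic ℓ ℤ).comp (X + 1)).natDegree := by
    rw [hmap, hmonic0.natDegree_map]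
  refine Polynomial.Monic.isEisensteinAt_of_mem_of_notMem hmonic h𝔩p.ne_top ?_ ?_
  · intro n hn
    rw [hdeg] at hn
    have h1 : ((cyclotomic ℓ ℤ).comp (X + 1)).coeff n ∈ Ideal.span {(ℓ : ℤ)} := h0.mem hn
    obtain ⟨c, hc⟩ := Ideal.mem_span_singleton.mp h1
    rw [hmap, coeff_map, hc]
    simp only [map_mul, map_natCast, eq_intCast]
    exact 𝔩.mul_mem_right _ h𝔩
  · have h1 : ((cyclotomic ℓ ℤ).comp (X + 1)).coeff 0 = (ℓ : ℤ) := by
      rw [coeff_zero_eq_eval_zero, eval_comp]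
      simp [eval_one_cyclotomic_prime]
    rw [hmap, coeff_map, h1]
    simpa using hsq

/-- the `ℓ`-th cyclotomic polynomial is irreducible over `F` if `ℓ ∤ disc F` -/
theorem cyl_irreducible (ℓ : ℕ) (hℓ : ℓ.Prime) (hd : ¬ (ℓ : ℤ) ∣ discr F) :
    Irreducible (cyclotomic ℓ F) := by
  obtain ⟨𝔩, h𝔩p, h𝔩⟩ := cyl_exists_prime F ℓ hℓ
  have hE := cyl_isEisensteinAt F ℓ hℓ 𝔩 h𝔩 (cyl_natCast_notMem_sq F ℓ hℓ hd 𝔩 h𝔩)
  have hmonic : ((cyclotomic ℓ (𝓞 F)).comp (X + 1)).Monic :=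
    (cyclotomic.monic ℓ (𝓞 F)).comp_X_add_C 1
  have hpos : 0 < ((cyclotomic ℓ (𝓞 F)).comp (X + 1)).natDegree := by
    have h1 : (X + 1 : (𝓞 F)[X]).natDegree = 1 := by
      simpa using natDegree_X_add_C (1 : 𝓞 F)
    rw [natDegree_comp, natDegree_cyclotomic, h1, mul_one, Nat.totient_prime hℓ]
    have := hℓ.two_le
    omega
  have hirr : Irreducible ((cyclotomic ℓ (𝓞 F)).comp (X + 1)) :=
    hE.irreducible h𝔩p hmonic.isPrimitive hpos
  have hirrF : Irreducible (((cyclotomic ℓ (𝓞 F)).comp (X + 1)).map (algebraMap (𝓞 F) F)) :=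
    (Monic.irreducible_iff_irreducible_map_fraction_map hmonic).mp hirr
  have hcomp : ((cyclotomic ℓ (𝓞 F)).comp (X + 1)).map (algebraMap (𝓞 F) F) =
      algEquivAevalXAddC (1 : F) (cyclotomic ℓ F) := by
    rw [Polynomial.map_comp, map_cyclotomic, algEquivAevalXAddC_apply]
    simp [aeval_def, eval₂_eq_eval_map, comp]
  rw [hcomp] at hirrF
  exact (MulEquiv.irreducible_iff (algEquivAevalXAddC (1 : F)).toMulEquiv).mp hirrF

end Eis

/-- `ℚ̄ / ℚ` is algebraic (for the instance of `Algebra ℚ ℚ̄` found by unification) -/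
theorem cyl_qbar_isAlgebraic : Algebra.IsAlgebraic ℚ (AlgebraicClosure ℚ) := by
  have h1 : @Algebra.IsAlgebraic ℚ (AlgebraicClosure ℚ) _ _ (AlgebraicClosure.instAlgebra ℚ) :=
    inferInstance
  convert h1
  exact Subsingleton.elim _ _

/-- `ℚ̄ / ℚ` is normal (for the instance of `Algebra ℚ ℚ̄` found by unification) -/
theorem cyl_qbar_normal : Normal ℚ (AlgebraicClosure ℚ) := by
  have h1 : @Normal ℚ (AlgebraicClosure ℚ) _ _ (AlgebraicClosure.instAlgebra ℚ) := inferInstance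
  convert h1
  exact Subsingleton.elim _ _

/-- **Piece LIFTζ** of S48/CD. -/
theorem stmtCycLift : StmtCycLift := by
  intro F _
  refine ⟨(discr F).natAbs, fun ℓ hℓ hN ζ hζ t ht => ?_⟩
  have hd : ¬ (ℓ : ℤ) ∣ discr F := by
    intro h
    have h1 : ℓ ∣ (discr F).natAbs := Int.natCast_dvd.mp h
    have h2 := Nat.le_of_dvd (Int.natAbs_pos.mpr (discr_ne_zero F)) h1
    omega
  have hirr := cyl_irreducible F ℓ hℓ hd
  have hne0 : NeZero ((ℓ : ℕ) : F) := ⟨by exact_mod_cast hℓ.ne_zero⟩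
  have halgQ := cyl_qbar_isAlgebraic
  have hnormQ := cyl_qbar_normal
  have halgFQ : Algebra.IsAlgebraic F (AlgebraicClosure ℚ) :=
    Algebra.IsAlgebraic.tower_top (K := ℚ) F
  have hnormal : Normal F (AlgebraicClosure ℚ) := Normal.tower_top_of_normal ℚ F _
  have hmin : cyclotomic ℓ F = minpoly F ζ :=
    hζ.minpoly_eq_cyclotomic_of_irreducible hirr
  have hζt : IsPrimitiveRoot (ζ ^ t) ℓ :=
    hζ.pow_of_coprime t ((Nat.Prime.coprime_iff_not_dvd hℓ).mpr ht).symm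
  have hroot : aeval (ζ ^ t) (minpoly F ζ) = 0 := by
    rw [← hmin, aeval_def, eval₂_eq_eval_map, map_cyclotomic]
    exact hζt.isRoot_cyclotomic hℓ.pos
  have halg : IsAlgebraic F ζ := Algebra.IsAlgebraic.isAlgebraic ζ
  obtain ⟨σ, hσ⟩ := minpoly.exists_algEquiv_of_root' (K := F) (L := AlgebraicClosure ℚ)
    halg hroot
  refine ⟨σ.restrictScalars ℚ, fun x hx => ?_, hσ⟩
  exact σ.commutes ⟨x, hx⟩

end Fermat.Agent.S48.CD


end ZBZ4S48_018_12

/-! ### bundled: `Fermat.Agent.S48.CD.GoodCount` -/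
section ZBZ4S48_018_13

/-!
# S48/CD, piece CNT: most elements of `(ℤ/ℓ)ˣ` have order divisible by `n` when `ℓ ≡ 1 mod n ^ k`

`stmtGoodCount : StmtGoodCount`.  If `n ∤ ord t` there is a prime `q ∣ n`, `q ^ e ∥ n`, with
`q ^ e ∤ ord t`; as `q ^ (e k) ∣ ℓ - 1` the order of `t` divides `d_q = (ℓ - 1) / q ^ (e (k - 1) + 1)`,
and a cyclic group has at most `d_q ≤ (ℓ - 1) / 2 ^ k` such elements.  Union bound over the (at most
`n`) primes `q ∣ n`.
-/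

set_option autoImplicit false
set_option linter.style.haveILetI false

namespace Fermat.Agent.S48.CD

/-- arithmetic core -/
theorem gcnt_dvd {q e n k m a : ℕ} (hq : q.Prime) (hk : 1 ≤ k) (hqn : q ^ e ∣ n)
    (hnm : n ^ k ∣ m) (ham : a ∣ m) (ha0 : a ≠ 0) (hqa : ¬ q ^ e ∣ a) :
    a * q ^ (e * (k - 1) + 1) ∣ m := by
  obtain ⟨j, u, hu, rfl⟩ := Nat.exists_eq_pow_mul_and_not_dvd ha0 q hq.ne_one
  have hje : j < e := by
    by_contra hcon
    rw [not_lt] at hcon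
    exact hqa (Dvd.dvd.mul_right (pow_dvd_pow q hcon) u)
  have hqm : q ^ (e * k) ∣ m := by
    rw [pow_mul]
    exact (pow_dvd_pow_of_dvd hqn k).trans hnm
  have hum : u ∣ m := (Dvd.intro_left _ rfl).trans ham
  have hcop : Nat.Coprime u (q ^ (e * k)) :=
    Nat.Coprime.pow_right _ ((Nat.Prime.coprime_iff_not_dvd hq).mpr hu).symm
  have h1 : u * q ^ (e * k) ∣ m := Nat.Coprime.mul_dvd_of_dvd_of_dvd hcop hum hqm
  have hexp : j + (e * (k - 1) + 1) ≤ e * k := by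
    obtain ⟨k', rfl⟩ : ∃ k', k = k' + 1 := ⟨k - 1, by omega⟩
    rw [Nat.add_sub_cancel, mul_add, mul_one]
    omega
  have h2 : q ^ j * u * q ^ (e * (k - 1) + 1) ∣ u * q ^ (e * k) := by
    have : q ^ j * u * q ^ (e * (k - 1) + 1) = u * q ^ (j + (e * (k - 1) + 1)) := by
      rw [pow_add]
      ring
    rw [this]
    exact Nat.mul_dvd_mul_left u (pow_dvd_pow q hexp)
  exact h2.trans h1

/-- (CNT) -/
theorem stmtGoodCount : StmtGoodCount := by
  intro n k ℓ hn hℓ hmod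
  classical
  haveI : Fact ℓ.Prime := ⟨hℓ⟩
  have hcard : Fintype.card (ZMod ℓ)ˣ = ℓ - 1 := ZMod.card_units ℓ
  have hm0 : 0 < ℓ - 1 := Nat.sub_pos_of_lt hℓ.one_lt
  have hnk : n ^ k ∣ ℓ - 1 := (Nat.modEq_iff_dvd' hℓ.one_lt.le).mp hmod.symm
  rw [Nat.card_eq_fintype_card, Fintype.card_subtype]
  set bad : Finset (ZMod ℓ)ˣ := Finset.univ.filter (fun t => ¬ n ∣ orderOf t) with hbad
  rcases Nat.eq_zero_or_pos k with hk0 | hk
  · subst hk0
    rw [pow_zero, mul_one]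
    calc bad.card ≤ (Finset.univ : Finset (ZMod ℓ)ˣ).card := Finset.card_le_card (Finset.subset_univ _)
      _ = ℓ - 1 := by rw [Finset.card_univ, hcard]
      _ ≤ n * (ℓ - 1) := Nat.le_mul_of_pos_left _ hn
  · set d : ℕ → ℕ := fun q => (ℓ - 1) / q ^ (n.factorization q * (k - 1) + 1) with hd
    have hsub : bad ⊆ n.primeFactors.biUnion
        (fun q => Finset.univ.filter (fun t : (ZMod ℓ)ˣ => t ^ d q = 1)) := by
      intro t ht
      rw [hbad, Finset.mem_filter] at ht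
      have ha0 : orderOf t ≠ 0 := (orderOf_pos t).ne'
      have ham : orderOf t ∣ ℓ - 1 := by
        rw [← hcard]
        exact orderOf_dvd_card
      have hfac : ¬ n.factorization ≤ (orderOf t).factorization := fun h =>
        ht.2 ((Nat.factorization_le_iff_dvd hn.ne' ha0).mp h)
      rw [Finsupp.le_def, not_forall] at hfac
      obtain ⟨q, hq⟩ := hfac
      rw [not_le] at hq
      have he : 0 < n.factorization q := lt_of_le_of_lt (Nat.zero_le _) hq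
      have hqmem : q ∈ n.primeFactors := by
        rw [← Nat.support_factorization, Finsupp.mem_support_iff]
        exact he.ne'
      have hqp : q.Prime := Nat.prime_of_mem_primeFactors hqmem
      have hqn : q ^ n.factorization q ∣ n := Nat.ordProj_dvd n q
      have hqa : ¬ q ^ n.factorization q ∣ orderOf t := by
        rw [hqp.pow_dvd_iff_le_factorization ha0, not_le]
        exact hq
      have hdvd := gcnt_dvd hqp hk hqn hnk ham ha0 hqa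
      rw [Finset.mem_biUnion]
      refine ⟨q, hqmem, ?_⟩
      rw [Finset.mem_filter]
      refine ⟨Finset.mem_univ _, ?_⟩
      rw [← orderOf_dvd_iff_pow_eq_one]
      have hqpow : q ^ (n.factorization q * (k - 1) + 1) ∣ ℓ - 1 :=
        (Dvd.intro_left _ rfl).trans hdvd
      exact (Nat.dvd_div_iff_mul_dvd hqpow).mpr (by rwa [mul_comm] at hdvd)
    have hterm : ∀ q ∈ n.primeFactors,
        (Finset.univ.filter (fun t : (ZMod ℓ)ˣ => t ^ d q = 1)).card * 2 ^ k ≤ ℓ - 1 := by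
      intro q hq
      have hqp : q.Prime := Nat.prime_of_mem_primeFactors hq
      have he : 1 ≤ n.factorization q := by
        have : q ∈ n.factorization.support := by rwa [Nat.support_factorization]
        exact Nat.one_le_iff_ne_zero.mpr (Finsupp.mem_support_iff.mp this)
      have hqn : q ^ n.factorization q ∣ n := Nat.ordProj_dvd n q
      have hqpow : q ^ (n.factorization q * (k - 1) + 1) ∣ ℓ - 1 := by
        have h1 : q ^ (n.factorization q * k) ∣ ℓ - 1 := by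
          rw [pow_mul]
          exact (pow_dvd_pow_of_dvd hqn k).trans hnk
        refine (pow_dvd_pow q ?_).trans h1
        obtain ⟨k', rfl⟩ : ∃ k', k = k' + 1 := ⟨k - 1, by omega⟩
        rw [Nat.add_sub_cancel, mul_add, mul_one]
        omega
      have hd0 : 0 < d q := Nat.div_pos (Nat.le_of_dvd hm0 hqpow) (pow_pos hqp.pos _)
      have h1 : (Finset.univ.filter (fun t : (ZMod ℓ)ˣ => t ^ d q = 1)).card ≤ d q :=
        IsCyclic.card_pow_eq_one_le hd0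
      have h2 : 2 ^ k ≤ q ^ (n.factorization q * (k - 1) + 1) := by
        calc 2 ^ k ≤ q ^ k := Nat.pow_le_pow_left hqp.two_le k
          _ ≤ q ^ (n.factorization q * (k - 1) + 1) := by
            apply Nat.pow_le_pow_right hqp.pos
            obtain ⟨k', rfl⟩ : ∃ k', k = k' + 1 := ⟨k - 1, by omega⟩
            rw [Nat.add_sub_cancel]
            nlinarith
      calc (Finset.univ.filter (fun t : (ZMod ℓ)ˣ => t ^ d q = 1)).card * 2 ^ k
          ≤ d q * q ^ (n.factorization q * (k - 1) + 1) := Nat.mul_le_mul h1 h2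
        _ = ℓ - 1 := Nat.div_mul_cancel hqpow
    calc bad.card * 2 ^ k
        ≤ (n.primeFactors.biUnion
            (fun q => Finset.univ.filter (fun t : (ZMod ℓ)ˣ => t ^ d q = 1))).card * 2 ^ k :=
          Nat.mul_le_mul_right _ (Finset.card_le_card hsub)
      _ ≤ (∑ q ∈ n.primeFactors,
            (Finset.univ.filter (fun t : (ZMod ℓ)ˣ => t ^ d q = 1)).card) * 2 ^ k :=
          Nat.mul_le_mul_right _ Finset.card_biUnion_le
      _ = ∑ q ∈ n.primeFactors,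
            (Finset.univ.filter (fun t : (ZMod ℓ)ˣ => t ^ d q = 1)).card * 2 ^ k :=
          Finset.sum_mul _ _ _
      _ ≤ ∑ _q ∈ n.primeFactors, (ℓ - 1) := Finset.sum_le_sum hterm
      _ = n.primeFactors.card * (ℓ - 1) := by rw [Finset.sum_const, smul_eq_mul]
      _ ≤ n * (ℓ - 1) := by
          apply Nat.mul_le_mul_right
          calc n.primeFactors.card ≤ (Finset.Icc 1 n).card := by
                apply Finset.card_le_card
                intro q hq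
                rw [Finset.mem_Icc]
                exact ⟨(Nat.prime_of_mem_primeFactors hq).one_le,
                  Nat.le_of_dvd hn (Nat.dvd_of_mem_primeFactors hq)⟩
            _ = n := by simp

end Fermat.Agent.S48.CD


end ZBZ4S48_018_13

/-! ### bundled: `Fermat.Agent.S48.CD.ChebClass` -/
section ZBZ4S48_018_14
/-
S48/CD, piece CLS (helper40): Chebotarev, lower density, for one conjugacy class
`stmtChebClass_of : StmtChebCycT → StmtGlueConj → StmtCycLift → StmtGoodCount → StmtChebClass`.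

Proof (crossing with `ℚ(ζ_ℓ)`): `n = ord σ`, `k` with `n / 2 ^ k ≤ δ / 2`, `ℓ ≡ 1 mod n ^ k` a large
prime, `M = F(ζ_ℓ)`.  For every `t ∈ (ℤ/ℓ)ˣ` with `n ∣ ord t` there is `z_t ∈ Gal(M/ℚ)` with
`z_t|F = σ`, `z_t ζ = ζ ^ t`; it is of cyclotomic type, its centralizer has at most
`|Z(σ)| (ℓ - 1)` elements, and the primes with Frobenius `z_t` are `≡ t mod ℓ` and have Frobenius
class `σ` in `F`.  Summing the lower bounds of `StmtChebCycT` over the good `t` (a proportion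
`≥ 1 - n / 2 ^ k` by `StmtGoodCount`) gives the claim.
-/

set_option autoImplicit false
set_option linter.style.haveILetI false

namespace Fermat.Agent.S48.CD

open NumberField IsDedekindDomain IntermediateField

/-! ### Transfer along the equality of two `ℚ`-algebra structures -/

theorem cls_isGalois_of {K : Type} [Field K] (a b : Algebra ℚ K) (h : @IsGalois ℚ _ K _ a) :
    @IsGalois ℚ _ K _ b := by
  have : a = b := Subsingleton.elim _ _
  subst this; exact h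

theorem cls_normal_of {K : Type} [Field K] (a b : Algebra ℚ K) (h : @Normal ℚ K _ _ a) :
    @Normal ℚ K _ _ b := by
  have : a = b := Subsingleton.elim _ _
  subst this; exact h

theorem cls_finDim_of {K : Type} [Field K] (a b : Algebra ℚ K)
    (h : @FiniteDimensional ℚ K _ _ (@Algebra.toModule ℚ K _ _ a)) :
    @FiniteDimensional ℚ K _ _ (@Algebra.toModule ℚ K _ _ b) := by
  have : a = b := Subsingleton.elim _ _
  subst this; exact h

theorem cls_qbar_isIntegral : Algebra.IsIntegral ℚ (AlgebraicClosure ℚ) := by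
  haveI := qbar_normal
  haveI : Algebra.IsAlgebraic ℚ (AlgebraicClosure ℚ) := Normal.toIsAlgebraic
  exact Algebra.IsAlgebraic.isIntegral

/-! ### The field `M = F(ζ)` -/

/-- the compositum `F(ζ)` -/
noncomputable def clsM (F : IntermediateField ℚ (AlgebraicClosure ℚ)) (ζ : AlgebraicClosure ℚ) :
    IntermediateField ℚ (AlgebraicClosure ℚ) := F ⊔ ℚ⟮ζ⟯

theorem cls_le_M (F : IntermediateField ℚ (AlgebraicClosure ℚ)) (ζ : AlgebraicClosure ℚ) :
    F ≤ clsM F ζ := le_sup_left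

theorem cls_mem_M (F : IntermediateField ℚ (AlgebraicClosure ℚ)) (ζ : AlgebraicClosure ℚ) :
    ζ ∈ clsM F ζ :=
  (le_sup_right : ℚ⟮ζ⟯ ≤ F ⊔ ℚ⟮ζ⟯) (mem_adjoin_simple_self ℚ ζ)

theorem cls_adjoin_isGalois {ℓ : ℕ} (hℓ : ℓ.Prime) {ζ : AlgebraicClosure ℚ}
    (hζ : IsPrimitiveRoot ζ ℓ) : IsGalois ℚ ℚ⟮ζ⟯ := by
  haveI : NeZero ℓ := ⟨hℓ.ne_zero⟩
  haveI := cls_qbar_isIntegral
  have h1 := hζ.intermediateField_adjoin_isCyclotomicExtension ℚ
  exact cls_isGalois_of _ _ (@IsCyclotomicExtension.isGalois {ℓ} ℚ ℚ⟮ζ⟯ _ _ _ h1)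

theorem cls_M_isGalois (F : IntermediateField ℚ (AlgebraicClosure ℚ)) [IsGalois ℚ F]
    {ℓ : ℕ} (hℓ : ℓ.Prime) {ζ : AlgebraicClosure ℚ}
    (hζ : IsPrimitiveRoot ζ ℓ) : IsGalois ℚ (clsM F ζ) := by
  have h1 : IsGalois ℚ ℚ⟮ζ⟯ := cls_adjoin_isGalois hℓ hζ
  have h2 := @IntermediateField.normal_sup ℚ (AlgebraicClosure ℚ) _ _ _ F ℚ⟮ζ⟯
    (cls_normal_of _ _ (inferInstance : Normal ℚ F))
    (cls_normal_of _ _ (@IsGalois.to_normal _ _ _ _ _ h1))
  haveI : Normal ℚ (clsM F ζ) := cls_normal_of _ _ h2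
  exact { }

theorem cls_M_numberField (F : IntermediateField ℚ (AlgebraicClosure ℚ)) [NumberField F]
    (ζ : AlgebraicClosure ℚ) : NumberField (clsM F ζ) := by
  haveI := cls_qbar_isIntegral
  have h1 := IntermediateField.adjoin.finiteDimensional
    (Algebra.IsIntegral.isIntegral (R := ℚ) ζ)
  have h2 := @IntermediateField.finiteDimensional_sup ℚ (AlgebraicClosure ℚ) _ _ _ F ℚ⟮ζ⟯
    (cls_finDim_of _ _ (inferInstance : FiniteDimensional ℚ F)) h1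
  haveI : FiniteDimensional ℚ (clsM F ζ) := cls_finDim_of _ _ h2
  exact { to_charZero := inferInstance, to_finiteDimensional := inferInstance }

/-- an automorphism fixing `F` and `ζ` fixes `F(ζ)` -/
theorem cls_fix_M (F : IntermediateField ℚ (AlgebraicClosure ℚ)) (ζ : AlgebraicClosure ℚ)
    (τ : GalQ) (h1 : ∀ x ∈ F, τ x = x) (h2 : τ ζ = ζ) : ∀ x ∈ clsM F ζ, τ x = x := by
  let E : IntermediateField ℚ (AlgebraicClosure ℚ) :=
    IntermediateField.fixedField (Subgroup.zpowers τ)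
  have hE : ∀ x, x ∈ E ↔ τ x = x := by
    intro x
    constructor
    · intro hx
      exact hx ⟨τ, Subgroup.mem_zpowers τ⟩
    · intro hx g
      obtain ⟨g, hg⟩ := g
      obtain ⟨k, rfl⟩ := Subgroup.mem_zpowers_iff.mp hg
      show (τ ^ k) x = x
      have : τ ^ k ∈ MulAction.stabilizer GalQ x := by
        apply Subgroup.zpow_mem
        exact hx
      exact this
  have hle : clsM F ζ ≤ E := by
    apply sup_le
    · intro x hx; exact (hE x).mpr (h1 x hx)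
    · rw [adjoin_simple_le_iff]; exact (hE ζ).mpr h2
  intro x hx
  exact (hE x).mp (hle hx)

/-- the cyclotomic lifting property of `F` at `ℓ`, `ζ` -/
def ClsLift (F : IntermediateField ℚ (AlgebraicClosure ℚ)) (ℓ : ℕ) (ζ : AlgebraicClosure ℚ) :
    Prop :=
  ∀ t : ℕ, ¬ ℓ ∣ t → ∃ h : GalQ, (∀ x ∈ F, h x = x) ∧ h ζ = ζ ^ t

theorem cls_pow_eq_pow_of_zmod {ℓ : ℕ} {ζ : AlgebraicClosure ℚ} (hζ : IsPrimitiveRoot ζ ℓ)
    {a b : ℕ} (h : (a : ZMod ℓ) = (b : ZMod ℓ)) : ζ ^ a = ζ ^ b := by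
  have h1 : a ≡ b [MOD ℓ] := (ZMod.natCast_eq_natCast_iff a b ℓ).mp h
  rw [← Nat.mod_add_div a ℓ, ← Nat.mod_add_div b ℓ, pow_add, pow_add, pow_mul, pow_mul,
    hζ.pow_eq_one, one_pow, one_pow, mul_one, mul_one]
  rw [show a % ℓ = b % ℓ from h1]

theorem cls_zmod_of_pow_eq_pow {ℓ : ℕ} (hℓ : ℓ.Prime) {ζ : AlgebraicClosure ℚ}
    (hζ : IsPrimitiveRoot ζ ℓ) {a b : ℕ} (h : ζ ^ a = ζ ^ b) : (a : ZMod ℓ) = (b : ZMod ℓ) := by
  rw [ZMod.natCast_eq_natCast_iff]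
  have h1 : ζ ^ (a % ℓ) = ζ ^ (b % ℓ) := by
    have e : ℓ = orderOf ζ := hζ.eq_orderOf
    rw [e, pow_mod_orderOf, pow_mod_orderOf]; exact h
  exact hζ.pow_inj (Nat.mod_lt _ hℓ.pos) (Nat.mod_lt _ hℓ.pos) h1

/-- lifting `σ ∈ Gal(F/ℚ)` to `G_ℚ` with prescribed action on `ζ` -/
theorem cls_exists_lift (F : IntermediateField ℚ (AlgebraicClosure ℚ)) [IsGalois ℚ F]
    {ℓ : ℕ} (hℓ : ℓ.Prime) {ζ : AlgebraicClosure ℚ} (hζ : IsPrimitiveRoot ζ ℓ)
    (hL : ClsLift F ℓ ζ) (σ : F ≃ₐ[ℚ] F) (t : ℕ) (ht : ¬ ℓ ∣ t) :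
    ∃ τ : GalQ, resF F τ = σ ∧ τ ζ = ζ ^ t := by
  haveI : Fact ℓ.Prime := ⟨hℓ⟩
  haveI : NeZero ℓ := ⟨hℓ.ne_zero⟩
  obtain ⟨σ', hσ'⟩ := resF_surjective F σ
  -- `σ' ζ = ζ ^ t₀`
  have h1 : (σ' ζ) ^ ℓ = 1 := by rw [← map_pow, hζ.pow_eq_one, map_one]
  obtain ⟨t₀, -, ht₀⟩ := hζ.eq_pow_of_pow_eq_one h1
  have ht₀' : (t₀ : ZMod ℓ) ≠ 0 := by
    intro h0
    have h2 : ζ ^ t₀ = 1 := by
      have := cls_pow_eq_pow_of_zmod hζ (a := t₀) (b := 0) (by simpa using h0)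
      simpa using this
    rw [h2] at ht₀
    have h3 : σ' ζ = σ' 1 := by rw [← ht₀, map_one]
    have h4 : ζ = 1 := σ'.injective h3
    exact hζ.ne_one hℓ.one_lt h4
  -- `u = t / t₀`
  set u : ℕ := ((t : ZMod ℓ) * (t₀ : ZMod ℓ)⁻¹).val with hu
  have hu1 : (u : ZMod ℓ) * (t₀ : ZMod ℓ) = (t : ZMod ℓ) := by
    rw [hu, ZMod.natCast_zmod_val, mul_assoc, inv_mul_cancel₀ ht₀', mul_one]
  have hu2 : ¬ ℓ ∣ u := by
    intro hdvd
    have h0 : (u : ZMod ℓ) = 0 := (ZMod.natCast_eq_zero_iff u ℓ).mpr hdvd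
    rw [h0, zero_mul] at hu1
    exact ht ((ZMod.natCast_eq_zero_iff t ℓ).mp hu1.symm)
  obtain ⟨h, hF, hζh⟩ := hL u hu2
  refine ⟨σ' * h, ?_, ?_⟩
  · rw [← hσ']
    apply resF_eq_of_agree
    intro x hx
    rw [AlgEquiv.mul_apply, hF x hx]
  · rw [AlgEquiv.mul_apply, hζh, map_pow, ← ht₀, ← pow_mul]
    apply cls_pow_eq_pow_of_zmod hζ
    rw [Nat.cast_mul, mul_comm]
    exact hu1

theorem cls_pow_zeta (ζ : AlgebraicClosure ℚ) (τ : GalQ) (t : ℕ) (h : τ ζ = ζ ^ t) (j : ℕ) :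
    (τ ^ j) ζ = ζ ^ (t ^ j) := by
  induction j with
  | zero => simp
  | succ j ih =>
    rw [pow_succ, AlgEquiv.mul_apply, h, map_pow, ih, ← pow_mul, pow_succ]

theorem cls_isPrimitiveRoot_M {M : IntermediateField ℚ (AlgebraicClosure ℚ)} {ℓ : ℕ}
    {ζ : AlgebraicClosure ℚ} (hζ : IsPrimitiveRoot ζ ℓ) (hm : ζ ∈ M) :
    IsPrimitiveRoot (⟨ζ, hm⟩ : M) ℓ := by
  have : IsPrimitiveRoot (M.val (⟨ζ, hm⟩ : M)) ℓ := hζ
  exact IsPrimitiveRoot.of_map_of_injective (f := M.val) this M.val.injective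

/-- the restriction to `M = F(ζ)` of a lift `τ` of `σ` with `τ ζ = ζ ^ t`, `ord σ ∣ ord t`, is of
cyclotomic type -/
theorem cls_isCyclZ (F : IntermediateField ℚ (AlgebraicClosure ℚ)) [IsGalois ℚ F]
    {ℓ : ℕ} (hℓ : ℓ.Prime) {ζ : AlgebraicClosure ℚ} (hζ : IsPrimitiveRoot ζ ℓ)
    [NumberField (clsM F ζ)] [IsGalois ℚ (clsM F ζ)]
    (σ : F ≃ₐ[ℚ] F) (τ : GalQ) (hτ : resF F τ = σ) (t : ℕ) (hτζ : τ ζ = ζ ^ t)
    (hord : ∀ j : ℕ, ((t : ZMod ℓ)) ^ j = 1 → σ ^ j = 1) :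
    IsCyclZ (resF (clsM F ζ) τ) ℓ (⟨ζ, cls_mem_M F ζ⟩ : clsM F ζ) := by
  refine ⟨hℓ, cls_isPrimitiveRoot_M hζ _, ?_⟩
  intro j hj
  rw [← map_pow] at hj ⊢
  have h1 : (τ ^ j) ζ = ζ := by
    rw [← resF_coe (clsM F ζ) (τ ^ j) ⟨ζ, cls_mem_M F ζ⟩, hj]
  have h2 : ((t : ZMod ℓ)) ^ j = 1 := by
    rw [cls_pow_zeta ζ τ t hτζ j] at h1
    have := cls_zmod_of_pow_eq_pow hℓ hζ (a := t ^ j) (b := 1) (by rw [h1, pow_one])
    simpa using this
  have h3 : resF F (τ ^ j) = 1 := by rw [map_pow, hτ]; exact hord j h2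
  have h4 : ∀ x ∈ clsM F ζ, (τ ^ j) x = x :=
    cls_fix_M F ζ (τ ^ j) (fixes_of_resF_eq_one F h3) h1
  rw [← map_one (resF (clsM F ζ))]
  apply resF_eq_of_agree
  intro x hx
  rw [h4 x hx]; rfl

/-- `Nat.card (ℤ ⧸ P.under ℤ) = p` when the prime number `p` lies in the prime ideal `P`. -/
theorem cls_card_under_int {F : Type} [Field F] [NumberField F] (P : Ideal (𝓞 F)) [P.IsPrime]
    (p : ℕ) (hp : p.Prime) (hpP : (p : 𝓞 F) ∈ P) : Nat.card (ℤ ⧸ P.under ℤ) = p := by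
  have hmem : (p : ℤ) ∈ P.under ℤ := by
    rw [Ideal.under_def, Ideal.mem_comap]
    simpa using hpP
  have hle : Ideal.span {(p : ℤ)} ≤ P.under ℤ := by
    rw [Ideal.span_le]
    intro x hx
    rw [Set.mem_singleton_iff] at hx
    rw [hx]
    exact hmem
  haveI : Fact p.Prime := ⟨hp⟩
  haveI : (Ideal.span {(p : ℤ)}).IsMaximal := Int.ideal_span_isMaximal_of_prime p
  have hne : P.under ℤ ≠ ⊤ := Ideal.IsPrime.ne_top inferInstance
  have heq : Ideal.span {(p : ℤ)} = P.under ℤ :=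
    Ideal.IsMaximal.eq_of_le inferInstance hne hle
  rw [← heq, Nat.card_congr (Int.quotientSpanNatEquivZMod p).toEquiv, Nat.card_zmod]

/-- two distinct prime numbers do not lie in the same prime ideal -/
theorem cls_not_mem_of_ne {F : Type} [Field F] [NumberField F] (P : Ideal (𝓞 F)) [P.IsPrime]
    {p ℓ : ℕ} (hp : p.Prime) (hℓ : ℓ.Prime) (hne : p ≠ ℓ) (hpP : (p : 𝓞 F) ∈ P) :
    (ℓ : 𝓞 F) ∉ P := by
  intro hℓP
  have hco : IsCoprime (p : ℤ) (ℓ : ℤ) :=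
    Nat.isCoprime_iff_coprime.mpr ((Nat.coprime_primes hp hℓ).mpr hne)
  obtain ⟨a, b, hab⟩ := hco
  have h1 : ((a : 𝓞 F) * (p : 𝓞 F) + (b : 𝓞 F) * (ℓ : 𝓞 F)) ∈ P :=
    P.add_mem (P.mul_mem_left _ hpP) (P.mul_mem_left _ hℓP)
  have h2 : ((a : 𝓞 F) * (p : 𝓞 F) + (b : 𝓞 F) * (ℓ : 𝓞 F)) = 1 := by
    have := congrArg (fun x : ℤ => (x : 𝓞 F)) hab
    simpa using this
  rw [h2] at h1
  exact (Ideal.IsPrime.ne_top inferInstance) ((Ideal.eq_top_iff_one P).mpr h1)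

/-- a Frobenius element at `p ≠ ℓ` raises the `ℓ`-th roots of unity to the power `p` -/
theorem cls_frob_zmod {M : Type} [Field M] [NumberField M] [IsGalois ℚ M]
    {ℓ : ℕ} (hℓ : ℓ.Prime) {ζ : M} (hζ : IsPrimitiveRoot ζ ℓ)
    (z : M ≃ₐ[ℚ] M) (t : ℕ) (hz : z ζ = ζ ^ t) (p : ℕ) (hp : p.Prime) (hpℓ : p ≠ ℓ)
    (hF : FrobAt M z p) : (p : ZMod ℓ) = (t : ZMod ℓ) := by
  obtain ⟨𝔓, h𝔓, hp𝔓, hfrob⟩ := hF
  haveI := h𝔓
  haveI : NeZero ℓ := ⟨hℓ.ne_zero⟩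
  have hcard := cls_card_under_int 𝔓 p hp hp𝔓
  have hℓ𝔓 := cls_not_mem_of_ne 𝔓 hp hℓ hpℓ hp𝔓
  have hζO : (hζ.toInteger) ^ ℓ = 1 := by
    apply RingOfIntegers.ext
    show ζ ^ ℓ = 1
    exact hζ.pow_eq_one
  have h1 := AlgHom.IsArithFrobAt.apply_of_pow_eq_one hfrob hζO hℓ𝔓
  rw [hcard] at h1
  have h2 : z ζ = ζ ^ p := by
    have h := congrArg (fun x : 𝓞 M => (x : M)) h1
    have e1 : ((MulSemiringAction.toAlgHom ℤ (𝓞 M) z) hζ.toInteger : M) = z ζ := rfl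
    have e2 : ((hζ.toInteger ^ p : 𝓞 M) : M) = ζ ^ p := rfl
    rw [← e1, ← e2]
    exact h
  rw [hz] at h2
  -- `ζ ^ t = ζ ^ p`
  rw [ZMod.natCast_eq_natCast_iff]
  have h3 : ζ ^ (p % ℓ) = ζ ^ (t % ℓ) := by
    have e : ℓ = orderOf ζ := hζ.eq_orderOf
    rw [e, pow_mod_orderOf, pow_mod_orderOf]; exact h2.symm
  exact hζ.pow_inj (Nat.mod_lt _ hℓ.pos) (Nat.mod_lt _ hℓ.pos) h3

/-- restriction `Gal(M/ℚ) → Gal(F/ℚ)` for `F ≤ M` -/
theorem cls_exists_res (F M : IntermediateField ℚ (AlgebraicClosure ℚ)) [IsGalois ℚ F]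
    [IsGalois ℚ M] (hFM : F ≤ M) :
    ∃ ρ : (M ≃ₐ[ℚ] M) →* (F ≃ₐ[ℚ] F), ∀ σ : GalQ, ρ (resF M σ) = resF F σ := by
  apply exists_factor M (resF F)
  intro σ hσ
  rw [← map_one (resF F)]
  apply resF_eq_of_agree
  intro x hx
  rw [hσ x (hFM hx)]; rfl

/-- two elements of `G_ℚ` with the same restriction to `F` and the same value at `ζ` have the
same restriction to `F(ζ)` -/
theorem cls_resM_eq (F : IntermediateField ℚ (AlgebraicClosure ℚ)) [IsGalois ℚ F]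
    (ζ : AlgebraicClosure ℚ) [IsGalois ℚ (clsM F ζ)] (a b : GalQ)
    (h1 : resF F a = resF F b) (h2 : a ζ = b ζ) :
    resF (clsM F ζ) a = resF (clsM F ζ) b := by
  have h3 : ∀ x ∈ F, (b⁻¹ * a) x = x := by
    intro x hx
    have e1 := resF_coe F a ⟨x, hx⟩
    have e2 := resF_coe F b ⟨x, hx⟩
    rw [h1] at e1
    have e3 : a x = b x := by rw [← e1, ← e2]
    rw [AlgEquiv.mul_apply, e3]
    exact b.symm_apply_apply x
  have h4 : (b⁻¹ * a) ζ = ζ := by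
    rw [AlgEquiv.mul_apply, h2]
    exact b.symm_apply_apply ζ
  have h5 := cls_fix_M F ζ (b⁻¹ * a) h3 h4
  apply resF_eq_of_agree
  intro x hx
  have h6 := h5 x hx
  rw [AlgEquiv.mul_apply] at h6
  have h7 := congrArg b h6
  rw [← h7]
  exact (b.apply_symm_apply (a x)).symm

/-- the centralizer of `z = τ|M` is at most `ℓ - 1` times as big as that of `σ = τ|F` -/
theorem cls_card_centralizer_le (F : IntermediateField ℚ (AlgebraicClosure ℚ)) [NumberField F]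
    [IsGalois ℚ F] {ℓ : ℕ} (hℓ : ℓ.Prime) {ζ : AlgebraicClosure ℚ} (hζ : IsPrimitiveRoot ζ ℓ)
    [NumberField (clsM F ζ)] [IsGalois ℚ (clsM F ζ)] (τ : GalQ) :
    Nat.card (Subgroup.centralizer {resF (clsM F ζ) τ}) ≤
      Nat.card (Subgroup.centralizer {resF F τ}) * (ℓ - 1) := by
  classical
  haveI : NeZero ℓ := ⟨hℓ.ne_zero⟩
  obtain ⟨ρ, hρ⟩ := cls_exists_res F (clsM F ζ) (cls_le_M F ζ)
  set ζM : clsM F ζ := ⟨ζ, cls_mem_M F ζ⟩ with hζM
  have hζM' : IsPrimitiveRoot ζM ℓ := cls_isPrimitiveRoot_M hζ _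
  let f : Subgroup.centralizer {resF (clsM F ζ) τ} →
      Subgroup.centralizer {resF F τ} × (primitiveRoots ℓ (clsM F ζ)) := fun g =>
    (⟨ρ g.1, by
        rw [Subgroup.mem_centralizer_iff]
        intro h hh
        rw [Set.mem_singleton_iff] at hh
        subst hh
        have h1 := (Subgroup.mem_centralizer_iff.mp g.2) _ (Set.mem_singleton _)
        have h2 := congrArg ρ h1
        rw [map_mul, map_mul, hρ] at h2
        exact h2⟩,
     ⟨g.1 ζM, by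
        rw [mem_primitiveRoots hℓ.pos]
        exact hζM'.map_of_injective (f := (g.1 : clsM F ζ →ₐ[ℚ] clsM F ζ)) g.1.injective⟩)
  have hf : Function.Injective f := by
    intro g g' hgg
    have e1 : ρ g.1 = ρ g'.1 := congrArg (fun x => (x.1 : F ≃ₐ[ℚ] F)) hgg
    have e2 : g.1 ζM = g'.1 ζM := congrArg (fun x => (x.2 : clsM F ζ)) hgg
    obtain ⟨a, ha⟩ := resF_surjective (clsM F ζ) g.1
    obtain ⟨b, hb⟩ := resF_surjective (clsM F ζ) g'.1
    rw [← ha, ← hb, hρ, hρ] at e1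
    rw [← ha, ← hb] at e2
    have e3 : a ζ = b ζ := by
      have := congrArg (fun x : clsM F ζ => (x : AlgebraicClosure ℚ)) e2
      rw [← resF_coe (clsM F ζ) a ζM, ← resF_coe (clsM F ζ) b ζM]
      exact this
    apply Subtype.ext
    rw [← ha, ← hb]
    exact cls_resM_eq F ζ a b e1 e3
  haveI : Finite (clsM F ζ ≃ₐ[ℚ] clsM F ζ) := inferInstance
  haveI : Finite (F ≃ₐ[ℚ] F) := inferInstance
  have h1 := Nat.card_le_card_of_injective f hf
  rw [Nat.card_prod] at h1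
  have h2 : Nat.card (primitiveRoots ℓ (clsM F ζ)) = ℓ - 1 := by
    rw [Nat.card_eq_finsetCard, hζM'.card_primitiveRoots, Nat.totient_prime hℓ]
  rw [h2] at h1
  exact h1

/-- conjugacy in `Gal(M/ℚ)` restricts to conjugacy in `Gal(F/ℚ)` -/
theorem cls_conj_res (F M : IntermediateField ℚ (AlgebraicClosure ℚ)) [IsGalois ℚ F]
    [IsGalois ℚ M] (hFM : F ≤ M) (τ τ' : GalQ)
    (h : ∃ g : M ≃ₐ[ℚ] M, AlgEquiv.restrictNormal τ' M = g * resF M τ * g⁻¹) :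
    ∃ g : F ≃ₐ[ℚ] F, AlgEquiv.restrictNormal τ' F = g * resF F τ * g⁻¹ := by
  obtain ⟨ρ, hρ⟩ := cls_exists_res F M hFM
  obtain ⟨g, hg⟩ := h
  refine ⟨ρ g, ?_⟩
  have h1 := congrArg ρ hg
  rw [← resF_apply, hρ, map_mul, map_mul, map_inv, hρ] at h1
  exact h1

theorem cls_log_nonneg {s : ℝ} (hs1 : 1 < s) (hs2 : s < 2) : 0 ≤ Real.log (1 / (s - 1)) := by
  apply Real.log_nonneg
  rw [le_div_iff₀ (by linarith)]
  linarith

/-- the lower bound for the primes `≡ t mod ℓ` with Frobenius class `σ` -/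
theorem cls_per_t (hCyc : StmtChebCycT) (hGlue : StmtGlueConj)
    (F : IntermediateField ℚ (AlgebraicClosure ℚ)) [NumberField F] [IsGalois ℚ F]
    (S : Finset ℕ) (σ : F ≃ₐ[ℚ] F) {ℓ : ℕ} (hℓ : ℓ.Prime) {ζ : AlgebraicClosure ℚ}
    (hζ : IsPrimitiveRoot ζ ℓ) (hL : ClsLift F ℓ ζ) (t : ℕ) (ht : ¬ ℓ ∣ t)
    (hord : ∀ j : ℕ, (t : ZMod ℓ) ^ j = 1 → σ ^ j = 1) :
    ∃ C : ℝ, ∀ s : ℝ, 1 < s → s < 2 →
      ∃ P : Finset ℕ,
        (∀ p ∈ P, p.Prime ∧ p ∉ S ∧ (p : ZMod ℓ) = (t : ZMod ℓ) ∧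
          ∀ A : ValuationSubring (AlgebraicClosure ℚ), A.LiesOverPrime p →
            ∀ τ : GalQ, A.IsFrobeniusAt τ p →
              ∃ g : F ≃ₐ[ℚ] F, AlgEquiv.restrictNormal τ F = g * σ * g⁻¹) ∧
        1 / ((Nat.card (Subgroup.centralizer {σ}) : ℝ) * ((ℓ : ℝ) - 1)) *
            Real.log (1 / (s - 1)) - C ≤ ∑ p ∈ P, (p : ℝ) ^ (-s) := by
  obtain ⟨τ, hτσ, hτζ⟩ := cls_exists_lift F hℓ hζ hL σ t ht
  haveI := cls_M_numberField F ζ
  haveI := cls_M_isGalois F hℓ hζ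
  have hcyc := cls_isCyclZ F hℓ hζ σ τ hτσ t hτζ hord
  have hζM : IsPrimitiveRoot (⟨ζ, cls_mem_M F ζ⟩ : clsM F ζ) ℓ := cls_isPrimitiveRoot_M hζ _
  have hz : resF (clsM F ζ) τ ⟨ζ, cls_mem_M F ζ⟩ = (⟨ζ, cls_mem_M F ζ⟩ : clsM F ζ) ^ t := by
    apply Subtype.ext
    rw [resF_coe]
    exact hτζ
  obtain ⟨C, hC⟩ := hCyc (clsM F ζ) (resF (clsM F ζ) τ) ℓ ⟨ζ, cls_mem_M F ζ⟩ hcyc (insert ℓ S)
  refine ⟨C, fun s hs1 hs2 => ?_⟩
  obtain ⟨P, hP, hsum⟩ := hC s hs1 hs2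
  refine ⟨P, ?_, ?_⟩
  · intro p hpP
    obtain ⟨hp, hpS, hunr, hfrob⟩ := hP p hpP
    have hpℓ : p ≠ ℓ := fun h => hpS (h ▸ Finset.mem_insert_self _ _)
    have hpS' : p ∉ S := fun h => hpS (Finset.mem_insert_of_mem h)
    refine ⟨hp, hpS', ?_, ?_⟩
    · exact cls_frob_zmod hℓ hζM (resF (clsM F ζ) τ) t hz p hp hpℓ hfrob
    · intro A hA τ' hτ'
      have h1 := hGlue (clsM F ζ) (resF (clsM F ζ) τ) p hp hunr hfrob A hA τ' hτ'
      have h2 := cls_conj_res F (clsM F ζ) (cls_le_M F ζ) τ τ' h1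
      rw [hτσ] at h2
      exact h2
  · have hcard := cls_card_centralizer_le F hℓ hζ τ
    rw [hτσ] at hcard
    have hpos : 0 < Nat.card (Subgroup.centralizer {resF (clsM F ζ) τ}) := Nat.card_pos
    have hcardR : (Nat.card (Subgroup.centralizer {resF (clsM F ζ) τ}) : ℝ) ≤
        (Nat.card (Subgroup.centralizer {σ}) : ℝ) * ((ℓ : ℝ) - 1) := by
      have : ((ℓ - 1 : ℕ) : ℝ) = (ℓ : ℝ) - 1 := by
        rw [Nat.cast_sub hℓ.one_le]; simp
      rw [← this]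
      exact_mod_cast hcard
    have hposR : (0 : ℝ) < Nat.card (Subgroup.centralizer {resF (clsM F ζ) τ}) := by
      exact_mod_cast hpos
    have hle : 1 / ((Nat.card (Subgroup.centralizer {σ}) : ℝ) * ((ℓ : ℝ) - 1)) ≤
        1 / (Nat.card (Subgroup.centralizer {resF (clsM F ζ) τ}) : ℝ) :=
      one_div_le_one_div_of_le hposR hcardR
    have hL := cls_log_nonneg hs1 hs2
    have := mul_le_mul_of_nonneg_right hle hL
    linarith

theorem cls_exists_k (n : ℕ) {δ : ℝ} (hδ : 0 < δ) : ∃ k : ℕ, (n : ℝ) / 2 ^ k ≤ δ / 2 := by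
  have h1 : (0 : ℝ) < δ / (2 * ((n : ℝ) + 1)) := by positivity
  obtain ⟨k, hk⟩ := exists_pow_lt_of_lt_one h1 (by norm_num : (1 / 2 : ℝ) < 1)
  refine ⟨k, ?_⟩
  have h2 : (0 : ℝ) < 2 ^ k := by positivity
  rw [div_le_iff₀ h2]
  rw [one_div, inv_pow, lt_div_iff₀ (by positivity)] at hk
  have h3 : (2 ^ k : ℝ)⁻¹ * (2 ^ k) = 1 := inv_mul_cancel₀ h2.ne'
  have h4 : (n : ℝ) ≤ (n : ℝ) + 1 := by linarith
  have h5 : (0 : ℝ) ≤ n := Nat.cast_nonneg n
  nlinarith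

/-- the arithmetic of the final estimate -/
theorem cls_arith {c m B T n δ L Ctot Sm p2 : ℝ} (hc : 1 ≤ c) (hm : 1 ≤ m) (hB : 0 ≤ B)
    (hT : T = m - B) (hp2 : 0 < p2) (hcnt : B * p2 ≤ n * m) (hk : n / p2 ≤ δ / 2) (hL : 0 ≤ L)
    (hC : Ctot ≤ δ / 2 * L) (hsum : T * (1 / (c * m) * L) - Ctot ≤ Sm) :
    (1 / c - δ) * L ≤ Sm := by
  have hcm : 0 < c * m := by positivity
  have h1 : B / m ≤ n / p2 := by
    rw [div_le_div_iff₀ (by linarith) hp2]
    exact hcnt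
  have h2 : B / (c * m) ≤ B / m := by
    apply div_le_div_of_nonneg_left hB (by linarith)
    nlinarith
  have h3 : T * (1 / (c * m)) = 1 / c - B / (c * m) := by
    rw [hT]
    field_simp
  have h4 : 1 / c - δ / 2 ≤ T * (1 / (c * m)) := by
    rw [h3]; linarith
  have h5 : (1 / c - δ / 2) * L ≤ T * (1 / (c * m)) * L := mul_le_mul_of_nonneg_right h4 hL
  have h6 : T * (1 / (c * m) * L) = T * (1 / (c * m)) * L := by ring
  rw [h6] at hsum
  have h7 : (1 / c - δ) * L = (1 / c - δ / 2) * L - δ / 2 * L := by ring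
  rw [h7]
  linarith

theorem cls_log_ge {s δ Ctot : ℝ} (hδ : 0 < δ) (hs1 : 1 < s)
    (hs : s < 1 + Real.exp (-(2 * Ctot / δ))) : Ctot ≤ δ / 2 * Real.log (1 / (s - 1)) := by
  have h1 : 0 < s - 1 := by linarith
  have h2 : s - 1 < Real.exp (-(2 * Ctot / δ)) := by linarith
  have h3 : Real.log (s - 1) < -(2 * Ctot / δ) := by
    rw [Real.log_lt_iff_lt_exp h1]; exact h2
  have h4 : Real.log (1 / (s - 1)) = - Real.log (s - 1) := by
    rw [one_div, Real.log_inv]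
  rw [h4]
  have h5 : 2 * Ctot / δ < - Real.log (s - 1) := by linarith
  have h6 : 2 * Ctot < - Real.log (s - 1) * δ := by
    rwa [div_lt_iff₀ hδ] at h5
  nlinarith

/-- (CLS) Chebotarev, lower density, for one conjugacy class. -/
theorem stmtChebClass_of (hCyc : StmtChebCycT) (hGlue : StmtGlueConj) (hLift : StmtCycLift)
    (hCnt : StmtGoodCount) : StmtChebClass := by
  intro F _ _ S σ δ hδ
  classical
  haveI : Finite (F ≃ₐ[ℚ] F) := inferInstance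
  set n := orderOf σ with hn
  have hn0 : 0 < n := orderOf_pos σ
  obtain ⟨k, hk⟩ := cls_exists_k n hδ
  obtain ⟨N₀, hN₀⟩ := hLift F
  obtain ⟨ℓ, hℓ, hℓN, hℓmod⟩ :=
    Nat.exists_prime_gt_modEq_one (k := n ^ k) N₀ (pow_ne_zero _ hn0.ne')
  haveI : Fact ℓ.Prime := ⟨hℓ⟩
  haveI : NeZero ℓ := ⟨hℓ.ne_zero⟩
  obtain ⟨ζ, hζ⟩ : ∃ ζ : AlgebraicClosure ℚ, IsPrimitiveRoot ζ ℓ :=
    HasEnoughRootsOfUnity.exists_primitiveRoot (AlgebraicClosure ℚ) ℓ
  have hL : ClsLift F ℓ ζ := hN₀ ℓ hℓ hℓN ζ hζ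
  -- the classes `t`
  have hper : ∀ t : (ZMod ℓ)ˣ, ∃ C : ℝ, ∀ s : ℝ, 1 < s → s < 2 →
      ∃ P : Finset ℕ,
        (∀ p ∈ P, p.Prime ∧ p ∉ S ∧ (p : ZMod ℓ) = (t : ZMod ℓ) ∧
          ∀ A : ValuationSubring (AlgebraicClosure ℚ), A.LiesOverPrime p →
            ∀ τ : GalQ, A.IsFrobeniusAt τ p →
              ∃ g : F ≃ₐ[ℚ] F, AlgEquiv.restrictNormal τ F = g * σ * g⁻¹) ∧
        (n ∣ orderOf t →
          1 / ((Nat.card (Subgroup.centralizer {σ}) : ℝ) * ((ℓ : ℝ) - 1)) *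
            Real.log (1 / (s - 1)) - C ≤ ∑ p ∈ P, (p : ℝ) ^ (-s)) := by
    intro t
    by_cases hgood : n ∣ orderOf t
    · have ht0 : ((t : ZMod ℓ).val : ZMod ℓ) = (t : ZMod ℓ) := ZMod.natCast_zmod_val _
      have ht : ¬ ℓ ∣ (t : ZMod ℓ).val := by
        intro hdvd
        have h0 : ((t : ZMod ℓ).val : ZMod ℓ) = 0 := (ZMod.natCast_eq_zero_iff _ ℓ).mpr hdvd
        rw [ht0] at h0
        exact t.ne_zero h0
      have hord : ∀ j : ℕ, (((t : ZMod ℓ).val : ℕ) : ZMod ℓ) ^ j = 1 → σ ^ j = 1 := by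
        intro j hj
        rw [ht0] at hj
        have h1 : t ^ j = 1 := by
          apply Units.ext
          rw [Units.val_pow_eq_pow_val, hj]; rfl
        have h2 : orderOf t ∣ j := orderOf_dvd_of_pow_eq_one h1
        exact orderOf_dvd_iff_pow_eq_one.mp (hgood.trans h2)
      obtain ⟨C, hC⟩ := cls_per_t hCyc hGlue F S σ hℓ hζ hL (t : ZMod ℓ).val ht hord
      refine ⟨C, fun s hs1 hs2 => ?_⟩
      obtain ⟨P, hP, hsum⟩ := hC s hs1 hs2
      refine ⟨P, fun p hp => ?_, fun _ => hsum⟩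
      obtain ⟨h1, h2, h3, h4⟩ := hP p hp
      exact ⟨h1, h2, h3.trans ht0, h4⟩
    · exact ⟨0, fun s _ _ => ⟨∅, fun p hp => absurd hp (Finset.notMem_empty p),
        fun h => absurd h hgood⟩⟩
  choose C hC using hper
  set T : Finset (ZMod ℓ)ˣ := Finset.univ.filter (fun t => n ∣ orderOf t) with hT
  set Ctot : ℝ := ∑ t ∈ T, C t with hCtot
  refine ⟨min 2 (1 + Real.exp (-(2 * Ctot / δ))), ?_, ?_⟩
  · apply lt_min (by norm_num)
    have := Real.exp_pos (-(2 * Ctot / δ))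
    linarith
  intro s hs1 hs0
  have hs2 : s < 2 := lt_of_lt_of_le hs0 (min_le_left _ _)
  have hs3 : s < 1 + Real.exp (-(2 * Ctot / δ)) := lt_of_lt_of_le hs0 (min_le_right _ _)
  choose P hP using fun t => hC t s hs1 hs2
  refine ⟨Finset.univ.biUnion P, ?_, ?_⟩
  · intro p hp
    rw [Finset.mem_biUnion] at hp
    obtain ⟨t, -, hpt⟩ := hp
    obtain ⟨h1, h2, -, h4⟩ := (hP t).1 p hpt
    exact ⟨h1, h2, h4⟩
  -- the sum
  have hdisj : ∀ t ∈ (Finset.univ : Finset (ZMod ℓ)ˣ), ∀ t' ∈ (Finset.univ : Finset (ZMod ℓ)ˣ),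
      t ≠ t' → Disjoint (P t) (P t') := by
    intro t _ t' _ htt
    rw [Finset.disjoint_left]
    intro p hp hp'
    have h1 := ((hP t).1 p hp).2.2.1
    have h2 := ((hP t').1 p hp').2.2.1
    exact htt (Units.ext (h1.symm.trans h2))
  have hsum1 : ∑ p ∈ Finset.univ.biUnion P, (p : ℝ) ^ (-s) =
      ∑ t : (ZMod ℓ)ˣ, ∑ p ∈ P t, (p : ℝ) ^ (-s) :=
    Finset.sum_biUnion hdisj
  have hnn : ∀ t : (ZMod ℓ)ˣ, 0 ≤ ∑ p ∈ P t, (p : ℝ) ^ (-s) := fun t =>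
    Finset.sum_nonneg fun p _ => Real.rpow_nonneg (Nat.cast_nonneg p) _
  set a : ℝ := 1 / ((Nat.card (Subgroup.centralizer {σ}) : ℝ) * ((ℓ : ℝ) - 1)) *
      Real.log (1 / (s - 1)) with ha
  have hsum2 : ∑ t ∈ T, (a - C t) ≤ ∑ t : (ZMod ℓ)ˣ, ∑ p ∈ P t, (p : ℝ) ^ (-s) := by
    calc ∑ t ∈ T, (a - C t) ≤ ∑ t ∈ T, ∑ p ∈ P t, (p : ℝ) ^ (-s) := by
          apply Finset.sum_le_sum
          intro t ht
          rw [hT, Finset.mem_filter] at ht
          exact (hP t).2 ht.2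
      _ ≤ ∑ t : (ZMod ℓ)ˣ, ∑ p ∈ P t, (p : ℝ) ^ (-s) :=
          Finset.sum_le_sum_of_subset_of_nonneg (Finset.subset_univ T) fun t _ _ => hnn t
  have hsum3 : ∑ t ∈ T, (a - C t) = (T.card : ℝ) * a - Ctot := by
    rw [Finset.sum_sub_distrib, Finset.sum_const, nsmul_eq_mul]
  -- the count
  have hcnt := hCnt n k ℓ hn0 hℓ hℓmod
  have hB : Nat.card {t : (ZMod ℓ)ˣ // ¬ n ∣ orderOf t} =
      (Finset.univ.filter (fun t : (ZMod ℓ)ˣ => ¬ n ∣ orderOf t)).card := by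
    rw [Nat.card_eq_fintype_card, Fintype.card_subtype]
  have hTB : T.card + (Finset.univ.filter (fun t : (ZMod ℓ)ˣ => ¬ n ∣ orderOf t)).card =
      ℓ - 1 := by
    rw [hT, Finset.card_filter_add_card_filter_not, Finset.card_univ, ZMod.card_units]
  have hc1 : 1 ≤ Nat.card (Subgroup.centralizer {σ}) := Nat.card_pos
  rw [hsum1]
  refine cls_arith (c := (Nat.card (Subgroup.centralizer {σ}) : ℝ)) (m := (ℓ : ℝ) - 1)
    (B := (Nat.card {t : (ZMod ℓ)ˣ // ¬ n ∣ orderOf t} : ℝ)) (T := (T.card : ℝ)) (n := (n : ℝ))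
    (δ := δ) (L := Real.log (1 / (s - 1))) (Ctot := Ctot) (p2 := (2 : ℝ) ^ k)
    (by exact_mod_cast hc1) ?_ (Nat.cast_nonneg _) ?_ (by positivity) ?_ hk
    (cls_log_nonneg hs1 hs2) (cls_log_ge hδ hs1 hs3) ?_
  · have : (2 : ℝ) ≤ ℓ := by exact_mod_cast hℓ.two_le
    linarith
  · have h1 : ((ℓ - 1 : ℕ) : ℝ) = (ℓ : ℝ) - 1 := by
      rw [Nat.cast_sub hℓ.one_le]; simp
    rw [← h1, ← hTB, hB]
    push_cast
    ring
  · have h1 : ((ℓ - 1 : ℕ) : ℝ) = (ℓ : ℝ) - 1 := by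
      rw [Nat.cast_sub hℓ.one_le]; simp
    rw [← h1]
    exact_mod_cast hcnt
  · rw [← hsum3]
    exact hsum2

end Fermat.Agent.S48.CD


end ZBZ4S48_018_14

/-! ### bundled: `Fermat.Agent.S48.CD.Final` -/
section ZBZ4S48_018_15
/-
S48/CD piece FIN (helper61): Chebotarev's density theorem (lower density) for conjugation stable
sets, from the theorem for one conjugacy class.
-/

set_option autoImplicit false

namespace Fermat.Agent.S48.CD

open NumberField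

/-! ### Counting a conjugation stable set by its classes -/

section Group

variable {G : Type} [Group G] [Finite G]

theorem fin_card_class_mul (σ : G) :
    Nat.card {τ : G // IsConj τ σ} * Nat.card (Subgroup.centralizer {σ}) = Nat.card G := by
  have h1 := (MulAction.stabilizer (ConjAct G) σ).index_mul_card
  have h2 : Nat.card (ConjAct G) = Nat.card G := rfl
  rw [Subgroup.nat_card_centralizer_nat_card_stabilizer, ← h2, ← h1, MulAction.index_stabilizer]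
  congr 1
  rw [ConjAct.orbit_eq_carrier_conjClasses, ← Nat.card_coe_set_eq]
  refine Nat.card_congr (Equiv.subtypeEquivRight fun τ => ?_)
  rw [ConjClasses.mem_carrier_iff_mk_eq, ConjClasses.mk_eq_mk_iff_isConj]

open Classical in
/-- a system of representatives of the classes in a conjugation stable set -/
theorem fin_card_class (C : Set G) (hC : ∀ g σ : G, σ ∈ C → g * σ * g⁻¹ ∈ C) :
    ∃ ι : Finset G, (∀ σ ∈ ι, σ ∈ C) ∧ (∀ σ ∈ ι, ∀ σ' ∈ ι, IsConj σ σ' → σ = σ') ∧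
      (C.ncard : ℝ) / (Nat.card G : ℝ) =
        ∑ σ ∈ ι, 1 / (Nat.card (Subgroup.centralizer {σ}) : ℝ) := by
  haveI := Fintype.ofFinite G
  have hconj : ∀ {σ τ : G}, IsConj σ τ → σ ∈ C → τ ∈ C := by
    intro σ τ h hσ
    obtain ⟨c, hc⟩ := isConj_iff.mp h
    rw [← hc]
    exact hC c σ hσ
  set r : G → G := fun τ => (ConjClasses.mk τ).out with hr
  have hr1 : ∀ τ : G, IsConj (r τ) τ := fun τ =>
    ConjClasses.mk_eq_mk_iff_isConj.mp (Quotient.out_eq (ConjClasses.mk τ))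
  have hr2 : ∀ {σ τ : G}, IsConj σ τ → r σ = r τ := fun h => by
    simp only [hr]
    rw [ConjClasses.mk_eq_mk_iff_isConj.mpr h]
  set ι : Finset G := Finset.univ.filter fun σ => σ ∈ C ∧ r σ = σ with hι
  refine ⟨ι, fun σ hσ => ((Finset.mem_filter.mp hσ).2).1, ?_, ?_⟩
  · intro σ hσ σ' hσ' h
    rw [← ((Finset.mem_filter.mp hσ).2).2, ← ((Finset.mem_filter.mp hσ').2).2]
    exact hr2 h
  · have hG : (0 : ℝ) < Nat.card G := by exact_mod_cast Nat.card_pos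
    have h1 : C.ncard = ∑ σ ∈ ι, Nat.card {τ : G // IsConj τ σ} := by
      rw [Set.ncard_eq_toFinset_card', Finset.card_eq_sum_card_fiberwise (f := r) (t := ι)]
      · refine Finset.sum_congr rfl fun σ hσ => ?_
        obtain ⟨-, hσC, hσr⟩ := Finset.mem_filter.mp hσ
        rw [Nat.card_eq_fintype_card, Fintype.card_subtype]
        congr 1
        ext τ
        simp only [Finset.mem_filter, Set.mem_toFinset, Finset.mem_univ, true_and]
        constructor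
        · rintro ⟨-, h⟩
          rw [← h]
          exact (hr1 τ).symm
        · intro h
          exact ⟨hconj h.symm hσC, (hr2 h).trans hσr⟩
      · intro τ hτ
        have hτ' : τ ∈ C := by simpa using hτ
        exact Finset.mem_coe.mpr
          (Finset.mem_filter.mpr ⟨Finset.mem_univ _, hconj (hr1 τ).symm hτ', hr2 (hr1 τ)⟩)
    rw [h1, Nat.cast_sum, Finset.sum_div]
    refine Finset.sum_congr rfl fun σ _ => ?_
    have h2 := fin_card_class_mul σ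
    have h3 : (0 : ℝ) < Nat.card (Subgroup.centralizer {σ}) := by exact_mod_cast Nat.card_pos
    rw [div_eq_div_iff hG.ne' h3.ne', one_mul]
    exact_mod_cast h2

end Group

theorem fin_exists_min {ι : Type} (T : Finset ι) (s₀ : ι → ℝ) (h : ∀ i ∈ T, 1 < s₀ i) :
    ∃ s₁ : ℝ, 1 < s₁ ∧ s₁ ≤ 2 ∧ ∀ i ∈ T, s₁ ≤ s₀ i := by
  classical
  induction T using Finset.induction_on with
  | empty => exact ⟨2, by norm_num, le_refl _, fun i hi => absurd hi (Finset.notMem_empty i)⟩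
  | insert a T _ ih =>
    obtain ⟨s₁, h1, h2, h3⟩ := ih fun i hi => h i (Finset.mem_insert_of_mem hi)
    refine ⟨min s₁ (s₀ a), lt_min h1 (h a (Finset.mem_insert_self a T)),
      (min_le_left _ _).trans h2, fun i hi => ?_⟩
    rcases Finset.mem_insert.mp hi with rfl | hi
    · exact min_le_right _ _
    · exact (min_le_left _ _).trans (h3 i hi)

/-- **Chebotarev's density theorem** (lower density, conjugation stable sets), from the theorem
for one class. -/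
theorem stmtChebDensity_of (hCls : StmtChebClass) : StmtChebDensity := by
  classical
  intro F _ _ S C hC δ hδ
  have hNF : NumberField F := ⟨⟩
  obtain ⟨ι, hιC, hιconj, hcount⟩ := fin_card_class C hC
  have hcard : (0 : ℝ) < (ι.card : ℝ) + 1 := by positivity
  have hδ' : 0 < δ / ((ι.card : ℝ) + 1) := div_pos hδ hcard
  have h := fun σ : F ≃ₐ[ℚ] F => hCls F S σ (δ / ((ι.card : ℝ) + 1)) hδ'
  choose s₀ hs₀ hP using h
  obtain ⟨s₁, hs₁, hs₁2, hs₁le⟩ := fin_exists_min ι s₀ fun σ _ => hs₀ σ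
  refine ⟨s₁, hs₁, fun s hs hss => ?_⟩
  have hP' := fun σ (hσ : σ ∈ ι) => hP σ s hs (lt_of_lt_of_le hss (hs₁le σ hσ))
  choose! P hPprop hPsum using hP'
  have hL : 0 ≤ Real.log (1 / (s - 1)) := by
    apply Real.log_nonneg
    rw [le_div_iff₀ (by linarith)]
    linarith
  refine ⟨ι.biUnion P, ?_, ?_⟩
  · intro p hp
    obtain ⟨σ, hσ, hpσ⟩ := Finset.mem_biUnion.mp hp
    obtain ⟨hpp, hpS, hfrob⟩ := hPprop σ hσ p hpσ
    refine ⟨hpp, hpS, fun A hA τ hτ => ?_⟩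
    obtain ⟨g, hg⟩ := hfrob A hA τ hτ
    rw [hg]
    exact hC g σ (hιC σ hσ)
  · have hdisj : (ι : Set (F ≃ₐ[ℚ] F)).PairwiseDisjoint P := by
      intro σ hσ σ' hσ' hne
      rw [Function.onFun, Finset.disjoint_left]
      intro p hp hp'
      obtain ⟨hpp, -, hfrob⟩ := hPprop σ hσ p hp
      obtain ⟨-, -, hfrob'⟩ := hPprop σ' hσ' p hp'
      obtain ⟨A, τ, hA, hτ⟩ := Fermat.Agent.Common.exists_isFrobeniusAt p hpp
      obtain ⟨g, hg⟩ := hfrob A hA τ hτ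
      obtain ⟨g', hg'⟩ := hfrob' A hA τ hτ
      apply hne
      apply hιconj σ hσ σ' hσ'
      rw [isConj_iff]
      refine ⟨g'⁻¹ * g, ?_⟩
      have h1 : g * σ * g⁻¹ = g' * σ' * g'⁻¹ := hg.symm.trans hg'
      calc g'⁻¹ * g * σ * (g'⁻¹ * g)⁻¹ = g'⁻¹ * (g * σ * g⁻¹) * g' := by group
        _ = g'⁻¹ * (g' * σ' * g'⁻¹) * g' := by rw [h1]
        _ = σ' := by group
    rw [Finset.sum_biUnion hdisj]
    have h1 : ∑ σ ∈ ι, (1 / (Nat.card (Subgroup.centralizer {σ}) : ℝ) - δ / ((ι.card : ℝ) + 1)) *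
        Real.log (1 / (s - 1)) ≤ ∑ σ ∈ ι, ∑ p ∈ P σ, (p : ℝ) ^ (-s) :=
      Finset.sum_le_sum fun σ hσ => hPsum σ hσ
    refine le_trans ?_ h1
    rw [← Finset.sum_mul, Finset.sum_sub_distrib, ← hcount, Finset.sum_const, nsmul_eq_mul]
    apply mul_le_mul_of_nonneg_right _ hL
    have h2 : (ι.card : ℝ) * (δ / ((ι.card : ℝ) + 1)) ≤ δ := by
      rw [← mul_div_assoc, div_le_iff₀ hcard]
      nlinarith
    linarith

end Fermat.Agent.S48.CD


end ZBZ4S48_018_15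

/-! ### bundled: `Fermat.Agent.S48.CD.Main` -/
section ZBZ4S48_018_16
/-
S48/CD (helper61): Chebotarev's density theorem `Fermat.Agent.S48.StmtChebDensity`, assembled from
the pieces of `S48/CD/Plan.lean`.
-/

set_option autoImplicit false

namespace Fermat.Agent.S48.CD

/-- Dirichlet's theorem over a number field, for the norms modulo a prime. -/
theorem stmtDirichletE_holds : StmtDirichletE :=
  stmtDirichletE stmtNormL stmtEulerLog stmtArgBounded stmtSplitOne stmtNormRange stmtNormGen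

/-- Chebotarev for the elements of cyclotomic type. -/
theorem stmtChebCycT : StmtChebCycT :=
  stmtChebCycT_of stmtDirichletE_holds stmtFrobTransfer stmtFiberCount

/-- Chebotarev for one conjugacy class. -/
theorem stmtChebClass : StmtChebClass :=
  stmtChebClass_of stmtChebCycT stmtGlueConj stmtCycLift stmtGoodCount

/-- **Chebotarev's density theorem** (lower Dirichlet density, conjugation stable sets). -/
theorem stmtChebDensity : StmtChebDensity :=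
  stmtChebDensity_of stmtChebClass

end Fermat.Agent.S48.CD


end ZBZ4S48_018_16

/-! ### bundled: `Fermat.Agent.ES1.S48Glue` -/
section ZBZ4S48_018_17

/-!
# S48 from the G1 contract (captain helper78)

Everything else is proved: `S48.stmtE1`, `S48.CD.stmtChebDensity`, `ES1.es1int_stmtInt1`, the
glue `es1top_stmtES1_of_pkg`, TOP-b `es1b_pkg_of_unif`, and all the G2 clauses
(`ES1/G2/Final.lean` + `stmtSwapH`).

* `StmtG1Unif` : for every `M`, `θ`, `p` prime there are `H ≤ (ℤ/M)ˣ`, `Co`, `μ`, `ε` with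
  `ES1bUnifData M θ p (JH M M H) (es1g2T M M H) (es1Diamond M M H) (gammaH M M H)
    (es1g1opPar M M H) (es1g1Op M M H p _) Co μ ε`   — THE deliverable of G1;
* `es1pkg_of_g1 : StmtG1Unif → ES1Pkg M θ p`;
* `stmtES1_of_g1 : StmtG1Unif → S48.StmtES1`;
* `s48_of_g1 : StmtG1Unif → (the statement of S48)`.
-/

set_option autoImplicit false

noncomputable section

open CongruenceSubgroup
open scoped MatrixGroups

namespace Fermat.Agent.ES1

open Fermat.Agent.S48 Fermat.Agent.ES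

/-- the Eichler–Shimura package from the G1 contract -/
theorem es1pkg_of_g1 (h : StmtG1Unif) (M : ℕ) [NeZero M] (θ : DirichletCharacter ℂ M) (p : ℕ)
    (hp : p.Prime) : ES1Pkg M θ p := by
  haveI : Fact p.Prime := ⟨hp⟩
  obtain ⟨H, Co, _, μ, ε, hU⟩ := h M θ p
  have hM : M ≠ 0 := NeZero.ne M
  exact es1b_pkg_of_unif hU
    (fun σ ℓ _ x _ => G2.es1g2_final_galois_hecke σ ℓ x)
    (fun σ c x _ => G2.es1g2_final_galois_diamond hM dvd_rfl σ c x)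
    (fun x hx => G2.es1g2_final_finite_level hp.ne_zero x hx)
    (fun x _ => G2.es1g2_final_diamond_one x)
    (fun c d x _ => G2.es1g2_final_diamond_mul hM dvd_rfl c d x)
    (G2.es1g2_final_frob G2.stmtSwapH hM dvd_rfl p)
    (G2.es1g2_final_unram hM dvd_rfl p)

/-- `S48.StmtES1` from the G1 contract -/
theorem stmtES1_of_g1 (h : StmtG1Unif) : Fermat.Agent.S48.StmtES1 :=
  es1top_stmtES1_of_pkg fun M _ θ p hp => es1pkg_of_g1 h M θ p hp

/-- **S48 from the G1 contract.** -/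
theorem s48_of_g1 (h : StmtG1Unif)
    (N : ℕ) [NeZero N] (ε : DirichletCharacter ℂ N) (f : CuspForm (Gamma1 N) 1)
    (hf₁ : ModularFormClass.qCoeff f 1 = 1)
    (hT : ∀ p : ℕ, p.Prime → ¬ p ∣ N → ∀ n : ℕ,
        ModularFormClass.qCoeff f (p * n) +
            ε (p : ZMod N) * (if p ∣ n then ModularFormClass.qCoeff f (n / p) else 0) =
          ModularFormClass.qCoeff f p * ModularFormClass.qCoeff f n) :
    ∃ ρ : GalQ →* GL (Fin 2) ℂ, GaloisFactorsThroughFiniteLevel ρ ∧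
      (Deformation.matrixRepresentation ρ).IsIrreducible ∧
      ∀ p : ℕ, p.Prime → ¬ p ∣ N →
        ∀ A : ValuationSubring (AlgebraicClosure ℚ), A.LiesOverPrime p →
          (∀ σ ∈ A.inertiaSubgroupIn ℚ, ρ σ = 1) ∧
          ∀ σ : GalQ, A.IsFrobeniusAt σ p →
            ((ρ σ : GL (Fin 2) ℂ) : Matrix (Fin 2) (Fin 2) ℂ).trace = ModularFormClass.qCoeff f p ∧
            ((ρ σ : GL (Fin 2) ℂ) : Matrix (Fin 2) (Fin 2) ℂ).det = ε (p : ZMod N) :=
  s48_of_e1_es1_cd stmtE1 (stmtES1_of_g1 h) Fermat.Agent.S48.CD.stmtChebDensity N ε f hf₁ hT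

end Fermat.Agent.ES1

end
end ZBZ4S48_018_17
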