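/- GENERATED FILE (helper35, build-time optimisation, NOTES/ZB.md): verbatim concatenation of the modules
   Fermat.Agent.EC.Opr
   Do not edit; do not import together with these modules. -/
import Mathlib

/-! ### bundled: `Fermat.Agent.EC.Opr` -/
section ZBEC_012_0

/-!
# EC package, brick OPR (helper46): the integer-root trick

* `opr_exists_prime_dvd_eval` (Schur): a nonconstant `f ∈ ℤ[X]` has a root modulo a prime outside
  any given finite set;
* `opr_bezout`: `u f + v f' = d ≠ 0` over `ℤ` if `f` is separable over `ℚ`;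
* `opr_exists_padic_root`: such an `f` has a root in `ℤ_[p]` for some prime `p ∉ B` (Hensel);
* `opr_exists_hom`, `opr_exists_hom_subring`: for an algebraic integer `a : ℂ` and finite `B` there
  are a prime `lam ∉ B` and a ring homomorphism `ℤ[a] →+* ℤ_[lam]` (resp. from any subring of
  `ℤ[a]`); `opr_closure_le`: the subring generated by `a` and integers lies in `ℤ[a]`;
* `opr_eq_intCast_of_hom`: if a ring homomorphism `ι : R →+* ℤ_[lam]` (`R` a subring of `ℂ`) sends
  the algebraic integer `a ∈ R` to an integer `m`, then `a = m`;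
* `opr_intHom`, `opr_padicHom_of_int`: a subring of `ℂ` consisting of integers maps to `ℤ`, hence
  to every `ℤ_[lam]`.
-/

set_option autoImplicit false

open Polynomial

namespace Fermat.Agent.EC

/-- there is a prime outside any finite set -/
theorem opr_exists_prime_notMem (B : Finset ℕ) : ∃ p : ℕ, p.Prime ∧ p ∉ B := by
  obtain ⟨p, hp1, hp2⟩ := Nat.exists_infinite_primes (B.sup id + 1)
  refine ⟨p, hp2, fun h => ?_⟩
  have := Finset.le_sup (f := id) h
  simp only [id_eq] at this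
  omega

/-- Schur: a nonconstant integer polynomial has a root modulo infinitely many primes. -/
theorem opr_exists_prime_dvd_eval (f : ℤ[X]) (hf : f.natDegree ≠ 0) (B : Finset ℕ) :
    ∃ p : ℕ, p.Prime ∧ p ∉ B ∧ ∃ x : ℤ, (p : ℤ) ∣ f.eval x := by
  classical
  obtain ⟨c, hc⟩ : ∃ c, c = f.coeff 0 := ⟨_, rfl⟩
  by_cases hc0 : c = 0
  · obtain ⟨p, hp, hpB⟩ := opr_exists_prime_notMem B
    refine ⟨p, hp, hpB, 0, ?_⟩
    rw [← coeff_zero_eq_eval_zero, ← hc, hc0]
    exact dvd_zero _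
  obtain ⟨P, hP⟩ : ∃ P : ℤ, P = ∏ q ∈ B.filter Nat.Prime, (q : ℤ) := ⟨_, rfl⟩
  have hP0 : P ≠ 0 := by
    rw [hP, Finset.prod_ne_zero_iff]
    intro q hq
    have := (Finset.mem_filter.mp hq).2
    exact_mod_cast this.ne_zero
  obtain ⟨g, hg⟩ : ∃ g, g = f.divX := ⟨_, rfl⟩
  have hfg : f = g * X + C c := by rw [hg, hc]; exact (divX_mul_X_add f).symm
  have hg0 : g ≠ 0 := by
    intro h
    rw [hg, divX_eq_zero_iff] at h
    rw [h, natDegree_C] at hf
    exact hf rfl
  obtain ⟨L, hL⟩ : ∃ L : ℤ[X], L = C (c * P) * X := ⟨_, rfl⟩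
  obtain ⟨H, hH⟩ : ∃ H : ℤ[X], H = 1 + C P * X * g.comp L := ⟨_, rfl⟩
  have hcomp : g.comp L ≠ 0 := by
    intro h
    rcases comp_eq_zero_iff.mp h with h' | ⟨_, h'⟩
    · exact hg0 h'
    · have := congrArg (fun q : ℤ[X] => q.coeff 1) h'
      simp only [hL, coeff_C_mul, coeff_X_one, mul_one, coeff_C_succ] at this
      exact (mul_ne_zero hc0 hP0) this
  have hq : (H - 1) * (H + 1) ≠ 0 := by
    apply mul_ne_zero
    · rw [hH, add_sub_cancel_left]
      exact mul_ne_zero (mul_ne_zero (C_ne_zero.mpr hP0) X_ne_zero) hcomp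
    · intro h
      have := congrArg (eval 0) h
      simp [hH] at this
  obtain ⟨t, ht⟩ : ∃ t : ℤ, ((H - 1) * (H + 1)).eval t ≠ 0 := by
    by_contra hcon
    push Not at hcon
    exact hq (zero_of_eval_zero _ hcon)
  have hHt : H.eval t ≠ 1 ∧ H.eval t ≠ -1 := by
    rw [eval_mul] at ht
    constructor
    · intro h
      apply ht
      rw [eval_sub, h]
      simp
    · intro h
      apply ht
      rw [eval_add, h]
      simp
  have hHe : H.eval t = 1 + P * t * (g.comp L).eval t := by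
    rw [hH]
    simp
  have hfe : f.eval (c * P * t) = c * H.eval t := by
    rw [hHe, eval_comp, hL]
    conv_lhs => rw [hfg]
    simp only [eval_add, eval_mul, eval_C, eval_X]
    ring
  have hnat : (H.eval t).natAbs ≠ 1 := by
    intro h
    rcases Int.natAbs_eq (H.eval t) with h' | h'
    · rw [h] at h'
      exact hHt.1 (by simpa using h')
    · rw [h] at h'
      exact hHt.2 (by simpa using h')
  obtain ⟨q, hq, hqd⟩ := Nat.exists_prime_and_dvd hnat
  have hqd' : (q : ℤ) ∣ H.eval t := Int.natCast_dvd.mpr hqd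
  refine ⟨q, hq, ?_, c * P * t, ?_⟩
  · intro hqB
    have hqP : (q : ℤ) ∣ P := by
      rw [hP]
      exact Finset.dvd_prod_of_mem _ (Finset.mem_filter.mpr ⟨hqB, hq⟩)
    have h2 : (q : ℤ) ∣ P * t * (g.comp L).eval t :=
      Dvd.dvd.mul_right (Dvd.dvd.mul_right hqP _) _
    have h1 : (q : ℤ) ∣ 1 := by
      rw [hHe] at hqd'
      exact (Int.dvd_add_left h2).mp hqd'
    have := Int.eq_one_of_dvd_one (by positivity) h1
    exact hq.one_lt.ne' (by exact_mod_cast this)
  · rw [hfe]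
    exact Dvd.dvd.mul_left hqd' _

/-- Bezout identity over `ℤ` for a polynomial that is separable over `ℚ`. -/
theorem opr_bezout (f : ℤ[X]) (hsep : (f.map (Int.castRingHom ℚ)).Separable) :
    ∃ (d : ℤ) (u v : ℤ[X]), d ≠ 0 ∧ u * f + v * derivative f = C d := by
  obtain ⟨U, V, hUV⟩ := hsep
  obtain ⟨b₁, hb₁, hu⟩ := IsLocalization.integerNormalization_spec (nonZeroDivisors ℤ) U
  obtain ⟨b₂, hb₂, hv⟩ := IsLocalization.integerNormalization_spec (nonZeroDivisors ℤ) V
  obtain ⟨u, hu'⟩ : ∃ u, u = IsLocalization.integerNormalization (nonZeroDivisors ℤ) U :=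
    ⟨_, rfl⟩
  obtain ⟨v, hv'⟩ : ∃ v, v = IsLocalization.integerNormalization (nonZeroDivisors ℤ) V :=
    ⟨_, rfl⟩
  rw [← hu'] at hu
  rw [← hv'] at hv
  have h1 : b₁ ≠ 0 := nonZeroDivisors.ne_zero hb₁
  have h2 : b₂ ≠ 0 := nonZeroDivisors.ne_zero hb₂
  refine ⟨b₁ * b₂, C b₂ * u, C b₁ * v, mul_ne_zero h1 h2, ?_⟩
  apply Polynomial.map_injective (Int.castRingHom ℚ) Int.cast_injective
  have e : algebraMap ℤ ℚ = Int.castRingHom ℚ := rfl
  rw [e] at hu hv
  simp only [Polynomial.map_add, Polynomial.map_mul, map_C, ← derivative_map, hu, hv]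
  have hU : (b₁ • U : ℚ[X]) = C (b₁ : ℚ) * U := by
    rw [zsmul_eq_mul, Polynomial.C_eq_intCast]
  have hV : (b₂ • V : ℚ[X]) = C (b₂ : ℚ) * V := by
    rw [zsmul_eq_mul, Polynomial.C_eq_intCast]
  rw [hU, hV]
  simp only [eq_intCast, Int.cast_mul, C_mul]
  linear_combination (C (b₁ : ℚ) * C (b₂ : ℚ)) * hUV

/-- a nonconstant integer polynomial, separable over `ℚ`, has a root in `ℤ_[p]` for a prime
`p` outside any given finite set. -/
theorem opr_exists_padic_root (f : ℤ[X]) (hf : f.natDegree ≠ 0)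
    (hsep : (f.map (Int.castRingHom ℚ)).Separable) (B : Finset ℕ) :
    ∃ (p : ℕ) (_ : Fact p.Prime), p ∉ B ∧ ∃ z : ℤ_[p], aeval z f = 0 := by
  obtain ⟨d, u, v, hd, huv⟩ := opr_bezout f hsep
  obtain ⟨p, hp, hpB, x, hx⟩ := opr_exists_prime_dvd_eval f hf (B ∪ d.natAbs.primeFactors)
  have hpB' : p ∉ B := fun h => hpB (Finset.mem_union_left _ h)
  have hpd : ¬ (p : ℤ) ∣ d := by
    intro h
    apply hpB
    apply Finset.mem_union_right
    rw [Nat.mem_primeFactors]
    exact ⟨hp, Int.natCast_dvd.mp h, by simpa using hd⟩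
  have hder : ¬ (p : ℤ) ∣ (derivative f).eval x := by
    intro h
    apply hpd
    have := congrArg (eval x) huv
    simp only [eval_add, eval_mul, eval_C] at this
    rw [← this]
    exact dvd_add (Dvd.dvd.mul_left hx _) (Dvd.dvd.mul_left h _)
  have hfact : Fact p.Prime := ⟨hp⟩
  refine ⟨p, hfact, hpB', ?_⟩
  have hcast : ∀ q : ℤ[X], aeval (x : ℤ_[p]) q = ((q.eval x : ℤ) : ℤ_[p]) := by
    intro q
    have := Polynomial.aeval_algebraMap_apply ℤ_[p] x q
    simpa using this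
  have hn1 : ‖aeval (x : ℤ_[p]) f‖ < 1 := by
    rw [hcast]
    exact (PadicInt.norm_int_lt_one_iff_dvd _).mpr hx
  have hn2 : ‖aeval (x : ℤ_[p]) (derivative f)‖ = 1 := by
    rw [hcast]
    have := mt (PadicInt.norm_int_lt_one_iff_dvd _).mp hder
    exact le_antisymm (PadicInt.norm_le_one _) (not_lt.mp this)
  obtain ⟨z, hz, -⟩ := hensels_lemma (F := f) (a := (x : ℤ_[p]))
    (by rw [hn2]; simpa using hn1)
  exact ⟨z, hz⟩

/-- **OPR**: for an algebraic integer `a` there is a prime `lam` outside any given finite set and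
a ring homomorphism `ℤ[a] → ℤ_[lam]`. -/
theorem opr_exists_hom (a : ℂ) (ha : IsIntegral ℤ a) (B : Finset ℕ) :
    ∃ (lam : ℕ) (_ : Fact lam.Prime), lam ∉ B ∧
      Nonempty (Algebra.adjoin ℤ ({a} : Set ℂ) →+* ℤ_[lam]) := by
  have hf : (minpoly ℤ a).natDegree ≠ 0 := (minpoly.natDegree_pos ha).ne'
  have hsep : ((minpoly ℤ a).map (Int.castRingHom ℚ)).Separable := by
    have h1 : minpoly ℚ a = (minpoly ℤ a).map (algebraMap ℤ ℚ) :=
      minpoly.isIntegrallyClosed_eq_field_fractions' ℚ ha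
    have e : algebraMap ℤ ℚ = Int.castRingHom ℚ := rfl
    rw [← e, ← h1]
    exact (minpoly.irreducible ha.tower_top).separable
  obtain ⟨p, hp, hpB, z, hz⟩ := opr_exists_padic_root _ hf hsep B
  refine ⟨p, hp, hpB, ⟨?_⟩⟩
  exact ((AdjoinRoot.liftAlgHom (minpoly ℤ a) (Algebra.ofId ℤ ℤ_[p]) z hz).comp
    (minpoly.equivAdjoin ha).symm.toAlgHom).toRingHom

/-- the subring generated by `a` and integers lies in `ℤ[a]` -/
theorem opr_closure_le (a : ℂ) (G : Set ℂ) (hG : ∀ x ∈ G, x = a ∨ ∃ n : ℤ, (n : ℂ) = x) :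
    Subring.closure G ≤ (Algebra.adjoin ℤ ({a} : Set ℂ)).toSubring := by
  rw [Subring.closure_le]
  intro x hx
  rcases hG x hx with h | ⟨n, hn⟩
  · rw [h]
    exact Algebra.subset_adjoin (Set.mem_singleton a)
  · rw [← hn]
    exact intCast_mem _ n

/-- **OPR**, subring form. -/
theorem opr_exists_hom_subring (a : ℂ) (ha : IsIntegral ℤ a) (B : Finset ℕ) (R : Subring ℂ)
    (hR : R ≤ (Algebra.adjoin ℤ ({a} : Set ℂ)).toSubring) :
    ∃ (lam : ℕ) (_ : Fact lam.Prime), lam ∉ B ∧ Nonempty (R →+* ℤ_[lam]) := by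
  obtain ⟨lam, hlam, hB, ⟨ι⟩⟩ := opr_exists_hom a ha B
  exact ⟨lam, hlam, hB, ⟨ι.comp (Subring.inclusion hR)⟩⟩

/-- **integer-root trick**: if a ring homomorphism from a subring of `ℂ` to `ℤ_[lam]` sends the
algebraic integer `a` to the integer `m`, then `a = m`. -/
theorem opr_eq_intCast_of_hom {lam : ℕ} [Fact lam.Prime] (R : Subring ℂ) (a : ℂ) (haR : a ∈ R)
    (ha : IsIntegral ℤ a) (ι : R →+* ℤ_[lam]) (m : ℤ) (h : ι ⟨a, haR⟩ = (m : ℤ_[lam])) :
    a = (m : ℂ) := by
  have h0 : eval₂ (Int.castRingHom R) (⟨a, haR⟩ : R) (minpoly ℤ a) = 0 := by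
    apply Subtype.ext
    have h1 := Polynomial.hom_eval₂ (minpoly ℤ a) (Int.castRingHom R) R.subtype ⟨a, haR⟩
    have h2 : (R.subtype).comp (Int.castRingHom R) = algebraMap ℤ ℂ := by
      ext n; simp
    rw [h2] at h1
    have h3 : eval₂ (algebraMap ℤ ℂ) a (minpoly ℤ a) = 0 := minpoly.aeval ℤ a
    change R.subtype (eval₂ (Int.castRingHom R) ⟨a, haR⟩ (minpoly ℤ a)) = 0
    rw [h1]
    exact h3
  have h1 := congrArg ι h0
  rw [Polynomial.hom_eval₂, h, map_zero] at h1
  have h2 : ι.comp (Int.castRingHom R) = Int.castRingHom ℤ_[lam] := by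
    ext n; simp
  rw [h2] at h1
  have h3 : (((minpoly ℤ a).eval m : ℤ) : ℤ_[lam]) = 0 := by
    rw [← h1]
    have := Polynomial.hom_eval₂ (minpoly ℤ a) (RingHom.id ℤ) (Int.castRingHom ℤ_[lam]) m
    rw [eval₂_id, RingHom.comp_id] at this
    exact this
  have h4 : (minpoly ℤ a).eval m = 0 := by exact_mod_cast h3
  obtain ⟨g, hg⟩ := dvd_iff_isRoot.mpr (show (minpoly ℤ a).IsRoot m from h4)
  rcases (minpoly.irreducible ha).isUnit_or_isUnit hg with hu | hu
  · exact absurd hu (Polynomial.not_isUnit_X_sub_C m)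
  · obtain ⟨r, hr, hrg⟩ := Polynomial.isUnit_iff.mp hu
    have h5 := minpoly.aeval ℤ a
    rw [hg, ← hrg] at h5
    simp only [map_mul, map_sub, aeval_X, aeval_C] at h5
    simp only [eq_intCast] at h5
    rcases mul_eq_zero.mp h5 with h6 | h6
    · exact sub_eq_zero.mp h6
    · exfalso
      have : r = 0 := by exact_mod_cast h6
      rw [this] at hr
      exact not_isUnit_zero hr

/-- a subring of `ℂ` consisting of integers maps to `ℤ` -/
theorem opr_intHom (R : Subring ℂ) (hR : ∀ x ∈ R, ∃ n : ℤ, (n : ℂ) = x) :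
    ∃ ι : R →+* ℤ, ∀ x : R, ((ι x : ℤ) : ℂ) = x := by
  choose n hn using fun x : R => hR x x.2
  have hinj : Function.Injective (Int.cast : ℤ → ℂ) := Int.cast_injective
  refine ⟨{ toFun := n
            map_one' := hinj (by rw [hn]; simp)
            map_mul' := fun x y => hinj (by rw [Int.cast_mul, hn, hn, hn]; rfl)
            map_zero' := hinj (by rw [hn]; simp)
            map_add' := fun x y => hinj (by rw [Int.cast_add, hn, hn, hn]; rfl) }, hn⟩

/-- the integer case of OPR: any prime works -/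
theorem opr_padicHom_of_int (R : Subring ℂ) (hR : ∀ x ∈ R, ∃ n : ℤ, (n : ℂ) = x)
    (lam : ℕ) [Fact lam.Prime] :
    ∃ ι : R →+* ℤ_[lam], ∀ (x : R) (n : ℤ), (n : ℂ) = x → ι x = (n : ℤ_[lam]) := by
  obtain ⟨ι, hι⟩ := opr_intHom R hR
  refine ⟨(Int.castRingHom ℤ_[lam]).comp ι, fun x n hn => ?_⟩
  have : ι x = n := by
    have h1 := hι x
    rw [← hn] at h1
    exact_mod_cast h1
  simp [this]

end Fermat.Agent.EC


end ZBEC_012_0
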