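/- GENERATED FILE (helper35, build-time optimisation, NOTES/ZB.md): verbatim concatenation of the modules
   Fermat.Agent.INJ.ZariskiCore
   Fermat.Agent.INJ.Zariski
   Do not edit; do not import together with these modules. -/
import Mathlib
import Fermat.Agent.ZB.INJ_030

/-! ### bundled: `Fermat.Agent.INJ.ZariskiCore` -/
section ZBINJ_029_0

/-!
# (INJ) piece A6, core: Zariski connectedness by a torsion count

`A₀` a discrete valuation ring with uniformizer `π`, `B` a commutative `A₀`-algebra on which `π` is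
regular, `C₁ C₂ ⊆ B` two subalgebras ("charts", `B` = functions on the overlap) such that
* `C₁ ∩ C₂ = A₀` (global functions are constants);
* the `π`-power torsion of `B / (C₁ + C₂)` (= `H¹`) is killed by `π ^ N`.
Then for `n > N` every compatible pair of idempotents modulo `π ^ n` is trivial modulo `π`.
-/

set_option autoImplicit false

namespace Fermat.Agent.INJ

variable {A₀ : Type*} [CommRing A₀] [IsDomain A₀] [IsDiscreteValuationRing A₀]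
variable {B : Type*} [CommRing B] [Algebra A₀ B]

/-- In a DVR every element is divisible by `π ^ (N+1)` or divides `π ^ N`. -/
theorem dvr_dichotomy {π : A₀} (hπ : Irreducible π) (N : ℕ) (a : A₀) :
    (π ^ (N + 1) ∣ a) ∨ (a ∣ π ^ N) := by
  by_cases ha : a = 0
  · left; simp [ha]
  obtain ⟨k, hk⟩ := IsDiscreteValuationRing.associated_pow_irreducible ha hπ
  by_cases hkN : k ≤ N
  · right
    exact hk.dvd.trans (pow_dvd_pow π hkN)
  · left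
    exact (pow_dvd_pow π (by omega)).trans hk.symm.dvd

/-- cancellation of a power of a regular element -/
theorem pow_mul_cancel {p : B} (hreg : ∀ x : B, p * x = 0 → x = 0) (N : ℕ) {u v : B}
    (h : p ^ N * u = p ^ N * v) : u = v := by
  induction N with
  | zero => simpa using h
  | succ N ih =>
    apply ih
    have : p * (p ^ N * u - p ^ N * v) = 0 := by
      have h' : p ^ (N + 1) * u - p ^ (N + 1) * v = 0 := sub_eq_zero.mpr h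
      rw [← h']; ring
    exact sub_eq_zero.mp (hreg _ this)

/-- **Core of Zariski connectedness**, with the overlap ring `C₁₂` as a subalgebra of `B`
(so that `B` may be a field). -/
theorem zariski_core_mem {π : A₀} (hπ : Irreducible π)
    (hreg : ∀ x : B, algebraMap A₀ B π * x = 0 → x = 0)
    (C₁ C₂ C₁₂ : Subalgebra A₀ B)
    (hconst : ∀ z : B, z ∈ C₁ → z ∈ C₂ → ∃ a : A₀, algebraMap A₀ B a = z)
    (N : ℕ)
    (hbdd : ∀ (n : ℕ) (c : B), c ∈ C₁₂ →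
      (∃ x ∈ C₁, ∃ y ∈ C₂, algebraMap A₀ B π ^ n * c = x + y) →
        ∃ x ∈ C₁, ∃ y ∈ C₂, algebraMap A₀ B π ^ N * c = x + y)
    {n : ℕ} (hn : N < n)
    {e₁ e₂ c₁ c₂ c : B} (he₁ : e₁ ∈ C₁) (he₂ : e₂ ∈ C₂) (hc₁ : c₁ ∈ C₁) (hc₂ : c₂ ∈ C₂)
    (hc : c ∈ C₁₂)
    (hid₁ : e₁ * e₁ - e₁ = algebraMap A₀ B π ^ n * c₁)
    (hid₂ : e₂ * e₂ - e₂ = algebraMap A₀ B π ^ n * c₂)
    (hcomp : e₁ - e₂ = algebraMap A₀ B π ^ n * c) :
    (∃ y₁ ∈ C₁, ∃ y₂ ∈ C₂, e₁ = algebraMap A₀ B π * y₁ ∧ e₂ = algebraMap A₀ B π * y₂) ∨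
    (∃ y₁ ∈ C₁, ∃ y₂ ∈ C₂, e₁ - 1 = algebraMap A₀ B π * y₁ ∧
      e₂ - 1 = algebraMap A₀ B π * y₂) := by
  set p : B := algebraMap A₀ B π with hp
  have hpC₁ : p ∈ C₁ := C₁.algebraMap_mem π
  have hpC₂ : p ∈ C₂ := C₂.algebraMap_mem π
  -- step 1: the class of `c` in `H¹` is killed by `p ^ N`
  obtain ⟨x, hx, y, hy, hxy⟩ :=
    hbdd n c hc ⟨e₁, he₁, -e₂, C₂.neg_mem he₂, by rw [← hcomp]; ring⟩
  -- step 2: a global function
  have hz : p ^ N * e₁ - p ^ n * x = p ^ N * e₂ + p ^ n * y := by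
    have h1 : p ^ N * (e₁ - e₂) = p ^ n * (x + y) := by
      rw [hcomp, ← hxy]; ring
    have h2 : p ^ N * e₁ - p ^ n * x - (p ^ N * e₂ + p ^ n * y)
        = p ^ N * (e₁ - e₂) - p ^ n * (x + y) := by ring
    rw [← sub_eq_zero, h2, h1, sub_self]
  have hz₁ : p ^ N * e₁ - p ^ n * x ∈ C₁ :=
    C₁.sub_mem (C₁.mul_mem (C₁.pow_mem hpC₁ N) he₁) (C₁.mul_mem (C₁.pow_mem hpC₁ n) hx)
  have hz₂ : p ^ N * e₁ - p ^ n * x ∈ C₂ := by
    rw [hz]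
    exact C₂.add_mem (C₂.mul_mem (C₂.pow_mem hpC₂ N) he₂) (C₂.mul_mem (C₂.pow_mem hpC₂ n) hy)
  obtain ⟨a, ha⟩ := hconst _ hz₁ hz₂
  have ha₁ : p ^ N * e₁ = algebraMap A₀ B a + p ^ n * x := by rw [ha]; ring
  have ha₂ : p ^ N * e₂ = algebraMap A₀ B a - p ^ n * y := by rw [ha, hz]; ring
  obtain ⟨m, rfl⟩ : ∃ m, n = N + 1 + m := ⟨n - (N + 1), by omega⟩
  rcases dvr_dichotomy hπ N a with ⟨a', rfl⟩ | ⟨b, hb⟩
  · -- `a = π ^ (N+1) * a'`
    left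
    refine ⟨algebraMap A₀ B a' + p ^ m * x,
      C₁.add_mem (C₁.algebraMap_mem a') (C₁.mul_mem (C₁.pow_mem hpC₁ m) hx),
      algebraMap A₀ B a' - p ^ m * y,
      C₂.sub_mem (C₂.algebraMap_mem a') (C₂.mul_mem (C₂.pow_mem hpC₂ m) hy), ?_, ?_⟩
    · apply pow_mul_cancel hreg N
      rw [ha₁, map_mul, map_pow, ← hp]; ring
    · apply pow_mul_cancel hreg N
      rw [ha₂, map_mul, map_pow, ← hp]; ring
  · -- `π ^ N = a * b`
    right
    have hb' : p ^ N = algebraMap A₀ B a * algebraMap A₀ B b := by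
      rw [hp, ← map_pow, hb, map_mul]
    refine ⟨- (p ^ m * (algebraMap A₀ B b * (-(p ^ N * c₁) - x * (1 - e₁)))),
      C₁.neg_mem (C₁.mul_mem (C₁.pow_mem hpC₁ m) (C₁.mul_mem (C₁.algebraMap_mem b)
        (C₁.sub_mem (C₁.neg_mem (C₁.mul_mem (C₁.pow_mem hpC₁ N) hc₁))
          (C₁.mul_mem hx (C₁.sub_mem C₁.one_mem he₁))))),
      - (p ^ m * (algebraMap A₀ B b * (-(p ^ N * c₂) + y * (1 - e₂)))),
      C₂.neg_mem (C₂.mul_mem (C₂.pow_mem hpC₂ m) (C₂.mul_mem (C₂.algebraMap_mem b)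
        (C₂.add_mem (C₂.neg_mem (C₂.mul_mem (C₂.pow_mem hpC₂ N) hc₂))
          (C₂.mul_mem hy (C₂.sub_mem C₂.one_mem he₂))))), ?_, ?_⟩
    · apply pow_mul_cancel hreg N
      have key : algebraMap A₀ B a * (1 - e₁)
          = p ^ (N + 1 + m) * (-(p ^ N * c₁) - x * (1 - e₁)) := by
        have : algebraMap A₀ B a = p ^ N * e₁ - p ^ (N + 1 + m) * x := by rw [ha₁]; ring
        rw [this]
        have h3 : (p ^ N * e₁ - p ^ (N + 1 + m) * x) * (1 - e₁)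
            = - (p ^ N * (e₁ * e₁ - e₁)) - p ^ (N + 1 + m) * (x * (1 - e₁)) := by ring
        rw [h3, hid₁]; ring
      calc p ^ N * (e₁ - 1) = - (algebraMap A₀ B b * (algebraMap A₀ B a * (1 - e₁))) := by
            rw [hb']; ring
        _ = _ := by rw [key]; ring
    · apply pow_mul_cancel hreg N
      have key : algebraMap A₀ B a * (1 - e₂)
          = p ^ (N + 1 + m) * (-(p ^ N * c₂) + y * (1 - e₂)) := by
        have : algebraMap A₀ B a = p ^ N * e₂ + p ^ (N + 1 + m) * y := by rw [ha₂]; ring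
        rw [this]
        have h3 : (p ^ N * e₂ + p ^ (N + 1 + m) * y) * (1 - e₂)
            = - (p ^ N * (e₂ * e₂ - e₂)) + p ^ (N + 1 + m) * (y * (1 - e₂)) := by ring
        rw [h3, hid₂]; ring
      calc p ^ N * (e₂ - 1) = - (algebraMap A₀ B b * (algebraMap A₀ B a * (1 - e₂))) := by
            rw [hb']; ring
        _ = _ := by rw [key]; ring

/-- **Core of Zariski connectedness** (the case `C₁₂ = B`). -/
theorem zariski_core {π : A₀} (hπ : Irreducible π)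
    (hreg : ∀ x : B, algebraMap A₀ B π * x = 0 → x = 0)
    (C₁ C₂ : Subalgebra A₀ B)
    (hconst : ∀ z : B, z ∈ C₁ → z ∈ C₂ → ∃ a : A₀, algebraMap A₀ B a = z)
    (N : ℕ)
    (hbdd : ∀ (n : ℕ) (c : B), (∃ x ∈ C₁, ∃ y ∈ C₂, algebraMap A₀ B π ^ n * c = x + y) →
        ∃ x ∈ C₁, ∃ y ∈ C₂, algebraMap A₀ B π ^ N * c = x + y)
    {n : ℕ} (hn : N < n)
    {e₁ e₂ c₁ c₂ c : B} (he₁ : e₁ ∈ C₁) (he₂ : e₂ ∈ C₂) (hc₁ : c₁ ∈ C₁) (hc₂ : c₂ ∈ C₂)
    (hid₁ : e₁ * e₁ - e₁ = algebraMap A₀ B π ^ n * c₁)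
    (hid₂ : e₂ * e₂ - e₂ = algebraMap A₀ B π ^ n * c₂)
    (hcomp : e₁ - e₂ = algebraMap A₀ B π ^ n * c) :
    (∃ y₁ ∈ C₁, ∃ y₂ ∈ C₂, e₁ = algebraMap A₀ B π * y₁ ∧ e₂ = algebraMap A₀ B π * y₂) ∨
    (∃ y₁ ∈ C₁, ∃ y₂ ∈ C₂, e₁ - 1 = algebraMap A₀ B π * y₁ ∧
      e₂ - 1 = algebraMap A₀ B π * y₂) :=
  zariski_core_mem hπ hreg C₁ C₂ ⊤ hconst N (fun n c _ h => hbdd n c h) hn he₁ he₂ hc₁ hc₂
    Algebra.mem_top hid₁ hid₂ hcomp

end Fermat.Agent.INJ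


end ZBINJ_029_0

/-! ### bundled: `Fermat.Agent.INJ.Zariski` -/
section ZBINJ_029_1

/-!
# (INJ) piece A6: Zariski connectedness, element form

`zariski_connected`: `A₀` a DVR with uniformizer `π`, `B` a commutative `A₀`-algebra on which `π`
is regular (e.g. a field of characteristic `0`), `C₁ C₂ ≤ C₁₂` subalgebras of `B` with
* `C₁ ∩ C₂ = A₀`,
* the `π`-power torsion of `C₁₂ / (C₁ + C₂)` is bounded.
Then a pair `e₁ ∈ C₁`, `e₂ ∈ C₂` of idempotents modulo `π` which agree modulo `π C₁₂` is trivial: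
both are `≡ 0` or both are `≡ 1` modulo `π`.

The proof lifts the idempotents modulo `π ^ (N+1)` (Newton iteration `e ↦ 3e² - 2e³`), shows
that the lifts still agree on the overlap (uniqueness of idempotent lifts) and applies
`zariski_core_mem`.
-/

set_option autoImplicit false

namespace Fermat.Agent.INJ

/-- Newton iteration for idempotents: an idempotent modulo `p` lifts modulo `p ^ (n+1)`. -/
theorem idem_lift {R : Type*} [CommRing R] (p e c : R) (h : e * e - e = p * c) (n : ℕ) :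
    ∃ e' c' d : R, e' * e' - e' = p ^ (n + 1) * c' ∧ e' - e = p * d := by
  induction n with
  | zero => exact ⟨e, c, 0, by simpa using h, by simp⟩
  | succ n ih =>
    obtain ⟨e', c', d, h1, h2⟩ := ih
    refine ⟨3 * e' ^ 2 - 2 * e' ^ 3, p ^ n * c' ^ 2 * (4 * (e' * e' - e') - 3),
      d - p ^ n * c' * (2 * e' - 1), ?_, ?_⟩
    · have : (3 * e' ^ 2 - 2 * e' ^ 3) * (3 * e' ^ 2 - 2 * e' ^ 3) - (3 * e' ^ 2 - 2 * e' ^ 3)
          = (e' * e' - e') ^ 2 * (4 * (e' * e' - e') - 3) := by ring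
      rw [this, h1]; ring
    · have : 3 * e' ^ 2 - 2 * e' ^ 3 - e = (e' - e) - (e' * e' - e') * (2 * e' - 1) := by ring
      rw [this, h1, h2]; ring

/-- Uniqueness of idempotent lifts, element form. -/
theorem idem_unique {R : Type*} [CommRing R] (p a b α β δ : R) (n : ℕ)
    (ha : a * a - a = p ^ n * α) (hb : b * b - b = p ^ n * β) (hd : a - b = p * δ) :
    ∃ γ : R, a - b = p ^ n * γ := by
  -- `(a - b)^3 - (a - b) ∈ p^n R`
  have h3 : (a - b) ^ 3 - (a - b)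
      = p ^ n * (α * (1 + a - 3 * b) - β * (1 + b - 3 * a)) := by
    have : (a - b) ^ 3 - (a - b)
        = (a * a - a) * (1 + a - 3 * b) - (b * b - b) * (1 + b - 3 * a) := by ring
    rw [this, ha, hb]; ring
  have key : ∀ k : ℕ, k ≤ n → ∃ γ : R, a - b = p ^ k * γ := by
    intro k
    induction k with
    | zero => intro _; exact ⟨a - b, by simp⟩
    | succ k ih =>
      intro hk
      obtain ⟨γ, hγ⟩ := ih (by omega)
      obtain ⟨m, rfl⟩ : ∃ m, n = k + 1 + m := ⟨n - (k + 1), by omega⟩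
      refine ⟨γ * (p * δ ^ 2) - p ^ m * (α * (1 + a - 3 * b) - β * (1 + b - 3 * a)), ?_⟩
      have e1 : a - b = (a - b) ^ 3 - ((a - b) ^ 3 - (a - b)) := by ring
      have e2 : (a - b) ^ 3 = p ^ (k + 1) * (γ * (p * δ ^ 2)) := by
        calc (a - b) ^ 3 = (a - b) * ((a - b) * (a - b)) := by ring
          _ = (p ^ k * γ) * ((p * δ) * (p * δ)) := by rw [← hγ, ← hd]
          _ = _ := by ring
      rw [e1, h3, e2]; ring
  exact key n le_rfl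

variable {A₀ : Type*} [CommRing A₀]
variable {B : Type*} [CommRing B] [Algebra A₀ B]

/-- `idem_lift` inside a subalgebra. -/
theorem idem_lift_mem (C : Subalgebra A₀ B) (π : A₀) {e c : B} (he : e ∈ C) (hc : c ∈ C)
    (h : e * e - e = algebraMap A₀ B π * c) (n : ℕ) :
    ∃ e' ∈ C, ∃ c' ∈ C, ∃ d ∈ C,
      e' * e' - e' = algebraMap A₀ B π ^ (n + 1) * c' ∧ e' - e = algebraMap A₀ B π * d := by
  have h' : (⟨e, he⟩ : C) * ⟨e, he⟩ - ⟨e, he⟩ = algebraMap A₀ C π * ⟨c, hc⟩ := by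
    apply Subtype.ext
    simpa using h
  obtain ⟨e', c', d, h1, h2⟩ := idem_lift (algebraMap A₀ C π) ⟨e, he⟩ ⟨c, hc⟩ h' n
  refine ⟨e', e'.2, c', c'.2, d, d.2, ?_, ?_⟩
  · simpa using congrArg (Subtype.val) h1
  · simpa using congrArg (Subtype.val) h2

/-- `idem_unique` inside a subalgebra. -/
theorem idem_unique_mem (C : Subalgebra A₀ B) (π : A₀) {a b α β δ : B} (n : ℕ)
    (ha' : a ∈ C) (hb' : b ∈ C) (hα : α ∈ C) (hβ : β ∈ C) (hδ : δ ∈ C)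
    (ha : a * a - a = algebraMap A₀ B π ^ n * α) (hb : b * b - b = algebraMap A₀ B π ^ n * β)
    (hd : a - b = algebraMap A₀ B π * δ) :
    ∃ γ ∈ C, a - b = algebraMap A₀ B π ^ n * γ := by
  have h1 : (⟨a, ha'⟩ : C) * ⟨a, ha'⟩ - ⟨a, ha'⟩ = algebraMap A₀ C π ^ n * ⟨α, hα⟩ := by
    apply Subtype.ext
    simpa using ha
  have h2 : (⟨b, hb'⟩ : C) * ⟨b, hb'⟩ - ⟨b, hb'⟩ = algebraMap A₀ C π ^ n * ⟨β, hβ⟩ := by
    apply Subtype.ext
    simpa using hb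
  have h3 : (⟨a, ha'⟩ : C) - ⟨b, hb'⟩ = algebraMap A₀ C π * ⟨δ, hδ⟩ := by
    apply Subtype.ext
    simpa using hd
  obtain ⟨γ, hγ⟩ := idem_unique _ _ _ _ _ _ n h1 h2 h3
  exact ⟨γ, γ.2, by simpa using congrArg (Subtype.val) hγ⟩

/-- **Zariski connectedness (element form).** A compatible pair of idempotents modulo `π` on the
two charts is trivial. -/
theorem zariski_connected [IsDomain A₀] [IsDiscreteValuationRing A₀] {π : A₀} (hπ : Irreducible π)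
    (hreg : ∀ x : B, algebraMap A₀ B π * x = 0 → x = 0)
    (C₁ C₂ C₁₂ : Subalgebra A₀ B) (h₁ : C₁ ≤ C₁₂) (h₂ : C₂ ≤ C₁₂)
    (hconst : ∀ z : B, z ∈ C₁ → z ∈ C₂ → ∃ a : A₀, algebraMap A₀ B a = z)
    (hbdd : ∃ N : ℕ, ∀ (n : ℕ) (c : B), c ∈ C₁₂ →
      (∃ x ∈ C₁, ∃ y ∈ C₂, algebraMap A₀ B π ^ n * c = x + y) →
        ∃ x ∈ C₁, ∃ y ∈ C₂, algebraMap A₀ B π ^ N * c = x + y)
    {e₁ e₂ : B} (he₁ : e₁ ∈ C₁) (he₂ : e₂ ∈ C₂)
    (hid₁ : ∃ c₁ ∈ C₁, e₁ * e₁ - e₁ = algebraMap A₀ B π * c₁)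
    (hid₂ : ∃ c₂ ∈ C₂, e₂ * e₂ - e₂ = algebraMap A₀ B π * c₂)
    (hcomp : ∃ c ∈ C₁₂, e₁ - e₂ = algebraMap A₀ B π * c) :
    (∃ y₁ ∈ C₁, ∃ y₂ ∈ C₂, e₁ = algebraMap A₀ B π * y₁ ∧ e₂ = algebraMap A₀ B π * y₂) ∨
    (∃ y₁ ∈ C₁, ∃ y₂ ∈ C₂, e₁ - 1 = algebraMap A₀ B π * y₁ ∧
      e₂ - 1 = algebraMap A₀ B π * y₂) := by
  obtain ⟨N, hN⟩ := hbdd
  obtain ⟨c₁, hc₁, hid₁⟩ := hid₁
  obtain ⟨c₂, hc₂, hid₂⟩ := hid₂
  obtain ⟨c, hc, hcomp⟩ := hcomp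
  obtain ⟨f₁, hf₁, c₁', hc₁', d₁, hd₁, hf₁id, hf₁e⟩ := idem_lift_mem C₁ π he₁ hc₁ hid₁ N
  obtain ⟨f₂, hf₂, c₂', hc₂', d₂, hd₂, hf₂id, hf₂e⟩ := idem_lift_mem C₂ π he₂ hc₂ hid₂ N
  have hcomp' : f₁ - f₂ = algebraMap A₀ B π * (d₁ + c - d₂) := by
    have : f₁ - f₂ = (f₁ - e₁) + (e₁ - e₂) - (f₂ - e₂) := by ring
    rw [this, hf₁e, hcomp, hf₂e]; ring
  obtain ⟨γ, hγ, hγe⟩ := idem_unique_mem C₁₂ π (N + 1) (h₁ hf₁) (h₂ hf₂) (h₁ hc₁') (h₂ hc₂')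
    (C₁₂.sub_mem (C₁₂.add_mem (h₁ hd₁) hc) (h₂ hd₂)) hf₁id hf₂id hcomp'
  rcases zariski_core_mem hπ hreg C₁ C₂ C₁₂ hconst N hN (Nat.lt_succ_self N) hf₁ hf₂ hc₁' hc₂'
    hγ hf₁id hf₂id hγe with ⟨y₁, hy₁, y₂, hy₂, e1, e2⟩ | ⟨y₁, hy₁, y₂, hy₂, e1, e2⟩
  · left
    refine ⟨y₁ - d₁, C₁.sub_mem hy₁ hd₁, y₂ - d₂, C₂.sub_mem hy₂ hd₂, ?_, ?_⟩
    · have : e₁ = f₁ - (f₁ - e₁) := by ring
      rw [this, hf₁e, e1]; ring
    · have : e₂ = f₂ - (f₂ - e₂) := by ring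
      rw [this, hf₂e, e2]; ring
  · right
    refine ⟨y₁ - d₁, C₁.sub_mem hy₁ hd₁, y₂ - d₂, C₂.sub_mem hy₂ hd₂, ?_, ?_⟩
    · have : e₁ - 1 = (f₁ - 1) - (f₁ - e₁) := by ring
      rw [this, hf₁e, e1]; ring
    · have : e₂ - 1 = (f₂ - 1) - (f₂ - e₂) := by ring
      rw [this, hf₂e, e2]; ring

end Fermat.Agent.INJ


end ZBINJ_029_1
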