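/- GENERATED FILE (helper35, build-time optimisation, NOTES/ZB.md): verbatim concatenation of the modules
   Fermat.Agent.PT.G1.UnitFixed
   Do not edit; do not import together with these modules. -/
import Fermat.Agent.ZB.PT_006

/-! ### bundled: `Fermat.Agent.PT.G1.UnitFixed` -/
section ZBPT_063_0

/-!
# PT-G1, piece U-fix: the invariant `N`-units of a cyclic extension

For a cyclic Galois extension `L/K` with generator `σ`, the `σ`-invariant `N`-units of `L` are the
`N`-units of `K`; in particular the ranks agree.
-/

set_option autoImplicit false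

namespace Fermat.Agent.PT.G1

open NumberField

section

variable (N : ℕ) (K L : Type*) [Field K] [Field L] [Algebra K L]

/-- The inclusion of the `N`-units of `K` into the `N`-units of `L`. -/
def ufixHom : nUnits N K →* nUnits N L where
  toFun u := ⟨Units.map (algebraMap K L : K →* L) (u : Kˣ), by
    obtain ⟨k, h1, h2⟩ := u.2
    refine ⟨k, ?_, ?_⟩
    · have := h1.map (algebraMap K L).toIntAlgHom
      simpa using this
    · have := h2.map (algebraMap K L).toIntAlgHom
      simpa using this⟩
  map_one' := by ext; simp
  map_mul' u v := by ext; simp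

@[simp] theorem ufixHom_coe (u : nUnits N K) :
    (((ufixHom N K L u : nUnits N L) : Lˣ) : L) = algebraMap K L ((u : Kˣ) : K) := rfl

/-- The inclusion as a `ℤ`-linear map of the additive groups. -/
def ufixLin : Additive (nUnits N K) →ₗ[ℤ] Additive (nUnits N L) :=
  (MonoidHom.toAdditive (ufixHom N K L)).toIntLinearMap

theorem ufixLin_apply (u : Additive (nUnits N K)) :
    ufixLin N K L u = Additive.ofMul (ufixHom N K L (Additive.toMul u)) := rfl

theorem ufixLin_injective : Function.Injective (ufixLin N K L) := by
  intro u v h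
  have h1 : ufixHom N K L (Additive.toMul u) = ufixHom N K L (Additive.toMul v) := h
  have h2 : algebraMap K L (((Additive.toMul u : nUnits N K) : Kˣ) : K) =
      algebraMap K L (((Additive.toMul v : nUnits N K) : Kˣ) : K) := by
    rw [← ufixHom_coe, ← ufixHom_coe, h1]
  have h3 := (algebraMap K L).injective h2
  have h4 : (Additive.toMul u : nUnits N K) = Additive.toMul v := by
    ext
    exact h3
  exact h4

variable {N K L}

theorem ufix_mem_ker_iff (σ : L ≃+* L) (u : Additive (nUnits N L)) :
    u ∈ LinearMap.ker (nUnitsEnd N σ - 1) ↔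
      σ (((Additive.toMul u : nUnits N L) : Lˣ) : L) = (((Additive.toMul u : nUnits N L) : Lˣ) : L) := by
  rw [LinearMap.mem_ker, LinearMap.sub_apply, sub_eq_zero]
  constructor
  · intro h
    have h1 : nUnitsHom N σ (Additive.toMul u) = Additive.toMul u := h
    have h2 := congrArg (fun w : nUnits N L => ((w : Lˣ) : L)) h1
    exact h2
  · intro h
    have h1 : nUnitsHom N σ (Additive.toMul u) = Additive.toMul u := by
      ext
      exact h
    exact h1

end

/-- The range of the inclusion is the group of invariants. -/
theorem ufix_range_eq (K L : Type*) [Field K] [Field L] [Algebra K L]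
    [FiniteDimensional K L] [IsGalois K L] (σ : L ≃ₐ[K] L)
    (hσ : ∀ τ : L ≃ₐ[K] L, τ ∈ Subgroup.zpowers σ) (N : ℕ) :
    LinearMap.range (ufixLin N K L) = LinearMap.ker (nUnitsEnd N (σ : L ≃+* L) - 1) := by
  ext u
  rw [ufix_mem_ker_iff]
  constructor
  · rintro ⟨v, rfl⟩
    rw [ufixLin_apply]
    show σ (algebraMap K L _) = algebraMap K L _
    exact σ.commutes _
  · intro h
    have hσu : σ (((Additive.toMul u : nUnits N L) : Lˣ) : L) =
        (((Additive.toMul u : nUnits N L) : Lˣ) : L) := h
    set x : L := (((Additive.toMul u : nUnits N L) : Lˣ) : L) with hx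
    -- `x` is fixed by the whole Galois group
    have hfix : ∀ τ : L ≃ₐ[K] L, τ x = x := by
      intro τ
      obtain ⟨n, rfl⟩ := Subgroup.mem_zpowers_iff.mp (hσ τ)
      have hstab : σ ∈ MulAction.stabilizer (L ≃ₐ[K] L) x := by
        rw [MulAction.mem_stabilizer_iff]
        exact hσu
      have := Subgroup.zpow_mem _ hstab n
      rw [MulAction.mem_stabilizer_iff] at this
      exact this
    have hbot : x ∈ (⊥ : IntermediateField K L) := (IsGalois.mem_bot_iff_fixed x).mpr hfix
    obtain ⟨y, hy⟩ := IntermediateField.mem_bot.mp hbot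
    have hxne : x ≠ 0 := Units.ne_zero _
    have hyne : y ≠ 0 := by
      rintro rfl
      rw [map_zero] at hy
      exact hxne hy.symm
    -- the unit `y` of `K`
    let y' : Kˣ := Units.mk0 y hyne
    have hinv : algebraMap K L ((y'⁻¹ : Kˣ) : K) =
        ((((Additive.toMul u : nUnits N L) : Lˣ)⁻¹ : Lˣ) : L) := by
      rw [Units.val_inv_eq_inv_val, Units.val_inv_eq_inv_val, map_inv₀]
      congr 1
    have hmem : y' ∈ nUnits N K := by
      obtain ⟨k, h1, h2⟩ := (Additive.toMul u : nUnits N L).2
      refine ⟨k, ?_, ?_⟩
      · rw [← isIntegral_algebraMap_iff (algebraMap K L).injective]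
        have e : algebraMap K L ((N : K) ^ k * (y' : K)) =
            (N : L) ^ k * (((Additive.toMul u : nUnits N L) : Lˣ) : L) := by
          rw [map_mul, map_pow, map_natCast]
          congr 1
        rw [e]
        exact h1
      · rw [← isIntegral_algebraMap_iff (algebraMap K L).injective]
        have e : algebraMap K L ((N : K) ^ k * ((y'⁻¹ : Kˣ) : K)) =
            (N : L) ^ k * ((((Additive.toMul u : nUnits N L) : Lˣ)⁻¹ : Lˣ) : L) := by
          rw [map_mul, map_pow, map_natCast, hinv]
        rw [e]
        exact h2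
    refine ⟨Additive.ofMul ⟨y', hmem⟩, ?_⟩
    rw [ufixLin_apply]
    have : ufixHom N K L ⟨y', hmem⟩ = Additive.toMul u := by
      ext
      exact hy
    rw [toMul_ofMul, this]
    rfl

/-- **U-fix.** -/
theorem stmtUnitFixed : StmtUnitFixed := by
  intro K L _ _ _ _ _ _ σ hσ N _
  rw [← ufix_range_eq K L σ hσ N]
  exact (LinearEquiv.finrank_eq (LinearEquiv.ofInjective (ufixLin N K L)
    (ufixLin_injective N K L))).symm

end Fermat.Agent.PT.G1


end ZBPT_063_0
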