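/- GENERATED FILE (helper35, build-time optimisation, NOTES/ZB.md): verbatim concatenation of the modules
   Fermat.Agent.PT.X.SplitIdeleAlg
   Fermat.Agent.PT.X.SplitIdele
   Do not edit; do not import together with these modules. -/
import Mathlib
import Fermat.Agent.ZB.PT_023

/-! ### bundled: `Fermat.Agent.PT.X.SplitIdeleAlg` -/
section ZBPT_077_0

/-!
# PT-X / X-SPL, pure algebra (helper79)

* `spl_exists_bijective`: characters of a finite group with values in `ℤ/p` which separate the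
  points contain a family `φ₁, …, φ_r` with `σ ↦ (φ_i σ)_i` bijective onto `(ℤ/p)^r`.
* `spl_exists_idempotent`: Kummer elements `θ_i` (`θ_i^p = 1`, `σ θ_i = ζ^{k_i(σ)} θ_i`, `k`
  bijective) give `e` whose conjugates are orthogonal with sum `1`.
* `spl_prod_eq`: then `∏_σ σ(1 + (y - 1) e) = y` for every `G`-fixed `y`.
-/

set_option autoImplicit false

namespace Fermat.Agent.PT.X

open Finset

section greedy

variable {p : ℕ} [Fact p.Prime] {G : Type*} [Group G] [Finite G]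

/-- an element `≠ 1` of `Multiplicative (ZMod p)` generates -/
lemma spl_zmod_generates (c t : Multiplicative (ZMod p)) (hc : c ≠ 1) : ∃ n : ℕ, c ^ n = t := by
  have hc0 : Multiplicative.toAdd c ≠ 0 := fun h => hc (by
    apply Multiplicative.toAdd.injective
    rw [h]; rfl)
  refine ⟨(Multiplicative.toAdd t * (Multiplicative.toAdd c)⁻¹).val, ?_⟩
  apply Multiplicative.toAdd.injective
  rw [toAdd_pow, nsmul_eq_mul, ZMod.natCast_val, ZMod.cast_id', id, mul_assoc,
    inv_mul_cancel₀ hc0, mul_one]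

/-- **Greedy selection of independent characters.** -/
theorem spl_exists_bijective (F : Set (G →* Multiplicative (ZMod p)))
    (hF : ∀ σ : G, (∀ f ∈ F, f σ = 1) → σ = 1) :
    ∃ (r : ℕ) (φ : Fin r → (G →* Multiplicative (ZMod p))), (∀ i, φ i ∈ F) ∧
      Function.Bijective (fun (σ : G) (i : Fin r) => φ i σ) := by
  classical
  -- induction on the size of the joint kernel
  suffices H : ∀ (n : ℕ) (r : ℕ) (φ : Fin r → (G →* Multiplicative (ZMod p))),
      (∀ i, φ i ∈ F) → Function.Surjective (fun (σ : G) (i : Fin r) => φ i σ) →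
      Set.ncard {σ : G | ∀ i, φ i σ = 1} ≤ n →
      ∃ (r' : ℕ) (φ' : Fin r' → (G →* Multiplicative (ZMod p))), (∀ i, φ' i ∈ F) ∧
        Function.Bijective (fun (σ : G) (i : Fin r') => φ' i σ) by
    refine H _ 0 (fun i => i.elim0) (fun i => i.elim0) ?_ le_rfl
    intro t
    exact ⟨1, funext fun i => i.elim0⟩
  intro n
  induction n with
  | zero =>
    intro r φ _ _ hcard
    exfalso
    have : 0 < Set.ncard {σ : G | ∀ i, φ i σ = 1} :=
      (Set.ncard_pos (Set.toFinite _)).2 ⟨1, fun i => map_one _⟩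
    omega
  | succ n ih =>
    intro r φ hφF hsurj hcard
    by_cases hker : ∀ σ : G, (∀ i, φ i σ = 1) → σ = 1
    · -- trivial joint kernel: bijective
      refine ⟨r, φ, hφF, ?_, hsurj⟩
      intro σ τ hστ
      have h1 : ∀ i, φ i (σ * τ⁻¹) = 1 := fun i => by
        have := congrFun hστ i
        simp only at this
        rw [map_mul, map_inv, this, mul_inv_cancel]
      have := hker _ h1
      exact mul_inv_eq_one.1 this
    · obtain ⟨σ₀, hσ₀'⟩ := not_forall.1 hker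
      obtain ⟨hσ₀, hσ₀1⟩ := Classical.not_imp.1 hσ₀'
      obtain ⟨f, hfF, hfσ₀⟩ : ∃ f ∈ F, f σ₀ ≠ 1 := by
        by_contra hcon
        refine hσ₀1 (hF σ₀ fun f hf => ?_)
        by_contra h1
        exact hcon ⟨f, hf, h1⟩
      refine ih (r + 1) (Fin.snoc φ f) ?_ ?_ ?_
      · intro i
        refine Fin.lastCases ?_ (fun j => ?_) i
        · rw [Fin.snoc_last]; exact hfF
        · rw [Fin.snoc_castSucc]; exact hφF j
      · intro t
        obtain ⟨σ, hσ⟩ := hsurj (fun j => t j.castSucc)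
        obtain ⟨m, hm⟩ := spl_zmod_generates (f σ₀) (t (Fin.last r) * (f σ)⁻¹) hfσ₀
        refine ⟨σ * σ₀ ^ m, funext fun i => ?_⟩
        refine Fin.lastCases ?_ (fun j => ?_) i
        · simp only [Fin.snoc_last]
          rw [map_mul, map_pow, hm, mul_comm, inv_mul_cancel_right]
        · simp only [Fin.snoc_castSucc]
          rw [map_mul, map_pow, hσ₀ j, one_pow, mul_one]
          exact congrFun hσ j
      · -- the kernel shrinks
        have hlt : Set.ncard {σ : G | ∀ i, (Fin.snoc φ f : Fin (r + 1) → _) i σ = 1} <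
            Set.ncard {σ : G | ∀ i, φ i σ = 1} := by
          refine Set.ncard_lt_ncard ⟨fun x hx j => ?_, fun hsub => ?_⟩ (Set.toFinite _)
          · have := hx j.castSucc
            rwa [Fin.snoc_castSucc] at this
          · have h2 := hsub hσ₀ (Fin.last r)
            rw [Fin.snoc_last] at h2
            exact hfσ₀ h2
        omega

end greedy

section idem

variable {B : Type*} [CommRing B] {K : Type*} [Field K] (ι₀ : K →+* B) (p : ℕ)

/-- the geometric sum `∑_{m < p} u ^ m` -/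
def splS (u : B) : B := ∑ m ∈ range p, u ^ m

variable {p}

lemma splS_mul {u : B} (hu : u ^ p = 1) : u * splS p u = splS p u := by
  have h := mul_geom_sum u p
  rw [hu, sub_self, sub_mul, one_mul, sub_eq_zero] at h
  exact h

lemma splS_pow_mul {u : B} (hu : u ^ p = 1) (m : ℕ) : u ^ m * splS p u = splS p u := by
  induction m with
  | zero => rw [pow_zero, one_mul]
  | succ m ih => rw [pow_succ, mul_assoc, splS_mul hu, ih]

lemma spl_geom_field {x : K} (hx : x ^ p = 1) (hx1 : x ≠ 1) : ∑ m ∈ range p, x ^ m = 0 := by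
  have h := mul_geom_sum x p
  rw [hx, sub_self] at h
  rcases mul_eq_zero.1 h with h | h
  · exact absurd (sub_eq_zero.1 h) hx1
  · exact h

variable (p) in
/-- the idempotent `E_θ(x) = (1/p) ∑_{m<p} (x θ)^m` -/
def splE (θ : B) (x : K) : B := ι₀ ((p : K)⁻¹) * splS p (ι₀ x * θ)

lemma splS_mul_splS {u w : B} (hu : u ^ p = 1) :
    splS p (w * u) * splS p u = splS p w * splS p u := by
  change (∑ m ∈ range p, (w * u) ^ m) * splS p u = (∑ m ∈ range p, w ^ m) * splS p u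
  rw [Finset.sum_mul, Finset.sum_mul]
  refine Finset.sum_congr rfl fun m _ => ?_
  rw [mul_pow, mul_assoc, splS_pow_mul hu]

lemma splS_one : splS p (1 : B) = (p : B) := by
  simp [splS]

lemma splE_mul_self (hp : (p : K) ≠ 0) {θ : B} (hθ : θ ^ p = 1) {x : K} (hx : x ^ p = 1) :
    splE ι₀ p θ x * splE ι₀ p θ x = splE ι₀ p θ x := by
  have hu : (ι₀ x * θ) ^ p = 1 := by rw [mul_pow, ← map_pow, hx, map_one, hθ, one_mul]
  have h1 : splS p (ι₀ x * θ) * splS p (ι₀ x * θ) = (p : B) * splS p (ι₀ x * θ) := by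
    have := splS_mul_splS (w := (1 : B)) hu
    rw [one_mul, splS_one] at this
    exact this
  have h2 : ι₀ ((p : K)⁻¹) * (p : B) = 1 := by
    rw [← map_natCast ι₀, ← map_mul, inv_mul_cancel₀ hp, map_one]
  unfold splE
  calc ι₀ ((p : K)⁻¹) * splS p (ι₀ x * θ) * (ι₀ ((p : K)⁻¹) * splS p (ι₀ x * θ))
      = ι₀ ((p : K)⁻¹) * ι₀ ((p : K)⁻¹) * (splS p (ι₀ x * θ) * splS p (ι₀ x * θ)) := by ring
    _ = ι₀ ((p : K)⁻¹) * (ι₀ ((p : K)⁻¹) * (p : B)) * splS p (ι₀ x * θ) := by rw [h1]; ring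
    _ = _ := by rw [h2, mul_one]

lemma splE_mul_of_ne {θ : B} (hθ : θ ^ p = 1) {x x' : K} (hx : x ^ p = 1)
    (hx' : x' ^ p = 1) (hne : x ≠ x') : splE ι₀ p θ x * splE ι₀ p θ x' = 0 := by
  have hu : (ι₀ x * θ) ^ p = 1 := by rw [mul_pow, ← map_pow, hx, map_one, hθ, one_mul]
  by_cases hp0 : p = 0
  · subst hp0
    simp [splE, splS]
  have hx0 : x ≠ 0 := by
    rintro rfl
    rw [zero_pow hp0] at hx
    exact zero_ne_one hx
  have hw : (x' * x⁻¹) ^ p = 1 := by rw [mul_pow, inv_pow, hx, hx', inv_one, mul_one]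
  have hw1 : x' * x⁻¹ ≠ 1 := fun h => hne (by
    have := congrArg (· * x) h
    simp only [inv_mul_cancel_right₀ hx0, one_mul] at this
    exact this.symm)
  have h0 : splS p (ι₀ (x' * x⁻¹)) = 0 := by
    unfold splS
    simp only [← map_pow]
    rw [← map_sum, spl_geom_field hw hw1, map_zero]
  have h1 : ι₀ x' * θ = ι₀ (x' * x⁻¹) * (ι₀ x * θ) := by
    rw [← mul_assoc, ← map_mul, inv_mul_cancel_right₀ hx0]
  have h2 : splS p (ι₀ x' * θ) * splS p (ι₀ x * θ) = 0 := by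
    rw [h1, splS_mul_splS hu, h0, zero_mul]
  unfold splE
  calc ι₀ ((p : K)⁻¹) * splS p (ι₀ x * θ) * (ι₀ ((p : K)⁻¹) * splS p (ι₀ x' * θ))
      = ι₀ ((p : K)⁻¹) * ι₀ ((p : K)⁻¹) * (splS p (ι₀ x' * θ) * splS p (ι₀ x * θ)) := by ring
    _ = 0 := by rw [h2, mul_zero]

/-- the sum of the `E_θ(ζ^c)` is `1` -/
lemma splE_sum [NeZero p] (hp : (p : K) ≠ 0) {ζ : K} (hζ : IsPrimitiveRoot ζ p) (θ : B) :
    ∑ c : ZMod p, splE ι₀ p θ (ζ ^ c.val) = 1 := by
  have hp0 : p ≠ 0 := NeZero.ne p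
  -- sums over `ZMod p` are sums over `range p`
  have hconv : ∀ g : ℕ → B, ∑ c : ZMod p, g c.val = ∑ j ∈ range p, g j := by
    intro g
    refine Finset.sum_bij (fun c _ => c.val) (fun c _ => mem_range.2 (ZMod.val_lt c))
      (fun a _ b _ h => ZMod.val_injective p h) (fun j hj => ?_) (fun _ _ => rfl)
    exact ⟨(j : ZMod p), mem_univ _, ZMod.val_natCast_of_lt (mem_range.1 hj)⟩
  unfold splE splS
  rw [← Finset.mul_sum, hconv (fun j => ∑ m ∈ range p, (ι₀ (ζ ^ j) * θ) ^ m), Finset.sum_comm]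
  have hm : ∀ m ∈ range p, ∑ j ∈ range p, (ι₀ (ζ ^ j) * θ) ^ m =
      if m = 0 then (p : B) else 0 := by
    intro m hm
    have h1 : ∑ j ∈ range p, (ι₀ (ζ ^ j) * θ) ^ m =
        ι₀ (∑ j ∈ range p, (ζ ^ m) ^ j) * θ ^ m := by
      rw [map_sum, Finset.sum_mul]
      refine Finset.sum_congr rfl fun j _ => ?_
      rw [mul_pow, ← map_pow, ← pow_mul, ← pow_mul, mul_comm j m]
    rw [h1]
    split_ifs with h0
    · subst h0
      simp
    · have hne : ζ ^ m ≠ 1 :=
        hζ.pow_ne_one_of_pos_of_lt h0 (mem_range.1 hm)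
      have hpw : (ζ ^ m) ^ p = 1 := by rw [← pow_mul, mul_comm, pow_mul, hζ.pow_eq_one, one_pow]
      rw [spl_geom_field hpw hne, map_zero, zero_mul]
  rw [Finset.sum_congr rfl hm, Finset.sum_ite_eq' (range p) 0 (fun _ => (p : B)),
    if_pos (mem_range.2 (Nat.pos_of_ne_zero hp0)), ← map_natCast ι₀, ← map_mul,
    inv_mul_cancel₀ hp, map_one]

/-- the action of `σ` on `E_θ(x)` -/
lemma splE_map (f : B →+* B) (hf : ∀ x : K, f (ι₀ x) = ι₀ x) {θ : B} {c : K}
    (hθ : f θ = ι₀ c * θ) (x : K) : f (splE ι₀ p θ x) = splE ι₀ p θ (x * c) := by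
  unfold splE splS
  rw [map_mul, hf, map_sum]
  congr 1
  refine Finset.sum_congr rfl fun m _ => ?_
  rw [map_pow, map_mul, hf, hθ, map_mul, mul_assoc]

end idem

section main

variable {B : Type*} [CommRing B] {K : Type*} [Field K] (ι₀ : K →+* B) {p : ℕ} [Fact p.Prime]
  {G : Type*} [Fintype G]

/-- **The orthogonal idempotents of a split Kummer algebra.** -/
theorem spl_exists_idempotent {ζ : K} (hζ : IsPrimitiveRoot ζ p) (hpK : (p : K) ≠ 0)
    (act : G → B →+* B)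
    (hact : ∀ (σ : G) (x : K), act σ (ι₀ x) = ι₀ x) (r : ℕ) (θ : Fin r → B)
    (hθ : ∀ i, θ i ^ p = 1) (k : G → Fin r → ZMod p) (hk : Function.Bijective k)
    (hθk : ∀ σ i, act σ (θ i) = ι₀ (ζ ^ (k σ i).val) * θ i) :
    ∃ e : B, (∀ σ τ : G, σ ≠ τ → act σ e * act τ e = 0) ∧ ∑ σ : G, act σ e = 1 := by
  classical
  have hp : p.Prime := Fact.out
  have : NeZero p := ⟨hp.ne_zero⟩
  -- the idempotents `e_κ`
  let eκ : (Fin r → ZMod p) → B := fun κ => ∏ i, splE ι₀ p (θ i) (ζ ^ (κ i).val)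
  have hzp : ∀ c : ZMod p, (ζ ^ c.val) ^ p = 1 := fun c => by
    rw [← pow_mul, mul_comm, pow_mul, hζ.pow_eq_one, one_pow]
  have hzinj : ∀ c c' : ZMod p, ζ ^ c.val = ζ ^ c'.val → c = c' := fun c c' h =>
    ZMod.val_injective p (hζ.pow_inj (ZMod.val_lt c) (ZMod.val_lt c') h)
  have horth : ∀ κ κ' : Fin r → ZMod p, κ ≠ κ' → eκ κ * eκ κ' = 0 := by
    intro κ κ' hne
    obtain ⟨i, hi⟩ := Function.ne_iff.1 hne
    change (∏ i, splE ι₀ p (θ i) (ζ ^ (κ i).val)) * ∏ i, splE ι₀ p (θ i) (ζ ^ (κ' i).val) = 0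
    rw [← Finset.prod_mul_distrib]
    refine Finset.prod_eq_zero (mem_univ i) ?_
    exact splE_mul_of_ne ι₀ (hθ i) (hzp _) (hzp _) fun h => hi (hzinj _ _ h)
  have hsum : ∑ κ : Fin r → ZMod p, eκ κ = 1 := by
    have h1 := Finset.prod_univ_sum (fun _ : Fin r => (Finset.univ : Finset (ZMod p)))
      (fun i c => splE ι₀ p (θ i) (ζ ^ c.val))
    rw [Fintype.piFinset_univ] at h1
    rw [← h1]
    exact Finset.prod_eq_one fun i _ => splE_sum ι₀ hpK hζ (θ i)
  have hmap : ∀ σ : G, act σ (eκ 0) = eκ (k σ) := by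
    intro σ
    change act σ (∏ i, splE ι₀ p (θ i) (ζ ^ ((0 : Fin r → ZMod p) i).val)) = _
    rw [map_prod]
    refine Finset.prod_congr rfl fun i _ => ?_
    rw [splE_map ι₀ (act σ) (hact σ) (hθk σ i)]
    simp
  refine ⟨eκ 0, fun σ τ hne => ?_, ?_⟩
  · rw [hmap, hmap]
    exact horth _ _ fun h => hne (hk.1 h)
  · rw [Finset.sum_congr rfl fun σ _ => hmap σ]
    rw [← hsum]
    exact Function.Bijective.sum_comp hk eκ

/-- the product of the conjugates of `1 + (y - 1) e` -/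
theorem spl_prod_eq (act : G → B →+* B) (e : B)
    (horth : ∀ σ τ : G, σ ≠ τ → act σ e * act τ e = 0) (hsum : ∑ σ : G, act σ e = 1)
    (y : B) (hy : ∀ σ, act σ y = y) : ∏ σ : G, act σ (1 + (y - 1) * e) = y := by
  classical
  have key : ∀ s : Finset G, ∏ σ ∈ s, (1 + (y - 1) * act σ e) =
      1 + (y - 1) * ∑ σ ∈ s, act σ e := by
    intro s
    induction s using Finset.induction_on with
    | empty => simp
    | insert a s ha ih =>
      rw [Finset.prod_insert ha, Finset.sum_insert ha, ih]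
      have h0 : act a e * ∑ σ ∈ s, act σ e = 0 := by
        rw [Finset.mul_sum]
        refine Finset.sum_eq_zero fun σ hσ => ?_
        exact horth a σ fun h => ha (h ▸ hσ)
      calc (1 + (y - 1) * act a e) * (1 + (y - 1) * ∑ σ ∈ s, act σ e)
          = 1 + (y - 1) * (act a e + ∑ σ ∈ s, act σ e) +
            (y - 1) * (y - 1) * (act a e * ∑ σ ∈ s, act σ e) := by ring
        _ = _ := by rw [h0, mul_zero, add_zero]
  have h1 : ∀ σ : G, act σ (1 + (y - 1) * e) = 1 + (y - 1) * act σ e := fun σ => by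
    rw [map_add, map_mul, map_sub, map_one, hy]
  rw [Finset.prod_congr rfl fun σ _ => h1 σ, key, hsum]
  ring

/-- `e` is idempotent -/
theorem spl_idem (act : G → B →+* B) (e : B) (σ₀ : G) (h₀ : act σ₀ e = e)
    (horth : ∀ σ τ : G, σ ≠ τ → act σ e * act τ e = 0) (hsum : ∑ σ : G, act σ e = 1) :
    e * e = e := by
  classical
  have h1 : e * ∑ σ : G, act σ e = e := by rw [hsum, mul_one]
  rw [Finset.mul_sum, Finset.sum_eq_single σ₀] at h1
  · rwa [h₀] at h1
  · intro σ _ hσ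
    have := horth σ₀ σ (Ne.symm hσ)
    rwa [h₀] at this
  · intro h
    exact absurd (mem_univ σ₀) h

end main

end Fermat.Agent.PT.X


end ZBPT_077_0

/-! ### bundled: `Fermat.Agent.PT.X.SplitIdele` -/
section ZBPT_077_1

/-!
# PT-X / X-SPL (helper79): every idèle of `K` is a norm from `L = K(W^{1/p})`, `W ≤ V_loc`

`theorem stmtSplitIdele : StmtSplitIdele`.

For `q ∈ S` the algebra `B = ℚ_q ⊗ L` contains `θ_i = (1 ⊗ β_i) / b_i` (`β_i^p = a_i ∈ W`,
`a_i = b_i^p` in `ℚ_q ⊗ K`) with `θ_i^p = 1`, `σ θ_i = ⟨σ, a_i⟩ θ_i`; for `a_1, …, a_r ∈ W` with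
`σ ↦ (⟨σ, a_i⟩)_i` bijective onto `μ_p^r` (SplitIdeleAlg.lean: `spl_exists_bijective`) these give an
idempotent `e` with orthogonal conjugates of sum `1`, and `j' = 1 + (j - 1) e` has norm `j`.
-/

set_option autoImplicit false
set_option linter.unusedSectionVars false

namespace Fermat.Agent.PT.X

open NumberField Fermat.Agent.PT.G Fermat.Agent.PT.G1 TensorProduct

section expo

variable {p : ℕ} [Fact p.Prime] {K : Type*} [Field K] {ζ : K}

lemma spl_exists_exp (hζ : IsPrimitiveRoot ζ p) {c : K} (hc : c ^ p = 1) :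
    ∃ x : ZMod p, ζ ^ x.val = c := by
  obtain ⟨i, hi, h⟩ := hζ.eq_pow_of_pow_eq_one hc
  refine ⟨(i : ZMod p), ?_⟩
  rw [ZMod.val_natCast, Nat.mod_eq_of_lt hi, h]

lemma spl_exp_inj (hζ : IsPrimitiveRoot ζ p) {x y : ZMod p} (h : ζ ^ x.val = ζ ^ y.val) :
    x = y :=
  ZMod.val_injective p (hζ.pow_inj (ZMod.val_lt x) (ZMod.val_lt y) h)

lemma spl_exp_add (hζ : IsPrimitiveRoot ζ p) (x y : ZMod p) :
    ζ ^ (x + y).val = ζ ^ x.val * ζ ^ y.val := by
  rw [ZMod.val_add, ← pow_add, ← pow_eq_pow_mod _ hζ.pow_eq_one]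

open Classical in
/-- the exponent of a `p`-th root of unity with respect to `ζ` -/
noncomputable def splExp (hζ : IsPrimitiveRoot ζ p) (c : K) : ZMod p :=
  if hc : c ^ p = 1 then Classical.choose (spl_exists_exp hζ hc) else 0

lemma splExp_spec (hζ : IsPrimitiveRoot ζ p) {c : K} (hc : c ^ p = 1) :
    ζ ^ (splExp hζ c).val = c := by
  rw [splExp, dif_pos hc]
  exact Classical.choose_spec (spl_exists_exp hζ hc)

lemma splExp_one (hζ : IsPrimitiveRoot ζ p) : splExp hζ (1 : K) = 0 := by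
  apply spl_exp_inj hζ
  rw [splExp_spec hζ (one_pow p), ZMod.val_zero, pow_zero]

lemma splExp_mul (hζ : IsPrimitiveRoot ζ p) {c d : K} (hc : c ^ p = 1) (hd : d ^ p = 1) :
    splExp hζ (c * d) = splExp hζ c + splExp hζ d := by
  apply spl_exp_inj hζ
  rw [splExp_spec hζ (by rw [mul_pow, hc, hd, one_mul]), spl_exp_add hζ, splExp_spec hζ hc,
    splExp_spec hζ hd]

end expo

section char

variable {p : ℕ} [Fact p.Prime] {K L : Type} [Field K] [Field L] [Algebra K L] {ζ : K}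

lemma spl_kumChar_pow (hζ : IsPrimitiveRoot ζ p) (a : Kˣ)
    (ha : ∃ β : L, β ^ p = algebraMap K L (a : K)) (σ : L ≃ₐ[K] L) :
    ((kumChar p σ a : Kˣ) : K) ^ p = 1 := by
  rw [← Units.val_pow_eq_pow_val, kumChar_pow_eq_one (Fact.out : p.Prime).ne_zero hζ σ a ha,
    Units.val_one]

/-- the Kummer character of `a` with values in `ℤ/p` -/
noncomputable def splChar (hζ : IsPrimitiveRoot ζ p) (a : Kˣ)
    (ha : ∃ β : L, β ^ p = algebraMap K L (a : K)) :
    (L ≃ₐ[K] L) →* Multiplicative (ZMod p) where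
  toFun σ := Multiplicative.ofAdd (splExp hζ ((kumChar p σ a : Kˣ) : K))
  map_one' := by
    rw [kumChar_one_left (Fact.out : p.Prime).ne_zero hζ a ha, Units.val_one, splExp_one]
    rfl
  map_mul' σ τ := by
    rw [kumChar_mul_left (Fact.out : p.Prime).ne_zero hζ σ τ a ha, Units.val_mul,
      splExp_mul hζ (spl_kumChar_pow hζ a ha σ) (spl_kumChar_pow hζ a ha τ)]
    rfl

lemma splChar_spec (hζ : IsPrimitiveRoot ζ p) (a : Kˣ)
    (ha : ∃ β : L, β ^ p = algebraMap K L (a : K)) (σ : L ≃ₐ[K] L) :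
    ζ ^ (Multiplicative.toAdd (splChar hζ a ha σ)).val = ((kumChar p σ a : Kˣ) : K) :=
  splExp_spec hζ (spl_kumChar_pow hζ a ha σ)

/-- Kummer generators with bijective character matrix. -/
theorem spl_exists_gens [Finite (L ≃ₐ[K] L)] (hζ : IsPrimitiveRoot ζ p) (W : Subgroup Kˣ)
    (hW : IsKummerExt p W L) :
    ∃ (r : ℕ) (a : Fin r → Kˣ) (k : (L ≃ₐ[K] L) → Fin r → ZMod p), (∀ i, a i ∈ W) ∧
      Function.Bijective k ∧ ∀ σ i, ((kumChar p σ (a i) : Kˣ) : K) = ζ ^ (k σ i).val := by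
  have hp0 := (Fact.out : p.Prime).ne_zero
  obtain ⟨r, φ, hφ, hbij⟩ := spl_exists_bijective (p := p) (G := L ≃ₐ[K] L)
    {f | ∃ (a : Kˣ) (haW : a ∈ W), f = splChar hζ a (hW.root a haW)} (by
      intro σ hσ
      apply hW.eq_of_kumChar_eq hp0 hζ
      intro a haW
      have h1 := hσ (splChar hζ a (hW.root a haW)) ⟨a, haW, rfl⟩
      have h2 := splChar_spec hζ a (hW.root a haW) σ
      rw [h1] at h2
      apply Units.ext
      rw [← h2, kumChar_one_left hp0 hζ a (hW.root a haW), Units.val_one]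
      show ζ ^ (0 : ZMod p).val = 1
      rw [ZMod.val_zero, pow_zero])
  choose a haW ha using hφ
  refine ⟨r, a, fun σ i => Multiplicative.toAdd (φ i σ), haW, ?_, ?_⟩
  · exact hbij
  · intro σ i
    show _ = ζ ^ (Multiplicative.toAdd ((φ i) σ)).val
    rw [ha i]
    exact (splChar_spec hζ (a i) (hW.root (a i) (haW i)) σ).symm

end char

section loc

variable {p : ℕ} [Fact p.Prime] {K L : Type} [Field K] [NumberField K] [Field L] [NumberField L]
  [Algebra K L] (q : ℕ) [Fact q.Prime]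

variable (K L) in
/-- `K → ℚ_q ⊗ L` -/
noncomputable def splIota : K →+* semiAlg q L :=
  ((Algebra.TensorProduct.includeRight : L →ₐ[ℚ] semiAlg q L) : L →+* semiAlg q L).comp
    (algebraMap K L)

lemma splIota_apply (x : K) : splIota K L q x = (1 : ℚ_[q]) ⊗ₜ[ℚ] algebraMap K L x := rfl

/-- the action of `Gal(L/K)` on `ℚ_q ⊗ L` -/
noncomputable def splAct (σ : L ≃ₐ[K] L) : semiAlg q L →+* semiAlg q L :=
  (semiMap q (galToAut σ) : semiAlg q L →+* semiAlg q L)

lemma splAct_tmul (σ : L ≃ₐ[K] L) (y : ℚ_[q]) (x : L) :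
    splAct q σ (y ⊗ₜ[ℚ] x) = y ⊗ₜ[ℚ] σ x := by
  simp [splAct, semiMap]

lemma splAct_semiIncl (σ : L ≃ₐ[K] L) (x : semiAlg q K) :
    splAct q σ (semiIncl K L q x) = semiIncl K L q x := by
  induction x using TensorProduct.induction_on with
  | zero => simp
  | tmul y k => rw [semiIncl_tmul, splAct_tmul, AlgEquiv.commutes]
  | add a b ha hb => rw [map_add, map_add, ha, hb]

lemma splAct_one (x : semiAlg q L) : splAct q (1 : L ≃ₐ[K] L) x = x := by
  induction x using TensorProduct.induction_on with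
  | zero => simp
  | tmul y k => rw [splAct_tmul, AlgEquiv.one_apply]
  | add a b ha hb => rw [map_add, ha, hb]

lemma splAct_splIota (σ : L ≃ₐ[K] L) (x : K) : splAct q σ (splIota K L q x) = splIota K L q x := by
  rw [splIota_apply, splAct_tmul, AlgEquiv.commutes]

theorem spl_local [Fintype (L ≃ₐ[K] L)] {ζ : K} (hζ : IsPrimitiveRoot ζ p) (r : ℕ)
    (a : Fin r → Kˣ) (k : (L ≃ₐ[K] L) → Fin r → ZMod p) (hk : Function.Bijective k)
    (hkum : ∀ σ i, ((kumChar p σ (a i) : Kˣ) : K) = ζ ^ (k σ i).val)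
    (hroot : ∀ i, ∃ β : L, β ^ p = algebraMap K L (a i : K))
    (hloc : ∀ i, ∃ b : (semiAlg q K)ˣ,
      ((1 : ℚ_[q]) ⊗ₜ[ℚ] (a i : K) : semiAlg q K) = (b : semiAlg q K) ^ p)
    (y : (semiAlg q K)ˣ) :
    ∃ u : (semiAlg q L)ˣ,
      ∏ σ : L ≃ₐ[K] L, splAct q σ (u : semiAlg q L) = semiIncl K L q (y : semiAlg q K) := by
  have hp0 := (Fact.out : p.Prime).ne_zero
  choose β hβ using hroot
  choose b hb using hloc
  set θ : Fin r → semiAlg q L := fun i =>
    ((1 : ℚ_[q]) ⊗ₜ[ℚ] β i) * semiIncl K L q (((b i)⁻¹ : (semiAlg q K)ˣ) : semiAlg q K) with hθdef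
  have hθ : ∀ i, θ i ^ p = 1 := by
    intro i
    show (((1 : ℚ_[q]) ⊗ₜ[ℚ] β i) *
      semiIncl K L q (((b i)⁻¹ : (semiAlg q K)ˣ) : semiAlg q K)) ^ p = 1
    rw [mul_pow, Algebra.TensorProduct.tmul_pow, one_pow, hβ i, ← semiIncl_tmul, hb i,
      ← map_pow, ← map_mul, ← mul_pow, Units.mul_inv, one_pow, map_one]
  have hθk : ∀ σ i, splAct q σ (θ i) = splIota K L q (ζ ^ (k σ i).val) * θ i := by
    intro σ i
    show splAct q σ (((1 : ℚ_[q]) ⊗ₜ[ℚ] β i) *
      semiIncl K L q (((b i)⁻¹ : (semiAlg q K)ˣ) : semiAlg q K)) = _ * (((1 : ℚ_[q]) ⊗ₜ[ℚ] β i) *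
      semiIncl K L q (((b i)⁻¹ : (semiAlg q K)ˣ) : semiAlg q K))
    rw [map_mul, splAct_semiIncl, splAct_tmul, kumChar_spec hp0 hζ σ (a i) (hβ i), hkum σ i,
      splIota_apply, ← mul_assoc, Algebra.TensorProduct.tmul_mul_tmul, one_mul]
  obtain ⟨e, horth, hsum⟩ := spl_exists_idempotent (splIota K L q) hζ
    (kum_natCast_ne_zero hp0 hζ) (splAct q) (splAct_splIota q) r θ hθ k hk hθk
  have hee : e * e = e := spl_idem (splAct q) e 1 (splAct_one q e) horth hsum
  have hYY : semiIncl K L q (y : semiAlg q K) *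
      semiIncl K L q ((y⁻¹ : (semiAlg q K)ˣ) : semiAlg q K) = 1 := by
    rw [← map_mul, Units.mul_inv, map_one]
  refine ⟨Units.mkOfMulEqOne (1 + (semiIncl K L q (y : semiAlg q K) - 1) * e)
    (1 + (semiIncl K L q ((y⁻¹ : (semiAlg q K)ˣ) : semiAlg q K) - 1) * e) ?_, ?_⟩
  · linear_combination e * hYY + (semiIncl K L q (y : semiAlg q K) - 1) *
      (semiIncl K L q ((y⁻¹ : (semiAlg q K)ˣ) : semiAlg q K) - 1) * hee
  · exact spl_prod_eq (splAct q) e horth hsum _ (fun σ => splAct_semiIncl q σ _)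

end loc

/-- **X-SPL**: `J_K ⊂ N_{L/K} J_L` for `L = K(W^{1/p})`, `W ≤ V_loc`. -/
theorem stmtSplitIdele : StmtSplitIdele := by
  intro p _ S K L _ _ _ _ _ _ ζ hζ W hW hKum j
  obtain ⟨r, a, k, haW, hk, hkum⟩ := spl_exists_gens hζ W hKum
  have hloc : ∀ q : ↥S, ∃ u : (semiAlg ((q : Nat.Primes) : ℕ) L)ˣ,
      ∏ σ : L ≃ₐ[K] L, splAct ((q : Nat.Primes) : ℕ) σ
        (u : semiAlg ((q : Nat.Primes) : ℕ) L) =
        semiIncl K L ((q : Nat.Primes) : ℕ) (j q : semiAlg ((q : Nat.Primes) : ℕ) K) := by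
    intro q
    refine spl_local ((q : Nat.Primes) : ℕ) hζ r a k hk hkum (fun i => hKum.root _ (haW i))
      (fun i => ?_) (j q)
    obtain ⟨jj, hjj⟩ := (hW (haW i)).2
    refine ⟨jj q, ?_⟩
    have h1 := congrArg Units.val (congrFun hjj q)
    rw [Pi.pow_apply, Units.val_pow_eq_pow_val] at h1
    exact h1
  choose j' hj' using hloc
  refine ⟨j', ?_⟩
  funext q
  apply Units.ext
  rw [jlMap_apply, ← hj' q, Finset.prod_apply, Units.coe_prod]
  rfl

end Fermat.Agent.PT.X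


end ZBPT_077_1
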