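/- GENERATED FILE (helper35, build-time optimisation, NOTES/ZB.md): verbatim concatenation of the modules
   Fermat.Agent.S53.PowerSeries
   Do not edit; do not import together with these modules. -/
import Mathlib.RingTheory.MvPowerSeries.Equiv
import Mathlib.RingTheory.AdicCompletion.Completeness
import Mathlib.RingTheory.Noetherian.Nilpotent
import Mathlib.RingTheory.Ideal.Quotient.Operations
import Mathlib.RingTheory.Ideal.Operations
import Mathlib.RingTheory.Adjoin.Basic
import Mathlib.Algebra.Algebra.Subalgebra.Basic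
import Fermat.Agent.ZB.INJ_037

/-! ### bundled: `Fermat.Agent.S53.PowerSeries` -/
section ZBS53_003_0
/-
S53, piece E1 (owner helper26): power series API.

For a commutative ring `𝒪`, a finite index type `σ` and an `𝒪`-algebra `A`:
* `evNilp y hy : MvPowerSeries σ 𝒪 →ₐ[𝒪] A` with `X i ↦ y i`, for nilpotent `y i`;
* uniqueness of such homomorphisms (`mvPowerSeries_algHom_ext_of_isNilpotent`);
* surjectivity criterion (`mvPowerSeries_surjective_of_adjoin_eq_top`);
* nilpotent Nakayama: `ideal_span_eq_of_nilpotent`, `subring_eq_top_of_nilpotent`,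
  `adjoin_eq_top_of_nilpotent`.
-/

set_option autoImplicit false

namespace Fermat.Agent.S53

open MvPowerSeries

section

variable {𝒪 : Type*} [CommRing 𝒪] {A : Type*} [CommRing A] [Algebra 𝒪 A]
variable {σ : Type*}

/-- Finitely many nilpotent elements generate a nilpotent ideal. -/
theorem exists_pow_span_range_eq_bot_of_isNilpotent [Finite σ] (y : σ → A) (hy : ∀ i, IsNilpotent (y i)) :
    ∃ n : ℕ, (Ideal.span (Set.range y)) ^ n = ⊥ := by
  have hfg : (Ideal.span (Set.range y)).FG := by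
    classical
    cases nonempty_fintype σ
    exact ⟨Finset.univ.image y, by simp⟩
  have hle : Ideal.span (Set.range y) ≤ nilradical A := by
    rw [Ideal.span_le]
    rintro _ ⟨i, rfl⟩
    exact hy i
  exact (Ideal.FG.isNilpotent_iff_le_nilradical hfg).mpr hle

/-- Polynomial evaluation at `y` maps `idealOfVars ^ n` into `(span (range y)) ^ n`. -/
theorem aeval_mem_pow_of_mem_pow_idealOfVars (y : σ → A) (n : ℕ) (p : MvPolynomial σ 𝒪)
    (hp : p ∈ MvPolynomial.idealOfVars σ 𝒪 ^ n) :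
    MvPolynomial.aeval y p ∈ (Ideal.span (Set.range y)) ^ n := by
  have h1 : (MvPolynomial.idealOfVars σ 𝒪).map (MvPolynomial.aeval (R := 𝒪) y).toRingHom
      ≤ Ideal.span (Set.range y) := by
    rw [MvPolynomial.idealOfVars, Ideal.map_span, Ideal.span_le]
    rintro _ ⟨_, ⟨i, rfl⟩, rfl⟩
    exact Ideal.subset_span ⟨i, by simp⟩
  have h2 : (MvPolynomial.idealOfVars σ 𝒪 ^ n).map (MvPolynomial.aeval (R := 𝒪) y).toRingHom
      ≤ (Ideal.span (Set.range y)) ^ n := by
    rw [Ideal.map_pow]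
    exact Ideal.pow_right_mono h1 n
  exact h2 (Ideal.mem_map_of_mem _ hp)

variable [Finite σ]

/-- The exponent used to define `evNilp`. -/
noncomputable def nilpExp (y : σ → A) (hy : ∀ i, IsNilpotent (y i)) : ℕ :=
  (exists_pow_span_range_eq_bot_of_isNilpotent y hy).choose

theorem pow_nilpExp (y : σ → A) (hy : ∀ i, IsNilpotent (y i)) :
    (Ideal.span (Set.range y)) ^ nilpExp y hy = ⊥ :=
  (exists_pow_span_range_eq_bot_of_isNilpotent y hy).choose_spec

theorem aeval_eq_zero_of_mem_pow_idealOfVars (y : σ → A) (hy : ∀ i, IsNilpotent (y i))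
    (p : MvPolynomial σ 𝒪) (hp : p ∈ MvPolynomial.idealOfVars σ 𝒪 ^ nilpExp y hy) :
    MvPolynomial.aeval y p = 0 := by
  have := aeval_mem_pow_of_mem_pow_idealOfVars (𝒪 := 𝒪) y _ p hp
  rwa [pow_nilpExp, Ideal.mem_bot] at this

/-- Evaluation of power series at nilpotent elements, as a ring homomorphism. -/
noncomputable def evNilpRingHom (𝒪 : Type*) [CommRing 𝒪] {A : Type*} [CommRing A] [Algebra 𝒪 A]
    {σ : Type*} [Finite σ] (y : σ → A) (hy : ∀ i, IsNilpotent (y i)) :
    MvPowerSeries σ 𝒪 →+* A :=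
  (Ideal.Quotient.lift (MvPolynomial.idealOfVars σ 𝒪 ^ nilpExp y hy)
      (MvPolynomial.aeval (R := 𝒪) y).toRingHom
      (fun p hp => aeval_eq_zero_of_mem_pow_idealOfVars y hy p hp)).comp
    (truncTotalAlgHom σ 𝒪 (nilpExp y hy)).toRingHom

theorem evNilpRingHom_apply (y : σ → A) (hy : ∀ i, IsNilpotent (y i)) (p : MvPowerSeries σ 𝒪) :
    evNilpRingHom 𝒪 y hy p = MvPolynomial.aeval y (truncTotal (nilpExp y hy) p) := rfl

theorem evNilpRingHom_coe (y : σ → A) (hy : ∀ i, IsNilpotent (y i)) (p : MvPolynomial σ 𝒪) :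
    evNilpRingHom 𝒪 y hy (p : MvPowerSeries σ 𝒪) = MvPolynomial.aeval y p := by
  have h' : (truncTotalAlgHom σ 𝒪 (nilpExp y hy)).toRingHom (p : MvPowerSeries σ 𝒪) =
      Ideal.Quotient.mk (MvPolynomial.idealOfVars σ 𝒪 ^ nilpExp y hy) p :=
    (truncTotalAlgHom σ 𝒪 (nilpExp y hy)).commutes p
  rw [evNilpRingHom, RingHom.comp_apply, h', Ideal.Quotient.lift_mk]
  rfl

/-- Evaluation of power series at nilpotent elements, as an algebra homomorphism. -/
noncomputable def evNilp (𝒪 : Type*) [CommRing 𝒪] {A : Type*} [CommRing A] [Algebra 𝒪 A]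
    {σ : Type*} [Finite σ] (y : σ → A) (hy : ∀ i, IsNilpotent (y i)) :
    MvPowerSeries σ 𝒪 →ₐ[𝒪] A :=
  { evNilpRingHom 𝒪 y hy with
    commutes' := fun c => by
      have : (algebraMap 𝒪 (MvPowerSeries σ 𝒪)) c =
          ((MvPolynomial.C c : MvPolynomial σ 𝒪) : MvPowerSeries σ 𝒪) := by
        rw [MvPolynomial.coe_C]; rfl
      show evNilpRingHom 𝒪 y hy ((algebraMap 𝒪 (MvPowerSeries σ 𝒪)) c) = _
      rw [this, evNilpRingHom_coe, MvPolynomial.aeval_C] }

@[simp] theorem evNilp_coe (y : σ → A) (hy : ∀ i, IsNilpotent (y i)) (p : MvPolynomial σ 𝒪) :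
    evNilp 𝒪 y hy (p : MvPowerSeries σ 𝒪) = MvPolynomial.aeval y p :=
  evNilpRingHom_coe y hy p

@[simp] theorem evNilp_X (y : σ → A) (hy : ∀ i, IsNilpotent (y i)) (i : σ) :
    evNilp 𝒪 y hy (X i : MvPowerSeries σ 𝒪) = y i := by
  rw [← MvPolynomial.coe_X, evNilp_coe, MvPolynomial.aeval_X]

theorem evNilp_apply (y : σ → A) (hy : ∀ i, IsNilpotent (y i)) (p : MvPowerSeries σ 𝒪) :
    evNilp 𝒪 y hy p = MvPolynomial.aeval y (truncTotal (nilpExp y hy) p) := rfl

/-- Existence form of `evNilp`. -/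
theorem mvPowerSeries_exists_algHom_X_eq (y : σ → A) (hy : ∀ i, IsNilpotent (y i)) :
    ∃ ev : MvPowerSeries σ 𝒪 →ₐ[𝒪] A, ∀ i, ev (X i) = y i :=
  ⟨evNilp 𝒪 y hy, evNilp_X y hy⟩

end

section Uniqueness


variable {𝒪 : Type*} [CommRing 𝒪] {A : Type*} [CommRing A] [Algebra 𝒪 A]
variable {σ : Type*} [Finite σ]

theorem map_span_range_X_toAdicCompletion :
    Ideal.map (toAdicCompletionAlgEquiv σ 𝒪).toRingEquiv
        (Ideal.span (Set.range (X : σ → MvPowerSeries σ 𝒪))) =
      (MvPolynomial.idealOfVars σ 𝒪).map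
        (algebraMap (MvPolynomial σ 𝒪)
          (AdicCompletion (MvPolynomial.idealOfVars σ 𝒪) (MvPolynomial σ 𝒪))) := by
  simp_rw [Ideal.map_span, ← Set.range_comp]
  congr 2; ext1
  simp [AdicCompletion.algebraMap_apply, ← MvPolynomial.coe_X, toAdicCompletion_coe]

theorem mvPowerSeries_sub_truncTotal_mem_pow (p : MvPowerSeries σ 𝒪) (n : ℕ) :
    p - ((truncTotal n p : MvPolynomial σ 𝒪) : MvPowerSeries σ 𝒪) ∈
      (Ideal.span (Set.range (X : σ → MvPowerSeries σ 𝒪))) ^ n := by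
  have hmap : Ideal.map (toAdicCompletionAlgEquiv σ 𝒪).toRingEquiv
        ((Ideal.span (Set.range (X : σ → MvPowerSeries σ 𝒪))) ^ n) =
      (MvPolynomial.idealOfVars σ 𝒪 ^ n).map (algebraMap (MvPolynomial σ 𝒪)
        (AdicCompletion (MvPolynomial.idealOfVars σ 𝒪) (MvPolynomial σ 𝒪))) := by
    rw [Ideal.map_pow, map_span_range_X_toAdicCompletion, ← Ideal.map_pow]
  have hker : ∀ x : AdicCompletion (MvPolynomial.idealOfVars σ 𝒪) (MvPolynomial σ 𝒪),
      x.val n = 0 →
      x ∈ (MvPolynomial.idealOfVars σ 𝒪 ^ n).map (algebraMap (MvPolynomial σ 𝒪)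
        (AdicCompletion (MvPolynomial.idealOfVars σ 𝒪) (MvPolynomial σ 𝒪))) := by
    intro x hx
    have h1 : x ∈ (AdicCompletion.eval (MvPolynomial.idealOfVars σ 𝒪) (MvPolynomial σ 𝒪) n).ker := by
      rw [LinearMap.mem_ker]; exact hx
    rw [← AdicCompletion.pow_smul_top_eq_ker_eval (MvPolynomial.idealOfVars_fg σ 𝒪)] at h1
    rw [Ideal.smul_top_eq_map] at h1
    exact h1
  have hmem : (toAdicCompletionAlgEquiv σ 𝒪).toRingEquiv
        (p - ((truncTotal n p : MvPolynomial σ 𝒪) : MvPowerSeries σ 𝒪)) ∈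
      Ideal.map (toAdicCompletionAlgEquiv σ 𝒪).toRingEquiv
        ((Ideal.span (Set.range (X : σ → MvPowerSeries σ 𝒪))) ^ n) := by
    rw [hmap]
    apply hker
    show ((toAdicCompletionAlgEquiv σ 𝒪)
        (p - ((truncTotal n p : MvPolynomial σ 𝒪) : MvPowerSeries σ 𝒪))).val n = 0
    rw [map_sub, toAdicCompletionAlgEquiv_apply, toAdicCompletionAlgEquiv_apply,
      toAdicCompletion_coe]
    rw [AdicCompletion.val_sub_apply, toAdicCompletion_apply_eq_mk_truncTotal]
    simp
  obtain ⟨x, hx, hxe⟩ := (Ideal.mem_map_of_equiv _ _).mp hmem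
  have := (toAdicCompletionAlgEquiv σ 𝒪).toRingEquiv.injective hxe
  rwa [this] at hx


end Uniqueness

section Uniqueness2


variable {𝒪 : Type*} [CommRing 𝒪] {A : Type*} [CommRing A] [Algebra 𝒪 A]
variable {σ : Type*}

theorem mvPowerSeries_algHom_coe_eq_aeval (f : MvPowerSeries σ 𝒪 →ₐ[𝒪] A) (q : MvPolynomial σ 𝒪) :
    f (q : MvPowerSeries σ 𝒪) = MvPolynomial.aeval (fun i => f (X i)) q := by
  have h : f.comp (MvPolynomial.coeToMvPowerSeries.algHom (R := 𝒪) (σ := σ) 𝒪) =
      MvPolynomial.aeval (fun i => f (X i)) := by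
    apply MvPolynomial.algHom_ext
    intro i
    simp
  have := congrArg (fun φ : MvPolynomial σ 𝒪 →ₐ[𝒪] A => φ q) h
  simpa using this

theorem mvPowerSeries_map_pow_span_range_X_le (f : MvPowerSeries σ 𝒪 →ₐ[𝒪] A) (n : ℕ) :
    ((Ideal.span (Set.range (X : σ → MvPowerSeries σ 𝒪))) ^ n).map f.toRingHom ≤
      (Ideal.span (Set.range fun i => f (X i))) ^ n := by
  rw [Ideal.map_pow]
  refine Ideal.pow_right_mono ?_ n
  rw [Ideal.map_span, Ideal.span_le]
  rintro _ ⟨_, ⟨i, rfl⟩, rfl⟩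
  exact Ideal.subset_span ⟨i, rfl⟩

variable [Finite σ]

theorem mvPowerSeries_algHom_apply_eq_aeval_truncTotal (f : MvPowerSeries σ 𝒪 →ₐ[𝒪] A) (n : ℕ)
    (hn : (Ideal.span (Set.range fun i => f (X i))) ^ n = ⊥) (p : MvPowerSeries σ 𝒪) :
    f p = MvPolynomial.aeval (fun i => f (X i)) (truncTotal n p) := by
  have h1 : f (p - ((truncTotal n p : MvPolynomial σ 𝒪) : MvPowerSeries σ 𝒪)) = 0 := by
    have := mvPowerSeries_map_pow_span_range_X_le f n (Ideal.mem_map_of_mem _ (mvPowerSeries_sub_truncTotal_mem_pow p n))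
    rw [hn, Ideal.mem_bot] at this
    exact this
  rw [map_sub, sub_eq_zero] at h1
  rw [h1, mvPowerSeries_algHom_coe_eq_aeval]

/-- Two `𝒪`-algebra homomorphisms out of a power series ring in finitely many variables that
agree on the variables, and send them to nilpotent elements, are equal. -/
theorem mvPowerSeries_algHom_ext_of_isNilpotent (f g : MvPowerSeries σ 𝒪 →ₐ[𝒪] A)
    (hnil : ∀ i, IsNilpotent (f (X i))) (h : ∀ i, f (X i) = g (X i)) : f = g := by
  obtain ⟨n, hn⟩ := exists_pow_span_range_eq_bot_of_isNilpotent (fun i => f (X i)) hnil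
  have hfg : (fun i => f (X i)) = fun i => g (X i) := funext h
  apply AlgHom.ext
  intro p
  rw [mvPowerSeries_algHom_apply_eq_aeval_truncTotal f n hn, mvPowerSeries_algHom_apply_eq_aeval_truncTotal g n (hfg ▸ hn), hfg]

/-- Every `𝒪`-algebra homomorphism sending the variables to nilpotents is an `evNilp`. -/
theorem mvPowerSeries_algHom_eq_evNilp (f : MvPowerSeries σ 𝒪 →ₐ[𝒪] A)
    (hnil : ∀ i, IsNilpotent (f (X i))) : f = evNilp 𝒪 (fun i => f (X i)) hnil :=
  mvPowerSeries_algHom_ext_of_isNilpotent _ _ hnil fun i => (evNilp_X _ hnil i).symm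

omit [Finite σ] in
/-- Surjectivity criterion. -/
theorem mvPowerSeries_surjective_of_adjoin_eq_top (f : MvPowerSeries σ 𝒪 →ₐ[𝒪] A)
    (h : Algebra.adjoin 𝒪 (Set.range fun i => f (X i)) = ⊤) : Function.Surjective f := by
  rw [← AlgHom.range_eq_top, eq_top_iff, ← h]
  refine Algebra.adjoin_le ?_
  rintro _ ⟨i, rfl⟩
  exact ⟨X i, rfl⟩

theorem evNilp_surjective (y : σ → A) (hy : ∀ i, IsNilpotent (y i))
    (h : Algebra.adjoin 𝒪 (Set.range y) = ⊤) : Function.Surjective (evNilp 𝒪 y hy) := by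
  apply mvPowerSeries_surjective_of_adjoin_eq_top
  simpa using h


omit [Finite σ] in
/-- `(X)^n` is killed by `f` as soon as the images of the variables generate an ideal with
vanishing `n`-th power. -/
theorem mvPowerSeries_pow_span_range_X_le_ker (f : MvPowerSeries σ 𝒪 →ₐ[𝒪] A) (n : ℕ)
    (hn : (Ideal.span (Set.range fun i => f (X i))) ^ n = ⊥) :
    (Ideal.span (Set.range (X : σ → MvPowerSeries σ 𝒪))) ^ n ≤ RingHom.ker f.toRingHom := by
  intro x hx
  have := mvPowerSeries_map_pow_span_range_X_le f n (Ideal.mem_map_of_mem _ hx)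
  rw [hn, Ideal.mem_bot] at this
  exact this

end Uniqueness2

section NilpotentNakayama

/-- generators of `𝔪` mod `𝔪²` generate the ideal when `𝔪` is nilpotent -/
theorem ideal_span_eq_of_nilpotent {B : Type*} [CommRing B] (I : Ideal B) (n : ℕ) (hn : I ^ n = ⊥)
    (T : Set B) (hT : T ⊆ I) (h : I ≤ Ideal.span T ⊔ I ^ 2) : Ideal.span T = I := by
  have hle : Ideal.span T ≤ I := Ideal.span_le.mpr hT
  have key : ∀ k : ℕ, I ≤ Ideal.span T ⊔ I ^ (k + 1) := by
    intro k
    induction k with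
    | zero => simp
    | succ k ih =>
      have h2 : I ^ 2 ≤ Ideal.span T ⊔ I ^ (k + 1 + 1) := by
        calc I ^ 2 = I * I := pow_two I
          _ ≤ (Ideal.span T ⊔ I ^ (k + 1)) * I := Ideal.mul_mono_left ih
          _ = Ideal.span T * I ⊔ I ^ (k + 1) * I := Ideal.sup_mul _ _ _
          _ ≤ Ideal.span T ⊔ I ^ (k + 1 + 1) := by
            refine sup_le_sup Ideal.mul_le_left ?_
            rw [← pow_succ]
      exact h.trans (sup_le le_sup_left h2)
  refine le_antisymm hle ?_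
  rcases n with _ | n
  · -- `I ^ 0 = ⊤ = ⊥`
    have : (⊤ : Ideal B) = ⊥ := by simpa using hn
    intro x _
    have hx : x ∈ (⊤ : Ideal B) := trivial
    rw [this] at hx
    rw [Ideal.mem_bot.mp hx]
    exact Ideal.zero_mem _
  · have := key n
    rw [hn, sup_bot_eq] at this
    exact this

/-- nilpotent Nakayama for subrings -/
theorem subring_eq_top_of_nilpotent {B : Type*} [CommRing B] (A : Subring B) (I : Ideal B) (n : ℕ)
    (hn : I ^ n = ⊥) (hAI : ∀ b : B, ∃ a ∈ A, b - a ∈ I)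
    (hI : ∀ x ∈ I, ∃ a ∈ A, x - a ∈ I ^ 2) : A = ⊤ := by
  -- step: every element of `I ^ (k+1)` is in `A` modulo `I ^ (k+2)`
  have step : ∀ k : ℕ, ∀ x ∈ I ^ (k + 1), ∃ a ∈ A, x - a ∈ I ^ (k + 2) := by
    intro k
    induction k with
    | zero => simpa using hI
    | succ k ih =>
      intro x hx
      rw [pow_succ] at hx
      refine Submodule.mul_induction_on hx ?_ ?_
      · intro u hu v hv
        obtain ⟨au, hau, hu'⟩ := ih u hu
        obtain ⟨av, hav, hv'⟩ := hI v hv
        refine ⟨au * av, A.mul_mem hau hav, ?_⟩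
        have hauI : au ∈ I ^ (k + 1) := by
          have h1 : u - au ∈ I ^ (k + 1) := Ideal.pow_le_pow_right (by omega) hu'
          have := (I ^ (k + 1)).sub_mem hu h1
          simpa using this
        have e : u * v - au * av = au * (v - av) + (u - au) * v := by ring
        rw [e]
        refine Ideal.add_mem _ ?_ ?_
        · have := Ideal.mul_mem_mul hauI hv'
          rwa [← pow_add] at this
        · have := Ideal.mul_mem_mul hu' hv
          rw [← pow_succ] at this
          exact this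
      · intro x y ⟨a, ha, hxa⟩ ⟨b, hb, hyb⟩
        refine ⟨a + b, A.add_mem ha hb, ?_⟩
        have e : x + y - (a + b) = (x - a) + (y - b) := by ring
        rw [e]
        exact Ideal.add_mem _ hxa hyb
  have all : ∀ k : ℕ, ∀ b : B, ∃ a ∈ A, b - a ∈ I ^ (k + 1) := by
    intro k
    induction k with
    | zero => simpa using hAI
    | succ k ih =>
      intro b
      obtain ⟨a, ha, hba⟩ := ih b
      obtain ⟨a', ha', hba'⟩ := step k (b - a) hba
      refine ⟨a + a', A.add_mem ha ha', ?_⟩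
      have e : b - (a + a') = b - a - a' := by ring
      rw [e]
      exact hba'
  rw [eq_top_iff]
  intro b _
  rcases n with _ | n
  · have : (⊤ : Ideal B) = ⊥ := by simpa using hn
    have hb : b ∈ (⊤ : Ideal B) := trivial
    rw [this] at hb
    rw [Ideal.mem_bot.mp hb]
    exact A.zero_mem
  · obtain ⟨a, ha, hba⟩ := all n b
    rw [hn, Ideal.mem_bot, sub_eq_zero] at hba
    rw [hba]
    exact ha

/-- `𝒪`-algebra version: if `B = 𝒪 + I`, `I` nilpotent and `T ⊆ I` generates `I` modulo `I ^ 2`,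
then `T` generates `B` as an `𝒪`-algebra. -/
theorem adjoin_eq_top_of_nilpotent {𝒪 : Type*} [CommRing 𝒪] {B : Type*} [CommRing B] [Algebra 𝒪 B]
    (I : Ideal B) (n : ℕ) (hn : I ^ n = ⊥) (T : Set B) (hT : T ⊆ I)
    (hres : ∀ b : B, ∃ x : 𝒪, b - algebraMap 𝒪 B x ∈ I)
    (h : I ≤ Ideal.span T ⊔ I ^ 2) : Algebra.adjoin 𝒪 T = ⊤ := by
  have hsub : (Algebra.adjoin 𝒪 T).toSubring = ⊤ := by
    refine subring_eq_top_of_nilpotent _ I n hn ?_ ?_
    · intro b
      obtain ⟨x, hx⟩ := hres b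
      exact ⟨algebraMap 𝒪 B x, (Algebra.adjoin 𝒪 T).algebraMap_mem x, hx⟩
    · intro x hx
      have hx' := h hx
      obtain ⟨s, hs, z, hz, rfl⟩ := Submodule.mem_sup.mp hx'
      -- elements of `span T` are in `adjoin` modulo `I ^ 2`
      have : ∃ a ∈ (Algebra.adjoin 𝒪 T).toSubring, s - a ∈ I ^ 2 := by
        refine Submodule.span_induction (p := fun s _ => ∃ a ∈ (Algebra.adjoin 𝒪 T).toSubring,
          s - a ∈ I ^ 2) ?_ ?_ ?_ ?_ hs
        · intro t ht
          exact ⟨t, Algebra.subset_adjoin ht, by simp⟩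
        · exact ⟨0, Subring.zero_mem _, by simp⟩
        · rintro u v _ _ ⟨a, ha, hua⟩ ⟨b, hb, hvb⟩
          refine ⟨a + b, Subring.add_mem _ ha hb, ?_⟩
          have e : u + v - (a + b) = (u - a) + (v - b) := by ring
          rw [e]; exact Ideal.add_mem _ hua hvb
        · rintro c u hu ⟨a, ha, hua⟩
          obtain ⟨x, hx⟩ := hres c
          refine ⟨algebraMap 𝒪 B x * a, Subring.mul_mem _ ((Algebra.adjoin 𝒪 T).algebraMap_mem x) ha, ?_⟩
          have huI : u ∈ I := Ideal.span_le.mpr hT hu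
          have e : c • u - algebraMap 𝒪 B x * a = (c - algebraMap 𝒪 B x) * u
              + algebraMap 𝒪 B x * (u - a) := by
            rw [smul_eq_mul]; ring
          rw [e]
          refine Ideal.add_mem _ ?_ (Ideal.mul_mem_left _ _ hua)
          rw [pow_two]
          exact Ideal.mul_mem_mul hx huI
      obtain ⟨a, ha, hsa⟩ := this
      refine ⟨a, ha, ?_⟩
      have e : s + z - a = (s - a) + z := by ring
      rw [e]
      exact Ideal.add_mem _ hsa hz
  rw [eq_top_iff]
  intro b _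
  have : b ∈ (Algebra.adjoin 𝒪 T).toSubring := by rw [hsub]; trivial
  exact this

end NilpotentNakayama

end Fermat.Agent.S53


end ZBS53_003_0
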