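/- GENERATED FILE (helper35, build-time optimisation, NOTES/ZB.md): verbatim concatenation of the modules
   Fermat.Agent.R38.TresEisAbs
   Do not edit; do not import together with these modules. -/
import Fermat.Prelude.Def_AlgebraicCurve_Correspondence
import Fermat.Agent.ZB.S53_003

/-! ### bundled: `Fermat.Agent.R38.TresEisAbs` -/
section ZBR38_004_0

/-!
# Row 38, PKG-TRES, piece FAC-EIS (A): the Eisenstein step on divisors, abstract form (helper60)

`F'/F` a finite extension of function fields over `K` with the norm formula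
(`div (N g) = pushforward (div g)`), `ψ : F → F'` a second embedding (the Hecke correspondence
`T = N ∘ ψ`), `C` a set of places of `F` ("cusps") such that a place `w` of `F'` lies over `C`
along the inclusion iff it does along `ψ`.

* `tres4_ord_norm_dvd` : if `n ∣ ord_w g` for all places `w` of `F'` over `v`, then
  `n ∣ ord_v (N g)`;
* `tres4_eis_abs` : if `n ∣ a · ord_Q f − b · ord_Q h` for all `Q ∉ C`, then
  `n ∣ a · ord_Q (N ψ f) − b · ord_Q (N ψ h)` for all `Q ∉ C`;
* `tres4_eis_abs_cusp` : if `n ∣ ord_Q f` for all `Q ∈ C`, then `n ∣ ord_Q (N ψ f)` for `Q ∈ C`;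
* `tres4_eis_kill` : if moreover `N ψ h = c · h ^ m` (`h` is "Eisenstein"), `c` a constant, then
  `n ∣ a · ord_Q (N ψ f / f ^ m)` for all `Q ∉ C`.
-/

set_option autoImplicit false
set_option linter.unusedSectionVars false
set_option linter.style.haveILetI false

noncomputable section

namespace Fermat.Agent.R38

open AlgebraicCurve

variable {K F F' : Type*} [Field K] [Field F] [Field F'] [Algebra K F] [Algebra K F']
  [Algebra F F'] [IsScalarTower K F F'] [Algebra.IsIntegral F F'] [Module.Finite F F']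
  [HasPrincipalDivisors K F']

/-- If all the orders of `g` at the places over `v` are divisible by `n`, so is the order of the
norm of `g` at `v`. -/
theorem tres4_ord_norm_dvd (hN : Divisor.PushforwardNormFormula K F F') (n : ℤ) {g : F'}
    (hg : g ≠ 0) (v : Place K F)
    (h : ∀ w : Place K F', w.restrict F = v → n ∣ w.ord g) :
    n ∣ v.ord (Algebra.norm F g) := by
  classical
  obtain ⟨D, hD, -⟩ := HasPrincipalDivisors.exists_divisor (K := K) g hg
  rw [← hN g hg D hD v, Divisor.pushforward_apply]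
  refine Finset.dvd_sum fun w _ => ?_
  split_ifs with hw
  · rw [hD w]
    exact Dvd.dvd.mul_right (h w hw) _
  · exact dvd_zero n

omit [Module.Finite F F'] [HasPrincipalDivisors K F'] [Algebra.IsIntegral F F']
  [IsScalarTower K F F'] [Algebra F F'] in
/-- the order of `ψ (f ^ a / h ^ b)` -/
theorem tres4_ord_along (ψ : F →ₐ[K] F') (hψ : ψ.toRingHom.IsIntegral) (w : Place K F')
    (a b : ℤ) {f h : F} (hf : f ≠ 0) (hh : h ≠ 0) :
    w.ord (ψ f ^ a * (ψ h ^ b)⁻¹) =
      (Place.ramificationIndexAlong ψ w : ℤ) *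
        (a * (w.restrictAlong ψ hψ).ord f - b * (w.restrictAlong ψ hψ).ord h) := by
  have h1 : ψ f ≠ 0 := (map_ne_zero ψ).2 hf
  have h2 : ψ h ≠ 0 := (map_ne_zero ψ).2 hh
  rw [w.ord_mul (zpow_ne_zero a h1) (inv_ne_zero (zpow_ne_zero b h2)), w.ord_inv, w.ord_zpow,
    w.ord_zpow, Place.ord_restrictAlong ψ hψ w f, Place.ord_restrictAlong ψ hψ w h]
  ring

omit [IsScalarTower K F F'] [Algebra.IsIntegral F F'] [HasPrincipalDivisors K F']
  [Module.Finite F F'] [Algebra K F'] [Algebra K F] in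
theorem tres4_norm_inv (x : F') : Algebra.norm F x⁻¹ = (Algebra.norm F x)⁻¹ := by
  rcases eq_or_ne x 0 with rfl | hx
  · rw [inv_zero]
    by_cases hfin : Module.Finite F F'
    · rw [Algebra.norm_zero, inv_zero]
    · have : Algebra.norm F (0 : F') = 1 := by
        rw [Algebra.norm_apply]
        have := LinearMap.det_eq_one_of_not_module_finite (R := F) (M := F') hfin
          (f := Algebra.lmul F F' 0)
        exact this
      rw [this, inv_one]
  · refine eq_inv_of_mul_eq_one_left ?_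
    rw [← map_mul, inv_mul_cancel₀ hx, map_one]

omit [IsScalarTower K F F'] [Algebra.IsIntegral F F'] [HasPrincipalDivisors K F']
  [Module.Finite F F'] [Algebra K F'] [Algebra K F] in
theorem tres4_norm_zpow (x : F') (a : ℤ) : Algebra.norm F (x ^ a) = Algebra.norm F x ^ a := by
  cases a with
  | ofNat k => rw [Int.ofNat_eq_natCast, zpow_natCast, zpow_natCast, map_pow]
  | negSucc k => rw [zpow_negSucc, zpow_negSucc, tres4_norm_inv, map_pow]

/-- **the Eisenstein step, abstract form** (off the cusps) -/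
theorem tres4_eis_abs (hN : Divisor.PushforwardNormFormula K F F')
    (ψ : F →ₐ[K] F') (hψ : ψ.toRingHom.IsIntegral) (C : Set (Place K F))
    (hC : ∀ w : Place K F', w.restrictAlong ψ hψ ∈ C → w.restrict F ∈ C)
    (n a b : ℤ) {f h : F} (hf : f ≠ 0) (hh : h ≠ 0)
    (hnc : ∀ Q : Place K F, Q ∉ C → n ∣ a * Q.ord f - b * Q.ord h)
    (Q : Place K F) (hQ : Q ∉ C) :
    n ∣ a * Q.ord (Algebra.norm F (ψ f)) - b * Q.ord (Algebra.norm F (ψ h)) := by
  have h1 : ψ f ≠ 0 := (map_ne_zero ψ).2 hf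
  have h2 : ψ h ≠ 0 := (map_ne_zero ψ).2 hh
  have hg : ψ f ^ a * (ψ h ^ b)⁻¹ ≠ 0 :=
    mul_ne_zero (zpow_ne_zero a h1) (inv_ne_zero (zpow_ne_zero b h2))
  have key := tres4_ord_norm_dvd hN n hg Q (fun w hw => by
    rw [tres4_ord_along ψ hψ w a b hf hh]
    refine Dvd.dvd.mul_left (hnc _ fun hc => hQ ?_) _
    rw [← hw]
    exact hC w hc)
  have hn1 : Algebra.norm F (ψ f) ≠ 0 := Algebra.norm_ne_zero_iff.2 h1
  have hn2 : Algebra.norm F (ψ h) ≠ 0 := Algebra.norm_ne_zero_iff.2 h2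
  rw [map_mul, tres4_norm_inv, tres4_norm_zpow, tres4_norm_zpow,
    Q.ord_mul (zpow_ne_zero a hn1) (inv_ne_zero (zpow_ne_zero b hn2)), Q.ord_inv, Q.ord_zpow,
    Q.ord_zpow] at key
  rwa [sub_eq_add_neg]

/-- **the Eisenstein step, abstract form** (at the cusps) -/
theorem tres4_eis_abs_cusp (hN : Divisor.PushforwardNormFormula K F F')
    (ψ : F →ₐ[K] F') (hψ : ψ.toRingHom.IsIntegral) (C : Set (Place K F))
    (hC : ∀ w : Place K F', w.restrict F ∈ C → w.restrictAlong ψ hψ ∈ C)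
    (n : ℤ) {f : F} (hf : f ≠ 0)
    (hc : ∀ Q : Place K F, Q ∈ C → n ∣ Q.ord f)
    (Q : Place K F) (hQ : Q ∈ C) :
    n ∣ Q.ord (Algebra.norm F (ψ f)) := by
  have h1 : ψ f ≠ 0 := (map_ne_zero ψ).2 hf
  refine tres4_ord_norm_dvd hN n h1 Q fun w hw => ?_
  rw [Place.ord_restrictAlong ψ hψ w f]
  exact Dvd.dvd.mul_left (hc _ (hC w (hw ▸ hQ))) _

/-- **the Eisenstein step kills the Eisenstein part**: if `N ψ h = c · h ^ m` with a constant
`c`, then `n ∣ a · ord_Q (N ψ f / f ^ m)` off the cusps. -/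
theorem tres4_eis_kill (hN : Divisor.PushforwardNormFormula K F F')
    (ψ : F →ₐ[K] F') (hψ : ψ.toRingHom.IsIntegral) (C : Set (Place K F))
    (hC : ∀ w : Place K F', w.restrictAlong ψ hψ ∈ C → w.restrict F ∈ C)
    (n a b : ℤ) {f h : F} (hf : f ≠ 0) (hh : h ≠ 0)
    (hnc : ∀ Q : Place K F, Q ∉ C → n ∣ a * Q.ord f - b * Q.ord h)
    (m : ℕ) (hconst : ∀ Q : Place K F, Q.ord (Algebra.norm F (ψ h)) = m * Q.ord h)
    (Q : Place K F) (hQ : Q ∉ C) :
    n ∣ a * Q.ord (Algebra.norm F (ψ f) * (f ^ m)⁻¹) := by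
  have h1 : ψ f ≠ 0 := (map_ne_zero ψ).2 hf
  have hn1 : Algebra.norm F (ψ f) ≠ 0 := Algebra.norm_ne_zero_iff.2 h1
  have key := tres4_eis_abs hN ψ hψ C hC n a b hf hh hnc Q hQ
  rw [hconst Q] at key
  have h0 := hnc Q hQ
  rw [Q.ord_mul hn1 (inv_ne_zero (pow_ne_zero m hf)), Q.ord_inv, ← zpow_natCast, Q.ord_zpow]
  have : a * (Q.ord (Algebra.norm F (ψ f)) + -((m : ℤ) * Q.ord f)) =
      (a * Q.ord (Algebra.norm F (ψ f)) - b * ((m : ℤ) * Q.ord h)) -
        (m : ℤ) * (a * Q.ord f - b * Q.ord h) := by ring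
  rw [this]
  exact dvd_sub key (Dvd.dvd.mul_left h0 _)

end Fermat.Agent.R38

end


end ZBR38_004_0
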