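/- GENERATED FILE (helper35, build-time optimisation, NOTES/ZB.md): verbatim concatenation of the modules
   Fermat.Agent.RIB.S43Full
   Do not edit; do not import together with these modules. -/
import Fermat.Agent.ZB.RIB_014
import Fermat.Agent.ZB.RT_007
import Fermat.Agent.ZB.R38_006

/-! ### bundled: `Fermat.Agent.RIB.S43Full` -/
section ZBRIB_015_0
/-
Row 37 (S43): THE FULL CONDITIONAL ROOT (helper17, integration owner of the S43 root).

`s43_full : RT.StmtHkConcTop → R38.StmtEisNormK → R38.StmtMonoFix → R38.StmtMonoCover → frozen S43`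
  = `s43_master (RT.rthkct_modSide ·) (R38.s44_of_open · · ·)`.

The four hypotheses are the ONLY open Props of rows 37 + 38 at the root:
* `RT.StmtHkConcTop` (RT/Hecke/ConcTop.lean): the module side of HECKE (K5/K6/K7, HK-CONC);
* `R38.StmtEisNormK`, `R38.StmtMonoFix`, `R38.StmtMonoCover`: the three open Props of row 38
  (R38/TresTrivOf.lean, helper44).
This file also tests that the closures of rows 37 and 38 are co-importable.
-/

set_option autoImplicit false

open WeierstrassCurve WeierstrassCurve.Affine WeierstrassCurve.Affine.Point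

namespace Fermat.Agent.RIB

/-- **Row 37, full conditional root**: the frozen statement S43 from the open Props of rows
37 and 38. -/
theorem s43_full (hTop : Fermat.Agent.RT.StmtHkConcTop)
    (hEisK : Fermat.Agent.R38.StmtEisNormK) (hFix : Fermat.Agent.R38.StmtMonoFix)
    (hCov : Fermat.Agent.R38.StmtMonoCover)
    (P : FreyPackage) {N q : ℕ} (hcond : P.IsConductorLevel N) (hq : q.Prime) (hq2 : q ≠ 2)
    (hqp : q ≠ P.p) (hqN : q ∣ N)
    (hirr : GaloisRepIsIrreducible (K := AlgebraicClosure ℚ) ℚ P.freyCurve P.p)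
    (hmod : P.ModularRepOfLevel N) (hunr : P.GaloisRepUnramifiedAt q) :
    ∃ M : ℕ, M ∣ N ∧ ¬ q ∣ M ∧ P.ModularRepOfLevel M :=
  s43_master (Fermat.Agent.RT.rthkct_modSide hTop)
    (Fermat.Agent.R38.s44_of_open hEisK hFix hCov)
    P hcond hq hq2 hqp hqN hirr hmod hunr

end Fermat.Agent.RIB


end ZBRIB_015_0
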