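/- GENERATED FILE (helper35, build-time optimisation, NOTES/ZB.md): verbatim concatenation of the modules
   Fermat.Agent.RT.G2.Cayley
   Fermat.Agent.RT.G2.Side
   Fermat.Agent.RT.G2.Compare
   Fermat.Agent.RT.G2.Main
   Fermat.Agent.RT.G2.MainE
   Do not edit; do not import together with these modules. -/
import Mathlib
import Fermat.Agent.ZB.RT_003
import Fermat.Agent.ZB.S53_003

/-! ### bundled: `Fermat.Agent.RT.G2.Cayley` -/
section ZBRT_008_0

/-!
# K-machine, piece G2: the Cayley transform and the local relations, element level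

All identities are stated for the entries of `2 × 2` matrices over a commutative ring `B`, so
that they can be used for any representation of the matrices.

Notation: `Φ = (F00 F01; F10 F11)` with `det Φ = s²`, `w = (2s + tr Φ)⁻¹`;
`Ψ = w (2Φ − tr Φ) = (X Y; Z −X)`, `ν = X² + YZ`; then `(1 − ν) Φ = s ((1 + ν) + 2Ψ)`
(`rtg2_cayley`).  `Σ = t + (a b; c −a)`.

* `rtg2_cayley_nu`, `rtg2_cayley` : the Cayley transform inverts `Ψ ↦ s((1+ν) + 2Ψ)/(1−ν)`;
* `rtg2_sigma_sq`   : `a² + bc = t² − det Σ`;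
* `rtg2_minors`     : `[Φ, Σ] = 0` gives the three minors `bX − aY = cX − aZ = cY − bZ = 0`;
* `rtg2_unip`       : `Φ N = q N Φ` gives the four relations `Φ' N − q N Φ' = 0` for
  `Φ' = (1 + ν) + 2Ψ = κ Φ`.
-/

set_option autoImplicit false

namespace Fermat.Agent.RT.G2

variable {B : Type*} [CommRing B]

/-- `ν = w (tr Φ − 2s)` for the Cayley parameter of `Φ`, `det Φ = s²`. -/
theorem rtg2_cayley_nu (F00 F01 F10 F11 s w : B) (hdet : F00 * F11 - F01 * F10 = s ^ 2)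
    (hw : w * (2 * s + (F00 + F11)) = 1) :
    (w * (F00 - F11)) ^ 2 + (w * (2 * F01)) * (w * (2 * F10)) = w * (F00 + F11 - 2 * s) := by
  linear_combination (w * (F00 + F11 - 2 * s)) * hw - 4 * w ^ 2 * hdet

/-- `1 − ν = 4 s w`. -/
theorem rtg2_cayley_one_sub_nu (F00 F01 F10 F11 s w : B)
    (hdet : F00 * F11 - F01 * F10 = s ^ 2) (hw : w * (2 * s + (F00 + F11)) = 1) :
    1 - ((w * (F00 - F11)) ^ 2 + (w * (2 * F01)) * (w * (2 * F10))) = 4 * s * w := by
  rw [rtg2_cayley_nu F00 F01 F10 F11 s w hdet hw]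
  linear_combination -hw

/-- **Cayley.**  `(1 − ν) Φ = s ((1 + ν) + 2Ψ)`, entry by entry. -/
theorem rtg2_cayley (F00 F01 F10 F11 s w X Y Z ν : B) (hdet : F00 * F11 - F01 * F10 = s ^ 2)
    (hw : w * (2 * s + (F00 + F11)) = 1)
    (hX : X = w * (F00 - F11)) (hY : Y = w * (2 * F01)) (hZ : Z = w * (2 * F10))
    (hν : ν = X ^ 2 + Y * Z) :
    (1 - ν) * F00 = s * (1 + ν + 2 * X) ∧ (1 - ν) * F01 = s * (2 * Y) ∧
      (1 - ν) * F10 = s * (2 * Z) ∧ (1 - ν) * F11 = s * (1 + ν - 2 * X) := by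
  have h1 : ν = w * (F00 + F11 - 2 * s) := by
    rw [hν, hX, hY, hZ]
    exact rtg2_cayley_nu F00 F01 F10 F11 s w hdet hw
  have h2 : 1 - ν = 4 * s * w := by rw [h1]; linear_combination -hw
  have h3 : 1 + ν = 2 * w * (F00 + F11) := by rw [h1]; linear_combination -hw
  refine ⟨?_, ?_, ?_, ?_⟩
  · rw [h2, h3, hX]; ring
  · rw [h2, hY]; ring
  · rw [h2, hZ]; ring
  · rw [h2, h3, hX]; ring

/-- `a² + bc = t² − det Σ` for `Σ = t + (a b; c −a)` (`tr Σ = 2t`). -/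
theorem rtg2_sigma_sq (S00 S01 S10 S11 t : B) (htr : S00 + S11 = 2 * t) :
    (S00 - t) ^ 2 + S01 * S10 = t ^ 2 - (S00 * S11 - S01 * S10) := by
  linear_combination (S00) * htr

/-- **The minors.**  If `Φ` and `Σ` commute (`tr Σ = 2t`) then `Ψ = w(2Φ − tr Φ)` and
`Σ₀ = Σ − t = (a b; c −a)` satisfy `bX − aY = cX − aZ = cY − bZ = 0`. -/
theorem rtg2_minors (F00 F01 F10 F11 S00 S01 S10 S11 w t : B) (htr : S00 + S11 = 2 * t)
    (h00 : F00 * S00 + F01 * S10 = S00 * F00 + S01 * F10)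
    (h01 : F00 * S01 + F01 * S11 = S00 * F01 + S01 * F11)
    (h10 : F10 * S00 + F11 * S10 = S10 * F00 + S11 * F10) :
    S01 * (w * (F00 - F11)) - (S00 - t) * (w * (2 * F01)) = 0 ∧
    S10 * (w * (F00 - F11)) - (S00 - t) * (w * (2 * F10)) = 0 ∧
    S10 * (w * (2 * F01)) - S01 * (w * (2 * F10)) = 0 := by
  refine ⟨?_, ?_, ?_⟩
  · linear_combination w * h01 - (w * F01) * htr
  · linear_combination (-w) * h10 - (w * F10) * htr
  · linear_combination (2 * w) * h00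

/-- **The unipotent relations.**  If `Φ N = q N Φ` for `N = (a b; c −a)` and
`Φ' = κ Φ = (A B; C D)` then `Φ' N − q N Φ' = 0`, entry by entry (in the shape of
`rtk2E11 … rtk2E22`). -/
theorem rtg2_unip (F00 F01 F10 F11 a b c q κ A Bb C D : B)
    (hA : A = κ * F00) (hB : Bb = κ * F01) (hC : C = κ * F10) (hD : D = κ * F11)
    (h00 : F00 * a + F01 * c = q * (a * F00 + b * F10))
    (h01 : F00 * b - F01 * a = q * (a * F01 + b * F11))
    (h10 : F10 * a + F11 * c = q * (c * F00 - a * F10))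
    (h11 : F10 * b - F11 * a = q * (c * F01 - a * F11)) :
    (1 - q) * A * a - q * C * b + Bb * c = 0 ∧
    -((1 + q) * Bb * a) + (A - q * D) * b = 0 ∧
    (1 + q) * C * a + (D - q * A) * c = 0 ∧
    -((1 - q) * D * a) + C * b - q * Bb * c = 0 := by
  subst hA hB hC hD
  refine ⟨?_, ?_, ?_, ?_⟩
  · linear_combination κ * h00
  · linear_combination κ * h01
  · linear_combination κ * h10
  · linear_combination κ * h11

end Fermat.Agent.RT.G2


end ZBRT_008_0

/-! ### bundled: `Fermat.Agent.RT.G2.Side` -/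
section ZBRT_008_1

/-!
# K-machine, piece G2: one side of a Taylor–Wiles datum gives a homomorphism `P → T`

For matrices `Sig i`, `Phi i ∈ M₂(T)` (`T` a commutative `O`-algebra) with `tr Σ = 2t`,
`det Σ = 1`, `det Φ = s²` and nilpotent entries of `Σ − t`, `Φ − s`, and nilpotent `x k`:

* `rtg2W`   : `w_i = (2 s_i + tr Φ_i)⁻¹`;
* `rtg2Val` : the values of the variables of `P = Rtk2P O ι τ`
  (`a, b, c` = entries of `Σ − t`; `X, Y, Z` = entries of the Cayley parameter `w (2Φ − tr Φ)`);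
* `rtg2Ev`  : the evaluation `P →ₐ[O] T`;
* `rtg2Ev_g`, `rtg2Ev_f` : `a² + bc ↦ t² − 1`;
* `rtg2Ev_minors` : the minors go to `0` if `Φ Σ = Σ Φ`;
* `rtg2Ev_unip`   : the unipotent relations go to `0` if `Φ (Σ − 1) = q (Σ − 1) Φ` (`t = 1`);
* `rtg2_adjoin_le_range` : the entries of `Σ`, `Φ` and the `x k` lie in the range of `rtg2Ev`.
-/

set_option autoImplicit false
set_option linter.style.haveILetI false

namespace Fermat.Agent.RT.G2

open Function MvPowerSeries Fermat.Agent.RT Fermat.Agent.RT.K2 Fermat.Agent.S53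

section Side

variable {O : Type*} [CommRing O] {ι τ : Type*} {T : Type*} [CommRing T] [Algebra O T]

/-- `w_i = (2 s_i + tr Φ_i)⁻¹`. -/
noncomputable def rtg2W (s : ι → O) (Phi : ι → Matrix (Fin 2) (Fin 2) T) (i : ι) : T :=
  Ring.inverse (2 * algebraMap O T (s i) + (Phi i).trace)

/-- The values of the variables of `P`. -/
noncomputable def rtg2Val (t s : ι → O) (Sig Phi : ι → Matrix (Fin 2) (Fin 2) T) (x : τ → T) :
    Rtk2Var ι τ → T
  | Sum.inl (i, k) =>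
    ![Sig i 0 0 - algebraMap O T (t i), Sig i 0 1, Sig i 1 0,
      rtg2W s Phi i * (Phi i 0 0 - Phi i 1 1), rtg2W s Phi i * (2 * Phi i 0 1),
      rtg2W s Phi i * (2 * Phi i 1 0)] k
  | Sum.inr k => x k

/-- The algebraic part of `TWSide`. -/
structure Rtg2Side (t s : ι → O) (Sig Phi : ι → Matrix (Fin 2) (Fin 2) T) (x : τ → T) :
    Prop where
  tr_sig : ∀ i, (Sig i).trace = algebraMap O T (2 * t i)
  det_sig : ∀ i, (Sig i).det = 1
  det_phi : ∀ i, (Phi i).det = algebraMap O T (s i ^ 2)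
  nil_sig : ∀ i a b,
    IsNilpotent ((Sig i - algebraMap O T (t i) • (1 : Matrix (Fin 2) (Fin 2) T)) a b)
  nil_phi : ∀ i a b,
    IsNilpotent ((Phi i - algebraMap O T (s i) • (1 : Matrix (Fin 2) (Fin 2) T)) a b)
  nil_x : ∀ k, IsNilpotent (x k)
  unit_s : ∀ i, IsUnit (s i)
  unit_two : IsUnit (2 : O)

variable {t s : ι → O} {Sig Phi : ι → Matrix (Fin 2) (Fin 2) T} {x : τ → T}

namespace Rtg2Side

variable (h : Rtg2Side t s Sig Phi x)
include h

theorem tr_sig' (i : ι) : Sig i 0 0 + Sig i 1 1 = 2 * algebraMap O T (t i) := by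
  have := h.tr_sig i
  rwa [Matrix.trace_fin_two, map_mul, map_ofNat] at this

theorem det_sig' (i : ι) : Sig i 0 0 * Sig i 1 1 - Sig i 0 1 * Sig i 1 0 = 1 := by
  have := h.det_sig i
  rwa [Matrix.det_fin_two] at this

theorem det_phi' (i : ι) :
    Phi i 0 0 * Phi i 1 1 - Phi i 0 1 * Phi i 1 0 = algebraMap O T (s i) ^ 2 := by
  have := h.det_phi i
  rwa [Matrix.det_fin_two, map_pow] at this

theorem nil_sig00 (i : ι) : IsNilpotent (Sig i 0 0 - algebraMap O T (t i)) := by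
  have := h.nil_sig i 0 0
  rw [Matrix.sub_apply, Matrix.smul_apply, Matrix.one_apply_eq, smul_eq_mul, mul_one] at this
  exact this

theorem nil_sig01 (i : ι) : IsNilpotent (Sig i 0 1) := by
  have := h.nil_sig i 0 1
  simpa using this

theorem nil_sig10 (i : ι) : IsNilpotent (Sig i 1 0) := by
  have := h.nil_sig i 1 0
  simpa using this

theorem nil_phi00 (i : ι) : IsNilpotent (Phi i 0 0 - algebraMap O T (s i)) := by
  have := h.nil_phi i 0 0
  rw [Matrix.sub_apply, Matrix.smul_apply, Matrix.one_apply_eq, smul_eq_mul, mul_one] at this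
  exact this

theorem nil_phi11 (i : ι) : IsNilpotent (Phi i 1 1 - algebraMap O T (s i)) := by
  have := h.nil_phi i 1 1
  rw [Matrix.sub_apply, Matrix.smul_apply, Matrix.one_apply_eq, smul_eq_mul, mul_one] at this
  exact this

theorem nil_phi01 (i : ι) : IsNilpotent (Phi i 0 1) := by
  have := h.nil_phi i 0 1
  simpa using this

theorem nil_phi10 (i : ι) : IsNilpotent (Phi i 1 0) := by
  have := h.nil_phi i 1 0
  simpa using this

/-- `2 s + tr Φ` is a unit. -/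
theorem isUnit_u (i : ι) : IsUnit (2 * algebraMap O T (s i) + (Phi i).trace) := by
  have h4 : IsUnit (4 * algebraMap O T (s i)) := by
    have h2 : IsUnit (algebraMap O T 2) := h.unit_two.map _
    have hs : IsUnit (algebraMap O T (s i)) := (h.unit_s i).map _
    have : (4 : T) * algebraMap O T (s i) = algebraMap O T 2 * algebraMap O T 2 *
        algebraMap O T (s i) := by
      rw [map_ofNat]; ring
    rw [this]
    exact (h2.mul h2).mul hs
  have hn : IsNilpotent ((Phi i 0 0 - algebraMap O T (s i)) +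
      (Phi i 1 1 - algebraMap O T (s i))) :=
    (Commute.all _ _).isNilpotent_add (h.nil_phi00 i) (h.nil_phi11 i)
  have := hn.isUnit_add_left_of_commute h4 (Commute.all _ _)
  have e : 2 * algebraMap O T (s i) + (Phi i).trace = 4 * algebraMap O T (s i) +
      ((Phi i 0 0 - algebraMap O T (s i)) + (Phi i 1 1 - algebraMap O T (s i))) := by
    rw [Matrix.trace_fin_two]; ring
  rw [e]
  exact this

theorem w_mul (i : ι) :
    rtg2W s Phi i * (2 * algebraMap O T (s i) + (Phi i 0 0 + Phi i 1 1)) = 1 := by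
  have h1 : rtg2W s Phi i * (2 * algebraMap O T (s i) + (Phi i).trace) = 1 :=
    Ring.inverse_mul_cancel _ (h.isUnit_u i)
  rw [Matrix.trace_fin_two] at h1
  exact h1

/-- All the values of the variables are nilpotent. -/
theorem nil_val (v : Rtk2Var ι τ) : IsNilpotent (rtg2Val t s Sig Phi x v) := by
  rcases v with ⟨i, k⟩ | k
  · have h1 : IsNilpotent (Phi i 0 0 - Phi i 1 1) := by
      have := (Commute.all _ _).isNilpotent_sub (h.nil_phi00 i) (h.nil_phi11 i)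
      have e : Phi i 0 0 - Phi i 1 1 = (Phi i 0 0 - algebraMap O T (s i)) -
          (Phi i 1 1 - algebraMap O T (s i)) := by ring
      rw [e]; exact this
    fin_cases k
    · exact h.nil_sig00 i
    · exact h.nil_sig01 i
    · exact h.nil_sig10 i
    · exact (Commute.all _ _).isNilpotent_mul_left h1
    · exact (Commute.all _ _).isNilpotent_mul_left
        ((Commute.all _ _).isNilpotent_mul_left (h.nil_phi01 i))
    · exact (Commute.all _ _).isNilpotent_mul_left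
        ((Commute.all _ _).isNilpotent_mul_left (h.nil_phi10 i))
  · exact h.nil_x k

end Rtg2Side

variable [Finite ι] [Finite τ]

/-- The evaluation homomorphism `P → T`. -/
noncomputable def rtg2Ev (h : Rtg2Side t s Sig Phi x) : Rtk2P O ι τ →ₐ[O] T :=
  evNilp O (rtg2Val t s Sig Phi x) h.nil_val

section Ev

variable (h : Rtg2Side t s Sig Phi x)

theorem rtg2Ev_X (v : Rtk2Var ι τ) : rtg2Ev h (X v) = rtg2Val t s Sig Phi x v :=
  evNilp_X _ _ v

theorem rtg2Ev_a (i : ι) : rtg2Ev h (rtk2a i) = Sig i 0 0 - algebraMap O T (t i) :=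
  rtg2Ev_X h _

theorem rtg2Ev_b (i : ι) : rtg2Ev h (rtk2b i) = Sig i 0 1 := rtg2Ev_X h _

theorem rtg2Ev_c (i : ι) : rtg2Ev h (rtk2c i) = Sig i 1 0 := rtg2Ev_X h _

theorem rtg2Ev_XX (i : ι) : rtg2Ev h (rtk2X i) = rtg2W s Phi i * (Phi i 0 0 - Phi i 1 1) :=
  rtg2Ev_X h _

theorem rtg2Ev_Y (i : ι) : rtg2Ev h (rtk2Y i) = rtg2W s Phi i * (2 * Phi i 0 1) :=
  rtg2Ev_X h _

theorem rtg2Ev_Z (i : ι) : rtg2Ev h (rtk2Z i) = rtg2W s Phi i * (2 * Phi i 1 0) :=
  rtg2Ev_X h _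

theorem rtg2Ev_x (k : τ) : rtg2Ev h (X (rtk2jx k)) = x k := rtg2Ev_X h _

theorem rtg2Ev_C (c : O) : rtg2Ev h (C c) = algebraMap O T c := by
  have : (C c : Rtk2P O ι τ) = algebraMap O (Rtk2P O ι τ) c := rfl
  rw [this, AlgHom.commutes]

/-- `a² + bc ↦ t² − 1`. -/
theorem rtg2Ev_g (i : ι) : rtg2Ev h (rtk2g i) = algebraMap O T (t i) ^ 2 - 1 := by
  unfold rtk2g
  rw [map_add, map_pow, map_mul, rtg2Ev_a, rtg2Ev_b, rtg2Ev_c,
    rtg2_sigma_sq _ _ _ _ _ (h.tr_sig' i), h.det_sig' i]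

/-- `a² + bc − δ² ↦ 0` if `t² − δ² = 1`. -/
theorem rtg2Ev_f (δ : ι → O) (hδ : ∀ i, t i ^ 2 - δ i ^ 2 = 1) (i : ι) :
    rtg2Ev h (rtk2f δ i) = 0 := by
  have e : (rtk2f δ i : Rtk2P O ι τ) = rtk2g i - C (δ i ^ 2) := rfl
  rw [e, map_sub, rtg2Ev_g, rtg2Ev_C, ← map_pow, ← map_one (algebraMap O T), ← map_sub,
    ← map_sub, ← map_zero (algebraMap O T)]
  congr 1
  linear_combination hδ i

theorem rtg2Ev_nu (i : ι) : rtg2Ev h (rtk2nu i) =
    (rtg2W s Phi i * (Phi i 0 0 - Phi i 1 1)) ^ 2 +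
      (rtg2W s Phi i * (2 * Phi i 0 1)) * (rtg2W s Phi i * (2 * Phi i 1 0)) := by
  unfold rtk2nu
  rw [map_add, map_pow, map_mul, rtg2Ev_XX, rtg2Ev_Y, rtg2Ev_Z]

/-- **Cayley**: `(1 − ν) Φ = s Φ'`. -/
theorem rtg2Ev_cayley (i : ι) :
    (1 - rtg2Ev h (rtk2nu i)) * Phi i 0 0 = algebraMap O T (s i) * rtg2Ev h (rtk2A i) ∧
    (1 - rtg2Ev h (rtk2nu i)) * Phi i 0 1 = algebraMap O T (s i) * rtg2Ev h (rtk2B i) ∧
    (1 - rtg2Ev h (rtk2nu i)) * Phi i 1 0 = algebraMap O T (s i) * rtg2Ev h (rtk2C i) ∧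
    (1 - rtg2Ev h (rtk2nu i)) * Phi i 1 1 = algebraMap O T (s i) * rtg2Ev h (rtk2D i) := by
  have hc := rtg2_cayley (Phi i 0 0) (Phi i 0 1) (Phi i 1 0) (Phi i 1 1) (algebraMap O T (s i))
    (rtg2W s Phi i) _ _ _ _ (h.det_phi' i) (h.w_mul i) rfl rfl rfl rfl
  have hA : rtg2Ev h (rtk2A i) = 1 + rtg2Ev h (rtk2nu i) + 2 * rtg2Ev h (rtk2X i) := by
    unfold rtk2A
    rw [map_add, map_add, map_one, map_mul, map_ofNat]
  have hB : rtg2Ev h (rtk2B i) = 2 * rtg2Ev h (rtk2Y i) := by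
    unfold rtk2B
    rw [map_mul, map_ofNat]
  have hC : rtg2Ev h (rtk2C i) = 2 * rtg2Ev h (rtk2Z i) := by
    unfold rtk2C
    rw [map_mul, map_ofNat]
  have hD : rtg2Ev h (rtk2D i) = 1 + rtg2Ev h (rtk2nu i) - 2 * rtg2Ev h (rtk2X i) := by
    unfold rtk2D
    rw [map_sub, map_add, map_one, map_mul, map_ofNat]
  rw [hA, hB, hC, hD, rtg2Ev_nu, rtg2Ev_XX, rtg2Ev_Y, rtg2Ev_Z]
  exact hc

/-- **The minors go to `0`** when `Φ` and `Σ` commute. -/
theorem rtg2Ev_minors (i : ι) (hrel : Phi i * Sig i = Sig i * Phi i) :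
    rtg2Ev h (rtk2m1 i) = 0 ∧ rtg2Ev h (rtk2m2 i) = 0 ∧ rtg2Ev h (rtk2m3 i) = 0 := by
  have h00 := congrFun (congrFun hrel 0) 0
  have h01 := congrFun (congrFun hrel 0) 1
  have h10 := congrFun (congrFun hrel 1) 0
  simp only [Matrix.mul_apply, Fin.sum_univ_two] at h00 h01 h10
  have hm := rtg2_minors (Phi i 0 0) (Phi i 0 1) (Phi i 1 0) (Phi i 1 1) (Sig i 0 0)
    (Sig i 0 1) (Sig i 1 0) (Sig i 1 1) (rtg2W s Phi i) (algebraMap O T (t i))
    (h.tr_sig' i) h00 h01 h10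
  unfold rtk2m1 rtk2m2 rtk2m3
  simp only [map_sub, map_mul, rtg2Ev_a, rtg2Ev_b, rtg2Ev_c, rtg2Ev_XX, rtg2Ev_Y, rtg2Ev_Z]
  exact hm

/-- **The unipotent relations go to `0`** when `t = 1` and `Φ (Σ − 1) = q (Σ − 1) Φ`. -/
theorem rtg2Ev_unip (q : ι → O) (i : ι) (ht : t i = 1)
    (hrel : Phi i * (Sig i - 1) = algebraMap O T (q i) • ((Sig i - 1) * Phi i)) :
    rtg2Ev h (rtk2E11 q i) = 0 ∧ rtg2Ev h (rtk2E12 q i) = 0 ∧
      rtg2Ev h (rtk2E21 q i) = 0 ∧ rtg2Ev h (rtk2E22 q i) = 0 := by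
  have htr := h.tr_sig' i
  rw [ht, map_one, mul_one] at htr
  have ha : rtg2Ev h (rtk2a i) = Sig i 0 0 - 1 := by rw [rtg2Ev_a, ht, map_one]
  have h00 := congrFun (congrFun hrel 0) 0
  have h01 := congrFun (congrFun hrel 0) 1
  have h10 := congrFun (congrFun hrel 1) 0
  have h11 := congrFun (congrFun hrel 1) 1
  simp only [Matrix.mul_apply, Fin.sum_univ_two, Matrix.smul_apply, Matrix.sub_apply,
    Matrix.one_apply_eq, Matrix.one_apply_ne, smul_eq_mul, ne_eq, zero_ne_one, one_ne_zero,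
    not_false_eq_true, sub_zero] at h00 h01 h10 h11
  obtain ⟨hA, hB, hC, hD⟩ := rtg2Ev_cayley h i
  obtain ⟨sinv, hsinv⟩ := ((h.unit_s i).map (algebraMap O T)).exists_left_inv
  have key := rtg2_unip (Phi i 0 0) (Phi i 0 1) (Phi i 1 0) (Phi i 1 1) (Sig i 0 0 - 1)
    (Sig i 0 1) (Sig i 1 0) (algebraMap O T (q i)) (sinv * (1 - rtg2Ev h (rtk2nu i)))
    (rtg2Ev h (rtk2A i)) (rtg2Ev h (rtk2B i)) (rtg2Ev h (rtk2C i)) (rtg2Ev h (rtk2D i))
    (by linear_combination (-(rtg2Ev h (rtk2A i))) * hsinv - sinv * hA)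
    (by linear_combination (-(rtg2Ev h (rtk2B i))) * hsinv - sinv * hB)
    (by linear_combination (-(rtg2Ev h (rtk2C i))) * hsinv - sinv * hC)
    (by linear_combination (-(rtg2Ev h (rtk2D i))) * hsinv - sinv * hD)
    (by linear_combination h00)
    (by linear_combination h01 - (Phi i 0 1) * htr + (algebraMap O T (q i) * Phi i 0 1 * 0) * htr)
    (by linear_combination h10 + (algebraMap O T (q i) * Phi i 1 0) * htr)
    (by linear_combination h11 - (Phi i 1 1) * htr + (algebraMap O T (q i) * Phi i 1 1) * htr)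
  unfold rtk2E11 rtk2E12 rtk2E21 rtk2E22
  simp only [map_sub, map_add, map_mul, map_neg, map_one, rtg2Ev_C, ha, rtg2Ev_b, rtg2Ev_c]
  exact key

omit [Finite ι] [Finite τ] in
/-- `1 − ν` is a unit of `P`. -/
theorem rtg2_isUnit_one_sub_nu (i : ι) : IsUnit (1 - rtk2nu i : Rtk2P O ι τ) := by
  rw [MvPowerSeries.isUnit_iff_constantCoeff]
  unfold rtk2nu rtk2X rtk2Y rtk2Z
  simp

/-- The entries of `Σ`, `Φ` and the `x k` lie in the range of the evaluation. -/
theorem rtg2_adjoin_le_range :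
    Algebra.adjoin O (rttwEntries Sig ∪ rttwEntries Phi ∪ Set.range x) ≤ (rtg2Ev h).range := by
  refine Algebra.adjoin_le ?_
  rintro y ((⟨i, a, b, rfl⟩ | ⟨i, a, b, rfl⟩) | ⟨k, rfl⟩)
  · -- entries of `Σ`
    have htr := h.tr_sig' i
    have h00 : Sig i 0 0 ∈ (rtg2Ev h).range := (AlgHom.mem_range _).mpr ⟨rtk2a i + C (t i), by
      rw [map_add, rtg2Ev_a, rtg2Ev_C, sub_add_cancel]⟩
    have h01 : Sig i 0 1 ∈ (rtg2Ev h).range := (AlgHom.mem_range _).mpr ⟨rtk2b i, rtg2Ev_b h i⟩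
    have h10 : Sig i 1 0 ∈ (rtg2Ev h).range := (AlgHom.mem_range _).mpr ⟨rtk2c i, rtg2Ev_c h i⟩
    have h11 : Sig i 1 1 ∈ (rtg2Ev h).range := (AlgHom.mem_range _).mpr ⟨C (t i) - rtk2a i, by
      rw [map_sub, rtg2Ev_a, rtg2Ev_C]
      linear_combination -htr⟩
    fin_cases a <;> fin_cases b
    · exact h00
    · exact h01
    · exact h10
    · exact h11
  · -- entries of `Φ`
    obtain ⟨hA, hB, hC, hD⟩ := rtg2Ev_cayley h i
    obtain ⟨v, hv⟩ := (rtg2_isUnit_one_sub_nu (O := O) (τ := τ) i).exists_left_inv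
    have hv' : rtg2Ev h v * (1 - rtg2Ev h (rtk2nu i)) = 1 := by
      have := congrArg (rtg2Ev h) hv
      rwa [map_mul, map_sub, map_one] at this
    have h00 : Phi i 0 0 ∈ (rtg2Ev h).range :=
      (AlgHom.mem_range _).mpr ⟨v * (C (s i) * rtk2A i), by
        rw [map_mul, map_mul, rtg2Ev_C]
        linear_combination (-(rtg2Ev h v)) * hA + (Phi i 0 0) * hv'⟩
    have h01 : Phi i 0 1 ∈ (rtg2Ev h).range :=
      (AlgHom.mem_range _).mpr ⟨v * (C (s i) * rtk2B i), by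
        rw [map_mul, map_mul, rtg2Ev_C]
        linear_combination (-(rtg2Ev h v)) * hB + (Phi i 0 1) * hv'⟩
    have h10 : Phi i 1 0 ∈ (rtg2Ev h).range :=
      (AlgHom.mem_range _).mpr ⟨v * (C (s i) * rtk2C i), by
        rw [map_mul, map_mul, rtg2Ev_C]
        linear_combination (-(rtg2Ev h v)) * hC + (Phi i 1 0) * hv'⟩
    have h11 : Phi i 1 1 ∈ (rtg2Ev h).range :=
      (AlgHom.mem_range _).mpr ⟨v * (C (s i) * rtk2D i), by
        rw [map_mul, map_mul, rtg2Ev_C]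
        linear_combination (-(rtg2Ev h v)) * hD + (Phi i 1 1) * hv'⟩
    fin_cases a <;> fin_cases b
    · exact h00
    · exact h01
    · exact h10
    · exact h11
  · exact (AlgHom.mem_range _).mpr ⟨X (rtk2jx k), rtg2Ev_x h k⟩

end Ev

end Side

end Fermat.Agent.RT.G2


end ZBRT_008_1

/-! ### bundled: `Fermat.Agent.RT.G2.Compare` -/
section ZBRT_008_2

/-!
# K-machine, piece G2: comparison of the values of the variables

* `rtg2_val_congr` : two sides whose matrices have the same images under algebra homomorphisms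
  `G1 : T1 → M`, `Gχ : Tχ → M` (`M` any `O`-algebra, not necessarily commutative) have the same
  values of the variables in `M`.
* `rtg2_val_base`  : the same for a side and a base `(Sig0, Phi0, Psi0)` given with its Cayley
  parameter.
-/

set_option autoImplicit false
set_option linter.style.haveILetI false

namespace Fermat.Agent.RT.G2

open Function MvPowerSeries Fermat.Agent.RT Fermat.Agent.RT.K2

section Compare

variable {O : Type*} [CommRing O] {ι τ : Type*}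
  {T1 : Type*} [CommRing T1] [Algebra O T1] {Tχ : Type*} [CommRing Tχ] [Algebra O Tχ]
  {M : Type*} [Ring M] [Algebra O M]

/-- uniqueness of inverses, transported -/
theorem rtg2_w_congr {t1 tχ s : ι → O} {Sig1 Phi1 : ι → Matrix (Fin 2) (Fin 2) T1}
    {x1 : τ → T1} {Sigχ Phiχ : ι → Matrix (Fin 2) (Fin 2) Tχ} {xχ : τ → Tχ}
    (h1 : Rtg2Side t1 s Sig1 Phi1 x1) (hχ : Rtg2Side tχ s Sigχ Phiχ xχ)
    (G1 : T1 →ₐ[O] M) (Gχ : Tχ →ₐ[O] M)
    (hphi : ∀ i a b, G1 (Phi1 i a b) = Gχ (Phiχ i a b)) (i : ι) :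
    G1 (rtg2W s Phi1 i) = Gχ (rtg2W s Phiχ i) := by
  have e1 := congrArg G1 (h1.w_mul i)
  have eχ := congrArg Gχ (hχ.w_mul i)
  have e1' : G1 (2 * algebraMap O T1 (s i) + (Phi1 i 0 0 + Phi1 i 1 1)) *
      G1 (rtg2W s Phi1 i) = 1 := by
    rw [← map_mul, mul_comm, h1.w_mul i, map_one]
  rw [map_mul, map_one] at e1 eχ
  have hU : G1 (2 * algebraMap O T1 (s i) + (Phi1 i 0 0 + Phi1 i 1 1)) =
      Gχ (2 * algebraMap O Tχ (s i) + (Phiχ i 0 0 + Phiχ i 1 1)) := by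
    simp only [map_add, map_mul, map_ofNat, AlgHom.commutes, hphi]
  calc G1 (rtg2W s Phi1 i)
      = (Gχ (rtg2W s Phiχ i) *
          Gχ (2 * algebraMap O Tχ (s i) + (Phiχ i 0 0 + Phiχ i 1 1))) *
            G1 (rtg2W s Phi1 i) := by rw [eχ, one_mul]
    _ = Gχ (rtg2W s Phiχ i) *
          (G1 (2 * algebraMap O T1 (s i) + (Phi1 i 0 0 + Phi1 i 1 1)) *
            G1 (rtg2W s Phi1 i)) := by rw [mul_assoc, hU]
    _ = Gχ (rtg2W s Phiχ i) := by rw [e1', mul_one]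

/-- **Comparison of two sides.** -/
theorem rtg2_val_congr {t1 tχ s : ι → O} {Sig1 Phi1 : ι → Matrix (Fin 2) (Fin 2) T1}
    {x1 : τ → T1} {Sigχ Phiχ : ι → Matrix (Fin 2) (Fin 2) Tχ} {xχ : τ → Tχ}
    (h1 : Rtg2Side t1 s Sig1 Phi1 x1) (hχ : Rtg2Side tχ s Sigχ Phiχ xχ)
    (G1 : T1 →ₐ[O] M) (Gχ : Tχ →ₐ[O] M)
    (ht : ∀ i, algebraMap O M (t1 i) = algebraMap O M (tχ i))
    (hsig : ∀ i a b, G1 (Sig1 i a b) = Gχ (Sigχ i a b))
    (hphi : ∀ i a b, G1 (Phi1 i a b) = Gχ (Phiχ i a b))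
    (hx : ∀ k, G1 (x1 k) = Gχ (xχ k)) (v : Rtk2Var ι τ) :
    G1 (rtg2Val t1 s Sig1 Phi1 x1 v) = Gχ (rtg2Val tχ s Sigχ Phiχ xχ v) := by
  have hw := fun i => rtg2_w_congr h1 hχ G1 Gχ hphi i
  rcases v with ⟨i, k⟩ | k
  · fin_cases k
    · show G1 (Sig1 i 0 0 - algebraMap O T1 (t1 i)) = Gχ (Sigχ i 0 0 - algebraMap O Tχ (tχ i))
      rw [map_sub, map_sub, AlgHom.commutes, AlgHom.commutes, hsig, ht]
    · exact hsig i 0 1
    · exact hsig i 1 0
    · show G1 (rtg2W s Phi1 i * (Phi1 i 0 0 - Phi1 i 1 1)) =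
        Gχ (rtg2W s Phiχ i * (Phiχ i 0 0 - Phiχ i 1 1))
      rw [map_mul, map_mul, map_sub, map_sub, hw, hphi, hphi]
    · show G1 (rtg2W s Phi1 i * (2 * Phi1 i 0 1)) = Gχ (rtg2W s Phiχ i * (2 * Phiχ i 0 1))
      rw [map_mul, map_mul, map_mul, map_mul, map_ofNat, map_ofNat, hw, hphi]
    · show G1 (rtg2W s Phi1 i * (2 * Phi1 i 1 0)) = Gχ (rtg2W s Phiχ i * (2 * Phiχ i 1 0))
      rw [map_mul, map_mul, map_mul, map_mul, map_ofNat, map_ofNat, hw, hphi]
  · exact hx k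

variable {T0 : Type*} [CommRing T0] [Algebra O T0]

/-- **Comparison with the base.** -/
theorem rtg2_val_base {s : ι → O} {Sig1 Phi1 : ι → Matrix (Fin 2) (Fin 2) T1}
    {x1 : τ → T1} (h1 : Rtg2Side (fun _ => (1 : O)) s Sig1 Phi1 x1)
    (Sig0 Phi0 Psi0 : ι → Matrix (Fin 2) (Fin 2) T0)
    (hcay : ∀ i, IsCayleyParam (algebraMap O T0 (s i)) (Phi0 i) (Psi0 i))
    (G1 : T1 →ₐ[O] M) (G0 : T0 →ₐ[O] M)
    (hsig : ∀ i a b, G1 (Sig1 i a b) = G0 (Sig0 i a b))
    (hphi : ∀ i a b, G1 (Phi1 i a b) = G0 (Phi0 i a b)) (i : ι) (k : Fin 6) :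
    G1 (rtg2Val (fun _ => (1 : O)) s Sig1 Phi1 x1 (Sum.inl (i, k))) =
      G0 (rttwBaseVal Sig0 Psi0 (i, k)) := by
  -- the Cayley relation, entry by entry
  have hc := hcay i
  unfold IsCayleyParam at hc
  rw [two_smul] at hc
  have c00 := congrFun (congrFun hc 0) 0
  have c01 := congrFun (congrFun hc 0) 1
  have c10 := congrFun (congrFun hc 1) 0
  simp only [Matrix.smul_apply, Matrix.sub_apply, Matrix.add_apply, Matrix.one_apply_eq,
    Matrix.one_apply_ne, smul_eq_mul, ne_eq, zero_ne_one, one_ne_zero, not_false_eq_true,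
    mul_zero, sub_zero, mul_one, Matrix.trace_fin_two] at c00 c01 c10
  have e1 := congrArg G1 (h1.w_mul i)
  rw [map_mul, map_one] at e1
  have hU : G1 (2 * algebraMap O T1 (s i) + (Phi1 i 0 0 + Phi1 i 1 1)) =
      G0 (2 * algebraMap O T0 (s i) + (Phi0 i 0 0 + Phi0 i 1 1)) := by
    simp only [map_add, map_mul, map_ofNat, AlgHom.commutes, hphi]
  -- `G0 z = G1 w * G0 (u0 * z)`
  have key : ∀ z : T0, G0 z = G1 (rtg2W s Phi1 i) *
      G0 ((2 * algebraMap O T0 (s i) + (Phi0 i 0 0 + Phi0 i 1 1)) * z) := by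
    intro z
    rw [map_mul, ← mul_assoc, ← hU, e1, one_mul]
  fin_cases k
  · show G1 (Sig1 i 0 0 - algebraMap O T1 1) = G0 ((Sig0 i - 1) 0 0)
    rw [Matrix.sub_apply, Matrix.one_apply_eq, map_sub, map_sub, map_one, map_one, map_one, hsig]
  · show G1 (Sig1 i 0 1) = G0 ((Sig0 i - 1) 0 1)
    rw [Matrix.sub_apply, Matrix.one_apply_ne (by decide), sub_zero, hsig]
  · show G1 (Sig1 i 1 0) = G0 ((Sig0 i - 1) 1 0)
    rw [Matrix.sub_apply, Matrix.one_apply_ne (by decide), sub_zero, hsig]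
  · show G1 (rtg2W s Phi1 i * (Phi1 i 0 0 - Phi1 i 1 1)) = G0 (Psi0 i 0 0)
    rw [key (Psi0 i 0 0), map_mul, map_sub, hphi, hphi, ← map_sub]
    congr 2
    linear_combination -c00
  · show G1 (rtg2W s Phi1 i * (2 * Phi1 i 0 1)) = G0 (Psi0 i 0 1)
    rw [key (Psi0 i 0 1), map_mul, map_mul, map_ofNat, hphi, ← map_ofNat G0, ← map_mul]
    congr 2
    linear_combination -c01
  · show G1 (rtg2W s Phi1 i * (2 * Phi1 i 1 0)) = G0 (Psi0 i 1 0)
    rw [key (Psi0 i 1 0), map_mul, map_mul, map_ofNat, hphi, ← map_ofNat G0, ← map_mul]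
    congr 2
    linear_combination -c10

section EvCongr

variable [Finite ι] [Finite τ]

/-- **Comparison of the two evaluations**: if the matrices of two sides have the same images in
`M`, then so do all the power series. -/
theorem rtg2_ev_congr {t1 tχ s : ι → O} {Sig1 Phi1 : ι → Matrix (Fin 2) (Fin 2) T1}
    {x1 : τ → T1} {Sigχ Phiχ : ι → Matrix (Fin 2) (Fin 2) Tχ} {xχ : τ → Tχ}
    (h1 : Rtg2Side t1 s Sig1 Phi1 x1) (hχ : Rtg2Side tχ s Sigχ Phiχ xχ)
    (G1 : T1 →ₐ[O] M) (Gχ : Tχ →ₐ[O] M)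
    (ht : ∀ i, algebraMap O M (t1 i) = algebraMap O M (tχ i))
    (hsig : ∀ i a b, G1 (Sig1 i a b) = Gχ (Sigχ i a b))
    (hphi : ∀ i a b, G1 (Phi1 i a b) = Gχ (Phiχ i a b))
    (hx : ∀ k, G1 (x1 k) = Gχ (xχ k)) (u : Rtk2P O ι τ) :
    G1 (rtg2Ev h1 u) = Gχ (rtg2Ev hχ u) := by
  obtain ⟨N1, hN1⟩ := Fermat.Agent.S53.exists_pow_span_range_eq_bot_of_isNilpotent
    (fun v => rtg2Ev h1 (X v)) (fun v => by rw [rtg2Ev_X]; exact h1.nil_val v)
  obtain ⟨Nχ, hNχ⟩ := Fermat.Agent.S53.exists_pow_span_range_eq_bot_of_isNilpotent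
    (fun v => rtg2Ev hχ (X v)) (fun v => by rw [rtg2Ev_X]; exact hχ.nil_val v)
  have hN1' : (Ideal.span (Set.range fun v => rtg2Ev h1 (X v))) ^ (max N1 Nχ) = ⊥ :=
    le_bot_iff.mp (hN1 ▸ Ideal.pow_le_pow_right (le_max_left _ _))
  have hNχ' : (Ideal.span (Set.range fun v => rtg2Ev hχ (X v))) ^ (max N1 Nχ) = ⊥ :=
    le_bot_iff.mp (hNχ ▸ Ideal.pow_le_pow_right (le_max_right _ _))
  rw [Fermat.Agent.S53.mvPowerSeries_algHom_apply_eq_aeval_truncTotal (rtg2Ev h1) _ hN1' u,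
    Fermat.Agent.S53.mvPowerSeries_algHom_apply_eq_aeval_truncTotal (rtg2Ev hχ) _ hNχ' u]
  have key : G1.comp (MvPolynomial.aeval fun v => rtg2Ev h1 (X v)) =
      Gχ.comp (MvPolynomial.aeval fun v => rtg2Ev hχ (X v)) := by
    refine MvPolynomial.algHom_ext fun v => ?_
    rw [AlgHom.comp_apply, AlgHom.comp_apply, MvPolynomial.aeval_X, MvPolynomial.aeval_X,
      rtg2Ev_X, rtg2Ev_X]
    exact rtg2_val_congr h1 hχ G1 Gχ ht hsig hphi hx v
  exact DFunLike.congr_fun key _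

end EvCongr

end Compare

end Fermat.Agent.RT.G2


end ZBRT_008_2

/-! ### bundled: `Fermat.Agent.RT.G2.Main` -/
section ZBRT_008_3

/-!
# K-machine, piece G2: a Taylor–Wiles datum gives a level datum

`stmtG2 : StmtG2` (`RT/PlanTW.lean`): from `TWDatum n` (the framed Hecke rings `T¹`, `T^χ` with
the matrices `Σ_i`, `Φ_i` and the further generators `x_t`) we construct the two homomorphisms
`ρ1, ρχ : P → M_d(S ⧸ 𝔪 ^ n)` of `TWLevelP n`, as `j ∘ rtg2Ev`.
-/

set_option autoImplicit false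
set_option linter.style.haveILetI false

namespace Fermat.Agent.RT.G2

open Function MvPowerSeries IsLocalRing Fermat.Agent.RT Fermat.Agent.RT.K2

section Aux

variable {O : Type*} [CommRing O]

/-- `±1 + λ r` is a unit of a local ring with `𝔪 = (λ)`. -/
theorem rtg2_isUnit_of_pm_one [IsLocalRing O] {lam : O} (hlam : maximalIdeal O = Ideal.span {lam})
    {s r : O} (hs : s = 1 + lam * r ∨ s = -1 + lam * r) : IsUnit s := by
  rw [← IsLocalRing.notMem_maximalIdeal]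
  intro hmem
  have hl : lam * r ∈ maximalIdeal O := by
    rw [hlam]
    exact Ideal.mul_mem_right _ _ (Ideal.mem_span_singleton_self lam)
  have h1 : (1 : O) ∈ maximalIdeal O := by
    rcases hs with h | h
    · have : (1 : O) = s - lam * r := by rw [h]; ring
      rw [this]
      exact Ideal.sub_mem _ hmem hl
    · have : (1 : O) = -(s - lam * r) := by rw [h]; ring
      rw [this]
      exact neg_mem (Ideal.sub_mem _ hmem hl)
  exact (Ideal.ne_top_iff_one _).mp (IsLocalRing.maximalIdeal.isMaximal O).ne_top h1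

/-- The algebraic part of a `TWSide`. -/
theorem rtg2_side_of_TWSide {ι τ : Type*} {Sn : Type*} [CommRing Sn] [Algebra O Sn] {d : ℕ}
    {t s : ι → O} {T : Type*} [CommRing T] [Algebra O T]
    {j : T →ₐ[O] Matrix (Fin d) (Fin d) Sn} {Sig Phi : ι → Matrix (Fin 2) (Fin 2) T}
    {x : τ → T} (h : TWSide t s j Sig Phi x) (hs : ∀ i, IsUnit (s i)) (h2 : IsUnit (2 : O)) :
    Rtg2Side t s Sig Phi x :=
  ⟨h.tr_sig, h.det_sig, h.det_phi, h.nil_sig, h.nil_phi, h.nil_x, hs, h2⟩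

/-- `S` acts through `P`. -/
theorem rtg2_scal {ι τ : Type*} [Finite ι] [Finite τ] {S : Type*} [CommRing S] [Algebra O S]
    (I : Ideal S) {d : ℕ} {t s : ι → O} {T : Type*} [CommRing T] [Algebra O T]
    {j : T →ₐ[O] Matrix (Fin d) (Fin d) (S ⧸ I)} {Sig Phi : ι → Matrix (Fin 2) (Fin 2) T}
    {x : τ → T} (h : TWSide t s j Sig Phi x) (hh : Rtg2Side t s Sig Phi x) (c : S) :
    ∃ u : Rtk2P O ι τ, (j.comp (rtg2Ev hh)) u =
      algebraMap S (Matrix (Fin d) (Fin d) (S ⧸ I)) c := by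
  obtain ⟨y, hy, hjy⟩ := h.gen (Ideal.Quotient.mk I c)
  obtain ⟨u, rfl⟩ := (AlgHom.mem_range _).mp (rtg2_adjoin_le_range hh hy)
  refine ⟨u, ?_⟩
  rw [AlgHom.comp_apply, hjy]
  rfl

end Aux

/-- **GLUE 2.** -/
theorem stmtG2 : StmtG2 := by
  intro O _ _ _ _ _ lam hlam h2 ι τ _ _ q s tχ δ hsq hs htδ htχ hδ m d T0 _ _ j0 Sig0 Phi0 Psi0
    hcay n T1 _ _ j1 Sig1 Phi1 x1 Tχ _ _ jχ Sigχ Phiχ xχ D
  have hus : ∀ i, IsUnit (s i) := fun i => by
    obtain ⟨r, hr⟩ := hs i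
    exact rtg2_isUnit_of_pm_one hlam hr
  have h1 : Rtg2Side (fun _ => (1 : O)) s Sig1 Phi1 x1 := rtg2_side_of_TWSide D.side1 hus h2
  have hχ : Rtg2Side tχ s Sigχ Phiχ xχ := rtg2_side_of_TWSide D.sideχ hus h2
  refine ⟨j1.comp (rtg2Ev h1), jχ.comp (rtg2Ev hχ), ?_, ?_, ?_, ?_, ?_, ?_, ?_⟩
  · -- kills1
    have hle : rtk2Ione τ q ≤ RingHom.ker (rtg2Ev h1) := by
      refine rtk2_Ione_le fun i => ?_
      obtain ⟨e1, e2, e3, e4⟩ := rtg2Ev_unip h1 q i rfl (D.rel1 i)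
      refine ⟨?_, e1, e2, e3, e4⟩
      rw [RingHom.mem_ker]
      have := rtg2Ev_g h1 i
      rw [this, map_one, one_pow, sub_self]
    intro u hu
    have := hle hu
    rw [RingHom.mem_ker] at this
    rw [AlgHom.comp_apply, this, map_zero]
  · -- killsχ
    have hle : rtk2Ichi τ δ ≤ RingHom.ker (rtg2Ev hχ) := by
      refine rtk2_Ichi_le fun i => ?_
      obtain ⟨e1, e2, e3⟩ := rtg2Ev_minors hχ i (D.relχ i)
      exact ⟨rtg2Ev_f hχ δ htδ i, e1, e2, e3⟩
    intro u hu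
    have := hle hu
    rw [RingHom.mem_ker] at this
    rw [AlgHom.comp_apply, this, map_zero]
  · -- cong
    intro u
    have hlam0 : algebraMap O (RttwS O m ⧸
        (rttwLam m lam ⊔ maximalIdeal (RttwS O m) ^ n)) lam = 0 := by
      have : algebraMap O (RttwS O m ⧸ (rttwLam m lam ⊔ maximalIdeal (RttwS O m) ^ n)) lam =
          Ideal.Quotient.mk _ (C lam : RttwS O m) := rfl
      rw [this, Ideal.Quotient.eq_zero_iff_mem]
      exact Ideal.mem_sup_left (Ideal.subset_span rfl)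
    have ht : ∀ i, algebraMap O (Matrix (Fin d) (Fin d) (RttwS O m ⧸
        (rttwLam m lam ⊔ maximalIdeal (RttwS O m) ^ n))) ((fun _ => (1 : O)) i) =
        algebraMap O _ (tχ i) := by
      intro i
      obtain ⟨r, hr⟩ := htχ i
      have e : algebraMap O (Matrix (Fin d) (Fin d) (RttwS O m ⧸
          (rttwLam m lam ⊔ maximalIdeal (RttwS O m) ^ n))) lam = 0 := by
        ext a b
        rw [Matrix.algebraMap_matrix_apply, hlam0]
        simp
      rw [hr, map_add, map_mul, e, zero_mul, add_zero]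
    exact rtg2_ev_congr h1 hχ
      (((Ideal.Quotient.factorₐ O (le_sup_right : maximalIdeal (RttwS O m) ^ n ≤
        rttwLam m lam ⊔ maximalIdeal (RttwS O m) ^ n)).mapMatrix).comp j1)
      (((Ideal.Quotient.factorₐ O (le_sup_right : maximalIdeal (RttwS O m) ^ n ≤
        rttwLam m lam ⊔ maximalIdeal (RttwS O m) ^ n)).mapMatrix).comp jχ)
      ht D.cong_sig D.cong_phi D.cong_x u
  · -- scal1
    exact rtg2_scal _ D.side1 h1
  · -- scalχ
    exact rtg2_scal _ D.sideχ hχ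
  · -- base_loc
    intro i k
    have e := rtg2_val_base h1 Sig0 Phi0 Psi0 hcay
      (((Ideal.Quotient.factorₐ O (le_sup_right : maximalIdeal (RttwS O m) ^ n ≤
        rttwAug O m ⊔ maximalIdeal (RttwS O m) ^ n)).mapMatrix).comp j1)
      (((Algebra.ofId O (RttwS O m ⧸
        (rttwAug O m ⊔ maximalIdeal (RttwS O m) ^ n))).mapMatrix).comp j0)
      D.base_sig D.base_phi i k
    rw [← rtg2Ev_X h1] at e
    exact e
  · -- base_T0
    intro u
    obtain ⟨t0, ht0⟩ := D.base_T0 (rtg2Ev h1 u)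
    exact ⟨j0 t0, ⟨t0, rfl⟩, ht0⟩

end Fermat.Agent.RT.G2


end ZBRT_008_3

/-! ### bundled: `Fermat.Agent.RT.G2.MainE` -/
section ZBRT_008_4

/-!
# K-machine, piece G2E: a Taylor–Wiles datum with even scalars gives an even level datum

`stmtG2E : StmtG2E` (`RT/PlanTWE.lean`): as `stmtG2`, with `TWDatumE`, `TWLevelE`.
-/

set_option autoImplicit false
set_option linter.style.haveILetI false

namespace Fermat.Agent.RT.G2

open Function MvPowerSeries IsLocalRing Fermat.Agent.RT Fermat.Agent.RT.K2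

section Aux

variable {O : Type*} [CommRing O]

/-- The algebraic part of a `TWSideE`. -/
theorem rtg2_side_of_TWSideE {ι τ : Type*} {Sn : Type*} [CommRing Sn] [Algebra O Sn]
    {E : Set Sn} {d : ℕ}
    {t s : ι → O} {T : Type*} [CommRing T] [Algebra O T]
    {j : T →ₐ[O] Matrix (Fin d) (Fin d) Sn} {Sig Phi : ι → Matrix (Fin 2) (Fin 2) T}
    {x : τ → T} (h : TWSideE E t s j Sig Phi x) (hs : ∀ i, IsUnit (s i)) (h2 : IsUnit (2 : O)) :
    Rtg2Side t s Sig Phi x :=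
  ⟨h.tr_sig, h.det_sig, h.det_phi, h.nil_sig, h.nil_phi, h.nil_x, hs, h2⟩

/-- The elements of `E` act through `P`. -/
theorem rtg2_scalE {ι τ : Type*} [Finite ι] [Finite τ] {S : Type*} [CommRing S] [Algebra O S]
    (I : Ideal S) {E : Set (S ⧸ I)} {d : ℕ} {t s : ι → O} {T : Type*} [CommRing T] [Algebra O T]
    {j : T →ₐ[O] Matrix (Fin d) (Fin d) (S ⧸ I)} {Sig Phi : ι → Matrix (Fin 2) (Fin 2) T}
    {x : τ → T} (h : TWSideE E t s j Sig Phi x) (hh : Rtg2Side t s Sig Phi x) (c : S)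
    (hc : Ideal.Quotient.mk I c ∈ E) :
    ∃ u : Rtk2P O ι τ, (j.comp (rtg2Ev hh)) u =
      algebraMap S (Matrix (Fin d) (Fin d) (S ⧸ I)) c := by
  obtain ⟨y, hy, hjy⟩ := h.gen (Ideal.Quotient.mk I c) hc
  obtain ⟨u, rfl⟩ := (AlgHom.mem_range _).mp (rtg2_adjoin_le_range hh hy)
  refine ⟨u, ?_⟩
  rw [AlgHom.comp_apply, hjy]
  rfl

end Aux

/-- **GLUE 2, even form.** -/
theorem stmtG2E : StmtG2E := by
  intro O _ _ _ _ _ lam hlam h2 ι τ _ _ q s tχ δ hsq hs htδ htχ hδ m h d T0 _ _ j0 Sig0 Phi0 Psi0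
    hcay n T1 _ _ j1 Sig1 Phi1 x1 Tχ _ _ jχ Sigχ Phiχ xχ D
  have hus : ∀ i, IsUnit (s i) := fun i => by
    obtain ⟨r, hr⟩ := hs i
    exact rtg2_isUnit_of_pm_one hlam hr
  have h1 : Rtg2Side (fun _ => (1 : O)) s Sig1 Phi1 x1 := rtg2_side_of_TWSideE D.side1 hus h2
  have hχ : Rtg2Side tχ s Sigχ Phiχ xχ := rtg2_side_of_TWSideE D.sideχ hus h2
  refine ⟨j1.comp (rtg2Ev h1), jχ.comp (rtg2Ev hχ), ?_, ?_, ?_, ?_, ?_, ?_, ?_⟩
  · -- kills1
    have hle : rtk2Ione τ q ≤ RingHom.ker (rtg2Ev h1) := by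
      refine rtk2_Ione_le fun i => ?_
      obtain ⟨e1, e2, e3, e4⟩ := rtg2Ev_unip h1 q i rfl (D.rel1 i)
      refine ⟨?_, e1, e2, e3, e4⟩
      rw [RingHom.mem_ker]
      have := rtg2Ev_g h1 i
      rw [this, map_one, one_pow, sub_self]
    intro u hu
    have := hle hu
    rw [RingHom.mem_ker] at this
    rw [AlgHom.comp_apply, this, map_zero]
  · -- killsχ
    have hle : rtk2Ichi τ δ ≤ RingHom.ker (rtg2Ev hχ) := by
      refine rtk2_Ichi_le fun i => ?_
      obtain ⟨e1, e2, e3⟩ := rtg2Ev_minors hχ i (D.relχ i)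
      exact ⟨rtg2Ev_f hχ δ htδ i, e1, e2, e3⟩
    intro u hu
    have := hle hu
    rw [RingHom.mem_ker] at this
    rw [AlgHom.comp_apply, this, map_zero]
  · -- cong
    intro u
    have hlam0 : algebraMap O (RttwS O m ⧸
        (rttwLam m lam ⊔ maximalIdeal (RttwS O m) ^ n)) lam = 0 := by
      have : algebraMap O (RttwS O m ⧸ (rttwLam m lam ⊔ maximalIdeal (RttwS O m) ^ n)) lam =
          Ideal.Quotient.mk _ (C lam : RttwS O m) := rfl
      rw [this, Ideal.Quotient.eq_zero_iff_mem]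
      exact Ideal.mem_sup_left (Ideal.subset_span rfl)
    have ht : ∀ i, algebraMap O (Matrix (Fin d) (Fin d) (RttwS O m ⧸
        (rttwLam m lam ⊔ maximalIdeal (RttwS O m) ^ n))) ((fun _ => (1 : O)) i) =
        algebraMap O _ (tχ i) := by
      intro i
      obtain ⟨r, hr⟩ := htχ i
      have e : algebraMap O (Matrix (Fin d) (Fin d) (RttwS O m ⧸
          (rttwLam m lam ⊔ maximalIdeal (RttwS O m) ^ n))) lam = 0 := by
        ext a b
        rw [Matrix.algebraMap_matrix_apply, hlam0]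
        simp
      rw [hr, map_add, map_mul, e, zero_mul, add_zero]
    exact rtg2_ev_congr h1 hχ
      (((Ideal.Quotient.factorₐ O (le_sup_right : maximalIdeal (RttwS O m) ^ n ≤
        rttwLam m lam ⊔ maximalIdeal (RttwS O m) ^ n)).mapMatrix).comp j1)
      (((Ideal.Quotient.factorₐ O (le_sup_right : maximalIdeal (RttwS O m) ^ n ≤
        rttwLam m lam ⊔ maximalIdeal (RttwS O m) ^ n)).mapMatrix).comp jχ)
      ht D.cong_sig D.cong_phi D.cong_x u
  · -- scal1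
    intro c hc
    exact rtg2_scalE _ D.side1 h1 c ⟨c, hc, rfl⟩
  · -- scalχ
    intro c hc
    exact rtg2_scalE _ D.sideχ hχ c ⟨c, hc, rfl⟩
  · -- base_loc
    intro i k
    have e := rtg2_val_base h1 Sig0 Phi0 Psi0 hcay
      (((Ideal.Quotient.factorₐ O (le_sup_right : maximalIdeal (RttwS O m) ^ n ≤
        rttwAug O m ⊔ maximalIdeal (RttwS O m) ^ n)).mapMatrix).comp j1)
      (((Algebra.ofId O (RttwS O m ⧸
        (rttwAug O m ⊔ maximalIdeal (RttwS O m) ^ n))).mapMatrix).comp j0)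
      D.base_sig D.base_phi i k
    rw [← rtg2Ev_X h1] at e
    exact e
  · -- base_T0
    intro u
    obtain ⟨t0, ht0⟩ := D.base_T0 (rtg2Ev h1 u)
    exact ⟨j0 t0, ⟨t0, rfl⟩, ht0⟩

end Fermat.Agent.RT.G2


end ZBRT_008_4
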