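/- GENERATED FILE (helper35, build-time optimisation, NOTES/ZB.md): verbatim concatenation of the modules
   Fermat.Agent.S36.PtsCTheta
   Do not edit; do not import together with these modules. -/
import Fermat.Agent.ZB.S36_009
import Fermat.Agent.ZB.S36_008

/-! ### bundled: `Fermat.Agent.S36.PtsCTheta` -/
section ZBS36_037_0

/-!
# S36 / (I6)(b1): the formal `θ`-identities of the Hauptmoduln `h₂, t₄, h₃, t₉` (helper31)

`θ = Q d/dQ` (`S28.Deriv.thetaFun`), over ANY field `K`: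

* `s36cc_theta_h2 : (θ h₂)⁶ = h₂⁴ (h₂ + 64)³ Δ`
* `s36cc_theta_t4 : (θ t₄)⁶ = t₄² (t₄ + 16)⁵ Δ`
* `s36cc_theta_h3 : (θ h₃)⁶ = h₃³ (h₃ + 27)⁴ Δ`
* `s36cc_theta_t9 : (θ t₉)⁶ t₉³ = (t₉² + 9 t₉ + 27)⁵ Δ`

from `(θ j)⁶ = j⁴ (j − 1728)³ Δ` (`s36tf_theta_j_pow_six_ring`) and the relations
`j h₂² = (h₂ + 256)³`, `t₄² = h₂ t₄ + 16 h₂`, `j h₃³ = (h₃ + 27)(h₃ + 243)³`,
`t₉³ = h₃ (t₉² + 9 t₉ + 27)` by implicit differentiation.  Consequences in the form used at the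
points of `C_c` (`P = Δ̄ (Δ̄⁻¹)^q`):

* `s36cc_unit_t4 : ((θ t₄)^(q-1))⁶ · (Δ · (Δ⁻¹)^q) = (t₄² (t₄ + 16)⁵)^(q-1)`
* `s36cc_unit_t9 : ((θ t₉)^(q-1))⁶ · (Δ · (Δ⁻¹)^q) · (t₉³)^(q-1) = ((t₉² + 9 t₉ + 27)⁵)^(q-1)`
-/

set_option autoImplicit false
set_option linter.unusedSectionVars false
set_option linter.unusedVariables false

noncomputable section

namespace Fermat.Agent.S36

open ModularCurve Fermat.Agent.INJ Fermat.Agent.S28 Fermat.Agent.S28.Deriv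

/-! ### pure algebra -/

section Alg

variable {L : Type*} [Field L]

/-- level `2` -/
theorem s36cc_alg_h2 {j h a b Δ : L} (H1 : a * h ^ 2 + 2 * j * h * b = 3 * (h + 256) ^ 2 * b)
    (H2 : j * h ^ 2 = (h + 256) ^ 3) (H3 : a ^ 6 = j ^ 4 * (j - 1728) ^ 3 * Δ)
    (h1 : h + 256 ≠ 0) (h2 : h - 512 ≠ 0) : b ^ 6 = h ^ 4 * (h + 64) ^ 3 * Δ := by
  have S1 : a * h ^ 3 = b * ((h + 256) ^ 2 * (h - 512)) := by
    linear_combination h * H1 - 2 * b * H2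
  have S3 : (j - 1728) * h ^ 2 = (h - 512) ^ 2 * (h + 64) := by
    linear_combination H2
  have hc : ((h + 256) ^ 2 * (h - 512)) ^ 6 ≠ 0 :=
    pow_ne_zero _ (mul_ne_zero (pow_ne_zero _ h1) h2)
  apply mul_left_cancel₀ hc
  calc ((h + 256) ^ 2 * (h - 512)) ^ 6 * b ^ 6 = (b * ((h + 256) ^ 2 * (h - 512))) ^ 6 := by ring
    _ = (a * h ^ 3) ^ 6 := by rw [S1]
    _ = a ^ 6 * h ^ 18 := by ring
    _ = j ^ 4 * (j - 1728) ^ 3 * Δ * h ^ 18 := by rw [H3]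
    _ = (j * h ^ 2) ^ 4 * ((j - 1728) * h ^ 2) ^ 3 * h ^ 4 * Δ := by ring
    _ = ((h + 256) ^ 3) ^ 4 * ((h - 512) ^ 2 * (h + 64)) ^ 3 * h ^ 4 * Δ := by rw [H2, S3]
    _ = ((h + 256) ^ 2 * (h - 512)) ^ 6 * (h ^ 4 * (h + 64) ^ 3 * Δ) := by ring

/-- level `4` -/
theorem s36cc_alg_t4 {h t b c Δ : L} (T1 : t ^ 2 = h * t + 16 * h)
    (D1 : 2 * t * c = h * c + t * b + 16 * b) (Hb : b ^ 6 = h ^ 4 * (h + 64) ^ 3 * Δ)
    (h1 : t ≠ 0) (h2 : t + 32 ≠ 0) : c ^ 6 = t ^ 2 * (t + 16) ^ 5 * Δ := by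
  have S1 : b * (t + 16) ^ 2 = c * (t * (t + 32)) := by
    linear_combination (-(t + 16)) * D1 + c * T1
  have S2 : (h + 64) * (t + 16) = (t + 32) ^ 2 := by
    linear_combination -T1
  have S3 : h * (t + 16) = t ^ 2 := by
    linear_combination -T1
  have hc : (t * (t + 32)) ^ 6 ≠ 0 := pow_ne_zero _ (mul_ne_zero h1 h2)
  apply mul_left_cancel₀ hc
  calc (t * (t + 32)) ^ 6 * c ^ 6 = (c * (t * (t + 32))) ^ 6 := by ring
    _ = (b * (t + 16) ^ 2) ^ 6 := by rw [S1]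
    _ = b ^ 6 * (t + 16) ^ 12 := by ring
    _ = h ^ 4 * (h + 64) ^ 3 * Δ * (t + 16) ^ 12 := by rw [Hb]
    _ = (h * (t + 16)) ^ 4 * ((h + 64) * (t + 16)) ^ 3 * (t + 16) ^ 5 * Δ := by ring
    _ = (t ^ 2) ^ 4 * ((t + 32) ^ 2) ^ 3 * (t + 16) ^ 5 * Δ := by rw [S2, S3]
    _ = (t * (t + 32)) ^ 6 * (t ^ 2 * (t + 16) ^ 5 * Δ) := by ring

/-- level `3` -/
theorem s36cc_alg_h3 {j h a b Δ : L}
    (H1 : a * h ^ 3 + 3 * j * h ^ 2 * b = ((h + 243) ^ 3 + 3 * (h + 27) * (h + 243) ^ 2) * b)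
    (H2 : j * h ^ 3 = (h + 27) * (h + 243) ^ 3) (H3 : a ^ 6 = j ^ 4 * (j - 1728) ^ 3 * Δ)
    (h1 : h + 243 ≠ 0) (h2 : h ^ 2 - 486 * h - 19683 ≠ 0) :
    b ^ 6 = h ^ 3 * (h + 27) ^ 4 * Δ := by
  have S1 : a * h ^ 4 = b * ((h + 243) ^ 2 * (h ^ 2 - 486 * h - 19683)) := by
    linear_combination h * H1 - 3 * b * H2
  have S3 : (j - 1728) * h ^ 3 = (h ^ 2 - 486 * h - 19683) ^ 2 := by
    linear_combination H2
  have hc : ((h + 243) ^ 2 * (h ^ 2 - 486 * h - 19683)) ^ 6 ≠ 0 :=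
    pow_ne_zero _ (mul_ne_zero (pow_ne_zero _ h1) h2)
  apply mul_left_cancel₀ hc
  calc ((h + 243) ^ 2 * (h ^ 2 - 486 * h - 19683)) ^ 6 * b ^ 6
      = (b * ((h + 243) ^ 2 * (h ^ 2 - 486 * h - 19683))) ^ 6 := by ring
    _ = (a * h ^ 4) ^ 6 := by rw [S1]
    _ = a ^ 6 * h ^ 24 := by ring
    _ = j ^ 4 * (j - 1728) ^ 3 * Δ * h ^ 24 := by rw [H3]
    _ = (j * h ^ 3) ^ 4 * ((j - 1728) * h ^ 3) ^ 3 * h ^ 3 * Δ := by ring
    _ = ((h + 27) * (h + 243) ^ 3) ^ 4 * ((h ^ 2 - 486 * h - 19683) ^ 2) ^ 3 * h ^ 3 * Δ := by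
      rw [H2, S3]
    _ = ((h + 243) ^ 2 * (h ^ 2 - 486 * h - 19683)) ^ 6 * (h ^ 3 * (h + 27) ^ 4 * Δ) := by ring

/-- level `9` -/
theorem s36cc_alg_t9 {h t b c Δ : L} (T1 : t ^ 3 = h * (t ^ 2 + 9 * t + 27))
    (D1 : 3 * t ^ 2 * c = h * (2 * t * c + 9 * c) + (t ^ 2 + 9 * t + 27) * b)
    (Hb : b ^ 6 = h ^ 3 * (h + 27) ^ 4 * Δ)
    (h1 : t ≠ 0) (h2 : t + 9 ≠ 0) : c ^ 6 * t ^ 3 = (t ^ 2 + 9 * t + 27) ^ 5 * Δ := by
  have S1 : b * (t ^ 2 + 9 * t + 27) ^ 2 = c * (t ^ 2 * (t + 9) ^ 2) := by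
    linear_combination (-(t ^ 2 + 9 * t + 27)) * D1 + c * (2 * t + 9) * T1
  have S2 : (h + 27) * (t ^ 2 + 9 * t + 27) = (t + 9) ^ 3 := by
    linear_combination -T1
  have hc : t ^ 9 * (t + 9) ^ 12 ≠ 0 := mul_ne_zero (pow_ne_zero _ h1) (pow_ne_zero _ h2)
  apply mul_left_cancel₀ hc
  calc t ^ 9 * (t + 9) ^ 12 * (c ^ 6 * t ^ 3) = (c * (t ^ 2 * (t + 9) ^ 2)) ^ 6 := by ring
    _ = (b * (t ^ 2 + 9 * t + 27) ^ 2) ^ 6 := by rw [S1]
    _ = b ^ 6 * (t ^ 2 + 9 * t + 27) ^ 12 := by ring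
    _ = h ^ 3 * (h + 27) ^ 4 * Δ * (t ^ 2 + 9 * t + 27) ^ 12 := by rw [Hb]
    _ = (h * (t ^ 2 + 9 * t + 27)) ^ 3 * ((h + 27) * (t ^ 2 + 9 * t + 27)) ^ 4 *
        (t ^ 2 + 9 * t + 27) ^ 5 * Δ := by ring
    _ = (t ^ 3) ^ 3 * ((t + 9) ^ 3) ^ 4 * (t ^ 2 + 9 * t + 27) ^ 5 * Δ := by rw [S2, ← T1]
    _ = t ^ 9 * (t + 9) ^ 12 * ((t ^ 2 + 9 * t + 27) ^ 5 * Δ) := by ring

end Alg

/-! ### the series -/

section Series

variable (K : Type*) [Field K]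

theorem s36cc_theta_natCast (n : ℕ) : thetaFun ((n : ℕ) : LaurentSeries K) = 0 := by
  rw [s36rig_natCast_eq_C]
  exact thetaFun_C _

theorem s36cc_theta_ofNat (n : ℕ) [n.AtLeastTwo] :
    thetaFun (OfNat.ofNat n : LaurentSeries K) = 0 := by
  rw [← Nat.cast_ofNat (R := LaurentSeries K)]
  exact s36cc_theta_natCast K n

/-- a series with a pole is not a constant -/
theorem s36cc_add_natCast_ne {x : LaurentSeries K} (hx : x.order ≠ 0) (n : ℕ) :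
    x + (n : LaurentSeries K) ≠ 0 := by
  intro h
  apply s36rig_ne_C K hx (-(n : K))
  rw [map_neg, ← s36rig_natCast_eq_C]
  exact eq_neg_of_add_eq_zero_left h

theorem s36cc_sub_natCast_ne {x : LaurentSeries K} (hx : x.order ≠ 0) (n : ℕ) :
    x - (n : LaurentSeries K) ≠ 0 := by
  intro h
  apply s36rig_ne_C K hx (n : K)
  rw [← s36rig_natCast_eq_C]
  exact sub_eq_zero.mp h

theorem s36cc_hm2_order_ne : (hm2 K).order ≠ 0 := by
  rw [s36rig_order_hm2]; norm_num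

theorem s36cc_hm3_order_ne : (hm3 K).order ≠ 0 := by
  rw [s36rig_order_hm3]; norm_num

theorem s36cc_hm2_ne_zero : hm2 K ≠ 0 := by
  intro h
  have := s36rig_order_hm2 K
  rw [h, HahnSeries.order_zero] at this
  omega

theorem s36cc_hm3_ne_zero : hm3 K ≠ 0 := by
  intro h
  have := s36rig_order_hm3 K
  rw [h, HahnSeries.order_zero] at this
  omega

/-- **`(θ h₂)⁶ = h₂⁴ (h₂ + 64)³ Δ`** -/
theorem s36cc_theta_h2 :
    thetaFun (hm2 K) ^ 6 = hm2 K ^ 4 * (hm2 K + 64) ^ 3 * deltaS K := by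
  have H2 := hm2_j K
  have H1 := congrArg thetaFun H2
  rw [thetaFun_mul, thetaFun_pow, thetaFun_pow, thetaFun_add, s36cc_theta_ofNat, add_zero] at H1
  have H3 := s36tf_theta_j_pow_six_ring K
  have h1 : hm2 K + 256 ≠ 0 := by
    have := s36cc_add_natCast_ne K (s36cc_hm2_order_ne K) 256
    simpa using this
  have h2 : hm2 K - 512 ≠ 0 := by
    have := s36cc_sub_natCast_ne K (s36cc_hm2_order_ne K) 512
    simpa using this
  refine s36cc_alg_h2 (j := jqModC K) (a := thetaFun (jqModC K)) ?_ H2 H3 h1 h2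
  simp only [Nat.cast_ofNat, Nat.add_one_sub_one, pow_one] at H1
  linear_combination H1

/-- **`(θ t₄)⁶ = t₄² (t₄ + 16)⁵ Δ`** (characteristic `≠ 2`) -/
theorem s36cc_theta_t4 (h2 : (2 : K) ≠ 0) :
    thetaFun (s36rig_t4 K) ^ 6 = s36rig_t4 K ^ 2 * (s36rig_t4 K + 16) ^ 5 * deltaS K := by
  have T1 := s36rig_t4_sq K
  have D1 := congrArg thetaFun T1
  rw [thetaFun_pow, thetaFun_add, thetaFun_mul, thetaFun_mul, s36cc_theta_ofNat, mul_zero,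
    add_zero] at D1
  have h16 : (16 : LaurentSeries K) ≠ 0 := by
    have e : (16 : LaurentSeries K) = HahnSeries.C ((2 : K) ^ 4) := by
      rw [map_pow, map_ofNat]; norm_num
    rw [e]
    exact (map_ne_zero (HahnSeries.C : K →+* LaurentSeries K)).mpr (pow_ne_zero 4 h2)
  have ht0 : s36rig_t4 K ≠ 0 := by
    intro h
    rw [h] at T1
    have : (16 : LaurentSeries K) * hm2 K = 0 := by linear_combination -T1
    rcases mul_eq_zero.mp this with h' | h'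
    · exact h16 h'
    · exact s36cc_hm2_ne_zero K h'
  have ht32 : s36rig_t4 K + 32 ≠ 0 := by
    intro h
    have e : s36rig_t4 K = -32 := eq_neg_of_add_eq_zero_left h
    rw [e] at T1
    have : (16 : LaurentSeries K) * (hm2 K + 64) = 0 := by linear_combination T1
    rcases mul_eq_zero.mp this with h' | h'
    · exact h16 h'
    · have := s36cc_add_natCast_ne K (s36cc_hm2_order_ne K) 64
      exact this (by simpa using h')
  refine s36cc_alg_t4 (h := hm2 K) (b := thetaFun (hm2 K)) T1 ?_ (s36cc_theta_h2 K) ht0 ht32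
  simp only [Nat.cast_ofNat, Nat.add_one_sub_one, pow_one] at D1
  linear_combination D1

/-- **`(θ h₃)⁶ = h₃³ (h₃ + 27)⁴ Δ`** -/
theorem s36cc_theta_h3 :
    thetaFun (hm3 K) ^ 6 = hm3 K ^ 3 * (hm3 K + 27) ^ 4 * deltaS K := by
  have H2 := hm3_j K
  have H1 := congrArg thetaFun H2
  rw [thetaFun_mul, thetaFun_pow, thetaFun_mul, thetaFun_pow, thetaFun_add, thetaFun_add,
    s36cc_theta_ofNat, s36cc_theta_ofNat, add_zero] at H1
  have H3 := s36tf_theta_j_pow_six_ring K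
  have h1 : hm3 K + 243 ≠ 0 := by
    have := s36cc_add_natCast_ne K (s36cc_hm3_order_ne K) 243
    simpa using this
  have h2 : hm3 K ^ 2 - 486 * hm3 K - 19683 ≠ 0 := by
    intro h
    have e : hm3 K * hm3 K = HahnSeries.C (486 : K) * hm3 K + HahnSeries.C (19683 : K) := by
      rw [map_ofNat, map_ofNat]
      linear_combination h
    have h0 := s36cc_hm3_ne_zero K
    have ho : (hm3 K * hm3 K).order = -2 := by
      rw [HahnSeries.order_mul h0 h0, s36rig_order_hm3]; norm_num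
    have hc := HahnSeries.coeff_order_eq_zero.not.mpr (mul_ne_zero h0 h0)
    rw [ho, e, HahnSeries.coeff_add, HahnSeries.C_mul_eq_smul, HahnSeries.coeff_smul,
      HahnSeries.coeff_eq_zero_of_lt_order (x := hm3 K) (by rw [s36rig_order_hm3]; norm_num),
      smul_zero, zero_add, HahnSeries.C_apply,
      HahnSeries.coeff_single_of_ne (by norm_num : (-2 : ℤ) ≠ 0)] at hc
    exact hc rfl
  refine s36cc_alg_h3 (j := jqModC K) (a := thetaFun (jqModC K)) ?_ H2 H3 h1 h2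
  simp only [Nat.cast_ofNat, Nat.add_one_sub_one] at H1
  linear_combination H1

/-- **`(θ t₉)⁶ t₉³ = (t₉² + 9 t₉ + 27)⁵ Δ`** (characteristic `≠ 3`) -/
theorem s36cc_theta_t9 (h3 : (3 : K) ≠ 0) :
    thetaFun (s36rig_t9 K) ^ 6 * s36rig_t9 K ^ 3 =
      (s36rig_t9 K ^ 2 + 9 * s36rig_t9 K + 27) ^ 5 * deltaS K := by
  have T1 := s36rig_t9_cube K
  have D1 := congrArg thetaFun T1
  rw [thetaFun_pow, thetaFun_mul, thetaFun_add, thetaFun_add, thetaFun_pow, thetaFun_mul,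
    s36cc_theta_ofNat, s36cc_theta_ofNat, mul_zero, add_zero, add_zero] at D1
  have h27 : (27 : LaurentSeries K) ≠ 0 := by
    have e : (27 : LaurentSeries K) = HahnSeries.C ((3 : K) ^ 3) := by
      rw [map_pow, map_ofNat]; norm_num
    rw [e]
    exact (map_ne_zero (HahnSeries.C : K →+* LaurentSeries K)).mpr (pow_ne_zero 3 h3)
  have ht0 : s36rig_t9 K ≠ 0 := by
    intro h
    rw [h] at T1
    have : (27 : LaurentSeries K) * hm3 K = 0 := by linear_combination -T1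
    rcases mul_eq_zero.mp this with h' | h'
    · exact h27 h'
    · exact s36cc_hm3_ne_zero K h'
  have ht9 : s36rig_t9 K + 9 ≠ 0 := by
    intro h
    have e : s36rig_t9 K = -9 := eq_neg_of_add_eq_zero_left h
    rw [e] at T1
    have : (27 : LaurentSeries K) * (hm3 K + 27) = 0 := by linear_combination -T1
    rcases mul_eq_zero.mp this with h' | h'
    · exact h27 h'
    · have := s36cc_add_natCast_ne K (s36cc_hm3_order_ne K) 27
      exact this (by simpa using h')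
  refine s36cc_alg_t9 (h := hm3 K) (b := thetaFun (hm3 K)) T1 ?_ (s36cc_theta_h3 K) ht0 ht9
  simp only [Nat.cast_ofNat, Nat.add_one_sub_one, pow_one] at D1
  linear_combination D1

/-! ### the form used at the points of `C_c`: `u = −(θ t̄)^(q−1)`, `P = Δ̄ (Δ̄⁻¹)^q` -/

theorem s36cc_delta_pow (q : ℕ) (hq : 1 ≤ q) :
    deltaS K ^ (q - 1) * (deltaS K * deltaInvS K ^ q) = 1 := by
  obtain ⟨n, rfl⟩ : ∃ n, q = n + 1 := ⟨q - 1, by omega⟩
  rw [Nat.add_sub_cancel]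
  calc deltaS K ^ n * (deltaS K * deltaInvS K ^ (n + 1))
      = (deltaS K * deltaInvS K) ^ (n + 1) := by ring
    _ = 1 := by rw [deltaS_mul_deltaInvS, one_pow]

/-- `q` odd, level `4`: `u⁶ · P = (t₄² (t₄ + 16)⁵)^(q−1)` for `u = ± (θ t₄)^(q−1)`. -/
theorem s36cc_unit_t4 (h2 : (2 : K) ≠ 0) (q : ℕ) (hq : 1 ≤ q) {u : LaurentSeries K}
    (hu : u = -(thetaFun (s36rig_t4 K)) ^ (q - 1) ∨ u = thetaFun (s36rig_t4 K) ^ (q - 1)) :
    u ^ 6 * (deltaS K * deltaInvS K ^ q) = (s36rig_t4 K ^ 2 * (s36rig_t4 K + 16) ^ 5) ^ (q - 1) := by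
  have e : u ^ 6 = (thetaFun (s36rig_t4 K) ^ 6) ^ (q - 1) := by
    rcases hu with rfl | rfl
    · rw [neg_pow, ← pow_mul, ← pow_mul, mul_comm 6 (q - 1)]
      have : ((-1 : LaurentSeries K)) ^ 6 = 1 := by norm_num
      rw [this, one_mul]
    · rw [← pow_mul, ← pow_mul, mul_comm]
  rw [e, s36cc_theta_t4 K h2, mul_pow, mul_assoc, s36cc_delta_pow K q hq, mul_one]

/-- `q = 2` (any `q`), level `9`: `u⁶ · P · (t₉³)^(q−1) = ((t₉² + 9 t₉ + 27)⁵)^(q−1)`. -/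
theorem s36cc_unit_t9 (h3 : (3 : K) ≠ 0) (q : ℕ) (hq : 1 ≤ q) {u : LaurentSeries K}
    (hu : u = -(thetaFun (s36rig_t9 K)) ^ (q - 1) ∨ u = thetaFun (s36rig_t9 K) ^ (q - 1)) :
    u ^ 6 * (deltaS K * deltaInvS K ^ q) * (s36rig_t9 K ^ 3) ^ (q - 1) =
      ((s36rig_t9 K ^ 2 + 9 * s36rig_t9 K + 27) ^ 5) ^ (q - 1) := by
  have e : u ^ 6 = (thetaFun (s36rig_t9 K) ^ 6) ^ (q - 1) := by
    rcases hu with rfl | rfl
    · rw [neg_pow, ← pow_mul, ← pow_mul, mul_comm 6 (q - 1)]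
      have : ((-1 : LaurentSeries K)) ^ 6 = 1 := by norm_num
      rw [this, one_mul]
    · rw [← pow_mul, ← pow_mul, mul_comm]
  have key := s36cc_theta_t9 K h3
  calc u ^ 6 * (deltaS K * deltaInvS K ^ q) * (s36rig_t9 K ^ 3) ^ (q - 1)
      = (thetaFun (s36rig_t9 K) ^ 6 * s36rig_t9 K ^ 3) ^ (q - 1) *
          (deltaS K * deltaInvS K ^ q) := by
        rw [e, mul_pow, mul_assoc, mul_comm (deltaS K * deltaInvS K ^ q), ← mul_assoc]
    _ = ((s36rig_t9 K ^ 2 + 9 * s36rig_t9 K + 27) ^ 5) ^ (q - 1) *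
          (deltaS K ^ (q - 1) * (deltaS K * deltaInvS K ^ q)) := by
        rw [key, mul_pow, mul_assoc]
    _ = _ := by rw [s36cc_delta_pow K q hq, mul_one]

/-- the units of the chart: `j · t₄⁴ (t₄ + 16) = (t₄² + 256 t₄ + 4096)³` -/
theorem s36cc_j_t4 :
    jqModC K * (s36rig_t4 K ^ 4 * (s36rig_t4 K + 16)) =
      (s36rig_t4 K ^ 2 + 256 * s36rig_t4 K + 4096) ^ 3 := by
  have T1 := s36rig_t4_sq K
  have H2 := hm2_j K
  have S3 : hm2 K * (s36rig_t4 K + 16) = s36rig_t4 K ^ 2 := by linear_combination -T1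
  have S4 : (hm2 K + 256) * (s36rig_t4 K + 16) =
      s36rig_t4 K ^ 2 + 256 * s36rig_t4 K + 4096 := by linear_combination -T1
  linear_combination
    (-(jqModC K * (s36rig_t4 K + 16) * (s36rig_t4 K ^ 2 + hm2 K * (s36rig_t4 K + 16)))) * S3 +
    (s36rig_t4 K + 16) ^ 3 * H2 +
    (((hm2 K + 256) * (s36rig_t4 K + 16)) ^ 2 +
      ((hm2 K + 256) * (s36rig_t4 K + 16)) * (s36rig_t4 K ^ 2 + 256 * s36rig_t4 K + 4096) +
      (s36rig_t4 K ^ 2 + 256 * s36rig_t4 K + 4096) ^ 2) * S4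

/-- the units of the chart: `j · t₉⁹ D = (t₉ + 9)³ (t₉³ + 243 D)³`, `D = t₉² + 9 t₉ + 27` -/
theorem s36cc_j_t9 :
    jqModC K * (s36rig_t9 K ^ 9 * (s36rig_t9 K ^ 2 + 9 * s36rig_t9 K + 27)) =
      (s36rig_t9 K + 9) ^ 3 *
        (s36rig_t9 K ^ 3 + 243 * (s36rig_t9 K ^ 2 + 9 * s36rig_t9 K + 27)) ^ 3 := by
  have T1 := s36rig_t9_cube K
  have T2 := s36rig_t9_rel K
  have H2 := hm3_j K
  have S4 : (hm3 K + 243) * (s36rig_t9 K ^ 2 + 9 * s36rig_t9 K + 27) =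
      s36rig_t9 K ^ 3 + 243 * (s36rig_t9 K ^ 2 + 9 * s36rig_t9 K + 27) := by
    linear_combination -T1
  linear_combination
    (jqModC K * (s36rig_t9 K ^ 2 + 9 * s36rig_t9 K + 27) *
      (s36rig_t9 K ^ 6 + s36rig_t9 K ^ 3 * (hm3 K * (s36rig_t9 K ^ 2 + 9 * s36rig_t9 K + 27)) +
        (hm3 K * (s36rig_t9 K ^ 2 + 9 * s36rig_t9 K + 27)) ^ 2)) * T1 +
    (s36rig_t9 K ^ 2 + 9 * s36rig_t9 K + 27) ^ 4 * H2 +
    ((hm3 K + 243) * (s36rig_t9 K ^ 2 + 9 * s36rig_t9 K + 27)) ^ 3 * T2 +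
    ((s36rig_t9 K + 9) ^ 3 *
      (((hm3 K + 243) * (s36rig_t9 K ^ 2 + 9 * s36rig_t9 K + 27)) ^ 2 +
        ((hm3 K + 243) * (s36rig_t9 K ^ 2 + 9 * s36rig_t9 K + 27)) *
          (s36rig_t9 K ^ 3 + 243 * (s36rig_t9 K ^ 2 + 9 * s36rig_t9 K + 27)) +
        (s36rig_t9 K ^ 3 + 243 * (s36rig_t9 K ^ 2 + 9 * s36rig_t9 K + 27)) ^ 2)) * S4

end Series

end Fermat.Agent.S36

end
end ZBS36_037_0
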