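/- GENERATED FILE (helper35, build-time optimisation, NOTES/ZB.md): verbatim concatenation of the modules
   Fermat.Agent.TW.E.K0JH
   Do not edit; do not import together with these modules. -/
import Fermat.Agent.ZB.TW_014

/-! ### bundled: `Fermat.Agent.TW.E.K0JH` -/
section ZBTW_055_0

/-!
# TW-E / E-K0 / K1a (helper9): Jordan–Hölder multiplicities

`stmtJH : StmtJH`: every finite-dimensional representation `M` has a multiplicity function
`m : SimpleCanon k Γ →₀ ℕ` computing every additive function and every characteristic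
polynomial.  Strong induction on the dimension: zero / irreducible / a proper invariant subspace.
-/

set_option autoImplicit false

namespace Fermat.Agent.TW.E

open CategoryTheory

section charpoly

variable {R V : Type*} [CommRing R] [AddCommGroup V]
    [Module R V] [Module.Finite R V] [Module.Free R V]
    (W : Submodule R V) [Module.Free R W] [Module.Finite R W] [Module.Free R (V ⧸ W)]
    [Module.Finite R (V ⧸ W)]

open Module Module.Basis in
/-- The characteristic polynomial is multiplicative along an invariant submodule. -/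
theorem k0jh_charpoly_mul (e : V →ₗ[R] V) (he : W ≤ W.comap e) :
    e.charpoly = (e.restrict he).charpoly * (W.mapQ W e he).charpoly := by
  classical
  let m := Module.Free.ChooseBasisIndex R W
  let bW : Basis m R W := Module.Free.chooseBasis R W
  let n := Module.Free.ChooseBasisIndex R (V ⧸ W)
  let bQ : Basis n R (V ⧸ W) := Module.Free.chooseBasis R (V ⧸ W)
  let b := sumQuot bW bQ
  let A : Matrix m m R := LinearMap.toMatrix bW bW (e.restrict he)
  let B : Matrix m n R := Matrix.of fun i l ↦
    ((sumQuot bW bQ).repr (e ((sumQuot bW bQ) (Sum.inr l)))) (Sum.inl i)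
  let D : Matrix n n R := LinearMap.toMatrix bQ bQ (W.mapQ W e he)
  suffices LinearMap.toMatrix b b e = Matrix.fromBlocks A B 0 D by
    rw [← LinearMap.charpoly_toMatrix e b, this, ← LinearMap.charpoly_toMatrix (e.restrict he) bW,
      ← LinearMap.charpoly_toMatrix (W.mapQ W e he) bQ, Matrix.charpoly_fromBlocks_zero₂₁]
  ext u v
  cases u with
  | inl i =>
    cases v with
    | inl k =>
      simp only [b, sumQuot_inl, Matrix.fromBlocks_apply₁₁, A, LinearMap.toMatrix_apply]
      apply sumQuot_repr_inl_of_mem
    | inr l => simp [b, LinearMap.toMatrix_apply, Matrix.fromBlocks_apply₁₂, B]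
  | inr j =>
    cases v with
    | inl k =>
      suffices W.mkQ (e (bW k)) = 0 by simp [LinearMap.toMatrix_apply, b, this]
      rw [← LinearMap.mem_ker, Submodule.ker_mkQ]
      exact he (Submodule.coe_mem (bW k))
    | inr l =>
      simp only [LinearMap.toMatrix_apply, sumQuot_repr_inr,
        Matrix.fromBlocks_apply₂₂, b, D]
      rw [← sumQuot_inr bW bQ l, W.mapQ_apply]
      simp

end charpoly

variable {k Γ : Type} [Field k] [Group Γ]

/-- finiteness is invariant under isomorphism -/
lemma k0jh_finite_of_iso {M N : Rep.{0} k Γ} (e : M ≅ N) (h : Module.Finite k M.V) :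
    Module.Finite k N.V :=
  Module.Finite.equiv (Representation.equivOfIso e).toLinearEquiv

/-- `repCharpoly` is invariant under isomorphism -/
lemma k0jh_repCharpoly_iso {M N : Rep.{0} k Γ} (e : M ≅ N) (g : Γ) :
    repCharpoly M g = repCharpoly N g := by
  classical
  unfold repCharpoly
  by_cases h : Module.Finite k M.V
  · have h' : Module.Finite k N.V := k0jh_finite_of_iso e h
    rw [dif_pos h, dif_pos h']
    let E : M.V ≃ₗ[k] N.V := (Representation.equivOfIso e).toLinearEquiv
    have hconj : E.conj (M.ρ g) = N.ρ g := by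
      apply LinearMap.ext
      intro y
      rw [LinearEquiv.conj_apply_apply]
      have h1 := Rep.hom_comm_apply e.hom g (E.symm y)
      have h2 : e.hom.hom (E.symm y) = y := E.apply_symm_apply y
      rw [h2] at h1
      exact h1
    rw [← hconj]
    exact (LinearEquiv.charpoly_conj E (M.ρ g)).symm
  · have h' : ¬ Module.Finite k N.V := fun h' => h (k0jh_finite_of_iso e.symm h')
    rw [dif_neg h, dif_neg h']

/-- the canonical representative is isomorphic to the given representation -/
lemma k0jh_canonRep_iso (M : Rep.{0} k Γ) : Nonempty (canonRep M ≅ M) :=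
  Quotient.mk_out (s := isIsomorphicSetoid (Rep.{0} k Γ)) M

lemma k0jh_canonRep_canonRep (M : Rep.{0} k Γ) : canonRep (canonRep M) = canonRep M := by
  unfold canonRep
  rw [Quotient.out_eq]

/-- irreducibility is invariant under isomorphism -/
lemma k0jh_irreducible_of_iso {M N : Rep.{0} k Γ} (e : M ≅ N)
    (h : Representation.IsIrreducible M.ρ) : Representation.IsIrreducible N.ρ := by
  rw [Representation.irreducible_iff_isSimpleModule_asModule] at h ⊢
  let l := Representation.IntertwiningMap.equivLinearMapAsModule M.ρ N.ρ e.hom.hom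
  have hl : Function.Bijective l := by
    constructor
    · intro x y hxy
      have hxy' : e.hom.hom (show M.V from x) = e.hom.hom (show M.V from y) := hxy
      have h1 : e.inv.hom (e.hom.hom (show M.V from x)) = e.inv.hom (e.hom.hom (show M.V from y)) :=
        congrArg _ hxy'
      have h2 := Rep.inv_hom_apply M N e (show M.V from x)
      have h3 := Rep.inv_hom_apply M N e (show M.V from y)
      exact h2.symm.trans (h1.trans h3)
    · intro y
      exact ⟨e.inv.hom (show N.V from y), Rep.hom_inv_apply M N e (show N.V from y)⟩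
  exact (LinearMap.isSimpleModule_iff_of_bijective l hl).1 h

/-- the canonical representative of a simple representation -/
noncomputable def k0jh_simpleCanon (M : Rep.{0} k Γ) (h : IsSimpleRep M) : SimpleCanon k Γ :=
  ⟨canonRep M, ⟨k0jh_finite_of_iso (k0jh_canonRep_iso M).some.symm h.1,
    k0jh_irreducible_of_iso (k0jh_canonRep_iso M).some.symm h.2⟩, k0jh_canonRep_canonRep M⟩

/-- an additive function vanishes on a zero representation -/
lemma k0jh_addFun_zero (φ : Rep.{0} k Γ → ℤ) (hφ : IsAddFun φ) (M : Rep.{0} k Γ)
    (hfin : Module.Finite k M.V) (hsub : Subsingleton M.V) : φ M = 0 := by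
  have h := hφ.add M M M (𝟙 M) (𝟙 M) hfin (fun x y _ => Subsingleton.elim x y)
    (fun y => ⟨y, Subsingleton.elim _ _⟩)
    (fun y => ⟨fun _ => ⟨y, Subsingleton.elim _ _⟩, fun _ => Subsingleton.elim _ _⟩)
  omega

/-- the characteristic polynomial on a zero representation -/
lemma k0jh_repCharpoly_zero (M : Rep.{0} k Γ) (hfin : Module.Finite k M.V)
    (hsub : Subsingleton M.V) (g : Γ) : repCharpoly M g = 1 := by
  classical
  unfold repCharpoly
  rw [dif_pos hfin]
  have hmonic := LinearMap.charpoly_monic (M.ρ g)
  have hdeg := LinearMap.charpoly_natDegree (M.ρ g)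
  rw [Module.finrank_zero_of_subsingleton] at hdeg
  exact hmonic.natDegree_eq_zero.1 hdeg

/-- additivity of `repCharpoly` along an invariant subspace -/
lemma k0jh_repCharpoly_sub_quot (M : Rep.{0} k Γ) (hfin : Module.Finite k M.V)
    (W : Submodule k M.V) (hW : ∀ g, W ≤ W.comap (M.ρ g)) (g : Γ) :
    repCharpoly M g =
      repCharpoly (M.subrepresentation W hW) g * repCharpoly (M.quotient W hW) g := by
  classical
  have h1 : Module.Finite k (M.subrepresentation W hW).V :=
    (inferInstance : Module.Finite k W)
  have h2 : Module.Finite k (M.quotient W hW).V :=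
    (inferInstance : Module.Finite k (M.V ⧸ W))
  unfold repCharpoly
  rw [dif_pos hfin, dif_pos h1, dif_pos h2]
  exact k0jh_charpoly_mul W (M.ρ g) (hW g)

/-- a finite-dimensional, nonzero, not irreducible representation has a proper nonzero invariant
subspace -/
lemma k0jh_exists_invariant (M : Rep.{0} k Γ) (hnt : Nontrivial M.V)
    (hirr : ¬ Representation.IsIrreducible M.ρ) :
    ∃ W : Submodule k M.V, (∀ g, W ≤ W.comap (M.ρ g)) ∧ W ≠ ⊥ ∧ W ≠ ⊤ := by
  by_contra hcon
  push Not at hcon
  apply hirr
  have hnt' : Nontrivial (Subrepresentation M.ρ) := by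
    refine ⟨⟨⊥, ⊤, fun h => ?_⟩⟩
    obtain ⟨v, hv⟩ := exists_ne (0 : M.V)
    have h1 : v ∈ (⊤ : Subrepresentation M.ρ).toSubmodule :=
      (Submodule.mem_top : v ∈ (⊤ : Submodule k M.V))
    rw [← h] at h1
    exact hv ((Submodule.mem_bot k).1 h1)
  refine { toNontrivial := hnt', eq_bot_or_eq_top := fun a => ?_ }
  by_cases ha : a.toSubmodule = ⊥
  · left
    exact Subrepresentation.toSubmodule_injective ha
  · right
    have := hcon a.toSubmodule (fun g v hv => a.apply_mem_toSubmodule g hv) ha
    exact Subrepresentation.toSubmodule_injective this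

/-- The statement of K1a for one representation. -/
def k0jh_P (M : Rep.{0} k Γ) : Prop :=
  ∃ m : SimpleCanon k Γ →₀ ℕ,
    (∀ φ : Rep.{0} k Γ → ℤ, IsAddFun φ → φ M = m.sum fun S e => (e : ℤ) * φ S.1) ∧
    (∀ g : Γ, repCharpoly M g = m.prod fun S e => repCharpoly S.1 g ^ e)

lemma k0jh_P_zero (M : Rep.{0} k Γ) (hfin : Module.Finite k M.V) (hsub : Subsingleton M.V) :
    k0jh_P M := by
  refine ⟨0, fun φ hφ => ?_, fun g => ?_⟩
  · rw [k0jh_addFun_zero φ hφ M hfin hsub, Finsupp.sum_zero_index]
  · rw [k0jh_repCharpoly_zero M hfin hsub g, Finsupp.prod_zero_index]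

lemma k0jh_P_simple (M : Rep.{0} k Γ) (h : IsSimpleRep M) : k0jh_P M := by
  classical
  refine ⟨Finsupp.single (k0jh_simpleCanon M h) 1, fun φ hφ => ?_, fun g => ?_⟩
  · rw [Finsupp.sum_single_index (by simp)]
    have : φ M = φ (canonRep M) := hφ.iso M (canonRep M) ⟨(k0jh_canonRep_iso M).some.symm⟩
    rw [this]
    simp [k0jh_simpleCanon]
  · rw [Finsupp.prod_single_index (by simp)]
    rw [pow_one]
    exact k0jh_repCharpoly_iso (k0jh_canonRep_iso M).some.symm g

lemma k0jh_P_ext (M : Rep.{0} k Γ) (hfin : Module.Finite k M.V)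
    (W : Submodule k M.V) (hW : ∀ g, W ≤ W.comap (M.ρ g))
    (h1 : k0jh_P (M.subrepresentation W hW)) (h2 : k0jh_P (M.quotient W hW)) : k0jh_P M := by
  classical
  obtain ⟨m1, hφ1, hc1⟩ := h1
  obtain ⟨m2, hφ2, hc2⟩ := h2
  refine ⟨m1 + m2, fun φ hφ => ?_, fun g => ?_⟩
  · have hadd := hφ.add (M.subrepresentation W hW) M (M.quotient W hW)
      (Rep.subtype M W hW) (Rep.mkQ M W hW) hfin
      (fun x y hxy => Subtype.ext hxy)
      (fun y => Submodule.mkQ_surjective W y)
      (fun y => by
        constructor
        · intro hy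
          have hy' : W.mkQ y = 0 := hy
          rw [← LinearMap.mem_ker, Submodule.ker_mkQ] at hy'
          exact ⟨⟨y, hy'⟩, rfl⟩
        · rintro ⟨x, rfl⟩
          show W.mkQ (x : M.V) = 0
          rw [← LinearMap.mem_ker, Submodule.ker_mkQ]
          exact x.2)
    rw [hadd, hφ1 φ hφ, hφ2 φ hφ]
    rw [Finsupp.sum_add_index' (fun S => by simp) (fun S a b => by push_cast; ring)]
  · rw [k0jh_repCharpoly_sub_quot M hfin W hW g, hc1 g, hc2 g]
    rw [Finsupp.prod_add_index' (fun S => pow_zero _) (fun S a b => pow_add _ a b)]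

/-- K1a by strong induction on the dimension. -/
theorem k0jh_main (n : ℕ) : ∀ M : Rep.{0} k Γ, Module.Finite k M.V →
    Module.finrank k M.V = n → k0jh_P M := by
  induction n using Nat.strong_induction_on with
  | _ n ih =>
    intro M hfin hn
    by_cases hsub : Subsingleton M.V
    · exact k0jh_P_zero M hfin hsub
    have hnt : Nontrivial M.V := not_subsingleton_iff_nontrivial.1 hsub
    by_cases hirr : Representation.IsIrreducible M.ρ
    · exact k0jh_P_simple M ⟨hfin, hirr⟩
    obtain ⟨W, hW, hbot, htop⟩ := k0jh_exists_invariant M hnt hirr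
    have hlt1 : Module.finrank k W < n := by
      rw [← hn]
      exact Submodule.finrank_lt htop
    have hpos : 0 < Module.finrank k W := by
      have : Nontrivial W := (Submodule.nontrivial_iff_ne_bot).2 hbot
      exact Module.finrank_pos
    have hlt2 : Module.finrank k (M.V ⧸ W) < n := by
      have := Submodule.finrank_quotient_add_finrank W
      omega
    exact k0jh_P_ext M hfin W hW
      (ih _ hlt1 (M.subrepresentation W hW) (inferInstance : Module.Finite k W) rfl)
      (ih _ hlt2 (M.quotient W hW) (inferInstance : Module.Finite k (M.V ⧸ W)) rfl)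

/-- **K1a.** Jordan–Hölder multiplicities. -/
theorem stmtJH : StmtJH := by
  intro k Γ _ _ M hfin
  exact k0jh_main (Module.finrank k M.V) M hfin rfl

end Fermat.Agent.TW.E


end ZBTW_055_0
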