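/- GENERATED FILE (helper35, build-time optimisation, NOTES/ZB.md): verbatim concatenation of the modules
   Fermat.Agent.TW.E.K0Descent
   Fermat.Agent.TW.E.K0BNFinal
   Fermat.Agent.TW.E.HerbLatFinal
   Fermat.Agent.TW.E.HerbRankFinal
   Fermat.Agent.TW.E.HerbFinal
   Do not edit; do not import together with these modules. -/
import Fermat.Agent.ZB.TW_014
import Fermat.Agent.ZB.TW_054
import Fermat.Agent.ZB.TW_055
import Fermat.Agent.ZB.TW_056
import Fermat.Agent.ZB.TW_051

/-! ### bundled: `Fermat.Agent.TW.E.K0Descent` -/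
section ZBTW_057_0

/-!
# TW-E / E-K0, piece K1d: the descent (pure polynomial algebra over `𝔽_p`)  (helper35)

`stmtDescent : StmtDescent` — monic polynomials `P i g` over `𝔽_p` whose next coefficients are
"independent with a unit on the diagonal": if `∏ P_i(g)^{m_i} = ∏ P_i(g)^{n_i}` for all `g`, then
`m = n`.

Proof: strong induction on `Σ m + Σ n`.  If `m i, n i > 0` for some `i`, cancel one factor `P i g`.
Otherwise the supports are disjoint; taking next coefficients and pairing with the `a` of the
hypothesis gives `(m i : 𝔽_p) = (n i : 𝔽_p)` for all `i`, so `p ∣ m i, n i`; then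
`(∏ P^{m/p})^p = (∏ P^{n/p})^p`, Frobenius is injective, and the size has dropped.
-/

set_option autoImplicit false
set_option linter.unusedSectionVars false

namespace Fermat.Agent.TW.E

open Polynomial

section

variable {p : ℕ} [Fact p.Prime] {G : Type} [Fintype G] {ι : Type 1}

theorem k0de_monic (P : ι → G → Polynomial (ZMod p)) (hP : ∀ i g, (P i g).Monic)
    (m : ι →₀ ℕ) (g : G) : (m.prod fun i e => P i g ^ e).Monic := by
  rw [Finsupp.prod]
  exact Polynomial.monic_prod_of_monic _ _ fun i _ => (hP i g).pow _

theorem k0de_nextCoeff (P : ι → G → Polynomial (ZMod p)) (hP : ∀ i g, (P i g).Monic)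
    (m : ι →₀ ℕ) (g : G) :
    (m.prod fun i e => P i g ^ e).nextCoeff = ∑ i ∈ m.support, (m i : ZMod p) * (P i g).nextCoeff := by
  rw [Finsupp.prod, Polynomial.Monic.nextCoeff_prod _ _ fun i _ => (hP i g).pow _]
  refine Finset.sum_congr rfl fun i _ => ?_
  rw [(hP i g).nextCoeff_pow, nsmul_eq_mul]

theorem k0de_pairing (P : ι → G → Polynomial (ZMod p)) (hP : ∀ i g, (P i g).Monic)
    (F : Finset ι) (i₀ : ι) (a : G → ZMod p)
    (ha1 : ∑ g, a g * (P i₀ g).nextCoeff = 1)
    (ha0 : ∀ i ∈ F, i ≠ i₀ → ∑ g, a g * (P i g).nextCoeff = 0)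
    (m : ι →₀ ℕ) (hm : m.support ⊆ F) :
    ∑ g, a g * (m.prod fun i e => P i g ^ e).nextCoeff = (m i₀ : ZMod p) := by
  classical
  simp_rw [k0de_nextCoeff P hP, Finset.mul_sum]
  rw [Finset.sum_comm]
  have h1 : ∀ i ∈ m.support, ∑ g, a g * ((m i : ZMod p) * (P i g).nextCoeff)
      = if i = i₀ then (m i₀ : ZMod p) else 0 := by
    intro i hi
    have e : ∑ g, a g * ((m i : ZMod p) * (P i g).nextCoeff)
        = (m i : ZMod p) * ∑ g, a g * (P i g).nextCoeff := by
      rw [Finset.mul_sum]
      refine Finset.sum_congr rfl fun g _ => ?_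
      ring
    rw [e]
    by_cases h : i = i₀
    · subst h
      rw [ha1, mul_one, if_pos rfl]
    · rw [ha0 i (hm hi) h, mul_zero, if_neg h]
  rw [Finset.sum_congr rfl h1, Finset.sum_ite_eq']
  split_ifs with h
  · rfl
  · rw [Finsupp.notMem_support_iff.mp h, Nat.cast_zero]

/-- the size of a multiplicity function. -/
def k0deSize (m : ι →₀ ℕ) : ℕ := m.sum fun _ e => e

theorem k0deSize_add (m n : ι →₀ ℕ) : k0deSize (m + n) = k0deSize m + k0deSize n := by
  classical
  exact Finsupp.sum_add_index' (fun _ => rfl) (fun _ _ _ => rfl)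

theorem k0deSize_single (i : ι) (e : ℕ) : k0deSize (Finsupp.single i e) = e := by
  exact Finsupp.sum_single_index rfl

theorem k0deSize_eq_zero {m : ι →₀ ℕ} (h : k0deSize m = 0) : m = 0 := by
  ext i
  by_contra hi
  have hmem : i ∈ m.support := Finsupp.mem_support_iff.mpr hi
  have : m i ≤ k0deSize m := by
    rw [k0deSize, Finsupp.sum]
    exact Finset.single_le_sum (f := fun j => m j) (fun _ _ => Nat.zero_le _) hmem
  rw [h] at this
  exact hi (Nat.le_zero.mp this)

/-- division of a multiplicity function by `p`. -/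
noncomputable def k0deDiv (p : ℕ) (m : ι →₀ ℕ) : ι →₀ ℕ :=
  Finsupp.mapRange (fun e => e / p) (Nat.zero_div p) m

theorem k0deDiv_apply (m : ι →₀ ℕ) (i : ι) : k0deDiv p m i = m i / p := by
  simp [k0deDiv]

theorem k0deDiv_size_le (m : ι →₀ ℕ) : k0deSize (k0deDiv p m) ≤ k0deSize m := by
  classical
  rw [k0deSize, k0deDiv, Finsupp.sum_mapRange_index (fun _ => rfl), k0deSize, Finsupp.sum,
    Finsupp.sum]
  exact Finset.sum_le_sum fun i _ => Nat.div_le_self _ _

theorem k0deDiv_size_lt (m : ι →₀ ℕ) (hm : m ≠ 0) : k0deSize (k0deDiv p m) < k0deSize m := by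
  classical
  rw [k0deSize, k0deDiv, Finsupp.sum_mapRange_index (fun _ => rfl), k0deSize, Finsupp.sum,
    Finsupp.sum]
  obtain ⟨i, hi⟩ : ∃ i, m i ≠ 0 := by
    by_contra h
    push Not at h
    exact hm (Finsupp.ext h)
  refine Finset.sum_lt_sum (fun i _ => Nat.div_le_self _ _) ⟨i, Finsupp.mem_support_iff.mpr hi, ?_⟩
  exact Nat.div_lt_self (Nat.pos_of_ne_zero hi) (Fact.out : p.Prime).one_lt

theorem k0deDiv_prod (P : ι → G → Polynomial (ZMod p)) (m : ι →₀ ℕ) (hm : ∀ i, p ∣ m i)
    (g : G) :
    ((k0deDiv p m).prod fun i e => P i g ^ e) ^ p = m.prod fun i e => P i g ^ e := by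
  classical
  rw [k0deDiv, Finsupp.prod_mapRange_index (fun _ => pow_zero _), Finsupp.prod, Finsupp.prod,
    ← Finset.prod_pow]
  refine Finset.prod_congr rfl fun i _ => ?_
  rw [← pow_mul, Nat.div_mul_cancel (hm i)]

theorem k0deDiv_eq (m n : ι →₀ ℕ) (hm : ∀ i, p ∣ m i) (hn : ∀ i, p ∣ n i)
    (h : k0deDiv p m = k0deDiv p n) : m = n := by
  ext i
  have := DFunLike.congr_fun h i
  rw [k0deDiv_apply, k0deDiv_apply] at this
  rw [← Nat.div_mul_cancel (hm i), ← Nat.div_mul_cancel (hn i), this]

end

/-- **K1d.** The descent. -/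
theorem stmtDescent : StmtDescent := by
  intro p _ G _ ι P hP hind
  classical
  have hp : p.Prime := Fact.out
  -- strong induction on the total size
  suffices H : ∀ N : ℕ, ∀ m n : ι →₀ ℕ, k0deSize m + k0deSize n = N →
      (∀ g, (m.prod fun i e => P i g ^ e) = n.prod fun i e => P i g ^ e) → m = n from
    fun m n h => H _ m n rfl h
  intro N
  induction N using Nat.strong_induction_on with
  | _ N ih =>
    intro m n hN h
    by_cases hcase : ∃ i, 0 < m i ∧ 0 < n i
    · -- cancel one factor `P i`
      obtain ⟨i, hmi, hni⟩ := hcase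
      have hm' : Finsupp.single i 1 ≤ m := by
        rw [Finsupp.single_le_iff]
        exact hmi
      have hn' : Finsupp.single i 1 ≤ n := by
        rw [Finsupp.single_le_iff]
        exact hni
      have em : m = (m - Finsupp.single i 1) + Finsupp.single i 1 := (tsub_add_cancel_of_le hm').symm
      have en : n = (n - Finsupp.single i 1) + Finsupp.single i 1 := (tsub_add_cancel_of_le hn').symm
      have hprod : ∀ (x : ι →₀ ℕ) (g : G),
          ((x + Finsupp.single i 1).prod fun i e => P i g ^ e)
            = (x.prod fun i e => P i g ^ e) * P i g := by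
        intro x g
        have e1 := Finsupp.prod_add_index' (f := x) (g := Finsupp.single i 1)
          (h := fun i e => P i g ^ e) (fun _ => pow_zero _) (fun _ _ _ => pow_add _ _ _)
        have e2 : (Finsupp.single i 1).prod (fun i e => P i g ^ e) = P i g := by
          have := Finsupp.prod_single_index (a := i) (b := 1) (h := fun i e => P i g ^ e)
            (pow_zero _)
          rw [this, pow_one]
        rw [e1, e2]
      have h' : ∀ g, ((m - Finsupp.single i 1).prod fun i e => P i g ^ e)
          = (n - Finsupp.single i 1).prod fun i e => P i g ^ e := by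
        intro g
        have := h g
        rw [em, en, hprod, hprod] at this
        exact mul_right_cancel₀ (hP i g).ne_zero this
      have hsize : k0deSize (m - Finsupp.single i 1) + k0deSize (n - Finsupp.single i 1) < N := by
        have e1 : k0deSize m = k0deSize (m - Finsupp.single i 1) + 1 := by
          conv_lhs => rw [em]
          rw [k0deSize_add, k0deSize_single]
        have e2 : k0deSize n = k0deSize (n - Finsupp.single i 1) + 1 := by
          conv_lhs => rw [en]
          rw [k0deSize_add, k0deSize_single]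
        omega
      have := ih _ hsize _ _ rfl h'
      rw [em, en, this]
    · -- disjoint supports
      push Not at hcase
      have hdisj : ∀ i, m i = 0 ∨ n i = 0 := by
        intro i
        by_cases hmi : m i = 0
        · exact Or.inl hmi
        · exact Or.inr (Nat.le_zero.mp (hcase i (Nat.pos_of_ne_zero hmi)))
      -- `(m i : 𝔽_p) = (n i : 𝔽_p)` for all `i`
      have hcast : ∀ i, (m i : ZMod p) = (n i : ZMod p) := by
        intro i₀
        by_cases hi₀ : i₀ ∈ m.support ∪ n.support
        · obtain ⟨a, ha1, ha0⟩ := hind (m.support ∪ n.support) i₀ hi₀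
          rw [← k0de_pairing P hP _ i₀ a ha1 ha0 m Finset.subset_union_left,
            ← k0de_pairing P hP _ i₀ a ha1 ha0 n Finset.subset_union_right]
          refine Finset.sum_congr rfl fun g _ => ?_
          rw [h g]
        · rw [Finset.mem_union, not_or, Finsupp.notMem_support_iff,
            Finsupp.notMem_support_iff] at hi₀
          rw [hi₀.1, hi₀.2]
      have hdvd : ∀ i, p ∣ m i ∧ p ∣ n i := by
        intro i
        have hc := hcast i
        rcases hdisj i with h0 | h0
        · rw [h0, Nat.cast_zero] at hc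
          exact ⟨h0 ▸ dvd_zero p, (ZMod.natCast_eq_zero_iff _ _).mp hc.symm⟩
        · rw [h0, Nat.cast_zero] at hc
          exact ⟨(ZMod.natCast_eq_zero_iff _ _).mp hc, h0 ▸ dvd_zero p⟩
      have hdm : ∀ i, p ∣ m i := fun i => (hdvd i).1
      have hdn : ∀ i, p ∣ n i := fun i => (hdvd i).2
      by_cases hzero : m = 0 ∧ n = 0
      · rw [hzero.1, hzero.2]
      · -- the size drops
        have hsize : k0deSize (k0deDiv p m) + k0deSize (k0deDiv p n) < N := by
          rw [← hN]
          by_cases hm0 : m = 0
          · have hn0 : n ≠ 0 := fun hn0 => hzero ⟨hm0, hn0⟩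
            have := k0deDiv_size_lt (p := p) n hn0
            have := k0deDiv_size_le (p := p) m
            omega
          · have := k0deDiv_size_lt (p := p) m hm0
            have := k0deDiv_size_le (p := p) n
            omega
        have h' : ∀ g, ((k0deDiv p m).prod fun i e => P i g ^ e)
            = (k0deDiv p n).prod fun i e => P i g ^ e := by
          intro g
          have e : ((k0deDiv p m).prod fun i e => P i g ^ e) ^ p
              = ((k0deDiv p n).prod fun i e => P i g ^ e) ^ p := by
            rw [k0deDiv_prod P m hdm, k0deDiv_prod P n hdn, h g]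
          exact frobenius_inj (Polynomial (ZMod p)) p e
        exact k0deDiv_eq m n hdm hdn (ih _ hsize _ _ rfl h')

end Fermat.Agent.TW.E


end ZBTW_057_0

/-! ### bundled: `Fermat.Agent.TW.E.K0BNFinal` -/
section ZBTW_057_1

/-!
# TW-E / E-K0 / K1 : Brauer–Nesbitt (unconditional)
-/

namespace Fermat.Agent.TW.E

/-- **Brauer–Nesbitt** for additive functions: two finite-dimensional representations of a finite
group over `𝔽_p` on which every `p`-regular element has the same characteristic polynomial have
the same value under every additive function. -/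
theorem stmtBN : StmtBN :=
  stmtBN_of stmtJH stmtTraceIndep stmtDescent

end Fermat.Agent.TW.E


end ZBTW_057_1

/-! ### bundled: `Fermat.Agent.TW.E.HerbLatFinal` -/
section ZBTW_057_2
/-
TW-E / E-herb / H-lat (helper32), unconditional form: Brauer–Nesbitt `stmtBN` (`K0BNFinal.lean`)
plugged into `stmtHerbLat_of` (`HerbLat.lean`).
-/

set_option autoImplicit false

namespace Fermat.Agent.TW.E

/-- **H-lat**, unconditional. -/
theorem stmtHerbLat : StmtHerbLat := stmtHerbLat_of stmtBN

end Fermat.Agent.TW.E


end ZBTW_057_2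

/-! ### bundled: `Fermat.Agent.TW.E.HerbRankFinal` -/
section ZBTW_057_3
/-
TW-E / E-herb / H-rank (helper32), unconditional form: all inputs of `stmtHerbRank_of`
(`HerbRank.lean`) are on main.
-/

set_option autoImplicit false

namespace Fermat.Agent.TW.E

/-- **H-rank**, unconditional. -/
theorem stmtHerbRank : StmtHerbRank :=
  stmtHerbRank_of stmtHerbAdd stmtHerbFin stmtHerbLat stmtHerbRat stmtHerbModels

end Fermat.Agent.TW.E


end ZBTW_057_3

/-! ### bundled: `Fermat.Agent.TW.E.HerbFinal` -/
section ZBTW_057_4
/-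
TW-E / E-herb (helper32): Herbrand's lemma modulo `p`, final unconditional statements.
All pieces of `TW/E/HerbPlan.lean` are proved:
`stmtHerbModels`, `stmtHerbAdd`, `stmtHerbFin`, `stmtHerbLat`, `stmtHerbRat`, `stmtHerbPerm`,
`stmtHerbRank`, `stmtHerbUnits`.
-/

set_option autoImplicit false

namespace Fermat.Agent.TW.E

/-- **H-units**, unconditional: if `rank X^H + 1 = #(H \ S)` for all cyclic subgroups `H` of the
finite group `Γ`, then `ψ (X/p) - ψ (X[p]) + ψ (𝔽_p) = ψ (𝔽_p[S])` for every additive `ψ`. -/
theorem stmtHerbUnits : StmtHerbUnits :=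
  stmtHerbUnits_of stmtHerbRank stmtHerbAdd stmtHerbPerm stmtHerbModels

end Fermat.Agent.TW.E


end ZBTW_057_4
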