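/- GENERATED FILE (helper35, build-time optimisation, NOTES/ZB.md): verbatim concatenation of the modules
   Fermat.Agent.TW.E.BrSeq
   Do not edit; do not import together with these modules. -/
import Fermat.Agent.ZB.TW_051
import Fermat.Agent.ZB.TW_014

/-! ### bundled: `Fermat.Agent.TW.E.BrSeq` -/
section ZBTW_058_0
/-
TW-E / E-cyc, piece **K-Br** (helper9):
`stmtBrSeq_of : F.StmtH2pDep → F.StmtH2pSeed → StmtBrSeq`.

`0 → H²_lev(𝓔)[p] → H²_lev(𝓙)[p] → H²_lev(𝓒)[p] → 0`, `Γ`-equivariantly, where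
`𝓨 = Hom_ℤ(ℤ[Γ], Y)`, `Γ = G ⧸ U`.
* the maps are `i_*`, `π_*` (`levH2Map` of `homRepMap`); they commute with the right translations
  `R_δ` (`brs_equivariant`);
* injectivity on the `p`-torsion (`brs_inj`): `In1` for `ℤ[Γ]` (`stmtIn1Perm`): if `i ∘ w = d t` then
  `π t` is a level 1-cocycle of `Hom(ℤ[Γ], C)`, so `n π t = d⁰ t_C`, `p ∤ n`; lift `t_C` to `t_J`;
  `n t - d⁰ t_J = i ∘ s` and `d s = n w`;
* exactness in the middle (`brs_exact`): the chase `h2pex_main` (helper68);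
* surjectivity (`brs_surj`): `H²_lev(𝓒)[p]` is cyclic (`StmtH2pDep`) and the image of the seed
  class (`StmtH2pSeed`) is not zero (its trace is not a level coboundary).
-/

set_option autoImplicit false
set_option linter.unusedSectionVars false
set_option linter.style.haveILetI false

noncomputable section

namespace Fermat.Agent.TW.E

open CategoryTheory groupCohomology Module Fermat.Agent.PT Fermat.Agent.PT.F Fermat.Agent.TW.F
open Fermat.Agent.PT.F.ExactH2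

attribute [local instance 1100] Rep.hV2

/-! ### Equivariance -/

section Equiv

variable {G : Type} [Group G] (U : Subgroup G) [U.Normal] (𝒯 : Tower G)

/-- post-composition commutes with the right translations -/
lemma brs_rt_comm {Y Y' : Rep.{0} ℤ G} (f : Y ⟶ Y') (δ : G ⧸ U) :
    homRt U Y δ ≫ homRepMap (permZ G (G ⧸ U)) f =
      homRepMap (permZ G (G ⧸ U)) f ≫ homRt U Y' δ := by
  apply Rep.hom_ext
  apply Representation.IntertwiningMap.ext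
  refine LinearMap.ext fun φ => ?_
  rfl

lemma brs_equivariant {Y Y' : Rep.{0} ℤ G} (f : Y ⟶ Y') (δ : G ⧸ U)
    (x : levH2 𝒯 (homRep (permZ G (G ⧸ U)) Y)) :
    levH2Map 𝒯 (homRepMap (permZ G (G ⧸ U)) f) (levH2Map 𝒯 (homRt U Y δ) x) =
      levH2Map 𝒯 (homRt U Y' δ) (levH2Map 𝒯 (homRepMap (permZ G (G ⧸ U)) f) x) := by
  have h1 := levH2Map_comp 𝒯 (homRt U Y δ) (homRepMap (permZ G (G ⧸ U)) f)
  have h2 := levH2Map_comp 𝒯 (homRepMap (permZ G (G ⧸ U)) f) (homRt U Y' δ)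
  rw [brs_rt_comm] at h1
  exact DFunLike.congr_fun (h1.symm.trans h2) x

end Equiv

section Datum

variable {p : ℕ} {G : Type} [Group G] {ι : Type} {Gloc : ι → Type} [∀ v, Group (Gloc v)]

/-- `π_* ∘ i_* = 0` -/
lemma brs_pi_i (D : PTDatum p G ι Gloc) (M : Rep.{0} ℤ G) (x : levH2 D.𝒯 (homRep M D.E)) :
    levH2Map D.𝒯 (homRepMap M D.π) (levH2Map D.𝒯 (homRepMap M D.i) x) = 0 := by
  have h : homRepMap M D.i ≫ homRepMap M D.π = 0 := by
    apply Rep.hom_ext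
    apply Representation.IntertwiningMap.ext
    refine LinearMap.ext fun φ => ?_
    refine AddMonoidHom.ext fun m => ?_
    exact pi_i D ((φ : M.V →+ D.E.V) m)
  have h1 := levH2Map_comp D.𝒯 (homRepMap M D.i) (homRepMap M D.π)
  rw [h, levH2Map_zero] at h1
  exact (DFunLike.congr_fun h1 x).symm

/-- **K-Br, injectivity**: `i_*` is injective on the `p`-torsion of `H²_lev(Hom(ℤ[Ω], E))`. -/
theorem brs_inj [Fact p.Prime] [Fintype ι] (D : PTDatum p G ι Gloc)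
    (Ω : Type) [Fintype Ω] [MulAction G Ω] (hΩ : IsLevSet D.𝒯 Ω)
    (x : levH2 D.𝒯 (homRep (permZ G Ω) D.E)) (hp : p • x = 0)
    (hx : levH2Map D.𝒯 (homRepMap (permZ G Ω) D.i) x = 0) : x = 0 := by
  obtain ⟨w, rfl⟩ := levH2_exists_rep x
  rw [levH2Map_mk, levH2π_eq_zero_iff] at hx
  obtain ⟨t, htlev, ht⟩ := (brc_mem_levCoboundaries₂_iff _ _ D.𝒯 _).1 hx
  have ht' : ∀ s, (homAdd D.i).comp (w.1 s) = dOne (permZ G Ω) (PTJ D) t s := fun s => ht s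
  have hJ : IsDiscrete D.𝒯 (PTJ D) := ptj_isDiscrete D
  have hπt : ∀ s, dOne (permZ G Ω) D.C (fun σ => (homAdd D.π).comp (t σ)) s = 0 := fun s => by
    rw [← comp_dOne, ← ht' s, h2pex_pi_i]
  obtain ⟨n, hn, tC, htC⟩ := stmtIn1Perm p G ι Gloc D Ω hΩ
    (fun σ => (homAdd D.π).comp (t σ)) (htlev.comp (fun h => (homAdd D.π).comp h)) hπt
  obtain ⟨tJ, htJ⟩ := chl_exists_lift_pi₀ D Ω tC
  have hv₁lev : IsLevel₁ D.𝒯 (fun σ => n • t σ - dZero (permZ G Ω) (PTJ D) tJ σ) :=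
    chl_isLevel₁_sub (chl_isLevel₁_nsmul n htlev) (chl_isLevel₁_dZero hΩ hJ tJ)
  have hπv₁ : ∀ σ, (homAdd D.π).comp (n • t σ - dZero (permZ G Ω) (PTJ D) tJ σ) = 0 := by
    intro σ
    rw [AddMonoidHom.comp_sub, chl_comp_nsmul, comp_dZero, htJ, htC σ, sub_self]
  obtain ⟨s, hslev, hs⟩ := chl_exists_lift_i₁ D _ hv₁lev hπv₁
  have hds : ∀ x, dOne (permZ G Ω) D.E s x = n • w.1 x := by
    intro x
    apply i_comp_injective (D := D)
    rw [comp_dOne, funext hs, dOne_sub, dOne_nsmul, dOne_dZero, sub_zero, chl_comp_nsmul, ht' x]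
  have hnx : n • levH2π D.𝒯 (homRep (permZ G Ω) D.E) w = 0 := by
    rw [← map_nsmul, levH2π_eq_zero_iff]
    exact (brc_mem_levCoboundaries₂_iff _ _ D.𝒯 _).2 ⟨s, hslev, fun x => (hds x).symm⟩
  exact brc_eq_zero_of_coprime hp hn hnx

/-- **K-Br, exactness in the middle.** -/
theorem brs_exact [Fact p.Prime] [Fintype ι] (D : PTDatum p G ι Gloc)
    (Ω : Type) [Fintype Ω] [MulAction G Ω] (hΩ : IsLevSet D.𝒯 Ω)
    (y : levH2 D.𝒯 (homRep (permZ G Ω) (PTJ D))) (hp : p • y = 0)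
    (hy : levH2Map D.𝒯 (homRepMap (permZ G Ω) D.π) y = 0) :
    ∃ x : levH2 D.𝒯 (homRep (permZ G Ω) D.E), p • x = 0 ∧
      levH2Map D.𝒯 (homRepMap (permZ G Ω) D.i) x = y := by
  obtain ⟨Y, rfl⟩ := levH2_exists_rep y
  have hp' := hp
  rw [← map_nsmul, levH2π_eq_zero_iff] at hp'
  obtain ⟨t₁, ht₁lev, ht₁⟩ := (brc_mem_levCoboundaries₂_iff _ _ D.𝒯 _).1 hp'
  rw [levH2Map_mk, levH2π_eq_zero_iff] at hy
  obtain ⟨t, htlev, ht⟩ := (brc_mem_levCoboundaries₂_iff _ _ D.𝒯 _).1 hy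
  obtain ⟨n, hn, W, hWlev, hWcoc, hWp, u, hulev, hu⟩ := h2pex_main D Ω hΩ Y.1 Y.2.2
    ((brc_mem_cocycles₂_iff _ _ _).1 Y.2.1) ⟨t₁, ht₁lev, ht₁⟩ ⟨t, htlev, ht⟩
  obtain ⟨k, hk⟩ := exists_inv_mod (p := p) n hn
  have hWmem : W ∈ levCocycles₂ D.𝒯 (homRep (permZ G Ω) D.E) :=
    ⟨(brc_mem_cocycles₂_iff _ _ W).2 hWcoc, hWlev⟩
  set xW : levH2 D.𝒯 (homRep (permZ G Ω) D.E) := levH2π D.𝒯 _ ⟨W, hWmem⟩ with hxW
  have hpxW : p • xW = 0 := by
    have h0 : p • (⟨W, hWmem⟩ : ↥(levCocycles₂ D.𝒯 (homRep (permZ G Ω) D.E))) = 0 :=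
      Subtype.ext (funext hWp)
    rw [hxW, ← map_nsmul, h0, map_zero]
  have hi : n • levH2π D.𝒯 (homRep (permZ G Ω) (PTJ D)) Y =
      levH2Map D.𝒯 (homRepMap (permZ G Ω) D.i) xW := by
    rw [hxW, levH2Map_mk, ← map_nsmul, ← sub_eq_zero, ← map_sub, levH2π_eq_zero_iff]
    refine (brc_mem_levCoboundaries₂_iff _ _ D.𝒯 _).2 ⟨u, hulev, fun s => ?_⟩
    show n • Y.1 s - (homAdd D.i).comp (W s) = _
    rw [hu s, add_sub_cancel_left]
  refine ⟨k • xW, ?_, ?_⟩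
  · rw [smul_comm, hpxW, smul_zero]
  · have hmod : k * n ≡ 1 [MOD p] :=
      (ZMod.natCast_eq_natCast_iff _ _ _).1 (by rw [hk]; simp)
    rw [map_nsmul, ← hi, ← mul_smul, brc_nsmul_eq_of_modEq hp hmod, one_smul]

/-- **K-Br, surjectivity.** -/
theorem brs_surj (hDep : StmtH2pDep) (hSeed : StmtH2pSeed) [Fact p.Prime] [Fintype ι]
    [Nonempty ι] (D : PTDatum p G ι Gloc) (hPD : HasPDepthGlob D) (U : Subgroup G)
    [hUn : U.Normal] (hU : U ∈ D.𝒯.lev)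
    (z : levH2 D.𝒯 (homRep (permZ G (G ⧸ U)) D.C)) (hz : p • z = 0) :
    ∃ y : levH2 D.𝒯 (homRep (permZ G (G ⧸ U)) (PTJ D)), p • y = 0 ∧
      levH2Map D.𝒯 (homRepMap (permZ G (G ⧸ U)) D.π) y = z := by
  have hpp : p.Prime := Fact.out
  haveI : U.FiniteIndex := D.𝒯.finiteIndex U hU
  haveI : Finite (G ⧸ U) := Subgroup.finite_quotient_of_finiteIndex
  obtain ⟨v⟩ : Nonempty ι := inferInstance
  obtain ⟨Y, hYT, -, hYN⟩ := hSeed p G ι Gloc D hPD U hUn hU v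
  have hW₀T : IsPTorsCoc D.𝒯 p (permZ G (G ⧸ U)) D.C (fun s => (homAdd D.π).comp (Y s)) :=
    h2pa_pi_ptors D _ hYT
  obtain ⟨hYl, hYc, t₁, ht₁, hYp⟩ := hYT
  have hYmem : Y ∈ levCocycles₂ D.𝒯 (homRep (permZ G (G ⧸ U)) (PTJ D)) :=
    ⟨(brc_mem_cocycles₂_iff _ _ Y).2 hYc, hYl⟩
  set y₀ : levH2 D.𝒯 (homRep (permZ G (G ⧸ U)) (PTJ D)) := levH2π D.𝒯 _ ⟨Y, hYmem⟩ with hy₀
  have hpy₀ : p • y₀ = 0 := by
    rw [hy₀, ← map_nsmul, levH2π_eq_zero_iff]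
    exact (brc_mem_levCoboundaries₂_iff _ _ D.𝒯 _).2 ⟨t₁, ht₁, hYp⟩
  set x₀ : levH2 D.𝒯 (homRep (permZ G (G ⧸ U)) D.C) :=
    levH2Map D.𝒯 (homRepMap (permZ G (G ⧸ U)) D.π) y₀ with hx₀
  have hpx₀ : p • x₀ = 0 := by rw [hx₀, ← map_nsmul, hpy₀, map_zero]
  have hx₀ne : x₀ ≠ 0 := by
    intro h
    have h1 : levH2Map D.𝒯 (evHom (permZ G (G ⧸ U)) D.C (h2pN U) (brc_ρ_N U)) x₀ = 0 := by
      rw [h, map_zero]
    rw [hx₀, hy₀, levH2Map_mk, levH2Map_mk, levH2π_eq_zero_iff] at h1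
    exact hYN h1
  -- cyclicity
  obtain ⟨w, rfl⟩ := levH2_exists_rep z
  have hz' := hz
  rw [← map_nsmul, levH2π_eq_zero_iff] at hz'
  obtain ⟨t, ht, htw⟩ := (brc_mem_levCoboundaries₂_iff _ _ D.𝒯 _).1 hz'
  have hwT : IsPTorsCoc D.𝒯 p (permZ G (G ⧸ U)) D.C (w : G × G → _) :=
    ⟨w.2.2, (brc_mem_cocycles₂_iff _ _ _).1 w.2.1, t, ht, htw⟩
  obtain ⟨a, b, hab, t', ht', hdep⟩ := hDep p G ι Gloc D U hUn hU _ _ hwT hW₀T
  have hrel : a • levH2π D.𝒯 (homRep (permZ G (G ⧸ U)) D.C) w + b • x₀ = 0 := by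
    rw [hx₀, hy₀, levH2Map_mk, ← map_nsmul, ← map_nsmul, ← map_add, levH2π_eq_zero_iff]
    exact (brc_mem_levCoboundaries₂_iff _ _ D.𝒯 _).2 ⟨t', ht', hdep⟩
  have hpa : ¬ p ∣ a := by
    intro hpa
    obtain ⟨a', rfl⟩ := hpa
    rw [mul_comm, mul_smul, hz, smul_zero, zero_add] at hrel
    exact hab ⟨Dvd.intro _ rfl, by
      by_contra hb
      exact hx₀ne (brc_eq_zero_of_coprime hpx₀ hb hrel)⟩
  obtain ⟨k, hk⟩ := exists_inv_mod (p := p) a hpa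
  have hmod : k * a ≡ 1 [MOD p] :=
    (ZMod.natCast_eq_natCast_iff _ _ _).1 (by rw [hk]; simp)
  -- `[w] = (k a) [w] = - k b x₀ = (k b (p - 1)) x₀`
  obtain ⟨q, hq⟩ : ∃ q : ℕ, p = q + 1 := ⟨p - 1, (Nat.sub_add_cancel hpp.one_le).symm⟩
  have h1 : levH2π D.𝒯 (homRep (permZ G (G ⧸ U)) D.C) w = (k * b * q) • x₀ := by
    have h2 : (k * a) • levH2π D.𝒯 (homRep (permZ G (G ⧸ U)) D.C) w + (k * b) • x₀ = 0 := by
      rw [mul_smul, mul_smul, ← smul_add, hrel, smul_zero]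
    rw [brc_nsmul_eq_of_modEq hz hmod, one_smul] at h2
    have he : k * b * q + k * b = (k * b) * p := by rw [hq]; ring
    have h3 : (k * b * q) • x₀ + (k * b) • x₀ = 0 := by
      rw [← add_smul, he, mul_smul, hpx₀, smul_zero]
    exact add_right_cancel (h2.trans h3.symm)
  refine ⟨(k * b * q) • y₀, ?_, ?_⟩
  · rw [smul_comm, hpy₀, smul_zero]
  · rw [map_nsmul, ← hx₀, h1]

end Datum

/-- **K-Br.** -/
theorem stmtBrSeq_of (hDep : StmtH2pDep) (hSeed : StmtH2pSeed) : StmtBrSeq := by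
  intro p _ G _ ι _ _ Gloc _ D hPD U hUn hU
  haveI : U.FiniteIndex := D.𝒯.finiteIndex U hU
  haveI : Finite (G ⧸ U) := Subgroup.finite_quotient_of_finiteIndex
  haveI : Fintype (G ⧸ U) := Fintype.ofFinite _
  have hΩ : IsLevSet D.𝒯 (G ⧸ U) := h2pa_isLevSet U hUn hU
  refine ⟨(levH2Map D.𝒯 (homRepMap (permZ G (G ⧸ U)) D.i)).toAddMonoidHom,
    (levH2Map D.𝒯 (homRepMap (permZ G (G ⧸ U)) D.π)).toAddMonoidHom, ?_, ?_, ?_, ?_, ?_⟩
  · intro δ x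
    exact brs_equivariant U D.𝒯 D.i δ x
  · intro δ y
    exact brs_equivariant U D.𝒯 D.π δ y
  · intro x hp hx
    exact brs_inj D (G ⧸ U) hΩ x hp hx
  · intro y hp
    constructor
    · intro hy
      exact brs_exact D (G ⧸ U) hΩ y hp hy
    · rintro ⟨x, -, rfl⟩
      exact brs_pi_i D _ x
  · intro z hz
    exact brs_surj hDep hSeed D hPD U hU z hz

end Fermat.Agent.TW.E

end


end ZBTW_058_0
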