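/- GENERATED FILE (helper35, build-time optimisation, NOTES/ZB.md): verbatim concatenation of the modules
   Fermat.Agent.W1.GeoCmpOrd
   Do not edit; do not import together with these modules. -/
import Fermat.Agent.ZB.W1_002
import Fermat.Agent.ZB.ES_020

/-! ### bundled: `Fermat.Agent.W1.GeoCmpOrd` -/
section ZBW1_008_0

/-!
# W1 GEO-CMP, orders in the discs (helper94)

Notation of `PlanGeo*.lean`.  All facts come from `IsPR.r_div` (through helper14's
`ge_sum_ord_le`), `GoodFn` and the chart axioms.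

* `discRing R Q` : the `K`-algebra of functions without poles on `r⁻¹(Q)`.
* `disc_ord` : in the `i`-th disc, `τ_i - z` has a simple zero at the point with coordinate `z`
  and no other zero.
* `div_apply` : the value of `C.div P` at a place.
* `ord_hfun` : the function `ψ (τ_i - z_i)(τ_i - z'_i) / τ_i` has no pole in the `i`-th disc
  and vanishes at `P''_i`.
* `rr_chart_eq_const` : `L(Σ Q_i) = K`.
-/

set_option autoImplicit false

open AlgebraicCurve Module

namespace Fermat.Agent.W1.Cmp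

open Fermat.Agent.W1 Fermat.Agent.S24

variable {K F k Fk : Type} [Field K] [Field F] [Algebra K F] [Field k] [Field Fk] [Algebra k Fk]
variable {A : ValuationSubring K}

/-! ### the ring of a disc -/

/-- the functions without poles on the fibre `r⁻¹(Q)` -/
def discRing (R : PRData K F k Fk A) (Q : Place k Fk) : Subalgebra K F where
  carrier := {f | ∀ P : Place K F, R.r P = Q → f ∈ P.toValuationSubring}
  mul_mem' := fun hf hg P hP => P.toValuationSubring.mul_mem _ _ (hf P hP) (hg P hP)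
  add_mem' := fun hf hg P hP => P.toValuationSubring.add_mem _ _ (hf P hP) (hg P hP)
  algebraMap_mem' := fun a P _ => P.algebraMap_mem' a

theorem mem_discRing {R : PRData K F k Fk A} {Q : Place k Fk} {f : F} :
    f ∈ discRing R Q ↔ ∀ P : Place K F, R.r P = Q → f ∈ P.toValuationSubring := Iff.rfl

/-- membership in the ring of the disc is the hypothesis of `StmtTaylorInt` -/
theorem no_pole_of_mem_discRing {R : PRData K F k Fk A} {Q : Place k Fk} {f : F}
    (hf : f ∈ discRing R Q) (P : Place K F) (hP : P.ord f < 0) : R.r P ≠ Q := fun h => by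
  have := ge_ord_nonneg_of_mem P (hf P h)
  omega

theorem mem_discRing_of_ord {R : PRData K F k Fk A} {Q : Place k Fk} {f : F}
    (hf : ∀ P : Place K F, R.r P = Q → 0 ≤ P.ord f) : f ∈ discRing R Q := fun P hP =>
  PlaceAux.mem_of_ord_nonneg P (hf P hP)

variable {R : PRData K F k Fk A} {g : ℕ} (C : R.Chart g)

theorem red_sub_ne_zero (hC : C.IsChart) (ht : C.t ∈ R.O) (i : Fin g) :
    R.red ⟨C.t, ht⟩ - algebraMap k Fk (R.res (C.c i)) ≠ 0 := by
  intro h0
  have := hC.simple ht i
  rw [h0, Place.ord_zero] at this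
  exact zero_ne_one this

/-- no pole of `t` reduces to a centre -/
theorem t_no_pole (hC : C.IsChart) (i : Fin g) (P' : Place K F) (hP' : P'.ord C.t < 0) :
    R.r P' ≠ R.r (C.Q i) := by
  obtain ⟨ht, hpoles⟩ := hC.good
  intro hrP'
  have h1 := hpoles P' hP'
  rw [hrP'] at h1
  have hcQ : HasValueAt (R.r (C.Q i)) (R.red ⟨C.t, ht⟩) (R.res (C.c i)) := by
    rw [hasValueAt_iff_ord_pos _ (red_sub_ne_zero C hC ht i), hC.simple ht i]
    exact one_pos
  exact absurd (ge_ord_nonneg_of_mem _ (hcQ.mem _)) (not_le.mpr h1)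

theorem t_mem_discRing (hC : C.IsChart) (i : Fin g) : C.t ∈ discRing R (R.r (C.Q i)) :=
  fun P hP => ge_mem_of_not_ord_neg P fun h => t_no_pole C hC i P h hP

theorem tau_sub_mem_discRing (hC : C.IsChart) (i : Fin g) (z : K) :
    C.tau i - algebraMap K F z ∈ discRing R (R.r (C.Q i)) := by
  unfold PRData.Chart.tau
  exact Subalgebra.sub_mem _ (Subalgebra.sub_mem _ (t_mem_discRing C hC i)
    (Subalgebra.algebraMap_mem _ _)) (Subalgebra.algebraMap_mem _ _)

theorem t_mem_O (hC : C.IsChart) : C.t ∈ R.O := hC.good.choose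

theorem tau_sub_mem_O (hR : R.IsPR) (hC : C.IsChart) (i : Fin g) {z : K} (hz : z ∈ A) :
    C.tau i - algebraMap K F z ∈ R.O := by
  unfold PRData.Chart.tau
  exact sub_mem (sub_mem (t_mem_O C hC) (hR.algebraMap_mem (C.c i)))
    ((hR.algebraMap_mem_iff z).2 hz)

/-- **orders in the disc**: `τ_i - z` has a simple zero at the point with coordinate `z` and is
a unit at all other points of the disc. -/
theorem disc_ord (hR : R.IsPR) (hpd : HasPrincipalDivisors K F) (hC : C.IsChart) (i : Fin g)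
    (z : K) (P : Place K F) (hP : C.InDisc i P z) :
    P.ord (C.tau i - algebraMap K F z) = 1 ∧
      ∀ P' : Place K F, R.r P' = R.r (C.Q i) → P' ≠ P →
        P'.ord (C.tau i - algebraMap K F z) = 0 := by
  classical
  obtain ⟨hrP, hz, hval⟩ := hP
  have ht := t_mem_O C hC
  have hzA : z ∈ A := ge_nonunits_mem hz
  set w : A := C.c i + ⟨z, hzA⟩ with hw
  have hwres : R.res w = R.res (C.c i) := by
    rw [hw, map_add, (hR.res_eq_zero_iff ⟨z, hzA⟩).mpr hz, add_zero]
  set u : R.O := ⟨C.t, ht⟩ - ⟨algebraMap K F (w : K), hR.algebraMap_mem w⟩ with hu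
  have hured : R.red u = R.red ⟨C.t, ht⟩ - algebraMap k Fk (R.res (C.c i)) := by
    rw [hu, map_sub, hR.red_const w, hwres]
  have hu0 : R.red u ≠ 0 := by rw [hured]; exact red_sub_ne_zero C hC ht i
  have hucoe : (u : F) = C.tau i - algebraMap K F z := by
    show C.t - algebraMap K F ((C.c i : K) + z) = C.t - algebraMap K F (C.c i : K)
      - algebraMap K F z
    rw [map_add]; ring
  have hucoe' : (u : F) = C.t - algebraMap K F ((C.c i : K) + z) := rfl
  have hmem : (u : F) ∈ discRing R (R.r (C.Q i)) := by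
    rw [hucoe]; exact tau_sub_mem_discRing C hC i z
  have hno' : ∀ P' : Place K F, P'.ord (u : F) < 0 → R.r P' ≠ R.r (C.Q i) :=
    no_pole_of_mem_discRing hmem
  have hPpos : 0 < P.ord (u : F) := by
    rw [hucoe']
    exact (hasValueAt_iff_ord_pos P (by rw [← hucoe']; exact ge_coe_ne_zero hu0)).1 hval
  have hordQ : (R.r (C.Q i)).ord (R.red u) = 1 := by rw [hured]; exact hC.simple ht i
  have hle1 := ge_sum_ord_le hR hpd hu0 (R.r (C.Q i)) hno' {P} (by simpa using hrP)
  rw [Finset.sum_singleton, hordQ] at hle1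
  rw [← hucoe]
  refine ⟨by omega, fun P' hP' hne => ?_⟩
  have h0 : 0 ≤ P'.ord (u : F) := ge_ord_nonneg_of_mem P' (hmem P' hP')
  have hle := ge_sum_ord_le hR hpd hu0 (R.r (C.Q i)) hno' {P', P} (by
    intro x hx
    rcases Finset.mem_insert.mp hx with rfl | hx
    · exact hP'
    · rw [Finset.mem_singleton.mp hx]; exact hrP)
  rw [Finset.sum_pair hne, hordQ] at hle
  omega

/-- the centre `Q i` lies in the `i`-th disc with coordinate `0` -/
theorem inDisc_centre (hC : C.IsChart) (i : Fin g) : C.InDisc i (C.Q i) 0 := by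
  refine ⟨rfl, ?_, ?_⟩
  · rw [ValuationSubring.mem_nonunits_iff_or]; exact Or.inl rfl
  · rw [add_zero]; exact hC.value i

/-- `ord_P (τ_i - z_i)` for `P` in the `i`-th disc -/
theorem disc_ord_eq (hR : R.IsPR) (hpd : HasPrincipalDivisors K F) (hC : C.IsChart) (i : Fin g)
    (z : K) (P : Place K F) (hP : C.InDisc i P z) (P₀ : Place K F)
    (h₀ : R.r P₀ = R.r (C.Q i)) [Decidable (P = P₀)] :
    P₀.ord (C.tau i - algebraMap K F z) = if P = P₀ then 1 else 0 := by
  obtain ⟨h1, h2⟩ := disc_ord C hR hpd hC i z P hP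
  split_ifs with h
  · rw [← h]; exact h1
  · exact h2 P₀ h₀ (fun h' => h h'.symm)

theorem tau_sub_ne_zero (hR : R.IsPR) (hpd : HasPrincipalDivisors K F) (hC : C.IsChart)
    (i : Fin g) (z : K) (P : Place K F) (hP : C.InDisc i P z) :
    C.tau i - algebraMap K F z ≠ 0 := by
  intro h
  have := (disc_ord C hR hpd hC i z P hP).1
  rw [h, Place.ord_zero] at this
  exact zero_ne_one this

theorem tau_ne_zero (hR : R.IsPR) (hpd : HasPrincipalDivisors K F) (hC : C.IsChart)
    (i : Fin g) : C.tau i ≠ 0 := by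
  have := tau_sub_ne_zero C hR hpd hC i 0 (C.Q i) (inDisc_centre C hC i)
  simpa using this

theorem ord_tau_centre (hR : R.IsPR) (hpd : HasPrincipalDivisors K F) (hC : C.IsChart)
    (i : Fin g) : (C.Q i).ord (C.tau i) = 1 := by
  have := (disc_ord C hR hpd hC i 0 (C.Q i) (inDisc_centre C hC i)).1
  simpa using this

/-! ### divisors of the chart -/

theorem div_apply [DecidableEq (Place K F)] (P : Fin g → Place K F) (v : Place K F) :
    C.div P v = ∑ i : Fin g, ((if P i = v then 1 else 0) - (if C.Q i = v then 1 else 0)) := by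
  unfold PRData.Chart.div
  rw [Finsupp.finsetSum_apply]
  refine Finset.sum_congr rfl fun i _ => ?_
  rw [Finsupp.sub_apply, Finsupp.single_apply, Finsupp.single_apply]

theorem div_apply_disc [DecidableEq (Place K F)] (hC : C.IsChart) (P : Fin g → Place K F)
    (hP : ∀ i, R.r (P i) = R.r (C.Q i)) (i : Fin g) (P₀ : Place K F)
    (h₀ : R.r P₀ = R.r (C.Q i)) :
    C.div P P₀ = (if P i = P₀ then 1 else 0) - (if C.Q i = P₀ then 1 else 0) := by
  rw [div_apply]
  rw [Finset.sum_eq_single i]
  · intro i' _ hne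
    have h1 : P i' ≠ P₀ := by
      intro h
      apply hne
      apply hC.inj
      show R.r (C.Q i') = R.r (C.Q i)
      rw [← hP i', h, h₀]
    have h2 : C.Q i' ≠ P₀ := by
      intro h
      apply hne
      apply hC.inj
      show R.r (C.Q i') = R.r (C.Q i)
      rw [h, h₀]
    rw [if_neg h1, if_neg h2, sub_zero]
  · intro h; exact absurd (Finset.mem_univ i) h

/-! ### the function `ψ` of an addition -/

section psi

variable (hR : R.IsPR) (hpd : HasPrincipalDivisors K F) (hC : C.IsChart)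
  (P P' P'' : Fin g → Place K F) (z z' ζ : Fin g → K)
  (hP : ∀ i, C.InDisc i (P i) (z i)) (hP' : ∀ i, C.InDisc i (P' i) (z' i))
  (hP'' : ∀ i, C.InDisc i (P'' i) (ζ i))
  (ψ : F) (hψ0 : ψ ≠ 0) (hψ : ∀ v : Place K F, v.ord ψ = C.div P'' v - C.div P v - C.div P' v)

/-- the function `h_i = ψ (τ_i - z_i)(τ_i - z'_i) / τ_i` -/
noncomputable def hfun (z z' : Fin g → K) (ψ : F) (i : Fin g) : F :=
  ψ * (C.tau i - algebraMap K F (z i)) * (C.tau i - algebraMap K F (z' i)) * (C.tau i)⁻¹

include hR hpd hC hP hP' hP'' hψ0 hψ in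
/-- in the `i`-th disc `h_i` has a simple zero at `P''_i` and no other zero or pole -/
theorem ord_hfun [DecidableEq (Place K F)] (i : Fin g) (P₀ : Place K F)
    (h₀ : R.r P₀ = R.r (C.Q i)) :
    P₀.ord (hfun C z z' ψ i) = if P'' i = P₀ then 1 else 0 := by
  have h1 := tau_sub_ne_zero C hR hpd hC i (z i) (P i) (hP i)
  have h2 := tau_sub_ne_zero C hR hpd hC i (z' i) (P' i) (hP' i)
  have h3 := tau_ne_zero C hR hpd hC i
  unfold hfun
  rw [Place.ord_mul _ (mul_ne_zero (mul_ne_zero hψ0 h1) h2) (inv_ne_zero h3),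
    Place.ord_mul _ (mul_ne_zero hψ0 h1) h2, Place.ord_mul _ hψ0 h1, Place.ord_inv,
    disc_ord_eq C hR hpd hC i (z i) (P i) (hP i) P₀ h₀,
    disc_ord_eq C hR hpd hC i (z' i) (P' i) (hP' i) P₀ h₀, hψ P₀,
    div_apply_disc C hC P (fun i => (hP i).1) i P₀ h₀,
    div_apply_disc C hC P' (fun i => (hP' i).1) i P₀ h₀,
    div_apply_disc C hC P'' (fun i => (hP'' i).1) i P₀ h₀]
  have h4 := disc_ord_eq C hR hpd hC i 0 (C.Q i) (inDisc_centre C hC i) P₀ h₀
  rw [map_zero, sub_zero] at h4
  rw [h4]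
  ring

include hR hpd hC hP hP' hP'' hψ0 hψ in
theorem hfun_mem_discRing (i : Fin g) : hfun C z z' ψ i ∈ discRing R (R.r (C.Q i)) := by
  classical
  apply mem_discRing_of_ord
  intro P₀ h₀
  rw [ord_hfun C hR hpd hC P P' P'' z z' ζ hP hP' hP'' ψ hψ0 hψ i P₀ h₀]
  split_ifs <;> norm_num

include hR hpd hC hP hP' hP'' hψ0 hψ in
theorem hfun_hasValueAt_zero (i : Fin g) : HasValueAt (P'' i) (hfun C z z' ψ i) 0 := by
  classical
  have h := ord_hfun C hR hpd hC P P' P'' z z' ζ hP hP' hP'' ψ hψ0 hψ i (P'' i) (hP'' i).1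
  rw [if_pos rfl] at h
  have h0 : hfun C z z' ψ i ≠ 0 := by
    intro h'
    rw [h', Place.ord_zero] at h
    exact zero_ne_one h
  rw [HasValueAt, map_zero, sub_zero]
  exact (PlaceAux.ord_pos_iff_mem_nonunits _ h0).1 (by rw [h]; exact one_pos)

include hR hpd hC in
theorem hfun_mul_tau (i : Fin g) :
    hfun C z z' ψ i * C.tau i
      = ψ * (C.tau i - algebraMap K F (z i)) * (C.tau i - algebraMap K F (z' i)) := by
  unfold hfun
  rw [mul_assoc, inv_mul_cancel₀ (tau_ne_zero C hR hpd hC i), mul_one]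

include hψ in
/-- the poles of `ψ` are among the `P i`, `P' i` -/
theorem psi_poles (v : Place K F) (hv : v.ord ψ < 0) : ∃ i, P i = v ∨ P' i = v := by
  classical
  by_contra hcon
  rw [not_exists] at hcon
  have hcon : ∀ i, P i ≠ v ∧ P' i ≠ v := fun i => not_or.1 (hcon i)
  rw [hψ v, div_apply, div_apply, div_apply] at hv
  have e1 : ∀ i : Fin g, ((if P i = v then (1 : ℤ) else 0) - (if C.Q i = v then 1 else 0))
      = - (if C.Q i = v then 1 else 0) := fun i => by rw [if_neg (hcon i).1, zero_sub]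
  have e2 : ∀ i : Fin g, ((if P' i = v then (1 : ℤ) else 0) - (if C.Q i = v then 1 else 0))
      = - (if C.Q i = v then 1 else 0) := fun i => by rw [if_neg (hcon i).2, zero_sub]
  rw [Finset.sum_congr rfl fun i _ => e1 i, Finset.sum_congr rfl fun i _ => e2 i,
    ← Finset.sum_sub_distrib, ← Finset.sum_sub_distrib] at hv
  have : (0 : ℤ) ≤ ∑ i : Fin g, ((if P'' i = v then (1 : ℤ) else 0) - (if C.Q i = v then 1 else 0)
      - -(if C.Q i = v then 1 else 0) - -(if C.Q i = v then 1 else 0)) := by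
    apply Finset.sum_nonneg
    intro i _
    split_ifs <;> norm_num
  omega

include hP hP' hψ in
theorem psi_polesInDiscs (ϖ : K) (hz : ∀ i, ∃ a ∈ A, z i = ϖ * a)
    (hz' : ∀ i, ∃ a ∈ A, z' i = ϖ * a) : C.PolesInDiscs ϖ ψ := by
  intro v hv
  obtain ⟨i, h | h⟩ := psi_poles C P P' P'' ψ hψ v hv
  · exact ⟨i, z i, h ▸ hP i, hz i⟩
  · exact ⟨i, z' i, h ▸ hP' i, hz' i⟩

end psi

/-! ### `L(Σ Q_i) = K` -/

/-- the divisor `Σ Q_i` -/
noncomputable def chartDiv : Divisor K F := ∑ i : Fin g, Finsupp.single (C.Q i) (1 : ℤ)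

theorem chartDiv_nonneg (v : Place K F) : 0 ≤ chartDiv C v := by
  classical
  unfold chartDiv
  rw [Finsupp.finsetSum_apply]
  apply Finset.sum_nonneg
  intro i _
  rw [Finsupp.single_apply]
  split_ifs <;> norm_num

theorem one_le_chartDiv (i : Fin g) : 1 ≤ chartDiv C (C.Q i) := by
  classical
  unfold chartDiv
  rw [Finsupp.finsetSum_apply]
  have h1 : (Finsupp.single (C.Q i) (1 : ℤ)) (C.Q i) ≤
      ∑ i' : Fin g, (Finsupp.single (C.Q i') (1 : ℤ)) (C.Q i) := by
    apply Finset.single_le_sum (f := fun i' => (Finsupp.single (C.Q i') (1 : ℤ)) (C.Q i))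
    · intro i' _
      rw [Finsupp.single_apply]
      split_ifs <;> norm_num
    · exact Finset.mem_univ i
  simpa using h1

/-- a function with at most simple poles at the centres and no other poles lies in `L(ΣQ_i)` -/
theorem mem_rr_chartDiv {f : F} (hf : C.PolesAtCentres f) (hord : ∀ i, -1 ≤ (C.Q i).ord f) :
    f ∈ riemannRochSpace (chartDiv C) := by
  rw [mem_riemannRochSpace_iff]
  intro v
  right
  by_cases hv : v.ord f < 0
  · obtain ⟨i, rfl⟩ := hf v hv
    have := one_le_chartDiv C i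
    have := hord i
    omega
  · have := chartDiv_nonneg C v
    omega

theorem mapDomain_chartDiv :
    Finsupp.mapDomain R.r (chartDiv C)
      = (∑ i : Fin g, Finsupp.single (R.r (C.Q i)) (1 : ℤ) : Divisor k Fk) := by
  unfold chartDiv
  rw [Finsupp.mapDomain_finsetSum]
  refine Finset.sum_congr rfl fun i _ => ?_
  rw [Finsupp.mapDomain_single]

/-- `L(Σ Q_i) = K` (semicontinuity from `Orth` and non-speciality of the reduction) -/
theorem rr_chart_eq_const (hOrth : R.Orth) (hC : C.IsChart) {f : F}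
    (hf : f ∈ riemannRochSpace (chartDiv C)) : ∃ a : K, f = algebraMap K F a := by
  classical
  obtain ⟨n, e, he, hspan, hli, hmem⟩ := hOrth (chartDiv C)
  rw [mapDomain_chartDiv] at hmem
  set Lb := riemannRochSpace
    (∑ i : Fin g, Finsupp.single (R.r (C.Q i)) (1 : ℤ) : Divisor k Fk) with hLb
  have hfin : finrank k ↥Lb = 1 := hC.nonspecial
  have : Module.Finite k ↥Lb := Module.finite_of_finrank_pos (by rw [hfin]; exact one_pos)
  -- the reductions, as a family in `Lb`
  let eb : Fin n → ↥Lb := fun i => ⟨R.red ⟨e i, he i⟩, hmem i⟩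
  have hli' : LinearIndependent k eb := by
    apply LinearIndependent.of_comp Lb.subtype
    exact hli
  have hn : n ≤ 1 := by
    have := hli'.fintype_card_le_finrank
    rw [hfin, Fintype.card_fin] at this
    exact this
  have h1 : (1 : F) ∈ riemannRochSpace (chartDiv C) := by
    rw [mem_riemannRochSpace_iff]
    intro v
    right
    rw [Place.ord_one]
    have := chartDiv_nonneg C v
    omega
  rw [← hspan] at h1 hf
  rw [Submodule.mem_span_range_iff_exists_fun] at h1 hf
  obtain ⟨c1, hc1⟩ := h1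
  obtain ⟨cf, hcf⟩ := hf
  rcases Nat.lt_or_ge n 1 with hn0 | hn1
  · -- n = 0 is impossible
    have : n = 0 := by omega
    subst this
    simp at hc1
  · have hn' : n = 1 := le_antisymm hn hn1
    subst hn'
    simp only [Fin.sum_univ_one] at hc1 hcf
    have hc10 : c1 0 ≠ 0 := by
      intro h0
      rw [h0, zero_smul] at hc1
      exact zero_ne_one hc1
    refine ⟨cf 0 * (c1 0)⁻¹, ?_⟩
    have he0 : e 0 = (c1 0)⁻¹ • (1 : F) := by
      rw [← hc1, smul_smul, inv_mul_cancel₀ hc10, one_smul]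
    rw [← hcf, he0, smul_smul, Algebra.algebraMap_eq_smul_one]

end Fermat.Agent.W1.Cmp


end ZBW1_008_0
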