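/- GENERATED FILE (helper35, build-time optimisation, NOTES/ZB.md): verbatim concatenation of the modules
   Fermat.Agent.S14.ValRep
   Fermat.Agent.S14.InertiaVal
   Do not edit; do not import together with these modules. -/
import Mathlib
import Fermat.Agent.ZB.S14_001
import Fermat.Agent.ZB.Z2S14_008
import Fermat.Agent.ZB.S05_001

/-! ### bundled: `Fermat.Agent.S14.ValRep` -/
section ZBZ2S14_009_0

/-!
# S14, lemma U, representation part (pure field theory)

Every element of `K⟮a⟯`, where `a ^ p = α ∈ K`, is of the form `∑_{i<p} c_i a^i` with `c_i ∈ K`.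
-/

set_option autoImplicit false

open Polynomial

namespace Fermat.Agent.S14.ValRep

theorem exists_sum_eq_of_mem_adjoin (K : IntermediateField ℚ (AlgebraicClosure ℚ)) {p : ℕ}
    (hp : 0 < p) {a : AlgebraicClosure ℚ} (α : K) (ha : a ^ p = (α : AlgebraicClosure ℚ))
    {x : AlgebraicClosure ℚ} (hx : x ∈ IntermediateField.adjoin K {a}) :
    ∃ c : ℕ → K, x = ∑ i ∈ Finset.range p, (c i : AlgebraicClosure ℚ) * a ^ i := by
  -- the monic polynomial `X ^ p - C α`
  set f : (K)[X] := X ^ p - C α with hf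
  have hmonic : f.Monic := monic_X_pow_sub_C α hp.ne'
  have hfa : aeval a f = 0 := by
    simp only [hf, map_sub, map_pow, aeval_X, aeval_C]
    rw [ha, sub_eq_zero]
    rfl
  have hint : IsIntegral K a := ⟨f, hmonic, hfa⟩
  have hx' : x ∈ Algebra.adjoin K {a} := by
    rw [← IntermediateField.adjoin_simple_toSubalgebra_of_isAlgebraic hint.isAlgebraic]
    exact hx
  rw [Algebra.adjoin_singleton_eq_range_aeval] at hx'
  obtain ⟨q, rfl⟩ := hx'
  have hdeg : (q %ₘ f).natDegree < p := by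
    have h1 : f.natDegree = p := natDegree_X_pow_sub_C
    have h2 := natDegree_modByMonic_lt q hmonic (by
      intro h
      rw [h] at h1
      simp at h1
      exact hp.ne' h1.symm)
    rwa [h1] at h2
  have hq : aeval a q = aeval a (q %ₘ f) := by
    conv_lhs => rw [← modByMonic_add_div q f]
    rw [map_add, map_mul, hfa, zero_mul, add_zero]
  refine ⟨fun i => (q %ₘ f).coeff i, ?_⟩
  change (aeval a) q = _
  rw [hq, aeval_eq_sum_range' hdeg]
  refine Finset.sum_congr rfl fun i _ => ?_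
  rw [Algebra.smul_def]
  rfl

theorem sum_mem_adjoin (K : IntermediateField ℚ (AlgebraicClosure ℚ)) (p : ℕ)
    (a : AlgebraicClosure ℚ) (c : ℕ → K) :
    (∑ i ∈ Finset.range p, (c i : AlgebraicClosure ℚ) * a ^ i) ∈
      IntermediateField.adjoin K {a} := by
  refine sum_mem fun i _ => mul_mem ?_ (pow_mem (IntermediateField.mem_adjoin_simple_self K a) i)
  exact (IntermediateField.adjoin K {a}).algebraMap_mem (c i)

end Fermat.Agent.S14.ValRep


end ZBZ2S14_009_0

/-! ### bundled: `Fermat.Agent.S14.InertiaVal` -/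
section ZBZ2S14_009_1

/-!
# S14, piece G3: `InertiaStatement p`

If the inertia groups above `ℓ ≠ p` fix a `p`-th root `a` of `α ∈ K = ℚ(ζ_p)`, then `p ∣ ord_v α`
for every prime `v ∣ ℓ` of `K`.

Proof (by contradiction, `p ∤ ord_v α`): take a valuation subring `A` of `ℚ̄` over `v`
(`ValTools.exists_liesOverV`); `a ∉ K`, so some `τ₀ ∈ Gal(ℚ̄/K)` moves `a`; by lemma (U)
(`ValTools.sum_mem_iff`) `A` and `τ₀ • A` have the same trace on `F = K(a)`, so (T1) gives `ρ`
fixing `F` with `ρ τ₀ A = A`; `σ = ρ τ₀ ∈ D_A` acts trivially on the residue field of `A ∩ F`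
(lemma (U) again), so (T2) gives an inertia element agreeing with `σ` on `F`; it moves `a`.
-/

set_option autoImplicit false
set_option linter.style.haveILetI false

open scoped Pointwise
open NumberField IsDedekindDomain

namespace Fermat.Agent.S14

open ValTools

theorem inertiaStatement {p : ℕ} [Fact p.Prime] : InertiaStatement p := by
  intro ζ hζ _ α a ha0 ha ℓ _hℓ _hℓp hI v hv
  have hp : p.Prime := Fact.out
  by_contra hnd
  have hα : α ≠ 0 := by
    rintro rfl
    rw [ZeroMemClass.coe_zero] at ha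
    exact ha0 (pow_eq_zero_iff hp.ne_zero |>.1 ha)
  -- a valuation subring over `v`
  obtain ⟨A, hA⟩ := exists_liesOverV (IntermediateField.adjoin ℚ {ζ}) v
  have hAℓ : A.LiesOverPrime ℓ := hA.liesOverPrime hv
  -- `a ∉ K`
  have haK : a ∉ IntermediateField.adjoin ℚ {ζ} := by
    intro h
    apply hnd
    have h0 : (⟨a, h⟩ : IntermediateField.adjoin ℚ {ζ}) ≠ 0 := by
      intro h'
      exact ha0 (congrArg Subtype.val h')
    obtain ⟨n, hn⟩ := exists_valuation_eq_exp (v := v) h0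
    refine ⟨n, ?_⟩
    have e : α = (⟨a, h⟩ : IntermediateField.adjoin ℚ {ζ}) ^ p := Subtype.ext (by simpa using ha.symm)
    rw [e, map_pow, hn, ← WithZero.exp_nsmul]
    simp
  -- an automorphism over `K` moving `a`
  obtain ⟨τ₀, hτ₀K, hτ₀a⟩ : ∃ τ₀ : AlgebraicClosure ℚ ≃ₐ[ℚ] AlgebraicClosure ℚ,
      (∀ x : IntermediateField.adjoin ℚ {ζ}, τ₀ (x : AlgebraicClosure ℚ) = x) ∧ τ₀ a ≠ a := by
    haveI := Fermat.Agent.Common.isAlgClosure_rat_qbar
    by_contra hcon
    push Not at hcon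
    apply haK
    have hmem : a ∈ IntermediateField.fixedField
        (IntermediateField.adjoin ℚ {ζ}).fixingSubgroup := by
      rw [IntermediateField.mem_fixedField_iff]
      intro g hg
      exact hcon g (fun x => hg x)
    rwa [InfiniteGalois.fixedField_fixingSubgroup] at hmem
  -- `τ₀ a = ζ ^ k * a`
  have hroot : (τ₀ a / a) ^ p = 1 := by
    rw [div_pow, ← map_pow, ha, hτ₀K α, ← ha]
    exact div_self (pow_ne_zero _ ha0)
  haveI : NeZero p := ⟨hp.ne_zero⟩
  obtain ⟨k, -, hkζ⟩ := hζ.eq_pow_of_pow_eq_one hroot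
  have hτ₀a' : τ₀ a = ζ ^ k * a := by
    rw [hkζ]
    field_simp
  -- the field `F = K(a)`
  let F : IntermediateField ℚ (AlgebraicClosure ℚ) :=
    (IntermediateField.adjoin (IntermediateField.adjoin ℚ {ζ}) {a}).restrictScalars ℚ
  have hF : ∀ x, x ∈ F ↔ x ∈ IntermediateField.adjoin (IntermediateField.adjoin ℚ {ζ}) {a} :=
    fun x => Iff.rfl
  have haF : a ∈ F := (hF a).2 (IntermediateField.mem_adjoin_simple_self _ a)
  have hKF : ∀ x : IntermediateField.adjoin ℚ {ζ}, (x : AlgebraicClosure ℚ) ∈ F := fun x =>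
    (hF _).2 ((IntermediateField.adjoin (IntermediateField.adjoin ℚ {ζ}) {a}).algebraMap_mem x)
  have hζF : ζ ∈ F :=
    hKF ⟨ζ, IntermediateField.mem_adjoin_simple_self ℚ ζ⟩
  -- lemma (U), first part: same trace on `F`
  have hA' : LiesOverV (IntermediateField.adjoin ℚ {ζ}) v (τ₀ • A) := hA.smul τ₀ hτ₀K
  have hU1 : ∀ x ∈ F, x ∈ τ₀ • A ↔ x ∈ A := by
    intro x hx
    obtain ⟨c, rfl⟩ := ValRep.exists_sum_eq_of_mem_adjoin _ hp.pos α ha ((hF x).1 hx)
    rw [sum_mem_iff hA hp ha hα hnd, sum_mem_iff hA' hp ha hα hnd]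
  obtain ⟨ρ, hρF, hρA⟩ := exists_fixing_smul_eq F (τ₀ • A) A hU1
  have hσA : ρ * τ₀ ∈ A.decompositionSubgroup ℚ := by
    rw [MulAction.mem_stabilizer_iff, mul_smul]
    exact hρA
  have hτ₀F : ∀ x ∈ F, τ₀ x ∈ F := by
    intro x hx
    obtain ⟨c, rfl⟩ := ValRep.exists_sum_eq_of_mem_adjoin _ hp.pos α ha ((hF x).1 hx)
    rw [map_sum]
    refine sum_mem fun i _ => ?_
    rw [map_mul, map_pow, hτ₀K, hτ₀a']
    exact mul_mem (hKF _) (pow_mem (mul_mem (pow_mem hζF k) haF) i)
  have hσx : ∀ x ∈ F, (ρ * τ₀) x = τ₀ x := fun x hx => by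
    rw [AlgEquiv.mul_apply]
    exact hρF _ (hτ₀F x hx)
  have hσF : ∀ x ∈ F, (ρ * τ₀) x ∈ F := fun x hx => by
    rw [hσx x hx]
    exact hτ₀F x hx
  have hσK : ∀ x : IntermediateField.adjoin ℚ {ζ}, (ρ * τ₀) (x : AlgebraicClosure ℚ) = x :=
    fun x => by rw [hσx _ (hKF x), hτ₀K]
  -- `σ` preserves the maximal ideal
  have hσm : ∀ x, x ∈ A.nonunits → (ρ * τ₀) x ∈ A.nonunits := by
    intro x hx
    have h1 : (ρ * τ₀) • A = A := hσA
    have h2 : (ρ * τ₀) x ∈ ((ρ * τ₀) • A).nonunits := by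
      rw [mem_nonunits_smul_iff, ← AlgEquiv.mul_apply, inv_mul_cancel, AlgEquiv.one_apply]
      exact hx
    rwa [h1] at h2
  -- lemma (U), second part: trivial action on the residue field of `A ∩ F`
  have hres : ∀ x ∈ F, x ∈ A → (ρ * τ₀) x - x ∈ A.nonunits := by
    intro x hx hxA
    obtain ⟨c, rfl⟩ := ValRep.exists_sum_eq_of_mem_adjoin _ hp.pos α ha ((hF x).1 hx)
    have hterms := (sum_mem_iff hA hp ha hα hnd c).1 hxA
    rw [map_sum, ← Finset.sum_sub_distrib]
    refine sum_mem fun i hi => ?_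
    have hi' : i < p := Finset.mem_range.1 hi
    rcases Nat.eq_zero_or_pos i with rfl | hi0
    · rw [pow_zero, mul_one, hσK, sub_self]
      rw [ValuationSubring.mem_nonunits_iff, map_zero]
      exact zero_lt_one
    · have hmem : (c i : AlgebraicClosure ℚ) * a ^ i ∈ A :=
        (valuation_term_le_one_iff hA hp ha (c i) i).2 (hterms i hi')
      have hm := term_mem_nonunits hA hp ha hα hnd (c i) hi0 hi' hmem
      exact A.nonunits.sub_mem (hσm _ hm) hm
  obtain ⟨τ, hτI, hτF⟩ := exists_inertia_agree F A (ρ * τ₀) hσA hσF hres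
  have h1 : τ a = a := hI A hAℓ τ hτI
  have h2 : τ a = (ρ * τ₀) a := hτF a haF
  have h3 : (ρ * τ₀) a = τ₀ a := hσx a haF
  exact hτ₀a (by rw [← h3, ← h2, h1])

end Fermat.Agent.S14


end ZBZ2S14_009_1
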