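/- GENERATED FILE (helper35, build-time optimisation, NOTES/ZB.md): verbatim concatenation of the modules
   Fermat.Agent.S15.PkgMinHAlg
   Fermat.Agent.S15.PkgMinHConj
   Do not edit; do not import together with these modules. -/
import Mathlib
import Fermat.Agent.ZB.Z2S15_028
import Fermat.Agent.ZB.Z2S15_030

/-! ### bundled: `Fermat.Agent.S15.PkgMinHAlg` -/
section ZBZ2S15_031_0

/-!
# S15 / LN-PKG, piece PKG-minh, generic algebra (helper52)

* `pkgmh_prod_small` : if all the `r i` lie in `c · S` (`S` a subring, `c ∈ S`), then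
  `∏ i ∈ s, (X - C (r i)) = X ^ #s + C c * G` with `G ∈ S[X]`;
* `pkgmh_prod_option` : for a family indexed by `Option κ` whose members `r (some b)` lie in
  `c · S` and `r none ∈ S`:
  `∏ i, (X - C (r i)) = X ^ (#κ + 1) - C (r none) * X ^ #κ + C c * G`, `G ∈ S[X]`;
* `pkgmh_coeff_lt`, `pkgmh_coeff_eq` : the coefficients of such a product;
* `pkgmh_adjoin_pair_eq_top` : `F⟮t⟯⟮u⟯ = ⊤` gives `F⟮t, u⟯ = ⊤`.
-/

set_option autoImplicit false
set_option linter.unusedSectionVars false
set_option linter.unusedVariables false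

noncomputable section

namespace Fermat.Agent.S15.LN

open Polynomial

section Prod

variable {E : Type*} [CommRing E] (S : Subring E)

theorem pkgmh_prod_small {c : E} (hc : c ∈ S) {κ : Type*} (s : Finset κ) (r : κ → E)
    (hr : ∀ i ∈ s, ∃ a ∈ S, r i = c * a) :
    ∃ G : (↥S)[X], ∏ i ∈ s, (X - C (r i)) = X ^ s.card + C c * G.map S.subtype := by
  classical
  induction s using Finset.induction_on with
  | empty => exact ⟨0, by simp⟩
  | insert a s ha ih =>
    obtain ⟨G, hG⟩ := ih fun i hi => hr i (Finset.mem_insert_of_mem hi)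
    obtain ⟨a', ha', hra⟩ := hr a (Finset.mem_insert_self a s)
    refine ⟨X * G - C ⟨a', ha'⟩ * X ^ s.card - C (⟨c, hc⟩ * ⟨a', ha'⟩) * G, ?_⟩
    rw [Finset.prod_insert ha, hG, Finset.card_insert_of_notMem ha, hra]
    simp only [Polynomial.map_sub, Polynomial.map_mul, Polynomial.map_X, Polynomial.map_C,
      Polynomial.map_pow, map_mul, Subring.coe_subtype]
    ring

theorem pkgmh_prod_option {c : E} (hc : c ∈ S) {κ : Type*} [Fintype κ] (r : Option κ → E)
    (h0 : r none ∈ S) (hr : ∀ b, ∃ a ∈ S, r (some b) = c * a) :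
    ∃ G : (↥S)[X], ∏ i, (X - C (r i)) =
      X ^ (Fintype.card κ + 1) - C (r none) * X ^ Fintype.card κ + C c * G.map S.subtype := by
  classical
  obtain ⟨G, hG⟩ := pkgmh_prod_small S hc (Finset.univ : Finset κ) (fun b => r (some b))
    fun b _ => hr b
  refine ⟨(X - C ⟨r none, h0⟩) * G, ?_⟩
  rw [Fintype.prod_option, hG, Finset.card_univ]
  simp only [Polynomial.map_sub, Polynomial.map_mul, Polynomial.map_X, Polynomial.map_C,
    Subring.coe_subtype]
  ring

/-- the low coefficients of the product lie in `c · S` -/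
theorem pkgmh_coeff_lt {c : E} (hc : c ∈ S) {κ : Type*} [Fintype κ] (r : Option κ → E)
    (h0 : r none ∈ S) (hr : ∀ b, ∃ a ∈ S, r (some b) = c * a) (n : ℕ)
    (hn : n < Fintype.card κ) :
    ∃ a ∈ S, (∏ i, (X - C (r i))).coeff n = c * a := by
  obtain ⟨G, hG⟩ := pkgmh_prod_option S hc r h0 hr
  refine ⟨(G.coeff n : E), (G.coeff n).2, ?_⟩
  rw [hG, Polynomial.coeff_add, Polynomial.coeff_sub, Polynomial.coeff_X_pow,
    Polynomial.coeff_C_mul, Polynomial.coeff_X_pow, Polynomial.coeff_C_mul,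
    Polynomial.coeff_map, if_neg (by omega), if_neg (by omega)]
  simp

/-- the coefficient of index `#κ` is `- r none` modulo `c · S` -/
theorem pkgmh_coeff_eq {c : E} (hc : c ∈ S) {κ : Type*} [Fintype κ] (r : Option κ → E)
    (h0 : r none ∈ S) (hr : ∀ b, ∃ a ∈ S, r (some b) = c * a) :
    ∃ a ∈ S, (∏ i, (X - C (r i))).coeff (Fintype.card κ) + r none = c * a := by
  obtain ⟨G, hG⟩ := pkgmh_prod_option S hc r h0 hr
  refine ⟨(G.coeff (Fintype.card κ) : E), (G.coeff _).2, ?_⟩
  rw [hG, Polynomial.coeff_add, Polynomial.coeff_sub, Polynomial.coeff_X_pow,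
    Polynomial.coeff_C_mul, Polynomial.coeff_X_pow, Polynomial.coeff_C_mul,
    Polynomial.coeff_map, if_neg (by omega), if_pos rfl]
  simp

theorem pkgmh_natDegree_prod [Nontrivial E] {ι : Type*} [Fintype ι] (r : ι → E) :
    (∏ i, (X - C (r i))).natDegree = Fintype.card ι := by
  rw [Polynomial.natDegree_prod_of_monic _ _ fun i _ => Polynomial.monic_X_sub_C (r i)]
  simp

end Prod

section Adjoin

variable {F L : Type*} [Field F] [Field L] [Algebra F L]

open IntermediateField

/-- `F⟮t⟯⟮u⟯ = ⊤` gives `F⟮t, u⟯ = ⊤` -/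
theorem pkgmh_adjoin_pair_eq_top (t u : L) (h : (F⟮t⟯)⟮u⟯ = ⊤) :
    IntermediateField.adjoin F {t, u} = ⊤ := by
  have h1 := IntermediateField.adjoin_adjoin_left F ({t} : Set L) ({u} : Set L)
  rw [h, IntermediateField.restrictScalars_top] at h1
  rw [h1]
  congr 1

/-- a generator: the degree of the minimal polynomial is the degree of the extension -/
theorem pkgmh_adjoin_eq_top_of_natDegree [FiniteDimensional F L] (u : L)
    (h : (minpoly F u).natDegree = Module.finrank F L) : F⟮u⟯ = ⊤ :=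
  (Field.primitive_element_iff_minpoly_natDegree_eq F u).2 h

end Adjoin

end Fermat.Agent.S15.LN

end
end ZBZ2S15_031_0

/-! ### bundled: `Fermat.Agent.S15.PkgMinHConj` -/
section ZBZ2S15_031_1

/-!
# S15 / LN-PKG, piece PKG-minh, part 1: the conjugates of a separating function (helper52)

`N` a prime, `t` a coordinate (`PkgtvCoord`), `u ∈ F_N`.

* `pkgmh_fam_injective` : if the order of the `q`-expansion of `w_N u` is prime to `N`, the
  `N + 1` conjugates `σ_i u` are pairwise distinct;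
* `pkgmh_minpoly_prod` : then the minimal polynomial of `u` over `ℚ̄(t)` is `∏ (X - σ_i u)`;
* `pkgmh_natDegree`, `pkgmh_gen` : it has degree `N + 1`, and `ℚ̄(t, u) = F_N`;
* `pkgmh_coeff_lt`', `pkgmh_coeff_top` : if moreover `w_N u = c₀ · v` with `v` integral, then the
  coefficients of index `< N` of the minimal polynomial over `ℚ̄[t]` lie in `c₀ · A[t]`, and
  `(coefficient of index N) + u` is `c₀ ·` (an integral element).
-/

set_option autoImplicit false
set_option linter.unusedSectionVars false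
set_option linter.unusedVariables false
set_option linter.style.haveILetI false

noncomputable section

namespace Fermat.Agent.S15.LN

open ModularCurve AlgebraicCurve Polynomial IntermediateField
open Fermat.Agent.ES Fermat.Agent.ES.M Fermat.Agent.ES.G2 Fermat.Agent.S24 Fermat.Agent.ES.LR
  Fermat.Agent.DEU

variable (N : ℕ) [NeZero N]

/-! ### The conjugates are distinct -/

theorem pkgmh_fam_none (ζ : Kbˣ) (u : FF N) :
    pkgtvFam N ζ none u =
      algebraMap HnOmega HnOmegaBar (qExpand Kb N (u : LaurentSeries Kb)) := rfl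

theorem pkgmh_fam_some (ζ : Kbˣ) (b : Fin N) (u : FF N) :
    pkgtvFam N ζ (some b) u = algebraMap HnOmega HnOmegaBar
      (kronRot (ζ ^ (b : ℕ)) ((frickeAut N u : FF N) : LaurentSeries Kb)) := rfl

/-- **the conjugates are pairwise distinct** if the `q`-order of `w_N u` is prime to `N` -/
theorem pkgmh_fam_injective (hN : N.Prime) (ζ : Kbˣ) (hζ : IsPrimitiveRoot ζ N) (u : FF N)
    (hu : ((frickeAut N u : FF N) : LaurentSeries Kb) ≠ 0)
    (hord : ¬ (N : ℤ) ∣ ((frickeAut N u : FF N) : LaurentSeries Kb).order) :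
    Function.Injective fun i => pkgtvFam N ζ i u := by
  set W : LaurentSeries Kb := ((frickeAut N u : FF N) : LaurentSeries Kb) with hW
  set n₀ : ℤ := W.order with hn₀
  have hc : W.coeff n₀ ≠ 0 := HahnSeries.coeff_order_eq_zero.not.mpr hu
  have hinf : (qExpand Kb N (u : LaurentSeries Kb)).coeff n₀ = 0 :=
    qExpand_coeff_of_not_dvd N _ hord
  have hrot : ∀ b : Fin N, (kronRot (ζ ^ (b : ℕ)) W).coeff n₀ =
      (((ζ ^ (b : ℕ)) ^ n₀ : Kbˣ) : Kb) * W.coeff n₀ := fun b => kronRot_coeff _ _ _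
  have hrot0 : ∀ b : Fin N, (kronRot (ζ ^ (b : ℕ)) W).coeff n₀ ≠ 0 := by
    intro b
    rw [hrot]
    exact mul_ne_zero (Units.ne_zero _) hc
  intro i i' h
  simp only at h
  cases i with
  | none =>
      cases i' with
      | none => rfl
      | some b' =>
          exfalso
          rw [pkgmh_fam_none, pkgmh_fam_some] at h
          have h2 := congrArg (fun g : LaurentSeries Kb => g.coeff n₀)
            (hn_algebraMap_injective h)
          rw [hinf] at h2
          exact hrot0 b' h2.symm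
  | some b =>
      cases i' with
      | none =>
          exfalso
          rw [pkgmh_fam_none, pkgmh_fam_some] at h
          have h2 := congrArg (fun g : LaurentSeries Kb => g.coeff n₀)
            (hn_algebraMap_injective h)
          rw [hinf] at h2
          exact hrot0 b h2
      | some b' =>
          rw [pkgmh_fam_some, pkgmh_fam_some] at h
          have h2 := congrArg (fun g : LaurentSeries Kb => g.coeff n₀)
            (hn_algebraMap_injective h)
          rw [hrot, hrot] at h2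
          have h3 : (ζ ^ (b : ℕ)) ^ n₀ = (ζ ^ (b' : ℕ)) ^ n₀ :=
            Units.ext (mul_right_cancel₀ hc h2)
          -- `ζ ^ ((b - b') n₀) = 1`
          have h4 : ζ ^ (((b : ℕ) : ℤ) * n₀ - ((b' : ℕ) : ℤ) * n₀) = 1 := by
            rw [zpow_sub, zpow_mul, zpow_mul, zpow_natCast, zpow_natCast, h3, mul_inv_cancel]
          have h5 : (N : ℤ) ∣ ((b : ℕ) : ℤ) * n₀ - ((b' : ℕ) : ℤ) * n₀ :=
            (hζ.zpow_eq_one_iff_dvd _).1 h4
          have h6 : (N : ℤ) ∣ (((b : ℕ) : ℤ) - ((b' : ℕ) : ℤ)) * n₀ := by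
            rwa [sub_mul]
          have hNp : Prime (N : ℤ) := Nat.prime_iff_prime_int.1 hN
          have h7 : (N : ℤ) ∣ ((b : ℕ) : ℤ) - ((b' : ℕ) : ℤ) :=
            (hNp.dvd_or_dvd h6).resolve_right hord
          have hb := b.2
          have hb' := b'.2
          have h8 : ((b : ℕ) : ℤ) - ((b' : ℕ) : ℤ) = 0 := by
            apply Int.eq_zero_of_abs_lt_dvd h7
            rw [abs_lt]
            constructor <;> omega
          have h9 : (b : ℕ) = (b' : ℕ) := by omega
          exact congrArg some (Fin.ext h9)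

/-! ### The minimal polynomial over `ℚ̄(t)` -/

/-- **the minimal polynomial over `ℚ̄(t)` is the product over the conjugates** -/
theorem pkgmh_minpoly_prod (hN : N.Prime) (ζ : Kbˣ) (hζ : IsPrimitiveRoot ζ N) (t₀ : FF N)
    (ht₀ : ∀ i, pkgtvFam N ζ i t₀ = pkgtvInf N t₀)
    (hdeg : Module.finrank Kb⟮t₀⟯ (FF N) = N + 1) (u : FF N)
    (hinj : Function.Injective fun i => pkgtvFam N ζ i u) :
    (minpoly Kb⟮t₀⟯ u).map ((pkgtvInf N).comp (algebraMap Kb⟮t₀⟯ (FF N))) =
      ∏ i, (X - C (pkgtvFam N ζ i u)) := by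
  classical
  let algE : Algebra Kb⟮t₀⟯ HnOmegaBar :=
    ((pkgtvInf N).comp (algebraMap Kb⟮t₀⟯ (FF N))).toAlgebra
  have hfin : FiniteDimensional Kb⟮t₀⟯ (FF N) :=
    FiniteDimensional.of_finrank_pos (by rw [hdeg]; omega)
  have hchar : CharZero Kb⟮t₀⟯ :=
    charZero_of_injective_algebraMap (algebraMap Kb Kb⟮t₀⟯).injective
  let e : Option (Fin N) → (FF N →ₐ[Kb⟮t₀⟯] HnOmegaBar) := fun i =>
    { pkgtvFam N ζ i with
      commutes' := fun x => pkgtvFam_eq_on N ζ t₀ ht₀ i (x : FF N) x.2 }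
  have he : Function.Injective e := by
    intro i i' h
    apply pkgtvFam_injective N hN ζ hζ
    have := congrArg (fun g : FF N →ₐ[Kb⟮t₀⟯] HnOmegaBar => (g : FF N →+* HnOmegaBar)) h
    exact this
  have hcard : Fintype.card (Option (Fin N)) = Module.finrank Kb⟮t₀⟯ (FF N) := by
    rw [hdeg, Fintype.card_option, Fintype.card_fin]
  exact pkgfib_minpoly_eq_prod e he hcard u hinj

theorem pkgmh_natDegree (hN : N.Prime) (ζ : Kbˣ) (hζ : IsPrimitiveRoot ζ N) (t₀ : FF N)
    (ht₀ : ∀ i, pkgtvFam N ζ i t₀ = pkgtvInf N t₀)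
    (hdeg : Module.finrank Kb⟮t₀⟯ (FF N) = N + 1) (u : FF N)
    (hinj : Function.Injective fun i => pkgtvFam N ζ i u) :
    (minpoly Kb⟮t₀⟯ u).natDegree = N + 1 := by
  have h := congrArg Polynomial.natDegree (pkgmh_minpoly_prod N hN ζ hζ t₀ ht₀ hdeg u hinj)
  rw [Polynomial.natDegree_map, pkgmh_natDegree_prod, Fintype.card_option, Fintype.card_fin] at h
  exact h

/-- **(gen)**: `ℚ̄(t, u) = F_N` -/
theorem pkgmh_gen (hN : N.Prime) (ζ : Kbˣ) (hζ : IsPrimitiveRoot ζ N) (t₀ : FF N)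
    (ht₀ : ∀ i, pkgtvFam N ζ i t₀ = pkgtvInf N t₀)
    (hdeg : Module.finrank Kb⟮t₀⟯ (FF N) = N + 1) (u : FF N)
    (hinj : Function.Injective fun i => pkgtvFam N ζ i u) :
    IntermediateField.adjoin Kb {t₀, u} = ⊤ := by
  have hfin : FiniteDimensional Kb⟮t₀⟯ (FF N) :=
    FiniteDimensional.of_finrank_pos (by rw [hdeg]; omega)
  apply pkgmh_adjoin_pair_eq_top
  apply pkgmh_adjoin_eq_top_of_natDegree
  rw [pkgmh_natDegree N hN ζ hζ t₀ ht₀ hdeg u hinj, hdeg]

/-! ### The coefficients of the minimal polynomial over `ℚ̄[t]` -/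

theorem pkgmh_kronRot_C (c : Kbˣ) (a : Kb) :
    kronRot c (HahnSeries.C a : LaurentSeries Kb) = HahnSeries.C a := by
  ext n
  rw [kronRot_coeff]
  by_cases hn : n = 0
  · subst hn
    simp
  · have h0 : (HahnSeries.C a : LaurentSeries Kb).coeff n = 0 :=
      HahnSeries.coeff_single_of_ne hn
    rw [h0, mul_zero]

theorem pkgmh_aeval_C_mul (T : LaurentSeries Kb) (a : Kb) (d : Kb[X]) :
    Polynomial.aeval T (Polynomial.C a * d) = HahnSeries.C a * Polynomial.aeval T d := by
  rw [map_mul, Polynomial.aeval_C, algebraMap_eq_hahnC]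

/-- the coefficients of the minimal polynomial over `ℚ̄[t]`, seen in `Ω̄` -/
theorem pkgmh_coeff_image (hN : N.Prime) (A : ValuationSubring Kb) (t : FF N)
    (ht : PkgtvCoord N A t) (ζ : Kbˣ) (hζ : IsPrimitiveRoot ζ N) (u : FF N)
    (hint : letI := polyAlgebra (K := Kb) t; IsIntegral Kb[X] u)
    (hinj : Function.Injective fun i => pkgtvFam N ζ i u) (n : ℕ) :
    letI := polyAlgebra (K := Kb) t
    algebraMap HnOmega HnOmegaBar (qExpand Kb N
        (Polynomial.aeval (t : LaurentSeries Kb) ((minpoly Kb[X] u).coeff n))) =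
      (∏ i, (X - C (pkgtvFam N ζ i u))).coeff n := by
  letI := polyAlgebra (K := Kb) t
  letI := polyAlgebraAdjoin (K := Kb) t
  haveI := polyAlgebraAdjoin_tower (K := Kb) t
  have key := pkgmh_minpoly_prod N hN ζ hζ t (ht.fam ζ hζ.pow_eq_one) ht.finrank u hinj
  rw [pkgtv_minpoly_eq N t ht.transc u hint] at key
  have key2 := congrArg (fun p : HnOmegaBar[X] => p.coeff n) key
  simp only [Polynomial.coeff_map] at key2
  set d : Kb[X] := (minpoly Kb[X] u).coeff n with hd
  have h1 : ((algebraMap Kb[X] Kb⟮t⟯ d : Kb⟮t⟯) : FF N) = Polynomial.aeval t d := by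
    have h := (IsScalarTower.algebraMap_apply Kb[X] Kb⟮t⟯ (FF N) d).symm
    exact h
  have h2 : ((Polynomial.aeval t d : FF N) : LaurentSeries Kb) =
      Polynomial.aeval (t : LaurentSeries Kb) d := by
    have h := Polynomial.aeval_algHom_apply (modularFunctionFieldBar N).val t d
    exact h.symm
  rw [← key2, ← h2, ← h1]
  rfl

section Small

variable (hN : N.Prime) (A : ValuationSubring Kb) (t : FF N) (ht : PkgtvCoord N A t)
  (u : FF N) (hint : letI := polyAlgebra (K := Kb) t; IsIntegral Kb[X] u)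
  (hu₁ : KronInt A (u : LaurentSeries Kb))
  {c₀ : Kb} (hc₀ : c₀ ∈ A) (hc₀' : c₀ ≠ 0) (v : LaurentSeries Kb) (hv : KronInt A v)
  (huv : ((frickeAut N u : FF N) : LaurentSeries Kb) = HahnSeries.C c₀ * v)
  (hord : ¬ (N : ℤ) ∣ ((frickeAut N u : FF N) : LaurentSeries Kb).order)

include hord in
theorem pkgmh_fricke_ne_zero : ((frickeAut N u : FF N) : LaurentSeries Kb) ≠ 0 := by
  intro h
  apply hord
  rw [h, HahnSeries.order_zero]
  exact dvd_zero _

include hu₁ hc₀ hv huv in
theorem pkgmh_fam_mem (ζ : Kbˣ) (hζ : ζ ^ N = 1) (i : Option (Fin N)) :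
    pkgtvFam N ζ i u ∈ pkgtvS A := by
  refine pkgtvFam_mem_S N A ζ hζ u hu₁ ?_ i
  rw [huv]
  exact (kronInt_C hc₀).mul hv

include hc₀ hv huv in
theorem pkgmh_fam_some_small (ζ : Kbˣ) (hζ : ζ ^ N = 1) (b : Fin N) :
    ∃ a ∈ pkgtvS A, pkgtvFam N ζ (some b) u =
      algebraMap HnOmega HnOmegaBar (HahnSeries.C c₀) * a := by
  refine ⟨algebraMap HnOmega HnOmegaBar (kronRot (ζ ^ (b : ℕ)) v), ?_, ?_⟩
  · rw [pkgtv_mem_S]
    refine pkgtv_kronInt_kronRot A _ N (NeZero.ne N) ?_ hv
    rw [← pow_mul, mul_comm, pow_mul, hζ, one_pow]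
  · rw [pkgmh_fam_some, huv, map_mul, pkgmh_kronRot_C, map_mul]

include hN ht hint hu₁ hc₀ hc₀' hv huv hord in
/-- **the low coefficients are divisible by `c₀`** -/
theorem pkgmh_coeff_small (n : ℕ) (hn : n < N) (k : ℕ) :
    letI := polyAlgebra (K := Kb) t
    ∃ a ∈ A, ((minpoly Kb[X] u).coeff n).coeff k = c₀ * a := by
  letI := polyAlgebra (K := Kb) t
  obtain ⟨ζ, hζ⟩ := pkgtv_exists_primitiveRoot N (NeZero.ne N)
  have hinj := pkgmh_fam_injective N hN ζ hζ u (pkgmh_fricke_ne_zero N u hord) hord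
  have himg := pkgmh_coeff_image N hN A t ht ζ hζ u hint hinj n
  have hcS : algebraMap HnOmega HnOmegaBar (HahnSeries.C c₀) ∈ pkgtvS A :=
    pkgtv_mem_S.2 (kronInt_C hc₀)
  obtain ⟨a, ha, hcoef⟩ := pkgmh_coeff_lt (pkgtvS A) hcS (fun i => pkgtvFam N ζ i u)
    (pkgmh_fam_mem N A u hu₁ hc₀ v hv huv ζ hζ.pow_eq_one none)
    (pkgmh_fam_some_small N A u hc₀ v hv huv ζ hζ.pow_eq_one) n
    (by rw [Fintype.card_fin]; exact hn)
  obtain ⟨g, hg, rfl⟩ := Subring.mem_map.1 ha
  have hg' : KronInt A g := mem_intSub.1 hg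
  rw [hcoef, ← map_mul] at himg
  have h1 := hn_algebraMap_injective himg
  set d : Kb[X] := Polynomial.C c₀⁻¹ * (minpoly Kb[X] u).coeff n with hd
  have h2 : qExpand Kb N (Polynomial.aeval (t : LaurentSeries Kb) d) = g := by
    rw [hd, pkgmh_aeval_C_mul, map_mul, qExpand_C, h1, ← mul_assoc, ← map_mul,
      inv_mul_cancel₀ hc₀', map_one, one_mul]
  have h3 : KronInt A (Polynomial.aeval (t : LaurentSeries Kb) d) := by
    apply pkgtv_kronInt_of_qExpand A N
    rw [h2]
    exact hg'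
  refine ⟨d.coeff k, ht.coeff d h3 k, ?_⟩
  rw [hd, Polynomial.coeff_C_mul, ← mul_assoc, mul_inv_cancel₀ hc₀', one_mul]

include hN ht hint hu₁ hc₀ hc₀' hv huv hord in
/-- **the coefficient of index `N` is `-u` modulo `c₀`** -/
theorem pkgmh_coeff_top :
    letI := polyAlgebra (K := Kb) t
    KronInt A (HahnSeries.C c₀⁻¹ *
      (Polynomial.aeval (t : LaurentSeries Kb) ((minpoly Kb[X] u).coeff N) +
        (u : LaurentSeries Kb))) := by
  letI := polyAlgebra (K := Kb) t
  obtain ⟨ζ, hζ⟩ := pkgtv_exists_primitiveRoot N (NeZero.ne N)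
  have hinj := pkgmh_fam_injective N hN ζ hζ u (pkgmh_fricke_ne_zero N u hord) hord
  have himg := pkgmh_coeff_image N hN A t ht ζ hζ u hint hinj N
  have hcS : algebraMap HnOmega HnOmegaBar (HahnSeries.C c₀) ∈ pkgtvS A :=
    pkgtv_mem_S.2 (kronInt_C hc₀)
  obtain ⟨a, ha, hcoef⟩ := pkgmh_coeff_eq (pkgtvS A) hcS (fun i => pkgtvFam N ζ i u)
    (pkgmh_fam_mem N A u hu₁ hc₀ v hv huv ζ hζ.pow_eq_one none)
    (pkgmh_fam_some_small N A u hc₀ v hv huv ζ hζ.pow_eq_one)
  rw [Fintype.card_fin] at hcoef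
  obtain ⟨g, hg, rfl⟩ := Subring.mem_map.1 ha
  have hg' : KronInt A g := mem_intSub.1 hg
  rw [← himg, pkgmh_fam_none, ← map_add, ← map_mul, ← map_add] at hcoef
  have h1 := hn_algebraMap_injective hcoef
  apply pkgtv_kronInt_of_qExpand A N
  rw [map_mul, qExpand_C, h1, ← mul_assoc, ← map_mul, inv_mul_cancel₀ hc₀', map_one, one_mul]
  exact hg'

end Small

end Fermat.Agent.S15.LN

end
end ZBZ2S15_031_1
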